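-- GENERATED (merged mirror, NOTES/tools/trim/merge3_helper67.py): 11 modules of the originals, bodies verbatim.
import Mathlib
import Fermat.Prelude.Def_ModularCurve_ArithmeticGalois
import Fermat.Prelude.Def_ModularCurve_PeriodMap
import Fermat.Prelude.Def_ModularCurve_X0
import Fermat.Prelude.Def_ModularCurve_LaurentCoeff

-- ==== BEGIN Fermat.Agent.BAD.H82_Arch
section

/-!
# Item 65, package V2 (helper82): valuation rings of `Q̄` over a prime have rank one

`L` a field of characteristic `0`, algebraic over `ℚ` (every element is algebraic over `ℤ`),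
`A` a valuation subring of `L` such that the prime `q` is not a unit of `A`.

* `valuation_int_eq_one` : integers prime to `q` are units of `A`;
* `exists_pow_le_q` : `c ∈ m_A ⇒ ∃ i, q ∣ c ^ i` in `A`  (`v c ^ i ≤ v q`);
* `exists_q_pow_le` : `d ≠ 0 ⇒ ∃ k, d ∣ q ^ k` in `A`   (`v q ^ k ≤ v d`);
* `arch` : `c ∈ m_A`, `d ≠ 0` `⇒ ∃ m, c ^ m / d ∈ A`   (**rank one**).
-/

set_option autoImplicit false

noncomputable section

open Polynomial

namespace Fermat.Agent.BAD.H82

variable {L : Type*} [Field L] (A : ValuationSubring L)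

theorem aeval_int_mem {c : L} (hc : c ∈ A) (P : ℤ[X]) : aeval c P ∈ A := by
  induction P using Polynomial.induction_on' with
  | add p r hp hr => rw [map_add]; exact A.add_mem _ _ hp hr
  | monomial n a =>
    rw [aeval_monomial]
    refine A.mul_mem _ _ ?_ (pow_mem hc n)
    rw [eq_intCast]
    exact intCast_mem A a

theorem valuation_aeval_le_one {c : L} (hc : c ∈ A) (P : ℤ[X]) :
    A.valuation (aeval c P) ≤ 1 :=
  (A.valuation_le_one_iff _).2 (aeval_int_mem A hc P)

theorem valuation_int_le_one (a : ℤ) : A.valuation (a : L) ≤ 1 :=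
  (A.valuation_le_one_iff _).2 (intCast_mem A a)

variable {q : ℕ} (hq : q.Prime) (hA : (q : L) ∈ A.nonunits)

include hA in
theorem valuation_q_lt_one : A.valuation (q : L) < 1 :=
  (A.mem_nonunits_iff).1 hA

include hq hA in
/-- Integers prime to `q` are units of `A`. -/
theorem valuation_int_eq_one (u : ℤ) (hu : ¬ (q : ℤ) ∣ u) : A.valuation (u : L) = 1 := by
  have hcop : IsCoprime (q : ℤ) u := by
    rw [Int.isCoprime_iff_gcd_eq_one]
    have h1 : ¬ q ∣ u.natAbs := fun h => hu (Int.natCast_dvd.mpr h)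
    exact (Nat.Prime.coprime_iff_not_dvd hq).mpr h1
  obtain ⟨s, t, hst⟩ := hcop
  have h1 : (t : L) * (u : L) = 1 - (s : L) * (q : L) := by
    have := congrArg (fun z : ℤ => (z : L)) hst
    push_cast at this
    linear_combination this
  have h2 : A.valuation ((s : L) * (q : L)) < 1 := by
    rw [map_mul]
    calc A.valuation (s : L) * A.valuation (q : L)
        ≤ 1 * A.valuation (q : L) := mul_le_mul_left (valuation_int_le_one A s) _
      _ = A.valuation (q : L) := one_mul _
      _ < 1 := valuation_q_lt_one A hA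
  have h3 : A.valuation ((t : L) * (u : L)) = 1 := by
    rw [h1]
    exact Valuation.map_one_sub_of_lt _ h2
  rw [map_mul] at h3
  refine le_antisymm (valuation_int_le_one A u) ?_
  calc (1 : A.ValueGroup) = A.valuation (t : L) * A.valuation (u : L) := h3.symm
    _ ≤ 1 * A.valuation (u : L) := mul_le_mul_left (valuation_int_le_one A t) _
    _ = A.valuation (u : L) := one_mul _

include hq hA in
/-- `v (a) = v (q) ^ k` for a non-zero integer `a`, for some `k`. -/
theorem exists_valuation_int_eq (a : ℤ) (ha : a ≠ 0) :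
    ∃ k : ℕ, A.valuation (a : L) = A.valuation (q : L) ^ k := by
  obtain ⟨k, n', hn', hk⟩ := Nat.exists_eq_pow_mul_and_not_dvd (Int.natAbs_ne_zero.mpr ha) q
    hq.ne_one
  refine ⟨k, ?_⟩
  have h1 : A.valuation (a : L) = A.valuation ((a.natAbs : ℤ) : L) := by
    rcases Int.natAbs_eq a with h | h
    · rw [← h]
    · conv_lhs => rw [h]
      rw [Int.cast_neg, Valuation.map_neg]
  rw [h1, hk]
  push_cast
  rw [map_mul, map_pow]
  have h2 : A.valuation ((n' : ℕ) : L) = 1 := by
    have := valuation_int_eq_one A hq hA (n' : ℤ) (by exact_mod_cast hn')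
    simpa using this
  rw [h2, mul_one]

include hq hA in
/-- `d ∣ q ^ k` for some `k`, `d ≠ 0` algebraic. -/
theorem exists_q_pow_le {d : L} (hd : d ≠ 0) (halg : IsAlgebraic ℤ d) :
    ∃ k : ℕ, A.valuation (q : L) ^ k ≤ A.valuation d := by
  by_cases h1 : 1 ≤ A.valuation d
  · exact ⟨0, by rw [pow_zero]; exact h1⟩
  rw [not_le] at h1
  have hdA : d ∈ A := (A.valuation_le_one_iff _).1 h1.le
  obtain ⟨P, hP0, hP⟩ := halg.exists_nonzero_coeff_and_aeval_eq_zero
    (mem_nonZeroDivisors_of_ne_zero hd)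
  obtain ⟨k, hk⟩ := exists_valuation_int_eq A hq hA (P.coeff 0) hP0
  refine ⟨k, ?_⟩
  rw [← hk]
  have h2 : ((P.coeff 0 : ℤ) : L) = -(aeval d P.divX * d) := by
    have h3 := congrArg (aeval d) (divX_mul_X_add P)
    rw [map_add, map_mul, aeval_X, aeval_C, hP, eq_intCast] at h3
    linear_combination h3
  rw [h2, Valuation.map_neg, map_mul]
  calc A.valuation (aeval d P.divX) * A.valuation d
      ≤ 1 * A.valuation d := mul_le_mul_left (valuation_aeval_le_one A hdA _) _
    _ = A.valuation d := one_mul _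

include hq hA in
/-- `q ∣ c ^ i` for some `i`, `c ∈ m_A` algebraic. -/
theorem exists_pow_le_q [CharZero L] {c : L} (hc : A.valuation c < 1) (halg : IsAlgebraic ℤ c) :
    ∃ i : ℕ, A.valuation c ^ i ≤ A.valuation (q : L) := by
  have hcA : c ∈ A := (A.valuation_le_one_iff _).1 hc.le
  have : Fact q.Prime := ⟨hq⟩
  obtain ⟨P₀, hP₀, hP₀c⟩ := halg
  -- a primitive polynomial vanishing at `c`
  set P := P₀.primPart with hPdef
  have hPc : aeval c P = 0 := aeval_primPart_eq_zero hP₀ hP₀c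
  have hprim : P.IsPrimitive := isPrimitive_primPart P₀
  -- its reduction mod `q` is not zero
  set Pbar := P.map (Int.castRingHom (ZMod q)) with hPbar
  have hPbar0 : Pbar ≠ 0 := by
    intro h0
    have h1 : C (q : ℤ) ∣ P := by
      rw [C_dvd_iff_dvd_coeff]
      intro i
      have h2 : (Pbar.coeff i) = 0 := by rw [h0, coeff_zero]
      rw [hPbar, coeff_map, eq_intCast] at h2
      exact (ZMod.intCast_zmod_eq_zero_iff_dvd _ _).1 h2
    have h3 := (isPrimitive_iff_isUnit_of_C_dvd.1 hprim) _ h1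
    have h4 : (q : ℤ).natAbs = 1 := Int.isUnit_iff_natAbs_eq.1 h3
    rw [Int.natAbs_natCast] at h4
    exact hq.ne_one h4
  -- `Pbar = X ^ i * Qbar`, `Qbar (0) ≠ 0`
  obtain ⟨Qbar, hQ1, hQ2⟩ := exists_eq_pow_rootMultiplicity_mul_and_not_dvd Pbar hPbar0 0
  rw [C_0, sub_zero] at hQ1 hQ2
  set i := rootMultiplicity 0 Pbar with hi
  obtain ⟨Q, hQ⟩ := map_surjective (Int.castRingHom (ZMod q)) (ZMod.intCast_surjective) Qbar
  have hQ0 : ¬ (q : ℤ) ∣ Q.coeff 0 := by
    intro hdvd
    apply hQ2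
    rw [X_dvd_iff, ← hQ, coeff_map, eq_intCast]
    exact (ZMod.intCast_zmod_eq_zero_iff_dvd _ _).2 hdvd
  -- `P = X ^ i * Q + q R`
  have hdvd : C (q : ℤ) ∣ P - X ^ i * Q := by
    rw [C_dvd_iff_dvd_coeff]
    intro n
    apply (ZMod.intCast_zmod_eq_zero_iff_dvd _ _).1
    have h1 : ((P - X ^ i * Q).map (Int.castRingHom (ZMod q))).coeff n = 0 := by
      rw [Polynomial.map_sub, Polynomial.map_mul, Polynomial.map_pow, map_X, hQ, ← hPbar, hQ1,
        sub_self, coeff_zero]
    rwa [coeff_map, eq_intCast] at h1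
  obtain ⟨R, hR⟩ := hdvd
  -- evaluate at `c`
  have h1 : c ^ i * aeval c Q = -((q : L) * aeval c R) := by
    have h2 := congrArg (aeval c) hR
    rw [map_sub, map_mul, map_mul, map_pow, aeval_X, aeval_C, hPc, eq_intCast] at h2
    have h3 : ((q : ℤ) : L) = (q : L) := by push_cast; rfl
    rw [h3] at h2
    linear_combination -h2
  -- `Q (c)` is a unit
  have h2 : A.valuation (aeval c Q) = 1 := by
    have h3 := congrArg (aeval c) (divX_mul_X_add Q)
    rw [map_add, map_mul, aeval_X, aeval_C, eq_intCast] at h3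
    rw [← h3]
    have h4 : A.valuation (aeval c Q.divX * c) < 1 := by
      rw [map_mul]
      calc A.valuation (aeval c Q.divX) * A.valuation c
          ≤ 1 * A.valuation c := mul_le_mul_left (valuation_aeval_le_one A hcA _) _
        _ = A.valuation c := one_mul _
        _ < 1 := hc
    have h5 : A.valuation ((Q.coeff 0 : ℤ) : L) = 1 := valuation_int_eq_one A hq hA _ hQ0
    rw [add_comm]
    have := Valuation.map_add_eq_of_lt_left A.valuation (x := ((Q.coeff 0 : ℤ) : L))
      (y := aeval c Q.divX * c) (by rw [h5]; exact h4)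
    rw [this, h5]
  refine ⟨i, ?_⟩
  have h3 := congrArg A.valuation h1
  rw [map_mul, map_pow, h2, mul_one, Valuation.map_neg, map_mul] at h3
  rw [h3]
  calc A.valuation (q : L) * A.valuation (aeval c R)
      ≤ A.valuation (q : L) * 1 := mul_le_mul_right (valuation_aeval_le_one A hcA _) _
    _ = A.valuation (q : L) := mul_one _

include hq hA in
/-- **Rank one**: for `c` in the maximal ideal and `d ≠ 0`, some power of `c` is divisible by
`d` in `A`. -/
theorem arch_valuation [CharZero L] (halg : ∀ x : L, IsAlgebraic ℤ x) {c d : L}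
    (hc : A.valuation c < 1) (hd : d ≠ 0) :
    ∃ m : ℕ, A.valuation c ^ m ≤ A.valuation d := by
  obtain ⟨i, hi⟩ := exists_pow_le_q A hq hA hc (halg c)
  obtain ⟨k, hk⟩ := exists_q_pow_le A hq hA hd (halg d)
  refine ⟨i * k, ?_⟩
  rw [pow_mul]
  exact (pow_le_pow_left₀ zero_le hi k).trans hk

include hq hA in
/-- **Rank one**, membership form. -/
theorem arch [CharZero L] (halg : ∀ x : L, IsAlgebraic ℤ x) {c d : L}
    (hc : c ∈ A.nonunits) (hd : d ≠ 0) : ∃ m : ℕ, c ^ m / d ∈ A := by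
  obtain ⟨m, hm⟩ := arch_valuation A hq hA halg ((A.mem_nonunits_iff).1 hc) hd
  refine ⟨m, ?_⟩
  rw [← A.valuation_le_one_iff, map_div₀, map_pow]
  have hd0 : A.valuation d ≠ 0 := (Valuation.ne_zero_iff _).2 hd
  exact (div_le_one₀ (lt_of_le_of_ne zero_le hd0.symm)).2 hm

end Fermat.Agent.BAD.H82

end
end
-- ==== END Fermat.Agent.BAD.H82_Arch

-- ==== BEGIN Fermat.Agent.BAD.H82_Count
section

/-!
# Item 65, package V2 (helper82): counting linearly independent elements in a tower of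
intermediate fields
-/

set_option autoImplicit false

noncomputable section

namespace Fermat.Agent.BAD.H82

/-- A family of elements of `B'`, linearly independent over `A' ≤ B'` (stated inside the ambient
field), has at most `[B' : A']` elements. -/
theorem card_le_relfinrank {K L : Type*} [Field K] [Field L] [Algebra K L]
    (A' B' : IntermediateField K L) (h : A' ≤ B') (hfin : A'.relfinrank B' ≠ 0)
    {ι : Type*} [Fintype ι] (v : ι → L) (hv : ∀ i, v i ∈ B')
    (hli : ∀ g : ι → L, (∀ i, g i ∈ A') → ∑ i, g i * v i = 0 → ∀ i, g i = 0) :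
    Fintype.card ι ≤ A'.relfinrank B' := by
  rw [IntermediateField.relfinrank_eq_finrank_of_le h] at hfin ⊢
  have : Module.Finite ↥A' ↥(IntermediateField.extendScalars h) :=
    Module.finite_of_finrank_pos (Nat.pos_of_ne_zero hfin)
  let w : ι → ↥(IntermediateField.extendScalars h) := fun i => ⟨v i, hv i⟩
  have hw : LinearIndependent ↥A' w := by
    rw [Fintype.linearIndependent_iff]
    intro g hg i
    have h1 : ∑ i, ((g i : ↥A') : L) * v i = 0 := by
      have h2 := congrArg (fun x : ↥(IntermediateField.extendScalars h) => (x : L)) hg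
      simp only [AddSubmonoidClass.coe_finsetSum, ZeroMemClass.coe_zero] at h2
      rw [← h2]
      refine Finset.sum_congr rfl fun i _ => ?_
      rfl
    exact Subtype.ext (hli (fun i => ((g i : ↥A') : L)) (fun i => (g i).2) h1 i)
  exact hw.fintype_card_le_finrank

end Fermat.Agent.BAD.H82

end
end
-- ==== END Fermat.Agent.BAD.H82_Count

-- ==== BEGIN Fermat.Agent.Betti.Family
section
attribute [local instance 10000] SubalgebraClass.toAlgebra
attribute [local instance 10000] HahnSeries.powerSeriesAlgebra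

/-!
# Betti Hecke operators: the abstract transfer-type operator of a Hecke family

`Γ` is a group, `e : Γ →* G` an injective homomorphism into an ambient group `G` and
`rep : ι → G` a finite family of elements of `G` such that right multiplication by `e γ` permutes
the cosets `e(Γ) * rep i`, which are pairwise distinct (`IsHeckeFamily`).
Then `rep i * e γ = e (kap γ i) * rep (perm γ i)` defines `perm γ : ι → ι` and `kap γ i : Γ`, and for
a homomorphism `φ : Γ → A` into an abelian group the function `γ ↦ ∑ i, φ (kap γ i)` is again a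
homomorphism: the Betti Hecke operator `heckeOp`.

Main results:
* `IsHeckeFamily.kap_mul`, `IsHeckeFamily.perm_mul`: the cocycle identities;
* `IsHeckeFamily.heckeOp`: the operator, additive in `φ`, `heckeOpLin` linear in `φ`;
* `IsHeckeFamily.heckeOp_eq_of_twist`: independence of the representatives and compatibility with
  automorphisms (used for the involution `charInvolution`);
* `IsHeckeFamily.heckeOp_vanishes`: if `φ` vanishes on a class `P` of elements stable under
  powers and under "`G`-conjugation inside `Γ`", and `A` is torsion free, then so does `heckeOp φ`.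
-/

set_option autoImplicit false

namespace Fermat.Agent.Betti

open Finset

variable {Γ G : Type*} [Group Γ] [Group G] (e : Γ →* G) {ι : Type*} (rep : ι → G)

/-- A family of elements of `G` whose `Γ`-cosets are pairwise distinct and permuted by right
multiplication by `Γ`. -/
structure IsHeckeFamily : Prop where
  exists_mul : ∀ (γ : Γ) (i : ι), ∃ (j : ι) (κ : Γ), rep i * e γ = e κ * rep j
  inj : ∀ (i j : ι) (ε : Γ), rep i = e ε * rep j → i = j

namespace IsHeckeFamily

variable {e rep} (H : IsHeckeFamily e rep)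

/-- The permutation of the index set induced by right multiplication by `γ`. -/
noncomputable def perm (γ : Γ) (i : ι) : ι := (H.exists_mul γ i).choose

/-- The element `κ_i(γ) ∈ Γ` with `rep i * γ = κ_i(γ) * rep (perm γ i)`. -/
noncomputable def kap (γ : Γ) (i : ι) : Γ := (H.exists_mul γ i).choose_spec.choose

theorem rep_mul (γ : Γ) (i : ι) : rep i * e γ = e (H.kap γ i) * rep (H.perm γ i) :=
  (H.exists_mul γ i).choose_spec.choose_spec

include H in
theorem unique (he : Function.Injective e) {γ : Γ} {i j : ι} {κ : Γ}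
    (h : rep i * e γ = e κ * rep j) : j = H.perm γ i ∧ κ = H.kap γ i := by
  have h1 := H.rep_mul γ i
  rw [h] at h1
  have h2 : rep j = e (κ⁻¹ * H.kap γ i) * rep (H.perm γ i) := by
    rw [map_mul, map_inv, mul_assoc, ← h1, inv_mul_cancel_left]
  have hj : j = H.perm γ i := H.inj _ _ _ h2
  refine ⟨hj, ?_⟩
  subst hj
  have h3 : e κ = e (H.kap γ i) := mul_right_cancel h1
  exact he h3

theorem perm_mul (he : Function.Injective e) (γ δ : Γ) (i : ι) :
    H.perm (γ * δ) i = H.perm δ (H.perm γ i) := by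
  have h : rep i * e (γ * δ) = e (H.kap γ i * H.kap δ (H.perm γ i)) * rep (H.perm δ (H.perm γ i)) := by
    rw [map_mul, ← mul_assoc, H.rep_mul γ i, mul_assoc, H.rep_mul δ, ← mul_assoc, map_mul]
  exact (H.unique he h).1.symm

theorem kap_mul (he : Function.Injective e) (γ δ : Γ) (i : ι) :
    H.kap (γ * δ) i = H.kap γ i * H.kap δ (H.perm γ i) := by
  have h : rep i * e (γ * δ) = e (H.kap γ i * H.kap δ (H.perm γ i)) * rep (H.perm δ (H.perm γ i)) := by
    rw [map_mul, ← mul_assoc, H.rep_mul γ i, mul_assoc, H.rep_mul δ, ← mul_assoc, map_mul]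
  have h' := h
  rw [← H.perm_mul he γ δ i] at h'
  exact (H.unique he h').2.symm

theorem perm_one (he : Function.Injective e) (i : ι) : H.perm 1 i = i := by
  have h : rep i * e 1 = e 1 * rep i := by simp
  exact (H.unique he h).1.symm

theorem kap_one (he : Function.Injective e) (i : ι) : H.kap 1 i = 1 := by
  have h : rep i * e 1 = e 1 * rep i := by simp
  exact (H.unique he h).2.symm

/-- `perm γ` as a permutation. -/
noncomputable def permEquiv (he : Function.Injective e) (γ : Γ) : Equiv.Perm ι where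
  toFun := H.perm γ
  invFun := H.perm γ⁻¹
  left_inv i := by rw [← H.perm_mul he, mul_inv_cancel, H.perm_one he]
  right_inv i := by rw [← H.perm_mul he, inv_mul_cancel, H.perm_one he]

@[simp] theorem permEquiv_apply (he : Function.Injective e) (γ : Γ) (i : ι) :
    H.permEquiv he γ i = H.perm γ i := rfl

theorem perm_pow (he : Function.Injective e) (γ : Γ) (n : ℕ) (i : ι) :
    H.perm (γ ^ n) i = (H.perm γ)^[n] i := by
  induction n generalizing i with
  | zero => simp [H.perm_one he]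
  | succ n ih =>
    rw [pow_succ', H.perm_mul he, ih, Function.iterate_succ_apply]

theorem permEquiv_pow (he : Function.Injective e) (γ : Γ) (n : ℕ) :
    H.permEquiv he (γ ^ n) = (H.permEquiv he γ) ^ n := by
  ext i
  rw [permEquiv_apply, H.perm_pow he, Equiv.Perm.coe_pow]
  rfl

section Operator

variable [Fintype ι] {A : Type*} [AddCommGroup A]

/-- The Betti Hecke operator of a Hecke family on homomorphisms `Γ → A`. -/
noncomputable def heckeOp (he : Function.Injective e) (φ : Additive Γ →+ A) : Additive Γ →+ A where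
  toFun γ := ∑ i, φ (Additive.ofMul (H.kap (Additive.toMul γ) i))
  map_zero' := by
    show ∑ i, φ (Additive.ofMul (H.kap 1 i)) = 0
    simp [H.kap_one he]
  map_add' γ δ := by
    show ∑ i, φ (Additive.ofMul (H.kap (Additive.toMul γ * Additive.toMul δ) i)) = _
    simp only [H.kap_mul he, ofMul_mul, map_add, sum_add_distrib]
    congr 1
    exact Equiv.sum_comp (H.permEquiv he (Additive.toMul γ))
      (fun i => φ (Additive.ofMul (H.kap (Additive.toMul δ) i)))

theorem heckeOp_apply (he : Function.Injective e) (φ : Additive Γ →+ A) (γ : Γ) :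
    H.heckeOp he φ (Additive.ofMul γ) = ∑ i, φ (Additive.ofMul (H.kap γ i)) := rfl

theorem heckeOp_add (he : Function.Injective e) (φ ψ : Additive Γ →+ A) :
    H.heckeOp he (φ + ψ) = H.heckeOp he φ + H.heckeOp he ψ := by
  refine AddMonoidHom.ext fun γ => ?_
  show ∑ i, (φ + ψ) _ = (∑ i, φ _) + ∑ i, ψ _
  simp [sum_add_distrib]

theorem heckeOp_zero (he : Function.Injective e) :
    H.heckeOp he (0 : Additive Γ →+ A) = 0 := by
  refine AddMonoidHom.ext fun γ => ?_
  show ∑ i, (0 : Additive Γ →+ A) _ = 0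
  simp

/-- The Betti Hecke operator as a linear map. -/
noncomputable def heckeOpLin (he : Function.Injective e) (R : Type*) [Semiring R] [Module R A] :
    (Additive Γ →+ A) →ₗ[R] (Additive Γ →+ A) where
  toFun := H.heckeOp he
  map_add' := H.heckeOp_add he
  map_smul' c φ := by
    refine AddMonoidHom.ext fun γ => ?_
    show ∑ i, (c • φ) _ = c • ∑ i, φ _
    simp [smul_sum]

@[simp] theorem heckeOpLin_apply (he : Function.Injective e) (R : Type*) [Semiring R] [Module R A]
    (φ : Additive Γ →+ A) : H.heckeOpLin he R φ = H.heckeOp he φ := rfl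

/-- Post-composition with a homomorphism of coefficient groups commutes with the Hecke operator. -/
theorem heckeOp_comp (he : Function.Injective e) {B : Type*} [AddCommGroup B] (u : A →+ B)
    (φ : Additive Γ →+ A) : H.heckeOp he (u.comp φ) = u.comp (H.heckeOp he φ) := by
  refine AddMonoidHom.ext fun γ => ?_
  show ∑ i, u (φ _) = u (∑ i, φ _)
  rw [map_sum]

end Operator

section Twist

variable [Fintype ι] {A : Type*} [AddCommGroup A]
variable {ι' : Type*} [Fintype ι'] {rep' : ι' → G} (H' : IsHeckeFamily e rep')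

/-- Independence of the representatives, twisted by automorphisms: if `Θ : G → G` and
`θ : Γ → Γ` are compatible homomorphisms and `Θ (rep i) = e (ε i) * rep' (π i)` for a bijection
`π`, then `heckeOp' (φ) ∘ θ = heckeOp (φ ∘ θ)`. -/
theorem heckeOp_eq_of_twist (he : Function.Injective e) (Θ : G →* G) (θ : Γ →* Γ)
    (hΘ : ∀ γ, Θ (e γ) = e (θ γ)) (π : ι ≃ ι') (ε : ι → Γ)
    (hrep : ∀ i, Θ (rep i) = e (ε i) * rep' (π i)) (φ : Additive Γ →+ A) :
    (H'.heckeOp he φ).comp (MonoidHom.toAdditive θ) =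
      H.heckeOp he (φ.comp (MonoidHom.toAdditive θ)) := by
  refine AddMonoidHom.ext fun γ => ?_
  obtain ⟨γ, rfl⟩ : ∃ g : Γ, Additive.ofMul g = γ := ⟨Additive.toMul γ, rfl⟩
  show ∑ j, φ (Additive.ofMul (H'.kap (θ γ) j)) = ∑ i, φ (Additive.ofMul (θ (H.kap γ i)))
  -- key identity
  have key : ∀ i, π (H.perm γ i) = H'.perm (θ γ) (π i) ∧
      (ε i)⁻¹ * θ (H.kap γ i) * ε (H.perm γ i) = H'.kap (θ γ) (π i) := by
    intro i
    have h1 := congrArg Θ (H.rep_mul γ i)
    rw [map_mul, map_mul, hrep, hΘ, hΘ, hrep] at h1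
    have h2 : rep' (π i) * e (θ γ)
        = e ((ε i)⁻¹ * θ (H.kap γ i) * ε (H.perm γ i)) * rep' (π (H.perm γ i)) := by
      have h3 : rep' (π i) * e (θ γ) = (e (ε i))⁻¹ * (e (ε i) * rep' (π i) * e (θ γ)) := by
        group
      rw [h3, h1, map_mul, map_mul, map_inv]
      simp only [mul_assoc]
    exact ⟨(H'.unique he h2).1, (H'.unique he h2).2⟩
  rw [← Equiv.sum_comp π]
  have hterm : ∀ i, φ (Additive.ofMul (H'.kap (θ γ) (π i)))
      = φ (Additive.ofMul (θ (H.kap γ i))) - φ (Additive.ofMul (ε i))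
        + φ (Additive.ofMul (ε (H.perm γ i))) := by
    intro i
    rw [← (key i).2]
    simp only [ofMul_mul, ofMul_inv, map_add, map_neg]
    abel
  simp only [hterm, sum_add_distrib, sum_sub_distrib]
  have hperm : ∑ i, φ (Additive.ofMul (ε (H.perm γ i))) = ∑ i, φ (Additive.ofMul (ε i)) :=
    Equiv.sum_comp (H.permEquiv he γ) (fun i => φ (Additive.ofMul (ε i)))
  rw [hperm]
  abel

end Twist

section Vanishing

variable [Fintype ι] {A : Type*} [AddCommGroup A]

theorem sum_kap_pow (he : Function.Injective e) (φ : Additive Γ →+ A) (γ : Γ) (n : ℕ) :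
    ∑ i, φ (Additive.ofMul (H.kap (γ ^ n) i)) = n • ∑ i, φ (Additive.ofMul (H.kap γ i)) := by
  induction n with
  | zero => simp [H.kap_one he]
  | succ n ih =>
    have h : ∀ i, φ (Additive.ofMul (H.kap (γ ^ (n + 1)) i))
        = φ (Additive.ofMul (H.kap (γ ^ n) i))
          + φ (Additive.ofMul (H.kap γ (H.perm (γ ^ n) i))) := by
      intro i
      rw [pow_succ, H.kap_mul he, ofMul_mul, map_add]
    simp only [h, sum_add_distrib, ih]
    have hperm : ∑ i, φ (Additive.ofMul (H.kap γ (H.perm (γ ^ n) i)))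
        = ∑ i, φ (Additive.ofMul (H.kap γ i)) :=
      Equiv.sum_comp (H.permEquiv he (γ ^ n)) (fun i => φ (Additive.ofMul (H.kap γ i)))
    rw [hperm, succ_nsmul]

/-- If `φ` vanishes on a set `P ⊆ Γ` such that `κ ∈ P` whenever `rep i * e (γ ^ n) = e κ * rep i`
with `γ ∈ P` and `0 < n`, then the Hecke operator of `φ` vanishes on `P`, provided `A` is
torsion free. -/
theorem heckeOp_vanishes [IsAddTorsionFree A] (he : Function.Injective e) (P : Set Γ)
    (hP : ∀ γ ∈ P, ∀ n : ℕ, 0 < n → ∀ (i : ι) (κ : Γ), rep i * e (γ ^ n) = e κ * rep i → κ ∈ P)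
    (φ : Additive Γ →+ A) (hφ : ∀ γ ∈ P, φ (Additive.ofMul γ) = 0) :
    ∀ γ ∈ P, H.heckeOp he φ (Additive.ofMul γ) = 0 := by
  intro γ hγ
  rw [heckeOp_apply]
  -- a positive power of `perm γ` is the identity
  obtain ⟨n, hn, hpow⟩ : ∃ n : ℕ, 0 < n ∧ (H.permEquiv he γ) ^ n = 1 :=
    ⟨orderOf (H.permEquiv he γ), orderOf_pos _, pow_orderOf_eq_one _⟩
  have hfix : ∀ i, H.perm (γ ^ n) i = i := by
    intro i
    have := congrArg (fun s : Equiv.Perm ι => s i) ((H.permEquiv_pow he γ n).trans hpow)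
    simpa using this
  have hzero : ∑ i, φ (Additive.ofMul (H.kap (γ ^ n) i)) = 0 := by
    refine Finset.sum_eq_zero fun i _ => hφ _ (hP γ hγ n hn i _ ?_)
    have := H.rep_mul (γ ^ n) i
    rwa [hfix] at this
  rw [H.sum_kap_pow he] at hzero
  exact (nsmul_right_injective hn.ne') (by simpa using hzero)

end Vanishing

end IsHeckeFamily

end Fermat.Agent.Betti

end
-- ==== END Fermat.Agent.Betti.Family

-- ==== BEGIN Fermat.Agent.Betti.H41_AbsLift
section

/-!
# ABS-LIFT (helper41): lifting homomorphisms `Q → ℤ/n` to `Q → ℤ` by counting mod primes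

Let `Q` be an additive group, `P ⊆ Q` a set and `b : Fin r → (Q →+ ℤ)` a `ℤ`-basis of the group of
homomorphisms `Q → ℤ` vanishing on `P`.  If for every prime `ℓ` the set of homomorphisms
`Q → ℤ/ℓ` vanishing on `P` is finite with at most `ℓ ^ r` elements, then for every `n` every
homomorphism `Q → ℤ/n` vanishing on `P` is the reduction of a homomorphism `Q → ℤ` vanishing on `P`.

* `H41.exists_lift_prime` : the case `n = ℓ` prime;
* `H41.exists_lift`       : the general case (strong induction on `n`).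
-/

set_option autoImplicit false

namespace Fermat.Agent.Betti.H41

variable {Q : Type} [AddGroup Q]

/-- The integral combination `x ↦ ∑ i, c i * b i x`. -/
noncomputable def comb {r : ℕ} (b : Fin r → (Q →+ ℤ)) (c : Fin r → ℤ) : Q →+ ℤ :=
  ∑ i, c i • b i

theorem comb_apply {r : ℕ} (b : Fin r → (Q →+ ℤ)) (c : Fin r → ℤ) (x : Q) :
    comb b c x = ∑ i, c i * b i x := by
  simp [comb, AddMonoidHom.finsetSum_apply]

/-- Reduction mod `n` of an integral homomorphism. -/
noncomputable def red (n : ℕ) (φ : Q →+ ℤ) : Q →+ ZMod n :=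
  (Int.castAddHom (ZMod n)).comp φ

@[simp] theorem red_apply (n : ℕ) (φ : Q →+ ℤ) (x : Q) : red n φ x = ((φ x : ℤ) : ZMod n) := rfl

/-- Division by `ℓ` of a homomorphism all of whose values are divisible by `ℓ`. -/
noncomputable def divHom (ℓ : ℤ) (φ : Q →+ ℤ) (h : ∀ x, ℓ ∣ φ x) : Q →+ ℤ where
  toFun x := φ x / ℓ
  map_zero' := by simp
  map_add' x y := by
    rw [map_add]
    exact Int.add_ediv_of_dvd_left (h x)

theorem divHom_apply (ℓ : ℤ) (φ : Q →+ ℤ) (h : ∀ x, ℓ ∣ φ x) (x : Q) :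
    ℓ * divHom ℓ φ h x = φ x :=
  Int.mul_ediv_cancel' (h x)

section Prime

variable (P : Set Q) {r : ℕ} (b : Fin r → (Q →+ ℤ))

/-- The basis hypotheses used below (a weak form of `IsParBasis`). -/
structure IsBasisKilling : Prop where
  kills : ∀ i, ∀ x ∈ P, b i x = 0
  span : ∀ φ : Q →+ ℤ, (∀ x ∈ P, φ x = 0) → ∃ a : Fin r → ℤ, ∀ x, φ x = ∑ i, a i * b i x
  indep : ∀ a : Fin r → ℤ, (∀ x, ∑ i, a i * b i x = 0) → a = 0

variable {P b}

theorem IsBasisKilling.comb_kills (hb : IsBasisKilling P b) (c : Fin r → ℤ) :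
    ∀ x ∈ P, comb b c x = 0 := by
  intro x hx
  rw [comb_apply]
  exact Finset.sum_eq_zero fun i _ => by rw [hb.kills i x hx, mul_zero]

/-- Saturation: if an integral combination of the basis is divisible by `ℓ ≠ 0`, so are its
coefficients. -/
theorem IsBasisKilling.dvd_of_dvd (hb : IsBasisKilling P b) {ℓ : ℤ} (hℓ : ℓ ≠ 0)
    (c : Fin r → ℤ) (h : ∀ x, ℓ ∣ comb b c x) : ∀ i, ℓ ∣ c i := by
  have hk : ∀ x ∈ P, divHom ℓ (comb b c) h x = 0 := by
    intro x hx
    have h1 := divHom_apply ℓ (comb b c) h x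
    rw [hb.comb_kills c x hx] at h1
    rcases mul_eq_zero.mp h1 with h2 | h2
    · exact absurd h2 hℓ
    · exact h2
  obtain ⟨d, hd⟩ := hb.span _ hk
  have hz : (fun i => c i - ℓ * d i) = 0 := by
    apply hb.indep
    intro x
    have h1 := divHom_apply ℓ (comb b c) h x
    rw [hd x, comb_apply] at h1
    calc ∑ i, (c i - ℓ * d i) * b i x
        = ∑ i, c i * b i x - ℓ * ∑ i, d i * b i x := by
          rw [Finset.mul_sum, ← Finset.sum_sub_distrib]
          exact Finset.sum_congr rfl fun i _ => by ring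
      _ = 0 := by rw [h1]; ring
  intro i
  have := congrFun hz i
  simp only [Pi.zero_apply, sub_eq_zero] at this
  exact ⟨d i, this⟩

/-- The homomorphisms `Q → ℤ/ℓ` vanishing on `P`. -/
abbrev KillMod (P : Set Q) (n : ℕ) : Type := {χ : Q →+ ZMod n // ∀ x ∈ P, χ x = 0}

/-- **Prime case**: if there are at most `ℓ ^ r` homomorphisms `Q → ℤ/ℓ` vanishing on `P`, every
one of them is the reduction of an integral one. -/
theorem exists_lift_prime (hb : IsBasisKilling P b) {ℓ : ℕ} (hℓ : ℓ.Prime)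
    [Finite (KillMod P ℓ)] (hcount : Nat.card (KillMod P ℓ) ≤ ℓ ^ r)
    (χ : Q →+ ZMod ℓ) (hχ : ∀ x ∈ P, χ x = 0) :
    ∃ φ : Q →+ ℤ, (∀ x ∈ P, φ x = 0) ∧ ∀ x, ((φ x : ℤ) : ZMod ℓ) = χ x := by
  have : Fact ℓ.Prime := ⟨hℓ⟩
  have : NeZero ℓ := ⟨hℓ.ne_zero⟩
  -- the reduction map on coefficient vectors
  let lift : ZMod ℓ → ℤ := fun a => (a.val : ℤ)
  have hlift : ∀ a : ZMod ℓ, ((lift a : ℤ) : ZMod ℓ) = a := by
    intro a
    simp [lift]
  let R : (Fin r → ZMod ℓ) → KillMod P ℓ := fun a =>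
    ⟨red ℓ (comb b (fun i => lift (a i))), fun x hx => by
      rw [red_apply, hb.comb_kills _ x hx, Int.cast_zero]⟩
  have hR : Function.Injective R := by
    intro a a' h
    have h1 : ∀ x, ((comb b (fun i => lift (a i)) x : ℤ) : ZMod ℓ)
        = ((comb b (fun i => lift (a' i)) x : ℤ) : ZMod ℓ) := by
      intro x
      have := congrArg (fun χ : KillMod P ℓ => χ.1 x) h
      simpa [R] using this
    have h2 : ∀ x, (ℓ : ℤ) ∣ comb b (fun i => lift (a i) - lift (a' i)) x := by
      intro x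
      have h3 : comb b (fun i => lift (a i) - lift (a' i)) x
          = comb b (fun i => lift (a i)) x - comb b (fun i => lift (a' i)) x := by
        simp only [comb_apply, ← Finset.sum_sub_distrib]
        exact Finset.sum_congr rfl fun i _ => by ring
      rw [h3, ← ZMod.intCast_zmod_eq_zero_iff_dvd, Int.cast_sub, h1 x, sub_self]
    have h4 := hb.dvd_of_dvd (ℓ := (ℓ : ℤ)) (by exact_mod_cast hℓ.ne_zero) _ h2
    funext i
    have h5 := (ZMod.intCast_zmod_eq_zero_iff_dvd _ ℓ).mpr (h4 i)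
    rw [Int.cast_sub, hlift, hlift, sub_eq_zero] at h5
    exact h5
  have hcard : Nat.card (KillMod P ℓ) ≤ Nat.card (Fin r → ZMod ℓ) := by
    have h6 : Nat.card (Fin r → ZMod ℓ) = ℓ ^ r := by
      rw [Nat.card_eq_fintype_card, Fintype.card_fun, ZMod.card, Fintype.card_fin]
    rw [h6]
    exact hcount
  have hbij := hR.bijective_of_nat_card_le hcard
  obtain ⟨a, ha⟩ := hbij.2 ⟨χ, hχ⟩
  refine ⟨comb b (fun i => lift (a i)), hb.comb_kills _, fun x => ?_⟩
  have := congrArg (fun χ : KillMod P ℓ => χ.1 x) ha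
  simpa [R] using this

end Prime

/-! ### Multiplication by `ℓ` from `ℤ/m` to `ℤ/(ℓ m)` -/

/-- `ℤ/m → ℤ/(ℓ m)`, `k ↦ ℓ k`. -/
noncomputable def mulHom (ℓ m : ℕ) : ZMod m →+ ZMod (ℓ * m) :=
  ZMod.lift m ⟨(AddMonoidHom.mulLeft (ℓ : ZMod (ℓ * m))).comp (Int.castAddHom (ZMod (ℓ * m))), by
    show (ℓ : ZMod (ℓ * m)) * ((m : ℤ) : ZMod (ℓ * m)) = 0
    have : ((ℓ * m : ℕ) : ZMod (ℓ * m)) = 0 := ZMod.natCast_self _
    push_cast at this ⊢
    exact this⟩

theorem mulHom_intCast (ℓ m : ℕ) (k : ℤ) :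
    mulHom ℓ m (k : ZMod m) = ((ℓ * k : ℤ) : ZMod (ℓ * m)) := by
  rw [mulHom, ZMod.lift_coe]
  simp

theorem mulHom_injective (ℓ m : ℕ) (hℓ : ℓ ≠ 0) : Function.Injective (mulHom ℓ m) := by
  rw [injective_iff_map_eq_zero]
  intro a ha
  obtain ⟨k, rfl⟩ := ZMod.intCast_surjective a
  rw [mulHom_intCast, ZMod.intCast_zmod_eq_zero_iff_dvd] at ha
  rw [ZMod.intCast_zmod_eq_zero_iff_dvd]
  push_cast at ha
  exact Int.dvd_of_mul_dvd_mul_left (by exact_mod_cast hℓ) ha

theorem mem_range_mulHom (ℓ m : ℕ) (y : ZMod (ℓ * m))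
    (hy : ZMod.castHom (Dvd.intro m rfl : ℓ ∣ ℓ * m) (ZMod ℓ) y = 0) :
    y ∈ (mulHom ℓ m).range := by
  obtain ⟨k, rfl⟩ := ZMod.intCast_surjective y
  rw [map_intCast, ZMod.intCast_zmod_eq_zero_iff_dvd] at hy
  obtain ⟨j, rfl⟩ := hy
  exact ⟨(j : ZMod m), by rw [mulHom_intCast]⟩

/-! ### The general case -/

/-- **ABS-LIFT**: if `b` is a basis of the homomorphisms `Q → ℤ` vanishing on `P` and for every
prime `ℓ` there are at most `ℓ ^ r` homomorphisms `Q → ℤ/ℓ` vanishing on `P`, then every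
homomorphism `Q → ℤ/n` vanishing on `P` lifts to a homomorphism `Q → ℤ` vanishing on `P`. -/
theorem exists_lift {P : Set Q} {r : ℕ} {b : Fin r → (Q →+ ℤ)} (hb : IsBasisKilling P b)
    (hcount : ∀ ℓ : ℕ, ℓ.Prime → Finite (KillMod P ℓ) ∧ Nat.card (KillMod P ℓ) ≤ ℓ ^ r) :
    ∀ (n : ℕ) (χ : Q →+ ZMod n), (∀ x ∈ P, χ x = 0) →
      ∃ φ : Q →+ ℤ, (∀ x ∈ P, φ x = 0) ∧ ∀ x, ((φ x : ℤ) : ZMod n) = χ x := by
  intro n
  induction n using Nat.strong_induction_on with
  | _ n ih =>
    intro χ hχ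
    rcases Nat.eq_zero_or_pos n with h0 | hpos
    · subst h0
      refine ⟨(ZMod.castHom (dvd_refl 0) ℤ).toAddMonoidHom.comp χ, fun x hx => ?_, fun x => ?_⟩
      · show (ZMod.castHom (dvd_refl 0) ℤ) (χ x) = 0
        rw [hχ x hx, map_zero]
      · show (((ZMod.castHom (dvd_refl 0) ℤ) (χ x) : ℤ) : ZMod 0) = χ x
        rw [ZMod.castHom_apply]
        exact ZMod.intCast_zmod_cast (χ x)
    rcases Nat.lt_or_ge n 2 with h1 | h2
    · have : n = 1 := by omega
      subst this
      exact ⟨0, fun _ _ => rfl, fun x => Subsingleton.elim _ _⟩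
    obtain ⟨ℓ, hℓ, hdvd⟩ := Nat.exists_prime_and_dvd (by omega : n ≠ 1)
    obtain ⟨m, rfl⟩ := hdvd
    have hm : 0 < m := Nat.pos_of_mul_pos_left hpos |> fun h => by
      rcases Nat.eq_zero_or_pos m with h | h
      · simp [h] at hpos
      · exact h
    have hmlt : m < ℓ * m := by
      have := hℓ.two_le
      nlinarith
    -- step 1: lift mod `ℓ`
    let c := ZMod.castHom (Dvd.intro m rfl : ℓ ∣ ℓ * m) (ZMod ℓ)
    obtain ⟨hfin, hcard⟩ := hcount ℓ hℓ
    obtain ⟨φ₁, hφ₁P, hφ₁⟩ := exists_lift_prime hb hℓ hcard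
      (c.toAddMonoidHom.comp χ) (fun x hx => by
        show c (χ x) = 0
        rw [hχ x hx, map_zero])
    -- step 2: the difference is divisible by `ℓ`
    let ψ : Q →+ ZMod (ℓ * m) := χ - red (ℓ * m) φ₁
    have hψrange : ∀ x, ψ x ∈ (mulHom ℓ m).range := by
      intro x
      apply mem_range_mulHom ℓ m
      show c (χ x - ((φ₁ x : ℤ) : ZMod (ℓ * m))) = 0
      rw [map_sub, map_intCast, hφ₁ x]
      exact sub_self _
    let e := AddMonoidHom.ofInjective (mulHom_injective ℓ m hℓ.ne_zero)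
    let ψ' : Q →+ ZMod m := e.symm.toAddMonoidHom.comp (ψ.codRestrict (mulHom ℓ m).range hψrange)
    have hψ' : ∀ x, mulHom ℓ m (ψ' x) = ψ x := by
      intro x
      exact AddMonoidHom.apply_ofInjective_symm (mulHom_injective ℓ m hℓ.ne_zero) _
    have hψ'P : ∀ x ∈ P, ψ' x = 0 := by
      intro x hx
      apply mulHom_injective ℓ m hℓ.ne_zero
      rw [hψ' x, map_zero]
      show χ x - ((φ₁ x : ℤ) : ZMod (ℓ * m)) = 0
      rw [hχ x hx, hφ₁P x hx, Int.cast_zero, sub_zero]
    obtain ⟨φ₂, hφ₂P, hφ₂⟩ := ih m hmlt ψ' hψ'P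
    refine ⟨φ₁ + (ℓ : ℤ) • φ₂, fun x hx => ?_, fun x => ?_⟩
    · show φ₁ x + (ℓ : ℤ) • φ₂ x = 0
      rw [hφ₁P x hx, hφ₂P x hx, smul_zero, add_zero]
    · show (((φ₁ x + (ℓ : ℤ) • φ₂ x : ℤ)) : ZMod (ℓ * m)) = χ x
      have h3 := hψ' x
      rw [← hφ₂ x, mulHom_intCast] at h3
      have h4 : ψ x = χ x - ((φ₁ x : ℤ) : ZMod (ℓ * m)) := rfl
      rw [h4] at h3
      rw [smul_eq_mul, Int.cast_add, h3]
      ring

end Fermat.Agent.Betti.H41

end
-- ==== END Fermat.Agent.Betti.H41_AbsLift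

-- ==== BEGIN Fermat.Agent.Betti.H77_CycCob
section

/-!
# Cyclic coboundaries (helper77, package TORSLIFT)

`cyc_cob`: let `σ` be a permutation of a finite set `X` and `c : X → A` a function into an
abelian group whose sums along all closed `σ`-paths vanish.  Then `c = v ∘ σ - v` for some
`v : X → A`.  (No divisibility in `A` is needed: this replaces the averaging argument
`H¹(finite group, ℂ-module) = 0` when the coefficients are `ℤ/m` or a finite field.)
-/

set_option autoImplicit false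

namespace Fermat.Agent.Betti.H77

open Finset

variable {X : Type*} {A : Type*} [AddCommGroup A]

/-- partial sums of `c` along the `σ`-path starting at `r` -/
def psum (σ : Equiv.Perm X) (c : X → A) (r : X) (k : ℕ) : A :=
  ∑ i ∈ range k, c ((σ ^ i) r)

lemma psum_zero (σ : Equiv.Perm X) (c : X → A) (r : X) : psum σ c r 0 = 0 := by
  simp [psum]

lemma psum_succ (σ : Equiv.Perm X) (c : X → A) (r : X) (k : ℕ) :
    psum σ c r (k + 1) = psum σ c r k + c ((σ ^ k) r) := by
  simp [psum, sum_range_succ]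

lemma psum_add (σ : Equiv.Perm X) (c : X → A) (r : X) (k m : ℕ) :
    psum σ c r (k + m) = psum σ c r k + psum σ c ((σ ^ k) r) m := by
  unfold psum
  rw [sum_range_add]
  congr 1
  refine sum_congr rfl fun i _ => ?_
  rw [← Equiv.Perm.mul_apply, ← pow_add, add_comm]

lemma psum_eq_of_pow_eq (σ : Equiv.Perm X) (c : X → A)
    (h : ∀ q : X, ∀ n : ℕ, 0 < n → (σ ^ n) q = q → ∑ i ∈ range n, c ((σ ^ i) q) = 0)
    {r : X} {k k' : ℕ} (hk : (σ ^ k) r = (σ ^ k') r) : psum σ c r k = psum σ c r k' := by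
  wlog hle : k ≤ k' generalizing k k'
  · exact (this hk.symm (le_of_not_ge hle)).symm
  obtain ⟨m, rfl⟩ := Nat.exists_eq_add_of_le hle
  rw [psum_add]
  rcases Nat.eq_zero_or_pos m with rfl | hm
  · simp [psum]
  · have h1 : (σ ^ m) ((σ ^ k) r) = (σ ^ k) r := by
      rw [← Equiv.Perm.mul_apply, ← pow_add, add_comm]
      exact hk.symm
    have h2 : psum σ c ((σ ^ k) r) m = 0 := h _ m hm h1
    rw [h2, add_zero]

/-- **Cyclic coboundary lemma.** -/
theorem cyc_cob [Finite X] (σ : Equiv.Perm X) (c : X → A)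
    (h : ∀ q : X, ∀ n : ℕ, 0 < n → (σ ^ n) q = q → ∑ i ∈ range n, c ((σ ^ i) q) = 0) :
    ∃ v : X → A, ∀ q, v (σ q) - v q = c q := by
  classical
  let s : Setoid X := Equiv.Perm.SameCycle.setoid σ
  let r : X → X := fun q => Quotient.out (Quotient.mk s q)
  have hr : ∀ q, σ.SameCycle (r q) q := fun q => Quotient.exact (Quotient.out_eq (Quotient.mk s q))
  have hrσ : ∀ q, r (σ q) = r q := by
    intro q
    show Quotient.out (Quotient.mk s (σ q)) = Quotient.out (Quotient.mk s q)
    congr 1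
    apply Quotient.sound
    show σ.SameCycle (σ q) q
    exact Equiv.Perm.sameCycle_apply_left.mpr (Equiv.Perm.SameCycle.refl σ q)
  have hex : ∀ q, ∃ k : ℕ, (σ ^ k) (r q) = q := fun q => (hr q).exists_nat_pow_eq
  choose k hk using hex
  refine ⟨fun q => psum σ c (r q) (k q), fun q => ?_⟩
  show psum σ c (r (σ q)) (k (σ q)) - psum σ c (r q) (k q) = c q
  rw [hrσ]
  have h1 : (σ ^ (k (σ q))) (r q) = (σ ^ (k q + 1)) (r q) := by
    have h2 := hk (σ q)
    rw [hrσ] at h2
    rw [h2, pow_succ', Equiv.Perm.mul_apply, hk q]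
  rw [psum_eq_of_pow_eq σ c h h1, psum_succ, hk q]
  abel

end Fermat.Agent.Betti.H77

end
-- ==== END Fermat.Agent.Betti.H77_CycCob

-- ==== BEGIN Fermat.Agent.GTor.Defs
section
attribute [local instance 10000] SubalgebraClass.toAlgebra
attribute [local instance 10000] HahnSeries.powerSeriesAlgebra

/-!
# Cluster G, part TOR (torsion of `J₀(N)`): core definitions and interfaces  (helper81)

Route (lead_sketch_GR.md, NOTES/plan/G_TOR.md): for `F = L(X₀(N))` (prelude `laurentBaseChange L F₀`)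

  `Pic⁰(F)[n]  ≃  U_n(F) := {f ∈ Fˣ | n ∣ ord_v f ∀ v} / (Fˣ)ⁿ`          (KUM, pure algebra)
  `U_n(F_ℂ)   ≃  Hom_pe(Γ₀(N), ZMod n)`                                   (MONO + EXIST, analysis)
  `U_n(F_ℚ̄)   ≃  U_n(F_ℂ)`                                                (DESC, field theory)

Everything in this file is a definition or a `Prop`-valued statement `Stmt_*`; proofs are work
packages.  No `sorry` here.
-/

set_option autoImplicit false

noncomputable section

namespace Fermat.Agent.GTor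

open AlgebraicCurve ModularCurve UpperHalfPlane
open scoped MatrixGroups ModularForm Manifold

/-! ## 1. Kummer classes -/

section Kummer

variable (K F : Type*) [Field K] [Field F] [Algebra K F]

/-- The functions all of whose orders are divisible by `n`. -/
def unrSubgroup (n : ℕ) : Subgroup Fˣ where
  carrier := {f | ∀ v : Place K F, (n : ℤ) ∣ v.ord ((f : Fˣ) : F)}
  one_mem' := fun v => by simp [Place.ord_one]
  mul_mem' := fun {f g} hf hg v => by
    rw [Units.val_mul, v.ord_mul f.ne_zero g.ne_zero]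
    exact dvd_add (hf v) (hg v)
  inv_mem' := fun {f} hf v => by
    rw [Units.val_inv_eq_inv_val, v.ord_inv]
    exact (dvd_neg).mpr (hf v)

theorem mem_unrSubgroup {n : ℕ} {f : Fˣ} :
    f ∈ unrSubgroup K F n ↔ ∀ v : Place K F, (n : ℤ) ∣ v.ord ((f : Fˣ) : F) := Iff.rfl

/-- The `n`-th powers, as a subgroup of `unrSubgroup`. -/
def powSubgroup (n : ℕ) : Subgroup (unrSubgroup K F n) :=
  ((powMonoidHom n : Fˣ →* Fˣ).range).subgroupOf (unrSubgroup K F n)

/-- `U_n(F)`: unramified Kummer classes. -/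
abbrev UnrKummer (n : ℕ) : Type _ := unrSubgroup K F n ⧸ powSubgroup K F n

/-- **KUM**: `Pic⁰[n] ≃ U_n`, the class of `D` corresponding to `f` when `n • D = div f`. -/
def Stmt_KUM (n : ℕ) : Prop :=
  ∃ e : Additive (UnrKummer K F n) ≃+ Pic0.torsion K F n,
    ∀ (f : unrSubgroup K F n) (D : Divisor.degZero (K := K) (F := F)),
      (∀ v : Place K F, (n : ℤ) * (D : Divisor K F) v = v.ord (((f : Fˣ)) : F)) →
      ((e (Additive.ofMul (QuotientGroup.mk f)) : Pic0.torsion K F n) : Pic0 K F) = Pic0.mk D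

end Kummer

/-! ## 2. Characters of `Γ₀(N)` trivial on parabolic and elliptic elements -/

section HomPE

variable (Γ : Subgroup SL(2, ℤ)) (A : Type*) [AddCommGroup A]

/-- Homomorphisms `Γ → A` vanishing on the elements of trace `±2` and on the elements of
finite order. -/
def homPE : AddSubgroup (Additive Γ →+ A) where
  carrier := {φ | Period.IsParabolicHom Γ φ ∧
    ∀ γ : Γ, IsOfFinOrder γ → φ (Additive.ofMul γ) = 0}
  zero_mem' := ⟨fun _ _ => rfl, fun _ _ => rfl⟩
  add_mem' := by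
    rintro φ ψ ⟨h1, h2⟩ ⟨h3, h4⟩
    refine ⟨fun γ hγ => ?_, fun γ hγ => ?_⟩
    · show φ _ + ψ _ = 0
      rw [h1 γ hγ, h3 γ hγ, add_zero]
    · show φ _ + ψ _ = 0
      rw [h2 γ hγ, h4 γ hγ, add_zero]
  neg_mem' := by
    rintro φ ⟨h1, h2⟩
    refine ⟨fun γ hγ => ?_, fun γ hγ => ?_⟩
    · show -φ _ = 0
      rw [h1 γ hγ, neg_zero]
    · show -φ _ = 0
      rw [h2 γ hγ, neg_zero]

theorem mem_homPE {φ : Additive Γ →+ A} :
    φ ∈ homPE Γ A ↔ Period.IsParabolicHom Γ φ ∧
      ∀ γ : Γ, IsOfFinOrder γ → φ (Additive.ofMul γ) = 0 := Iff.rfl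

end HomPE

/-- The standard primitive `n`-th root of unity `exp(2πi a/n)`, as a function of `a : ZMod n`. -/
def zetaPow (n : ℕ) (a : ZMod n) : ℂ :=
  Complex.exp (2 * Real.pi * Complex.I * ((ZMod.val a : ℕ) : ℂ) / (n : ℂ))

/-! ## 3. The function field over `L` and twisted forms -/

/-- The function field of `X₀(N)` over `L ⊇ ℚ`, inside `L((q))`. -/
abbrev FNL (L : Type) [Field L] [Algebra ℚ L] (N : ℕ) : Type :=
  ↥(laurentBaseChange L (modularFunctionFieldFull N))

/-- The `q`-expansion of a modular form, as a Laurent series. -/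
def qLaurent (A : ℍ → ℂ) : LaurentSeries ℂ :=
  HahnSeries.ofPowerSeries ℤ ℂ (UpperHalfPlane.qExpansion 1 A)

/-- A holomorphic function on `ℍ` of weight `k` for `Γ₀(N)` with multiplier `ζ^φ`,
bounded at every cusp. -/
structure IsTwistedForm (N n : ℕ) (k : ℤ) (φ : Additive (CongruenceSubgroup.Gamma0 N) →+ ZMod n)
    (R : ℍ → ℂ) : Prop where
  mdiff : MDifferentiable 𝓘(ℂ) 𝓘(ℂ) R
  slash : ∀ γ : CongruenceSubgroup.Gamma0 N,
    R ∣[k] ((γ : SL(2, ℤ))) = zetaPow n (φ (Additive.ofMul γ)) • R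
  bdd : ∀ σ : SL(2, ℤ), IsBoundedAtImInfty (R ∣[k] σ)

/-- `f ∈ F_ℂ` **has character** `φ`: `f = (R / B)ⁿ` with `R` a twisted form with multiplier
`ζ^φ` and `B` a modular form of the same weight. -/
def HasChar (N n : ℕ) [NeZero N] (f : FNL ℂ N) (φ : Additive (CongruenceSubgroup.Gamma0 N) →+ ZMod n) :
    Prop :=
  ∃ (k : ℤ) (R : ℍ → ℂ) (B : ModularForm (CongruenceSubgroup.Gamma0 N) k),
    IsTwistedForm N n k φ R ∧ B ≠ 0 ∧
      qLaurent (fun z => R z ^ n) = (f : LaurentSeries ℂ) * qLaurent (fun z => B z ^ n)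

/-! ## 4. The dictionary between `F_ℂ` and modular forms -/

/-- `f = A / B` as `q`-expansions, `A`, `B` modular forms of the same weight on `Γ₀(N)`. -/
def IsRatio (N : ℕ) [NeZero N] (f : FNL ℂ N) {k : ℤ}
    (A B : ModularForm (CongruenceSubgroup.Gamma0 N) k) : Prop :=
  B ≠ 0 ∧ qLaurent A = (f : LaurentSeries ℂ) * qLaurent B

/-- **A1**: every element of `F_ℂ` is a ratio of two modular forms of the same weight. -/
def Stmt_A1 (N : ℕ) [NeZero N] : Prop :=
  ∀ f : FNL ℂ N, ∃ (k : ℤ) (A B : ModularForm (CongruenceSubgroup.Gamma0 N) k), IsRatio N f A B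

/-- **A2**: every ratio of two modular forms of the same weight on `Γ₀(N)` lies in `F_ℂ`. -/
def Stmt_A2 (N : ℕ) [NeZero N] : Prop :=
  ∀ (k : ℤ) (A B : ModularForm (CongruenceSubgroup.Gamma0 N) k), B ≠ 0 →
    ∃ f : FNL ℂ N, IsRatio N f A B

/-- The order of vanishing of a holomorphic function at a point of `ℍ`. -/
def ordAt (A : ℍ → ℂ) (z : ℍ) : ℤ :=
  ((analyticOrderAt (A ∘ UpperHalfPlane.ofComplex) (z : ℂ)).toNat : ℤ)

/-- The order of vanishing at the cusp `σ∞`, measured in the parameter `q_N = exp(2πi z / N)`. -/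
def ordCusp (N : ℕ) (k : ℤ) (A : ℍ → ℂ) (σ : SL(2, ℤ)) : ℤ :=
  (((UpperHalfPlane.qExpansion (N : ℝ) (A ∣[k] σ)).order).toNat : ℤ)

/-- The order of the stabiliser of `z` in the image of `Γ₀(N)` in `PSL(2, ℤ)`. -/
def ellOrder (N : ℕ) (z : ℍ) : ℕ :=
  Nat.card {γ : CongruenceSubgroup.Gamma0 N // ((γ : SL(2, ℤ))) • z = z} / 2

/-- The width of the cusp `σ∞` of `Γ₀(N)`: the least `h ≥ 1` with `σ T^h σ⁻¹ ∈ Γ₀(N)`. -/
def cuspWidth (N : ℕ) (σ : SL(2, ℤ)) : ℕ :=
  sInf {h : ℕ | 0 < h ∧ σ * ModularGroup.T ^ h * σ⁻¹ ∈ CongruenceSubgroup.Gamma0 N}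

/-- `v` is the place of `F_ℂ` at the point `z ∈ ℍ` (only nonzero `f`: helper98's correction). -/
def IsPlaceAt (N : ℕ) [NeZero N] (v : Place ℂ (FNL ℂ N)) (z : ℍ) : Prop :=
  ∀ (f : FNL ℂ N) (k : ℤ) (A B : ModularForm (CongruenceSubgroup.Gamma0 N) k), f ≠ 0 →
    IsRatio N f A B → ordAt A z - ordAt B z = (ellOrder N z : ℤ) * v.ord f

/-- `v` is the place of `F_ℂ` at the cusp `σ∞`. -/
def IsPlaceAtCusp (N : ℕ) [NeZero N] (v : Place ℂ (FNL ℂ N)) (σ : SL(2, ℤ)) : Prop :=
  ∀ (f : FNL ℂ N) (k : ℤ) (A B : ModularForm (CongruenceSubgroup.Gamma0 N) k), f ≠ 0 →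
    IsRatio N f A B →
      ordCusp N k A σ - ordCusp N k B σ = ((N / cuspWidth N σ : ℕ) : ℤ) * v.ord f

/-- **A3**: every point of `ℍ` defines a place of `F_ℂ`, with ramification `ellOrder`. -/
def Stmt_A3 (N : ℕ) [NeZero N] : Prop :=
  ∀ z : ℍ, 0 < ellOrder N z ∧ ∃ v : Place ℂ (FNL ℂ N), IsPlaceAt N v z

/-- **A4**: every cusp defines a place of `F_ℂ`. -/
def Stmt_A4 (N : ℕ) [NeZero N] : Prop :=
  ∀ σ : SL(2, ℤ), 0 < cuspWidth N σ ∧ cuspWidth N σ ∣ N ∧
    ∃ v : Place ℂ (FNL ℂ N), IsPlaceAtCusp N v σ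

/-- **A5**: every place of `F_ℂ` is the place of a point of `ℍ` or of a cusp. -/
def Stmt_A5 (N : ℕ) [NeZero N] : Prop :=
  ∀ v : Place ℂ (FNL ℂ N), (∃ z : ℍ, IsPlaceAt N v z) ∨ (∃ σ : SL(2, ℤ), IsPlaceAtCusp N v σ)

/-! ## 5. The Betti description of `U_n(F_ℂ)` -/

/-- **MONO**: an unramified Kummer class has a character, trivial on parabolic and elliptic
elements. -/
def Stmt_MONO (N n : ℕ) [NeZero N] : Prop :=
  ∀ f : unrSubgroup ℂ (FNL ℂ N) n,
    ∃ φ ∈ homPE (CongruenceSubgroup.Gamma0 N) (ZMod n), HasChar N n ((f : (FNL ℂ N)ˣ) : FNL ℂ N) φ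

/-- **CHAR**: the character is unique, additive in `f`, and trivial on `n`-th powers. -/
def Stmt_CHAR (N n : ℕ) [NeZero N] : Prop :=
  (∀ (f : FNL ℂ N) (φ ψ : Additive (CongruenceSubgroup.Gamma0 N) →+ ZMod n), f ≠ 0 →
      HasChar N n f φ → HasChar N n f ψ → φ = ψ) ∧
  (∀ (f g : FNL ℂ N) (φ ψ : Additive (CongruenceSubgroup.Gamma0 N) →+ ZMod n), f ≠ 0 → g ≠ 0 →
      HasChar N n f φ → HasChar N n g ψ → HasChar N n (f * g) (φ + ψ)) ∧
  (∀ h : FNL ℂ N, h ≠ 0 → HasChar N n (h ^ n) 0)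

/-- **INJ**: a function with trivial character is an `n`-th power. -/
def Stmt_INJ (N n : ℕ) [NeZero N] : Prop :=
  ∀ f : FNL ℂ N, f ≠ 0 → HasChar N n f 0 → ∃ h : FNL ℂ N, f = h ^ n

/-- **EXIST**: every character trivial on parabolic and elliptic elements is the character of
an unramified Kummer class (twisted Eisenstein series). -/
def Stmt_EXIST (N n : ℕ) [NeZero N] : Prop :=
  ∀ φ ∈ homPE (CongruenceSubgroup.Gamma0 N) (ZMod n),
    ∃ f : unrSubgroup ℂ (FNL ℂ N) n, HasChar N n ((f : (FNL ℂ N)ˣ) : FNL ℂ N) φ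

/-- **BETTI**: `U_n(F_ℂ) ≃ Hom_pe(Γ₀(N), ZMod n)`. -/
def Stmt_BETTI (N n : ℕ) [NeZero N] : Prop :=
  ∃ e : Additive (UnrKummer ℂ (FNL ℂ N) n) ≃+ homPE (CongruenceSubgroup.Gamma0 N) (ZMod n),
    ∀ f : unrSubgroup ℂ (FNL ℂ N) n,
      HasChar N n ((f : (FNL ℂ N)ˣ) : FNL ℂ N)
        ((e (Additive.ofMul (QuotientGroup.mk f)) :
          homPE (CongruenceSubgroup.Gamma0 N) (ZMod n)) : Additive (CongruenceSubgroup.Gamma0 N) →+ ZMod n)

/-! ## 6. Descent `ℂ → ℚ̄` -/

/-- A ring homomorphism `F_{L₁} → F_{L₂}` is a **base change** along `ι : L₁ → L₂` if it acts on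
`q`-expansions by `ι` on the coefficients. -/
def IsBaseChange {L₁ L₂ : Type} [Field L₁] [Field L₂] [Algebra ℚ L₁] [Algebra ℚ L₂]
    (ι : L₁ →+* L₂) (N : ℕ) (bc : FNL L₁ N →+* FNL L₂ N) : Prop :=
  ∀ (f : FNL L₁ N) (m : ℤ), ((bc f : FNL L₂ N) : LaurentSeries L₂).coeff m
    = ι ((f : LaurentSeries L₁).coeff m)

/-- **DESC**: base change `ℚ̄ → ℂ` exists and induces a bijection on unramified Kummer classes. -/
def Stmt_DESC (N n : ℕ) [NeZero N] : Prop :=
  ∀ ι : AlgebraicClosure ℚ →+* ℂ, ∃ bc : FNL (AlgebraicClosure ℚ) N →+* FNL ℂ N,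
    IsBaseChange ι N bc ∧
    (∀ f : FNL (AlgebraicClosure ℚ) N, f ≠ 0 →
      ((∀ v : Place (AlgebraicClosure ℚ) (FNL (AlgebraicClosure ℚ) N), (n : ℤ) ∣ v.ord f) ↔
        (∀ v : Place ℂ (FNL ℂ N), (n : ℤ) ∣ v.ord (bc f)))) ∧
    (∀ f : FNL (AlgebraicClosure ℚ) N, f ≠ 0 → (∃ h : FNL ℂ N, bc f = h ^ n) →
      ∃ h₀ : FNL (AlgebraicClosure ℚ) N, f = h₀ ^ n) ∧
    (∀ f : FNL ℂ N, f ≠ 0 → (∀ v : Place ℂ (FNL ℂ N), (n : ℤ) ∣ v.ord f) →
      ∃ (f₀ : FNL (AlgebraicClosure ℚ) N) (h : FNL ℂ N), f₀ ≠ 0 ∧ h ≠ 0 ∧ f = bc f₀ * h ^ n)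

/-! ## 7. The goal of item 63 -/

/-- **TOR**: `J₀(N)[n] ≃ Hom_pe(Γ₀(N), ZMod n)`. -/
def Stmt_TOR (N n : ℕ) [NeZero N] : Prop :=
  Nonempty (Pic0.torsion (AlgebraicClosure ℚ) (modularFunctionFieldBar N) n ≃+
    homPE (CongruenceSubgroup.Gamma0 N) (ZMod n))

end Fermat.Agent.GTor

end
end
-- ==== END Fermat.Agent.GTor.Defs

-- ==== BEGIN Fermat.Agent.GTor.H44_NormSeries
section

/-!
# G-TOR, HK: the formal Hecke norm series (helper44)

For a Laurent series `s ∈ K((q))` and `ℓ ≥ 1`: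

* `twistBy c s = s(c·t)` (`c : Kˣ`): the `m`-th coefficient is multiplied by `c ^ m`; a ring hom.
* `descend ℓ P`: the series `∑ P_{ℓ m} q^m`; left inverse of `qExpand K ℓ` (`q ↦ q^ℓ`).
* `normSeries K ℓ s = s(q^ℓ) · descend ℓ (∏_{ζ ∈ μ_ℓ(K)} s(ζ t))`,
  the `q`-expansion of `Norm_{F_{Nℓ}/F_N}(f(q^ℓ)) = f(ℓz) ∏_{b mod ℓ} f((z+b)/ℓ)` in terms of
  the `q`-expansion `s` of `f`.
* `heckeNormSeries ℓ s = normSeries ℂ ℓ s`.
-/

set_option autoImplicit false

noncomputable section

namespace Fermat.Agent.GTor.H44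

open HahnSeries ModularCurve

section Twist

variable {K : Type*} [CommRing K]

/-- `s(c t)`: the `m`-th coefficient is multiplied by `c ^ m`. -/
def twistFun (c : Kˣ) (s : LaurentSeries K) : LaurentSeries K where
  coeff m := ((c ^ m : Kˣ) : K) * s.coeff m
  isPWO_support' := s.isPWO_support.mono (fun m hm => by
    rw [Function.mem_support] at hm
    rw [HahnSeries.mem_support]
    intro h0
    exact hm (by rw [h0, mul_zero]))

@[simp] theorem twistFun_coeff (c : Kˣ) (s : LaurentSeries K) (m : ℤ) :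
    (twistFun c s).coeff m = ((c ^ m : Kˣ) : K) * s.coeff m := rfl

theorem support_twistFun (c : Kˣ) (s : LaurentSeries K) :
    (twistFun c s).support = s.support := by
  ext m
  rw [HahnSeries.mem_support, HahnSeries.mem_support, twistFun_coeff]
  constructor
  · intro h h0
    exact h (by rw [h0, mul_zero])
  · intro h h0
    apply h
    have := congrArg (fun x => ((c ^ m : Kˣ)⁻¹ : Kˣ).1 * x) h0
    simpa [← mul_assoc] using this

theorem twistFun_mul (c : Kˣ) (x y : LaurentSeries K) :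
    twistFun c (x * y) = twistFun c x * twistFun c y := by
  ext n
  rw [twistFun_coeff, HahnSeries.coeff_mul, HahnSeries.coeff_mul, Finset.mul_sum]
  symm
  refine Finset.sum_congr ?_ ?_
  · ext ij
    simp only [Finset.mem_antidiagonal, support_twistFun]
  · intro ij hij
    have hsum : ij.1 + ij.2 = n := (Finset.mem_antidiagonal.mp hij).2.2
    rw [twistFun_coeff, twistFun_coeff, ← hsum, zpow_add, Units.val_mul]
    ring

/-- `s ↦ s(c t)` as a ring homomorphism. -/
def twistBy (c : Kˣ) : LaurentSeries K →+* LaurentSeries K where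
  toFun := twistFun c
  map_zero' := by
    ext m
    simp
  map_one' := by
    ext m
    rw [twistFun_coeff, HahnSeries.coeff_one]
    split_ifs with h
    · rw [h]; simp
    · simp
  map_add' x y := by
    ext m
    simp [mul_add]
  map_mul' := twistFun_mul c

@[simp] theorem twistBy_coeff (c : Kˣ) (s : LaurentSeries K) (m : ℤ) :
    (twistBy c s).coeff m = ((c ^ m : Kˣ) : K) * s.coeff m := rfl

theorem twistBy_one (s : LaurentSeries K) : twistBy (1 : Kˣ) s = s := by
  ext m
  simp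

theorem twistBy_twistBy (c d : Kˣ) (s : LaurentSeries K) :
    twistBy c (twistBy d s) = twistBy (c * d) s := by
  ext m
  rw [twistBy_coeff, twistBy_coeff, twistBy_coeff, mul_zpow, Units.val_mul, mul_assoc]

theorem twistBy_C (c : Kˣ) (r : K) : twistBy c (HahnSeries.C r) = HahnSeries.C r := by
  ext m
  rw [twistBy_coeff, HahnSeries.C_apply, HahnSeries.coeff_single]
  split_ifs with h
  · rw [h]; simp
  · simp

end Twist

section Descend

variable {K : Type*} [CommRing K] (ℓ : ℕ) [NeZero ℓ]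

theorem descend_bddBelow (P : LaurentSeries K) :
    BddBelow (Function.support fun m : ℤ => P.coeff ((ℓ : ℤ) * m)) := by
  by_cases hP : P = 0
  · refine ⟨0, fun m hm => ?_⟩
    rw [Function.mem_support, hP] at hm
    exact absurd (by simp) hm
  · refine ⟨min P.order 0, fun m hm => ?_⟩
    rw [Function.mem_support] at hm
    have h1 : P.order ≤ (ℓ : ℤ) * m := HahnSeries.order_le_of_coeff_ne_zero hm
    have hℓ : (1 : ℤ) ≤ (ℓ : ℤ) := by exact_mod_cast NeZero.one_le
    rcases le_or_gt 0 m with hm0 | hm0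
    · exact (min_le_right _ _).trans hm0
    · refine (min_le_left _ _).trans (h1.trans ?_)
      nlinarith

/-- `∑ P_{ℓ m} q^m`. -/
def descend (P : LaurentSeries K) : LaurentSeries K :=
  HahnSeries.ofSuppBddBelow (fun m : ℤ => P.coeff ((ℓ : ℤ) * m)) (descend_bddBelow ℓ P)

@[simp] theorem descend_coeff (P : LaurentSeries K) (m : ℤ) :
    (descend ℓ P).coeff m = P.coeff ((ℓ : ℤ) * m) := rfl

theorem descend_qExpand (s : LaurentSeries K) : descend ℓ (qExpand K ℓ s) = s := by
  ext m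
  rw [descend_coeff, qExpand_coeff_mul]

/-- `P` is a series in `q^ℓ`. -/
def IsSupp (P : LaurentSeries K) : Prop := ∀ m : ℤ, ¬ (ℓ : ℤ) ∣ m → P.coeff m = 0

theorem isSupp_qExpand (s : LaurentSeries K) : IsSupp ℓ (qExpand K ℓ s) := fun _ hm =>
  qExpand_coeff_of_not_dvd ℓ s hm

variable {ℓ}

theorem qExpand_descend {P : LaurentSeries K} (hP : IsSupp ℓ P) :
    qExpand K ℓ (descend ℓ P) = P := by
  ext n
  by_cases hn : (ℓ : ℤ) ∣ n
  · obtain ⟨m, rfl⟩ := hn
    rw [qExpand_coeff_mul, descend_coeff]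
  · rw [qExpand_coeff_of_not_dvd ℓ _ hn, hP n hn]

theorem isSupp_iff {P : LaurentSeries K} : IsSupp ℓ P ↔ ∃ s, qExpand K ℓ s = P :=
  ⟨fun h => ⟨_, qExpand_descend h⟩, fun ⟨s, hs⟩ => hs ▸ isSupp_qExpand ℓ s⟩

theorem qExpand_injective : Function.Injective (qExpand K ℓ) := fun s t h => by
  rw [← descend_qExpand ℓ s, ← descend_qExpand ℓ t, h]

theorem descend_mul {P Q : LaurentSeries K} (hP : IsSupp ℓ P) (hQ : IsSupp ℓ Q) :
    descend ℓ (P * Q) = descend ℓ P * descend ℓ Q := by
  conv_lhs => rw [← qExpand_descend hP, ← qExpand_descend hQ, ← map_mul]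
  rw [descend_qExpand]

theorem descend_qExpand_mul (X : LaurentSeries K) {P : LaurentSeries K} (hP : IsSupp ℓ P) :
    descend ℓ (qExpand K ℓ X * P) = X * descend ℓ P := by
  rw [descend_mul (isSupp_qExpand ℓ X) hP, descend_qExpand]

theorem descend_one : descend ℓ (1 : LaurentSeries K) = 1 := by
  conv_lhs => rw [← map_one (qExpand K ℓ)]
  rw [descend_qExpand]

theorem IsSupp.mul {P Q : LaurentSeries K} (hP : IsSupp ℓ P) (hQ : IsSupp ℓ Q) :
    IsSupp ℓ (P * Q) := by
  rw [isSupp_iff] at hP hQ ⊢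
  obtain ⟨s, rfl⟩ := hP
  obtain ⟨t, rfl⟩ := hQ
  exact ⟨s * t, map_mul _ _ _⟩

end Descend

section Norm

variable (K : Type*) [Field K] (ℓ : ℕ) [NeZero ℓ]

theorem finite_rootsOfUnity_set : (rootsOfUnity ℓ K : Set Kˣ).Finite :=
  Set.finite_coe_iff.mp (inferInstance : Finite (rootsOfUnity ℓ K))

/-- the `ℓ`-th roots of unity of `K`, as a finset of units -/
def rootsFinset : Finset Kˣ := (finite_rootsOfUnity_set K ℓ).toFinset

variable {K ℓ} in
@[simp] theorem mem_rootsFinset {ζ : Kˣ} : ζ ∈ rootsFinset K ℓ ↔ ζ ^ ℓ = 1 := by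
  unfold rootsFinset
  rw [Set.Finite.mem_toFinset, SetLike.mem_coe, mem_rootsOfUnity]

/-- `∏_{ζ ∈ μ_ℓ(K)} s(ζ t)`. -/
def twistProd (s : LaurentSeries K) : LaurentSeries K :=
  ∏ ζ ∈ rootsFinset K ℓ, twistBy ζ s

/-- The formal norm `s(q^ℓ) · ∏_{ζ ∈ μ_ℓ} s(ζ q^{1/ℓ})`. -/
def normSeries (s : LaurentSeries K) : LaurentSeries K :=
  qExpand K ℓ s * descend ℓ (twistProd K ℓ s)

variable {K ℓ}

theorem twistProd_mul (s t : LaurentSeries K) :
    twistProd K ℓ (s * t) = twistProd K ℓ s * twistProd K ℓ t := by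
  unfold twistProd
  rw [← Finset.prod_mul_distrib]
  exact Finset.prod_congr rfl fun ζ _ => map_mul _ _ _

theorem twistProd_one : twistProd K ℓ (1 : LaurentSeries K) = 1 := by
  unfold twistProd
  exact Finset.prod_eq_one fun ζ _ => map_one _

theorem twistBy_twistProd {ζ₀ : Kˣ} (hζ₀ : ζ₀ ^ ℓ = 1) (s : LaurentSeries K) :
    twistBy ζ₀ (twistProd K ℓ s) = twistProd K ℓ s := by
  unfold twistProd
  rw [map_prod]
  simp only [twistBy_twistBy]
  refine Finset.prod_bij (fun ζ _ => ζ₀ * ζ) ?_ ?_ ?_ (fun _ _ => rfl)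
  · intro ζ hζ
    rw [mem_rootsFinset] at hζ ⊢
    rw [mul_pow, hζ₀, hζ, one_mul]
  · intro ζ _ ζ' _ h
    exact mul_left_cancel h
  · intro ζ hζ
    refine ⟨ζ₀⁻¹ * ζ, ?_, by rw [mul_inv_cancel_left]⟩
    rw [mem_rootsFinset] at hζ ⊢
    rw [mul_pow, inv_pow, hζ₀, hζ, inv_one, one_mul]

theorem isSupp_twistProd {ζ₀ : Kˣ} (hζ : IsPrimitiveRoot ζ₀ ℓ) (s : LaurentSeries K) :
    IsSupp ℓ (twistProd K ℓ s) := by
  intro m hm
  have h := congrArg (fun P : LaurentSeries K => P.coeff m) (twistBy_twistProd hζ.pow_eq_one s)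
  simp only [twistBy_coeff] at h
  have hne : ((ζ₀ ^ m : Kˣ) : K) ≠ 1 := by
    intro h1
    have h2 : ζ₀ ^ m = 1 := Units.ext h1
    exact hm ((hζ.zpow_eq_one_iff_dvd m).mp h2)
  have h3 : (((ζ₀ ^ m : Kˣ) : K) - 1) * (twistProd K ℓ s).coeff m = 0 := by
    rw [sub_mul, one_mul, h, sub_self]
  rcases mul_eq_zero.mp h3 with h4 | h4
  · exact absurd (sub_eq_zero.mp h4) hne
  · exact h4

theorem normSeries_mul {ζ₀ : Kˣ} (hζ : IsPrimitiveRoot ζ₀ ℓ) (s t : LaurentSeries K) :
    normSeries K ℓ (s * t) = normSeries K ℓ s * normSeries K ℓ t := by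
  unfold normSeries
  rw [map_mul, twistProd_mul, descend_mul (isSupp_twistProd hζ s) (isSupp_twistProd hζ t)]
  ring

theorem normSeries_one : normSeries K ℓ (1 : LaurentSeries K) = 1 := by
  unfold normSeries
  rw [map_one, twistProd_one, descend_one, one_mul]

theorem normSeries_pow {ζ₀ : Kˣ} (hζ : IsPrimitiveRoot ζ₀ ℓ) (s : LaurentSeries K) (n : ℕ) :
    normSeries K ℓ (s ^ n) = normSeries K ℓ s ^ n := by
  induction n with
  | zero => rw [pow_zero, pow_zero, normSeries_one]
  | succ n ih => rw [pow_succ, pow_succ, normSeries_mul hζ, ih]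

/-- the characterisation used on the analytic side -/
theorem qExpand_normSeries {ζ₀ : Kˣ} (hζ : IsPrimitiveRoot ζ₀ ℓ) (s : LaurentSeries K) :
    qExpand K ℓ (normSeries K ℓ s) = qExpand K ℓ (qExpand K ℓ s) * twistProd K ℓ s := by
  unfold normSeries
  rw [map_mul, qExpand_descend (isSupp_twistProd hζ s)]

theorem eq_normSeries_of_qExpand {ζ₀ : Kˣ} (hζ : IsPrimitiveRoot ζ₀ ℓ) {s g : LaurentSeries K}
    (h : qExpand K ℓ g = qExpand K ℓ (qExpand K ℓ s) * twistProd K ℓ s) :
    g = normSeries K ℓ s :=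
  qExpand_injective (h.trans (qExpand_normSeries hζ s).symm)

/-- the product over `μ_ℓ` as a product over the powers of a primitive root -/
theorem twistProd_eq_prod_range {ζ₀ : Kˣ} (hζ : IsPrimitiveRoot ζ₀ ℓ) (s : LaurentSeries K) :
    twistProd K ℓ s = ∏ j ∈ Finset.range ℓ, twistBy (ζ₀ ^ j) s := by
  unfold twistProd
  symm
  refine Finset.prod_bij (fun j _ => ζ₀ ^ j) ?_ ?_ ?_ (fun _ _ => rfl)
  · intro j _
    rw [mem_rootsFinset, ← pow_mul, mul_comm, pow_mul, hζ.pow_eq_one, one_pow]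
  · intro i hi j hj hij
    exact hζ.pow_inj (Finset.mem_range.mp hi) (Finset.mem_range.mp hj) hij
  · intro ζ hζ'
    rw [mem_rootsFinset] at hζ'
    have hK : IsPrimitiveRoot (ζ₀ : K) ℓ := IsPrimitiveRoot.coe_units_iff.mpr hζ
    have hζK : (ζ : K) ^ ℓ = 1 := by
      rw [← Units.val_pow_eq_pow_val, hζ', Units.val_one]
    obtain ⟨i, hi, hiζ⟩ := hK.eq_pow_of_pow_eq_one hζK
    refine ⟨i, Finset.mem_range.mpr hi, Units.ext ?_⟩
    rw [Units.val_pow_eq_pow_val]
    exact hiζ

/-- `heckeNormSeries ℓ s = s(q^ℓ) · ∏_{b mod ℓ} s(ζ_ℓ^b q^{1/ℓ})` over `ℂ`. -/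
def heckeNormSeries (ℓ : ℕ) [NeZero ℓ] (s : LaurentSeries ℂ) : LaurentSeries ℂ :=
  normSeries ℂ ℓ s

end Norm

end Fermat.Agent.GTor.H44

end
end
-- ==== END Fermat.Agent.GTor.H44_NormSeries

-- ==== BEGIN Fermat.Agent.GTor.H75_DescAutDef
section

/-!
# G-TOR package DESC (helper75): interface of the automorphism step AUT (pure field theory)

`K ⊇ k` algebraically closed of infinite transcendence degree.  For every finite `c ⊆ K` and `m`
there are `t : Fin d → K` algebraically independent over `k` with `c` algebraic over `k[t]`, and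
`m` automorphisms `σ i` of `K/k` such that for `i ≠ j` the family `(t, σ_i⁻¹ σ_j t)` is
algebraically independent over `k`.
(Proof: transcendence basis `B ⊇ t`, `m` pairwise disjoint blocks `u_i ⊆ B \ t` of size `d`,
`σ_i` = extension of the involution of `B` swapping `t` and `u_i`; then `σ_i⁻¹ σ_j t = u_j`.)
-/

set_option autoImplicit false

namespace Fermat.Agent.GTor.H75

/-- **DESC-AUT**. -/
def Stmt_DescAut (k K : Type) [Field k] [Field K] [Algebra k K] [IsAlgClosed K] : Prop :=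
  (∀ s : Finset K, ∃ x : K,
      ¬ IsAlgebraic ↥(Subfield.closure (Set.range (algebraMap k K) ∪ (↑s : Set K))) x) →
    ∀ (c : Finset K) (m : ℕ),
      ∃ (d : ℕ) (t : Fin d → K) (σ : Fin m → (K ≃ₐ[k] K)),
        AlgebraicIndependent k t ∧
        (∀ x ∈ c, IsAlgebraic ↥(Algebra.adjoin k (Set.range t)) x) ∧
        ∀ i j, i ≠ j →
          AlgebraicIndependent k (Sum.elim t (fun l => (σ i).symm (σ j (t l))))

end Fermat.Agent.GTor.H75

end
-- ==== END Fermat.Agent.GTor.H75_DescAutDef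

-- ==== BEGIN Fermat.Agent.GTor.H75_DescScale
section

/-!
# G-TOR package DESC (helper75): algebraic elements over the image of a ring homomorphism,
and scaling to integral elements (pure commutative algebra)
-/

set_option autoImplicit false
set_option linter.style.haveILetI false

noncomputable section

namespace Fermat.Agent.GTor.H75

open Polynomial

section AlgElem

variable {A A' B B' : Type*} [CommRing A] [CommRing A'] [CommRing B] [CommRing B']

/-- `x` is algebraic over the image of `φ`. -/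
def AlgElem (φ : A →+* B) (x : B) : Prop :=
  ∃ p : A[X], p ≠ 0 ∧ eval₂ φ x p = 0

theorem AlgElem.map {φ : A →+* B} {x : B} (h : AlgElem φ x) (ψ : B →+* B') :
    AlgElem (ψ.comp φ) (ψ x) := by
  obtain ⟨p, hp, hx⟩ := h
  refine ⟨p, hp, ?_⟩
  have := Polynomial.hom_eval₂ p φ ψ x
  rw [← this, hx, map_zero]

theorem AlgElem.of_comp {θ : A' →+* A} (hθ : Function.Injective θ) {φ : A →+* B} {x : B}
    (h : AlgElem (φ.comp θ) x) : AlgElem φ x := by
  obtain ⟨p, hp, hx⟩ := h
  refine ⟨p.map θ, ?_, ?_⟩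
  · exact (Polynomial.map_ne_zero_iff hθ).mpr hp
  · rw [Polynomial.eval₂_map]
    exact hx

theorem AlgElem.exists_integral_multiple {φ : A →+* B} (hφ : Function.Injective φ) {x : B}
    (h : AlgElem φ x) : ∃ y : A, y ≠ 0 ∧ φ.IsIntegralElem (φ y * x) := by
  obtain ⟨p, hp, hx⟩ := h
  refine ⟨p.leadingCoeff, mt Polynomial.leadingCoeff_eq_zero.mp hp,
    p.integralNormalization, monic_integralNormalization hp, ?_⟩
  exact integralNormalization_eval₂_eq_zero φ hx fun a ha => hφ (by rw [ha, map_zero])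

theorem exists_integral_multiples [IsDomain A] {φ : A →+* B} (hφ : Function.Injective φ)
    {I : Type*} [Fintype I] (x : I → B) (hx : ∀ i, AlgElem φ (x i)) :
    ∃ y : A, y ≠ 0 ∧ ∀ i, φ.IsIntegralElem (φ y * x i) := by
  classical
  have h := fun i => (hx i).exists_integral_multiple hφ
  choose y hy0 hy using h
  refine ⟨∏ i, y i, Finset.prod_ne_zero_iff.mpr fun i _ => hy0 i, fun i => ?_⟩
  have : φ (∏ i, y i) * x i = φ (∏ j ∈ Finset.univ.erase i, y j) * (φ (y i) * x i) := by
    rw [← mul_assoc, ← map_mul, Finset.prod_erase_mul _ _ (Finset.mem_univ i)]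
  rw [this]
  exact RingHom.IsIntegralElem.mul φ φ.isIntegralElem_map (hy i)

end AlgElem

section Field

variable {k K : Type*} [Field k] [Field K] [Algebra k K]

theorem algElem_of_isAlgebraic_adjoin {d : ℕ} {t : Fin d → K} (ht : AlgebraicIndependent k t)
    {x : K} (hx : IsAlgebraic ↥(Algebra.adjoin k (Set.range t)) x) :
    AlgElem (MvPolynomial.aeval t : MvPolynomial (Fin d) k →ₐ[k] K).toRingHom x := by
  obtain ⟨p, hp, hpx⟩ := hx
  let e := ht.aevalEquiv
  refine ⟨p.map (e.symm : ↥(Algebra.adjoin k (Set.range t)) →+* MvPolynomial (Fin d) k), ?_, ?_⟩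
  · exact (Polynomial.map_ne_zero_iff e.symm.injective).mpr hp
  · rw [Polynomial.eval₂_map]
    have hcomp : ((MvPolynomial.aeval t : MvPolynomial (Fin d) k →ₐ[k] K).toRingHom).comp
        (e.symm : ↥(Algebra.adjoin k (Set.range t)) →+* MvPolynomial (Fin d) k)
        = algebraMap ↥(Algebra.adjoin k (Set.range t)) K := by
      ext z
      have h1 : ((e (e.symm z) : ↥(Algebra.adjoin k (Set.range t))) : K)
          = MvPolynomial.aeval t (e.symm z) := ht.algebraMap_aevalEquiv (e.symm z)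
      rw [e.apply_symm_apply] at h1
      exact h1.symm
    rw [hcomp]
    exact hpx

theorem isAlgebraic_adjoin_of_algElem {d : ℕ} {t : Fin d → K} (ht : AlgebraicIndependent k t)
    {x : K} (hx : AlgElem (MvPolynomial.aeval t : MvPolynomial (Fin d) k →ₐ[k] K).toRingHom x) :
    IsAlgebraic ↥(Algebra.adjoin k (Set.range t)) x := by
  obtain ⟨p, hp, hpx⟩ := hx
  let e := ht.aevalEquiv
  refine ⟨p.map (e : MvPolynomial (Fin d) k →+* ↥(Algebra.adjoin k (Set.range t))), ?_, ?_⟩
  · exact (Polynomial.map_ne_zero_iff e.injective).mpr hp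
  · rw [Polynomial.aeval_def, Polynomial.eval₂_map]
    have hcomp : (algebraMap ↥(Algebra.adjoin k (Set.range t)) K).comp
        (e : MvPolynomial (Fin d) k →+* ↥(Algebra.adjoin k (Set.range t)))
        = (MvPolynomial.aeval t : MvPolynomial (Fin d) k →ₐ[k] K).toRingHom := by
      refine RingHom.ext fun z => ?_
      have := ht.algebraMap_aevalEquiv z
      exact this
    rw [hcomp]
    exact hpx

/-- transport along an algebra automorphism -/
theorem AlgElem.algHom {d : ℕ} {t : Fin d → K} {x : K}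
    (h : AlgElem (MvPolynomial.aeval t : MvPolynomial (Fin d) k →ₐ[k] K).toRingHom x)
    (τ : K →ₐ[k] K) :
    AlgElem (MvPolynomial.aeval (fun i => τ (t i)) : MvPolynomial (Fin d) k →ₐ[k] K).toRingHom
      (τ x) := by
  have h1 := h.map (τ : K →+* K)
  have h2 : (τ : K →+* K).comp (MvPolynomial.aeval t : MvPolynomial (Fin d) k →ₐ[k] K).toRingHom
      = (MvPolynomial.aeval (fun i => τ (t i)) : MvPolynomial (Fin d) k →ₐ[k] K).toRingHom := by
    have := MvPolynomial.comp_aeval (R := k) t τ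
    ext z
    · simp
    · simp
  rw [h2] at h1
  exact h1

variable {E : Type*} [Field E] [Algebra k E] [Algebra E K] [IsScalarTower k E K]

/-- integrality over `k[t]` implies integrality over `E[t]` -/
theorem isIntegralElem_extend {d : ℕ} {t : Fin d → K} {x : K}
    (h : (MvPolynomial.aeval t : MvPolynomial (Fin d) k →ₐ[k] K).toRingHom.IsIntegralElem x) :
    (MvPolynomial.aeval t : MvPolynomial (Fin d) E →ₐ[E] K).toRingHom.IsIntegralElem x := by
  have h2 : (MvPolynomial.aeval t : MvPolynomial (Fin d) k →ₐ[k] K).toRingHom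
      = ((MvPolynomial.aeval t : MvPolynomial (Fin d) E →ₐ[E] K).toRingHom).comp
        (MvPolynomial.map (algebraMap k E)) := by
    ext z
    · simp [IsScalarTower.algebraMap_apply k E K]
    · simp
  rw [h2] at h
  exact RingHom.IsIntegralElem.of_comp h

/-- algebraicity over `k[t]` implies algebraicity over `E[t]` -/
theorem AlgElem.extend {d : ℕ} {t : Fin d → K} {x : K}
    (h : AlgElem (MvPolynomial.aeval t : MvPolynomial (Fin d) k →ₐ[k] K).toRingHom x) :
    AlgElem (MvPolynomial.aeval t : MvPolynomial (Fin d) E →ₐ[E] K).toRingHom x := by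
  have h2 : (MvPolynomial.aeval t : MvPolynomial (Fin d) k →ₐ[k] K).toRingHom
      = ((MvPolynomial.aeval t : MvPolynomial (Fin d) E →ₐ[E] K).toRingHom).comp
        (MvPolynomial.map (algebraMap k E)) := by
    ext z
    · simp [IsScalarTower.algebraMap_apply k E K]
    · simp
  rw [h2] at h
  exact AlgElem.of_comp (MvPolynomial.map_injective _ (algebraMap k E).injective) h

end Field

end Fermat.Agent.GTor.H75

end
end
-- ==== END Fermat.Agent.GTor.H75_DescScale

-- ==== BEGIN Fermat.Agent.GTor.H75_DescSpec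
section

/-!
# G-TOR package DESC (helper75): the specialisation lemma (pure commutative algebra)

`E ⊆ K` fields, `E` algebraically closed, `k₀ ⊆ E` algebraically closed, `t' : Fin d → K`
algebraically independent over `E`, `W ⊆ K` integral over `E[t']`, `b₀ ≠ 0` in `C = E[t', W]`.
Then there is an `E`-algebra homomorphism `s : C → E` with `s b₀ ≠ 0`, `s (t' i) ∈ k₀`, and
`s w ∈ k₀` for every `w ∈ W` that is integral over `k₀[t']`.
-/

set_option autoImplicit false
set_option linter.style.haveILetI false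

noncomputable section

namespace Fermat.Agent.GTor.H75

open Polynomial

/-- an element of a field, integral over an algebraically closed subfield, lies in it -/
theorem mem_range_of_isIntegral_of_isAlgClosed {k₀ E : Type*} [Field k₀] [Field E] [Algebra k₀ E]
    [IsAlgClosed k₀] {x : E} (hx : IsIntegral k₀ x) : x ∈ (algebraMap k₀ E).range :=
  minpoly.mem_range_of_degree_eq_one (A := k₀) x
    (IsAlgClosed.degree_eq_one_of_irreducible k₀ (minpoly.irreducible hx))

/-- a nonzero element of a domain which is integral over a subring satisfies a polynomial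
with nonzero constant term -/
theorem exists_coeff_zero_ne_zero_of_isIntegralElem {R S : Type*} [CommRing R] [CommRing S]
    [IsDomain S] (f : R →+* S) {b : S} (hb : f.IsIntegralElem b) (hb0 : b ≠ 0) :
    ∃ q : R[X], f (q.coeff 0) ≠ 0 ∧ eval₂ f b q = 0 := by
  classical
  obtain ⟨p, hp, hpb⟩ := hb
  -- induction on the degree
  suffices H : ∀ n : ℕ, ∀ p : R[X], p.natDegree = n → (p.map f) ≠ 0 → eval₂ f b p = 0 →
      ∃ q : R[X], f (q.coeff 0) ≠ 0 ∧ eval₂ f b q = 0 by
    refine H _ p rfl ?_ hpb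
    intro h0
    have h1 : (p.map f).coeff p.natDegree = 0 := by rw [h0]; simp
    rw [coeff_map, hp.coeff_natDegree, map_one] at h1
    exact one_ne_zero h1
  intro n
  induction n with
  | zero =>
    intro p hp hpm hpb
    rw [natDegree_eq_zero] at hp
    obtain ⟨c, rfl⟩ := hp
    refine ⟨C c, ?_, hpb⟩
    intro h
    apply hpm
    simp only [coeff_C_zero] at h
    rw [map_C, h, map_zero]
  | succ n ih =>
    intro p hp hpm hpb
    by_cases h0 : f (p.coeff 0) = 0
    · -- divide by X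
      have hdiv : p = p.divX * X + C (p.coeff 0) := (divX_mul_X_add p).symm
      have hev : eval₂ f b p.divX * b = 0 := by
        have := hpb
        rw [hdiv, eval₂_add, eval₂_mul, eval₂_X, eval₂_C, h0, add_zero] at this
        exact this
      have hev' : eval₂ f b p.divX = 0 := (mul_eq_zero.mp hev).resolve_right hb0
      refine ih p.divX ?_ ?_ hev'
      · rw [natDegree_divX_eq_natDegree_tsub_one, hp]; rfl
      · intro h
        apply hpm
        rw [hdiv, Polynomial.map_add, Polynomial.map_mul, h, zero_mul, zero_add, map_C, h0, map_zero]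
    · exact ⟨p, h0, hpb⟩

variable {k₀ E K : Type*} [Field k₀] [Field E] [Field K] [Algebra k₀ E] [Algebra E K]
  [Algebra k₀ K] [IsScalarTower k₀ E K] [IsAlgClosed k₀] [IsAlgClosed E]

theorem spec {d : ℕ} (t' : Fin d → K) (ht' : AlgebraicIndependent E t') (W : Set K)
    (hW : ∀ w ∈ W,
      (MvPolynomial.aeval t' : MvPolynomial (Fin d) E →ₐ[E] K).toRingHom.IsIntegralElem w)
    (b₀ : K) (hb₀ : b₀ ∈ Algebra.adjoin E (Set.range t' ∪ W)) (hb₀0 : b₀ ≠ 0) :
    ∃ s : Algebra.adjoin E (Set.range t' ∪ W) →ₐ[E] E,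
      s ⟨b₀, hb₀⟩ ≠ 0 ∧
      (∀ i, s ⟨t' i, Algebra.subset_adjoin (Or.inl ⟨i, rfl⟩)⟩ ∈ (algebraMap k₀ E).range) ∧
      ∀ w (hw : w ∈ W),
        (MvPolynomial.aeval t' : MvPolynomial (Fin d) k₀ →ₐ[k₀] K).toRingHom.IsIntegralElem w →
        s ⟨w, Algebra.subset_adjoin (Or.inr hw)⟩ ∈ (algebraMap k₀ E).range := by
  classical
  set C : Subalgebra E K := Algebra.adjoin E (Set.range t' ∪ W) with hC
  let tC : Fin d → C := fun i => ⟨t' i, Algebra.subset_adjoin (Or.inl ⟨i, rfl⟩)⟩
  let φ : MvPolynomial (Fin d) E →ₐ[E] C := MvPolynomial.aeval tC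
  have hφK : ∀ r, ((φ r : C) : K) = MvPolynomial.aeval t' r := by
    intro r
    have : (C.val.comp φ) = MvPolynomial.aeval t' := by
      apply MvPolynomial.algHom_ext
      intro i
      simp [φ, tC]
    exact congrArg (fun g : MvPolynomial (Fin d) E →ₐ[E] K => g r) this
  have hφinj : Function.Injective φ := by
    intro r r' h
    apply ht'
    have := congrArg (fun x : C => (x : K)) h
    simpa [hφK] using this
  -- integrality of C over R
  have hint : ∀ x : C, φ.toRingHom.IsIntegralElem x := by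
    have key : ∀ x : K, x ∈ C → ∃ hx : x ∈ C, φ.toRingHom.IsIntegralElem (⟨x, hx⟩ : C) := by
      intro x hx
      induction hx using Algebra.adjoin_induction with
      | mem x hx =>
        rcases hx with ⟨i, rfl⟩ | hxW
        · refine ⟨Algebra.subset_adjoin (Or.inl ⟨i, rfl⟩), ?_⟩
          have : (⟨t' i, Algebra.subset_adjoin (Or.inl ⟨i, rfl⟩)⟩ : C)
              = φ.toRingHom (MvPolynomial.X i) := by
            apply Subtype.ext; simp [φ, tC]
          rw [this]
          exact φ.toRingHom.isIntegralElem_map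
        · obtain ⟨p, hp, hpw⟩ := hW x hxW
          refine ⟨Algebra.subset_adjoin (Or.inr hxW), p, hp, ?_⟩
          apply Subtype.ext
          have h1 : C.val.toRingHom
              (eval₂ φ.toRingHom (⟨x, Algebra.subset_adjoin (Or.inr hxW)⟩ : C) p)
              = eval₂ (MvPolynomial.aeval t' : MvPolynomial (Fin d) E →ₐ[E] K).toRingHom x p := by
            rw [Polynomial.hom_eval₂ p φ.toRingHom C.val.toRingHom]
            congr 1
            ext r
            · simp
            · simpa using hφK (MvPolynomial.X _)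
          have h2 : ((eval₂ φ.toRingHom (⟨x, Algebra.subset_adjoin (Or.inr hxW)⟩ : C) p : C) : K)
              = 0 := by
            rw [← hpw, ← h1]; rfl
          rw [h2]; rfl
      | algebraMap r =>
        refine ⟨Subalgebra.algebraMap_mem _ _, ?_⟩
        have : (⟨algebraMap E K r, Subalgebra.algebraMap_mem C r⟩ : C)
            = φ.toRingHom (MvPolynomial.C r) := by
          apply Subtype.ext; simp [φ]
        rw [this]
        exact φ.toRingHom.isIntegralElem_map
      | add x y hx hy hx' hy' =>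
        obtain ⟨hx1, hx2⟩ := hx'
        obtain ⟨hy1, hy2⟩ := hy'
        exact ⟨add_mem hx1 hy1, RingHom.IsIntegralElem.add _ hx2 hy2⟩
      | mul x y hx hy hx' hy' =>
        obtain ⟨hx1, hx2⟩ := hx'
        obtain ⟨hy1, hy2⟩ := hy'
        exact ⟨mul_mem hx1 hy1, RingHom.IsIntegralElem.mul _ hx2 hy2⟩
    intro x
    obtain ⟨_, h⟩ := key x x.2
    exact h
  -- the polynomial for b₀
  obtain ⟨q, hq0, hqb⟩ := exists_coeff_zero_ne_zero_of_isIntegralElem φ.toRingHom
    (hint ⟨b₀, hb₀⟩) (by intro h; exact hb₀0 (congrArg Subtype.val h))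
  have hc0 : q.coeff 0 ≠ 0 := by
    intro h; apply hq0; rw [h, map_zero]
  -- a point of k₀^d where c₀ does not vanish
  obtain ⟨t0, ht0⟩ : ∃ t0 : Fin d → k₀,
      MvPolynomial.eval (fun i => algebraMap k₀ E (t0 i)) (q.coeff 0) ≠ 0 := by
    by_contra hcon
    push Not at hcon
    apply hc0
    refine MvPolynomial.funext_set (fun _ => Set.range (algebraMap k₀ E))
      (fun _ => Set.infinite_range_of_injective (algebraMap k₀ E).injective) ?_
    intro x hx
    have hx' : ∀ i, ∃ y, algebraMap k₀ E y = x i := fun i => hx i (Set.mem_univ i)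
    choose y hy using hx'
    have := hcon y
    simp only [hy] at this
    rw [map_zero]
    convert this
  let ev : MvPolynomial (Fin d) E →ₐ[E] E := MvPolynomial.aeval (fun i => algebraMap k₀ E (t0 i))
  have hevsurj : Function.Surjective ev := fun e => ⟨MvPolynomial.C e, by simp [ev]⟩
  haveI hmax : (RingHom.ker ev.toRingHom).IsMaximal :=
    RingHom.ker_isMaximal_of_surjective ev.toRingHom hevsurj
  letI algRC : Algebra (MvPolynomial (Fin d) E) C := φ.toRingHom.toAlgebra
  haveI : Algebra.IsIntegral (MvPolynomial (Fin d) E) C := ⟨hint⟩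
  obtain ⟨Q, hQmax, hQ⟩ := Ideal.exists_ideal_over_maximal_of_isIntegral (S := C)
    (RingHom.ker ev.toRingHom) (by
      intro r hr
      have : φ r = 0 := hr
      have : r = 0 := hφinj (by rw [this, map_zero])
      rw [this]; exact Ideal.zero_mem _)
  haveI := hQmax
  -- compatibility of the two maps from R to C ⧸ Q
  have hcomp : ∀ r : MvPolynomial (Fin d) E,
      algebraMap E (C ⧸ Q) (ev r) = Ideal.Quotient.mk Q (φ r) := by
    intro r
    have h1 : r - MvPolynomial.C (ev r) ∈ RingHom.ker ev.toRingHom := by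
      rw [RingHom.mem_ker]
      simp [ev]
    rw [← hQ] at h1
    have h2 : φ (r - MvPolynomial.C (ev r)) ∈ Q := h1
    rw [map_sub] at h2
    have h3 := (Ideal.Quotient.mk_eq_mk_iff_sub_mem _ _).mpr h2
    rw [h3]
    have : φ (MvPolynomial.C (ev r)) = algebraMap E C (ev r) := by simp [φ]
    rw [this]
    rfl
  haveI : Algebra.IsIntegral E (C ⧸ Q) := by
    refine ⟨fun x => ?_⟩
    obtain ⟨x, rfl⟩ := Ideal.Quotient.mk_surjective x
    obtain ⟨p, hp, hpx⟩ := hint x
    refine ⟨p.map ev.toRingHom, hp.map _, ?_⟩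
    rw [eval₂_map]
    have : (algebraMap E (C ⧸ Q)).comp ev.toRingHom = (Ideal.Quotient.mk Q).comp φ.toRingHom := by
      ext r
      · simp only [RingHom.comp_apply]
        exact hcomp _
      · simp only [RingHom.comp_apply]
        exact hcomp _
    rw [this, ← Polynomial.hom_eval₂, hpx, map_zero]
  have hbij : Function.Bijective (algebraMap E (C ⧸ Q)) :=
    IsAlgClosed.algebraMap_bijective_of_isIntegral
  let e : E ≃ₐ[E] (C ⧸ Q) := AlgEquiv.ofBijective (Algebra.ofId E (C ⧸ Q)) hbij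
  let s : C →ₐ[E] E := (e.symm : (C ⧸ Q) →ₐ[E] E).comp (Ideal.Quotient.mkₐ E Q)
  have hsφ : ∀ r, s (φ r) = ev r := by
    intro r
    show e.symm (Ideal.Quotient.mk Q (φ r)) = ev r
    rw [← hcomp r]
    exact e.symm_apply_apply (ev r)
  refine ⟨s, ?_, ?_, ?_⟩
  · intro hs0
    have h1 := congrArg s hqb
    rw [map_zero] at h1
    have h2 : s (eval₂ φ.toRingHom (⟨b₀, hb₀⟩ : C) q)
        = eval₂ ((s : C →+* E).comp φ.toRingHom) (s ⟨b₀, hb₀⟩) q :=
      Polynomial.hom_eval₂ q φ.toRingHom (s : C →+* E) _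
    rw [h2, hs0, eval₂_at_zero] at h1
    apply ht0
    have : ((s : C →+* E).comp φ.toRingHom) (q.coeff 0) = ev (q.coeff 0) := hsφ _
    rw [this] at h1
    exact h1
  · intro i
    have : s (tC i) = ev (MvPolynomial.X i) := by
      rw [← hsφ]; simp [φ]
    refine ⟨t0 i, ?_⟩
    show _ = s (tC i)
    rw [this]
    simp [ev]
  · intro w hw ⟨p, hp, hpw⟩
    apply mem_range_of_isIntegral_of_isAlgClosed (k₀ := k₀)
    -- the image of p
    refine ⟨p.map (MvPolynomial.eval t0), hp.map _, ?_⟩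
    rw [eval₂_map]
    -- s ∘ φ ∘ map = algebraMap ∘ eval t0
    have hw' : eval₂ (φ.toRingHom.comp (MvPolynomial.map (algebraMap k₀ E)))
        (⟨w, Algebra.subset_adjoin (Or.inr hw)⟩ : C) p = 0 := by
      apply Subtype.ext
      have h1 : C.val.toRingHom (eval₂ (φ.toRingHom.comp (MvPolynomial.map (algebraMap k₀ E)))
          (⟨w, Algebra.subset_adjoin (Or.inr hw)⟩ : C) p)
          = eval₂ (MvPolynomial.aeval t' : MvPolynomial (Fin d) k₀ →ₐ[k₀] K).toRingHom w p := by
        rw [Polynomial.hom_eval₂ p _ C.val.toRingHom]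
        congr 1
        ext r
        · simp [φ, IsScalarTower.algebraMap_apply k₀ E K]
        · simp [φ, tC]
      have h2 : ((eval₂ (φ.toRingHom.comp (MvPolynomial.map (algebraMap k₀ E)))
          (⟨w, Algebra.subset_adjoin (Or.inr hw)⟩ : C) p : C) : K) = 0 := by
        rw [← hpw, ← h1]; rfl
      rw [h2]; rfl
    have h2 := congrArg s hw'
    rw [map_zero] at h2
    have h3 : s (eval₂ (φ.toRingHom.comp (MvPolynomial.map (algebraMap k₀ E)))
        (⟨w, Algebra.subset_adjoin (Or.inr hw)⟩ : C) p)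
        = eval₂ ((s : C →+* E).comp (φ.toRingHom.comp (MvPolynomial.map (algebraMap k₀ E))))
          (s ⟨w, Algebra.subset_adjoin (Or.inr hw)⟩) p :=
      Polynomial.hom_eval₂ p _ (s : C →+* E) _
    rw [h3] at h2
    have h4 : ((s : C →+* E).comp (φ.toRingHom.comp (MvPolynomial.map (algebraMap k₀ E))))
        = (algebraMap k₀ E).comp (MvPolynomial.eval t0) := by
      apply MvPolynomial.ringHom_ext
      · intro r
        simp only [RingHom.comp_apply, MvPolynomial.map_C, MvPolynomial.eval_C]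
        have := hsφ (MvPolynomial.C (algebraMap k₀ E r))
        rw [show (s : C →+* E) (φ.toRingHom (MvPolynomial.C (algebraMap k₀ E r)))
          = s (φ (MvPolynomial.C (algebraMap k₀ E r))) from rfl, this]
        simp [ev]
      · intro i
        simp only [RingHom.comp_apply, MvPolynomial.map_X, MvPolynomial.eval_X]
        have := hsφ (MvPolynomial.X i)
        rw [show (s : C →+* E) (φ.toRingHom (MvPolynomial.X i))
          = s (φ (MvPolynomial.X i)) from rfl, this]
        simp [ev]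
    rw [h4] at h2
    exact h2

end Fermat.Agent.GTor.H75

end
end
-- ==== END Fermat.Agent.GTor.H75_DescSpec

-- ==== BEGIN Fermat.Agent.GTor.H81_SelfInj
section

/-!
# `ℤ/n` is self-injective; factorisation of matrices through common kernels  (helper81)

* `baer_zmod n : Module.Baer (ZMod n) (ZMod n)` (`n ≠ 0`).
* `exists_factor` : if `B v = 0` for every `v ∈ (ℤ/n)^r` killed by all matrices `A i`, then
  `B = ∑ i ∈ J, D i * A i` for a finite set `J` of indices and matrices `D i`.

Used to pass from statements about fixed vectors / kernels modulo `p^k` to statements over a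
`p`-adically complete ring (no flat base change needed).
-/

set_option autoImplicit false

noncomputable section

namespace Fermat.Agent.GTor.H81

open Matrix

/-- In `ℤ/n`: if every `r` with `r a = 0` kills `q₀`, then `q₀` is a multiple of `a`. -/
theorem zmod_dvd_of_ann (n : ℕ) [NeZero n] (a q₀ : ZMod n)
    (h : ∀ r : ZMod n, r * a = 0 → r * q₀ = 0) : ∃ q₁ : ZMod n, q₀ = a * q₁ := by
  obtain ⟨A, rfl⟩ := ZMod.intCast_surjective a
  obtain ⟨Q, rfl⟩ := ZMod.intCast_surjective q₀
  set d : ℤ := ((Int.gcd A n : ℕ) : ℤ) with hd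
  have hdn : d ∣ (n : ℤ) := Int.gcd_dvd_right A n
  have hdA : d ∣ A := Int.gcd_dvd_left A n
  have hn0 : (n : ℤ) ≠ 0 := by exact_mod_cast NeZero.ne n
  have hd0 : d ≠ 0 := fun h0 => hn0 (by rw [h0] at hdn; exact zero_dvd_iff.1 hdn)
  obtain ⟨e, he⟩ := hdn
  obtain ⟨A', hA'⟩ := hdA
  have he0 : e ≠ 0 := fun h0 => hn0 (by rw [he, h0, mul_zero])
  -- `e * A = n * A'`
  have h1 : ((e : ℤ) : ZMod n) * ((A : ℤ) : ZMod n) = 0 := by
    rw [← Int.cast_mul, hA']
    have : e * (d * A') = (n : ℤ) * A' := by rw [he]; ring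
    rw [this, Int.cast_mul, Int.cast_natCast, ZMod.natCast_self, zero_mul]
  have h2 := h _ h1
  rw [← Int.cast_mul, ZMod.intCast_zmod_eq_zero_iff_dvd] at h2
  -- `n ∣ e * Q` gives `d ∣ Q`
  have h3 : d ∣ Q := by
    rw [he] at h2
    have : d * e ∣ Q * e := by rwa [mul_comm Q e]
    exact (mul_dvd_mul_iff_right he0).1 this
  obtain ⟨Q', hQ'⟩ := h3
  -- Bezout
  have hb : d = A * Int.gcdA A n + n * Int.gcdB A n := Int.gcd_eq_gcd_ab A n
  refine ⟨((Int.gcdA A n * Q' : ℤ) : ZMod n), ?_⟩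
  rw [← Int.cast_mul]
  rw [ZMod.intCast_eq_intCast_iff_dvd_sub]
  refine ⟨-(Int.gcdB A n * Q'), ?_⟩
  rw [hQ']
  have : A * (Int.gcdA A ↑n * Q') - d * Q' = (A * Int.gcdA A n - d) * Q' := by ring
  rw [this]
  have hb' : A * Int.gcdA A n - d = -(n * Int.gcdB A n) := by rw [hb]; ring
  rw [hb']
  ring

/-- **`ℤ/n` is self-injective.** -/
theorem baer_zmod (n : ℕ) [NeZero n] : Module.Baer (ZMod n) (ZMod n) := by
  intro I g
  have : IsPrincipalIdealRing (ZMod n) :=
    IsPrincipalIdealRing.of_surjective (Int.castRingHom (ZMod n)) ZMod.intCast_surjective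
  obtain ⟨a, ha⟩ := (IsPrincipalIdealRing.principal I).principal
  have haI : a ∈ I := by rw [ha]; exact Submodule.mem_span_singleton_self a
  obtain ⟨q₁, hq₁⟩ := zmod_dvd_of_ann n a (g ⟨a, haI⟩) (fun r hr => by
    have h1 : r • (⟨a, haI⟩ : I) = 0 := Subtype.ext (by simpa using hr)
    have h2 := congrArg g h1
    rw [map_smul, map_zero, smul_eq_mul] at h2
    exact h2)
  refine ⟨LinearMap.toSpanSingleton (ZMod n) (ZMod n) q₁, fun x hx => ?_⟩
  have hx' := hx
  rw [ha] at hx'
  obtain ⟨s, rfl⟩ := Submodule.mem_span_singleton.1 hx'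
  have h1 : (⟨s • a, hx⟩ : I) = s • (⟨a, haI⟩ : I) := rfl
  have h2 : g ⟨s • a, hx⟩ = s * (a * q₁) := by
    rw [h1, map_smul, hq₁, smul_eq_mul]
  rw [h2, LinearMap.toSpanSingleton_apply]
  simp only [smul_eq_mul]
  ring

/-- extension of linear maps into `(ℤ/n)^t`. -/
theorem exists_extension_pi (n : ℕ) [NeZero n] {t : ℕ} {X Y : Type} [AddCommGroup X]
    [AddCommGroup Y] [Module (ZMod n) X] [Module (ZMod n) Y] (f : X →ₗ[ZMod n] Y)
    (hf : Function.Injective f) (g : X →ₗ[ZMod n] (Fin t → ZMod n)) :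
    ∃ h : Y →ₗ[ZMod n] (Fin t → ZMod n), h ∘ₗ f = g := by
  have hex : ∀ i : Fin t, ∃ h : Y →ₗ[ZMod n] ZMod n, h ∘ₗ f = (LinearMap.proj i) ∘ₗ g :=
    fun i => (baer_zmod n).extension_property f hf _
  choose h hh using hex
  refine ⟨LinearMap.pi h, ?_⟩
  ext x i
  have := congrArg (fun u : X →ₗ[ZMod n] ZMod n => u x) (hh i)
  simpa using this

/-- **Factorisation through a kernel**: if `ker A ⊆ ker B` then `B = D * A`. -/
theorem exists_factor_one (n : ℕ) [NeZero n] {r t : ℕ} {m : Type} [Fintype m] [DecidableEq m]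
    (A : Matrix m (Fin r) (ZMod n))
    (B : Matrix (Fin t) (Fin r) (ZMod n))
    (h : ∀ v : Fin r → ZMod n, A.mulVec v = 0 → B.mulVec v = 0) :
    ∃ D : Matrix (Fin t) m (ZMod n), B = D * A := by
  -- `g : range A → (ℤ/n)^t`
  have hker : LinearMap.ker A.mulVecLin ≤ LinearMap.ker B.mulVecLin := by
    intro v hv
    rw [LinearMap.mem_ker, Matrix.mulVecLin_apply] at hv ⊢
    exact h v hv
  let e := A.mulVecLin.quotKerEquivRange
  let g : LinearMap.range A.mulVecLin →ₗ[ZMod n] (Fin t → ZMod n) :=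
    ((LinearMap.ker A.mulVecLin).liftQ B.mulVecLin hker) ∘ₗ e.symm.toLinearMap
  obtain ⟨D, hD⟩ := exists_extension_pi n (LinearMap.range A.mulVecLin).subtype
    (Submodule.injective_subtype _) g
  refine ⟨LinearMap.toMatrix' D, ?_⟩
  apply Matrix.mulVec_injective
  funext v
  rw [← Matrix.mulVec_mulVec, LinearMap.toMatrix'_mulVec]
  have h1 : D (A.mulVec v) = g ⟨A.mulVecLin v, LinearMap.mem_range_self _ v⟩ := by
    rw [← hD]
    rfl
  rw [h1]
  show B.mulVec v = ((LinearMap.ker A.mulVecLin).liftQ B.mulVecLin hker)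
    (e.symm ⟨A.mulVecLin v, LinearMap.mem_range_self _ v⟩)
  have h2 : e.symm ⟨A.mulVecLin v, LinearMap.mem_range_self _ v⟩ =
      (LinearMap.ker A.mulVecLin).mkQ v := by
    rw [LinearEquiv.symm_apply_eq]
    rfl
  rw [h2]
  rfl

/-- a family of matrices over `ℤ/n` has the same common kernel as a finite subfamily. -/
theorem exists_finset_ker (n : ℕ) [NeZero n] {r : ℕ} {ι : Type}
    (A : ι → Matrix (Fin r) (Fin r) (ZMod n)) :
    ∃ J : Finset ι, ∀ v : Fin r → ZMod n, (∀ i ∈ J, (A i).mulVec v = 0) →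
      ∀ i, (A i).mulVec v = 0 := by
  classical
  have hch : ∀ v : Fin r → ZMod n, ∃ i₀ : Option ι, (∃ i, (A i).mulVec v ≠ 0) →
      ∃ i, i₀ = some i ∧ (A i).mulVec v ≠ 0 := by
    intro v
    by_cases hv : ∃ i, (A i).mulVec v ≠ 0
    · obtain ⟨i, hi⟩ := hv
      exact ⟨some i, fun _ => ⟨i, rfl, hi⟩⟩
    · exact ⟨none, fun h => absurd h hv⟩
  choose f hf using hch
  refine ⟨(Finset.univ.image f).eraseNone, fun v hv i => ?_⟩
  by_contra hne
  obtain ⟨i₀, hi₀, hi₀v⟩ := hf v ⟨i, hne⟩
  refine hi₀v (hv i₀ ?_)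
  rw [Finset.mem_eraseNone, ← hi₀]
  exact Finset.mem_image_of_mem f (Finset.mem_univ v)

/-- **Factorisation through the common kernel of a family.** -/
theorem exists_factor (n : ℕ) [NeZero n] {r t : ℕ} {ι : Type}
    (A : ι → Matrix (Fin r) (Fin r) (ZMod n)) (B : Matrix (Fin t) (Fin r) (ZMod n))
    (h : ∀ v : Fin r → ZMod n, (∀ i, (A i).mulVec v = 0) → B.mulVec v = 0) :
    ∃ (J : Finset ι) (D : ι → Matrix (Fin t) (Fin r) (ZMod n)), B = ∑ i ∈ J, D i * A i := by
  classical
  obtain ⟨J, hJ⟩ := exists_finset_ker n A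
  let Ast : Matrix (J × Fin r) (Fin r) (ZMod n) := fun x b => A x.1 x.2 b
  have hAst : ∀ v : Fin r → ZMod n, Ast.mulVec v = 0 → B.mulVec v = 0 := by
    intro v hv
    refine h v (hJ v fun i hi => ?_)
    funext a
    exact congrFun hv (⟨i, hi⟩, a)
  obtain ⟨D, hD⟩ := exists_factor_one n Ast B hAst
  let D' : ι → Matrix (Fin t) (Fin r) (ZMod n) := fun i =>
    if hi : i ∈ J then Matrix.of (fun a c => D a (⟨i, hi⟩, c)) else 0
  have hD' : ∀ j : J, D' j = Matrix.of (fun a c => D a (j, c)) := fun j => dif_pos j.2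
  refine ⟨J, D', ?_⟩
  rw [hD, ← Finset.sum_coe_sort J]
  ext a b
  rw [Matrix.mul_apply, Fintype.sum_prod_type, Matrix.sum_apply]
  refine Finset.sum_congr rfl fun j _ => ?_
  rw [hD' j, Matrix.mul_apply]
  rfl

/-- **Consequence over any `ℤ/n`-algebra**: a vector killed by all the `A i` is killed by `B`,
as soon as this holds over `ℤ/n`. -/
theorem mulVec_eq_zero_of_family (n : ℕ) [NeZero n] {r t : ℕ} {ι : Type}
    (A : ι → Matrix (Fin r) (Fin r) (ZMod n)) (B : Matrix (Fin t) (Fin r) (ZMod n))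
    (h : ∀ v : Fin r → ZMod n, (∀ i, (A i).mulVec v = 0) → B.mulVec v = 0)
    {R' : Type} [CommRing R'] (c : ZMod n →+* R') (u : Fin r → R')
    (hu : ∀ i, ((A i).map c).mulVec u = 0) : (B.map c).mulVec u = 0 := by
  obtain ⟨J, D, hD⟩ := exists_factor n A B h
  have h1 : B.map c = ∑ i ∈ J, (D i).map c * (A i).map c := by
    rw [hD]
    ext a b
    simp only [Matrix.map_apply, Matrix.sum_apply, Matrix.mul_apply, map_sum, map_mul]
  rw [h1, Matrix.sum_mulVec]
  refine Finset.sum_eq_zero fun i _ => ?_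
  rw [← Matrix.mulVec_mulVec, hu i, Matrix.mulVec_zero]

end Fermat.Agent.GTor.H81

end
end
-- ==== END Fermat.Agent.GTor.H81_SelfInj
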