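-- GENERATED (merged mirror, NOTES/tools/trim/merge3_helper67.py): 10 modules of the originals, bodies verbatim.
import Mathlib
import Fermat.Statements.S28
import Fermat.Prelude.Def_ModularCurve_HeckeModule
import Fermat.Prelude.Def_ModularCurve_HeckeOperator
import Fermat.Prelude.Def_ModularCurve_ArithmeticGalois
import Fermat.Prelude.Def_FLTPrelim_Ramification
import Fermat.Prelude.Def_EllipticCurve_FrobeniusTrace
import Fermat.Prelude.Def_FormalHecke_Eigensystem
import Fermat.Prelude.Def_FLTPrelim_Modularity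
import Fermat.Prelude.Def_ModularForm_HeckeOperatorForms
import Fermat.Prelude.Def_CuspForm_HeckeAlgebra
import Fermat.Prelude.Def_CuspForm_IntegralStructure
import Fermat.Prelude.Thm_CongruenceSubgroup_one_mem_strictPeriods_Gamma0
import Fermat.Prelude.Thm_ModularFormClass_qCoeff_heckeT
import Fermat.Prelude.Thm_ModularFormClass_qCoeff_heckeU
import Fermat.Prelude.Thm_UpperHalfPlane_eq_of_forall_qCoeff_eq
import Fermat.Prelude.Def_GaloisRep_Residual
import Fermat.Prelude.Def_CuspForm_HeckeGaloisRepDatum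
import Fermat.Prelude.Def_CuspForm_Newforms
import Fermat.Prelude.Def_GaloisRep_LocalConditions
import Fermat.Prelude.Def_WeierstrassCurve_ConductorLevel
import Fermat.Prelude.Def_FLTPrelim_ModularRep
import Fermat.Agent.R.H89_Quad

-- ==== BEGIN Fermat.Agent.S24.Scott
section

set_option autoImplicit false

namespace Fermat.Agent.S24

open Module

section fixed

variable {X : Type*}

/-- The permutation operator `f ↦ f ∘ g` on `X → ℚ`. -/
noncomputable def permOp (g : Equiv.Perm X) : (X → ℚ) →ₗ[ℚ] (X → ℚ) :=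
  LinearMap.funLeft ℚ ℚ g

@[simp] lemma permOp_apply (g : Equiv.Perm X) (f : X → ℚ) (x : X) : permOp g f x = f (g x) := rfl

lemma permOp_mul (g h : Equiv.Perm X) : permOp (g * h) = permOp h ∘ₗ permOp g := by
  ext f x
  simp [permOp, LinearMap.funLeft]

lemma permOp_one : permOp (1 : Equiv.Perm X) = LinearMap.id := by
  ext f x
  simp [permOp, LinearMap.funLeft]

/-- The subgroup of permutations fixing a function. -/
def fixer (f : X → ℚ) : Subgroup (Equiv.Perm X) where
  carrier := {h | ∀ x, f (h x) = f x}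
  one_mem' := fun x => rfl
  mul_mem' := by
    intro a b ha hb x
    show f (a (b x)) = f x
    rw [ha, hb]
  inv_mem' := by
    intro a ha x
    have := ha (a⁻¹ x)
    have h2 : a (a⁻¹ x) = x := by simp
    rw [h2] at this
    exact this.symm

lemma mem_fixer {f : X → ℚ} {h : Equiv.Perm X} : h ∈ fixer f ↔ ∀ x, f (h x) = f x := Iff.rfl

/-- The fixed space of `permOp g` is isomorphic to the functions on the orbits of `zpowers g`. -/
noncomputable def fixedEquiv (g : Equiv.Perm X) :
    (MulAction.orbitRel.Quotient (Subgroup.zpowers g) X → ℚ) ≃ₗ[ℚ]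
      LinearMap.ker (permOp g - LinearMap.id) where
  toFun φ := ⟨fun x => φ (Quotient.mk'' x), by
    rw [LinearMap.mem_ker]
    ext x
    simp only [LinearMap.sub_apply, permOp_apply, LinearMap.id_apply, Pi.sub_apply, Pi.zero_apply]
    rw [sub_eq_zero]
    congr 1
    apply Quotient.sound'
    show (MulAction.orbitRel (Subgroup.zpowers g) X).r (g x) x
    rw [MulAction.orbitRel_apply]
    exact ⟨⟨g, Subgroup.mem_zpowers g⟩, rfl⟩⟩
  map_add' φ ψ := by
    apply Subtype.ext
    funext x
    rfl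
  map_smul' c φ := by
    apply Subtype.ext
    funext x
    rfl
  invFun f := fun q => Quotient.liftOn' q (f : X → ℚ) (by
    intro a b hab
    have hab' : (MulAction.orbitRel (Subgroup.zpowers g) X).r a b := hab
    rw [MulAction.orbitRel_apply] at hab'
    obtain ⟨⟨h, hh⟩, rfl⟩ := hab'
    have hf : g ∈ fixer (f : X → ℚ) := by
      intro x
      have := f.2
      rw [LinearMap.mem_ker] at this
      have := congrFun this x
      simp only [LinearMap.sub_apply, permOp_apply, LinearMap.id_apply, Pi.sub_apply,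
        Pi.zero_apply] at this
      exact sub_eq_zero.1 this
    have hle : Subgroup.zpowers g ≤ fixer (f : X → ℚ) := (Subgroup.zpowers_le).2 hf
    exact hle hh b)
  left_inv φ := by
    funext q
    induction q using Quotient.inductionOn' with
    | h x => rfl
  right_inv f := by
    apply Subtype.ext
    funext x
    rfl

lemma finrank_fixed [Fintype X] (g : Equiv.Perm X) :
    finrank ℚ (LinearMap.ker (permOp g - LinearMap.id)) =
      Nat.card (MulAction.orbitRel.Quotient (Subgroup.zpowers g) X) := by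
  classical
  let _ : Fintype (MulAction.orbitRel.Quotient (Subgroup.zpowers g) X) := Fintype.ofFinite _
  rw [← (fixedEquiv g).finrank_eq, Module.finrank_fintype_fun_eq_card, Nat.card_eq_fintype_card]

end fixed

section scott

variable {X : Type*} [Fintype X]

/-- `permOp g - 1`. -/
noncomputable def dOp (g : Equiv.Perm X) : (X → ℚ) →ₗ[ℚ] (X → ℚ) := permOp g - LinearMap.id

omit [Fintype X] in
lemma dOp_apply (g : Equiv.Perm X) (v : X → ℚ) : dOp g v = permOp g v - v := rfl

/-- The map `β : V → R_t × R_s × R_u`. -/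
noncomputable def scottBeta (s t : Equiv.Perm X) :
    (X → ℚ) →ₗ[ℚ] (LinearMap.range (dOp t) × LinearMap.range (dOp s) ×
      LinearMap.range (dOp (s * t)⁻¹)) :=
  LinearMap.prod (dOp t).rangeRestrict
    (LinearMap.prod (dOp s).rangeRestrict (dOp (s * t)⁻¹).rangeRestrict)

/-- The map `δ : R_t × R_s × R_u → V`. -/
noncomputable def scottDelta (s t : Equiv.Perm X) :
    (LinearMap.range (dOp t) × LinearMap.range (dOp s) ×
      LinearMap.range (dOp (s * t)⁻¹)) →ₗ[ℚ] (X → ℚ) :=
  LinearMap.coprod (LinearMap.range (dOp t)).subtype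
    (LinearMap.coprod (permOp t ∘ₗ (LinearMap.range (dOp s)).subtype)
      (permOp (s * t) ∘ₗ (LinearMap.range (dOp (s * t)⁻¹)).subtype))

omit [Fintype X] in
lemma scottDelta_apply (s t : Equiv.Perm X)
    (w : LinearMap.range (dOp t) × LinearMap.range (dOp s) × LinearMap.range (dOp (s * t)⁻¹)) :
    scottDelta s t w = (w.1 : X → ℚ) + (permOp t (w.2.1 : X → ℚ) + permOp (s * t) (w.2.2 : X → ℚ)) := by
  simp [scottDelta]

omit [Fintype X] in
lemma scottBeta_fst (s t : Equiv.Perm X) (v : X → ℚ) :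
    ((scottBeta s t v).1 : X → ℚ) = dOp t v := rfl

omit [Fintype X] in
lemma scottBeta_snd_fst (s t : Equiv.Perm X) (v : X → ℚ) :
    ((scottBeta s t v).2.1 : X → ℚ) = dOp s v := rfl

omit [Fintype X] in
lemma scottBeta_snd_snd (s t : Equiv.Perm X) (v : X → ℚ) :
    ((scottBeta s t v).2.2 : X → ℚ) = dOp (s * t)⁻¹ v := rfl

omit [Fintype X] in
lemma scottDelta_comp_beta (s t : Equiv.Perm X) (v : X → ℚ) :
    scottDelta s t (scottBeta s t v) = 0 := by
  rw [scottDelta_apply, scottBeta_fst, scottBeta_snd_fst, scottBeta_snd_snd]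
  funext x
  simp only [dOp_apply, Pi.add_apply, Pi.sub_apply, permOp_apply, Pi.zero_apply]
  have h1 : (s * t)⁻¹ ((s * t) x) = x := by simp
  have h2 : (s * t) x = s (t x) := rfl
  rw [h1, h2]
  ring

omit [Fintype X] in
lemma dOp_t_mem_range_delta (s t : Equiv.Perm X) (v : X → ℚ) :
    dOp t v ∈ LinearMap.range (scottDelta s t) := by
  refine ⟨(⟨dOp t v, LinearMap.mem_range_self _ v⟩, 0, 0), ?_⟩
  rw [scottDelta_apply]
  simp

omit [Fintype X] in
lemma permOp_inv_apply (g : Equiv.Perm X) (v : X → ℚ) : permOp g (permOp g⁻¹ v) = v := by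
  funext x
  simp

omit [Fintype X] in
lemma permOp_apply_inv (g : Equiv.Perm X) (v : X → ℚ) : permOp g⁻¹ (permOp g v) = v := by
  funext x
  simp

omit [Fintype X] in
/-- The range of `δ` is stable under `permOp t⁻¹`. -/
lemma permOp_t_inv_mem_range_delta (s t : Equiv.Perm X) (w : X → ℚ)
    (hw : w ∈ LinearMap.range (scottDelta s t)) :
    permOp t⁻¹ w ∈ LinearMap.range (scottDelta s t) := by
  have h : permOp t⁻¹ w = w - dOp t (permOp t⁻¹ w) := by
    rw [dOp_apply, permOp_inv_apply]
    abel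
  rw [h]
  exact Submodule.sub_mem _ hw (dOp_t_mem_range_delta s t _)

omit [Fintype X] in
lemma dOp_s_mem_range_delta (s t : Equiv.Perm X) (v : X → ℚ) :
    dOp s v ∈ LinearMap.range (scottDelta s t) := by
  have h1 : permOp t (dOp s v) ∈ LinearMap.range (scottDelta s t) := by
    refine ⟨(0, ⟨dOp s v, LinearMap.mem_range_self _ v⟩, 0), ?_⟩
    rw [scottDelta_apply]
    simp
  have h2 := permOp_t_inv_mem_range_delta s t _ h1
  rwa [permOp_apply_inv] at h2

/-- The subgroup of permutations `g` with `range (dOp g) ≤ range δ`. -/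
def goodSubgroup (I : Submodule ℚ (X → ℚ)) : Subgroup (Equiv.Perm X) where
  carrier := {g | ∀ v, dOp g v ∈ I}
  one_mem' := by
    intro v
    have : dOp (1 : Equiv.Perm X) v = 0 := by
      funext x
      simp [dOp_apply]
    rw [this]
    exact I.zero_mem
  mul_mem' := by
    intro a b ha hb v
    have : dOp (a * b) v = dOp b (permOp a v) + dOp a v := by
      funext x
      simp only [dOp_apply, Pi.sub_apply, Pi.add_apply, permOp_apply]
      have : (a * b) x = a (b x) := rfl
      rw [this]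
      ring
    rw [this]
    exact I.add_mem (hb _) (ha _)
  inv_mem' := by
    intro a ha v
    have : dOp a⁻¹ v = - dOp a (permOp a⁻¹ v) := by
      rw [dOp_apply, dOp_apply, permOp_inv_apply]
      abel
    rw [this]
    exact I.neg_mem (ha _)

omit [Fintype X] in
lemma closure_le_goodSubgroup (s t : Equiv.Perm X) :
    Subgroup.closure {s, t} ≤ goodSubgroup (LinearMap.range (scottDelta s t)) := by
  rw [Subgroup.closure_le]
  intro g hg
  rcases hg with rfl | rfl
  · exact fun v => dOp_s_mem_range_delta _ _ v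
  · exact fun v => dOp_t_mem_range_delta _ _ v

omit [Fintype X] in
/-- Differences of basis vectors lie in the range of `δ`. -/
lemma single_sub_single_mem [DecidableEq X] (s t : Equiv.Perm X)
    (htrans : ∀ x y : X, ∃ g ∈ Subgroup.closure {s, t}, g x = y) (x y : X) :
    (Pi.single x (1 : ℚ) - Pi.single y (1 : ℚ) : X → ℚ) ∈ LinearMap.range (scottDelta s t) := by
  obtain ⟨g, hg, hgx⟩ := htrans x y
  have h := closure_le_goodSubgroup s t hg (Pi.single y (1 : ℚ))
  have e : dOp g (Pi.single y (1 : ℚ)) = (Pi.single x (1 : ℚ) - Pi.single y (1 : ℚ) : X → ℚ) := by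
    funext z
    simp only [dOp_apply, Pi.sub_apply, permOp_apply]
    congr 1
    by_cases hz : z = x
    · subst hz
      rw [hgx]
      simp
    · have : g z ≠ y := by
        intro h'
        apply hz
        apply g.injective
        rw [h', hgx]
      simp [hz, this]
  rwa [e] at h

/-- The coordinate-sum functional. -/
noncomputable def sumFun : (X → ℚ) →ₗ[ℚ] ℚ :=
  ∑ x : X, LinearMap.proj x

lemma sumFun_apply (v : X → ℚ) : sumFun v = ∑ x, v x := by
  simp [sumFun]

lemma ker_sumFun_le (s t : Equiv.Perm X) [Nonempty X]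
    (htrans : ∀ x y : X, ∃ g ∈ Subgroup.closure {s, t}, g x = y) :
    LinearMap.ker (sumFun (X := X)) ≤ LinearMap.range (scottDelta s t) := by
  classical
  intro v hv
  rw [LinearMap.mem_ker, sumFun_apply] at hv
  obtain ⟨x0⟩ := ‹Nonempty X›
  have hv' : v = ∑ x, v x • (Pi.single x (1 : ℚ) - Pi.single x0 (1 : ℚ) : X → ℚ) := by
    funext z
    simp only [Finset.sum_apply, Pi.smul_apply, Pi.sub_apply, smul_eq_mul, mul_sub,
      Finset.sum_sub_distrib, Pi.single_apply, mul_ite, mul_one, mul_zero]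
    rw [Finset.sum_ite_eq Finset.univ z v]
    by_cases hz : z = x0
    · simp [hz, hv]
    · simp [hz]
  rw [hv']
  exact Submodule.sum_mem _ fun x _ => Submodule.smul_mem _ _ (single_sub_single_mem s t htrans x x0)

lemma finrank_ker_sumFun [Nonempty X] :
    finrank ℚ (LinearMap.ker (sumFun (X := X))) + 1 = Fintype.card X := by
  classical
  have h := LinearMap.finrank_range_add_finrank_ker (sumFun (X := X))
  have hsurj : LinearMap.range (sumFun (X := X)) = ⊤ := by
    rw [LinearMap.range_eq_top]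
    intro c
    obtain ⟨x0⟩ := ‹Nonempty X›
    refine ⟨Pi.single x0 c, ?_⟩
    rw [sumFun_apply]
    simp
  rw [hsurj, finrank_top, Module.finrank_self, Module.finrank_fintype_fun_eq_card] at h
  omega

omit [Fintype X] in
lemma finrank_ker_beta_le (s t : Equiv.Perm X) [Nonempty X]
    (htrans : ∀ x y : X, ∃ g ∈ Subgroup.closure {s, t}, g x = y) :
    finrank ℚ (LinearMap.ker (scottBeta s t)) ≤ 1 := by
  have hle : LinearMap.ker (scottBeta s t) ≤ Submodule.span ℚ {(fun _ => (1 : ℚ) : X → ℚ)} := by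
    intro v hv
    rw [LinearMap.mem_ker] at hv
    have h1 : dOp t v = 0 := by
      rw [← scottBeta_fst s t v, hv]; rfl
    have h2 : dOp s v = 0 := by
      rw [← scottBeta_snd_fst s t v, hv]; rfl
    have ht : t ∈ fixer v := fun x => by
      have := congrFun h1 x
      simp only [dOp_apply, Pi.sub_apply, permOp_apply, Pi.zero_apply] at this
      exact sub_eq_zero.1 this
    have hs : s ∈ fixer v := fun x => by
      have := congrFun h2 x
      simp only [dOp_apply, Pi.sub_apply, permOp_apply, Pi.zero_apply] at this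
      exact sub_eq_zero.1 this
    have hcl : Subgroup.closure {s, t} ≤ fixer v := by
      rw [Subgroup.closure_le]
      intro g hg
      rcases hg with rfl | rfl
      · exact hs
      · exact ht
    obtain ⟨x0⟩ := ‹Nonempty X›
    rw [Submodule.mem_span_singleton]
    refine ⟨v x0, ?_⟩
    funext y
    obtain ⟨g, hg, hgy⟩ := htrans x0 y
    have := hcl hg x0
    rw [hgy] at this
    simp [this]
  calc finrank ℚ (LinearMap.ker (scottBeta s t))
      ≤ finrank ℚ (Submodule.span ℚ {(fun _ => (1 : ℚ) : X → ℚ)}) :=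
        Submodule.finrank_mono hle
    _ ≤ 1 := by
        have := finrank_span_le_card (R := ℚ) ({(fun _ => (1 : ℚ) : X → ℚ)} : Set (X → ℚ))
        simpa using this

lemma finrank_range_dOp (g : Equiv.Perm X) :
    finrank ℚ (LinearMap.range (dOp g)) +
      Nat.card (MulAction.orbitRel.Quotient (Subgroup.zpowers g) X) = Fintype.card X := by
  have h := LinearMap.finrank_range_add_finrank_ker (dOp g)
  rw [Module.finrank_fintype_fun_eq_card] at h
  rw [← finrank_fixed g]
  exact h

/-- **Scott's inequality** for a transitive pair of permutations. -/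
theorem scott_inequality [Nonempty X] (s t : Equiv.Perm X)
    (htrans : ∀ x y : X, ∃ g ∈ Subgroup.closure {s, t}, g x = y) :
    Nat.card (MulAction.orbitRel.Quotient (Subgroup.zpowers s) X)
      + Nat.card (MulAction.orbitRel.Quotient (Subgroup.zpowers t) X)
      + Nat.card (MulAction.orbitRel.Quotient (Subgroup.zpowers (s * t)) X) ≤ Fintype.card X + 2 := by
  have hs := finrank_range_dOp s
  have ht := finrank_range_dOp t
  have hu := finrank_range_dOp (s * t)⁻¹
  rw [Subgroup.zpowers_inv] at hu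
  have hD : finrank ℚ (LinearMap.range (dOp t) × LinearMap.range (dOp s) ×
      LinearMap.range (dOp (s * t)⁻¹)) =
      finrank ℚ (LinearMap.range (dOp t)) + (finrank ℚ (LinearMap.range (dOp s)) +
        finrank ℚ (LinearMap.range (dOp (s * t)⁻¹))) := by
    rw [Module.finrank_prod, Module.finrank_prod]
  have hδ := LinearMap.finrank_range_add_finrank_ker (scottDelta s t)
  have hβ := LinearMap.finrank_range_add_finrank_ker (scottBeta s t)
  rw [Module.finrank_fintype_fun_eq_card] at hβ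
  have hle : LinearMap.range (scottBeta s t) ≤ LinearMap.ker (scottDelta s t) := by
    rintro _ ⟨v, rfl⟩
    rw [LinearMap.mem_ker]
    exact scottDelta_comp_beta s t v
  have h1 : finrank ℚ (LinearMap.range (scottBeta s t)) ≤
      finrank ℚ (LinearMap.ker (scottDelta s t)) := Submodule.finrank_mono hle
  have h2 : finrank ℚ (LinearMap.ker (sumFun (X := X))) ≤
      finrank ℚ (LinearMap.range (scottDelta s t)) :=
    Submodule.finrank_mono (ker_sumFun_le s t htrans)
  have h3 := finrank_ker_sumFun (X := X)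
  have h4 := finrank_ker_beta_le s t htrans
  omega

end scott

section parity

variable {X : Type*}

lemma orbitRel_iff_sameCycle (g : Equiv.Perm X) (x y : X) :
    (MulAction.orbitRel (Subgroup.zpowers g) X).r x y ↔ g.SameCycle y x := by
  rw [MulAction.orbitRel_apply, MulAction.mem_orbit_iff]
  constructor
  · rintro ⟨⟨h, hh⟩, rfl⟩
    obtain ⟨k, rfl⟩ := Subgroup.mem_zpowers_iff.1 hh
    exact ⟨k, rfl⟩
  · rintro ⟨k, hk⟩
    exact ⟨⟨g ^ k, ⟨k, rfl⟩⟩, hk⟩

open Classical in
/-- Auxiliary map: a point goes to itself if fixed, and to its cycle otherwise. -/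
noncomputable def orbitAux [Fintype X] (g : Equiv.Perm X) (x : X) :
    (Function.fixedPoints g) ⊕ {c // c ∈ g.cycleFactorsFinset} :=
  if h : g x = x then Sum.inl ⟨x, h⟩
  else Sum.inr ⟨g.cycleOf x,
    Equiv.Perm.cycleOf_mem_cycleFactorsFinset_iff.2 (Equiv.Perm.mem_support.2 h)⟩

open Classical in
lemma orbitAux_eq_iff [Fintype X] (g : Equiv.Perm X) (x y : X) :
    orbitAux g x = orbitAux g y ↔ g.SameCycle x y := by
  unfold orbitAux
  constructor
  · intro h
    by_cases hx : g x = x <;> by_cases hy : g y = y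
    · rw [dif_pos hx, dif_pos hy] at h
      have := Sum.inl.inj h
      have : x = y := congrArg Subtype.val this
      rw [this]
    · rw [dif_pos hx, dif_neg hy] at h
      exact absurd h (by simp)
    · rw [dif_neg hx, dif_pos hy] at h
      exact absurd h (by simp)
    · rw [dif_neg hx, dif_neg hy] at h
      have := Sum.inr.inj h
      have : g.cycleOf x = g.cycleOf y := congrArg Subtype.val this
      exact (Equiv.Perm.sameCycle_iff_cycleOf_eq_of_mem_support
        (Equiv.Perm.mem_support.2 hx) (Equiv.Perm.mem_support.2 hy)).2 this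
  · intro h
    by_cases hx : g x = x
    · have hy : g y = y := h.apply_eq_self_iff.1 hx
      have hxy : x = y := h.eq_of_left hx
      subst hxy
      rfl
    · have hy : ¬ g y = y := fun hy => hx (h.apply_eq_self_iff.2 hy)
      rw [dif_neg hx, dif_neg hy]
      congr 1
      apply Subtype.ext
      exact h.cycleOf_eq

open Classical in
lemma orbitAux_surjective [Fintype X] (g : Equiv.Perm X) : Function.Surjective (orbitAux g) := by
  rintro (⟨x, hx⟩ | ⟨c, hc⟩)
  · refine ⟨x, ?_⟩
    unfold orbitAux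
    have hx' : g x = x := hx
    rw [dif_pos hx']
  · have hcyc := (Equiv.Perm.mem_cycleFactorsFinset_iff.1 hc).1
    obtain ⟨a, ha, -⟩ := hcyc
    have ha' : a ∈ c.support := Equiv.Perm.mem_support.2 ha
    have hca : c = g.cycleOf a := Equiv.Perm.cycle_is_cycleOf ha' hc
    have hga : a ∈ g.support := by
      rw [← Equiv.Perm.cycleOf_mem_cycleFactorsFinset_iff, ← hca]
      exact hc
    refine ⟨a, ?_⟩
    unfold orbitAux
    rw [dif_neg (Equiv.Perm.mem_support.1 hga)]
    congr 1
    apply Subtype.ext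
    exact hca.symm

open Classical in
/-- The number of orbits of `zpowers g` is the number of fixed points plus the number of
nontrivial cycles. -/
lemma card_orbits_eq [Fintype X] (g : Equiv.Perm X) :
    Nat.card (MulAction.orbitRel.Quotient (Subgroup.zpowers g) X) =
      (Fintype.card X - g.cycleType.sum) + Multiset.card g.cycleType := by
  let φ : MulAction.orbitRel.Quotient (Subgroup.zpowers g) X →
      (Function.fixedPoints g) ⊕ {c // c ∈ g.cycleFactorsFinset} :=
    fun q => Quotient.liftOn' q (orbitAux g) (by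
      intro a b hab
      have hab' : (MulAction.orbitRel (Subgroup.zpowers g) X).r a b := hab
      rw [orbitRel_iff_sameCycle] at hab'
      exact (orbitAux_eq_iff g a b).2 hab'.symm)
  have hinj : Function.Injective φ := by
    intro q₁ q₂ h
    induction q₁ using Quotient.inductionOn' with
    | h a =>
      induction q₂ using Quotient.inductionOn' with
      | h b =>
        apply Quotient.sound'
        show (MulAction.orbitRel (Subgroup.zpowers g) X).r a b
        rw [orbitRel_iff_sameCycle]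
        exact ((orbitAux_eq_iff g a b).1 h).symm
  have hsurj : Function.Surjective φ := by
    intro y
    obtain ⟨x, hx⟩ := orbitAux_surjective g y
    exact ⟨Quotient.mk'' x, hx⟩
  rw [Nat.card_congr (Equiv.ofBijective φ ⟨hinj, hsurj⟩), Nat.card_eq_fintype_card,
    Fintype.card_sum, Equiv.Perm.card_fixedPoints, Fintype.card_coe, Equiv.Perm.cycleType_def,
    Multiset.card_map]
  rfl

open Classical in
lemma sign_eq_neg_one_pow [Fintype X] (g : Equiv.Perm X) :
    Equiv.Perm.sign g = (-1 : ℤˣ) ^ (Fintype.card X +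
      Nat.card (MulAction.orbitRel.Quotient (Subgroup.zpowers g) X)) := by
  rw [card_orbits_eq, Equiv.Perm.sign_of_cycleType]
  have hle := g.sum_cycleType_le
  have e : Fintype.card X + (Fintype.card X - g.cycleType.sum + Multiset.card g.cycleType) =
      (g.cycleType.sum + Multiset.card g.cycleType) + 2 * (Fintype.card X - g.cycleType.sum) := by
    omega
  rw [e, pow_add _ _ (2 * _), pow_mul]
  simp

open Classical in
/-- Parity part of the Riemann-Hurwitz count for a pair of permutations. -/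
theorem scott_parity [Fintype X] (s t : Equiv.Perm X) :
    Even (Fintype.card X
      + Nat.card (MulAction.orbitRel.Quotient (Subgroup.zpowers s) X)
      + Nat.card (MulAction.orbitRel.Quotient (Subgroup.zpowers t) X)
      + Nat.card (MulAction.orbitRel.Quotient (Subgroup.zpowers (s * t)) X)) := by
  have hs := sign_eq_neg_one_pow s
  have ht := sign_eq_neg_one_pow t
  have hst := sign_eq_neg_one_pow (s * t)
  rw [map_mul, hs, ht, ← pow_add] at hst
  set n := Fintype.card X
  set a := Nat.card (MulAction.orbitRel.Quotient (Subgroup.zpowers s) X)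
  set b := Nat.card (MulAction.orbitRel.Quotient (Subgroup.zpowers t) X)
  set c := Nat.card (MulAction.orbitRel.Quotient (Subgroup.zpowers (s * t)) X)
  have h1 : ((-1 : ℤˣ) ^ (n + a + (n + b))) * (-1 : ℤˣ) ^ (n + c) = 1 := by
    rw [hst, ← pow_add, ← two_mul, pow_mul]
    simp
  rw [← pow_add] at h1
  have hne : (-1 : ℤˣ) ≠ 1 := by decide
  have h2 : Even (n + a + (n + b) + (n + c)) := (neg_one_pow_eq_one_iff_even hne).1 h1
  have h3 : n + a + (n + b) + (n + c) = (n + a + b + c) + 2 * n := by ring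
  rw [h3] at h2
  exact (Nat.even_add.1 h2).2 (even_two_mul n)

end parity

/-- WP-Scott: Ree/Scott inequality + parity for a transitive pair of permutations. -/
theorem wp_scott {X : Type*} [Fintype X] [Nonempty X] (s t : Equiv.Perm X)
    (htrans : ∀ x y : X, ∃ g ∈ Subgroup.closure {s, t}, g x = y) :
    Nat.card (MulAction.orbitRel.Quotient (Subgroup.zpowers s) X)
      + Nat.card (MulAction.orbitRel.Quotient (Subgroup.zpowers t) X)
      + Nat.card (MulAction.orbitRel.Quotient (Subgroup.zpowers (s * t)) X) ≤ Fintype.card X + 2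
    ∧ Even (Fintype.card X
      + Nat.card (MulAction.orbitRel.Quotient (Subgroup.zpowers s) X)
      + Nat.card (MulAction.orbitRel.Quotient (Subgroup.zpowers t) X)
      + Nat.card (MulAction.orbitRel.Quotient (Subgroup.zpowers (s * t)) X)) :=
  ⟨scott_inequality s t htrans, scott_parity s t⟩

end Fermat.Agent.S24

end
-- ==== END Fermat.Agent.S24.Scott

-- ==== BEGIN Fermat.Agent.S28.Defs
section

/-!
# S28 (Igusa integrality): interface definitions (coordinator: helper82)

Architecture "Omega":  the algebra core runs over `(C, O)` with `C` an algebraically closed field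
(in the application `C = ℂ`) and `O : ValuationSubring C` ARBITRARY (not discrete),
series ring `LaurentSeries C` (variable `t = q^(1/N)`).  One descent to `ℚ` at the very end.

Chain of implications (all `Stmt_*` are `Prop`s; the final file proves `S28` from them):

* `Stmt_CA`       : `∀ N, Nonempty (CAData N)`                       (complex analysis, WP-F)
* `Stmt_Core`     : Lemma A + Lemma B over `(C, O)`                    (WP-C)
* `Stmt_Lagrange` : the other conjugate families lie in `C(u, J)`      (WP-C3)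
* `Stmt_Descent`  : descent from `ℂ((t))` to `ℚ((q))`                   (WP-D)
* glue            : the four above give `KeyU N ℓ` for `ℓ ∤ N`         (helper82)
* `Stmt_WPB`      : `KeyU N ℓ` gives the three tensor facts           (WP-B)
* `WPA_Statement` : tensor facts give `S28`                            (WP-A, DONE by helper79)
-/

set_option autoImplicit false
open ModularCurve ModularCurve.IgusaScheme
noncomputable section

namespace Fermat.Agent.S28

section Gauss

variable {C : Type} [Field C]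

/-- All coefficients of the Laurent series lie in the subring `O`. -/
def CoeffsIn (O : Subring C) (f : LaurentSeries C) : Prop := ∀ n : ℤ, f.coeff n ∈ O

/-- `g` has coefficients in `O` and one coefficient is a unit of `O`. -/
def PrimSeries (O : Subring C) (g : LaurentSeries C) : Prop :=
  CoeffsIn O g ∧ ∃ n : ℤ, g.coeff n ≠ 0 ∧ (g.coeff n)⁻¹ ∈ O

/-- Membership in the "Gauss valuation ring": `x * g` has coefficients in `O` for a primitive `g`. -/
def GaussInt (O : Subring C) (x : LaurentSeries C) : Prop :=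
  ∃ g : LaurentSeries C, PrimSeries O g ∧ CoeffsIn O (x * g)

/-- Coefficients in `O`, nonzero, and the leading coefficient is a unit of `O`. -/
def UnitLead (O : Subring C) (f : LaurentSeries C) : Prop :=
  CoeffsIn O f ∧ f ≠ 0 ∧ (f.leadingCoeff)⁻¹ ∈ O

/-- A polynomial with coefficients in `O`, one of which is a unit of `O`. -/
def PrimPoly (O : Subring C) (s : Polynomial C) : Prop :=
  (∀ i : ℕ, s.coeff i ∈ O) ∧ ∃ i : ℕ, s.coeff i ≠ 0 ∧ (s.coeff i)⁻¹ ∈ O

end Gauss

/-! ## The key claim (U) over `ℚ` -/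

/-- **(U)**: every element of the function field which is Gauss-integral at `ℓ` becomes
integral over `ℤ_(ℓ)[j]` after multiplication by `s(j)` for a primitive polynomial `s`. -/
def KeyU (N : ℕ) [NeZero N] (ℓ : ℕ) [Fact ℓ.Prime] : Prop :=
  ∀ x : ↥(modularFunctionFieldFull N),
    GaussInt (GaloisRep.ratLocalizedAt ℓ) (x : LaurentSeries ℚ) →
    ∃ s : Polynomial ↥(GaloisRep.ratLocalizedAt ℓ), (∃ i : ℕ, IsUnit (s.coeff i)) ∧
      IsIntegral (Algebra.adjoin ↥(GaloisRep.ratLocalizedAt ℓ) ({jFull N} : Set ↥(modularFunctionFieldFull N)))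
        (Polynomial.aeval (jFull N) s * x)

/-- **WP-B**: `(U)` implies the three facts about the charts needed by WP-A. -/
def Stmt_WPB : Prop :=
  ∀ (N : ℕ) [NeZero N] (ℓ : ℕ) [Fact ℓ.Prime], KeyU N ℓ →
    ∀ (K : Type) [Field K] [CharP K ℓ] [Algebra ↥(GaloisRep.ratLocalizedAt ℓ) K],
      IsDomain (TensorProduct ↥(GaloisRep.ratLocalizedAt ℓ) ↥(chartAlgFin N ℓ) K) ∧
      IsDomain (TensorProduct ↥(GaloisRep.ratLocalizedAt ℓ) ↥(chartAlgInf N ℓ) K) ∧
      Nontrivial (TensorProduct ↥(GaloisRep.ratLocalizedAt ℓ) ↥(chartAlgMid N ℓ) K)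

/-! ## The abstract algebra core over `(C, O)` -/

/-- Hypotheses of the algebra core.  `J` plays the role of `j(t^N)`, `U q₀ = u` is the modular unit,
`U q` its conjugates. `nJ = N` is the ramification of `t` over `q`. -/
structure CoreHyp {C : Type} [Field C] (O : ValuationSubring C) {Q : Type} [Fintype Q]
    (q₀ : Q) (J : LaurentSeries C) (U : Q → LaurentSeries C) (nJ D : ℕ) : Prop where
  nJ_pos : 0 < nJ
  D_pos : 0 < D
  J_unitLead : UnitLead O.toSubring J
  J_order : J.order = -(nJ : ℤ)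
  U_unitLead : ∀ q, UnitLead O.toSubring (U q)
  U_order₀ : (U q₀).order = -((D : ℤ) * (nJ : ℤ))
  U_order_pos : ∀ q, q ≠ q₀ → 0 < (U q).order
  sym : ∀ c : C, (∏ q, (HahnSeries.C c - U q)) ∈ Algebra.adjoin C ({J} : Set (LaurentSeries C))

/-- **WP-C (core)**: Lemma A + Lemma B.  Every Gauss-integral element of `C(u, J)` becomes integral
over `O[J]` after multiplication by `n(J)`, `n` primitive. -/
def Stmt_Core : Prop :=
  ∀ (C : Type) [Field C] [IsAlgClosed C] (O : ValuationSubring C) (Q : Type) [Fintype Q]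
    (q₀ : Q) (J : LaurentSeries C) (U : Q → LaurentSeries C) (nJ D : ℕ),
    CoreHyp O q₀ J U nJ D →
    ∀ x : LaurentSeries C, x ∈ IntermediateField.adjoin C ({U q₀, J} : Set (LaurentSeries C)) →
      GaussInt O.toSubring x →
      ∃ n : Polynomial C, PrimPoly O.toSubring n ∧
        IsIntegral (Algebra.adjoin (↥O) ({J} : Set (LaurentSeries C))) (Polynomial.aeval J n * x)

/-- **WP-C3 (Lagrange)**: if all `∏_q (c - U q - s X q)` are polynomials in `J`, then `X q₀ ∈ C(u, J)`.
(Only uses: `C` infinite, `U q ≠ U q₀` for `q ≠ q₀`.) -/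
def Stmt_Lagrange : Prop :=
  ∀ (C : Type) [Field C] [IsAlgClosed C] (Q : Type) [Fintype Q]
    (q₀ : Q) (J : LaurentSeries C) (U X : Q → LaurentSeries C),
    (∀ q, q ≠ q₀ → U q ≠ U q₀) →
    (∀ c s : C, (∏ q, (HahnSeries.C c - U q - HahnSeries.C s * X q)) ∈
      Algebra.adjoin C ({J} : Set (LaurentSeries C))) →
    X q₀ ∈ IntermediateField.adjoin C ({U q₀, J} : Set (LaurentSeries C))

/-! ## The interface from complex analysis -/

/-- The embedding `ℚ((q)) → ℂ((t))`, `q ↦ t^N`. -/
def iotaN (N : ℕ) [NeZero N] : LaurentSeries ℚ →+* LaurentSeries ℂ :=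
  (qExpand ℂ N).comp (coeffMap (algebraMap ℚ ℂ))

/-- The coefficient ring `ℤ[ζ_N, 1/N] ⊂ ℂ`. -/
def coeffRing (N : ℕ) : Subring ℂ := Subring.closure ({z : ℂ | z ^ N = 1} ∪ {(N : ℂ)⁻¹})

/-- **Output of the complex analysis (WP-F)**: the `t`-expansions (`t = e^{2πiz/N}`) of the
conjugates `u ∘ γ_q`, `j(d γ_q z)` over the cosets `q` of `Γ₀(N)` in `SL₂(ℤ)`. -/
structure CAData (N : ℕ) [NeZero N] where
  Q : Type
  instFintype : Fintype Q
  q₀ : Q
  D : ℕ
  D_pos : 0 < D
  U : Q → LaurentSeries ℂ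
  X : ℕ → Q → LaurentSeries ℂ
  U_coeff : ∀ q n, (U q).coeff n ∈ coeffRing N
  U_ne : ∀ q, U q ≠ 0
  U_lead : ∀ q, ((U q).leadingCoeff)⁻¹ ∈ coeffRing N
  U_order₀ : (U q₀).order = -((D : ℤ) * (N : ℤ))
  U_order_pos : ∀ q, q ≠ q₀ → 0 < (U q).order
  X_q₀ : ∀ (d : ℕ) [NeZero d], d ∣ N → X d q₀ = iotaN N (qExpand ℚ d jq)
  sym : ∀ d : ℕ, d ∣ N → ∀ c s : ℂ,
    (∏ q, (HahnSeries.C c - U q - HahnSeries.C s * X d q)) ∈
      Algebra.adjoin ℂ ({iotaN N jq} : Set (LaurentSeries ℂ))

attribute [instance] CAData.instFintype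

/-- **WP-F**: the analytic data exist for every level. -/
def Stmt_CA : Prop := ∀ (N : ℕ) [NeZero N], Nonempty (CAData N)

/-! ## Descent -/

/-- **WP-D (descent)**: from integrality over `O[J]` in `ℂ((t))` to integrality over `ℤ_(ℓ)[j]`. -/
def Stmt_Descent : Prop :=
  ∀ (N : ℕ) [NeZero N] (ℓ : ℕ) [Fact ℓ.Prime] (O : ValuationSubring ℂ),
    (∀ r : ℚ, r ∈ GaloisRep.ratLocalizedAt ℓ → (r : ℂ) ∈ O) → ((ℓ : ℂ)⁻¹ ∉ O) →
    ∀ x : ↥(modularFunctionFieldFull N),
      (∃ n : Polynomial ℂ, PrimPoly O.toSubring n ∧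
        IsIntegral (Algebra.adjoin (↥O) ({iotaN N jq} : Set (LaurentSeries ℂ)))
          (Polynomial.aeval (iotaN N jq) n * iotaN N (x : LaurentSeries ℚ))) →
      ∃ s : Polynomial ↥(GaloisRep.ratLocalizedAt ℓ), (∃ i : ℕ, IsUnit (s.coeff i)) ∧
        IsIntegral (Algebra.adjoin ↥(GaloisRep.ratLocalizedAt ℓ) ({jFull N} : Set ↥(modularFunctionFieldFull N)))
          (Polynomial.aeval (jFull N) s * x)

/-- **Glue (helper82)**: Core + Lagrange + Descent + CA give `(U)`. -/
def Stmt_Glue : Prop :=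
  Stmt_Core → Stmt_Lagrange → Stmt_Descent → Stmt_CA →
    ∀ (N : ℕ) [NeZero N] (ℓ : ℕ) [Fact ℓ.Prime], ¬ ℓ ∣ N → KeyU N ℓ

end Fermat.Agent.S28

end
end
-- ==== END Fermat.Agent.S28.Defs

-- ==== BEGIN Fermat.Agent.S28.H73_LemmaA
section

set_option autoImplicit false

namespace Fermat.Agent.S28.H73

open Polynomial

/-! ### Valuation lemmas -/

section ValuationLemmas

variable {k E Γ₀ : Type*} [Field k] [Field E] [Algebra k E] [LinearOrderedCommGroupWithZero Γ₀]
  (w : Valuation E Γ₀)

/-- A finite sum whose nonzero members have pairwise distinct valuations vanishes only if all its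
members vanish. -/
theorem eq_zero_of_sum_eq_zero {ι : Type*} (s : Finset ι) (c : ι → E)
    (hinj : ∀ i ∈ s, ∀ i' ∈ s, c i ≠ 0 → c i' ≠ 0 → w (c i) = w (c i') → i = i')
    (hsum : ∑ i ∈ s, c i = 0) : ∀ i ∈ s, c i = 0 := by
  classical
  by_contra hne
  simp only [not_forall] at hne
  obtain ⟨i₁, hi₁, hc₁⟩ := hne
  obtain ⟨i₀, hi₀, hmax⟩ := Finset.exists_max_image s (fun i => w (c i)) ⟨i₁, hi₁⟩
  have hc₀ : c i₀ ≠ 0 := by
    intro h
    have h1 := hmax i₁ hi₁
    simp only [h, map_zero] at h1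
    exact hc₁ ((map_eq_zero w).1 (le_antisymm h1 zero_le))
  have hw₀ : w (c i₀) ≠ 0 := (Valuation.ne_zero_iff w).2 hc₀
  have hlt : ∀ i ∈ s \ {i₀}, w (c i) < w (c i₀) := by
    intro i hi
    rw [Finset.mem_sdiff, Finset.mem_singleton] at hi
    rcases eq_or_ne (c i) 0 with h0 | h0
    · rw [h0, map_zero]; exact zero_lt_iff.2 hw₀
    · refine lt_of_le_of_ne (hmax i hi.1) ?_
      intro heq
      exact hi.2 (hinj i hi.1 i₀ hi₀ h0 hc₀ heq)
  have := w.map_sum_eq_of_lt hi₀ hlt
  rw [hsum, map_zero] at this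
  exact hw₀ this.symm

/-- If `w` is trivial on `k` and `1 < w t`, then `w (P(t)) = (w t) ^ deg P` for `P ≠ 0`. -/
theorem valuation_aeval_eq_pow (hwk : ∀ c : k, c ≠ 0 → w (algebraMap k E c) = 1)
    {t : E} (ht : 1 < w t) (P : k[X]) (hP : P ≠ 0) :
    w (aeval t P) = w t ^ P.natDegree := by
  classical
  rw [aeval_eq_sum_range]
  have hlead : w (P.coeff P.natDegree • t ^ P.natDegree) = w t ^ P.natDegree := by
    rw [Algebra.smul_def, map_mul, hwk _ (by simpa using hP), one_mul, map_pow]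
  rw [← hlead]
  refine w.map_sum_eq_of_lt (Finset.self_mem_range_succ _) ?_
  intro i hi
  rw [Finset.mem_sdiff, Finset.mem_range, Finset.mem_singleton] at hi
  have hi' : i < P.natDegree := lt_of_le_of_ne (Nat.lt_succ_iff.1 hi.1) hi.2
  rw [hlead, Algebra.smul_def, map_mul, map_pow]
  have h0 : (0 : Γ₀) < w t := lt_trans zero_lt_one ht
  rcases eq_or_ne (P.coeff i) 0 with hc | hc
  · rw [hc, map_zero, map_zero, zero_mul]; exact pow_pos h0 _
  · rw [hwk _ hc, one_mul]
    exact pow_lt_pow_right₀ ht hi'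

theorem aeval_ne_zero_of_one_lt (hwk : ∀ c : k, c ≠ 0 → w (algebraMap k E c) = 1)
    {t : E} (ht : 1 < w t) (P : k[X]) (hP : P ≠ 0) : aeval t P ≠ 0 := by
  intro h
  have := valuation_aeval_eq_pow w hwk ht P hP
  rw [h, map_zero] at this
  exact (pow_pos (lt_trans zero_lt_one ht) _).ne this

/-- Orthogonality: if `w jb = g > 1` and every `b i` is `0` or has valuation in `g ^ (D ℤ)`, then
`∑_{i<D} b i * jb ^ i = 0` forces all `b i = 0`. -/
theorem orthogonality {g : Γ₀} (hg : 1 < g) {D : ℕ} {jb : E} (hj : w jb = g)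
    (b : Fin D → E) (hb : ∀ i, b i = 0 ∨ ∃ m : ℤ, w (b i) = g ^ ((D : ℤ) * m))
    (hsum : ∑ i, b i * jb ^ (i : ℕ) = 0) : ∀ i, b i = 0 := by
  have hg0 : (0 : Γ₀) < g := lt_trans zero_lt_one hg
  have hjb : jb ≠ 0 := by
    intro h; rw [h, map_zero] at hj; exact hg0.ne hj
  have key := eq_zero_of_sum_eq_zero w Finset.univ (fun i : Fin D => b i * jb ^ (i : ℕ)) ?_ hsum
  · intro i
    have := key i (Finset.mem_univ _)
    rcases mul_eq_zero.1 this with h | h
    · exact h
    · exact absurd h (pow_ne_zero _ hjb)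
  · intro i _ i' _ hci hci' hww
    have hbi : b i ≠ 0 := left_ne_zero_of_mul hci
    have hbi' : b i' ≠ 0 := left_ne_zero_of_mul hci'
    obtain ⟨m, hm⟩ := (hb i).resolve_left hbi
    obtain ⟨m', hm'⟩ := (hb i').resolve_left hbi'
    simp only [map_mul, map_pow, hj, hm, hm'] at hww
    rw [← zpow_natCast g (i : ℕ), ← zpow_natCast g (i' : ℕ), ← zpow_add₀ hg0.ne',
      ← zpow_add₀ hg0.ne'] at hww
    have hinj := (zpow_right_strictMono₀ hg).injective hww
    have hD : (0 : ℤ) < D := by
      have : 0 < D := Fin.pos i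
      exact_mod_cast this
    have h1 : ((i : ℕ) : ℤ) % D = ((i' : ℕ) : ℤ) % D := by
      have := congrArg (· % (D : ℤ)) hinj
      simpa [Int.add_mul_emod_self_left, Int.mul_add_emod_self_left, add_comm] using this
    have hi : ((i : ℕ) : ℤ) % D = (i : ℕ) :=
      Int.emod_eq_of_lt (by positivity) (by exact_mod_cast i.2)
    have hi' : ((i' : ℕ) : ℤ) % D = (i' : ℕ) :=
      Int.emod_eq_of_lt (by positivity) (by exact_mod_cast i'.2)
    rw [hi, hi'] at h1
    exact Fin.ext (by exact_mod_cast h1)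

end ValuationLemmas

/-! ### The abstract Gauss setup -/

/-- Abstract Gauss setup: `O ⊆ Ω` is the "Gauss ring" (a local subring with residue map `red` to
`E`, e.g. `E = k((q))`), `R` is the base discrete valuation ring with uniformizer `π` and residue
map `res : R → k`. -/
structure GaussSetup (R k Ω E : Type*) [CommRing R] [Field k] [Field Ω] [Field E]
    [Algebra R Ω] [Algebra k E] where
  /-- the Gauss ring -/
  O : Subalgebra R Ω
  /-- reduction map of the Gauss ring -/
  red : O →+* E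
  /-- residue map of the base ring -/
  res : R →+* k
  red_algebraMap : ∀ r : R, red (algebraMap R O r) = algebraMap k E (res r)
  inv_mem : ∀ x : O, red x ≠ 0 → ((x : Ω))⁻¹ ∈ O
  /-- the uniformizer -/
  π : R
  res_π : res π = 0
  π_ne_zero : algebraMap R Ω π ≠ 0
  exists_prim : ∀ P : R[X], P ≠ 0 →
    ∃ (n : ℕ) (P' : R[X]), P = C (π ^ n) * P' ∧ P'.map res ≠ 0

namespace GaussSetup

variable {R k Ω E Γ₀ : Type*} [CommRing R] [Field k] [Field Ω] [Field E]
  [Algebra R Ω] [Algebra k E] [LinearOrderedCommGroupWithZero Γ₀]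
  (S : GaussSetup R k Ω E)

theorem red_aeval (u : S.O) (P : R[X]) :
    S.red (aeval u P) = aeval (S.red u) (P.map S.res) := by
  have hcomp : S.red.comp (algebraMap R S.O) = (algebraMap k E).comp S.res :=
    RingHom.ext fun r => S.red_algebraMap r
  rw [aeval_def, hom_eval₂, hcomp, aeval_def, eval₂_map]

theorem red_π : S.red (algebraMap R S.O S.π) = 0 := by
  rw [S.red_algebraMap, S.res_π, map_zero]

/-- The Gauss ring of `Frac R (u)`: quotients `P(u)/Q(u)` with `Q` nonzero modulo `π`. -/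
def IsGaussFrac (u : S.O) (a : Ω) : Prop :=
  ∃ P Q : R[X], Q.map S.res ≠ 0 ∧ a = aeval (u : Ω) P / aeval (u : Ω) Q

variable (w : Valuation E Γ₀)

/-- Evaluation at `u` of a polynomial which is nonzero mod `π` has nonzero reduction, of valuation
`(w ū) ^ deg`. -/
theorem valuation_red_aeval (hwk : ∀ c : k, c ≠ 0 → w (algebraMap k E c) = 1)
    (u : S.O) (hu : 1 < w (S.red u)) (P : R[X]) (hP : P.map S.res ≠ 0) :
    w (S.red (aeval u P)) = w (S.red u) ^ (P.map S.res).natDegree := by
  rw [S.red_aeval]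
  exact valuation_aeval_eq_pow w hwk hu _ hP

theorem red_aeval_ne_zero (hwk : ∀ c : k, c ≠ 0 → w (algebraMap k E c) = 1)
    (u : S.O) (hu : 1 < w (S.red u)) (P : R[X]) (hP : P.map S.res ≠ 0) :
    S.red (aeval u P) ≠ 0 := by
  rw [S.red_aeval]
  exact aeval_ne_zero_of_one_lt w hwk hu _ hP

/-- A unit-like quotient `P(u)/Q(u)` (both nonzero mod `π`) as an element of `O`, with the
valuation of its reduction. -/
theorem exists_quot (hwk : ∀ c : k, c ≠ 0 → w (algebraMap k E c) = 1)
    {g : Γ₀} (hg : 1 < g) {D : ℕ} (hD : 0 < D) (u : S.O) (hu : w (S.red u) = g ^ D)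
    (P Q : R[X]) (hP : P.map S.res ≠ 0) (hQ : Q.map S.res ≠ 0) :
    ∃ b : S.O, (b : Ω) = aeval (u : Ω) P / aeval (u : Ω) Q ∧ S.red b ≠ 0 ∧
      ∃ m : ℤ, w (S.red b) = g ^ ((D : ℤ) * m) := by
  have hu1 : 1 < w (S.red u) := by rw [hu]; exact one_lt_pow₀ hg hD.ne'
  have hQ0 := S.red_aeval_ne_zero w hwk u hu1 Q hQ
  have hP0 := S.red_aeval_ne_zero w hwk u hu1 P hP
  have hQinv := S.inv_mem (aeval u Q) hQ0
  set qi : S.O := ⟨_, hQinv⟩ with hqi
  have hmul : aeval u Q * qi = 1 := by
    apply Subtype.ext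
    have hne : ((aeval u Q : S.O) : Ω) ≠ 0 := by
      intro h
      apply hQ0
      have : (aeval u Q : S.O) = 0 := Subtype.ext h
      rw [this, map_zero]
    simp only [hqi, Subalgebra.coe_mul, Subalgebra.coe_one]
    exact mul_inv_cancel₀ hne
  have hred : S.red (aeval u Q) * S.red qi = 1 := by rw [← map_mul, hmul, map_one]
  refine ⟨aeval u P * qi, ?_, ?_, ?_⟩
  · simp only [hqi, Subalgebra.coe_mul, aeval_subalgebra_coe, div_eq_mul_inv]
  · rw [map_mul]
    exact mul_ne_zero hP0 (right_ne_zero_of_mul_eq_one hred)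
  · refine ⟨((P.map S.res).natDegree : ℤ) - ((Q.map S.res).natDegree : ℤ), ?_⟩
    have hg0 : g ≠ 0 := (lt_trans zero_lt_one hg).ne'
    have h1 : w (S.red qi) = (w (S.red (aeval u Q)))⁻¹ := by
      have := congrArg w hred
      rw [map_mul, map_one] at this
      exact eq_inv_of_mul_eq_one_right this
    rw [map_mul, map_mul, h1, S.valuation_red_aeval w hwk u hu1 P hP,
      S.valuation_red_aeval w hwk u hu1 Q hQ, hu, ← pow_mul, ← pow_mul, mul_sub,
      zpow_sub₀ hg0, div_eq_mul_inv]
    norm_cast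

theorem isGaussFrac_zero (u : S.O) : S.IsGaussFrac u 0 :=
  ⟨0, 1, by simp, by simp⟩

/-- **Lemma A** (orthogonality of `1, j, …, j^(D-1)` over the Gauss ring of `Frac R (u)`).
If `w (red j) = g > 1`, `w (red u) = g ^ D`, and `x = ∑_{i<D} (P_i(u)/Q_i(u)) j^i ∈ O`, then every
coefficient `P_i(u)/Q_i(u)` lies in the Gauss ring of `Frac R (u)`. -/
theorem lemmaA (hwk : ∀ c : k, c ≠ 0 → w (algebraMap k E c) = 1)
    {g : Γ₀} (hg : 1 < g) {D : ℕ} (hD : 0 < D) (u j : S.O)
    (hj : w (S.red j) = g) (hu : w (S.red u) = g ^ D)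
    (P Q : Fin D → R[X]) (hQ : ∀ i, Q i ≠ 0)
    (hx : ∑ i, (aeval (u : Ω) (P i) / aeval (u : Ω) (Q i)) * (j : Ω) ^ (i : ℕ) ∈ S.O) :
    ∀ i, S.IsGaussFrac u (aeval (u : Ω) (P i) / aeval (u : Ω) (Q i)) := by
  classical
  have hπ : algebraMap R Ω S.π ≠ 0 := S.π_ne_zero
  have hu1 : 1 < w (S.red u) := by rw [hu]; exact one_lt_pow₀ hg hD.ne'
  -- primitive parts of the denominators
  choose m Q' hQeq hQ' using fun i => S.exists_prim (Q i) (hQ i)
  -- primitive parts of the numerators
  have hPdata : ∀ i, ∃ (n : ℕ) (P' : R[X]),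
      P i = C (S.π ^ n) * P' ∧ (P i ≠ 0 → P'.map S.res ≠ 0) := by
    intro i
    by_cases h : P i = 0
    · exact ⟨0, 0, by simp [h], fun h' => absurd h h'⟩
    · obtain ⟨n, P', h1, h2⟩ := S.exists_prim (P i) h
      exact ⟨n, P', h1, fun _ => h2⟩
  choose n P' hPeq hP' using hPdata
  -- evaluation of the primitive parts
  have hq0 : ∀ i, aeval (u : Ω) (Q' i) ≠ 0 := by
    intro i h
    apply S.red_aeval_ne_zero w hwk u hu1 (Q' i) (hQ' i)
    have : (aeval u (Q' i) : S.O) = 0 := Subtype.ext (by rw [aeval_subalgebra_coe]; exact h)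
    rw [this, map_zero]
  have hPval : ∀ i, aeval (u : Ω) (P i) = algebraMap R Ω S.π ^ n i * aeval (u : Ω) (P' i) := by
    intro i
    conv_lhs => rw [hPeq i]
    rw [map_mul, aeval_C, map_pow]
  have hQval : ∀ i, aeval (u : Ω) (Q i) = algebraMap R Ω S.π ^ m i * aeval (u : Ω) (Q' i) := by
    intro i
    conv_lhs => rw [hQeq i]
    rw [map_mul, aeval_C, map_pow]
  -- the key claim
  have key : ∀ i, P i ≠ 0 → m i ≤ n i := by
    by_contra hcon
    simp only [not_forall, not_le] at hcon
    obtain ⟨i₁, hi₁, hlt₁⟩ := hcon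
    set I : Finset (Fin D) := Finset.univ.filter (fun i => P i ≠ 0) with hI
    set M : ℕ := Finset.univ.sup m with hM
    have hmM : ∀ i, m i ≤ M := fun i => Finset.le_sup (f := m) (Finset.mem_univ i)
    set t : Fin D → ℕ := fun i => n i + (M - m i) with ht
    obtain ⟨i₀, hi₀I, hmin⟩ := Finset.exists_min_image I t ⟨i₁, by simp [hI, hi₁]⟩
    have hi₀ : P i₀ ≠ 0 := by simpa [hI] using hi₀I
    have hTM : t i₀ < M := by
      refine lt_of_le_of_lt (hmin i₁ (by simp [hI, hi₁])) ?_
      have := hmM i₁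
      simp only [ht]; omega
    -- the unit quotients
    have hbex : ∀ i, ∃ b : S.O,
        (P i ≠ 0 → (b : Ω) = aeval (u : Ω) (P' i) / aeval (u : Ω) (Q' i) ∧ S.red b ≠ 0 ∧
          ∃ e : ℤ, w (S.red b) = g ^ ((D : ℤ) * e)) ∧ (P i = 0 → b = 0) := by
      intro i
      by_cases h : P i = 0
      · exact ⟨0, fun h' => absurd h h', fun _ => rfl⟩
      · obtain ⟨b, h1, h2, h3⟩ :=
          S.exists_quot w hwk hg hD u hu (P' i) (Q' i) (hP' i h) (hQ' i)
        exact ⟨b, fun _ => ⟨h1, h2, h3⟩, fun h' => absurd h' h⟩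
    choose b hb1 hb0 using hbex
    set ϖ : S.O := algebraMap R S.O S.π with hϖ
    have hϖc : (ϖ : Ω) = algebraMap R Ω S.π := rfl
    set y : S.O := ∑ i, ϖ ^ (t i - t i₀) * b i * j ^ (i : ℕ) with hy
    set xO : S.O := ⟨_, hx⟩ with hxO
    have hyx : y = ϖ ^ (M - t i₀) * xO := by
      apply Subtype.ext
      have hT : algebraMap R Ω S.π ^ t i₀ ≠ 0 := pow_ne_zero _ hπ
      apply mul_right_cancel₀ hT
      simp only [hy, hxO, Subalgebra.coe_mul, Subalgebra.coe_pow, hϖc, AddSubmonoidClass.coe_finsetSum,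
        Finset.sum_mul, Finset.mul_sum]
      refine Finset.sum_congr rfl fun i _ => ?_
      by_cases h : P i = 0
      · have hPi : aeval (u : Ω) (P i) = 0 := by rw [h, map_zero]
        rw [hb0 i h, hPi]
        simp
      · obtain ⟨hbi, -, -⟩ := hb1 i h
        have hti : t i₀ ≤ t i := hmin i (by simp [hI, h])
        have hmi := hmM i
        rw [hbi, hPval i, hQval i]
        have e1 : algebraMap R Ω S.π ^ (t i - t i₀) * algebraMap R Ω S.π ^ t i₀
            = algebraMap R Ω S.π ^ (n i) * algebraMap R Ω S.π ^ (M - m i) := by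
          rw [← pow_add, ← pow_add]
          congr 1
          simp only [ht] at hti ⊢
          omega
        have e2 : algebraMap R Ω S.π ^ (M - t i₀) * algebraMap R Ω S.π ^ t i₀
            = algebraMap R Ω S.π ^ (M - m i) * algebraMap R Ω S.π ^ (m i) := by
          rw [← pow_add, ← pow_add]
          congr 1
          omega
        have hq := hq0 i
        have hm0 : algebraMap R Ω S.π ^ m i ≠ 0 := pow_ne_zero _ hπ
        calc algebraMap R Ω S.π ^ (t i - t i₀) * (aeval (u : Ω) (P' i) / aeval (u : Ω) (Q' i))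
              * (j : Ω) ^ (i : ℕ) * algebraMap R Ω S.π ^ t i₀
            = (algebraMap R Ω S.π ^ (t i - t i₀) * algebraMap R Ω S.π ^ t i₀)
              * (aeval (u : Ω) (P' i) / aeval (u : Ω) (Q' i)) * (j : Ω) ^ (i : ℕ) := by ring
          _ = (algebraMap R Ω S.π ^ (M - m i) * algebraMap R Ω S.π ^ (m i))
              * (algebraMap R Ω S.π ^ n i * aeval (u : Ω) (P' i)
                / (algebraMap R Ω S.π ^ m i * aeval (u : Ω) (Q' i))) * (j : Ω) ^ (i : ℕ) := by
            rw [e1]; field_simp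
          _ = algebraMap R Ω S.π ^ (M - t i₀) * (algebraMap R Ω S.π ^ n i * aeval (u : Ω) (P' i)
                / (algebraMap R Ω S.π ^ m i * aeval (u : Ω) (Q' i)) * (j : Ω) ^ (i : ℕ))
              * algebraMap R Ω S.π ^ t i₀ := by
            rw [← e2]; ring
    -- reduction of `y` vanishes
    have hredy : S.red y = 0 := by
      rw [hyx, map_mul, map_pow, hϖ, S.red_π, zero_pow (by omega), zero_mul]
    -- but orthogonality says otherwise
    have hsum : ∑ i, (S.red ϖ ^ (t i - t i₀) * S.red (b i)) * S.red j ^ (i : ℕ) = 0 := by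
      rw [← hredy, hy, map_sum]
      refine Finset.sum_congr rfl fun i _ => ?_
      rw [map_mul, map_mul, map_pow, map_pow]
    have hc : ∀ i, S.red ϖ ^ (t i - t i₀) * S.red (b i) = 0 ∨
        ∃ e : ℤ, w (S.red ϖ ^ (t i - t i₀) * S.red (b i)) = g ^ ((D : ℤ) * e) := by
      intro i
      by_cases h : P i = 0
      · left; rw [hb0 i h, map_zero, mul_zero]
      · by_cases hti : t i - t i₀ = 0
        · right
          obtain ⟨-, -, e, he⟩ := hb1 i h
          exact ⟨e, by rw [hti, pow_zero, one_mul, he]⟩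
        · left
          rw [hϖ, S.red_π, zero_pow hti, zero_mul]
    have h0 := orthogonality w hg hj _ hc hsum i₀
    rw [Nat.sub_self, pow_zero, one_mul] at h0
    exact (hb1 i₀ hi₀).2.1 h0
  -- conclusion
  intro i
  by_cases h : P i = 0
  · rw [h, map_zero, zero_div]
    exact S.isGaussFrac_zero u
  · refine ⟨C (S.π ^ (n i - m i)) * P' i, Q' i, hQ' i, ?_⟩
    have hle := key i h
    rw [hPval i, hQval i, map_mul, aeval_C, map_pow]
    have hq := hq0 i
    have hm0 : algebraMap R Ω S.π ^ m i ≠ 0 := pow_ne_zero _ hπ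
    have e1 : algebraMap R Ω S.π ^ n i
        = algebraMap R Ω S.π ^ (n i - m i) * algebraMap R Ω S.π ^ m i := by
      rw [← pow_add]; congr 1; omega
    rw [e1]
    field_simp

end GaussSetup

end Fermat.Agent.S28.H73

end
-- ==== END Fermat.Agent.S28.H73_LemmaA

-- ==== BEGIN Fermat.Agent.S29.H33_AlgClosed
section

/-!
# The residue fields of `ℤ̄ = integralClosure ℤ ℂ` are algebraically closed

Used by the wirings of S29 and S42 (cluster R): a ring homomorphism `φ : ℤ̄ → k` to a field of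
characteristic `p` has a maximal kernel, and the finite residue field of any `p`-adic coefficient
ring embeds into `ℤ̄ ⧸ ker φ` compatibly with a given order.
-/

set_option autoImplicit false

namespace Fermat.Agent.S29.H33

open Polynomial

/-- Every monic polynomial of positive degree over `ℤ̄` has a root in `ℤ̄`. -/
theorem exists_root_integralClosure (Q : (integralClosure ℤ ℂ)[X]) (hQ : Q.Monic)
    (hdeg : Q.degree ≠ 0) : ∃ z : integralClosure ℤ ℂ, Q.eval z = 0 := by
  have hdeg' : (Q.map (algebraMap (integralClosure ℤ ℂ) ℂ)).degree ≠ 0 := by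
    rwa [hQ.degree_map]
  obtain ⟨z, hz⟩ := IsAlgClosed.exists_root _ hdeg'
  have hzint : IsIntegral (integralClosure ℤ ℂ) z := by
    refine ⟨Q, hQ, ?_⟩
    rw [← Polynomial.eval_map]
    exact hz
  have hzZ : IsIntegral ℤ z := isIntegral_trans z hzint
  refine ⟨⟨z, hzZ⟩, ?_⟩
  have hinj : Function.Injective (algebraMap (integralClosure ℤ ℂ) ℂ) := Subtype.val_injective
  apply hinj
  rw [map_zero, ← Polynomial.eval₂_hom, ← Polynomial.eval_map]
  exact hz

/-- The residue field of `ℤ̄` at a maximal ideal is algebraically closed. -/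
theorem isAlgClosed_quot (𝔪 : Ideal (integralClosure ℤ ℂ)) [𝔪.IsMaximal] :
    @IsAlgClosed ((integralClosure ℤ ℂ) ⧸ 𝔪) (Ideal.Quotient.field 𝔪) := by
  letI := Ideal.Quotient.field 𝔪
  refine IsAlgClosed.of_exists_root _ fun q hq hirr => ?_
  obtain ⟨Q, hQmap, hQdeg, hQmonic⟩ := Polynomial.lifts_and_degree_eq_and_monic
    (f := Ideal.Quotient.mk 𝔪) (p := q)
    ((Polynomial.mem_lifts _).mpr (Polynomial.map_surjective _ Ideal.Quotient.mk_surjective q)) hq
  have hdeg : Q.degree ≠ 0 := by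
    rw [hQdeg]
    intro h0
    exact hirr.not_isUnit (Polynomial.isUnit_iff_degree_eq_zero.mpr h0)
  obtain ⟨z, hz⟩ := exists_root_integralClosure Q hQmonic hdeg
  refine ⟨Ideal.Quotient.mk 𝔪 z, ?_⟩
  rw [← hQmap, Polynomial.eval_map, Polynomial.eval₂_hom, hz, map_zero]

/-- A ring homomorphism from `ℤ̄` to a field of positive characteristic has a maximal kernel. -/
theorem ker_isMaximal_of_charP {k : Type*} [Field k] (p : ℕ) [hp : Fact p.Prime] [CharP k p]
    (φ : integralClosure ℤ ℂ →+* k) : (RingHom.ker φ).IsMaximal := by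
  haveI hprime : (RingHom.ker φ).IsPrime := RingHom.ker_isPrime φ
  haveI : Algebra.IsIntegral ℤ (integralClosure ℤ ℂ) := inferInstance
  have hcomap : ((RingHom.ker φ).comap (algebraMap ℤ (integralClosure ℤ ℂ))).IsMaximal := by
    have hmem : (p : ℤ) ∈ (RingHom.ker φ).comap (algebraMap ℤ (integralClosure ℤ ℂ)) := by
      rw [Ideal.mem_comap, RingHom.mem_ker]
      simp [CharP.cast_eq_zero k p]
    have hp' : Prime (p : ℤ) := Nat.prime_iff_prime_int.mp hp.out
    have hspan : (Ideal.span {(p : ℤ)}).IsMaximal :=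
      PrincipalIdealRing.isMaximal_of_irreducible hp'.irreducible
    have hle : Ideal.span {(p : ℤ)} ≤ (RingHom.ker φ).comap (algebraMap ℤ (integralClosure ℤ ℂ)) :=
      (Ideal.span_singleton_le_iff_mem _).mpr hmem
    have hne : (RingHom.ker φ).comap (algebraMap ℤ (integralClosure ℤ ℂ)) ≠ ⊤ :=
      (Ideal.comap_isPrime _ _).ne_top
    rw [← hspan.eq_of_le hne hle]
    exact hspan
  exact Ideal.isMaximal_of_isIntegral_of_isMaximal_comap (RingHom.ker φ) hcomap

end Fermat.Agent.S29.H33

end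
-- ==== END Fermat.Agent.S29.H33_AlgClosed

-- ==== BEGIN Fermat.Agent.S35.H89_TorsDefs
section

/-!
# Torsion-level interfaces of S35 / S36  (helper89; rows 34, 35; item 65)

Level `M * q`; the two degeneracy maps `α, β : X₀(M q) → X₀(M)` are the prelude embeddings
`heckeAlphaBar ℚ̄ M q`, `heckeBetaBar ℚ̄ M q : F_M ℚ̄ → F_{M q} ℚ̄`.

* `IsQNew M q x` : the class `x ∈ J₀(M q)` is `q`-new: `α_* x = 0` and `β_* x = 0` in `J₀(M)`.
* `Stmt_TorsSt M q p` (**Steinberg**, `q ∤ M`): a power `p^c` kills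
  `(φ² - 1)(φ² - q²) x` for every Frobenius lift `φ` at `q` and every `q`-new `x ∈ J₀(M q)[p^∞]`.
* `Stmt_TorsNU M q p` (**Carayol**, `q ∥ M`): a power `p^c` kills every `q`-new
  `x ∈ J₀(M q)[p^∞]` fixed by an inertia group at `q`.

These are the torsion-level inputs of `Stmt_TatePieceSt`, `Stmt_TatePieceNU`
(`Fermat/Agent/S35/H89_Final.lean`).  Definitions only.
-/

set_option autoImplicit false

noncomputable section

open AlgebraicCurve ModularCurve

namespace Fermat.Agent.S35.H89

/-- `x ∈ J₀(M q)` is **`q`-new**: it has a representative `D` of degree `0` whose pushforwards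
along both degeneracy maps to level `M` are principal. -/
def IsQNew (M q : ℕ) [NeZero M] [NeZero q] (x : JZero (M * q)) : Prop :=
  ∃ (hα : HeckeAlphaBarIntegral (AlgebraicClosure ℚ) M q)
    (hβ : HeckeBetaBarIntegral (AlgebraicClosure ℚ) M q)
    (D : Divisor.degZero (K := AlgebraicClosure ℚ) (F := ↥(modularFunctionFieldBar (M * q)))),
    x = Pic0.mk D ∧
    (Divisor.pushforwardAlong (heckeAlphaBar (AlgebraicClosure ℚ) M q) hα
      (D : Divisor (AlgebraicClosure ℚ) ↥(modularFunctionFieldBar (M * q)))).IsPrincipal ∧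
    (Divisor.pushforwardAlong (heckeBetaBar (AlgebraicClosure ℚ) M q) hβ
      (D : Divisor (AlgebraicClosure ℚ) ↥(modularFunctionFieldBar (M * q)))).IsPrincipal

/-- **(St)**: at a prime `q ∤ M`, `p` prime, `q ≠ p`: up to a bounded power of `p`, every Frobenius lift
`φ` at `q` satisfies `(φ² - 1)(φ² - q²) = 0` on the `q`-new `p`-power torsion of `J₀(M q)`. -/
def Stmt_TorsSt (M q p : ℕ) [NeZero M] [NeZero q] : Prop :=
  q.Prime → ¬ q ∣ M → p.Prime → q ≠ p →
    ∃ c : ℕ, ∀ A : ValuationSubring (AlgebraicClosure ℚ), A.LiesOverPrime q →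
      ∀ σ : AlgebraicClosure ℚ ≃ₐ[ℚ] AlgebraicClosure ℚ, A.IsFrobeniusAt σ q →
        ∀ x : JZero (M * q), (∃ n : ℕ, p ^ n • x = 0) → IsQNew M q x →
          p ^ c • (σ • σ • σ • σ • x - (q ^ 2 + 1) • σ • σ • x + q ^ 2 • x) = 0

/-- **(NU)**: at a prime `q ∥ M`, `p` prime, `q ≠ p`: up to a bounded power of `p`, no `q`-new
`p`-power torsion point of `J₀(M q)` is fixed by inertia at `q`. -/
def Stmt_TorsNU (M q p : ℕ) [NeZero M] [NeZero q] : Prop :=
  q.Prime → q ∣ M → ¬ q ^ 2 ∣ M → p.Prime → q ≠ p →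
    ∃ A : ValuationSubring (AlgebraicClosure ℚ), A.LiesOverPrime q ∧
      ∃ c : ℕ, ∀ x : JZero (M * q), (∃ n : ℕ, p ^ n • x = 0) → IsQNew M q x →
        (∀ σ ∈ A.inertiaSubgroupIn ℚ, σ • x = x) → p ^ c • x = 0

end Fermat.Agent.S35.H89

end
end
-- ==== END Fermat.Agent.S35.H89_TorsDefs

-- ==== BEGIN Fermat.Agent.S35.H89_Two
section

/-!
# `2 × 2` algebra for the S35 / S36 transfer clauses (helper89)

* `two_quad_charpoly` : `B² - t B + e = 0`, `det B = e ≠ 0` ⇒ `charpoly B = X² - t X + e`.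
* `two_prod_charpoly` : `∏ (B - c) = 0` ⇒ `charpoly B = (X - c)(X - d)` for some `c` in the list.
* `kolchin_two` : a group of `2 × 2` matrices with characteristic polynomial `(X - 1)²` over a
  domain in which `2 ≠ 0` has a common nonzero fixed vector.
-/

set_option autoImplicit false

open Polynomial Matrix

namespace Fermat.Agent.S35.H89

open Fermat.Agent.R.H89

variable {R : Type} [CommRing R] [IsDomain R]

/-- A `2 × 2` matrix with `B² - t B + e = 0` and `det B = e ≠ 0` has characteristic polynomial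
`X² - t X + e`. -/
theorem two_quad_charpoly (B : Matrix (Fin 2) (Fin 2) R) (t e : R)
    (h : B * B - t • B + e • (1 : Matrix (Fin 2) (Fin 2) R) = 0) (hdet : B.det = e)
    (he : e ≠ 0) : B.charpoly = X ^ 2 - C t * X + C e := by
  by_cases hs : IsScalar B
  · obtain ⟨c, rfl⟩ := hs
    have hdet' : c * c = e := by
      rw [← hdet]
      simp
      ring
    have h00 := congrFun (congrFun h 0) 0
    simp at h00
    -- c * c - t * c + e = 0
    have hc : c ≠ 0 := by
      rintro rfl
      apply he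
      rw [← hdet']
      ring
    have ht : t = 2 * c := by
      have h1 : c * (2 * c - t) = 0 := by
        have : c * (2 * c - t) = (c * c - t * c + e) + (c * c - e) := by ring
        rw [this, h00, hdet']
        ring
      rcases mul_eq_zero.1 h1 with h2 | h2
      · exact absurd h2 hc
      · exact (sub_eq_zero.1 h2).symm
    rw [charpoly_two, ← hdet']
    have htr : (c • (1 : Matrix (Fin 2) (Fin 2) R)).trace = 2 * c := by
      simp
      ring
    have hd : (c • (1 : Matrix (Fin 2) (Fin 2) R)).det = c * c := by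
      simp
      ring
    rw [htr, hd, ht]
  · obtain ⟨h1, h2⟩ := quad_trace_det h hs
    rw [charpoly_two, h1, h2]

/-- If a product of factors `B - c` vanishes then one of the `c` is an eigenvalue, and the
characteristic polynomial splits accordingly. -/
theorem two_prod_charpoly (B : Matrix (Fin 2) (Fin 2) R) (cs : List R)
    (h : (cs.map (fun c => B - c • (1 : Matrix (Fin 2) (Fin 2) R))).prod = 0) :
    ∃ c ∈ cs, ∃ d : R, c * d = B.det ∧ B.charpoly = (X - C c) * (X - C d) := by
  have hdet : ((cs.map (fun c => B - c • (1 : Matrix (Fin 2) (Fin 2) R))).prod).det = 0 := by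
    rw [h, Matrix.det_zero]
  have hex : ∃ c ∈ cs, (B - c • (1 : Matrix (Fin 2) (Fin 2) R)).det = 0 := by
    clear h
    induction cs with
    | nil => simp at hdet
    | cons c cs ih =>
      rw [List.map_cons, List.prod_cons, Matrix.det_mul] at hdet
      rcases mul_eq_zero.1 hdet with h1 | h1
      · exact ⟨c, List.mem_cons_self, h1⟩
      · obtain ⟨c', hc', h2⟩ := ih h1
        exact ⟨c', List.mem_cons_of_mem _ hc', h2⟩
  obtain ⟨c, hc, hc0⟩ := hex
  refine ⟨c, hc, B.trace - c, ?_, ?_⟩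
  · rw [Matrix.det_fin_two] at hc0 ⊢
    simp only [Matrix.sub_apply, Matrix.smul_apply, Matrix.one_apply_eq, smul_eq_mul, mul_one,
      Matrix.one_apply_ne, ne_eq, one_ne_zero, not_false_eq_true, zero_ne_one, mul_zero,
      sub_zero] at hc0
    rw [Matrix.trace_fin_two]
    linear_combination -hc0
  · rw [charpoly_two]
    rw [Matrix.det_fin_two] at hc0 ⊢
    simp only [Matrix.sub_apply, Matrix.smul_apply, Matrix.one_apply_eq, smul_eq_mul, mul_one,
      Matrix.one_apply_ne, ne_eq, one_ne_zero, not_false_eq_true, zero_ne_one, mul_zero,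
      sub_zero] at hc0
    rw [Matrix.trace_fin_two]
    have hC : C (B 0 0 * B 1 1 - B 0 1 * B 1 0) = C c * C (B 0 0 + B 1 1 - c) := by
      rw [← C_mul]
      congr 1
      linear_combination hc0
    rw [hC]
    simp only [C_sub, C_add]
    ring

/-- Trace and determinant of a `2 × 2` matrix with characteristic polynomial `(X - 1)²`. -/
theorem unip_trace_det (A : Matrix (Fin 2) (Fin 2) R) (h : A.charpoly = (X - 1) ^ 2) :
    A.trace = 2 ∧ A.det = 1 := by
  rw [charpoly_two] at h
  have h1 := congrArg (fun p : R[X] => p.coeff 1) h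
  have h0 := congrArg (fun p : R[X] => p.coeff 0) h
  have e : ((X : R[X]) - 1) ^ 2 = X ^ 2 - C 2 * X + C 1 := by
    simp only [map_ofNat, map_one]
    ring
  rw [e] at h1 h0
  simp only [coeff_add, coeff_sub, coeff_X_pow, coeff_C_mul, coeff_X_one, coeff_C, coeff_X_zero,
    mul_one, mul_zero] at h1 h0
  norm_num at h1 h0
  exact ⟨h1, h0⟩

/-- The polynomial identities behind Kolchin's theorem in rank two. -/
theorem kolchin_key (h2 : (2 : R) ≠ 0) (a b c a' b' c' : R) (h1 : a * a + b * c = 0)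
    (h1' : a' * a' + b' * c' = 0) (h3 : 2 * a * a' + b * c' + b' * c = 0) :
    a' * a + b' * c = 0 ∧ a' * b - b' * a = 0 ∧ c' * a - a' * c = 0 ∧ c' * b + a' * a = 0 := by
  have e1 : (a' * b - b' * a) ^ 2 = 0 := by
    linear_combination b ^ 2 * h1' + b' ^ 2 * h1 - b * b' * h3
  have e2 : (c' * a - a' * c) ^ 2 = 0 := by
    linear_combination c' ^ 2 * h1 + c ^ 2 * h1' - c * c' * h3
  have e3 : (b' * c - b * c') ^ 2 = 0 := by
    linear_combination (b * c' + b' * c - 2 * a * a') * h3 + 4 * a' ^ 2 * h1 - 4 * b * c * h1'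
  have f1 := pow_eq_zero_iff (two_ne_zero) |>.1 e1
  have f2 := pow_eq_zero_iff (two_ne_zero) |>.1 e2
  have f3 := pow_eq_zero_iff (two_ne_zero) |>.1 e3
  have g1 : 2 * (a' * a + b' * c) = 0 := by linear_combination h3 + f3
  have g2 : 2 * (c' * b + a' * a) = 0 := by linear_combination h3 - f3
  refine ⟨?_, f1, f2, ?_⟩
  · exact (mul_eq_zero.1 g1).resolve_left h2
  · exact (mul_eq_zero.1 g2).resolve_left h2

/-- **Kolchin in rank two.** A group of `2 × 2` matrices with characteristic polynomial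
`(X - 1)²` over a domain with `2 ≠ 0` has a common nonzero fixed vector. -/
theorem kolchin_two {G : Type*} [Group G] (ρ₂ : G →* Matrix (Fin 2) (Fin 2) R)
    (h2 : (2 : R) ≠ 0) (H : Subgroup G)
    (hU : ∀ σ ∈ H, (ρ₂ σ).charpoly = (X - 1) ^ 2) :
    ∃ w : Fin 2 → R, w ≠ 0 ∧ ∀ σ ∈ H, (ρ₂ σ).mulVec w = w := by
  by_cases hall : ∀ σ ∈ H, ρ₂ σ = 1
  · refine ⟨![1, 0], ?_, fun σ hσ => ?_⟩
    · intro h
      have := congrFun h 0
      simp at this
    · rw [hall σ hσ, Matrix.one_mulVec]
  rw [not_forall] at hall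
  obtain ⟨σ₀, hσ₀⟩ := hall
  rw [Classical.not_imp] at hσ₀
  obtain ⟨hσ₀H, hne⟩ := hσ₀
  obtain ⟨ht0, hd0⟩ := unip_trace_det _ (hU σ₀ hσ₀H)
  rw [Matrix.trace_fin_two] at ht0
  rw [Matrix.det_fin_two] at hd0
  -- entries of `N₀ = (ρ₂ σ₀) - 1`
  have r0 : ((ρ₂ σ₀) 0 0 - 1) * ((ρ₂ σ₀) 0 0 - 1) + (ρ₂ σ₀) 0 1 * (ρ₂ σ₀) 1 0 = 0 := by
    have : (ρ₂ σ₀) 1 1 = 2 - (ρ₂ σ₀) 0 0 := by linear_combination ht0
    rw [this] at hd0
    linear_combination -hd0
  -- for every `σ ∈ H`, `(ρ₂ σ - 1) * ((ρ₂ σ₀) - 1) = 0`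
  have hkill : ∀ σ ∈ H,
      (ρ₂ σ 0 0 - 1) * ((ρ₂ σ₀) 0 0 - 1) + ρ₂ σ 0 1 * (ρ₂ σ₀) 1 0 = 0 ∧
      (ρ₂ σ 0 0 - 1) * (ρ₂ σ₀) 0 1 - ρ₂ σ 0 1 * ((ρ₂ σ₀) 0 0 - 1) = 0 ∧
      ρ₂ σ 1 0 * ((ρ₂ σ₀) 0 0 - 1) - (ρ₂ σ 0 0 - 1) * (ρ₂ σ₀) 1 0 = 0 ∧
      ρ₂ σ 1 0 * (ρ₂ σ₀) 0 1 + (ρ₂ σ 0 0 - 1) * ((ρ₂ σ₀) 0 0 - 1) = 0 := by
    intro σ hσ
    obtain ⟨ht, hd⟩ := unip_trace_det _ (hU σ hσ)
    rw [Matrix.trace_fin_two] at ht
    rw [Matrix.det_fin_two] at hd
    have r1 : (ρ₂ σ 0 0 - 1) * (ρ₂ σ 0 0 - 1) + ρ₂ σ 0 1 * ρ₂ σ 1 0 = 0 := by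
      have : ρ₂ σ 1 1 = 2 - ρ₂ σ 0 0 := by linear_combination ht
      rw [this] at hd
      linear_combination -hd
    obtain ⟨ht', -⟩ := unip_trace_det _ (hU (σ * σ₀) (H.mul_mem hσ hσ₀H))
    rw [map_mul, Matrix.trace_fin_two] at ht'
    simp only [Matrix.mul_apply, Fin.sum_univ_two] at ht'
    have r3 : 2 * ((ρ₂ σ₀) 0 0 - 1) * (ρ₂ σ 0 0 - 1) + (ρ₂ σ₀) 0 1 * ρ₂ σ 1 0 + ρ₂ σ 0 1 * (ρ₂ σ₀) 1 0 = 0 := by
      have e1 : ρ₂ σ 1 1 = 2 - ρ₂ σ 0 0 := by linear_combination ht
      have e2 : (ρ₂ σ₀) 1 1 = 2 - (ρ₂ σ₀) 0 0 := by linear_combination ht0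
      linear_combination ht' - (ρ₂ σ₀) 1 1 * e1 - (2 - ρ₂ σ 0 0) * e2
    exact kolchin_key h2 _ _ _ _ _ _ r0 r1 r3
  -- a nonzero column of `N₀`
  have hN0 : (ρ₂ σ₀) 0 0 - 1 ≠ 0 ∨ (ρ₂ σ₀) 0 1 ≠ 0 ∨ (ρ₂ σ₀) 1 0 ≠ 0 := by
    by_contra hcon
    rw [not_or, not_or, not_not, not_not, not_not] at hcon
    obtain ⟨k1, k2, k3⟩ := hcon
    apply hne
    have k4 : (ρ₂ σ₀) 1 1 = 1 := by
      have : (ρ₂ σ₀) 0 0 = 1 := by linear_combination k1
      rw [this] at ht0
      linear_combination ht0
    ext i j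
    fin_cases i <;> fin_cases j
    · simpa using sub_eq_zero.1 k1
    · simpa using k2
    · simpa using k3
    · simpa using k4
  have hfix : ∀ (w : Fin 2 → R) (σ : G),
      (ρ₂ σ 0 0 - 1) * w 0 + ρ₂ σ 0 1 * w 1 = 0 →
      ρ₂ σ 1 0 * w 0 + (ρ₂ σ 1 1 - 1) * w 1 = 0 → (ρ₂ σ).mulVec w = w := by
    intro w σ e1 e2
    ext i
    fin_cases i
    · simp only [Matrix.mulVec, dotProduct, Fin.sum_univ_two, Fin.zero_eta]
      linear_combination e1
    · simp only [Matrix.mulVec, dotProduct, Fin.sum_univ_two, Fin.mk_one]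
      linear_combination e2
  by_cases hcol : (ρ₂ σ₀) 0 0 - 1 ≠ 0 ∨ (ρ₂ σ₀) 1 0 ≠ 0
  · -- first column `(a, c)`
    refine ⟨![(ρ₂ σ₀) 0 0 - 1, (ρ₂ σ₀) 1 0], ?_, fun σ hσ => ?_⟩
    · intro h
      rcases hcol with h1 | h1
      · exact h1 (by simpa using congrFun h 0)
      · exact h1 (by simpa using congrFun h 1)
    · obtain ⟨k1, k2, k3, k4⟩ := hkill σ hσ
      obtain ⟨ht, -⟩ := unip_trace_det _ (hU σ hσ)
      rw [Matrix.trace_fin_two] at ht
      apply hfix
      · simp only [Matrix.cons_val_zero, Matrix.cons_val_one]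
        linear_combination k1
      · simp only [Matrix.cons_val_zero, Matrix.cons_val_one]
        have e1 : ρ₂ σ 1 1 = 2 - ρ₂ σ 0 0 := by linear_combination ht
        rw [e1]
        linear_combination k3
  · -- second column `(b, -a)` with `a = 0`, `c = 0`
    rw [not_or, not_not, not_not] at hcol
    obtain ⟨ha, hc⟩ := hcol
    have hb : (ρ₂ σ₀) 0 1 ≠ 0 := by
      rcases hN0 with h | h | h
      · exact absurd ha h
      · exact h
      · exact absurd hc h
    refine ⟨![(ρ₂ σ₀) 0 1, 0], ?_, fun σ hσ => ?_⟩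
    · intro h
      exact hb (by simpa using congrFun h 0)
    · obtain ⟨k1, k2, k3, k4⟩ := hkill σ hσ
      apply hfix
      · simp only [Matrix.cons_val_zero, Matrix.cons_val_one]
        rw [ha] at k2
        linear_combination k2
      · simp only [Matrix.cons_val_zero, Matrix.cons_val_one]
        rw [ha] at k4
        linear_combination k4

end Fermat.Agent.S35.H89

end
-- ==== END Fermat.Agent.S35.H89_Two

-- ==== BEGIN Fermat.Agent.S49.Formal
section

/-!
# Formal Hecke eigensystems: multiplicativity and prime-power recursion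

Pure arithmetic: a function `a : ℕ → R` with `a 1 = 1` satisfying the Hecke relations
`a (ℓ n) + e ℓ * [ℓ ∣ n] a (n / ℓ) = a ℓ * a n` for all primes `ℓ` is multiplicative and satisfies
the usual prime-power recursion.
-/

set_option autoImplicit false

namespace Fermat.Agent.S49

open FormalHecke

variable {R : Type*} [CommRing R]

theorem formal_prime_pow {e a : ℕ → R} (h : IsEigensystem e a) (ℓ r : ℕ) (hℓ : ℓ.Prime) :
    a (ℓ ^ (r + 2)) = a ℓ * a (ℓ ^ (r + 1)) - e ℓ * a (ℓ ^ r) := by
  have h2 := h.2 ℓ hℓ (ℓ ^ (r + 1))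
  have hdvd : ℓ ∣ ℓ ^ (r + 1) := dvd_pow_self ℓ (Nat.succ_ne_zero r)
  rw [if_pos hdvd] at h2
  have hdiv : ℓ ^ (r + 1) / ℓ = ℓ ^ r := by
    rw [pow_succ, Nat.mul_div_cancel _ hℓ.pos]
  rw [hdiv] at h2
  have hpow : ℓ ^ (r + 2) = ℓ * ℓ ^ (r + 1) := by ring
  rw [hpow, ← h2]
  ring

theorem formal_mul_of_coprime {e a : ℕ → R} (h : IsEigensystem e a) :
    ∀ m n : ℕ, m.Coprime n → a (m * n) = a m * a n := by
  intro m
  induction m using Nat.strong_induction_on with
  | _ m ih =>
    intro n hmn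
    rcases Nat.eq_zero_or_pos m with hm0 | hmpos
    · subst hm0
      have hn : n = 1 := by simpa using hmn
      subst hn
      simp [h.1]
    rcases Nat.eq_or_lt_of_le (Nat.one_le_of_lt hmpos) with hm1 | hm1
    · have : m = 1 := hm1.symm
      subst this
      simp [h.1]
    -- m ≥ 2: pick a prime factor
    obtain ⟨ℓ, hℓ, hℓm⟩ := Nat.exists_prime_and_dvd (show m ≠ 1 by omega)
    obtain ⟨m', rfl⟩ := hℓm
    have hm'pos : 0 < m' := by
      rcases Nat.eq_zero_or_pos m' with h0 | h0
      · subst h0; simp at hmpos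
      · exact h0
    have hm'lt : m' < ℓ * m' := by
      have := hℓ.one_lt
      nlinarith
    have hℓn : Nat.Coprime ℓ n := Nat.Coprime.coprime_dvd_left (Dvd.intro _ rfl) hmn
    have hm'n : Nat.Coprime m' n := Nat.Coprime.coprime_dvd_left (Dvd.intro_left _ rfl) hmn
    have key1 := h.2 ℓ hℓ (m' * n)
    have key2 := h.2 ℓ hℓ m'
    have hdvd_iff : ℓ ∣ m' * n ↔ ℓ ∣ m' := by
      constructor
      · intro hd
        exact (Nat.Coprime.dvd_mul_right hℓn).mp hd
      · intro hd
        exact Dvd.dvd.mul_right hd n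
    have e1 : a (ℓ * m' * n) = a ℓ * a (m' * n)
        - e ℓ * (if ℓ ∣ m' * n then a (m' * n / ℓ) else 0) := by
      rw [mul_assoc, ← key1]; ring
    have e2 : a (ℓ * m') = a ℓ * a m' - e ℓ * (if ℓ ∣ m' then a (m' / ℓ) else 0) := by
      rw [← key2]; ring
    rw [e1, e2, ih m' hm'lt n hm'n]
    by_cases hd : ℓ ∣ m'
    · rw [if_pos hd, if_pos (hdvd_iff.mpr hd)]
      obtain ⟨m'', rfl⟩ := hd
      have hm''pos : 0 < m'' := by
        rcases Nat.eq_zero_or_pos m'' with h0 | h0
        · subst h0; simp at hm'pos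
        · exact h0
      have hm''lt : m'' < ℓ * (ℓ * m'') := by
        have := hℓ.one_lt
        nlinarith
      have hm''n : Nat.Coprime m'' n := Nat.Coprime.coprime_dvd_left (Dvd.intro_left _ rfl) hm'n
      have hq1 : ℓ * m'' * n / ℓ = m'' * n := by
        rw [mul_assoc, Nat.mul_div_cancel_left _ hℓ.pos]
      have hq2 : ℓ * m'' / ℓ = m'' := Nat.mul_div_cancel_left _ hℓ.pos
      rw [hq1, hq2, ih m'' hm''lt n hm''n]
      ring
    · rw [if_neg hd, if_neg (fun hd' => hd (hdvd_iff.mp hd'))]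
      ring

/-- A formal Hecke eigensystem is recursive. -/
theorem formal_isRecursive {e a : ℕ → R} (h : IsEigensystem e a) : IsRecursive e a :=
  ⟨h.1, formal_mul_of_coprime h, fun ℓ r hℓ => formal_prime_pow h ℓ r hℓ⟩

end Fermat.Agent.S49

end
-- ==== END Fermat.Agent.S49.Formal

-- ==== BEGIN Fermat.Agent.S49.QCoeff
section

/-!
# q-coefficients of cusp forms on `Γ₀(N)`: linearity, vanishing at `0`, Hecke action
-/

set_option autoImplicit false

namespace Fermat.Agent.S49

open CuspForm CongruenceSubgroup ModularFormClass UpperHalfPlane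

variable {N : ℕ} {k : ℤ}

theorem one_mem_strictPeriods (N : ℕ) :
    (1 : ℝ) ∈ (Subgroup.map (Matrix.SpecialLinearGroup.mapGL ℝ) (Gamma0 N)).strictPeriods :=
  CongruenceSubgroup.one_mem_strictPeriods_Gamma0 N

theorem qCoeff_add (f g : CuspForm (Gamma0 N) k) (n : ℕ) :
    qCoeff ⇑(f + g) n = qCoeff ⇑f n + qCoeff ⇑g n := by
  simp only [qCoeff, FunLike.coe_add]
  rw [ModularForm.qExpansion_add one_pos (one_mem_strictPeriods N) f g, map_add]

theorem qCoeff_zero_form (n : ℕ) : qCoeff ⇑(0 : CuspForm (Gamma0 N) k) n = 0 := by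
  simp only [qCoeff, FunLike.coe_zero]
  rw [UpperHalfPlane.qExpansion_zero, map_zero]

theorem qCoeff_smul (c : ℂ) (f : CuspForm (Gamma0 N) k) (n : ℕ) :
    qCoeff ⇑(c • f) n = c * qCoeff ⇑f n := by
  have h1 : ⇑(c • f) = c • ⇑f := by
    ext z
    simp
  simp only [qCoeff, h1]
  rw [ModularForm.qExpansion_smul one_pos (one_mem_strictPeriods N) c f]
  simp

theorem qCoeff_neg (f : CuspForm (Gamma0 N) k) (n : ℕ) :
    qCoeff ⇑(-f) n = - qCoeff ⇑f n := by
  have : -f = (-1 : ℂ) • f := by simp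
  rw [this, qCoeff_smul]; ring

theorem qCoeff_sub (f g : CuspForm (Gamma0 N) k) (n : ℕ) :
    qCoeff ⇑(f - g) n = qCoeff ⇑f n - qCoeff ⇑g n := by
  rw [sub_eq_add_neg, qCoeff_add, qCoeff_neg, sub_eq_add_neg]

theorem qCoeff_zsmul (c : ℤ) (f : CuspForm (Gamma0 N) k) (n : ℕ) :
    qCoeff ⇑(c • f) n = c * qCoeff ⇑f n := by
  have : c • f = (c : ℂ) • f := by
    rw [Int.cast_smul_eq_zsmul]
  rw [this, qCoeff_smul]

/-- The constant term of a cusp form vanishes. -/
theorem qCoeff_at_zero (f : CuspForm (Gamma0 N) k) : qCoeff ⇑f 0 = 0 := by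
  simp only [qCoeff]
  exact CuspFormClass.qExpansion_coeff_zero f one_pos (one_mem_strictPeriods N)

/-- q-expansion principle for cusp forms on `Γ₀(N)`. -/
theorem cuspForm_eq_zero_of_qCoeff {f : CuspForm (Gamma0 N) k}
    (h : ∀ n : ℕ, qCoeff ⇑f n = 0) : f = 0 := by
  have hcusp : Fact (IsCusp OnePoint.infty
      (Subgroup.map (Matrix.SpecialLinearGroup.mapGL ℝ) (Gamma0 N))) :=
    ⟨Subgroup.isCusp_of_mem_strictPeriods one_pos (one_mem_strictPeriods N)⟩
  have hq : qExpansion 1 ⇑f = 0 := by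
    ext n
    rw [map_zero]
    exact h n
  have h0 : (⇑f : ℍ → ℂ) = 0 :=
    (UpperHalfPlane.qExpansion_eq_zero_iff one_pos
      (SlashInvariantFormClass.periodic_comp_ofComplex f (one_mem_strictPeriods N))
      (ModularFormClass.holo f) (ModularFormClass.bdd_at_infty f)).mp hq
  apply DFunLike.coe_injective
  rw [h0]
  rfl

theorem cuspForm_ext_qCoeff {f g : CuspForm (Gamma0 N) k}
    (h : ∀ n : ℕ, qCoeff ⇑f n = qCoeff ⇑g n) : f = g := by
  rw [← sub_eq_zero]
  apply cuspForm_eq_zero_of_qCoeff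
  intro n
  rw [qCoeff_sub, h n, sub_self]

theorem qCoeff_heckeTLin {p : ℕ} (hp : p.Prime) (hpN : ¬ p ∣ N)
    (f : CuspForm (Gamma0 N) k) (n : ℕ) :
    qCoeff ⇑(CuspForm.heckeTLin k hp hpN f) n =
      qCoeff ⇑f (n * p) + if p ∣ n then (p : ℂ) ^ (k - 1) * qCoeff ⇑f (n / p) else 0 := by
  rw [CuspForm.coe_heckeTLin_apply,
    ModularFormClass.qCoeff_heckeT f (one_mem_strictPeriods N) hp.ne_zero n,
    ModularForm.coeffHeckeT_apply]

theorem qCoeff_heckeULin [NeZero N] {p : ℕ} (hp : p ≠ 0) (hpN : p ∣ N)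
    (f : CuspForm (Gamma0 N) k) (n : ℕ) :
    qCoeff ⇑(CuspForm.heckeULin k hpN f) n = qCoeff ⇑f (n * p) := by
  rw [CuspForm.coe_heckeULin_apply,
    ModularFormClass.qCoeff_heckeU f (one_mem_strictPeriods N) hp n,
    ModularForm.coeffHeckeU_apply]

end Fermat.Agent.S49

end
-- ==== END Fermat.Agent.S49.QCoeff

-- ==== BEGIN Fermat.Agent.S53.Schur
section

/-!
# S53 helper: Burnside in dimension 2 and Schur's lemma for lifts (helper33)

* `adjoin_eq_top_of_irreducible` : Burnside via Jacobson density over an algebraically closed field.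
* `exists_det_ne_zero` : for an absolutely irreducible `ρbar`, there are four group elements whose
  matrices form a basis of `M_2(k)` (stated through a 4 x 4 determinant).
* `centralizer_scalar` : the centraliser of any lift of `ρbar` to a local ring is the scalars.
-/

set_option autoImplicit false

namespace Fermat.Agent.S53.Schur

open Module

section Burnside

variable {F : Type*} [Field F] [IsAlgClosed F] {M : Type*} [AddCommGroup M] [Module F M]
  [FiniteDimensional F M] [Nontrivial M]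

/-- Burnside's theorem: a set of endomorphisms of a finite-dimensional vector space over an
algebraically closed field with no proper nonzero invariant subspace generates the whole
endomorphism algebra. -/
theorem adjoin_eq_top_of_irreducible (s : Set (Module.End F M))
    (hirr : ∀ W : Submodule F M, (∀ f ∈ s, ∀ x ∈ W, f x ∈ W) → W = ⊥ ∨ W = ⊤) :
    Algebra.adjoin F s = ⊤ := by
  set B : Subalgebra F (Module.End F M) := Algebra.adjoin F s with hB
  have hsimple : IsSimpleModule B M := by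
    rw [isSimpleModule_iff]
    refine { exists_pair_ne := ⟨⊥, ⊤, bot_ne_top⟩, eq_bot_or_eq_top := fun N => ?_ }
    have hW := hirr (N.restrictScalars F) (fun f hf x hx => by
      have : (⟨f, Algebra.subset_adjoin hf⟩ : B) • x ∈ N := N.smul_mem _ hx
      exact this)
    rcases hW with h | h
    · left
      exact (Submodule.restrictScalars_eq_bot_iff F B M).1 h
    · right
      exact (Submodule.restrictScalars_eq_top_iff F B M).1 h
  have hschur : Function.Bijective (algebraMap F (Module.End B M)) :=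
    IsSimpleModule.algebraMap_end_bijective_of_isAlgClosed F
  have : Module.Finite (Module.End B M) M := Module.Finite.of_restrictScalars_finite F _ M
  have hdens := Module.Finite.toModuleEnd_moduleEnd_surjective (R := B) (M := M)
  rw [eq_top_iff]
  rintro f -
  let f' : Module.End (Module.End B M) M :=
    { toFun := f
      map_add' := map_add f
      map_smul' := fun φ m => by
        obtain ⟨c, rfl⟩ := hschur.2 φ
        simp }
  obtain ⟨b, hb⟩ := hdens f'
  have : (b : Module.End F M) = f := by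
    ext m
    have := congrArg (fun g => g m) hb
    exact this
  rw [← this]
  exact b.2

/-- Burnside for a monoid representation: the linear span of the image is everything. -/
theorem span_range_eq_top_of_irreducible {G : Type*} [Monoid G] (ρ : G →* Module.End F M)
    (hirr : ∀ W : Submodule F M, (∀ g, ∀ x ∈ W, ρ g x ∈ W) → W = ⊥ ∨ W = ⊤) :
    Submodule.span F (Set.range ρ) = ⊤ := by
  have h := adjoin_eq_top_of_irreducible (Set.range ρ)
    (fun W hW => hirr W (fun g x hx => hW _ ⟨g, rfl⟩ x hx))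
  have h2 := Algebra.adjoin_eq_span F (Set.range ρ)
  rw [h] at h2
  have h3 : (Submonoid.closure (Set.range ρ) : Set (Module.End F M)) = Set.range ρ := by
    rw [← MonoidHom.coe_mrange, Submonoid.closure_eq]
  rw [h3] at h2
  rw [← h2]
  simp

end Burnside

section Flat

/-- The `4 × 4` matrix whose rows are the flattened `2 × 2` matrices `X p`. -/
def flat {R : Type*} (X : Fin 2 × Fin 2 → Matrix (Fin 2) (Fin 2) R) :
    Matrix (Fin 2 × Fin 2) (Fin 2 × Fin 2) R :=
  Matrix.of fun p q => X p q.1 q.2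

theorem flat_apply {R : Type*} (X : Fin 2 × Fin 2 → Matrix (Fin 2) (Fin 2) R)
    (p q : Fin 2 × Fin 2) : flat X p q = X p q.1 q.2 := rfl

theorem flat_map {R S : Type*} (f : R → S) (X : Fin 2 × Fin 2 → Matrix (Fin 2) (Fin 2) R) :
    (flat X).map f = flat (fun p => (X p).map f) := rfl

theorem det_flat_map {R S : Type*} [CommRing R] [CommRing S] (f : R →+* S)
    (X : Fin 2 × Fin 2 → Matrix (Fin 2) (Fin 2) R) :
    (flat (fun p => (X p).map f)).det = f (flat X).det := by
  rw [← flat_map, RingHom.map_det]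
  rfl

/-- The linear map flattening a `2 × 2` matrix into a vector indexed by `Fin 2 × Fin 2`. -/
def flatten (R : Type*) [Semiring R] :
    Matrix (Fin 2) (Fin 2) R →ₗ[R] (Fin 2 × Fin 2 → R) where
  toFun X := fun q => X q.1 q.2
  map_add' _ _ := rfl
  map_smul' _ _ := rfl

theorem flatten_injective (R : Type*) [Semiring R] : Function.Injective (flatten R) := by
  intro X Y h
  ext i j
  exact congrFun h (i, j)

/-- If the flattened matrix of a family is invertible, the family spans `M_2(R)`. -/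
theorem exists_eq_sum_of_isUnit_det {R : Type*} [CommRing R]
    (X : Fin 2 × Fin 2 → Matrix (Fin 2) (Fin 2) R) (h : IsUnit (flat X).det)
    (Y : Matrix (Fin 2) (Fin 2) R) : ∃ c : Fin 2 × Fin 2 → R, Y = ∑ p, c p • X p := by
  have hinv : (flat X)⁻¹ * flat X = 1 := Matrix.nonsing_inv_mul _ h
  refine ⟨Matrix.vecMul (flatten R Y) (flat X)⁻¹, ?_⟩
  have h1 : Matrix.vecMul (Matrix.vecMul (flatten R Y) (flat X)⁻¹) (flat X) = flatten R Y := by
    rw [Matrix.vecMul_vecMul, hinv, Matrix.vecMul_one]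
  ext i j
  have h2 := congrFun h1 (i, j)
  simp only [Matrix.vecMul, dotProduct, flat_apply, flatten, LinearMap.coe_mk] at h2
  rw [Matrix.sum_apply]
  simp only [Matrix.smul_apply, smul_eq_mul]
  exact h2.symm

end Flat

section Main

open IsLocalRing

/-- For an absolutely irreducible residual representation there are four elements of the
Galois group whose matrices (in any basis) form a basis of `M_2(k)`. -/
theorem exists_det_ne_zero {k : Type} [Field k] (ρbar : ResidualGaloisRep k)
    (habs : ρbar.IsAbsolutelyIrreducible) (b : Module.Basis (Fin 2) k ρbar.V) :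
    ∃ g : Fin 2 × Fin 2 → (AlgebraicClosure ℚ ≃ₐ[ℚ] AlgebraicClosure ℚ),
      (flat fun p => LinearMap.toMatrix b b (ρbar.ρ (g p))).det ≠ 0 := by
  classical
  set F := AlgebraicClosure k
  set ρ' := ρbar.baseChange F with hρ'
  have hfin : Module.finrank F ρ'.V = 2 := ρ'.finrank_eq
  have : Module.Finite F ρ'.V := Module.finite_of_finrank_eq_succ hfin
  have : Nontrivial ρ'.V := Module.nontrivial_of_finrank_eq_succ hfin
  have hspan : Submodule.span F (Set.range ρ'.ρ) = ⊤ :=
    span_range_eq_top_of_irreducible ρ'.ρ habs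
  let b' : Module.Basis (Fin 2) F ρ'.V := Algebra.TensorProduct.basis F b
  let e : Module.End F ρ'.V ≃ₗ[F] Matrix (Fin 2) (Fin 2) F := LinearMap.toMatrix b' b'
  let m : (AlgebraicClosure ℚ ≃ₐ[ℚ] AlgebraicClosure ℚ) → Matrix (Fin 2) (Fin 2) F :=
    fun σ => (LinearMap.toMatrix b b (ρbar.ρ σ)).map (algebraMap k F)
  have hem : ∀ σ, e (ρ'.ρ σ) = m σ := fun σ => LinearMap.toMatrix_baseChange F (ρbar.ρ σ) b b
  have hspan' : Submodule.span F (Set.range m) = ⊤ := by
    have := congrArg (Submodule.map (e : Module.End F ρ'.V →ₗ[F] Matrix (Fin 2) (Fin 2) F)) hspan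
    rw [Submodule.map_span, Submodule.map_top, LinearMap.range_eq_top.2 e.surjective] at this
    rw [← this]
    congr 1
    ext X
    constructor
    · rintro ⟨σ, rfl⟩
      exact ⟨ρ'.ρ σ, ⟨σ, rfl⟩, hem σ⟩
    · rintro ⟨_, ⟨σ, rfl⟩, rfl⟩
      exact ⟨σ, (hem σ).symm⟩
  obtain ⟨f, hf, -, hli⟩ := Submodule.exists_fun_fin_finrank_span_eq F (Set.range m)
  have hrank : Module.finrank F (Submodule.span F (Set.range m)) = 2 * 2 := by
    rw [hspan', finrank_top, Module.finrank_matrix]
    simp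
  let eq : Fin 2 × Fin 2 ≃ Fin (Module.finrank F (Submodule.span F (Set.range m))) :=
    finProdFinEquiv.trans (finCongr hrank.symm)
  choose g hg using fun p => hf (eq p)
  refine ⟨g, ?_⟩
  have hli' : LinearIndependent F (fun p => flatten F (m (g p))) := by
    have h1 : LinearIndependent F (fun p => f (eq p)) := hli.comp _ eq.injective
    have h2 := h1.map' (flatten F) (LinearMap.ker_eq_bot.2 (flatten_injective F))
    have h3 : (fun p => flatten F (m (g p))) = (flatten F) ∘ fun p => f (eq p) := by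
      funext p
      simp only [Function.comp_apply, hg p]
    rw [h3]
    exact h2
  have hunit : IsUnit (flat fun p => m (g p)) :=
    Matrix.linearIndependent_rows_iff_isUnit.1 hli'
  have hdet : (flat fun p => m (g p)).det ≠ 0 :=
    ((Matrix.isUnit_iff_isUnit_det _).1 hunit).ne_zero
  intro h0
  apply hdet
  have := det_flat_map (algebraMap k F) (fun p => LinearMap.toMatrix b b (ρbar.ρ (g p)))
  rw [this, h0, map_zero]

/-- **Schur's lemma for lifts.** If `r` lifts (the matrices of) an absolutely irreducible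
residual representation to a local ring `A`, every matrix commuting with all `r g` is scalar. -/
theorem centralizer_scalar {k : Type} [Field k] (ρbar : ResidualGaloisRep k)
    (habs : ρbar.IsAbsolutelyIrreducible)
    (b : Module.Basis (Fin 2) k ρbar.V) {A : Type} [CommRing A] [IsLocalRing A]
    (ι : k →+* IsLocalRing.ResidueField A)
    (r : (AlgebraicClosure ℚ ≃ₐ[ℚ] AlgebraicClosure ℚ) → Matrix (Fin 2) (Fin 2) A)
    (hr : ∀ g, (r g).map (IsLocalRing.residue A) = (LinearMap.toMatrix b b (ρbar.ρ g)).map ι)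
    (C : Matrix (Fin 2) (Fin 2) A) (hC : ∀ g, C * r g = r g * C) :
    ∃ c : A, C = Matrix.scalar (Fin 2) c := by
  obtain ⟨g, hg⟩ := exists_det_ne_zero ρbar habs b
  have hres : IsLocalRing.residue A (flat fun p => r (g p)).det ≠ 0 := by
    rw [← det_flat_map]
    simp only [hr]
    rw [det_flat_map ι]
    exact fun h => hg ((map_eq_zero ι).1 h)
  have hunit : IsUnit (flat fun p => r (g p)).det := by
    by_contra hnu
    exact hres ((IsLocalRing.residue_eq_zero_iff _).2 ((IsLocalRing.mem_maximalIdeal _).2 hnu))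
  have hcomm : ∀ Y : Matrix (Fin 2) (Fin 2) A, C * Y = Y * C := by
    intro Y
    obtain ⟨c, rfl⟩ := exists_eq_sum_of_isUnit_det (fun p => r (g p)) hunit Y
    rw [Finset.mul_sum, Finset.sum_mul]
    refine Finset.sum_congr rfl fun p _ => ?_
    rw [Matrix.mul_smul, Matrix.smul_mul, hC]
  have hmem : C ∈ Set.range (Matrix.scalar (Fin 2)) :=
    Matrix.mem_range_scalar_of_commute_single fun i j _ => (hcomm _).symm
  obtain ⟨c, hc⟩ := hmem
  exact ⟨c, hc.symm⟩

end Main

end Fermat.Agent.S53.Schur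

end
-- ==== END Fermat.Agent.S53.Schur

-- ==== BEGIN Fermat.Agent.S58.Defs
section

/-!
# S58 (conductor-level matching): interfaces of the wiring (helper99)

Plan: `NOTES/plan/S58.md`.

* `Stmt_S35`, `Stmt_S36` : the types of the frozen statements S35, S36 (cluster R).
* `Stmt_TateUnip` : the `p`-adic Tate module of a semistable curve, as far as S58 needs it
  (Frobenius characteristic polynomials at the good primes, unipotent inertia away from `p`).
  It is a part of `Fermat.Agent.S59.Stmt_Tate`.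
* `Stmt_AdicUnip` (P1), `Stmt_ResIrr` (P2), `Stmt_ResFrob` (P3): the three consequences of the
  elliptic-curve side which the wiring uses; they are proved in `S58/H99_*.lean` from
  `Stmt_TateUnip`, Frobenius density (item 61) and item 62.
-/

set_option autoImplicit false

open Polynomial

namespace Fermat.Agent.S58

/-- The absolute Galois group of `ℚ`. -/
abbrev GQ : Type := AlgebraicClosure ℚ ≃ₐ[ℚ] AlgebraicClosure ℚ

/-- The type of the frozen statement S35. -/
def Stmt_S35 : Prop :=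
  ∀ {M : ℕ} [NeZero M] {g : CuspForm (CongruenceSubgroup.Gamma0 M) 2} (_hg : g.IsNewform)
    (lam : ℕ) [Fact lam.Prime]
    (S : Finset ℕ)
    (O' : Type) [CommRing O'] [IsDomain O'] [IsDiscreteValuationRing O']
    [IsAdicComplete (IsLocalRing.maximalIdeal O') O'] [Finite (IsLocalRing.ResidueField O')]
    [CharZero O'] (_hlamO' : (lam : O') ∈ IsLocalRing.maximalIdeal O')
    (chig : CuspForm.heckeAlgebra M 2 (↑S : Set ℕ) →+* ℂ)
    (_hchig : ∀ (ℓ : ℕ) (hℓ : ℓ.Prime) (hℓM : ¬ ℓ ∣ M) (hℓS : ℓ ∉ (↑S : Set ℕ)),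
      chig (CuspForm.heckeAlgebra.T hℓ hℓM hℓS) = ModularFormClass.qCoeff g ℓ)
    (iota : chig.range →+* O')
    (_hlamS : lam ∈ S) (_hMS : ∀ q : ℕ, q.Prime → q ∣ M → q ∈ S),
    ∃ (O'' : Type) (_ : CommRing O'') (_ : IsDomain O'') (_ : IsDiscreteValuationRing O'')
      (_ : IsAdicComplete (IsLocalRing.maximalIdeal O'') O'') (_ : Finite (IsLocalRing.ResidueField O''))
      (_ : CharZero O'') (_ : Algebra O' O'') (_ : Module.Finite O' O'') (_ : IsLocalHom (algebraMap O' O'')),
      Function.Injective (algebraMap O' O'') ∧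
      ∃ ρ : GaloisRepAdic O'',
        (∀ (ℓ : ℕ) (hℓ : ℓ.Prime) (hℓM : ¬ ℓ ∣ M) (hℓS : ℓ ∉ (↑S : Set ℕ)),
          ∀ A : ValuationSubring (AlgebraicClosure ℚ), A.LiesOverPrime ℓ →
            ∀ σ : AlgebraicClosure ℚ ≃ₐ[ℚ] AlgebraicClosure ℚ, A.IsFrobeniusAt σ ℓ →
              LinearMap.charpoly (ρ.ρ σ) =
                X ^ 2 - C (algebraMap O' O'' ((iota.comp chig.rangeRestrict) (CuspForm.heckeAlgebra.T hℓ hℓM hℓS))) * X
                  + C ((ℓ : O''))) ∧
        (∀ q : ℕ, q.Prime → q ≠ lam → q ∣ M → ¬ q ^ 2 ∣ M →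
          ∀ A : ValuationSubring (AlgebraicClosure ℚ), A.LiesOverPrime q →
            ∀ σ : AlgebraicClosure ℚ ≃ₐ[ℚ] AlgebraicClosure ℚ, A.IsFrobeniusAt σ q →
              LinearMap.charpoly (ρ.ρ σ) = X ^ 2 - C ((q : O'') + 1) * X + C ((q : O'')) ∨
              LinearMap.charpoly (ρ.ρ σ) = X ^ 2 + C ((q : O'') + 1) * X + C ((q : O'')))

/-- The type of the frozen statement S36 (Carayol). -/
def Stmt_S36 : Prop :=
  ∀ {M : ℕ} [NeZero M] {g : CuspForm (CongruenceSubgroup.Gamma0 M) 2} (_hg : g.IsNewform)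
    (lam : ℕ) [Fact lam.Prime]
    (S : Finset ℕ)
    (O' : Type) [CommRing O'] [IsDomain O'] [IsDiscreteValuationRing O']
    [IsAdicComplete (IsLocalRing.maximalIdeal O') O'] [Finite (IsLocalRing.ResidueField O')]
    [CharZero O'] (_hlamO' : (lam : O') ∈ IsLocalRing.maximalIdeal O')
    (_hlam2 : lam ≠ 2)
    (chig : CuspForm.heckeAlgebra M 2 (↑S : Set ℕ) →+* ℂ)
    (_hchig : ∀ (ℓ : ℕ) (hℓ : ℓ.Prime) (hℓM : ¬ ℓ ∣ M) (hℓS : ℓ ∉ (↑S : Set ℕ)),
      chig (CuspForm.heckeAlgebra.T hℓ hℓM hℓS) = ModularFormClass.qCoeff g ℓ)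
    (iota : chig.range →+* O')
    (_hlamS : lam ∈ S) (_hMS : ∀ q : ℕ, q.Prime → q ∣ M → q ∈ S)
    (_hres : ∀ (O'' : Type) [CommRing O''] [IsDomain O''] [IsDiscreteValuationRing O'']
      [IsAdicComplete (IsLocalRing.maximalIdeal O'') O''] [Finite (IsLocalRing.ResidueField O'')] [CharZero O'']
      [Algebra O' O''] [Module.Finite O' O''] [IsLocalHom (algebraMap O' O'')],
      Function.Injective (algebraMap O' O'') → ∀ (ρ : GaloisRepAdic O''),
      (∀ (ℓ : ℕ) (hℓ : ℓ.Prime) (_hℓlam : ℓ ≠ lam) (hℓM : ¬ ℓ ∣ M) (hℓS : ℓ ∉ (↑S : Set ℕ)),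
        ∀ A : ValuationSubring (AlgebraicClosure ℚ), A.LiesOverPrime ℓ →
          ∀ σ : AlgebraicClosure ℚ ≃ₐ[ℚ] AlgebraicClosure ℚ, A.IsFrobeniusAt σ ℓ →
            LinearMap.charpoly (ρ.ρ σ) =
              X ^ 2 - C (algebraMap O' O'' ((iota.comp chig.rangeRestrict) (CuspForm.heckeAlgebra.T hℓ hℓM hℓS))) * X
                + C ((ℓ : O'')))
      → ρ.residual.IsAbsolutelyIrreducible ∧ ρ.residual.IsOdd),
    ∃ (O'' : Type) (_ : CommRing O'') (_ : IsDomain O'') (_ : IsDiscreteValuationRing O'')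
      (_ : IsAdicComplete (IsLocalRing.maximalIdeal O'') O'') (_ : Finite (IsLocalRing.ResidueField O''))
      (_ : CharZero O'') (_ : Algebra O' O'') (_ : Module.Finite O' O'') (_ : IsLocalHom (algebraMap O' O'')),
      Function.Injective (algebraMap O' O'') ∧
      ∃ ρ : GaloisRepAdic O'',
        (∀ (ℓ : ℕ) (hℓ : ℓ.Prime) (hℓM : ¬ ℓ ∣ M) (hℓS : ℓ ∉ (↑S : Set ℕ)),
          ∀ A : ValuationSubring (AlgebraicClosure ℚ), A.LiesOverPrime ℓ →
            ∀ σ : AlgebraicClosure ℚ ≃ₐ[ℚ] AlgebraicClosure ℚ, A.IsFrobeniusAt σ ℓ →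
              LinearMap.charpoly (ρ.ρ σ) =
                X ^ 2 - C (algebraMap O' O'' ((iota.comp chig.rangeRestrict) (CuspForm.heckeAlgebra.T hℓ hℓM hℓS))) * X
                  + C ((ℓ : O''))) ∧
        (∀ q : ℕ, q.Prime → q ≠ lam → M.factorization q = 2 → ¬ ρ.IsUnipotentOnInertiaAt q)

/-- The type of the frozen statement S58. -/
def Stmt_S58 : Prop :=
  ∀ (W : WeierstrassCurve ℤ) (_hss : W.IsSemistableModel) (N : ℕ)
    (p : ℕ) [Fact p.Prime] (_hp2 : p ≠ 2) (_hirr : W.ModRepIsIrreducible p)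
    (_hp2N : ¬ p ^ 2 ∣ N)
    (_hN : W.IsModularModelOfLevel N) (_hbad : ∀ ℓ : ℕ, ℓ.Prime → (ℓ : ℤ) ∣ W.Δ → ℓ ∣ N)
    (_hN3 : ∀ q : ℕ, q.Prime → ¬ q ^ 3 ∣ N),
    W.IsModularModelOfLevel W.conductorLevel

/-- "`ρ` has the Frobenius characteristic polynomials of `W` outside the finite set `S`". -/
def HasFrobOf (W : WeierstrassCurve ℤ) {A : Type} [CommRing A] [IsLocalRing A]
    (ρ : GaloisRepAdic A) (S : Finset ℕ) : Prop :=
  ∀ ℓ : ℕ, ℓ.Prime → ℓ ∉ S →
    ∀ P : ValuationSubring (AlgebraicClosure ℚ), P.LiesOverPrime ℓ →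
      ∀ σ : GQ, P.IsFrobeniusAt σ ℓ →
        LinearMap.charpoly (ρ.ρ σ) = X ^ 2 - C (((W.apOfModel ℓ : ℤ) : A)) * X + C ((ℓ : A))

/-- **Stmt_TateUnip** (elliptic curve side; a part of `Fermat.Agent.S59.Stmt_Tate`): the `p`-adic
Tate module of a semistable curve is unipotent on inertia at every prime `q ≠ p` and has the
expected Frobenius characteristic polynomials at the good primes `ℓ ≠ p`. -/
def Stmt_TateUnip : Prop :=
  ∀ (p : ℕ) [Fact p.Prime] (W : WeierstrassCurve ℤ), W.Δ ≠ 0 → W.IsSemistableModel →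
    ∃ (𝒪 : Type) (_ : CommRing 𝒪) (_ : IsDomain 𝒪) (_ : IsDiscreteValuationRing 𝒪)
      (_ : IsAdicComplete (IsLocalRing.maximalIdeal 𝒪) 𝒪)
      (_ : Finite (IsLocalRing.ResidueField 𝒪)) (_ : CharZero 𝒪),
      (p : 𝒪) ∈ IsLocalRing.maximalIdeal 𝒪 ∧
      ∃ ρ : GaloisRepAdic 𝒪,
        (∀ q : ℕ, q.Prime → q ≠ p → ρ.IsUnipotentOnInertiaAt q) ∧
        (∀ ℓ : ℕ, ℓ.Prime → ℓ ≠ p → W.IsGoodPrimeFor ℓ →
          ∀ A : ValuationSubring (AlgebraicClosure ℚ), A.LiesOverPrime ℓ →
            ∀ σ : AlgebraicClosure ℚ ≃ₐ[ℚ] AlgebraicClosure ℚ, A.IsFrobeniusAt σ ℓ →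
              LinearMap.charpoly (ρ.ρ σ) =
                X ^ 2 - C (((W.apOfModel ℓ : ℤ) : 𝒪)) * X + C ((ℓ : 𝒪)))

/-- **P1.** A representation over a complete discrete valuation ring of residue characteristic
`p` with the Frobenius characteristic polynomials of a semistable curve `W` is unipotent on
inertia at every prime `q ≠ p`. -/
def Stmt_AdicUnip : Prop :=
  ∀ (p : ℕ) [Fact p.Prime] (W : WeierstrassCurve ℤ), W.Δ ≠ 0 → W.IsSemistableModel →
    ∀ (O : Type) [CommRing O] [IsDomain O] [IsDiscreteValuationRing O]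
      [IsAdicComplete (IsLocalRing.maximalIdeal O) O] [Finite (IsLocalRing.ResidueField O)]
      [CharZero O], (p : O) ∈ IsLocalRing.maximalIdeal O →
    ∀ (ρ : GaloisRepAdic O) (S : Finset ℕ), HasFrobOf W ρ S →
      ∀ q : ℕ, q.Prime → q ≠ p → ρ.IsUnipotentOnInertiaAt q

/-- **P2.** A representation over a complete discrete valuation ring of odd residue
characteristic `p` with the Frobenius characteristic polynomials of a curve `W` with irreducible
`W[p]` is residually absolutely irreducible and odd. -/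
def Stmt_ResIrr : Prop :=
  ∀ (p : ℕ) [Fact p.Prime], p ≠ 2 → ∀ (W : WeierstrassCurve ℤ), W.Δ ≠ 0 →
    W.ModRepIsIrreducible p →
    ∀ (O : Type) [CommRing O] [IsDomain O] [IsDiscreteValuationRing O]
      [IsAdicComplete (IsLocalRing.maximalIdeal O) O] [Finite (IsLocalRing.ResidueField O)]
      [CharZero O], (p : O) ∈ IsLocalRing.maximalIdeal O →
    ∀ (ρ : GaloisRepAdic O) (S : Finset ℕ), HasFrobOf W ρ S →
      ρ.residual.IsAbsolutelyIrreducible ∧ ρ.residual.IsOdd

/-- **P3.** A representation over a complete discrete valuation ring of residue characteristic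
`lam` with the Frobenius characteristic polynomials of a curve `W` outside a finite set has, at
EVERY good prime `ℓ ≠ lam` of `W`, a Frobenius trace congruent to `a_ℓ(W)` modulo the maximal
ideal. -/
def Stmt_ResFrob : Prop :=
  ∀ (lam : ℕ) [Fact lam.Prime] (W : WeierstrassCurve ℤ), W.Δ ≠ 0 →
    ∀ (O : Type) [CommRing O] [IsDomain O] [IsDiscreteValuationRing O]
      [IsAdicComplete (IsLocalRing.maximalIdeal O) O] [Finite (IsLocalRing.ResidueField O)]
      [CharZero O], (lam : O) ∈ IsLocalRing.maximalIdeal O →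
    ∀ (ρ : GaloisRepAdic O) (S : Finset ℕ), HasFrobOf W ρ S →
      ∀ ℓ : ℕ, ℓ.Prime → ℓ ≠ lam → W.IsGoodPrimeFor ℓ →
        ∀ P : ValuationSubring (AlgebraicClosure ℚ), P.LiesOverPrime ℓ →
          ∀ σ : GQ, P.IsFrobeniusAt σ ℓ →
            LinearMap.trace O ρ.V (ρ.ρ σ) - ((W.apOfModel ℓ : ℤ) : O) ∈
              IsLocalRing.maximalIdeal O

end Fermat.Agent.S58

end
-- ==== END Fermat.Agent.S58.Defs
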