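-- GENERATED (merged mirror, NOTES/tools/trim/merge3_helper67.py): 10 modules of the originals, bodies verbatim.
import Mathlib
import Fermat.Prelude.Thm_ModularForm_sturm_bound_Gamma0
import Fermat.Prelude.Def_ModularCurve_GenusNumerics
import Fermat.Prelude.Def_CuspForm_HeckeGaloisRepDatum
import Fermat.Prelude.Def_GaloisRep_LocalConditions
import Fermat.Prelude.Thm_Algebra_finite_maximalSpectrum_and_bijective_localization_of_module_finite
import Fermat.Prelude.Thm_IsLocalRing_isAdicComplete_of_module_finite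
import Mathlib.NumberTheory.ModularForms.Petersson
import Mathlib.NumberTheory.ModularForms.Bounds
import Mathlib.NumberTheory.Modular
import Mathlib.Analysis.Complex.UpperHalfPlane.Measure
import Mathlib.MeasureTheory.Group.FundamentalDomain
import Fermat.Prelude.Def_CuspForm_HeckeAlgebra

-- ==== BEGIN Fermat.Agent.GTor.H96_SL2
section

set_option autoImplicit false

noncomputable section

namespace Fermat.Agent.GTor.H96

open Complex UpperHalfPlane Matrix Matrix.SpecialLinearGroup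
open scoped MatrixGroups

/-! ### Powers of a `2 × 2` matrix of determinant one -/

/-- The Chebyshev-like sequence `u 0 = 0`, `u 1 = 1`, `u (m+2) = t * u (m+1) - u m`. -/
def chebU (t : ℤ) : ℕ → ℤ
  | 0 => 0
  | 1 => 1
  | (m + 2) => t * chebU t (m + 1) - chebU t m

theorem chebU_zero (t : ℤ) : chebU t 0 = 0 := rfl

theorem chebU_one (t : ℤ) : chebU t 1 = 1 := rfl

theorem chebU_succ_succ (t : ℤ) (m : ℕ) :
    chebU t (m + 2) = t * chebU t (m + 1) - chebU t m := rfl

theorem sq_eq_trace_mul_sub_one (M : Matrix (Fin 2) (Fin 2) ℤ) (hdet : M.det = 1) :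
    M * M = M.trace • M - (1 : Matrix (Fin 2) (Fin 2) ℤ) := by
  rw [Matrix.det_fin_two] at hdet
  have h : ∀ i j, (M * M) i j
      = M.trace * M i j - (1 : Matrix (Fin 2) (Fin 2) ℤ) i j := by
    intro i j
    fin_cases i <;> fin_cases j <;>
      simp [Matrix.mul_apply, Fin.sum_univ_two, Matrix.trace_fin_two] <;>
      first | linear_combination hdet | linear_combination -hdet | ring
  ext i j
  rw [h]
  simp only [Matrix.sub_apply, Matrix.smul_apply, smul_eq_mul]

theorem pow_succ_eq_chebU (M : Matrix (Fin 2) (Fin 2) ℤ) (hdet : M.det = 1) (m : ℕ) :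
    M ^ (m + 1) = chebU M.trace (m + 1) • M - chebU M.trace m • (1 : Matrix (Fin 2) (Fin 2) ℤ) := by
  induction m with
  | zero => simp [chebU_zero, chebU_one]
  | succ m ih =>
    rw [pow_succ, ih, sub_mul, Matrix.smul_mul, Matrix.smul_mul, one_mul,
      sq_eq_trace_mul_sub_one M hdet, chebU_succ_succ]
    simp only [smul_sub, smul_smul, sub_smul]
    module

theorem abs_chebU_succ_ge {t : ℤ} (ht : 2 ≤ |t|) (m : ℕ) :
    |chebU t m| + 1 ≤ |chebU t (m + 1)| := by
  induction m with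
  | zero => simp [chebU_zero, chebU_one]
  | succ m ih =>
    rw [chebU_succ_succ]
    have h1 : |t * chebU t (m + 1)| - |chebU t m| ≤ |t * chebU t (m + 1) - chebU t m| :=
      abs_sub_abs_le_abs_sub _ _
    have h2 : |t * chebU t (m + 1)| = |t| * |chebU t (m + 1)| := abs_mul _ _
    have h3 : 0 ≤ |chebU t (m + 1)| := abs_nonneg _
    nlinarith

theorem chebU_succ_ne_zero {t : ℤ} (ht : 2 ≤ |t|) (m : ℕ) : chebU t (m + 1) ≠ 0 := by
  have h := abs_chebU_succ_ge ht m
  have h0 : 0 ≤ |chebU t m| := abs_nonneg _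
  intro h1
  rw [h1, abs_zero] at h
  linarith

/-- A matrix of determinant one and finite order with `|trace| ≥ 2` is `±1`. -/
theorem eq_one_or_neg_one_of_pow_eq_one (γ : SL(2, ℤ))
    (ht : 2 ≤ |(γ : Matrix (Fin 2) (Fin 2) ℤ).trace|) {m : ℕ} (hm : 0 < m) (hpow : γ ^ m = 1) :
    γ = 1 ∨ γ = -1 := by
  obtain ⟨m, rfl⟩ : ∃ m', m = m' + 1 := ⟨m - 1, by omega⟩
  have h1 : ((γ : Matrix (Fin 2) (Fin 2) ℤ)) ^ (m + 1) = 1 := by
    rw [← Matrix.SpecialLinearGroup.coe_pow, hpow, Matrix.SpecialLinearGroup.coe_one]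
  rw [pow_succ_eq_chebU _ γ.2] at h1
  have hu := chebU_succ_ne_zero ht m
  have h01 := congrFun (congrFun h1 0) 1
  have h10 := congrFun (congrFun h1 1) 0
  simp only [Matrix.sub_apply, Matrix.smul_apply, smul_eq_mul, Matrix.one_apply_ne (zero_ne_one),
    Matrix.one_apply_ne (one_ne_zero), mul_zero, sub_zero] at h01 h10
  have hb : (γ : Matrix (Fin 2) (Fin 2) ℤ) 0 1 = 0 := (mul_eq_zero.mp h01).resolve_left hu
  have hc : (γ : Matrix (Fin 2) (Fin 2) ℤ) 1 0 = 0 := (mul_eq_zero.mp h10).resolve_left hu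
  have hdet := γ.2
  rw [Matrix.det_fin_two, hb, hc, mul_zero, sub_zero] at hdet
  rcases Int.eq_one_or_neg_one_of_mul_eq_one' hdet with ⟨ha, hd⟩ | ⟨ha, hd⟩
  · left
    ext i j
    fin_cases i <;> fin_cases j <;> simp [ha, hd, hb, hc]
  · right
    ext i j
    fin_cases i <;> fin_cases j <;> simp [ha, hd, hb, hc]

/-- An element of `SL(2, ℤ)` with `|trace| ≤ 1` fixes a point of the upper half plane. -/
theorem exists_fixed_point_of_trace (γ : SL(2, ℤ))
    (ht : |(γ : Matrix (Fin 2) (Fin 2) ℤ).trace| ≤ 1) : ∃ z : ℍ, γ • z = z := by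
  set a : ℤ := (γ : Matrix (Fin 2) (Fin 2) ℤ) 0 0 with ha
  set b : ℤ := (γ : Matrix (Fin 2) (Fin 2) ℤ) 0 1 with hb
  set c : ℤ := (γ : Matrix (Fin 2) (Fin 2) ℤ) 1 0 with hc
  set d : ℤ := (γ : Matrix (Fin 2) (Fin 2) ℤ) 1 1 with hd
  have hdet : a * d - b * c = 1 := by
    have := γ.2
    rwa [Matrix.det_fin_two] at this
  have htr : |a + d| ≤ 1 := by
    rwa [Matrix.trace_fin_two] at ht
  have hc0 : c ≠ 0 := by
    intro h0
    rw [h0, mul_zero, sub_zero] at hdet
    rcases Int.eq_one_or_neg_one_of_mul_eq_one' hdet with ⟨h1, h2⟩ | ⟨h1, h2⟩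
    · rw [h1, h2] at htr; norm_num at htr
    · rw [h1, h2] at htr; norm_num at htr
  have hcR : (c : ℝ) ≠ 0 := by exact_mod_cast hc0
  have habs : (0 : ℝ) < |(c : ℝ)| := abs_pos.mpr hcR
  have htR : ((a : ℝ) + d) ^ 2 ≤ 1 := by
    have h1 : |((a : ℝ) + d)| ≤ 1 := by exact_mod_cast htr
    have := abs_le.mp h1
    nlinarith
  have hpos : (0 : ℝ) < 4 - ((a : ℝ) + d) ^ 2 := by linarith
  set y : ℝ := Real.sqrt (4 - ((a : ℝ) + d) ^ 2) / (2 * |(c : ℝ)|) with hy
  set x : ℝ := ((a : ℝ) - d) / (2 * c) with hx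
  have hy0 : 0 < y := div_pos (Real.sqrt_pos.mpr hpos) (by positivity)
  have hy2 : y ^ 2 * (4 * (c : ℝ) ^ 2) = 4 - ((a : ℝ) + d) ^ 2 := by
    rw [hy, div_pow, Real.sq_sqrt hpos.le, mul_pow, sq_abs]
    field_simp
    ring
  have hxc : x * (2 * c) = (a : ℝ) - d := by
    rw [hx]; field_simp
  have hdetR : (a : ℝ) * d - b * c = 1 := by exact_mod_cast hdet
  let z : ℍ := ⟨⟨x, y⟩, hy0⟩
  refine ⟨z, ?_⟩
  apply UpperHalfPlane.ext
  rw [UpperHalfPlane.coe_specialLinearGroup_apply]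
  have hden : ((algebraMap ℤ ℝ ((γ : Matrix (Fin 2) (Fin 2) ℤ) 1 0) : ℂ) * (z : ℂ)
      + (algebraMap ℤ ℝ ((γ : Matrix (Fin 2) (Fin 2) ℤ) 1 1) : ℂ)) ≠ 0 := by
    have := UpperHalfPlane.denom_ne_zero (γ : GL (Fin 2) ℝ) z
    simpa [UpperHalfPlane.denom] using this
  rw [div_eq_iff hden]
  have hz : (z : ℂ) = ⟨x, y⟩ := rfl
  rw [hz]
  simp only [algebraMap_int_eq, eq_intCast, ← ha, ← hb, ← hc, ← hd]
  apply Complex.ext
  · simp only [Complex.add_re, Complex.mul_re, Complex.ofReal_intCast, Complex.intCast_re,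
      Complex.intCast_im, Complex.add_im, Complex.mul_im]
    ring_nf
    have hcc : (c : ℝ) * c * x ^ 2 * 4 = ((a : ℝ) - d) ^ 2 := by
      rw [← hxc]; ring
    have key : (c : ℝ) * ((a : ℝ) * x + b - (x * (c * x + d) - y * (c * y))) = 0 := by
      have e1 : (c : ℝ) * ((a : ℝ) * x + b - (x * (c * x + d) - y * (c * y)))
          = ((a - d) * (x * (2 * c)) / 2 + b * c - (x * (2 * c)) ^ 2 / 4
              + y ^ 2 * (4 * (c : ℝ) ^ 2) / 4) := by ring
      rw [e1, hxc, hy2]
      linear_combination -hdetR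
    have := (mul_eq_zero.mp key).resolve_left hcR
    linarith
  · simp only [Complex.add_re, Complex.mul_re, Complex.ofReal_intCast, Complex.intCast_re,
      Complex.intCast_im, Complex.add_im, Complex.mul_im]
    ring_nf
    have : (a : ℝ) * y - (x * (c * y) + y * (c * x + d)) = 0 := by
      have e1 : (a : ℝ) * y - (x * (c * y) + y * (c * x + d)) = y * ((a - d) - x * (2 * c)) := by
        ring
      rw [e1, hxc, sub_self, mul_zero]
    linarith

/-- A matrix in `SL(2, ℤ)` fixing the first basis vector is a power of `T`. -/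
theorem eq_T_zpow_of_col (δ : SL(2, ℤ)) (h00 : (δ : Matrix (Fin 2) (Fin 2) ℤ) 0 0 = 1)
    (h10 : (δ : Matrix (Fin 2) (Fin 2) ℤ) 1 0 = 0) :
    δ = ModularGroup.T ^ ((δ : Matrix (Fin 2) (Fin 2) ℤ) 0 1) := by
  have hdet := δ.2
  rw [Matrix.det_fin_two, h00, h10, mul_zero, sub_zero, one_mul] at hdet
  ext i j
  rw [ModularGroup.coe_T_zpow]
  fin_cases i <;> fin_cases j <;> simp [h00, h10, hdet]

/-- An element of `SL(2, ℤ)` fixing a primitive vector is conjugate to a power of `T`. -/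
theorem exists_conj_T_zpow_of_fixed_vector (γ : SL(2, ℤ)) {p q : ℤ} (hpq : IsCoprime p q)
    (h0 : (γ : Matrix (Fin 2) (Fin 2) ℤ) 0 0 * p + (γ : Matrix (Fin 2) (Fin 2) ℤ) 0 1 * q = p)
    (h1 : (γ : Matrix (Fin 2) (Fin 2) ℤ) 1 0 * p + (γ : Matrix (Fin 2) (Fin 2) ℤ) 1 1 * q = q) :
    ∃ (σ : SL(2, ℤ)) (j : ℤ), γ = σ * ModularGroup.T ^ j * σ⁻¹ := by
  obtain ⟨σ, hσ0, hσ1⟩ := hpq.exists_SL2_col 0
  have hσdet := σ.2
  rw [Matrix.det_fin_two, hσ0, hσ1] at hσdet
  set δ : SL(2, ℤ) := σ⁻¹ * γ * σ with hδ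
  have hδ00 : (δ : Matrix (Fin 2) (Fin 2) ℤ) 0 0 = 1 := by
    rw [hδ]
    simp only [Matrix.SpecialLinearGroup.coe_mul, Matrix.SpecialLinearGroup.coe_inv,
      Matrix.adjugate_fin_two, Matrix.mul_apply, Fin.sum_univ_two, Matrix.of_apply,
      Matrix.cons_val_zero, Matrix.cons_val_one, Matrix.cons_val', Matrix.cons_val_fin_one,
      hσ0, hσ1]
    linear_combination (σ.1 1 1) * h0 - (σ.1 0 1) * h1 + hσdet
  have hδ10 : (δ : Matrix (Fin 2) (Fin 2) ℤ) 1 0 = 0 := by
    rw [hδ]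
    simp only [Matrix.SpecialLinearGroup.coe_mul, Matrix.SpecialLinearGroup.coe_inv,
      Matrix.adjugate_fin_two, Matrix.mul_apply, Fin.sum_univ_two, Matrix.of_apply,
      Matrix.cons_val_zero, Matrix.cons_val_one, Matrix.cons_val', Matrix.cons_val_fin_one,
      hσ0, hσ1]
    linear_combination (-q) * h0 + p * h1
  refine ⟨σ, (δ : Matrix (Fin 2) (Fin 2) ℤ) 0 1, ?_⟩
  rw [← eq_T_zpow_of_col δ hδ00 hδ10, hδ]
  group

/-- An element of `SL(2, ℤ)` of trace `2` is conjugate to a power of `T`. -/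
theorem exists_conj_T_zpow_of_trace_eq_two (γ : SL(2, ℤ))
    (ht : (γ : Matrix (Fin 2) (Fin 2) ℤ).trace = 2) :
    ∃ (σ : SL(2, ℤ)) (j : ℤ), γ = σ * ModularGroup.T ^ j * σ⁻¹ := by
  have hdet := γ.2
  rw [Matrix.det_fin_two] at hdet
  rw [Matrix.trace_fin_two] at ht
  set a : ℤ := (γ : Matrix (Fin 2) (Fin 2) ℤ) 0 0 with ha
  set b : ℤ := (γ : Matrix (Fin 2) (Fin 2) ℤ) 0 1 with hb
  set c : ℤ := (γ : Matrix (Fin 2) (Fin 2) ℤ) 1 0 with hc
  set d : ℤ := (γ : Matrix (Fin 2) (Fin 2) ℤ) 1 1 with hd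
  by_cases hg : Int.gcd (a - 1) c = 0
  · -- `a = 1`, `c = 0`
    have ha1 : a - 1 = 0 := (Int.gcd_eq_zero_iff.mp hg).1
    have hc0 : c = 0 := (Int.gcd_eq_zero_iff.mp hg).2
    refine exists_conj_T_zpow_of_fixed_vector γ (p := 1) (q := 0) isCoprime_one_left ?_ ?_
    · rw [← ha, ← hb]; linarith
    · rw [← hc, ← hd, hc0]; ring
  · obtain ⟨p, q, hpq, hp, hq⟩ := Int.exists_gcd_one (Nat.pos_of_ne_zero hg)
    have hg0 : ((Int.gcd (a - 1) c : ℕ) : ℤ) ≠ 0 := by exact_mod_cast hg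
    set g : ℤ := ((Int.gcd (a - 1) c : ℕ) : ℤ) with hgdef
    refine exists_conj_T_zpow_of_fixed_vector γ (p := p) (q := q)
      (Int.isCoprime_iff_gcd_eq_one.mpr hpq) ?_ ?_
    · rw [← ha, ← hb]
      have key : g * (a * p + b * q - p) = 0 := by
        have e : g * (a * p + b * q - p) = (a - 1) * (p * g) + b * (q * g) := by ring
        rw [e, ← hp, ← hq]
        linear_combination (a) * ht - hdet
      have := (mul_eq_zero.mp key).resolve_left hg0
      linarith
    · rw [← hc, ← hd]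
      have key : g * (c * p + d * q - q) = 0 := by
        have e : g * (c * p + d * q - q) = c * (p * g) + (d - 1) * (q * g) := by ring
        rw [e, ← hp, ← hq]
        linear_combination c * ht
      have := (mul_eq_zero.mp key).resolve_left hg0
      linarith

/-- An element of finite order of `SL(2, ℤ)` is `±1` or fixes a point of `ℍ`. -/
theorem finOrder_cases (γ : SL(2, ℤ)) (h : IsOfFinOrder γ) :
    γ = 1 ∨ γ = -1 ∨ ∃ z : ℍ, γ • z = z := by
  by_cases ht : 2 ≤ |(γ : Matrix (Fin 2) (Fin 2) ℤ).trace|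
  · obtain ⟨m, hm, hpow⟩ := isOfFinOrder_iff_pow_eq_one.mp h
    rcases eq_one_or_neg_one_of_pow_eq_one γ ht hm hpow with h1 | h1
    · exact Or.inl h1
    · exact Or.inr (Or.inl h1)
  · exact Or.inr (Or.inr (exists_fixed_point_of_trace γ (by omega)))

/-- An element of `SL(2, ℤ)` with `trace ^ 2 = 4` is, up to sign, conjugate to a power
of `T`. -/
theorem trace_sq_eq_four_cases (γ : SL(2, ℤ))
    (ht : (γ : Matrix (Fin 2) (Fin 2) ℤ).trace ^ 2 = 4) :
    ∃ (σ : SL(2, ℤ)) (j : ℤ), γ = σ * ModularGroup.T ^ j * σ⁻¹ ∨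
      γ = -(σ * ModularGroup.T ^ j * σ⁻¹) := by
  have h' : ((γ : Matrix (Fin 2) (Fin 2) ℤ).trace - 2) *
      ((γ : Matrix (Fin 2) (Fin 2) ℤ).trace + 2) = 0 := by linear_combination ht
  rcases mul_eq_zero.mp h' with h1 | h1
  · obtain ⟨σ, j, h⟩ := exists_conj_T_zpow_of_trace_eq_two γ (by linarith)
    exact ⟨σ, j, Or.inl h⟩
  · have hneg : ((-γ : SL(2, ℤ)) : Matrix (Fin 2) (Fin 2) ℤ).trace = 2 := by
      rw [Matrix.SpecialLinearGroup.coe_neg, Matrix.trace_neg]
      linarith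
    obtain ⟨σ, j, h⟩ := exists_conj_T_zpow_of_trace_eq_two (-γ) hneg
    exact ⟨σ, j, Or.inr (by rw [← h, neg_neg])⟩

/-! ### Minimal exponents -/

/-- If `w` is the least positive exponent with `g ^ w ∈ H`, then `g ^ j ∈ H` implies `w ∣ j`. -/
theorem sInf_dvd_of_zpow_mem {G : Type*} [Group G] (H : Subgroup G) (g : G)
    (hw : 0 < sInf {h : ℕ | 0 < h ∧ g ^ h ∈ H}) {j : ℤ} (hj : g ^ j ∈ H) :
    ((sInf {h : ℕ | 0 < h ∧ g ^ h ∈ H} : ℕ) : ℤ) ∣ j := by
  set S : Set ℕ := {h : ℕ | 0 < h ∧ g ^ h ∈ H} with hS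
  set w : ℕ := sInf S with hwdef
  have hne : S.Nonempty := by
    by_contra hempty
    rw [Set.not_nonempty_iff_eq_empty] at hempty
    rw [hwdef, hempty, Nat.sInf_empty] at hw
    exact lt_irrefl 0 hw
  have hwS : w ∈ S := Nat.sInf_mem hne
  have hwpos : (0 : ℤ) < (w : ℤ) := by exact_mod_cast hw
  have hr0 : 0 ≤ j % (w : ℤ) := Int.emod_nonneg j hwpos.ne'
  have hrw : j % (w : ℤ) < w := Int.emod_lt_of_pos j hwpos
  have hmem : g ^ (j % (w : ℤ)) ∈ H := by
    have e : j % (w : ℤ) = j - (w : ℤ) * (j / (w : ℤ)) := by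
      have := Int.emod_add_mul_ediv j (w : ℤ)
      linarith
    rw [e, _root_.zpow_sub, _root_.zpow_mul, zpow_natCast]
    exact H.mul_mem hj (H.inv_mem (H.zpow_mem hwS.2 _))
  by_contra hdvd
  have hrne : j % (w : ℤ) ≠ 0 := fun h0 => hdvd (Int.dvd_of_emod_eq_zero h0)
  have hrpos : 0 < j % (w : ℤ) := lt_of_le_of_ne hr0 (Ne.symm hrne)
  have hmemS : (j % (w : ℤ)).toNat ∈ S := by
    refine ⟨by omega, ?_⟩
    have : ((j % (w : ℤ)).toNat : ℤ) = j % (w : ℤ) := Int.toNat_of_nonneg hr0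
    rw [← zpow_natCast, this]
    exact hmem
  have := Nat.sInf_le hmemS
  omega

end Fermat.Agent.GTor.H96

end
end
-- ==== END Fermat.Agent.GTor.H96_SL2

-- ==== BEGIN Fermat.Agent.Lib.CuspFormGamma0
section

set_option autoImplicit false

open UpperHalfPlane ModularFormClass
open scoped MatrixGroups

namespace Fermat.Agent.Lib.CuspFormGamma0

/-- A cusp form on `Γ₀(N)` of weight `k` with `k * [SL₂(ℤ) : Γ₀(N)] < 12` vanishes
(consequence of the Sturm bound). -/
theorem cuspForm_eq_zero_of_index_lt (N : ℕ) [NeZero N] {k : ℤ}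
    (hk : (k * (CongruenceSubgroup.Gamma0 N).index).toNat / 12 = 0)
    (f : CuspForm (CongruenceSubgroup.Gamma0 N) k) : f = 0 := by
  have h1 : (1 : ℝ) ∈ (CongruenceSubgroup.Gamma0 N : Subgroup (GL (Fin 2) ℝ)).strictPeriods := by
    simp [CongruenceSubgroup.strictPeriods_Gamma0]
  have hg : (CuspForm.toModularFormₗ f) = 0 := by
    apply ModularForm.sturm_bound_Gamma0 N
    intro n hn
    rw [hk] at hn
    obtain rfl : n = 0 := by omega
    have := CuspFormClass.qExpansion_coeff_zero (f := f) (h := 1) one_pos h1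
    exact this
  exact CuspForm.toModularFormₗ_injective (by simpa using hg)

end Fermat.Agent.Lib.CuspFormGamma0

end
-- ==== END Fermat.Agent.Lib.CuspFormGamma0

-- ==== BEGIN Fermat.Agent.Lib.FrobDensity.H31_Ram
section

/-!
# Frobenius density (item 61), helper31: finiteness of the ramified primes

For a number field `L`, Galois over `ℚ`:

* `inertia_eq_bot_of_isUnramifiedAt` : `Algebra.IsUnramifiedAt ℤ P → P.inertia Gal(L/ℚ) = ⊥`;
* `inertia_eq_bot_of_discr_notMem` : a prime of `𝓞 L` not containing `discr L` has trivial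
  inertia group;
* `finite_setOf_intCast_mem` : for `d ≠ 0`, only finitely many height-one primes of `𝓞 K`
  contain `d`;
* `finite_setOf_inertia_ne_bot` : only finitely many primes of `𝓞 L` have nontrivial inertia.
-/

set_option linter.unusedSectionVars false
set_option linter.style.haveILetI false

namespace Fermat.Agent.Lib.FrobDensity.H31

open NumberField IsDedekindDomain

/-- Unramified over `ℤ` implies trivial inertia group in `Gal(L/ℚ)`. -/
theorem inertia_eq_bot_of_isUnramifiedAt (L : Type*) [Field L] [NumberField L] [IsGalois ℚ L]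
    (P : Ideal (𝓞 L)) [P.IsPrime] (h : Algebra.IsUnramifiedAt ℤ P) :
    P.inertia (L ≃ₐ[ℚ] L) = ⊥ := by
  have hG : IsGaloisGroup (L ≃ₐ[ℚ] L) ℤ (𝓞 L) := IsGaloisGroup.of_isFractionRing _ _ _ ℚ L
  rw [← Ideal.ramificationIdx_eq_one_iff] at h
  have key := Ideal.card_inertia_eq_ramificationIdxIn (G := L ≃ₐ[ℚ] L) (P.under ℤ) P
  rw [Ideal.ramificationIdxIn_eq_ramificationIdx (P.under ℤ) P (L ≃ₐ[ℚ] L), h] at key
  exact Subgroup.card_eq_one.mp key

/-- A nonzero prime of `𝓞 K` contains a rational prime. -/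
theorem exists_prime_intCast_mem (K : Type*) [Field K] [NumberField K]
    (P : Ideal (𝓞 K)) [hP : P.IsPrime] (hP0 : P ≠ ⊥) :
    ∃ p : ℤ, Prime p ∧ (p : 𝓞 K) ∈ P := by
  have hne : P.under ℤ ≠ ⊥ := Ideal.under_ne_bot ℤ hP0
  have hprime : (P.under ℤ).IsPrime := inferInstance
  have hprinc : (P.under ℤ).IsPrincipal := IsPrincipalIdealRing.principal _
  refine ⟨Submodule.IsPrincipal.generator (P.under ℤ),
    Submodule.IsPrincipal.prime_generator_of_isPrime _ hne, ?_⟩
  have hmem : Submodule.IsPrincipal.generator (P.under ℤ) ∈ P.under ℤ :=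
    Submodule.IsPrincipal.generator_mem _
  have h2 := Ideal.mem_comap.mp hmem
  simpa using h2

/-- A prime of `𝓞 L` (`L/ℚ` Galois) not containing `discr L` has trivial inertia group. -/
theorem inertia_eq_bot_of_discr_notMem (L : Type*) [Field L] [NumberField L] [IsGalois ℚ L]
    (P : Ideal (𝓞 L)) [hP : P.IsPrime] (hP0 : P ≠ ⊥)
    (hd : ((discr L : ℤ) : 𝓞 L) ∉ P) : P.inertia (L ≃ₐ[ℚ] L) = ⊥ := by
  obtain ⟨p, hp, hpP⟩ := exists_prime_intCast_mem L P hP0
  have hndvd : ¬ p ∣ discr L := by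
    rintro ⟨c, hc⟩
    apply hd
    rw [hc]
    push_cast
    exact Ideal.mul_mem_right _ _ hpP
  have h := (NumberField.not_dvd_discr_iff_forall_mem L (𝓞 L) hp).mp hndvd P hP hpP
  exact inertia_eq_bot_of_isUnramifiedAt L P h

/-- For `d ≠ 0`, only finitely many height-one primes of `𝓞 K` contain `d`. -/
theorem finite_setOf_intCast_mem (K : Type*) [Field K] [NumberField K] {d : ℤ} (hd : d ≠ 0) :
    {v : HeightOneSpectrum (𝓞 K) | (d : 𝓞 K) ∈ v.asIdeal}.Finite := by
  have hI : Ideal.span {(d : 𝓞 K)} ≠ ⊥ := by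
    rw [Ne, Ideal.span_singleton_eq_bot]
    exact_mod_cast hd
  refine (Ideal.finite_factors hI).subset ?_
  intro v hv
  simp only [Set.mem_ofPred_eq] at hv ⊢
  rw [Ideal.dvd_span_singleton]
  exact hv

/-- Only finitely many primes of `𝓞 L` have nontrivial inertia group in `Gal(L/ℚ)`. -/
theorem finite_setOf_inertia_ne_bot (L : Type*) [Field L] [NumberField L] [IsGalois ℚ L] :
    {w : HeightOneSpectrum (𝓞 L) | w.asIdeal.inertia (L ≃ₐ[ℚ] L) ≠ ⊥}.Finite := by
  refine (finite_setOf_intCast_mem L (NumberField.discr_ne_zero L)).subset ?_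
  intro w hw
  simp only [Set.mem_ofPred_eq] at hw ⊢
  by_contra hd
  haveI := w.isPrime
  exact hw (inertia_eq_bot_of_discr_notMem L w.asIdeal w.ne_bot hd)

end Fermat.Agent.Lib.FrobDensity.H31

end
-- ==== END Fermat.Agent.Lib.FrobDensity.H31_Ram

-- ==== BEGIN Fermat.Agent.Lib.FrobIntegers
section

set_option autoImplicit false

open scoped Pointwise

noncomputable section

namespace Fermat.Agent.Lib.FrobIntegers

theorem qbar_isAlgebraic : Algebra.IsAlgebraic ℚ (AlgebraicClosure ℚ) :=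
  AlgebraicClosure.isAlgebraic ℚ

attribute [local instance] qbar_isAlgebraic

theorem qbar_isAlgClosure : IsAlgClosure ℚ (AlgebraicClosure ℚ) :=
  ⟨inferInstance, inferInstance⟩

attribute [local instance] qbar_isAlgClosure

theorem qbar_isGalois : IsGalois ℚ (AlgebraicClosure ℚ) := inferInstance

attribute [local instance] qbar_isGalois

/-- The ring of all algebraic integers inside `AlgebraicClosure ℚ`. -/
abbrev ZBar : Subalgebra ℤ (AlgebraicClosure ℚ) := integralClosure ℤ (AlgebraicClosure ℚ)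

theorem zbar_smul_coe (g : AlgebraicClosure ℚ ≃ₐ[ℚ] AlgebraicClosure ℚ) (b : ZBar) :
    ((g • b : ZBar) : AlgebraicClosure ℚ) = g (b : AlgebraicClosure ℚ) := rfl

theorem zbar_isInvariant :
    Algebra.IsInvariant ℤ ZBar (AlgebraicClosure ℚ ≃ₐ[ℚ] AlgebraicClosure ℚ) where
  isInvariant b hb := by
    have h1 : (b : AlgebraicClosure ℚ) ∈ Set.range (algebraMap ℚ (AlgebraicClosure ℚ)) := by
      rw [InfiniteGalois.mem_range_algebraMap_iff_fixed]
      intro g
      exact congrArg Subtype.val (hb g)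
    obtain ⟨q, hq⟩ := h1
    have hb' : IsIntegral ℤ (b : AlgebraicClosure ℚ) := b.2
    rw [← hq, isIntegral_algebraMap_iff (FaithfulSMul.algebraMap_injective ℚ (AlgebraicClosure ℚ))]
      at hb'
    obtain ⟨n, hn⟩ := IsIntegrallyClosed.algebraMap_eq_of_integral hb'
    refine ⟨n, Subtype.ext ?_⟩
    rw [← hq, ← hn]
    simp

attribute [local instance] zbar_isInvariant

@[reducible] def zbarTopologicalSpace : TopologicalSpace ZBar := ⊥

attribute [local instance] zbarTopologicalSpace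

theorem zbar_discreteTopology : DiscreteTopology ZBar := ⟨rfl⟩

attribute [local instance] zbar_discreteTopology

theorem zbar_continuousSMul :
    ContinuousSMul (AlgebraicClosure ℚ ≃ₐ[ℚ] AlgebraicClosure ℚ) ZBar := by
  rw [continuousSMul_iff_stabilizer_isOpen]
  intro b
  have h := stabilizer_isOpen_of_isIntegral (K := ℚ) (L := AlgebraicClosure ℚ) (b : AlgebraicClosure ℚ)
  convert h using 1
  ext g
  simp only [SetLike.mem_coe, MulAction.mem_stabilizer_iff]
  constructor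
  · intro hg
    exact congrArg Subtype.val hg
  · intro hg
    exact Subtype.ext hg

attribute [local instance] zbar_continuousSMul

theorem zbar_under_eq (ℓ : ℕ) (hℓ : ℓ.Prime) (Q : Ideal ZBar) [hQ : Q.IsPrime]
    (hℓQ : (ℓ : ZBar) ∈ Q) : Q.under ℤ = Ideal.span {(ℓ : ℤ)} := by
  have hmax : (Ideal.span {(ℓ : ℤ)}).IsMaximal :=
    PrincipalIdealRing.isMaximal_of_irreducible
      (Nat.prime_iff_prime_int.mp hℓ).irreducible
  have hle : Ideal.span {(ℓ : ℤ)} ≤ Q.under ℤ := by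
    rw [Ideal.span_singleton_le_iff_mem, Ideal.mem_comap]
    simpa using hℓQ
  have hne : Q.under ℤ ≠ ⊤ := (Ideal.IsPrime.under ℤ Q).ne_top
  exact (hmax.eq_of_le hne hle).symm

theorem zbar_isMaximal (ℓ : ℕ) (hℓ : ℓ.Prime) (Q : Ideal ZBar) [hQ : Q.IsPrime]
    (hℓQ : (ℓ : ZBar) ∈ Q) : Q.IsMaximal := by
  have hmax : (Ideal.span {(ℓ : ℤ)}).IsMaximal :=
    PrincipalIdealRing.isMaximal_of_irreducible
      (Nat.prime_iff_prime_int.mp hℓ).irreducible
  apply Ideal.isMaximal_of_isIntegral_of_isMaximal_comap (R := ℤ)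
  have := zbar_under_eq ℓ hℓ Q hℓQ
  rw [Ideal.under_def] at this
  rw [this]
  exact hmax

/-- Existence of a Frobenius lift on the ring of algebraic integers, at a prime ideal
containing the prime `ℓ`, together with the fact that it stabilises the prime. -/
theorem exists_frob_integralClosure_stab (ℓ : ℕ) (hℓ : ℓ.Prime)
    (Q : Ideal (integralClosure ℤ (AlgebraicClosure ℚ))) [hQ : Q.IsPrime]
    (hℓQ : (ℓ : integralClosure ℤ (AlgebraicClosure ℚ)) ∈ Q) :
    ∃ σ : AlgebraicClosure ℚ ≃ₐ[ℚ] AlgebraicClosure ℚ, σ • Q = Q ∧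
      ∀ b : integralClosure ℤ (AlgebraicClosure ℚ), σ • b - b ^ ℓ ∈ Q := by
  have : Fact ℓ.Prime := ⟨hℓ⟩
  have hQmax : Q.IsMaximal := zbar_isMaximal ℓ hℓ Q hℓQ
  let _ : Field (ZBar ⧸ Q) := Ideal.Quotient.field Q
  -- characteristic ℓ
  have hchar : CharP (ZBar ⧸ Q) ℓ := by
    rw [CharP.charP_iff_prime_eq_zero hℓ]
    have : ((ℓ : ZBar) : ZBar ⧸ Q) = 0 := Ideal.Quotient.eq_zero_iff_mem.mpr hℓQ
    simpa using this
  -- perfectness of the residue field
  let _ : Algebra (ZMod ℓ) (ZBar ⧸ Q) := ZMod.algebra _ ℓ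
  have : Algebra.IsIntegral ℤ (ZBar ⧸ Q) := inferInstance
  have : Algebra.IsAlgebraic (ZMod ℓ) (ZBar ⧸ Q) :=
    ⟨fun x => (IsIntegral.tower_top (A := ZMod ℓ) (Algebra.IsIntegral.isIntegral (R := ℤ) x)).isAlgebraic⟩
  have : PerfectField (ZBar ⧸ Q) := Algebra.IsAlgebraic.perfectField (K := ZMod ℓ)
  have : ExpChar (ZBar ⧸ Q) ℓ := ExpChar.prime hℓ
  have : PerfectRing (ZBar ⧸ Q) ℓ := PerfectField.toPerfectRing ℓ
  -- the Frobenius automorphism of the residue field
  let φ : (ZBar ⧸ Q) ≃ₐ[ℤ ⧸ Q.under ℤ] (ZBar ⧸ Q) :=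
    AlgEquiv.ofRingEquiv (f := frobeniusEquiv (ZBar ⧸ Q) ℓ) (by
      intro x
      obtain ⟨n, rfl⟩ := Ideal.Quotient.mk_surjective x
      have h1 : algebraMap (ℤ ⧸ Q.under ℤ) (ZBar ⧸ Q) (Ideal.Quotient.mk _ n) =
          ((n : ℤ) : ZBar ⧸ Q) := by
        simp
      rw [h1, coe_frobeniusEquiv, map_intCast])
  obtain ⟨⟨σ, hσ⟩, hσφ⟩ := Ideal.Quotient.stabilizerHom_surjective_of_profinite
    (G := AlgebraicClosure ℚ ≃ₐ[ℚ] AlgebraicClosure ℚ) (Q.under ℤ) Q φ
  refine ⟨σ, hσ, fun b => ?_⟩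
  have h2 := DFunLike.congr_fun hσφ (Ideal.Quotient.mk Q b)
  rw [Ideal.Quotient.stabilizerHom_apply] at h2
  have h3 : φ (Ideal.Quotient.mk Q b) = Ideal.Quotient.mk Q (b ^ ℓ) := by
    rw [map_pow]
    rfl
  rw [h3] at h2
  exact Ideal.Quotient.eq.mp h2

/-- Existence of a Frobenius lift on the ring of algebraic integers, at a prime ideal
containing the prime `ℓ` (interface version). -/
theorem exists_frob_integralClosure (ℓ : ℕ) (hℓ : ℓ.Prime)
    (Q : Ideal (integralClosure ℤ (AlgebraicClosure ℚ))) [Q.IsPrime]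
    (hQ : (ℓ : integralClosure ℤ (AlgebraicClosure ℚ)) ∈ Q) :
    ∃ σ : AlgebraicClosure ℚ ≃ₐ[ℚ] AlgebraicClosure ℚ,
      ∀ b : integralClosure ℤ (AlgebraicClosure ℚ), σ • b - b ^ ℓ ∈ Q := by
  obtain ⟨σ, -, h⟩ := exists_frob_integralClosure_stab ℓ hℓ Q hQ
  exact ⟨σ, h⟩

end Fermat.Agent.Lib.FrobIntegers

end
end
-- ==== END Fermat.Agent.Lib.FrobIntegers

-- ==== BEGIN Fermat.Agent.Lib.H40_CuspCount
section

/-!
# Number of cusps of `Γ₀(N)`: orbits of `⟨T⟩` on `SL(2,ℤ) ⧸ Γ₀(N)`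

Main results (namespace `Fermat.Agent.Lib.H40CuspCount`):
* `card_orbits_T'` : `Nat.card (orbitRel.Quotient (zpowers T) (SL(2,ℤ) ⧸ Gamma0 N))
    = ∑ d ∈ N.divisors, Nat.totient (Nat.gcd d (N / d))`
* `card_orbits_T` : the same with right-hand side `ModularCurve.cuspCount N`.

Model: the coset `g Γ₀(N)` is determined by the first column `(a, c)` of `g` modulo `N` up to units;
`T` acts by `(a, c) ↦ (a + c, c)`. Complete invariant of the `⟨T⟩`-orbit:
`d = gcd c N` and `a * (c/d)⁻¹ mod gcd d (N/d)`.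
-/

set_option autoImplicit false

open scoped MatrixGroups
open CongruenceSubgroup ModularGroup

namespace Fermat.Agent.Lib.H40CuspCount

/-- Counting lemma: two surjections with the same fibres have targets of the same cardinality. -/
lemma card_eq_of_surj_iff {α β Q : Type*} (f : α → β) (q : α → Q)
    (hf : Function.Surjective f) (hq : Function.Surjective q)
    (h : ∀ a a', q a = q a' ↔ f a = f a') : Nat.card Q = Nat.card β := by
  refine Nat.card_congr (Equiv.ofBijective (fun x => f (Function.surjInv hq x)) ⟨?_, ?_⟩)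
  · intro x y hxy
    have := (h _ _).mpr hxy
    rwa [Function.surjInv_eq hq, Function.surjInv_eq hq] at this
  · intro b
    obtain ⟨a, rfl⟩ := hf b
    refine ⟨q a, ?_⟩
    exact (h _ _).mp (Function.surjInv_eq hq (q a))

/-- Solvability of a linear congruence. -/
lemma exists_dvd_sub_mul_iff' (k r m : ℤ) :
    (∃ n : ℤ, m ∣ r - n * k) ↔ (Int.gcd k m : ℤ) ∣ r := by
  constructor
  · rintro ⟨n, hn⟩
    have h1 : (Int.gcd k m : ℤ) ∣ m := Int.gcd_dvd_right ..
    have h2 : (Int.gcd k m : ℤ) ∣ k := Int.gcd_dvd_left ..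
    have := dvd_add (h1.trans hn) (h2.mul_left n)
    simpa using this
  · rintro ⟨t, ht⟩
    refine ⟨Int.gcdA k m * t, Int.gcdB k m * t, ?_⟩
    have hb := Int.gcd_eq_gcd_ab k m
    rw [ht, hb]; ring

/-- Step 1: the gcd of the lower-left entry with `N` is an invariant. -/
lemma gcd_eq_of_dvd {N : ℕ} {a c a' c' n : ℤ} (h : IsCoprime a c) (h' : IsCoprime a' c')
    (hn : (N : ℤ) ∣ a' * c - c' * (a + n * c)) : Int.gcd c N = Int.gcd c' N := by
  apply Nat.dvd_antisymm
  · -- d ∣ c'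
    have hdc : ((Int.gcd c N : ℕ) : ℤ) ∣ c := Int.gcd_dvd_left ..
    have hdN : ((Int.gcd c N : ℕ) : ℤ) ∣ N := Int.gcd_dvd_right ..
    have h1 : ((Int.gcd c N : ℕ) : ℤ) ∣ c' * a := by
      have h2 := hdN.trans hn
      have h3 : ((Int.gcd c N : ℕ) : ℤ) ∣ a' * c - c' * n * c := (Dvd.dvd.mul_left hdc _).sub (Dvd.dvd.mul_left hdc _)
      have h4 := h3.sub h2
      have e : a' * c - c' * n * c - (a' * c - c' * (a + n * c)) = c' * a := by ring
      rwa [e] at h4
    have hcop : IsCoprime ((Int.gcd c N : ℕ) : ℤ) a :=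
      (h.symm).of_isCoprime_of_dvd_left hdc
    exact Int.dvd_gcd (hcop.dvd_of_dvd_mul_right h1) hdN
  · have hdc : ((Int.gcd c' N : ℕ) : ℤ) ∣ c' := Int.gcd_dvd_left ..
    have hdN : ((Int.gcd c' N : ℕ) : ℤ) ∣ N := Int.gcd_dvd_right ..
    have h1 : ((Int.gcd c' N : ℕ) : ℤ) ∣ c * a' := by
      have h2 := hdN.trans hn
      have h3 : ((Int.gcd c' N : ℕ) : ℤ) ∣ c' * (a + n * c) := Dvd.dvd.mul_right hdc _
      have h4 := h2.add h3
      have e : a' * c - c' * (a + n * c) + c' * (a + n * c) = c * a' := by ring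
      rwa [e] at h4
    have hcop : IsCoprime ((Int.gcd c' N : ℕ) : ℤ) a' :=
      (h'.symm).of_isCoprime_of_dvd_left hdc
    exact Int.dvd_gcd (hcop.dvd_of_dvd_mul_right h1) hdN

/-- Step 2: with a common gcd `d`, the orbit condition is a congruence modulo `gcd d (N/d)`. -/
lemma exists_iff_dvd {N d : ℕ} (hd : d ≠ 0) (hdN : d ∣ N) {a a' c₁ c₁' : ℤ}
    (hc₁ : Int.gcd c₁ ((N / d : ℕ) : ℤ) = 1) (hc₁' : Int.gcd c₁' ((N / d : ℕ) : ℤ) = 1) :
    (∃ n : ℤ, (N : ℤ) ∣ a' * (d * c₁) - (d * c₁') * (a + n * (d * c₁))) ↔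
      ((Nat.gcd d (N / d) : ℕ) : ℤ) ∣ a' * c₁ - a * c₁' := by
  have hN : (N : ℤ) = (d : ℤ) * ((N / d : ℕ) : ℤ) := by
    rw [← Nat.cast_mul, Nat.mul_div_cancel' hdN]
  have hd' : (d : ℤ) ≠ 0 := by exact_mod_cast hd
  have key : ∀ n : ℤ, ((N : ℤ) ∣ a' * (d * c₁) - (d * c₁') * (a + n * (d * c₁))) ↔
      (((N / d : ℕ) : ℤ) ∣ (a' * c₁ - a * c₁') - n * (d * c₁ * c₁')) := by
    intro n
    have e : a' * (d * c₁) - (d * c₁') * (a + n * (d * c₁)) =
        (d : ℤ) * ((a' * c₁ - a * c₁') - n * (d * c₁ * c₁')) := by ring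
    rw [e, hN]
    exact mul_dvd_mul_iff_left hd'
  rw [exists_congr key, exists_dvd_sub_mul_iff']
  have hg : Int.gcd ((d : ℤ) * c₁ * c₁') ((N / d : ℕ) : ℤ) = Nat.gcd d (N / d) := by
    have h1 : Int.gcd (c₁ * c₁') ((N / d : ℕ) : ℤ) = 1 := by
      rw [← Int.isCoprime_iff_gcd_eq_one] at hc₁ hc₁' ⊢
      exact hc₁.mul_left hc₁'
    rw [mul_assoc, mul_comm, Int.gcd_mul_right_left_of_gcd_eq_one h1]
    rfl
  rw [hg]

/-- Step 3: the congruence as an equality of `ZMod` values. -/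
lemma dvd_iff_val_eq {g : ℕ} [NeZero g] {x x' y y' : ℤ}
    (hy : IsUnit (y : ZMod g)) (hy' : IsUnit (y' : ZMod g)) :
    ((g : ℤ) ∣ x' * y - x * y') ↔
      ((x : ZMod g) * (y : ZMod g)⁻¹).val = ((x' : ZMod g) * (y' : ZMod g)⁻¹).val := by
  have h1 : (y : ZMod g) * (y : ZMod g)⁻¹ = 1 := ZMod.mul_inv_of_unit _ hy
  have h1' : (y' : ZMod g) * (y' : ZMod g)⁻¹ = 1 := ZMod.mul_inv_of_unit _ hy'
  rw [(ZMod.val_injective g).eq_iff, ← ZMod.intCast_zmod_eq_zero_iff_dvd]
  push_cast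
  constructor
  · intro h
    linear_combination (-(x : ZMod g) * (y : ZMod g)⁻¹) * h1' - (y : ZMod g)⁻¹ * (y' : ZMod g)⁻¹ * h
      + (x' : ZMod g) * (y' : ZMod g)⁻¹ * h1
  · intro h
    linear_combination (-(x' : ZMod g) * (y : ZMod g)) * h1' - (y : ZMod g) * (y' : ZMod g) * h
      + (x : ZMod g) * (y' : ZMod g) * h1

/-- The cusp invariant of a column `(a, c)` modulo `N`: the pair `(d, a * (c/d)⁻¹ mod gcd d (N/d))`
with `d = gcd c N`. -/
noncomputable def cuspInv (N : ℕ) (a c : ℤ) : Σ _ : ℕ, ℕ :=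
  ⟨Int.gcd c N, ((a : ZMod (Nat.gcd (Int.gcd c N) (N / Int.gcd c N))) *
      ((c / (Int.gcd c N : ℤ) : ℤ) : ZMod (Nat.gcd (Int.gcd c N) (N / Int.gcd c N)))⁻¹).val⟩

lemma cuspInv_eq {N : ℕ} {a c : ℤ} {d : ℕ} (hd : Int.gcd c N = d) :
    cuspInv N a c = ⟨d, ((a : ZMod (Nat.gcd d (N / d))) *
      ((c / (d : ℤ) : ℤ) : ZMod (Nat.gcd d (N / d)))⁻¹).val⟩ := by
  subst hd; rfl


lemma gcd_facts {N : ℕ} (hN : N ≠ 0) (c : ℤ) {d : ℕ} (hd : Int.gcd c N = d) :
    d ≠ 0 ∧ d ∣ N ∧ c = d * (c / d) ∧ Int.gcd (c / d) ((N / d : ℕ) : ℤ) = 1 := by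
  subst hd
  have hN' : (N : ℤ) ≠ 0 := by exact_mod_cast hN
  have hpos : 0 < Int.gcd c N := Int.gcd_pos_of_ne_zero_right c hN'
  refine ⟨hpos.ne', ?_, ?_, ?_⟩
  · exact Int.natCast_dvd_natCast.mp (Int.gcd_dvd_right c N)
  · exact (Int.mul_ediv_cancel' (Int.gcd_dvd_left c N)).symm
  · have := Int.gcd_div_gcd_div_gcd hpos
    rwa [← Int.natCast_div] at this

lemma isUnit_of_gcd {N d : ℕ} {c₁ : ℤ} (h : Int.gcd c₁ ((N / d : ℕ) : ℤ) = 1) :
    IsUnit ((c₁ : ℤ) : ZMod (Nat.gcd d (N / d))) := by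
  rw [ZMod.coe_int_isUnit_iff_isCoprime]
  rw [← Int.isCoprime_iff_gcd_eq_one] at h
  have hdvd : ((Nat.gcd d (N / d) : ℕ) : ℤ) ∣ ((N / d : ℕ) : ℤ) :=
    Int.natCast_dvd_natCast.mpr (Nat.gcd_dvd_right _ _)
  exact (h.symm).of_isCoprime_of_dvd_left hdvd

/-- Lemma B: the orbit criterion is equality of cusp invariants. -/
lemma exists_iff_cuspInv_eq {N : ℕ} (hN : N ≠ 0) {a c a' c' : ℤ}
    (h : IsCoprime a c) (h' : IsCoprime a' c') :
    (∃ n : ℤ, (N : ℤ) ∣ a' * c - c' * (a + n * c)) ↔ cuspInv N a c = cuspInv N a' c' := by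
  obtain ⟨hd0, hdN, hc, hc₁⟩ := gcd_facts hN c rfl
  have : NeZero (Nat.gcd (Int.gcd c N) (N / Int.gcd c N)) :=
    ⟨Nat.gcd_ne_zero_left hd0⟩
  have main : ∀ hdd : Int.gcd c' N = Int.gcd c N,
      ((∃ n : ℤ, (N : ℤ) ∣ a' * c - c' * (a + n * c)) ↔
        ((a : ZMod (Nat.gcd (Int.gcd c N) (N / Int.gcd c N))) *
          ((c / (Int.gcd c N : ℤ) : ℤ) : ZMod (Nat.gcd (Int.gcd c N) (N / Int.gcd c N)))⁻¹).val =
        ((a' : ZMod (Nat.gcd (Int.gcd c N) (N / Int.gcd c N))) *
          ((c' / (Int.gcd c N : ℤ) : ℤ) : ZMod (Nat.gcd (Int.gcd c N) (N / Int.gcd c N)))⁻¹).val) := by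
    intro hdd
    obtain ⟨-, -, hc', hc₁'⟩ := gcd_facts hN c' hdd
    rw [← dvd_iff_val_eq (isUnit_of_gcd hc₁) (isUnit_of_gcd hc₁'),
      ← exists_iff_dvd hd0 hdN hc₁ hc₁', ← hc, ← hc']
  constructor
  · rintro ⟨n, hn⟩
    have hdd := (gcd_eq_of_dvd h h' hn).symm
    rw [cuspInv_eq rfl, cuspInv_eq hdd]
    congr 1
    exact (main hdd).mp ⟨n, hn⟩
  · intro heq
    have hdd : Int.gcd c' N = Int.gcd c N := (congrArg Sigma.fst heq).symm
    rw [cuspInv_eq rfl, cuspInv_eq hdd] at heq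
    have h2 := eq_of_heq (Sigma.mk.inj heq).2
    exact (main hdd).mpr h2


/-- The finite set of cusp invariants. -/
def cuspSet (N : ℕ) : Finset (Σ _ : ℕ, ℕ) :=
  N.divisors.sigma fun d =>
    (Finset.range (Nat.gcd d (N / d))).filter fun v => Nat.Coprime (Nat.gcd d (N / d)) v

lemma card_cuspSet (N : ℕ) :
    (cuspSet N).card = ∑ d ∈ N.divisors, Nat.totient (Nat.gcd d (N / d)) := by
  rw [cuspSet, Finset.card_sigma]
  refine Finset.sum_congr rfl fun d _ => ?_
  rw [Nat.totient_eq_card_coprime]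

lemma mem_cuspSet {N : ℕ} {s : Σ _ : ℕ, ℕ} :
    s ∈ cuspSet N ↔ (s.1 ∣ N ∧ N ≠ 0) ∧ s.2 < Nat.gcd s.1 (N / s.1) ∧
      Nat.Coprime (Nat.gcd s.1 (N / s.1)) s.2 := by
  rw [cuspSet, Finset.mem_sigma, Nat.mem_divisors, Finset.mem_filter, Finset.mem_range]

/-- Lemma C: the invariant of a coprime column lies in `cuspSet N`. -/
lemma cuspInv_mem {N : ℕ} (hN : N ≠ 0) {a c : ℤ} (h : IsCoprime a c) :
    cuspInv N a c ∈ cuspSet N := by
  obtain ⟨hd0, hdN, hc, hc₁⟩ := gcd_facts hN c rfl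
  have : NeZero (Nat.gcd (Int.gcd c N) (N / Int.gcd c N)) := ⟨Nat.gcd_ne_zero_left hd0⟩
  rw [mem_cuspSet]
  refine ⟨⟨hdN, hN⟩, ZMod.val_lt _, ?_⟩
  have hua : IsUnit ((a : ℤ) : ZMod (Nat.gcd (Int.gcd c N) (N / Int.gcd c N))) := by
    rw [ZMod.coe_int_isUnit_iff_isCoprime]
    have hdvd : ((Nat.gcd (Int.gcd c N) (N / Int.gcd c N) : ℕ) : ℤ) ∣ c :=
      (Int.natCast_dvd_natCast.mpr (Nat.gcd_dvd_left _ _)).trans (Int.gcd_dvd_left c N)
    exact (h.symm).of_isCoprime_of_dvd_left hdvd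
  have huc := isUnit_of_gcd (d := Int.gcd c N) hc₁
  have hu : IsUnit ((a : ZMod (Nat.gcd (Int.gcd c N) (N / Int.gcd c N))) *
      ((c / (Int.gcd c N : ℤ) : ℤ) : ZMod (Nat.gcd (Int.gcd c N) (N / Int.gcd c N)))⁻¹) := by
    refine hua.mul ?_
    exact IsUnit.of_mul_eq_one _ (by rw [mul_comm]; exact ZMod.mul_inv_of_unit _ huc)
  obtain ⟨u, hu'⟩ := hu
  show Nat.Coprime _ (ZMod.val _)
  rw [← hu']
  exact (ZMod.val_coe_unit_coprime u).symm

/-- Lemma D: every element of `cuspSet N` is the invariant of a coprime column. -/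
lemma exists_cuspInv_eq {N : ℕ} {s : Σ _ : ℕ, ℕ} (hs : s ∈ cuspSet N) :
    ∃ a c : ℤ, IsCoprime a c ∧ cuspInv N a c = s := by
  obtain ⟨d, v⟩ := s
  rw [mem_cuspSet] at hs
  obtain ⟨⟨hdN, hN⟩, hv, hcop⟩ := hs
  simp only at hdN hv hcop
  have hd0 : d ≠ 0 := by
    rintro rfl
    exact hN (Nat.eq_zero_of_zero_dvd hdN)
  have : NeZero d := ⟨hd0⟩
  have : NeZero (Nat.gcd d (N / d)) := ⟨Nat.gcd_ne_zero_left hd0⟩
  obtain ⟨u, hu⟩ := ZMod.unitsMap_surjective (Nat.gcd_dvd_left d (N / d))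
    (ZMod.unitOfCoprime v hcop.symm)
  refine ⟨((u : ZMod d).val : ℤ), (d : ℤ), ?_, ?_⟩
  · exact Nat.isCoprime_iff_coprime.mpr (ZMod.val_coe_unit_coprime u)
  · have hgcd : Int.gcd (d : ℤ) (N : ℤ) = d := by
      rw [Int.gcd_natCast_natCast]
      exact Nat.gcd_eq_left hdN
    rw [cuspInv_eq hgcd]
    congr 1
    have hd' : (d : ℤ) ≠ 0 := by exact_mod_cast hd0
    rw [Int.ediv_self hd']
    have h1 : ((((u : ZMod d).val : ℕ) : ℤ) : ZMod (Nat.gcd d (N / d))) = (v : ZMod (Nat.gcd d (N / d))) := by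
      have h2 := congrArg (fun x : (ZMod (Nat.gcd d (N / d)))ˣ => (x : ZMod (Nat.gcd d (N / d)))) hu
      simp only [ZMod.unitsMap_val, ZMod.coe_unitOfCoprime] at h2
      rw [← h2]
      push_cast
      rw [ZMod.natCast_val]
    rw [h1]
    rw [Int.cast_one, ZMod.inv_one, mul_one]
    exact ZMod.val_natCast_of_lt hv

/-- The first column of an element of `SL(2,ℤ)` is coprime. -/
lemma isCoprime_col (g : SL(2, ℤ)) : IsCoprime (g 0 0) (g 1 0) := by
  refine ⟨g 1 1, -(g 0 1), ?_⟩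
  have := g.det_coe
  rw [Matrix.det_fin_two] at this
  linarith

/-- Every coprime column is the first column of an element of `SL(2,ℤ)`. -/
lemma exists_SL2_col {a c : ℤ} (h : IsCoprime a c) : ∃ g : SL(2, ℤ), g 0 0 = a ∧ g 1 0 = c := by
  obtain ⟨u, v, huv⟩ := h
  refine ⟨⟨!![a, -v; c, u], ?_⟩, rfl, rfl⟩
  rw [Matrix.det_fin_two_of]; linarith

/-- The lower-left entry of `(T ^ n * g)⁻¹ * g'`. -/
lemma entry_eq (g g' : SL(2, ℤ)) (n : ℤ) :
    ((T ^ n * g)⁻¹ * g') 1 0 = -(g' 0 0 * g 1 0 - g' 1 0 * (g 0 0 + n * g 1 0)) := by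
  rw [Matrix.SpecialLinearGroup.coe_mul, Matrix.SpecialLinearGroup.coe_inv,
    Matrix.adjugate_fin_two, Matrix.SpecialLinearGroup.coe_mul, coe_T_zpow]
  simp [Matrix.mul_apply, Fin.sum_univ_two]
  ring

/-- The quotient map to the set of `⟨T⟩`-orbits on `SL(2,ℤ) ⧸ Γ₀(N)`. -/
def toOrbit (N : ℕ) (g : SL(2, ℤ)) :
    MulAction.orbitRel.Quotient (Subgroup.zpowers T) (SL(2, ℤ) ⧸ Gamma0 N) :=
  Quotient.mk'' (g : SL(2, ℤ) ⧸ Gamma0 N)

lemma toOrbit_surjective (N : ℕ) : Function.Surjective (toOrbit N) := by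
  intro x
  induction x using Quotient.inductionOn' with
  | h y =>
    induction y using QuotientGroup.induction_on with
    | H g => exact ⟨g, rfl⟩

/-- Lemma E: the orbit relation in terms of first columns. -/
lemma toOrbit_eq_iff (N : ℕ) (g g' : SL(2, ℤ)) :
    toOrbit N g = toOrbit N g' ↔
      ∃ n : ℤ, (N : ℤ) ∣ g' 0 0 * g 1 0 - g' 1 0 * (g 0 0 + n * g 1 0) := by
  rw [eq_comm, toOrbit, toOrbit, Quotient.eq'', MulAction.orbitRel_apply, MulAction.mem_orbit_iff]
  constructor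
  · rintro ⟨⟨t, ht⟩, h⟩
    obtain ⟨n, rfl⟩ := Subgroup.mem_zpowers_iff.mp ht
    refine ⟨n, ?_⟩
    have h2 : ((T ^ n * g : SL(2, ℤ)) : SL(2, ℤ) ⧸ Gamma0 N) = (g' : SL(2, ℤ) ⧸ Gamma0 N) := h
    rw [QuotientGroup.eq, Gamma0_mem, entry_eq, ZMod.intCast_zmod_eq_zero_iff_dvd, dvd_neg] at h2
    exact h2
  · rintro ⟨n, hn⟩
    refine ⟨⟨T ^ n, Subgroup.zpow_mem_zpowers T n⟩, ?_⟩
    show ((T ^ n * g : SL(2, ℤ)) : SL(2, ℤ) ⧸ Gamma0 N) = (g' : SL(2, ℤ) ⧸ Gamma0 N)
    rw [QuotientGroup.eq, Gamma0_mem, entry_eq, ZMod.intCast_zmod_eq_zero_iff_dvd, dvd_neg]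
    exact hn

/-- The invariant map on `SL(2,ℤ)`. -/
noncomputable def cuspMap (N : ℕ) [NeZero N] (g : SL(2, ℤ)) : cuspSet N :=
  ⟨cuspInv N (g 0 0) (g 1 0), cuspInv_mem (NeZero.ne N) (isCoprime_col g)⟩

lemma cuspMap_surjective (N : ℕ) [NeZero N] : Function.Surjective (cuspMap N) := by
  rintro ⟨s, hs⟩
  obtain ⟨a, c, hac, h⟩ := exists_cuspInv_eq hs
  obtain ⟨g, rfl, rfl⟩ := exists_SL2_col hac
  exact ⟨g, Subtype.ext h⟩

/-- **Number of cusps of `Γ₀(N)`**: the number of `⟨T⟩`-orbits on `SL(2,ℤ) ⧸ Γ₀(N)` is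
`∑ d ∣ N, φ(gcd d (N/d))`. -/
theorem card_orbits_T' (N : ℕ) [NeZero N] :
    Nat.card (MulAction.orbitRel.Quotient (Subgroup.zpowers T) (SL(2, ℤ) ⧸ Gamma0 N))
      = ∑ d ∈ N.divisors, Nat.totient (Nat.gcd d (N / d)) := by
  rw [card_eq_of_surj_iff (cuspMap N) (toOrbit N) (cuspMap_surjective N) (toOrbit_surjective N),
    Nat.card_eq_fintype_card, Fintype.card_coe, card_cuspSet]
  intro g g'
  rw [toOrbit_eq_iff, exists_iff_cuspInv_eq (NeZero.ne N) (isCoprime_col g) (isCoprime_col g'),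
    cuspMap, cuspMap, Subtype.mk.injEq]

/-- **Number of cusps of `Γ₀(N)`** in terms of the Prelude's `ModularCurve.cuspCount`. -/
theorem card_orbits_T (N : ℕ) [NeZero N] :
    Nat.card (MulAction.orbitRel.Quotient (Subgroup.zpowers T) (SL(2, ℤ) ⧸ Gamma0 N))
      = ModularCurve.cuspCount N :=
  card_orbits_T' N

end Fermat.Agent.Lib.H40CuspCount

end
-- ==== END Fermat.Agent.Lib.H40_CuspCount

-- ==== BEGIN Fermat.Agent.Lib.HeckeComm.H2_NormBC
section

/-!
# COMM (helper2): abstract norm lemmas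

* `normAlongHom φ x` : the norm of `x` along a ring homomorphism of fields.
* `normAlongHom_comp` : transitivity.
* `norm_map_of_basis` : a commutative square mapping a basis to a basis commutes with norms.
* `normAlongHom_baseChange` : base change of the norm in a square `K → K'`, `M → Z` with a common
  primitive element and equal degrees.
-/

set_option autoImplicit false
set_option linter.style.haveILetI false
set_option linter.unusedSectionVars false

noncomputable section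

namespace Fermat.Agent.Lib.HeckeComm

/-- The norm along a ring homomorphism. -/
def normAlongHom {A B : Type*} [Field A] [Field B] (φ : A →+* B) (x : B) : A :=
  letI := φ.toAlgebra
  Algebra.norm A x

theorem normAlongHom_comp {A B C : Type*} [Field A] [Field B] [Field C]
    (φ : A →+* B) (ψ : B →+* C) (z : C) :
    normAlongHom φ (normAlongHom ψ z) = normAlongHom (ψ.comp φ) z := by
  letI := φ.toAlgebra
  letI := ψ.toAlgebra
  letI := (ψ.comp φ).toAlgebra
  haveI : IsScalarTower A B C := IsScalarTower.of_algebraMap_eq fun _ => rfl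
  exact Algebra.norm_norm

/-- A commutative square which maps a basis to a basis commutes with the norms. -/
theorem norm_map_of_basis {K K' M Z : Type*} [Field K] [Field K'] [Field M] [Field Z]
    [Algebra K K'] [Algebra M Z] (σ : K →+* M) (τ : K' →+* Z)
    (hsq : ∀ a : K, τ (algebraMap K K' a) = algebraMap M Z (σ a))
    {ι : Type*} [Fintype ι] [DecidableEq ι] (b : Module.Basis ι K K') (b' : Module.Basis ι M Z)
    (hb : ∀ i, τ (b i) = b' i) (x : K') :
    σ (Algebra.norm K x) = Algebra.norm M (τ x) := by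
  rw [Algebra.norm_eq_matrix_det b, Algebra.norm_eq_matrix_det b', RingHom.map_det]
  congr 1
  ext i j
  rw [RingHom.mapMatrix_apply, Matrix.map_apply, Algebra.leftMulMatrix_eq_repr_mul,
    Algebra.leftMulMatrix_eq_repr_mul]
  -- `τ x * b' j = ∑ k, σ (repr k) • b' k`
  have h1 : x * b j = ∑ k, b.repr (x * b j) k • b k := (b.sum_repr (x * b j)).symm
  have h2 : τ x * b' j = ∑ k, σ (b.repr (x * b j) k) • b' k := by
    rw [← hb j, ← map_mul, h1, map_sum]
    refine Finset.sum_congr rfl fun k _ => ?_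
    rw [Algebra.smul_def, map_mul, hsq, hb, ← h1, Algebra.smul_def]
  rw [h2, map_sum, Finset.sum_apply']
  simp only [map_smul, Module.Basis.repr_self, Finsupp.smul_apply, Finsupp.single_apply, smul_eq_mul,
    mul_ite, mul_one, mul_zero]
  rw [Finset.sum_ite_eq' Finset.univ i]
  simp

/-- Base change of the norm: in a commutative square `τ ∘ α = ι ∘ σ` of fields in which `K' / K` is
generated by `x₀`, `Z / M` by `τ x₀`, and the two degrees agree, `σ ∘ Norm_α = Norm_ι ∘ τ`. -/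
theorem normAlongHom_baseChange {K K' M Z : Type*} [Field K] [Field K'] [Field M] [Field Z]
    (α : K →+* K') (ι : M →+* Z) (σ : K →+* M) (τ : K' →+* Z)
    (hsq : ∀ a : K, τ (α a) = ι (σ a))
    (hfin : letI := α.toAlgebra; Module.Finite K K')
    (hfin' : letI := ι.toAlgebra; Module.Finite M Z)
    (x₀ : K')
    (hgen : letI := α.toAlgebra; IntermediateField.adjoin K {x₀} = ⊤)
    (hgen' : letI := ι.toAlgebra; IntermediateField.adjoin M {τ x₀} = ⊤)
    (hdeg : (letI := α.toAlgebra; Module.finrank K K') = (letI := ι.toAlgebra; Module.finrank M Z))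
    (x : K') : σ (normAlongHom α x) = normAlongHom ι (τ x) := by
  letI := α.toAlgebra
  letI := ι.toAlgebra
  haveI : Module.Finite K K' := hfin
  haveI : Module.Finite M Z := hfin'
  have hint : IsIntegral K x₀ := Algebra.IsIntegral.isIntegral x₀
  have hint' : IsIntegral M (τ x₀) := Algebra.IsIntegral.isIntegral (τ x₀)
  have hn : (minpoly K x₀).natDegree = Module.finrank K K' := by
    rw [← IntermediateField.adjoin.finrank hint, hgen, IntermediateField.finrank_top']
  have hn' : (minpoly M (τ x₀)).natDegree = Module.finrank M Z := by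
    rw [← IntermediateField.adjoin.finrank hint', hgen', IntermediateField.finrank_top']
  have hnn : (minpoly K x₀).natDegree = (minpoly M (τ x₀)).natDegree := by
    rw [hn, hn', hdeg]
  haveI : Nonempty (Fin (minpoly K x₀).natDegree) := ⟨⟨0, minpoly.natDegree_pos hint⟩⟩
  haveI : Nonempty (Fin (minpoly M (τ x₀)).natDegree) := ⟨⟨0, minpoly.natDegree_pos hint'⟩⟩
  let b : Module.Basis (Fin (minpoly K x₀).natDegree) K K' :=
    basisOfLinearIndependentOfCardEqFinrank (linearIndependent_pow x₀)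
      (by rw [Fintype.card_fin, hn])
  let b₀ : Module.Basis (Fin (minpoly M (τ x₀)).natDegree) M Z :=
    basisOfLinearIndependentOfCardEqFinrank (linearIndependent_pow (τ x₀))
      (by rw [Fintype.card_fin, hn'])
  let b' : Module.Basis (Fin (minpoly K x₀).natDegree) M Z := b₀.reindex (finCongr hnn.symm)
  have hb : ∀ i, τ (b i) = b' i := by
    intro i
    simp only [b, b', b₀, coe_basisOfLinearIndependentOfCardEqFinrank, Module.Basis.reindex_apply,
      map_pow]
    rfl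
  exact norm_map_of_basis σ τ hsq b b' hb x

end Fermat.Agent.Lib.HeckeComm

end
end
-- ==== END Fermat.Agent.Lib.HeckeComm.H2_NormBC

-- ==== BEGIN Fermat.Agent.Lib.NthRoot
section

open Complex Set Filter Topology Metric

namespace Fermat.Agent.Lib.NthRoot

/-- A finite product of analytic functions on a preconnected set that vanishes identically has
an identically vanishing factor. -/
theorem exists_eq_zero_of_prod_eq_zero {ι : Type*} (s : Finset ι) (hs : s.Nonempty)
    {U : Set ℂ} (hU : IsPreconnected U) (g : ι → ℂ → ℂ)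
    (hg : ∀ i ∈ s, AnalyticOnNhd ℂ (g i) U)
    (hprod : ∀ z ∈ U, ∏ i ∈ s, g i z = 0) :
    ∃ i ∈ s, ∀ z ∈ U, g i z = 0 := by
  classical
  induction s using Finset.induction_on with
  | empty => exact absurd hs (by simp)
  | insert a t hat ih =>
    have h1 : ∀ z ∈ U, g a z * ∏ i ∈ t, g i z = 0 := by
      intro z hz
      have := hprod z hz
      rwa [Finset.prod_insert hat] at this
    have han : AnalyticOnNhd ℂ (g a) U := hg a (Finset.mem_insert_self a t)
    have hpn : AnalyticOnNhd ℂ (fun z => ∏ i ∈ t, g i z) U :=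
      Finset.analyticOnNhd_fun_prod t fun i hi => hg i (Finset.mem_insert_of_mem hi)
    rcases AnalyticOnNhd.eq_zero_or_eq_zero_of_mul_eq_zero han hpn h1 hU with h | h
    · exact ⟨a, Finset.mem_insert_self a t, h⟩
    · by_cases ht : t.Nonempty
      · obtain ⟨i, hi, hi0⟩ := ih ht (fun i hi => hg i (Finset.mem_insert_of_mem hi)) h
        exact ⟨i, Finset.mem_insert_of_mem hi, hi0⟩
      · rw [Finset.not_nonempty_iff_eq_empty] at ht
        subst ht
        by_cases hUe : U = ∅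
        · exact ⟨a, Finset.mem_insert_self a _, by simp [hUe]⟩
        · obtain ⟨z, hz⟩ := nonempty_iff_ne_empty.mpr hUe
          have := h z hz
          simp at this

/-- Two analytic `n`-th roots of the same function on a preconnected set differ by an `n`-th root
of unity. -/
theorem exists_root_of_unity_of_pow_eq {n : ℕ} (hn : n ≠ 0) {U : Set ℂ} (hU : IsPreconnected U)
    {G₁ G₂ : ℂ → ℂ} (h₁ : AnalyticOnNhd ℂ G₁ U) (h₂ : AnalyticOnNhd ℂ G₂ U)
    (hpow : ∀ z ∈ U, G₂ z ^ n = G₁ z ^ n) :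
    ∃ ζ : ℂ, ζ ^ n = 1 ∧ ∀ z ∈ U, G₂ z = ζ * G₁ z := by
  have hprim : IsPrimitiveRoot (Complex.exp (2 * Real.pi * Complex.I / n)) n :=
    Complex.isPrimitiveRoot_exp n hn
  have hfact : ∀ x y : ℂ, x ^ n - y ^ n = ∏ ζ ∈ Polynomial.nthRootsFinset n (1 : ℂ), (x - ζ * y) :=
    fun x y => hprim.pow_sub_pow_eq_prod_sub_mul x y (Nat.pos_of_ne_zero hn)
  have hne : (Polynomial.nthRootsFinset n (1 : ℂ)).Nonempty :=
    ⟨1, by simp [Polynomial.mem_nthRootsFinset (Nat.pos_of_ne_zero hn)]⟩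
  obtain ⟨ζ, hζ, h⟩ := exists_eq_zero_of_prod_eq_zero (Polynomial.nthRootsFinset n (1 : ℂ)) hne hU
    (fun ζ z => G₂ z - ζ * G₁ z)
    (fun ζ _ => h₂.sub (analyticOnNhd_const.mul h₁))
    (fun z hz => by rw [← hfact, hpow z hz, sub_self])
  refine ⟨ζ, ?_, fun z hz => sub_eq_zero.mp (h z hz)⟩
  exact (Polynomial.mem_nthRootsFinset (Nat.pos_of_ne_zero hn) 1).mp hζ

/-- Two analytic `n`-th roots of the same function on a preconnected set that agree and do not
vanish at one point agree everywhere. -/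
theorem eqOn_of_pow_eq_of_eq {n : ℕ} (hn : n ≠ 0) {U : Set ℂ} (hU : IsPreconnected U)
    {G₁ G₂ : ℂ → ℂ} (h₁ : AnalyticOnNhd ℂ G₁ U) (h₂ : AnalyticOnNhd ℂ G₂ U)
    (hpow : ∀ z ∈ U, G₂ z ^ n = G₁ z ^ n) {z₀ : ℂ} (hz₀ : z₀ ∈ U) (h0 : G₁ z₀ ≠ 0)
    (heq : G₂ z₀ = G₁ z₀) : ∀ z ∈ U, G₂ z = G₁ z := by
  obtain ⟨ζ, -, h⟩ := exists_root_of_unity_of_pow_eq hn hU h₁ h₂ hpow
  have hζ : ζ = 1 := by
    have := h z₀ hz₀
    rw [heq] at this
    have h2 : (ζ - 1) * G₁ z₀ = 0 := by linear_combination -this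
    rcases mul_eq_zero.mp h2 with h3 | h3
    · exact sub_eq_zero.mp h3
    · exact absurd h3 h0
  intro z hz
  rw [h z hz, hζ, one_mul]

/-- A root can be normalised at a point where the function does not vanish. -/
theorem exists_normalised_root {n : ℕ} (hn : n ≠ 0) {U : Set ℂ} {f : ℂ → ℂ}
    {z₀ w₀ : ℂ} (hz₀ : z₀ ∈ U) (hfz₀ : f z₀ ≠ 0) (hw₀ : w₀ ^ n = f z₀)
    (h : ∃ F : ℂ → ℂ, AnalyticOnNhd ℂ F U ∧ ∀ z ∈ U, F z ^ n = f z) :
    ∃ F : ℂ → ℂ, AnalyticOnNhd ℂ F U ∧ (∀ z ∈ U, F z ^ n = f z) ∧ F z₀ = w₀ := by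
  obtain ⟨F, hF, hFp⟩ := h
  have hF0 : F z₀ ≠ 0 := by
    intro h0
    have := hFp z₀ hz₀
    rw [h0, zero_pow hn] at this
    exact hfz₀ this.symm
  refine ⟨fun z => (w₀ / F z₀) * F z, analyticOnNhd_const.mul hF, fun z hz => ?_, ?_⟩
  · rw [mul_pow, div_pow, hFp z hz, hw₀, hFp z₀ hz₀, div_self hfz₀, one_mul]
  · field_simp

/-- Gluing of `n`-th roots along an increasing exhaustion by preconnected open sets. -/
theorem exists_root_of_exhaustion {n : ℕ} (hn : n ≠ 0) {f : ℂ → ℂ} (B : ℕ → Set ℂ)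
    (hBo : ∀ k, IsOpen (B k)) (hBc : ∀ k, IsPreconnected (B k)) (hBm : Monotone B)
    {z₀ : ℂ} (hz₀ : z₀ ∈ B 0) (hfz₀ : f z₀ ≠ 0)
    (hroot : ∀ k, ∃ F : ℂ → ℂ, AnalyticOnNhd ℂ F (B k) ∧ ∀ z ∈ B k, F z ^ n = f z) :
    ∃ F : ℂ → ℂ, AnalyticOnNhd ℂ F (⋃ k, B k) ∧ ∀ z ∈ ⋃ k, B k, F z ^ n = f z := by
  classical
  obtain ⟨w₀, hw₀⟩ : ∃ w₀ : ℂ, w₀ ^ n = f z₀ := IsAlgClosed.exists_pow_nat_eq (f z₀) (Nat.pos_of_ne_zero hn)
  have hw₀0 : w₀ ≠ 0 := by
    rintro rfl
    rw [zero_pow hn] at hw₀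
    exact hfz₀ hw₀.symm
  have hz₀k : ∀ k, z₀ ∈ B k := fun k => hBm (Nat.zero_le k) hz₀
  choose H hHan hHpow hHz₀ using fun k =>
    exists_normalised_root hn (hz₀k k) hfz₀ hw₀ (hroot k)
  -- compatibility
  have hcompat : ∀ j k, j ≤ k → ∀ z ∈ B j, H k z = H j z := by
    intro j k hjk
    refine eqOn_of_pow_eq_of_eq hn (hBc j) (hHan j) ((hHan k).mono (hBm hjk)) ?_ (hz₀k j) ?_ ?_
    · intro z hz
      rw [hHpow j z hz, hHpow k z (hBm hjk hz)]
    · rw [hHz₀ j]; exact hw₀0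
    · rw [hHz₀ j, hHz₀ k]
  let F : ℂ → ℂ := fun z => if h : ∃ k, z ∈ B k then H (Nat.find h) z else 0
  have hFeq : ∀ k, ∀ z ∈ B k, F z = H k z := by
    intro k z hz
    have h : ∃ k, z ∈ B k := ⟨k, hz⟩
    have hle : Nat.find h ≤ k := Nat.find_min' h hz
    have hmem : z ∈ B (Nat.find h) := Nat.find_spec h
    simp only [F, dif_pos h]
    exact (hcompat _ _ hle z hmem).symm
  refine ⟨F, ?_, ?_⟩
  · intro z hz
    obtain ⟨k, hk⟩ := mem_iUnion.mp hz
    have hev : F =ᶠ[𝓝 z] H k := by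
      filter_upwards [(hBo k).mem_nhds hk] with w hw using hFeq k w hw
    exact (hHan k z hk).congr hev.symm
  · intro z hz
    obtain ⟨k, hk⟩ := mem_iUnion.mp hz
    rw [hFeq k z hk, hHpow k z hk]

/-- A non-vanishing analytic function on a disc is a constant times an exponential. -/
theorem exists_eq_mul_exp_on_ball {g : ℂ → ℂ} {c : ℂ} {r : ℝ}
    (hg : AnalyticOnNhd ℂ g (ball c r)) (hg0 : ∀ z ∈ ball c r, g z ≠ 0) :
    ∃ (C : ℂ) (φ : ℂ → ℂ), C ≠ 0 ∧ AnalyticOnNhd ℂ φ (ball c r) ∧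
      ∀ z ∈ ball c r, g z = C * Complex.exp (φ z) := by
  by_cases hr : 0 < r
  swap
  · refine ⟨1, 0, one_ne_zero, analyticOnNhd_const, fun z hz => ?_⟩
    rw [ball_eq_empty.mpr (not_lt.mp hr)] at hz
    exact absurd hz (by simp)
  have hc : c ∈ ball c r := mem_ball_self hr
  have hgd : DifferentiableOn ℂ g (ball c r) := hg.differentiableOn
  have hg'd : DifferentiableOn ℂ (deriv g) (ball c r) := hg.deriv.differentiableOn
  have hq : DifferentiableOn ℂ (fun z => deriv g z / g z) (ball c r) :=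
    hg'd.div hgd hg0
  obtain ⟨φ, hφ⟩ := hq.isExactOn_ball
  have hφd : DifferentiableOn ℂ φ (ball c r) :=
    fun z hz => (hφ z hz).differentiableAt.differentiableWithinAt
  have hφan : AnalyticOnNhd ℂ φ (ball c r) := hφd.analyticOnNhd isOpen_ball
  have hderiv : ∀ z ∈ ball c r, HasDerivAt (fun z => g z * Complex.exp (-φ z)) 0 z := by
    intro z hz
    have h1 : HasDerivAt g (deriv g z) z := (hg z hz).differentiableAt.hasDerivAt
    have h2 : HasDerivAt (fun z => Complex.exp (-φ z))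
        (Complex.exp (-φ z) * (-(deriv g z / g z))) z := (hφ z hz).neg.cexp
    have h3 : HasDerivAt (fun z => g z * Complex.exp (-φ z))
        (deriv g z * Complex.exp (-φ z) + g z * (Complex.exp (-φ z) * (-(deriv g z / g z)))) z :=
      h1.mul h2
    have h4 : deriv g z * Complex.exp (-φ z) +
        g z * (Complex.exp (-φ z) * (-(deriv g z / g z))) = 0 := by
      have := hg0 z hz
      field_simp
      ring
    rwa [h4] at h3
  have hconst : ∀ z ∈ ball c r, g z * Complex.exp (-φ z) = g c * Complex.exp (-φ c) := by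
    intro z hz
    refine isOpen_ball.is_const_of_deriv_eq_zero (convex_ball c r).isPreconnected
      (f := fun z => g z * Complex.exp (-φ z)) ?_ ?_ hz hc
    · exact fun w hw => (hderiv w hw).differentiableAt.differentiableWithinAt
    · intro w hw
      exact (hderiv w hw).deriv
  refine ⟨g c * Complex.exp (-φ c), φ, mul_ne_zero (hg0 c hc) (Complex.exp_ne_zero _), hφan,
    fun z hz => ?_⟩
  rw [← hconst z hz, mul_assoc, ← Complex.exp_add, neg_add_cancel, Complex.exp_zero, mul_one]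

/-- A non-vanishing analytic function on a disc has analytic `n`-th roots. -/
theorem exists_root_on_ball_of_ne_zero {n : ℕ} (hn : n ≠ 0) {g : ℂ → ℂ} {c : ℂ} {r : ℝ}
    (hg : AnalyticOnNhd ℂ g (ball c r)) (hg0 : ∀ z ∈ ball c r, g z ≠ 0) :
    ∃ G : ℂ → ℂ, AnalyticOnNhd ℂ G (ball c r) ∧ ∀ z ∈ ball c r, G z ^ n = g z := by
  obtain ⟨C, φ, hC, hφ, h⟩ := exists_eq_mul_exp_on_ball hg hg0
  obtain ⟨C₀, hC₀⟩ : ∃ C₀ : ℂ, C₀ ^ n = C :=
    IsAlgClosed.exists_pow_nat_eq C (Nat.pos_of_ne_zero hn)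
  refine ⟨fun z => C₀ * Complex.exp (φ z / n), ?_, fun z hz => ?_⟩
  · exact analyticOnNhd_const.mul ((hφ.div analyticOnNhd_const
      (fun _ _ => Nat.cast_ne_zero.mpr hn)).cexp)
  · have hnC : (n : ℂ) ≠ 0 := Nat.cast_ne_zero.mpr hn
    rw [mul_pow, hC₀, ← Complex.exp_nat_mul, mul_div_cancel₀ _ hnC, h z hz]

/-- The divisor of an analytic function in terms of the analytic order. -/
theorem divisor_eq_analyticOrderNatAt {f : ℂ → ℂ} {K : Set ℂ} (hf : AnalyticOnNhd ℂ f K)
    {u : ℂ} (hu : u ∈ K) (hne : analyticOrderAt f u ≠ ⊤) :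
    MeromorphicOn.divisor f K u = (analyticOrderNatAt f u : ℤ) := by
  rw [MeromorphicOn.divisor_apply hf.meromorphicOn hu, (hf u hu).meromorphicOrderAt_eq,
    ← Nat.cast_analyticOrderNatAt hne]
  simp

/-- The `n`-th power of a factorized rational function. -/
theorem finprod_zpow_pow {e : ℂ → ℤ} (he : e.support.Finite) (n : ℕ) (z : ℂ) :
    (∏ᶠ u, (z - u) ^ e u) ^ n = ∏ᶠ u, (z - u) ^ (e u * n) := by
  have hsupp : (fun u => (z - u) ^ e u).mulSupport ⊆ e.support := by
    intro u hu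
    simp only [Function.mem_mulSupport, ne_eq] at hu
    simp only [Function.mem_support, ne_eq]
    intro h0
    apply hu
    rw [h0, zpow_zero]
  rw [finprod_pow (he.subset hsupp)]
  refine finprod_congr fun u => ?_
  rw [zpow_mul, zpow_natCast]

/-- **Roots on a disc.** If `f` is analytic near a closed disc, not locally zero, and all its
orders of vanishing on the closed disc are divisible by `n`, then `f` has an analytic `n`-th root
on the open disc. -/
theorem exists_root_on_ball {f : ℂ → ℂ} {n : ℕ} (hn : n ≠ 0) {c : ℂ} {r : ℝ}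
    (hf : AnalyticOnNhd ℂ f (closedBall c r))
    (hne : ∀ u ∈ closedBall c r, analyticOrderAt f u ≠ ⊤)
    (hdiv : ∀ u ∈ closedBall c r, n ∣ analyticOrderNatAt f u) :
    ∃ F : ℂ → ℂ, AnalyticOnNhd ℂ F (ball c r) ∧ ∀ z ∈ ball c r, F z ^ n = f z := by
  classical
  by_cases hr : 0 < r
  swap
  · refine ⟨0, analyticOnNhd_const, fun z hz => ?_⟩
    rw [ball_eq_empty.mpr (not_lt.mp hr)] at hz
    exact absurd hz (by simp)
  have hmero : MeromorphicOn f (closedBall c r) := hf.meromorphicOn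
  have hord : ∀ u : closedBall c r, meromorphicOrderAt f u ≠ ⊤ := by
    rintro ⟨u, hu⟩
    rw [(hf u hu).meromorphicOrderAt_eq, ← Nat.cast_analyticOrderNatAt (hne u hu)]
    simp
  have hfin : (MeromorphicOn.divisor f (closedBall c r)).support.Finite :=
    (MeromorphicOn.divisor f (closedBall c r)).finiteSupport (isCompact_closedBall c r)
  obtain ⟨g, hg, hg0, hfg⟩ := hmero.extract_zeros_poles hord hfin
  -- exponents
  have hd : ∀ u, ∃ m : ℕ, MeromorphicOn.divisor f (closedBall c r) u = ((m * n : ℕ) : ℤ) := by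
    intro u
    by_cases hu : u ∈ closedBall c r
    · obtain ⟨m, hm⟩ := hdiv u hu
      refine ⟨m, ?_⟩
      rw [divisor_eq_analyticOrderNatAt hf hu (hne u hu), hm, mul_comm]
    · exact ⟨0, by simp [hu]⟩
  choose m hm using hd
  let e : ℂ → ℤ := fun u => (m u : ℤ)
  have hde : ∀ u, MeromorphicOn.divisor f (closedBall c r) u = e u * n := by
    intro u
    rw [hm u]
    push_cast
    rfl
  have hesupp : e.support ⊆ (MeromorphicOn.divisor f (closedBall c r)).support := by
    intro u hu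
    simp only [Function.mem_support, ne_eq] at hu ⊢
    rw [hde u]
    exact mul_ne_zero hu (by exact_mod_cast hn)
  have hefin : e.support.Finite := hfin.subset hesupp
  -- the root of the unit part
  obtain ⟨G, hG, hGp⟩ := exists_root_on_ball_of_ne_zero hn
    (hg.mono ball_subset_closedBall) (fun z hz => hg0 ⟨z, ball_subset_closedBall hz⟩)
  have hPan : ∀ z, AnalyticAt ℂ (fun z => ∏ᶠ u, (z - u) ^ e u) z := by
    intro z
    have := Function.FactorizedRational.analyticAt (d := e) (x := z) (by simp [e])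
    rwa [Function.FactorizedRational.finprod_eq_fun hefin] at this
  refine ⟨fun z => (∏ᶠ u, (z - u) ^ e u) * G z, fun z hz => (hPan z).mul (hG z hz), ?_⟩
  have hFan : AnalyticOnNhd ℂ (fun z => ((∏ᶠ u, (z - u) ^ e u) * G z) ^ n) (ball c r) :=
    fun z hz => ((hPan z).mul (hG z hz)).pow n
  -- the identity on a punctured neighbourhood of the centre
  have hc : c ∈ ball c r := mem_ball_self hr
  have hfreq : ∃ᶠ z in 𝓝[≠] c, ((∏ᶠ u, (z - u) ^ e u) * G z) ^ n = f z := by
    apply Eventually.frequently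
    have h1 : ∀ᶠ z in 𝓝[≠] c, z ∈ ball c r :=
      nhdsWithin_le_nhds (isOpen_ball.mem_nhds hc)
    have h2 : ∀ᶠ z in 𝓝[≠] c, z ∈ {x | f x = ((∏ᶠ u, (· - u) ^
        MeromorphicOn.divisor f (closedBall c r) u) • g) x} ∪ (closedBall c r)ᶜ :=
      (mem_codiscreteWithin_iff_forall_mem_nhdsNE.mp hfg) c (ball_subset_closedBall hc)
    filter_upwards [h1, h2] with z hz1 hz2
    rcases hz2 with hz2 | hz2
    · have hz2' : f z = ((∏ᶠ u, (· - u) ^ MeromorphicOn.divisor f (closedBall c r) u) • g) z :=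
        hz2
      rw [hz2', mul_pow, hGp z hz1, finprod_zpow_pow hefin,
        Function.FactorizedRational.finprod_eq_fun hfin]
      simp only [Pi.smul_apply', smul_eq_mul]
      congr 1
      exact finprod_congr fun u => by rw [hde u]
    · exact absurd (ball_subset_closedBall hz1) hz2
  exact hFan.eqOn_of_preconnected_of_frequently_eq (hf.mono ball_subset_closedBall)
    (convex_ball c r).isPreconnected hc hfreq

/-- Centre of the `k`-th exhausting disc of the upper half plane. -/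
noncomputable def exCentre (k : ℕ) : ℂ := (((k : ℝ) + 1 : ℝ) : ℂ) * Complex.I

/-- Radius of the `k`-th exhausting disc of the upper half plane. -/
noncomputable def exRadius (k : ℕ) : ℝ := ((k : ℝ) + 1) - 1 / ((k : ℝ) + 1)

theorem exCentre_im (k : ℕ) : (exCentre k).im = (k : ℝ) + 1 := by
  simp [exCentre]

theorem exCentre_re (k : ℕ) : (exCentre k).re = 0 := by
  simp [exCentre]

theorem closedBall_ex_subset (k : ℕ) :
    closedBall (exCentre k) (exRadius k) ⊆ {z : ℂ | 0 < z.im} := by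
  intro z hz
  rw [mem_closedBall, Complex.dist_eq] at hz
  have h1 : |(z - exCentre k).im| ≤ ‖z - exCentre k‖ := Complex.abs_im_le_norm _
  rw [Complex.sub_im, exCentre_im] at h1
  have h2 := (abs_le.mp (h1.trans hz)).1
  have hk : (0 : ℝ) < (k : ℝ) + 1 := by positivity
  have h3 : 0 < 1 / ((k : ℝ) + 1) := by positivity
  show 0 < z.im
  unfold exRadius at h2
  linarith

theorem ball_ex_mono : Monotone fun k => ball (exCentre k) (exRadius k) := by
  intro j k hjk
  apply ball_subset_ball'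
  have hjk' : (j : ℝ) ≤ k := by exact_mod_cast hjk
  have hj : (0 : ℝ) < (j : ℝ) + 1 := by positivity
  have hdist : dist (exCentre j) (exCentre k) = (k : ℝ) - j := by
    rw [Complex.dist_eq, exCentre, exCentre, ← sub_mul, norm_mul, Complex.norm_I, mul_one,
      ← Complex.ofReal_sub, Complex.norm_real, Real.norm_eq_abs]
    rw [abs_of_nonpos (by linarith)]
    ring
  rw [hdist]
  unfold exRadius
  have h1 : 1 / ((k : ℝ) + 1) ≤ 1 / ((j : ℝ) + 1) :=
    one_div_le_one_div_of_le hj (by linarith)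
  linarith

theorem exists_mem_ball_ex {z : ℂ} (hz : 0 < z.im) :
    ∃ k : ℕ, z ∈ ball (exCentre k) (exRadius k) := by
  obtain ⟨k, hk⟩ := exists_nat_ge ((z.re ^ 2 + z.im ^ 2 + 2) / (2 * z.im) + 1)
  refine ⟨k, ?_⟩
  have hR : (1 : ℝ) ≤ (k : ℝ) + 1 := by
    have : (0 : ℝ) ≤ k := Nat.cast_nonneg k
    linarith
  have hR0 : (0 : ℝ) < (k : ℝ) + 1 := by linarith
  have hk1 : (1 : ℝ) < k := by
    have : 0 < (z.re ^ 2 + z.im ^ 2 + 2) / (2 * z.im) := by positivity
    linarith
  have hrad : 0 < exRadius k := by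
    unfold exRadius
    have : 1 / ((k : ℝ) + 1) ≤ 1 := by
      rw [div_le_one hR0]; exact hR
    linarith
  have hkey : z.re ^ 2 + z.im ^ 2 + 2 ≤ 2 * z.im * ((k : ℝ) + 1) := by
    have h1 : (z.re ^ 2 + z.im ^ 2 + 2) / (2 * z.im) ≤ (k : ℝ) + 1 := by linarith
    rw [div_le_iff₀ (by positivity)] at h1
    linarith
  rw [mem_ball, Complex.dist_eq]
  apply lt_of_pow_lt_pow_left₀ 2 hrad.le
  rw [Complex.sq_norm, Complex.normSq_apply, Complex.sub_re, Complex.sub_im, exCentre_re,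
    exCentre_im]
  unfold exRadius
  have hinv : ((k : ℝ) + 1) * (1 / ((k : ℝ) + 1)) = 1 := by field_simp
  have hpos : 0 < (1 / ((k : ℝ) + 1)) ^ 2 := by positivity
  nlinarith

theorem iUnion_ball_ex_shift (k₀ : ℕ) :
    ⋃ k, ball (exCentre (k + k₀)) (exRadius (k + k₀)) = {z : ℂ | 0 < z.im} := by
  ext z
  constructor
  · intro hz
    obtain ⟨k, hk⟩ := mem_iUnion.mp hz
    exact closedBall_ex_subset _ (ball_subset_closedBall hk)
  · intro hz
    obtain ⟨k, hk⟩ := exists_mem_ball_ex hz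
    exact mem_iUnion.mpr ⟨k, ball_ex_mono (Nat.le_add_right k k₀) hk⟩

/-- **Holomorphic `n`-th roots on the upper half plane.** If `f` is analytic on the upper half
plane, not identically zero, and all its orders of vanishing are divisible by `n`, then `f` has
an analytic `n`-th root on the upper half plane. -/
theorem exists_nthRoot_upperHalfPlane {f : ℂ → ℂ} {n : ℕ} (hn : n ≠ 0)
    (hf : AnalyticOnNhd ℂ f {z : ℂ | 0 < z.im})
    (hne : ∃ z : ℂ, 0 < z.im ∧ f z ≠ 0)
    (hdiv : ∀ z : ℂ, 0 < z.im → n ∣ analyticOrderNatAt f z) :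
    ∃ F : ℂ → ℂ, AnalyticOnNhd ℂ F {z : ℂ | 0 < z.im} ∧ ∀ z : ℂ, 0 < z.im → F z ^ n = f z := by
  obtain ⟨z₀, hz₀, hfz₀⟩ := hne
  obtain ⟨k₀, hk₀⟩ := exists_mem_ball_ex hz₀
  have hpre : IsPreconnected {z : ℂ | 0 < z.im} := (convex_halfSpace_im_gt 0).isPreconnected
  have hord₀ : analyticOrderAt f z₀ ≠ ⊤ := by
    rw [(hf z₀ hz₀).analyticOrderAt_eq_zero.mpr hfz₀]
    exact ENat.zero_ne_top
  have hord : ∀ z : ℂ, 0 < z.im → analyticOrderAt f z ≠ ⊤ := fun z hz =>
    hf.analyticOrderAt_ne_top_of_isPreconnected hpre hz₀ hz hord₀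
  have := exists_root_of_exhaustion hn (f := f)
    (fun k => ball (exCentre (k + k₀)) (exRadius (k + k₀)))
    (fun k => isOpen_ball) (fun k => (convex_ball _ _).isPreconnected)
    (fun j k hjk => ball_ex_mono (Nat.add_le_add_right hjk k₀))
    (z₀ := z₀) (by simpa using hk₀) hfz₀
    (fun k => exists_root_on_ball hn (hf.mono (closedBall_ex_subset _))
      (fun u hu => hord u (closedBall_ex_subset _ hu))
      (fun u hu => hdiv u (closedBall_ex_subset _ hu)))
  rw [iUnion_ball_ex_shift k₀] at this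
  exact this

/-! ## Functions on `ℍ`, characters of roots -/

section UHP

open UpperHalfPlane
open scoped MatrixGroups ModularForm Manifold

/-- Holomorphic functions on `ℍ` are analytic on the upper half plane set after composing
with `ofComplex`. -/
theorem analyticOnNhd_comp_ofComplex {f : ℍ → ℂ} (hf : MDifferentiable 𝓘(ℂ) 𝓘(ℂ) f) :
    AnalyticOnNhd ℂ (f ∘ UpperHalfPlane.ofComplex) {z : ℂ | 0 < z.im} :=
  (UpperHalfPlane.mdifferentiable_iff.mp hf).analyticOnNhd isOpen_upperHalfPlaneSet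

/-- A function on `ℍ` that is the restriction of a function analytic on the upper half plane
set is holomorphic. -/
theorem mdifferentiable_comp_coe {G : ℂ → ℂ} (hG : AnalyticOnNhd ℂ G {z : ℂ | 0 < z.im}) :
    MDifferentiable 𝓘(ℂ) 𝓘(ℂ) (fun τ : ℍ => G (τ : ℂ)) := by
  rw [UpperHalfPlane.mdifferentiable_iff]
  refine hG.differentiableOn.congr fun z hz => ?_
  simp only [Function.comp_apply]
  rw [UpperHalfPlane.ofComplex_apply_of_im_pos hz]

/-- **Holomorphic `n`-th roots on `ℍ`.** -/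
theorem exists_nthRoot_of_mdifferentiable {f : ℍ → ℂ} {n : ℕ} (hn : n ≠ 0)
    (hf : MDifferentiable 𝓘(ℂ) 𝓘(ℂ) f) (hne : ∃ τ : ℍ, f τ ≠ 0)
    (hdiv : ∀ τ : ℍ, n ∣ analyticOrderNatAt (f ∘ UpperHalfPlane.ofComplex) (τ : ℂ)) :
    ∃ F : ℍ → ℂ, MDifferentiable 𝓘(ℂ) 𝓘(ℂ) F ∧ ∀ τ : ℍ, F τ ^ n = f τ := by
  obtain ⟨τ₀, hτ₀⟩ := hne
  obtain ⟨G, hG, hGp⟩ := exists_nthRoot_upperHalfPlane hn (analyticOnNhd_comp_ofComplex hf)
    ⟨(τ₀ : ℂ), τ₀.im_pos, by simpa [UpperHalfPlane.ofComplex_apply] using hτ₀⟩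
    (fun z hz => hdiv ⟨z, hz⟩)
  refine ⟨fun τ => G (τ : ℂ), mdifferentiable_comp_coe hG, fun τ => ?_⟩
  have := hGp (τ : ℂ) τ.im_pos
  simpa [UpperHalfPlane.ofComplex_apply] using this

/-- Two holomorphic `n`-th roots of the same function on `ℍ` differ by an `n`-th root of unity. -/
theorem exists_root_of_unity_of_pow_eq_uhp {n : ℕ} (hn : n ≠ 0) {G₁ G₂ : ℍ → ℂ}
    (h₁ : MDifferentiable 𝓘(ℂ) 𝓘(ℂ) G₁) (h₂ : MDifferentiable 𝓘(ℂ) 𝓘(ℂ) G₂)
    (hpow : ∀ τ : ℍ, G₂ τ ^ n = G₁ τ ^ n) :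
    ∃ ζ : ℂ, ζ ^ n = 1 ∧ ∀ τ : ℍ, G₂ τ = ζ * G₁ τ := by
  obtain ⟨ζ, hζ, h⟩ := exists_root_of_unity_of_pow_eq hn
    (convex_halfSpace_im_gt 0).isPreconnected
    (analyticOnNhd_comp_ofComplex h₁) (analyticOnNhd_comp_ofComplex h₂)
    (fun z hz => by simpa using hpow (UpperHalfPlane.ofComplex z))
  refine ⟨ζ, hζ, fun τ => ?_⟩
  simpa [UpperHalfPlane.ofComplex_apply] using h (τ : ℂ) τ.im_pos

theorem pow_slash_SL' (f : ℍ → ℂ) (k : ℤ) (n : ℕ) (A : SL(2, ℤ)) :
    (f ^ n) ∣[k * n] A = (f ∣[k] A) ^ n := by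
  funext z
  simp only [ModularForm.SL_slash_apply, Pi.pow_apply]
  rw [mul_pow, ← zpow_natCast (denom _ _ ^ (-k)) n, ← zpow_mul]
  congr 2
  ring

theorem const_mul_slash_SL (c : ℂ) (f : ℍ → ℂ) (k : ℤ) (A : SL(2, ℤ)) :
    (fun z => c * f z) ∣[k] A = fun z => c * (f ∣[k] A) z := by
  funext z
  simp only [ModularForm.SL_slash_apply]
  ring

/-- **The character of a root.** If `F` is holomorphic on `ℍ`, not identically zero, and `F ^ n`
is invariant of weight `k * n` under the subgroup `Γ` of `SL(2, ℤ)`, then `F` transforms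
under `Γ` in weight `k` by a character with values in the `n`-th roots of unity. -/
theorem exists_character_of_root (Γ : Subgroup SL(2, ℤ)) {k : ℤ} {n : ℕ} (hn : n ≠ 0)
    {F : ℍ → ℂ} (hF : MDifferentiable 𝓘(ℂ) 𝓘(ℂ) F) (hF0 : ∃ τ : ℍ, F τ ≠ 0)
    (hinv : ∀ γ ∈ Γ, (F ^ n) ∣[k * n] γ = F ^ n) :
    ∃ χ : ↥Γ →* ℂˣ, (∀ γ, χ γ ^ n = 1) ∧
      ∀ γ : ↥Γ, F ∣[k] (γ : SL(2, ℤ)) = fun z => ((χ γ : ℂˣ) : ℂ) * F z := by
  obtain ⟨τ₀, hτ₀⟩ := hF0
  have hex : ∀ γ : ↥Γ, ∃ ζ : ℂ, ζ ^ n = 1 ∧ ∀ τ : ℍ, (F ∣[k] (γ : SL(2, ℤ))) τ = ζ * F τ := by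
    intro γ
    refine exists_root_of_unity_of_pow_eq_uhp hn hF (hF.slash k _) fun τ => ?_
    have h := congrFun (hinv γ γ.2) τ
    rw [pow_slash_SL'] at h
    simpa using h
  choose ζ hζ hζF using hex
  have hζ0 : ∀ γ, ζ γ ≠ 0 := fun γ h0 => by
    have := hζ γ
    rw [h0, zero_pow hn] at this
    exact zero_ne_one this
  have hone : ζ 1 = 1 := by
    have h := hζF 1 τ₀
    simp only [OneMemClass.coe_one, SlashAction.slash_one] at h
    have h2 : (ζ 1 - 1) * F τ₀ = 0 := by linear_combination -h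
    rcases mul_eq_zero.mp h2 with h3 | h3
    · exact sub_eq_zero.mp h3
    · exact absurd h3 hτ₀
  have hmul : ∀ γ δ, ζ (γ * δ) = ζ γ * ζ δ := by
    intro γ δ
    have h := hζF (γ * δ) τ₀
    have h1 : F ∣[k] (((γ * δ : ↥Γ)) : SL(2, ℤ)) = fun z => ζ γ * (ζ δ * F z) := by
      rw [Subgroup.coe_mul, SlashAction.slash_mul]
      have : F ∣[k] (γ : SL(2, ℤ)) = fun z => ζ γ * F z := funext (hζF γ)
      rw [this, const_mul_slash_SL]
      funext z
      rw [hζF δ z]
    rw [h1] at h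
    have h2 : (ζ (γ * δ) - ζ γ * ζ δ) * F τ₀ = 0 := by linear_combination -h
    rcases mul_eq_zero.mp h2 with h3 | h3
    · exact sub_eq_zero.mp h3
    · exact absurd h3 hτ₀
  refine ⟨{ toFun := fun γ => Units.mk0 (ζ γ) (hζ0 γ)
            map_one' := Units.ext (by simpa using hone)
            map_mul' := fun γ δ => Units.ext (by simpa using hmul γ δ) }, ?_, ?_⟩
  · intro γ
    apply Units.ext
    simpa using hζ γ
  · intro γ
    funext z
    simpa using hζF γ z

/-- A root of a function bounded at `i∞` is bounded at `i∞`. -/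
theorem isBoundedAtImInfty_of_pow {G : ℍ → ℂ} {n : ℕ} (hn : n ≠ 0)
    (h : IsBoundedAtImInfty (G ^ n)) : IsBoundedAtImInfty G := by
  rw [UpperHalfPlane.isBoundedAtImInfty_iff] at h ⊢
  obtain ⟨M, A, hMA⟩ := h
  refine ⟨max M 1, A, fun z hz => ?_⟩
  have h1 : ‖G z‖ ^ n ≤ M := by
    have := hMA z hz
    simpa [norm_pow] using this
  by_contra hcon
  rw [not_le] at hcon
  have h2 : 1 < ‖G z‖ := lt_of_le_of_lt (le_max_right M 1) hcon
  have h3 : ‖G z‖ ≤ ‖G z‖ ^ n := le_self_pow₀ h2.le hn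
  have h4 : M < ‖G z‖ := lt_of_le_of_lt (le_max_left M 1) hcon
  linarith

end UHP

end Fermat.Agent.Lib.NthRoot

end
-- ==== END Fermat.Agent.Lib.NthRoot

-- ==== BEGIN Fermat.Agent.R.Defs
section

/-!
# Cluster R (Galois representations of eigenforms): interfaces

Coordinator: helper86.  Plan: `NOTES/plan/R.md`.

Everything here is a *statement* (a `Prop`-valued `def`) or a small structure; the proofs of
the statements are work packages.  The wirings (`Fermat/Agent/R/Transfer.lean`,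
`Fermat/Agent/S31/Wiring.lean`, `Fermat/Agent/S34/Wiring.lean`) take them as hypotheses.

* `Stmt_S30`  : the type of the frozen statement S30 (eigensystem `χ : 𝕋 → 𝒪'` has a Galois
  representation over a finite extension, right Frobenius characteristic polynomials,
  unramified outside `N p`).
* `Stmt_S30U` : S30 plus "inertia at `q ∥ N`, `q ≠ p`, has characteristic polynomial `(X-1)^2`".
* `Stmt_FD`   : Frobenius density in division form, in the language of valuation subrings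
  of `AlgebraicClosure ℚ` (shared item 61).
* `PadicPoint`, `Stmt_Sep` : the anemic Hecke algebra is separated `p`-adically by finitely
  many eigensystems with values in complete discrete valuation rings of characteristic `0`
  (consequence of: the Hecke algebra is reduced and finite over `ℤ`).
-/

set_option autoImplicit false

open Polynomial

namespace Fermat.Agent.R

/-- The type of the frozen statement S30. -/
def Stmt_S30 : Prop :=
    ∀ (p : ℕ) [Fact p.Prime] (N : ℕ) [NeZero N] (S : Finset ℕ)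
      (_hpS : p ∈ S) (_hNS : ∀ q : ℕ, q.Prime → q ∣ N → q ∈ S)
      (𝒪' : Type) [CommRing 𝒪'] [IsDomain 𝒪'] [IsDiscreteValuationRing 𝒪']
      [IsAdicComplete (IsLocalRing.maximalIdeal 𝒪') 𝒪'] [Finite (IsLocalRing.ResidueField 𝒪')]
      [CharZero 𝒪'] (_hp𝒪' : (p : 𝒪') ∈ IsLocalRing.maximalIdeal 𝒪')
      (χ : CuspForm.heckeAlgebra N 2 (↑S : Set ℕ) →+* 𝒪'),
      ∃ (𝒪'' : Type) (_ : CommRing 𝒪'') (_ : IsDomain 𝒪'') (_ : IsDiscreteValuationRing 𝒪'')
        (_ : IsAdicComplete (IsLocalRing.maximalIdeal 𝒪'') 𝒪'')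
        (_ : Finite (IsLocalRing.ResidueField 𝒪'')) (_ : CharZero 𝒪'')
        (_ : Algebra 𝒪' 𝒪'') (_ : Module.Finite 𝒪' 𝒪'') (_ : IsLocalHom (algebraMap 𝒪' 𝒪'')),
      Function.Injective (algebraMap 𝒪' 𝒪'') ∧
      ∃ ρ : GaloisRepAdic 𝒪'',
        (∀ (ℓ : ℕ) (hℓ : ℓ.Prime) (hℓN : ¬ ℓ ∣ N) (hℓS : ℓ ∉ (↑S : Set ℕ)),
          ∀ A : ValuationSubring (AlgebraicClosure ℚ), A.LiesOverPrime ℓ →
            ∀ σ : AlgebraicClosure ℚ ≃ₐ[ℚ] AlgebraicClosure ℚ, A.IsFrobeniusAt σ ℓ →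
              LinearMap.charpoly (ρ.ρ σ) =
                X ^ 2 - C (algebraMap 𝒪' 𝒪'' (χ (CuspForm.heckeAlgebra.T hℓ hℓN hℓS))) * X
                  + C ((ℓ : 𝒪''))) ∧
        (∀ q : ℕ, q.Prime → ¬ q ∣ N → q ≠ p → ρ.IsUnramifiedAt q)

/-- S30 together with the local behaviour at the primes `q ∥ N`, `q ≠ p`: inertia at `q` has
characteristic polynomial `(X - 1) ^ 2` (semistable reduction of `J₀(N)` at `q`). -/
def Stmt_S30U : Prop :=
    ∀ (p : ℕ) [Fact p.Prime] (N : ℕ) [NeZero N] (S : Finset ℕ)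
      (_hpS : p ∈ S) (_hNS : ∀ q : ℕ, q.Prime → q ∣ N → q ∈ S)
      (𝒪' : Type) [CommRing 𝒪'] [IsDomain 𝒪'] [IsDiscreteValuationRing 𝒪']
      [IsAdicComplete (IsLocalRing.maximalIdeal 𝒪') 𝒪'] [Finite (IsLocalRing.ResidueField 𝒪')]
      [CharZero 𝒪'] (_hp𝒪' : (p : 𝒪') ∈ IsLocalRing.maximalIdeal 𝒪')
      (χ : CuspForm.heckeAlgebra N 2 (↑S : Set ℕ) →+* 𝒪'),
      ∃ (𝒪'' : Type) (_ : CommRing 𝒪'') (_ : IsDomain 𝒪'') (_ : IsDiscreteValuationRing 𝒪'')
        (_ : IsAdicComplete (IsLocalRing.maximalIdeal 𝒪'') 𝒪'')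
        (_ : Finite (IsLocalRing.ResidueField 𝒪'')) (_ : CharZero 𝒪'')
        (_ : Algebra 𝒪' 𝒪'') (_ : Module.Finite 𝒪' 𝒪'') (_ : IsLocalHom (algebraMap 𝒪' 𝒪'')),
      Function.Injective (algebraMap 𝒪' 𝒪'') ∧
      ∃ ρ : GaloisRepAdic 𝒪'',
        (∀ (ℓ : ℕ) (hℓ : ℓ.Prime) (hℓN : ¬ ℓ ∣ N) (hℓS : ℓ ∉ (↑S : Set ℕ)),
          ∀ A : ValuationSubring (AlgebraicClosure ℚ), A.LiesOverPrime ℓ →
            ∀ σ : AlgebraicClosure ℚ ≃ₐ[ℚ] AlgebraicClosure ℚ, A.IsFrobeniusAt σ ℓ →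
              LinearMap.charpoly (ρ.ρ σ) =
                X ^ 2 - C (algebraMap 𝒪' 𝒪'' (χ (CuspForm.heckeAlgebra.T hℓ hℓN hℓS))) * X
                  + C ((ℓ : 𝒪''))) ∧
        (∀ q : ℕ, q.Prime → ¬ q ∣ N → q ≠ p → ρ.IsUnramifiedAt q) ∧
        (∀ q : ℕ, q.Prime → q ∣ N → ¬ q ^ 2 ∣ N → q ≠ p → ρ.IsUnipotentOnInertiaAt q)

theorem Stmt_S30U.toS30 (h : Stmt_S30U) : Stmt_S30 := by
  intro p _ N _ S hpS hNS 𝒪' _ _ _ _ _ _ hp χ
  obtain ⟨𝒪'', i1, i2, i3, i4, i5, i6, i7, i8, i9, hinj, ρ, h1, h2, -⟩ :=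
    h p N S hpS hNS 𝒪' hp χ
  exact ⟨𝒪'', i1, i2, i3, i4, i5, i6, i7, i8, i9, hinj, ρ, h1, h2⟩

/-- **Frobenius density, division form** (shared item 61).  For every finite set `S` of primes,
every finite extension `L` of `ℚ` inside `AlgebraicClosure ℚ` and every `g` in the absolute
Galois group there are a prime `ℓ ∉ S`, a valuation subring `A` over `ℓ`, a Frobenius element
`σ` at `A` and an exponent `j` such that `σ ^ j` and `g` agree on `L`. -/
def Stmt_FD : Prop :=
  ∀ (S : Finset ℕ) (L : IntermediateField ℚ (AlgebraicClosure ℚ)), FiniteDimensional ℚ L →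
    ∀ g : AlgebraicClosure ℚ ≃ₐ[ℚ] AlgebraicClosure ℚ,
      ∃ (ℓ : ℕ) (A : ValuationSubring (AlgebraicClosure ℚ))
        (σ : AlgebraicClosure ℚ ≃ₐ[ℚ] AlgebraicClosure ℚ) (j : ℕ),
        ℓ.Prime ∧ ℓ ∉ S ∧ A.LiesOverPrime ℓ ∧ A.IsFrobeniusAt σ ℓ ∧
          ∀ x ∈ L, (σ ^ j) x = g x

/-- An eigensystem of the Hecke algebra (away from `S`) with values in a complete discrete
valuation ring of characteristic `0` and residue characteristic `p`. -/
structure PadicPoint (N : ℕ) [NeZero N] (S : Finset ℕ) (p : ℕ) : Type 1 where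
  /-- the coefficient ring -/
  R : Type
  [instCommRing : CommRing R]
  [instIsDomain : IsDomain R]
  [instDVR : IsDiscreteValuationRing R]
  [instComplete : IsAdicComplete (IsLocalRing.maximalIdeal R) R]
  [instFiniteResidue : Finite (IsLocalRing.ResidueField R)]
  [instCharZero : CharZero R]
  hp : (p : R) ∈ IsLocalRing.maximalIdeal R
  /-- the eigensystem -/
  χ : CuspForm.heckeAlgebra N 2 (↑S : Set ℕ) →+* R

attribute [instance] PadicPoint.instCommRing PadicPoint.instIsDomain PadicPoint.instDVR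
  PadicPoint.instComplete PadicPoint.instFiniteResidue PadicPoint.instCharZero

/-- **`p`-adic separation of the Hecke algebra.**  There are finitely many `p`-adic points and
a constant `c` such that an element `y` of the Hecke algebra whose values at all these points
are divisible by `p ^ (m + c)` is divisible by `p ^ m` in the Hecke algebra.

(True because the Hecke algebra away from the level is finite over `ℤ` (S22) and reduced
(Petersson); `p ^ c` kills the `p`-part of the index of `𝕋` in its normalisation.) -/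
def Stmt_Sep (N : ℕ) [NeZero N] (S : Finset ℕ) (p : ℕ) : Prop :=
  ∃ (ι : Type) (_ : Finite ι) (P : ι → PadicPoint N S p) (c : ℕ),
    ∀ (m : ℕ) (y : CuspForm.heckeAlgebra N 2 (↑S : Set ℕ)),
      (∀ i, (P i).χ y ∈ Ideal.span {((p : (P i).R)) ^ (m + c)}) →
        y ∈ Ideal.span {((p : CuspForm.heckeAlgebra N 2 (↑S : Set ℕ))) ^ m}

end Fermat.Agent.R

end
-- ==== END Fermat.Agent.R.Defs

-- ==== BEGIN Fermat.Agent.R.H2_FiniteExtDVR
section

/-!
# Cluster R, leaf L4 (helper2): finite extensions of complete discrete valuation rings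

`O` a complete DVR of characteristic `0` with fraction field `K`, `E / K` a finite field
extension.  Then the integral closure `O'' = integralClosure O E` is again a complete DVR,
finite over `O`, with local and injective structure map, finite residue field (if that of `O` is
finite) and fraction field `E`.

Main statements (namespace `Fermat.Agent.R.H2`):
* `isLocalRing_of_finite_of_isDomain`: a domain finite over a complete noetherian local ring is
  local.
* `FiniteExt.*` : the instances for `integralClosure O E`.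
* `exists_finiteExtDVR`: the packaged existence statement in the exact shape of the conclusion
  of the frozen statement S30.
-/

set_option autoImplicit false
set_option linter.style.haveILetI false
set_option linter.unusedSectionVars false
set_option linter.unusedSimpArgs false

open IsLocalRing

namespace Fermat.Agent.R.H2

/-- A domain which is finite over a complete noetherian local ring is local. -/
theorem isLocalRing_of_finite_of_isDomain (O : Type) [CommRing O] [IsLocalRing O]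
    [IsNoetherianRing O] [IsAdicComplete (maximalIdeal O) O]
    (A : Type) [CommRing A] [IsDomain A] [Algebra O A] [Module.Finite O A] : IsLocalRing A := by
  obtain ⟨-, hbij, -, -⟩ :=
    Algebra.finite_maximalSpectrum_and_bijective_localization_of_module_finite (𝒪 := O) A
  -- at most one maximal ideal
  have huniq : ∀ I J : MaximalSpectrum A, I = J := by
    intro I J
    by_contra hIJ
    classical
    -- the two idempotents `e_I`, `e_J` in the product multiply to zero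
    obtain ⟨a, ha⟩ := hbij.2 (Pi.single I 1)
    obtain ⟨b, hb⟩ := hbij.2 (Pi.single J 1)
    have hab : a * b = 0 := by
      apply hbij.1
      rw [map_mul, ha, hb, map_zero]
      funext K
      by_cases hK : K = I
      · subst hK
        simp [Pi.single_apply, hIJ]
      · simp [Pi.single_apply, hK]
    have ha0 : a ≠ 0 := by
      rintro rfl
      rw [map_zero] at ha
      have := congrFun ha I
      simp at this
    have hb0 : b ≠ 0 := by
      rintro rfl
      rw [map_zero] at hb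
      have := congrFun hb J
      simp at this
    exact (mul_ne_zero ha0 hb0) hab
  obtain ⟨m, hm⟩ := Ideal.exists_maximal A
  refine IsLocalRing.of_unique_max_ideal ⟨m, hm, fun J hJ => ?_⟩
  exact congrArg MaximalSpectrum.asIdeal (huniq ⟨J, hJ⟩ ⟨m, hm⟩)

namespace FiniteExt

variable (O : Type) [CommRing O] [IsDomain O] [IsDiscreteValuationRing O]
  (K : Type) [Field K] [Algebra O K] [IsFractionRing O K]
  (E : Type) [Field E] [Algebra K E] [Algebra O E] [IsScalarTower O K E] [FiniteDimensional K E]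

include K in
theorem charZero_K [CharZero O] : CharZero K :=
  charZero_of_injective_algebraMap (IsFractionRing.injective O K)

include K in
theorem moduleFinite [CharZero O] : Module.Finite O (integralClosure O E) := by
  haveI : CharZero K := charZero_K O K
  exact IsIntegralClosure.finite O K E (integralClosure O E)

include K in
theorem isDedekindDomain [CharZero O] : IsDedekindDomain (integralClosure O E) := by
  haveI : CharZero K := charZero_K O K
  exact integralClosure.isDedekindDomain O K E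

include K in
theorem isLocalRing [CharZero O] [IsAdicComplete (maximalIdeal O) O] :
    IsLocalRing (integralClosure O E) := by
  haveI := moduleFinite O K E
  exact isLocalRing_of_finite_of_isDomain O (integralClosure O E)

include K in
theorem injective_algebraMap :
    Function.Injective (algebraMap O (integralClosure O E)) := by
  have h1 : Function.Injective (algebraMap O E) := by
    rw [IsScalarTower.algebraMap_eq O K E]
    exact (algebraMap K E).injective.comp (IsFractionRing.injective O K)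
  intro x y hxy
  apply h1
  have := congrArg (algebraMap (integralClosure O E) E) hxy
  rwa [← IsScalarTower.algebraMap_apply, ← IsScalarTower.algebraMap_apply] at this

include K in
theorem not_isField : ¬ IsField (integralClosure O E) := by
  intro hF
  -- then `O` would be a field, since `O → integralClosure O E` is integral and injective
  have hinj := injective_algebraMap O K E
  haveI : Algebra.IsIntegral O (integralClosure O E) := inferInstance
  have : IsField O := isField_of_isIntegral_of_isField hinj hF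
  exact IsDiscreteValuationRing.not_isField O this

include K in
theorem isDiscreteValuationRing [CharZero O] [IsAdicComplete (maximalIdeal O) O] :
    IsDiscreteValuationRing (integralClosure O E) := by
  haveI := isLocalRing O K E
  haveI := isDedekindDomain O K E
  have h := (IsDiscreteValuationRing.TFAE (integralClosure O E) (not_isField O K E)).out 0 2
  exact h.mpr (isDedekindDomain O K E)

include K in
theorem isLocalHom [CharZero O] [IsAdicComplete (maximalIdeal O) O] :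
    IsLocalHom (algebraMap O (integralClosure O E)) := by
  haveI : FaithfulSMul O (integralClosure O E) :=
    (faithfulSMul_iff_algebraMap_injective O (integralClosure O E)).2
      (injective_algebraMap O K E)
  exact Algebra.IsIntegral.isLocalHom O (integralClosure O E)

include K in
theorem isAdicComplete [CharZero O] [IsAdicComplete (maximalIdeal O) O] :
    letI := isLocalRing O K E
    IsAdicComplete (maximalIdeal (integralClosure O E)) (integralClosure O E) := by
  letI := isLocalRing O K E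
  haveI := moduleFinite O K E
  haveI := isLocalHom O K E
  exact IsLocalRing.isAdicComplete_of_module_finite (𝒪 := O) (T := integralClosure O E)

include K in
theorem finite_residueField [CharZero O] [IsAdicComplete (maximalIdeal O) O]
    [Finite (ResidueField O)] :
    letI := isLocalRing O K E
    Finite (ResidueField (integralClosure O E)) := by
  letI := isLocalRing O K E
  haveI := moduleFinite O K E
  haveI := isLocalHom O K E
  exact ResidueField.finite_of_finite (R := O) (S := integralClosure O E) inferInstance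

include K in
theorem isFractionRing : IsFractionRing (integralClosure O E) E :=
  integralClosure.isFractionRing_of_finite_extension K E

include K in
theorem charZero [CharZero O] : CharZero (integralClosure O E) := by
  have h1 : Function.Injective (algebraMap O (integralClosure O E)) :=
    injective_algebraMap O K E
  exact charZero_of_injective_algebraMap h1

end FiniteExt

/-- **L4 (FiniteExtDVR)**, packaged in the shape of the conclusion of the frozen statement S30: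
for a complete DVR `O` (char 0, finite residue field) with fraction field `K` and a finite
extension `E / K` there is a complete DVR `O''` (char 0, finite residue field), finite over `O`
with local injective structure map, together with an embedding `O'' → E` compatible with
`O → E`, identifying `E` with the fraction field of `O''`, and whose image contains every
element of `E` integral over `O`. -/
theorem exists_finiteExtDVR (O : Type) [CommRing O] [IsDomain O] [IsDiscreteValuationRing O]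
    [IsAdicComplete (maximalIdeal O) O] [Finite (ResidueField O)] [CharZero O]
    (K : Type) [Field K] [Algebra O K] [IsFractionRing O K]
    (E : Type) [Field E] [Algebra K E] [Algebra O E] [IsScalarTower O K E]
    [FiniteDimensional K E] :
    ∃ (O'' : Type) (_ : CommRing O'') (_ : IsDomain O'') (_ : IsDiscreteValuationRing O'')
      (_ : IsAdicComplete (maximalIdeal O'') O'')
      (_ : Finite (ResidueField O'')) (_ : CharZero O'')
      (_ : Algebra O O'') (_ : Module.Finite O O'') (_ : IsLocalHom (algebraMap O O''))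
      (_ : Algebra O'' E) (_ : IsScalarTower O O'' E) (_ : IsFractionRing O'' E),
      Function.Injective (algebraMap O O'') ∧
      ∀ x : E, IsIntegral O x → ∃ y : O'', algebraMap O'' E y = x := by
  letI hloc := FiniteExt.isLocalRing O K E
  letI hdvr := FiniteExt.isDiscreteValuationRing O K E
  refine ⟨integralClosure O E, inferInstance, inferInstance, hdvr, ?_, ?_,
    FiniteExt.charZero O K E, inferInstance, FiniteExt.moduleFinite O K E,
    FiniteExt.isLocalHom O K E, inferInstance, inferInstance, FiniteExt.isFractionRing O K E,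
    FiniteExt.injective_algebraMap O K E, ?_⟩
  · exact FiniteExt.isAdicComplete O K E
  · exact FiniteExt.finite_residueField O K E
  · intro x hx
    exact ⟨⟨x, hx⟩, rfl⟩

end Fermat.Agent.R.H2

end
-- ==== END Fermat.Agent.R.H2_FiniteExtDVR

-- ==== BEGIN Fermat.Agent.R.Pet.Defs
section

/-!
# Cluster R, leaf L3a (helper58): the Petersson inner product and reducedness of the anemic
Hecke algebra. Interfaces (`Stmt_*` are the work packages).

Notation: `𝒟 = ModularGroup.fd`, `𝒟ᵒ = ModularGroup.fdo`, `volume` on `ℍ` is the invariant measure.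
-/

set_option autoImplicit false

namespace Fermat.Agent.R.Pet

open UpperHalfPlane ModularForm MatrixGroups MeasureTheory CongruenceSubgroup
open scoped Modular Pointwise

/-! ## Measure theory of the standard fundamental domain -/

/-- PA: the boundary of the standard fundamental domain is a null set. -/
def Stmt_fd_boundary_null : Prop :=
  volume ((𝒟 : Set ℍ) \ 𝒟ᵒ) = 0

/-- PB: the standard fundamental domain has finite invariant volume. -/
def Stmt_fd_volume_lt_top : Prop :=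
  volume (𝒟 : Set ℍ) < ⊤

/-- PC: nonempty open subsets of `ℍ` have positive invariant volume. -/
def Stmt_open_pos : Prop :=
  ∀ U : Set ℍ, IsOpen U → U.Nonempty → 0 < volume U

/-! ## Fundamental domains of subgroups of finite index (abstract) -/

/-- PD: a subgroup `H'` of finite index `d` of a countable group `H` acting on a measure space:
from a fundamental domain `F` of `H` one gets a fundamental domain `F'` of `H'` with
`μ F' = d * μ F` and `∫_{F'} Φ = d • ∫_F Φ` for every `H`-invariant `Φ`. -/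
def Stmt_subgroup_fd : Prop :=
  ∀ (G : Type) [Group G] [Countable G] (X : Type) [MeasurableSpace X] [MulAction G X]
    [MeasurableConstSMul G X] (μ : Measure X) [SMulInvariantMeasure G X μ]
    (H' : Subgroup G) [H'.FiniteIndex] (F : Set X), IsFundamentalDomain G F μ →
    ∃ F' : Set X, IsFundamentalDomain H' F' μ ∧ μ F' = H'.index * μ F ∧
      ∀ Φ : X → ℂ, (∀ (g : G) x, Φ (g • x) = Φ x) →
        ∫ x in F', Φ x ∂μ = (H'.index : ℂ) * ∫ x in F, Φ x ∂μ

/-! ## Fundamental domains of finite volume and mean values -/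

/-- `F` is a fundamental domain of finite volume for the subgroup `𝒢 ≤ GL₂(ℝ)` acting on `ℍ`. -/
structure IsFD (𝒢 : Subgroup (GL (Fin 2) ℝ)) (F : Set ℍ) : Prop where
  fd : IsFundamentalDomain 𝒢 F (volume : Measure ℍ)
  fin : volume F < ⊤

/-- The mean value of `Φ` over `F`. -/
noncomputable def mean (F : Set ℍ) (Φ : ℍ → ℂ) : ℂ :=
  (∫ z in F, Φ z) / (((volume F).toReal : ℝ) : ℂ)

/-- FD1: a subgroup of finite index of `SL(2, ℤ)` not containing `-1` has a fundamental domain of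
finite volume (a finite union of translates of `𝒟`). -/
def Stmt_exists_fd : Prop :=
  ∀ (Γ : Subgroup SL(2, ℤ)) [Γ.FiniteIndex], (-1 : SL(2, ℤ)) ∉ Γ →
    ∃ F : Set ℍ, IsFD (Γ.map (Matrix.SpecialLinearGroup.mapGL ℝ)) F

/-- MEAN-FD: the mean value does not depend on the fundamental domain. -/
def Stmt_mean_indep : Prop :=
  ∀ (𝒢 : Subgroup (GL (Fin 2) ℝ)), Countable 𝒢 → ∀ (F F' : Set ℍ), IsFD 𝒢 F → IsFD 𝒢 F' →
    ∀ Ψ : ℍ → ℂ, (∀ g ∈ 𝒢, ∀ z, Ψ (g • z) = Ψ z) → mean F' Ψ = mean F Ψ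

/-- MEAN-SUB: the mean value of a `𝒢`-invariant function may be computed on a fundamental
domain of a subgroup of finite index. -/
def Stmt_mean_sub : Prop :=
  ∀ (𝒢 𝒢' : Subgroup (GL (Fin 2) ℝ)), Countable 𝒢 → 𝒢' ≤ 𝒢 → 𝒢'.relIndex 𝒢 ≠ 0 →
    ∀ (F F' : Set ℍ), IsFD 𝒢 F → IsFD 𝒢' F' →
    ∀ Ψ : ℍ → ℂ, (∀ g ∈ 𝒢, ∀ z, Ψ (g • z) = Ψ z) → mean F' Ψ = mean F Ψ

/-- MEAN-CONJ: the mean value is invariant under `α ∈ GL₂(ℝ)` commensurating `𝒢`. -/
def Stmt_mean_conj : Prop :=
  ∀ (𝒢 : Subgroup (GL (Fin 2) ℝ)), Countable 𝒢 → ∀ (F : Set ℍ), IsFD 𝒢 F →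
    ∀ α : GL (Fin 2) ℝ, Subgroup.Commensurable (𝒢.map (MulAut.conj α).toMonoidHom) 𝒢 →
    ∀ Ψ : ℍ → ℂ, (∀ g ∈ 𝒢, ∀ z, Ψ (g • z) = Ψ z) →
      (∀ g ∈ 𝒢, ∀ z, Ψ ((α * g * α⁻¹) • z) = Ψ z) →
      mean F (fun z => Ψ (α • z)) = mean F Ψ

/-! ## The double coset of the Hecke matrices -/

/-- PE: for `ℓ ∤ N` the diagonal Hecke matrix lies in `Γ₀(N) α₀ Γ₀(N)`, `α₀ = heckeMatrix ℓ 0`. -/
def Stmt_double_coset : Prop :=
  ∀ (N ℓ : ℕ), ℓ.Prime → ¬ ℓ ∣ N → ∃ γ ∈ Gamma0 N, ∃ γ' ∈ Gamma0 N,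
    heckeDiagMatrix ℓ = (γ : GL (Fin 2) ℝ) * heckeMatrix ℓ 0 * (γ' : GL (Fin 2) ℝ)

/-- PE': the other Hecke matrices are right translates of `α₀` by powers of `T`. -/
def Stmt_heckeMatrix_eq : Prop :=
  ∀ (ℓ j : ℕ), ℓ ≠ 0 →
    heckeMatrix ℓ j = heckeMatrix ℓ 0 * ((ModularGroup.T ^ j : SL(2, ℤ)) : GL (Fin 2) ℝ)

/-! ## The inner product -/

/-- The statement that a positive definite, biadditive pairing exists on `S_k(Γ₀(N))` for which
all `T_ℓ`, `ℓ ∤ N`, are self-adjoint. -/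
def Stmt_pet (N : ℕ) [NeZero N] (k : ℤ) : Prop :=
  ∃ B : CuspForm (Gamma0 N) k → CuspForm (Gamma0 N) k → ℂ,
    (∀ f f' g, B (f + f') g = B f g + B f' g) ∧
    (∀ f g g', B f (g + g') = B f g + B f g') ∧
    (∀ f, B f f = 0 → f = 0) ∧
    ∀ (ℓ : ℕ) (hℓ : ℓ.Prime) (hℓN : ¬ ℓ ∣ N) (f g : CuspForm (Gamma0 N) k),
      B (CuspForm.heckeTLin k hℓ hℓN f) g = B f (CuspForm.heckeTLin k hℓ hℓN g)

/-- PF: the pure algebra step. -/
def Stmt_reduced_of_pet : Prop :=
  ∀ (N : ℕ) [NeZero N] (k : ℤ) (S : Set ℕ), (∀ q : ℕ, q.Prime → q ∣ N → q ∈ S) →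
    Stmt_pet N k → IsReduced (CuspForm.heckeAlgebra N k S)

/-- The goal of L3a. -/
def Stmt_L3a : Prop :=
  ∀ (N : ℕ) [NeZero N] (k : ℤ) (S : Set ℕ), (∀ q : ℕ, q.Prime → q ∣ N → q ∈ S) →
    IsReduced (CuspForm.heckeAlgebra N k S)

end Fermat.Agent.R.Pet

end
-- ==== END Fermat.Agent.R.Pet.Defs
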