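-- GENERATED (merged mirror, NOTES/tools/trim/merge3_helper67.py): 7 modules of the originals, bodies verbatim.
import Fermat.Prelude.Def_ModularCurve_X0
import Fermat.Prelude.Def_ModularCurve_X0ModL
import Mathlib.RingTheory.PowerSeries.Expand
import Mathlib.Algebra.CharP.Lemmas
import Mathlib.Algebra.CharP.Reduced
import Mathlib
import Fermat.Prelude.Def_AlgebraicCurve_DivisorClassGroup
import Fermat.Prelude.Def_AlgebraicCurve_Repartitions

-- ==== BEGIN Fermat.Agent.RED.H10_Kronecker
section

/-!
# G-RED package ES, part K (helper10): Kronecker's congruence on `q`-expansions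

Pure algebra of Laurent series.

* `rot u : R((q)) →+* R((q))`, `q ↦ u q` for a unit `u` (coefficient `n` is multiplied by `u ^ n`).
* `pow_char_eq` : in characteristic `ℓ`, `x ^ ℓ = (φ x)(q ^ ℓ)`, `φ` = Frobenius on coefficients.
* `kronecker` : for `π : A →+* k`, `k` a domain of characteristic `ℓ`, `ζ ∈ Aˣ` with `ζ ^ ℓ = 1`,
  `y ∈ A((q))`, `c ∈ A`:
  `(c - y(q^(ℓ²))) ∏_{b < ℓ} (c - y(ζ^b q))` reduces to
  `[(c~ - y~(q^ℓ)) (c~^ℓ - φ y~)](q^ℓ)`.
* `kronecker_norm` : the form used for the Hecke correspondence: if `n ∈ K((q))` satisfies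
  `n(q^ℓ) = (c - y(q^(ℓ²))) ∏_b (c - y(ζ^b q))` then `n` has coefficients in `A` and reduces to
  `(c~ - y~(q^ℓ)) (c~^ℓ - φ y~)`.
-/

set_option autoImplicit false

noncomputable section

open HahnSeries ModularCurve

namespace Fermat.Agent.RED.H10

section Rot

variable {R : Type*} [CommRing R]

/-- The rotation `q ↦ u q` on Laurent series, as a function. -/
def rotFun (u : Rˣ) (x : LaurentSeries R) : LaurentSeries R :=
  HahnSeries.ofSuppBddBelow (fun n : ℤ => ((u ^ n : Rˣ) : R) * x.coeff n) (by
    refine ⟨x.order, fun n hn => ?_⟩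
    by_contra h
    exact hn (by
      show ((u ^ n : Rˣ) : R) * x.coeff n = 0
      rw [HahnSeries.coeff_eq_zero_of_lt_order (not_le.mp h), mul_zero]))

@[simp] theorem rotFun_coeff (u : Rˣ) (x : LaurentSeries R) (n : ℤ) :
    (rotFun u x).coeff n = ((u ^ n : Rˣ) : R) * x.coeff n := rfl

theorem rotFun_support (u : Rˣ) (x : LaurentSeries R) : (rotFun u x).support = x.support := by
  ext n
  simp only [HahnSeries.mem_support, rotFun_coeff, ne_eq, Units.mul_right_eq_zero]

theorem rotFun_mul (u : Rˣ) (x y : LaurentSeries R) :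
    rotFun u (x * y) = rotFun u x * rotFun u y := by
  ext n
  rw [rotFun_coeff, HahnSeries.coeff_mul,
    HahnSeries.coeff_mul_left' (x := rotFun u x) x.isPWO_support (rotFun_support u x).le,
    Finset.mul_sum]
  have hy : (rotFun u y).support = y.support := rotFun_support u y
  refine Finset.sum_congr ?_ fun ij hij => ?_
  · ext ij
    simp [hy]
  · have hn : ij.1 + ij.2 = n := by
      have := hij
      simp at this
      exact this.2.2
    rw [rotFun_coeff, rotFun_coeff, ← hn, zpow_add, Units.val_mul]
    ring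

/-- The rotation `q ↦ u q` on Laurent series. -/
def rot (u : Rˣ) : LaurentSeries R →+* LaurentSeries R where
  toFun := rotFun u
  map_one' := by
    ext n
    rw [rotFun_coeff, HahnSeries.coeff_one]
    split_ifs with h
    · subst h; simp
    · simp
  map_mul' := rotFun_mul u
  map_zero' := by
    ext n
    simp
  map_add' x y := by
    ext n
    simp [mul_add]

@[simp] theorem rot_coeff (u : Rˣ) (x : LaurentSeries R) (n : ℤ) :
    (rot u x).coeff n = ((u ^ n : Rˣ) : R) * x.coeff n := rfl

@[simp] theorem rot_one (x : LaurentSeries R) : rot (1 : Rˣ) x = x := by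
  ext n
  simp

theorem rot_C (u : Rˣ) (c : R) : rot u (HahnSeries.C c) = HahnSeries.C c := by
  ext n
  rw [rot_coeff]
  show ((u ^ n : Rˣ) : R) * (HahnSeries.single 0 c).coeff n = (HahnSeries.single 0 c).coeff n
  rcases eq_or_ne n 0 with rfl | h
  · simp
  · rw [HahnSeries.coeff_single_of_ne h, mul_zero]

theorem rot_single (u : Rˣ) (k : ℤ) (c : R) :
    rot u (HahnSeries.single k c) = HahnSeries.single k (((u ^ k : Rˣ) : R) * c) := by
  ext n
  rw [rot_coeff]
  rcases eq_or_ne n k with rfl | h
  · rw [HahnSeries.coeff_single_same, HahnSeries.coeff_single_same]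
  · rw [HahnSeries.coeff_single_of_ne h, HahnSeries.coeff_single_of_ne h, mul_zero]

theorem rot_mul (u v : Rˣ) (x : LaurentSeries R) : rot (u * v) x = rot u (rot v x) := by
  ext n
  simp only [rot_coeff, mul_zpow, Units.val_mul, mul_assoc]

/-- `rot u` fixes the series in `q ^ ℓ` when `u ^ ℓ = 1`. -/
theorem rot_qExpand (ℓ : ℕ) [NeZero ℓ] (u : Rˣ) (hu : u ^ ℓ = 1) (x : LaurentSeries R) :
    rot u (qExpand R ℓ x) = qExpand R ℓ x := by
  ext n
  rw [rot_coeff]
  by_cases hn : (ℓ : ℤ) ∣ n
  · obtain ⟨m, rfl⟩ := hn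
    rw [zpow_mul, zpow_natCast, hu, one_zpow, Units.val_one, one_mul]
  · rw [qExpand_coeff_of_not_dvd ℓ x hn, mul_zero]

theorem coeffMap_rot {S : Type*} [CommRing S] (f : R →+* S) (u : Rˣ) (x : LaurentSeries R) :
    coeffMap f (rot u x) = rot (Units.map (f : R →* S) u) (coeffMap f x) := by
  ext n
  simp only [coeffMap_coeff, rot_coeff, map_mul, ← map_zpow]
  rfl

end Rot

section Frobenius

variable {k : Type*} [CommRing k] (ℓ : ℕ) [Fact ℓ.Prime] [CharP k ℓ]

private theorem ell_ne_zero : ℓ ≠ 0 := (Fact.out : ℓ.Prime).ne_zero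

theorem qExpand_ofPowerSeries {R : Type*} [CommRing R] (n : ℕ) [NeZero n] (p : PowerSeries R) :
    qExpand R n (HahnSeries.ofPowerSeries ℤ R p)
      = HahnSeries.ofPowerSeries ℤ R (PowerSeries.expand n (NeZero.ne n) p) := by
  ext m
  rcases lt_or_ge m 0 with hm | hm
  · rw [ofPowerSeries_coeff_of_neg _ hm]
    by_cases hd : (n : ℤ) ∣ m
    · obtain ⟨a, rfl⟩ := hd
      rw [qExpand_coeff_mul]
      refine ofPowerSeries_coeff_of_neg _ ?_
      by_contra h
      push Not at h
      have : (0 : ℤ) ≤ (n : ℤ) * a := mul_nonneg (Int.natCast_nonneg n) h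
      omega
    · exact qExpand_coeff_of_not_dvd n _ hd
  · lift m to ℕ using hm
    rw [HahnSeries.ofPowerSeries_apply_coeff, PowerSeries.coeff_expand]
    split_ifs with hd
    · obtain ⟨a, rfl⟩ := hd
      rw [Nat.mul_div_cancel_left a (Nat.pos_of_ne_zero (NeZero.ne n))]
      have := qExpand_coeff_mul (R := R) n (HahnSeries.ofPowerSeries ℤ R p) (a : ℤ)
      rw [HahnSeries.ofPowerSeries_apply_coeff] at this
      rw [← this]
      push_cast
      rfl
    · refine qExpand_coeff_of_not_dvd n _ ?_
      rwa [Int.natCast_dvd_natCast]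

/-- In characteristic `ℓ`, the `ℓ`-th power of a power series. -/
theorem powerSeries_pow_char (p : PowerSeries k) :
    p ^ ℓ = PowerSeries.expand ℓ (ell_ne_zero ℓ) (p.map (frobenius k ℓ)) := by
  have : ExpChar k ℓ := ExpChar.prime (Fact.out : ℓ.Prime)
  have h : PowerSeries.map (frobenius k ℓ) (PowerSeries.expand ℓ (ell_ne_zero ℓ) p) = p ^ ℓ :=
    MvPowerSeries.map_frobenius_expand (σ := Unit) (R := k) ℓ (ell_ne_zero ℓ) (f := p)
  rw [← h, PowerSeries.map_expand]

/-- In characteristic `ℓ`: `x ^ ℓ = (φ x)(q ^ ℓ)`. -/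
theorem pow_char_eq (x : LaurentSeries k) :
    x ^ ℓ = qExpand k ℓ (coeffMap (frobenius k ℓ) x) := by
  conv_lhs => rw [← LaurentSeries.single_order_mul_powerSeriesPart x]
  conv_rhs => rw [← LaurentSeries.single_order_mul_powerSeriesPart x]
  have h1 : (HahnSeries.single x.order (1 : k)) ^ ℓ
      = qExpand k ℓ (coeffMap (frobenius k ℓ) (HahnSeries.single x.order (1 : k))) := by
    rw [HahnSeries.single_pow, one_pow, coeffMap_single, qExpand_single, nsmul_eq_mul,
      RingHom.map_one]
  have h2 : (HahnSeries.ofPowerSeries ℤ k x.powerSeriesPart) ^ ℓ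
      = qExpand k ℓ (coeffMap (frobenius k ℓ) (HahnSeries.ofPowerSeries ℤ k x.powerSeriesPart)) := by
    rw [coeffMap_ofPowerSeries, qExpand_ofPowerSeries, ← map_pow, powerSeries_pow_char]
  rw [mul_pow, map_mul, map_mul, h1, h2]

end Frobenius

section Kronecker

variable {A k : Type*} [CommRing A] [CommRing k] [IsDomain k]
variable (ℓ : ℕ) [Fact ℓ.Prime] [CharP k ℓ]

/-- A root of unity of order `ℓ` is `1` in a domain of characteristic `ℓ`. -/
theorem eq_one_of_pow_char_eq_one {x : k} (hx : x ^ ℓ = 1) : x = 1 := by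
  have h : (x - 1) ^ ℓ = 0 := by
    rw [sub_pow_char, hx, one_pow, sub_self]
  exact sub_eq_zero.1 (pow_eq_zero_iff (ell_ne_zero ℓ) |>.1 h)

/-- **Kronecker's congruence**, `q`-expansion form. -/
theorem kronecker (π : A →+* k) (ζ : Aˣ) (hζ : ζ ^ ℓ = 1) (y : LaurentSeries A) (c : A) :
    coeffMap π ((HahnSeries.C c - qExpand A ℓ (qExpand A ℓ y)) *
        ∏ b ∈ Finset.range ℓ, (HahnSeries.C c - rot (ζ ^ b) y))
      = qExpand k ℓ ((HahnSeries.C (π c) - qExpand k ℓ (coeffMap π y)) *
          (HahnSeries.C (π c ^ ℓ) - coeffMap (frobenius k ℓ) (coeffMap π y))) := by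
  have hone : ∀ b : ℕ, Units.map (π : A →* k) (ζ ^ b) = 1 := by
    intro b
    have h1 : ((Units.map (π : A →* k) ζ : kˣ) : k) ^ ℓ = 1 := by
      rw [← Units.val_pow_eq_pow_val, ← map_pow, hζ, map_one, Units.val_one]
    have h2 : Units.map (π : A →* k) ζ = 1 := Units.ext (eq_one_of_pow_char_eq_one ℓ h1)
    rw [map_pow, h2, one_pow]
  have hC : ∀ a : A, coeffMap π (HahnSeries.C a) = HahnSeries.C (π a) := fun a =>
    coeffMap_single π 0 a
  have hq : ∀ (n : ℕ) [NeZero n] (x : LaurentSeries A),
      coeffMap π (qExpand A n x) = qExpand k n (coeffMap π x) := by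
    intro n _ x
    ext m
    by_cases hm : (n : ℤ) ∣ m
    · obtain ⟨a, rfl⟩ := hm
      rw [coeffMap_coeff, qExpand_coeff_mul, qExpand_coeff_mul, coeffMap_coeff]
    · rw [coeffMap_coeff, qExpand_coeff_of_not_dvd n _ hm, qExpand_coeff_of_not_dvd n _ hm,
        map_zero]
  rw [map_mul, map_sub, hC, hq, hq, map_prod]
  have hprod : ∏ b ∈ Finset.range ℓ, coeffMap π (HahnSeries.C c - rot (ζ ^ b) y)
      = (HahnSeries.C (π c) - coeffMap π y) ^ ℓ := by
    rw [Finset.prod_congr rfl (g := fun _ => HahnSeries.C (π c) - coeffMap π y)]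
    · rw [Finset.prod_const, Finset.card_range]
    · intro b _
      rw [map_sub, hC, coeffMap_rot, hone, rot_one]
  have hCk : coeffMap (frobenius k ℓ) (HahnSeries.C (π c)) = HahnSeries.C (π c ^ ℓ) :=
    coeffMap_single (frobenius k ℓ) 0 (π c)
  rw [hprod, pow_char_eq ℓ, map_mul (qExpand k ℓ), map_sub (qExpand k ℓ), qExpand_C,
    map_sub (coeffMap (frobenius k ℓ)), hCk]

variable {K : Type*} [CommRing K]

/-- **Kronecker's congruence for the norm**: if `n(q^ℓ) = (c - y(q^(ℓ²))) ∏_b (c - y(ζ^b q))`
with `y ∈ A((q))`, `c ∈ A`, then `n` has coefficients in `A` and reduces to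
`(c~ - y~(q^ℓ)) (c~^ℓ - φ y~)`. -/
theorem kronecker_norm (ι : A →+* K) (hι : Function.Injective ι) (π : A →+* k) (ζ : Aˣ)
    (hζ : ζ ^ ℓ = 1) (y : LaurentSeries A) (c : A) (n : LaurentSeries K)
    (hn : qExpand K ℓ n = (HahnSeries.C (ι c) - qExpand K ℓ (qExpand K ℓ (coeffMap ι y))) *
        ∏ b ∈ Finset.range ℓ,
          (HahnSeries.C (ι c) - rot (Units.map (ι : A →* K) ζ ^ b) (coeffMap ι y))) :
    ∃ z : LaurentSeries A, coeffMap ι z = n ∧
      coeffMap π z = (HahnSeries.C (π c) - qExpand k ℓ (coeffMap π y)) *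
          (HahnSeries.C (π c ^ ℓ) - coeffMap (frobenius k ℓ) (coeffMap π y)) := by
  set Z : LaurentSeries A := (HahnSeries.C c - qExpand A ℓ (qExpand A ℓ y)) *
        ∏ b ∈ Finset.range ℓ, (HahnSeries.C c - rot (ζ ^ b) y) with hZ
  have hC : ∀ a : A, coeffMap ι (HahnSeries.C a) = HahnSeries.C (ι a) := fun a =>
    coeffMap_single ι 0 a
  have hq : ∀ (m : ℕ) [NeZero m] (x : LaurentSeries A),
      coeffMap ι (qExpand A m x) = qExpand K m (coeffMap ι x) := by
    intro m _ x
    ext j
    by_cases hm : (m : ℤ) ∣ j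
    · obtain ⟨a, rfl⟩ := hm
      rw [coeffMap_coeff, qExpand_coeff_mul, qExpand_coeff_mul, coeffMap_coeff]
    · rw [coeffMap_coeff, qExpand_coeff_of_not_dvd m _ hm, qExpand_coeff_of_not_dvd m _ hm,
        map_zero]
  have hιZ : coeffMap ι Z = qExpand K ℓ n := by
    rw [hn, hZ, map_mul, map_sub, hC, hq, hq, map_prod]
    congr 1
    refine Finset.prod_congr rfl fun b _ => ?_
    rw [map_sub, hC, coeffMap_rot, map_pow]
  -- the coefficients of `Z` vanish outside the multiples of `ℓ`
  have hZ0 : ∀ j : ℤ, ¬ (ℓ : ℤ) ∣ j → Z.coeff j = 0 := by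
    intro j hj
    apply hι
    rw [map_zero, ← coeffMap_coeff, hιZ, qExpand_coeff_of_not_dvd ℓ _ hj]
  -- contract
  let z : LaurentSeries A := HahnSeries.ofSuppBddBelow (fun m : ℤ => Z.coeff ((ℓ : ℤ) * m)) (by
    refine ⟨min Z.order 0, fun m hm => ?_⟩
    by_contra h
    push Not at h
    apply hm
    show Z.coeff ((ℓ : ℤ) * m) = 0
    apply HahnSeries.coeff_eq_zero_of_lt_order
    have h1 : m < Z.order := lt_of_lt_of_le h (min_le_left _ _)
    have h2 : m < 0 := lt_of_lt_of_le h (min_le_right _ _)
    have hℓ : (1 : ℤ) ≤ (ℓ : ℤ) := by exact_mod_cast (Fact.out : ℓ.Prime).one_le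
    nlinarith)
  have hzc : ∀ m : ℤ, z.coeff m = Z.coeff ((ℓ : ℤ) * m) := fun _ => rfl
  have hzZ : qExpand A ℓ z = Z := by
    ext j
    by_cases hj : (ℓ : ℤ) ∣ j
    · obtain ⟨m, rfl⟩ := hj
      rw [qExpand_coeff_mul, hzc]
    · rw [qExpand_coeff_of_not_dvd ℓ _ hj, hZ0 j hj]
  refine ⟨z, ?_, ?_⟩
  · apply qExpand_injective (R := K) ℓ
    rw [← hq, hzZ, hιZ]
  · apply qExpand_injective (R := k) ℓ
    have hqk : coeffMap π (qExpand A ℓ z) = qExpand k ℓ (coeffMap π z) := by
      ext j
      by_cases hm : (ℓ : ℤ) ∣ j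
      · obtain ⟨a, rfl⟩ := hm
        rw [coeffMap_coeff, qExpand_coeff_mul, qExpand_coeff_mul, coeffMap_coeff]
      · rw [coeffMap_coeff, qExpand_coeff_of_not_dvd ℓ _ hm, qExpand_coeff_of_not_dvd ℓ _ hm,
          map_zero]
    rw [← hqk, hzZ, hZ, kronecker ℓ π ζ hζ y c]

end Kronecker

end Fermat.Agent.RED.H10

end
end
-- ==== END Fermat.Agent.RED.H10_Kronecker

-- ==== BEGIN Fermat.Agent.RED.H12_Zero
section

set_option autoImplicit false

namespace Fermat.Agent.RED.H12

open Polynomial IntermediateField AlgebraicCurve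

variable {K F : Type*} [Field K] [Field F] [Algebra K F]

section Val

variable (B : ValuationSubring F)

lemma val_algebraMap (hK : ∀ a : K, algebraMap K F a ∈ B) {a : K} (ha : a ≠ 0) :
    B.valuation (algebraMap K F a) = 1 := by
  have h1 : B.valuation (algebraMap K F a) ≤ 1 := (B.valuation_le_one_iff _).mpr (hK a)
  have h2 : B.valuation (algebraMap K F a⁻¹) ≤ 1 := (B.valuation_le_one_iff _).mpr (hK a⁻¹)
  have h3 : B.valuation (algebraMap K F a) * B.valuation (algebraMap K F a⁻¹) = 1 := by
    rw [← map_mul, ← map_mul, mul_inv_cancel₀ ha, map_one, map_one]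
  by_contra hne
  have hlt : B.valuation (algebraMap K F a) < 1 := lt_of_le_of_ne h1 hne
  have : B.valuation (algebraMap K F a) * B.valuation (algebraMap K F a⁻¹) < 1 :=
    mul_lt_one_of_lt_of_le hlt h2
  rw [h3] at this
  exact lt_irrefl _ this

lemma aeval_mem (hK : ∀ a : K, algebraMap K F a ∈ B) {t : F} (ht : t ∈ B) (p : K[X]) :
    aeval t p ∈ B := by
  induction p using Polynomial.induction_on' with
  | add p q hp hq => rw [map_add]; exact B.add_mem _ _ hp hq
  | monomial n a =>
    rw [aeval_monomial]
    exact B.mul_mem _ _ (hK a) (B.pow_mem ht n)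

lemma val_aeval_eq_one (hK : ∀ a : K, algebraMap K F a ∈ B) {t : F} (ht : B.valuation t < 1)
    (q : K[X]) (hq : q.coeff 0 ≠ 0) : B.valuation (aeval t q) = 1 := by
  have htB : t ∈ B := (B.valuation_le_one_iff _).mp ht.le
  have e : aeval t q = aeval t q.divX * t + algebraMap K F (q.coeff 0) := by
    conv_lhs => rw [← Polynomial.divX_mul_X_add q]
    simp
  rw [e]
  have h1 : B.valuation (aeval t q.divX * t) < 1 := by
    rw [map_mul]
    calc B.valuation (aeval t q.divX) * B.valuation t
        ≤ 1 * B.valuation t :=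
          mul_le_mul_left ((B.valuation_le_one_iff _).mpr (aeval_mem B hK htB _)) _
      _ = B.valuation t := one_mul _
      _ < 1 := ht
  have h2 := val_algebraMap B hK hq
  rw [← h2] at h1
  rw [Valuation.map_add_eq_of_lt_right _ h1, h2]

lemma val_aeval (hK : ∀ a : K, algebraMap K F a ∈ B) {t : F} (ht : B.valuation t < 1)
    (p : K[X]) (hp : p ≠ 0) :
    B.valuation (aeval t p) = B.valuation t ^ (p.rootMultiplicity 0) := by
  obtain ⟨q, hpq, hq⟩ := Polynomial.exists_eq_pow_rootMultiplicity_mul_and_not_dvd p hp 0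
  rw [map_zero, sub_zero] at hpq hq
  have hq0 : q.coeff 0 ≠ 0 := fun h => hq (Polynomial.X_dvd_iff.mpr h)
  conv_lhs => rw [hpq]
  rw [map_mul, map_pow, aeval_X, map_mul, map_pow, val_aeval_eq_one B hK ht q hq0, mul_one]

end Val

/-- A finite sum of terms with pairwise distinct valuations (among the nonzero ones), not all
zero, is nonzero. -/
lemma sum_ne_zero_of_val_injOn {Γ : Type*} [LinearOrderedCommGroupWithZero Γ]
    (v : Valuation F Γ) {ι : Type*} (s : Finset ι) (f : ι → F)
    (hne : ∃ i ∈ s, f i ≠ 0)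
    (hinj : ∀ i ∈ s, ∀ j ∈ s, f i ≠ 0 → f j ≠ 0 → v (f i) = v (f j) → i = j) :
    ∑ i ∈ s, f i ≠ 0 := by
  classical
  obtain ⟨i₀, hi₀, hfi₀⟩ := hne
  obtain ⟨j, hj, hmax⟩ := Finset.exists_max_image s (fun i => v (f i)) ⟨i₀, hi₀⟩
  have hfj : f j ≠ 0 := by
    intro h
    have := hmax i₀ hi₀
    rw [h, map_zero] at this
    exact hfi₀ ((Valuation.zero_iff v).mp (le_antisymm this zero_le))
  have hvj : v (f j) ≠ 0 := (Valuation.ne_zero_iff v).mpr hfj
  have hlt : ∀ i ∈ s.erase j, v (f i) < v (f j) := by
    intro i hi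
    have hij : i ≠ j := Finset.ne_of_mem_erase hi
    have his : i ∈ s := Finset.mem_of_mem_erase hi
    by_cases hfi : f i = 0
    · rw [hfi, map_zero]; exact zero_lt_iff.mpr hvj
    · exact lt_of_le_of_ne (hmax i his) (fun h => hij (hinj i his j hj hfi hfj h))
  have hsum : v (∑ i ∈ s.erase j, f i) < v (f j) := Valuation.map_sum_lt v hvj hlt
  rw [← Finset.add_sum_erase s f hj]
  intro h0
  have := Valuation.map_add_eq_of_lt_left v hsum
  rw [h0, map_zero] at this
  exact hvj this.symm


section Order

variable {Γ : Type*} [LinearOrderedCommGroupWithZero Γ]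

lemma pow_lt_one_of_lt {a : Γ} (ha : a < 1) {n : ℕ} (hn : n ≠ 0) : a ^ n < 1 :=
  pow_lt_one₀ zero_le ha hn

lemma pow_mul_lt_aux {a b c : Γ} (ha0 : a ≠ 0) (ha : a < 1) (hb : a ≤ b) (hc : c < 1)
    {k l : ℕ} (hkl : k < l) : a ^ k * b ≠ a ^ l * c := by
  intro h
  obtain ⟨d, rfl⟩ := Nat.exists_eq_add_of_lt hkl
  have h1 : a ^ (k + d + 1) = a ^ k * (a ^ d * a) := by
    rw [pow_succ, pow_add, mul_assoc]
  rw [h1, mul_assoc] at h
  have h2 : b = a ^ d * a * c := mul_left_cancel₀ (pow_ne_zero k ha0) h
  have h3 : a ^ d ≤ 1 := pow_le_one₀ zero_le ha.le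
  have h4 : a ^ d * a * c ≤ a * c := by
    calc a ^ d * a * c = a ^ d * (a * c) := mul_assoc _ _ _
      _ ≤ 1 * (a * c) := mul_le_mul_left h3 _
      _ = a * c := one_mul _
  have h5 : a * c < a := by
    calc a * c < a * 1 := by
          rcases eq_or_ne c 0 with rfl | hc0
          · rw [mul_zero, mul_one]; exact zero_lt_iff.mpr ha0
          · exact mul_lt_mul_of_pos_left hc (zero_lt_iff.mpr ha0)
      _ = a := mul_one a
  have : b < a := h2 ▸ lt_of_le_of_lt h4 h5
  exact absurd hb (not_le.mpr this)

lemma pow_mul_inj {a b c : Γ} (ha0 : a ≠ 0) (ha : a < 1) (hb : a ≤ b) (hb1 : b < 1)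
    (hc : a ≤ c) (hc1 : c < 1) {k l : ℕ} (h : a ^ k * b = a ^ l * c) : b = c := by
  rcases lt_trichotomy k l with hkl | hkl | hkl
  · exact absurd h (pow_mul_lt_aux ha0 ha hb hc1 hkl)
  · subst hkl
    exact mul_left_cancel₀ (pow_ne_zero k ha0) h
  · exact absurd h.symm (pow_mul_lt_aux ha0 ha hc hb1 hkl)

end Order

section LinIndep

open scoped IntermediateField.algebraAdjoinAdjoin

variable (B : ValuationSubring F)

lemma exists_val_eq_pow (hK : ∀ a : K, algebraMap K F a ∈ B) {t : F} (ht : B.valuation t < 1)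
    (g : Algebra.adjoin K {t}) (hg : g ≠ 0) :
    ∃ k : ℕ, B.valuation (g : F) = B.valuation t ^ k := by
  have hmem : (g : F) ∈ (aeval (R := K) t).range := by
    rw [← Algebra.adjoin_singleton_eq_range_aeval]; exact g.2
  obtain ⟨p, hp⟩ := hmem
  have hp0 : p ≠ 0 := by
    rintro rfl
    apply hg
    apply Subtype.ext
    rw [← hp]; simp
  exact ⟨p.rootMultiplicity 0, by rw [← hp]; exact val_aeval B hK ht p hp0⟩

lemma linearIndependent_of_val (hK : ∀ a : K, algebraMap K F a ∈ B) {t : F} (ht0 : t ≠ 0)
    (ht : B.valuation t < 1) {ι : Type*} (y : ι → F)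
    (hy1 : ∀ i, B.valuation t ≤ B.valuation (y i)) (hy2 : ∀ i, B.valuation (y i) < 1)
    (hinj : Function.Injective (fun i => B.valuation (y i))) :
    LinearIndependent K⟮t⟯ y := by
  rw [← LinearIndependent.iff_fractionRing (Algebra.adjoin K {t}) K⟮t⟯]
  rw [linearIndependent_iff']
  intro s g hsum i hi
  by_contra hgi
  have hvt0 : B.valuation t ≠ 0 := (Valuation.ne_zero_iff _).mpr ht0
  have hy0 : ∀ j, y j ≠ 0 := fun j h => by
    have := hy1 j
    rw [h, map_zero] at this
    exact hvt0 (le_antisymm this zero_le)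
  have hsmul : ∀ j, g j • y j = (g j : F) * y j := fun j => rfl
  have hne0 : ∀ j, g j • y j ≠ 0 ↔ g j ≠ 0 := by
    intro j
    rw [hsmul]
    constructor
    · intro h h0
      apply h
      rw [h0]; simp
    · intro h
      refine mul_ne_zero ?_ (hy0 j)
      exact fun h0 => h (Subtype.ext h0)
  refine sum_ne_zero_of_val_injOn B.valuation s (fun j => g j • y j)
    ⟨i, hi, (hne0 i).mpr hgi⟩ ?_ hsum
  intro j _ l _ hj hl hjl
  obtain ⟨k, hk⟩ := exists_val_eq_pow B hK ht (g j) ((hne0 j).mp hj)
  obtain ⟨m, hm⟩ := exists_val_eq_pow B hK ht (g l) ((hne0 l).mp hl)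
  simp only [hsmul, map_mul, hk, hm] at hjl
  exact hinj (pow_mul_inj hvt0 ht (hy1 j) (hy2 j) (hy1 l) (hy2 l) hjl)

end LinIndep


section Finite

variable (B : ValuationSubring F)

/-- The values in `[v t, 1)`. -/
def valSet (t : F) : Set B.ValueGroup :=
  {γ | ∃ y : F, B.valuation y = γ ∧ B.valuation t ≤ γ ∧ γ < 1}

lemma valSet_finite (hK : ∀ a : K, algebraMap K F a ∈ B) {t : F} (ht0 : t ≠ 0)
    (ht : B.valuation t < 1) [FiniteDimensional K⟮t⟯ F] : (valSet B t).Finite := by
  classical
  by_contra hinf
  have hinf' : (valSet B t).Infinite := hinf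
  obtain ⟨T, hT, hcard⟩ := hinf'.exists_subset_card_eq (Module.finrank K⟮t⟯ F + 1)
  have hch : ∀ γ : T, ∃ y : F, B.valuation y = γ ∧ B.valuation t ≤ γ ∧ (γ : B.ValueGroup) < 1 :=
    fun γ => hT γ.2
  choose y hy using hch
  have hli : LinearIndependent K⟮t⟯ y := by
    apply linearIndependent_of_val B hK ht0 ht y
    · intro i; rw [(hy i).1]; exact (hy i).2.1
    · intro i; rw [(hy i).1]; exact (hy i).2.2
    · intro i j hij
      simp only [(hy i).1, (hy j).1] at hij
      exact Subtype.ext hij
  have := hli.fintype_card_le_finrank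
  rw [Fintype.card_coe, hcard] at this
  omega

end Finite


section DVR

variable (B : ValuationSubring F)

/-- Nonzero nonunits of a valuation ring containing the algebraically closed field `K` are
transcendental over `K`. -/
lemma transcendental_of_val_lt_one [IsAlgClosed K] (hK : ∀ a : K, algebraMap K F a ∈ B)
    {y : F} (hy0 : y ≠ 0) (hy : B.valuation y < 1) : Transcendental K y := by
  intro halg
  have hint : IsIntegral K y := halg.isIntegral
  have hdeg : (minpoly K y).degree = 1 :=
    IsAlgClosed.degree_eq_one_of_irreducible K (minpoly.irreducible hint)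
  obtain ⟨a, ha⟩ := minpoly.mem_range_of_degree_eq_one K y hdeg
  have ha0 : a ≠ 0 := by
    rintro rfl
    exact hy0 (by rw [← ha, map_zero])
  have := val_algebraMap B hK ha0
  rw [ha] at this
  exact absurd this (ne_of_lt hy)

theorem exists_generator [IsAlgClosed K] (hK : ∀ a : K, algebraMap K F a ∈ B)
    (hfin : ∀ y : F, Transcendental K y → FiniteDimensional K⟮y⟯ F)
    {x : F} (hx0 : x ≠ 0) (hx : B.valuation x < 1) :
    ∃ π : F, B.valuation π < 1 ∧ π ≠ 0 ∧
      (∀ y, B.valuation y < 1 → B.valuation y ≤ B.valuation π) ∧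
      ∀ y, y ≠ 0 → B.valuation y ≤ 1 → ∃ n : ℕ, B.valuation y = B.valuation π ^ n := by
  have := hfin x (transcendental_of_val_lt_one B hK hx0 hx)
  have hV := valSet_finite B hK hx0 hx
  have hne : (valSet B x).Nonempty := ⟨B.valuation x, x, rfl, le_rfl, hx⟩
  obtain ⟨γ, hγmem, hγmax⟩ := Set.exists_max_image (valSet B x) id hV hne
  obtain ⟨π, hπv, hπ1, hπ2⟩ := hγmem
  have hvx0 : B.valuation x ≠ 0 := (Valuation.ne_zero_iff _).mpr hx0
  have hγ0 : γ ≠ 0 := fun h => hvx0 (le_antisymm (h ▸ hπ1) zero_le)
  have hπ0 : π ≠ 0 := (Valuation.ne_zero_iff _).mp (hπv ▸ hγ0)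
  have hγpos : 0 < γ := zero_lt_iff.mpr hγ0
  have E1 : ∀ y, B.valuation y < 1 → B.valuation y ≤ γ := by
    intro y hy
    by_contra h
    rw [not_le] at h
    have hm : B.valuation y ∈ valSet B x := ⟨y, rfl, le_trans hπ1 h.le, hy⟩
    exact absurd (hγmax _ hm) (not_le.mpr h)
  refine ⟨π, hπv ▸ hπ2, hπ0, fun y hy => hπv ▸ E1 y hy, ?_⟩
  intro y hy0 hy1
  rw [hπv]
  rcases eq_or_lt_of_le hy1 with h1 | hlt
  · exact ⟨0, by rw [h1, pow_zero]⟩
  have := hfin y (transcendental_of_val_lt_one B hK hy0 hlt)
  have hVy := valSet_finite B hK hy0 hlt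
  have hex : ∃ n : ℕ, γ ^ n ≤ B.valuation y := by
    by_contra hno
    push Not at hno
    have hinj : Function.Injective (fun n : ℕ => γ ^ (n + 1)) := by
      intro a b hab
      have := (pow_right_strictAnti₀ hγpos hπ2).injective hab
      omega
    have hmem : ∀ n : ℕ, (fun n : ℕ => γ ^ (n + 1)) n ∈ valSet B y := by
      intro n
      refine ⟨π ^ (n + 1), by rw [map_pow, hπv], (hno (n + 1)).le, ?_⟩
      exact pow_lt_one₀ zero_le hπ2 (Nat.succ_ne_zero n)
    exact (Set.infinite_of_injective_forall_mem hinj hmem) hVy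
  classical
  have hspec := Nat.find_spec hex
  have hmin := fun m (hm : m < Nat.find hex) => Nat.find_min hex hm
  rcases hn : Nat.find hex with _ | m
  · rw [hn, pow_zero] at hspec
    exact absurd hlt (not_lt.mpr hspec)
  · rw [hn] at hspec
    have hm : ¬ γ ^ m ≤ B.valuation y := hmin m (by rw [hn]; exact Nat.lt_succ_self m)
    rw [not_le] at hm
    have hγm : 0 < γ ^ m := pow_pos hγpos m
    have hz : B.valuation (y / π ^ m) < 1 := by
      rw [map_div₀, map_pow, hπv]
      exact (div_lt_one₀ hγm).mpr hm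
    have hz2 := E1 _ hz
    rw [map_div₀, map_pow, hπv, div_le_iff₀ hγm] at hz2
    refine ⟨m + 1, le_antisymm ?_ hspec⟩
    rw [pow_succ, mul_comm]
    exact hz2

theorem hasUnitMulPowIrreducibleFactorization [IsAlgClosed K]
    (hK : ∀ a : K, algebraMap K F a ∈ B)
    (hfin : ∀ y : F, Transcendental K y → FiniteDimensional K⟮y⟯ F)
    {x : F} (hx0 : x ≠ 0) (hx : B.valuation x < 1) :
    IsDiscreteValuationRing.HasUnitMulPowIrreducibleFactorization B := by
  obtain ⟨π, hπ1, hπ0, hmax, hpow⟩ := exists_generator B hK hfin hx0 hx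
  have hπB : π ∈ B := (B.valuation_le_one_iff π).mp hπ1.le
  have hγpos : 0 < B.valuation π := zero_lt_iff.mpr ((Valuation.ne_zero_iff _).mpr hπ0)
  refine ⟨⟨π, hπB⟩, ?_, ?_⟩
  · rw [irreducible_iff]
    refine ⟨fun hu => ?_, fun a b hab => ?_⟩
    · have := (B.valuation_eq_one_iff ⟨π, hπB⟩).mp hu
      exact absurd this (ne_of_lt hπ1)
    · by_contra hno
      push Not at hno
      have ha : B.valuation (a : F) < 1 :=
        (B.valuation_lt_one_or_eq_one a).resolve_right
          (fun h => hno.1 ((B.valuation_eq_one_iff a).mpr h))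
      have hb : B.valuation (b : F) < 1 :=
        (B.valuation_lt_one_or_eq_one b).resolve_right
          (fun h => hno.2 ((B.valuation_eq_one_iff b).mpr h))
      have hπab : π = (a : F) * (b : F) := congrArg Subtype.val hab
      have h1 : B.valuation π ≤ B.valuation π * B.valuation π := by
        conv_lhs => rw [hπab, map_mul]
        exact mul_le_mul' (hmax _ ha) (hmax _ hb)
      have h2 : B.valuation π * B.valuation π < B.valuation π := by
        calc B.valuation π * B.valuation π < B.valuation π * 1 :=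
              mul_lt_mul_of_pos_left hπ1 hγpos
          _ = B.valuation π := mul_one _
      exact absurd h1 (not_le.mpr h2)
  · intro y hy
    have hyF : (y : F) ≠ 0 := fun h => hy (Subtype.ext h)
    obtain ⟨n, hn⟩ := hpow (y : F) hyF (B.valuation_le_one y)
    refine ⟨n, associated_of_dvd_dvd ?_ ?_⟩
    · have h1 : B.valuation (y : F) ≤ B.valuation (π ^ n) := by rw [map_pow, hn]
      obtain ⟨a, ha⟩ := (B.valuation_le_iff _ _).mp h1
      exact ⟨a, Subtype.ext (by rw [mul_comm]; exact ha.symm)⟩
    · have h1 : B.valuation (π ^ n) ≤ B.valuation (y : F) := by rw [map_pow, hn]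
      obtain ⟨a, ha⟩ := (B.valuation_le_iff _ _).mp h1
      exact ⟨a, Subtype.ext (by rw [mul_comm]; exact ha.symm)⟩

end DVR


section Exists

/-- A valuation subring of `F` containing `K` in which the transcendental element `x` is a
nonunit. -/
theorem exists_valuationSubring (x : F) (hx : Transcendental K x) :
    ∃ B : ValuationSubring F, (∀ a : K, algebraMap K F a ∈ B) ∧ B.valuation x < 1 := by
  let A : Subring F := (Algebra.adjoin K {x}).toSubring
  have hxA : x ∈ A := Algebra.self_mem_adjoin_singleton K x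
  have hI : Ideal.span {(⟨x, hxA⟩ : A)} ≠ ⊤ := by
    intro htop
    rw [Ideal.span_singleton_eq_top] at htop
    obtain ⟨g, hg⟩ := htop.exists_right_inv
    have hgm : (g : F) ∈ (aeval (R := K) x).range := by
      rw [← Algebra.adjoin_singleton_eq_range_aeval]; exact g.2
    obtain ⟨p, hp⟩ := hgm
    have h1 : x * (g : F) = 1 := congrArg Subtype.val hg
    have hp' : aeval x p = (g : F) := hp
    have h2 : aeval x (X * p - 1 : K[X]) = 0 := by
      rw [map_sub, map_mul, aeval_X, hp', h1, map_one, sub_self]
    have h3 := (transcendental_iff.mp hx) _ h2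
    have h4 := congrArg (fun q : K[X] => q.coeff 0) h3
    simp at h4
  obtain ⟨B, hAB, hIB⟩ := Ideal.image_subset_nonunits_valuationSubring _ hI
  refine ⟨B, fun a => hAB (Subalgebra.algebraMap_mem (Algebra.adjoin K {x}) a), ?_⟩
  rw [← ValuationSubring.mem_nonunits_iff]
  exact hIB ⟨⟨x, hxA⟩, Ideal.subset_span rfl, rfl⟩

theorem ord_pos_of_val_lt_one (v : Place K F) {f : F} (hf : f ≠ 0)
    (h : v.toValuationSubring.valuation f < 1) : 0 < v.ord f := by
  have hfB : f ∈ v.toValuationSubring := (v.toValuationSubring.valuation_le_one_iff f).mp h.le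
  have hm : (⟨f, hfB⟩ : v.toValuationSubring) ∈ IsLocalRing.maximalIdeal v.toValuationSubring :=
    (v.toValuationSubring.valuation_lt_one_iff ⟨f, hfB⟩).mpr h
  have h1 : v.adicValuation f < 1 := by
    have := v.adicValuation_coe ⟨f, hfB⟩
    rw [show ((⟨f, hfB⟩ : v.toValuationSubring) : F) = f from rfl] at this
    rw [this]
    exact (IsDedekindDomain.HeightOneSpectrum.intValuation_lt_one_iff_mem _ _).mpr hm
  have h2 : WithZero.log (v.adicValuation f) < 0 := by
    rw [← WithZero.log_one]
    exact (WithZero.log_lt_log (v.adicValuation_ne_zero hf) one_ne_zero).mpr h1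
  simp only [Place.ord]
  omega

/-- **Existence of zeros** (Stichtenoth 1.1.6 + 1.1.19): in a function field over an
algebraically closed field, every transcendental element has a zero. -/
theorem exists_place_ord_pos [IsAlgClosed K]
    (hfin : ∀ y : F, Transcendental K y → FiniteDimensional K⟮y⟯ F)
    (x : F) (hx : Transcendental K x) : ∃ v : Place K F, 0 < v.ord x := by
  obtain ⟨B, hK, hxv⟩ := exists_valuationSubring x hx
  have hx0 : x ≠ 0 := fun h => hx (h ▸ isAlgebraic_zero)
  have hfact := hasUnitMulPowIrreducibleFactorization B hK hfin hx0 hxv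
  have hdvr : IsDiscreteValuationRing B :=
    IsDiscreteValuationRing.ofHasUnitMulPowIrreducibleFactorization hfact
  have hne : B ≠ ⊤ := by
    rintro rfl
    have h1 : (⊤ : ValuationSubring F).valuation x⁻¹ ≤ 1 :=
      (ValuationSubring.valuation_le_one_iff _ _).mpr (ValuationSubring.mem_top _)
    rw [map_inv₀] at h1
    have h2 : 1 < ((⊤ : ValuationSubring F).valuation x)⁻¹ :=
      (one_lt_inv₀ (zero_lt_iff.mpr ((Valuation.ne_zero_iff _).mpr hx0))).mpr hxv
    exact absurd h1 (not_le.mpr h2)
  let v : Place K F := ⟨B, hK, hne, inferInstance⟩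
  exact ⟨v, ord_pos_of_val_lt_one v hx0 hxv⟩

end Exists

end Fermat.Agent.RED.H12

end
-- ==== END Fermat.Agent.RED.H12_Zero

-- ==== BEGIN Fermat.Agent.RED.H34_IGCore
section

/-!
# IG-core (helper34): a discriminant criterion for an order to be the full integral closure

Pure commutative algebra, no modular input.

* `H34.pow_card_dvd_det_of_cols` : if the columns `j ∈ J` of a square matrix are divisible by `π`,
  then `π ^ #J ∣ det`.
* `H34.pow_dvd_det_of_subspace` : if the reduction of `M` modulo a prime `π` kills a subspace of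
  dimension `≥ s`, then `π ^ s ∣ det M`.
* `H34.dvd_trace_of_pow_mem` : trace of an element nilpotent mod `π` is divisible by `π`.
* `H34.pow_dvd_discr_of_linearMap` : `π ^ (n - r) ∣ disc` if `B/rad(πB)` has dimension `≤ r`.
* `H34.span_eq_of_discr_bound` : the criterion (IG-core).
* `H34.span_eq_of_discr_bound_order` : the criterion with functionals on the order only.
-/

namespace Fermat.Agent.RED.H34

open Matrix Module

section MatrixLemmas

variable {R : Type*} [CommRing R] {ι : Type*} [Fintype ι] [DecidableEq ι]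

/-- If all columns `j ∈ J` of `A` are divisible by `π`, then `π ^ #J ∣ det A`. -/
theorem pow_card_dvd_det_of_cols (π : R) (A : Matrix ι ι R) (J : Finset ι)
    (h : ∀ i, ∀ j ∈ J, π ∣ A i j) : π ^ J.card ∣ A.det := by
  classical
  choose! q hq using h
  let A' : Matrix ι ι R := Matrix.of fun i j => if j ∈ J then q i j else A i j
  let v : ι → R := fun j => if j ∈ J then π else 1
  have hA : A = Matrix.of fun i j => v j * A' i j := by
    ext i j
    by_cases hj : j ∈ J
    · simp [v, A', hj, hq i j hj]
    · simp [v, A', hj]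
  have hv : ∏ j, v j = π ^ J.card := by
    simp only [v]
    rw [Finset.prod_ite, Finset.prod_const, Finset.prod_const_one, mul_one]
    congr 1
    congr 1
    ext j
    simp
  rw [hA, Matrix.det_mul_row, hv]
  exact Dvd.intro _ rfl

end MatrixLemmas

section MatrixLemmas2

variable {R : Type*} [CommRing R] [IsDomain R] {ι : Type*} [Fintype ι] [DecidableEq ι]

/-- If the reduction of `M` modulo the prime `π` kills a subspace `N` of dimension `≥ s`,
then `π ^ s ∣ det M`. -/
theorem pow_dvd_det_of_subspace {κ : Type*} [Field κ] (φ : R →+* κ)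
    (hφ : Function.Surjective φ) (π : R) (hπ : Prime π) (hker : ∀ x, φ x = 0 ↔ π ∣ x)
    (M : Matrix ι ι R) (N : Submodule κ (ι → κ)) (hN : ∀ v ∈ N, (M.map φ) *ᵥ v = 0)
    (s : ℕ) (hs : s ≤ Module.finrank κ N) : π ^ s ∣ M.det := by
  classical
  set d := Module.finrank κ N with hd
  let bN : Basis (Fin d) κ N := Module.finBasis κ N
  let v : Fin d → (ι → κ) := fun i => (bN i : ι → κ)
  have hv : LinearIndependent κ v :=
    bN.linearIndependent.map' N.subtype (Submodule.ker_subtype N)
  have hS : LinearIndepOn κ id (Set.range v) := hv.linearIndepOn_id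
  let bE := Basis.extend hS
  have hfin : Fintype (hS.extend (Set.subset_univ _)) := FiniteDimensional.fintypeBasisIndex bE
  have hcard : Fintype.card ι = Fintype.card (hS.extend (Set.subset_univ _)) := by
    rw [← Module.finrank_eq_card_basis bE, Module.finrank_pi]
  let e : ι ≃ hS.extend (Set.subset_univ _) := Fintype.equivOfCardEq hcard
  let bE' : Basis ι κ (ι → κ) := bE.reindex e.symm
  let Ubar : Matrix ι ι κ := (Pi.basisFun κ ι).toMatrix bE'
  have hUbar : IsUnit Ubar.det := by
    have := (Pi.basisFun κ ι).invertibleToMatrix bE'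
    exact Matrix.isUnit_det_of_invertible Ubar
  choose U hU using fun i j => hφ (Ubar i j)
  let Um : Matrix ι ι R := Matrix.of U
  have hUm : Um.map φ = Ubar := by
    ext i j
    simp [Um, hU]
  have hdetU : ¬ π ∣ Um.det := by
    intro h
    have := (hker _).2 h
    rw [RingHom.map_det, RingHom.mapMatrix_apply, hUm] at this
    exact hUbar.ne_zero this
  -- the set of "kernel" columns
  let x : Fin d → hS.extend (Set.subset_univ _) := fun k =>
    ⟨v k, hS.subset_extend _ (Set.mem_range_self k)⟩
  have hx : Function.Injective x := by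
    intro k k' h
    have h' : v k = v k' := congrArg (fun z : hS.extend (Set.subset_univ _) => (z : ι → κ)) h
    exact hv.injective h'
  let J : Finset ι := Finset.univ.map ⟨fun k => e.symm (x k), e.symm.injective.comp hx⟩
  have hJcard : J.card = d := by
    simp [J]
  have hcols : ∀ i, ∀ j ∈ J, π ∣ (M * Um) i j := by
    intro i j hj
    rw [← hker]
    obtain ⟨k, -, rfl⟩ := Finset.mem_map.1 hj
    have hcol : (fun i' => Ubar i' (e.symm (x k))) = v k := by
      ext i'
      simp [Ubar, bE', bE, Basis.toMatrix_apply, x]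
    have hmem : v k ∈ N := (bN k).2
    have h0 := hN _ hmem
    have : φ ((M * Um) i (e.symm (x k))) = ((M.map φ) *ᵥ (v k)) i := by
      rw [← hcol]
      simp only [Matrix.mul_apply, map_sum, map_mul, Matrix.mulVec, dotProduct, Matrix.map_apply,
        ← hUm]
    simpa [h0] using this
  have h1 : π ^ d ∣ (M * Um).det := hJcard ▸ pow_card_dvd_det_of_cols π (M * Um) J hcols
  rw [Matrix.det_mul] at h1
  exact (pow_dvd_pow π hs).trans (hπ.pow_dvd_of_dvd_mul_right d hdetU h1)

end MatrixLemmas2

section TraceLemma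

/-- An element of a finite free `R`-algebra which is nilpotent modulo the prime `π` has trace
divisible by `π`. -/
theorem dvd_trace_of_pow_mem {R B ι : Type*} [CommRing R] [CommRing B] [Algebra R B]
    [Fintype ι] [DecidableEq ι] (c : Basis ι R B) (π : R) (hπ : Prime π) (y : B) (m : ℕ)
    (hy : y ^ m ∈ Ideal.span {algebraMap R B π}) : π ∣ Algebra.trace R B y := by
  obtain ⟨z, hz⟩ := Ideal.mem_span_singleton'.1 hy
  have hprime : (Ideal.span {π}).IsPrime := (Ideal.span_singleton_prime hπ.ne_zero).2 hπ
  let φ : R →+* R ⧸ Ideal.span {π} := Ideal.Quotient.mk _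
  set Y := Algebra.leftMulMatrix c y with hY
  have h1 : Y ^ m = π • Algebra.leftMulMatrix c z := by
    rw [hY, ← map_pow, ← hz, mul_comm, ← Algebra.smul_def, map_smul]
  have h2 : (φ.mapMatrix Y) ^ m = 0 := by
    rw [← map_pow, h1]
    ext i j
    simp [φ]
  have h3 : Matrix.trace (φ.mapMatrix Y) = 0 :=
    (Matrix.isNilpotent_trace_of_isNilpotent ⟨m, h2⟩).eq_zero
  have h4 : φ (Matrix.trace Y) = 0 := by
    rw [← h3]
    exact AddMonoidHom.map_trace φ.toAddMonoidHom Y
  rw [Algebra.trace_eq_matrix_trace c y, ← Ideal.mem_span_singleton, ← Ideal.Quotient.eq_zero_iff_mem]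
  exact h4

end TraceLemma

section Count

variable {R B ι : Type*} [CommRing R] [IsDomain R] [CommRing B] [Algebra R B]
  [Fintype ι] [DecidableEq ι]

/-- Discriminant bound, module form: if `g : B → κ ^ r` (`κ = R/π`) is `R`-linear and every
element of `ker g` is nilpotent modulo `π`, then `π ^ (n - r)` divides the discriminant of any
`R`-basis of `B`. -/
theorem pow_dvd_discr_of_linearMap (c : Basis ι R B) (π : R) (hπ : Prime π)
    [hmax : (Ideal.span {π}).IsMaximal] {r : ℕ}
    (g : B →ₗ[R] (Fin r → R ⧸ Ideal.span {π}))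
    (hg : ∀ y, g y = 0 → ∃ m, y ^ m ∈ Ideal.span {algebraMap R B π}) :
    π ^ (Fintype.card ι - r) ∣ Algebra.discr R c := by
  classical
  let _ : Field (R ⧸ Ideal.span {π}) := Ideal.Quotient.field _
  let κ := R ⧸ Ideal.span {π}
  let φ : R →+* κ := Ideal.Quotient.mk _
  have hφ : Function.Surjective φ := Ideal.Quotient.mk_surjective
  have hker : ∀ x, φ x = 0 ↔ π ∣ x := fun x => by
    rw [Ideal.Quotient.eq_zero_iff_mem, Ideal.mem_span_singleton]
  -- the induced κ-linear map
  let gbar : (ι → κ) →ₗ[κ] (Fin r → κ) :=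
    (Pi.basisFun κ ι).constr κ (fun i => g (c i))
  have hNdim : Fintype.card ι - r ≤ Module.finrank κ (LinearMap.ker gbar) := by
    have h1 := LinearMap.finrank_range_add_finrank_ker gbar
    have h2 : Module.finrank κ (LinearMap.range gbar) ≤ r := by
      have := Submodule.finrank_le (LinearMap.range gbar)
      simpa using this
    rw [Module.finrank_pi] at h1
    omega
  rw [Algebra.discr_def]
  refine pow_dvd_det_of_subspace φ hφ π hπ hker _ (LinearMap.ker gbar) ?_ _ hNdim
  intro vbar hv
  choose v hvφ using fun i => hφ (vbar i)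
  let y : B := ∑ i, v i • c i
  have hgy : g y = 0 := by
    have : gbar vbar = 0 := hv
    rw [← this]
    simp only [y, map_sum, map_smul, gbar, Basis.constr_apply_fintype, Pi.basisFun_equivFun,
      LinearEquiv.refl_apply]
    refine Finset.sum_congr rfl fun i _ => ?_
    rw [← hvφ i]
    rfl
  obtain ⟨m, hm⟩ := hg y hgy
  ext i
  have hi : π ∣ Algebra.trace R B (c i * y) := by
    refine dvd_trace_of_pow_mem c π hπ (c i * y) m ?_
    rw [mul_pow]
    exact Ideal.mul_mem_left _ _ hm
  have hexp : Algebra.trace R B (c i * y) = ∑ j, Algebra.traceMatrix R c i j * v j := by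
    simp only [y, Finset.mul_sum, map_sum, Algebra.traceMatrix_apply, Algebra.traceForm_apply,
      mul_smul_comm, map_smul, smul_eq_mul, mul_comm]
  rw [hexp, ← hker, map_sum] at hi
  simp only [Matrix.mulVec, dotProduct, Matrix.map_apply, Pi.zero_apply]
  rw [← hi]
  refine Finset.sum_congr rfl fun j _ => ?_
  rw [map_mul, hvφ j]

end Count

section Main

open scoped nonZeroDivisors

variable {R K L : Type*} [CommRing R] [IsDomain R] [IsPrincipalIdealRing R]
    [Field K] [Field L] [Algebra R K] [IsFractionRing R K] [Algebra K L] [Algebra R L]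
    [IsScalarTower R K L] [FiniteDimensional K L] [Algebra.IsSeparable K L]
    {ι : Type*} [Fintype ι] [DecidableEq ι]

/-- **IG-core.**  `R` a PID, `K = Frac R`, `L/K` finite separable, `b` a `K`-basis of `L`
consisting of `R`-integral elements, `d ∈ R` its discriminant.  Suppose that for every prime
`π ∣ d` there are `r` and an `R`-linear map `g : B → (R/π)^r` on the integral closure `B` of `R`
in `L`, all of whose kernel elements are nilpotent modulo `π` (e.g. `g` = evaluation at the `r`
points of `B` above `π`, when the residue degrees are `1`), and that `π ^ (n - r + 1) ∤ d`.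
Then the `R`-span of `b` is the whole integral closure. -/
theorem span_eq_of_discr_bound (b : Basis ι K L) (hb : ∀ i, IsIntegral R (b i))
    (d : R) (hd : algebraMap R K d = Algebra.discr K b)
    (h : ∀ π : R, Prime π → π ∣ d →
      ∃ (r : ℕ) (g : integralClosure R L →ₗ[R] (Fin r → R ⧸ Ideal.span {π})),
        (∀ y, g y = 0 → ∃ m, y ^ m ∈ Ideal.span {algebraMap R (integralClosure R L) π}) ∧
        ¬ π ^ (Fintype.card ι - r + 1) ∣ d) :
    ∀ y : L, IsIntegral R y → y ∈ Submodule.span R (Set.range b) := by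
  classical
  have hinj : Function.Injective (algebraMap R L) := by
    rw [IsScalarTower.algebraMap_eq R K L]
    exact (algebraMap K L).injective.comp (IsFractionRing.injective R K)
  have htf : Module.IsTorsionFree R L := by
    rw [Module.isTorsionFree_iff_algebraMap_injective]
    exact hinj
  have hfree : Module.Free R (integralClosure R L) :=
    IsIntegralClosure.module_free R K L (integralClosure R L)
  have hfin : Module.Finite R (integralClosure R L) :=
    IsIntegralClosure.finite R K L (integralClosure R L)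
  have hrank : Module.finrank R (integralClosure R L) = Fintype.card ι := by
    rw [IsIntegralClosure.rank R K L (integralClosure R L), Module.finrank_eq_card_basis b]
  let c : Basis ι R (integralClosure R L) :=
    (Module.finBasisOfFinrankEq R (integralClosure R L) hrank).reindex (Fintype.equivFin ι).symm
  have hloc : IsLocalization (Algebra.algebraMapSubmonoid (integralClosure R L) R⁰) L :=
    IsIntegralClosure.isLocalization R K L (integralClosure R L)
  let cK : Basis ι K L := c.localizationLocalization K R⁰ L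
  have hcK : ∀ i, cK i = (c i : L) := fun i => by
    simp [cK, Basis.localizationLocalization_apply]
  -- the transition matrix
  let P : Matrix ι ι R := Matrix.of fun i j => c.repr ⟨b i, hb i⟩ j
  have hbP : ∀ i, b i = ∑ j, P i j • (c j : L) := by
    intro i
    have h1 := c.sum_repr ⟨b i, hb i⟩
    have h2 := congrArg (fun z : integralClosure R L => (z : L)) h1
    simp only [AddSubmonoidClass.coe_finsetSum, Subalgebra.coe_smul] at h2
    exact h2.symm
  have hbP' : (b : ι → L) = ((P.map (algebraMap R K)).map (algebraMap K L)) *ᵥ (cK : ι → L) := by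
    ext i
    rw [hbP i]
    simp only [Matrix.mulVec, dotProduct, Matrix.map_apply, hcK]
    refine Finset.sum_congr rfl fun j _ => ?_
    rw [← IsScalarTower.algebraMap_apply, Algebra.smul_def]
  have hdisc : d = P.det ^ 2 * Algebra.discr R c := by
    apply IsFractionRing.injective R K
    rw [hd, hbP', Algebra.discr_of_matrix_mulVec, Algebra.discr_localizationLocalization R R⁰ L c,
      map_mul, map_pow, RingHom.map_det, RingHom.mapMatrix_apply]
  have hd0 : d ≠ 0 := by
    intro h0
    rw [h0, map_zero] at hd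
    exact Algebra.discr_not_zero_of_basis K b hd.symm
  have hP0 : P.det ≠ 0 := by
    intro h0
    rw [hdisc, h0] at hd0
    simp at hd0
  have hunit : IsUnit P.det := by
    by_contra hnu
    obtain ⟨π, hπirr, hπdvd⟩ := WfDvdMonoid.exists_irreducible_factor hnu hP0
    have hπ : Prime π := hπirr.prime
    have hπd : π ∣ d := by
      rw [hdisc]
      exact Dvd.dvd.mul_right (Dvd.dvd.pow hπdvd two_ne_zero) _
    obtain ⟨r, g, hg, hnot⟩ := h π hπ hπd
    have : (Ideal.span {π}).IsMaximal := PrincipalIdealRing.isMaximal_of_irreducible hπirr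
    have h1 : π ^ (Fintype.card ι - r) ∣ Algebra.discr R c := pow_dvd_discr_of_linearMap c π hπ g hg
    apply hnot
    rw [hdisc]
    have h2 : π ^ 2 ∣ P.det ^ 2 := pow_dvd_pow_of_dvd hπdvd 2
    have h3 : π ^ (2 + (Fintype.card ι - r)) ∣ P.det ^ 2 * Algebra.discr R c := by
      rw [pow_add]
      exact mul_dvd_mul h2 h1
    exact (pow_dvd_pow π (by omega)).trans h3
  -- conclude
  have hPinv : P⁻¹ * P = 1 := Matrix.nonsing_inv_mul P hunit
  have hc : ∀ j, (c j : L) ∈ Submodule.span R (Set.range b) := by
    intro j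
    have : (c j : L) = ∑ i, (P⁻¹) j i • b i := by
      simp_rw [hbP, Finset.smul_sum, smul_smul]
      rw [Finset.sum_comm]
      simp_rw [← Finset.sum_smul, ← Matrix.mul_apply, hPinv, Matrix.one_apply]
      simp
    rw [this]
    exact Submodule.sum_mem _ fun i _ => Submodule.smul_mem _ _ (Submodule.subset_span ⟨i, rfl⟩)
  intro y hy
  have h1 := c.sum_repr ⟨y, hy⟩
  have h2 := congrArg (fun z : integralClosure R L => (z : L)) h1
  simp only [AddSubmonoidClass.coe_finsetSum, Subalgebra.coe_smul] at h2
  rw [← h2]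
  exact Submodule.sum_mem _ fun j _ => Submodule.smul_mem _ _ (hc j)

end Main

section Order

open scoped nonZeroDivisors

variable {R K L : Type*} [CommRing R] [IsDomain R] [IsPrincipalIdealRing R]
    [Field K] [Field L] [Algebra R K] [IsFractionRing R K] [Algebra K L] [Algebra R L]
    [IsScalarTower R K L] [FiniteDimensional K L] [Algebra.IsSeparable K L]
    {ι : Type*} [Fintype ι] [DecidableEq ι]

/-- **IG-core, order version.**  Same as `span_eq_of_discr_bound`, but the `r` functionals
(given by the rows of a matrix `Λ` over `R`) are only defined on the lattice spanned by `b`: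
if `π` divides all `Λ_t(v)` then `∑ v_i b_i` is nilpotent modulo `π` (in the integral closure). -/
theorem span_eq_of_discr_bound_order (b : Basis ι K L) (hb : ∀ i, IsIntegral R (b i))
    (d : R) (hd : algebraMap R K d = Algebra.discr K b)
    (h : ∀ π : R, Prime π → π ∣ d →
      ∃ (r : ℕ) (Λ : Matrix (Fin r) ι R),
        (∀ v : ι → R, (∀ t, π ∣ (Λ *ᵥ v) t) →
          ∃ (m : ℕ) (z : L), IsIntegral R z ∧ (∑ i, v i • b i) ^ m = π • z) ∧
        ¬ π ^ (Fintype.card ι - r + 1) ∣ d) :
    ∀ y : L, IsIntegral R y → y ∈ Submodule.span R (Set.range b) := by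
  classical
  have hinj : Function.Injective (algebraMap R L) := by
    rw [IsScalarTower.algebraMap_eq R K L]
    exact (algebraMap K L).injective.comp (IsFractionRing.injective R K)
  have htf : Module.IsTorsionFree R L := by
    rw [Module.isTorsionFree_iff_algebraMap_injective]
    exact hinj
  have hfree : Module.Free R (integralClosure R L) :=
    IsIntegralClosure.module_free R K L (integralClosure R L)
  have hfin : Module.Finite R (integralClosure R L) :=
    IsIntegralClosure.finite R K L (integralClosure R L)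
  have hrank : Module.finrank R (integralClosure R L) = Fintype.card ι := by
    rw [IsIntegralClosure.rank R K L (integralClosure R L), Module.finrank_eq_card_basis b]
  let c : Basis ι R (integralClosure R L) :=
    (Module.finBasisOfFinrankEq R (integralClosure R L) hrank).reindex (Fintype.equivFin ι).symm
  have hloc : IsLocalization (Algebra.algebraMapSubmonoid (integralClosure R L) R⁰) L :=
    IsIntegralClosure.isLocalization R K L (integralClosure R L)
  let cK : Basis ι K L := c.localizationLocalization K R⁰ L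
  have hcK : ∀ i, cK i = (c i : L) := fun i => by
    simp [cK, Basis.localizationLocalization_apply]
  -- the transition matrix
  let bB : ι → integralClosure R L := fun i => ⟨b i, hb i⟩
  let P : Matrix ι ι R := Matrix.of fun i j => c.repr (bB i) j
  have hbB : ∀ i, bB i = ∑ j, P i j • c j := fun i => (c.sum_repr (bB i)).symm
  have hbP : ∀ i, b i = ∑ j, P i j • (c j : L) := by
    intro i
    have h2 := congrArg (fun z : integralClosure R L => (z : L)) (hbB i)
    simp only [AddSubmonoidClass.coe_finsetSum, Subalgebra.coe_smul] at h2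
    exact h2
  have hbP' : (b : ι → L) = ((P.map (algebraMap R K)).map (algebraMap K L)) *ᵥ (cK : ι → L) := by
    ext i
    rw [hbP i]
    simp only [Matrix.mulVec, dotProduct, Matrix.map_apply, hcK]
    refine Finset.sum_congr rfl fun j _ => ?_
    rw [← IsScalarTower.algebraMap_apply, Algebra.smul_def]
  have hdisc : d = P.det ^ 2 * Algebra.discr R c := by
    apply IsFractionRing.injective R K
    rw [hd, hbP', Algebra.discr_of_matrix_mulVec, Algebra.discr_localizationLocalization R R⁰ L c,
      map_mul, map_pow, RingHom.map_det, RingHom.mapMatrix_apply]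
  have hd0 : d ≠ 0 := by
    intro h0
    rw [h0, map_zero] at hd
    exact Algebra.discr_not_zero_of_basis K b hd.symm
  have hP0 : P.det ≠ 0 := by
    intro h0
    rw [hdisc, h0] at hd0
    simp at hd0
  -- the mixed trace matrix `M' i j = Tr (b_i c_j) = (P * traceMatrix c) i j`
  have hmixed : ∀ i j, (P * Algebra.traceMatrix R c) i j = Algebra.trace R _ (bB i * c j) := by
    intro i j
    rw [hbB i, Finset.sum_mul, map_sum, Matrix.mul_apply]
    refine Finset.sum_congr rfl fun k _ => ?_
    rw [smul_mul_assoc, map_smul, smul_eq_mul, Algebra.traceMatrix_apply, Algebra.traceForm_apply]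
  have hunit : IsUnit P.det := by
    by_contra hnu
    obtain ⟨π, hπirr, hπdvd⟩ := WfDvdMonoid.exists_irreducible_factor hnu hP0
    have hπ : Prime π := hπirr.prime
    have hπd : π ∣ d := by
      rw [hdisc]
      exact Dvd.dvd.mul_right (Dvd.dvd.pow hπdvd two_ne_zero) _
    obtain ⟨r, Λ, hΛ, hnot⟩ := h π hπ hπd
    have hmax : (Ideal.span {π}).IsMaximal := PrincipalIdealRing.isMaximal_of_irreducible hπirr
    let _ : Field (R ⧸ Ideal.span {π}) := Ideal.Quotient.field _
    let κ := R ⧸ Ideal.span {π}
    let φ : R →+* κ := Ideal.Quotient.mk _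
    have hφ : Function.Surjective φ := Ideal.Quotient.mk_surjective
    have hker : ∀ x, φ x = 0 ↔ π ∣ x := fun x => by
      rw [Ideal.Quotient.eq_zero_iff_mem, Ideal.mem_span_singleton]
    let Λbar : (ι → κ) →ₗ[κ] (Fin r → κ) := Matrix.mulVecLin (Λ.map φ)
    have hNdim : Fintype.card ι - r ≤ Module.finrank κ (LinearMap.ker Λbar) := by
      have h1 := LinearMap.finrank_range_add_finrank_ker Λbar
      have h2 : Module.finrank κ (LinearMap.range Λbar) ≤ r := by
        have := Submodule.finrank_le (LinearMap.range Λbar)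
        simpa using this
      rw [Module.finrank_pi] at h1
      omega
    have h1 : π ^ (Fintype.card ι - r) ∣ (P * Algebra.traceMatrix R c)ᵀ.det := by
      refine pow_dvd_det_of_subspace φ hφ π hπ hker _ (LinearMap.ker Λbar) ?_ _ hNdim
      intro vbar hv
      choose v hvφ using fun i => hφ (vbar i)
      have hΛv : ∀ t, π ∣ (Λ *ᵥ v) t := by
        intro t
        rw [← hker]
        have : Λbar vbar t = 0 := by
          have : Λbar vbar = 0 := hv
          rw [this]; rfl
        rw [← this]
        simp only [Λbar, Matrix.mulVecLin_apply, Matrix.mulVec, dotProduct, Matrix.map_apply,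
          map_sum, map_mul, hvφ]
      obtain ⟨m, z, hz, hm⟩ := hΛ v hΛv
      let y : integralClosure R L := ∑ i, v i • bB i
      have hy : (y : L) = ∑ i, v i • b i := by
        simp [y, bB, AddSubmonoidClass.coe_finsetSum]
      have hym : y ^ m ∈ Ideal.span {algebraMap R (integralClosure R L) π} := by
        rw [Ideal.mem_span_singleton']
        refine ⟨⟨z, hz⟩, ?_⟩
        apply Subtype.ext
        simp only [Subalgebra.coe_mul, Subalgebra.coe_algebraMap, SubmonoidClass.coe_pow]
        rw [hy, hm, Algebra.smul_def, mul_comm]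
      ext j
      have hj : π ∣ Algebra.trace R _ (y * c j) := by
        refine dvd_trace_of_pow_mem c π hπ (y * c j) m ?_
        rw [mul_pow]
        exact Ideal.mul_mem_right _ _ hym
      have hexp : Algebra.trace R _ (y * c j) = ∑ i, (P * Algebra.traceMatrix R c) i j * v i := by
        have e1 : y * c j = ∑ i, v i • (bB i * c j) := by
          simp only [y, Finset.sum_mul, smul_mul_assoc]
        rw [e1, map_sum]
        refine Finset.sum_congr rfl fun i _ => ?_
        rw [map_smul, smul_eq_mul, hmixed, mul_comm]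
      rw [hexp, ← hker, map_sum] at hj
      simp only [Matrix.mulVec, dotProduct, Matrix.map_apply, Pi.zero_apply, Matrix.transpose_apply]
      rw [← hj]
      refine Finset.sum_congr rfl fun i _ => ?_
      rw [map_mul, hvφ i]
    rw [Matrix.det_transpose, Matrix.det_mul] at h1
    apply hnot
    rw [hdisc, ← Algebra.discr_def] at *
    have h3 : π ^ (1 + (Fintype.card ι - r)) ∣ P.det ^ 2 * Algebra.discr R c := by
      rw [pow_add, pow_one, pow_two, mul_assoc]
      exact mul_dvd_mul hπdvd h1
    exact (pow_dvd_pow π (by omega)).trans h3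
  -- conclude
  have hPinv : P⁻¹ * P = 1 := Matrix.nonsing_inv_mul P hunit
  have hc : ∀ j, (c j : L) ∈ Submodule.span R (Set.range b) := by
    intro j
    have : (c j : L) = ∑ i, (P⁻¹) j i • b i := by
      simp_rw [hbP, Finset.smul_sum, smul_smul]
      rw [Finset.sum_comm]
      simp_rw [← Finset.sum_smul, ← Matrix.mul_apply, hPinv, Matrix.one_apply]
      simp
    rw [this]
    exact Submodule.sum_mem _ fun i _ => Submodule.smul_mem _ _ (Submodule.subset_span ⟨i, rfl⟩)
  intro y hy
  have h1 := c.sum_repr ⟨y, hy⟩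
  have h2 := congrArg (fun z : integralClosure R L => (z : L)) h1
  simp only [AddSubmonoidClass.coe_finsetSum, Subalgebra.coe_smul] at h2
  rw [← h2]
  exact Submodule.sum_mem _ fun j _ => Submodule.smul_mem _ _ (hc j)

end Order

end Fermat.Agent.RED.H34

end
-- ==== END Fermat.Agent.RED.H34_IGCore

-- ==== BEGIN Fermat.Agent.RED.H34_IGDefs
section

/-!
# G-RED package IG (helper34): interface definitions for "good reduction of an affine chart"

Abstract setting (no modular forms): `F/C` a function field, `V` a valuation ring of `F` of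
"Gauss type" (value group of `V` = value group of `O = V ∩ C`), `Ft` its residue field,
`x ∈ V` with transcendental reduction `xt`.  `B` = integral closure of `C[x]` in `F`,
`Bt` = integral closure of `k[xt]` in `Ft`.

**Chart theorem** (`Stmt_chartNormal`): if `[Ft : k(xt)] = [F : C(x)]`, `Ft/k(xt)` is separable and
the branch values of `x` lying in `O` are pairwise distinct modulo the maximal ideal, then every
element of `Bt` is the reduction of an element of `B ∩ V`.

Inputs proved separately (pure algebra):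
* `Stmt_rootRed`   : reduction of roots of polynomials over a valuation ring of an alg. closed field;
* `Stmt_tameDiscr` : tame discriminant bound `ord_π disc(B/R) ≤ n - #{primes over π}`.
-/

set_option autoImplicit false

noncomputable section

open IntermediateField

namespace Fermat.Agent.RED.H34

/-- Abstract reduction setting: a valuation ring `V` of `F` with residue field `Ft`, such that
`O = V ∩ C` has residue field `k` and the value group of `V` is that of `O`. -/
structure RedSetting (C F k Ft : Type) [Field C] [Field F] [Algebra C F] [Field k] [Field Ft]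
    [Algebra k Ft] where
  /-- the valuation ring -/
  V : ValuationSubring F
  /-- the reduction map -/
  red : ↥V →+* Ft
  red_surj : Function.Surjective red
  /-- the reduction map on constants -/
  resO : ↥(V.comap (algebraMap C F)) →+* k
  resO_surj : Function.Surjective resO
  red_algebraMap : ∀ a : ↥(V.comap (algebraMap C F)),
    red ⟨algebraMap C F (a : C), a.2⟩ = algebraMap k Ft (resO a)
  scale : ∀ f : F, f ≠ 0 → ∃ c : C, c ≠ 0 ∧ ∃ u : (↥V)ˣ, f = algebraMap C F c * ((u : ↥V) : F)

/-- The maximal ideals of the integral closure `B` of `C[x]` in `F` lying over `x = ρ`. -/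
def ptsOver {C F : Type} [Field C] [Field F] [Algebra C F] (x : F) (ρ : C) :
    Set (Ideal ↥(integralClosure ↥(Algebra.adjoin C {x}) F)) :=
  {P | P.IsMaximal ∧ ∀ b : ↥(integralClosure ↥(Algebra.adjoin C {x}) F),
    (b : F) = x - algebraMap C F ρ → b ∈ P}

/-- `ρ` is a branch value of `x`: fewer than `[F : C(x)]` points lie over `x = ρ`. -/
def IsBranchValue {C F : Type} [Field C] [Field F] [Algebra C F] (x : F) (ρ : C) : Prop :=
  (ptsOver x ρ).ncard < Module.finrank C⟮x⟯ F

/-- **Chart theorem**: the reduction of the integral closure is the integral closure of the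
reduction. -/
def Stmt_chartNormal : Prop :=
  ∀ (C F k Ft : Type) [Field C] [Field F] [Algebra C F] [Field k] [Field Ft] [Algebra k Ft]
    [IsAlgClosed C] [CharZero C] [IsAlgClosed k] (S : RedSetting C F k Ft)
    (x : F) (hx : x ∈ S.V), Transcendental k (S.red ⟨x, hx⟩) →
    FiniteDimensional C⟮x⟯ F →
    Module.finrank k⟮S.red ⟨x, hx⟩⟯ Ft = Module.finrank C⟮x⟯ F →
    Algebra.IsSeparable k⟮S.red ⟨x, hx⟩⟯ Ft →
    (∀ ρ ρ' : ↥(S.V.comap (algebraMap C F)), IsBranchValue x (ρ : C) → IsBranchValue x (ρ' : C) →
      S.resO ρ = S.resO ρ' → ρ = ρ') →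
    ∀ y : Ft, IsIntegral ↥(Algebra.adjoin k {S.red ⟨x, hx⟩}) y →
      ∃ f : ↥S.V, IsIntegral ↥(Algebra.adjoin C {x}) (f : F) ∧ S.red f = y

/-- **Reduction of roots.**  `O` a valuation ring of an algebraically closed field, `res` its
residue map, `D ∈ O[X]` with nonzero reduction.  Every root `γ` of the reduction is the reduction
of a root `ρ ∈ O` of `D`, and if `ρ` is the only root of `D` in `O` reducing to `γ`, the
multiplicities agree. -/
def Stmt_rootRed : Prop :=
  ∀ (C k : Type) [Field C] [IsAlgClosed C] [Field k] (O : ValuationSubring C) (res : ↥O →+* k),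
    Function.Surjective res → (∀ a : ↥O, res a = 0 ↔ ¬ IsUnit a) →
    ∀ D : Polynomial ↥O, D.map res ≠ 0 → ∀ γ : k, (D.map res).IsRoot γ →
      ∃ ρ : ↥O, res ρ = γ ∧ D.IsRoot ρ ∧
        ((∀ ρ' : ↥O, res ρ' = γ → D.IsRoot ρ' → ρ' = ρ) →
          (D.map res).rootMultiplicity γ = D.rootMultiplicity ρ)

/-- **Tame discriminant bound.**  `R` a PID, `B` the integral closure of `R` in a finite separable
extension `L` of `K = Frac R`, `π` a prime of `R` of residue characteristic `0` such that all
primes of `B` over `π` have residue degree one.  Then `ord_π disc(B/R) ≤ n - r`, `r` the number of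
primes of `B` over `π`. -/
def Stmt_tameDiscr : Prop :=
  ∀ (R K L : Type) [CommRing R] [IsDomain R] [IsPrincipalIdealRing R] [Field K] [Field L]
    [Algebra R K] [IsFractionRing R K] [Algebra K L] [Algebra R L] [IsScalarTower R K L]
    [FiniteDimensional K L] [Algebra.IsSeparable K L]
    (ι : Type) [Fintype ι] [DecidableEq ι] (c : Module.Basis ι R ↥(integralClosure R L))
    (π : R), Prime π → (∀ m : ℕ, m ≠ 0 → ¬ π ∣ (m : R)) →
    (∀ P : Ideal ↥(integralClosure R L), P.IsMaximal →
      algebraMap R ↥(integralClosure R L) π ∈ P →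
        Function.Surjective (algebraMap R (↥(integralClosure R L) ⧸ P))) →
    ¬ π ^ (Fintype.card ι -
        Set.ncard {P : Ideal ↥(integralClosure R L) |
          P.IsMaximal ∧ algebraMap R ↥(integralClosure R L) π ∈ P} + 1) ∣ Algebra.discr R c

end Fermat.Agent.RED.H34

end
end
-- ==== END Fermat.Agent.RED.H34_IGDefs

-- ==== BEGIN Fermat.Agent.RED.H42_RiemannBasic
section

/-!
# G-RED, package FF-R (helper42): Riemann's theorem for function fields, any characteristic

Elementary proof (no differentials), following the classical route: `L(D + v) / L(D)` has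
dimension at most one, `L(0) = K`, and the lower bound on `l(l * (x)_infty)` coming from a basis
of `F` over `K(x)`.
-/

set_option autoImplicit false

noncomputable section

open AlgebraicCurve IntermediateField WithZero

namespace Fermat.Agent.RED.H42

variable {K F : Type*} [Field K] [Field F] [Algebra K F]


/-! ## Basic facts on places -/

theorem mem_iff_adicValuation_le_one (v : Place K F) (x : F) :
    x ∈ v.toValuationSubring ↔ v.adicValuation x ≤ 1 := by
  constructor
  · exact v.adicValuation_le_one_of_mem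
  · intro h
    by_contra hx
    have hx0 : x ≠ 0 := fun h0 => hx (h0 ▸ v.toValuationSubring.zero_mem)
    have hxi : x⁻¹ ∈ v.toValuationSubring := (v.toValuationSubring.mem_or_inv_mem x).resolve_left hx
    have h1 : v.adicValuation x⁻¹ ≤ 1 := v.adicValuation_le_one_of_mem hxi
    have h2 : v.adicValuation x⁻¹ = 1 := by
      apply le_antisymm h1
      rw [map_inv₀]
      exact (one_le_inv₀ (zero_lt_iff.mpr (v.adicValuation_ne_zero hx0))).mpr h
    have h3 : IsUnit (⟨x⁻¹, hxi⟩ : v.toValuationSubring) :=
      (v.adicValuation_coe_eq_one_iff ⟨x⁻¹, hxi⟩).mp h2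
    obtain ⟨b, hb⟩ := h3.exists_right_inv
    have hb' : x⁻¹ * (b : F) = 1 := congrArg Subtype.val hb
    have hbx : (b : F) = x := by
      field_simp at hb'
      exact hb'
    exact hx (hbx ▸ b.2)

theorem adicValuation_lt_one_iff (v : Place K F) (a : v.toValuationSubring) :
    v.adicValuation (a : F) < 1 ↔ a ∈ IsLocalRing.maximalIdeal v.toValuationSubring := by
  rw [IsLocalRing.mem_maximalIdeal, mem_nonunits_iff, ← v.adicValuation_coe_eq_one_iff]
  have hle : v.adicValuation (a : F) ≤ 1 := v.adicValuation_le_one_of_mem a.2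
  exact ⟨fun h => h.ne, fun h => lt_of_le_of_ne hle h⟩

theorem adicValuation_algebraMap (v : Place K F) {c : K} (hc : c ≠ 0) :
    v.adicValuation (algebraMap K F c) = 1 := by
  have hu : IsUnit (algebraMap K v.toValuationSubring c) := (hc.isUnit).map _
  exact (v.adicValuation_coe_eq_one_iff _).mpr hu

/-- If `deg v = 1`, every element of the valuation ring is congruent to a constant. -/
theorem exists_const_sub_lt_one (v : Place K F) (hdeg : v.deg = 1) {u : F}
    (hu : v.adicValuation u ≤ 1) : ∃ c : K, v.adicValuation (u - algebraMap K F c) < 1 := by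
  have hmem : u ∈ v.toValuationSubring := (mem_iff_adicValuation_le_one v u).mpr hu
  have hbij : Function.Bijective (algebraMap K v.ResidueField) :=
    Algebra.finrank_eq_one_iff_bijective_algebraMap.mp hdeg
  obtain ⟨c, hc⟩ := hbij.2 (IsLocalRing.residue _ ⟨u, hmem⟩)
  refine ⟨c, ?_⟩
  have h1 : IsLocalRing.residue v.toValuationSubring (⟨u, hmem⟩ - algebraMap K v.toValuationSubring c) = 0 := by
    rw [map_sub, ← hc]
    exact sub_eq_zero.mpr rfl
  have h2 : (⟨u, hmem⟩ - algebraMap K v.toValuationSubring c : v.toValuationSubring) ∈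
      IsLocalRing.maximalIdeal v.toValuationSubring := by
    rwa [IsLocalRing.residue_eq_zero_iff] at h1
  have h3 := (adicValuation_lt_one_iff v _).mpr h2
  simpa using h3





/-! ## The spaces `L(D)` -/

local notation "L" => riemannRochSpace

theorem mem_L_iff {D : Divisor K F} {f : F} :
    f ∈ L D ↔ ∀ v : Place K F, v.adicValuation f ≤ exp (D v) := Iff.rfl

theorem L_mono {D D' : Divisor K F} (h : D ≤ D') : L D ≤ L D' := fun _ hf v =>
  (hf v).trans (exp_le_exp.mpr (Finsupp.le_def.mp h v))

theorem lt_exp_succ_iff {a : ℤᵐ⁰} {n : ℤ} : a < exp (n + 1) ↔ a ≤ exp n := by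
  rcases eq_or_ne a 0 with rfl | ha
  · simp
  · rw [← exp_log ha, exp_lt_exp, exp_le_exp]
    omega

/-- One step: modulo `L(D)`, the space `L(D + v)` is spanned by any of its elements outside `L(D)`. -/
theorem one_step (v : Place K F) (hdeg : v.deg = 1) (D : Divisor K F) {f g : F}
    (hf : f ∈ L (D + Finsupp.single v 1)) (hfD : f ∉ L D)
    (hg : g ∈ L (D + Finsupp.single v 1)) : ∃ c : K, g - c • f ∈ L D := by
  classical
  have hw : ∀ w : Place K F, w ≠ v → (D + Finsupp.single v 1 : Divisor K F) w = D w := fun w hwv => by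
    rw [Finsupp.add_apply, Finsupp.single_apply, if_neg (Ne.symm hwv), add_zero]
  have hv : (D + Finsupp.single v 1 : Divisor K F) v = D v + 1 := by
    rw [Finsupp.add_apply, Finsupp.single_apply, if_pos rfl]
  -- the failing place is `v`
  have hfv : ¬ v.adicValuation f ≤ exp (D v) := by
    intro hle
    apply hfD
    intro w
    by_cases hwv : w = v
    · subst hwv; exact hle
    · have := hf w
      rwa [hw w hwv] at this
  have hf0 : f ≠ 0 := by
    rintro rfl
    exact hfv (by simp)
  have hfval : v.adicValuation f = exp (D v + 1) := by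
    have h1 := hf v
    rw [hv] at h1
    rcases lt_or_eq_of_le h1 with h2 | h2
    · exact absurd (lt_exp_succ_iff.mp h2) hfv
    · exact h2
  have hgv : v.adicValuation g ≤ exp (D v + 1) := by
    have := hg v
    rwa [hv] at this
  have hu : v.adicValuation (g / f) ≤ 1 := by
    rw [map_div₀, hfval]
    exact div_le_one_of_le₀ hgv zero_le
  obtain ⟨c, hc⟩ := exists_const_sub_lt_one v hdeg hu
  refine ⟨c, fun w => ?_⟩
  by_cases hwv : w = v
  · subst hwv
    have h1 : g - c • f = (g / f - algebraMap K F c) * f := by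
      rw [Algebra.smul_def]; field_simp
    rw [h1, map_mul, hfval, ← lt_exp_succ_iff]
    calc w.adicValuation (g / f - algebraMap K F c) * exp (D w + 1)
        < 1 * exp (D w + 1) := by
          apply mul_lt_mul_of_pos_right hc
          exact zero_lt_iff.mpr exp_ne_zero
      _ = exp (D w + 1) := one_mul _
  · have h1 := hf w
    have h2 := hg w
    rw [hw w hwv] at h1 h2
    have h3 : w.adicValuation (c • f) ≤ exp (D w) := by
      rw [Algebra.smul_def, map_mul]
      exact (mul_le_of_le_one_left' (w.adicValuation_algebraMap_le_one c)).trans h1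
    exact (Valuation.map_sub _ _ _).trans (max_le h2 h3)






/-! ## Degrees -/

theorem degree_nonneg {E : Divisor K F} (hE : 0 ≤ E) : 0 ≤ Divisor.degree E := by
  have h : Divisor.degree E = E.sum fun v n => n * (v.deg : ℤ) := by
    simp [Divisor.degree, Finsupp.liftAddHom_apply]
  rw [h, Finsupp.sum]
  refine Finset.sum_nonneg fun v _ => ?_
  have := Finsupp.le_def.mp hE v
  simp only [Finsupp.coe_zero, Pi.zero_apply] at this
  positivity

theorem degree_mono {D D' : Divisor K F} (h : D ≤ D') : Divisor.degree D ≤ Divisor.degree D' := by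
  have h1 : 0 ≤ D' - D := sub_nonneg.mpr h
  have h2 := degree_nonneg h1
  rw [map_sub] at h2
  linarith

theorem eq_or_exists_lt {D D' : Divisor K F} (h : D ≤ D') : D = D' ∨ ∃ v, D v < D' v := by
  by_cases hall : ∀ v, D' v ≤ D v
  · left
    ext v
    exact le_antisymm (Finsupp.le_def.mp h v) (hall v)
  · right
    push Not at hall
    exact hall

theorem le_sub_single {D D' : Divisor K F} (h : D ≤ D') {v : Place K F} (hv : D v < D' v) :
    D ≤ D' - Finsupp.single v 1 := by
  classical
  rw [Finsupp.le_def]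
  intro w
  rw [Finsupp.sub_apply, Finsupp.single_apply]
  have := Finsupp.le_def.mp h w
  split_ifs with hw
  · subst hw; omega
  · omega

/-- One step, dimension form. -/
theorem step_finrank (v : Place K F) (hdeg : v.deg = 1) (D : Divisor K F)
    (hfin : Module.Finite K (L D)) :
    Module.Finite K (L (D + Finsupp.single v 1)) ∧
      Module.finrank K (L (D + Finsupp.single v 1)) ≤ Module.finrank K (L D) + 1 := by
  classical
  have hle : L D ≤ L (D + Finsupp.single v 1) := L_mono (by
    rw [Finsupp.le_def]; intro w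
    rw [Finsupp.add_apply, Finsupp.single_apply]
    split_ifs <;> omega)
  by_cases h : L (D + Finsupp.single v 1) ≤ L D
  · have heq : L (D + Finsupp.single v 1) = L D := le_antisymm h hle
    rw [heq]
    exact ⟨hfin, Nat.le_succ _⟩
  · obtain ⟨f, hf, hfD⟩ := SetLike.not_le_iff_exists.mp h
    have hsub : L (D + Finsupp.single v 1) ≤ L D ⊔ Submodule.span K {f} := by
      intro g hg
      obtain ⟨c, hc⟩ := one_step v hdeg D hf hfD hg
      have : g = (g - c • f) + c • f := by ring
      rw [this]
      exact Submodule.add_mem_sup hc (Submodule.smul_mem _ c (Submodule.mem_span_singleton_self f))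
    have hf0 : f ≠ 0 := by
      rintro rfl
      exact hfD (Submodule.zero_mem _)
    have : FiniteDimensional K (L D) := hfin
    have : FiniteDimensional K (L D ⊔ Submodule.span K {f} : Submodule K F) := inferInstance
    refine ⟨Submodule.finiteDimensional_of_le hsub, ?_⟩
    calc Module.finrank K (L (D + Finsupp.single v 1))
        ≤ Module.finrank K (L D ⊔ Submodule.span K {f} : Submodule K F) := Submodule.finrank_mono hsub
      _ ≤ Module.finrank K (L D) + Module.finrank K (Submodule.span K {f}) :=
          Submodule.finrank_add_le_finrank_add_finrank _ _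
      _ = Module.finrank K (L D) + 1 := by rw [finrank_span_singleton hf0]

/-- Comparison of `L(D)` and `L(D')` for `D ≤ D'`. -/
theorem finrank_le_of_le (hdeg : ∀ v : Place K F, v.deg = 1) :
    ∀ (m : ℕ) (D D' : Divisor K F), D ≤ D' → Divisor.degree D' - Divisor.degree D ≤ m →
      Module.Finite K (L D) →
      Module.Finite K (L D') ∧
        (Module.finrank K (L D') : ℤ) ≤ Module.finrank K (L D) +
          (Divisor.degree D' - Divisor.degree D) := by
  intro m
  induction m with
  | zero =>
    intro D D' h hm hfin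
    rcases eq_or_exists_lt h with rfl | ⟨v, hv⟩
    · exact ⟨hfin, by simp⟩
    · exfalso
      have h1 := degree_mono (le_sub_single h hv)
      rw [map_sub, Divisor.degree_single, hdeg v] at h1
      simp only [Nat.cast_zero] at hm
      simp only [one_mul, Nat.cast_one] at h1
      omega
  | succ m ih =>
    intro D D' h hm hfin
    rcases eq_or_exists_lt h with rfl | ⟨v, hv⟩
    · exact ⟨hfin, by simp⟩
    · have hle := le_sub_single h hv
      have hdeg' : Divisor.degree (D' - Finsupp.single v 1) = Divisor.degree D' - 1 := by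
        rw [map_sub, Divisor.degree_single, hdeg v]; simp
      obtain ⟨hfin', hrk⟩ := ih D (D' - Finsupp.single v 1) hle (by rw [hdeg']; push_cast at hm; omega) hfin
      obtain ⟨hfin'', hrk'⟩ := step_finrank v (hdeg v) (D' - Finsupp.single v 1) hfin'
      rw [sub_add_cancel] at hfin'' hrk'
      refine ⟨hfin'', ?_⟩
      rw [hdeg'] at hrk
      have : (Module.finrank K (L D') : ℤ) ≤ Module.finrank K (L (D' - Finsupp.single v 1)) + 1 := by
        exact_mod_cast hrk'
      omega

theorem finite_of_le (hdeg : ∀ v : Place K F, v.deg = 1) {D D' : Divisor K F} (h : D ≤ D')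
    (hfin : Module.Finite K (L D)) : Module.Finite K (L D') :=
  (finrank_le_of_le hdeg _ D D' h (Int.self_le_toNat _) hfin).1

theorem finrank_le_add (hdeg : ∀ v : Place K F, v.deg = 1) {D D' : Divisor K F} (h : D ≤ D')
    (hfin : Module.Finite K (L D)) :
    (Module.finrank K (L D') : ℤ) ≤ Module.finrank K (L D) +
          (Divisor.degree D' - Divisor.degree D) :=
  (finrank_le_of_le hdeg _ D D' h (Int.self_le_toNat _) hfin).2









/-! ## Hypotheses -/

/-- The facts about places used in the proof of Riemann's theorem. -/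
structure Hyp (K F : Type*) [Field K] [Field F] [Algebra K F] : Prop where
  principal : ∀ f : F, f ≠ 0 → ∃ D : Divisor K F, (∀ v, D v = v.ord f) ∧ Divisor.degree D = 0
  deg_one : ∀ v : Place K F, v.deg = 1
  exists_pole : ∀ f : F, f ∉ Set.range (algebraMap K F) → ∃ v : Place K F, v.ord f < 0

variable (H : Hyp K F)
include H

theorem L_zero_eq : L (0 : Divisor K F) = Submodule.span K {(1 : F)} := by
  apply le_antisymm
  · intro f hf
    by_cases hfr : f ∈ Set.range (algebraMap K F)
    · obtain ⟨c, rfl⟩ := hfr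
      rw [Submodule.mem_span_singleton]
      exact ⟨c, by rw [Algebra.smul_def, mul_one]⟩
    · exfalso
      obtain ⟨v, hv⟩ := H.exists_pole f hfr
      have h1 := (mem_riemannRochSpace_iff.mp hf) v
      rcases h1 with rfl | h1
      · simp at hv
      · simp only [Finsupp.coe_zero, Pi.zero_apply, neg_zero] at h1
        omega
  · rw [Submodule.span_singleton_le_iff_mem]
    intro v
    simp

theorem finite_L_zero : Module.Finite K (L (0 : Divisor K F)) := by
  rw [L_zero_eq H]
  infer_instance

theorem finrank_L_zero : Module.finrank K (L (0 : Divisor K F)) = 1 := by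
  rw [L_zero_eq H]
  exact finrank_span_singleton one_ne_zero

theorem finite_L (D : Divisor K F) : Module.Finite K (L D) := by
  have h1 : Module.Finite K (L (D ⊔ 0)) := finite_of_le H.deg_one le_sup_right (finite_L_zero H)
  exact Submodule.finiteDimensional_of_le (L_mono (le_sup_left : D ≤ D ⊔ 0))

theorem L_eq_bot_of_degree_neg {D : Divisor K F} (hD : Divisor.degree D < 0) : L D = ⊥ := by
  rw [eq_bot_iff]
  intro f hf
  rw [Submodule.mem_bot]
  by_contra hf0
  obtain ⟨E, hE, hE0⟩ := H.principal f hf0
  have h1 : 0 ≤ D + E := by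
    rw [Finsupp.le_def]
    intro v
    have := (mem_riemannRochSpace_iff.mp hf) v
    rcases this with h | h
    · exact absurd h hf0
    · rw [Finsupp.add_apply, hE v]
      simp only [Finsupp.coe_zero, Pi.zero_apply]
      omega
  have h2 := degree_nonneg h1
  rw [map_add, hE0] at h2
  omega

omit H in
/-- Multiplication by `f` maps `L(D + div f)` into `L(D)`. -/
theorem mul_mem_L {D E : Divisor K F} {f : F} (hf : f ≠ 0) (hE : ∀ v, E v = v.ord f) {g : F}
    (hg : g ∈ L (D + E)) : g * f ∈ L D := by
  intro v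
  have h1 := hg v
  rw [Finsupp.add_apply, hE v] at h1
  rw [map_mul, v.adicValuation_eq_exp_neg_ord hf]
  calc v.adicValuation g * exp (-v.ord f) ≤ exp (D v + v.ord f) * exp (-v.ord f) := by gcongr
    _ = exp (D v) := by rw [← exp_add]; congr 1; ring

omit H in
theorem mul_inv_mem_L {D E : Divisor K F} {f : F} (hf : f ≠ 0) (hE : ∀ v, E v = v.ord f) {g : F}
    (hg : g ∈ L D) : g * f⁻¹ ∈ L (D + E) := by
  intro v
  have h1 := hg v
  rw [Finsupp.add_apply, hE v]
  rw [map_mul, v.adicValuation_eq_exp_neg_ord (inv_ne_zero hf), Place.ord_inv, neg_neg]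
  calc v.adicValuation g * exp (v.ord f) ≤ exp (D v) * exp (v.ord f) := by gcongr
    _ = exp (D v + v.ord f) := by rw [← exp_add]

theorem finrank_L_add_principal {D E : Divisor K F} {f : F} (hf : f ≠ 0)
    (hE : ∀ v, E v = v.ord f) :
    Module.finrank K (L (D + E)) = Module.finrank K (L D) := by
  have hfin1 := finite_L H D
  have hfin2 := finite_L H (D + E)
  apply le_antisymm
  · let φ : L (D + E) →ₗ[K] L D :=
      { toFun := fun g => ⟨g.1 * f, mul_mem_L hf hE g.2⟩
        map_add' := fun a b => by ext; simp [add_mul]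
        map_smul' := fun c a => by ext; simp [Algebra.smul_def, mul_assoc] }
    refine LinearMap.finrank_le_finrank_of_injective (f := φ) ?_
    intro a b hab
    have := congrArg Subtype.val hab
    simp only [φ, LinearMap.coe_mk, AddHom.coe_mk] at this
    exact Subtype.ext (mul_right_cancel₀ hf this)
  · let ψ : L D →ₗ[K] L (D + E) :=
      { toFun := fun g => ⟨g.1 * f⁻¹, mul_inv_mem_L hf hE g.2⟩
        map_add' := fun a b => by ext; simp [add_mul]
        map_smul' := fun c a => by ext; simp [Algebra.smul_def, mul_assoc] }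
    refine LinearMap.finrank_le_finrank_of_injective (f := ψ) ?_
    intro a b hab
    have := congrArg Subtype.val hab
    simp only [ψ, LinearMap.coe_mk, AddHom.coe_mk] at this
    exact Subtype.ext (mul_right_cancel₀ (inv_ne_zero hf) this)

theorem finrank_L_le {D : Divisor K F} (hD : 0 ≤ Divisor.degree D) :
    (Module.finrank K (L D) : ℤ) ≤ Divisor.degree D + 1 := by
  by_cases hbot : L D = ⊥
  · rw [hbot, finrank_bot]
    simp only [Nat.cast_zero]
    omega
  · obtain ⟨f, hf, hf0⟩ := (Submodule.ne_bot_iff _).mp hbot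
    obtain ⟨E, hE, hE0⟩ := H.principal f hf0
    have h1 : 0 ≤ D + E := by
      rw [Finsupp.le_def]
      intro v
      have := (mem_riemannRochSpace_iff.mp hf) v
      rcases this with h | h
      · exact absurd h hf0
      · rw [Finsupp.add_apply, hE v]
        simp only [Finsupp.coe_zero, Pi.zero_apply]
        omega
    have h2 := finrank_le_add H.deg_one h1 (finite_L_zero H)
    rw [finrank_L_zero H, map_zero, map_add, hE0, finrank_L_add_principal H hf0 hE] at h2
    simp only [Nat.cast_one, add_zero, sub_zero] at h2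
    omega



end Fermat.Agent.RED.H42

end
end
-- ==== END Fermat.Agent.RED.H42_RiemannBasic

-- ==== BEGIN Fermat.Agent.RED.H51_NDDefs
section

/-!
# G-RED package NDESC (helper51): norm descent of the reduction map, interface

`F ⊆ F'` fields with valuation rings `V = V' ∩ F`, residue fields `Ft ⊆ Ft'`.

* `Stmt_NormRedAbs` : **the norm commutes with reduction** if `[F' : F] = [Ft' : Ft]`:
  for `f ∈ V'`, `N_{F'/F} f ∈ V` and `red (N f) = N_{Ft'/Ft} (red' f)`.
  (Proof: lift a basis `b` of `Ft'/Ft` to `B ⊂ V'`; `B` is a basis of `F'/F`; coordinates of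
  elements of `V'` lie in `V` (scale by the largest coordinate and reduce); so the matrix of
  `f` has entries in `V` and reduces to the matrix of `red' f`.)
This file contains no `sorry`.
-/

set_option autoImplicit false

noncomputable section

namespace Fermat.Agent.RED.H51

/-- **The norm commutes with reduction**, when the residue degree equals the degree. -/
def Stmt_NormRedAbs : Prop :=
  ∀ (F F' Ft Ft' : Type) [Field F] [Field F'] [Field Ft] [Field Ft'] [Algebra F F']
    [Algebra Ft Ft'] [Module.Finite F F']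
    (V : ValuationSubring F) (V' : ValuationSubring F')
    (red : ↥V →+* Ft) (red' : ↥V' →+* Ft'),
    (∀ a : F, a ∈ V ↔ algebraMap F F' a ∈ V') →
    Function.Surjective red' →
    (∀ a : ↥V', red' a = 0 ↔ ¬ IsUnit a) →
    (∀ (a : ↥V) (ha : algebraMap F F' (a : F) ∈ V'),
      red' ⟨algebraMap F F' (a : F), ha⟩ = algebraMap Ft Ft' (red a)) →
    Module.finrank F F' = Module.finrank Ft Ft' →
    ∀ f : ↥V', ∃ hN : Algebra.norm F (f : F') ∈ V,
      red ⟨Algebra.norm F (f : F'), hN⟩ = Algebra.norm Ft (red' f)

end Fermat.Agent.RED.H51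

end
end
-- ==== END Fermat.Agent.RED.H51_NDDefs

-- ==== BEGIN Fermat.Agent.RED.H51_Ord
section

/-!
# FF-B, piece P0 (helper51): elementary API for `Place.ord`

`OrdGe v n f` says `v(f) ≥ n`, where `f = 0` is allowed (`v(0) = ∞`).  It is closed under sums and
compatible with products.  `ord_add_eq` is the strict triangle inequality.  Everything here holds for
arbitrary fields `K ⊆ F`.
-/

set_option autoImplicit false
set_option linter.style.haveILetI false

noncomputable section

open AlgebraicCurve WithZero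

namespace Fermat.Agent.RED.H51

variable {K F : Type*} [Field K] [Field F] [Algebra K F]

/-- `v(f) ≥ n`, with the convention `v(0) = ∞`. -/
def OrdGe (v : Place K F) (n : ℤ) (f : F) : Prop := f = 0 ∨ n ≤ v.ord f

theorem ordGe_iff (v : Place K F) (n : ℤ) (f : F) :
    OrdGe v n f ↔ v.adicValuation f ≤ exp (-n) := by
  rw [v.adicValuation_le_exp_iff, neg_neg]
  rfl

@[simp]
theorem ordGe_zero (v : Place K F) (n : ℤ) : OrdGe v n (0 : F) := Or.inl rfl

theorem ordGe_of_le (v : Place K F) {n : ℤ} {f : F} (h : n ≤ v.ord f) : OrdGe v n f := Or.inr h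

theorem OrdGe.le {v : Place K F} {n : ℤ} {f : F} (h : OrdGe v n f) (hf : f ≠ 0) : n ≤ v.ord f :=
  h.resolve_left hf

theorem OrdGe.mono {v : Place K F} {n m : ℤ} {f : F} (h : OrdGe v n f) (hmn : m ≤ n) :
    OrdGe v m f :=
  h.imp id fun h' => hmn.trans h'

theorem OrdGe.add {v : Place K F} {n : ℤ} {f g : F} (hf : OrdGe v n f) (hg : OrdGe v n g) :
    OrdGe v n (f + g) := by
  rw [ordGe_iff] at hf hg ⊢
  exact (Valuation.map_add _ _ _).trans (max_le hf hg)

theorem OrdGe.neg {v : Place K F} {n : ℤ} {f : F} (hf : OrdGe v n f) : OrdGe v n (-f) := by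
  rw [ordGe_iff] at hf ⊢
  rwa [Valuation.map_neg]

theorem OrdGe.sub {v : Place K F} {n : ℤ} {f g : F} (hf : OrdGe v n f) (hg : OrdGe v n g) :
    OrdGe v n (f - g) := by
  rw [sub_eq_add_neg]
  exact hf.add hg.neg

theorem OrdGe.mul {v : Place K F} {n m : ℤ} {f g : F} (hf : OrdGe v n f) (hg : OrdGe v m g) :
    OrdGe v (n + m) (f * g) := by
  rcases eq_or_ne f 0 with rfl | hf0
  · simp
  rcases eq_or_ne g 0 with rfl | hg0
  · simp
  refine Or.inr ?_
  rw [v.ord_mul hf0 hg0]
  exact add_le_add (hf.le hf0) (hg.le hg0)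

theorem ordGe_sum {ι : Type*} (v : Place K F) (n : ℤ) (s : Finset ι) (f : ι → F)
    (h : ∀ i ∈ s, OrdGe v n (f i)) : OrdGe v n (∑ i ∈ s, f i) := by
  classical
  induction s using Finset.induction_on with
  | empty => simp
  | insert a s ha ih =>
    rw [Finset.sum_insert ha]
    exact (h a (Finset.mem_insert_self a s)).add
      (ih fun i hi => h i (Finset.mem_insert_of_mem hi))

/-- Constants have order zero. -/
theorem ord_algebraMap (v : Place K F) (a : K) : v.ord (algebraMap K F a) = 0 := by
  rcases eq_or_ne a 0 with rfl | ha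
  · simp
  · have hu : IsUnit (algebraMap K v.toValuationSubring a) := (ha.isUnit).map _
    have := v.ord_coe_unit hu.unit
    simpa using this

theorem ordGe_algebraMap (v : Place K F) (a : K) : OrdGe v 0 (algebraMap K F a) :=
  Or.inr (ord_algebraMap v a).ge

theorem ordGe_one (v : Place K F) : OrdGe v 0 (1 : F) := Or.inr (by simp)

theorem ord_pow (v : Place K F) (f : F) (n : ℕ) : v.ord (f ^ n) = n * v.ord f := by
  have := v.ord_zpow f (n : ℤ)
  rwa [zpow_natCast] at this

theorem ord_div (v : Place K F) {f g : F} (hf : f ≠ 0) (hg : g ≠ 0) :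
    v.ord (f / g) = v.ord f - v.ord g := by
  rw [div_eq_mul_inv, v.ord_mul hf (inv_ne_zero hg), v.ord_inv]
  ring

theorem ord_neg (v : Place K F) (f : F) : v.ord (-f) = v.ord f := by
  unfold Place.ord
  rw [Valuation.map_neg]

theorem ord_sub_comm (v : Place K F) (f g : F) : v.ord (f - g) = v.ord (g - f) := by
  rw [← ord_neg, neg_sub]

theorem ne_zero_of_ord_ne_zero (v : Place K F) {f : F} (h : v.ord f ≠ 0) : f ≠ 0 := by
  rintro rfl
  exact h v.ord_zero

/-- Membership in the valuation ring. -/
theorem ordGe_zero_iff_mem (v : Place K F) (f : F) :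
    OrdGe v 0 f ↔ f ∈ v.toValuationSubring := by
  constructor
  · rintro (rfl | h)
    · exact zero_mem _
    · rcases eq_or_ne f 0 with rfl | hf
      · exact zero_mem _
      obtain ⟨π, hπ⟩ := IsDiscreteValuationRing.exists_irreducible v.toValuationSubring
      obtain ⟨u, hu⟩ := v.exists_unit_mul_zpow hf hπ
      rw [hu, show v.ord f = (((v.ord f).toNat : ℕ) : ℤ) from (Int.toNat_of_nonneg h).symm,
        zpow_natCast]
      exact mul_mem (u : v.toValuationSubring).2 (pow_mem (π : v.toValuationSubring).2 _)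
  · intro hf
    rw [ordGe_iff, neg_zero, exp_zero]
    exact v.adicValuation_le_one_of_mem hf

theorem mem_iff_ord_nonneg (v : Place K F) {f : F} (hf : f ≠ 0) :
    f ∈ v.toValuationSubring ↔ 0 ≤ v.ord f := by
  rw [← ordGe_zero_iff_mem]
  exact ⟨fun h => h.le hf, fun h => Or.inr h⟩

theorem not_mem_iff_ord_neg (v : Place K F) {f : F} :
    f ∉ v.toValuationSubring ↔ v.ord f < 0 := by
  rw [← ordGe_zero_iff_mem]
  constructor
  · intro h
    by_contra h'
    exact h (Or.inr (not_lt.mp h'))
  · rintro h (rfl | h')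
    · simp at h
    · omega

/-- Strict triangle inequality: a summand of strictly smallest order decides the order. -/
theorem ord_add_eq (v : Place K F) {f g : F} (hf : f ≠ 0) (hg : OrdGe v (v.ord f + 1) g) :
    f + g ≠ 0 ∧ v.ord (f + g) = v.ord f := by
  have hlt : v.adicValuation g < v.adicValuation f := by
    rw [ordGe_iff] at hg
    refine hg.trans_lt ?_
    rw [v.adicValuation_eq_exp_neg_ord hf, exp_lt_exp]
    omega
  have heq : v.adicValuation (f + g) = v.adicValuation f :=
    Valuation.map_add_eq_of_lt_left _ hlt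
  have hne : f + g ≠ 0 := by
    intro h0
    rw [h0, map_zero] at heq
    exact v.adicValuation_ne_zero hf heq.symm
  refine ⟨hne, ?_⟩
  unfold Place.ord
  rw [heq]

theorem ord_add_eq' (v : Place K F) {f g : F} (hf : f ≠ 0) (hg : OrdGe v (v.ord f + 1) g) :
    g + f ≠ 0 ∧ v.ord (g + f) = v.ord f := by
  rw [add_comm]
  exact ord_add_eq v hf hg

/-- There is a uniformizer. -/
theorem exists_uniformizer (v : Place K F) : ∃ t : F, t ≠ 0 ∧ v.ord t = 1 := by
  obtain ⟨π, hπ⟩ := IsDiscreteValuationRing.exists_irreducible v.toValuationSubring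
  refine ⟨(π : F), ?_, v.ord_coe_irreducible hπ⟩
  simpa [ne_eq, ZeroMemClass.coe_eq_zero] using hπ.ne_zero

/-- Elements of every prescribed order exist. -/
theorem exists_ord_eq (v : Place K F) (n : ℤ) : ∃ t : F, t ≠ 0 ∧ v.ord t = n := by
  obtain ⟨t, ht0, ht⟩ := exists_uniformizer v
  exact ⟨t ^ n, zpow_ne_zero n ht0, by rw [v.ord_zpow, ht, mul_one]⟩

theorem OrdGe.pos_of_ne {v : Place K F} {f : F} (h : OrdGe v 1 f) (hf : f ≠ 0) : 0 < v.ord f := by
  have := h.le hf
  omega

theorem ordGe_pow {v : Place K F} {n : ℤ} {f : F} (hf : OrdGe v n f) (k : ℕ) :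
    OrdGe v (k * n) (f ^ k) := by
  rcases eq_or_ne f 0 with rfl | hf0
  · rcases Nat.eq_zero_or_pos k with rfl | hk
    · simp only [pow_zero, Nat.cast_zero, zero_mul]
      exact ordGe_one v
    · rw [zero_pow hk.ne']
      exact ordGe_zero v _
  · refine Or.inr ?_
    rw [ord_pow]
    exact mul_le_mul_of_nonneg_left (hf.le hf0) (Int.natCast_nonneg k)

end Fermat.Agent.RED.H51

end
end
-- ==== END Fermat.Agent.RED.H51_Ord
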