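-- GENERATED (merged mirror, NOTES/tools/trim/merge3_helper67.py): 9 modules of the originals, bodies verbatim.
import Mathlib
import Fermat.Agent.Zm.S35_L01_001
import Fermat.Agent.R.H91_Lucas
import Fermat.Agent.Zm.S35_L01_002

-- ==== BEGIN Fermat.Agent.R.Pet.H58_Reduced
section

/-!
# Pet, step PF (helper58): a positive definite biadditive pairing for which the generators are
self-adjoint forces the (anemic) Hecke algebra to be reduced.
-/

set_option autoImplicit false
set_option linter.unusedSectionVars false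

namespace Fermat.Agent.R.Pet

open CongruenceSubgroup

section PF

variable {N : ℕ} [NeZero N] {k : ℤ}

/-- Self-adjointness of an endomorphism for a pairing `B`. -/
def IsSA (B : CuspForm (Gamma0 N) k → CuspForm (Gamma0 N) k → ℂ)
    (t : Module.End ℂ (CuspForm (Gamma0 N) k)) : Prop :=
  ∀ f g, B (t f) g = B f (t g)

variable {B : CuspForm (Gamma0 N) k → CuspForm (Gamma0 N) k → ℂ}

lemma pair_zero_left (h1 : ∀ f f' g, B (f + f') g = B f g + B f' g) (g : CuspForm (Gamma0 N) k) :
    B 0 g = 0 := by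
  have h := h1 0 0 g
  rw [add_zero] at h
  exact left_eq_add.mp h

lemma pair_zero_right (h2 : ∀ f g g', B f (g + g') = B f g + B f g')
    (f : CuspForm (Gamma0 N) k) : B f 0 = 0 := by
  have h := h2 f 0 0
  rw [add_zero] at h
  exact left_eq_add.mp h

lemma pair_neg_left (h1 : ∀ f f' g, B (f + f') g = B f g + B f' g)
    (f g : CuspForm (Gamma0 N) k) : B (-f) g = -B f g := by
  have h := h1 f (-f) g
  rw [add_neg_cancel, pair_zero_left h1] at h
  exact eq_neg_of_add_eq_zero_right h.symm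

lemma pair_neg_right (h2 : ∀ f g g', B f (g + g') = B f g + B f g')
    (f g : CuspForm (Gamma0 N) k) : B f (-g) = -B f g := by
  have h := h2 f g (-g)
  rw [add_neg_cancel, pair_zero_right h2] at h
  exact eq_neg_of_add_eq_zero_right h.symm

lemma pair_nsmul_left (h1 : ∀ f f' g, B (f + f') g = B f g + B f' g) (n : ℕ)
    (f g : CuspForm (Gamma0 N) k) : B (n • f) g = n • B f g := by
  induction n with
  | zero => simp [pair_zero_left h1]
  | succ n ih => rw [succ_nsmul, h1, ih, succ_nsmul]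

lemma pair_nsmul_right (h2 : ∀ f g g', B f (g + g') = B f g + B f g') (n : ℕ)
    (f g : CuspForm (Gamma0 N) k) : B f (n • g) = n • B f g := by
  induction n with
  | zero => simp [pair_zero_right h2]
  | succ n ih => rw [succ_nsmul, h2, ih, succ_nsmul]

lemma pair_zsmul_left (h1 : ∀ f f' g, B (f + f') g = B f g + B f' g) (n : ℤ)
    (f g : CuspForm (Gamma0 N) k) : B (n • f) g = n • B f g := by
  obtain ⟨m, rfl | rfl⟩ := n.eq_nat_or_neg
  · rw [natCast_zsmul, natCast_zsmul, pair_nsmul_left h1]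
  · rw [neg_zsmul, neg_zsmul, natCast_zsmul, natCast_zsmul, pair_neg_left h1,
      pair_nsmul_left h1]

lemma pair_zsmul_right (h2 : ∀ f g g', B f (g + g') = B f g + B f g') (n : ℤ)
    (f g : CuspForm (Gamma0 N) k) : B f (n • g) = n • B f g := by
  obtain ⟨m, rfl | rfl⟩ := n.eq_nat_or_neg
  · rw [natCast_zsmul, natCast_zsmul, pair_nsmul_right h2]
  · rw [neg_zsmul, neg_zsmul, natCast_zsmul, natCast_zsmul, pair_neg_right h2,
      pair_nsmul_right h2]

/-- Every element of the anemic Hecke algebra is self-adjoint. -/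
lemma isSA_of_mem (S : Set ℕ) (hS : ∀ q : ℕ, q.Prime → q ∣ N → q ∈ S)
    (h1 : ∀ f f' g, B (f + f') g = B f g + B f' g)
    (h2 : ∀ f g g', B f (g + g') = B f g + B f g')
    (hsa : ∀ (ℓ : ℕ) (hℓ : ℓ.Prime) (hℓN : ¬ ℓ ∣ N) (f g : CuspForm (Gamma0 N) k),
      B (CuspForm.heckeTLin k hℓ hℓN f) g = B f (CuspForm.heckeTLin k hℓ hℓN g))
    {t : Module.End ℂ (CuspForm (Gamma0 N) k)} (ht : t ∈ CuspForm.heckeAlgebra N k S) :
    IsSA B t := by
  unfold CuspForm.heckeAlgebra at ht
  induction ht using Algebra.adjoin_induction with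
  | mem x hx =>
    rcases hx with ⟨ℓ, hℓ, hℓN, -, rfl⟩ | ⟨q, hqN, hq, hqS, rfl⟩
    · exact hsa ℓ hℓ hℓN
    · exact absurd (hS q hq hqN) hqS
  | algebraMap r =>
    intro f g
    have e : ∀ f : CuspForm (Gamma0 N) k,
        (algebraMap ℤ (Module.End ℂ (CuspForm (Gamma0 N) k)) r) f = r • f := by
      intro f
      rw [Algebra.algebraMap_eq_smul_one, LinearMap.smul_apply, Module.End.one_apply]
    rw [e, e, pair_zsmul_left h1, pair_zsmul_right h2]
  | add x y hx hy ihx ihy =>
    intro f g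
    rw [LinearMap.add_apply, LinearMap.add_apply, h1, h2, ihx f g, ihy f g]
  | mul x y hx hy ihx ihy =>
    intro f g
    have hc : x * y = y * x := by
      have := mul_comm (⟨x, hx⟩ : CuspForm.heckeAlgebra N k S) ⟨y, hy⟩
      exact congrArg Subtype.val this
    rw [Module.End.mul_apply, ihx, ihy, ← Module.End.mul_apply, ← hc]

end PF

/-- **PF**: the pure algebra step of L3a. -/
theorem reduced_of_pet : Stmt_reduced_of_pet := by
  intro N _ k S hS hpet
  obtain ⟨B, h1, h2, hpos, hsa⟩ := hpet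
  rw [isReduced_iff_pow_one_lt 2 one_lt_two]
  intro x hx
  have hSA : IsSA B x.1 := isSA_of_mem S hS h1 h2 hsa x.2
  have hx2 : x.1 * x.1 = 0 := by
    have := congrArg Subtype.val hx
    simpa [pow_two] using this
  apply Subtype.ext
  apply LinearMap.ext
  intro f
  apply hpos
  rw [hSA, ← Module.End.mul_apply, hx2]
  exact pair_zero_right h2 f

end Fermat.Agent.R.Pet

end
-- ==== END Fermat.Agent.R.Pet.H58_Reduced

-- ==== BEGIN Fermat.Agent.R.Pet.H78_FD
section

/-!
# Measure core for the Petersson inner product (cluster R, leaf L3a, mini-project Pet)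

Hyperbolic measure on `ℍ` (Mathlib `UpperHalfPlane.instMeasureSpace`) and the standard
fundamental domain `𝒟` of `SL(2,ℤ)`:

* `measurableConstSMul_SL`, `smulInvariantMeasure_SL` : the action of `SL(2,ℤ)` is measurable
  and measure preserving;
* `fd_boundary_null : Stmt_fd_boundary_null` (PA) : the boundary `𝒟 \ 𝒟ᵒ` is a null set;
* `fd_volume_lt_top : Stmt_fd_volume_lt_top` (PB) : `𝒟` has finite hyperbolic volume;
* `open_pos : Stmt_open_pos` (PC) : nonempty open sets have positive volume;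
* `volume_smul_fd_inter_fd` : `g • 𝒟 ∩ 𝒟` is a null set for `g ≠ ±1`;
* `iUnion_smul_fd` : the translates of `𝒟` cover `ℍ`.
-/

open MeasureTheory UpperHalfPlane ModularGroup Set
open scoped Modular MatrixGroups ENNReal NNReal Pointwise

namespace Fermat.Agent.R.Pet.H78

/-- The action of `SL(2,ℤ)` on `ℍ` is by measurable maps. -/
theorem measurableConstSMul_SL : MeasurableConstSMul SL(2, ℤ) ℍ :=
  ⟨fun g => measurable_const_smul (Matrix.SpecialLinearGroup.mapGL ℝ g)⟩

/-- The hyperbolic measure on `ℍ` is invariant under `SL(2,ℤ)`. -/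
theorem smulInvariantMeasure_SL : SMulInvariantMeasure SL(2, ℤ) ℍ volume :=
  ⟨fun g s _ => measure_preimage_smul (μ := (volume : Measure ℍ))
    (Matrix.SpecialLinearGroup.mapGL ℝ g) s⟩

attribute [local instance] measurableConstSMul_SL smulInvariantMeasure_SL

theorem measurableSet_fd : MeasurableSet (𝒟 : Set ℍ) := isClosed_fd.measurableSet

theorem measurableSet_fdo : MeasurableSet (𝒟ᵒ : Set ℍ) := isOpen_fdo.measurableSet

/-- A subset of `ℍ` whose image in `ℂ` is Lebesgue-null is null for the hyperbolic measure. -/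
theorem volume_eq_zero_of_coe_image {s : Set ℍ}
    (h : (volume : Measure ℂ) (UpperHalfPlane.coe '' s) = 0) : (volume : Measure ℍ) s = 0 := by
  rw [volume_eq_lintegral]
  exact setLIntegral_measure_zero _ _ h

theorem volume_re_eq (c : ℝ) : (volume : Measure ℂ) {z : ℂ | z.re = c} = 0 := by
  have h1 : {z : ℂ | z.re = c} = Complex.measurableEquivRealProd ⁻¹' ({c} ×ˢ (univ : Set ℝ)) := by
    ext z
    simp [Complex.measurableEquivRealProd]
  rw [h1, Complex.volume_preserving_equiv_real_prod.measure_preimage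
    ((measurableSet_singleton c).prod MeasurableSet.univ).nullMeasurableSet]
  rw [Measure.volume_eq_prod, Measure.prod_prod]
  simp

/-- The boundary of the standard fundamental domain is a null set. -/
theorem volume_fd_diff_fdo : (volume : Measure ℍ) (𝒟 \ 𝒟ᵒ) = 0 := by
  apply volume_eq_zero_of_coe_image
  have hsub : UpperHalfPlane.coe '' (𝒟 \ 𝒟ᵒ) ⊆
      Metric.sphere (0 : ℂ) 1 ∪ ({z : ℂ | z.re = 1 / 2} ∪ {z : ℂ | z.re = -(1 / 2)}) := by
    rintro _ ⟨z, ⟨hz, hz'⟩, rfl⟩
    simp only [fd, fdo, Set.mem_ofPred_eq, not_and_or, not_lt] at hz hz'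
    rcases hz' with h | h
    · left
      have h1 : Complex.normSq (z : ℂ) = 1 := le_antisymm h hz.1
      rw [mem_sphere_zero_iff_norm]
      have := Complex.normSq_eq_norm_sq (z : ℂ)
      rw [h1] at this
      have hn : 0 ≤ ‖(z : ℂ)‖ := norm_nonneg _
      nlinarith
    · right
      have h1 : |z.re| = 1 / 2 := le_antisymm hz.2 h
      rcases abs_cases z.re with ⟨h2, _⟩ | ⟨h2, _⟩
      · left
        show (z : ℂ).re = 1 / 2
        rw [← h1, h2]; rfl
      · right
        show (z : ℂ).re = -(1 / 2)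
        rw [← h1, h2]; simp
  refine measure_mono_null hsub ?_
  rw [measure_union_null_iff, measure_union_null_iff]
  exact ⟨Measure.addHaar_sphere _ _ _, volume_re_eq _, volume_re_eq _⟩

/-- PA. -/
theorem fd_boundary_null : Stmt_fd_boundary_null := volume_fd_diff_fdo

/-- auxiliary: `∫ y^{-2}` over `[1/2, ∞)` is finite. -/
theorem lintegral_Ici_inv_sq_lt_top :
    ∫⁻ y in Ici (1 / 2 : ℝ), (((1 / ‖y‖₊) ^ 2 : ℝ≥0) : ℝ≥0∞) < ⊤ := by
  have hint : IntegrableOn (fun t : ℝ => t ^ (-2 : ℝ)) (Ioi (1 / 4 : ℝ)) :=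
    integrableOn_Ioi_rpow_of_lt (by norm_num) (by norm_num)
  have h1 : ∫⁻ y in Ici (1 / 2 : ℝ), (((1 / ‖y‖₊) ^ 2 : ℝ≥0) : ℝ≥0∞)
      ≤ ∫⁻ y in Ioi (1 / 4 : ℝ), (((1 / ‖y‖₊) ^ 2 : ℝ≥0) : ℝ≥0∞) :=
    lintegral_mono_set (fun y hy => lt_of_lt_of_le (by norm_num) (mem_Ici.1 hy))
  refine lt_of_le_of_lt h1 ?_
  have h2 : ∫⁻ y in Ioi (1 / 4 : ℝ), (((1 / ‖y‖₊) ^ 2 : ℝ≥0) : ℝ≥0∞)
      = ∫⁻ y in Ioi (1 / 4 : ℝ), ‖y ^ (-2 : ℝ)‖ₑ := by
    refine setLIntegral_congr_fun measurableSet_Ioi fun y hy => ?_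
    have hy0 : (0 : ℝ) < y := lt_trans (by norm_num) (mem_Ioi.1 hy)
    rw [enorm_eq_nnnorm]
    congr 1
    ext
    simp only [one_div, NNReal.coe_pow, NNReal.coe_inv, coe_nnnorm, Real.norm_eq_abs]
    rw [abs_of_pos hy0, abs_of_pos (Real.rpow_pos_of_pos hy0 _), Real.rpow_neg hy0.le,
      show (2 : ℝ) = ((2 : ℕ) : ℝ) by norm_num, Real.rpow_natCast, inv_pow]
  rw [h2]
  exact hint.hasFiniteIntegral

theorem coe_fd_subset : UpperHalfPlane.coe '' (𝒟 : Set ℍ) ⊆
    Complex.measurableEquivRealProd ⁻¹' (Icc (-(1 / 2) : ℝ) (1 / 2) ×ˢ Ici (1 / 2 : ℝ)) := by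
  rintro _ ⟨z, hz, rfl⟩
  have h3 := three_le_four_mul_im_sq_of_mem_fd hz
  have him : 0 < z.im := z.im_pos
  refine ⟨abs_le.1 hz.2, ?_⟩
  show (1 / 2 : ℝ) ≤ z.im
  nlinarith

/-- The standard fundamental domain has finite hyperbolic volume. -/
theorem volume_fd_lt_top : (volume : Measure ℍ) (𝒟 : Set ℍ) < ⊤ := by
  rw [volume_eq_lintegral]
  refine lt_of_le_of_lt (lintegral_mono_set coe_fd_subset) ?_
  have hmp := Complex.volume_preserving_equiv_real_prod
  have key : ∫⁻ z in Complex.measurableEquivRealProd ⁻¹'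
        (Icc (-(1 / 2) : ℝ) (1 / 2) ×ˢ Ici (1 / 2 : ℝ)), (((1 / ‖z.im‖₊) ^ 2 : ℝ≥0) : ℝ≥0∞)
      = ∫⁻ p in Icc (-(1 / 2) : ℝ) (1 / 2) ×ˢ Ici (1 / 2 : ℝ),
          (((1 / ‖p.2‖₊) ^ 2 : ℝ≥0) : ℝ≥0∞) := by
    rw [← hmp.setLIntegral_comp_preimage_emb Complex.measurableEquivRealProd.measurableEmbedding]
    rfl
  rw [key, Measure.volume_eq_prod, ← Measure.prod_restrict]
  have h3 := lintegral_prod_mul (μ := (volume : Measure ℝ).restrict (Icc (-(1 / 2) : ℝ) (1 / 2)))
    (ν := (volume : Measure ℝ).restrict (Ici (1 / 2 : ℝ))) (f := fun _ => (1 : ℝ≥0∞))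
    (g := fun y : ℝ => (((1 / ‖y‖₊) ^ 2 : ℝ≥0) : ℝ≥0∞)) (by fun_prop) (by fun_prop)
  simp only [one_mul] at h3
  rw [h3]
  refine ENNReal.mul_lt_top ?_ lintegral_Ici_inv_sq_lt_top
  simp

/-- PB. -/
theorem fd_volume_lt_top : Stmt_fd_volume_lt_top := volume_fd_lt_top

/-- Nonempty open subsets of `ℍ` have positive hyperbolic volume. -/
theorem volume_pos_of_isOpen {U : Set ℍ} (hU : IsOpen U) (hne : U.Nonempty) :
    0 < (volume : Measure ℍ) U := by
  rw [volume_eq_lintegral]
  have hopen : IsOpen (UpperHalfPlane.coe '' U) := isOpenEmbedding_coe.isOpenMap U hU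
  have hmeas : Measurable fun z : ℂ => (((1 / ‖z.im‖₊) ^ 2 : ℝ≥0) : ℝ≥0∞) := by fun_prop
  rw [setLIntegral_pos_iff hmeas]
  have hsub : UpperHalfPlane.coe '' U ⊆
      Function.support (fun z : ℂ => (((1 / ‖z.im‖₊) ^ 2 : ℝ≥0) : ℝ≥0∞)) ∩
        UpperHalfPlane.coe '' U := by
    rintro _ ⟨z, hz, rfl⟩
    refine ⟨?_, z, hz, rfl⟩
    have him : z.im ≠ 0 := z.im_pos.ne'
    simp [Function.mem_support, him]
  exact lt_of_lt_of_le (hopen.measure_pos volume (hne.image _)) (measure_mono hsub)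

/-- PC. -/
theorem open_pos : Stmt_open_pos := fun _ hU hne => volume_pos_of_isOpen hU hne

/-- For `g ≠ ±1` the translate `g • 𝒟` meets `𝒟` in a null set. -/
theorem volume_smul_fd_inter_fd {g : SL(2, ℤ)} (h1 : g ≠ 1) (h2 : g ≠ -1) :
    (volume : Measure ℍ) ((g • (𝒟 : Set ℍ)) ∩ 𝒟) = 0 := by
  have hsub : (g • (𝒟 : Set ℍ)) ∩ 𝒟 ⊆ g • ((𝒟 : Set ℍ) \ 𝒟ᵒ) := by
    rintro _ ⟨⟨w, hw, rfl⟩, hz⟩
    refine ⟨w, ⟨hw, fun hwo => ?_⟩, rfl⟩
    rcases eq_one_or_neg_one_of_mem_fdo_mem_fd hwo hz with h | h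
    · exact h1 h
    · exact h2 h
  refine measure_mono_null hsub ?_
  rw [measure_smul]
  exact volume_fd_diff_fdo

/-- The translates of the standard fundamental domain cover `ℍ`. -/
theorem iUnion_smul_fd : (⋃ g : SL(2, ℤ), g • (𝒟 : Set ℍ)) = univ := by
  refine eq_univ_of_forall fun z => ?_
  obtain ⟨g, hg⟩ := exists_smul_mem_fd z
  refine mem_iUnion.2 ⟨g⁻¹, ?_⟩
  exact ⟨g • z, hg, by simp⟩

end Fermat.Agent.R.Pet.H78

end
-- ==== END Fermat.Agent.R.Pet.H78_FD

-- ==== BEGIN Fermat.Agent.R.Pet.H98_Mean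
section

/-!
# Pet (cluster R, leaf L3a): packages PD and MEAN (helper98)

* `stmt_subgroup_fd : Stmt_subgroup_fd` (PD): a fundamental domain of a subgroup of finite index
  is the union of the translates of a fundamental domain of the group by coset representatives.
* `stmt_mean_indep`, `stmt_mean_sub`, `stmt_mean_conj` (MEAN).

Reusable forms: `unionTranslates`, `isFundamentalDomain_unionTranslates`,
`measure_unionTranslates`, `setIntegral_unionTranslates`, `isFundamentalDomain_of_equiv`,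
`exists_isFD_of_le`, `mean_indep`, `mean_sub`, `isFD_conj`, `mean_smul_set`, `mean_conj`.
-/

set_option autoImplicit false

namespace Fermat.Agent.R.Pet.H98

open MeasureTheory Set UpperHalfPlane
open scoped Pointwise ENNReal

section Abstract

variable {G : Type*} [Group G] {X : Type*} [MeasurableSpace X] [MulAction G X]

/-- The union of the translates of `F` by the inverses of representatives of `G ⧸ H'`. -/
def unionTranslates (H' : Subgroup G) (F : Set X) : Set X :=
  ⋃ c : G ⧸ H', (Quotient.out c)⁻¹ • F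

theorem out_inv_injective (H' : Subgroup G) {h₁ h₂ : H'} {c₁ c₂ : G ⧸ H'}
    (h : (h₁ : G) * (Quotient.out c₁)⁻¹ = (h₂ : G) * (Quotient.out c₂)⁻¹) :
    h₁ = h₂ ∧ c₁ = c₂ := by
  have hc : c₁ = c₂ := by
    rw [← Quotient.out_eq c₁, ← Quotient.out_eq c₂]
    refine (QuotientGroup.eq (s := H')).2 ?_
    have : (Quotient.out c₁)⁻¹ * Quotient.out c₂ = (h₁ : G)⁻¹ * (h₂ : G) := by
      have h' := congrArg (fun g => (h₁ : G)⁻¹ * g * Quotient.out c₂) h
      simp only [mul_assoc, inv_mul_cancel_left, inv_mul_cancel, mul_one] at h'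
      simpa [mul_assoc] using h'
    rw [this]
    exact H'.mul_mem (H'.inv_mem h₁.2) h₂.2
  subst hc
  exact ⟨Subtype.ext (mul_right_cancel h), rfl⟩

theorem countable_quotient [Countable G] (H' : Subgroup G) : Countable (G ⧸ H') :=
  (QuotientGroup.mk_surjective (s := H')).countable

variable {μ : Measure X}

theorem pairwise_aedisjoint_out_inv_smul (H' : Subgroup G) {F : Set X}
    (hF : IsFundamentalDomain G F μ) :
    Pairwise (Function.onFun (AEDisjoint μ) fun c : G ⧸ H' => (Quotient.out c)⁻¹ • F) := by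
  intro c₁ c₂ hc
  refine hF.aedisjoint ?_
  intro h
  apply hc
  have := out_inv_injective H' (h₁ := 1) (h₂ := 1) (c₁ := c₁) (c₂ := c₂) (by simpa using h)
  exact this.2

variable [Countable G] [MeasurableConstSMul G X] [SMulInvariantMeasure G X μ]

theorem nullMeasurableSet_unionTranslates (H' : Subgroup G) {F : Set X}
    (hF : IsFundamentalDomain G F μ) : NullMeasurableSet (unionTranslates H' F) μ :=
  have := countable_quotient H'
  NullMeasurableSet.iUnion fun _ => hF.nullMeasurableSet_smul _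

theorem isFundamentalDomain_unionTranslates (H' : Subgroup G) {F : Set X}
    (hF : IsFundamentalDomain G F μ) : IsFundamentalDomain H' (unionTranslates H' F) μ := by
  refine ⟨nullMeasurableSet_unionTranslates H' hF, ?_, ?_⟩
  · filter_upwards [hF.ae_covers] with x hx
    obtain ⟨g, hg⟩ := hx
    obtain ⟨h, hh⟩ := QuotientGroup.mk_out_eq_mul H' g
    refine ⟨h⁻¹, ?_⟩
    refine mem_iUnion.2 ⟨(g : G ⧸ H'), ?_⟩
    rw [mem_inv_smul_set_iff, hh]
    show (g * (h : G)) • ((h⁻¹ : H') • x) ∈ F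
    have : (g * (h : G)) • ((h⁻¹ : H') • x) = g • x := by
      show (g * (h : G)) • (((h⁻¹ : H') : G) • x) = g • x
      rw [← mul_smul]
      simp
    rw [this]; exact hg
  · intro h₁ h₂ hne
    show AEDisjoint μ (h₁ • unionTranslates H' F) (h₂ • unionTranslates H' F)
    have e : ∀ h : H', h • unionTranslates H' F
        = ⋃ c : G ⧸ H', ((h : G) * (Quotient.out c)⁻¹) • F := by
      intro h
      show (h : G) • unionTranslates H' F = _
      rw [unionTranslates, smul_set_iUnion]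
      refine iUnion_congr fun c => ?_
      rw [mul_smul]
    rw [e, e]
    have := countable_quotient H'
    refine AEDisjoint.iUnion_left_iff.2 fun c₁ => AEDisjoint.iUnion_right_iff.2 fun c₂ => ?_
    refine hF.aedisjoint ?_
    intro h
    exact hne (out_inv_injective H' h).1

omit [Countable G] in
theorem measure_unionTranslates (H' : Subgroup G) [H'.FiniteIndex] {F : Set X}
    (hF : IsFundamentalDomain G F μ) : μ (unionTranslates H' F) = H'.index * μ F := by
  have : Finite (G ⧸ H') := Subgroup.finite_quotient_of_finiteIndex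
  have : Fintype (G ⧸ H') := Fintype.ofFinite _
  rw [unionTranslates, measure_iUnion₀ (pairwise_aedisjoint_out_inv_smul H' hF)
    (fun c => hF.nullMeasurableSet_smul _), tsum_fintype]
  simp only [measure_smul, Finset.sum_const, Finset.card_univ, nsmul_eq_mul]
  rw [Subgroup.index_eq_card, Nat.card_eq_fintype_card]

theorem setIntegral_unionTranslates {E : Type*} [NormedAddCommGroup E] [NormedSpace ℝ E]
    (H' : Subgroup G) [H'.FiniteIndex] {F : Set X}
    (hF : IsFundamentalDomain G F μ) (Φ : X → E) (hΦ : ∀ (g : G) x, Φ (g • x) = Φ x) :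
    ∫ x in unionTranslates H' F, Φ x ∂μ = H'.index • ∫ x in F, Φ x ∂μ := by
  have : Finite (G ⧸ H') := Subgroup.finite_quotient_of_finiteIndex
  have : Fintype (G ⧸ H') := Fintype.ofFinite _
  have hint : ∀ g : G, IntegrableOn Φ (g • F) μ ↔ IntegrableOn Φ F μ := fun g =>
    (hF.smul g).integrableOn_iff hF hΦ
  by_cases hi : IntegrableOn Φ F μ
  · have hi' : IntegrableOn Φ (unionTranslates H' F) μ := by
      rw [unionTranslates]
      exact integrableOn_finite_iUnion.2 fun c => (hint _).2 hi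
    rw [unionTranslates, integral_iUnion_ae (fun c => hF.nullMeasurableSet_smul _)
      (pairwise_aedisjoint_out_inv_smul H' hF) hi', tsum_fintype]
    have : ∀ c : G ⧸ H', ∫ x in (Quotient.out c)⁻¹ • F, Φ x ∂μ = ∫ x in F, Φ x ∂μ := fun c =>
      (hF.smul _).setIntegral_eq hF hΦ
    simp only [this, Finset.sum_const, Finset.card_univ]
    rw [Subgroup.index_eq_card, Nat.card_eq_fintype_card]
  · have hi' : ¬ IntegrableOn Φ (unionTranslates H' F) μ := by
      intro h
      apply hi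
      have hsub : (Quotient.out ((1 : G) : G ⧸ H'))⁻¹ • F ⊆ unionTranslates H' F :=
        subset_iUnion (fun c : G ⧸ H' => (Quotient.out c)⁻¹ • F) _
      exact (hint _).1 (h.mono_set hsub)
    rw [integral_undef hi, integral_undef hi', smul_zero]

/-- Transfer of a fundamental domain along a bijection of groups compatible with the actions. -/
theorem isFundamentalDomain_of_equiv {H₁ H₂ : Type*} [Group H₁] [Group H₂]
    [MulAction H₁ X] [MulAction H₂ X] {ν : Measure X} {F : Set X}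
    (hF : IsFundamentalDomain H₁ F ν) (e : H₂ ≃ H₁)
    (he : ∀ (g : H₂) (x : X), e g • x = g • x) :
    IsFundamentalDomain H₂ F ν := by
  have := hF.image_of_equiv (Equiv.refl X) (Measure.QuasiMeasurePreserving.id ν) e
    (fun g x => he g x)
  simpa using this

end Abstract

theorem stmt_subgroup_fd : Stmt_subgroup_fd := by
  intro G _ _ X _ _ _ μ _ H' _ F hF
  refine ⟨unionTranslates H' F, isFundamentalDomain_unionTranslates H' hF,
    measure_unionTranslates H' hF, fun Φ hΦ => ?_⟩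
  rw [setIntegral_unionTranslates H' hF Φ hΦ, nsmul_eq_mul]

/-! ## Mean values -/

section Mean

variable {𝒢 𝒢' : Subgroup (GL (Fin 2) ℝ)}

theorem mean_indep [Countable 𝒢] {F F' : Set ℍ} (hF : IsFD 𝒢 F) (hF' : IsFD 𝒢 F')
    (Ψ : ℍ → ℂ) (hΨ : ∀ g ∈ 𝒢, ∀ z, Ψ (g • z) = Ψ z) : mean F' Ψ = mean F Ψ := by
  unfold mean
  rw [hF'.fd.setIntegral_eq hF.fd (fun g z => hΨ g g.2 z), hF'.fd.measure_eq hF.fd]

theorem countable_of_le (hle : 𝒢' ≤ 𝒢) [Countable 𝒢] : Countable 𝒢' :=
  (Subgroup.inclusion_injective hle).countable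

/-- A subgroup of finite index of a group with a fundamental domain of finite volume has one. -/
theorem exists_isFD_of_le [Countable 𝒢] (hle : 𝒢' ≤ 𝒢) (hidx : 𝒢'.relIndex 𝒢 ≠ 0)
    {F : Set ℍ} (hF : IsFD 𝒢 F) :
    ∃ F'' : Set ℍ, IsFD 𝒢' F'' ∧ volume F'' = 𝒢'.relIndex 𝒢 * volume F ∧
      ∀ Ψ : ℍ → ℂ, (∀ g ∈ 𝒢, ∀ z, Ψ (g • z) = Ψ z) →
        ∫ z in F'', Ψ z = (𝒢'.relIndex 𝒢 : ℂ) * ∫ z in F, Ψ z := by
  have : (𝒢'.subgroupOf 𝒢).FiniteIndex := ⟨hidx⟩
  have h1 := isFundamentalDomain_unionTranslates (𝒢'.subgroupOf 𝒢) hF.fd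
  have h2 := measure_unionTranslates (𝒢'.subgroupOf 𝒢) hF.fd
  have h3 : IsFundamentalDomain 𝒢' (unionTranslates (𝒢'.subgroupOf 𝒢) F) (volume : Measure ℍ) :=
    isFundamentalDomain_of_equiv h1 (Subgroup.subgroupOfEquivOfLe hle).symm.toEquiv
      (fun g x => rfl)
  refine ⟨unionTranslates (𝒢'.subgroupOf 𝒢) F, ⟨h3, ?_⟩, h2, fun Ψ hΨ => ?_⟩
  · rw [h2]
    exact ENNReal.mul_lt_top (ENNReal.natCast_lt_top _) hF.fin
  · rw [setIntegral_unionTranslates (𝒢'.subgroupOf 𝒢) hF.fd Ψ (fun g z => hΨ g g.2 z),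
      nsmul_eq_mul]
    rfl

theorem mean_sub [Countable 𝒢] (hle : 𝒢' ≤ 𝒢) (hidx : 𝒢'.relIndex 𝒢 ≠ 0)
    {F F' : Set ℍ} (hF : IsFD 𝒢 F) (hF' : IsFD 𝒢' F')
    (Ψ : ℍ → ℂ) (hΨ : ∀ g ∈ 𝒢, ∀ z, Ψ (g • z) = Ψ z) : mean F' Ψ = mean F Ψ := by
  obtain ⟨F'', hF'', hvol, hint⟩ := exists_isFD_of_le hle hidx hF
  have := countable_of_le hle
  rw [mean_indep hF'' hF' Ψ (fun g hg z => hΨ g (hle hg) z)]
  unfold mean
  rw [hint Ψ hΨ, hvol, ENNReal.toReal_mul, ENNReal.toReal_natCast]
  push_cast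
  rw [mul_div_mul_left _ _ (Nat.cast_ne_zero.2 hidx)]

/-- The conjugate of a subgroup of `GL₂(ℝ)`. -/
abbrev conjSubgroup (α : GL (Fin 2) ℝ) (𝒢 : Subgroup (GL (Fin 2) ℝ)) : Subgroup (GL (Fin 2) ℝ) :=
  𝒢.map (MulAut.conj α).toMonoidHom

theorem isFD_conj {F : Set ℍ} (hF : IsFD 𝒢 F) (α : GL (Fin 2) ℝ) :
    IsFD (conjSubgroup α 𝒢) (α • F) := by
  have hinj : Function.Injective (MulAut.conj α).toMonoidHom := (MulAut.conj α).injective
  refine ⟨?_, ?_⟩
  · have := hF.fd.image_of_equiv (ν := (volume : Measure ℍ)) (MulAction.toPerm α)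
      ((measurePreserving_smul α⁻¹ (volume : Measure ℍ)).quasiMeasurePreserving)
      (𝒢.equivMapOfInjective _ hinj).symm.toEquiv ?_
    · exact this
    · intro g z
      obtain ⟨h, rfl⟩ := (𝒢.equivMapOfInjective _ hinj).surjective g
      simp only [MulEquiv.toEquiv_eq_coe, EquivLike.coe_coe, MulEquiv.symm_apply_apply,
        MulAction.toPerm_apply]
      show α • ((h : GL (Fin 2) ℝ) • z)
        = ((𝒢.equivMapOfInjective _ hinj h : conjSubgroup α 𝒢) : GL (Fin 2) ℝ) • (α • z)
      rw [Subgroup.coe_equivMapOfInjective_apply]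
      simp only [MulEquiv.coe_toMonoidHom, MulAut.conj_apply, ← mul_smul]
      simp
  · rw [measure_smul]; exact hF.fin

theorem mean_smul_set (F : Set ℍ) (α : GL (Fin 2) ℝ) (Ψ : ℍ → ℂ) :
    mean (α • F) Ψ = mean F (fun z => Ψ (α • z)) := by
  unfold mean
  rw [measure_smul, ← Set.image_smul,
    (measurePreserving_smul α (volume : Measure ℍ)).setIntegral_image_emb
      (measurableEmbedding_const_smul α)]

theorem mean_conj [Countable 𝒢] {F : Set ℍ} (hF : IsFD 𝒢 F) (α : GL (Fin 2) ℝ)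
    (hα : Subgroup.Commensurable (conjSubgroup α 𝒢) 𝒢)
    (Ψ : ℍ → ℂ) (hΨ : ∀ g ∈ 𝒢, ∀ z, Ψ (g • z) = Ψ z)
    (hΨ' : ∀ g ∈ 𝒢, ∀ z, Ψ ((α * g * α⁻¹) • z) = Ψ z) :
    mean F (fun z => Ψ (α • z)) = mean F Ψ := by
  have hinj : Function.Injective (MulAut.conj α).toMonoidHom := (MulAut.conj α).injective
  have : Countable (conjSubgroup α 𝒢) :=
    Countable.of_equiv _ (𝒢.equivMapOfInjective _ hinj).toEquiv
  have hΨ'' : ∀ g ∈ conjSubgroup α 𝒢, ∀ z, Ψ (g • z) = Ψ z := by
    rintro g ⟨h, hh, rfl⟩ z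
    exact hΨ' h hh z
  -- a fundamental domain of the intersection
  have hidx1 : (conjSubgroup α 𝒢 ⊓ 𝒢).relIndex 𝒢 ≠ 0 := by
    rw [Subgroup.inf_relIndex_right]; exact hα.1
  have hidx2 : (conjSubgroup α 𝒢 ⊓ 𝒢).relIndex (conjSubgroup α 𝒢) ≠ 0 := by
    rw [Subgroup.inf_relIndex_left]; exact hα.2
  obtain ⟨F'', hF'', -, -⟩ := exists_isFD_of_le inf_le_right hidx1 hF
  rw [← mean_smul_set, ← mean_sub inf_le_right hidx1 hF hF'' Ψ hΨ,
    ← mean_sub inf_le_left hidx2 (isFD_conj hF α) hF'' Ψ hΨ'']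

end Mean

theorem stmt_mean_indep : Stmt_mean_indep := by
  intro 𝒢 h𝒢 F F' hF hF' Ψ hΨ
  have := h𝒢
  exact mean_indep hF hF' Ψ hΨ

theorem stmt_mean_sub : Stmt_mean_sub := by
  intro 𝒢 𝒢' h𝒢 hle hidx F F' hF hF' Ψ hΨ
  have := h𝒢
  exact mean_sub hle hidx hF hF' Ψ hΨ

theorem stmt_mean_conj : Stmt_mean_conj := by
  intro 𝒢 h𝒢 F hF α hα Ψ hΨ hΨ'
  have := h𝒢
  exact mean_conj hF α hα Ψ hΨ hΨ'

end Fermat.Agent.R.Pet.H98

end
-- ==== END Fermat.Agent.R.Pet.H98_Mean

-- ==== BEGIN Fermat.Agent.R.Transfer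
section

/-!
# Cluster R: the transfer principle (helper86)

Setting: `𝕋 = heckeAlgebra N 2 S` (anemic Hecke algebra), `ρ` a representation over a
separated local ring `T` with `p ∈ 𝔪_T`, whose Frobenius characteristic polynomials are
`X ^ 2 - π (T_ℓ) X + ℓ` for a ring homomorphism `π : 𝕋 → T` (this is what a
`HeckeGaloisRepDatum` provides; `T` may have characteristic `p` and may be non-reduced).

`transfer_charpoly`: if for every `p`-adic point `χ : 𝕋 → 𝒪'` (complete DVR of characteristic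
`0`) there is a representation `ρ'` with Frobenius characteristic polynomials
`X ^ 2 - χ (T_ℓ) X + ℓ` such that `ρ' g₁` and `ρ' g₂` have the same characteristic polynomial,
then `ρ g₁` and `ρ g₂` have the same characteristic polynomial.

Inputs (hypotheses): `Stmt_FD` (Frobenius density, item 61), `Stmt_Sep` (the Hecke algebra is
`p`-adically separated by its points).  Proof: modulo `𝔪_T ^ n` the trace of `ρ g` is
`π (lucasV (T_ℓ) ℓ j)` for Frobenius data `(ℓ, σ, j)` approximating `g`; the same Hecke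
element computes the trace of `ρ' g` at every point, hence the difference of the Hecke elements
for `g₁`, `g₂` is divisible by `p ^ n` in `𝕋`.
-/

set_option autoImplicit false

open Polynomial IsLocalRing

namespace Fermat.Agent.R

section Algebra

variable {A : Type*} [CommRing A] {V : Type*} [AddCommGroup V] [Module A V]

/-- A linear map preserves `I • ⊤`. -/
lemma map_mem_smul_top (I : Ideal A) (f : Module.End A V) {v : V}
    (hv : v ∈ I • (⊤ : Submodule A V)) : f v ∈ I • (⊤ : Submodule A V) := by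
  have h : (I • (⊤ : Submodule A V)).map f ≤ I • (⊤ : Submodule A V) := by
    rw [Submodule.map_smul'']
    exact Submodule.smul_mono le_rfl le_top
  exact h (Submodule.mem_map_of_mem hv)

/-- Coordinates of an element of `I • ⊤` lie in `I`. -/
lemma repr_mem_of_mem_smul_top {ι : Type*} (b : Module.Basis ι A V) (I : Ideal A) {v : V}
    (hv : v ∈ I • (⊤ : Submodule A V)) (i : ι) : b.repr v i ∈ I := by
  refine Submodule.smul_induction_on (p := fun x => b.repr x i ∈ I) hv ?_ ?_
  · intro a ha w _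
    rw [map_smul, Finsupp.smul_apply, smul_eq_mul]
    exact I.mul_mem_right _ ha
  · intro x y hx hy
    rw [map_add, Finsupp.add_apply]
    exact I.add_mem hx hy

variable [Module.Free A V] [Module.Finite A V]

/-- Endomorphisms congruent modulo `I` have congruent trace and determinant. -/
lemma trace_det_congr (I : Ideal A) (f g : Module.End A V)
    (h : ∀ v, f v - g v ∈ I • (⊤ : Submodule A V)) :
    LinearMap.trace A V f - LinearMap.trace A V g ∈ I ∧
      LinearMap.det f - LinearMap.det g ∈ I := by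
  classical
  let b := Module.Free.chooseBasis A V
  have hentry : ∀ i j, LinearMap.toMatrix b b f i j - LinearMap.toMatrix b b g i j ∈ I := by
    intro i j
    rw [LinearMap.toMatrix_apply, LinearMap.toMatrix_apply, ← Finsupp.sub_apply, ← map_sub]
    exact repr_mem_of_mem_smul_top b I (h (b j)) i
  have hmap : (LinearMap.toMatrix b b f).map (Ideal.Quotient.mk I)
      = (LinearMap.toMatrix b b g).map (Ideal.Quotient.mk I) := by
    ext i j
    simp only [Matrix.map_apply]
    exact (Ideal.Quotient.eq).mpr (hentry i j)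
  constructor
  · rw [LinearMap.trace_eq_matrix_trace A b f, LinearMap.trace_eq_matrix_trace A b g,
      ← Ideal.Quotient.eq]
    have h1 := congrArg Matrix.trace hmap
    simpa [Matrix.trace, map_sum] using h1
  · rw [← LinearMap.det_toMatrix b f, ← LinearMap.det_toMatrix b g, ← Ideal.Quotient.eq,
      RingHom.map_det, RingHom.map_det]
    exact congrArg Matrix.det hmap

/-- In rank 2 the characteristic polynomial determines trace and determinant. -/
lemma trace_det_eq_of_charpoly_eq {W : Type*} [AddCommGroup W] [Module A W] [Module.Free A W]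
    [Module.Finite A W] (hV : Module.finrank A V = 2) (hW : Module.finrank A W = 2)
    (f : Module.End A V) (g : Module.End A W) (h : f.charpoly = g.charpoly) :
    LinearMap.trace A V f = LinearMap.trace A W g ∧ LinearMap.det f = LinearMap.det g := by
  rw [H91.charpoly_eq_of_finrank_two hV f, H91.charpoly_eq_of_finrank_two hW g] at h
  have h0 := congrArg (fun q : A[X] => q.coeff 0) h
  have h1 := congrArg (fun q : A[X] => q.coeff 1) h
  simp only [coeff_add, coeff_sub, coeff_X_pow, coeff_C_mul, coeff_X_zero, coeff_X_one,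
    coeff_C_zero, coeff_C_succ, mul_zero, mul_one, sub_zero, add_zero] at h0 h1
  norm_num at h0 h1
  exact ⟨h1, h0⟩

end Algebra

section DVR

/-- Divisibility descends along an injective local homomorphism out of a valuation ring. -/
lemma dvd_of_map_dvd {R R' : Type*} [CommRing R] [IsDomain R] [ValuationRing R]
    [CommRing R'] [IsLocalRing R'] (φ : R →+* R') (hinj : Function.Injective φ)
    [IsLocalHom φ] {a r : R} (h : φ a ∣ φ r) : a ∣ r := by
  rcases ValuationRing.dvd_total a r with h1 | ⟨u, hu⟩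
  · exact h1
  · -- `a = r * u`
    by_cases hunit : IsUnit u
    · obtain ⟨v, rfl⟩ := hunit
      exact ⟨↑v⁻¹, by rw [hu, mul_assoc, Units.mul_inv, mul_one]⟩
    · have hφu : ¬ IsUnit (φ u) := fun hc => hunit (isUnit_of_map_unit φ u hc)
      obtain ⟨s, hs⟩ := h
      have h2 : φ r * (1 - φ u * s) = 0 := by
        have : φ a = φ r * φ u := by rw [hu, map_mul]
        rw [mul_sub, mul_one, ← mul_assoc, ← this, ← hs, sub_self]
      have h3 : IsUnit (1 - φ u * s) := by
        have hmem : φ u * s ∈ maximalIdeal R' :=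
          Ideal.mul_mem_right _ _ ((mem_maximalIdeal _).mpr hφu)
        by_contra hnu
        have h4 : (1 - φ u * s) ∈ maximalIdeal R' := (mem_maximalIdeal _).mpr hnu
        have h5 : (1 : R') ∈ maximalIdeal R' := by
          have := Ideal.add_mem _ h4 hmem
          simp at this
        exact (Ideal.ne_top_iff_one _).mp (maximalIdeal.isMaximal R').ne_top h5
      have h6 : φ r = 0 := by
        obtain ⟨w, hw⟩ := h3
        have := congrArg (· * (↑w⁻¹ : R')) h2
        simp only [zero_mul] at this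
        rw [← hw, mul_assoc, Units.mul_inv, mul_one] at this
        exact this
      have h7 : r = 0 := hinj (by rw [h6, map_zero])
      rw [h7]
      exact dvd_zero a

/-- In a discrete valuation ring every nonzero principal ideal contains a power of the maximal
ideal. -/
lemma exists_pow_le_span {R : Type*} [CommRing R] [IsDomain R] [IsDiscreteValuationRing R]
    {a : R} (ha : a ≠ 0) : ∃ M : ℕ, maximalIdeal R ^ M ≤ Ideal.span {a} := by
  obtain ⟨ϖ, hϖ⟩ := IsDiscreteValuationRing.exists_irreducible R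
  have hs : Ideal.span {a} ≠ ⊥ := by
    rw [Ne, Ideal.span_singleton_eq_bot]; exact ha
  obtain ⟨M, hM⟩ := IsDiscreteValuationRing.ideal_eq_span_pow_irreducible hs hϖ
  refine ⟨M, ?_⟩
  rw [hM, hϖ.maximalIdeal_eq, Ideal.span_singleton_pow]

end DVR

section Core

variable {A : Type} [CommRing A] [IsLocalRing A]

/-- **Core congruence.**  For an adically continuous representation and a level `n` there is a
finite extension `L` of `ℚ` such that whenever `σ ^ j` and `g` agree on `L`, the endomorphisms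
`ρ g` and `(ρ σ) ^ j` are congruent modulo `𝔪 ^ n`. -/
lemma exists_field_congr (ρ : GaloisRepAdic A) (n : ℕ) :
    ∃ L : IntermediateField ℚ (AlgebraicClosure ℚ), FiniteDimensional ℚ L ∧
      ∀ (g σ : AlgebraicClosure ℚ ≃ₐ[ℚ] AlgebraicClosure ℚ) (j : ℕ),
        (∀ x ∈ L, (σ ^ j) x = g x) →
        ∀ v : ρ.V, ρ.ρ g v - (ρ.ρ σ ^ j) v ∈ (maximalIdeal A ^ n) • (⊤ : Submodule A ρ.V) := by
  obtain ⟨L, hL, h1⟩ := ρ.isAdicContinuous n
  refine ⟨L, hL, fun g σ j hgσ v => ?_⟩
  set u : AlgebraicClosure ℚ ≃ₐ[ℚ] AlgebraicClosure ℚ := (σ ^ j)⁻¹ * g with hu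
  have hfix : ∀ x ∈ L, u x = x := by
    intro x hx
    rw [hu, AlgEquiv.mul_apply, ← hgσ x hx]
    exact (σ ^ j).symm_apply_apply x
  have h2 := h1 u hfix v
  have h3 := map_mem_smul_top (maximalIdeal A ^ n) (ρ.ρ (σ ^ j)) h2
  have hg : g = σ ^ j * u := by rw [hu, mul_inv_cancel_left]
  have e : ρ.ρ g v - (ρ.ρ σ ^ j) v = ρ.ρ (σ ^ j) (ρ.ρ u v - v) := by
    rw [map_sub, ← Module.End.mul_apply, ← map_mul, ← hg, map_pow]
  rw [e]
  exact h3

/-- Consequence of the core congruence for Frobenius elements with known characteristic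
polynomial. -/
lemma charpoly_congr_of_frob (ρ : GaloisRepAdic A) (n : ℕ)
    {L : IntermediateField ℚ (AlgebraicClosure ℚ)}
    (hL : ∀ (g σ : AlgebraicClosure ℚ ≃ₐ[ℚ] AlgebraicClosure ℚ) (j : ℕ),
        (∀ x ∈ L, (σ ^ j) x = g x) →
        ∀ v : ρ.V, ρ.ρ g v - (ρ.ρ σ ^ j) v ∈ (maximalIdeal A ^ n) • (⊤ : Submodule A ρ.V))
    (g σ : AlgebraicClosure ℚ ≃ₐ[ℚ] AlgebraicClosure ℚ) (j : ℕ)
    (hgσ : ∀ x ∈ L, (σ ^ j) x = g x) {t d : A}
    (hσ : LinearMap.charpoly (ρ.ρ σ) = X ^ 2 - C t * X + C d) :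
    LinearMap.trace A ρ.V (ρ.ρ g) - H91.lucasV t d j ∈ maximalIdeal A ^ n ∧
      LinearMap.det (ρ.ρ g) - d ^ j ∈ maximalIdeal A ^ n := by
  have h := trace_det_congr (maximalIdeal A ^ n) (ρ.ρ g) (ρ.ρ σ ^ j) (hL g σ j hgσ)
  have hc := H91.charpoly_pow_of_charpoly ρ.finrank_eq (ρ.ρ σ) hσ j
  have htr := H91.trace_pow_of_charpoly ρ.finrank_eq (ρ.ρ σ) hσ j
  have hdet : LinearMap.det (ρ.ρ σ ^ j) = d ^ j := by
    have h2 := H91.charpoly_eq_of_finrank_two ρ.finrank_eq (ρ.ρ σ ^ j)
    rw [hc] at h2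
    have h0 := congrArg (fun q : A[X] => q.coeff 0) h2
    simp only [coeff_add, coeff_sub, coeff_X_pow, coeff_C_mul, coeff_X_zero,
      coeff_C_zero, mul_zero, sub_zero] at h0
    norm_num at h0
    rw [map_pow]
    exact h0.symm
  rw [htr, hdet] at h
  exact h

end Core

section Transfer

variable {N : ℕ} [NeZero N] {S : Finset ℕ}

/-- Frobenius data approximating `g` on the field `L`: a prime `ℓ ∉ S`, `ℓ ∤ N`, a Frobenius
element `σ` at a valuation subring over `ℓ`, and an exponent `j` with `σ ^ j = g` on `L`. -/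
structure FrobData (N : ℕ) (S : Finset ℕ) (L : IntermediateField ℚ (AlgebraicClosure ℚ))
    (g : AlgebraicClosure ℚ ≃ₐ[ℚ] AlgebraicClosure ℚ) where
  /-- the prime -/
  ℓ : ℕ
  prime : ℓ.Prime
  notDvd : ¬ ℓ ∣ N
  notMem : ℓ ∉ (↑S : Set ℕ)
  /-- the valuation subring -/
  A : ValuationSubring (AlgebraicClosure ℚ)
  liesOver : A.LiesOverPrime ℓ
  /-- the Frobenius element -/
  σ : AlgebraicClosure ℚ ≃ₐ[ℚ] AlgebraicClosure ℚ
  frob : A.IsFrobeniusAt σ ℓ
  /-- the exponent -/
  j : ℕ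
  agree : ∀ x ∈ L, (σ ^ j) x = g x

/-- The element of the Hecke algebra computing the trace at `g`. -/
noncomputable def FrobData.tr {L : IntermediateField ℚ (AlgebraicClosure ℚ)}
    {g : AlgebraicClosure ℚ ≃ₐ[ℚ] AlgebraicClosure ℚ} (D : FrobData N S L g) :
    CuspForm.heckeAlgebra N 2 (↑S : Set ℕ) :=
  H91.lucasV (CuspForm.heckeAlgebra.T D.prime D.notDvd D.notMem)
    ((D.ℓ : ℕ) : CuspForm.heckeAlgebra N 2 (↑S : Set ℕ)) D.j

/-- The element of the Hecke algebra computing the determinant at `g`. -/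
noncomputable def FrobData.dt {L : IntermediateField ℚ (AlgebraicClosure ℚ)}
    {g : AlgebraicClosure ℚ ≃ₐ[ℚ] AlgebraicClosure ℚ} (D : FrobData N S L g) :
    CuspForm.heckeAlgebra N 2 (↑S : Set ℕ) :=
  ((D.ℓ : ℕ) : CuspForm.heckeAlgebra N 2 (↑S : Set ℕ)) ^ D.j

/-- Restriction of Frobenius data to a smaller field. -/
def FrobData.restrict {L L' : IntermediateField ℚ (AlgebraicClosure ℚ)}
    {g : AlgebraicClosure ℚ ≃ₐ[ℚ] AlgebraicClosure ℚ} (D : FrobData N S L' g) (h : L ≤ L') :
    FrobData N S L g :=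
  { D with agree := fun x hx => D.agree x (h hx) }

omit [NeZero N] in
/-- Frobenius density produces Frobenius data. -/
lemma FrobData.nonempty (hFD : Stmt_FD) (hNS : ∀ q : ℕ, q.Prime → q ∣ N → q ∈ S)
    (L : IntermediateField ℚ (AlgebraicClosure ℚ)) (hL : FiniteDimensional ℚ L)
    (g : AlgebraicClosure ℚ ≃ₐ[ℚ] AlgebraicClosure ℚ) : Nonempty (FrobData N S L g) := by
  obtain ⟨ℓ, A, σ, j, hℓ, hℓS, hA, hσ, hag⟩ := hFD S L hL g
  exact ⟨{ ℓ := ℓ, prime := hℓ, notDvd := fun hd => hℓS (hNS ℓ hℓ hd),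
           notMem := fun hm => hℓS (Finset.mem_coe.mp hm), A := A, liesOver := hA, σ := σ,
           frob := hσ, j := j, agree := hag }⟩

/-- A representation over `A` has the Frobenius characteristic polynomials prescribed by the
eigensystem `ψ`. -/
def HasFrobCharpoly {A : Type} [CommRing A] [IsLocalRing A]
    (ψ : CuspForm.heckeAlgebra N 2 (↑S : Set ℕ) →+* A) (ρ : GaloisRepAdic A) : Prop :=
  ∀ (ℓ : ℕ) (hℓ : ℓ.Prime) (hℓN : ¬ ℓ ∣ N) (hℓS : ℓ ∉ (↑S : Set ℕ)),
    ∀ B : ValuationSubring (AlgebraicClosure ℚ), B.LiesOverPrime ℓ →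
      ∀ σ : AlgebraicClosure ℚ ≃ₐ[ℚ] AlgebraicClosure ℚ, B.IsFrobeniusAt σ ℓ →
        LinearMap.charpoly (ρ.ρ σ) =
          X ^ 2 - C (ψ (CuspForm.heckeAlgebra.T hℓ hℓN hℓS)) * X + C ((ℓ : A))

/-- Approximation of trace and determinant by Hecke elements. -/
lemma exists_field_approx {A : Type} [CommRing A] [IsLocalRing A]
    (ψ : CuspForm.heckeAlgebra N 2 (↑S : Set ℕ) →+* A) (ρ : GaloisRepAdic A)
    (hρ : HasFrobCharpoly ψ ρ) (n : ℕ) :
    ∃ L : IntermediateField ℚ (AlgebraicClosure ℚ), FiniteDimensional ℚ L ∧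
      ∀ (g : AlgebraicClosure ℚ ≃ₐ[ℚ] AlgebraicClosure ℚ) (D : FrobData N S L g),
        LinearMap.trace A ρ.V (ρ.ρ g) - ψ D.tr ∈ maximalIdeal A ^ n ∧
          LinearMap.det (ρ.ρ g) - ψ D.dt ∈ maximalIdeal A ^ n := by
  obtain ⟨L, hL, h⟩ := exists_field_congr ρ n
  refine ⟨L, hL, fun g D => ?_⟩
  have h1 := charpoly_congr_of_frob ρ n h g D.σ D.j D.agree
    (hρ D.ℓ D.prime D.notDvd D.notMem D.A D.liesOver D.σ D.frob)
  have e1 : ψ D.tr = H91.lucasV (ψ (CuspForm.heckeAlgebra.T D.prime D.notDvd D.notMem))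
      ((D.ℓ : ℕ) : A) D.j := by
    rw [FrobData.tr, H91.map_lucasV, map_natCast]
  have e2 : ψ D.dt = ((D.ℓ : ℕ) : A) ^ D.j := by
    rw [FrobData.dt, map_pow, map_natCast]
  rw [e1, e2]
  exact h1


/-- At the `p`-adic point `P` there is a representation (over an extension of the coefficient
ring) with the right Frobenius characteristic polynomials for which `g₁` and `g₂` have the
same characteristic polynomial. -/
def PointCharpolyEq {p : ℕ} (P : PadicPoint N S p)
    (g₁ g₂ : AlgebraicClosure ℚ ≃ₐ[ℚ] AlgebraicClosure ℚ) : Prop :=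
  ∃ (𝒪'' : Type) (_ : CommRing 𝒪'') (_ : IsDomain 𝒪'') (_ : IsDiscreteValuationRing 𝒪'')
    (_ : CharZero 𝒪'') (φ : P.R →+* 𝒪'') (_ : Function.Injective φ) (_ : IsLocalHom φ)
    (ρ' : GaloisRepAdic 𝒪''),
    HasFrobCharpoly (φ.comp P.χ) ρ' ∧ (ρ'.ρ g₁).charpoly = (ρ'.ρ g₂).charpoly

/-- The contribution of one `p`-adic point. -/
lemma exists_field_point {p : ℕ} (hp0 : p ≠ 0) (P : PadicPoint N S p)
    (g₁ g₂ : AlgebraicClosure ℚ ≃ₐ[ℚ] AlgebraicClosure ℚ) (hpt : PointCharpolyEq P g₁ g₂)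
    (k : ℕ) :
    ∃ L : IntermediateField ℚ (AlgebraicClosure ℚ), FiniteDimensional ℚ L ∧
      ∀ (D₁ : FrobData N S L g₁) (D₂ : FrobData N S L g₂),
        P.χ (D₁.tr - D₂.tr) ∈ Ideal.span {((p : P.R)) ^ k} ∧
          P.χ (D₁.dt - D₂.dt) ∈ Ideal.span {((p : P.R)) ^ k} := by
  obtain ⟨𝒪'', _, _, _, _, φ, hinj, _, ρ', hρ', hcp⟩ := hpt
  have hpk : ((p : 𝒪'')) ^ k ≠ 0 := pow_ne_zero _ (Nat.cast_ne_zero.mpr hp0)
  obtain ⟨M, hM⟩ := exists_pow_le_span hpk
  obtain ⟨L, hL, happ⟩ := exists_field_approx (φ.comp P.χ) ρ' hρ' M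
  refine ⟨L, hL, fun D₁ D₂ => ?_⟩
  obtain ⟨htr, hdet⟩ := trace_det_eq_of_charpoly_eq ρ'.finrank_eq ρ'.finrank_eq _ _ hcp
  obtain ⟨a1, b1⟩ := happ g₁ D₁
  obtain ⟨a2, b2⟩ := happ g₂ D₂
  have key : ∀ y : CuspForm.heckeAlgebra N 2 (↑S : Set ℕ),
      φ (P.χ y) ∈ maximalIdeal 𝒪'' ^ M → P.χ y ∈ Ideal.span {((p : P.R)) ^ k} := by
    intro y hy
    have h1 := hM hy
    rw [Ideal.mem_span_singleton] at h1 ⊢
    have h2 : φ ((p : P.R) ^ k) ∣ φ (P.χ y) := by
      rw [map_pow, map_natCast]; exact h1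
    exact dvd_of_map_dvd φ hinj h2
  constructor
  · apply key
    have : φ (P.χ (D₁.tr - D₂.tr))
        = (LinearMap.trace 𝒪'' ρ'.V (ρ'.ρ g₂) - (φ.comp P.χ) D₂.tr)
          - (LinearMap.trace 𝒪'' ρ'.V (ρ'.ρ g₁) - (φ.comp P.χ) D₁.tr) := by
      rw [htr, map_sub, map_sub, RingHom.comp_apply, RingHom.comp_apply]
      ring
    rw [this]
    exact Ideal.sub_mem _ a2 a1
  · apply key
    have : φ (P.χ (D₁.dt - D₂.dt))
        = (LinearMap.det (ρ'.ρ g₂) - (φ.comp P.χ) D₂.dt)
          - (LinearMap.det (ρ'.ρ g₁) - (φ.comp P.χ) D₁.dt) := by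
      rw [hdet, map_sub, map_sub, RingHom.comp_apply, RingHom.comp_apply]
      ring
    rw [this]
    exact Ideal.sub_mem _ b2 b1

/-- **Transfer principle.**  Let `ρ` be a representation over a separated local ring `T` in
which `p` is not a unit, with Frobenius characteristic polynomials prescribed by
`π : 𝕋 → T`.  If at every `p`-adic point of the Hecke algebra some representation with the
right Frobenius characteristic polynomials gives `g₁` and `g₂` the same characteristic
polynomial, then `ρ g₁` and `ρ g₂` have the same characteristic polynomial. -/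
theorem transfer_charpoly {p : ℕ} (hp0 : p ≠ 0) (hFD : Stmt_FD) (hSep : Stmt_Sep N S p)
    (hNS : ∀ q : ℕ, q.Prime → q ∣ N → q ∈ S)
    {T : Type} [CommRing T] [IsLocalRing T] [IsHausdorff (maximalIdeal T) T]
    (hpT : (p : T) ∈ maximalIdeal T)
    (π : CuspForm.heckeAlgebra N 2 (↑S : Set ℕ) →+* T) (ρ : GaloisRepAdic T)
    (hρ : HasFrobCharpoly π ρ)
    (g₁ g₂ : AlgebraicClosure ℚ ≃ₐ[ℚ] AlgebraicClosure ℚ)
    (hpts : ∀ P : PadicPoint N S p, PointCharpolyEq P g₁ g₂) :
    (ρ.ρ g₁).charpoly = (ρ.ρ g₂).charpoly := by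
  -- it suffices to prove the congruences modulo all powers of the maximal ideal
  have hmain : ∀ n : ℕ,
      LinearMap.trace T ρ.V (ρ.ρ g₁) - LinearMap.trace T ρ.V (ρ.ρ g₂) ∈ maximalIdeal T ^ n ∧
        LinearMap.det (ρ.ρ g₁) - LinearMap.det (ρ.ρ g₂) ∈ maximalIdeal T ^ n := by
    intro n
    obtain ⟨ι, hfin, P, c, hsep⟩ := hSep
    obtain ⟨L₀, hL₀, happ⟩ := exists_field_approx π ρ hρ n
    choose Lp hLp hpoint using fun i => exists_field_point hp0 (P i) g₁ g₂ (hpts (P i)) (n + c)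
    let L : IntermediateField ℚ (AlgebraicClosure ℚ) := L₀ ⊔ ⨆ i, Lp i
    have hLfin : FiniteDimensional ℚ L := by
      have := hL₀
      have : ∀ i, FiniteDimensional ℚ (Lp i) := hLp
      have : FiniteDimensional ℚ (⨆ i, Lp i : IntermediateField ℚ (AlgebraicClosure ℚ)) :=
        IntermediateField.finiteDimensional_iSup_of_finite
      exact IntermediateField.finiteDimensional_sup _ _
    have hle₀ : L₀ ≤ L := le_sup_left
    have hlei : ∀ i, Lp i ≤ L := fun i => (le_iSup Lp i).trans le_sup_right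
    obtain ⟨D₁⟩ := FrobData.nonempty hFD hNS L hLfin g₁
    obtain ⟨D₂⟩ := FrobData.nonempty hFD hNS L hLfin g₂
    -- the Hecke elements are divisible by `p ^ n`
    have hdiv : ∀ y : CuspForm.heckeAlgebra N 2 (↑S : Set ℕ),
        (∀ i, (P i).χ y ∈ Ideal.span {(((p : ℕ) : (P i).R)) ^ (n + c)}) →
          π y ∈ maximalIdeal T ^ n := by
      intro y hy
      have h1 := hsep n y hy
      rw [Ideal.mem_span_singleton] at h1
      obtain ⟨z, rfl⟩ := h1
      rw [map_mul, map_pow, map_natCast]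
      exact Ideal.mul_mem_right _ _ (Ideal.pow_mem_pow hpT n)
    have htr : π (D₁.tr - D₂.tr) ∈ maximalIdeal T ^ n :=
      hdiv _ fun i => (hpoint i ((D₁.restrict (hlei i))) (D₂.restrict (hlei i))).1
    have hdt : π (D₁.dt - D₂.dt) ∈ maximalIdeal T ^ n :=
      hdiv _ fun i => (hpoint i ((D₁.restrict (hlei i))) (D₂.restrict (hlei i))).2
    obtain ⟨a1, b1⟩ := happ g₁ (D₁.restrict hle₀)
    obtain ⟨a2, b2⟩ := happ g₂ (D₂.restrict hle₀)
    constructor
    · have : LinearMap.trace T ρ.V (ρ.ρ g₁) - LinearMap.trace T ρ.V (ρ.ρ g₂)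
          = (LinearMap.trace T ρ.V (ρ.ρ g₁) - π (D₁.restrict hle₀).tr)
            - (LinearMap.trace T ρ.V (ρ.ρ g₂) - π (D₂.restrict hle₀).tr)
            + π (D₁.tr - D₂.tr) := by
        rw [map_sub]
        change _ = (_ - π D₁.tr) - (_ - π D₂.tr) + _
        ring
      rw [this]
      exact Ideal.add_mem _ (Ideal.sub_mem _ a1 a2) htr
    · have : LinearMap.det (ρ.ρ g₁) - LinearMap.det (ρ.ρ g₂)
          = (LinearMap.det (ρ.ρ g₁) - π (D₁.restrict hle₀).dt)
            - (LinearMap.det (ρ.ρ g₂) - π (D₂.restrict hle₀).dt)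
            + π (D₁.dt - D₂.dt) := by
        rw [map_sub]
        change _ = (_ - π D₁.dt) - (_ - π D₂.dt) + _
        ring
      rw [this]
      exact Ideal.add_mem _ (Ideal.sub_mem _ b1 b2) hdt
  have hzero : ∀ x : T, (∀ n, x ∈ maximalIdeal T ^ n) → x = 0 := by
    intro x hx
    apply IsHausdorff.haus (I := maximalIdeal T) (M := T) inferInstance
    intro n
    rw [SModEq.zero]
    rw [smul_eq_mul, Ideal.mul_top]
    exact hx n
  have e1 : LinearMap.trace T ρ.V (ρ.ρ g₁) = LinearMap.trace T ρ.V (ρ.ρ g₂) :=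
    sub_eq_zero.mp (hzero _ fun n => (hmain n).1)
  have e2 : LinearMap.det (ρ.ρ g₁) = LinearMap.det (ρ.ρ g₂) :=
    sub_eq_zero.mp (hzero _ fun n => (hmain n).2)
  rw [H91.charpoly_eq_of_finrank_two ρ.finrank_eq, H91.charpoly_eq_of_finrank_two ρ.finrank_eq,
    e1, e2]

end Transfer

end Fermat.Agent.R

end
-- ==== END Fermat.Agent.R.Transfer

-- ==== BEGIN Fermat.Agent.RED.H10_NormRedAbs
section

/-!
# G-RED package NDESC, leaf NORMRED (helper10): the norm commutes with reduction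

`F ⊆ F'` finite, valuation rings `V = V' ∩ F`, residue maps `red : V → Ft`, `red' : V' → Ft'`
(`red'` surjective with kernel the non-units), compatible, and `[F' : F] = [Ft' : Ft]`.

* `nraInc`        : the inclusion `V → V'`;
* `nra_aux`       : the scaling argument (a relation scaled by its largest coefficient reduces
                    to a relation with a coefficient `1`);
* `nra_li`        : lifts of an `Ft`-independent family are `F`-independent;
* `nra_coord`     : the coordinates of an element of `V'` in such a family lie in `V`;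
* `stmt_NormRedAbs` : `H51.Stmt_NormRedAbs`.
-/

set_option autoImplicit false

noncomputable section

namespace Fermat.Agent.RED.H10

section NormRedAbs

variable {F F' Ft Ft' : Type} [Field F] [Field F'] [Field Ft] [Field Ft'] [Algebra F F']
  [Algebra Ft Ft']
variable {V : ValuationSubring F} {V' : ValuationSubring F'}
variable {red : ↥V →+* Ft} {red' : ↥V' →+* Ft'}

/-- The inclusion `V → V'`. -/
def nraInc (hV : ∀ a : F, a ∈ V ↔ algebraMap F F' a ∈ V') : ↥V →+* ↥V' :=
  ((algebraMap F F').comp V.subtype).codRestrict V' (fun a => (hV a).1 a.2)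

@[simp] theorem coe_nraInc (hV : ∀ a : F, a ∈ V ↔ algebraMap F F' a ∈ V') (a : ↥V) :
    ((nraInc hV a : ↥V') : F') = algebraMap F F' (a : F) := rfl

theorem red'_nraInc (hV : ∀ a : F, a ∈ V ↔ algebraMap F F' a ∈ V')
    (hcompat : ∀ (a : ↥V) (ha : algebraMap F F' (a : F) ∈ V'),
      red' ⟨algebraMap F F' (a : F), ha⟩ = algebraMap Ft Ft' (red a)) (a : ↥V) :
    red' (nraInc hV a) = algebraMap Ft Ft' (red a) :=
  hcompat a _

theorem red'_sum (hV : ∀ a : F, a ∈ V ↔ algebraMap F F' a ∈ V')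
    (hcompat : ∀ (a : ↥V) (ha : algebraMap F F' (a : F) ∈ V'),
      red' ⟨algebraMap F F' (a : F), ha⟩ = algebraMap Ft Ft' (red a))
    {ι : Type} [Fintype ι] (B : ι → ↥V') (a : ι → ↥V) :
    red' (∑ i, nraInc hV (a i) * B i) = ∑ i, red (a i) • red' (B i) := by
  rw [map_sum]
  refine Finset.sum_congr rfl fun i _ => ?_
  rw [map_mul, red'_nraInc hV hcompat, Algebra.smul_def]

/-- The scaling argument. -/
theorem nra_aux (hV : ∀ a : F, a ∈ V ↔ algebraMap F F' a ∈ V')
    (hcompat : ∀ (a : ↥V) (ha : algebraMap F F' (a : F) ∈ V'),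
      red' ⟨algebraMap F F' (a : F), ha⟩ = algebraMap Ft Ft' (red a))
    {ι : Type} [Fintype ι] (B : ι → ↥V')
    (hli : LinearIndependent Ft (fun i => red' (B i)))
    (c : ι → F) (j : ι) (hj : c j ≠ 0) (hmax : ∀ i, V.valuation (c i) ≤ V.valuation (c j))
    (h : (c j)⁻¹ • ∑ i, c i • ((B i : ↥V') : F') ∈ V') :
    red' ⟨(c j)⁻¹ • ∑ i, c i • ((B i : ↥V') : F'), h⟩ ≠ 0 := by
  intro h0
  have hvj : V.valuation (c j) ≠ 0 := (Valuation.ne_zero_iff _).2 hj
  have hmem : ∀ i, c i / c j ∈ V := by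
    intro i
    rw [← ValuationSubring.valuation_le_one_iff, map_div₀]
    exact (div_le_one₀ (zero_lt_iff.2 hvj)).2 (hmax i)
  let a : ι → ↥V := fun i => ⟨c i / c j, hmem i⟩
  have hsum : (∑ i, nraInc hV (a i) * B i : ↥V') =
      ⟨(c j)⁻¹ • ∑ i, c i • ((B i : ↥V') : F'), h⟩ := by
    apply Subtype.ext
    simp only [AddSubmonoidClass.coe_finsetSum, MulMemClass.coe_mul, coe_nraInc]
    rw [Finset.smul_sum]
    refine Finset.sum_congr rfl fun i _ => ?_
    simp only [a, Algebra.smul_def, map_div₀, map_inv₀]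
    field_simp
  have h1 : ∑ i, red (a i) • red' (B i) = 0 := by
    rw [← red'_sum hV hcompat, hsum, h0]
  have h2 := Fintype.linearIndependent_iff.1 hli _ h1 j
  have h3 : a j = 1 := Subtype.ext (div_self hj)
  rw [h3, map_one] at h2
  exact one_ne_zero h2

theorem exists_max_val {ι : Type} [Fintype ι] [Nonempty ι] (V : ValuationSubring F)
    (c : ι → F) : ∃ j, ∀ i, V.valuation (c i) ≤ V.valuation (c j) := by
  obtain ⟨j, -, hj⟩ := Finset.exists_max_image Finset.univ (fun i => V.valuation (c i))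
    Finset.univ_nonempty
  exact ⟨j, fun i => hj i (Finset.mem_univ i)⟩

/-- Lifts of an `Ft`-independent family are `F`-independent. -/
theorem nra_li (hV : ∀ a : F, a ∈ V ↔ algebraMap F F' a ∈ V')
    (hcompat : ∀ (a : ↥V) (ha : algebraMap F F' (a : F) ∈ V'),
      red' ⟨algebraMap F F' (a : F), ha⟩ = algebraMap Ft Ft' (red a))
    {ι : Type} [Fintype ι] (B : ι → ↥V')
    (hli : LinearIndependent Ft (fun i => red' (B i))) :
    LinearIndependent F (fun i => ((B i : ↥V') : F')) := by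
  rw [Fintype.linearIndependent_iff]
  intro c hc
  by_contra hne
  push Not at hne
  obtain ⟨i₀, hi₀⟩ := hne
  have : Nonempty ι := ⟨i₀⟩
  obtain ⟨j, hj⟩ := exists_max_val V c
  have hcj : c j ≠ 0 := by
    intro h0
    have := hj i₀
    rw [h0, map_zero, le_zero_iff, Valuation.zero_iff] at this
    exact hi₀ this
  have h : (c j)⁻¹ • ∑ i, c i • ((B i : ↥V') : F') ∈ V' := by
    rw [hc, smul_zero]; exact zero_mem _
  refine nra_aux hV hcompat B hli c j hcj hj h ?_
  have : (⟨(c j)⁻¹ • ∑ i, c i • ((B i : ↥V') : F'), h⟩ : ↥V') = 0 := by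
    apply Subtype.ext
    simp [hc]
  rw [this, map_zero]

/-- The coordinates of an element of `V'` in a lifted independent family lie in `V`. -/
theorem nra_coord (hV : ∀ a : F, a ∈ V ↔ algebraMap F F' a ∈ V')
    (hker : ∀ a : ↥V', red' a = 0 ↔ ¬ IsUnit a)
    (hcompat : ∀ (a : ↥V) (ha : algebraMap F F' (a : F) ∈ V'),
      red' ⟨algebraMap F F' (a : F), ha⟩ = algebraMap Ft Ft' (red a))
    {ι : Type} [Fintype ι] (B : ι → ↥V')
    (hli : LinearIndependent Ft (fun i => red' (B i)))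
    (c : ι → F) (g : F') (hg : g ∈ V') (hsum : ∑ i, c i • ((B i : ↥V') : F') = g) (i : ι) :
    c i ∈ V := by
  by_contra hne
  have : Nonempty ι := ⟨i⟩
  obtain ⟨j, hj⟩ := exists_max_val V c
  have hcjV : c j ∉ V := by
    intro hmem
    apply hne
    rw [← ValuationSubring.valuation_le_one_iff] at hmem ⊢
    exact (hj i).trans hmem
  have hcj : c j ≠ 0 := by
    intro h0
    exact hcjV (h0 ▸ zero_mem _)
  have hinv : (c j)⁻¹ ∈ V := (V.mem_or_inv_mem (c j)).resolve_left hcjV
  have hinv' : algebraMap F F' (c j)⁻¹ ∈ V' := (hV _).1 hinv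
  have h : (c j)⁻¹ • ∑ i, c i • ((B i : ↥V') : F') ∈ V' := by
    rw [hsum, Algebra.smul_def]
    exact mul_mem hinv' hg
  refine nra_aux hV hcompat B hli c j hcj hj h ?_
  rw [hker]
  rintro ⟨u, hu⟩
  apply hcjV
  rw [hV]
  have h1 : (((u : ↥V') : F') * ((u⁻¹ : (↥V')ˣ) : ↥V')) = 1 := by
    rw [← MulMemClass.coe_mul, Units.mul_inv]; rfl
  have h2 : ((u : ↥V') : F') = algebraMap F F' (c j)⁻¹ * g := by
    rw [hu]
    show (c j)⁻¹ • ∑ i, c i • ((B i : ↥V') : F') = _
    rw [hsum, Algebra.smul_def]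
  have h3 : algebraMap F F' (c j) = g * ((u⁻¹ : (↥V')ˣ) : ↥V') := by
    rw [h2, map_inv₀] at h1
    have hne' : algebraMap F F' (c j) ≠ 0 := by
      rwa [Ne, map_eq_zero]
    field_simp at h1
    exact h1.symm
  rw [h3]
  exact mul_mem hg (SetLike.coe_mem _)

end NormRedAbs

/-- **The norm commutes with reduction**, when the residue degree equals the degree. -/
theorem stmt_NormRedAbs : Fermat.Agent.RED.H51.Stmt_NormRedAbs := by
  intro F F' Ft Ft' _ _ _ _ _ _ _ V V' red red' hV hsurj hker hcompat hrank f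
  classical
  have hpos : 0 < Module.finrank Ft Ft' := by
    rw [← hrank]; exact Module.finrank_pos
  have : Module.Finite Ft Ft' := Module.finite_of_finrank_pos hpos
  let b := Module.finBasis Ft Ft'
  choose B hB using fun i => hsurj (b i)
  have hli : LinearIndependent Ft (fun i => red' (B i)) := by
    have : (fun i => red' (B i)) = b := funext hB
    rw [this]; exact b.linearIndependent
  have hliF := nra_li hV hcompat B hli
  have : Nonempty (Fin (Module.finrank Ft Ft')) := ⟨⟨0, hpos⟩⟩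
  let BF : Module.Basis (Fin (Module.finrank Ft Ft')) F F' :=
    basisOfLinearIndependentOfCardEqFinrank hliF (by rw [Fintype.card_fin, hrank])
  have hBF : ∀ i, BF i = ((B i : ↥V') : F') := fun i => by
    simp [BF]
  have hcoord : ∀ g : F', g ∈ V' → ∀ i, BF.repr g i ∈ V := by
    intro g hg i
    refine nra_coord hV hker hcompat B hli (fun i => BF.repr g i) g hg ?_ i
    have := BF.sum_repr g
    simpa only [hBF] using this
  let M₀ : Matrix (Fin (Module.finrank Ft Ft')) (Fin (Module.finrank Ft Ft')) ↥V :=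
    Matrix.of fun i j => ⟨BF.repr ((f : F') * BF j) i,
      hcoord _ (by rw [hBF]; exact mul_mem f.2 (B j).2) i⟩
  have hM1 : V.subtype.mapMatrix M₀ = Algebra.leftMulMatrix BF (f : F') := by
    refine Matrix.ext fun i j => ?_
    rw [Algebra.leftMulMatrix_eq_repr_mul]
    rfl
  have hM2 : red.mapMatrix M₀ = Algebra.leftMulMatrix b (red' f) := by
    refine Matrix.ext fun i j => ?_
    rw [Algebra.leftMulMatrix_eq_repr_mul]
    have h1 : f * B j = ∑ i, nraInc hV (M₀ i j) * B i := by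
      apply Subtype.ext
      simp only [AddSubmonoidClass.coe_finsetSum, MulMemClass.coe_mul, coe_nraInc]
      have := (BF.sum_repr ((f : F') * BF j)).symm
      simp only [hBF] at this
      rw [this]
      refine Finset.sum_congr rfl fun i _ => ?_
      rw [Algebra.smul_def]
      simp only [M₀, Matrix.of_apply, hBF]
    have h2 : red' f * b j = ∑ i, red (M₀ i j) • b i := by
      rw [← hB j, ← map_mul, h1, red'_sum hV hcompat]
      simp only [hB]
    rw [h2, Module.Basis.repr_sum_self]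
    rfl
  have hd : ((M₀.det : ↥V) : F) = Algebra.norm F (f : F') := by
    rw [Algebra.norm_eq_matrix_det BF, ← hM1, ← RingHom.map_det]
    rfl
  have hmem : Algebra.norm F (f : F') ∈ V := hd ▸ SetLike.coe_mem _
  refine ⟨hmem, ?_⟩
  have hd' : (⟨Algebra.norm F (f : F'), hmem⟩ : ↥V) = M₀.det := Subtype.ext hd.symm
  rw [hd', Algebra.norm_eq_matrix_det b, ← hM2, ← RingHom.map_det]

end Fermat.Agent.RED.H10

end
end
-- ==== END Fermat.Agent.RED.H10_NormRedAbs

-- ==== BEGIN Fermat.Agent.RED.H34_Gauss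
section

/-!
# G-RED package IG (helper34): Gauss lemma in a `RedSetting`

`S : RedSetting C F k Ft`, `x ∈ V` with transcendental reduction.
* `exists_scale` : every nonzero `p ∈ C[X]` is `c • p₀` with `p₀ ∈ O[X]` having a coefficient `1`.
* `psi` : the ring hom `O[X] → V`, `X ↦ x`; `red (psi p₀) = p₀ mod m (xt)`.
* `aeval_mem_iff` : `p(x) ∈ V ↔ p ∈ O[X]`.
-/

set_option autoImplicit false

noncomputable section

open Polynomial IntermediateField

namespace Fermat.Agent.RED.H34

variable {C F k Ft : Type} [Field C] [Field F] [Algebra C F] [Field k] [Field Ft] [Algebra k Ft]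

/-- Gauss scaling: a nonzero polynomial over the fraction field of a valuation ring is a constant
times a polynomial over the valuation ring with a coefficient equal to `1`. -/
theorem exists_scale (O : ValuationSubring C) (p : C[X]) (hp : p ≠ 0) :
    ∃ c : C, c ≠ 0 ∧ ∃ p₀ : (↥O)[X], p = Polynomial.C c * p₀.map O.subtype ∧
      ∃ i, p₀.coeff i = 1 := by
  classical
  have hne : p.support.Nonempty := Polynomial.nonempty_support_iff.2 hp
  obtain ⟨i₀, hi₀, hmax⟩ := Finset.exists_max_image p.support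
    (fun i => O.valuation (p.coeff i)) hne
  have hc : p.coeff i₀ ≠ 0 := Polynomial.mem_support_iff.1 hi₀
  have hall : ∀ i, p.coeff i / p.coeff i₀ ∈ O := by
    intro i
    rw [← O.valuation_le_one_iff, map_div₀]
    have hv0 : O.valuation (p.coeff i₀) ≠ 0 := (Valuation.ne_zero_iff _).2 hc
    rw [div_le_one₀ (zero_lt_iff.2 hv0)]
    by_cases hi : i ∈ p.support
    · exact hmax i hi
    · rw [Polynomial.notMem_support_iff.1 hi, map_zero]
      exact zero_le
  have hlift : Polynomial.C (p.coeff i₀)⁻¹ * p ∈ Polynomial.lifts O.subtype := by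
    rw [Polynomial.lifts_iff_coeff_lifts]
    intro n
    rw [Polynomial.coeff_C_mul]
    exact ⟨⟨p.coeff n / p.coeff i₀, hall n⟩, by simp [div_eq_inv_mul]⟩
  obtain ⟨p₀, hp₀⟩ := (Polynomial.mem_lifts _).1 hlift
  refine ⟨p.coeff i₀, hc, p₀, ?_, i₀, ?_⟩
  · rw [hp₀, ← mul_assoc, ← Polynomial.C_mul, mul_inv_cancel₀ hc, Polynomial.C_1, one_mul]
  · apply Subtype.ext
    have := congrArg (fun q => q.coeff i₀) hp₀
    simp only [Polynomial.coeff_map, Polynomial.coeff_C_mul] at this
    rw [show ((p₀.coeff i₀ : ↥O) : C) = O.subtype (p₀.coeff i₀) from rfl, this,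
      inv_mul_cancel₀ hc]
    rfl

namespace RedSetting

variable (S : RedSetting C F k Ft)

/-- The valuation ring of constants `O = V ∩ C`. -/
abbrev O : ValuationSubring C := S.V.comap (algebraMap C F)

theorem red_eq_zero_iff (f : ↥S.V) : S.red f = 0 ↔ ¬ IsUnit f := by
  constructor
  · intro h hu
    have := hu.map S.red
    rw [h] at this
    exact not_isUnit_zero this
  · intro h
    have hmax : (RingHom.ker S.red).IsMaximal := RingHom.ker_isMaximal_of_surjective _ S.red_surj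
    have := IsLocalRing.eq_maximalIdeal hmax
    rw [← RingHom.mem_ker, this]
    exact h

theorem resO_eq_zero_iff (a : ↥S.O) : S.resO a = 0 ↔ ¬ IsUnit a := by
  constructor
  · intro h hu
    have := hu.map S.resO
    rw [h] at this
    exact not_isUnit_zero this
  · intro h
    have hmax : (RingHom.ker S.resO).IsMaximal :=
      RingHom.ker_isMaximal_of_surjective _ S.resO_surj
    have := IsLocalRing.eq_maximalIdeal hmax
    rw [← RingHom.mem_ker, this]
    exact h

/-- The inclusion `O → V`. -/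
def inclO : ↥S.O →+* ↥S.V where
  toFun a := ⟨algebraMap C F (a : C), a.2⟩
  map_one' := by apply Subtype.ext; simp
  map_mul' a b := by apply Subtype.ext; simp
  map_zero' := by apply Subtype.ext; simp
  map_add' a b := by apply Subtype.ext; simp

@[simp] theorem coe_inclO (a : ↥S.O) : ((S.inclO a : ↥S.V) : F) = algebraMap C F (a : C) := rfl

theorem red_inclO (a : ↥S.O) : S.red (S.inclO a) = algebraMap k Ft (S.resO a) :=
  S.red_algebraMap a

variable {S}
variable {x : F} (hx : x ∈ S.V)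

/-- The ring hom `O[X] → V`, `X ↦ x`. -/
def psi : (↥S.O)[X] →+* ↥S.V := Polynomial.eval₂RingHom S.inclO ⟨x, hx⟩

theorem coe_psi (p₀ : (↥S.O)[X]) :
    ((psi hx p₀ : ↥S.V) : F) = Polynomial.aeval x (p₀.map S.O.subtype) := by
  have h : (S.V.subtype.comp (psi hx)) =
      ((Polynomial.aeval x : C[X] →ₐ[C] F) : C[X] →+* F).comp
        (Polynomial.mapRingHom S.O.subtype) := by
    apply Polynomial.ringHom_ext
    · intro a
      simp [psi]
    · simp [psi]
  exact congrArg (fun g : (↥S.O)[X] →+* F => g p₀) h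

theorem red_psi (p₀ : (↥S.O)[X]) :
    S.red (psi hx p₀) = Polynomial.aeval (S.red ⟨x, hx⟩) (p₀.map S.resO) := by
  have h : (S.red.comp (psi hx)) =
      ((Polynomial.aeval (S.red ⟨x, hx⟩) : k[X] →ₐ[k] Ft) : k[X] →+* Ft).comp
        (Polynomial.mapRingHom S.resO) := by
    apply Polynomial.ringHom_ext
    · intro a
      simp [psi, red_inclO]
    · simp [psi]
  exact congrArg (fun g : (↥S.O)[X] →+* Ft => g p₀) h

theorem isUnit_psi (hxt : Transcendental k (S.red ⟨x, hx⟩)) (p₀ : (↥S.O)[X])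
    (h : p₀.map S.resO ≠ 0) : IsUnit (psi hx p₀) := by
  by_contra hu
  have h0 := (S.red_eq_zero_iff _).2 hu
  rw [red_psi] at h0
  exact h ((transcendental_iff.1 hxt) _ h0)

/-- Transcendence of `x` over `C` follows from that of its reduction. -/
theorem aeval_ne_zero (hxt : Transcendental k (S.red ⟨x, hx⟩)) (p : C[X]) (hp : p ≠ 0) :
    Polynomial.aeval x p ≠ 0 := by
  obtain ⟨c, hc, p₀, hp₀, i, hi⟩ := exists_scale S.O p hp
  have hne : p₀.map S.resO ≠ 0 := by
    intro h0
    have := congrArg (fun q => q.coeff i) h0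
    simp [Polynomial.coeff_map, hi] at this
  have hu := isUnit_psi hx hxt p₀ hne
  rw [hp₀, map_mul, Polynomial.aeval_C, ← coe_psi hx]
  refine mul_ne_zero ?_ ?_
  · exact fun h => hc ((map_eq_zero _).1 h)
  · intro h0
    have : (psi hx p₀ : ↥S.V) = 0 := Subtype.ext h0
    rw [this] at hu
    exact not_isUnit_zero hu

theorem transcendental_x (hxt : Transcendental k (S.red ⟨x, hx⟩)) : Transcendental C x := by
  rw [transcendental_iff]
  intro p hp
  by_contra h
  exact aeval_ne_zero hx hxt p h hp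

/-- Decomposition `p(x) = c · u` with `u` a unit of `V` (Gauss lemma). -/
theorem exists_decomp (hxt : Transcendental k (S.red ⟨x, hx⟩)) (p : C[X]) (hp : p ≠ 0) :
    ∃ c : C, c ≠ 0 ∧ ∃ p₀ : (↥S.O)[X], p₀.map S.resO ≠ 0 ∧ IsUnit (psi hx p₀) ∧
      p = Polynomial.C c * p₀.map S.O.subtype ∧
      Polynomial.aeval x p = algebraMap C F c * ((psi hx p₀ : ↥S.V) : F) := by
  obtain ⟨c, hc, p₀, hp₀, i, hi⟩ := exists_scale S.O p hp
  have hne : p₀.map S.resO ≠ 0 := by
    intro h0
    have := congrArg (fun q => q.coeff i) h0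
    simp [Polynomial.coeff_map, hi] at this
  refine ⟨c, hc, p₀, hne, isUnit_psi hx hxt p₀ hne, hp₀, ?_⟩
  rw [coe_psi, ← Polynomial.aeval_C (A := F) x c, ← map_mul, ← hp₀]

theorem aeval_mem_V_iff (hxt : Transcendental k (S.red ⟨x, hx⟩)) (p : C[X]) :
    Polynomial.aeval x p ∈ S.V ↔ ∀ i, p.coeff i ∈ S.O := by
  constructor
  · intro h i
    by_cases hp : p = 0
    · rw [hp, Polynomial.coeff_zero]
      exact S.O.zero_mem
    obtain ⟨c, hc, p₀, hne, hu, hp₀, he⟩ := exists_decomp hx hxt p hp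
    have hcO : c ∈ S.O := by
      rw [ValuationSubring.mem_comap]
      obtain ⟨u, hu'⟩ := hu
      have h1 : algebraMap C F c = Polynomial.aeval x p * ((u⁻¹ : (↥S.V)ˣ) : ↥S.V) := by
        rw [he, ← hu', mul_assoc, ← Subring.coe_mul, ← Units.val_mul, mul_inv_cancel,
          Units.val_one, Subring.coe_one, mul_one]
      rw [h1]
      exact mul_mem h (Subtype.mem _)
    rw [hp₀, Polynomial.coeff_C_mul, Polynomial.coeff_map]
    exact mul_mem hcO (Subtype.mem _)
  · intro h
    have hl : p ∈ Polynomial.lifts S.O.subtype := by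
      rw [Polynomial.lifts_iff_coeff_lifts]
      exact fun n => ⟨⟨p.coeff n, h n⟩, rfl⟩
    obtain ⟨p₀, hp₀⟩ := (Polynomial.mem_lifts _).1 hl
    rw [← hp₀, ← coe_psi hx]
    exact Subtype.mem _

/-- Elements of `O[X]` lifting a polynomial over `C` with coefficients in `O`. -/
theorem exists_lift_of_aeval_mem (hxt : Transcendental k (S.red ⟨x, hx⟩)) (p : C[X])
    (h : Polynomial.aeval x p ∈ S.V) : ∃ p₀ : (↥S.O)[X], p₀.map S.O.subtype = p := by
  have hl : p ∈ Polynomial.lifts S.O.subtype := by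
    rw [Polynomial.lifts_iff_coeff_lifts]
    exact fun n => ⟨⟨p.coeff n, (aeval_mem_V_iff hx hxt p).1 h n⟩, rfl⟩
  exact (Polynomial.mem_lifts _).1 hl

/-- The reduction of an element of `C(x) ∩ V` lies in `k(xt)`. -/
theorem red_mem_adjoin (hxt : Transcendental k (S.red ⟨x, hx⟩)) (a : F) (ha : a ∈ C⟮x⟯)
    (haV : a ∈ S.V) : S.red ⟨a, haV⟩ ∈ k⟮S.red ⟨x, hx⟩⟯ := by
  obtain ⟨p, q, hpq⟩ := (IntermediateField.mem_adjoin_simple_iff C a).1 ha
  by_cases hq : q = 0
  · have : (⟨a, haV⟩ : ↥S.V) = 0 := by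
      apply Subtype.ext
      simp [hpq, hq]
    rw [this, map_zero]
    exact zero_mem _
  by_cases hp : p = 0
  · have : (⟨a, haV⟩ : ↥S.V) = 0 := by
      apply Subtype.ext
      simp [hpq, hp]
    rw [this, map_zero]
    exact zero_mem _
  obtain ⟨c, hc, p₀, hpne, hpu, -, hpe⟩ := exists_decomp hx hxt p hp
  obtain ⟨c', hc', q₀, hqne, hqu, -, hqe⟩ := exists_decomp hx hxt q hq
  obtain ⟨u, hu⟩ := hpu
  obtain ⟨w, hw⟩ := hqu
  have hF : a = algebraMap C F (c / c') * (((u * w⁻¹ : (↥S.V)ˣ) : ↥S.V) : F) := by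
    have hw0 : ((w : ↥S.V) : F) ≠ 0 := by
      intro h0
      have : (w : ↥S.V) = 0 := Subtype.ext h0
      exact w.ne_zero this
    have hwinv : (((w⁻¹ : (↥S.V)ˣ) : ↥S.V) : F) = ((w : ↥S.V) : F)⁻¹ := by
      apply eq_inv_of_mul_eq_one_left
      rw [← Subring.coe_mul, ← Units.val_mul, inv_mul_cancel]
      rfl
    rw [hpq, hpe, hqe, ← hu, ← hw, Units.val_mul, Subring.coe_mul, hwinv, map_div₀]
    field_simp
  have hcO : c / c' ∈ S.O := by
    rw [ValuationSubring.mem_comap]
    have h1 : algebraMap C F (c / c') = a * (((u * w⁻¹ : (↥S.V)ˣ)⁻¹ : (↥S.V)ˣ) : ↥S.V) := by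
      rw [hF, mul_assoc, ← Subring.coe_mul, ← Units.val_mul, mul_inv_cancel, Units.val_one,
        Subring.coe_one, mul_one]
    rw [h1]
    exact mul_mem haV (Subtype.mem _)
  have hV : (⟨a, haV⟩ : ↥S.V) = S.inclO ⟨c / c', hcO⟩ * ((u * w⁻¹ : (↥S.V)ˣ) : ↥S.V) :=
    Subtype.ext hF
  rw [hV, map_mul, red_inclO, Units.val_mul, map_mul]
  refine mul_mem (IntermediateField.algebraMap_mem _ _) (mul_mem ?_ ?_)
  · rw [hu, red_psi]
    rw [Polynomial.aeval_eq_sum_range]
    exact sum_mem fun i _ => (k⟮S.red ⟨x, hx⟩⟯).smul_mem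
      (pow_mem (IntermediateField.mem_adjoin_simple_self k _) i)
  · have hwinv : S.red ((w⁻¹ : (↥S.V)ˣ) : ↥S.V) = (S.red (w : ↥S.V))⁻¹ := by
      apply eq_inv_of_mul_eq_one_left
      rw [← map_mul, ← Units.val_mul, inv_mul_cancel, Units.val_one, map_one]
    rw [hwinv, hw, red_psi]
    refine inv_mem ?_
    rw [Polynomial.aeval_eq_sum_range]
    exact sum_mem fun i _ => (k⟮S.red ⟨x, hx⟩⟯).smul_mem
      (pow_mem (IntermediateField.mem_adjoin_simple_self k _) i)

end RedSetting

end Fermat.Agent.RED.H34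

end
end
-- ==== END Fermat.Agent.RED.H34_Gauss

-- ==== BEGIN Fermat.Agent.RED.H34_Points
section

/-!
# G-RED package IG (helper34): points of the integral closure of `C[x]` over `x = ρ`

`C` algebraically closed, `B` = integral closure of `C[x]` in `F`.  For a maximal ideal `P` of `B`
containing `x - ρ` we construct the evaluation `evP : B →+* C` (`B/P = C`), and show that an element
lying in all `P ∈ ptsOver x ρ` is nilpotent modulo `x - ρ`.
-/

set_option autoImplicit false

noncomputable section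

open Polynomial IntermediateField

namespace Fermat.Agent.RED.H34

variable {C F : Type} [Field C] [Field F] [Algebra C F]

section Points

variable (x : F)

/-- `C[x]` as a subalgebra. -/
abbrev Rx : Subalgebra C F := Algebra.adjoin C {x}

/-- The integral closure of `C[x]` in `F`. -/
abbrev Bx : Subalgebra ↥(Algebra.adjoin C {x}) F := integralClosure ↥(Algebra.adjoin C {x}) F

/-- The generator `x` of `C[x]`. -/
def genX : ↥(Algebra.adjoin C {x}) := ⟨x, Algebra.self_mem_adjoin_singleton C x⟩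

/-- the element `x - ρ` of `C[x]`. -/
def piRho (ρ : C) : ↥(Algebra.adjoin C {x}) :=
  ⟨x - algebraMap C F ρ,
    sub_mem (Algebra.self_mem_adjoin_singleton C x) (Subalgebra.algebraMap_mem _ ρ)⟩

theorem piRho_eq (ρ : C) : piRho x ρ = genX x - algebraMap C _ ρ := rfl

theorem mem_ptsOver_iff (ρ : C) (P : Ideal ↥(Bx (C := C) x)) :
    P ∈ ptsOver x ρ ↔ P.IsMaximal ∧ algebraMap _ ↥(Bx (C := C) x) (piRho x ρ) ∈ P := by
  constructor
  · rintro ⟨h1, h2⟩
    exact ⟨h1, h2 _ rfl⟩
  · rintro ⟨h1, h2⟩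
    refine ⟨h1, fun b hb => ?_⟩
    have : b = algebraMap _ ↥(Bx (C := C) x) (piRho x ρ) := Subtype.ext hb
    rw [this]
    exact h2

variable {x}
variable {ρ : C} {P : Ideal ↥(Bx (C := C) x)}

/-- Modulo an ideal `P` containing `x - ρ`, every element of `C[x]` is a constant. -/
theorem exists_const_of_mem_Rx (hP : algebraMap _ ↥(Bx (C := C) x) (piRho x ρ) ∈ P)
    (r : ↥(Algebra.adjoin C {x})) :
    ∃ c : C, algebraMap _ ↥(Bx (C := C) x) r - algebraMap C ↥(Bx (C := C) x) c ∈ P := by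
  obtain ⟨r, hr⟩ := r
  induction hr using Algebra.adjoin_induction with
  | mem y hy =>
    rw [Set.mem_singleton_iff] at hy
    subst hy
    exact ⟨ρ, hP⟩
  | algebraMap c =>
    refine ⟨c, ?_⟩
    have : algebraMap ↥(Algebra.adjoin C {x}) ↥(Bx (C := C) x)
        ⟨algebraMap C F c, Subalgebra.algebraMap_mem _ c⟩ = algebraMap C ↥(Bx (C := C) x) c := rfl
    rw [this, sub_self]
    exact P.zero_mem
  | add a b ha hb iha ihb =>
    obtain ⟨ca, hca⟩ := iha
    obtain ⟨cb, hcb⟩ := ihb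
    refine ⟨ca + cb, ?_⟩
    have : algebraMap ↥(Algebra.adjoin C {x}) ↥(Bx (C := C) x) ⟨a + b, add_mem ha hb⟩ -
        algebraMap C ↥(Bx (C := C) x) (ca + cb) =
        (algebraMap ↥(Algebra.adjoin C {x}) ↥(Bx (C := C) x) ⟨a, ha⟩ -
          algebraMap C ↥(Bx (C := C) x) ca) +
        (algebraMap ↥(Algebra.adjoin C {x}) ↥(Bx (C := C) x) ⟨b, hb⟩ -
          algebraMap C ↥(Bx (C := C) x) cb) := by
      rw [map_add, show (⟨a + b, add_mem ha hb⟩ : ↥(Algebra.adjoin C {x})) = ⟨a, ha⟩ + ⟨b, hb⟩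
        from rfl, map_add]
      ring
    rw [this]
    exact P.add_mem hca hcb
  | mul a b ha hb iha ihb =>
    obtain ⟨ca, hca⟩ := iha
    obtain ⟨cb, hcb⟩ := ihb
    refine ⟨ca * cb, ?_⟩
    have : algebraMap ↥(Algebra.adjoin C {x}) ↥(Bx (C := C) x) ⟨a * b, mul_mem ha hb⟩ -
        algebraMap C ↥(Bx (C := C) x) (ca * cb) =
        (algebraMap ↥(Algebra.adjoin C {x}) ↥(Bx (C := C) x) ⟨a, ha⟩ -
          algebraMap C ↥(Bx (C := C) x) ca) *
          algebraMap ↥(Algebra.adjoin C {x}) ↥(Bx (C := C) x) ⟨b, hb⟩ +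
        algebraMap C ↥(Bx (C := C) x) ca *
        (algebraMap ↥(Algebra.adjoin C {x}) ↥(Bx (C := C) x) ⟨b, hb⟩ -
          algebraMap C ↥(Bx (C := C) x) cb) := by
      rw [map_mul, show (⟨a * b, mul_mem ha hb⟩ : ↥(Algebra.adjoin C {x})) = ⟨a, ha⟩ * ⟨b, hb⟩
        from rfl, map_mul]
      ring
    rw [this]
    exact P.add_mem (P.mul_mem_right _ hca) (P.mul_mem_left _ hcb)

/-- `B / Q` is integral over `C` for every ideal `Q` containing `x - ρ`. -/
theorem isIntegral_quot (hP : algebraMap _ ↥(Bx (C := C) x) (piRho x ρ) ∈ P) :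
    Algebra.IsIntegral C (↥(Bx (C := C) x) ⧸ P) := by
  refine ⟨fun y => ?_⟩
  obtain ⟨g, rfl⟩ := Ideal.Quotient.mk_surjective y
  by_cases htop : P = ⊤
  · have : Subsingleton (↥(Bx (C := C) x) ⧸ P) := Ideal.Quotient.subsingleton_iff.2 htop
    exact ⟨Polynomial.X, Polynomial.monic_X, Subsingleton.elim _ _⟩
  have : Nontrivial (↥(Bx (C := C) x) ⧸ P) := Ideal.Quotient.nontrivial_iff.2 htop
  obtain ⟨p, hpm, hp0⟩ := integralClosure.isIntegral g
  set φ : ↥(Algebra.adjoin C {x}) →+* (↥(Bx (C := C) x) ⧸ P) :=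
    (Ideal.Quotient.mk P).comp (algebraMap _ ↥(Bx (C := C) x)) with hφ
  have hl : p.map φ ∈ Polynomial.lifts (algebraMap C (↥(Bx (C := C) x) ⧸ P)) := by
    rw [Polynomial.lifts_iff_coeff_lifts]
    intro n
    obtain ⟨c, hc⟩ := exists_const_of_mem_Rx hP (p.coeff n)
    refine ⟨c, ?_⟩
    rw [Polynomial.coeff_map]
    exact ((Ideal.Quotient.eq).2 hc).symm
  obtain ⟨q, hq, -, hqm⟩ := Polynomial.lifts_and_degree_eq_and_monic hl (hpm.map φ)
  refine ⟨q, hqm, ?_⟩
  rw [← Polynomial.eval_map, hq, Polynomial.eval_map, hφ, ← Polynomial.hom_eval₂, hp0, map_zero]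

/-- A prime of `B` containing `x - ρ` is maximal. -/
theorem isMaximal_of_isPrime (hprime : P.IsPrime)
    (hP : algebraMap _ ↥(Bx (C := C) x) (piRho x ρ) ∈ P) : P.IsMaximal := by
  have := isIntegral_quot hP
  have hf : IsField (↥(Bx (C := C) x) ⧸ P) :=
    isField_of_isIntegral_of_isField' (R := C) (S := ↥(Bx (C := C) x) ⧸ P) (Field.toIsField C)
  exact Ideal.Quotient.maximal_of_isField P hf

/-- An element lying in all points over `ρ` is nilpotent modulo `x - ρ`. -/
theorem pow_mem_of_forall_mem (w : ↥(Bx (C := C) x)) (hw : ∀ P ∈ ptsOver x ρ, w ∈ P) :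
    ∃ e : ℕ, w ^ e ∈ Ideal.span {algebraMap _ ↥(Bx (C := C) x) (piRho x ρ)} := by
  rw [← Ideal.mem_radical_iff, Ideal.radical_eq_sInf, Ideal.mem_sInf]
  rintro J ⟨hJ1, hJ2⟩
  have hmem : algebraMap _ ↥(Bx (C := C) x) (piRho x ρ) ∈ J :=
    hJ1 (Ideal.subset_span (Set.mem_singleton _))
  exact hw J ((mem_ptsOver_iff x ρ J).2 ⟨isMaximal_of_isPrime hJ2 hmem, hmem⟩)

/-- Every element of `B` is congruent to a constant modulo `P` (`C` algebraically closed). -/
theorem exists_const [IsAlgClosed C] (hP : P ∈ ptsOver x ρ) (f : ↥(Bx (C := C) x)) :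
    ∃ c : C, f - algebraMap C ↥(Bx (C := C) x) c ∈ P := by
  have hmax : P.IsMaximal := hP.1
  let _ : Field (↥(Bx (C := C) x) ⧸ P) := Ideal.Quotient.field P
  have hint := isIntegral_quot ((mem_ptsOver_iff x ρ P).1 hP).2
  obtain ⟨c, hc⟩ := (IsAlgClosed.algebraMap_bijective_of_isIntegral
    (k := C) (K := ↥(Bx (C := C) x) ⧸ P)).2 (Ideal.Quotient.mk P f)
  refine ⟨c, ?_⟩
  rw [← Ideal.Quotient.eq]
  exact hc.symm

theorem const_unique (hP : P ∈ ptsOver x ρ) (f : ↥(Bx (C := C) x)) (c c' : C)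
    (hc : f - algebraMap C ↥(Bx (C := C) x) c ∈ P)
    (hc' : f - algebraMap C ↥(Bx (C := C) x) c' ∈ P) : c = c' := by
  by_contra hne
  have h1 : algebraMap C ↥(Bx (C := C) x) (c' - c) ∈ P := by
    have := P.sub_mem hc hc'
    rw [map_sub]
    convert this using 1
    ring
  have h2 : (1 : ↥(Bx (C := C) x)) ∈ P := by
    have := P.mul_mem_left (algebraMap C ↥(Bx (C := C) x) (c' - c)⁻¹) h1
    rwa [← map_mul, inv_mul_cancel₀ (sub_ne_zero.2 (Ne.symm hne)), map_one] at this
  exact hP.1.ne_top ((Ideal.eq_top_iff_one P).2 h2)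

/-- Evaluation at the point `P`. -/
def evP [IsAlgClosed C] (hP : P ∈ ptsOver x ρ) : ↥(Bx (C := C) x) →+* C where
  toFun f := Classical.choose (exists_const hP f)
  map_one' := by
    refine (const_unique hP 1 _ _ ?_ (Classical.choose_spec (exists_const hP 1))).symm
    rw [map_one, sub_self]
    exact P.zero_mem
  map_zero' := by
    refine (const_unique hP 0 _ _ ?_ (Classical.choose_spec (exists_const hP 0))).symm
    rw [map_zero, sub_self]
    exact P.zero_mem
  map_add' f g := by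
    refine (const_unique hP (f + g) _ _ ?_ (Classical.choose_spec (exists_const hP (f + g)))).symm
    have h1 := Classical.choose_spec (exists_const hP f)
    have h2 := Classical.choose_spec (exists_const hP g)
    have := P.add_mem h1 h2
    rw [map_add]
    convert this using 1
    ring
  map_mul' f g := by
    refine (const_unique hP (f * g) _ _ ?_ (Classical.choose_spec (exists_const hP (f * g)))).symm
    have h1 := Classical.choose_spec (exists_const hP f)
    have h2 := Classical.choose_spec (exists_const hP g)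
    have := P.add_mem (P.mul_mem_right g h1)
      (P.mul_mem_left (algebraMap C ↥(Bx (C := C) x) (Classical.choose (exists_const hP f))) h2)
    rw [map_mul]
    convert this using 1
    ring

theorem sub_evP_mem [IsAlgClosed C] (hP : P ∈ ptsOver x ρ) (f : ↥(Bx (C := C) x)) :
    f - algebraMap C ↥(Bx (C := C) x) (evP hP f) ∈ P :=
  Classical.choose_spec (exists_const hP f)

theorem evP_eq_of_mem [IsAlgClosed C] (hP : P ∈ ptsOver x ρ) (f : ↥(Bx (C := C) x)) (c : C)
    (hc : f - algebraMap C ↥(Bx (C := C) x) c ∈ P) : evP hP f = c :=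
  const_unique hP f _ _ (sub_evP_mem hP f) hc

theorem evP_algebraMap [IsAlgClosed C] (hP : P ∈ ptsOver x ρ) (c : C) :
    evP hP (algebraMap C ↥(Bx (C := C) x) c) = c := by
  refine evP_eq_of_mem hP _ c ?_
  rw [sub_self]
  exact P.zero_mem

theorem evP_genX [IsAlgClosed C] (hP : P ∈ ptsOver x ρ) :
    evP hP (algebraMap ↥(Algebra.adjoin C {x}) ↥(Bx (C := C) x) (genX x)) = ρ :=
  evP_eq_of_mem hP _ ρ ((mem_ptsOver_iff x ρ P).1 hP).2

theorem evP_eq_zero_iff [IsAlgClosed C] (hP : P ∈ ptsOver x ρ) (f : ↥(Bx (C := C) x)) :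
    evP hP f = 0 ↔ f ∈ P := by
  constructor
  · intro h
    have := sub_evP_mem hP f
    rwa [h, map_zero, sub_zero] at this
  · intro h
    refine evP_eq_of_mem hP f 0 ?_
    rwa [map_zero, sub_zero]

end Points

end Fermat.Agent.RED.H34

end
end
-- ==== END Fermat.Agent.RED.H34_Points

-- ==== BEGIN Fermat.Agent.RED.H42_Riemann
section

/-!
# G-RED, package FF-R (helper42): Riemann's theorem, abstract form

`riemann`: from the hypotheses `Hyp K F` (principal divisors have degree `0`, places have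
degree `1`, non-constant functions have a pole) and a transcendental `x` with `F / K(x)` finite
whose pole divisor has degree at most `[F : K(x)]`, there are `g` and `c` with
`l(D) ≥ deg D + 1 - g` for all `D` and equality if `deg D ≥ c`.
-/

set_option autoImplicit false

noncomputable section

open AlgebraicCurve IntermediateField WithZero Polynomial

namespace Fermat.Agent.RED.H42

variable {K F : Type*} [Field K] [Field F] [Algebra K F]

local notation "L" => riemannRochSpace

/-! ## Products and polynomials in `L(D)` -/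

theorem mul_mem_L_add {D D' : Divisor K F} {f g : F} (hf : f ∈ L D) (hg : g ∈ L D') :
    f * g ∈ L (D + D') := by
  intro v
  rw [map_mul, Finsupp.add_apply, exp_add]
  exact mul_le_mul' (hf v) (hg v)

theorem one_mem_L {D : Divisor K F} (hD : 0 ≤ D) : (1 : F) ∈ L D := by
  intro v
  rw [map_one, ← exp_zero, exp_le_exp]
  exact Finsupp.le_def.mp hD v

theorem algebraMap_mem_L {D : Divisor K F} (hD : 0 ≤ D) (c : K) : algebraMap K F c ∈ L D := by
  have := (L D).smul_mem c (one_mem_L hD)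
  rwa [Algebra.smul_def, mul_one] at this

theorem pow_mem_L {B : Divisor K F} {x : F} (hx : x ∈ L B) (i : ℕ) : x ^ i ∈ L (i • B) := by
  intro v
  rw [map_pow, Finsupp.smul_apply, exp_nsmul]
  exact pow_le_pow_left' (hx v) i

theorem nsmul_le_nsmul_of_nonneg {B : Divisor K F} (hB : 0 ≤ B) {i l : ℕ} (h : i ≤ l) :
    i • B ≤ l • B := by
  rw [Finsupp.le_def]
  intro v
  have h0 := Finsupp.le_def.mp hB v
  simp only [Finsupp.coe_zero, Pi.zero_apply] at h0
  rw [Finsupp.smul_apply, Finsupp.smul_apply, nsmul_eq_mul, nsmul_eq_mul]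
  exact mul_le_mul_of_nonneg_right (by exact_mod_cast h) h0

theorem aeval_mem_L {B : Divisor K F} (hB : 0 ≤ B) {x : F} (hx : x ∈ L B) {l : ℕ} {p : K[X]}
    (hp : p.natDegree ≤ l) : aeval x p ∈ L (l • B) := by
  rw [aeval_eq_sum_range]
  refine Submodule.sum_mem _ fun i hi => ?_
  refine Submodule.smul_mem _ _ ?_
  have hi' : i ≤ l := (Nat.lt_succ_iff.mp (Finset.mem_range.mp hi)).trans hp
  exact L_mono (nsmul_le_nsmul_of_nonneg hB hi') (pow_mem_L hx i)

theorem finrank_degreeLT (n : ℕ) : Module.finrank K (degreeLT K n) = n := by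
  rw [(degreeLTEquiv K n).finrank_eq, Module.finrank_fin_fun]

theorem natDegree_le_of_mem_degreeLT {l : ℕ} {p : K[X]} (hp : p ∈ degreeLT K (l + 1)) :
    p.natDegree ≤ l := by
  rw [mem_degreeLT] at hp
  by_cases hp0 : p = 0
  · simp [hp0]
  · rw [degree_eq_natDegree hp0] at hp
    have : p.natDegree < l + 1 := by exact_mod_cast hp
    omega


/-! ## The lower bound -/

/-- The `K`-linear map `(p_j) ↦ Σ p_j(x) b_j`. -/
def polyComb (x : F) {n : ℕ} (b : Fin n → F) (l : ℕ) :
    (Fin n → degreeLT K (l + 1)) →ₗ[K] F where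
  toFun p := ∑ j, aeval x (p j : K[X]) * b j
  map_add' p q := by
    simp only [Pi.add_apply, Submodule.coe_add, map_add, add_mul, Finset.sum_add_distrib]
  map_smul' c p := by
    simp only [Pi.smul_apply, Submodule.coe_smul, map_smul, RingHom.id_apply, Finset.smul_sum,
      smul_mul_assoc]

theorem polyComb_apply (x : F) {n : ℕ} (b : Fin n → F) (l : ℕ)
    (p : Fin n → degreeLT K (l + 1)) :
    polyComb x b l p = ∑ j, aeval x (p j : K[X]) * b j := rfl

theorem polyComb_injective {x : F} (hx : Transcendental K x) {n : ℕ} {b : Fin n → F}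
    (hb : LinearIndependent K⟮x⟯ b) (l : ℕ) : Function.Injective (polyComb (K := K) x b l) := by
  rw [injective_iff_map_eq_zero]
  intro p hp
  rw [polyComb_apply] at hp
  have h1 : ∑ j, (aeval (AdjoinSimple.gen K x) (p j : K[X]) : K⟮x⟯) • b j = 0 := by
    rw [← hp]
    refine Finset.sum_congr rfl fun j _ => ?_
    rw [Algebra.smul_def, IntermediateField.algebraMap_apply, AdjoinSimple.coe_aeval_gen_apply]
  have h2 := (Fintype.linearIndependent_iff.mp hb) _ h1
  funext j
  have h3 : aeval x (p j : K[X]) = 0 := by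
    have := congrArg (fun z : K⟮x⟯ => (z : F)) (h2 j)
    simpa using this
  have h4 : (p j : K[X]) = 0 := by
    by_contra hne
    exact hx ⟨_, hne, h3⟩
  exact Subtype.ext h4

theorem polyComb_mem {B C : Divisor K F} (hB : 0 ≤ B) {x : F} (hx : x ∈ L B) {n : ℕ}
    {b : Fin n → F} (hb : ∀ j, b j ∈ L C) (l : ℕ) (p : Fin n → degreeLT K (l + 1)) :
    polyComb x b l p ∈ L (l • B + C) := by
  rw [polyComb_apply]
  refine Submodule.sum_mem _ fun j _ => ?_
  exact mul_mem_L_add (aeval_mem_L hB hx (natDegree_le_of_mem_degreeLT (p j).2)) (hb j)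

/-- The lower bound `n (l + 1) ≤ l(l B + C)`. -/
theorem le_finrank_L {B C : Divisor K F} (hB : 0 ≤ B) {x : F} (hx : x ∈ L B)
    (hxt : Transcendental K x) {n : ℕ} {b : Fin n → F} (hbi : LinearIndependent K⟮x⟯ b)
    (hb : ∀ j, b j ∈ L C) (l : ℕ) (hfin : Module.Finite K (L (l • B + C))) :
    n * (l + 1) ≤ Module.finrank K (L (l • B + C)) := by
  let Φ : (Fin n → degreeLT K (l + 1)) →ₗ[K] L (l • B + C) :=
    LinearMap.codRestrict _ (polyComb x b l) (polyComb_mem hB hx hb l)
  have hΦ : Function.Injective Φ := by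
    intro p q hpq
    apply polyComb_injective hxt hbi l
    exact congrArg Subtype.val hpq
  have h1 := LinearMap.finrank_le_finrank_of_injective hΦ
  rw [Module.finrank_pi_fintype] at h1
  simp only [finrank_degreeLT, Finset.sum_const, Finset.card_univ, Fintype.card_fin,
    smul_eq_mul] at h1
  exact h1


/-! ## The defect `deg D + 1 - l(D)` -/

/-- The defect `deg D + 1 - l(D)`. -/
def defect (D : Divisor K F) : ℤ :=
  Divisor.degree D + 1 - (Module.finrank K (L D) : ℤ)

theorem defect_def (D : Divisor K F) :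
    defect D = Divisor.degree D + 1 - (Module.finrank K (L D) : ℤ) := rfl

variable (H : Hyp K F)
include H

theorem defect_zero : defect (0 : Divisor K F) = 0 := by
  rw [defect_def, finrank_L_zero H, map_zero]
  simp

theorem defect_mono {D D' : Divisor K F} (h : D ≤ D') : defect D ≤ defect D' := by
  have := finrank_le_add H.deg_one h (finite_L H D)
  rw [defect_def, defect_def]
  omega

theorem defect_add_principal {D E : Divisor K F} {f : F} (hf : f ≠ 0)
    (hE : ∀ v, E v = v.ord f) : defect (D + E) = defect D := by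
  obtain ⟨E', hE', hE'0⟩ := H.principal f hf
  have hEE : E = E' := by
    ext v
    rw [hE v, hE' v]
  rw [defect_def, defect_def, finrank_L_add_principal H hf hE, map_add, hEE, hE'0, add_zero]

/-- Every function lies in `L(C)` for some `C ≥ 0`. -/
theorem exists_nonneg_mem_L (f : F) : ∃ C : Divisor K F, 0 ≤ C ∧ f ∈ L C := by
  by_cases hf : f = 0
  · exact ⟨0, le_rfl, hf ▸ Submodule.zero_mem _⟩
  · obtain ⟨E, hE, -⟩ := H.principal f hf
    refine ⟨(-E) ⊔ 0, le_sup_right, ?_⟩
    rw [mem_riemannRochSpace_iff]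
    intro v
    right
    rw [← hE v]
    have h1 : (-E) v ≤ ((-E) ⊔ 0 : Divisor K F) v := Finsupp.le_def.mp le_sup_left v
    rw [Finsupp.neg_apply] at h1
    omega

theorem exists_nonneg_forall_mem_L {n : ℕ} (b : Fin n → F) :
    ∃ C : Divisor K F, 0 ≤ C ∧ ∀ j, b j ∈ L C := by
  choose C hC0 hC using fun j => exists_nonneg_mem_L H (b j)
  refine ⟨∑ j, C j, Finset.sum_nonneg fun j _ => hC0 j, fun j => ?_⟩
  exact L_mono (Finset.single_le_sum (fun i _ => hC0 i) (Finset.mem_univ j)) (hC j)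

/-- If `L(D - A)` contains a nonzero function, then `defect A ≤ defect D`. -/
theorem defect_le_of_ne_bot {A D : Divisor K F} (h : L (D - A) ≠ ⊥) : defect A ≤ defect D := by
  obtain ⟨z, hz, hz0⟩ := (Submodule.ne_bot_iff _).mp h
  obtain ⟨E, hE, -⟩ := H.principal z hz0
  have h1 : A ≤ D + E := by
    rw [Finsupp.le_def]
    intro v
    rcases (mem_riemannRochSpace_iff.mp hz) v with h0 | h0
    · exact absurd h0 hz0
    · rw [Finsupp.add_apply, hE v]
      rw [Finsupp.sub_apply] at h0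
      omega
  calc defect A ≤ defect (D + E) := defect_mono H h1
    _ = defect D := defect_add_principal H hz0 hE

/-- `l(D - A) ≥ l(D) - deg A` for `A ≥ 0`. -/
theorem finrank_L_sub_ge {A D : Divisor K F} (hA : 0 ≤ A) :
    (Module.finrank K (L D) : ℤ) - Divisor.degree A ≤ Module.finrank K (L (D - A)) := by
  have h1 : D - A ≤ D := sub_le_self D hA
  have := finrank_le_add H.deg_one h1 (finite_L H (D - A))
  rw [map_sub] at this
  omega


/-! ## The Riemann bound -/

/-- Lower bound for `l(l B)`. -/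
theorem le_finrank_L_nsmul {B C : Divisor K F} (hB : 0 ≤ B) {x : F} (hx : x ∈ L B)
    (hxt : Transcendental K x) {n : ℕ} {b : Fin n → F} (hbi : LinearIndependent K⟮x⟯ b)
    (hb : ∀ j, b j ∈ L C) (hC : 0 ≤ C) (l : ℕ) :
    ((n * (l + 1) : ℕ) : ℤ) - Divisor.degree C ≤ Module.finrank K (L (l • B)) := by
  have h1 := le_finrank_L hB hx hxt hbi hb l (finite_L H _)
  have h2 : l • B ≤ l • B + C := le_add_of_nonneg_right hC
  have h3 := finrank_le_add H.deg_one h2 (finite_L H _)
  rw [map_add] at h3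
  have h1' : ((n * (l + 1) : ℕ) : ℤ) ≤ Module.finrank K (L (l • B + C)) := by exact_mod_cast h1
  omega

/-- The defect is bounded above. -/
theorem defect_le_of_basis {B C : Divisor K F} (hB : 0 ≤ B) {x : F} (hx : x ∈ L B)
    (hxt : Transcendental K x) {n : ℕ} (hn : 0 < n) (hBn : Divisor.degree B ≤ n)
    {b : Fin n → F} (hbi : LinearIndependent K⟮x⟯ b)
    (hb : ∀ j, b j ∈ L C) (hC : 0 ≤ C) (A : Divisor K F) :
    defect A ≤ Divisor.degree C + 1 - n := by
  -- bound for `l • B`
  have hlB : ∀ l : ℕ, defect (l • B) ≤ Divisor.degree C + 1 - n := by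
    intro l
    have h1 := le_finrank_L_nsmul H hB hx hxt hbi hb hC l
    rw [defect_def, map_nsmul, nsmul_eq_mul]
    push_cast at h1
    have h2 : (l : ℤ) * Divisor.degree B ≤ l * n :=
      mul_le_mul_of_nonneg_left hBn (by positivity)
    nlinarith
  -- reduce to `A ≥ 0`
  have hA1 : defect A ≤ defect (A ⊔ 0) := defect_mono H le_sup_left
  have hA0 : (0 : Divisor K F) ≤ A ⊔ 0 := le_sup_right
  set A₁ := A ⊔ 0 with hA₁
  have hdA : 0 ≤ Divisor.degree A₁ := degree_nonneg hA0
  have hdC : 0 ≤ Divisor.degree C := degree_nonneg hC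
  -- choose `l` large
  set l : ℕ := (Divisor.degree C + Divisor.degree A₁).toNat with hl
  have hl' : (l : ℤ) = Divisor.degree C + Divisor.degree A₁ := Int.toNat_of_nonneg (by omega)
  have h1 := le_finrank_L_nsmul H hB hx hxt hbi hb hC l
  have h2 := finrank_L_sub_ge H (D := l • B) hA0
  have h3 : (0 : ℤ) < Module.finrank K (L (l • B - A₁)) := by
    push_cast at h1
    have hn' : (1 : ℤ) ≤ n := by exact_mod_cast hn
    have h4 : (l : ℤ) + 1 ≤ n * (l + 1) := by nlinarith
    omega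
  have h4 : L (l • B - A₁) ≠ ⊥ := by
    intro hbot
    rw [hbot, finrank_bot] at h3
    simp at h3
  exact hA1.trans ((defect_le_of_ne_bot H h4).trans (hlB l))

/-- **Riemann's theorem**, abstract form. -/
theorem riemann_of_bound {γ : ℤ} (hγ : ∀ A : Divisor K F, defect A ≤ γ) :
    ∃ (g : ℕ) (c : ℤ), ∀ D : Divisor K F,
      Divisor.degree D + 1 - g ≤ (Module.finrank K (L D) : ℤ) ∧
      (c ≤ Divisor.degree D →
        (Module.finrank K (L D) : ℤ) = Divisor.degree D + 1 - g) := by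
  obtain ⟨g, ⟨A₀, hA₀⟩, hmax⟩ := Int.exists_greatest_of_bdd
    (P := fun z => ∃ A : Divisor K F, defect A = z) ⟨γ, fun z ⟨A, hA⟩ => hA ▸ hγ A⟩
    ⟨0, 0, defect_zero H⟩
  have hg0 : 0 ≤ g := hmax 0 ⟨0, defect_zero H⟩
  have hle : ∀ D : Divisor K F, defect D ≤ g := fun D => hmax _ ⟨D, rfl⟩
  refine ⟨g.toNat, Divisor.degree A₀ + g, fun D => ?_⟩
  have hgn : ((g.toNat : ℕ) : ℤ) = g := Int.toNat_of_nonneg hg0
  rw [hgn]
  have h1 := hle D
  rw [defect_def] at h1
  refine ⟨by omega, fun hc => ?_⟩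
  -- `L(D - A₀) ≠ 0`
  have h2 := hle (D - A₀)
  rw [defect_def, map_sub] at h2
  have h3 : L (D - A₀) ≠ ⊥ := by
    intro hbot
    rw [hbot, finrank_bot] at h2
    simp only [Nat.cast_zero, sub_zero] at h2
    omega
  have h4 := defect_le_of_ne_bot H h3
  rw [hA₀, defect_def] at h4
  omega



/-- **Riemann's theorem** from `Hyp` and the bound on the pole divisor of `x`. -/
theorem riemann {x : F} (hxt : Transcendental K x) [Module.Finite K⟮x⟯ F]
    {B : Divisor K F} (hB : 0 ≤ B) (hx : x ∈ L B)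
    (hBn : Divisor.degree B ≤ (Module.finrank K⟮x⟯ F : ℤ)) :
    ∃ (g : ℕ) (c : ℤ), ∀ D : Divisor K F,
      Divisor.degree D + 1 - g ≤ (Module.finrank K (L D) : ℤ) ∧
      (c ≤ Divisor.degree D →
        (Module.finrank K (L D) : ℤ) = Divisor.degree D + 1 - g) := by
  have hn : 0 < Module.finrank K⟮x⟯ F := Module.finrank_pos
  let b := Module.finBasis K⟮x⟯ F
  obtain ⟨C, hC, hb⟩ := exists_nonneg_forall_mem_L H (fun j => b j)
  exact riemann_of_bound H
    (defect_le_of_basis H hB hx hxt hn hBn b.linearIndependent hb hC)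

end Fermat.Agent.RED.H42

end
end
-- ==== END Fermat.Agent.RED.H42_Riemann

-- ==== BEGIN Fermat.Agent.RED.H51_Approx
section

/-!
# FF-B, piece P2 (helper51): the weak approximation theorem

For finitely many pairwise distinct places of a field `F` (discrete valuation rings of `F`
containing `K`) and elements `y v` of `F`, there is `z` with `v (z - y v) ≥ N` for all of them.
No hypothesis on `K` or `F`.
-/

set_option autoImplicit false
set_option linter.style.haveILetI false

noncomputable section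

open AlgebraicCurve

namespace Fermat.Agent.RED.H51

variable {K F : Type*} [Field K] [Field F] [Algebra K F]

/-- Distinct places are incomparable: there is an element integral at `v` and not at `w`. -/
theorem exists_mem_not_mem {v w : Place K F} (h : v ≠ w) :
    ∃ y : F, y ∈ v.toValuationSubring ∧ y ∉ w.toValuationSubring := by
  by_contra hcon
  push Not at hcon
  -- `O_v ⊆ O_w`
  apply h
  apply Place.ext
  refine le_antisymm (fun y hy => hcon y hy) ?_
  intro z hz
  by_contra hzv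
  -- `v z < 0`, so every `f` is `z ^ k` times an element of `O_v`
  have hzneg : v.ord z < 0 := (not_mem_iff_ord_neg v).mp hzv
  apply w.ne_top'
  rw [eq_top_iff]
  intro f _
  rcases eq_or_ne f 0 with rfl | hf
  · exact zero_mem _
  have hz0 : z ≠ 0 := ne_zero_of_ord_ne_zero v hzneg.ne
  -- choose `k` with `v f ≥ k * v z`
  obtain ⟨k, hk⟩ : ∃ k : ℕ, (k : ℤ) * v.ord z ≤ v.ord f := by
    refine ⟨(v.ord f).natAbs, ?_⟩
    have h1 : ((v.ord f).natAbs : ℤ) * v.ord z ≤ ((v.ord f).natAbs : ℤ) * (-1) :=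
      mul_le_mul_of_nonneg_left (by omega) (Int.natCast_nonneg _)
    have h2 : (((v.ord f).natAbs : ℕ) : ℤ) = |v.ord f| := Int.natCast_natAbs _
    have h3 : -|v.ord f| ≤ v.ord f := neg_abs_le _
    linarith
  have hmem : f / z ^ k ∈ v.toValuationSubring := by
    rw [mem_iff_ord_nonneg v (div_ne_zero hf (pow_ne_zero k hz0)),
      ord_div v hf (pow_ne_zero k hz0), ord_pow]
    omega
  have hfz : f = f / z ^ k * z ^ k := by
    field_simp
  rw [hfz]
  exact mul_mem (hcon _ hmem) (pow_mem hz k)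

/-- Two distinct places are separated by a function. -/
theorem exists_pos_neg_pair {v w : Place K F} (h : v ≠ w) :
    ∃ u : F, 0 < v.ord u ∧ w.ord u < 0 := by
  obtain ⟨y₁, hy₁v, hy₁w⟩ := exists_mem_not_mem h
  obtain ⟨y₂, hy₂w, hy₂v⟩ := exists_mem_not_mem h.symm
  have h1 : w.ord y₁ < 0 := (not_mem_iff_ord_neg w).mp hy₁w
  have h2 : v.ord y₂ < 0 := (not_mem_iff_ord_neg v).mp hy₂v
  have hy₁0 : y₁ ≠ 0 := ne_zero_of_ord_ne_zero w h1.ne
  have hy₂0 : y₂ ≠ 0 := ne_zero_of_ord_ne_zero v h2.ne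
  have h3 : 0 ≤ v.ord y₁ := (mem_iff_ord_nonneg v hy₁0).mp hy₁v
  have h4 : 0 ≤ w.ord y₂ := (mem_iff_ord_nonneg w hy₂0).mp hy₂w
  refine ⟨y₁ / y₂, ?_, ?_⟩
  · rw [ord_div v hy₁0 hy₂0]; omega
  · rw [ord_div w hy₁0 hy₂0]; omega

/-- Step 1: a function with a zero at `v₀` and poles at all places of `S`. -/
theorem exists_pos_neg (v₀ : Place K F) (S : Finset (Place K F)) (hS : v₀ ∉ S) :
    ∃ u : F, 0 < v₀.ord u ∧ ∀ w ∈ S, w.ord u < 0 := by
  classical
  induction S using Finset.induction_on with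
  | empty =>
    obtain ⟨t, -, ht⟩ := exists_uniformizer v₀
    exact ⟨t, by omega, by simp⟩
  | insert w S hw ih =>
    have hv₀S : v₀ ∉ S := fun h => hS (Finset.mem_insert_of_mem h)
    have hv₀w : v₀ ≠ w := fun h => hS (h ▸ Finset.mem_insert_self _ S)
    obtain ⟨y, hy₀, hyS⟩ := ih hv₀S
    by_cases hwy : w.ord y < 0
    · refine ⟨y, hy₀, fun w' hw' => ?_⟩
      rcases Finset.mem_insert.mp hw' with rfl | hw'
      · exact hwy
      · exact hyS w' hw'
    · have hwy' : 0 ≤ w.ord y := not_lt.mp hwy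
      obtain ⟨z, hz₀, hzw⟩ := exists_pos_neg_pair hv₀w
      have hy0 : y ≠ 0 := ne_zero_of_ord_ne_zero v₀ hy₀.ne'
      have hz0 : z ≠ 0 := ne_zero_of_ord_ne_zero v₀ hz₀.ne'
      -- the exponent
      set r : ℕ := 1 + ∑ w' ∈ S, (w'.ord y).natAbs with hr
      have hr1 : 1 ≤ r := by omega
      have hzr0 : z ^ r ≠ 0 := pow_ne_zero r hz0
      -- order of `y + z ^ r` at `w`
      have hw1 : y + z ^ r ≠ 0 ∧ w.ord (y + z ^ r) = w.ord (z ^ r) := by
        refine ord_add_eq' w hzr0 (Or.inr ?_)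
        rw [ord_pow]
        have : (r : ℤ) * w.ord z ≤ (r : ℤ) * (-1) :=
          mul_le_mul_of_nonneg_left (by omega) (Int.natCast_nonneg _)
        have hr1' : (1 : ℤ) ≤ (r : ℤ) := by exact_mod_cast hr1
        linarith
      refine ⟨y + z ^ r, ?_, fun w' hw' => ?_⟩
      · have h1 : OrdGe v₀ 1 (y + z ^ r) := by
          refine OrdGe.add (Or.inr (by omega)) (Or.inr ?_)
          rw [ord_pow]
          have hr1' : (1 : ℤ) ≤ (r : ℤ) := by exact_mod_cast hr1
          nlinarith
        exact h1.pos_of_ne hw1.1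
      · rcases Finset.mem_insert.mp hw' with rfl | hw'
        · rw [hw1.2, ord_pow]
          have hr1' : (1 : ℤ) ≤ (r : ℤ) := by exact_mod_cast hr1
          nlinarith
        · have hyw' : w'.ord y < 0 := hyS w' hw'
          -- `r > |w' y|`
          have hrgt : ((w'.ord y).natAbs : ℤ) < (r : ℤ) := by
            have : (w'.ord y).natAbs ≤ ∑ w'' ∈ S, (w''.ord y).natAbs :=
              Finset.single_le_sum (f := fun w'' : Place K F => (w''.ord y).natAbs)
                (fun _ _ => Nat.zero_le _) hw'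
            have h2 : (w'.ord y).natAbs < r := by omega
            exact_mod_cast h2
          have habs : (((w'.ord y).natAbs : ℕ) : ℤ) = -w'.ord y := by
            rw [Int.natCast_natAbs, abs_of_neg hyw']
          rcases lt_trichotomy (w'.ord z) 0 with hz | hz | hz
          · -- `w' (z^r) = r w' z ≤ -r < w' y`
            have h3 : (r : ℤ) * w'.ord z ≤ (r : ℤ) * (-1) :=
              mul_le_mul_of_nonneg_left (by omega) (Int.natCast_nonneg _)
            have h4 := ord_add_eq' w' hzr0 (g := y) (Or.inr (by rw [ord_pow]; omega))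
            rw [h4.2, ord_pow]
            omega
          · -- `w' (z^r) = 0 > w' y`
            have h4 := ord_add_eq w' hy0 (g := z ^ r)
              (Or.inr (by rw [ord_pow, hz, mul_zero]; omega))
            rw [h4.2]
            exact hyw'
          · -- `w' (z^r) > 0 > w' y`
            have h3 : 0 ≤ (r : ℤ) * w'.ord z :=
              mul_nonneg (Int.natCast_nonneg _) hz.le
            have h4 := ord_add_eq w' hy0 (g := z ^ r) (Or.inr (by rw [ord_pow]; omega))
            rw [h4.2]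
            exact hyw'

/-- Step 2: a function close to `1` at `v₀` and close to `0` at the places of `S`. -/
theorem exists_near_one (v₀ : Place K F) (S : Finset (Place K F)) (hS : v₀ ∉ S) (N : ℤ) :
    ∃ h : F, OrdGe v₀ N (h - 1) ∧ ∀ w ∈ S, OrdGe w N h := by
  obtain ⟨u, hu₀, huS⟩ := exists_pos_neg v₀ S hS
  have hu0 : u ≠ 0 := ne_zero_of_ord_ne_zero v₀ hu₀.ne'
  set s : ℕ := 1 + N.natAbs with hs
  have hs1 : (1 : ℤ) ≤ (s : ℤ) := by
    have : 1 ≤ s := by omega
    exact_mod_cast this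
  have hsN : N ≤ (s : ℤ) := by
    have h1 : N ≤ |N| := le_abs_self N
    have h2 : ((N.natAbs : ℕ) : ℤ) = |N| := Int.natCast_natAbs _
    have h3 : (s : ℤ) = 1 + ((N.natAbs : ℕ) : ℤ) := by rw [hs]; push_cast; ring
    omega
  have hus0 : u ^ s ≠ 0 := pow_ne_zero s hu0
  -- at `v₀`
  have h0 : (1 : F) + u ^ s ≠ 0 ∧ v₀.ord (1 + u ^ s) = v₀.ord 1 := by
    refine ord_add_eq v₀ one_ne_zero (Or.inr ?_)
    rw [Place.ord_one, ord_pow]
    nlinarith
  have hden : (1 : F) + u ^ s ≠ 0 := h0.1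
  refine ⟨(1 + u ^ s)⁻¹, ?_, fun w hw => ?_⟩
  · have hsub : (1 + u ^ s)⁻¹ - 1 = -(u ^ s) / (1 + u ^ s) := by
      field_simp
      ring
    rw [hsub]
    refine Or.inr ?_
    rw [ord_div v₀ (neg_ne_zero.mpr hus0) hden, ord_neg, h0.2, Place.ord_one, ord_pow]
    nlinarith
  · have hw1 : w.ord u < 0 := huS w hw
    have h1 : (1 : F) + u ^ s ≠ 0 ∧ w.ord (1 + u ^ s) = w.ord (u ^ s) := by
      refine ord_add_eq' w hus0 (Or.inr ?_)
      rw [Place.ord_one, ord_pow]
      nlinarith
    refine Or.inr ?_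
    rw [Place.ord_inv, h1.2, ord_pow]
    nlinarith

/-- Step 3, **weak approximation**: for a finite set `S` of places and prescribed elements `y v`
there is `z` with `v (z - y v) ≥ N` for all `v ∈ S`. -/
theorem exists_approx (S : Finset (Place K F)) (y : Place K F → F) (N : ℤ) :
    ∃ z : F, ∀ v ∈ S, OrdGe v N (z - y v) := by
  classical
  -- a common lower bound `-m` for the orders of the `y w` at the `v`
  set m : ℕ := ∑ v ∈ S, ∑ w ∈ S, ((v.ord (y w)).natAbs) with hm
  have hlow : ∀ v ∈ S, ∀ w ∈ S, OrdGe v (-(m : ℤ)) (y w) := by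
    intro v hv w hw
    refine Or.inr ?_
    have h1 : (v.ord (y w)).natAbs ≤ ∑ w' ∈ S, (v.ord (y w')).natAbs :=
      Finset.single_le_sum (f := fun w' : Place K F => (v.ord (y w')).natAbs)
        (fun _ _ => Nat.zero_le _) hw
    have h2 : ∑ w' ∈ S, (v.ord (y w')).natAbs ≤ m :=
      Finset.single_le_sum (f := fun v' : Place K F => ∑ w' ∈ S, (v'.ord (y w')).natAbs)
        (fun _ _ => Nat.zero_le _) hv
    have h3 : ((v.ord (y w)).natAbs : ℤ) ≤ (m : ℤ) := by exact_mod_cast h1.trans h2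
    have h4 : (((v.ord (y w)).natAbs : ℕ) : ℤ) = |v.ord (y w)| := Int.natCast_natAbs _
    have h5 : -|v.ord (y w)| ≤ v.ord (y w) := neg_abs_le _
    omega
  -- the partition of unity
  have hex : ∀ w : Place K F, ∃ h : F, OrdGe w (N + m) (h - 1) ∧
      ∀ v ∈ S.erase w, OrdGe v (N + m) h := fun w =>
    exists_near_one w (S.erase w) (Finset.notMem_erase w S) (N + m)
  choose h hh1 hh2 using hex
  refine ⟨∑ w ∈ S, y w * h w, fun v hv => ?_⟩
  have hsplit : ∑ w ∈ S, y w * h w - y v
      = y v * (h v - 1) + ∑ w ∈ S.erase v, y w * h w := by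
    rw [← Finset.add_sum_erase S (fun w => y w * h w) hv]
    ring
  rw [hsplit]
  refine OrdGe.add ?_ (ordGe_sum v N _ _ fun w hw => ?_)
  · have := (hlow v hv v hv).mul (hh1 v)
    exact this.mono (by omega)
  · have hwS : w ∈ S := Finset.mem_of_mem_erase hw
    have hvw : v ∈ S.erase w := Finset.mem_erase.mpr ⟨(Finset.ne_of_mem_erase hw).symm, hv⟩
    have := (hlow v hv w hwS).mul (hh2 w v hvw)
    exact this.mono (by omega)

/-- Weak approximation for an injective finite family of places. -/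
theorem exists_approx_family {ι : Type*} [Finite ι] (v : ι → Place K F)
    (hv : Function.Injective v) (y : ι → F) (N : ℤ) :
    ∃ z : F, ∀ i, OrdGe (v i) N (z - y i) := by
  classical
  have := Fintype.ofFinite ι
  obtain ⟨z, hz⟩ := exists_approx (Finset.univ.image v)
    (fun p => if h : ∃ i, v i = p then y h.choose else 0) N
  refine ⟨z, fun i => ?_⟩
  have := hz (v i) (Finset.mem_image_of_mem v (Finset.mem_univ i))
  have hex : ∃ j, v j = v i := ⟨i, rfl⟩
  rw [dif_pos hex] at this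
  rwa [hv hex.choose_spec] at this

/-- Weak approximation with exact orders: for a finite set `S` of places and integers `n v` there
is `z ≠ 0` with `v z = n v` for all `v ∈ S`. -/
theorem exists_ord_eq_family (S : Finset (Place K F)) (n : Place K F → ℤ) :
    ∃ z : F, z ≠ 0 ∧ ∀ v ∈ S, v.ord z = n v := by
  classical
  have hex : ∀ v : Place K F, ∃ t : F, t ≠ 0 ∧ v.ord t = n v := fun v => exists_ord_eq v (n v)
  choose t ht0 ht using hex
  by_cases hS : S.Nonempty
  · obtain ⟨z, hz⟩ := exists_approx S t (∑ v ∈ S, (n v).natAbs + 1)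
    have key : ∀ v ∈ S, z ≠ 0 ∧ v.ord z = n v := by
      intro v hv
      have h1 : z = t v + (z - t v) := by ring
      have h2 := ord_add_eq v (ht0 v) (g := z - t v) ((hz v hv).mono (by
        rw [ht]
        have h3 : (n v).natAbs ≤ ∑ v' ∈ S, (n v').natAbs :=
          Finset.single_le_sum (f := fun v' : Place K F => (n v').natAbs)
            (fun _ _ => Nat.zero_le _) hv
        have h4 : (((n v).natAbs : ℕ) : ℤ) = |n v| := Int.natCast_natAbs _
        have h5 : n v ≤ |n v| := le_abs_self _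
        have h6 : ((n v).natAbs : ℤ) ≤ ((∑ v' ∈ S, (n v').natAbs : ℕ) : ℤ) := by
          exact_mod_cast h3
        push_cast at h6 ⊢
        omega))
      rw [← h1] at h2
      exact ⟨h2.1, h2.2.trans (ht v)⟩
    obtain ⟨v, hv⟩ := hS
    exact ⟨z, (key v hv).1, fun v hv => (key v hv).2⟩
  · rw [Finset.not_nonempty_iff_eq_empty] at hS
    exact ⟨1, one_ne_zero, by simp [hS]⟩

end Fermat.Agent.RED.H51

end
end
-- ==== END Fermat.Agent.RED.H51_Approx
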