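-- GENERATED (merged mirror, NOTES/tools/trim/merge3_helper67.py): 13 modules of the originals, bodies verbatim.
import Mathlib
import Fermat.Prelude.Def_FLTPrelim_FreyPackage
import Fermat.Prelude.Def_FLTPrelim_Modularity
import Fermat.Prelude.Def_FLTPrelim_GaloisRep
import Fermat.Prelude.Def_FLTPrelim_Ramification
import Fermat.Prelude.Def_FLTPrelim_CofixedLine
import Fermat.Prelude.Def_EllipticCurve_ZeroComponentAt
import Fermat.Prelude.Def_ModularCurve_ReductionModL
import Fermat.Prelude.Def_ModularCurve_HeckeModule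
import Fermat.Prelude.Def_EllipticCurve_FrobeniusTrace
import Fermat.Prelude.Def_CuspForm_HeckeLocal
import Fermat.Prelude.Def_CuspForm_HeckeEvalForms
import Fermat.Prelude.Def_HeckeGalois_EichlerShimura
import Fermat.Prelude.Def_ModularCurve_ModularUnit
import Fermat.Prelude.Def_ModularCurve_GenusNumerics
import Fermat.Prelude.Def_ModularCurve_PeriodHomPair
import Fermat.Agent.S20.H74_Defs

-- ==== BEGIN Fermat.Agent.S04.H59_FreySemistable
section

set_option autoImplicit false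

namespace Fermat.Agent.S04.H59

open WeierstrassCurve

/-- `b` is even in a Frey package. -/
lemma two_dvd_b (P : FreyPackage) : (2 : ℤ) ∣ P.b :=
  (ZMod.intCast_zmod_eq_zero_iff_dvd P.b 2).1 P.hb2

/-- `32 ∣ b ^ p` in a Frey package. -/
lemma thirtytwo_dvd_b_pow (P : FreyPackage) : (32 : ℤ) ∣ P.b ^ P.p := by
  have h2 : (2 : ℤ) ^ 5 ∣ P.b ^ 5 := pow_dvd_pow_of_dvd (two_dvd_b P) 5
  have h5 : P.b ^ 5 ∣ P.b ^ P.p := pow_dvd_pow _ P.hp5
  exact (by norm_num : (32 : ℤ) = 2 ^ 5) ▸ h2.trans h5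

/-- `a ^ p ≡ 3 mod 4` in a Frey package. -/
lemma a_pow_mod_four (P : FreyPackage) : ((P.a ^ P.p : ℤ) : ZMod 4) = 3 := by
  obtain ⟨k, hk⟩ := P.hp_odd
  have h := P.ha4
  push_cast
  rw [h, hk, pow_succ, pow_mul]
  have : (3 : ZMod 4) ^ 2 = 1 := by decide
  rw [this, one_pow, one_mul]

lemma four_dvd_a2_num (P : FreyPackage) : (4 : ℤ) ∣ P.b ^ P.p - 1 - P.a ^ P.p := by
  refine (ZMod.intCast_zmod_eq_zero_iff_dvd _ 4).1 ?_
  have hb : ((P.b ^ P.p : ℤ) : ZMod 4) = 0 := by
    rw [ZMod.intCast_zmod_eq_zero_iff_dvd]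
    exact (by norm_num : (4 : ℤ) ∣ 32).trans (thirtytwo_dvd_b_pow P)
  have ha := a_pow_mod_four P
  push_cast at hb ha ⊢
  rw [hb, ha]
  decide

lemma sixteen_dvd_a4_num (P : FreyPackage) : (16 : ℤ) ∣ -(P.a ^ P.p) * (P.b ^ P.p) :=
  Dvd.dvd.mul_left ((by norm_num : (16 : ℤ) ∣ 32).trans (thirtytwo_dvd_b_pow P)) _

/-- The integral Frey curve maps to the rational Frey curve. -/
lemma freyCurveInt_map (P : FreyPackage) :
    P.freyCurveInt.map (Int.castRingHom ℚ) = P.freyCurve := by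
  obtain ⟨k, hk⟩ := four_dvd_a2_num P
  obtain ⟨l, hl⟩ := sixteen_dvd_a4_num P
  have hkQ : ((P.b : ℚ) ^ P.p - 1 - (P.a : ℚ) ^ P.p) = 4 * k := by exact_mod_cast hk
  have hlQ : (-((P.a : ℚ) ^ P.p) * ((P.b : ℚ) ^ P.p)) = 16 * l := by exact_mod_cast hl
  ext
  · simp [FreyPackage.freyCurveInt, FreyPackage.freyCurve, WeierstrassCurve.map]
  · simp only [FreyPackage.freyCurveInt, FreyPackage.freyCurve, WeierstrassCurve.map,
      Int.coe_castRingHom]
    rw [hk, hkQ]
    simp
  · simp [FreyPackage.freyCurveInt, FreyPackage.freyCurve, WeierstrassCurve.map]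
  · simp only [FreyPackage.freyCurveInt, FreyPackage.freyCurve, WeierstrassCurve.map,
      Int.coe_castRingHom]
    rw [hl, hlQ]
    simp
  · simp [FreyPackage.freyCurveInt, FreyPackage.freyCurve, WeierstrassCurve.map]

/-- `256 * Δ = (a^p * b^p * c^p)^2` for the integral Frey curve. -/
lemma freyCurveInt_Δ_mul (P : FreyPackage) :
    256 * P.freyCurveInt.Δ = (P.a ^ P.p * P.b ^ P.p * P.c ^ P.p) ^ 2 := by
  obtain ⟨k, hk⟩ := four_dvd_a2_num P
  obtain ⟨l, hl⟩ := sixteen_dvd_a4_num P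
  have ha2 : P.freyCurveInt.a₂ = k := by
    simp only [FreyPackage.freyCurveInt]
    rw [hk]; simp
  have ha4 : P.freyCurveInt.a₄ = l := by
    simp only [FreyPackage.freyCurveInt]
    rw [hl]; simp
  have ha1 : P.freyCurveInt.a₁ = 1 := rfl
  have ha3 : P.freyCurveInt.a₃ = 0 := rfl
  have ha6 : P.freyCurveInt.a₆ = 0 := rfl
  have hc : P.c ^ P.p = P.a ^ P.p + P.b ^ P.p := P.hFLT.symm
  simp only [WeierstrassCurve.Δ, WeierstrassCurve.b₂, WeierstrassCurve.b₄, WeierstrassCurve.b₆,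
    WeierstrassCurve.b₈, ha1, ha2, ha3, ha4, ha6, hc]
  have hB : P.b ^ P.p = 4 * k + 1 + P.a ^ P.p := by linarith
  have hl' : P.a ^ P.p * (4 * k + 1 + P.a ^ P.p) = - (16 * l) := by
    rw [← hB]; linarith
  rw [hB]
  have h2 : (P.a ^ P.p * (4 * k + 1 + P.a ^ P.p) * (P.a ^ P.p + (4 * k + 1 + P.a ^ P.p))) ^ 2
      = (P.a ^ P.p * (4 * k + 1 + P.a ^ P.p)) ^ 2 *
        ((4 * k + 1) ^ 2 + 4 * (P.a ^ P.p * (4 * k + 1 + P.a ^ P.p))) := by ring
  rw [h2, hl']
  ring

/-- `c₄ = (c^p)^2 - a^p * b^p` for the integral Frey curve. -/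
lemma freyCurveInt_c₄ (P : FreyPackage) :
    P.freyCurveInt.c₄ = (P.c ^ P.p) ^ 2 - P.a ^ P.p * P.b ^ P.p := by
  obtain ⟨k, hk⟩ := four_dvd_a2_num P
  obtain ⟨l, hl⟩ := sixteen_dvd_a4_num P
  have ha2 : P.freyCurveInt.a₂ = k := by
    simp only [FreyPackage.freyCurveInt]
    rw [hk]; simp
  have ha4 : P.freyCurveInt.a₄ = l := by
    simp only [FreyPackage.freyCurveInt]
    rw [hl]; simp
  have ha1 : P.freyCurveInt.a₁ = 1 := rfl
  have ha3 : P.freyCurveInt.a₃ = 0 := rfl
  have hc : P.c ^ P.p = P.a ^ P.p + P.b ^ P.p := P.hFLT.symm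
  simp only [WeierstrassCurve.c₄, WeierstrassCurve.b₂, WeierstrassCurve.b₄, ha1, ha2, ha3, ha4,
    hc]
  have hB : P.b ^ P.p = 4 * k + 1 + P.a ^ P.p := by linarith
  have hl' : P.a ^ P.p * (4 * k + 1 + P.a ^ P.p) = - (16 * l) := by
    rw [← hB]; linarith
  rw [hB]
  linear_combination (-3 : ℤ) * hl'

lemma freyCurveInt_Δ_ne_zero (P : FreyPackage) : P.freyCurveInt.Δ ≠ 0 := by
  intro h
  have := freyCurveInt_Δ_mul P
  rw [h, mul_zero] at this
  have h0 : P.a ^ P.p * P.b ^ P.p * P.c ^ P.p ≠ 0 :=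
    mul_ne_zero (mul_ne_zero (pow_ne_zero _ P.ha0) (pow_ne_zero _ P.hb0)) (pow_ne_zero _ P.hc0)
  exact h0 (pow_eq_zero_iff (two_ne_zero)|>.1 this.symm)

lemma not_prime_dvd_of_gcd_eq_one {x y : ℤ} (h : gcd x y = 1) {q : ℕ} (hq : q.Prime)
    (hx : (q : ℤ) ∣ x) (hy : (q : ℤ) ∣ y) : False := by
  have : (q : ℤ) ∣ gcd x y := dvd_gcd hx hy
  rw [h] at this
  have := Int.natCast_dvd_natCast.1 (by simpa using this : ((q : ℕ) : ℤ) ∣ ((1 : ℕ) : ℤ))
  exact hq.one_lt.ne' (Nat.dvd_one.1 this)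

/-- The integral Frey curve is semistable. -/
lemma freyCurveInt_isSemistableModel (P : FreyPackage) : P.freyCurveInt.IsSemistableModel := by
  intro q hq hΔ hc4
  have hqp : Prime (q : ℤ) := Nat.prime_iff_prime_int.1 hq
  have h1 : (q : ℤ) ∣ (P.a ^ P.p * P.b ^ P.p * P.c ^ P.p) ^ 2 := by
    rw [← freyCurveInt_Δ_mul]; exact Dvd.dvd.mul_left hΔ _
  have h2 := hqp.dvd_of_dvd_pow h1
  rw [freyCurveInt_c₄] at hc4
  have key : ∀ x y : ℤ, gcd x y = 1 → (q : ℤ) ∣ x ^ P.p → (q : ℤ) ∣ y ^ P.p → False :=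
    fun x y hxy hx hy =>
      not_prime_dvd_of_gcd_eq_one hxy hq (hqp.dvd_of_dvd_pow hx) (hqp.dvd_of_dvd_pow hy)
  have hc : P.c ^ P.p = P.a ^ P.p + P.b ^ P.p := P.hFLT.symm
  rcases hqp.dvd_or_dvd h2 with h3 | h3
  · rcases hqp.dvd_or_dvd h3 with h4 | h4
    · -- q ∣ a^p
      have : (q : ℤ) ∣ (P.b ^ P.p) ^ 2 := by
        have e : (P.b ^ P.p) ^ 2 = ((P.c ^ P.p) ^ 2 - P.a ^ P.p * P.b ^ P.p)
            - P.a ^ P.p * (P.a ^ P.p + P.b ^ P.p) := by rw [hc]; ring
        rw [e]; exact dvd_sub hc4 (Dvd.dvd.mul_right h4 _)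
      exact key _ _ P.hgcdab h4 (hqp.dvd_of_dvd_pow this)
    · -- q ∣ b^p
      have : (q : ℤ) ∣ (P.a ^ P.p) ^ 2 := by
        have e : (P.a ^ P.p) ^ 2 = ((P.c ^ P.p) ^ 2 - P.a ^ P.p * P.b ^ P.p)
            - P.b ^ P.p * (P.a ^ P.p + P.b ^ P.p) := by rw [hc]; ring
        rw [e]; exact dvd_sub hc4 (Dvd.dvd.mul_right h4 _)
      exact key _ _ P.hgcdab (hqp.dvd_of_dvd_pow this) h4
  · -- q ∣ c^p
    have : (q : ℤ) ∣ P.a ^ P.p * P.b ^ P.p := by
      have e : P.a ^ P.p * P.b ^ P.p = P.c ^ P.p * P.c ^ P.p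
          - ((P.c ^ P.p) ^ 2 - P.a ^ P.p * P.b ^ P.p) := by ring
      rw [e]; exact dvd_sub (Dvd.dvd.mul_right h3 _) hc4
    rcases hqp.dvd_or_dvd this with h4 | h4
    · exact key _ _ P.hgcdac h4 h3
    · exact key _ _ P.hgcdbc h4 h3

/-- The integral Frey curve is an integral model of the rational Frey curve. -/
lemma freyCurveInt_isIntegralModelOf (P : FreyPackage) :
    P.freyCurveInt.IsIntegralModelOf P.freyCurve :=
  ⟨1, by rw [one_smul, freyCurveInt_map]⟩

/-- Reduction of S04 to S60: if every semistable integral Weierstrass curve with nonzero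
discriminant is modular, then the Frey curve is modular. -/
theorem frey_isModular_of_modularity
    (h60 : ∀ W : WeierstrassCurve ℤ, W.Δ ≠ 0 → W.IsSemistableModel →
      (W.map (Int.castRingHom ℚ)).IsModular)
    (P : FreyPackage) : P.freyCurve.IsModular := by
  rw [← freyCurveInt_map]
  exact h60 _ (freyCurveInt_Δ_ne_zero P) (freyCurveInt_isSemistableModel P)

end Fermat.Agent.S04.H59

end
-- ==== END Fermat.Agent.S04.H59_FreySemistable

-- ==== BEGIN Fermat.Agent.S13.Defs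
section

set_option autoImplicit false

namespace Fermat.Agent.S13

open WeierstrassCurve WeierstrassCurve.Affine WeierstrassCurve.Affine.Point

/-- `Q̄`. -/
abbrev Qbar : Type := AlgebraicClosure ℚ

/-- `G = Gal(Q̄/ℚ)`. -/
abbrev Gal : Type := Qbar ≃ₐ[ℚ] Qbar

/-- `V = E[p](Q̄)` for the Frey curve `E`. -/
abbrev Vp (P : FreyPackage) : Type :=
  Submodule.torsionBy ℤ (P.freyCurve⁄Qbar).Point P.p

/-- Kernel of reduction at the valuation subring `A`, in the coordinates of the given model: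
`Q = 0` or `x(Q) ∉ A`. -/
def InE1 {L : Type*} [Field L] (A : ValuationSubring L) {W : Affine L} : W.Point → Prop
  | .zero => True
  | .some x _ _ => x ∉ A

/-! ### Interfaces -/

/-- (I1) `#E[p](Q̄) ≤ p²` (finite).  [WP1: Wronskian / torsion polynomial] -/
def Stmt_card : Prop :=
  ∀ P : FreyPackage, Finite (Vp P) ∧ Nat.card (Vp P) ≤ P.p ^ 2

/-- (I2) `E[p](Q̄) ≠ 0`.  [WP1] -/
def Stmt_nontrivial : Prop :=
  ∀ P : FreyPackage, Nontrivial (Vp P)

/-- (I3) = statement S05: the Frey representation is unramified at every prime `q ≠ 2, p`.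
[S05 team] -/
def Stmt_S05 : Prop :=
  ∀ (P : FreyPackage) (q : ℕ), q.Prime → q ≠ 2 → q ≠ P.p → P.GaloisRepUnramifiedAt q

/-- (I4) Inertia at `2` is unipotent: there is a subspace `T` fixed pointwise by inertia with
inertia acting trivially on `V/T`.  [WP3: local analysis at 2] -/
def Stmt_two_unipotent : Prop :=
  ∀ (P : FreyPackage) (A : ValuationSubring Qbar), A.LiesOverPrime 2 →
    ∃ T : Submodule (ZMod P.p) (Vp P),
      (∀ σ ∈ A.inertiaSubgroupIn ℚ, ∀ x ∈ T, σ • x = x) ∧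
      (∀ σ ∈ A.inertiaSubgroupIn ℚ, ∀ x : Vp P, σ • x - x ∈ T)

/-- (I5) The Frey curve has no nonzero `G`-fixed `p`-torsion point.
[WP3 at 2: `v₂(Δ) = 2p·v₂(b) - 8` is prime to `p`, and `#Ẽ_ns(𝔽₂) ≤ 3 < p`] -/
def Stmt_no_fixed_point : Prop :=
  ∀ (P : FreyPackage) (x : Vp P), (∀ σ : Gal, σ • x = x) → x = 0

/-- (I6) At `p`: inertia acts trivially modulo the kernel of reduction, and the kernel of
reduction is a subspace.  [S05 team: `Stmt_core` without the hypothesis `|p| = 1`] -/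
def Stmt_p_kernel : Prop :=
  ∀ (P : FreyPackage) (A : ValuationSubring Qbar), A.LiesOverPrime P.p →
    ∃ T : Submodule (ZMod P.p) (Vp P),
      (∀ x : Vp P, x ∈ T ↔ InE1 A (x : (P.freyCurve⁄Qbar).Point)) ∧
      (∀ σ ∈ A.inertiaSubgroupIn ℚ, ∀ x : Vp P, σ • x - x ∈ T)

/-- (I7) "Supersingular case": if all of `E[p]` lies in the kernel of reduction at some `A` over
`p`, there is no proper nonzero `G`-stable subspace.
[WP1 (torsion polynomial is Eisenstein-like) + rationality of `∏_{Q ∈ N∖0} x(Q)`] -/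
def Stmt_p_supersingular : Prop :=
  ∀ (P : FreyPackage) (A : ValuationSubring Qbar), A.LiesOverPrime P.p →
    (∀ x : Vp P, InE1 A (x : (P.freyCurve⁄Qbar).Point)) →
    ∀ N : Submodule (ZMod P.p) (Vp P), IsGaloisStable ℚ N → N = ⊥ ∨ N = ⊤

/-- (I8) Minkowski: a normal subgroup of `G` that contains the pointwise stabiliser of a finite
set and, for every prime `ℓ`, the inertia group of SOME valuation subring over `ℓ`, is all of `G`.
[WP4: fixed field is a Galois number field unramified everywhere; Mathlib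
`NumberField.exists_not_isUnramifiedAt_int_of_isGalois` + lifting of inertia elements] -/
def Stmt_minkowski : Prop :=
  ∀ H : Subgroup Gal, H.Normal →
    (∃ S : Finset Qbar, ∀ σ : Gal, (∀ x ∈ S, σ x = x) → σ ∈ H) →
    (∀ ℓ : ℕ, ℓ.Prime → ∃ A : ValuationSubring Qbar, A.LiesOverPrime ℓ ∧
      A.inertiaSubgroupIn ℚ ≤ H) →
    H = ⊤

/-- (I0) Valuation subrings over every prime exist. -/
def Stmt_exists_valuationSubring : Prop :=
  ∀ ℓ : ℕ, ℓ.Prime → ∃ A : ValuationSubring Qbar, A.LiesOverPrime ℓ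

end Fermat.Agent.S13

end
-- ==== END Fermat.Agent.S13.Defs

-- ==== BEGIN Fermat.Agent.S13.H63_Val
section

set_option autoImplicit false

namespace Fermat.Agent.S13.H63

variable {L : Type*} [Field L] (A : ValuationSubring L)

theorem val_intCast_le_one (n : ℤ) : A.valuation (n : L) ≤ 1 :=
  (A.valuation_le_one_iff _).2 (intCast_mem A n)

variable {A}

theorem val_lt_one_of_mem_nonunits {x : L} (hx : x ∈ A.nonunits) : A.valuation x < 1 :=
  (ValuationSubring.mem_nonunits_iff A).1 hx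

theorem val_intCast_eq_one_of_not_dvd {q : ℕ} (hqp : q.Prime) (hq : (q : L) ∈ A.nonunits)
    {n : ℤ} (h : ¬ (q : ℤ) ∣ n) : A.valuation (n : L) = 1 := by
  refine le_antisymm (val_intCast_le_one A n) ?_
  by_contra hlt
  rw [not_le] at hlt
  have hcop : IsCoprime (q : ℤ) n := by
    have hp : Prime (q : ℤ) := Nat.prime_iff_prime_int.mp hqp
    exact (Prime.coprime_iff_not_dvd hp).2 h
  obtain ⟨u, v, huv⟩ := hcop
  have h1 : A.valuation ((u * q + v * n : ℤ) : L) < 1 := by
    push_cast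
    refine lt_of_le_of_lt (A.valuation.map_add _ _) (max_lt ?_ ?_)
    · rw [map_mul]
      calc A.valuation (u : L) * A.valuation (q : L) ≤ 1 * A.valuation (q : L) := by
            gcongr; exact val_intCast_le_one A u
        _ = A.valuation (q : L) := one_mul _
        _ < 1 := val_lt_one_of_mem_nonunits hq
    · rw [map_mul]
      calc A.valuation (v : L) * A.valuation (n : L) ≤ 1 * A.valuation (n : L) := by
            gcongr; exact val_intCast_le_one A v
        _ = A.valuation (n : L) := one_mul _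
        _ < 1 := hlt
  rw [huv] at h1
  simp at h1

/-- The valuation of a nonzero natural number is a power of the valuation of `q`. -/
theorem val_natCast_eq_pow {q : ℕ} (hqp : q.Prime) (hq : (q : L) ∈ A.nonunits)
    {n : ℕ} (hn : n ≠ 0) : ∃ e : ℕ, A.valuation (n : L) = A.valuation (q : L) ^ e := by
  obtain ⟨e, n', hn', rfl⟩ := Nat.exists_eq_pow_mul_and_not_dvd hn q hqp.ne_one
  refine ⟨e, ?_⟩
  have h1 : A.valuation ((n' : ℤ) : L) = 1 :=
    val_intCast_eq_one_of_not_dvd hqp hq (by exact_mod_cast hn')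
  push_cast
  rw [map_mul, map_pow]
  have h2 : A.valuation (n' : L) = 1 := by simpa using h1
  rw [h2, mul_one]

/-- The valuation of a nonzero rational number is an integral power of the valuation of `q`. -/
theorem val_ratCast_eq_zpow [CharZero L] {q : ℕ} (hqp : q.Prime) (hq : (q : L) ∈ A.nonunits)
    {z : ℚ} (hz : z ≠ 0) : ∃ k : ℤ, A.valuation (z : L) = A.valuation (q : L) ^ k := by
  have hnum : z.num.natAbs ≠ 0 := by
    simpa using hz
  have hden : z.den ≠ 0 := z.den_ne_zero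
  obtain ⟨e, he⟩ := val_natCast_eq_pow hqp hq hnum
  obtain ⟨f, hf⟩ := val_natCast_eq_pow hqp hq hden
  refine ⟨(e : ℤ) - f, ?_⟩
  have hq0 : A.valuation (q : L) ≠ 0 := by
    rw [Ne, map_eq_zero]
    exact_mod_cast hqp.ne_zero
  have hz' : (z : L) = (z.num : L) / (z.den : L) := by
    conv_lhs => rw [← Rat.num_div_den z]
    push_cast
    rfl
  have habs : A.valuation ((z.num : ℤ) : L) = A.valuation ((z.num.natAbs : ℕ) : L) := by
    rcases Int.natAbs_eq z.num with h | h
    · conv_lhs => rw [h]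
      simp
    · conv_lhs => rw [h]
      simp
  rw [hz', map_div₀, habs, he, hf, zpow_sub₀ hq0, zpow_natCast, zpow_natCast]

/-- A nonempty product of elements `> 1` is `> 1`. -/
theorem one_lt_multiset_prod {Γ : Type*} [LinearOrderedCommGroupWithZero Γ] (s : Multiset Γ)
    (hs : s ≠ 0) (h : ∀ x ∈ s, 1 < x) : 1 < s.prod := by
  induction s using Multiset.induction_on with
  | empty => exact absurd rfl hs
  | cons a t ih =>
    rw [Multiset.prod_cons]
    have ha : 1 < a := h a (Multiset.mem_cons_self a t)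
    by_cases ht : t = 0
    · subst ht
      simpa using ha
    · have h1 : 1 < t.prod := ih ht (fun x hx => h x (Multiset.mem_cons_of_mem hx))
      calc (1 : Γ) = 1 * 1 := (one_mul 1).symm
        _ < a * t.prod := by
          have ha0 : (0 : Γ) < a := lt_trans zero_lt_one ha
          calc (1 : Γ) * 1 < a * 1 := by
                rw [one_mul, mul_one]; exact ha
            _ < a * t.prod := by
                exact (mul_lt_mul_iff_right₀ ha0).mpr h1

end Fermat.Agent.S13.H63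

end
-- ==== END Fermat.Agent.S13.H63_Val

-- ==== BEGIN Fermat.Agent.S15.Defs
section

/-!
# S15 (Mazur's key step): interfaces  (wiring owner helper83; plan `NOTES/plan/S15.md`)

Route (Mazur, "Modular curves and the Eisenstein ideal" III.5; Nakayama form due to helper97):
`S15 = BRIDGE + ELEM + CORE`,  `CORE = key_algebra + (S18, RI, GH, HR, FG, CUSP, DESC)`.

* `F = modularFunctionFieldBar p = ℚ̄(j(q), j(q^p)) ⊂ ℚ̄((q))`, `J = JZero p = Pic⁰(F)`;
* the cusps: places `P∞`, `P0` of `F` with `(ord j, ord j_p) = (-1, -p)`, resp. `(-p, -1)`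
  (`IsCuspPair`), `κ = [P∞ - P0]`;
* the Hecke ring `HeckeAlg = ℤ[X_ℓ]` acts on `J` by the prelude's `heckeModuleBar p` (`hsmul`),
  `ε = eisEval p : HeckeAlg → ℤ`, `X_ℓ ↦ 1 + ℓ` (`ℓ ≠ p`), `X_p ↦ 1`.

This file contains definitions and statements only.
-/

set_option autoImplicit false
set_option synthInstance.maxHeartbeats 400000

noncomputable section

open HahnSeries IntermediateField AlgebraicCurve ModularCurve
open WeierstrassCurve WeierstrassCurve.Affine

namespace Fermat.Agent.S15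

/-- The absolute Galois group of `ℚ`. -/
abbrev GalQ : Type := AlgebraicClosure ℚ ≃ₐ[ℚ] AlgebraicClosure ℚ

/-- Places of `X₀(N)` over `ℚ̄`. -/
abbrev PlaceBar (N : ℕ) : Type :=
  Place (AlgebraicClosure ℚ) (modularFunctionFieldBar N)

/-- The Galois action on places of `X₀(N)` (through the action on `q`-expansion coefficients). -/
def galPlace (N : ℕ) (σ : GalQ) (P : PlaceBar N) : PlaceBar N :=
  arithmeticGalois (modularFunctionFieldFull N) σ • P

/-- The Hecke action of the prelude on `J₀(N)`, as a plain function. -/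
def hsmul (N : ℕ) [NeZero N] (t : HeckeAlg) (z : JZero N) : JZero N :=
  letI := heckeModuleBar N
  t • z

/-- The Eisenstein character `X_ℓ ↦ 1 + ℓ` (`ℓ ∤ N`), `X_ℓ ↦ 1` (`ℓ ∣ N`). -/
def eisEval (N : ℕ) : HeckeAlg →+* ℤ :=
  (MvPolynomial.aeval (R := ℤ) (eisensteinSystem N)).toRingHom

/-- The rational points of `J₀(N)`: the Galois-fixed divisor classes. -/
def ratPts (N : ℕ) : AddSubgroup (JZero N) where
  carrier := {z | ∀ σ : GalQ, σ • z = z}
  zero_mem' := fun σ => smul_zero σ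
  add_mem' := fun {a b} ha hb σ => by rw [smul_add, ha σ, hb σ]
  neg_mem' := fun {a} ha σ => by rw [smul_neg, ha σ]

theorem mem_ratPts {N : ℕ} {z : JZero N} : z ∈ ratPts N ↔ ∀ σ : GalQ, σ • z = z := Iff.rfl

/-- `j(q)` as an element of the function field of `X₀(N)` over `ℚ̄`. -/
def jBar (N : ℕ) : modularFunctionFieldBar N :=
  ⟨coeffEmb (AlgebraicClosure ℚ) jq, coeffEmb_mem_laurentBaseChange _ (by
    have h := jqd_mem_full N (one_dvd N)
    rwa [qExpand_one_apply] at h)⟩

/-- `j(q^N)` as an element of the function field of `X₀(N)` over `ℚ̄`. -/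
def jBarN (N : ℕ) [NeZero N] : modularFunctionFieldBar N :=
  ⟨coeffEmb (AlgebraicClosure ℚ) (qExpand ℚ N jq),
    coeffEmb_mem_laurentBaseChange _ (jqd_mem_full N dvd_rfl)⟩

/-- `P∞`, `P0` are the two cusps of `X₀(p)`: `j` has a simple pole at `P∞` and a pole of order
`p` at `P0`; `j_p = j(q^p)` has a pole of order `p` at `P∞` and a simple pole at `P0`. -/
structure IsCuspPair (p : ℕ) [NeZero p] (Pinf P0 : PlaceBar p) : Prop where
  ord_j_inf : Pinf.ord (jBar p) = -1
  ord_jN_inf : Pinf.ord (jBarN p) = -(p : ℤ)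
  ord_j_zero : P0.ord (jBar p) = -(p : ℤ)
  ord_jN_zero : P0.ord (jBarN p) = -1
  deg_inf : Pinf.deg = 1
  deg_zero : P0.deg = 1

/-- The class of `P - Q` in `Pic⁰`, for two places of degree one. -/
def ptClass {K F : Type*} [Field K] [Field F] [Algebra K F] (P Q : Place K F)
    (hP : P.deg = 1) (hQ : Q.deg = 1) : Pic0 K F :=
  Pic0.mk ⟨Finsupp.single P 1 - Finsupp.single Q 1, by
    rw [Divisor.mem_degZero, map_sub, Divisor.degree_single, Divisor.degree_single, hP, hQ,
      sub_self]⟩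

/-! ## Inputs from cluster G (reduction of `J₀(p)` modulo `ℓ ≠ p`) -/

/-- The frozen statement S18 (type copied verbatim). -/
def Stmt_S18 : Prop :=
  ∀ (N : ℕ) [NeZero N] {ℓ : ℕ} [Fact ℓ.Prime] (_ : ¬ ℓ ∣ N)
    (A : ValuationSubring (AlgebraicClosure ℚ)) (_ : A.LiesOverPrime ℓ)
    (_ : ModularCurve.ReductionInputsModL A N) (m : ℕ) (_ : ¬ ℓ ∣ m) (z : ModularCurve.JZero N)
    (_ : m • z = 0) (_ : ModularCurve.reductionModL A N z = 0), z = 0

/-- The frozen statement S17 for the level `p` (type copied verbatim, specialised). -/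
def Stmt_S17 (N : ℕ) : Prop :=
  AddGroup.FG ↥(FixedPoints.addSubgroup ((AlgebraicClosure ℚ) ≃ₐ[ℚ] (AlgebraicClosure ℚ))
    (JZero N))

/-- (RI) the reduction inputs hold at every prime `ℓ ≠ p` (G-RED package PL). -/
def Stmt_redInputs (p : ℕ) : Prop :=
  ∀ ℓ : ℕ, ℓ.Prime → ℓ ≠ p → ∀ A : ValuationSubring (AlgebraicClosure ℚ), A.LiesOverPrime ℓ →
    ReductionInputsModL A p

/-- (GH) the Hecke operators commute with the Galois action on `J₀(p)`. -/
def Stmt_GH (p : ℕ) [NeZero p] : Prop :=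
  ∀ (σ : GalQ) (t : HeckeAlg) (z : JZero p), σ • hsmul p t z = hsmul p t (σ • z)

/-- (HR) on rational points the kernel of reduction modulo `ℓ ≠ p` is stable under the Hecke
ring. -/
def Stmt_HR (p : ℕ) [NeZero p] : Prop :=
  ∀ ℓ : ℕ, ℓ.Prime → ℓ ≠ p → ∀ A : ValuationSubring (AlgebraicClosure ℚ), A.LiesOverPrime ℓ →
    ∀ (t : HeckeAlg) (z : JZero p), z ∈ ratPts p → reductionModL A p z = 0 →
      reductionModL A p (hsmul p t z) = 0

/-- (FG) the reduction modulo `ℓ ≠ p` of the rational points is a finitely generated group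
(it is finite: it lies in the group of `𝔽_ℓ`-rational divisor classes; it also follows
from Mordell–Weil, `stmt_redFG_of_S17`). -/
def Stmt_redFG (p : ℕ) : Prop :=
  ∀ ℓ : ℕ, ℓ.Prime → ℓ ≠ p → ∀ A : ValuationSubring (AlgebraicClosure ℚ), A.LiesOverPrime ℓ →
    (AddSubgroup.map (reductionModL A p) (ratPts p)).FG

/-! ## Inputs on the cusps of `X₀(p)` -/

/-- (CUSP-gal) the cusps are rational. -/
def Stmt_cuspGal (p : ℕ) [NeZero p] : Prop :=
  ∀ Pinf P0 : PlaceBar p, IsCuspPair p Pinf P0 →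
    ∀ σ : GalQ, galPlace p σ Pinf = Pinf ∧ galPlace p σ P0 = P0

/-- (CUSP-ne) `[P∞ - P0] ≠ 0`: the genus of `X₀(p)` is positive (`p ∉ {2, 3, 5, 7, 13}`). -/
def Stmt_cuspNe (p : ℕ) [NeZero p] : Prop :=
  ∀ (Pinf P0 : PlaceBar p) (h : IsCuspPair p Pinf P0),
    ptClass Pinf P0 h.deg_inf h.deg_zero ≠ 0

/-- (CUSP-tors) `(p - 1) [P∞ - P0] = 0`: the divisor of the modular unit `Δ(z)/Δ(pz)`
(prelude `modularUnitSeries p`). -/
def Stmt_cuspTors (p : ℕ) [NeZero p] : Prop :=
  ∀ (Pinf P0 : PlaceBar p) (h : IsCuspPair p Pinf P0),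
    (p - 1) • ptClass Pinf P0 h.deg_inf h.deg_zero = 0

/-- (CUSP-eis) the cuspidal class is Eisenstein: `T_ℓ κ = (1 + ℓ) κ` (`ℓ ≠ p`), `U_p κ = κ`. -/
def Stmt_cuspEis (p : ℕ) [NeZero p] : Prop :=
  ∀ (Pinf P0 : PlaceBar p) (h : IsCuspPair p Pinf P0) (t : HeckeAlg),
    hsmul p t (ptClass Pinf P0 h.deg_inf h.deg_zero) =
      eisEval p t • ptClass Pinf P0 h.deg_inf h.deg_zero

/-! ## The Eisenstein descent (Mazur's core) -/

/-- `𝔓_r M`: the subgroup of `J₀(p)` generated by the `t • w`, `w` rational and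
`t ∈ 𝔓_r = {t | r ∣ ε(t)}` (the Eisenstein prime of residue characteristic `r`). -/
def eisPrimeSMul (p : ℕ) [NeZero p] (r : ℕ) : AddSubgroup (JZero p) :=
  AddSubgroup.closure {v | ∃ t : HeckeAlg, (r : ℤ) ∣ eisEval p t ∧ ∃ w ∈ ratPts p, v = hsmul p t w}

/-- (DESC) **Eisenstein descent**: for some prime `r` dividing the order of the cuspidal class
`κ`, the group `J₀(p)(ℚ) / 𝔓_r J₀(p)(ℚ)` is generated by the image of `κ`. -/
def Stmt_descent (p : ℕ) [NeZero p] : Prop :=
  ∀ (Pinf P0 : PlaceBar p) (h : IsCuspPair p Pinf P0),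
    ∃ r : ℕ, r.Prime ∧ r ∣ addOrderOf (ptClass Pinf P0 h.deg_inf h.deg_zero) ∧
      ∀ z ∈ ratPts p, ∃ m : ℤ,
        z - m • ptClass Pinf P0 h.deg_inf h.deg_zero ∈ eisPrimeSMul p r

/-! ## The bridge from elliptic curves to `X₀(p)` and the elementary local input -/

/-- (BRIDGE) a rational point `Q` of order `p` on `W` gives a rational place `x` of `X₀(p)`
(the point `(W, ⟨Q⟩)`); at a prime `ℓ ≠ p` of multiplicative reduction `x` reduces to the cusp
`P∞` if `Q` lies in the identity component, and to the cusp `P0` otherwise.  (The hypotheses at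
`2` and `3` are those of S15: `j(W)` is not integral, so `W` has no complex multiplication and
`j(W) ≠ 0, 1728`.) -/
def Stmt_bridge (p : ℕ) [NeZero p] : Prop :=
  ∀ (W : WeierstrassCurve ℤ), W.Δ ≠ 0 →
  ∀ Q : ((W.map (Int.castRingHom ℚ))⁄(AlgebraicClosure ℚ)).Point,
    (∀ σ : GalQ, σ • Q = Q) → addOrderOf Q = p →
    (2 : ℤ) ∣ W.Δ → ¬ (2 : ℤ) ∣ W.c₄ → (3 : ℤ) ∣ W.Δ → ¬ (3 : ℤ) ∣ W.c₄ →
    ∀ Pinf P0 : PlaceBar p, IsCuspPair p Pinf P0 →
    ∃ x : PlaceBar p, x.deg = 1 ∧ (∀ σ : GalQ, galPlace p σ x = x) ∧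
      ∀ ℓ : ℕ, ℓ.Prime → ℓ ≠ p → (ℓ : ℤ) ∣ W.Δ → ¬ (ℓ : ℤ) ∣ W.c₄ →
        ∀ (A : ValuationSubring (AlgebraicClosure ℚ)), A.LiesOverPrime ℓ →
        ∀ h : ReductionInputsModL A p,
          (¬ W.InZeroComponentAt A Q → placeReductionModL h x = placeReductionModL h P0) ∧
          (W.InZeroComponentAt A Q → placeReductionModL h x = placeReductionModL h Pinf)

/-- (ELEM) a rational point of prime order `p` in the identity component at a prime `ℓ ≠ p` of
multiplicative reduction injects into `E_ns(𝔽_ℓ)`, a group of order `ℓ - 1` or `ℓ + 1`. -/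
def Stmt_elem : Prop :=
  ∀ (p : ℕ), p.Prime → ∀ (W : WeierstrassCurve ℤ), W.Δ ≠ 0 →
  ∀ Q : ((W.map (Int.castRingHom ℚ))⁄(AlgebraicClosure ℚ)).Point,
    (∀ σ : GalQ, σ • Q = Q) → addOrderOf Q = p →
    ∀ ℓ : ℕ, ℓ.Prime → ℓ ≠ p → (ℓ : ℤ) ∣ W.Δ → ¬ (ℓ : ℤ) ∣ W.c₄ →
      ∀ (A : ValuationSubring (AlgebraicClosure ℚ)), A.LiesOverPrime ℓ →
        W.InZeroComponentAt A Q → p ∣ (ℓ - 1) * (ℓ + 1)

/-- (CUSP-ex) the two cusps exist. -/
def Stmt_cuspExists (p : ℕ) [NeZero p] : Prop :=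
  ∃ Pinf P0 : PlaceBar p, IsCuspPair p Pinf P0

end Fermat.Agent.S15

end
end
-- ==== END Fermat.Agent.S15.Defs

-- ==== BEGIN Fermat.Agent.S16.Defs
section

/-!
# S16 (Eisenstein ideal index): interfaces (helper40, coordinator of cluster M)

`T := heckeLatticeAlgebra p ∅`, `I := ` image of the Eisenstein ideal. Then `T ⧸ I ≃ ℤ ⧸ (m)` and
`|T ⧸ I| = n := (p - 1) / gcd (p - 1, 12)` is equivalent to the two statements below:

* `Stmt_LB p` : some cusp form of weight 2 on `Γ₀(p)` with integral `q`-expansion is congruent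
  modulo `n` to the Eisenstein series `Σ σ'(k) q^k`, `σ'(k) = Σ_{d ∣ k, p ∤ d} d`;
* `Stmt_UB p` : if such a congruence holds modulo `m` then `m ∣ n` (`m = 0`: equality).

The proof of S16 from these two is `Fermat.Agent.S16.wiring` (file `Wiring.lean`).
-/

set_option autoImplicit false

namespace Fermat.Agent.S16

open CuspForm ModularFormClass CongruenceSubgroup ModularCurve

/-- `σ'(k) = Σ_{d ∣ k, p ∤ d} d`, the `k`-th coefficient of the Eisenstein series of weight 2
and level `p`. -/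
def sigmaP (p k : ℕ) : ℕ := ∑ d ∈ k.divisors with ¬ p ∣ d, d

/-- `f ≡ Σ_{k ≥ 1} σ'(k) q^k mod m`: every coefficient `a_k(f)`, `k ≥ 1`, is an integer
congruent to `σ'(k)` modulo `m`. For `m = 0` this says `a_k(f) = σ'(k)`. -/
def IsEisCongr (p m : ℕ) (f : CuspForm (Gamma0 p) 2) : Prop :=
  ∀ k : ℕ, 1 ≤ k → ∃ c : ℤ, qCoeff f k = (c : ℂ) ∧ (m : ℤ) ∣ c - (sigmaP p k : ℤ)

/-- Lower bound input: the Eisenstein congruence modulo `n = eisensteinNumerator p` exists. -/
def Stmt_LB (p : ℕ) : Prop :=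
  ∃ f : CuspForm (Gamma0 p) 2, IsEisCongr p (eisensteinNumerator p) f

/-- Upper bound input: an Eisenstein congruence modulo `m` forces `m ∣ n`. -/
def Stmt_UB (p : ℕ) : Prop :=
  ∀ m : ℕ, (∃ f : CuspForm (Gamma0 p) 2, IsEisCongr p m f) → m ∣ eisensteinNumerator p

/-- Local form of `Stmt_LB` at a prime `ℓ`: congruence modulo the exact power of `ℓ` in `n`. -/
def Stmt_LBat (p ℓ : ℕ) : Prop :=
  ∃ f : CuspForm (Gamma0 p) 2, IsEisCongr p (ℓ ^ (eisensteinNumerator p).factorization ℓ) f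

/-- Local form of `Stmt_UB` at a prime `ℓ`: no congruence modulo `ℓ ^ (v_ℓ(n) + 1)`. -/
def Stmt_UBat (p ℓ : ℕ) : Prop :=
  ∀ f : CuspForm (Gamma0 p) 2,
    ¬ IsEisCongr p (ℓ ^ ((eisensteinNumerator p).factorization ℓ + 1)) f

end Fermat.Agent.S16

end
-- ==== END Fermat.Agent.S16.Defs

-- ==== BEGIN Fermat.Agent.S20.H19_Arith
section

/-!
# S20, part G (helper19): the arithmetic identity behind `index (Gamma0 N) = dedekindPsi N`

`∑ d ∈ N.divisors, #{x < N/d | x coprime to gcd(d, N/d)} = dedekindPsi N`.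
-/

namespace Fermat.Agent.S20.H19

open Finset Nat

/-- Counting residues coprime to `g` in a range of length `k * g`. -/
lemma card_filter_coprime_range_mul (g k : ℕ) :
    ((range (k * g)).filter (fun x => Nat.Coprime x g)).card = k * φ g := by
  induction k with
  | zero => simp
  | succ k ih =>
    have h1 : range ((k + 1) * g) = range (k * g) ∪ Ico (k * g) (k * g + g) := by
      ext x
      simp only [mem_range, mem_union, mem_Ico]
      have : (k + 1) * g = k * g + g := by ring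
      omega
    have hdisj : Disjoint (range (k * g)) (Ico (k * g) (k * g + g)) := by
      rw [Finset.disjoint_left]
      intro x hx hx'
      simp only [mem_range, mem_Ico] at hx hx'
      omega
    rw [h1, filter_union, card_union_of_disjoint (disjoint_filter_filter hdisj), ih]
    have h2 : ((Ico (k * g) (k * g + g)).filter (fun x => Nat.Coprime x g)).card = φ g := by
      rw [← Nat.filter_coprime_Ico_eq_totient g (k * g)]
      congr 1
      apply filter_congr
      intro x _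
      exact Nat.coprime_comm
    rw [h2]
    ring

/-- Counting residues coprime to `g` in a range of length `m`, `g ∣ m`. -/
lemma card_filter_coprime_range {g m : ℕ} (h : g ∣ m) :
    ((range m).filter (fun x => Nat.Coprime x g)).card = m / g * φ g := by
  rcases Nat.eq_zero_or_pos g with rfl | hg
  · have : m = 0 := Nat.eq_zero_of_zero_dvd h
    subst this
    simp
  obtain ⟨k, rfl⟩ := h
  rw [mul_comm g k, card_filter_coprime_range_mul, Nat.mul_div_cancel _ hg]

/-- Sum over the divisors of a product of coprime numbers. -/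
lemma sum_divisors_mul_of_coprime {M : Type*} [AddCommMonoid M] {a b : ℕ} (hab : a.Coprime b)
    (f : ℕ → M) :
    ∑ d ∈ (a * b).divisors, f d = ∑ d₁ ∈ a.divisors, ∑ d₂ ∈ b.divisors, f (d₁ * d₂) := by
  rw [hab.divisors_mul, Finset.sum_map]
  change ∑ x ∈ (a.divisors ×ˢ b.divisors).attach, (fun p : ℕ × ℕ => f (p.1 * p.2)) x.1 = _
  rw [Finset.sum_attach (a.divisors ×ˢ b.divisors) (fun p => f (p.1 * p.2)), Finset.sum_product]

/-- The summand of the index formula. -/
def indexTerm (N d : ℕ) : ℕ := (N / d) / Nat.gcd d (N / d) * φ (Nat.gcd d (N / d))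

/-- The index formula as a function of `N`. -/
def indexSum (N : ℕ) : ℕ := ∑ d ∈ N.divisors, indexTerm N d

lemma sum_card_filter_eq_indexSum (N : ℕ) :
    ∑ d ∈ N.divisors, ((range (N / d)).filter (fun x => Nat.Coprime x (Nat.gcd d (N / d)))).card
      = indexSum N := by
  rw [indexSum]
  apply sum_congr rfl
  intro d _
  rw [card_filter_coprime_range (Nat.gcd_dvd_right d (N / d)), indexTerm]

lemma indexTerm_mul {a b d₁ d₂ : ℕ} (hab : a.Coprime b) (h₁ : d₁ ∣ a) (h₂ : d₂ ∣ b)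
    (ha : a ≠ 0) (hb : b ≠ 0) :
    indexTerm (a * b) (d₁ * d₂) = indexTerm a d₁ * indexTerm b d₂ := by
  have hd₁ : d₁ ≠ 0 := fun h => ha (by simpa [h] using h₁)
  have hd₂ : d₂ ≠ 0 := fun h => hb (by simpa [h] using h₂)
  have hdiv : a * b / (d₁ * d₂) = a / d₁ * (b / d₂) := Nat.mul_div_mul_comm h₁ h₂
  have he₁ : a / d₁ ∣ a := Nat.div_dvd_of_dvd h₁
  have he₂ : b / d₂ ∣ b := Nat.div_dvd_of_dvd h₂
  -- coprimality facts
  have c12 : (d₁).Coprime (b / d₂) := (hab.coprime_dvd_left h₁).coprime_dvd_right he₂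
  have c21 : (d₂).Coprime (a / d₁) := (hab.symm.coprime_dvd_left h₂).coprime_dvd_right he₁
  have cee : (a / d₁).Coprime (b / d₂) := (hab.coprime_dvd_left he₁).coprime_dvd_right he₂
  have hg : Nat.gcd (d₁ * d₂) (a / d₁ * (b / d₂)) = Nat.gcd d₁ (a / d₁) * Nat.gcd d₂ (b / d₂) := by
    rw [Nat.Coprime.gcd_mul _ cee]
    congr 1
    · exact Nat.Coprime.gcd_mul_right_cancel _ c21
    · exact Nat.Coprime.gcd_mul_left_cancel _ c12
  have cgg : (Nat.gcd d₁ (a / d₁)).Coprime (Nat.gcd d₂ (b / d₂)) :=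
    (cee.coprime_dvd_left (Nat.gcd_dvd_right _ _)).coprime_dvd_right (Nat.gcd_dvd_right _ _)
  rw [indexTerm, indexTerm, indexTerm, hdiv, hg, Nat.totient_mul cgg,
    Nat.mul_div_mul_comm (Nat.gcd_dvd_right _ _) (Nat.gcd_dvd_right _ _)]
  ring

lemma indexSum_mul {a b : ℕ} (hab : a.Coprime b) (ha : a ≠ 0) (hb : b ≠ 0) :
    indexSum (a * b) = indexSum a * indexSum b := by
  rw [indexSum, indexSum, indexSum, sum_divisors_mul_of_coprime hab, Finset.sum_mul_sum]
  apply sum_congr rfl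
  intro d₁ hd₁
  apply sum_congr rfl
  intro d₂ hd₂
  exact indexTerm_mul hab (Nat.dvd_of_mem_divisors hd₁) (Nat.dvd_of_mem_divisors hd₂) ha hb

lemma dedekindPsi_mul {a b : ℕ} (hab : a.Coprime b) :
    ModularCurve.dedekindPsi (a * b) = ModularCurve.dedekindPsi a * ModularCurve.dedekindPsi b := by
  simp only [ModularCurve.dedekindPsi]
  rw [Finset.sum_filter, sum_divisors_mul_of_coprime hab, Finset.sum_filter, Finset.sum_filter,
    Finset.sum_mul_sum]
  apply sum_congr rfl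
  intro d₁ hd₁
  apply sum_congr rfl
  intro d₂ hd₂
  have h₁ := Nat.dvd_of_mem_divisors hd₁
  have h₂ := Nat.dvd_of_mem_divisors hd₂
  have c : d₁.Coprime d₂ := (hab.coprime_dvd_left h₁).coprime_dvd_right h₂
  rw [Nat.mul_div_mul_comm h₁ h₂]
  by_cases s₁ : Squarefree d₁ <;> by_cases s₂ : Squarefree d₂ <;>
    simp [Nat.squarefree_mul c, s₁, s₂]

lemma dedekindPsi_prime_pow {p : ℕ} (hp : p.Prime) {n : ℕ} (hn : 0 < n) :
    ModularCurve.dedekindPsi (p ^ n) = p ^ n + p ^ (n - 1) := by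
  obtain ⟨m, rfl⟩ : ∃ m, n = m + 1 := ⟨n - 1, by omega⟩
  simp only [ModularCurve.dedekindPsi]
  rw [Finset.sum_filter, Nat.sum_divisors_prime_pow hp, Finset.sum_range_succ',
    Finset.sum_range_succ']
  have hrest : ∑ k ∈ range m, (if Squarefree (p ^ (k + 1 + 1)) then p ^ (m + 1) / p ^ (k + 1 + 1)
      else 0) = 0 := by
    apply Finset.sum_eq_zero
    intro k _
    rw [if_neg]
    intro hsq
    have := (Nat.squarefree_pow_iff hp.ne_one (by omega : k + 1 + 1 ≠ 0)).mp hsq
    omega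
  rw [hrest]
  simp only [zero_add, pow_zero, Nat.div_one, squarefree_one, if_true, pow_one]
  rw [if_pos hp.squarefree]
  have : p ^ (m + 1) / p = p ^ m := by
    rw [pow_succ, Nat.mul_div_cancel _ hp.pos]
  rw [this]
  simp
  ring

lemma indexSum_prime_pow {p : ℕ} (hp : p.Prime) {n : ℕ} (hn : 0 < n) :
    indexSum (p ^ n) = p ^ n + p ^ (n - 1) := by
  obtain ⟨m, rfl⟩ : ∃ m, n = m + 1 := ⟨n - 1, by omega⟩
  rw [indexSum, Nat.sum_divisors_prime_pow hp]
  -- term at exponent `i`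
  have hterm : ∀ i ∈ range (m + 2), indexTerm (p ^ (m + 1)) (p ^ i) =
      if i = 0 then p ^ (m + 1) else if i = m + 1 then 1 else p ^ (m - i) * (p - 1) := by
    intro i hi
    rw [mem_range] at hi
    have hdiv : p ^ (m + 1) / p ^ i = p ^ (m + 1 - i) := Nat.pow_div (by omega) hp.pos
    have hgcd : Nat.gcd (p ^ i) (p ^ (m + 1 - i)) = p ^ (min i (m + 1 - i)) := by
      rcases le_total i (m + 1 - i) with h | h
      · rw [min_eq_left h, Nat.gcd_eq_left (pow_dvd_pow p h)]
      · rw [min_eq_right h, Nat.gcd_eq_right (pow_dvd_pow p h)]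
    rw [indexTerm, hdiv, hgcd]
    by_cases h0 : i = 0
    · subst h0
      simp
    rw [if_neg h0]
    by_cases hm : i = m + 1
    · subst hm
      simp
    rw [if_neg hm]
    have hmin_pos : 0 < min i (m + 1 - i) := by
      apply lt_min <;> omega
    rw [Nat.totient_prime_pow hp hmin_pos, Nat.pow_div (min_le_right _ _) hp.pos, ← mul_assoc,
      ← pow_add]
    congr 2
    rcases le_total i (m + 1 - i) with h | h
    · rw [min_eq_left h]; omega
    · rw [min_eq_right h]; omega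
  rw [sum_congr rfl hterm]
  -- now a telescoping sum
  have key : ∀ m : ℕ, ∑ i ∈ range (m + 2),
      (if i = 0 then p ^ (m + 1) else if i = m + 1 then 1 else p ^ (m - i) * (p - 1))
        = p ^ (m + 1) + p ^ m := by
    intro m
    rw [Finset.sum_range_succ', Finset.sum_range_succ]
    simp only [if_true, Nat.add_eq_zero_iff, one_ne_zero, and_false, if_false]
    have hmid : ∑ x ∈ range m, (if x + 1 = m + 1 then 1 else p ^ (m - (x + 1)) * (p - 1))
        = ∑ x ∈ range m, p ^ (m - (x + 1)) * (p - 1) := by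
      apply sum_congr rfl
      intro x hx
      rw [mem_range] at hx
      rw [if_neg (by omega)]
    rw [hmid]
    have hgeom : ∀ m : ℕ, ∑ x ∈ range m, p ^ (m - (x + 1)) * (p - 1) + 1 = p ^ m := by
      intro m
      induction m with
      | zero => simp
      | succ m ih =>
        rw [Finset.sum_range_succ']
        have h1 : ∑ k ∈ range m, p ^ (m + 1 - (k + 1 + 1)) * (p - 1)
            = ∑ k ∈ range m, p ^ (m - (k + 1)) * (p - 1) := by
          apply sum_congr rfl
          intro k _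
          congr 2
          omega
        rw [h1]
        have h2 : p ^ (m + 1 - (0 + 1)) * (p - 1) = p ^ m * (p - 1) := by
          congr 2
        rw [h2]
        have hp1 : 1 ≤ p := hp.one_le
        calc ∑ k ∈ range m, p ^ (m - (k + 1)) * (p - 1) + p ^ m * (p - 1) + 1
            = (∑ k ∈ range m, p ^ (m - (k + 1)) * (p - 1) + 1) + p ^ m * (p - 1) := by ring
          _ = p ^ m + p ^ m * (p - 1) := by rw [ih]
          _ = p ^ m * (1 + (p - 1)) := by ring
          _ = p ^ (m + 1) := by rw [Nat.add_sub_cancel' hp1, pow_succ]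
    have := hgeom m
    omega
  rw [key m]
  simp

/-- **G1b**: the arithmetic identity. -/
theorem indexSum_eq_dedekindPsi (N : ℕ) (hN : N ≠ 0) :
    indexSum N = ModularCurve.dedekindPsi N := by
  induction N using Nat.recOnPosPrimePosCoprime with
  | prime_pow p n hp hn =>
    rw [indexSum_prime_pow hp hn, dedekindPsi_prime_pow hp hn]
  | zero => exact absurd rfl hN
  | one => rw [ModularCurve.dedekindPsi_one]; simp [indexSum, indexTerm]
  | coprime a b ha hb hab iha ihb =>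
    have ha0 : a ≠ 0 := by omega
    have hb0 : b ≠ 0 := by omega
    rw [indexSum_mul hab ha0 hb0, dedekindPsi_mul hab, iha ha0, ihb hb0]

/-- **G1b**, count form. -/
theorem G1b (N : ℕ) (hN : N ≠ 0) :
    ∑ d ∈ N.divisors, ((range (N / d)).filter (fun x => Nat.Coprime x (Nat.gcd d (N / d)))).card
      = ModularCurve.dedekindPsi N := by
  rw [sum_card_filter_eq_indexSum, indexSum_eq_dedekindPsi N hN]

end Fermat.Agent.S20.H19

end
-- ==== END Fermat.Agent.S20.H19_Arith

-- ==== BEGIN Fermat.Agent.S20.H19_Cosets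
section

/-!
# S20, part G (helper19): cosets of `Gamma0 N` in `SL(2, ℤ)` — basic criterion

The left coset `g • Gamma0 N` is determined by the first column `(g 0 0, g 1 0)` of `g` up to
units mod `N`: `g Γ = g' Γ ↔ N ∣ g 0 0 * g' 1 0 - g 1 0 * g' 0 0`.
-/

namespace Fermat.Agent.S20.H19

open CongruenceSubgroup MatrixGroups Matrix

variable (N : ℕ)

/-- Entry `(1,0)` of `g⁻¹ * g'`. -/
lemma inv_mul_apply_one_zero (g g' : SL(2, ℤ)) :
    (g⁻¹ * g') 1 0 = g 0 0 * g' 1 0 - g 1 0 * g' 0 0 := by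
  rw [Matrix.SpecialLinearGroup.coe_mul, Matrix.SpecialLinearGroup.coe_inv,
    Matrix.adjugate_fin_two, Matrix.mul_apply, Fin.sum_univ_two]
  simp
  ring

/-- Membership in `Gamma0 N` as a divisibility. -/
lemma mem_Gamma0_iff_dvd (g : SL(2, ℤ)) : g ∈ Gamma0 N ↔ (N : ℤ) ∣ g 1 0 := by
  rw [Gamma0_mem, ZMod.intCast_zmod_eq_zero_iff_dvd]

/-- Coset equality criterion. -/
lemma coset_eq_iff (g g' : SL(2, ℤ)) :
    (QuotientGroup.mk g : SL(2, ℤ) ⧸ Gamma0 N) = QuotientGroup.mk g' ↔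
      (N : ℤ) ∣ g 0 0 * g' 1 0 - g 1 0 * g' 0 0 := by
  rw [QuotientGroup.eq, mem_Gamma0_iff_dvd, inv_mul_apply_one_zero]

/-- The first column of an element of `SL(2, ℤ)` is coprime. -/
lemma isCoprime_col (g : SL(2, ℤ)) : IsCoprime (g 0 0) (g 1 0) := by
  refine ⟨g 1 1, -(g 0 1), ?_⟩
  have h := g.det_coe
  rw [Matrix.det_fin_two] at h
  linarith

lemma smul_mk (γ g : SL(2, ℤ)) :
    γ • (QuotientGroup.mk g : SL(2, ℤ) ⧸ Gamma0 N) = QuotientGroup.mk (γ * g) := rfl

@[simp] lemma S_mul_apply_zero_zero (g : SL(2, ℤ)) : (ModularGroup.S * g) 0 0 = - g 1 0 := by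
  rw [Matrix.SpecialLinearGroup.coe_mul, ModularGroup.coe_S]
  simp [Matrix.mul_apply, Fin.sum_univ_two]

@[simp] lemma S_mul_apply_one_zero (g : SL(2, ℤ)) : (ModularGroup.S * g) 1 0 = g 0 0 := by
  rw [Matrix.SpecialLinearGroup.coe_mul, ModularGroup.coe_S]
  simp [Matrix.mul_apply, Fin.sum_univ_two]

@[simp] lemma T_zpow_mul_apply_zero_zero (k : ℤ) (g : SL(2, ℤ)) :
    (ModularGroup.T ^ k * g) 0 0 = g 0 0 + k * g 1 0 := by
  rw [Matrix.SpecialLinearGroup.coe_mul, ModularGroup.coe_T_zpow]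
  simp [Matrix.mul_apply, Fin.sum_univ_two]

@[simp] lemma T_zpow_mul_apply_one_zero (k : ℤ) (g : SL(2, ℤ)) :
    (ModularGroup.T ^ k * g) 1 0 = g 1 0 := by
  rw [Matrix.SpecialLinearGroup.coe_mul, ModularGroup.coe_T_zpow]
  simp [Matrix.mul_apply, Fin.sum_univ_two]

@[simp] lemma ST_mul_apply_zero_zero (g : SL(2, ℤ)) :
    (ModularGroup.S * ModularGroup.T * g) 0 0 = - g 1 0 := by
  rw [Matrix.SpecialLinearGroup.coe_mul, Matrix.SpecialLinearGroup.coe_mul, ModularGroup.coe_S,
    ModularGroup.coe_T]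
  simp [Matrix.mul_apply, Fin.sum_univ_two]

@[simp] lemma ST_mul_apply_one_zero (g : SL(2, ℤ)) :
    (ModularGroup.S * ModularGroup.T * g) 1 0 = g 0 0 + g 1 0 := by
  rw [Matrix.SpecialLinearGroup.coe_mul, Matrix.SpecialLinearGroup.coe_mul, ModularGroup.coe_S,
    ModularGroup.coe_T]
  simp [Matrix.mul_apply, Fin.sum_univ_two]

/-- Fixed points of `S`: `S • gΓ = gΓ ↔ N ∣ a² + c²`. -/
lemma S_smul_eq_iff (g : SL(2, ℤ)) :
    ModularGroup.S • (QuotientGroup.mk g : SL(2, ℤ) ⧸ Gamma0 N) = QuotientGroup.mk g ↔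
      (N : ℤ) ∣ g 0 0 ^ 2 + g 1 0 ^ 2 := by
  rw [smul_mk, coset_eq_iff, S_mul_apply_zero_zero, S_mul_apply_one_zero, ← dvd_neg]
  have : -(-g 1 0 * g 1 0 - g 0 0 * g 0 0) = g 0 0 ^ 2 + g 1 0 ^ 2 := by ring
  rw [this]

/-- Fixed points of `S * T`: `ST • gΓ = gΓ ↔ N ∣ a² + a c + c²`. -/
lemma ST_smul_eq_iff (g : SL(2, ℤ)) :
    (ModularGroup.S * ModularGroup.T) • (QuotientGroup.mk g : SL(2, ℤ) ⧸ Gamma0 N)
        = QuotientGroup.mk g ↔
      (N : ℤ) ∣ g 0 0 ^ 2 + g 0 0 * g 1 0 + g 1 0 ^ 2 := by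
  rw [smul_mk, coset_eq_iff, ST_mul_apply_zero_zero, ST_mul_apply_one_zero, ← dvd_neg]
  have : -(-g 1 0 * g 1 0 - (g 0 0 + g 1 0) * g 0 0) = g 0 0 ^ 2 + g 0 0 * g 1 0 + g 1 0 ^ 2 := by
    ring
  rw [this]

end Fermat.Agent.S20.H19

end
-- ==== END Fermat.Agent.S20.H19_Cosets

-- ==== BEGIN Fermat.Agent.S20.H2_ExistsK
section

/-!
# S20 (helper2): a weight `K` with `dim M_K(Γ) = dim M_{K-12}(Γ) + index`

This is the hypothesis `h` of INF1/INF2, derived from DU1 (dimension formula from the basis),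
L2 (level one dimensions) and W1 (weights are even), all taken as hypotheses.
-/

set_option autoImplicit false

namespace Fermat.Agent.S20.H2

open UpperHalfPlane ModularForm MatrixGroups Filter Fermat.Agent.S20.H74

variable {Γ : Subgroup SL(2, ℤ)}

/-- Level one: `dim M_{m+12} = dim M_m + 1` for even `m ≥ 0` (from L2). -/
theorem finrank_top_add_twelve
    (hL2 : ∀ k : ℕ, Even k →
      Module.finrank ℂ (MF ⊤ (k : ℤ)) = if k % 12 = 2 then k / 12 else k / 12 + 1)
    (m : ℕ) (hm : Even m) :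
    Module.finrank ℂ (MF ⊤ ((m : ℤ) + 12)) = Module.finrank ℂ (MF ⊤ (m : ℤ)) + 1 := by
  have h1 := hL2 (m + 12) (by
    obtain ⟨r, hr⟩ := hm
    exact ⟨r + 6, by omega⟩)
  have h2 := hL2 m hm
  have e : ((m + 12 : ℕ) : ℤ) = (m : ℤ) + 12 := by push_cast; ring
  rw [e] at h1
  rw [h1, h2]
  have h3 : (m + 12) % 12 = m % 12 := by omega
  have h4 : (m + 12) / 12 = m / 12 + 1 := by omega
  rw [h3, h4]
  split_ifs <;> rfl

/-- There is a weight `K` with `dim M_K(Γ) = dim M_{K-12}(Γ) + index` (hypothesis `h` of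
INF1/INF2), from DU1 + L2 + W1. -/
theorem exists_K_finrank [Γ.FiniteIndex] (b : RBasis Γ) [Fintype b.J]
    (hcard : Nat.card b.J = Γ.index)
    (hDU1 : ∀ k : ℤ, Module.Finite ℂ (MF Γ k) ∧
      Module.finrank ℂ (MF Γ k) = ∑ j, Module.finrank ℂ (MF ⊤ (k - b.wt j)))
    (hL2 : ∀ k : ℕ, Even k →
      Module.finrank ℂ (MF ⊤ (k : ℤ)) = if k % 12 = 2 then k / 12 else k / 12 + 1)
    (hW1 : ∀ j, Even (b.wt j)) :
    ∃ K : ℤ, Module.Finite ℂ (MF Γ K) ∧
      Module.finrank ℂ (MF Γ K) = Module.finrank ℂ (MF Γ (K - 12)) + Γ.index := by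
  classical
  -- a bound for the weights
  obtain ⟨M, hM⟩ : ∃ M : ℕ, ∀ j, b.wt j ≤ 2 * (M : ℤ) := by
    refine ⟨∑ j, (b.wt j).natAbs, fun j => ?_⟩
    have h1 : (b.wt j).natAbs ≤ ∑ j, (b.wt j).natAbs :=
      Finset.single_le_sum (f := fun j => (b.wt j).natAbs) (fun _ _ => Nat.zero_le _)
        (Finset.mem_univ j)
    have h2 : b.wt j ≤ ((b.wt j).natAbs : ℤ) := Int.le_natAbs
    have h3 : ((b.wt j).natAbs : ℤ) ≤ ((∑ j, (b.wt j).natAbs : ℕ) : ℤ) := by exact_mod_cast h1
    have h4 : (0 : ℤ) ≤ ((∑ j, (b.wt j).natAbs : ℕ) : ℤ) := Int.natCast_nonneg _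
    linarith
  refine ⟨2 * (M : ℤ) + 12, (hDU1 _).1, ?_⟩
  rw [(hDU1 _).2, (hDU1 _).2, ← hcard, Nat.card_eq_fintype_card, Fintype.card, Finset.card_eq_sum_ones,
    ← Finset.sum_add_distrib]
  apply Finset.sum_congr rfl
  intro j _
  -- `m = 2M - wt j` is an even natural number
  obtain ⟨r, hr⟩ := hW1 j
  have hm0 : 0 ≤ 2 * (M : ℤ) - b.wt j := by linarith [hM j]
  obtain ⟨m, hm⟩ := Int.eq_ofNat_of_zero_le hm0
  have hmeven : Even m := by
    have : Even ((m : ℕ) : ℤ) := by
      rw [← hm, hr]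
      exact ⟨(M : ℤ) - r, by ring⟩
    exact_mod_cast this
  have e1 : 2 * (M : ℤ) + 12 - b.wt j = (m : ℤ) + 12 := by rw [← hm]; ring
  have e2 : 2 * (M : ℤ) + 12 - 12 - b.wt j = (m : ℤ) := by rw [← hm]; ring
  rw [e1, e2]
  exact finrank_top_add_twelve hL2 m hmeven

end Fermat.Agent.S20.H2

end
-- ==== END Fermat.Agent.S20.H2_ExistsK

-- ==== BEGIN Fermat.Agent.S20.H2_FilCore
section

/-!
# S20 (helper2): abstract linear algebra core of the cusp filtration (INF1 / INF2)

A finite decreasing filtration `Fil 0 = ⊤ ≥ Fil 1 ≥ … ≥ Fil N` of a finite dimensional space `M`,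
"leading term" maps `L a : Fil a → V` with kernel `Fil (a+1)` and values in independent
subspaces `W a` (`a < N`), and `dim M = dim Fil N + dim V`.  Then `range (L a) = W a`,
the `W a` span `V`, and one can extract an adapted family.
-/

set_option autoImplicit false

open Module

namespace Fermat.Agent.S20.H2

section indep

variable {ι : Type*} [Fintype ι] {V : Type*} [AddCommGroup V] [Module ℂ V]
  [FiniteDimensional ℂ V]

/-- For an independent family of subspaces, the dimension of the span is the sum of the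
dimensions. -/
theorem finrank_iSup_of_iSupIndep (W : ι → Submodule ℂ V) (h : iSupIndep W) :
    finrank ℂ (↥(⨆ i, W i)) = ∑ i, finrank ℂ (W i) := by
  classical
  have hinj := h.dfinsupp_lsum_injective
  have hrange : (⨆ i, W i) = LinearMap.range (DFinsupp.lsum ℕ fun i => (W i).subtype) :=
    Submodule.iSup_eq_range_dfinsupp_lsum W
  rw [hrange, LinearMap.finrank_range_of_inj hinj]
  exact finrank_directSum ℂ (fun i => W i)

theorem sum_finrank_le_of_iSupIndep (W : ι → Submodule ℂ V) (h : iSupIndep W) :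
    ∑ i, finrank ℂ (W i) ≤ finrank ℂ V := by
  rw [← finrank_iSup_of_iSupIndep W h]
  exact Submodule.finrank_le _

end indep

section filtration

variable {M V : Type*} [AddCommGroup M] [Module ℂ M] [FiniteDimensional ℂ M]
  [AddCommGroup V] [Module ℂ V] [FiniteDimensional ℂ V]

/-- One step of the filtration: rank-nullity. -/
theorem finrank_Fil_succ (Fil : ℕ → Submodule ℂ M)
    (hanti : ∀ a, Fil (a + 1) ≤ Fil a) (L : ∀ a, Fil a →ₗ[ℂ] V)
    (hker : ∀ a (f : Fil a), L a f = 0 ↔ (f : M) ∈ Fil (a + 1)) (a : ℕ) :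
    finrank ℂ (Fil a) = finrank ℂ (Fil (a + 1)) + finrank ℂ (LinearMap.range (L a)) := by
  have h1 := LinearMap.finrank_range_add_finrank_ker (L a)
  have h2 : LinearMap.ker (L a) = Submodule.comap (Fil a).subtype (Fil (a + 1)) := by
    ext f
    rw [LinearMap.mem_ker, hker a f]
    rfl
  have h3 : finrank ℂ (LinearMap.ker (L a)) = finrank ℂ (Fil (a + 1)) := by
    rw [h2]
    exact (Submodule.comapSubtypeEquivOfLe (hanti a)).finrank_eq
  omega

/-- Telescoping. -/
theorem finrank_Fil_zero (Fil : ℕ → Submodule ℂ M)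
    (hanti : ∀ a, Fil (a + 1) ≤ Fil a) (L : ∀ a, Fil a →ₗ[ℂ] V)
    (hker : ∀ a (f : Fil a), L a f = 0 ↔ (f : M) ∈ Fil (a + 1)) (n : ℕ) :
    finrank ℂ (Fil 0) = finrank ℂ (Fil n) +
      ∑ a ∈ Finset.range n, finrank ℂ (LinearMap.range (L a)) := by
  induction n with
  | zero => simp
  | succ n ih =>
    rw [Finset.sum_range_succ, ih, finrank_Fil_succ Fil hanti L hker n]
    ring

/-- **Core of INF1/INF2**: the leading term maps are onto the `W a`, and the `W a` span `V`.
Only the inequality `dim Fil N + dim V ≤ dim M` is needed. -/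
theorem filtration_core (N : ℕ) (Fil : ℕ → Submodule ℂ M) (hFil0 : Fil 0 = ⊤)
    (hanti : ∀ a, Fil (a + 1) ≤ Fil a) (L : ∀ a, Fil a →ₗ[ℂ] V)
    (hker : ∀ a (f : Fil a), L a f = 0 ↔ (f : M) ∈ Fil (a + 1))
    (W : ℕ → Submodule ℂ V) (hW : ∀ a (f : Fil a), L a f ∈ W a)
    (hind : iSupIndep (fun a : Fin N => W a))
    (hdim : finrank ℂ (Fil N) + finrank ℂ V ≤ finrank ℂ M) :
    (∀ a < N, LinearMap.range (L a) = W a) ∧
    (⨆ a : Fin N, LinearMap.range (L (a : ℕ))) = ⊤ ∧
    (∀ a < N, finrank ℂ (Fil a) = finrank ℂ (Fil (a + 1)) + finrank ℂ (W a)) ∧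
    finrank ℂ M = finrank ℂ (Fil N) + finrank ℂ V := by
  have hle : ∀ a, LinearMap.range (L a) ≤ W a := by
    rintro a _ ⟨f, rfl⟩
    exact hW a f
  have htel := finrank_Fil_zero Fil hanti L hker N
  have h0 : finrank ℂ (Fil 0) = finrank ℂ M := by rw [hFil0]; exact finrank_top ℂ M
  have hsumW : ∑ a ∈ Finset.range N, finrank ℂ (W a) ≤ finrank ℂ V := by
    have := sum_finrank_le_of_iSupIndep (fun a : Fin N => W a) hind
    rwa [Fin.sum_univ_eq_sum_range (fun a => finrank ℂ (W a)) N] at this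
  have hterm : ∀ a ∈ Finset.range N,
      finrank ℂ (LinearMap.range (L a)) ≤ finrank ℂ (W a) :=
    fun a _ => Submodule.finrank_mono (hle a)
  have hsum_le := Finset.sum_le_sum hterm
  have hsumr : ∑ a ∈ Finset.range N, finrank ℂ (LinearMap.range (L a)) = finrank ℂ V := by
    omega
  have heq : ∀ a ∈ Finset.range N,
      finrank ℂ (LinearMap.range (L a)) = finrank ℂ (W a) := by
    have hsum_eq : ∑ a ∈ Finset.range N, finrank ℂ (LinearMap.range (L a))
        = ∑ a ∈ Finset.range N, finrank ℂ (W a) := by omega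
    exact (Finset.sum_eq_sum_iff_of_le hterm).1 hsum_eq
  have hrange : ∀ a < N, LinearMap.range (L a) = W a := fun a ha =>
    Submodule.eq_of_le_of_finrank_eq (hle a) (heq a (Finset.mem_range.2 ha))
  refine ⟨hrange, ?_, ?_, ?_⟩
  · have h1 : (⨆ a : Fin N, LinearMap.range (L (a : ℕ))) = ⨆ a : Fin N, W a := by
      congr 1
      funext a
      exact hrange a a.2
    rw [h1]
    apply Submodule.eq_top_of_finrank_eq
    rw [finrank_iSup_of_iSupIndep (fun a : Fin N => W a) hind,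
      Fin.sum_univ_eq_sum_range (fun a => finrank ℂ (W a)) N]
    omega
  · intro a ha
    rw [finrank_Fil_succ Fil hanti L hker a, heq a (Finset.mem_range.2 ha)]
  · omega

/-- Variant of `filtration_core` with `Fil N = ⊥`-free statement: the span of the `W a` is
everything (so `∑ dim W a = dim V`). -/
theorem filtration_core_iSup_W (N : ℕ) (Fil : ℕ → Submodule ℂ M) (hFil0 : Fil 0 = ⊤)
    (hanti : ∀ a, Fil (a + 1) ≤ Fil a) (L : ∀ a, Fil a →ₗ[ℂ] V)
    (hker : ∀ a (f : Fil a), L a f = 0 ↔ (f : M) ∈ Fil (a + 1))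
    (W : ℕ → Submodule ℂ V) (hW : ∀ a (f : Fil a), L a f ∈ W a)
    (hind : iSupIndep (fun a : Fin N => W a))
    (hdim : finrank ℂ (Fil N) + finrank ℂ V ≤ finrank ℂ M) :
    (⨆ a : Fin N, W a) = ⊤ := by
  obtain ⟨h1, h2, -, -⟩ := filtration_core N Fil hFil0 hanti L hker W hW hind hdim
  rw [← h2]
  congr 1
  funext a
  exact (h1 a a.2).symm

end filtration

section adapted

variable {M : Type*} [AddCommGroup M] [Module ℂ M]

/-- Extraction of an adapted family: if the ranges of the leading term maps span `C → ℂ`, we can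
choose for each `i : C` a level `a i < N` and an element `G i ∈ Fil (a i)` such that the leading
terms `L (a i) (G i)` are linearly independent (hence a basis of `C → ℂ`). -/
theorem exists_adapted_family {C : Type*} [Fintype C] (N : ℕ) (Fil : ℕ → Submodule ℂ M)
    (L : ∀ a, Fil a →ₗ[ℂ] (C → ℂ))
    (htop : (⨆ a : Fin N, LinearMap.range (L (a : ℕ))) = ⊤) :
    ∃ (a : C → ℕ) (G : ∀ i, Fil (a i)), (∀ i, a i < N) ∧
      LinearIndependent ℂ (fun i => L (a i) (G i)) := by
  classical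
  set S : Set (C → ℂ) := ⋃ a : Fin N, (LinearMap.range (L (a : ℕ)) : Set (C → ℂ)) with hS
  have hspan : Submodule.span ℂ S = ⊤ := by
    rw [hS, Submodule.span_iUnion]
    simp only [Submodule.span_eq]
    exact htop
  obtain ⟨b, hbS, hbspan, hbli⟩ := exists_linearIndependent ℂ S
  rw [hspan] at hbspan
  -- `b` is a basis of `C → ℂ`
  let B : Module.Basis b ℂ (C → ℂ) := Module.Basis.mk hbli (by
    rw [Subtype.range_coe]; exact hbspan.ge)
  haveI : Fintype b := FiniteDimensional.fintypeBasisIndex B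
  have hcard : Fintype.card b = Fintype.card C := by
    have h1 := Module.finrank_eq_card_basis B
    have h2 : finrank ℂ (C → ℂ) = Fintype.card C := Module.finrank_fintype_fun_eq_card ℂ
    omega
  let e : C ≃ b := (Fintype.equivOfCardEq hcard).symm
  have hmem : ∀ i : C, ∃ a : Fin N, ∃ f : Fil (a : ℕ), L (a : ℕ) f = (e i : C → ℂ) := by
    intro i
    have h := hbS (e i).2
    rw [hS, Set.mem_iUnion] at h
    obtain ⟨a, f, hf⟩ := h
    exact ⟨a, f, hf⟩
  choose a G hG using hmem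
  refine ⟨fun i => (a i : ℕ), G, fun i => (a i).2, ?_⟩
  have : (fun i => L (a i : ℕ) (G i)) = (fun x : b => (x : C → ℂ)) ∘ e := by
    funext i
    exact hG i
  rw [this]
  exact hbli.comp e e.injective

/-- Same, with the elements of the adapted family given as elements of `M` with membership
proofs. -/
theorem exists_adapted_family' {C : Type*} [Fintype C] (N : ℕ) (Fil : ℕ → Submodule ℂ M)
    (L : ∀ a, Fil a →ₗ[ℂ] (C → ℂ))
    (htop : (⨆ a : Fin N, LinearMap.range (L (a : ℕ))) = ⊤) :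
    ∃ (a : C → ℕ) (G : C → M) (hG : ∀ i, G i ∈ Fil (a i)), (∀ i, a i < N) ∧
      LinearIndependent ℂ (fun i => L (a i) ⟨G i, hG i⟩) := by
  obtain ⟨a, G, ha, hli⟩ := exists_adapted_family N Fil L htop
  exact ⟨a, fun i => (G i : M), fun i => (G i).2, ha, hli⟩

end adapted



end Fermat.Agent.S20.H2

end
-- ==== END Fermat.Agent.S20.H2_FilCore

-- ==== BEGIN Fermat.Agent.S20.H2_INF3
section

/-!
# S20 package INF3 (helper2): growth of the dual family at `i∞`

`INF3_dual_zero` is proved from the conclusion of INF2 (an adapted family), taken as a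
hypothesis `hadapt` (verbatim the conclusion of `INF2_adapted`, for some weight `K`).
-/

set_option autoImplicit false

namespace Fermat.Agent.S20.H2

open UpperHalfPlane ModularForm MatrixGroups Filter EisensteinSeries Fermat.Agent.S20.H74
open scoped Manifold Topology

/-- Cramer + continuity: if `A z → A₀` with `det A₀ ≠ 0` and `A z • x z → 0` then `x z → 0`. -/
theorem tendsto_zero_of_matrix {ι : Type*} [Fintype ι] [DecidableEq ι] {α : Type*}
    {l : Filter α} (A : α → Matrix ι ι ℂ) (A₀ : Matrix ι ι ℂ)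
    (hA : ∀ i q, Tendsto (fun z => A z i q) l (𝓝 (A₀ i q)))
    (hdet : A₀.det ≠ 0) (x : α → ι → ℂ)
    (hy : ∀ i, Tendsto (fun z => ∑ q, A z i q * x z q) l (𝓝 0)) (q : ι) :
    Tendsto (fun z => x z q) l (𝓝 0) := by
  have hA' : Tendsto A l (𝓝 A₀) :=
    tendsto_pi_nhds.2 (fun i => tendsto_pi_nhds.2 (fun q => hA i q))
  have hdetT : Tendsto (fun z => (A z).det) l (𝓝 A₀.det) :=
    ((continuous_id.matrix_det).tendsto A₀).comp hA'
  have hadj : Tendsto (fun z => (A z).adjugate) l (𝓝 A₀.adjugate) :=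
    ((continuous_id.matrix_adjugate).tendsto A₀).comp hA'
  have hadj' : ∀ i, Tendsto (fun z => (A z).adjugate q i) l (𝓝 (A₀.adjugate q i)) := by
    intro i
    have h1 := (tendsto_pi_nhds.1 hadj) q
    exact (tendsto_pi_nhds.1 h1) i
  have hkey : ∀ z, (A z).det * x z q = ∑ i, (A z).adjugate q i * ∑ q', A z i q' * x z q' := by
    intro z
    have h1 : ((A z).adjugate * A z).mulVec (x z) = ((A z).det • (1 : Matrix ι ι ℂ)).mulVec (x z) := by
      rw [Matrix.adjugate_mul]
    rw [← Matrix.mulVec_mulVec, Matrix.smul_mulVec, Matrix.one_mulVec] at h1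
    have h2 := congrFun h1 q
    simp only [Matrix.mulVec, dotProduct, Pi.smul_apply, smul_eq_mul] at h2
    exact h2.symm
  have hprod : Tendsto (fun z => (A z).det * x z q) l (𝓝 0) := by
    have h0 : Tendsto (fun z => ∑ i, (A z).adjugate q i * ∑ q', A z i q' * x z q') l
        (𝓝 (∑ i, A₀.adjugate q i * 0)) :=
      tendsto_finsetSum _ (fun i _ => (hadj' i).mul (hy i))
    simp only [mul_zero, Finset.sum_const_zero] at h0
    exact h0.congr (fun z => (hkey z).symm)
  have hdiv : Tendsto (fun z => (A z).det * x z q / (A z).det) l (𝓝 (0 / A₀.det)) :=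
    hprod.div hdetT hdet
  rw [zero_div] at hdiv
  have hev : ∀ᶠ z in l, (A z).det ≠ 0 := hdetT.eventually_ne hdet
  refine hdiv.congr' ?_
  filter_upwards [hev] with z hz
  rw [mul_div_assoc, mul_comm, div_mul_cancel₀ _ hz]


/-- The twisted discriminant times a bounded function tends to `0` at `i∞`. -/
theorem tendsto_twist_discriminant_mul {N a : ℕ} (hN : 0 < N) (ha : a < N) {c : ℍ → ℂ}
    (hc : IsBoundedAtImInfty c) :
    Tendsto (fun z : ℍ =>
      Complex.exp (-2 * Real.pi * Complex.I * (a : ℂ) * z / N) * (discriminant z * c z))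
      atImInfty (𝓝 0) := by
  have hN' : (0 : ℝ) < N := by exact_mod_cast hN
  have h1 : (fun z : ℍ => Complex.exp (-2 * Real.pi * Complex.I * (a : ℂ) * z / N))
      =O[atImInfty] (fun z : ℍ => Real.exp (2 * Real.pi * a / N * z.im)) := by
    apply Asymptotics.isBigO_of_le
    intro z
    rw [Complex.norm_exp, Real.norm_of_nonneg (Real.exp_pos _).le]
    apply le_of_eq
    congr 1
    have : (-2 * (Real.pi : ℂ) * Complex.I * (a : ℂ) * (z : ℂ) / (N : ℂ))
        = ((2 * Real.pi * a / N : ℝ) : ℂ) * (-Complex.I * (z : ℂ)) := by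
      push_cast
      ring
    rw [this, Complex.re_ofReal_mul]
    congr 1
    simp
  have h2 : (discriminant : ℍ → ℂ) =O[atImInfty] (fun z : ℍ => Real.exp (-2 * Real.pi * z.im)) := by
    have := CuspFormClass.exp_decay_atImInfty (h := 1) CuspForm.discriminant one_pos
      one_mem_strictPeriods_SL
    simpa using this
  have h3 : c =O[atImInfty] (1 : ℍ → ℝ) := hc
  have h4 := h1.mul (h2.mul h3)
  refine h4.trans_tendsto ?_
  have hκ : 0 < 2 * Real.pi * (1 - a / N) := by
    have h5 : (a : ℝ) / N < 1 := by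
      rw [div_lt_one hN']
      exact_mod_cast ha
    have := Real.pi_pos
    nlinarith
  have heq : (fun z : ℍ => Real.exp (2 * Real.pi * a / N * z.im) *
      (Real.exp (-2 * Real.pi * z.im) * (1 : ℍ → ℝ) z))
      = fun z : ℍ => Real.exp (-(2 * Real.pi * (1 - a / N)) * z.im) := by
    funext z
    rw [Pi.one_apply, mul_one, ← Real.exp_add]
    congr 1
    ring
  rw [heq]
  apply Real.tendsto_exp_atBot.comp
  have him : Tendsto (fun z : ℍ => z.im) atImInfty atTop := tendsto_comap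
  have := him.const_mul_atTop hκ
  have h6 := tendsto_neg_atTop_atBot.comp this
  refine h6.congr ?_
  intro z
  simp only [Function.comp_apply]
  ring


variable {Γ : Subgroup SL(2, ℤ)}

/-- **INF3**: growth of the dual family at `i∞`, from an adapted family (the conclusion of INF2,
for some weight `K`). -/
theorem INF3_dual_zero [Γ.FiniteIndex] (b : RBasis Γ) [Finite b.J] (d : b.Dual)
    (hadapt : ∃ K : ℤ, ∃ (N : ℕ) (_ : 0 < N) (G : (SL(2, ℤ) ⧸ Γ) → ℍ → ℂ)
      (a : (SL(2, ℤ) ⧸ Γ) → ℕ) (E₀ : (SL(2, ℤ) ⧸ Γ) → (SL(2, ℤ) ⧸ Γ) → ℂ),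
      (∀ i, G i ∈ MF Γ K) ∧ (∀ i, a i < N) ∧
      LinearIndependent ℂ (fun i => fun q => E₀ q i) ∧
      ∀ q i, Tendsto (fun z : ℍ =>
        Complex.exp (-2 * Real.pi * Complex.I * (a i) * z / N) * cf Γ K (G i) q z)
        atImInfty (𝓝 (E₀ q i)))
    (j : b.J) (q : SL(2, ℤ) ⧸ Γ) :
    IsZeroAtImInfty (discriminant * d.H j q) := by
  classical
  obtain ⟨K, N, hN, G, a, E₀, hG, ha, hE₀, hT⟩ := hadapt
  have : Finite (SL(2, ℤ) ⧸ Γ) := Subgroup.finite_quotient_of_finiteIndex
  let _ : Fintype (SL(2, ℤ) ⧸ Γ) := Fintype.ofFinite _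
  let _ : Fintype b.J := Fintype.ofFinite _
  -- expansion of the adapted family in the basis
  have hexp : ∀ i, ∃ c : b.J → ℍ → ℂ, (∀ j, c j ∈ MF ⊤ (K - b.wt j)) ∧
      G i = ∑ j, c j * b.F j := by
    intro i
    obtain ⟨s, c, hc, hGi⟩ := b.gen K (G i) (hG i)
    refine ⟨fun j => if j ∈ s then c j else 0, ?_, ?_⟩
    · intro j
      beta_reduce
      by_cases hj : j ∈ s
      · rw [if_pos hj]; exact hc j hj
      · rw [if_neg hj]; exact Submodule.zero_mem _
    · rw [hGi, ← Finset.sum_subset (Finset.subset_univ s)]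
      · apply Finset.sum_congr rfl
        intro j hj
        beta_reduce
        rw [if_pos hj]
      · intro j _ hj
        beta_reduce
        rw [if_neg hj, zero_mul]
  choose c hc hGc using hexp
  have hcf : ∀ i q' z, cf Γ K (G i) q' z = ∑ j, c i j z * b.ev z j q' := by
    intro i q' z
    conv_lhs => rw [hGc i]
    rw [cf_sum, Finset.sum_apply]
    apply Finset.sum_congr rfl
    intro j _
    rw [cf_mul' (hc i j) (by ring : K = (K - b.wt j) + b.wt j)]
    rfl
  have hsum : ∀ i z, ∑ q', cf Γ K (G i) q' z * d.H j q' z = c i j z := by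
    intro i z
    have h1 : ∀ q', cf Γ K (G i) q' z * d.H j q' z
        = ∑ j', c i j' z * (b.ev z j' q' * d.H j q' z) := by
      intro q'
      rw [hcf, Finset.sum_mul]
      apply Finset.sum_congr rfl
      intro j' _
      ring
    rw [Finset.sum_congr rfl (fun q' _ => h1 q'), Finset.sum_comm]
    have h2 : ∀ j', ∑ q', c i j' z * (b.ev z j' q' * d.H j q' z)
        = c i j' z * (if j' = j then 1 else 0) := by
      intro j'
      rw [← d.left z j' j, Finset.mul_sum]
    rw [Finset.sum_congr rfl (fun j' _ => h2 j')]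
    simp
  -- the matrices
  let A : ℍ → Matrix (SL(2, ℤ) ⧸ Γ) (SL(2, ℤ) ⧸ Γ) ℂ := fun z i q' =>
    Complex.exp (-2 * Real.pi * Complex.I * (a i) * z / N) * cf Γ K (G i) q' z
  let A₀ : Matrix (SL(2, ℤ) ⧸ Γ) (SL(2, ℤ) ⧸ Γ) ℂ := fun i q' => E₀ q' i
  have hdet : A₀.det ≠ 0 := by
    have h1 : LinearIndependent ℂ A₀.row := hE₀
    have h2 : IsUnit A₀ := Matrix.linearIndependent_rows_iff_isUnit.1 h1
    exact ((Matrix.isUnit_iff_isUnit_det A₀).1 h2).ne_zero
  have hmain := tendsto_zero_of_matrix (l := atImInfty) A A₀ (fun i q' => hT q' i) hdet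
    (fun z q' => discriminant z * d.H j q' z) ?_ q
  · exact hmain
  · intro i
    have h := tendsto_twist_discriminant_mul hN (ha i) (MF.bdd (hc i j))
    refine h.congr ?_
    intro z
    rw [← hsum i z, Finset.mul_sum, Finset.mul_sum]
    apply Finset.sum_congr rfl
    intro q' _
    simp only [A]
    ring


/-- `INF3_dual_zero` with the signature of the skeleton (`hcard` is not needed). -/
theorem INF3_dual_zero' [Γ.FiniteIndex] (b : RBasis Γ) [Finite b.J] (d : b.Dual)
    (_hcard : Nat.card b.J = Γ.index)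
    (hadapt : ∃ K : ℤ, ∃ (N : ℕ) (_ : 0 < N) (G : (SL(2, ℤ) ⧸ Γ) → ℍ → ℂ)
      (a : (SL(2, ℤ) ⧸ Γ) → ℕ) (E₀ : (SL(2, ℤ) ⧸ Γ) → (SL(2, ℤ) ⧸ Γ) → ℂ),
      (∀ i, G i ∈ MF Γ K) ∧ (∀ i, a i < N) ∧
      LinearIndependent ℂ (fun i => fun q => E₀ q i) ∧
      ∀ q i, Tendsto (fun z : ℍ =>
        Complex.exp (-2 * Real.pi * Complex.I * (a i) * z / N) * cf Γ K (G i) q z)
        atImInfty (𝓝 (E₀ q i)))
    (j : b.J) (q : SL(2, ℤ) ⧸ Γ) :
    IsZeroAtImInfty (discriminant * d.H j q) :=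
  INF3_dual_zero b d hadapt j q

end Fermat.Agent.S20.H2

end
-- ==== END Fermat.Agent.S20.H2_INF3

-- ==== BEGIN Fermat.Agent.S20.H54_FixedCosets
section

/-!
# S20 / S21 / S24, part G2 + G3 (helper54)

Counting the cosets of `Gamma0 N` in `SL(2, ℤ)` fixed by `S` resp. `S * T`:
* `G2 : Nat.card {q : SL(2, ℤ) ⧸ Gamma0 N // S • q = q} = nuTwo N`
* `G3 : Nat.card {q : SL(2, ℤ) ⧸ Gamma0 N // (S * T) • q = q} = nuThree N`
and the `MulAction.fixedBy` forms `wp_card_fixedBy_S`, `wp_card_fixedBy_ST`.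

Method: explicit representatives `rep x = [[x, -1], [1, 0]]`; a coset `g Γ0(N)` with first column
`(a, c)` is fixed by `S` iff `a^2 + c^2 = 0 mod N`, by `S * T` iff `a^2 + a c + c^2 = 0 mod N`; then
`c` is a unit mod `N` and the coset is that of `rep (a / c)`.
-/

set_option autoImplicit false

open scoped MatrixGroups
open CongruenceSubgroup ModularGroup Matrix

namespace Fermat.Agent.S20.H54

/-- the matrix `[[x, -1], [1, 0]]` of `SL(2, ℤ)`. -/
def rep (x : ℤ) : SL(2, ℤ) := ⟨!![x, -1; 1, 0], by simp [Matrix.det_fin_two]⟩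

lemma inv_mul_apply_one_zero (h g : SL(2, ℤ)) :
    (h⁻¹ * g) 1 0 = h 0 0 * g 1 0 - h 1 0 * g 0 0 := by
  rw [Matrix.SpecialLinearGroup.coe_mul, Matrix.SpecialLinearGroup.coe_inv,
    Matrix.adjugate_fin_two, Matrix.mul_apply, Fin.sum_univ_two]
  simp
  ring

lemma rep_apply_zero_zero (x : ℤ) : (rep x) 0 0 = x := rfl
lemma rep_apply_one_zero (x : ℤ) : (rep x) 1 0 = 1 := rfl

lemma S_mul_apply_zero_zero (g : SL(2, ℤ)) : (S * g) 0 0 = - g 1 0 := by
  rw [Matrix.SpecialLinearGroup.coe_mul, ModularGroup.coe_S, Matrix.mul_apply, Fin.sum_univ_two]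
  simp

lemma S_mul_apply_one_zero (g : SL(2, ℤ)) : (S * g) 1 0 = g 0 0 := by
  rw [Matrix.SpecialLinearGroup.coe_mul, ModularGroup.coe_S, Matrix.mul_apply, Fin.sum_univ_two]
  simp

lemma T_mul_apply_zero_zero (g : SL(2, ℤ)) : (T * g) 0 0 = g 0 0 + g 1 0 := by
  rw [Matrix.SpecialLinearGroup.coe_mul, ModularGroup.coe_T, Matrix.mul_apply, Fin.sum_univ_two]
  simp

lemma T_mul_apply_one_zero (g : SL(2, ℤ)) : (T * g) 1 0 = g 1 0 := by
  rw [Matrix.SpecialLinearGroup.coe_mul, ModularGroup.coe_T, Matrix.mul_apply, Fin.sum_univ_two]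
  simp

/-- lower-left entry of `(rep x)⁻¹ * g`. -/
lemma rep_inv_mul_apply (x : ℤ) (g : SL(2, ℤ)) :
    ((rep x)⁻¹ * g) 1 0 = x * g 1 0 - g 0 0 := by
  rw [inv_mul_apply_one_zero, rep_apply_zero_zero, rep_apply_one_zero, one_mul]

/-- lower-left entry of `g⁻¹ * (S * g)`. -/
lemma inv_mul_S_mul_apply (g : SL(2, ℤ)) :
    (g⁻¹ * (S * g)) 1 0 = g 0 0 ^ 2 + g 1 0 ^ 2 := by
  rw [inv_mul_apply_one_zero, S_mul_apply_zero_zero, S_mul_apply_one_zero]
  ring

/-- lower-left entry of `g⁻¹ * (S * T * g)`. -/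
lemma inv_mul_ST_mul_apply (g : SL(2, ℤ)) :
    (g⁻¹ * (S * T * g)) 1 0 = g 0 0 ^ 2 + g 0 0 * g 1 0 + g 1 0 ^ 2 := by
  rw [inv_mul_apply_one_zero, mul_assoc, S_mul_apply_zero_zero, S_mul_apply_one_zero,
    T_mul_apply_zero_zero, T_mul_apply_one_zero]
  ring

lemma det_eq (g : SL(2, ℤ)) : g 0 0 * g 1 1 - g 0 1 * g 1 0 = 1 := by
  have := g.2
  rw [Matrix.det_fin_two] at this
  exact this

variable (N : ℕ)

/-- a coset is fixed by `γ` iff the lower-left entry of `g⁻¹ γ g` vanishes mod `N`. -/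
lemma smul_mk_eq_iff (γ g : SL(2, ℤ)) :
    γ • (g : SL(2, ℤ) ⧸ Gamma0 N) = (g : SL(2, ℤ) ⧸ Gamma0 N) ↔
      (((g⁻¹ * (γ * g)) 1 0 : ℤ) : ZMod N) = 0 := by
  rw [← Gamma0_mem]
  have h1 : γ • (g : SL(2, ℤ) ⧸ Gamma0 N) = ((γ * g : SL(2, ℤ)) : SL(2, ℤ) ⧸ Gamma0 N) := rfl
  rw [h1, eq_comm, QuotientGroup.eq]

/-- the coset of `rep x` equals that of `g` iff `x * c = a` mod `N`, `(a, c)` first column of `g`. -/
lemma mk_rep_eq_iff (x : ℤ) (g : SL(2, ℤ)) :
    ((rep x : SL(2, ℤ)) : SL(2, ℤ) ⧸ Gamma0 N) = (g : SL(2, ℤ) ⧸ Gamma0 N) ↔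
      (x : ZMod N) * ((g 1 0 : ℤ) : ZMod N) = ((g 0 0 : ℤ) : ZMod N) := by
  rw [QuotientGroup.eq, Gamma0_mem, rep_inv_mul_apply]
  push_cast
  rw [sub_eq_zero]

/-- in a commutative ring: `ad - bc = 1` and `a^2 + c^2 = 0` make `c` invertible. -/
lemma unit_of_sq_add_sq {R : Type*} [CommRing R] {a b c d : R} (hdet : a * d - b * c = 1)
    (h : a ^ 2 + c ^ 2 = 0) : c * (-(c * d + a * b) * d - b) = 1 := by
  have ha : a = c * (-(c * d + a * b)) := by
    linear_combination (-a) * hdet + d * h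
  calc c * (-(c * d + a * b) * d - b) = (c * (-(c * d + a * b))) * d - b * c := by ring
    _ = a * d - b * c := by rw [← ha]
    _ = 1 := hdet

/-- in a commutative ring: `ad - bc = 1` and `a^2 + ac + c^2 = 0` make `c` invertible. -/
lemma unit_of_sq_add_mul_add_sq {R : Type*} [CommRing R] {a b c d : R} (hdet : a * d - b * c = 1)
    (h : a ^ 2 + a * c + c ^ 2 = 0) : c * (-((a + c) * d + a * b) * d - b) = 1 := by
  have ha : a = c * (-((a + c) * d + a * b)) := by
    linear_combination (-a) * hdet + d * h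
  calc c * (-((a + c) * d + a * b) * d - b)
      = (c * (-((a + c) * d + a * b))) * d - b * c := by ring
    _ = a * d - b * c := by rw [← ha]
    _ = 1 := hdet

lemma det_eq_cast (g : SL(2, ℤ)) :
    ((g 0 0 : ℤ) : ZMod N) * ((g 1 1 : ℤ) : ZMod N) -
      ((g 0 1 : ℤ) : ZMod N) * ((g 1 0 : ℤ) : ZMod N) = 1 := by
  have := congrArg (Int.cast : ℤ → ZMod N) (det_eq g)
  push_cast at this
  exact this

variable [NeZero N]

/-- the map `x ↦ rep x Γ0(N)` from roots of `x^2+1` to `S`-fixed cosets. -/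
noncomputable def toFixedS (x : {x : ZMod N // x ^ 2 + 1 = 0}) :
    {q : SL(2, ℤ) ⧸ Gamma0 N // S • q = q} :=
  ⟨((rep (x.1.val : ℤ) : SL(2, ℤ)) : SL(2, ℤ) ⧸ Gamma0 N), by
    rw [smul_mk_eq_iff, inv_mul_S_mul_apply, rep_apply_zero_zero, rep_apply_one_zero]
    push_cast
    rw [ZMod.natCast_zmod_val]
    exact x.2⟩

lemma toFixedS_bijective : Function.Bijective (toFixedS N) := by
  constructor
  · intro x y hxy
    have h := congrArg Subtype.val hxy
    simp only [toFixedS] at h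
    rw [mk_rep_eq_iff, rep_apply_zero_zero, rep_apply_one_zero] at h
    push_cast at h
    rw [ZMod.natCast_zmod_val, ZMod.natCast_zmod_val, mul_one] at h
    exact Subtype.ext h
  · rintro ⟨q, hq⟩
    obtain ⟨g, rfl⟩ := QuotientGroup.mk_surjective q
    rw [smul_mk_eq_iff, inv_mul_S_mul_apply] at hq
    push_cast at hq
    have hdet := det_eq_cast N g
    set a : ZMod N := ((g 0 0 : ℤ) : ZMod N) with ha
    set b : ZMod N := ((g 0 1 : ℤ) : ZMod N) with hb
    set c : ZMod N := ((g 1 0 : ℤ) : ZMod N) with hc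
    set d : ZMod N := ((g 1 1 : ℤ) : ZMod N) with hd
    have hu := unit_of_sq_add_sq hdet hq
    set ci : ZMod N := -(c * d + a * b) * d - b with hci
    have hx : (a * ci) ^ 2 + 1 = 0 := by
      have : (a * ci) ^ 2 + 1 = (a ^ 2 + c ^ 2) * ci ^ 2 + (1 - (c * ci) ^ 2) := by ring
      rw [this, hq, hu]; ring
    refine ⟨⟨a * ci, hx⟩, ?_⟩
    apply Subtype.ext
    simp only [toFixedS]
    rw [mk_rep_eq_iff]
    push_cast
    rw [ZMod.natCast_zmod_val, ← hc, ← ha]
    calc a * ci * c = a * (c * ci) := by ring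
      _ = a := by rw [hu, mul_one]

/-- **G2**: the number of `S`-fixed cosets of `Gamma0 N` is `nuTwo N`. -/
theorem G2 : Nat.card {q : SL(2, ℤ) ⧸ Gamma0 N // S • q = q} = ModularCurve.nuTwo N := by
  rw [ModularCurve.nuTwo]
  exact (Nat.card_eq_of_bijective _ (toFixedS_bijective N)).symm

/-- the map `x ↦ rep x Γ0(N)` from roots of `x^2+x+1` to `S * T`-fixed cosets. -/
noncomputable def toFixedST (x : {x : ZMod N // x ^ 2 + x + 1 = 0}) :
    {q : SL(2, ℤ) ⧸ Gamma0 N // (S * T) • q = q} :=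
  ⟨((rep (x.1.val : ℤ) : SL(2, ℤ)) : SL(2, ℤ) ⧸ Gamma0 N), by
    rw [smul_mk_eq_iff, inv_mul_ST_mul_apply, rep_apply_zero_zero, rep_apply_one_zero]
    push_cast
    rw [ZMod.natCast_zmod_val, mul_one]
    exact x.2⟩

lemma toFixedST_bijective : Function.Bijective (toFixedST N) := by
  constructor
  · intro x y hxy
    have h := congrArg Subtype.val hxy
    simp only [toFixedST] at h
    rw [mk_rep_eq_iff, rep_apply_zero_zero, rep_apply_one_zero] at h
    push_cast at h
    rw [ZMod.natCast_zmod_val, ZMod.natCast_zmod_val, mul_one] at h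
    exact Subtype.ext h
  · rintro ⟨q, hq⟩
    obtain ⟨g, rfl⟩ := QuotientGroup.mk_surjective q
    rw [smul_mk_eq_iff, inv_mul_ST_mul_apply] at hq
    push_cast at hq
    have hdet := det_eq_cast N g
    set a : ZMod N := ((g 0 0 : ℤ) : ZMod N) with ha
    set b : ZMod N := ((g 0 1 : ℤ) : ZMod N) with hb
    set c : ZMod N := ((g 1 0 : ℤ) : ZMod N) with hc
    set d : ZMod N := ((g 1 1 : ℤ) : ZMod N) with hd
    have hu := unit_of_sq_add_mul_add_sq hdet hq
    set ci : ZMod N := -((a + c) * d + a * b) * d - b with hci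
    have hx : (a * ci) ^ 2 + a * ci + 1 = 0 := by
      have : (a * ci) ^ 2 + a * ci + 1
          = (a ^ 2 + a * c + c ^ 2) * ci ^ 2 + (1 - c * ci) * (a * ci + 1 + c * ci) := by ring
      rw [this, hq, hu]; ring
    refine ⟨⟨a * ci, hx⟩, ?_⟩
    apply Subtype.ext
    simp only [toFixedST]
    rw [mk_rep_eq_iff]
    push_cast
    rw [ZMod.natCast_zmod_val, ← hc, ← ha]
    calc a * ci * c = a * (c * ci) := by ring
      _ = a := by rw [hu, mul_one]

/-- **G3**: the number of `S * T`-fixed cosets of `Gamma0 N` is `nuThree N`. -/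
theorem G3 :
    Nat.card {q : SL(2, ℤ) ⧸ Gamma0 N // (S * T) • q = q} = ModularCurve.nuThree N := by
  rw [ModularCurve.nuThree]
  exact (Nat.card_eq_of_bijective _ (toFixedST_bijective N)).symm

/-- `MulAction.fixedBy` form of G2 (S24 work package C3). -/
theorem wp_card_fixedBy_S :
    Nat.card (MulAction.fixedBy (SL(2, ℤ) ⧸ Gamma0 N) S) = ModularCurve.nuTwo N :=
  G2 N

/-- `MulAction.fixedBy` form of G3 (S24 work package C4). -/
theorem wp_card_fixedBy_ST :
    Nat.card (MulAction.fixedBy (SL(2, ℤ) ⧸ Gamma0 N) (S * T)) = ModularCurve.nuThree N :=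
  G3 N

end Fermat.Agent.S20.H54

end
-- ==== END Fermat.Agent.S20.H54_FixedCosets

-- ==== BEGIN Fermat.Agent.S21.Assembly
section

/-!
# S21 (Eichler–Shimura period map): assembly from the parts

`Fermat.Agent.S21.result_of_parts` derives the frozen statement from five interface hypotheses
(parts A, C, D, E1 of the plan in `NOTES/plan/S21.md`, and the dimension formula S20).
Part B (linearity of the period map) is proved here from part A.
-/

set_option autoImplicit false

open ModularCurve ModularCurve.Period UpperHalfPlane CongruenceSubgroup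
open scoped MatrixGroups

namespace Fermat.Agent.S21

/-- Two primitives on the upper half-plane of the same function differ by a constant. -/
theorem primitive_sub_const {F G : ℍ → ℂ} {f : ℍ → ℂ}
    (hF : ∀ τ : ℍ, HasDerivAt (F ∘ ofComplex) (f τ) ↑τ)
    (hG : ∀ τ : ℍ, HasDerivAt (G ∘ ofComplex) (f τ) ↑τ) :
    ∃ c : ℂ, ∀ τ : ℍ, F τ - G τ = c := by
  have hopen : IsOpen {z : ℂ | 0 < z.im} := isOpen_lt continuous_const Complex.continuous_im
  have hconv : Convex ℝ {z : ℂ | 0 < z.im} := by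
    simpa using (convex_halfSpace_im_gt 0)
  have hd : ∀ z ∈ {z : ℂ | 0 < z.im},
      HasDerivAt (fun w => (F ∘ ofComplex) w - (G ∘ ofComplex) w) 0 z := by
    intro z hz
    have h1 := hF ⟨z, hz⟩
    have h2 := hG ⟨z, hz⟩
    have h3 := h1.sub h2
    rw [sub_self] at h3
    exact h3
  have hdiff : DifferentiableOn ℂ (fun w => (F ∘ ofComplex) w - (G ∘ ofComplex) w)
      {z : ℂ | 0 < z.im} := fun z hz => (hd z hz).differentiableAt.differentiableWithinAt
  have hderiv : ∀ z ∈ {z : ℂ | 0 < z.im},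
      fderivWithin ℂ (fun w => (F ∘ ofComplex) w - (G ∘ ofComplex) w) {z : ℂ | 0 < z.im} z = 0 := by
    intro z hz
    rw [fderivWithin_eq_fderiv (hopen.uniqueDiffWithinAt hz) (hd z hz).differentiableAt]
    have := (hd z hz).hasFDerivAt.fderiv
    rw [this]
    ext
    simp
  refine ⟨F UpperHalfPlane.I - G UpperHalfPlane.I, fun τ => ?_⟩
  have := hconv.is_const_of_fderivWithin_eq_zero (𝕜 := ℂ) hdiff hderiv τ.2 UpperHalfPlane.I.2
  simpa only [Function.comp_apply, ofComplex_apply] using this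

end Fermat.Agent.S21

namespace Fermat.Agent.S21

variable {N : ℕ}

/-- The period map evaluated through *any* equivariant primitive. -/
theorem periodMap_apply_of_hasEquivariantPrimitive {f : CuspForm (Gamma0 N) 2} {F : ℍ → ℂ}
    (hF : HasEquivariantPrimitive N f F) (γ : Gamma0 N) (z : ℍ) :
    periodMap N f (Additive.ofMul γ) = F ((γ : SL(2, ℤ)) • z) - F z := by
  obtain ⟨F₀, h₀, hP⟩ := periodMap_def N f hF
  obtain ⟨c, hc⟩ := primitive_sub_const (f := f) h₀.1 hF.1
  rw [hP, IsEquivariantPrimitive.periodHom_apply, ← h₀.2.2.1.sub_eq_period γ z]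
  have h1 := hc ((γ : SL(2, ℤ)) • z)
  have h2 := hc z
  linear_combination h1 - h2

theorem hasEquivariantPrimitive_add {f g : CuspForm (Gamma0 N) 2} {F G : ℍ → ℂ}
    (hF : HasEquivariantPrimitive N f F) (hG : HasEquivariantPrimitive N g G) :
    HasEquivariantPrimitive N (f + g) (fun z => F z + G z) := by
  refine ⟨fun τ => ?_, ?_, fun γ => ?_, fun δ => ?_⟩
  · have := (hF.1 τ).add (hG.1 τ)
    exact this
  · simpa using hF.2.1.add hG.2.1
  · obtain ⟨c, hc⟩ := hF.2.2.1 γ
    obtain ⟨d, hd⟩ := hG.2.2.1 γ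
    refine ⟨c + d, fun z => ?_⟩
    have h1 := hc z
    have h2 := hd z
    linear_combination h1 + h2
  · obtain ⟨L, hL⟩ := hF.2.2.2 δ
    obtain ⟨M, hM⟩ := hG.2.2.2 δ
    exact ⟨L + M, hL.add hM⟩

theorem hasEquivariantPrimitive_smul {f : CuspForm (Gamma0 N) 2} {F : ℍ → ℂ}
    (hF : HasEquivariantPrimitive N f F) (a : ℂ) :
    HasEquivariantPrimitive N (a • f) (fun z => a * F z) := by
  refine ⟨fun τ => ?_, ?_, fun γ => ?_, fun δ => ?_⟩
  · have := (hF.1 τ).const_mul a
    exact this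
  · simpa using hF.2.1.const_mul a
  · obtain ⟨c, hc⟩ := hF.2.2.1 γ
    refine ⟨a * c, fun z => ?_⟩
    have h1 := hc z
    linear_combination a * h1
  · obtain ⟨L, hL⟩ := hF.2.2.2 δ
    exact ⟨a * L, hL.const_mul a⟩

/-- Part B: the period map is linear as soon as every cusp form has an equivariant primitive. -/
theorem existsPeriodMapLinear_of_partA
    (hA : ∀ f : CuspForm (Gamma0 N) 2, ∃ F : ℍ → ℂ, HasEquivariantPrimitive N f F) :
    ExistsPeriodMapLinear N := by
  refine ⟨{ toFun := periodMap N, map_add' := fun f g => ?_, map_smul' := fun a f => ?_ },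
    fun f => rfl⟩
  · obtain ⟨F, hF⟩ := hA f
    obtain ⟨G, hG⟩ := hA g
    refine AddMonoidHom.ext fun γ => ?_
    have h1 := periodMap_apply_of_hasEquivariantPrimitive (hasEquivariantPrimitive_add hF hG)
      (Additive.toMul γ) UpperHalfPlane.I
    have h2 := periodMap_apply_of_hasEquivariantPrimitive hF (Additive.toMul γ) UpperHalfPlane.I
    have h3 := periodMap_apply_of_hasEquivariantPrimitive hG (Additive.toMul γ) UpperHalfPlane.I
    simp only [ofMul_toMul] at h1 h2 h3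
    rw [AddMonoidHom.add_apply, h1, h2, h3]
    ring
  · obtain ⟨F, hF⟩ := hA f
    refine AddMonoidHom.ext fun γ => ?_
    have h1 := periodMap_apply_of_hasEquivariantPrimitive (hasEquivariantPrimitive_smul hF a)
      (Additive.toMul γ) UpperHalfPlane.I
    have h2 := periodMap_apply_of_hasEquivariantPrimitive hF (Additive.toMul γ) UpperHalfPlane.I
    simp only [ofMul_toMul] at h1 h2
    rw [RingHom.id_apply, AddMonoidHom.smul_apply, h1, h2, smul_eq_mul]
    ring

/-- Assembly of the Eichler–Shimura statement from the parts. -/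
theorem result_of_parts
    (hA : ∀ f : CuspForm (Gamma0 N) 2, ∃ F : ℍ → ℂ, HasEquivariantPrimitive N f F)
    (hC : ∀ f : CuspForm (Gamma0 N) 2, periodMap N f ∈ parabolicHoms ℂ (Gamma0 N) ℂ)
    (hD : ∀ a b : CuspForm (Gamma0 N) 2,
      periodMap N a + charInvolution N ℂ ℂ (periodMap N b) = 0 → a = 0 ∧ b = 0)
    (hE : Module.Finite ℂ (parabolicHoms ℂ (Gamma0 N) ℂ) ∧
      (Module.finrank ℂ (parabolicHoms ℂ (Gamma0 N) ℂ) : ℚ) ≤ 2 * genusFormula N)
    (hS20 : (Module.finrank ℂ (CuspForm (Gamma0 N) 2) : ℚ) = genusFormula N) :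
    Function.Injective (ModularCurve.periodHomPair N)
      ∧ LinearMap.range (ModularCurve.periodHomPair N)
          = ModularCurve.Period.parabolicHoms ℂ (CongruenceSubgroup.Gamma0 N) ℂ := by
  obtain ⟨pml, hpml, hdef⟩ := periodHomPair_def N (existsPeriodMapLinear_of_partA hA)
  have hform : ∀ f g : CuspForm (Gamma0 N) 2, periodHomPair N (f, g)
      = periodMap N (f + g) + charInvolution N ℂ ℂ (periodMap N (f - g)) := by
    intro f g
    rw [hdef, ← hpml, ← hpml]
    simp only [LinearMap.coprod_apply, LinearMap.comp_apply, LinearMap.add_apply,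
      LinearMap.sub_apply, LinearMap.id_apply, map_add, map_sub]
    abel
  have hinj : Function.Injective (periodHomPair N) := by
    rw [injective_iff_map_eq_zero]
    rintro ⟨f, g⟩ h
    rw [hform] at h
    obtain ⟨h1, h2⟩ := hD _ _ h
    have hf : f = 0 := by
      have : (2 : ℂ) • f = 0 := by
        rw [two_smul]
        calc f + f = (f + g) + (f - g) := by abel
          _ = 0 := by rw [h1, h2, add_zero]
      exact (smul_eq_zero.mp this).resolve_left two_ne_zero
    have hg : g = 0 := by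
      rw [hf, zero_add] at h1
      exact h1
    rw [hf, hg]
    rfl
  refine ⟨hinj, ?_⟩
  have hle : LinearMap.range (periodHomPair N) ≤ parabolicHoms ℂ (Gamma0 N) ℂ := by
    rintro _ ⟨⟨f, g⟩, rfl⟩
    rw [hform]
    exact Submodule.add_mem _ (hC _) (charInvolution_mem_parabolicHoms N ℂ ℂ (hC _))
  haveI := hE.1
  -- the domain is finite-dimensional since it embeds into `parabolicHoms`
  let ι : (CuspForm (Gamma0 N) 2 × CuspForm (Gamma0 N) 2) →ₗ[ℂ] parabolicHoms ℂ (Gamma0 N) ℂ :=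
    (periodHomPair N).codRestrict _ (fun x => hle ⟨x, rfl⟩)
  have hιinj : Function.Injective ι := fun x y hxy => hinj (congrArg Subtype.val hxy)
  haveI : Module.Finite ℂ (CuspForm (Gamma0 N) 2 × CuspForm (Gamma0 N) 2) :=
    Module.Finite.of_injective ι hιinj
  haveI : Module.Finite ℂ (CuspForm (Gamma0 N) 2) :=
    Module.Finite.of_injective (LinearMap.inl ℂ _ (CuspForm (Gamma0 N) 2)) LinearMap.inl_injective
  have hdim : Module.finrank ℂ (parabolicHoms ℂ (Gamma0 N) ℂ)
      ≤ Module.finrank ℂ (LinearMap.range (periodHomPair N)) := by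
    rw [LinearMap.finrank_range_of_inj hinj, Module.finrank_prod]
    have h1 := hE.2
    rw [← hS20] at h1
    have : (Module.finrank ℂ (parabolicHoms ℂ (Gamma0 N) ℂ) : ℚ)
        ≤ ((Module.finrank ℂ (CuspForm (Gamma0 N) 2) + Module.finrank ℂ (CuspForm (Gamma0 N) 2) : ℕ) : ℚ) := by
      push_cast
      linarith
    exact_mod_cast this
  exact Submodule.eq_of_le_of_finrank_le hle hdim

end Fermat.Agent.S21

end
-- ==== END Fermat.Agent.S21.Assembly

-- ==== BEGIN Fermat.Agent.S21.H75_LinAlg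
section

set_option autoImplicit false

/-!
# Linear algebra helpers for the cohomological upper bound (S21, part E1)

For an endomorphism `R` of a finite-dimensional `ℂ`-vector space with `R ^ M = 1`, `0 < M`,
we study the "norm" operator `σ = ∑_{k<M} R^k`.
-/

namespace Fermat.Agent.S21.H75

open Module

variable {V : Type*} [AddCommGroup V] [Module ℂ V]

/-- the norm operator `∑_{k<M} R^k` -/
noncomputable def normOp (R : V →ₗ[ℂ] V) (M : ℕ) : V →ₗ[ℂ] V :=
  ∑ k ∈ Finset.range M, R ^ k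

lemma normOp_apply (R : V →ₗ[ℂ] V) (M : ℕ) (v : V) :
    normOp R M v = ∑ k ∈ Finset.range M, (R ^ k) v := by
  simp [normOp, LinearMap.sum_apply]

lemma normOp_mul_sub_one (R : V →ₗ[ℂ] V) (M : ℕ) :
    normOp R M * (R - 1) = R ^ M - 1 := by
  unfold normOp
  exact geom_sum_mul R M

lemma sub_one_mul_normOp (R : V →ₗ[ℂ] V) (M : ℕ) :
    (R - 1) * normOp R M = R ^ M - 1 := by
  unfold normOp
  exact mul_geom_sum R M

lemma normOp_comp_self {R : V →ₗ[ℂ] V} {M : ℕ} (hR : R ^ M = 1) (v : V) :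
    normOp R M (R v) = normOp R M v := by
  have h := normOp_mul_sub_one R M
  rw [hR, sub_self] at h
  have h2 := congrArg (fun f : V →ₗ[ℂ] V => f v) h
  simp only [Module.End.mul_apply, LinearMap.sub_apply, Module.End.one_apply, map_sub,
    LinearMap.zero_apply] at h2
  exact sub_eq_zero.mp h2

lemma self_comp_normOp {R : V →ₗ[ℂ] V} {M : ℕ} (hR : R ^ M = 1) (v : V) :
    R (normOp R M v) = normOp R M v := by
  have h := sub_one_mul_normOp R M
  rw [hR, sub_self] at h
  have h2 := congrArg (fun f : V →ₗ[ℂ] V => f v) h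
  simp only [Module.End.mul_apply, LinearMap.sub_apply, Module.End.one_apply,
    LinearMap.zero_apply] at h2
  exact sub_eq_zero.mp h2

lemma pow_apply_of_fixed {R : V →ₗ[ℂ] V} {v : V} (hv : R v = v) (k : ℕ) : (R ^ k) v = v := by
  induction k with
  | zero => simp
  | succ k ih => rw [pow_succ, Module.End.mul_apply, hv, ih]

lemma normOp_of_fixed {R : V →ₗ[ℂ] V} (M : ℕ) {v : V} (hv : R v = v) :
    normOp R M v = (M : ℂ) • v := by
  rw [normOp_apply]
  simp [pow_apply_of_fixed hv, Finset.sum_const, Nat.cast_smul_eq_nsmul]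

lemma range_sub_one_le_ker_normOp {R : V →ₗ[ℂ] V} {M : ℕ} (hR : R ^ M = 1) :
    LinearMap.range (R - 1) ≤ LinearMap.ker (normOp R M) := by
  rintro _ ⟨w, rfl⟩
  rw [LinearMap.mem_ker, LinearMap.sub_apply, Module.End.one_apply, map_sub,
    normOp_comp_self hR, sub_self]

lemma range_normOp_eq_ker_sub_one {R : V →ₗ[ℂ] V} {M : ℕ} (hM : 0 < M) (hR : R ^ M = 1) :
    LinearMap.range (normOp R M) = LinearMap.ker (R - 1) := by
  apply le_antisymm
  · rintro _ ⟨w, rfl⟩
    rw [LinearMap.mem_ker, LinearMap.sub_apply, Module.End.one_apply, self_comp_normOp hR,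
      sub_self]
  · intro v hv
    rw [LinearMap.mem_ker, LinearMap.sub_apply, Module.End.one_apply, sub_eq_zero] at hv
    refine ⟨((M : ℂ)⁻¹) • v, ?_⟩
    rw [map_smul, normOp_of_fixed M hv, smul_smul, inv_mul_cancel₀, one_smul]
    exact_mod_cast hM.ne'

/-- rank-nullity for the norm operator: `dim ker σ + dim ker (R - 1) = dim V`. -/
lemma finrank_ker_normOp_add [FiniteDimensional ℂ V] {R : V →ₗ[ℂ] V} {M : ℕ} (hM : 0 < M)
    (hR : R ^ M = 1) :
    finrank ℂ (LinearMap.ker (normOp R M)) + finrank ℂ (LinearMap.ker (R - 1)) = finrank ℂ V := by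
  have h := LinearMap.finrank_range_add_finrank_ker (normOp R M)
  rw [range_normOp_eq_ker_sub_one hM hR] at h
  omega

end Fermat.Agent.S21.H75

end
-- ==== END Fermat.Agent.S21.H75_LinAlg
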