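-- GENERATED (merged mirror, NOTES/tools/trim/merge3_helper67.py): 14 modules of the originals, bodies verbatim.
import Mathlib
import Fermat.Prelude.Def_ModularCurve_PeriodHomPair
import Fermat.Prelude.Def_CuspForm_HeckeAlgebra
import Fermat.Prelude.Thm_ModularForm_periodic_heckeT_comp_ofComplex
import Fermat.Prelude.Thm_ModularForm_periodic_heckeU_comp_ofComplex
import Fermat.Prelude.Thm_CongruenceSubgroup_one_mem_strictPeriods_Gamma0
import Fermat.Prelude.Thm_UpperHalfPlane_qCoeff_heckeT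
import Fermat.Prelude.Thm_UpperHalfPlane_qCoeff_heckeU
import Fermat.Prelude.Thm_ModularForm_mdifferentiable_heckeT
import Fermat.Prelude.Thm_ModularForm_mdifferentiable_heckeU
import Fermat.Prelude.Thm_ModularForm_isBoundedAtImInfty_heckeT
import Fermat.Prelude.Thm_ModularForm_isBoundedAtImInfty_heckeU
import Fermat.Prelude.Def_AlgebraicCurve_DivisorClassGroup
import Fermat.Agent.S22.H76_Nice
import Fermat.Agent.S22.H76_Poly
import Fermat.Agent.S23.H22_Setup
import Fermat.Agent.S23.H22_Nice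
import Fermat.Agent.S23.H96_LevelOne
import Fermat.Agent.S24.JAnDef

-- ==== BEGIN Fermat.Agent.S21.H78_DCore
section

/-!
# S21, part D-core: a holomorphic function on the upper half plane whose modulus is
`Γ₀(N)`-invariant, which is `N`-periodic after every `δ ∈ SL(2, ℤ)` and has a limit at
every cusp, is constant (maximum modulus principle on the compactified modular curve).
-/

set_option autoImplicit false

open UpperHalfPlane CongruenceSubgroup Filter Topology Function
open scoped MatrixGroups Manifold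

namespace Fermat.Agent.S21

theorem partD_core (N : ℕ) [NeZero N] (E : ℍ → ℂ)
    (hE : ∀ τ : ℍ, DifferentiableAt ℂ (E ∘ ofComplex) (τ : ℂ))
    (hinv : ∀ γ ∈ Gamma0 N, ∀ z : ℍ, ‖E (γ • z)‖ = ‖E z‖)
    (hper : ∀ (δ : SL(2, ℤ)) (w : ℍ), E (δ • (ModularGroup.T ^ N • w)) = E (δ • w))
    (hlim : ∀ δ : SL(2, ℤ), ∃ L : ℂ, Tendsto (fun w : ℍ => E (δ • w)) atImInfty (𝓝 L)) :
    ∃ c : ℂ, ∀ z : ℍ, E z = c := by
  classical
  have hN : (0 : ℝ) < (N : ℝ) := by exact_mod_cast Nat.pos_of_ne_zero (NeZero.ne N)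
  -- the translates, as functions on `ℂ`
  let f : SL(2, ℤ) → ℂ → ℂ := fun δ => (fun w : ℍ => E (δ • w)) ∘ ofComplex
  have hf_apply : ∀ δ (w : ℍ), f δ (w : ℂ) = E (δ • w) := fun δ w => by
    simp only [f, comp_apply, ofComplex_apply]
  -- (1) periodicity
  have hfper : ∀ δ, Periodic (f δ) ((N : ℝ) : ℂ) := by
    intro δ z
    by_cases hz : 0 < z.im
    · have hz' : 0 < (z + ((N : ℝ) : ℂ)).im := by simpa using hz
      have h1 : (⟨z + ((N : ℝ) : ℂ), hz'⟩ : ℍ) = ModularGroup.T ^ N • (⟨z, hz⟩ : ℍ) := by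
        apply UpperHalfPlane.ext
        have := ModularGroup.coe_T_zpow_smul_eq (z := (⟨z, hz⟩ : ℍ)) (n := (N : ℤ))
        rw [zpow_natCast] at this
        rw [this]
        simp
      have h2 := hf_apply δ ⟨z + ((N : ℝ) : ℂ), hz'⟩
      have h3 := hf_apply δ ⟨z, hz⟩
      simp only at h2 h3
      rw [h2, h3, h1]
      exact hper δ _
    · have hz0 : z.im ≤ 0 := not_lt.mp hz
      have hz' : (z + ((N : ℝ) : ℂ)).im ≤ 0 := by simpa using hz0
      simp only [f, comp_apply]
      rw [ofComplex_apply_eq_of_im_nonpos hz' hz0]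
  -- (2) differentiability on the upper half plane
  have hfdiff : ∀ δ (z : ℂ), 0 < z.im → DifferentiableAt ℂ (f δ) z := by
    intro δ z hz
    have hEm : ∀ τ : ℍ, MDifferentiableAt 𝓘(ℂ) 𝓘(ℂ) E τ := fun τ =>
      mdifferentiableAt_iff.mpr (hE τ)
    have hg : 0 < ((δ : GL (Fin 2) ℝ)).det.val := by simp
    have h1 : MDifferentiableAt 𝓘(ℂ) 𝓘(ℂ) (fun w : ℍ => E (δ • w)) ⟨z, hz⟩ :=
      (hEm (δ • ⟨z, hz⟩)).comp (⟨z, hz⟩ : ℍ) (mdifferentiable_smul hg ⟨z, hz⟩)
    exact mdifferentiableAt_iff.mp h1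
  -- (3) boundedness at `i∞`
  have hfbdd : ∀ δ, BoundedAtFilter (comap Complex.im atTop) (f δ) := by
    intro δ
    obtain ⟨L, hL⟩ := hlim δ
    have h1 : Tendsto (f δ) (comap Complex.im atTop) (𝓝 L) := hL.comp tendsto_comap_im_ofComplex
    exact h1.isBigO_one ℝ
  have hfhol : ∀ δ, ∀ᶠ z in comap Complex.im atTop, DifferentiableAt ℂ (f δ) z := by
    intro δ
    have h1 : ∀ᶠ z in comap Complex.im atTop, 0 < z.im :=
      (tendsto_comap (f := Complex.im) (x := atTop)).eventually (eventually_gt_atTop 0)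
    exact h1.mono fun z hz => hfdiff δ z hz
  -- cusp functions
  let c : SL(2, ℤ) → ℂ → ℂ := fun δ => Periodic.cuspFunction (N : ℝ) (f δ)
  have hc_eq : ∀ δ (w : ℍ), c δ (Periodic.qParam (N : ℝ) (w : ℂ)) = E (δ • w) := by
    intro δ w
    rw [← hf_apply δ w]
    exact Periodic.eq_cuspFunction hN.ne' (hfper δ) (w : ℂ)
  have hc_diffAt : ∀ δ, ∀ q ∈ Metric.ball (0 : ℂ) 1, DifferentiableAt ℂ (c δ) q := by
    intro δ q hq
    rcases eq_or_ne q 0 with rfl | hq0
    · exact Periodic.differentiableAt_cuspFunction_zero hN (hfper δ) (hfhol δ) (hfbdd δ)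
    · have him := Periodic.im_invQParam_pos_of_norm_lt_one hN (mem_ball_zero_iff.mp hq) hq0
      have := Periodic.differentiableAt_cuspFunction hN.ne' (hfper δ) (hfdiff δ _ him)
      rwa [Periodic.qParam_right_inv hN.ne' hq0] at this
  have hc_diff : ∀ δ, DifferentiableOn ℂ (c δ) (Metric.ball 0 1) := fun δ q hq =>
    (hc_diffAt δ q hq).differentiableWithinAt
  -- the radius
  set r : ℝ := Real.exp (-Real.pi / N) with hr
  have hr0 : 0 ≤ r := (Real.exp_pos _).le
  have hr1 : r < 1 := by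
    rw [hr, Real.exp_lt_one_iff]
    exact div_neg_of_neg_of_pos (neg_lt_zero.mpr Real.pi_pos) hN
  have hqr : ∀ w : ℍ, 1 / 2 ≤ w.im → Periodic.qParam (N : ℝ) (w : ℂ) ∈ Metric.closedBall (0 : ℂ) r := by
    intro w hw
    rw [mem_closedBall_zero_iff, Periodic.norm_qParam, hr, Real.exp_le_exp]
    rw [div_le_div_iff_of_pos_right hN]
    have : (w : ℂ).im = w.im := rfl
    rw [this]
    nlinarith [Real.pi_pos]
  -- coset representatives and maximisers
  have hmax : ∀ δ : SL(2, ℤ), ∃ x ∈ Metric.closedBall (0 : ℂ) r,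
      IsMaxOn (fun q => ‖c δ q‖) (Metric.closedBall (0 : ℂ) r) x := by
    intro δ
    exact (isCompact_closedBall (0 : ℂ) r).exists_isMaxOn (Metric.nonempty_closedBall.mpr hr0)
      ((hc_diff δ).continuousOn.mono (Metric.closedBall_subset_ball hr1)).norm
  choose x hx_mem hx_max using hmax
  let rep : (SL(2, ℤ) ⧸ Gamma0 N) → SL(2, ℤ) := fun q => (Quotient.out q)⁻¹
  obtain ⟨q₀, hq₀⟩ := Finite.exists_max (fun q : SL(2, ℤ) ⧸ Gamma0 N => ‖c (rep q) (x (rep q))‖)
  set δ₀ := rep q₀ with hδ₀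
  set B := ‖c δ₀ (x δ₀)‖ with hB
  -- the global bound
  have hbound : ∀ τ : ℍ, ‖E τ‖ ≤ B := by
    intro τ
    obtain ⟨γ₀, hγ₀⟩ := ModularGroup.exists_one_half_le_im_smul τ
    obtain ⟨h, hh⟩ := QuotientGroup.mk_out_eq_mul (Gamma0 N) γ₀
    set q : SL(2, ℤ) ⧸ Gamma0 N := QuotientGroup.mk γ₀ with hq
    have h1 : τ = (h : SL(2, ℤ)) • (rep q • (γ₀ • τ)) := by
      have : (h : SL(2, ℤ)) * rep q * γ₀ = 1 := by
        simp only [rep]
        rw [hh]
        group
      rw [← mul_smul, ← mul_smul, this, one_smul]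
    calc ‖E τ‖ = ‖E ((h : SL(2, ℤ)) • (rep q • (γ₀ • τ)))‖ := by rw [← h1]
      _ = ‖E (rep q • (γ₀ • τ))‖ := hinv _ h.2 _
      _ = ‖c (rep q) (Periodic.qParam (N : ℝ) ((γ₀ • τ : ℍ) : ℂ))‖ := by rw [hc_eq]
      _ ≤ ‖c (rep q) (x (rep q))‖ := hx_max (rep q) (hqr _ hγ₀)
      _ ≤ B := hq₀ q
  -- bound for the cusp function of `δ₀` on the whole unit disc
  have hcB : ∀ z ∈ Metric.ball (0 : ℂ) 1, ‖c δ₀ z‖ ≤ B := by
    have hne : ∀ z ∈ Metric.ball (0 : ℂ) 1, z ≠ 0 → ‖c δ₀ z‖ ≤ B := by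
      intro z hz hz0
      have him := Periodic.im_invQParam_pos_of_norm_lt_one hN (mem_ball_zero_iff.mp hz) hz0
      have h1 := hc_eq δ₀ ⟨_, him⟩
      simp only at h1
      rw [Periodic.qParam_right_inv hN.ne' hz0] at h1
      rw [h1]
      exact hbound _
    intro z hz
    rcases eq_or_ne z 0 with rfl | hz0
    · have hcont : ContinuousAt (c δ₀) 0 := (hc_diffAt δ₀ 0 hz).continuousAt
      have ht : Tendsto (fun q => ‖c δ₀ q‖) (𝓝[≠] (0 : ℂ)) (𝓝 ‖c δ₀ 0‖) :=
        (hcont.norm.tendsto).mono_left nhdsWithin_le_nhds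
      refine le_of_tendsto ht ?_
      have hball : Metric.ball (0 : ℂ) 1 ∈ 𝓝 (0 : ℂ) := Metric.ball_mem_nhds 0 one_pos
      filter_upwards [nhdsWithin_le_nhds hball, self_mem_nhdsWithin] with q hq hq0
      exact hne q hq hq0
    · exact hne z hz hz0
  -- maximum modulus principle
  have hconst : Set.EqOn (c δ₀) (Function.const ℂ (c δ₀ 0)) (Metric.ball 0 1) := by
    refine Complex.eq_const_of_exists_le (hc_diff δ₀) hr0 hr1 fun z hz => ?_
    exact ⟨x δ₀, hx_mem δ₀, hcB z hz⟩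
  refine ⟨c δ₀ 0, fun z => ?_⟩
  have h1 := hc_eq δ₀ (δ₀⁻¹ • z)
  rw [smul_inv_smul] at h1
  rw [← h1]
  refine hconst ?_
  rw [mem_ball_zero_iff]
  exact Periodic.norm_qParam_lt_one hN (δ₀⁻¹ • z).im_pos

end Fermat.Agent.S21

end
-- ==== END Fermat.Agent.S21.H78_DCore

-- ==== BEGIN Fermat.Agent.S21.H86_PartC
section

/-!
# S21, part C: the period of a parabolic element vanishes

If `γ ∈ Γ₀(N)` has `trace² = 4`, then `γ` is, up to sign, conjugate in `SL(2, ℤ)` to a power of
`T`, and the limits of the equivariant primitive at the cusps force `F (γ • z) = F z`.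
-/

set_option autoImplicit false

open ModularCurve ModularCurve.Period UpperHalfPlane CongruenceSubgroup Filter Topology
open scoped MatrixGroups

namespace Fermat.Agent.S21

namespace H86

theorem conj_lower_left (γ δ : SL(2, ℤ)) :
    ((δ⁻¹ * γ * δ : SL(2, ℤ)) : Matrix (Fin 2) (Fin 2) ℤ) 1 0 =
      γ 1 0 * (δ 0 0) ^ 2 + (γ 1 1 - γ 0 0) * (δ 0 0) * (δ 1 0) - γ 0 1 * (δ 1 0) ^ 2 := by
  simp only [Matrix.SpecialLinearGroup.coe_mul, Matrix.SpecialLinearGroup.coe_inv,
    Matrix.adjugate_fin_two, Matrix.mul_apply, Fin.sum_univ_two, Matrix.of_apply,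
    Matrix.cons_val_zero, Matrix.cons_val_one, Matrix.cons_val', Matrix.cons_val_fin_one]
  ring

/-- An element of `SL(2, ℤ)` with `trace² = 4` is conjugate in `SL(2, ℤ)` to an upper triangular
matrix. -/
theorem exists_conj_lower_left_eq_zero (γ : SL(2, ℤ))
    (hγ : (γ : Matrix (Fin 2) (Fin 2) ℤ).trace ^ 2 = 4) :
    ∃ δ : SL(2, ℤ), ((δ⁻¹ * γ * δ : SL(2, ℤ)) : Matrix (Fin 2) (Fin 2) ℤ) 1 0 = 0 := by
  have hdet : γ 0 0 * γ 1 1 - γ 0 1 * γ 1 0 = 1 := by
    have := γ.det_coe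
    rwa [Matrix.det_fin_two] at this
  rw [Matrix.trace_fin_two] at hγ
  by_cases hr : γ 1 0 = 0
  · exact ⟨1, by simpa using hr⟩
  -- ε = ±1 with p + s = 2 ε
  obtain ⟨ε, hε, hps⟩ : ∃ ε : ℤ, ε ^ 2 = 1 ∧ γ 0 0 + γ 1 1 = 2 * ε := by
    have h4 : (γ 0 0 + γ 1 1 - 2) * (γ 0 0 + γ 1 1 + 2) = 0 := by ring_nf; ring_nf at hγ; omega
    rcases mul_eq_zero.mp h4 with h | h
    · exact ⟨1, by norm_num, by omega⟩
    · exact ⟨-1, by norm_num, by omega⟩
  set a₀ : ℤ := ε - γ 1 1 with ha₀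
  set c₀ : ℤ := γ 1 0 with hc₀
  have hQ : γ 1 0 * a₀ ^ 2 + (γ 1 1 - γ 0 0) * a₀ * c₀ - γ 0 1 * c₀ ^ 2 = 0 := by
    have hp : γ 0 0 = 2 * ε - γ 1 1 := by omega
    rw [ha₀, hc₀, hp]
    have h1 : (2 * ε - γ 1 1) * γ 1 1 - γ 0 1 * γ 1 0 = 1 := by rw [← hp]; exact hdet
    linear_combination (γ 1 0) * h1 - (γ 1 0) * hε
  -- divide by the gcd
  set g : ℤ := (Int.gcd a₀ c₀ : ℤ) with hg
  have hg0 : g ≠ 0 := by
    rw [hg]
    exact_mod_cast (Int.gcd_pos_of_ne_zero_right a₀ hr).ne'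
  obtain ⟨a, ha⟩ : g ∣ a₀ := Int.gcd_dvd_left a₀ c₀
  obtain ⟨c, hc⟩ : g ∣ c₀ := Int.gcd_dvd_right a₀ c₀
  have hcop : IsCoprime a c := by
    rw [Int.isCoprime_iff_gcd_eq_one]
    have h1 : Int.gcd a₀ c₀ = Int.gcd a₀ c₀ * Int.gcd a c := by
      conv_lhs => rw [ha, hc, Int.gcd_mul_left]
      simp [hg]
    have hpos : 0 < Int.gcd a₀ c₀ := Int.gcd_pos_of_ne_zero_right a₀ hr
    nlinarith [Nat.eq_of_mul_eq_mul_left hpos (by simpa using h1.symm : Int.gcd a₀ c₀ * Int.gcd a c = Int.gcd a₀ c₀ * 1)]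
  obtain ⟨δ, hδ0, hδ1⟩ := hcop.exists_SL2_col 0
  refine ⟨δ, ?_⟩
  rw [conj_lower_left, hδ0, hδ1]
  have hQ' : g ^ 2 * (γ 1 0 * a ^ 2 + (γ 1 1 - γ 0 0) * a * c - γ 0 1 * c ^ 2) = 0 := by
    rw [ha, hc] at hQ
    linear_combination hQ
  rcases mul_eq_zero.mp hQ' with h | h
  · exact absurd (pow_eq_zero_iff (two_ne_zero) |>.mp h) hg0
  · exact h

/-- translation by a power of `T` preserves the filter `atImInfty`. -/
theorem tendsto_T_zpow_smul_atImInfty (n : ℤ) :
    Tendsto (fun w : ℍ => ModularGroup.T ^ n • w) atImInfty atImInfty := by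
  rw [atImInfty, tendsto_comap_iff]
  have : (UpperHalfPlane.im ∘ fun w : ℍ => ModularGroup.T ^ n • w) = UpperHalfPlane.im := by
    funext w
    exact ModularGroup.im_T_zpow_smul w n
  rw [this]
  exact tendsto_comap

end H86

/-- **Part C**: the period of the equivariant primitive along a parabolic element (or `±1`)
vanishes. -/
theorem partC (N : ℕ) [NeZero N] {f : CuspForm (Gamma0 N) 2} {F : ℍ → ℂ}
    (hF : HasEquivariantPrimitive N f F) (γ : Gamma0 N)
    (hγ : ((γ : SL(2, ℤ)) : Matrix (Fin 2) (Fin 2) ℤ).trace ^ 2 = 4) (z : ℍ) :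
    F ((γ : SL(2, ℤ)) • z) = F z := by
  obtain ⟨c, hc⟩ := hF.2.2.1 γ
  obtain ⟨δ, hδ⟩ := H86.exists_conj_lower_left_eq_zero (γ : SL(2, ℤ)) hγ
  obtain ⟨n, hn⟩ := ModularGroup.exists_eq_T_zpow_of_c_eq_zero hδ
  obtain ⟨L, hL⟩ := hF.2.2.2 δ
  -- `γ • (δ • w) = δ • (T ^ n • w)`
  have hconj : ∀ w : ℍ, (γ : SL(2, ℤ)) • (δ • w) = δ • (ModularGroup.T ^ n • w) := by
    intro w
    rw [← hn w, ← mul_smul, ← mul_smul]
    congr 1
    group
  -- the constant is a difference of two functions with the same limit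
  have h1 : Tendsto (fun w : ℍ => F (δ • (ModularGroup.T ^ n • w))) atImInfty (𝓝 L) :=
    hL.comp (H86.tendsto_T_zpow_smul_atImInfty n)
  have h2 : Tendsto (fun w : ℍ => F (δ • (ModularGroup.T ^ n • w)) - F (δ • w)) atImInfty
      (𝓝 (L - L)) := h1.sub hL
  have h3 : (fun w : ℍ => F (δ • (ModularGroup.T ^ n • w)) - F (δ • w)) = fun _ => c := by
    funext w
    rw [← hconj w]
    exact hc (δ • w)
  rw [h3, sub_self] at h2
  have hc0 : c = 0 := tendsto_nhds_unique tendsto_const_nhds h2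
  have := hc z
  rw [hc0, sub_eq_zero] at this
  exact this

end Fermat.Agent.S21

end
-- ==== END Fermat.Agent.S21.H86_PartC

-- ==== BEGIN Fermat.Agent.S22.AbstractLattice
section

/-!
# S22: abstract lattice lemma

If a set `gens` of endomorphisms of a `ℂ`-vector space `V` preserves (by precomposition) a finitely
generated `ℤ`-submodule `Λ` of the dual of `V` that separates the points of `V`, then the
`ℤ`-algebra generated by `gens` is a finitely generated `ℤ`-module.
-/

set_option autoImplicit false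

namespace Fermat.Agent.S22

variable {V : Type*} [AddCommGroup V] [Module ℂ V]

theorem comp_mem_of_mem_adjoin {gens : Set (Module.End ℂ V)}
    {Λ : Submodule ℤ (Module.Dual ℂ V)}
    (hstab : ∀ τ ∈ gens, ∀ l ∈ Λ, l.comp τ ∈ Λ)
    {t : Module.End ℂ V} (ht : t ∈ Algebra.adjoin ℤ gens) :
    ∀ l ∈ Λ, l.comp t ∈ Λ := by
  induction ht using Algebra.adjoin_induction with
  | mem x hx => exact hstab x hx
  | algebraMap r =>
    intro l hl
    have : l.comp (algebraMap ℤ (Module.End ℂ V) r) = r • l := by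
      ext v
      simp
    rw [this]
    exact Λ.smul_mem r hl
  | add x y _ _ hx hy =>
    intro l hl
    have : l.comp (x + y) = l.comp x + l.comp y := by
      ext v; simp
    rw [this]
    exact Λ.add_mem (hx l hl) (hy l hl)
  | mul x y _ _ hx hy =>
    intro l hl
    have : l.comp (x * y) = (l.comp x).comp y := by
      ext v; simp
    rw [this]
    exact hy _ (hx l hl)

theorem moduleFinite_adjoin_of_lattice (gens : Set (Module.End ℂ V))
    (Λ : Submodule ℤ (Module.Dual ℂ V)) (hfg : Λ.FG)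
    (hsep : ∀ v : V, (∀ l ∈ Λ, l v = 0) → v = 0)
    (hstab : ∀ τ ∈ gens, ∀ l ∈ Λ, l.comp τ ∈ Λ) :
    Module.Finite ℤ (Algebra.adjoin ℤ gens) := by
  classical
  have : Module.Finite ℤ Λ := Module.Finite.iff_fg.mpr hfg
  have hrange : ∀ t : Algebra.adjoin ℤ gens, ∀ l : Λ,
      (l : Module.Dual ℂ V).comp (t : Module.End ℂ V) ∈ Λ := fun t l =>
    comp_mem_of_mem_adjoin hstab t.2 l l.2
  let Ψ : (Algebra.adjoin ℤ gens) →ₗ[ℤ] (Λ →ₗ[ℤ] Λ) :=
    { toFun := fun t =>
        { toFun := fun l => ⟨(l : Module.Dual ℂ V).comp (t : Module.End ℂ V), hrange t l⟩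
          map_add' := fun l l' => by
            apply Subtype.ext; apply LinearMap.ext; intro v; rfl
          map_smul' := fun r l => by
            apply Subtype.ext; apply LinearMap.ext; intro v; rfl }
      map_add' := fun t t' => by
        apply LinearMap.ext; intro l
        apply Subtype.ext; apply LinearMap.ext; intro v
        show (l : Module.Dual ℂ V) (((t : Module.End ℂ V) + (t' : Module.End ℂ V)) v) =
          (l : Module.Dual ℂ V) ((t : Module.End ℂ V) v) + (l : Module.Dual ℂ V) ((t' : Module.End ℂ V) v)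
        rw [LinearMap.add_apply, map_add]
      map_smul' := fun r t => by
        apply LinearMap.ext; intro l
        apply Subtype.ext; apply LinearMap.ext; intro v
        show (l : Module.Dual ℂ V) ((r • (t : Module.End ℂ V)) v) =
          r • (l : Module.Dual ℂ V) ((t : Module.End ℂ V) v)
        rw [LinearMap.smul_apply, map_zsmul] }
  have hinj : Function.Injective Ψ := by
    rw [← LinearMap.ker_eq_bot, LinearMap.ker_eq_bot']
    intro t ht
    apply Subtype.ext
    apply LinearMap.ext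
    intro v
    apply hsep
    intro l hl
    have h1 : Ψ t ⟨l, hl⟩ = 0 := by rw [ht]; rfl
    have h2 : ((Ψ t ⟨l, hl⟩ : Λ) : Module.Dual ℂ V) v = 0 := by rw [h1]; rfl
    exact h2
  have : IsNoetherian ℤ (Λ →ₗ[ℤ] Λ) := by
    have : IsNoetherian ℤ Λ := isNoetherian_of_isNoetherianRing_of_finite ℤ Λ
    infer_instance
  exact Module.Finite.of_injective Ψ hinj

end Fermat.Agent.S22

end
-- ==== END Fermat.Agent.S22.AbstractLattice

-- ==== BEGIN Fermat.Agent.S22.H21_Hecke
section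

/-!
# S22, E3: Hecke relation for nice iterated primitives (helper21)

If `G` is nice (holomorphic, 1-periodic, zero at `i∞`) with `D^(n+1) G = f`, then
`p^(n+1) • heckeT (-n) p G` is nice with `D^(n+1)` equal to `heckeT (n+2) p f`;
likewise for `heckeU`.
-/

set_option autoImplicit false

namespace Fermat.Agent.S22.H21

open UpperHalfPlane hiding I
open Real Complex Derivative Filter Function
open scoped Manifold MatrixGroups ModularForm Topology
open Fermat.Agent.S22.H76

theorem det_heckeMatrix_val {p : ℕ} (hp : p ≠ 0) (j : ℕ) :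
    (ModularForm.heckeMatrix p j).val.det = p := by
  rw [← Matrix.GeneralLinearGroup.val_det_apply]
  exact ModularForm.det_heckeMatrix hp j

theorem det_heckeDiagMatrix_val {p : ℕ} (hp : p ≠ 0) :
    (ModularForm.heckeDiagMatrix p).val.det = p := by
  rw [← Matrix.GeneralLinearGroup.val_det_apply]
  exact ModularForm.det_heckeDiagMatrix hp

theorem heckeMatrix_one_zero {p : ℕ} (hp : p ≠ 0) (j : ℕ) :
    (ModularForm.heckeMatrix p j) 1 0 = 0 := by
  have := ModularForm.val_heckeMatrix hp j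
  have h : (ModularForm.heckeMatrix p j) 1 0 = (ModularForm.heckeMatrix p j).val 1 0 := rfl
  rw [h, this]
  simp

theorem heckeDiagMatrix_one_zero {p : ℕ} (hp : p ≠ 0) :
    (ModularForm.heckeDiagMatrix p) 1 0 = 0 := by
  have := ModularForm.val_heckeDiagMatrix hp
  have h : (ModularForm.heckeDiagMatrix p) 1 0 = (ModularForm.heckeDiagMatrix p).val 1 0 := rfl
  rw [h, this]
  simp

/-- Bol's identity in the form needed: `D^(n+1) (G ∣[-n] g) = det⁻⁽ⁿ⁺¹⁾ • (D^(n+1) G) ∣[n+2] g`. -/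
theorem bol' {g : GL (Fin 2) ℝ} (hg : 0 < g.val.det) (n : ℕ) {G : ℍ → ℂ} (hG : MDiff G) :
    iterD (n + 1) (G ∣[-(n : ℤ)] g) =
      ((g.val.det : ℂ)⁻¹) ^ (n + 1) • ((iterD (n + 1) G) ∣[(n : ℤ) + 2] g) := by
  have h := bol hg (n + 1) hG
  have e1 : (1 : ℤ) - ((n + 1 : ℕ) : ℤ) = -(n : ℤ) := by push_cast; ring
  have e2 : (((n + 1 : ℕ) : ℤ)) + 1 = (n : ℤ) + 2 := by push_cast; ring
  rw [e1, e2] at h
  exact h

theorem iterD_slash_heckeMatrix {p : ℕ} (hp : p ≠ 0) (j : ℕ) (n : ℕ) {G : ℍ → ℂ} (hG : MDiff G) :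
    ((p : ℂ) ^ (n + 1)) • iterD (n + 1) (G ∣[-(n : ℤ)] ModularForm.heckeMatrix p j) =
      (iterD (n + 1) G) ∣[(n : ℤ) + 2] ModularForm.heckeMatrix p j := by
  have hdet : (ModularForm.heckeMatrix p j).val.det = p := det_heckeMatrix_val hp j
  have hpos : 0 < (ModularForm.heckeMatrix p j).val.det := by
    rw [hdet]; exact_mod_cast Nat.pos_of_ne_zero hp
  have hp' : (p : ℂ) ≠ 0 := by exact_mod_cast hp
  rw [bol' hpos n hG, hdet, smul_smul]
  have : (p : ℂ) ^ (n + 1) * (((p : ℝ) : ℂ)⁻¹) ^ (n + 1) = 1 := by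
    rw [← mul_pow]
    simp [hp']
  rw [this, one_smul]

theorem iterD_slash_heckeDiagMatrix {p : ℕ} (hp : p ≠ 0) (n : ℕ) {G : ℍ → ℂ} (hG : MDiff G) :
    ((p : ℂ) ^ (n + 1)) • iterD (n + 1) (G ∣[-(n : ℤ)] ModularForm.heckeDiagMatrix p) =
      (iterD (n + 1) G) ∣[(n : ℤ) + 2] ModularForm.heckeDiagMatrix p := by
  have hdet : (ModularForm.heckeDiagMatrix p).val.det = p := det_heckeDiagMatrix_val hp
  have hpos : 0 < (ModularForm.heckeDiagMatrix p).val.det := by
    rw [hdet]; exact_mod_cast Nat.pos_of_ne_zero hp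
  have hp' : (p : ℂ) ≠ 0 := by exact_mod_cast hp
  rw [bol' hpos n hG, hdet, smul_smul]
  have : (p : ℂ) ^ (n + 1) * (((p : ℝ) : ℂ)⁻¹) ^ (n + 1) = 1 := by
    rw [← mul_pow]
    simp [hp']
  rw [this, one_smul]

theorem isZeroAtImInfty_sum {ι : Type*} (s : Finset ι) {F : ι → ℍ → ℂ}
    (hF : ∀ i ∈ s, IsZeroAtImInfty (F i)) : IsZeroAtImInfty (∑ i ∈ s, F i) := by
  classical
  induction s using Finset.induction_on with
  | empty =>
    simp only [Finset.sum_empty]
    exact (tendsto_const_nhds : Tendsto (fun _ : ℍ => (0 : ℂ)) atImInfty (𝓝 0))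
  | insert i t hi ih =>
    rw [Finset.sum_insert hi]
    have h1 := hF i (Finset.mem_insert_self i t)
    have h2 := ih fun j hj => hF j (Finset.mem_insert_of_mem hj)
    have := h1.add h2
    simpa [IsZeroAtImInfty, ZeroAtFilter] using this

theorem isZeroAtImInfty_heckeU {G : ℍ → ℂ} (hG : IsZeroAtImInfty G) (k : ℤ) {p : ℕ} (hp : p ≠ 0) :
    IsZeroAtImInfty (ModularForm.heckeU k p G) := by
  rw [ModularForm.heckeU_def]
  exact isZeroAtImInfty_sum _ fun j _ => hG.slash k (heckeMatrix_one_zero hp j)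

theorem isZeroAtImInfty_heckeT {G : ℍ → ℂ} (hG : IsZeroAtImInfty G) (k : ℤ) {p : ℕ} (hp : p ≠ 0) :
    IsZeroAtImInfty (ModularForm.heckeT k p G) := by
  rw [ModularForm.heckeT_eq_heckeU_add]
  have h1 := isZeroAtImInfty_heckeU hG k hp
  have h2 : IsZeroAtImInfty (G ∣[k] ModularForm.heckeDiagMatrix p) :=
    hG.slash k (heckeDiagMatrix_one_zero hp)
  have := h1.add h2
  simpa [IsZeroAtImInfty, ZeroAtFilter] using this

/-- **E3 for `U_p`** (def-independent form). -/
theorem isNice_heckeU {G : ℍ → ℂ} (hG : IsNice 1 G) (n : ℕ) {p : ℕ} (hp : p ≠ 0) :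
    IsNice 1 (((p : ℂ) ^ (n + 1)) • ModularForm.heckeU (-(n : ℤ)) p G) :=
  IsNice.smul
    ⟨ModularForm.mdifferentiable_heckeU hG.mdiff _ p,
      ModularForm.periodic_heckeU_comp_ofComplex hG.periodic _ p,
      isZeroAtImInfty_heckeU hG.zero _ hp⟩ _

theorem iterD_heckeU {G : ℍ → ℂ} (hG : MDiff G) (n : ℕ) {p : ℕ} (hp : p ≠ 0) :
    iterD (n + 1) (((p : ℂ) ^ (n + 1)) • ModularForm.heckeU (-(n : ℤ)) p G) =
      ModularForm.heckeU ((n : ℤ) + 2) p (iterD (n + 1) G) := by
  rw [iterD_smul (ModularForm.mdifferentiable_heckeU hG _ p), ModularForm.heckeU_def,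
    ModularForm.heckeU_def, iterD_sum _ (fun j _ => hG.slash _ _), Finset.smul_sum]
  exact Finset.sum_congr rfl fun j _ => iterD_slash_heckeMatrix hp j n hG

/-- **E3 for `T_p`** (def-independent form). -/
theorem isNice_heckeT {G : ℍ → ℂ} (hG : IsNice 1 G) (n : ℕ) {p : ℕ} (hp : p ≠ 0) :
    IsNice 1 (((p : ℂ) ^ (n + 1)) • ModularForm.heckeT (-(n : ℤ)) p G) :=
  IsNice.smul
    ⟨ModularForm.mdifferentiable_heckeT hG.mdiff _ p,
      ModularForm.periodic_heckeT_comp_ofComplex hG.periodic _ p,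
      isZeroAtImInfty_heckeT hG.zero _ hp⟩ _

theorem iterD_heckeT {G : ℍ → ℂ} (hG : MDiff G) (n : ℕ) {p : ℕ} (hp : p ≠ 0) :
    iterD (n + 1) (((p : ℂ) ^ (n + 1)) • ModularForm.heckeT (-(n : ℤ)) p G) =
      ModularForm.heckeT ((n : ℤ) + 2) p (iterD (n + 1) G) := by
  have hU := iterD_heckeU hG n hp
  rw [iterD_smul (ModularForm.mdifferentiable_heckeU hG _ p)] at hU
  rw [iterD_smul (ModularForm.mdifferentiable_heckeT hG _ p), ModularForm.heckeT_eq_heckeU_add,
    ModularForm.heckeT_eq_heckeU_add,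
    iterD_add (ModularForm.mdifferentiable_heckeU hG _ p) (hG.slash _ _), smul_add, hU,
    iterD_slash_heckeDiagMatrix hp n hG]

end Fermat.Agent.S22.H21

end
-- ==== END Fermat.Agent.S22.H21_Hecke

-- ==== BEGIN Fermat.Agent.S22.H76_Eichler
section

/-!
# The Eichler integral of a cusp form on `Γ₀(N)` (helper76, S22)

`eichler n f` is the unique nice (holomorphic, `1`-periodic, zero at `i∞`) function with
`D^(n+1) (eichler n f) = f`, for `f` a cusp form of weight `n + 2`.
-/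

set_option autoImplicit false

namespace Fermat.Agent.S22.H76

open UpperHalfPlane hiding I
open Real Complex Derivative Filter Function CongruenceSubgroup Matrix.SpecialLinearGroup
open scoped Manifold MatrixGroups ModularForm Topology

noncomputable section

variable {N : ℕ} [NeZero N]

theorem isNice_cuspForm {k : ℤ} (f : CuspForm (Gamma0 N) k) : IsNice 1 (f : ℍ → ℂ) where
  mdiff := CuspFormClass.holo f
  periodic := SlashInvariantFormClass.periodic_comp_ofComplex f
    (CongruenceSubgroup.one_mem_strictPeriods_Gamma0 N)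
  zero := CuspFormClass.zero_at_infty f

/-- `Bol`'s identity in the form used for weight `n + 2`. -/
theorem bol_weight {g : GL (Fin 2) ℝ} (hg : 0 < g.val.det) (n : ℕ) {F : ℍ → ℂ} (hF : MDiff F) :
    iterD (n + 1) (F ∣[-(n : ℤ)] g)
      = ((g.val.det : ℂ)⁻¹) ^ (n + 1) • ((iterD (n + 1) F) ∣[(n : ℤ) + 2] g) := by
  have := bol hg (n + 1) hF
  rw [show (1 : ℤ) - ((n + 1 : ℕ) : ℤ) = -(n : ℤ) by push_cast; ring,
    show (((n + 1 : ℕ) : ℤ) + 1) = (n : ℤ) + 2 by push_cast; ring] at this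
  exact this

theorem det_mapGL (γ : SL(2, ℤ)) : (mapGL ℝ γ : GL (Fin 2) ℝ).val.det = 1 := by
  rw [← Matrix.GeneralLinearGroup.val_det_apply]
  simp

theorem bol_SL (γ : SL(2, ℤ)) (n : ℕ) {F : ℍ → ℂ} (hF : MDiff F) :
    iterD (n + 1) (F ∣[-(n : ℤ)] (mapGL ℝ γ))
      = (iterD (n + 1) F) ∣[(n : ℤ) + 2] (mapGL ℝ γ) := by
  have h1 : (0 : ℝ) < (mapGL ℝ γ : GL (Fin 2) ℝ).val.det := by rw [det_mapGL]; exact one_pos
  rw [bol_weight h1 n hF, det_mapGL]
  simp

theorem exists_eichler (n : ℕ) (f : CuspForm (Gamma0 N) ((n : ℤ) + 2)) :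
    ∃ F : ℍ → ℂ, IsNice 1 F ∧ iterD (n + 1) F = f :=
  (isNice_cuspForm f).exists_iterated_primitive one_pos (n + 1)

/-- The Eichler integral. -/
def eichler (n : ℕ) (f : CuspForm (Gamma0 N) ((n : ℤ) + 2)) : ℍ → ℂ :=
  (exists_eichler n f).choose

theorem eichler_isNice (n : ℕ) (f : CuspForm (Gamma0 N) ((n : ℤ) + 2)) :
    IsNice 1 (eichler n f) := (exists_eichler n f).choose_spec.1

theorem eichler_iterD (n : ℕ) (f : CuspForm (Gamma0 N) ((n : ℤ) + 2)) :
    iterD (n + 1) (eichler n f) = f := (exists_eichler n f).choose_spec.2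

theorem eichler_unique (n : ℕ) (f : CuspForm (Gamma0 N) ((n : ℤ) + 2)) {F : ℍ → ℂ}
    (hF : IsNice 1 F) (h : iterD (n + 1) F = f) : F = eichler n f :=
  hF.eq_of_iterD_eq one_pos (eichler_isNice n f) (n + 1) (by rw [h, eichler_iterD])

/-- The Eichler integral as a linear map. -/
def eichlerLin (n : ℕ) : CuspForm (Gamma0 N) ((n : ℤ) + 2) →ₗ[ℂ] (ℍ → ℂ) where
  toFun := eichler n
  map_add' f g := by
    symm
    apply eichler_unique
    · exact (eichler_isNice n f).add (eichler_isNice n g)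
    · rw [iterD_add (eichler_isNice n f).mdiff (eichler_isNice n g).mdiff, eichler_iterD,
        eichler_iterD, FunLike.coe_add]
  map_smul' c f := by
    symm
    apply eichler_unique
    · exact (eichler_isNice n f).smul c
    · rw [iterD_smul (eichler_isNice n f).mdiff, eichler_iterD, RingHom.id_apply]
      rfl

@[simp] theorem eichlerLin_apply (n : ℕ) (f : CuspForm (Gamma0 N) ((n : ℤ) + 2)) :
    eichlerLin n f = eichler n f := rfl

/-- Polynomiality of the period functions. -/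
theorem eichler_poly (n : ℕ) (f : CuspForm (Gamma0 N) ((n : ℤ) + 2)) (g : SL(2, ℤ))
    (hg : g ∈ Gamma0 N) :
    ∃ P : Polynomial ℂ, P.natDegree ≤ n ∧
      ∀ z : ℍ, ((eichler n f) ∣[-(n : ℤ)] (mapGL ℝ g)) z - eichler n f z = P.eval (z : ℂ) := by
  have hm := (eichler_isNice n f).mdiff
  have hm' : MDiff ((eichler n f) ∣[-(n : ℤ)] (mapGL ℝ g)) := hm.slash _ _
  have h0 : iterD (n + 1) ((eichler n f) ∣[-(n : ℤ)] (mapGL ℝ g) - eichler n f) = 0 := by
    rw [iterD_sub hm' hm, bol_SL g n hm, eichler_iterD]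
    have := SlashInvariantFormClass.slash_action_eq f (mapGL ℝ g)
      (Subgroup.mem_map_of_mem (mapGL ℝ) hg)
    rw [this, sub_self]
  obtain ⟨P, hP, hPz⟩ := exists_poly_of_iterD_eq_zero (n + 1) (hm'.sub hm) h0
  refine ⟨P, ?_, fun z => by simpa using hPz z⟩
  by_cases hP0 : P = 0
  · simp [hP0]
  · have := (Polynomial.degree_eq_natDegree hP0) ▸ hP
    have h2 : P.natDegree < n + 1 := by exact_mod_cast this
    omega

end

end Fermat.Agent.S22.H76

end
-- ==== END Fermat.Agent.S22.H76_Eichler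

-- ==== BEGIN Fermat.Agent.S22.Interface
section

/-!
# S22: interface between the analytic part (Eichler integral) and the algebraic part (period lattice)

`EichlerData N n` packages, for weight `k = n + 2` and level `Gamma0 N`, a linear "Eichler integral"
`E f : ℍ → ℂ` (morally `E f z = ∫_{i∞}^z f(w) (w - z)^n dw`) together with the three facts the
algebraic part needs:

* `poly`    : for `g ∈ Gamma0 N` the function `E f ∣[-n] g - E f` is a polynomial of degree `≤ n`
              (the period polynomial of `f` at `g`);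
* `hecke_T`, `hecke_U` : `E (T_p f) = p^(n+1) • heckeT (-n) p (E f)` and likewise for `U_p`;
* `sep`     : if all period polynomials of `f` vanish then `f = 0`.

The analytic part must produce `Nonempty (EichlerData N n)` for all `N ≠ 0`, `n`.
The algebraic part proves `Module.Finite ℤ (CuspForm.heckeAlgebra N (n + 2) S)` from it.
-/

set_option autoImplicit false

namespace Fermat.Agent.S22

open scoped MatrixGroups ModularForm
open UpperHalfPlane Matrix.SpecialLinearGroup

structure EichlerData (N : ℕ) [NeZero N] (n : ℕ) where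
  E : CuspForm (CongruenceSubgroup.Gamma0 N) ((n : ℤ) + 2) →ₗ[ℂ] (ℍ → ℂ)
  poly : ∀ (f : CuspForm (CongruenceSubgroup.Gamma0 N) ((n : ℤ) + 2)) (g : SL(2, ℤ)),
    g ∈ CongruenceSubgroup.Gamma0 N →
      ∃ P : Polynomial ℂ, P.natDegree ≤ n ∧
        ∀ z : ℍ, ((E f) ∣[-(n : ℤ)] (mapGL ℝ g)) z - E f z = P.eval (z : ℂ)
  hecke_T : ∀ (p : ℕ) (hp : p.Prime) (hpN : ¬ p ∣ N)
    (f : CuspForm (CongruenceSubgroup.Gamma0 N) ((n : ℤ) + 2)),
      E (CuspForm.heckeTLin ((n : ℤ) + 2) hp hpN f) =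
        ((p : ℂ) ^ (n + 1)) • ModularForm.heckeT (-(n : ℤ)) p (E f)
  hecke_U : ∀ (p : ℕ) (_hp : p.Prime) (hpN : p ∣ N)
    (f : CuspForm (CongruenceSubgroup.Gamma0 N) ((n : ℤ) + 2)),
      E (CuspForm.heckeULin ((n : ℤ) + 2) hpN f) =
        ((p : ℂ) ^ (n + 1)) • ModularForm.heckeU (-(n : ℤ)) p (E f)
  sep : ∀ f : CuspForm (CongruenceSubgroup.Gamma0 N) ((n : ℤ) + 2),
    (∀ g : SL(2, ℤ), g ∈ CongruenceSubgroup.Gamma0 N →
      (E f) ∣[-(n : ℤ)] (mapGL ℝ g) = E f) → f = 0

end Fermat.Agent.S22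

end
-- ==== END Fermat.Agent.S22.Interface

-- ==== BEGIN Fermat.Agent.S22.PolySlash
section

/-!
# S22: the integral weight `-n` action of integer matrices on polynomials of degree `≤ n`
-/

set_option autoImplicit false

namespace Fermat.Agent.S22

open Polynomial
open scoped MatrixGroups ModularForm
open UpperHalfPlane Matrix.SpecialLinearGroup

/-- the integer polynomial `(aX+b)^m (cX+d)^(n-m)` -/
noncomputable def basisPoly (n : ℕ) (a b c d : ℤ) (m : ℕ) : ℤ[X] :=
  (C a * X + C b) ^ m * (C c * X + C d) ^ (n - m)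

/-- `P ↦ (cX+d)^n P((aX+b)/(cX+d))` on polynomials of degree `≤ n` (only the coefficients of
index `≤ n` of `P` are used). -/
noncomputable def polySlash (n : ℕ) (a b c d : ℤ) : ℂ[X] →ₗ[ℂ] ℂ[X] :=
  ∑ m ∈ Finset.range (n + 1),
    LinearMap.smulRight (Polynomial.lcoeff ℂ m) ((basisPoly n a b c d m).map (Int.castRingHom ℂ))

theorem polySlash_apply (n : ℕ) (a b c d : ℤ) (P : ℂ[X]) :
    polySlash n a b c d P =
      ∑ m ∈ Finset.range (n + 1), P.coeff m • (basisPoly n a b c d m).map (Int.castRingHom ℂ) := by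
  simp [polySlash, LinearMap.sum_apply]

theorem coeff_polySlash (n : ℕ) (a b c d : ℤ) (P : ℂ[X]) (j : ℕ) :
    (polySlash n a b c d P).coeff j =
      ∑ m ∈ Finset.range (n + 1), ((basisPoly n a b c d m).coeff j : ℤ) • P.coeff m := by
  rw [polySlash_apply, Polynomial.finsetSum_coeff]
  refine Finset.sum_congr rfl fun m _ => ?_
  rw [Polynomial.coeff_smul, Polynomial.coeff_map, smul_eq_mul, zsmul_eq_mul, mul_comm]
  simp

theorem eval_polySlash (n : ℕ) (a b c d : ℤ) (P : ℂ[X]) (hP : P.natDegree ≤ n) (z : ℂ)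
    (hz : (c : ℂ) * z + d ≠ 0) :
    (polySlash n a b c d P).eval z =
      ((c : ℂ) * z + d) ^ n * P.eval (((a : ℂ) * z + b) / ((c : ℂ) * z + d)) := by
  rw [polySlash_apply, Polynomial.eval_finsetSum,
    Polynomial.eval_eq_sum_range' (Nat.lt_succ_of_le hP), Finset.mul_sum]
  refine Finset.sum_congr rfl fun m hm => ?_
  have hm' : m ≤ n := Nat.lt_succ_iff.mp (Finset.mem_range.mp hm)
  rw [Polynomial.eval_smul, smul_eq_mul, Polynomial.eval_map, basisPoly]
  simp only [Polynomial.eval₂_mul, Polynomial.eval₂_pow, Polynomial.eval₂_add, Polynomial.eval₂_C,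
    Polynomial.eval₂_X]
  simp only [eq_intCast]
  have : ((c : ℂ) * z + d) ^ n = ((c : ℂ) * z + d) ^ m * ((c : ℂ) * z + d) ^ (n - m) := by
    rw [← pow_add, Nat.add_sub_cancel' hm']
  have hz' : ((c : ℂ) * z + d) ^ m ≠ 0 := pow_ne_zero _ hz
  rw [this, div_pow]
  have h : ((a : ℂ) * z + b) ^ m / ((c : ℂ) * z + d) ^ m * ((c : ℂ) * z + d) ^ m =
      ((a : ℂ) * z + b) ^ m := div_mul_cancel₀ _ hz'
  calc P.coeff m * (((a : ℂ) * z + b) ^ m * ((c : ℂ) * z + d) ^ (n - m))
      = P.coeff m * ((((a : ℂ) * z + b) ^ m / ((c : ℂ) * z + d) ^ m * ((c : ℂ) * z + d) ^ m) *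
          ((c : ℂ) * z + d) ^ (n - m)) := by rw [h]
    _ = _ := by ring

/-- polynomial functions on the upper half plane -/
noncomputable def polyFun (P : ℂ[X]) : ℍ → ℂ := fun z => P.eval (z : ℂ)

theorem polyFun_apply (P : ℂ[X]) (z : ℍ) : polyFun P z = P.eval (z : ℂ) := rfl

theorem polyFun_injective : Function.Injective polyFun := by
  intro P Q h
  apply Polynomial.eq_of_infinite_eval_eq
  have hsub : Set.range (fun z : ℍ => (z : ℂ)) ⊆ {x | eval x P = eval x Q} := by
    rintro _ ⟨z, rfl⟩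
    exact congrFun h z
  refine Set.Infinite.mono hsub ?_
  apply Set.infinite_range_of_injective
  intro z w hzw
  exact UpperHalfPlane.ext hzw

theorem polyFun_add (P Q : ℂ[X]) : polyFun (P + Q) = polyFun P + polyFun Q := by
  ext z; simp [polyFun]

theorem polyFun_sub (P Q : ℂ[X]) : polyFun (P - Q) = polyFun P - polyFun Q := by
  ext z; simp [polyFun]

theorem polyFun_smul (c : ℂ) (P : ℂ[X]) : polyFun (c • P) = c • polyFun P := by
  ext z; simp [polyFun]

theorem polyFun_zero : polyFun 0 = 0 := by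
  ext z; simp [polyFun]

theorem polyFun_sum {ι : Type*} (s : Finset ι) (P : ι → ℂ[X]) :
    polyFun (∑ i ∈ s, P i) = ∑ i ∈ s, polyFun (P i) := by
  ext z; simp [polyFun, Polynomial.eval_finsetSum]

end Fermat.Agent.S22

end
-- ==== END Fermat.Agent.S22.PolySlash

-- ==== BEGIN Fermat.Agent.S23.H22_LevelRaiseExp
section

/-!
# The `q`-expansion of `F ∣[k] α_N` (helper22, part of the S23 development)
-/

set_option autoImplicit false
set_option linter.unusedSectionVars false

open UpperHalfPlane ModularForm Polynomial SlashInvariantForm EisensteinSeries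
open scoped MatrixGroups ModularForm Manifold

noncomputable section

namespace Fermat.Agent.S23.H22

variable (N : ℕ) [NeZero N]

lemma nice_G0 {k : ℤ} {F : Type*} [FunLike F ℍ ℂ] [ModularFormClass F (G0 N) k] (f : F) :
    Nice 1 (f : ℍ → ℂ) :=
  nice_of_modularForm f one_pos (CongruenceSubgroup.one_mem_strictPeriods_Gamma0 N)

/-- The coefficients of the `q`-expansion of the level raise `F ∣[k] α_N`. -/
theorem qExpansion_levelRaise_coeff {k : ℤ} {F : Type*} [FunLike F ℍ ℂ]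
    [ModularFormClass F 𝒮ℒ k] (f : F) (n : ℕ) :
    (qExpansion 1 (levelRaise N f)).coeff n =
      if N ∣ n then (N : ℂ) ^ (k - 1) * (qExpansion 1 f).coeff (n / N) else 0 := by
  have hN : N ≠ 0 := NeZero.ne N
  have hf := nice_levelOne f
  have hT : Nice 1 (heckeT k N f) :=
    ⟨periodic_heckeT_comp_ofComplex hf.per k N, mdifferentiable_heckeT hf.hol k N,
      isBoundedAtImInfty_heckeT hf.bdd k N⟩
  have hU : Nice 1 (heckeU k N f) :=
    ⟨periodic_heckeU_comp_ofComplex hf.per k N, mdifferentiable_heckeU hf.hol k N,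
      isBoundedAtImInfty_heckeU hf.bdd k N⟩
  have heq : (levelRaise N f : ℍ → ℂ) = heckeT k N f - heckeU k N f := by
    rw [levelRaise_coe, heckeT_eq_heckeU_add]; simp
  rw [heq, Nice.qExpansion_sub one_pos hT hU, map_sub]
  have h1 := UpperHalfPlane.qCoeff_heckeT hf.per hf.hol hf.bdd k hN n
  have h2 := UpperHalfPlane.qCoeff_heckeU hf.per hf.hol hf.bdd k hN n
  unfold ModularFormClass.qCoeff at h1 h2
  rw [h1, h2, coeffHeckeT_eq_coeffHeckeU_add]
  simp

/-- If `F` has integral `q`-expansion, so has its level raise. -/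
theorem qExpansion_levelRaise_mem_intSeries {k : ℤ} (hk : 1 ≤ k) {F : Type*} [FunLike F ℍ ℂ]
    [ModularFormClass F 𝒮ℒ k] (f : F) (hf : qExpansion 1 f ∈ H96.intSeries) :
    qExpansion 1 (levelRaise N f) ∈ H96.intSeries := by
  rw [H96.mem_intSeries_iff] at hf ⊢
  intro n
  rw [qExpansion_levelRaise_coeff]
  split_ifs with h
  · obtain ⟨m, hm⟩ := hf (n / N)
    refine ⟨(N : ℤ) ^ (k - 1).toNat * m, ?_⟩
    rw [hm]
    push_cast
    congr 1
    rw [← zpow_natCast]
    congr 1
    omega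
  · exact ⟨0, by simp⟩

lemma qExpansion_E12_mem_intSeries : qExpansion 1 E12 ∈ H96.intSeries := by
  have h : qExpansion 1 E12 = qExpansion 1 E₄ * qExpansion 1 E₄ * qExpansion 1 E₄ := by
    have h1 : (E12 : ℍ → ℂ) = ((E₄.mul E₄).mul E₄ : ModularForm 𝒮ℒ (4 + 4 + 4)) := rfl
    rw [h1, ModularForm.qExpansion_mul one_pos one_mem_strictPeriods_SL,
      ModularForm.qExpansion_mul one_pos one_mem_strictPeriods_SL]
  rw [h]
  exact mul_mem (mul_mem H96.qExpansion_E₄_mem_intSeries H96.qExpansion_E₄_mem_intSeries)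
    H96.qExpansion_E₄_mem_intSeries

lemma qExpansion_eN_mem_intSeries : qExpansion 1 (eN N) ∈ H96.intSeries :=
  qExpansion_levelRaise_mem_intSeries N (by norm_num) E12 qExpansion_E12_mem_intSeries

lemma qExpansion_deltaN_mem_intSeries : qExpansion 1 (deltaN N) ∈ H96.intSeries :=
  qExpansion_levelRaise_mem_intSeries N (by norm_num) CuspForm.discriminant
    H96.qExpansion_discriminant_mem_intSeries

end Fermat.Agent.S23.H22

end
end
-- ==== END Fermat.Agent.S23.H22_LevelRaiseExp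

-- ==== BEGIN Fermat.Agent.S23.H77_Fix
section

/-!
# P1 (FIX): a complex number fixed by every ring endomorphism of `ℂ` is rational.
-/

set_option autoImplicit false

namespace Fermat.Agent.S23.H77

open MvPolynomial

/-- CORE: a ring automorphism of the polynomial ring on a transcendence basis extends to `ℂ`. -/
theorem exists_ringEquiv_of_mvPolynomial_equiv {K₀ : Type} [Field K₀] [Algebra K₀ ℂ]
    {ι : Type} (v : ι → ℂ) (hv : IsTranscendenceBasis K₀ v)
    (e : MvPolynomial ι K₀ ≃+* MvPolynomial ι K₀) :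
    ∃ σ : ℂ ≃+* ℂ, ∀ p : MvPolynomial ι K₀,
      σ (MvPolynomial.aeval v p) = MvPolynomial.aeval v (e p) := by
  classical
  let _ := IsAlgClosed.isAlgClosure_of_transcendence_basis v hv
  let a := hv.1.aevalEquiv
  let e' : Algebra.adjoin K₀ (Set.range v) ≃+* Algebra.adjoin K₀ (Set.range v) :=
    a.symm.toRingEquiv.trans (e.trans a.toRingEquiv)
  refine ⟨IsAlgClosure.equivOfEquiv ℂ ℂ e', fun p => ?_⟩
  have h1 : ∀ q : MvPolynomial ι K₀,
      MvPolynomial.aeval v q = algebraMap (Algebra.adjoin K₀ (Set.range v)) ℂ (a q) := by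
    intro q
    exact (hv.1.algebraMap_aevalEquiv q).symm
  rw [h1 p, IsAlgClosure.equivOfEquiv_algebraMap, h1 (e p)]
  congr 1
  simp [e']

/-- The "shift one variable" automorphism of a polynomial ring. -/
noncomputable def shiftEquiv {ι : Type} [DecidableEq ι] (i₀ : ι) :
    MvPolynomial ι ℚ ≃ₐ[ℚ] MvPolynomial ι ℚ :=
  AlgEquiv.ofAlgHom
    (MvPolynomial.aeval fun i => if i = i₀ then (X i + 1 : MvPolynomial ι ℚ) else X i)
    (MvPolynomial.aeval fun i => if i = i₀ then (X i - 1 : MvPolynomial ι ℚ) else X i)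
    (by
      ext i
      by_cases h : i = i₀ <;> simp [h])
    (by
      ext i
      by_cases h : i = i₀ <;> simp [h])

theorem shiftEquiv_X {ι : Type} [DecidableEq ι] (i₀ : ι) :
    shiftEquiv i₀ (X i₀) = X i₀ + 1 := by
  simp [shiftEquiv]

/-- Transcendental case. -/
theorem exists_ringEquiv_ne_of_transcendental {x : ℂ} (hx : Transcendental ℚ x) :
    ∃ σ : ℂ ≃+* ℂ, σ x ≠ x := by
  classical
  have hs : AlgebraicIndepOn ℚ id ({x} : Set ℂ) := by
    have : AlgebraicIndependent ℚ (fun i : ({x} : Set ℂ) => (i : ℂ)) := by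
      rw [algebraicIndependent_unique_type_iff]
      simpa using hx
    exact this
  obtain ⟨t, hst, ht⟩ := exists_isTranscendenceBasis_superset hs
  let i₀ : t := ⟨x, hst rfl⟩
  obtain ⟨σ, hσ⟩ := exists_ringEquiv_of_mvPolynomial_equiv (K₀ := ℚ) _ ht
    (shiftEquiv i₀).toRingEquiv
  refine ⟨σ, ?_⟩
  have h := hσ (X i₀)
  have h2 : (shiftEquiv i₀).toRingEquiv (X i₀) = X i₀ + 1 := shiftEquiv_X i₀
  rw [h2] at h
  simp only [aeval_X, map_add, map_one] at h
  intro hfix
  have hx' : ((i₀ : t) : ℂ) = x := rfl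
  rw [hx'] at h
  rw [hfix] at h
  simp at h

/-- Algebraic case. -/
theorem exists_ringEquiv_ne_of_isAlgebraic {x : ℂ} (hx : IsAlgebraic ℚ x)
    (hq : ∀ r : ℚ, x ≠ (r : ℂ)) : ∃ σ : ℂ ≃+* ℂ, σ x ≠ x := by
  classical
  let K₀ := algebraicClosure ℚ ℂ
  have hxK : x ∈ K₀ := (mem_algebraicClosure_iff).2 hx
  let x' : K₀ := ⟨x, hxK⟩
  have hnr : x' ∉ Set.range (algebraMap ℚ K₀) := by
    rintro ⟨r, hr⟩
    apply hq r
    have := congrArg (Subtype.val) hr
    simpa [x'] using this.symm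
  have hcl : IsAlgClosure ℚ (algebraicClosure ℚ ℂ) := algebraicClosure.isAlgClosure ℚ ℂ
  have hgal : IsGalois ℚ (algebraicClosure ℚ ℂ) :=
    IsAlgClosure.isGalois ℚ (algebraicClosure ℚ ℂ)
  have hnr' : ¬ ∀ f : Gal((algebraicClosure ℚ ℂ)/ℚ), f x' = x' := fun hall =>
    hnr ((InfiniteGalois.mem_range_algebraMap_iff_fixed x').2 hall)
  obtain ⟨τ, hτ⟩ := not_forall.1 hnr'
  obtain ⟨s, hs⟩ := exists_isTranscendenceBasis K₀ ℂ
  obtain ⟨σ, hσ⟩ := exists_ringEquiv_of_mvPolynomial_equiv (K₀ := K₀) _ hs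
    (MvPolynomial.mapEquiv s τ.toRingEquiv)
  refine ⟨σ, ?_⟩
  have h := hσ (C x')
  have h3 : (MvPolynomial.mapEquiv s τ.toRingEquiv) (C x') = C (τ x') := by
    simp
  rw [h3] at h
  simp only [aeval_C] at h
  have h4 : algebraMap K₀ ℂ x' = x := rfl
  rw [h4] at h
  rw [h]
  intro hcon
  apply hτ
  apply Subtype.ext
  exact hcon

/-- **P1 (FIX)**: a complex number fixed by every ring endomorphism of `ℂ` is rational. -/
theorem exists_rat_of_forall_ringHom_fixed (x : ℂ) (h : ∀ σ : ℂ →+* ℂ, σ x = x) :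
    ∃ r : ℚ, x = (r : ℂ) := by
  by_contra hcon
  have hcon : ∀ r : ℚ, x ≠ (r : ℂ) := fun r hr => hcon ⟨r, hr⟩
  by_cases hx : IsAlgebraic ℚ x
  · obtain ⟨σ, hσ⟩ := exists_ringEquiv_ne_of_isAlgebraic hx hcon
    exact hσ (h σ.toRingHom)
  · obtain ⟨σ, hσ⟩ := exists_ringEquiv_ne_of_transcendental hx
    exact hσ (h σ.toRingHom)

end Fermat.Agent.S23.H77

end
-- ==== END Fermat.Agent.S23.H77_Fix

-- ==== BEGIN Fermat.Agent.S24.An.Hol
section

/-!
# S24, analytic side: the ring `Hol` of holomorphic functions on `ℍ`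

* `Hol` : the `ℂ`-subalgebra of `ℍ → ℂ` of holomorphic functions, an integral domain.
* the action of `SL(2, ℤ)` on `Hol` by `(γ • f) τ = f (γ⁻¹ • τ)`.
* `Hol.ordVal τ` : the valuation "order of vanishing at `τ`" on `Hol`.

All proofs complete (helper1); signatures as in helper23's skeleton. Extra lemmas:
`Hol.analyticOrderAt_ne_top`, `Hol.cast_ordNat`, `Hol.ordNat_add_ge`, `Hol.ordNat_smul`,
`Hol.comp_ofComplex_apply`.
-/

set_option autoImplicit false

noncomputable section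

namespace Fermat.Agent.S24

open UpperHalfPlane WithZero
open scoped MatrixGroups Manifold

/-- The `ℂ`-algebra of holomorphic functions on the upper half plane. -/
def Hol : Subalgebra ℂ (ℍ → ℂ) where
  carrier := {f | MDifferentiable 𝓘(ℂ) 𝓘(ℂ) f}
  mul_mem' := fun {f g} hf hg => MDifferentiable.mul hf hg
  add_mem' := fun {f g} hf hg => MDifferentiable.add hf hg
  algebraMap_mem' := fun c => by
    show MDifferentiable 𝓘(ℂ) 𝓘(ℂ) (fun _ : ℍ => c)
    exact mdifferentiable_const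

namespace Hol

theorem mem_iff {f : ℍ → ℂ} : f ∈ Hol ↔ MDifferentiable 𝓘(ℂ) 𝓘(ℂ) f := Iff.rfl

theorem mdifferentiable (f : Hol) : MDifferentiable 𝓘(ℂ) 𝓘(ℂ) (f : ℍ → ℂ) := f.2

theorem differentiableOn (f : Hol) :
    DifferentiableOn ℂ ((f : ℍ → ℂ) ∘ ofComplex) upperHalfPlaneSet :=
  UpperHalfPlane.mdifferentiable_iff.mp f.2

theorem analyticAt (f : Hol) (τ : ℍ) : AnalyticAt ℂ ((f : ℍ → ℂ) ∘ ofComplex) (τ : ℂ) :=
  ((Hol.differentiableOn f).analyticOnNhd isOpen_upperHalfPlaneSet) τ τ.im_pos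

/-- Identity theorem: `Hol` has no zero divisors. -/
instance : IsDomain Hol := by
  have : Nontrivial Hol := ⟨⟨0, 1, fun h => by
    have := congrArg (fun f : Hol => (f : ℍ → ℂ) UpperHalfPlane.I) h
    simp at this⟩⟩
  have : NoZeroDivisors Hol := ⟨fun {f g} h => by
    have h' : (f : ℍ → ℂ) * (g : ℍ → ℂ) = 0 := by
      have := congrArg (fun f : Hol => (f : ℍ → ℂ)) h
      simpa using this
    rcases (UpperHalfPlane.mul_eq_zero_iff f.2 g.2).mp h' with h1 | h1
    · exact Or.inl (Subtype.ext h1)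
    · exact Or.inr (Subtype.ext h1)⟩
  exact NoZeroDivisors.to_isDomain _

theorem smul_mem_aux (γ : SL(2, ℤ)) (f : Hol) :
    (fun τ : ℍ => (f : ℍ → ℂ) (γ⁻¹ • τ)) ∈ Hol := by
  have h : MDifferentiable 𝓘(ℂ) 𝓘(ℂ) (fun τ : ℍ => ((γ⁻¹ : SL(2, ℤ)) : GL (Fin 2) ℝ) • τ) :=
    UpperHalfPlane.mdifferentiable_smul (by simp)
  exact f.2.comp h

/-- `SL(2, ℤ)` acts on `Hol` by `(γ • f) τ = f (γ⁻¹ • τ)`. -/
instance : MulSemiringAction SL(2, ℤ) Hol where
  smul γ f := ⟨fun τ => (f : ℍ → ℂ) (γ⁻¹ • τ), smul_mem_aux γ f⟩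
  one_smul f := by
    apply Subtype.ext
    funext τ
    show (f : ℍ → ℂ) ((1 : SL(2, ℤ))⁻¹ • τ) = (f : ℍ → ℂ) τ
    rw [inv_one, one_smul]
  mul_smul γ δ f := by
    apply Subtype.ext
    funext τ
    show (f : ℍ → ℂ) ((γ * δ)⁻¹ • τ) = (f : ℍ → ℂ) (δ⁻¹ • (γ⁻¹ • τ))
    rw [mul_inv_rev, mul_smul]
  smul_zero γ := by
    apply Subtype.ext
    funext τ
    rfl
  smul_add γ f g := by
    apply Subtype.ext
    funext τ
    rfl
  smul_one γ := by
    apply Subtype.ext
    funext τ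
    rfl
  smul_mul γ f g := by
    apply Subtype.ext
    funext τ
    rfl

@[simp] theorem smul_apply (γ : SL(2, ℤ)) (f : Hol) (τ : ℍ) :
    ((γ • f : Hol) : ℍ → ℂ) τ = (f : ℍ → ℂ) (γ⁻¹ • τ) := rfl

instance : SMulCommClass SL(2, ℤ) ℂ Hol := ⟨fun γ c f => by
  apply Subtype.ext
  funext τ
  rfl⟩

/-! ### Orders of vanishing -/

theorem coe_mul_comp (f g : Hol) :
    ((f * g : Hol) : ℍ → ℂ) ∘ ofComplex
      = ((f : ℍ → ℂ) ∘ ofComplex) * ((g : ℍ → ℂ) ∘ ofComplex) := rfl

theorem coe_add_comp (f g : Hol) :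
    ((f + g : Hol) : ℍ → ℂ) ∘ ofComplex
      = ((f : ℍ → ℂ) ∘ ofComplex) + ((g : ℍ → ℂ) ∘ ofComplex) := rfl

theorem coe_pow_comp (f : Hol) (n : ℕ) :
    ((f ^ n : Hol) : ℍ → ℂ) ∘ ofComplex = ((f : ℍ → ℂ) ∘ ofComplex) ^ n := rfl

theorem comp_ofComplex_apply (f : Hol) (τ : ℍ) :
    ((f : ℍ → ℂ) ∘ ofComplex) (τ : ℂ) = (f : ℍ → ℂ) τ := by
  rw [Function.comp_apply, ofComplex_apply]

/-- A nonzero holomorphic function has finite order of vanishing everywhere. -/
theorem analyticOrderAt_ne_top (τ : ℍ) {f : Hol} (hf : f ≠ 0) :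
    analyticOrderAt ((f : ℍ → ℂ) ∘ ofComplex) (τ : ℂ) ≠ ⊤ := by
  intro h
  rw [analyticOrderAt_eq_top] at h
  apply hf
  have han := (Hol.differentiableOn f).analyticOnNhd isOpen_upperHalfPlaneSet
  have hpre : IsPreconnected upperHalfPlaneSet :=
    (Complex.isConnected_of_upperHalfPlane subset_rfl (by grind)).isPreconnected
  have h0 := han.eqOn_zero_of_preconnected_of_eventuallyEq_zero hpre τ.im_pos h
  apply Subtype.ext
  funext z
  have h1 := h0 z.im_pos
  rw [comp_ofComplex_apply] at h1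
  simpa using h1

/-- The order of vanishing at `τ`, as a natural number (`0` for the zero function). -/
def ordNat (τ : ℍ) (f : Hol) : ℕ := (analyticOrderAt ((f : ℍ → ℂ) ∘ ofComplex) (τ : ℂ)).toNat

theorem cast_ordNat (τ : ℍ) {f : Hol} (hf : f ≠ 0) :
    ((ordNat τ f : ℕ) : ℕ∞) = analyticOrderAt ((f : ℍ → ℂ) ∘ ofComplex) (τ : ℂ) :=
  ENat.natCast_toNat (analyticOrderAt_ne_top τ hf)

theorem ordNat_mul (τ : ℍ) {f g : Hol} (hf : f ≠ 0) (hg : g ≠ 0) :
    ordNat τ (f * g) = ordNat τ f + ordNat τ g := by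
  have h := analyticOrderAt_mul (Hol.analyticAt f τ) (Hol.analyticAt g τ)
  rw [← coe_mul_comp, ← cast_ordNat τ hf, ← cast_ordNat τ hg,
    ← cast_ordNat τ (mul_ne_zero hf hg)] at h
  exact_mod_cast h

theorem ordNat_pow (τ : ℍ) {f : Hol} (hf : f ≠ 0) (n : ℕ) :
    ordNat τ (f ^ n) = n * ordNat τ f := by
  induction n with
  | zero =>
    rw [pow_zero, zero_mul]
    have h1 := (Hol.analyticAt 1 τ).analyticOrderAt_eq_zero.mpr (by
      rw [comp_ofComplex_apply]
      exact one_ne_zero)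
    unfold ordNat
    rw [h1]
    rfl
  | succ n ih =>
    rw [pow_succ, ordNat_mul τ (pow_ne_zero n hf) hf, ih]
    ring

theorem ordNat_eq_zero_iff (τ : ℍ) {f : Hol} (hf : f ≠ 0) :
    ordNat τ f = 0 ↔ (f : ℍ → ℂ) τ ≠ 0 := by
  have h := (Hol.analyticAt f τ).analyticOrderAt_eq_zero
  rw [comp_ofComplex_apply, ← cast_ordNat τ hf] at h
  rw [← h]
  exact_mod_cast Iff.rfl

/-- If `f τ = 0` and the derivative of `f` at `τ` does not vanish, the order is one. -/
theorem ordNat_eq_one (τ : ℍ) (f : Hol) (h0 : (f : ℍ → ℂ) τ = 0)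
    (h1 : deriv ((f : ℍ → ℂ) ∘ ofComplex) (τ : ℂ) ≠ 0) : ordNat τ f = 1 := by
  have h := (Hol.analyticAt f τ).analyticOrderAt_eq_one_of_zero_deriv_ne_zero
    (by rw [comp_ofComplex_apply]; exact h0) h1
  simp [ordNat, h]

theorem ordNat_add_ge (τ : ℍ) {f g : Hol} (hf : f ≠ 0) (hg : g ≠ 0) (hfg : f + g ≠ 0) :
    min (ordNat τ f) (ordNat τ g) ≤ ordNat τ (f + g) := by
  have h := le_analyticOrderAt_add (f := (f : ℍ → ℂ) ∘ ofComplex)
    (g := (g : ℍ → ℂ) ∘ ofComplex) (z₀ := (τ : ℂ))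
  rw [← coe_add_comp, ← cast_ordNat τ hf, ← cast_ordNat τ hg, ← cast_ordNat τ hfg] at h
  rcases min_le_iff.mp h with h1 | h1
  · exact min_le_iff.mpr (Or.inl (by exact_mod_cast h1))
  · exact min_le_iff.mpr (Or.inr (by exact_mod_cast h1))

theorem ordNat_smul (τ : ℍ) (γ : SL(2, ℤ)) (f : Hol) :
    ordNat τ (γ • f) = ordNat (γ⁻¹ • τ) f := by
  unfold ordNat
  congr 1
  have hdet : (0 : ℝ) < (((γ⁻¹ : SL(2, ℤ)) : GL (Fin 2) ℝ)).val.det := by
    have h := Matrix.SpecialLinearGroup.det_mapGL (S := ℝ) (γ⁻¹ : SL(2, ℤ))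
    have h2 : (((γ⁻¹ : SL(2, ℤ)) : GL (Fin 2) ℝ)).val.det
        = ((Matrix.SpecialLinearGroup.mapGL ℝ (γ⁻¹ : SL(2, ℤ))).det : ℝˣ).val := rfl
    rw [h2, h]
    simp
  have hG := UpperHalfPlane.analyticAt_smul hdet τ
  have hG' := UpperHalfPlane.deriv_smul_ne_zero hdet τ
  have h := analyticOrderAt_comp_of_deriv_ne_zero (f := (f : ℍ → ℂ) ∘ ofComplex) hG hG'
  have e1 : (((γ • f : Hol) : ℍ → ℂ) ∘ ofComplex)
      = ((f : ℍ → ℂ) ∘ ofComplex) ∘
          (fun z : ℂ => ((((γ⁻¹ : SL(2, ℤ)) : GL (Fin 2) ℝ) • ofComplex z : ℍ) : ℂ)) := by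
    funext z
    simp only [Function.comp_apply, smul_apply, ofComplex_apply]
    rfl
  rw [e1, h]
  simp only [ofComplex_apply]
  rfl

open scoped Classical in
/-- The valuation "order of vanishing at `τ`" on `Hol`: `f ↦ exp (-(ord_τ f))`, `0 ↦ 0`. -/
def ordVal (τ : ℍ) : Valuation Hol ℤᵐ⁰ where
  toFun f := if f = 0 then 0 else exp (-(ordNat τ f : ℤ))
  map_zero' := by simp
  map_one' := by
    have h := ordNat_pow τ (one_ne_zero : (1 : Hol) ≠ 0) 0
    rw [pow_zero, zero_mul] at h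
    simp [h]
  map_mul' f g := by
    by_cases hf : f = 0
    · simp [hf]
    by_cases hg : g = 0
    · simp [hg]
    simp only [hf, hg, mul_ne_zero hf hg, if_false, ordNat_mul τ hf hg, ← exp_add]
    congr 1
    push_cast
    ring
  map_add_le_max' f g := by
    by_cases hf : f = 0
    · simp [hf]
    by_cases hg : g = 0
    · simp [hg]
    by_cases hfg : f + g = 0
    · simp [hfg]
    simp only [hf, hg, hfg, if_false, le_max_iff, exp_le_exp, neg_le_neg_iff, Nat.cast_le]
    have h := ordNat_add_ge τ hf hg hfg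
    rcases min_le_iff.mp h with h | h
    · exact Or.inl h
    · exact Or.inr h

open scoped Classical in
theorem ordVal_apply (τ : ℍ) {f : Hol} (hf : f ≠ 0) :
    ordVal τ f = exp (-(ordNat τ f : ℤ)) := by
  show (if f = 0 then 0 else exp (-(ordNat τ f : ℤ))) = _
  rw [if_neg hf]

theorem ordVal_le_one (τ : ℍ) (f : Hol) : ordVal τ f ≤ 1 := by
  by_cases hf : f = 0
  · simp [hf]
  rw [ordVal_apply τ hf, ← exp_zero, exp_le_exp]
  simp

theorem ordVal_lt_one_iff (τ : ℍ) (f : Hol) : ordVal τ f < 1 ↔ (f : ℍ → ℂ) τ = 0 := by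
  by_cases hf : f = 0
  · simp [hf]
  rw [ordVal_apply τ hf, ← exp_zero, exp_lt_exp]
  have h := ordNat_eq_zero_iff τ hf
  constructor
  · intro h1
    by_contra h2
    have := h.mpr h2
    omega
  · intro h1
    have : ordNat τ f ≠ 0 := fun h2 => (h.mp h2) h1
    omega

theorem ordVal_algebraMap (τ : ℍ) {c : ℂ} (hc : c ≠ 0) : ordVal τ (algebraMap ℂ Hol c) = 1 := by
  have hne : algebraMap ℂ Hol c ≠ 0 := by
    rw [Ne, map_eq_zero_iff _ (algebraMap ℂ Hol).injective]
    exact hc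
  have h0 : ordNat τ (algebraMap ℂ Hol c) = 0 := by
    rw [ordNat_eq_zero_iff τ hne]
    exact hc
  rw [ordVal_apply τ hne, h0]
  simp

/-- equivariance: `ord_τ (γ • f) = ord_{γ⁻¹ τ} f`. -/
theorem ordVal_smul (τ : ℍ) (γ : SL(2, ℤ)) (f : Hol) :
    ordVal τ (γ • f) = ordVal (γ⁻¹ • τ) f := by
  by_cases hf : f = 0
  · simp [hf]
  have hγ : γ • f ≠ 0 := by
    intro h
    apply hf
    have := congrArg (fun g => γ⁻¹ • g) h
    simpa using this
  rw [ordVal_apply τ hγ, ordVal_apply _ hf, ordNat_smul]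

end Hol

end Fermat.Agent.S24

end
end
-- ==== END Fermat.Agent.S24.An.Hol

-- ==== BEGIN Fermat.Agent.S24.FF.Dict
section

/-!
# Dictionary: places of `F/K` containing a Dedekind domain `B` with fraction field `F`
  correspond to height-one primes of `B`.
-/

set_option autoImplicit false

noncomputable section

open IsDedekindDomain WithZero IsLocalRing

namespace Fermat.Agent.S24

open AlgebraicCurve

section Dict

variable {K F : Type*} [Field K] [Field F] [Algebra K F]
variable {B : Type*} [CommRing B] [IsDedekindDomain B] [Algebra B F] [IsFractionRing B F]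

/-- If the valuation ring of the place `v` is the valuation ring of `w`, then `v.ord` is the
`w`-adic valuation. -/
theorem ord_eq_of_valuationSubring_eq (v : Place K F) (w : HeightOneSpectrum B)
    (hv : v.toValuationSubring = (w.valuation F).valuationSubring) {f : F} (hf : f ≠ 0) :
    v.ord f = -(WithZero.log (w.valuation F f)) := by
  have hmem : ∀ x : F, x ∈ v.toValuationSubring ↔ w.valuation F x ≤ 1 := fun x => by
    rw [hv, Valuation.mem_valuationSubring_iff]
  obtain ⟨π, hπ⟩ := w.valuation_exists_uniformizer F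
  have hπ0 : π ≠ 0 := by
    rintro rfl
    rw [map_zero] at hπ
    exact exp_ne_zero hπ.symm
  have hπw : w.valuation F π < 1 := by
    rw [hπ]; exact (exp_lt_exp.mpr (by norm_num : (-1 : ℤ) < 0)).trans_eq exp_zero
  have hπmem : π ∈ v.toValuationSubring := (hmem π).mpr hπw.le
  set n : ℤ := -(WithZero.log (w.valuation F f)) with hn
  have hwf : w.valuation F f = exp (-n) := by
    rw [hn, neg_neg, exp_log ((Valuation.ne_zero_iff _).mpr hf)]
  set u : F := f * (π ^ n)⁻¹ with hu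
  have hwu : w.valuation F u = 1 := by
    rw [hu, map_mul, map_inv₀, map_zpow₀, hπ, hwf, ← exp_zsmul, smul_eq_mul, mul_neg, mul_one]
    exact mul_inv_cancel₀ (by simp)
  have hu0 : u ≠ 0 := by
    intro h
    rw [h, map_zero] at hwu
    exact zero_ne_one hwu
  have humem : u ∈ v.toValuationSubring := (hmem u).mpr hwu.le
  have huinv : u⁻¹ ∈ v.toValuationSubring := by
    rw [hmem, map_inv₀, hwu, inv_one]
  have hfu : f = u * π ^ n := by
    rw [hu, mul_assoc, inv_mul_cancel₀ (zpow_ne_zero n hπ0), mul_one]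
  let U : v.toValuationSubringˣ :=
    ⟨⟨u, humem⟩, ⟨u⁻¹, huinv⟩, Subtype.ext (mul_inv_cancel₀ hu0), Subtype.ext (inv_mul_cancel₀ hu0)⟩
  have hirr : Irreducible (⟨π, hπmem⟩ : v.toValuationSubring) := by
    obtain ⟨ϖ, hϖ⟩ := IsDiscreteValuationRing.exists_irreducible v.toValuationSubring
    have hϖ0 : (ϖ : F) ≠ 0 := by
      simpa [ne_eq, ZeroMemClass.coe_eq_zero] using hϖ.ne_zero
    have hϖw : w.valuation F (ϖ : F) < 1 := by
      by_contra hcon
      have h1 : w.valuation F (ϖ : F) = 1 := le_antisymm ((hmem _).mp ϖ.2) (not_lt.mp hcon)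
      have hinv : (ϖ : F)⁻¹ ∈ v.toValuationSubring := by
        rw [hmem, map_inv₀, h1, inv_one]
      have : IsUnit ϖ := by
        refine ⟨⟨ϖ, ⟨_, hinv⟩, Subtype.ext (mul_inv_cancel₀ hϖ0), Subtype.ext (inv_mul_cancel₀ hϖ0)⟩,
          rfl⟩
      exact hϖ.not_isUnit this
    have hle : w.valuation F (ϖ : F) ≤ w.valuation F π := by
      rw [hπ]
      have hne : w.valuation F (ϖ : F) ≠ 0 := (Valuation.ne_zero_iff _).mpr hϖ0
      rw [← exp_log hne] at hϖw ⊢
      rw [← exp_zero, exp_lt_exp] at hϖw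
      rw [exp_le_exp]
      omega
    have hdiv : (ϖ : F) * π⁻¹ ∈ v.toValuationSubring := by
      rw [hmem, map_mul, map_inv₀]
      exact mul_inv_le_one_of_le₀ hle zero_le
    have hπnu : ¬ IsUnit (⟨π, hπmem⟩ : v.toValuationSubring) := by
      rintro ⟨a, ha⟩
      have h1 : w.valuation F ((a⁻¹ : v.toValuationSubringˣ) : v.toValuationSubring) ≤ 1 :=
        (hmem _).mp ((a⁻¹ : v.toValuationSubringˣ) : v.toValuationSubring).2
      have h2 : (((a⁻¹ : v.toValuationSubringˣ) : v.toValuationSubring) : F) * π = 1 := by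
        have := congrArg (Subtype.val) (a.inv_mul)
        rw [ha] at this
        simpa using this
      have h3 := congrArg (w.valuation F) h2
      rw [map_mul, map_one] at h3
      have : w.valuation F π = 1 := by
        apply le_antisymm hπw.le
        calc (1 : ℤᵐ⁰) = _ * w.valuation F π := h3.symm
          _ ≤ 1 * w.valuation F π := by gcongr
          _ = w.valuation F π := one_mul _
      exact hπw.ne this
    have hprod : ϖ = ⟨(ϖ : F) * π⁻¹, hdiv⟩ * ⟨π, hπmem⟩ := by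
      ext
      simp [mul_assoc, inv_mul_cancel₀ hπ0]
    have hunit : IsUnit (⟨(ϖ : F) * π⁻¹, hdiv⟩ : v.toValuationSubring) :=
      (hϖ.isUnit_or_isUnit hprod).resolve_right hπnu
    have hassoc : Associated ϖ (⟨π, hπmem⟩ : v.toValuationSubring) := by
      obtain ⟨c, hc⟩ := hunit
      refine ⟨c⁻¹, ?_⟩
      rw [Units.mul_inv_eq_iff_eq_mul, hc, mul_comm]
      exact hprod
    exact hassoc.irreducible hϖ
  have key := v.ord_unit_smul_zpow U hirr n
  rw [hfu]
  exact key

theorem ord_ofHeightOneSpectrum [Algebra K B] [IsScalarTower K B F] (w : HeightOneSpectrum B)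
    {f : F} (hf : f ≠ 0) :
    (Place.ofHeightOneSpectrum (K := K) (F := F) w).ord f = -(WithZero.log (w.valuation F f)) :=
  ord_eq_of_valuationSubring_eq _ w rfl hf

/-- A place whose valuation ring contains `B` comes from a height one prime of `B`. -/
theorem exists_heightOneSpectrum_of_le (v : Place K F)
    (hB : ∀ b : B, algebraMap B F b ∈ v.toValuationSubring) :
    ∃ w : HeightOneSpectrum B, v.toValuationSubring = (w.valuation F).valuationSubring := by
  let φ : B →+* v.toValuationSubring :=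
    (algebraMap B F).codRestrict v.toValuationSubring.toSubring hB
  have hφ : ∀ b, ((φ b : v.toValuationSubring) : F) = algebraMap B F b := fun b => rfl
  let P : Ideal B := (IsLocalRing.maximalIdeal v.toValuationSubring).comap φ
  have hPprime : P.IsPrime := Ideal.comap_isPrime φ _
  have hPne : P ≠ ⊥ := by
    intro hbot
    -- every nonzero b is a unit of O_v, so O_v = ⊤
    apply v.ne_top'
    rw [eq_top_iff]
    intro x _
    obtain ⟨a, s, hs, rfl⟩ := IsFractionRing.div_surjective (A := B) x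
    have hs0 : s ≠ 0 := nonZeroDivisors.ne_zero hs
    have hsP : s ∉ P := by
      rw [hbot, Ideal.mem_bot]; exact hs0
    have hsu : IsUnit (φ s) := by
      by_contra hnu
      exact hsP ((IsLocalRing.mem_maximalIdeal _).mpr hnu)
    obtain ⟨c, hc⟩ := hsu
    have h1 : ((c : v.toValuationSubring) : F) = algebraMap B F s := by rw [hc, hφ]
    have h2 : ((c : v.toValuationSubring) : F)
        * (((c⁻¹ : v.toValuationSubringˣ) : v.toValuationSubring) : F) = 1 := by
      have := congrArg Subtype.val c.mul_inv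
      exact this
    have hinv : (algebraMap B F s)⁻¹ = ((c⁻¹ : v.toValuationSubringˣ) : v.toValuationSubring) := by
      rw [← h1]
      exact inv_eq_of_mul_eq_one_right h2
    rw [div_eq_mul_inv, hinv]
    exact v.toValuationSubring.mul_mem _ _ (hB a) (Subtype.mem _)
  let w : HeightOneSpectrum B := ⟨P, hPprime, hPne⟩
  refine ⟨w, ?_⟩
  have hle : (w.valuation F).valuationSubring ≤ v.toValuationSubring := by
    intro x hx
    rw [Valuation.mem_valuationSubring_iff] at hx
    obtain ⟨n, d, hnd⟩ := w.exists_primeCompl_mul_eq_of_integer x hx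
    have hdP : (d : B) ∉ P := d.2
    have hdu : IsUnit (φ d) := by
      by_contra hnu
      exact hdP ((IsLocalRing.mem_maximalIdeal _).mpr hnu)
    obtain ⟨c, hc⟩ := hdu
    have h1 : ((c : v.toValuationSubring) : F) = algebraMap B F d := by rw [hc, hφ]
    have h2 : ((c : v.toValuationSubring) : F)
        * (((c⁻¹ : v.toValuationSubringˣ) : v.toValuationSubring) : F) = 1 := by
      have := congrArg Subtype.val c.mul_inv
      exact this
    have hx' : x = algebraMap B F n * (((c⁻¹ : v.toValuationSubringˣ) : v.toValuationSubring) : F) := by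
      rw [← hnd, ← h1, mul_assoc, h2, mul_one]
    rw [hx']
    exact v.toValuationSubring.mul_mem _ _ (hB n) (Subtype.mem _)
  have hK : Ring.KrullDimLE 1 (w.valuation F).valuationSubring := by
    rw [← HeightOneSpectrum.valuationSubringAtPrime_eq_valuationSubring]
    infer_instance
  exact (ValuationSubring.eq_of_le_of_ne_top _ hle v.ne_top').symm

end Dict

end Fermat.Agent.S24

end
end
-- ==== END Fermat.Agent.S24.FF.Dict

-- ==== BEGIN Fermat.Agent.S24.H17_Kaehler
section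

/-!
# S24 / function-field layer (helper17): Kähler differentials of a function field in one variable

`Ω[F⁄K]` is spanned by `D x` as soon as `F` is algebraic over `K⟮x⟯` (characteristic zero).
-/

set_option autoImplicit false

namespace Fermat.Agent.S24.H17

open KaehlerDifferential IntermediateField Polynomial

variable {K F : Type*} [Field K] [Field F] [Algebra K F]

/-- The elements `f` of `F` whose differential lies in the line spanned by `ω`. -/
def dSpanField (ω : Ω[F⁄K]) : IntermediateField K F where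
  carrier := {f | D K F f ∈ Submodule.span F {ω}}
  mul_mem' := by
    intro a b ha hb
    simp only [Set.mem_ofPred_eq] at ha hb ⊢
    rw [Derivation.leibniz]
    exact Submodule.add_mem _ (Submodule.smul_mem _ _ hb) (Submodule.smul_mem _ _ ha)
  one_mem' := by
    simp only [Set.mem_ofPred_eq]
    rw [Derivation.map_one_eq_zero]
    exact Submodule.zero_mem _
  add_mem' := by
    intro a b ha hb
    simp only [Set.mem_ofPred_eq] at ha hb ⊢
    rw [map_add]
    exact Submodule.add_mem _ ha hb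
  zero_mem' := by
    simp only [Set.mem_ofPred_eq]
    rw [map_zero]
    exact Submodule.zero_mem _
  algebraMap_mem' := by
    intro r
    simp only [Set.mem_ofPred_eq]
    rw [Derivation.map_algebraMap]
    exact Submodule.zero_mem _
  inv_mem' := by
    intro a ha
    simp only [Set.mem_ofPred_eq] at ha ⊢
    rcases eq_or_ne a 0 with rfl | h0
    · simp
    · have h1 : D K F (a * a⁻¹) = 0 := by
        rw [mul_inv_cancel₀ h0, Derivation.map_one_eq_zero]
      rw [Derivation.leibniz] at h1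
      have h2 : D K F a⁻¹ = -(a⁻¹ • a⁻¹ • D K F a) := by
        have h3 : a • D K F a⁻¹ = -(a⁻¹ • D K F a) := eq_neg_of_add_eq_zero_left h1
        calc D K F a⁻¹ = a⁻¹ • a • D K F a⁻¹ := by rw [smul_smul, inv_mul_cancel₀ h0, one_smul]
          _ = -(a⁻¹ • a⁻¹ • D K F a) := by rw [h3, smul_neg]
      rw [h2]
      exact Submodule.neg_mem _ (Submodule.smul_mem _ _ (Submodule.smul_mem _ _ ha))

theorem mem_dSpanField {ω : Ω[F⁄K]} {f : F} :
    f ∈ dSpanField (K := K) ω ↔ D K F f ∈ Submodule.span F {ω} := Iff.rfl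

/-- Differentiating a polynomial expression in `f` with coefficients in `dSpanField ω`. -/
theorem D_aeval_sub_mem (ω : Ω[F⁄K]) (f : F) (p : Polynomial (dSpanField (K := K) ω)) :
    D K F (aeval f p) - aeval f (derivative p) • D K F f ∈ Submodule.span F {ω} := by
  induction p using Polynomial.induction_on' with
  | add p q hp hq =>
    have : D K F (aeval f (p + q)) - aeval f (derivative (p + q)) • D K F f
        = (D K F (aeval f p) - aeval f (derivative p) • D K F f)
          + (D K F (aeval f q) - aeval f (derivative q) • D K F f) := by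
      rw [map_add, map_add, derivative_add, map_add, add_smul]
      abel
    rw [this]
    exact Submodule.add_mem _ hp hq
  | monomial n a =>
    have h1 : aeval f (monomial n a) = (a : F) * f ^ n := by
      rw [aeval_monomial]; rfl
    have h2 : aeval f (derivative (monomial n a)) = (a : F) * (n : F) * f ^ (n - 1) := by
      rw [derivative_monomial, aeval_monomial, map_mul, map_natCast]; rfl
    rw [h1, h2, Derivation.leibniz, Derivation.leibniz_pow]
    have h3 : (a : F) • (n • f ^ (n - 1) • D K F f) + f ^ n • D K F (a : F)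
        - ((a : F) * (n : F) * f ^ (n - 1)) • D K F f = f ^ n • D K F (a : F) := by
      rw [← Nat.cast_smul_eq_nsmul F n, smul_smul, smul_smul, mul_assoc]
      abel
    rw [h3]
    exact Submodule.smul_mem _ _ a.2

/-- If `f` is algebraic over `K⟮x⟯` (characteristic zero) then `D f ∈ F · D x`. -/
theorem D_mem_span_D_of_isAlgebraic [CharZero K] (x f : F) (hf : IsAlgebraic K⟮x⟯ f) :
    D K F f ∈ Submodule.span F {D K F x} := by
  set E := dSpanField (K := K) (D K F x) with hE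
  have hxE : x ∈ E := Submodule.mem_span_singleton_self _
  have hle : K⟮x⟯ ≤ E := adjoin_simple_le_iff.mpr hxE
  -- `f` is algebraic over `E`
  have hfE : IsAlgebraic E f := by
    obtain ⟨p, hp0, hp⟩ := hf
    refine ⟨p.map (inclusion hle).toRingHom, ?_, ?_⟩
    · exact (Polynomial.map_ne_zero_iff (inclusion hle).toRingHom.injective).mpr hp0
    · have hcomp : (algebraMap E F).comp (inclusion hle).toRingHom = algebraMap K⟮x⟯ F := rfl
      rw [aeval_def, eval₂_map, hcomp]
      rw [aeval_def] at hp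
      exact hp
  have hint : IsIntegral E f := hfE.isIntegral
  have : CharZero E := charZero_of_injective_algebraMap (algebraMap K E).injective
  have hsep : (minpoly E f).Separable := (minpoly.irreducible hint).separable
  have hne : aeval f (derivative (minpoly E f)) ≠ 0 := by
    have := hsep.aeval_derivative_ne_zero (minpoly.aeval E f)
    exact this
  have key := D_aeval_sub_mem (K := K) (D K F x) f (minpoly E f)
  rw [minpoly.aeval, map_zero, zero_sub] at key
  have key2 : aeval f (derivative (minpoly E f)) • D K F f ∈ Submodule.span F {D K F x} := by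
    have := Submodule.neg_mem _ key
    rwa [neg_neg] at this
  have := Submodule.smul_mem _ (aeval f (derivative (minpoly E f)))⁻¹ key2
  rwa [smul_smul, inv_mul_cancel₀ hne, one_smul] at this

/-- `Ω[F⁄K] = F · D x` if `F` is algebraic over `K⟮x⟯` (characteristic zero). -/
theorem span_D_eq_top [CharZero K] (x : F) [Algebra.IsAlgebraic K⟮x⟯ F] :
    Submodule.span F {D K F x} = ⊤ := by
  rw [eq_top_iff, ← KaehlerDifferential.span_range_derivation K F, Submodule.span_le]
  rintro _ ⟨f, rfl⟩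
  exact D_mem_span_D_of_isAlgebraic x f (Algebra.IsAlgebraic.isAlgebraic f)

end Fermat.Agent.S24.H17

end
-- ==== END Fermat.Agent.S24.H17_Kaehler

-- ==== BEGIN Fermat.Agent.S24.H1_GC
section

/-!
# S24 GC: abstract Galois counting of primes (GC1, GC3)
-/

set_option autoImplicit false

namespace Fermat.Agent.S24

open scoped Pointwise

section GC3

variable {Γ G : Type*} [Group Γ] [Group G]

/-- The bijection `Γ ⧸ Γ₀ ≃ G ⧸ H` induced by a surjection `π` with `π⁻¹ H = Γ₀`. -/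
noncomputable def h1_quotEquiv (π : Γ →* G) (hπ : Function.Surjective π) (Γ₀ : Subgroup Γ)
    (H : Subgroup G) (hH : H.comap π = Γ₀) : Γ ⧸ Γ₀ ≃ G ⧸ H :=
  Equiv.ofBijective
    (Quotient.map' π (fun a b hab => by
      rw [QuotientGroup.leftRel_apply] at hab ⊢
      rw [← hH, Subgroup.mem_comap, map_mul, map_inv] at hab
      exact hab))
    (by
      constructor
      · intro x y
        induction x using Quotient.inductionOn' with | _ a => ?_
        induction y using Quotient.inductionOn' with | _ b => ?_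
        intro h
        simp only [Quotient.map'_mk''] at h
        rw [Quotient.eq''] at h ⊢
        rw [QuotientGroup.leftRel_apply] at h ⊢
        rw [← hH, Subgroup.mem_comap, map_mul, map_inv]
        exact h
      · intro y
        induction y using Quotient.inductionOn' with | _ b => ?_
        obtain ⟨a, rfl⟩ := hπ b
        exact ⟨Quotient.mk'' a, rfl⟩)

theorem h1_quotEquiv_mk (π : Γ →* G) (hπ : Function.Surjective π) (Γ₀ : Subgroup Γ)
    (H : Subgroup G) (hH : H.comap π = Γ₀) (a : Γ) :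
    h1_quotEquiv π hπ Γ₀ H hH (a : Γ ⧸ Γ₀) = ((π a : G) : G ⧸ H) := rfl

theorem h1_quotEquiv_smul (π : Γ →* G) (hπ : Function.Surjective π) (Γ₀ : Subgroup Γ)
    (H : Subgroup G) (hH : H.comap π = Γ₀) (g : Γ) (x : Γ ⧸ Γ₀) :
    h1_quotEquiv π hπ Γ₀ H hH (g • x) = π g • h1_quotEquiv π hπ Γ₀ H hH x := by
  induction x using Quotient.inductionOn' with | _ a => ?_
  change h1_quotEquiv π hπ Γ₀ H hH ((g * a : Γ) : Γ ⧸ Γ₀) = _
  rw [h1_quotEquiv_mk, map_mul]
  rfl

/-- GC3. Orbit transfer along a surjection `π : Γ →* G` with `π⁻¹ H = Γ₀`. -/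
theorem gc_orbits_transfer (π : Γ →* G)
    (hπ : Function.Surjective π) (Γ₀ : Subgroup Γ) (H : Subgroup G) (hH : H.comap π = Γ₀)
    (γ : Γ) :
    Nat.card (MulAction.orbitRel.Quotient (Subgroup.zpowers (π γ)) (G ⧸ H))
      = Nat.card (MulAction.orbitRel.Quotient (Subgroup.zpowers γ) (Γ ⧸ Γ₀)) := by
  symm
  refine Nat.card_congr (Quotient.congr (h1_quotEquiv π hπ Γ₀ H hH) ?_)
  intro x y
  rw [MulAction.orbitRel_apply, MulAction.orbitRel_apply, MulAction.mem_orbit_iff,
    MulAction.mem_orbit_iff]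
  constructor
  · rintro ⟨⟨g, hg⟩, rfl⟩
    obtain ⟨k, rfl⟩ := Subgroup.mem_zpowers_iff.mp hg
    refine ⟨⟨(π γ) ^ k, Subgroup.zpow_mem_zpowers _ k⟩, ?_⟩
    change (π γ) ^ k • _ = h1_quotEquiv π hπ Γ₀ H hH ((γ ^ k) • y)
    rw [h1_quotEquiv_smul, map_zpow]
  · rintro ⟨⟨g, hg⟩, hgy⟩
    obtain ⟨k, rfl⟩ := Subgroup.mem_zpowers_iff.mp hg
    refine ⟨⟨γ ^ k, Subgroup.zpow_mem_zpowers _ k⟩, ?_⟩
    apply (h1_quotEquiv π hπ Γ₀ H hH).injective
    change h1_quotEquiv π hπ Γ₀ H hH ((γ ^ k) • y) = _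
    rw [h1_quotEquiv_smul, map_zpow]
    exact hgy

end GC3

section Card

/-- Two surjections out of the same type with the same kernel have targets of the same
cardinality. -/
theorem h1_card_eq_of_surjective_of_ker {α X Y : Type*} (f₁ : α → X) (f₂ : α → Y)
    (h₁ : Function.Surjective f₁) (h₂ : Function.Surjective f₂)
    (h : ∀ a b, f₁ a = f₁ b ↔ f₂ a = f₂ b) : Nat.card X = Nat.card Y := by
  have hker : Setoid.ker f₁ = Setoid.ker f₂ := by
    ext a b
    exact h a b
  calc Nat.card X = Nat.card (Quotient (Setoid.ker f₁)) :=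
        (Nat.card_congr (Setoid.quotientKerEquivOfSurjective f₁ h₁)).symm
    _ = Nat.card (Quotient (Setoid.ker f₂)) := by rw [hker]
    _ = Nat.card Y := Nat.card_congr (Setoid.quotientKerEquivOfSurjective f₂ h₂)

end Card

section GC1

variable {A B C : Type*} [CommRing A] [CommRing B] [CommRing C]
  [Algebra A B] [Algebra B C] [Algebra A C] [IsScalarTower A B C]
  (G : Type*) [Group G] [MulSemiringAction G C]
  (H : Subgroup G)

variable [Finite G] [IsGaloisGroup G A C] [IsGaloisGroup H B C]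

/-- The prime of `B` below `σ⁻¹ • P`. -/
noncomputable def h1_gcMap (p : Ideal A) (P : Ideal C) [P.IsPrime] [P.LiesOver p]
    (σ : G) : p.primesOver B :=
  ⟨(σ⁻¹ • P).under B, ⟨Ideal.IsPrime.under B (σ⁻¹ • P),
    Ideal.under_liesOver_of_liesOver B (σ⁻¹ • P) p⟩⟩

omit [Finite G] in
theorem h1_gcMap_coe (p : Ideal A) (P : Ideal C) [P.IsPrime] [P.LiesOver p] (σ : G) :
    ((h1_gcMap (B := B) G p P σ : p.primesOver B) : Ideal B) = (σ⁻¹ • P).under B := rfl

include H in
theorem h1_gcMap_eq_iff (p : Ideal A) (P : Ideal C) [P.IsPrime] [P.LiesOver p] (σ τ : G) :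
    h1_gcMap (B := B) G p P σ = h1_gcMap (B := B) G p P τ ↔
      ∃ d ∈ MulAction.stabilizer G P, (d * τ)⁻¹ * σ ∈ H := by
  rw [Subtype.ext_iff, h1_gcMap_coe, h1_gcMap_coe]
  constructor
  · intro hst
    obtain ⟨h, hh⟩ := Algebra.IsInvariant.exists_smul_of_under_eq B C H (σ⁻¹ • P) (τ⁻¹ • P) hst
    -- `τ⁻¹ • P = h • σ⁻¹ • P`
    replace hh : τ⁻¹ • P = (h : G) • σ⁻¹ • P := by
      rw [hh]
      ext x
      simp only [Ideal.mem_pointwise_smul_iff_inv_smul_mem]
      rfl
    refine ⟨σ * (h : G)⁻¹ * τ⁻¹, ?_, ?_⟩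
    · rw [MulAction.mem_stabilizer_iff, mul_smul, mul_smul, hh, smul_smul (h : G)⁻¹,
        inv_mul_cancel, one_smul, smul_smul, mul_inv_cancel, one_smul]
    · have : (σ * (h : G)⁻¹ * τ⁻¹ * τ)⁻¹ * σ = (h : G) := by group
      rw [this]
      exact h.2
  · rintro ⟨d, hd, hh⟩
    rw [MulAction.mem_stabilizer_iff] at hd
    have key : ∀ (h : H) (Q : Ideal C), ((h : G) • Q).under B = Q.under B := by
      intro h Q
      exact Ideal.under_smul B Q h
    have hσ : σ⁻¹ • P = (((d * τ)⁻¹ * σ)⁻¹ : G) • (τ⁻¹ • P) := by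
      rw [smul_smul]
      have h1 : ((d * τ)⁻¹ * σ)⁻¹ * τ⁻¹ = σ⁻¹ * d := by group
      rw [h1, mul_smul, hd]
    rw [hσ]
    exact key ⟨((d * τ)⁻¹ * σ)⁻¹, H.inv_mem hh⟩ (τ⁻¹ • P)

theorem h1_gcMap_surjective [Algebra.IsIntegral B C]
    (hBC : Function.Injective (algebraMap B C))
    (p : Ideal A) [p.IsPrime] (P : Ideal C) [P.IsPrime] [P.LiesOver p] :
    Function.Surjective (h1_gcMap (B := B) G p P) := by
  rintro ⟨𝔮, h𝔮prime, h𝔮over⟩
  have := h𝔮prime
  have := h𝔮over
  obtain ⟨Q, -, hQprime, hQ⟩ := Ideal.exists_ideal_over_prime_of_isIntegral 𝔮 (⊥ : Ideal C)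
    (by
      rw [← RingHom.ker_eq_comap_bot, (RingHom.injective_iff_ker_eq_bot _).mp hBC]
      exact bot_le)
  have := hQprime
  have hQ𝔮 : Q.LiesOver 𝔮 := ⟨hQ.symm⟩
  have hQp : Q.LiesOver p := Ideal.LiesOver.trans Q 𝔮 p
  obtain ⟨g, hg⟩ := Algebra.IsInvariant.exists_smul_of_under_eq A C G P Q
    ((Ideal.over_def P p).symm.trans (Ideal.over_def Q p))
  refine ⟨g⁻¹, ?_⟩
  apply Subtype.ext
  rw [h1_gcMap_coe, inv_inv, ← hg]
  exact hQ

/-- **GC1**. Primes of the intermediate ring `B` over `p` correspond to orbits of the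
decomposition group of one prime `P` of `C` over `p` acting on `G ⧸ H`. (Injectivity of `B → C`
is needed: it is automatic in the intended application.) -/
theorem gc_card_primesOver [Algebra.IsIntegral B C]
    (hBC : Function.Injective (algebraMap B C))
    (p : Ideal A) [p.IsPrime] (P : Ideal C) [P.IsPrime] [P.LiesOver p] :
    Nat.card (p.primesOver B)
      = Nat.card (MulAction.orbitRel.Quotient (MulAction.stabilizer G P) (G ⧸ H)) := by
  let ψ : G → MulAction.orbitRel.Quotient (MulAction.stabilizer G P) (G ⧸ H) :=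
    fun σ => Quotient.mk'' (σ : G ⧸ H)
  have hψ : Function.Surjective ψ := by
    intro q
    induction q using Quotient.inductionOn' with | _ x => ?_
    induction x using Quotient.inductionOn' with | _ σ => ?_
    exact ⟨σ, rfl⟩
  refine h1_card_eq_of_surjective_of_ker (h1_gcMap (B := B) G p P) ψ
    (h1_gcMap_surjective G hBC p P) hψ ?_
  intro σ τ
  rw [h1_gcMap_eq_iff G H p P σ τ]
  change _ ↔ (Quotient.mk'' (σ : G ⧸ H) : MulAction.orbitRel.Quotient _ _) = Quotient.mk'' (τ : G ⧸ H)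
  rw [Quotient.eq'', MulAction.orbitRel_apply, MulAction.mem_orbit_iff]
  constructor
  · rintro ⟨d, hd, hh⟩
    refine ⟨⟨d, hd⟩, ?_⟩
    change ((d * τ : G) : G ⧸ H) = (σ : G ⧸ H)
    rw [QuotientGroup.eq]
    exact hh
  · rintro ⟨⟨d, hd⟩, hdτ⟩
    refine ⟨d, hd, ?_⟩
    change ((d * τ : G) : G ⧸ H) = (σ : G ⧸ H) at hdτ
    rw [QuotientGroup.eq] at hdτ
    exact hdτ

/-- Variant of `gc_card_primesOver` with the injectivity as a `FaithfulSMul` instance. -/
theorem gc_card_primesOver_of_faithfulSMul [Algebra.IsIntegral B C] [FaithfulSMul B C]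
    (p : Ideal A) [p.IsPrime] (P : Ideal C) [P.IsPrime] [P.LiesOver p] :
    Nat.card (p.primesOver B)
      = Nat.card (MulAction.orbitRel.Quotient (MulAction.stabilizer G P) (G ⧸ H)) :=
  gc_card_primesOver G H (FaithfulSMul.algebraMap_injective B C) p P

end GC1

end Fermat.Agent.S24

end
-- ==== END Fermat.Agent.S24.H1_GC

-- ==== BEGIN Fermat.Agent.S24.H27_JAn
section

/-!
# S24, analytic layer: `j` is `SL(2,ℤ)`-invariant and surjective
-/

set_option autoImplicit false

noncomputable section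

open scoped MatrixGroups

namespace Fermat.Agent.S24

open UpperHalfPlane ModularForm EisensteinSeries

/-- `E₄` transforms with weight `4`. -/
theorem h27_E4_smul (γ : SL(2, ℤ)) (τ : ℍ) :
    (E (k := 4) (by norm_num)) (γ • τ) = denom γ τ ^ (4 : ℤ) * (E (k := 4) (by norm_num)) τ := by
  have hγ : (γ : GL (Fin 2) ℝ) ∈ 𝒮ℒ := ⟨γ, rfl⟩
  exact SlashInvariantForm.slash_action_eqn'' (E (k := 4) (by norm_num)) hγ τ

/-- `Δ` transforms with weight `12`. -/
theorem h27_disc_smul (γ : SL(2, ℤ)) (τ : ℍ) :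
    ModularForm.discriminant (γ • τ) = denom γ τ ^ (12 : ℤ) * ModularForm.discriminant τ := by
  have hγ : (γ : GL (Fin 2) ℝ) ∈ 𝒮ℒ := ⟨γ, rfl⟩
  exact SlashInvariantForm.slash_action_eqn'' CuspForm.discriminant hγ τ

/-- AN-inv. `j` is `SL(2,ℤ)`-invariant. -/
theorem jAn_smul (γ : SL(2, ℤ)) (τ : ℍ) : jAn (γ • τ) = jAn τ := by
  unfold jAn
  rw [h27_E4_smul, h27_disc_smul]
  have hd : (denom γ τ) ≠ 0 := denom_ne_zero _ _
  have hΔ : ModularForm.discriminant τ ≠ 0 := ModularForm.discriminant_ne_zero τ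
  have h12 : denom γ τ ^ (12 : ℤ) = (denom γ τ ^ (4 : ℤ)) ^ 3 := by
    rw [← zpow_natCast, ← zpow_mul]; norm_num
  rw [h12, mul_pow]
  have h4 : (denom γ τ ^ (4 : ℤ)) ^ 3 ≠ 0 := pow_ne_zero _ (zpow_ne_zero _ hd)
  field_simp

/-- `E₄ → 1` at `i∞`. -/
theorem h27_E4_tendsto :
    Filter.Tendsto (fun τ : ℍ => (E (k := 4) (by norm_num)) τ) atImInfty (nhds 1) := by
  have han : AnalyticAt ℂ (cuspFunction 1 (E (k := 4) (by norm_num))) 0 :=
    ModularFormClass.analyticAt_cuspFunction_zero (E (k := 4) (by norm_num)) one_pos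
      one_mem_strictPeriods_SL
  have h0 : cuspFunction 1 (E (k := 4) (by norm_num)) 0 = 1 := by
    have := E_qExpansion_coeff_zero (k := 4) (by norm_num) ⟨2, rfl⟩
    simpa [qExpansion_coeff] using this
  have ht := han.continuousAt.tendsto.comp (qParam_tendsto_atImInfty (h := 1) one_pos)
  rw [h0] at ht
  refine ht.congr fun τ => ?_
  simpa using SlashInvariantFormClass.eq_cuspFunction (E (k := 4) (by norm_num)) τ
    one_mem_strictPeriods_SL one_ne_zero

/-- The weight-12 form `E₄³ - a Δ`. -/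
def h27_G (a : ℂ) : ModularForm 𝒮ℒ 12 :=
  ModularForm.mcast (by decide) ((E (k := 4) (by norm_num)).pow 3) -
    a • (CuspForm.discriminant : ModularForm 𝒮ℒ 12)

theorem h27_G_apply (a : ℂ) (τ : ℍ) :
    h27_G a τ = (E (k := 4) (by norm_num)) τ ^ 3 - a * ModularForm.discriminant τ := by
  simp [h27_G]
  rfl

theorem h27_G_tendsto (a : ℂ) :
    Filter.Tendsto (fun τ : ℍ => h27_G a τ) atImInfty (nhds 1) := by
  have h1 := (h27_E4_tendsto.pow 3).sub
    ((ModularForm.discriminant_isZeroAtImInfty).const_mul a)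
  simp only [one_pow, mul_zero, sub_zero] at h1
  refine h1.congr fun τ => ?_
  rw [h27_G_apply]

theorem h27_invG_slash (a : ℂ) (γ : SL(2, ℤ)) :
    (fun z ↦ (1 : ℂ) / h27_G a z) ∣[(0 : ℤ) - 12] γ = fun z ↦ (1 : ℂ) / h27_G a z := by
  have hγ : (γ : GL (Fin 2) ℝ) ∈ 𝒮ℒ := ⟨γ, rfl⟩
  change ((1 : ℍ → ℂ) / ⇑(h27_G a)) ∣[(0 : ℤ) - 12] γ = (1 : ℍ → ℂ) / ⇑(h27_G a)
  rw [div_slash_SL2, is_invariant_one, SL_slash, SlashInvariantForm.slash_action_eqn _ _ hγ]

/-- AN-surj. `j` is surjective. -/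
theorem jAn_surjective (a : ℂ) : ∃ τ : ℍ, jAn τ = a := by
  by_contra hcon
  push Not at hcon
  have hG : ∀ τ : ℍ, h27_G a τ ≠ 0 := by
    intro τ h0
    rw [h27_G_apply] at h0
    apply hcon τ
    unfold jAn
    rw [div_eq_iff (ModularForm.discriminant_ne_zero τ)]
    linear_combination h0
  let f : ModularForm 𝒮ℒ ((0 : ℤ) - 12) :=
    { toFun := fun z ↦ (1 : ℂ) / h27_G a z
      slash_action_eq' := fun _ ⟨γ, hγ⟩ ↦ hγ ▸ h27_invG_slash a γ
      holo' := (mdifferentiable_const (c := (1 : ℂ))).div (h27_G a).holo' hG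
      bdd_at_cusps' := by
        intro c hc
        rw [Subgroup.IsArithmetic.isCusp_iff_isCusp_SL2Z] at hc
        rw [OnePoint.isBoundedAt_iff_forall_SL2Z hc]
        intro γ _
        rw [h27_invG_slash a γ, IsBoundedAtImInfty, Filter.BoundedAtFilter]
        have ht : Filter.Tendsto (fun z : ℍ ↦ (1 : ℂ) / h27_G a z) atImInfty (nhds (1 / 1)) :=
          Filter.Tendsto.div tendsto_const_nhds (h27_G_tendsto a) one_ne_zero
        exact ht.isBigO_one ℝ }
  have hf0 : (⇑f : ℍ → ℂ) = 0 :=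
    ModularFormClass.levelOne_neg_weight_eq_zero (by norm_num) f
  have := congrFun hf0 UpperHalfPlane.I
  have h1 : (1 : ℂ) / h27_G a UpperHalfPlane.I = 0 := this
  exact one_div_ne_zero (hG _) h1

end Fermat.Agent.S24

end
end
-- ==== END Fermat.Agent.S24.H27_JAn
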