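-- GENERATED (merged mirror, NOTES/tools/trim/merge3_helper67.py): 10 modules of the originals, bodies verbatim.
import Fermat.Prelude.Def_ModularCurve_GenusNumerics
import Mathlib.NumberTheory.LegendreSymbol.Basic
import Mathlib.GroupTheory.SpecificGroups.Cyclic
import Mathlib.RingTheory.IntegralDomain
import Mathlib.Data.ZMod.Units
import Fermat.Prelude.Def_AlgebraicCurve_BaseChangeGalois
import Fermat.Prelude.Def_ModularCurve_X0ModL
import Mathlib
import Fermat.Prelude.Def_ModularCurve_PeriodHomPair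
import Fermat.Prelude.Def_CuspForm_HeckeAlgebra
import Fermat.Prelude.Thm_ModularForm_heckeT_slash_eq_self_of_mem_Gamma0
import Fermat.Prelude.Thm_ModularCurve_coeffMap_qExpand
import Fermat.Prelude.Thm_CongruenceSubgroup_one_mem_strictPeriods_Gamma0
import Fermat.Agent.BAD.H21_SSPoly
import Fermat.Agent.Zm.S35_L01_003
import Fermat.Agent.Zm.S35_L01_002
import Fermat.Agent.Zm.S35_L01_000
import Fermat.Agent.Zm.S35_L01_004
import Fermat.Agent.S23.H22_Nice

-- ==== BEGIN Fermat.Agent.BAD.H21_Arith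
section

/-!
# (ARITH) for BAD_q / NUM (helper21)

For a prime `ℓ ≥ 5` not dividing `M`:
`genusFormula (M ℓ) + 1 - 2 genusFormula M = (ℓ-1) ψ(M)/12 + ν₂(M) b / 2 + 2 ν₃(M) a / 3`
with `a = 1` iff `ℓ ≡ 2 mod 3`, `b = 1` iff `ℓ ≡ 3 mod 4`.
-/

set_option autoImplicit false

noncomputable section

namespace Fermat.Agent.BAD.H21

open ModularCurve

/-! ### CRT for the numbers of roots -/

section CRT

variable {R S : Type*} [CommRing R] [CommRing S]

/-- Roots of `x² + 1`. -/
def H21_Sol2 (R : Type*) [CommRing R] : Type _ := {x : R // x ^ 2 + 1 = 0}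

/-- Roots of `x² + x + 1`. -/
def H21_Sol3 (R : Type*) [CommRing R] : Type _ := {x : R // x ^ 2 + x + 1 = 0}

def H21_sol2Congr (e : R ≃+* S) : H21_Sol2 R ≃ H21_Sol2 S where
  toFun x := ⟨e x.1, by rw [← map_pow, ← map_one e, ← map_add, x.2, map_zero]⟩
  invFun y := ⟨e.symm y.1, by rw [← map_pow, ← map_one e.symm, ← map_add, y.2, map_zero]⟩
  left_inv x := Subtype.ext (e.symm_apply_apply _)
  right_inv y := Subtype.ext (e.apply_symm_apply _)

def H21_sol3Congr (e : R ≃+* S) : H21_Sol3 R ≃ H21_Sol3 S where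
  toFun x := ⟨e x.1, by rw [← map_pow, ← map_one e, ← map_add, ← map_add, x.2, map_zero]⟩
  invFun y := ⟨e.symm y.1, by
    rw [← map_pow, ← map_one e.symm, ← map_add, ← map_add, y.2, map_zero]⟩
  left_inv x := Subtype.ext (e.symm_apply_apply _)
  right_inv y := Subtype.ext (e.apply_symm_apply _)

def H21_sol2Prod : H21_Sol2 (R × S) ≃ H21_Sol2 R × H21_Sol2 S where
  toFun x := (⟨x.1.1, by have := congrArg Prod.fst x.2; simpa using this⟩,
    ⟨x.1.2, by have := congrArg Prod.snd x.2; simpa using this⟩)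
  invFun y := ⟨(y.1.1, y.2.1), by
    ext
    · simpa using y.1.2
    · simpa using y.2.2⟩
  left_inv x := rfl
  right_inv y := rfl

def H21_sol3Prod : H21_Sol3 (R × S) ≃ H21_Sol3 R × H21_Sol3 S where
  toFun x := (⟨x.1.1, by have := congrArg Prod.fst x.2; simpa using this⟩,
    ⟨x.1.2, by have := congrArg Prod.snd x.2; simpa using this⟩)
  invFun y := ⟨(y.1.1, y.2.1), by
    ext
    · simpa using y.1.2
    · simpa using y.2.2⟩
  left_inv x := rfl
  right_inv y := rfl

end CRT

lemma H21_nuTwo_mul {a b : ℕ} (hab : a.Coprime b) : nuTwo (a * b) = nuTwo a * nuTwo b := by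
  unfold nuTwo
  rw [← Nat.card_prod]
  exact Nat.card_congr ((H21_sol2Congr (ZMod.chineseRemainder hab)).trans H21_sol2Prod)

lemma H21_nuThree_mul {a b : ℕ} (hab : a.Coprime b) :
    nuThree (a * b) = nuThree a * nuThree b := by
  unfold nuThree
  rw [← Nat.card_prod]
  exact Nat.card_congr ((H21_sol3Congr (ZMod.chineseRemainder hab)).trans H21_sol3Prod)

/-! ### Prime values -/

section Prime

variable {ℓ : ℕ} [hℓ : Fact ℓ.Prime]

lemma H21_card_sol_pair {x₀ x₁ : ZMod ℓ} (hne : x₀ ≠ x₁) (P : ZMod ℓ → Prop)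
    (hP : ∀ x, P x ↔ x = x₀ ∨ x = x₁) : Nat.card {x : ZMod ℓ // P x} = 2 := by
  classical
  rw [Nat.card_eq_fintype_card, Fintype.card_subtype]
  have : (Finset.univ.filter fun x => P x) = {x₀, x₁} := by
    ext x
    simp [hP x]
  rw [this, Finset.card_pair hne]

omit hℓ in
lemma H21_card_sol_empty (P : ZMod ℓ → Prop) (hP : ∀ x, ¬ P x) :
    Nat.card {x : ZMod ℓ // P x} = 0 := by
  have : IsEmpty {x : ZMod ℓ // P x} := ⟨fun x => hP x.1 x.2⟩
  exact Nat.card_of_isEmpty

lemma H21_two_ne_zero (h3 : 3 ≤ ℓ) : (2 : ZMod ℓ) ≠ 0 := by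
  intro h
  have h2 : ((2 : ℕ) : ZMod ℓ) = 0 := by exact_mod_cast h
  rw [ZMod.natCast_eq_zero_iff] at h2
  have := Nat.le_of_dvd (by norm_num) h2
  omega

lemma H21_three_ne_zero (h5 : 5 ≤ ℓ) : (3 : ZMod ℓ) ≠ 0 := by
  intro h
  have h2 : ((3 : ℕ) : ZMod ℓ) = 0 := by exact_mod_cast h
  rw [ZMod.natCast_eq_zero_iff] at h2
  have := Nat.le_of_dvd (by norm_num) h2
  omega

/-- `ν₂(ℓ) = 0` for `ℓ ≡ 3 mod 4`. -/
lemma H21_nuTwo_prime_three (h : ℓ % 4 = 3) : nuTwo ℓ = 0 := by
  unfold nuTwo
  refine H21_card_sol_empty _ fun x hx => ?_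
  have h1 : IsSquare (-1 : ZMod ℓ) := ⟨x, by rw [← pow_two]; linear_combination -hx⟩
  exact (ZMod.exists_sq_eq_neg_one_iff.mp h1) h

/-- `ν₂(ℓ) = 2` for `ℓ ≡ 1 mod 4`. -/
lemma H21_nuTwo_prime_one (h : ℓ % 4 = 1) : nuTwo ℓ = 2 := by
  unfold nuTwo
  obtain ⟨x₀, hx₀⟩ : IsSquare (-1 : ZMod ℓ) := ZMod.exists_sq_eq_neg_one_iff.mpr (by omega)
  have h3 : 3 ≤ ℓ := by
    have := hℓ.out.two_le
    omega
  have h2 := H21_two_ne_zero (ℓ := ℓ) h3
  have hx0 : x₀ ≠ 0 := by
    rintro rfl
    simp at hx₀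
  refine H21_card_sol_pair (x₀ := x₀) (x₁ := -x₀) ?_ _ fun x => ?_
  · intro hh
    have : (2 : ZMod ℓ) * x₀ = 0 := by linear_combination hh
    rcases mul_eq_zero.mp this with h' | h'
    · exact h2 h'
    · exact hx0 h'
  · rw [← sq_eq_sq_iff_eq_or_eq_neg]
    constructor
    · intro hx
      linear_combination hx + hx₀
    · intro hx
      linear_combination hx - hx₀

/-- `ν₃(ℓ) = 0` for `ℓ ≡ 2 mod 3`. -/
lemma H21_nuThree_prime_two (h5 : 5 ≤ ℓ) (h : ℓ % 3 = 2) : nuThree ℓ = 0 := by
  unfold nuThree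
  refine H21_card_sol_empty _ fun x hx => ?_
  have h3 := H21_three_ne_zero (ℓ := ℓ) h5
  have hx3 : x ^ 3 = 1 := by linear_combination (x - 1) * hx
  have hx1 : x ≠ 1 := by
    rintro rfl
    apply h3
    linear_combination hx
  have hx0 : x ≠ 0 := by
    rintro rfl
    simp at hx3
  let u : (ZMod ℓ)ˣ := Units.mk0 x hx0
  have hu3 : u ^ 3 = 1 := by
    ext
    simpa [u] using hx3
  have hu1 : u ≠ 1 := by
    intro hh
    apply hx1
    have := congrArg Units.val hh
    simpa [u] using this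
  have hord : orderOf u = 3 := by
    have hdvd := orderOf_dvd_of_pow_eq_one hu3
    rcases (Nat.dvd_prime Nat.prime_three).mp hdvd with h1 | h1
    · exact absurd (orderOf_eq_one_iff.mp h1) hu1
    · exact h1
  have hcard : orderOf u ∣ Fintype.card (ZMod ℓ)ˣ := orderOf_dvd_card
  rw [ZMod.card_units_eq_totient, Nat.totient_prime hℓ.out, hord] at hcard
  omega

/-- `ν₃(ℓ) = 2` for `ℓ ≡ 1 mod 3`. -/
lemma H21_nuThree_prime_one (h5 : 5 ≤ ℓ) (h : ℓ % 3 = 1) : nuThree ℓ = 2 := by
  unfold nuThree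
  have h3 := H21_three_ne_zero (ℓ := ℓ) h5
  have hdvd : 3 ∣ Fintype.card (ZMod ℓ)ˣ := by
    rw [ZMod.card_units_eq_totient, Nat.totient_prime hℓ.out]
    omega
  have hcount := IsCyclic.card_orderOf_eq_totient (α := (ZMod ℓ)ˣ) hdvd
  have hpos : 0 < (Finset.univ.filter fun a : (ZMod ℓ)ˣ => orderOf a = 3).card := by
    rw [hcount]; decide
  obtain ⟨u, hu⟩ := Finset.card_pos.mp hpos
  rw [Finset.mem_filter] at hu
  have hu3 : (u : ZMod ℓ) ^ 3 = 1 := by
    have := pow_orderOf_eq_one u
    rw [hu.2] at this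
    have := congrArg Units.val this
    simpa using this
  have hu1 : (u : ZMod ℓ) ≠ 1 := by
    intro hh
    have : u = 1 := Units.ext hh
    rw [this, orderOf_one] at hu
    omega
  set ω : ZMod ℓ := (u : ZMod ℓ) with hω
  have hω2 : ω ^ 2 + ω + 1 = 0 := by
    have : (ω - 1) * (ω ^ 2 + ω + 1) = 0 := by linear_combination hu3
    rcases mul_eq_zero.mp this with h' | h'
    · exact absurd (sub_eq_zero.mp h') hu1
    · exact h'
  refine H21_card_sol_pair (x₀ := ω) (x₁ := -1 - ω) ?_ _ fun x => ?_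
  · intro hh
    -- 2 ω = -1, so 4 ω² + 4 ω + 4 = 3 = 0
    apply h3
    have h2ω : 2 * ω + 1 = 0 := by linear_combination hh
    linear_combination 4 * hω2 - (2 * ω + 1) * h2ω
  · constructor
    · intro hx
      have : (x - ω) * (x - (-1 - ω)) = 0 := by linear_combination hx - hω2
      rcases mul_eq_zero.mp this with h' | h'
      · exact Or.inl (sub_eq_zero.mp h')
      · exact Or.inr (sub_eq_zero.mp h')
    · rintro (rfl | rfl)
      · exact hω2
      · linear_combination hω2

end Prime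

/-! ### The cusps -/

lemma H21_cuspCount_mul_prime {M ℓ : ℕ} (hℓ : ℓ.Prime) (hM : ¬ ℓ ∣ M) :
    cuspCount (M * ℓ) = 2 * cuspCount M := by
  have hcop : M.Coprime ℓ := ((Nat.Prime.coprime_iff_not_dvd hℓ).mpr hM).symm
  unfold cuspCount
  rw [Fermat.Agent.S20.H19.sum_divisors_mul_of_coprime hcop, Finset.mul_sum]
  refine Finset.sum_congr rfl fun d hd => ?_
  have hdM : d ∣ M := Nat.dvd_of_mem_divisors hd
  have hd0 : d ≠ 0 := fun h => by
    rw [h] at hd
    simp at hd
  have hdpos : 0 < d := Nat.pos_of_ne_zero hd0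
  obtain ⟨e, rfl⟩ := hdM
  have hcd : d.Coprime ℓ := hcop.coprime_dvd_left (Dvd.intro _ rfl)
  have hce : e.Coprime ℓ := hcop.coprime_dvd_left (Dvd.intro_left _ rfl)
  rw [Nat.Prime.divisors hℓ, Finset.sum_pair hℓ.one_lt.ne, mul_one]
  have e1 : d * e * ℓ / d = e * ℓ := by
    rw [mul_assoc]; exact Nat.mul_div_cancel_left _ hdpos
  have e2 : d * e * ℓ / (d * ℓ) = e := by
    have : d * e * ℓ = (d * ℓ) * e := by ring
    rw [this]
    exact Nat.mul_div_cancel_left _ (Nat.mul_pos hdpos hℓ.pos)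
  have e3 : d * e / d = e := Nat.mul_div_cancel_left _ hdpos
  rw [e1, e2, e3]
  have g1 : Nat.gcd d (e * ℓ) = Nat.gcd d e := Nat.Coprime.gcd_mul_right_cancel_right e hcd.symm
  have g2 : Nat.gcd (d * ℓ) e = Nat.gcd d e := Nat.Coprime.gcd_mul_right_cancel d hce.symm
  rw [g1, g2]
  ring

/-! ### (ARITH) -/

/-- **(ARITH)**: for a prime `ℓ ≥ 5` not dividing `M`, the number
`m ψ(M) + a #(fibre over 0) + b #(fibre over 1728)` of supersingular points of `X₀(M)` in
characteristic `ℓ` is `g(M ℓ) + 1 - 2 g(M)`.  Here `oST`, `oS` are the numbers of points of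
`X₀(M)` over `j = 0` and `j = 1728` (`3 oST = ψ + 2 ν₃`, `2 oS = ψ + ν₂`, S24). -/
theorem H21_arith {M ℓ : ℕ} [hℓ : Fact ℓ.Prime] (h5 : 5 ≤ ℓ) (hM : ¬ ℓ ∣ M) (oS oST : ℕ)
    (hS : 2 * oS = dedekindPsi M + nuTwo M) (hST : 3 * oST = dedekindPsi M + 2 * nuThree M) :
    genusFormula (M * ℓ) + 1 - 2 * genusFormula M =
      ((H21_ssM ℓ * dedekindPsi M + H21_ssA ℓ * oST + H21_ssB ℓ * oS : ℕ) : ℚ) := by
  have hp := hℓ.out
  have hcop : M.Coprime ℓ := ((Nat.Prime.coprime_iff_not_dvd hp).mpr hM).symm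
  have hψ : dedekindPsi (M * ℓ) = dedekindPsi M * (ℓ + 1) := by
    rw [Fermat.Agent.S20.H19.dedekindPsi_mul hcop]
    have := Fermat.Agent.S20.H19.dedekindPsi_prime_pow hp (n := 1) one_pos
    simp only [pow_one, Nat.sub_self, pow_zero] at this
    rw [this]
  have hw := H21_ss_weight hp h5
  have hℓQ : (ℓ : ℚ) = 12 * (H21_ssM ℓ : ℚ) + 4 * (H21_ssA ℓ : ℚ) + 6 * (H21_ssB ℓ : ℚ) + 1 := by
    have h1 : ℓ = 12 * H21_ssM ℓ + 4 * H21_ssA ℓ + 6 * H21_ssB ℓ + 1 := by omega
    exact_mod_cast h1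
  have hSQ : (2 : ℚ) * oS = dedekindPsi M + nuTwo M := by exact_mod_cast hS
  have hSTQ : (3 : ℚ) * oST = dedekindPsi M + 2 * nuThree M := by exact_mod_cast hST
  have h2 : ¬ 2 ∣ ℓ := fun h => by
    have := (Nat.prime_dvd_prime_iff_eq Nat.prime_two hp).mp h
    omega
  have h3 : ¬ 3 ∣ ℓ := fun h => by
    have := (Nat.prime_dvd_prime_iff_eq Nat.prime_three hp).mp h
    omega
  rw [genusFormula, genusFormula, hψ, H21_cuspCount_mul_prime hp hM, H21_nuTwo_mul hcop,
    H21_nuThree_mul hcop]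
  push_cast
  rw [hℓQ]
  have h4 : ℓ % 4 = 1 ∨ ℓ % 4 = 3 := by omega
  have h3' : ℓ % 3 = 1 ∨ ℓ % 3 = 2 := by omega
  rcases h4 with h4 | h4 <;> rcases h3' with h3' | h3'
  · have hb : H21_ssB ℓ = 0 := by unfold H21_ssB; rw [if_neg (by omega)]
    have ha : H21_ssA ℓ = 0 := by unfold H21_ssA; rw [if_neg (by omega)]
    rw [H21_nuTwo_prime_one h4, H21_nuThree_prime_one h5 h3', ha, hb]
    push_cast
    ring
  · have hb : H21_ssB ℓ = 0 := by unfold H21_ssB; rw [if_neg (by omega)]
    have ha : H21_ssA ℓ = 1 := by unfold H21_ssA; rw [if_pos h3']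
    rw [H21_nuTwo_prime_one h4, H21_nuThree_prime_two h5 h3', ha, hb]
    push_cast
    linear_combination (-(1 : ℚ) / 3) * hSTQ
  · have hb : H21_ssB ℓ = 1 := by unfold H21_ssB; rw [if_pos h4]
    have ha : H21_ssA ℓ = 0 := by unfold H21_ssA; rw [if_neg (by omega)]
    rw [H21_nuTwo_prime_three h4, H21_nuThree_prime_one h5 h3', ha, hb]
    push_cast
    linear_combination (-(1 : ℚ) / 2) * hSQ
  · have hb : H21_ssB ℓ = 1 := by unfold H21_ssB; rw [if_pos h4]
    have ha : H21_ssA ℓ = 1 := by unfold H21_ssA; rw [if_pos h3']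
    rw [H21_nuTwo_prime_three h4, H21_nuThree_prime_two h5 h3', ha, hb]
    push_cast
    linear_combination (-(1 : ℚ) / 2) * hSQ + (-(1 : ℚ) / 3) * hSTQ

end Fermat.Agent.BAD.H21

end
end
-- ==== END Fermat.Agent.BAD.H21_Arith

-- ==== BEGIN Fermat.Agent.BAD.H73_Beta
section
attribute [local instance 10000] SubalgebraClass.toAlgebra
attribute [local instance 10000] HahnSeries.powerSeriesAlgebra

/-!
# Item 65 (BAD_q), `TotData` leaf `β` (helper73)

`k` a perfect field of characteristic `q`, `E ⊂ k((t))` an intermediate field stable under the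
coefficientwise Frobenius `φ` (in both directions).  Then

* `frobL k q : k((t)) ≃+* k((t))` is the coefficientwise Frobenius, `x ^ q = Fr (φ x) = φ (Fr x)`
  with `Fr = qExpand k q` (`t ↦ t ^ q`);
* `E` is stable under `Fr` (`qExpand_mem`), `FrE : E →ₐ[k] E`;
* `frobSemi : SemilinearAut k E` is `φ` on `E`;
* `beta : Place k E ≃ Place k E`, `z ↦ z ∘ φ`, with
  `beta_ord : (β z).ord y = z.ord (φ y)` and **`beta_ord_Fr : (β z).ord (Fr g) = q * z.ord g`**.

Stability criterion: `frobStable_adjoin` — `adjoin k S` is `φ`-stable if the elements of `S` are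
fixed by `φ` (e.g. reductions of series with coefficients in `ℤ`, `coeffMap_intCast_fixed`).
-/

set_option autoImplicit false

noncomputable section

open ModularCurve AlgebraicCurve

namespace Fermat.Agent.BAD.H73

section Series

variable (k : Type*) [Field k] (q : ℕ) [Fact q.Prime] [CharP k q] [PerfectRing k q]

/-- The coefficientwise Frobenius of `k((t))`, an automorphism for perfect `k`. -/
def frobL : LaurentSeries k ≃+* LaurentSeries k :=
  RingEquiv.ofRingHom (coeffMap ((frobeniusEquiv k q : k ≃+* k) : k →+* k))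
    (coeffMap ((frobeniusEquiv k q).symm : k →+* k))
    (by
      ext x n
      simp [coeffMap_coeff])
    (by
      ext x n
      simp [coeffMap_coeff])

variable {k}

@[simp] theorem frobL_coeff (x : LaurentSeries k) (n : ℤ) :
    (frobL k q x).coeff n = x.coeff n ^ q := by
  show (coeffMap ((frobeniusEquiv k q : k ≃+* k) : k →+* k) x).coeff n = _
  rw [coeffMap_coeff]
  exact frobeniusEquiv_apply k q _

theorem frobL_eq_coeffMap (x : LaurentSeries k) :
    frobL k q x = coeffMap (frobenius k q) x := by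
  ext n
  rw [frobL_coeff, coeffMap_coeff, frobenius_def]

omit [Fact q.Prime] [CharP k q] [PerfectRing k q] in
theorem algebraMap_eq_single (c : k) :
    algebraMap k (LaurentSeries k) c = HahnSeries.single 0 c := by
  have h1 : algebraMap k (PowerSeries k) c = PowerSeries.C c := by simp
  rw [HahnSeries.algebraMap_apply', h1, HahnSeries.ofPowerSeries_C]
  rfl

theorem frobL_algebraMap (c : k) :
    frobL k q (algebraMap k (LaurentSeries k) c) = algebraMap k (LaurentSeries k) (c ^ q) := by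
  rw [frobL_eq_coeffMap, algebraMap_eq_single, coeffMap_single, frobenius_def,
    algebraMap_eq_single]

theorem frobL_symm_algebraMap (c : k) :
    (frobL k q).symm (algebraMap k (LaurentSeries k) c)
      = algebraMap k (LaurentSeries k) ((frobeniusEquiv k q).symm c) := by
  rw [RingEquiv.symm_apply_eq, frobL_algebraMap, frobeniusEquiv_symm_pow_p]

/-- `x ^ q = Fr (φ x)`. -/
theorem pow_eq_qExpand_frobL (x : LaurentSeries k) :
    x ^ q = qExpand k q (frobL k q x) := by
  rw [frobL_eq_coeffMap]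
  exact Fermat.Agent.RED.H10.pow_char_eq q x

/-- `φ` and `Fr` commute. -/
theorem frobL_qExpand (x : LaurentSeries k) :
    frobL k q (qExpand k q x) = qExpand k q (frobL k q x) := by
  rw [frobL_eq_coeffMap, frobL_eq_coeffMap, coeffMap_qExpand]

/-- `φ (Fr x) = x ^ q`. -/
theorem frobL_qExpand_eq_pow (x : LaurentSeries k) :
    frobL k q (qExpand k q x) = x ^ q := by
  rw [frobL_qExpand, pow_eq_qExpand_frobL]

/-- `Fr x = (φ⁻¹ x) ^ q`. -/
theorem qExpand_eq_frobL_symm_pow (x : LaurentSeries k) :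
    qExpand k q x = ((frobL k q).symm x) ^ q := by
  rw [pow_eq_qExpand_frobL, RingEquiv.apply_symm_apply]

/-- Series with integral coefficients are fixed by `φ`. -/
theorem frobL_coeffMap_intCast (x : LaurentSeries ℤ) :
    frobL k q (coeffMap (Int.castRingHom k) x) = coeffMap (Int.castRingHom k) x := by
  rw [frobL_eq_coeffMap, coeffMap_coeffMap]
  exact coeffMap_congr (RingHom.ext_int _ _) x

end Series

section Field

variable {k : Type*} [Field k] (q : ℕ) [Fact q.Prime] [CharP k q] [PerfectRing k q]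
variable (E : IntermediateField k (LaurentSeries k))

/-- `E` is stable under the coefficientwise Frobenius and its inverse. -/
def FrobStable : Prop := ∀ x : LaurentSeries k, frobL k q x ∈ E ↔ x ∈ E

/-- The preimage of `E` under the coefficientwise Frobenius. -/
def comapFrob : IntermediateField k (LaurentSeries k) where
  toSubalgebra :=
    { carrier := {x | frobL k q x ∈ E}
      mul_mem' := fun {a b} ha hb => by
        show frobL k q (a * b) ∈ E
        rw [map_mul]; exact E.mul_mem ha hb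
      add_mem' := fun {a b} ha hb => by
        show frobL k q (a + b) ∈ E
        rw [map_add]; exact E.add_mem ha hb
      algebraMap_mem' := fun c => by
        show frobL k q (algebraMap k (LaurentSeries k) c) ∈ E
        rw [frobL_algebraMap]; exact E.algebraMap_mem _ }
  inv_mem' := fun x hx => by
    show frobL k q x⁻¹ ∈ E
    rw [map_inv₀]; exact E.inv_mem hx

theorem mem_comapFrob (x : LaurentSeries k) : x ∈ comapFrob q E ↔ frobL k q x ∈ E := Iff.rfl

/-- The image of `E` under the coefficientwise Frobenius. -/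
def mapFrob : IntermediateField k (LaurentSeries k) where
  toSubalgebra :=
    { carrier := {x | (frobL k q).symm x ∈ E}
      mul_mem' := fun {a b} ha hb => by
        show (frobL k q).symm (a * b) ∈ E
        rw [map_mul]; exact E.mul_mem ha hb
      add_mem' := fun {a b} ha hb => by
        show (frobL k q).symm (a + b) ∈ E
        rw [map_add]; exact E.add_mem ha hb
      algebraMap_mem' := fun c => by
        show (frobL k q).symm (algebraMap k (LaurentSeries k) c) ∈ E
        rw [frobL_symm_algebraMap]; exact E.algebraMap_mem _ }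
  inv_mem' := fun x hx => by
    show (frobL k q).symm x⁻¹ ∈ E
    rw [map_inv₀]; exact E.inv_mem hx

theorem mem_mapFrob (x : LaurentSeries k) : x ∈ mapFrob q E ↔ (frobL k q).symm x ∈ E := Iff.rfl

/-- **Stability criterion**: a field generated over `k` by `φ`-fixed series is `φ`-stable. -/
theorem frobStable_adjoin (S : Set (LaurentSeries k)) (hS : ∀ s ∈ S, frobL k q s = s) :
    FrobStable q (IntermediateField.adjoin k S) := by
  have h1 : IntermediateField.adjoin k S ≤ comapFrob q (IntermediateField.adjoin k S) := by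
    rw [IntermediateField.adjoin_le_iff]
    intro s hs
    show frobL k q s ∈ IntermediateField.adjoin k S
    rw [hS s hs]
    exact IntermediateField.subset_adjoin k S hs
  have h2 : IntermediateField.adjoin k S ≤ mapFrob q (IntermediateField.adjoin k S) := by
    rw [IntermediateField.adjoin_le_iff]
    intro s hs
    show (frobL k q).symm s ∈ IntermediateField.adjoin k S
    have e : (frobL k q).symm s = s := (RingEquiv.symm_apply_eq _).mpr (hS s hs).symm
    rw [e]
    exact IntermediateField.subset_adjoin k S hs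
  intro x
  constructor
  · intro hx
    have := h2 hx
    rwa [mem_mapFrob, RingEquiv.symm_apply_apply] at this
  · intro hx
    exact h1 hx

/-- The function field of level `M` in characteristic `q` is `φ`-stable. -/
theorem frobStable_fullC (M : ℕ) : FrobStable q (modularFunctionFieldFullC k M) := by
  apply frobStable_adjoin
  rintro s ⟨d, hd, -, rfl⟩
  rw [frobL_eq_coeffMap, coeffMap_qExpand, coeffMap_jqModC]

variable {q E}

theorem FrobStable.frobL_mem (h : FrobStable q E) {x : LaurentSeries k} (hx : x ∈ E) :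
    frobL k q x ∈ E := (h x).mpr hx

theorem FrobStable.frobL_symm_mem (h : FrobStable q E) {x : LaurentSeries k} (hx : x ∈ E) :
    (frobL k q).symm x ∈ E := by
  rw [← h, RingEquiv.apply_symm_apply]; exact hx

/-- A `φ`-stable field is stable under `Fr : t ↦ t ^ q`. -/
theorem FrobStable.qExpand_mem (h : FrobStable q E) {x : LaurentSeries k} (hx : x ∈ E) :
    qExpand k q x ∈ E := by
  rw [qExpand_eq_frobL_symm_pow]
  exact E.pow_mem (h.frobL_symm_mem hx) q

/-- The coefficientwise Frobenius of a `φ`-stable field. -/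
def frobE (h : FrobStable q E) : ↥E ≃+* ↥E where
  toFun x := ⟨frobL k q (x : LaurentSeries k), h.frobL_mem x.2⟩
  invFun x := ⟨(frobL k q).symm (x : LaurentSeries k), h.frobL_symm_mem x.2⟩
  left_inv x := Subtype.ext ((frobL k q).symm_apply_apply (x : LaurentSeries k))
  right_inv x := Subtype.ext ((frobL k q).apply_symm_apply (x : LaurentSeries k))
  map_mul' x y := Subtype.ext (map_mul (frobL k q) (x : LaurentSeries k) (y : LaurentSeries k))
  map_add' x y := Subtype.ext (map_add (frobL k q) (x : LaurentSeries k) (y : LaurentSeries k))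

@[simp] theorem coe_frobE (h : FrobStable q E) (x : ↥E) :
    ((frobE h x : ↥E) : LaurentSeries k) = frobL k q (x : LaurentSeries k) := rfl

@[simp] theorem coe_frobE_symm (h : FrobStable q E) (x : ↥E) :
    (((frobE h).symm x : ↥E) : LaurentSeries k) = (frobL k q).symm (x : LaurentSeries k) := rfl

theorem frobE_algebraMap (h : FrobStable q E) (c : k) :
    frobE h (algebraMap k ↥E c) = algebraMap k ↥E (frobeniusEquiv k q c) := by
  apply Subtype.ext
  rw [coe_frobE, frobeniusEquiv_apply]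
  exact frobL_algebraMap q c

/-- `Fr : t ↦ t ^ q` on a `φ`-stable field, a `k`-algebra endomorphism. -/
def FrE (h : FrobStable q E) : ↥E →ₐ[k] ↥E where
  toFun x := ⟨qExpand k q (x : LaurentSeries k), h.qExpand_mem x.2⟩
  map_one' := Subtype.ext (map_one (qExpand k q))
  map_mul' x y := Subtype.ext (map_mul (qExpand k q) (x : LaurentSeries k) (y : LaurentSeries k))
  map_zero' := Subtype.ext (map_zero (qExpand k q))
  map_add' x y := Subtype.ext (map_add (qExpand k q) (x : LaurentSeries k) (y : LaurentSeries k))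
  commutes' c := by
    apply Subtype.ext
    show qExpand k q (algebraMap k (LaurentSeries k) c) = algebraMap k (LaurentSeries k) c
    rw [algebraMap_eq_single, qExpand_single, mul_zero]

@[simp] theorem coe_FrE (h : FrobStable q E) (x : ↥E) :
    ((FrE h x : ↥E) : LaurentSeries k) = qExpand k q (x : LaurentSeries k) := rfl

/-- `φ (Fr x) = x ^ q` on `E`. -/
theorem frobE_FrE (h : FrobStable q E) (x : ↥E) : frobE h (FrE h x) = x ^ q := by
  apply Subtype.ext
  rw [coe_frobE, coe_FrE, frobL_qExpand_eq_pow]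
  rfl

/-- `Fr (φ x) = x ^ q` on `E`. -/
theorem FrE_frobE (h : FrobStable q E) (x : ↥E) : FrE h (frobE h x) = x ^ q := by
  apply Subtype.ext
  rw [coe_FrE, coe_frobE, ← pow_eq_qExpand_frobL]
  rfl

/-- The coefficientwise Frobenius as a semilinear automorphism of `E / k`. -/
def frobSemi (h : FrobStable q E) : SemilinearAut k ↥E :=
  ⟨(frobE h, frobeniusEquiv k q), fun c => frobE_algebraMap h c⟩

@[simp] theorem toRingAut_frobSemi (h : FrobStable q E) :
    SemilinearAut.toRingAut (frobSemi h) = frobE h := rfl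

@[simp] theorem baseAut_frobSemi (h : FrobStable q E) :
    SemilinearAut.baseAut (frobSemi h) = frobeniusEquiv k q := rfl

/-- **The bijection `β`**: `z ↦ z ∘ φ` on the places of `E / k`. -/
def beta (h : FrobStable q E) : Place k ↥E ≃ Place k ↥E :=
  MulAction.toPerm (frobSemi h)⁻¹

theorem beta_apply (h : FrobStable q E) (z : Place k ↥E) :
    beta h z = (frobSemi h)⁻¹ • z := rfl

theorem beta_symm_apply (h : FrobStable q E) (z : Place k ↥E) :
    (beta h).symm z = frobSemi h • z := by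
  rw [Equiv.symm_apply_eq, beta_apply, inv_smul_smul]

/-- `ord_{β z} y = ord_z (φ y)`. -/
theorem beta_ord (h : FrobStable q E) (z : Place k ↥E) (y : ↥E) :
    (beta h z).ord y = z.ord (frobE h y) := by
  have e := SemilinearAut.ord_smul (frobSemi h)⁻¹ z (frobE h y)
  rw [SemilinearAut.inv_smul_def, toRingAut_frobSemi, RingEquiv.symm_apply_apply] at e
  exact e

/-- `ord_{β⁻¹ z} y = ord_z (φ⁻¹ y)`. -/
theorem beta_symm_ord (h : FrobStable q E) (z : Place k ↥E) (y : ↥E) :
    ((beta h).symm z).ord y = z.ord ((frobE h).symm y) := by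
  have e := SemilinearAut.ord_smul (frobSemi h) z ((frobE h).symm y)
  rw [SemilinearAut.smul_def, toRingAut_frobSemi, RingEquiv.apply_symm_apply] at e
  rw [beta_symm_apply]
  exact e

/-- **`ord_{β z} (Fr g) = q · ord_z g`**. -/
theorem beta_ord_Fr (h : FrobStable q E) (z : Place k ↥E) (g : ↥E) :
    (beta h z).ord (FrE h g) = (q : ℤ) * z.ord g := by
  rw [beta_ord, frobE_FrE, ← zpow_natCast, Place.ord_zpow]

/-- `x ∈ β z ↔ φ x ∈ z` (valuation rings). -/
theorem mem_beta_iff (h : FrobStable q E) (z : Place k ↥E) (y : ↥E) :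
    y ∈ (beta h z).toValuationSubring ↔ frobE h y ∈ z.toValuationSubring := by
  rw [beta_apply, SemilinearAut.smul_toValuationSubring,
    ValuationSubring.mem_pointwise_smul_iff_inv_smul_mem, inv_inv]
  rfl

end Field

end Fermat.Agent.BAD.H73

end
end
-- ==== END Fermat.Agent.BAD.H73_Beta

-- ==== BEGIN Fermat.Agent.BAD.H82_DegSeries
section

/-!
# Item 65, package V2 (helper82), part (D): `k((t))` over `k((t ^ q))` in characteristic `q`

`k` a field of characteristic `q`, `j = jqModC k`.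

* `FrRange k q = k((t ^ q))`, the image of the substitution `t ↦ t ^ q`;
* `linearIndependent_jq_pow` : `1, j, …, j ^ (q - 1)` are linearly independent over `k((t ^ q))`;
* `linearIndependent_jq_pow_mul` : if `κ ⊆ E ∩ k((t ^ q))`, `j ∈ E` and `θ ∉ E`, then the `2 q`
  elements `j ^ i θ ^ ε` (`i < q`, `ε < 2`) are linearly independent over `κ`.
-/

set_option autoImplicit false

noncomputable section

open Polynomial ModularCurve

namespace Fermat.Agent.BAD.H82

section

variable (k : Type*) [Field k] (q : ℕ) [NeZero q]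

/-- The field `k((t ^ q))`. -/
def FrRange : Subfield (LaurentSeries k) := (qExpand k q).fieldRange

theorem mem_FrRange_iff (x : LaurentSeries k) : x ∈ FrRange k q ↔ ∃ y, qExpand k q y = x :=
  RingHom.mem_fieldRange

theorem coeff_eq_zero_of_mem_FrRange {x : LaurentSeries k} (hx : x ∈ FrRange k q) {n : ℤ}
    (hn : ¬ (q : ℤ) ∣ n) : x.coeff n = 0 := by
  obtain ⟨y, rfl⟩ := (mem_FrRange_iff k q x).1 hx
  exact qExpand_coeff_of_not_dvd q y hn

variable [Fact q.Prime]

theorem jqModC_not_mem_FrRange : jqModC k ∉ FrRange k q := by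
  intro h
  have hq1 : 1 < q := (Fact.out : q.Prime).one_lt
  have hnd : ¬ ((q : ℕ) : ℤ) ∣ (-1 : ℤ) := by
    intro hd
    have h1 : ((q : ℕ) : ℤ) ∣ 1 := (dvd_neg (a := (q : ℤ)) (b := 1)).mp hd
    have h2 : q ∣ 1 := by exact_mod_cast h1
    exact hq1.ne' (Nat.dvd_one.mp h2)
  have h1 := coeff_eq_zero_of_mem_FrRange k q h hnd
  rw [coeff_jqModC_neg_one] at h1
  exact one_ne_zero h1

variable [CharP k q]

theorem jqModC_pow_char : jqModC k ^ q = qExpand k q (jqModC k) := by
  rw [Fermat.Agent.RED.H10.pow_char_eq q (jqModC k), coeffMap_jqModC]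

theorem jqModC_pow_mem_FrRange : jqModC k ^ q ∈ FrRange k q :=
  (mem_FrRange_iff k q _).2 ⟨jqModC k, (jqModC_pow_char k q).symm⟩

/-- `X ^ q - j ^ q` is the minimal polynomial of `j` over `k((t ^ q))`. -/
theorem minpoly_jqModC :
    minpoly (FrRange k q) (jqModC k)
      = X ^ q - C (⟨jqModC k ^ q, jqModC_pow_mem_FrRange k q⟩ : FrRange k q) := by
  have hq : q.Prime := Fact.out
  have : ExpChar (LaurentSeries k) q := by
    have : CharP (LaurentSeries k) q :=
      charP_of_injective_algebraMap (algebraMap k (LaurentSeries k)).injective q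
    exact ExpChar.prime hq
  symm
  apply minpoly.eq_of_irreducible_of_monic
  · apply X_pow_sub_C_irreducible_of_prime hq
    intro b hb
    have h1 : ((b : FrRange k q) : LaurentSeries k) ^ q = jqModC k ^ q :=
      congrArg Subtype.val hb
    have h2 : ((b : FrRange k q) : LaurentSeries k) = jqModC k :=
      frobenius_inj (LaurentSeries k) q h1
    exact jqModC_not_mem_FrRange k q (h2 ▸ b.2)
  · rw [map_sub, map_pow, aeval_X, aeval_C]
    exact sub_self _
  · exact monic_X_pow_sub_C _ hq.ne_zero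

theorem natDegree_minpoly_jqModC : (minpoly (FrRange k q) (jqModC k)).natDegree = q := by
  rw [minpoly_jqModC, natDegree_X_pow_sub_C]

/-- `1, j, …, j ^ (q - 1)` are linearly independent over `k((t ^ q))`. -/
theorem linearIndependent_jq_pow :
    LinearIndependent (FrRange k q) (fun i : Fin q => jqModC k ^ (i : ℕ)) := by
  have h := linearIndependent_pow (K := FrRange k q) (jqModC k)
  have e : q = (minpoly (FrRange k q) (jqModC k)).natDegree := (natDegree_minpoly_jqModC k q).symm
  have h2 := h.comp (Fin.cast e) (Fin.cast_injective e)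
  exact h2

/-- If `κ ⊆ E ∩ k((t ^ q))`, `j ∈ E` and `θ ∉ E`, then the `2 q` elements `j ^ i θ ^ ε` are
linearly independent over `κ`. -/
theorem linearIndependent_jq_pow_mul (κ E : Subfield (LaurentSeries k)) (hκE : κ ≤ E)
    (hκF : κ ≤ FrRange k q) (hj : jqModC k ∈ E) {θ : LaurentSeries k} (hθ : θ ∉ E) :
    LinearIndependent κ
      (fun p : Fin q × Fin 2 => jqModC k ^ (p.1 : ℕ) * θ ^ (p.2 : ℕ)) := by
  rw [Fintype.linearIndependent_iff]
  intro g hg
  -- the two partial sums
  set S : Fin 2 → LaurentSeries k := fun ε => ∑ i : Fin q, (g (i, ε) : LaurentSeries k)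
    * jqModC k ^ (i : ℕ) with hS
  have hSE : ∀ ε, S ε ∈ E := fun ε =>
    E.sum_mem fun i _ => E.mul_mem (hκE (g (i, ε)).2) (E.pow_mem hj _)
  have hrel : S 0 + S 1 * θ = 0 := by
    have h1 : ∑ p : Fin q × Fin 2, g p • (jqModC k ^ (p.1 : ℕ) * θ ^ (p.2 : ℕ))
        = ∑ i : Fin q, ∑ ε : Fin 2,
          (g (i, ε) : LaurentSeries k) * (jqModC k ^ (i : ℕ) * θ ^ (ε : ℕ)) := by
      rw [Fintype.sum_prod_type]
      rfl
    rw [h1] at hg
    rw [← hg, hS]
    simp only [Fin.sum_univ_two, Fin.val_zero, Fin.val_one, pow_zero, pow_one, mul_one]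
    rw [Finset.sum_add_distrib, Finset.sum_mul]
    congr 1
    refine Finset.sum_congr rfl fun i _ => ?_
    ring
  have hS1 : S 1 = 0 := by
    by_contra h1
    apply hθ
    have h2 : θ = -(S 0) / S 1 := by
      rw [eq_div_iff h1]
      linear_combination hrel
    rw [h2]
    exact E.div_mem (E.neg_mem (hSE 0)) (hSE 1)
  have hS0 : S 0 = 0 := by
    rw [hS1, zero_mul, add_zero] at hrel
    exact hrel
  -- independence of the powers of `j`
  have hli := (linearIndependent_jq_pow k q)
  rw [Fintype.linearIndependent_iff] at hli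
  have key : ∀ ε, S ε = 0 → ∀ i, g (i, ε) = 0 := by
    intro ε h0 i
    have h1 := hli (fun i => ⟨(g (i, ε) : LaurentSeries k), hκF (g (i, ε)).2⟩) h0 i
    have h2 : ((g (i, ε) : κ) : LaurentSeries k) = 0 :=
      congrArg (fun z : FrRange k q => (z : LaurentSeries k)) h1
    exact Subtype.ext h2
  rintro ⟨i, ε⟩
  fin_cases ε
  · exact key 0 hS0 i
  · exact key 1 hS1 i

end

end Fermat.Agent.BAD.H82

end
end
-- ==== END Fermat.Agent.BAD.H82_DegSeries

-- ==== BEGIN Fermat.Agent.Betti.Defs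
section

/-!
# Betti Hecke operators on `Hom(Γ₀(N), A)`

* `incl N : Γ₀(N) →* GL₂(ℝ)`;
* `repT p : OnePoint (ZMod p) → GL₂(ℝ)` (the prelude's `heckeRep`: `∞ ↦ [p,0;0,1]`, `j ↦ [1,j;0,p]`)
  is a Hecke family for `Γ₀(N)` when `p ∤ N` is prime (`isHeckeFamily_T`);
* `repU p : ZMod p → GL₂(ℝ)`, `j ↦ [1,j;0,p]`, is a Hecke family for `Γ₀(N)` when `p ∣ N`
  (`isHeckeFamily_U`);
* `TB N hp hpN A`, `UB N hpN A`: the Betti Hecke operators on `Additive (Gamma0 N) →+ A`.
-/

set_option autoImplicit false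

namespace Fermat.Agent.Betti

open CongruenceSubgroup Matrix.SpecialLinearGroup ModularForm
open scoped MatrixGroups
open P2MW.S_ModularForm_heckeT_slash_eq_self_of_mem_Gamma0.ModularForm.HeckeSlashInvariance

/-- The inclusion `Γ₀(N) → GL₂(ℝ)`. -/
noncomputable def incl (N : ℕ) : Gamma0 N →* GL (Fin 2) ℝ := (mapGL ℝ).comp (Gamma0 N).subtype

@[simp] theorem incl_apply (N : ℕ) (γ : Gamma0 N) : incl N γ = mapGL ℝ (γ : SL(2, ℤ)) := rfl

theorem mapGL_real_injective : Function.Injective (mapGL ℝ : SL(2, ℤ) →* GL (Fin 2) ℝ) := by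
  intro g h hgh
  ext i j
  have h1 : ((mapGL ℝ g : GL (Fin 2) ℝ) : Matrix (Fin 2) (Fin 2) ℝ) i j
      = ((mapGL ℝ h : GL (Fin 2) ℝ) : Matrix (Fin 2) (Fin 2) ℝ) i j := by rw [hgh]
  simpa using h1

theorem incl_injective (N : ℕ) : Function.Injective (incl N) := fun _ _ h =>
  Subtype.ext (mapGL_real_injective h)

/-- The representatives `∞ ↦ [p,0;0,1]`, `j ↦ [1,j;0,p]` of `T_p`. -/
noncomputable abbrev repT (p : ℕ) : OnePoint (ZMod p) → GL (Fin 2) ℝ := heckeRep p

/-- The representatives `j ↦ [1,j;0,p]` of `U_p`. -/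
noncomputable abbrev repU (p : ℕ) : ZMod p → GL (Fin 2) ℝ := fun j => heckeMatrix p j.val

theorem mem_Gamma0_of_dvd {N : ℕ} {g : SL(2, ℤ)} (h : (N : ℤ) ∣ g 1 0) : g ∈ Gamma0 N :=
  Gamma0_mem.mpr ((ZMod.intCast_zmod_eq_zero_iff_dvd _ _).mpr h)

theorem dvd_of_mem_Gamma0 {N : ℕ} {g : SL(2, ℤ)} (h : g ∈ Gamma0 N) : (N : ℤ) ∣ g 1 0 :=
  (ZMod.intCast_zmod_eq_zero_iff_dvd _ _).mp (Gamma0_mem.mp h)

section entries

variable {p : ℕ} (hp : p ≠ 0)
include hp

theorem heckeMatrix_eq_mapGL_mul_heckeMatrix {ε : SL(2, ℤ)} {i j : ℕ}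
    (h : heckeMatrix p i = mapGL ℝ ε * heckeMatrix p j) : (p : ℤ) ∣ (i : ℤ) - j := by
  have h00 := congrArg (fun M : GL (Fin 2) ℝ => (M : Matrix (Fin 2) (Fin 2) ℝ) 0 0) h
  have h01 := congrArg (fun M : GL (Fin 2) ℝ => (M : Matrix (Fin 2) (Fin 2) ℝ) 0 1) h
  simp [hp, Matrix.mul_apply, Fin.sum_univ_two] at h00 h01
  have h00' : (ε 0 0 : ℤ) = 1 := by exact_mod_cast h00.symm
  refine ⟨ε 0 1, ?_⟩
  have : ((i : ℤ) : ℝ) - j = ((p : ℤ) : ℝ) * (ε 0 1 : ℤ) := by
    rw [h00'] at h01
    push_cast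
    rw [h01]
    push_cast
    ring
  exact_mod_cast this

theorem heckeDiagMatrix_ne_mapGL_mul_heckeMatrix (hp1 : p ≠ 1) {ε : SL(2, ℤ)} {j : ℕ}
    (h : heckeDiagMatrix p = mapGL ℝ ε * heckeMatrix p j) : False := by
  have h00 := congrArg (fun M : GL (Fin 2) ℝ => (M : Matrix (Fin 2) (Fin 2) ℝ) 0 0) h
  have h10 := congrArg (fun M : GL (Fin 2) ℝ => (M : Matrix (Fin 2) (Fin 2) ℝ) 1 0) h
  simp [hp, Matrix.mul_apply, Fin.sum_univ_two] at h00 h10
  have h00' : (ε 0 0 : ℤ) = p := by exact_mod_cast h00.symm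
  have h10' : (ε 1 0 : ℤ) = 0 := by exact_mod_cast h10.symm
  have hdet := det_eq ε
  rw [h00', h10'] at hdet
  have hdvd : (p : ℤ) ∣ 1 := ⟨ε 1 1, by linarith⟩
  have := Int.natCast_dvd_natCast.mp (by simpa using hdvd : ((p : ℕ) : ℤ) ∣ ((1 : ℕ) : ℤ))
  exact hp1 (Nat.dvd_one.mp this)

theorem heckeMatrix_ne_mapGL_mul_heckeDiagMatrix (hp1 : p ≠ 1) {ε : SL(2, ℤ)} {j : ℕ}
    (h : heckeMatrix p j = mapGL ℝ ε * heckeDiagMatrix p) : False := by
  have h00 := congrArg (fun M : GL (Fin 2) ℝ => (M : Matrix (Fin 2) (Fin 2) ℝ) 0 0) h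
  simp [hp, Matrix.mul_apply, Fin.sum_univ_two] at h00
  have h00' : (1 : ℤ) = ε 0 0 * p := by exact_mod_cast h00
  have hdvd : (p : ℤ) ∣ 1 := ⟨ε 0 0, by linarith⟩
  have := Int.natCast_dvd_natCast.mp (by simpa using hdvd : ((p : ℕ) : ℤ) ∣ ((1 : ℕ) : ℤ))
  exact hp1 (Nat.dvd_one.mp this)

end entries

theorem zmod_eq_of_dvd_val_sub {p : ℕ} [NeZero p] {i j : ZMod p}
    (h : (p : ℤ) ∣ (i.val : ℤ) - j.val) : i = j := by
  have h1 : ((i.val : ℤ) : ZMod p) = ((j.val : ℤ) : ZMod p) := by
    rw [← sub_eq_zero, ← Int.cast_sub]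
    exact (ZMod.intCast_zmod_eq_zero_iff_dvd _ _).mpr h
  simpa using h1

/-- The family of `T_p` is a Hecke family for `Γ₀(N)`, `p ∤ N`. -/
theorem isHeckeFamily_T (N : ℕ) {p : ℕ} [Fact p.Prime] (hpN : ¬ p ∣ N) :
    IsHeckeFamily (incl N) (repT p) where
  exists_mul γ x := by
    obtain ⟨g', hg', h⟩ := heckeRep_mul hpN (γ : SL(2, ℤ)) (dvd_of_mem_Gamma0 γ.2) x
    exact ⟨_, ⟨g', mem_Gamma0_of_dvd hg'⟩, h⟩
  inj x y ε h := by
    have hp : p ≠ 0 := (Fact.out : p.Prime).ne_zero
    have hp1 : p ≠ 1 := (Fact.out : p.Prime).ne_one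
    have : NeZero p := ⟨hp⟩
    induction x using OnePoint.rec with
    | infty =>
      induction y using OnePoint.rec with
      | infty => rfl
      | coe j => exact (heckeDiagMatrix_ne_mapGL_mul_heckeMatrix hp hp1 h).elim
    | coe i =>
      induction y using OnePoint.rec with
      | infty => exact (heckeMatrix_ne_mapGL_mul_heckeDiagMatrix hp hp1 h).elim
      | coe j =>
        exact congrArg _ (zmod_eq_of_dvd_val_sub (heckeMatrix_eq_mapGL_mul_heckeMatrix hp h))

/-- The family of `U_p` is a Hecke family for `Γ₀(N)`, `p ∣ N`. -/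
theorem isHeckeFamily_U (N : ℕ) {p : ℕ} [NeZero p] (hpN : p ∣ N) :
    IsHeckeFamily (incl N) (repU p) where
  exists_mul γ x := by
    have hc : (p : ℤ) ∣ (γ : SL(2, ℤ)) 1 0 :=
      (Int.natCast_dvd_natCast.mpr hpN).trans (dvd_of_mem_Gamma0 γ.2)
    obtain ⟨g', hg', h⟩ := heckeMatrix_mul_of_dvd (γ : SL(2, ℤ)) hc x
    refine ⟨_, ⟨g', mem_Gamma0_of_dvd ?_⟩, h⟩
    rw [hg']
    exact Dvd.dvd.mul_left (dvd_of_mem_Gamma0 γ.2) _
  inj i j ε h :=
    zmod_eq_of_dvd_val_sub (heckeMatrix_eq_mapGL_mul_heckeMatrix (NeZero.ne p) h)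

section Operators

variable (N : ℕ) (A : Type*) [AddCommGroup A]

/-- The Betti Hecke operator `T_p` on `Hom(Γ₀(N), A)`, `p ∤ N` prime:
`(T_p φ)(γ) = ∑ x, φ (κ_x(γ))` where `rep x * γ = κ_x(γ) * rep (x·γ)`. -/
noncomputable def TB {p : ℕ} (hp : p.Prime) (hpN : ¬ p ∣ N) :
    (Additive (Gamma0 N) →+ A) →+ (Additive (Gamma0 N) →+ A) :=
  haveI : Fact p.Prime := ⟨hp⟩
  { toFun := (isHeckeFamily_T N hpN).heckeOp (incl_injective N)
    map_zero' := (isHeckeFamily_T N hpN).heckeOp_zero (incl_injective N)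
    map_add' := (isHeckeFamily_T N hpN).heckeOp_add (incl_injective N) }

theorem neZero_of_dvd {N p : ℕ} [NeZero N] (hpN : p ∣ N) : NeZero p :=
  ⟨fun h => NeZero.ne N (by rw [h] at hpN; exact Nat.eq_zero_of_zero_dvd hpN)⟩

/-- The Betti Hecke operator `U_p` on `Hom(Γ₀(N), A)`, `p ∣ N`. -/
noncomputable def UB [NeZero N] {p : ℕ} (hpN : p ∣ N) :
    (Additive (Gamma0 N) →+ A) →+ (Additive (Gamma0 N) →+ A) :=
  haveI : NeZero p := neZero_of_dvd hpN
  { toFun := (isHeckeFamily_U N hpN).heckeOp (incl_injective N)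
    map_zero' := (isHeckeFamily_U N hpN).heckeOp_zero (incl_injective N)
    map_add' := (isHeckeFamily_U N hpN).heckeOp_add (incl_injective N) }

variable {N A}

theorem TB_apply {p : ℕ} (hp : p.Prime) (hpN : ¬ p ∣ N) (φ : Additive (Gamma0 N) →+ A) :
    haveI : Fact p.Prime := ⟨hp⟩
    TB N A hp hpN φ = (isHeckeFamily_T N hpN).heckeOp (incl_injective N) φ := rfl

theorem UB_apply [NeZero N] {p : ℕ} (hpN : p ∣ N) (φ : Additive (Gamma0 N) →+ A) :
    haveI : NeZero p := neZero_of_dvd hpN
    UB N A hpN φ = (isHeckeFamily_U N hpN).heckeOp (incl_injective N) φ := rfl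

/-- Unfolded formula for `TB`: with `H := isHeckeFamily_T N hpN` one has
`repT p x * incl N γ = incl N (H.kap γ x) * repT p (H.perm γ x)` (`H.rep_mul`) and
`(TB φ)(γ) = ∑ x, φ (H.kap γ x)`. -/
theorem TB_apply_apply {p : ℕ} (hp : p.Prime) (hpN : ¬ p ∣ N) (φ : Additive (Gamma0 N) →+ A)
    (γ : Gamma0 N) :
    haveI : Fact p.Prime := ⟨hp⟩
    TB N A hp hpN φ (Additive.ofMul γ)
      = ∑ x : OnePoint (ZMod p), φ (Additive.ofMul ((isHeckeFamily_T N hpN).kap γ x)) := rfl

theorem UB_apply_apply [NeZero N] {p : ℕ} (hpN : p ∣ N) (φ : Additive (Gamma0 N) →+ A)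
    (γ : Gamma0 N) :
    haveI : NeZero p := neZero_of_dvd hpN
    UB N A hpN φ (Additive.ofMul γ)
      = ∑ x : ZMod p, φ (Additive.ofMul ((isHeckeFamily_U N hpN).kap γ x)) := rfl

end Operators

end Fermat.Agent.Betti

end
-- ==== END Fermat.Agent.Betti.Defs

-- ==== BEGIN Fermat.Agent.GTor.H33_GaussExt
section

/-!
# Gauss extension of places (helper33, cluster G-TOR, package DESC-UP)

* `exists_place_of_valuation`: a normalised discrete valuation on `F`, trivial on `K`, is `-ord` of a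
  place of `F / K`;
* `gaussValuation`: for a place `v` of `F / k` of degree one and a field extension `K / k`, the
  Gauss valuation `∑ fᵢ ⊗ bᵢ ↦ max v(fᵢ)` on `F ⊗[k] K` (`bᵢ` a `k`-basis of `K`); it is
  multiplicative because the reduction `O_v ⊗ K → K` is a ring homomorphism into a field;
* `exists_place_extension`: if `M = Frac (F ⊗[k] K)`, then `v` extends to a place `w` of `M / K`
  with `ord_w (ψ g) = ord_v g`.
-/

set_option autoImplicit false
set_option linter.style.haveILetI false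

noncomputable section

namespace Fermat.Agent.GTor.H33

open AlgebraicCurve WithZero IsLocalRing TensorProduct

section ValPlace

variable {K F : Type*} [Field K] [Field F] [Algebra K F]

/-- If the valuation ring of the place `v` is the valuation ring of a normalised valuation `W`,
then `v.ord = -log W`.  (Copy of `S24.ord_eq_of_valuationSubring_eq` for a general `W`.) -/
theorem ord_eq_of_mem_iff (v : Place K F) (W : Valuation F ℤᵐ⁰)
    (hmem : ∀ x : F, x ∈ v.toValuationSubring ↔ W x ≤ 1) {π : F} (hπ : W π = exp (-1 : ℤ))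
    {f : F} (hf : f ≠ 0) : v.ord f = -(WithZero.log (W f)) := by
  have hπ0 : π ≠ 0 := by
    rintro rfl
    rw [map_zero] at hπ
    exact exp_ne_zero hπ.symm
  have hπw : W π < 1 := by
    rw [hπ]; exact (exp_lt_exp.mpr (by norm_num : (-1 : ℤ) < 0)).trans_eq exp_zero
  have hπmem : π ∈ v.toValuationSubring := (hmem π).mpr hπw.le
  set n : ℤ := -(WithZero.log (W f)) with hn
  have hwf : W f = exp (-n) := by
    rw [hn, neg_neg, exp_log ((Valuation.ne_zero_iff _).mpr hf)]
  set u : F := f * (π ^ n)⁻¹ with hu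
  have hwu : W u = 1 := by
    rw [hu, map_mul, map_inv₀, map_zpow₀, hπ, hwf, ← exp_zsmul, smul_eq_mul, mul_neg, mul_one]
    exact mul_inv_cancel₀ (by simp)
  have hu0 : u ≠ 0 := by
    intro h
    rw [h, map_zero] at hwu
    exact zero_ne_one hwu
  have humem : u ∈ v.toValuationSubring := (hmem u).mpr hwu.le
  have huinv : u⁻¹ ∈ v.toValuationSubring := by
    rw [hmem, map_inv₀, hwu, inv_one]
  have hfu : f = u * π ^ n := by
    rw [hu, mul_assoc, inv_mul_cancel₀ (zpow_ne_zero n hπ0), mul_one]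
  let U : v.toValuationSubringˣ :=
    ⟨⟨u, humem⟩, ⟨u⁻¹, huinv⟩, Subtype.ext (mul_inv_cancel₀ hu0), Subtype.ext (inv_mul_cancel₀ hu0)⟩
  have hirr : Irreducible (⟨π, hπmem⟩ : v.toValuationSubring) := by
    obtain ⟨ϖ, hϖ⟩ := IsDiscreteValuationRing.exists_irreducible v.toValuationSubring
    have hϖ0 : (ϖ : F) ≠ 0 := by
      simpa [ne_eq, ZeroMemClass.coe_eq_zero] using hϖ.ne_zero
    have hϖw : W (ϖ : F) < 1 := by
      by_contra hcon
      have h1 : W (ϖ : F) = 1 := le_antisymm ((hmem _).mp ϖ.2) (not_lt.mp hcon)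
      have hinv : (ϖ : F)⁻¹ ∈ v.toValuationSubring := by
        rw [hmem, map_inv₀, h1, inv_one]
      have : IsUnit ϖ := by
        refine ⟨⟨ϖ, ⟨_, hinv⟩, Subtype.ext (mul_inv_cancel₀ hϖ0), Subtype.ext (inv_mul_cancel₀ hϖ0)⟩,
          rfl⟩
      exact hϖ.not_isUnit this
    have hle : W (ϖ : F) ≤ W π := by
      rw [hπ]
      have hne : W (ϖ : F) ≠ 0 := (Valuation.ne_zero_iff _).mpr hϖ0
      rw [← exp_log hne] at hϖw ⊢
      rw [← exp_zero, exp_lt_exp] at hϖw
      rw [exp_le_exp]
      omega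
    have hdiv : (ϖ : F) * π⁻¹ ∈ v.toValuationSubring := by
      rw [hmem, map_mul, map_inv₀]
      exact mul_inv_le_one_of_le₀ hle zero_le
    have hπnu : ¬ IsUnit (⟨π, hπmem⟩ : v.toValuationSubring) := by
      rintro ⟨a, ha⟩
      have h1 : W ((a⁻¹ : v.toValuationSubringˣ) : v.toValuationSubring) ≤ 1 :=
        (hmem _).mp ((a⁻¹ : v.toValuationSubringˣ) : v.toValuationSubring).2
      have h2 : (((a⁻¹ : v.toValuationSubringˣ) : v.toValuationSubring) : F) * π = 1 := by
        have := congrArg (Subtype.val) (a.inv_mul)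
        rw [ha] at this
        simpa using this
      have h3 := congrArg W h2
      rw [map_mul, map_one] at h3
      have : W π = 1 := by
        apply le_antisymm hπw.le
        calc (1 : ℤᵐ⁰) = _ * W π := h3.symm
          _ ≤ 1 * W π := by gcongr
          _ = W π := one_mul _
      exact hπw.ne this
    have hprod : ϖ = ⟨(ϖ : F) * π⁻¹, hdiv⟩ * ⟨π, hπmem⟩ := by
      ext
      simp [mul_assoc, inv_mul_cancel₀ hπ0]
    have hunit : IsUnit (⟨(ϖ : F) * π⁻¹, hdiv⟩ : v.toValuationSubring) :=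
      (hϖ.isUnit_or_isUnit hprod).resolve_right hπnu
    have hassoc : Associated ϖ (⟨π, hπmem⟩ : v.toValuationSubring) := by
      obtain ⟨c, hc⟩ := hunit
      refine ⟨c⁻¹, ?_⟩
      rw [Units.mul_inv_eq_iff_eq_mul, hc, mul_comm]
      exact hprod
    exact hassoc.irreducible hϖ
  have key := v.ord_unit_smul_zpow U hirr n
  rw [hfu]
  exact key

/-- A normalised discrete valuation which is trivial on `K` gives a place. -/
theorem exists_place_of_valuation (W : Valuation F ℤᵐ⁰) (hK : ∀ c : K, W (algebraMap K F c) ≤ 1)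
    {π : F} (hπ : W π = exp (-1 : ℤ)) :
    ∃ w : Place K F, ∀ f : F, f ≠ 0 → w.ord f = -(WithZero.log (W f)) := by
  have hπ0 : π ≠ 0 := by
    rintro rfl
    rw [map_zero] at hπ
    exact exp_ne_zero hπ.symm
  haveI : Nontrivial (MonoidWithZeroHom.valueGroup (.ofClass W)) := by
    have hu : (Units.mk0 (W π) ((Valuation.ne_zero_iff _).mpr hπ0)) ∈
        MonoidWithZeroHom.valueGroup (.ofClass W) :=
      MonoidWithZeroHom.mem_valueGroup _ ⟨π, rfl⟩
    refine ⟨⟨⟨_, hu⟩, 1, ?_⟩⟩
    intro h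
    have h1 : W π = 1 := by
      have := congrArg (fun x : MonoidWithZeroHom.valueGroup (.ofClass W) => ((x : ℤᵐ⁰ˣ) : ℤᵐ⁰)) h
      simpa using this
    rw [hπ] at h1
    have : (-1 : ℤ) = 0 := by
      rw [← exp_zero] at h1
      exact exp_injective h1
    omega
  let w : Place K F :=
    { toValuationSubring := W.valuationSubring
      algebraMap_mem' := fun a => (Valuation.mem_valuationSubring_iff _ _).mpr (hK a)
      ne_top' := by
        intro htop
        have hmem : π⁻¹ ∈ W.valuationSubring := by rw [htop]; exact ValuationSubring.mem_top _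
        rw [Valuation.mem_valuationSubring_iff, map_inv₀, hπ, ← exp_neg, neg_neg, ← exp_zero,
          exp_le_exp] at hmem
        omega
      isPrincipalIdealRing' := Valuation.valuationSubring_isPrincipalIdealRing W }
  exact ⟨w, fun f hf => ord_eq_of_mem_iff w W (fun x => Valuation.mem_valuationSubring_iff _ _) hπ hf⟩

end ValPlace

section Gauss

variable {k K F : Type*} [Field k] [Field K] [Field F] [Algebra k K] [Algebra k F]
variable (v : Place k F)

theorem adicValuation_le_one_of_mem {f : F} (h : f ∈ v.toValuationSubring) :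
    v.adicValuation f ≤ 1 := by
  have := v.adicValuation_coe ⟨f, h⟩
  rw [show ((⟨f, h⟩ : v.toValuationSubring) : F) = f from rfl] at this
  rw [this]
  exact IsDedekindDomain.HeightOneSpectrum.intValuation_le_one _ _

theorem mem_of_adicValuation_le_one {f : F} (h : v.adicValuation f ≤ 1) :
    f ∈ v.toValuationSubring := by
  obtain ⟨a, ha⟩ := IsDiscreteValuationRing.exists_lift_of_le_one (A := v.toValuationSubring) h
  rw [← ha]
  exact a.2

theorem adicValuation_lt_one_iff (a : v.toValuationSubring) :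
    v.adicValuation (a : F) < 1 ↔ a ∈ maximalIdeal v.toValuationSubring := by
  rw [v.adicValuation_coe, IsDedekindDomain.HeightOneSpectrum.intValuation_lt_one_iff_mem,
    v.heightOneSpectrum_asIdeal]

/-- The residue map `O_v → k` of a place of degree one. -/
theorem exists_residue (hdeg : v.deg = 1) :
    ∃ ε : v.toValuationSubring →ₐ[k] k, ∀ a, ε a = 0 ↔ v.adicValuation (a : F) < 1 := by
  have hsurj : Function.Surjective (algebraMap k v.ResidueField) := by
    have h : (⊥ : Subalgebra k v.ResidueField) = ⊤ := Subalgebra.bot_eq_top_of_finrank_eq_one hdeg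
    intro x
    have hx : x ∈ (⊥ : Subalgebra k v.ResidueField) := by rw [h]; exact Algebra.mem_top
    exact Algebra.mem_bot.mp hx
  have hinj : Function.Injective (algebraMap k v.ResidueField) :=
    (algebraMap k v.ResidueField).injective
  let e : k ≃ₐ[k] v.ResidueField := AlgEquiv.ofBijective (Algebra.ofId k v.ResidueField) ⟨hinj, hsurj⟩
  let r : v.toValuationSubring →ₐ[k] v.ResidueField :=
    IsScalarTower.toAlgHom k v.toValuationSubring v.ResidueField
  refine ⟨(e.symm : v.ResidueField →ₐ[k] k).comp r, fun a => ?_⟩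
  rw [adicValuation_lt_one_iff, ← IsLocalRing.residue_eq_zero_iff]
  have h1 : ((e.symm : v.ResidueField →ₐ[k] k).comp r) a = e.symm (r a) := rfl
  rw [h1, map_eq_zero_iff _ e.symm.injective]
  rfl

variable {I : Type*} (b : Module.Basis I k K)

/-- The inclusion `O_v ⊗ K → F ⊗ K`. -/
def gaussIncl : v.toValuationSubring ⊗[k] K →ₐ[k] F ⊗[k] K :=
  Algebra.TensorProduct.map (IsScalarTower.toAlgHom k v.toValuationSubring F) (AlgHom.id k K)

/-- The reduction `O_v ⊗ K → K` attached to a residue map `ε`. -/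
def gaussRed (ε : v.toValuationSubring →ₐ[k] k) : v.toValuationSubring ⊗[k] K →ₐ[k] K :=
  Algebra.TensorProduct.lift ((Algebra.ofId k K).comp ε) (AlgHom.id k K) (fun _ _ => Commute.all _ _)

theorem repr_gaussIncl (x : v.toValuationSubring ⊗[k] K) (i : I) :
    (Algebra.TensorProduct.basis F b).repr (gaussIncl v x) i =
      (((Algebra.TensorProduct.basis v.toValuationSubring b).repr x i : v.toValuationSubring) : F) := by
  induction x using TensorProduct.induction_on with
  | zero => simp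
  | tmul a c =>
    simp only [gaussIncl, Algebra.TensorProduct.map_tmul, Algebra.TensorProduct.basis_repr_tmul,
      Finsupp.smul_apply, Finsupp.mapRange_apply, smul_eq_mul, AlgHom.id_apply]
    rfl
  | add x y hx hy => simp [hx, hy]

theorem repr_gaussRed (ε : v.toValuationSubring →ₐ[k] k) (x : v.toValuationSubring ⊗[k] K) (i : I) :
    b.repr (gaussRed v ε x) i = ε ((Algebra.TensorProduct.basis v.toValuationSubring b).repr x i) := by
  induction x using TensorProduct.induction_on with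
  | zero => simp
  | tmul a c =>
    simp only [gaussRed, Algebra.TensorProduct.lift_tmul, Algebra.TensorProduct.basis_repr_tmul,
      Finsupp.smul_apply, Finsupp.mapRange_apply, smul_eq_mul, AlgHom.id_apply, map_mul,
      AlgHom.comp_apply, Algebra.ofId_apply, AlgHom.commutes]
    rw [← Algebra.smul_def, map_smul, Finsupp.smul_apply, smul_eq_mul]
    rfl
  | add x y hx hy => simp [hx, hy]

/-- The Gauss valuation, as a function. -/
def gaussFun (x : F ⊗[k] K) : ℤᵐ⁰ :=
  ((Algebra.TensorProduct.basis F b).repr x).support.sup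
    fun i => v.adicValuation ((Algebra.TensorProduct.basis F b).repr x i)

theorem gaussFun_le_iff {x : F ⊗[k] K} {γ : ℤᵐ⁰} :
    gaussFun v b x ≤ γ ↔ ∀ i, v.adicValuation ((Algebra.TensorProduct.basis F b).repr x i) ≤ γ := by
  rw [gaussFun, Finset.sup_le_iff]
  constructor
  · intro h i
    by_cases hi : i ∈ ((Algebra.TensorProduct.basis F b).repr x).support
    · exact h i hi
    · rw [Finsupp.notMem_support_iff.mp hi, map_zero]
      exact zero_le
  · intro h i _
    exact h i

theorem gaussFun_lt_iff {x : F ⊗[k] K} {γ : ℤᵐ⁰} (hγ : 0 < γ) :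
    gaussFun v b x < γ ↔ ∀ i, v.adicValuation ((Algebra.TensorProduct.basis F b).repr x i) < γ := by
  rw [gaussFun, Finset.sup_lt_iff (by simpa using hγ)]
  constructor
  · intro h i
    by_cases hi : i ∈ ((Algebra.TensorProduct.basis F b).repr x).support
    · exact h i hi
    · rw [Finsupp.notMem_support_iff.mp hi, map_zero]
      exact hγ
  · intro h i _
    exact h i

theorem gaussFun_zero : gaussFun v b (0 : F ⊗[k] K) = 0 := by
  simp [gaussFun]

theorem exists_gaussFun_eq {x : F ⊗[k] K} (hx : x ≠ 0) :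
    ∃ i, (Algebra.TensorProduct.basis F b).repr x i ≠ 0 ∧
      gaussFun v b x = v.adicValuation ((Algebra.TensorProduct.basis F b).repr x i) := by
  have hne : ((Algebra.TensorProduct.basis F b).repr x).support.Nonempty := by
    rw [Finsupp.support_nonempty_iff]
    simpa using hx
  obtain ⟨i, hi, h⟩ := Finset.exists_mem_eq_sup _ hne
    (fun i => v.adicValuation ((Algebra.TensorProduct.basis F b).repr x i))
  exact ⟨i, Finsupp.mem_support_iff.mp hi, h⟩

theorem gaussFun_eq_zero_iff {x : F ⊗[k] K} : gaussFun v b x = 0 ↔ x = 0 := by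
  constructor
  · intro h
    by_contra hx
    obtain ⟨i, hi, hW⟩ := exists_gaussFun_eq v b hx
    rw [h] at hW
    exact v.adicValuation_ne_zero hi hW.symm
  · rintro rfl
    exact gaussFun_zero v b

theorem gaussFun_smul_le (f : F) (x : F ⊗[k] K) :
    gaussFun v b (f • x) ≤ v.adicValuation f * gaussFun v b x := by
  rw [gaussFun_le_iff]
  intro i
  rw [map_smul, Finsupp.smul_apply, smul_eq_mul, map_mul]
  exact mul_le_mul' le_rfl ((gaussFun_le_iff v b).mp le_rfl i)

theorem gaussFun_smul (f : F) (x : F ⊗[k] K) :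
    gaussFun v b (f • x) = v.adicValuation f * gaussFun v b x := by
  rcases eq_or_ne f 0 with rfl | hf
  · simp [gaussFun_zero]
  apply le_antisymm (gaussFun_smul_le v b f x)
  have h := gaussFun_smul_le v b f⁻¹ (f • x)
  rw [smul_smul, inv_mul_cancel₀ hf, one_smul, map_inv₀] at h
  have hV : v.adicValuation f ≠ 0 := v.adicValuation_ne_zero hf
  calc v.adicValuation f * gaussFun v b x
      ≤ v.adicValuation f * ((v.adicValuation f)⁻¹ * gaussFun v b (f • x)) :=
        mul_le_mul' le_rfl h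
    _ = gaussFun v b (f • x) := by rw [← mul_assoc, mul_inv_cancel₀ hV, one_mul]

theorem gaussFun_add (x y : F ⊗[k] K) :
    gaussFun v b (x + y) ≤ max (gaussFun v b x) (gaussFun v b y) := by
  rw [gaussFun_le_iff]
  intro i
  rw [map_add, Finsupp.add_apply]
  refine (v.adicValuation.map_add _ _).trans (max_le_max ?_ ?_)
  · exact (gaussFun_le_iff v b).mp le_rfl i
  · exact (gaussFun_le_iff v b).mp le_rfl i

theorem gaussFun_gaussIncl_le (x : v.toValuationSubring ⊗[k] K) :
    gaussFun v b (gaussIncl v x) ≤ 1 := by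
  rw [gaussFun_le_iff]
  intro i
  rw [repr_gaussIncl]
  exact adicValuation_le_one_of_mem v (Subtype.mem _)

theorem gaussFun_gaussIncl_lt_iff (ε : v.toValuationSubring →ₐ[k] k)
    (hε : ∀ a, ε a = 0 ↔ v.adicValuation (a : F) < 1) (x : v.toValuationSubring ⊗[k] K) :
    gaussFun v b (gaussIncl v x) < 1 ↔ gaussRed v ε x = 0 := by
  rw [gaussFun_lt_iff v b zero_lt_one]
  constructor
  · intro h
    apply b.repr.injective
    ext i
    rw [repr_gaussRed, map_zero, Finsupp.zero_apply, hε, ← repr_gaussIncl]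
    exact h i
  · intro h i
    rw [repr_gaussIncl, ← hε, ← repr_gaussRed, h, map_zero, Finsupp.zero_apply]

theorem exists_gaussIncl_eq {x : F ⊗[k] K} (hx : gaussFun v b x ≤ 1) :
    ∃ y : v.toValuationSubring ⊗[k] K, gaussIncl v y = x := by
  classical
  have hmem : ∀ i, (Algebra.TensorProduct.basis F b).repr x i ∈ v.toValuationSubring := fun i =>
    mem_of_adicValuation_le_one v ((gaussFun_le_iff v b).mp hx i)
  let c : I →₀ v.toValuationSubring :=
    Finsupp.onFinset ((Algebra.TensorProduct.basis F b).repr x).support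
      (fun i => ⟨(Algebra.TensorProduct.basis F b).repr x i, hmem i⟩)
      (fun i hi => by
        rw [Finsupp.mem_support_iff]
        intro h0
        apply hi
        exact Subtype.ext h0)
  refine ⟨(Algebra.TensorProduct.basis v.toValuationSubring b).repr.symm c, ?_⟩
  apply (Algebra.TensorProduct.basis F b).repr.injective
  ext i
  rw [repr_gaussIncl, LinearEquiv.apply_symm_apply]
  rfl

section Mul

variable (ε : v.toValuationSubring →ₐ[k] k) (hε : ∀ a, ε a = 0 ↔ v.adicValuation (a : F) < 1)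
include hε

theorem gaussFun_mul_eq_one {x y : F ⊗[k] K} (hx : gaussFun v b x = 1) (hy : gaussFun v b y = 1) :
    gaussFun v b (x * y) = 1 := by
  obtain ⟨x', rfl⟩ := exists_gaussIncl_eq v b hx.le
  obtain ⟨y', rfl⟩ := exists_gaussIncl_eq v b hy.le
  rw [← map_mul]
  apply le_antisymm (gaussFun_gaussIncl_le v b _)
  rw [← not_lt, gaussFun_gaussIncl_lt_iff v b ε hε, map_mul]
  have h1 : gaussRed v ε x' ≠ 0 := by
    rw [Ne, ← gaussFun_gaussIncl_lt_iff v b ε hε, hx]
    exact lt_irrefl _
  have h2 : gaussRed v ε y' ≠ 0 := by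
    rw [Ne, ← gaussFun_gaussIncl_lt_iff v b ε hε, hy]
    exact lt_irrefl _
  exact mul_ne_zero h1 h2

theorem gaussFun_one : gaussFun v b (1 : F ⊗[k] K) = 1 := by
  have h1 : (1 : F ⊗[k] K) = gaussIncl v 1 := (map_one _).symm
  rw [h1]
  apply le_antisymm (gaussFun_gaussIncl_le v b _)
  rw [← not_lt, gaussFun_gaussIncl_lt_iff v b ε hε, map_one]
  exact one_ne_zero

theorem gaussFun_mul (x y : F ⊗[k] K) :
    gaussFun v b (x * y) = gaussFun v b x * gaussFun v b y := by
  rcases eq_or_ne x 0 with rfl | hx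
  · simp [gaussFun_zero]
  rcases eq_or_ne y 0 with rfl | hy
  · simp [gaussFun_zero]
  obtain ⟨i, hi, hWx⟩ := exists_gaussFun_eq v b hx
  obtain ⟨j, hj, hWy⟩ := exists_gaussFun_eq v b hy
  set f := (Algebra.TensorProduct.basis F b).repr x i with hf
  set g := (Algebra.TensorProduct.basis F b).repr y j with hg
  have hVf : v.adicValuation f ≠ 0 := v.adicValuation_ne_zero hi
  have hVg : v.adicValuation g ≠ 0 := v.adicValuation_ne_zero hj
  have hx' : gaussFun v b (f⁻¹ • x) = 1 := by
    rw [gaussFun_smul, map_inv₀, hWx, inv_mul_cancel₀ hVf]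
  have hy' : gaussFun v b (g⁻¹ • y) = 1 := by
    rw [gaussFun_smul, map_inv₀, hWy, inv_mul_cancel₀ hVg]
  have hxy : x * y = (f * g) • ((f⁻¹ • x) * (g⁻¹ • y)) := by
    rw [smul_mul_smul_comm, smul_smul]
    have : f * g * (f⁻¹ * g⁻¹) = 1 := by field_simp
    rw [this, one_smul]
  rw [hxy, gaussFun_smul, gaussFun_mul_eq_one v b ε hε hx' hy', mul_one, map_mul, hWx, hWy]

/-- The Gauss valuation on `F ⊗ K` attached to a place of degree one of `F`. -/
def gaussValuation : Valuation (F ⊗[k] K) ℤᵐ⁰ where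
  toFun := gaussFun v b
  map_zero' := gaussFun_zero v b
  map_one' := gaussFun_one v b ε hε
  map_mul' := gaussFun_mul v b ε hε
  map_add_le_max' := gaussFun_add v b

theorem gaussValuation_apply (x : F ⊗[k] K) : gaussValuation v b ε hε x = gaussFun v b x := rfl

theorem gaussFun_tmul_one (f : F) : gaussFun v b (f ⊗ₜ[k] (1 : K)) = v.adicValuation f := by
  have h : f ⊗ₜ[k] (1 : K) = f • (1 : F ⊗[k] K) := by
    rw [Algebra.TensorProduct.one_def, TensorProduct.smul_tmul', smul_eq_mul, mul_one]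
  rw [h, gaussFun_smul, gaussFun_one v b ε hε, mul_one]

omit hε in
theorem gaussFun_one_tmul_le (c : K) : gaussFun v b ((1 : F) ⊗ₜ[k] c) ≤ 1 := by
  have h : (1 : F) ⊗ₜ[k] c = gaussIncl v ((1 : v.toValuationSubring) ⊗ₜ[k] c) := by
    simp [gaussIncl]
  rw [h]
  exact gaussFun_gaussIncl_le v b _

end Mul

end Gauss

section Extension

variable {k K F M : Type*} [Field k] [Field K] [Field F] [Field M] [Algebra k K] [Algebra k F]
  [Algebra K M] [Algebra k M] [IsScalarTower k K M]

/-- The natural map `F ⊗ K → M`. -/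
def tensorToField (ψ : F →ₐ[k] M) : F ⊗[k] K →ₐ[k] M :=
  Algebra.TensorProduct.lift ψ (IsScalarTower.toAlgHom k K M) (fun _ _ => Commute.all _ _)

@[simp]
theorem tensorToField_tmul (ψ : F →ₐ[k] M) (f : F) (c : K) :
    tensorToField ψ (f ⊗ₜ[k] c) = ψ f * algebraMap K M c := by
  simp [tensorToField]

/-- **Gauss extension of places.**  Let `M = Frac (F ⊗ K)` (`F / k` and `K / k` linearly disjoint
in `M`, which they generate).  Every place of `F / k` of degree one extends to a place of `M / K`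
with ramification index one. -/
theorem exists_place_extension (ψ : F →ₐ[k] M)
    (hinj : Function.Injective (tensorToField (K := K) ψ))
    (hgen : ∀ m : M, ∃ x y : F ⊗[k] K, m = tensorToField ψ x / tensorToField ψ y)
    (v : Place k F) (hdeg : v.deg = 1) :
    ∃ w : Place K M, ∀ g : F, w.ord (ψ g) = v.ord g := by
  obtain ⟨ε, hε⟩ := exists_residue v hdeg
  let b := Module.Basis.ofVectorSpace k K
  let W := gaussValuation v b ε hε
  letI : Algebra (F ⊗[k] K) M := (tensorToField (K := K) ψ).toRingHom.toAlgebra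
  have halg : ∀ x : F ⊗[k] K, algebraMap (F ⊗[k] K) M x = tensorToField ψ x := fun _ => rfl
  haveI : FaithfulSMul (F ⊗[k] K) M := (faithfulSMul_iff_algebraMap_injective _ _).mpr hinj
  haveI : IsFractionRing (F ⊗[k] K) M := IsFractionRing.of_field _ _ hgen
  haveI : Nontrivial (F ⊗[k] K) := (tensorToField (K := K) ψ).toRingHom.domain_nontrivial
  have hS : nonZeroDivisors (F ⊗[k] K) ≤ W.supp.primeCompl := by
    intro s hs
    rw [Ideal.primeCompl, Submonoid.mem_mk, Subsemigroup.mem_mk]
    show s ∉ W.supp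
    rw [Valuation.mem_supp_iff]
    show gaussFun v b s ≠ 0
    rw [Ne, gaussFun_eq_zero_iff]
    exact nonZeroDivisors.ne_zero hs
  let W' : Valuation M ℤᵐ⁰ := W.extendToLocalization hS M
  have hW' : ∀ x : F ⊗[k] K, W' (tensorToField ψ x) = gaussFun v b x := fun x =>
    Valuation.extendToLocalization_apply_map_apply W hS M x
  obtain ⟨ϖ, hϖ⟩ := IsDiscreteValuationRing.exists_irreducible v.toValuationSubring
  have hψ : ∀ g : F, W' (ψ g) = v.adicValuation g := fun g => by
    have h := hW' (g ⊗ₜ[k] (1 : K))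
    rwa [tensorToField_tmul, map_one, mul_one, gaussFun_tmul_one v b ε hε] at h
  have hπ : W' (ψ (ϖ : F)) = exp (-1 : ℤ) := by
    rw [hψ, v.adicValuation_coe_irreducible hϖ]
  have hK : ∀ c : K, W' (algebraMap K M c) ≤ 1 := fun c => by
    have h := hW' ((1 : F) ⊗ₜ[k] c)
    rw [tensorToField_tmul, map_one, one_mul] at h
    rw [h]
    exact gaussFun_one_tmul_le v b c
  obtain ⟨w, hw⟩ := exists_place_of_valuation (K := K) W' hK hπ
  refine ⟨w, fun g => ?_⟩
  rcases eq_or_ne g 0 with rfl | hg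
  · simp
  rw [hw _ ((map_ne_zero ψ).mpr hg), hψ]
  rfl

end Extension

end Fermat.Agent.GTor.H33

end
end
-- ==== END Fermat.Agent.GTor.H33_GaussExt

-- ==== BEGIN Fermat.Agent.GTor.H33_KUM
section

/-!
# Cluster G-TOR, package KUM (helper33): `Pic⁰(F)[n] ≃ U_n(F)`

For a field `K` in which every element is an `n`-th power (e.g. `K` algebraically closed),
a function field `F` over `K` with principal divisors (`HasPrincipalDivisors K F`) in which the
functions without zeros and poles are constant, and `n ≠ 0`: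

  `Additive (UnrKummer K F n) ≃+ Pic0.torsion K F n`,   `[f] ↦ [(1/n) div f]`.
-/

set_option autoImplicit false

noncomputable section

namespace Fermat.Agent.GTor.H33

open AlgebraicCurve Fermat.Agent.GTor

variable {K F : Type*} [Field K] [Field F] [Algebra K F]

/-- The divisor `(1/n) div f` of an unramified function exists. -/
theorem exists_divQuot [HasPrincipalDivisors K F] {n : ℕ} (hn : n ≠ 0) (f : unrSubgroup K F n) :
    ∃ D : Divisor K F, (∀ v : Place K F, (n : ℤ) * D v = v.ord ((f : Fˣ) : F)) ∧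
      Divisor.degree D = 0 := by
  obtain ⟨D₀, hD₀, hdeg⟩ :=
    HasPrincipalDivisors.exists_divisor (K := K) ((f : Fˣ) : F) (Units.ne_zero _)
  have hmul : ∀ v : Place K F, (n : ℤ) * (D₀ v / (n : ℤ)) = D₀ v := fun v =>
    Int.mul_ediv_cancel' (by rw [hD₀ v]; exact f.2 v)
  refine ⟨D₀.mapRange (fun z => z / (n : ℤ)) (by simp), ?_, ?_⟩
  · intro v
    rw [Finsupp.mapRange_apply, hmul v, hD₀ v]
  · have h : (n : ℤ) • (D₀.mapRange (fun z => z / (n : ℤ)) (by simp)) = D₀ := by
      ext v
      rw [Finsupp.smul_apply, Finsupp.mapRange_apply, smul_eq_mul, hmul v]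
    have h2 := congrArg Divisor.degree h
    rw [map_zsmul, hdeg, smul_eq_mul] at h2
    rcases mul_eq_zero.mp h2 with h3 | h3
    · exact absurd (Int.natCast_eq_zero.mp h3) hn
    · exact h3

/-- The divisor `(1/n) div f`, of degree `0`. -/
def divQuot [HasPrincipalDivisors K F] {n : ℕ} (hn : n ≠ 0) (f : unrSubgroup K F n) :
    Divisor.degZero (K := K) (F := F) :=
  ⟨(exists_divQuot hn f).choose, (exists_divQuot hn f).choose_spec.2⟩

theorem divQuot_apply [HasPrincipalDivisors K F] {n : ℕ} (hn : n ≠ 0) (f : unrSubgroup K F n)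
    (v : Place K F) : (n : ℤ) * (divQuot hn f : Divisor K F) v = v.ord ((f : Fˣ) : F) :=
  (exists_divQuot hn f).choose_spec.1 v

/-- Uniqueness: a degree-zero divisor `D` with `n D = div f` is `divQuot f`. -/
theorem eq_divQuot [HasPrincipalDivisors K F] {n : ℕ} (hn : n ≠ 0) (f : unrSubgroup K F n)
    (D : Divisor.degZero (K := K) (F := F))
    (h : ∀ v : Place K F, (n : ℤ) * (D : Divisor K F) v = v.ord ((f : Fˣ) : F)) :
    D = divQuot hn f := by
  apply Subtype.ext
  ext v
  have h1 := h v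
  rw [← divQuot_apply hn f v] at h1
  exact mul_left_cancel₀ (Int.natCast_ne_zero.mpr hn) h1

theorem divQuot_mul [HasPrincipalDivisors K F] {n : ℕ} (hn : n ≠ 0) (f g : unrSubgroup K F n) :
    divQuot hn (f * g) = divQuot hn f + divQuot hn g := by
  symm
  apply eq_divQuot
  intro v
  have hf : ((f : Fˣ) : F) ≠ 0 := Units.ne_zero _
  have hg : ((g : Fˣ) : F) ≠ 0 := Units.ne_zero _
  show (n : ℤ) * ((divQuot hn f : Divisor K F) + (divQuot hn g : Divisor K F)) v = _
  rw [Finsupp.add_apply, mul_add, divQuot_apply, divQuot_apply]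
  show _ = v.ord (((f : Fˣ) * (g : Fˣ) : Fˣ) : F)
  rw [Units.val_mul, v.ord_mul hf hg]


theorem divQuot_one [HasPrincipalDivisors K F] {n : ℕ} (hn : n ≠ 0) :
    divQuot hn (1 : unrSubgroup K F n) = 0 := by
  have h := divQuot_mul hn (1 : unrSubgroup K F n) 1
  rw [mul_one] at h
  exact (add_eq_left.mp h.symm)

/-- `f ↦ [(1/n) div f]`. -/
def kumHom [HasPrincipalDivisors K F] {n : ℕ} (hn : n ≠ 0) :
    unrSubgroup K F n →* Multiplicative (Pic0 K F) where
  toFun f := Multiplicative.ofAdd (Pic0.mk (divQuot hn f))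
  map_one' := by rw [divQuot_one hn]; rfl
  map_mul' f g := by rw [divQuot_mul hn f g, Pic0.mk_add]; rfl

theorem kumHom_apply [HasPrincipalDivisors K F] {n : ℕ} (hn : n ≠ 0) (f : unrSubgroup K F n) :
    Multiplicative.toAdd (kumHom hn f) = Pic0.mk (divQuot hn f) := rfl

theorem mk_eq_zero_iff (D : Divisor.degZero (K := K) (F := F)) :
    Pic0.mk D = 0 ↔ Divisor.IsPrincipal (D : Divisor K F) := by
  unfold Pic0.mk
  rw [QuotientAddGroup.eq_zero_iff, AddSubgroup.mem_addSubgroupOf, Divisor.mem_principal]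

/-- `n`-th powers have trivial class. -/
theorem kumHom_pow [HasPrincipalDivisors K F] {n : ℕ} (hn : n ≠ 0) (f : unrSubgroup K F n)
    (g : Fˣ) (hg : g ^ n = (f : Fˣ)) : kumHom hn f = 1 := by
  obtain ⟨D, hD, hdeg⟩ :=
    HasPrincipalDivisors.exists_divisor (K := K) ((g : Fˣ) : F) (Units.ne_zero _)
  have h1 : (⟨D, hdeg⟩ : Divisor.degZero (K := K) (F := F)) = divQuot hn f := by
    apply eq_divQuot
    intro v
    show (n : ℤ) * D v = _
    rw [hD v, ← hg, Units.val_pow_eq_pow_val, ← zpow_natCast, v.ord_zpow]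
  show Multiplicative.ofAdd (Pic0.mk (divQuot hn f)) = 1
  rw [← h1]
  have : Pic0.mk (⟨D, hdeg⟩ : Divisor.degZero (K := K) (F := F)) = 0 :=
    (mk_eq_zero_iff _).mpr ⟨(g : F), Units.ne_zero _, hD⟩
  rw [this]
  rfl

/-- The induced map on Kummer classes. -/
def kumLift [HasPrincipalDivisors K F] {n : ℕ} (hn : n ≠ 0) :
    UnrKummer K F n →* Multiplicative (Pic0 K F) :=
  QuotientGroup.lift (powSubgroup K F n) (kumHom hn) (by
    intro f hf
    rw [powSubgroup, Subgroup.mem_subgroupOf, MonoidHom.mem_range] at hf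
    obtain ⟨g, hg⟩ := hf
    exact kumHom_pow hn f g hg)

theorem kumLift_mk [HasPrincipalDivisors K F] {n : ℕ} (hn : n ≠ 0) (f : unrSubgroup K F n) :
    kumLift hn (QuotientGroup.mk f) = kumHom hn f := rfl

theorem nsmul_mk_divQuot [HasPrincipalDivisors K F] {n : ℕ} (hn : n ≠ 0)
    (f : unrSubgroup K F n) : (n : ℤ) • Pic0.mk (divQuot hn f) = 0 := by
  have h : (n : ℤ) • Pic0.mk (divQuot hn f) = Pic0.mk ((n : ℤ) • divQuot hn f) := rfl
  rw [h, mk_eq_zero_iff]
  refine ⟨((f : Fˣ) : F), Units.ne_zero _, fun v => ?_⟩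
  show ((n : ℤ) • (divQuot hn f : Divisor K F)) v = _
  rw [Finsupp.smul_apply, smul_eq_mul, divQuot_apply]

/-- The Kummer map `U_n(F) → Pic⁰(F)[n]`. -/
def kumAdd [HasPrincipalDivisors K F] {n : ℕ} (hn : n ≠ 0) :
    Additive (UnrKummer K F n) →+ Pic0.torsion K F n :=
  AddMonoidHom.codRestrict (MonoidHom.toAdditiveLeft (kumLift hn)) (Pic0.torsion K F n) (by
    intro x
    induction x using Additive.rec with
    | ofMul x =>
      induction x using QuotientGroup.induction_on with
      | H f =>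
        rw [Pic0.mem_torsion]
        exact nsmul_mk_divQuot hn f)

theorem kumAdd_mk [HasPrincipalDivisors K F] {n : ℕ} (hn : n ≠ 0) (f : unrSubgroup K F n) :
    ((kumAdd hn (Additive.ofMul (QuotientGroup.mk f)) : Pic0.torsion K F n) : Pic0 K F) =
      Pic0.mk (divQuot hn f) := rfl

theorem kumAdd_injective [HasPrincipalDivisors K F] {n : ℕ} (hn : n ≠ 0)
    (hconst : ∀ f : F, f ≠ 0 → (∀ v : Place K F, v.ord f = 0) → ∃ c : K, algebraMap K F c = f)
    (hpow : ∀ c : K, ∃ d : K, d ^ n = c) :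
    Function.Injective (kumAdd (K := K) (F := F) hn) := by
  rw [injective_iff_map_eq_zero]
  intro x hx
  induction x using Additive.rec with
  | ofMul x =>
    induction x using QuotientGroup.induction_on with
    | H f =>
      have h1 : Pic0.mk (divQuot hn f) = 0 := by
        rw [← kumAdd_mk hn f, hx]; rfl
      obtain ⟨g, hg0, hg⟩ := (mk_eq_zero_iff _).mp h1
      have hf0 : ((f : Fˣ) : F) ≠ 0 := Units.ne_zero _
      have hquot : ∀ v : Place K F, v.ord (((f : Fˣ) : F) * (g ^ n)⁻¹) = 0 := by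
        intro v
        rw [v.ord_mul hf0 (inv_ne_zero (pow_ne_zero n hg0)), v.ord_inv, ← zpow_natCast,
          v.ord_zpow, ← hg v, ← divQuot_apply hn f v]
        ring
      obtain ⟨c, hc⟩ := hconst _ (mul_ne_zero hf0 (inv_ne_zero (pow_ne_zero n hg0))) hquot
      obtain ⟨d, hd⟩ := hpow c
      have hd0 : d ≠ 0 := by
        rintro rfl
        rw [zero_pow hn] at hd
        rw [← hd, map_zero] at hc
        exact (mul_ne_zero hf0 (inv_ne_zero (pow_ne_zero n hg0))) hc.symm
      have hfe : ((f : Fˣ) : F) = (algebraMap K F d * g) ^ n := by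
        rw [mul_pow, ← map_pow, hd, hc]
        field_simp
      have hu : algebraMap K F d * g ≠ 0 :=
        mul_ne_zero ((map_ne_zero _).mpr hd0) hg0
      have hmem : f ∈ powSubgroup K F n := by
        rw [powSubgroup, Subgroup.mem_subgroupOf, MonoidHom.mem_range]
        refine ⟨Units.mk0 _ hu, ?_⟩
        apply Units.ext
        rw [powMonoidHom_apply, Units.val_pow_eq_pow_val, Units.val_mk0, hfe]
      show Additive.ofMul (QuotientGroup.mk f : UnrKummer K F n) = 0
      rw [(QuotientGroup.eq_one_iff f).mpr hmem]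
      rfl

theorem kumAdd_surjective [HasPrincipalDivisors K F] {n : ℕ} (hn : n ≠ 0) :
    Function.Surjective (kumAdd (K := K) (F := F) hn) := by
  rintro ⟨y, hy⟩
  obtain ⟨D, rfl⟩ := Pic0.mk_surjective y
  rw [Pic0.mem_torsion] at hy
  have h : (n : ℤ) • Pic0.mk D = Pic0.mk ((n : ℤ) • D) := rfl
  rw [h, mk_eq_zero_iff] at hy
  obtain ⟨f, hf0, hf⟩ := hy
  have hfv : ∀ v : Place K F, (n : ℤ) * (D : Divisor K F) v = v.ord f := by
    intro v
    rw [← hf v]
    show _ = ((n : ℤ) • (D : Divisor K F)) v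
    rw [Finsupp.smul_apply, smul_eq_mul]
  have hmem : Units.mk0 f hf0 ∈ unrSubgroup K F n := by
    intro v
    rw [Units.val_mk0, ← hfv v]
    exact dvd_mul_right _ _
  refine ⟨Additive.ofMul (QuotientGroup.mk ⟨Units.mk0 f hf0, hmem⟩), ?_⟩
  apply Subtype.ext
  rw [kumAdd_mk]
  congr 1
  symm
  apply eq_divQuot
  intro v
  exact hfv v

/-- **KUM** -/
theorem stmt_KUM_of [HasPrincipalDivisors K F] {n : ℕ} (hn : n ≠ 0)
    (hconst : ∀ f : F, f ≠ 0 → (∀ v : Place K F, v.ord f = 0) → ∃ c : K, algebraMap K F c = f)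
    (hpow : ∀ c : K, ∃ d : K, d ^ n = c) : Stmt_KUM K F n := by
  refine ⟨AddEquiv.ofBijective (kumAdd hn)
    ⟨kumAdd_injective hn hconst hpow, kumAdd_surjective hn⟩, ?_⟩
  intro f D hD
  show ((kumAdd hn (Additive.ofMul (QuotientGroup.mk f)) : Pic0.torsion K F n) : Pic0 K F) =
    Pic0.mk D
  rw [kumAdd_mk, eq_divQuot hn f D hD]

/-- **KUM** over an algebraically closed field of constants. -/
theorem stmt_KUM [IsAlgClosed K] [HasPrincipalDivisors K F] {n : ℕ} (hn : n ≠ 0)
    (hconst : ∀ f : F, f ≠ 0 → (∀ v : Place K F, v.ord f = 0) → ∃ c : K, algebraMap K F c = f) :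
    Stmt_KUM K F n :=
  stmt_KUM_of hn hconst fun c => IsAlgClosed.exists_pow_nat_eq c (Nat.pos_of_ne_zero hn)

end Fermat.Agent.GTor.H33

end
end
-- ==== END Fermat.Agent.GTor.H33_KUM

-- ==== BEGIN Fermat.Agent.GTor.H44_NormSeriesBC
section

/-!
# G-TOR, HK: base change of the formal Hecke norm series (helper44)

`coeffMap_normSeries`: for a ring homomorphism `ι : K → L` of fields, `K` containing a primitive
`ℓ`-th root of unity, `coeffMap ι (normSeries K ℓ s) = normSeries L ℓ (coeffMap ι s)`.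

Also `zetaUnit ℓ : ℂˣ`, the primitive root `exp(2πi/ℓ)`, and the explicit form of
`heckeNormSeries`.
-/

set_option autoImplicit false

noncomputable section

namespace Fermat.Agent.GTor.H44

open HahnSeries ModularCurve

section BaseChange

variable {K L : Type*} [Field K] [Field L] (ι : K →+* L) {ℓ : ℕ} [NeZero ℓ]

theorem coeffMap_twistBy (c : Kˣ) (s : LaurentSeries K) :
    coeffMap ι (twistBy c s) = twistBy (Units.map (ι : K →* L) c) (coeffMap ι s) := by
  ext m
  rw [coeffMap_coeff, twistBy_coeff, twistBy_coeff, coeffMap_coeff, map_mul, ← map_zpow]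
  rfl

theorem coeffMap_descend (P : LaurentSeries K) :
    coeffMap ι (descend ℓ P) = descend ℓ (coeffMap ι P) := by
  ext m
  rw [coeffMap_coeff, descend_coeff, descend_coeff, coeffMap_coeff]

theorem coeffMap_twistProd {ζ₀ : Kˣ} (hζ : IsPrimitiveRoot ζ₀ ℓ) (s : LaurentSeries K) :
    coeffMap ι (twistProd K ℓ s) = twistProd L ℓ (coeffMap ι s) := by
  have hinj : Function.Injective (Units.map (ι : K →* L)) :=
    Units.map_injective ι.injective
  have hζ' : IsPrimitiveRoot (Units.map (ι : K →* L) ζ₀) ℓ := hζ.map_of_injective hinj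
  rw [twistProd_eq_prod_range hζ, twistProd_eq_prod_range hζ', map_prod]
  refine Finset.prod_congr rfl fun j _ => ?_
  rw [coeffMap_twistBy, map_pow]

theorem coeffMap_normSeries {ζ₀ : Kˣ} (hζ : IsPrimitiveRoot ζ₀ ℓ) (s : LaurentSeries K) :
    coeffMap ι (normSeries K ℓ s) = normSeries L ℓ (coeffMap ι s) := by
  unfold normSeries
  rw [map_mul, ModularCurve.coeffMap_qExpand, coeffMap_descend, coeffMap_twistProd ι hζ]

end BaseChange

section Complex

variable (ℓ : ℕ) [NeZero ℓ]

/-- `exp(2πi/ℓ)` as a unit of `ℂ`. -/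
def zetaUnit : ℂˣ :=
  Units.mk0 (Complex.exp (2 * Real.pi * Complex.I / ℓ)) (Complex.exp_ne_zero _)

@[simp] theorem coe_zetaUnit :
    ((zetaUnit ℓ : ℂˣ) : ℂ) = Complex.exp (2 * Real.pi * Complex.I / ℓ) := rfl

theorem isPrimitiveRoot_zetaUnit : IsPrimitiveRoot (zetaUnit ℓ) ℓ := by
  rw [← IsPrimitiveRoot.coe_units_iff, coe_zetaUnit]
  exact Complex.isPrimitiveRoot_exp ℓ (NeZero.ne ℓ)

theorem heckeNormSeries_mul (s t : LaurentSeries ℂ) :
    heckeNormSeries ℓ (s * t) = heckeNormSeries ℓ s * heckeNormSeries ℓ t :=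
  normSeries_mul (isPrimitiveRoot_zetaUnit ℓ) s t

theorem heckeNormSeries_pow (s : LaurentSeries ℂ) (n : ℕ) :
    heckeNormSeries ℓ (s ^ n) = heckeNormSeries ℓ s ^ n :=
  normSeries_pow (isPrimitiveRoot_zetaUnit ℓ) s n

theorem heckeNormSeries_one : heckeNormSeries ℓ (1 : LaurentSeries ℂ) = 1 := normSeries_one

/-- the explicit form -/
theorem heckeNormSeries_eq (s : LaurentSeries ℂ) :
    heckeNormSeries ℓ s =
      qExpand ℂ ℓ s * descend ℓ (∏ j ∈ Finset.range ℓ, twistBy (zetaUnit ℓ ^ j) s) := by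
  unfold heckeNormSeries normSeries
  rw [twistProd_eq_prod_range (isPrimitiveRoot_zetaUnit ℓ)]

/-- how to recognise the Hecke norm series -/
theorem eq_heckeNormSeries_of_qExpand {s g : LaurentSeries ℂ}
    (h : qExpand ℂ ℓ g =
      qExpand ℂ ℓ (qExpand ℂ ℓ s) * ∏ j ∈ Finset.range ℓ, twistBy (zetaUnit ℓ ^ j) s) :
    g = heckeNormSeries ℓ s := by
  refine eq_normSeries_of_qExpand (isPrimitiveRoot_zetaUnit ℓ) ?_
  rw [twistProd_eq_prod_range (isPrimitiveRoot_zetaUnit ℓ)]
  exact h

theorem heckeNormSeries_ne_zero {s : LaurentSeries ℂ} (hs : s ≠ 0) :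
    heckeNormSeries ℓ s ≠ 0 := by
  intro h
  have h1 := heckeNormSeries_mul ℓ s s⁻¹
  rw [mul_inv_cancel₀ hs, heckeNormSeries_one, h, zero_mul] at h1
  exact one_ne_zero h1

theorem heckeNormSeries_inv (s : LaurentSeries ℂ) :
    heckeNormSeries ℓ s⁻¹ = (heckeNormSeries ℓ s)⁻¹ := by
  by_cases hs : s = 0
  · subst hs
    have h0 : heckeNormSeries ℓ (0 : LaurentSeries ℂ) = 0 := by
      unfold heckeNormSeries normSeries
      rw [map_zero, zero_mul]
    rw [inv_zero, h0, inv_zero]
  · have h1 := heckeNormSeries_mul ℓ s s⁻¹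
    rw [mul_inv_cancel₀ hs, heckeNormSeries_one] at h1
    exact eq_inv_of_mul_eq_one_right h1.symm

theorem heckeNormSeries_div (s t : LaurentSeries ℂ) :
    heckeNormSeries ℓ (s / t) = heckeNormSeries ℓ s / heckeNormSeries ℓ t := by
  rw [div_eq_mul_inv, heckeNormSeries_mul, heckeNormSeries_inv, div_eq_mul_inv]

end Complex

end Fermat.Agent.GTor.H44

end
end
-- ==== END Fermat.Agent.GTor.H44_NormSeriesBC

-- ==== BEGIN Fermat.Agent.GTor.H56_Common
section

/-!
# G-TOR: common lemmas for the packages CHAR and INJ (helper56)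

* `zetaPow_zero`, `zetaPow_add`, `zetaPow_pow`, `zetaPow_injective`;
* `IsTwistedForm.mul`, `IsTwistedForm.pow`, `isTwistedForm_of_modularForm`, `toModularForm`
  (a twisted form with trivial multiplier is a modular form);
* `qLaurent_mul`, `qLaurent_pow`, `qLaurent_eq_zero_iff`, `qLaurent_injective` for functions that
  are `Nice 1` (periodic, holomorphic, bounded at `i∞`).
-/

set_option autoImplicit false
set_option linter.style.haveILetI false

open UpperHalfPlane ModularForm
open scoped MatrixGroups ModularForm Manifold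

noncomputable section

namespace Fermat.Agent.GTor.H56

open Fermat.Agent.S23.H22 (Nice)

lemma zetaPow_zero (n : ℕ) : zetaPow n 0 = 1 := by
  simp [zetaPow]

lemma zetaPow_eq_pow (n : ℕ) (a : ZMod n) :
    zetaPow n a = Complex.exp (2 * Real.pi * Complex.I / (n : ℂ)) ^ (ZMod.val a) := by
  rw [zetaPow, ← Complex.exp_nat_mul]
  congr 1
  ring

lemma zetaPow_pow (n : ℕ) (a : ZMod n) : zetaPow n a ^ n = 1 := by
  rcases Nat.eq_zero_or_pos n with rfl | hn
  · simp
  · have : Complex.exp (2 * Real.pi * Complex.I / (n : ℂ)) ^ n = 1 :=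
      (Complex.isPrimitiveRoot_exp n hn.ne').pow_eq_one
    rw [zetaPow_eq_pow, ← pow_mul, Nat.mul_comm (ZMod.val a) n, pow_mul, this, one_pow]

lemma zetaPow_add (n : ℕ) (a b : ZMod n) : zetaPow n (a + b) = zetaPow n a * zetaPow n b := by
  rcases Nat.eq_zero_or_pos n with rfl | hn
  · simp [zetaPow]
  · haveI : NeZero n := ⟨hn.ne'⟩
    rw [zetaPow_eq_pow, zetaPow_eq_pow, zetaPow_eq_pow, ← pow_add, ZMod.val_add]
    have h := (Complex.isPrimitiveRoot_exp n hn.ne').pow_eq_one
    conv_rhs => rw [← Nat.mod_add_div (ZMod.val a + ZMod.val b) n]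
    rw [pow_add, pow_mul, h, one_pow, mul_one]

lemma zetaPow_injective {n : ℕ} (hn : n ≠ 0) : Function.Injective (zetaPow n) := by
  haveI : NeZero n := ⟨hn⟩
  intro a b h
  rw [zetaPow_eq_pow, zetaPow_eq_pow] at h
  have := (Complex.isPrimitiveRoot_exp n hn).pow_inj (ZMod.val_lt a) (ZMod.val_lt b) h
  exact ZMod.val_injective n this

/-! ### Twisted forms -/

variable {N n : ℕ} {k k₁ k₂ : ℤ}
  {φ ψ : Additive (CongruenceSubgroup.Gamma0 N) →+ ZMod n} {R R₁ R₂ : ℍ → ℂ}

lemma slash_pow_SL (k : ℤ) (n : ℕ) (γ : SL(2, ℤ)) (R : ℍ → ℂ) :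
    (fun z => R z ^ n) ∣[(n : ℤ) * k] γ = fun z => (R ∣[k] γ) z ^ n := by
  funext z
  rw [SL_slash_apply, SL_slash_apply, mul_pow, ← zpow_natCast (denom γ z ^ (-k)) n, ← zpow_mul]
  congr 2
  ring

lemma isBoundedAtImInfty_pow {F : ℍ → ℂ} (h : IsBoundedAtImInfty F) (n : ℕ) :
    IsBoundedAtImInfty (fun z => F z ^ n) := by
  induction n with
  | zero =>
    have : (fun z : ℍ => F z ^ 0) = fun _ => (1 : ℂ) := by funext z; simp
    rw [this]
    exact Filter.const_boundedAtFilter _ (1 : ℂ)
  | succ m ih =>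
    have : (fun z => F z ^ (m + 1)) = (fun z => F z ^ m) * F := by
      funext z; simp [pow_succ]
    rw [this]
    exact ih.mul h

lemma _root_.Fermat.Agent.GTor.IsTwistedForm.pow (h : IsTwistedForm N n k φ R) :
    IsTwistedForm N n ((n : ℤ) * k) 0 (fun z => R z ^ n) where
  mdiff := by
    have := h.mdiff.pow n
    exact this
  slash γ := by
    rw [slash_pow_SL, h.slash γ]
    funext z
    simp only [Pi.smul_apply, smul_eq_mul, mul_pow, zetaPow_pow, one_mul, AddMonoidHom.zero_apply,
      zetaPow_zero]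
  bdd σ := by
    rw [slash_pow_SL]
    exact isBoundedAtImInfty_pow (h.bdd σ) n

lemma _root_.Fermat.Agent.GTor.IsTwistedForm.mul (h₁ : IsTwistedForm N n k₁ φ R₁) (h₂ : IsTwistedForm N n k₂ ψ R₂) :
    IsTwistedForm N n (k₁ + k₂) (φ + ψ) (R₁ * R₂) where
  mdiff := h₁.mdiff.mul h₂.mdiff
  slash γ := by
    rw [mul_slash_SL2, h₁.slash γ, h₂.slash γ]
    funext z
    simp only [Pi.mul_apply, Pi.smul_apply, smul_eq_mul, AddMonoidHom.add_apply, zetaPow_add]
    ring
  bdd σ := by
    rw [mul_slash_SL2]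
    exact (h₁.bdd σ).mul (h₂.bdd σ)

lemma isTwistedForm_of_modularForm [NeZero N] (n : ℕ)
    (A : ModularForm (CongruenceSubgroup.Gamma0 N) k) :
    IsTwistedForm N n k 0 (A : ℍ → ℂ) where
  mdiff := A.holo'
  slash γ := by
    rw [AddMonoidHom.zero_apply, zetaPow_zero, one_smul, SL_slash]
    exact SlashInvariantFormClass.slash_action_eq A _ ⟨γ, γ.2, rfl⟩
  bdd σ := ModularFormClass.bdd_at_infty_slash A σ

/-- A twisted form with trivial multiplier is a modular form. -/
def toModularForm [NeZero N] (h : IsTwistedForm N n k 0 R) :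
    ModularForm (CongruenceSubgroup.Gamma0 N) k where
  toFun := R
  slash_action_eq' g hg := by
    obtain ⟨γ, hγ, rfl⟩ := hg
    have := h.slash ⟨γ, hγ⟩
    rw [AddMonoidHom.zero_apply, zetaPow_zero, one_smul, SL_slash] at this
    exact this
  holo' := h.mdiff
  bdd_at_cusps' {c} hc := by
    rw [Subgroup.IsArithmetic.isCusp_iff_isCusp_SL2Z] at hc
    rw [OnePoint.isBoundedAt_iff_forall_SL2Z hc]
    intro γ _
    exact h.bdd γ

@[simp] lemma toModularForm_coe [NeZero N] (h : IsTwistedForm N n k 0 R) :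
    (toModularForm h : ℍ → ℂ) = R := rfl

lemma nice_of_gamma0 [NeZero N] (A : ModularForm (CongruenceSubgroup.Gamma0 N) k) :
    Nice 1 (A : ℍ → ℂ) :=
  Fermat.Agent.S23.H22.nice_of_modularForm A one_pos
    (CongruenceSubgroup.one_mem_strictPeriods_Gamma0 N)

lemma _root_.Fermat.Agent.GTor.IsTwistedForm.nice_pow [NeZero N] (h : IsTwistedForm N n k φ R) :
    Nice 1 (fun z => R z ^ n) :=
  nice_of_gamma0 (toModularForm h.pow)

/-! ### `qLaurent` -/

lemma qLaurent_mul {F G : ℍ → ℂ} (hF : Nice 1 F) (hG : Nice 1 G) :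
    qLaurent (F * G) = qLaurent F * qLaurent G := by
  rw [qLaurent, qLaurent, qLaurent, hF.qExpansion_mul one_pos hG, map_mul]

lemma qLaurent_pow {F : ℍ → ℂ} (hF : Nice 1 F) (m : ℕ) :
    qLaurent (fun z => F z ^ m) = qLaurent F ^ m := by
  have : (fun z => F z ^ m) = F ^ m := rfl
  rw [this, qLaurent, qLaurent, hF.qExpansion_pow one_pos, map_pow]

lemma qLaurent_injective {F G : ℍ → ℂ} (hF : Nice 1 F) (hG : Nice 1 G)
    (h : qLaurent F = qLaurent G) : F = G :=
  Nice.eq_of_qExpansion_eq one_pos hF hG (HahnSeries.ofPowerSeries_injective h)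

lemma qLaurent_zero : qLaurent (0 : ℍ → ℂ) = 0 := by
  rw [qLaurent, UpperHalfPlane.qExpansion_zero, map_zero]

lemma qLaurent_eq_zero_iff {F : ℍ → ℂ} (hF : Nice 1 F) : qLaurent F = 0 ↔ F = 0 := by
  constructor
  · intro h
    exact qLaurent_injective hF (Nice.zero 1) (by rw [h, qLaurent_zero])
  · rintro rfl
    exact qLaurent_zero

end Fermat.Agent.GTor.H56

end
end
-- ==== END Fermat.Agent.GTor.H56_Common

-- ==== BEGIN Fermat.Agent.GTor.H56_DescAut
section

/-!
# G-TOR package DESC, sub-package AUT (helper56)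

`stmt_DescAut : H75.Stmt_DescAut k K`: for `K ⊇ k` algebraically closed of infinite transcendence
degree, every finite `c ⊆ K` is algebraic over `k[t]` for an algebraically independent `t`, and
there are `m` automorphisms `σ i` of `K / k` with `(t, σ_i⁻¹ σ_j t)` algebraically independent
for `i ≠ j`.

* `exists_algEquiv_perm`: every permutation of a transcendence basis extends to an automorphism.
-/

set_option autoImplicit false
set_option linter.style.haveILetI false

noncomputable section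

namespace Fermat.Agent.GTor.H56

open Algebra

/-- An algebraically closed field `K` has, for every permutation `e` of a transcendence basis `v`
over `k`, a `k`-automorphism `σ` with `σ (v i) = v (e i)`. -/
theorem exists_algEquiv_perm {k K : Type*} [Field k] [Field K] [Algebra k K] [IsAlgClosed K]
    {I : Type*} (v : I → K) (hv : IsTranscendenceBasis k v) (e : I ≃ I) :
    ∃ σ : K ≃ₐ[k] K, ∀ i, σ (v i) = v (e i) := by
  classical
  haveI := IsAlgClosed.isAlgClosure_of_transcendence_basis v hv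
  let eA : Algebra.adjoin k (Set.range v) ≃ₐ[k] Algebra.adjoin k (Set.range v) :=
    hv.1.aevalEquiv.symm.trans ((MvPolynomial.renameEquiv k e).trans hv.1.aevalEquiv)
  let σ : K ≃+* K := IsAlgClosure.equivOfEquiv K K eA.toRingEquiv
  have hσ : ∀ a : Algebra.adjoin k (Set.range v),
      σ (algebraMap _ K a) = algebraMap _ K (eA a) := fun a =>
    IsAlgClosure.equivOfEquiv_algebraMap K K eA.toRingEquiv a
  have hk : ∀ c : k, σ (algebraMap k K c) = algebraMap k K c := by
    intro c
    have h1 : algebraMap k K c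
        = algebraMap (Algebra.adjoin k (Set.range v)) K (algebraMap k _ c) := rfl
    rw [h1, hσ, AlgEquiv.commutes]
  refine ⟨AlgEquiv.ofRingEquiv (f := σ) hk, fun i => ?_⟩
  have hvi : v i = algebraMap (Algebra.adjoin k (Set.range v)) K
      (hv.1.aevalEquiv (MvPolynomial.X i)) := by
    simp [AlgebraicIndependent.aevalEquiv]
  have hvei : v (e i) = algebraMap (Algebra.adjoin k (Set.range v)) K
      (hv.1.aevalEquiv (MvPolynomial.X (e i))) := by
    simp [AlgebraicIndependent.aevalEquiv]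
  show σ (v i) = v (e i)
  rw [hvi, hσ, hvei]
  congr 1
  simp [eA]

/-- If `K` is not algebraic over any finitely generated subfield, every transcendence basis of
`K / k` is infinite. -/
theorem infinite_of_not_isAlgebraic {k K : Type*} [Field k] [Field K] [Algebra k K]
    (htr : ∀ s : Finset K, ∃ x : K,
      ¬ IsAlgebraic ↥(Subfield.closure (Set.range (algebraMap k K) ∪ (↑s : Set K))) x)
    (B : Set K) (hB : IsTranscendenceBasis k ((↑) : B → K)) : B.Infinite := by
  classical
  intro hfin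
  obtain ⟨x, hx⟩ := htr hfin.toFinset
  apply hx
  have halg : IsAlgebraic (adjoin k (Set.range ((↑) : B → K))) x :=
    hB.isAlgebraic.isAlgebraic x
  have hle : ∀ y ∈ adjoin k (Set.range ((↑) : B → K)),
      y ∈ Subfield.closure (Set.range (algebraMap k K) ∪ (↑hfin.toFinset : Set K)) := by
    intro y hy
    induction hy using Algebra.adjoin_induction with
    | mem y hy =>
      obtain ⟨b, rfl⟩ := hy
      exact Subfield.subset_closure (Or.inr (by simp))
    | algebraMap c => exact Subfield.subset_closure (Or.inl ⟨c, rfl⟩)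
    | add _ _ _ _ h1 h2 => exact add_mem h1 h2
    | mul _ _ _ _ h1 h2 => exact mul_mem h1 h2
  let f : adjoin k (Set.range ((↑) : B → K)) →+*
      Subfield.closure (Set.range (algebraMap k K) ∪ (↑hfin.toFinset : Set K)) :=
    { toFun := fun y => ⟨y, hle y y.2⟩
      map_one' := rfl
      map_mul' := fun _ _ => rfl
      map_zero' := rfl
      map_add' := fun _ _ => rfl }
  have := halg.ringHom_of_comp_eq f (RingHom.id K)
    (fun a b h => Subtype.ext (congrArg (fun z : Subfield.closure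
      (Set.range (algebraMap k K) ∪ (↑hfin.toFinset : Set K)) => (z : K)) h)) (by ext; rfl)
  simpa using this

/-- **DESC-AUT**. -/
theorem stmt_DescAut (k K : Type) [Field k] [Field K] [Algebra k K] [IsAlgClosed K] :
    H75.Stmt_DescAut k K := by
  classical
  intro htr c m
  obtain ⟨u, hu⟩ := (AlgebraicIndependent.matroid k K).exists_isBasis (c : Set K)
  obtain ⟨hu_ind, hu_sub, hu_alg⟩ := AlgebraicIndependent.matroid_isBasis_iff.mp hu
  obtain ⟨B, huB, hB⟩ := exists_isTranscendenceBasis_superset hu_ind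
  have hBinf : B.Infinite := infinite_of_not_isAlgebraic htr B hB
  have hufin : u.Finite := (c.finite_toSet).subset hu_sub
  haveI : Fintype ↥u := hufin.fintype
  let tEq : Fin (Fintype.card ↥u) ≃ ↥u := (Fintype.equivFin ↥u).symm
  have hSinf : (B \ (c : Set K)).Infinite := hBinf.sdiff c.finite_toSet
  let g : ℕ ↪ ↥(B \ (c : Set K)) := hSinf.natEmbedding
  let tB : Fin (Fintype.card ↥u) → ↥B := fun l => ⟨(tEq l : K), huB (tEq l).2⟩
  let uB : Fin m → Fin (Fintype.card ↥u) → ↥B := fun i l =>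
    ⟨(g ((finProdFinEquiv (i, l) : Fin (m * Fintype.card ↥u)) : ℕ) : K), (g _).2.1⟩
  have htB_inj : Function.Injective tB := by
    intro l l' h
    have h1 : (tEq l : K) = (tEq l' : K) := congrArg (fun z : ↥B => (z : K)) h
    exact tEq.injective (Subtype.ext h1)
  have huB_inj : ∀ i j l l', uB i l = uB j l' → i = j ∧ l = l' := by
    intro i j l l' h
    have h1 : (g ((finProdFinEquiv (i, l) : Fin (m * Fintype.card ↥u)) : ℕ) : K)
        = (g ((finProdFinEquiv (j, l') : Fin (m * Fintype.card ↥u)) : ℕ) : K) :=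
      congrArg (fun z : ↥B => (z : K)) h
    have h2 := g.injective (Subtype.ext h1)
    have h3 := finProdFinEquiv.injective (Fin.ext h2)
    exact ⟨congrArg Prod.fst h3, congrArg Prod.snd h3⟩
  have htu_ne : ∀ i l l', tB l ≠ uB i l' := by
    intro i l l' h
    have h1 : (tEq l : K) = (g ((finProdFinEquiv (i, l') : Fin (m * Fintype.card ↥u)) : ℕ) : K) :=
      congrArg (fun z : ↥B => (z : K)) h
    have h2 : (tEq l : K) ∈ (c : Set K) := hu_sub (tEq l).2
    rw [h1] at h2
    exact (g _).2.2 h2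
  have hι_inj : ∀ i, Function.Injective (Sum.elim tB (uB i)) := by
    intro i x y h
    rcases x with l | l <;> rcases y with l' | l'
    · simp only [Sum.elim_inl] at h
      rw [htB_inj h]
    · simp only [Sum.elim_inl, Sum.elim_inr] at h
      exact absurd h (htu_ne i l l')
    · simp only [Sum.elim_inl, Sum.elim_inr] at h
      exact absurd h.symm (htu_ne i l' l)
    · simp only [Sum.elim_inr] at h
      rw [(huB_inj i i l l' h).2]
  let ι : Fin m → (Fin (Fintype.card ↥u) ⊕ Fin (Fintype.card ↥u) ↪ ↥B) := fun i =>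
    ⟨Sum.elim tB (uB i), hι_inj i⟩
  let π : Fin m → Equiv.Perm ↥B := fun i =>
    Equiv.Perm.viaFintypeEmbedding
      (Equiv.sumComm (Fin (Fintype.card ↥u)) (Fin (Fintype.card ↥u))) (ι i)
  have hσex : ∀ i, ∃ σ : K ≃ₐ[k] K, ∀ b : ↥B, σ (b : K) = ((π i b : ↥B) : K) := fun i =>
    exists_algEquiv_perm ((↑) : ↥B → K) hB (π i)
  choose σ hσ using hσex
  have hπt : ∀ i l, π i (tB l) = uB i l := by
    intro i l
    have := Equiv.Perm.viaFintypeEmbedding_apply_image
      (Equiv.sumComm (Fin (Fintype.card ↥u)) (Fin (Fintype.card ↥u))) (ι i) (Sum.inl l)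
    simpa [ι, π] using this
  have hπu : ∀ i j l, i ≠ j → π i (uB j l) = uB j l := by
    intro i j l hij
    show Equiv.Perm.viaFintypeEmbedding
      (Equiv.sumComm (Fin (Fintype.card ↥u)) (Fin (Fintype.card ↥u))) (ι i) (uB j l) = uB j l
    apply Equiv.Perm.viaFintypeEmbedding_apply_notMem_range
    rintro ⟨x, hx⟩
    rcases x with l' | l'
    · exact htu_ne j l' l hx
    · exact hij (huB_inj i j l' l hx).1
  refine ⟨Fintype.card ↥u, fun l => (tEq l : K), σ, ?_, ?_, ?_⟩
  · exact hB.1.comp tB htB_inj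
  · intro x hx
    have hrange : Set.range (fun l : Fin (Fintype.card ↥u) => (tEq l : K)) = u := by
      ext y
      constructor
      · rintro ⟨l, rfl⟩
        exact (tEq l).2
      · intro hy
        exact ⟨tEq.symm ⟨y, hy⟩, by simp⟩
    rw [hrange]
    exact hu_alg x hx
  · intro i j hij
    have key : (Sum.elim (fun l => (tEq l : K))
        (fun l => (σ i).symm (σ j ((tEq l : K))))) = ((↑) : ↥B → K) ∘ (ι j) := by
      funext x
      rcases x with l | l
      · rfl
      · simp only [Sum.elim_inr, Function.comp_apply]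
        rw [AlgEquiv.symm_apply_eq]
        have h1 : σ j ((tEq l : K)) = ((uB j l : ↥B) : K) := by
          have := hσ j (tB l)
          rw [hπt] at this
          exact this
        have h2 : σ i ((uB j l : ↥B) : K) = ((uB j l : ↥B) : K) := by
          have := hσ i (uB j l)
          rw [hπu i j l hij] at this
          exact this
        rw [h1]
        show ((uB j l : ↥B) : K) = σ i ((uB j l : ↥B) : K)
        rw [h2]
    rw [key]
    exact hB.1.comp (ι j) (ι j).injective

end Fermat.Agent.GTor.H56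

end
end
-- ==== END Fermat.Agent.GTor.H56_DescAut

-- ==== BEGIN Fermat.Agent.GTor.H56_FinUnr
section

/-!
# G-TOR package DESC: finiteness of `U_n(F_ℂ)` (helper56)

`finite_unrKummer`: from `Stmt_BETTI N n` (`U_n(F_ℂ) ≃ Hom_pe(Γ₀(N), ZMod n)`), `U_n(F_ℂ)` is finite,
because `Γ₀(N)` is finitely generated and `ZMod n` is finite.
-/

set_option autoImplicit false
set_option linter.style.haveILetI false
set_option linter.unusedSectionVars false

noncomputable section

namespace Fermat.Agent.GTor.H56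

open AlgebraicCurve ModularCurve Fermat.Agent.GTor CongruenceSubgroup
open scoped MatrixGroups

/-- Homomorphisms from a finitely generated group to a finite group form a finite set. -/
theorem finite_addMonoidHom_of_fg (Γ : Type*) [Group Γ] [hfg : Group.FG Γ] (A : Type*)
    [AddCommGroup A] [Finite A] : Finite (Additive Γ →+ A) := by
  classical
  obtain ⟨S, hS, hfin⟩ := Group.fg_iff.mp hfg
  haveI : Finite ↥S := hfin.to_subtype
  let r : (Additive Γ →+ A) → (↥S → A) := fun φ s => φ (Additive.ofMul (s : Γ))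
  apply Finite.of_injective r
  intro φ ψ h
  have heq : ∀ γ : Γ, φ (Additive.ofMul γ) = ψ (Additive.ofMul γ) := by
    intro γ
    have hγ : γ ∈ Subgroup.closure S := by rw [hS]; trivial
    induction hγ using Subgroup.closure_induction with
    | mem x hx => exact congrFun h ⟨x, hx⟩
    | one => rw [ofMul_one, map_zero, map_zero]
    | mul x y _ _ hx hy => rw [ofMul_mul, map_add, map_add, hx, hy]
    | inv x _ hx => rw [ofMul_inv, map_neg, map_neg, hx]
  ext x
  exact heq (Additive.toMul x)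

theorem groupFG_SL2Z' : Group.FG SL(2, ℤ) := by
  rw [Group.fg_iff]
  exact ⟨{ModularGroup.S, ModularGroup.T}, SpecialLinearGroup.SL2Z_generators, Set.toFinite _⟩

theorem groupFG_Gamma0' (N : ℕ) [NeZero N] : Group.FG ↥(Gamma0 N) := by
  haveI := groupFG_SL2Z'
  exact Subgroup.fg_of_index_ne_zero (Gamma0 N)

/-- **Finiteness of `U_n(F_ℂ)`** from BETTI. -/
theorem finite_unrKummer (N n : ℕ) [NeZero N] (hn : n ≠ 0) (hB : Stmt_BETTI N n) :
    Finite (UnrKummer ℂ (FNL ℂ N) n) := by
  obtain ⟨e, -⟩ := hB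
  haveI : NeZero n := ⟨hn⟩
  haveI := groupFG_Gamma0' N
  haveI : Finite (Additive ↥(Gamma0 N) →+ ZMod n) := finite_addMonoidHom_of_fg _ _
  haveI : Finite ↥(homPE (Gamma0 N) (ZMod n)) := Subtype.finite
  haveI : Finite (Additive (UnrKummer ℂ (FNL ℂ N) n)) := Finite.of_equiv _ e.symm.toEquiv
  exact Finite.of_equiv _ (Additive.ofMul (α := UnrKummer ℂ (FNL ℂ N) n)).symm

end Fermat.Agent.GTor.H56

end
end
-- ==== END Fermat.Agent.GTor.H56_FinUnr
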