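-- GENERATED (merged mirror, NOTES/tools/trim/merge3_helper67.py): 15 modules of the originals, bodies verbatim.
import Mathlib
import Fermat.Prelude.Def_EllipticCurve_FrobeniusTrace
import Fermat.Prelude.Def_GaloisRep_Adic
import Fermat.Agent.Zm.S35_L01_000
import Fermat.Agent.Zm.S35_L01_001
import Fermat.Agent.Zm.S35_L01_005
import Fermat.Agent.Lib.FrobDensity.Defs
import Fermat.Agent.Lib.FrobDensity.H31_Count
import Fermat.Agent.Lib.FrobDensity.H31_DegOne

-- ==== BEGIN Fermat.Agent.GTor.H75_DescDefs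
section
attribute [local instance 10000] SubalgebraClass.toAlgebra
attribute [local instance 10000] HahnSeries.powerSeriesAlgebra

/-!
# G-TOR package DESC (helper75): definitions and sub-interfaces

`bcHom ι F₀ : F_{L₁} →+* F_{L₂}` is the base change of the Laurent-series function field along a
ring homomorphism `ι : L₁ →+* L₂` of fields (coefficientwise).  The four clauses of
`Stmt_DESC` are split into the sub-statements below, all stated for `bcHom`.
-/

set_option autoImplicit false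
set_option linter.unusedSectionVars false

noncomputable section

namespace Fermat.Agent.GTor.H75

open AlgebraicCurve ModularCurve

section BaseChange

variable {L₁ L₂ : Type} [Field L₁] [Field L₂] [Algebra ℚ L₁] [Algebra ℚ L₂]

theorem coeffMap_coeffEmb' (ι : L₁ →+* L₂) (x : LaurentSeries ℚ) :
    coeffMap ι (coeffEmb L₁ x) = coeffEmb L₂ x := by
  rw [coeffEmb, coeffMap_coeffMap]
  exact coeffMap_congr (RingHom.ext fun c => by simp) x

theorem coeffMap_algebraMap' (ι : L₁ →+* L₂) (c : L₁) :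
    coeffMap ι (algebraMap L₁ (LaurentSeries L₁) c) = algebraMap L₂ (LaurentSeries L₂) (ι c) := by
  rw [algebraMap_laurentSeries_eq_single, algebraMap_laurentSeries_eq_single, coeffMap_single]

theorem coeffMap_injective (ι : L₁ →+* L₂) : Function.Injective (coeffMap ι) := by
  intro x y h
  ext m
  have := congrArg (fun z => z.coeff m) h
  simpa using ι.injective this

theorem coeffMap_mem_laurentBaseChange' (ι : L₁ →+* L₂)
    (F₀ : IntermediateField ℚ (LaurentSeries ℚ)) {x : LaurentSeries L₁}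
    (hx : x ∈ laurentBaseChange L₁ F₀) : coeffMap ι x ∈ laurentBaseChange L₂ F₀ := by
  rw [mem_laurentBaseChange_iff] at hx
  induction hx using Subfield.closure_induction with
  | mem y hy =>
      rcases hy with ⟨a, rfl⟩ | ⟨z, hz, rfl⟩
      · rw [coeffMap_algebraMap']
        exact (laurentBaseChange L₂ F₀).algebraMap_mem _
      · rw [coeffMap_coeffEmb']
        exact coeffEmb_mem_laurentBaseChange L₂ hz
  | one => simp
  | add x y _ _ hx hy => simpa using add_mem hx hy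
  | neg x _ hx => simpa using neg_mem hx
  | inv x _ hx => simpa using inv_mem hx
  | mul x y _ _ hx hy => simpa using mul_mem hx hy

/-- Base change of the function field along `ι`, coefficientwise on `q`-expansions. -/
def bcHom (ι : L₁ →+* L₂) (F₀ : IntermediateField ℚ (LaurentSeries ℚ)) :
    ↥(laurentBaseChange L₁ F₀) →+* ↥(laurentBaseChange L₂ F₀) where
  toFun x := ⟨coeffMap ι (x : LaurentSeries L₁), coeffMap_mem_laurentBaseChange' ι F₀ x.2⟩
  map_one' := Subtype.ext (by simp)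
  map_mul' x y := Subtype.ext (by simp)
  map_zero' := Subtype.ext (by simp)
  map_add' x y := Subtype.ext (by simp)

@[simp]
theorem bcHom_coe (ι : L₁ →+* L₂) (F₀ : IntermediateField ℚ (LaurentSeries ℚ))
    (x : ↥(laurentBaseChange L₁ F₀)) :
    ((bcHom ι F₀ x : ↥(laurentBaseChange L₂ F₀)) : LaurentSeries L₂)
      = coeffMap ι (x : LaurentSeries L₁) := rfl

theorem bcHom_injective (ι : L₁ →+* L₂) (F₀ : IntermediateField ℚ (LaurentSeries ℚ)) :
    Function.Injective (bcHom ι F₀) := (bcHom ι F₀).injective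

theorem bcHom_algebraMap (ι : L₁ →+* L₂) (F₀ : IntermediateField ℚ (LaurentSeries ℚ)) (c : L₁) :
    bcHom ι F₀ (algebraMap L₁ _ c) = algebraMap L₂ _ (ι c) :=
  Subtype.ext (coeffMap_algebraMap' ι c)

theorem isBaseChange_bcHom (ι : L₁ →+* L₂) (N : ℕ) [NeZero N] :
    IsBaseChange ι N (bcHom ι (modularFunctionFieldFull N)) := fun _ _ => rfl

end BaseChange

/-! ## Sub-interfaces of DESC -/

section Stmts

variable (k K : Type) [Field k] [Field K] [Algebra ℚ k] [Algebra ℚ K]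
variable (F₀ : IntermediateField ℚ (LaurentSeries ℚ))

/-- **DESC-ROOT** (clause 3): an `n`-th root over the big field descends.
(Leading coefficient in `k` as `k` is algebraically closed; then coefficients by induction;
then `k((q)) ∩ K(F₀) = k(F₀)` by linear algebra.) -/
def Stmt_DescRoot : Prop :=
  ∀ [IsAlgClosed k] [CharZero k] (ι : k →+* K) (n : ℕ), 0 < n →
    ∀ f : ↥(laurentBaseChange k F₀), f ≠ 0 →
      (∃ h : ↥(laurentBaseChange K F₀), bcHom ι F₀ f = h ^ n) →
      ∃ h₀ : ↥(laurentBaseChange k F₀), f = h₀ ^ n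

/-- **DESC-DOWN** (clause 2, `⇒`): a place `w` of `F_K` restricts to a place of `F_k` or to the
trivial valuation, and `ord_w (bc g) = e * ord_v g`.  Consequence for divisibility: -/
def Stmt_DescPlaceDown : Prop :=
  ∀ (ι : k →+* K) (n : ℕ) (f : ↥(laurentBaseChange k F₀)), f ≠ 0 →
    (∀ v : Place k ↥(laurentBaseChange k F₀), (n : ℤ) ∣ v.ord f) →
    ∀ w : Place K ↥(laurentBaseChange K F₀), (n : ℤ) ∣ w.ord (bcHom ι F₀ f)

/-- **DESC-UP** (clause 2, `⇐`): every place `v` of `F_k` with residue field `k` extends to a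
place `w` of `F_K` with `ord_w (bc g) = ord_v g` (Gauss extension, `e = 1`). -/
def Stmt_DescPlaceUp : Prop :=
  ∀ (ι : k →+* K) (v : Place k ↥(laurentBaseChange k F₀)), v.deg = 1 →
    ∃ w : Place K ↥(laurentBaseChange K F₀),
      ∀ g : ↥(laurentBaseChange k F₀), w.ord (bcHom ι F₀ g) = v.ord g

/-- **DESC-CORE** (clause 4): if `U_n(F_K)` is finite, `k ⊆ K` are algebraically closed of
characteristic `0` and `K` has infinite transcendence degree over `k`, every unramified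
function over `K` is, up to an `n`-th power, defined over `k`. -/
def Stmt_DescCore : Prop :=
  ∀ [IsAlgClosed k] [IsAlgClosed K] [CharZero k] (ι : k →+* K) (n : ℕ), 0 < n →
    (∀ s : Finset K, ∃ x : K, ¬ IsAlgebraic ↥(Subfield.closure (Set.range ι ∪ ↑s)) x) →
    Finite (UnrKummer K ↥(laurentBaseChange K F₀) n) →
    ∀ f : ↥(laurentBaseChange K F₀), f ≠ 0 →
      (∀ w : Place K ↥(laurentBaseChange K F₀), (n : ℤ) ∣ w.ord f) →
      ∃ (f₀ : ↥(laurentBaseChange k F₀)) (h : ↥(laurentBaseChange K F₀)),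
        f₀ ≠ 0 ∧ h ≠ 0 ∧ f = bcHom ι F₀ f₀ * h ^ n

end Stmts

end Fermat.Agent.GTor.H75

end
end
-- ==== END Fermat.Agent.GTor.H75_DescDefs

-- ==== BEGIN Fermat.Agent.GTor.H81_Betti
section

/-!
# G-TOR plumbing: `Stmt_BETTI` from `Stmt_MONO`, `Stmt_CHAR`, `Stmt_INJ`, `Stmt_EXIST`  (helper81)
-/

set_option autoImplicit false

noncomputable section

namespace Fermat.Agent.GTor.H81

open AlgebraicCurve ModularCurve UpperHalfPlane Fermat.Agent.GTor
open scoped MatrixGroups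

variable (N n : ℕ) [NeZero N]

/-- the character of an unramified function (chosen by `Stmt_MONO`). -/
def charOf (hM : Stmt_MONO N n) (f : unrSubgroup ℂ (FNL ℂ N) n) :
    homPE (CongruenceSubgroup.Gamma0 N) (ZMod n) :=
  ⟨(hM f).choose, (hM f).choose_spec.1⟩

theorem hasChar_charOf (hM : Stmt_MONO N n) (f : unrSubgroup ℂ (FNL ℂ N) n) :
    HasChar N n ((f : (FNL ℂ N)ˣ) : FNL ℂ N)
      ((charOf N n hM f : homPE (CongruenceSubgroup.Gamma0 N) (ZMod n)) :
        Additive (CongruenceSubgroup.Gamma0 N) →+ ZMod n) :=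
  (hM f).choose_spec.2

theorem charOf_eq (hM : Stmt_MONO N n) (hC : Stmt_CHAR N n) (f : unrSubgroup ℂ (FNL ℂ N) n)
    (φ : Additive (CongruenceSubgroup.Gamma0 N) →+ ZMod n)
    (h : HasChar N n ((f : (FNL ℂ N)ˣ) : FNL ℂ N) φ) :
    ((charOf N n hM f : homPE (CongruenceSubgroup.Gamma0 N) (ZMod n)) :
        Additive (CongruenceSubgroup.Gamma0 N) →+ ZMod n) = φ :=
  hC.1 _ _ _ (f : (FNL ℂ N)ˣ).ne_zero (hasChar_charOf N n hM f) h

/-- the character map as a monoid homomorphism. -/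
def charHom (hM : Stmt_MONO N n) (hC : Stmt_CHAR N n) :
    unrSubgroup ℂ (FNL ℂ N) n →* Multiplicative (homPE (CongruenceSubgroup.Gamma0 N) (ZMod n)) where
  toFun f := Multiplicative.ofAdd (charOf N n hM f)
  map_one' := by
    have h1 : HasChar N n (((1 : unrSubgroup ℂ (FNL ℂ N) n) : (FNL ℂ N)ˣ) : FNL ℂ N) 0 := by
      have := hC.2.2 (1 : FNL ℂ N) one_ne_zero
      simpa using this
    have h2 := charOf_eq N n hM hC 1 0 h1
    have h3 : charOf N n hM 1 = 0 := Subtype.ext h2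
    rw [h3]; rfl
  map_mul' f g := by
    have h1 := hC.2.1 _ _ _ _ (f : (FNL ℂ N)ˣ).ne_zero (g : (FNL ℂ N)ˣ).ne_zero
      (hasChar_charOf N n hM f) (hasChar_charOf N n hM g)
    have h2 := charOf_eq N n hM hC (f * g) _ (by simpa using h1)
    have h3 : charOf N n hM (f * g) = charOf N n hM f + charOf N n hM g := Subtype.ext h2
    rw [h3]; rfl

theorem charHom_apply (hM : Stmt_MONO N n) (hC : Stmt_CHAR N n)
    (f : unrSubgroup ℂ (FNL ℂ N) n) :
    charHom N n hM hC f = Multiplicative.ofAdd (charOf N n hM f) := rfl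

theorem charHom_surjective (hM : Stmt_MONO N n) (hC : Stmt_CHAR N n) (hE : Stmt_EXIST N n) :
    Function.Surjective (charHom N n hM hC) := by
  intro φ
  obtain ⟨f, hf⟩ := hE (Multiplicative.toAdd φ).1 (Multiplicative.toAdd φ).2
  refine ⟨f, ?_⟩
  rw [charHom_apply]
  have h2 := charOf_eq N n hM hC f _ hf
  have h3 : charOf N n hM f = Multiplicative.toAdd φ := Subtype.ext h2
  rw [h3]; rfl

theorem ker_charHom (hM : Stmt_MONO N n) (hC : Stmt_CHAR N n) (hI : Stmt_INJ N n) :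
    (charHom N n hM hC).ker = powSubgroup ℂ (FNL ℂ N) n := by
  ext f
  rw [MonoidHom.mem_ker, charHom_apply]
  constructor
  · intro h
    have h0 : charOf N n hM f = 0 := by
      have := congrArg Multiplicative.toAdd h
      simpa using this
    have h1 := hasChar_charOf N n hM f
    rw [h0] at h1
    obtain ⟨g, hg⟩ := hI _ (f : (FNL ℂ N)ˣ).ne_zero (by simpa using h1)
    rw [powSubgroup, Subgroup.mem_subgroupOf, MonoidHom.mem_range]
    by_cases hg0 : g = 0
    · by_cases hn : n = 0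
      · refine ⟨1, ?_⟩
        apply Units.ext
        subst hn
        simp [hg]
      · exfalso
        apply (f : (FNL ℂ N)ˣ).ne_zero
        rw [hg, hg0, zero_pow hn]
    · refine ⟨Units.mk0 g hg0, ?_⟩
      apply Units.ext
      simp [hg]
  · intro h
    rw [powSubgroup, Subgroup.mem_subgroupOf, MonoidHom.mem_range] at h
    obtain ⟨g, hg⟩ := h
    have h1 := hC.2.2 (g : FNL ℂ N) g.ne_zero
    have h2 : ((f : (FNL ℂ N)ˣ) : FNL ℂ N) = (g : FNL ℂ N) ^ n := by
      rw [← hg]; simp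
    rw [← h2] at h1
    have h3 := charOf_eq N n hM hC f 0 h1
    have h4 : charOf N n hM f = 0 := Subtype.ext h3
    rw [h4]; rfl

/-- **BETTI** from its four inputs. -/
theorem betti_of (hM : Stmt_MONO N n) (hC : Stmt_CHAR N n) (hI : Stmt_INJ N n)
    (hE : Stmt_EXIST N n) : Stmt_BETTI N n := by
  have hker := ker_charHom N n hM hC hI
  let e₁ : UnrKummer ℂ (FNL ℂ N) n ≃* (unrSubgroup ℂ (FNL ℂ N) n ⧸ (charHom N n hM hC).ker) :=
    QuotientGroup.quotientMulEquivOfEq hker.symm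
  let e₂ := QuotientGroup.quotientKerEquivOfSurjective (charHom N n hM hC)
    (charHom_surjective N n hM hC hE)
  refine ⟨MulEquiv.toAdditiveLeft (e₁.trans e₂), fun f => ?_⟩
  have : (MulEquiv.toAdditiveLeft (e₁.trans e₂)) (Additive.ofMul (QuotientGroup.mk f))
      = charOf N n hM f := rfl
  rw [this]
  exact hasChar_charOf N n hM f

end Fermat.Agent.GTor.H81

end
end
-- ==== END Fermat.Agent.GTor.H81_Betti

-- ==== BEGIN Fermat.Agent.GTor.H96_LocCusp
section

set_option autoImplicit false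

noncomputable section

namespace Fermat.Agent.GTor.H96

open Complex UpperHalfPlane Filter Topology Function
open scoped MatrixGroups ModularForm Manifold Real

/-- A function on `ℍ` that is `h`-periodic, holomorphic and bounded at `i∞`. -/
structure IsCuspRegular (h : ℝ) (X : ℍ → ℂ) : Prop where
  per : Function.Periodic (X ∘ UpperHalfPlane.ofComplex) h
  hol : MDifferentiable 𝓘(ℂ) 𝓘(ℂ) X
  bdd : IsBoundedAtImInfty X

variable {h : ℝ} {X : ℍ → ℂ}

theorem IsCuspRegular.analyticAt (hh : 0 < h) (hX : IsCuspRegular h X) :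
    AnalyticAt ℂ (cuspFunction h X) 0 :=
  UpperHalfPlane.analyticAt_cuspFunction_zero hh hX.per hX.hol hX.bdd

theorem IsCuspRegular.eq_cuspFunction (hh : 0 < h) (hX : IsCuspRegular h X) (z : ℍ) :
    cuspFunction h X (Function.Periodic.qParam h (z : ℂ)) = X z :=
  UpperHalfPlane.eq_cuspFunction z hh.ne' hX.per

theorem IsCuspRegular.qExpansion_ne_zero (hh : 0 < h) (hX : IsCuspRegular h X) (hX0 : X ≠ 0) :
    qExpansion h X ≠ 0 := fun h0 =>
  hX0 ((UpperHalfPlane.qExpansion_eq_zero_iff hh hX.per hX.hol hX.bdd).mp h0)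

/-- The order of the cusp function at `0` is the order of the `q`-expansion. -/
theorem IsCuspRegular.analyticOrderAt_eq (hh : 0 < h) (hX : IsCuspRegular h X) (hX0 : X ≠ 0) :
    analyticOrderAt (cuspFunction h X) 0 = (((qExpansion h X).order.toNat : ℕ) : ℕ∞) := by
  have hne := hX.qExpansion_ne_zero hh hX0
  have hord : (qExpansion h X).order = (((qExpansion h X).order.toNat : ℕ) : ℕ∞) :=
    (PowerSeries.coe_toNat_order hne).symm
  obtain ⟨hc, hlt⟩ := PowerSeries.order_eq_nat.mp hord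
  rw [analyticOrderAt_eq_nat_iff_iteratedDeriv_eq_zero (hX.analyticAt hh)]
  constructor
  · intro i hi
    have := hlt i hi
    rw [UpperHalfPlane.qExpansion_coeff] at this
    rcases mul_eq_zero.mp this with h1 | h1
    · exact absurd h1 (inv_ne_zero (Nat.cast_ne_zero.mpr (Nat.factorial_ne_zero i)))
    · exact h1
  · intro h0
    apply hc
    rw [UpperHalfPlane.qExpansion_coeff, h0, mul_zero]

/-- The leading term factorisation of the cusp function. -/
theorem IsCuspRegular.exists_leading_factor (hh : 0 < h) (hX : IsCuspRegular h X) (hX0 : X ≠ 0) :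
    ∃ u : ℂ → ℂ, AnalyticAt ℂ u 0 ∧ u 0 ≠ 0 ∧
      ∀ᶠ q in 𝓝 (0 : ℂ), cuspFunction h X q = q ^ ((qExpansion h X).order.toNat) * u q := by
  obtain ⟨u, hu, hu0, hev⟩ :=
    (hX.analyticAt hh).analyticOrderAt_eq_natCast.mp (hX.analyticOrderAt_eq hh hX0)
  refine ⟨u, hu, hu0, ?_⟩
  filter_upwards [hev] with q hq
  simpa using hq

/-- The leading term factorisation near `i∞`. -/
theorem IsCuspRegular.eventually_eq_leading (hh : 0 < h) (hX : IsCuspRegular h X) (hX0 : X ≠ 0) :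
    ∃ u : ℂ → ℂ, AnalyticAt ℂ u 0 ∧ u 0 ≠ 0 ∧
      ∀ᶠ z : ℍ in atImInfty, X z = (Function.Periodic.qParam h (z : ℂ)) ^
        ((qExpansion h X).order.toNat) * u (Function.Periodic.qParam h (z : ℂ)) := by
  obtain ⟨u, hu, hu0, hev⟩ := hX.exists_leading_factor hh hX0
  refine ⟨u, hu, hu0, ?_⟩
  have ht := UpperHalfPlane.qParam_tendsto_atImInfty hh
  filter_upwards [ht.eventually hev] with z hz
  rw [← hz, hX.eq_cuspFunction hh]

/-! ### Integer powers of the parameter `q` -/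

/-- `qPow h e z = exp (2 π i e z / h)`, the `e`-th power of `q_h`, `e ∈ ℤ`. -/
def qPow (h : ℝ) (e : ℤ) (z : ℂ) : ℂ := Complex.exp (2 * π * Complex.I * e * z / h)

theorem qPow_ne_zero (h : ℝ) (e : ℤ) (z : ℂ) : qPow h e z ≠ 0 := Complex.exp_ne_zero _

theorem qPow_zero (h : ℝ) (z : ℂ) : qPow h 0 z = 1 := by simp [qPow]

theorem qPow_add (h : ℝ) (e₁ e₂ : ℤ) (z : ℂ) :
    qPow h (e₁ + e₂) z = qPow h e₁ z * qPow h e₂ z := by
  unfold qPow
  rw [← Complex.exp_add]
  congr 1
  push_cast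
  ring

theorem qPow_neg (h : ℝ) (e : ℤ) (z : ℂ) : qPow h (-e) z = (qPow h e z)⁻¹ := by
  unfold qPow
  rw [← Complex.exp_neg]
  congr 1
  push_cast
  ring

theorem qPow_natCast (h : ℝ) (M : ℕ) (z : ℂ) :
    qPow h (M : ℤ) z = (Function.Periodic.qParam h z) ^ M := by
  unfold qPow Function.Periodic.qParam
  rw [← Complex.exp_nat_mul]
  congr 1
  push_cast
  ring

theorem qPow_pow (h : ℝ) (e : ℤ) (n : ℕ) (z : ℂ) : qPow h e z ^ n = qPow h (n * e) z := by
  unfold qPow
  rw [← Complex.exp_nat_mul]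
  congr 1
  push_cast
  ring

theorem qPow_add_real (h : ℝ) (e : ℤ) (w : ℝ) (z : ℂ) :
    qPow h e (w + z) = Complex.exp (2 * π * Complex.I * e * w / h) * qPow h e z := by
  unfold qPow
  rw [← Complex.exp_add]
  congr 1
  ring

theorem differentiable_qPow (h : ℝ) (e : ℤ) : Differentiable ℂ (qPow h e) := by
  unfold qPow
  fun_prop

theorem mdifferentiable_qPow (h : ℝ) (e : ℤ) :
    MDifferentiable 𝓘(ℂ) 𝓘(ℂ) (fun z : ℍ => qPow h e (z : ℂ)) :=
  Fermat.Agent.Lib.NthRoot.mdifferentiable_comp_coe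
    ((differentiable_qPow h e).differentiableOn.analyticOnNhd isOpen_upperHalfPlaneSet)

/-- If `w * e` is an integer multiple of `h`, then `qPow h e` is `w`-periodic. -/
theorem qPow_add_real_of_int {h : ℝ} (hh : h ≠ 0) {e : ℤ} {w : ℝ} (hw : ∃ m : ℤ, w * e = h * m)
    (z : ℂ) : qPow h e (w + z) = qPow h e z := by
  obtain ⟨m, hm⟩ := hw
  rw [qPow_add_real]
  have : (2 * π * Complex.I * e * w / h : ℂ) = m * (2 * π * Complex.I) := by
    have hmC : (w : ℂ) * (e : ℂ) = (h : ℂ) * (m : ℂ) := by exact_mod_cast hm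
    have hhC : (h : ℂ) ≠ 0 := by exact_mod_cast hh
    field_simp
    linear_combination hmC
  rw [this, Complex.exp_int_mul_two_pi_mul_I, one_mul]

/-- Conversely, if `exp (2 π i e w / h) = 1` then `w * e` is an integer multiple of `h`. -/
theorem exists_int_of_exp_eq_one {h : ℝ} (hh : h ≠ 0) {e : ℤ} {w : ℝ}
    (hw : Complex.exp (2 * π * Complex.I * e * w / h) = 1) : ∃ m : ℤ, w * e = h * m := by
  obtain ⟨m, hm⟩ := Complex.exp_eq_one_iff.mp hw
  refine ⟨m, ?_⟩
  have hhC : (h : ℂ) ≠ 0 := by exact_mod_cast hh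
  have h2 : (2 * π * Complex.I : ℂ) ≠ 0 := Complex.two_pi_I_ne_zero
  have h3 : ((w * e : ℝ) : ℂ) = ((h * m : ℝ) : ℂ) := by
    push_cast
    have e1 : (2 * π * Complex.I) * ((w : ℂ) * e) = (2 * π * Complex.I) * ((h : ℂ) * m) := by
      field_simp at hm
      linear_combination (2 * π * Complex.I) * hm
    exact mul_left_cancel₀ h2 e1
  exact_mod_cast h3

theorem tendsto_vadd_atImInfty (w : ℝ) :
    Tendsto (fun z : ℍ => w +ᵥ z) atImInfty atImInfty := by
  unfold atImInfty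
  rw [tendsto_comap_iff]
  have : (UpperHalfPlane.im ∘ fun z : ℍ => w +ᵥ z) = UpperHalfPlane.im := by
    funext z
    simp [UpperHalfPlane.vadd_im]
  rw [this]
  exact tendsto_comap

/-- **ROOT-LIM.** A holomorphic function on `ℍ` whose `n`-th power is, near `i∞`, an analytic
non-vanishing function of `q_h` has a non-zero limit at `i∞`. -/
theorem tendsto_of_pow_eq_comp_qParam {h : ℝ} (hh : 0 < h) {n : ℕ} (hn : n ≠ 0) {Q : ℍ → ℂ}
    (hQ : MDifferentiable 𝓘(ℂ) 𝓘(ℂ) Q) {u : ℂ → ℂ} (hu : AnalyticAt ℂ u 0) (hu0 : u 0 ≠ 0)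
    (hev : ∀ᶠ z : ℍ in atImInfty, Q z ^ n = u (Function.Periodic.qParam h (z : ℂ))) :
    ∃ a : ℂ, a ≠ 0 ∧ Tendsto Q atImInfty (𝓝 a) := by
  -- a disc on which `u` is analytic and non-vanishing
  have h1 : ∀ᶠ y in 𝓝 (0 : ℂ), AnalyticAt ℂ u y ∧ u y ≠ 0 :=
    hu.eventually_analyticAt.and (hu.continuousAt.eventually_ne hu0)
  obtain ⟨ε, hε, hball⟩ := Metric.eventually_nhds_iff_ball.mp h1
  have huan : AnalyticOnNhd ℂ u (Metric.ball 0 ε) := fun y hy => (hball y hy).1
  have hune : ∀ y ∈ Metric.ball (0 : ℂ) ε, u y ≠ 0 := fun y hy => (hball y hy).2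
  obtain ⟨V, hV, hVp⟩ := Fermat.Agent.Lib.NthRoot.exists_root_on_ball_of_ne_zero hn huan hune
  have h0ball : (0 : ℂ) ∈ Metric.ball (0 : ℂ) ε := Metric.mem_ball_self hε
  -- a half plane on which everything holds
  have hq : ∀ᶠ z : ℍ in atImInfty, Function.Periodic.qParam h (z : ℂ) ∈ Metric.ball (0 : ℂ) ε :=
    (UpperHalfPlane.qParam_tendsto_atImInfty hh).eventually (Metric.ball_mem_nhds 0 hε)
  obtain ⟨Y, hY⟩ := (UpperHalfPlane.atImInfty_mem _).mp (hev.and hq)
  set Y' : ℝ := max Y 1 with hY'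
  have hYpos : 0 < Y' := lt_of_lt_of_le one_pos (le_max_right Y 1)
  set U : Set ℂ := {z : ℂ | Y' < z.im} with hU
  have hUpre : IsPreconnected U := (convex_halfSpace_im_gt Y').isPreconnected
  have hUsub : U ⊆ {z : ℂ | 0 < z.im} := fun z hz => lt_trans hYpos hz
  have hUY : ∀ z ∈ U, ∀ hz : 0 < z.im, Y ≤ UpperHalfPlane.im ⟨z, hz⟩ := fun z hz _ =>
    le_trans (le_max_left Y 1) (le_of_lt hz)
  have hG₂ : AnalyticOnNhd ℂ (Q ∘ UpperHalfPlane.ofComplex) U :=
    (Fermat.Agent.Lib.NthRoot.analyticOnNhd_comp_ofComplex hQ).mono hUsub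
  have hG₁ : AnalyticOnNhd ℂ (fun z : ℂ => V (Function.Periodic.qParam h z)) U := by
    intro z hz
    have hzpos : 0 < z.im := hUsub hz
    have hmem := (hY ⟨z, hzpos⟩ (hUY z hz hzpos)).2
    have hVat : AnalyticAt ℂ V (Function.Periodic.qParam h z) := hV _ hmem
    have hqat : AnalyticAt ℂ (Function.Periodic.qParam h) z :=
      (Function.Periodic.differentiable_qParam.analyticAt z)
    exact AnalyticAt.comp (f := Function.Periodic.qParam h) (g := V) hVat hqat
  have hpow : ∀ z ∈ U, (Q ∘ UpperHalfPlane.ofComplex) z ^ n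
      = (fun z : ℂ => V (Function.Periodic.qParam h z)) z ^ n := by
    intro z hz
    have hzpos : 0 < z.im := hUsub hz
    have := hY ⟨z, hzpos⟩ (hUY z hz hzpos)
    simp only [Function.comp_apply, UpperHalfPlane.ofComplex_apply_of_im_pos hzpos]
    rw [hVp _ this.2]
    exact this.1
  obtain ⟨ζ, hζ, hζeq⟩ := Fermat.Agent.Lib.NthRoot.exists_root_of_unity_of_pow_eq hn hUpre
    hG₁ hG₂ hpow
  have hζ0 : ζ ≠ 0 := by
    rintro rfl
    rw [zero_pow hn] at hζ
    exact zero_ne_one hζ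
  have hV0 : V 0 ≠ 0 := by
    intro h0
    have := hVp 0 h0ball
    rw [h0, zero_pow hn] at this
    exact hu0 this.symm
  refine ⟨ζ * V 0, mul_ne_zero hζ0 hV0, ?_⟩
  have hlim : Tendsto (fun z : ℍ => ζ * V (Function.Periodic.qParam h (z : ℂ))) atImInfty
      (𝓝 (ζ * V 0)) := by
    refine Tendsto.const_mul ζ ?_
    exact ((hV 0 h0ball).continuousAt.tendsto).comp (UpperHalfPlane.qParam_tendsto_atImInfty hh)
  refine hlim.congr' ?_
  have hevU : ∀ᶠ z : ℍ in atImInfty, Y' + 1 ≤ z.im :=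
    (UpperHalfPlane.atImInfty_mem _).mpr ⟨Y' + 1, fun z hz => hz⟩
  filter_upwards [hevU] with z hz
  have hzU : (z : ℂ) ∈ U := by
    show Y' < (z : ℂ).im
    have : (z : ℂ).im = z.im := rfl
    rw [this]
    linarith
  have := hζeq (z : ℂ) hzU
  simp only [Function.comp_apply, UpperHalfPlane.ofComplex_apply] at this
  exact this.symm

/-- The leading coefficient limit: `X z * q^(-M) → u 0 ≠ 0`. -/
theorem IsCuspRegular.tendsto_mul_qPow {h : ℝ} {X : ℍ → ℂ} (hh : 0 < h)
    (hX : IsCuspRegular h X) (hX0 : X ≠ 0) :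
    ∃ a : ℂ, a ≠ 0 ∧ Tendsto (fun z : ℍ => X z *
      qPow h (-(((qExpansion h X).order.toNat : ℕ) : ℤ)) (z : ℂ)) atImInfty (𝓝 a) := by
  obtain ⟨u, hu, hu0, hev⟩ := hX.eventually_eq_leading hh hX0
  refine ⟨u 0, hu0, ?_⟩
  have hlim : Tendsto (fun z : ℍ => u (Function.Periodic.qParam h (z : ℂ))) atImInfty
      (𝓝 (u 0)) :=
    (hu.continuousAt.tendsto).comp (UpperHalfPlane.qParam_tendsto_atImInfty hh)
  refine hlim.congr' ?_
  filter_upwards [hev] with z hz
  rw [hz, qPow_neg, qPow_natCast]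
  have hq : Function.Periodic.qParam h (z : ℂ) ^ ((qExpansion h X).order.toNat) ≠ 0 :=
    pow_ne_zero _ (Function.Periodic.qParam_ne_zero _)
  field_simp

/-- **(LC)** The multiplier under a real translation is determined by the leading exponent. -/
theorem multiplier_of_tendsto {h : ℝ} {G : ℍ → ℂ} {e : ℤ} {a : ℂ} (ha : a ≠ 0)
    (hlim : Tendsto (fun z : ℍ => G z * qPow h e (z : ℂ)) atImInfty (𝓝 a))
    {w : ℝ} {c : ℂ} (hGw : ∀ z : ℍ, G (w +ᵥ z) = c * G z) :
    c * Complex.exp (2 * π * Complex.I * e * w / h) = 1 := by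
  have h1 : Tendsto (fun z : ℍ => G (w +ᵥ z) * qPow h e ((w +ᵥ z : ℍ) : ℂ)) atImInfty (𝓝 a) :=
    hlim.comp (tendsto_vadd_atImInfty w)
  have h2 : (fun z : ℍ => G (w +ᵥ z) * qPow h e ((w +ᵥ z : ℍ) : ℂ))
      = fun z : ℍ => (c * Complex.exp (2 * π * Complex.I * e * w / h)) *
          (G z * qPow h e (z : ℂ)) := by
    funext z
    rw [hGw, UpperHalfPlane.coe_vadd, qPow_add_real]
    ring
  rw [h2] at h1
  have h3 := tendsto_nhds_unique h1 (hlim.const_mul _)
  have h4 : (c * Complex.exp (2 * π * Complex.I * e * w / h) - 1) * a = 0 := by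
    linear_combination -h3
  rcases mul_eq_zero.mp h4 with h5 | h5
  · exact sub_eq_zero.mp h5
  · exact absurd h5 ha

/-- **(C-a), real form.** If a cusp-regular function is also `w`-periodic, then `w * M` is an
integer multiple of `h`, `M` the order of the `q_h`-expansion. -/
theorem IsCuspRegular.exists_int_of_periodic {h : ℝ} {X : ℍ → ℂ} (hh : 0 < h)
    (hX : IsCuspRegular h X) (hX0 : X ≠ 0) {w : ℝ} (hXw : ∀ z : ℍ, X (w +ᵥ z) = X z) :
    ∃ m : ℤ, w * (((qExpansion h X).order.toNat : ℕ) : ℤ) = h * m := by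
  obtain ⟨a, ha, hlim⟩ := hX.tendsto_mul_qPow hh hX0
  have h1 := multiplier_of_tendsto (c := 1) ha hlim (w := w) (fun z => by rw [hXw, one_mul])
  rw [one_mul] at h1
  obtain ⟨m, hm⟩ := exists_int_of_exp_eq_one hh.ne' h1
  refine ⟨-m, ?_⟩
  push_cast at hm ⊢
  linarith

/-- **(C-a).** If a function is cusp-regular for the period `N` and also `w`-periodic with
`w ∣ N`, then `N / w` divides the order of its `q_N`-expansion. -/
theorem IsCuspRegular.div_dvd_order {N w : ℕ} {X : ℍ → ℂ} (hN : 0 < N) (hw : 0 < w)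
    (hwN : w ∣ N) (hX : IsCuspRegular (N : ℝ) X) (hX0 : X ≠ 0)
    (hXw : ∀ z : ℍ, X ((w : ℝ) +ᵥ z) = X z) :
    (N / w) ∣ (qExpansion (N : ℝ) X).order.toNat := by
  obtain ⟨m, hm⟩ := hX.exists_int_of_periodic (by exact_mod_cast hN) hX0 hXw
  obtain ⟨d, rfl⟩ := hwN
  rw [Nat.mul_div_cancel_left d hw]
  have hm' : ((w : ℤ)) * (((qExpansion ((w * d : ℕ) : ℝ) X).order.toNat : ℕ) : ℤ)
      = ((w : ℤ) * d) * m := by
    have : ((w : ℝ)) * ((((qExpansion ((w * d : ℕ) : ℝ) X).order.toNat : ℕ) : ℤ) : ℝ)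
        = (((w * d : ℕ) : ℝ)) * (m : ℝ) := hm
    push_cast at this
    exact_mod_cast this
  have hw0 : (w : ℤ) ≠ 0 := by exact_mod_cast hw.ne'
  have h2 : (((qExpansion ((w * d : ℕ) : ℝ) X).order.toNat : ℕ) : ℤ) = d * m := by
    have : (w : ℤ) * (((qExpansion ((w * d : ℕ) : ℝ) X).order.toNat : ℕ) : ℤ)
        = (w : ℤ) * (d * m) := by rw [hm']; ring
    exact mul_left_cancel₀ hw0 this
  exact Int.natCast_dvd_natCast.mp ⟨m, h2⟩

/-! ### Products and powers of cusp-regular functions -/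

theorem IsCuspRegular.one (h : ℝ) : IsCuspRegular h (1 : ℍ → ℂ) where
  per := fun z => rfl
  hol := mdifferentiable_const
  bdd := by
    rw [UpperHalfPlane.isBoundedAtImInfty_iff]
    exact ⟨1, 0, fun z _ => by simp⟩

theorem IsCuspRegular.mul {h : ℝ} {X Y : ℍ → ℂ} (hX : IsCuspRegular h X)
    (hY : IsCuspRegular h Y) : IsCuspRegular h (X * Y) where
  per := fun z => by
    have h1 := hX.per z
    have h2 := hY.per z
    simp only [Function.comp_apply, Pi.mul_apply] at h1 h2 ⊢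
    rw [h1, h2]
  hol := hX.hol.mul hY.hol
  bdd := hX.bdd.mul hY.bdd

theorem IsCuspRegular.pow {h : ℝ} {X : ℍ → ℂ} (hX : IsCuspRegular h X) (n : ℕ) :
    IsCuspRegular h (X ^ n) := by
  induction n with
  | zero => simpa using IsCuspRegular.one h
  | succ n ih => rw [pow_succ]; exact ih.mul hX

theorem IsCuspRegular.qExpansion_mul {h : ℝ} {X Y : ℍ → ℂ} (hh : 0 < h)
    (hX : IsCuspRegular h X) (hY : IsCuspRegular h Y) :
    qExpansion h (X * Y) = qExpansion h X * qExpansion h Y :=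
  UpperHalfPlane.qExpansion_mul (hX.analyticAt hh) (hY.analyticAt hh)

theorem IsCuspRegular.qExpansion_pow {h : ℝ} {X : ℍ → ℂ} (hh : 0 < h)
    (hX : IsCuspRegular h X) (n : ℕ) :
    qExpansion h (X ^ n) = qExpansion h X ^ n := by
  induction n with
  | zero => simpa using UpperHalfPlane.qExpansion_one h
  | succ n ih => rw [pow_succ, (hX.pow n).qExpansion_mul hh hX, ih, pow_succ]

/-- **(C-b).** The order of the `q`-expansion of a power. -/
theorem IsCuspRegular.order_qExpansion_pow {h : ℝ} {X : ℍ → ℂ} (hh : 0 < h)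
    (hX : IsCuspRegular h X) (n : ℕ) :
    (qExpansion h (X ^ n)).order = n • (qExpansion h X).order := by
  rw [hX.qExpansion_pow hh, PowerSeries.order_pow]

theorem IsCuspRegular.order_toNat_qExpansion_pow {h : ℝ} {X : ℍ → ℂ} (hh : 0 < h)
    (hX : IsCuspRegular h X) (n : ℕ) :
    (qExpansion h (X ^ n)).order.toNat = n * (qExpansion h X).order.toNat := by
  rw [hX.order_qExpansion_pow hh]
  simp

theorem IsCuspRegular.order_toNat_qExpansion_mul {h : ℝ} {X Y : ℍ → ℂ} (hh : 0 < h)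
    (hX : IsCuspRegular h X) (hY : IsCuspRegular h Y) (hX0 : X ≠ 0) (hY0 : Y ≠ 0) :
    (qExpansion h (X * Y)).order.toNat
      = (qExpansion h X).order.toNat + (qExpansion h Y).order.toNat := by
  rw [hX.qExpansion_mul hh hY, PowerSeries.order_mul,
    ← PowerSeries.coe_toNat_order (hX.qExpansion_ne_zero hh hX0),
    ← PowerSeries.coe_toNat_order (hY.qExpansion_ne_zero hh hY0)]
  simp [← Nat.cast_add]

/-! ### The multiplier at a cusp -/

/-- **LOC-CUSP.** Let `A'`, `B'` be cusp-regular for the period `h`, `G` holomorphic with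
`G ^ n = A' * B' ^ (n - 1)`, and suppose the orders of the `q_h`-expansions satisfy
`ord A' = ord B' + n * L` with `w * L ∈ h ℤ`.  If `B'` is `w`-periodic and `G` is `w`-periodic up
to the constant `c`, then `c = 1`. -/
theorem cusp_multiplier_eq_one {h : ℝ} (hh : 0 < h) {w : ℝ} {n : ℕ} (hn : n ≠ 0)
    {A' B' G : ℍ → ℂ} (hA : IsCuspRegular h A') (hB : IsCuspRegular h B')
    (hA0 : A' ≠ 0) (hB0 : B' ≠ 0) (hG : MDifferentiable 𝓘(ℂ) 𝓘(ℂ) G)
    (hGn : ∀ z : ℍ, G z ^ n = A' z * B' z ^ (n - 1)) {L : ℤ}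
    (hL : (((qExpansion h A').order.toNat : ℕ) : ℤ)
      = (((qExpansion h B').order.toNat : ℕ) : ℤ) + n * L)
    (hwL : ∃ m : ℤ, w * L = h * m) {c : ℂ} (hGw : ∀ z : ℍ, G (w +ᵥ z) = c * G z)
    (hBw : ∀ z : ℍ, B' (w +ᵥ z) = B' z) : c = 1 := by
  set MA : ℕ := (qExpansion h A').order.toNat with hMA
  set MB : ℕ := (qExpansion h B').order.toNat with hMB
  obtain ⟨uA, huA, huA0, hevA⟩ := hA.eventually_eq_leading hh hA0
  obtain ⟨uB, huB, huB0, hevB⟩ := hB.eventually_eq_leading hh hB0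
  set e : ℤ := -((MB : ℤ) + L) with he
  -- the auxiliary function
  have hQ : MDifferentiable 𝓘(ℂ) 𝓘(ℂ) (fun z : ℍ => G z * qPow h e (z : ℂ)) :=
    hG.mul (mdifferentiable_qPow h e)
  have hu : AnalyticAt ℂ (fun q => uA q * uB q ^ (n - 1)) 0 := huA.mul (huB.pow _)
  have hu0 : (fun q => uA q * uB q ^ (n - 1)) 0 ≠ 0 := mul_ne_zero huA0 (pow_ne_zero _ huB0)
  have hn1 : (((n - 1 : ℕ) : ℕ) : ℤ) = (n : ℤ) - 1 := by
    have : 1 ≤ n := Nat.one_le_iff_ne_zero.mpr hn
    push_cast [Nat.cast_sub this]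
    ring
  have hev : ∀ᶠ z : ℍ in atImInfty, (fun z : ℍ => G z * qPow h e (z : ℂ)) z ^ n
      = (fun q => uA q * uB q ^ (n - 1)) (Function.Periodic.qParam h (z : ℂ)) := by
    filter_upwards [hevA, hevB] with z hzA hzB
    rw [mul_pow, hGn, hzA, hzB, qPow_pow, mul_pow, ← qPow_natCast, ← qPow_natCast, qPow_pow]
    have hexp : qPow h (MA : ℤ) (z : ℂ) * qPow h (((n - 1 : ℕ) : ℤ) * (MB : ℤ)) (z : ℂ) *
        qPow h ((n : ℤ) * e) (z : ℂ) = 1 := by
      rw [← qPow_add, ← qPow_add]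
      have : (MA : ℤ) + ((n - 1 : ℕ) : ℤ) * (MB : ℤ) + (n : ℤ) * e = 0 := by
        rw [hn1, he, hL]
        ring
      rw [this, qPow_zero]
    linear_combination (uA (Function.Periodic.qParam h (z : ℂ)) *
      uB (Function.Periodic.qParam h (z : ℂ)) ^ (n - 1)) * hexp
  obtain ⟨a, ha, hlim⟩ := tendsto_of_pow_eq_comp_qParam hh hn hQ hu hu0 hev
  have h1 := multiplier_of_tendsto ha hlim hGw
  -- the exponential factor is trivial
  obtain ⟨mB, hmB⟩ := hB.exists_int_of_periodic hh hB0 hBw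
  obtain ⟨mL, hmL⟩ := hwL
  have h2 : Complex.exp (2 * π * Complex.I * e * w / h) = 1 := by
    have : (2 * π * Complex.I * e * w / h : ℂ) = ((-(mB + mL) : ℤ) : ℂ) * (2 * π * Complex.I) := by
      have hhC : (h : ℂ) ≠ 0 := by exact_mod_cast hh.ne'
      have e1 : (w : ℂ) * ((MB : ℤ) : ℂ) = (h : ℂ) * (mB : ℂ) := by exact_mod_cast hmB
      have e2 : (w : ℂ) * (L : ℂ) = (h : ℂ) * (mL : ℂ) := by exact_mod_cast hmL
      rw [he]
      field_simp
      push_cast
      linear_combination -e1 - e2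
    rw [this, Complex.exp_int_mul_two_pi_mul_I]
  rw [h2, mul_one] at h1
  exact h1

end Fermat.Agent.GTor.H96

end
end
-- ==== END Fermat.Agent.GTor.H96_LocCusp

-- ==== BEGIN Fermat.Agent.GTor.H96_LocEll
section

set_option autoImplicit false

noncomputable section

namespace Fermat.Agent.GTor.H96

open Complex UpperHalfPlane Filter Topology Matrix.SpecialLinearGroup
open scoped MatrixGroups ModularForm Manifold

/-- The order of vanishing of a holomorphic function on `ℍ`, not identically zero, is finite. -/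
theorem analyticOrderAt_ne_top_of_mdifferentiable {G : ℍ → ℂ}
    (hG : MDifferentiable 𝓘(ℂ) 𝓘(ℂ) G) (hG0 : ∃ τ : ℍ, G τ ≠ 0) (z : ℍ) :
    analyticOrderAt (G ∘ UpperHalfPlane.ofComplex) (z : ℂ) ≠ ⊤ := by
  obtain ⟨τ₀, hτ₀⟩ := hG0
  have han := Fermat.Agent.Lib.NthRoot.analyticOnNhd_comp_ofComplex hG
  have hpre : IsPreconnected {z : ℂ | 0 < z.im} := (convex_halfSpace_im_gt 0).isPreconnected
  have hord₀ : analyticOrderAt (G ∘ UpperHalfPlane.ofComplex) (τ₀ : ℂ) ≠ ⊤ := by
    rw [(han τ₀ τ₀.im_pos).analyticOrderAt_eq_zero.mpr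
      (by simpa [UpperHalfPlane.ofComplex_apply] using hτ₀)]
    exact ENat.zero_ne_top
  exact han.analyticOrderAt_ne_top_of_isPreconnected hpre τ₀.im_pos z.im_pos hord₀

/-- The Möbius transformation attached to `γ`, as a function on `ℂ`. -/
def moeb (γ : SL(2, ℤ)) (z : ℂ) : ℂ :=
  ((((γ : Matrix (Fin 2) (Fin 2) ℤ) 0 0 : ℤ) : ℂ) * z + (((γ : Matrix (Fin 2) (Fin 2) ℤ) 0 1 : ℤ) : ℂ)) /
    ((((γ : Matrix (Fin 2) (Fin 2) ℤ) 1 0 : ℤ) : ℂ) * z + (((γ : Matrix (Fin 2) (Fin 2) ℤ) 1 1 : ℤ) : ℂ))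

/-- The automorphy factor attached to `γ`, as a function on `ℂ`. -/
def autj (γ : SL(2, ℤ)) (z : ℂ) : ℂ :=
  (((γ : Matrix (Fin 2) (Fin 2) ℤ) 1 0 : ℤ) : ℂ) * z + (((γ : Matrix (Fin 2) (Fin 2) ℤ) 1 1 : ℤ) : ℂ)

theorem coe_smul_eq_moeb (γ : SL(2, ℤ)) (τ : ℍ) : ((γ • τ : ℍ) : ℂ) = moeb γ (τ : ℂ) := by
  rw [UpperHalfPlane.coe_specialLinearGroup_apply]
  simp [moeb]

theorem denom_eq_autj (γ : SL(2, ℤ)) (τ : ℍ) : denom γ τ = autj γ (τ : ℂ) := by
  rw [ModularGroup.denom_apply]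
  simp [autj]

theorem autj_ne_zero (γ : SL(2, ℤ)) {z : ℂ} (hz : 0 < z.im) : autj γ z ≠ 0 := by
  have := UpperHalfPlane.denom_ne_zero (γ : GL (Fin 2) ℝ) ⟨z, hz⟩
  rw [← denom_eq_autj γ ⟨z, hz⟩]
  exact this

theorem continuous_autj (γ : SL(2, ℤ)) : Continuous (autj γ) := by
  unfold autj
  fun_prop

theorem continuousAt_moeb (γ : SL(2, ℤ)) {z : ℂ} (hz : 0 < z.im) : ContinuousAt (moeb γ) z := by
  unfold moeb
  refine ContinuousAt.div (by fun_prop) (by fun_prop) ?_
  exact autj_ne_zero γ hz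

theorem moeb_sub_moeb (γ : SL(2, ℤ)) {z w : ℂ} (hz : 0 < z.im) (hw : 0 < w.im) :
    moeb γ z - moeb γ w = (z - w) / (autj γ z * autj γ w) := by
  have h1 := autj_ne_zero γ hz
  have h2 := autj_ne_zero γ hw
  have hdet : ((((γ : Matrix (Fin 2) (Fin 2) ℤ) 0 0 : ℤ) : ℂ)) *
      (((γ : Matrix (Fin 2) (Fin 2) ℤ) 1 1 : ℤ) : ℂ) -
      (((γ : Matrix (Fin 2) (Fin 2) ℤ) 0 1 : ℤ) : ℂ) *
      (((γ : Matrix (Fin 2) (Fin 2) ℤ) 1 0 : ℤ) : ℂ) = 1 := by
    have := γ.2
    rw [Matrix.det_fin_two] at this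
    exact_mod_cast this
  unfold moeb
  unfold autj at h1 h2 ⊢
  rw [div_sub_div _ _ h1 h2, div_left_inj' (mul_ne_zero h1 h2)]
  linear_combination (z - w) * hdet

/-- **LOC-ELL.** If `G ∣[k] γ = c * G` and `γ` fixes `z₀`, then
`c = (denom γ z₀) ^ (-k - 2 * ord_{z₀} G)`. -/
theorem multiplier_at_fixed_point {G : ℍ → ℂ} (hG : MDifferentiable 𝓘(ℂ) 𝓘(ℂ) G)
    (hG0 : ∃ τ : ℍ, G τ ≠ 0) {k : ℤ} {γ : SL(2, ℤ)} {z₀ : ℍ} (hfix : γ • z₀ = z₀) {c : ℂ}
    (hc : G ∣[k] γ = fun z => c * G z) :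
    c = (denom γ z₀) ^
      (-k - 2 * (analyticOrderNatAt (G ∘ UpperHalfPlane.ofComplex) (z₀ : ℂ) : ℤ)) := by
  set g₀ : ℂ → ℂ := G ∘ UpperHalfPlane.ofComplex with hg₀
  set M : ℕ := analyticOrderNatAt g₀ (z₀ : ℂ) with hM
  have han := Fermat.Agent.Lib.NthRoot.analyticOnNhd_comp_ofComplex hG
  have hord : analyticOrderAt g₀ (z₀ : ℂ) = (M : ℕ∞) :=
    (Nat.cast_analyticOrderNatAt (analyticOrderAt_ne_top_of_mdifferentiable hG hG0 z₀)).symm
  obtain ⟨u, hu_an, hu0, hu_eq⟩ := (han z₀ z₀.im_pos).analyticOrderAt_eq_natCast.mp hord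
  have hz₀ : (0 : ℝ) < (z₀ : ℂ).im := z₀.im_pos
  -- the transformation law on the upper half plane set
  have hlaw : ∀ z : ℂ, 0 < z.im → c * g₀ z = g₀ (moeb γ z) * (autj γ z) ^ (-k) := by
    intro z hz
    have h1 := congrFun hc ⟨z, hz⟩
    rw [ModularForm.SL_slash_apply] at h1
    have h2 : g₀ z = G ⟨z, hz⟩ := by
      simp only [hg₀, Function.comp_apply, UpperHalfPlane.ofComplex_apply_of_im_pos hz]
    have h3 : g₀ (moeb γ z) = G (γ • ⟨z, hz⟩) := by
      have : moeb γ z = ((γ • (⟨z, hz⟩ : ℍ) : ℍ) : ℂ) := (coe_smul_eq_moeb γ ⟨z, hz⟩).symm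
      simp only [hg₀, Function.comp_apply, this, UpperHalfPlane.ofComplex_apply]
    rw [h2, h3, ← denom_eq_autj γ ⟨z, hz⟩]
    exact h1.symm
  have hmz₀ : moeb γ (z₀ : ℂ) = (z₀ : ℂ) := by
    rw [← coe_smul_eq_moeb, hfix]
  have hmcont : ContinuousAt (moeb γ) (z₀ : ℂ) := continuousAt_moeb γ hz₀
  -- the local identities
  have hev1 : ∀ᶠ z in 𝓝 (z₀ : ℂ), g₀ (moeb γ z) = (moeb γ z - z₀) ^ M • u (moeb γ z) := by
    have : Tendsto (moeb γ) (𝓝 (z₀ : ℂ)) (𝓝 (z₀ : ℂ)) := by
      have := hmcont.tendsto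
      rwa [hmz₀] at this
    exact this.eventually hu_eq
  have hev2 : ∀ᶠ z in 𝓝 (z₀ : ℂ), 0 < z.im :=
    isOpen_upperHalfPlaneSet.mem_nhds hz₀
  have hj₀ : autj γ (z₀ : ℂ) ≠ 0 := autj_ne_zero γ hz₀
  have hkey : ∀ᶠ z in 𝓝[≠] (z₀ : ℂ),
      c * u z = u (moeb γ z) * ((autj γ z * autj γ (z₀ : ℂ)) ^ M)⁻¹ * (autj γ z) ^ (-k) := by
    have hne : ∀ᶠ z in 𝓝[≠] (z₀ : ℂ), z ≠ (z₀ : ℂ) := eventually_mem_nhdsWithin
    filter_upwards [nhdsWithin_le_nhds hu_eq, nhdsWithin_le_nhds hev1, nhdsWithin_le_nhds hev2,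
      hne] with z h1 h2 h3 h4
    have hlz := hlaw z h3
    have h1' : g₀ z = (z - (z₀ : ℂ)) ^ M • u z := h1
    rw [h1', h2] at hlz
    have hsub : moeb γ z - (z₀ : ℂ) = (z - z₀) / (autj γ z * autj γ (z₀ : ℂ)) := by
      conv_lhs => rw [← hmz₀]
      exact moeb_sub_moeb γ h3 hz₀
    rw [hsub, div_pow] at hlz
    have hzz : (z - (z₀ : ℂ)) ^ M ≠ 0 := pow_ne_zero _ (sub_ne_zero.mpr h4)
    simp only [smul_eq_mul] at hlz
    have e : (z - (z₀ : ℂ)) ^ M * (c * u z) = (z - (z₀ : ℂ)) ^ M *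
        (u (moeb γ z) * ((autj γ z * autj γ (z₀ : ℂ)) ^ M)⁻¹ * (autj γ z) ^ (-k)) := by
      rw [div_eq_mul_inv] at hlz
      linear_combination hlz
    exact mul_left_cancel₀ hzz e
  -- pass to the limit
  have hlim1 : Tendsto (fun z => c * u z) (𝓝[≠] (z₀ : ℂ)) (𝓝 (c * u (z₀ : ℂ))) :=
    ((continuousAt_const.mul hu_an.continuousAt).tendsto).mono_left nhdsWithin_le_nhds
  have hucomp : ContinuousAt (fun z => u (moeb γ z)) (z₀ : ℂ) := by
    have h1 : ContinuousAt u (moeb γ (z₀ : ℂ)) := by rw [hmz₀]; exact hu_an.continuousAt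
    exact ContinuousAt.comp (f := moeb γ) (g := u) h1 hmcont
  have hlim2 : Tendsto (fun z => u (moeb γ z) * ((autj γ z * autj γ (z₀ : ℂ)) ^ M)⁻¹ *
      (autj γ z) ^ (-k)) (𝓝[≠] (z₀ : ℂ))
      (𝓝 (u (moeb γ (z₀ : ℂ)) * ((autj γ (z₀ : ℂ) * autj γ (z₀ : ℂ)) ^ M)⁻¹ *
        (autj γ (z₀ : ℂ)) ^ (-k))) := by
    have hc1 : ContinuousAt (fun z => ((autj γ z * autj γ (z₀ : ℂ)) ^ M)⁻¹) (z₀ : ℂ) := by
      refine ContinuousAt.inv₀ ?_ (pow_ne_zero _ (mul_ne_zero hj₀ hj₀))
      exact (((continuous_autj γ).mul continuous_const).pow M).continuousAt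
    have hc2 : ContinuousAt (fun z => (autj γ z) ^ (-k)) (z₀ : ℂ) :=
      (continuous_autj γ).continuousAt.zpow₀ (-k) (Or.inl hj₀)
    exact (((hucomp.mul hc1).mul hc2).tendsto).mono_left nhdsWithin_le_nhds
  have hEq := tendsto_nhds_unique (hlim1.congr' hkey) hlim2
  rw [hmz₀] at hEq
  have hfinal : c = ((autj γ (z₀ : ℂ) * autj γ (z₀ : ℂ)) ^ M)⁻¹ * (autj γ (z₀ : ℂ)) ^ (-k) := by
    have e : u (z₀ : ℂ) * c = u (z₀ : ℂ) *
        (((autj γ (z₀ : ℂ) * autj γ (z₀ : ℂ)) ^ M)⁻¹ * (autj γ (z₀ : ℂ)) ^ (-k)) := by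
      linear_combination hEq
    exact mul_left_cancel₀ hu0 e
  rw [hfinal, denom_eq_autj,
    show (-k - 2 * (M : ℤ)) = -(((2 * M : ℕ) : ℤ)) + -k by push_cast; ring,
    zpow_add₀ hj₀, zpow_neg _ ((2 * M : ℕ) : ℤ), zpow_natCast, pow_mul, sq]

end Fermat.Agent.GTor.H96

end
end
-- ==== END Fermat.Agent.GTor.H96_LocEll

-- ==== BEGIN Fermat.Agent.GTor.H96_Zeta
section

set_option autoImplicit false

noncomputable section

namespace Fermat.Agent.GTor.H96

open Complex

/-- The standard primitive `n`-th root of unity. -/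
def zeta (n : ℕ) : ℂ := Complex.exp (2 * Real.pi * Complex.I / (n : ℂ))

theorem isPrimitiveRoot_zeta {n : ℕ} (hn : n ≠ 0) : IsPrimitiveRoot (zeta n) n :=
  Complex.isPrimitiveRoot_exp n hn

theorem zetaPow_eq_zeta_pow (n : ℕ) (a : ZMod n) : zetaPow n a = zeta n ^ (ZMod.val a) := by
  unfold zetaPow zeta
  rw [← Complex.exp_nat_mul]
  congr 1
  ring

theorem zeta_pow_mod {n : ℕ} (hn : n ≠ 0) (i : ℕ) : zeta n ^ (i % n) = zeta n ^ i := by
  conv_rhs => rw [← Nat.div_add_mod i n]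
  rw [pow_add, pow_mul, (isPrimitiveRoot_zeta hn).pow_eq_one, one_pow, one_mul]

theorem zeta_pow_natCast {n : ℕ} (hn : n ≠ 0) (i : ℕ) :
    zetaPow n (i : ZMod n) = zeta n ^ i := by
  rw [zetaPow_eq_zeta_pow, ZMod.val_natCast, zeta_pow_mod hn]

theorem zetaPow_zero {n : ℕ} (hn : n ≠ 0) : zetaPow n (0 : ZMod n) = 1 := by
  have : NeZero n := ⟨hn⟩
  rw [zetaPow_eq_zeta_pow, ZMod.val_zero, pow_zero]

theorem zetaPow_add {n : ℕ} (hn : n ≠ 0) (a b : ZMod n) :
    zetaPow n (a + b) = zetaPow n a * zetaPow n b := by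
  have : NeZero n := ⟨hn⟩
  rw [zetaPow_eq_zeta_pow, zetaPow_eq_zeta_pow, zetaPow_eq_zeta_pow, ← pow_add, ZMod.val_add,
    zeta_pow_mod hn]

theorem zetaPow_pow {n : ℕ} (a : ZMod n) : zetaPow n a ^ n = 1 := by
  by_cases hn : n = 0
  · subst hn; simp
  rw [zetaPow_eq_zeta_pow, ← pow_mul, mul_comm, pow_mul, (isPrimitiveRoot_zeta hn).pow_eq_one,
    one_pow]

theorem zetaPow_injective {n : ℕ} (hn : n ≠ 0) : Function.Injective (zetaPow n) := by
  have : NeZero n := ⟨hn⟩
  intro a b h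
  rw [zetaPow_eq_zeta_pow, zetaPow_eq_zeta_pow] at h
  have := (isPrimitiveRoot_zeta hn).pow_inj (ZMod.val_lt a) (ZMod.val_lt b) h
  exact ZMod.val_injective n this

theorem exists_zetaPow_eq {n : ℕ} (hn : n ≠ 0) {ζ : ℂ} (hζ : ζ ^ n = 1) :
    ∃ a : ZMod n, zetaPow n a = ζ := by
  have : NeZero n := ⟨hn⟩
  obtain ⟨i, -, hi⟩ := (isPrimitiveRoot_zeta hn).eq_pow_of_pow_eq_one hζ
  exact ⟨(i : ZMod n), by rw [zeta_pow_natCast hn, hi]⟩

theorem zetaPow_eq_one_iff {n : ℕ} (hn : n ≠ 0) (a : ZMod n) : zetaPow n a = 1 ↔ a = 0 := by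
  rw [← zetaPow_zero hn]
  exact (zetaPow_injective hn).eq_iff

/-- The additive character attached to a multiplicative character with values in `μ_n`. -/
theorem exists_additive_of_character {G : Type*} [Group G] {n : ℕ} (hn : n ≠ 0)
    (χ : G →* ℂˣ) (hχ : ∀ γ, χ γ ^ n = 1) :
    ∃ φ : Additive G →+ ZMod n, ∀ γ : G, zetaPow n (φ (Additive.ofMul γ)) = ((χ γ : ℂˣ) : ℂ) := by
  have hex : ∀ γ : G, ∃ a : ZMod n, zetaPow n a = ((χ γ : ℂˣ) : ℂ) := fun γ =>
    exists_zetaPow_eq hn (by rw [← Units.val_pow_eq_pow_val, hχ γ, Units.val_one])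
  choose φ hφ using hex
  refine ⟨AddMonoidHom.mk' (fun γ => φ (Additive.toMul γ)) ?_, fun γ => hφ γ⟩
  intro γ δ
  apply zetaPow_injective hn
  rw [zetaPow_add hn, hφ, hφ, hφ, toMul_add, map_mul, Units.val_mul]

end Fermat.Agent.GTor.H96

end
end
-- ==== END Fermat.Agent.GTor.H96_Zeta

-- ==== BEGIN Fermat.Agent.GTor.TateDefs2
section

/-!
# G-TOR, T-X: the interface (Y1) to the degeneracy maps  (helper81, route Y of helper44)

`Stmt_Y1 M q` : there are additive maps `a, b : J₀(M q) → J₀(M)` (the pushforwards `α_*`, `β_*`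
along the two degeneracy maps) which commute with the Hecke operators `T_ℓ`, `ℓ ∤ M q`, and whose
common kernel consists of `q`-new classes (`S35.H89.IsQNew`).

Use in T-X: if a word `w` in the `T_ℓ` kills `J₀(M)[p^∞]` ("old-killer"), then `w x` is `q`-new for
every `x ∈ J₀(M q)[p^∞]`; the torsion-level statements `Stmt_TorsSt`, `Stmt_TorsNU` then give
matrix identities `B * M(w) = 0`, and `χ(w) ≠ 0` on the piece of a newform.
-/

set_option autoImplicit false

noncomputable section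

open AlgebraicCurve ModularCurve

namespace Fermat.Agent.GTor

/-- **(Y1)**: the degeneracy pushforwards on `J₀`, commuting with the good Hecke operators, with
`q`-new common kernel. -/
def Stmt_Y1 (M q : ℕ) [NeZero M] [NeZero q] : Prop :=
  ∃ a b : JZero (M * q) →+ JZero M,
    (∀ ℓ : Nat.Primes, ¬ (ℓ : ℕ) ∣ M * q → ∀ x : JZero (M * q),
      a (heckeOperatorBar (M * q) ℓ x) = heckeOperatorBar M ℓ (a x)) ∧
    (∀ ℓ : Nat.Primes, ¬ (ℓ : ℕ) ∣ M * q → ∀ x : JZero (M * q),
      b (heckeOperatorBar (M * q) ℓ x) = heckeOperatorBar M ℓ (b x)) ∧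
    (∀ x : JZero (M * q), a x = 0 → b x = 0 → Fermat.Agent.S35.H89.IsQNew M q x)

end Fermat.Agent.GTor

end
end
-- ==== END Fermat.Agent.GTor.TateDefs2

-- ==== BEGIN Fermat.Agent.Lib.FrobDensity.H31_FD
section

/-!
# Item 61 (Frobenius density): B0 and the final step FD (helper31)

Against the interfaces of `Fermat/Agent/Lib/FrobDensity/Defs.lean`:

* `stmt_RamFinite : Stmt_RamFinite` (B0) and `badSet_finite`;
* `stmt_FD_NF_of_frobSum : Stmt_FrobSum → Stmt_FD_NF` (FD), by the counting lemma `stmt_Count`.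
-/

set_option linter.unusedSectionVars false
set_option linter.style.haveILetI false

namespace Fermat.Agent.Lib.FrobDensity.H31

open NumberField IsDedekindDomain Filter Topology Ideal Fermat.Agent.Lib.ZetaPrimes
open Fermat.Agent.Lib.FrobDensity

/-- **B0**: only finitely many primes of `L` are ramified over `ℚ`. -/
theorem stmt_RamFinite : Stmt_RamFinite := by
  intro L _ _ _
  exact finite_setOf_inertia_ne_bot L

/-- The bad set of an intermediate field is finite. -/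
theorem badSet_finite (L : Type) [Field L] [NumberField L] [IsGalois ℚ L]
    (K : IntermediateField ℚ L) : (badSet L K).Finite := by
  have h := finite_setOf_inertia_ne_bot L
  refine (h.image (underK L K)).subset ?_
  rintro v ⟨w, rfl, hw⟩
  exact ⟨w, hw, rfl⟩

section Summable

variable (K : Type*) [Field K] [NumberField K]

/-- `∑_w p_w ^ (-s)` converges for `s > 1` (at most `[K : ℚ]` primes over each rational prime). -/
theorem summable_ratPrime_rpow {s : ℝ} (hs : 1 < s) :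
    Summable (fun w : HeightOneSpectrum (𝓞 K) ↦ ((ratPrime K w : ℕ) : ℝ) ^ (-s)) := by
  classical
  have hsum2 : Summable (fun m : ℕ ↦ (m : ℝ) ^ (-s)) :=
    Real.summable_nat_rpow.mpr (by linarith)
  have hnn : ∀ m : ℕ, (0 : ℝ) ≤ (m : ℝ) ^ (-s) := fun m ↦ by positivity
  refine summable_of_sum_le (c := Module.finrank ℤ (𝓞 K) * ∑' m : ℕ, (m : ℝ) ^ (-s))
    (fun w ↦ hnn _) (fun B ↦ ?_)
  set g : HeightOneSpectrum (𝓞 K) → ℕ := fun v ↦ ratPrime K v with hg
  calc ∑ v ∈ B, ((g v : ℕ) : ℝ) ^ (-s)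
      = ∑ q ∈ B.image g, ∑ v ∈ B with g v = q, ((g v : ℕ) : ℝ) ^ (-s) :=
        (Finset.sum_fiberwise_of_maps_to (fun v hv ↦ Finset.mem_image_of_mem g hv) _).symm
    _ ≤ ∑ q ∈ B.image g, (Module.finrank ℤ (𝓞 K) : ℝ) * ((q : ℕ) : ℝ) ^ (-s) := by
        refine Finset.sum_le_sum (fun q _ ↦ ?_)
        have hcard : (B.filter (fun v ↦ g v = q)).card ≤ Module.finrank ℤ (𝓞 K) :=
          card_le_of_ratPrime_eq K (B.filter (fun v ↦ g v = q)) q
            (fun v hv ↦ (Finset.mem_filter.mp hv).2)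
        calc ∑ v ∈ B with g v = q, ((g v : ℕ) : ℝ) ^ (-s)
            = ∑ v ∈ B with g v = q, ((q : ℕ) : ℝ) ^ (-s) :=
              Finset.sum_congr rfl (fun v hv ↦ by rw [(Finset.mem_filter.mp hv).2])
          _ = ((B.filter (fun v ↦ g v = q)).card : ℝ) * ((q : ℕ) : ℝ) ^ (-s) := by
              rw [Finset.sum_const, nsmul_eq_mul]
          _ ≤ (Module.finrank ℤ (𝓞 K) : ℝ) * ((q : ℕ) : ℝ) ^ (-s) := by
              refine mul_le_mul_of_nonneg_right (by exact_mod_cast hcard) (hnn q)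
    _ = (Module.finrank ℤ (𝓞 K) : ℝ) * ∑ q ∈ B.image g, ((q : ℕ) : ℝ) ^ (-s) := by
        rw [Finset.mul_sum]
    _ ≤ Module.finrank ℤ (𝓞 K) * ∑' m : ℕ, (m : ℝ) ^ (-s) := by
        refine mul_le_mul_of_nonneg_left ?_ (Nat.cast_nonneg _)
        exact hsum2.sum_le_tsum _ (fun m _ ↦ hnn m)

end Summable

section FD

variable (L : Type) [Field L] [NumberField L] [IsGalois ℚ L]

lemma decompCard_pos (w : HeightOneSpectrum (𝓞 L)) : 0 < decompCard L w := by
  unfold decompCard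
  exact Nat.card_pos

lemma decompCard_le (w : HeightOneSpectrum (𝓞 L)) :
    decompCard L w ≤ Nat.card (L ≃ₐ[ℚ] L) := by
  unfold decompCard
  exact Subgroup.card_le_card_group _

lemma wt_nonneg' (s : ℝ) (w : HeightOneSpectrum (𝓞 L)) : 0 ≤ FrobDensity.wt L s w := by
  unfold FrobDensity.wt
  positivity

lemma ratPrime_rpow_le_one {s : ℝ} (hs : 1 < s) (w : HeightOneSpectrum (𝓞 L)) :
    ((ratPrime L w : ℕ) : ℝ) ^ (-s) ≤ 1 := by
  have hp : (1 : ℝ) ≤ ((ratPrime L w : ℕ) : ℝ) := by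
    exact_mod_cast (ratPrime_prime L w).one_lt.le
  exact Real.rpow_le_one_of_one_le_of_nonpos hp (by linarith)

lemma wt_le_card {s : ℝ} (hs : 1 < s) (w : HeightOneSpectrum (𝓞 L)) :
    FrobDensity.wt L s w ≤ Nat.card (L ≃ₐ[ℚ] L) := by
  unfold FrobDensity.wt
  have h1 := ratPrime_rpow_le_one L hs w
  have h2 : (decompCard L w : ℝ) ≤ Nat.card (L ≃ₐ[ℚ] L) := by
    exact_mod_cast decompCard_le L w
  have h0 : (0 : ℝ) ≤ ((ratPrime L w : ℕ) : ℝ) ^ (-s) := by positivity
  calc (decompCard L w : ℝ) * ((ratPrime L w : ℕ) : ℝ) ^ (-s)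
      ≤ (Nat.card (L ≃ₐ[ℚ] L) : ℝ) * 1 :=
        mul_le_mul h2 h1 h0 (by positivity)
    _ = _ := mul_one _

lemma summable_wt {s : ℝ} (hs : 1 < s) :
    Summable (fun w : HeightOneSpectrum (𝓞 L) ↦ FrobDensity.wt L s w) := by
  refine Summable.of_nonneg_of_le (fun w ↦ wt_nonneg' L s w) (fun w ↦ ?_)
    ((summable_ratPrime_rpow L hs).mul_left (Nat.card (L ≃ₐ[ℚ] L) : ℝ))
  unfold FrobDensity.wt
  have h2 : (decompCard L w : ℝ) ≤ Nat.card (L ≃ₐ[ℚ] L) := by
    exact_mod_cast decompCard_le L w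
  exact mul_le_mul_of_nonneg_right h2 (by positivity)

/-- The unramified primes of `L`. -/
abbrev UPrime : Type := {w : HeightOneSpectrum (𝓞 L) // Unram L w}

/-- The Frobenius at an unramified prime. -/
noncomputable def frobU (w : UPrime L) : L ≃ₐ[ℚ] L :=
  haveI := w.1.isPrime
  haveI : Finite (𝓞 L ⧸ w.1.asIdeal) := Ideal.finiteQuotientOfFreeOfNeBot _ w.1.ne_bot
  arithFrobAt ℤ (L ≃ₐ[ℚ] L) w.1.asIdeal

lemma isArithFrobAt_frobU (w : UPrime L) : IsArithFrobAt ℤ (frobU L w) w.1.asIdeal := by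
  haveI := w.1.isPrime
  haveI : Finite (𝓞 L ⧸ w.1.asIdeal) := Ideal.finiteQuotientOfFreeOfNeBot _ w.1.ne_bot
  exact IsArithFrobAt.arithFrobAt ℤ (L ≃ₐ[ℚ] L) w.1.asIdeal

lemma eq_frobU (w : UPrime L) {σ : L ≃ₐ[ℚ] L} (h : IsArithFrobAt ℤ σ w.1.asIdeal) :
    σ = frobU L w := by
  have h1 := IsArithFrobAt.mul_inv_mem_inertia h (isArithFrobAt_frobU L w)
  have hw : w.1.asIdeal.inertia (L ≃ₐ[ℚ] L) = ⊥ := w.2
  rw [hw, Subgroup.mem_bot] at h1
  exact mul_inv_eq_one.mp h1

lemma mem_frobSet_iff (H : Subgroup (L ≃ₐ[ℚ] L)) (w : UPrime L) :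
    w.1 ∈ frobSet L H ↔ frobU L w ∈ H := by
  constructor
  · rintro ⟨-, σ, hσH, hσ⟩
    rwa [← eq_frobU L w hσ]
  · intro h
    exact ⟨w.2, frobU L w, h, isArithFrobAt_frobU L w⟩

/-- Reindexing: unramified primes with Frobenius in `H` versus `frobSet L H`. -/
noncomputable def frobSetEquiv (H : Subgroup (L ≃ₐ[ℚ] L)) :
    {p : UPrime L // frobU L p ∈ H} ≃ frobSet L H where
  toFun p := ⟨p.1.1, (mem_frobSet_iff L H p.1).mpr p.2⟩
  invFun w := ⟨⟨w.1, w.2.1⟩, (mem_frobSet_iff L H ⟨w.1, w.2.1⟩).mp w.2⟩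
  left_inv _ := rfl
  right_inv _ := rfl

/-- Only finitely many unramified primes lie over the primes of a finite set `S`. -/
lemma finite_ratPrime_mem_UPrime (S : Finset ℕ) :
    {w : UPrime L | ratPrime L w.1 ∈ S}.Finite := by
  classical
  set d : ℤ := ∏ ℓ ∈ S.filter Nat.Prime, (ℓ : ℤ) with hd
  have hd0 : d ≠ 0 := by
    rw [hd, Finset.prod_ne_zero_iff]
    intro ℓ hℓ
    have := (Finset.mem_filter.mp hℓ).2.ne_zero
    exact_mod_cast this
  have hfin := finite_setOf_intCast_mem L hd0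
  have hinj : Function.Injective (Subtype.val : UPrime L → HeightOneSpectrum (𝓞 L)) :=
    Subtype.val_injective
  refine Set.Finite.of_finite_image (f := Subtype.val) (hfin.subset ?_) hinj.injOn
  rintro _ ⟨w, hw, rfl⟩
  simp only [Set.mem_ofPred_eq] at hw ⊢
  have hmem : ratPrime L w.1 ∈ S.filter Nat.Prime :=
    Finset.mem_filter.mpr ⟨hw, ratPrime_prime L w.1⟩
  have hdvd : ((ratPrime L w.1 : ℕ) : ℤ) ∣ d := Finset.dvd_prod_of_mem (fun ℓ : ℕ ↦ (ℓ : ℤ)) hmem
  obtain ⟨c, hc⟩ := hdvd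
  rw [hc]
  push_cast
  exact Ideal.mul_mem_right _ _ (ratPrime_mem L w.1)

/-- For every `g`, infinitely many unramified primes `w` have `⟨Frob_w⟩ = ⟨g⟩`. -/
theorem infinite_frobU_of_frobSum (h : Stmt_FrobSum) (g : L ≃ₐ[ℚ] L) :
    {w : UPrime L | Subgroup.zpowers (frobU L w) = Subgroup.zpowers g}.Infinite := by
  refine stmt_Count (frobU L) (fun w s ↦ FrobDensity.wt L s w.1) (fun w s ↦ wt_nonneg' L s w.1)
    (fun s hs ↦ (summable_wt L hs).subtype _)
    (fun w ↦ ⟨Nat.card (L ≃ₐ[ℚ] L) + 1, by positivity, fun s hs _ ↦ ?_⟩) (fun x ↦ ?_) g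
  · have := wt_le_card L hs w.1
    linarith
  · obtain ⟨B, hB⟩ := h L (Subgroup.zpowers x)
    refine ⟨B, ?_⟩
    filter_upwards [hB] with s hs1
    have he : ∑' p : {p : UPrime L // frobU L p ∈ Subgroup.zpowers x}, FrobDensity.wt L s p.1.1 =
        ∑' w : frobSet L (Subgroup.zpowers x), FrobDensity.wt L s w :=
      (frobSetEquiv L (Subgroup.zpowers x)).tsum_eq
        (fun w : frobSet L (Subgroup.zpowers x) ↦ FrobDensity.wt L s w)
    rw [he, ← Nat.card_zpowers]
    exact hs1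

/-- **FD**: the number field form of Frobenius density follows from `Stmt_FrobSum`. -/
theorem stmt_FD_NF_of_frobSum (h : Stmt_FrobSum) : Stmt_FD_NF := by
  intro L _ _ _ g S
  have hinf := infinite_frobU_of_frobSum L h g
  have hfin := finite_ratPrime_mem_UPrime L S
  obtain ⟨w, hw, hwS⟩ := (hinf.sdiff hfin).nonempty
  exact ⟨w.1.asIdeal, frobU L w, ratPrime L w.1, w.1.isPrime, ratPrime_prime L w.1, hwS,
    ratPrime_mem L w.1, w.2, isArithFrobAt_frobU L w, hw⟩

end FD

end Fermat.Agent.Lib.FrobDensity.H31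

end
-- ==== END Fermat.Agent.Lib.FrobDensity.H31_FD

-- ==== BEGIN Fermat.Agent.Lib.FrobExists
section

/-!
# Existence of Frobenius elements in `Gal(ℚ̄/ℚ)` (shared library)

Main exports (namespace `Fermat.Agent.Lib.FrobExists`):
* `exists_liesOverPrime` : for every prime `ℓ` there is a valuation subring of `ℚ̄` over `ℓ`.
* `exists_isFrobeniusAt` : for every valuation subring `A` of `ℚ̄` over a prime `ℓ` there is
  `σ ∈ Gal(ℚ̄/ℚ)` with `A.IsFrobeniusAt σ ℓ`.
* `exists_place_and_frobenius` : both at once.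
-/

set_option autoImplicit false

open scoped Pointwise

namespace Fermat.Agent.Lib.FrobExists

open Polynomial

/-- For every prime `ℓ` there is a valuation subring of `AlgebraicClosure ℚ` lying over `ℓ`. -/
theorem exists_liesOverPrime (ℓ : ℕ) (hℓ : ℓ.Prime) :
    ∃ A : ValuationSubring (AlgebraicClosure ℚ), A.LiesOverPrime ℓ := by
  classical
  let L := AlgebraicClosure ℚ
  let R : Subring L := (algebraMap ℤ L).range
  let x : R := ⟨(ℓ : L), ⟨(ℓ : ℤ), by simp⟩⟩
  have hI : Ideal.span {x} ≠ ⊤ := by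
    intro h
    rw [Ideal.span_singleton_eq_top] at h
    obtain ⟨⟨y, hy⟩, hxy⟩ := h.exists_right_inv
    obtain ⟨n, rfl⟩ := hy
    have h1 : ((ℓ : L)) * (algebraMap ℤ L n) = 1 := congrArg Subtype.val hxy
    have h2 : (((ℓ : ℤ) * n : ℤ) : L) = ((1 : ℤ) : L) := by
      rw [Int.cast_mul, Int.cast_natCast, Int.cast_one]
      rw [eq_intCast] at h1
      exact h1
    have h3 : (ℓ : ℤ) * n = 1 := Int.cast_injective h2
    have h4 : IsUnit (ℓ : ℤ) := IsUnit.of_mul_eq_one _ h3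
    rw [Int.isUnit_iff] at h4
    have := hℓ.one_lt
    omega
  obtain ⟨B, -, hB⟩ := Ideal.image_subset_nonunits_valuationSubring (Ideal.span {x}) hI
  refine ⟨B, ?_⟩
  show (ℓ : L) ∈ B.nonunits
  exact hB ⟨x, Ideal.subset_span rfl, rfl⟩

/-- Integers have valuation `≤ 1`. -/
theorem valuation_intCast_le_one {L : Type*} [Field L] (A : ValuationSubring L) (n : ℤ) :
    A.valuation (n : L) ≤ 1 :=
  (A.valuation_le_one_iff _).mpr (intCast_mem A n)

/-- An integer not divisible by `ℓ` has valuation `1` when `ℓ` is a nonunit. -/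
theorem valuation_intCast_eq_one {L : Type*} [Field L] (A : ValuationSubring L) (ℓ : ℕ)
    (hℓ : ℓ.Prime) (hA : (ℓ : L) ∈ A.nonunits) (n : ℤ) (hn : ¬ (ℓ : ℤ) ∣ n) :
    A.valuation (n : L) = 1 := by
  have hcop : IsCoprime (ℓ : ℤ) n := by
    rw [Int.isCoprime_iff_gcd_eq_one]
    have hp : Prime (ℓ : ℤ) := Nat.prime_iff_prime_int.mp hℓ
    exact Int.isCoprime_iff_gcd_eq_one.mp ((Prime.coprime_iff_not_dvd hp).mpr hn)
  obtain ⟨u, w, huw⟩ := hcop
  have h1 : (u : L) * (ℓ : L) + (w : L) * (n : L) = 1 := by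
    have := congrArg (Int.cast : ℤ → L) huw
    push_cast at this
    exact this
  rcases lt_or_eq_of_le (valuation_intCast_le_one A n) with hlt | heq
  · exfalso
    have hℓlt : A.valuation (ℓ : L) < 1 := A.mem_nonunits_iff.mp hA
    have h2 : A.valuation ((u : L) * (ℓ : L)) < 1 := by
      rw [map_mul]
      calc A.valuation (u : L) * A.valuation (ℓ : L) ≤ 1 * A.valuation (ℓ : L) :=
            mul_le_mul_left (valuation_intCast_le_one A u) _
        _ = A.valuation (ℓ : L) := one_mul _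
        _ < 1 := hℓlt
    have h3 : A.valuation ((w : L) * (n : L)) < 1 := by
      rw [map_mul]
      calc A.valuation (w : L) * A.valuation (n : L) ≤ 1 * A.valuation (n : L) :=
            mul_le_mul_left (valuation_intCast_le_one A w) _
        _ = A.valuation (n : L) := one_mul _
        _ < 1 := hlt
    have h4 : A.valuation ((u : L) * (ℓ : L) + (w : L) * (n : L)) < 1 :=
      lt_of_le_of_lt (A.valuation.map_add _ _) (max_lt h2 h3)
    rw [h1, map_one] at h4
    exact lt_irrefl _ h4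
  · exact heq

/-- A nonzero integer polynomial killing `a`, not all of whose coefficients are divisible
by `ℓ`. -/
theorem exists_prim_poly {L : Type*} [Field L] [CharZero L] (ℓ : ℕ) (hℓ : ℓ.Prime)
    (a : L) (halg : IsAlgebraic ℤ a) :
    ∃ f : ℤ[X], aeval a f = 0 ∧ ∃ i, ¬ (ℓ : ℤ) ∣ f.coeff i := by
  obtain ⟨f, hf0, hfa⟩ := halg
  refine ⟨f.primPart, ?_, ?_⟩
  · have h1 : f = C f.content * f.primPart := f.eq_C_content_mul_primPart
    have h2 : aeval a (C f.content * f.primPart) = 0 := by rw [← h1]; exact hfa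
    rw [map_mul, aeval_C] at h2
    rcases mul_eq_zero.mp h2 with h | h
    · exfalso
      have hc : f.content ≠ 0 := by
        intro hc
        exact hf0 (content_eq_zero_iff.mp hc)
      rw [eq_intCast] at h
      exact hc (Int.cast_eq_zero.mp h)
    · exact h
  · by_contra hcon
    have hcon' : ∀ i, (ℓ : ℤ) ∣ f.primPart.coeff i := fun i => by
      by_contra h
      exact hcon ⟨i, h⟩
    have hdvd : C (ℓ : ℤ) ∣ f.primPart := (C_dvd_iff_dvd_coeff _ _).mpr hcon'
    have hu : IsUnit (ℓ : ℤ) := f.isPrimitive_primPart _ hdvd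
    rw [Int.isUnit_iff] at hu
    have := hℓ.one_lt
    omega

/-- Integrality from stability of the span of powers. -/
theorem isIntegral_of_mul_pow_mem {L : Type*} [Field L] (a s : L) (n : ℕ) (hn : 0 < n)
    (h : ∀ e, e < n → s * a ^ e ∈ Submodule.span ℤ ((fun i : ℕ => a ^ i) '' (Set.Iio n))) :
    IsIntegral ℤ s := by
  set N := Submodule.span ℤ ((fun i : ℕ => a ^ i) '' (Set.Iio n)) with hN
  have h1 : (1 : L) ∈ N := Submodule.subset_span ⟨0, hn, pow_zero a⟩
  have hne : N ≠ ⊥ := by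
    intro hbot
    rw [hbot, Submodule.mem_bot] at h1
    exact one_ne_zero h1
  have hfg : N.FG := Submodule.fg_span ((Set.finite_Iio n).image _)
  refine isIntegral_of_smul_mem_submodule N hne hfg s ?_
  intro m hm
  induction hm using Submodule.span_induction with
  | mem x hx =>
    obtain ⟨e, he, rfl⟩ := hx
    exact h e he
  | zero => rw [smul_zero]; exact N.zero_mem
  | add x y _ _ hx hy => rw [smul_add]; exact N.add_mem hx hy
  | smul c x _ hx => rw [smul_comm]; exact N.smul_mem c hx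

/-- **Key elementary lemma.** Every element `a` of a valuation subring `A` over `ℓ` which is
algebraic over `ℤ` is a quotient `y / s` of two algebraic integers with `s` a unit of `A`. -/
theorem exists_integral_frac {L : Type*} [Field L] [CharZero L] (A : ValuationSubring L) (ℓ : ℕ)
    (hℓ : ℓ.Prime) (hA : (ℓ : L) ∈ A.nonunits) (a : L) (ha : a ∈ A) (halg : IsAlgebraic ℤ a) :
    ∃ y s : L, IsIntegral ℤ y ∧ IsIntegral ℤ s ∧ A.valuation s = 1 ∧ a * s = y := by
  obtain ⟨f, hfa, i₀, hi₀⟩ := exists_prim_poly ℓ hℓ a halg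
  set n := f.natDegree with hn
  have hi₀n : i₀ ≤ n := le_natDegree_of_ne_zero (fun h => hi₀ (h ▸ dvd_zero _))
  set k := Nat.findGreatest (fun i => ¬ (ℓ : ℤ) ∣ f.coeff i) n with hk
  have hkP : ¬ (ℓ : ℤ) ∣ f.coeff k :=
    Nat.findGreatest_spec (P := fun i => ¬ (ℓ : ℤ) ∣ f.coeff i) hi₀n hi₀
  have hkn : k ≤ n := Nat.findGreatest_le n
  have hgt : ∀ j, k < j → j ≤ n → (ℓ : ℤ) ∣ f.coeff j := fun j hkj hjn => by
    by_contra h
    exact Nat.findGreatest_is_greatest (P := fun i => ¬ (ℓ : ℤ) ∣ f.coeff i) hkj hjn h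
  set s : L := ∑ j ∈ Finset.range (n - k + 1), (f.coeff (k + j) : L) * a ^ j with hs
  have hrel : a ^ k * s = - ∑ j ∈ Finset.range k, (f.coeff j : L) * a ^ j := by
    have h1 : aeval a f = ∑ i ∈ Finset.range (n + 1), (f.coeff i : L) * a ^ i := by
      rw [aeval_eq_sum_range]
      refine Finset.sum_congr rfl fun i _ => ?_
      rw [zsmul_eq_mul]
    have h2 : n + 1 = k + (n - k + 1) := by omega
    rw [h2, Finset.sum_range_add, hfa] at h1
    have h3 : a ^ k * s =
        ∑ j ∈ Finset.range (n - k + 1), (f.coeff (k + j) : L) * a ^ (k + j) := by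
      rw [hs, Finset.mul_sum]
      refine Finset.sum_congr rfl fun j _ => ?_
      rw [pow_add]; ring
    rw [h3]
    linear_combination -h1
  have hva : A.valuation a ≤ 1 := (A.valuation_le_one_iff a).mpr ha
  have hvs : A.valuation s = 1 := by
    have hsplit : s = (f.coeff k : L) +
        ∑ j ∈ Finset.range (n - k), (f.coeff (k + (j + 1)) : L) * a ^ (j + 1) := by
      rw [hs, Finset.sum_range_succ']
      simp only [add_zero, pow_zero, mul_one]
      rw [add_comm]
    have hsmall : A.valuation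
        (∑ j ∈ Finset.range (n - k), (f.coeff (k + (j + 1)) : L) * a ^ (j + 1)) < 1 := by
      refine A.valuation.map_sum_lt (by simp) ?_
      intro j hj
      rw [Finset.mem_range] at hj
      obtain ⟨c, hc⟩ := hgt (k + (j + 1)) (by omega) (by omega)
      rw [hc]
      push_cast
      rw [map_mul, map_mul, map_pow]
      have hℓlt : A.valuation (ℓ : L) < 1 := A.mem_nonunits_iff.mp hA
      have hc1 : A.valuation (c : L) ≤ 1 := valuation_intCast_le_one A c
      have hpow : A.valuation a ^ (j + 1) ≤ 1 := pow_le_one' hva _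
      calc A.valuation (ℓ : L) * A.valuation (c : L) * A.valuation a ^ (j + 1)
          ≤ A.valuation (ℓ : L) * 1 * 1 := by gcongr
        _ = A.valuation (ℓ : L) := by rw [mul_one, mul_one]
        _ < 1 := hℓlt
    have hk1 : A.valuation (f.coeff k : L) = 1 := valuation_intCast_eq_one A ℓ hℓ hA _ hkP
    rw [hsplit]
    rw [A.valuation.map_add_eq_of_lt_left (by rw [hk1]; exact hsmall)]
    exact hk1
  have hnpos : 0 < n := by
    rcases Nat.eq_zero_or_pos n with h0 | hpos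
    · exfalso
      have hk0 : k = 0 := by omega
      have : s = 0 := by
        have := hrel
        rw [hk0] at this
        simpa using this
      rw [this, map_zero] at hvs
      exact zero_ne_one hvs
    · exact hpos
  have key : ∀ e, e ≤ n →
      s * a ^ e ∈ Submodule.span ℤ ((fun i : ℕ => a ^ i) '' (Set.Iio n)) := by
    intro e he
    rcases lt_or_ge e k with hek | hek
    · rw [hs, Finset.sum_mul]
      refine Submodule.sum_mem _ fun j hj => ?_
      rw [Finset.mem_range] at hj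
      have : (f.coeff (k + j) : L) * a ^ j * a ^ e = (f.coeff (k + j)) • a ^ (j + e) := by
        rw [zsmul_eq_mul, pow_add]; ring
      rw [this]
      exact Submodule.smul_mem _ _ (Submodule.subset_span ⟨j + e, by
        show j + e < n
        omega, rfl⟩)
    · have h1 : s * a ^ e = a ^ (e - k) * (a ^ k * s) := by
        have : a ^ e = a ^ (e - k) * a ^ k := by rw [← pow_add]; congr 1; omega
        rw [this]; ring
      rw [h1, hrel, mul_neg, Finset.mul_sum]
      refine Submodule.neg_mem _ (Submodule.sum_mem _ fun j hj => ?_)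
      rw [Finset.mem_range] at hj
      have : a ^ (e - k) * ((f.coeff j : L) * a ^ j) = (f.coeff j) • a ^ (j + (e - k)) := by
        rw [zsmul_eq_mul, pow_add]; ring
      rw [this]
      exact Submodule.smul_mem _ _ (Submodule.subset_span ⟨j + (e - k), by
        show j + (e - k) < n
        omega, rfl⟩)
  refine ⟨a * s, s, ?_, ?_, hvs, rfl⟩
  · refine isIntegral_of_mul_pow_mem a (a * s) n hnpos fun e he => ?_
    have : a * s * a ^ e = s * a ^ (e + 1) := by rw [pow_succ]; ring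
    rw [this]
    exact key (e + 1) he
  · exact isIntegral_of_mul_pow_mem a s n hnpos fun e he => key e he.le

/-- Algebraic integers lie in every valuation subring. -/
theorem valuation_le_one_of_isIntegral {L : Type*} [Field L] (A : ValuationSubring L) (x : L)
    (hx : IsIntegral ℤ x) : A.valuation x ≤ 1 := by
  have h1 : IsIntegral A x := hx.tower_top
  exact (Valuation.Integers.isIntegral_iff_v_le_one
    (Valuation.valuationSubring.integers A.valuation) (x := x)).mp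
    (by rw [A.valuationSubring_valuation]; exact h1) |>.trans_eq' rfl

/-- The prime ideal of the ring of all algebraic integers cut out by a valuation subring. -/
def primeUnder (A : ValuationSubring (AlgebraicClosure ℚ)) :
    Ideal (integralClosure ℤ (AlgebraicClosure ℚ)) where
  carrier := {b | A.valuation (b : AlgebraicClosure ℚ) < 1}
  add_mem' := fun {x y} hx hy => by
    show A.valuation ((x + y : integralClosure ℤ (AlgebraicClosure ℚ)) : AlgebraicClosure ℚ) < 1
    rw [Subalgebra.coe_add]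
    exact lt_of_le_of_lt (A.valuation.map_add _ _) (max_lt hx hy)
  zero_mem' := by
    show A.valuation ((0 : integralClosure ℤ (AlgebraicClosure ℚ)) : AlgebraicClosure ℚ) < 1
    rw [Subalgebra.coe_zero, map_zero]
    exact zero_lt_one
  smul_mem' := fun c x hx => by
    show A.valuation ((c • x : integralClosure ℤ (AlgebraicClosure ℚ)) : AlgebraicClosure ℚ) < 1
    rw [smul_eq_mul, Subalgebra.coe_mul, map_mul]
    have hc : A.valuation (c : AlgebraicClosure ℚ) ≤ 1 := valuation_le_one_of_isIntegral A _ c.2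
    calc A.valuation (c : AlgebraicClosure ℚ) * A.valuation (x : AlgebraicClosure ℚ)
        ≤ 1 * A.valuation (x : AlgebraicClosure ℚ) := mul_le_mul_left hc _
      _ = A.valuation (x : AlgebraicClosure ℚ) := one_mul _
      _ < 1 := hx

theorem mem_primeUnder (A : ValuationSubring (AlgebraicClosure ℚ))
    (b : integralClosure ℤ (AlgebraicClosure ℚ)) :
    b ∈ primeUnder A ↔ A.valuation (b : AlgebraicClosure ℚ) < 1 := Iff.rfl

theorem primeUnder_isPrime (A : ValuationSubring (AlgebraicClosure ℚ)) :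
    (primeUnder A).IsPrime := by
  refine ⟨?_, ?_⟩
  · intro h
    have h1 : (1 : integralClosure ℤ (AlgebraicClosure ℚ)) ∈ primeUnder A := by
      rw [h]; exact Submodule.mem_top
    rw [mem_primeUnder, Subalgebra.coe_one, map_one] at h1
    exact lt_irrefl _ h1
  · intro x y hxy
    rw [mem_primeUnder, Subalgebra.coe_mul, map_mul] at hxy
    by_contra hcon
    rw [not_or] at hcon
    have hx : A.valuation (x : AlgebraicClosure ℚ) = 1 :=
      le_antisymm (valuation_le_one_of_isIntegral A _ x.2) (not_lt.mp hcon.1)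
    have hy : A.valuation (y : AlgebraicClosure ℚ) = 1 :=
      le_antisymm (valuation_le_one_of_isIntegral A _ y.2) (not_lt.mp hcon.2)
    rw [hx, hy, one_mul] at hxy
    exact lt_irrefl _ hxy

theorem isAlgebraic_int_qbar (a : AlgebraicClosure ℚ) : IsAlgebraic ℤ a :=
  (IsFractionRing.isAlgebraic_iff ℤ ℚ (AlgebraicClosure ℚ)).mpr
    ((AlgebraicClosure.isAlgebraic ℚ).isAlgebraic a)

/-- If `τ` maps algebraic integers which are units of `A` to units of `A`, then `τ` maps `A`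
into `A`. -/
theorem map_mem_of_units (A : ValuationSubring (AlgebraicClosure ℚ)) (ℓ : ℕ) (hℓ : ℓ.Prime)
    (hA : (ℓ : AlgebraicClosure ℚ) ∈ A.nonunits)
    (τ : AlgebraicClosure ℚ ≃ₐ[ℚ] AlgebraicClosure ℚ)
    (hτ : ∀ b : AlgebraicClosure ℚ, IsIntegral ℤ b → A.valuation b = 1 → A.valuation (τ b) = 1)
    (a : AlgebraicClosure ℚ) (ha : a ∈ A) : τ a ∈ A := by
  obtain ⟨y, s, hy, hs, hvs, hays⟩ := exists_integral_frac A ℓ hℓ hA a ha (isAlgebraic_int_qbar a)
  have h1 : τ a * τ s = τ y := by rw [← map_mul, hays]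
  have h2 : A.valuation (τ s) = 1 := hτ s hs hvs
  have h3 : A.valuation (τ y) ≤ 1 :=
    valuation_le_one_of_isIntegral A _ (map_isIntegral_int τ hy)
  rw [← A.valuation_le_one_iff]
  have h4 : A.valuation (τ a) * A.valuation (τ s) = A.valuation (τ y) := by
    rw [← map_mul, h1]
  rw [h2, mul_one] at h4
  rw [h4]
  exact h3

/-- **Existence of Frobenius elements.** For every valuation subring `A` of `ℚ̄` lying over a
prime `ℓ` there is `σ ∈ Gal(ℚ̄/ℚ)` which is a Frobenius element at `A`. -/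
theorem exists_isFrobeniusAt (ℓ : ℕ) (hℓ : ℓ.Prime) (A : ValuationSubring (AlgebraicClosure ℚ))
    (hA : A.LiesOverPrime ℓ) :
    ∃ σ : AlgebraicClosure ℚ ≃ₐ[ℚ] AlgebraicClosure ℚ, A.IsFrobeniusAt σ ℓ := by
  have hA' : (ℓ : AlgebraicClosure ℚ) ∈ A.nonunits := hA
  have hprime := primeUnder_isPrime A
  have hℓQ : (ℓ : integralClosure ℤ (AlgebraicClosure ℚ)) ∈ primeUnder A := by
    rw [mem_primeUnder]
    have : (((ℓ : ℕ) : integralClosure ℤ (AlgebraicClosure ℚ)) : AlgebraicClosure ℚ) =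
        (ℓ : AlgebraicClosure ℚ) := by
      simp
    rw [this]
    exact A.mem_nonunits_iff.mp hA'
  obtain ⟨σ, hσQ, hσ⟩ :=
    Fermat.Agent.Lib.FrobIntegers.exists_frob_integralClosure_stab ℓ hℓ (primeUnder A) hℓQ
  have hfrob : ∀ b : AlgebraicClosure ℚ, IsIntegral ℤ b → A.valuation (σ b - b ^ ℓ) < 1 :=
    fun b hb => hσ ⟨b, hb⟩
  have hunit : ∀ b : AlgebraicClosure ℚ, IsIntegral ℤ b → A.valuation b = 1 →
      A.valuation (σ b) = 1 := by
    intro b hb hvb
    have h1 : σ b = b ^ ℓ + (σ b - b ^ ℓ) := by ring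
    have h2 : A.valuation (b ^ ℓ) = 1 := by rw [map_pow, hvb, one_pow]
    rw [h1, A.valuation.map_add_eq_of_lt_left (by rw [h2]; exact hfrob b hb)]
    exact h2
  have hunit' : ∀ b : AlgebraicClosure ℚ, IsIntegral ℤ b → A.valuation b = 1 →
      A.valuation (σ⁻¹ b) = 1 := by
    intro b hb hvb
    by_contra h
    have hlt : A.valuation (σ⁻¹ b) < 1 :=
      lt_of_le_of_ne (valuation_le_one_of_isIntegral A _ (map_isIntegral_int σ⁻¹ hb)) h
    have h1 : (σ⁻¹ • (⟨b, hb⟩ : integralClosure ℤ (AlgebraicClosure ℚ))) ∈ primeUnder A := hlt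
    have h2 : (⟨b, hb⟩ : integralClosure ℤ (AlgebraicClosure ℚ)) ∈ σ • primeUnder A :=
      Ideal.mem_pointwise_smul_iff_inv_smul_mem.mpr h1
    rw [hσQ, mem_primeUnder] at h2
    rw [hvb] at h2
    exact lt_irrefl _ h2
  have hmap : ∀ a : AlgebraicClosure ℚ, a ∈ A → σ a ∈ A :=
    map_mem_of_units A ℓ hℓ hA' σ hunit
  have hmap' : ∀ a : AlgebraicClosure ℚ, a ∈ A → σ⁻¹ a ∈ A :=
    map_mem_of_units A ℓ hℓ hA' σ⁻¹ hunit'
  have hdec : σ ∈ A.decompositionSubgroup ℚ := by
    rw [MulAction.mem_stabilizer_iff]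
    ext x
    rw [ValuationSubring.mem_pointwise_smul_iff_inv_smul_mem]
    constructor
    · intro hx
      have h1 := hmap _ hx
      have h2 : σ (σ⁻¹ • x) = x := by
        show σ (σ⁻¹ x) = x
        exact AlgEquiv.apply_symm_apply σ x
      rw [h2] at h1
      exact h1
    · intro hx
      exact hmap' x hx
  refine ⟨σ, hdec, ?_⟩
  intro x
  obtain ⟨a, rfl⟩ := IsLocalRing.residue_surjective x
  rw [← IsLocalRing.ResidueField.residue_smul, ← map_pow, ← sub_eq_zero, ← map_sub,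
    IsLocalRing.residue_eq_zero_iff, ← ValuationSubring.coe_mem_nonunits_iff,
    A.mem_nonunits_iff]
  show A.valuation (σ (a : AlgebraicClosure ℚ) - (a : AlgebraicClosure ℚ) ^ ℓ) < 1
  obtain ⟨y, s, hy, hs, hvs, hays⟩ :=
    exists_integral_frac A ℓ hℓ hA' (a : AlgebraicClosure ℚ) a.2 (isAlgebraic_int_qbar _)
  set a' : AlgebraicClosure ℚ := (a : AlgebraicClosure ℚ) with ha'
  have hvσs : A.valuation (σ s) = 1 := hunit s hs hvs
  have hvy : A.valuation y ≤ 1 := valuation_le_one_of_isIntegral A _ hy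
  have hid : (σ a' - a' ^ ℓ) * (σ s * s ^ ℓ) =
      (σ y - y ^ ℓ) * s ^ ℓ - y ^ ℓ * (σ s - s ^ ℓ) := by
    have e1 : σ y = σ a' * σ s := by rw [← hays, map_mul]
    rw [e1, ← hays]
    ring
  have hv1 : A.valuation ((σ y - y ^ ℓ) * s ^ ℓ) < 1 := by
    rw [map_mul, map_pow, hvs, one_pow, mul_one]
    exact hfrob y hy
  have hv2 : A.valuation (y ^ ℓ * (σ s - s ^ ℓ)) < 1 := by
    rw [map_mul, map_pow]
    calc A.valuation y ^ ℓ * A.valuation (σ s - s ^ ℓ)
        ≤ 1 * A.valuation (σ s - s ^ ℓ) := mul_le_mul_left (pow_le_one' hvy _) _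
      _ = A.valuation (σ s - s ^ ℓ) := one_mul _
      _ < 1 := hfrob s hs
  have hv3 : A.valuation ((σ a' - a' ^ ℓ) * (σ s * s ^ ℓ)) < 1 := by
    rw [hid]
    exact lt_of_le_of_lt (A.valuation.map_sub _ _) (max_lt hv1 hv2)
  rw [map_mul, map_mul, map_pow, hvσs, hvs, one_pow, mul_one, mul_one] at hv3
  exact hv3

/-- For every prime `ℓ` there are a place of `ℚ̄` over `ℓ` and a Frobenius element at it. -/
theorem exists_place_and_frobenius (ℓ : ℕ) (hℓ : ℓ.Prime) :
    ∃ (A : ValuationSubring (AlgebraicClosure ℚ)) (σ : AlgebraicClosure ℚ ≃ₐ[ℚ] AlgebraicClosure ℚ),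
      A.LiesOverPrime ℓ ∧ A.IsFrobeniusAt σ ℓ := by
  obtain ⟨A, hA⟩ := exists_liesOverPrime ℓ hℓ
  obtain ⟨σ, hσ⟩ := exists_isFrobeniusAt ℓ hℓ A hA
  exact ⟨A, σ, hA, hσ⟩

end Fermat.Agent.Lib.FrobExists

end
-- ==== END Fermat.Agent.Lib.FrobExists

-- ==== BEGIN Fermat.Agent.Lib.HeckeComm.H2_NormSeriesComm
section

/-!
# COMM (helper2), step (N-good): the formal Hecke norm series commute

For coprime `ℓ, ℓ'` and a field `K` with primitive `ℓ`-th and `ℓ'`-th roots of unity,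
`normSeries K ℓ (normSeries K ℓ' s) = normSeries K ℓ' (normSeries K ℓ s)`.
Both sides, expanded in `q^(1/(ℓℓ'))`, are
`s(q^(ℓ²ℓ'²)) · ∏_ξ s(ξ q^(ℓ²)) · ∏_ζ s(ζ q^(ℓ'²)) · ∏_{ζ,ξ} s(ζ ξ q)`.
-/

set_option autoImplicit false
set_option linter.unusedSectionVars false
set_option linter.style.haveILetI false

noncomputable section

namespace Fermat.Agent.Lib.HeckeComm

open HahnSeries ModularCurve Fermat.Agent.GTor.H44

section Ring

variable {K : Type*} [CommRing K]

theorem qExpand_comm (m n : ℕ) [NeZero m] [NeZero n] (s : LaurentSeries K) :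
    qExpand K m (qExpand K n s) = qExpand K n (qExpand K m s) := by
  haveI : NeZero (m * n) := ⟨Nat.mul_ne_zero (NeZero.ne m) (NeZero.ne n)⟩
  haveI : NeZero (n * m) := ⟨Nat.mul_ne_zero (NeZero.ne n) (NeZero.ne m)⟩
  rw [qExpand_qExpand, qExpand_qExpand]
  exact qExpand_congr (Nat.mul_comm m n) s

/-- `s(w^m q^m) = (s(q^m))(w q)`. -/
theorem qExpand_twistBy (m : ℕ) [NeZero m] (w : Kˣ) (s : LaurentSeries K) :
    qExpand K m (twistBy (w ^ m) s) = twistBy w (qExpand K m s) := by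
  ext k
  by_cases hk : (m : ℤ) ∣ k
  · obtain ⟨j, rfl⟩ := hk
    rw [qExpand_coeff_mul, twistBy_coeff, twistBy_coeff, qExpand_coeff_mul, ← zpow_natCast,
      ← zpow_mul]
  · rw [qExpand_coeff_of_not_dvd _ _ hk, twistBy_coeff, qExpand_coeff_of_not_dvd _ _ hk,
      mul_zero]

end Ring

section Field

variable {K : Type*} [Field K]

/-- `ζ ↦ ζ ^ m` permutes the `ℓ`-th roots of unity if `m` is prime to `ℓ`. -/
theorem prod_rootsFinset_pow {M : Type*} [CommMonoid M] (ℓ m : ℕ) [NeZero ℓ]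
    (hco : Nat.Coprime m ℓ) (f : Kˣ → M) :
    ∏ ζ ∈ rootsFinset K ℓ, f (ζ ^ m) = ∏ ζ ∈ rootsFinset K ℓ, f ζ := by
  -- an inverse exponent
  obtain ⟨m', hm'⟩ : ∃ m' : ℕ, ∀ ζ : Kˣ, ζ ^ ℓ = 1 → (ζ ^ m) ^ m' = ζ := by
    by_cases hℓ1 : ℓ = 1
    · subst hℓ1
      exact ⟨0, fun ζ hζ => by rw [pow_zero]; rw [pow_one] at hζ; exact hζ.symm⟩
    · have hℓ : 1 < ℓ := by
        have := NeZero.pos ℓ
        omega
      obtain ⟨m', hm'⟩ := Nat.exists_mul_mod_eq_one_of_coprime hco hℓ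
      refine ⟨m', fun ζ hζ => ?_⟩
      rw [← pow_mul]
      have h1 : m * m' = ℓ * (m * m' / ℓ) + 1 := by
        have := Nat.div_add_mod (m * m') ℓ
        rw [hm'.2] at this
        exact this.symm
      rw [h1, _root_.pow_add, pow_mul, hζ, one_pow, one_mul, pow_one]
  refine Finset.prod_bij (fun ζ _ => ζ ^ m) ?_ ?_ ?_ (fun _ _ => rfl)
  · intro ζ hζ
    rw [mem_rootsFinset] at hζ ⊢
    rw [← pow_mul, mul_comm, pow_mul, hζ, one_pow]
  · intro ζ hζ ζ' hζ' h
    rw [mem_rootsFinset] at hζ hζ'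
    have h2 : (ζ ^ m) ^ m' = (ζ' ^ m) ^ m' := by rw [h]
    rwa [hm' ζ hζ, hm' ζ' hζ'] at h2
  · intro ζ hζ
    rw [mem_rootsFinset] at hζ
    refine ⟨ζ ^ m', ?_, ?_⟩
    · rw [mem_rootsFinset, ← pow_mul, mul_comm, pow_mul, hζ, one_pow]
    · rw [← pow_mul, mul_comm, pow_mul]
      exact hm' ζ hζ

/-- The twisted product over `μ_ℓ` commutes with `q ↦ q^m` for `m` prime to `ℓ`. -/
theorem twistProd_qExpand (ℓ m : ℕ) [NeZero ℓ] [NeZero m] (hco : Nat.Coprime m ℓ)
    (s : LaurentSeries K) :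
    twistProd K ℓ (qExpand K m s) = qExpand K m (twistProd K ℓ s) := by
  unfold twistProd
  rw [map_prod]
  rw [← prod_rootsFinset_pow ℓ m hco (fun ζ => qExpand K m (twistBy ζ s))]
  refine Finset.prod_congr rfl fun ζ _ => ?_
  rw [qExpand_twistBy]

theorem twistProd_twistProd_comm (ℓ ℓ' : ℕ) [NeZero ℓ] [NeZero ℓ'] (s : LaurentSeries K) :
    twistProd K ℓ (twistProd K ℓ' s) = twistProd K ℓ' (twistProd K ℓ s) := by
  have e : ∀ (a b : ℕ) [NeZero a] [NeZero b], twistProd K a (twistProd K b s)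
      = ∏ ζ ∈ rootsFinset K a, ∏ ξ ∈ rootsFinset K b, twistBy (ζ * ξ) s := by
    intro a b _ _
    unfold twistProd
    refine Finset.prod_congr rfl fun ζ _ => ?_
    rw [map_prod]
    refine Finset.prod_congr rfl fun ξ _ => ?_
    rw [twistBy_twistBy]
  rw [e ℓ ℓ', e ℓ' ℓ, Finset.prod_comm]
  refine Finset.prod_congr rfl fun ξ _ => Finset.prod_congr rfl fun ζ _ => ?_
  rw [mul_comm]

/-- The common expansion of `normSeries ℓ (normSeries ℓ' s)` in `q^(1/(ℓ ℓ'))`. -/
theorem qExpand_normSeries_normSeries (ℓ ℓ' : ℕ) [NeZero ℓ] [NeZero ℓ']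
    (hco : Nat.Coprime ℓ' ℓ) {ζ₀ ζ₀' : Kˣ} (hζ : IsPrimitiveRoot ζ₀ ℓ)
    (hζ' : IsPrimitiveRoot ζ₀' ℓ') (s : LaurentSeries K) :
    qExpand K ℓ' (qExpand K ℓ (normSeries K ℓ (normSeries K ℓ' s)))
      = qExpand K ℓ (qExpand K ℓ (qExpand K ℓ' (qExpand K ℓ' s)))
        * qExpand K ℓ (qExpand K ℓ (twistProd K ℓ' s))
        * (qExpand K ℓ' (qExpand K ℓ' (twistProd K ℓ s))
        * twistProd K ℓ (twistProd K ℓ' s)) := by
  rw [qExpand_normSeries hζ, map_mul]
  -- first factor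
  have h1 : qExpand K ℓ' (qExpand K ℓ (qExpand K ℓ (normSeries K ℓ' s)))
      = qExpand K ℓ (qExpand K ℓ (qExpand K ℓ' (qExpand K ℓ' s)))
        * qExpand K ℓ (qExpand K ℓ (twistProd K ℓ' s)) := by
    rw [qExpand_comm ℓ' ℓ, qExpand_comm ℓ' ℓ, qExpand_normSeries hζ', map_mul, map_mul]
  -- second factor
  have h2 : qExpand K ℓ' (twistProd K ℓ (normSeries K ℓ' s))
      = qExpand K ℓ' (qExpand K ℓ' (twistProd K ℓ s))
        * twistProd K ℓ (twistProd K ℓ' s) := by
    rw [← twistProd_qExpand ℓ ℓ' hco, qExpand_normSeries hζ', twistProd_mul,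
      twistProd_qExpand ℓ ℓ' hco, twistProd_qExpand ℓ ℓ' hco]
  rw [h1, h2]

/-- **The formal Hecke norms commute.** -/
theorem normSeries_comm (ℓ ℓ' : ℕ) [NeZero ℓ] [NeZero ℓ'] (hco : Nat.Coprime ℓ ℓ')
    {ζ₀ ζ₀' : Kˣ} (hζ : IsPrimitiveRoot ζ₀ ℓ) (hζ' : IsPrimitiveRoot ζ₀' ℓ')
    (s : LaurentSeries K) :
    normSeries K ℓ (normSeries K ℓ' s) = normSeries K ℓ' (normSeries K ℓ s) := by
  apply _root_.ModularCurve.qExpand_injective (R := K) ℓ
  apply _root_.ModularCurve.qExpand_injective (R := K) ℓ'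
  rw [qExpand_normSeries_normSeries ℓ ℓ' hco.symm hζ hζ' s, qExpand_comm ℓ' ℓ,
    qExpand_normSeries_normSeries ℓ' ℓ hco hζ' hζ s, twistProd_twistProd_comm ℓ' ℓ]
  have e1 : qExpand K ℓ' (qExpand K ℓ' (qExpand K ℓ (qExpand K ℓ s)))
      = qExpand K ℓ (qExpand K ℓ (qExpand K ℓ' (qExpand K ℓ' s))) := by
    rw [qExpand_comm ℓ' ℓ, qExpand_comm ℓ' ℓ, qExpand_comm ℓ' ℓ, qExpand_comm ℓ' ℓ]
  rw [e1]
  ring

end Field

end Fermat.Agent.Lib.HeckeComm

end
end
-- ==== END Fermat.Agent.Lib.HeckeComm.H2_NormSeriesComm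

-- ==== BEGIN Fermat.Agent.R.H2_PDVR
section

/-!
# Cluster R, leaf L3b (helper2): a complete DVR point above a maximal ideal of an order

`R` a domain of characteristic `0`, finite over `ℤ`, `P` a maximal ideal of `R` containing the
prime `p`.  Then there are a complete discrete valuation ring `O'` (characteristic `0`, finite
residue field, finite over `ℤ_[p]`) and an injective ring homomorphism `i : R →+* O'` with
`i⁻¹ (maximalIdeal O') = P`.

Construction: `A = ℤ_[p] ⊗ R`, `𝔐 ⊂ A` the kernel of `A → R ⧸ P`, `𝔮 ≤ 𝔐` a minimal prime,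
`B = A ⧸ 𝔮` (a domain, finite and faithful over `ℤ_[p]`), `E = Frac B`, `O' = integralClosure ℤ_[p] E`
(leaf L4).
-/

set_option autoImplicit false
set_option linter.style.haveILetI false
set_option linter.unusedSectionVars false

open IsLocalRing TensorProduct

namespace Fermat.Agent.R.H2

section fracfinite

variable (O : Type) [CommRing O] [IsDomain O]
  (B : Type) [CommRing B] [IsDomain B] [Algebra O B] [Module.Finite O B] [FaithfulSMul O B]

/-- The fraction field of a domain finite and faithful over a domain `O` is finite dimensional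
over `Frac O`. -/
theorem finiteDimensional_fractionRing :
    letI := FractionRing.liftAlgebra O (FractionRing B)
    FiniteDimensional (FractionRing O) (FractionRing B) := by
  letI := FractionRing.liftAlgebra O (FractionRing B)
  haveI := FractionRing.isScalarTower_liftAlgebra O (FractionRing B)
  haveI : Algebra.IsIntegral O B := Algebra.IsIntegral.of_finite O B
  haveI : Algebra.IsAlgebraic (FractionRing O) (FractionRing B) :=
    isAlgebraic_of_isFractionRing O B (FractionRing O) (FractionRing B)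
  -- finitely many generators
  obtain ⟨T, hT⟩ := (Module.Finite.fg_top : (⊤ : Submodule O B).FG)
  set S : Set (FractionRing B) := (algebraMap B (FractionRing B)) '' (T : Set B) with hS
  haveI : Finite S := (T.finite_toSet.image _).to_subtype
  have hfd : FiniteDimensional (FractionRing O) (IntermediateField.adjoin (FractionRing O) S) :=
    IntermediateField.finiteDimensional_adjoin
      (fun x _ => (Algebra.IsAlgebraic.isAlgebraic x).isIntegral)
  -- the image of `B` lies in the adjoin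
  have hB : ∀ b : B, algebraMap B (FractionRing B) b ∈
      IntermediateField.adjoin (FractionRing O) S := by
    intro b
    have hb : b ∈ Submodule.span O (T : Set B) := by rw [hT]; trivial
    induction hb using Submodule.span_induction with
    | mem x hx => exact IntermediateField.subset_adjoin _ _ ⟨x, hx, rfl⟩
    | zero => rw [map_zero]; exact zero_mem _
    | add x y _ _ hx hy => rw [map_add]; exact add_mem hx hy
    | smul a x _ hx =>
      rw [Algebra.smul_def, map_mul, ← IsScalarTower.algebraMap_apply,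
        IsScalarTower.algebraMap_apply O (FractionRing O) (FractionRing B)]
      exact mul_mem (IntermediateField.algebraMap_mem _ _) hx
  have htop : IntermediateField.adjoin (FractionRing O) S = ⊤ := by
    rw [eq_top_iff]
    intro z _
    obtain ⟨x, y, -, rfl⟩ := IsFractionRing.div_surjective B z
    exact div_mem (hB x) (hB y)
  rw [htop] at hfd
  exact (IntermediateField.topEquiv (F := FractionRing O)
    (E := FractionRing B)).toLinearEquiv.finiteDimensional

end fracfinite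

section main

variable (p : ℕ) [Fact p.Prime] (R : Type) [CommRing R] [IsDomain R] [CharZero R]
  [Module.Finite ℤ R] (P : Ideal R) [P.IsMaximal]

/-- the map `ℤ_[p] → R ⧸ P` when `p ∈ P` -/
noncomputable def padicToQuot (hp : (p : R) ∈ P) : ℤ_[p] →+* R ⧸ P :=
  haveI : CharP (R ⧸ P) p := by
    haveI : Nontrivial (R ⧸ P) := Ideal.Quotient.nontrivial_iff.mpr (Ideal.IsMaximal.ne_top ‹_›)
    apply (CharP.charP_iff_prime_eq_zero (Fact.out : p.Prime)).2
    rw [← map_natCast (Ideal.Quotient.mk P)]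
    exact Ideal.Quotient.eq_zero_iff_mem.mpr hp
  (ZMod.castHom (dvd_refl p) (R ⧸ P)).comp PadicInt.toZMod

/-- the map `ℤ_[p] ⊗ R → R ⧸ P` -/
noncomputable def tensorToQuot (hp : (p : R) ∈ P) : (ℤ_[p] ⊗[ℤ] R) →+* R ⧸ P :=
  (Algebra.TensorProduct.lift (R := ℤ) (S := ℤ) (A := ℤ_[p]) (B := R) (C := R ⧸ P)
    (padicToQuot p R P hp).toIntAlgHom (Ideal.Quotient.mk P).toIntAlgHom
    (fun _ _ => Commute.all _ _)).toRingHom

theorem tensorToQuot_includeRight (hp : (p : R) ∈ P) (x : R) :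
    tensorToQuot p R P hp ((1 : ℤ_[p]) ⊗ₜ[ℤ] x) = Ideal.Quotient.mk P x := by
  simp [tensorToQuot]

theorem tensorToQuot_surjective (hp : (p : R) ∈ P) :
    Function.Surjective (tensorToQuot p R P hp) := by
  intro y
  obtain ⟨x, rfl⟩ := Ideal.Quotient.mk_surjective y
  exact ⟨(1 : ℤ_[p]) ⊗ₜ[ℤ] x, tensorToQuot_includeRight p R P hp x⟩

end main

section normalize

variable (O : Type) [CommRing O] [IsDomain O] [IsDiscreteValuationRing O]
  [IsAdicComplete (maximalIdeal O) O] [Finite (ResidueField O)] [CharZero O]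
  (B : Type) [CommRing B] [IsDomain B] [Algebra O B] [Module.Finite O B] [FaithfulSMul O B]

/-- **Normalisation of a finite faithful domain over a complete DVR**: `B` embeds into a
complete DVR `O'` finite over `O`, and the maximal ideal of `O'` contracts to the unique maximal
ideal of `B`. -/
theorem exists_dvr_of_finite_domain :
    ∃ (O' : Type) (_ : CommRing O') (_ : IsDomain O') (_ : IsDiscreteValuationRing O')
      (_ : IsAdicComplete (maximalIdeal O') O') (_ : Finite (ResidueField O'))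
      (_ : CharZero O') (_ : Algebra O O') (_ : Module.Finite O O')
      (_ : IsLocalHom (algebraMap O O')) (j : B →+* O'),
      Function.Injective (algebraMap O O') ∧ Function.Injective j ∧
      (∀ a : O, j (algebraMap O B a) = algebraMap O O' a) ∧
      ∀ 𝔫 : Ideal B, 𝔫.IsMaximal → (maximalIdeal O').comap j = 𝔫 := by
  letI := FractionRing.liftAlgebra O (FractionRing B)
  haveI := FractionRing.isScalarTower_liftAlgebra O (FractionRing B)
  haveI : FiniteDimensional (FractionRing O) (FractionRing B) :=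
    finiteDimensional_fractionRing O B
  haveI : Algebra.IsIntegral O B := Algebra.IsIntegral.of_finite O B
  letI hloc := FiniteExt.isLocalRing O (FractionRing O) (FractionRing B)
  letI hdvr := FiniteExt.isDiscreteValuationRing O (FractionRing O) (FractionRing B)
  have hmem : ∀ b : B, algebraMap B (FractionRing B) b ∈ integralClosure O (FractionRing B) :=
    fun b => (Algebra.IsIntegral.isIntegral (R := O) b).map
      (IsScalarTower.toAlgHom O B (FractionRing B))
  let j : B →+* integralClosure O (FractionRing B) :=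
    (algebraMap B (FractionRing B)).codRestrict (integralClosure O (FractionRing B)) hmem
  have hjinj : Function.Injective j := by
    intro x y hxy
    have := congrArg Subtype.val hxy
    exact IsFractionRing.injective B (FractionRing B) this
  have hjO : ∀ a : O, j (algebraMap O B a) = algebraMap O (integralClosure O (FractionRing B)) a := by
    intro a
    apply Subtype.ext
    show algebraMap B (FractionRing B) (algebraMap O B a) = algebraMap O (FractionRing B) a
    rw [← IsScalarTower.algebraMap_apply]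
  refine ⟨integralClosure O (FractionRing B), inferInstance, inferInstance, hdvr,
    FiniteExt.isAdicComplete O (FractionRing O) (FractionRing B),
    FiniteExt.finite_residueField O (FractionRing O) (FractionRing B),
    FiniteExt.charZero O (FractionRing O) (FractionRing B), inferInstance,
    FiniteExt.moduleFinite O (FractionRing O) (FractionRing B),
    FiniteExt.isLocalHom O (FractionRing O) (FractionRing B), j,
    FiniteExt.injective_algebraMap O (FractionRing O) (FractionRing B), hjinj, hjO, ?_⟩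
  intro 𝔫 h𝔫
  -- `B` is local
  haveI hBloc : IsLocalRing B := isLocalRing_of_finite_of_isDomain O B
  -- the contraction is maximal since `O'` is integral over `B`
  letI : Algebra B (integralClosure O (FractionRing B)) := j.toAlgebra
  haveI : IsScalarTower O B (integralClosure O (FractionRing B)) :=
    IsScalarTower.of_algebraMap_eq fun a => (hjO a).symm
  haveI : Algebra.IsIntegral B (integralClosure O (FractionRing B)) :=
    Algebra.IsIntegral.tower_top (R := O)
  have hmax : ((maximalIdeal (integralClosure O (FractionRing B))).comap j).IsMaximal :=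
    Ideal.isMaximal_comap_of_isIntegral_of_isMaximal (R := B)
      (maximalIdeal (integralClosure O (FractionRing B)))
  rw [IsLocalRing.eq_maximalIdeal hmax, IsLocalRing.eq_maximalIdeal h𝔫]

end normalize

section main2

variable (p : ℕ) [Fact p.Prime] (R : Type) [CommRing R] [IsDomain R] [CharZero R]
  [Module.Finite ℤ R] (P : Ideal R) [P.IsMaximal]

/-- **L3b (P-DVR)**. -/
theorem exists_pDVR (hp : (p : R) ∈ P) :
    ∃ (O' : Type) (_ : CommRing O') (_ : IsDomain O') (_ : IsDiscreteValuationRing O')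
      (_ : IsAdicComplete (maximalIdeal O') O') (_ : Finite (ResidueField O'))
      (_ : CharZero O') (_ : Algebra ℤ_[p] O') (_ : Module.Finite ℤ_[p] O')
      (i : R →+* O'), Function.Injective i ∧ (maximalIdeal O').comap i = P ∧
        (p : O') ∈ maximalIdeal O' := by
  classical
  letI : Field (R ⧸ P) := Ideal.Quotient.field P
  let φ := tensorToQuot p R P hp
  have hφ : Function.Surjective φ := tensorToQuot_surjective p R P hp
  haveI h𝔐max : (RingHom.ker φ).IsMaximal := RingHom.ker_isMaximal_of_surjective φ hφ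
  obtain ⟨𝔮, h𝔮min, h𝔮le⟩ :=
    Ideal.exists_minimalPrimes_le (bot_le : (⊥ : Ideal (ℤ_[p] ⊗[ℤ] R)) ≤ RingHom.ker φ)
  haveI h𝔮prime : 𝔮.IsPrime := h𝔮min.1.1
  -- `p` is a nonzerodivisor on `A`, hence not in `𝔮`
  have hpnzd : (p : ℤ_[p] ⊗[ℤ] R) ∈ nonZeroDivisors (ℤ_[p] ⊗[ℤ] R) := by
    rw [mem_nonZeroDivisors_iff_right]
    intro x hx
    have h1 : (p : ℤ_[p]) • x = 0 := by
      rw [Nat.cast_smul_eq_nsmul, nsmul_eq_mul, mul_comm]; exact hx
    have hp0 : (p : ℤ_[p]) ≠ 0 := by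
      exact_mod_cast (Fact.out : p.Prime).ne_zero
    exact (smul_eq_zero.mp h1).resolve_left hp0
  have hp𝔮 : (p : ℤ_[p] ⊗[ℤ] R) ∉ 𝔮 := fun h =>
    Set.disjoint_left.1 (Ideal.disjoint_nonZeroDivisors_of_mem_minimalPrimes h𝔮min) h hpnzd
  -- `ℤ_[p] → A ⧸ 𝔮` is injective
  have hinj : Function.Injective (algebraMap ℤ_[p] ((ℤ_[p] ⊗[ℤ] R) ⧸ 𝔮)) := by
    rw [RingHom.injective_iff_ker_eq_bot]
    by_contra hne
    have hprime : (RingHom.ker (algebraMap ℤ_[p] ((ℤ_[p] ⊗[ℤ] R) ⧸ 𝔮))).IsPrime :=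
      RingHom.ker_isPrime _
    have hmax := hprime.isMaximal hne
    have heq := IsLocalRing.eq_maximalIdeal hmax
    have hpm : (p : ℤ_[p]) ∈ maximalIdeal ℤ_[p] := by
      rw [PadicInt.maximalIdeal_eq_span_p]
      exact Ideal.subset_span rfl
    rw [← heq, RingHom.mem_ker, map_natCast] at hpm
    have : (p : ℤ_[p] ⊗[ℤ] R) ∈ 𝔮 := by
      rw [← Ideal.Quotient.eq_zero_iff_mem, map_natCast]
      exact hpm
    exact hp𝔮 this
  haveI : FaithfulSMul ℤ_[p] ((ℤ_[p] ⊗[ℤ] R) ⧸ 𝔮) :=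
    (faithfulSMul_iff_algebraMap_injective _ _).2 hinj
  obtain ⟨O', iCR, iD, iDVR, iAC, iFin, iCZ, iAlg, iMF, iLH, j, hOinj, hjinj, hjO, hjmax⟩ :=
    exists_dvr_of_finite_domain ℤ_[p] ((ℤ_[p] ⊗[ℤ] R) ⧸ 𝔮)
  -- the map `R → O'`
  let ι : R →+* ℤ_[p] ⊗[ℤ] R := (Algebra.TensorProduct.includeRight (R := ℤ) (A := ℤ_[p])
    (B := R)).toRingHom
  let i : R →+* O' := (j.comp (Ideal.Quotient.mk 𝔮)).comp ι
  have hι : ∀ x : R, ι x = (1 : ℤ_[p]) ⊗ₜ[ℤ] x := fun x => rfl
  -- the induced map `A ⧸ 𝔮 → R ⧸ P`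
  let φbar : ((ℤ_[p] ⊗[ℤ] R) ⧸ 𝔮) →+* R ⧸ P :=
    Ideal.Quotient.lift 𝔮 φ (fun a ha => h𝔮le ha)
  have hφbar : Function.Surjective φbar := by
    intro y
    obtain ⟨a, rfl⟩ := hφ y
    exact ⟨Ideal.Quotient.mk 𝔮 a, Ideal.Quotient.lift_mk 𝔮 φ _⟩
  have h𝔫 : (RingHom.ker φbar).IsMaximal := RingHom.ker_isMaximal_of_surjective φbar hφbar
  refine ⟨O', iCR, iD, iDVR, iAC, iFin, iCZ, iAlg, iMF, i, ?_, ?_, ?_⟩
  · -- injectivity
    rw [RingHom.injective_iff_ker_eq_bot]
    haveI : (RingHom.ker i).IsPrime := RingHom.ker_isPrime i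
    apply Ideal.eq_bot_of_comap_eq_bot (R := ℤ)
    rw [eq_bot_iff]
    intro n hn
    rw [Ideal.mem_comap, RingHom.mem_ker, eq_intCast, map_intCast] at hn
    have h2 : algebraMap ℤ_[p] O' (n : ℤ_[p]) = 0 := by rw [map_intCast]; exact hn
    have h3 := hOinj (h2.trans (map_zero _).symm)
    have h4 : n = 0 := by exact_mod_cast h3
    rw [h4]; exact Ideal.zero_mem _
  · -- contraction of the maximal ideal
    have hcomap := hjmax (RingHom.ker φbar) h𝔫
    ext x
    rw [Ideal.mem_comap]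
    have h1 : i x ∈ maximalIdeal O' ↔ (Ideal.Quotient.mk 𝔮 (ι x)) ∈ RingHom.ker φbar := by
      rw [← hcomap, Ideal.mem_comap]
      rfl
    rw [h1, RingHom.mem_ker]
    show φ (ι x) = 0 ↔ x ∈ P
    rw [hι, tensorToQuot_includeRight, Ideal.Quotient.eq_zero_iff_mem]
  · -- `p` is in the maximal ideal
    have hpm : (p : ℤ_[p]) ∈ maximalIdeal ℤ_[p] := by
      rw [PadicInt.maximalIdeal_eq_span_p]
      exact Ideal.subset_span rfl
    have : algebraMap ℤ_[p] O' (p : ℤ_[p]) ∈ maximalIdeal O' := by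
      rw [IsLocalRing.mem_maximalIdeal, mem_nonunits_iff] at hpm ⊢
      exact fun h => hpm (isUnit_of_map_unit (algebraMap ℤ_[p] O') _ h)
    rwa [map_natCast] at this

end main2

end Fermat.Agent.R.H2

end
-- ==== END Fermat.Agent.R.H2_PDVR

-- ==== BEGIN Fermat.Agent.R.H86_BN
section

/-!
# Cluster R: the kernel of a residually absolutely irreducible representation is detected
by the trace (Burnside + Nakayama) (helper86)

`eq_one_of_forall_trace_mul`: if `ρ` is a representation over a local ring whose residual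
representation is absolutely irreducible and `s` satisfies `tr ρ (s * h) = tr ρ h` for all
`h`, then `ρ s = 1`.
-/

set_option autoImplicit false

open IsLocalRing
open scoped TensorProduct

namespace Fermat.Agent.R.H86

open Fermat.Agent.S53.Schur

variable {A : Type} [CommRing A] [IsLocalRing A]

/-- The matrices of a residually absolutely irreducible representation span `M_2(A)`. -/
theorem exists_eq_sum_matrix (ρ : GaloisRepAdic A)
    (hirr : ρ.residual.IsAbsolutelyIrreducible) (b : Module.Basis (Fin 2) A ρ.V) :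
    ∃ g : Fin 2 × Fin 2 → (AlgebraicClosure ℚ ≃ₐ[ℚ] AlgebraicClosure ℚ),
      ∀ Y : Matrix (Fin 2) (Fin 2) A,
        ∃ c : Fin 2 × Fin 2 → A, Y = ∑ p, c p • LinearMap.toMatrix b b (ρ.ρ (g p)) := by
  classical
  let bbar : Module.Basis (Fin 2) (ResidueField A) ρ.residual.V :=
    Algebra.TensorProduct.basis (ResidueField A) b
  obtain ⟨g, hg⟩ := exists_det_ne_zero ρ.residual hirr bbar
  refine ⟨g, ?_⟩
  have hmat : ∀ σ, LinearMap.toMatrix bbar bbar (ρ.residual.ρ σ)
      = (LinearMap.toMatrix b b (ρ.ρ σ)).map (algebraMap A (ResidueField A)) := fun σ =>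
    LinearMap.toMatrix_baseChange (ResidueField A) (ρ.ρ σ) b b
  have hres : residue A (flat fun p => LinearMap.toMatrix b b (ρ.ρ (g p))).det ≠ 0 := by
    rw [← det_flat_map]
    have : (fun p => (LinearMap.toMatrix b b (ρ.ρ (g p))).map (residue A))
        = fun p => LinearMap.toMatrix bbar bbar (ρ.residual.ρ (g p)) := by
      funext p
      rw [hmat]
      rfl
    rw [this]
    exact hg
  have hunit : IsUnit (flat fun p => LinearMap.toMatrix b b (ρ.ρ (g p))).det := by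
    by_contra hnu
    exact hres ((residue_eq_zero_iff _).2 ((mem_maximalIdeal _).2 hnu))
  exact fun Y => exists_eq_sum_of_isUnit_det _ hunit Y

/-- **Burnside–Nakayama.**  If the residual representation is absolutely irreducible and
`tr ρ (s * h) = tr ρ h` for all `h`, then `ρ s = 1`. -/
theorem eq_one_of_forall_trace_mul (ρ : GaloisRepAdic A)
    (hirr : ρ.residual.IsAbsolutelyIrreducible)
    (s : AlgebraicClosure ℚ ≃ₐ[ℚ] AlgebraicClosure ℚ)
    (h : ∀ g : AlgebraicClosure ℚ ≃ₐ[ℚ] AlgebraicClosure ℚ,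
      LinearMap.trace A ρ.V (ρ.ρ (s * g)) = LinearMap.trace A ρ.V (ρ.ρ g)) :
    ρ.ρ s = 1 := by
  classical
  let b : Module.Basis (Fin 2) A ρ.V := Module.finBasisOfFinrankEq A ρ.V ρ.finrank_eq
  obtain ⟨g, hg⟩ := exists_eq_sum_matrix ρ hirr b
  set X : Matrix (Fin 2) (Fin 2) A := LinearMap.toMatrix b b (ρ.ρ s) - 1 with hX
  have htr : ∀ σ, (X * LinearMap.toMatrix b b (ρ.ρ σ)).trace = 0 := by
    intro σ
    rw [hX, sub_mul, one_mul, Matrix.trace_sub, ← LinearMap.toMatrix_mul, ← map_mul,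
      ← LinearMap.trace_eq_matrix_trace A b, ← LinearMap.trace_eq_matrix_trace A b, h σ,
      sub_self]
  have htrY : ∀ Y : Matrix (Fin 2) (Fin 2) A, (X * Y).trace = 0 := by
    intro Y
    obtain ⟨c, rfl⟩ := hg Y
    rw [Finset.mul_sum, Matrix.trace_sum]
    refine Finset.sum_eq_zero fun p _ => ?_
    rw [Matrix.mul_smul, Matrix.trace_smul, htr, smul_zero]
  have hX0 : X = 0 := by
    ext i j
    have := htrY (Matrix.single j i (1 : A))
    rw [Matrix.trace_mul_single] at this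
    simpa using this
  have h1 : LinearMap.toMatrix b b (ρ.ρ s) = LinearMap.toMatrix b b (1 : Module.End A ρ.V) := by
    rw [LinearMap.toMatrix_one]
    exact sub_eq_zero.mp hX0
  exact (LinearMap.toMatrix b b).injective h1

end Fermat.Agent.R.H86

end
-- ==== END Fermat.Agent.R.H86_BN

-- ==== BEGIN Fermat.Agent.R.Leaves
section

/-!
# Cluster R: leaf packages (exact statements)

Owners (see `NOTES/plan/R.md`):
* `Stmt_PDVR`         (L3b) helper25
* `Stmt_HeckeReduced` (L3a) helper58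
* `Stmt_EigenChar`    (L5(0)) helper99
-/

set_option autoImplicit false

namespace Fermat.Agent.R

/-- **L3b (P-DVR).**  A maximal ideal `P` of a domain `R` that is finite over `ℤ` and of
characteristic `0` is cut out by an injective map to a complete discrete valuation ring of
characteristic `0` with finite residue field (completion of the ring of integers of `Frac R`
at a prime above `P`). -/
def Stmt_PDVR : Prop :=
  ∀ (R : Type) [CommRing R] [IsDomain R] [CharZero R] [Module.Finite ℤ R]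
    (P : Ideal R) [P.IsMaximal],
    ∃ (𝒪 : Type) (_ : CommRing 𝒪) (_ : IsDomain 𝒪) (_ : IsDiscreteValuationRing 𝒪)
      (_ : IsAdicComplete (IsLocalRing.maximalIdeal 𝒪) 𝒪)
      (_ : Finite (IsLocalRing.ResidueField 𝒪)) (_ : CharZero 𝒪) (ι : R →+* 𝒪),
      Function.Injective ι ∧ (IsLocalRing.maximalIdeal 𝒪).comap ι = P

/-- **L3a (the Hecke algebra away from the level is reduced).**  Consequence of the
self-adjointness of `T_ℓ`, `ℓ ∤ N`, for the Petersson inner product. -/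
def Stmt_HeckeReduced : Prop :=
  ∀ (N : ℕ) [NeZero N] (S : Set ℕ), (∀ q : ℕ, q.Prime → q ∣ N → q ∈ S) →
    IsReduced (CuspForm.heckeAlgebra N 2 S)

/-- **L5(0) (eigen-character).**  A normalised eigenform (in the prelude's sense: multiplicative
`q`-coefficients) of level `N` defines a ring homomorphism from the Hecke algebra to the ring of
algebraic integers sending `T_ℓ` to `a_ℓ`. -/
def Stmt_EigenChar : Prop :=
  ∀ (N : ℕ) [NeZero N] (S : Set ℕ) (g : CuspForm (CongruenceSubgroup.Gamma0 N) 2),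
    g.IsNormalizedEigenform →
    ∃ χ : CuspForm.heckeAlgebra N 2 S →+* integralClosure ℤ ℂ,
      ∀ (ℓ : ℕ) (hℓ : ℓ.Prime) (hℓN : ¬ ℓ ∣ N) (hℓS : ℓ ∉ S),
        ((χ (CuspForm.heckeAlgebra.T hℓ hℓN hℓS) : integralClosure ℤ ℂ) : ℂ) =
          ModularFormClass.qCoeff g ℓ

end Fermat.Agent.R

end
-- ==== END Fermat.Agent.R.Leaves

-- ==== BEGIN Fermat.Agent.R.Pet.Defs2
section

/-!
# Cluster R, leaf L3a (helper58): further interfaces of the Pet mini-project.
-/

set_option autoImplicit false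

namespace Fermat.Agent.R.Pet

open UpperHalfPlane ModularForm MatrixGroups MeasureTheory CongruenceSubgroup
open scoped Modular Pointwise

/-- POS: a continuous nonnegative invariant function whose integral over a fundamental domain
vanishes is identically zero.  (To be proved from `Stmt_open_pos`.) -/
def Stmt_pos : Prop :=
  ∀ (𝒢 : Subgroup (GL (Fin 2) ℝ)), Countable 𝒢 → ∀ F : Set ℍ, IsFD 𝒢 F →
    ∀ Φ : ℍ → ℝ, Continuous Φ → (∀ z, 0 ≤ Φ z) → (∀ g ∈ 𝒢, ∀ z, Φ (g • z) = Φ z) →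
      IntegrableOn Φ F volume → ∫ z in F, Φ z = 0 → ∀ z, Φ z = 0

/-- CONJ0: `α₀ Γ(Nℓ) α₀⁻¹ ⊆ Γ(N)` for `α₀ = heckeMatrix ℓ 0 = [[1,0],[0,ℓ]]`
(`δ = [[a, b/ℓ],[ℓ c, d]]`). -/
def Stmt_conj0 : Prop :=
  ∀ (N ℓ : ℕ), ℓ ≠ 0 → ∀ γ ∈ Gamma (N * ℓ), ∃ δ ∈ Gamma N,
    heckeMatrix ℓ 0 * (γ : GL (Fin 2) ℝ) = (δ : GL (Fin 2) ℝ) * heckeMatrix ℓ 0

/-- CONJINF: `α∞ Γ(Nℓ) α∞⁻¹ ⊆ Γ(N)` for `α∞ = heckeDiagMatrix ℓ = [[ℓ,0],[0,1]]`
(`δ = [[a, ℓ b],[c/ℓ, d]]`). -/
def Stmt_conjInf : Prop :=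
  ∀ (N ℓ : ℕ), ℓ ≠ 0 → ∀ γ ∈ Gamma (N * ℓ), ∃ δ ∈ Gamma N,
    heckeDiagMatrix ℓ * (γ : GL (Fin 2) ℝ) = (δ : GL (Fin 2) ℝ) * heckeDiagMatrix ℓ

/-- The image of `Γ(M)` in `GL₂(ℝ)`. -/
abbrev GamR (M : ℕ) : Subgroup (GL (Fin 2) ℝ) :=
  (Gamma M).map (Matrix.SpecialLinearGroup.mapGL ℝ)

/-- MEAN-SL: the mean value over a fundamental domain of `Γ(M)` is invariant under `SL(2, ℤ)`
(from `Stmt_mean_conj` and normality of `Γ(M)`). -/
def Stmt_mean_SL : Prop :=
  ∀ (M : ℕ) (F : Set ℍ), IsFD (GamR M) F → ∀ γ : SL(2, ℤ), ∀ Ψ : ℍ → ℂ,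
    (∀ g ∈ GamR M, ∀ z, Ψ (g • z) = Ψ z) →
      mean F (fun z => Ψ ((γ : GL (Fin 2) ℝ) • z)) = mean F Ψ

/-- COMM0: `α₀ = heckeMatrix ℓ 0` commensurates `Γ(M)` (from `Subgroup.IsArithmetic.conj`). -/
def Stmt_comm0 : Prop :=
  ∀ (M ℓ : ℕ), M ≠ 0 → ℓ ≠ 0 →
    Subgroup.Commensurable ((GamR M).map (MulAut.conj (heckeMatrix ℓ 0)).toMonoidHom) (GamR M)

/-- MEAN-LEVEL: change of level for mean values (from `Stmt_mean_sub`). -/
def Stmt_mean_level : Prop :=
  ∀ (M M' : ℕ), M' ≠ 0 → M ∣ M' → ∀ (F F' : Set ℍ), IsFD (GamR M) F → IsFD (GamR M') F' →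
    ∀ Ψ : ℍ → ℂ, (∀ g ∈ GamR M, ∀ z, Ψ (g • z) = Ψ z) → mean F' Ψ = mean F Ψ

/-- FD-GAMMA: `Γ(M)`, `M ≥ 3`, has a fundamental domain of finite volume (from `Stmt_exists_fd`). -/
def Stmt_exists_fd_Gamma : Prop :=
  ∀ M : ℕ, 3 ≤ M → ∃ F : Set ℍ, IsFD (GamR M) F

end Fermat.Agent.R.Pet

end
-- ==== END Fermat.Agent.R.Pet.Defs2

-- ==== BEGIN Fermat.Agent.R.Pet.H22_PE
section

/-!
# Pet package PE (helper22): the double coset of the Hecke matrices
-/

set_option autoImplicit false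

namespace Fermat.Agent.R.Pet.H22

open UpperHalfPlane ModularForm MatrixGroups CongruenceSubgroup
open scoped Modular

/-- The entries of the image in `GL(2, ℝ)` of an element of `SL(2, ℤ)`. -/
lemma coe_GL_apply (γ : SL(2, ℤ)) (i k : Fin 2) :
    ((γ : GL (Fin 2) ℝ) : Matrix (Fin 2) (Fin 2) ℝ) i k =
      (((γ : Matrix (Fin 2) (Fin 2) ℤ) i k : ℤ) : ℝ) := rfl

/-- An element of `SL(2, ℤ)` from its entries. -/
def mkG0 (a b c d : ℤ) (h : a * d - b * c = 1) : SL(2, ℤ) :=
  ⟨!![a, b; c, d], by rw [Matrix.det_fin_two_of]; exact h⟩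

lemma coe_mkG0 (a b c d : ℤ) (h : a * d - b * c = 1) :
    ((mkG0 a b c d h : SL(2, ℤ)) : Matrix (Fin 2) (Fin 2) ℤ) = !![a, b; c, d] := rfl

lemma mkG0_mem (N : ℕ) (a b c d : ℤ) (h : a * d - b * c = 1) (hc : (N : ℤ) ∣ c) :
    mkG0 a b c d h ∈ Gamma0 N := by
  rw [Gamma0_mem, coe_mkG0]
  simpa [ZMod.intCast_zmod_eq_zero_iff_dvd] using hc

lemma coe_GL_mkG0 (a b c d : ℤ) (h : a * d - b * c = 1) :
    (((mkG0 a b c d h : SL(2, ℤ)) : GL (Fin 2) ℝ) : Matrix (Fin 2) (Fin 2) ℝ) =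
      !![(a : ℝ), (b : ℝ); (c : ℝ), (d : ℝ)] := by
  ext i k
  rw [coe_GL_apply, coe_mkG0]
  fin_cases i <;> fin_cases k <;> rfl

lemma coe_GL_T_pow (j : ℕ) :
    ((((ModularGroup.T ^ j : SL(2, ℤ)) : GL (Fin 2) ℝ)) : Matrix (Fin 2) (Fin 2) ℝ)
      = !![(1 : ℝ), (j : ℝ); 0, 1] := by
  ext i k
  have h := ModularGroup.coe_T_zpow (j : ℤ)
  rw [zpow_natCast] at h
  rw [coe_GL_apply, h]
  fin_cases i <;> fin_cases k <;> simp

theorem stmt_heckeMatrix_eq : Stmt_heckeMatrix_eq := by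
  intro ℓ j hℓ
  ext i k
  rw [Units.val_mul, val_heckeMatrix hℓ, val_heckeMatrix hℓ, coe_GL_T_pow]
  fin_cases i <;> fin_cases k <;> simp [Matrix.mul_apply, Fin.sum_univ_two]

theorem stmt_double_coset : Stmt_double_coset := by
  intro N ℓ hℓ hℓN
  have hℓ0 : ℓ ≠ 0 := hℓ.ne_zero
  have hcop : IsCoprime (ℓ : ℤ) (N : ℤ) := by
    rw [Int.isCoprime_iff_gcd_eq_one]
    exact_mod_cast (Nat.Prime.coprime_iff_not_dvd hℓ).mpr hℓN
  obtain ⟨a', b', hab⟩ := hcop
  have h1 : (ℓ : ℤ) * a' * 1 - (-b') * (N : ℤ) = 1 := by linarith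
  have h2 : (ℓ : ℤ) * a' - (b') * (-(N : ℤ)) = 1 := by linarith
  refine ⟨mkG0 (ℓ * a') (-b') N 1 h1, mkG0_mem N _ _ _ _ h1 dvd_rfl,
    mkG0 ℓ b' (-N) a' h2, mkG0_mem N _ _ _ _ h2 (dvd_neg.mpr dvd_rfl), ?_⟩
  ext i k
  rw [Units.val_mul, Units.val_mul, val_heckeMatrix hℓ0, val_heckeDiagMatrix hℓ0, coe_GL_mkG0,
    coe_GL_mkG0]
  have hab' : (a' : ℝ) * ℓ + b' * N = 1 := by exact_mod_cast hab
  fin_cases i <;> fin_cases k <;>
    simp [Matrix.mul_apply, Fin.sum_univ_two] <;> nlinarith [hab']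

end Fermat.Agent.R.Pet.H22

end
-- ==== END Fermat.Agent.R.Pet.H22_PE

-- ==== BEGIN Fermat.Agent.R.Pet.H58_PC
section

/-!
# Pet, step PC (helper58): nonempty open subsets of the upper half plane have positive volume.
-/

set_option autoImplicit false

namespace Fermat.Agent.R.Pet

open UpperHalfPlane MeasureTheory
open scoped NNReal ENNReal

/-- **PC**: nonempty open subsets of `ℍ` have positive invariant volume. -/
theorem stmt_open_pos : Stmt_open_pos := by
  intro U hU hne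
  rw [volume_eq_lintegral]
  have hopen : IsOpen ((↑) '' U : Set ℂ) := isOpenEmbedding_coe.isOpenMap U hU
  have hne' : ((↑) '' U : Set ℂ).Nonempty := hne.image _
  have hpos : 0 < volume ((↑) '' U : Set ℂ) := hopen.measure_pos volume hne'
  have hmeas : Measurable (fun z : ℂ => (((1 / ‖z.im‖₊) ^ 2 : ℝ≥0) : ℝ≥0∞)) := by
    fun_prop
  rw [setLIntegral_pos_iff hmeas]
  refine lt_of_lt_of_le hpos (measure_mono ?_)
  rintro _ ⟨z, hz, rfl⟩
  refine ⟨?_, ⟨z, hz, rfl⟩⟩
  simp only [Function.mem_support, ne_eq, ENNReal.coe_eq_zero]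
  simpa using z.im_ne_zero

end Fermat.Agent.R.Pet

end
-- ==== END Fermat.Agent.R.Pet.H58_PC
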