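-- GENERATED (merged mirror, NOTES/tools/trim/merge3_helper67.py): 12 modules of the originals, bodies verbatim.
import Mathlib
import Fermat.Prelude.Def_AlgebraicCurve_Correspondence
import Fermat.Prelude.Def_EllipticCurve_FrobeniusTrace
import Fermat.Agent.Zm.S35_L02_001
import Fermat.Agent.Zm.S35_L02_000
import Fermat.Agent.Zm.S35_L01_001
import Fermat.Agent.Lib.TwistedEisensteinChar
import Fermat.Agent.Zm.S35_L01_000
import Fermat.Agent.Lib.FrobDensity.Defs
import Fermat.Agent.Zm.S35_L02_002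

-- ==== BEGIN Fermat.Agent.GTor.H56_DescBase
section

set_option autoImplicit false
set_option linter.style.haveILetI false
set_option linter.unusedSectionVars false

noncomputable section

namespace Fermat.Agent.GTor.H56

open ModularCurve Module

variable {k K : Type} [Field k] [Field K] (ι : k →+* K)

lemma smul_eq_algebraMap_mul {L : Type} [Field L] (c : L) (x : LaurentSeries L) :
    c • x = algebraMap L (LaurentSeries L) c * x := by
  rw [algebraMap_laurentSeries_eq_single]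
  ext m
  simp

lemma coeffMap_smul' (c : k) (x : LaurentSeries k) :
    coeffMap ι (c • x) = ι c • coeffMap ι x := by
  ext m
  simp

lemma coeff_sum_smul {I : Type*} [Fintype I] {R : Type*} [CommRing R] (c : I → R)
    (v : I → LaurentSeries R) (m : ℤ) :
    (∑ a, c a • v a).coeff m = ∑ a, c a * (v a).coeff m := by
  have : (∑ a, c a • v a).coeff m = ∑ a, (c a • v a).coeff m :=
    map_sum (HahnSeries.coeff.addMonoidHom m) _ _
  rw [this]
  simp

/-- Linear independence over `k` of finitely many Laurent series is kept by extension of the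
coefficients. -/
theorem linearIndependent_coeffMap {I : Type*} [Fintype I] (v : I → LaurentSeries k)
    (hv : LinearIndependent k v) : LinearIndependent K (fun i => coeffMap ι (v i)) := by
  classical
  letI : Algebra k K := ι.toAlgebra
  let b := Basis.ofVectorSpace k K
  rw [Fintype.linearIndependent_iff]
  intro c hc i
  have key : ∀ s, ∑ a, (b.repr (c a) s) • v a = 0 := by
    intro s
    ext m
    rw [coeff_sum_smul, HahnSeries.coeff_zero]
    have hm : ∑ a, c a * ι ((v a).coeff m) = 0 := by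
      have := congrArg (fun z => z.coeff m) hc
      simp only [HahnSeries.coeff_zero] at this
      rw [coeff_sum_smul] at this
      simpa using this
    have h2 : ∑ a, (v a).coeff m • c a = 0 := by
      rw [← hm]
      refine Finset.sum_congr rfl fun a _ => ?_
      rw [Algebra.smul_def, mul_comm]
      rfl
    have h3 := congrArg (fun z => b.repr z s) h2
    simp only [map_sum, map_smul, Finsupp.coe_finsetSum, Finsupp.coe_smul, Finset.sum_apply,
      Pi.smul_apply, smul_eq_mul, map_zero, Finsupp.coe_zero, Pi.zero_apply] at h3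
    rw [← h3]
    exact Finset.sum_congr rfl fun a _ => mul_comm _ _
  have h0 : ∀ s, b.repr (c i) s = 0 := fun s =>
    (Fintype.linearIndependent_iff.mp hv) _ (key s) i
  have : b.repr (c i) = 0 := Finsupp.ext h0
  exact b.repr.map_eq_zero_iff.mp this

section Descent

variable [Algebra ℚ k] [Algebra ℚ K] (F₀ : IntermediateField ℚ (LaurentSeries ℚ))

/-- The generating set of `F_L`. -/
def genSet (L : Type) [Field L] [Algebra ℚ L] : Set (LaurentSeries L) :=
  ⇑(coeffEmb L) '' (F₀ : Set (LaurentSeries ℚ))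

lemma genSet_eq_image : genSet F₀ K = ⇑(coeffMap ι) '' genSet F₀ k := by
  ext x
  constructor
  · rintro ⟨y, hy, rfl⟩
    exact ⟨coeffEmb k y, ⟨y, hy, rfl⟩, H75.coeffMap_coeffEmb' ι y⟩
  · rintro ⟨_, ⟨y, hy, rfl⟩, rfl⟩
    exact ⟨y, hy, (H75.coeffMap_coeffEmb' ι y).symm⟩

variable (L : Type) [Field L] [Algebra ℚ L]

lemma genSet_subset :
    genSet F₀ L ⊆ (laurentBaseChange L F₀ : Set (LaurentSeries L)) := by
  rintro _ ⟨y, hy, rfl⟩
  exact coeffEmb_mem_laurentBaseChange L hy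

lemma one_mem_genSet : (1 : LaurentSeries L) ∈ genSet F₀ L :=
  ⟨1, F₀.one_mem, map_one _⟩

lemma mul_mem_genSet {x y : LaurentSeries L} (hx : x ∈ genSet F₀ L) (hy : y ∈ genSet F₀ L) :
    x * y ∈ genSet F₀ L := by
  obtain ⟨a, ha, rfl⟩ := hx
  obtain ⟨b, hb, rfl⟩ := hy
  exact ⟨a * b, F₀.mul_mem ha hb, map_mul _ _ _⟩

lemma span_genSet_le {x : LaurentSeries L} (hx : x ∈ Submodule.span L (genSet F₀ L)) :
    x ∈ laurentBaseChange L F₀ := by
  induction hx using Submodule.span_induction with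
  | mem y hy => exact genSet_subset F₀ L hy
  | zero => exact zero_mem _
  | add x y _ _ hx hy => exact add_mem hx hy
  | smul c x _ hx =>
    rw [smul_eq_algebraMap_mul]
    exact mul_mem ((laurentBaseChange L F₀).algebraMap_mem c) hx

lemma mul_mem_span_genSet {x y : LaurentSeries L} (hx : x ∈ Submodule.span L (genSet F₀ L))
    (hy : y ∈ Submodule.span L (genSet F₀ L)) : x * y ∈ Submodule.span L (genSet F₀ L) := by
  induction hx using Submodule.span_induction with
  | mem a ha =>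
    induction hy using Submodule.span_induction with
    | mem b hb => exact Submodule.subset_span (mul_mem_genSet F₀ L ha hb)
    | zero => rw [mul_zero]; exact zero_mem _
    | add b c _ _ hb hc => rw [mul_add]; exact add_mem hb hc
    | smul c b _ hb =>
      have : a * c • b = c • (a * b) := by
        rw [smul_eq_algebraMap_mul, smul_eq_algebraMap_mul]; ring
      rw [this]
      exact Submodule.smul_mem _ c hb
  | zero => rw [zero_mul]; exact zero_mem _
  | add a b _ _ ha hb => rw [add_mul]; exact add_mem ha hb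
  | smul c a _ ha =>
    have : c • a * y = c • (a * y) := by
      rw [smul_eq_algebraMap_mul, smul_eq_algebraMap_mul]; ring
    rw [this]
    exact Submodule.smul_mem _ c ha

lemma adjoin_le_span {x : LaurentSeries L} (hx : x ∈ Algebra.adjoin L (genSet F₀ L)) :
    x ∈ Submodule.span L (genSet F₀ L) := by
  induction hx using Algebra.adjoin_induction with
  | mem y hy => exact Submodule.subset_span hy
  | algebraMap c =>
    have : algebraMap L (LaurentSeries L) c = c • (1 : LaurentSeries L) := by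
      rw [smul_eq_algebraMap_mul, mul_one]
    rw [this]
    exact Submodule.smul_mem _ c (Submodule.subset_span (one_mem_genSet F₀ L))
  | add x y _ _ hx hy => exact add_mem hx hy
  | mul x y _ _ hx hy => exact mul_mem_span_genSet F₀ L hx hy

/-- Every element of `F_L` is a quotient of two elements of the `L`-span of the generators. -/
lemma exists_div_of_mem {x : LaurentSeries L}
    (hx : x ∈ laurentBaseChange L F₀) :
    ∃ P ∈ Submodule.span L (genSet F₀ L), ∃ Q ∈ Submodule.span L (genSet F₀ L), x = P / Q := by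
  rw [laurentBaseChange, IntermediateField.mem_adjoin_iff_div] at hx
  obtain ⟨P, hP, Q, hQ, e⟩ := hx
  exact ⟨P, adjoin_le_span F₀ L hP, Q, adjoin_le_span F₀ L hQ, e⟩

end Descent

end Fermat.Agent.GTor.H56

end
end
-- ==== END Fermat.Agent.GTor.H56_DescBase

-- ==== BEGIN Fermat.Agent.GTor.H56_DescDown
section

/-!
# G-TOR package DESC, sub-package DOWN (helper56)

`dvd_ord_map`: for a homomorphism `φ : F₁ → F₂` of function fields over `ι : k → K` and a place
`w` of `F₂ / K`, the restriction of `w` to `F₁` is either trivial or a place `v` of `F₁ / k` with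
`ord_w (φ g) = e * ord_v g`.  Hence divisibility of all orders of `f` by `n` passes to `φ f`.

`stmt_DescPlaceDown : H75.Stmt_DescPlaceDown k K F₀`.
-/

set_option autoImplicit false
set_option linter.style.haveILetI false
set_option linter.unusedSectionVars false

noncomputable section

namespace Fermat.Agent.GTor.H56

open AlgebraicCurve

section General

variable {k K F₁ F₂ : Type*} [Field k] [Field K] [Field F₁] [Field F₂]
  [Algebra k F₁] [Algebra K F₂]

theorem place_mem_of_ord_nonneg (v : Place K F₂) {f : F₂} (h : 0 ≤ v.ord f) :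
    f ∈ v.toValuationSubring := by
  rcases eq_or_ne f 0 with rfl | hf
  · exact v.toValuationSubring.zero_mem
  obtain ⟨π, hπ⟩ := IsDiscreteValuationRing.exists_irreducible v.toValuationSubring
  obtain ⟨u, hu⟩ := v.exists_unit_mul_zpow hf hπ
  obtain ⟨n, hn⟩ := Int.eq_ofNat_of_zero_le h
  rw [hu, hn, zpow_natCast]
  exact v.toValuationSubring.mul_mem _ _ (Subtype.mem _)
    (v.toValuationSubring.pow_mem (Subtype.mem _) n)

theorem place_ord_nonneg_of_mem (v : Place K F₂) {f : F₂} (h : f ∈ v.toValuationSubring) :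
    0 ≤ v.ord f := by
  rcases eq_or_ne f 0 with rfl | hf
  · simp
  have h1 : v.adicValuation f ≤ 1 := by
    have := v.adicValuation_coe ⟨f, h⟩
    rw [show ((⟨f, h⟩ : v.toValuationSubring) : F₂) = f from rfl] at this
    rw [this]
    exact IsDedekindDomain.HeightOneSpectrum.intValuation_le_one _ _
  have h2 : WithZero.log (v.adicValuation f) ≤ 0 := by
    rw [← WithZero.log_one]
    exact (WithZero.log_le_log (v.adicValuation_ne_zero hf) one_ne_zero).mpr h1
  simp only [Place.ord]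
  omega

theorem place_mem_iff (v : Place K F₂) {f : F₂} (_hf : f ≠ 0) :
    f ∈ v.toValuationSubring ↔ 0 ≤ v.ord f :=
  ⟨place_ord_nonneg_of_mem v, place_mem_of_ord_nonneg v⟩

variable (ι : k →+* K) (φ : F₁ →+* F₂)

/-- **Restriction of places**: divisibility of all orders over the small field gives divisibility
of the orders of the image at all places over the big field. -/
theorem dvd_ord_map (hφ : ∀ c, φ (algebraMap k F₁ c) = algebraMap K F₂ (ι c))
    (w : Place K F₂) (n : ℕ) (f : F₁)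
    (h : ∀ v : Place k F₁, (n : ℤ) ∣ v.ord f) : (n : ℤ) ∣ w.ord (φ f) := by
  classical
  rcases eq_or_ne f 0 with rfl | hf
  · simp
  set V : ValuationSubring F₁ := w.toValuationSubring.comap φ with hV
  set ν : F₁ → ℤ := fun g => w.ord (φ g) with hν
  have hne : ∀ {g : F₁}, g ≠ 0 → φ g ≠ 0 := fun hg => (map_ne_zero φ).mpr hg
  have hν_mul : ∀ {g h : F₁}, g ≠ 0 → h ≠ 0 → ν (g * h) = ν g + ν h := by
    intro g h hg hh
    simp only [hν, map_mul]
    exact w.ord_mul (hne hg) (hne hh)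
  have hν_inv : ∀ g : F₁, ν g⁻¹ = - ν g := by
    intro g
    simp only [hν, map_inv₀]
    exact w.ord_inv _
  have hν_zpow : ∀ (g : F₁) (z : ℤ), ν (g ^ z) = z * ν g := by
    intro g z
    simp only [hν, map_zpow₀]
    exact w.ord_zpow _ _
  have hV_iff : ∀ {g : F₁}, g ≠ 0 → (g ∈ V ↔ 0 ≤ ν g) := by
    intro g hg
    rw [hV, ValuationSubring.mem_comap]
    exact place_mem_iff w (hne hg)
  by_cases htop : V = ⊤
  · have h1 : 0 ≤ ν f := (hV_iff hf).mp (htop ▸ ValuationSubring.mem_top f)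
    have h2 : 0 ≤ ν f⁻¹ := (hV_iff (inv_ne_zero hf)).mp (htop ▸ ValuationSubring.mem_top _)
    rw [hν_inv] at h2
    have : ν f = 0 := by omega
    show (n : ℤ) ∣ ν f
    rw [this]
    exact dvd_zero _
  -- a positive value exists
  have hex : ∃ m : ℕ, 0 < m ∧ ∃ g : F₁, g ≠ 0 ∧ ν g = (m : ℤ) := by
    obtain ⟨g, hg⟩ : ∃ g : F₁, g ∉ V := by
      by_contra hcon
      apply htop
      refine SetLike.ext fun x => ⟨fun _ => ValuationSubring.mem_top x, fun _ => ?_⟩
      by_contra hx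
      exact hcon ⟨x, hx⟩
    have hg0 : g ≠ 0 := fun h0 => hg (h0 ▸ V.zero_mem)
    have hlt : ν g < 0 := by
      by_contra hcon
      exact hg ((hV_iff hg0).mpr (not_lt.mp hcon))
    refine ⟨(- ν g).toNat, by omega, g⁻¹, inv_ne_zero hg0, ?_⟩
    rw [hν_inv]
    omega
  obtain ⟨e, ⟨he0, π₀, hπ₀, hπν⟩, hmin⟩ : ∃ e : ℕ, (0 < e ∧ ∃ g : F₁, g ≠ 0 ∧ ν g = (e : ℤ)) ∧
      ∀ m : ℕ, m < e → ¬ (0 < m ∧ ∃ g : F₁, g ≠ 0 ∧ ν g = (m : ℤ)) :=
    ⟨Nat.find hex, Nat.find_spec hex, fun m hm => Nat.find_min hex hm⟩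
  -- Claim A
  have hA : ∀ {g : F₁}, g ≠ 0 → (e : ℤ) ∣ ν g := by
    intro g hg
    have hr0 : 0 ≤ ν g % (e : ℤ) := Int.emod_nonneg _ (by omega)
    have hr1 : ν g % (e : ℤ) < e := Int.emod_lt_of_pos _ (by omega)
    have hg' : g * π₀ ^ (- (ν g / (e : ℤ))) ≠ 0 := mul_ne_zero hg (zpow_ne_zero _ hπ₀)
    have hval : ν (g * π₀ ^ (- (ν g / (e : ℤ)))) = ν g % (e : ℤ) := by
      rw [hν_mul hg (zpow_ne_zero _ hπ₀), hν_zpow, hπν, Int.emod_def]
      ring
    by_contra hnd
    have hrpos : 0 < ν g % (e : ℤ) := by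
      rcases hr0.lt_or_eq with h | h
      · exact h
      · exact absurd (Int.dvd_of_emod_eq_zero h.symm) hnd
    refine hmin (ν g % (e : ℤ)).toNat (by omega) ⟨by omega, _, hg', ?_⟩
    rw [hval]
    omega
  have hπV : π₀ ∈ V := (hV_iff hπ₀).mpr (by rw [hπν]; omega)
  -- units of V
  have hunit : ∀ x : V, (x : F₁) ≠ 0 → ν (x : F₁) = 0 → IsUnit x := by
    intro x hx0 hx
    have hxinv : (x : F₁)⁻¹ ∈ V := (hV_iff (inv_ne_zero hx0)).mpr (by rw [hν_inv, hx, neg_zero])
    refine isUnit_iff_exists_inv.mpr ⟨⟨_, hxinv⟩, Subtype.ext ?_⟩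
    simp [mul_inv_cancel₀ hx0]
  have hunit' : ∀ x : V, IsUnit x → ν (x : F₁) = 0 := by
    intro x hx
    obtain ⟨y, hy⟩ := isUnit_iff_exists_inv.mp hx
    have hy' : (x : F₁) * (y : F₁) = 1 := by
      have := congrArg Subtype.val hy
      simpa using this
    have hx0 : (x : F₁) ≠ 0 := left_ne_zero_of_mul_eq_one hy'
    have hy0 : (y : F₁) ≠ 0 := right_ne_zero_of_mul_eq_one hy'
    have h1 := (hV_iff hx0).mp x.2
    have h2 := (hV_iff hy0).mp y.2
    have h3 : ν ((x : F₁) * (y : F₁)) = 0 := by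
      rw [hy']
      simp [hν]
    rw [hν_mul hx0 hy0] at h3
    omega
  set p : V := ⟨π₀, hπV⟩ with hp
  have hp0 : p ≠ 0 := fun h0 => hπ₀ (congrArg Subtype.val h0)
  have hpirr : Irreducible p := by
    refine ⟨fun hu => ?_, fun a b hab => ?_⟩
    · have := hunit' p hu
      rw [show ((p : V) : F₁) = π₀ from rfl, hπν] at this
      omega
    · have hab' : π₀ = (a : F₁) * (b : F₁) := congrArg Subtype.val hab
      have ha0 : (a : F₁) ≠ 0 := fun h0 => hπ₀ (by rw [hab', h0, zero_mul])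
      have hb0 : (b : F₁) ≠ 0 := fun h0 => hπ₀ (by rw [hab', h0, mul_zero])
      have hsum : ν (a : F₁) + ν (b : F₁) = e := by
        rw [← hν_mul ha0 hb0, ← hab', hπν]
      have ha1 := (hV_iff ha0).mp a.2
      have hb1 := (hV_iff hb0).mp b.2
      obtain ⟨qa, hqa⟩ := hA ha0
      obtain ⟨qb, hqb⟩ := hA hb0
      have he' : (0 : ℤ) < e := by omega
      have hqa0 : 0 ≤ qa := by
        by_contra hcon
        have : (e : ℤ) * qa < 0 := mul_neg_of_pos_of_neg he' (not_le.mp hcon)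
        omega
      have hqb0 : 0 ≤ qb := by
        by_contra hcon
        have : (e : ℤ) * qb < 0 := mul_neg_of_pos_of_neg he' (not_le.mp hcon)
        omega
      have hq : qa + qb = 1 := by
        have : (e : ℤ) * (qa + qb) = e * 1 := by rw [mul_add, ← hqa, ← hqb, hsum, mul_one]
        exact mul_left_cancel₀ (by omega) this
      have hcase : qa = 0 ∨ qb = 0 := by omega
      rcases hcase with h0 | h0
      · left
        exact hunit a ha0 (by rw [hqa, h0, mul_zero])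
      · right
        exact hunit b hb0 (by rw [hqb, h0, mul_zero])
  have hfact : IsDiscreteValuationRing.HasUnitMulPowIrreducibleFactorization V := by
    refine ⟨p, hpirr, fun {x} hx => ?_⟩
    have hx0 : (x : F₁) ≠ 0 := fun h0 => hx (Subtype.ext h0)
    obtain ⟨q, hq⟩ := hA hx0
    have hx1 := (hV_iff hx0).mp x.2
    have he' : (0 : ℤ) < e := by omega
    have hq0 : 0 ≤ q := by
      by_contra hcon
      have : (e : ℤ) * q < 0 := mul_neg_of_pos_of_neg he' (not_le.mp hcon)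
      omega
    obtain ⟨m, rfl⟩ := Int.eq_ofNat_of_zero_le hq0
    refine ⟨m, ?_⟩
    have hu0 : (x : F₁) * (π₀ ^ m)⁻¹ ≠ 0 := mul_ne_zero hx0 (inv_ne_zero (pow_ne_zero _ hπ₀))
    have huν : ν ((x : F₁) * (π₀ ^ m)⁻¹) = 0 := by
      rw [hν_mul hx0 (inv_ne_zero (pow_ne_zero _ hπ₀)), hν_inv, ← zpow_natCast, hν_zpow, hπν, hq]
      ring
    have huV : (x : F₁) * (π₀ ^ m)⁻¹ ∈ V := (hV_iff hu0).mpr (by rw [huν])
    have hU : IsUnit (⟨_, huV⟩ : V) := hunit ⟨_, huV⟩ hu0 huν
    refine ⟨hU.unit, Subtype.ext ?_⟩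
    simp only [IsUnit.unit_spec, MulMemClass.coe_mul, SubmonoidClass.coe_pow, hp]
    field_simp
  haveI hDVR : IsDiscreteValuationRing V :=
    IsDiscreteValuationRing.ofHasUnitMulPowIrreducibleFactorization hfact
  let v : Place k F₁ :=
    { toValuationSubring := V
      algebraMap_mem' := fun a => by
        rw [hV, ValuationSubring.mem_comap, hφ]
        exact w.algebraMap_mem' _
      ne_top' := htop
      isPrincipalIdealRing' := inferInstance }
  have hp' : Irreducible (p : v.toValuationSubring) := hpirr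
  obtain ⟨u, hu⟩ := v.exists_unit_mul_zpow hf hp'
  have huν : ν ((u : v.toValuationSubring) : F₁) = 0 := hunit' _ u.isUnit
  have hu0 : ((u : v.toValuationSubring) : F₁) ≠ 0 := by
    intro h0
    rw [h0, zero_mul] at hu
    exact hf hu
  have key : ν f = v.ord f * e := by
    conv_lhs => rw [hu]
    rw [hν_mul hu0 (zpow_ne_zero _ hπ₀), huν, zero_add, hν_zpow, hπν]
  show (n : ℤ) ∣ ν f
  rw [key]
  exact Dvd.dvd.mul_right (h v) _

end General

end Fermat.Agent.GTor.H56

namespace Fermat.Agent.GTor.H56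

open AlgebraicCurve ModularCurve

/-- **DESC-DOWN**. -/
theorem stmt_DescPlaceDown (k K : Type) [Field k] [Field K] [Algebra ℚ k] [Algebra ℚ K]
    (F₀ : IntermediateField ℚ (LaurentSeries ℚ)) : H75.Stmt_DescPlaceDown k K F₀ := by
  intro ι n f _ h w
  exact dvd_ord_map ι (H75.bcHom ι F₀) (fun c => H75.bcHom_algebraMap ι F₀ c) w n f h

end Fermat.Agent.GTor.H56

end
end
-- ==== END Fermat.Agent.GTor.H56_DescDown

-- ==== BEGIN Fermat.Agent.GTor.H56_DescPigeon
section

/-!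
# G-TOR package DESC, sub-package PIGEONHOLE (helper56)

`exists_pair`: if `U_n(F_K)` is finite with fewer than `m` elements and `σ : Fin m → K ≃+* K`, then
for an unramified `f ∈ F_K` there are `i ≠ j` with `σ_i⁻¹ σ_j f = f · gⁿ`.
-/

set_option autoImplicit false
set_option linter.style.haveILetI false
set_option linter.unusedSectionVars false

noncomputable section

namespace Fermat.Agent.GTor.H56

open AlgebraicCurve ModularCurve Fermat.Agent.GTor

/-- An element of `powSubgroup` is an `n`-th power. -/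
lemma exists_eq_pow_of_mem_powSubgroup {K F : Type*} [Field K] [Field F] [Algebra K F] {n : ℕ}
    (f : unrSubgroup K F n) (hf : f ∈ powSubgroup K F n) :
    ∃ h : F, h ≠ 0 ∧ ((f : Fˣ) : F) = h ^ n := by
  obtain ⟨g, hg⟩ := hf
  refine ⟨(g : F), g.ne_zero, ?_⟩
  have : (g ^ n : Fˣ) = (f : Fˣ) := hg
  rw [← this]
  simp

/-- **DESC-PIGEONHOLE**. -/
theorem exists_pair (K : Type) [Field K] [Algebra ℚ K] (F₀ : IntermediateField ℚ (LaurentSeries ℚ))
    (hDown : H75.Stmt_DescPlaceDown K K F₀) (n : ℕ)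
    (hfin : Finite (UnrKummer K ↥(laurentBaseChange K F₀) n))
    (f : ↥(laurentBaseChange K F₀)) (hf : f ≠ 0)
    (hunr : ∀ w : Place K ↥(laurentBaseChange K F₀), (n : ℤ) ∣ w.ord f)
    (m : ℕ) (hm : Nat.card (UnrKummer K ↥(laurentBaseChange K F₀) n) < m) (σ : Fin m → (K ≃+* K)) :
    ∃ i j, i ≠ j ∧ ∃ g : ↥(laurentBaseChange K F₀), g ≠ 0 ∧
      coeffMap (((σ i).symm : K →+* K).comp ((σ j : K ≃+* K) : K →+* K)) (f : LaurentSeries K)
        = (f : LaurentSeries K) * (g : LaurentSeries K) ^ n := by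
  classical
  -- the translates of `f`
  have hne : ∀ i, H75.bcHom ((σ i : K ≃+* K) : K →+* K) F₀ f ≠ 0 := fun i =>
    (map_ne_zero _).mpr hf
  have hu : ∀ i, Units.mk0 _ (hne i) ∈ unrSubgroup K ↥(laurentBaseChange K F₀) n := fun i w =>
    hDown ((σ i : K ≃+* K) : K →+* K) n f hf hunr w
  let c : Fin m → UnrKummer K ↥(laurentBaseChange K F₀) n := fun i =>
    QuotientGroup.mk ⟨Units.mk0 _ (hne i), hu i⟩
  haveI : Fintype (UnrKummer K ↥(laurentBaseChange K F₀) n) := Fintype.ofFinite _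
  have hcard : Fintype.card (UnrKummer K ↥(laurentBaseChange K F₀) n) < Fintype.card (Fin m) := by
    rw [Fintype.card_fin, ← Nat.card_eq_fintype_card]; exact hm
  obtain ⟨i, j, hij, hc⟩ := Fintype.exists_ne_map_eq_of_card_lt c hcard
  refine ⟨i, j, hij, ?_⟩
  have hmem : (⟨Units.mk0 _ (hne i), hu i⟩ : unrSubgroup K ↥(laurentBaseChange K F₀) n)⁻¹
      * ⟨Units.mk0 _ (hne j), hu j⟩ ∈ powSubgroup K ↥(laurentBaseChange K F₀) n :=
    QuotientGroup.eq.mp hc
  obtain ⟨h, hh0, hh⟩ := exists_eq_pow_of_mem_powSubgroup _ hmem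
  have hrel : H75.bcHom ((σ j : K ≃+* K) : K →+* K) F₀ f
      = H75.bcHom ((σ i : K ≃+* K) : K →+* K) F₀ f * h ^ n := by
    rw [← hh]
    simp only [Subgroup.coe_mul, InvMemClass.coe_inv, Units.val_mul, Units.val_inv_eq_inv_val,
      Units.val_mk0]
    rw [mul_inv_cancel_left₀ (hne i)]
  refine ⟨H75.bcHom (((σ i).symm : K ≃+* K) : K →+* K) F₀ h, (map_ne_zero _).mpr hh0, ?_⟩
  have h2 := congrArg (fun z => ((H75.bcHom (((σ i).symm : K ≃+* K) : K →+* K) F₀ z :
    ↥(laurentBaseChange K F₀)) : LaurentSeries K)) hrel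
  simp only [map_mul, map_pow, H75.bcHom_coe, MulMemClass.coe_mul, SubmonoidClass.coe_pow,
    coeffMap_coeffMap] at h2
  rw [h2]
  congr 1
  have hid : (((σ i).symm : K ≃+* K) : K →+* K).comp ((σ i : K ≃+* K) : K →+* K)
      = RingHom.id K := by
    ext x
    simp
  rw [hid, coeffMap_id]

end Fermat.Agent.GTor.H56

end
end
-- ==== END Fermat.Agent.GTor.H56_DescPigeon

-- ==== BEGIN Fermat.Agent.GTor.H56_Inj
section

/-!
# G-TOR package INJ (helper56)

`stmt_INJ (hA2 : Stmt_A2 N) : Stmt_INJ N n`: a function with trivial character is an `n`-th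
power.  (A twisted form with trivial multiplier is a modular form `A`; by A2 the ratio `A / B`
lies in `F_ℂ`, and its `n`-th power is `f`.)
-/

set_option autoImplicit false
set_option linter.style.haveILetI false

open UpperHalfPlane ModularForm
open scoped MatrixGroups ModularForm Manifold

noncomputable section

namespace Fermat.Agent.GTor.H56

open Fermat.Agent.S23.H22 (Nice)

variable {N n : ℕ} [NeZero N]

/-- **Package INJ**, from A2. -/
theorem stmt_INJ (hA2 : Stmt_A2 N) : Stmt_INJ N n := by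
  rintro f - ⟨k, R, B, hR, hB, e⟩
  obtain ⟨h, -, eh⟩ := hA2 k (toModularForm hR) B hB
  refine ⟨h, Subtype.ext ?_⟩
  have hBn : qLaurent (fun z => B z ^ n) ≠ 0 := by
    rw [qLaurent_pow (nice_of_gamma0 B)]
    apply pow_ne_zero
    rw [Ne, qLaurent_eq_zero_iff (nice_of_gamma0 B)]
    intro h0
    exact hB (DFunLike.coe_injective h0)
  have e' : qLaurent (fun z => R z ^ n)
      = ((h ^ n : FNL ℂ N) : LaurentSeries ℂ) * qLaurent (fun z => B z ^ n) := by
    have hA : qLaurent (fun z => R z ^ n) = qLaurent (toModularForm hR : ℍ → ℂ) ^ n :=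
      qLaurent_pow (nice_of_gamma0 (toModularForm hR)) n
    rw [hA, eh, qLaurent_pow (nice_of_gamma0 B)]
    push_cast
    ring
  rw [e] at e'
  exact mul_right_cancel₀ hBn e'

end Fermat.Agent.GTor.H56

end
end
-- ==== END Fermat.Agent.GTor.H56_Inj

-- ==== BEGIN Fermat.Agent.GTor.H76_HKan
section

/-!
# G-TOR, package HK-an, parts (1)+(2)  (helper76)

For a prime `ℓ ∤ N` and a function `R` on the upper half plane put

  `heckeProd k ℓ R = (∏_{j < ℓ} R ∣[k] [1,j;0,ℓ]) * R ∣[k] [ℓ,0;0,1]`,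

the product of the slashes of `R` by the representatives of `T_ℓ`.

* `heckeProd_eq_prod_onePoint`: it is the product over `heckeRep ℓ x`, `x ∈ P¹(𝔽_ℓ)`;
* `isTwistedForm_heckeProd`: if `R` is a twisted form of weight `k` with multiplier `ζ^φ` then
  `heckeProd k ℓ R` is a twisted form of weight `k (ℓ + 1)` with multiplier `ζ^(T_ℓ φ)`,
  `T_ℓ = Betti.TB` the Betti Hecke operator;
* `heckeProdForm`: for a modular form `B` on `Γ₀(N)`, the modular form `heckeProd k ℓ B` of weight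
  `k (ℓ + 1)`; `heckeProdForm_ne_zero`;
* `heckeProd_pow`: `heckeProd (n k) ℓ (Rⁿ) = ℓ^((n-1)(ℓ+1)) • (heckeProd k ℓ R)ⁿ`;
* `heckeProd_apply`: the explicit formula.
-/

set_option autoImplicit false
set_option linter.style.haveILetI false

open UpperHalfPlane ModularForm CongruenceSubgroup Matrix.SpecialLinearGroup
open scoped MatrixGroups ModularForm Manifold
open P2MW.S_ModularForm_heckeT_slash_eq_self_of_mem_Gamma0.ModularForm.HeckeSlashInvariance

noncomputable section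

namespace Fermat.Agent.GTor.H76

/-- The product of the slashes of `R` by the representatives of the Hecke correspondence `T_ℓ`. -/
def heckeProd (k : ℤ) (ℓ : ℕ) (R : ℍ → ℂ) : ℍ → ℂ :=
  (∏ j ∈ Finset.range ℓ, R ∣[k] heckeMatrix ℓ j) * R ∣[k] heckeDiagMatrix ℓ

theorem heckeProd_def (k : ℤ) (ℓ : ℕ) (R : ℍ → ℂ) :
    heckeProd k ℓ R = (∏ j ∈ Finset.range ℓ, R ∣[k] heckeMatrix ℓ j) * R ∣[k] heckeDiagMatrix ℓ :=
  rfl

theorem heckeProd_apply (k : ℤ) {ℓ : ℕ} (hℓ : ℓ ≠ 0) (R : ℍ → ℂ) (τ : ℍ) :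
    heckeProd k ℓ R τ = (∏ j ∈ Finset.range ℓ, ((ℓ : ℂ)⁻¹ * R (heckeMatrix ℓ j • τ)))
      * ((ℓ : ℂ) ^ (k - 1) * R (heckeDiagMatrix ℓ • τ)) := by
  simp only [heckeProd, Pi.mul_apply, Finset.prod_apply, slash_heckeMatrix_apply k hℓ,
    slash_heckeDiagMatrix_apply k hℓ]

theorem prod_range_eq_prod_zmod {ℓ : ℕ} [NeZero ℓ] {M : Type*} [CommMonoid M] (F : ℕ → M) :
    ∏ j ∈ Finset.range ℓ, F j = ∏ x : ZMod ℓ, F x.val := by
  refine Finset.prod_nbij' (fun j : ℕ ↦ (j : ZMod ℓ)) (fun x : ZMod ℓ ↦ x.val)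
    (fun _ _ ↦ Finset.mem_univ _)
    (fun x _ ↦ Finset.mem_range.mpr x.val_lt) (fun j hj ↦ ?_) (fun x _ ↦ ?_) (fun j hj ↦ ?_)
  · exact ZMod.val_cast_of_lt (Finset.mem_range.mp hj)
  · exact ZMod.natCast_zmod_val x
  · rw [ZMod.val_cast_of_lt (Finset.mem_range.mp hj)]

theorem heckeProd_eq_prod_onePoint (k : ℤ) (ℓ : ℕ) [NeZero ℓ] (R : ℍ → ℂ) :
    heckeProd k ℓ R = ∏ x : OnePoint (ZMod ℓ), R ∣[k] heckeRep ℓ x := by
  rw [heckeProd, prod_range_eq_prod_zmod, mul_comm]
  exact (Fintype.prod_option (fun x : OnePoint (ZMod ℓ) ↦ R ∣[k] heckeRep ℓ x)).symm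

/-! ### The representatives -/

theorem heckeRep_apply_one_zero (ℓ : ℕ) (x : OnePoint (ZMod ℓ)) :
    (heckeRep ℓ x : GL (Fin 2) ℝ) 1 0 = 0 := by
  rcases eq_or_ne ℓ 0 with rfl | hℓ
  · induction x using OnePoint.rec with
    | infty => simp [heckeRep_infty]
    | coe j => simp [heckeRep_coe]
  · induction x using OnePoint.rec with
    | infty => simp [heckeRep_infty, val_heckeDiagMatrix hℓ]
    | coe j => simp [heckeRep_coe, val_heckeMatrix hℓ]

theorem σ_heckeRep (ℓ : ℕ) (x : OnePoint (ZMod ℓ)) :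
    UpperHalfPlane.σ (heckeRep ℓ x) = .refl ℝ ℂ := by
  induction x using OnePoint.rec with
  | infty => exact σ_heckeDiagMatrix ℓ
  | coe j => exact σ_heckeMatrix ℓ _

theorem smul_slash_heckeRep (k : ℤ) (ℓ : ℕ) (x : OnePoint (ZMod ℓ)) (c : ℂ) (F : ℍ → ℂ) :
    (c • F) ∣[k] heckeRep ℓ x = c • (F ∣[k] heckeRep ℓ x) := by
  rw [ModularForm.smul_slash, σ_heckeRep, ContinuousAlgEquiv.refl_apply]

/-! ### Products and slashes -/

theorem slash_mapGL (k : ℤ) (F : ℍ → ℂ) (γ : SL(2, ℤ)) : F ∣[k] mapGL ℝ γ = F ∣[k] γ := rfl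

theorem prod_slash_mapGL {ι : Type*} (k : ℤ) (s : Finset ι) (F : ι → ℍ → ℂ) (γ : SL(2, ℤ)) :
    (∏ i ∈ s, F i) ∣[k * (s.card : ℤ)] (mapGL ℝ γ) = ∏ i ∈ s, F i ∣[k] (mapGL ℝ γ) := by
  rw [ModularForm.prod_slash]
  have : |((mapGL ℝ γ : GL (Fin 2) ℝ).det : ℝ)| = 1 := by
    simp
  rw [this, one_zpow, one_smul]

theorem zetaPow_sum {ι : Type*} (n : ℕ) (s : Finset ι) (a : ι → ZMod n) :
    zetaPow n (∑ i ∈ s, a i) = ∏ i ∈ s, zetaPow n (a i) := by
  classical
  induction s using Finset.induction_on with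
  | empty => simp [H56.zetaPow_zero]
  | insert i t hi ih => rw [Finset.sum_insert hi, Finset.prod_insert hi, H56.zetaPow_add, ih]

theorem prod_smul_fun {ι : Type*} (s : Finset ι) (c : ι → ℂ) (F : ι → ℍ → ℂ) :
    ∏ i ∈ s, (c i • F i) = (∏ i ∈ s, c i) • ∏ i ∈ s, F i := by
  classical
  induction s using Finset.induction_on with
  | empty => simp
  | insert i t hi ih =>
    rw [Finset.prod_insert hi, Finset.prod_insert hi, Finset.prod_insert hi, ih]
    funext z
    simp only [Pi.mul_apply, Pi.smul_apply, smul_eq_mul]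
    ring

theorem card_onePoint_zmod (ℓ : ℕ) [NeZero ℓ] :
    ((Finset.univ : Finset (OnePoint (ZMod ℓ))).card : ℤ) = (ℓ : ℤ) + 1 := by
  rw [Finset.card_univ]
  have : Fintype.card (OnePoint (ZMod ℓ)) = ℓ + 1 := by
    have := Fintype.card_option (α := ZMod ℓ)
    rw [ZMod.card] at this
    exact this
  rw [this]
  push_cast
  rfl

/-! ### Part (1): the product is a twisted form with multiplier `T_ℓ φ` -/

section Twisted

variable {N n : ℕ} {k : ℤ} {φ : Additive (Gamma0 N) →+ ZMod n} {R : ℍ → ℂ}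

theorem mdifferentiable_heckeProd (k : ℤ) (ℓ : ℕ) {R : ℍ → ℂ} (hR : MDifferentiable 𝓘(ℂ) 𝓘(ℂ) R) :
    MDifferentiable 𝓘(ℂ) 𝓘(ℂ) (heckeProd k ℓ R) := by
  rw [heckeProd]
  exact (MDifferentiable.prod fun j _ => hR.slash k _).mul (hR.slash k _)

/-- The slash of `heckeProd` by an element of `SL₂(ℤ)` is the product of the slashes by the
matrices `rep x * γ`. -/
theorem heckeProd_slash (k : ℤ) (ℓ : ℕ) [NeZero ℓ] (R : ℍ → ℂ) (γ : SL(2, ℤ)) :
    (heckeProd k ℓ R) ∣[k * ((ℓ : ℤ) + 1)] γ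
      = ∏ x : OnePoint (ZMod ℓ), R ∣[k] (heckeRep ℓ x * mapGL ℝ γ) := by
  rw [heckeProd_eq_prod_onePoint, ← slash_mapGL, ← card_onePoint_zmod, prod_slash_mapGL]
  refine Finset.prod_congr rfl fun x _ => ?_
  rw [SlashAction.slash_mul]

theorem isTwistedForm_heckeProd {ℓ : ℕ} (hℓ : ℓ.Prime) (hℓN : ¬ ℓ ∣ N)
    (h : IsTwistedForm N n k φ R) :
    IsTwistedForm N n (k * ((ℓ : ℤ) + 1)) (Betti.TB N (ZMod n) hℓ hℓN φ) (heckeProd k ℓ R) := by
  haveI : Fact ℓ.Prime := ⟨hℓ⟩
  haveI : NeZero ℓ := ⟨hℓ.ne_zero⟩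
  refine ⟨mdifferentiable_heckeProd k ℓ h.mdiff, fun γ => ?_, fun σ => ?_⟩
  · -- the multiplier
    set H := Betti.isHeckeFamily_T N hℓN with hH
    rw [heckeProd_slash, Betti.TB_apply_apply, zetaPow_sum]
    have hterm : ∀ x : OnePoint (ZMod ℓ),
        R ∣[k] (heckeRep ℓ x * mapGL ℝ (γ : SL(2, ℤ)))
          = zetaPow n (φ (Additive.ofMul (H.kap γ x))) • (R ∣[k] heckeRep ℓ (H.perm γ x)) := by
      intro x
      have h1 := H.rep_mul γ x
      rw [Betti.incl_apply, Betti.incl_apply] at h1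
      have h2 : R ∣[k] mapGL ℝ ((H.kap γ x : Gamma0 N) : SL(2, ℤ))
          = zetaPow n (φ (Additive.ofMul (H.kap γ x))) • R := h.slash (H.kap γ x)
      rw [h1, SlashAction.slash_mul, h2, smul_slash_heckeRep]
    rw [Finset.prod_congr rfl fun x _ => hterm x, prod_smul_fun, heckeProd_eq_prod_onePoint]
    congr 1
    exact Equiv.prod_comp (H.permEquiv (Betti.incl_injective N) γ)
      (fun x => R ∣[k] heckeRep ℓ x)
  · -- bounded at the cusps
    rw [heckeProd_slash]
    have hb : ∀ x : OnePoint (ZMod ℓ),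
        IsBoundedAtImInfty (R ∣[k] (heckeRep ℓ x * mapGL ℝ σ)) := by
      intro x
      obtain ⟨g', -, hg'⟩ := heckeRep_mul (N := 1) (p := ℓ) hℓ.not_dvd_one σ (by simp) x
      rw [hg', SlashAction.slash_mul, slash_mapGL]
      exact (h.bdd g').slash k (heckeRep_apply_one_zero ℓ _)
    rw [IsBoundedAtImInfty]
    exact Filter.BoundedAtFilter.prod _ fun x _ => hb x

end Twisted

/-! ### Part (2): the product of a modular form is a nonzero modular form -/

section Form

variable {N : ℕ} [NeZero N] {k : ℤ} {ℓ : ℕ}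

theorem isTwistedForm_heckeProd_zero (hℓ : ℓ.Prime) (hℓN : ¬ ℓ ∣ N)
    (B : ModularForm (Gamma0 N) k) :
    IsTwistedForm N 1 (k * ((ℓ : ℤ) + 1)) 0 (heckeProd k ℓ B) := by
  have h := isTwistedForm_heckeProd hℓ hℓN (H56.isTwistedForm_of_modularForm 1 B)
  rwa [map_zero] at h

/-- The modular form `∏_x B ∣[k] rep x` of weight `k (ℓ + 1)` on `Γ₀(N)`. -/
def heckeProdForm (hℓ : ℓ.Prime) (hℓN : ¬ ℓ ∣ N) (B : ModularForm (Gamma0 N) k) :
    ModularForm (Gamma0 N) (k * ((ℓ : ℤ) + 1)) :=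
  H56.toModularForm (isTwistedForm_heckeProd_zero hℓ hℓN B)

@[simp] theorem coe_heckeProdForm (hℓ : ℓ.Prime) (hℓN : ¬ ℓ ∣ N) (B : ModularForm (Gamma0 N) k) :
    (heckeProdForm hℓ hℓN B : ℍ → ℂ) = heckeProd k ℓ B := rfl

theorem slash_eq_zero_iff (k : ℤ) (g : GL (Fin 2) ℝ) (F : ℍ → ℂ) : F ∣[k] g = 0 ↔ F = 0 := by
  constructor
  · intro h
    have h1 : (F ∣[k] g) ∣[k] g⁻¹ = 0 := by rw [h, SlashAction.zero_slash]
    rwa [← SlashAction.slash_mul, mul_inv_cancel, SlashAction.slash_one] at h1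
  · rintro rfl
    exact SlashAction.zero_slash _ _

theorem heckeProd_eq_zero_iff (k : ℤ) {ℓ : ℕ} {F : ℍ → ℂ} (hF : MDifferentiable 𝓘(ℂ) 𝓘(ℂ) F) :
    heckeProd k ℓ F = 0 ↔ F = 0 := by
  rw [heckeProd, UpperHalfPlane.mul_eq_zero_iff (MDifferentiable.prod fun j _ => hF.slash k _)
    (hF.slash k _), UpperHalfPlane.prod_eq_zero_iff (fun j _ => hF.slash k _)]
  simp only [slash_eq_zero_iff]
  constructor
  · rintro (⟨_, _, h⟩ | h) <;> exact h
  · intro h
    exact Or.inr h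

theorem heckeProdForm_ne_zero (hℓ : ℓ.Prime) (hℓN : ¬ ℓ ∣ N) {B : ModularForm (Gamma0 N) k}
    (hB : B ≠ 0) : heckeProdForm hℓ hℓN B ≠ 0 := by
  intro h
  apply hB
  have h1 : heckeProd k ℓ (B : ℍ → ℂ) = 0 := by
    rw [← coe_heckeProdForm hℓ hℓN B, h]
    rfl
  have h2 := (heckeProd_eq_zero_iff k B.holo').mp h1
  exact DFunLike.coe_injective h2

end Form

/-! ### Powers and products -/

theorem heckeProd_pow_aux (L : ℂ) (hL : L ≠ 0) (ℓ n : ℕ) (k : ℤ) (P D : ℂ) :
    (L⁻¹ ^ ℓ * P ^ n) * (L ^ ((n : ℤ) * k - 1) * D ^ n)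
      = (L ^ ((n : ℤ) - 1)) ^ (ℓ + 1) * ((L⁻¹ ^ ℓ * P) * (L ^ (k - 1) * D)) ^ n := by
  have e0 : L ^ ((n : ℤ) - 1) * (L⁻¹) ^ n = L⁻¹ := by
    rw [inv_pow, ← zpow_natCast L n, ← zpow_neg, ← zpow_add₀ hL, ← zpow_neg_one]
    congr 1
    ring
  have e1 : L ^ ((n : ℤ) * k - 1) = L ^ ((n : ℤ) - 1) * (L ^ (k - 1)) ^ n := by
    rw [← zpow_natCast (L ^ (k - 1)) n, ← zpow_mul, ← zpow_add₀ hL]
    congr 1
    ring
  have e2 : L⁻¹ ^ ℓ = (L ^ ((n : ℤ) - 1)) ^ ℓ * (L⁻¹ ^ ℓ) ^ n := by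
    rw [pow_right_comm, ← mul_pow, e0]
  rw [e1]
  conv_lhs => rw [e2]
  ring

theorem heckeProd_pow (k : ℤ) {ℓ : ℕ} (hℓ : ℓ ≠ 0) (n : ℕ) (R : ℍ → ℂ) :
    heckeProd ((n : ℤ) * k) ℓ (fun z => R z ^ n)
      = (((ℓ : ℂ) ^ ((n : ℤ) - 1)) ^ (ℓ + 1)) • fun z => heckeProd k ℓ R z ^ n := by
  have hℓ' : (ℓ : ℂ) ≠ 0 := by exact_mod_cast hℓ
  funext τ
  rw [Pi.smul_apply, heckeProd_apply _ hℓ, heckeProd_apply _ hℓ, smul_eq_mul]
  have hA : ∏ j ∈ Finset.range ℓ, ((ℓ : ℂ)⁻¹ * R (heckeMatrix ℓ j • τ) ^ n)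
      = ((ℓ : ℂ)⁻¹) ^ ℓ * (∏ j ∈ Finset.range ℓ, R (heckeMatrix ℓ j • τ)) ^ n := by
    rw [Finset.prod_mul_distrib, Finset.prod_const, Finset.card_range, Finset.prod_pow]
  have hB : ∏ j ∈ Finset.range ℓ, ((ℓ : ℂ)⁻¹ * R (heckeMatrix ℓ j • τ))
      = ((ℓ : ℂ)⁻¹) ^ ℓ * ∏ j ∈ Finset.range ℓ, R (heckeMatrix ℓ j • τ) := by
    rw [Finset.prod_mul_distrib, Finset.prod_const, Finset.card_range]
  rw [hA, hB]
  exact heckeProd_pow_aux _ hℓ' _ _ _ _ _

/-- The constant of `heckeProd_pow` is nonzero. -/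
theorem heckeProd_pow_const_ne_zero {ℓ : ℕ} (hℓ : ℓ ≠ 0) (n : ℕ) :
    (((ℓ : ℂ) ^ ((n : ℤ) - 1)) ^ (ℓ + 1)) ≠ 0 :=
  pow_ne_zero _ (zpow_ne_zero _ (by exact_mod_cast hℓ))

/-! ### Packaging for `HasChar` -/

/-- If `R` is a twisted form with multiplier `ζ^φ`, `B ≠ 0` a modular form of the same weight and
`g'` is the ratio of the `q`-expansions of `(heckeProd R)ⁿ` and `(heckeProd B)ⁿ`, then `g'` has
character `T_ℓ φ`. -/
theorem hasChar_heckeProd {N n : ℕ} [NeZero N] {k : ℤ} {ℓ : ℕ} (hℓ : ℓ.Prime) (hℓN : ¬ ℓ ∣ N)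
    {φ : Additive (Gamma0 N) →+ ZMod n} {R : ℍ → ℂ} (hR : IsTwistedForm N n k φ R)
    {B : ModularForm (Gamma0 N) k} (hB : B ≠ 0) (g' : FNL ℂ N)
    (hq : qLaurent (fun z => heckeProd k ℓ R z ^ n)
      = (g' : LaurentSeries ℂ) * qLaurent (fun z => heckeProd k ℓ (B : ℍ → ℂ) z ^ n)) :
    HasChar N n g' (Betti.TB N (ZMod n) hℓ hℓN φ) :=
  ⟨k * ((ℓ : ℤ) + 1), heckeProd k ℓ R, heckeProdForm hℓ hℓN B, isTwistedForm_heckeProd hℓ hℓN hR,
    heckeProdForm_ne_zero hℓ hℓN hB, hq⟩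

end Fermat.Agent.GTor.H76

end
end
-- ==== END Fermat.Agent.GTor.H76_HKan

-- ==== BEGIN Fermat.Agent.GTor.H96_MonoAux
section

set_option autoImplicit false

noncomputable section

namespace Fermat.Agent.GTor.H96

open Complex UpperHalfPlane Filter Topology Function ModularForm
open scoped MatrixGroups ModularForm Manifold Real

/-! ### Slash action: translations -/

theorem denom_T_zpow' (j : ℤ) (z : ℍ) : denom ((ModularGroup.T ^ j : SL(2, ℤ))) z = 1 := by
  rw [ModularGroup.denom_apply, ModularGroup.coe_T_zpow]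
  simp

theorem slash_T_zpow_apply (G : ℍ → ℂ) (k : ℤ) (j : ℤ) (z : ℍ) :
    (G ∣[k] (ModularGroup.T ^ j : SL(2, ℤ))) z = G ((j : ℝ) +ᵥ z) := by
  rw [SL_slash_apply, denom_T_zpow', one_zpow, mul_one, UpperHalfPlane.modular_T_zpow_smul]

theorem periodic_of_vadd {G : ℍ → ℂ} {w : ℝ} (h : ∀ z : ℍ, G (w +ᵥ z) = G z) :
    Function.Periodic (G ∘ UpperHalfPlane.ofComplex) w := by
  intro x
  by_cases! hx : 0 < im x
  · have hx' : 0 < im (x + (w : ℂ)) := by simp [hx]
    simp only [Function.comp_apply, ofComplex_apply_of_im_pos hx', ofComplex_apply_of_im_pos hx]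
    rw [← h ⟨x, hx⟩]
    congr 1
    ext
    simp [add_comm]
  · have h1 : im (x + (w : ℂ)) ≤ 0 := by simpa using hx
    simp only [Function.comp_apply]
    rw [ofComplex_apply_eq_of_im_nonpos h1 hx]

theorem const_mul_slash_SL' (c : ℂ) (f : ℍ → ℂ) (k : ℤ) (A : SL(2, ℤ)) :
    (fun z => c * f z) ∣[k] A = fun z => c * (f ∣[k] A) z :=
  Fermat.Agent.Lib.NthRoot.const_mul_slash_SL c f k A

/-- If `R ∣[k] δ = c * R` for `δ = σ T^j σ⁻¹`, then `R ∣[k] σ` is `j`-periodic up to `c`. -/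
theorem slash_vadd_of_conj {R : ℍ → ℂ} {k : ℤ} {σ δ : SL(2, ℤ)} {j : ℤ} {c : ℂ}
    (hδ : δ = σ * ModularGroup.T ^ j * σ⁻¹) (hR : R ∣[k] δ = fun z => c * R z) (z : ℍ) :
    (R ∣[k] σ) ((j : ℝ) +ᵥ z) = c * (R ∣[k] σ) z := by
  rw [← slash_T_zpow_apply (R ∣[k] σ) k j z, ← SlashAction.slash_mul]
  have : σ * ModularGroup.T ^ j = δ * σ := by rw [hδ]; group
  rw [this, SlashAction.slash_mul, hR, const_mul_slash_SL']

theorem slash_ne_zero {G : ℍ → ℂ} (hG : G ≠ 0) (k : ℤ) (σ : SL(2, ℤ)) : G ∣[k] σ ≠ 0 := by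
  intro h
  apply hG
  have : (G ∣[k] σ) ∣[k] σ⁻¹ = G := by
    rw [← SlashAction.slash_mul, mul_inv_cancel, SlashAction.slash_one]
  rw [← this, h, SlashAction.zero_slash]

theorem pow_slash_SL'' (f : ℍ → ℂ) (k : ℤ) (n : ℕ) (A : SL(2, ℤ)) :
    (f ^ n) ∣[k * n] A = (f ∣[k] A) ^ n :=
  Fermat.Agent.Lib.NthRoot.pow_slash_SL' f k n A

/-- The slash of `A * B ^ (n - 1)` in weight `k * n`. -/
theorem mul_pow_slash_SL (A B : ℍ → ℂ) (k : ℤ) {n : ℕ} (hn : n ≠ 0) (σ : SL(2, ℤ)) :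
    (A * B ^ (n - 1)) ∣[k * n] σ = (A ∣[k] σ) * (B ∣[k] σ) ^ (n - 1) := by
  have hk : k * (n : ℤ) = k + k * ((n - 1 : ℕ) : ℤ) := by
    have : 1 ≤ n := Nat.one_le_iff_ne_zero.mpr hn
    push_cast [Nat.cast_sub this]
    ring
  rw [hk, ModularForm.mul_slash_SL2, pow_slash_SL'']

variable {N : ℕ} {k : ℤ}

/-- Modular forms on `Γ₀(N)` are invariant under the slash action of `Γ₀(N)`. -/
theorem slash_eq_of_mem_Gamma0 (A : ModularForm (CongruenceSubgroup.Gamma0 N) k)
    (γ : CongruenceSubgroup.Gamma0 N) : (A : ℍ → ℂ) ∣[k] (γ : SL(2, ℤ)) = A := by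
  rw [SL_slash]
  exact SlashInvariantFormClass.slash_action_eq A _ ⟨γ, γ.2, rfl⟩

theorem neg_one_mem_Gamma0' (N : ℕ) : (-1 : SL(2, ℤ)) ∈ CongruenceSubgroup.Gamma0 N :=
  Fermat.Agent.Lib.TwistedEisenstein.neg_one_mem_Gamma0

/-- The weight of a nonzero modular form on `Γ₀(N)` is even. -/
theorem even_weight_of_ne_zero {B : ModularForm (CongruenceSubgroup.Gamma0 N) k} (hB : B ≠ 0) :
    Even k := by
  by_contra hodd
  rw [Int.not_even_iff_odd] at hodd
  have hB1 := slash_eq_of_mem_Gamma0 B ⟨-1, neg_one_mem_Gamma0' N⟩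
  apply hB
  ext z
  have h1 := congrFun hB1 z
  rw [SL_slash_apply] at h1
  have h2 : denom ((-1 : SL(2, ℤ))) z = -1 := by
    rw [ModularGroup.denom_apply]
    simp
  have h3 : ((-1 : SL(2, ℤ))) • z = z := by
    rw [ModularGroup.SL_neg_smul, one_smul]
  rw [h2, h3, hodd.neg.neg_one_zpow] at h1
  have h4 : (2 : ℂ) * B z = 0 := by linear_combination -h1
  simpa using h4

/-- In even weight, the slash action of `-1` is trivial. -/
theorem slash_neg_one_of_even (hk : Even k) (G : ℍ → ℂ) : G ∣[k] (-1 : SL(2, ℤ)) = G := by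
  funext z
  rw [SL_slash_apply]
  have h2 : denom ((-1 : SL(2, ℤ))) z = -1 := by
    rw [ModularGroup.denom_apply]
    simp
  have h3 : ((-1 : SL(2, ℤ))) • z = z := by
    rw [ModularGroup.SL_neg_smul, one_smul]
  rw [h2, h3, (Even.neg hk).neg_one_zpow, mul_one]

/-- The slash of a modular form on `Γ₀(N)` by an element of `SL(2, ℤ)` is cusp-regular for the
period `N`. -/
theorem isCuspRegular_slash [NeZero N] (A : ModularForm (CongruenceSubgroup.Gamma0 N) k) (σ : SL(2, ℤ)) :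
    IsCuspRegular (N : ℝ) ((A : ℍ → ℂ) ∣[k] σ) where
  per := by
    refine periodic_of_vadd fun z => ?_
    have hmem := Fermat.Agent.Lib.TwistedEisenstein.conj_T_pow_mem_Gamma0 N σ
    have h1 := slash_vadd_of_conj (R := (A : ℍ → ℂ)) (k := k) (σ := σ)
      (δ := σ * ModularGroup.T ^ N * σ⁻¹) (j := (N : ℤ)) (c := 1) (by rw [zpow_natCast])
      (by
        have := slash_eq_of_mem_Gamma0 A ⟨_, hmem⟩
        simp only [one_mul]
        exact this) z
    rw [one_mul] at h1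
    exact_mod_cast h1
  hol := by
    have := A.holo'.slash k (σ : GL (Fin 2) ℝ)
    exact this
  bdd := ModularFormClass.bdd_at_infty_slash A σ

/-! ### The stabiliser of a point -/

theorem autj_mul (γ δ : SL(2, ℤ)) {z : ℂ} (hz : 0 < z.im) :
    autj (γ * δ) z = autj γ (moeb δ z) * autj δ z := by
  have h1 := autj_ne_zero δ hz
  unfold autj moeb at *
  rw [Matrix.SpecialLinearGroup.coe_mul]
  simp only [Matrix.mul_apply, Fin.sum_univ_two]
  push_cast
  field_simp
  ring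

theorem denom_mul_of_fixed (γ δ : SL(2, ℤ)) {z₀ : ℍ} (hδ : δ • z₀ = z₀) :
    denom (γ * δ : SL(2, ℤ)) z₀ = denom γ z₀ * denom δ z₀ := by
  rw [denom_eq_autj, denom_eq_autj, denom_eq_autj, autj_mul γ δ z₀.im_pos,
    ← coe_smul_eq_moeb, hδ]

/-- The stabiliser of `z` in `Γ₀(N)`. -/
def stabGamma0 (N : ℕ) (z : ℍ) : Subgroup (CongruenceSubgroup.Gamma0 N) where
  carrier := {γ | ((γ : SL(2, ℤ))) • z = z}
  one_mem' := by simp
  mul_mem' := by
    intro a b ha hb
    have ha' : ((a : SL(2, ℤ))) • z = z := ha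
    have hb' : ((b : SL(2, ℤ))) • z = z := hb
    show ((a * b : CongruenceSubgroup.Gamma0 N) : SL(2, ℤ)) • z = z
    rw [Subgroup.coe_mul, mul_smul, hb', ha']
  inv_mem' := by
    intro a ha
    have ha' : ((a : SL(2, ℤ))) • z = z := ha
    show ((a⁻¹ : CongruenceSubgroup.Gamma0 N) : SL(2, ℤ)) • z = z
    rw [Subgroup.coe_inv]
    conv_lhs => rw [← ha']
    rw [← mul_smul, inv_mul_cancel, one_smul]

theorem mem_stabGamma0 {N : ℕ} {z : ℍ} {γ : CongruenceSubgroup.Gamma0 N} :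
    γ ∈ stabGamma0 N z ↔ ((γ : SL(2, ℤ))) • z = z := Iff.rfl

theorem natCard_stabGamma0 (N : ℕ) (z : ℍ) :
    Nat.card (stabGamma0 N z)
      = Nat.card {γ : CongruenceSubgroup.Gamma0 N // ((γ : SL(2, ℤ))) • z = z} :=
  Nat.card_congr (Equiv.subtypeEquivRight fun _ => Iff.rfl)

/-- The automorphy factor at `z`, as a character of the stabiliser. -/
def denomHom (N : ℕ) (z : ℍ) : stabGamma0 N z →* ℂˣ where
  toFun γ := Units.mk0 (denom ((γ : CongruenceSubgroup.Gamma0 N) : SL(2, ℤ)) z)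
    (UpperHalfPlane.denom_ne_zero _ z)
  map_one' := by
    apply Units.ext
    simp
  map_mul' γ δ := by
    apply Units.ext
    simp only [Units.val_mk0, Units.val_mul, Subgroup.coe_mul]
    exact denom_mul_of_fixed _ _ (mem_stabGamma0.mp δ.2)

theorem two_dvd_natCard_stabGamma0 (N : ℕ) (z : ℍ) :
    2 ∣ Nat.card (stabGamma0 N z) := by
  let m1 : stabGamma0 N z := ⟨⟨-1, neg_one_mem_Gamma0' N⟩, by
    rw [mem_stabGamma0]
    show (-1 : SL(2, ℤ)) • z = z
    rw [ModularGroup.SL_neg_smul, one_smul]⟩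
  have h2 : m1 ^ 2 = 1 := by
    apply Subtype.ext
    apply Subtype.ext
    simp [m1]
  have h1 : m1 ≠ 1 := by
    intro h
    have := congrArg (fun g : stabGamma0 N z =>
      (((g : CongruenceSubgroup.Gamma0 N) : SL(2, ℤ)) : Matrix (Fin 2) (Fin 2) ℤ) 0 0) h
    simp [m1] at this
  have hord : orderOf m1 = 2 := orderOf_eq_prime h2 h1
  have := orderOf_dvd_natCard m1
  rwa [hord] at this

/-- **Lagrange for the stabiliser.** `(denom γ z) ^ (2 e) = 1` for `γ` in the stabiliser of `z`,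
where `e = ellOrder N z > 0`. -/
theorem denom_pow_two_mul_ellOrder {N : ℕ} {z : ℍ} (he : 0 < ellOrder N z)
    {γ : CongruenceSubgroup.Gamma0 N} (hγ : ((γ : SL(2, ℤ))) • z = z) :
    denom ((γ : SL(2, ℤ))) z ^ (2 * ellOrder N z) = 1 := by
  have hcard : Nat.card (stabGamma0 N z) ≠ 0 := by
    intro h0
    unfold ellOrder at he
    rw [← natCard_stabGamma0, h0] at he
    simp at he
  have hfin : Finite (stabGamma0 N z) := Nat.finite_of_card_ne_zero hcard
  have h2 := two_dvd_natCard_stabGamma0 N z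
  have he2 : 2 * ellOrder N z = Nat.card (stabGamma0 N z) := by
    unfold ellOrder
    rw [← natCard_stabGamma0]
    exact Nat.mul_div_cancel' h2
  rw [he2]
  have := pow_card_eq_one' (G := stabGamma0 N z) (x := ⟨γ, hγ⟩)
  have h3 := congrArg (fun g : stabGamma0 N z => ((denomHom N z g : ℂˣ) : ℂ)) this
  simp only [map_pow, map_one, Units.val_pow_eq_pow_val, Units.val_one] at h3
  exact h3

end Fermat.Agent.GTor.H96

end
end
-- ==== END Fermat.Agent.GTor.H96_MonoAux

-- ==== BEGIN Fermat.Agent.GTor.H98_Exist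
section

/-!
# G-TOR package EXIST (helper98)

`exist_of : n ≠ 0 → Stmt_A2 N → Stmt_A5 N → Stmt_LocCusp → Stmt_EXIST N n`:
every `φ ∈ homPE (Γ₀(N)) (ZMod n)` is the character of an unramified function, namely of
`f = (E_χ / E_1)ⁿ` with `E_χ` the twisted Eisenstein series of weight `4` (helper96) for
`χ = ζ_n ^ φ`.

Reusable pieces (unconditional):
* `finite_stab`, `ellOrder_pos` (first clause of `Stmt_A3`), `stabChar`, `stabChar_injective`,
  `ellOrder_dvd`, `ellOrder_dvd_ordAt_sub` (local statement (E) at elliptic points);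
* `cuspWidth_spec`, `cuspWidth_dvd` (first two clauses of `Stmt_A4`);
* `chiOf`, `trivialAtInfty_chiOf`, `twEis_slash_periodic`, `qLaurent_ne_zero`, `ordAt_pow`.
`Stmt_LocCusp` is the local statement at the cusps (package LOC-CUSP of helper96).
-/

set_option autoImplicit false

noncomputable section

namespace Fermat.Agent.GTor.H98

open AlgebraicCurve ModularCurve UpperHalfPlane Filter Topology CongruenceSubgroup
open Fermat.Agent.Lib.TwistedEisenstein
open scoped MatrixGroups ModularForm Manifold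

variable {N n : ℕ}

theorem zetaPow_ne_zero (n : ℕ) (a : ZMod n) : zetaPow n a ≠ 0 := Complex.exp_ne_zero _

/-- The multiplicative character `γ ↦ ζ_n ^ φ(γ)` attached to `φ : Γ₀(N) → ℤ/n`. -/
def chiOf (hn : n ≠ 0) (φ : Additive (Gamma0 N) →+ ZMod n) : (Gamma0 N) →* ℂˣ :=
  MonoidHom.mk' (fun γ => Units.mk0 (zetaPow n (φ (Additive.ofMul γ))) (zetaPow_ne_zero _ _))
    (by
      intro a b
      apply Units.ext
      show zetaPow n (φ (Additive.ofMul (a * b)))
        = zetaPow n (φ (Additive.ofMul a)) * zetaPow n (φ (Additive.ofMul b))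
      rw [ofMul_mul, map_add, H96.zetaPow_add hn])

theorem coe_chiOf (hn : n ≠ 0) (φ : Additive (Gamma0 N) →+ ZMod n) (γ : Gamma0 N) :
    ((chiOf hn φ γ : ℂˣ) : ℂ) = zetaPow n (φ (Additive.ofMul γ)) := rfl

theorem chiOf_pow (hn : n ≠ 0) (φ : Additive (Gamma0 N) →+ ZMod n) (γ : Gamma0 N) :
    chiOf hn φ γ ^ n = 1 := by
  apply Units.ext
  rw [Units.val_pow_eq_pow_val, coe_chiOf, H96.zetaPow_pow, Units.val_one]

theorem chiOf_eq_one (hn : n ≠ 0) (φ : Additive (Gamma0 N) →+ ZMod n) {γ : Gamma0 N}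
    (h : φ (Additive.ofMul γ) = 0) : chiOf hn φ γ = 1 := by
  apply Units.ext
  rw [coe_chiOf, h, H96.zetaPow_zero hn, Units.val_one]

theorem trace_sq_of_lower_left_zero (γ : SL(2, ℤ))
    (h : (γ : Matrix (Fin 2) (Fin 2) ℤ) 1 0 = 0) :
    (γ : Matrix (Fin 2) (Fin 2) ℤ).trace ^ 2 = 4 := by
  have hdet := γ.det_coe
  rw [Matrix.det_fin_two, h, mul_zero, sub_zero] at hdet
  rw [Matrix.trace_fin_two]
  rcases Int.isUnit_iff.1 (IsUnit.of_mul_eq_one _ hdet) with h1 | h1
  · rw [h1, one_mul] at hdet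
    rw [h1, hdet]; norm_num
  · rw [h1] at hdet
    have : (γ : Matrix (Fin 2) (Fin 2) ℤ) 1 1 = -1 := by linarith
    rw [h1, this]; norm_num

theorem trivialAtInfty_chiOf (hn : n ≠ 0) {φ : Additive (Gamma0 N) →+ ZMod n}
    (hφ : φ ∈ homPE (Gamma0 N) (ZMod n)) : TrivialAtInfty N (chiOf hn φ) := by
  intro γ hγ
  exact chiOf_eq_one hn φ (hφ.1 γ (trace_sq_of_lower_left_zero _ hγ))


/-! ## The stabiliser of a point -/

/-- The stabiliser of `z` in `Γ₀(N)`. -/
abbrev stab (N : ℕ) (z : ℍ) : Subgroup (Gamma0 N) := MulAction.stabilizer (Gamma0 N) z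

theorem mem_stab {z : ℍ} {γ : Gamma0 N} : γ ∈ stab N z ↔ (γ : SL(2, ℤ)) • z = z := Iff.rfl

theorem card_stab (N : ℕ) (z : ℍ) :
    Nat.card (stab N z) = Nat.card {γ : Gamma0 N // ((γ : SL(2, ℤ))) • z = z} := rfl

/-- `denom γ z = 1` for `γ` fixing `z` implies `γ = 1`. -/
theorem eq_one_of_denom_eq_one {γ : SL(2, ℤ)} {z : ℍ} (hfix : γ • z = z)
    (h : denom γ z = 1) : γ = 1 := by
  rw [ModularGroup.denom_apply] at h
  have him := congrArg Complex.im h
  have hre := congrArg Complex.re h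
  simp only [Complex.add_im, Complex.mul_im, Complex.intCast_re, Complex.intCast_im,
    coe_im, zero_mul, add_zero, Complex.one_im, Complex.add_re, Complex.mul_re, coe_re,
    sub_zero, Complex.one_re] at him hre
  have hc : (γ 1 0 : ℤ) = 0 := by
    have : ((γ 1 0 : ℤ) : ℝ) = 0 := by
      rcases mul_eq_zero.1 him with h1 | h1
      · exact h1
      · exact absurd h1 z.im_pos.ne'
    exact_mod_cast this
  have hd : (γ 1 1 : ℤ) = 1 := by
    have : ((γ 1 1 : ℤ) : ℝ) = 1 := by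
      rw [hc] at hre
      simpa using hre
    exact_mod_cast this
  have hdet := γ.det_coe
  rw [Matrix.det_fin_two, hc, hd, mul_zero, sub_zero, mul_one] at hdet
  -- now `γ = [[1, b], [0, 1]]`
  have hz := congrArg UpperHalfPlane.coe hfix
  rw [UpperHalfPlane.coe_specialLinearGroup_apply] at hz
  simp only [algebraMap_int_eq, eq_intCast] at hz
  rw [hc, hd, hdet] at hz
  simp only [Int.cast_one, Complex.ofReal_one, one_mul, Int.cast_zero, Complex.ofReal_zero,
    zero_mul, zero_add, div_one] at hz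
  have hb : (γ 0 1 : ℤ) = 0 := by
    have h1 : (((γ 0 1 : ℤ) : ℝ) : ℂ) = 0 := by
      have := add_left_cancel (a := (z : ℂ)) (b := (((γ 0 1 : ℤ) : ℝ) : ℂ)) (c := 0)
        (by rw [add_zero]; exact hz)
      exact this
    exact_mod_cast h1
  ext i j
  fin_cases i <;> fin_cases j <;> simp [hc, hd, hdet, hb]

theorem denom_mul_of_fix (γ γ' : SL(2, ℤ)) {z : ℍ} (h' : γ' • z = z) :
    denom ((γ * γ' : SL(2, ℤ))) z = denom γ z * denom γ' z := by
  have h := denom_cocycle_σ (γ : GL (Fin 2) ℝ) (γ' : GL (Fin 2) ℝ) z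
  have hσ : σ (γ' : GL (Fin 2) ℝ) = ContinuousAlgEquiv.refl ℝ ℂ := by
    rw [σ, if_pos]
    simp
  rw [hσ] at h
  have hz : ((γ' : GL (Fin 2) ℝ) • z) = z := h'
  rw [hz] at h
  simpa using h

/-- The automorphy factor, as a character of the stabiliser. -/
def stabChar (N : ℕ) (z : ℍ) : stab N z →* ℂ where
  toFun γ := denom (((γ : Gamma0 N) : SL(2, ℤ))) z
  map_one' := by
    show denom ((1 : SL(2, ℤ))) z = 1
    rw [ModularGroup.denom_apply]
    simp
  map_mul' γ γ' := by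
    show denom ((((γ : Gamma0 N) : SL(2, ℤ)) * ((γ' : Gamma0 N) : SL(2, ℤ)) : SL(2, ℤ))) z = _
    exact denom_mul_of_fix _ _ γ'.2

theorem stabChar_apply (z : ℍ) (γ : stab N z) :
    stabChar N z γ = denom (((γ : Gamma0 N) : SL(2, ℤ))) z := rfl

theorem stabChar_injective (N : ℕ) (z : ℍ) : Function.Injective (stabChar N z) := by
  rw [injective_iff_map_eq_one]
  intro γ hγ
  have := eq_one_of_denom_eq_one (γ := ((γ : Gamma0 N) : SL(2, ℤ))) γ.2 hγ
  exact Subtype.ext (Subtype.ext this)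

theorem normSq_denom_of_fix {γ : SL(2, ℤ)} {z : ℍ} (hfix : γ • z = z) :
    Complex.normSq (denom γ z) = 1 := by
  have h := ModularGroup.im_smul_eq_div_normSq γ z
  rw [hfix] at h
  have hz : z.im ≠ 0 := z.im_pos.ne'
  have hd : Complex.normSq (denom γ z) ≠ 0 := by
    rw [Ne, Complex.normSq_eq_zero]; exact denom_ne_zero _ z
  field_simp at h
  linarith

/-- The stabiliser of a point of `ℍ` in `Γ₀(N)` is finite. -/
theorem finite_stab (N : ℕ) (z : ℍ) : Finite (stab N z) := by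
  have hfin : {p : Fin 2 → ℤ | ¬ (1 < Complex.normSq ((p 0 : ℂ) * z + p 1))}.Finite := by
    have h := (ModularGroup.tendsto_normSq_coprime_pair z).eventually (eventually_gt_atTop 1)
    exact Filter.eventually_cofinite.1 h
  have himg : Set.range (stabChar N z) ⊆
      (fun p : Fin 2 → ℤ => ((p 0 : ℂ) * z + p 1)) '' {p : Fin 2 → ℤ |
        ¬ (1 < Complex.normSq ((p 0 : ℂ) * z + p 1))} := by
    rintro _ ⟨γ, rfl⟩
    refine ⟨(((γ : Gamma0 N) : SL(2, ℤ)) : Matrix (Fin 2) (Fin 2) ℤ) 1, ?_, ?_⟩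
    · have h1 := normSq_denom_of_fix (γ := ((γ : Gamma0 N) : SL(2, ℤ))) γ.2
      rw [ModularGroup.denom_apply] at h1
      show ¬ (1 < Complex.normSq _)
      rw [h1]
      exact lt_irrefl 1
    · rw [stabChar_apply, ModularGroup.denom_apply]
  have hr : (Set.range (stabChar N z)).Finite := (hfin.image _).subset himg
  have := hr.to_subtype
  exact Finite.of_injective (fun γ => (⟨stabChar N z γ, Set.mem_range_self γ⟩ :
    Set.range (stabChar N z))) (fun a b hab => stabChar_injective N z (congrArg Subtype.val hab))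

theorem neg_one_mem_stab (N : ℕ) (z : ℍ) :
    (⟨-1, neg_one_mem_Gamma0⟩ : Gamma0 N) ∈ stab N z := by
  rw [mem_stab]
  show (-1 : SL(2, ℤ)) • z = z
  rw [ModularGroup.SL_neg_smul, one_smul]

theorem two_dvd_card_stab (N : ℕ) (z : ℍ) : 2 ∣ Nat.card (stab N z) := by
  have := finite_stab N z
  let g : stab N z := ⟨⟨-1, neg_one_mem_Gamma0⟩, neg_one_mem_stab N z⟩
  have hg : orderOf g = 2 := by
    refine orderOf_eq_prime ?_ ?_
    · apply Subtype.ext; apply Subtype.ext
      show (-1 : SL(2, ℤ)) ^ 2 = 1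
      simp
    · intro h1
      have := congrArg (fun x : stab N z => (((x : Gamma0 N) : SL(2, ℤ)) : Matrix (Fin 2) (Fin 2) ℤ) 0 0) h1
      simp [g] at this
  have := orderOf_dvd_natCard g
  rwa [hg] at this

/-- If all automorphy factors of the stabiliser of `z` are `2d`-th roots of unity, then the
order of the stabiliser modulo `±1` divides `d`. -/
theorem ellOrder_pos (N : ℕ) (z : ℍ) : 0 < ellOrder N z := by
  have := finite_stab N z
  obtain ⟨e, he⟩ := two_dvd_card_stab N z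
  have hpos : 0 < Nat.card (stab N z) := Nat.card_pos
  unfold ellOrder
  rw [← card_stab]
  omega

theorem ellOrder_dvd {z : ℍ} {d : ℤ}
    (h : ∀ γ : Gamma0 N, ((γ : SL(2, ℤ))) • z = z → denom ((γ : SL(2, ℤ))) z ^ (2 * d) = 1) :
    (ellOrder N z : ℤ) ∣ d := by
  have := finite_stab N z
  have : IsCyclic (stab N z) := isCyclic_of_injective_ringHom (stabChar N z) (stabChar_injective N z)
  obtain ⟨g, hg⟩ := IsCyclic.exists_generator (α := stab N z)
  have hord : orderOf g = Nat.card (stab N z) := orderOf_eq_card_of_forall_mem_zpowers hg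
  have h1 : g ^ (2 * d) = 1 := by
    apply stabChar_injective N z
    rw [map_zpow, map_one, stabChar_apply]
    exact h _ g.2
  have h2 : (orderOf g : ℤ) ∣ 2 * d := orderOf_dvd_iff_zpow_eq_one.2 h1
  obtain ⟨e, he⟩ := two_dvd_card_stab N z
  have he' : ellOrder N z = e := by
    unfold ellOrder
    rw [← card_stab, he]
    simp
  rw [hord, he] at h2
  rw [he']
  push_cast at h2
  exact (mul_dvd_mul_iff_left (by norm_num : (2 : ℤ) ≠ 0)).1 h2

/-! ## Orders at points of `ℍ` -/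

theorem ordAt_eq (A : ℍ → ℂ) (z : ℍ) :
    ordAt A z = (analyticOrderNatAt (A ∘ UpperHalfPlane.ofComplex) (z : ℂ) : ℤ) := rfl

/-- **(E)** Let `R`, `B` be holomorphic of weight `k`, not identically zero, transforming under
the stabiliser of `z` in `Γ₀(N)` trivially.  Then `ellOrder N z ∣ ord_z R - ord_z B`. -/
theorem ellOrder_dvd_ordAt_sub {R B : ℍ → ℂ} {k : ℤ} (hR : MDifferentiable 𝓘(ℂ) 𝓘(ℂ) R)
    (hB : MDifferentiable 𝓘(ℂ) 𝓘(ℂ) B) (hR0 : ∃ τ, R τ ≠ 0) (hB0 : ∃ τ, B τ ≠ 0) {z : ℍ}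
    (hRs : ∀ γ : Gamma0 N, ((γ : SL(2, ℤ))) • z = z → R ∣[k] ((γ : SL(2, ℤ))) = R)
    (hBs : ∀ γ : Gamma0 N, ((γ : SL(2, ℤ))) • z = z → B ∣[k] ((γ : SL(2, ℤ))) = B) :
    (ellOrder N z : ℤ) ∣ ordAt R z - ordAt B z := by
  refine ellOrder_dvd fun γ hγ => ?_
  have h1 := H96.multiplier_at_fixed_point hR hR0 (k := k) hγ (c := 1)
    (by rw [hRs γ hγ]; funext τ; rw [one_mul])
  have h2 := H96.multiplier_at_fixed_point hB hB0 (k := k) hγ (c := 1)
    (by rw [hBs γ hγ]; funext τ; rw [one_mul])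
  have hd : denom ((γ : SL(2, ℤ))) z ≠ 0 := denom_ne_zero _ z
  rw [ordAt_eq, ordAt_eq]
  have e : (2 : ℤ) * ((analyticOrderNatAt (R ∘ UpperHalfPlane.ofComplex) (z : ℂ) : ℤ)
      - (analyticOrderNatAt (B ∘ UpperHalfPlane.ofComplex) (z : ℂ) : ℤ))
      = (-k - 2 * (analyticOrderNatAt (B ∘ UpperHalfPlane.ofComplex) (z : ℂ) : ℤ))
        - (-k - 2 * (analyticOrderNatAt (R ∘ UpperHalfPlane.ofComplex) (z : ℂ) : ℤ)) := by ring
  rw [e, zpow_sub₀ hd, ← h1, ← h2, div_one]

theorem ordAt_pow {R : ℍ → ℂ} (hR : MDifferentiable 𝓘(ℂ) 𝓘(ℂ) R) (hR0 : ∃ τ, R τ ≠ 0) (n : ℕ)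
    (z : ℍ) : ordAt (fun τ => R τ ^ n) z = n * ordAt R z := by
  have han := Fermat.Agent.Lib.NthRoot.analyticOnNhd_comp_ofComplex hR
  have hne := H96.analyticOrderAt_ne_top_of_mdifferentiable hR hR0 z
  have h1 : ((fun τ => R τ ^ n) ∘ UpperHalfPlane.ofComplex)
      = (R ∘ UpperHalfPlane.ofComplex) ^ n := rfl
  unfold ordAt
  rw [h1, analyticOrderAt_pow (han z z.im_pos)]
  obtain ⟨m, hm⟩ := ENat.ne_top_iff_exists.1 hne
  rw [← hm]
  have : (n • (m : ℕ∞)) = ((n * m : ℕ) : ℕ∞) := by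
    rw [nsmul_eq_mul]; push_cast; rfl
  rw [this, ENat.toNat_natCast, ENat.toNat_natCast]
  push_cast; rfl



/-! ## Orders at the cusps -/

/-- **LOC-CUSP** (package of helper96), in the form used here: for a holomorphic function `G`
on `ℍ`, bounded at `i∞`, not identically zero and invariant under `z ↦ z + w` with `w ∣ N`,
the order of the `q_N`-expansion is divisible by `N / w`, and the order of the `q_N`-expansion
of `G ^ n` is `n` times that of `G`. -/
def Stmt_LocCusp : Prop :=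
  ∀ (N w : ℕ), 0 < N → 0 < w → w ∣ N → ∀ G : ℍ → ℂ, MDifferentiable 𝓘(ℂ) 𝓘(ℂ) G →
    IsBoundedAtImInfty G → (∃ τ, G τ ≠ 0) →
    (∀ z : ℍ, G ((ModularGroup.T ^ w : SL(2, ℤ)) • z) = G z) →
    ((N / w : ℕ) ∣ ((UpperHalfPlane.qExpansion (N : ℝ) G).order).toNat) ∧
    ∀ n : ℕ, ((UpperHalfPlane.qExpansion (N : ℝ) (fun z => G z ^ n)).order).toNat
      = n * ((UpperHalfPlane.qExpansion (N : ℝ) G).order).toNat

theorem cuspWidth_spec (N : ℕ) [NeZero N] (σ : SL(2, ℤ)) :
    0 < cuspWidth N σ ∧ σ * ModularGroup.T ^ (cuspWidth N σ) * σ⁻¹ ∈ Gamma0 N := by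
  have hne : {h : ℕ | 0 < h ∧ σ * ModularGroup.T ^ h * σ⁻¹ ∈ Gamma0 N}.Nonempty :=
    ⟨N, NeZero.pos N, conj_T_pow_mem_Gamma0 N σ⟩
  exact Nat.sInf_mem hne

theorem cuspWidth_dvd (N : ℕ) [NeZero N] (σ : SL(2, ℤ)) : cuspWidth N σ ∣ N := by
  have hset : {h : ℕ | 0 < h ∧ σ * ModularGroup.T ^ h * σ⁻¹ ∈ Gamma0 N}
      = {h : ℕ | 0 < h ∧ (σ * ModularGroup.T * σ⁻¹) ^ h ∈ Gamma0 N} := by
    ext h
    simp only [Set.mem_ofPred_eq, conj_pow]
  have hw : 0 < sInf {h : ℕ | 0 < h ∧ (σ * ModularGroup.T * σ⁻¹) ^ h ∈ Gamma0 N} := by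
    rw [← hset]; exact (cuspWidth_spec N σ).1
  have hN : (σ * ModularGroup.T * σ⁻¹) ^ ((N : ℕ) : ℤ) ∈ Gamma0 N := by
    rw [zpow_natCast, conj_pow]
    exact conj_T_pow_mem_Gamma0 N σ
  have := H96.sInf_dvd_of_zpow_mem (Gamma0 N) (σ * ModularGroup.T * σ⁻¹) hw hN
  rw [← hset] at this
  exact Int.natCast_dvd_natCast.1 this


theorem slash_T_pow_apply (G : ℍ → ℂ) (k : ℤ) (w : ℕ) (z : ℍ) :
    (G ∣[k] (ModularGroup.T ^ w : SL(2, ℤ))) z = G ((ModularGroup.T ^ w : SL(2, ℤ)) • z) := by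
  rw [ModularForm.SL_slash_apply]
  have h := denom_T_zpow (w : ℤ) z
  rw [zpow_natCast] at h
  rw [h, one_zpow, mul_one]

/-- **(C)** at a cusp: combination of LOC-CUSP for two functions. -/
theorem cusp_orders (hC : Stmt_LocCusp) {N w : ℕ} (hN : 0 < N) (hw : 0 < w) (hwN : w ∣ N)
    {G H : ℍ → ℂ} (hG : MDifferentiable 𝓘(ℂ) 𝓘(ℂ) G) (hH : MDifferentiable 𝓘(ℂ) 𝓘(ℂ) H)
    (hGb : IsBoundedAtImInfty G) (hHb : IsBoundedAtImInfty H)
    (hG0 : ∃ τ, G τ ≠ 0) (hH0 : ∃ τ, H τ ≠ 0)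
    (hGp : ∀ z : ℍ, G ((ModularGroup.T ^ w : SL(2, ℤ)) • z) = G z)
    (hHp : ∀ z : ℍ, H ((ModularGroup.T ^ w : SL(2, ℤ)) • z) = H z) (n : ℕ) :
    ∃ t : ℤ, (((UpperHalfPlane.qExpansion (N : ℝ) (fun z => G z ^ n)).order).toNat : ℤ)
      - (((UpperHalfPlane.qExpansion (N : ℝ) (fun z => H z ^ n)).order).toNat : ℤ)
      = ((N / w : ℕ) : ℤ) * ((n : ℤ) * t) := by
  obtain ⟨⟨a, ha⟩, hGn⟩ := hC N w hN hw hwN G hG hGb hG0 hGp
  obtain ⟨⟨b, hb⟩, hHn⟩ := hC N w hN hw hwN H hH hHb hH0 hHp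
  refine ⟨(a : ℤ) - b, ?_⟩
  rw [hGn n, hHn n, ha, hb]
  push_cast
  ring

/-! ## EXIST -/

theorem twEis_slash_eq_of_finOrder (hn : n ≠ 0) {φ : Additive (Gamma0 N) →+ ZMod n}
    (hφ : φ ∈ homPE (Gamma0 N) (ZMod n)) {γ : Gamma0 N}
    (hγ : φ (Additive.ofMul γ) = 0) (k : ℤ) :
    twEis N (chiOf hn φ) k ∣[k] ((γ : SL(2, ℤ))) = twEis N (chiOf hn φ) k := by
  rw [twEis_slash (trivialAtInfty_chiOf hn hφ) γ, chiOf_eq_one hn φ hγ]
  funext z
  simp

theorem phi_eq_zero_of_fix {φ : Additive (Gamma0 N) →+ ZMod n}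
    (hφ : φ ∈ homPE (Gamma0 N) (ZMod n)) {z : ℍ} {γ : Gamma0 N}
    (hγ : ((γ : SL(2, ℤ))) • z = z) : φ (Additive.ofMul γ) = 0 := by
  have := finite_stab N z
  have h1 : IsOfFinOrder (⟨γ, hγ⟩ : stab N z) := isOfFinOrder_of_finite _
  have h2 : IsOfFinOrder γ := Submonoid.isOfFinOrder_coe.2 h1
  exact hφ.2 γ h2

theorem trace_sq_conj_T_pow (σ : SL(2, ℤ)) (w : ℕ) :
    ((σ * ModularGroup.T ^ w * σ⁻¹ : SL(2, ℤ)) : Matrix (Fin 2) (Fin 2) ℤ).trace ^ 2 = 4 := by
  have h1 : ((σ * ModularGroup.T ^ w * σ⁻¹ : SL(2, ℤ)) : Matrix (Fin 2) (Fin 2) ℤ)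
      = (σ : Matrix (Fin 2) (Fin 2) ℤ) * ((ModularGroup.T ^ w : SL(2, ℤ)) : Matrix (Fin 2) (Fin 2) ℤ)
        * ((σ⁻¹ : SL(2, ℤ)) : Matrix (Fin 2) (Fin 2) ℤ) := by
    simp [Matrix.SpecialLinearGroup.coe_mul]
  have h2 : ((ModularGroup.T ^ w : SL(2, ℤ)) : Matrix (Fin 2) (Fin 2) ℤ).trace = 2 := by
    have h := ModularGroup.coe_T_zpow (w : ℤ)
    rw [zpow_natCast] at h
    rw [h, Matrix.trace_fin_two_of]
    norm_num
  rw [h1, Matrix.trace_mul_cycle, ← Matrix.SpecialLinearGroup.coe_mul, inv_mul_cancel,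
    Matrix.SpecialLinearGroup.coe_one, Matrix.one_mul, h2]
  norm_num

/-- The twisted Eisenstein series at the cusp `σ∞` is invariant under `z ↦ z + w`. -/
theorem twEis_slash_periodic [NeZero N] (hn : n ≠ 0) {φ : Additive (Gamma0 N) →+ ZMod n}
    (hφ : φ ∈ homPE (Gamma0 N) (ZMod n)) (k : ℤ) (σ : SL(2, ℤ)) (z : ℍ) :
    (twEis N (chiOf hn φ) k ∣[k] σ) ((ModularGroup.T ^ (cuspWidth N σ) : SL(2, ℤ)) • z)
      = (twEis N (chiOf hn φ) k ∣[k] σ) z := by
  set w := cuspWidth N σ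
  have hmem : σ * ModularGroup.T ^ w * σ⁻¹ ∈ Gamma0 N := (cuspWidth_spec N σ).2
  rw [← slash_T_pow_apply (twEis N (chiOf hn φ) k ∣[k] σ) k w z, ← SlashAction.slash_mul]
  have h := twEis_slash_mul (k := k) (trivialAtInfty_chiOf hn hφ) ⟨σ * ModularGroup.T ^ w * σ⁻¹, hmem⟩ σ
  simp only [inv_mul_cancel_right] at h
  rw [h]
  have h0 : φ (Additive.ofMul (⟨σ * ModularGroup.T ^ w * σ⁻¹, hmem⟩ : Gamma0 N)) = 0 :=
    hφ.1 _ (trace_sq_conj_T_pow σ w)
  rw [chiOf_eq_one hn φ h0]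
  simp

theorem qLaurent_ne_zero [NeZero N] {k : ℤ} {A : ModularForm (Gamma0 N) k} (hA : A ≠ 0) :
    qLaurent A ≠ 0 := by
  intro h
  apply hA
  have h1 : UpperHalfPlane.qExpansion 1 A = 0 := by
    apply HahnSeries.ofPowerSeries_injective (Γ := ℤ) (R := ℂ)
    rw [map_zero]
    exact h
  have hper : (1 : ℝ) ∈ (Gamma0 N : Subgroup (GL (Fin 2) ℝ)).strictPeriods := by
    rw [strictPeriods_Gamma0]
    exact AddSubgroup.mem_zmultiples 1
  exact (ModularForm.qExpansion_eq_zero_iff one_pos hper A).1 h1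

/-- **EXIST**: every character in `homPE` is the character of an unramified function. -/
theorem exist_of [NeZero N] (hn : n ≠ 0) (hA2 : Stmt_A2 N)
    (hA5 : Stmt_A5 N) (hC : Stmt_LocCusp) : Stmt_EXIST N n := by
  intro φ hφ
  have hχ : ∀ γ, chiOf hn φ γ ^ n = 1 := chiOf_pow hn φ
  have htri : TrivialAtInfty N (chiOf hn φ) := trivialAtInfty_chiOf hn hφ
  have hu : IsUnitary N (chiOf hn φ) := isUnitary_of_pow_eq_one hn hχ
  have hk : (3 : ℤ) ≤ 4 := by norm_num
  have hk2 : Even (4 : ℤ) := ⟨2, by norm_num⟩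
  -- the trivial character is `chiOf 0`
  have h0 : (0 : Additive (Gamma0 N) →+ ZMod n) ∈ homPE (Gamma0 N) (ZMod n) := zero_mem _
  have hχ0 : ∀ γ, chiOf hn (0 : Additive (Gamma0 N) →+ ZMod n) γ ^ n = 1 := chiOf_pow hn 0
  have htri0 : TrivialAtInfty N (chiOf hn (0 : Additive (Gamma0 N) →+ ZMod n)) :=
    trivialAtInfty_chiOf hn h0
  have hu0 : IsUnitary N (chiOf hn (0 : Additive (Gamma0 N) →+ ZMod n)) :=
    isUnitary_of_pow_eq_one hn hχ0
  set R : ℍ → ℂ := twEis N (chiOf hn φ) 4 with hRdef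
  set B₀ : ℍ → ℂ := twEis N (chiOf hn (0 : Additive (Gamma0 N) →+ ZMod n)) 4 with hBdef
  have hRm : MDifferentiable 𝓘(ℂ) 𝓘(ℂ) R := twEis_mdifferentiable hk hu
  have hBm : MDifferentiable 𝓘(ℂ) 𝓘(ℂ) B₀ := twEis_mdifferentiable hk hu0
  have hR0 : ∃ τ, R τ ≠ 0 := exists_twEis_ne_zero hk hk2 hu htri
  have hB0 : ∃ τ, B₀ τ ≠ 0 := exists_twEis_ne_zero hk hk2 hu0 htri0
  set An := twEisPow N (chiOf hn φ) hk hn hχ htri with hAn
  set Bn := twEisPow N (chiOf hn (0 : Additive (Gamma0 N) →+ ZMod n)) hk hn hχ0 htri0 with hBn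
  have hAn0 : An ≠ 0 := twEisPow_ne_zero hk hk2 hn hχ htri
  have hBn0 : Bn ≠ 0 := twEisPow_ne_zero hk hk2 hn hχ0 htri0
  have h1pow : ∀ γ, chiOf hn (0 : Additive (Gamma0 N) →+ ZMod n) γ ^ 1 = 1 := fun γ => by
    rw [pow_one]; exact chiOf_eq_one hn 0 rfl
  have hAnc : (⇑An : ℍ → ℂ) = fun τ => R τ ^ n := rfl
  have hBnc : (⇑Bn : ℍ → ℂ) = fun τ => B₀ τ ^ n := rfl
  obtain ⟨f, hfB, hf⟩ := hA2 (4 * n) An Bn hBn0
  -- `f ≠ 0`
  have hf0 : f ≠ 0 := by
    intro h
    rw [h] at hf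
    have : qLaurent An = 0 := by
      rw [hf]; simp
    exact qLaurent_ne_zero hAn0 this
  -- orders at all places
  have hunr : ∀ v : Place ℂ (FNL ℂ N), (n : ℤ) ∣ v.ord f := by
    intro v
    rcases hA5 v with ⟨z, hz⟩ | ⟨σ, hσ⟩
    · have h1 := hz f (4 * n) An Bn hf0 ⟨hBn0, hf⟩
      rw [hAnc, hBnc, ordAt_pow hRm hR0, ordAt_pow hBm hB0] at h1
      have hpos := ellOrder_pos N z
      obtain ⟨t, ht⟩ := ellOrder_dvd_ordAt_sub (k := 4) hRm hBm hR0 hB0
        (fun γ hγ => twEis_slash_eq_of_finOrder hn hφ (phi_eq_zero_of_fix hφ hγ) 4)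
        (fun γ hγ => twEis_slash_eq_of_finOrder hn h0 (by simp) 4)
      refine ⟨t, ?_⟩
      have hpos' : ((ellOrder N z : ℕ) : ℤ) ≠ 0 := by exact_mod_cast hpos.ne'
      apply mul_left_cancel₀ hpos'
      rw [← h1, ← mul_sub, ht]
      ring
    · have h1 := hσ f (4 * n) An Bn hf0 ⟨hBn0, hf⟩
      have hw := cuspWidth_spec N σ
      have hwN := cuspWidth_dvd N σ
      have e1 : (⇑An : ℍ → ℂ) ∣[(4 : ℤ) * n] σ = fun z => (R ∣[(4 : ℤ)] σ) z ^ n := by
        rw [hAnc]
        exact pow_slash_SL R 4 n σ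
      have e2 : (⇑Bn : ℍ → ℂ) ∣[(4 : ℤ) * n] σ = fun z => (B₀ ∣[(4 : ℤ)] σ) z ^ n := by
        rw [hBnc]
        exact pow_slash_SL B₀ 4 n σ
      unfold ordCusp at h1
      rw [e1, e2] at h1
      obtain ⟨t, ht⟩ := cusp_orders hC (NeZero.pos N) hw.1 hwN
        (G := R ∣[(4 : ℤ)] σ) (H := B₀ ∣[(4 : ℤ)] σ)
        (hRm.slash 4 _) (hBm.slash 4 _)
        (isBoundedAtImInfty_twEis_slash hk hu σ) (isBoundedAtImInfty_twEis_slash hk hu0 σ)
        (by
          obtain ⟨τ, hτ⟩ := hR0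
          refine ⟨σ⁻¹ • τ, ?_⟩
          rw [ModularForm.SL_slash_apply, smul_inv_smul]
          exact mul_ne_zero hτ (zpow_ne_zero _ (denom_ne_zero _ _)))
        (by
          obtain ⟨τ, hτ⟩ := hB0
          refine ⟨σ⁻¹ • τ, ?_⟩
          rw [ModularForm.SL_slash_apply, smul_inv_smul]
          exact mul_ne_zero hτ (zpow_ne_zero _ (denom_ne_zero _ _)))
        (twEis_slash_periodic hn hφ 4 σ) (twEis_slash_periodic hn h0 4 σ) n
      refine ⟨t, ?_⟩
      have hpos' : (((N / cuspWidth N σ : ℕ)) : ℤ) ≠ 0 := by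
        have : 0 < N / cuspWidth N σ :=
          Nat.div_pos (Nat.le_of_dvd (NeZero.pos N) hwN) hw.1
        exact_mod_cast this.ne'
      apply mul_left_cancel₀ hpos'
      rw [← h1, ht]
  refine ⟨⟨Units.mk0 f hf0, fun v => hunr v⟩, ?_⟩
  -- the character
  refine ⟨4, R, ModularForm.mcast (by simp) (twEisPow N (chiOf hn (0 : Additive (Gamma0 N) →+ ZMod n))
    hk one_ne_zero h1pow htri0), ⟨hRm, ?_, ?_⟩, ?_, ?_⟩
  · intro γ
    rw [twEis_slash htri γ]
    funext z
    rw [coe_chiOf]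
    rfl
  · exact fun σ => isBoundedAtImInfty_twEis_slash hk hu σ
  · rw [Ne, ModularForm.mcast_eq_zero_iff]
    exact twEisPow_ne_zero hk hk2 one_ne_zero h1pow htri0
  · have e : (fun z : ℍ => (ModularForm.mcast (by simp) (twEisPow N
        (chiOf hn (0 : Additive (Gamma0 N) →+ ZMod n)) hk one_ne_zero h1pow htri0) :
          ModularForm (Gamma0 N) 4) z ^ n) = ⇑Bn := by
      funext z
      rw [hBnc]
      show (twEisPow N (chiOf hn (0 : Additive (Gamma0 N) →+ ZMod n)) hk one_ne_zero h1pow htri0) z ^ n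
        = B₀ z ^ n
      rw [twEisPow_apply, pow_one]
    rw [e]
    exact hf

end Fermat.Agent.GTor.H98

end
end
-- ==== END Fermat.Agent.GTor.H98_Exist

-- ==== BEGIN Fermat.Agent.Lib.FrobDensity.H31_FrobSum
section

/-!
# Item 61 (Frobenius density): B3, the number field instance of the counting hypothesis (helper31)

`stmt_FrobSum_of : Stmt_Split → Stmt_NormUnder → Stmt_FibreCard → Stmt_FrobSum`, and the
resulting `stmt_FD_NF_of : Stmt_Split → Stmt_NormUnder → Stmt_FibreCard → Stmt_FD_NF`.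
-/

set_option linter.unusedSectionVars false
set_option linter.style.haveILetI false

namespace Fermat.Agent.Lib.FrobDensity.H31

open NumberField IsDedekindDomain Filter Topology Ideal Fermat.Agent.Lib.ZetaPrimes
open Fermat.Agent.Lib.FrobDensity

section

variable (L : Type) [Field L] [NumberField L] [IsGalois ℚ L]

/-- Two primes of `L` over the same rational prime are both unramified or both ramified. -/
lemma unram_of_under_eq {w w' : HeightOneSpectrum (𝓞 L)}
    (h : w'.asIdeal.under ℤ = w.asIdeal.under ℤ) (hw : Unram L w) : Unram L w' := by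
  have hG : IsGaloisGroup (L ≃ₐ[ℚ] L) ℤ (𝓞 L) := IsGaloisGroup.of_isFractionRing _ _ _ ℚ L
  haveI := w.isPrime
  haveI := w'.isPrime
  haveI : w'.asIdeal.LiesOver (w.asIdeal.under ℤ) := ⟨h.symm⟩
  have key := Ideal.card_inertia_eq_ramificationIdxIn (G := L ≃ₐ[ℚ] L) (w.asIdeal.under ℤ)
    w.asIdeal
  have key' := Ideal.card_inertia_eq_ramificationIdxIn (G := L ≃ₐ[ℚ] L) (w.asIdeal.under ℤ)
    w'.asIdeal
  unfold Unram at hw ⊢
  rw [hw, Subgroup.card_bot] at key
  rw [← key] at key'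
  exact Subgroup.card_eq_one.mp key'

lemma under_int_underK (K : IntermediateField ℚ L) (w : HeightOneSpectrum (𝓞 L)) :
    (underK L K w).asIdeal.under ℤ = w.asIdeal.under ℤ := by
  change (w.asIdeal.under (𝓞 K)).under ℤ = w.asIdeal.under ℤ
  exact Ideal.under_under w.asIdeal

/-- If `v` is not bad, every prime of `L` above `v` is unramified. -/
lemma unram_of_underK_notMem_badSet (K : IntermediateField ℚ L) (w : HeightOneSpectrum (𝓞 L))
    (h : underK L K w ∉ badSet L K) : Unram L w := by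
  by_contra hw
  exact h ⟨w, rfl, hw⟩

/-- If `w` is unramified, the prime of `K` below it is not bad. -/
lemma underK_notMem_badSet (K : IntermediateField ℚ L) (w : HeightOneSpectrum (𝓞 L))
    (hw : Unram L w) : underK L K w ∉ badSet L K := by
  rintro ⟨w', hw', hbad⟩
  apply hbad
  refine unram_of_under_eq L ?_ hw
  rw [← under_int_underK L K w', hw', under_int_underK L K w]

end

/-- **B3**: the number field instance of the hypothesis of the counting lemma. -/
theorem stmt_FrobSum_of (hS : Stmt_Split) (hN : Stmt_NormUnder) (hF : Stmt_FibreCard) :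
    Stmt_FrobSum := by
  classical
  intro L _ _ _ H
  set K : IntermediateField ℚ L := fixK L H with hK
  have hBad : (badSet L K).Finite := badSet_finite L K
  obtain ⟨B, hB⟩ := exists_bound_goodDegOne K hBad
  have hHpos : (0 : ℝ) < (Nat.card H : ℝ) := by exact_mod_cast Nat.card_pos
  refine ⟨(Nat.card H : ℝ) * B, ?_⟩
  have hgt : ∀ᶠ s in 𝓝[>] (1 : ℝ), (1 : ℝ) < s := self_mem_nhdsWithin
  filter_upwards [hB, hgt] with s hs1 hs
  -- the map to the good degree-one primes of `K`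
  have hπ : ∀ w : frobSet L H, underK L K w.1 ∈ goodDegOne K (badSet L K) := by
    rintro ⟨w, hwU, σ, hσH, hσ⟩
    exact ⟨(hS L H w σ hwU hσ).mp hσH, underK_notMem_badSet L K w hwU⟩
  let π : frobSet L H → goodDegOne K (badSet L K) := fun w ↦ ⟨underK L K w.1, hπ w⟩
  let c : frobSet L H → ℝ := fun w ↦ (decompCard L w.1 : ℝ) / (Nat.card H : ℝ)
  let u : goodDegOne K (badSet L K) → ℝ := fun v ↦ (Nat.card H : ℝ) * primeTerm K s v.1
  have hu : Summable u := ((summable_primeTerm K s hs).subtype _).mul_left _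
  have hc0 : ∀ x, 0 ≤ c x := fun x ↦ by positivity
  have hu0 : ∀ y, 0 ≤ u y := fun y ↦ by
    have : 0 ≤ primeTerm K s y.1 := primeTerm_nonneg K s y.1
    positivity
  have hfib : ∀ y, HasSum (fun x : {x // π x = y} ↦ c x) 1 := by
    rintro ⟨v, hvP, hvB⟩
    obtain ⟨F, hFmem, hFsum⟩ := hF L H v hvP hvB
    -- every element of `F` is in `frobSet`
    have hFfrob : ∀ w ∈ F, w ∈ frobSet L H := by
      intro w hw
      have hwv : underK L K w = v := (hFmem w).mp hw
      have hwU : Unram L w := unram_of_underK_notMem_badSet L K w (hwv ▸ hvB)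
      refine ⟨hwU, frobU L ⟨w, hwU⟩, ?_, isArithFrobAt_frobU L ⟨w, hwU⟩⟩
      rw [hS L H w _ hwU (isArithFrobAt_frobU L ⟨w, hwU⟩), hwv]
      exact hvP
    let e : (F : Set (HeightOneSpectrum (𝓞 L))) ≃ {x : frobSet L H // π x = ⟨v, hvP, hvB⟩} :=
      { toFun := fun w ↦ ⟨⟨w.1, hFfrob w.1 w.2⟩, Subtype.ext ((hFmem w.1).mp w.2)⟩
        invFun := fun x ↦ ⟨x.1.1, (hFmem x.1.1).mpr (congrArg Subtype.val x.2)⟩
        left_inv := fun _ ↦ rfl
        right_inv := fun _ ↦ rfl }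
    have h1 : HasSum (fun w : (F : Set (HeightOneSpectrum (𝓞 L))) ↦
        (decompCard L w.1 : ℝ) / (Nat.card H : ℝ))
        (∑ w ∈ F, (decompCard L w : ℝ) / (Nat.card H : ℝ)) :=
      F.hasSum (fun w ↦ (decompCard L w : ℝ) / (Nat.card H : ℝ))
    have h2 : ∑ w ∈ F, (decompCard L w : ℝ) / (Nat.card H : ℝ) = 1 := by
      rw [← Finset.sum_div, ← Nat.cast_sum, hFsum]
      exact div_self hHpos.ne'
    rw [h2] at h1
    exact (e.hasSum_iff (f := fun x : {x : frobSet L H // π x = ⟨v, hvP, hvB⟩} ↦ c x.1)).mp h1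
  have hmain := tsum_fibres π c u hc0 hu0 hu hfib
  have hterm : ∀ w : frobSet L H, c w * u (π w) = FrobDensity.wt L s w.1 := by
    rintro ⟨w, hwU, σ, hσH, hσ⟩
    have hprime := (hS L H w σ hwU hσ).mp hσH
    have hnorm := hN L K w hprime
    change (decompCard L w : ℝ) / (Nat.card H : ℝ) *
      ((Nat.card H : ℝ) * primeTerm K s (underK L K w)) = FrobDensity.wt L s w
    unfold FrobDensity.wt primeTerm
    rw [hnorm]
    field_simp
  have hsum : ∑' w : frobSet L H, FrobDensity.wt L s w.1 =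
      (Nat.card H : ℝ) * ∑' v : goodDegOne K (badSet L K), primeTerm K s v.1 := by
    rw [← tsum_mul_left, ← hmain.tsum_eq]
    exact tsum_congr (fun w ↦ (hterm w).symm)
  rw [hsum, ← mul_sub, abs_mul, abs_of_pos hHpos]
  exact mul_le_mul_of_nonneg_left hs1 hHpos.le

/-- Item 61, number field form, from the three algebraic inputs. -/
theorem stmt_FD_NF_of (hS : Stmt_Split) (hN : Stmt_NormUnder) (hF : Stmt_FibreCard) :
    Stmt_FD_NF :=
  stmt_FD_NF_of_frobSum (stmt_FrobSum_of hS hN hF)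

end Fermat.Agent.Lib.FrobDensity.H31

end
-- ==== END Fermat.Agent.Lib.FrobDensity.H31_FrobSum

-- ==== BEGIN Fermat.Agent.Lib.FrobDensity.H97_Bridge
section

/-!
# Frobenius density: from number fields to valuation subrings of `ℚ̄` (helper97)

`Stmt_FD_NF` (in `Lib/FrobDensity/Defs.lean`) is the number field form of the Frobenius density
theorem (shared item 61):
for `L/ℚ` finite Galois, `g ∈ Gal(L/ℚ)` and a finite set `S` of primes there is a prime `Q` of `L`
over some `ℓ ∉ S`, with trivial inertia group, whose Frobenius generates the same cyclic subgroup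
as `g`.

Main result: `stmt_FD_of_NF : Stmt_FD_NF → Fermat.Agent.R.Stmt_FD`.
-/

set_option autoImplicit false

open NumberField
open scoped Pointwise

noncomputable section

namespace Fermat.Agent.Lib.FrobDensity.H97

attribute [local instance] Fermat.Agent.Lib.FrobIntegers.qbar_isAlgebraic
  Fermat.Agent.Lib.FrobIntegers.qbar_isAlgClosure Fermat.Agent.Lib.FrobIntegers.qbar_isGalois

/-- The Frobenius congruence on elements, from `IsFrobeniusAt`. -/
theorem valuation_frob_sub_pow_lt_one (A : ValuationSubring (AlgebraicClosure ℚ))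
    (σ : AlgebraicClosure ℚ ≃ₐ[ℚ] AlgebraicClosure ℚ) (ℓ : ℕ) (h : A.IsFrobeniusAt σ ℓ)
    (a : AlgebraicClosure ℚ) (ha : a ∈ A) : A.valuation (σ a - a ^ ℓ) < 1 := by
  obtain ⟨hσ, hx⟩ := h
  have h1 := hx (IsLocalRing.residue A ⟨a, ha⟩)
  rw [← IsLocalRing.ResidueField.residue_smul, ← map_pow, ← sub_eq_zero, ← map_sub,
    IsLocalRing.residue_eq_zero_iff, ← ValuationSubring.coe_mem_nonunits_iff,
    A.mem_nonunits_iff] at h1
  exact h1

section Galois

variable (L : IntermediateField ℚ (AlgebraicClosure ℚ)) [NumberField L]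

/-- A valuation subring of `ℚ̄` centred at a given nonzero prime of `𝓞 L`. -/
theorem exists_valuationSubring_center (Q : Ideal (𝓞 L)) [hQ : Q.IsPrime] (hQ0 : Q ≠ ⊥) :
    ∃ B : ValuationSubring (AlgebraicClosure ℚ),
      ∀ x : 𝓞 L, x ∈ Q ↔ B.valuation (algebraMap (𝓞 L) (AlgebraicClosure ℚ) x) < 1 := by
  have hQmax : Q.IsMaximal := hQ.isMaximal hQ0
  set f : 𝓞 L →+* AlgebraicClosure ℚ := algebraMap (𝓞 L) (AlgebraicClosure ℚ) with hf
  have hfinj : Function.Injective f := FaithfulSMul.algebraMap_injective _ _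
  set e : 𝓞 L →+* f.range := f.rangeRestrict with he
  have hesurj : Function.Surjective e := f.rangeRestrict_surjective
  have hI : Q.map e ≠ ⊤ := by
    intro h
    have h1 : (1 : f.range) ∈ Q.map e := by rw [h]; exact Submodule.mem_top
    rw [Ideal.mem_map_iff_of_surjective e hesurj] at h1
    obtain ⟨q, hq, hq1⟩ := h1
    have h2 : f q = 1 := congrArg Subtype.val hq1
    have h3 : q = 1 := hfinj (by rw [h2, map_one])
    exact hQ.ne_top ((Ideal.eq_top_iff_one Q).mpr (h3 ▸ hq))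
  obtain ⟨B, hRB, hIB⟩ := Ideal.image_subset_nonunits_valuationSubring (Q.map e) hI
  have hint : ∀ y : 𝓞 L, B.valuation (f y) ≤ 1 := by
    intro y
    rw [B.valuation_le_one_iff]
    exact hRB ⟨y, rfl⟩
  have hfwd : ∀ x : 𝓞 L, x ∈ Q → B.valuation (f x) < 1 := by
    intro x hx
    rw [← B.mem_nonunits_iff]
    exact hIB ⟨e x, Ideal.mem_map_of_mem e hx, rfl⟩
  refine ⟨B, fun x => ⟨hfwd x, fun hx => ?_⟩⟩
  by_contra hxQ
  obtain ⟨y, i, hi, hyi⟩ := hQmax.exists_inv hxQ
  have h1 : f y * f x + f i = 1 := by rw [← map_mul, ← map_add, hyi, map_one]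
  have h2 : B.valuation (f y * f x) < 1 := by
    rw [map_mul]
    calc B.valuation (f y) * B.valuation (f x) ≤ 1 * B.valuation (f x) :=
          mul_le_mul_left (hint y) _
      _ = B.valuation (f x) := one_mul _
      _ < 1 := hx
  have h3 : B.valuation (f y * f x + f i) < 1 :=
    lt_of_le_of_lt (B.valuation.map_add _ _) (max_lt h2 (hfwd i hi))
  rw [h1, map_one] at h3
  exact lt_irrefl _ h3

omit [NumberField L] in
/-- Algebraic integers of `L` lie in every valuation subring of `ℚ̄`. -/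
theorem algebraMap_mem (B : ValuationSubring (AlgebraicClosure ℚ)) (x : 𝓞 L) :
    algebraMap (𝓞 L) (AlgebraicClosure ℚ) x ∈ B := by
  rw [← B.valuation_le_one_iff]
  apply Fermat.Agent.Lib.FrobExists.valuation_le_one_of_isIntegral
  exact (RingOfIntegers.isIntegral x).map (IsScalarTower.toAlgHom ℤ (𝓞 L) (AlgebraicClosure ℚ))

omit [NumberField L] in
/-- The prime of `ℤ` under a prime `Q` of `𝓞 L` containing `ℓ` has `ℓ` elements in its residue
field. -/
theorem card_quotient_under (Q : Ideal (𝓞 L)) [hQ : Q.IsPrime] (ℓ : ℕ) (hℓ : ℓ.Prime)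
    (hℓQ : (ℓ : 𝓞 L) ∈ Q) : Nat.card (ℤ ⧸ Q.under ℤ) = ℓ := by
  have h1 : Ideal.span {(ℓ : ℤ)} ≤ Q.under ℤ := by
    rw [Ideal.span_singleton_le_iff_mem, Ideal.under, Ideal.mem_comap]
    simpa using hℓQ
  have hmax : (Ideal.span {(ℓ : ℤ)}).IsMaximal :=
    PrincipalIdealRing.isMaximal_of_irreducible
      (Nat.prime_iff_prime_int.mp hℓ).irreducible
  have hne : Q.under ℤ ≠ ⊤ := (inferInstance : (Q.under ℤ).IsPrime).ne_top
  have h2 : Q.under ℤ = Ideal.span {(ℓ : ℤ)} := (hmax.eq_of_le hne h1).symm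
  rw [h2, Nat.card_congr (Int.quotientSpanNatEquivZMod ℓ).toEquiv, Nat.card_zmod]

variable [IsGalois ℚ L]

omit [NumberField L] in
/-- Compatibility of the restriction to `L` with the inclusion `𝓞 L → ℚ̄`. -/
theorem algebraMap_restrict_smul (σ : AlgebraicClosure ℚ ≃ₐ[ℚ] AlgebraicClosure ℚ) (x : 𝓞 L) :
    algebraMap (𝓞 L) (AlgebraicClosure ℚ) ((AlgEquiv.restrictNormalHom L σ) • x) =
      σ (algebraMap (𝓞 L) (AlgebraicClosure ℚ) x) :=
  AlgEquiv.restrictNormal_commutes σ L (x : L)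

omit [NumberField L] in
/-- The restriction to `L` of a Frobenius at a valuation subring `B` of `ℚ̄` centred at `Q` is an
arithmetic Frobenius at `Q`. -/
theorem isArithFrobAt_restrict (Q : Ideal (𝓞 L)) [hQ : Q.IsPrime] (ℓ : ℕ) (hℓ : ℓ.Prime)
    (hℓQ : (ℓ : 𝓞 L) ∈ Q) (B : ValuationSubring (AlgebraicClosure ℚ))
    (hB : ∀ x : 𝓞 L, x ∈ Q ↔ B.valuation (algebraMap (𝓞 L) (AlgebraicClosure ℚ) x) < 1)
    (σ : AlgebraicClosure ℚ ≃ₐ[ℚ] AlgebraicClosure ℚ) (hσ : B.IsFrobeniusAt σ ℓ) :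
    IsArithFrobAt ℤ (AlgEquiv.restrictNormalHom L σ) Q := by
  intro x
  rw [card_quotient_under L Q ℓ hℓ hℓQ, hB]
  show B.valuation (algebraMap (𝓞 L) (AlgebraicClosure ℚ)
    ((AlgEquiv.restrictNormalHom L σ) • x - x ^ ℓ)) < 1
  rw [map_sub, map_pow, algebraMap_restrict_smul]
  exact valuation_frob_sub_pow_lt_one B σ ℓ hσ _ (algebraMap_mem L B x)

/-- **Frobenius density, valuation subring form, for a finite Galois `L ⊆ ℚ̄`.** -/
theorem stmt_FD_galois (hNF : Stmt_FD_NF) (S : Finset ℕ)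
    (g : AlgebraicClosure ℚ ≃ₐ[ℚ] AlgebraicClosure ℚ) :
    ∃ (ℓ : ℕ) (A : ValuationSubring (AlgebraicClosure ℚ))
      (σ : AlgebraicClosure ℚ ≃ₐ[ℚ] AlgebraicClosure ℚ) (j : ℕ),
      ℓ.Prime ∧ ℓ ∉ S ∧ A.LiesOverPrime ℓ ∧ A.IsFrobeniusAt σ ℓ ∧
        ∀ x ∈ L, (σ ^ j) x = g x := by
  obtain ⟨Q, φ, ℓ, hQ, hℓ, hℓS, hℓQ, hin, hφ, hzp⟩ := hNF L (AlgEquiv.restrictNormalHom L g) S
  have hQ0 : Q ≠ ⊥ := by
    intro h
    rw [h, Ideal.mem_bot] at hℓQ
    exact hℓ.ne_zero (Nat.cast_eq_zero.mp hℓQ)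
  obtain ⟨B, hB⟩ := exists_valuationSubring_center L Q hQ0
  have hBℓ : B.LiesOverPrime ℓ := by
    show (ℓ : AlgebraicClosure ℚ) ∈ B.nonunits
    rw [B.mem_nonunits_iff]
    have := (hB _).mp hℓQ
    rwa [map_natCast] at this
  obtain ⟨σ, hσ⟩ := Fermat.Agent.Lib.FrobExists.exists_isFrobeniusAt ℓ hℓ B hBℓ
  have hσ' := isArithFrobAt_restrict L Q ℓ hℓ hℓQ B hB σ hσ
  -- uniqueness of the Frobenius
  have heq : AlgEquiv.restrictNormalHom L σ = φ := by
    have h1 := IsArithFrobAt.mul_inv_mem_inertia hσ' hφ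
    rw [hin, Subgroup.mem_bot] at h1
    exact mul_inv_eq_one.mp h1
  -- `g|L` is a power of `φ`
  have hmem : AlgEquiv.restrictNormalHom L g ∈ Subgroup.zpowers φ := by
    rw [hzp]
    exact Subgroup.mem_zpowers _
  obtain ⟨j, hj⟩ : ∃ j : ℕ, φ ^ j = AlgEquiv.restrictNormalHom L g := by
    have hfin : IsOfFinOrder φ := isOfFinOrder_of_finite φ
    rw [← hfin.mem_powers_iff_mem_zpowers] at hmem
    exact Submonoid.mem_powers_iff _ _ |>.mp hmem
  refine ⟨ℓ, B, σ, j, hℓ, hℓS, hBℓ, hσ, fun x hx => ?_⟩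
  have h2 : AlgEquiv.restrictNormalHom L (σ ^ j) = AlgEquiv.restrictNormalHom L g := by
    rw [map_pow, heq, hj]
  have h3 := AlgEquiv.restrictNormal_commutes (σ ^ j) L ⟨x, hx⟩
  have h4 := AlgEquiv.restrictNormal_commutes g L ⟨x, hx⟩
  have h5 : (σ ^ j).restrictNormal L = g.restrictNormal L := h2
  rw [h5] at h3
  exact h3.symm.trans h4

end Galois

/-- **Frobenius density, division form**, from the number field form. -/
theorem stmt_FD_of_NF (hNF : Stmt_FD_NF) : Fermat.Agent.R.Stmt_FD := by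
  intro S L₀ hfd g
  have : FiniteDimensional ℚ L₀ := hfd
  set L : IntermediateField ℚ (AlgebraicClosure ℚ) :=
    IntermediateField.normalClosure ℚ L₀ (AlgebraicClosure ℚ) with hL
  have hfdL : FiniteDimensional ℚ L := inferInstance
  have hnQ : Normal ℚ (AlgebraicClosure ℚ) := IsGalois.to_normal
  have hnorm : Normal ℚ L := normalClosure.normal ℚ L₀ (AlgebraicClosure ℚ)
  have hnf : NumberField L := { to_charZero := inferInstance, to_finiteDimensional := hfdL }
  have hgal : IsGalois ℚ L := { to_isSeparable := inferInstance, to_normal := hnorm }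
  obtain ⟨ℓ, A, σ, j, h1, h2, h3, h4, h5⟩ := stmt_FD_galois L hNF S g
  exact ⟨ℓ, A, σ, j, h1, h2, h3, h4, fun x hx => h5 x (L₀.le_normalClosure hx)⟩

end Fermat.Agent.Lib.FrobDensity.H97

end
end
-- ==== END Fermat.Agent.Lib.FrobDensity.H97_Bridge

-- ==== BEGIN Fermat.Agent.Lib.HeckeComm.H2_Principle
section

/-!
# COMM (helper2), step (P): additive maps on divisors are determined by principal divisors

`Φ, Ψ : Div(F) → Div(F')` additive with *finite preimage supports* (for every place `w` of `F'`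
only finitely many places `v` of `F` have `Φ(v)(w) ≠ 0`), e.g. composites of push-forwards and
pull-backs.  If `Φ` and `Ψ` agree on principal divisors, then `Φ = Ψ`
(weak approximation: isolate `v` by a function with `ord_v = 1` and `ord = 0` on a finite set).
-/

set_option autoImplicit false
set_option linter.style.haveILetI false
set_option linter.unusedSectionVars false

noncomputable section

namespace Fermat.Agent.Lib.HeckeComm

open AlgebraicCurve

section General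

variable {K F F' F'' : Type*} [Field K] [Field F] [Field F'] [Field F'']
  [Algebra K F] [Algebra K F'] [Algebra K F'']

/-- `Φ` has finite preimage supports. -/
def FinPre (Φ : Divisor K F →+ Divisor K F') : Prop :=
  ∀ w : Place K F', {v : Place K F | Φ (Finsupp.single v 1) w ≠ 0}.Finite

theorem map_single (Φ : Divisor K F →+ Divisor K F') (v : Place K F) (n : ℤ) :
    Φ (Finsupp.single v n) = n • Φ (Finsupp.single v 1) := by
  rw [← map_zsmul, Finsupp.smul_single, smul_eq_mul, mul_one]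

/-- Evaluation of an additive map on divisors. -/
theorem apply_eq_sum (Φ : Divisor K F →+ Divisor K F') (D : Divisor K F) (w : Place K F') :
    Φ D w = ∑ v ∈ D.support, D v * Φ (Finsupp.single v 1) w := by
  conv_lhs => rw [← Finsupp.sum_single D]
  rw [Finsupp.sum, map_sum, Finsupp.finsetSum_apply]
  refine Finset.sum_congr rfl fun v _ => ?_
  rw [map_single, Finsupp.smul_apply, smul_eq_mul]

theorem FinPre.comp {Φ₂ : Divisor K F' →+ Divisor K F''} {Φ₁ : Divisor K F →+ Divisor K F'}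
    (h₂ : FinPre Φ₂) (h₁ : FinPre Φ₁) : FinPre (Φ₂.comp Φ₁) := by
  intro w
  have hfin : (⋃ u ∈ {u : Place K F' | Φ₂ (Finsupp.single u 1) w ≠ 0},
      {v : Place K F | Φ₁ (Finsupp.single v 1) u ≠ 0}).Finite :=
    Set.Finite.biUnion (h₂ w) fun u _ => h₁ u
  refine hfin.subset fun v hv => ?_
  rw [Set.mem_ofPred_eq, AddMonoidHom.comp_apply, apply_eq_sum] at hv
  obtain ⟨u, hu, hne⟩ := Finset.exists_ne_zero_of_sum_ne_zero hv
  rw [Set.mem_iUnion₂]
  refine ⟨u, ?_, ?_⟩
  · exact fun h0 => hne (by rw [h0, mul_zero])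
  · exact fun h0 => hne (by rw [h0, zero_mul])

/-- **The principle.** -/
theorem eq_of_eq_on_principal [HasPrincipalDivisors K F]
    (Φ Ψ : Divisor K F →+ Divisor K F') (hΦ : FinPre Φ) (hΨ : FinPre Ψ)
    (h : ∀ (f : F) (D : Divisor K F), f ≠ 0 → (∀ v, D v = v.ord f) → Φ D = Ψ D) : Φ = Ψ := by
  classical
  apply Finsupp.addHom_ext
  intro v n
  rw [map_single Φ, map_single Ψ]
  congr 1
  apply Finsupp.ext
  intro w
  -- the finite set of places to avoid
  set S : Finset (Place K F) := ((hΦ w).toFinset ∪ (hΨ w).toFinset) ∪ {v} with hS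
  obtain ⟨z, hz0, hz⟩ := Fermat.Agent.RED.H51.exists_ord_eq_family S
    (fun v' => if v' = v then 1 else 0)
  obtain ⟨D, hD, -⟩ := HasPrincipalDivisors.exists_divisor (K := K) z hz0
  have hvS : v ∈ S := by rw [hS]; exact Finset.mem_union_right _ (Finset.mem_singleton_self v)
  have hDv : D v = 1 := by rw [hD v, hz v hvS, if_pos rfl]
  have hDS : ∀ v' ∈ S, v' ≠ v → D v' = 0 := fun v' hv' hne => by
    rw [hD v', hz v' hv', if_neg hne]
  have key : ∀ (Θ : Divisor K F →+ Divisor K F'),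
      {v' : Place K F | Θ (Finsupp.single v' 1) w ≠ 0} ⊆ (S : Set (Place K F)) →
      Θ D w = Θ (Finsupp.single v 1) w := by
    intro Θ hΘ
    rw [apply_eq_sum]
    by_cases hvD : v ∈ D.support
    · rw [Finset.sum_eq_single_of_mem v hvD, hDv, one_mul]
      intro v' _ hne
      by_cases hv' : v' ∈ S
      · rw [hDS v' hv' hne, zero_mul]
      · have : Θ (Finsupp.single v' 1) w = 0 := by
          by_contra h0
          exact hv' (hΘ h0)
        rw [this, mul_zero]
    · exfalso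
      rw [Finsupp.notMem_support_iff, hDv] at hvD
      exact one_ne_zero hvD
  have hΦS : {v' : Place K F | Φ (Finsupp.single v' 1) w ≠ 0} ⊆ (S : Set (Place K F)) := by
    intro v' hv'
    rw [hS]
    exact Finset.mem_coe.mpr (Finset.mem_union_left _ (Finset.mem_union_left _
      ((hΦ w).mem_toFinset.mpr hv')))
  have hΨS : {v' : Place K F | Ψ (Finsupp.single v' 1) w ≠ 0} ⊆ (S : Set (Place K F)) := by
    intro v' hv'
    rw [hS]
    exact Finset.mem_coe.mpr (Finset.mem_union_left _ (Finset.mem_union_right _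
      ((hΨ w).mem_toFinset.mpr hv')))
  rw [← key Φ hΦS, ← key Ψ hΨS, h z D hz0 hD]

end General

section Along

variable {K F F' : Type*} [Field K] [Field F] [Field F'] [Algebra K F] [Algebra K F']

theorem finPre_pullbackAlong [HasPrincipalDivisors K F'] (φ : F →ₐ[K] F')
    (hφ : φ.toRingHom.IsIntegral) : FinPre (Divisor.pullbackAlong φ hφ) := by
  intro w
  refine (Set.finite_singleton (w.restrictAlong φ hφ)).subset fun v hv => ?_
  rw [Set.mem_ofPred_eq, Divisor.pullbackAlong_apply] at hv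
  rw [Set.mem_singleton_iff]
  by_contra hne
  apply hv
  rw [Finsupp.single_eq_of_ne (fun h => hne h.symm), mul_zero]

theorem finPre_pushforwardAlong [HasPrincipalDivisors K F'] (φ : F →ₐ[K] F')
    (hφ : φ.toRingHom.IsIntegral) : FinPre (Divisor.pushforwardAlong φ hφ) := by
  intro v
  have hfin : {w : Place K F' | w.restrictAlong φ hφ = v}.Finite := by
    letI := algebraAlong φ
    haveI := isScalarTower_along φ
    haveI := isIntegral_along φ hφ
    exact Place.restrict_fiber_finite v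
  refine hfin.subset fun w hw => ?_
  rw [Set.mem_ofPred_eq, Divisor.pushforwardAlong_single] at hw
  rw [Set.mem_ofPred_eq]
  by_contra hne
  apply hw
  rw [Finsupp.single_eq_of_ne (fun h => hne h.symm)]

end Along

end Fermat.Agent.Lib.HeckeComm

end
end
-- ==== END Fermat.Agent.Lib.HeckeComm.H2_Principle

-- ==== BEGIN Fermat.Agent.Lib.InertiaBridge
section

/-!
# Bridge between valuation-subring inertia/decomposition groups of `ℚ̄` and the ring `ZBar`
of all algebraic integers (shared library)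

For a valuation subring `A` of `ℚ̄` over a prime `ℓ`, with `Q = primeUnder A` the prime of
`ZBar = integralClosure ℤ ℚ̄` cut out by `A`:

* `mem_decompositionSubgroup_iff` : `σ ∈ A.decompositionSubgroup ℚ ↔ σ • Q = Q`
* `mem_inertiaSubgroupIn_iff` : `σ ∈ A.inertiaSubgroupIn ℚ ↔ ∀ b : ZBar, σ • b - b ∈ Q`
-/

set_option autoImplicit false

open scoped Pointwise

namespace Fermat.Agent.Lib.InertiaBridge

open Fermat.Agent.Lib.FrobExists

/-- Elementwise description of the inertia subgroup of a valuation subring. -/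
theorem mem_inertiaSubgroupIn_iff_forall {K L : Type*} [Field K] [Field L] [Algebra K L]
    (A : ValuationSubring L) (σ : L ≃ₐ[K] L) :
    σ ∈ A.inertiaSubgroupIn K ↔
      σ ∈ A.decompositionSubgroup K ∧ ∀ a : L, a ∈ A → A.valuation (σ a - a) < 1 := by
  constructor
  · rintro ⟨g, hg, rfl⟩
    refine ⟨g.2, fun a ha => ?_⟩
    have h1 : g • (IsLocalRing.residue A ⟨a, ha⟩) = IsLocalRing.residue A ⟨a, ha⟩ := by
      have := MonoidHom.mem_ker.mp hg
      have h2 := congrArg (fun e : RingAut (IsLocalRing.ResidueField A) =>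
        e (IsLocalRing.residue A ⟨a, ha⟩)) this
      exact h2
    rw [← IsLocalRing.ResidueField.residue_smul, ← sub_eq_zero, ← map_sub,
      IsLocalRing.residue_eq_zero_iff, ← ValuationSubring.coe_mem_nonunits_iff,
      A.mem_nonunits_iff] at h1
    exact h1
  · rintro ⟨hdec, h⟩
    refine ⟨⟨σ, hdec⟩, ?_, rfl⟩
    show (⟨σ, hdec⟩ : A.decompositionSubgroup K) ∈ A.inertiaSubgroup K
    rw [ValuationSubring.inertiaSubgroup, MonoidHom.mem_ker]
    ext x
    obtain ⟨a, rfl⟩ := IsLocalRing.residue_surjective x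
    show (⟨σ, hdec⟩ : A.decompositionSubgroup K) • (IsLocalRing.residue A a) =
      IsLocalRing.residue A a
    rw [← IsLocalRing.ResidueField.residue_smul, ← sub_eq_zero, ← map_sub,
      IsLocalRing.residue_eq_zero_iff, ← ValuationSubring.coe_mem_nonunits_iff,
      A.mem_nonunits_iff]
    exact h a a.2

/-- Elementwise description of the decomposition subgroup of a valuation subring. -/
theorem mem_decompositionSubgroup_iff_forall {K L : Type*} [Field K] [Field L] [Algebra K L]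
    (A : ValuationSubring L) (σ : L ≃ₐ[K] L) :
    σ ∈ A.decompositionSubgroup K ↔ ∀ a : L, σ a ∈ A ↔ a ∈ A := by
  rw [MulAction.mem_stabilizer_iff]
  constructor
  · intro h a
    have h1 : σ a ∈ σ • A ↔ a ∈ A := ValuationSubring.smul_mem_pointwise_smul_iff (g := σ)
    rw [h] at h1
    exact h1
  · intro h
    ext x
    rw [ValuationSubring.mem_pointwise_smul_iff_inv_smul_mem, ← h (σ⁻¹ • x)]
    have h2 : σ (σ⁻¹ • x) = x := by
      show σ (σ⁻¹ x) = x
      exact AlgEquiv.apply_symm_apply σ x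
    rw [h2]

/-- An element of the decomposition group preserves the valuation being `< 1`. -/
theorem valuation_map_lt_one_iff {K L : Type*} [Field K] [Field L] [Algebra K L]
    (A : ValuationSubring L) (σ : L ≃ₐ[K] L) (hσ : σ ∈ A.decompositionSubgroup K) (x : L) :
    A.valuation (σ x) < 1 ↔ A.valuation x < 1 := by
  have h := (mem_decompositionSubgroup_iff_forall A σ).mp hσ
  rw [← A.mem_nonunits_iff, ← A.mem_nonunits_iff, A.mem_nonunits_iff_or, A.mem_nonunits_iff_or]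
  have h1 : σ x = 0 ↔ x = 0 := by
    constructor
    · intro hx
      have := congrArg σ.symm hx
      simpa using this
    · intro hx
      rw [hx, map_zero]
  have h2 : (σ x)⁻¹ ∈ A ↔ x⁻¹ ∈ A := by
    rw [← map_inv₀]
    exact h x⁻¹
  rw [h1, h2]

/-- The decomposition group of `A` is the stabiliser of the prime of `ZBar` under `A`. -/
theorem mem_decompositionSubgroup_iff (ℓ : ℕ) (hℓ : ℓ.Prime)
    (A : ValuationSubring (AlgebraicClosure ℚ)) (hA : A.LiesOverPrime ℓ)
    (σ : AlgebraicClosure ℚ ≃ₐ[ℚ] AlgebraicClosure ℚ) :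
    σ ∈ A.decompositionSubgroup ℚ ↔ σ • primeUnder A = primeUnder A := by
  have hA' : (ℓ : AlgebraicClosure ℚ) ∈ A.nonunits := hA
  constructor
  · intro hσ
    have hσ' : σ⁻¹ ∈ A.decompositionSubgroup ℚ := inv_mem hσ
    ext b
    rw [Ideal.mem_pointwise_smul_iff_inv_smul_mem, mem_primeUnder, mem_primeUnder]
    exact valuation_map_lt_one_iff A σ⁻¹ hσ' (b : AlgebraicClosure ℚ)
  · intro hσ
    have key : ∀ τ : AlgebraicClosure ℚ ≃ₐ[ℚ] AlgebraicClosure ℚ,
        τ • primeUnder A = primeUnder A →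
        ∀ b : AlgebraicClosure ℚ, IsIntegral ℤ b → A.valuation b = 1 →
          A.valuation (τ b) = 1 := by
      intro τ hτ b hb hvb
      by_contra h
      have hlt : A.valuation (τ b) < 1 :=
        lt_of_le_of_ne (valuation_le_one_of_isIntegral A _ (map_isIntegral_int τ hb)) h
      have h1 : (τ • (⟨b, hb⟩ : integralClosure ℤ (AlgebraicClosure ℚ))) ∈ primeUnder A := hlt
      rw [← hτ, Ideal.smul_mem_pointwise_smul_iff, mem_primeUnder] at h1
      rw [hvb] at h1
      exact lt_irrefl _ h1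
    have hσinv : σ⁻¹ • primeUnder A = primeUnder A := by
      conv_lhs => rw [← hσ]
      rw [inv_smul_smul]
    have hmap : ∀ a : AlgebraicClosure ℚ, a ∈ A → σ a ∈ A :=
      map_mem_of_units A ℓ hℓ hA' σ (key σ hσ)
    have hmap' : ∀ a : AlgebraicClosure ℚ, a ∈ A → σ⁻¹ a ∈ A :=
      map_mem_of_units A ℓ hℓ hA' σ⁻¹ (key σ⁻¹ hσinv)
    rw [mem_decompositionSubgroup_iff_forall]
    intro a
    constructor
    · intro ha
      have h1 := hmap' _ ha
      have h2 : σ⁻¹ (σ a) = a := AlgEquiv.symm_apply_apply σ a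
      rw [h2] at h1
      exact h1
    · exact hmap a

/-- The inertia group of `A` consists of the automorphisms acting trivially on `ZBar` modulo
the prime under `A`. -/
theorem mem_inertiaSubgroupIn_iff (ℓ : ℕ) (hℓ : ℓ.Prime)
    (A : ValuationSubring (AlgebraicClosure ℚ)) (hA : A.LiesOverPrime ℓ)
    (σ : AlgebraicClosure ℚ ≃ₐ[ℚ] AlgebraicClosure ℚ) :
    σ ∈ A.inertiaSubgroupIn ℚ ↔
      ∀ b : integralClosure ℤ (AlgebraicClosure ℚ), σ • b - b ∈ primeUnder A := by
  have hA' : (ℓ : AlgebraicClosure ℚ) ∈ A.nonunits := hA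
  rw [mem_inertiaSubgroupIn_iff_forall]
  constructor
  · rintro ⟨-, h⟩ b
    exact h (b : AlgebraicClosure ℚ) ((A.valuation_le_one_iff _).mp
      (valuation_le_one_of_isIntegral A _ b.2))
  · intro h
    have hfix : ∀ b : AlgebraicClosure ℚ, IsIntegral ℤ b → A.valuation (σ b - b) < 1 :=
      fun b hb => h ⟨b, hb⟩
    -- σ stabilises the prime
    have hstab : σ • primeUnder A = primeUnder A := by
      ext b
      rw [Ideal.mem_pointwise_smul_iff_inv_smul_mem, mem_primeUnder, mem_primeUnder]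
      have h1 := h (σ⁻¹ • b)
      rw [mem_primeUnder] at h1
      have h2 : ((σ • (σ⁻¹ • b) - σ⁻¹ • b : integralClosure ℤ (AlgebraicClosure ℚ)) :
          AlgebraicClosure ℚ) = (b : AlgebraicClosure ℚ) -
            ((σ⁻¹ • b : integralClosure ℤ (AlgebraicClosure ℚ)) : AlgebraicClosure ℚ) := by
        rw [smul_inv_smul]
        rfl
      rw [h2] at h1
      constructor
      · intro hb
        have h3 : (b : AlgebraicClosure ℚ) =
            ((b : AlgebraicClosure ℚ) -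
              ((σ⁻¹ • b : integralClosure ℤ (AlgebraicClosure ℚ)) : AlgebraicClosure ℚ)) +
            ((σ⁻¹ • b : integralClosure ℤ (AlgebraicClosure ℚ)) : AlgebraicClosure ℚ) := by ring
        rw [h3]
        exact lt_of_le_of_lt (A.valuation.map_add _ _) (max_lt h1 hb)
      · intro hb
        have h3 : ((σ⁻¹ • b : integralClosure ℤ (AlgebraicClosure ℚ)) : AlgebraicClosure ℚ) =
            (b : AlgebraicClosure ℚ) - ((b : AlgebraicClosure ℚ) -
              ((σ⁻¹ • b : integralClosure ℤ (AlgebraicClosure ℚ)) : AlgebraicClosure ℚ)) := by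
          ring
        rw [h3]
        exact lt_of_le_of_lt (A.valuation.map_sub _ _) (max_lt hb h1)
    have hdec : σ ∈ A.decompositionSubgroup ℚ :=
      (mem_decompositionSubgroup_iff ℓ hℓ A hA σ).mpr hstab
    refine ⟨hdec, fun a ha => ?_⟩
    obtain ⟨y, s, hy, hs, hvs, hays⟩ :=
      exists_integral_frac A ℓ hℓ hA' a ha (isAlgebraic_int_qbar _)
    have hvσs : A.valuation (σ s) = 1 := by
      have h1 : σ s = s + (σ s - s) := by ring
      rw [h1, A.valuation.map_add_eq_of_lt_left (by rw [hvs]; exact hfix s hs)]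
      exact hvs
    have hvy : A.valuation y ≤ 1 := valuation_le_one_of_isIntegral A _ hy
    have hid : (σ a - a) * (σ s * s) = (σ y - y) * s - y * (σ s - s) := by
      have e1 : σ y = σ a * σ s := by rw [← hays, map_mul]
      rw [e1, ← hays]
      ring
    have hv1 : A.valuation ((σ y - y) * s) < 1 := by
      rw [map_mul, hvs, mul_one]
      exact hfix y hy
    have hv2 : A.valuation (y * (σ s - s)) < 1 := by
      rw [map_mul]
      calc A.valuation y * A.valuation (σ s - s)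
          ≤ 1 * A.valuation (σ s - s) := mul_le_mul_left hvy _
        _ = A.valuation (σ s - s) := one_mul _
        _ < 1 := hfix s hs
    have hv3 : A.valuation ((σ a - a) * (σ s * s)) < 1 := by
      rw [hid]
      exact lt_of_le_of_lt (A.valuation.map_sub _ _) (max_lt hv1 hv2)
    rw [map_mul, map_mul, hvσs, hvs, mul_one, mul_one] at hv3
    exact hv3

end Fermat.Agent.Lib.InertiaBridge

end
-- ==== END Fermat.Agent.Lib.InertiaBridge

-- ==== BEGIN Fermat.Agent.R.H2_PDVRStmt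
section

/-!
# Cluster R, leaf L3b in the exact form `Fermat.Agent.R.Stmt_PDVR` (helper2)
-/

set_option autoImplicit false
set_option linter.style.haveILetI false

open IsLocalRing

namespace Fermat.Agent.R.H2

/-- A maximal ideal of a ring finite over `ℤ` contains a prime number. -/
theorem exists_prime_mem_of_isMaximal (R : Type) [CommRing R] [Module.Finite ℤ R]
    (P : Ideal R) [P.IsMaximal] : ∃ p : ℕ, p.Prime ∧ (p : R) ∈ P := by
  haveI : Algebra.IsIntegral ℤ R := Algebra.IsIntegral.of_finite ℤ R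
  have hmax : (P.comap (algebraMap ℤ R)).IsMaximal :=
    Ideal.isMaximal_comap_of_isIntegral_of_isMaximal (R := ℤ) P
  -- a maximal ideal of `ℤ` is generated by a prime
  obtain ⟨g, hg⟩ : ∃ g : ℤ, P.comap (algebraMap ℤ R) = Ideal.span {g} :=
    ⟨_, (Ideal.span_singleton_generator _).symm⟩
  have hg0 : g ≠ 0 := by
    rintro rfl
    rw [Ideal.span_singleton_eq_bot.mpr rfl] at hg
    rw [hg] at hmax
    have h2 : (Ideal.span {(2 : ℤ)} : Ideal ℤ) ≠ ⊤ := by
      rw [Ne, Ideal.span_singleton_eq_top]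
      exact Int.isUnit_iff.not.mpr (by norm_num)
    have h3 := hmax.eq_of_le h2 bot_le
    have h4 : (2 : ℤ) ∈ (⊥ : Ideal ℤ) := by rw [h3]; exact Ideal.subset_span rfl
    simp at h4
  have hgp : Prime g := by
    have hprime : (Ideal.span {g} : Ideal ℤ).IsPrime := hg ▸ hmax.isPrime
    exact (Ideal.span_singleton_prime hg0).mp hprime
  refine ⟨g.natAbs, Int.prime_iff_natAbs_prime.mp hgp, ?_⟩
  have hmem : g ∈ P.comap (algebraMap ℤ R) := by rw [hg]; exact Ideal.subset_span rfl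
  have h1 : ((g : ℤ) : R) ∈ P := by simpa using hmem
  rcases Int.natAbs_eq g with h | h
  · have : ((g.natAbs : ℤ) : R) ∈ P := by rw [← h]; exact h1
    simpa using this
  · have : ((g.natAbs : ℤ) : R) ∈ P := by
      have h2 : (g.natAbs : ℤ) = -g := by omega
      rw [h2, Int.cast_neg]
      exact P.neg_mem h1
    simpa using this

/-- **L3b** in the exact form of `Fermat.Agent.R.Stmt_PDVR`. -/
theorem stmt_PDVR : Fermat.Agent.R.Stmt_PDVR := by
  intro R _ _ _ _ P _
  obtain ⟨p, hp, hpP⟩ := exists_prime_mem_of_isMaximal R P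
  haveI : Fact p.Prime := ⟨hp⟩
  obtain ⟨O', iCR, iD, iDVR, iAC, iFin, iCZ, -, -, i, hinj, hcomap, -⟩ := exists_pDVR p R P hpP
  exact ⟨O', iCR, iD, iDVR, iAC, iFin, iCZ, i, hinj, hcomap⟩

end Fermat.Agent.R.H2

end
-- ==== END Fermat.Agent.R.H2_PDVRStmt
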