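-- GENERATED (merged mirror, NOTES/tools/trim/merge3_helper67.py): 12 modules of the originals, bodies verbatim.
import Mathlib
import Fermat.Prelude.Def_ModularCurve_X0ModL
import Mathlib.RingTheory.LaurentSeries
import Mathlib.RingTheory.RootsOfUnity.PrimitiveRoots
import Fermat.Prelude.Def_EllipticCurve_FrobeniusTrace
import Fermat.Prelude.Def_ModularCurve_GenusNumerics
import Fermat.Agent.Zm.S35_L01_002
import Fermat.Agent.Zm.S35_L01_005
import Fermat.Agent.Zm.S35_L01_003
import Fermat.Agent.S20.H74_Defs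
import Fermat.Agent.S20.H89_Perm

-- ==== BEGIN Fermat.Agent.RED.H51_Det
section

/-!
# FF-B, piece P8b (helper51): determinants modulo the maximal ideal of a place

`det_cong`: a matrix with entries integral at `v` which is, modulo the maximal ideal, lower
triangular inside blocks and zero outside of the diagonal blocks, has determinant congruent to
the product of its diagonal entries.
-/

set_option autoImplicit false
set_option linter.style.haveILetI false

noncomputable section

open AlgebraicCurve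

namespace Fermat.Agent.RED.H51

variable {K F : Type*} [Field K] [Field F] [Algebra K F]

theorem ordGe_prod {ι : Type*} (v : Place K F) (s : Finset ι) (a : ι → F)
    (h : ∀ i ∈ s, OrdGe v 0 (a i)) : OrdGe v 0 (∏ i ∈ s, a i) := by
  classical
  induction s using Finset.induction_on with
  | empty => simpa using ordGe_one v
  | insert x s hx ih =>
    rw [Finset.prod_insert hx]
    have := (h x (Finset.mem_insert_self x s)).mul
      (ih fun i hi => h i (Finset.mem_insert_of_mem hi))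
    simpa using this

/-- A product of integral elements, one of which is divisible, is divisible. -/
theorem ordGe_prod_of_mem {ι : Type*} (v : Place K F) (s : Finset ι) (a : ι → F)
    (h : ∀ i ∈ s, OrdGe v 0 (a i)) {i₀ : ι} (hi₀ : i₀ ∈ s) (h1 : OrdGe v 1 (a i₀)) :
    OrdGe v 1 (∏ i ∈ s, a i) := by
  classical
  rw [← Finset.mul_prod_erase s a hi₀]
  have := h1.mul (ordGe_prod v (s.erase i₀) a fun i hi => h i (Finset.mem_of_mem_erase hi))
  simpa using this

/-- Products of congruent integral elements are congruent. -/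
theorem ordGe_prod_sub_prod {ι : Type*} (v : Place K F) (s : Finset ι) (a a' : ι → F)
    (h : ∀ i ∈ s, OrdGe v 0 (a i)) (h' : ∀ i ∈ s, OrdGe v 1 (a' i - a i)) :
    OrdGe v 1 (∏ i ∈ s, a' i - ∏ i ∈ s, a i) := by
  classical
  induction s using Finset.induction_on with
  | empty => simp
  | insert x s hx ih =>
    rw [Finset.prod_insert hx, Finset.prod_insert hx]
    have hs : ∀ i ∈ s, OrdGe v 0 (a i) := fun i hi => h i (Finset.mem_insert_of_mem hi)
    have hs' : ∀ i ∈ s, OrdGe v 1 (a' i - a i) := fun i hi => h' i (Finset.mem_insert_of_mem hi)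
    have hx0 : OrdGe v 0 (a x) := h x (Finset.mem_insert_self x s)
    have hx1 : OrdGe v 1 (a' x - a x) := h' x (Finset.mem_insert_self x s)
    have ha' : ∀ i ∈ s, OrdGe v 0 (a' i) := fun i hi => by
      have h1 : a' i = a i + (a' i - a i) := by ring
      rw [h1]
      exact (hs i hi).add ((hs' i hi).mono (by omega))
    have hdecomp : a' x * ∏ i ∈ s, a' i - a x * ∏ i ∈ s, a i
        = (a' x - a x) * ∏ i ∈ s, a' i + a x * (∏ i ∈ s, a' i - ∏ i ∈ s, a i) := by ring
    rw [hdecomp]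
    refine OrdGe.add ?_ ?_
    · have := hx1.mul (ordGe_prod v s a' ha')
      simpa using this
    · have := hx0.mul (ih hs hs')
      simpa using this

/-- A permutation which does not decrease a rank function is the identity; here in the form
needed for determinants. -/
theorem exists_of_perm_ne_one {I β : Type*} [Fintype I] (blk : I → β) (rk : I → ℕ)
    (σ : Equiv.Perm I) (hσ : σ ≠ 1) :
    ∃ i, σ i ≠ i ∧ (blk (σ i) ≠ blk i ∨ rk (σ i) ≤ rk i) := by
  classical
  by_contra hcon
  push Not at hcon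
  apply hσ
  have hle : ∀ i, rk i ≤ rk (σ i) := by
    intro i
    by_cases hi : σ i = i
    · rw [hi]
    · exact (hcon i hi).2.le
  have hsum : ∑ i, rk (σ i) = ∑ i, rk i := Equiv.sum_comp σ rk
  ext i
  by_contra hi
  have hi' : σ i ≠ i := hi
  have : ∑ i, rk i < ∑ i, rk (σ i) :=
    Finset.sum_lt_sum (fun i _ => hle i) ⟨i, Finset.mem_univ i, (hcon i hi').2⟩
  omega

/-- The determinant of a matrix which is block lower triangular modulo the maximal ideal of `v`
is congruent to the product of the diagonal entries. -/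
theorem det_cong {I β : Type*} [Fintype I] [DecidableEq I] (v : Place K F) (blk : I → β)
    (rk : I → ℕ) (M : Matrix I I F) (d : I → F)
    (h0 : ∀ i j, OrdGe v 0 (M i j))
    (h1 : ∀ i j, i ≠ j → (blk i ≠ blk j ∨ rk i ≤ rk j) → OrdGe v 1 (M i j))
    (h2 : ∀ i, OrdGe v 1 (M i i - d i)) (hd : ∀ i, OrdGe v 0 (d i)) :
    OrdGe v 1 (M.det - ∏ i, d i) := by
  rw [Matrix.det_apply', ← Finset.add_sum_erase Finset.univ _ (Finset.mem_univ (1 : Equiv.Perm I))]
  have hone : ((((Equiv.Perm.sign (1 : Equiv.Perm I) : ℤˣ) : ℤ) : F)) *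
      ∏ i, M ((1 : Equiv.Perm I) i) i = ∏ i, M i i := by
    simp
  rw [hone, add_sub_right_comm]
  refine OrdGe.add (ordGe_prod_sub_prod v Finset.univ d (fun i => M i i) (fun i _ => hd i)
    fun i _ => h2 i) ?_
  refine ordGe_sum v 1 _ _ fun σ hσ => ?_
  have hσ1 : σ ≠ 1 := Finset.ne_of_mem_erase hσ
  obtain ⟨i, hi, hcase⟩ := exists_of_perm_ne_one blk rk σ hσ1
  have hprod : OrdGe v 1 (∏ i', M (σ i') i') :=
    ordGe_prod_of_mem v Finset.univ (fun i' => M (σ i') i') (fun i' _ => h0 _ _)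
      (Finset.mem_univ i) (h1 (σ i) i hi hcase)
  rcases Int.units_eq_one_or (Equiv.Perm.sign σ) with hs | hs
  · rw [hs]
    simpa using hprod
  · rw [hs]
    simpa using hprod.neg

/-- The order of a finite product. -/
theorem ord_prod {ι : Type*} (v : Place K F) (s : Finset ι) (a : ι → F)
    (h : ∀ i ∈ s, a i ≠ 0) : v.ord (∏ i ∈ s, a i) = ∑ i ∈ s, v.ord (a i) := by
  classical
  induction s using Finset.induction_on with
  | empty => simp
  | insert x s hx ih =>
    rw [Finset.prod_insert hx, Finset.sum_insert hx,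
      v.ord_mul (h x (Finset.mem_insert_self x s))
        (Finset.prod_ne_zero_iff.mpr fun i hi => h i (Finset.mem_insert_of_mem hi)),
      ih fun i hi => h i (Finset.mem_insert_of_mem hi)]

/-- An integral element has a value in the residue field `K`, at a place of degree one. -/
theorem exists_value (v : Place K F) (hdeg : v.deg = 1) {h : F} (hh : OrdGe v 0 h) :
    ∃ c : K, OrdGe v 1 (h - algebraMap K F c) := by
  have hmem : h ∈ v.toValuationSubring := (ordGe_zero_iff_mem v h).mp hh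
  have hbij : Function.Bijective (algebraMap K v.ResidueField) :=
    Algebra.finrank_eq_one_iff_bijective_algebraMap.mp hdeg
  obtain ⟨c, hc⟩ := hbij.2 (IsLocalRing.residue v.toValuationSubring ⟨h, hmem⟩)
  refine ⟨c, ?_⟩
  set a : v.toValuationSubring := ⟨h, hmem⟩ - algebraMap K v.toValuationSubring c with ha
  have hres : IsLocalRing.residue v.toValuationSubring a = 0 := by
    rw [ha, map_sub, ← hc]
    exact sub_eq_zero.mpr rfl
  have hnu : ¬ IsUnit a := (IsLocalRing.residue_eq_zero_iff _).mp hres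
  have hcoe : (a : F) = h - algebraMap K F c := rfl
  rw [← hcoe]
  by_contra hcon
  apply hnu
  rw [← v.adicValuation_coe_eq_one_iff]
  have ha0 : (a : F) ≠ 0 := fun h0 => hcon (Or.inl h0)
  have h0 : 0 ≤ v.ord (a : F) := ((ordGe_zero_iff_mem v _).mpr a.2).le ha0
  have h1 : ¬ (1 ≤ v.ord (a : F)) := fun h1 => hcon (Or.inr h1)
  have h2 : v.ord (a : F) = 0 := by omega
  rw [v.adicValuation_eq_exp_neg_ord ha0, h2, neg_zero, WithZero.exp_zero]

end Fermat.Agent.RED.H51

end
end
-- ==== END Fermat.Agent.RED.H51_Det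

-- ==== BEGIN Fermat.Agent.RED.H73_GAData
section

/-!
# G-RED package GA (helper73): the conjugate data over an arbitrary field `L`

`CADataL L N` is the analogue of `Fermat.Agent.S28.CAData N` (which lives over `ℂ`) over a field
`L` (in the application `L = ℚ̄`), with the two extra properties of
`Fermat.Agent.S28.H30.exists_caData_strong`.  `t = q^(1/N)`.

`Stmt_CAL` : such data exist over `ℚ̄` (transfer from `ℂ`).
-/

set_option autoImplicit false

open ModularCurve

noncomputable section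

namespace Fermat.Agent.RED.H73

/-- The coefficient ring `ℤ[ζ_N, 1/N] ⊂ L`. -/
def coeffRingL (L : Type) [Field L] (N : ℕ) : Subring L :=
  Subring.closure ({z : L | z ^ N = 1} ∪ {(N : L)⁻¹})

/-- The `t`-expansions over `L` of the conjugates `u ∘ γ_q`, `j(d γ_q z)` over the cosets `q` of
`Γ₀(N)` in `SL₂(ℤ)`. -/
structure CADataL (L : Type) [Field L] (N : ℕ) [NeZero N] where
  Q : Type
  instFintype : Fintype Q
  q₀ : Q
  D : ℕ
  D_pos : 0 < D
  U : Q → LaurentSeries L
  X : ℕ → Q → LaurentSeries L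
  U_coeff : ∀ q n, (U q).coeff n ∈ coeffRingL L N
  U_ne : ∀ q, U q ≠ 0
  U_lead : ∀ q, ((U q).leadingCoeff)⁻¹ ∈ coeffRingL L N
  U_order₀ : (U q₀).order = -((D : ℤ) * (N : ℤ))
  U_order_pos : ∀ q, q ≠ q₀ → 0 < (U q).order
  X_coeff : ∀ d q n, d ∣ N → (X d q).coeff n ∈ coeffRingL L N
  X_q₀ : ∀ (d : ℕ) [NeZero d], d ∣ N → X d q₀ = qExpand L N (qExpand L d (jqModC L))
  X_top : ∀ q, q ≠ q₀ → (X N q).coeff (-(N : ℤ) ^ 2) = 0
  sym : ∀ d : ℕ, d ∣ N → ∀ c s : L,
    (∏ q, (HahnSeries.C c - U q - HahnSeries.C s * X d q)) ∈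
      Algebra.adjoin L ({qExpand L N (jqModC L)} : Set (LaurentSeries L))

attribute [instance] CADataL.instFintype

/-- **Transfer**: the conjugate data exist over `ℚ̄`. -/
def Stmt_CAL : Prop :=
  ∀ (N : ℕ) [NeZero N], Nonempty (CADataL (AlgebraicClosure ℚ) N)

end Fermat.Agent.RED.H73

end
end
-- ==== END Fermat.Agent.RED.H73_GAData

-- ==== BEGIN Fermat.Agent.RED.H82_RootRed
section

/-!
# G-RED leaf IG-P1: reduction of roots over a valuation ring (helper82)

`O` a valuation ring of an algebraically closed field `C`, `res : O → k` the residue map,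
`D ∈ O[X]` with nonzero reduction.  Then `D = u · ∏ (X - r_i) · ∏ (1 - s_j X)` with `u` a unit,
`r_i ∈ O`, `s_j` non-units; so the roots of the reduction are the reductions of the roots of `D`
lying in `O`, with multiplicities.  We prove this by induction on the degree, splitting off one
factor at a time.
-/

set_option autoImplicit false

noncomputable section

open Polynomial

namespace Fermat.Agent.RED.H82

variable {Cf k : Type} [Field Cf] [IsAlgClosed Cf] [Field k] (O : ValuationSubring Cf)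

/-- Splitting off one linear factor: either `X - r` with `r ∈ O`, or `1 - s X` with `s` a nonzero
non-unit of `O`. -/
theorem exists_factor (D : Polynomial ↥O) (hdeg : 0 < D.natDegree) :
    (∃ (r : ↥O) (D₁ : Polynomial ↥O), D = (X - C r) * D₁) ∨
    (∃ (s : ↥O) (D₁ : Polynomial ↥O), ¬ IsUnit s ∧ s ≠ 0 ∧ D = (1 - C s * X) * D₁) := by
  classical
  have hinj : Function.Injective (O.subtype : ↥O →+* Cf) := Subtype.val_injective
  set Dc : Polynomial Cf := D.map O.subtype with hDc
  have hDcdeg : Dc.degree ≠ 0 := by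
    rw [hDc, Polynomial.degree_map_eq_of_injective hinj]
    intro h
    have h' : D.natDegree = 0 := Polynomial.natDegree_eq_of_degree_eq_some h
    omega
  obtain ⟨r, hr⟩ := IsAlgClosed.exists_root Dc hDcdeg
  by_cases hrO : r ∈ O
  · left
    refine ⟨⟨r, hrO⟩, D /ₘ (X - C ⟨r, hrO⟩), ?_⟩
    symm
    rw [Polynomial.mul_divByMonic_eq_iff_isRoot]
    have h1 : (D.map O.subtype).eval (O.subtype ⟨r, hrO⟩) = 0 := hr
    rw [Polynomial.eval_map, Polynomial.eval₂_at_apply] at h1
    have h2 : O.subtype (D.eval ⟨r, hrO⟩) = O.subtype 0 := by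
      rw [h1, map_zero]
    exact hinj h2
  · right
    have hr0 : r ≠ 0 := fun h => hrO (h ▸ zero_mem _)
    have hsO : r⁻¹ ∈ O := (O.mem_or_inv_mem r).resolve_left hrO
    set s : ↥O := ⟨r⁻¹, hsO⟩ with hs
    have hs0 : s ≠ 0 := by
      intro h
      have : (s : Cf) = 0 := by rw [h]; rfl
      exact inv_ne_zero hr0 this
    have hsnu : ¬ IsUnit s := by
      intro hu
      obtain ⟨t, ht⟩ := hu.exists_right_inv
      have h1 : (s : Cf) * (t : Cf) = 1 := by
        have := congrArg (fun x : ↥O => (x : Cf)) ht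
        simpa using this
      have h2 : (t : Cf) = r := by
        have : r⁻¹ * (t : Cf) = 1 := h1
        field_simp at this
        exact this
      exact hrO (h2 ▸ t.2)
    -- the cofactor over `C`
    set E : Polynomial Cf := Dc /ₘ (X - C r) with hE
    have hDE : (X - C r) * E = Dc := Polynomial.mul_divByMonic_eq_iff_isRoot.mpr hr
    obtain ⟨D₁c, hD₁c⟩ : ∃ p : Polynomial Cf, p = C (-r) * E := ⟨_, rfl⟩
    have hfac : (1 - C (r⁻¹) * X) * D₁c = Dc := by
      rw [← hDE, hD₁c]
      have : (1 - C (r⁻¹) * X) * (C (-r) * E) = ((1 - C (r⁻¹) * X) * C (-r)) * E := by ring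
      rw [this]
      congr 1
      have h1 : (C (r⁻¹) : Polynomial Cf) * C r = 1 := by
        rw [← C_mul, inv_mul_cancel₀ hr0, C_1]
      calc (1 - C (r⁻¹) * X) * C (-r) = -(C r) + (C (r⁻¹) * C r) * X := by
            rw [C_neg]; ring
        _ = X - C r := by rw [h1]; ring
    -- coefficients of the cofactor lie in `O`
    have hcoef : ∀ n, D₁c.coeff n ∈ O := by
      intro n
      induction n with
      | zero =>
        have h := congrArg (fun p => Polynomial.coeff p 0) hfac
        simp only [Polynomial.mul_coeff_zero, Polynomial.coeff_sub, Polynomial.coeff_one_zero,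
          Polynomial.coeff_X_zero, mul_zero, sub_zero, one_mul] at h
        rw [h, hDc, Polynomial.coeff_map]
        exact (D.coeff 0).2
      | succ n ih =>
        have h := congrArg (fun p => Polynomial.coeff p (n + 1)) hfac
        have h2 : ((1 - C (r⁻¹) * X) * D₁c).coeff (n + 1) =
            D₁c.coeff (n + 1) - r⁻¹ * D₁c.coeff n := by
          rw [sub_mul, one_mul, Polynomial.coeff_sub, mul_assoc, Polynomial.coeff_C_mul,
            Polynomial.coeff_X_mul]
        simp only [h2] at h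
        have h3 : D₁c.coeff (n + 1) = Dc.coeff (n + 1) + r⁻¹ * D₁c.coeff n := by
          rw [← h]; ring
        rw [h3]
        refine O.add_mem _ _ ?_ (O.mul_mem _ _ hsO ih)
        rw [hDc, Polynomial.coeff_map]
        exact (D.coeff (n + 1)).2
    have hlift : D₁c ∈ Polynomial.lifts (O.subtype : ↥O →+* Cf) := by
      rw [Polynomial.lifts_iff_coeff_lifts]
      intro n
      exact ⟨⟨D₁c.coeff n, hcoef n⟩, rfl⟩
    obtain ⟨D₁, hD₁⟩ := hlift
    rw [Polynomial.coe_mapRingHom] at hD₁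
    refine ⟨s, D₁, hsnu, hs0, ?_⟩
    apply Polynomial.map_injective _ hinj
    rw [Polynomial.map_mul, hD₁]
    show Dc = _
    rw [← hfac]
    congr 1
    simp only [Polynomial.map_sub, Polynomial.map_one, Polynomial.map_mul, Polynomial.map_C,
      Polynomial.map_X]
    rfl


variable (res : ↥O →+* k)

theorem rootRed_aux (hker : ∀ a : ↥O, res a = 0 ↔ ¬ IsUnit a) :
    ∀ (n : ℕ) (D : Polynomial ↥O), D.natDegree = n → D.map res ≠ 0 →
      (∀ γ : k, (D.map res).IsRoot γ → ∃ ρ : ↥O, res ρ = γ ∧ D.IsRoot ρ) ∧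
      (∀ ρ : ↥O, (∀ ρ' : ↥O, res ρ' = res ρ → D.IsRoot ρ' → ρ' = ρ) →
        (D.map res).rootMultiplicity (res ρ) = D.rootMultiplicity ρ) := by
  classical
  intro n
  induction n using Nat.strong_induction_on with
  | _ n ih =>
  intro D hn hD
  have hD0 : D ≠ 0 := fun h => hD (by rw [h, Polynomial.map_zero])
  by_cases hdeg : 0 < D.natDegree
  · rcases exists_factor O D hdeg with ⟨r, D₁, hfac⟩ | ⟨s, D₁, hsnu, hs0, hfac⟩
    · -- `D = (X - C r) * D₁`
      have hD₁0 : D₁ ≠ 0 := right_ne_zero_of_mul (hfac ▸ hD0)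
      have hmap : D.map res = (X - C (res r)) * D₁.map res := by
        rw [hfac]; simp
      have hD₁map : D₁.map res ≠ 0 := right_ne_zero_of_mul (hmap ▸ hD)
      have hdeg₁ : D₁.natDegree < n := by
        rw [← hn, hfac, Polynomial.natDegree_mul (Polynomial.X_sub_C_ne_zero r) hD₁0,
          Polynomial.natDegree_X_sub_C]
        omega
      obtain ⟨ih1, ih2⟩ := ih _ hdeg₁ D₁ rfl hD₁map
      have hroot : ∀ ρ' : ↥O, D₁.IsRoot ρ' → D.IsRoot ρ' := by
        intro ρ' h
        rw [hfac]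
        exact Polynomial.root_mul_left_of_isRoot _ h
      have hrroot : D.IsRoot r := by
        rw [hfac]
        exact Polynomial.root_mul_right_of_isRoot _ (Polynomial.root_X_sub_C.mpr rfl)
      constructor
      · intro γ hγ
        rw [hmap, Polynomial.IsRoot.def, Polynomial.eval_mul, mul_eq_zero] at hγ
        rcases hγ with h | h
        · refine ⟨r, ?_, hrroot⟩
          simp only [Polynomial.eval_sub, Polynomial.eval_X, Polynomial.eval_C] at h
          exact (sub_eq_zero.mp h).symm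
        · obtain ⟨ρ, hρ, hρr⟩ := ih1 γ h
          exact ⟨ρ, hρ, hroot ρ hρr⟩
      · intro ρ huniq
        have h2 := ih2 ρ (fun ρ' h1 h2 => huniq ρ' h1 (hroot ρ' h2))
        have e1 : (D.map res).rootMultiplicity (res ρ) =
            (X - C (res r) : Polynomial k).rootMultiplicity (res ρ) +
              (D₁.map res).rootMultiplicity (res ρ) := by
          rw [hmap]
          exact Polynomial.rootMultiplicity_mul (hmap ▸ hD)
        have e2 : D.rootMultiplicity ρ =
            (X - C r : Polynomial ↥O).rootMultiplicity ρ + D₁.rootMultiplicity ρ := by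
          conv_lhs => rw [hfac]
          exact Polynomial.rootMultiplicity_mul (hfac ▸ hD0)
        rw [e1, e2, h2, Polynomial.rootMultiplicity_X_sub_C, Polynomial.rootMultiplicity_X_sub_C]
        congr 1
        by_cases hρr : ρ = r
        · rw [if_pos hρr, if_pos (by rw [hρr])]
        · have : res ρ ≠ res r := fun h => hρr (huniq r h.symm hrroot).symm
          rw [if_neg hρr, if_neg this]
    · -- `D = (1 - C s * X) * D₁`
      have hD₁0 : D₁ ≠ 0 := right_ne_zero_of_mul (hfac ▸ hD0)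
      have hs : res s = 0 := (hker s).mpr hsnu
      have hmap : D.map res = D₁.map res := by
        rw [hfac]; simp [hs]
      have hD₁map : D₁.map res ≠ 0 := hmap ▸ hD
      have hlin0 : (1 - C s * X : Polynomial ↥O) ≠ 0 := left_ne_zero_of_mul (hfac ▸ hD0)
      have hlindeg : (1 - C s * X : Polynomial ↥O).natDegree = 1 := by
        have h1 : (1 - C s * X : Polynomial ↥O) = C (-s) * X + C 1 := by
          rw [C_neg, C_1]; ring
        rw [h1]
        exact Polynomial.natDegree_linear (neg_ne_zero.mpr hs0)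
      have hdeg₁ : D₁.natDegree < n := by
        rw [← hn, hfac, Polynomial.natDegree_mul hlin0 hD₁0, hlindeg]
        omega
      obtain ⟨ih1, ih2⟩ := ih _ hdeg₁ D₁ rfl hD₁map
      have hroot : ∀ ρ' : ↥O, D₁.IsRoot ρ' → D.IsRoot ρ' := by
        intro ρ' h
        rw [hfac]
        exact Polynomial.root_mul_left_of_isRoot _ h
      constructor
      · intro γ hγ
        rw [hmap] at hγ
        obtain ⟨ρ, hρ, hρr⟩ := ih1 γ hγ
        exact ⟨ρ, hρ, hroot ρ hρr⟩
      · intro ρ huniq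
        have h2 := ih2 ρ (fun ρ' h1 h2 => huniq ρ' h1 (hroot ρ' h2))
        have e2 : D.rootMultiplicity ρ =
            (1 - C s * X : Polynomial ↥O).rootMultiplicity ρ + D₁.rootMultiplicity ρ := by
          conv_lhs => rw [hfac]
          exact Polynomial.rootMultiplicity_mul (hfac ▸ hD0)
        have e3 : (1 - C s * X : Polynomial ↥O).rootMultiplicity ρ = 0 := by
          apply Polynomial.rootMultiplicity_eq_zero
          rw [Polynomial.IsRoot.def]
          simp only [Polynomial.eval_sub, Polynomial.eval_one, Polynomial.eval_mul,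
            Polynomial.eval_C, Polynomial.eval_X]
          intro h
          -- `1 = s ρ` would make `s` a unit
          apply hsnu
          exact IsUnit.of_mul_eq_one ρ (sub_eq_zero.mp h).symm
        rw [hmap, h2, e2, e3, zero_add]
  · -- degree zero
    have hdeg0 : D.natDegree = 0 := by omega
    obtain ⟨d, hd⟩ : ∃ d : ↥O, D = C d := ⟨_, Polynomial.eq_C_of_natDegree_eq_zero hdeg0⟩
    have hmap : D.map res = C (res d) := by rw [hd]; simp
    have hd0 : res d ≠ 0 := by
      intro h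
      apply hD
      rw [hmap, h, C_0]
    constructor
    · intro γ hγ
      rw [hmap, Polynomial.IsRoot.def, Polynomial.eval_C] at hγ
      exact absurd hγ hd0
    · intro ρ _
      rw [hmap, hd, Polynomial.rootMultiplicity_C, Polynomial.rootMultiplicity_C]

/-- **IG-P1**: reduction of roots. -/
theorem stmt_rootRed : H34.Stmt_rootRed := by
  intro Cf k _ _ _ O res _ hker D hD γ hγ
  obtain ⟨h1, h2⟩ := rootRed_aux O res hker D.natDegree D rfl hD
  obtain ⟨ρ, hρ, hρr⟩ := h1 γ hγ
  refine ⟨ρ, hρ, hρr, fun huniq => ?_⟩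
  have := h2 ρ (fun ρ' h1' h2' => huniq ρ' (h1'.trans hρ) h2')
  rw [hρ] at this
  exact this

end Fermat.Agent.RED.H82

end
end
-- ==== END Fermat.Agent.RED.H82_RootRed

-- ==== BEGIN Fermat.Agent.RED.H82_TameDiscr
section

/-!
# G-RED package IG-P2 (helper82): the tame discriminant bound `Stmt_tameDiscr`

`R` a PID, `B` the integral closure of `R` in a finite separable extension `L` of `K = Frac R`,
`c` an `R`-basis of `B` (`n` elements), `π` a prime of `R` of residue characteristic `0`.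
Then `ord_π disc(c) ≤ n - r`, `r` the number of maximal ideals of `B` containing `π`.
(The residue-degree hypothesis of the statement is not used.)

Proof.  Let `J` be the radical of `π B`.
* `h82_F1`: if `π ∣ Tr(z b)` for all `b` then `z ∈ J` (matrices over the residue field of
  characteristic zero: vanishing traces of all positive powers force nilpotency).
* `h82_F2`: if `π ^ 2 ∣ Tr(y w)` for all `w ∈ J` then `π ∣ y` (descending induction on `J ^ i`,
  using that `B` is integrally closed).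
* Smith normal form of the trace pairing `B → Rⁿ`: a basis `b'` of `B` and a basis `bM` of `Rⁿ`
  with `Tr(b'_i ·) = a_i • bM_i`, so `disc = unit * ∏ a_i`.  By `F2` no `a_i` is divisible by
  `π ^ 2`; by `F1` the `b'_i` with `π ∣ a_i` lie in `J`, and there are at most `n - r` of them
  (`h82_count`).
-/

namespace Fermat.Agent.RED.H82

open Polynomial

/-- The trace of `aeval M (X * r)` vanishes when the traces of all positive powers vanish. -/
theorem h82_trace_aeval_X_mul {κ ι : Type*} [Field κ] [Fintype ι] [DecidableEq ι]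
    (M : Matrix ι ι κ) (h : ∀ k : ℕ, (M ^ (k + 1)).trace = 0) (r : κ[X]) :
    (aeval M (X * r)).trace = 0 := by
  induction r using Polynomial.induction_on' with
  | add p q hp hq => rw [mul_add, map_add, Matrix.trace_add, hp, hq, add_zero]
  | monomial n a =>
    have : (X : κ[X]) * monomial n a = monomial (n + 1) a := by
      rw [← C_mul_X_pow_eq_monomial, ← C_mul_X_pow_eq_monomial, pow_succ]; ring
    rw [this, aeval_monomial, ← Algebra.smul_def, Matrix.trace_smul, h, smul_zero]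

/-- Over a field of characteristic zero, a square matrix all of whose positive powers have
trace zero is nilpotent. -/
theorem h82_isNilpotent_of_trace_pow {κ ι : Type*} [Field κ] [CharZero κ] [Fintype ι]
    [DecidableEq ι] (M : Matrix ι ι κ) (h : ∀ k : ℕ, (M ^ (k + 1)).trace = 0) :
    IsNilpotent M := by
  have hint : IsIntegral κ M := Algebra.IsIntegral.isIntegral M
  have hp0 : minpoly κ M ≠ 0 := minpoly.ne_zero hint
  obtain ⟨q, hq, hXq⟩ :=
    Polynomial.exists_eq_pow_rootMultiplicity_mul_and_not_dvd (minpoly κ M) hp0 0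
  set m := (minpoly κ M).rootMultiplicity 0 with hm
  rw [C_0, sub_zero] at hq hXq
  have hq0 : q.coeff 0 ≠ 0 := fun h0 => hXq (X_dvd_iff.mpr h0)
  set r : κ[X] := C (-(q.coeff 0)⁻¹) * q.divX with hr
  set P : κ[X] := X * r with hP
  -- X^m * (P - 1) = - C q₀⁻¹ * minpoly
  have key : X ^ m * (P - 1) = C (-(q.coeff 0)⁻¹) * minpoly κ M := by
    have aux : ∀ (D : κ[X]) (c0 : κ), c0 ≠ 0 →
        X ^ m * (X * (C (-c0⁻¹) * D) - 1) = C (-c0⁻¹) * (X ^ m * (D * X + C c0)) := by
      intro D c0 hc0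
      have hC : C (-c0⁻¹) * C c0 = (-1 : κ[X]) := by
        rw [← C_mul, neg_mul, inv_mul_cancel₀ hc0]; simp
      have : C (-c0⁻¹) * (X ^ m * (D * X + C c0))
          = X ^ m * (X * (C (-c0⁻¹) * D)) + X ^ m * (C (-c0⁻¹) * C c0) := by
        ring
      rw [this, hC]; ring
    rw [hP, hr, aux q.divX (q.coeff 0) hq0, divX_mul_X_add, ← hq]
  have hdiv1 : minpoly κ M ∣ X ^ (m + 1) * (P - 1) := by
    have : X ^ (m + 1) * (P - 1) = X * (X ^ m * (P - 1)) := by ring
    rw [this, key]
    exact (Dvd.intro_left _ rfl).mul_left _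
  set Q : κ[X] := P ^ (m + 1) with hQ
  have hPQ : P - 1 ∣ Q - 1 := by
    have := sub_dvd_pow_sub_pow P 1 (m + 1)
    rwa [one_pow] at this
  have hdiv2 : minpoly κ M ∣ X ^ (m + 1) * (Q - 1) :=
    hdiv1.trans (mul_dvd_mul_left _ hPQ)
  have hdiv3 : minpoly κ M ∣ Q * Q - Q := by
    have : Q * Q - Q = r ^ (m + 1) * (X ^ (m + 1) * (Q - 1)) := by
      rw [hQ, hP]; ring
    rw [this]
    exact hdiv2.mul_left _
  set e : Matrix ι ι κ := aeval M Q with he
  have hee : e * e = e := by
    have := minpoly.dvd_iff.mp hdiv3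
    rw [map_sub, map_mul, sub_eq_zero] at this
    exact this
  have hMe : M ^ (m + 1) * e = M ^ (m + 1) := by
    have := minpoly.dvd_iff.mp hdiv2
    rw [map_mul, map_sub, map_pow, aeval_X, map_one, mul_sub, mul_one, sub_eq_zero] at this
    exact this
  have htr : e.trace = 0 := by
    have : Q = X * (X ^ m * r ^ (m + 1)) := by rw [hQ, hP]; ring
    rw [he, this]
    exact h82_trace_aeval_X_mul M h _
  -- idempotent of trace zero vanishes
  have he0 : e = 0 := by
    have hid : IsIdempotentElem (Matrix.toLin' e) := by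
      unfold IsIdempotentElem
      rw [Module.End.mul_eq_comp, ← Matrix.toLin'_mul, hee]
    have htr' : LinearMap.trace κ (ι → κ) (Matrix.toLin' e) = 0 := by
      rw [LinearMap.trace_eq_matrix_trace κ (Pi.basisFun κ ι), LinearMap.toMatrix_eq_toMatrix',
        LinearMap.toMatrix'_toLin', htr]
    have := LinearMap.IsIdempotentElem.eq_zero_of_trace_eq_zero hid htr'
    exact Matrix.toLin'.injective (by rw [this, map_zero])
  refine ⟨m + 1, ?_⟩
  rw [← hMe, he0, mul_zero]


section F1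

variable {R B ι : Type*} [CommRing R] [IsDomain R] [IsPrincipalIdealRing R] [CommRing B]
  [Algebra R B] [Fintype ι] [DecidableEq ι]

/-- Coordinatewise divisibility implies divisibility. -/
theorem h82_dvd_of_repr (c : Module.Basis ι R B) (π : R) (x : B)
    (h : ∀ i, π ∣ c.repr x i) : algebraMap R B π ∣ x := by
  choose t ht using h
  refine ⟨∑ i, t i • c i, ?_⟩
  conv_lhs => rw [← c.sum_repr x]
  rw [Finset.mul_sum]
  refine Finset.sum_congr rfl fun i _ => ?_
  rw [ht i, mul_smul, Algebra.smul_def π]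

/-- Divisibility implies coordinatewise divisibility. -/
theorem h82_repr_dvd (c : Module.Basis ι R B) (π : R) (x : B)
    (h : algebraMap R B π ∣ x) (i : ι) : π ∣ c.repr x i := by
  obtain ⟨y, rfl⟩ := h
  rw [← Algebra.smul_def, map_smul]
  exact ⟨c.repr y i, by simp⟩

theorem h82_dvd_smul (π : R) (r : R) (x : B) (h : algebraMap R B π ∣ x) :
    algebraMap R B π ∣ r • x := by
  rw [Algebra.smul_def]; exact h.mul_left _

/-- **F1**: an element whose trace form against everything is divisible by `π` is nilpotent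
modulo `π` (residue characteristic zero). -/
theorem h82_F1 (c : Module.Basis ι R B) (π : R) (hπ : Prime π)
    (hchar : ∀ m : ℕ, m ≠ 0 → ¬ π ∣ (m : R)) (z : B)
    (hz : ∀ b : B, π ∣ Algebra.trace R B (z * b)) : ∃ k, algebraMap R B π ∣ z ^ k := by
  haveI hmax : (Ideal.span {π}).IsMaximal :=
    PrincipalIdealRing.isMaximal_of_irreducible hπ.irreducible
  letI := Ideal.Quotient.field (Ideal.span {π})
  haveI : CharZero (R ⧸ Ideal.span {π}) := charZero_of_inj_zero (by
    intro n hn
    by_contra h0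
    apply hchar n h0
    have : (Ideal.Quotient.mk (Ideal.span {π})) (n : R) = 0 := by
      rw [map_natCast]; exact hn
    rwa [Ideal.Quotient.eq_zero_iff_mem, Ideal.mem_span_singleton] at this)
  set φ : B →+* Matrix ι ι (R ⧸ Ideal.span {π}) :=
    (Ideal.Quotient.mk (Ideal.span {π})).mapMatrix.comp (Algebra.leftMulMatrix c).toRingHom
    with hφ
  have hφa : ∀ x : B, ∀ i j, φ x i j = Ideal.Quotient.mk (Ideal.span {π}) (c.repr (x * c j) i) := by
    intro x i j
    simp [hφ, Algebra.leftMulMatrix_eq_repr_mul]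
  have htr : ∀ x : B, (φ x).trace = Ideal.Quotient.mk (Ideal.span {π}) (Algebra.trace R B x) := by
    intro x
    rw [Algebra.trace_eq_matrix_trace c, AddMonoidHom.map_trace]; rfl
  have hnil : IsNilpotent (φ z) := by
    apply h82_isNilpotent_of_trace_pow
    intro k
    rw [← map_pow, htr, pow_succ', Ideal.Quotient.eq_zero_iff_mem, Ideal.mem_span_singleton]
    exact hz _
  obtain ⟨k, hk⟩ := hnil
  refine ⟨k, ?_⟩
  rw [← map_pow] at hk
  have hent : ∀ i j, π ∣ c.repr (z ^ k * c j) i := by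
    intro i j
    have := congrFun (congrFun hk i) j
    rw [hφa, Matrix.zero_apply, Ideal.Quotient.eq_zero_iff_mem, Ideal.mem_span_singleton] at this
    exact this
  have h1 : ∀ j, algebraMap R B π ∣ z ^ k * c j :=
    fun j => h82_dvd_of_repr c π _ (fun i => hent i j)
  have : z ^ k = ∑ j, c.repr 1 j • (z ^ k * c j) := by
    conv_lhs => rw [← mul_one (z ^ k), ← c.sum_repr 1, Finset.mul_sum]
    refine Finset.sum_congr rfl fun j _ => ?_
    rw [mul_smul_comm]
  rw [this]
  exact Finset.dvd_sum fun j _ => h82_dvd_smul π _ _ (h1 j)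

end F1

section F2

variable {R L ι : Type*} [CommRing R] [IsDomain R] [IsPrincipalIdealRing R] [Field L]
  [Algebra R L] [Fintype ι] [DecidableEq ι]

/-- The radical of `π B`. -/
def h82J (R L : Type*) [CommRing R] [Field L] [Algebra R L] (π : R) :
    Ideal ↥(integralClosure R L) :=
  (Ideal.span {algebraMap R ↥(integralClosure R L) π}).radical

theorem h82_mem_J (π : R) (w : ↥(integralClosure R L)) :
    w ∈ h82J R L π ↔ ∃ k, algebraMap R ↥(integralClosure R L) π ∣ w ^ k := by
  unfold h82J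
  constructor
  · rintro ⟨k, hk⟩
    exact ⟨k, Ideal.mem_span_singleton.mp hk⟩
  · rintro ⟨k, hk⟩
    exact ⟨k, Ideal.mem_span_singleton.mpr hk⟩

/-- The integrality step of F2. -/
theorem h82_F2_step (hinj : Function.Injective (algebraMap R L))
    (c : Module.Basis ι R ↥(integralClosure R L)) (π : R) (hπ : Prime π)
    (hchar : ∀ m : ℕ, m ≠ 0 → ¬ π ∣ (m : R)) (y : ↥(integralClosure R L))
    (hy : ∀ w ∈ h82J R L π, π ^ 2 ∣ Algebra.trace R ↥(integralClosure R L) (y * w))
    (I : Ideal ↥(integralClosure R L))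
    (hI : ∀ u ∈ I, ∀ w ∈ h82J R L π, algebraMap R ↥(integralClosure R L) π ∣ y * (u * w))
    (u : ↥(integralClosure R L)) (hu : u ∈ I) :
    algebraMap R ↥(integralClosure R L) π ∣ y * u := by
  have hπ0 : π ≠ 0 := hπ.ne_zero
  have hπL : algebraMap R L π ≠ 0 := fun h => hπ0 (hinj (by rw [h, map_zero]))
  haveI : Module.Finite R ↥(integralClosure R L) := Module.Finite.of_basis c
  haveI hnoeth : IsNoetherian R ↥(integralClosure R L) :=
    isNoetherian_of_isNoetherianRing_of_finite R _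
  -- the submodule N
  set N : Submodule R L :=
    Submodule.map ((integralClosure R L).val.toLinearMap) ((h82J R L π).restrictScalars R)
    with hN
  have hNmem : ∀ n : L, n ∈ N ↔ ∃ w ∈ h82J R L π, (w : L) = n := by
    intro n
    rw [hN, Submodule.mem_map]
    rfl
  have hπJ : algebraMap R ↥(integralClosure R L) π ∈ h82J R L π :=
    (h82_mem_J π _).mpr ⟨1, by rw [pow_one]⟩
  have hNbot : N ≠ ⊥ := by
    intro h
    have : algebraMap R L π ∈ N := (hNmem _).mpr ⟨_, hπJ, rfl⟩
    rw [h, Submodule.mem_bot] at this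
    exact hπL this
  have hNfg : N.FG := (IsNoetherian.noetherian _).map _
  set x : L := (algebraMap R L π)⁻¹ * ((y * u : ↥(integralClosure R L)) : L) with hx
  have hxN : ∀ n ∈ N, x • n ∈ N := by
    intro n hn
    obtain ⟨w, hw, rfl⟩ := (hNmem n).mp hn
    obtain ⟨v, hv⟩ := hI u hu w hw
    have hvJ : v ∈ h82J R L π := by
      rw [h82_mem_J]
      apply h82_F1 c π hπ hchar
      intro b
      have huwb : u * w * b ∈ h82J R L π :=
        Ideal.mul_mem_right _ _ (Ideal.mul_mem_left _ _ hw)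
      obtain ⟨s, hs⟩ := hy _ huwb
      have h1 : π * Algebra.trace R ↥(integralClosure R L) (v * b) = π * (π * s) := by
        rw [← smul_eq_mul, ← map_smul, Algebra.smul_def, ← mul_assoc, ← hv,
          show y * (u * w) * b = y * (u * w * b) by ring, hs]
        ring
      exact ⟨s, mul_left_cancel₀ hπ0 h1⟩
    refine (hNmem _).mpr ⟨v, hvJ, ?_⟩
    have hv' : ((y * u : ↥(integralClosure R L)) : L) * (w : L) = algebraMap R L π * (v : L) := by
      have := congrArg (fun z : ↥(integralClosure R L) => (z : L)) hv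
      simpa [mul_assoc] using this
    rw [smul_eq_mul, hx, mul_assoc, hv', inv_mul_cancel_left₀ hπL]
  have hxint : IsIntegral R x := isIntegral_of_smul_mem_submodule N hNbot hNfg x hxN
  refine ⟨⟨x, hxint⟩, ?_⟩
  apply Subtype.ext
  show ((y * u : ↥(integralClosure R L)) : L) = algebraMap R L π * x
  rw [hx, mul_inv_cancel_left₀ hπL]

/-- **F2**: an element whose trace form against the radical `J` of `π B` is divisible by `π ^ 2`
is divisible by `π`. -/
theorem h82_F2 (hinj : Function.Injective (algebraMap R L))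
    (c : Module.Basis ι R ↥(integralClosure R L)) (π : R) (hπ : Prime π)
    (hchar : ∀ m : ℕ, m ≠ 0 → ¬ π ∣ (m : R)) (y : ↥(integralClosure R L))
    (hy : ∀ w ∈ h82J R L π, π ^ 2 ∣ Algebra.trace R ↥(integralClosure R L) (y * w)) :
    algebraMap R ↥(integralClosure R L) π ∣ y := by
  haveI : Module.Finite R ↥(integralClosure R L) := Module.Finite.of_basis c
  haveI hnoeth : IsNoetherian R ↥(integralClosure R L) :=
    isNoetherian_of_isNoetherianRing_of_finite R _
  haveI : IsNoetherianRing ↥(integralClosure R L) := isNoetherian_of_tower R hnoeth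
  obtain ⟨m, hm⟩ := Ideal.exists_radical_pow_le_of_fg
    (Ideal.span {algebraMap R ↥(integralClosure R L) π}) (IsNoetherian.noetherian _)
  have hP : ∀ j, j ≤ m → ∀ u ∈ (h82J R L π) ^ (m - j),
      algebraMap R ↥(integralClosure R L) π ∣ y * u := by
    intro j
    induction j with
    | zero =>
      intro _ u hu
      have := hm hu
      rw [Ideal.mem_span_singleton] at this
      exact this.mul_left y
    | succ j ih =>
      intro hj u hu
      have ih' := ih (by omega)
      have hmj : m - j = (m - (j + 1)) + 1 := by omega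
      rw [hmj] at ih'
      refine h82_F2_step hinj c π hπ hchar y hy _ ?_ u hu
      intro u' hu' w hw
      apply ih'
      rw [pow_succ]
      exact Ideal.mul_mem_mul hu' hw
  have := hP m le_rfl 1 (by simp)
  rwa [mul_one] at this

end F2

section Prod

variable {R ι : Type*} [CommRing R] [IsDomain R] [DecidableEq ι]

open Classical in
/-- If no factor is divisible by `π ^ 2`, the order of `π` in a product is at most the number of
factors divisible by `π`. -/
theorem h82_pow_dvd_prod (π : R) (hπ : Prime π) (a : ι → R) (ha : ∀ i, ¬ π ^ 2 ∣ a i)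
    (s : Finset ι) : ∀ k : ℕ, π ^ k ∣ ∏ i ∈ s, a i → k ≤ (s.filter (fun i => π ∣ a i)).card := by
  classical
  induction s using Finset.induction_on with
  | empty =>
    intro k hk
    rcases Nat.eq_zero_or_pos k with h0 | h0
    · simp [h0]
    · exfalso
      rw [Finset.prod_empty] at hk
      exact hπ.not_isUnit (isUnit_of_dvd_one ((dvd_pow_self π h0.ne').trans hk))
  | insert i s his ih =>
    intro k hk
    rw [Finset.prod_insert his] at hk
    by_cases hi : π ∣ a i
    · rw [Finset.filter_insert, if_pos hi, Finset.card_insert_of_notMem (by simp [his])]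
      rcases Nat.eq_zero_or_pos k with h0 | h0
      · omega
      · obtain ⟨k', rfl⟩ : ∃ k', k = k' + 1 := ⟨k - 1, by omega⟩
        obtain ⟨a', ha'⟩ := hi
        have hna' : ¬ π ∣ a' := by
          rintro ⟨a'', rfl⟩
          exact ha i ⟨a'', by rw [ha']; ring⟩
        have h1 : π ^ k' ∣ a' * ∏ i ∈ s, a i := by
          rw [ha', pow_succ', mul_assoc] at hk
          exact (mul_dvd_mul_iff_left hπ.ne_zero).mp hk
        have h2 := hπ.pow_dvd_of_dvd_mul_left k' hna' h1
        have := ih k' h2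
        omega
    · rw [Finset.filter_insert, if_neg hi]
      exact ih k (hπ.pow_dvd_of_dvd_mul_left k hi hk)

end Prod

section Count

variable {R B ι : Type*} [CommRing R] [IsDomain R] [IsPrincipalIdealRing R] [CommRing B]
  [Algebra R B] [Fintype ι] [DecidableEq ι]

/-- Counting: basis vectors that are nilpotent modulo `π`, plus maximal ideals over `π`, number at
most the rank. -/
theorem h82_count (b' : Module.Basis ι R B) (π : R) (hπ : Prime π) (T : Finset ι)
    (hT : ∀ i ∈ T, ∃ k, algebraMap R B π ∣ (b' i) ^ k)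
    (Ps : Finset (Ideal B)) (hPs : ∀ P ∈ Ps, P.IsMaximal ∧ algebraMap R B π ∈ P) :
    T.card + Ps.card ≤ Fintype.card ι := by
  classical
  haveI hmax : (Ideal.span {π}).IsMaximal :=
    PrincipalIdealRing.isMaximal_of_irreducible hπ.irreducible
  letI := Ideal.Quotient.field (Ideal.span {π})
  -- the elements ε_P
  have hε : ∀ P ∈ Ps, ∃ ε : B, ε ∉ P ∧ ∀ P' ∈ Ps, P' ≠ P → ε ∈ P' := by
    intro P hP
    have hnle : ¬ (∏ P' ∈ Ps.erase P, P') ≤ P := by
      intro hle
      obtain ⟨P', hP', hle'⟩ := ((hPs P hP).1.isPrime.prod_le).mp hle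
      have hP'mem := Finset.mem_erase.mp hP'
      exact hP'mem.1 ((hPs P' hP'mem.2).1.eq_of_le (hPs P hP).1.ne_top hle')
    obtain ⟨ε, hε1, hε2⟩ := SetLike.not_le_iff_exists.mp hnle
    refine ⟨ε, hε2, fun P' hP' hne => ?_⟩
    have h1 : (∏ P'' ∈ Ps.erase P, P'') ≤ P' :=
      Ideal.prod_le_inf.trans (Finset.inf_le (Finset.mem_erase.mpr ⟨hne, hP'⟩))
    exact h1 hε1
  choose! ε hε1 hε2 using hε
  -- the family of vectors
  set v : Ps → ((↥(Tᶜ : Finset ι)) → R ⧸ Ideal.span {π}) :=
    fun P j => Ideal.Quotient.mk (Ideal.span {π}) (b'.repr (ε P.1) j.1) with hv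
  have hli : LinearIndependent (R ⧸ Ideal.span {π}) v := by
    rw [Fintype.linearIndependent_iff]
    intro g hg P₀
    -- lift g
    have hsurj := Ideal.Quotient.mk_surjective (I := Ideal.span {π})
    choose β hβ using fun P => hsurj (g P)
    set x : B := ∑ P : Ps, β P • ε P.1 with hx
    have hxc : ∀ j ∉ T, π ∣ b'.repr x j := by
      intro j hj
      have := congrFun hg ⟨j, Finset.mem_compl.mpr hj⟩
      rw [Finset.sum_apply] at this
      simp only [Pi.smul_apply, hv, smul_eq_mul, Pi.zero_apply] at this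
      rw [← Ideal.mem_span_singleton, ← Ideal.Quotient.eq_zero_iff_mem, hx, map_sum,
        Finsupp.coe_finsetSum, Finset.sum_apply, map_sum, ← this]
      refine Finset.sum_congr rfl fun P _ => ?_
      rw [map_smul, Finsupp.smul_apply, smul_eq_mul, map_mul, hβ]
    -- x lies in every P ∈ Ps
    have hxP : ∀ P ∈ Ps, x ∈ P := by
      intro P hP
      rw [← b'.sum_repr x]
      refine Ideal.sum_mem _ fun j _ => ?_
      by_cases hj : j ∈ T
      · obtain ⟨k, hk⟩ := hT j hj
        have : (b' j) ^ k ∈ P := Ideal.mem_of_dvd _ hk (hPs P hP).2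
        have := (hPs P hP).1.isPrime.mem_of_pow_mem k this
        rw [Algebra.smul_def]
        exact Ideal.mul_mem_left _ _ this
      · obtain ⟨t, ht⟩ := hxc j hj
        rw [ht, mul_smul, Algebra.smul_def]
        exact Ideal.mul_mem_right _ _ (hPs P hP).2
    -- isolate P₀
    have hP₀ := hPs P₀.1 P₀.2
    have hsplit : β P₀ • ε P₀.1 ∈ P₀.1 := by
      have h1 : x = β P₀ • ε P₀.1 + ∑ P ∈ Finset.univ.erase P₀, β P • ε P.1 := by
        rw [hx, ← Finset.add_sum_erase _ _ (Finset.mem_univ P₀)]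
      have h2 : ∑ P ∈ Finset.univ.erase P₀, β P • ε P.1 ∈ P₀.1 := by
        refine Ideal.sum_mem _ fun P hP => ?_
        rw [Algebra.smul_def]
        refine Ideal.mul_mem_left _ _ (hε2 P.1 P.2 P₀.1 P₀.2 ?_)
        intro h
        exact (Finset.mem_erase.mp hP).1 (Subtype.ext h.symm)
      have h3 := hxP P₀.1 P₀.2
      rw [h1] at h3
      exact (Ideal.add_mem_iff_left _ h2).mp h3
    rw [Algebra.smul_def] at hsplit
    have hβP : algebraMap R B (β P₀) ∈ P₀.1 :=
      (hP₀.1.isPrime.mem_or_mem hsplit).resolve_right (hε1 P₀.1 P₀.2)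
    -- comap is span π
    have hcomap : Ideal.span {π} = Ideal.comap (algebraMap R B) P₀.1 := by
      apply hmax.eq_of_le
      · exact (Ideal.comap_ne_top _ hP₀.1.ne_top)
      · rw [Ideal.span_singleton_le_iff_mem]
        exact hP₀.2
    have : β P₀ ∈ Ideal.span {π} := by rw [hcomap]; exact hβP
    rw [← hβ P₀]
    exact Ideal.Quotient.eq_zero_iff_mem.mpr this
  have h1 := hli.fintype_card_le_finrank
  rw [Module.finrank_fintype_fun_eq_card, Fintype.card_coe, Fintype.card_coe,
    Finset.card_compl] at h1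
  have h2 : T.card ≤ Fintype.card ι := Finset.card_le_univ T
  omega

end Count

section Main

/-- The discriminant of an integral basis is nonzero. -/
theorem h82_discr_ne_zero (R K L : Type) [CommRing R] [IsDomain R]
    [Field K] [Field L]
    [Algebra R K] [IsFractionRing R K] [Algebra K L] [Algebra R L] [IsScalarTower R K L]
    [FiniteDimensional K L] [Algebra.IsSeparable K L]
    (ι : Type) [Fintype ι] [DecidableEq ι] (c : Module.Basis ι R ↥(integralClosure R L)) :
    Algebra.discr R c ≠ 0 := by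
  haveI : IsLocalization (Algebra.algebraMapSubmonoid ↥(integralClosure R L) (nonZeroDivisors R)) L :=
    IsIntegralClosure.isLocalization R K L ↥(integralClosure R L)
  have h1 := Algebra.discr_localizationLocalization R (Rₘ := K) (nonZeroDivisors R) L c
  have h2 := Algebra.discr_not_zero_of_basis K
    (Module.Basis.localizationLocalization K (nonZeroDivisors R) L c)
  intro h0
  rw [h1, h0, map_zero] at h2
  exact h2 rfl

open Classical in
/-- **Tame discriminant bound**, the residue-degree hypothesis is not needed. -/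
theorem h82_tameDiscr (R K L : Type) [CommRing R] [IsDomain R] [IsPrincipalIdealRing R]
    [Field K] [Field L]
    [Algebra R K] [IsFractionRing R K] [Algebra K L] [Algebra R L] [IsScalarTower R K L]
    [FiniteDimensional K L] [Algebra.IsSeparable K L]
    (ι : Type) [Fintype ι] [DecidableEq ι] (c : Module.Basis ι R ↥(integralClosure R L))
    (π : R) (hπ : Prime π) (hchar : ∀ m : ℕ, m ≠ 0 → ¬ π ∣ (m : R)) :
    ¬ π ^ (Fintype.card ι -
        Set.ncard {P : Ideal ↥(integralClosure R L) |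
          P.IsMaximal ∧ algebraMap R ↥(integralClosure R L) π ∈ P} + 1) ∣ Algebra.discr R c := by
  have hinj : Function.Injective (algebraMap R L) := by
    rw [IsScalarTower.algebraMap_eq R K L]
    exact (algebraMap K L).injective.comp (IsFractionRing.injective R K)
  have hd : Algebra.discr R c ≠ 0 := h82_discr_ne_zero R K L ι c
  -- the linear map g
  set g : ↥(integralClosure R L) →ₗ[R] (ι → R) :=
    LinearMap.pi fun i => (Algebra.traceForm R ↥(integralClosure R L)) (c i) with hg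
  have hgapp : ∀ b i, g b i = Algebra.trace R ↥(integralClosure R L) (c i * b) := by
    intro b i
    rfl
  have hGmat : LinearMap.toMatrix c (Pi.basisFun R ι) g = Algebra.traceMatrix R c := by
    ext i j
    rw [LinearMap.toMatrix_apply, Pi.basisFun_repr, hgapp, Algebra.traceMatrix_apply,
      Algebra.traceForm_apply]
  have hdet : (LinearMap.toMatrix c (Pi.basisFun R ι) g).det ≠ 0 := by
    rw [hGmat, ← Algebra.discr_def]; exact hd
  have hginj : Function.Injective g := by
    rw [injective_iff_map_eq_zero]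
    intro b hb
    have h1 := LinearMap.toMatrix_mulVec_repr c (Pi.basisFun R ι) g b
    rw [hb, map_zero] at h1
    have h2 := Matrix.eq_zero_of_mulVec_eq_zero hdet h1
    exact c.repr.map_eq_zero_iff.mp (by ext i; rw [h2]; rfl)
  have hrank : Module.finrank R ↥(LinearMap.range g) = Module.finrank R (ι → R) := by
    rw [LinearMap.finrank_range_of_inj hginj, Module.finrank_eq_card_basis c,
      Module.finrank_fintype_fun_eq_card]
  obtain ⟨bM, a, bN, hsnf⟩ :=
    Submodule.exists_smith_normal_form_of_rank_eq (Pi.basisFun R ι) hrank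
  set e : ↥(integralClosure R L) ≃ₗ[R] ↥(LinearMap.range g) :=
    LinearEquiv.ofInjective g hginj with he
  set b' : Module.Basis ι R ↥(integralClosure R L) := bN.map e.symm with hb'
  have hgb' : ∀ i, g (b' i) = a i • bM i := by
    intro i
    rw [← hsnf i, hb', Module.Basis.map_apply]
    have := LinearEquiv.ofInjective_apply g (h := hginj) (e.symm (bN i))
    rw [← this, ← he, LinearEquiv.apply_symm_apply]
  -- matrix identity
  have hdiag : LinearMap.toMatrix b' bM g = Matrix.diagonal a := by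
    ext i j
    rw [LinearMap.toMatrix_apply, hgb', map_smul, Module.Basis.repr_self, Finsupp.smul_apply,
      Finsupp.single_apply, Matrix.diagonal_apply]
    by_cases hij : i = j
    · subst hij; simp
    · rw [if_neg (Ne.symm hij), if_neg hij, smul_zero]
  have hfact := basis_toMatrix_mul_linearMap_toMatrix_mul_basis_toMatrix
    c b' (Pi.basisFun R ι) bM g
  have hdvd : Algebra.discr R c ∣ ∏ i, a i := by
    have h1 : Algebra.discr R c
        = (Pi.basisFun R ι).det bM * (∏ i, a i) * b'.det c := by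
      rw [Algebra.discr_def, ← hGmat, ← hfact, hdiag, Matrix.det_mul, Matrix.det_mul,
        Matrix.det_diagonal, Module.Basis.det_apply, Module.Basis.det_apply]
    rw [h1]
    exact ((Module.Basis.isUnit_det b' c).mul_right_dvd).mpr
      (((Module.Basis.isUnit_det (Pi.basisFun R ι) bM).mul_left_dvd).mpr dvd_rfl)
  -- trace divisibility
  have htr : ∀ i b, a i ∣ Algebra.trace R ↥(integralClosure R L) (b' i * b) := by
    intro i b
    have h1 : ∀ j, Algebra.trace R ↥(integralClosure R L) (c j * b' i) = a i * bM i j := by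
      intro j
      rw [← hgapp, hgb', Pi.smul_apply, smul_eq_mul]
    rw [← c.sum_repr b, Finset.mul_sum, map_sum]
    refine Finset.dvd_sum fun j _ => ?_
    rw [mul_smul_comm, map_smul, smul_eq_mul, mul_comm (b' i) (c j), h1]
    exact ⟨(c.repr b) j * bM i j, by ring⟩
  -- Claim 1
  have hcl1 : ∀ i, ¬ π ^ 2 ∣ a i := by
    intro i hi
    have h1 : ∀ b, π ^ 2 ∣ Algebra.trace R ↥(integralClosure R L) (b' i * b) :=
      fun b => hi.trans (htr i b)
    have h2 : algebraMap R ↥(integralClosure R L) π ∣ b' i :=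
      h82_F2 hinj c π hπ hchar (b' i) (fun w _ => h1 w)
    have h3 := h82_repr_dvd b' π (b' i) h2 i
    rw [Module.Basis.repr_self, Finsupp.single_eq_same] at h3
    exact hπ.not_isUnit (isUnit_of_dvd_one h3)
  -- the set T
  set T : Finset ι := Finset.univ.filter (fun i => π ∣ a i) with hT
  have hTJ : ∀ i ∈ T, ∃ k, algebraMap R ↥(integralClosure R L) π ∣ (b' i) ^ k := by
    intro i hi
    have hi' : π ∣ a i := (Finset.mem_filter.mp hi).2
    exact h82_F1 c π hπ hchar (b' i) (fun b => hi'.trans (htr i b))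
  -- counting
  have hcount : T.card + Set.ncard {P : Ideal ↥(integralClosure R L) |
          P.IsMaximal ∧ algebraMap R ↥(integralClosure R L) π ∈ P} ≤ Fintype.card ι := by
    by_cases hfin : Set.Finite {P : Ideal ↥(integralClosure R L) |
          P.IsMaximal ∧ algebraMap R ↥(integralClosure R L) π ∈ P}
    · rw [Set.ncard_eq_toFinset_card _ hfin]
      apply h82_count b' π hπ T hTJ
      intro P hP
      exact (Set.Finite.mem_toFinset hfin).mp hP
    · rw [Set.Infinite.ncard hfin, add_zero]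
      exact Finset.card_le_univ T
  intro hdiv
  have h1 := h82_pow_dvd_prod π hπ a hcl1 Finset.univ _ (hdiv.trans hdvd)
  rw [← hT] at h1
  omega

end Main

/-- **IG-P2**: the tame discriminant bound. -/
theorem stmt_tameDiscr : H34.Stmt_tameDiscr := by
  intro R K L _ _ _ _ _ _ _ _ _ _ _ _ ι _ _ c π hπ hchar _
  exact h82_tameDiscr R K L ι c π hπ hchar

end Fermat.Agent.RED.H82

end
-- ==== END Fermat.Agent.RED.H82_TameDiscr

-- ==== BEGIN Fermat.Agent.RED.KD.H22_Laurent
section

/-!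
# G-RED package KD (helper22), part 1: Laurent series lemmas

`rot ζ : K((u)) → K((u))`, `u ↦ ζ u` (helper10).  For a primitive `c`-th root of unity `ζ` the
fixed field of `rot ζ` is `K((u^c))`.

* `dvd_order_of_rot_eq` : a fixed series has order divisible by `c`.
* `rot_eq_of_pow` : if `t ^ m` is fixed and `c m ∣ ord (t ^ m)` then `t` is fixed.
* `eq_zero_of_sum_eq_zero` : `1, Y, …, Y^(c-1)` are linearly independent over the fixed field when
  `ord Y = -1`.
-/

set_option autoImplicit false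

noncomputable section

open HahnSeries

namespace Fermat.Agent.RED.KD.H22

open Fermat.Agent.RED.H10

variable {K : Type*} [Field K]

/-- A nonzero series fixed by `rot ζ`, `ζ` a primitive `c`-th root of unity, has order divisible
by `c`. -/
theorem dvd_order_of_rot_eq {c : ℕ} {ζ : Kˣ} (hζ : IsPrimitiveRoot ζ c) {x : LaurentSeries K}
    (hx : rot ζ x = x) (h0 : x ≠ 0) : (c : ℤ) ∣ x.order := by
  have h1 : x.coeff x.order ≠ 0 := fun h => h0 (HahnSeries.coeff_order_eq_zero.mp h)
  have h2 : ((ζ ^ x.order : Kˣ) : K) * x.coeff x.order = x.coeff x.order := by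
    have := congrArg (fun y : LaurentSeries K => y.coeff x.order) hx
    simpa only [rot_coeff] using this
  have h3 : ((ζ ^ x.order : Kˣ) : K) = 1 := by
    have : (((ζ ^ x.order : Kˣ) : K) - 1) * x.coeff x.order = 0 := by
      rw [sub_mul, h2, one_mul, sub_self]
    rcases mul_eq_zero.mp this with h | h
    · exact sub_eq_zero.mp h
    · exact absurd h h1
  have h4 : ζ ^ x.order = 1 := Units.ext h3
  exact (hζ.zpow_eq_one_iff_dvd _).mp h4

/-- **Root extraction in the fixed field.**  If `t ^ m` is fixed by `rot ζ` and its order is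
divisible by `c m`, then `t` is fixed by `rot ζ`. -/
theorem rot_eq_of_pow {c m : ℕ} (hm : 0 < m) {ζ : Kˣ} (hζ : IsPrimitiveRoot ζ c)
    {η : K} (hη : IsPrimitiveRoot η m) {t : LaurentSeries K}
    (hg : rot ζ (t ^ m) = t ^ m) (hord : ((c * m : ℕ) : ℤ) ∣ (t ^ m).order) :
    rot ζ t = t := by
  rcases eq_or_ne t 0 with rfl | ht
  · exact map_zero _
  have hm' : NeZero m := ⟨hm.ne'⟩
  -- `x = rot ζ t / t` is an `m`-th root of unity
  have hx : (rot ζ t * t⁻¹) ^ m = 1 := by
    rw [mul_pow, ← map_pow, hg, inv_pow, mul_inv_cancel₀ (pow_ne_zero m ht)]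
  have hηL : IsPrimitiveRoot (HahnSeries.C η : LaurentSeries K) m :=
    hη.map_of_injective (f := (HahnSeries.C : K →+* LaurentSeries K)) HahnSeries.C_injective
  obtain ⟨i, -, hi⟩ := hηL.eq_pow_of_pow_eq_one hx
  have hrot : rot ζ t = HahnSeries.C (η ^ i) * t := by
    rw [map_pow, hi, mul_assoc, inv_mul_cancel₀ ht, mul_one]
  -- compare the leading coefficients
  have h1 : t.coeff t.order ≠ 0 := fun h => ht (HahnSeries.coeff_order_eq_zero.mp h)
  have h2 : ((ζ ^ t.order : Kˣ) : K) * t.coeff t.order = η ^ i * t.coeff t.order := by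
    have := congrArg (fun y : LaurentSeries K => y.coeff t.order) hrot
    simpa only [rot_coeff, HahnSeries.C_mul_eq_smul, HahnSeries.coeff_smul, smul_eq_mul] using this
  have h3 : ((ζ ^ t.order : Kˣ) : K) = η ^ i := mul_right_cancel₀ h1 h2
  -- the order of `t` is divisible by `c`
  have h4 : (c : ℤ) ∣ t.order := by
    rw [HahnSeries.order_pow, nsmul_eq_mul] at hord
    push_cast at hord
    rw [mul_comm (c : ℤ) (m : ℤ)] at hord
    exact (mul_dvd_mul_iff_left (by exact_mod_cast hm.ne')).mp hord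
  have h5 : ζ ^ t.order = 1 := (hζ.zpow_eq_one_iff_dvd _).mpr h4
  rw [h5, Units.val_one] at h3
  rw [hrot, ← h3, map_one, one_mul]

/-- **Linear independence.**  If `ord Y = -1` and the `b i`, `i < c`, are fixed by `rot ζ`
(`ζ` a primitive `c`-th root of unity), then `∑ b i Y ^ i = 0` forces all `b i = 0`. -/
theorem eq_zero_of_sum_eq_zero {c : ℕ} {ζ : Kˣ} (hζ : IsPrimitiveRoot ζ c)
    (Y : LaurentSeries K) (hY0 : Y ≠ 0) (hY : Y.order = -1)
    (b : Fin c → LaurentSeries K) (hb : ∀ i, rot ζ (b i) = b i)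
    (hsum : ∑ i, b i * Y ^ (i : ℕ) = 0) : ∀ i, b i = 0 := by
  classical
  by_contra hne
  rw [not_forall] at hne
  obtain ⟨j, hj⟩ := hne
  set S : Finset (Fin c) := Finset.univ.filter (fun i => b i ≠ 0) with hS
  have hSne : S.Nonempty := ⟨j, by simp [hS, hj]⟩
  obtain ⟨i₀, hi₀S, hmin⟩ := Finset.exists_min_image S (fun i => (b i).order - (i : ℤ)) hSne
  have hi₀ : b i₀ ≠ 0 := by simpa [hS] using hi₀S
  have hord : ∀ i, b i ≠ 0 → (b i * Y ^ (i : ℕ)).order = (b i).order - (i : ℤ) := by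
    intro i hi
    rw [HahnSeries.order_mul hi (pow_ne_zero _ hY0), HahnSeries.order_pow, hY]
    simp
    ring
  have hterm : ∀ i, i ≠ i₀ → (b i * Y ^ (i : ℕ)).coeff ((b i₀).order - (i₀ : ℤ)) = 0 := by
    intro i hi
    rcases eq_or_ne (b i) 0 with h0 | h0
    · rw [h0, zero_mul]; rfl
    · apply HahnSeries.coeff_eq_zero_of_lt_order
      rw [hord i h0]
      have hle := hmin i (by simp [hS, h0])
      refine lt_of_le_of_ne hle ?_
      intro heq
      -- orders are divisible by `c`, the indices are distinct below `c`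
      have h1 := dvd_order_of_rot_eq hζ (hb i) h0
      have h2 := dvd_order_of_rot_eq hζ (hb i₀) hi₀
      have h3 : (c : ℤ) ∣ (i : ℤ) - (i₀ : ℤ) := by
        have : (i : ℤ) - (i₀ : ℤ) = (b i).order - (b i₀).order := by linarith
        rw [this]
        exact dvd_sub h1 h2
      have h4 : ((i : ℕ) : ℤ) = ((i₀ : ℕ) : ℤ) := by
        have hi1 := i.2
        have hi2 := i₀.2
        obtain ⟨k, hk⟩ := h3
        have hk0 : k = 0 := by
          by_contra hk0
          have : (c : ℤ) ≤ |(i : ℤ) - (i₀ : ℤ)| := by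
            rw [hk, abs_mul]
            have hc0 : (0 : ℤ) ≤ c := by positivity
            rw [abs_of_nonneg hc0]
            have : 1 ≤ |k| := Int.one_le_abs hk0
            nlinarith
          have : |((i : ℕ) : ℤ) - ((i₀ : ℕ) : ℤ)| < c := by
            rw [abs_lt]
            constructor <;> omega
          omega
        rw [hk0, mul_zero] at hk
        linarith
      exact hi (Fin.ext (by exact_mod_cast h4))
  have hcoeff := congrArg (fun y : LaurentSeries K => y.coeff ((b i₀).order - (i₀ : ℤ))) hsum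
  simp only [HahnSeries.coeff_sum, HahnSeries.coeff_zero] at hcoeff
  rw [Finset.sum_eq_single i₀ (fun i _ hi => hterm i hi) (fun h => absurd (Finset.mem_univ _) h)]
    at hcoeff
  have hne0 : b i₀ * Y ^ (i₀ : ℕ) ≠ 0 := mul_ne_zero hi₀ (pow_ne_zero _ hY0)
  rw [← hord i₀ hi₀] at hcoeff
  exact hne0 (HahnSeries.coeff_order_eq_zero.mp hcoeff)

end Fermat.Agent.RED.KD.H22

end
end
-- ==== END Fermat.Agent.RED.KD.H22_Laurent

-- ==== BEGIN Fermat.Agent.S13.Glue
section

set_option autoImplicit false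

namespace Fermat.Agent.S13

open WeierstrassCurve WeierstrassCurve.Affine WeierstrassCurve.Affine.Point

section LinearAlgebra

variable {p : ℕ} [Fact p.Prime] {V : Type*} [AddCommGroup V] [Module (ZMod p) V]

/-- A proper nonzero subspace of a space with at most `p²` elements is a line: every nonzero
element generates it. -/
lemma le_of_mem_of_ne_zero [Finite V] (hV : Nat.card V ≤ p ^ 2)
    (N : Submodule (ZMod p) V) (hN : N ≠ ⊤) (T : Submodule (ZMod p) V)
    {y : V} (hyN : y ∈ N) (hyT : y ∈ T) (hy : y ≠ 0) : N ≤ T := by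
  classical
  have hp : p.Prime := Fact.out
  -- finrank V ≤ 2
  have hcardV : Nat.card V = p ^ Module.finrank (ZMod p) V := by
    rw [Module.natCard_eq_pow_finrank (K := ZMod p) (V := V), Nat.card_zmod]
  have hfrV : Module.finrank (ZMod p) V ≤ 2 := by
    rw [hcardV] at hV
    exact (Nat.pow_le_pow_iff_right hp.one_lt).mp hV
  have hfrN : Module.finrank (ZMod p) N < Module.finrank (ZMod p) V :=
    Submodule.finrank_lt hN
  -- span {y} ≤ N has finrank 1, so equals N
  have hspan : Submodule.span (ZMod p) {y} ≤ N := by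
    rw [Submodule.span_singleton_le_iff_mem]; exact hyN
  have hfrspan : Module.finrank (ZMod p) (Submodule.span (ZMod p) {y}) = 1 :=
    finrank_span_singleton hy
  have hle : Module.finrank (ZMod p) N ≤ Module.finrank (ZMod p) (Submodule.span (ZMod p) {y}) := by
    rw [hfrspan]; omega
  have heq : Submodule.span (ZMod p) {y} = N :=
    Submodule.eq_of_le_of_finrank_le hspan hle
  rw [← heq, Submodule.span_singleton_le_iff_mem]
  exact hyT

/-- In a space with at most `p²` elements there is nothing strictly between a nonzero subspace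
and the whole space. -/
lemma eq_or_eq_top_of_le [Finite V] (hV : Nat.card V ≤ p ^ 2)
    (N : Submodule (ZMod p) V) (hN : N ≠ ⊥) (T : Submodule (ZMod p) V) (hNT : N ≤ T) :
    T = N ∨ T = ⊤ := by
  classical
  have hp : p.Prime := Fact.out
  have hcardV : Nat.card V = p ^ Module.finrank (ZMod p) V := by
    rw [Module.natCard_eq_pow_finrank (K := ZMod p) (V := V), Nat.card_zmod]
  have hfrV : Module.finrank (ZMod p) V ≤ 2 := by
    rw [hcardV] at hV
    exact (Nat.pow_le_pow_iff_right hp.one_lt).mp hV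
  have hfrN : 0 < Module.finrank (ZMod p) N := by
    rw [Module.finrank_pos_iff]
    exact Submodule.nontrivial_iff_ne_bot.mpr hN
  by_cases hT : T = ⊤
  · exact Or.inr hT
  · left
    have hfrT : Module.finrank (ZMod p) T < Module.finrank (ZMod p) V :=
      Submodule.finrank_lt hT
    exact (Submodule.eq_of_le_of_finrank_le hNT (by omega)).symm

end LinearAlgebra

section Abstract

variable {p : ℕ} [Fact p.Prime] {V : Type*} [AddCommGroup V] [Module (ZMod p) V]
  {G : Type*} [Group G] [DistribMulAction G V]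

/-- The subgroup of elements acting trivially on `N`. -/
def fixSub (G : Type*) [Group G] [DistribMulAction G V] (N : Submodule (ZMod p) V) :
    Subgroup G where
  carrier := {σ | ∀ x ∈ N, σ • x = x}
  one_mem' := fun x _ => one_smul _ x
  mul_mem' := fun {a b} ha hb x hx => by rw [mul_smul, hb x hx, ha x hx]
  inv_mem' := fun {a} ha x hx => by
    have := ha x hx
    calc a⁻¹ • x = a⁻¹ • (a • x) := by rw [this]
      _ = x := inv_smul_smul a x

/-- The subgroup of elements acting trivially on `V/N`, for a stable `N`. -/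
def cofixSub (G : Type*) [Group G] [DistribMulAction G V] (N : Submodule (ZMod p) V)
    (hN : ∀ σ : G, ∀ x ∈ N, σ • x ∈ N) : Subgroup G where
  carrier := {σ | ∀ x : V, σ • x - x ∈ N}
  one_mem' := fun x => by simp
  mul_mem' := fun {a b} ha hb x => by
    have h1 : (a * b) • x - x = a • (b • x - x) + (a • x - x) := by
      rw [mul_smul, smul_sub]; abel
    rw [h1]
    exact N.add_mem (hN a _ (hb x)) (ha x)
  inv_mem' := fun {a} ha x => by
    have h1 : a⁻¹ • x - x = -(a⁻¹ • (a • x - x)) := by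
      rw [smul_sub, inv_smul_smul]; abel
    rw [h1]
    exact N.neg_mem (hN a⁻¹ _ (ha x))

lemma fixSub_normal (N : Submodule (ZMod p) V) (hN : ∀ σ : G, ∀ x ∈ N, σ • x ∈ N) :
    (fixSub G N).Normal := by
  refine ⟨fun σ hσ g x hx => ?_⟩
  have h1 : g⁻¹ • x ∈ N := hN _ _ hx
  rw [mul_smul, mul_smul, hσ _ h1, smul_inv_smul]

lemma cofixSub_normal (N : Submodule (ZMod p) V) (hN : ∀ σ : G, ∀ x ∈ N, σ • x ∈ N) :
    (cofixSub G N hN).Normal := by
  refine ⟨fun σ hσ g x => ?_⟩
  have h1 : (g * σ * g⁻¹) • x - x = g • (σ • (g⁻¹ • x) - g⁻¹ • x) := by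
    rw [mul_smul, mul_smul, smul_sub, smul_inv_smul]
  rw [h1]
  exact hN g _ (hσ _)

/-- Unipotent with respect to some `T` ⇒ trivial on the line `N` and on `V/N`. -/
lemma mem_fixSub_and_cofixSub_of_unipotent [Finite V] (hV : Nat.card V ≤ p ^ 2)
    (N : Submodule (ZMod p) V) (hN : ∀ σ : G, ∀ x ∈ N, σ • x ∈ N)
    (hN0 : N ≠ ⊥) (hN1 : N ≠ ⊤) (T : Submodule (ZMod p) V) (σ : G)
    (hfix : ∀ x ∈ T, σ • x = x) (hquot : ∀ x : V, σ • x - x ∈ T) :
    σ ∈ fixSub G N ∧ σ ∈ cofixSub G N hN := by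
  have key : ∀ x ∈ N, σ • x = x := by
    intro x hx
    by_contra hne
    have hy : σ • x - x ≠ 0 := fun h => hne (sub_eq_zero.mp h)
    have hyN : σ • x - x ∈ N := N.sub_mem (hN σ x hx) hx
    have hNT : N ≤ T := le_of_mem_of_ne_zero hV N hN1 T hyN (hquot x) hy
    exact hne (hfix x (hNT hx))
  refine ⟨key, fun x => ?_⟩
  -- `y = σ x - x ∈ T`
  by_cases hy : σ • x - x = 0
  · rw [hy]; exact N.zero_mem
  by_cases hNT : N ≤ T
  · rcases eq_or_eq_top_of_le hV N hN0 T hNT with h | h
    · rw [← h]; exact hquot x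
    · exact absurd (sub_eq_zero.mpr (hfix x (h ▸ Submodule.mem_top))) hy
  · -- `N ⊓ T = ⊥`, `T ≠ ⊥` ⇒ `N ⊔ T = ⊤`
    have hinf : ∀ z ∈ N, z ∈ T → z = 0 := by
      intro z hzN hzT
      by_contra hz
      exact hNT (le_of_mem_of_ne_zero hV N hN1 T hzN hzT hz)
    have hTN : T ⊔ N = ⊤ := by
      have hlt : N < T ⊔ N := by
        refine lt_of_le_of_ne le_sup_right ?_
        intro h
        have : T ≤ N := by rw [h]; exact le_sup_left
        exact hy (hinf _ (this (hquot x)) (hquot x))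
      rcases eq_or_eq_top_of_le hV N hN0 (T ⊔ N) le_sup_right with h | h
      · exact absurd h.symm (ne_of_lt hlt)
      · exact h
    have hx : x ∈ T ⊔ N := by rw [hTN]; exact Submodule.mem_top
    obtain ⟨t, ht, n, hn, rfl⟩ := Submodule.mem_sup.mp hx
    have : σ • (t + n) - (t + n) = 0 := by
      rw [smul_add, hfix t ht, key n hn]; abel
    exact absurd this hy

end Abstract

section Coordinates

/-- The finite set of coordinates of a point. -/
noncomputable def coordSet {L : Type*} [Field L] [DecidableEq L] {W : Affine L} :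
    W.Point → Finset L
  | .zero => ∅
  | .some x y _ => {x, y}

lemma smul_eq_of_fix_coords (P : FreyPackage) (σ : Gal) (v : Vp P)
    (h : ∀ x ∈ coordSet (v : (P.freyCurve⁄Qbar).Point), σ x = x) : σ • v = v := by
  apply Subtype.ext
  change σ • (v : (P.freyCurve⁄Qbar).Point) = v
  rcases hv : (v : (P.freyCurve⁄Qbar).Point) with _ | ⟨x, y, hxy⟩
  · rfl
  · rw [hv] at h
    have hx : σ x = x := h x (by simp [coordSet])
    have hy : σ y = y := h y (by simp [coordSet])
    rw [algEquiv_smul_def]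
    simp only [Point.map_some]
    congr 1

end Coordinates

/-- **S13 from its inputs.** -/
theorem result_of_inputs
    (h0 : Stmt_exists_valuationSubring) (h1 : Stmt_card) (h2 : Stmt_nontrivial)
    (h3 : Stmt_S05) (h4 : Stmt_two_unipotent) (h5 : Stmt_no_fixed_point)
    (h6 : Stmt_p_kernel) (h7 : Stmt_p_supersingular) (h8 : Stmt_minkowski)
    (P : FreyPackage)
    (hred : ¬ GaloisRepIsIrreducible (K := AlgebraicClosure ℚ) ℚ P.freyCurve P.p) :
    HasGaloisStableCofixedLine (K := AlgebraicClosure ℚ) ℚ P.freyCurve P.p := by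
  classical
  have : Fact P.p.Prime := ⟨P.pp⟩
  obtain ⟨hfin, hcard⟩ := h1 P
  -- a stable proper nonzero subspace
  have hN : ∃ N : Submodule (ZMod P.p) (Vp P), IsGaloisStable ℚ N ∧ N ≠ ⊥ ∧ N ≠ ⊤ := by
    by_contra hcon
    apply hred
    refine ⟨h2 P, fun N hNs => ?_⟩
    by_contra h
    rw [not_or] at h
    exact hcon ⟨N, hNs, h.1, h.2⟩
  obtain ⟨N, hNs, hN0, hN1⟩ := hN
  have hNs' : ∀ σ : Gal, ∀ x ∈ N, σ • x ∈ N := hNs
  -- the finite set of all coordinates
  let _ : Fintype (Vp P) := Fintype.ofFinite _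
  let S : Finset Qbar := Finset.univ.biUnion fun v : Vp P =>
    coordSet (v : (P.freyCurve⁄Qbar).Point)
  have hS : ∀ σ : Gal, (∀ x ∈ S, σ x = x) → ∀ v : Vp P, σ • v = v := by
    intro σ hσ v
    apply smul_eq_of_fix_coords
    intro x hx
    exact hσ x (Finset.mem_biUnion.mpr ⟨v, Finset.mem_univ _, hx⟩)
  have hS1 : ∃ S : Finset Qbar, ∀ σ : Gal, (∀ x ∈ S, σ x = x) → σ ∈ fixSub Gal N :=
    ⟨S, fun σ hσ x _ => hS σ hσ x⟩
  have hS2 : ∃ S : Finset Qbar, ∀ σ : Gal, (∀ x ∈ S, σ x = x) → σ ∈ cofixSub Gal N hNs' :=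
    ⟨S, fun σ hσ x => by
      have : σ • x - x = 0 := sub_eq_zero.mpr (hS σ hσ x)
      rw [this]; exact N.zero_mem⟩
  -- primes other than `p`: inertia inside both subgroups
  have hp5 := P.hp5
  have hother : ∀ ℓ : ℕ, ℓ.Prime → ℓ ≠ P.p → ∃ A : ValuationSubring Qbar, A.LiesOverPrime ℓ ∧
      A.inertiaSubgroupIn ℚ ≤ fixSub Gal N ∧ A.inertiaSubgroupIn ℚ ≤ cofixSub Gal N hNs' := by
    intro ℓ hℓ hℓp
    obtain ⟨A, hA⟩ := h0 ℓ hℓ
    refine ⟨A, hA, ?_⟩
    by_cases h2ℓ : ℓ = 2
    · subst h2ℓ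
      obtain ⟨T, hT1, hT2⟩ := h4 P A hA
      have := fun σ (hσ : σ ∈ A.inertiaSubgroupIn ℚ) =>
        mem_fixSub_and_cofixSub_of_unipotent hcard N hNs' hN0 hN1 T σ (hT1 σ hσ) (hT2 σ hσ)
      exact ⟨fun σ hσ => (this σ hσ).1, fun σ hσ => (this σ hσ).2⟩
    · have hunr := h3 P ℓ hℓ h2ℓ hℓp A hA
      refine ⟨fun σ hσ x _ => hunr σ hσ x, fun σ hσ x => ?_⟩
      have : σ • x - x = 0 := sub_eq_zero.mpr (hunr σ hσ x)
      rw [this]; exact N.zero_mem
  -- the prime `p`
  obtain ⟨Ap, hAp⟩ := h0 P.p P.pp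
  obtain ⟨T, hT1, hT2⟩ := h6 P Ap hAp
  have hTtop : T ≠ ⊤ := by
    intro hT
    rcases h7 P Ap hAp (fun x => (hT1 x).mp (hT ▸ Submodule.mem_top)) N hNs with h | h
    · exact hN0 h
    · exact hN1 h
  by_cases hNT : N ≤ T
  · -- `T = N`: inertia at `p` is trivial on `V/N`; Minkowski gives a cofixed line
    have hTN : T = N := (eq_or_eq_top_of_le hcard N hN0 T hNT).resolve_right hTtop
    have hmink : cofixSub Gal N hNs' = ⊤ := by
      refine h8 _ (cofixSub_normal N hNs') hS2 fun ℓ hℓ => ?_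
      by_cases hℓp : ℓ = P.p
      · subst hℓp
        exact ⟨Ap, hAp, fun σ hσ x => hTN ▸ hT2 σ hσ x⟩
      · obtain ⟨A, hA, -, hA2⟩ := hother ℓ hℓ hℓp
        exact ⟨A, hA, hA2⟩
    refine ⟨N, hNs, hN0, hN1, fun σ x => ?_⟩
    have : σ ∈ cofixSub Gal N hNs' := by rw [hmink]; exact Subgroup.mem_top σ
    exact this x
  · -- `N ⊓ T = ⊥`: inertia at `p` is trivial on `N`; Minkowski gives a rational point
    exfalso
    have hinf : ∀ z ∈ N, z ∈ T → z = 0 := by
      intro z hzN hzT
      by_contra hz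
      exact hNT (le_of_mem_of_ne_zero hcard N hN1 T hzN hzT hz)
    have hmink : fixSub Gal N = ⊤ := by
      refine h8 _ (fixSub_normal N hNs') hS1 fun ℓ hℓ => ?_
      by_cases hℓp : ℓ = P.p
      · subst hℓp
        refine ⟨Ap, hAp, fun σ hσ x hx => ?_⟩
        exact sub_eq_zero.mp (hinf _ (N.sub_mem (hNs' σ x hx) hx) (hT2 σ hσ x))
      · obtain ⟨A, hA, hA1, -⟩ := hother ℓ hℓ hℓp
        exact ⟨A, hA, hA1⟩
    apply hN0
    rw [Submodule.eq_bot_iff]
    intro x hx
    apply h5 P x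
    intro σ
    have : σ ∈ fixSub Gal N := by rw [hmink]; exact Subgroup.mem_top σ
    exact this x hx

end Fermat.Agent.S13

end
-- ==== END Fermat.Agent.S13.Glue

-- ==== BEGIN Fermat.Agent.S13.TorsionDefs
section

set_option autoImplicit false

namespace Fermat.Agent.S13

open WeierstrassCurve WeierstrassCurve.Affine WeierstrassCurve.Affine.Point

/-- (TP) There is `w ∈ ℤ[X]` of degree `(p² - 1)/2`, with leading coefficient `p·u`, `p ∤ u`,
whose roots in `Q̄` are exactly the `x`-coordinates of the nonzero `p`-torsion points of the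
Frey curve. -/
def Stmt_torsion_poly : Prop :=
  ∀ P : FreyPackage, ∃ w : Polynomial ℤ,
    w.natDegree = (P.p ^ 2 - 1) / 2 ∧
    (∃ u : ℤ, w.leadingCoeff = (P.p : ℤ) * u ∧ ¬ (P.p : ℤ) ∣ u) ∧
    ∀ (x y : Qbar) (h : (P.freyCurve⁄Qbar).Nonsingular x y),
      ((P.p : ℤ) • (Point.some x y h : (P.freyCurve⁄Qbar).Point) = 0 ↔
        (w.map (algebraMap ℤ Qbar)).eval x = 0)

/-- (TP') The general form over an algebraically closed field of characteristic `0`, for
Mathlib's division polynomial `preΨ`. -/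
def Stmt_torsion_preΨ : Prop :=
  ∀ (K : Type) [Field K] [DecidableEq K] [IsAlgClosed K] [CharZero K] (W : Affine K),
    W.Δ ≠ 0 → ∀ p : ℕ, p.Prime → p ≠ 2 →
    ∀ (x y : K) (h : W.Nonsingular x y),
      ((p : ℤ) • (Point.some x y h : W.Point) = 0 ↔ (W.preΨ (p : ℤ)).eval x = 0)

end Fermat.Agent.S13

end
-- ==== END Fermat.Agent.S13.TorsionDefs

-- ==== BEGIN Fermat.Agent.S16.Defs2
section

/-!
# S16: second level interfaces (helper40, coordinator of cluster M)

All statements are about `M₂(Γ₀(p))`, `p ≥ 5` prime, and `q`-expansion coefficients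
`ModularFormClass.qCoeff F k` (prelude, `= (qExpansion 1 F).coeff k`).

* `Stmt_Eis p`    : the Eisenstein series `E' = (p-1)/24 + Σ σ'(k) q^k` is in `M₂(Γ₀(p))`.
* `Stmt_Cusp p`   : a form in `M₂(Γ₀(p))` with `a₀ = 0` is a cusp form.
* `Stmt_Theta p`  : some `G ∈ M₂(Γ₀(p))` has `a₀ = 1` and `a_k ∈ 2ℤ` for `k ≥ 1` (theta series).
* `Stmt_UBcore p ℓ e` : no `h ∈ M₂(Γ₀(p))` with integral coefficients, `a₀` prime to `ℓ` and
  `a_k ≡ 0 mod ℓ^e` for all `k ≥ 1`.

* `Stmt_LBalg p`, `Stmt_UBalg p` : the two algebraic inputs `h1`, `h2` of the final count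
  (`WIRE`: `Stmt_LBalg p → Stmt_UBalg p → S16`; `Stmt_LB p → Stmt_LBalg p`; `Stmt_UB p → Stmt_UBalg p`).

Reductions (packages `LOC-LB`, `LOC-UB`, file `Loc.lean`):
  `Stmt_Eis p → Stmt_Cusp p → Stmt_Theta p → Stmt_LB p`
  `Stmt_Eis p → (∀ ℓ prime, Stmt_UBcore p ℓ (ubExp p ℓ)) → Stmt_UB p`.
-/

set_option autoImplicit false

namespace Fermat.Agent.S16

open ModularFormClass CongruenceSubgroup ModularCurve UpperHalfPlane

/-- `EIS`: the Eisenstein series of weight 2 and level `p`. -/
def Stmt_Eis (p : ℕ) : Prop :=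
  ∃ E : ModularForm (Gamma0 p) 2, qCoeff E 0 = ((p : ℂ) - 1) / 24 ∧
    ∀ k : ℕ, 1 ≤ k → qCoeff E k = (sigmaP p k : ℂ)

/-- `CUSP`: a modular form of weight 2 on `Γ₀(p)` whose constant term at `∞` vanishes is a
cusp form (the constant term at the cusp `0` is `-a₀`). -/
def Stmt_Cusp (p : ℕ) : Prop :=
  ∀ F : ModularForm (Gamma0 p) 2, qCoeff F 0 = 0 →
    ∃ f : CuspForm (Gamma0 p) 2, (f : ℍ → ℂ) = (F : ℍ → ℂ)

/-- `THETA`: a weight 2 form on `Γ₀(p)` with constant term `1` and even integral higher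
coefficients (the theta series of a positive definite quaternary form of level `p`). -/
def Stmt_Theta (p : ℕ) : Prop :=
  ∃ G : ModularForm (Gamma0 p) 2, qCoeff G 0 = 1 ∧
    ∀ k : ℕ, 1 ≤ k → ∃ c : ℤ, qCoeff G k = 2 * (c : ℂ)

/-- `h` has integral coefficients, constant term prime to `ℓ`, and all higher coefficients are
divisible by `ℓ ^ e`. -/
def IsUnitConstMod (p ℓ e : ℕ) (h : ModularForm (Gamma0 p) 2) : Prop :=
  (∃ u : ℤ, ¬ (ℓ : ℤ) ∣ u ∧ qCoeff h 0 = (u : ℂ)) ∧
    ∀ k : ℕ, 1 ≤ k → ∃ a : ℤ, qCoeff h k = (ℓ : ℂ) ^ e * (a : ℂ)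

/-- `UBcore`: there is no form which is a unit constant modulo `ℓ ^ e`. -/
def Stmt_UBcore (p ℓ e : ℕ) : Prop :=
  ∀ h : ModularForm (Gamma0 p) 2, ¬ IsUnitConstMod p ℓ e h

/-- Algebraic form of the lower bound (`h1` of `H44.card_quotient_map`): every Hecke polynomial
which kills `S₂(Γ₀(p))` has Eisenstein value divisible by `n`. Follows from `Stmt_LB p` (apply
`P` to the congruent cusp form and read off `a₁`), or directly from an Eisenstein class of exact
order `n` in a torsion free Hecke module on which `ker φ` acts by zero (Shimura class, `LB-χ`). -/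
def Stmt_LBalg (p : ℕ) [NeZero p] : Prop :=
  ∀ P : HeckeAlg, CuspForm.heckeEvalForms p 2 P = 0 →
    (eisensteinNumerator p : ℤ) ∣ MvPolynomial.aeval (eisensteinSystem p) P

/-- Algebraic form of the upper bound (`h2` of `H44.card_quotient_map`). -/
def Stmt_UBalg (p : ℕ) [NeZero p] : Prop :=
  ∃ P : HeckeAlg, CuspForm.heckeEvalForms p 2 P = 0 ∧
    MvPolynomial.aeval (eisensteinSystem p) P = (eisensteinNumerator p : ℤ)

/-- The exponent needed at `ℓ`: `v_ℓ(gcd(p + 1, 12)) + 1` (for `p ≥ 5`: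
`24 / gcd(p - 1, 12) = gcd(p + 1, 12)`). -/
def ubExp (p ℓ : ℕ) : ℕ := (Nat.gcd (p + 1) 12).factorization ℓ + 1

end Fermat.Agent.S16

end
-- ==== END Fermat.Agent.S16.Defs2

-- ==== BEGIN Fermat.Agent.S20.H19_Fixed
section

/-!
# S20, part G (helper19): fixed points of `S` and `S * T` on `SL(2, ℤ) ⧸ Gamma0 N`
-/

namespace Fermat.Agent.S20.H19

open CongruenceSubgroup MatrixGroups Matrix

variable (N : ℕ)

/-- The lower unipotent matrix `[[1, 0], [x, 1]]`. -/
def lowerU (x : ℤ) : SL(2, ℤ) := ⟨!![1, 0; x, 1], by simp [Matrix.det_fin_two]⟩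

@[simp] lemma lowerU_apply_zero_zero (x : ℤ) : (lowerU x) 0 0 = 1 := rfl
@[simp] lemma lowerU_apply_one_zero (x : ℤ) : (lowerU x) 1 0 = x := rfl

/-- General counting lemma: if a predicate `P` on cosets is given on representatives by
`N ∣ a² + t a c + c²`, then the cosets satisfying `P` are in bijection with the roots of
`x² + t x + 1` in `ZMod N`. -/
theorem card_fixed_quadratic [NeZero N] (t : ℤ) (P : SL(2, ℤ) ⧸ Gamma0 N → Prop)
    (hP : ∀ g : SL(2, ℤ), P (QuotientGroup.mk g) ↔
      (N : ℤ) ∣ g 0 0 ^ 2 + t * (g 0 0 * g 1 0) + g 1 0 ^ 2) :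
    Nat.card {q : SL(2, ℤ) ⧸ Gamma0 N // P q} =
      Nat.card {x : ZMod N // x ^ 2 + (t : ZMod N) * x + 1 = 0} := by
  symm
  -- the map from roots to cosets
  have hroot : ∀ x : {x : ZMod N // x ^ 2 + (t : ZMod N) * x + 1 = 0},
      P (QuotientGroup.mk (lowerU ((x : ZMod N).cast : ℤ))) := by
    intro x
    rw [hP]
    simp only [lowerU_apply_zero_zero, lowerU_apply_one_zero]
    rw [← ZMod.intCast_zmod_eq_zero_iff_dvd]
    push_cast
    have := x.2
    linear_combination this
  let f : {x : ZMod N // x ^ 2 + (t : ZMod N) * x + 1 = 0} → {q : SL(2, ℤ) ⧸ Gamma0 N // P q} :=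
    fun x => ⟨QuotientGroup.mk (lowerU ((x : ZMod N).cast : ℤ)), hroot x⟩
  refine Nat.card_eq_of_bijective f ⟨?_, ?_⟩
  · intro x y hxy
    have h := congrArg Subtype.val hxy
    simp only [f] at h
    rw [coset_eq_iff] at h
    simp only [lowerU_apply_zero_zero, lowerU_apply_one_zero] at h
    rw [← ZMod.intCast_zmod_eq_zero_iff_dvd] at h
    push_cast at h
    apply Subtype.ext
    linear_combination -h
  · rintro ⟨q, hq⟩
    induction q using QuotientGroup.induction_on with
    | H g =>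
      rw [hP] at hq
      -- `a` is a unit mod `N`
      have hcop : IsCoprime (g 0 0) (g 1 0) := isCoprime_col g
      have hcop2 : IsCoprime (g 0 0) (g 0 0 ^ 2 + t * (g 0 0 * g 1 0) + g 1 0 ^ 2) := by
        have h1 : IsCoprime (g 0 0) (g 1 0 ^ 2) := hcop.pow_right
        have h2 : g 0 0 ^ 2 + t * (g 0 0 * g 1 0) + g 1 0 ^ 2
            = g 1 0 ^ 2 + g 0 0 * (g 0 0 + t * g 1 0) := by ring
        rw [h2]
        exact h1.add_mul_left_right _
      have hcopN : IsCoprime (g 0 0) (N : ℤ) := hcop2.of_isCoprime_of_dvd_right hq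
      have hunit : IsUnit ((g 0 0 : ℤ) : ZMod N) := by
        rw [ZMod.coe_int_isUnit_iff_isCoprime]
        exact hcopN.symm
      obtain ⟨u, hu⟩ := hunit
      set x : ZMod N := (g 1 0 : ZMod N) * (u⁻¹ : (ZMod N)ˣ) with hx
      have hxu : x * (g 0 0 : ZMod N) = (g 1 0 : ZMod N) := by
        rw [hx, ← hu, mul_assoc, Units.inv_mul, mul_one]
      have hq' : ((g 0 0 : ℤ) : ZMod N) ^ 2 + (t : ZMod N) * ((g 0 0 : ZMod N) * (g 1 0 : ZMod N))
          + (g 1 0 : ZMod N) ^ 2 = 0 := by
        have := (ZMod.intCast_zmod_eq_zero_iff_dvd _ N).mpr hq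
        push_cast at this
        exact this
      have hxroot : x ^ 2 + (t : ZMod N) * x + 1 = 0 := by
        have h3 : (x ^ 2 + (t : ZMod N) * x + 1) * (u : ZMod N) ^ 2 = 0 := by
          rw [hu]
          rw [← hxu] at hq'
          linear_combination hq'
        have hu2 : IsUnit ((u : ZMod N) ^ 2) := (u ^ 2).isUnit
        exact (hu2.mul_left_eq_zero).mp h3
      refine ⟨⟨x, hxroot⟩, ?_⟩
      apply Subtype.ext
      simp only [f]
      rw [coset_eq_iff]
      simp only [lowerU_apply_zero_zero, lowerU_apply_one_zero]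
      rw [← ZMod.intCast_zmod_eq_zero_iff_dvd]
      push_cast
      linear_combination -hxu

/-- **G2**: the number of cosets fixed by `S` is `nuTwo N`. -/
theorem G2 [NeZero N] :
    Nat.card {q : SL(2, ℤ) ⧸ Gamma0 N // ModularGroup.S • q = q} = ModularCurve.nuTwo N := by
  rw [ModularCurve.nuTwo]
  have h := card_fixed_quadratic N 0 (fun q => ModularGroup.S • q = q) (by
    intro g
    rw [S_smul_eq_iff]
    simp)
  rw [h]
  refine Nat.card_congr (Equiv.subtypeEquivRight ?_)
  intro x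
  simp

/-- **G3**: the number of cosets fixed by `S * T` is `nuThree N`. -/
theorem G3 [NeZero N] :
    Nat.card {q : SL(2, ℤ) ⧸ Gamma0 N // (ModularGroup.S * ModularGroup.T) • q = q}
      = ModularCurve.nuThree N := by
  rw [ModularCurve.nuThree]
  have h := card_fixed_quadratic N 1 (fun q => (ModularGroup.S * ModularGroup.T) • q = q) (by
    intro g
    rw [ST_smul_eq_iff]
    simp)
  rw [h]
  refine Nat.card_congr (Equiv.subtypeEquivRight ?_)
  intro x
  simp

end Fermat.Agent.S20.H19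

end
-- ==== END Fermat.Agent.S20.H19_Fixed

-- ==== BEGIN Fermat.Agent.S20.H19_NormalForm
section

/-!
# S20, part G (helper19): normal form for cosets of `Gamma0 N`

Every left coset `g Γ₀(N)` contains a matrix with first column `(a, d)` where `d ∣ N`,
`gcd(a, d) = 1`, and the pair `(d, a mod N/d)` is a complete invariant of the coset.  The possible
residues `x = a mod N/d` are exactly those coprime to `gcd(d, N/d)`.

Main result: `card_cosets_eq_sum` (G1a).
-/

namespace Fermat.Agent.S20.H19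

open CongruenceSubgroup MatrixGroups Matrix

/-- Lifting lemma (variant of the one inside `ZMod.unitsMap_surjective`). -/
lemma exists_add_mul_coprime (x n m : ℕ) (hm : m ≠ 0) (hx : x.Coprime (n.gcd m)) :
    ∃ k : ℕ, (x + k * n).Coprime m := by
  let ps : Finset ℕ := {p ∈ m.primeFactors | ¬p ∣ x}
  use ps.prod id
  apply Nat.coprime_of_dvd
  intro p pp hp hpm
  by_cases hpx : p ∣ x
  · have h := Nat.dvd_sub hp hpx
    rw [add_comm, Nat.add_sub_cancel] at h
    rcases pp.dvd_mul.mp h with h | h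
    · have ⟨q, hq, hq'⟩ := (pp.prime.dvd_finsetProd_iff id).mp h
      rw [Finset.mem_filter, Nat.mem_primeFactors,
        ← (Nat.prime_dvd_prime_iff_eq pp hq.1.1).mp hq'] at hq
      exact hq.2 hpx
    · exact Nat.Prime.not_coprime_iff_dvd.mpr ⟨p, pp, hpx, Nat.dvd_gcd h hpm⟩ hx
  · have pps : p ∈ ps := Finset.mem_filter.mpr ⟨Nat.mem_primeFactors.mpr ⟨pp, hpm, hm⟩, hpx⟩
    have h := Nat.dvd_sub hp ((Finset.dvd_prod_of_mem id pps).mul_right n)
    rw [Nat.add_sub_cancel] at h
    contradiction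

/-- The finite set of normal forms `(d, x)`. -/
def NF (N : ℕ) : Finset (Σ _ : ℕ, ℕ) :=
  N.divisors.sigma
    (fun d => (Finset.range (N / d)).filter (fun x => Nat.Coprime x (Nat.gcd d (N / d))))

lemma mem_NF {N : ℕ} {p : Σ _ : ℕ, ℕ} :
    p ∈ NF N ↔ (p.1 ∣ N ∧ N ≠ 0) ∧ p.2 < N / p.1 ∧ Nat.Coprime p.2 (Nat.gcd p.1 (N / p.1)) := by
  simp [NF, Nat.mem_divisors]

lemma card_NF (N : ℕ) :
    (NF N).card = ∑ d ∈ N.divisors,
      ((Finset.range (N / d)).filter (fun x => Nat.Coprime x (Nat.gcd d (N / d)))).card := by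
  rw [NF, Finset.card_sigma]

/-- Existence of a representative matrix for each normal form. -/
lemma exists_rep {N : ℕ} (p : Σ _ : ℕ, ℕ) (hp : p ∈ NF N) :
    ∃ g : SL(2, ℤ), g 1 0 = (p.1 : ℤ) ∧ ((N / p.1 : ℕ) : ℤ) ∣ g 0 0 - (p.2 : ℤ) := by
  obtain ⟨⟨hd, hN⟩, -, hcop⟩ := mem_NF.mp hp
  have hd0 : p.1 ≠ 0 := fun h => hN (by simpa [h] using hd)
  obtain ⟨k, hk⟩ := exists_add_mul_coprime p.2 (N / p.1) p.1 hd0 (by rwa [Nat.gcd_comm])
  have hk' : IsCoprime (((p.2 + k * (N / p.1) : ℕ)) : ℤ) ((p.1 : ℕ) : ℤ) :=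
    Nat.isCoprime_iff_coprime.mpr hk
  obtain ⟨g, hg0, hg1⟩ := hk'.exists_SL2_col 0
  refine ⟨g, hg1, ?_⟩
  rw [hg0]
  push_cast
  exact ⟨k, by ring⟩

/-- Injectivity of the normal form. -/
lemma nf_inj {N d d' : ℕ} {a a' : ℤ} (hN : N ≠ 0) (hd : d ∣ N) (hd' : d' ∣ N)
    (ha : IsCoprime a (d : ℤ)) (ha' : IsCoprime a' (d' : ℤ))
    (h : (N : ℤ) ∣ a * d' - d * a') : d = d' ∧ ((N / d : ℕ) : ℤ) ∣ a - a' := by
  have hdZ : (d : ℤ) ∣ (N : ℤ) := Int.natCast_dvd_natCast.mpr hd
  have hd'Z : (d' : ℤ) ∣ (N : ℤ) := Int.natCast_dvd_natCast.mpr hd'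
  have h1 : (d : ℤ) ∣ a * d' := by
    have := (hdZ.trans h)
    have h2 : (d : ℤ) ∣ (d : ℤ) * a' := dvd_mul_right _ _
    have := dvd_add this h2
    simpa using this
  have h1' : (d : ℤ) ∣ (d' : ℤ) := ha.symm.dvd_of_dvd_mul_left h1
  have h3 : (d' : ℤ) ∣ (d : ℤ) * a' := by
    have := (hd'Z.trans h)
    have h2 : (d' : ℤ) ∣ a * (d' : ℤ) := dvd_mul_left _ _
    have := dvd_sub h2 this
    simpa using this
  have h3' : (d' : ℤ) ∣ (d : ℤ) := ha'.symm.dvd_of_dvd_mul_right h3
  have hdd : d = d' :=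
    Nat.dvd_antisymm (Int.natCast_dvd_natCast.mp h1') (Int.natCast_dvd_natCast.mp h3')
  refine ⟨hdd, ?_⟩
  subst hdd
  have hd0 : (d : ℤ) ≠ 0 := by
    intro h0
    apply hN
    have : d = 0 := by exact_mod_cast h0
    simpa [this] using hd
  have hNd : (N : ℤ) = (d : ℤ) * ((N / d : ℕ) : ℤ) := by
    exact_mod_cast (Nat.mul_div_cancel' hd).symm
  have h4 : (d : ℤ) * ((N / d : ℕ) : ℤ) ∣ (d : ℤ) * (a - a') := by
    rw [← hNd]
    have : a * (d : ℤ) - d * a' = (d : ℤ) * (a - a') := by ring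
    rwa [this] at h
  exact Int.dvd_of_mul_dvd_mul_left hd0 h4

/-- Surjectivity of the normal form. -/
lemma nf_surj {N : ℕ} (hN : N ≠ 0) {a c : ℤ} (hac : IsCoprime a c) :
    ∃ d x : ℕ, d ∣ N ∧ x < N / d ∧ x.Coprime (d.gcd (N / d)) ∧
      ∀ a' : ℤ, ((N / d : ℕ) : ℤ) ∣ a' - x → (N : ℤ) ∣ a' * c - d * a := by
  set d : ℕ := Int.gcd c N with hd
  have hdN : d ∣ N := by
    have := Int.gcd_dvd_right c (N : ℤ)
    exact Int.natCast_dvd_natCast.mp this
  have hdc : (d : ℤ) ∣ c := Int.gcd_dvd_left c (N : ℤ)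
  have hdpos : 0 < d := Int.gcd_pos_of_ne_zero_right _ (by exact_mod_cast hN)
  have hd0 : (d : ℤ) ≠ 0 := by exact_mod_cast hdpos.ne'
  obtain ⟨c', hc'⟩ := hdc
  set e : ℕ := N / d with he
  have hNe : N = d * e := (Nat.mul_div_cancel' hdN).symm
  have hepos : 0 < e := Nat.div_pos (Nat.le_of_dvd (Nat.pos_of_ne_zero hN) hdN) hdpos
  -- `c'` and `e` are coprime
  have hcop : IsCoprime c' (e : ℤ) := by
    have h1 : Int.gcd (c / (Int.gcd c N : ℤ)) ((N : ℤ) / (Int.gcd c N : ℤ)) = 1 :=
      Int.gcd_div_gcd_div_gcd (by rw [← hd]; exact hdpos)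
    rw [← hd] at h1
    have h2 : c / (d : ℤ) = c' := by rw [hc']; exact Int.mul_ediv_cancel_left _ hd0
    have h3 : (N : ℤ) / (d : ℤ) = (e : ℤ) := by
      rw [hNe]; push_cast; exact Int.mul_ediv_cancel_left _ hd0
    rw [h2, h3] at h1
    exact Int.isCoprime_iff_gcd_eq_one.mpr h1
  obtain ⟨u, v, huv⟩ := hcop
  -- the residue
  have hemod_nonneg : 0 ≤ (a * u) % (e : ℤ) := Int.emod_nonneg _ (by exact_mod_cast hepos.ne')
  have hemod_lt : (a * u) % (e : ℤ) < e := Int.emod_lt_of_pos _ (by exact_mod_cast hepos)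
  set x : ℕ := ((a * u) % (e : ℤ)).toNat with hx
  have hxZ : (x : ℤ) = (a * u) % (e : ℤ) := Int.toNat_of_nonneg hemod_nonneg
  have hxe : x < e := by
    have : (x : ℤ) < e := by rw [hxZ]; exact hemod_lt
    exact_mod_cast this
  -- `x * c' ≡ a mod e`
  have hxc : (e : ℤ) ∣ x * c' - a := by
    have h1 : (e : ℤ) ∣ a * u - x := by
      rw [hxZ]
      exact ⟨a * u / (e : ℤ), by have := Int.emod_add_mul_ediv (a * u) (e : ℤ); linarith⟩
    have h2 : (x : ℤ) * c' - a = -((a * u - x) * c') + (-(a * v)) * e := by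
      linear_combination a * huv
    rw [h2]
    exact dvd_add (Dvd.dvd.neg_right (Dvd.dvd.mul_right h1 _)) (dvd_mul_left _ _)
  refine ⟨d, x, hdN, hxe, ?_, ?_⟩
  · -- coprimality of `x` with `gcd d e`
    rw [← Nat.isCoprime_iff_coprime]
    obtain ⟨s, t, hst⟩ := hac
    obtain ⟨w, hw⟩ := hxc
    have hg1 : ((d.gcd e : ℕ) : ℤ) ∣ (d : ℤ) := Int.natCast_dvd_natCast.mpr (Nat.gcd_dvd_left d e)
    have hg2 : ((d.gcd e : ℕ) : ℤ) ∣ (e : ℤ) := Int.natCast_dvd_natCast.mpr (Nat.gcd_dvd_right d e)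
    obtain ⟨y1, hy1⟩ := hg1
    obtain ⟨y2, hy2⟩ := hg2
    refine ⟨s * c', -(s * w * y2) + t * c' * y1, ?_⟩
    have ha : a = x * c' - e * w := by linarith
    calc s * c' * (x : ℤ) + (-(s * w * y2) + t * c' * y1) * ((d.gcd e : ℕ) : ℤ)
        = s * (x * c' - ((d.gcd e : ℕ) : ℤ) * y2 * w) + t * (((d.gcd e : ℕ) : ℤ) * y1 * c') := by
          ring
      _ = s * (x * c' - e * w) + t * (d * c') := by rw [← hy1, ← hy2]
      _ = s * a + t * c := by rw [← ha, ← hc']
      _ = 1 := hst
  · intro a' ha'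
    obtain ⟨w1, hw1⟩ := ha'
    obtain ⟨w2, hw2⟩ := hxc
    refine ⟨w1 * c' + w2, ?_⟩
    have hNZ : (N : ℤ) = (d : ℤ) * (e : ℤ) := by exact_mod_cast hNe
    rw [hNZ, hc']
    have e1 : a' = x + e * w1 := by linarith
    have e2 : a = x * c' - e * w2 := by linarith
    rw [e1, e2]
    ring

variable (N : ℕ) [NeZero N]

/-- A chosen representative for each normal form. -/
noncomputable def rep (p : {p // p ∈ NF N}) : SL(2, ℤ) := Classical.choose (exists_rep p.1 p.2)

omit [NeZero N] in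
lemma rep_spec (p : {p // p ∈ NF N}) :
    (rep N p) 1 0 = (p.1.1 : ℤ) ∧ ((N / p.1.1 : ℕ) : ℤ) ∣ (rep N p) 0 0 - (p.1.2 : ℤ) :=
  Classical.choose_spec (exists_rep p.1 p.2)

/-- The map from normal forms to cosets is bijective. -/
theorem bijective_rep :
    Function.Bijective (fun p : {p // p ∈ NF N} =>
      (QuotientGroup.mk (rep N p) : SL(2, ℤ) ⧸ Gamma0 N)) := by
  have hN : N ≠ 0 := NeZero.ne N
  constructor
  · intro p p' h
    simp only at h
    rw [coset_eq_iff] at h
    obtain ⟨h10, h00⟩ := rep_spec N p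
    obtain ⟨h10', h00'⟩ := rep_spec N p'
    obtain ⟨⟨hd, -⟩, hx, -⟩ := mem_NF.mp p.2
    obtain ⟨⟨hd', -⟩, hx', -⟩ := mem_NF.mp p'.2
    have hc := isCoprime_col (rep N p)
    have hc' := isCoprime_col (rep N p')
    rw [h10] at hc
    rw [h10'] at hc'
    rw [h10, h10'] at h
    obtain ⟨hdd, hdiv⟩ := nf_inj hN hd hd' hc hc' h
    -- now the residues agree
    have hxx : p.1.2 = p'.1.2 := by
      rw [← hdd] at h00' hx'
      have h5 : ((N / p.1.1 : ℕ) : ℤ) ∣ (p.1.2 : ℤ) - (p'.1.2 : ℤ) := by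
        have := dvd_sub (dvd_sub hdiv h00) (Dvd.dvd.neg_right h00')
        have e : (rep N p) 0 0 - (rep N p') 0 0 - ((rep N p) 0 0 - (p.1.2 : ℤ))
            - -((rep N p') 0 0 - (p'.1.2 : ℤ)) = (p.1.2 : ℤ) - (p'.1.2 : ℤ) := by ring
        rwa [e] at this
      have h6 : (p.1.2 : ℤ) % ((N / p.1.1 : ℕ) : ℤ) = (p'.1.2 : ℤ) % ((N / p.1.1 : ℕ) : ℤ) :=
        Int.emod_eq_emod_iff_emod_sub_eq_zero.mpr (Int.emod_eq_zero_of_dvd h5)
      have h7 : p.1.2 % (N / p.1.1) = p'.1.2 % (N / p.1.1) := by exact_mod_cast h6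
      rwa [Nat.mod_eq_of_lt hx, Nat.mod_eq_of_lt hx'] at h7
    apply Subtype.ext
    exact Sigma.ext hdd (heq_of_eq hxx)
  · intro q
    induction q using QuotientGroup.induction_on with
    | H g =>
      obtain ⟨d, x, hdN, hxe, hcop, hall⟩ := nf_surj hN (isCoprime_col g)
      have hp : (⟨d, x⟩ : Σ _ : ℕ, ℕ) ∈ NF N := mem_NF.mpr ⟨⟨hdN, hN⟩, hxe, hcop⟩
      refine ⟨⟨⟨d, x⟩, hp⟩, ?_⟩
      simp only
      rw [coset_eq_iff]
      obtain ⟨h10, h00⟩ := rep_spec N ⟨⟨d, x⟩, hp⟩
      simp only at h10 h00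
      rw [h10]
      exact hall _ h00

/-- **G1a**: the number of cosets of `Gamma0 N` as a sum over divisors. -/
theorem card_cosets_eq_sum :
    Nat.card (SL(2, ℤ) ⧸ Gamma0 N) = ∑ d ∈ N.divisors,
      ((Finset.range (N / d)).filter (fun x => Nat.Coprime x (Nat.gcd d (N / d)))).card := by
  rw [← card_NF, ← Nat.card_eq_of_bijective _ (bijective_rep N)]
  simp

/-- **G1a**, index form. -/
theorem index_Gamma0_eq_sum :
    (Gamma0 N).index = ∑ d ∈ N.divisors,
      ((Finset.range (N / d)).filter (fun x => Nat.Coprime x (Nat.gcd d (N / d)))).card := by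
  rw [Subgroup.index_eq_card, card_cosets_eq_sum]

end Fermat.Agent.S20.H19

end
-- ==== END Fermat.Agent.S20.H19_NormalForm

-- ==== BEGIN Fermat.Agent.S20.H2_Eig
section

/-!
# S20 (helper2): packages F7 + F8 of the cusp filtration, and the abstract assembly

* `iSupIndep_of_eigen` (F7): subspaces of `C → ℂ` on which `v ∘ σ = ζ ^ a • v` are independent
  for `a < N` as soon as the `ζ ^ a` (`a < N`) are pairwise distinct.
* `exp_pow_inj`: the `N` powers of `exp (2πi/N)` are distinct.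
* `finrank_T_invariant` (F8): the space of `T`-invariant functions on the cosets has
  dimension `cuspNum Γ`.
* `cusp_filtration_main`: the abstract assembly (telescoping + F7 + F8): from the filtration
  data one gets `dim Fil 0 = dim Fil 1 + cuspNum Γ` and an adapted family.
-/

set_option autoImplicit false

open Module MatrixGroups

namespace Fermat.Agent.S20.H2

/-- (F7) Independence of "eigenspaces" of the shift operator `v ↦ v ∘ σ`. -/
theorem iSupIndep_of_eigen {C : Type*} (σ : C → C) (N : ℕ) (ζ : ℂ)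
    (hζ : ∀ a < N, ∀ b < N, ζ ^ a = ζ ^ b → a = b)
    (W : ℕ → Submodule ℂ (C → ℂ))
    (hW : ∀ a, ∀ v ∈ W a, ∀ q, v (σ q) = ζ ^ a * v q) :
    iSupIndep (fun a : Fin N => W a) := by
  let P : Module.End ℂ (C → ℂ) := LinearMap.funLeft ℂ ℂ σ
  have h1 : iSupIndep P.eigenspace := Module.End.eigenspaces_iSupIndep P
  have hinj : Function.Injective (fun a : Fin N => ζ ^ (a : ℕ)) := by
    intro a b hab
    exact Fin.ext (hζ a a.2 b b.2 hab)
  have h2 : iSupIndep (fun a : Fin N => P.eigenspace (ζ ^ (a : ℕ))) := h1.comp hinj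
  refine h2.mono fun a v hv => ?_
  rw [Module.End.mem_eigenspace_iff]
  funext q
  simp only [P, LinearMap.funLeft_apply, Pi.smul_apply, smul_eq_mul]
  exact hW a v hv q

/-- The `N` powers `ζ ^ a`, `a < N`, of `ζ = exp (2πi/N)` are pairwise distinct. -/
theorem exp_pow_inj (N : ℕ) (hN : 0 < N) :
    ∀ a < N, ∀ b < N,
      Complex.exp (2 * Real.pi * Complex.I / N) ^ a
        = Complex.exp (2 * Real.pi * Complex.I / N) ^ b → a = b := by
  intro a ha b hb hab
  exact (Complex.isPrimitiveRoot_exp N hN.ne').pow_inj ha hb hab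

variable {Γ : Subgroup SL(2, ℤ)}

/-- A function on the cosets invariant under `T⁻¹` is invariant under `⟨T⟩`. -/
theorem invariant_zpowers_of_T_inv {C : Type*} [MulAction SL(2, ℤ) C] (v : C → ℂ)
    (h : ∀ q, v (ModularGroup.T⁻¹ • q) = v q) (g : Subgroup.zpowers ModularGroup.T) (q : C) :
    v (g • q) = v q := by
  obtain ⟨g, n, rfl⟩ := g
  show v ((ModularGroup.T ^ n) • q) = v q
  have hT : ∀ q, v (ModularGroup.T • q) = v q := by
    intro q
    have := h (ModularGroup.T • q)
    rw [inv_smul_smul] at this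
    exact this.symm
  induction n using Int.induction_on generalizing q with
  | zero => simp
  | succ n ih =>
    rw [zpow_add_one, mul_smul, ih]
    exact hT q
  | pred n ih =>
    rw [zpow_sub_one, mul_smul, ih]
    exact h q

/-- (F8) The space of `T⁻¹`-invariant functions on the cosets has dimension `cuspNum Γ`. -/
theorem finrank_T_invariant [Γ.FiniteIndex] (W : Submodule ℂ ((SL(2, ℤ) ⧸ Γ) → ℂ))
    (hW : ∀ v : (SL(2, ℤ) ⧸ Γ) → ℂ, v ∈ W ↔ ∀ q, v (ModularGroup.T⁻¹ • q) = v q) :
    finrank ℂ W = H74.cuspNum Γ := by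
  haveI : Finite (SL(2, ℤ) ⧸ Γ) := Subgroup.finite_quotient_of_finiteIndex
  unfold H74.cuspNum
  refine H89.P4_finrank_of_mem_iff (Subgroup.zpowers ModularGroup.T) (SL(2, ℤ) ⧸ Γ) W ?_
  intro v
  rw [hW v]
  constructor
  · intro h g q
    exact invariant_zpowers_of_T_inv v h g q
  · intro h q
    have hmem : ModularGroup.T⁻¹ ∈ Subgroup.zpowers ModularGroup.T :=
      (Subgroup.zpowers ModularGroup.T).inv_mem (Subgroup.mem_zpowers _)
    exact h ⟨ModularGroup.T⁻¹, hmem⟩ q

/-- The `ζ ^ a`-eigenspace of the shift `v ↦ v (T⁻¹ • ·)` on functions on the cosets. -/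
def eigT (Γ : Subgroup SL(2, ℤ)) (ζ : ℂ) (a : ℕ) : Submodule ℂ ((SL(2, ℤ) ⧸ Γ) → ℂ) where
  carrier := {v | ∀ q, v (ModularGroup.T⁻¹ • q) = ζ ^ a * v q}
  add_mem' := by
    intro v w hv hw q
    simp only [Pi.add_apply, hv q, hw q, mul_add]
  zero_mem' := by intro q; simp
  smul_mem' := by
    intro c v hv q
    simp only [Pi.smul_apply, smul_eq_mul, hv q]
    ring

theorem mem_eigT {ζ : ℂ} {a : ℕ} {v : (SL(2, ℤ) ⧸ Γ) → ℂ} :
    v ∈ eigT Γ ζ a ↔ ∀ q, v (ModularGroup.T⁻¹ • q) = ζ ^ a * v q := Iff.rfl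

theorem eigT_iSupIndep (N : ℕ) (ζ : ℂ) (hζ : ∀ a < N, ∀ b < N, ζ ^ a = ζ ^ b → a = b) :
    iSupIndep (fun a : Fin N => eigT Γ ζ a) :=
  iSupIndep_of_eigen (fun q : SL(2, ℤ) ⧸ Γ => ModularGroup.T⁻¹ • q) N ζ hζ
    (fun a => eigT Γ ζ a) (fun _ _ hv q => hv q)

theorem finrank_eigT_zero [Γ.FiniteIndex] (ζ : ℂ) :
    finrank ℂ (eigT Γ ζ 0) = H74.cuspNum Γ :=
  finrank_T_invariant (eigT Γ ζ 0) (fun v => by simp [mem_eigT])

/-- **Abstract assembly of INF1 + INF2.**  `M` is the space of forms (`MF Γ K`), `Fil` the cusp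
filtration, `L a` the leading term maps.  Hypotheses: (F0) `hFil0`, (F1) `hanti`, (F2) `hker`,
(F3) `hT`, and the dimension inequality `dim Fil N + index ≤ dim M`.  Conclusions:
`dim Fil 0 = dim Fil 1 + cuspNum Γ` (INF1 once `Fil 1 = CF`), `range (L 0)` = the `T`-invariant
functions, and an adapted family (INF2). -/
theorem cusp_filtration_main [Γ.FiniteIndex] {M : Type*} [AddCommGroup M] [Module ℂ M]
    [FiniteDimensional ℂ M] (N : ℕ) (hN : 0 < N) (ζ : ℂ)
    (hζ : ∀ a < N, ∀ b < N, ζ ^ a = ζ ^ b → a = b)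
    (Fil : ℕ → Submodule ℂ M) (hFil0 : Fil 0 = ⊤)
    (hanti : ∀ a, Fil (a + 1) ≤ Fil a) (L : ∀ a, Fil a →ₗ[ℂ] ((SL(2, ℤ) ⧸ Γ) → ℂ))
    (hker : ∀ a (f : Fil a), L a f = 0 ↔ (f : M) ∈ Fil (a + 1))
    (hT : ∀ a (f : Fil a) (q : SL(2, ℤ) ⧸ Γ), L a f (ModularGroup.T⁻¹ • q) = ζ ^ a * L a f q)
    (hdim : finrank ℂ (Fil N) + Γ.index ≤ finrank ℂ M) :
    finrank ℂ M = finrank ℂ (Fil 1) + H74.cuspNum Γ ∧
    finrank ℂ M = finrank ℂ (Fil N) + Γ.index ∧
    (∀ a < N, LinearMap.range (L a) = eigT Γ ζ a) ∧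
    ∃ (a : (SL(2, ℤ) ⧸ Γ) → ℕ) (G : ∀ i, Fil (a i)), (∀ i, a i < N) ∧
      LinearIndependent ℂ (fun i => L (a i) (G i)) := by
  classical
  haveI : Finite (SL(2, ℤ) ⧸ Γ) := Subgroup.finite_quotient_of_finiteIndex
  letI : Fintype (SL(2, ℤ) ⧸ Γ) := Fintype.ofFinite _
  have hV : finrank ℂ ((SL(2, ℤ) ⧸ Γ) → ℂ) = Γ.index := by
    rw [Module.finrank_fintype_fun_eq_card, ← Nat.card_eq_fintype_card]
    rfl
  have hdim' : finrank ℂ (Fil N) + finrank ℂ ((SL(2, ℤ) ⧸ Γ) → ℂ) ≤ finrank ℂ M := by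
    rw [hV]; exact hdim
  obtain ⟨h1, h2, h3, h4⟩ := filtration_core N Fil hFil0 hanti L hker (fun a => eigT Γ ζ a)
    (fun a f q => hT a f q) (eigT_iSupIndep N ζ hζ) hdim'
  refine ⟨?_, ?_, h1, exists_adapted_family N Fil L h2⟩
  · have := h3 0 hN
    rw [finrank_eigT_zero, hFil0, finrank_top] at this
    exact this
  · rw [h4, hV]

end Fermat.Agent.S20.H2

end
-- ==== END Fermat.Agent.S20.H2_Eig

-- ==== BEGIN Fermat.Agent.S20.H38_CuspCount
section

/-!
# S20, part G4 (helper38): the number of `T`-orbits on `SL(2,ℤ) ⧸ Γ₀(N)` is `cuspCount N`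

Route: the double coset `⟨T⟩ g Γ₀(N)` of `g = !![a, b; c, e]` is classified by the invariant
`(d, t)` where `d = gcd(c, N)` and `t = a * (c / d)⁻¹ ∈ (ℤ / gcd(d, N/d))ˣ`.
-/

set_option autoImplicit false

open MatrixGroups CongruenceSubgroup

namespace Fermat.Agent.S20.H38

/-! ## Pure number theory -/

section NT

variable {N : ℕ}

/-- `gcd(d, N/d)` -/
def gg (N d : ℕ) : ℕ := Nat.gcd d (N / d)

lemma gg_pos {d : ℕ} (hN : N ≠ 0) (hd : d ∣ N) : 0 < gg N d := by
  have hd0 : d ≠ 0 := fun h => hN (by simpa [h] using hd)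
  exact Nat.gcd_pos_of_pos_left _ (Nat.pos_of_ne_zero hd0)

lemma gg_dvd_left (N d : ℕ) : gg N d ∣ d := Nat.gcd_dvd_left _ _

lemma gg_dvd_right (N d : ℕ) : gg N d ∣ N / d := Nat.gcd_dvd_right _ _

/-- the "level" of the bottom-left entry -/
def dd (N : ℕ) (c : ℤ) : ℕ := Int.gcd c N

lemma dd_dvd (N : ℕ) (c : ℤ) : dd N c ∣ N := by
  have : ((dd N c : ℕ) : ℤ) ∣ (N : ℤ) := Int.gcd_dvd_right c N
  exact Int.natCast_dvd_natCast.mp this

lemma dd_dvd_left (N : ℕ) (c : ℤ) : ((dd N c : ℕ) : ℤ) ∣ c := Int.gcd_dvd_left c N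

lemma dd_ne_zero (hN : N ≠ 0) (c : ℤ) : dd N c ≠ 0 := by
  intro h
  have := dd_dvd N c
  rw [h] at this
  exact hN (Nat.eq_zero_of_zero_dvd this)

/-- `c / gcd(c, N)` is coprime to `N / gcd(c, N)`. -/
lemma isCoprime_div (hN : N ≠ 0) (c : ℤ) :
    IsCoprime (c / (dd N c : ℤ)) (((N / dd N c : ℕ) : ℤ)) := by
  have hpos : 0 < Int.gcd c (N : ℤ) := Nat.pos_of_ne_zero (dd_ne_zero hN c)
  have h := Int.gcd_div_gcd_div_gcd (i := c) (j := (N : ℤ)) hpos
  rw [Int.isCoprime_iff_gcd_eq_one]
  have hcast : (((N / dd N c : ℕ) : ℤ)) = (N : ℤ) / (Int.gcd c (N : ℤ) : ℤ) := by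
    rw [dd]; push_cast; rfl
  rw [hcast]
  exact h

/-- Packaged data attached to a bottom-left entry `c`. -/
lemma data (hN : N ≠ 0) (c : ℤ) : ∃ (u : ℤ) (M : ℕ), c = (dd N c : ℤ) * u ∧ N = dd N c * M ∧
    c / (dd N c : ℤ) = u ∧ N / dd N c = M ∧ IsCoprime u (M : ℤ) := by
  have hd0 : ((dd N c : ℕ) : ℤ) ≠ 0 := by exact_mod_cast dd_ne_zero hN c
  obtain ⟨u, hu⟩ := dd_dvd_left N c
  obtain ⟨M, hM⟩ := dd_dvd N c
  have hMd : N / dd N c = M :=
    Nat.div_eq_of_eq_mul_right (Nat.pos_of_ne_zero (dd_ne_zero hN c)) hM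
  have hcu : c / (dd N c : ℤ) = u := Int.ediv_eq_of_eq_mul_right hd0 hu
  refine ⟨u, M, hu, hM, hcu, hMd, ?_⟩
  have := isCoprime_div hN c
  rwa [hcu, hMd] at this

/-- The arithmetic criterion for two columns `(a, c)`, `(a', c')` to be in the same
double coset. -/
lemma key (hN : N ≠ 0) {a c a' c' : ℤ} (h : IsCoprime a c) (h' : IsCoprime a' c') :
    (∃ k : ℤ, (N : ℤ) ∣ a * c' - a' * c - k * (c * c')) ↔
      dd N c = dd N c' ∧
        ((gg N (dd N c) : ℕ) : ℤ) ∣ a * (c' / (dd N c' : ℤ)) - a' * (c / (dd N c : ℤ)) := by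
  have aux : ∀ {a c a' c' : ℤ}, IsCoprime a c → ∀ k : ℤ,
      (N : ℤ) ∣ a * c' - a' * c - k * (c * c') → dd N c ∣ dd N c' := by
    intro a c a' c' h k hk
    have hdN : ((dd N c : ℕ) : ℤ) ∣ (N : ℤ) := Int.gcd_dvd_right c N
    have hdc : ((dd N c : ℕ) : ℤ) ∣ c := dd_dvd_left N c
    have h1 : ((dd N c : ℕ) : ℤ) ∣ a * c' := by
      have h2 : ((dd N c : ℕ) : ℤ) ∣ a * c' - a' * c - k * (c * c') := hdN.trans hk
      have h3 : ((dd N c : ℕ) : ℤ) ∣ a' * c + k * (c * c') :=
        dvd_add (hdc.mul_left _) ((hdc.mul_right _).mul_left _)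
      have := dvd_add h2 h3
      have e : a * c' - a' * c - k * (c * c') + (a' * c + k * (c * c')) = a * c' := by ring
      rwa [e] at this
    have hcop : IsCoprime ((dd N c : ℕ) : ℤ) a := (h.of_isCoprime_of_dvd_right hdc).symm
    have h4 : ((dd N c : ℕ) : ℤ) ∣ c' := hcop.dvd_of_dvd_mul_left h1
    have h5 : ((dd N c : ℕ) : ℤ) ∣ ((Int.gcd c' (N : ℤ) : ℕ) : ℤ) := Int.dvd_coe_gcd h4 hdN
    exact Int.natCast_dvd_natCast.mp h5
  obtain ⟨u, M, hu, hM, hcu, hMd, cop1⟩ := data hN c
  obtain ⟨u', M', hu', hM', hcu', hMd', cop2⟩ := data hN c'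
  constructor
  · rintro ⟨k, hk⟩
    have e1 : dd N c ∣ dd N c' := aux h k hk
    have e2 : dd N c' ∣ dd N c := by
      refine aux (a' := a) h' (-k) ?_
      have : a' * c - a * c' - -k * (c' * c) = -(a * c' - a' * c - k * (c * c')) := by ring
      rw [this]
      exact (dvd_neg).mpr hk
    have hd : dd N c = dd N c' := Nat.dvd_antisymm e1 e2
    refine ⟨hd, ?_⟩
    rw [hcu, hcu']
    rw [← hd] at hu' hM'
    generalize dd N c = d at *
    have hd0 : (d : ℤ) ≠ 0 := by
      intro h0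
      have : d = 0 := by exact_mod_cast h0
      rw [this, zero_mul] at hM
      exact hN hM
    have hNM : (N : ℤ) = d * M := by exact_mod_cast hM
    have h6 : (d : ℤ) * M ∣ d * (a * u' - a' * u - k * (d * u * u')) := by
      have : (d : ℤ) * (a * u' - a' * u - k * (d * u * u')) = a * c' - a' * c - k * (c * c') := by
        rw [hu, hu']; ring
      rw [this, ← hNM]; exact hk
    have h7 : (M : ℤ) ∣ a * u' - a' * u - k * (d * u * u') :=
      (mul_dvd_mul_iff_left hd0).mp h6
    have hgM : ((gg N d : ℕ) : ℤ) ∣ (M : ℤ) := by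
      rw [← hMd]; exact Int.natCast_dvd_natCast.mpr (gg_dvd_right N d)
    have hgd : ((gg N d : ℕ) : ℤ) ∣ (d : ℤ) := Int.natCast_dvd_natCast.mpr (gg_dvd_left N d)
    have h8 := hgM.trans h7
    have h9 : ((gg N d : ℕ) : ℤ) ∣ k * (d * u * u') :=
      (((hgd.mul_right u).mul_right u')).mul_left k
    have := dvd_add h8 h9
    have e : a * u' - a' * u - k * (d * u * u') + k * (d * u * u') = a * u' - a' * u := by ring
    rwa [e] at this
  · rintro ⟨hd, hdiv⟩
    rw [hcu, hcu'] at hdiv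
    rw [← hd] at hu' hM' hMd'
    have hMM : M' = M := by rw [← hMd, ← hMd']
    subst hMM
    generalize dd N c = d at *
    have hd0 : (d : ℤ) ≠ 0 := by
      intro h0
      have : d = 0 := by exact_mod_cast h0
      rw [this, zero_mul] at hM
      exact hN hM
    have hNM : (N : ℤ) = d * M' := by exact_mod_cast hM
    obtain ⟨w, z, hwz⟩ : IsCoprime (u * u') (M' : ℤ) := cop1.mul_left cop2
    -- Bezout for `gcd(d, M)`
    have hgg : ((gg N d : ℕ) : ℤ) = (d : ℤ) * Int.gcdA d M' + (M' : ℤ) * Int.gcdB d M' := by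
      have := Int.gcd_eq_gcd_ab (d : ℤ) (M' : ℤ)
      rw [← this, gg, hMd]
      simp [Int.gcd_natCast_natCast]
    obtain ⟨q, hq⟩ := hdiv
    refine ⟨Int.gcdA d M' * q * w, ?_⟩
    have : a * c' - a' * c - Int.gcdA d M' * q * w * (c * c') =
        (d : ℤ) * M' * ((Int.gcdB d M') * q + d * Int.gcdA d M' * q * z) := by
      have hr : a * u' - a' * u = ((d : ℤ) * Int.gcdA d M' + (M' : ℤ) * Int.gcdB d M') * q := by
        rw [hq, hgg]
      have e1 : a * c' - a' * c - Int.gcdA d M' * q * w * (c * c') =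
          d * ((a * u' - a' * u) - d * Int.gcdA d M' * q * (w * (u * u'))) := by
        rw [hu, hu']; ring
      have e2 : w * (u * u') = 1 - z * M' := by linear_combination hwz
      rw [e1, hr, e2]; ring
    rw [this, hNM]
    exact Dvd.intro _ rfl

end NT

/-! ## The invariant -/

section Invariant

variable {N : ℕ}

/-- the unit `a * u⁻¹` of `ZMod (gcd(d, N/d))` -/
noncomputable def mkUnit (N d : ℕ) (a u : ℤ) (ha : IsUnit ((a : ℤ) : ZMod (gg N d)))
    (hu : IsUnit ((u : ℤ) : ZMod (gg N d))) : (ZMod (gg N d))ˣ :=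
  ha.unit * hu.unit⁻¹

lemma mkUnit_eq_iff (d : ℕ) (a u a' u' : ℤ) (ha : IsUnit ((a : ℤ) : ZMod (gg N d)))
    (hu : IsUnit ((u : ℤ) : ZMod (gg N d))) (ha' : IsUnit ((a' : ℤ) : ZMod (gg N d)))
    (hu' : IsUnit ((u' : ℤ) : ZMod (gg N d))) :
    mkUnit N d a u ha hu = mkUnit N d a' u' ha' hu' ↔
      ((gg N d : ℕ) : ℤ) ∣ a * u' - a' * u := by
  unfold mkUnit
  rw [mul_inv_eq_iff_eq_mul, mul_assoc, mul_comm _ hu.unit, ← mul_assoc, eq_comm,
    mul_inv_eq_iff_eq_mul, Units.ext_iff]
  simp only [Units.val_mul, IsUnit.unit_spec]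
  rw [← Int.cast_mul, ← Int.cast_mul, ZMod.intCast_eq_intCast_iff_dvd_sub]

lemma sigma_mk_eq_iff (d d' : ℕ) (hd : d ∈ N.divisors) (hd' : d' ∈ N.divisors)
    (a u a' u' : ℤ) (ha : IsUnit ((a : ℤ) : ZMod (gg N d)))
    (hu : IsUnit ((u : ℤ) : ZMod (gg N d))) (ha' : IsUnit ((a' : ℤ) : ZMod (gg N d')))
    (hu' : IsUnit ((u' : ℤ) : ZMod (gg N d'))) :
    ((⟨⟨d, hd⟩, mkUnit N d a u ha hu⟩ : Σ d : N.divisors, (ZMod (gg N d))ˣ) =
        ⟨⟨d', hd'⟩, mkUnit N d' a' u' ha' hu'⟩) ↔
      d = d' ∧ ((gg N d : ℕ) : ℤ) ∣ a * u' - a' * u := by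
  constructor
  · intro h
    have h1 : d = d' := congrArg (fun x => (x.1 : ℕ)) h
    subst h1
    have h2 := eq_of_heq (Sigma.mk.inj h).2
    exact ⟨rfl, (mkUnit_eq_iff d a u a' u' ha hu ha' hu').mp h2⟩
  · rintro ⟨rfl, h⟩
    rw [(mkUnit_eq_iff d a u a' u' ha hu ha' hu').mpr h]

end Invariant

section Main

variable (N : ℕ)

lemma isUnit_a (g : SL(2, ℤ)) :
    IsUnit (((g 0 0 : ℤ)) : ZMod (gg N (dd N (g 1 0)))) := by
  rw [ZMod.coe_int_isUnit_iff_isCoprime]
  have h := H19.isCoprime_col g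
  have hG : ((gg N (dd N (g 1 0)) : ℕ) : ℤ) ∣ g 1 0 :=
    (Int.natCast_dvd_natCast.mpr (gg_dvd_left _ _)).trans (dd_dvd_left N _)
  exact (h.of_isCoprime_of_dvd_right hG).symm

variable [NeZero N]

lemma isUnit_u (g : SL(2, ℤ)) :
    IsUnit (((g 1 0 / (dd N (g 1 0) : ℤ) : ℤ)) : ZMod (gg N (dd N (g 1 0)))) := by
  rw [ZMod.coe_int_isUnit_iff_isCoprime]
  have h := isCoprime_div (NeZero.ne N) (g 1 0)
  have hG : ((gg N (dd N (g 1 0)) : ℕ) : ℤ) ∣ ((N / dd N (g 1 0) : ℕ) : ℤ) :=
    Int.natCast_dvd_natCast.mpr (gg_dvd_right _ _)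
  exact (h.of_isCoprime_of_dvd_right hG).symm

/-- The invariant of a matrix. -/
noncomputable def Phi (g : SL(2, ℤ)) : Σ d : N.divisors, (ZMod (gg N d))ˣ :=
  ⟨⟨dd N (g 1 0), Nat.mem_divisors.mpr ⟨dd_dvd N _, NeZero.ne N⟩⟩,
    mkUnit N (dd N (g 1 0)) (g 0 0) (g 1 0 / (dd N (g 1 0) : ℤ)) (isUnit_a N g) (isUnit_u N g)⟩

lemma Phi_eq_iff (g g' : SL(2, ℤ)) :
    Phi N g = Phi N g' ↔
      ∃ k : ℤ, (QuotientGroup.mk (ModularGroup.T ^ k * g') : SL(2, ℤ) ⧸ Gamma0 N) =
        QuotientGroup.mk g := by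
  unfold Phi
  rw [sigma_mk_eq_iff, ← key (NeZero.ne N) (H19.isCoprime_col g) (H19.isCoprime_col g')]
  refine exists_congr fun k => ?_
  rw [H19.coset_eq_iff, H19.T_zpow_mul_apply_zero_zero, H19.T_zpow_mul_apply_one_zero]
  have : (g' 0 0 + k * g' 1 0) * g 1 0 - g' 1 0 * g 0 0 =
      -(g 0 0 * g' 1 0 - g' 0 0 * g 1 0 - k * (g 1 0 * g' 1 0)) := by ring
  rw [this, dvd_neg]

lemma Phi_surjective : Function.Surjective (Phi N) := by
  rintro ⟨⟨d, hd⟩, t⟩
  have hdN : d ∣ N := (Nat.mem_divisors.mp hd).1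
  have hd0 : d ≠ 0 := fun h => (NeZero.ne N) (by simpa [h] using hdN)
  have : NeZero d := ⟨hd0⟩
  obtain ⟨t', ht'⟩ := ZMod.unitsMap_surjective (gg_dvd_left N d) t
  have hcop : Nat.Coprime (t' : ZMod d).val d := ZMod.val_coe_unit_coprime t'
  have hcopZ : IsCoprime (((t' : ZMod d).val : ℕ) : ℤ) ((d : ℕ) : ℤ) :=
    Nat.isCoprime_iff_coprime.mpr hcop
  obtain ⟨g, hg0, hg1⟩ := hcopZ.exists_SL2_col 0
  refine ⟨g, ?_⟩
  have hdd : dd N (g 1 0) = d := by
    rw [hg1, dd, Int.gcd_natCast_natCast]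
    exact Nat.gcd_eq_left hdN
  have ha : IsUnit (((((t' : ZMod d).val : ℕ) : ℤ)) : ZMod (gg N d)) := by
    have := isUnit_a N g
    rwa [hdd, hg0] at this
  have h1 : IsUnit (((1 : ℤ)) : ZMod (gg N d)) := by simp
  have ht : t = mkUnit N d (((t' : ZMod d).val : ℕ) : ℤ) 1 ha h1 := by
    rw [← ht']
    ext
    simp only [mkUnit, Units.val_mul, IsUnit.unit_spec, ZMod.unitsMap_def, Units.coe_map,
      MonoidHom.coe_coe, ZMod.castHom_apply]
    have h1u : h1.unit = 1 := by ext; simp
    rw [h1u, inv_one, Units.val_one, mul_one, Int.cast_natCast, ZMod.cast_eq_val]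
  rw [ht]
  unfold Phi
  rw [sigma_mk_eq_iff]
  refine ⟨hdd, ?_⟩
  have hdZ : ((d : ℕ) : ℤ) ≠ 0 := by exact_mod_cast hd0
  rw [hdd, hg0, hg1, Int.ediv_self hdZ]
  simp

lemma Phi_eq_of_mk_eq {g g' : SL(2, ℤ)}
    (h : (QuotientGroup.mk g : SL(2, ℤ) ⧸ Gamma0 N) = QuotientGroup.mk g') :
    Phi N g = Phi N g' :=
  (Phi_eq_iff N g g').mpr ⟨0, by simpa using h.symm⟩

/-- The invariant on cosets. -/
noncomputable def PhiCoset (x : SL(2, ℤ) ⧸ Gamma0 N) : Σ d : N.divisors, (ZMod (gg N d))ˣ :=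
  Quotient.liftOn' x (Phi N) (fun _ _ hab => Phi_eq_of_mk_eq N (Quotient.sound' hab))

@[simp] lemma PhiCoset_mk (g : SL(2, ℤ)) :
    PhiCoset N (QuotientGroup.mk g : SL(2, ℤ) ⧸ Gamma0 N) = Phi N g := rfl

omit [NeZero N] in
lemma orbitRel_mk_iff (g g' : SL(2, ℤ)) :
    MulAction.orbitRel (Subgroup.zpowers ModularGroup.T) (SL(2, ℤ) ⧸ Gamma0 N)
        (QuotientGroup.mk g) (QuotientGroup.mk g') ↔
      ∃ k : ℤ, (QuotientGroup.mk (ModularGroup.T ^ k * g') : SL(2, ℤ) ⧸ Gamma0 N) =
        QuotientGroup.mk g := by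
  rw [MulAction.orbitRel_apply, MulAction.mem_orbit_iff]
  constructor
  · rintro ⟨⟨h, hh⟩, hx⟩
    obtain ⟨k, rfl⟩ := Subgroup.mem_zpowers_iff.mp hh
    exact ⟨k, hx⟩
  · rintro ⟨k, hk⟩
    exact ⟨⟨ModularGroup.T ^ k, Subgroup.mem_zpowers_iff.mpr ⟨k, rfl⟩⟩, hk⟩

lemma PhiCoset_eq_iff (x y : SL(2, ℤ) ⧸ Gamma0 N) :
    PhiCoset N x = PhiCoset N y ↔
      MulAction.orbitRel (Subgroup.zpowers ModularGroup.T) (SL(2, ℤ) ⧸ Gamma0 N) x y := by
  induction x using QuotientGroup.induction_on with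
  | H g =>
    induction y using QuotientGroup.induction_on with
    | H g' => rw [PhiCoset_mk, PhiCoset_mk, Phi_eq_iff, orbitRel_mk_iff]

/-- The invariant on orbits. -/
noncomputable def PhiOrbit
    (q : MulAction.orbitRel.Quotient (Subgroup.zpowers ModularGroup.T) (SL(2, ℤ) ⧸ Gamma0 N)) :
    Σ d : N.divisors, (ZMod (gg N d))ˣ :=
  Quotient.liftOn' q (PhiCoset N) (fun x y hxy => (PhiCoset_eq_iff N x y).mpr hxy)

lemma PhiOrbit_bijective : Function.Bijective (PhiOrbit N) := by
  constructor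
  · intro q q' h
    induction q using Quotient.inductionOn' with
    | h x =>
      induction q' using Quotient.inductionOn' with
      | h y => exact Quotient.sound' ((PhiCoset_eq_iff N x y).mp h)
  · intro s
    obtain ⟨g, hg⟩ := Phi_surjective N s
    exact ⟨Quotient.mk'' (QuotientGroup.mk g), hg⟩

lemma card_target :
    Nat.card (Σ d : N.divisors, (ZMod (gg N d))ˣ) = ModularCurve.cuspCount N := by
  have hpos : ∀ d : N.divisors, NeZero (gg N d) := fun d =>
    ⟨(gg_pos (NeZero.ne N) (Nat.mem_divisors.mp d.2).1).ne'⟩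
  have hfin : ∀ d : N.divisors, Finite (ZMod (gg N d))ˣ := fun d => by
    have := hpos d
    infer_instance
  rw [Nat.card_sigma, ModularCurve.cuspCount,
    ← Finset.sum_coe_sort N.divisors (fun d => Nat.totient (Nat.gcd d (N / d)))]
  refine Finset.sum_congr rfl fun d _ => ?_
  have := hpos d
  rw [Nat.card_eq_fintype_card, ZMod.card_units_eq_totient]
  rfl

/-- **G4**: the number of `T`-orbits on `SL(2,ℤ) ⧸ Γ₀(N)` is the classical number of cusps. -/
theorem G4 :
    Nat.card (MulAction.orbitRel.Quotient (Subgroup.zpowers ModularGroup.T)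
      (SL(2, ℤ) ⧸ Gamma0 N)) = ModularCurve.cuspCount N := by
  rw [← card_target N]
  exact Nat.card_congr (Equiv.ofBijective _ (PhiOrbit_bijective N))

end Main

end Fermat.Agent.S20.H38

end
-- ==== END Fermat.Agent.S20.H38_CuspCount
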