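-- GENERATED (merged mirror, NOTES/tools/trim/merge3_helper67.py): 15 modules of the originals, bodies verbatim.
import Mathlib
import Fermat.Prelude.Def_ModularCurve_PeriodHomPair
import Fermat.Prelude.Thm_Subgroup_IsArithmetic_exists_nat_mem_strictPeriods_conj
import Fermat.Prelude.Def_CuspForm_HeckeAlgebra
import Fermat.Statements.S24
import Fermat.Prelude.Def_ModularCurve_X0
import Fermat.Prelude.Def_ModularCurve_LaurentCoeff
import Fermat.Prelude.Def_AlgebraicCurve_CanonicalDivisor
import Fermat.Prelude.Def_ModularCurve_CanonicalDivisor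
import Fermat.Prelude.Def_AlgebraicCurve_DivisorClassGroup
import Fermat.Agent.S20.H74_CoreAsm
import Fermat.Agent.S20.H25_E2
import Fermat.Agent.S20.H58_Dual
import Fermat.Agent.S20.H86_LevelOne
import Fermat.Agent.S20.H89_Weights
import Fermat.Agent.Zm.S35_L01_003
import Fermat.Agent.Zm.S35_L01_004
import Fermat.Agent.Zm.S35_L01_001
import Fermat.Agent.S22.H76_Poly
import Fermat.Agent.S23.H96_Div
import Fermat.Agent.S24.JAnDef
import Fermat.Agent.S20.H70_Ramanujan

-- ==== BEGIN Fermat.Agent.S20.H74_Final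
section

/-!
# S20 core (helper74): assembly of the work packages

`core_of_packages` derives the core count from the landed packages, taking the packages that are
not yet available (LI5 with B_div, RK1, RK2, INF1, INF2) as hypotheses.
-/

set_option autoImplicit false

namespace Fermat.Agent.S20.H74

open UpperHalfPlane ModularForm MatrixGroups Filter EisensteinSeries
open scoped Manifold Topology

variable {Γ : Subgroup SL(2, ℤ)}

theorem core_of_packages (Γ : Subgroup SL(2, ℤ)) [Γ.FiniteIndex] (hneg : -1 ∈ Γ)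
    (hLI : ∀ (b : RBasis Γ) (z : ℍ), b.LIAt z)
    (hRK1 : ∀ (b : RBasis Γ) (z : ℍ), b.LIAt z → Finite b.J ∧ Nat.card b.J ≤ Γ.index)
    (hRK2 : ∀ (b : RBasis Γ) [Finite b.J], Γ.index ≤ Nat.card b.J)
    (hINF1 : ∀ K : ℤ, Module.Finite ℂ (MF Γ K) →
      Module.finrank ℂ (MF Γ K) = Module.finrank ℂ (MF Γ (K - 12)) + Γ.index →
      Module.finrank ℂ (MF Γ K) = Module.finrank ℂ (CF Γ K) + cuspNum Γ)
    (hINF2 : ∀ K : ℤ, Module.Finite ℂ (MF Γ K) →
      Module.finrank ℂ (MF Γ K) = Module.finrank ℂ (MF Γ (K - 12)) + Γ.index →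
      ∃ (N : ℕ) (_ : 0 < N) (G : (SL(2, ℤ) ⧸ Γ) → ℍ → ℂ) (a : (SL(2, ℤ) ⧸ Γ) → ℕ)
        (E₀ : (SL(2, ℤ) ⧸ Γ) → (SL(2, ℤ) ⧸ Γ) → ℂ),
        (∀ i, G i ∈ MF Γ K) ∧ (∀ i, a i < N) ∧
        LinearIndependent ℂ (fun i => fun q => E₀ q i) ∧
        ∀ q i, Tendsto (fun z : ℍ =>
          Complex.exp (-2 * Real.pi * Complex.I * (a i) * z / N) * cf Γ K (G i) q z)
          atImInfty (𝓝 (E₀ q i))) :
    12 * (Module.finrank ℂ (CF Γ 2) : ℤ) + 3 * ellTwo Γ + 4 * ellThree Γ + 6 * cuspNum Γ
      = 12 + Γ.index := by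
  classical
  obtain ⟨b⟩ := H25.E2_exists_RBasis Γ
  obtain ⟨hfin, hle⟩ := hRK1 b I (hLI b I)
  have := hfin
  let _ : Fintype b.J := Fintype.ofFinite _
  have hcardN : Nat.card b.J = Γ.index := le_antisymm hle (hRK2 b)
  have hcard : Fintype.card b.J = Γ.index := by
    rw [← Nat.card_eq_fintype_card]; exact hcardN
  have hr : ∀ k : ℕ, Even k → r (k : ℤ) = if k % 12 = 2 then k / 12 else k / 12 + 1 :=
    fun k hk => H86.L2_finrank_top k hk
  have hMF : ∀ k : ℤ, Module.Finite ℂ (MF Γ k) ∧
      Module.finrank ℂ (MF Γ k) = ∑ j, r (k - b.wt j) := fun k => H58.DU1_finrank_MF b k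
  obtain ⟨d⟩ := H58.DU2_dual b (hLI b) hcardN
  have heven : ∀ j, Even (b.wt j) := fun j => H89.W1_even hneg b j
  have hnn : ∀ j, 0 ≤ b.wt j := fun j => H89.W2_nonneg b j
  -- a weight `K` at which the cusp filtration is full
  obtain ⟨K, hKfin, hK⟩ := H2.exists_K_finrank b hcardN (fun k => H58.DU1_finrank_MF b k)
    (fun k hk => H86.L2_finrank_top k hk) heven
  have hadapt := hINF2 K hKfin hK
  have hzero' : ∀ j q, IsZeroAtImInfty (discriminant * d.H j q) :=
    fun j q => H2.INF3_dual_zero b d ⟨K, hadapt⟩ j q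
  have hCF : ∀ k : ℤ, Module.finrank ℂ (CF Γ k) = ∑ j, r (k + b.wt j - 12) :=
    fun k => H58.DU4_finrank_CF b d hzero' k
  exact core_of b hr hcard heven hnn (H89.W3_zero b)
    (H89.TR1_I b (hLI b I) hcardN) (H89.TR2_rho b (hLI b rho) hcardN) hMF hCF hINF1

end Fermat.Agent.S20.H74

end
-- ==== END Fermat.Agent.S20.H74_Final

-- ==== BEGIN Fermat.Agent.S21.H20_Primitive
section

/-!
# S21, part A: every weight-2 cusp form on `Γ₀(N)` has an equivariant primitive
-/

set_option autoImplicit false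

open ModularCurve ModularCurve.Period UpperHalfPlane CongruenceSubgroup Filter Topology Function
open scoped MatrixGroups ModularForm Real Manifold Pointwise

namespace Fermat.Agent.S21

/-- Derivative of the `q`-parameter. -/
theorem hasDerivAt_qParam (h : ℝ) (z : ℂ) :
    HasDerivAt (Periodic.qParam h) (2 * π * Complex.I / h * Periodic.qParam h z) z := by
  unfold Periodic.qParam
  have h1 : HasDerivAt (fun z : ℂ => 2 * π * Complex.I * z / h) (2 * π * Complex.I / h) z := by
    have := ((hasDerivAt_id z).const_mul (2 * π * Complex.I)).div_const (h : ℂ)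
    simpa using this
  have h2 := h1.cexp
  rw [mul_comm (Complex.exp _)] at h2
  exact h2

/-- A holomorphic `h`-periodic function on `ℍ` vanishing at `i∞` has a primitive that tends to `0`
at `i∞`. -/
theorem exists_primitive_of_periodic {g : ℍ → ℂ} {h : ℝ} (hh : 0 < h)
    (hper : Function.Periodic (g ∘ ofComplex) h) (hhol : MDiff g) (hzero : IsZeroAtImInfty g) :
    ∃ G : ℍ → ℂ, (∀ τ : ℍ, HasDerivAt (G ∘ ofComplex) (g τ) ↑τ) ∧ Tendsto G atImInfty (𝓝 0) := by
  set c := cuspFunction h g with hcdef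
  have hbdd : IsBoundedAtImInfty g := hzero.isBoundedAtImInfty
  have hc : DifferentiableOn ℂ c (Metric.ball 0 1) :=
    differentiableOn_cuspFunction_ball hh hper hhol hbdd
  have hc0 : c 0 = 0 := by
    rw [hcdef, cuspFunction_apply_zero hh (analyticAt_cuspFunction_zero hh hper hhol hbdd) hper]
    exact hzero.valueAtInfty_eq_zero
  have hd : DifferentiableOn ℂ (dslope c 0) (Metric.ball 0 1) :=
    (Complex.differentiableOn_dslope (Metric.ball_mem_nhds 0 one_pos)).mpr hc
  obtain ⟨Φ, hΦ0, hΦ⟩ := hd.isExactOn_ball.with_val_at 0 0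
  refine ⟨fun τ => (h / (2 * π * Complex.I)) * Φ (Periodic.qParam h τ), fun τ => ?_, ?_⟩
  · have hq : Periodic.qParam h τ ∈ Metric.ball (0 : ℂ) 1 := by
      simpa using Periodic.norm_qParam_lt_one hh τ.im_pos
    have h1 := (hΦ _ hq).comp (τ : ℂ) (hasDerivAt_qParam h τ)
    have h2 := h1.const_mul ((h : ℂ) / (2 * π * Complex.I))
    have hval : ((h : ℂ) / (2 * π * Complex.I)) * (dslope c 0 (Periodic.qParam h τ)
        * (2 * π * Complex.I / h * Periodic.qParam h τ)) = g τ := by
      have h3 := sub_smul_dslope c 0 (Periodic.qParam h τ)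
      rw [sub_zero, hc0, sub_zero, smul_eq_mul] at h3
      have hcq : c (Periodic.qParam h τ) = g τ := eq_cuspFunction τ hh.ne' hper
      rw [← hcq, ← h3]
      have hh' : (h : ℂ) ≠ 0 := by exact_mod_cast hh.ne'
      have hpi : (π : ℂ) ≠ 0 := by exact_mod_cast Real.pi_ne_zero
      field_simp
    rw [hval] at h2
    refine h2.congr_of_eventuallyEq ?_
    filter_upwards [isOpen_upperHalfPlaneSet.mem_nhds τ.im_pos] with z hz
    simp [Function.comp, ofComplex_apply_of_im_pos hz]
  · have hcont : ContinuousAt Φ 0 := (hΦ 0 (Metric.mem_ball_self one_pos)).continuousAt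
    have h1 := hcont.tendsto.comp (qParam_tendsto_atImInfty hh)
    rw [hΦ0] at h1
    simpa using h1.const_mul ((h : ℂ) / (2 * π * Complex.I))

theorem det_coe_GL (δ : SL(2, ℤ)) : ((δ : GL (Fin 2) ℝ)).val.det = 1 := by
  have := (Matrix.SpecialLinearGroup.map (Int.castRingHom ℝ) δ).det_coe
  simpa using this

/-- Chain rule: if `F` is a primitive of `f` on `ℍ`, then `F ∘ δ` is a primitive of `f ∣[2] δ`. -/
theorem hasDerivAt_comp_smul {F : ℍ → ℂ} {f : ℍ → ℂ}
    (hF : ∀ τ : ℍ, HasDerivAt (F ∘ ofComplex) (f τ) ↑τ) (δ : SL(2, ℤ)) (τ : ℍ) :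
    HasDerivAt ((fun w : ℍ => F (δ • w)) ∘ ofComplex) ((f ∣[(2 : ℤ)] δ) τ) ↑τ := by
  have hdet : (0 : ℝ) < ((δ : GL (Fin 2) ℝ)).val.det := by rw [det_coe_GL]; exact one_pos
  have h1 := (hasStrictDerivAt_smul hdet τ).hasDerivAt
  have h2 : HasDerivAt (F ∘ ofComplex) (f (δ • τ))
      (↑((δ : GL (Fin 2) ℝ) • ofComplex (τ : ℂ))) := by
    rw [ofComplex_apply]
    exact hF (δ • τ)
  have h3 := h2.comp (τ : ℂ) h1
  have hval : f (δ • τ) * (((δ : GL (Fin 2) ℝ)).val.det / denom (δ : GL (Fin 2) ℝ) τ ^ 2)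
      = (f ∣[(2 : ℤ)] δ) τ := by
    rw [ModularForm.SL_slash_apply, det_coe_GL]
    simp [zpow_neg, div_eq_mul_inv]
  rw [hval] at h3
  refine h3.congr_of_eventuallyEq ?_
  filter_upwards with z
  simp [Function.comp]

/-- **Part A**: every weight-2 cusp form on `Γ₀(N)` has an equivariant primitive. -/
theorem partA (N : ℕ) [NeZero N] (f : CuspForm (Gamma0 N) 2) :
    ∃ F : ℍ → ℂ, HasEquivariantPrimitive N f F := by
  obtain ⟨M, hM, hper⟩ := Subgroup.IsArithmetic.exists_nat_mem_strictPeriods_conj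
    (Subgroup.map (Matrix.SpecialLinearGroup.mapGL ℝ) (Gamma0 N))
  have key : ∀ δ : SL(2, ℤ), ∃ G : ℍ → ℂ,
      (∀ τ : ℍ, HasDerivAt (G ∘ ofComplex) ((⇑f ∣[(2 : ℤ)] δ) τ) ↑τ)
        ∧ Tendsto G atImInfty (𝓝 0) := by
    intro δ
    refine exists_primitive_of_periodic (h := M) (by exact_mod_cast hM) ?_ ?_ ?_
    · have hmem : (M : ℝ) ∈ (ConjAct.toConjAct ((δ : GL (Fin 2) ℝ))⁻¹ •
          (Subgroup.map (Matrix.SpecialLinearGroup.mapGL ℝ) (Gamma0 N))).strictPeriods := by
        have h0 := hper δ⁻¹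
        rw [map_inv] at h0
        exact h0
      have := SlashInvariantFormClass.periodic_comp_ofComplex
        (CuspForm.translate f (δ : GL (Fin 2) ℝ)) hmem
      exact this
    · exact (CuspFormClass.holo f).slash 2 (δ : GL (Fin 2) ℝ)
    · exact CuspFormClass.zero_at_infty_slash f δ
  obtain ⟨F, hF1, hF2⟩ := key 1
  have hF1' : ∀ τ : ℍ, HasDerivAt (F ∘ ofComplex) (f τ) ↑τ := by
    intro τ
    have := hF1 τ
    rwa [SlashAction.slash_one] at this
  refine ⟨F, hF1', hF2, ?_, ?_⟩
  · intro γ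
    have h1 : ∀ τ : ℍ,
        HasDerivAt ((fun w : ℍ => F ((γ : SL(2, ℤ)) • w)) ∘ ofComplex) (f τ) ↑τ := by
      intro τ
      have h := hasDerivAt_comp_smul hF1' (γ : SL(2, ℤ)) τ
      have hinv : (⇑f ∣[(2 : ℤ)] (γ : SL(2, ℤ))) = ⇑f := by
        rw [ModularForm.SL_slash]
        exact SlashInvariantForm.slash_action_eqn f _ (Subgroup.mem_map_of_mem _ γ.2)
      rwa [hinv] at h
    obtain ⟨c, hc⟩ := primitive_sub_const h1 hF1'
    exact ⟨c, hc⟩
  · intro δ
    obtain ⟨G, hG1, hG2⟩ := key δ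
    obtain ⟨c, hc⟩ := primitive_sub_const (hasDerivAt_comp_smul hF1' δ) hG1
    refine ⟨c, ?_⟩
    have hfun : (fun w : ℍ => F (δ • w)) = fun w => G w + c := by
      funext w
      have := hc w
      linear_combination this
    rw [hfun]
    simpa using hG2.add_const c

end Fermat.Agent.S21

end
-- ==== END Fermat.Agent.S21.H20_Primitive

-- ==== BEGIN Fermat.Agent.S21.H75_Cocycle
section

set_option autoImplicit false

/-!
# Shapiro's lemma by hand: cocycles on `G ⧸ Γ` attached to homomorphisms `Γ → ℂ`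
-/

namespace Fermat.Agent.S21.H75

open Module

variable {G : Type*} [Group G] (Γ : Subgroup G)

/-- precomposition with the action of `g` on `G ⧸ Γ` -/
noncomputable def R (g : G) : ((G ⧸ Γ) → ℂ) →ₗ[ℂ] ((G ⧸ Γ) → ℂ) :=
  LinearMap.funLeft ℂ ℂ (fun q => g • q)

@[simp] lemma R_apply (g : G) (v : (G ⧸ Γ) → ℂ) (q : G ⧸ Γ) : R Γ g v q = v (g • q) := rfl

lemma R_mul (g h : G) : R Γ (g * h) = R Γ h * R Γ g := by
  ext v q
  simp [mul_smul]

lemma R_one : R Γ (1 : G) = 1 := by
  ext v q
  simp

lemma R_pow (g : G) (n : ℕ) : R Γ (g ^ n) = (R Γ g) ^ n := by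
  induction n with
  | zero => simp [R_one]
  | succ n ih => rw [pow_succ', R_mul, ih, pow_succ]

/-- `κ(g, q) = (s (g • q))⁻¹ * g * s q ∈ Γ` for the section `s = Quotient.out`. -/
noncomputable def kappa (g : G) (q : G ⧸ Γ) : Γ :=
  ⟨(Quotient.out (g • q))⁻¹ * (g * Quotient.out q), by
    rw [← QuotientGroup.eq, QuotientGroup.out_eq']
    conv_lhs => rw [← QuotientGroup.out_eq' q]
    rfl⟩

lemma kappa_coe (g : G) (q : G ⧸ Γ) :
    (kappa Γ g q : G) = (Quotient.out (g • q))⁻¹ * (g * Quotient.out q) := rfl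

lemma kappa_mul (g h : G) (q : G ⧸ Γ) :
    kappa Γ (g * h) q = kappa Γ g (h • q) * kappa Γ h q := by
  apply Subtype.ext
  simp only [kappa_coe, Subgroup.coe_mul, mul_smul]
  group

/-- the cocycle attached to `φ : Γ → ℂ` -/
noncomputable def coc (φ : Additive Γ →+ ℂ) (g : G) : (G ⧸ Γ) → ℂ :=
  fun q => φ (Additive.ofMul (kappa Γ g q))

lemma coc_apply (φ : Additive Γ →+ ℂ) (g : G) (q : G ⧸ Γ) :
    coc Γ φ g q = φ (Additive.ofMul (kappa Γ g q)) := rfl

/-- A (right) cocycle `c : G → V`: `c (g h) = R_h (c g) + c h`. -/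
def IsCoc (c : G → ((G ⧸ Γ) → ℂ)) : Prop :=
  ∀ g h : G, c (g * h) = R Γ h (c g) + c h

lemma isCoc_coc (φ : Additive Γ →+ ℂ) : IsCoc Γ (coc Γ φ) := by
  intro g h
  ext q
  simp only [coc_apply, Pi.add_apply, R_apply, kappa_mul, ofMul_mul, map_add]

/-- coboundary of `v` -/
noncomputable def cob (v : (G ⧸ Γ) → ℂ) (g : G) : (G ⧸ Γ) → ℂ := R Γ g v - v

lemma isCoc_cob (v : (G ⧸ Γ) → ℂ) : IsCoc Γ (cob Γ v) := by
  intro g h
  simp only [cob, R_mul, Module.End.mul_apply, map_sub]
  abel

lemma IsCoc.add {c d : G → ((G ⧸ Γ) → ℂ)} (hc : IsCoc Γ c) (hd : IsCoc Γ d) :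
    IsCoc Γ (c + d) := by
  intro g h
  simp only [Pi.add_apply, hc g h, hd g h, map_add]
  abel

variable {Γ}

lemma IsCoc.map_one {c : G → ((G ⧸ Γ) → ℂ)} (hc : IsCoc Γ c) : c 1 = 0 := by
  have h := hc 1 1
  rw [mul_one, R_one, Module.End.one_apply] at h
  exact left_eq_add.mp h |> fun h => by simpa using h

lemma IsCoc.map_inv {c : G → ((G ⧸ Γ) → ℂ)} (hc : IsCoc Γ c) (g : G) :
    c g⁻¹ = - R Γ g⁻¹ (c g) := by
  have h := hc g g⁻¹
  rw [mul_inv_cancel, hc.map_one] at h
  exact eq_neg_of_add_eq_zero_right h.symm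

lemma IsCoc.map_pow {c : G → ((G ⧸ Γ) → ℂ)} (hc : IsCoc Γ c) (g : G) (n : ℕ) :
    c (g ^ n) = normOp (R Γ g) n (c g) := by
  induction n with
  | zero => simp [hc.map_one, normOp]
  | succ n ih =>
    rw [pow_succ', hc g (g ^ n), ih, normOp_apply, normOp_apply, Finset.sum_range_succ,
      R_pow]
    abel

/-- a cocycle vanishing on a generating set vanishes identically -/
lemma IsCoc.eq_zero_of_closure {c : G → ((G ⧸ Γ) → ℂ)} (hc : IsCoc Γ c) {s : Set G}
    (hs : Subgroup.closure s = ⊤) (h0 : ∀ g ∈ s, c g = 0) (g : G) : c g = 0 := by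
  have hg : g ∈ Subgroup.closure s := by rw [hs]; trivial
  induction hg using Subgroup.closure_induction with
  | mem x hx => exact h0 x hx
  | one => exact hc.map_one
  | mul x y _ _ hx hy => rw [hc x y, hx, hy, map_zero, add_zero]
  | inv x _ hx => rw [hc.map_inv, hx, map_zero, neg_zero]

end Fermat.Agent.S21.H75

end
-- ==== END Fermat.Agent.S21.H75_Cocycle

-- ==== BEGIN Fermat.Agent.S22.H21_Glue
section

/-!
# S22: glue — `EichlerData` from the Eichler integral `H76.eichler`, given separation (E4)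
-/

set_option autoImplicit false

namespace Fermat.Agent.S22.H21

open UpperHalfPlane hiding I
open CongruenceSubgroup Matrix.SpecialLinearGroup
open scoped Manifold MatrixGroups ModularForm
open Fermat.Agent.S22.H76

variable {N : ℕ} [NeZero N]

theorem eichler_heckeT (n : ℕ) {p : ℕ} (hp : p.Prime) (hpN : ¬ p ∣ N)
    (f : CuspForm (Gamma0 N) ((n : ℤ) + 2)) :
    eichler n (CuspForm.heckeTLin ((n : ℤ) + 2) hp hpN f) =
      ((p : ℂ) ^ (n + 1)) • ModularForm.heckeT (-(n : ℤ)) p (eichler n f) := by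
  symm
  apply eichler_unique
  · exact isNice_heckeT (eichler_isNice n f) n hp.ne_zero
  · rw [iterD_heckeT (eichler_isNice n f).mdiff n hp.ne_zero, eichler_iterD]
    rfl

theorem eichler_heckeU (n : ℕ) {p : ℕ} (hp : p.Prime) (hpN : p ∣ N)
    (f : CuspForm (Gamma0 N) ((n : ℤ) + 2)) :
    eichler n (CuspForm.heckeULin ((n : ℤ) + 2) hpN f) =
      ((p : ℂ) ^ (n + 1)) • ModularForm.heckeU (-(n : ℤ)) p (eichler n f) := by
  symm
  apply eichler_unique
  · exact isNice_heckeU (eichler_isNice n f) n hp.ne_zero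
  · rw [iterD_heckeU (eichler_isNice n f).mdiff n hp.ne_zero, eichler_iterD]
    rfl

/-- The separation statement (E4), in def-independent form. -/
def SepStatement (N : ℕ) [NeZero N] (n : ℕ) : Prop :=
  ∀ (f : CuspForm (Gamma0 N) ((n : ℤ) + 2)) (G : ℍ → ℂ), IsNice 1 G → iterD (n + 1) G = f →
    (∀ g : SL(2, ℤ), g ∈ Gamma0 N → G ∣[-(n : ℤ)] (mapGL ℝ g) = G) → f = 0

/-- `EichlerData` from separation. -/
noncomputable def eichlerDataOfSep (n : ℕ) (hsep : SepStatement N n) : EichlerData N n where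
  E := eichlerLin n
  poly f g hg := eichler_poly n f g hg
  hecke_T _ hp hpN f := eichler_heckeT n hp hpN f
  hecke_U _ hp hpN f := eichler_heckeU n hp hpN f
  sep f h := hsep f (eichler n f) (eichler_isNice n f) (eichler_iterD n f) h

end Fermat.Agent.S22.H21

end
-- ==== END Fermat.Agent.S22.H21_Glue

-- ==== BEGIN Fermat.Agent.S22.H7_Trivial
section

/-!
# S22, trivial weights (helper7)

* `subsingleton_cuspForm_of_nonpos` : `S_k(Γ₀(N)) = 0` for `k ≤ 0` (Sturm bound).
* `subsingleton_cuspForm_of_odd`    : `S_k(Γ₀(N)) = 0` for odd `k` (`-1 ∈ Γ₀(N)`).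
* `moduleFinite_heckeAlgebra_of_subsingleton` : if `S_k(Γ₀(N))` is a subsingleton, the Hecke
  algebra is a finite `ℤ`-module.
-/

set_option autoImplicit false

open UpperHalfPlane ModularFormClass
open scoped MatrixGroups ModularForm

namespace Fermat.Agent.S22.H7

theorem subsingleton_cuspForm_of_nonpos (N : ℕ) [NeZero N] (k : ℤ) (hk : k ≤ 0) :
    Subsingleton (CuspForm (CongruenceSubgroup.Gamma0 N) k) := by
  refine ⟨fun f g => ?_⟩
  have h0 : (k * (CongruenceSubgroup.Gamma0 N).index).toNat / 12 = 0 := by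
    have : k * ((CongruenceSubgroup.Gamma0 N).index : ℤ) ≤ 0 :=
      mul_nonpos_of_nonpos_of_nonneg hk (by positivity)
    rw [Int.toNat_of_nonpos this]
  rw [Fermat.Agent.Lib.CuspFormGamma0.cuspForm_eq_zero_of_index_lt N h0 f,
    Fermat.Agent.Lib.CuspFormGamma0.cuspForm_eq_zero_of_index_lt N h0 g]

theorem neg_one_mem_Gamma0 (N : ℕ) : (-1 : SL(2, ℤ)) ∈ CongruenceSubgroup.Gamma0 N := by
  rw [CongruenceSubgroup.Gamma0_mem]
  simp

theorem subsingleton_cuspForm_of_odd (N : ℕ) (k : ℤ) (hk : Odd k) :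
    Subsingleton (CuspForm (CongruenceSubgroup.Gamma0 N) k) := by
  refine ⟨fun f g => ?_⟩
  have key : ∀ f : CuspForm (CongruenceSubgroup.Gamma0 N) k, f = 0 := by
    intro f
    ext z
    have h := SlashInvariantForm.slash_action_eqn_SL'' (Γ := CongruenceSubgroup.Gamma0 N) f
      (neg_one_mem_Gamma0 N) z
    have hsmul : ((-1 : SL(2, ℤ)) • z) = z := by
      simp
    have hden : denom ((-1 : SL(2, ℤ)) : GL (Fin 2) ℝ) z = -1 := by
      simp [denom]
    rw [hsmul] at h
    simp only [hden, hk.neg_one_zpow] at h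
    have h2 : (2 : ℂ) * f z = 0 := by linear_combination h
    simpa using h2
  rw [key f, key g]

theorem moduleFinite_heckeAlgebra_of_subsingleton (N : ℕ) [NeZero N] (k : ℤ) (S : Set ℕ)
    [Subsingleton (CuspForm (CongruenceSubgroup.Gamma0 N) k)] :
    Module.Finite ℤ (CuspForm.heckeAlgebra N k S) := by
  have : Subsingleton (Module.End ℂ (CuspForm (CongruenceSubgroup.Gamma0 N) k)) :=
    ⟨fun a b => LinearMap.ext fun x => Subsingleton.elim _ _⟩
  have : Subsingleton (CuspForm.heckeAlgebra N k S) :=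
    ⟨fun a b => Subtype.ext (Subsingleton.elim _ _)⟩
  infer_instance

/-- S22 for weights `k ≤ 1`-type trivial cases: `k ≤ 0` or `k` odd. -/
theorem moduleFinite_heckeAlgebra_of_nonpos_or_odd (N : ℕ) [NeZero N] (k : ℤ) (S : Set ℕ)
    (hk : k ≤ 0 ∨ Odd k) : Module.Finite ℤ (CuspForm.heckeAlgebra N k S) := by
  have : Subsingleton (CuspForm (CongruenceSubgroup.Gamma0 N) k) := by
    rcases hk with hk | hk
    · exact subsingleton_cuspForm_of_nonpos N k hk
    · exact subsingleton_cuspForm_of_odd N k hk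
  exact moduleFinite_heckeAlgebra_of_subsingleton N k S

end Fermat.Agent.S22.H7

end
-- ==== END Fermat.Agent.S22.H7_Trivial

-- ==== BEGIN Fermat.Agent.S22.H94_Sep
section

/-!
# S22 / helper94: separation (field `sep` of `EichlerData`), definition-independent form

If `G : ℍ → ℂ` is holomorphic, `D^(n+1) G = f` for a cusp form `f` of weight `n + 2` on `Γ₀(N)`
and `G ∣[-n] γ = G` for all `γ ∈ Γ₀(N)`, then `f = 0`.

Proof: for `σ ∈ SL(2, ℤ)`, `G ∣[-n] σ` differs from a nice iterated primitive of `f ∣[n+2] σ` by a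
polynomial (Bol), which is periodic, hence constant. So `G` is a modular form of weight `-n ≤ 0`.
-/

set_option autoImplicit false

namespace Fermat.Agent.S22.H94

open UpperHalfPlane hiding I
open Real Complex Derivative Filter Function CongruenceSubgroup Matrix.SpecialLinearGroup
open scoped Manifold MatrixGroups ModularForm Topology Pointwise
open Fermat.Agent.S22.H76

noncomputable section

/-- Periodicity in the form `X (h +ᵥ z) = X z`. -/
theorem apply_vadd_of_periodic {X : ℍ → ℂ} {h : ℝ} (hX : Periodic (X ∘ ofComplex) h) (z : ℍ) :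
    X (h +ᵥ z) = X z := by
  have h1 := hX (z : ℂ)
  have hz : 0 < ((z : ℂ) + h).im := by simpa using z.im_pos
  simp only [comp_apply, ofComplex_apply_of_im_pos hz, ofComplex_apply] at h1
  rw [← h1]
  congr 1
  ext
  simp [add_comm]

/-- A slash-invariant function for `Γ`, slashed by `σ`, is periodic for every strict period of the
conjugate group. -/
theorem periodic_slash_of_invariant {Γ : Subgroup (GL (Fin 2) ℝ)} {X : ℍ → ℂ} {k : ℤ}
    (hX : ∀ γ ∈ Γ, X ∣[k] γ = X) (σ : GL (Fin 2) ℝ) {h : ℝ}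
    (hh : h ∈ (ConjAct.toConjAct σ⁻¹ • Γ).strictPeriods) :
    Periodic ((X ∣[k] σ) ∘ ofComplex) h := by
  let Xs : SlashInvariantForm Γ k := ⟨X, hX⟩
  have := SlashInvariantFormClass.periodic_comp_ofComplex (SlashInvariantForm.translate Xs σ) hh
  have e : ⇑(SlashInvariantForm.translate Xs σ) = X ∣[k] σ := SlashInvariantForm.coe_translate Xs σ
  rwa [e] at this

variable {N : ℕ} [NeZero N]

/-- Boundedness at `i∞` of all `SL(2, ℤ)`-translates of an invariant Eichler integral. -/
theorem isBoundedAtImInfty_slash {n : ℕ} (f : CuspForm (Gamma0 N) ((n : ℤ) + 2)) {G : ℍ → ℂ}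
    (hG : MDiff G) (hD : iterD (n + 1) G = f)
    (hinv : ∀ g : SL(2, ℤ), g ∈ Gamma0 N → G ∣[-(n : ℤ)] (mapGL ℝ g) = G) (σ : SL(2, ℤ)) :
    IsBoundedAtImInfty (G ∣[-(n : ℤ)] (mapGL ℝ σ)) := by
  obtain ⟨M, hMpos, hM⟩ := Subgroup.IsArithmetic.exists_nat_mem_strictPeriods_conj
    ((Gamma0 N : Subgroup SL(2, ℤ)) : Subgroup (GL (Fin 2) ℝ))
  have hMσ : (M : ℝ) ∈ (ConjAct.toConjAct (mapGL ℝ σ : GL (Fin 2) ℝ)⁻¹ •
      ((Gamma0 N : Subgroup SL(2, ℤ)) : Subgroup (GL (Fin 2) ℝ))).strictPeriods := by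
    have := hM σ⁻¹
    rwa [map_inv, ConjAct.toConjAct_inv] at this
  have hMpos' : (0 : ℝ) < (M : ℝ) := by exact_mod_cast hMpos
  have hinv' : ∀ γ ∈ ((Gamma0 N : Subgroup SL(2, ℤ)) : Subgroup (GL (Fin 2) ℝ)),
      G ∣[-(n : ℤ)] γ = G := by
    rintro γ ⟨g, hg, rfl⟩
    exact hinv g hg
  -- the translated cusp form
  set g : ℍ → ℂ := (f : ℍ → ℂ) ∣[(n : ℤ) + 2] (mapGL ℝ σ) with hg
  have hgzero : IsZeroAtImInfty g := by
    exact CuspFormClass.zero_at_infty_slash (k := (n : ℤ) + 2) f σ
  have hgnice : IsNice (M : ℝ) g :=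
    ⟨(CuspFormClass.holo f).slash _ _, periodic_slash_of_invariant
      (fun γ hγ => SlashInvariantFormClass.slash_action_eq f γ hγ) _ hMσ, hgzero⟩
  obtain ⟨E, hE, hDE⟩ := hgnice.exists_iterated_primitive hMpos' (n + 1)
  set H : ℍ → ℂ := G ∣[-(n : ℤ)] (mapGL ℝ σ) with hH
  have hHm : MDiff H := hG.slash _ _
  have hDH : iterD (n + 1) H = g := by rw [hH, bol_SL σ n hG, hD]
  have h0 : iterD (n + 1) (H - E) = 0 := by
    rw [iterD_sub hHm hE.mdiff, hDH, hDE, sub_self]
  obtain ⟨P, -, hP⟩ := exists_poly_of_iterD_eq_zero (n + 1) (hHm.sub hE.mdiff) h0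
  have hHper : Periodic (H ∘ ofComplex) (M : ℝ) := periodic_slash_of_invariant hinv' _ hMσ
  have hPper : ∀ z : ℍ, P.eval ((z : ℂ) + (M : ℝ)) = P.eval (z : ℂ) := by
    intro z
    have h1 := hP ((M : ℝ) +ᵥ z)
    have h2 := hP z
    simp only [Pi.sub_apply] at h1 h2
    rw [apply_vadd_of_periodic hHper, apply_vadd_of_periodic hE.periodic] at h1
    rw [← h2, h1]
    congr 1
    simp [add_comm]
  obtain ⟨c, hc⟩ := poly_const_of_periodic P hMpos'.ne' hPper
  have hHE : H = E + fun _ => c := by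
    funext z
    have h2 := hP z
    simp only [Pi.sub_apply, hc, Polynomial.eval_C] at h2
    simp only [Pi.add_apply]
    rw [← h2]; ring
  rw [hHE]
  exact hE.zero.isBoundedAtImInfty.add (Filter.const_boundedAtFilter _ c)

/-- A holomorphic `Γ₀(N)`-invariant function bounded at all cusps is a modular form. -/
theorem exists_modularForm {k : ℤ} {G : ℍ → ℂ} (hG : MDiff G)
    (hinv : ∀ g : SL(2, ℤ), g ∈ Gamma0 N → G ∣[k] (mapGL ℝ g) = G)
    (hbdd : ∀ σ : SL(2, ℤ), IsBoundedAtImInfty (G ∣[k] (mapGL ℝ σ))) :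
    ∃ F : ModularForm (Gamma0 N) k, (F : ℍ → ℂ) = G := by
  refine ⟨{ toFun := G
            slash_action_eq' := ?_
            holo' := hG
            bdd_at_cusps' := ?_ }, rfl⟩
  · rintro γ ⟨g, hg, rfl⟩
    exact hinv g hg
  · intro c hc
    rw [Subgroup.IsArithmetic.isCusp_iff_isCusp_SL2Z, isCusp_SL2Z_iff'] at hc
    obtain ⟨σ, rfl⟩ := hc
    exact (OnePoint.isBoundedAt_iff rfl).mpr (hbdd σ)

/-- **Separation**: an Eichler integral all of whose period polynomials vanish comes from `f = 0`. -/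
theorem sep {n : ℕ} (f : CuspForm (Gamma0 N) ((n : ℤ) + 2)) {G : ℍ → ℂ}
    (hG : MDiff G) (hD : iterD (n + 1) G = f)
    (hinv : ∀ g : SL(2, ℤ), g ∈ Gamma0 N → G ∣[-(n : ℤ)] (mapGL ℝ g) = G) : f = 0 := by
  have hbdd := isBoundedAtImInfty_slash f hG hD hinv
  have hf0 : (f : ℍ → ℂ) = 0 := by
    rcases Nat.eq_zero_or_pos n with hn | hn
    · subst hn
      have hinv0 : ∀ g : SL(2, ℤ), g ∈ Gamma0 N → G ∣[(0 : ℤ)] (mapGL ℝ g) = G := by
        simpa using hinv
      have hbdd0 : ∀ σ : SL(2, ℤ), IsBoundedAtImInfty (G ∣[(0 : ℤ)] (mapGL ℝ σ)) := by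
        simpa using hbdd
      obtain ⟨F, hF⟩ := exists_modularForm hG hinv0 hbdd0
      obtain ⟨c, hc⟩ := ModularForm.eq_const_of_weight_zero F
      rw [hF] at hc
      rw [← hD, hc]
      simp only [zero_add, iterD_one]
      exact normalizedDerivOfComplex_const c
    · obtain ⟨F, hF⟩ := exists_modularForm hG hinv hbdd
      have hk : -(n : ℤ) < 0 := by
        have : (0 : ℤ) < n := by exact_mod_cast hn
        omega
      have hF0 := ModularForm.isZero_of_neg_weight hk F
      have hG0 : G = 0 := by rw [← hF, hF0]; rfl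
      rw [← hD, hG0, iterD_zero_fun]
  exact DFunLike.coe_injective hf0

end

end Fermat.Agent.S22.H94

end
-- ==== END Fermat.Agent.S22.H94_Sep

-- ==== BEGIN Fermat.Agent.S22.PolyFunSlash
section

/-!
# S22: compatibility of `polySlash` with the weight `-n` slash action on polynomial functions
-/

set_option autoImplicit false

namespace Fermat.Agent.S22

open Polynomial
open scoped MatrixGroups ModularForm
open UpperHalfPlane Matrix.SpecialLinearGroup

theorem slash_sub' (k : ℤ) (A : GL (Fin 2) ℝ) (f g : ℍ → ℂ) :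
    (f - g) ∣[k] A = f ∣[k] A - g ∣[k] A := by
  rw [sub_eq_add_neg, SlashAction.add_slash, SlashAction.neg_slash, ← sub_eq_add_neg]

theorem polyFun_slash_SL (n : ℕ) (g : SL(2, ℤ)) (P : ℂ[X]) (hP : P.natDegree ≤ n) :
    (polyFun P) ∣[-(n : ℤ)] (mapGL ℝ g) =
      polyFun (polySlash n (g 0 0) (g 0 1) (g 1 0) (g 1 1) P) := by
  ext τ
  have h1 : ((polyFun P) ∣[-(n : ℤ)] (mapGL ℝ g)) τ =
      polyFun P (g • τ) * denom g τ ^ (-(-(n : ℤ))) :=
    ModularForm.SL_slash_apply (k := -(n : ℤ)) (polyFun P) g τ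
  rw [h1, neg_neg, zpow_natCast, polyFun_apply, polyFun_apply]
  have hden : denom g τ = ((g 1 0 : ℤ) : ℂ) * τ + ((g 1 1 : ℤ) : ℂ) := ModularGroup.denom_apply g τ
  have hne : ((g 1 0 : ℤ) : ℂ) * τ + ((g 1 1 : ℤ) : ℂ) ≠ 0 := by
    rw [← hden]; exact denom_ne_zero _ τ
  rw [eval_polySlash n _ _ _ _ P hP τ hne, hden, mul_comm]
  congr 2
  rw [UpperHalfPlane.specialLinearGroup_apply]
  simp

theorem polyFun_slash_heckeMatrix (n : ℕ) {p : ℕ} (hp : p ≠ 0) (j : ℕ) (P : ℂ[X])
    (hP : P.natDegree ≤ n) :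
    ((p : ℂ) ^ (n + 1)) • ((polyFun P) ∣[-(n : ℤ)] ModularForm.heckeMatrix p j) =
      polyFun (polySlash n 1 j 0 p P) := by
  ext τ
  have hp' : (p : ℂ) ≠ 0 := by exact_mod_cast hp
  rw [Pi.smul_apply, ModularForm.slash_heckeMatrix_apply _ hp, polyFun_apply, polyFun_apply,
    ModularForm.coe_heckeMatrix_smul hp]
  have hne : ((0 : ℤ) : ℂ) * (τ : ℂ) + ((p : ℤ) : ℂ) ≠ 0 := by simpa using hp'
  rw [eval_polySlash n _ _ _ _ P hP τ hne]
  simp only [Int.cast_zero, zero_mul, zero_add, Int.cast_natCast, Int.cast_one, one_mul,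
    smul_eq_mul]
  rw [pow_succ]
  field_simp

theorem polyFun_slash_heckeDiagMatrix (n : ℕ) {p : ℕ} (hp : p ≠ 0) (P : ℂ[X])
    (hP : P.natDegree ≤ n) :
    ((p : ℂ) ^ (n + 1)) • ((polyFun P) ∣[-(n : ℤ)] ModularForm.heckeDiagMatrix p) =
      polyFun (polySlash n p 0 0 1 P) := by
  ext τ
  have hp' : (p : ℂ) ≠ 0 := by exact_mod_cast hp
  rw [Pi.smul_apply, ModularForm.slash_heckeDiagMatrix_apply _ hp, polyFun_apply, polyFun_apply,
    ModularForm.coe_heckeDiagMatrix_smul hp]
  have hne : ((0 : ℤ) : ℂ) * (τ : ℂ) + ((1 : ℤ) : ℂ) ≠ 0 := by simp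
  rw [eval_polySlash n _ _ _ _ P hP τ hne]
  simp only [Int.cast_zero, zero_mul, zero_add, Int.cast_natCast, Int.cast_one, one_pow, one_mul,
    smul_eq_mul, add_zero, div_one]
  rw [← mul_assoc]
  have : (p : ℂ) ^ (n + 1) * (p : ℂ) ^ (-(n : ℤ) - 1) = 1 := by
    rw [← zpow_natCast, ← zpow_add₀ hp']
    have : ((n + 1 : ℕ) : ℤ) + (-(n : ℤ) - 1) = 0 := by push_cast; ring
    rw [this, zpow_zero]
  rw [this, one_mul]

end Fermat.Agent.S22

end
-- ==== END Fermat.Agent.S22.PolyFunSlash

-- ==== BEGIN Fermat.Agent.S23.H22_GS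
section

/-!
# Galois stability of `S_k(Γ₀(N))` (helper22, part of the S23 development)
-/

set_option autoImplicit false
set_option linter.unusedSectionVars false

open UpperHalfPlane ModularForm Polynomial SlashInvariantForm EisensteinSeries
open scoped MatrixGroups ModularForm Manifold

noncomputable section

namespace Fermat.Agent.S23.H22

variable (N : ℕ) [NeZero N]

/-- The function `∑_{j<μ} H j * e ^ j * δ ^ (μ - 1 - j)`. -/
def combo {w : ℤ} (H : ℕ → ModularForm 𝒮ℒ w) : ℍ → ℂ :=
  ∑ j ∈ Finset.range (Fintype.card (Q N)),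
    (H j : ℍ → ℂ) * (eN N : ℍ → ℂ) ^ j * (deltaN N : ℍ → ℂ) ^ (Fintype.card (Q N) - 1 - j)

lemma combo_apply {w : ℤ} (H : ℕ → ModularForm 𝒮ℒ w) (z : ℍ) :
    combo N H z = ∑ j ∈ Finset.range (Fintype.card (Q N)),
      H j z * eN N z ^ j * deltaN N z ^ (Fintype.card (Q N) - 1 - j) := by
  simp [combo, Finset.sum_apply]

lemma combo_nice {w : ℤ} (H : ℕ → ModularForm 𝒮ℒ w) : Nice 1 (combo N H) :=
  Nice.sum _ fun j _ => ((nice_levelOne (H j)).mul ((nice_G0 N (eN N)).pow j)).mul
    ((nice_G0 N (deltaN N)).pow _)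

lemma qExpansion_combo {w : ℤ} (H : ℕ → ModularForm 𝒮ℒ w) :
    qExpansion 1 (combo N H) = ∑ j ∈ Finset.range (Fintype.card (Q N)),
      qExpansion 1 (H j) * qExpansion 1 (eN N) ^ j *
        qExpansion 1 (deltaN N) ^ (Fintype.card (Q N) - 1 - j) := by
  unfold combo
  rw [Nice.qExpansion_sum one_pos _ fun j _ =>
    ((nice_levelOne (H j)).mul ((nice_G0 N (eN N)).pow j)).mul ((nice_G0 N (deltaN N)).pow _)]
  refine Finset.sum_congr rfl fun j _ => ?_
  rw [Nice.qExpansion_mul one_pos ((nice_levelOne (H j)).mul ((nice_G0 N (eN N)).pow j))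
      ((nice_G0 N (deltaN N)).pow _),
    Nice.qExpansion_mul one_pos (nice_levelOne (H j)) ((nice_G0 N (eN N)).pow j),
    Nice.qExpansion_pow one_pos (nice_G0 N (eN N)), Nice.qExpansion_pow one_pos (nice_G0 N (deltaN N))]

/-- Conjugating the coefficients of a combination. -/
lemma qExpansion_combo_conj (σ : ℂ →+* ℂ) {w : ℤ} (H H' : ℕ → ModularForm 𝒮ℒ w)
    (hH : ∀ j, qExpansion 1 (H' j) = (qExpansion 1 (H j)).map σ) :
    qExpansion 1 (combo N H') = (qExpansion 1 (combo N H)).map σ := by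
  rw [qExpansion_combo, qExpansion_combo, map_sum]
  refine Finset.sum_congr rfl fun j _ => ?_
  rw [map_mul, map_mul, map_pow, map_pow, hH,
    H96.map_eq_self_of_mem_intSeries (qExpansion_eN_mem_intSeries N),
    H96.map_eq_self_of_mem_intSeries (qExpansion_deltaN_mem_intSeries N)]

/-- Transformation of a combination under `Γ₀(N)`. -/
lemma combo_smul {w : ℤ} (H : ℕ → ModularForm 𝒮ℒ w) (γ : SL(2, ℤ))
    (hγ : γ ∈ CongruenceSubgroup.Gamma0 N) (z : ℍ) :
    combo N H (γ • z) =
      denom γ z ^ (w + 12 * ((Fintype.card (Q N) : ℤ) - 1)) * combo N H z := by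
  have hcard : 0 < Fintype.card (Q N) := Fintype.card_pos_iff.mpr ⟨q1⟩
  have hJ := denom_ne_zero γ z
  have h1 : ∀ j, H j (γ • z) = H j z * denom γ z ^ w := fun j =>
    apply_smul_of_slash (SlashInvariantFormClass.slash_action_eq (H j) _ ⟨γ, rfl⟩) z
  have hmem : (Matrix.SpecialLinearGroup.mapGL ℝ γ) ∈ G0 N := ⟨γ, hγ, rfl⟩
  have h2 : eN N (γ • z) = eN N z * denom γ z ^ (12 : ℤ) :=
    apply_smul_of_slash (SlashInvariantFormClass.slash_action_eq (eN N) _ hmem) z
  have h3 : deltaN N (γ • z) = deltaN N z * denom γ z ^ (12 : ℤ) :=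
    apply_smul_of_slash (SlashInvariantFormClass.slash_action_eq (deltaN N) _ hmem) z
  rw [combo_apply, combo_apply, Finset.mul_sum]
  refine Finset.sum_congr rfl fun j hj => ?_
  have hj' : j ≤ Fintype.card (Q N) - 1 := by have := Finset.mem_range.mp hj; omega
  rw [h1, h2, h3, mul_pow, mul_pow, ← zpow_natCast (denom γ z ^ (12 : ℤ)) j,
    ← zpow_natCast (denom γ z ^ (12 : ℤ)) (Fintype.card (Q N) - 1 - j), ← zpow_mul, ← zpow_mul]
  have hexp : denom γ z ^ (w + 12 * ((Fintype.card (Q N) : ℤ) - 1)) =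
      denom γ z ^ w * denom γ z ^ ((12 : ℤ) * (j : ℕ)) *
        denom γ z ^ ((12 : ℤ) * ((Fintype.card (Q N) - 1 - j : ℕ) : ℤ)) := by
    rw [← zpow_add₀ hJ, ← zpow_add₀ hJ]
    congr 1
    have : ((Fintype.card (Q N) - 1 - j : ℕ) : ℤ) = (Fintype.card (Q N) : ℤ) - 1 - j := by
      omega
    rw [this]; ring
  rw [hexp]
  ring

end Fermat.Agent.S23.H22

end
end
-- ==== END Fermat.Agent.S23.H22_GS

-- ==== BEGIN Fermat.Agent.S23.H77_Desc
section

/-!
# P2 (DESC): a subspace of `ι → ℂ` stable under all coefficientwise ring endomorphisms of `ℂ`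
is spanned by its rational vectors.
-/

set_option autoImplicit false

namespace Fermat.Agent.S23.H77

open Finset

/-- The set of rational vectors of a subspace. -/
def ratVectors {ι : Type} (W : Submodule ℂ (ι → ℂ)) : Set (ι → ℂ) :=
  {w | w ∈ W ∧ ∀ i, ∃ r : ℚ, w i = (r : ℂ)}

theorem desc_aux {ι : Type} [Fintype ι] [DecidableEq ι] (W : Submodule ℂ (ι → ℂ))
    (hW : ∀ σ : ℂ →+* ℂ, ∀ w ∈ W, (fun i => σ (w i)) ∈ W) :
    ∀ (s : ℕ) (w : ι → ℂ), w ∈ W → (univ.filter fun i => w i ≠ 0).card ≤ s →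
      w ∈ Submodule.span ℂ (ratVectors W) := by
  intro s
  induction s with
  | zero =>
    intro w _ hcard
    have h0 : w = 0 := by
      funext i
      by_contra hne
      have hne' : w i ≠ 0 := hne
      have : i ∈ univ.filter fun i => w i ≠ 0 := by simp [hne']
      have hpos : 0 < (univ.filter fun i => w i ≠ 0).card := Finset.card_pos.2 ⟨i, this⟩
      omega
    rw [h0]
    exact Submodule.zero_mem _
  | succ s ih =>
    intro w hw hcard
    by_cases hrat : ∀ i, ∃ r : ℚ, w i = (r : ℂ)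
    · exact Submodule.subset_span ⟨hw, hrat⟩
    · -- some coordinate is irrational
      obtain ⟨i₁, hi₁⟩ := not_forall.1 hrat
      have hi₁0 : w i₁ ≠ 0 := by
        intro h0
        exact hi₁ ⟨0, by simp [h0]⟩
      -- normalise at i₁
      set c : ℂ := (w i₁)⁻¹ with hc
      set w₁ : ι → ℂ := c • w with hw₁
      have hw₁W : w₁ ∈ W := W.smul_mem c hw
      have hw₁i : w₁ i₁ = 1 := by simp [hw₁, hc, hi₁0]
      have hsupp₁ : ∀ i, w₁ i ≠ 0 → w i ≠ 0 := by
        intro i hi h0
        apply hi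
        simp [hw₁, h0]
      by_cases hrat₁ : ∀ i, ∃ r : ℚ, w₁ i = (r : ℂ)
      · -- then w = (w i₁) • w₁ with w₁ rational
        have : w = (w i₁) • w₁ := by
          funext i
          simp [hw₁, hc, hi₁0]
        rw [this]
        exact Submodule.smul_mem _ _ (Submodule.subset_span ⟨hw₁W, hrat₁⟩)
      · obtain ⟨i₂, hi₂⟩ := not_forall.1 hrat₁
        -- there is σ moving w₁ i₂
        have hex : ∃ σ : ℂ →+* ℂ, σ (w₁ i₂) ≠ w₁ i₂ := by
          by_contra hcon
          apply hi₂
          apply exists_rat_of_forall_ringHom_fixed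
          intro σ
          by_contra h
          exact hcon ⟨σ, h⟩
        obtain ⟨σ, hσ⟩ := hex
        set u : ι → ℂ := (fun i => σ (w₁ i)) - w₁ with hu
        have huW : u ∈ W := W.sub_mem (hW σ w₁ hw₁W) hw₁W
        have hu1 : u i₁ = 0 := by simp [hu, hw₁i]
        have hu2 : u i₂ ≠ 0 := by
          simp only [hu, Pi.sub_apply]
          exact sub_ne_zero.2 hσ
        have husupp : ∀ i, u i ≠ 0 → w i ≠ 0 := by
          intro i hi
          apply hsupp₁
          intro h0
          apply hi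
          simp [hu, h0]
        -- u has smaller support
        have hcardu : (univ.filter fun i => u i ≠ 0).card ≤ s := by
          have hsub : (univ.filter fun i => u i ≠ 0) ⊆ (univ.filter fun i => w i ≠ 0).erase i₁ := by
            intro i hi
            simp only [mem_filter, mem_univ, true_and] at hi
            simp only [mem_erase, mem_filter, mem_univ, true_and]
            refine ⟨?_, husupp i hi⟩
            rintro rfl
            exact hi hu1
          have h1 := Finset.card_le_card hsub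
          have h2 : i₁ ∈ univ.filter fun i => w i ≠ 0 := by simp [hi₁0]
          rw [Finset.card_erase_of_mem h2] at h1
          omega
        have huspan := ih u huW hcardu
        -- w' := w - (w i₂ / u i₂) • u has smaller support
        set w' : ι → ℂ := w - (w i₂ / u i₂) • u with hw'
        have hw'W : w' ∈ W := W.sub_mem hw (W.smul_mem _ huW)
        have hw'2 : w' i₂ = 0 := by
          simp [hw', hu2]
        have hwi₂ : w i₂ ≠ 0 := husupp i₂ hu2
        have hcardw' : (univ.filter fun i => w' i ≠ 0).card ≤ s := by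
          have hsub : (univ.filter fun i => w' i ≠ 0) ⊆ (univ.filter fun i => w i ≠ 0).erase i₂ := by
            intro i hi
            simp only [mem_filter, mem_univ, true_and] at hi
            simp only [mem_erase, mem_filter, mem_univ, true_and]
            refine ⟨?_, ?_⟩
            · rintro rfl
              exact hi hw'2
            · intro h0
              apply hi
              have hu0 : u i = 0 := by
                by_contra hne
                exact husupp i hne h0
              simp [hw', h0, hu0]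
          have h1 := Finset.card_le_card hsub
          have h2 : i₂ ∈ univ.filter fun i => w i ≠ 0 := by simp [hwi₂]
          rw [Finset.card_erase_of_mem h2] at h1
          omega
        have hw'span := ih w' hw'W hcardw'
        have : w = w' + (w i₂ / u i₂) • u := by
          simp [hw']
        rw [this]
        exact Submodule.add_mem _ hw'span (Submodule.smul_mem _ _ huspan)

/-- **P2 (DESC)**. -/
theorem desc {ι : Type} [Fintype ι] (W : Submodule ℂ (ι → ℂ))
    (hW : ∀ σ : ℂ →+* ℂ, ∀ w ∈ W, (fun i => σ (w i)) ∈ W) :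
    W = Submodule.span ℂ (ratVectors W) := by
  classical
  apply le_antisymm
  · intro w hw
    exact desc_aux W hW _ w hw le_rfl
  · rw [Submodule.span_le]
    intro w hw
    exact hw.1

end Fermat.Agent.S23.H77

end
-- ==== END Fermat.Agent.S23.H77_Desc

-- ==== BEGIN Fermat.Agent.S24.Closure.Defs
section

/-!
# S24: the interface between the analytic construction and the algebraic counting

`ModClosure N` packages a finite Galois closure `L` of `F_N = Q̄(j(q^d) : d ∣ N)` over
`E_N = Q̄(j)`, the surjection `SL(2,ℤ) → Gal(L/E_N)` whose preimage of `Gal(L/F_N)` is `Γ₀(N)`,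
and the valuations of `L` coming from the points of `ℍ` and from the cusp `∞`.
-/

set_option autoImplicit false

noncomputable section

namespace Fermat.Agent.S24

open ModularCurve AlgebraicCurve UpperHalfPlane WithZero IntermediateField
open scoped MatrixGroups

/-- `Q̄`. -/
abbrev Kbar : Type := AlgebraicClosure ℚ

/-- The function field of `X₀(N)` over `Q̄`, as a type. -/
abbrev FN (N : ℕ) : Type := ↥(modularFunctionFieldBar N)

/-- A fixed embedding `Q̄ → ℂ`. -/
def iotaC : Kbar →+* ℂ :=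
  haveI : Algebra.IsAlgebraic ℚ Kbar := AlgebraicClosure.isAlgebraic ℚ
  (IsAlgClosed.lift : Kbar →ₐ[ℚ] ℂ).toRingHom

/-- The formal `j`, with coefficients in `Q̄`. -/
def jBar : LaurentSeries Kbar := coeffEmb Kbar jq

theorem jBar_mem (N : ℕ) [NeZero N] : jBar ∈ modularFunctionFieldBar N := by
  have h := jqd_mem_full N (one_dvd N)
  rw [qExpand_one_apply] at h
  exact coeffEmb_mem_laurentBaseChange Kbar h

/-- `j` as an element of `F_N`. -/
def jF (N : ℕ) [NeZero N] : FN N := ⟨jBar, jBar_mem N⟩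

/-- The order of vanishing of `j - j(τ)` at `τ`. -/
def jOrd (τ : ℍ) : ℕ :=
  (analyticOrderAt (fun z : ℂ => jAn (ofComplex z) - jAn τ) (τ : ℂ)).toNat

/-- A Galois closure of `F_N / Q̄(j)` with its modular structure.
`E` is (a copy of) the rational function field `Q̄(j)`, generated by `t ↦ j`. -/
structure ModClosure (N : ℕ) [NeZero N] where
  /-- the base field `Q̄(j)` -/
  E : Type
  /-- the Galois closure -/
  L : Type
  [instFieldE : Field E]
  [instField : Field L]
  [instAlgKE : Algebra Kbar E]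
  [instAlgK : Algebra Kbar L]
  [instAlgEF : Algebra E (FN N)]
  [instAlgF : Algebra (FN N) L]
  [instAlgE : Algebra E L]
  [towerKEF : IsScalarTower Kbar E (FN N)]
  [towerKFL : IsScalarTower Kbar (FN N) L]
  [towerEFL : IsScalarTower E (FN N) L]
  [towerKEL : IsScalarTower Kbar E L]
  [finite : FiniteDimensional E L]
  [galois : IsGalois E L]
  /-- the generator `j` of `E` -/
  t : E
  t_transcendental : Transcendental Kbar t
  t_map : algebraMap E (FN N) t = jF N
  t_gen : ∀ y : E, ∃ p q : Polynomial Kbar, Polynomial.aeval t q ≠ 0 ∧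
    y = Polynomial.aeval t p / Polynomial.aeval t q
  /-- the action of the modular group -/
  π : SL(2, ℤ) →* (L ≃ₐ[E] L)
  π_surjective : Function.Surjective π
  π_comap : (IntermediateField.fixingSubgroup
      (IsScalarTower.toAlgHom E (FN N) L).fieldRange).comap π = CongruenceSubgroup.Gamma0 N
  /-- the valuation at a point of `ℍ` -/
  w : ℍ → Valuation L ℤᵐ⁰
  w_algebraMap : ∀ (τ : ℍ) (c : Kbar), c ≠ 0 → w τ (algebraMap Kbar L c) = 1
  w_π : ∀ (τ : ℍ) (γ : SL(2, ℤ)) (y : L), w τ (π γ y) = w (γ⁻¹ • τ) y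
  w_j : ∀ (τ : ℍ) (a : Kbar), iotaC a = jAn τ →
    w τ (algebraMap E L (t - algebraMap Kbar E a)) = exp (-(jOrd τ : ℤ))
  /-- the valuation at the cusp `∞` (order in `q^(1/N)`) -/
  winf : Valuation L ℤᵐ⁰
  winf_algebraMap : ∀ c : Kbar, c ≠ 0 → winf (algebraMap Kbar L c) = 1
  winf_π_T : ∀ y : L, winf (π ModularGroup.T y) = winf y
  winf_j : winf (algebraMap E L t⁻¹) = exp (-(N : ℤ))

end Fermat.Agent.S24

end
end
-- ==== END Fermat.Agent.S24.Closure.Defs

-- ==== BEGIN Fermat.Agent.S24.Closure.UExp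
section

/-!
# S24 construction, layer 1c (WP CLO-UExp): expansions at `∞` in `u = exp (2 π i τ / N)`

Pure analysis over `ℂ`, independent of `j`.
`HasUExp N f c` : the function `f : ℍ → ℂ` is, on all of `ℍ`, the sum of the Laurent series `c`
(finitely many negative terms) in the parameter `u = exp (2 π i τ / N)`.

WP CLO-UExp: all statements proved (helper95); signatures as in the skeleton.
-/

set_option autoImplicit false

noncomputable section

namespace Fermat.Agent.S24

open UpperHalfPlane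
open scoped MatrixGroups Manifold

/-- The local parameter `u = exp (2 π i τ / N)` at the cusp `∞`. -/
def uPar (N : ℕ) (τ : ℍ) : ℂ := Function.Periodic.qParam (N : ℝ) (τ : ℂ)

theorem uPar_ne_zero (N : ℕ) (τ : ℍ) : uPar N τ ≠ 0 := Function.Periodic.qParam_ne_zero _

theorem norm_uPar_lt_one (N : ℕ) [NeZero N] (τ : ℍ) : ‖uPar N τ‖ < 1 :=
  Function.Periodic.norm_qParam_lt_one (Nat.cast_pos.mpr (NeZero.pos N)) τ.im_pos

theorem uPar_pow (N : ℕ) [NeZero N] (τ : ℍ) : uPar N τ ^ N = uPar 1 τ := by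
  have hN : (N : ℂ) ≠ 0 := Nat.cast_ne_zero.mpr (NeZero.ne N)
  simp only [uPar, Function.Periodic.qParam]
  rw [← Complex.exp_nat_mul]
  congr 1
  push_cast
  field_simp

/-- Every point of the punctured unit disc is a value of `u`. -/
theorem exists_uPar_eq (N : ℕ) [NeZero N] {z : ℂ} (hz0 : z ≠ 0) (hz1 : ‖z‖ < 1) :
    ∃ τ : ℍ, uPar N τ = z := by
  have hN : (0 : ℝ) < N := Nat.cast_pos.mpr (NeZero.pos N)
  have him : 0 < (Function.Periodic.invQParam (N : ℝ) z).im := by
    rw [Function.Periodic.im_invQParam]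
    have h1 : Real.log ‖z‖ < 0 := Real.log_neg (norm_pos_iff.mpr hz0) hz1
    have h2 : -(N : ℝ) / (2 * Real.pi) < 0 := by
      apply div_neg_of_neg_of_pos (by linarith) (by positivity)
    exact mul_pos_of_neg_of_neg h2 h1
  exact ⟨⟨Function.Periodic.invQParam (N : ℝ) z, him⟩,
    Function.Periodic.qParam_right_inv hN.ne' hz0⟩

/-- `c` is the expansion of `f` at `∞` in the parameter `u = exp (2 π i τ / N)`. -/
def HasUExp (N : ℕ) (f : ℍ → ℂ) (c : LaurentSeries ℂ) : Prop :=
  ∀ τ : ℍ, HasSum (fun n : ℤ => c.coeff n * uPar N τ ^ n) (f τ)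

/-- Twisting a Laurent series: `∑ cₙ Xⁿ ↦ ∑ cₙ zⁿ Xⁿ`. -/
def twist {F : Type*} [Field F] (z : F) (c : LaurentSeries F) : LaurentSeries F :=
  HahnSeries.ofSuppBddBelow (fun n : ℤ => z ^ n * c.coeff n) (by
    refine ⟨c.order, fun n hn => ?_⟩
    by_contra h
    exact hn (by
      show z ^ n * c.coeff n = 0
      rw [HahnSeries.coeff_eq_zero_of_lt_order (not_le.mp h), mul_zero]))

@[simp] theorem twist_coeff {F : Type*} [Field F] (z : F) (c : LaurentSeries F) (n : ℤ) :
    (twist z c).coeff n = z ^ n * c.coeff n := rfl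

theorem coeffMap_twist {F F' : Type*} [Field F] [Field F'] (φ : F →+* F') (z : F)
    (c : LaurentSeries F) :
    ModularCurve.coeffMap φ (twist z c) = twist (φ z) (ModularCurve.coeffMap φ c) := by
  ext n
  simp [map_zpow₀]

namespace HasUExp

variable {N : ℕ} {f g : ℍ → ℂ} {c c' : LaurentSeries ℂ}

theorem congr (h : HasUExp N f c) (hfg : ∀ τ, f τ = g τ) : HasUExp N g c :=
  fun τ => hfg τ ▸ h τ

theorem const (N : ℕ) (a : ℂ) : HasUExp N (fun _ => a) (HahnSeries.C a) := by
  intro τ
  have h := hasSum_single (f := fun n : ℤ => (HahnSeries.C a).coeff n * uPar N τ ^ n) 0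
    (fun n hn => by
      show (HahnSeries.C a).coeff n * uPar N τ ^ n = 0
      rw [HahnSeries.C_apply, HahnSeries.coeff_single_of_ne hn, zero_mul])
  simpa [HahnSeries.C_apply] using h

theorem zero (N : ℕ) : HasUExp N (fun _ => 0) 0 := by
  intro τ
  simp

theorem one (N : ℕ) : HasUExp N (fun _ => 1) 1 := by
  have h := const N 1
  rwa [map_one] at h

theorem add (hf : HasUExp N f c) (hg : HasUExp N g c') :
    HasUExp N (fun τ => f τ + g τ) (c + c') := by
  intro τ
  have h := (hf τ).add (hg τ)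
  simpa [add_mul] using h

theorem neg (hf : HasUExp N f c) : HasUExp N (fun τ => - f τ) (- c) := by
  intro τ
  have h := (hf τ).neg
  simpa [neg_mul] using h

theorem sub (hf : HasUExp N f c) (hg : HasUExp N g c') :
    HasUExp N (fun τ => f τ - g τ) (c - c') := by
  intro τ
  have h := (hf τ).sub (hg τ)
  simpa [sub_mul] using h

/-- Cauchy product (absolute convergence inside the unit disc). -/
theorem mul [NeZero N] (hf : HasUExp N f c) (hg : HasUExp N g c') :
    HasUExp N (fun τ => f τ * g τ) (c * c') := by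
  intro τ
  have hu0 : uPar N τ ≠ 0 := uPar_ne_zero N τ
  have hA := hf τ
  have hB := hg τ
  have hAn : Summable fun n : ℤ => ‖c.coeff n * uPar N τ ^ n‖ := hA.summable.norm
  have hBn : Summable fun n : ℤ => ‖c'.coeff n * uPar N τ ^ n‖ := hB.summable.norm
  have hS : Summable (fun x : ℤ × ℤ => (c.coeff x.1 * uPar N τ ^ x.1) * (c'.coeff x.2 * uPar N τ ^ x.2)) :=
    summable_mul_of_summable_norm (f := fun n : ℤ => c.coeff n * uPar N τ ^ n)
      (g := fun n : ℤ => c'.coeff n * uPar N τ ^ n) hAn hBn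
  have hprod : HasSum (fun x : ℤ × ℤ => (c.coeff x.1 * uPar N τ ^ x.1) * (c'.coeff x.2 * uPar N τ ^ x.2))
      (f τ * g τ) := HasSum.mul (f := fun n : ℤ => c.coeff n * uPar N τ ^ n)
      (g := fun n : ℤ => c'.coeff n * uPar N τ ^ n) hA hB hS
  -- reindex by `(n, j) ↦ (n - j, j)`
  let e : ℤ × ℤ ≃ ℤ × ℤ :=
    { toFun := fun x => (x.1 - x.2, x.2)
      invFun := fun x => (x.1 + x.2, x.2)
      left_inv := fun x => by simp
      right_inv := fun x => by simp }
  have hprod' : HasSum (fun x : ℤ × ℤ =>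
      (c.coeff (x.1 - x.2) * uPar N τ ^ (x.1 - x.2)) * (c'.coeff x.2 * uPar N τ ^ x.2))
      (f τ * g τ) :=
    (Equiv.hasSum_iff (f := fun x : ℤ × ℤ =>
      (c.coeff x.1 * uPar N τ ^ x.1) * (c'.coeff x.2 * uPar N τ ^ x.2)) e).mpr hprod
  refine HasSum.prod_fiberwise (f := fun x : ℤ × ℤ =>
      (c.coeff (x.1 - x.2) * uPar N τ ^ (x.1 - x.2)) * (c'.coeff x.2 * uPar N τ ^ x.2))
      hprod' fun n => ?_
  -- the inner sum is finite
  set AD := Finset.antidiagonal c.isPWO_support c'.isPWO_support n with hAD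
  have hfin : ∀ j ∉ AD.image Prod.snd,
      (c.coeff (n - j) * uPar N τ ^ (n - j)) * (c'.coeff j * uPar N τ ^ j) = 0 := by
    intro j hj
    by_contra hne
    apply hj
    rw [Finset.mem_image]
    refine ⟨(n - j, j), ?_, rfl⟩
    rw [hAD, Finset.mem_antidiagonal]
    refine ⟨?_, ?_, by simp⟩
    · intro h0
      apply hne
      have : c.coeff (n - j) = 0 := h0
      rw [this, zero_mul, zero_mul]
    · intro h0
      apply hne
      have : c'.coeff j = 0 := h0
      rw [this, zero_mul, mul_zero]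
  have hsum : HasSum
      (fun j : ℤ => (c.coeff (n - j) * uPar N τ ^ (n - j)) * (c'.coeff j * uPar N τ ^ j))
      (∑ j ∈ AD.image Prod.snd,
        (c.coeff (n - j) * uPar N τ ^ (n - j)) * (c'.coeff j * uPar N τ ^ j)) :=
    hasSum_sum_of_ne_finset_zero hfin
  have hval : (c * c').coeff n * uPar N τ ^ n
      = ∑ j ∈ AD.image Prod.snd,
          (c.coeff (n - j) * uPar N τ ^ (n - j)) * (c'.coeff j * uPar N τ ^ j) := by
    rw [HahnSeries.coeff_mul, Finset.sum_mul, Finset.sum_image]
    · refine Finset.sum_congr rfl fun ij hij => ?_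
      rw [Finset.mem_antidiagonal] at hij
      have h1 : n - ij.2 = ij.1 := by rw [← hij.2.2]; ring
      rw [h1, ← hij.2.2, zpow_add₀ hu0]
      ring
    · intro x hx y hy hxy
      rw [Finset.mem_coe, Finset.mem_antidiagonal] at hx hy
      have h2 : x.2 = y.2 := hxy
      have h1 : x.1 = y.1 := by
        have := hx.2.2.trans hy.2.2.symm
        rw [h2] at this
        exact add_right_cancel this
      exact Prod.ext h1 h2
  show HasSum (fun j : ℤ =>
    (c.coeff (n - j) * uPar N τ ^ (n - j)) * (c'.coeff j * uPar N τ ^ j)) _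
  rw [hval]
  exact hsum

/-- Key estimate for the identity theorem: the lowest coefficient is bounded by a multiple of
`‖u‖`. -/
theorem h95_norm_coeff_order_le [NeZero N] (h : HasUExp N (fun _ => 0) c)
    (S : ℝ) (τ₀ : ℍ) (hτ₀ : uPar N τ₀ = (1 / 2 : ℂ))
    (hS : HasSum (fun n : ℤ => ‖c.coeff n * uPar N τ₀ ^ n‖) S)
    (τ : ℍ) (hτ : ‖uPar N τ‖ ≤ 1 / 2) :
    ‖c.coeff c.order‖ ≤ S * (‖uPar N τ‖ * ((1 / 2 : ℝ) ^ (c.order + 1))⁻¹) := by
  classical
  set m := c.order with hm
  set u := uPar N τ with hu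
  have hu0 : u ≠ 0 := uPar_ne_zero N τ
  have hupos : 0 < ‖u‖ := norm_pos_iff.mpr hu0
  have h0 := h τ
  have h1 : HasSum (Function.update (fun n : ℤ => c.coeff n * u ^ n) m 0)
      (0 - c.coeff m * u ^ m + 0) := h0.update m 0
  have hbound : ∀ n : ℤ, ‖Function.update (fun n : ℤ => c.coeff n * u ^ n) m 0 n‖
      ≤ ‖c.coeff n * uPar N τ₀ ^ n‖ * (‖u‖ ^ (m + 1) * ((1 / 2 : ℝ) ^ (m + 1))⁻¹) := by
    intro n
    have hK : 0 ≤ ‖u‖ ^ (m + 1) * ((1 / 2 : ℝ) ^ (m + 1))⁻¹ := by positivity
    rcases lt_trichotomy n m with hlt | heq | hgt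
    · rw [Function.update_of_ne hlt.ne, HahnSeries.coeff_eq_zero_of_lt_order hlt]
      simp only [zero_mul, norm_zero, le_refl]
    · rw [heq, Function.update_self, norm_zero]
      exact mul_nonneg (norm_nonneg _) hK
    · rw [Function.update_of_ne hgt.ne']
      obtain ⟨k, hk⟩ : ∃ k : ℕ, n = m + 1 + k := ⟨(n - m - 1).toNat, by omega⟩
      rw [norm_mul, norm_mul, hτ₀, norm_zpow, norm_zpow]
      have hhalf : ‖(1 / 2 : ℂ)‖ = 1 / 2 := by
        rw [norm_div, norm_one, Complex.norm_ofNat]
      rw [hhalf, hk, zpow_add₀ hupos.ne', zpow_add₀ (by norm_num : (1 / 2 : ℝ) ≠ 0),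
        zpow_natCast, zpow_natCast]
      have hpk : ‖u‖ ^ k ≤ (1 / 2 : ℝ) ^ k := pow_le_pow_left₀ (norm_nonneg _) hτ k
      have hh : (0 : ℝ) < (1 / 2 : ℝ) ^ (m + 1) := by positivity
      calc ‖c.coeff (m + 1 + k)‖ * (‖u‖ ^ (m + 1) * ‖u‖ ^ k)
          ≤ ‖c.coeff (m + 1 + k)‖ * (‖u‖ ^ (m + 1) * (1 / 2 : ℝ) ^ k) := by gcongr
        _ = ‖c.coeff (m + 1 + k)‖ * ((1 / 2 : ℝ) ^ (m + 1) * (1 / 2 : ℝ) ^ k)
              * (‖u‖ ^ (m + 1) * ((1 / 2 : ℝ) ^ (m + 1))⁻¹) := by
            field_simp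
  have h2 := h1.norm_le_of_bounded (hS.mul_right _) hbound
  rw [zero_sub, add_zero, norm_neg, norm_mul, norm_zpow] at h2
  have hum : 0 < ‖u‖ ^ m := by positivity
  have h3 : ‖c.coeff m‖ * ‖u‖ ^ m
      ≤ S * (‖u‖ * ((1 / 2 : ℝ) ^ (m + 1))⁻¹) * ‖u‖ ^ m := by
    calc ‖c.coeff m‖ * ‖u‖ ^ m ≤ S * (‖u‖ ^ (m + 1) * ((1 / 2 : ℝ) ^ (m + 1))⁻¹) := h2
      _ = S * (‖u‖ * ((1 / 2 : ℝ) ^ (m + 1))⁻¹) * ‖u‖ ^ m := by
          rw [zpow_add₀ hupos.ne', zpow_one]; ring
  exact le_of_mul_le_mul_right h3 hum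

/-- Identity theorem for Laurent expansions. -/
theorem eq_zero [NeZero N] (h : HasUExp N (fun _ => 0) c) : c = 0 := by
  by_contra hc
  have hcm : c.coeff c.order ≠ 0 := fun h0 => hc (HahnSeries.coeff_order_eq_zero.mp h0)
  have hpos : 0 < ‖c.coeff c.order‖ := norm_pos_iff.mpr hcm
  obtain ⟨τ₀, hτ₀⟩ := exists_uPar_eq N (z := (1 / 2 : ℂ)) (by norm_num)
    (by rw [norm_div, norm_one, Complex.norm_ofNat]; norm_num)
  have hsum : Summable fun n : ℤ => ‖c.coeff n * uPar N τ₀ ^ n‖ := (h τ₀).summable.norm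
  obtain ⟨S, hS⟩ := hsum
  have hS0 : 0 ≤ S := hS.nonneg fun n => norm_nonneg _
  set K : ℝ := ((1 / 2 : ℝ) ^ (c.order + 1))⁻¹ with hK
  have hKpos : 0 < K := by positivity
  -- choose a small radius
  set r : ℝ := min (1 / 2) (‖c.coeff c.order‖ / (2 * K * (S + 1))) with hr
  have hrpos : 0 < r := by
    apply lt_min (by norm_num)
    positivity
  have hr1 : r ≤ 1 / 2 := min_le_left _ _
  have hr2 : r ≤ ‖c.coeff c.order‖ / (2 * K * (S + 1)) := min_le_right _ _
  obtain ⟨τ, hτ⟩ := exists_uPar_eq N (z := (r : ℂ))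
    (by exact_mod_cast hrpos.ne')
    (by rw [Complex.norm_real, Real.norm_of_nonneg hrpos.le]; linarith)
  have hnorm : ‖uPar N τ‖ = r := by
    rw [hτ, Complex.norm_real, Real.norm_of_nonneg hrpos.le]
  have key := h95_norm_coeff_order_le h S τ₀ hτ₀ hS τ (by rw [hnorm]; exact hr1)
  rw [hnorm] at key
  have h4 : S * (r * K) ≤ S * (‖c.coeff c.order‖ / (2 * K * (S + 1)) * K) := by gcongr
  have h5 : S * (‖c.coeff c.order‖ / (2 * K * (S + 1)) * K)
      = ‖c.coeff c.order‖ * (S / (2 * (S + 1))) := by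
    field_simp
  have h6 : S / (2 * (S + 1)) < 1 := by
    rw [div_lt_one (by positivity)]
    linarith
  have h7 : ‖c.coeff c.order‖ * (S / (2 * (S + 1))) < ‖c.coeff c.order‖ := by
    calc ‖c.coeff c.order‖ * (S / (2 * (S + 1))) < ‖c.coeff c.order‖ * 1 := by gcongr
      _ = ‖c.coeff c.order‖ := mul_one _
  linarith

theorem unique [NeZero N] (hf : HasUExp N f c) (hf' : HasUExp N f c') : c = c' := by
  have h := (hf.sub hf').congr (g := fun _ => 0) (fun τ => sub_self _)
  exact sub_eq_zero.mp h.eq_zero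

/-- A function with an expansion without negative terms is bounded at `∞`. -/
theorem isBoundedAtImInfty [NeZero N] (hf : HasUExp N f c) (hc : ∀ n : ℤ, n < 0 → c.coeff n = 0) :
    IsBoundedAtImInfty f := by
  rw [UpperHalfPlane.isBoundedAtImInfty_iff]
  have hN : (0 : ℝ) < N := Nat.cast_pos.mpr (NeZero.pos N)
  set τ₀ : ℍ := UpperHalfPlane.I with hτ₀
  have hsum : Summable fun n : ℤ => ‖c.coeff n * uPar N τ₀ ^ n‖ := (hf τ₀).summable.norm
  obtain ⟨M, hM⟩ := hsum
  refine ⟨M, 1, fun τ hτ => ?_⟩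
  have hle : ‖uPar N τ‖ ≤ ‖uPar N τ₀‖ := by
    simp only [uPar, Function.Periodic.norm_qParam]
    apply Real.exp_le_exp.mpr
    have h1 : (τ₀ : ℂ).im = 1 := by simp [hτ₀]
    have h2 : (1 : ℝ) ≤ (τ : ℂ).im := hτ
    rw [h1]
    apply div_le_div_of_nonneg_right _ hN.le
    nlinarith [Real.pi_pos]
  refine (hf τ).norm_le_of_bounded hM fun n => ?_
  rcases lt_or_ge n 0 with hn | hn
  · rw [hc n hn]
    simp
  · obtain ⟨k, rfl⟩ := Int.eq_ofNat_of_zero_le hn
    rw [norm_mul, norm_mul, zpow_natCast, zpow_natCast, norm_pow, norm_pow]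
    gcongr

end HasUExp

end Fermat.Agent.S24

end
end
-- ==== END Fermat.Agent.S24.Closure.UExp

-- ==== BEGIN Fermat.Agent.S24.H17_FF2
section

/-!
# S24 / function-field layer (helper17): FF2a, FF2b, FF2c

For a function field `F / K` in one variable (`K` algebraically closed of characteristic zero,
`F` finite over `K⟮x⟯`):

* `ff_omega_span`: `Ω[F⁄K] = F · dy` for every non-constant `y`;
* `ff_D_ne_zero`: `dy ≠ 0` for every non-constant `y`;
* `ff_ordDifferential_smul`: `ord_v (f ω) = ord_v f + ord_v ω`.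

General versions (no reference `x`) are in the namespace `Fermat.Agent.S24.H17`.
-/

set_option autoImplicit false
set_option linter.style.haveILetI false

noncomputable section

open AlgebraicCurve KaehlerDifferential IntermediateField Polynomial TensorProduct

namespace Fermat.Agent.S24.H17

variable {K F : Type*} [Field K] [Field F] [Algebra K F]

/-! ### Transcendence degree one -/

open scoped IntermediateField.algebraAdjoinAdjoin in
/-- If `F` is algebraic over `K⟮x⟯` then it is algebraic over `K⟮y⟯` for every transcendental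
`y`. -/
theorem isAlgebraic_adjoin_of_transcendental (x : F) [Algebra.IsAlgebraic K⟮x⟯ F]
    (y : F) (hy : Transcendental K y) : Algebra.IsAlgebraic K⟮y⟯ F := by
  have h1 : Algebra.IsAlgebraic (Algebra.adjoin K ({x} : Set F)) F :=
    Algebra.IsAlgebraic.trans (Algebra.adjoin K ({x} : Set F)) K⟮x⟯ F
  have h2 : Algebra.trdeg K F ≤ 1 := by
    have := Algebra.IsAlgebraic.trdeg_le_cardinalMk K ({x} : Set F)
    simpa using this
  have h3 : AlgebraicIndependent K (fun _ : Unit => y) :=
    algebraicIndependent_unique_type_iff.mpr hy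
  have h4 : IsTranscendenceBasis K (fun _ : Unit => y) :=
    h3.isTranscendenceBasis_of_lift_trdeg_le_of_finite (by simpa using h2)
  have h5 := h4.isAlgebraic_field
  have h6 : Set.range (fun _ : Unit => y) = {y} := by
    ext z; simp [eq_comm]
  rwa [h6] at h5

/-! ### `dy ≠ 0` -/

/-- The derivation `p(y) ↦ p'(y)` on `K[y]` for transcendental `y`. -/
def adjoinDeriv (y : F) (hy : Transcendental K y) :
    Derivation K (Algebra.adjoin K ({y} : Set F)) F :=
  Derivation.mk'
    ((aeval y).toLinearMap ∘ₗ (Polynomial.derivative (R := K)) ∘ₗ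
      (Polynomial.algEquivOfTranscendental K y hy).symm.toLinearMap)
    (by
      have key : ∀ b : Algebra.adjoin K ({y} : Set F),
          aeval y ((Polynomial.algEquivOfTranscendental K y hy).symm b) = (b : F) := by
        intro b
        obtain ⟨p, rfl⟩ := (Polynomial.algEquivOfTranscendental K y hy).surjective b
        rw [AlgEquiv.symm_apply_apply, Polynomial.algEquivOfTranscendental_apply,
          Polynomial.aeval_subalgebra_coe]
      intro a b
      simp only [LinearMap.coe_comp, Function.comp_apply, AlgEquiv.toLinearMap_apply,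
        AlgHom.toLinearMap_apply, map_mul, Polynomial.derivative_mul, map_add, key]
      rw [Algebra.smul_def, Algebra.smul_def]
      change _ = (a : F) * _ + (b : F) * _
      ring)

theorem adjoinDeriv_gen (y : F) (hy : Transcendental K y) :
    adjoinDeriv y hy ⟨y, Algebra.self_mem_adjoin_singleton K y⟩ = 1 := by
  simp [adjoinDeriv, Polynomial.algEquivOfTranscendental_symm_gen]

open scoped IntermediateField.algebraAdjoinAdjoin in
/-- In characteristic zero, `dy ≠ 0` in `Ω[F⁄K]` for `y` transcendental with `F / K⟮y⟯`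
algebraic. -/
theorem D_ne_zero_of_transcendental [CharZero K] (y : F) (hy : Transcendental K y)
    [Algebra.IsAlgebraic K⟮y⟯ F] : D K F y ≠ 0 := by
  intro h0
  haveI : CharZero K⟮y⟯ := charZero_of_injective_algebraMap (algebraMap K K⟮y⟯).injective
  haveI : Algebra.FormallyEtale (Algebra.adjoin K ({y} : Set F)) K⟮y⟯ :=
    Algebra.FormallyEtale.of_isLocalization (nonZeroDivisors (Algebra.adjoin K ({y} : Set F)))
  haveI : Algebra.FormallyEtale K⟮y⟯ F := Algebra.FormallyEtale.of_isSeparable K⟮y⟯ F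
  haveI : Algebra.FormallyEtale (Algebra.adjoin K ({y} : Set F)) F :=
    Algebra.FormallyEtale.comp (Algebra.adjoin K ({y} : Set F)) K⟮y⟯ F
  have h1 := tensorKaehlerEquivOfFormallyEtale_symm_D_algebraMap K
    (Algebra.adjoin K ({y} : Set F)) F ⟨y, Algebra.self_mem_adjoin_singleton K y⟩
  have h2 : (1 : F) ⊗ₜ[Algebra.adjoin K ({y} : Set F)]
      D K (Algebra.adjoin K ({y} : Set F)) ⟨y, Algebra.self_mem_adjoin_singleton K y⟩ = 0 := by
    rw [← h1]
    change (tensorKaehlerEquivOfFormallyEtale K (Algebra.adjoin K ({y} : Set F)) F).symm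
      (D K F y) = 0
    rw [h0, map_zero]
  have h3 := congrArg (LinearMap.liftBaseChange F (adjoinDeriv y hy).liftKaehlerDifferential) h2
  rw [LinearMap.liftBaseChange_tmul, map_zero, Derivation.liftKaehlerDifferential_comp_D,
    adjoinDeriv_gen, one_smul] at h3
  exact one_ne_zero h3

/-! ### Places: constants have order zero, uniformizers are transcendental -/

/-- The coordinate differential of a place is `dt` for some `t` of order one. -/
theorem exists_dCoord_eq (v : Place K F) : ∃ t : F, v.ord t = 1 ∧ v.dCoord = D K F t := by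
  refine ⟨((IsDiscreteValuationRing.exists_irreducible v.toValuationSubring).choose : F), ?_, rfl⟩
  exact v.ord_coe_irreducible
    (IsDiscreteValuationRing.exists_irreducible v.toValuationSubring).choose_spec

theorem ord_algebraMap_eq_zero (v : Place K F) (c : K) : v.ord (algebraMap K F c) = 0 := by
  rcases eq_or_ne c 0 with rfl | hc
  · rw [map_zero, v.ord_zero]
  · have h1 : algebraMap K F c ∈ v.toValuationSubring := v.algebraMap_mem' c
    have h2 : algebraMap K F c⁻¹ ∈ v.toValuationSubring := v.algebraMap_mem' c⁻¹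
    have h3 : algebraMap K F c * algebraMap K F c⁻¹ = 1 := by
      rw [← map_mul, mul_inv_cancel₀ hc, map_one]
    have h4 : algebraMap K F c⁻¹ * algebraMap K F c = 1 := by
      rw [← map_mul, inv_mul_cancel₀ hc, map_one]
    let u : v.toValuationSubringˣ :=
      ⟨⟨algebraMap K F c, h1⟩, ⟨algebraMap K F c⁻¹, h2⟩, Subtype.ext h3, Subtype.ext h4⟩
    exact v.ord_coe_unit u

/-- Over an algebraically closed constant field, an element with non-zero order at some place
is transcendental. -/
theorem transcendental_of_ord_ne_zero [IsAlgClosed K] (v : Place K F) (t : F)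
    (ht : v.ord t ≠ 0) : Transcendental K t := by
  intro halg
  have hint : IsIntegral K t := halg.isIntegral
  have hdeg : (minpoly K t).degree = 1 :=
    IsAlgClosed.degree_eq_one_of_irreducible K (minpoly.irreducible hint)
  obtain ⟨c, hc⟩ := minpoly.mem_range_of_degree_eq_one K t hdeg
  exact ht (hc ▸ ord_algebraMap_eq_zero v c)

/-- Every place of a function field in one variable satisfies `DCoordGenerates`. -/
theorem dCoordGenerates [IsAlgClosed K] [CharZero K] (x : F) [Algebra.IsAlgebraic K⟮x⟯ F]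
    (v : Place K F) : v.DCoordGenerates := by
  obtain ⟨t, ht, hd⟩ := exists_dCoord_eq v
  have htr : Transcendental K t := transcendental_of_ord_ne_zero v t (by rw [ht]; exact one_ne_zero)
  haveI := isAlgebraic_adjoin_of_transcendental x t htr
  exact ⟨by rw [hd]; exact span_D_eq_top t⟩

/-- `Ω[F⁄K]` is non-trivial for a function field in one variable. -/
theorem nontrivial_kaehler [CharZero K] (x : F) (hx : Transcendental K x)
    [Algebra.IsAlgebraic K⟮x⟯ F] : Nontrivial Ω[F⁄K] :=
  ⟨⟨D K F x, 0, D_ne_zero_of_transcendental x hx⟩⟩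

/-- The coefficient of a non-zero differential with respect to `dt_v` is non-zero. -/
theorem differentialCoeff_ne_zero [IsAlgClosed K] [CharZero K] (x : F)
    [Algebra.IsAlgebraic K⟮x⟯ F] (v : Place K F) (ω : Ω[F⁄K]) (hω : ω ≠ 0) :
    v.differentialCoeff ω ≠ 0 := by
  haveI := dCoordGenerates x v
  intro h0
  apply hω
  rw [← v.differentialCoeff_smul_dCoord ω, h0, zero_smul]

end Fermat.Agent.S24.H17

namespace Fermat.Agent.S24

variable {K F : Type*} [Field K] [Field F] [Algebra K F] [IsAlgClosed K] [CharZero K]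

/-- FF2a. `Ω[F/K]` is spanned by `dy` for any non-constant `y`. -/
theorem ff_omega_span (x : F) (hx : Transcendental K x) [FiniteDimensional K⟮x⟯ F]
    (y : F) (hy : Transcendental K y) (ω : Ω[F⁄K]) : ∃ f : F, ω = f • D K F y := by
  haveI := H17.isAlgebraic_adjoin_of_transcendental x y hy
  have h : ω ∈ Submodule.span F {D K F y} := by
    rw [H17.span_D_eq_top y]
    exact Submodule.mem_top
  obtain ⟨f, hf⟩ := Submodule.mem_span_singleton.mp h
  exact ⟨f, hf.symm⟩

/-- FF2b. `dy ≠ 0` for non-constant `y`. -/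
theorem ff_D_ne_zero (x : F) (hx : Transcendental K x) [FiniteDimensional K⟮x⟯ F]
    (y : F) (hy : Transcendental K y) : D K F y ≠ 0 := by
  haveI := H17.isAlgebraic_adjoin_of_transcendental x y hy
  exact H17.D_ne_zero_of_transcendental y hy

/-- FF2c. `ord_v (f ω) = ord_v f + ord_v ω`. -/
theorem ff_ordDifferential_smul (x : F) (hx : Transcendental K x) [FiniteDimensional K⟮x⟯ F]
    (v : Place K F) (f : F) (hf : f ≠ 0) (ω : Ω[F⁄K]) (hω : ω ≠ 0) :
    v.ordDifferential (f • ω) = v.ord f + v.ordDifferential ω := by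
  haveI := H17.dCoordGenerates x v
  haveI := H17.nontrivial_kaehler x hx
  exact v.ordDifferential_smul hf (H17.differentialCoeff_ne_zero x v ω hω)

end Fermat.Agent.S24

end
end
-- ==== END Fermat.Agent.S24.H17_FF2

-- ==== BEGIN Fermat.Agent.S24.H27_JOrdCore
section

/-!
# S24, analytic layer: values and orders of `j` at `i`, `ρ` and at generic points

Everything is stated with `analyticOrderAt` directly; `H27_JOrd.lean` restates the results
with `jOrd` from `Closure/Defs.lean`.
-/

set_option autoImplicit false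

noncomputable section

open scoped MatrixGroups

namespace Fermat.Agent.S24

open UpperHalfPlane ModularForm EisensteinSeries
open Fermat.Agent.S20.H70

/-- A level one modular form transforms with its weight. -/
theorem h27_mf_smul {k : ℤ} (f : ModularForm 𝒮ℒ k) (γ : SL(2, ℤ)) (τ : ℍ) :
    f (γ • τ) = denom γ τ ^ k * f τ := by
  have hγ : (γ : GL (Fin 2) ℝ) ∈ 𝒮ℒ := ⟨γ, rfl⟩
  exact SlashInvariantForm.slash_action_eqn'' f hγ τ

theorem h27_S_smul_I : ModularGroup.S • UpperHalfPlane.I = UpperHalfPlane.I := by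
  rw [UpperHalfPlane.modular_S_smul]
  apply UpperHalfPlane.ext
  simp

theorem h27_one_add_rho_ne_zero : ((1 : ℂ) + (ρ : ℂ)) ≠ 0 := by
  intro h0
  have h := ρ_sq
  have : (ρ : ℂ) = -1 := by linear_combination h0
  rw [this] at h
  norm_num at h

theorem h27_ST_smul_rho : (ModularGroup.S * ModularGroup.T) • ρ = ρ := by
  rw [mul_smul, UpperHalfPlane.modular_T_smul, UpperHalfPlane.modular_S_smul]
  apply UpperHalfPlane.ext
  have h := ρ_sq
  have hne := h27_one_add_rho_ne_zero
  simp only [UpperHalfPlane.coe_vadd]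
  rw [Complex.ofReal_one, inv_eq_iff_eq_inv, eq_comm, inv_eq_iff_eq_inv]
  have hr : (ρ : ℂ) ≠ 0 := ρ.ne_zero
  field_simp
  linear_combination h

/-- `E₆ i = 0`. -/
theorem h27_E6_I : E₆ UpperHalfPlane.I = 0 := by
  have h := h27_mf_smul E₆ ModularGroup.S UpperHalfPlane.I
  rw [h27_S_smul_I, ModularGroup.denom_S] at h
  have h6 : ((UpperHalfPlane.I : ℍ) : ℂ) ^ (6 : ℤ) = -1 := by
    rw [UpperHalfPlane.coe_I]
    have : (Complex.I) ^ (6 : ℤ) = Complex.I ^ (6 : ℕ) := by norm_cast
    rw [this, show (6 : ℕ) = 4 + 2 by norm_num, pow_add, Complex.I_pow_four, Complex.I_sq]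
    ring
  rw [h6] at h
  have h2 : (2 : ℂ) * E₆ UpperHalfPlane.I = 0 := by linear_combination h
  simpa using h2

theorem h27_denom_ST_rho : denom (ModularGroup.S * ModularGroup.T : SL(2, ℤ)) ρ = (ρ : ℂ) + 1 := by
  rw [ModularGroup.denom_apply]
  simp [ModularGroup.S, ModularGroup.T]

/-- `E₄ ρ = 0`. -/
theorem h27_E4_rho : E₄ ρ = 0 := by
  have h := h27_mf_smul E₄ (ModularGroup.S * ModularGroup.T) ρ
  rw [h27_ST_smul_rho, h27_denom_ST_rho] at h
  have hsq := ρ_sq
  have h4 : ((ρ : ℂ) + 1) ^ (4 : ℤ) = -(ρ : ℂ) - 1 := by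
    have : ((ρ : ℂ) + 1) ^ (4 : ℤ) = ((ρ : ℂ) + 1) ^ (4 : ℕ) := by norm_cast
    rw [this]
    have h2 : ((ρ : ℂ) + 1) ^ 2 = (ρ : ℂ) := by linear_combination hsq
    have h3 : ((ρ : ℂ) + 1) ^ 4 = (((ρ : ℂ) + 1) ^ 2) ^ 2 := by ring
    rw [h3, h2, hsq]
  rw [h4] at h
  have hne : ((ρ : ℂ) + 2) ≠ 0 := by
    intro h0
    have : (ρ : ℂ) = -2 := by linear_combination h0
    rw [this] at hsq
    norm_num at hsq
  have h2 : ((ρ : ℂ) + 2) * E₄ ρ = 0 := by linear_combination h
  exact (mul_eq_zero.mp h2).resolve_left hne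

/-- `Δ = (E₄³ - E₆²)/1728`, in the form used below. -/
theorem h27_disc_eq (z : ℍ) :
    (1728 : ℂ) * ModularForm.discriminant z = E₄ z ^ 3 - E₆ z ^ 2 := by
  rw [discriminant_eq_E₄_cube_sub_E₆_sq z]
  ring

theorem jAn_eq (z : ℍ) : jAn z = E₄ z ^ 3 / ModularForm.discriminant z := rfl

/-- `j(i) = 1728`. -/
theorem jAn_I : jAn UpperHalfPlane.I = 1728 := by
  rw [jAn_eq, div_eq_iff (ModularForm.discriminant_ne_zero _), h27_disc_eq, h27_E6_I]
  ring

/-- `j(ρ) = 0`. -/
theorem jAn_rho : jAn ρ = 0 := by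
  rw [jAn_eq, h27_E4_rho]
  simp

theorem jAn_eq_zero_iff (z : ℍ) : jAn z = 0 ↔ E₄ z = 0 := by
  rw [jAn_eq, div_eq_zero_iff]
  constructor
  · rintro (h | h)
    · exact pow_eq_zero_iff (by norm_num) |>.mp h
    · exact absurd h (ModularForm.discriminant_ne_zero z)
  · intro h
    left
    rw [h]
    norm_num

theorem jAn_sub_1728 (z : ℍ) : jAn z - 1728 = E₆ z ^ 2 / ModularForm.discriminant z := by
  rw [jAn_eq, eq_div_iff (ModularForm.discriminant_ne_zero _), sub_mul,
    div_mul_cancel₀ _ (ModularForm.discriminant_ne_zero _), h27_disc_eq]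
  ring

theorem jAn_eq_1728_iff (z : ℍ) : jAn z = 1728 ↔ E₆ z = 0 := by
  rw [← sub_eq_zero, jAn_sub_1728, div_eq_zero_iff]
  constructor
  · rintro (h | h)
    · exact pow_eq_zero_iff (by norm_num) |>.mp h
    · exact absurd h (ModularForm.discriminant_ne_zero z)
  · intro h
    left
    rw [h]
    norm_num

/-- `j - j(z₀) = -B_{z₀} / (1728 Δ Δ(z₀))`. -/
theorem jAn_sub_jAn (z₀ z : ℍ) :
    jAn z - jAn z₀ =
      (E₆ z₀ ^ 2 * E₄ z ^ 3 - E₄ z₀ ^ 3 * E₆ z ^ 2) *
        (-(1728 * ModularForm.discriminant z * ModularForm.discriminant z₀)⁻¹) := by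
  have hz := ModularForm.discriminant_ne_zero z
  have hz₀ := ModularForm.discriminant_ne_zero z₀
  have e := h27_disc_eq z
  have e₀ := h27_disc_eq z₀
  rw [jAn_eq, jAn_eq]
  field_simp
  linear_combination (E₄ z ^ 3) * e₀ - (E₄ z₀ ^ 3) * e

/-! ### Orders -/

/-- A level one modular form is analytic at every point of `ℍ`. -/
theorem h27_analyticAt {k : ℤ} (f : ModularForm 𝒮ℒ k) (τ : ℍ) :
    AnalyticAt ℂ (⇑f ∘ ofComplex) (τ : ℂ) :=
  ((UpperHalfPlane.mdifferentiable_iff.mp (ModularFormClass.holo f)).analyticOnNhd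
    isOpen_upperHalfPlaneSet) τ τ.im_pos

theorem h27_analyticAt_disc (τ : ℍ) :
    AnalyticAt ℂ (ModularForm.discriminant ∘ ofComplex) (τ : ℂ) :=
  ((UpperHalfPlane.mdifferentiable_iff.mp (ModularFormClass.holo CuspForm.discriminant)).analyticOnNhd
    isOpen_upperHalfPlaneSet) τ τ.im_pos

theorem h27_order_pow_mul {f g : ℂ → ℂ} {z : ℂ} (hf : AnalyticAt ℂ f z) (hg : AnalyticAt ℂ g z)
    (hg0 : g z ≠ 0) (hf0 : f z = 0) (hf' : deriv f z ≠ 0) (n : ℕ) :
    analyticOrderAt (fun w => f w ^ n * g w) z = n := by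
  have h1 : analyticOrderAt f z = 1 := hf.analyticOrderAt_eq_one_of_zero_deriv_ne_zero hf0 hf'
  have h2 : analyticOrderAt g z = 0 := hg.analyticOrderAt_eq_zero.mpr hg0
  have : (fun w => f w ^ n * g w) = f ^ n * g := rfl
  rw [this, analyticOrderAt_mul (hf.pow n) hg, analyticOrderAt_pow hf, h1, h2]
  simp


theorem h27_comp_ofComplex_apply (F : ℍ → ℂ) (τ : ℍ) : (F ∘ ofComplex) (τ : ℂ) = F τ := by
  simp only [Function.comp_apply, ofComplex_apply]

theorem h27_disc_comp_ne_zero (τ : ℍ) :
    (ModularForm.discriminant ∘ ofComplex) (τ : ℂ) ≠ 0 := by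
  rw [h27_comp_ofComplex_apply]
  exact ModularForm.discriminant_ne_zero τ

theorem h27_analyticAt_disc_inv (τ : ℍ) :
    AnalyticAt ℂ (fun w : ℂ => ((ModularForm.discriminant ∘ ofComplex) w)⁻¹) (τ : ℂ) :=
  (h27_analyticAt_disc τ).inv (h27_disc_comp_ne_zero τ)

/-- The order of `j - j(i)` at `i` is `2`. -/
theorem h27_order_I :
    analyticOrderAt (fun z : ℂ => jAn (ofComplex z) - jAn UpperHalfPlane.I)
      ((UpperHalfPlane.I : ℍ) : ℂ) = 2 := by
  have hfun : (fun z : ℂ => jAn (ofComplex z) - jAn UpperHalfPlane.I) =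
      fun w => (⇑E₆ ∘ ofComplex) w ^ 2 *
        (fun w : ℂ => ((ModularForm.discriminant ∘ ofComplex) w)⁻¹) w := by
    funext w
    rw [jAn_I, jAn_sub_1728]
    simp only [Function.comp_apply, div_eq_mul_inv]
  rw [hfun]
  rw [h27_order_pow_mul (h27_analyticAt E₆ UpperHalfPlane.I)
    (h27_analyticAt_disc_inv UpperHalfPlane.I)
    (inv_ne_zero (h27_disc_comp_ne_zero UpperHalfPlane.I))
    ((h27_comp_ofComplex_apply _ _).trans h27_E6_I)
    (deriv_E₆_ne_zero UpperHalfPlane.I h27_E6_I) 2]
  rfl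

/-- The order of `j - j(ρ)` at `ρ` is `3`. -/
theorem h27_order_rho :
    analyticOrderAt (fun z : ℂ => jAn (ofComplex z) - jAn ρ) ((ρ : ℍ) : ℂ) = 3 := by
  have hfun : (fun z : ℂ => jAn (ofComplex z) - jAn ρ) =
      fun w => (⇑E₄ ∘ ofComplex) w ^ 3 *
        (fun w : ℂ => ((ModularForm.discriminant ∘ ofComplex) w)⁻¹) w := by
    funext w
    rw [jAn_rho, sub_zero, jAn_eq]
    simp only [Function.comp_apply, div_eq_mul_inv]
  rw [hfun]
  rw [h27_order_pow_mul (h27_analyticAt E₄ ρ)
    (h27_analyticAt_disc_inv ρ)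
    (inv_ne_zero (h27_disc_comp_ne_zero ρ))
    ((h27_comp_ofComplex_apply _ _).trans h27_E4_rho)
    (deriv_E₄_ne_zero ρ h27_E4_rho) 3]
  rfl

/-- The order of `j - j(τ)` at `τ` is `1` when `j(τ) ≠ 0, 1728`. -/
theorem h27_order_generic (τ : ℍ) (h0 : jAn τ ≠ 0) (h1 : jAn τ ≠ 1728) :
    analyticOrderAt (fun z : ℂ => jAn (ofComplex z) - jAn τ) (τ : ℂ) = 1 := by
  have h4 : E₄ τ ≠ 0 := fun h => h0 ((jAn_eq_zero_iff τ).mpr h)
  have h6 : E₆ τ ≠ 0 := fun h => h1 ((jAn_eq_1728_iff τ).mpr h)
  have hfun : (fun z : ℂ => jAn (ofComplex z) - jAn τ) =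
      fun w => ((fun z : ℍ => E₆ τ ^ 2 * E₄ z ^ 3 - E₄ τ ^ 3 * E₆ z ^ 2) ∘ ofComplex) w ^ 1 *
        (fun w : ℂ => -(1728 * (ModularForm.discriminant ∘ ofComplex) w *
          ModularForm.discriminant τ)⁻¹) w := by
    funext w
    rw [jAn_sub_jAn τ (ofComplex w)]
    simp only [Function.comp_apply, pow_one]
  rw [hfun]
  have hB : AnalyticAt ℂ
      ((fun z : ℍ => E₆ τ ^ 2 * E₄ z ^ 3 - E₄ τ ^ 3 * E₆ z ^ 2) ∘ ofComplex) (τ : ℂ) := by
    have e : ((fun z : ℍ => E₆ τ ^ 2 * E₄ z ^ 3 - E₄ τ ^ 3 * E₆ z ^ 2) ∘ ofComplex) =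
        fun w : ℂ => E₆ τ ^ 2 * (⇑E₄ ∘ ofComplex) w ^ 3 -
          E₄ τ ^ 3 * (⇑E₆ ∘ ofComplex) w ^ 2 := by
      funext w
      simp only [Function.comp_apply]
    rw [e]
    have a4 : AnalyticAt ℂ (fun w : ℂ => (⇑E₄ ∘ ofComplex) w ^ 3) (τ : ℂ) :=
      (h27_analyticAt E₄ τ).pow 3
    have a6 : AnalyticAt ℂ (fun w : ℂ => (⇑E₆ ∘ ofComplex) w ^ 2) (τ : ℂ) :=
      (h27_analyticAt E₆ τ).pow 2
    have c4 : AnalyticAt ℂ (fun _ : ℂ => E₄ τ ^ 3) (τ : ℂ) := analyticAt_const
    have c6 : AnalyticAt ℂ (fun _ : ℂ => E₆ τ ^ 2) (τ : ℂ) := analyticAt_const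
    exact (c6.mul a4).sub (c4.mul a6)
  have hΔτ := ModularForm.discriminant_ne_zero τ
  have hne : (1728 * (ModularForm.discriminant ∘ ofComplex) (τ : ℂ) *
      ModularForm.discriminant τ) ≠ 0 :=
    mul_ne_zero (mul_ne_zero (by norm_num) (h27_disc_comp_ne_zero τ)) hΔτ
  have c1 : AnalyticAt ℂ (fun _ : ℂ => (1728 : ℂ)) (τ : ℂ) := analyticAt_const
  have c2 : AnalyticAt ℂ (fun _ : ℂ => ModularForm.discriminant τ) (τ : ℂ) := analyticAt_const
  have hg : AnalyticAt ℂ (fun w : ℂ =>
      -(1728 * (ModularForm.discriminant ∘ ofComplex) w * ModularForm.discriminant τ)⁻¹)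
      (τ : ℂ) :=
    (((c1.mul (h27_analyticAt_disc τ)).mul c2).inv hne).neg
  have hB0 : ((fun z : ℍ => E₆ τ ^ 2 * E₄ z ^ 3 - E₄ τ ^ 3 * E₆ z ^ 2) ∘ ofComplex) (τ : ℂ)
      = 0 := by
    rw [h27_comp_ofComplex_apply]
    ring
  rw [h27_order_pow_mul hB hg (neg_ne_zero.mpr (inv_ne_zero hne)) hB0
    (deriv_B_ne_zero τ τ h4 h6 (by ring)) 1]
  rfl

end Fermat.Agent.S24

end
end
-- ==== END Fermat.Agent.S24.H27_JOrdCore

-- ==== BEGIN Fermat.Agent.S24.H59_OrdDifferential
section

/-!
# S24, FF2d / FF2e: the order of `dy` at a zero of `y - a` and at a pole of `y`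

`K` algebraically closed of characteristic zero, `F / K` a function field in one variable,
`v` a place of `F / K` with valuation ring `O_v` and (chosen) uniformizer `π`.

Route (purely algebraic):
* `O_v` is a localisation of the integral closure `C` of `K[π]` in `F`, and `C` is a finite
  `K[π]`-module; hence `O_v` is essentially of finite type over `K` and `Ω[O_v/K]` is a finite
  `O_v`-module;
* the residue field of `O_v` is `K`, so `Ω[O_v/K] = O_v dπ + m Ω[O_v/K]`, and by Nakayama
  `Ω[O_v/K] = O_v dπ`;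
* hence `dg ∈ O_v dπ` for `g ∈ O_v`, and for `g = u π ^ e` with `e ≠ 0` one gets
  `dg = π ^ (e - 1) (e u + π c) dπ` with `e u + π c` a unit (characteristic zero).

The results are stated with the needed function-field inputs (`F / K(f)` finite for non-constant
`f`; `Ω[F/K]` spanned by `dy`, `dy ≠ 0` for non-constant `y`) as explicit hypotheses.
-/

set_option autoImplicit false
set_option linter.style.haveILetI false

noncomputable section

open AlgebraicCurve KaehlerDifferential IntermediateField IsDedekindDomain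
open scoped IntermediateField.algebraAdjoinAdjoin

namespace Fermat.Agent.S24

namespace H59

variable {K F : Type*} [Field K] [Field F] [Algebra K F]

/-! ## The uniformizer underlying `Place.dCoord` -/

/-- The (chosen) uniformizer underlying `Place.dCoord`. -/
def unif (v : Place K F) : v.toValuationSubring :=
  (IsDiscreteValuationRing.exists_irreducible v.toValuationSubring).choose

theorem unif_irreducible (v : Place K F) : Irreducible (unif v) :=
  (IsDiscreteValuationRing.exists_irreducible v.toValuationSubring).choose_spec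

theorem dCoord_eq (v : Place K F) : v.dCoord = D K F (unif v : F) := rfl

theorem ord_unif (v : Place K F) : v.ord (unif v : F) = 1 :=
  v.ord_coe_irreducible (unif_irreducible v)

theorem unif_ne_zero (v : Place K F) : (unif v : F) ≠ 0 := by
  intro h
  have := ord_unif v
  rw [h, v.ord_zero] at this
  exact zero_ne_one this

theorem unif_mem_maximalIdeal (v : Place K F) :
    unif v ∈ IsLocalRing.maximalIdeal v.toValuationSubring := by
  rw [(unif_irreducible v).maximalIdeal_eq]
  exact Ideal.mem_span_singleton_self _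

/-- Elements of `K` have order zero. -/
theorem ord_algebraMap (v : Place K F) (a : K) : v.ord (algebraMap K F a) = 0 := by
  rcases eq_or_ne a 0 with rfl | ha
  · simp
  · have hu : IsUnit (algebraMap K v.toValuationSubring a) := (ha.isUnit).map _
    have := v.ord_coe_unit hu.unit
    simpa using this

/-- An element of a field extension algebraic over the algebraically closed field `K` is a
constant. -/
theorem exists_algebraMap_eq_of_isAlgebraic {L : Type*} [Field L] [Algebra K L] [IsAlgClosed K]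
    {x : L} (hx : IsAlgebraic K x) : ∃ a : K, algebraMap K L a = x := by
  have : Algebra.IsAlgebraic K K⟮x⟯ := IntermediateField.isAlgebraic_adjoin_simple hx.isIntegral
  have h := IntermediateField.eq_bot_of_isAlgClosed_of_isAlgebraic K⟮x⟯
  have hx' : x ∈ K⟮x⟯ := IntermediateField.mem_adjoin_simple_self K x
  rw [h, IntermediateField.mem_bot] at hx'
  exact hx'

theorem unif_transcendental [IsAlgClosed K] (v : Place K F) :
    Transcendental K (unif v : F) := by
  intro halg
  obtain ⟨a, ha⟩ := exists_algebraMap_eq_of_isAlgebraic halg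
  have h1 := ord_unif v
  rw [← ha, ord_algebraMap] at h1
  exact zero_ne_one h1

/-! ## `O_v` and the integral closure of `K[π]` -/

/-- Elements integral over a subring contained in a valuation ring lie in the valuation ring. -/
theorem mem_valuationSubring_of_isIntegral {A : Type*} [CommRing A] [Algebra A F]
    (O : ValuationSubring F) (hA : ∀ a : A, algebraMap A F a ∈ O) {c : F} (hc : IsIntegral A c) :
    c ∈ O := by
  letI : Algebra A O := ((algebraMap A F).codRestrict O.toSubring hA).toAlgebra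
  haveI : IsScalarTower A O F := IsScalarTower.of_algebraMap_eq fun a => rfl
  have h2 : IsIntegral O c := hc.tower_top
  obtain ⟨y, hy⟩ := IsIntegrallyClosed.isIntegral_iff.mp h2
  rw [← hy]
  exact y.2

theorem adjoin_le_valuationSubring (v : Place K F) (π : F) (hπmem : π ∈ v.toValuationSubring)
    (a : Algebra.adjoin K {π}) : algebraMap (Algebra.adjoin K {π}) F a ∈ v.toValuationSubring := by
  obtain ⟨a, ha⟩ := a
  show a ∈ v.toValuationSubring
  induction ha using Algebra.adjoin_induction with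
  | mem x hx => rw [Set.mem_singleton_iff.mp hx]; exact hπmem
  | algebraMap r => exact v.algebraMap_mem' r
  | add x y _ _ hx hy => exact add_mem hx hy
  | mul x y _ _ hx hy => exact mul_mem hx hy

/-- The valuation ring of a place is essentially of finite type over `K`, as soon as it contains
a transcendental element `π` with `F / K(π)` finite (and separable: characteristic zero).
Moreover every element of `O_v` is a fraction `n / d` of elements integral over `K[π]`, with
`d` a unit of `O_v`. -/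
theorem essFiniteType_and_fraction [CharZero K] (v : Place K F) (π : F)
    (hπmem : π ∈ v.toValuationSubring) (htr : Transcendental K π)
    [FiniteDimensional K⟮π⟯ F] :
    Algebra.EssFiniteType K v.toValuationSubring ∧
    ∀ g : v.toValuationSubring, ∃ n d : v.toValuationSubring,
      IsIntegral (Algebra.adjoin K {π}) (n : F) ∧ IsIntegral (Algebra.adjoin K {π}) (d : F) ∧
      IsUnit d ∧ g * d = n := by
  classical
  -- `A = K[π]` is a PID.
  let e := Polynomial.algEquivOfTranscendental K π htr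
  haveI : IsPrincipalIdealRing (Algebra.adjoin K {π}) :=
    IsPrincipalIdealRing.of_surjective e.toRingEquiv.toRingHom e.surjective
  haveI : CharZero K⟮π⟯ := charZero_of_injective_algebraMap (algebraMap K K⟮π⟯).injective
  haveI : Algebra.IsSeparable K⟮π⟯ F := Algebra.IsSeparable.of_integral K⟮π⟯ F
  -- the integral closure `C` of `A` in `F`
  haveI : Module.Finite (Algebra.adjoin K {π}) (integralClosure (Algebra.adjoin K {π}) F) :=
    IsIntegralClosure.finite (Algebra.adjoin K {π}) K⟮π⟯ F _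
  haveI : IsDedekindDomain (integralClosure (Algebra.adjoin K {π}) F) :=
    integralClosure.isDedekindDomain (Algebra.adjoin K {π}) K⟮π⟯ F
  haveI : IsFractionRing (integralClosure (Algebra.adjoin K {π}) F) F :=
    integralClosure.isFractionRing_of_finite_extension K⟮π⟯ F
  -- `A ⊆ O_v`, `C ⊆ O_v`
  have hA := adjoin_le_valuationSubring v π hπmem
  have hC : ∀ c : integralClosure (Algebra.adjoin K {π}) F,
      algebraMap (integralClosure (Algebra.adjoin K {π}) F) F c ∈ v.toValuationSubring :=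
    fun c => mem_valuationSubring_of_isIntegral v.toValuationSubring hA c.2
  obtain ⟨w, hw⟩ := exists_heightOneSpectrum_of_le v hC
  have hmem : ∀ x : F, x ∈ v.toValuationSubring ↔ w.valuation F x ≤ 1 := fun x => by
    rw [hw, Valuation.mem_valuationSubring_iff]
  -- finite type
  haveI : Algebra.FiniteType K (Algebra.adjoin K {π}) :=
    Algebra.FiniteType.adjoin_of_finite (Set.finite_singleton π)
  haveI : Algebra.FiniteType K (integralClosure (Algebra.adjoin K {π}) F) :=
    Algebra.FiniteType.trans (S := Algebra.adjoin K {π}) inferInstance inferInstance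
  obtain ⟨S, hS⟩ := (inferInstance :
    Algebra.FiniteType K (integralClosure (Algebra.adjoin K {π}) F)).out
  let φ₀ : integralClosure (Algebra.adjoin K {π}) F →+* v.toValuationSubring :=
    (algebraMap (integralClosure (Algebra.adjoin K {π}) F) F).codRestrict
      v.toValuationSubring.toSubring hC
  let φ : integralClosure (Algebra.adjoin K {π}) F →ₐ[K] v.toValuationSubring :=
    { φ₀ with commutes' := fun a => Subtype.ext rfl }
  have hφ : ∀ c, ((φ c : v.toValuationSubring) : F)
      = algebraMap (integralClosure (Algebra.adjoin K {π}) F) F c := fun c => rfl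
  have hmemφ : ∀ c, φ c ∈ Algebra.adjoin K ((S.image φ : Finset v.toValuationSubring) :
      Set v.toValuationSubring) := by
    intro c
    have h1 : c ∈ Algebra.adjoin K (S : Set (integralClosure (Algebra.adjoin K {π}) F)) := by
      rw [hS]; exact Algebra.mem_top
    have h2 : φ c ∈ (Algebra.adjoin K
        (S : Set (integralClosure (Algebra.adjoin K {π}) F))).map φ := ⟨c, h1, rfl⟩
    rw [AlgHom.map_adjoin] at h2
    simpa using h2
  -- the fractions
  have hfrac : ∀ g : v.toValuationSubring,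
      ∃ n d : integralClosure (Algebra.adjoin K {π}) F, IsUnit (φ d) ∧ g * φ d = φ n := by
    intro g
    have hg : w.valuation F (g : F) ≤ 1 := (hmem _).mp g.2
    obtain ⟨n, ⟨d, hd⟩, hnd⟩ := w.exists_primeCompl_mul_eq_of_integer (g : F) hg
    refine ⟨n, d, ?_, Subtype.ext (by rw [hφ n]; exact hnd)⟩
    have hd1 : w.valuation F (algebraMap _ F d) = 1 := by
      rw [HeightOneSpectrum.valuation_of_algebraMap]
      exact (w.intValuation_eq_one_iff_mem_primeCompl d).mpr hd
    have hd0 : algebraMap (integralClosure (Algebra.adjoin K {π}) F) F d ≠ 0 := by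
      intro h
      rw [h, map_zero] at hd1
      exact zero_ne_one hd1
    have hinv : (algebraMap (integralClosure (Algebra.adjoin K {π}) F) F d)⁻¹
        ∈ v.toValuationSubring := by
      rw [hmem, map_inv₀, hd1, inv_one]
    exact ⟨⟨φ d, ⟨_, hinv⟩, Subtype.ext (mul_inv_cancel₀ hd0), Subtype.ext (inv_mul_cancel₀ hd0)⟩,
      rfl⟩
  refine ⟨?_, fun g => ?_⟩
  · rw [Algebra.essFiniteType_iff]
    refine ⟨S.image φ, fun g => ?_⟩
    obtain ⟨n, d, hd, hnd⟩ := hfrac g
    exact ⟨φ d, hmemφ d, hd, hnd ▸ hmemφ n⟩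
  · obtain ⟨n, d, hd, hnd⟩ := hfrac g
    exact ⟨φ n, φ d, n.2, d.2, hd, hnd⟩

/-! ## The residue field is `K` -/

/-- The residue class of an element of `O_v` integral over `K[π]` (`π ∈ m_v`) is a constant. -/
theorem residue_mem_range_of_isIntegral [IsAlgClosed K] (v : Place K F) (π : v.toValuationSubring)
    (hπ : π ∈ IsLocalRing.maximalIdeal v.toValuationSubring) (c : v.toValuationSubring)
    (hc : IsIntegral (Algebra.adjoin K {(π : F)}) (c : F)) :
    ∃ a : K, algebraMap K v.ResidueField a = IsLocalRing.residue v.toValuationSubring c := by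
  have hA := adjoin_le_valuationSubring v (π : F) π.2
  let ψ : Algebra.adjoin K {(π : F)} →+* v.toValuationSubring :=
    (algebraMap (Algebra.adjoin K {(π : F)}) F).codRestrict v.toValuationSubring.toSubring hA
  let ρ : Algebra.adjoin K {(π : F)} →+* v.ResidueField :=
    (IsLocalRing.residue v.toValuationSubring).comp ψ
  -- the image of `K[π]` in the residue field consists of constants
  have hrange : ∀ a : Algebra.adjoin K {(π : F)}, ρ a ∈ Set.range (algebraMap K v.ResidueField) := by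
    rintro ⟨a, ha⟩
    induction ha using Algebra.adjoin_induction with
    | mem x hx =>
      refine ⟨0, ?_⟩
      rw [map_zero]
      symm
      have : ψ ⟨x, Algebra.subset_adjoin hx⟩ = π := Subtype.ext (Set.mem_singleton_iff.mp hx)
      show IsLocalRing.residue v.toValuationSubring (ψ ⟨x, Algebra.subset_adjoin hx⟩) = 0
      rw [this]
      exact (IsLocalRing.residue_eq_zero_iff _).mpr hπ
    | algebraMap r => exact ⟨r, rfl⟩
    | add x y hx hy hx' hy' =>
      obtain ⟨a, ha⟩ := hx'
      obtain ⟨b, hb⟩ := hy'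
      refine ⟨a + b, ?_⟩
      have : (⟨x + y, add_mem hx hy⟩ : Algebra.adjoin K {(π : F)}) = ⟨x, hx⟩ + ⟨y, hy⟩ := rfl
      rw [this, map_add, map_add, ha, hb]
    | mul x y hx hy hx' hy' =>
      obtain ⟨a, ha⟩ := hx'
      obtain ⟨b, hb⟩ := hy'
      refine ⟨a * b, ?_⟩
      have : (⟨x * y, mul_mem hx hy⟩ : Algebra.adjoin K {(π : F)}) = ⟨x, hx⟩ * ⟨y, hy⟩ := rfl
      rw [this, map_mul, map_mul, ha, hb]
  obtain ⟨p, hpm, hp⟩ := hc
  -- `p(c) = 0` in `O_v`
  have hp' : Polynomial.eval₂ ψ c p = 0 := by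
    apply Subtype.ext
    have := Polynomial.hom_eval₂ p ψ v.toValuationSubring.subtype c
    rw [ZeroMemClass.coe_zero]
    exact this.trans hp
  have hp'' : Polynomial.eval₂ ρ (IsLocalRing.residue v.toValuationSubring c) p = 0 := by
    have := Polynomial.hom_eval₂ p ψ (IsLocalRing.residue v.toValuationSubring) c
    rw [hp', map_zero] at this
    exact this.symm
  have hlift : p.map ρ ∈ Polynomial.lifts (algebraMap K v.ResidueField) := by
    rw [Polynomial.lifts_iff_coeff_lifts]
    intro n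
    rw [Polynomial.coeff_map]
    exact hrange _
  obtain ⟨q, hqmap, -, hqm⟩ := Polynomial.lifts_and_degree_eq_and_monic hlift (hpm.map ρ)
  have hint : IsIntegral K (IsLocalRing.residue v.toValuationSubring c) := by
    refine ⟨q, hqm, ?_⟩
    rw [← Polynomial.eval_map, hqmap, Polynomial.eval_map]
    exact hp''
  exact exists_algebraMap_eq_of_isAlgebraic hint.isAlgebraic

/-- The residue field of a place is `K`: every element of `O_v` is congruent to a constant. -/
theorem exists_sub_mem_maximalIdeal [IsAlgClosed K] [CharZero K] (v : Place K F)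
    [FiniteDimensional K⟮(unif v : F)⟯ F] (g : v.toValuationSubring) :
    ∃ a : K, g - algebraMap K v.toValuationSubring a
      ∈ IsLocalRing.maximalIdeal v.toValuationSubring := by
  obtain ⟨n, d, hn, hd, hdu, hnd⟩ :=
    (essFiniteType_and_fraction v (unif v : F) (unif v).2 (unif_transcendental v)).2 g
  obtain ⟨a, ha⟩ := residue_mem_range_of_isIntegral v (unif v) (unif_mem_maximalIdeal v) n hn
  obtain ⟨b, hb⟩ := residue_mem_range_of_isIntegral v (unif v) (unif_mem_maximalIdeal v) d hd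
  have hb0 : algebraMap K v.ResidueField b ≠ 0 := by
    rw [hb]
    intro h
    exact ((IsLocalRing.residue_eq_zero_iff _).mp h) hdu
  refine ⟨a / b, ?_⟩
  rw [← IsLocalRing.residue_eq_zero_iff, map_sub, sub_eq_zero]
  have h1 : IsLocalRing.residue v.toValuationSubring (algebraMap K v.toValuationSubring (a / b))
      = algebraMap K v.ResidueField (a / b) := rfl
  rw [h1, map_div₀, eq_div_iff hb0, ha, hb, ← map_mul, hnd]

/-- Every place has degree one (`K` algebraically closed), once `F / K(π)` is finite. -/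
theorem deg_eq_one [IsAlgClosed K] [CharZero K] (v : Place K F)
    [FiniteDimensional K⟮(unif v : F)⟯ F] : v.deg = 1 := by
  have hsurj : Function.Surjective (algebraMap K v.ResidueField) := by
    intro r
    obtain ⟨g, rfl⟩ := IsLocalRing.residue_surjective r
    obtain ⟨a, ha⟩ := exists_sub_mem_maximalIdeal v g
    refine ⟨a, ?_⟩
    rw [← IsLocalRing.residue_eq_zero_iff, map_sub, sub_eq_zero] at ha
    exact ha.symm
  have hbij : Function.Bijective (algebraMap K v.ResidueField) :=
    ⟨(algebraMap K v.ResidueField).injective, hsurj⟩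
  have e : K ≃ₗ[K] v.ResidueField :=
    LinearEquiv.ofBijective (Algebra.linearMap K v.ResidueField) hbij
  rw [Place.deg, ← e.finrank_eq, Module.finrank_self]

/-! ## Nakayama: `Ω[O_v/K] = O_v dπ` -/

/-- Nakayama: if the residue field of `O_v` is `K` and `Ω[O_v/K]` is a finite `O_v`-module, then
`Ω[O_v/K]` is generated by `dπ`. -/
theorem span_D_unif_eq_top (v : Place K F)
    [Module.Finite v.toValuationSubring Ω[v.toValuationSubring⁄K]]
    (hres : ∀ g : v.toValuationSubring, ∃ a : K,
      g - algebraMap K v.toValuationSubring a ∈ IsLocalRing.maximalIdeal v.toValuationSubring) :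
    Submodule.span v.toValuationSubring {D K v.toValuationSubring (unif v)} = ⊤ := by
  apply top_le_iff.mp
  refine Submodule.le_of_le_smul_of_le_jacobson_bot
    (I := IsLocalRing.maximalIdeal v.toValuationSubring) Module.Finite.fg_top
    (IsLocalRing.maximalIdeal_le_jacobson _) ?_
  rw [← KaehlerDifferential.span_range_derivation, Submodule.span_le]
  rintro _ ⟨g, rfl⟩
  obtain ⟨a, ha⟩ := hres g
  rw [(unif_irreducible v).maximalIdeal_eq, Ideal.mem_span_singleton'] at ha
  obtain ⟨h, hh⟩ := ha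
  have hg : g = algebraMap K v.toValuationSubring a + h * unif v := by
    rw [hh]; ring
  have hD : D K v.toValuationSubring g
      = h • D K v.toValuationSubring (unif v) + unif v • D K v.toValuationSubring h := by
    rw [hg, map_add, Derivation.map_algebraMap, zero_add, Derivation.leibniz]
  rw [SetLike.mem_coe, hD]
  refine Submodule.add_mem_sup (Submodule.smul_mem _ _ (Submodule.mem_span_singleton_self _)) ?_
  refine Submodule.smul_mem_smul (unif_mem_maximalIdeal v) ?_
  rw [KaehlerDifferential.span_range_derivation]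
  exact Submodule.mem_top

/-- Consequence: for `g ∈ O_v`, `dg = c dπ` with `c ∈ O_v`. -/
theorem exists_D_eq_smul_dCoord (v : Place K F)
    [Module.Finite v.toValuationSubring Ω[v.toValuationSubring⁄K]]
    (hres : ∀ g : v.toValuationSubring, ∃ a : K,
      g - algebraMap K v.toValuationSubring a ∈ IsLocalRing.maximalIdeal v.toValuationSubring)
    (g : v.toValuationSubring) :
    ∃ c : v.toValuationSubring, D K F (g : F) = (c : F) • v.dCoord := by
  have h1 : D K v.toValuationSubring g ∈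
      Submodule.span v.toValuationSubring {D K v.toValuationSubring (unif v)} := by
    rw [span_D_unif_eq_top v hres]; exact Submodule.mem_top
  obtain ⟨c, hc⟩ := Submodule.mem_span_singleton.mp h1
  refine ⟨c, ?_⟩
  have h2 := congrArg (KaehlerDifferential.map K K v.toValuationSubring F) hc
  rw [map_smul, KaehlerDifferential.map_D, KaehlerDifferential.map_D] at h2
  exact h2.symm

/-! ## The order of `dg` -/

/-- The main computation: if `d(O_v) ⊆ O_v dπ`, then `ord_v (dg) = ord_v g - 1` whenever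
`ord_v g ≠ 0` (characteristic zero). -/
theorem ordDifferential_D_of_ord_ne_zero [CharZero K] (v : Place K F)
    [v.DCoordGenerates] [Nontrivial Ω[F⁄K]]
    (hO : ∀ g : v.toValuationSubring, ∃ c : v.toValuationSubring,
      D K F (g : F) = (c : F) • v.dCoord)
    (g : F) (hg : v.ord g ≠ 0) : v.ordDifferential (D K F g) = v.ord g - 1 := by
  have hg0 : g ≠ 0 := by
    rintro rfl
    exact hg v.ord_zero
  obtain ⟨u, hu⟩ := v.exists_unit_mul_zpow hg0 (unif_irreducible v)
  obtain ⟨c, hc⟩ := hO (u : v.toValuationSubring)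
  set e : ℤ := v.ord g with he
  set π : v.toValuationSubring := unif v with hπ
  have hπ0 : (π : F) ≠ 0 := unif_ne_zero v
  -- the unit `e u + π c`
  have heK : ((e : ℤ) : K) ≠ 0 := Int.cast_ne_zero.mpr hg
  have hU : IsUnit ((u : v.toValuationSubring) * algebraMap K v.toValuationSubring (e : K)
      + π * c) := by
    by_contra hcon
    have h1 : (u : v.toValuationSubring) * algebraMap K v.toValuationSubring (e : K)
        + π * c ∈ nonunits v.toValuationSubring := hcon
    have h2 : -(π * c) ∈ nonunits v.toValuationSubring := by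
      rw [mem_nonunits_iff, IsUnit.neg_iff]
      intro h
      exact (unif_irreducible v).not_isUnit (isUnit_of_mul_isUnit_left h)
    have h3 := IsLocalRing.nonunits_add h1 h2
    rw [add_neg_cancel_right] at h3
    exact h3 (u.isUnit.mul ((heK.isUnit).map _))
  have hUord := v.ord_coe_unit hU.unit
  rw [IsUnit.unit_spec] at hUord
  have hcoe : (((u : v.toValuationSubring) * algebraMap K v.toValuationSubring (e : K)
      + π * c : v.toValuationSubring) : F)
      = ((u : v.toValuationSubring) : F) * (e : F) + (π : F) * (c : F) := by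
    push_cast
    rw [Place.coe_algebraMap, map_intCast]
  rw [hcoe] at hUord
  have hU0 : ((u : v.toValuationSubring) : F) * (e : F) + (π : F) * (c : F) ≠ 0 := by
    rw [← hcoe]
    intro h
    exact hU.ne_zero (Subtype.ext h)
  -- the differential
  have hD : D K F g = ((π : F) ^ (e - 1)
      * (((u : v.toValuationSubring) : F) * (e : F) + (π : F) * (c : F))) • v.dCoord := by
    have hπe : (π : F) ^ e = (π : F) ^ (e - 1) * (π : F) := by
      rw [← zpow_add_one₀ hπ0, sub_add_cancel]
    rw [hu, Derivation.leibniz, Derivation.leibniz_zpow, hc, ← dCoord_eq, hπe,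
      ← Int.cast_smul_eq_zsmul F e]
    module
  rw [Place.ordDifferential, v.differentialCoeff_unique hD,
    v.ord_mul (zpow_ne_zero _ hπ0) hU0, hUord, v.ord_zpow, ord_unif]
  ring

/-- `ord_v (dg) = ord_v g - 1` whenever `ord_v g ≠ 0`, from the function-field inputs at the
uniformizer `π` of `v`: `F / K(π)` finite, `Ω[F/K] = F dπ`, `dπ ≠ 0`. -/
theorem ordDifferential_D_core [IsAlgClosed K] [CharZero K] (v : Place K F)
    (hfin : FiniteDimensional K⟮(unif v : F)⟯ F)
    (hspan : ∀ ω : Ω[F⁄K], ∃ f : F, ω = f • D K F (unif v : F))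
    (hne : D K F (unif v : F) ≠ 0)
    (g : F) (hg : v.ord g ≠ 0) : v.ordDifferential (D K F g) = v.ord g - 1 := by
  haveI := hfin
  haveI : Algebra.EssFiniteType K v.toValuationSubring :=
    (essFiniteType_and_fraction v (unif v : F) (unif v).2 (unif_transcendental v)).1
  haveI : v.DCoordGenerates := ⟨by
    rw [eq_top_iff]
    intro ω _
    obtain ⟨f, hf⟩ := hspan ω
    rw [hf]
    exact Submodule.smul_mem _ _ (Submodule.mem_span_singleton_self _)⟩
  haveI : Nontrivial Ω[F⁄K] := nontrivial_of_ne _ _ hne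
  exact ordDifferential_D_of_ord_ne_zero v
    (exists_D_eq_smul_dCoord v (exists_sub_mem_maximalIdeal v)) g hg

end H59

/-! ## FF2d / FF2e, with the function-field inputs as hypotheses -/

section FF

variable {K F : Type*} [Field K] [Field F] [Algebra K F] [IsAlgClosed K] [CharZero K]

/-- FF2d, from FF1c (`hfin`), FF2a (`hspan`), FF2b (`hne`).
At a zero of `y - a` of order `e`: `ord_v (dy) = e - 1`. -/
theorem ff_ordDifferential_zero_of
    (hfin : ∀ f : F, Transcendental K f → FiniteDimensional K⟮f⟯ F)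
    (hspan : ∀ y : F, Transcendental K y → ∀ ω : Ω[F⁄K], ∃ f : F, ω = f • D K F y)
    (hne : ∀ y : F, Transcendental K y → D K F y ≠ 0)
    (v : Place K F) (y : F) (a : K) (hy : 0 < v.ord (y - algebraMap K F a)) :
    v.ordDifferential (D K F y) = v.ord (y - algebraMap K F a) - 1 := by
  have htr := H59.unif_transcendental v
  have h := H59.ordDifferential_D_core v (hfin _ htr) (hspan _ htr) (hne _ htr)
    (y - algebraMap K F a) hy.ne'
  rwa [map_sub, Derivation.map_algebraMap, sub_zero] at h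

/-- FF2e, from FF1c (`hfin`), FF2a (`hspan`), FF2b (`hne`).
At a pole of `y`: `ord_v (dy) = ord_v y - 1`. -/
theorem ff_ordDifferential_pole_of
    (hfin : ∀ f : F, Transcendental K f → FiniteDimensional K⟮f⟯ F)
    (hspan : ∀ y : F, Transcendental K y → ∀ ω : Ω[F⁄K], ∃ f : F, ω = f • D K F y)
    (hne : ∀ y : F, Transcendental K y → D K F y ≠ 0)
    (v : Place K F) (y : F) (hy : v.ord y < 0) :
    v.ordDifferential (D K F y) = v.ord y - 1 := by
  have htr := H59.unif_transcendental v
  exact H59.ordDifferential_D_core v (hfin _ htr) (hspan _ htr) (hne _ htr) y hy.ne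

/-- FF1a, from FF1c (`hfin`): every place has degree one. -/
theorem ff_deg_eq_one_of
    (hfin : ∀ f : F, Transcendental K f → FiniteDimensional K⟮f⟯ F)
    (v : Place K F) : v.deg = 1 := by
  haveI := hfin _ (H59.unif_transcendental v)
  exact H59.deg_eq_one v

end FF

end Fermat.Agent.S24

end
end
-- ==== END Fermat.Agent.S24.H59_OrdDifferential

-- ==== BEGIN Fermat.Agent.S24.H72_FF1
section

/-!
# S24, piece FF1 (helper72): the function-field layer.

`K` algebraically closed of characteristic zero, `x : F` transcendental over `K`,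
`F / K(x)` finite.
-/

set_option autoImplicit false

noncomputable section

open AlgebraicCurve IntermediateField

namespace Fermat.Agent.S24

section FF1

variable {K F : Type*} [Field K] [Field F] [Algebra K F]

/-- Exchange: if `F / K(x)` is algebraic and `f` is transcendental over `K`, then `x` is
algebraic over `K(f)`. -/
theorem h72_isAlgebraic_of_transcendental (x : F) (hx : Transcendental K x)
    [Algebra.IsAlgebraic K⟮x⟯ F] (f : F) (hf : Transcendental K f) :
    IsAlgebraic K⟮f⟯ x :=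
  isAlgebraic_adjoin_iff.mpr (.adjoin_singleton hx hf
    (isAlgebraic_adjoin_iff.mp (Algebra.IsAlgebraic.isAlgebraic f)))

/-- FF1c. For non-constant `f`, `F / K(f)` is again finite. -/
theorem ff_finite_of_transcendental (x : F) (hx : Transcendental K x)
    [FiniteDimensional K⟮x⟯ F] (f : F) (hf : Transcendental K f) :
    FiniteDimensional K⟮f⟯ F :=
  let Fyx := restrictScalars K K⟮f⟯⟮x⟯
  let Fxy := restrictScalars K K⟮x⟯⟮f⟯
  let : Algebra K⟮f⟯ Fyx := K⟮f⟯⟮x⟯.algebra
  let : Module K⟮f⟯ Fyx := Algebra.toModule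
  let : SMul K⟮f⟯ Fyx := Algebra.toSMul
  let : Algebra K⟮x⟯ Fxy := K⟮x⟯⟮f⟯.algebra
  let : Module K⟮x⟯ Fxy := Algebra.toModule
  let : SMul K⟮x⟯ Fxy := Algebra.toSMul
  have : FiniteDimensional K⟮f⟯ Fyx :=
    adjoin.finiteDimensional
      (isAlgebraic_iff_isIntegral.mp (h72_isAlgebraic_of_transcendental x hx f hf))
  have : FiniteDimensional Fyx F := by
    unfold Fyx
    rw [adjoin_simple_comm]
    have : IsScalarTower K⟮x⟯ Fxy F := isScalarTower_mid' K⟮x⟯⟮f⟯
    exact .right K⟮x⟯ Fxy F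
  have : IsScalarTower K⟮f⟯ Fyx F := isScalarTower_mid' K⟮f⟯⟮x⟯
  .trans K⟮f⟯ Fyx F

section FF1a

/-- Every residue class at a place is algebraic over `K`. -/
theorem h72_residue_isAlgebraic (x : F) (hx : Transcendental K x) [FiniteDimensional K⟮x⟯ F]
    (v : Place K F) (b : v.toValuationSubring) :
    IsAlgebraic K (IsLocalRing.residue v.toValuationSubring b) := by
  by_contra hb
  -- every nonzero polynomial in `b` is a unit of `O_v`
  have hunit : ∀ q : Polynomial K, q ≠ 0 → IsUnit (Polynomial.aeval b q) := by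
    intro q hq
    by_contra hnu
    have h0 : IsLocalRing.residue v.toValuationSubring (Polynomial.aeval b q) = 0 :=
      (IsLocalRing.residue_eq_zero_iff _).mpr hnu
    apply hb
    refine ⟨q, hq, ?_⟩
    have h1 := Polynomial.aeval_algHom_apply
      (IsScalarTower.toAlgHom K v.toValuationSubring v.ResidueField) b q
    rw [IsScalarTower.coe_toAlgHom', IsLocalRing.ResidueField.algebraMap_eq] at h1
    rw [h1, h0]
  have hcoe : ∀ q : Polynomial K,
      ((Polynomial.aeval b q : v.toValuationSubring) : F) = Polynomial.aeval (b : F) q := by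
    intro q
    have h1 := Polynomial.aeval_algHom_apply
      (IsScalarTower.toAlgHom K v.toValuationSubring F) b q
    rw [IsScalarTower.coe_toAlgHom'] at h1
    exact h1.symm
  have hbtr : Transcendental K (b : F) := by
    rintro ⟨q, hq, hq0⟩
    have hu := hunit q hq
    rw [← hcoe] at hq0
    have : (Polynomial.aeval b q : v.toValuationSubring) = 0 := Subtype.ext hq0
    rw [this] at hu
    exact not_isUnit_zero hu
  have : FiniteDimensional K⟮(b : F)⟯ F := ff_finite_of_transcendental x hx (b : F) hbtr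
  have hle : ∀ y ∈ K⟮(b : F)⟯, y ∈ v.toValuationSubring := by
    intro y hy
    obtain ⟨r, s, rfl⟩ := (IntermediateField.mem_adjoin_simple_iff K y).mp hy
    by_cases hs : s = 0
    · rw [hs, map_zero, div_zero]
      exact v.toValuationSubring.zero_mem
    · obtain ⟨u, hu⟩ := hunit s hs
      have h2 : ((u : v.toValuationSubring) : F)
          * (((u⁻¹ : v.toValuationSubringˣ) : v.toValuationSubring) : F) = 1 := by
        have := congrArg Subtype.val u.mul_inv
        exact this
      have hinv : (Polynomial.aeval (b : F) s)⁻¹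
          = (((u⁻¹ : v.toValuationSubringˣ) : v.toValuationSubring) : F) := by
        rw [← hcoe, ← hu]
        exact inv_eq_of_mul_eq_one_right h2
      rw [div_eq_mul_inv, hinv, ← hcoe]
      exact v.toValuationSubring.mul_mem _ _ (Subtype.mem _) (Subtype.mem _)
  apply v.ne_top'
  rw [eq_top_iff]
  intro z _
  have hz : IsIntegral K⟮(b : F)⟯ z := Algebra.IsIntegral.isIntegral z
  let φ : K⟮(b : F)⟯ →+* v.toValuationSubring :=
    (algebraMap K⟮(b : F)⟯ F).codRestrict v.toValuationSubring.toSubring (fun y => hle y y.2)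
  have hz' : IsIntegral v.toValuationSubring ((RingHom.id F) z) :=
    IsIntegral.map_of_comp_eq φ (RingHom.id F) (by ext y; rfl) hz
  obtain ⟨y, hy⟩ := IsIntegrallyClosed.isIntegral_iff.mp hz'
  rw [RingHom.id_apply] at hy
  rw [← hy]
  exact y.2

/-- FF1a. Every place has degree one. -/
theorem ff_deg_eq_one [IsAlgClosed K] (x : F) (hx : Transcendental K x) [FiniteDimensional K⟮x⟯ F]
    (v : Place K F) : v.deg = 1 := by
  have : Algebra.IsAlgebraic K v.ResidueField := by
    refine ⟨fun c => ?_⟩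
    obtain ⟨b, rfl⟩ := IsLocalRing.residue_surjective c
    exact h72_residue_isAlgebraic x hx v b
  have : Algebra.IsIntegral K v.ResidueField := Algebra.IsAlgebraic.isIntegral
  exact Algebra.finrank_eq_one_iff_bijective_algebraMap.mpr
    IsAlgClosed.algebraMap_bijective_of_isIntegral

end FF1a

end FF1

end Fermat.Agent.S24

end
end
-- ==== END Fermat.Agent.S24.H72_FF1
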