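-- GENERATED (merged mirror, NOTES/tools/trim/merge3_helper67.py): 15 modules of the originals, bodies verbatim.
import Mathlib
import Fermat.Prelude.Thm_CongruenceSubgroup_one_mem_strictPeriods_Gamma0
import Fermat.Prelude.Def_ModularCurve_PeriodHomPair
import Fermat.Prelude.Def_CuspForm_HeckeAlgebra
import Fermat.Statements.S23
import Fermat.Prelude.Thm_CuspForm_intLattice_fg
import Fermat.Prelude.Def_AlgebraicCurve_DivisorClassGroup
import Fermat.Agent.Zm.S35_L02_003
import Fermat.Agent.S20.H70_PartD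
import Fermat.Agent.S20.H70_Ramanujan
import Fermat.Agent.Zm.S35_L01_003
import Fermat.Agent.S20.H19_InfAnalytic
import Fermat.Agent.S20.H44_Fil
import Fermat.Agent.Zm.S35_L02_004
import Fermat.Agent.S20.H53_LI
import Fermat.Agent.S20.H61_LI
import Fermat.Agent.S20.H86_Rank
import Fermat.Agent.Zm.S35_L01_004

-- ==== BEGIN Fermat.Agent.S16.H6_Eis
section

/-!
# S16, package EIS (helper6): the Eisenstein series of weight 2 and level `N`

`E'(z) = (N E₂(N z) - E₂(z)) / 24 ∈ M₂(Γ₀(N))`, with `q`-expansion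
`(N - 1)/24 + Σ_{k ≥ 1} σ'(k) q^k`, `σ'(k) = Σ_{d ∣ k, N ∤ d} d`.

Main statements:
* `eisFun_slash` : for every `g ∈ SL(2, ℤ)`: `(E₂∣diag(N,1) - E₂) ∣ g = E₂ ∣ [a, b; 0, d] - E₂`.
* `eisForm N : ModularForm (Gamma0 N) 2`.
* `stmt_Eis : ∀ N, N ≠ 0 → Stmt_Eis N`.
-/

set_option autoImplicit false

noncomputable section

namespace Fermat.Agent.S16.H6

open UpperHalfPlane hiding I
open ModularForm EisensteinSeries Filter Topology Complex CongruenceSubgroup
open Matrix Matrix.SpecialLinearGroup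
open scoped MatrixGroups Manifold Real
open Fermat.Agent.S20.H70

/-- The function `E₂ ∣[2] diag(N, 1) - E₂`, i.e. `z ↦ N E₂(N z) - E₂(z)`. -/
def eisFun (N : ℕ) (hN : N ≠ 0) : ℍ → ℂ := (E2 ∣[(2 : ℤ)] diagN N hN) - E2

lemma E2_slash_mapGL (γ : SL(2, ℤ)) :
    E2 ∣[(2 : ℤ)] mapGL ℝ γ = E2 - (1 / (2 * riemannZeta 2)) • D2 γ :=
  E2_slash_action γ

/-- Key computation: if `diag(N,1) g = γ' [a, b; 0, d]` then `D₂ γ' ∣ [a, b; 0, d] = D₂ g`. -/
lemma D2_slash_utGL (N : ℕ) (hN : N ≠ 0) (g γ' : SL(2, ℤ)) (a d : ℕ) (b : ℤ)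
    (ha : 0 < a) (hd : 0 < d)
    (h : diagN N hN * mapGL ℝ g = mapGL ℝ γ' * utGL a b d (natCast_mul_natCast_ne_zero ha hd)) :
    D2 γ' ∣[(2 : ℤ)] utGL a b d (natCast_mul_natCast_ne_zero ha hd) = D2 g := by
  have hpos : (0 : ℝ) < (a : ℝ) * d := by positivity
  have h10 : ((g 1 0 : ℤ) : ℝ) = (γ' 1 0 : ℝ) * a := by
    have := congrArg (fun M : GL (Fin 2) ℝ => (M : Matrix (Fin 2) (Fin 2) ℝ) 1 0) h
    simpa [diagN, Matrix.mul_apply, Fin.sum_univ_two, mapGL_val_apply] using this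
  have h11 : ((g 1 1 : ℤ) : ℝ) = (γ' 1 0 : ℝ) * b + γ' 1 1 * d := by
    have := congrArg (fun M : GL (Fin 2) ℝ => (M : Matrix (Fin 2) (Fin 2) ℝ) 1 1) h
    simpa [diagN, Matrix.mul_apply, Fin.sum_univ_two, mapGL_val_apply] using this
  ext z
  rw [slash_utGL_apply 2 a b d _ hpos]
  simp only [D2]
  have hsmul : ((utGL a b d (natCast_mul_natCast_ne_zero ha hd) • z : ℍ) : ℂ)
      = ((a : ℂ) * z + b) / d := by
    rw [UpperHalfPlane.coe_smul_of_det_pos (by rw [det_utGL]; exact hpos)]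
    simp [UpperHalfPlane.num, UpperHalfPlane.denom]
  have hden1 : denom (γ' : GL (Fin 2) ℝ) (utGL a b d (natCast_mul_natCast_ne_zero ha hd) • z : ℍ)
      = (γ' 1 0 : ℂ) * (((a : ℂ) * z + b) / d) + γ' 1 1 := by
    rw [← hsmul]
    simp [UpperHalfPlane.denom]
  have hden2 : denom (g : GL (Fin 2) ℝ) z = (g 1 0 : ℂ) * z + g 1 1 := by
    simp [UpperHalfPlane.denom]
  have hdz : denom (g : GL (Fin 2) ℝ) z ≠ 0 := UpperHalfPlane.denom_ne_zero _ z
  have hdw : denom (γ' : GL (Fin 2) ℝ)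
      (utGL a b d (natCast_mul_natCast_ne_zero ha hd) • z : ℍ) ≠ 0 :=
    UpperHalfPlane.denom_ne_zero _ _
  have h10c : (g 1 0 : ℂ) = (γ' 1 0 : ℂ) * a := by exact_mod_cast h10
  have h11c : (g 1 1 : ℂ) = (γ' 1 0 : ℂ) * b + γ' 1 1 * d := by exact_mod_cast h11
  have hdc : (d : ℂ) ≠ 0 := by exact_mod_cast hd.ne'
  rw [hden1] at hdw ⊢
  rw [hden2] at hdz ⊢
  rw [h10c, h11c] at hdz ⊢
  have e1 : ((((a : ℝ) * (d : ℝ) : ℝ) : ℂ)) ^ ((2 : ℤ) - 1) = (a : ℂ) * d := by
    norm_num
  have e2 : (((d : ℝ) : ℂ)) ^ (-2 : ℤ) = ((d : ℂ) ^ 2)⁻¹ := by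
    rw [_root_.zpow_neg]
    push_cast
    rfl
  rw [e1, e2]
  have hdw' : (γ' 1 0 : ℂ) * ((a : ℂ) * z + b) + γ' 1 1 * d ≠ 0 := by
    intro h0
    apply hdw
    field_simp
    linear_combination h0
  field_simp
  congr 1
  ring

lemma sub_slash_GL (k : ℤ) (A : GL (Fin 2) ℝ) (f g : ℍ → ℂ) :
    (f - g) ∣[k] A = f ∣[k] A - g ∣[k] A := by
  rw [sub_eq_add_neg, SlashAction.add_slash, SlashAction.neg_slash, ← sub_eq_add_neg]

/-- For every `g ∈ SL(2, ℤ)`: `(E₂∣diag(N,1) - E₂) ∣ g = E₂ ∣ [a, b; 0, d] - E₂`, where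
`a = gcd(N, g 1 0)` and `a d = N`. -/
lemma eisFun_slash (N : ℕ) (hN : N ≠ 0) (g : SL(2, ℤ)) :
    ∃ (a d : ℕ) (b : ℤ) (ha : 0 < a) (hd : 0 < d), a * d = N ∧ a = Int.gcd N (g 1 0) ∧
      eisFun N hN ∣[(2 : ℤ)] mapGL ℝ g =
        E2 ∣[(2 : ℤ)] utGL a b d (natCast_mul_natCast_ne_zero ha hd) - E2 := by
  obtain ⟨a, d, b, γ', ha, hd, had, hagcd, hmat⟩ := hermite_decomp N hN g
  refine ⟨a, d, b, ha, hd, had, hagcd, ?_⟩
  have hpos : (0 : ℝ) < (a : ℝ) * d := by positivity
  rw [eisFun, sub_slash_GL, ← SlashAction.slash_mul, hmat, SlashAction.slash_mul,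
    E2_slash_mapGL, E2_slash_mapGL, sub_slash_GL, ModularForm.smul_slash,
    D2_slash_utGL N hN g γ' a d b ha hd hmat, σ_utGL _ _ _ _ hpos]
  simp

/-- `(E₂∣diag(N,1) - E₂) ∣ g → a/d - 1` at `i∞`. -/
lemma tendsto_eisFun_slash (N : ℕ) (hN : N ≠ 0) (g : SL(2, ℤ)) :
    ∃ c : ℂ, Tendsto (eisFun N hN ∣[(2 : ℤ)] mapGL ℝ g) atImInfty (𝓝 c) := by
  obtain ⟨a, d, b, ha, hd, -, -, hF⟩ := eisFun_slash N hN g
  have hpos : (0 : ℝ) < (a : ℝ) * d := by positivity
  rw [hF]
  exact ⟨_, (tendsto_slash_utGL 2 a b d (natCast_mul_natCast_ne_zero ha hd) hpos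
    tendsto_E2_atImInfty).sub tendsto_E2_atImInfty⟩

lemma eisFun_slash_of_mem_Gamma0 (N : ℕ) (hN : N ≠ 0) (g : SL(2, ℤ)) (hg : g ∈ Gamma0 N) :
    eisFun N hN ∣[(2 : ℤ)] mapGL ℝ g = eisFun N hN := by
  obtain ⟨g', hg'⟩ := diagN_mul_mapGL_of_mem_Gamma0 N hN g hg
  have h1 : (0 : ℝ) < (N : ℝ) * 1 := by
    rw [mul_one]; exact_mod_cast Nat.pos_of_ne_zero hN
  have hD : D2 g' ∣[(2 : ℤ)] diagN N hN = D2 g := by
    have := D2_slash_utGL N hN g g' N 1 0 (Nat.pos_of_ne_zero hN) one_pos (by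
      rw [hg']
      congr 1
      apply Matrix.GeneralLinearGroup.ext
      intro i j
      fin_cases i <;> fin_cases j <;> simp [diagN])
    rw [← this]
    congr 1
    apply Matrix.GeneralLinearGroup.ext
    intro i j
    fin_cases i <;> fin_cases j <;> simp [diagN]
  have hσ : UpperHalfPlane.σ (diagN N hN) = .refl ℝ ℂ := σ_utGL _ _ _ _ h1
  rw [eisFun, sub_slash_GL, ← SlashAction.slash_mul, hg', SlashAction.slash_mul,
    E2_slash_mapGL, E2_slash_mapGL, sub_slash_GL, ModularForm.smul_slash, hD, hσ]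
  simp

/-- The Eisenstein series `z ↦ N E₂(N z) - E₂(z)` as a modular form of weight 2 on `Γ₀(N)`. -/
def eisForm (N : ℕ) [NeZero N] : ModularForm (Gamma0 N) 2 where
  toFun := eisFun N (NeZero.ne N)
  slash_action_eq' A hA := by
    obtain ⟨g, hg, rfl⟩ := hA
    exact eisFun_slash_of_mem_Gamma0 N (NeZero.ne N) g hg
  holo' := (E2_mdifferentiable.slash 2 (diagN N (NeZero.ne N))).sub E2_mdifferentiable
  bdd_at_cusps' hc := by
    rw [Subgroup.IsArithmetic.isCusp_iff_isCusp_SL2Z] at hc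
    rw [OnePoint.isBoundedAt_iff_forall_SL2Z hc]
    intro γ _
    obtain ⟨c, ht⟩ := tendsto_eisFun_slash N (NeZero.ne N) γ
    exact ht.isBigO_one ℝ

@[simp] lemma coe_eisForm (N : ℕ) [NeZero N] : ⇑(eisForm N) = eisFun N (NeZero.ne N) := rfl


/-- `σ₁(k) = σ'(k) + N σ₁(k/N) [N ∣ k]`. -/
lemma sigma_eq_sigmaP_add (N k : ℕ) (hN : N ≠ 0) (hk : k ≠ 0) :
    ArithmeticFunction.sigma 1 k = sigmaP N k + (if N ∣ k then N * ArithmeticFunction.sigma 1 (k / N) else 0) := by
  rw [ArithmeticFunction.sigma_one_apply]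
  unfold sigmaP
  rw [← Finset.sum_filter_add_sum_filter_not (s := k.divisors) (p := fun d => ¬ N ∣ d)]
  congr 1
  simp only [not_not]
  split_ifs with h
  · obtain ⟨k', rfl⟩ := h
    have hk' : k' ≠ 0 := by
      rintro rfl
      simp at hk
    rw [Nat.mul_div_cancel_left _ (Nat.pos_of_ne_zero hN), ArithmeticFunction.sigma_one_apply,
      Finset.mul_sum]
    symm
    apply Finset.sum_bij (fun d _ => N * d)
    · intro d hd
      simp only [Finset.mem_filter, Nat.mem_divisors] at hd ⊢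
      exact ⟨⟨Nat.mul_dvd_mul_left N hd.1, hk⟩, Dvd.intro d rfl⟩
    · intro a _ b _ hab
      exact Nat.eq_of_mul_eq_mul_left (Nat.pos_of_ne_zero hN) hab
    · intro e he
      simp only [Finset.mem_filter, Nat.mem_divisors] at he
      obtain ⟨⟨he1, _⟩, e', rfl⟩ := he
      refine ⟨e', ?_, rfl⟩
      simp only [Nat.mem_divisors]
      exact ⟨(Nat.mul_dvd_mul_iff_left (Nat.pos_of_ne_zero hN)).mp he1, hk'⟩
    · intro d _
      rfl
  · apply Finset.sum_eq_zero
    intro d hd
    simp only [Finset.mem_filter, Nat.mem_divisors] at hd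
    exact absurd (hd.2.trans hd.1.1) h


local notation "𝕢" => Function.Periodic.qParam

/-- The coefficients of `N E₂(N z) - E₂(z)`. -/
def eisCoeff (N m : ℕ) : ℂ := (N : ℂ) * (if N ∣ m then E2coeff (m / N) else 0) - E2coeff m

lemma coe_diagN_smul (N : ℕ) (hN : N ≠ 0) (τ : ℍ) :
    ((diagN N hN • τ : ℍ) : ℂ) = (N : ℂ) * τ := by
  have h1 : (0 : ℝ) < (N : ℝ) * 1 := by
    rw [mul_one]; exact_mod_cast Nat.pos_of_ne_zero hN
  rw [diagN, UpperHalfPlane.coe_smul_of_det_pos (by rw [det_utGL]; exact h1)]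
  simp [UpperHalfPlane.num, UpperHalfPlane.denom]

lemma eisFun_apply (N : ℕ) (hN : N ≠ 0) (τ : ℍ) :
    eisFun N hN τ = (N : ℂ) * E2 (diagN N hN • τ) - E2 τ := by
  have h1 : (0 : ℝ) < (N : ℝ) * 1 := by
    rw [mul_one]; exact_mod_cast Nat.pos_of_ne_zero hN
  rw [eisFun, Pi.sub_apply, diagN, slash_utGL_apply 2 _ _ _ _ h1]
  simp
  ring

lemma hasSum_eisFun (N : ℕ) (hN : N ≠ 0) (τ : ℍ) :
    HasSum (fun m : ℕ ↦ eisCoeff N m • 𝕢 1 (τ : ℂ) ^ m) (eisFun N hN τ) := by
  have hq : 𝕢 1 (((diagN N hN • τ : ℍ) : ℂ)) = 𝕢 1 (τ : ℂ) ^ N := by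
    rw [coe_diagN_smul, Function.Periodic.qParam, Function.Periodic.qParam, ← Complex.exp_nat_mul]
    congr 1
    ring
  have h1 := hasSum_E2_qParam (diagN N hN • τ)
  simp only [hq, ← pow_mul] at h1
  have hinj : Function.Injective (fun m : ℕ => N * m) :=
    fun a b hab => Nat.eq_of_mul_eq_mul_left (Nat.pos_of_ne_zero hN) hab
  have h2 : HasSum (fun n : ℕ ↦ (if N ∣ n then E2coeff (n / N) else 0) • 𝕢 1 (τ : ℂ) ^ n)
      (E2 (diagN N hN • τ)) := by
    rw [← hinj.hasSum_iff]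
    · convert h1 using 2 with m
      simp [Nat.mul_div_cancel_left _ (Nat.pos_of_ne_zero hN)]
    · intro n hn
      have : ¬ N ∣ n := by
        rintro ⟨m, rfl⟩
        exact hn ⟨m, rfl⟩
      simp [this]
  have h3 := (h2.mul_left (N : ℂ)).sub (hasSum_E2_qParam τ)
  rw [eisFun_apply]
  have h4 : (fun m : ℕ ↦ eisCoeff N m • 𝕢 1 (τ : ℂ) ^ m) = fun b : ℕ ↦
      (N : ℂ) * (if N ∣ b then E2coeff (b / N) else 0) • 𝕢 1 (τ : ℂ) ^ b
        - E2coeff b • 𝕢 1 (τ : ℂ) ^ b := by
    funext m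
    simp only [eisCoeff, smul_eq_mul]
    ring
  rw [h4]
  exact h3

/-- **EIS**: the Eisenstein series of weight 2 and level `N`. -/
theorem stmt_Eis (N : ℕ) (hN : N ≠ 0) : Stmt_Eis N := by
  have : NeZero N := ⟨hN⟩
  have hsum : ∀ τ : ℍ, HasSum (fun m : ℕ ↦ ((1 / 24 : ℂ) * eisCoeff N m) • 𝕢 1 (τ : ℂ) ^ m)
      (((1 / 24 : ℂ) • eisForm N) τ) := by
    intro τ
    have h := (hasSum_eisFun N hN τ).mul_left (1 / 24 : ℂ)
    have h4 : (fun m : ℕ ↦ ((1 / 24 : ℂ) * eisCoeff N m) • 𝕢 1 (τ : ℂ) ^ m)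
        = fun m : ℕ ↦ (1 / 24 : ℂ) * eisCoeff N m • 𝕢 1 (τ : ℂ) ^ m := by
      funext m
      simp only [smul_eq_mul]
      ring
    rw [h4]
    exact h
  have hcoeff : ∀ m : ℕ, (1 / 24 : ℂ) * eisCoeff N m
      = ModularFormClass.qCoeff (⇑((1 / 24 : ℂ) • eisForm N : ModularForm (Gamma0 N) 2)) m := by
    intro m
    exact ModularFormClass.qExpansion_coeff_unique (f := (1 / 24 : ℂ) • eisForm N) one_pos
      (CongruenceSubgroup.one_mem_strictPeriods_Gamma0 N) hsum m
  refine ⟨(1 / 24 : ℂ) • eisForm N, ?_, ?_⟩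
  · rw [← hcoeff 0]
    simp [eisCoeff, E2coeff]
    ring
  · intro k hk
    rw [← hcoeff k]
    have hk0 : k ≠ 0 := by omega
    have harith := sigma_eq_sigmaP_add N k hN hk0
    have harith' : (ArithmeticFunction.sigma 1 k : ℂ) = (sigmaP N k : ℂ)
        + (if N ∣ k then (N : ℂ) * (ArithmeticFunction.sigma 1 (k / N) : ℂ) else 0) := by
      have := congrArg (fun n : ℕ => (n : ℂ)) harith
      simp only [Nat.cast_add] at this
      rw [this]
      split_ifs <;> simp
    simp only [eisCoeff, E2coeff, if_neg hk0]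
    rw [harith']
    by_cases h : N ∣ k
    · have hkN : k / N ≠ 0 := by
        obtain ⟨m, rfl⟩ := h
        rw [Nat.mul_div_cancel_left _ (Nat.pos_of_ne_zero hN)]
        rintro rfl
        simp at hk0
      rw [if_pos h, if_pos h, if_neg hkN]
      ring
    · rw [if_neg h, if_neg h]
      ring

end Fermat.Agent.S16.H6

end
end
-- ==== END Fermat.Agent.S16.H6_Eis

-- ==== BEGIN Fermat.Agent.S20.H19_Index
section

/-!
# S20, part G (helper19): `G1`, the index of `Gamma0 N` in `SL(2, ℤ)` is `dedekindPsi N`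
-/

namespace Fermat.Agent.S20.H19

open CongruenceSubgroup MatrixGroups

/-- **G1**: `[SL(2, ℤ) : Γ₀(N)] = ψ(N)`. -/
theorem G1 (N : ℕ) [NeZero N] : (Gamma0 N).index = ModularCurve.dedekindPsi N := by
  rw [index_Gamma0_eq_sum, G1b N (NeZero.ne N)]

/-- **G1**, cardinality form. -/
theorem G1_card (N : ℕ) [NeZero N] :
    Nat.card (SL(2, ℤ) ⧸ Gamma0 N) = ModularCurve.dedekindPsi N := by
  rw [← Subgroup.index_eq_card, G1]

end Fermat.Agent.S20.H19

end
-- ==== END Fermat.Agent.S20.H19_Index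

-- ==== BEGIN Fermat.Agent.S20.H19_Inf
section

/-!
# S20 core, packages INF1 and INF2 (helper19): the cusp filtration

`Fil a = {f ∈ M_K(Γ) | ∀ cosets q, exp(-2πi a z/N) (f|q) bounded at i∞}` and the leading term
maps `lead a : Fil a → (cosets → ℂ)`.  Assembly with helper2's linear algebra
(`H2.cusp_filtration_main`) and helper44's `Fil N = Δ M_{K-12}`.
-/

set_option autoImplicit false

namespace Fermat.Agent.S20.H19

open UpperHalfPlane ModularForm MatrixGroups Filter
open scoped Manifold Topology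
open Fermat.Agent.S20.H74

variable {Γ : Subgroup SL(2, ℤ)} {K : ℤ}

/-- `T` has finite order on the cosets. -/
theorem exists_period (Γ : Subgroup SL(2, ℤ)) [Γ.FiniteIndex] :
    ∃ N : ℕ, 0 < N ∧ ∀ q : SL(2, ℤ) ⧸ Γ, (ModularGroup.T ^ N : SL(2, ℤ)) • q = q := by
  have : Finite (SL(2, ℤ) ⧸ Γ) := Subgroup.finite_quotient_of_finiteIndex
  let σ : Equiv.Perm (SL(2, ℤ) ⧸ Γ) := MulAction.toPermHom SL(2, ℤ) (SL(2, ℤ) ⧸ Γ) ModularGroup.T
  refine ⟨orderOf σ, orderOf_pos σ, fun q => ?_⟩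
  have h1 : MulAction.toPermHom SL(2, ℤ) (SL(2, ℤ) ⧸ Γ) (ModularGroup.T ^ orderOf σ) = 1 := by
    rw [map_pow]
    exact pow_orderOf_eq_one σ
  have h2 := congrArg (fun τ : Equiv.Perm (SL(2, ℤ) ⧸ Γ) => τ q) h1
  simpa using h2

/-- The cusp filtration on `M_K(Γ)`. -/
def Fil (Γ : Subgroup SL(2, ℤ)) (K : ℤ) (N a : ℕ) : Submodule ℂ (MF Γ K) where
  carrier := {f | ∀ q : SL(2, ℤ) ⧸ Γ, IsBoundedAtImInfty (tw N a (cf Γ K (f : ℍ → ℂ) q))}
  add_mem' := by
    intro f g hf hg q
    rw [Submodule.coe_add, cf_add, tw_add]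
    exact (hf q).add (hg q)
  zero_mem' := by
    intro q
    rw [Submodule.coe_zero, cf_zero]
    have : tw N a (0 : ℍ → ℂ) = 0 := by funext z; simp [tw]
    rw [this]
    exact zero_form_isBoundedAtImInfty
  smul_mem' := by
    intro c f hf q
    rw [Submodule.coe_smul, cf_smul, tw_smul]
    exact (hf q).const_smul_left c

lemma mem_Fil {N a : ℕ} {f : MF Γ K} :
    f ∈ Fil Γ K N a ↔ ∀ q : SL(2, ℤ) ⧸ Γ, IsBoundedAtImInfty (tw N a (cf Γ K (f : ℍ → ℂ) q)) :=
  Iff.rfl

lemma Fil_zero (N : ℕ) : Fil Γ K N 0 = ⊤ := by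
  rw [eq_top_iff]
  intro f _ q
  rw [tw_zero]
  exact cf_bdd f.2 q

section period

variable {N : ℕ} (hN : 0 < N) (hT : ∀ q : SL(2, ℤ) ⧸ Γ, (ModularGroup.T ^ N : SL(2, ℤ)) • q = q)
include hN hT

lemma tw_cf_periodic (a : ℕ) (f : MF Γ K) (q : SL(2, ℤ) ⧸ Γ) :
    Function.Periodic (tw N a (cf Γ K (f : ℍ → ℂ) q) ∘ ofComplex) ((N : ℝ) : ℂ) := by
  apply periodic_comp_ofComplex_of_vadd
  intro z
  apply tw_vadd hN
  intro z
  have := H44.cf_vadd (K := K) f.2.2.1 q (N : ℤ) (by simpa using hT q) z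
  simpa using this

lemma tendsto_tw_cf {a : ℕ} {f : MF Γ K} (hf : f ∈ Fil Γ K N a) (q : SL(2, ℤ) ⧸ Γ) :
    Tendsto (tw N a (cf Γ K (f : ℍ → ℂ) q)) atImInfty
      (𝓝 (valueAtInfty (tw N a (cf Γ K (f : ℍ → ℂ) q)))) :=
  tendsto_valueAtInfty (by exact_mod_cast hN) (tw_cf_periodic hN hT a f q)
    (mdiff_tw N a (cf_mdiff f.2.1 q)) (hf q)

lemma Fil_succ_iff {a : ℕ} {f : MF Γ K} (hf : f ∈ Fil Γ K N a) :
    f ∈ Fil Γ K N (a + 1) ↔
      ∀ q : SL(2, ℤ) ⧸ Γ, valueAtInfty (tw N a (cf Γ K (f : ℍ → ℂ) q)) = 0 := by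
  constructor
  · intro h q
    have hb : IsBoundedAtImInfty (fun z : ℍ =>
        Complex.exp (-2 * Real.pi * Complex.I * z / N) * tw N a (cf Γ K (f : ℍ → ℂ) q) z) := by
      have := h q
      have e : tw N (a + 1) (cf Γ K (f : ℍ → ℂ) q) = fun z : ℍ =>
          Complex.exp (-2 * Real.pi * Complex.I * z / N) * tw N a (cf Γ K (f : ℍ → ℂ) q) z := by
        funext z; exact tw_succ N a _ z
      rwa [e] at this
    exact (isZeroAtImInfty_of_bdd_twist hN hb).valueAtInfty_eq_zero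
  · intro h q
    have ht := tendsto_tw_cf hN hT hf q
    rw [h q] at ht
    have hb := bdd_twist_of_isZeroAtImInfty hN (tw_cf_periodic hN hT a f q)
      (mdiff_tw N a (cf_mdiff f.2.1 q)) ht
    have e : tw N (a + 1) (cf Γ K (f : ℍ → ℂ) q) = fun z : ℍ =>
        Complex.exp (-2 * Real.pi * Complex.I * z / N) * tw N a (cf Γ K (f : ℍ → ℂ) q) z := by
      funext z; exact tw_succ N a _ z
    rw [e]
    exact hb

omit hT in
lemma Fil_anti (a : ℕ) : Fil Γ K N (a + 1) ≤ Fil Γ K N a := by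
  intro f h q
  have hb : IsBoundedAtImInfty (fun z : ℍ =>
      Complex.exp (-2 * Real.pi * Complex.I * z / N) * tw N a (cf Γ K (f : ℍ → ℂ) q) z) := by
    have := h q
    have e : tw N (a + 1) (cf Γ K (f : ℍ → ℂ) q) = fun z : ℍ =>
        Complex.exp (-2 * Real.pi * Complex.I * z / N) * tw N a (cf Γ K (f : ℍ → ℂ) q) z := by
      funext z; exact tw_succ N a _ z
    rwa [e] at this
  exact (isZeroAtImInfty_of_bdd_twist hN hb).isBoundedAtImInfty

/-- The leading term map. -/
noncomputable def lead (a : ℕ) : Fil Γ K N a →ₗ[ℂ] ((SL(2, ℤ) ⧸ Γ) → ℂ) where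
  toFun f := fun q => valueAtInfty (tw N a (cf Γ K ((f : MF Γ K) : ℍ → ℂ) q))
  map_add' f g := by
    funext q
    have hf := tendsto_tw_cf hN hT f.2 q
    have hg := tendsto_tw_cf hN hT g.2 q
    have hfg := tendsto_tw_cf hN hT (f + g).2 q
    have e : tw N a (cf Γ K (((f + g : Fil Γ K N a) : MF Γ K) : ℍ → ℂ) q)
        = tw N a (cf Γ K ((f : MF Γ K) : ℍ → ℂ) q) + tw N a (cf Γ K ((g : MF Γ K) : ℍ → ℂ) q) := by
      rw [Submodule.coe_add, Submodule.coe_add, cf_add, tw_add]
    have hsum : Tendsto (tw N a (cf Γ K (((f + g : Fil Γ K N a) : MF Γ K) : ℍ → ℂ) q)) atImInfty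
        (𝓝 (valueAtInfty (tw N a (cf Γ K ((f : MF Γ K) : ℍ → ℂ) q)) +
          valueAtInfty (tw N a (cf Γ K ((g : MF Γ K) : ℍ → ℂ) q)))) := by
      rw [e]
      exact hf.add hg
    exact tendsto_nhds_unique hfg hsum
  map_smul' c f := by
    funext q
    have hf := tendsto_tw_cf hN hT f.2 q
    have hcf := tendsto_tw_cf hN hT (c • f).2 q
    have e : tw N a (cf Γ K (((c • f : Fil Γ K N a) : MF Γ K) : ℍ → ℂ) q)
        = c • tw N a (cf Γ K ((f : MF Γ K) : ℍ → ℂ) q) := by
      rw [Submodule.coe_smul, Submodule.coe_smul, cf_smul, tw_smul]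
    have hsm : Tendsto (tw N a (cf Γ K (((c • f : Fil Γ K N a) : MF Γ K) : ℍ → ℂ) q)) atImInfty
        (𝓝 (c • valueAtInfty (tw N a (cf Γ K ((f : MF Γ K) : ℍ → ℂ) q)))) := by
      rw [e]
      exact hf.const_smul c
    exact tendsto_nhds_unique hcf hsm

lemma lead_apply (a : ℕ) (f : Fil Γ K N a) (q : SL(2, ℤ) ⧸ Γ) :
    lead hN hT a f q = valueAtInfty (tw N a (cf Γ K ((f : MF Γ K) : ℍ → ℂ) q)) := rfl

lemma tendsto_lead (a : ℕ) (f : Fil Γ K N a) (q : SL(2, ℤ) ⧸ Γ) :
    Tendsto (tw N a (cf Γ K ((f : MF Γ K) : ℍ → ℂ) q)) atImInfty (𝓝 (lead hN hT a f q)) :=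
  tendsto_tw_cf hN hT f.2 q

lemma lead_eq_zero_iff (a : ℕ) (f : Fil Γ K N a) :
    lead hN hT a f = 0 ↔ (f : MF Γ K) ∈ Fil Γ K N (a + 1) := by
  rw [Fil_succ_iff hN hT f.2]
  constructor
  · intro h q
    have := congrFun h q
    simpa [lead_apply] using this
  · intro h
    funext q
    simpa [lead_apply] using h q

omit hN hT in
lemma tendsto_T_smul_atImInfty :
    Tendsto (fun z : ℍ => ModularGroup.T • z) atImInfty atImInfty := by
  rw [atImInfty, tendsto_comap_iff]
  have e : (UpperHalfPlane.im ∘ fun z : ℍ => ModularGroup.T • z) = UpperHalfPlane.im := by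
    funext z
    exact ModularGroup.im_T_smul z
  rw [e]
  exact tendsto_comap

omit hN hT in
lemma cf_T_smul (f : MF Γ K) (q : SL(2, ℤ) ⧸ Γ) (z : ℍ) :
    cf Γ K (f : ℍ → ℂ) q (ModularGroup.T • z) = cf Γ K (f : ℍ → ℂ) (ModularGroup.T⁻¹ • q) z := by
  rw [cf_apply_smul f.2.2.1 q ModularGroup.T z]
  have h := H44.denom_T_zpow 1 z
  rw [zpow_one] at h
  rw [h, one_zpow, one_mul]

omit hT in
lemma tw_cf_T_inv (a : ℕ) (f : MF Γ K) (q : SL(2, ℤ) ⧸ Γ) (z : ℍ) :
    tw N a (cf Γ K (f : ℍ → ℂ) (ModularGroup.T⁻¹ • q)) z =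
      Complex.exp (2 * Real.pi * Complex.I / N) ^ a *
        tw N a (cf Γ K (f : ℍ → ℂ) q) (ModularGroup.T • z) := by
  rw [tw_apply, tw_apply, cf_T_smul, ← mul_assoc, ← Complex.exp_nat_mul, ← Complex.exp_add]
  congr 2
  have hN' : (N : ℂ) ≠ 0 := Nat.cast_ne_zero.mpr hN.ne'
  have hz : ((ModularGroup.T • z : ℍ) : ℂ) = z + 1 := by
    have := ModularGroup.coe_T_zpow_smul_eq z (n := 1)
    simpa using this
  rw [hz]
  field_simp
  ring

lemma lead_T_inv (a : ℕ) (f : Fil Γ K N a) (q : SL(2, ℤ) ⧸ Γ) :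
    lead hN hT a f (ModularGroup.T⁻¹ • q) =
      Complex.exp (2 * Real.pi * Complex.I / N) ^ a * lead hN hT a f q := by
  have h1 := tendsto_lead hN hT a f (ModularGroup.T⁻¹ • q)
  have h2 := ((tendsto_lead hN hT a f q).comp tendsto_T_smul_atImInfty).const_mul
    (Complex.exp (2 * Real.pi * Complex.I / N) ^ a)
  refine tendsto_nhds_unique h1 (h2.congr fun z => ?_)
  rw [Function.comp_apply, tw_cf_T_inv hN]

end period

/-! ### Assembly -/

/-- `Fil N` is contained in the range of multiplication by `Δ`. -/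
lemma Fil_top_le {N : ℕ} (hN : 0 < N) :
    Fil Γ K N N ≤ LinearMap.range (H44.mulDelta Γ K) := by
  intro f hf
  rw [H44.mem_range_mulDelta_iff]
  intro q
  have e : (fun z : ℍ => Complex.exp (-2 * Real.pi * Complex.I * z) * cf Γ K (f : ℍ → ℂ) q z)
      = tw N N (cf Γ K (f : ℍ → ℂ) q) := by
    funext z
    rw [tw_apply]
    congr 2
    have hN' : (N : ℂ) ≠ 0 := Nat.cast_ne_zero.mpr hN.ne'
    field_simp
  rw [e]
  exact hf q

/-- `Fil 1` corresponds to the cusp forms. -/
lemma mem_Fil_one_iff {N : ℕ} (hN : 0 < N)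
    (hT : ∀ q : SL(2, ℤ) ⧸ Γ, (ModularGroup.T ^ N : SL(2, ℤ)) • q = q) (f : MF Γ K) :
    f ∈ Fil Γ K N 1 ↔ (f : ℍ → ℂ) ∈ CF Γ K := by
  have h0 : f ∈ Fil Γ K N 0 := by rw [Fil_zero]; trivial
  rw [Fil_succ_iff hN hT h0, mem_CF_iff_cf]
  constructor
  · intro h
    refine ⟨f.2.1, f.2.2.1, fun q => ?_⟩
    have ht := tendsto_tw_cf hN hT h0 q
    rw [h q, tw_zero] at ht
    exact ht
  · intro h q
    rw [tw_zero]
    exact (h.2.2 q).valueAtInfty_eq_zero

lemma finrank_Fil_one {N : ℕ} (hN : 0 < N)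
    (hT : ∀ q : SL(2, ℤ) ⧸ Γ, (ModularGroup.T ^ N : SL(2, ℤ)) • q = q) :
    Module.finrank ℂ (Fil Γ K N 1) = Module.finrank ℂ (CF Γ K) := by
  have e : Fil Γ K N 1 = Submodule.comap (MF Γ K).subtype (CF Γ K) := by
    ext f
    rw [mem_Fil_one_iff hN hT]
    rfl
  rw [e]
  exact (Submodule.comapSubtypeEquivOfLe CF_le_MF).finrank_eq

/-- The assembled cusp filtration statement. -/
theorem cusp_filtration [Γ.FiniteIndex] (K : ℤ) (hfin : Module.Finite ℂ (MF Γ K))
    (h : Module.finrank ℂ (MF Γ K) = Module.finrank ℂ (MF Γ (K - 12)) + Γ.index)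
    {N : ℕ} (hN : 0 < N)
    (hT : ∀ q : SL(2, ℤ) ⧸ Γ, (ModularGroup.T ^ N : SL(2, ℤ)) • q = q) :
    Module.finrank ℂ (MF Γ K) = Module.finrank ℂ (CF Γ K) + cuspNum Γ ∧
    ∃ (a : (SL(2, ℤ) ⧸ Γ) → ℕ) (G : ∀ i, Fil Γ K N (a i)), (∀ i, a i < N) ∧
      LinearIndependent ℂ (fun i => lead hN hT (a i) (G i)) := by
  have hdim : Module.finrank ℂ (Fil Γ K N N) + Γ.index ≤ Module.finrank ℂ (MF Γ K) := by
    rw [h]
    have := Submodule.finrank_mono (Fil_top_le (Γ := Γ) (K := K) hN)
    rw [H44.finrank_range_mulDelta] at this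
    omega
  obtain ⟨h1, -, -, h4⟩ := H2.cusp_filtration_main (Γ := Γ) (M := MF Γ K) N hN
    (Complex.exp (2 * Real.pi * Complex.I / N)) (H2.exp_pow_inj N hN)
    (Fil Γ K N) (Fil_zero N) (Fil_anti hN) (lead hN hT)
    (lead_eq_zero_iff hN hT) (lead_T_inv hN hT) hdim
  refine ⟨?_, h4⟩
  rw [h1, finrank_Fil_one hN hT]

/-- **INF1**: for `K` with `dim M_K = dim M_{K-12} + index`, the Eisenstein part has dimension
`cuspNum Γ`. -/
theorem INF1_eis [Γ.FiniteIndex] (K : ℤ) (hfin : Module.Finite ℂ (MF Γ K))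
    (h : Module.finrank ℂ (MF Γ K) = Module.finrank ℂ (MF Γ (K - 12)) + Γ.index) :
    Module.finrank ℂ (MF Γ K) = Module.finrank ℂ (CF Γ K) + cuspNum Γ := by
  obtain ⟨N, hN, hT⟩ := exists_period Γ
  exact (cusp_filtration K hfin h hN hT).1

/-- **INF2**: an adapted family: forms whose leading terms at `i∞` form an invertible matrix. -/
theorem INF2_adapted [Γ.FiniteIndex] (K : ℤ) (hfin : Module.Finite ℂ (MF Γ K))
    (h : Module.finrank ℂ (MF Γ K) = Module.finrank ℂ (MF Γ (K - 12)) + Γ.index) :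
    ∃ (N : ℕ) (_ : 0 < N) (G : (SL(2, ℤ) ⧸ Γ) → ℍ → ℂ) (a : (SL(2, ℤ) ⧸ Γ) → ℕ)
      (E₀ : (SL(2, ℤ) ⧸ Γ) → (SL(2, ℤ) ⧸ Γ) → ℂ),
      (∀ i, G i ∈ MF Γ K) ∧ (∀ i, a i < N) ∧
      LinearIndependent ℂ (fun i => fun q => E₀ q i) ∧
      ∀ q i, Tendsto (fun z : ℍ =>
        Complex.exp (-2 * Real.pi * Complex.I * (a i) * z / N) * cf Γ K (G i) q z)
        atImInfty (𝓝 (E₀ q i)) := by
  obtain ⟨N, hN, hT⟩ := exists_period Γ
  obtain ⟨a, G, ha, hli⟩ := (cusp_filtration K hfin h hN hT).2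
  refine ⟨N, hN, fun i => ((G i : MF Γ K) : ℍ → ℂ), a, fun q i => lead hN hT (a i) (G i) q,
    fun i => (G i : MF Γ K).2, ha, hli, fun q i => ?_⟩
  exact tendsto_lead hN hT (a i) (G i) q

end Fermat.Agent.S20.H19

end
-- ==== END Fermat.Agent.S20.H19_Inf

-- ==== BEGIN Fermat.Agent.S20.H74_Final2
section

/-!
# S20 core (helper74): assembly, second stage

The core count from the packages `B_div`, `INF1`, `INF2` (hypotheses) and the level one geometry.
-/

set_option autoImplicit false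

namespace Fermat.Agent.S20.H74

open UpperHalfPlane ModularForm MatrixGroups Filter EisensteinSeries
open scoped Manifold Topology

/-- local independence everywhere, from the division property -/
theorem LI_all_of_div (hgeo : LevelOneGeometry) (Γ : Subgroup SL(2, ℤ)) [Γ.FiniteIndex]
    (hdivAll : ∀ (w : ℤ) (B : ℍ → ℂ), B ∈ MF ⊤ w →
      (∃ c : ℂ, c ≠ 0 ∧ Tendsto B atImInfty (𝓝 c)) →
      (∀ z : ℍ, B z = 0 → deriv (B ∘ ofComplex) z ≠ 0) → DivProp Γ w B)
    (b : RBasis Γ) (z : ℍ) : b.LIAt z := by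
  have t4 : Tendsto (⇑E₄ : ℍ → ℂ) atImInfty (𝓝 1) := H70.tendsto_E₄_atImInfty
  have t6 : Tendsto (⇑E₆ : ℍ → ℂ) atImInfty (𝓝 1) := H70.tendsto_E₆_atImInfty
  have hd6 : DivProp Γ 6 ⇑E₆ :=
    hdivAll 6 ⇑E₆ (coe_mem_MF_top E₆) ⟨1, one_ne_zero, t6⟩ hgeo.simpleE6
  have hd4 : DivProp Γ 4 ⇑E₄ :=
    hdivAll 4 ⇑E₄ (coe_mem_MF_top E₄) ⟨1, one_ne_zero, t4⟩ hgeo.simpleE4
  exact H53.LI5_all_of hgeo b hdivAll t4 t6 H61.E₆_I H61.E₄_rho
    (H61.LI2_I' hgeo b hd6) (H61.LI3_rho' hgeo b hd4) z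

theorem core_of_div_inf (hgeo : LevelOneGeometry) (Γ : Subgroup SL(2, ℤ)) [Γ.FiniteIndex]
    (hneg : -1 ∈ Γ)
    (hsep : ∃ (k : ℤ) (f : ℍ → ℂ), f ∈ MF Γ k ∧ ∀ g : SL(2, ℤ), f ∣[k] g = f → g ∈ Γ)
    (hdivAll : ∀ (w : ℤ) (B : ℍ → ℂ), B ∈ MF ⊤ w →
      (∃ c : ℂ, c ≠ 0 ∧ Tendsto B atImInfty (𝓝 c)) →
      (∀ z : ℍ, B z = 0 → deriv (B ∘ ofComplex) z ≠ 0) → DivProp Γ w B)
    (hINF1 : ∀ K : ℤ, Module.Finite ℂ (MF Γ K) →
      Module.finrank ℂ (MF Γ K) = Module.finrank ℂ (MF Γ (K - 12)) + Γ.index →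
      Module.finrank ℂ (MF Γ K) = Module.finrank ℂ (CF Γ K) + cuspNum Γ)
    (hINF2 : ∀ K : ℤ, Module.Finite ℂ (MF Γ K) →
      Module.finrank ℂ (MF Γ K) = Module.finrank ℂ (MF Γ (K - 12)) + Γ.index →
      ∃ (N : ℕ) (_ : 0 < N) (G : (SL(2, ℤ) ⧸ Γ) → ℍ → ℂ) (a : (SL(2, ℤ) ⧸ Γ) → ℕ)
        (E₀ : (SL(2, ℤ) ⧸ Γ) → (SL(2, ℤ) ⧸ Γ) → ℂ),
        (∀ i, G i ∈ MF Γ K) ∧ (∀ i, a i < N) ∧
        LinearIndependent ℂ (fun i => fun q => E₀ q i) ∧
        ∀ q i, Tendsto (fun z : ℍ =>
          Complex.exp (-2 * Real.pi * Complex.I * (a i) * z / N) * cf Γ K (G i) q z)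
          atImInfty (𝓝 (E₀ q i))) :
    12 * (Module.finrank ℂ (CF Γ 2) : ℤ) + 3 * ellTwo Γ + 4 * ellThree Γ + 6 * cuspNum Γ
      = 12 + Γ.index :=
  core_of_packages Γ hneg (fun b z => LI_all_of_div hgeo Γ hdivAll b z)
    (fun b z h => H86.RK1_finite b z h) (fun b _ => H86.RK2_card b hsep) hINF1 hINF2

end Fermat.Agent.S20.H74

end
-- ==== END Fermat.Agent.S20.H74_Final2

-- ==== BEGIN Fermat.Agent.S21.H20_DGlue
section

/-!
# S21, part D (glue): injectivity of the period pairing from the max-modulus core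
-/

set_option autoImplicit false

open ModularCurve ModularCurve.Period UpperHalfPlane CongruenceSubgroup Filter Topology Function
open scoped MatrixGroups ModularForm Real Manifold Pointwise ComplexConjugate

namespace Fermat.Agent.S21

/-- The anti-holomorphic involution `z ↦ -conj z` of the upper half-plane. -/
noncomputable def negConj (z : ℍ) : ℍ :=
  ⟨-conj (z : ℂ), by simpa using z.im_pos⟩

@[simp] theorem coe_negConj (z : ℍ) : ((negConj z : ℍ) : ℂ) = -conj (z : ℂ) := rfl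

@[simp] theorem negConj_negConj (z : ℍ) : negConj (negConj z) = z := by
  ext
  simp

@[simp] theorem im_negConj (z : ℍ) : (negConj z).im = z.im := by
  change (-conj (z : ℂ)).im = (z : ℂ).im
  simp

theorem tendsto_negConj : Tendsto negConj atImInfty atImInfty := by
  rw [atImInfty, tendsto_comap_iff]
  have : (im ∘ negConj) = im := by
    funext z
    simp
  rw [this]
  exact tendsto_comap

theorem jConjSL_smul_negConj (γ : SL(2, ℤ)) (z : ℍ) :
    (jConjSL γ) • (negConj z) = negConj (γ • z) := by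
  ext
  rw [coe_specialLinearGroup_apply, coe_negConj, coe_negConj, coe_specialLinearGroup_apply]
  simp only [jConjSL_coe, jConjMat_apply_zero_zero, jConjMat_apply_zero_one,
    jConjMat_apply_one_zero, jConjMat_apply_one_one, map_div₀, map_add, map_mul]
  simp only [algebraMap_int_eq, Int.coe_castRingHom, Int.cast_neg, Complex.ofReal_neg,
    Complex.ofReal_intCast, map_intCast]
  rw [← neg_div]
  congr 1 <;> ring

/-- `z ↦ conj (F (-conj z))` is a primitive of `z ↦ -conj (f (-conj z))`. -/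
theorem hasDerivAt_conj_comp_negConj {F : ℍ → ℂ} {f : ℍ → ℂ}
    (hF : ∀ τ : ℍ, HasDerivAt (F ∘ ofComplex) (f τ) ↑τ) (τ : ℍ) :
    HasDerivAt ((fun z : ℍ => conj (F (negConj z))) ∘ ofComplex)
      (-conj (f (negConj τ))) ↑τ := by
  -- `g w = F (ofComplex (-w))` has derivative `-f (negConj τ)` at `conj τ`
  have h1 : HasDerivAt (fun w : ℂ => (F ∘ ofComplex) (-w)) (-(f (negConj τ)))
      (conj (τ : ℂ)) := by
    have h0 : HasDerivAt (F ∘ ofComplex) (f (negConj τ)) (-(conj (τ : ℂ))) := hF (negConj τ)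
    have := h0.comp (conj (τ : ℂ)) (hasDerivAt_neg (conj (τ : ℂ)))
    rw [mul_neg_one] at this
    exact this
  have h2 := h1.conj_conj
  rw [Complex.conj_conj] at h2
  have h3 : conj (-(f (negConj τ))) = -conj (f (negConj τ)) := by simp
  rw [h3] at h2
  refine h2.congr_of_eventuallyEq ?_
  filter_upwards [isOpen_upperHalfPlaneSet.mem_nhds τ.im_pos] with z hz
  have hz' : 0 < (-conj z).im := by simpa using hz
  simp only [Function.comp_apply]
  congr 2
  rw [ofComplex_apply_of_im_pos hz, ofComplex_apply_of_im_pos hz']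
  rfl

/-- `δ T^N δ⁻¹ ∈ Γ₀(N)`. -/
theorem conj_T_pow_mem_Gamma0 (N : ℕ) (δ : SL(2, ℤ)) :
    δ * ModularGroup.T ^ N * δ⁻¹ ∈ Gamma0 N := by
  have h1 : ModularGroup.T ^ N ∈ Gamma N := by
    have := ModularGroup_T_pow_mem_Gamma (N : ℤ) (N : ℤ) dvd_rfl
    simpa using this
  have h2 : δ * ModularGroup.T ^ N * δ⁻¹ ∈ Gamma N := (Gamma_normal N).conj_mem _ h1 δ
  rw [Gamma_mem] at h2
  rw [Gamma0_mem]
  exact h2.2.2.1

theorem trace_conj_T_pow (N : ℕ) (δ : SL(2, ℤ)) :
    ((δ * ModularGroup.T ^ N * δ⁻¹ : SL(2, ℤ)) : Matrix (Fin 2) (Fin 2) ℤ).trace = 2 := by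
  have h1 : ((δ * ModularGroup.T ^ N * δ⁻¹ : SL(2, ℤ)) : Matrix (Fin 2) (Fin 2) ℤ)
      = (δ : Matrix (Fin 2) (Fin 2) ℤ) * ((ModularGroup.T ^ N : SL(2, ℤ)) : Matrix (Fin 2) (Fin 2) ℤ)
        * ((δ⁻¹ : SL(2, ℤ)) : Matrix (Fin 2) (Fin 2) ℤ) := by
    simp
  rw [h1, Matrix.trace_mul_comm, ← mul_assoc]
  have h2 : ((δ⁻¹ : SL(2, ℤ)) : Matrix (Fin 2) (Fin 2) ℤ) * (δ : Matrix (Fin 2) (Fin 2) ℤ) = 1 := by
    rw [← Matrix.SpecialLinearGroup.coe_mul, inv_mul_cancel, Matrix.SpecialLinearGroup.coe_one]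
  rw [h2, one_mul]
  have h3 := ModularGroup.coe_T_zpow (N : ℤ)
  rw [zpow_natCast] at h3
  rw [h3, Matrix.trace_fin_two_of]
  norm_num

section Combo

variable {N : ℕ} [NeZero N] {a b : CuspForm (Gamma0 N) 2} {Fa Fb : ℍ → ℂ}

/-- The key step of part D: if `p + conj q = 0` forces `Re (u p + v q) = 0`, then
`exp (u Fa + v G)` (with `G = conj ∘ Fb ∘ negConj`) is constant, so its logarithmic derivative
`u a - v conj (b ∘ negConj)` vanishes. -/
theorem combo_deriv_zero
    (hFa : HasEquivariantPrimitive N a Fa) (hFb : HasEquivariantPrimitive N b Fb)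
    (hrel : ∀ (γ : Gamma0 N) (z : ℍ),
      (Fa ((γ : SL(2, ℤ)) • z) - Fa z)
        + (Fb (negConj ((γ : SL(2, ℤ)) • z)) - Fb (negConj z)) = 0)
    (u v : ℂ) (huv : ∀ p q : ℂ, p + conj q = 0 → (u * p + v * q).re = 0) (τ : ℍ) :
    u * a τ + v * (-conj (b (negConj τ))) = 0 := by
  set G : ℍ → ℂ := fun z => conj (Fb (negConj z)) with hG
  set H : ℍ → ℂ := fun z => u * Fa z + v * G z with hH
  set E : ℍ → ℂ := fun z => Complex.exp (H z) with hE
  have hHd : ∀ τ : ℍ, HasDerivAt (H ∘ ofComplex)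
      (u * a τ + v * (-conj (b (negConj τ)))) ↑τ := by
    intro τ
    have h1 := (hFa.1 τ).const_mul u
    have h2 := (hasDerivAt_conj_comp_negConj hFb.1 τ).const_mul v
    exact h1.add h2
  have hEd : ∀ τ : ℍ, HasDerivAt (E ∘ ofComplex)
      (Complex.exp (H τ) * (u * a τ + v * (-conj (b (negConj τ))))) ↑τ := by
    intro τ
    have h1 := (hHd τ).cexp
    simp only [Function.comp_apply, ofComplex_apply] at h1
    exact h1
  -- periods of `Fa` and `G` along parabolic conjugates of `T ^ N` vanish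
  have hFa_per : ∀ (δ : SL(2, ℤ)) (w : ℍ),
      Fa (δ • (ModularGroup.T ^ N • w)) = Fa (δ • w) := by
    intro δ w
    have h := partC N hFa ⟨δ * ModularGroup.T ^ N * δ⁻¹, conj_T_pow_mem_Gamma0 N δ⟩
      (by rw [trace_conj_T_pow]; norm_num) (δ • w)
    rw [← h]
    congr 1
    simp only [← mul_smul]
    congr 1
    group
  have hFb_per : ∀ (δ : SL(2, ℤ)) (w : ℍ),
      Fb (negConj (δ • (ModularGroup.T ^ N • w))) = Fb (negConj (δ • w)) := by
    intro δ w
    have hmem : jConjSL (δ * ModularGroup.T ^ N * δ⁻¹) ∈ Gamma0 N :=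
      jConjSL_mem_Gamma0 (conj_T_pow_mem_Gamma0 N δ)
    have h := partC N hFb ⟨jConjSL (δ * ModularGroup.T ^ N * δ⁻¹), hmem⟩
      (by
        show ((jConjSL (δ * ModularGroup.T ^ N * δ⁻¹) : SL(2, ℤ)) :
          Matrix (Fin 2) (Fin 2) ℤ).trace ^ 2 = 4
        rw [jConjSL_coe, jConjMat_trace, trace_conj_T_pow]; norm_num) (negConj (δ • w))
    rw [← h]
    congr 1
    show negConj (δ • (ModularGroup.T ^ N • w))
      = jConjSL (δ * ModularGroup.T ^ N * δ⁻¹) • negConj (δ • w)
    rw [jConjSL_smul_negConj]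
    congr 1
    simp only [← mul_smul]
    congr 1
    group
  obtain ⟨c, hc⟩ := partD_core N E (fun τ => (hEd τ).differentiableAt)
    (by
      intro γ hγ z
      simp only [hE, Complex.norm_exp]
      congr 1
      have h1 := hrel ⟨γ, hγ⟩ z
      have h2 := huv (Fa (γ • z) - Fa z) (G (γ • z) - G z) (by
        simp only [hG, map_sub, Complex.conj_conj]
        exact h1)
      have h3 : H (γ • z) = H z + (u * (Fa (γ • z) - Fa z) + v * (G (γ • z) - G z)) := by
        simp only [hH]; ring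
      rw [h3, Complex.add_re, h2, add_zero])
    (by
      intro δ w
      simp only [hE, hH, hG]
      rw [hFa_per δ w, hFb_per δ w])
    (by
      intro δ
      obtain ⟨L, hL⟩ := hFa.2.2.2 δ
      obtain ⟨L', hL'⟩ := hFb.2.2.2 (jConjSL δ)
      refine ⟨Complex.exp (u * L + v * conj L'), ?_⟩
      have h1 : Tendsto (fun w : ℍ => Fb (negConj (δ • w))) atImInfty (𝓝 L') := by
        have := hL'.comp tendsto_negConj
        refine this.congr fun w => ?_
        simp only [Function.comp_apply, jConjSL_smul_negConj]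
      have h2 : Tendsto (fun w : ℍ => G (δ • w)) atImInfty (𝓝 (conj L')) :=
        (Complex.continuous_conj.tendsto L').comp h1
      have h3 : Tendsto (fun w : ℍ => H (δ • w)) atImInfty (𝓝 (u * L + v * conj L')) :=
        (hL.const_mul u).add (h2.const_mul v)
      exact (Complex.continuous_exp.tendsto _).comp h3)
  -- `E` is constant, so its derivative vanishes
  have h0 : HasDerivAt (E ∘ ofComplex) 0 ↑τ := by
    refine (hasDerivAt_const (τ : ℂ) c).congr_of_eventuallyEq ?_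
    filter_upwards with z
    simp only [Function.comp_apply, hc]
  have h1 := (hEd τ).unique h0
  exact (mul_eq_zero.mp h1).resolve_left (Complex.exp_ne_zero _)

end Combo

/-- **Part D**: injectivity of the period pairing. -/
theorem partD (N : ℕ) [NeZero N] (a b : CuspForm (Gamma0 N) 2)
    (h : periodMap N a + charInvolution N ℂ ℂ (periodMap N b) = 0) : a = 0 ∧ b = 0 := by
  obtain ⟨Fa, hFa⟩ := partA N a
  obtain ⟨Fb, hFb⟩ := partA N b
  have hrel : ∀ (γ : Gamma0 N) (z : ℍ),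
      (Fa ((γ : SL(2, ℤ)) • z) - Fa z)
        + (Fb (negConj ((γ : SL(2, ℤ)) • z)) - Fb (negConj z)) = 0 := by
    intro γ z
    have h1 := DFunLike.congr_fun h (Additive.ofMul γ)
    rw [AddMonoidHom.add_apply, charInvolution_apply, toMul_ofMul,
      periodMap_apply_of_hasEquivariantPrimitive hFa γ z,
      periodMap_apply_of_hasEquivariantPrimitive hFb (jConjGamma0 N γ) (negConj z),
      jConjGamma0_coe, jConjSL_smul_negConj] at h1
    exact h1
  have key1 : ∀ τ : ℍ, a τ - conj (b (negConj τ)) = 0 := by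
    intro τ
    have := combo_deriv_zero hFa hFb hrel 1 1 (by
      intro p q hpq
      have : (1 * p + 1 * q).re = (p + conj q).re := by simp
      rw [this, hpq]; simp) τ
    linear_combination this
  have key2 : ∀ τ : ℍ, a τ + conj (b (negConj τ)) = 0 := by
    intro τ
    have := combo_deriv_zero hFa hFb hrel (-Complex.I) Complex.I (by
      intro p q hpq
      have : (-Complex.I * p + Complex.I * q).re = (p + conj q).im := by simp
      rw [this, hpq]; simp) τ
    have hI : Complex.I ^ 2 = -1 := Complex.I_sq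
    linear_combination Complex.I * this + (a τ + conj (b (negConj τ))) * hI
  have ha : ∀ τ : ℍ, a τ = 0 := by
    intro τ
    have h1 := key1 τ
    have h2 := key2 τ
    have : (2 : ℂ) * a τ = 0 := by linear_combination h1 + h2
    exact (mul_eq_zero.mp this).resolve_left two_ne_zero
  have hb : ∀ τ : ℍ, b τ = 0 := by
    intro τ
    have h1 := key1 (negConj τ)
    rw [ha, zero_sub, neg_eq_zero, negConj_negConj] at h1
    simpa using h1
  exact ⟨CuspForm.ext ha, CuspForm.ext hb⟩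

end Fermat.Agent.S21

end
-- ==== END Fermat.Agent.S21.H20_DGlue

-- ==== BEGIN Fermat.Agent.S21.H75_Count
section

set_option autoImplicit false
set_option linter.unusedSectionVars false

/-!
# The dimension count (abstract form)
-/

namespace Fermat.Agent.S21.H75

open Module

variable {G : Type*} [Group G] (Γ : Subgroup G)

section SumZero

variable [Fintype (G ⧸ Γ)]

/-- the sum functional on `V = (G ⧸ Γ) → ℂ` -/
noncomputable def sumFun : ((G ⧸ Γ) → ℂ) →ₗ[ℂ] ℂ :=
  ∑ q : G ⧸ Γ, LinearMap.proj q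

lemma sumFun_apply (v : (G ⧸ Γ) → ℂ) : sumFun Γ v = ∑ q, v q := by
  simp [sumFun, LinearMap.sum_apply]

lemma sumFun_R (g : G) (v : (G ⧸ Γ) → ℂ) : sumFun Γ (R Γ g v) = sumFun Γ v := by
  rw [sumFun_apply, sumFun_apply]
  exact Fintype.sum_equiv (MulAction.toPerm g) _ _ (fun q => rfl)

omit [Fintype (G ⧸ Γ)] in
/-- `R_g w - w` lies in `range (R_S - 1) ⊔ range (R_U - 1)` whenever `S, U` generate. -/
lemma R_sub_mem_sup {S U : G} (hgen : Subgroup.closure {S, U} = ⊤) (g : G)
    (w : (G ⧸ Γ) → ℂ) :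
    R Γ g w - w ∈ LinearMap.range (R Γ S - 1) ⊔ LinearMap.range (R Γ U - 1) := by
  have hg : g ∈ Subgroup.closure {S, U} := by rw [hgen]; trivial
  induction hg using Subgroup.closure_induction generalizing w with
  | mem x hx =>
    rcases hx with rfl | rfl
    · exact Submodule.mem_sup_left ⟨w, rfl⟩
    · exact Submodule.mem_sup_right ⟨w, rfl⟩
  | one => simp [R_one]
  | mul x y _ _ hx hy =>
    have : R Γ (x * y) w - w = (R Γ y (R Γ x w) - R Γ x w) + (R Γ x w - w) := by
      rw [R_mul, Module.End.mul_apply]; abel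
    rw [this]
    exact Submodule.add_mem _ (hy _) (hx _)
  | inv x _ hx =>
    have h1 : R Γ x (R Γ x⁻¹ w) = w := by
      rw [← Module.End.mul_apply, ← R_mul, inv_mul_cancel, R_one, Module.End.one_apply]
    have : R Γ x⁻¹ w - w = -(R Γ x (R Γ x⁻¹ w) - R Γ x⁻¹ w) := by
      rw [h1]; abel
    rw [this]
    exact Submodule.neg_mem _ (hx _)

lemma single_sub_single_mem_sup [DecidableEq (G ⧸ Γ)] {S U : G}
    (hgen : Subgroup.closure {S, U} = ⊤) (q q₀ : G ⧸ Γ) :
    (Pi.single q (1 : ℂ) - Pi.single q₀ (1 : ℂ) : (G ⧸ Γ) → ℂ) ∈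
      LinearMap.range (R Γ S - 1) ⊔ LinearMap.range (R Γ U - 1) := by
  obtain ⟨g, hg⟩ := MulAction.exists_smul_eq G q q₀
  have : (Pi.single q (1 : ℂ) : (G ⧸ Γ) → ℂ) = R Γ g (Pi.single q₀ (1 : ℂ)) := by
    ext q'
    simp only [R_apply, Pi.single_apply]
    have : q' = q ↔ g • q' = q₀ := by
      rw [← hg]
      exact ⟨fun h => by rw [h], fun h => MulAction.injective g h⟩
    simp only [this]
  rw [this]
  exact R_sub_mem_sup Γ hgen g _

/-- Sum-zero vectors lie in `range (R_S - 1) ⊔ range (R_U - 1)`. -/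
lemma ker_sumFun_le_sup {S U : G} (hgen : Subgroup.closure {S, U} = ⊤) :
    LinearMap.ker (sumFun Γ) ≤
      LinearMap.range (R Γ S - 1) ⊔ LinearMap.range (R Γ U - 1) := by
  classical
  intro v hv
  rw [LinearMap.mem_ker, sumFun_apply] at hv
  let q₀ : G ⧸ Γ := QuotientGroup.mk 1
  have hv' : v = ∑ q, v q • (Pi.single q (1 : ℂ) - Pi.single q₀ (1 : ℂ) : (G ⧸ Γ) → ℂ) := by
    simp only [smul_sub, Finset.sum_sub_distrib, ← Finset.sum_smul, hv, zero_smul, sub_zero]
    ext q'
    simp [Finset.sum_apply, Pi.single_apply]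
  rw [hv']
  exact Submodule.sum_mem _ fun q _ =>
    Submodule.smul_mem _ _ (single_sub_single_mem_sup Γ hgen q q₀)

/-- a subspace loses at most one dimension when intersected with a hyperplane -/
lemma finrank_le_finrank_inf_ker_add_one {V : Type*} [AddCommGroup V] [Module ℂ V]
    [FiniteDimensional ℂ V] (K : Submodule ℂ V) (f : V →ₗ[ℂ] ℂ) :
    finrank ℂ K ≤ finrank ℂ (K ⊓ LinearMap.ker f : Submodule ℂ V) + 1 := by
  have h1 := Submodule.finrank_sup_add_finrank_inf_eq K (LinearMap.ker f)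
  have h2 := LinearMap.finrank_range_add_finrank_ker f
  have h3 : finrank ℂ (LinearMap.range f) ≤ 1 := by
    have := Submodule.finrank_le (LinearMap.range f)
    simpa using this
  have h4 := Submodule.finrank_le (K ⊔ LinearMap.ker f)
  omega

end SumZero

end Fermat.Agent.S21.H75

end
-- ==== END Fermat.Agent.S21.H75_Count

-- ==== BEGIN Fermat.Agent.S22.Period
section

/-!
# S22: period polynomials attached to `EichlerData`, cocycle relation and Hecke relation
-/

set_option autoImplicit false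

namespace Fermat.Agent.S22

open Polynomial
open scoped MatrixGroups ModularForm
open UpperHalfPlane Matrix.SpecialLinearGroup CongruenceSubgroup
open P2MW.S_ModularForm_heckeT_slash_eq_self_of_mem_Gamma0.ModularForm.HeckeSlashInvariance

/-- `polySlash` for an element of `SL(2, ℤ)` -/
noncomputable abbrev polySlashSL (n : ℕ) (g : SL(2, ℤ)) : ℂ[X] →ₗ[ℂ] ℂ[X] :=
  polySlash n (g 0 0) (g 0 1) (g 1 0) (g 1 1)

/-- `polySlash` for the Hecke representatives indexed by `OnePoint (ZMod p)` -/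
noncomputable def polySlashRep (n p : ℕ) (y : OnePoint (ZMod p)) : ℂ[X] →ₗ[ℂ] ℂ[X] :=
  y.elim (polySlash n p 0 0 1) (fun j => polySlash n 1 j.val 0 p)

theorem polyFun_slash_heckeRep (n : ℕ) {p : ℕ} (hp : p ≠ 0) (y : OnePoint (ZMod p)) (P : ℂ[X])
    (hP : P.natDegree ≤ n) :
    ((p : ℂ) ^ (n + 1)) • ((polyFun P) ∣[-(n : ℤ)] heckeRep p y) =
      polyFun (polySlashRep n p y P) := by
  induction y using OnePoint.rec with
  | infty => exact polyFun_slash_heckeDiagMatrix n hp P hP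
  | coe j => exact polyFun_slash_heckeMatrix n hp j.val P hP

namespace EichlerData

variable {N : ℕ} [NeZero N] {n : ℕ} (D : EichlerData N n)

/-- the period polynomial of `f` at `g` (zero if `g ∉ Gamma0 N`) -/
noncomputable def period (f : CuspForm (Gamma0 N) ((n : ℤ) + 2)) (g : SL(2, ℤ)) : ℂ[X] := by
  classical
  exact if h : g ∈ Gamma0 N then (D.poly f g h).choose else 0

theorem natDegree_period_le (f : CuspForm (Gamma0 N) ((n : ℤ) + 2)) (g : SL(2, ℤ)) :
    (D.period f g).natDegree ≤ n := by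
  classical
  unfold period
  split_ifs with h
  · exact (D.poly f g h).choose_spec.1
  · simp

theorem polyFun_period (f : CuspForm (Gamma0 N) ((n : ℤ) + 2)) {g : SL(2, ℤ)}
    (hg : g ∈ Gamma0 N) :
    polyFun (D.period f g) = (D.E f) ∣[-(n : ℤ)] (mapGL ℝ g) - D.E f := by
  classical
  ext z
  unfold period
  rw [dif_pos hg, polyFun_apply, Pi.sub_apply]
  exact ((D.poly f g hg).choose_spec.2 z).symm

theorem period_of_not_mem (f : CuspForm (Gamma0 N) ((n : ℤ) + 2)) {g : SL(2, ℤ)}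
    (hg : g ∉ Gamma0 N) : D.period f g = 0 := by
  classical
  unfold period
  rw [dif_neg hg]

theorem period_add (f f' : CuspForm (Gamma0 N) ((n : ℤ) + 2)) (g : SL(2, ℤ)) :
    D.period (f + f') g = D.period f g + D.period f' g := by
  by_cases hg : g ∈ Gamma0 N
  · apply polyFun_injective
    rw [polyFun_add, D.polyFun_period _ hg, D.polyFun_period _ hg, D.polyFun_period _ hg,
      map_add, SlashAction.add_slash]
    abel
  · simp [D.period_of_not_mem _ hg]

theorem period_smul (c : ℂ) (f : CuspForm (Gamma0 N) ((n : ℤ) + 2)) (g : SL(2, ℤ)) :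
    D.period (c • f) g = c • D.period f g := by
  by_cases hg : g ∈ Gamma0 N
  · apply polyFun_injective
    rw [polyFun_smul, D.polyFun_period _ hg, D.polyFun_period _ hg, map_smul]
    have : (c • D.E f) ∣[-(n : ℤ)] (mapGL ℝ g) = c • ((D.E f) ∣[-(n : ℤ)] (mapGL ℝ g)) :=
      ModularForm.SL_smul_slash (-(n : ℤ)) g (D.E f) c
    rw [this, smul_sub]
  · simp [D.period_of_not_mem _ hg]

theorem period_one (f : CuspForm (Gamma0 N) ((n : ℤ) + 2)) : D.period f 1 = 0 := by
  apply polyFun_injective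
  rw [D.polyFun_period f (Subgroup.one_mem _), polyFun_zero, map_one, SlashAction.slash_one,
    sub_self]

theorem period_mul (f : CuspForm (Gamma0 N) ((n : ℤ) + 2)) {g g' : SL(2, ℤ)}
    (hg : g ∈ Gamma0 N) (hg' : g' ∈ Gamma0 N) :
    D.period f (g * g') = polySlashSL n g' (D.period f g) + D.period f g' := by
  apply polyFun_injective
  rw [polyFun_add, D.polyFun_period f (Subgroup.mul_mem _ hg hg'), D.polyFun_period f hg',
    ← polyFun_slash_SL n g' _ (D.natDegree_period_le f g), D.polyFun_period f hg, map_mul,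
    SlashAction.slash_mul, slash_sub']
  abel

theorem period_inv (f : CuspForm (Gamma0 N) ((n : ℤ) + 2)) {g : SL(2, ℤ)}
    (hg : g ∈ Gamma0 N) :
    D.period f g⁻¹ = - polySlashSL n g⁻¹ (D.period f g) := by
  have h := D.period_mul f hg (Subgroup.inv_mem _ hg)
  rw [mul_inv_cancel, D.period_one] at h
  exact eq_neg_of_add_eq_zero_right h.symm

/-- The Hecke relation for `T_p`, `p ∤ N`. -/
theorem period_heckeT {p : ℕ} [NeZero p] (hp : p.Prime) (hpN : ¬ p ∣ N) {g : SL(2, ℤ)}
    (hg : g ∈ Gamma0 N) :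
    ∃ (σ : Equiv.Perm (OnePoint (ZMod p))) (g' : OnePoint (ZMod p) → SL(2, ℤ)),
      (∀ x, g' x ∈ Gamma0 N) ∧
      ∀ f : CuspForm (Gamma0 N) ((n : ℤ) + 2),
        D.period (CuspForm.heckeTLin ((n : ℤ) + 2) hp hpN f) g =
          ∑ x : OnePoint (ZMod p), polySlashRep n p (σ x) (D.period f (g' x)) := by
  classical
  have : Fact p.Prime := ⟨hp⟩
  have hgN : (N : ℤ) ∣ g 1 0 :=
    (ZMod.intCast_zmod_eq_zero_iff_dvd _ _).mp (Gamma0_mem.mp hg)
  have key := fun x => heckeRep_mul hpN g hgN x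
  choose g' hg'N hmul using key
  have hg'mem : ∀ x, g' x ∈ Gamma0 N := fun x =>
    Gamma0_mem.mpr ((ZMod.intCast_zmod_eq_zero_iff_dvd _ _).mpr (hg'N x))
  refine ⟨MulAction.toPerm (redMatrix p g), g', hg'mem, fun f => ?_⟩
  apply polyFun_injective
  rw [D.polyFun_period _ hg, D.hecke_T p hp hpN f, polyFun_sum]
  set F := D.E f with hF
  set c : ℂ := (p : ℂ) ^ (n + 1) with hc
  have h1 : (c • ModularForm.heckeT (-(n : ℤ)) p F) ∣[-(n : ℤ)] (mapGL ℝ g) =
      c • ((ModularForm.heckeT (-(n : ℤ)) p F) ∣[-(n : ℤ)] (mapGL ℝ g)) :=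
    ModularForm.SL_smul_slash (-(n : ℤ)) g _ c
  rw [h1, ← smul_sub]
  have h2 : (ModularForm.heckeT (-(n : ℤ)) p F) ∣[-(n : ℤ)] (mapGL ℝ g) =
      ∑ x : OnePoint (ZMod p), (F ∣[-(n : ℤ)] (mapGL ℝ (g' x))) ∣[-(n : ℤ)]
        heckeRep p (redMatrix p g • x) := by
    rw [heckeT_eq_sum_onePoint, SlashAction.sum_slash]
    refine Finset.sum_congr rfl fun x _ => ?_
    rw [← SlashAction.slash_mul, hmul x, SlashAction.slash_mul]
  have h3 : ModularForm.heckeT (-(n : ℤ)) p F =
      ∑ x : OnePoint (ZMod p), F ∣[-(n : ℤ)] heckeRep p (redMatrix p g • x) := by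
    rw [heckeT_eq_sum_onePoint]
    exact (Equiv.sum_comp (MulAction.toPerm (redMatrix p g))
      (fun x => F ∣[-(n : ℤ)] heckeRep p x)).symm
  rw [h2, h3, ← Finset.sum_sub_distrib, Finset.smul_sum]
  refine Finset.sum_congr rfl fun x _ => ?_
  rw [← slash_sub', ← D.polyFun_period f (hg'mem x),
    polyFun_slash_heckeRep n hp.ne_zero _ _ (D.natDegree_period_le f (g' x))]
  rfl

/-- `polySlash` for the `U_p` representatives indexed by `ZMod p` -/
noncomputable def _root_.Fermat.Agent.S22.polySlashU (n p : ℕ) (y : ZMod p) : ℂ[X] →ₗ[ℂ] ℂ[X] :=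
  polySlash n 1 y.val 0 p

/-- The Hecke relation for `U_p`, `p ∣ N`. -/
theorem period_heckeU {p : ℕ} [NeZero p] (hp : p.Prime) (hpN : p ∣ N) {g : SL(2, ℤ)}
    (hg : g ∈ Gamma0 N) :
    ∃ (σ : Equiv.Perm (ZMod p)) (g' : ZMod p → SL(2, ℤ)),
      (∀ x, g' x ∈ Gamma0 N) ∧
      ∀ f : CuspForm (Gamma0 N) ((n : ℤ) + 2),
        D.period (CuspForm.heckeULin ((n : ℤ) + 2) hpN f) g =
          ∑ x : ZMod p, polySlashU n p (σ x) (D.period f (g' x)) := by
  classical
  have hgN : (N : ℤ) ∣ g 1 0 :=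
    (ZMod.intCast_zmod_eq_zero_iff_dvd _ _).mp (Gamma0_mem.mp hg)
  have hc : (p : ℤ) ∣ g 1 0 := (Int.natCast_dvd_natCast.mpr hpN).trans hgN
  have key := fun x => heckeMatrix_mul_of_dvd g hc x
  choose g' hg'N hmul using key
  have hg'mem : ∀ x, g' x ∈ Gamma0 N := fun x => by
    rw [Gamma0_mem, hg'N x]
    push_cast
    rw [Gamma0_mem.mp hg, mul_zero]
  refine ⟨affinePerm g ((ZMod.intCast_zmod_eq_zero_iff_dvd _ _).mpr hc), g', hg'mem, fun f => ?_⟩
  apply polyFun_injective
  rw [D.polyFun_period _ hg, D.hecke_U p hp hpN f, polyFun_sum]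
  set F := D.E f with hF
  set c : ℂ := (p : ℂ) ^ (n + 1) with hcdef
  set σ := affinePerm g ((ZMod.intCast_zmod_eq_zero_iff_dvd _ _).mpr hc) with hσ
  have h1 : (c • ModularForm.heckeU (-(n : ℤ)) p F) ∣[-(n : ℤ)] (mapGL ℝ g) =
      c • ((ModularForm.heckeU (-(n : ℤ)) p F) ∣[-(n : ℤ)] (mapGL ℝ g)) :=
    ModularForm.SL_smul_slash (-(n : ℤ)) g _ c
  rw [h1, ← smul_sub]
  have h2 : (ModularForm.heckeU (-(n : ℤ)) p F) ∣[-(n : ℤ)] (mapGL ℝ g) =
      ∑ x : ZMod p, (F ∣[-(n : ℤ)] (mapGL ℝ (g' x))) ∣[-(n : ℤ)]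
        ModularForm.heckeMatrix p (σ x).val := by
    rw [heckeU_eq_sum_zmod, SlashAction.sum_slash]
    refine Finset.sum_congr rfl fun x _ => ?_
    rw [← SlashAction.slash_mul, hmul x, SlashAction.slash_mul]
  have h3 : ModularForm.heckeU (-(n : ℤ)) p F =
      ∑ x : ZMod p, F ∣[-(n : ℤ)] ModularForm.heckeMatrix p (σ x).val := by
    rw [heckeU_eq_sum_zmod]
    exact (Equiv.sum_comp σ (fun x => F ∣[-(n : ℤ)] ModularForm.heckeMatrix p x.val)).symm
  rw [h2, h3, ← Finset.sum_sub_distrib, Finset.smul_sum]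
  refine Finset.sum_congr rfl fun x _ => ?_
  rw [← slash_sub', ← D.polyFun_period f (hg'mem x),
    polyFun_slash_heckeMatrix n hp.ne_zero _ _ (D.natDegree_period_le f (g' x))]
  rfl

end EichlerData

end Fermat.Agent.S22

end
-- ==== END Fermat.Agent.S22.Period

-- ==== BEGIN Fermat.Agent.S23.H22_GS2
section

/-!
# Galois stability of `S_k(Γ₀(N))`, main argument (helper22, part of the S23 development)
-/

set_option autoImplicit false
set_option linter.unusedSectionVars false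

open UpperHalfPlane ModularForm Polynomial SlashInvariantForm EisensteinSeries
open scoped MatrixGroups ModularForm Manifold

noncomputable section

namespace Fermat.Agent.S23.H22

/-- The relation function `A ^ (μ+1) + ∑_{m ≤ μ} c m * B ^ (m+1) * A ^ (μ - m)`. -/
def relFun (μ : ℕ) (c : ℕ → ℍ → ℂ) (A B : ℍ → ℂ) : ℍ → ℂ :=
  A ^ (μ + 1) + ∑ m ∈ Finset.range (μ + 1), c m * B ^ (m + 1) * A ^ (μ - m)

lemma relFun_apply (μ : ℕ) (c : ℕ → ℍ → ℂ) (A B : ℍ → ℂ) (z : ℍ) :
    relFun μ c A B z =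
      A z ^ (μ + 1) + ∑ m ∈ Finset.range (μ + 1), c m z * B z ^ (m + 1) * A z ^ (μ - m) := by
  simp [relFun, Finset.sum_apply]

lemma relFun_nice (μ : ℕ) {c : ℕ → ℍ → ℂ} {A B : ℍ → ℂ} (hc : ∀ m, Nice 1 (c m))
    (hA : Nice 1 A) (hB : Nice 1 B) : Nice 1 (relFun μ c A B) :=
  (hA.pow _).add (Nice.sum _ fun m _ => ((hc m).mul (hB.pow _)).mul (hA.pow _))

lemma qExpansion_relFun (μ : ℕ) {c : ℕ → ℍ → ℂ} {A B : ℍ → ℂ} (hc : ∀ m, Nice 1 (c m))
    (hA : Nice 1 A) (hB : Nice 1 B) :
    qExpansion 1 (relFun μ c A B) = qExpansion 1 A ^ (μ + 1) +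
      ∑ m ∈ Finset.range (μ + 1),
        qExpansion 1 (c m) * qExpansion 1 B ^ (m + 1) * qExpansion 1 A ^ (μ - m) := by
  unfold relFun
  rw [Nice.qExpansion_add one_pos (hA.pow _)
      (Nice.sum _ fun m _ => ((hc m).mul (hB.pow _)).mul (hA.pow _)),
    Nice.qExpansion_pow one_pos hA,
    Nice.qExpansion_sum one_pos _ fun m _ => ((hc m).mul (hB.pow _)).mul (hA.pow _)]
  congr 1
  refine Finset.sum_congr rfl fun m _ => ?_
  rw [Nice.qExpansion_mul one_pos ((hc m).mul (hB.pow _)) (hA.pow _),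
    Nice.qExpansion_mul one_pos (hc m) (hB.pow _), Nice.qExpansion_pow one_pos hB,
    Nice.qExpansion_pow one_pos hA]

/-- If `x` satisfies the monic relation then `relFun` at `(x * D, D)` vanishes. -/
lemma relFun_mul_eq_zero (μ : ℕ) (c : ℕ → ℍ → ℂ) (x D : ℍ → ℂ)
    (h : ∀ z, x z ^ (μ + 1) + ∑ m ∈ Finset.range (μ + 1), c m z * x z ^ (μ - m) = 0) :
    relFun μ c (x * D) D = 0 := by
  ext z
  rw [relFun_apply, Pi.zero_apply]
  have : (x * D) z ^ (μ + 1) +
      ∑ m ∈ Finset.range (μ + 1), c m z * D z ^ (m + 1) * (x * D) z ^ (μ - m) =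
      D z ^ (μ + 1) * (x z ^ (μ + 1) + ∑ m ∈ Finset.range (μ + 1), c m z * x z ^ (μ - m)) := by
    rw [mul_add, Finset.mul_sum, Pi.mul_apply, mul_pow, mul_comm (x z ^ (μ + 1))]
    congr 1
    refine Finset.sum_congr rfl fun m hm => ?_
    have hm' : m ≤ μ := Nat.lt_succ_iff.mp (Finset.mem_range.mp hm)
    have : D z ^ (μ + 1) = D z ^ (m + 1) * D z ^ (μ - m) := by
      rw [← pow_add]; congr 1; omega
    rw [this, mul_pow]
    ring
  rw [this, h z, mul_zero]

/-- Conversely, from the vanishing of `relFun` at `(x * D, D)` one recovers the monic relation. -/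
lemma monic_rel_of_relFun_eq_zero (μ : ℕ) (c : ℕ → ℍ → ℂ) (x D : ℍ → ℂ)
    (hc : ∀ m, MDiff (c m)) (hx : MDiff x) (hD : MDiff D) (hD0 : D ≠ 0)
    (h : relFun μ c (x * D) D = 0) :
    ∀ z, x z ^ (μ + 1) + ∑ m ∈ Finset.range (μ + 1), c m z * x z ^ (μ - m) = 0 := by
  set F : ℍ → ℂ := x ^ (μ + 1) + ∑ m ∈ Finset.range (μ + 1), c m * x ^ (μ - m) with hF
  have hFd : MDiff F :=
    (hx.pow _).add (MDifferentiable.sum fun m _ => (hc m).mul (hx.pow _))
  have hDp : MDiff (D ^ (μ + 1)) := hD.pow _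
  have hDp0 : D ^ (μ + 1) ≠ 0 := by
    intro h0
    apply hD0
    ext z
    have := congrFun h0 z
    simpa using this
  have hmul : ∀ z, F z * (D ^ (μ + 1)) z = 0 := by
    intro z
    have h1 := congrFun h z
    rw [relFun_apply, Pi.zero_apply] at h1
    rw [← h1, hF]
    simp only [Pi.add_apply, Pi.pow_apply, Finset.sum_apply, Pi.mul_apply]
    rw [add_mul, Finset.sum_mul, mul_pow]
    congr 1
    refine Finset.sum_congr rfl fun m hm => ?_
    have hm' : m ≤ μ := Nat.lt_succ_iff.mp (Finset.mem_range.mp hm)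
    have : D z ^ (μ + 1) = D z ^ (m + 1) * D z ^ (μ - m) := by
      rw [← pow_add]; congr 1; omega
    rw [this, mul_pow]
    ring
  have := H96.mdiff_eq_zero_of_mul_eq_zero F (D ^ (μ + 1)) hFd hDp hDp0 hmul
  intro z
  have h2 := congrFun this z
  simpa [hF, Finset.sum_apply] using h2

end Fermat.Agent.S23.H22

end
end
-- ==== END Fermat.Agent.S23.H22_GS2

-- ==== BEGIN Fermat.Agent.S23.H77_Assembly
section

/-!
# S23 assembly: Galois stability (GS) + bounded denominators (BD) imply `HasIntegralStructure N 2`.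
-/

set_option autoImplicit false

namespace Fermat.Agent.S23.H77

open ModularFormClass
open P2MW.S_CuspForm_intLattice_fg.W3WsD

local notation "Γ₀(" N ")" => CongruenceSubgroup.Gamma0 N

theorem qCoeff_smulC {N : ℕ} {k : ℤ} (c : ℂ) (f : CuspForm Γ₀(N) k) (n : ℕ) :
    qCoeff ⇑(c • f) n = c * qCoeff ⇑f n := by
  have h1 : ⇑(c • f) = c • ⇑f := by
    ext z
    simp
  simp only [qCoeff, h1]
  rw [ModularForm.qExpansion_smul one_pos (hΓ N) c f]
  simp

/-- The truncated `q`-expansion map, as a `ℂ`-linear map. -/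
noncomputable def truncC (N : ℕ) (k : ℤ) :
    CuspForm Γ₀(N) k →ₗ[ℂ] (Fin (sturmB N k + 1) → ℂ) where
  toFun f i := qCoeff ⇑f i
  map_add' f g := by
    funext i
    exact qCoeff_add f g i
  map_smul' c f := by
    funext i
    exact qCoeff_smulC c f i

theorem truncC_apply {N : ℕ} {k : ℤ} (f : CuspForm Γ₀(N) k) (i : Fin (sturmB N k + 1)) :
    truncC N k f i = qCoeff ⇑f i := rfl

theorem truncC_injective (N : ℕ) [NeZero N] (k : ℤ) : Function.Injective (truncC N k) := by
  intro f g h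
  apply trunc_injective N k
  funext i
  exact congrFun h i

/-- **Assembly**: Galois stability and bounded denominators give the integral structure. -/
theorem hasIntegralStructure_of_GS_BD (N : ℕ) [NeZero N]
    (GS : ∀ (σ : ℂ →+* ℂ) (f : CuspForm (CongruenceSubgroup.Gamma0 N) 2),
      ∃ g : CuspForm (CongruenceSubgroup.Gamma0 N) 2, ∀ n : ℕ,
        ModularFormClass.qCoeff g n = σ (ModularFormClass.qCoeff f n))
    (BD : ∀ f : CuspForm (CongruenceSubgroup.Gamma0 N) 2,
      (∀ n : ℕ, ∃ r : ℚ, ModularFormClass.qCoeff f n = (r : ℂ)) →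
      ∃ M : ℕ, M ≠ 0 ∧ ∀ n : ℕ, ∃ m : ℤ, (M : ℂ) * ModularFormClass.qCoeff f n = (m : ℂ)) :
    CuspForm.HasIntegralStructure N 2 := by
  classical
  unfold CuspForm.HasIntegralStructure
  rw [eq_top_iff]
  intro f _
  -- the image of the truncation map
  set W : Submodule ℂ (Fin (sturmB N 2 + 1) → ℂ) := LinearMap.range (truncC N 2) with hWdef
  have hW : ∀ σ : ℂ →+* ℂ, ∀ w ∈ W, (fun i => σ (w i)) ∈ W := by
    rintro σ w ⟨f, rfl⟩
    obtain ⟨g, hg⟩ := GS σ f
    refine ⟨g, ?_⟩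
    funext i
    rw [truncC_apply, hg, truncC_apply]
  have hdesc := desc W hW
  -- every rational vector of W comes from a form in the span of the integral lattice
  have key : ∀ w ∈ ratVectors W, ∃ g : CuspForm Γ₀(N) 2, truncC N 2 g = w ∧
      g ∈ Submodule.span ℂ ((CuspForm.intLattice N 2 : Submodule ℤ (CuspForm Γ₀(N) 2)) :
        Set (CuspForm Γ₀(N) 2)) := by
    rintro w ⟨⟨g, rfl⟩, hrat⟩
    refine ⟨g, rfl, ?_⟩
    -- all coefficients of g are rational
    have hall : ∀ n : ℕ, ∃ r : ℚ, qCoeff g n = (r : ℂ) := by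
      intro n
      apply exists_rat_of_forall_ringHom_fixed
      intro σ
      obtain ⟨g', hg'⟩ := GS σ g
      have hgg' : g' = g := by
        apply truncC_injective N 2
        funext i
        rw [truncC_apply, hg']
        obtain ⟨r, hr⟩ := hrat i
        rw [truncC_apply] at hr
        rw [truncC_apply, hr]
        simp
      rw [← hg' n, hgg']
    obtain ⟨M, hM0, hM⟩ := BD g hall
    have hMg : ((M : ℂ) • g) ∈ CuspForm.intLattice N 2 := by
      apply Submodule.subset_span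
      intro n
      obtain ⟨m, hm⟩ := hM n
      exact ⟨m, by rw [qCoeff_smulC, hm]⟩
    have hMC : (M : ℂ) ≠ 0 := by exact_mod_cast hM0
    have : g = (M : ℂ)⁻¹ • ((M : ℂ) • g) := by
      rw [smul_smul, inv_mul_cancel₀ hMC, one_smul]
    rw [this]
    exact Submodule.smul_mem _ _ (Submodule.subset_span hMg)
  -- now decompose `truncC f`
  have hfW : truncC N 2 f ∈ Submodule.span ℂ (ratVectors W) := by
    rw [← hdesc]
    exact ⟨f, rfl⟩
  -- the span of the integral lattice maps onto the span of rational vectors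
  have hle : Submodule.span ℂ (ratVectors W) ≤
      (Submodule.span ℂ ((CuspForm.intLattice N 2 : Submodule ℤ (CuspForm Γ₀(N) 2)) :
        Set (CuspForm Γ₀(N) 2))).map (truncC N 2) := by
    rw [Submodule.span_le]
    intro w hw
    obtain ⟨g, hg, hgs⟩ := key w hw
    exact ⟨g, hgs, hg⟩
  obtain ⟨g, hgs, hg⟩ := hle hfW
  have : g = f := truncC_injective N 2 hg
  rw [← this]
  exact hgs

end Fermat.Agent.S23.H77

end
-- ==== END Fermat.Agent.S23.H77_Assembly

-- ==== BEGIN Fermat.Agent.S24.Closure.JA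
section

/-!
# S24 construction, layer 1a (WP CLO-JA): the functions `j ∘ A`

Notation: `K = Kbar = Q̄`, `ι = iotaC : K → ℂ`, `Hol` = holomorphic functions on `ℍ`.
WP CLO-JA (helper59): all statements of this file are proved (no `sorry` here; the only
remaining ones in the closure are those of `An/Hol.lean`).
-/

set_option autoImplicit false

noncomputable section

namespace Fermat.Agent.S24

open ModularCurve UpperHalfPlane
open scoped MatrixGroups Manifold

/-! ## 1. `Hol` as a `K`-algebra -/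

/-- `Hol` is a `Q̄`-algebra through `ι`. -/
instance algKbarHol : Algebra Kbar Hol := ((algebraMap ℂ Hol).comp iotaC).toAlgebra

theorem algebraMap_Kbar_Hol_apply (c : Kbar) (τ : ℍ) :
    ((algebraMap Kbar Hol c : Hol) : ℍ → ℂ) τ = iotaC c := rfl

instance smulCommClass_SL_Kbar_Hol : SMulCommClass SL(2, ℤ) Kbar Hol :=
  ⟨fun _ _ _ => Subtype.ext (funext fun _ => rfl)⟩

theorem iotaC_injective : Function.Injective iotaC := iotaC.injective

/-! ## 2. The functions `j ∘ A` for integer matrices `A` of positive determinant -/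

/-- `jAn` is holomorphic. -/
theorem jAn_mdifferentiable : MDifferentiable 𝓘(ℂ) 𝓘(ℂ) jAn := by
  have h4 : MDifferentiable 𝓘(ℂ) 𝓘(ℂ)
      (fun τ : ℍ => (ModularForm.E (k := 4) (by norm_num)) τ) :=
    ModularForm.holo' (ModularForm.E (k := 4) (by norm_num))
  have hΔ : MDifferentiable 𝓘(ℂ) 𝓘(ℂ) (fun τ : ℍ => ModularForm.discriminant τ) :=
    CuspForm.holo' CuspForm.discriminant
  exact (h4.pow 3).div hΔ ModularForm.discriminant_ne_zero

/-- An integer matrix of positive determinant, as an element of `GL₂(ℝ)`. -/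
def intGL (A : Matrix (Fin 2) (Fin 2) ℤ) (hA : 0 < A.det) : GL (Fin 2) ℝ :=
  Matrix.GeneralLinearGroup.mkOfDetNeZero (A.map (Int.cast : ℤ → ℝ)) (by
    have h : (A.map (Int.cast : ℤ → ℝ)).det = ((A.det : ℤ) : ℝ) := by
      simpa using (RingHom.map_det (Int.castRingHom ℝ) A).symm
    rw [h]
    exact_mod_cast hA.ne')

theorem intGL_val (A : Matrix (Fin 2) (Fin 2) ℤ) (hA : 0 < A.det) :
    ((intGL A hA : GL (Fin 2) ℝ) : Matrix (Fin 2) (Fin 2) ℝ) = A.map (Int.cast : ℤ → ℝ) := rfl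

theorem intGL_det_pos (A : Matrix (Fin 2) (Fin 2) ℤ) (hA : 0 < A.det) :
    0 < (intGL A hA).det.val := by
  have h : (A.map (Int.cast : ℤ → ℝ)).det = ((A.det : ℤ) : ℝ) := by
    simpa using (RingHom.map_det (Int.castRingHom ℝ) A).symm
  rw [Matrix.GeneralLinearGroup.val_det_apply, intGL_val, h]
  exact_mod_cast hA

/-- The Möbius action of an integer matrix of positive determinant, explicitly. -/
theorem coe_intGL_smul (A : Matrix (Fin 2) (Fin 2) ℤ) (hA : 0 < A.det) (τ : ℍ) :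
    ((intGL A hA • τ : ℍ) : ℂ) = ((A 0 0 : ℂ) * τ + A 0 1) / ((A 1 0 : ℂ) * τ + A 1 1) := by
  rw [coe_smul_of_det_pos (intGL_det_pos A hA)]
  simp [num, denom, intGL_val]

theorem intGL_mul (A B : Matrix (Fin 2) (Fin 2) ℤ) (hA : 0 < A.det) (hB : 0 < B.det)
    (hAB : 0 < (A * B).det) : intGL (A * B) hAB = intGL A hA * intGL B hB := by
  apply Matrix.GeneralLinearGroup.ext
  intro i j
  rw [Matrix.GeneralLinearGroup.coe_mul, intGL_val, intGL_val, intGL_val]
  simp [Matrix.mul_apply]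

theorem intGL_mul_smul (A B : Matrix (Fin 2) (Fin 2) ℤ) (hA : 0 < A.det) (hB : 0 < B.det)
    (hAB : 0 < (A * B).det) (τ : ℍ) :
    intGL (A * B) hAB • τ = intGL A hA • (intGL B hB • τ) := by
  rw [intGL_mul A B hA hB hAB, mul_smul]

theorem intGL_SL (γ : SL(2, ℤ)) (h : 0 < (γ.1).det) :
    intGL γ.1 h = (γ : GL (Fin 2) ℝ) := by
  apply Matrix.GeneralLinearGroup.ext
  intro i j
  rfl

theorem intGL_SL_smul (γ : SL(2, ℤ)) (h : 0 < (γ.1).det) (τ : ℍ) :
    intGL γ.1 h • τ = γ • τ := by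
  rw [ModularGroup.sl_moeb, intGL_SL]

open scoped Classical in
/-- The holomorphic function `τ ↦ j (A τ)` (junk value `0` if `det A ≤ 0`). -/
def JA (A : Matrix (Fin 2) (Fin 2) ℤ) : Hol :=
  if hA : 0 < A.det then ⟨fun τ => jAn (intGL A hA • τ),
    jAn_mdifferentiable.comp (mdifferentiable_smul (intGL_det_pos A hA))⟩ else 0

theorem JA_apply (A : Matrix (Fin 2) (Fin 2) ℤ) (hA : 0 < A.det) (τ : ℍ) :
    (JA A : ℍ → ℂ) τ = jAn (intGL A hA • τ) := by
  rw [JA, dif_pos hA]

theorem intGL_SL_det_pos (γ : SL(2, ℤ)) : 0 < (γ.1).det := by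
  rw [γ.2]; exact one_pos

theorem JA_one_apply (τ : ℍ) : (JA 1 : ℍ → ℂ) τ = jAn τ := by
  have h1 : 0 < (1 : Matrix (Fin 2) (Fin 2) ℤ).det := by rw [Matrix.det_one]; exact one_pos
  rw [JA_apply 1 h1]
  have := intGL_SL_smul 1 (intGL_SL_det_pos 1) τ
  rw [one_smul] at this
  congr 1

/-- `γ • (j ∘ A) = j ∘ (A γ⁻¹)`. -/
theorem smul_JA (γ : SL(2, ℤ)) (A : Matrix (Fin 2) (Fin 2) ℤ) (hA : 0 < A.det) :
    γ • JA A = JA (A * (γ⁻¹ : SL(2, ℤ)).1) := by
  have hdet : 0 < (A * (γ⁻¹ : SL(2, ℤ)).1).det := by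
    rw [Matrix.det_mul, (γ⁻¹ : SL(2, ℤ)).2, mul_one]; exact hA
  apply Subtype.ext
  funext τ
  rw [Hol.smul_apply, JA_apply A hA, JA_apply _ hdet,
    intGL_mul_smul A _ hA (intGL_SL_det_pos γ⁻¹) hdet, intGL_SL_smul]

/-- `j ∘ (γ A) = j ∘ A`. -/
theorem JA_mul_left (γ : SL(2, ℤ)) (A : Matrix (Fin 2) (Fin 2) ℤ) (hA : 0 < A.det) :
    JA (γ.1 * A) = JA A := by
  have hdet : 0 < (γ.1 * A).det := by
    rw [Matrix.det_mul, γ.2, one_mul]; exact hA
  apply Subtype.ext
  funext τ
  rw [JA_apply A hA, JA_apply _ hdet, intGL_mul_smul _ A (intGL_SL_det_pos γ) hA hdet, intGL_SL_smul,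
    jAn_smul]

end Fermat.Agent.S24

end
end
-- ==== END Fermat.Agent.S24.Closure.JA

-- ==== BEGIN Fermat.Agent.S24.Closure.UExpSubst
section

/-!
# S24 construction, layer 1d (WP CLO-UExpSubst): substitutions in expansions at `∞`

Filled by helper17 (signatures of `of_hasSum_mul_q`, `comp_translate`, `comp_affine` kept).
-/

set_option autoImplicit false

noncomputable section

namespace Fermat.Agent.S24

open UpperHalfPlane
open scoped MatrixGroups Manifold

namespace HasUExp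

variable {N : ℕ} {f : ℍ → ℂ} {c : LaurentSeries ℂ}

/-- From a power-series expansion of `f * q` in `q` to the expansion of `f`
(the shape of `jAn_hasSum`). -/
theorem of_hasSum_mul_q {a : ℕ → ℂ}
    (h : ∀ τ : ℍ, HasSum (fun n : ℕ => a n * Function.Periodic.qParam 1 (τ : ℂ) ^ n)
      (f τ * Function.Periodic.qParam 1 (τ : ℂ))) :
    HasUExp 1 f (HahnSeries.single (-1 : ℤ) (1 : ℂ) *
      HahnSeries.ofPowerSeries ℤ ℂ (PowerSeries.mk a)) := by
  intro τ
  have hu : uPar 1 τ = Function.Periodic.qParam 1 (τ : ℂ) := by simp [uPar]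
  rw [hu]
  have hq0 : Function.Periodic.qParam 1 (τ : ℂ) ≠ 0 := Function.Periodic.qParam_ne_zero _
  have hc : ∀ m : ℤ, (HahnSeries.single (-1 : ℤ) (1 : ℂ) *
      HahnSeries.ofPowerSeries ℤ ℂ (PowerSeries.mk a)).coeff m
        = if m + 1 < 0 then 0 else a (m + 1).natAbs := by
    intro m
    rw [HahnSeries.coeff_single_mul, one_mul, sub_neg_eq_add, PowerSeries.coeff_coe,
      PowerSeries.coeff_mk]
  have hφ : Function.Injective (fun n : ℕ => (n : ℤ) - 1) := by
    intro n m hnm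
    simpa using hnm
  have h1 := (h τ).mul_right (Function.Periodic.qParam 1 (τ : ℂ))⁻¹
  rw [mul_assoc, mul_inv_cancel₀ hq0, mul_one] at h1
  refine (hφ.hasSum_iff ?_).mp ?_
  · intro m hm
    rw [hc, if_pos, zero_mul]
    by_contra hneg
    apply hm
    refine ⟨(m + 1).natAbs, ?_⟩
    simp only
    omega
  · have hfun : ((fun m : ℤ => (HahnSeries.single (-1 : ℤ) (1 : ℂ) *
        HahnSeries.ofPowerSeries ℤ ℂ (PowerSeries.mk a)).coeff m *
          Function.Periodic.qParam 1 (τ : ℂ) ^ m) ∘ fun n : ℕ => (n : ℤ) - 1)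
        = fun i : ℕ => a i * Function.Periodic.qParam 1 (τ : ℂ) ^ i *
          (Function.Periodic.qParam 1 (τ : ℂ))⁻¹ := by
      funext n
      show (HahnSeries.single (-1 : ℤ) (1 : ℂ) *
        HahnSeries.ofPowerSeries ℤ ℂ (PowerSeries.mk a)).coeff ((n : ℤ) - 1) *
          Function.Periodic.qParam 1 (τ : ℂ) ^ ((n : ℤ) - 1) = _
      rw [hc, if_neg (by omega), zpow_sub₀ hq0, zpow_natCast, zpow_one, div_eq_mul_inv, mul_assoc]
      congr 2
      omega
    rw [hfun]
    exact h1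

/-- Translation `τ ↦ τ + t`, `t ∈ ℤ`, twists the expansion by the root of unity
`exp (2 π i t / N)`. -/
theorem comp_translate [NeZero N] (hf : HasUExp N f c) (t : ℤ) (g : ℍ → ℂ)
    (hg : ∀ τ τ' : ℍ, (τ' : ℂ) = (τ : ℂ) + t → g τ = f τ') :
    HasUExp N g (twist (Complex.exp (2 * Real.pi * Complex.I * t / N)) c) := by
  intro τ
  have hcoe : ((((t : ℝ) +ᵥ τ : ℍ)) : ℂ) = (τ : ℂ) + t := by
    rw [UpperHalfPlane.coe_vadd]
    push_cast
    ring
  rw [hg τ ((t : ℝ) +ᵥ τ) hcoe]
  have h1 := hf ((t : ℝ) +ᵥ τ)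
  have hu : uPar N ((t : ℝ) +ᵥ τ)
      = uPar N τ * Complex.exp (2 * Real.pi * Complex.I * t / N) := by
    unfold uPar Function.Periodic.qParam
    rw [hcoe, ← Complex.exp_add]
    congr 1
    push_cast
    ring
  have hfun : (fun n : ℤ => (twist (Complex.exp (2 * Real.pi * Complex.I * t / N)) c).coeff n
      * uPar N τ ^ n) = fun n : ℤ => c.coeff n * uPar N ((t : ℝ) +ᵥ τ) ^ n := by
    funext n
    rw [twist_coeff, hu, mul_zpow]
    ring
  rw [hfun]
  exact h1

/-- The Laurent series `∑ cₙ zⁿ X^(M n)` (helper for `comp_affine`). -/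
def affineSeries (M : ℕ) (hM : 0 < M) (z : ℂ) (c : LaurentSeries ℂ) : LaurentSeries ℂ :=
  HahnSeries.ofSuppBddBelow
    (fun m : ℤ => if (M : ℤ) ∣ m then z ^ (m / M) * c.coeff (m / M) else 0) (by
      refine ⟨(M : ℤ) * c.order, fun m hm => ?_⟩
      rw [Function.mem_support] at hm
      by_cases hdiv : (M : ℤ) ∣ m
      · rw [if_pos hdiv] at hm
        have hc : c.coeff (m / M) ≠ 0 := fun h0 => hm (by rw [h0, mul_zero])
        have hle : c.order ≤ m / M := HahnSeries.order_le_of_coeff_ne_zero hc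
        obtain ⟨k, rfl⟩ := hdiv
        have hM' : (M : ℤ) ≠ 0 := by exact_mod_cast hM.ne'
        rw [Int.mul_ediv_cancel_left _ hM'] at hle
        exact mul_le_mul_of_nonneg_left hle (by positivity)
      · rw [if_neg hdiv] at hm
        exact absurd rfl hm)

theorem affineSeries_coeff (M : ℕ) (hM : 0 < M) (z : ℂ) (c : LaurentSeries ℂ) (m : ℤ) :
    (affineSeries M hM z c).coeff m
      = if (M : ℤ) ∣ m then z ^ (m / M) * c.coeff (m / M) else 0 := rfl

theorem affineSeries_coeff_mul (M : ℕ) (hM : 0 < M) (z : ℂ) (c : LaurentSeries ℂ) (n : ℤ) :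
    (affineSeries M hM z c).coeff ((M : ℤ) * n) = z ^ n * c.coeff n := by
  have hM' : (M : ℤ) ≠ 0 := by exact_mod_cast hM.ne'
  rw [affineSeries_coeff, if_pos (dvd_mul_right _ _), Int.mul_ediv_cancel_left _ hM']

/-- Substitution `τ ↦ (a τ + b) / d` in a `q`-expansion (`a, d > 0`, `d ∣ N`):
`∑ cₙ qⁿ ↦ ∑ cₙ exp (2 π i b n / d) u ^ (n * (N / d * a))`. -/
theorem comp_affine [NeZero N] (hf : HasUExp 1 f c) (a d : ℕ) (b : ℤ) (ha : 0 < a) (hd : 0 < d)
    (hdN : d ∣ N) (g : ℍ → ℂ)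
    (hg : ∀ τ τ' : ℍ, (τ' : ℂ) = ((a : ℂ) * τ + b) / d → g τ = f τ') :
    ∃ c' : LaurentSeries ℂ, HasUExp N g c' ∧
      (∀ n : ℤ, c'.coeff (((N / d * a : ℕ) : ℤ) * n)
        = Complex.exp (2 * Real.pi * Complex.I * b / d) ^ n * c.coeff n) ∧
      (∀ m : ℤ, ¬ (((N / d * a : ℕ) : ℤ) ∣ m) → c'.coeff m = 0) := by
  have hN : 0 < N := Nat.pos_of_ne_zero (NeZero.ne N)
  have hNd : 0 < N / d := Nat.div_pos (Nat.le_of_dvd hN hdN) hd
  have hM : 0 < N / d * a := Nat.mul_pos hNd ha
  have hM' : ((N / d * a : ℕ) : ℤ) ≠ 0 := by exact_mod_cast hM.ne'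
  refine ⟨affineSeries (N / d * a) hM (Complex.exp (2 * Real.pi * Complex.I * b / d)) c, ?_,
    fun n => affineSeries_coeff_mul _ hM _ c n, fun m hm => ?_⟩
  swap
  · rw [affineSeries_coeff, if_neg hm]
  intro τ
  -- the point `τ' = (a τ + b) / d`
  have him : 0 < (((a : ℂ) * τ + b) / d).im := by
    have h1 : (((a : ℂ) * τ + b) / d).im = (a : ℝ) * τ.im / d := by
      have : ((a : ℂ) * τ + b) / d = (((a : ℝ) * (τ : ℂ).re + b) / d : ℝ)
          + (((a : ℝ) * (τ : ℂ).im / d : ℝ) : ℂ) * Complex.I := by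
        apply Complex.ext <;> simp [Complex.div_natCast_re, Complex.div_natCast_im]
      rw [this]
      simp
    rw [h1]
    have := τ.im_pos
    positivity
  let τ' : ℍ := ⟨((a : ℂ) * τ + b) / d, him⟩
  have hτ' : (τ' : ℂ) = ((a : ℂ) * τ + b) / d := rfl
  rw [hg τ τ' hτ']
  have h1 := hf τ'
  have hd0 : (d : ℂ) ≠ 0 := by exact_mod_cast hd.ne'
  have hN0 : (N : ℂ) ≠ 0 := by exact_mod_cast hN.ne'
  have hu : uPar 1 τ' = Complex.exp (2 * Real.pi * Complex.I * b / d)
      * uPar N τ ^ (N / d * a) := by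
    unfold uPar Function.Periodic.qParam
    rw [hτ', ← Complex.exp_nat_mul, ← Complex.exp_add]
    congr 1
    rw [Nat.cast_mul, Nat.cast_div hdN hd0]
    push_cast
    field_simp
    ring
  have hφ : Function.Injective (fun n : ℤ => ((N / d * a : ℕ) : ℤ) * n) := by
    intro n m hnm
    exact mul_left_cancel₀ hM' hnm
  refine (hφ.hasSum_iff ?_).mp ?_
  · intro m hm
    rw [affineSeries_coeff, if_neg, zero_mul]
    rintro ⟨k, rfl⟩
    exact hm ⟨k, rfl⟩
  · have hfun : ((fun m : ℤ =>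
        (affineSeries (N / d * a) hM (Complex.exp (2 * Real.pi * Complex.I * b / d)) c).coeff m
          * uPar N τ ^ m) ∘ fun n : ℤ => ((N / d * a : ℕ) : ℤ) * n)
        = fun n : ℤ => c.coeff n * uPar 1 τ' ^ n := by
      funext n
      show (affineSeries (N / d * a) hM (Complex.exp (2 * Real.pi * Complex.I * b / d)) c).coeff
        (((N / d * a : ℕ) : ℤ) * n) * uPar N τ ^ (((N / d * a : ℕ) : ℤ) * n) = _
      rw [affineSeries_coeff_mul, hu, mul_zpow, zpow_mul, zpow_natCast]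
      ring
    rw [hfun]
    exact h1

end HasUExp

end Fermat.Agent.S24

end
end
-- ==== END Fermat.Agent.S24.Closure.UExpSubst

-- ==== BEGIN Fermat.Agent.S24.H27_JOrd
section

/-!
# S24, analytic layer (AN-jOrd): `jOrd` at `i`, `ρ` and at generic points

* `h27_S_smul_I : S • I = I`, `jAn_I : jAn I = 1728`, `jOrd_I : jOrd I = 2`;
* `h27_ST_smul_rho : (S * T) • ρ = ρ`, `jAn_rho : jAn ρ = 0`, `jOrd_rho : jOrd ρ = 3`
  (`ρ = UpperHalfPlane.ρ = -1/2 + (√3/2) i`);
* `jOrd_eq_one : jAn τ ≠ 0 → jAn τ ≠ 1728 → jOrd τ = 1`.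

The first two lines of facts are proved in `H27_JOrdCore.lean` (which does not depend on
`Closure/Defs.lean`).
-/

set_option autoImplicit false

noncomputable section

open scoped MatrixGroups

namespace Fermat.Agent.S24

open UpperHalfPlane

theorem jOrd_I : jOrd UpperHalfPlane.I = 2 := by
  unfold jOrd
  rw [h27_order_I]
  rfl

theorem jOrd_rho : jOrd ρ = 3 := by
  unfold jOrd
  rw [h27_order_rho]
  rfl

theorem jOrd_eq_one (τ : ℍ) (h0 : jAn τ ≠ 0) (h1 : jAn τ ≠ 1728) : jOrd τ = 1 := by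
  unfold jOrd
  rw [h27_order_generic τ h0 h1]
  rfl

end Fermat.Agent.S24

end
end
-- ==== END Fermat.Agent.S24.H27_JOrd

-- ==== BEGIN Fermat.Agent.S24.H59_FF1d
section

/-!
# S24, FF1d: principal divisors have degree zero (from FF1b, the zeros theorem)

`ff_degree_principal_of` proves the interface statement FF1d from FF1b (taken as a hypothesis
`H59.ZerosStmt K F`, the exact shape of `plan_ff_zeros` quantified over the transcendental
element), FF1a and FF1c: apply FF1b to `f` and to `f⁻¹`, whose zeros are the poles of `f`, and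
`K(f⁻¹) = K(f)`.
-/

set_option autoImplicit false

noncomputable section

open AlgebraicCurve IntermediateField

namespace Fermat.Agent.S24

variable {K F : Type*} [Field K] [Field F] [Algebra K F]

/-- The statement of FF1b (for all transcendental elements). -/
def H59.ZerosStmt (K F : Type*) [Field K] [Field F] [Algebra K F] : Prop :=
  ∀ (x : F), Transcendental K x → ∀ [FiniteDimensional K⟮x⟯ F],
    {v : Place K F | 0 < v.ord x}.Finite ∧
      ∑ᶠ v ∈ {v : Place K F | 0 < v.ord x}, v.ord x = (Module.finrank K⟮x⟯ F : ℤ)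

/-- Constants have order zero at every place. -/
theorem H59.ord_algebraMap_eq_zero' (v : Place K F) (a : K) : v.ord (algebraMap K F a) = 0 := by
  rcases eq_or_ne a 0 with rfl | ha
  · simp
  · have hu : IsUnit (algebraMap K v.toValuationSubring a) := (ha.isUnit).map _
    have := v.ord_coe_unit hu.unit
    simpa using this

/-- `K(f⁻¹) = K(f)`. -/
theorem H59.adjoin_inv_eq (f : F) : K⟮f⁻¹⟯ = K⟮f⟯ := by
  apply le_antisymm
  · rw [adjoin_simple_le_iff]
    exact inv_mem (mem_adjoin_simple_self K f)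
  · rw [adjoin_simple_le_iff]
    have := inv_mem (mem_adjoin_simple_self K f⁻¹)
    rwa [inv_inv] at this

theorem H59.finrank_adjoin_inv (f : F) :
    Module.finrank K⟮f⁻¹⟯ F = Module.finrank K⟮f⟯ F := by
  rw [H59.adjoin_inv_eq]

theorem H59.degree_eq_sum_of_deg_eq_one (hdeg : ∀ v : Place K F, v.deg = 1) (D : Divisor K F) :
    Divisor.degree D = ∑ v ∈ D.support, D v := by
  have h : Divisor.degree D = D.sum fun v n => n * (v.deg : ℤ) := by
    simp [Divisor.degree, Finsupp.liftAddHom_apply]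
  rw [h, Finsupp.sum]
  refine Finset.sum_congr rfl fun v _ => ?_
  rw [hdeg v, Nat.cast_one, mul_one]

variable [IsAlgClosed K]

/-- FF1d from FF1b: principal divisors have degree zero. -/
theorem ff_degree_principal_of (hzeros : H59.ZerosStmt K F)
    (x : F) (hx : Transcendental K x) [FiniteDimensional K⟮x⟯ F]
    (f : F) (_hf : f ≠ 0) :
    {v : Place K F | v.ord f ≠ 0}.Finite ∧
      ∀ D : Divisor K F, (∀ v, D v = v.ord f) → Divisor.degree D = 0 := by
  classical
  by_cases halg : IsAlgebraic K f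
  · -- constants
    have hint : IsIntegral K f := halg.isIntegral
    have hdeg1 : (minpoly K f).degree = 1 :=
      IsAlgClosed.degree_eq_one_of_irreducible K (minpoly.irreducible hint)
    obtain ⟨a, ha⟩ := minpoly.mem_range_of_degree_eq_one K f hdeg1
    have hord : ∀ v : Place K F, v.ord f = 0 := fun v => by
      rw [← ha]; exact H59.ord_algebraMap_eq_zero' v a
    refine ⟨?_, fun D hD => ?_⟩
    · have : {v : Place K F | v.ord f ≠ 0} = ∅ := by
        ext v
        simp [hord v]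
      rw [this]
      exact Set.finite_empty
    · have : D = 0 := by
        ext v
        rw [hD v, hord v]
        rfl
      rw [this, map_zero]
  · -- non-constant `f`
    have htr : Transcendental K f := halg
    have htr' : Transcendental K f⁻¹ := fun h => halg (IsAlgebraic.inv_iff.mp h)
    haveI := ff_finite_of_transcendental x hx f htr
    haveI := ff_finite_of_transcendental x hx f⁻¹ htr'
    obtain ⟨hZfin, hZsum⟩ := hzeros f htr
    obtain ⟨hPfin, hPsum⟩ := hzeros f⁻¹ htr'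
    rw [H59.finrank_adjoin_inv] at hPsum
    have hset : {v : Place K F | v.ord f ≠ 0}
        = {v : Place K F | 0 < v.ord f} ∪ {v : Place K F | 0 < v.ord f⁻¹} := by
      ext v
      simp only [Set.mem_setOf_eq, Set.mem_union, Place.ord_inv]
      omega
    refine ⟨by rw [hset]; exact hZfin.union hPfin, fun D hD => ?_⟩
    rw [H59.degree_eq_sum_of_deg_eq_one (fun v => ff_deg_eq_one x hx v) D]
    rw [finsum_mem_eq_finite_toFinset_sum _ hZfin] at hZsum
    rw [finsum_mem_eq_finite_toFinset_sum _ hPfin] at hPsum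
    have hsupp : D.support = hZfin.toFinset ∪ hPfin.toFinset := by
      ext v
      simp only [Finsupp.mem_support_iff, Finset.mem_union, Set.Finite.mem_toFinset,
        Set.mem_setOf_eq, hD v, Place.ord_inv]
      omega
    have hdisj : Disjoint hZfin.toFinset hPfin.toFinset := by
      rw [Finset.disjoint_left]
      intro v hv hv'
      simp only [Set.Finite.mem_toFinset, Set.mem_setOf_eq, Place.ord_inv] at hv hv'
      omega
    rw [hsupp, Finset.sum_union hdisj]
    have h1 : ∑ v ∈ hZfin.toFinset, D v = (Module.finrank K⟮f⟯ F : ℤ) := by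
      rw [← hZsum]
      exact Finset.sum_congr rfl fun v _ => hD v
    have h2 : ∑ v ∈ hPfin.toFinset, D v = -(Module.finrank K⟮f⟯ F : ℤ) := by
      rw [← hPsum, ← Finset.sum_neg_distrib]
      refine Finset.sum_congr rfl fun v _ => ?_
      rw [hD v, Place.ord_inv, neg_neg]
    rw [h1, h2, add_neg_cancel]

end Fermat.Agent.S24

end
end
-- ==== END Fermat.Agent.S24.H59_FF1d

-- ==== BEGIN Fermat.Agent.S24.H59_FF2de
section

/-!
# S24, FF2d / FF2e (exact interface statements) and FF1a / FF1c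

Assembles `H59_OrdDifferential` (the local computation) with helper17's FF2a / FF2b.
-/

set_option autoImplicit false
set_option linter.style.haveILetI false

noncomputable section

open AlgebraicCurve KaehlerDifferential IntermediateField

namespace Fermat.Agent.S24

variable {K F : Type*} [Field K] [Field F] [Algebra K F] [IsAlgClosed K] [CharZero K]

omit [IsAlgClosed K] [CharZero K] in
/-- FF1c (general form). For non-constant `f`, `F / K(f)` is again finite. -/
theorem H59.finite_of_transcendental (x : F) [FiniteDimensional K⟮x⟯ F]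
    (f : F) (hf : Transcendental K f) : FiniteDimensional K⟮f⟯ F := by
  haveI : Algebra.IsAlgebraic K⟮x⟯ F := Algebra.IsAlgebraic.of_finite _ _
  haveI := H17.isAlgebraic_adjoin_of_transcendental x f hf
  haveI : Algebra.EssFiniteType K K⟮x⟯ :=
    IntermediateField.essFiniteType_iff.mpr ⟨{x}, by simp⟩
  haveI : Algebra.EssFiniteType K F := Algebra.EssFiniteType.comp K K⟮x⟯ F
  haveI : Algebra.EssFiniteType K⟮f⟯ F := Algebra.EssFiniteType.of_comp K K⟮f⟯ F
  exact Algebra.finite_of_essFiniteType_of_isAlgebraic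

/-- FF1a (general form). Every place has degree one. -/
theorem H59.ff_deg_eq_one' (x : F) [FiniteDimensional K⟮x⟯ F] (v : Place K F) : v.deg = 1 :=
  ff_deg_eq_one_of (fun f hf => H59.finite_of_transcendental x f hf) v

/-- FF2d. At a zero of `y - a` of order `e`: `ord_v (dy) = e - 1`. -/
theorem ff_ordDifferential_zero (x : F) (hx : Transcendental K x) [FiniteDimensional K⟮x⟯ F]
    (v : Place K F) (y : F) (a : K) (hy : 0 < v.ord (y - algebraMap K F a)) :
    v.ordDifferential (D K F y) = v.ord (y - algebraMap K F a) - 1 :=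
  ff_ordDifferential_zero_of (fun f hf => H59.finite_of_transcendental x f hf)
    (fun y hy ω => ff_omega_span x hx y hy ω) (fun y hy => ff_D_ne_zero x hx y hy) v y a hy

/-- FF2e. At a pole of `y`: `ord_v (dy) = ord_v y - 1`. -/
theorem ff_ordDifferential_pole (x : F) (hx : Transcendental K x) [FiniteDimensional K⟮x⟯ F]
    (v : Place K F) (y : F) (hy : v.ord y < 0) :
    v.ordDifferential (D K F y) = v.ord y - 1 :=
  ff_ordDifferential_pole_of (fun f hf => H59.finite_of_transcendental x f hf)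
    (fun y hy ω => ff_omega_span x hx y hy ω) (fun y hy => ff_D_ne_zero x hx y hy) v y hy

end Fermat.Agent.S24

end
end
-- ==== END Fermat.Agent.S24.H59_FF2de

-- ==== BEGIN Fermat.Agent.S24.H72_FF1b
section

/-!
# S24, piece FF1b (helper72): the zeros of a non-constant function.

`K` algebraically closed of characteristic zero, `x : F` transcendental over `K`,
`F / K(x)` finite.  Then `x` has finitely many zeros and their orders sum to `[F : K(x)]`.

The proof is the fundamental identity `∑ e f = n` for the integral closure `B` of `K[x]` in `F`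
at the prime `(x)` of `K[x]`, together with the dictionary between the places of `F / K`
containing `B` and the height-one primes of `B`.  The core statement `h72_zeros_abstract` is
proved for an abstract principal ideal domain `A = K[t]` with fraction field `E` and an abstract
Dedekind domain `B`, finite over `A`, with fraction field `F`.
-/

set_option autoImplicit false
set_option linter.unusedSectionVars false
set_option linter.deprecated false

noncomputable section

open AlgebraicCurve IntermediateField Polynomial IsDedekindDomain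

namespace Fermat.Agent.S24

section Abstract

variable {K F : Type*} [Field K] [Field F] [Algebra K F]
variable (A : Type*) [CommRing A] [IsDomain A] [IsPrincipalIdealRing A]
variable (E : Type*) [Field E]
variable [Algebra K A] [Algebra A E] [IsFractionRing A E]
variable [Algebra A F] [Algebra E F] [IsScalarTower A E F] [IsScalarTower K A F]
variable [FiniteDimensional E F] [Algebra.IsSeparable E F]
variable (t : A) (ht : Prime t)
variable (hconst : ∀ a : A, ∃ c : K, a - algebraMap K A c ∈ Ideal.span {t})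


include ht in
theorem h72a_p_ne_bot : Ideal.span {t} ≠ (⊥ : Ideal A) := by
  rw [Ne, Ideal.span_singleton_eq_bot]
  exact ht.ne_zero

include ht in
theorem h72a_p_isPrime : (Ideal.span {t} : Ideal A).IsPrime :=
  (Ideal.span_singleton_prime ht.ne_zero).mpr ht

include ht in
theorem h72a_p_isMaximal : (Ideal.span {t} : Ideal A).IsMaximal :=
  (h72a_p_isPrime A t ht).isMaximal (h72a_p_ne_bot A t ht)

include ht in
theorem h72a_inertiaDeg_eq_one [IsAlgClosed K]
    (hconst : ∀ a : A, ∃ c : K, a - algebraMap K A c ∈ Ideal.span {t})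
    (B : Type*) [CommRing B] [Algebra A B] [Algebra.IsIntegral A B]
    (P : Ideal B) [P.IsPrime] [P.LiesOver (Ideal.span {t})] :
    Ideal.inertiaDeg' (Ideal.span {t}) P = 1 := by
  rw [Ideal.inertiaDeg'_algebraMap]
  let f : K →+* (A ⧸ (Ideal.span {t} : Ideal A)) :=
    (Ideal.Quotient.mk (Ideal.span {t})).comp (algebraMap K A)
  have hf : Function.Surjective f := by
    intro a
    obtain ⟨a, rfl⟩ := Ideal.Quotient.mk_surjective a
    obtain ⟨c, hc⟩ := hconst a
    refine ⟨c, ?_⟩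
    rw [RingHom.comp_apply]
    exact (Ideal.Quotient.eq.mpr hc).symm
  let g : (A ⧸ (Ideal.span {t} : Ideal A)) →+* (B ⧸ P) :=
    algebraMap (A ⧸ (Ideal.span {t} : Ideal A)) (B ⧸ P)
  have hg : g.IsIntegral := Algebra.IsIntegral.isIntegral
  have hgf : (g.comp f).IsIntegral :=
    RingHom.IsIntegral.trans f g (RingHom.isIntegral_of_surjective f hf) hg
  have hbij : Function.Bijective (g.comp f) :=
    IsAlgClosed.ringHom_bijective_of_isIntegral (g.comp f) hgf
  have hgbij : Function.Bijective g := by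
    refine ⟨?_, ?_⟩
    · intro a b hab
      obtain ⟨a', rfl⟩ := hf a
      obtain ⟨b', rfl⟩ := hf b
      exact congrArg f (hbij.1 hab)
    · intro y
      obtain ⟨c, hc⟩ := hbij.2 y
      exact ⟨f c, hc⟩
  have : Nontrivial (A ⧸ (Ideal.span {t} : Ideal A)) :=
    Ideal.Quotient.nontrivial_iff.mpr (h72a_p_isPrime A t ht).ne_top
  exact Module.finrank_of_bijective_algebraMap hgbij

end Abstract

section Dict2

open WithZero

variable {K F : Type*} [Field K] [Field F] [Algebra K F]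
variable (B : Type*) [CommRing B] [IsDedekindDomain B] [Algebra B F] [IsFractionRing B F]
variable [Algebra K B] [IsScalarTower K B F]

/-- `ord` at the place of a height-one prime, on elements of `B`. -/
theorem h72_ord_algebraMap (w : HeightOneSpectrum B) (b : B) (hb : b ≠ 0) :
    (Place.ofHeightOneSpectrum (K := K) (F := F) w).ord (algebraMap B F b)
      = -(WithZero.log (w.intValuation b)) := by
  have hbF : algebraMap B F b ≠ 0 := by
    rwa [Ne, map_eq_zero_iff _ (IsFractionRing.injective B F)]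
  rw [ord_ofHeightOneSpectrum (K := K) w hbF, HeightOneSpectrum.valuation_of_algebraMap]

theorem h72_ord_pos_iff (w : HeightOneSpectrum B) (b : B) (hb : b ≠ 0) :
    0 < (Place.ofHeightOneSpectrum (K := K) (F := F) w).ord (algebraMap B F b)
      ↔ b ∈ w.asIdeal := by
  rw [h72_ord_algebraMap B w b hb, ← HeightOneSpectrum.intValuation_lt_one_iff_mem,
    neg_pos, WithZero.log_lt_iff_lt_exp (w.intValuation_ne_zero b hb), exp_zero]

theorem h72_ord_eq_multiplicity (w : HeightOneSpectrum B) (b : B) (hb : b ≠ 0) :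
    (Place.ofHeightOneSpectrum (K := K) (F := F) w).ord (algebraMap B F b)
      = (multiplicity w.asIdeal (Ideal.span {b}) : ℤ) := by
  rw [h72_ord_algebraMap B w b hb, HeightOneSpectrum.intValuation_eq_exp_neg_multiplicity w hb,
    log_exp, neg_neg]

theorem h72_ofHeightOneSpectrum_injective :
    Function.Injective (Place.ofHeightOneSpectrum (K := K) (F := F) (R := B)) := by
  intro w₁ w₂ h
  have h1 : (w₁.valuation F).valuationSubring = (w₂.valuation F).valuationSubring :=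
    congrArg Place.toValuationSubring h
  exact HeightOneSpectrum.eq_of_valuation_isEquiv_valuation
    ((Valuation.isEquiv_iff_valuationSubring _ _).mpr h1)

end Dict2

section Main

variable {K F : Type*} [Field K] [Field F] [Algebra K F]

theorem h72_mem_of_ord_nonneg (v : Place K F) {f : F} (h : 0 ≤ v.ord f) :
    f ∈ v.toValuationSubring := by
  rcases eq_or_ne f 0 with rfl | hf
  · exact v.toValuationSubring.zero_mem
  obtain ⟨π, hπ⟩ := IsDiscreteValuationRing.exists_irreducible v.toValuationSubring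
  obtain ⟨u, hu⟩ := v.exists_unit_mul_zpow hf hπ
  obtain ⟨n, hn⟩ := Int.eq_ofNat_of_zero_le h
  rw [hu, hn, zpow_natCast]
  exact v.toValuationSubring.mul_mem _ _ (Subtype.mem _)
    (v.toValuationSubring.pow_mem (Subtype.mem _) n)

variable (A : Type*) [CommRing A] [IsDomain A] [IsPrincipalIdealRing A]
variable (E : Type*) [Field E]
variable [Algebra K A] [Algebra A E] [IsFractionRing A E]
variable [Algebra A F] [Algebra E F] [IsScalarTower A E F] [IsScalarTower K A F]
variable (B : Type*) [CommRing B] [IsDedekindDomain B] [Algebra A B] [Module.Finite A B]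
variable [Algebra B F] [IsFractionRing B F] [IsScalarTower A B F]
variable [Algebra K B] [IsScalarTower K B F]
variable (t : A) (ht : Prime t) (hgen : Algebra.adjoin K {t} = ⊤)

include hgen in
/-- If `t ∈ O_v` then `A = K[t] ⊆ O_v`. -/
theorem h72_A_le (v : Place K F) (hv : algebraMap A F t ∈ v.toValuationSubring) (a : A) :
    algebraMap A F a ∈ v.toValuationSubring := by
  have ha : a ∈ Algebra.adjoin K {t} := by rw [hgen]; exact Algebra.mem_top
  induction ha using Algebra.adjoin_induction with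
  | mem x hx =>
    rw [Set.mem_singleton_iff] at hx
    rw [hx]; exact hv
  | algebraMap r =>
    rw [← IsScalarTower.algebraMap_apply K A F]
    exact v.algebraMap_mem' r
  | add x y _ _ hx hy =>
    rw [map_add]; exact v.toValuationSubring.add_mem _ _ hx hy
  | mul x y _ _ hx hy =>
    rw [map_mul]; exact v.toValuationSubring.mul_mem _ _ hx hy

include hgen in
/-- If `t ∈ O_v` then `B ⊆ O_v`. -/
theorem h72_B_le (v : Place K F) (hv : algebraMap A F t ∈ v.toValuationSubring) (b : B) :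
    algebraMap B F b ∈ v.toValuationSubring := by
  have hb : IsIntegral A b := Algebra.IsIntegral.isIntegral b
  let φ : A →+* v.toValuationSubring :=
    (algebraMap A F).codRestrict v.toValuationSubring.toSubring (h72_A_le A t hgen v hv)
  have hb' : IsIntegral v.toValuationSubring (algebraMap B F b) :=
    IsIntegral.map_of_comp_eq φ (algebraMap B F)
      (by ext a; exact IsScalarTower.algebraMap_apply A B F a) hb
  obtain ⟨y, hy⟩ := IsIntegrallyClosed.isIntegral_iff.mp hb'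
  rw [← hy]
  exact y.2

include hgen in
theorem h72a_hconst (a : A) : ∃ c : K, a - algebraMap K A c ∈ Ideal.span {t} := by
  have ha : a ∈ Algebra.adjoin K {t} := by rw [hgen]; exact Algebra.mem_top
  rw [Algebra.adjoin_singleton_eq_range_aeval] at ha
  obtain ⟨q, rfl⟩ := ha
  refine ⟨q.coeff 0, ?_⟩
  have h1 : (X : K[X]) ∣ q - C (q.coeff 0) := by
    rw [Polynomial.X_dvd_iff]; simp
  obtain ⟨r, hr⟩ := h1
  have h2 : (Polynomial.aeval t) q - algebraMap K A (q.coeff 0) = t * Polynomial.aeval t r := by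
    have := congrArg (Polynomial.aeval t) hr
    rw [map_sub, map_mul, Polynomial.aeval_X, Polynomial.aeval_C] at this
    exact this
  show (Polynomial.aeval t) q - algebraMap K A (q.coeff 0) ∈ Ideal.span {t}
  rw [h2]
  exact Ideal.mul_mem_right _ _ (Ideal.subset_span rfl)

end Main

section Main2

theorem h72_zeros_abstract
    {K F : Type*} [Field K] [Field F] [Algebra K F] [IsAlgClosed K]
    (A : Type*) [CommRing A] [IsDomain A] [IsPrincipalIdealRing A]
    (E : Type*) [Field E]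
    [Algebra K A] [Algebra A E] [IsFractionRing A E]
    [Algebra A F] [Algebra E F] [IsScalarTower A E F] [IsScalarTower K A F]
    (B : Type*) [CommRing B] [IsDedekindDomain B] [Algebra A B] [Module.Finite A B]
    [Algebra B F] [IsFractionRing B F] [IsScalarTower A B F]
    [Algebra K B] [IsScalarTower K B F]
    (t : A) (ht : Prime t) (hgen : Algebra.adjoin K {t} = ⊤) :
    {v : Place K F | 0 < v.ord (algebraMap A F t)}.Finite ∧
      ∑ᶠ v ∈ {v : Place K F | 0 < v.ord (algebraMap A F t)}, v.ord (algebraMap A F t)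
        = (Module.finrank E F : ℤ) := by
  classical
  have hp0 : (Ideal.span {t} : Ideal A) ≠ ⊥ := h72a_p_ne_bot A t ht
  have hpmax : (Ideal.span {t} : Ideal A).IsMaximal := h72a_p_isMaximal A t ht
  have htF : algebraMap A F t = algebraMap B F (algebraMap A B t) :=
    IsScalarTower.algebraMap_apply A B F t
  have hinjAF : Function.Injective (algebraMap A F) := by
    rw [IsScalarTower.algebraMap_eq A E F]
    exact (algebraMap E F).injective.comp (IsFractionRing.injective A E)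
  have hinjAB : Function.Injective (algebraMap A B) := by
    intro a b hab
    apply hinjAF
    rw [IsScalarTower.algebraMap_apply A B F, IsScalarTower.algebraMap_apply A B F, hab]
  have htB0 : algebraMap A B t ≠ 0 := by
    intro h
    exact ht.ne_zero (hinjAB (by rw [h, map_zero]))
  have hmap : Ideal.map (algebraMap A B) (Ideal.span {t}) = Ideal.span {algebraMap A B t} := by
    rw [Ideal.map_span, Set.image_singleton]
  have hmap0 : Ideal.map (algebraMap A B) (Ideal.span {t}) ≠ ⊥ := by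
    rw [hmap, Ne, Ideal.span_singleton_eq_bot]; exact htB0
  have hfaith : FaithfulSMul A B := (faithfulSMul_iff_algebraMap_injective A B).mpr hinjAB
  have htf : Module.IsTorsionFree A B := inferInstance
  have key := Ideal.sum_ramification_inertia B E F hp0
  -- the set of height-one primes containing `t`
  set W : Set (HeightOneSpectrum B) := {w | algebraMap A B t ∈ w.asIdeal} with hW
  have hΦ : Set.BijOn (Place.ofHeightOneSpectrum (K := K) (F := F) (R := B)) W
      {v | 0 < v.ord (algebraMap A F t)} := by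
    refine ⟨?_, (h72_ofHeightOneSpectrum_injective B).injOn, ?_⟩
    · intro w hw
      show 0 < (Place.ofHeightOneSpectrum w).ord (algebraMap A F t)
      rw [htF, h72_ord_pos_iff B w _ htB0]
      exact hw
    · intro v hv
      have hvt : algebraMap A F t ∈ v.toValuationSubring :=
        h72_mem_of_ord_nonneg v (le_of_lt hv)
      obtain ⟨w, hw⟩ := exists_heightOneSpectrum_of_le v (h72_B_le A B t hgen v hvt)
      have hvw : Place.ofHeightOneSpectrum (K := K) (F := F) w = v := Place.ext hw.symm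
      refine ⟨w, ?_, hvw⟩
      have h1 : 0 < (Place.ofHeightOneSpectrum (K := K) (F := F) w).ord
          (algebraMap B F (algebraMap A B t)) := by
        rw [hvw, ← htF]; exact hv
      exact (h72_ord_pos_iff B w _ htB0).mp h1
  have hΨ : Set.BijOn HeightOneSpectrum.asIdeal W
      (↑(IsDedekindDomain.primesOverFinset (Ideal.span {t}) B) : Set (Ideal B)) := by
    rw [IsDedekindDomain.coe_primesOverFinset hp0 B]
    refine ⟨?_, ?_, ?_⟩
    · intro w hw
      refine ⟨w.isPrime, ⟨?_⟩⟩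
      refine hpmax.eq_of_le ?_ ?_
      · exact (Ideal.comap_ne_top _ w.isPrime.ne_top)
      · rw [Ideal.span_le, Set.singleton_subset_iff]
        exact hw
    · intro w₁ _ w₂ _ h
      exact HeightOneSpectrum.ext h
    · intro P hP
      have hPne : P ≠ ⊥ := Ideal.ne_bot_of_mem_primesOver hp0 hP
      obtain ⟨hPprime, hPlies⟩ := hP
      refine ⟨⟨P, hPprime, hPne⟩, ?_, rfl⟩
      show algebraMap A B t ∈ P
      have : t ∈ P.under A := by
        rw [← hPlies.over]; exact Ideal.subset_span rfl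
      exact this
  have hord : ∀ w ∈ W, (Place.ofHeightOneSpectrum (K := K) (F := F) w).ord (algebraMap A F t)
      = ((Ideal.ramificationIdx' (Ideal.span {t}) w.asIdeal
          * Ideal.inertiaDeg' (Ideal.span {t}) w.asIdeal : ℕ) : ℤ) := by
    intro w hw
    have hmem := hΨ.mapsTo hw
    rw [Finset.mem_coe, IsDedekindDomain.mem_primesOverFinset_iff hp0 B] at hmem
    have := hmem.1
    have := hmem.2
    rw [h72a_inertiaDeg_eq_one A t ht (h72a_hconst A t hgen) B w.asIdeal, mul_one,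
      Ideal.IsDedekindDomain.ramificationIdx'_eq_multiplicity hmap0 w.isPrime, hmap, htF,
      h72_ord_eq_multiplicity B w _ htB0]
  have hWfin : W.Finite := by
    have := (IsDedekindDomain.primesOverFinset (Ideal.span {t}) B).finite_toSet
    exact (Set.BijOn.finite_iff_finite hΨ).mpr this
  refine ⟨(Set.BijOn.finite_iff_finite hΦ).mp hWfin, ?_⟩
  rw [← finsum_mem_eq_of_bijOn (Place.ofHeightOneSpectrum (K := K) (F := F) (R := B)) hΦ
    (f := fun w => (Place.ofHeightOneSpectrum (K := K) (F := F) w).ord (algebraMap A F t))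
    (fun w _ => rfl)]
  rw [finsum_mem_congr rfl hord]
  rw [finsum_mem_eq_of_bijOn HeightOneSpectrum.asIdeal hΨ
    (g := fun P => ((Ideal.ramificationIdx' (Ideal.span {t}) P
          * Ideal.inertiaDeg' (Ideal.span {t}) P : ℕ) : ℤ)) (fun w _ => rfl)]
  rw [finsum_mem_coe_finset, ← Nat.cast_sum, key]

end Main2

section Concrete

open scoped IntermediateField.algebraAdjoinAdjoin

variable {K F : Type*} [Field K] [Field F] [Algebra K F]

/-- FF1b. Zeros of `x`: finitely many, and the orders sum to `[F : K(x)]`. -/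
theorem ff_zeros [IsAlgClosed K] [CharZero K] (x : F) (hx : Transcendental K x)
    [FiniteDimensional K⟮x⟯ F] :
    {v : Place K F | 0 < v.ord x}.Finite ∧
      ∑ᶠ v ∈ {v : Place K F | 0 < v.ord x}, v.ord x = (Module.finrank K⟮x⟯ F : ℤ) := by
  have hPID : IsPrincipalIdealRing (Algebra.adjoin K {x}) :=
    IsPrincipalIdealRing.of_surjective
      (Polynomial.algEquivOfTranscendental K x hx).toRingEquiv.toRingHom
      (Polynomial.algEquivOfTranscendental K x hx).surjective
  have hprime : Prime (⟨x, Algebra.self_mem_adjoin_singleton K x⟩ : Algebra.adjoin K {x}) := by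
    have h := (MulEquiv.prime_iff (p := (X : K[X]))
      (Polynomial.algEquivOfTranscendental K x hx)).mpr (Polynomial.prime_X (R := K))
    rwa [Polynomial.algEquivOfTranscendental_apply_X] at h
  have hDed : IsDedekindDomain (integralClosure (Algebra.adjoin K {x}) F) :=
    integralClosure.isDedekindDomain (Algebra.adjoin K {x}) K⟮x⟯ F
  have hfin : Module.Finite (Algebra.adjoin K {x}) (integralClosure (Algebra.adjoin K {x}) F) :=
    IsIntegralClosure.finite (Algebra.adjoin K {x}) K⟮x⟯ F _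
  have hfrac : IsFractionRing (integralClosure (Algebra.adjoin K {x}) F) F :=
    integralClosure.isFractionRing_of_finite_extension K⟮x⟯ F
  have hgen : Algebra.adjoin K {(⟨x, Algebra.self_mem_adjoin_singleton K x⟩ : Algebra.adjoin K {x})}
      = ⊤ := by
    have h := Algebra.adjoin_adjoin_coe_preimage (R := K) (s := ({x} : Set F))
    have h2 : ((↑) : Algebra.adjoin K ({x} : Set F) → F) ⁻¹' {x}
        = {(⟨x, Algebra.self_mem_adjoin_singleton K x⟩ : Algebra.adjoin K {x})} := by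
      ext y
      simp only [Set.mem_preimage, Set.mem_singleton_iff]
      exact ⟨fun hy => Subtype.ext hy, fun hy => congrArg Subtype.val hy⟩
    rwa [h2] at h
  exact h72_zeros_abstract (Algebra.adjoin K {x}) K⟮x⟯
    (integralClosure (Algebra.adjoin K {x}) F) ⟨x, Algebra.self_mem_adjoin_singleton K x⟩ hprime hgen

end Concrete

end Fermat.Agent.S24

end
end
-- ==== END Fermat.Agent.S24.H72_FF1b
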