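-- GENERATED (merged mirror, NOTES/tools/trim/merge3_helper67.py): 10 modules of the originals, bodies verbatim.
import Mathlib
import Mathlib.NumberTheory.ModularForms.QExpansion
import Mathlib.NumberTheory.ModularForms.LevelOne.Basic
import Fermat.Prelude.Def_CuspForm_HeckeAlgebra
import Fermat.Prelude.Def_FormalHecke_Eigensystem
import Fermat.Agent.Zm.S35_L01_004
import Fermat.Agent.Zm.S35_L01_005
import Fermat.Agent.Zm.S35_L01_001

-- ==== BEGIN Fermat.Agent.S24.H95_GC2
section

/-!
# S24 GC2 (helper95): abstract Galois count of the zeros of `t`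

Main result: `Fermat.Agent.S24.gc_card_zeros`, the statement `plan_gc_card_zeros` of
`Fermat/Agent/S24/Plan.lean`.

Route: `A = K[X] -> E` (via `X ↦ t`), `B`, `C` the integral closures of `A` in `F`, `L`;
`P = {c ∈ C | w c < 1}` is a prime of `C` over `(X)`; `σ` fixes `P`; the decomposition group of
`P` has `e(P | (X))` elements (residue field `K` algebraically closed); `X ∈ P ^ e` gives
`w t ≤ exp (-e)`, hence `e ≤ orderOf σ` and the decomposition group is `⟨σ⟩`; then GC1
(`gc_card_primesOver`, helper1) and the dictionary places of `F` <-> primes of `B`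
(`FF/Dict.lean`).

Reusable pieces: `h95_valLT` (prime of a valuation), `h95_le_exp_of_mem_pow`,
`h95_mem_of_ord_nonneg`, `h95_mem_valuationSubring_of_isIntegral`, `h95_card_places_eq`,
`h95_card_heightOne_eq_primesOver`, `h95_card_zeros_aux` (same count over any Dedekind `A`).
-/

set_option autoImplicit false

noncomputable section

open WithZero IsDedekindDomain AlgebraicCurve
open scoped Pointwise

namespace Fermat.Agent.S24

section ValIdeal

variable {C L : Type*} [CommRing C] [Field L] [Algebra C L] (w : Valuation L ℤᵐ⁰)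

/-- The elements of `C` whose valuation is at most `exp (-n)`. -/
def h95_valLE (hw : ∀ c : C, w (algebraMap C L c) ≤ 1) (n : ℕ) : Ideal C where
  carrier := {c | w (algebraMap C L c) ≤ exp (-(n : ℤ))}
  zero_mem' := by simp
  add_mem' := by
    intro a b ha hb
    simp only [Set.mem_ofPred_eq, map_add] at ha hb ⊢
    exact (w.map_add _ _).trans (max_le ha hb)
  smul_mem' := by
    intro c x hx
    simp only [Set.mem_ofPred_eq, smul_eq_mul, map_mul] at hx ⊢
    calc w (algebraMap C L c) * w (algebraMap C L x) ≤ 1 * exp (-(n : ℤ)) :=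
          mul_le_mul' (hw c) hx
      _ = exp (-(n : ℤ)) := one_mul _

theorem h95_mem_valLE (hw : ∀ c : C, w (algebraMap C L c) ≤ 1) (n : ℕ) (c : C) :
    c ∈ h95_valLE w hw n ↔ w (algebraMap C L c) ≤ exp (-(n : ℤ)) := Iff.rfl

theorem h95_lt_one_iff_le_exp_neg_one (x : ℤᵐ⁰) : x < 1 ↔ x ≤ exp (-1 : ℤ) := by
  rcases eq_or_ne x 0 with rfl | hx
  · simp
  · rw [← exp_log hx, ← exp_zero, exp_lt_exp, exp_le_exp]
    omega

/-- The elements of `C` whose valuation is less than `1`. -/
def h95_valLT (hw : ∀ c : C, w (algebraMap C L c) ≤ 1) : Ideal C := h95_valLE w hw 1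

theorem h95_mem_valLT (hw : ∀ c : C, w (algebraMap C L c) ≤ 1) (c : C) :
    c ∈ h95_valLT w hw ↔ w (algebraMap C L c) < 1 := by
  rw [h95_valLT, h95_mem_valLE, h95_lt_one_iff_le_exp_neg_one]
  rfl

instance h95_valLT_isPrime (hw : ∀ c : C, w (algebraMap C L c) ≤ 1) :
    (h95_valLT w hw).IsPrime := by
  refine ⟨?_, ?_⟩
  · rw [Ne, Ideal.eq_top_iff_one, h95_mem_valLT]
    simp
  · intro a b hab
    rw [h95_mem_valLT] at hab ⊢
    rw [h95_mem_valLT]
    by_contra hcon
    push Not at hcon
    have ha : w (algebraMap C L a) = 1 := le_antisymm (hw a) hcon.1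
    have hb : w (algebraMap C L b) = 1 := le_antisymm (hw b) hcon.2
    rw [map_mul, map_mul, ha, hb, one_mul] at hab
    exact lt_irrefl _ hab

theorem h95_valLE_mul_le (hw : ∀ c : C, w (algebraMap C L c) ≤ 1) (m n : ℕ) :
    h95_valLE w hw m * h95_valLE w hw n ≤ h95_valLE w hw (m + n) := by
  rw [Ideal.mul_le]
  intro a ha b hb
  rw [h95_mem_valLE] at ha hb ⊢
  rw [map_mul, map_mul]
  calc w (algebraMap C L a) * w (algebraMap C L b)
      ≤ exp (-(m : ℤ)) * exp (-(n : ℤ)) := mul_le_mul' ha hb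
    _ = exp (-((m + n : ℕ) : ℤ)) := by
        rw [← exp_add]
        congr 1
        push_cast
        ring

theorem h95_valLT_pow_le (hw : ∀ c : C, w (algebraMap C L c) ≤ 1) (n : ℕ) :
    h95_valLT w hw ^ n ≤ h95_valLE w hw n := by
  induction n with
  | zero =>
    intro c _
    rw [h95_mem_valLE]
    simpa using hw c
  | succ n ih =>
    rw [pow_succ]
    exact (Ideal.mul_mono ih le_rfl).trans (h95_valLE_mul_le w hw n 1)

/-- Elements of `P ^ n` have valuation at most `exp (-n)`. -/
theorem h95_le_exp_of_mem_pow (hw : ∀ c : C, w (algebraMap C L c) ≤ 1) (n : ℕ) {c : C}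
    (hc : c ∈ h95_valLT w hw ^ n) : w (algebraMap C L c) ≤ exp (-(n : ℤ)) :=
  h95_valLT_pow_le w hw n hc

end ValIdeal

section Grp

theorem h95_stabilizer_eq_zpowers {G X : Type*} [Group G] [Finite G] [MulAction G X] (x : X)
    (σ : G) (hσ : σ • x = x) (hle : Nat.card (MulAction.stabilizer G x) ≤ orderOf σ) :
    MulAction.stabilizer G x = Subgroup.zpowers σ := by
  have h1 : Subgroup.zpowers σ ≤ MulAction.stabilizer G x := by
    rw [Subgroup.zpowers_le]
    exact hσ
  refine (Subgroup.eq_of_le_of_card_ge h1 ?_).symm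
  rw [Nat.card_zpowers]
  exact hle

end Grp

section PlaceMem

variable {K F : Type*} [Field K] [Field F] [Algebra K F]

theorem h95_mem_of_ord_nonneg (v : Place K F) {f : F} (hf : 0 ≤ v.ord f) :
    f ∈ v.toValuationSubring := by
  by_contra hmem
  have hf0 : f ≠ 0 := fun h => hmem (h ▸ v.toValuationSubring.zero_mem)
  have hinv : f⁻¹ ∈ v.toValuationSubring := (v.toValuationSubring.mem_or_inv_mem f).resolve_left hmem
  have hnu : ¬ IsUnit (⟨f⁻¹, hinv⟩ : v.toValuationSubring) := by
    rintro ⟨u, hu⟩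
    apply hmem
    have h2 : ((u : v.toValuationSubring) : F)
        * (((u⁻¹ : v.toValuationSubringˣ) : v.toValuationSubring) : F) = 1 := by
      have := congrArg Subtype.val u.mul_inv
      exact this
    rw [hu] at h2
    have h3 : (((u⁻¹ : v.toValuationSubringˣ) : v.toValuationSubring) : F) = f := by
      have h4 : f⁻¹ * (((u⁻¹ : v.toValuationSubringˣ) : v.toValuationSubring) : F) = 1 := h2
      field_simp at h4
      exact h4
    rw [← h3]
    exact Subtype.mem _
  have h1 : v.adicValuation ((⟨f⁻¹, hinv⟩ : v.toValuationSubring) : F) ≠ 1 :=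
    fun h => hnu ((v.adicValuation_coe_eq_one_iff _).mp h)
  have h2 : v.adicValuation ((⟨f⁻¹, hinv⟩ : v.toValuationSubring) : F) ≤ 1 := by
    rw [v.adicValuation_coe]
    exact HeightOneSpectrum.intValuation_le_one _ _
  have h3 : v.adicValuation f⁻¹ < 1 := lt_of_le_of_ne h2 h1
  have h4 : 0 < v.ord f⁻¹ := by
    have hne : v.adicValuation f⁻¹ ≠ 0 := v.adicValuation_ne_zero (inv_ne_zero hf0)
    rw [Place.ord]
    rw [← exp_log hne, ← exp_zero, exp_lt_exp] at h3
    omega
  rw [v.ord_inv] at h4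
  omega

theorem h95_mem_valuationSubring_of_isIntegral {A : Type*} [CommRing A] [Algebra A F]
    (V : ValuationSubring F) (hA : ∀ a : A, algebraMap A F a ∈ V) {x : F}
    (hx : IsIntegral A x) : x ∈ V := by
  let φ : A →+* V := (algebraMap A F).codRestrict V.toSubring hA
  obtain ⟨p, hp, hpx⟩ := hx
  have hint : IsIntegral V x := by
    refine ⟨p.map φ, hp.map φ, ?_⟩
    rw [Polynomial.eval₂_map]
    exact hpx
  obtain ⟨y, hy⟩ := IsIntegrallyClosed.isIntegral_iff.mp hint
  rw [← hy]
  exact y.2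

end PlaceMem

section Dict2

variable {K F : Type*} [Field K] [Field F] [Algebra K F]
variable {B : Type*} [CommRing B] [IsDedekindDomain B] [Algebra B F] [IsFractionRing B F]
  [Algebra K B] [IsScalarTower K B F]

theorem h95_ofHeightOneSpectrum_injective :
    Function.Injective (Place.ofHeightOneSpectrum (K := K) (F := F) (R := B)) := by
  intro w₁ w₂ h
  have h' : (w₁.valuation F).valuationSubring = (w₂.valuation F).valuationSubring :=
    congrArg Place.toValuationSubring h
  apply HeightOneSpectrum.eq_of_valuation_isEquiv_valuation (K := F)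
  exact (Valuation.isEquiv_iff_valuationSubring _ _).mpr h'

theorem h95_ord_pos_iff (w : HeightOneSpectrum B) {x : B} (hx : x ≠ 0) :
    0 < (Place.ofHeightOneSpectrum (K := K) (F := F) w).ord (algebraMap B F x)
      ↔ x ∈ w.asIdeal := by
  have hxF : algebraMap B F x ≠ 0 := by
    simpa using hx
  have hne : w.valuation F (algebraMap B F x) ≠ 0 := (Valuation.ne_zero_iff _).mpr hxF
  rw [ord_ofHeightOneSpectrum w hxF, ← HeightOneSpectrum.valuation_lt_one_iff_mem (K := F)]
  constructor
  · intro h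
    rw [← exp_log hne, ← exp_zero, exp_lt_exp]
    omega
  · intro h
    rw [← exp_log hne, ← exp_zero, exp_lt_exp] at h
    omega

theorem h95_card_places_eq {x : B} (hx : x ≠ 0)
    (hB : ∀ v : Place K F, 0 < v.ord (algebraMap B F x) →
      ∀ b : B, algebraMap B F b ∈ v.toValuationSubring) :
    Nat.card {v : Place K F // 0 < v.ord (algebraMap B F x)}
      = Nat.card {w : HeightOneSpectrum B // x ∈ w.asIdeal} := by
  symm
  refine Nat.card_congr (Equiv.ofBijective
    (fun w => ⟨Place.ofHeightOneSpectrum (K := K) (F := F) w.1, (h95_ord_pos_iff w.1 hx).mpr w.2⟩)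
    ⟨?_, ?_⟩)
  · rintro ⟨w₁, h₁⟩ ⟨w₂, h₂⟩ h
    have := congrArg Subtype.val h
    exact Subtype.ext (h95_ofHeightOneSpectrum_injective this)
  · rintro ⟨v, hv⟩
    obtain ⟨w, hw⟩ := exists_heightOneSpectrum_of_le v (hB v hv)
    have hvw : v = Place.ofHeightOneSpectrum (K := K) (F := F) w := Place.ext hw
    refine ⟨⟨w, ?_⟩, ?_⟩
    · rw [← h95_ord_pos_iff (K := K) (F := F) w hx, ← hvw]
      exact hv
    · exact Subtype.ext hvw.symm

end Dict2

section PrimesOver

variable {A B : Type*} [CommRing A] [CommRing B] [Algebra A B]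

theorem h95_card_heightOne_eq_primesOver (t : A) [(Ideal.span {t}).IsMaximal]
    (ht : algebraMap A B t ≠ 0) :
    Nat.card {w : HeightOneSpectrum B // algebraMap A B t ∈ w.asIdeal}
      = Nat.card ((Ideal.span {t}).primesOver B) := by
  have hover : ∀ Q : Ideal B, Q.IsPrime → algebraMap A B t ∈ Q → Q.LiesOver (Ideal.span {t}) := by
    intro Q hQ htQ
    refine ⟨?_⟩
    have hle : Ideal.span {t} ≤ Q.under A := by
      rw [Ideal.span_singleton_le_iff_mem]
      exact htQ
    have hne : Q.under A ≠ ⊤ := (Ideal.IsPrime.under A Q).ne_top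
    exact (Ideal.IsMaximal.eq_of_le inferInstance hne hle)
  refine Nat.card_congr
    { toFun := fun w => ⟨w.1.asIdeal, w.1.isPrime, hover _ w.1.isPrime w.2⟩
      invFun := fun Q => ⟨⟨Q.1, Q.2.1, ?_⟩, ?_⟩
      left_inv := fun w => rfl
      right_inv := fun Q => rfl }
  · intro hbot
    have hmem : algebraMap A B t ∈ Q.1 := by
      have := Q.2.2
      have h1 : t ∈ Q.1.under A := by
        rw [← Ideal.over_def Q.1 (Ideal.span {t})]
        exact Ideal.mem_span_singleton_self t
      exact h1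
    rw [hbot, Ideal.mem_bot] at hmem
    exact ht hmem
  · have := Q.2.2
    have h1 : t ∈ Q.1.under A := by
      rw [← Ideal.over_def Q.1 (Ideal.span {t})]
      exact Ideal.mem_span_singleton_self t
    exact h1

end PrimesOver

section Abstract

variable {K A E F L : Type*} [Field K] [IsAlgClosed K] [CharZero K]
    [CommRing A] [IsDedekindDomain A] [Algebra K A]
    [Field E] [Field F] [Field L]
    [Algebra A E] [IsFractionRing A E]
    [Algebra E F] [Algebra E L] [Algebra F L] [IsScalarTower E F L]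
    [Algebra A F] [IsScalarTower A E F] [Algebra A L] [IsScalarTower A E L] [IsScalarTower A F L]
    [Algebra K F] [IsScalarTower K A F]
    [FiniteDimensional E L] [IsGalois E L]

theorem h95_card_zeros_aux
    (t : A) (ht : (Ideal.span {t}).IsMaximal) (ht0 : t ≠ 0)
    (hK : Function.Surjective (algebraMap K (A ⧸ Ideal.span {t})))
    (hplace : ∀ v : Place K F, 0 < v.ord (algebraMap A F t) →
      ∀ a : A, algebraMap A F a ∈ v.toValuationSubring)
    (w : Valuation L ℤᵐ⁰) (hwA : ∀ a : A, w (algebraMap A L a) ≤ 1)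
    (hwt : w (algebraMap A L t) < 1)
    (σ : L ≃ₐ[E] L) (hσ : ∀ y, w (σ y) = w y)
    (hord : exp (-(orderOf σ : ℤ)) ≤ w (algebraMap A L t))
    (H : Subgroup (L ≃ₐ[E] L)) [IsGaloisGroup H F L] :
    Nat.card {v : Place K F // 0 < v.ord (algebraMap A F t)}
      = Nat.card (MulAction.orbitRel.Quotient (Subgroup.zpowers σ) ((L ≃ₐ[E] L) ⧸ H)) := by
  have : CharZero A := charZero_of_injective_algebraMap (algebraMap K A).injective
  have : CharZero E := charZero_of_injective_algebraMap (IsFractionRing.injective A E)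
  have : FiniteDimensional E F := FiniteDimensional.left E F L
  have : Algebra.IsSeparable E F := inferInstance
  let B := integralClosure A F
  let C := integralClosure A L
  have : IsDedekindDomain B := IsIntegralClosure.isDedekindDomain A E F B
  have : IsDedekindDomain C := IsIntegralClosure.isDedekindDomain A E L C
  have : IsFractionRing B F := IsIntegralClosure.isFractionRing_of_finite_extension A E F B
  have : IsFractionRing C L := IsIntegralClosure.isFractionRing_of_finite_extension A E L C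
  have : Module.Finite A C := IsIntegralClosure.finite A E L C
  have : Algebra.IsIntegral A B := IsIntegralClosure.isIntegral_algebra A F
  have : Algebra.IsIntegral A C := IsIntegralClosure.isIntegral_algebra A L
  let i1 : Algebra B L := inferInstance
  have : IsScalarTower B F L := inferInstance
  have : IsScalarTower A B L := inferInstance
  let i2 : Algebra K B := inferInstance
  have : IsScalarTower K B F := inferInstance
  let i3 : Algebra B C := (IsIntegralClosure.lift A C L : B →ₐ[A] C).toRingHom.toAlgebra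
  have : IsScalarTower A B C := by
    refine IsScalarTower.of_algebraMap_eq fun a => ?_
    exact ((IsIntegralClosure.lift A C L : B →ₐ[A] C).commutes a).symm
  have : IsScalarTower B C L := by
    refine IsScalarTower.of_algebraMap_eq fun b => ?_
    exact (IsIntegralClosure.algebraMap_lift A C L b).symm
  have : Algebra.IsIntegral B C := Algebra.IsIntegral.tower_top (R := A)
  let i4 : MulSemiringAction (L ≃ₐ[E] L) C := IsIntegralClosure.MulSemiringAction A E L C
  have : IsGaloisGroup (L ≃ₐ[E] L) A C := IsGaloisGroup.of_isFractionRing _ _ _ E L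
  have hGH : IsGaloisGroup H B C := IsGaloisGroup.of_isFractionRing H B C F L
  have hAL : Function.Injective (algebraMap A L) := by
    rw [IsScalarTower.algebraMap_eq A E L]
    exact (algebraMap E L).injective.comp (IsFractionRing.injective A E)
  have hAC : Function.Injective (algebraMap A C) := by
    intro x y hxy
    apply hAL
    rw [IsScalarTower.algebraMap_apply A C L, IsScalarTower.algebraMap_apply A C L, hxy]
  have : FaithfulSMul A C := (faithfulSMul_iff_algebraMap_injective A C).mpr hAC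
  have : Module.IsTorsionFree A C := inferInstance
  have : Module.Flat A C := inferInstance
  -- injectivity of `B → C`
  have hBC : Function.Injective (algebraMap B C) := by
    intro x y hxy
    have h1 := congrArg (algebraMap C L) hxy
    rw [← IsScalarTower.algebraMap_apply B C L, ← IsScalarTower.algebraMap_apply B C L,
      IsScalarTower.algebraMap_apply B F L, IsScalarTower.algebraMap_apply B F L] at h1
    exact (IsFractionRing.injective B F) ((algebraMap F L).injective h1)
  -- the valuation is `≤ 1` on `C`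
  have hwC : ∀ c : C, w (algebraMap C L c) ≤ 1 := by
    intro c
    have hint : IsIntegral A (algebraMap C L c) :=
      (IsIntegralClosure.isIntegral_iff (A := C)).mpr ⟨c, rfl⟩
    have := h95_mem_valuationSubring_of_isIntegral (A := A) w.valuationSubring
      (fun a => (Valuation.mem_valuationSubring_iff _ _).mpr (hwA a)) hint
    exact (Valuation.mem_valuationSubring_iff _ _).mp this
  -- the prime `P`
  set P : Ideal C := h95_valLT w hwC with hP
  have hPprime : P.IsPrime := h95_valLT_isPrime w hwC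
  set p : Ideal A := Ideal.span {t} with hp
  have htP : algebraMap A C t ∈ P := by
    rw [hP, h95_mem_valLT, ← IsScalarTower.algebraMap_apply A C L]
    exact hwt
  have hPp : P.LiesOver p := by
    refine ⟨?_⟩
    have hle : p ≤ P.under A := by
      rw [hp, Ideal.span_singleton_le_iff_mem]
      exact htP
    exact Ideal.IsMaximal.eq_of_le ht (Ideal.IsPrime.under A P).ne_top hle
  -- `σ` stabilises `P`
  have hsmul : ∀ (g : L ≃ₐ[E] L) (c : C), algebraMap C L (g • c) = g (algebraMap C L c) := by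
    intro g c
    exact algebraMap_galRestrict_apply A g c
  have hσP : σ • P = P := by
    ext c
    rw [Ideal.mem_pointwise_smul_iff_inv_smul_mem, hP, h95_mem_valLT, h95_mem_valLT, hsmul]
    have h1 : w ((σ⁻¹ : L ≃ₐ[E] L) (algebraMap C L c)) = w (algebraMap C L c) := by
      rw [← hσ ((σ⁻¹ : L ≃ₐ[E] L) (algebraMap C L c))]
      congr 1
      exact AlgEquiv.apply_symm_apply σ _
    rw [h1]
  have hσstab : σ ∈ MulAction.stabilizer (L ≃ₐ[E] L) P := hσP
  -- residue fields
  have hpne : p ≠ ⊥ := by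
    rw [hp, Ne, Ideal.span_singleton_eq_bot]
    exact ht0
  have hPmax : P.IsMaximal := by
    have hPne : P ≠ ⊥ := by
      intro hbot
      rw [hbot, Ideal.mem_bot] at htP
      exact ht0 ((FaithfulSMul.algebraMap_injective A C) (htP.trans (map_zero _).symm))
    exact hPprime.isMaximal hPne
  have : PerfectField p.ResidueField := by
    have : CharZero p.ResidueField :=
      charZero_of_injective_ringHom
        ((algebraMap A p.ResidueField).comp (algebraMap K A)).injective
    infer_instance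
  have hcard := Ideal.card_stabilizer_eq (G := (L ≃ₐ[E] L)) p P
  rw [Ideal.ramificationIdxIn_eq_ramificationIdx p P (L ≃ₐ[E] L),
    Ideal.inertiaDegIn_eq_inertiaDeg p P (L ≃ₐ[E] L)] at hcard
  -- inertia degree one
  have hf : P.inertiaDeg A = 1 := by
    rw [Ideal.inertiaDeg_eq_of_isMaximal p P]
    let iF1 : Field (A ⧸ p) := Ideal.Quotient.field p
    let iF2 : Field (C ⧸ P) := Ideal.Quotient.field P
    let iKC : Algebra K C := ((algebraMap A C).comp (algebraMap K A)).toAlgebra
    have : IsScalarTower K A C := IsScalarTower.of_algebraMap_eq' rfl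
    have : IsScalarTower K (A ⧸ p) (C ⧸ P) := by
      refine IsScalarTower.of_algebraMap_eq fun k => ?_
      rw [IsScalarTower.algebraMap_apply K C (C ⧸ P), IsScalarTower.algebraMap_apply K A C,
        IsScalarTower.algebraMap_apply K A (A ⧸ p),
        ← IsScalarTower.algebraMap_apply A (A ⧸ p) (C ⧸ P),
        ← IsScalarTower.algebraMap_apply A C (C ⧸ P)]
    have : Algebra.IsIntegral K (A ⧸ p) := Algebra.isIntegral_of_surjective hK
    have : Algebra.IsIntegral K (C ⧸ P) := Algebra.IsIntegral.trans (A ⧸ p)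
    have hbijK : Function.Bijective (algebraMap K (C ⧸ P)) :=
      IsAlgClosed.algebraMap_bijective_of_isIntegral
    have hbij : Function.Bijective (algebraMap (A ⧸ p) (C ⧸ P)) := by
      refine ⟨(algebraMap (A ⧸ p) (C ⧸ P)).injective, fun x => ?_⟩
      obtain ⟨k, rfl⟩ := hbijK.2 x
      exact ⟨algebraMap K (A ⧸ p) k, (IsScalarTower.algebraMap_apply K (A ⧸ p) (C ⧸ P) k).symm⟩
    have e : (A ⧸ p) ≃ₗ[A ⧸ p] (C ⧸ P) :=
      LinearEquiv.ofBijective (Algebra.linearMap (A ⧸ p) (C ⧸ P)) hbij
    rw [← e.finrank_eq, Module.finrank_self]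
  rw [hf, mul_one] at hcard
  -- ramification index at most the order of `σ`
  have he : P.ramificationIdx A ≤ orderOf σ := by
    rw [← Ideal.ramificationIdx'_eq_ramificationIdx p P hpne]
    have h1 : algebraMap A C t ∈ P ^ (p.ramificationIdx' P) := by
      apply Ideal.le_pow_ramificationIdx'
      exact Ideal.mem_map_of_mem _ (Ideal.mem_span_singleton_self t)
    have h2 := h95_le_exp_of_mem_pow w hwC _ h1
    rw [← IsScalarTower.algebraMap_apply A C L] at h2
    have h3 := hord.trans h2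
    rw [exp_le_exp] at h3
    omega
  have hstab : MulAction.stabilizer (L ≃ₐ[E] L) P = Subgroup.zpowers σ :=
    h95_stabilizer_eq_zpowers P σ hσP (hcard.trans_le he)
  -- GC1
  have hgc1 := gc_card_primesOver (L ≃ₐ[E] L) H hBC p P
  rw [hstab] at hgc1
  rw [← hgc1]
  -- dictionary
  have hAB : Function.Injective (algebraMap A B) := by
    intro x y hxy
    apply hAL
    rw [IsScalarTower.algebraMap_apply A B L, IsScalarTower.algebraMap_apply A B L, hxy]
  have htB : algebraMap A B t ≠ 0 := fun h => ht0 (hAB (h.trans (map_zero _).symm))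
  have hB : ∀ v : Place K F, 0 < v.ord (algebraMap B F (algebraMap A B t)) →
      ∀ b : B, algebraMap B F b ∈ v.toValuationSubring := by
    intro v hv b
    rw [← IsScalarTower.algebraMap_apply A B F] at hv
    exact h95_mem_valuationSubring_of_isIntegral (A := A) v.toValuationSubring (hplace v hv)
      ((IsIntegralClosure.isIntegral_iff (A := B)).mpr ⟨b, rfl⟩)
  have h1 := h95_card_places_eq (K := K) (F := F) (B := B) htB hB
  have h2 := h95_card_heightOne_eq_primesOver (A := A) (B := B) t htB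
  rw [← h2, ← h1]
  refine Nat.card_congr (Equiv.subtypeEquivRight fun v => ?_)
  rw [← IsScalarTower.algebraMap_apply A B F]

end Abstract

section Concrete

open Polynomial

theorem h95_span_X_isMaximal {K : Type*} [Field K] : (Ideal.span {(X : K[X])}).IsMaximal :=
  PrincipalIdealRing.isMaximal_of_irreducible Polynomial.irreducible_X

theorem h95_surjective_quotient_span_X {K : Type*} [Field K] :
    Function.Surjective (algebraMap K (K[X] ⧸ Ideal.span {(X : K[X])})) := by
  intro x
  obtain ⟨p, rfl⟩ := Ideal.Quotient.mk_surjective x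
  refine ⟨p.coeff 0, ?_⟩
  rw [IsScalarTower.algebraMap_apply K K[X] (K[X] ⧸ Ideal.span {(X : K[X])})]
  rw [Ideal.Quotient.algebraMap_eq, Ideal.Quotient.eq, Ideal.mem_span_singleton,
    Polynomial.algebraMap_apply, Algebra.algebraMap_self, RingHom.id_apply,
    Polynomial.X_dvd_iff]
  simp

/-- **GC2** (statement `plan_gc_card_zeros` of `Fermat/Agent/S24/Plan.lean`). Abstract count of
the zeros of `t` in an intermediate field `F` of a Galois extension `L / E`, `E = K(t)`, from one
valuation `w` of `L` that is invariant under `σ` and whose value at `t` is at most the order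
of `σ`. -/
theorem gc_card_zeros
    {K E F L : Type*} [Field K] [IsAlgClosed K] [CharZero K] [Field E] [Field F] [Field L]
    [Algebra K E] [Algebra K F] [Algebra K L] [Algebra E F] [Algebra E L] [Algebra F L]
    [IsScalarTower K E F] [IsScalarTower K E L] [IsScalarTower E F L] [IsScalarTower K F L]
    [FiniteDimensional E L] [IsGalois E L]
    (t : E) (ht : Transcendental K t)
    (hE : ∀ y : E, ∃ p q : Polynomial K, Polynomial.aeval t q ≠ 0 ∧
      y = Polynomial.aeval t p / Polynomial.aeval t q)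
    (w : Valuation L ℤᵐ⁰) (hwK : ∀ c : K, c ≠ 0 → w (algebraMap K L c) = 1)
    (hwt : w (algebraMap E L t) < 1)
    (σ : L ≃ₐ[E] L) (hσ : ∀ y, w (σ y) = w y)
    (hord : exp (-(orderOf σ : ℤ)) ≤ w (algebraMap E L t)) :
    Nat.card {v : Place K F // 0 < v.ord (algebraMap E F t)}
      = Nat.card (MulAction.orbitRel.Quotient (Subgroup.zpowers σ)
          ((L ≃ₐ[E] L) ⧸ (IntermediateField.fixingSubgroup
            (IsScalarTower.toAlgHom E F L).fieldRange))) := by
  let iAE : Algebra K[X] E := (Polynomial.aeval t : K[X] →ₐ[K] E).toRingHom.toAlgebra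
  have hAE : ∀ p : K[X], algebraMap K[X] E p = Polynomial.aeval t p := fun p => rfl
  have : IsScalarTower K K[X] E := by
    refine IsScalarTower.of_algebraMap_eq fun k => ?_
    rw [hAE, Polynomial.algebraMap_apply, Algebra.algebraMap_self, RingHom.id_apply,
      Polynomial.aeval_C]
  let iAF : Algebra K[X] F := ((algebraMap E F).comp (algebraMap K[X] E)).toAlgebra
  let iAL : Algebra K[X] L := ((algebraMap E L).comp (algebraMap K[X] E)).toAlgebra
  have : IsScalarTower K[X] E F := IsScalarTower.of_algebraMap_eq' rfl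
  have : IsScalarTower K[X] E L := IsScalarTower.of_algebraMap_eq' rfl
  have : IsScalarTower K[X] F L := by
    refine IsScalarTower.of_algebraMap_eq fun p => ?_
    rw [IsScalarTower.algebraMap_apply K[X] E L, IsScalarTower.algebraMap_apply K[X] E F,
      ← IsScalarTower.algebraMap_apply E F L]
  have : IsScalarTower K K[X] F := by
    refine IsScalarTower.of_algebraMap_eq fun k => ?_
    rw [IsScalarTower.algebraMap_apply K[X] E F, ← IsScalarTower.algebraMap_apply K K[X] E,
      ← IsScalarTower.algebraMap_apply K E F]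
  have hinj : Function.Injective (algebraMap K[X] E) := transcendental_iff_injective.mp ht
  have : FaithfulSMul K[X] E := (faithfulSMul_iff_algebraMap_injective K[X] E).mpr hinj
  have : IsFractionRing K[X] E := by
    refine IsFractionRing.of_field K[X] E fun y => ?_
    obtain ⟨p, q, -, hy⟩ := hE y
    exact ⟨p, q, hy⟩
  have hXF : algebraMap K[X] F X = algebraMap E F t := by
    rw [IsScalarTower.algebraMap_apply K[X] E F, hAE, Polynomial.aeval_X]
  have hXL : algebraMap K[X] L X = algebraMap E L t := by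
    rw [IsScalarTower.algebraMap_apply K[X] E L, hAE, Polynomial.aeval_X]
  -- the subgroup
  have hHeq : fixingSubgroup (L ≃ₐ[E] L) (Set.range (algebraMap F L))
      = IntermediateField.fixingSubgroup (IsScalarTower.toAlgHom E F L).fieldRange := by
    ext g
    rw [mem_fixingSubgroup_iff, IntermediateField.mem_fixingSubgroup_iff]
    constructor
    · rintro h x ⟨y, rfl⟩
      exact h _ ⟨y, rfl⟩
    · rintro h x ⟨y, rfl⟩
      exact h _ ⟨y, rfl⟩
  have hH0 : IsGaloisGroup (fixingSubgroup (L ≃ₐ[E] L) (Set.range (algebraMap F L))) F L :=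
    IsGaloisGroup.of_isScalarTower (L ≃ₐ[E] L) E L F
  have hH : IsGaloisGroup (IntermediateField.fixingSubgroup
      (IsScalarTower.toAlgHom E F L).fieldRange) F L := hHeq ▸ hH0
  -- membership in subrings
  have hmemF : ∀ (V : ValuationSubring F), (∀ k : K, algebraMap K F k ∈ V) →
      algebraMap E F t ∈ V → ∀ a : K[X], algebraMap K[X] F a ∈ V := by
    intro V hVK hVt a
    induction a using Polynomial.induction_on' with
    | add p q hp hq => rw [map_add]; exact V.add_mem _ _ hp hq
    | monomial n k =>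
      rw [← Polynomial.C_mul_X_pow_eq_monomial, map_mul, map_pow, hXF,
        ← Polynomial.algebraMap_eq, ← IsScalarTower.algebraMap_apply K K[X] F]
      exact V.mul_mem _ _ (hVK k) (V.pow_mem hVt n)
  have hwA : ∀ a : K[X], w (algebraMap K[X] L a) ≤ 1 := by
    intro a
    induction a using Polynomial.induction_on' with
    | add p q hp hq => rw [map_add]; exact (w.map_add _ _).trans (max_le hp hq)
    | monomial n k =>
      have hk : w (algebraMap K L k) ≤ 1 := by
        rcases eq_or_ne k 0 with rfl | hk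
        · simp
        · exact (hwK k hk).le
      have hkL : algebraMap K[X] L (Polynomial.C k) = algebraMap K L k := by
        rw [IsScalarTower.algebraMap_apply K[X] E L, hAE, Polynomial.aeval_C,
          ← IsScalarTower.algebraMap_apply K E L]
      rw [← Polynomial.C_mul_X_pow_eq_monomial, map_mul, map_pow, hXL, hkL, map_mul, map_pow]
      exact mul_le_one' hk (pow_le_one' hwt.le n)
  have key := h95_card_zeros_aux (K := K) (A := K[X]) (E := E) (F := F) (L := L)
    (X : K[X]) h95_span_X_isMaximal Polynomial.X_ne_zero h95_surjective_quotient_span_X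
    (fun v hv => hmemF v.toValuationSubring v.algebraMap_mem'
      (h95_mem_of_ord_nonneg v (by rw [← hXF]; exact hv.le)))
    w hwA (by rw [hXL]; exact hwt) σ hσ (by rw [hXL]; exact hord)
    (IntermediateField.fixingSubgroup (IsScalarTower.toAlgHom E F L).fieldRange)
  rw [← key]
  refine Nat.card_congr (Equiv.subtypeEquivRight fun v => ?_)
  rw [hXF]

end Concrete

end Fermat.Agent.S24

end
end
-- ==== END Fermat.Agent.S24.H95_GC2

-- ==== BEGIN Fermat.Agent.S28.GlueA
section

/-!
# S28 glue, part A: elementary lemmas on `iotaN`, transfer of `GaussInt`, the series `J`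
-/

set_option autoImplicit false
open ModularCurve ModularCurve.IgusaScheme
noncomputable section

namespace Fermat.Agent.S28

variable (N : ℕ) [NeZero N]

theorem iotaN_coeff_mul (f : LaurentSeries ℚ) (k : ℤ) :
    (iotaN N f).coeff ((N : ℤ) * k) = ((f.coeff k : ℚ) : ℂ) := by
  simp [iotaN]

theorem iotaN_coeff_of_not_dvd (f : LaurentSeries ℚ) {k : ℤ} (hk : ¬ (N : ℤ) ∣ k) :
    (iotaN N f).coeff k = 0 := by
  simp only [iotaN, RingHom.comp_apply]
  exact qExpand_coeff_of_not_dvd N _ hk

theorem iotaN_coeff_mem (O : Subring ℂ) (R : Subring ℚ) (hRO : ∀ r : ℚ, r ∈ R → (r : ℂ) ∈ O)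
    (f : LaurentSeries ℚ) (hf : CoeffsIn R f) : CoeffsIn O (iotaN N f) := by
  intro n
  by_cases hn : (N : ℤ) ∣ n
  · obtain ⟨k, rfl⟩ := hn
    rw [iotaN_coeff_mul]
    exact hRO _ (hf k)
  · rw [iotaN_coeff_of_not_dvd N f hn]
    exact zero_mem _

theorem iotaN_primSeries (O : Subring ℂ) (R : Subring ℚ) (hRO : ∀ r : ℚ, r ∈ R → (r : ℂ) ∈ O)
    (g : LaurentSeries ℚ) (hg : PrimSeries R g) : PrimSeries O (iotaN N g) := by
  refine ⟨iotaN_coeff_mem N O R hRO g hg.1, ?_⟩
  obtain ⟨n, hn0, hn⟩ := hg.2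
  refine ⟨(N : ℤ) * n, ?_, ?_⟩
  · rw [iotaN_coeff_mul]
    exact_mod_cast hn0
  · rw [iotaN_coeff_mul]
    have := hRO _ hn
    simpa using this

theorem iotaN_gaussInt (O : Subring ℂ) (R : Subring ℚ) (hRO : ∀ r : ℚ, r ∈ R → (r : ℂ) ∈ O)
    (x : LaurentSeries ℚ) (hx : GaussInt R x) : GaussInt O (iotaN N x) := by
  obtain ⟨g, hg, hxg⟩ := hx
  refine ⟨iotaN N g, iotaN_primSeries N O R hRO g hg, ?_⟩
  rw [← map_mul]
  exact iotaN_coeff_mem N O R hRO _ hxg

theorem iotaN_injective : Function.Injective (iotaN N) := by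
  intro a b h
  have : ∀ k, a.coeff k = b.coeff k := by
    intro k
    have h1 := congrArg (fun f => f.coeff ((N : ℤ) * k)) h
    simp only [iotaN_coeff_mul] at h1
    exact_mod_cast h1
  ext k
  exact this k

theorem iotaN_C (r : ℚ) : iotaN N (HahnSeries.C r) = HahnSeries.C (r : ℂ) := by
  have h1 : (HahnSeries.C r : LaurentSeries ℚ) = HahnSeries.single 0 r := rfl
  have h2 : (HahnSeries.C (r : ℂ) : LaurentSeries ℂ) = HahnSeries.single 0 (r : ℂ) := rfl
  rw [h1, h2]
  simp only [iotaN, RingHom.comp_apply, coeffMap_single, qExpand_single, mul_zero]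
  rfl

/-- all coefficients of `jq` are integers -/
theorem jq_coeff_int (k : ℤ) : ∃ m : ℤ, jq.coeff k = (m : ℚ) := by
  rw [jq, HahnSeries.coeff_single_mul, one_mul]
  by_cases hk : 0 ≤ k - (-1)
  · obtain ⟨n, hn⟩ := Int.eq_ofNat_of_zero_le hk
    rw [hn, HahnSeries.ofPowerSeries_apply_coeff, jNumQ, PowerSeries.coeff_map]
    exact ⟨_, rfl⟩
  · rw [ofPowerSeries_coeff_of_neg _ (not_le.mp hk)]
    exact ⟨0, by simp⟩

theorem iotaN_jq_coeffsIn (O : Subring ℂ) : CoeffsIn O (iotaN N jq) := by
  intro n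
  by_cases hn : (N : ℤ) ∣ n
  · obtain ⟨k, rfl⟩ := hn
    rw [iotaN_coeff_mul]
    obtain ⟨m, hm⟩ := jq_coeff_int k
    rw [hm]
    push_cast
    exact intCast_mem O m
  · rw [iotaN_coeff_of_not_dvd N _ hn]
    exact zero_mem _

theorem iotaN_jq_ne_zero : iotaN N jq ≠ 0 := by
  intro h
  have := iotaN_injective N (h.trans (map_zero _).symm)
  exact jq_ne_zero this

theorem iotaN_jq_coeff_neg : (iotaN N jq).coeff (-(N : ℤ)) = 1 := by
  have h := iotaN_coeff_mul N jq (-1)
  rw [mul_neg_one] at h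
  rw [h, coeff_jq_neg_one]
  simp

theorem iotaN_jq_coeff_of_lt {k : ℤ} (hk : k < -(N : ℤ)) : (iotaN N jq).coeff k = 0 := by
  by_cases hn : (N : ℤ) ∣ k
  · obtain ⟨m, rfl⟩ := hn
    rw [iotaN_coeff_mul]
    have hN : (0 : ℤ) < N := by exact_mod_cast Nat.pos_of_ne_zero (NeZero.ne N)
    have hm : m < -1 := by
      by_contra hcon
      rw [not_lt] at hcon
      have : -(N : ℤ) ≤ (N : ℤ) * m := by nlinarith
      omega
    rw [coeff_jq_of_lt hm]
    simp
  · exact iotaN_coeff_of_not_dvd N _ hn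

theorem iotaN_jq_order : (iotaN N jq).order = -(N : ℤ) := by
  have hne := iotaN_jq_ne_zero N
  apply le_antisymm
  · exact HahnSeries.order_le_of_coeff_ne_zero (by rw [iotaN_jq_coeff_neg]; exact one_ne_zero)
  · by_contra hcon
    rw [not_le] at hcon
    have := iotaN_jq_coeff_of_lt N hcon
    exact (HahnSeries.coeff_order_eq_zero.not.mpr hne) this

theorem iotaN_jq_leadingCoeff : (iotaN N jq).leadingCoeff = 1 := by
  rw [HahnSeries.leadingCoeff_eq, iotaN_jq_order, iotaN_jq_coeff_neg]

theorem iotaN_jq_unitLead (O : Subring ℂ) : UnitLead O (iotaN N jq) :=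
  ⟨iotaN_jq_coeffsIn N O, iotaN_jq_ne_zero N, by rw [iotaN_jq_leadingCoeff]; simp⟩

end Fermat.Agent.S28

end
end
-- ==== END Fermat.Agent.S28.GlueA

-- ==== BEGIN Fermat.Agent.S28.H30_CAIface
section

/-!
# S28, WP-F (complex analysis): shared interface between helper30 (conjugates, orders,
leading units) and helper76 (symmetric functions, level one structure, bridge).

`pexp N f` is the `t`-expansion (`t = e^{2πiz/N}`) of a bounded holomorphic `N`-periodic
function, as a Laurent series.  `Stmt_Sym` is the abstract symmetric-function statement: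
for slash-equivariant families `a, b` of the same weight (holomorphic, bounded, `N`-periodic,
`b` nowhere zero) the product `∏_q pexp(a q) / pexp(b q)` is a polynomial in `J = j(t^N)`.
-/

set_option autoImplicit false

open UpperHalfPlane ModularForm ModularCurve
open scoped MatrixGroups ModularForm Manifold

noncomputable section

namespace Fermat.Agent.S28.H30

/-- The `t`-expansion, `t = e^{2πiz/N}`, as a Laurent series. -/
def pexp (N : ℕ) (f : ℍ → ℂ) : LaurentSeries ℂ :=
  HahnSeries.ofPowerSeries ℤ ℂ (qExpansion (N : ℝ) f)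

/-- **F-sym (abstract form, owner helper76).** -/
def Stmt_Sym : Prop :=
  ∀ (N : ℕ) [NeZero N] (Q : Type) [Fintype Q] (π : SL(2, ℤ) → Equiv.Perm Q) (k : ℤ)
    (a b : Q → ℍ → ℂ),
    (∀ γ q, a q ∣[k] γ = a (π γ q)) → (∀ γ q, b q ∣[k] γ = b (π γ q)) →
    (∀ q, MDiff (a q)) → (∀ q, MDiff (b q)) →
    (∀ q, IsBoundedAtImInfty (a q)) → (∀ q, IsBoundedAtImInfty (b q)) →
    (∀ q, Function.Periodic (a q ∘ UpperHalfPlane.ofComplex) (N : ℂ)) →
    (∀ q, Function.Periodic (b q ∘ UpperHalfPlane.ofComplex) (N : ℂ)) →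
    (∀ q z, b q z ≠ 0) →
    (∏ q, pexp N (a q) / pexp N (b q)) ∈
      Algebra.adjoin ℂ ({iotaN N jq} : Set (LaurentSeries ℂ))

end Fermat.Agent.S28.H30

end
end
-- ==== END Fermat.Agent.S28.H30_CAIface

-- ==== BEGIN Fermat.Agent.S28.H48_ValSub
section

/-!
# S28, piece G1: a valuation subring of `ℂ` dominating `ℤ_(ℓ)`

* `exists_valuationSubring` : there is a valuation subring `O` of `ℂ` containing `ℤ_(ℓ)` in
  which `ℓ` is not invertible.
* `coeffRing_le` : for `ℓ ∤ N` every such `O` contains the coefficient ring `ℤ[ζ_N, 1/N]`.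
-/

set_option autoImplicit false

namespace Fermat.Agent.S28.H48

/-- Elements of a valuation subring which are roots of unity inside the ambient field. -/
theorem mem_of_pow_eq_one {K : Type*} [Field K] (O : ValuationSubring K) {z : K} {n : ℕ}
    (hn : n ≠ 0) (hz : z ^ n = 1) : z ∈ O := by
  rw [← ValuationSubring.valuation_le_one_iff]
  have h1 : (O.valuation z) ^ n = 1 := by rw [← map_pow, hz, map_one]
  rcases pow_eq_one_iff.mp h1 with h | h
  · exact le_of_eq h
  · exact absurd h hn

/-- If `ℓ` is a non-unit of the valuation subring `O ⊇ ℤ` and `d` is prime to `ℓ`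
then `1 / d ∈ O`. -/
theorem inv_natCast_mem {K : Type*} [Field K] (O : ValuationSubring K) {ℓ d : ℕ}
    (hℓ : O.valuation (ℓ : K) < 1) (hd : d.Coprime ℓ) : ((d : K))⁻¹ ∈ O := by
  rw [← ValuationSubring.valuation_le_one_iff, map_inv₀]
  have hdO : O.valuation (d : K) ≤ 1 := by
    rw [ValuationSubring.valuation_le_one_iff]; exact natCast_mem O d
  -- Bezout: `d * a + ℓ * b = 1` in `ℤ`
  have hbez : (d : ℤ) * Nat.gcdA d ℓ + (ℓ : ℤ) * Nat.gcdB d ℓ = 1 := by
    have := Nat.gcd_eq_gcd_ab d ℓ
    rw [Nat.Coprime.gcd_eq_one hd] at this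
    exact_mod_cast this.symm
  have hbezK : (d : K) * ((Nat.gcdA d ℓ : ℤ) : K) + (ℓ : K) * ((Nat.gcdB d ℓ : ℤ) : K) = 1 := by
    exact_mod_cast congrArg (Int.cast : ℤ → K) hbez
  have ha : O.valuation ((Nat.gcdA d ℓ : ℤ) : K) ≤ 1 := by
    rw [ValuationSubring.valuation_le_one_iff]; exact intCast_mem O _
  have hb : O.valuation ((Nat.gcdB d ℓ : ℤ) : K) ≤ 1 := by
    rw [ValuationSubring.valuation_le_one_iff]; exact intCast_mem O _
  -- the valuation of `d` is `1`, otherwise `1 = d a + ℓ b` has valuation `< 1`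
  have hd1 : O.valuation (d : K) = 1 := by
    by_contra hne
    have hlt : O.valuation (d : K) < 1 := lt_of_le_of_ne hdO hne
    have h1 : O.valuation ((d : K) * ((Nat.gcdA d ℓ : ℤ) : K)) < 1 := by
      rw [map_mul]
      exact mul_lt_one_of_lt_of_le hlt ha
    have h2 : O.valuation ((ℓ : K) * ((Nat.gcdB d ℓ : ℤ) : K)) < 1 := by
      rw [map_mul]
      exact mul_lt_one_of_lt_of_le hℓ hb
    have h3 := Valuation.map_add_lt (O.valuation) h1 h2
    rw [hbezK, map_one] at h3
    exact lt_irrefl _ h3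
  rw [hd1, inv_one]

/-- A rational number whose denominator is prime to `ℓ` lies in `O`, as soon as `O ⊇ ℤ` has `ℓ`
as a non-unit. -/
theorem ratCast_mem_of_coprime {K : Type*} [Field K] [CharZero K] (O : ValuationSubring K)
    {ℓ : ℕ} (hℓ : O.valuation (ℓ : K) < 1) (r : ℚ) (hr : r.den.Coprime ℓ) : (r : K) ∈ O := by
  have h : (r : K) = (r.num : K) * ((r.den : K))⁻¹ := by
    rw [Rat.cast_def, div_eq_mul_inv]
  rw [h]
  exact O.mul_mem _ _ (intCast_mem O _) (inv_natCast_mem O hℓ hr)

theorem exists_valuationSubring (ℓ : ℕ) [Fact ℓ.Prime] :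
    ∃ O : ValuationSubring ℂ,
      (∀ r : ℚ, r ∈ GaloisRep.ratLocalizedAt ℓ → (r : ℂ) ∈ O) ∧ ((ℓ : ℂ)⁻¹ ∉ O) := by
  have hℓ : ℓ.Prime := Fact.out
  -- the subring `ℤ ⊂ ℂ` and its ideal `(ℓ)`
  let A : Subring ℂ := (algebraMap ℤ ℂ).range
  let x : A := ⟨(ℓ : ℂ), ⟨(ℓ : ℤ), by simp⟩⟩
  have hI : Ideal.span ({x} : Set A) ≠ ⊤ := by
    intro htop
    rw [Ideal.span_singleton_eq_top] at htop
    obtain ⟨y, hy⟩ := isUnit_iff_exists_inv.mp htop
    obtain ⟨n, hn⟩ := y.2
    have h1 : ((ℓ : ℂ)) * (y : ℂ) = 1 := congrArg Subtype.val hy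
    rw [← hn] at h1
    have h2 : ((ℓ : ℤ) * n : ℤ) = 1 := by
      have : (((ℓ : ℤ) * n : ℤ) : ℂ) = ((1 : ℤ) : ℂ) := by
        push_cast
        simpa using h1
      exact_mod_cast this
    have h3 : IsUnit (ℓ : ℤ) := isUnit_iff_exists_inv.mpr ⟨n, h2⟩
    have h4 : IsUnit ℓ := Int.ofNat_isUnit.mp h3
    exact hℓ.not_isUnit h4
  obtain ⟨O, -, hO⟩ := Ideal.image_subset_nonunits_valuationSubring _ hI
  have hval : O.valuation (ℓ : ℂ) < 1 := by
    have hmem : (ℓ : ℂ) ∈ O.nonunits :=
      hO ⟨x, Ideal.subset_span (Set.mem_singleton x), rfl⟩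
    exact (ValuationSubring.mem_nonunits_iff O).mp hmem
  refine ⟨O, fun r hr => ratCast_mem_of_coprime O hval r hr, ?_⟩
  intro hmem
  have h1 : O.valuation ((ℓ : ℂ)⁻¹) ≤ 1 := (ValuationSubring.valuation_le_one_iff O _).mpr hmem
  have hne : (ℓ : ℂ) ≠ 0 := Nat.cast_ne_zero.mpr hℓ.ne_zero
  have h2 : O.valuation ((ℓ : ℂ) * (ℓ : ℂ)⁻¹) < 1 := by
    rw [map_mul]
    exact mul_lt_one_of_lt_of_le hval h1
  rw [mul_inv_cancel₀ hne, map_one] at h2
  exact lt_irrefl _ h2

theorem coeffRing_le (N ℓ : ℕ) [NeZero N] [Fact ℓ.Prime] (hℓN : ¬ ℓ ∣ N)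
    (O : ValuationSubring ℂ)
    (hO : ∀ r : ℚ, r ∈ GaloisRep.ratLocalizedAt ℓ → (r : ℂ) ∈ O) :
    Fermat.Agent.S28.coeffRing N ≤ O.toSubring := by
  have hℓ : ℓ.Prime := Fact.out
  unfold Fermat.Agent.S28.coeffRing
  rw [Subring.closure_le]
  rintro z (hz | hz)
  · exact mem_of_pow_eq_one O (NeZero.ne N) hz
  · rw [Set.mem_singleton_iff] at hz
    subst hz
    have hmem : ((N : ℚ))⁻¹ ∈ GaloisRep.ratLocalizedAt ℓ := by
      show (((N : ℚ))⁻¹).den.Coprime ℓ
      have hden : (((N : ℚ))⁻¹).den = N := by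
        have hN : 0 < N := Nat.pos_of_ne_zero (NeZero.ne N)
        rw [Rat.inv_natCast_den, if_neg hN.ne']
      rw [hden]
      exact (Nat.Coprime.symm ((Nat.Prime.coprime_iff_not_dvd hℓ).mpr hℓN))
    have := hO _ hmem
    simpa using this

end Fermat.Agent.S28.H48

end
-- ==== END Fermat.Agent.S28.H48_ValSub

-- ==== BEGIN Fermat.Agent.S28.H73_LemmaAV
section

set_option autoImplicit false

namespace Fermat.Agent.S28.H73

open Polynomial

/-! ### Divisibility in a valuation ring -/

section Dvd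

variable {R : Type*} [CommRing R]

/-- In a ring with total divisibility, a nonempty finite family has a member dividing all
members. -/
theorem exists_dvd_all (htot : ∀ a b : R, a ∣ b ∨ b ∣ a) {ι : Type*} (s : Finset ι)
    (hs : s.Nonempty) (f : ι → R) : ∃ i₀ ∈ s, ∀ i ∈ s, f i₀ ∣ f i := by
  classical
  induction hs using Finset.Nonempty.cons_induction with
  | singleton a => exact ⟨a, Finset.mem_singleton_self a, fun i hi => by
      rw [Finset.mem_singleton] at hi; rw [hi]⟩
  | cons a s ha _ ih =>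
    obtain ⟨i₀, hi₀, h⟩ := ih
    rcases htot (f a) (f i₀) with h1 | h1
    · refine ⟨a, Finset.mem_cons_self a s, fun i hi => ?_⟩
      rcases Finset.mem_cons.1 hi with rfl | hi
      · exact dvd_rfl
      · exact h1.trans (h i hi)
    · refine ⟨i₀, Finset.mem_cons.2 (Or.inr hi₀), fun i hi => ?_⟩
      rcases Finset.mem_cons.1 hi with rfl | hi
      · exact h1
      · exact h i hi

/-- Primitive part of a nonzero polynomial over a valuation ring. -/
theorem exists_prim_of_dvd_total [IsDomain R] {k : Type*} [Field k] (res : R →+* k)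
    (htot : ∀ a b : R, a ∣ b ∨ b ∣ a) (P : R[X]) (hP : P ≠ 0) :
    ∃ (c : R) (P' : R[X]), c ≠ 0 ∧ P = C c * P' ∧ P'.map res ≠ 0 := by
  classical
  have hsupp : P.support.Nonempty := by
    rw [Finset.nonempty_iff_ne_empty, Ne, Polynomial.support_eq_empty]; exact hP
  obtain ⟨i₀, hi₀, h⟩ := exists_dvd_all htot P.support hsupp (fun i => P.coeff i)
  have hc : P.coeff i₀ ≠ 0 := Polynomial.mem_support_iff.1 hi₀
  have hdvd : C (P.coeff i₀) ∣ P := by
    rw [C_dvd_iff_dvd_coeff]
    intro i
    by_cases hi : i ∈ P.support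
    · exact h i hi
    · rw [Polynomial.notMem_support_iff.1 hi]; exact dvd_zero _
  obtain ⟨P', hP'⟩ := hdvd
  refine ⟨P.coeff i₀, P', hc, hP', ?_⟩
  have h1 : P'.coeff i₀ = 1 := by
    have := congrArg (fun q : R[X] => q.coeff i₀) hP'
    simp only [coeff_C_mul] at this
    exact mul_left_cancel₀ hc (by rw [← this, mul_one])
  intro h0
  have := congrArg (fun q : k[X] => q.coeff i₀) h0
  simp only [coeff_map, h1, map_one, coeff_zero] at this
  exact one_ne_zero this

end Dvd

/-! ### The Gauss setup over a valuation ring -/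

/-- Abstract Gauss setup over a valuation ring `R` (total divisibility, embedded in the field `Ω`):
`O ⊆ Ω` is the "Gauss ring" (a local subring with residue map `red` to `E`), `res : R → k` kills
the non-units of `R`. -/
structure GaussSetupV (R k Ω E : Type*) [CommRing R] [Field k] [Field Ω] [Field E]
    [Algebra R Ω] [Algebra k E] where
  /-- the Gauss ring -/
  O : Subalgebra R Ω
  /-- reduction map of the Gauss ring -/
  red : O →+* E
  /-- residue map of the base ring -/
  res : R →+* k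
  red_algebraMap : ∀ r : R, red (algebraMap R O r) = algebraMap k E (res r)
  inv_mem : ∀ x : O, red x ≠ 0 → ((x : Ω))⁻¹ ∈ O
  injective : Function.Injective (algebraMap R Ω)
  dvd_total : ∀ a b : R, a ∣ b ∨ b ∣ a
  res_eq_zero : ∀ r : R, ¬ IsUnit r → res r = 0

namespace GaussSetupV

set_option linter.unusedSectionVars false

variable {R k Ω E Γ₀ : Type*} [CommRing R] [IsDomain R] [Field k] [Field Ω] [Field E]
  [Algebra R Ω] [Algebra k E] [LinearOrderedCommGroupWithZero Γ₀]
  (S : GaussSetupV R k Ω E)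

theorem red_aeval (u : S.O) (P : R[X]) :
    S.red (aeval u P) = aeval (S.red u) (P.map S.res) := by
  have hcomp : S.red.comp (algebraMap R S.O) = (algebraMap k E).comp S.res :=
    RingHom.ext fun r => S.red_algebraMap r
  rw [aeval_def, hom_eval₂, hcomp, aeval_def, eval₂_map]

/-- The Gauss ring of `Frac R (u)`: quotients `P(u)/Q(u)` with `Q` nonzero modulo the maximal
ideal. -/
def IsGaussFrac (u : S.O) (a : Ω) : Prop :=
  ∃ P Q : R[X], Q.map S.res ≠ 0 ∧ a = aeval (u : Ω) P / aeval (u : Ω) Q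

theorem isGaussFrac_zero (u : S.O) : S.IsGaussFrac u 0 :=
  ⟨0, 1, by simp, by simp⟩

variable (w : Valuation E Γ₀)

theorem valuation_red_aeval (hwk : ∀ c : k, c ≠ 0 → w (algebraMap k E c) = 1)
    (u : S.O) (hu : 1 < w (S.red u)) (P : R[X]) (hP : P.map S.res ≠ 0) :
    w (S.red (aeval u P)) = w (S.red u) ^ (P.map S.res).natDegree := by
  rw [S.red_aeval]
  exact valuation_aeval_eq_pow w hwk hu _ hP

theorem red_aeval_ne_zero (hwk : ∀ c : k, c ≠ 0 → w (algebraMap k E c) = 1)
    (u : S.O) (hu : 1 < w (S.red u)) (P : R[X]) (hP : P.map S.res ≠ 0) :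
    S.red (aeval u P) ≠ 0 := by
  rw [S.red_aeval]
  exact aeval_ne_zero_of_one_lt w hwk hu _ hP

theorem aeval_ne_zero (hwk : ∀ c : k, c ≠ 0 → w (algebraMap k E c) = 1)
    (u : S.O) (hu : 1 < w (S.red u)) (P : R[X]) (hP : P.map S.res ≠ 0) :
    aeval (u : Ω) P ≠ 0 := by
  intro h
  apply S.red_aeval_ne_zero w hwk u hu P hP
  have : (aeval u P : S.O) = 0 := Subtype.ext (by rw [aeval_subalgebra_coe]; exact h)
  rw [this, map_zero]

/-- A quotient `P(u)/Q(u)` (both nonzero mod the maximal ideal) as an element of `O`, with the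
valuation of its reduction. -/
theorem exists_quot (hwk : ∀ c : k, c ≠ 0 → w (algebraMap k E c) = 1)
    {g : Γ₀} (hg : 1 < g) {D : ℕ} (hD : 0 < D) (u : S.O) (hu : w (S.red u) = g ^ D)
    (P Q : R[X]) (hP : P.map S.res ≠ 0) (hQ : Q.map S.res ≠ 0) :
    ∃ b : S.O, (b : Ω) = aeval (u : Ω) P / aeval (u : Ω) Q ∧ S.red b ≠ 0 ∧
      ∃ m : ℤ, w (S.red b) = g ^ ((D : ℤ) * m) := by
  have hu1 : 1 < w (S.red u) := by rw [hu]; exact one_lt_pow₀ hg hD.ne'
  have hQ0 := S.red_aeval_ne_zero w hwk u hu1 Q hQ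
  have hP0 := S.red_aeval_ne_zero w hwk u hu1 P hP
  have hQinv := S.inv_mem (aeval u Q) hQ0
  set qi : S.O := ⟨_, hQinv⟩ with hqi
  have hmul : aeval u Q * qi = 1 := by
    apply Subtype.ext
    have hne : ((aeval u Q : S.O) : Ω) ≠ 0 := by
      intro h
      apply hQ0
      have : (aeval u Q : S.O) = 0 := Subtype.ext h
      rw [this, map_zero]
    simp only [hqi, Subalgebra.coe_mul, Subalgebra.coe_one]
    exact mul_inv_cancel₀ hne
  have hred : S.red (aeval u Q) * S.red qi = 1 := by rw [← map_mul, hmul, map_one]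
  refine ⟨aeval u P * qi, ?_, ?_, ?_⟩
  · simp only [hqi, Subalgebra.coe_mul, aeval_subalgebra_coe, div_eq_mul_inv]
  · rw [map_mul]
    exact mul_ne_zero hP0 (right_ne_zero_of_mul_eq_one hred)
  · refine ⟨((P.map S.res).natDegree : ℤ) - ((Q.map S.res).natDegree : ℤ), ?_⟩
    have hg0 : g ≠ 0 := (lt_trans zero_lt_one hg).ne'
    have h1 : w (S.red qi) = (w (S.red (aeval u Q)))⁻¹ := by
      have := congrArg w hred
      rw [map_mul, map_one] at this
      exact eq_inv_of_mul_eq_one_right this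
    rw [map_mul, map_mul, h1, S.valuation_red_aeval w hwk u hu1 P hP,
      S.valuation_red_aeval w hwk u hu1 Q hQ, hu, ← pow_mul, ← pow_mul, mul_sub,
      zpow_sub₀ hg0, div_eq_mul_inv]
    norm_cast

/-- **Lemma A** over a valuation ring.
If `w (red j) = g > 1`, `w (red u) = g ^ D`, and `x = ∑_{i<D} (P_i(u)/Q_i(u)) j^i ∈ O` with
`P_i, Q_i ∈ R[X]`, `Q_i ≠ 0`, then every coefficient `P_i(u)/Q_i(u)` lies in the Gauss ring of
`Frac R (u)`, i.e. is of the form `P'(u)/Q'(u)` with `Q'` nonzero modulo the maximal ideal. -/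
theorem lemmaAV (hwk : ∀ c : k, c ≠ 0 → w (algebraMap k E c) = 1)
    {g : Γ₀} (hg : 1 < g) {D : ℕ} (hD : 0 < D) (u j : S.O)
    (hj : w (S.red j) = g) (hu : w (S.red u) = g ^ D)
    (P Q : Fin D → R[X]) (hQ : ∀ i, Q i ≠ 0)
    (hx : ∑ i, (aeval (u : Ω) (P i) / aeval (u : Ω) (Q i)) * (j : Ω) ^ (i : ℕ) ∈ S.O) :
    ∀ i, S.IsGaussFrac u (aeval (u : Ω) (P i) / aeval (u : Ω) (Q i)) := by
  classical
  have hinj := S.injective
  have hne : ∀ r : R, r ≠ 0 → algebraMap R Ω r ≠ 0 := fun r hr h =>
    hr (hinj (by rw [h, map_zero]))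
  have hu1 : 1 < w (S.red u) := by rw [hu]; exact one_lt_pow₀ hg hD.ne'
  -- primitive parts of the denominators
  choose d Q' hd hQeq hQ' using fun i => exists_prim_of_dvd_total S.res S.dvd_total (Q i) (hQ i)
  -- primitive parts of the numerators
  have hPdata : ∀ i, ∃ (c : R) (P' : R[X]),
      P i = C c * P' ∧ (P i ≠ 0 → c ≠ 0 ∧ P'.map S.res ≠ 0) ∧ (P i = 0 → c = 0) := by
    intro i
    by_cases h : P i = 0
    · exact ⟨0, 0, by simp [h], fun h' => absurd h h', fun _ => rfl⟩
    · obtain ⟨c, P', h0, h1, h2⟩ := exists_prim_of_dvd_total S.res S.dvd_total (P i) h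
      exact ⟨c, P', h1, fun _ => ⟨h0, h2⟩, fun h' => absurd h' h⟩
  choose c P' hPeq hP' hc0 using hPdata
  have hq0 : ∀ i, aeval (u : Ω) (Q' i) ≠ 0 := fun i => S.aeval_ne_zero w hwk u hu1 (Q' i) (hQ' i)
  have hPval : ∀ i, aeval (u : Ω) (P i) = algebraMap R Ω (c i) * aeval (u : Ω) (P' i) := by
    intro i
    conv_lhs => rw [hPeq i]
    rw [map_mul, aeval_C]
  have hQval : ∀ i, aeval (u : Ω) (Q i) = algebraMap R Ω (d i) * aeval (u : Ω) (Q' i) := by
    intro i
    conv_lhs => rw [hQeq i]
    rw [map_mul, aeval_C]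
  -- common denominator
  set δ : R := ∏ i, d i with hδ
  have hδ0 : δ ≠ 0 := Finset.prod_ne_zero_iff.2 fun i _ => hd i
  obtain ⟨c', hcd, hc'z, hc'nz⟩ : ∃ c' : Fin D → R, (∀ i, d i * c' i = c i * δ) ∧
      (∀ i, c i = 0 → c' i = 0) ∧ (∀ i, c i ≠ 0 → c' i ≠ 0) := by
    refine ⟨fun i => c i * ∏ i' ∈ Finset.univ.erase i, d i', fun i => ?_, fun i hi => ?_,
      fun i hi => ?_⟩
    · simp only [hδ]
      rw [← Finset.mul_prod_erase Finset.univ d (Finset.mem_univ i)]
      ring
    · simp only [hi, zero_mul]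
    · exact mul_ne_zero hi (Finset.prod_ne_zero_iff.2 fun i' _ => hd i')
  -- the unit quotients
  have hbex : ∀ i, ∃ b : S.O,
      (P i ≠ 0 → (b : Ω) = aeval (u : Ω) (P' i) / aeval (u : Ω) (Q' i) ∧ S.red b ≠ 0 ∧
        ∃ e : ℤ, w (S.red b) = g ^ ((D : ℤ) * e)) ∧ (P i = 0 → b = 0) := by
    intro i
    by_cases h : P i = 0
    · exact ⟨0, fun h' => absurd h h', fun _ => rfl⟩
    · obtain ⟨b, h1, h2, h3⟩ :=
        S.exists_quot w hwk hg hD u hu (P' i) (Q' i) (hP' i h).2 (hQ' i)
      exact ⟨b, fun _ => ⟨h1, h2, h3⟩, fun h' => absurd h' h⟩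
  choose b hb1 hb0 using hbex
  -- `δ * a_i = c'_i * b_i`
  have hδa : ∀ i, algebraMap R Ω δ * (aeval (u : Ω) (P i) / aeval (u : Ω) (Q i))
      = algebraMap R Ω (c' i) * (b i : Ω) := by
    intro i
    by_cases h : P i = 0
    · rw [h, map_zero, zero_div, mul_zero, hb0 i h]; simp
    · obtain ⟨hbi, -, -⟩ := hb1 i h
      rw [hbi, hPval i, hQval i]
      have hdi : algebraMap R Ω (d i) ≠ 0 := hne _ (hd i)
      have hq := hq0 i
      have e : algebraMap R Ω (d i) * algebraMap R Ω (c' i)
          = algebraMap R Ω (c i) * algebraMap R Ω δ := by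
        rw [← map_mul, ← map_mul, hcd i]
      field_simp
      linear_combination (-(aeval (u : Ω) (P' i))) * e
  -- trivial case: all numerators vanish
  by_cases hall : ∀ i, P i = 0
  · intro i
    rw [hall i, map_zero, zero_div]
    exact S.isGaussFrac_zero u
  simp only [not_forall] at hall
  obtain ⟨i₁, hi₁⟩ := hall
  set I : Finset (Fin D) := Finset.univ.filter (fun i => P i ≠ 0) with hI
  obtain ⟨i₀, hi₀I, hdvd⟩ := exists_dvd_all S.dvd_total I ⟨i₁, by simp [hI, hi₁]⟩ c'
  have hi₀ : P i₀ ≠ 0 := by simpa [hI] using hi₀I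
  have hc'ne : ∀ i, P i ≠ 0 → c' i ≠ 0 := fun i hi => hc'nz i (hP' i hi).1
  have hc'0 : c' i₀ ≠ 0 := hc'ne i₀ hi₀
  -- quotients `r_i = c'_i / c'_{i₀}`
  have hrex : ∀ i, ∃ r : R, c' i = c' i₀ * r ∧ (i = i₀ → r = 1) := by
    intro i
    by_cases hii : i = i₀
    · subst hii; exact ⟨1, by rw [mul_one], fun _ => rfl⟩
    · by_cases h : P i = 0
      · refine ⟨0, ?_, fun h' => absurd h' hii⟩
        rw [hc'z i (hc0 i h), mul_zero]
      · obtain ⟨r, hr⟩ := hdvd i (by simp [hI, h])
        exact ⟨r, hr, fun h' => absurd h' hii⟩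
  choose r hr hr1 using hrex
  set xO : S.O := ⟨_, hx⟩ with hxO
  -- key claim: `δ ∣ c' i₀`
  have key : δ ∣ c' i₀ := by
    by_contra hcon
    obtain ⟨s, hs⟩ := (S.dvd_total δ (c' i₀)).resolve_left hcon
    have hsunit : ¬ IsUnit s := by
      intro hsu
      apply hcon
      obtain ⟨s', hs'⟩ := hsu.exists_right_inv
      exact ⟨s', by rw [hs, mul_assoc, hs', mul_one]⟩
    set y : S.O := ∑ i, algebraMap R S.O (r i) * b i * j ^ (i : ℕ) with hy
    have hyx : y = algebraMap R S.O s * xO := by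
      apply Subtype.ext
      apply mul_left_cancel₀ (hne _ hc'0)
      simp only [hy, hxO, Subalgebra.coe_mul, Subalgebra.coe_pow, AddSubmonoidClass.coe_finsetSum,
        Subalgebra.coe_algebraMap, Finset.mul_sum]
      refine Finset.sum_congr rfl fun i _ => ?_
      have e1 := hδa i
      have e2 : algebraMap R Ω (c' i) = algebraMap R Ω (c' i₀) * algebraMap R Ω (r i) := by
        rw [← map_mul, ← hr i]
      have e3 : algebraMap R Ω δ = algebraMap R Ω (c' i₀) * algebraMap R Ω s := by
        rw [← map_mul, ← hs]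
      linear_combination (-(j : Ω) ^ (i : ℕ)) * e1 - (b i : Ω) * (j : Ω) ^ (i : ℕ) * e2
        + (aeval (u : Ω) (P i) / aeval (u : Ω) (Q i)) * (j : Ω) ^ (i : ℕ) * e3
    have hredy : S.red y = 0 := by
      rw [hyx, map_mul, S.red_algebraMap, S.res_eq_zero s hsunit, map_zero, zero_mul]
    have hsum : ∑ i, (algebraMap k E (S.res (r i)) * S.red (b i)) * S.red j ^ (i : ℕ) = 0 := by
      rw [← hredy, hy, map_sum]
      refine Finset.sum_congr rfl fun i _ => ?_
      rw [map_mul, map_mul, map_pow, S.red_algebraMap]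
    have hcc : ∀ i, algebraMap k E (S.res (r i)) * S.red (b i) = 0 ∨
        ∃ e : ℤ, w (algebraMap k E (S.res (r i)) * S.red (b i)) = g ^ ((D : ℤ) * e) := by
      intro i
      by_cases h : P i = 0
      · left; rw [hb0 i h, map_zero, mul_zero]
      · by_cases hri : S.res (r i) = 0
        · left; rw [hri, map_zero, zero_mul]
        · right
          obtain ⟨-, -, e, he⟩ := hb1 i h
          exact ⟨e, by rw [map_mul, hwk _ hri, one_mul, he]⟩
    have h0 := orthogonality w hg hj _ hcc hsum i₀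
    rw [hr1 i₀ rfl, map_one, map_one, one_mul] at h0
    exact (hb1 i₀ hi₀).2.1 h0
  -- conclusion
  obtain ⟨s₀, hs₀⟩ := key
  intro i
  by_cases h : P i = 0
  · rw [h, map_zero, zero_div]
    exact S.isGaussFrac_zero u
  · refine ⟨C (s₀ * r i) * P' i, Q' i, hQ' i, ?_⟩
    obtain ⟨hbi, -, -⟩ := hb1 i h
    have e1 := hδa i
    rw [hbi] at e1
    have e2 : algebraMap R Ω (c' i) = algebraMap R Ω (c' i₀) * algebraMap R Ω (r i) := by
      rw [← map_mul, ← hr i]
    have e3 : algebraMap R Ω (c' i₀) = algebraMap R Ω δ * algebraMap R Ω s₀ := by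
      rw [← map_mul, ← hs₀]
    have hδΩ : algebraMap R Ω δ ≠ 0 := hne _ hδ0
    rw [map_mul, aeval_C, map_mul]
    apply mul_left_cancel₀ hδΩ
    rw [e1, e2, e3]
    have hq := hq0 i
    field_simp

end GaussSetupV

end Fermat.Agent.S28.H73

end
-- ==== END Fermat.Agent.S28.H73_LemmaAV

-- ==== BEGIN Fermat.Agent.S28.H90_Sym
section

set_option autoImplicit false
set_option linter.unusedSectionVars false

noncomputable section

namespace Fermat.Agent.S28.H90

open Polynomial

/-! ### The `t`-adic valuation on Laurent series -/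

section Val

variable {K : Type*} [Field K]

/-- the `t`-adic valuation -/
abbrev tVal (K : Type*) [Field K] : Valuation (LaurentSeries K) (WithZero (Multiplicative ℤ)) :=
  Valued.v

theorem tVal_eq_exp_neg_order {f : LaurentSeries K} (hf : f ≠ 0) :
    tVal K f = WithZero.exp (-f.order) := by
  have hle : tVal K f ≤ WithZero.exp (-f.order) :=
    (LaurentSeries.valuation_le_iff_coeff_lt_eq_zero K).2
      fun n hn => HahnSeries.coeff_eq_zero_of_lt_order hn
  by_contra hne
  have hlt : tVal K f < WithZero.exp (-f.order) := lt_of_le_of_ne hle hne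
  have h0 : tVal K f ≠ 0 := (Valuation.ne_zero_iff _).2 hf
  have h1 : WithZero.log (tVal K f) < -f.order := (WithZero.log_lt_iff_lt_exp h0).2 hlt
  have h2 : WithZero.log (tVal K f) ≤ -(f.order + 1) := by omega
  have h3 : tVal K f ≤ WithZero.exp (-(f.order + 1)) := (WithZero.log_le_iff_le_exp h0).1 h2
  have h4 := (LaurentSeries.valuation_le_iff_coeff_lt_eq_zero K).1 h3 f.order (by omega)
  exact hf (HahnSeries.coeff_order_eq_zero.1 h4)

theorem tVal_C {c : K} (hc : c ≠ 0) : tVal K (HahnSeries.C c) = 1 := by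
  have hne : (HahnSeries.C c : LaurentSeries K) ≠ 0 := HahnSeries.C_ne_zero hc
  rw [tVal_eq_exp_neg_order hne]
  have : (HahnSeries.C c : LaurentSeries K).order = 0 := by
    rw [HahnSeries.C_apply, HahnSeries.order_single hc]
  rw [this, neg_zero, WithZero.exp_zero]

theorem tVal_algebraMap {c : K} (hc : c ≠ 0) : tVal K (algebraMap K (LaurentSeries K) c) = 1 := by
  rw [LaurentSeries.algebraMap_apply]; exact tVal_C hc

theorem tVal_lt_one_of_order_pos {f : LaurentSeries K} (hf : 0 < f.order) : tVal K f < 1 := by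
  have hne : f ≠ 0 := by
    rintro rfl
    simp at hf
  rw [tVal_eq_exp_neg_order hne, ← WithZero.exp_zero, WithZero.exp_lt_exp]
  omega

theorem one_lt_tVal_of_order_neg {f : LaurentSeries K} (hf : f.order < 0) : 1 < tVal K f := by
  have hne : f ≠ 0 := by
    rintro rfl
    simp at hf
  rw [tVal_eq_exp_neg_order hne, ← WithZero.exp_zero, WithZero.exp_lt_exp]
  omega

end Val

/-! ### Interpolation -/

section Interp

variable {C L : Type*} [Field C] [Infinite C] [Field L] [Algebra C L]

theorem basisDivisor_map (x y : C) :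
    Lagrange.basisDivisor (algebraMap C L x) (algebraMap C L y) =
      (Lagrange.basisDivisor x y).map (algebraMap C L) := by
  simp only [Lagrange.basisDivisor, Polynomial.map_mul, Polynomial.map_sub, Polynomial.map_X,
    Polynomial.map_C, map_inv₀, map_sub]

theorem basis_map {ι : Type*} [DecidableEq ι] (s : Finset ι) (v : ι → C) (i : ι) :
    Lagrange.basis s (fun j => algebraMap C L (v j)) i =
      (Lagrange.basis s v i).map (algebraMap C L) := by
  simp only [Lagrange.basis, Polynomial.map_prod, basisDivisor_map]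

/-- A polynomial over `L` all of whose values at the constants `c ∈ C` lie in a `C`-subspace `W`
has its coefficients in `W`. -/
theorem coeff_mem_of_eval_mem (W : Submodule C L) (f : L[X])
    (h : ∀ c : C, f.eval (algebraMap C L c) ∈ W) (k : ℕ) : f.coeff k ∈ W := by
  classical
  set n := f.natDegree + 1 with hn
  let v : Fin n → C := fun i => Infinite.natEmbedding C i
  have hinj : Function.Injective fun j : Fin n => algebraMap C L (v j) := by
    intro i j hij
    have := (algebraMap C L).injective hij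
    exact Fin.ext ((Infinite.natEmbedding C).injective this)
  have hdeg : f.degree < ((Finset.univ : Finset (Fin n)).card : WithBot ℕ) := by
    rw [Finset.card_univ, Fintype.card_fin]
    calc f.degree ≤ f.natDegree := Polynomial.degree_le_natDegree
      _ < n := by exact_mod_cast Nat.lt_succ_self _
  have := Lagrange.eq_interpolate (s := Finset.univ)
    (v := fun j : Fin n => algebraMap C L (v j)) (f := f) (hinj.injOn) hdeg
  rw [Lagrange.interpolate_apply] at this
  rw [this, Polynomial.finsetSum_coeff]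
  refine Submodule.sum_mem _ fun i _ => ?_
  rw [Polynomial.coeff_C_mul, basis_map, Polynomial.coeff_map, mul_comm, ← Algebra.smul_def]
  exact W.smul_mem _ (h (v i))

end Interp

/-! ### The characteristic polynomial of the conjugates -/

section Chi

variable {C : Type} [Field C] {Q : Type} [Fintype Q]

/-- The characteristic polynomial `χ = ∏_q (X - U q)`. -/
def chi (U : Q → LaurentSeries C) : (LaurentSeries C)[X] :=
  ∏ q, (X - Polynomial.C (U q))

theorem chi_monic (U : Q → LaurentSeries C) : (chi U).Monic :=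
  monic_prod_of_monic _ _ fun q _ => monic_X_sub_C (U q)

theorem chi_natDegree (U : Q → LaurentSeries C) : (chi U).natDegree = Fintype.card Q := by
  rw [chi, natDegree_prod_of_monic _ _ fun q _ => monic_X_sub_C (U q)]
  simp

theorem chi_eval (U : Q → LaurentSeries C) (x : LaurentSeries C) :
    (chi U).eval x = ∏ q, (x - U q) := by
  simp [chi, eval_prod]

theorem chi_eval_self (U : Q → LaurentSeries C) (q : Q) : (chi U).eval (U q) = 0 := by
  rw [chi_eval]
  exact Finset.prod_eq_zero (Finset.mem_univ q) (sub_self _)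

/-- All coefficients of a product of `X - a_q` with `a_q` in a subring lie in that subring. -/
theorem coeff_prod_X_sub_C_mem {L : Type*} [CommRing L] (S : Subring L) {ι : Type*}
    (s : Finset ι) (a : ι → L) (ha : ∀ i ∈ s, a i ∈ S) (k : ℕ) :
    (∏ i ∈ s, (X - Polynomial.C (a i))).coeff k ∈ S := by
  have h : (∏ i ∈ s, (X - Polynomial.C (a i))) ∈ Polynomial.lifts S.subtype := by
    refine Subsemiring.prod_mem _ fun i hi => ?_
    rw [Polynomial.lifts_iff_coeff_lifts]
    intro n
    rw [Polynomial.coeff_sub, Polynomial.coeff_X, Polynomial.coeff_C]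
    have h1 : (if 1 = n then (1 : L) else 0) ∈ S := by split_ifs <;> simp [one_mem, zero_mem]
    have h2 : (if n = 0 then a i else 0) ∈ S := by
      split_ifs
      · exact ha i hi
      · exact zero_mem _
    exact ⟨⟨_, sub_mem h1 h2⟩, rfl⟩
  rw [Polynomial.lifts_iff_coeff_lifts] at h
  obtain ⟨y, hy⟩ := h k
  rw [← hy]
  exact y.2

variable [IsAlgClosed C] {O : ValuationSubring C} {q₀ : Q} {J : LaurentSeries C}
  {U : Q → LaurentSeries C} {nJ D : ℕ}

theorem chi_coeff_mem_adjoin (hyp : CoreHyp O q₀ J U nJ D) (k : ℕ) :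
    (chi U).coeff k ∈ Algebra.adjoin C ({J} : Set (LaurentSeries C)) := by
  have := coeff_mem_of_eval_mem (C := C)
    (Subalgebra.toSubmodule (Algebra.adjoin C ({J} : Set (LaurentSeries C)))) (chi U)
    (fun c => by
      rw [chi_eval, LaurentSeries.algebraMap_apply]
      exact hyp.sym c) k
  exact this

theorem J_ne_zero (hyp : CoreHyp O q₀ J U nJ D) : J ≠ 0 := hyp.J_unitLead.2.1

theorem one_lt_tVal_J (hyp : CoreHyp O q₀ J U nJ D) : 1 < tVal C J := by
  apply one_lt_tVal_of_order_neg
  rw [hyp.J_order]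
  have := hyp.nJ_pos
  omega

theorem tVal_J (hyp : CoreHyp O q₀ J U nJ D) : tVal C J = WithZero.exp (nJ : ℤ) := by
  rw [tVal_eq_exp_neg_order (J_ne_zero hyp), hyp.J_order, neg_neg]

theorem u_ne_zero (hyp : CoreHyp O q₀ J U nJ D) : U q₀ ≠ 0 := (hyp.U_unitLead q₀).2.1

theorem tVal_u (hyp : CoreHyp O q₀ J U nJ D) :
    tVal C (U q₀) = WithZero.exp ((D : ℤ) * (nJ : ℤ)) := by
  rw [tVal_eq_exp_neg_order (u_ne_zero hyp), hyp.U_order₀, neg_neg]

theorem tVal_u_eq_pow (hyp : CoreHyp O q₀ J U nJ D) : tVal C (U q₀) = tVal C J ^ D := by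
  rw [tVal_u hyp, tVal_J hyp, ← WithZero.exp_nsmul, nsmul_eq_mul]

theorem one_lt_tVal_u (hyp : CoreHyp O q₀ J U nJ D) : 1 < tVal C (U q₀) := by
  rw [tVal_u_eq_pow hyp]
  exact one_lt_pow₀ (one_lt_tVal_J hyp) hyp.D_pos.ne'

/-- the valuation of the coefficients of `χ` is bounded by that of `u` -/
theorem tVal_chi_coeff_le (hyp : CoreHyp O q₀ J U nJ D) (k : ℕ) :
    tVal C ((chi U).coeff k) ≤ tVal C (U q₀) := by
  classical
  have hsplit : chi U = (X - Polynomial.C (U q₀)) *
      ∏ q ∈ (Finset.univ : Finset Q).erase q₀, (X - Polynomial.C (U q)) := by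
    rw [chi]
    exact (Finset.mul_prod_erase Finset.univ (fun q => X - Polynomial.C (U q))
      (Finset.mem_univ q₀)).symm
  set χ' := ∏ q ∈ (Finset.univ : Finset Q).erase q₀, (X - Polynomial.C (U q)) with hχ'
  have h1 : ∀ n, tVal C (χ'.coeff n) ≤ 1 := by
    intro n
    have := coeff_prod_X_sub_C_mem (tVal C).integer ((Finset.univ : Finset Q).erase q₀) U
      (fun q hq => by
        rw [Valuation.mem_integer_iff]
        exact (tVal_lt_one_of_order_pos (hyp.U_order_pos q (Finset.ne_of_mem_erase hq))).le) n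
    rwa [Valuation.mem_integer_iff] at this
  have hu := (one_lt_tVal_u hyp).le
  rw [hsplit]
  cases k with
  | zero =>
    rw [Polynomial.mul_coeff_zero, Polynomial.coeff_sub, Polynomial.coeff_X_zero,
      Polynomial.coeff_C_zero, zero_sub, neg_mul, Valuation.map_neg, map_mul]
    calc tVal C (U q₀) * tVal C (χ'.coeff 0) ≤ tVal C (U q₀) * 1 := by gcongr; exact h1 0
      _ = tVal C (U q₀) := mul_one _
  | succ k =>
    rw [Polynomial.coeff_X_sub_C_mul]
    refine le_trans (Valuation.map_sub _ _ _) (max_le ((h1 k).trans hu) ?_)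
    rw [map_mul]
    calc tVal C (U q₀) * tVal C (χ'.coeff (k + 1)) ≤ tVal C (U q₀) * 1 := by gcongr; exact h1 _
      _ = tVal C (U q₀) := mul_one _

/-- `J` is transcendental over `C`. -/
theorem aeval_J_ne_zero (hyp : CoreHyp O q₀ J U nJ D) {p : C[X]} (hp : p ≠ 0) :
    aeval J p ≠ 0 :=
  H73.aeval_ne_zero_of_one_lt (tVal C) (fun _ hc => tVal_algebraMap hc) (one_lt_tVal_J hyp) p hp

/-- `u` is transcendental over `C`. -/
theorem aeval_u_ne_zero (hyp : CoreHyp O q₀ J U nJ D) {p : C[X]} (hp : p ≠ 0) :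
    aeval (U q₀) p ≠ 0 :=
  H73.aeval_ne_zero_of_one_lt (tVal C) (fun _ hc => tVal_algebraMap hc) (one_lt_tVal_u hyp) p hp

/-- Polynomials in `J` of valuation `≤ w(u)` have degree `≤ D`. -/
theorem natDegree_le_of_tVal_le (hyp : CoreHyp O q₀ J U nJ D) (p : C[X])
    (h : tVal C (aeval J p) ≤ tVal C (U q₀)) : p.natDegree ≤ D := by
  by_cases hp : p = 0
  · subst hp; simp
  rw [H73.valuation_aeval_eq_pow (tVal C) (fun _ hc => tVal_algebraMap hc) (one_lt_tVal_J hyp) p hp,
    tVal_u_eq_pow hyp] at h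
  exact (pow_le_pow_iff_right₀ (one_lt_tVal_J hyp)).1 h

/-- The coefficients of `χ` as polynomials in `J`, of degree `≤ D`. -/
theorem exists_chi_coeff (hyp : CoreHyp O q₀ J U nJ D) (k : ℕ) :
    ∃ p : C[X], aeval J p = (chi U).coeff k ∧ p.natDegree ≤ D := by
  have h := chi_coeff_mem_adjoin hyp k
  rw [Algebra.adjoin_singleton_eq_range_aeval] at h
  obtain ⟨p, hp⟩ := h
  refine ⟨p, hp, natDegree_le_of_tVal_le hyp p ?_⟩
  have hp' : aeval J p = (chi U).coeff k := hp
  rw [hp']
  exact tVal_chi_coeff_le hyp k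

end Chi

/-! ### `C(u, J) = ⊕_{i<D} C(u) J^i` -/

section Decomp

open IntermediateField

variable {C : Type} [Field C] [IsAlgClosed C] {O : ValuationSubring C} {Q : Type} [Fintype Q]
  {q₀ : Q} {J : LaurentSeries C} {U : Q → LaurentSeries C} {nJ D : ℕ}

/-- `J` satisfies a nonzero polynomial of degree `≤ D` over `C(u)`. -/
theorem exists_relation (hyp : CoreHyp O q₀ J U nJ D) :
    ∃ g : (C⟮U q₀⟯)[X], g ≠ 0 ∧ aeval J g = 0 ∧ g.natDegree ≤ D := by
  classical
  choose p hp hpdeg using exists_chi_coeff hyp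
  set m := Fintype.card Q with hm
  set uK : C⟮U q₀⟯ := AdjoinSimple.gen C (U q₀) with huK
  have huK' : (uK : LaurentSeries C) = U q₀ := AdjoinSimple.coe_gen C (U q₀)
  -- the top coefficient
  have hpm : p m = 1 := by
    have h1 : aeval J (p m) = 1 := by
      rw [hp, hm, ← chi_natDegree U]
      exact (chi_monic U).coeff_natDegree
    by_contra hne
    have h2 : aeval J (p m - 1) = 0 := by rw [map_sub, h1, map_one, sub_self]
    exact aeval_J_ne_zero hyp (sub_ne_zero.2 hne) h2
  refine ⟨∑ k ∈ Finset.range (m + 1), Polynomial.C (uK ^ k) * (p k).map (algebraMap C C⟮U q₀⟯),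
    ?_, ?_, ?_⟩
  · intro h0
    have hc := congrArg (fun g : (C⟮U q₀⟯)[X] => ((g.coeff 0 : C⟮U q₀⟯) : LaurentSeries C)) h0
    simp only [Polynomial.finsetSum_coeff, Polynomial.coeff_C_mul, Polynomial.coeff_map,
      Polynomial.coeff_zero] at hc
    -- the polynomial `r₀`
    set r₀ : C[X] := ∑ k ∈ Finset.range (m + 1), Polynomial.C ((p k).coeff 0) * X ^ k with hr₀
    have hr₀ne : r₀ ≠ 0 := by
      intro h
      have := congrArg (fun r : C[X] => r.coeff m) h
      simp only [hr₀, Polynomial.finsetSum_coeff, Polynomial.coeff_C_mul, Polynomial.coeff_X_pow,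
        Polynomial.coeff_zero] at this
      rw [Finset.sum_eq_single m] at this
      · simp [hpm] at this
      · intro b _ hb
        simp [hb.symm]
      · intro h'
        exact absurd (Finset.self_mem_range_succ m) h'
    apply aeval_u_ne_zero hyp hr₀ne
    rw [hr₀, map_sum]
    have : (∑ k ∈ Finset.range (m + 1), aeval (U q₀) (Polynomial.C ((p k).coeff 0) * X ^ k)) =
        ((∑ k ∈ Finset.range (m + 1), uK ^ k * algebraMap C C⟮U q₀⟯ ((p k).coeff 0) :
          C⟮U q₀⟯) : LaurentSeries C) := by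
      push_cast
      refine Finset.sum_congr rfl fun k _ => ?_
      rw [map_mul, aeval_C, map_pow, aeval_X, huK', mul_comm]
    rw [this]
    exact hc
  · rw [map_sum]
    have hev : (chi U).eval (U q₀) = 0 := chi_eval_self U q₀
    rw [Polynomial.eval_eq_sum_range, chi_natDegree] at hev
    rw [← hev]
    refine Finset.sum_congr rfl fun k _ => ?_
    rw [map_mul, aeval_C, aeval_map_algebraMap, hp, mul_comm]
    congr 1
  · refine Polynomial.natDegree_sum_le_of_forall_le _ _ fun k _ => ?_
    exact (Polynomial.natDegree_C_mul_le _ _).trans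
      ((Polynomial.natDegree_map_le).trans (hpdeg k))

theorem isAlgebraic_J (hyp : CoreHyp O q₀ J U nJ D) : IsAlgebraic C⟮U q₀⟯ J := by
  obtain ⟨g, hg0, hg, -⟩ := exists_relation hyp
  exact ⟨g, hg0, hg⟩

theorem natDegree_minpoly_le (hyp : CoreHyp O q₀ J U nJ D) :
    (minpoly C⟮U q₀⟯ J).natDegree ≤ D := by
  obtain ⟨g, hg0, hg, hgD⟩ := exists_relation hyp
  exact (Polynomial.natDegree_le_natDegree (minpoly.degree_le_of_ne_zero _ _ hg0 hg)).trans hgD

/-- every element of `C(u, J)` is a `C(u)`-combination of `1, J, …, J^{D-1}` -/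
theorem mem_span_pow (hyp : CoreHyp O q₀ J U nJ D) {x : LaurentSeries C}
    (hx : x ∈ IntermediateField.adjoin C ({U q₀, J} : Set (LaurentSeries C))) :
    x ∈ Submodule.span C⟮U q₀⟯ (Set.range fun i : Fin D => J ^ (i : ℕ)) := by
  have halg := isAlgebraic_J hyp
  have hint : IsIntegral C⟮U q₀⟯ J := isAlgebraic_iff_isIntegral.1 halg
  have h1 : x ∈ (C⟮U q₀⟯)⟮J⟯ := by
    have := IntermediateField.adjoin_adjoin_left C ({U q₀} : Set (LaurentSeries C)) {J}
    have hx' : x ∈ IntermediateField.restrictScalars C ((C⟮U q₀⟯)⟮J⟯) := by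
      rw [this, Set.singleton_union]
      exact hx
    exact hx'
  have h2 : x ∈ Algebra.adjoin C⟮U q₀⟯ ({J} : Set (LaurentSeries C)) := by
    rw [← IntermediateField.adjoin_simple_toSubalgebra_of_isAlgebraic halg]
    exact h1
  rw [Algebra.adjoin_singleton_eq_range_aeval] at h2
  obtain ⟨f, hf⟩ := h2
  have h3 := hint.mem_span_pow (y := x) ⟨f, hf.symm⟩
  refine Submodule.span_mono ?_ h3
  rintro _ ⟨i, rfl⟩
  exact ⟨⟨i, lt_of_lt_of_le i.2 (natDegree_minpoly_le hyp)⟩, rfl⟩

/-- **(C3)**: every element of `C(u, J)` is `∑_{i<D} (P_i(u)/Q_i(u)) J^i`. -/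
theorem exists_decomp (hyp : CoreHyp O q₀ J U nJ D) {x : LaurentSeries C}
    (hx : x ∈ IntermediateField.adjoin C ({U q₀, J} : Set (LaurentSeries C))) :
    ∃ P Q : Fin D → C[X], (∀ i, Q i ≠ 0) ∧
      x = ∑ i, aeval (U q₀) (P i) / aeval (U q₀) (Q i) * J ^ (i : ℕ) := by
  classical
  obtain ⟨c, hc⟩ := (Submodule.mem_span_range_iff_exists_fun _).1 (mem_span_pow hyp hx)
  have hmem : ∀ i, ∃ r s : C[X], ((c i : C⟮U q₀⟯) : LaurentSeries C) =
      aeval (U q₀) r / aeval (U q₀) s := fun i =>
    (IntermediateField.mem_adjoin_simple_iff C _).1 (c i).2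
  choose r s hrs using hmem
  refine ⟨fun i => if s i = 0 then 0 else r i, fun i => if s i = 0 then 1 else s i, ?_, ?_⟩
  · intro i
    by_cases h : s i = 0
    · simp [h]
    · simp [h]
  · rw [← hc]
    refine Finset.sum_congr rfl fun i _ => ?_
    rw [IntermediateField.smul_def, smul_eq_mul]
    congr 1
    by_cases h : s i = 0
    · simp only [h, if_true, map_zero, zero_div]
      rw [hrs i, h, map_zero, div_zero]
    · simp only [h, if_false]
      exact hrs i

end Decomp

end Fermat.Agent.S28.H90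

end
end
-- ==== END Fermat.Agent.S28.H90_Sym

-- ==== BEGIN Fermat.Agent.S28.H92_Lagrange
section

set_option autoImplicit false

namespace Fermat.Agent.S28.H92

open Polynomial

/-- If all values of a polynomial `p` over a field `L` at the points of an infinite subfield `F`
lie in an `F`-submodule `A` of `L`, then all coefficients of `p` lie in `A`. -/
theorem coeff_mem_of_forall_eval_mem {F L : Type*} [Field F] [Infinite F] [Field L] [Algebra F L]
    (A : Submodule F L) (p : L[X]) (h : ∀ c : F, p.eval (algebraMap F L c) ∈ A) (k : ℕ) :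
    p.coeff k ∈ A := by
  classical
  obtain ⟨s, hs⟩ := Infinite.exists_subset_card_eq F (p.natDegree + 1)
  have hinj : Set.InjOn (fun c : F => algebraMap F L c) (s : Set F) :=
    (algebraMap F L).injective.injOn
  have hdeg : p.degree < s.card := by
    rw [hs]
    exact lt_of_le_of_lt degree_le_natDegree (by exact_mod_cast Nat.lt_succ_self _)
  have hp := Lagrange.eq_interpolate (f := p) (s := s) (v := fun c : F => algebraMap F L c) hinj hdeg
  have hbasis : ∀ i ∈ s, Lagrange.basis s (fun c : F => algebraMap F L c) i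
      = (Lagrange.basis s (fun c : F => c) i).map (algebraMap F L) := by
    intro i _
    simp only [Lagrange.basis, Lagrange.basisDivisor, Polynomial.map_prod, Polynomial.map_mul,
      Polynomial.map_sub, Polynomial.map_X, Polynomial.map_C, map_inv₀, map_sub]
  rw [hp, Lagrange.interpolate_apply, finsetSum_coeff]
  refine Submodule.sum_mem _ fun i hi => ?_
  rw [hbasis i hi, coeff_C_mul, coeff_map, mul_comm, ← Algebra.smul_def]
  exact A.smul_mem _ (h i)

/-- A polynomial whose coefficients lie in an intermediate field `E` takes values in `E` at points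
of `E`. -/
theorem eval_mem_of_coeff_mem {F L : Type*} [Field F] [Field L] [Algebra F L]
    (E : IntermediateField F L) (p : L[X]) (hp : ∀ k, p.coeff k ∈ E) {a : L} (ha : a ∈ E) :
    p.eval a ∈ E := by
  rw [eval_eq_sum_range]
  exact E.sum_mem fun k _ => E.mul_mem (hp k) (pow_mem ha k)

/-- **Abstract Lagrange lemma.** -/
theorem lagrange_abstract {F L : Type*} [Field F] [Infinite F] [Field L] [Algebra F L]
    {Q : Type*} [Fintype Q] (q₀ : Q) (A : Subalgebra F L) (E : IntermediateField F L)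
    (hAE : ∀ a ∈ A, a ∈ E) (U Y : Q → L) (hU₀ : U q₀ ∈ E)
    (hU : ∀ q, q ≠ q₀ → U q ≠ U q₀)
    (hsym : ∀ c s : F, (∏ q, (algebraMap F L c - U q - algebraMap F L s * Y q)) ∈ A) :
    Y q₀ ∈ E := by
  classical
  -- the two-variable polynomial: outer variable `T`, inner variable `S`
  set W : L[X][X] := ∏ q, (X - C (C (U q) + X * C (Y q))) with hW
  have hmap : ∀ a : L, W.map (evalRingHom a) = ∏ q, (X - C (U q + a * Y q)) := by
    intro a
    simp only [hW, Polynomial.map_prod, Polynomial.map_sub, Polynomial.map_X, Polynomial.map_C,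
      coe_evalRingHom, eval_add, eval_mul, eval_C, eval_X]
  have hcoeff : ∀ k m, (W.coeff k).coeff m ∈ A := by
    intro k m
    refine coeff_mem_of_forall_eval_mem (Subalgebra.toSubmodule A) _ (fun s => ?_) m
    have h1 : (W.coeff k).eval (algebraMap F L s)
        = (W.map (evalRingHom (algebraMap F L s))).coeff k := by
      rw [coeff_map]; rfl
    rw [h1, hmap]
    refine coeff_mem_of_forall_eval_mem (Subalgebra.toSubmodule A) _ (fun c => ?_) k
    rw [eval_prod]
    simp only [eval_sub, eval_X, eval_C]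
    have h2 := hsym c s
    have h3 : (∏ q, (algebraMap F L c - (U q + algebraMap F L s * Y q)))
        = ∏ q, (algebraMap F L c - U q - algebraMap F L s * Y q) :=
      Finset.prod_congr rfl fun q _ => by ring
    rw [h3]
    exact h2
  -- evaluation at `T = U q₀`
  set Z : L[X] := W.eval (C (U q₀)) with hZ
  have hZ1 : Z.coeff 1 ∈ E := by
    rw [hZ, eval_eq_sum_range, finsetSum_coeff]
    refine E.sum_mem fun k _ => ?_
    rw [← C_pow, coeff_mul_C]
    exact E.mul_mem (hAE _ (hcoeff k 1)) (pow_mem hU₀ k)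
  have hZprod : Z = ∏ q, (C (U q₀) - (C (U q) + X * C (Y q))) := by
    rw [hZ, hW, eval_prod]
    simp
  set den : L := ∏ q ∈ Finset.univ.erase q₀, (U q₀ - U q) with hden
  have hZ1' : Z.coeff 1 = -(Y q₀ * den) := by
    rw [hZprod, ← Finset.mul_prod_erase Finset.univ _ (Finset.mem_univ q₀)]
    have h4 : (C (U q₀) - (C (U q₀) + X * C (Y q₀)) : L[X]) = X * (- C (Y q₀)) := by ring
    rw [h4, mul_assoc, coeff_X_mul, ← C_neg, coeff_C_mul, coeff_zero_eq_eval_zero, eval_prod]
    simp [hden]
  have hden0 : den ≠ 0 := by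
    rw [hden, Finset.prod_ne_zero_iff]
    intro q hq
    rw [Finset.mem_erase] at hq
    exact sub_ne_zero.2 (hU q hq.1).symm
  -- the denominator via the derivative of `P₀ = ∏ (T - U q)`
  set P₀ : L[X] := ∏ q, (X - C (U q)) with hP₀
  have hP₀coeff : ∀ k, P₀.coeff k ∈ A := by
    intro k
    refine coeff_mem_of_forall_eval_mem (Subalgebra.toSubmodule A) _ (fun c => ?_) k
    rw [hP₀, eval_prod]
    simp only [eval_sub, eval_X, eval_C]
    have h2 := hsym c 0
    have h3 : (∏ q, (algebraMap F L c - U q))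
        = ∏ q, (algebraMap F L c - U q - algebraMap F L 0 * Y q) :=
      Finset.prod_congr rfl fun q _ => by rw [map_zero, zero_mul, sub_zero]
    rw [h3]
    exact h2
  have hdenE : den ∈ E := by
    have h5 : (derivative P₀).eval (U q₀) = den := by
      rw [hP₀, derivative_prod_finset, eval_finsetSum]
      rw [Finset.sum_eq_single q₀]
      · simp [eval_prod, hden]
      · intro q _ hq
        rw [eval_mul, eval_prod]
        have : ∏ j ∈ Finset.univ.erase q, eval (U q₀) (X - C (U j)) = 0 := by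
          refine Finset.prod_eq_zero (i := q₀) (Finset.mem_erase.2 ⟨hq.symm, Finset.mem_univ _⟩) ?_
          simp
        rw [this, zero_mul]
      · intro h
        exact absurd (Finset.mem_univ q₀) h
    rw [← h5]
    refine eval_mem_of_coeff_mem E _ (fun k => ?_) hU₀
    rw [coeff_derivative]
    refine E.mul_mem (hAE _ (hP₀coeff _)) ?_
    have : ((k : L) + 1) = ((k + 1 : ℕ) : L) := by push_cast; rfl
    rw [this]
    exact natCast_mem E _
  have hfin : Y q₀ = -(Z.coeff 1) / den := by
    rw [hZ1', neg_neg, mul_div_assoc, div_self hden0, mul_one]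
  rw [hfin]
  exact E.div_mem (E.neg_mem hZ1) hdenE

/-- The constant Laurent series `HahnSeries.C c` is `algebraMap C (LaurentSeries C) c` for the
algebra structure that instance resolution finds on `LaurentSeries C` (namely
`HahnSeries.powerSeriesAlgebra`, which is not reducibly the same as `HahnSeries.instAlgebra`). -/
theorem hahnC_eq_algebraMap {C : Type} [Field C] (c : C) :
    (HahnSeries.C c : LaurentSeries C) = algebraMap C (LaurentSeries C) c := by
  rw [HahnSeries.algebraMap_apply', ← HahnSeries.ofPowerSeries_C]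
  rfl

/-- **WP-C3**: the statement `Stmt_Lagrange` of `Fermat/Agent/S28/Defs.lean`. -/
theorem stmt_lagrange : Fermat.Agent.S28.Stmt_Lagrange := by
  intro C _ _ Q _ q₀ J U X hU hsym
  refine lagrange_abstract (F := C) (L := LaurentSeries C) q₀
    (Algebra.adjoin C ({J} : Set (LaurentSeries C)))
    (IntermediateField.adjoin C ({U q₀, J} : Set (LaurentSeries C))) ?_ U X ?_ hU ?_
  · intro a ha
    have hle : Algebra.adjoin C ({J} : Set (LaurentSeries C))
        ≤ (IntermediateField.adjoin C ({U q₀, J} : Set (LaurentSeries C))).toSubalgebra := by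
      refine Algebra.adjoin_le ?_
      intro x hx
      rw [Set.mem_singleton_iff] at hx
      subst hx
      exact IntermediateField.subset_adjoin C _ (by simp)
    exact hle ha
  · exact IntermediateField.subset_adjoin C _ (by simp)
  · intro c s
    have := hsym c s
    simp only [hahnC_eq_algebraMap] at this
    exact this

end Fermat.Agent.S28.H92

end
-- ==== END Fermat.Agent.S28.H92_Lagrange

-- ==== BEGIN Fermat.Agent.S30.Defs
section

/-!
# S30 wiring: interfaces (owner helper29; cluster R)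

`S30` (an eigensystem `χ : 𝕋 → 𝒪'` of the weight-2 Hecke algebra has a 2-dimensional Galois
representation with the right Frobenius characteristic polynomials) is derived from

* `Stmt_TatePiece` (interface to cluster G): a NONZERO free module of ANY finite rank with a
  continuous Galois action, unramified outside `N p`, on which every Frobenius lift at a good
  prime `ℓ` satisfies the Eichler–Shimura relation `F² - χ(T_ℓ) F + ℓ = 0`
  (the `χ`-eigenspace of the Tate module of `J₀(N)`), and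
* `Fermat.Agent.R.Stmt_FD` (Frobenius density, shared item 61),

by pure algebra (no Weil pairing, no multiplicity one, no full Hecke algebra):

* A `Stmt_CycChar`   : the `p`-adic cyclotomic character with values in `𝒪`.
* B `Stmt_Step0`     : every `g` satisfies `g² - a(g) g + ε(g) = 0`.
* C `Stmt_SmallPiece`: a stable subspace of dimension `1` or `2` over a finite extension.
* D `Stmt_LemmaB`    : in rank 2, `det = ε` or everything is scalar.
* E `Stmt_Lattice`   : saturated lattices are direct summands (intertwining matrices `P`, `Q`).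
* F `Stmt_CharSum`   : `ψ ⊕ ε ψ⁻¹`.

Everything is phrased with matrices `Matrix (Fin r) (Fin r) R`, so that base change is
`Matrix.map`.
-/

set_option autoImplicit false

open Polynomial

namespace Fermat.Agent.S30

/-- The absolute Galois group of `ℚ`. -/
abbrev GQ : Type := AlgebraicClosure ℚ ≃ₐ[ℚ] AlgebraicClosure ℚ

section Notions

variable {R : Type} [CommRing R] {r : ℕ}

/-- Adic continuity of a matrix representation over a local ring. -/
def MatAdicCont [IsLocalRing R] (ρ : GQ →* Matrix (Fin r) (Fin r) R) : Prop :=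
  ∀ n : ℕ, ∃ L : IntermediateField ℚ (AlgebraicClosure ℚ), FiniteDimensional ℚ L ∧
    ∀ σ : GQ, (∀ x ∈ L, σ x = x) → ∀ i j, (ρ σ - 1) i j ∈ IsLocalRing.maximalIdeal R ^ n

/-- Adic continuity of a character. -/
def CharAdicCont [IsLocalRing R] (ε : GQ →* Rˣ) : Prop :=
  ∀ n : ℕ, ∃ L : IntermediateField ℚ (AlgebraicClosure ℚ), FiniteDimensional ℚ L ∧
    ∀ σ : GQ, (∀ x ∈ L, σ x = x) → ((ε σ : R) - 1) ∈ IsLocalRing.maximalIdeal R ^ n

/-- A matrix representation is unramified at `q`. -/
def MatUnramAt (ρ : GQ →* Matrix (Fin r) (Fin r) R) (q : ℕ) : Prop :=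
  ∀ P : ValuationSubring (AlgebraicClosure ℚ), P.LiesOverPrime q →
    ∀ σ ∈ P.inertiaSubgroupIn ℚ, ρ σ = 1

/-- A character is unramified at `q`. -/
def CharUnramAt (ε : GQ →* Rˣ) (q : ℕ) : Prop :=
  ∀ P : ValuationSubring (AlgebraicClosure ℚ), P.LiesOverPrime q →
    ∀ σ ∈ P.inertiaSubgroupIn ℚ, ε σ = 1

/-- The Eichler–Shimura relation `F² - a_ℓ F + ℓ = 0` for all Frobenius lifts `F` at the primes
`ℓ ∉ S`. -/
def MatES (ρ : GQ →* Matrix (Fin r) (Fin r) R) (a : ℕ → R) (S : Finset ℕ) : Prop :=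
  ∀ ℓ : ℕ, ℓ.Prime → ℓ ∉ S → ∀ A : ValuationSubring (AlgebraicClosure ℚ), A.LiesOverPrime ℓ →
    ∀ σ : GQ, A.IsFrobeniusAt σ ℓ → ρ σ * ρ σ - a ℓ • ρ σ + (ℓ : R) • (1 : Matrix _ _ R) = 0

/-- `ε` is "cyclotomic away from `S`": `ε(F) = ℓ` for the Frobenius lifts at the primes `ℓ ∉ S`. -/
def CharCycAt (ε : GQ →* Rˣ) (S : Finset ℕ) : Prop :=
  ∀ ℓ : ℕ, ℓ.Prime → ℓ ∉ S → ∀ A : ValuationSubring (AlgebraicClosure ℚ), A.LiesOverPrime ℓ →
    ∀ σ : GQ, A.IsFrobeniusAt σ ℓ → (ε σ : R) = (ℓ : R)

/-- Every group element satisfies a monic quadratic with constant term `ε g`. -/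
def QuadAll {G : Type} [Group G] (ρ : G →* Matrix (Fin r) (Fin r) R) (ε : G →* Rˣ) : Prop :=
  ∀ g : G, ∃ a : R, ρ g * ρ g - a • ρ g + (ε g : R) • (1 : Matrix _ _ R) = 0

end Notions

/-- **Interface to cluster G.** For every eigensystem `χ` there is a nonzero Eichler–Shimura
piece: a continuous matrix representation of some rank `r > 0` over `𝒪'`, unramified outside
`N p`, satisfying the Eichler–Shimura relation with `a_ℓ = χ(T_ℓ)`. -/
def Stmt_TatePiece : Prop :=
  ∀ (p : ℕ) [Fact p.Prime] (N : ℕ) [NeZero N] (S : Finset ℕ)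
    (_hpS : p ∈ S) (_hNS : ∀ q : ℕ, q.Prime → q ∣ N → q ∈ S)
    (𝒪' : Type) [CommRing 𝒪'] [IsDomain 𝒪'] [IsDiscreteValuationRing 𝒪']
    [IsAdicComplete (IsLocalRing.maximalIdeal 𝒪') 𝒪'] [Finite (IsLocalRing.ResidueField 𝒪')]
    [CharZero 𝒪'] (_hp𝒪' : (p : 𝒪') ∈ IsLocalRing.maximalIdeal 𝒪')
    (χ : CuspForm.heckeAlgebra N 2 (↑S : Set ℕ) →+* 𝒪'),
    ∃ (r : ℕ) (ρ : GQ →* Matrix (Fin r) (Fin r) 𝒪'), 0 < r ∧ MatAdicCont ρ ∧
      (∀ (ℓ : ℕ) (hℓ : ℓ.Prime) (hℓN : ¬ ℓ ∣ N) (hℓS : ℓ ∉ (↑S : Set ℕ)),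
        ∀ A : ValuationSubring (AlgebraicClosure ℚ), A.LiesOverPrime ℓ →
          ∀ σ : GQ, A.IsFrobeniusAt σ ℓ →
            ρ σ * ρ σ - χ (CuspForm.heckeAlgebra.T hℓ hℓN hℓS) • ρ σ
              + (ℓ : 𝒪') • (1 : Matrix _ _ 𝒪') = 0) ∧
      (∀ q : ℕ, q.Prime → ¬ q ∣ N → q ≠ p → MatUnramAt ρ q)

/-- **A (CycChar).** The `p`-adic cyclotomic character with values in a complete discrete
valuation ring of residue characteristic `p`. -/
def Stmt_CycChar : Prop :=
  ∀ (p : ℕ) [Fact p.Prime] (𝒪 : Type) [CommRing 𝒪] [IsDomain 𝒪] [IsDiscreteValuationRing 𝒪]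
    [IsAdicComplete (IsLocalRing.maximalIdeal 𝒪) 𝒪] [CharZero 𝒪]
    (_hp : (p : 𝒪) ∈ IsLocalRing.maximalIdeal 𝒪) (S : Finset ℕ) (_hpS : p ∈ S),
    ∃ ε : GQ →* 𝒪ˣ, CharAdicCont ε ∧ CharCycAt ε S ∧
      ∀ q : ℕ, q.Prime → q ≠ p → CharUnramAt ε q

/-- **B (Step 0).** Frobenius density + completeness: every element of the Galois group
satisfies a quadratic relation with constant term `ε g`. -/
def Stmt_Step0 : Prop :=
  ∀ (𝒪 : Type) [CommRing 𝒪] [IsDomain 𝒪] [IsDiscreteValuationRing 𝒪]
    [IsAdicComplete (IsLocalRing.maximalIdeal 𝒪) 𝒪]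
    (S : Finset ℕ) (a : ℕ → 𝒪) (r : ℕ) (_hr : 0 < r) (ρ : GQ →* Matrix (Fin r) (Fin r) 𝒪)
    (ε : GQ →* 𝒪ˣ), MatAdicCont ρ → CharAdicCont ε → MatES ρ a S → CharCycAt ε S →
      QuadAll ρ ε

/-- **C (SmallPiece).** Pure linear algebra: if every group element satisfies a monic quadratic
whose constant term is a character, there is a stable subspace of dimension `1` or `2` over a
finite extension of the base field. -/
def Stmt_SmallPiece : Prop :=
  ∀ (K : Type) [Field K] [CharZero K] (G : Type) [Group G] (r : ℕ) (_hr : 0 < r)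
    (ρ : G →* Matrix (Fin r) (Fin r) K) (ε : G →* Kˣ), QuadAll ρ ε →
    ∃ (K'' : Type) (_ : Field K'') (_ : Algebra K K'') (_ : FiniteDimensional K K'')
      (W : Submodule K'' (Fin r → K'')),
      W ≠ ⊥ ∧ Module.finrank K'' W ≤ 2 ∧
        ∀ g : G, ∀ w ∈ W, ((ρ g).map (algebraMap K K'')).mulVec w ∈ W

/-- **D (Lemma B).** In rank two, either `det = ε` or the representation is scalar. -/
def Stmt_LemmaB : Prop :=
  ∀ (R : Type) [CommRing R] [IsDomain R] (G : Type) [Group G]
    (ρ : G →* Matrix (Fin 2) (Fin 2) R) (ε : G →* Rˣ), QuadAll ρ ε →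
    (∀ g : G, (ρ g).det = (ε g : R)) ∨ (∀ g : G, ∃ c : R, ρ g = c • (1 : Matrix _ _ R))

/-- **E (Lattice).** Over a principal ideal domain `R` with fraction field `K`, the lattice
`W ∩ R^r` of a subspace `W ⊆ K^r` is a direct summand of `R^r`: there are matrices `P`
(columns = a basis of the lattice) and `Q` (a retraction). -/
def Stmt_Lattice : Prop :=
  ∀ (R : Type) [CommRing R] [IsDomain R] [IsPrincipalIdealRing R]
    (K : Type) [Field K] [Algebra R K] [IsFractionRing R K]
    (r : ℕ) (W : Submodule K (Fin r → K)),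
    ∃ (P : Matrix (Fin r) (Fin (Module.finrank K W)) R)
      (Q : Matrix (Fin (Module.finrank K W)) (Fin r) R),
      Q * P = 1 ∧ (∀ j, (fun i => algebraMap R K (P i j)) ∈ W) ∧
        ∀ v : Fin r → R, (fun i => algebraMap R K (v i)) ∈ W → P.mulVec (Q.mulVec v) = v

/-- **F (CharSum).** A character `ψ` whose values at Frobenius lifts are roots of the
Eichler–Shimura polynomials gives the 2-dimensional representation `ψ ⊕ ε ψ⁻¹` with the right
characteristic polynomials. -/
def Stmt_CharSum : Prop :=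
  ∀ (R : Type) [CommRing R] (G : Type) [Group G] (ψ ε : G →* Rˣ),
    ∃ ρ : G →* Matrix (Fin 2) (Fin 2) R,
      (∀ g, ρ g = Matrix.diagonal ![(ψ g : R), ((ε g * (ψ g)⁻¹ : Rˣ) : R)]) ∧
      ∀ (g : G) (a ℓ : R), (ψ g : R) * ψ g - a * ψ g + ε g = 0 → (ε g : R) = ℓ →
        (ρ g).charpoly = X ^ 2 - C a * X + C ℓ

end Fermat.Agent.S30

end
-- ==== END Fermat.Agent.S30.Defs

-- ==== BEGIN Fermat.Agent.S36.H44_NormSq
section

/-!
# S35 / S36, T-X (route Y), helper44: norms in a Hecke square (abstract)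

Fields `A = F_M`, `B = F_{Mq}`, `C = F_{Mℓ}`, `D = F_{Mqℓ}`; `p : A → B` a degeneracy map at `q`,
`a, b : A → C` and `a', b' : B → D` the degeneracy maps at `ℓ`, `ι : C → D` the lift of `p`.

* `finrank_comp_h44` : the tower law for composites of ring homomorphisms of fields;
* `finrank_eq_of_square` : `[B : A] = [D : C]` if `[C : A] = [D : B] ≠ 0`;
* `norm_hecke_square` : `N_p (N_{a'} (b' f)) = N_a (b (N_p f))`.
-/

set_option autoImplicit false
set_option linter.style.haveILetI false
set_option linter.unusedSectionVars false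

noncomputable section

namespace Fermat.Agent.S36.H44

open Fermat.Agent.Lib.HeckeComm

/-- The degree of a ring homomorphism of fields. -/
def finrankHom {A B : Type*} [Field A] [Field B] (φ : A →+* B) : ℕ :=
  letI := φ.toAlgebra
  Module.finrank A B

theorem finrank_comp_h44 {A B C : Type*} [Field A] [Field B] [Field C]
    (φ : A →+* B) (ψ : B →+* C) :
    finrankHom (ψ.comp φ) = finrankHom φ * finrankHom ψ := by
  letI := φ.toAlgebra
  letI := ψ.toAlgebra
  letI := (ψ.comp φ).toAlgebra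
  haveI : IsScalarTower A B C := IsScalarTower.of_algebraMap_eq fun _ => rfl
  exact (Module.finrank_mul_finrank A B C).symm

/-- In a commutative square, equal nonzero degrees on one pair of opposite sides give equal
degrees on the other pair. -/
theorem finrank_eq_of_square {A B C D : Type*} [Field A] [Field B] [Field C] [Field D]
    (p : A →+* B) (a : A →+* C) (a' : B →+* D) (ι : C →+* D)
    (hsq : a'.comp p = ι.comp a) (n : ℕ) (hn : n ≠ 0)
    (ha : finrankHom a = n) (ha' : finrankHom a' = n) :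
    finrankHom p = finrankHom ι := by
  have h1 := finrank_comp_h44 p a'
  have h2 := finrank_comp_h44 a ι
  rw [hsq, h2, ha, ha'] at h1
  have h3 : n * finrankHom ι = n * finrankHom p := by rw [h1, mul_comm]
  exact (Nat.eq_of_mul_eq_mul_left (Nat.pos_of_ne_zero hn) h3).symm

/-- **Norms in a Hecke square.** -/
theorem norm_hecke_square {A B C D : Type*} [Field A] [Field B] [Field C] [Field D]
    (p : A →+* B) (a b : A →+* C) (a' b' : B →+* D) (ι : C →+* D)
    (ha : a'.comp p = ι.comp a) (hb : ∀ x : A, b' (p x) = ι (b x))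
    (hfin : letI := p.toAlgebra; Module.Finite A B)
    (hfin' : letI := ι.toAlgebra; Module.Finite C D)
    (x₀ : B) (hgen : letI := p.toAlgebra; IntermediateField.adjoin A {x₀} = ⊤)
    (hgen' : letI := ι.toAlgebra; IntermediateField.adjoin C {b' x₀} = ⊤)
    (hdeg : finrankHom p = finrankHom ι)
    (f : B) :
    normAlongHom p (normAlongHom a' (b' f)) = normAlongHom a (b (normAlongHom p f)) := by
  rw [normAlongHom_comp, normAlongHom_baseChange p ι b b' hb hfin hfin' x₀ hgen hgen' hdeg f,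
    normAlongHom_comp, ha]

end Fermat.Agent.S36.H44

end
end
-- ==== END Fermat.Agent.S36.H44_NormSq

-- ==== BEGIN Fermat.Agent.S49.Eigenform
section

/-!
# From a simultaneous Hecke eigenvector to a normalised eigenform
-/

set_option autoImplicit false
set_option linter.style.haveILetI false

namespace Fermat.Agent.S49

open CuspForm CongruenceSubgroup ModularFormClass FormalHecke

variable {N : ℕ} [NeZero N]

/-- The "weight two, trivial character" Euler factor datum: `e ℓ = ℓ` for `ℓ ∤ N`, `0` else. -/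
noncomputable def levelChar (N : ℕ) (ℓ : ℕ) : ℂ := if ℓ ∣ N then 0 else (ℓ : ℂ)

/-- A function on primes recording the eigenvalues of `T_ℓ` / `U_ℓ`. -/
noncomputable def eigenvalueAt (χ : heckeAlgebra N 2 ∅ →+* ℂ) (ℓ : ℕ) : ℂ := by
  classical
  exact if hℓ : ℓ.Prime then
    (if hN : ℓ ∣ N then χ (heckeAlgebra.U hℓ hN (Set.notMem_empty ℓ))
      else χ (heckeAlgebra.T hℓ hN (Set.notMem_empty ℓ)))
    else 0

theorem eigenvalueAt_of_not_dvd (χ : heckeAlgebra N 2 ∅ →+* ℂ) {ℓ : ℕ} (hℓ : ℓ.Prime)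
    (hN : ¬ ℓ ∣ N) : eigenvalueAt χ ℓ = χ (heckeAlgebra.T hℓ hN (Set.notMem_empty ℓ)) := by
  unfold eigenvalueAt
  rw [dif_pos hℓ, dif_neg hN]

theorem eigenvalueAt_of_dvd (χ : heckeAlgebra N 2 ∅ →+* ℂ) {ℓ : ℕ} (hℓ : ℓ.Prime)
    (hN : ℓ ∣ N) : eigenvalueAt χ ℓ = χ (heckeAlgebra.U hℓ hN (Set.notMem_empty ℓ)) := by
  unfold eigenvalueAt
  rw [dif_pos hℓ, dif_pos hN]

/-- The q-coefficients of a simultaneous eigenvector satisfy the Hecke relations. -/
theorem qCoeff_eigen_relation (χ : heckeAlgebra N 2 ∅ →+* ℂ) (v : CuspForm (Gamma0 N) 2)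
    (hv : ∀ T : heckeAlgebra N 2 ∅,
      (T : Module.End ℂ (CuspForm (Gamma0 N) 2)) v = χ T • v)
    {ℓ : ℕ} (hℓ : ℓ.Prime) (n : ℕ) :
    qCoeff ⇑v (ℓ * n) + levelChar N ℓ * (if ℓ ∣ n then qCoeff ⇑v (n / ℓ) else 0)
      = eigenvalueAt χ ℓ * qCoeff ⇑v n := by
  by_cases hN : ℓ ∣ N
  · rw [eigenvalueAt_of_dvd χ hℓ hN, levelChar, if_pos hN, zero_mul, add_zero]
    have h1 := hv (heckeAlgebra.U hℓ hN (Set.notMem_empty ℓ))
    rw [heckeAlgebra.coe_U] at h1
    have h2 : qCoeff ⇑(_ : CuspForm (Gamma0 N) 2) n = qCoeff ⇑(_ : CuspForm (Gamma0 N) 2) n :=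
      congrArg (fun f : CuspForm (Gamma0 N) 2 => qCoeff ⇑f n) h1
    rw [qCoeff_heckeULin hℓ.ne_zero, qCoeff_smul] at h2
    rw [mul_comm ℓ n]
    exact h2
  · rw [eigenvalueAt_of_not_dvd χ hℓ hN, levelChar, if_neg hN]
    have h1 := hv (heckeAlgebra.T hℓ hN (Set.notMem_empty ℓ))
    rw [heckeAlgebra.coe_T] at h1
    have h2 : qCoeff ⇑(_ : CuspForm (Gamma0 N) 2) n = qCoeff ⇑(_ : CuspForm (Gamma0 N) 2) n :=
      congrArg (fun f : CuspForm (Gamma0 N) 2 => qCoeff ⇑f n) h1
    rw [qCoeff_heckeTLin, qCoeff_smul] at h2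
    have h21 : ((2 : ℤ) - 1) = 1 := by norm_num
    rw [h21, zpow_one] at h2
    rw [mul_comm ℓ n, ← h2]
    split_ifs <;> ring

/-- If the first coefficient of a sequence satisfying the Hecke relations vanishes (and the
zeroth one too), the sequence vanishes. -/
theorem eq_zero_of_relation {e c b : ℕ → ℂ}
    (hrel : ∀ ℓ : ℕ, ℓ.Prime → ∀ n : ℕ,
      b (ℓ * n) + e ℓ * (if ℓ ∣ n then b (n / ℓ) else 0) = c ℓ * b n)
    (h0 : b 0 = 0) (h1 : b 1 = 0) : ∀ n, b n = 0 := by
  intro n
  induction n using Nat.strong_induction_on with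
  | _ n ih =>
    rcases Nat.eq_zero_or_pos n with hn0 | hnpos
    · rw [hn0]; exact h0
    rcases Nat.eq_or_lt_of_le (Nat.one_le_of_lt hnpos) with hn1 | hn1
    · rw [← hn1]; exact h1
    obtain ⟨ℓ, hℓ, hℓn⟩ := Nat.exists_prime_and_dvd (show n ≠ 1 by omega)
    obtain ⟨m, rfl⟩ := hℓn
    have hmpos : 0 < m := by
      rcases Nat.eq_zero_or_pos m with h | h
      · subst h; simp at hnpos
      · exact h
    have hmlt : m < ℓ * m := by
      have := hℓ.one_lt
      nlinarith
    have hdivlt : m / ℓ < ℓ * m := lt_of_le_of_lt (Nat.div_le_self m ℓ) hmlt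
    have h := hrel ℓ hℓ m
    rw [ih m hmlt, ih (m / ℓ) hdivlt] at h
    simp only [ite_self, mul_zero, add_zero] at h
    exact h

theorem exists_normalized_eigenform (χ : heckeAlgebra N 2 ∅ →+* ℂ)
    (v : CuspForm (Gamma0 N) 2) (hv0 : v ≠ 0)
    (hv : ∀ T : heckeAlgebra N 2 ∅,
      (T : Module.End ℂ (CuspForm (Gamma0 N) 2)) v = χ T • v) :
    ∃ f : CuspForm (Gamma0 N) 2, f.IsNormalizedEigenform ∧
      ∀ (ℓ : ℕ) (hℓ : ℓ.Prime) (hℓN : ¬ ℓ ∣ N),
        qCoeff ⇑f ℓ = χ (heckeAlgebra.T hℓ hℓN (Set.notMem_empty ℓ)) := by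
  have hrel := fun (ℓ : ℕ) (hℓ : ℓ.Prime) (n : ℕ) => qCoeff_eigen_relation χ v hv hℓ n
  have hb1 : qCoeff ⇑v 1 ≠ 0 := by
    intro h1
    apply hv0
    apply cuspForm_eq_zero_of_qCoeff
    exact eq_zero_of_relation (e := levelChar N) (c := eigenvalueAt χ) hrel (qCoeff_at_zero v) h1
  set f : CuspForm (Gamma0 N) 2 := (qCoeff ⇑v 1)⁻¹ • v with hf
  have hfcoeff : ∀ n, qCoeff ⇑f n = (qCoeff ⇑v 1)⁻¹ * qCoeff ⇑v n := fun n => qCoeff_smul _ _ _
  have hf1 : qCoeff ⇑f 1 = 1 := by
    rw [hfcoeff, inv_mul_cancel₀ hb1]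
  have hfrel : ∀ ℓ : ℕ, ℓ.Prime → ∀ n : ℕ,
      qCoeff ⇑f (ℓ * n) + levelChar N ℓ * (if ℓ ∣ n then qCoeff ⇑f (n / ℓ) else 0)
        = eigenvalueAt χ ℓ * qCoeff ⇑f n := by
    intro ℓ hℓ n
    rw [hfcoeff, hfcoeff, hfcoeff]
    have := hrel ℓ hℓ n
    have h2 : (qCoeff ⇑v 1)⁻¹ * qCoeff ⇑v (ℓ * n)
        + levelChar N ℓ * (if ℓ ∣ n then (qCoeff ⇑v 1)⁻¹ * qCoeff ⇑v (n / ℓ) else 0)
        = (qCoeff ⇑v 1)⁻¹ * (qCoeff ⇑v (ℓ * n)
          + levelChar N ℓ * (if ℓ ∣ n then qCoeff ⇑v (n / ℓ) else 0)) := by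
      split_ifs <;> ring
    rw [h2, this]
    ring
  have hfℓ : ∀ ℓ : ℕ, ℓ.Prime → qCoeff ⇑f ℓ = eigenvalueAt χ ℓ := by
    intro ℓ hℓ
    have := hfrel ℓ hℓ 1
    have hnd : ¬ ℓ ∣ 1 := by
      intro h
      exact hℓ.one_lt.ne' (Nat.dvd_one.mp h)
    rw [if_neg hnd, mul_zero, add_zero, mul_one, hf1, mul_one] at this
    exact this
  have heig : IsEigensystem (levelChar N) (fun n => qCoeff ⇑f n) := by
    refine ⟨hf1, ?_⟩
    intro ℓ hℓ n
    show qCoeff ⇑f (ℓ * n) + levelChar N ℓ * (if ℓ ∣ n then qCoeff ⇑f (n / ℓ) else 0)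
      = qCoeff ⇑f ℓ * qCoeff ⇑f n
    rw [hfrel ℓ hℓ n, hfℓ ℓ hℓ]
  have hrec := formal_isRecursive heig
  refine ⟨f, ⟨hf1, hrec.2.1, ?_, ?_⟩, ?_⟩
  · intro p r hp hpN
    have := hrec.2.2 p r hp
    simp only [levelChar, if_neg hpN] at this
    exact this
  · intro p r hp hpN
    have := hrec.2.2 p r hp
    simp only [levelChar, if_pos hpN, zero_mul, sub_zero] at this
    exact this
  · intro ℓ hℓ hℓN
    rw [hfℓ ℓ hℓ, eigenvalueAt_of_not_dvd χ hℓ hℓN]

end Fermat.Agent.S49

end
-- ==== END Fermat.Agent.S49.Eigenform
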