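-- GENERATED (merged mirror, NOTES/tools/trim/merge3_helper67.py): 9 modules of the originals, bodies verbatim.
import Mathlib.FieldTheory.PurelyInseparable.Basic
import Mathlib.RingTheory.Norm.Transitivity
import Mathlib
import Fermat.Prelude.Def_ModularCurve_PeriodHomPair
import Fermat.Prelude.Def_CuspForm_HeckeAlgebra
import Fermat.Agent.Zm.S35_L02_002
import Fermat.Agent.Zm.S35_L02_000
import Fermat.Agent.Zm.S35_L02_005
import Fermat.Agent.Zm.S35_L02_001
import Fermat.Agent.Zm.S35_L01_001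

-- ==== BEGIN Fermat.Agent.BAD.H42_NormRed2
section

/-!
# Item 65, package CONS-ss, step S1 (helper42): NORM-RED for two valuations

Abstract setting: `E ⊆ L` a finite extension of fields, `V_E` a valuation ring of `E` with residue
map `red_E : V_E → Et`, two incomparable valuation rings `V₁`, `V₂` of `L` over `V_E` with residue
maps `red_i : V_i → L_i` onto fields `L_i ⊇ Et`, with `[L : E] = [L₁ : Et] + [L₂ : Et]`
(the two extensions of `V_E`, both unramified, no defect), `V₁`, `V₂` of rank one (`IsArch`).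

* `exists_unit_lt`, `exists_idem`, `exists_lift_aux`, `exists_lift_plain` : the Chinese remainder
  theorem for two incomparable valuation rings;
* `IsArch`, `exists_lift_small` : approximation (the lift can be made small for `V₁`);
* `isArch_eq_of_le`, `not_le_of_isArch` : a valuation ring of rank one is a maximal subring;
* `lat_li`, `lat_coord` : lifts of an `Et`-independent family of `R / m` (`R` a subring of `L`
  over `V_E`) are `E`-independent, and the coordinates of the elements of `R` are in `V_E`;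
* `normRed_two_aux` : `u₁ = c u₂`, `c ∈ V_E`  ⇒  `N u₁ = c ^ [L₂ : Et] δ`,
  `red_E δ = N (red₁ u₁) · N (red₂ u₂)`;
* `normRed_two` : `f = c₁ u₁ = c₂ u₂`  ⇒  `N f = c₁ ^ [L₁ : Et] c₂ ^ [L₂ : Et] δ`, same `δ`.

This file contains no `sorry`.
-/

set_option autoImplicit false

noncomputable section

namespace Fermat.Agent.BAD.H42

section Sep

variable {L : Type} [Field L]

/-- If `V₁ ⊄ V₂` there is a unit of `V₁` in the maximal ideal of `V₂`. -/
theorem exists_unit_lt (V₁ V₂ : ValuationSubring L) (h : ¬ V₁ ≤ V₂) :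
    ∃ t : L, V₁.valuation t = 1 ∧ V₂.valuation t < 1 := by
  obtain ⟨a, ha₁, ha₂⟩ := SetLike.not_le_iff_exists.1 h
  rw [← ValuationSubring.valuation_le_one_iff] at ha₁ ha₂
  push Not at ha₂
  rcases ha₁.lt_or_eq with hlt | heq
  · refine ⟨(1 + a)⁻¹, ?_, ?_⟩
    · rw [map_inv₀, Valuation.map_one_add_of_lt _ hlt, inv_one]
    · rw [map_inv₀]
      have h1 : V₂.valuation (1 + a) = V₂.valuation a := by
        rw [Valuation.map_add_eq_of_lt_right]
        rwa [map_one]
      rw [h1]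
      exact inv_lt_one_of_one_lt₀ ha₂
  · refine ⟨a⁻¹, by rw [map_inv₀, heq, inv_one], ?_⟩
    rw [map_inv₀]
    exact inv_lt_one_of_one_lt₀ ha₂

/-- Two incomparable valuation rings: there is `e` with `e ≡ 1 mod m₂` and `e ∈ m₁`. -/
theorem exists_idem (V₁ V₂ : ValuationSubring L) (h₁₂ : ¬ V₁ ≤ V₂) (h₂₁ : ¬ V₂ ≤ V₁) :
    ∃ e : L, V₁.valuation e < 1 ∧ V₂.valuation (e - 1) < 1 := by
  obtain ⟨t, ht₁, ht₂⟩ := exists_unit_lt V₁ V₂ h₁₂
  obtain ⟨s, hs₂, hs₁⟩ := exists_unit_lt V₂ V₁ h₂₁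
  have h1 : V₁.valuation (s + t) = 1 := by
    rw [Valuation.map_add_eq_of_lt_right, ht₁]
    rwa [ht₁]
  have h2 : V₂.valuation (s + t) = 1 := by
    rw [Valuation.map_add_eq_of_lt_left, hs₂]
    rwa [hs₂]
  have hne : s + t ≠ 0 := by
    intro h0
    rw [h0, map_zero] at h1
    exact zero_ne_one h1
  refine ⟨s / (s + t), ?_, ?_⟩
  · rw [map_div₀, h1, div_one]; exact hs₁
  · have : s / (s + t) - 1 = - (t / (s + t)) := by
      field_simp
      ring
    rw [this, Valuation.map_neg, map_div₀, h2, div_one]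
    exact ht₂

/-- `x ≡ 1 mod m` implies `x ^ n ≡ 1 mod m`. -/
theorem val_pow_sub_one_lt (V : ValuationSubring L) (e : L) (he : V.valuation (e - 1) < 1)
    (n : ℕ) : V.valuation (e ^ n - 1) < 1 := by
  have he1 : V.valuation e ≤ 1 := by
    have : e = (e - 1) + 1 := by ring
    rw [this]
    refine (V.valuation.map_add _ _).trans (max_le he.le ?_)
    rw [map_one]
  have hmem : e ∈ V := (ValuationSubring.valuation_le_one_iff V e).1 he1
  have hsum : (∑ i ∈ Finset.range n, e ^ i) ∈ V := sum_mem fun i _ => pow_mem hmem i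
  rw [← geom_sum_mul, map_mul]
  exact Right.mul_lt_one_of_le_of_lt ((ValuationSubring.valuation_le_one_iff V _).2 hsum) he

/-- Chinese remainder theorem for two incomparable valuation rings, first step: every element of
`V₂` is congruent mod `m₂` to an element of `V₁ ∩ V₂`. -/
theorem exists_lift_aux (V₁ V₂ : ValuationSubring L) (h₁₂ : ¬ V₁ ≤ V₂) (y : L) (hy : y ∈ V₂) :
    ∃ y' : L, V₁.valuation y' ≤ 1 ∧ V₂.valuation (y' - y) < 1 := by
  by_cases hy₁ : y ∈ V₁
  · exact ⟨y, (ValuationSubring.valuation_le_one_iff V₁ y).2 hy₁, by simp⟩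
  have hy₁' : 1 < V₁.valuation y := by
    rw [← ValuationSubring.valuation_le_one_iff] at hy₁
    exact not_le.1 hy₁
  have hy₂ : V₂.valuation y ≤ 1 := (ValuationSubring.valuation_le_one_iff V₂ y).2 hy
  rcases hy₂.lt_or_eq with hlt | heq
  · exact ⟨0, by simp, by simpa using hlt⟩
  obtain ⟨s, hs₁, hs₂⟩ := exists_unit_lt V₁ V₂ h₁₂
  have hy0 : y ≠ 0 := by
    intro h0
    rw [h0, map_zero] at heq
    exact zero_ne_one heq
  have hyi₁ : V₁.valuation y⁻¹ < 1 := by
    rw [map_inv₀]; exact inv_lt_one_of_one_lt₀ hy₁'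
  have hyi₂ : V₂.valuation y⁻¹ = 1 := by
    rw [map_inv₀, heq, inv_one]
  have h1 : V₁.valuation (y⁻¹ + s) = 1 := by
    rw [Valuation.map_add_eq_of_lt_right, hs₁]
    rwa [hs₁]
  have h2 : V₂.valuation (y⁻¹ + s) = 1 := by
    rw [Valuation.map_add_eq_of_lt_left, hyi₂]
    rwa [hyi₂]
  have hne : y⁻¹ + s ≠ 0 := by
    intro h0
    rw [h0, map_zero] at h1
    exact zero_ne_one h1
  refine ⟨(y⁻¹ + s)⁻¹, by rw [map_inv₀, h1, inv_one], ?_⟩
  have : (y⁻¹ + s)⁻¹ - y = - (y * s) / (y⁻¹ + s) := by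
    have hne' : 1 + y * s ≠ 0 := by
      intro h0
      apply hne
      have : y⁻¹ + s = y⁻¹ * (1 + y * s) := by
        field_simp
      rw [this, h0, mul_zero]
    rw [div_eq_mul_inv, eq_comm, ← sub_eq_zero]
    have h3 : (y⁻¹ + s)⁻¹ = y * (1 + y * s)⁻¹ := by
      rw [inv_eq_iff_eq_inv, mul_inv, inv_inv]
      field_simp
    rw [h3]
    field_simp
    ring
  rw [this, map_div₀, h2, div_one, Valuation.map_neg, map_mul, heq, one_mul]
  exact hs₂

/-- A valuation ring of rank one (archimedean value group), in the form used here. -/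
def IsArch (V : ValuationSubring L) : Prop :=
  ∀ x y : L, V.valuation x < 1 → y ≠ 0 → ∃ n : ℕ, V.valuation (x ^ n) < V.valuation y

/-- A valuation ring of rank one is maximal among the proper subrings. -/
theorem isArch_eq_of_le {V₁ V₂ : ValuationSubring L} (hA : IsArch V₁) (h : V₁ ≤ V₂) :
    V₁ = V₂ ∨ V₂ = ⊤ := by
  by_cases htop : V₂ = ⊤
  · exact Or.inr htop
  left
  refine le_antisymm h fun y hy => ?_
  by_contra hy₁
  -- `y ∈ V₂ ∖ V₁`, `z ∉ V₂`
  obtain ⟨z, hz⟩ : ∃ z : L, z ∉ V₂ := by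
    by_contra hall
    push Not at hall
    exact htop (eq_top_iff.2 fun z _ => hall z)
  have hy0 : y ≠ 0 := fun h0 => hy₁ (h0 ▸ zero_mem _)
  have hz0 : z ≠ 0 := fun h0 => hz (h0 ▸ zero_mem _)
  have hyi : V₁.valuation y⁻¹ < 1 := by
    rw [map_inv₀]
    apply inv_lt_one_of_one_lt₀
    rw [← ValuationSubring.valuation_le_one_iff] at hy₁
    exact not_le.1 hy₁
  obtain ⟨n, hn⟩ := hA y⁻¹ z⁻¹ hyi (inv_ne_zero hz0)
  -- `y⁻ⁿ z ∈ V₁ ⊆ V₂`, hence `z = yⁿ · (y⁻ⁿ z) ∈ V₂`
  have h1 : y⁻¹ ^ n * z ∈ V₁ := by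
    rw [← ValuationSubring.valuation_le_one_iff, map_mul]
    rw [map_inv₀ _ z] at hn
    have hzv : V₁.valuation z ≠ 0 := (Valuation.ne_zero_iff _).2 hz0
    have := hn.le
    calc V₁.valuation (y⁻¹ ^ n) * V₁.valuation z
        ≤ (V₁.valuation z)⁻¹ * V₁.valuation z := mul_le_mul_left this _
      _ = 1 := inv_mul_cancel₀ hzv
  apply hz
  have h2 : z = y ^ n * (y⁻¹ ^ n * z) := by
    rw [inv_pow, ← mul_assoc, mul_inv_cancel₀ (pow_ne_zero n hy0), one_mul]
  rw [h2]
  exact mul_mem (pow_mem hy n) (h h1)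

/-- Two different non-trivial valuation rings, the first of rank one, are incomparable (one
direction). -/
theorem not_le_of_isArch {V₁ V₂ : ValuationSubring L} (hA : IsArch V₁) (hne : V₁ ≠ V₂)
    (htop : V₂ ≠ ⊤) : ¬ V₁ ≤ V₂ := fun h =>
  (isArch_eq_of_le hA h).elim hne htop

/-- Approximation for two incomparable valuation rings, `V₁` of rank one: every element of `V₂`
is congruent mod `m₂` to an element which is arbitrarily small for `V₁`. -/
theorem exists_lift_small (V₁ V₂ : ValuationSubring L) (h₁₂ : ¬ V₁ ≤ V₂) (h₂₁ : ¬ V₂ ≤ V₁)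
    (hA : IsArch V₁) (y : L) (hy : y ∈ V₂) (c : L) (hc : c ≠ 0) :
    ∃ b : L, V₁.valuation b < V₁.valuation c ∧ V₂.valuation (b - y) < 1 := by
  obtain ⟨e, he₁, he₂⟩ := exists_idem V₁ V₂ h₁₂ h₂₁
  obtain ⟨y', hy'₁, hy'₂⟩ := exists_lift_aux V₁ V₂ h₁₂ y hy
  obtain ⟨n, hn⟩ := hA e c he₁ hc
  refine ⟨y' * e ^ n, ?_, ?_⟩
  · rw [map_mul]
    exact mul_lt_of_le_one_of_lt hy'₁ hn
  · have h1 : y' * e ^ n - y = y' * (e ^ n - 1) + (y' - y) := by ring
    have hy2 : V₂.valuation y' ≤ 1 := by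
      have : y' = (y' - y) + y := by ring
      rw [this]
      exact (V₂.valuation.map_add _ _).trans
        (max_le hy'₂.le ((ValuationSubring.valuation_le_one_iff V₂ y).2 hy))
    rw [h1]
    refine lt_of_le_of_lt (V₂.valuation.map_add _ _) (max_lt ?_ hy'₂)
    rw [map_mul]
    exact Right.mul_lt_one_of_le_of_lt hy2 (val_pow_sub_one_lt V₂ e he₂ n)

/-- Chinese remainder theorem for two incomparable valuation rings. -/
theorem exists_lift_plain (V₁ V₂ : ValuationSubring L) (h₁₂ : ¬ V₁ ≤ V₂) (h₂₁ : ¬ V₂ ≤ V₁)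
    (y : L) (hy : y ∈ V₂) :
    ∃ b : L, V₁.valuation b < 1 ∧ V₂.valuation (b - y) < 1 := by
  obtain ⟨e, he₁, he₂⟩ := exists_idem V₁ V₂ h₁₂ h₂₁
  obtain ⟨y', hy'₁, hy'₂⟩ := exists_lift_aux V₁ V₂ h₁₂ y hy
  refine ⟨y' * e, ?_, ?_⟩
  · rw [map_mul]
    exact Right.mul_lt_one_of_le_of_lt hy'₁ he₁
  · have h1 : y' * e - y = y' * (e - 1) + (y' - y) := by ring
    have hy2 : V₂.valuation y' ≤ 1 := by
      have : y' = (y' - y) + y := by ring
      rw [this]
      exact (V₂.valuation.map_add _ _).trans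
        (max_le hy'₂.le ((ValuationSubring.valuation_le_one_iff V₂ y).2 hy))
    rw [h1]
    refine lt_of_le_of_lt (V₂.valuation.map_add _ _) (max_lt ?_ hy'₂)
    rw [map_mul]
    exact Right.mul_lt_one_of_le_of_lt hy2 he₂

end Sep

section Lattice

variable {E L Et Λ : Type} [Field E] [Field L] [Field Et] [CommRing Λ] [Algebra E L]
  [Algebra Et Λ]
variable {VE : ValuationSubring E} {R : Subring L} {redE : ↥VE →+* Et} {ρ : ↥R →+* Λ}

/-- The inclusion `V_E → R`. -/
def incR (hVR : ∀ a : E, a ∈ VE → algebraMap E L a ∈ R) : ↥VE →+* ↥R :=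
  ((algebraMap E L).comp VE.subtype).codRestrict R (fun a => hVR a a.2)

@[simp] theorem coe_incR (hVR : ∀ a : E, a ∈ VE → algebraMap E L a ∈ R) (a : ↥VE) :
    ((incR hVR a : ↥R) : L) = algebraMap E L (a : E) := rfl

theorem rho_sum (hVR : ∀ a : E, a ∈ VE → algebraMap E L a ∈ R)
    (hcompat : ∀ a : ↥VE, ρ (incR hVR a) = algebraMap Et Λ (redE a))
    {ι : Type} [Fintype ι] (B : ι → ↥R) (a : ι → ↥VE) :
    ρ (∑ i, incR hVR (a i) * B i) = ∑ i, redE (a i) • ρ (B i) := by
  rw [map_sum]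
  refine Finset.sum_congr rfl fun i _ => ?_
  rw [map_mul, hcompat, Algebra.smul_def]

/-- The scaling argument. -/
theorem lat_aux (hVR : ∀ a : E, a ∈ VE → algebraMap E L a ∈ R)
    (hcompat : ∀ a : ↥VE, ρ (incR hVR a) = algebraMap Et Λ (redE a))
    {ι : Type} [Fintype ι] (B : ι → ↥R)
    (hli : LinearIndependent Et (fun i => ρ (B i)))
    (c : ι → E) (j : ι) (hj : c j ≠ 0) (hmax : ∀ i, VE.valuation (c i) ≤ VE.valuation (c j))
    (h : (c j)⁻¹ • ∑ i, c i • ((B i : ↥R) : L) ∈ R) :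
    ρ ⟨(c j)⁻¹ • ∑ i, c i • ((B i : ↥R) : L), h⟩ ≠ 0 := by
  intro h0
  have hvj : VE.valuation (c j) ≠ 0 := (Valuation.ne_zero_iff _).2 hj
  have hmem : ∀ i, c i / c j ∈ VE := by
    intro i
    rw [← ValuationSubring.valuation_le_one_iff, map_div₀]
    exact (div_le_one₀ (zero_lt_iff.2 hvj)).2 (hmax i)
  let a : ι → ↥VE := fun i => ⟨c i / c j, hmem i⟩
  have hsum : (∑ i, incR hVR (a i) * B i : ↥R) =
      ⟨(c j)⁻¹ • ∑ i, c i • ((B i : ↥R) : L), h⟩ := by
    apply Subtype.ext
    simp only [AddSubmonoidClass.coe_finsetSum, MulMemClass.coe_mul, coe_incR]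
    rw [Finset.smul_sum]
    refine Finset.sum_congr rfl fun i _ => ?_
    simp only [a, Algebra.smul_def, map_div₀, map_inv₀]
    field_simp
  have h1 : ∑ i, redE (a i) • ρ (B i) = 0 := by
    rw [← rho_sum hVR hcompat, hsum, h0]
  have h2 := Fintype.linearIndependent_iff.1 hli _ h1 j
  have h3 : a j = 1 := Subtype.ext (div_self hj)
  rw [h3, map_one] at h2
  exact one_ne_zero h2

/-- Lifts of an `Et`-independent family are `E`-independent. -/
theorem lat_li (hVR : ∀ a : E, a ∈ VE → algebraMap E L a ∈ R)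
    (hcompat : ∀ a : ↥VE, ρ (incR hVR a) = algebraMap Et Λ (redE a))
    {ι : Type} [Fintype ι] (B : ι → ↥R)
    (hli : LinearIndependent Et (fun i => ρ (B i))) :
    LinearIndependent E (fun i => ((B i : ↥R) : L)) := by
  rw [Fintype.linearIndependent_iff]
  intro c hc
  by_contra hne
  push Not at hne
  obtain ⟨i₀, hi₀⟩ := hne
  have : Nonempty ι := ⟨i₀⟩
  obtain ⟨j, hj⟩ := Fermat.Agent.RED.H10.exists_max_val VE c
  have hcj : c j ≠ 0 := by
    intro h0
    have := hj i₀
    rw [h0, map_zero, le_zero_iff, Valuation.zero_iff] at this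
    exact hi₀ this
  have h : (c j)⁻¹ • ∑ i, c i • ((B i : ↥R) : L) ∈ R := by
    rw [hc, smul_zero]; exact zero_mem _
  refine lat_aux hVR hcompat B hli c j hcj hj h ?_
  have : (⟨(c j)⁻¹ • ∑ i, c i • ((B i : ↥R) : L), h⟩ : ↥R) = 0 := by
    apply Subtype.ext
    simp [hc]
  rw [this, map_zero]

/-- The coordinates of an element of `R` in a lifted independent family lie in `V_E`. -/
theorem lat_coord (hVR : ∀ a : E, a ∈ VE → algebraMap E L a ∈ R)
    (hkerE : ∀ a : ↥VE, ¬ IsUnit a → redE a = 0)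
    (hcompat : ∀ a : ↥VE, ρ (incR hVR a) = algebraMap Et Λ (redE a))
    {ι : Type} [Fintype ι] (B : ι → ↥R)
    (hli : LinearIndependent Et (fun i => ρ (B i)))
    (c : ι → E) (g : L) (hg : g ∈ R) (hsum : ∑ i, c i • ((B i : ↥R) : L) = g) (i : ι) :
    c i ∈ VE := by
  by_contra hne
  have : Nonempty ι := ⟨i⟩
  obtain ⟨j, hj⟩ := Fermat.Agent.RED.H10.exists_max_val VE c
  have hcjV : c j ∉ VE := by
    intro hmem
    apply hne
    rw [← ValuationSubring.valuation_le_one_iff] at hmem ⊢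
    exact (hj i).trans hmem
  have hcj : c j ≠ 0 := by
    intro h0
    exact hcjV (h0 ▸ zero_mem _)
  have hinv : (c j)⁻¹ ∈ VE := (VE.mem_or_inv_mem (c j)).resolve_left hcjV
  have hnu : ¬ IsUnit (⟨(c j)⁻¹, hinv⟩ : ↥VE) := by
    rintro ⟨u, hu⟩
    apply hcjV
    have h1 : (((u⁻¹ : (↥VE)ˣ) : ↥VE) : E) = c j := by
      have h2 : (((u : ↥VE) : E) * ((u⁻¹ : (↥VE)ˣ) : ↥VE)) = 1 := by
        rw [← MulMemClass.coe_mul, Units.mul_inv]; rfl
      rw [hu] at h2
      simp only at h2
      field_simp at h2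
      exact h2
    rw [← h1]
    exact SetLike.coe_mem _
  have h : (c j)⁻¹ • ∑ i, c i • ((B i : ↥R) : L) ∈ R := by
    rw [hsum, Algebra.smul_def]
    exact mul_mem (hVR _ hinv) hg
  refine lat_aux hVR hcompat B hli c j hcj hj h ?_
  have : (⟨(c j)⁻¹ • ∑ i, c i • ((B i : ↥R) : L), h⟩ : ↥R) =
      incR hVR ⟨(c j)⁻¹, hinv⟩ * ⟨g, hg⟩ := by
    apply Subtype.ext
    simp only [MulMemClass.coe_mul, coe_incR]
    rw [hsum, Algebra.smul_def]
  rw [this, map_mul, hcompat, hkerE _ hnu, map_zero, zero_mul]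

end Lattice

section NormProd

variable {Et L₁ L₂ : Type} [Field Et] [CommRing L₁] [CommRing L₂] [Algebra Et L₁] [Algebra Et L₂]

/-- The matrix of the multiplication by `(x₁, x₂)` on a product algebra is block diagonal. -/
theorem leftMulMatrix_prod_basis {ι₁ ι₂ : Type} [Fintype ι₁] [Fintype ι₂] [DecidableEq ι₁]
    [DecidableEq ι₂] (β₁ : Module.Basis ι₁ Et L₁) (β₂ : Module.Basis ι₂ Et L₂) (x : L₁ × L₂) :
    Algebra.leftMulMatrix (β₁.prod β₂) x =
      Matrix.fromBlocks (Algebra.leftMulMatrix β₁ x.1) 0 0 (Algebra.leftMulMatrix β₂ x.2) := by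
  refine Matrix.ext fun i j => ?_
  rw [Algebra.leftMulMatrix_eq_repr_mul]
  rcases i with i | i <;> rcases j with j | j
  · rw [Module.Basis.prod_repr_inl, Matrix.fromBlocks_apply₁₁,
      Algebra.leftMulMatrix_eq_repr_mul]
    simp
  · rw [Module.Basis.prod_repr_inl, Matrix.fromBlocks_apply₁₂]
    simp
  · rw [Module.Basis.prod_repr_inr, Matrix.fromBlocks_apply₂₁]
    simp
  · rw [Module.Basis.prod_repr_inr, Matrix.fromBlocks_apply₂₂,
      Algebra.leftMulMatrix_eq_repr_mul]
    simp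

theorem det_leftMulMatrix_prod_basis {ι₁ ι₂ : Type} [Fintype ι₁] [Fintype ι₂] [DecidableEq ι₁]
    [DecidableEq ι₂] (β₁ : Module.Basis ι₁ Et L₁) (β₂ : Module.Basis ι₂ Et L₂) (x : L₁ × L₂) :
    (Algebra.leftMulMatrix (β₁.prod β₂) x).det = Algebra.norm Et x.1 * Algebra.norm Et x.2 := by
  rw [leftMulMatrix_prod_basis, Matrix.det_fromBlocks_zero₁₂,
    ← Algebra.norm_eq_matrix_det, ← Algebra.norm_eq_matrix_det]

end NormProd

section Main

variable {E L Et L₁ L₂ : Type} [Field E] [Field L] [Field Et] [Field L₁] [Field L₂]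
  [Algebra E L] [Algebra Et L₁] [Algebra Et L₂]

theorem red_eq_zero_of_val_lt {F F' : Type} [Field F] [Field F'] {V : ValuationSubring F}
    {red : ↥V →+* F'} (hker : ∀ a : ↥V, ¬ IsUnit a → red a = 0) (a : ↥V)
    (h : V.valuation (a : F) < 1) : red a = 0 := by
  apply hker
  rw [ValuationSubring.valuation_eq_one_iff]
  exact h.ne

theorem mem_of_val_sub_lt {F : Type} [Field F] (V : ValuationSubring F) {b y : F} (hy : y ∈ V)
    (h : V.valuation (b - y) < 1) : b ∈ V := by
  have : b = (b - y) + y := by ring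
  rw [this]
  exact add_mem ((ValuationSubring.valuation_le_one_iff V _).1 h.le) hy

theorem red_eq_of_val_sub_lt {F F' : Type} [Field F] [Field F'] {V : ValuationSubring F}
    {red : ↥V →+* F'} (hker : ∀ a : ↥V, ¬ IsUnit a → red a = 0) (b y : ↥V)
    (h : V.valuation ((b : F) - (y : F)) < 1) : red b = red y := by
  rw [← sub_eq_zero, ← map_sub]
  exact red_eq_zero_of_val_lt hker _ h

/-- **NORM-RED for two valuations, core case.**  `V₁ ≠ V₂` two valuation rings of `L` over the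
valuation ring `V_E` of `E`, with residue fields `L₁`, `L₂` over `Et`,
`[L : E] = [L₁ : Et] + [L₂ : Et]`, `V₁` of rank one.  If `u₁ ∈ V₁`, `u₂ ∈ V₂`, `u₁ = c u₂` with
`c ∈ V_E`, `c ≠ 0`, then `N_{L/E} u₁ = c ^ [L₂ : Et] · δ` with `δ ∈ V_E` and
`red_E δ = N_{L₁/Et} (red₁ u₁) · N_{L₂/Et} (red₂ u₂)`. -/
theorem normRed_two_aux [Module.Finite E L] [Module.Finite Et L₁] [Module.Finite Et L₂]
    (VE : ValuationSubring E) (V₁ V₂ : ValuationSubring L)
    (redE : ↥VE →+* Et) (red₁ : ↥V₁ →+* L₁) (red₂ : ↥V₂ →+* L₂)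
    (hV₁ : ∀ a : E, a ∈ VE → algebraMap E L a ∈ V₁)
    (hV₂ : ∀ a : E, a ∈ VE → algebraMap E L a ∈ V₂)
    (hkerE : ∀ a : ↥VE, ¬ IsUnit a → redE a = 0)
    (hsurj₁ : Function.Surjective red₁) (hsurj₂ : Function.Surjective red₂)
    (hker₁ : ∀ a : ↥V₁, ¬ IsUnit a → red₁ a = 0) (hker₂ : ∀ a : ↥V₂, ¬ IsUnit a → red₂ a = 0)
    (hcompat₁ : ∀ (a : ↥VE) (ha : algebraMap E L (a : E) ∈ V₁),
      red₁ ⟨algebraMap E L (a : E), ha⟩ = algebraMap Et L₁ (redE a))
    (hcompat₂ : ∀ (a : ↥VE) (ha : algebraMap E L (a : E) ∈ V₂),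
      red₂ ⟨algebraMap E L (a : E), ha⟩ = algebraMap Et L₂ (redE a))
    (h₁₂ : ¬ V₁ ≤ V₂) (h₂₁ : ¬ V₂ ≤ V₁) (hA : IsArch V₁)
    (hdeg : Module.finrank E L = Module.finrank Et L₁ + Module.finrank Et L₂)
    (u₁ : ↥V₁) (u₂ : ↥V₂) (c : E) (hc : c ∈ VE) (hc0 : c ≠ 0)
    (hu : (u₁ : L) = algebraMap E L c * (u₂ : L)) :
    ∃ δ : ↥VE, Algebra.norm E (u₁ : L) = c ^ Module.finrank Et L₂ * (δ : E) ∧
      redE δ = Algebra.norm Et (red₁ u₁) * Algebra.norm Et (red₂ u₂) := by
  classical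
  let β₁ := Module.finBasis Et L₁
  let β₂ := Module.finBasis Et L₂
  let R : Subring L := V₁.toSubring ⊓ V₂.toSubring
  have hRmk : ∀ g : L, g ∈ V₁ → g ∈ V₂ → g ∈ R := fun g h1 h2 => Subring.mem_inf.2 ⟨h1, h2⟩
  have hR1 : ∀ g : L, g ∈ R → g ∈ V₁ := fun g hg => (Subring.mem_inf.1 hg).1
  have hR2 : ∀ g : L, g ∈ R → g ∈ V₂ := fun g hg => (Subring.mem_inf.1 hg).2
  have hVR : ∀ a : E, a ∈ VE → algebraMap E L a ∈ R := fun a ha =>
    hRmk _ (hV₁ a ha) (hV₂ a ha)
  let ρ₁ : ↥R →+* L₁ := red₁.comp (Subring.inclusion (inf_le_left : R ≤ V₁.toSubring))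
  let ρ₂ : ↥R →+* L₂ := red₂.comp (Subring.inclusion (inf_le_right : R ≤ V₂.toSubring))
  let ρ : ↥R →+* L₁ × L₂ := ρ₁.prod ρ₂
  have hρ₁ : ∀ (g : L) (hg : g ∈ R), ρ₁ ⟨g, hg⟩ = red₁ ⟨g, hR1 g hg⟩ := fun g hg => rfl
  have hρ₂ : ∀ (g : L) (hg : g ∈ R), ρ₂ ⟨g, hg⟩ = red₂ ⟨g, hR2 g hg⟩ := fun g hg => rfl
  have hcompat : ∀ a : ↥VE, ρ (incR hVR a) = algebraMap Et (L₁ × L₂) (redE a) := by
    intro a
    refine Prod.ext ?_ ?_
    · exact hcompat₁ a _
    · exact hcompat₂ a _
  have hcL : algebraMap E L c ≠ 0 := by rwa [Ne, map_eq_zero]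
  have hc₁ : V₁.valuation (algebraMap E L c) ≤ 1 :=
    (ValuationSubring.valuation_le_one_iff V₁ _).2 (hV₁ c hc)
  -- the lifts of the two bases
  have hB₁ : ∀ α, ∃ b : ↥R, ρ₁ b = β₁ α ∧ ρ₂ b = 0 := by
    intro α
    obtain ⟨y, hy⟩ := hsurj₁ (β₁ α)
    obtain ⟨b, hb₂, hb₁⟩ := exists_lift_plain V₂ V₁ h₂₁ h₁₂ (y : L) y.2
    have hbV₁ : b ∈ V₁ := mem_of_val_sub_lt V₁ y.2 hb₁
    have hbV₂ : b ∈ V₂ := (ValuationSubring.valuation_le_one_iff V₂ _).1 hb₂.le
    refine ⟨⟨b, hRmk b hbV₁ hbV₂⟩, ?_, ?_⟩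
    · rw [hρ₁, ← hy]
      exact red_eq_of_val_sub_lt hker₁ ⟨b, hbV₁⟩ y hb₁
    · rw [hρ₂]
      exact red_eq_zero_of_val_lt hker₂ ⟨b, hbV₂⟩ hb₂
  have hB₂ : ∀ β, ∃ b : ↥R, ρ₂ b = β₂ β ∧
      V₁.valuation ((b : ↥R) : L) < V₁.valuation (algebraMap E L c) := by
    intro β
    obtain ⟨y, hy⟩ := hsurj₂ (β₂ β)
    obtain ⟨b, hb₁, hb₂⟩ := exists_lift_small V₁ V₂ h₁₂ h₂₁ hA (y : L) y.2 _ hcL
    have hbV₂ : b ∈ V₂ := mem_of_val_sub_lt V₂ y.2 hb₂
    have hbV₁ : b ∈ V₁ := (ValuationSubring.valuation_le_one_iff V₁ _).1 (hb₁.le.trans hc₁)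
    refine ⟨⟨b, hRmk b hbV₁ hbV₂⟩, ?_, hb₁⟩
    rw [hρ₂, ← hy]
    exact red_eq_of_val_sub_lt hker₂ ⟨b, hbV₂⟩ y hb₂
  choose B₁ hB₁a hB₁b using hB₁
  choose B₂ hB₂a hB₂b using hB₂
  have hB₂c : ∀ β, ρ₁ (B₂ β) = 0 := fun β =>
    red_eq_zero_of_val_lt hker₁ _ ((hB₂b β).trans_le hc₁)
  let B : Fin (Module.finrank Et L₁) ⊕ Fin (Module.finrank Et L₂) → ↥R := Sum.elim B₁ B₂
  have hρB : ∀ i, ρ (B i) = (β₁.prod β₂) i := by
    rintro (α | β)
    · refine Prod.ext ?_ ?_
      · simpa [B, ρ] using hB₁a α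
      · simpa [B, ρ] using hB₁b α
    · refine Prod.ext ?_ ?_
      · simpa [B, ρ] using hB₂c β
      · simpa [B, ρ] using hB₂a β
  have hli : LinearIndependent Et (fun i => ρ (B i)) := by
    have : (fun i => ρ (B i)) = (β₁.prod β₂) := funext hρB
    rw [this]
    exact (β₁.prod β₂).linearIndependent
  have hliE := lat_li hVR hcompat B hli
  have hcard : Fintype.card (Fin (Module.finrank Et L₁) ⊕ Fin (Module.finrank Et L₂)) =
      Module.finrank E L := by
    rw [Fintype.card_sum, Fintype.card_fin, Fintype.card_fin, hdeg]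
  have hne : Nonempty (Fin (Module.finrank Et L₁) ⊕ Fin (Module.finrank Et L₂)) := by
    rw [← Fintype.card_pos_iff, hcard]
    exact Module.finrank_pos
  let bE : Module.Basis (Fin (Module.finrank Et L₁) ⊕ Fin (Module.finrank Et L₂)) E L :=
    basisOfLinearIndependentOfCardEqFinrank hliE hcard
  have hbE : ∀ i, bE i = ((B i : ↥R) : L) := fun i => by simp [bE]
  have hcoord : ∀ g : L, g ∈ R → ∀ i, bE.repr g i ∈ VE := by
    intro g hg i
    refine lat_coord hVR hkerE hcompat B hli (fun i => bE.repr g i) g hg ?_ i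
    have := bE.sum_repr g
    simpa only [hbE] using this
  -- the columns
  have hu₁V₂ : (u₁ : L) ∈ V₂ := by
    rw [hu]; exact mul_mem (hV₂ c hc) u₂.2
  have hG₁ : ∀ α, (u₁ : L) * ((B₁ α : ↥R) : L) ∈ R := fun α =>
    hRmk _ (mul_mem u₁.2 (hR1 _ (B₁ α).2)) (mul_mem hu₁V₂ (hR2 _ (B₁ α).2))
  have hu₂ : (u₂ : L) = (u₁ : L) * (algebraMap E L c)⁻¹ := by
    rw [hu]; field_simp
  have hG₂v : ∀ β, V₁.valuation ((u₂ : L) * ((B₂ β : ↥R) : L)) < 1 := by
    intro β
    have h1 : (u₂ : L) * ((B₂ β : ↥R) : L) =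
        (u₁ : L) * (((B₂ β : ↥R) : L) * (algebraMap E L c)⁻¹) := by
      rw [hu₂]; ring
    rw [h1, map_mul]
    refine Right.mul_lt_one_of_le_of_lt ((ValuationSubring.valuation_le_one_iff V₁ _).2 u₁.2) ?_
    rw [map_mul, map_inv₀, ← div_eq_mul_inv]
    exact (div_lt_one₀ (zero_lt_iff.2 ((Valuation.ne_zero_iff _).2 hcL))).2 (hB₂b β)
  have hG₂ : ∀ β, (u₂ : L) * ((B₂ β : ↥R) : L) ∈ R := fun β =>
    hRmk _ ((ValuationSubring.valuation_le_one_iff V₁ _).1 (hG₂v β).le)
      (mul_mem u₂.2 (hR2 _ (B₂ β).2))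
  let G : Fin (Module.finrank Et L₁) ⊕ Fin (Module.finrank Et L₂) → ↥R :=
    Sum.elim (fun α => ⟨_, hG₁ α⟩) (fun β => ⟨_, hG₂ β⟩)
  let γ : Fin (Module.finrank Et L₁) ⊕ Fin (Module.finrank Et L₂) → E :=
    Sum.elim (fun _ => 1) (fun _ => c)
  have hG : ∀ j, (u₁ : L) * bE j = γ j • ((G j : ↥R) : L) := by
    rintro (α | β)
    · simp [hbE, B, G, γ]
    · simp only [hbE, B, G, γ, Sum.elim_inr, Algebra.smul_def]
      rw [hu]; ring
  have hρG : ∀ j, ρ (G j) = (red₁ u₁, red₂ u₂) * (β₁.prod β₂) j := by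
    rintro (α | β)
    · refine Prod.ext ?_ ?_
      · have h1 : ρ₁ (G (Sum.inl α)) = red₁ u₁ * ρ₁ (B₁ α) := by
          have h0 : ρ₁ (G (Sum.inl α)) =
              red₁ (u₁ * ⟨((B₁ α : ↥R) : L), hR1 _ (B₁ α).2⟩) := rfl
          rw [h0, map_mul]; rfl
        simpa [ρ, hB₁a α] using h1
      · have h1 : ρ₂ (G (Sum.inl α)) = red₂ ⟨u₁, hu₁V₂⟩ * ρ₂ (B₁ α) := by
          have h0 : ρ₂ (G (Sum.inl α)) =
              red₂ (⟨u₁, hu₁V₂⟩ * ⟨((B₁ α : ↥R) : L), hR2 _ (B₁ α).2⟩) := rfl
          rw [h0, map_mul]; rfl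
        rw [hB₁b α, mul_zero] at h1
        simpa [ρ] using h1
    · refine Prod.ext ?_ ?_
      · have h1 : ρ₁ (G (Sum.inr β)) = 0 := red_eq_zero_of_val_lt hker₁ _ (hG₂v β)
        simpa [ρ] using h1
      · have h1 : ρ₂ (G (Sum.inr β)) = red₂ u₂ * ρ₂ (B₂ β) := by
          have h0 : ρ₂ (G (Sum.inr β)) =
              red₂ (u₂ * ⟨((B₂ β : ↥R) : L), hR2 _ (B₂ β).2⟩) := rfl
          rw [h0, map_mul]; rfl
        simpa [ρ, hB₂a β] using h1
  let M₀ : Matrix (Fin (Module.finrank Et L₁) ⊕ Fin (Module.finrank Et L₂))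
      (Fin (Module.finrank Et L₁) ⊕ Fin (Module.finrank Et L₂)) ↥VE :=
    Matrix.of fun i j => ⟨bE.repr ((G j : ↥R) : L) i, hcoord _ (G j).2 i⟩
  have hM : Algebra.leftMulMatrix bE (u₁ : L) = VE.subtype.mapMatrix M₀ * Matrix.diagonal γ := by
    refine Matrix.ext fun i j => ?_
    rw [Algebra.leftMulMatrix_eq_repr_mul, hG, map_smul, Matrix.mul_diagonal]
    simp [M₀, mul_comm]
  have hGexp : ∀ j, G j = ∑ i, incR hVR (M₀ i j) * B i := by
    intro j
    apply Subtype.ext
    simp only [AddSubmonoidClass.coe_finsetSum, MulMemClass.coe_mul, coe_incR]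
    have := (bE.sum_repr ((G j : ↥R) : L)).symm
    simp only [hbE, Algebra.smul_def] at this
    exact this
  have hred : redE.mapMatrix M₀ = Algebra.leftMulMatrix (β₁.prod β₂) (red₁ u₁, red₂ u₂) := by
    refine Matrix.ext fun i j => ?_
    rw [Algebra.leftMulMatrix_eq_repr_mul, ← hρG, hGexp, rho_sum hVR hcompat]
    simp only [hρB]
    rw [Module.Basis.repr_sum_self]
    rfl
  refine ⟨M₀.det, ?_, ?_⟩
  · rw [Algebra.norm_eq_matrix_det bE, hM, Matrix.det_mul, Matrix.det_diagonal,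
      Fintype.prod_sum_type]
    have h1 : (VE.subtype.mapMatrix M₀).det = ((M₀.det : ↥VE) : E) := by
      rw [← RingHom.map_det]; rfl
    rw [h1]
    simp [γ, mul_comm]
  · rw [RingHom.map_det, hred, det_leftMulMatrix_prod_basis]

/-- **NORM-RED for two valuations** (package CONS-ss, step S1).  `V₁ ≠ V₂` two valuation rings
of rank one of `L` over the valuation ring `V_E` of `E`, with residue fields `L₁`, `L₂` over `Et`
and `[L : E] = [L₁ : Et] + [L₂ : Et]`.  If `f = c₁ u₁ = c₂ u₂` with `c_i ∈ E` non-zero and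
`u_i ∈ V_i`, then `N_{L/E} f = c₁ ^ [L₁ : Et] · c₂ ^ [L₂ : Et] · δ` with `δ ∈ V_E` and
`red_E δ = N_{L₁/Et} (red₁ u₁) · N_{L₂/Et} (red₂ u₂)`. -/
theorem normRed_two [Module.Finite E L] [Module.Finite Et L₁] [Module.Finite Et L₂]
    (VE : ValuationSubring E) (V₁ V₂ : ValuationSubring L)
    (redE : ↥VE →+* Et) (red₁ : ↥V₁ →+* L₁) (red₂ : ↥V₂ →+* L₂)
    (hV₁ : ∀ a : E, a ∈ VE → algebraMap E L a ∈ V₁)
    (hV₂ : ∀ a : E, a ∈ VE → algebraMap E L a ∈ V₂)
    (hkerE : ∀ a : ↥VE, ¬ IsUnit a → redE a = 0)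
    (hsurj₁ : Function.Surjective red₁) (hsurj₂ : Function.Surjective red₂)
    (hker₁ : ∀ a : ↥V₁, ¬ IsUnit a → red₁ a = 0) (hker₂ : ∀ a : ↥V₂, ¬ IsUnit a → red₂ a = 0)
    (hcompat₁ : ∀ (a : ↥VE) (ha : algebraMap E L (a : E) ∈ V₁),
      red₁ ⟨algebraMap E L (a : E), ha⟩ = algebraMap Et L₁ (redE a))
    (hcompat₂ : ∀ (a : ↥VE) (ha : algebraMap E L (a : E) ∈ V₂),
      red₂ ⟨algebraMap E L (a : E), ha⟩ = algebraMap Et L₂ (redE a))
    (h₁₂ : ¬ V₁ ≤ V₂) (h₂₁ : ¬ V₂ ≤ V₁) (hA₁ : IsArch V₁) (hA₂ : IsArch V₂)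
    (hdeg : Module.finrank E L = Module.finrank Et L₁ + Module.finrank Et L₂)
    (f : L) (c₁ c₂ : E) (hc₁ : c₁ ≠ 0) (hc₂ : c₂ ≠ 0) (u₁ : ↥V₁) (u₂ : ↥V₂)
    (hf₁ : f = algebraMap E L c₁ * (u₁ : L)) (hf₂ : f = algebraMap E L c₂ * (u₂ : L)) :
    ∃ δ : ↥VE, Algebra.norm E f =
        c₁ ^ Module.finrank Et L₁ * c₂ ^ Module.finrank Et L₂ * (δ : E) ∧
      redE δ = Algebra.norm Et (red₁ u₁) * Algebra.norm Et (red₂ u₂) := by
  have hcL₁ : algebraMap E L c₁ ≠ 0 := by rwa [Ne, map_eq_zero]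
  have hcL₂ : algebraMap E L c₂ ≠ 0 := by rwa [Ne, map_eq_zero]
  rcases VE.mem_or_inv_mem (c₂ / c₁) with hc | hc
  · have hu : (u₁ : L) = algebraMap E L (c₂ / c₁) * (u₂ : L) := by
      have h1 : algebraMap E L c₁ * (u₁ : L) = algebraMap E L c₂ * (u₂ : L) := by
        rw [← hf₁, ← hf₂]
      rw [map_div₀]
      field_simp
      rw [← h1]; ring
    obtain ⟨δ, hδ, hδ'⟩ := normRed_two_aux VE V₁ V₂ redE red₁ red₂ hV₁ hV₂ hkerE hsurj₁ hsurj₂
      hker₁ hker₂ hcompat₁ hcompat₂ h₁₂ h₂₁ hA₁ hdeg u₁ u₂ (c₂ / c₁) hc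
      (div_ne_zero hc₂ hc₁) hu
    refine ⟨δ, ?_, hδ'⟩
    rw [hf₁, map_mul, hδ, Algebra.norm_algebraMap, hdeg, pow_add, div_pow]
    field_simp
  · have hc' : c₁ / c₂ ∈ VE := by
      rwa [inv_div] at hc
    have hu : (u₂ : L) = algebraMap E L (c₁ / c₂) * (u₁ : L) := by
      have h1 : algebraMap E L c₁ * (u₁ : L) = algebraMap E L c₂ * (u₂ : L) := by
        rw [← hf₁, ← hf₂]
      rw [map_div₀]
      field_simp
      rw [h1]; ring
    obtain ⟨δ, hδ, hδ'⟩ := normRed_two_aux VE V₂ V₁ redE red₂ red₁ hV₂ hV₁ hkerE hsurj₂ hsurj₁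
      hker₂ hker₁ hcompat₂ hcompat₁ h₂₁ h₁₂ hA₂ (by rw [hdeg, add_comm]) u₂ u₁ (c₁ / c₂) hc'
      (div_ne_zero hc₁ hc₂) hu
    refine ⟨δ, ?_, by rw [hδ', mul_comm]⟩
    rw [hf₂, map_mul, hδ, Algebra.norm_algebraMap, hdeg, pow_add, div_pow]
    field_simp

end Main

end Fermat.Agent.BAD.H42

end
end
-- ==== END Fermat.Agent.BAD.H42_NormRed2

-- ==== BEGIN Fermat.Agent.BAD.H73_NormFr
section

/-!
# Item 65 (BAD_q), glue for TOT-MOD (helper73): the `Fr`-twisted structure

`E ⊂ k((t))` a `φ`-stable field over the perfect field `k` of characteristic `q`.  Let `E'` be a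
field with an isomorphism `e : E' ≃+* E`, and let `E` be an `E'`-algebra through `Fr ∘ e`
(`Fr : t ↦ t ^ q`).  Then

* `isPurelyInseparable_of_Fr` : `E / E'` is purely inseparable;
* `finrank_of_Fr` : `[E : E'] = q`, if `E` is separable over `k(x)` for one `x ∈ E` which is not a
  series in `t ^ q`;
* `norm_of_Fr` : `N_{E/E'} g = e⁻¹ (φ g)`.

Abstract: `algebraMap_norm_of_isPurelyInseparable` : `N_{L/K}(x) = x ^ [L : K]` for a finite purely
inseparable extension.
-/

set_option autoImplicit false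

noncomputable section

open ModularCurve AlgebraicCurve Polynomial IntermediateField

namespace Fermat.Agent.BAD.H73

section Abstract

/-- The norm of a finite purely inseparable extension: `N(x) = x ^ [L : K]`. -/
theorem algebraMap_norm_of_isPurelyInseparable {K L : Type*} [Field K] [Field L] [Algebra K L]
    [IsPurelyInseparable K L] (q : ℕ) [ExpChar K q] (x : L) :
    algebraMap K L (Algebra.norm K x) = x ^ Module.finrank K L := by
  obtain ⟨n, hn⟩ := IsPurelyInseparable.minpoly_eq_X_sub_C_pow K q x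
  have hsplit : ((minpoly K x).map (algebraMap K L)).Splits := by
    rw [hn]
    exact Splits.pow (Splits.X_sub_C _) _
  rw [Algebra.norm_eq_prod_roots L hsplit]
  have hroots : (minpoly K x).aroots L = (q ^ n) • ({x} : Multiset L) := by
    rw [aroots_def, hn, roots_pow, roots_X_sub_C]
  have hint : Algebra.IsIntegral K L := IsPurelyInseparable.isIntegral
  have hx : IsIntegral K x := hint.isIntegral x
  have hdeg : (minpoly K x).natDegree = q ^ n := by
    have := congrArg natDegree hn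
    rwa [natDegree_map, natDegree_pow, natDegree_X_sub_C, mul_one] at this
  rw [hroots, Multiset.prod_nsmul, Multiset.prod_singleton, ← pow_mul, ← hdeg,
    ← IntermediateField.adjoin.finrank hx, Module.finrank_mul_finrank]

/-- Separability transported along a compatible pair of ring homomorphisms. -/
theorem isSeparable_of_compat {A B L M : Type*} [Field A] [Field B] [Field L] [Field M]
    [Algebra A L] [Algebra B M] (ι : A →+* B) (f : M →+* L)
    (hc : ∀ a : A, f (algebraMap B M (ι a)) = algebraMap A L a) (y : M)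
    (hsep : IsSeparable A (f y)) : IsSeparable B y := by
  unfold IsSeparable at hsep ⊢
  have hsep' : ((minpoly A (f y)).map ι).Separable := hsep.map
  have hroot : aeval y ((minpoly A (f y)).map ι) = 0 := by
    apply f.injective
    rw [map_zero, aeval_def, Polynomial.hom_eval₂, Polynomial.eval₂_map]
    have e : (f.comp (algebraMap B M)).comp ι = algebraMap A L := RingHom.ext hc
    rw [e, ← aeval_def]
    exact minpoly.aeval _ _
  exact hsep'.of_dvd (minpoly.dvd _ _ hroot)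

end Abstract

section Twist

variable {k : Type*} [Field k] {q : ℕ} [Fact q.Prime] [CharP k q] [PerfectRing k q]
variable {E : IntermediateField k (LaurentSeries k)} (h : FrobStable q E)
variable {E' : Type*} [Field E'] [Algebra E' ↥E] (e : E' ≃+* ↥E)
variable (he : ∀ a : E', algebraMap E' ↥E a = FrE h (e a))

omit [Fact q.Prime] [PerfectRing k q] in
theorem charP_sub : CharP ↥E q :=
  charP_of_injective_algebraMap (algebraMap k ↥E).injective q

omit [Fact q.Prime] [PerfectRing k q] [Algebra E' ↥E] in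
include e in
theorem charP_of_equiv : CharP E' q :=
  have : CharP ↥E q := charP_sub
  charP_of_injective_ringHom (f := (e.symm : ↥E →+* E')) e.symm.injective q

include he in
/-- `x ^ q` is in the image of `E'`. -/
theorem pow_eq_algebraMap (x : ↥E) : x ^ q = algebraMap E' ↥E (e.symm (frobE h x)) := by
  rw [he, e.apply_symm_apply, FrE_frobE]

include e he in
/-- `E` is purely inseparable over `E'` (structure map `Fr ∘ e`). -/
theorem isPurelyInseparable_of_Fr : IsPurelyInseparable E' ↥E := by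
  have : CharP E' q := charP_of_equiv e
  rw [isPurelyInseparable_iff_pow_mem E' q]
  intro x
  exact ⟨1, e.symm (frobE h x), by rw [pow_one, ← pow_eq_algebraMap h e he]⟩

include e he in
/-- `N_{E/E'} g = e⁻¹ (φ g)` once `[E : E'] = q`. -/
theorem norm_of_Fr (hfin : Module.finrank E' ↥E = q) (g : ↥E) :
    Algebra.norm E' g = e.symm (frobE h g) := by
  have : CharP E' q := charP_of_equiv e
  have : IsPurelyInseparable E' ↥E := isPurelyInseparable_of_Fr h e he
  apply (algebraMap E' ↥E).injective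
  rw [algebraMap_norm_of_isPurelyInseparable q g, hfin, pow_eq_algebraMap h e he]

include e he in
/-- An element of `E` which is not a series in `t ^ q` is not in the image of `E'`. -/
theorem not_mem_range_of_coeff (x : ↥E) {n : ℤ} (hn : ¬ (q : ℤ) ∣ n)
    (hx : (x : LaurentSeries k).coeff n ≠ 0) (a : E') : algebraMap E' ↥E a ≠ x := by
  intro hax
  apply hx
  rw [← hax, he, coe_FrE]
  exact qExpand_coeff_of_not_dvd q _ hn

include e he in
/-- The constants are in the image of `E'`. -/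
theorem algebraMap_const_eq (c : k) :
    algebraMap k ↥E c = algebraMap E' ↥E (e.symm (algebraMap k ↥E c)) := by
  rw [he, e.apply_symm_apply, (FrE h).commutes]

include e he in
/-- `E = E'(x)` if `E / k(x)` is separable. -/
theorem adjoin_eq_top_of_Fr (x : ↥E)
    (hsep : ∀ y ∈ E, IsSeparable ↥(IntermediateField.adjoin k {(x : LaurentSeries k)}) y) :
    E'⟮x⟯ = ⊤ := by
  have hpi : IsPurelyInseparable E' ↥E := isPurelyInseparable_of_Fr h e he
  rw [eq_top_iff]
  intro y _
  -- the field `E'(x)` inside `k((t))`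
  let TT : IntermediateField k (LaurentSeries k) :=
    Subfield.toIntermediateField ((E'⟮x⟯).toSubfield.map (E.val : ↥E →+* LaurentSeries k))
      (fun c => ⟨algebraMap k ↥E c, by
        show algebraMap k ↥E c ∈ E'⟮x⟯
        rw [algebraMap_const_eq h e he c]
        exact (E'⟮x⟯).algebraMap_mem _, rfl⟩)
  have hle : IntermediateField.adjoin k {(x : LaurentSeries k)} ≤ TT := by
    rw [IntermediateField.adjoin_simple_le_iff]
    exact ⟨x, IntermediateField.mem_adjoin_simple_self E' x, rfl⟩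
  have hleE : IntermediateField.adjoin k {(x : LaurentSeries k)} ≤ E := by
    rw [IntermediateField.adjoin_simple_le_iff]
    exact x.2
  have hT : ∀ a : ↥(IntermediateField.adjoin k {(x : LaurentSeries k)}),
      (⟨(a : LaurentSeries k), hleE a.2⟩ : ↥E) ∈ E'⟮x⟯ := by
    intro a
    obtain ⟨b, hb, hba⟩ := hle a.2
    have : b = ⟨(a : LaurentSeries k), hleE a.2⟩ := Subtype.ext hba
    rw [← this]
    exact hb
  let ι : ↥(IntermediateField.adjoin k {(x : LaurentSeries k)}) →+* ↥(E'⟮x⟯) :=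
    { toFun := fun a => ⟨⟨(a : LaurentSeries k), hleE a.2⟩, hT a⟩
      map_one' := rfl
      map_mul' := fun _ _ => rfl
      map_zero' := rfl
      map_add' := fun _ _ => rfl }
  have hsepT : IsSeparable ↥(E'⟮x⟯) y :=
    isSeparable_of_compat ι (E.val : ↥E →+* LaurentSeries k) (fun _ => rfl) y (hsep _ y.2)
  obtain ⟨t, ht⟩ := IsPurelyInseparable.inseparable ↥(E'⟮x⟯) y hsepT
  rw [← ht]
  exact t.2

include e he in
/-- `[E'(x) : E'] = q` if `x` is not a series in `t ^ q`. -/
theorem finrank_adjoin_of_Fr (x : ↥E) {n : ℤ} (hn : ¬ (q : ℤ) ∣ n)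
    (hx : (x : LaurentSeries k).coeff n ≠ 0) : Module.finrank E' ↥(E'⟮x⟯) = q := by
  have hq : q.Prime := Fact.out
  have : CharP E' q := charP_of_equiv e
  have hpi : IsPurelyInseparable E' ↥E := isPurelyInseparable_of_Fr h e he
  have hint : Algebra.IsIntegral E' ↥E := IsPurelyInseparable.isIntegral
  have hxi : IsIntegral E' x := hint.isIntegral x
  rw [IntermediateField.adjoin.finrank hxi]
  obtain ⟨m, y₀, hm⟩ := IsPurelyInseparable.minpoly_eq_X_pow_sub_C E' q x
  have hdeg : (minpoly E' x).natDegree = q ^ m := by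
    rw [hm, natDegree_X_pow_sub_C]
  -- `m ≤ 1`
  have hdvd : minpoly E' x ∣ X ^ q - C (e.symm (frobE h x)) := by
    apply minpoly.dvd
    rw [map_sub, map_pow, aeval_X, aeval_C, ← pow_eq_algebraMap h e he, sub_self]
  have hne : (X ^ q - C (e.symm (frobE h x)) : E'[X]) ≠ 0 :=
    X_pow_sub_C_ne_zero hq.pos _
  have hle : q ^ m ≤ q := by
    have := natDegree_le_of_dvd hdvd hne
    rwa [hdeg, natDegree_X_pow_sub_C] at this
  have hm1 : m ≤ 1 := by
    by_contra hc
    have h2 : 2 ≤ m := by omega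
    have h3 : q ^ 2 ≤ q ^ m := Nat.pow_le_pow_right hq.pos h2
    have h4 : q * 2 ≤ q * q := Nat.mul_le_mul_left q hq.two_le
    nlinarith [hq.two_le]
  -- `m ≠ 0`
  have hm0 : m ≠ 0 := by
    rintro rfl
    have h0 := minpoly.aeval E' x
    rw [hm, pow_zero, pow_one, map_sub, aeval_X, aeval_C, sub_eq_zero] at h0
    exact not_mem_range_of_coeff h e he x hn hx y₀ h0.symm
  have : m = 1 := by omega
  rw [hdeg, this, pow_one]

include e he in
/-- **`[E : E'] = q`** for the structure map `Fr ∘ e`, if `E` is separable over `k(x)` for one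
`x ∈ E` which is not a series in `t ^ q`. -/
theorem finrank_of_Fr (x : ↥E) {n : ℤ} (hn : ¬ (q : ℤ) ∣ n)
    (hx : (x : LaurentSeries k).coeff n ≠ 0)
    (hsep : ∀ y ∈ E, IsSeparable ↥(IntermediateField.adjoin k {(x : LaurentSeries k)}) y) :
    Module.finrank E' ↥E = q := by
  rw [← IntermediateField.finrank_top', ← adjoin_eq_top_of_Fr h e he x hsep]
  exact finrank_adjoin_of_Fr h e he x hn hx

include e he in
/-- **`N_{E/E'} g = e⁻¹ (φ g)`** for the structure map `Fr ∘ e`. -/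
theorem norm_of_Fr' (x : ↥E) {n : ℤ} (hn : ¬ (q : ℤ) ∣ n)
    (hx : (x : LaurentSeries k).coeff n ≠ 0)
    (hsep : ∀ y ∈ E, IsSeparable ↥(IntermediateField.adjoin k {(x : LaurentSeries k)}) y)
    (g : ↥E) : Algebra.norm E' g = e.symm (frobE h g) :=
  norm_of_Fr h e he (finrank_of_Fr h e he x hn hx hsep) g

end Twist

end Fermat.Agent.BAD.H73

end
end
-- ==== END Fermat.Agent.BAD.H73_NormFr

-- ==== BEGIN Fermat.Agent.BAD.H94_Arith23
section

/-!
# (ARITH) for BAD_q / NUM-23 (helper94): the small primes `q = 3` and `q = 2`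

* `arith3` : for `2 ∣ M`, `3 ∤ M`:
  `genusFormula (M * 3) + 1 - 2 genusFormula M = ψ(M) / 6 + ν₂(M) / 2`.
* `arith2` : for `3 ∣ M`, `2 ∤ M`:
  `genusFormula (M * 2) + 1 - 2 genusFormula M = ψ(M) / 12 + 2 ν₃(M) / 3`.
* `arith3_le`, `arith2_le` : the counting forms consumed by the node count:
  `oS ≤ z + t`, `3 t ≤ ψ` (`q = 3`), resp. `oST ≤ z + t`, `4 t ≤ ψ` (`q = 2`) imply
  `genusFormula (M q) + 1 ≤ 2 genusFormula M + z`.
-/

set_option autoImplicit false

noncomputable section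

namespace Fermat.Agent.BAD.H94

open ModularCurve Fermat.Agent.BAD.H21

/-! ### Values at `2` and `3` -/

lemma nuTwo_two : nuTwo 2 = 1 := by
  unfold nuTwo
  rw [Nat.card_eq_fintype_card]
  decide

lemma nuThree_two : nuThree 2 = 0 := by
  unfold nuThree
  rw [Nat.card_eq_fintype_card]
  decide

lemma nuTwo_three : nuTwo 3 = 0 := by
  unfold nuTwo
  rw [Nat.card_eq_fintype_card]
  decide

lemma nuThree_three : nuThree 3 = 1 := by
  unfold nuThree
  rw [Nat.card_eq_fintype_card]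
  decide

/-- `ν₃(M) = 0` if `2 ∣ M`. -/
lemma nuThree_eq_zero_of_two_dvd {M : ℕ} (h : 2 ∣ M) : nuThree M = 0 := by
  unfold nuThree
  have : IsEmpty {x : ZMod M // x ^ 2 + x + 1 = 0} := by
    refine ⟨fun x => ?_⟩
    have h1 := congrArg (ZMod.castHom h (ZMod 2)) x.2
    rw [map_add, map_add, map_pow, map_one, map_zero] at h1
    revert h1
    generalize (ZMod.castHom h (ZMod 2)) x.1 = y
    revert y
    decide
  exact Nat.card_of_isEmpty

/-- `ν₂(M) = 0` if `3 ∣ M`. -/
lemma nuTwo_eq_zero_of_three_dvd {M : ℕ} (h : 3 ∣ M) : nuTwo M = 0 := by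
  unfold nuTwo
  have : IsEmpty {x : ZMod M // x ^ 2 + 1 = 0} := by
    refine ⟨fun x => ?_⟩
    have h1 := congrArg (ZMod.castHom h (ZMod 3)) x.2
    rw [map_add, map_pow, map_one, map_zero] at h1
    revert h1
    generalize (ZMod.castHom h (ZMod 3)) x.1 = y
    revert y
    decide
  exact Nat.card_of_isEmpty

lemma dedekindPsi_mul_prime {M ℓ : ℕ} (hℓ : ℓ.Prime) (hM : ¬ ℓ ∣ M) :
    dedekindPsi (M * ℓ) = dedekindPsi M * (ℓ + 1) := by
  have hcop : M.Coprime ℓ := ((Nat.Prime.coprime_iff_not_dvd hℓ).mpr hM).symm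
  rw [Fermat.Agent.S20.H19.dedekindPsi_mul hcop]
  have := Fermat.Agent.S20.H19.dedekindPsi_prime_pow hℓ (n := 1) one_pos
  simp only [pow_one, Nat.sub_self, pow_zero] at this
  rw [this]

/-! ### (ARITH) at `q = 3` -/

/-- **(ARITH-3)**: `2 ∣ M`, `3 ∤ M`. -/
theorem arith3 {M : ℕ} (h2 : 2 ∣ M) (h3 : ¬ 3 ∣ M) :
    genusFormula (M * 3) + 1 - 2 * genusFormula M
      = (dedekindPsi M : ℚ) / 6 + (nuTwo M : ℚ) / 2 := by
  have hcop : M.Coprime 3 := ((Nat.Prime.coprime_iff_not_dvd Nat.prime_three).mpr h3).symm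
  rw [genusFormula, genusFormula, dedekindPsi_mul_prime Nat.prime_three h3,
    H21_cuspCount_mul_prime Nat.prime_three h3, H21_nuTwo_mul hcop, H21_nuThree_mul hcop,
    nuTwo_three, nuThree_three, nuThree_eq_zero_of_two_dvd h2]
  push_cast
  ring

/-- Counting form of (ARITH-3): `oS = #{j = 1728}`, `t = #{h = 512}`, `z = #{h = -64}`. -/
theorem arith3_le {M : ℕ} (h2 : 2 ∣ M) (h3 : ¬ 3 ∣ M) (oS z t : ℕ)
    (hS : 2 * oS = dedekindPsi M + nuTwo M) (hzt : oS ≤ z + t) (ht : 3 * t ≤ dedekindPsi M) :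
    genusFormula (M * 3) + 1 ≤ 2 * genusFormula M + z := by
  have h := arith3 h2 h3
  have hSQ : (2 : ℚ) * oS = dedekindPsi M + nuTwo M := by exact_mod_cast hS
  have hztQ : (oS : ℚ) ≤ z + t := by exact_mod_cast hzt
  have htQ : (3 : ℚ) * t ≤ dedekindPsi M := by exact_mod_cast ht
  linarith

/-- Natural number form of (ARITH-3): `6 (g(3M) + 1 - 2 g(M)) = ψ + 3 ν₂`. -/
theorem arith3_six {M : ℕ} (h2 : 2 ∣ M) (h3 : ¬ 3 ∣ M) :
    6 * (genusFormula (M * 3) + 1 - 2 * genusFormula M)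
      = ((dedekindPsi M + 3 * nuTwo M : ℕ) : ℚ) := by
  rw [arith3 h2 h3]
  push_cast
  ring

/-! ### (ARITH) at `q = 2` -/

/-- **(ARITH-2)**: `3 ∣ M`, `2 ∤ M`. -/
theorem arith2 {M : ℕ} (h3 : 3 ∣ M) (h2 : ¬ 2 ∣ M) :
    genusFormula (M * 2) + 1 - 2 * genusFormula M
      = (dedekindPsi M : ℚ) / 12 + 2 * (nuThree M : ℚ) / 3 := by
  have hcop : M.Coprime 2 := ((Nat.Prime.coprime_iff_not_dvd Nat.prime_two).mpr h2).symm
  rw [genusFormula, genusFormula, dedekindPsi_mul_prime Nat.prime_two h2,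
    H21_cuspCount_mul_prime Nat.prime_two h2, H21_nuTwo_mul hcop, H21_nuThree_mul hcop,
    nuTwo_two, nuThree_two, nuTwo_eq_zero_of_three_dvd h3]
  push_cast
  ring

/-- Counting form of (ARITH-2): `oST = #{j = 0}`, `t = #{h = -243}`, `z = #{h = -27}`. -/
theorem arith2_le {M : ℕ} (h3 : 3 ∣ M) (h2 : ¬ 2 ∣ M) (oST z t : ℕ)
    (hST : 3 * oST = dedekindPsi M + 2 * nuThree M) (hzt : oST ≤ z + t)
    (ht : 4 * t ≤ dedekindPsi M) :
    genusFormula (M * 2) + 1 ≤ 2 * genusFormula M + z := by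
  have h := arith2 h3 h2
  have hSQ : (3 : ℚ) * oST = dedekindPsi M + 2 * nuThree M := by exact_mod_cast hST
  have hztQ : (oST : ℚ) ≤ z + t := by exact_mod_cast hzt
  have htQ : (4 : ℚ) * t ≤ dedekindPsi M := by exact_mod_cast ht
  linarith

/-- Natural number form of (ARITH-2): `12 (g(2M) + 1 - 2 g(M)) = ψ + 8 ν₃`. -/
theorem arith2_twelve {M : ℕ} (h3 : 3 ∣ M) (h2 : ¬ 2 ∣ M) :
    12 * (genusFormula (M * 2) + 1 - 2 * genusFormula M)
      = ((dedekindPsi M + 8 * nuThree M : ℕ) : ℚ) := by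
  rw [arith2 h3 h2]
  push_cast
  ring

end Fermat.Agent.BAD.H94

end
end
-- ==== END Fermat.Agent.BAD.H94_Arith23

-- ==== BEGIN Fermat.Agent.Betti.Basic
section

/-!
# Betti Hecke operators: parabolic homomorphisms and the involution

* `TB_mem_parabolicHoms`, `UB_mem_parabolicHoms`: the Betti Hecke operators preserve
  `parabolicHoms` (coefficients in a torsion free group);
* `charInvolution_TB`, `charInvolution_UB`: they commute with `charInvolution`.
-/

set_option autoImplicit false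

namespace Fermat.Agent.Betti

open CongruenceSubgroup Matrix.SpecialLinearGroup ModularForm ModularCurve.Period
open scoped MatrixGroups
open P2MW.S_ModularForm_heckeT_slash_eq_self_of_mem_Gamma0.ModularForm.HeckeSlashInvariance

/-! ### Traces of powers -/

theorem sq_eq_trace_smul_sub (M : Matrix (Fin 2) (Fin 2) ℤ) :
    M * M = M.trace • M - M.det • (1 : Matrix (Fin 2) (Fin 2) ℤ) := by
  have h : ∀ i j, (M * M) i j
      = M.trace * M i j - M.det * (1 : Matrix (Fin 2) (Fin 2) ℤ) i j := by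
    intro i j
    fin_cases i <;> fin_cases j <;>
      simp [Matrix.mul_apply, Fin.sum_univ_two, Matrix.trace_fin_two, Matrix.det_fin_two] <;> ring
  ext i j
  rw [h]
  simp only [Matrix.sub_apply, Matrix.smul_apply, smul_eq_mul]

/-- For `g ∈ SL₂(ℤ)` with `tr g = 2ε`, `ε = ±1`: `tr (g ^ n) = 2 ε ^ n` and
`g ^ n = ε^(n-1) n g - ε^n (n - 1)`. -/
theorem pow_eq_of_trace (g : Matrix (Fin 2) (Fin 2) ℤ) (hdet : g.det = 1) (ε : ℤ) (hε : ε * ε = 1)
    (htr : g.trace = 2 * ε) (n : ℕ) :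
    g ^ (n + 1) = (ε ^ n * (n + 1)) • g - (ε ^ (n + 1) * n) • (1 : Matrix (Fin 2) (Fin 2) ℤ) := by
  induction n with
  | zero => simp
  | succ n ih =>
    rw [pow_succ, ih, sub_mul, Matrix.smul_mul, Matrix.smul_mul, one_mul, sq_eq_trace_smul_sub,
      hdet, htr]
    have h2 : ε ^ (n + 1 + 1) = ε ^ n := by rw [pow_succ, pow_succ, mul_assoc, hε, mul_one]
    rw [h2]
    simp only [smul_sub, smul_smul, one_smul]
    have e1 : ε ^ n * (↑n + 1) * (2 * ε) - ε ^ (n + 1) * ↑n = ε ^ (n + 1) * ((n + 1 : ℕ) + 1 : ℤ) := by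
      push_cast; ring
    have e2 : (ε ^ n * (↑n + 1) : ℤ) = ε ^ n * ((n + 1 : ℕ) : ℤ) := by push_cast; ring
    rw [← e1, e2]
    push_cast
    module

theorem trace_pow_sq_eq_four (g : SL(2, ℤ))
    (h : (g : Matrix (Fin 2) (Fin 2) ℤ).trace ^ 2 = 4) (n : ℕ) :
    ((g ^ n : SL(2, ℤ)) : Matrix (Fin 2) (Fin 2) ℤ).trace ^ 2 = 4 := by
  rcases n with _ | n
  · simp
  · have hε : ∃ ε : ℤ, ε * ε = 1 ∧ (g : Matrix (Fin 2) (Fin 2) ℤ).trace = 2 * ε := by
      have h' : ((g : Matrix (Fin 2) (Fin 2) ℤ).trace - 2) *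
          ((g : Matrix (Fin 2) (Fin 2) ℤ).trace + 2) = 0 := by linear_combination h
      rcases mul_eq_zero.mp h' with h1 | h1
      · exact ⟨1, by norm_num, by linarith⟩
      · exact ⟨-1, by norm_num, by linarith⟩
    obtain ⟨ε, hε1, hε2⟩ := hε
    have hpow := pow_eq_of_trace (g : Matrix (Fin 2) (Fin 2) ℤ) g.2 ε hε1 hε2 n
    rw [Matrix.SpecialLinearGroup.coe_pow, hpow, Matrix.trace_sub, Matrix.trace_smul,
      Matrix.trace_smul, hε2, Matrix.trace_one]
    simp only [smul_eq_mul, Fintype.card_fin]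
    have h3 : ε ^ (n + 1) = ε ^ n * ε := pow_succ _ _
    rw [h3]
    have h4 : (ε ^ n) ^ 2 = 1 := by
      rw [← pow_mul, mul_comm, pow_mul, pow_two, hε1, one_pow]
    have h5 : ε ^ 2 = 1 := by rw [pow_two, hε1]
    have : (ε ^ n * (↑n + 1) * (2 * ε) - ε ^ n * ε * ↑n * ((2 : ℕ) : ℤ)) = 2 * (ε ^ n * ε) := by
      push_cast; ring
    rw [this]
    calc (2 * (ε ^ n * ε)) ^ 2 = 4 * ((ε ^ n) ^ 2 * ε ^ 2) := by ring
      _ = 4 := by rw [h4, h5]; norm_num

theorem trace_mapGL (g : SL(2, ℤ)) :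
    ((mapGL ℝ g : GL (Fin 2) ℝ) : Matrix (Fin 2) (Fin 2) ℝ).trace
      = (((g : Matrix (Fin 2) (Fin 2) ℤ).trace : ℤ) : ℝ) := by
  simp [Matrix.trace_fin_two]

/-- The class of parabolic elements satisfies the hypothesis of `heckeOp_vanishes`. -/
theorem parabolic_stable (N : ℕ) {ι : Type*} (rep : ι → GL (Fin 2) ℝ) (γ : Gamma0 N)
    (hγ : ((γ : SL(2, ℤ)) : Matrix (Fin 2) (Fin 2) ℤ).trace ^ 2 = 4) (n : ℕ) (i : ι)
    (κ : Gamma0 N) (h : rep i * incl N (γ ^ n) = incl N κ * rep i) :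
    ((κ : SL(2, ℤ)) : Matrix (Fin 2) (Fin 2) ℤ).trace ^ 2 = 4 := by
  have h1 : incl N κ = rep i * incl N (γ ^ n) * (rep i)⁻¹ := by
    rw [h, mul_inv_cancel_right]
  have h2 : ((incl N κ : GL (Fin 2) ℝ) : Matrix (Fin 2) (Fin 2) ℝ).trace
      = ((incl N (γ ^ n) : GL (Fin 2) ℝ) : Matrix (Fin 2) (Fin 2) ℝ).trace := by
    rw [h1]
    exact Matrix.trace_units_conj (rep i) _
  rw [incl_apply, incl_apply, trace_mapGL, trace_mapGL] at h2
  have h3 : ((κ : SL(2, ℤ)) : Matrix (Fin 2) (Fin 2) ℤ).trace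
      = (((γ ^ n : Gamma0 N) : SL(2, ℤ)) : Matrix (Fin 2) (Fin 2) ℤ).trace := by
    exact_mod_cast h2
  rw [h3]
  have := trace_pow_sq_eq_four (γ : SL(2, ℤ)) hγ n
  simpa using this

section Parabolic

variable {N : ℕ} {A : Type*} [AddCommGroup A] [IsAddTorsionFree A]

theorem heckeOp_isParabolicHom {ι : Type*} [Fintype ι] {rep : ι → GL (Fin 2) ℝ}
    (H : IsHeckeFamily (incl N) rep) {φ : Additive (Gamma0 N) →+ A}
    (hφ : IsParabolicHom (Gamma0 N) φ) :
    IsParabolicHom (Gamma0 N) (H.heckeOp (incl_injective N) φ) := by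
  intro γ hγ
  exact H.heckeOp_vanishes (incl_injective N)
    {γ : Gamma0 N | ((γ : SL(2, ℤ)) : Matrix (Fin 2) (Fin 2) ℤ).trace ^ 2 = 4}
    (fun γ hγ n _ i κ h => parabolic_stable N rep γ hγ n i κ h) φ (fun γ hγ => hφ γ hγ) γ hγ

/-- `T_p^B` preserves parabolic homomorphisms. -/
theorem TB_mem_parabolicHoms (R : Type*) [Semiring R] [Module R A] {p : ℕ} (hp : p.Prime)
    (hpN : ¬ p ∣ N) {φ : Additive (Gamma0 N) →+ A} (hφ : φ ∈ parabolicHoms R (Gamma0 N) A) :
    TB N A hp hpN φ ∈ parabolicHoms R (Gamma0 N) A := by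
  have : Fact p.Prime := ⟨hp⟩
  exact heckeOp_isParabolicHom (isHeckeFamily_T N hpN) hφ

/-- `U_p^B` preserves parabolic homomorphisms. -/
theorem UB_mem_parabolicHoms [NeZero N] (R : Type*) [Semiring R] [Module R A] {p : ℕ}
    (hpN : p ∣ N) {φ : Additive (Gamma0 N) →+ A} (hφ : φ ∈ parabolicHoms R (Gamma0 N) A) :
    UB N A hpN φ ∈ parabolicHoms R (Gamma0 N) A := by
  have : NeZero p := neZero_of_dvd hpN
  exact heckeOp_isParabolicHom (isHeckeFamily_U N hpN) hφ

end Parabolic

end Fermat.Agent.Betti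

end
-- ==== END Fermat.Agent.Betti.Basic

-- ==== BEGIN Fermat.Agent.Betti.Invol
section

/-!
# Betti Hecke operators commute with the involution `charInvolution`

`charInvolution` is composition with the automorphism `jConjGamma0` of `Γ₀(N)`, conjugation by
`J = diag(1, -1)`. Since `J [1,j;0,p] J = [1,-j;0,p] = T^m [1,j';0,p]` with `j' = (-j) mod p` and
`J [p,0;0,1] J = [p,0;0,1]`, the Hecke families of `T_p` and `U_p` are stable under conjugation
by `J` up to left multiplication by `Γ₀(N)`, and `IsHeckeFamily.heckeOp_eq_of_twist` applies.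
-/

set_option autoImplicit false

namespace Fermat.Agent.Betti

open CongruenceSubgroup Matrix.SpecialLinearGroup ModularForm ModularCurve.Period
open scoped MatrixGroups
open P2MW.S_ModularForm_heckeT_slash_eq_self_of_mem_Gamma0.ModularForm.HeckeSlashInvariance

/-- `J = diag(1, -1)` in `GL₂(ℝ)`. -/
noncomputable def Jmat : GL (Fin 2) ℝ :=
  Matrix.GeneralLinearGroup.mkOfDetNeZero !![1, 0; 0, -1] (by simp [Matrix.det_fin_two_of])

@[simp] theorem val_Jmat :
    ((Jmat : GL (Fin 2) ℝ) : Matrix (Fin 2) (Fin 2) ℝ) = !![1, 0; 0, -1] := rfl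

theorem Jmat_mul_self : Jmat * Jmat = 1 := by
  ext i j
  fin_cases i <;> fin_cases j <;> simp [Matrix.mul_apply, Fin.sum_univ_two]

/-- Conjugation by `J` on `GL₂(ℝ)`. -/
noncomputable def conjJ : GL (Fin 2) ℝ →* GL (Fin 2) ℝ where
  toFun g := Jmat * g * Jmat
  map_one' := by rw [mul_one, Jmat_mul_self]
  map_mul' g h := by
    calc Jmat * (g * h) * Jmat = Jmat * g * 1 * h * Jmat := by group
      _ = Jmat * g * (Jmat * Jmat) * h * Jmat := by rw [Jmat_mul_self]
      _ = Jmat * g * Jmat * (Jmat * h * Jmat) := by group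

theorem conjJ_apply (g : GL (Fin 2) ℝ) : conjJ g = Jmat * g * Jmat := rfl

theorem val_conjJ (g : GL (Fin 2) ℝ) :
    ((conjJ g : GL (Fin 2) ℝ) : Matrix (Fin 2) (Fin 2) ℝ)
      = !![g 0 0, -g 0 1; -g 1 0, g 1 1] := by
  ext i j
  fin_cases i <;> fin_cases j <;>
    simp [conjJ_apply, Matrix.mul_apply, Fin.sum_univ_two, Matrix.vecMul, dotProduct]

theorem conjJ_incl (N : ℕ) (γ : Gamma0 N) : conjJ (incl N γ) = incl N (jConjGamma0 N γ) := by
  ext i j
  rw [val_conjJ]
  fin_cases i <;> fin_cases j <;> simp [jConjMat]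

/-- `T ^ m` as an element of `Γ₀(N)`. -/
noncomputable def tPow (N : ℕ) (m : ℤ) : Gamma0 N :=
  ⟨ModularGroup.T ^ m, by
    rw [Gamma0_mem, ModularGroup.coe_T_zpow]
    simp⟩

theorem val_incl_tPow (N : ℕ) (m : ℤ) :
    ((incl N (tPow N m) : GL (Fin 2) ℝ) : Matrix (Fin 2) (Fin 2) ℝ) = !![1, (m : ℝ); 0, 1] := by
  ext i j
  have h := ModularGroup.coe_T_zpow m
  rw [incl_apply, mapGL_apply]
  show ((((ModularGroup.T ^ m : SL(2, ℤ)) : Matrix (Fin 2) (Fin 2) ℤ) i j : ℤ) : ℝ) = _
  rw [h]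
  fin_cases i <;> fin_cases j <;> simp

/-- The exponent `m` with `[1,-j;0,p] = T^m [1,(-j) mod p;0,p]`. -/
noncomputable def negShift {p : ℕ} (x : ZMod p) : ℤ := -(((x.val + (-x).val) / p : ℕ) : ℤ)

theorem negShift_spec {p : ℕ} [NeZero p] (x : ZMod p) :
    -(x.val : ℝ) = (negShift x : ℝ) * p + ((-x).val : ℝ) := by
  have hdvd : p ∣ x.val + (-x).val := by
    rw [← ZMod.natCast_eq_zero_iff]
    push_cast
    rw [ZMod.natCast_zmod_val, ZMod.natCast_zmod_val, add_neg_cancel]
  obtain ⟨c, hc⟩ := hdvd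
  have hp : 0 < p := Nat.pos_of_ne_zero (NeZero.ne p)
  have h1 : (x.val + (-x).val) / p = c := by rw [hc, Nat.mul_div_cancel_left _ hp]
  have h2 : ((x.val : ℝ) + ((-x).val : ℝ)) = (p : ℝ) * c := by exact_mod_cast hc
  rw [negShift, h1]
  push_cast
  linarith

theorem conjJ_heckeMatrix {p : ℕ} [NeZero p] (N : ℕ) (x : ZMod p) :
    conjJ (heckeMatrix p x.val) = incl N (tPow N (negShift x)) * heckeMatrix p (-x).val := by
  have hp : p ≠ 0 := NeZero.ne p
  have h := negShift_spec x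
  simp only [ZMod.natCast_val] at h
  ext i j
  rw [val_conjJ, Matrix.GeneralLinearGroup.coe_mul, val_incl_tPow]
  fin_cases i <;> fin_cases j <;>
    simp [hp, Matrix.mul_apply, Fin.sum_univ_two]
  linarith

theorem conjJ_heckeDiagMatrix {p : ℕ} [NeZero p] :
    conjJ (heckeDiagMatrix p) = heckeDiagMatrix p := by
  have hp : p ≠ 0 := NeZero.ne p
  ext i j
  rw [val_conjJ]
  fin_cases i <;> fin_cases j <;> simp [hp]

section Invol

variable {N : ℕ} {A : Type*} [AddCommGroup A]

/-- `T_p^B` commutes with `charInvolution`. -/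
theorem charInvolution_TB (R : Type*) [Semiring R] [Module R A] {p : ℕ} (hp : p.Prime)
    (hpN : ¬ p ∣ N) (φ : Additive (Gamma0 N) →+ A) :
    charInvolution N R A (TB N A hp hpN φ) = TB N A hp hpN (charInvolution N R A φ) := by
  have : Fact p.Prime := ⟨hp⟩
  have : NeZero p := ⟨hp.ne_zero⟩
  let π : OnePoint (ZMod p) ≃ OnePoint (ZMod p) := Equiv.optionCongr (Equiv.neg (ZMod p))
  let ε : OnePoint (ZMod p) → Gamma0 N := fun x => x.elim 1 (fun j => tPow N (negShift j))
  refine (isHeckeFamily_T N hpN).heckeOp_eq_of_twist (isHeckeFamily_T N hpN) (incl_injective N)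
    conjJ (jConjGamma0 N) (conjJ_incl N) π ε ?_ φ
  intro x
  induction x using OnePoint.rec with
  | infty =>
    show conjJ (heckeDiagMatrix p) = incl N 1 * heckeDiagMatrix p
    rw [map_one, one_mul, conjJ_heckeDiagMatrix]
  | coe j =>
    show conjJ (heckeMatrix p j.val) = incl N (tPow N (negShift j)) * heckeMatrix p (-j).val
    exact conjJ_heckeMatrix N j

/-- `U_p^B` commutes with `charInvolution`. -/
theorem charInvolution_UB [NeZero N] (R : Type*) [Semiring R] [Module R A] {p : ℕ}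
    (hpN : p ∣ N) (φ : Additive (Gamma0 N) →+ A) :
    charInvolution N R A (UB N A hpN φ) = UB N A hpN (charInvolution N R A φ) := by
  have : NeZero p := neZero_of_dvd hpN
  refine (isHeckeFamily_U N hpN).heckeOp_eq_of_twist (isHeckeFamily_U N hpN) (incl_injective N)
    conjJ (jConjGamma0 N) (conjJ_incl N) (Equiv.neg (ZMod p)) (fun j => tPow N (negShift j)) ?_ φ
  intro j
  exact conjJ_heckeMatrix N j

end Invol

end Fermat.Agent.Betti

end
-- ==== END Fermat.Agent.Betti.Invol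

-- ==== BEGIN Fermat.Agent.Betti.Stmts
section

/-!
# Betti–Hecke package: interface statements (work packages)

Each `Stmt_*` is a `Prop`; a work package proves it in its own file
`Fermat/Agent/Betti/H<seat>_<Name>.lean`, namespace `Fermat.Agent.Betti.H<seat>`.
See `NOTES/plan/Betti.md` for owners and status.
-/

set_option autoImplicit false

namespace Fermat.Agent.Betti

open CongruenceSubgroup ModularCurve ModularCurve.Period
open scoped MatrixGroups

/-- **B3-T** (period map intertwines `T_p`): for `f ∈ S₂(Γ₀(N))`, `p ∤ N` prime,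
`periodMap (T_p f) = T_p^B (periodMap f)`.
Proof sketch: let `F` be a primitive of `f` as in `HasEquivariantPrimitive` (exists:
`Fermat.Agent.S21.partA`), `G := ∑ x, F ∘ (repT p x • ·)`. Then `G' = T_p f`
(`heckeT_eq_sum_onePoint`, chain rule), so `G` differs by a constant from any primitive `H` of
`T_p f` with `HasEquivariantPrimitive` (`Fermat.Agent.S21.primitive_sub_const`), and
`G (γ z) - G z = ∑ x, (F (κ_x(γ) • rep (x·γ) • z) - F (rep x • z)) = ∑ x, period_F (κ_x γ)`
by `IsHeckeFamily.rep_mul` and reindexing along `permEquiv`. -/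
def Stmt_period_TB : Prop :=
  ∀ (N : ℕ) [NeZero N] {p : ℕ} (hp : p.Prime) (hpN : ¬ p ∣ N) (f : CuspForm (Gamma0 N) 2),
    periodMap N (CuspForm.heckeTLin 2 hp hpN f) = TB N ℂ hp hpN (periodMap N f)

/-- **B3-U** (period map intertwines `U_p`, `p ∣ N`). -/
def Stmt_period_UB : Prop :=
  ∀ (N : ℕ) [NeZero N] {p : ℕ} (hpN : p ∣ N) (f : CuspForm (Gamma0 N) 2),
    periodMap N (CuspForm.heckeULin 2 hpN f) = UB N ℂ hpN (periodMap N f)

/-! ### The lattice, the matrix representation of the Hecke algebra, eigenvectors -/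

/-- `b` is a universal basis of the parabolic homomorphisms: every parabolic homomorphism
`φ : Γ₀(N) → A` into a torsion free abelian group is `γ ↦ ∑ i, b i γ • a i` for unique `a i ∈ A`. -/
def IsParBasis (N : ℕ) {r : ℕ} (b : Fin r → (Additive (Gamma0 N) →+ ℤ)) : Prop :=
  (∀ i, IsParabolicHom (Gamma0 N) (b i)) ∧
    ∀ (A : Type) [AddCommGroup A] [IsAddTorsionFree A] (φ : Additive (Gamma0 N) →+ A),
      IsParabolicHom (Gamma0 N) φ → ∃! a : Fin r → A, ∀ γ, φ γ = ∑ i, b i γ • a i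

/-- **B1** (owner helper20): `Hom_par(Γ₀(N), ℤ)` has a finite universal basis.
Route: `Γ₀(N)` is finitely generated (finite index in `SL₂(ℤ) = ⟨S, T⟩`, Schreier), so
`H = Γ₀(N)^ab / ⟨parabolic⟩` is a finitely generated abelian group, `H / tors` is free. -/
def Stmt_basis : Prop :=
  ∀ (N : ℕ) [NeZero N], ∃ (r : ℕ) (b : Fin r → (Additive (Gamma0 N) →+ ℤ)), IsParBasis N b

/-- **B4-a** (owner helper76): in a universal basis the Hecke algebra `heckeAlgebra N 2 S`
(a subalgebra of `End_ℂ S₂(Γ₀(N))`) is represented faithfully by integer matrices, the generators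
`T_ℓ`, `U_q` going to the matrices of the Betti operators `TB`, `UB`.
Route: S21 (`Fermat.Agent.S21.result`) + B3 + `charInvolution_TB/UB` give an isomorphism
`S₂ × S₂ ≃ parabolicHoms ℂ` intertwining `t × t` with the Betti operator; the lattice spanned by `b`
is stable (`TB_mem_parabolicHoms`, `heckeOp_comp`). -/
def Stmt_matrixRep : Prop :=
  ∀ (N : ℕ) [NeZero N] (S : Set ℕ) (r : ℕ) (b : Fin r → (Additive (Gamma0 N) →+ ℤ)),
    IsParBasis N b →
    ∃ M : CuspForm.heckeAlgebra N 2 S →+* Matrix (Fin r) (Fin r) ℤ, Function.Injective M ∧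
      (∀ (ℓ : ℕ) (hℓ : ℓ.Prime) (hℓN : ¬ ℓ ∣ N) (hℓS : ℓ ∉ S) (j : Fin r),
        TB N ℤ hℓ hℓN (b j) = ∑ i, M (CuspForm.heckeAlgebra.T hℓ hℓN hℓS) i j • b i) ∧
      (∀ (q : ℕ) (hq : q.Prime) (hqN : q ∣ N) (hqS : q ∉ S) (j : Fin r),
        UB N ℤ hqN (b j) = ∑ i, M (CuspForm.heckeAlgebra.U hq hqN hqS) i j • b i)

/-- **ALG-EIG** (pure algebra, OPEN): a commutative ring of integer matrices and a character of it
with values in a field of characteristic zero have a common eigenvector.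
Route: `A := K`-span of the image in `M_r(K)` is a commutative finite dimensional `K`-algebra,
`R ⊗ K → M_r(K)` is injective (flatness; `R` is a finite free `ℤ`-module), so `χ` extends to
`χ_K : A → K`; `𝔪 = ker χ_K`; `𝔪^k = 𝔪^(k+1) = (e)` with `e` idempotent, `1 - e ∉ 𝔪`,
`W = (1 - e) K^r ≠ 0`, `𝔪^k W = 0`; a nonzero vector of the last nonzero `𝔪^j W` is killed by `𝔪`. -/
def Stmt_algEig : Prop :=
  ∀ (R : Type) [CommRing R] (r : ℕ) (M : R →+* Matrix (Fin r) (Fin r) ℤ), Function.Injective M →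
    ∀ (K : Type) [Field K] [CharZero K] (χ : R →+* K),
      ∃ v : Fin r → K, v ≠ 0 ∧ ∀ t : R, ((M t).map (Int.cast : ℤ → K)).mulVec v = χ t • v

/-- **B4-eig** (assembly, owner helper20): every character of the Hecke algebra with values in a
field of characteristic zero occurs in `Hom_par(Γ₀(N), K)`. This is the "nonvanishing" input of
`Fermat.Agent.S30.Stmt_TatePiece`. -/
def Stmt_eigen : Prop :=
  ∀ (N : ℕ) [NeZero N] (S : Set ℕ) (K : Type) [Field K] [CharZero K]
    (χ : CuspForm.heckeAlgebra N 2 S →+* K),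
    ∃ φ : Additive (Gamma0 N) →+ K, φ ≠ 0 ∧ IsParabolicHom (Gamma0 N) φ ∧
      (∀ (ℓ : ℕ) (hℓ : ℓ.Prime) (hℓN : ¬ ℓ ∣ N) (hℓS : ℓ ∉ S),
        TB N K hℓ hℓN φ = χ (CuspForm.heckeAlgebra.T hℓ hℓN hℓS) • φ) ∧
      (∀ (q : ℕ) (hq : q.Prime) (hqN : q ∣ N) (hqS : q ∉ S),
        UB N K hqN φ = χ (CuspForm.heckeAlgebra.U hq hqN hqS) • φ)

end Fermat.Agent.Betti

end
-- ==== END Fermat.Agent.Betti.Stmts

-- ==== BEGIN Fermat.Agent.GTor.Clo.H24_GC4
section

/-!
# G-TOR A3–A5, WP GC4 (helper24): the valuation of a Galois closure at a prime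

Setting of `Fermat.Agent.S24.gc_card_zeros`.  We prove the two statements `gc_val_eq` and
`gc_orderOf_eq` of `Fermat/Agent/GTor/Clo/GC4.lean` (exact signatures, under the names
`h24_gc_val_eq` and `h24_gc_orderOf_eq`).

Route (helper95's note): `C` the integral closure of `A = K[X]` in `L`,
`P = {c ∈ C | w c < 1}`.
* `h24_val_eq_pow`: `w` is a power `vP ^ a` of the `P`-adic valuation (the valuation ring of `w`
  contains the discrete valuation ring of `P`, hence is equal to it).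
* GC2 gives `e(P | X) = |Stab P| = orderOf σ`; comparing at `t` gives `a = 1` and
  `w t = exp (- orderOf σ)`.
* `vP f = v𝔭 f ^ e(P | 𝔭)` for `f ∈ F`, `𝔭 = P ∩ B` (Mathlib `valuation_liesOver`), and
  `e(P | 𝔭) = |Stab_H P| = |⟨σ⟩ ⊓ H|`.
-/

set_option autoImplicit false

noncomputable section

open WithZero IsDedekindDomain AlgebraicCurve
open scoped Pointwise

namespace Fermat.Agent.GTor.Clo.H24

section ValEq

variable {C L : Type*} [CommRing C] [IsDedekindDomain C] [Field L] [Algebra C L]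
  [IsFractionRing C L]

/-- A `ℤᵐ⁰`-valued valuation of `L = Frac C`, nontrivial, equal to `1` on `C ∖ P` and `≤ 1` on
`C`, is a power of the `P`-adic valuation. -/
theorem h24_val_eq_pow (w : Valuation L ℤᵐ⁰) (P : HeightOneSpectrum C)
    (hwC : ∀ c : C, w (algebraMap C L c) ≤ 1)
    (hwP : ∀ c : C, c ∉ P.asIdeal → w (algebraMap C L c) = 1)
    (hne : ∃ x : L, x ≠ 0 ∧ w x < 1) :
    ∃ a : ℕ, 0 < a ∧ ∀ x : L, w x = (P.valuation L x) ^ a := by
  -- the valuation rings agree
  have hle : (P.valuation L).valuationSubring ≤ w.valuationSubring := by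
    intro x hx
    rw [Valuation.mem_valuationSubring_iff] at hx ⊢
    obtain ⟨n, d, hnd⟩ := P.exists_primeCompl_mul_eq_of_integer x hx
    have hd : w (algebraMap C L d) = 1 := hwP d d.2
    have h1 := congrArg w hnd
    rw [map_mul, hd, mul_one] at h1
    rw [h1]
    exact hwC n
  have htop : w.valuationSubring ≠ ⊤ := by
    obtain ⟨x, hx0, hx⟩ := hne
    intro h
    have h1 : x⁻¹ ∈ w.valuationSubring := by rw [h]; exact ValuationSubring.mem_top _
    rw [Valuation.mem_valuationSubring_iff, map_inv₀] at h1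
    have h2 : w x ≠ 0 := (Valuation.ne_zero_iff _).mpr hx0
    have h3 : 1 ≤ w x := by
      by_contra hcon
      push Not at hcon
      have := one_lt_inv_iff₀.mpr ⟨pos_iff_ne_zero.mpr h2, hcon⟩
      exact absurd h1 (not_le.mpr this)
    exact absurd hx (not_lt.mpr h3)
  have hK : Ring.KrullDimLE 1 (P.valuation L).valuationSubring := by
    rw [← HeightOneSpectrum.valuationSubringAtPrime_eq_valuationSubring]
    infer_instance
  have heq : (P.valuation L).valuationSubring = w.valuationSubring :=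
    ValuationSubring.eq_of_le_of_ne_top _ hle htop
  have hequiv : (P.valuation L).IsEquiv w := (Valuation.isEquiv_iff_valuationSubring _ _).mpr heq
  -- uniformizer
  obtain ⟨π, hπ⟩ := P.valuation_exists_uniformizer L
  have hπ0 : π ≠ 0 := by
    rintro rfl
    rw [map_zero] at hπ
    exact exp_ne_zero hπ.symm
  have hπlt : P.valuation L π < 1 := by
    rw [hπ]; exact (exp_lt_exp.mpr (by norm_num : (-1 : ℤ) < 0)).trans_eq exp_zero
  have hwπlt : w π < 1 := hequiv.lt_one_iff_lt_one.mp hπlt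
  have hwπ0 : w π ≠ 0 := (Valuation.ne_zero_iff _).mpr hπ0
  have hlog : log (w π) < 0 := by
    rw [← exp_log hwπ0, ← exp_zero, exp_lt_exp] at hwπlt
    exact hwπlt
  obtain ⟨a, ha⟩ : ∃ a : ℕ, (a : ℤ) = -(log (w π)) := ⟨(-(log (w π))).toNat,
    Int.toNat_of_nonneg (by omega)⟩
  have hwπ : w π = exp (-(a : ℤ)) := by
    rw [ha, neg_neg, exp_log hwπ0]
  refine ⟨a, by omega, fun x => ?_⟩
  rcases eq_or_ne x 0 with rfl | hx0
  · rw [map_zero, map_zero, zero_pow (by omega)]
  have hvx0 : P.valuation L x ≠ 0 := (Valuation.ne_zero_iff _).mpr hx0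
  set n : ℤ := log (P.valuation L x) with hn
  have hvx : P.valuation L x = exp n := (exp_log hvx0).symm
  -- `x * π ^ n` is a unit
  have h1 : P.valuation L (x * π ^ n) = 1 := by
    rw [map_mul, map_zpow₀, hπ, hvx, ← exp_zsmul, smul_eq_mul, ← exp_add]
    rw [show n + n * -1 = 0 by ring, exp_zero]
  have h2 : w (x * π ^ n) = 1 := hequiv.eq_one_iff_eq_one.mp h1
  rw [map_mul, map_zpow₀] at h2
  have hwx : w x = (w π ^ n)⁻¹ := eq_inv_of_mul_eq_one_left h2
  rw [hwx, hvx, ← exp_nsmul, hwπ, ← exp_zsmul, ← exp_neg]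
  congr 1
  rw [smul_eq_mul, nsmul_eq_mul]
  ring

end ValEq

section Inertia

/-- Over an algebraically closed field of constants all inertia degrees are `1`. -/
theorem h24_inertiaDeg_eq_one {K R S : Type*} [Field K] [IsAlgClosed K] [CommRing R]
    [CommRing S] [Algebra K R] [Algebra R S] [Algebra K S] [IsScalarTower K R S]
    (p : Ideal R) (P : Ideal S) [P.LiesOver p] [hp : p.IsMaximal] [hP : P.IsMaximal]
    (hint : Algebra.IsIntegral K (S ⧸ P)) : P.inertiaDeg R = 1 := by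
  rw [Ideal.inertiaDeg_eq_of_isMaximal p P]
  let iF1 : Field (R ⧸ p) := Ideal.Quotient.field p
  let iF2 : Field (S ⧸ P) := Ideal.Quotient.field P
  have : IsScalarTower K (R ⧸ p) (S ⧸ P) := by
    refine IsScalarTower.of_algebraMap_eq fun k => ?_
    rw [IsScalarTower.algebraMap_apply K S (S ⧸ P), IsScalarTower.algebraMap_apply K R S,
      IsScalarTower.algebraMap_apply K R (R ⧸ p),
      ← IsScalarTower.algebraMap_apply R (R ⧸ p) (S ⧸ P),
      ← IsScalarTower.algebraMap_apply R S (S ⧸ P)]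
  have hbijK : Function.Bijective (algebraMap K (S ⧸ P)) :=
    IsAlgClosed.algebraMap_bijective_of_isIntegral
  have hbij : Function.Bijective (algebraMap (R ⧸ p) (S ⧸ P)) := by
    refine ⟨(algebraMap (R ⧸ p) (S ⧸ P)).injective, fun x => ?_⟩
    obtain ⟨k, rfl⟩ := hbijK.2 x
    exact ⟨algebraMap K (R ⧸ p) k, (IsScalarTower.algebraMap_apply K (R ⧸ p) (S ⧸ P) k).symm⟩
  have e : (R ⧸ p) ≃ₗ[R ⧸ p] (S ⧸ P) :=
    LinearEquiv.ofBijective (Algebra.linearMap (R ⧸ p) (S ⧸ P)) hbij
  rw [← e.finrank_eq, Module.finrank_self]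

end Inertia

section Abstract

variable {K A E F L : Type*} [Field K] [IsAlgClosed K] [CharZero K]
    [CommRing A] [IsDedekindDomain A] [Algebra K A]
    [Field E] [Field F] [Field L]
    [Algebra A E] [IsFractionRing A E]
    [Algebra E F] [Algebra E L] [Algebra F L] [IsScalarTower E F L]
    [Algebra A F] [IsScalarTower A E F] [Algebra A L] [IsScalarTower A E L] [IsScalarTower A F L]
    [Algebra K F] [IsScalarTower K A F]
    [FiniteDimensional E L] [IsGalois E L]

set_option maxHeartbeats 1600000 in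
open Fermat.Agent.S24 in
theorem h24_gc4_aux
    (t : A) (ht : (Ideal.span {t}).IsMaximal) (ht0 : t ≠ 0)
    (hK : Function.Surjective (algebraMap K (A ⧸ Ideal.span {t})))
    (w : Valuation L ℤᵐ⁰) (hwA : ∀ a : A, w (algebraMap A L a) ≤ 1)
    (hwt : w (algebraMap A L t) < 1)
    (σ : L ≃ₐ[E] L) (hσ : ∀ y, w (σ y) = w y)
    (hord : exp (-(orderOf σ : ℤ)) ≤ w (algebraMap A L t))
    (H : Subgroup (L ≃ₐ[E] L)) [IsGaloisGroup H F L] :
    w (algebraMap A L t) = exp (-(orderOf σ : ℤ)) ∧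
    ∃ v : Place K F, 0 < v.ord (algebraMap A F t) ∧
      ∀ f : F, f ≠ 0 → w (algebraMap F L f)
        = exp (-((Nat.card ↥(Subgroup.zpowers σ ⊓ H) : ℤ) * v.ord f)) := by
  have : CharZero A := charZero_of_injective_algebraMap (algebraMap K A).injective
  have : CharZero E := charZero_of_injective_algebraMap (IsFractionRing.injective A E)
  have : FiniteDimensional E F := FiniteDimensional.left E F L
  have : Algebra.IsSeparable E F := inferInstance
  let B := integralClosure A F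
  let C := integralClosure A L
  have : IsDedekindDomain B := IsIntegralClosure.isDedekindDomain A E F B
  have : IsDedekindDomain C := IsIntegralClosure.isDedekindDomain A E L C
  have : IsFractionRing B F := IsIntegralClosure.isFractionRing_of_finite_extension A E F B
  have : IsFractionRing C L := IsIntegralClosure.isFractionRing_of_finite_extension A E L C
  have : Module.Finite A C := IsIntegralClosure.finite A E L C
  have : Algebra.IsIntegral A B := IsIntegralClosure.isIntegral_algebra A F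
  have : Algebra.IsIntegral A C := IsIntegralClosure.isIntegral_algebra A L
  let i1 : Algebra B L := inferInstance
  have : IsScalarTower B F L := inferInstance
  have : IsScalarTower A B L := inferInstance
  let i2 : Algebra K B := inferInstance
  have : IsScalarTower K B F := inferInstance
  let i3 : Algebra B C := (IsIntegralClosure.lift A C L : B →ₐ[A] C).toRingHom.toAlgebra
  have : IsScalarTower A B C := by
    refine IsScalarTower.of_algebraMap_eq fun a => ?_
    exact ((IsIntegralClosure.lift A C L : B →ₐ[A] C).commutes a).symm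
  have : IsScalarTower B C L := by
    refine IsScalarTower.of_algebraMap_eq fun b => ?_
    exact (IsIntegralClosure.algebraMap_lift A C L b).symm
  have : Algebra.IsIntegral B C := Algebra.IsIntegral.tower_top (R := A)
  let i4 : MulSemiringAction (L ≃ₐ[E] L) C := IsIntegralClosure.MulSemiringAction A E L C
  have : IsGaloisGroup (L ≃ₐ[E] L) A C := IsGaloisGroup.of_isFractionRing _ _ _ E L
  have hGH : IsGaloisGroup H B C := IsGaloisGroup.of_isFractionRing H B C F L
  have hAL : Function.Injective (algebraMap A L) := by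
    rw [IsScalarTower.algebraMap_eq A E L]
    exact (algebraMap E L).injective.comp (IsFractionRing.injective A E)
  have hAC : Function.Injective (algebraMap A C) := by
    intro x y hxy
    apply hAL
    rw [IsScalarTower.algebraMap_apply A C L, IsScalarTower.algebraMap_apply A C L, hxy]
  have : FaithfulSMul A C := (faithfulSMul_iff_algebraMap_injective A C).mpr hAC
  have : Module.IsTorsionFree A C := inferInstance
  have : Module.Flat A C := inferInstance
  -- injectivity of `B → C`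
  have hBC : Function.Injective (algebraMap B C) := by
    intro x y hxy
    have h1 := congrArg (algebraMap C L) hxy
    rw [← IsScalarTower.algebraMap_apply B C L, ← IsScalarTower.algebraMap_apply B C L,
      IsScalarTower.algebraMap_apply B F L, IsScalarTower.algebraMap_apply B F L] at h1
    exact (IsFractionRing.injective B F) ((algebraMap F L).injective h1)
  have : FaithfulSMul B C := (faithfulSMul_iff_algebraMap_injective B C).mpr hBC
  have : Module.IsTorsionFree B C := inferInstance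
  have : Module.Flat B C := inferInstance
  have : Module.Finite B C := Module.Finite.of_restrictScalars_finite A B C
  -- the valuation is `≤ 1` on `C`
  have hwC : ∀ c : C, w (algebraMap C L c) ≤ 1 := by
    intro c
    have hint : IsIntegral A (algebraMap C L c) :=
      (IsIntegralClosure.isIntegral_iff (A := C)).mpr ⟨c, rfl⟩
    have := h95_mem_valuationSubring_of_isIntegral (A := A) w.valuationSubring
      (fun a => (Valuation.mem_valuationSubring_iff _ _).mpr (hwA a)) hint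
    exact (Valuation.mem_valuationSubring_iff _ _).mp this
  -- the prime `P`
  set P : Ideal C := h95_valLT w hwC with hP
  have hPprime : P.IsPrime := h95_valLT_isPrime w hwC
  set p : Ideal A := Ideal.span {t} with hp
  have htP : algebraMap A C t ∈ P := by
    rw [hP, h95_mem_valLT, ← IsScalarTower.algebraMap_apply A C L]
    exact hwt
  have hPp : P.LiesOver p := by
    refine ⟨?_⟩
    have hle : p ≤ P.under A := by
      rw [hp, Ideal.span_singleton_le_iff_mem]
      exact htP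
    exact Ideal.IsMaximal.eq_of_le ht (Ideal.IsPrime.under A P).ne_top hle
  -- `σ` stabilises `P`
  have hsmul : ∀ (g : L ≃ₐ[E] L) (c : C), algebraMap C L (g • c) = g (algebraMap C L c) := by
    intro g c
    exact algebraMap_galRestrict_apply A g c
  have hσP : σ • P = P := by
    ext c
    rw [Ideal.mem_pointwise_smul_iff_inv_smul_mem, hP, h95_mem_valLT, h95_mem_valLT, hsmul]
    have h1 : w ((σ⁻¹ : L ≃ₐ[E] L) (algebraMap C L c)) = w (algebraMap C L c) := by
      rw [← hσ ((σ⁻¹ : L ≃ₐ[E] L) (algebraMap C L c))]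
      congr 1
      exact AlgEquiv.apply_symm_apply σ _
    rw [h1]
  have hσstab : σ ∈ MulAction.stabilizer (L ≃ₐ[E] L) P := hσP
  -- residue fields
  have hpne : p ≠ ⊥ := by
    rw [hp, Ne, Ideal.span_singleton_eq_bot]
    exact ht0
  have hPne : P ≠ ⊥ := by
    intro hbot
    rw [hbot, Ideal.mem_bot] at htP
    exact ht0 ((FaithfulSMul.algebraMap_injective A C) (htP.trans (map_zero _).symm))
  have hPmax : P.IsMaximal := hPprime.isMaximal hPne
  have : PerfectField p.ResidueField := by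
    have : CharZero p.ResidueField :=
      charZero_of_injective_ringHom
        ((algebraMap A p.ResidueField).comp (algebraMap K A)).injective
    infer_instance
  have hcard := Ideal.card_stabilizer_eq (G := (L ≃ₐ[E] L)) p P
  rw [Ideal.ramificationIdxIn_eq_ramificationIdx p P (L ≃ₐ[E] L),
    Ideal.inertiaDegIn_eq_inertiaDeg p P (L ≃ₐ[E] L)] at hcard
  -- the residue field of `P` is `K`
  let iKC : Algebra K C := ((algebraMap A C).comp (algebraMap K A)).toAlgebra
  have : IsScalarTower K A C := IsScalarTower.of_algebraMap_eq' rfl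
  have hintP : Algebra.IsIntegral K (C ⧸ P) := by
    let iF1 : Field (A ⧸ p) := Ideal.Quotient.field p
    let iF2 : Field (C ⧸ P) := Ideal.Quotient.field P
    have : IsScalarTower K (A ⧸ p) (C ⧸ P) := by
      refine IsScalarTower.of_algebraMap_eq fun k => ?_
      rw [IsScalarTower.algebraMap_apply K C (C ⧸ P), IsScalarTower.algebraMap_apply K A C,
        IsScalarTower.algebraMap_apply K A (A ⧸ p),
        ← IsScalarTower.algebraMap_apply A (A ⧸ p) (C ⧸ P),
        ← IsScalarTower.algebraMap_apply A C (C ⧸ P)]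
    have : Algebra.IsIntegral K (A ⧸ p) := Algebra.isIntegral_of_surjective hK
    exact Algebra.IsIntegral.trans (A ⧸ p)
  -- inertia degree one
  have hf : P.inertiaDeg A = 1 := h24_inertiaDeg_eq_one (K := K) p P hintP
  rw [hf, mul_one] at hcard
  -- ramification index at most the order of `σ`
  have hee : p.ramificationIdx' P = P.ramificationIdx A :=
    Ideal.ramificationIdx'_eq_ramificationIdx p P hpne
  have htPe : algebraMap A C t ∈ P ^ (p.ramificationIdx' P) := by
    apply Ideal.le_pow_ramificationIdx'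
    exact Ideal.mem_map_of_mem _ (Ideal.mem_span_singleton_self t)
  have hwte : w (algebraMap A L t) ≤ exp (-((p.ramificationIdx' P : ℕ) : ℤ)) := by
    have h2 := h95_le_exp_of_mem_pow w hwC _ htPe
    rwa [← IsScalarTower.algebraMap_apply A C L] at h2
  have he : P.ramificationIdx A ≤ orderOf σ := by
    rw [← hee]
    have h3 := hord.trans hwte
    rw [exp_le_exp] at h3
    omega
  have hstab : MulAction.stabilizer (L ≃ₐ[E] L) P = Subgroup.zpowers σ :=
    h95_stabilizer_eq_zpowers P σ hσP (hcard.trans_le he)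
  -- `orderOf σ = e`
  have hoe : orderOf σ = p.ramificationIdx' P := by
    rw [hee, ← hcard, hstab, Nat.card_zpowers]
  have hwt_eq : w (algebraMap A L t) = exp (-(orderOf σ : ℤ)) := by
    refine le_antisymm ?_ hord
    rw [hoe]
    exact hwte
  refine ⟨hwt_eq, ?_⟩
  have hopos : 0 < orderOf σ := orderOf_pos σ
  -- `w` is the `P`-adic valuation
  let PH : HeightOneSpectrum C := ⟨P, hPprime, hPne⟩
  have htL0 : algebraMap A L t ≠ 0 := fun h => ht0 (hAL (h.trans (map_zero _).symm))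
  obtain ⟨a, ha0, ha⟩ := h24_val_eq_pow w PH hwC
    (fun c hc => le_antisymm (hwC c) (not_lt.mp fun hlt => hc ((h95_mem_valLT w hwC c).mpr hlt)))
    ⟨algebraMap A L t, htL0, hwt⟩
  have hvPt : PH.valuation L (algebraMap A L t) ≤ exp (-((p.ramificationIdx' P : ℕ) : ℤ)) := by
    rw [IsScalarTower.algebraMap_apply A C L, HeightOneSpectrum.valuation_of_algebraMap]
    exact (PH.intValuation_le_pow_iff_mem _ _).mpr htPe
  have ha1 : a = 1 := by
    have h1 : exp (-(orderOf σ : ℤ)) ≤ exp (-((p.ramificationIdx' P : ℕ) : ℤ)) ^ a := by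
      rw [← hwt_eq, ha]
      exact pow_le_pow_left' hvPt a
    rw [← exp_nsmul, exp_le_exp, nsmul_eq_mul, ← hoe] at h1
    have h2 : (a : ℤ) * (orderOf σ : ℤ) ≤ (orderOf σ : ℤ) := by linarith
    have h3 : (a : ℤ) ≤ 1 := by
      by_contra hcon
      push Not at hcon
      have : (2 : ℤ) * (orderOf σ : ℤ) ≤ (a : ℤ) * (orderOf σ : ℤ) := by
        apply mul_le_mul_of_nonneg_right (by omega) (by omega)
      have hpos : (0 : ℤ) < (orderOf σ : ℤ) := by exact_mod_cast hopos
      linarith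
    omega
  have hw : ∀ x : L, w x = PH.valuation L x := fun x => by rw [ha x, ha1, pow_one]
  -- the prime of `B`
  have hAB : Function.Injective (algebraMap A B) := by
    intro x y hxy
    apply hAL
    rw [IsScalarTower.algebraMap_apply A B L, IsScalarTower.algebraMap_apply A B L, hxy]
  have htB : algebraMap A B t ≠ 0 := fun h => ht0 (hAB (h.trans (map_zero _).symm))
  have htq : algebraMap A B t ∈ P.under B := by
    rw [Ideal.mem_comap, ← IsScalarTower.algebraMap_apply A B C]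
    exact htP
  have hqne : P.under B ≠ ⊥ := by
    intro hbot
    rw [hbot, Ideal.mem_bot] at htq
    exact htB htq
  let qH : HeightOneSpectrum B := ⟨P.under B, Ideal.IsPrime.under B P, hqne⟩
  have hlies : PH.asIdeal.LiesOver qH.asIdeal := ⟨rfl⟩
  have hqmax : (P.under B).IsMaximal := (Ideal.IsPrime.under B P).isMaximal hqne
  refine ⟨Place.ofHeightOneSpectrum (K := K) (F := F) qH, ?_, fun f hf0 => ?_⟩
  · have h1 : 0 < (Place.ofHeightOneSpectrum (K := K) (F := F) qH).ord
        (algebraMap B F (algebraMap A B t)) :=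
      (h95_ord_pos_iff (K := K) (F := F) (B := B) qH (x := algebraMap A B t) htB).mpr htq
    rw [IsScalarTower.algebraMap_apply A B F]
    exact h1
  -- the ramification index of `P` over `B`
  have hPq : P.LiesOver (P.under B) := ⟨rfl⟩
  have : PerfectField (P.under B).ResidueField := by
    have : CharZero (P.under B).ResidueField :=
      charZero_of_injective_ringHom
        ((algebraMap B (P.under B).ResidueField).comp (algebraMap K B)).injective
    infer_instance
  have hcard2 := Ideal.card_stabilizer_eq (G := H) (P.under B) P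
  rw [Ideal.ramificationIdxIn_eq_ramificationIdx (P.under B) P H,
    Ideal.inertiaDegIn_eq_inertiaDeg (P.under B) P H] at hcard2
  have : IsScalarTower K B C := by
    refine IsScalarTower.of_algebraMap_eq fun k => ?_
    rw [IsScalarTower.algebraMap_apply K A C, IsScalarTower.algebraMap_apply A B C]
    congr 1
    apply IsFractionRing.injective B F
    rw [← IsScalarTower.algebraMap_apply A B F, ← IsScalarTower.algebraMap_apply K A F,
      ← IsScalarTower.algebraMap_apply K B F]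
  have hf2 : P.inertiaDeg B = 1 := h24_inertiaDeg_eq_one (K := K) (P.under B) P hintP
  rw [hf2, mul_one] at hcard2
  have hee2 : (P.under B).ramificationIdx' P = P.ramificationIdx B :=
    Ideal.ramificationIdx'_eq_ramificationIdx (P.under B) P hqne
  have hcard3 : Nat.card ↥(Subgroup.zpowers σ ⊓ H) = (P.under B).ramificationIdx' P := by
    rw [hee2, ← hcard2]
    refine Nat.card_congr ⟨fun g => ⟨⟨g.1, g.2.2⟩, ?_⟩, fun h => ⟨h.1.1, ?_, h.1.2⟩,
      fun g => rfl, fun h => rfl⟩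
    · have h1 : g.1 ∈ MulAction.stabilizer (L ≃ₐ[E] L) P := by
        rw [hstab]; exact g.2.1
      exact h1
    · rw [← hstab]
      exact h.2
  -- the valuation
  have hval := HeightOneSpectrum.valuation_liesOver L qH PH f
  have hord := ord_ofHeightOneSpectrum (K := K) (F := F) qH hf0
  have hvf0 : qH.valuation F f ≠ 0 := (Valuation.ne_zero_iff _).mpr hf0
  have hE : qH.asIdeal.ramificationIdx' PH.asIdeal = (P.under B).ramificationIdx' P := rfl
  rw [hw, ← hval, hcard3, hord, hE]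
  conv_lhs => rw [← exp_log hvf0]
  rw [← exp_nsmul]
  congr 1
  rw [nsmul_eq_mul]
  ring

end Abstract

section Concrete

open Polynomial Fermat.Agent.S24

variable {K E F L : Type*} [Field K] [IsAlgClosed K] [CharZero K] [Field E] [Field F] [Field L]
  [Algebra K E] [Algebra K F] [Algebra K L] [Algebra E F] [Algebra E L] [Algebra F L]
  [IsScalarTower K E F] [IsScalarTower K E L] [IsScalarTower E F L] [IsScalarTower K F L]
  [FiniteDimensional E L] [IsGalois E L]

/-- GC4, both statements at once. -/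
theorem h24_gc4
    (t : E) (ht : Transcendental K t)
    (hE : ∀ y : E, ∃ p q : Polynomial K, Polynomial.aeval t q ≠ 0 ∧
      y = Polynomial.aeval t p / Polynomial.aeval t q)
    (w : Valuation L ℤᵐ⁰) (hwK : ∀ c : K, c ≠ 0 → w (algebraMap K L c) = 1)
    (hwt : w (algebraMap E L t) < 1)
    (σ : L ≃ₐ[E] L) (hσ : ∀ y, w (σ y) = w y)
    (hord : exp (-(orderOf σ : ℤ)) ≤ w (algebraMap E L t)) :
    w (algebraMap E L t) = exp (-(orderOf σ : ℤ)) ∧
    ∃ v : Place K F, 0 < v.ord (algebraMap E F t) ∧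
      ∀ f : F, f ≠ 0 → w (algebraMap F L f)
        = exp (-((Nat.card ↥(Subgroup.zpowers σ ⊓
            IntermediateField.fixingSubgroup (IsScalarTower.toAlgHom E F L).fieldRange) : ℤ)
              * v.ord f)) := by
  let iAE : Algebra K[X] E := (Polynomial.aeval t : K[X] →ₐ[K] E).toRingHom.toAlgebra
  have hAE : ∀ p : K[X], algebraMap K[X] E p = Polynomial.aeval t p := fun p => rfl
  have : IsScalarTower K K[X] E := by
    refine IsScalarTower.of_algebraMap_eq fun k => ?_
    rw [hAE, Polynomial.algebraMap_apply, Algebra.algebraMap_self, RingHom.id_apply,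
      Polynomial.aeval_C]
  let iAF : Algebra K[X] F := ((algebraMap E F).comp (algebraMap K[X] E)).toAlgebra
  let iAL : Algebra K[X] L := ((algebraMap E L).comp (algebraMap K[X] E)).toAlgebra
  have : IsScalarTower K[X] E F := IsScalarTower.of_algebraMap_eq' rfl
  have : IsScalarTower K[X] E L := IsScalarTower.of_algebraMap_eq' rfl
  have : IsScalarTower K[X] F L := by
    refine IsScalarTower.of_algebraMap_eq fun p => ?_
    rw [IsScalarTower.algebraMap_apply K[X] E L, IsScalarTower.algebraMap_apply K[X] E F,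
      ← IsScalarTower.algebraMap_apply E F L]
  have : IsScalarTower K K[X] F := by
    refine IsScalarTower.of_algebraMap_eq fun k => ?_
    rw [IsScalarTower.algebraMap_apply K[X] E F, ← IsScalarTower.algebraMap_apply K K[X] E,
      ← IsScalarTower.algebraMap_apply K E F]
  have hinj : Function.Injective (algebraMap K[X] E) := transcendental_iff_injective.mp ht
  have : FaithfulSMul K[X] E := (faithfulSMul_iff_algebraMap_injective K[X] E).mpr hinj
  have : IsFractionRing K[X] E := by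
    refine IsFractionRing.of_field K[X] E fun y => ?_
    obtain ⟨p, q, -, hy⟩ := hE y
    exact ⟨p, q, hy⟩
  have hXF : algebraMap K[X] F X = algebraMap E F t := by
    rw [IsScalarTower.algebraMap_apply K[X] E F, hAE, Polynomial.aeval_X]
  have hXL : algebraMap K[X] L X = algebraMap E L t := by
    rw [IsScalarTower.algebraMap_apply K[X] E L, hAE, Polynomial.aeval_X]
  -- the subgroup
  have hHeq : fixingSubgroup (L ≃ₐ[E] L) (Set.range (algebraMap F L))
      = IntermediateField.fixingSubgroup (IsScalarTower.toAlgHom E F L).fieldRange := by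
    ext g
    rw [mem_fixingSubgroup_iff, IntermediateField.mem_fixingSubgroup_iff]
    constructor
    · rintro h x ⟨y, rfl⟩
      exact h _ ⟨y, rfl⟩
    · rintro h x ⟨y, rfl⟩
      exact h _ ⟨y, rfl⟩
  have hH0 : IsGaloisGroup (fixingSubgroup (L ≃ₐ[E] L) (Set.range (algebraMap F L))) F L :=
    IsGaloisGroup.of_isScalarTower (L ≃ₐ[E] L) E L F
  have hH : IsGaloisGroup (IntermediateField.fixingSubgroup
      (IsScalarTower.toAlgHom E F L).fieldRange) F L := hHeq ▸ hH0
  have hwA : ∀ a : K[X], w (algebraMap K[X] L a) ≤ 1 := by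
    intro a
    induction a using Polynomial.induction_on' with
    | add p q hp hq => rw [map_add]; exact (w.map_add _ _).trans (max_le hp hq)
    | monomial n k =>
      have hk : w (algebraMap K L k) ≤ 1 := by
        rcases eq_or_ne k 0 with rfl | hk
        · simp
        · exact (hwK k hk).le
      have hkL : algebraMap K[X] L (Polynomial.C k) = algebraMap K L k := by
        rw [IsScalarTower.algebraMap_apply K[X] E L, hAE, Polynomial.aeval_C,
          ← IsScalarTower.algebraMap_apply K E L]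
      rw [← Polynomial.C_mul_X_pow_eq_monomial, map_mul, map_pow, hXL, hkL, map_mul, map_pow]
      exact mul_le_one' hk (pow_le_one' hwt.le n)
  have key := h24_gc4_aux (K := K) (A := K[X]) (E := E) (F := F) (L := L)
    (X : K[X]) h95_span_X_isMaximal Polynomial.X_ne_zero h95_surjective_quotient_span_X
    w hwA (by rw [hXL]; exact hwt) σ hσ (by rw [hXL]; exact hord)
    (IntermediateField.fixingSubgroup (IsScalarTower.toAlgHom E F L).fieldRange)
  rw [hXL, hXF] at key
  exact key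

/-- **GC4** (`gc_val_eq` of `GTor/Clo/GC4.lean`). The valuation `w`, restricted to `F`, is `e`
times the order at a place of `F`, `e = |⟨σ⟩ ⊓ Gal (L / F)|`. -/
theorem h24_gc_val_eq
    (t : E) (ht : Transcendental K t)
    (hE : ∀ y : E, ∃ p q : Polynomial K, Polynomial.aeval t q ≠ 0 ∧
      y = Polynomial.aeval t p / Polynomial.aeval t q)
    (w : Valuation L ℤᵐ⁰) (hwK : ∀ c : K, c ≠ 0 → w (algebraMap K L c) = 1)
    (hwt : w (algebraMap E L t) < 1)
    (σ : L ≃ₐ[E] L) (hσ : ∀ y, w (σ y) = w y)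
    (hord : exp (-(orderOf σ : ℤ)) ≤ w (algebraMap E L t)) :
    ∃ v : Place K F, 0 < v.ord (algebraMap E F t) ∧
      ∀ f : F, f ≠ 0 → w (algebraMap F L f)
        = exp (-((Nat.card ↥(Subgroup.zpowers σ ⊓
            IntermediateField.fixingSubgroup (IsScalarTower.toAlgHom E F L).fieldRange) : ℤ)
              * v.ord f)) :=
  (h24_gc4 t ht hE w hwK hwt σ hσ hord).2

end Concrete

section Concrete2

variable {K E L : Type*} [Field K] [IsAlgClosed K] [CharZero K] [Field E] [Field L]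
  [Algebra K E] [Algebra K L] [Algebra E L] [IsScalarTower K E L]
  [FiniteDimensional E L] [IsGalois E L]

/-- `gc_orderOf_eq` of `GTor/Clo/GC4.lean`: in the situation of GC4 the order of `σ` is
`- log (w t)`. -/
theorem h24_gc_orderOf_eq
    (t : E) (ht : Transcendental K t)
    (hE : ∀ y : E, ∃ p q : Polynomial K, Polynomial.aeval t q ≠ 0 ∧
      y = Polynomial.aeval t p / Polynomial.aeval t q)
    (w : Valuation L ℤᵐ⁰) (hwK : ∀ c : K, c ≠ 0 → w (algebraMap K L c) = 1)
    (hwt : w (algebraMap E L t) < 1)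
    (σ : L ≃ₐ[E] L) (hσ : ∀ y, w (σ y) = w y)
    (hord : exp (-(orderOf σ : ℤ)) ≤ w (algebraMap E L t)) :
    w (algebraMap E L t) = exp (-(orderOf σ : ℤ)) :=
  (h24_gc4 (K := K) (E := E) (F := L) (L := L) t ht hE w hwK hwt σ hσ hord).1

end Concrete2

end Fermat.Agent.GTor.Clo.H24

end
end
-- ==== END Fermat.Agent.GTor.Clo.H24_GC4

-- ==== BEGIN Fermat.Agent.GTor.H33_DescUp
section
attribute [local instance 10000] SubalgebraClass.toAlgebra
attribute [local instance 10000] HahnSeries.powerSeriesAlgebra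

/-!
# G-TOR package DESC-UP (helper33): places of degree one extend under base change

`stmt_DescPlaceUp : H75.Stmt_DescPlaceUp k K F₀`: for fields `k → K` and `F₀ ⊆ ℚ((q))`, every place
`v` of `F_k = k(F₀)` of degree one extends to a place `w` of `F_K = K(F₀)` with
`ord_w (bc g) = ord_v g`.

Proof: `F_k ⊗[k] K → F_K ⊆ K((q))` is injective (compare coefficients with respect to a `k`-basis
of `K`) and `F_K` is its field of fractions; apply the Gauss extension `exists_place_extension`.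
-/

set_option autoImplicit false
set_option linter.style.haveILetI false
set_option linter.unusedSectionVars false

noncomputable section

namespace Fermat.Agent.GTor.H33

open AlgebraicCurve ModularCurve TensorProduct

section LinearDisjoint

variable {k K F M : Type*} [Field k] [Field K] [Field F] [Field M] [Algebra k K] [Algebra k F]
  [Algebra K M] [Algebra k M] [IsScalarTower k K M]
variable (eF : F →ₐ[k] LaurentSeries k) (eM : M →ₐ[K] LaurentSeries K) (ψ : F →ₐ[k] M)
variable {I : Type*} (b : Module.Basis I k K)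

theorem coeff_mul_algebraMap {R : Type*} [Field R] (x : LaurentSeries R) (c : R) (m : ℤ) :
    (x * algebraMap R (LaurentSeries R) c).coeff m = x.coeff m * c := by
  rw [algebraMap_laurentSeries_eq_single, HahnSeries.coeff_mul_single_zero]

/-- Coefficients of the image of `F ⊗ K` in `K((q))`, in coordinates. -/
theorem repr_coeff_tensorToField
    (hψ : ∀ f : F, eM (ψ f) = coeffMap (algebraMap k K) (eF f))
    (x : F ⊗[k] K) (m : ℤ) (i : I) :
    b.repr ((eM (tensorToField ψ x)).coeff m) i =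
      (eF ((Algebra.TensorProduct.basis F b).repr x i)).coeff m := by
  induction x using TensorProduct.induction_on with
  | zero => simp
  | tmul f c =>
    rw [tensorToField_tmul, Algebra.TensorProduct.basis_repr_tmul]
    simp only [Finsupp.smul_apply, Finsupp.mapRange_apply, smul_eq_mul, map_mul, hψ,
      AlgHom.commutes]
    rw [coeff_mul_algebraMap, coeff_mul_algebraMap, coeffMap_coeff, ← Algebra.smul_def, map_smul,
      Finsupp.smul_apply, smul_eq_mul]
  | add x y hx hy =>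
    simp only [map_add, HahnSeries.coeff_add, Finsupp.add_apply, hx, hy]

/-- `F ⊗[k] K → K((q))` is injective: `k((q))` and `K` are linearly disjoint over `k`. -/
theorem tensorToField_injective
    (hψ : ∀ f : F, eM (ψ f) = coeffMap (algebraMap k K) (eF f)) :
    Function.Injective (tensorToField (K := K) ψ) := by
  rw [injective_iff_map_eq_zero]
  intro x hx
  let b := Module.Basis.ofVectorSpace k K
  apply (Algebra.TensorProduct.basis F b).repr.injective
  ext i : 1
  rw [map_zero, Finsupp.zero_apply]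
  apply eF.toRingHom.injective
  rw [map_zero]
  ext m
  have h := repr_coeff_tensorToField eF eM ψ b hψ x m i
  rw [hx] at h
  simpa using h.symm

end LinearDisjoint

section Quot

variable {k K F M : Type*} [Field k] [Field K] [Field F] [Field M] [Algebra k K] [Algebra k F]
  [Algebra K M] [Algebra k M] [IsScalarTower k K M] (ψ : F →ₐ[k] M)

/-- The set of quotients of elements of the image of `F ⊗ K`, as a subfield. -/
def quotSubfield : Subfield M where
  carrier := {m | ∃ x y : F ⊗[k] K, m = tensorToField ψ x / tensorToField ψ y}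
  mul_mem' := by
    rintro _ _ ⟨x, s, rfl⟩ ⟨x', s', rfl⟩
    exact ⟨x * x', s * s', by rw [map_mul, map_mul, div_mul_div_comm]⟩
  one_mem' := ⟨1, 1, by simp⟩
  add_mem' := by
    rintro _ _ ⟨x, s, rfl⟩ ⟨x', s', rfl⟩
    by_cases hs : tensorToField (K := K) ψ s = 0
    · exact ⟨x', s', by rw [hs, div_zero, zero_add]⟩
    by_cases hs' : tensorToField (K := K) ψ s' = 0
    · exact ⟨x, s, by rw [hs', div_zero, add_zero]⟩
    exact ⟨x * s' + s * x', s * s', by
      rw [map_add, map_mul, map_mul, map_mul, div_add_div _ _ hs hs']⟩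
  zero_mem' := ⟨0, 1, by simp⟩
  neg_mem' := by
    rintro _ ⟨x, s, rfl⟩
    exact ⟨-x, s, by rw [map_neg, neg_div]⟩
  inv_mem' := by
    rintro _ ⟨x, s, rfl⟩
    exact ⟨s, x, by rw [inv_div]⟩

theorem mem_quotSubfield {m : M} :
    m ∈ quotSubfield (K := K) ψ ↔ ∃ x y : F ⊗[k] K, m = tensorToField ψ x / tensorToField ψ y :=
  Iff.rfl

theorem algebraMap_mem_quotSubfield (c : K) : algebraMap K M c ∈ quotSubfield (K := K) ψ :=
  ⟨(1 : F) ⊗ₜ[k] c, 1, by simp⟩

theorem map_mem_quotSubfield (f : F) : ψ f ∈ quotSubfield (K := K) ψ :=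
  ⟨f ⊗ₜ[k] (1 : K), 1, by simp⟩

/-- If `M` is generated as a field by `K` and `ψ(F)`, every element of `M` is a quotient of
elements of the image of `F ⊗ K`. -/
theorem exists_quot_of_closure
    (h : Subfield.closure (Set.range (algebraMap K M) ∪ Set.range ψ) = ⊤) (m : M) :
    ∃ x y : F ⊗[k] K, m = tensorToField ψ x / tensorToField ψ y := by
  have hle : Subfield.closure (Set.range (algebraMap K M) ∪ Set.range ψ) ≤
      quotSubfield (K := K) ψ := by
    rw [Subfield.closure_le]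
    rintro _ (⟨c, rfl⟩ | ⟨f, rfl⟩)
    · exact algebraMap_mem_quotSubfield ψ c
    · exact map_mem_quotSubfield ψ f
  rw [h] at hle
  exact hle (Subfield.mem_top m)

end Quot

section Main

variable (k K : Type) [Field k] [Field K] [Algebra ℚ k] [Algebra ℚ K]
variable (F₀ : IntermediateField ℚ (LaurentSeries ℚ))

set_option synthInstance.maxHeartbeats 400000 in
set_option maxHeartbeats 1600000 in
/-- `F_K` is generated by `K` and the image of `F_k`. -/
theorem closure_bcHom_eq_top (ι : k →+* K) :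
    Subfield.closure (Set.range (algebraMap K ↥(laurentBaseChange K F₀)) ∪
      Set.range (H75.bcHom ι F₀)) = ⊤ := by
  rw [eq_top_iff]
  rintro ⟨y, hy⟩ -
  have hy' := hy
  rw [mem_laurentBaseChange_iff] at hy'
  have hsub : (Set.range (algebraMap K (LaurentSeries K)) ∪
      (⇑(coeffEmb K) '' (F₀ : Set (LaurentSeries ℚ)))) ⊆
      ⇑(laurentBaseChange K F₀).val.toRingHom ''
        (Set.range (algebraMap K ↥(laurentBaseChange K F₀)) ∪ Set.range (H75.bcHom ι F₀)) := by
    rintro _ (⟨c, rfl⟩ | ⟨z, hz, rfl⟩)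
    · exact ⟨algebraMap K ↥(laurentBaseChange K F₀) c, Or.inl ⟨c, rfl⟩, rfl⟩
    · refine ⟨H75.bcHom ι F₀ ⟨coeffEmb k z, coeffEmb_mem_laurentBaseChange k hz⟩,
        Or.inr ⟨_, rfl⟩, ?_⟩
      exact H75.coeffMap_coeffEmb' ι z
  have h1 := Subfield.closure_mono hsub hy'
  rw [← RingHom.map_field_closure] at h1
  obtain ⟨m, hm, hmy⟩ := h1
  have : m = ⟨y, hy⟩ := Subtype.ext hmy
  rwa [← this]

set_option synthInstance.maxHeartbeats 400000 in
set_option maxHeartbeats 1600000 in
/-- **DESC-UP**: a place of degree one of `F_k` extends to `F_K` with ramification index one. -/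
theorem stmt_DescPlaceUp : H75.Stmt_DescPlaceUp k K F₀ := by
  intro ι v hdeg
  letI : Algebra k K := ι.toAlgebra
  letI : Algebra k ↥(laurentBaseChange K F₀) :=
    ((algebraMap K ↥(laurentBaseChange K F₀)).comp ι).toAlgebra
  haveI : IsScalarTower k K ↥(laurentBaseChange K F₀) := IsScalarTower.of_algebraMap_eq fun _ => rfl
  let ψ : ↥(laurentBaseChange k F₀) →ₐ[k] ↥(laurentBaseChange K F₀) :=
    { H75.bcHom ι F₀ with commutes' := fun c => H75.bcHom_algebraMap ι F₀ c }
  have hψ : ∀ f : ↥(laurentBaseChange k F₀),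
      (laurentBaseChange K F₀).val (ψ f) =
        coeffMap (algebraMap k K) ((laurentBaseChange k F₀).val f) := fun f => rfl
  have hinj : Function.Injective (tensorToField (K := K) ψ) :=
    tensorToField_injective (laurentBaseChange k F₀).val (laurentBaseChange K F₀).val ψ hψ
  have hgen : ∀ m : ↥(laurentBaseChange K F₀), ∃ x y : ↥(laurentBaseChange k F₀) ⊗[k] K,
      m = tensorToField ψ x / tensorToField ψ y :=
    exists_quot_of_closure ψ (closure_bcHom_eq_top k K F₀ ι)
  exact exists_place_extension ψ hinj hgen v hdeg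

end Main

end Fermat.Agent.GTor.H33

end
end
-- ==== END Fermat.Agent.GTor.H33_DescUp

-- ==== BEGIN Fermat.Agent.GTor.H56_Char
section

/-!
# G-TOR package CHAR (helper56)

`stmt_CHAR (hn : n ≠ 0) (hA1 : Stmt_A1 N) : Stmt_CHAR N n`:
the character of a function in `F_ℂ` is unique (`hasChar_unique`, needs `n ≠ 0`; for `n = 0` the
statement is false as soon as `Γ₀(N)` has a nonzero homomorphism to `ℤ`), additive
(`hasChar_mul`), and trivial on `n`-th powers (`hasChar_pow`, from A1).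
-/

set_option autoImplicit false
set_option linter.style.haveILetI false

open UpperHalfPlane ModularForm
open scoped MatrixGroups ModularForm Manifold

noncomputable section

namespace Fermat.Agent.GTor.H56

open Fermat.Agent.S23.H22 (Nice)

variable {N n : ℕ} [NeZero N]

/-- In a `HasChar` witness with `f ≠ 0` the twisted form is not identically zero. -/
lemma exists_ne_zero_of_hasChar_data {k : ℤ}
    {R : ℍ → ℂ} {B : ModularForm (CongruenceSubgroup.Gamma0 N) k} {f : FNL ℂ N} (hf : f ≠ 0)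
    (hB : B ≠ 0)
    (e : qLaurent (fun z => R z ^ n) = (f : LaurentSeries ℂ) * qLaurent (fun z => B z ^ n)) :
    qLaurent (fun z => R z ^ n) ≠ 0 := by
  rw [e]
  apply mul_ne_zero
  · exact fun h => hf (Subtype.ext h)
  · rw [qLaurent_pow (nice_of_gamma0 B)]
    apply pow_ne_zero
    rw [Ne, qLaurent_eq_zero_iff (nice_of_gamma0 B)]
    intro h
    exact hB (DFunLike.coe_injective h)

/-- **CHAR (1)**: uniqueness of the character. -/
theorem hasChar_unique (hn : n ≠ 0) {f : FNL ℂ N}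
    {φ ψ : Additive (CongruenceSubgroup.Gamma0 N) →+ ZMod n} (hf : f ≠ 0)
    (h₁ : HasChar N n f φ) (h₂ : HasChar N n f ψ) : φ = ψ := by
  obtain ⟨k₁, R₁, B₁, hR₁, hB₁, e₁⟩ := h₁
  obtain ⟨k₂, R₂, B₂, hR₂, hB₂, e₂⟩ := h₂
  have nR₁ := hR₁.nice_pow
  have nR₂ := hR₂.nice_pow
  have nB₁ : Nice 1 (fun z => B₁ z ^ n) := (nice_of_gamma0 B₁).pow n
  have nB₂ : Nice 1 (fun z => B₂ z ^ n) := (nice_of_gamma0 B₂).pow n
  -- `(R₁ B₂)ⁿ = (R₂ B₁)ⁿ`
  have hfun : (fun z => R₁ z ^ n) * (fun z => B₂ z ^ n)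
      = (fun z => R₂ z ^ n) * (fun z => B₁ z ^ n) := by
    apply qLaurent_injective (nR₁.mul nB₂) (nR₂.mul nB₁)
    rw [qLaurent_mul nR₁ nB₂, qLaurent_mul nR₂ nB₁, e₁, e₂]
    ring
  have hpow : ∀ τ : ℍ, (R₁ τ * B₂ τ) ^ n = (R₂ τ * B₁ τ) ^ n := by
    intro τ
    have := congrFun hfun τ
    simp only [Pi.mul_apply] at this
    rw [mul_pow, mul_pow, this]
  obtain ⟨ζ, hζ, hζeq⟩ := Fermat.Agent.Lib.NthRoot.exists_root_of_unity_of_pow_eq_uhp hn
    (G₁ := fun τ => R₂ τ * B₁ τ) (G₂ := fun τ => R₁ τ * B₂ τ)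
    (hR₂.mdiff.mul B₁.holo') (hR₁.mdiff.mul B₂.holo') hpow
  -- a point where `R₁ B₂` does not vanish
  have hne : ∃ τ₀ : ℍ, R₁ τ₀ * B₂ τ₀ ≠ 0 := by
    by_contra hcon
    have hcon : ∀ τ : ℍ, R₁ τ * B₂ τ = 0 := fun τ => by
      by_contra h
      exact hcon ⟨τ, h⟩
    have h0 : (fun z => R₁ z ^ n) * (fun z => B₂ z ^ n) = 0 := by
      funext τ
      simp only [Pi.mul_apply, Pi.zero_apply]
      rw [← mul_pow, hcon τ, zero_pow hn]
    have h1 : qLaurent ((fun z => R₁ z ^ n) * (fun z => B₂ z ^ n)) = 0 := by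
      rw [h0, qLaurent_zero]
    rw [qLaurent_mul nR₁ nB₂] at h1
    rcases mul_eq_zero.mp h1 with h2 | h2
    · exact exists_ne_zero_of_hasChar_data hf hB₁ e₁ h2
    · rw [qLaurent_pow (nice_of_gamma0 B₂)] at h2
      have h3 := pow_eq_zero_iff hn |>.mp h2
      rw [qLaurent_eq_zero_iff (nice_of_gamma0 B₂)] at h3
      exact hB₂ (DFunLike.coe_injective h3)
  obtain ⟨τ₀, hτ₀⟩ := hne
  -- compare the multipliers
  apply AddMonoidHom.ext
  intro x
  obtain ⟨γ, rfl⟩ : ∃ γ : CongruenceSubgroup.Gamma0 N, Additive.ofMul γ = x := ⟨x.toMul, rfl⟩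
  apply zetaPow_injective hn
  have s₁ := (hR₁.mul (isTwistedForm_of_modularForm n B₂)).slash γ
  have s₂ := (hR₂.mul (isTwistedForm_of_modularForm n B₁)).slash γ
  rw [add_zero] at s₁ s₂
  have hFG : (R₁ * (B₂ : ℍ → ℂ)) = fun τ => ζ * (R₂ τ * B₁ τ) := funext hζeq
  have hFG' : (R₁ * (B₂ : ℍ → ℂ)) ∣[k₁ + k₂] (γ : SL(2, ℤ))
      = fun τ => ζ * ((R₂ * (B₁ : ℍ → ℂ)) ∣[k₂ + k₁] (γ : SL(2, ℤ))) τ := by
    rw [hFG, add_comm k₁ k₂]
    exact Fermat.Agent.Lib.NthRoot.const_mul_slash_SL ζ _ _ _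
  rw [s₁, s₂] at hFG'
  have := congrFun hFG' τ₀
  simp only [Pi.smul_apply, Pi.mul_apply, smul_eq_mul] at this
  have hζτ := hζeq τ₀
  have key : (zetaPow n (φ (Additive.ofMul γ)) - zetaPow n (ψ (Additive.ofMul γ)))
      * (R₁ τ₀ * B₂ τ₀) = 0 := by
    rw [sub_mul, this, hζτ]
    ring
  rcases mul_eq_zero.mp key with h | h
  · exact sub_eq_zero.mp h
  · exact absurd h hτ₀

/-- **CHAR (2)**: additivity of the character. -/
theorem hasChar_mul {f g : FNL ℂ N}
    {φ ψ : Additive (CongruenceSubgroup.Gamma0 N) →+ ZMod n}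
    (h₁ : HasChar N n f φ) (h₂ : HasChar N n g ψ) : HasChar N n (f * g) (φ + ψ) := by
  obtain ⟨k₁, R₁, B₁, hR₁, hB₁, e₁⟩ := h₁
  obtain ⟨k₂, R₂, B₂, hR₂, hB₂, e₂⟩ := h₂
  have nR₁ := hR₁.nice_pow
  have nR₂ := hR₂.nice_pow
  have nB₁ : Nice 1 (fun z => B₁ z ^ n) := (nice_of_gamma0 B₁).pow n
  have nB₂ : Nice 1 (fun z => B₂ z ^ n) := (nice_of_gamma0 B₂).pow n
  refine ⟨k₁ + k₂, R₁ * R₂, B₁.mul B₂, hR₁.mul hR₂, ?_, ?_⟩
  · intro h
    have h' : ((B₁.mul B₂ : ModularForm _ _) : ℍ → ℂ) = 0 := by rw [h]; rfl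
    have h1 : qLaurent ((B₁ : ℍ → ℂ) * (B₂ : ℍ → ℂ)) = 0 := by
      have : ((B₁.mul B₂ : ModularForm _ _) : ℍ → ℂ) = (B₁ : ℍ → ℂ) * (B₂ : ℍ → ℂ) := rfl
      rw [← this, h', qLaurent_zero]
    rw [qLaurent_mul (nice_of_gamma0 B₁) (nice_of_gamma0 B₂)] at h1
    rcases mul_eq_zero.mp h1 with h2 | h2
    · rw [qLaurent_eq_zero_iff (nice_of_gamma0 B₁)] at h2
      exact hB₁ (DFunLike.coe_injective h2)
    · rw [qLaurent_eq_zero_iff (nice_of_gamma0 B₂)] at h2
      exact hB₂ (DFunLike.coe_injective h2)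
  · have hRR : (fun z => (R₁ * R₂) z ^ n) = (fun z => R₁ z ^ n) * (fun z => R₂ z ^ n) := by
      funext z
      simp only [Pi.mul_apply, mul_pow]
    have hBB : (fun z => (B₁.mul B₂) z ^ n) = (fun z => B₁ z ^ n) * (fun z => B₂ z ^ n) := by
      funext z
      simp only [Pi.mul_apply, ← mul_pow]
      rfl
    rw [hRR, hBB, qLaurent_mul nR₁ nR₂, qLaurent_mul nB₁ nB₂, e₁, e₂]
    push_cast
    ring

/-- **CHAR (3)**: `n`-th powers have trivial character (uses A1). -/
theorem hasChar_pow (hA1 : Stmt_A1 N) (h : FNL ℂ N) : HasChar N n (h ^ n) 0 := by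
  obtain ⟨k, A, B, hB, e⟩ := hA1 h
  refine ⟨k, (A : ℍ → ℂ), B, isTwistedForm_of_modularForm n A, hB, ?_⟩
  rw [qLaurent_pow (nice_of_gamma0 A), qLaurent_pow (nice_of_gamma0 B), e]
  push_cast
  ring

/-- **Package CHAR**, for `n ≠ 0`, from A1. -/
theorem stmt_CHAR (hn : n ≠ 0) (hA1 : Stmt_A1 N) : Stmt_CHAR N n :=
  ⟨fun _ _ _ hf h₁ h₂ => hasChar_unique hn hf h₁ h₂,
    fun _ _ _ _ _ _ h₁ h₂ => hasChar_mul h₁ h₂,
    fun h _ => hasChar_pow hA1 h⟩

end Fermat.Agent.GTor.H56

end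
end
-- ==== END Fermat.Agent.GTor.H56_Char
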