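-- GENERATED (merged mirror, NOTES/tools/trim/merge3_helper67.py): 16 modules of the originals, bodies verbatim.
import Mathlib
import Fermat.Prelude.Def_GaloisRep_Flat
import Fermat.Agent.Zm.S35_L02_001
import Fermat.Agent.Zm.S35_L02_002
import Fermat.Agent.Zm.S35_L02_005
import Fermat.Agent.S05.H95_Inertia
import Fermat.Agent.R.H89_Quad
import Fermat.Agent.Zm.S35_L02_004
import Fermat.Agent.Zm.S35_L02_003
import Fermat.Agent.RED.H17_Place
import Fermat.Agent.Zm.S35_L01_002
import Fermat.Agent.RED.Defs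

-- ==== BEGIN Fermat.Agent.R.H2_SepCore
section

/-!
# Cluster R, leaf L3c (helper2): `p`-adic separation of a reduced order by DVR points — core

`T` a commutative ring, finite and free over `ℤ`, reduced; `p` a prime.  Then there are finitely
many ring homomorphisms `χ_i : T → O_i` to complete discrete valuation rings (characteristic `0`,
finite residue field, `p ∈ 𝔪`) and a constant `c` such that
`(∀ i, χ_i y ∈ (p ^ (m + c))) → y ∈ (p ^ m)`.

Route: `A = ℤ_[p] ⊗ T` is reduced (étale base change), so it embeds in the product of the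
normalisations `O_𝔮` of `A ⧸ 𝔮` (`𝔮` minimal primes, leaf L3b/L4); a noetherian argument gives
the constant `c`.
-/

set_option autoImplicit false
set_option linter.style.haveILetI false
set_option linter.unusedSectionVars false
set_option linter.dupNamespace false

open IsLocalRing TensorProduct

namespace Fermat.Agent.R.H2

/-! ## Piece 1: the noetherian lemma -/

/-- If `Χ : M → W` is injective and `W` is noetherian, divisibility by `π ^ (m + c)` in `W`
implies divisibility by `π ^ m` in `M`. -/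
theorem exists_pow_smul_bound {O : Type*} [CommRing O] (π : O) {M W : Type*}
    [AddCommGroup M] [Module O M] [AddCommGroup W] [Module O W] [IsNoetherian O W]
    (Χ : M →ₗ[O] W) (hΧ : Function.Injective Χ) :
    ∃ c : ℕ, ∀ (m : ℕ) (x : M), (∃ w : W, Χ x = π ^ (m + c) • w) → ∃ x' : M, x = π ^ m • x' := by
  -- the chain `N k = {w | π ^ k • w ∈ range Χ}`
  let f : ℕ →o Submodule O W :=
    { toFun := fun k => (LinearMap.range Χ).comap (LinearMap.lsmul O W (π ^ k))
      monotone' := by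
        intro a b hab w hw
        rw [Submodule.mem_comap] at hw ⊢
        obtain ⟨d, rfl⟩ := Nat.exists_eq_add_of_le hab
        have : (LinearMap.lsmul O W (π ^ (a + d))) w
            = π ^ d • (LinearMap.lsmul O W (π ^ a)) w := by
          simp only [LinearMap.lsmul_apply, smul_smul, pow_add, mul_comm]
        rw [this]
        exact Submodule.smul_mem _ _ hw }
  obtain ⟨c, hc⟩ := monotone_stabilizes_iff_noetherian.mpr (inferInstance : IsNoetherian O W) f
  refine ⟨c, fun m x ⟨w, hw⟩ => ?_⟩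
  have h1 : w ∈ f (m + c) := by
    show (LinearMap.lsmul O W (π ^ (m + c))) w ∈ LinearMap.range Χ
    rw [LinearMap.lsmul_apply, ← hw]
    exact ⟨x, rfl⟩
  rw [← hc (m + c) (Nat.le_add_left c m)] at h1
  obtain ⟨x', hx'⟩ := h1
  refine ⟨x', hΧ ?_⟩
  rw [map_smul, hx', hw, LinearMap.lsmul_apply, smul_smul, pow_add]

/-! ## Piece 2: descent of divisibility from `ℤ_[p] ⊗ T` to `T` -/

section descent

variable (p : ℕ) [Fact p.Prime] (T : Type) [CommRing T] [Module.Free ℤ T] [Module.Finite ℤ T]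

theorem mem_span_pow_of_tmul_eq (m : ℕ) (y : T) (a : ℤ_[p] ⊗[ℤ] T)
    (h : (1 : ℤ_[p]) ⊗ₜ[ℤ] y = (p : ℤ_[p]) ^ m • a) :
    y ∈ Ideal.span {(p : T) ^ m} := by
  classical
  let b := Module.Free.chooseBasis ℤ T
  let B := Algebra.TensorProduct.basis ℤ_[p] b
  have hcoord : ∀ i, ((b.repr y i : ℤ) : ℤ_[p]) = (p : ℤ_[p]) ^ m * B.repr a i := by
    intro i
    have h1 := congrArg (fun z => B.repr z i) h
    simp only [B, Algebra.TensorProduct.basis_repr_tmul, map_smul, Finsupp.smul_apply,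
      smul_eq_mul, one_mul, Finsupp.mapRange_apply, eq_intCast] at h1
    exact h1
  have hdvd : ∀ i, ((p : ℤ) ^ m) ∣ b.repr y i := by
    intro i
    rw [← PadicInt.pow_p_dvd_int_iff]
    exact ⟨_, hcoord i⟩
  choose z hz using hdvd
  rw [Ideal.mem_span_singleton]
  refine ⟨∑ i, z i • b i, ?_⟩
  rw [← b.sum_repr y, Finset.mul_sum]
  refine Finset.sum_congr rfl fun i _ => ?_
  rw [hz i, mul_smul, zsmul_eq_mul, zsmul_eq_mul]
  push_cast
  ring

end descent

/-! ## Piece 3: `ℤ_[p] ⊗ T` is reduced -/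

section reduced

variable (T : Type) [CommRing T] [Module.Free ℤ T] [Module.Finite ℤ T] [IsReduced T]

attribute [local instance] Algebra.TensorProduct.rightAlgebra in
theorem isReduced_rat_tensor : IsReduced (ℚ ⊗[ℤ] T) := by
  haveI : IsLocalization (Algebra.algebraMapSubmonoid T (nonZeroDivisors ℤ)) (ℚ ⊗[ℤ] T) :=
    IsLocalization.tensorRight (R := ℤ) (S := T) ℚ (nonZeroDivisors ℤ)
  exact isReduced_localizationPreserves (Algebra.algebraMapSubmonoid T (nonZeroDivisors ℤ))
    (ℚ ⊗[ℤ] T) inferInstance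

theorem formallyEtale_rat_tensor : Algebra.FormallyEtale ℚ (ℚ ⊗[ℤ] T) := by
  haveI := isReduced_rat_tensor T
  haveI : IsArtinianRing (ℚ ⊗[ℤ] T) := IsArtinianRing.of_finite ℚ _
  letI (I : MaximalSpectrum (ℚ ⊗[ℤ] T)) : Field ((ℚ ⊗[ℤ] T) ⧸ I.asIdeal) :=
    Ideal.Quotient.field I.asIdeal
  rw [Algebra.FormallyEtale.iff_exists_algEquiv_prod]
  exact ⟨MaximalSpectrum (ℚ ⊗[ℤ] T), inferInstance, fun I => (ℚ ⊗[ℤ] T) ⧸ I.asIdeal,
    inferInstance, inferInstance, (IsArtinianRing.equivPi (ℚ ⊗[ℤ] T)).restrictScalars ℚ,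
    fun I => inferInstance⟩

theorem isReduced_padic_tensor_rat (p : ℕ) [Fact p.Prime] :
    IsReduced (ℚ_[p] ⊗[ℚ] (ℚ ⊗[ℤ] T)) := by
  haveI := formallyEtale_rat_tensor T
  exact Algebra.FormallyUnramified.isReduced_of_field ℚ_[p] (ℚ_[p] ⊗[ℚ] (ℚ ⊗[ℤ] T))

theorem isReduced_padicRat_tensor (p : ℕ) [Fact p.Prime] : IsReduced (ℚ_[p] ⊗[ℤ] T) := by
  haveI := isReduced_padic_tensor_rat T p
  exact isReduced_of_injective
    (Algebra.TensorProduct.cancelBaseChange ℤ ℚ ℚ_[p] ℚ_[p] T).symm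
    (Algebra.TensorProduct.cancelBaseChange ℤ ℚ ℚ_[p] ℚ_[p] T).symm.injective

theorem isReduced_padicInt_tensor (p : ℕ) [Fact p.Prime] : IsReduced (ℤ_[p] ⊗[ℤ] T) := by
  haveI := isReduced_padicRat_tensor T p
  let f : ℤ_[p] →ₐ[ℤ] ℚ_[p] := (algebraMap ℤ_[p] ℚ_[p]).toIntAlgHom
  have hf : Function.Injective f := IsFractionRing.injective ℤ_[p] ℚ_[p]
  let g : (ℤ_[p] ⊗[ℤ] T) →ₐ[ℤ] (ℚ_[p] ⊗[ℤ] T) := Algebra.TensorProduct.map f (AlgHom.id ℤ T)
  have hg : Function.Injective g := by
    have h1 : Function.Injective (LinearMap.rTensor T f.toLinearMap) :=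
      Module.Flat.rTensor_preserves_injective_linearMap _ hf
    have h2 : ⇑g = ⇑(LinearMap.rTensor T f.toLinearMap) := by
      ext x
      induction x using TensorProduct.induction_on with
      | zero => simp
      | tmul a t => simp [g]
      | add x y hx hy => simp only [map_add, hx, hy]
    rw [h2]; exact h1
  exact isReduced_of_injective g hg

end reduced

/-! ## Piece 4: the points and the assembly -/

/-- A point of `T` with values in a complete DVR of characteristic `0`, residue characteristic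
`p`, finite residue field. -/
structure DVRPoint (p : ℕ) (T : Type) [CommRing T] : Type 1 where
  /-- the coefficient ring -/
  R : Type
  [instCommRing : CommRing R]
  [instIsDomain : IsDomain R]
  [instDVR : IsDiscreteValuationRing R]
  [instComplete : IsAdicComplete (IsLocalRing.maximalIdeal R) R]
  [instFiniteResidue : Finite (IsLocalRing.ResidueField R)]
  [instCharZero : CharZero R]
  hp : (p : R) ∈ IsLocalRing.maximalIdeal R
  /-- the point -/
  χ : T →+* R

attribute [instance] DVRPoint.instCommRing DVRPoint.instIsDomain DVRPoint.instDVR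
  DVRPoint.instComplete DVRPoint.instFiniteResidue DVRPoint.instCharZero

/-- Normalisation data of a finite faithful domain `B` over `O`. -/
structure NormPoint (O : Type) [CommRing O] (B : Type) [CommRing B] [Algebra O B] : Type 1 where
  /-- the coefficient ring -/
  R : Type
  [instCommRing : CommRing R]
  [instIsDomain : IsDomain R]
  [instDVR : IsDiscreteValuationRing R]
  [instComplete : IsAdicComplete (IsLocalRing.maximalIdeal R) R]
  [instFiniteResidue : Finite (IsLocalRing.ResidueField R)]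
  [instCharZero : CharZero R]
  [instAlgebra : Algebra O R]
  [instFinite : Module.Finite O R]
  [instLocalHom : IsLocalHom (algebraMap O R)]
  /-- the embedding -/
  j : B →+* R
  hj : Function.Injective j
  hjO : ∀ a : O, j (algebraMap O B a) = algebraMap O R a

attribute [instance] NormPoint.instCommRing NormPoint.instIsDomain NormPoint.instDVR
  NormPoint.instComplete NormPoint.instFiniteResidue NormPoint.instCharZero
  NormPoint.instAlgebra NormPoint.instFinite NormPoint.instLocalHom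

theorem nonempty_normPoint (O : Type) [CommRing O] [IsDomain O] [IsDiscreteValuationRing O]
    [IsAdicComplete (maximalIdeal O) O] [Finite (ResidueField O)] [CharZero O]
    (B : Type) [CommRing B] [IsDomain B] [Algebra O B] [Module.Finite O B] [FaithfulSMul O B] :
    Nonempty (NormPoint O B) := by
  obtain ⟨O', iCR, iD, iDVR, iAC, iFin, iCZ, iAlg, iMF, iLH, j, -, hjinj, hjO, -⟩ :=
    exists_dvr_of_finite_domain O B
  exact ⟨{ R := O', j := j, hj := hjinj, hjO := hjO }⟩

section faithful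

variable (p : ℕ) [Fact p.Prime] (A : Type) [CommRing A] [Algebra ℤ_[p] A]
  [Module.IsTorsionFree ℤ_[p] A]

/-- `ℤ_[p]` injects into the quotient of a torsion-free algebra by a minimal prime. -/
theorem injective_algebraMap_quotient_minimalPrime (𝔮 : Ideal A) (h𝔮 : 𝔮 ∈ minimalPrimes A) :
    Function.Injective (algebraMap ℤ_[p] (A ⧸ 𝔮)) := by
  haveI h𝔮prime : 𝔮.IsPrime := h𝔮.1.1
  have hpnzd : (p : A) ∈ nonZeroDivisors A := by
    rw [mem_nonZeroDivisors_iff_right]
    intro x hx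
    have h1 : (p : ℤ_[p]) • x = 0 := by
      rw [Nat.cast_smul_eq_nsmul, nsmul_eq_mul, mul_comm]; exact hx
    have hp0 : (p : ℤ_[p]) ≠ 0 := by
      exact_mod_cast (Fact.out : p.Prime).ne_zero
    exact (smul_eq_zero.mp h1).resolve_left hp0
  have hp𝔮 : (p : A) ∉ 𝔮 := fun h =>
    Set.disjoint_left.1 (Ideal.disjoint_nonZeroDivisors_of_mem_minimalPrimes h𝔮) h hpnzd
  rw [RingHom.injective_iff_ker_eq_bot]
  by_contra hne
  have hprime : (RingHom.ker (algebraMap ℤ_[p] (A ⧸ 𝔮))).IsPrime := RingHom.ker_isPrime _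
  have hmax := hprime.isMaximal hne
  have heq := IsLocalRing.eq_maximalIdeal hmax
  have hpm : (p : ℤ_[p]) ∈ maximalIdeal ℤ_[p] := by
    rw [PadicInt.maximalIdeal_eq_span_p]
    exact Ideal.subset_span rfl
  rw [← heq, RingHom.mem_ker, map_natCast] at hpm
  have : (p : A) ∈ 𝔮 := by
    rw [← Ideal.Quotient.eq_zero_iff_mem, map_natCast]
    exact hpm
  exact hp𝔮 this

end faithful

section assembly

variable (p : ℕ) [Fact p.Prime] (T : Type) [CommRing T] [Module.Free ℤ T] [Module.Finite ℤ T]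
  [IsReduced T]

/-- **Core of L3c**: `p`-adic separation of a reduced order by finitely many DVR points. -/
theorem exists_sep :
    ∃ (ι : Type) (_ : Finite ι) (P : ι → DVRPoint p T) (c : ℕ),
      ∀ (m : ℕ) (y : T), (∀ i, (P i).χ y ∈ Ideal.span {((p : (P i).R)) ^ (m + c)}) →
        y ∈ Ideal.span {(p : T) ^ m} := by
  classical
  haveI : IsReduced (ℤ_[p] ⊗[ℤ] T) := isReduced_padicInt_tensor T p
  haveI : IsNoetherianRing (ℤ_[p] ⊗[ℤ] T) := IsNoetherianRing.of_finite ℤ_[p] _
  have hfin : (minimalPrimes (ℤ_[p] ⊗[ℤ] T)).Finite :=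
    minimalPrimes.finite_of_isNoetherianRing _
  haveI : Finite ↥(minimalPrimes (ℤ_[p] ⊗[ℤ] T)) := hfin.to_subtype
  haveI : Fintype ↥(minimalPrimes (ℤ_[p] ⊗[ℤ] T)) := Fintype.ofFinite _
  haveI hprime (𝔮 : ↥(minimalPrimes (ℤ_[p] ⊗[ℤ] T))) : (𝔮 : Ideal (ℤ_[p] ⊗[ℤ] T)).IsPrime :=
    𝔮.2.1.1
  haveI hfaith (𝔮 : ↥(minimalPrimes (ℤ_[p] ⊗[ℤ] T))) :
      FaithfulSMul ℤ_[p] ((ℤ_[p] ⊗[ℤ] T) ⧸ (𝔮 : Ideal (ℤ_[p] ⊗[ℤ] T))) :=
    (faithfulSMul_iff_algebraMap_injective _ _).2
      (injective_algebraMap_quotient_minimalPrime p _ 𝔮.1 𝔮.2)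
  -- the normalisations
  let D (𝔮 : ↥(minimalPrimes (ℤ_[p] ⊗[ℤ] T))) :
      NormPoint ℤ_[p] ((ℤ_[p] ⊗[ℤ] T) ⧸ (𝔮 : Ideal (ℤ_[p] ⊗[ℤ] T))) :=
    Classical.choice (nonempty_normPoint ℤ_[p] _)
  -- the map to the product
  let F (𝔮 : ↥(minimalPrimes (ℤ_[p] ⊗[ℤ] T))) : (ℤ_[p] ⊗[ℤ] T) →ₐ[ℤ_[p]] (D 𝔮).R :=
    { toRingHom := (D 𝔮).j.comp (Ideal.Quotient.mk _)
      commutes' := fun a => (D 𝔮).hjO a }
  let Χ : (ℤ_[p] ⊗[ℤ] T) →ₗ[ℤ_[p]] (∀ 𝔮 : ↥(minimalPrimes (ℤ_[p] ⊗[ℤ] T)), (D 𝔮).R) :=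
    LinearMap.pi fun 𝔮 => (F 𝔮).toLinearMap
  have hΧ : Function.Injective Χ := by
    rw [injective_iff_map_eq_zero]
    intro x hx
    have hmem : ∀ 𝔮 ∈ minimalPrimes (ℤ_[p] ⊗[ℤ] T), x ∈ 𝔮 := by
      intro 𝔮 h𝔮
      have h1 := congrFun hx ⟨𝔮, h𝔮⟩
      have h2 : (D ⟨𝔮, h𝔮⟩).j (Ideal.Quotient.mk _ x) = 0 := h1
      have h3 := (D ⟨𝔮, h𝔮⟩).hj (h2.trans (map_zero _).symm)
      exact Ideal.Quotient.eq_zero_iff_mem.mp h3
    have h4 : x ∈ sInf (minimalPrimes (ℤ_[p] ⊗[ℤ] T)) := by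
      rw [Submodule.mem_sInf]
      exact hmem
    have h5 : sInf (minimalPrimes (ℤ_[p] ⊗[ℤ] T)) = nilradical (ℤ_[p] ⊗[ℤ] T) := by
      rw [minimalPrimes, Ideal.sInf_minimalPrimes]; rfl
    rw [h5, nilradical_eq_zero] at h4
    exact h4
  haveI : IsNoetherian ℤ_[p] (∀ 𝔮 : ↥(minimalPrimes (ℤ_[p] ⊗[ℤ] T)), (D 𝔮).R) :=
    isNoetherian_of_isNoetherianRing_of_finite ℤ_[p] _
  obtain ⟨c, hc⟩ := exists_pow_smul_bound (p : ℤ_[p]) Χ hΧ
  -- the points
  let ι : T →+* ℤ_[p] ⊗[ℤ] T := (Algebra.TensorProduct.includeRight (R := ℤ) (A := ℤ_[p])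
    (B := T)).toRingHom
  have hpm : (p : ℤ_[p]) ∈ maximalIdeal ℤ_[p] := by
    rw [PadicInt.maximalIdeal_eq_span_p]
    exact Ideal.subset_span rfl
  let P (𝔮 : ↥(minimalPrimes (ℤ_[p] ⊗[ℤ] T))) : DVRPoint p T :=
    { R := (D 𝔮).R
      hp := by
        have : algebraMap ℤ_[p] (D 𝔮).R (p : ℤ_[p]) ∈ maximalIdeal (D 𝔮).R := by
          rw [IsLocalRing.mem_maximalIdeal, mem_nonunits_iff] at hpm ⊢
          exact fun h => hpm (isUnit_of_map_unit (algebraMap ℤ_[p] (D 𝔮).R) _ h)
        rwa [map_natCast] at this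
      χ := ((D 𝔮).j.comp (Ideal.Quotient.mk _)).comp ι }
  refine ⟨↥(minimalPrimes (ℤ_[p] ⊗[ℤ] T)), inferInstance, P, c, fun m y hy => ?_⟩
  choose w hw using fun 𝔮 => Ideal.mem_span_singleton'.mp (hy 𝔮)
  have hX : Χ ((1 : ℤ_[p]) ⊗ₜ[ℤ] y) = (p : ℤ_[p]) ^ (m + c) • w := by
    funext 𝔮
    show (P 𝔮).χ y = ((p : ℤ_[p]) ^ (m + c) • w) 𝔮
    rw [Pi.smul_apply, Algebra.smul_def, map_pow, map_natCast, ← hw 𝔮, mul_comm]
  obtain ⟨x', hx'⟩ := hc m _ ⟨w, hX⟩
  exact mem_span_pow_of_tmul_eq p T m y x' hx'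

end assembly

end Fermat.Agent.R.H2

end
-- ==== END Fermat.Agent.R.H2_SepCore

-- ==== BEGIN Fermat.Agent.R.H86_Defs2
section

/-!
# Cluster R: interfaces for S32 (flat at `p ∤ N`) and S33 (ordinary at `p ∥ N`)

Owner: helper86.  Consumers: `Fermat/Agent/S33/Wiring.lean`, `Fermat/Agent/S32/Wiring.lean`.

The frozen statements S32/S33 are about a representation over an arbitrary local `𝒪`-algebra
`T` generated by the image of the Hecke algebra.  The wirings reduce them to the same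
statements over complete discrete valuation rings (the "points" of `T`):

* `Stmt_OrdPoint`  : S33 for a representation over a complete DVR (geometric input:
  `ρ_f` is ordinary at `p` when `p ∥ N` resp. when `f` is `p`-old with unit `a_p`).
* `Stmt_FlatPoint` : S32 for a representation over a complete DVR (geometric input: S19,
  good reduction of `J₀(N)` at `p ∤ N`).
* `Stmt_CycInertia` : inertia at an odd prime `p` acts non-trivially on the `p`-th roots of
  unity.
* `Stmt_FrobCyc` : a Frobenius element at `ℓ` raises roots of unity of order prime to `ℓ`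
  to the `ℓ`-th power.
* `IsFlatGaloisModule` : the finite Galois module `M` is the group of `ℚ̄`-points of a finite
  flat commutative group scheme over `ℤ_(p)` (the condition inside `GaloisRepAdic.IsFlatAt`),
  with the closure properties `Stmt_FlatSub`, `Stmt_FlatQuot`, `Stmt_FlatProd` (scheme
  theoretic closure).
-/

set_option autoImplicit false

open Polynomial IsLocalRing

namespace Fermat.Agent.R

/-- **S33 over a complete discrete valuation ring.** -/
def Stmt_OrdPoint : Prop :=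
  ∀ (p : ℕ) (N : ℕ) [NeZero N] (S : Finset ℕ)
    (𝒪 : Type) [CommRing 𝒪] [IsDomain 𝒪] [IsDiscreteValuationRing 𝒪]
    [IsAdicComplete (maximalIdeal 𝒪) 𝒪] [Finite (ResidueField 𝒪)] [CharZero 𝒪],
    p.Prime → p ≠ 2 → (p : 𝒪) ∈ maximalIdeal 𝒪 → (p ∣ N ∧ ¬ p ^ 2 ∣ N) →
    (∀ q : ℕ, q.Prime → q ∣ N → q ∈ S) →
    ∀ (χ : CuspForm.heckeAlgebra N 2 (↑S : Set ℕ) →+* 𝒪) (ρ : GaloisRepAdic 𝒪),
      HasFrobCharpoly χ ρ → ρ.residual.IsAbsolutelyIrreducible →
      (GaloisRepAdic.ofResidualGaloisRep ρ.residual).IsOrdinaryAt p →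
      ρ.IsOrdinaryAt p

/-- **S32 over a complete discrete valuation ring.** -/
def Stmt_FlatPoint : Prop :=
  ∀ (p : ℕ) (N : ℕ) [NeZero N] (S : Finset ℕ)
    (𝒪 : Type) [CommRing 𝒪] [IsDomain 𝒪] [IsDiscreteValuationRing 𝒪]
    [IsAdicComplete (maximalIdeal 𝒪) 𝒪] [Finite (ResidueField 𝒪)] [CharZero 𝒪],
    p.Prime → p ≠ 2 → (p : 𝒪) ∈ maximalIdeal 𝒪 → ¬ p ∣ N → p ∈ S →
    (∀ q : ℕ, q.Prime → q ∣ N → q ∈ S) →
    ∀ (χ : CuspForm.heckeAlgebra N 2 (↑S : Set ℕ) →+* 𝒪) (ρ : GaloisRepAdic 𝒪),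
      HasFrobCharpoly χ ρ → ρ.residual.IsAbsolutelyIrreducible →
      ρ.IsFlatAt p

/-- Inertia at an odd prime `p` moves some `p`-th root of unity. -/
def Stmt_CycInertia : Prop :=
  ∀ (p : ℕ), p.Prime → p ≠ 2 →
    ∀ P : ValuationSubring (AlgebraicClosure ℚ), P.LiesOverPrime p →
      ∃ σ ∈ P.inertiaSubgroupIn ℚ, ∃ ζ : AlgebraicClosure ℚ, ζ ^ p = 1 ∧ σ ζ ≠ ζ

/-- A Frobenius element at `ℓ` acts on the roots of unity of order prime to `ℓ` as the
`ℓ`-th power map. -/
def Stmt_FrobCyc : Prop :=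
  ∀ (ℓ : ℕ), ℓ.Prime →
    ∀ A : ValuationSubring (AlgebraicClosure ℚ), A.LiesOverPrime ℓ →
      ∀ σ : AlgebraicClosure ℚ ≃ₐ[ℚ] AlgebraicClosure ℚ, A.IsFrobeniusAt σ ℓ →
        ∀ (n : ℕ), n.Coprime ℓ → ∀ ζ : AlgebraicClosure ℚ, ζ ^ n = 1 → σ ζ = ζ ^ ℓ

/-- The points of the local Hecke algebra `T` of a Hecke–Galois datum (in characteristic `0`)
separate its elements: every non-zero `t` is non-zero at some local homomorphism to a complete
discrete valuation ring of characteristic `0` with finite residue field which is finite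
over `𝒪`. -/
def Stmt_SepT : Prop :=
  ∀ (N : ℕ) [NeZero N] (S : Finset ℕ)
    (𝒪 : Type) [CommRing 𝒪] [IsDomain 𝒪] [IsDiscreteValuationRing 𝒪]
    [IsAdicComplete (maximalIdeal 𝒪) 𝒪] [Finite (ResidueField 𝒪)] [CharZero 𝒪]
    (θ : CuspForm.heckeAlgebra N 2 (↑S : Set ℕ) →+* ResidueField 𝒪)
    (T : Type) [CommRing T] [IsLocalRing T] [IsNoetherianRing T]
    [IsAdicComplete (maximalIdeal T) T] [Algebra 𝒪 T] [IsLocalHom (algebraMap 𝒪 T)]
    [Module.Finite 𝒪 T] [Module.Free 𝒪 T],
    (∀ q : ℕ, q.Prime → q ∣ N → q ∈ S) →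
    ∀ (_H : CuspForm.HeckeGaloisRepDatum N (↑S : Set ℕ) 𝒪 θ T) (t : T), t ≠ 0 →
      ∃ (𝒪' : Type) (_ : CommRing 𝒪') (_ : IsDomain 𝒪') (_ : IsDiscreteValuationRing 𝒪')
        (_ : IsAdicComplete (maximalIdeal 𝒪') 𝒪') (_ : Finite (ResidueField 𝒪'))
        (_ : CharZero 𝒪') (ψ : T →+* 𝒪'), IsLocalHom ψ ∧ ψ t ≠ 0

/-- The finite Galois module `M` is the group of `ℚ̄`-points of a finite flat commutative
group scheme over `ℤ_(p)`: this is exactly the condition on `V ⧸ I V` in
`GaloisRepAdic.IsFlatAt`. -/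
def IsFlatGaloisModule (p : ℕ) (M : Type) [AddCommGroup M]
    (act : (AlgebraicClosure ℚ ≃ₐ[ℚ] AlgebraicClosure ℚ) → M → M) : Prop :=
  ∃ (H : Type) (_ : CommRing H) (_ : HopfAlgebra (GaloisRep.ratLocalizedAt p) H),
    Module.Finite (GaloisRep.ratLocalizedAt p) H ∧
    Module.Flat (GaloisRep.ratLocalizedAt p) H ∧
    Coalgebra.IsCocomm (GaloisRep.ratLocalizedAt p) H ∧
    ∃ e : WithConv (H →ₐ[GaloisRep.ratLocalizedAt p] AlgebraicClosure ℚ) ≃ M,
      (∀ f g : WithConv (H →ₐ[GaloisRep.ratLocalizedAt p] AlgebraicClosure ℚ),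
        e (f * g) = e f + e g) ∧
      ∀ (σ : AlgebraicClosure ℚ ≃ₐ[ℚ] AlgebraicClosure ℚ)
        (f g : WithConv (H →ₐ[GaloisRep.ratLocalizedAt p] AlgebraicClosure ℚ)),
        (∀ h : H, g h = σ (f h)) → e g = act σ (e f)

theorem isFlatAt_iff {A : Type} [CommRing A] [IsLocalRing A] (ρ : GaloisRepAdic A) (p : ℕ) :
    ρ.IsFlatAt p ↔ Finite (ResidueField A) ∧ ∀ I : Ideal A, Finite (A ⧸ I) →
      IsFlatGaloisModule p (ρ.V ⧸ (I • (⊤ : Submodule A ρ.V)))
        (fun σ => ρ.levelAction I σ) :=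
  Iff.rfl

/-- Flatness passes to Galois-stable subgroups (scheme-theoretic closure). -/
def Stmt_FlatSub : Prop :=
  ∀ (p : ℕ), p.Prime →
    ∀ (M M' : Type) [AddCommGroup M] [AddCommGroup M']
      (act : (AlgebraicClosure ℚ ≃ₐ[ℚ] AlgebraicClosure ℚ) → M → M)
      (act' : (AlgebraicClosure ℚ ≃ₐ[ℚ] AlgebraicClosure ℚ) → M' → M')
      (ι : M' →+ M), Function.Injective ι → (∀ σ x, ι (act' σ x) = act σ (ι x)) →
      IsFlatGaloisModule p M act → IsFlatGaloisModule p M' act'

/-- Flatness passes to Galois-equivariant quotients. -/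
def Stmt_FlatQuot : Prop :=
  ∀ (p : ℕ), p.Prime →
    ∀ (M M' : Type) [AddCommGroup M] [AddCommGroup M']
      (act : (AlgebraicClosure ℚ ≃ₐ[ℚ] AlgebraicClosure ℚ) → M → M)
      (act' : (AlgebraicClosure ℚ ≃ₐ[ℚ] AlgebraicClosure ℚ) → M' → M')
      (π : M →+ M'), Function.Surjective π → (∀ σ x, π (act σ x) = act' σ (π x)) →
      IsFlatGaloisModule p M act → IsFlatGaloisModule p M' act'

/-- Flatness passes to binary products. -/
def Stmt_FlatProd : Prop :=
  ∀ (p : ℕ), p.Prime →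
    ∀ (M M' : Type) [AddCommGroup M] [AddCommGroup M']
      (act : (AlgebraicClosure ℚ ≃ₐ[ℚ] AlgebraicClosure ℚ) → M → M)
      (act' : (AlgebraicClosure ℚ ≃ₐ[ℚ] AlgebraicClosure ℚ) → M' → M'),
      IsFlatGaloisModule p M act → IsFlatGaloisModule p M' act' →
      IsFlatGaloisModule p (M × M') (fun σ x => (act σ x.1, act' σ x.2))

end Fermat.Agent.R

end
-- ==== END Fermat.Agent.R.H86_Defs2

-- ==== BEGIN Fermat.Agent.R.H89_CycChar
section

/-!
# S30 wiring, WP A: the `p`-adic cyclotomic character with values in a complete DVR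

`stmt_CycChar : Fermat.Agent.S30.Stmt_CycChar`.
-/

set_option autoImplicit false

namespace Fermat.Agent.R.H89

open Fermat.Agent.S30

section RingHom

variable (p : ℕ) [Fact p.Prime] (𝒪 : Type) [CommRing 𝒪] [IsLocalRing 𝒪]

omit [Fact p.Prime] in
theorem h89_pow_eq_zero_quot (hp : (p : 𝒪) ∈ IsLocalRing.maximalIdeal 𝒪) (n : ℕ) :
    (((p ^ n : ℕ)) : 𝒪 ⧸ (IsLocalRing.maximalIdeal 𝒪) ^ n) = 0 := by
  have h : ((p ^ n : ℕ) : 𝒪) ∈ (IsLocalRing.maximalIdeal 𝒪) ^ n := by
    rw [Nat.cast_pow]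
    exact Ideal.pow_mem_pow hp n
  have := (Ideal.Quotient.eq_zero_iff_mem (I := (IsLocalRing.maximalIdeal 𝒪) ^ n)).2 h
  rwa [map_natCast] at this

/-- The level-`n` map `ℤ_[p] → 𝒪 / 𝔪^n`. -/
noncomputable def h89Level (hp : (p : 𝒪) ∈ IsLocalRing.maximalIdeal 𝒪) (n : ℕ) :
    ℤ_[p] →+* 𝒪 ⧸ (IsLocalRing.maximalIdeal 𝒪) ^ n :=
  (ZMod.castHom (ringChar.dvd (h89_pow_eq_zero_quot p 𝒪 hp n))
    (𝒪 ⧸ (IsLocalRing.maximalIdeal 𝒪) ^ n)).comp (PadicInt.toZModPow n)

/-- A ring hom from `ℤ_[p]` to a ring killed by `p ^ n` is determined by `appr`. -/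
theorem h89_hom_eq_appr {R : Type*} [CommRing R] (n : ℕ) (h0 : ((p ^ n : ℕ) : R) = 0)
    (g : ℤ_[p] →+* R) (x : ℤ_[p]) : g x = ((x.appr n : ℕ) : R) := by
  have h := PadicInt.appr_spec n x
  rw [Ideal.mem_span_singleton] at h
  obtain ⟨y, hy⟩ := h
  have hx : x = (x.appr n : ℤ_[p]) + (p : ℤ_[p]) ^ n * y := by rw [← hy]; ring
  have hp0 : g ((p : ℤ_[p]) ^ n) = 0 := by
    rw [map_pow, map_natCast, ← Nat.cast_pow]; exact h0
  conv_lhs => rw [hx]
  rw [map_add, map_mul, hp0, zero_mul, add_zero, map_natCast]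

theorem h89Level_compat (hp : (p : 𝒪) ∈ IsLocalRing.maximalIdeal 𝒪) {m n : ℕ} (hle : m ≤ n) :
    (Ideal.Quotient.factorPow (IsLocalRing.maximalIdeal 𝒪) hle).comp (h89Level p 𝒪 hp n) =
      h89Level p 𝒪 hp m := by
  ext x
  rw [h89_hom_eq_appr p m (h89_pow_eq_zero_quot p 𝒪 hp m) _ x,
    h89_hom_eq_appr p m (h89_pow_eq_zero_quot p 𝒪 hp m) _ x]

variable [IsAdicComplete (IsLocalRing.maximalIdeal 𝒪) 𝒪]

/-- The canonical ring hom `ℤ_[p] → 𝒪` for a complete local ring with `p ∈ 𝔪`. -/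
noncomputable def h89PadicHom (hp : (p : 𝒪) ∈ IsLocalRing.maximalIdeal 𝒪) : ℤ_[p] →+* 𝒪 :=
  IsAdicComplete.liftRingHom (IsLocalRing.maximalIdeal 𝒪) (h89Level p 𝒪 hp)
    (fun hle => h89Level_compat p 𝒪 hp hle)

theorem h89PadicHom_sub_mem (hp : (p : 𝒪) ∈ IsLocalRing.maximalIdeal 𝒪) (n : ℕ) (x y : ℤ_[p])
    (h : PadicInt.toZModPow n x = PadicInt.toZModPow n y) :
    h89PadicHom p 𝒪 hp x - h89PadicHom p 𝒪 hp y ∈ (IsLocalRing.maximalIdeal 𝒪) ^ n := by
  rw [← Ideal.Quotient.eq]
  unfold h89PadicHom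
  rw [IsAdicComplete.mk_liftRingHom, IsAdicComplete.mk_liftRingHom]
  simp only [h89Level, RingHom.comp_apply, h]

end RingHom

section Roots

theorem pow_eq_zero_iff_of_pos_h89 {p n : ℕ} (h : p ^ n = 0) : p = 0 := by
  by_contra hp
  exact pow_ne_zero n hp h

variable {L : Type*} [Field L]

/-- A root of unity has valuation one. -/
theorem h89_valuation_eq_one_of_pow_eq_one (A : ValuationSubring L) {w : L} {m : ℕ} (hm : m ≠ 0)
    (hw : w ^ m = 1) : A.valuation w = 1 := by
  have h : A.valuation w ^ m = 1 := by rw [← map_pow, hw, map_one]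
  exact (pow_eq_one_iff.1 h).resolve_right hm

/-- Integers have valuation at most one. -/
theorem h89_valuation_intCast_le_one (A : ValuationSubring L) (a : ℤ) :
    A.valuation (a : L) ≤ 1 := by
  rw [A.valuation_le_one_iff]
  exact intCast_mem A a

theorem h89_valuation_natCast_le_one (A : ValuationSubring L) (a : ℕ) :
    A.valuation (a : L) ≤ 1 := by
  rw [A.valuation_le_one_iff]
  exact natCast_mem A a

/-- A prime different from the residue characteristic is a unit of the valuation subring. -/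
theorem h89_prime_not_mem_nonunits (A : ValuationSubring L) {p q : ℕ} (hp : p.Prime)
    (hq : q.Prime) (hpq : q ≠ p) (hA : A.LiesOverPrime q) : (p : L) ∉ A.nonunits := by
  intro hpA
  have hqA : (q : L) ∈ A.nonunits := hA
  rw [A.mem_nonunits_iff] at hpA hqA
  have hcop : IsCoprime (p : ℤ) (q : ℤ) :=
    Nat.isCoprime_iff_coprime.2 ((Nat.coprime_primes hp hq).2 (Ne.symm hpq))
  obtain ⟨a, b, hab⟩ := hcop
  have h1 : (1 : L) = (a : L) * (p : L) + (b : L) * (q : L) := by
    have := congrArg (fun z : ℤ => (z : L)) hab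
    simp only [Int.cast_add, Int.cast_mul, Int.cast_natCast, Int.cast_one] at this
    exact this.symm
  have h2 : A.valuation ((a : L) * (p : L)) < 1 := by
    rw [map_mul]
    calc A.valuation (a : L) * A.valuation (p : L) ≤ 1 * A.valuation (p : L) :=
          mul_le_mul_left (h89_valuation_intCast_le_one A a) _
      _ < 1 := by rw [one_mul]; exact hpA
  have h3 : A.valuation ((b : L) * (q : L)) < 1 := by
    rw [map_mul]
    calc A.valuation (b : L) * A.valuation (q : L) ≤ 1 * A.valuation (q : L) :=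
          mul_le_mul_left (h89_valuation_intCast_le_one A b) _
      _ < 1 := by rw [one_mul]; exact hqA
  have h4 : A.valuation (1 : L) < 1 := by
    rw [h1]
    exact Valuation.map_add_lt _ h2 h3
  rw [map_one] at h4
  exact lt_irrefl _ h4

/-- Reduction is injective on `p`-power roots of unity when `p` is a unit. -/
theorem h89_eq_one_of_sub_one_mem (A : ValuationSubring L) (p : ℕ)
    (hpA : (p : L) ∉ A.nonunits) {w : L} {n : ℕ} (hw : w ^ (p ^ n) = 1)
    (h1 : w - 1 ∈ A.nonunits) : w = 1 := by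
  by_contra hne
  rw [A.mem_nonunits_iff] at h1 hpA
  have hp0 : p ^ n ≠ 0 := by
    intro h0
    have hp : p = 0 := pow_eq_zero_iff_of_pos_h89 h0
    apply hpA
    rw [hp, Nat.cast_zero, map_zero]
    exact zero_lt_one
  have hsum : ∑ i ∈ Finset.range (p ^ n), w ^ i = 0 := by
    have h := mul_geom_sum w (p ^ n)
    rw [hw, sub_self] at h
    rcases mul_eq_zero.1 h with h | h
    · exact absurd (sub_eq_zero.1 h) hne
    · exact h
  have hterm : ∀ i : ℕ, A.valuation (1 - w ^ i) < 1 := by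
    intro i
    have h := mul_geom_sum w i
    have h' : 1 - w ^ i = -((w - 1) * ∑ j ∈ Finset.range i, w ^ j) := by rw [h]; ring
    rw [h', Valuation.map_neg, map_mul]
    have hS : A.valuation (∑ j ∈ Finset.range i, w ^ j) ≤ 1 := by
      refine Valuation.map_sum_le _ (fun j _ => ?_)
      rw [map_pow]
      rw [h89_valuation_eq_one_of_pow_eq_one A hp0 hw, one_pow]
    calc A.valuation (w - 1) * A.valuation (∑ j ∈ Finset.range i, w ^ j)
        ≤ A.valuation (w - 1) * 1 := mul_le_mul_right hS _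
      _ < 1 := by rw [mul_one]; exact h1
  have hpn : ((p ^ n : ℕ) : L) = ∑ i ∈ Finset.range (p ^ n), (1 - w ^ i) := by
    rw [Finset.sum_sub_distrib, hsum, sub_zero, Finset.sum_const, Finset.card_range,
      nsmul_eq_mul, mul_one]
  have hlt : A.valuation ((p ^ n : ℕ) : L) < 1 := by
    rw [hpn]
    exact Valuation.map_sum_lt _ one_ne_zero (fun i _ => hterm i)
  rw [Nat.cast_pow, map_pow] at hlt
  have hp1 : A.valuation (p : L) = 1 :=
    le_antisymm (h89_valuation_natCast_le_one A p) (not_lt.1 hpA)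
  rw [hp1, one_pow] at hlt
  exact lt_irrefl _ hlt

theorem h89_eq_of_sub_mem (A : ValuationSubring L) (p : ℕ) (hp : p ≠ 0)
    (hpA : (p : L) ∉ A.nonunits) {u v : L} {n : ℕ} (hu : u ^ (p ^ n) = 1)
    (hv : v ^ (p ^ n) = 1) (h : u - v ∈ A.nonunits) : u = v := by
  have hm : p ^ n ≠ 0 := pow_ne_zero _ hp
  have hv0 : v ≠ 0 := by
    rintro rfl
    rw [zero_pow hm] at hv
    exact zero_ne_one hv
  have hw : (u * v⁻¹) ^ (p ^ n) = 1 := by rw [mul_pow, inv_pow, hu, hv, inv_one, mul_one]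
  have hw1 : u * v⁻¹ - 1 ∈ A.nonunits := by
    rw [A.mem_nonunits_iff] at h ⊢
    have : u * v⁻¹ - 1 = (u - v) * v⁻¹ := by field_simp
    rw [this, map_mul, map_inv₀, h89_valuation_eq_one_of_pow_eq_one A hm hv, inv_one, mul_one]
    exact h
  have := h89_eq_one_of_sub_one_mem A p hpA hw hw1
  field_simp at this
  exact this

end Roots

section Frob

variable {K L : Type*} [Field K] [Field L] [Algebra K L]

/-- A Frobenius element acts as `x ↦ x ^ q` modulo the maximal ideal. -/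
theorem h89_frob_sub_mem (A : ValuationSubring L) {σ : L ≃ₐ[K] L} {q : ℕ}
    (h : A.IsFrobeniusAt σ q) {x : L} (hx : x ∈ A) : σ x - x ^ q ∈ A.nonunits := by
  obtain ⟨hd, hF⟩ := h
  have h1 := hF (IsLocalRing.residue A ⟨x, hx⟩)
  have hσx : σ x ∈ A := Fermat.Agent.S05.H95.mem_of_mem_decomposition A hd hx
  have h2 : IsLocalRing.residue A (⟨σ x, hσx⟩ - (⟨x, hx⟩ : A) ^ q) = 0 := by
    rw [map_sub, sub_eq_zero, map_pow, ← h1]
    rfl
  have h3 : (⟨σ x, hσx⟩ - (⟨x, hx⟩ : A) ^ q : A) ∈ IsLocalRing.maximalIdeal A :=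
    (IsLocalRing.residue_eq_zero_iff _).1 h2
  exact (A.mem_nonunits_iff_exists_mem_maximalIdeal (a := σ x - x ^ q)).2
    ⟨A.sub_mem hσx (A.pow_mem hx q), h3⟩

end Frob

section Chi

variable (p : ℕ) [Fact p.Prime]

/-- The `p`-adic cyclotomic character of the absolute Galois group of `ℚ`. -/
noncomputable def h89Chi : GQ →* ℤ_[p]ˣ :=
  (cyclotomicCharacter (AlgebraicClosure ℚ) p).comp
    (MulSemiringAction.toRingAut GQ (AlgebraicClosure ℚ))

instance h89_neZero_prime_rat : NeZero (p : ℚ) :=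
  ⟨Nat.cast_ne_zero.2 (Fact.out : p.Prime).ne_zero⟩

theorem h89Chi_toZModPow_eq (σ : GQ) (n k : ℕ)
    (h : ∀ t : AlgebraicClosure ℚ, t ^ (p ^ n) = 1 → σ t = t ^ k) :
    PadicInt.toZModPow n ((h89Chi p σ : ℤ_[p]ˣ) : ℤ_[p]) = (k : ZMod (p ^ n)) := by
  unfold h89Chi
  rw [MonoidHom.comp_apply, cyclotomicCharacter.toZModPow]
  symm
  apply modularCyclotomicCharacter.unique
  intro t ht
  have ht' : ((t : (AlgebraicClosure ℚ)ˣ) : AlgebraicClosure ℚ) ^ (p ^ n) = 1 := by
    have := (mem_rootsOfUnity _ _).1 ht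
    rw [← Units.val_pow_eq_pow_val, this, Units.val_one]
  have h1 : (MulSemiringAction.toRingAut GQ (AlgebraicClosure ℚ) σ)
      ((t : (AlgebraicClosure ℚ)ˣ) : AlgebraicClosure ℚ) = σ (t : AlgebraicClosure ℚ) := rfl
  rw [h1, h _ ht', ZMod.val_natCast]
  conv_lhs => rw [← Nat.mod_add_div k (p ^ n)]
  rw [pow_add, pow_mul, ht', one_pow, mul_one]

theorem h89Chi_eq_natCast (σ : GQ) (k : ℕ)
    (h : ∀ (n : ℕ) (t : AlgebraicClosure ℚ), t ^ (p ^ n) = 1 → σ t = t ^ k) :
    ((h89Chi p σ : ℤ_[p]ˣ) : ℤ_[p]) = (k : ℤ_[p]) := by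
  refine PadicInt.ext_of_toZModPow.1 (fun n => ?_)
  rw [h89Chi_toZModPow_eq p σ n k (h n), map_natCast]

end Chi

/-- **WP A (CycChar).** The `p`-adic cyclotomic character with values in a complete discrete
valuation ring of residue characteristic `p`. -/
theorem stmt_CycChar : Stmt_CycChar := by
  intro p _ 𝒪 _ _ _ _ _ hp S hpS
  have hpp : p.Prime := Fact.out
  refine ⟨(Units.map ((h89PadicHom p 𝒪 hp : ℤ_[p] →+* 𝒪) : ℤ_[p] →* 𝒪)).comp (h89Chi p),
    ?_, ?_, ?_⟩
  · -- adic continuity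
    intro n
    obtain ⟨ζ, hζ⟩ :=
      HasEnoughRootsOfUnity.exists_primitiveRoot (AlgebraicClosure ℚ) (p ^ n)
    have hm : p ^ n ≠ 0 := pow_ne_zero _ hpp.ne_zero
    refine ⟨IntermediateField.adjoin ℚ {ζ}, ?_, ?_⟩
    · exact IntermediateField.adjoin.finiteDimensional
        (hζ.isIntegral (Nat.pos_of_ne_zero hm)).tower_top
    · intro σ hσ
      have hζσ : σ ζ = ζ := hσ ζ (IntermediateField.mem_adjoin_simple_self ℚ ζ)
      have key : PadicInt.toZModPow n ((h89Chi p σ : ℤ_[p]ˣ) : ℤ_[p]) =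
          PadicInt.toZModPow n 1 := by
        rw [map_one, h89Chi_toZModPow_eq p σ n 1 ?_, Nat.cast_one]
        intro t ht
        have : NeZero (p ^ n) := ⟨hm⟩
        obtain ⟨i, _, rfl⟩ := hζ.eq_pow_of_pow_eq_one ht
        rw [map_pow, hζσ, pow_one]
      have := h89PadicHom_sub_mem p 𝒪 hp n _ _ key
      rw [map_one] at this
      exact this
  · -- Frobenius values
    intro ℓ hℓ hℓS A hA σ hσ
    have hℓp : ℓ ≠ p := fun h => hℓS (h ▸ hpS)
    have hpA := h89_prime_not_mem_nonunits A hpp hℓ hℓp hA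
    have key := h89Chi_eq_natCast p σ ℓ (fun n t ht => by
      have hm : p ^ n ≠ 0 := pow_ne_zero _ hpp.ne_zero
      have htA : t ∈ A := (A.valuation_le_one_iff t).1
        (le_of_eq (h89_valuation_eq_one_of_pow_eq_one A hm ht))
      refine h89_eq_of_sub_mem A p hpp.ne_zero hpA (n := n) ?_ ?_ (h89_frob_sub_mem A hσ htA)
      · rw [← map_pow, ht, map_one]
      · rw [← pow_mul, mul_comm, pow_mul, ht, one_pow])
    show h89PadicHom p 𝒪 hp ((h89Chi p σ : ℤ_[p]ˣ) : ℤ_[p]) = (ℓ : 𝒪)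
    rw [key, map_natCast]
  · -- unramified outside `p`
    intro q hq hqp P hP σ hσ
    have hpA := h89_prime_not_mem_nonunits P hpp hq hqp hP
    have key := h89Chi_eq_natCast p σ 1 (fun n t ht => by
      have hm : p ^ n ≠ 0 := pow_ne_zero _ hpp.ne_zero
      have htA : t ∈ P := (P.valuation_le_one_iff t).1
        (le_of_eq (h89_valuation_eq_one_of_pow_eq_one P hm ht))
      rw [pow_one]
      refine h89_eq_of_sub_mem P p hpp.ne_zero hpA (n := n) ?_ ht
        (Fermat.Agent.S05.H95.sub_mem_nonunits_of_mem_inertia P hσ htA)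
      rw [← map_pow, ht, map_one])
    apply Units.ext
    show h89PadicHom p 𝒪 hp ((h89Chi p σ : ℤ_[p]ˣ) : ℤ_[p]) = ((1 : 𝒪ˣ) : 𝒪)
    rw [key, Nat.cast_one, map_one, Units.val_one]

end Fermat.Agent.R.H89

end
-- ==== END Fermat.Agent.R.H89_CycChar

-- ==== BEGIN Fermat.Agent.R.H89_S30Stmts
section

/-!
# S30 wiring, WPs D and F in the exact shape of `Fermat/Agent/S30/Defs.lean`

* `stmt_LemmaB : Fermat.Agent.S30.Stmt_LemmaB`
* `stmt_CharSum : Fermat.Agent.S30.Stmt_CharSum`
-/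

set_option autoImplicit false

open Polynomial

namespace Fermat.Agent.R.H89

open Fermat.Agent.S30

/-- **WP D (Lemma B)** in the exact interface shape. -/
theorem stmt_LemmaB : Stmt_LemmaB := by
  intro R _ _ G _ ρ ε hQ
  choose a ha using hQ
  rcases lemmaB ρ ε a ha with h | h
  · exact Or.inr h
  · exact Or.inl (fun g => (h g).1)

/-- The diagonal representation `ψ ⊕ ε ψ⁻¹`. -/
noncomputable def h89CharSum {R : Type} [CommRing R] {G : Type} [Group G] (ψ ε : G →* Rˣ) :
    G →* Matrix (Fin 2) (Fin 2) R where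
  toFun g := Matrix.diagonal ![(ψ g : R), ((ε g * (ψ g)⁻¹ : Rˣ) : R)]
  map_one' := by
    ext i j
    fin_cases i <;> fin_cases j <;> simp
  map_mul' g h := by
    rw [Matrix.diagonal_mul_diagonal]
    congr 1
    ext i
    fin_cases i
    · simp
    · simp only [map_mul, mul_inv_rev, Units.val_mul]
      simp
      ring

/-- **WP F (CharSum)** in the exact interface shape. -/
theorem stmt_CharSum : Stmt_CharSum := by
  intro R _ G _ ψ ε
  refine ⟨h89CharSum ψ ε, fun g => rfl, ?_⟩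
  intro g a ℓ h hℓ
  rcases subsingleton_or_nontrivial R with hR | hR
  · exact Subsingleton.elim _ _
  · have h1 : (h89CharSum ψ ε g) =
        Matrix.diagonal ![(ψ g : R), ((ε g * (ψ g)⁻¹ : Rˣ) : R)] := rfl
    rw [Matrix.charpoly_fin_two, h1]
    have hdet : (Matrix.diagonal ![(ψ g : R), ((ε g * (ψ g)⁻¹ : Rˣ) : R)]).det = ℓ := by
      rw [Matrix.det_diagonal, Fin.prod_univ_two]
      simp only [Matrix.cons_val_zero, Matrix.cons_val_one]
      rw [← hℓ, ← Units.val_mul]
      congr 1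
      rw [mul_comm, mul_assoc, inv_mul_cancel, mul_one]
    have htr : (Matrix.diagonal ![(ψ g : R), ((ε g * (ψ g)⁻¹ : Rˣ) : R)]).trace = a := by
      rw [Matrix.trace_diagonal, Fin.sum_univ_two]
      simp only [Matrix.cons_val_zero, Matrix.cons_val_one]
      -- ψ + ε ψ⁻¹ = a  from  ψ² - a ψ + ε = 0
      have hu : ((ψ g : Rˣ) : R) * ((ψ g)⁻¹ : Rˣ) = 1 := by
        rw [← Units.val_mul, mul_inv_cancel, Units.val_one]
      have h2 : ((ψ g : Rˣ) : R) * ((ψ g : R) + ((ε g * (ψ g)⁻¹ : Rˣ) : R) - a) = 0 := by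
        rw [Units.val_mul]
        calc ((ψ g : Rˣ) : R) * ((ψ g : R) + (ε g : R) * ((ψ g)⁻¹ : Rˣ) - a)
            = ((ψ g : R) * ψ g - a * ψ g) + (ε g : R) * ((ψ g : R) * ((ψ g)⁻¹ : Rˣ)) := by ring
          _ = ((ψ g : R) * ψ g - a * ψ g) + (ε g : R) := by rw [hu, mul_one]
          _ = 0 := h
      have h3 := (Units.mul_right_eq_zero (ψ g)).1 h2
      exact sub_eq_zero.1 h3
    rw [hdet, htr]

end Fermat.Agent.R.H89

end
-- ==== END Fermat.Agent.R.H89_S30Stmts

-- ==== BEGIN Fermat.Agent.R.Pet.Defs3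
section

/-!
# Cluster R, leaf L3a (helper58): the adjointness interface of the Pet mini-project.
-/

set_option autoImplicit false

namespace Fermat.Agent.R.Pet

open UpperHalfPlane ModularForm MatrixGroups MeasureTheory CongruenceSubgroup
open scoped Modular Pointwise

/-- ADJ: `T_ℓ` is self-adjoint for mean values of the Petersson integrand over a fundamental
domain of `Γ(3Nℓ)`. -/
def Stmt_adj : Prop :=
  ∀ (N : ℕ) [NeZero N] (k : ℤ) (ℓ : ℕ) (hℓ : ℓ.Prime) (hℓN : ¬ ℓ ∣ N) (F : Set ℍ),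
    IsFD (GamR (3 * N * ℓ)) F → ∀ f g : CuspForm (Gamma0 N) k,
      mean F (petersson k (CuspForm.heckeTLin k hℓ hℓN f) g) =
        mean F (petersson k f (CuspForm.heckeTLin k hℓ hℓN g))

end Fermat.Agent.R.Pet

end
-- ==== END Fermat.Agent.R.Pet.Defs3

-- ==== BEGIN Fermat.Agent.R.Pet.H22_Conj
section

/-!
# Pet packages CONJ0, CONJINF, COMM0, FD-GAMMA (helper22)
-/

set_option autoImplicit false

namespace Fermat.Agent.R.Pet.H22

open UpperHalfPlane ModularForm MatrixGroups CongruenceSubgroup MeasureTheory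
open scoped Modular Pointwise

/-- Entries of an element of `Γ(N)`. -/
lemma gamma_entries {N : ℕ} {γ : SL(2, ℤ)} (hγ : γ ∈ Gamma N) :
    (N : ℤ) ∣ (γ 0 0 - 1) ∧ (N : ℤ) ∣ γ 0 1 ∧ (N : ℤ) ∣ γ 1 0 ∧ (N : ℤ) ∣ (γ 1 1 - 1) := by
  rw [Gamma_mem] at hγ
  obtain ⟨h00, h01, h10, h11⟩ := hγ
  refine ⟨?_, ?_, ?_, ?_⟩
  · rw [← ZMod.intCast_zmod_eq_zero_iff_dvd]; push_cast; rw [h00]; ring
  · rw [← ZMod.intCast_zmod_eq_zero_iff_dvd]; exact h01
  · rw [← ZMod.intCast_zmod_eq_zero_iff_dvd]; exact h10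
  · rw [← ZMod.intCast_zmod_eq_zero_iff_dvd]; push_cast; rw [h11]; ring

lemma mkG0_mem_Gamma (N : ℕ) (a b c d : ℤ) (h : a * d - b * c = 1)
    (ha : (N : ℤ) ∣ a - 1) (hb : (N : ℤ) ∣ b) (hc : (N : ℤ) ∣ c) (hd : (N : ℤ) ∣ d - 1) :
    mkG0 a b c d h ∈ Gamma N := by
  rw [Gamma_mem, coe_mkG0]
  have ha' : ((a - 1 : ℤ) : ZMod N) = 0 := (ZMod.intCast_zmod_eq_zero_iff_dvd _ _).mpr ha
  have hd' : ((d - 1 : ℤ) : ZMod N) = 0 := (ZMod.intCast_zmod_eq_zero_iff_dvd _ _).mpr hd
  push_cast at ha' hd'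
  refine ⟨?_, ?_, ?_, ?_⟩
  · simpa using sub_eq_zero.mp ha'
  · simpa [ZMod.intCast_zmod_eq_zero_iff_dvd] using hb
  · simpa [ZMod.intCast_zmod_eq_zero_iff_dvd] using hc
  · simpa using sub_eq_zero.mp hd'

lemma coe_GL_eq (γ : SL(2, ℤ)) :
    ((γ : GL (Fin 2) ℝ) : Matrix (Fin 2) (Fin 2) ℝ) =
      !![((γ 0 0 : ℤ) : ℝ), ((γ 0 1 : ℤ) : ℝ); ((γ 1 0 : ℤ) : ℝ), ((γ 1 1 : ℤ) : ℝ)] := by
  ext i k
  rw [coe_GL_apply]
  fin_cases i <;> fin_cases k <;> rfl

theorem stmt_conj0 : Stmt_conj0 := by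
  intro N ℓ hℓ γ hγ
  obtain ⟨h00, h01, h10, h11⟩ := gamma_entries hγ
  have hdet : γ 0 0 * γ 1 1 - γ 0 1 * γ 1 0 = 1 := by
    have := γ.2
    rw [Matrix.det_fin_two] at this
    exact this
  obtain ⟨t, ht⟩ := h01
  have hN : ∀ x : ℤ, ((N * ℓ : ℕ) : ℤ) ∣ x → (N : ℤ) ∣ x := fun x hx =>
    dvd_trans ⟨(ℓ : ℤ), by push_cast; ring⟩ hx
  have hd' : γ 0 0 * γ 1 1 - (N * t) * (ℓ * γ 1 0) = 1 := by
    push_cast at ht
    linear_combination hdet + γ 1 0 * ht
  refine ⟨mkG0 (γ 0 0) (N * t) (ℓ * γ 1 0) (γ 1 1) hd',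
    mkG0_mem_Gamma N _ _ _ _ hd' (hN _ h00) (dvd_mul_right _ _)
      (dvd_mul_of_dvd_right (hN _ h10) _) (hN _ h11), ?_⟩
  ext i k
  rw [Units.val_mul, Units.val_mul, val_heckeMatrix hℓ, coe_GL_mkG0, coe_GL_eq γ]
  have ht' : ((γ 0 1 : ℤ) : ℝ) = N * ℓ * t := by rw [ht]; push_cast; ring
  fin_cases i <;> fin_cases k <;>
    simp [Matrix.mul_apply, Fin.sum_univ_two, ht'] <;> ring

theorem stmt_conjInf : Stmt_conjInf := by
  intro N ℓ hℓ γ hγ
  obtain ⟨h00, h01, h10, h11⟩ := gamma_entries hγ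
  have hdet : γ 0 0 * γ 1 1 - γ 0 1 * γ 1 0 = 1 := by
    have := γ.2
    rw [Matrix.det_fin_two] at this
    exact this
  obtain ⟨t, ht⟩ := h10
  have hN : ∀ x : ℤ, ((N * ℓ : ℕ) : ℤ) ∣ x → (N : ℤ) ∣ x := fun x hx =>
    dvd_trans ⟨(ℓ : ℤ), by push_cast; ring⟩ hx
  have hd' : γ 0 0 * γ 1 1 - (ℓ * γ 0 1) * (N * t) = 1 := by
    push_cast at ht
    linear_combination hdet + γ 0 1 * ht
  refine ⟨mkG0 (γ 0 0) (ℓ * γ 0 1) (N * t) (γ 1 1) hd',
    mkG0_mem_Gamma N _ _ _ _ hd' (hN _ h00) (dvd_mul_of_dvd_right (hN _ h01) _)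
      (dvd_mul_right _ _) (hN _ h11), ?_⟩
  ext i k
  rw [Units.val_mul, Units.val_mul, val_heckeDiagMatrix hℓ, coe_GL_mkG0, coe_GL_eq γ]
  have ht' : ((γ 1 0 : ℤ) : ℝ) = N * ℓ * t := by rw [ht]; push_cast; ring
  fin_cases i <;> fin_cases k <;>
    simp [Matrix.mul_apply, Fin.sum_univ_two, ht'] <;> ring

/-- The rational matrix `[[1, 0], [0, ℓ]]`. -/
noncomputable def alpha0Q (ℓ : ℕ) (hℓ : ℓ ≠ 0) : GL (Fin 2) ℚ :=
  Matrix.GeneralLinearGroup.mkOfDetNeZero !![(1 : ℚ), 0; 0, (ℓ : ℚ)] (by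
    rw [Matrix.det_fin_two_of]
    simpa using hℓ)

lemma alpha0Q_map (ℓ : ℕ) (hℓ : ℓ ≠ 0) :
    (alpha0Q ℓ hℓ).map (Rat.castHom ℝ) = heckeMatrix ℓ 0 := by
  ext i k
  rw [val_heckeMatrix hℓ]
  fin_cases i <;> fin_cases k <;>
    simp [alpha0Q, Matrix.GeneralLinearGroup.map, Matrix.GeneralLinearGroup.mkOfDetNeZero]

lemma conjAct_smul_eq_map (α : GL (Fin 2) ℝ) (H : Subgroup (GL (Fin 2) ℝ)) :
    ConjAct.toConjAct α • H = H.map (MulAut.conj α).toMonoidHom := by
  ext x
  simp only [Subgroup.mem_map, Subgroup.mem_pointwise_smul_iff_inv_smul_mem]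
  constructor
  · intro hx
    refine ⟨_, hx, ?_⟩
    simp [ConjAct.smul_def, mul_assoc]
  · rintro ⟨y, hy, rfl⟩
    simpa [ConjAct.smul_def, mul_assoc] using hy

theorem stmt_comm0 : Stmt_comm0 := by
  intro M ℓ hM hℓ
  have : NeZero M := ⟨hM⟩
  have h1 : (GamR M).IsArithmetic := by
    unfold GamR
    infer_instance
  have h2 := Subgroup.IsArithmetic.conj (GamR M) (alpha0Q ℓ hℓ)
  rw [alpha0Q_map, conjAct_smul_eq_map] at h2
  exact h2.is_commensurable.trans h1.is_commensurable.symm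

lemma neg_one_notMem_Gamma (M : ℕ) (hM : 3 ≤ M) : (-1 : SL(2, ℤ)) ∉ Gamma M := by
  intro h
  obtain ⟨h00, -, -, -⟩ := gamma_entries h
  have h2 : (M : ℤ) ∣ 2 := by
    have : ((-1 : SL(2, ℤ)) 0 0 : ℤ) = -1 := by simp
    rw [this] at h00
    have := dvd_neg.mpr h00
    simpa using this
  have := Int.le_of_dvd (by norm_num) h2
  omega

theorem stmt_exists_fd_Gamma : Stmt_exists_fd → Stmt_exists_fd_Gamma := by
  intro h M hM
  have : NeZero M := ⟨by omega⟩
  exact h (Gamma M) (neg_one_notMem_Gamma M hM)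

end Fermat.Agent.R.Pet.H22

end
-- ==== END Fermat.Agent.R.Pet.H22_Conj

-- ==== BEGIN Fermat.Agent.R.Pet.H24_Pos
section

/-!
# Pet (helper24): positivity `Stmt_pos`, and the mean value lemmas `Stmt_mean_SL`,
`Stmt_mean_level`.
-/

set_option autoImplicit false

namespace Fermat.Agent.R.Pet.H24

open UpperHalfPlane ModularForm MatrixGroups MeasureTheory CongruenceSubgroup
open scoped Modular Pointwise

/-- POS: a continuous nonnegative invariant function with vanishing integral over a fundamental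
domain is identically zero. -/
theorem stmt_pos (hop : Stmt_open_pos) : Stmt_pos := by
  intro 𝒢 h𝒢 F hF Φ hcont hnn hinv hint h0 z
  have := h𝒢
  have hae : Φ =ᵐ[volume.restrict F] 0 :=
    (setIntegral_eq_zero_iff_of_nonneg_ae (Filter.Eventually.of_forall hnn) hint).1 h0
  set U : Set ℍ := {z | Φ z ≠ 0} with hU
  have hUopen : IsOpen U := isOpen_ne_fun hcont continuous_const
  have hUF : volume (U ∩ F) = 0 := by
    have h1 : volume.restrict F U = 0 := by
      have := hae
      rw [Filter.EventuallyEq, ae_iff] at this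
      exact this
    rwa [Measure.restrict_apply hUopen.measurableSet] at h1
  have hUinv : ∀ g : 𝒢, g • U = U := by
    intro g
    ext x
    rw [Set.mem_smul_set_iff_inv_smul_mem]
    simp only [hU, Set.mem_ofPred_eq]
    have := hinv (g⁻¹ : 𝒢) (g⁻¹).2 x
    rw [show ((g⁻¹ : 𝒢) • x) = ((g⁻¹ : 𝒢) : GL (Fin 2) ℝ) • x from rfl, this]
  have hU0 : volume U = 0 := hF.fd.measure_zero_of_invariant U hUinv hUF
  by_contra hz
  have hpos : 0 < volume U := hop U hUopen ⟨z, hz⟩
  exact hpos.ne' hU0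

/-! ## Mean values and the principal congruence subgroups -/

theorem countable_SL : Countable SL(2, ℤ) := by
  have hinj : Function.Injective (fun g : SL(2, ℤ) => (fun i j => g.1 i j : Fin 2 → Fin 2 → ℤ)) := by
    intro g h hgh
    apply Subtype.ext
    ext i j
    exact congrFun (congrFun hgh i) j
  exact hinj.countable

theorem coe_eq_mapGL (γ : SL(2, ℤ)) :
    (γ : GL (Fin 2) ℝ) = Matrix.SpecialLinearGroup.mapGL ℝ γ := rfl

theorem countable_GamR (M : ℕ) : Countable (GamR M) := by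
  have := countable_SL
  have hsurj : Function.Surjective
      (fun g : Gamma M => (⟨Matrix.SpecialLinearGroup.mapGL ℝ (g : SL(2, ℤ)),
        Subgroup.mem_map_of_mem _ g.2⟩ : GamR M)) := by
    rintro ⟨_, ⟨h, hh, rfl⟩⟩
    exact ⟨⟨h, hh⟩, rfl⟩
  exact hsurj.countable

/-- Conjugation by `γ ∈ SL(2, ℤ)` preserves the image of `Γ(M)`. -/
theorem conj_mem_GamR (M : ℕ) (γ : SL(2, ℤ)) {g : GL (Fin 2) ℝ} (hg : g ∈ GamR M) :
    (γ : GL (Fin 2) ℝ) * g * (γ : GL (Fin 2) ℝ)⁻¹ ∈ GamR M := by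
  obtain ⟨h, hh, rfl⟩ := hg
  refine ⟨γ * h * γ⁻¹, (Gamma_normal M).conj_mem h hh γ, ?_⟩
  rw [coe_eq_mapGL, map_mul, map_mul, map_inv]

theorem conjSubgroup_GamR (M : ℕ) (γ : SL(2, ℤ)) :
    H98.conjSubgroup (γ : GL (Fin 2) ℝ) (GamR M) = GamR M := by
  ext g
  constructor
  · rintro ⟨h, hh, rfl⟩
    exact conj_mem_GamR M γ hh
  · intro hg
    refine ⟨((γ⁻¹ : SL(2, ℤ)) : GL (Fin 2) ℝ) * g * ((γ⁻¹ : SL(2, ℤ)) : GL (Fin 2) ℝ)⁻¹,
      conj_mem_GamR M γ⁻¹ hg, ?_⟩
    rw [coe_eq_mapGL, coe_eq_mapGL, map_inv]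
    simp [mul_assoc]

/-- MEAN-SL. -/
theorem stmt_mean_SL : Stmt_mean_SL := by
  intro M F hF γ Ψ hΨ
  have := _root_.Fermat.Agent.R.Pet.H24.countable_GamR M
  refine H98.mean_conj hF (γ : GL (Fin 2) ℝ) ?_ Ψ hΨ ?_
  · rw [conjSubgroup_GamR]
  · intro g hg z
    exact hΨ _ (conj_mem_GamR M γ hg) z

theorem Gamma_le_of_dvd {M M' : ℕ} (h : M ∣ M') : Gamma M' ≤ Gamma M := by
  intro γ hγ
  rw [Gamma_mem] at hγ ⊢
  have key : ∀ (x y : ℤ), ((x : ℤ) : ZMod M') = ((y : ℤ) : ZMod M') →
      ((x : ℤ) : ZMod M) = ((y : ℤ) : ZMod M) := by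
    intro x y hxy
    rw [ZMod.intCast_eq_intCast_iff_dvd_sub] at hxy ⊢
    exact (Int.natCast_dvd_natCast.2 h).trans hxy
  obtain ⟨h1, h2, h3, h4⟩ := hγ
  refine ⟨?_, ?_, ?_, ?_⟩
  · have := key (γ 0 0) 1 (by simpa using h1)
    simpa using this
  · have := key (γ 0 1) 0 (by simpa using h2)
    simpa using this
  · have := key (γ 1 0) 0 (by simpa using h3)
    simpa using this
  · have := key (γ 1 1) 1 (by simpa using h4)
    simpa using this

/-- MEAN-LEVEL. -/
theorem stmt_mean_level : Stmt_mean_level := by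
  intro M M' hM' hdvd F F' hF hF' Ψ hΨ
  have := _root_.Fermat.Agent.R.Pet.H24.countable_GamR M
  have : NeZero M' := ⟨hM'⟩
  have hle : GamR M' ≤ GamR M := Subgroup.map_mono (Gamma_le_of_dvd hdvd)
  have hidx : (GamR M').relIndex (GamR M) ≠ 0 := by
    rw [Subgroup.relIndex_map_map_of_injective _ _ Matrix.SpecialLinearGroup.mapGL_injective]
    intro h0
    have h1 := Subgroup.index_eq_zero_of_relIndex_eq_zero h0
    exact (Subgroup.FiniteIndex.index_ne_zero (H := Gamma M')) h1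
  exact H98.mean_sub hle hidx hF hF' Ψ hΨ

end Fermat.Agent.R.Pet.H24

end
-- ==== END Fermat.Agent.R.Pet.H24_Pos

-- ==== BEGIN Fermat.Agent.R.Pet.H58_PetA
section

/-!
# Pet (helper58): pointwise algebra of the Petersson integrand, boundedness, mean values.
-/

set_option autoImplicit false

namespace Fermat.Agent.R.Pet

open UpperHalfPlane ModularForm MatrixGroups MeasureTheory CongruenceSubgroup
open scoped Modular Pointwise ComplexConjugate

section pointwise

variable (k : ℤ)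

lemma pet_add_left (f f' g : ℍ → ℂ) :
    petersson k (f + f') g = petersson k f g + petersson k f' g := by
  funext τ
  simp only [petersson, Pi.add_apply, map_add]
  ring

lemma pet_add_right (f g g' : ℍ → ℂ) :
    petersson k f (g + g') = petersson k f g + petersson k f g' := by
  funext τ
  simp only [petersson, Pi.add_apply]
  ring

lemma pet_zero_left (g : ℍ → ℂ) : petersson k 0 g = 0 := by
  funext τ
  simp [petersson]

lemma pet_zero_right (f : ℍ → ℂ) : petersson k f 0 = 0 := by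
  funext τ
  simp [petersson]

lemma pet_sum_left {ι : Type*} (s : Finset ι) (f : ι → ℍ → ℂ) (g : ℍ → ℂ) :
    petersson k (∑ j ∈ s, f j) g = ∑ j ∈ s, petersson k (f j) g := by
  classical
  induction s using Finset.induction_on with
  | empty => simp [pet_zero_left]
  | insert a s ha ih => rw [Finset.sum_insert ha, Finset.sum_insert ha, pet_add_left, ih]

lemma pet_sum_right {ι : Type*} (s : Finset ι) (f : ℍ → ℂ) (g : ι → ℍ → ℂ) :
    petersson k f (∑ j ∈ s, g j) = ∑ j ∈ s, petersson k f (g j) := by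
  classical
  induction s using Finset.induction_on with
  | empty => simp [pet_zero_right]
  | insert a s ha ih => rw [Finset.sum_insert ha, Finset.sum_insert ha, pet_add_right, ih]

lemma pet_smul_right (c : ℂ) (f g : ℍ → ℂ) :
    petersson k f (c • g) = c • petersson k f g := by
  funext τ
  simp only [petersson, Pi.smul_apply, smul_eq_mul]
  ring

lemma pet_smul_left (c : ℂ) (f g : ℍ → ℂ) :
    petersson k (c • f) g = conj c • petersson k f g := by
  funext τ
  simp only [petersson, Pi.smul_apply, smul_eq_mul, map_mul]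
  ring

lemma norm_pet (f g : ℍ → ℂ) (τ : ℍ) :
    ‖petersson k f g τ‖ = ‖f τ‖ * ‖g τ‖ * τ.im ^ k := by
  have h : (0 : ℝ) ≤ τ.im ^ k := zpow_nonneg τ.im_pos.le k
  rw [petersson, norm_mul, norm_mul, RCLike.norm_conj, norm_zpow, Complex.norm_real,
    Real.norm_of_nonneg τ.im_pos.le]

lemma pet_self (f : ℍ → ℂ) (τ : ℍ) :
    petersson k f f τ = ((‖f τ‖ ^ 2 * τ.im ^ k : ℝ) : ℂ) := by
  rw [petersson, Complex.conj_mul']
  push_cast
  ring

/-- `‖f‖² · im^k` is bounded. -/
def PetBdd (f : ℍ → ℂ) : Prop := ∃ C, ∀ τ, ‖petersson k f f τ‖ ≤ C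

variable {k}

lemma PetBdd.pair {f g : ℍ → ℂ} (hf : PetBdd k f) (hg : PetBdd k g) :
    ∃ C, ∀ τ, ‖petersson k f g τ‖ ≤ C := by
  obtain ⟨C, hC⟩ := hf
  obtain ⟨C', hC'⟩ := hg
  refine ⟨(C + C') / 2, fun τ => ?_⟩
  have h1 := hC τ
  have h2 := hC' τ
  rw [norm_pet] at h1 h2 ⊢
  have h : (0 : ℝ) ≤ τ.im ^ k := zpow_nonneg τ.im_pos.le k
  have h3 : ‖f τ‖ * ‖g τ‖ ≤ (‖f τ‖ * ‖f τ‖ + ‖g τ‖ * ‖g τ‖) / 2 := by
    nlinarith [sq_nonneg (‖f τ‖ - ‖g τ‖)]
  calc ‖f τ‖ * ‖g τ‖ * τ.im ^ k ≤ (‖f τ‖ * ‖f τ‖ + ‖g τ‖ * ‖g τ‖) / 2 * τ.im ^ k :=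
        mul_le_mul_of_nonneg_right h3 h
    _ = (‖f τ‖ * ‖f τ‖ * τ.im ^ k + ‖g τ‖ * ‖g τ‖ * τ.im ^ k) / 2 := by ring
    _ ≤ (C + C') / 2 := by linarith

lemma PetBdd.slash {f : ℍ → ℂ} (hf : PetBdd k f) (g : GL (Fin 2) ℝ) : PetBdd k (f ∣[k] g) := by
  obtain ⟨C, hC⟩ := hf
  refine ⟨‖((|g.det.val| : ℝ) : ℂ) ^ (k - 2)‖ * C, fun τ => ?_⟩
  rw [petersson_slash, norm_mul, norm_σ]
  exact mul_le_mul_of_nonneg_left (hC _) (norm_nonneg _)

lemma PetBdd.of_cuspForm {N : ℕ} [NeZero N] (f : CuspForm (Gamma0 N) k) : PetBdd k f :=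
  CuspFormClass.petersson_bounded_left k _ f f

end pointwise

section meanLin

variable {F : Set ℍ}

lemma mean_add {Φ Ψ : ℍ → ℂ} (hΦ : IntegrableOn Φ F volume) (hΨ : IntegrableOn Ψ F volume) :
    mean F (Φ + Ψ) = mean F Φ + mean F Ψ := by
  unfold mean
  have : ∫ z in F, (Φ + Ψ) z = (∫ z in F, Φ z) + ∫ z in F, Ψ z := integral_add hΦ hΨ
  rw [this, add_div]

lemma mean_sum {ι : Type*} (s : Finset ι) {Φ : ι → ℍ → ℂ}
    (hΦ : ∀ j ∈ s, IntegrableOn (Φ j) F volume) :
    mean F (∑ j ∈ s, Φ j) = ∑ j ∈ s, mean F (Φ j) := by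
  unfold mean
  have : ∫ z in F, (∑ j ∈ s, Φ j) z = ∑ j ∈ s, ∫ z in F, Φ j z := by
    simp only [Finset.sum_apply]
    exact integral_finsetSum s hΦ
  rw [this, Finset.sum_div]

lemma mean_congr {Φ Ψ : ℍ → ℂ} (h : ∀ z, Φ z = Ψ z) : mean F Φ = mean F Ψ := by
  have : Φ = Ψ := funext h
  rw [this]

lemma integrableOn_of_bdd_cont (hF : volume F < ⊤) {Φ : ℍ → ℂ} (hc : Continuous Φ)
    (hb : ∃ C, ∀ τ, ‖Φ τ‖ ≤ C) : IntegrableOn Φ F volume := by
  obtain ⟨C, hC⟩ := hb
  exact Measure.integrableOn_of_bounded hF.ne hc.aestronglyMeasurable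
    (Filter.Eventually.of_forall hC)

end meanLin

end Fermat.Agent.R.Pet

end
-- ==== END Fermat.Agent.R.Pet.H58_PetA

-- ==== BEGIN Fermat.Agent.R.Pet.H58_Pos
section

/-!
# Pet, step POS (helper58): a continuous nonnegative invariant function whose integral over a
fundamental domain vanishes is identically zero.
-/

set_option autoImplicit false

namespace Fermat.Agent.R.Pet

open UpperHalfPlane MeasureTheory
open scoped NNReal ENNReal Pointwise

/-- **POS**. -/
theorem stmt_pos : Stmt_pos := by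
  intro 𝒢 h𝒢 F hF Φ hcont hnn hinv hint h0
  have := h𝒢
  -- the integrand vanishes a.e. on `F`
  have hae : Φ =ᵐ[volume.restrict F] 0 :=
    (setIntegral_eq_zero_iff_of_nonneg_ae (Filter.Eventually.of_forall hnn) hint).mp h0
  set Z : Set ℍ := {z | Φ z ≠ 0} with hZ
  have hZopen : IsOpen Z := isOpen_ne_fun hcont continuous_const
  have hZF : volume (Z ∩ F) = 0 := by
    have h1 : volume.restrict F Z = 0 := by
      have := ae_iff.mp hae
      simpa [hZ] using this
    rwa [Measure.restrict_apply hZopen.measurableSet] at h1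
  have hZinv : ∀ g : 𝒢, g • Z = Z := by
    intro g
    ext z
    rw [Set.mem_smul_set_iff_inv_smul_mem]
    simp only [hZ, Set.mem_ofPred_eq]
    have : Φ (g⁻¹ • z) = Φ z := hinv (g⁻¹ : 𝒢) (g⁻¹).2 z
    rw [this]
  have hZ0 : volume Z = 0 := hF.fd.measure_zero_of_invariant Z hZinv hZF
  intro z
  by_contra hz
  have hne : Z.Nonempty := ⟨z, hz⟩
  have := stmt_open_pos Z hZopen hne
  rw [hZ0] at this
  exact lt_irrefl _ this

end Fermat.Agent.R.Pet

end
-- ==== END Fermat.Agent.R.Pet.H58_Pos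

-- ==== BEGIN Fermat.Agent.R.Pet.H98_FD1
section

/-!
# Pet (cluster R, leaf L3a): package FD1 in conditional form (helper98)

`stmt_exists_fd_of : Stmt_fd_boundary_null → Stmt_fd_volume_lt_top → Stmt_exists_fd`:
for `Γ ≤ SL(2, ℤ)` of finite index with `-1 ∉ Γ`, the set
`fdOf Γ = ⋃ c : SL(2, ℤ) ⧸ (Γ ∪ -Γ), c.out⁻¹ • 𝒟` is a fundamental domain of finite volume
of the image of `Γ` in `GL₂(ℝ)`.
-/


set_option autoImplicit false

namespace Fermat.Agent.R.Pet.H98

open MeasureTheory Set UpperHalfPlane MatrixGroups Matrix.SpecialLinearGroup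
open scoped Pointwise ENNReal Modular

/-- `Γ ∪ -Γ`. -/
def pmSubgroup (Γ : Subgroup SL(2, ℤ)) : Subgroup SL(2, ℤ) where
  carrier := {g | g ∈ Γ ∨ -g ∈ Γ}
  one_mem' := Or.inl Γ.one_mem
  mul_mem' := by
    rintro a b (ha | ha) (hb | hb)
    · exact Or.inl (Γ.mul_mem ha hb)
    · refine Or.inr ?_
      have := Γ.mul_mem ha hb
      rwa [mul_neg] at this
    · refine Or.inr ?_
      have := Γ.mul_mem ha hb
      rwa [neg_mul] at this
    · refine Or.inl ?_
      have := Γ.mul_mem ha hb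
      rwa [neg_mul_neg] at this
  inv_mem' := by
    rintro a (ha | ha)
    · exact Or.inl (Γ.inv_mem ha)
    · refine Or.inr ?_
      have := Γ.inv_mem ha
      rwa [inv_neg] at this

theorem mem_pmSubgroup {Γ : Subgroup SL(2, ℤ)} {g : SL(2, ℤ)} :
    g ∈ pmSubgroup Γ ↔ g ∈ Γ ∨ -g ∈ Γ := Iff.rfl

theorem le_pmSubgroup (Γ : Subgroup SL(2, ℤ)) : Γ ≤ pmSubgroup Γ := fun _ h => Or.inl h

/-- The fundamental domain of `Γ`: a union of translates of `𝒟`. -/
def fdOf (Γ : Subgroup SL(2, ℤ)) : Set ℍ :=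
  ⋃ c : SL(2, ℤ) ⧸ pmSubgroup Γ, ((Quotient.out c)⁻¹ : SL(2, ℤ)) • (𝒟 : Set ℍ)

theorem sl_smul_set (g : SL(2, ℤ)) (s : Set ℍ) : g • s = (mapGL ℝ g) • s := rfl

theorem measure_sl_smul (g : SL(2, ℤ)) (s : Set ℍ) : volume (g • s) = volume s := by
  rw [sl_smul_set, measure_smul]

theorem measurableSet_fd : MeasurableSet (𝒟 : Set ℍ) := ModularGroup.isClosed_fd.measurableSet

theorem measurableSet_sl_smul (g : SL(2, ℤ)) {s : Set ℍ} (hs : MeasurableSet s) :
    MeasurableSet (g • s) := by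
  rw [sl_smul_set]
  exact hs.const_smul _

theorem ne_neg_of_not_mem {Γ : Subgroup SL(2, ℤ)} (hΓ : (-1 : SL(2, ℤ)) ∉ Γ)
    {h₁ h₂ : SL(2, ℤ)} (h1 : h₁ ∈ Γ) (h2 : h₂ ∈ Γ) : h₁ ≠ -h₂ := by
  intro h
  apply hΓ
  have := Γ.mul_mem h1 (Γ.inv_mem h2)
  rwa [h, neg_mul, mul_inv_cancel] at this

/-- Two translates of `𝒟` by elements which differ not only by sign meet in a null set. -/
theorem measure_smul_fd_inter_smul_fd (hA : Stmt_fd_boundary_null) {a b : SL(2, ℤ)}
    (h1 : a ≠ b) (h2 : a ≠ -b) : volume ((a • (𝒟 : Set ℍ)) ∩ (b • (𝒟 : Set ℍ))) = 0 := by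
  have hsub : (a • (𝒟 : Set ℍ)) ∩ (b • (𝒟 : Set ℍ)) ⊆ a • ((𝒟 : Set ℍ) \ 𝒟ᵒ) := by
    rintro z ⟨⟨w, hw, rfl⟩, ⟨w', hw', hww'⟩⟩
    refine ⟨w, ⟨hw, fun hwo => ?_⟩, rfl⟩
    have hw'' : (b⁻¹ * a) • w ∈ 𝒟 := by
      have : (b⁻¹ * a) • w = w' := by
        rw [mul_smul, inv_smul_eq_iff]
        exact hww'.symm
      rw [this]; exact hw'
    rcases ModularGroup.eq_one_or_neg_one_of_mem_fdo_mem_fd hwo hw'' with h | h
    · apply h1
      have := congrArg (fun g => b * g) h
      simpa using this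
    · apply h2
      have := congrArg (fun g => b * g) h
      simpa using this
  refine measure_mono_null hsub ?_
  rw [measure_sl_smul]
  exact hA

theorem isFD_fdOf (hA : Stmt_fd_boundary_null) (hB : Stmt_fd_volume_lt_top)
    (Γ : Subgroup SL(2, ℤ)) [Γ.FiniteIndex] (hΓ : (-1 : SL(2, ℤ)) ∉ Γ) :
    IsFD (Γ.map (mapGL ℝ)) (fdOf Γ) := by
  have : (pmSubgroup Γ).FiniteIndex := Subgroup.finiteIndex_of_le (le_pmSubgroup Γ)
  have hfin : Finite (SL(2, ℤ) ⧸ pmSubgroup Γ) := Subgroup.finite_quotient_of_finiteIndex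
  refine ⟨⟨?_, ?_, ?_⟩, ?_⟩
  · refine MeasurableSet.nullMeasurableSet ?_
    exact MeasurableSet.iUnion fun c => measurableSet_sl_smul _ measurableSet_fd
  · refine Filter.Eventually.of_forall fun z => ?_
    obtain ⟨γ, hγ⟩ := ModularGroup.exists_smul_mem_fd z
    obtain ⟨h, hh⟩ := QuotientGroup.mk_out_eq_mul (pmSubgroup Γ) γ
    -- `h₀ = ± h ∈ Γ`
    obtain ⟨h₀, hh₀, hh₀'⟩ : ∃ h₀ ∈ Γ, ∀ w : ℍ, h₀ • w = (h : SL(2, ℤ)) • w := by
      rcases h.2 with h' | h'
      · exact ⟨h, h', fun _ => rfl⟩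
      · exact ⟨-h, h', fun w => ModularGroup.SL_neg_smul _ w⟩
    refine ⟨⟨mapGL ℝ h₀⁻¹, Subgroup.mem_map_of_mem _ (Γ.inv_mem hh₀)⟩, ?_⟩
    refine mem_iUnion.2 ⟨(γ : SL(2, ℤ) ⧸ pmSubgroup Γ), ?_⟩
    rw [mem_inv_smul_set_iff, hh]
    show (γ * (h : SL(2, ℤ))) • (h₀⁻¹ • z) ∈ 𝒟
    rw [mul_smul, ← hh₀', smul_inv_smul]
    exact hγ
  · intro g₁ g₂ hne
    obtain ⟨g₁, h₁, hh₁, rfl⟩ := g₁
    obtain ⟨g₂, h₂, hh₂, rfl⟩ := g₂
    have hne' : h₁ ≠ h₂ := fun h => hne (by subst h; rfl)
    show AEDisjoint volume ((mapGL ℝ h₁) • fdOf Γ) ((mapGL ℝ h₂) • fdOf Γ)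
    have e : ∀ h : SL(2, ℤ), (mapGL ℝ h) • fdOf Γ
        = ⋃ c : SL(2, ℤ) ⧸ pmSubgroup Γ, (h * (Quotient.out c)⁻¹) • (𝒟 : Set ℍ) := by
      intro h
      rw [← sl_smul_set, fdOf, smul_set_iUnion]
      refine iUnion_congr fun c => ?_
      rw [mul_smul]
    rw [e, e]
    refine AEDisjoint.iUnion_left_iff.2 fun c₁ => AEDisjoint.iUnion_right_iff.2 fun c₂ => ?_
    refine measure_smul_fd_inter_smul_fd hA ?_ ?_
    · intro h
      have := out_inv_injective (pmSubgroup Γ) (h₁ := ⟨h₁, Or.inl hh₁⟩) (h₂ := ⟨h₂, Or.inl hh₂⟩)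
        (c₁ := c₁) (c₂ := c₂) h
      exact hne' (congrArg Subtype.val this.1)
    · intro h
      have h' : h₁ * (Quotient.out c₁)⁻¹ = (-h₂) * (Quotient.out c₂)⁻¹ := by
        rw [h, neg_mul]
      have := out_inv_injective (pmSubgroup Γ) (h₁ := ⟨h₁, Or.inl hh₁⟩)
        (h₂ := ⟨-h₂, Or.inr (by simpa using hh₂)⟩) (c₁ := c₁) (c₂ := c₂) h'
      exact ne_neg_of_not_mem hΓ hh₁ hh₂ (congrArg Subtype.val this.1)
  · have : Fintype (SL(2, ℤ) ⧸ pmSubgroup Γ) := Fintype.ofFinite _
    refine lt_of_le_of_lt (measure_iUnion_le _) ?_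
    rw [tsum_fintype]
    refine ENNReal.sum_lt_top.2 fun c _ => ?_
    rw [measure_sl_smul]
    exact hB

theorem stmt_exists_fd_of (hA : Stmt_fd_boundary_null) (hB : Stmt_fd_volume_lt_top) :
    Stmt_exists_fd := by
  intro Γ _ hΓ
  exact ⟨fdOf Γ, isFD_fdOf hA hB Γ hΓ⟩

end Fermat.Agent.R.Pet.H98

end
-- ==== END Fermat.Agent.R.Pet.H98_FD1

-- ==== BEGIN Fermat.Agent.RED.ES.H95_Twist
section

/-!
# G-RED, package ES (helper95): the twist `∑ cₙ Xⁿ ↦ ∑ cₙ zⁿ Xⁿ` as a ring homomorphism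
-/

set_option autoImplicit false

noncomputable section

namespace Fermat.Agent.RED.H95

open Fermat.Agent.S24 ModularCurve

variable {F : Type*} [Field F]

theorem twist_support (z : F) (hz : z ≠ 0) (c : LaurentSeries F) :
    (twist z c).support = c.support := by
  ext n
  rw [HahnSeries.mem_support, HahnSeries.mem_support, twist_coeff]
  exact ⟨fun h hc => h (by rw [hc, mul_zero]), fun h => mul_ne_zero (zpow_ne_zero n hz) h⟩

theorem twist_zero (z : F) : twist z (0 : LaurentSeries F) = 0 := by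
  ext n
  rw [twist_coeff, HahnSeries.coeff_zero, mul_zero]

theorem twist_add (z : F) (x y : LaurentSeries F) : twist z (x + y) = twist z x + twist z y := by
  ext n
  rw [twist_coeff, HahnSeries.coeff_add, HahnSeries.coeff_add, twist_coeff, twist_coeff, mul_add]

theorem twist_single (z : F) (k : ℤ) (a : F) :
    twist z (HahnSeries.single k a) = HahnSeries.single k (z ^ k * a) := by
  ext n
  rw [twist_coeff]
  by_cases h : n = k
  · subst h
    rw [HahnSeries.coeff_single_same, HahnSeries.coeff_single_same]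
  · rw [HahnSeries.coeff_single_of_ne h, HahnSeries.coeff_single_of_ne h, mul_zero]

theorem twist_one (z : F) : twist z (1 : LaurentSeries F) = 1 := by
  have h : (1 : LaurentSeries F) = HahnSeries.single 0 1 := rfl
  rw [h, twist_single, zpow_zero, one_mul]

theorem twist_mul (z : F) (hz : z ≠ 0) (x y : LaurentSeries F) :
    twist z (x * y) = twist z x * twist z y := by
  ext n
  rw [twist_coeff, HahnSeries.coeff_mul, HahnSeries.coeff_mul, Finset.mul_sum]
  have hset : Finset.antidiagonal (twist z x).isPWO_support (twist z y).isPWO_support n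
      = Finset.antidiagonal x.isPWO_support y.isPWO_support n := by
    ext ij
    rw [Finset.mem_antidiagonal, Finset.mem_antidiagonal, twist_support z hz,
      twist_support z hz]
  rw [hset]
  refine Finset.sum_congr rfl fun ij hij => ?_
  rw [Finset.mem_antidiagonal] at hij
  rw [twist_coeff, twist_coeff, ← hij.2.2, zpow_add₀ hz]
  ring

/-- The twist by a nonzero scalar, as a ring homomorphism. -/
def twistHom (z : F) (hz : z ≠ 0) : LaurentSeries F →+* LaurentSeries F where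
  toFun := twist z
  map_one' := twist_one z
  map_mul' := twist_mul z hz
  map_zero' := twist_zero z
  map_add' := twist_add z

@[simp] theorem twistHom_apply (z : F) (hz : z ≠ 0) (c : LaurentSeries F) :
    twistHom z hz c = twist z c := rfl

theorem twist_twist (z w : F) (c : LaurentSeries F) : twist z (twist w c) = twist (z * w) c := by
  ext n
  rw [twist_coeff, twist_coeff, twist_coeff, mul_zpow, mul_assoc]

theorem twist_one_left (c : LaurentSeries F) : twist (1 : F) c = c := by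
  ext n
  rw [twist_coeff, one_zpow, one_mul]

theorem twist_injective (z : F) (hz : z ≠ 0) : Function.Injective (twist z) := by
  intro x y h
  have := congrArg (twist z⁻¹) h
  rwa [twist_twist, twist_twist, inv_mul_cancel₀ hz, twist_one_left, twist_one_left] at this

theorem twist_C (z : F) (a : F) : twist z (HahnSeries.C a) = HahnSeries.C a := by
  show twist z (HahnSeries.single 0 a) = HahnSeries.single 0 a
  rw [twist_single, zpow_zero, one_mul]

/-- Substituting `X ↦ X ^ N` after twisting by `w ^ N` is twisting by `w` after substituting. -/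
theorem qExpand_twist (N : ℕ) [NeZero N] (w : F) (c : LaurentSeries F) :
    qExpand F N (twist (w ^ N) c) = twist w (qExpand F N c) := by
  ext m
  rw [twist_coeff]
  by_cases hm : (N : ℤ) ∣ m
  · obtain ⟨k, rfl⟩ := hm
    rw [qExpand_coeff_mul, qExpand_coeff_mul, twist_coeff, ← zpow_natCast, ← zpow_mul]
  · rw [qExpand_coeff_of_not_dvd _ _ hm, qExpand_coeff_of_not_dvd _ _ hm, mul_zero]

end Fermat.Agent.RED.H95

end
end
-- ==== END Fermat.Agent.RED.ES.H95_Twist

-- ==== BEGIN Fermat.Agent.RED.H10_ConsRoots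
section

/-!
# G-RED package CONS (helper10): counting roots modulo the maximal ideal

`O` a valuation ring of an algebraically closed field, `res : O → k` the residue map,
`D ∈ O[X]` with nonzero reduction.  Then the roots of the reduction are the reductions of the
roots of `D` in `O`, as multisets:  `(D.map res).roots = D.roots.map res`.
-/

set_option autoImplicit false

noncomputable section

open Polynomial

namespace Fermat.Agent.RED.H10

variable {Cf k : Type} [Field Cf] [IsAlgClosed Cf] [Field k] (O : ValuationSubring Cf)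
variable (res : ↥O →+* k)

theorem roots_map_res_aux (hker : ∀ a : ↥O, res a = 0 ↔ ¬ IsUnit a) :
    ∀ (n : ℕ) (D : Polynomial ↥O), D.natDegree = n → D.map res ≠ 0 →
      (D.map res).roots = D.roots.map res := by
  classical
  intro n
  induction n using Nat.strong_induction_on with
  | _ n ih =>
  intro D hn hD
  have hD0 : D ≠ 0 := fun h => hD (by rw [h, Polynomial.map_zero])
  by_cases hdeg : 0 < D.natDegree
  · rcases H82.exists_factor O D hdeg with ⟨r, D₁, hfac⟩ | ⟨s, D₁, hsnu, hs0, hfac⟩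
    · -- `D = (X - C r) * D₁`
      have hD₁0 : D₁ ≠ 0 := fun h => hD0 (by rw [hfac, h, mul_zero])
      have hD₁ : D₁.map res ≠ 0 := by
        intro h
        apply hD
        rw [hfac, Polynomial.map_mul, h, mul_zero]
      have hdeg₁ : D₁.natDegree < n := by
        rw [← hn, hfac, Polynomial.natDegree_mul (Polynomial.X_sub_C_ne_zero r) hD₁0,
          Polynomial.natDegree_X_sub_C]
        omega
      have ih₁ := ih D₁.natDegree hdeg₁ D₁ rfl hD₁
      have hmap : D.map res = (X - C (res r)) * D₁.map res := by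
        rw [hfac, Polynomial.map_mul, Polynomial.map_sub, Polynomial.map_X, Polynomial.map_C]
      have h1 : (D.map res).roots = (X - C (res r)).roots + (D₁.map res).roots := by
        rw [hmap]
        exact Polynomial.roots_mul (by rw [← hmap]; exact hD)
      have h2 : D.roots = (X - C r).roots + D₁.roots := by
        rw [hfac]
        exact Polynomial.roots_mul (by rw [← hfac]; exact hD0)
      rw [h1, h2, Polynomial.roots_X_sub_C, Polynomial.roots_X_sub_C, Multiset.map_add,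
        Multiset.map_singleton, ih₁]
    · -- `D = (1 - C s * X) * D₁`
      have hD₁0 : D₁ ≠ 0 := fun h => hD0 (by rw [hfac, h, mul_zero])
      have hres : res s = 0 := (hker s).2 hsnu
      have hmap : D.map res = D₁.map res := by
        rw [hfac, Polynomial.map_mul, Polynomial.map_sub, Polynomial.map_one, Polynomial.map_mul,
          Polynomial.map_C, Polynomial.map_X, hres, Polynomial.C_0, zero_mul, sub_zero, one_mul]
      have hD₁ : D₁.map res ≠ 0 := by rw [← hmap]; exact hD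
      have hlin0 : (1 - C s * X : Polynomial ↥O) ≠ 0 := fun h => hD0 (by rw [hfac, h, zero_mul])
      have hlindeg : (1 - C s * X : Polynomial ↥O).natDegree = 1 := by
        have h1 : (1 - C s * X : Polynomial ↥O) = C (-s) * X + C 1 := by
          rw [Polynomial.C_neg, Polynomial.C_1]
          ring
        rw [h1]
        exact Polynomial.natDegree_linear (neg_ne_zero.mpr hs0)
      have hdeg₁ : D₁.natDegree < n := by
        rw [← hn, hfac, Polynomial.natDegree_mul hlin0 hD₁0, hlindeg]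
        omega
      have ih₁ := ih D₁.natDegree hdeg₁ D₁ rfl hD₁
      have hnoroot : (1 - C s * X : Polynomial ↥O).roots = 0 := by
        apply Multiset.eq_zero_of_forall_notMem
        intro ρ hρ
        rw [Polynomial.mem_roots hlin0, Polynomial.IsRoot.def] at hρ
        simp only [Polynomial.eval_sub, Polynomial.eval_one, Polynomial.eval_mul,
          Polynomial.eval_C, Polynomial.eval_X] at hρ
        apply hsnu
        exact IsUnit.of_mul_eq_one ρ (sub_eq_zero.mp hρ).symm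
      have h2 : D.roots = (1 - C s * X : Polynomial ↥O).roots + D₁.roots := by
        rw [hfac]
        exact Polynomial.roots_mul (by rw [← hfac]; exact hD0)
      rw [hmap, h2, hnoroot, zero_add, ih₁]
  · -- constant polynomial
    have h0 : D.natDegree = 0 := by omega
    obtain ⟨c, hc⟩ := Polynomial.natDegree_eq_zero.mp h0
    rw [← hc, Polynomial.map_C, Polynomial.roots_C, Polynomial.roots_C, Multiset.map_zero]

/-- The roots of the reduction are the reductions of the roots in `O`. -/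
theorem roots_map_res (hker : ∀ a : ↥O, res a = 0 ↔ ¬ IsUnit a) (D : Polynomial ↥O)
    (hD : D.map res ≠ 0) : (D.map res).roots = D.roots.map res :=
  roots_map_res_aux O res hker D.natDegree D rfl hD

/-- Counting form: the multiplicity of `γ` in the reduction is the sum of the multiplicities of
the roots of `D` in `O` reducing to `γ`. -/
theorem rootMultiplicity_map_res (hker : ∀ a : ↥O, res a = 0 ↔ ¬ IsUnit a) (D : Polynomial ↥O)
    (hD : D.map res ≠ 0) (γ : k) [DecidableEq ↥O] [DecidablePred fun ρ : ↥O => res ρ = γ] :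
    ((D.map res).rootMultiplicity γ : ℤ) =
      ∑ ρ ∈ D.roots.toFinset.filter (fun ρ => res ρ = γ), (D.rootMultiplicity ρ : ℤ) := by
  classical
  rw [← Polynomial.count_roots, roots_map_res O res hker D hD, Multiset.count_map]
  have h1 : (Multiset.filter (fun a => γ = res a) D.roots).card =
      ∑ ρ ∈ D.roots.toFinset.filter (fun ρ => res ρ = γ), D.roots.count ρ := by
    rw [← Multiset.toFinset_sum_count_eq (Multiset.filter (fun a => γ = res a) D.roots)]
    have hsub : (Multiset.filter (fun a => γ = res a) D.roots).toFinset =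
        D.roots.toFinset.filter (fun ρ => res ρ = γ) := by
      ext ρ
      simp only [Multiset.mem_toFinset, Multiset.mem_filter, Finset.mem_filter]
      exact ⟨fun h => ⟨h.1, h.2.symm⟩, fun h => ⟨h.1, h.2.symm⟩⟩
    rw [hsub]
    refine Finset.sum_congr rfl fun ρ hρ => ?_
    rw [Finset.mem_filter] at hρ
    rw [Multiset.count_filter, if_pos hρ.2.symm]
  rw [h1]
  push_cast
  refine Finset.sum_congr rfl fun ρ _ => ?_
  rw [Polynomial.count_roots]

end Fermat.Agent.RED.H10

end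
end
-- ==== END Fermat.Agent.RED.H10_ConsRoots

-- ==== BEGIN Fermat.Agent.RED.H17_FF
section

/-!
# G-RED / TI route C (helper17), part 3: function field toolkit

`FFHyp K F`: the facts on a function field `F / K` used in route C (FF-B and FF-R);
`IsGenus K F g c`: Riemann's theorem with genus `g` and bound `c`.

* `FFHyp.const_of_regular`: a function without poles is constant;
* `FFHyp.infinite_place`: there are infinitely many places;
* `FFHyp.exists_nonspecial`: there are `g` distinct places `A` with `L (∑ A) = K`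
  (a non-special reduced effective divisor of degree `g`).
-/

set_option autoImplicit false
set_option linter.style.haveILetI false

noncomputable section

open AlgebraicCurve

attribute [local instance] Classical.propDecidable

namespace Fermat.Agent.RED.H17

variable {K F : Type*} [Field K] [Field F] [Algebra K F]

local notation "L" => riemannRochSpace

/-- The facts on the function field `F / K` used in route C. -/
structure FFHyp (K F : Type*) [Field K] [Field F] [Algebra K F] : Prop where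
  principal : HasPrincipalDivisors K F
  deg_one : ∀ v : Place K F, v.deg = 1
  finite : ∀ D : Divisor K F, Module.Finite K (L D)
  le : ∀ D : Divisor K F, 0 ≤ Divisor.degree D →
    (Module.finrank K (L D) : ℤ) ≤ Divisor.degree D + 1
  transc : ∃ x : F, Transcendental K x

/-- Riemann's theorem with genus `g`, equality from degree `c` on. -/
def IsGenus (K F : Type*) [Field K] [Field F] [Algebra K F] (g : ℕ) (c : ℤ) : Prop :=
  ∀ D : Divisor K F,
    Divisor.degree D + 1 - g ≤ (Module.finrank K (L D) : ℤ) ∧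
    (c ≤ Divisor.degree D → (Module.finrank K (L D) : ℤ) = Divisor.degree D + 1 - g)

theorem mem_L_iff_ord {D : Divisor K F} {f : F} :
    f ∈ L D ↔ ∀ v : Place K F, f = 0 ∨ -D v ≤ v.ord f :=
  mem_riemannRochSpace_iff

theorem ord_ge_of_mem_L {D : Divisor K F} {f : F} (hf : f ∈ L D) (hf0 : f ≠ 0)
    (v : Place K F) : -D v ≤ v.ord f :=
  ((mem_L_iff_ord.mp hf) v).resolve_left hf0

theorem one_mem_L_of_nonneg {D : Divisor K F} (hD : ∀ v, 0 ≤ D v) : (1 : F) ∈ L D := by
  rw [mem_L_iff_ord]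
  intro v
  right
  rw [Place.ord_one]
  have := hD v
  omega

theorem L_mono' {D D' : Divisor K F} (h : ∀ v, D v ≤ D' v) : L D ≤ L D' := by
  intro f hf
  rw [mem_L_iff_ord] at hf ⊢
  intro v
  rcases hf v with h0 | h1
  · exact Or.inl h0
  · right
    have := h v
    omega

/-! ### Sums of points -/

/-- The divisor `∑_{v ∈ A} v`. -/
def ptsDiv (A : Finset (Place K F)) : Divisor K F := ∑ v ∈ A, Finsupp.single v 1

theorem ptsDiv_apply (A : Finset (Place K F)) (v : Place K F) :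
    ptsDiv A v = if v ∈ A then 1 else 0 := by
  unfold ptsDiv
  rw [Finsupp.finsetSum_apply]
  simp only [Finsupp.single_apply]
  rw [Finset.sum_ite_eq' A v]

theorem ptsDiv_nonneg (A : Finset (Place K F)) (v : Place K F) : 0 ≤ ptsDiv A v := by
  rw [ptsDiv_apply]
  split_ifs <;> omega

theorem ptsDiv_le_one (A : Finset (Place K F)) (v : Place K F) : ptsDiv A v ≤ 1 := by
  rw [ptsDiv_apply]
  split_ifs <;> omega

@[simp] theorem ptsDiv_empty : ptsDiv (∅ : Finset (Place K F)) = 0 := by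
  unfold ptsDiv
  rw [Finset.sum_empty]

theorem ptsDiv_insert {v : Place K F} {A : Finset (Place K F)} (h : v ∉ A) :
    ptsDiv (insert v A) = ptsDiv A + Finsupp.single v 1 := by
  unfold ptsDiv
  rw [Finset.sum_insert h, add_comm]

theorem degree_ptsDiv (hdeg : ∀ v : Place K F, v.deg = 1) (A : Finset (Place K F)) :
    Divisor.degree (ptsDiv A) = A.card := by
  unfold ptsDiv
  rw [map_sum]
  simp only [Divisor.degree_single, hdeg, Nat.cast_one, mul_one]
  rw [Finset.sum_const, nsmul_eq_mul, mul_one]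

/-- The degree is the sum of the coefficients. -/
theorem degree_eq_sum (hdeg : ∀ v : Place K F, v.deg = 1) (D : Divisor K F) :
    Divisor.degree D = D.sum fun _ n => n := by
  induction D using Finsupp.induction with
  | zero => simp
  | single_add v n D hv hn ih =>
    rw [map_add, ih, Divisor.degree_single, hdeg, Nat.cast_one, mul_one,
      Finsupp.sum_add_index' (fun _ => rfl) (fun _ _ _ => rfl), Finsupp.sum_single_index rfl]

namespace FFHyp

variable (H : FFHyp K F)
include H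

/-- If `D ≥ 0` and `l(D) ≤ 1`, then `L(D)` consists of constants. -/
theorem const_of_mem_L {D : Divisor K F} (hD : ∀ v, 0 ≤ D v)
    (h1 : Module.finrank K (L D) ≤ 1) {f : F} (hf : f ∈ L D) :
    ∃ c : K, f = algebraMap K F c := by
  haveI := H.finite D
  have hle : Submodule.span K {(1 : F)} ≤ L D := by
    rw [Submodule.span_le, Set.singleton_subset_iff]
    exact one_mem_L_of_nonneg hD
  have hfr : Module.finrank K (Submodule.span K {(1 : F)}) = 1 :=
    finrank_span_singleton one_ne_zero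
  have heq : Submodule.span K {(1 : F)} = L D :=
    Submodule.eq_of_le_of_finrank_le hle (by rw [hfr]; exact h1)
  rw [← heq] at hf
  obtain ⟨c, hc⟩ := Submodule.mem_span_singleton.mp hf
  exact ⟨c, by rw [← hc, Algebra.algebraMap_eq_smul_one]⟩

theorem finrank_L_zero_le : Module.finrank K (L (0 : Divisor K F)) ≤ 1 := by
  have := H.le 0 (by rw [map_zero])
  rw [map_zero] at this
  omega

/-- A function without poles is constant. -/
theorem const_of_regular {f : F} (hf : ∀ v : Place K F, 0 ≤ v.ord f) :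
    ∃ c : K, f = algebraMap K F c := by
  refine H.const_of_mem_L (D := 0) (fun _ => le_rfl) H.finrank_L_zero_le ?_
  rw [mem_L_iff_ord]
  intro v
  right
  simpa using hf v

/-- A non-constant function has a zero. -/
theorem exists_zero {f : F} (hf : f ∉ Set.range (algebraMap K F)) :
    ∃ v : Place K F, 0 < v.ord f := by
  by_contra hcon
  push Not at hcon
  have h1 : ∀ v : Place K F, 0 ≤ v.ord f⁻¹ := by
    intro v
    rw [Place.ord_inv]
    have := hcon v
    omega
  obtain ⟨c, hc⟩ := H.const_of_regular h1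
  apply hf
  refine ⟨c⁻¹, ?_⟩
  rw [map_inv₀, ← hc, inv_inv]

/-- There are infinitely many places. -/
theorem infinite_place [Infinite K] : Infinite (Place K F) := by
  obtain ⟨x, hx⟩ := H.transc
  have hnr : ∀ a : K, x - algebraMap K F a ∉ Set.range (algebraMap K F) := by
    rintro a ⟨b, hb⟩
    apply hx
    have : x = algebraMap K F (b + a) := by
      rw [map_add, hb]; ring
    rw [this]
    exact isAlgebraic_algebraMap _
  have hex : ∀ a : K, ∃ v : Place K F, 0 < v.ord (x - algebraMap K F a) := fun a =>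
    H.exists_zero (hnr a)
  choose P hP using hex
  have hinj : Function.Injective P := by
    intro a b hab
    have ha := vanAt_of_ord_pos (hP a)
    have hb := vanAt_of_ord_pos (hP b)
    rw [hab] at ha
    exact value_unique (P b) ha hb
  exact Infinite.of_injective P hinj

theorem exists_notMem [Infinite K] (T : Finset (Place K F)) : ∃ v : Place K F, v ∉ T := by
  haveI := H.infinite_place
  exact Infinite.exists_notMem_finset T

/-- One more point: `l(D + v) ≤ l(D) + 1`. -/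
theorem finrank_add_single_le (D : Divisor K F) (v : Place K F) :
    Module.finrank K (L (D + Finsupp.single v 1)) ≤ Module.finrank K (L D) + 1 :=
  (H42.step_finrank v (H.deg_one v) D (H.finite D)).2

/-- Adding `N` "bad" points raises the dimension by `N`. -/
theorem finrank_add_ptsDiv_ge (D : Divisor K F) (B : Finset (Place K F))
    (hB : ∀ v ∈ B, ¬ (L (D + Finsupp.single v 1) ≤ L D)) :
    Module.finrank K (L D) + B.card ≤ Module.finrank K (L (D + ptsDiv B)) := by
  induction B using Finset.induction_on with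
  | empty => rw [ptsDiv_empty, add_zero, Finset.card_empty, add_zero]
  | insert v B hv ih =>
    have ih' := ih fun w hw => hB w (Finset.mem_insert_of_mem hw)
    have hbad := hB v (Finset.mem_insert_self v B)
    rw [Finset.card_insert_of_notMem hv, ptsDiv_insert hv]
    have hle : L (D + ptsDiv B) ≤ L (D + (ptsDiv B + Finsupp.single v 1)) := by
      apply L_mono'
      intro w
      simp only [Finsupp.add_apply, Finsupp.single_apply]
      split_ifs <;> omega
    have hne : L (D + ptsDiv B) ≠ L (D + (ptsDiv B + Finsupp.single v 1)) := by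
      intro heq
      apply hbad
      intro f hf
      have h1 : f ∈ L (D + (ptsDiv B + Finsupp.single v 1)) := by
        refine L_mono' ?_ hf
        intro w
        have := ptsDiv_nonneg B w
        simp only [Finsupp.add_apply]
        omega
      rw [← heq] at h1
      by_cases hf0 : f = 0
      · rw [hf0]; exact (L D).zero_mem
      rw [mem_L_iff_ord]
      intro w
      right
      by_cases hwv : w = v
      · subst hwv
        have h3 := ord_ge_of_mem_L h1 hf0 w
        simp only [Finsupp.add_apply, ptsDiv_apply, if_neg hv] at h3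
        omega
      · have h2 := ord_ge_of_mem_L hf hf0 w
        simp only [Finsupp.add_apply, Finsupp.single_apply, if_neg (Ne.symm hwv)] at h2
        omega
    haveI := H.finite (D + (ptsDiv B + Finsupp.single v 1))
    have hlt := Submodule.finrank_lt_finrank_of_lt (lt_of_le_of_ne hle hne)
    omega

/-- **A non-special divisor**: there are `g` distinct places `A` with `L (∑ A) = K`. -/
theorem exists_nonspecial [Infinite K] {g : ℕ} {c : ℤ} (hR : IsGenus K F g c) :
    ∃ A : Finset (Place K F), A.card = g ∧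
      ∀ f ∈ L (ptsDiv A), ∃ a : K, f = algebraMap K F a := by
  have key : ∀ j : ℕ, j ≤ g → ∃ A : Finset (Place K F), A.card = j ∧
      Module.finrank K (L (ptsDiv A)) ≤ 1 := by
    intro j
    induction j with
    | zero =>
      intro _
      exact ⟨∅, rfl, by rw [ptsDiv_empty]; exact H.finrank_L_zero_le⟩
    | succ j ih =>
      intro hj
      obtain ⟨A, hA, hl⟩ := ih (by omega)
      -- search for a good point
      have search : ∀ N : ℕ, (∃ v, v ∉ A ∧
            Module.finrank K (L (ptsDiv A + Finsupp.single v 1)) ≤ 1) ∨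
          ∃ B : Finset (Place K F), B.card = N ∧
            ∀ v ∈ B, ¬ (L (ptsDiv A + Finsupp.single v 1) ≤ L (ptsDiv A)) := by
        intro N
        induction N with
        | zero => exact Or.inr ⟨∅, rfl, fun v hv => absurd hv (Finset.notMem_empty v)⟩
        | succ N ihN =>
          rcases ihN with h | ⟨B, hB, hbad⟩
          · exact Or.inl h
          obtain ⟨v, hv⟩ := H.exists_notMem (A ∪ B)
          rw [Finset.mem_union, not_or] at hv
          by_cases hgood : L (ptsDiv A + Finsupp.single v 1) ≤ L (ptsDiv A)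
          · left
            refine ⟨v, hv.1, ?_⟩
            haveI := H.finite (ptsDiv A)
            exact (Submodule.finrank_mono hgood).trans hl
          · right
            refine ⟨insert v B, by rw [Finset.card_insert_of_notMem hv.2, hB], ?_⟩
            intro w hw
            rcases Finset.mem_insert.mp hw with rfl | hw
            · exact hgood
            · exact hbad w hw
      rcases search (c - j).toNat with ⟨v, hv, hl'⟩ | ⟨B, hB, hbad⟩
      · exact ⟨insert v A, by rw [Finset.card_insert_of_notMem hv, hA],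
          by rw [ptsDiv_insert hv]; exact hl'⟩
      · exfalso
        have h1 := H.finrank_add_ptsDiv_ge (ptsDiv A) B hbad
        have hdeg : Divisor.degree (ptsDiv A + ptsDiv B) = j + (c - j).toNat := by
          rw [map_add, degree_ptsDiv H.deg_one, degree_ptsDiv H.deg_one, hA, hB]
        have h2 := (hR (ptsDiv A + ptsDiv B)).2 (by rw [hdeg]; omega)
        rw [hdeg] at h2
        have h3 : 1 ≤ Module.finrank K (L (ptsDiv A)) := by
          haveI := H.finite (ptsDiv A)
          rw [Nat.one_le_iff_ne_zero, Ne, Submodule.finrank_eq_zero]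
          intro hbot
          have := one_mem_L_of_nonneg (ptsDiv_nonneg A)
          rw [hbot, Submodule.mem_bot] at this
          exact one_ne_zero this
        rw [hB] at h1
        omega
  obtain ⟨A, hA, hl⟩ := key g le_rfl
  exact ⟨A, hA, fun f hf => H.const_of_mem_L (ptsDiv_nonneg A) hl hf⟩

end FFHyp

end Fermat.Agent.RED.H17

end
end
-- ==== END Fermat.Agent.RED.H17_FF

-- ==== BEGIN Fermat.Agent.RED.H34_Adjoin
section

/-!
# G-RED package IG (helper34): the ring `C[x]` for a transcendental `x`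

`x : F` transcendental over the field `C`.  `C[x] = Algebra.adjoin C {x}` is a PID, isomorphic to
the polynomial ring; evaluation at `ρ`; primes are associated to `x - ρ` if `C` is algebraically
closed.
-/

set_option autoImplicit false

noncomputable section

open Polynomial IntermediateField

namespace Fermat.Agent.RED.H34

variable {C F : Type} [Field C] [Field F] [Algebra C F] {x : F}

/-- `C[X] ≃ C[x]`. -/
abbrev polyEquiv (hx : Transcendental C x) : C[X] ≃ₐ[C] ↥(Algebra.adjoin C {x}) :=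
  Polynomial.algEquivOfTranscendental C x hx

theorem polyEquiv_X (hx : Transcendental C x) : polyEquiv hx Polynomial.X = genX x := by
  simp [polyEquiv, genX]

theorem polyEquiv_C (hx : Transcendental C x) (c : C) :
    polyEquiv hx (Polynomial.C c) = algebraMap C _ c := by
  simp [polyEquiv]

theorem polyEquiv_X_sub_C (hx : Transcendental C x) (ρ : C) :
    polyEquiv hx (Polynomial.X - Polynomial.C ρ) = piRho x ρ := by
  rw [map_sub, polyEquiv_X, polyEquiv_C, piRho_eq]

theorem coe_polyEquiv (hx : Transcendental C x) (p : C[X]) :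
    ((polyEquiv hx p : ↥(Algebra.adjoin C {x})) : F) = Polynomial.aeval x p := by
  have : (polyEquiv hx p : ↥(Algebra.adjoin C {x})) = Polynomial.aeval (genX x) p := rfl
  rw [this, ← Subalgebra.coe_val, ← Polynomial.aeval_algHom_apply]
  rfl

theorem isPrincipalIdealRing_adjoin (hx : Transcendental C x) :
    IsPrincipalIdealRing ↥(Algebra.adjoin C {x}) :=
  IsPrincipalIdealRing.of_surjective (polyEquiv hx).toRingEquiv.toRingHom
    (polyEquiv hx).surjective

/-- Evaluation at `ρ`. -/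
def evAt (hx : Transcendental C x) (ρ : C) : ↥(Algebra.adjoin C {x}) →+* C :=
  (Polynomial.evalRingHom ρ).comp (polyEquiv hx).symm.toRingEquiv.toRingHom

theorem evAt_polyEquiv (hx : Transcendental C x) (ρ : C) (p : C[X]) :
    evAt hx ρ (polyEquiv hx p) = p.eval ρ := by
  simp [evAt]

theorem pow_dvd_polyEquiv_iff (hx : Transcendental C x) (ρ : C) (m : ℕ) (p : C[X]) :
    piRho x ρ ^ m ∣ polyEquiv hx p ↔ (Polynomial.X - Polynomial.C ρ) ^ m ∣ p := by
  rw [← polyEquiv_X_sub_C hx, ← map_pow]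
  exact map_dvd_iff (polyEquiv hx)

theorem dvd_polyEquiv_iff (hx : Transcendental C x) (ρ : C) (p : C[X]) :
    piRho x ρ ∣ polyEquiv hx p ↔ p.IsRoot ρ := by
  have := pow_dvd_polyEquiv_iff hx ρ 1 p
  rw [pow_one, pow_one] at this
  rw [this, Polynomial.dvd_iff_isRoot]

theorem evAt_eq_zero_iff (hx : Transcendental C x) (ρ : C) (r : ↥(Algebra.adjoin C {x})) :
    evAt hx ρ r = 0 ↔ piRho x ρ ∣ r := by
  obtain ⟨p, rfl⟩ := (polyEquiv hx).surjective r
  rw [evAt_polyEquiv, dvd_polyEquiv_iff]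
  rfl

theorem prime_piRho (hx : Transcendental C x) (ρ : C) : Prime (piRho x ρ) := by
  rw [← polyEquiv_X_sub_C hx]
  exact (MulEquiv.prime_iff (polyEquiv hx).toMulEquiv).2 (Polynomial.prime_X_sub_C ρ)

/-- Primes of `C[x]` are associated to `x - γ` (`C` algebraically closed). -/
theorem exists_eq_of_prime [IsAlgClosed C] (hx : Transcendental C x)
    (π : ↥(Algebra.adjoin C {x})) (hπ : Prime π) :
    ∃ (γ : C) (a : C), a ≠ 0 ∧ π = algebraMap C _ a * piRho x γ := by
  obtain ⟨p, rfl⟩ := (polyEquiv hx).surjective π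
  have hp : Prime p := (MulEquiv.prime_iff (polyEquiv hx).toMulEquiv).1 hπ
  have hdeg : p.degree = 1 := IsAlgClosed.degree_eq_one_of_irreducible C hp.irreducible
  have hp2 := Polynomial.eq_X_add_C_of_degree_eq_one hdeg
  have ha : p.leadingCoeff ≠ 0 := Polynomial.leadingCoeff_ne_zero.2 hp.ne_zero
  refine ⟨-(p.coeff 0 / p.leadingCoeff), p.leadingCoeff, ha, ?_⟩
  rw [← polyEquiv_X_sub_C hx, ← polyEquiv_C hx, ← map_mul]
  congr 1
  conv_lhs => rw [hp2]
  rw [Polynomial.C_neg, sub_neg_eq_add, mul_add, ← Polynomial.C_mul, mul_div_cancel₀ _ ha]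

end Fermat.Agent.RED.H34

end
end
-- ==== END Fermat.Agent.RED.H34_Adjoin

-- ==== BEGIN Fermat.Agent.RED.H34_Ortho
section

/-!
# G-RED package IG (helper34): orthonormality of lifts

`S : RedSetting C F k Ft`, `x ∈ V` with transcendental reduction `xt`.  If `b i ∈ V` and the
reductions of the `b i` are linearly independent over `k(xt)`, then for `a i ∈ C(x)`:
`v (a i) ≤ v (∑ a j • b j)` for all `i` (`v` the valuation of `V`).
-/

set_option autoImplicit false

noncomputable section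

open Polynomial IntermediateField

namespace Fermat.Agent.RED.H34

variable {C F k Ft : Type} [Field C] [Field F] [Algebra C F] [Field k] [Field Ft] [Algebra k Ft]

namespace RedSetting

variable {S : RedSetting C F k Ft} {x : F} (hx : x ∈ S.V)
variable {ι : Type} [Fintype ι] (b : ι → F) (hbV : ∀ i, b i ∈ S.V)

theorem mem_V_iff_val (f : F) : f ∈ S.V ↔ S.V.valuation f ≤ 1 :=
  (S.V.valuation_le_one_iff f).symm

theorem red_eq_zero_iff_val (f : ↥S.V) : S.red f = 0 ↔ S.V.valuation (f : F) < 1 := by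
  rw [S.red_eq_zero_iff, ← S.V.valuation_lt_one_iff, IsLocalRing.mem_maximalIdeal,
    mem_nonunits_iff]

/-- (ON0) a relation with coefficients in `V ∩ C(x)` reduces to a relation over `k(xt)`. -/
theorem red_coeff_eq_zero (hxt : Transcendental k (S.red ⟨x, hx⟩))
    (hlin : LinearIndependent ↥k⟮S.red ⟨x, hx⟩⟯ (fun i => S.red ⟨b i, hbV i⟩))
    (a : ι → ↥S.V) (ha : ∀ i, ((a i : ↥S.V) : F) ∈ C⟮x⟯)
    (h0 : S.red (∑ i, a i * ⟨b i, hbV i⟩) = 0) (i : ι) : S.red (a i) = 0 := by
  rw [map_sum] at h0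
  have h1 : ∑ j, (⟨S.red (a j), red_mem_adjoin hx hxt _ (ha j) (a j).2⟩ : ↥k⟮S.red ⟨x, hx⟩⟯) •
      S.red ⟨b j, hbV j⟩ = 0 := by
    rw [← h0]
    refine Finset.sum_congr rfl fun j _ => ?_
    rw [map_mul]
    rfl
  have := (Fintype.linearIndependent_iff.1 hlin) _ h1 i
  exact congrArg Subtype.val this

/-- (ON) orthonormality: the valuation of a combination dominates that of each coefficient. -/
theorem val_coeff_le (hxt : Transcendental k (S.red ⟨x, hx⟩))
    (hlin : LinearIndependent ↥k⟮S.red ⟨x, hx⟩⟯ (fun i => S.red ⟨b i, hbV i⟩))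
    (a : ι → ↥C⟮x⟯) (i : ι) :
    S.V.valuation ((a i : ↥C⟮x⟯) : F) ≤ S.V.valuation (∑ j, a j • b j) := by
  classical
  obtain ⟨i₀, -, hmax⟩ := Finset.exists_max_image (Finset.univ : Finset ι)
    (fun j => S.V.valuation ((a j : ↥C⟮x⟯) : F)) ⟨i, Finset.mem_univ i⟩
  refine (hmax i (Finset.mem_univ i)).trans ?_
  by_cases h0 : ((a i₀ : ↥C⟮x⟯) : F) = 0
  · rw [h0, map_zero]
    exact zero_le
  have hv0 : S.V.valuation ((a i₀ : ↥C⟮x⟯) : F) ≠ 0 := (Valuation.ne_zero_iff _).2 h0
  -- normalised coefficients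
  have haV : ∀ j, ((a j : ↥C⟮x⟯) : F) / ((a i₀ : ↥C⟮x⟯) : F) ∈ S.V := by
    intro j
    rw [mem_V_iff_val, map_div₀, div_le_one₀ (zero_lt_iff.2 hv0)]
    exact hmax j (Finset.mem_univ j)
  let a' : ι → ↥S.V := fun j => ⟨_, haV j⟩
  have ha' : ∀ j, ((a' j : ↥S.V) : F) ∈ C⟮x⟯ := fun j =>
    div_mem (a j).2 (a i₀).2
  have hsum : ((∑ j, a' j * ⟨b j, hbV j⟩ : ↥S.V) : F) =
      (∑ j, a j • b j) / ((a i₀ : ↥C⟮x⟯) : F) := by
    rw [Finset.sum_div, AddSubmonoidClass.coe_finsetSum]
    refine Finset.sum_congr rfl fun j _ => ?_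
    rw [IntermediateField.smul_def, smul_eq_mul]
    show ((a j : ↥C⟮x⟯) : F) / ((a i₀ : ↥C⟮x⟯) : F) * b j = _
    ring
  by_contra hlt
  rw [not_le] at hlt
  have hred : S.red (∑ j, a' j * ⟨b j, hbV j⟩) = 0 := by
    rw [red_eq_zero_iff_val, hsum, map_div₀, div_lt_one₀ (zero_lt_iff.2 hv0)]
    exact hlt
  have h1 := red_coeff_eq_zero hx b hbV hxt hlin a' ha' hred i₀
  have h2 : a' i₀ = 1 := by
    apply Subtype.ext
    simp only [a']
    exact div_self h0
  rw [h2, map_one] at h1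
  exact one_ne_zero h1

/-- The lifts are linearly independent over `C(x)`. -/
theorem linearIndependent_lift (hxt : Transcendental k (S.red ⟨x, hx⟩))
    (hlin : LinearIndependent ↥k⟮S.red ⟨x, hx⟩⟯ (fun i => S.red ⟨b i, hbV i⟩)) :
    LinearIndependent ↥C⟮x⟯ b := by
  rw [Fintype.linearIndependent_iff]
  intro a h0 i
  have := val_coeff_le hx b hbV hxt hlin a i
  rw [h0, map_zero] at this
  have h1 : S.V.valuation ((a i : ↥C⟮x⟯) : F) = 0 := le_antisymm this zero_le
  exact Subtype.ext ((Valuation.zero_iff _).1 h1)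

/-- Coefficients of an element of `V` lie in `V`. -/
theorem coeff_mem_V (hxt : Transcendental k (S.red ⟨x, hx⟩))
    (hlin : LinearIndependent ↥k⟮S.red ⟨x, hx⟩⟯ (fun i => S.red ⟨b i, hbV i⟩))
    (a : ι → ↥C⟮x⟯) (h : ∑ j, a j • b j ∈ S.V) (i : ι) : ((a i : ↥C⟮x⟯) : F) ∈ S.V := by
  rw [mem_V_iff_val] at h ⊢
  exact (val_coeff_le hx b hbV hxt hlin a i).trans h

end RedSetting

end Fermat.Agent.RED.H34

end
end
-- ==== END Fermat.Agent.RED.H34_Ortho

-- ==== BEGIN Fermat.Agent.RED.H51_Basic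
section

/-!
# FF-B (helper51): the three immediate statements

* `stmt_FFB_deg` : every place has degree one (helper72's `ff_deg_eq_one`);
* `stmt_FFB_finite` : a `K`-algebra hom between function fields is finite;
* `stmt_FFB_separate` : weak approximation for constants.
-/

set_option autoImplicit false
set_option linter.style.haveILetI false

noncomputable section

open AlgebraicCurve IntermediateField

namespace Fermat.Agent.RED.H51

/-- Every place of a function field over an algebraically closed field has degree one. -/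
theorem stmt_FFB_deg : Fermat.Agent.RED.Stmt_FFB_deg := by
  intro K F _ _ _ _ hFF v
  obtain ⟨x, hx, hfin⟩ := hFF
  haveI : FiniteDimensional K⟮x⟯ F := hfin
  exact Fermat.Agent.S24.ff_deg_eq_one x hx v

/-- `F'` is finite over `F` along a `K`-hom `φ`, if `F'` is finite over `K(φ x)`. -/
theorem finiteAlong_of_finite_adjoin {K F F' : Type*} [Field K] [Field F] [Field F'] [Algebra K F]
    [Algebra K F'] (φ : F →ₐ[K] F') (x : F) [FiniteDimensional K⟮φ x⟯ F'] :
    FiniteAlong K φ := by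
  letI := algebraAlong φ
  have hle : K⟮φ x⟯ ≤ φ.fieldRange := by
    rw [adjoin_simple_le_iff]
    exact ⟨x, rfl⟩
  let e : F ≃ₐ[K] φ.fieldRange := AlgEquiv.ofInjectiveField φ
  let ψ : K⟮φ x⟯ →+* F := (e.symm : φ.fieldRange →+* F).comp
    ((IntermediateField.inclusion hle : K⟮φ x⟯ →ₐ[K] φ.fieldRange) : K⟮φ x⟯ →+* φ.fieldRange)
  letI : Algebra K⟮φ x⟯ F := ψ.toAlgebra
  haveI : IsScalarTower K⟮φ x⟯ F F' := by
    refine IsScalarTower.of_algebraMap_eq fun c => ?_
    show (c : F') = φ (e.symm (IntermediateField.inclusion hle c))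
    have h1 : φ (e.symm (IntermediateField.inclusion hle c))
        = ((e (e.symm (IntermediateField.inclusion hle c)) : φ.fieldRange) : F') := rfl
    rw [h1, AlgEquiv.apply_symm_apply]
    rfl
  show Module.Finite F F'
  exact Module.Finite.of_restrictScalars_finite K⟮φ x⟯ F F'

/-- A `K`-algebra hom between function fields is finite. -/
theorem stmt_FFB_finite : Fermat.Agent.RED.Stmt_FFB_finite := by
  intro K F F' _ _ _ _ _ _ hFF hFF' φ
  obtain ⟨x, hx, -⟩ := hFF
  obtain ⟨x', hx', hfin'⟩ := hFF'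
  haveI : FiniteDimensional K⟮x'⟯ F' := hfin'
  have hφx : Transcendental K (φ x) := fun h =>
    hx ((isAlgebraic_algHom_iff φ φ.injective).mp h)
  haveI : FiniteDimensional K⟮φ x⟯ F' :=
    Fermat.Agent.S24.ff_finite_of_transcendental x' hx' (φ x) hφx
  have hfin : FiniteAlong K φ := finiteAlong_of_finite_adjoin φ x
  refine ⟨?_, hfin⟩
  letI := algebraAlong φ
  haveI : Module.Finite F F' := hfin
  have hint : Algebra.IsIntegral F F' := Algebra.IsIntegral.of_finite F F'
  exact hint.isIntegral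

/-- Functions separate finitely many places, with prescribed constant values. -/
theorem stmt_FFB_separate : Fermat.Agent.RED.Stmt_FFB_separate := by
  intro K F _ _ _ _ _ ι _ v hv c
  obtain ⟨f, hf⟩ := exists_approx_family v hv (fun i => algebraMap K F (c i)) 1
  refine ⟨f, fun i => ?_⟩
  rcases hf i with h | h
  · exact Or.inr (sub_eq_zero.mp h)
  · exact Or.inl (by omega)

end Fermat.Agent.RED.H51

end
end
-- ==== END Fermat.Agent.RED.H51_Basic
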