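-- GENERATED (merged mirror, NOTES/tools/trim/merge3_helper67.py): 10 modules of the originals, bodies verbatim.
import Fermat.Prelude.Def_AlgebraicCurve_BaseChangeGalois
import Mathlib
import Fermat.Prelude.Def_ModularCurve_ArithmeticGalois
import Fermat.Prelude.Def_ModularCurve_GenusNumerics
import Fermat.Prelude.Def_AlgebraicCurve_CanonicalDivisor
import Fermat.Agent.Zm.S35_L03_002
import Fermat.Agent.Zm.S35_L03_000
import Fermat.Agent.Betti.H21_AlgEig
import Fermat.Agent.Zm.S35_L01_003
import Fermat.Agent.Zm.S35_L02_004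
import Fermat.Agent.Zm.S35_L01_004
import Fermat.Agent.S24.JAnDef
import Fermat.Agent.Zm.S35_L03_004
import Fermat.Agent.Zm.S35_L02_005

-- ==== BEGIN Fermat.Agent.BAD.H28_Stmts
section

/-!
# Item 65, package ABS (helper28): statements of the open leaf packages P1, EVAL, ALG

Plan: `NOTES/plan/BAD_ABS.md`.  Definitions of statements only; proofs go to separate files
(`Fermat/Agent/BAD/Hnn_*.lean`).
-/

set_option autoImplicit false

noncomputable section

open AlgebraicCurve

namespace Fermat.Agent.BAD

open Fermat.Agent.RED.H17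

local notation "L" => riemannRochSpace

/-- **P1 (NS, general).**  On a function field with Riemann's theorem (genus `g`): if
`l(G) = l₀` and `deg G + m ≤ g - 1 + l₀`, then there are `m` distinct places `A`, outside a given
finite set `T`, with `l(G + ∑ A) = l₀`. -/
def Stmt_NS : Prop :=
  ∀ (k F : Type) [Field k] [Field F] [Algebra k F] [Infinite k], FFHyp k F →
    ∀ (g : ℕ) (c : ℤ), IsGenus k F g c →
    ∀ (G : Divisor k F) (T : Finset (Place k F)) (m l₀ : ℕ),
      Module.finrank k (L G) = l₀ → Divisor.degree G + m ≤ (g : ℤ) - 1 + l₀ →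
      ∃ A : Finset (Place k F), A.card = m ∧ Disjoint A T ∧
        Module.finrank k (L (G + ptsDiv A)) = l₀

/-- **P1 (negative degree).**  `L(G) = 0` if `deg G < 0`. -/
def Stmt_LNeg : Prop :=
  ∀ (k F : Type) [Field k] [Field F] [Algebra k F], FFHyp k F →
    ∀ G : Divisor k F, Divisor.degree G < 0 → L G = ⊥

/-- **EVAL.**  The value at a place of degree one: a `k`-algebra homomorphism from the valuation
ring of the place to `k`, whose kernel consists of the functions vanishing at the place. -/
def Stmt_Eval : Prop :=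
  ∀ (k F : Type) [Field k] [Field F] [Algebra k F] (v : Place k F), v.deg = 1 →
    ∃ ev : v.toValuationSubring →ₐ[k] k,
      ∀ (x : v.toValuationSubring) (a : k),
        ev x = a ↔ VanAt v ((x : F) - algebraMap k F a)

/-- **ALG (linearisation).**  Over an infinite field in which `n ≠ 0`: if
`(A + t A₀)^n = lam (B + t B₀)^n` for all `t`, with `A₀ ≠ 0`, then `A B₀ = B A₀`. -/
def Stmt_Ratio : Prop :=
  ∀ (k : Type) [Field k] [Infinite k] (n : ℕ), (n : k) ≠ 0 →
    ∀ A A₀ B B₀ lam : k, A₀ ≠ 0 →
      (∀ t : k, (A + t * A₀) ^ n = lam * (B + t * B₀) ^ n) → A * B₀ = B * A₀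

/-- **ALG (avoidance).**  A vector space over an infinite field is not the union of finitely
many proper subspaces: there is a vector outside all of them. -/
def Stmt_Avoid : Prop :=
  ∀ (k V : Type) [Field k] [Infinite k] [AddCommGroup V] [Module k V] (ι : Type)
    (s : Finset ι) (W : ι → Submodule k V), (∀ i ∈ s, W i ≠ ⊤) →
    ∃ v : V, ∀ i ∈ s, v ∉ W i

end Fermat.Agent.BAD

end
end
-- ==== END Fermat.Agent.BAD.H28_Stmts

-- ==== BEGIN Fermat.Agent.BAD.SSD
section

/-!
# Item 65, package ABS (helper28): the abstract semistable Deuring datum (SSD)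

Interface file.  Plan: `NOTES/plan/BAD_ABS.md`.

* `PRed K F k F'` : a valuation ring `V` of the function field `F / K` with residue map
  `red : V → F'` onto a function field `F' / k`, a PARTIAL reduction map `r` on places and a set
  `good` of places of `F'` at which the conservation law (divisor identity) holds.  This is
  helper17's `RedSetup` (G-RED route C) with the divisor identity required at the good places
  only.
* `SSD K F k F₁ F₂` : two such data (the two components `C₁`, `C₂` of the special fibre), a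
  finite set of nodes (pairs of branches `(s₁, s₂)`), conservation at the nodes (`DIn`) and the
  gluing condition (`glue`).
* `SSD.IsInertial σ` : the semilinear automorphism `σ` preserves the datum and acts trivially on
  the reductions.
* `Stmt_ABS` : **(B1), abstract form**: if `f ∈ V₁` has reduction `1` on the first component and
  all its orders are divisible by `n` (`n` invertible in `k`), then `σ f / f` is an `n`-th power,
  for every inertial `σ`.

This file contains definitions only.
-/

set_option autoImplicit false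

noncomputable section

open AlgebraicCurve

namespace Fermat.Agent.BAD

open Fermat.Agent.RED.H17

/-- Reduction data at one component: a valuation ring of `F` with residue map onto `F'`, a
partial reduction map on places and the divisor identity at the good places. -/
structure PRed (K F k F' : Type*) [Field K] [Field F] [Algebra K F] [Field k] [Field F']
    [Algebra k F'] where
  /-- the valuation ring (Gauss valuation of the component) -/
  V : ValuationSubring F
  /-- reduction of integral functions -/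
  red : V →+* F'
  red_eq_zero_iff : ∀ u : V, red u = 0 ↔ u ∈ IsLocalRing.maximalIdeal V
  red_surj : Function.Surjective red
  /-- every non-zero function is a constant times a unit -/
  exists_scale : ∀ f : F, f ≠ 0 → ∃ c : K, c ≠ 0 ∧
    ∃ h : algebraMap K F c * f ∈ V, red ⟨_, h⟩ ≠ 0
  /-- integral constants reduce to constants -/
  red_const : ∀ (c : K) (h : algebraMap K F c ∈ V), ∃ c' : k, red ⟨_, h⟩ = algebraMap k F' c'
  /-- every constant of the residue field lifts -/
  const_surj : ∀ c' : k, ∃ (c : K) (h : algebraMap K F c ∈ V),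
    red ⟨_, h⟩ = algebraMap k F' c'
  /-- partial reduction of places: `none` = the place does not reduce to this component -/
  r : Place K F → Option (Place k F')
  /-- the places of the component at which the divisor identity holds (the regular points) -/
  good : Set (Place k F')
  /-- the divisor identity at the good places -/
  DI : ∀ u : V, red u ≠ 0 → ∀ D : Divisor K F, (∀ P, D P = P.ord (u : F)) →
    ∀ Q ∈ good, Finsupp.mapDomain r D (some Q) = Q.ord (red u)

/-- **Semistable Deuring datum** with two components. -/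
structure SSD (K F k F₁ F₂ : Type*) [Field K] [Field F] [Algebra K F] [Field k] [Field F₁]
    [Algebra k F₁] [Field F₂] [Algebra k F₂] where
  /-- the first component -/
  c₁ : PRed K F k F₁
  /-- the second component -/
  c₂ : PRed K F k F₂
  /-- the nodes, as pairs of branches -/
  nodes : Finset (Place k F₁ × Place k F₂)
  nodes_nonempty : nodes.Nonempty
  inj₁ : ∀ s ∈ nodes, ∀ s' ∈ nodes, s.1 = s'.1 → s = s'
  inj₂ : ∀ s ∈ nodes, ∀ s' ∈ nodes, s.2 = s'.2 → s = s'
  /-- the good places of the first component are the places which are not branches of nodes -/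
  good₁ : ∀ Q, Q ∈ c₁.good ↔ ∀ s ∈ nodes, s.1 ≠ Q
  good₂ : ∀ Q, Q ∈ c₂.good ↔ ∀ s ∈ nodes, s.2 ≠ Q
  /-- every place reduces to a regular point of `C₁`, or to a regular point of `C₂`, or to a
  node -/
  r_cases : ∀ P, (∃ Q ∈ c₁.good, c₁.r P = some Q ∧ c₂.r P = none) ∨
    (∃ Q ∈ c₂.good, c₂.r P = some Q ∧ c₁.r P = none) ∨
    ∃ s ∈ nodes, c₁.r P = some s.1 ∧ c₂.r P = some s.2
  /-- the two valuations agree on the constants -/
  const_mem : ∀ c : K, algebraMap K F c ∈ c₁.V ↔ algebraMap K F c ∈ c₂.V
  const_red : ∀ (c : K) (h₁ : algebraMap K F c ∈ c₁.V) (h₂ : algebraMap K F c ∈ c₂.V) (a : k),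
    c₁.red ⟨_, h₁⟩ = algebraMap k F₁ a → c₂.red ⟨_, h₂⟩ = algebraMap k F₂ a
  /-- conservation at the nodes: the number of zeros minus poles of `u` reducing to the node `s`
  is the sum of the orders of the two (scaled) reductions at the two branches -/
  DIn : ∀ s ∈ nodes, ∀ (u₁ : c₁.V) (u₂ : c₂.V), c₁.red u₁ ≠ 0 → c₂.red u₂ ≠ 0 →
    (∃ c : K, (u₂ : F) = algebraMap K F c * (u₁ : F)) →
    ∀ D : Divisor K F, (∀ P, D P = P.ord (u₁ : F)) →
      Finsupp.mapDomain c₁.r D (some s.1) = s.1.ord (c₁.red u₁) + s.2.ord (c₂.red u₂)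
  /-- gluing: a function integral for both valuations without pole reducing to the node `s` has
  reductions regular at the two branches, with the same value -/
  glue : ∀ s ∈ nodes, ∀ (f : F) (h₁ : f ∈ c₁.V) (h₂ : f ∈ c₂.V),
    (∀ P, c₁.r P = some s.1 → 0 ≤ P.ord f) →
    ∃ a : k, VanAt s.1 (c₁.red ⟨f, h₁⟩ - algebraMap k F₁ a) ∧
      VanAt s.2 (c₂.red ⟨f, h₂⟩ - algebraMap k F₂ a)

namespace SSD

variable {K F k F₁ F₂ : Type*} [Field K] [Field F] [Algebra K F] [Field k] [Field F₁]
  [Algebra k F₁] [Field F₂] [Algebra k F₂]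

/-- `σ` preserves the datum and acts trivially on the two reductions (an element of the inertia
group). -/
structure IsInertial (S : SSD K F k F₁ F₂) (σ : SemilinearAut K F) : Prop where
  mem₁ : ∀ f : F, f ∈ S.c₁.V → σ • f ∈ S.c₁.V
  mem₂ : ∀ f : F, f ∈ S.c₂.V → σ • f ∈ S.c₂.V
  red₁ : ∀ (f : F) (h : f ∈ S.c₁.V) (h' : σ • f ∈ S.c₁.V), S.c₁.red ⟨_, h'⟩ = S.c₁.red ⟨f, h⟩
  red₂ : ∀ (f : F) (h : f ∈ S.c₂.V) (h' : σ • f ∈ S.c₂.V), S.c₂.red ⟨_, h'⟩ = S.c₂.red ⟨f, h⟩
  r₁ : ∀ P : Place K F, S.c₁.r (σ • P) = S.c₁.r P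
  r₂ : ∀ P : Place K F, S.c₂.r (σ • P) = S.c₂.r P

end SSD

/-- **Package ABS = (B1), abstract form.**  `K`, `k` algebraically closed, `F / K`, `F₁ / k`,
`F₂ / k` function fields satisfying Riemann's theorem with genera `g`, `g₁`, `g₂`, with
`g ≤ g₁ + g₂ + δ - 1` (`δ` the number of nodes).  If `f ∈ V₁` has reduction `1` on the first
component and all orders of `f` are divisible by `n`, `n` invertible in `k`, then `σ f / f` is an
`n`-th power in `F` for every inertial `σ`. -/
def Stmt_ABS : Prop :=
  ∀ (K F k F₁ F₂ : Type) [Field K] [Field F] [Algebra K F] [Field k] [Field F₁]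
    [Algebra k F₁] [Field F₂] [Algebra k F₂] [IsAlgClosed K] [IsAlgClosed k]
    (S : SSD K F k F₁ F₂) (_ : FFHyp K F) (_ : FFHyp k F₁) (_ : FFHyp k F₂)
    (g g₁ g₂ : ℕ) (c c₁ c₂ : ℤ), IsGenus K F g c → IsGenus k F₁ g₁ c₁ → IsGenus k F₂ g₂ c₂ →
    g + 1 ≤ g₁ + g₂ + S.nodes.card →
    ∀ (n : ℕ), (n : k) ≠ 0 →
    ∀ (σ : SemilinearAut K F), S.IsInertial σ →
    ∀ (f : F) (hf : f ∈ S.c₁.V), S.c₁.red ⟨f, hf⟩ = 1 →
      (∀ P : Place K F, (n : ℤ) ∣ P.ord f) →
      ∃ t : F, t ^ n = (σ • f) / f

end Fermat.Agent.BAD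

end
end
-- ==== END Fermat.Agent.BAD.SSD

-- ==== BEGIN Fermat.Agent.Betti.Basis
section

/-!
# B1: a universal finite basis of the parabolic homomorphisms

`stmt_basis : Stmt_basis`: there are finitely many parabolic homomorphisms `b i : Γ₀(N) → ℤ` such
that every parabolic homomorphism `φ : Γ₀(N) → A` into a torsion free abelian group is
`γ ↦ ∑ i, b i γ • a i` for unique `a i ∈ A`.

Proof: `Γ₀(N)` is finitely generated (finite index in `SL₂(ℤ) = ⟨S, T⟩`), hence `Hom(Γ₀(N), ℤ)`
embeds into `ℤ^s` and the submodule of parabolic homomorphisms is free of finite rank; for general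
`A` one composes `φ` with the coordinates of the finitely generated free group `φ(Γ₀(N))`.
-/

set_option autoImplicit false

namespace Fermat.Agent.Betti

open CongruenceSubgroup ModularCurve ModularCurve.Period
open scoped MatrixGroups

/-! ### Abstract version -/

section Abstract

variable {Q : Type} [AddGroup Q]

instance instIsAddTorsionFreeHomInt : IsAddTorsionFree (Q →+ ℤ) where
  nsmul_right_injective n hn φ ψ h := by
    refine AddMonoidHom.ext fun x => ?_
    have := congrArg (fun f : Q →+ ℤ => f x) h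
    simp only [AddMonoidHom.coe_smul, Pi.smul_apply] at this
    exact mul_left_cancel₀ (by exact_mod_cast hn) this

/-- Homomorphisms vanishing on a set `Pset`. -/
def killing (Pset : Set Q) (A : Type) [AddCommGroup A] : AddSubgroup (Q →+ A) where
  carrier := {φ | ∀ x ∈ Pset, φ x = 0}
  zero_mem' := fun _ _ => rfl
  add_mem' := by
    intro φ ψ hφ hψ x hx
    show φ x + ψ x = 0
    rw [hφ x hx, hψ x hx, add_zero]
  neg_mem' := by
    intro φ hφ x hx
    show -φ x = 0
    rw [hφ x hx, neg_zero]

theorem mem_killing {Pset : Set Q} {A : Type} [AddCommGroup A] {φ : Q →+ A} :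
    φ ∈ killing Pset A ↔ ∀ x ∈ Pset, φ x = 0 := Iff.rfl

variable [AddGroup.FG Q]

theorem finite_homInt : Module.Finite ℤ (Q →+ ℤ) := by
  obtain ⟨s, hs, hfin⟩ := AddGroup.fg_iff.mp (inferInstance : AddGroup.FG Q)
  have : Finite s := hfin
  let ev : (Q →+ ℤ) →ₗ[ℤ] (s → ℤ) :=
    { toFun := fun φ x => φ x
      map_add' := fun _ _ => rfl
      map_smul' := fun _ _ => rfl }
  refine Module.Finite.of_injective ev ?_
  intro φ ψ h
  refine AddMonoidHom.eq_of_eqOn_dense hs ?_
  intro x hx
  exact congrFun h ⟨x, hx⟩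

/-- The universal basis, abstract version. -/
theorem exists_universal_basis (Pset : Set Q) :
    ∃ (r : ℕ) (b : Fin r → (Q →+ ℤ)), (∀ i, b i ∈ killing Pset ℤ) ∧
      ∀ (A : Type) [AddCommGroup A] [IsAddTorsionFree A] (φ : Q →+ A), φ ∈ killing Pset A →
        ∃! a : Fin r → A, ∀ x, φ x = ∑ i, b i x • a i := by
  classical
  have : Module.Finite ℤ (Q →+ ℤ) := finite_homInt
  let Λ : Submodule ℤ (Q →+ ℤ) := (killing Pset ℤ).toIntSubmodule
  have : Module.Finite ℤ Λ := Module.IsNoetherian.finite ℤ Λ
  have : Module.Free ℤ Λ := Module.free_of_finite_type_torsion_free'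
  let B := Module.finBasis ℤ Λ
  refine ⟨Module.finrank ℤ Λ, fun i => (B i : Q →+ ℤ), fun i => (B i).2, ?_⟩
  intro A _ _ φ hφ
  -- key: a family `d` with `∑ i, b i x • d i = 0` for all `x` vanishes
  have huniq : ∀ d : Fin (Module.finrank ℤ Λ) → A,
      (∀ x, ∑ i, (B i : Q →+ ℤ) x • d i = 0) → d = 0 := by
    intro d hd
    let A₁ : AddSubgroup A := AddSubgroup.closure (Set.range d)
    have : AddGroup.FG A₁ :=
      (AddGroup.fg_iff_addSubgroup_fg A₁).mpr ⟨(Finset.univ.image d), by simp [A₁]⟩
    have : Module.Finite ℤ A₁ := Module.Finite.iff_addGroup_fg.mpr inferInstance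
    have : Module.Free ℤ A₁ := Module.free_of_finite_type_torsion_free'
    let u := Module.finBasis ℤ A₁
    have hdmem : ∀ i, d i ∈ A₁ := fun i => AddSubgroup.subset_closure ⟨i, rfl⟩
    let d' : Fin (Module.finrank ℤ Λ) → A₁ := fun i => ⟨d i, hdmem i⟩
    have hd' : ∀ x, ∑ i, (B i : Q →+ ℤ) x • d' i = 0 := by
      intro x
      apply Subtype.ext
      simpa [d'] using hd x
    have hcoord : ∀ k i, u.coord k (d' i) = 0 := by
      intro k
      have h1 : ∑ i, u.coord k (d' i) • B i = 0 := by
        apply Subtype.ext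
        refine AddMonoidHom.ext fun x => ?_
        have h2 := congrArg (u.coord k) (hd' x)
        simp only [map_sum, map_smul, map_zero, smul_eq_mul] at h2
        simp only [Submodule.coe_sum, Submodule.coe_smul, AddMonoidHom.finsetSum_apply,
          AddMonoidHom.smul_apply, smul_eq_mul, Submodule.coe_zero, AddMonoidHom.zero_apply]
        rw [← h2]
        exact Finset.sum_congr rfl fun i _ => mul_comm _ _
      intro i
      have := (Fintype.linearIndependent_iff.mp B.linearIndependent) _ h1 i
      exact this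
    funext i
    have : d' i = 0 := by
      apply u.ext_elem
      intro k
      simpa using hcoord k i
    simpa [d'] using congrArg Subtype.val this
  -- existence
  have hex : ∃ a : Fin (Module.finrank ℤ Λ) → A, ∀ x, φ x = ∑ i, (B i : Q →+ ℤ) x • a i := by
    let A₀ : AddSubgroup A := φ.range
    have : AddGroup.FG A₀ := AddGroup.fg_range φ
    have : Module.Finite ℤ A₀ := Module.Finite.iff_addGroup_fg.mpr inferInstance
    have : Module.Free ℤ A₀ := Module.free_of_finite_type_torsion_free'
    let u := Module.finBasis ℤ A₀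
    let φ₀ : Q →+ A₀ := φ.rangeRestrict
    let c : Fin (Module.finrank ℤ A₀) → Λ := fun k =>
      ⟨(u.coord k).toAddMonoidHom.comp φ₀, by
        intro x hx
        show u.coord k (φ₀ x) = 0
        have : φ₀ x = 0 := Subtype.ext (hφ x hx)
        rw [this, map_zero]⟩
    refine ⟨fun i => ∑ k, B.repr (c k) i • (u k : A), fun x => ?_⟩
    have h1 : φ x = ((∑ k, u.coord k (φ₀ x) • u k : A₀) : A) := by
      have h0 : (∑ k, u.coord k (φ₀ x) • u k : A₀) = φ₀ x := by
        simp only [Module.Basis.coord_apply]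
        exact u.sum_repr (φ₀ x)
      rw [h0]
      rfl
    have h2 : ∀ k, u.coord k (φ₀ x) = ∑ i, B.repr (c k) i * (B i : Q →+ ℤ) x := by
      intro k
      have h3 : (c k : Q →+ ℤ) = ∑ i, B.repr (c k) i • (B i : Q →+ ℤ) := by
        have h5 := congrArg (fun l : Λ => (l : Q →+ ℤ)) (B.sum_repr (c k))
        simp only [Submodule.coe_sum, Submodule.coe_smul] at h5
        exact h5.symm
      have h4 := congrArg (fun f : Q →+ ℤ => f x) h3
      simp only [AddMonoidHom.finsetSum_apply, AddMonoidHom.smul_apply, smul_eq_mul] at h4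
      rw [← h4]
      rfl
    rw [h1]
    simp only [AddSubgroup.val_finsetSum, AddSubgroup.coe_zsmul, h2, Finset.sum_smul,
      Finset.smul_sum, smul_smul]
    rw [Finset.sum_comm]
    refine Finset.sum_congr rfl fun i _ => Finset.sum_congr rfl fun k _ => ?_
    rw [mul_comm]
  obtain ⟨a, ha⟩ := hex
  refine ⟨a, ha, fun a' ha' => ?_⟩
  have hz : a' - a = 0 := huniq (a' - a) (fun x => by
    simp only [Pi.sub_apply, smul_sub, Finset.sum_sub_distrib]
    rw [← ha x, ← ha' x, sub_self])
  exact sub_eq_zero.mp hz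

end Abstract

/-! ### `Γ₀(N)` -/

theorem fg_SL2Z : Group.FG SL(2, ℤ) :=
  Group.fg_iff.mpr ⟨{ModularGroup.S, ModularGroup.T}, SpecialLinearGroup.SL2Z_generators,
    Set.toFinite _⟩

theorem fg_Gamma0 (N : ℕ) [NeZero N] : Group.FG (Gamma0 N) :=
  haveI := fg_SL2Z
  Subgroup.fg_of_index_ne_zero _

/-- **B1**: a universal finite basis of the parabolic homomorphisms of `Γ₀(N)`. -/
theorem stmt_basis : Stmt_basis := by
  intro N _
  have : Group.FG (Gamma0 N) := fg_Gamma0 N
  obtain ⟨r, b, hb, huniv⟩ := exists_universal_basis (Q := Additive (Gamma0 N))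
    {x | (((Additive.toMul x : Gamma0 N) : SL(2, ℤ)) : Matrix (Fin 2) (Fin 2) ℤ).trace ^ 2 = 4}
  refine ⟨r, b, fun i γ hγ => hb i (Additive.ofMul γ) hγ, ?_⟩
  intro A _ _ φ hφ
  exact huniv A φ (fun x hx => hφ (Additive.toMul x) hx)

end Fermat.Agent.Betti

end
-- ==== END Fermat.Agent.Betti.Basis

-- ==== BEGIN Fermat.Agent.Betti.Eigen
section

/-!
# Betti–Hecke: assembly of the eigenvector statement

`eigen_of : Stmt_basis → Stmt_matrixRep → Stmt_algEig → Stmt_eigen`.
-/

set_option autoImplicit false

namespace Fermat.Agent.Betti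

open CongruenceSubgroup ModularCurve ModularCurve.Period
open scoped MatrixGroups

section

variable {N : ℕ} {K : Type} [Field K]

/-- Change of coefficients `ℤ → K`. -/
noncomputable def castHom (K : Type) [Field K] (β : Additive (Gamma0 N) →+ ℤ) :
    Additive (Gamma0 N) →+ K := (Int.castAddHom K).comp β

@[simp] theorem castHom_apply (β : Additive (Gamma0 N) →+ ℤ) (γ : Additive (Gamma0 N)) :
    castHom K β γ = ((β γ : ℤ) : K) := rfl

theorem TB_castHom {p : ℕ} (hp : p.Prime) (hpN : ¬ p ∣ N) (β : Additive (Gamma0 N) →+ ℤ) :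
    TB N K hp hpN (castHom K β) = castHom K (TB N ℤ hp hpN β) := by
  have : Fact p.Prime := ⟨hp⟩
  exact (isHeckeFamily_T N hpN).heckeOp_comp (incl_injective N) (Int.castAddHom K) β

theorem UB_castHom [NeZero N] {p : ℕ} (hpN : p ∣ N) (β : Additive (Gamma0 N) →+ ℤ) :
    UB N K hpN (castHom K β) = castHom K (UB N ℤ hpN β) := by
  have : NeZero p := neZero_of_dvd hpN
  exact (isHeckeFamily_U N hpN).heckeOp_comp (incl_injective N) (Int.castAddHom K) β

theorem TB_smul {p : ℕ} (hp : p.Prime) (hpN : ¬ p ∣ N) (c : K) (φ : Additive (Gamma0 N) →+ K) :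
    TB N K hp hpN (c • φ) = c • TB N K hp hpN φ := by
  have : Fact p.Prime := ⟨hp⟩
  exact ((isHeckeFamily_T N hpN).heckeOpLin (incl_injective N) K).map_smul c φ

theorem UB_smul [NeZero N] {p : ℕ} (hpN : p ∣ N) (c : K) (φ : Additive (Gamma0 N) →+ K) :
    UB N K hpN (c • φ) = c • UB N K hpN φ := by
  have : NeZero p := neZero_of_dvd hpN
  exact ((isHeckeFamily_U N hpN).heckeOpLin (incl_injective N) K).map_smul c φ

theorem castHom_sum_smul {r : ℕ} (b : Fin r → (Additive (Gamma0 N) →+ ℤ)) (m : Fin r → ℤ) :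
    castHom K (∑ i, m i • b i) = ∑ i, (m i : K) • castHom K (b i) := by
  refine AddMonoidHom.ext fun γ => ?_
  simp [castHom]

/-- Abstract form of the computation: if an additive operator `T` on `Hom(Γ, K)` which is
`K`-linear acts on the `castHom (b j)` by the integer matrix `m` and `v` is an eigenvector of `m`
with eigenvalue `c`, then `∑ j, v j • castHom (b j)` is an eigenvector of `T`. -/
theorem eigen_of_matrix {r : ℕ} (b : Fin r → (Additive (Gamma0 N) →+ ℤ))
    (T : (Additive (Gamma0 N) →+ K) →+ (Additive (Gamma0 N) →+ K))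
    (hT : ∀ (c : K) φ, T (c • φ) = c • T φ)
    (m : Matrix (Fin r) (Fin r) ℤ)
    (hm : ∀ j, T (castHom K (b j)) = ∑ i, (m i j : K) • castHom K (b i))
    (v : Fin r → K) (c : K) (hv : (m.map (Int.cast : ℤ → K)).mulVec v = c • v) :
    T (∑ j, v j • castHom K (b j)) = c • ∑ j, v j • castHom K (b j) := by
  rw [map_sum]
  simp only [hT, hm, Finset.smul_sum, smul_smul]
  rw [Finset.sum_comm]
  refine Finset.sum_congr rfl fun i _ => ?_
  rw [← Finset.sum_smul]
  congr 1
  have := congrFun hv i
  simp only [Matrix.mulVec, dotProduct, Matrix.map_apply, Pi.smul_apply, smul_eq_mul] at this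
  rw [← this]
  exact Finset.sum_congr rfl fun j _ => mul_comm _ _

end

/-- **B4-eig** from B1, B4-a and ALG-EIG. -/
theorem eigen_of (h1 : Stmt_basis) (h2 : Stmt_matrixRep) (h3 : Stmt_algEig) : Stmt_eigen := by
  intro N _ S K _ _ χ
  obtain ⟨r, b, hb⟩ := h1 N
  obtain ⟨M, hMinj, hMT, hMU⟩ := h2 N S r b hb
  obtain ⟨v, hv0, hv⟩ := h3 _ r M hMinj K χ
  have hsum : ∀ γ, (∑ j, v j • castHom K (b j)) γ = ∑ i, b i γ • v i := by
    intro γ
    simp only [AddMonoidHom.finsetSum_apply, AddMonoidHom.smul_apply, castHom_apply,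
      smul_eq_mul, zsmul_eq_mul]
    exact Finset.sum_congr rfl fun i _ => mul_comm _ _
  have hpar : ∀ β : Additive (Gamma0 N) →+ ℤ, IsParabolicHom (Gamma0 N) β →
      IsParabolicHom (Gamma0 N) (castHom K β) := by
    intro β hβ γ hγ
    show ((β (Additive.ofMul γ) : ℤ) : K) = 0
    rw [hβ γ hγ, Int.cast_zero]
  refine ⟨∑ j, v j • castHom K (b j), ?_, ?_, ?_, ?_⟩
  · intro h0
    apply hv0
    have hzero : IsParabolicHom (Gamma0 N) (0 : Additive (Gamma0 N) →+ K) := fun _ _ => rfl
    obtain ⟨a, -, hauniq⟩ := hb.2 K (0 : Additive (Gamma0 N) →+ K) hzero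
    have e1 : v = a := hauniq v (fun γ => by rw [← hsum, h0])
    have e2 : (0 : Fin r → K) = a := hauniq 0 (fun γ => by simp)
    rw [e1, ← e2]
  · exact (parabolicHoms K (Gamma0 N) K).sum_mem fun j _ =>
      (parabolicHoms K (Gamma0 N) K).smul_mem _ (hpar _ (hb.1 j))
  · intro ℓ hℓ hℓN hℓS
    refine eigen_of_matrix b (TB N K hℓ hℓN) (TB_smul hℓ hℓN) (M (CuspForm.heckeAlgebra.T hℓ hℓN hℓS))
      (fun j => ?_) v _ (hv _)
    rw [TB_castHom, hMT ℓ hℓ hℓN hℓS j, castHom_sum_smul]
  · intro q hq hqN hqS
    refine eigen_of_matrix b (UB N K hqN) (UB_smul hqN) (M (CuspForm.heckeAlgebra.U hq hqN hqS))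
      (fun j => ?_) v _ (hv _)
    rw [UB_castHom, hMU q hq hqN hqS j, castHom_sum_smul]

end Fermat.Agent.Betti

end
-- ==== END Fermat.Agent.Betti.Eigen

-- ==== BEGIN Fermat.Agent.Betti.H21_AlgEigStmt
section

/-!
# BETTI-HECKE, package ALG-EIG (helper21): `Stmt_algEig` holds

`stmt_algEig : Fermat.Agent.Betti.Stmt_algEig` (the hypothesis `CharZero K` is not needed).
-/

set_option autoImplicit false

namespace Fermat.Agent.Betti.H21

/-- **ALG-EIG.** -/
theorem stmt_algEig : Fermat.Agent.Betti.Stmt_algEig := by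
  intro R _ r M hM K _ _ χ
  exact exists_eigenvector M hM χ

end Fermat.Agent.Betti.H21

end
-- ==== END Fermat.Agent.Betti.H21_AlgEigStmt

-- ==== BEGIN Fermat.Agent.Betti.H76_AlgEig
section

/-!
# Betti-Hecke, package ALG-EIG: common eigenvectors for characters of rings of integer matrices

`stmt_algEig : Stmt_algEig`: if `M : R →+* M_r(ℤ)` is an injective ring homomorphism from a
commutative ring and `χ : R →+* K` is a character with values in a field of characteristic zero,
then there is `v ≠ 0` in `K^r` with `M(t) v = χ(t) v` for all `t`.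

Proof.  Let `B = K ⊗_ℤ R`, acting on `V = K^r` through the TRANSPOSED matrices
`Φ : B → M_r(K)`, `c ⊗ t ↦ c • M(t)ᵀ`; `Φ` is injective because `K` is flat over `ℤ`.
Let `I = ker (χ_B : B → K)`.  If `I V = V`, Nakayama's lemma gives `b ∈ 1 + I` killing `V`, so
`b = 0` and `1 ∈ I`, which is absurd.  Hence there is a nonzero `K`-linear form `f` on `V`
vanishing on `I V`, i.e. `f (M(t)ᵀ x) = χ(t) f(x)`; the vector `v = (f(e_i))_i` is the
eigenvector.
-/

set_option autoImplicit false

open TensorProduct

namespace Fermat.Agent.Betti.H76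

section

variable {R : Type} [CommRing R] {r : ℕ} (M : R →+* Matrix (Fin r) (Fin r) ℤ)

/-- The transposed representation. -/
def transposeHom : R →+* Matrix (Fin r) (Fin r) ℤ where
  toFun t := (M t).transpose
  map_one' := by rw [map_one, Matrix.transpose_one]
  map_mul' s t := by rw [mul_comm s t, map_mul, Matrix.transpose_mul]
  map_zero' := by rw [map_zero, Matrix.transpose_zero]
  map_add' s t := by rw [map_add, Matrix.transpose_add]

@[simp] theorem transposeHom_apply (t : R) : transposeHom M t = (M t).transpose := rfl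

theorem transposeHom_injective (hM : Function.Injective M) :
    Function.Injective (transposeHom M) := fun _ _ h =>
  hM (Matrix.transpose_injective h)

variable (K : Type) [Field K] [CharZero K]

/-- `K ⊗ R → M_r(K)`, `c ⊗ t ↦ c • M(t)`. -/
noncomputable def tensorRep : (K ⊗[ℤ] R) →+* Matrix (Fin r) (Fin r) K :=
  ((matrixEquivTensor (Fin r) ℤ K).symm.toAlgHom.toRingHom).comp
    (Algebra.TensorProduct.map (AlgHom.id K K) M.toIntAlgHom).toRingHom

omit [CharZero K] in
theorem tensorRep_tmul (c : K) (t : R) :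
    tensorRep M K (c ⊗ₜ[ℤ] t) = c • (M t).map (Int.cast : ℤ → K) := by
  unfold tensorRep
  simp only [RingHom.coe_comp, Function.comp_apply, AlgHom.toRingHom_eq_coe, RingHom.coe_coe,
    Algebra.TensorProduct.map_tmul, AlgHom.coe_id, id_eq]
  exact matrixEquivTensor_apply_symm (Fin r) ℤ K c (M t)

theorem tensorRep_injective (hM : Function.Injective M) :
    Function.Injective (tensorRep M K) := by
  unfold tensorRep
  rw [RingHom.coe_comp]
  refine Function.Injective.comp ?_ ?_
  · exact (matrixEquivTensor (Fin r) ℤ K).symm.injective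
  · have h := Module.Flat.lTensor_preserves_injective_linearMap (M := K)
      (M.toIntAlgHom.toLinearMap) hM
    exact h

variable {K}

/-- The character `K ⊗ R → K`, `c ⊗ t ↦ c χ(t)`. -/
noncomputable def tensorChar (χ : R →+* K) : (K ⊗[ℤ] R) →ₐ[K] K :=
  Algebra.TensorProduct.lift (AlgHom.id K K) χ.toIntAlgHom (fun _ _ => Commute.all _ _)

omit [CharZero K] in
theorem tensorChar_tmul (χ : R →+* K) (c : K) (t : R) :
    tensorChar χ (c ⊗ₜ[ℤ] t) = c * χ t := by
  unfold tensorChar
  rw [Algebra.TensorProduct.lift_tmul]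
  rfl

end

/-- A linear form on `K^r` with `f (Aᵀ x) = c f(x)` gives an eigenvector of `A`. -/
theorem eigenvector_of_form {K : Type} [Field K] {r : ℕ} (f : (Fin r → K) →ₗ[K] K) (hf : f ≠ 0) :
    ∃ v : Fin r → K, v ≠ 0 ∧ ∀ (A : Matrix (Fin r) (Fin r) K) (c : K),
      (∀ x, f (A.transpose.mulVec x) = c * f x) → A.mulVec v = c • v := by
  classical
  let v : Fin r → K := fun i => f (Pi.single i 1)
  have hfv : ∀ x : Fin r → K, f x = v ⬝ᵥ x := by
    intro x
    have hx : x = ∑ i, x i • (Pi.single i (1 : K) : Fin r → K) := by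
      funext j
      simp [Finset.sum_apply, Pi.single_apply]
    conv_lhs => rw [hx]
    rw [map_sum]
    simp only [map_smul, smul_eq_mul, dotProduct, v]
    exact Finset.sum_congr rfl fun i _ => mul_comm _ _
  refine ⟨v, ?_, ?_⟩
  · intro hv
    apply hf
    ext i
    have := hfv (Pi.single i 1)
    rw [hv, zero_dotProduct] at this
    simpa using this
  · intro A c h
    have key : ∀ x : Fin r → K, (A.mulVec v - c • v) ⬝ᵥ x = 0 := by
      intro x
      have h1 := h x
      rw [hfv, hfv, Matrix.dotProduct_mulVec, Matrix.vecMul_transpose] at h1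
      rw [sub_dotProduct, smul_dotProduct, h1, smul_eq_mul, sub_self]
    have hz : A.mulVec v - c • v = 0 := by
      funext i
      have := key (Pi.single i 1)
      simpa using this
    exact sub_eq_zero.mp hz

/-- Nakayama: a finitely generated faithful module over a commutative `K`-algebra `B` has, for
every character `χB : B → K`, a nonzero `K`-linear form which is a `χB`-eigenvector of the
transposed action. -/
theorem exists_form_of_faithful {K B V : Type*} [Field K] [CommRing B] [Algebra K B]
    [AddCommGroup V] [Module K V] [Module B V]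
    (hK : ∀ (c : K) (x : V), (algebraMap K B c) • x = c • x)
    (hfg : (⊤ : Submodule B V).FG)
    (hfaith : ∀ b : B, (∀ x : V, b • x = 0) → b = 0)
    (χB : B →ₐ[K] K) :
    ∃ f : V →ₗ[K] K, f ≠ 0 ∧ ∀ (b : B) (x : V), f (b • x) = χB b * f x := by
  classical
  let I : Ideal B := RingHom.ker χB.toRingHom
  have hne : ¬ (⊤ : Submodule B V) ≤ I • (⊤ : Submodule B V) := by
    intro hle
    obtain ⟨b, hb1, hb2⟩ :=
      Submodule.exists_sub_one_mem_and_smul_eq_zero_of_fg_of_le_smul I ⊤ hfg hle
    have hb0 : b = 0 := hfaith b (fun x => hb2 x trivial)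
    rw [hb0, zero_sub] at hb1
    have h1 : χB (-1) = 0 := hb1
    rw [map_neg, map_one, neg_eq_zero] at h1
    exact one_ne_zero h1
  let W : Submodule K V :=
    { carrier := ((I • (⊤ : Submodule B V) : Submodule B V) : Set V)
      add_mem' := fun ha hb => Submodule.add_mem _ ha hb
      zero_mem' := Submodule.zero_mem _
      smul_mem' := fun c x hx => by
        have := Submodule.smul_mem (I • (⊤ : Submodule B V)) (algebraMap K B c) hx
        rwa [hK] at this }
  have hW : W < ⊤ := by
    rw [lt_top_iff_ne_top]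
    intro hWtop
    apply hne
    intro x _
    have : x ∈ W := by rw [hWtop]; trivial
    exact this
  obtain ⟨f, hf0, hfW⟩ := Submodule.exists_le_ker_of_lt_top W hW
  refine ⟨f, hf0, fun b x => ?_⟩
  have hmemI : b - algebraMap K B (χB b) ∈ I := by
    rw [RingHom.mem_ker]
    show χB (b - algebraMap K B (χB b)) = 0
    rw [map_sub, AlgHom.commutes, Algebra.algebraMap_self, RingHom.id_apply, sub_self]
  have hmemW : (b - algebraMap K B (χB b)) • x ∈ W := by
    show (b - algebraMap K B (χB b)) • x ∈ (I • (⊤ : Submodule B V) : Submodule B V)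
    exact Submodule.smul_mem_smul hmemI trivial
  have h0 : f ((b - algebraMap K B (χB b)) • x) = 0 := hfW hmemW
  have e : f (χB b • x) = χB b * f x := by rw [LinearMap.map_smul, smul_eq_mul]
  rw [sub_smul, hK, map_sub, e, sub_eq_zero] at h0
  exact h0

section RepSpace

variable {R : Type} [CommRing R] {r : ℕ} (M : R →+* Matrix (Fin r) (Fin r) ℤ)
variable (K : Type) [Field K] [CharZero K]

/-- The space `K^r` with the action of `K ⊗ R` through `M`. -/
def RepSpace (_M : R →+* Matrix (Fin r) (Fin r) ℤ) (K : Type) : Type := Fin r → K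

noncomputable instance : AddCommGroup (RepSpace M K) :=
  inferInstanceAs (AddCommGroup (Fin r → K))

noncomputable instance : Module K (RepSpace M K) :=
  inferInstanceAs (Module K (Fin r → K))

/-- The identification `RepSpace M K = K^r`. -/
noncomputable def RepSpace.equiv : RepSpace M K ≃ₗ[K] (Fin r → K) := LinearEquiv.refl K _

/-- The action as a ring homomorphism to endomorphisms. -/
noncomputable def repEnd : (K ⊗[ℤ] R) →+* Module.End K (RepSpace M K) :=
  ((Matrix.toLinAlgEquiv' (R := K) (n := Fin r)).toAlgHom.toRingHom).comp (tensorRep M K)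

noncomputable instance : Module (K ⊗[ℤ] R) (RepSpace M K) := Module.compHom _ (repEnd M K)

theorem RepSpace.smul_def (b : K ⊗[ℤ] R) (x : RepSpace M K) :
    RepSpace.equiv M K (b • x) = (tensorRep M K b).mulVec (RepSpace.equiv M K x) := rfl

theorem RepSpace.algebraMap_smul (c : K) (x : RepSpace M K) :
    (algebraMap K (K ⊗[ℤ] R) c) • x = c • x := by
  apply (RepSpace.equiv M K).injective
  rw [RepSpace.smul_def, Algebra.TensorProduct.algebraMap_apply, Algebra.algebraMap_self,
    RingHom.id_apply, tensorRep_tmul, map_one, Matrix.map_one _ Int.cast_zero Int.cast_one,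
    Matrix.smul_mulVec, Matrix.one_mulVec, map_smul]

theorem RepSpace.fg : (⊤ : Submodule (K ⊗[ℤ] R) (RepSpace M K)).FG := by
  classical
  refine ⟨Finset.univ.image
    (fun i : Fin r => (RepSpace.equiv M K).symm (Pi.single i (1 : K))), ?_⟩
  rw [eq_top_iff]
  rintro x -
  have hx : x = ∑ i, (algebraMap K (K ⊗[ℤ] R) (RepSpace.equiv M K x i)) •
      (RepSpace.equiv M K).symm (Pi.single i (1 : K)) := by
    simp only [RepSpace.algebraMap_smul]
    apply (RepSpace.equiv M K).injective
    rw [map_sum]
    simp only [map_smul, LinearEquiv.apply_symm_apply]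
    funext j
    simp [Finset.sum_apply, Pi.single_apply]
  rw [hx]
  refine Submodule.sum_mem _ fun i _ => Submodule.smul_mem _ _ (Submodule.subset_span ?_)
  simp

theorem RepSpace.faithful (hM : Function.Injective M) (b : K ⊗[ℤ] R)
    (hb : ∀ x : RepSpace M K, b • x = 0) : b = 0 := by
  apply tensorRep_injective M K hM
  rw [map_zero]
  apply (Matrix.toLinAlgEquiv' (R := K) (n := Fin r)).injective
  rw [map_zero]
  refine LinearMap.ext fun x => ?_
  have := hb ((RepSpace.equiv M K).symm x)
  have h2 := congrArg (RepSpace.equiv M K) this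
  rw [RepSpace.smul_def, LinearEquiv.apply_symm_apply, map_zero] at h2
  rw [Matrix.toLinAlgEquiv'_apply, h2]
  rfl

end RepSpace

/-- **ALG-EIG**. -/
theorem stmt_algEig : Betti.Stmt_algEig := by
  intro R _ r M hM K _ _ χ
  classical
  let Mt := transposeHom M
  have hMt : Function.Injective Mt := transposeHom_injective M hM
  obtain ⟨f, hf0, hf⟩ := exists_form_of_faithful (K := K) (B := K ⊗[ℤ] R) (V := RepSpace Mt K)
    (RepSpace.algebraMap_smul Mt K) (RepSpace.fg Mt K) (RepSpace.faithful Mt K hMt)
    (tensorChar χ)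
  let f' : (Fin r → K) →ₗ[K] K := f.comp (RepSpace.equiv Mt K).symm.toLinearMap
  have hf'0 : f' ≠ 0 := by
    intro h
    apply hf0
    refine LinearMap.ext fun x => ?_
    have := congrArg (fun g : (Fin r → K) →ₗ[K] K => g (RepSpace.equiv Mt K x)) h
    simpa [f'] using this
  obtain ⟨v, hv0, hv⟩ := eigenvector_of_form f' hf'0
  refine ⟨v, hv0, fun t => hv _ _ (fun x => ?_)⟩
  have h1 := hf ((1 : K) ⊗ₜ[ℤ] t) ((RepSpace.equiv Mt K).symm x)
  rw [tensorChar_tmul, one_mul] at h1
  have h2 : ((1 : K) ⊗ₜ[ℤ] t : K ⊗[ℤ] R) • (RepSpace.equiv Mt K).symm x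
      = (RepSpace.equiv Mt K).symm
          ((((M t).map (Int.cast : ℤ → K)).transpose).mulVec x) := by
    apply (RepSpace.equiv Mt K).injective
    rw [RepSpace.smul_def, LinearEquiv.apply_symm_apply, LinearEquiv.apply_symm_apply,
      tensorRep_tmul, one_smul]
    rfl
  rw [h2] at h1
  exact h1

end Fermat.Agent.Betti.H76

end
-- ==== END Fermat.Agent.Betti.H76_AlgEig

-- ==== BEGIN Fermat.Agent.Betti.H76_Period
section

/-!
# Betti-Hecke, part B3: the period map intertwines the Hecke operators

`periodMap N (T_p f) = T_p^B (periodMap N f)` and the same for `U_p`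
(`Stmt_period_TB`, `Stmt_period_UB` of `Fermat/Agent/Betti/Stmts.lean`), via the abstract statement
`period_heckeOp` for an arbitrary Hecke family of matrices of positive determinant.
-/

set_option autoImplicit false

open ModularCurve ModularCurve.Period UpperHalfPlane CongruenceSubgroup Filter Topology Function
open scoped MatrixGroups ModularForm
open P2MW.S_ModularForm_heckeT_slash_eq_self_of_mem_Gamma0.ModularForm.HeckeSlashInvariance

namespace Fermat.Agent.Betti.H76

/-- Chain rule: if `F` is a primitive of `f` on `ℍ` and `g ∈ GL₂(ℝ)` has positive determinant,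
then `F ∘ g` is a primitive of `f ∣[2] g`. -/
theorem hasDerivAt_comp_glsmul {F : ℍ → ℂ} {f : ℍ → ℂ}
    (hF : ∀ τ : ℍ, HasDerivAt (F ∘ ofComplex) (f τ) ↑τ) (g : GL (Fin 2) ℝ)
    (hdet : 0 < g.val.det) (τ : ℍ) :
    HasDerivAt ((fun w : ℍ => F (g • w)) ∘ ofComplex) ((f ∣[(2 : ℤ)] g) τ) ↑τ := by
  have h1 := (hasStrictDerivAt_smul hdet τ).hasDerivAt
  have h2 : HasDerivAt (F ∘ ofComplex) (f (g • τ)) (↑(g • ofComplex (τ : ℂ))) := by
    rw [ofComplex_apply]
    exact hF (g • τ)
  have h3 := h2.comp (τ : ℂ) h1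
  have hdet' : 0 < g.det.val := by
    rw [Matrix.GeneralLinearGroup.val_det_apply]; exact hdet
  have hval : f (g • τ) * ((g.val.det : ℂ) / denom g τ ^ 2) = (f ∣[(2 : ℤ)] g) τ := by
    rw [ModularForm.slash_apply, UpperHalfPlane.σ, if_pos hdet',
      Matrix.GeneralLinearGroup.val_det_apply, abs_of_pos hdet]
    simp [zpow_neg, div_eq_mul_inv, mul_assoc]
  rw [hval] at h3
  refine h3.congr_of_eventuallyEq ?_
  filter_upwards with z
  simp [Function.comp]

/-- **Abstract B3**: for a Hecke family `rep` for `Γ₀(N)` consisting of matrices of positive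
determinant, if `f' = ∑ i, f ∣[2] rep i` then `periodMap f' = heckeOp (periodMap f)`. -/
theorem period_heckeOp {N : ℕ} [NeZero N] {ι : Type*} [Fintype ι] {rep : ι → GL (Fin 2) ℝ}
    (H : IsHeckeFamily (incl N) rep) (hdet : ∀ i, 0 < (rep i).val.det)
    (f f' : CuspForm (Gamma0 N) 2) (hf' : (⇑f' : ℍ → ℂ) = ∑ i, (⇑f : ℍ → ℂ) ∣[(2 : ℤ)] rep i) :
    periodMap N f' = H.heckeOp (incl_injective N) (periodMap N f) := by
  refine AddMonoidHom.ext fun γ => ?_
  obtain ⟨g, rfl⟩ : ∃ g : Gamma0 N, Additive.ofMul g = γ := ⟨Additive.toMul γ, rfl⟩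
  obtain ⟨F, hF⟩ := Fermat.Agent.S21.partA N f
  obtain ⟨Hh, hH⟩ := Fermat.Agent.S21.partA N f'
  set G : ℍ → ℂ := fun z => ∑ i, F (rep i • z) with hGdef
  have hG : ∀ τ : ℍ, HasDerivAt (G ∘ ofComplex) (f' τ) ↑τ := by
    intro τ
    have h1 : HasDerivAt (fun w : ℂ => ∑ i, ((fun w : ℍ => F (rep i • w)) ∘ ofComplex) w)
        (∑ i, ((⇑f : ℍ → ℂ) ∣[(2 : ℤ)] rep i) τ) ↑τ :=
      HasDerivAt.fun_sum (fun i _ => hasDerivAt_comp_glsmul hF.1 (rep i) (hdet i) τ)
    have h2 : f' τ = ∑ i, ((⇑f : ℍ → ℂ) ∣[(2 : ℤ)] rep i) τ := by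
      rw [hf', Finset.sum_apply]
    rw [h2]
    exact h1
  obtain ⟨c, hc⟩ := Fermat.Agent.S21.primitive_sub_const (f := ⇑f') hG hH.1
  rw [Fermat.Agent.S21.periodMap_apply_of_hasEquivariantPrimitive hH g UpperHalfPlane.I,
    IsHeckeFamily.heckeOp_apply]
  have e1 : Hh ((g : SL(2, ℤ)) • UpperHalfPlane.I) - Hh UpperHalfPlane.I
      = G ((g : SL(2, ℤ)) • UpperHalfPlane.I) - G UpperHalfPlane.I := by
    have a := hc ((g : SL(2, ℤ)) • UpperHalfPlane.I)
    have b := hc UpperHalfPlane.I
    linear_combination b - a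
  rw [e1]
  -- termwise
  have hterm : ∀ i, F (rep i • ((g : SL(2, ℤ)) • UpperHalfPlane.I))
      = periodMap N f (Additive.ofMul (H.kap g i)) + F (rep (H.perm g i) • UpperHalfPlane.I) := by
    intro i
    have hmul := H.rep_mul g i
    have e2 : rep i • ((g : SL(2, ℤ)) • UpperHalfPlane.I)
        = ((H.kap g i : Gamma0 N) : SL(2, ℤ)) • (rep (H.perm g i) • UpperHalfPlane.I) := by
      have l1 : rep i • ((g : SL(2, ℤ)) • UpperHalfPlane.I)
          = (rep i * incl N g) • UpperHalfPlane.I := by
        rw [mul_smul]; rfl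
      have l2 : ((H.kap g i : Gamma0 N) : SL(2, ℤ)) • (rep (H.perm g i) • UpperHalfPlane.I)
          = (incl N (H.kap g i) * rep (H.perm g i)) • UpperHalfPlane.I := by
        rw [mul_smul]; rfl
      rw [l1, l2, hmul]
    rw [e2, Fermat.Agent.S21.periodMap_apply_of_hasEquivariantPrimitive hF (H.kap g i)
      (rep (H.perm g i) • UpperHalfPlane.I)]
    ring
  have hperm : ∑ i, F (rep (H.perm g i) • UpperHalfPlane.I) = ∑ i, F (rep i • UpperHalfPlane.I) :=
    Equiv.sum_comp (H.permEquiv (incl_injective N) g) (fun i => F (rep i • UpperHalfPlane.I))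
  simp only [hGdef, hterm, Finset.sum_add_distrib, hperm]
  ring

theorem det_pos_repT {p : ℕ} (x : OnePoint (ZMod p)) : 0 < (repT p x).val.det := by
  induction x using OnePoint.rec with
  | infty =>
    have := ModularForm.det_heckeDiagMatrix_pos p
    rwa [Matrix.GeneralLinearGroup.val_det_apply] at this
  | coe j =>
    have := ModularForm.det_heckeMatrix_pos p j.val
    rwa [Matrix.GeneralLinearGroup.val_det_apply] at this

theorem det_pos_repU {p : ℕ} (x : ZMod p) : 0 < (repU p x).val.det := by
  have := ModularForm.det_heckeMatrix_pos p x.val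
  rwa [Matrix.GeneralLinearGroup.val_det_apply] at this

/-- **B3-T**: the period map intertwines `T_p` and `T_p^B`. -/
theorem stmt_period_TB : Stmt_period_TB := by
  intro N _ p hp hpN f
  have : Fact p.Prime := ⟨hp⟩
  have : NeZero p := ⟨hp.ne_zero⟩
  rw [TB_apply]
  refine period_heckeOp (isHeckeFamily_T N hpN) det_pos_repT f _ ?_
  rw [CuspForm.coe_heckeTLin_apply, heckeT_eq_sum_onePoint]

/-- **B3-U**: the period map intertwines `U_p` and `U_p^B`. -/
theorem stmt_period_UB : Stmt_period_UB := by
  intro N _ p hpN f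
  have : NeZero p := neZero_of_dvd hpN
  rw [UB_apply]
  refine period_heckeOp (isHeckeFamily_U N hpN) det_pos_repU f _ ?_
  rw [CuspForm.coe_heckeULin_apply, heckeU_eq_sum_zmod]

end Fermat.Agent.Betti.H76

end
-- ==== END Fermat.Agent.Betti.H76_Period

-- ==== BEGIN Fermat.Agent.Betti.H76_Vanish
section

/-!
# Betti-Hecke: the Hecke operators preserve parabolic homomorphisms for ARBITRARY coefficients

`Fermat.Agent.Betti.heckeOp_isParabolicHom` needs torsion free coefficients (it uses the order of
the permutation `perm γ`).  Summing over the orbits of `perm γ` instead removes the hypothesis, so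
that `T_p^B`, `U_p^B` act on `Hom_par(Γ₀(N), ℤ/n)`, `Hom_par(Γ₀(N), μ_n)`, ...

* `sum_eq_zero_of_orbit_sums`: a sum over a finite type vanishes if its partial sums along the
  orbits of a permutation vanish;
* `map_kap_pow`: `φ (κ_i(γ^m)) = ∑_{k<m} φ (κ_{σ^k i}(γ))`;
* `heckeOp_vanishes_gen`, `heckeOp_isParabolicHom_gen`, `TB_mem_parabolicHoms_gen`,
  `UB_mem_parabolicHoms_gen`.
-/

set_option autoImplicit false

namespace Fermat.Agent.Betti.H76

open CongruenceSubgroup Matrix.SpecialLinearGroup ModularForm ModularCurve.Period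
open scoped MatrixGroups

/-! ### Sums over the orbits of a permutation -/

theorem sum_eq_zero_of_orbit_sums {X : Type*} [Fintype X] {A : Type*} [AddCommMonoid A]
    (σ : Equiv.Perm X) (f : X → A)
    (h : ∀ x : X, ∀ m : ℕ, 0 < m → (σ ^ m) x = x → ∑ i ∈ Finset.range m, f ((σ ^ i) x) = 0) :
    ∑ x, f x = 0 := by
  classical
  have claim : ∀ n : ℕ, ∀ S : Finset X, S.card = n → (∀ x ∈ S, σ x ∈ S) → ∑ x ∈ S, f x = 0 := by
    intro n
    induction n using Nat.strong_induction_on with
    | _ n ih =>
      intro S hcard hinv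
      rcases S.eq_empty_or_nonempty with rfl | ⟨x, hx⟩
      · simp
      -- the orbit of x
      have hper : x ∈ Function.periodicPts σ := by
        refine Function.mk_mem_periodicPts (orderOf_pos σ) ?_
        have : (σ ^ orderOf σ) x = x := by rw [pow_orderOf_eq_one]; rfl
        rw [Function.IsPeriodicPt, Function.IsFixedPt]
        rwa [← Equiv.Perm.coe_pow] 
      set m := Function.minimalPeriod σ x with hm
      have hmpos : 0 < m := Function.minimalPeriod_pos_of_mem_periodicPts hper
      have hmx : (σ ^ m) x = x := by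
        have := Function.isPeriodicPt_minimalPeriod σ x
        rw [Function.IsPeriodicPt, Function.IsFixedPt, ← Equiv.Perm.coe_pow] at this
        exact this
      have hinvpow : ∀ i : ℕ, ∀ y ∈ S, (σ ^ i) y ∈ S := by
        intro i
        induction i with
        | zero => intro y hy; simpa using hy
        | succ i ihi =>
          intro y hy
          rw [pow_succ', Equiv.Perm.mul_apply]
          exact hinv _ (ihi y hy)
      set O : Finset X := (Finset.range m).image (fun i => (σ ^ i) x) with hO
      have hOS : O ⊆ S := by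
        intro y hy
        rw [hO, Finset.mem_image] at hy
        obtain ⟨i, -, rfl⟩ := hy
        exact hinvpow i x hx
      have hinj : Set.InjOn (fun i => (σ ^ i) x) (Finset.range m : Set ℕ) := by
        intro i hi j hj hij
        simp only [Finset.coe_range, Set.mem_Iio] at hi hj
        have := Function.iterate_injOn_Iio_minimalPeriod (f := σ) (x := x)
          (show i ∈ Set.Iio (Function.minimalPeriod σ x) from hi)
          (show j ∈ Set.Iio (Function.minimalPeriod σ x) from hj)
        apply this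
        simpa [← Equiv.Perm.coe_pow] using hij
      have hsumO : ∑ y ∈ O, f y = 0 := by
        rw [hO, Finset.sum_image hinj]
        exact h x m hmpos hmx
      have hxO : x ∈ O := by
        rw [hO, Finset.mem_image]
        exact ⟨0, Finset.mem_range.mpr hmpos, by simp⟩
      -- the complement is invariant
      have hinv' : ∀ y ∈ S \ O, σ y ∈ S \ O := by
        intro y hy
        rw [Finset.mem_sdiff] at hy ⊢
        refine ⟨hinv y hy.1, fun hσy => hy.2 ?_⟩
        rw [hO, Finset.mem_image] at hσy ⊢
        obtain ⟨i, hi, hiy⟩ := hσy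
        rcases Nat.eq_zero_or_pos i with rfl | hipos
        · refine ⟨m - 1, Finset.mem_range.mpr (by omega), ?_⟩
          apply σ.injective
          rw [← Equiv.Perm.mul_apply, ← pow_succ', show m - 1 + 1 = m by omega, hmx]
          simpa using hiy
        · refine ⟨i - 1, Finset.mem_range.mpr (by have := Finset.mem_range.mp hi; omega), ?_⟩
          apply σ.injective
          rw [← Equiv.Perm.mul_apply, ← pow_succ', show i - 1 + 1 = i by omega]
          exact hiy
      have hlt : (S \ O).card < n := by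
        rw [← hcard]
        apply Finset.card_lt_card
        refine ⟨Finset.sdiff_subset, fun hsub => ?_⟩
        have := hsub hx
        rw [Finset.mem_sdiff] at this
        exact this.2 hxO
      have h2 := ih _ hlt (S \ O) rfl hinv'
      rw [← Finset.sum_sdiff hOS, h2, hsumO, add_zero]
  have := claim _ Finset.univ rfl (fun x _ => Finset.mem_univ _)
  simpa using this


/-! ### The abstract vanishing statement -/

section Abstract

variable {Γ G : Type*} [Group Γ] [Group G] {e : Γ →* G} {ι : Type*} {rep : ι → G}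
variable {A : Type*} [AddCommGroup A]

theorem map_kap_pow (H : IsHeckeFamily e rep) (he : Function.Injective e)
    (φ : Additive Γ →+ A) (γ : Γ) (i : ι) (m : ℕ) :
    φ (Additive.ofMul (H.kap (γ ^ m) i))
      = ∑ k ∈ Finset.range m, φ (Additive.ofMul (H.kap γ ((H.permEquiv he γ ^ k) i))) := by
  induction m with
  | zero => simp [H.kap_one he]
  | succ m ih =>
    rw [pow_succ, H.kap_mul he, ofMul_mul, map_add, ih, Finset.sum_range_succ,
      ← H.permEquiv_pow he, IsHeckeFamily.permEquiv_apply]

/-- `heckeOp_vanishes` without any hypothesis on the coefficient group. -/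
theorem heckeOp_vanishes_gen [Fintype ι] (H : IsHeckeFamily e rep) (he : Function.Injective e)
    (P : Set Γ)
    (hP : ∀ γ ∈ P, ∀ n : ℕ, 0 < n → ∀ (i : ι) (κ : Γ), rep i * e (γ ^ n) = e κ * rep i → κ ∈ P)
    (φ : Additive Γ →+ A) (hφ : ∀ γ ∈ P, φ (Additive.ofMul γ) = 0) :
    ∀ γ ∈ P, H.heckeOp he φ (Additive.ofMul γ) = 0 := by
  intro γ hγ
  rw [IsHeckeFamily.heckeOp_apply]
  refine sum_eq_zero_of_orbit_sums (H.permEquiv he γ) _ (fun i m hm hi => ?_)
  rw [← map_kap_pow H he φ γ i m]
  refine hφ _ (hP γ hγ m hm i _ ?_)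
  have h1 := H.rep_mul (γ ^ m) i
  have h2 : H.perm (γ ^ m) i = i := by
    rw [← IsHeckeFamily.permEquiv_apply H he, H.permEquiv_pow he]
    exact hi
  rwa [h2] at h1

end Abstract

/-! ### `T_p^B` and `U_p^B` preserve parabolic homomorphisms, any coefficients -/

section Parabolic

variable {N : ℕ} {A : Type*} [AddCommGroup A]

theorem heckeOp_isParabolicHom_gen {ι : Type*} [Fintype ι] {rep : ι → GL (Fin 2) ℝ}
    (H : IsHeckeFamily (incl N) rep) {φ : Additive (Gamma0 N) →+ A}
    (hφ : IsParabolicHom (Gamma0 N) φ) :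
    IsParabolicHom (Gamma0 N) (H.heckeOp (incl_injective N) φ) := by
  intro γ hγ
  exact heckeOp_vanishes_gen H (incl_injective N)
    {γ : Gamma0 N | ((γ : SL(2, ℤ)) : Matrix (Fin 2) (Fin 2) ℤ).trace ^ 2 = 4}
    (fun γ hγ n _ i κ h => parabolic_stable N rep γ hγ n i κ h) φ (fun γ hγ => hφ γ hγ) γ hγ

/-- `T_p^B` preserves parabolic homomorphisms (any coefficient group). -/
theorem TB_mem_parabolicHoms_gen (R : Type*) [Semiring R] [Module R A] {p : ℕ} (hp : p.Prime)
    (hpN : ¬ p ∣ N) {φ : Additive (Gamma0 N) →+ A} (hφ : φ ∈ parabolicHoms R (Gamma0 N) A) :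
    TB N A hp hpN φ ∈ parabolicHoms R (Gamma0 N) A := by
  have : Fact p.Prime := ⟨hp⟩
  exact heckeOp_isParabolicHom_gen (isHeckeFamily_T N hpN) hφ

/-- `U_p^B` preserves parabolic homomorphisms (any coefficient group). -/
theorem UB_mem_parabolicHoms_gen [NeZero N] (R : Type*) [Semiring R] [Module R A] {p : ℕ}
    (hpN : p ∣ N) {φ : Additive (Gamma0 N) →+ A} (hφ : φ ∈ parabolicHoms R (Gamma0 N) A) :
    UB N A hpN φ ∈ parabolicHoms R (Gamma0 N) A := by
  have : NeZero p := neZero_of_dvd hpN
  exact heckeOp_isParabolicHom_gen (isHeckeFamily_U N hpN) hφ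

end Parabolic

end Fermat.Agent.Betti.H76

end
-- ==== END Fermat.Agent.Betti.H76_Vanish

-- ==== BEGIN Fermat.Agent.GTor.Clo.Defs
section

/-!
# G-TOR: the Galois closure of `ℂ(X₀(N)) / ℂ(j)` (copy of `Fermat/Agent/S24/Closure`, with `Q̄`
replaced by `ℂ`)

`ModClosure N` packages a finite Galois closure `L` of `F_N = Q̄(j(q^d) : d ∣ N)` over
`E_N = Q̄(j)`, the surjection `SL(2,ℤ) → Gal(L/E_N)` whose preimage of `Gal(L/F_N)` is `Γ₀(N)`,
and the valuations of `L` coming from the points of `ℍ` and from the cusp `∞`.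
-/

set_option autoImplicit false

noncomputable section

namespace Fermat.Agent.GTor.Clo

open Fermat.Agent.S24

open ModularCurve AlgebraicCurve UpperHalfPlane WithZero IntermediateField
open scoped MatrixGroups

/-- The coefficient field: `ℂ`, seen as an abstract algebraically closed field of characteristic
zero (a `def`, so that the files of `Fermat/Agent/S24/Closure` can be reused verbatim; everything
is definitionally the same as for `ℂ`). -/
def Kbar : Type := ℂ

instance instFieldKbar : Field _root_.Fermat.Agent.GTor.Clo.Kbar := inferInstanceAs (Field ℂ)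
instance instIsAlgClosedKbar : IsAlgClosed _root_.Fermat.Agent.GTor.Clo.Kbar := inferInstanceAs (IsAlgClosed ℂ)
instance instCharZeroKbar : CharZero _root_.Fermat.Agent.GTor.Clo.Kbar := inferInstanceAs (CharZero ℂ)
instance instAlgebraRatKbar : Algebra ℚ _root_.Fermat.Agent.GTor.Clo.Kbar := inferInstanceAs (Algebra ℚ ℂ)

/-- The function field of `X₀(N)` over `ℂ`, inside `ℂ((q))`. -/
abbrev modularFunctionFieldBar (N : ℕ) : IntermediateField _root_.Fermat.Agent.GTor.Clo.Kbar (LaurentSeries _root_.Fermat.Agent.GTor.Clo.Kbar) :=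
  laurentBaseChange _root_.Fermat.Agent.GTor.Clo.Kbar (modularFunctionFieldFull N)

/-- The function field of `X₀(N)` over `Q̄`, as a type. -/
abbrev FN (N : ℕ) : Type := ↥(modularFunctionFieldBar N)

/-- A fixed embedding `Q̄ → ℂ`. -/
def iotaC : _root_.Fermat.Agent.GTor.Clo.Kbar →+* ℂ := RingHom.id ℂ

/-- The formal `j`, with coefficients in `Q̄`. -/
def jBar : LaurentSeries _root_.Fermat.Agent.GTor.Clo.Kbar := coeffEmb _root_.Fermat.Agent.GTor.Clo.Kbar jq

theorem jBar_mem (N : ℕ) [NeZero N] : _root_.Fermat.Agent.GTor.Clo.jBar ∈ modularFunctionFieldBar N := by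
  have h := jqd_mem_full N (one_dvd N)
  rw [qExpand_one_apply] at h
  exact coeffEmb_mem_laurentBaseChange _root_.Fermat.Agent.GTor.Clo.Kbar h

/-- `j` as an element of `F_N`. -/
def jF (N : ℕ) [NeZero N] : _root_.Fermat.Agent.GTor.Clo.FN N := ⟨_root_.Fermat.Agent.GTor.Clo.jBar, _root_.Fermat.Agent.GTor.Clo.jBar_mem N⟩

-- `jOrd` (the order of vanishing of `j - j(τ)` at `τ`) is `Fermat.Agent.S24.jOrd`.

/-- A Galois closure of `F_N / Q̄(j)` with its modular structure.
`E` is (a copy of) the rational function field `Q̄(j)`, generated by `t ↦ j`. -/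
structure ModClosure (N : ℕ) [NeZero N] where
  /-- the base field `Q̄(j)` -/
  E : Type
  /-- the Galois closure -/
  L : Type
  [instFieldE : Field E]
  [instField : Field L]
  [instAlgKE : Algebra _root_.Fermat.Agent.GTor.Clo.Kbar E]
  [instAlgK : Algebra _root_.Fermat.Agent.GTor.Clo.Kbar L]
  [instAlgEF : Algebra E (_root_.Fermat.Agent.GTor.Clo.FN N)]
  [instAlgF : Algebra (_root_.Fermat.Agent.GTor.Clo.FN N) L]
  [instAlgE : Algebra E L]
  [towerKEF : IsScalarTower _root_.Fermat.Agent.GTor.Clo.Kbar E (_root_.Fermat.Agent.GTor.Clo.FN N)]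
  [towerKFL : IsScalarTower _root_.Fermat.Agent.GTor.Clo.Kbar (_root_.Fermat.Agent.GTor.Clo.FN N) L]
  [towerEFL : IsScalarTower E (_root_.Fermat.Agent.GTor.Clo.FN N) L]
  [towerKEL : IsScalarTower _root_.Fermat.Agent.GTor.Clo.Kbar E L]
  [finite : FiniteDimensional E L]
  [galois : IsGalois E L]
  /-- the generator `j` of `E` -/
  t : E
  t_transcendental : Transcendental _root_.Fermat.Agent.GTor.Clo.Kbar t
  t_map : algebraMap E (_root_.Fermat.Agent.GTor.Clo.FN N) t = _root_.Fermat.Agent.GTor.Clo.jF N
  t_gen : ∀ y : E, ∃ p q : Polynomial _root_.Fermat.Agent.GTor.Clo.Kbar, Polynomial.aeval t q ≠ 0 ∧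
    y = Polynomial.aeval t p / Polynomial.aeval t q
  /-- the action of the modular group -/
  π : SL(2, ℤ) →* (L ≃ₐ[E] L)
  π_surjective : Function.Surjective π
  π_comap : (IntermediateField.fixingSubgroup
      (IsScalarTower.toAlgHom E (_root_.Fermat.Agent.GTor.Clo.FN N) L).fieldRange).comap π = CongruenceSubgroup.Gamma0 N
  /-- the valuation at a point of `ℍ` -/
  w : ℍ → Valuation L ℤᵐ⁰
  w_algebraMap : ∀ (τ : ℍ) (c : _root_.Fermat.Agent.GTor.Clo.Kbar), c ≠ 0 → w τ (algebraMap _root_.Fermat.Agent.GTor.Clo.Kbar L c) = 1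
  w_π : ∀ (τ : ℍ) (γ : SL(2, ℤ)) (y : L), w τ (π γ y) = w (γ⁻¹ • τ) y
  w_j : ∀ (τ : ℍ) (a : _root_.Fermat.Agent.GTor.Clo.Kbar), _root_.Fermat.Agent.GTor.Clo.iotaC a = jAn τ →
    w τ (algebraMap E L (t - algebraMap _root_.Fermat.Agent.GTor.Clo.Kbar E a)) = exp (-(jOrd τ : ℤ))
  /-- the valuation at the cusp `∞` (order in `q^(1/N)`) -/
  winf : Valuation L ℤᵐ⁰
  winf_algebraMap : ∀ c : _root_.Fermat.Agent.GTor.Clo.Kbar, c ≠ 0 → winf (algebraMap _root_.Fermat.Agent.GTor.Clo.Kbar L c) = 1
  winf_π_T : ∀ y : L, winf (π ModularGroup.T y) = winf y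
  winf_j : winf (algebraMap E L t⁻¹) = exp (-(N : ℤ))

end Fermat.Agent.GTor.Clo

end
end
-- ==== END Fermat.Agent.GTor.Clo.Defs

-- ==== BEGIN Fermat.Agent.GTor.Clo.H72_GC5
section

/-!
# G-TOR A3–A5, WP GC5 (helper72): every place over `t = 0` comes from a conjugate of `w`

Setting of `gc_val_eq` (GC4).  Given a place `v` of `F` where `t` vanishes, there is
`g ∈ Gal (L / E)` such that the valuation ring of `w ∘ g`, restricted to `F`, is the valuation
ring of `v`.  With GC4 (taken as a hypothesis `hGC4`) this gives GC5.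
-/

set_option autoImplicit false
set_option linter.unusedSectionVars false

noncomputable section

open AlgebraicCurve IntermediateField WithZero IsDedekindDomain
open scoped Pointwise

namespace Fermat.Agent.GTor.Clo

open Fermat.Agent.S24

section Abstract

variable {K A E F L : Type*} [Field K] [IsAlgClosed K] [CharZero K]
    [CommRing A] [IsDedekindDomain A] [Algebra K A]
    [Field E] [Field F] [Field L]
    [Algebra A E] [IsFractionRing A E]
    [Algebra E F] [Algebra E L] [Algebra F L] [IsScalarTower E F L]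
    [Algebra A F] [IsScalarTower A E F] [Algebra A L] [IsScalarTower A E L] [IsScalarTower A F L]
    [Algebra K F] [IsScalarTower K A F]
    [FiniteDimensional E L] [IsGalois E L]

theorem h72_exists_conj_aux
    (t : A) (ht : (Ideal.span {t}).IsMaximal) (ht0 : t ≠ 0)
    (w : Valuation L ℤᵐ⁰) (hwA : ∀ a : A, w (algebraMap A L a) ≤ 1)
    (hwt : w (algebraMap A L t) < 1)
    (v : Place K F) (hvA : ∀ a : A, algebraMap A F a ∈ v.toValuationSubring)
    (hvt : 0 < v.ord (algebraMap A F t)) :
    ∃ g : L ≃ₐ[E] L, ∀ f : F, f ∈ v.toValuationSubring → w (g (algebraMap F L f)) ≤ 1 := by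
  have : CharZero A := charZero_of_injective_algebraMap (algebraMap K A).injective
  have : CharZero E := charZero_of_injective_algebraMap (IsFractionRing.injective A E)
  have : FiniteDimensional E F := FiniteDimensional.left E F L
  have : Algebra.IsSeparable E F := inferInstance
  let B := integralClosure A F
  let C := integralClosure A L
  have : IsDedekindDomain B := IsIntegralClosure.isDedekindDomain A E F B
  have : IsDedekindDomain C := IsIntegralClosure.isDedekindDomain A E L C
  have : IsFractionRing B F := IsIntegralClosure.isFractionRing_of_finite_extension A E F B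
  have : IsFractionRing C L := IsIntegralClosure.isFractionRing_of_finite_extension A E L C
  have : Module.Finite A C := IsIntegralClosure.finite A E L C
  have : Algebra.IsIntegral A B := IsIntegralClosure.isIntegral_algebra A F
  have : Algebra.IsIntegral A C := IsIntegralClosure.isIntegral_algebra A L
  let i1 : Algebra B L := inferInstance
  have : IsScalarTower B F L := inferInstance
  have : IsScalarTower A B L := inferInstance
  let i2 : Algebra K B := inferInstance
  have : IsScalarTower K B F := inferInstance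
  let i3 : Algebra B C := (IsIntegralClosure.lift A C L : B →ₐ[A] C).toRingHom.toAlgebra
  have : IsScalarTower A B C := by
    refine IsScalarTower.of_algebraMap_eq fun a => ?_
    exact ((IsIntegralClosure.lift A C L : B →ₐ[A] C).commutes a).symm
  have : IsScalarTower B C L := by
    refine IsScalarTower.of_algebraMap_eq fun b => ?_
    exact (IsIntegralClosure.algebraMap_lift A C L b).symm
  have : Algebra.IsIntegral B C := Algebra.IsIntegral.tower_top (R := A)
  let i4 : MulSemiringAction (L ≃ₐ[E] L) C := IsIntegralClosure.MulSemiringAction A E L C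
  have : IsGaloisGroup (L ≃ₐ[E] L) A C := IsGaloisGroup.of_isFractionRing _ _ _ E L
  have hAL : Function.Injective (algebraMap A L) := by
    rw [IsScalarTower.algebraMap_eq A E L]
    exact (algebraMap E L).injective.comp (IsFractionRing.injective A E)
  have hAC : Function.Injective (algebraMap A C) := by
    intro x y hxy
    apply hAL
    rw [IsScalarTower.algebraMap_apply A C L, IsScalarTower.algebraMap_apply A C L, hxy]
  have : FaithfulSMul A C := (faithfulSMul_iff_algebraMap_injective A C).mpr hAC
  have hBC : Function.Injective (algebraMap B C) := by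
    intro x y hxy
    have h1 := congrArg (algebraMap C L) hxy
    rw [← IsScalarTower.algebraMap_apply B C L, ← IsScalarTower.algebraMap_apply B C L,
      IsScalarTower.algebraMap_apply B F L, IsScalarTower.algebraMap_apply B F L] at h1
    exact (IsFractionRing.injective B F) ((algebraMap F L).injective h1)
  have : FaithfulSMul B C := (faithfulSMul_iff_algebraMap_injective B C).mpr hBC
  have hAB : Function.Injective (algebraMap A B) := by
    intro x y hxy
    apply hAL
    rw [IsScalarTower.algebraMap_apply A B L, IsScalarTower.algebraMap_apply A B L, hxy]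
  have htB : algebraMap A B t ≠ 0 := fun h => ht0 (hAB (h.trans (map_zero _).symm))
  -- the valuation is `≤ 1` on `C`
  have hwC : ∀ c : C, w (algebraMap C L c) ≤ 1 := by
    intro c
    have hint : IsIntegral A (algebraMap C L c) :=
      (IsIntegralClosure.isIntegral_iff (A := C)).mpr ⟨c, rfl⟩
    have := h95_mem_valuationSubring_of_isIntegral (A := A) w.valuationSubring
      (fun a => (Valuation.mem_valuationSubring_iff _ _).mpr (hwA a)) hint
    exact (Valuation.mem_valuationSubring_iff _ _).mp this
  -- the prime `P` of `w`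
  set P : Ideal C := h95_valLT w hwC with hP
  have hPprime : P.IsPrime := h95_valLT_isPrime w hwC
  set p : Ideal A := Ideal.span {t} with hp
  have htP : algebraMap A C t ∈ P := by
    rw [hP, h95_mem_valLT, ← IsScalarTower.algebraMap_apply A C L]
    exact hwt
  have hPp : P.LiesOver p := by
    refine ⟨?_⟩
    have hle : p ≤ P.under A := by
      rw [hp, Ideal.span_singleton_le_iff_mem]
      exact htP
    exact Ideal.IsMaximal.eq_of_le ht (Ideal.IsPrime.under A P).ne_top hle
  have hsmul : ∀ (g : L ≃ₐ[E] L) (c : C), algebraMap C L (g • c) = g (algebraMap C L c) := by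
    intro g c
    exact algebraMap_galRestrict_apply A g c
  -- the prime of `v`
  have hB : ∀ b : B, algebraMap B F b ∈ v.toValuationSubring := fun b =>
    h95_mem_valuationSubring_of_isIntegral (A := A) v.toValuationSubring hvA
      ((IsIntegralClosure.isIntegral_iff (A := B)).mpr ⟨b, rfl⟩)
  obtain ⟨wB, hwB⟩ := exists_heightOneSpectrum_of_le v hB
  have hvw : Place.ofHeightOneSpectrum (K := K) (F := F) wB = v := Place.ext hwB.symm
  have htq : algebraMap A B t ∈ wB.asIdeal := by
    have h1 := h72_ord_pos_iff (K := K) (F := F) B wB (algebraMap A B t) htB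
    rw [hvw, ← IsScalarTower.algebraMap_apply A B F] at h1
    exact h1.mp hvt
  have hqp : wB.asIdeal.LiesOver p := by
    refine ⟨?_⟩
    have hle : p ≤ wB.asIdeal.under A := by
      rw [hp, Ideal.span_singleton_le_iff_mem]
      exact htq
    have := wB.isPrime
    exact Ideal.IsMaximal.eq_of_le ht (Ideal.IsPrime.under A wB.asIdeal).ne_top hle
  -- a prime `Q` of `C` over the prime of `v`
  have := wB.isPrime
  obtain ⟨⟨Q, hQprime, hQq⟩⟩ := Ideal.nonempty_primesOver (S := C) wB.asIdeal
  have hQp : Q.LiesOver p := Ideal.LiesOver.trans Q wB.asIdeal p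
  -- conjugate
  obtain ⟨g, hg⟩ := Ideal.exists_smul_eq_of_isGaloisGroup p Q P (L ≃ₐ[E] L)
  refine ⟨g, fun f hf => ?_⟩
  have hf' : wB.valuation F f ≤ 1 := by
    rw [hwB, Valuation.mem_valuationSubring_iff] at hf
    exact hf
  obtain ⟨n, d, hnd⟩ := wB.exists_primeCompl_mul_eq_of_integer f hf'
  -- `w (g d) = 1`
  have hdQ : algebraMap B C (d : B) ∉ Q := by
    intro h
    have : (d : B) ∈ Q.under B := h
    rw [← hQq.over] at this
    exact d.2 this
  have hdP : g • algebraMap B C (d : B) ∉ P := by
    intro h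
    rw [← hg, Ideal.smul_mem_pointwise_smul_iff] at h
    exact hdQ h
  have hd1 : w (g (algebraMap F L (algebraMap B F (d : B)))) = 1 := by
    have h1 : algebraMap F L (algebraMap B F (d : B)) = algebraMap C L (algebraMap B C (d : B)) := by
      rw [← IsScalarTower.algebraMap_apply B F L, ← IsScalarTower.algebraMap_apply B C L]
    rw [h1, ← hsmul]
    refine le_antisymm (hwC _) ?_
    by_contra hlt
    rw [not_le] at hlt
    exact hdP ((h95_mem_valLT w hwC _).mpr hlt)
  have hn1 : w (g (algebraMap F L (algebraMap B F n))) ≤ 1 := by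
    have h1 : algebraMap F L (algebraMap B F n) = algebraMap C L (algebraMap B C n) := by
      rw [← IsScalarTower.algebraMap_apply B F L, ← IsScalarTower.algebraMap_apply B C L]
    rw [h1, ← hsmul]
    exact hwC _
  have h2 := congrArg (fun y => w (g (algebraMap F L y))) hnd
  simp only [map_mul] at h2
  rw [hd1, mul_one] at h2
  rw [h2]
  exact hn1

end Abstract

section Concrete

open Polynomial

variable {K E F L : Type*} [Field K] [IsAlgClosed K] [CharZero K] [Field E] [Field F] [Field L]
  [Algebra K E] [Algebra K F] [Algebra K L] [Algebra E F] [Algebra E L] [Algebra F L]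
  [IsScalarTower K E F] [IsScalarTower K E L] [IsScalarTower E F L] [IsScalarTower K F L]
  [FiniteDimensional E L] [IsGalois E L]

/-- A place of `F` where `t` vanishes is dominated by a conjugate of `w`. -/
theorem h72_exists_conj
    (t : E) (ht : Transcendental K t)
    (hE : ∀ y : E, ∃ p q : Polynomial K, Polynomial.aeval t q ≠ 0 ∧
      y = Polynomial.aeval t p / Polynomial.aeval t q)
    (w : Valuation L ℤᵐ⁰) (hwK : ∀ c : K, c ≠ 0 → w (algebraMap K L c) = 1)
    (hwt : w (algebraMap E L t) < 1)
    (v : Place K F) (hv : 0 < v.ord (algebraMap E F t)) :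
    ∃ g : L ≃ₐ[E] L, ∀ f : F, f ∈ v.toValuationSubring → w (g (algebraMap F L f)) ≤ 1 := by
  let iAE : Algebra K[X] E := (Polynomial.aeval t : K[X] →ₐ[K] E).toRingHom.toAlgebra
  have hAE : ∀ p : K[X], algebraMap K[X] E p = Polynomial.aeval t p := fun p => rfl
  have : IsScalarTower K K[X] E := by
    refine IsScalarTower.of_algebraMap_eq fun k => ?_
    rw [hAE, Polynomial.algebraMap_apply, Algebra.algebraMap_self, RingHom.id_apply,
      Polynomial.aeval_C]
  let iAF : Algebra K[X] F := ((algebraMap E F).comp (algebraMap K[X] E)).toAlgebra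
  let iAL : Algebra K[X] L := ((algebraMap E L).comp (algebraMap K[X] E)).toAlgebra
  have : IsScalarTower K[X] E F := IsScalarTower.of_algebraMap_eq' rfl
  have : IsScalarTower K[X] E L := IsScalarTower.of_algebraMap_eq' rfl
  have : IsScalarTower K[X] F L := by
    refine IsScalarTower.of_algebraMap_eq fun p => ?_
    rw [IsScalarTower.algebraMap_apply K[X] E L, IsScalarTower.algebraMap_apply K[X] E F,
      ← IsScalarTower.algebraMap_apply E F L]
  have : IsScalarTower K K[X] F := by
    refine IsScalarTower.of_algebraMap_eq fun k => ?_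
    rw [IsScalarTower.algebraMap_apply K[X] E F, ← IsScalarTower.algebraMap_apply K K[X] E,
      ← IsScalarTower.algebraMap_apply K E F]
  have hinj : Function.Injective (algebraMap K[X] E) := transcendental_iff_injective.mp ht
  have : FaithfulSMul K[X] E := (faithfulSMul_iff_algebraMap_injective K[X] E).mpr hinj
  have : IsFractionRing K[X] E := by
    refine IsFractionRing.of_field K[X] E fun y => ?_
    obtain ⟨p, q, -, hy⟩ := hE y
    exact ⟨p, q, hy⟩
  have hXF : algebraMap K[X] F X = algebraMap E F t := by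
    rw [IsScalarTower.algebraMap_apply K[X] E F, hAE, Polynomial.aeval_X]
  have hXL : algebraMap K[X] L X = algebraMap E L t := by
    rw [IsScalarTower.algebraMap_apply K[X] E L, hAE, Polynomial.aeval_X]
  have hmemF : ∀ (V : ValuationSubring F), (∀ k : K, algebraMap K F k ∈ V) →
      algebraMap E F t ∈ V → ∀ a : K[X], algebraMap K[X] F a ∈ V := by
    intro V hVK hVt a
    induction a using Polynomial.induction_on' with
    | add p q hp hq => rw [map_add]; exact V.add_mem _ _ hp hq
    | monomial n k =>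
      rw [← Polynomial.C_mul_X_pow_eq_monomial, map_mul, map_pow, hXF,
        ← Polynomial.algebraMap_eq, ← IsScalarTower.algebraMap_apply K K[X] F]
      exact V.mul_mem _ _ (hVK k) (V.pow_mem hVt n)
  have hwA : ∀ a : K[X], w (algebraMap K[X] L a) ≤ 1 := by
    intro a
    induction a using Polynomial.induction_on' with
    | add p q hp hq => rw [map_add]; exact (w.map_add _ _).trans (max_le hp hq)
    | monomial n k =>
      have hk : w (algebraMap K L k) ≤ 1 := by
        rcases eq_or_ne k 0 with rfl | hk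
        · simp
        · exact (hwK k hk).le
      have hkL : algebraMap K[X] L (Polynomial.C k) = algebraMap K L k := by
        rw [IsScalarTower.algebraMap_apply K[X] E L, hAE, Polynomial.aeval_C,
          ← IsScalarTower.algebraMap_apply K E L]
      rw [← Polynomial.C_mul_X_pow_eq_monomial, map_mul, map_pow, hXL, hkL, map_mul, map_pow]
      exact mul_le_one' hk (pow_le_one' hwt.le n)
  exact h72_exists_conj_aux (K := K) (A := K[X]) (E := E) (F := F) (L := L)
    (X : K[X]) h95_span_X_isMaximal Polynomial.X_ne_zero w hwA (by rw [hXL]; exact hwt) v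
    (hmemF v.toValuationSubring v.algebraMap_mem'
      (h95_mem_of_ord_nonneg v hv.le))
    (by rw [hXF]; exact hv)

theorem h72_ord_nonneg_of_mem (v : Place K F) {f : F} (h : f ∈ v.toValuationSubring) :
    0 ≤ v.ord f := by
  rcases eq_or_ne f 0 with rfl | hf
  · simp
  have h1 : v.adicValuation f ≤ 1 := by
    have := v.adicValuation_coe ⟨f, h⟩
    rw [show ((⟨f, h⟩ : v.toValuationSubring) : F) = f from rfl] at this
    rw [this]
    exact IsDedekindDomain.HeightOneSpectrum.intValuation_le_one _ _
  have h2 : WithZero.log (v.adicValuation f) ≤ 0 := by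
    rw [← WithZero.log_one]
    exact (WithZero.log_le_log (v.adicValuation_ne_zero hf) one_ne_zero).mpr h1
  simp only [Place.ord]
  omega

/-- **GC5**, with GC4 as a hypothesis. Every place of `F` over `t = 0` arises as in GC4 from a
conjugate `w ∘ g` of `w`. -/
theorem h72_gc_val_eq_of_place
    (t : E) (ht : Transcendental K t)
    (hE : ∀ y : E, ∃ p q : Polynomial K, Polynomial.aeval t q ≠ 0 ∧
      y = Polynomial.aeval t p / Polynomial.aeval t q)
    (hGC4 : ∀ (w' : Valuation L ℤᵐ⁰), (∀ c : K, c ≠ 0 → w' (algebraMap K L c) = 1) →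
      w' (algebraMap E L t) < 1 → ∀ σ' : L ≃ₐ[E] L, (∀ y, w' (σ' y) = w' y) →
      exp (-(orderOf σ' : ℤ)) ≤ w' (algebraMap E L t) →
      ∃ v' : Place K F, 0 < v'.ord (algebraMap E F t) ∧
        ∀ f : F, f ≠ 0 → w' (algebraMap F L f)
          = exp (-((Nat.card ↥(Subgroup.zpowers σ' ⊓
              IntermediateField.fixingSubgroup (IsScalarTower.toAlgHom E F L).fieldRange) : ℤ)
                * v'.ord f)))
    (w : Valuation L ℤᵐ⁰) (hwK : ∀ c : K, c ≠ 0 → w (algebraMap K L c) = 1)
    (hwt : w (algebraMap E L t) < 1)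
    (σ : L ≃ₐ[E] L) (hσ : ∀ y, w (σ y) = w y)
    (hord : exp (-(orderOf σ : ℤ)) ≤ w (algebraMap E L t))
    (v : Place K F) (hv : 0 < v.ord (algebraMap E F t)) :
    ∃ g : L ≃ₐ[E] L, ∀ f : F, f ≠ 0 → w (g (algebraMap F L f))
        = exp (-((Nat.card ↥(Subgroup.zpowers (g⁻¹ * σ * g) ⊓
            IntermediateField.fixingSubgroup (IsScalarTower.toAlgHom E F L).fieldRange) : ℤ)
              * v.ord f)) := by
  obtain ⟨g, hg⟩ := h72_exists_conj t ht hE w hwK hwt v hv
  let w' : Valuation L ℤᵐ⁰ := w.comap (g : L →+* L)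
  have hw' : ∀ y : L, w' y = w (g y) := fun y => rfl
  have h1 : ∀ c : K, c ≠ 0 → w' (algebraMap K L c) = 1 := by
    intro c hc
    rw [hw', IsScalarTower.algebraMap_apply K E L, g.commutes,
      ← IsScalarTower.algebraMap_apply K E L]
    exact hwK c hc
  have h2 : w' (algebraMap E L t) = w (algebraMap E L t) := by
    rw [hw', g.commutes]
  have h3 : ∀ y, w' ((g⁻¹ * σ * g) y) = w' y := by
    intro y
    rw [hw', hw']
    have : g ((g⁻¹ * σ * g) y) = σ (g y) := by
      rw [AlgEquiv.mul_apply, AlgEquiv.mul_apply]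
      exact AlgEquiv.apply_symm_apply g _
    rw [this, hσ]
  have h4 : orderOf (g⁻¹ * σ * g) = orderOf σ := by
    have := orderOf_injective (MulAut.conj g⁻¹).toMonoidHom (MulEquiv.injective _) σ
    rw [MulEquiv.toMonoidHom_eq_coe, MonoidHom.coe_coe, MulAut.conj_apply, inv_inv] at this
    exact this
  obtain ⟨v', -, hv'⟩ := hGC4 w' h1 (by rw [h2]; exact hwt) (g⁻¹ * σ * g) h3
    (by rw [h2, h4]; exact hord)
  have hepos : (0 : ℤ) < (Nat.card ↥(Subgroup.zpowers (g⁻¹ * σ * g) ⊓
      IntermediateField.fixingSubgroup (IsScalarTower.toAlgHom E F L).fieldRange) : ℤ) := by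
    exact_mod_cast Nat.card_pos
  have hle : v.toValuationSubring ≤ v'.toValuationSubring := by
    intro f hf
    rcases eq_or_ne f 0 with rfl | hf0
    · exact v'.toValuationSubring.zero_mem
    have h5 := hg f hf
    rw [← hw', hv' f hf0, ← exp_zero, exp_le_exp] at h5
    apply h95_mem_of_ord_nonneg
    by_contra hneg
    rw [not_le] at hneg
    have := mul_neg_of_pos_of_neg hepos hneg
    omega
  have hvv' : v = v' :=
    Place.ext (ValuationSubring.eq_of_le_of_ne_top _ hle v'.ne_top')
  refine ⟨g, fun f hf => ?_⟩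
  rw [hvv', ← hw']
  exact hv' f hf

end Concrete

end Fermat.Agent.GTor.Clo

end
end
-- ==== END Fermat.Agent.GTor.Clo.H72_GC5
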