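-- GENERATED (merged mirror, NOTES/tools/trim/merge3_helper67.py): 10 modules of the originals, bodies verbatim.
import Fermat.Prelude.Thm_UpperHalfPlane_qExpansion_prod
import Fermat.Prelude.Thm_UpperHalfPlane_qExpansion_coeff_nat_mul
import Fermat.Prelude.Def_GaloisRep_Adic
import Mathlib
import Fermat.Agent.Zm.S35_L02_004
import Fermat.Agent.Zm.S35_L02_005
import Fermat.Agent.Zm.S35_L01_005
import Fermat.Agent.S28.H76_SymCore
import Fermat.Agent.S28.H76_Bridge
import Fermat.Agent.R.H91_Lucas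
import Fermat.Agent.Zm.S35_L02_002
import Fermat.Agent.Zm.S35_L02_001

-- ==== BEGIN Fermat.Agent.S24.H85_FF3
section

/-!
# S24 / function-field layer (helper85): FF3, the Riemann–Hurwitz count

`K` algebraically closed of characteristic zero, `F / K⟮x⟯` finite.  For a non-zero differential
`ω` with divisor `D`:
`deg D = ∑_{a ∈ S} (n - r a) - n - r∞`, `n = [F : K⟮x⟯]`, where `r a` is the number of places over
`x = a`, `r∞` the number of poles of `x`, and `S` contains all branch values.

The interface statements FF1a (`deg v = 1`), FF1b (zeros of `y`), FF1d (principal divisors have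
degree zero), FF2d and FF2e (order of `dx` at zeros of `x - a` and at poles of `x`) enter as
explicit hypotheses of `ff_riemann_hurwitz_of`.
-/

set_option autoImplicit false

noncomputable section

open AlgebraicCurve KaehlerDifferential IntermediateField

namespace Fermat.Agent.S24.H85

variable {K F : Type*} [Field K] [Field F] [Algebra K F]

/-! ### Order and membership in the valuation ring -/

theorem mem_of_ord_nonneg (v : Place K F) {f : F} (h : 0 ≤ v.ord f) :
    f ∈ v.toValuationSubring := by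
  rcases eq_or_ne f 0 with rfl | hf
  · exact v.toValuationSubring.zero_mem
  obtain ⟨π, hπ⟩ := IsDiscreteValuationRing.exists_irreducible v.toValuationSubring
  obtain ⟨u, hu⟩ := v.exists_unit_mul_zpow hf hπ
  obtain ⟨n, hn⟩ := Int.eq_ofNat_of_zero_le h
  rw [hu, hn, zpow_natCast]
  exact v.toValuationSubring.mul_mem _ _ (Subtype.mem _)
    (v.toValuationSubring.pow_mem (Subtype.mem _) n)

theorem ord_nonneg_of_mem (v : Place K F) {f : F} (h : f ∈ v.toValuationSubring) :
    0 ≤ v.ord f := by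
  rcases eq_or_ne f 0 with rfl | hf
  · simp
  have h1 : v.adicValuation f ≤ 1 := by
    have := v.adicValuation_coe ⟨f, h⟩
    rw [show ((⟨f, h⟩ : v.toValuationSubring) : F) = f from rfl] at this
    rw [this]
    exact IsDedekindDomain.HeightOneSpectrum.intValuation_le_one _ _
  have h2 : WithZero.log (v.adicValuation f) ≤ 0 := by
    rw [← WithZero.log_one]
    exact (WithZero.log_le_log (v.adicValuation_ne_zero hf) one_ne_zero).mpr h1
  simp only [Place.ord]
  omega

theorem ord_pos_of_mem_maximalIdeal (v : Place K F) {f : F} (hf : f ≠ 0)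
    (h : f ∈ v.toValuationSubring)
    (hm : (⟨f, h⟩ : v.toValuationSubring) ∈ IsLocalRing.maximalIdeal v.toValuationSubring) :
    0 < v.ord f := by
  have h1 : v.adicValuation f < 1 := by
    have := v.adicValuation_coe ⟨f, h⟩
    rw [show ((⟨f, h⟩ : v.toValuationSubring) : F) = f from rfl] at this
    rw [this]
    exact (IsDedekindDomain.HeightOneSpectrum.intValuation_lt_one_iff_mem _ _).mpr hm
  have h2 : WithZero.log (v.adicValuation f) < 0 := by
    rw [← WithZero.log_one]
    exact (WithZero.log_lt_log (v.adicValuation_ne_zero hf) one_ne_zero).mpr h1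
  simp only [Place.ord]
  omega

theorem mem_maximalIdeal_of_ord_pos (v : Place K F) {f : F} (hpos : 0 < v.ord f)
    (h : f ∈ v.toValuationSubring) :
    (⟨f, h⟩ : v.toValuationSubring) ∈ IsLocalRing.maximalIdeal v.toValuationSubring := by
  have hf : f ≠ 0 := by
    rintro rfl
    simp at hpos
  rw [← v.heightOneSpectrum_asIdeal,
    ← IsDedekindDomain.HeightOneSpectrum.intValuation_lt_one_iff_mem, ← v.adicValuation_coe]
  show v.adicValuation f < 1
  have h2 : WithZero.log (v.adicValuation f) < 0 := by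
    simp only [Place.ord] at hpos
    omega
  rw [← WithZero.log_one] at h2
  exact (WithZero.log_lt_log (v.adicValuation_ne_zero hf) one_ne_zero).mp h2


/-! ### The fields `K⟮x - a⟯` and `K⟮x⁻¹⟯` -/

theorem adjoin_sub_algebraMap (x : F) (a : K) : K⟮x - algebraMap K F a⟯ = K⟮x⟯ := by
  apply le_antisymm
  · rw [IntermediateField.adjoin_simple_le_iff]
    exact sub_mem (IntermediateField.mem_adjoin_simple_self K x)
      (IntermediateField.algebraMap_mem _ a)
  · rw [IntermediateField.adjoin_simple_le_iff]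
    have h : (x - algebraMap K F a) + algebraMap K F a ∈ K⟮x - algebraMap K F a⟯ :=
      add_mem (IntermediateField.mem_adjoin_simple_self K _)
        (IntermediateField.algebraMap_mem _ a)
    rwa [sub_add_cancel] at h

theorem adjoin_inv (x : F) : K⟮x⁻¹⟯ = K⟮x⟯ := by
  apply le_antisymm
  · rw [IntermediateField.adjoin_simple_le_iff]
    exact inv_mem (IntermediateField.mem_adjoin_simple_self K x)
  · rw [IntermediateField.adjoin_simple_le_iff]
    have h := inv_mem (IntermediateField.mem_adjoin_simple_self K x⁻¹)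
    rwa [inv_inv] at h

theorem finiteDimensional_of_eq {E E' : IntermediateField K F} (h : E = E')
    [FiniteDimensional E F] : FiniteDimensional E' F := by
  subst h
  infer_instance

theorem finrank_of_eq {E E' : IntermediateField K F} (h : E = E') :
    Module.finrank E F = Module.finrank E' F := by
  subst h
  rfl

theorem transcendental_sub_algebraMap {x : F} (hx : Transcendental K x) (a : K) :
    Transcendental K (x - algebraMap K F a) := by
  intro h
  apply hx
  have h2 := h.add (isAlgebraic_algebraMap (R := K) (A := F) a)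
  simpa using h2

theorem transcendental_inv {x : F} (hx : Transcendental K x) : Transcendental K x⁻¹ := by
  intro h
  apply hx
  have h2 := h.inv
  simpa using h2

/-! ### Places and values of `x` -/

/-- At a place of degree one where `x` is regular, `x - a` vanishes for some constant `a`. -/
theorem exists_ord_sub_pos (v : Place K F) (hdeg : v.deg = 1) {x : F} (hx : Transcendental K x)
    (hmem : x ∈ v.toValuationSubring) : ∃ a : K, 0 < v.ord (x - algebraMap K F a) := by
  have h1 : (⊥ : Subalgebra K v.ResidueField) = ⊤ :=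
    Subalgebra.bot_eq_top_of_finrank_eq_one hdeg
  have h2 : IsLocalRing.residue v.toValuationSubring ⟨x, hmem⟩ ∈ (⊥ : Subalgebra K v.ResidueField) := by
    rw [h1]
    exact Algebra.mem_top
  obtain ⟨a, ha⟩ := Algebra.mem_bot.mp h2
  refine ⟨a, ?_⟩
  have hne : x - algebraMap K F a ≠ 0 := by
    intro h0
    apply hx
    rw [sub_eq_zero.mp h0]
    exact isAlgebraic_algebraMap a
  have hmem' : x - algebraMap K F a ∈ v.toValuationSubring :=
    v.toValuationSubring.sub_mem hmem (v.algebraMap_mem' a)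
  refine ord_pos_of_mem_maximalIdeal v hne hmem' ?_
  rw [← IsLocalRing.residue_eq_zero_iff]
  have h3 : (⟨x - algebraMap K F a, hmem'⟩ : v.toValuationSubring)
      = ⟨x, hmem⟩ - algebraMap K v.toValuationSubring a := by
    ext
    rfl
  rw [h3, map_sub, sub_eq_zero, ← ha]
  rfl

theorem eq_of_ord_sub_pos (v : Place K F) {x : F} {a b : K}
    (ha : 0 < v.ord (x - algebraMap K F a)) (hb : 0 < v.ord (x - algebraMap K F b)) : a = b := by
  by_contra hab
  have hma := mem_of_ord_nonneg v ha.le
  have hmb := mem_of_ord_nonneg v hb.le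
  have h1 := mem_maximalIdeal_of_ord_pos v ha hma
  have h2 := mem_maximalIdeal_of_ord_pos v hb hmb
  have h3 := (IsLocalRing.maximalIdeal v.toValuationSubring).sub_mem h2 h1
  have hc : algebraMap K F (a - b) ∈ v.toValuationSubring := v.algebraMap_mem' _
  have h4 : (⟨x - algebraMap K F b, hmb⟩ : v.toValuationSubring) - ⟨x - algebraMap K F a, hma⟩
      = ⟨algebraMap K F (a - b), hc⟩ := by
    ext
    show (x - algebraMap K F b) - (x - algebraMap K F a) = algebraMap K F (a - b)
    rw [map_sub]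
    ring
  rw [h4] at h3
  have hne : algebraMap K F (a - b) ≠ 0 := by
    rw [Ne, map_eq_zero_iff _ (algebraMap K F).injective, sub_eq_zero]
    exact hab
  have h5 := ord_pos_of_mem_maximalIdeal v hne hc h3
  rw [H17.ord_algebraMap_eq_zero] at h5
  exact lt_irrefl _ h5

theorem not_ord_sub_pos_of_pole (v : Place K F) {x : F} (hx : v.ord x < 0) (a : K) :
    ¬ 0 < v.ord (x - algebraMap K F a) := by
  intro ha
  have hma := mem_of_ord_nonneg v ha.le
  have hmem : x ∈ v.toValuationSubring := by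
    have h := v.toValuationSubring.add_mem _ _ hma (v.algebraMap_mem' a)
    rwa [sub_add_cancel] at h
  have := ord_nonneg_of_mem v hmem
  omega

/-! ### Degree as a finite sum -/

theorem degree_eq_sum_of_subset (hdeg : ∀ v : Place K F, v.deg = 1) (E : Divisor K F)
    (T : Finset (Place K F)) (hT : E.support ⊆ T) : Divisor.degree E = ∑ v ∈ T, E v := by
  have h1 : Divisor.degree E = ∑ v ∈ E.support, E v := by
    simp only [Divisor.degree, Finsupp.liftAddHom_apply, Finsupp.sum, AddMonoidHom.coe_mulRight,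
      hdeg, Nat.cast_one, mul_one]
  rw [h1]
  exact Finset.sum_subset hT fun v _ hv => Finsupp.notMem_support_iff.mp hv


/-! ### The divisor of `dx` -/

section Main

/-- Zeros of `x - a`: finitely many, orders sum to `[F : K⟮x⟯]`. -/
theorem zeros_sub (x : F) (hx : Transcendental K x) [FiniteDimensional K⟮x⟯ F]
    (hzeros : ∀ y : F, Transcendental K y → FiniteDimensional K⟮y⟯ F →
      {v : Place K F | 0 < v.ord y}.Finite ∧
        ∑ᶠ v ∈ {v : Place K F | 0 < v.ord y}, v.ord y = (Module.finrank K⟮y⟯ F : ℤ))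
    (a : K) :
    ∃ Z : Finset (Place K F), (∀ v, v ∈ Z ↔ 0 < v.ord (x - algebraMap K F a)) ∧
      ∑ v ∈ Z, v.ord (x - algebraMap K F a) = (Module.finrank K⟮x⟯ F : ℤ) ∧
      Z.card = Nat.card {v : Place K F // 0 < v.ord (x - algebraMap K F a)} := by
  have h := hzeros (x - algebraMap K F a) (transcendental_sub_algebraMap hx a)
    (finiteDimensional_of_eq (adjoin_sub_algebraMap x a).symm)
  rw [finrank_of_eq (adjoin_sub_algebraMap x a)] at h
  obtain ⟨hfin, h2⟩ := h
  refine ⟨hfin.toFinset, fun v => ?_, ?_, ?_⟩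
  · rw [Set.Finite.mem_toFinset, Set.mem_ofPred_eq]
  · rw [← finsum_mem_eq_finite_toFinset_sum _ hfin]
    exact h2
  · rw [← Set.ncard_eq_toFinset_card _ hfin, ← Nat.card_coe_set_eq]
    rfl

/-- Poles of `x`: finitely many, orders sum to `-[F : K⟮x⟯]`. -/
theorem poles (x : F) (hx : Transcendental K x) [FiniteDimensional K⟮x⟯ F]
    (hzeros : ∀ y : F, Transcendental K y → FiniteDimensional K⟮y⟯ F →
      {v : Place K F | 0 < v.ord y}.Finite ∧
        ∑ᶠ v ∈ {v : Place K F | 0 < v.ord y}, v.ord y = (Module.finrank K⟮y⟯ F : ℤ)) :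
    ∃ P : Finset (Place K F), (∀ v, v ∈ P ↔ v.ord x < 0) ∧
      ∑ v ∈ P, v.ord x = -(Module.finrank K⟮x⟯ F : ℤ) ∧
      P.card = Nat.card {v : Place K F // v.ord x < 0} := by
  have h := hzeros x⁻¹ (transcendental_inv hx) (finiteDimensional_of_eq (adjoin_inv x).symm)
  rw [finrank_of_eq (adjoin_inv x)] at h
  have hset : {v : Place K F | 0 < v.ord x⁻¹} = {v : Place K F | v.ord x < 0} := by
    ext v
    simp only [Set.mem_ofPred_eq, Place.ord_inv]
    omega
  rw [hset] at h
  obtain ⟨hfin, h2⟩ := h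
  refine ⟨hfin.toFinset, fun v => ?_, ?_, ?_⟩
  · rw [Set.Finite.mem_toFinset, Set.mem_ofPred_eq]
  · rw [finsum_mem_eq_finite_toFinset_sum _ hfin] at h2
    rw [← h2, ← Finset.sum_neg_distrib]
    refine Finset.sum_congr rfl fun v _ => ?_
    rw [Place.ord_inv, neg_neg]
  · rw [← Set.ncard_eq_toFinset_card _ hfin, ← Nat.card_coe_set_eq]
    rfl

/-- The degree of the divisor of `dx`. -/
theorem degree_div_dx (x : F) (hx : Transcendental K x) [FiniteDimensional K⟮x⟯ F]
    (hdeg : ∀ v : Place K F, v.deg = 1)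
    (hzeros : ∀ y : F, Transcendental K y → FiniteDimensional K⟮y⟯ F →
      {v : Place K F | 0 < v.ord y}.Finite ∧
        ∑ᶠ v ∈ {v : Place K F | 0 < v.ord y}, v.ord y = (Module.finrank K⟮y⟯ F : ℤ))
    (hzero : ∀ (v : Place K F) (a : K), 0 < v.ord (x - algebraMap K F a) →
      v.ordDifferential (D K F x) = v.ord (x - algebraMap K F a) - 1)
    (hpole : ∀ v : Place K F, v.ord x < 0 → v.ordDifferential (D K F x) = v.ord x - 1)
    (S : Finset K) (r : K → ℕ)
    (hr : ∀ a ∈ S, Nat.card {v : Place K F // 0 < v.ord (x - algebraMap K F a)} = r a)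
    (hS : ∀ a ∉ S, Nat.card {v : Place K F // 0 < v.ord (x - algebraMap K F a)}
      = Module.finrank K⟮x⟯ F)
    (rinf : ℕ) (hrinf : Nat.card {v : Place K F // v.ord x < 0} = rinf)
    (E : Divisor K F) (hE : ∀ v, E v = v.ordDifferential (D K F x)) :
    Divisor.degree E
      = ∑ a ∈ S, ((Module.finrank K⟮x⟯ F : ℤ) - r a) - Module.finrank K⟮x⟯ F - rinf := by
  classical
  choose Z hZmem hZsum hZcard using zeros_sub x hx hzeros
  obtain ⟨P, hPmem, hPsum, hPcard⟩ := poles x hx hzeros
  -- the sum of `e - 1` over the zeros of `x - a`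
  have hZsum' : ∀ a, ∑ v ∈ Z a, (v.ord (x - algebraMap K F a) - 1)
      = (Module.finrank K⟮x⟯ F : ℤ) - (Z a).card := by
    intro a
    rw [Finset.sum_sub_distrib, hZsum a, Finset.sum_const, nsmul_eq_mul, mul_one]
  have hEZ : ∀ a, ∀ v ∈ Z a, E v = v.ord (x - algebraMap K F a) - 1 := fun a v hv => by
    rw [hE v, hzero v a ((hZmem a v).mp hv)]
  have hEP : ∀ v ∈ P, E v = v.ord x - 1 := fun v hv => by
    rw [hE v, hpole v ((hPmem v).mp hv)]
  -- support
  have hsupp : E.support ⊆ P ∪ S.biUnion Z := by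
    intro v hv
    by_contra hvT
    rw [Finset.mem_union, not_or] at hvT
    obtain ⟨hvP, hvZ⟩ := hvT
    have hx0 : 0 ≤ v.ord x := by
      rw [hPmem] at hvP
      omega
    obtain ⟨a, ha⟩ := exists_ord_sub_pos v (hdeg v) hx (mem_of_ord_nonneg v hx0)
    have haS : a ∉ S := fun haS =>
      hvZ (Finset.mem_biUnion.mpr ⟨a, haS, (hZmem a v).mpr ha⟩)
    have h0 : ∑ w ∈ Z a, (w.ord (x - algebraMap K F a) - 1) = 0 := by
      rw [hZsum' a, hZcard a, hS a haS, sub_self]
    have h1 := (Finset.sum_eq_zero_iff_of_nonneg (fun w hw => by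
      have := (hZmem a w).mp hw
      omega)).mp h0 v ((hZmem a v).mpr ha)
    exact (Finsupp.mem_support_iff.mp hv) (by rw [hEZ a v ((hZmem a v).mpr ha), h1])
  rw [degree_eq_sum_of_subset hdeg E _ hsupp]
  have hdisj1 : Disjoint P (S.biUnion Z) := by
    rw [Finset.disjoint_left]
    intro v hvP hvZ
    obtain ⟨a, -, hva⟩ := Finset.mem_biUnion.mp hvZ
    exact not_ord_sub_pos_of_pole v ((hPmem v).mp hvP) a ((hZmem a v).mp hva)
  have hdisj2 : (S : Set K).PairwiseDisjoint Z := by
    intro a _ b _ hab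
    rw [Function.onFun, Finset.disjoint_left]
    intro v hva hvb
    exact hab (eq_of_ord_sub_pos v ((hZmem a v).mp hva) ((hZmem b v).mp hvb))
  rw [Finset.sum_union hdisj1, Finset.sum_biUnion hdisj2, Finset.sum_congr rfl hEP,
    Finset.sum_sub_distrib, hPsum, Finset.sum_const, nsmul_eq_mul, mul_one, hPcard, hrinf]
  have h3 : ∑ a ∈ S, ∑ v ∈ Z a, E v = ∑ a ∈ S, ((Module.finrank K⟮x⟯ F : ℤ) - r a) := by
    refine Finset.sum_congr rfl fun a ha => ?_
    rw [Finset.sum_congr rfl (hEZ a), hZsum' a, hZcard a, hr a ha]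
  rw [h3]
  ring

variable [IsAlgClosed K] [CharZero K]

/-- **FF3** (Riemann–Hurwitz count), with the interface statements FF1a, FF1b, FF1d, FF2d, FF2e as
hypotheses. -/
theorem ff_riemann_hurwitz_of (x : F) (hx : Transcendental K x) [FiniteDimensional K⟮x⟯ F]
    (hdeg : ∀ v : Place K F, v.deg = 1)
    (hzeros : ∀ y : F, Transcendental K y → FiniteDimensional K⟮y⟯ F →
      {v : Place K F | 0 < v.ord y}.Finite ∧
        ∑ᶠ v ∈ {v : Place K F | 0 < v.ord y}, v.ord y = (Module.finrank K⟮y⟯ F : ℤ))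
    (hprinc : ∀ f : F, f ≠ 0 → {v : Place K F | v.ord f ≠ 0}.Finite ∧
      ∀ E : Divisor K F, (∀ v, E v = v.ord f) → Divisor.degree E = 0)
    (hzero : ∀ (v : Place K F) (a : K), 0 < v.ord (x - algebraMap K F a) →
      v.ordDifferential (D K F x) = v.ord (x - algebraMap K F a) - 1)
    (hpole : ∀ v : Place K F, v.ord x < 0 → v.ordDifferential (D K F x) = v.ord x - 1)
    (S : Finset K) (r : K → ℕ)
    (hr : ∀ a ∈ S, Nat.card {v : Place K F // 0 < v.ord (x - algebraMap K F a)} = r a)
    (hS : ∀ a ∉ S, Nat.card {v : Place K F // 0 < v.ord (x - algebraMap K F a)}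
      = Module.finrank K⟮x⟯ F)
    (rinf : ℕ) (hrinf : Nat.card {v : Place K F // v.ord x < 0} = rinf)
    (ω : Ω[F⁄K]) (hω : ω ≠ 0) (E : Divisor K F) (hE : ∀ v, E v = v.ordDifferential ω) :
    Divisor.degree E
      = ∑ a ∈ S, ((Module.finrank K⟮x⟯ F : ℤ) - r a) - Module.finrank K⟮x⟯ F - rinf := by
  classical
  obtain ⟨f, rfl⟩ := ff_omega_span x hx x hx ω
  have hf : f ≠ 0 := by
    rintro rfl
    exact hω (zero_smul _ _)
  have hdx : D K F x ≠ 0 := ff_D_ne_zero x hx x hx
  obtain ⟨hfin, hdeg0⟩ := hprinc f hf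
  let Ef : Divisor K F := Finsupp.ofSupportFinite (fun v => v.ord f) hfin
  have hEf : ∀ v, Ef v = v.ord f := fun v => rfl
  have hsub : ∀ v, (E - Ef) v = v.ordDifferential (D K F x) := fun v => by
    rw [Finsupp.sub_apply, hE v, hEf v, ff_ordDifferential_smul x hx v f hf _ hdx]
    ring
  have h1 := degree_div_dx x hx hdeg hzeros hzero hpole S r hr hS rinf hrinf (E - Ef) hsub
  rw [map_sub, hdeg0 Ef hEf, sub_zero] at h1
  exact h1

end Main

end Fermat.Agent.S24.H85

end
end
-- ==== END Fermat.Agent.S24.H85_FF3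

-- ==== BEGIN Fermat.Agent.S28.H10_CAOne
section

set_option autoImplicit false
open ModularCurve ModularCurve.IgusaScheme
noncomputable section

namespace Fermat.Agent.S28.H10

/-- The analytic data at level one. -/
def caDataOne : CAData 1 where
  Q := Unit
  instFintype := inferInstance
  q₀ := ()
  D := 1
  D_pos := Nat.one_pos
  U := fun _ => iotaN 1 jq
  X := fun _ _ => iotaN 1 jq
  U_coeff := fun _ n => iotaN_jq_coeffsIn 1 (coeffRing 1) n
  U_ne := fun _ => iotaN_jq_ne_zero 1
  U_lead := fun _ => by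
    rw [iotaN_jq_leadingCoeff, inv_one]
    exact one_mem _
  U_order₀ := by
    rw [iotaN_jq_order]
    simp
  U_order_pos := fun q hq => absurd (Subsingleton.elim q ()) hq
  X_q₀ := fun d _ hd => by
    have hd1 : d = 1 := Nat.dvd_one.mp hd
    subst hd1
    rw [qExpand_one_apply]
  sym := fun d _ c s => by
    rw [Finset.prod_const, Finset.card_univ, Fintype.card_unit, pow_one]
    have hJ : iotaN 1 jq ∈ Algebra.adjoin ℂ ({iotaN 1 jq} : Set (LaurentSeries ℂ)) :=
      Algebra.subset_adjoin (Set.mem_singleton _)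
    have hC : ∀ a : ℂ, (HahnSeries.C a : LaurentSeries ℂ) ∈
        Algebra.adjoin ℂ ({iotaN 1 jq} : Set (LaurentSeries ℂ)) := by
      intro a
      have h2 : (HahnSeries.C a : LaurentSeries ℂ) = algebraMap ℂ (LaurentSeries ℂ) a := by
        rw [HahnSeries.algebraMap_apply']
        simp
      rw [h2]
      exact Subalgebra.algebraMap_mem _ a
    exact Subalgebra.sub_mem _ (Subalgebra.sub_mem _ (hC c) hJ) (Subalgebra.mul_mem _ (hC s) hJ)

theorem nonempty_caData_one : Nonempty (CAData 1) := ⟨caDataOne⟩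

end Fermat.Agent.S28.H10

end
end
-- ==== END Fermat.Agent.S28.H10_CAOne

-- ==== BEGIN Fermat.Agent.S28.H30_Pexp
section

/-!
# S28, WP-F: API for the `t`-expansion `pexp N` (helper30)

`BPH N f`: `f` is bounded at `i∞`, holomorphic and `N`-periodic.  On such functions `pexp N` is
an injective ring homomorphism.
-/

set_option autoImplicit false
set_option linter.unusedSectionVars false
set_option linter.unusedVariables false

open UpperHalfPlane ModularForm ModularCurve Function
open scoped MatrixGroups ModularForm Manifold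

noncomputable section

namespace Fermat.Agent.S28.H30

/-- Bounded at `i∞`, holomorphic, `N`-periodic. -/
structure BPH (N : ℕ) (f : ℍ → ℂ) : Prop where
  per : Periodic (f ∘ ofComplex) (N : ℂ)
  hol : MDiff f
  bdd : IsBoundedAtImInfty f

variable {N : ℕ} [NeZero N] {f g : ℍ → ℂ}

lemma natCast_pos_real (N : ℕ) [NeZero N] : (0 : ℝ) < (N : ℝ) :=
  Nat.cast_pos.mpr (Nat.pos_of_ne_zero (NeZero.ne N))

lemma BPH.per' (hf : BPH N f) : Periodic (f ∘ ofComplex) (((N : ℝ)) : ℂ) := by
  rw [Complex.ofReal_natCast]; exact hf.per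

lemma BPH.analytic (hf : BPH N f) : AnalyticAt ℂ (cuspFunction (N : ℝ) f) 0 :=
  analyticAt_cuspFunction_zero (natCast_pos_real N) hf.per' hf.hol hf.bdd

lemma BPH.mul (hf : BPH N f) (hg : BPH N g) : BPH N (f * g) where
  per := fun z => by
    have h1 := hf.per z
    have h2 := hg.per z
    simp only [comp_apply, Pi.mul_apply] at h1 h2 ⊢
    rw [h1, h2]
  hol := hf.hol.mul hg.hol
  bdd := hf.bdd.mul hg.bdd

lemma BPH.add (hf : BPH N f) (hg : BPH N g) : BPH N (f + g) where
  per := fun z => by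
    have h1 := hf.per z
    have h2 := hg.per z
    simp only [comp_apply, Pi.add_apply] at h1 h2 ⊢
    rw [h1, h2]
  hol := hf.hol.add hg.hol
  bdd := hf.bdd.add hg.bdd

lemma BPH.neg (hf : BPH N f) : BPH N (-f) where
  per := fun z => by
    have h1 := hf.per z
    simp only [comp_apply, Pi.neg_apply] at h1 ⊢
    rw [h1]
  hol := hf.hol.neg
  bdd := hf.bdd.neg_left

lemma BPH.sub (hf : BPH N f) (hg : BPH N g) : BPH N (f - g) := by
  rw [sub_eq_add_neg]; exact hf.add hg.neg

lemma BPH.const (c : ℂ) : BPH N (fun _ => c) where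
  per := fun z => rfl
  hol := mdifferentiable_const
  bdd := Filter.const_boundedAtFilter _ _

lemma BPH.one : BPH N (1 : ℍ → ℂ) := BPH.const 1

lemma BPH.smul (c : ℂ) (hf : BPH N f) : BPH N (c • f) := by
  have : c • f = (fun _ => c) * f := by ext z; simp
  rw [this]; exact (BPH.const c).mul hf

lemma BPH.pow (hf : BPH N f) (n : ℕ) : BPH N (f ^ n) := by
  induction n with
  | zero => simpa using BPH.one
  | succ n ih => rw [pow_succ]; exact ih.mul hf

lemma BPH.prod {ι : Type*} (s : Finset ι) (F : ι → ℍ → ℂ) (hF : ∀ i ∈ s, BPH N (F i)) :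
    BPH N (∏ i ∈ s, F i) := by
  classical
  induction s using Finset.induction_on with
  | empty => simpa using BPH.one
  | insert i t hi ih =>
    rw [Finset.prod_insert hi]
    exact (hF i (Finset.mem_insert_self i t)).mul
      (ih fun j hj => hF j (Finset.mem_insert_of_mem hj))

/-! ### `pexp` is a ring homomorphism on `BPH` functions -/

lemma pexp_mul (hf : BPH N f) (hg : BPH N g) : pexp N (f * g) = pexp N f * pexp N g := by
  simp only [pexp, qExpansion_mul hf.analytic hg.analytic, map_mul]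

lemma pexp_add (hf : BPH N f) (hg : BPH N g) : pexp N (f + g) = pexp N f + pexp N g := by
  simp only [pexp, qExpansion_add hf.analytic hg.analytic, map_add]

lemma pexp_sub (hf : BPH N f) (hg : BPH N g) : pexp N (f - g) = pexp N f - pexp N g := by
  simp only [pexp, qExpansion_sub hf.analytic hg.analytic, map_sub]

lemma pexp_neg (hf : BPH N f) : pexp N (-f) = -pexp N f := by
  simp only [pexp, qExpansion_neg hf.analytic, map_neg]

lemma pexp_one : pexp N (1 : ℍ → ℂ) = 1 := by
  simp only [pexp, qExpansion_one, map_one]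

lemma pexp_smul (c : ℂ) (hf : BPH N f) : pexp N (c • f) = HahnSeries.C c * pexp N f := by
  simp only [pexp, qExpansion_smul hf.analytic]
  rw [show c • qExpansion (N : ℝ) f = PowerSeries.C c * qExpansion (N : ℝ) f by
    ext n; simp]
  rw [map_mul, HahnSeries.ofPowerSeries_C]

lemma pexp_const (c : ℂ) : pexp N (fun _ => c) = HahnSeries.C c := by
  have h : (fun _ : ℍ => c) = c • (1 : ℍ → ℂ) := by ext z; simp
  rw [h, pexp_smul c BPH.one, pexp_one, mul_one]

lemma pexp_pow (hf : BPH N f) (n : ℕ) : pexp N (f ^ n) = pexp N f ^ n := by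
  induction n with
  | zero => simpa using pexp_one (N := N)
  | succ n ih => rw [pow_succ, pexp_mul (hf.pow n) hf, ih, pow_succ]

lemma pexp_prod {ι : Type*} (s : Finset ι) (F : ι → ℍ → ℂ) (hF : ∀ i ∈ s, BPH N (F i)) :
    pexp N (∏ i ∈ s, F i) = ∏ i ∈ s, pexp N (F i) := by
  classical
  induction s using Finset.induction_on with
  | empty => simpa using pexp_one (N := N)
  | insert i t hi ih =>
    rw [Finset.prod_insert hi, Finset.prod_insert hi,
      pexp_mul (hF i (Finset.mem_insert_self i t))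
        (BPH.prod t F fun j hj => hF j (Finset.mem_insert_of_mem hj)),
      ih fun j hj => hF j (Finset.mem_insert_of_mem hj)]

lemma pexp_eq_zero_iff (hf : BPH N f) : pexp N f = 0 ↔ f = 0 := by
  rw [pexp, map_eq_zero_iff _ HahnSeries.ofPowerSeries_injective]
  exact qExpansion_eq_zero_iff (natCast_pos_real N) hf.per' hf.hol hf.bdd

lemma pexp_ne_zero (hf : BPH N f) {z : ℍ} (hz : f z ≠ 0) : pexp N f ≠ 0 := by
  rw [Ne, pexp_eq_zero_iff hf]
  intro h
  exact hz (by rw [h]; rfl)

lemma pexp_coeff_nat (f : ℍ → ℂ) (n : ℕ) :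
    (pexp N f).coeff (n : ℤ) = (qExpansion (N : ℝ) f).coeff n := by
  rw [pexp, HahnSeries.ofPowerSeries_apply_coeff]

lemma pexp_coeff_neg (f : ℍ → ℂ) {n : ℤ} (hn : n < 0) : (pexp N f).coeff n = 0 := by
  rw [pexp]
  exact ModularCurve.ofPowerSeries_coeff_of_neg _ hn

end Fermat.Agent.S28.H30

end
end
-- ==== END Fermat.Agent.S28.H30_Pexp

-- ==== BEGIN Fermat.Agent.S28.H73_GaussV
section

set_option autoImplicit false
set_option linter.unusedSectionVars false

noncomputable section

namespace Fermat.Agent.S28.H73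

open ModularCurve

section Series

variable {C : Type} [Field C] (O : ValuationSubring C)

/-- The residue field of `O`. -/
abbrev kV : Type := IsLocalRing.ResidueField ↥O

/-- The residue map of `O`. -/
abbrev resV : ↥O →+* kV O := IsLocalRing.residue ↥O

/-- `ι : O((t)) → C((t))`. -/
def iotaV : LaurentSeries ↥O →+* LaurentSeries C := coeffMap O.subtype

/-- `red : O((t)) → k((t))`. -/
def redV : LaurentSeries ↥O →+* LaurentSeries (kV O) := coeffMap (resV O)

@[simp] theorem iotaV_coeff (g : LaurentSeries ↥O) (n : ℤ) :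
    (iotaV O g).coeff n = ((g.coeff n : ↥O) : C) := rfl

@[simp] theorem redV_coeff (g : LaurentSeries ↥O) (n : ℤ) :
    (redV O g).coeff n = resV O (g.coeff n) := rfl

theorem iotaV_injective : Function.Injective (iotaV O) := by
  intro g h hgh
  ext n
  have := congrArg (fun x : LaurentSeries C => x.coeff n) hgh
  simpa using this

theorem coeffsIn_iotaV (g : LaurentSeries ↥O) : CoeffsIn O.toSubring (iotaV O g) :=
  fun n => (g.coeff n).2

/-- A series with coefficients in `O` comes from `O((t))`. -/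
theorem exists_iotaV_eq {f : LaurentSeries C} (hf : CoeffsIn O.toSubring f) :
    ∃ g : LaurentSeries ↥O, iotaV O g = f := by
  have hsupp : (Function.support fun n : ℤ => (⟨f.coeff n, hf n⟩ : ↥O)) ⊆ f.support := by
    intro n hn
    show f.coeff n ≠ 0
    intro h0
    apply hn
    exact Subtype.ext h0
  exact ⟨⟨fun n => ⟨f.coeff n, hf n⟩, f.isPWO_support.mono hsupp⟩, HahnSeries.ext rfl⟩

theorem redV_ne_zero_iff (g : LaurentSeries ↥O) :
    redV O g ≠ 0 ↔ ∃ n : ℤ, IsUnit (g.coeff n) := by
  constructor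
  · intro h
    by_contra hcon
    simp only [not_exists] at hcon
    apply h
    ext n
    rw [redV_coeff, HahnSeries.coeff_zero]
    by_contra h1
    exact hcon n ((IsLocalRing.residue_ne_zero_iff_isUnit _).1 h1)
  · rintro ⟨n, hn⟩ h
    have := congrArg (fun x : LaurentSeries (kV O) => x.coeff n) h
    simp only [redV_coeff, HahnSeries.coeff_zero] at this
    exact (IsLocalRing.residue_ne_zero_iff_isUnit _).2 hn this

theorem isUnit_iff_inv_mem (a : ↥O) : IsUnit a ↔ (a : C) ≠ 0 ∧ ((a : C))⁻¹ ∈ O := by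
  constructor
  · intro h
    obtain ⟨b, hb⟩ := h.exists_right_inv
    have hb' : (a : C) * (b : C) = 1 := by
      have := congrArg (Subtype.val) hb
      simpa using this
    have ha : (a : C) ≠ 0 := left_ne_zero_of_mul_eq_one hb'
    refine ⟨ha, ?_⟩
    have : ((a : C))⁻¹ = (b : C) := (eq_inv_of_mul_eq_one_right hb').symm
    rw [this]; exact b.2
  · rintro ⟨ha, hinv⟩
    refine IsUnit.of_mul_eq_one ⟨_, hinv⟩ (Subtype.ext ?_)
    show (a : C) * ((a : C))⁻¹ = 1
    exact mul_inv_cancel₀ ha

/-- `PrimSeries` in terms of the reduction map. -/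
theorem primSeries_iff (f : LaurentSeries C) :
    PrimSeries O.toSubring f ↔ ∃ g : LaurentSeries ↥O, redV O g ≠ 0 ∧ iotaV O g = f := by
  constructor
  · rintro ⟨hf, n, hn0, hninv⟩
    obtain ⟨g, hg⟩ := exists_iotaV_eq O hf
    refine ⟨g, (redV_ne_zero_iff O g).2 ⟨n, ?_⟩, hg⟩
    rw [isUnit_iff_inv_mem]
    have hc : ((g.coeff n : ↥O) : C) = f.coeff n := by rw [← hg]; rfl
    rw [hc]
    exact ⟨hn0, hninv⟩
  · rintro ⟨g, hg, rfl⟩
    obtain ⟨n, hn⟩ := (redV_ne_zero_iff O g).1 hg
    rw [isUnit_iff_inv_mem] at hn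
    exact ⟨coeffsIn_iotaV O g, n, hn.1, hn.2⟩

theorem iotaV_ne_zero_of_redV_ne_zero {g : LaurentSeries ↥O} (hg : redV O g ≠ 0) :
    iotaV O g ≠ 0 := by
  intro h
  have : g = 0 := iotaV_injective O (by rw [h, map_zero])
  exact hg (by rw [this, map_zero])

end Series

section Gauss

variable {C : Type} [Field C] (O : ValuationSubring C)

theorem algebraMap_eq_iotaV (r : ↥O) :
    algebraMap ↥O (LaurentSeries C) r = iotaV O (HahnSeries.C r) := by
  have h1 : algebraMap ↥O (PowerSeries C) r = PowerSeries.C (r : C) := by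
    rw [IsScalarTower.algebraMap_apply ↥O C (PowerSeries C)]
    rfl
  rw [HahnSeries.algebraMap_apply', h1, HahnSeries.ofPowerSeries_C]
  exact (coeffMap_single O.subtype 0 r).symm

/-- auxiliary: the value of the reduction computed from a presentation -/
theorem redV_div_eq_of_eq {x : LaurentSeries C} {g h g' h' : LaurentSeries ↥O}
    (hg : redV O g ≠ 0) (hx : iotaV O g * x = iotaV O h)
    (hg' : redV O g' ≠ 0) (hx' : iotaV O g' * x = iotaV O h') :
    redV O h / redV O g = redV O h' / redV O g' := by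
  have e : h * g' = h' * g := by
    apply iotaV_injective O
    rw [map_mul, map_mul, ← hx, ← hx']; ring
  rw [div_eq_div_iff hg hg', ← map_mul, ← map_mul, e]

/-- The Gauss ring of `C((t))` with respect to `O`, as an `O`-subalgebra. -/
def gaussRingV : Subalgebra ↥O (LaurentSeries C) where
  carrier := {x | ∃ g h : LaurentSeries ↥O, redV O g ≠ 0 ∧ iotaV O g * x = iotaV O h}
  mul_mem' := by
    rintro x y ⟨g, h, hg, hx⟩ ⟨g', h', hg', hy⟩
    refine ⟨g * g', h * h', ?_, ?_⟩
    · rw [map_mul]; exact mul_ne_zero hg hg'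
    · rw [map_mul, map_mul, ← hx, ← hy]; ring
  add_mem' := by
    rintro x y ⟨g, h, hg, hx⟩ ⟨g', h', hg', hy⟩
    refine ⟨g * g', h * g' + h' * g, ?_, ?_⟩
    · rw [map_mul]; exact mul_ne_zero hg hg'
    · rw [map_mul, map_add, map_mul, map_mul, ← hx, ← hy]; ring
  algebraMap_mem' := by
    intro r
    refine ⟨1, HahnSeries.C r, by rw [map_one]; exact one_ne_zero, ?_⟩
    rw [map_one, one_mul, algebraMap_eq_iotaV]

theorem mem_gaussRingV_iff (x : LaurentSeries C) :
    x ∈ gaussRingV O ↔
      ∃ g h : LaurentSeries ↥O, redV O g ≠ 0 ∧ iotaV O g * x = iotaV O h := Iff.rfl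

/-- The Gauss ring is exactly the set of `GaussInt` series of `Defs.lean`. -/
theorem mem_gaussRingV_iff_gaussInt (x : LaurentSeries C) :
    x ∈ gaussRingV O ↔ GaussInt O.toSubring x := by
  constructor
  · rintro ⟨g, h, hg, hx⟩
    refine ⟨iotaV O g, (primSeries_iff O _).2 ⟨g, hg, rfl⟩, ?_⟩
    rw [mul_comm, hx]
    exact coeffsIn_iotaV O h
  · rintro ⟨g, hg, hxg⟩
    obtain ⟨g₀, hg₀, rfl⟩ := (primSeries_iff O g).1 hg
    obtain ⟨h, hh⟩ := exists_iotaV_eq O hxg
    exact ⟨g₀, h, hg₀, by rw [hh, mul_comm]⟩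

theorem iotaV_mem_gaussRingV (h : LaurentSeries ↥O) : iotaV O h ∈ gaussRingV O :=
  ⟨1, h, by rw [map_one]; exact one_ne_zero, by simp⟩

/-- The reduction map of the Gauss ring. -/
def gaussRedV : gaussRingV O →+* LaurentSeries (kV O) where
  toFun x := redV O x.2.choose_spec.choose / redV O x.2.choose
  map_one' := by
    have h := (1 : gaussRingV O).2.choose_spec.choose_spec
    exact (redV_div_eq_of_eq O h.1 h.2 (g' := 1) (h' := 1) (by rw [map_one]; exact one_ne_zero)
      (by simp)).trans (by simp)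
  map_zero' := by
    have h := (0 : gaussRingV O).2.choose_spec.choose_spec
    exact (redV_div_eq_of_eq O h.1 h.2 (g' := 1) (h' := 0) (by rw [map_one]; exact one_ne_zero)
      (by simp)).trans (by simp)
  map_mul' x y := by
    have hxy := (x * y).2.choose_spec.choose_spec
    have hx := x.2.choose_spec.choose_spec
    have hy := y.2.choose_spec.choose_spec
    have hgg : redV O (x.2.choose * y.2.choose) ≠ 0 := by
      rw [map_mul]; exact mul_ne_zero hx.1 hy.1
    refine (redV_div_eq_of_eq O hxy.1 hxy.2 hgg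
      (h' := x.2.choose_spec.choose * y.2.choose_spec.choose) ?_).trans ?_
    · rw [map_mul, map_mul, ← hx.2, ← hy.2]
      push_cast; ring
    · rw [map_mul, map_mul, mul_div_mul_comm]
  map_add' x y := by
    have hxy := (x + y).2.choose_spec.choose_spec
    have hx := x.2.choose_spec.choose_spec
    have hy := y.2.choose_spec.choose_spec
    have hgg : redV O (x.2.choose * y.2.choose) ≠ 0 := by
      rw [map_mul]; exact mul_ne_zero hx.1 hy.1
    refine (redV_div_eq_of_eq O hxy.1 hxy.2 hgg
      (h' := x.2.choose_spec.choose * y.2.choose + y.2.choose_spec.choose * x.2.choose) ?_).trans ?_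
    · rw [map_mul, map_add, map_mul, map_mul, ← hx.2, ← hy.2]
      push_cast; ring
    · rw [map_mul, map_add, map_mul, map_mul, div_add_div _ _ hx.1 hy.1]
      congr 1; ring

/-- The defining property of `gaussRedV`. -/
theorem gaussRedV_eq (x : gaussRingV O) {g h : LaurentSeries ↥O} (hg : redV O g ≠ 0)
    (hx : iotaV O g * (x : LaurentSeries C) = iotaV O h) :
    gaussRedV O x = redV O h / redV O g := by
  have h0 := x.2.choose_spec.choose_spec
  exact redV_div_eq_of_eq O h0.1 h0.2 hg hx

@[simp] theorem gaussRedV_iotaV (h : LaurentSeries ↥O) :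
    gaussRedV O ⟨iotaV O h, iotaV_mem_gaussRingV O h⟩ = redV O h := by
  rw [gaussRedV_eq O _ (g := 1) (h := h) (by rw [map_one]; exact one_ne_zero) (by simp)]
  simp

/-- Units: an element with nonzero reduction has its inverse in the Gauss ring. -/
theorem inv_mem_gaussRingV {x : LaurentSeries C} (hx : x ∈ gaussRingV O)
    (hr : gaussRedV O ⟨x, hx⟩ ≠ 0) : x⁻¹ ∈ gaussRingV O := by
  have hx' := hx
  obtain ⟨g, h, hg, hgx⟩ := hx'
  have hh : redV O h ≠ 0 := by
    intro h0
    apply hr
    rw [gaussRedV_eq O ⟨x, hx⟩ hg hgx, h0, zero_div]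
  have hx0 : x ≠ 0 := by
    rintro rfl
    rw [mul_zero] at hgx
    exact iotaV_ne_zero_of_redV_ne_zero O hh hgx.symm
  exact ⟨h, g, hh, by rw [← hgx, mul_assoc, mul_inv_cancel₀ hx0, mul_one]⟩

theorem algebraMap_kV (c : kV O) :
    algebraMap (kV O) (LaurentSeries (kV O)) c = HahnSeries.C c := by
  rw [algebraMap_laurentSeries_eq_single]
  rfl

/-- The Gauss setup attached to `(C, O)`. -/
def gaussSetupV : GaussSetupV ↥O (kV O) (LaurentSeries C) (LaurentSeries (kV O)) where
  O := gaussRingV O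
  red := gaussRedV O
  res := resV O
  red_algebraMap := by
    intro r
    have h : (algebraMap ↥O ↥(gaussRingV O) r) =
        ⟨iotaV O (HahnSeries.C r), iotaV_mem_gaussRingV O _⟩ :=
      Subtype.ext (algebraMap_eq_iotaV O r)
    rw [h, gaussRedV_iotaV, algebraMap_kV]
    exact coeffMap_single (resV O) 0 r
  inv_mem := fun x hx => inv_mem_gaussRingV O x.2 hx
  injective := by
    intro a b hab
    rw [algebraMap_eq_iotaV, algebraMap_eq_iotaV] at hab
    have := iotaV_injective O hab
    exact HahnSeries.C_injective this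
  dvd_total := fun a b => ValuationRing.dvd_total a b
  res_eq_zero := by
    intro r hr
    by_contra h
    exact hr ((IsLocalRing.residue_ne_zero_iff_isUnit _).1 h)

end Gauss

/-! ### The `t`-adic valuation on `k((t))` -/

section TValuation

open WithZero

variable (k : Type) [Field k]

/-- The `t`-adic valuation on `k((t))`. -/
def tVal : Valuation (LaurentSeries k) ℤᵐ⁰ := Valued.v

theorem tVal_eq_exp_neg_order {f : LaurentSeries k} (hf : f ≠ 0) :
    tVal k f = exp (-f.order) := by
  have h1 : tVal k f ≤ exp (-f.order) :=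
    (LaurentSeries.valuation_le_iff_coeff_lt_eq_zero k).2
      fun n hn => HahnSeries.coeff_eq_zero_of_lt_order hn
  refine le_antisymm h1 ?_
  by_contra hcon
  rw [not_le] at hcon
  have hv0 : tVal k f ≠ 0 := (Valuation.ne_zero_iff _).2 hf
  have hlog : log (tVal k f) < -f.order := (log_lt_iff_lt_exp hv0).2 hcon
  have h2 : tVal k f ≤ exp (-(f.order + 1)) := by
    rw [← log_le_iff_le_exp hv0]
    omega
  have h3 := (LaurentSeries.valuation_le_iff_coeff_lt_eq_zero k).1 h2 f.order (by omega)
  exact hf (HahnSeries.coeff_order_eq_zero.1 h3)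

theorem tVal_algebraMap {c : k} (hc : c ≠ 0) :
    tVal k (algebraMap k (LaurentSeries k) c) = 1 := by
  have hne : algebraMap k (LaurentSeries k) c ≠ 0 := by
    intro h
    exact hc ((map_eq_zero _).1 h)
  rw [tVal_eq_exp_neg_order k hne, algebraMap_laurentSeries_eq_single,
    HahnSeries.order_single hc, neg_zero, exp_zero]

end TValuation

/-! ### Reduction of series with unit leading coefficient -/

section UnitLead

open WithZero

variable {C : Type} [Field C] (O : ValuationSubring C)

/-- A series with coefficients in `O` and unit leading coefficient lies in the Gauss ring, and its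
reduction has the same order. -/
theorem exists_of_unitLead {f : LaurentSeries C} (hf : UnitLead O.toSubring f) :
    ∃ x : gaussRingV O, (x : LaurentSeries C) = f ∧
      tVal (kV O) (gaussRedV O x) = exp (-f.order) := by
  obtain ⟨hco, hf0, hlead⟩ := hf
  obtain ⟨g, hg⟩ := exists_iotaV_eq O hco
  have hlc : f.leadingCoeff = f.coeff f.order := HahnSeries.leadingCoeff_eq
  have hcoef : ((g.coeff f.order : ↥O) : C) = f.coeff f.order := by rw [← hg]; rfl
  have hunit : IsUnit (g.coeff f.order) := by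
    rw [isUnit_iff_inv_mem, hcoef, ← hlc]
    exact ⟨HahnSeries.leadingCoeff_ne_zero.2 hf0, hlead⟩
  have hres : resV O (g.coeff f.order) ≠ 0 := (IsLocalRing.residue_ne_zero_iff_isUnit _).2 hunit
  have hred0 : redV O g ≠ 0 := (redV_ne_zero_iff O g).2 ⟨_, hunit⟩
  have hord : (redV O g).order = f.order := by
    apply le_antisymm
    · exact HahnSeries.order_le_of_coeff_ne_zero (by rw [redV_coeff]; exact hres)
    · by_contra hcon
      rw [not_le] at hcon
      have h1 : (redV O g).coeff (redV O g).order = 0 := by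
        rw [redV_coeff]
        have h2 : f.coeff (redV O g).order = 0 := HahnSeries.coeff_eq_zero_of_lt_order hcon
        have h3 : g.coeff (redV O g).order = 0 := by
          apply Subtype.ext
          have : ((g.coeff (redV O g).order : ↥O) : C) = f.coeff (redV O g).order := by
            rw [← hg]; rfl
          rw [this, h2]; rfl
        rw [h3, map_zero]
      exact hred0 (HahnSeries.coeff_order_eq_zero.1 h1)
  refine ⟨⟨iotaV O g, iotaV_mem_gaussRingV O g⟩, hg, ?_⟩
  rw [gaussRedV_iotaV, tVal_eq_exp_neg_order _ hred0, hord]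

end UnitLead

/-! ### Concrete Lemma A -/

section Concrete

open WithZero Polynomial

variable {C : Type} [Field C] (O : ValuationSubring C)

/-- Simultaneous scaling of two polynomials over `C` into `O[X]`. -/
theorem exists_scale (P Q : C[X]) (hQ : Q ≠ 0) :
    ∃ (e : C) (PR QR : (↥O)[X]), e ≠ 0 ∧ QR ≠ 0 ∧
      PR.map O.subtype = Polynomial.C e * P ∧ QR.map O.subtype = Polynomial.C e * Q := by
  classical
  set s : Finset C := P.coeffs ∪ Q.coeffs with hs
  have hlc : Q.leadingCoeff ∈ s := by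
    rw [hs, Finset.mem_union]
    exact Or.inr (Polynomial.coeff_mem_coeffs (by simpa using hQ))
  obtain ⟨m, hm, hmax⟩ := Finset.exists_max_image s (fun c => O.valuation c) ⟨_, hlc⟩
  have hm0 : m ≠ 0 := by
    intro h
    have h1 := hmax _ hlc
    rw [h, map_zero] at h1
    have : O.valuation Q.leadingCoeff = 0 := le_antisymm h1 zero_le
    exact (leadingCoeff_ne_zero.2 hQ) ((map_eq_zero _).1 this)
  have hv0 : O.valuation m ≠ 0 := (Valuation.ne_zero_iff _).2 hm0
  have hmem : ∀ c : C, (c ∈ s ∨ c = 0) → m⁻¹ * c ∈ O := by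
    intro c hc
    rw [← ValuationSubring.valuation_le_one_iff, map_mul, map_inv₀]
    rcases hc with hc | hc
    · have := hmax c hc
      rw [inv_mul_le_iff₀ (zero_lt_iff.2 hv0), mul_one]
      exact this
    · rw [hc, map_zero, mul_zero]; exact zero_le_one
  have hcoefP : ∀ n, P.coeff n ∈ s ∨ P.coeff n = 0 := by
    intro n
    by_cases h : P.coeff n = 0
    · exact Or.inr h
    · exact Or.inl (Finset.mem_union.2 (Or.inl (Polynomial.coeff_mem_coeffs h)))
  have hcoefQ : ∀ n, Q.coeff n ∈ s ∨ Q.coeff n = 0 := by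
    intro n
    by_cases h : Q.coeff n = 0
    · exact Or.inr h
    · exact Or.inl (Finset.mem_union.2 (Or.inr (Polynomial.coeff_mem_coeffs h)))
  have hPl : Polynomial.C m⁻¹ * P ∈ Polynomial.lifts O.subtype := by
    rw [Polynomial.lifts_iff_coeff_lifts]
    intro n
    rw [coeff_C_mul]
    exact ⟨⟨_, hmem _ (hcoefP n)⟩, rfl⟩
  have hQl : Polynomial.C m⁻¹ * Q ∈ Polynomial.lifts O.subtype := by
    rw [Polynomial.lifts_iff_coeff_lifts]
    intro n
    rw [coeff_C_mul]
    exact ⟨⟨_, hmem _ (hcoefQ n)⟩, rfl⟩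
  obtain ⟨PR, hPR⟩ := (Polynomial.mem_lifts _).1 hPl
  obtain ⟨QR, hQR⟩ := (Polynomial.mem_lifts _).1 hQl
  refine ⟨m⁻¹, PR, QR, inv_ne_zero hm0, ?_, hPR, hQR⟩
  rintro rfl
  rw [Polynomial.map_zero] at hQR
  have : Polynomial.C m⁻¹ * Q ≠ 0 := mul_ne_zero (by simpa using hm0) hQ
  exact this hQR.symm

theorem algebraMap_comp_subtype :
    (algebraMap C (LaurentSeries C)).comp O.subtype = algebraMap ↥O (LaurentSeries C) := by
  ext1 r
  rw [RingHom.comp_apply, algebraMap_eq_iotaV, algebraMap_laurentSeries_eq_single]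
  exact (coeffMap_single O.subtype 0 r).symm

theorem aeval_map_subtype (x : LaurentSeries C) (p : (↥O)[X]) :
    aeval x (p.map O.subtype) = aeval x p := by
  rw [aeval_def, aeval_def, eval₂_map, algebraMap_comp_subtype]

/-- **Lemma A, concrete form over `O[X]`** (deliverable C1).  `J` and `u` have coefficients in `O`
and unit leading coefficients, `ord J = -nJ`, `ord u = -D nJ`.  If
`x = ∑_{i<D} (P_i(u)/Q_i(u)) J^i` is Gauss-integral (`P_i, Q_i ∈ O[X]`, `Q_i ≠ 0`), then each
coefficient is of the form `P'(u)/Q'(u)` with `P', Q' ∈ O[X]` and `Q'` primitive (one coefficient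
is a unit). -/
theorem lemmaA_concrete_O (J u : LaurentSeries C) (nJ D : ℕ) (hnJ : 0 < nJ) (hD : 0 < D)
    (hJ : UnitLead O.toSubring J) (hJo : J.order = -(nJ : ℤ))
    (hu : UnitLead O.toSubring u) (huo : u.order = -((D : ℤ) * (nJ : ℤ)))
    (P Q : Fin D → (↥O)[X]) (hQ : ∀ i, Q i ≠ 0)
    (hx : GaussInt O.toSubring (∑ i, (aeval u (P i) / aeval u (Q i)) * J ^ (i : ℕ))) :
    ∀ i, ∃ P' Q' : (↥O)[X], (∃ n, IsUnit (Q'.coeff n)) ∧
      aeval u (P i) / aeval u (Q i) = aeval u P' / aeval u Q' := by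
  classical
  obtain ⟨JG, hJG, hJv⟩ := exists_of_unitLead O hJ
  obtain ⟨uG, huG, huv⟩ := exists_of_unitLead O hu
  have hg : (1 : ℤᵐ⁰) < exp (nJ : ℤ) := by
    rw [← exp_zero, exp_lt_exp]
    exact_mod_cast hnJ
  have hj' : tVal (kV O) ((gaussSetupV O).red JG) = exp (nJ : ℤ) := by
    show tVal (kV O) (gaussRedV O JG) = _
    rw [hJv, hJo, neg_neg]
  have hu' : tVal (kV O) ((gaussSetupV O).red uG) = exp (nJ : ℤ) ^ D := by
    show tVal (kV O) (gaussRedV O uG) = _
    rw [huv, huo, neg_neg, ← exp_nsmul, nsmul_eq_mul]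
  have hxG : ∑ i, (aeval (uG : LaurentSeries C) (P i) / aeval (uG : LaurentSeries C) (Q i))
      * (JG : LaurentSeries C) ^ (i : ℕ) ∈ (gaussSetupV O).O := by
    show _ ∈ gaussRingV O
    rw [mem_gaussRingV_iff_gaussInt, huG, hJG]
    exact hx
  have main := (gaussSetupV O).lemmaAV (tVal (kV O)) (fun c hc => tVal_algebraMap (kV O) hc)
    hg hD uG JG hj' hu' P Q hQ hxG
  intro i
  obtain ⟨P', Q', hQ', heq⟩ := main i
  refine ⟨P', Q', ?_, ?_⟩
  · have : ∃ n, (Q'.map (gaussSetupV O).res).coeff n ≠ 0 := by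
      by_contra hcon
      simp only [not_exists, not_not] at hcon
      exact hQ' (Polynomial.ext fun n => by rw [hcon n, coeff_zero])
    obtain ⟨n, hn⟩ := this
    rw [coeff_map] at hn
    exact ⟨n, (IsLocalRing.residue_ne_zero_iff_isUnit _).1 hn⟩
  · rw [← huG]; exact heq

/-- **Lemma A, concrete form over `C[X]`** (for `Defs.lean`).  Same as `lemmaA_concrete_O` with
`P_i, Q_i ∈ C[X]`, `Q_i ≠ 0`; the conclusion gives `P'` with coefficients in `O` and `Q'` primitive
(`PrimPoly`). -/
theorem lemmaA_concrete (J u : LaurentSeries C) (nJ D : ℕ) (hnJ : 0 < nJ) (hD : 0 < D)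
    (hJ : UnitLead O.toSubring J) (hJo : J.order = -(nJ : ℤ))
    (hu : UnitLead O.toSubring u) (huo : u.order = -((D : ℤ) * (nJ : ℤ)))
    (P Q : Fin D → C[X]) (hQ : ∀ i, Q i ≠ 0)
    (hx : GaussInt O.toSubring (∑ i, (aeval u (P i) / aeval u (Q i)) * J ^ (i : ℕ))) :
    ∀ i, ∃ P' Q' : C[X], (∀ n, P'.coeff n ∈ O) ∧ PrimPoly O.toSubring Q' ∧
      aeval u (P i) / aeval u (Q i) = aeval u P' / aeval u Q' := by
  classical
  choose e PR QR he hQR hPeq hQeq using fun i => exists_scale O (P i) (Q i) (hQ i)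
  have hfrac : ∀ i, aeval u (PR i) / aeval u (QR i) = aeval u (P i) / aeval u (Q i) := by
    intro i
    rw [← aeval_map_subtype O u (PR i), ← aeval_map_subtype O u (QR i), hPeq i, hQeq i,
      map_mul, map_mul, aeval_C]
    have hne : algebraMap C (LaurentSeries C) (e i) ≠ 0 := by
      intro h
      exact he i ((map_eq_zero _).1 h)
    exact mul_div_mul_left _ _ hne
  have hxR : GaussInt O.toSubring (∑ i, (aeval u (PR i) / aeval u (QR i)) * J ^ (i : ℕ)) := by
    have : ∑ i, (aeval u (PR i) / aeval u (QR i)) * J ^ (i : ℕ)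
        = ∑ i, (aeval u (P i) / aeval u (Q i)) * J ^ (i : ℕ) :=
      Finset.sum_congr rfl fun i _ => by rw [hfrac i]
    rw [this]
    exact hx
  have main := lemmaA_concrete_O O J u nJ D hnJ hD hJ hJo hu huo PR QR hQR hxR
  intro i
  obtain ⟨P', Q', ⟨n, hn⟩, heq⟩ := main i
  refine ⟨P'.map O.subtype, Q'.map O.subtype, ?_, ?_, ?_⟩
  · intro n
    rw [coeff_map]
    exact (P'.coeff n).2
  · refine ⟨fun n => by rw [coeff_map]; exact (Q'.coeff n).2, ?_⟩
    rw [isUnit_iff_inv_mem] at hn
    exact ⟨n, by rw [coeff_map]; exact hn.1, by rw [coeff_map]; exact hn.2⟩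
  · rw [← hfrac i, heq, aeval_map_subtype, aeval_map_subtype]

end Concrete

end Fermat.Agent.S28.H73

end
end
-- ==== END Fermat.Agent.S28.H73_GaussV

-- ==== BEGIN Fermat.Agent.S28.H76_Sym
section

/-!
# S28, WP-F (F-sym): proof of `H30.Stmt_Sym`
(helper76)
-/

set_option autoImplicit false

open UpperHalfPlane ModularForm ModularCurve
open scoped MatrixGroups ModularForm Manifold

noncomputable section

namespace Fermat.Agent.S28.H76

/-- The structure map of `ℂ((t))` over `ℂ` is `HahnSeries.C`. -/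
theorem algebraMap_laurent_eq_C (c : ℂ) :
    algebraMap ℂ (LaurentSeries ℂ) c = (HahnSeries.C c : LaurentSeries ℂ) := by
  change HahnSeries.ofPowerSeries ℤ ℂ (algebraMap ℂ (PowerSeries ℂ) c) = _
  rw [← HahnSeries.ofPowerSeries_C]; rfl

lemma C_mem_adjoin (c : ℂ) (J : LaurentSeries ℂ) :
    (HahnSeries.C c : LaurentSeries ℂ) ∈ Algebra.adjoin ℂ ({J} : Set (LaurentSeries ℂ)) := by
  rw [← algebraMap_laurent_eq_C]
  exact Subalgebra.algebraMap_mem _ _

/-- Polynomial expressions (with coefficients embedded by `HahnSeries.C`) lie in the adjoin. -/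
lemma eval₂_C_mem_adjoin (J : LaurentSeries ℂ) (p : Polynomial ℂ) :
    p.eval₂ HahnSeries.C J ∈ Algebra.adjoin ℂ ({J} : Set (LaurentSeries ℂ)) := by
  rw [Polynomial.eval₂_eq_sum_range]
  refine Subalgebra.sum_mem _ fun i _ => ?_
  exact Subalgebra.mul_mem _ (C_mem_adjoin _ J)
    (Subalgebra.pow_mem _ (Algebra.subset_adjoin (Set.mem_singleton J)) i)

/-- **F-sym.** -/
theorem stmt_sym : Fermat.Agent.S28.H30.Stmt_Sym := by
  intro N _ Q _ π k a b ha hb hah hbh hab hbb hap hbp hb0
  obtain ⟨p, hp⟩ := sym_series π k N a b ha hb hah hbh hab hbb hap hbp hb0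
  rw [bridge N] at hp
  simp only [Fermat.Agent.S28.H30.pexp]
  rw [hp]
  exact eval₂_C_mem_adjoin _ p

end Fermat.Agent.S28.H76

end
end
-- ==== END Fermat.Agent.S28.H76_Sym

-- ==== BEGIN Fermat.Agent.S30.Defs2
section

/-!
# S30 wiring: interfaces for the assembly (owner helper29; cluster R)

* G1 `Stmt_MatToRep`  : a continuous `2 × 2` matrix representation is a `GaloisRepAdic`.
* G2 `Stmt_Compress`  : a stable subspace `W` of `K^r` (`K` the fraction field of a principal
  ideal domain `R`) of a matrix representation over `R` gives a matrix representation of rank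
  `finrank W` over `R`, intertwined with the given one by `P`, retracted by `Q`.
* G3 `Stmt_MapRep`    : base change of matrix representations along a local homomorphism keeps
  continuity.
-/

set_option autoImplicit false

open Polynomial

namespace Fermat.Agent.S30

/-- **G1 (MatToRep).** A continuous `2 × 2` matrix representation over a local ring is a
`GaloisRepAdic` with the same characteristic polynomials and the same unramified primes. -/
def Stmt_MatToRep : Prop :=
  ∀ (R : Type) [CommRing R] [IsLocalRing R] (ρ : GQ →* Matrix (Fin 2) (Fin 2) R),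
    MatAdicCont ρ →
    ∃ ρ' : GaloisRepAdic R,
      (∀ σ : GQ, LinearMap.charpoly (ρ'.ρ σ) = (ρ σ).charpoly) ∧
      ∀ q : ℕ, MatUnramAt ρ q → ρ'.IsUnramifiedAt q

/-- **G2 (Compress).** Restriction of a matrix representation over a principal ideal domain `R`
to (the lattice of) a stable subspace `W` of `K^r`: a representation `ρ'` of rank `finrank W`
with `ρ g * P = P * ρ' g` and `Q * P = 1` (so `ρ' g = Q * ρ g * P`). -/
def Stmt_Compress : Prop :=
  ∀ (R : Type) [CommRing R] [IsDomain R] [IsPrincipalIdealRing R]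
    (K : Type) [Field K] [Algebra R K] [IsFractionRing R K]
    (G : Type) [Group G] (r : ℕ) (ρ : G →* Matrix (Fin r) (Fin r) R)
    (W : Submodule K (Fin r → K)),
    (∀ g : G, ∀ w ∈ W, ((ρ g).map (algebraMap R K)).mulVec w ∈ W) →
    ∃ (P : Matrix (Fin r) (Fin (Module.finrank K W)) R)
      (Q : Matrix (Fin (Module.finrank K W)) (Fin r) R)
      (ρ' : G →* Matrix (Fin (Module.finrank K W)) (Fin (Module.finrank K W)) R),
      Q * P = 1 ∧ ∀ g : G, ρ g * P = P * ρ' g

/-- **G3 (MapRep).** Base change of a matrix representation along a local ring homomorphism keeps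
adic continuity. -/
def Stmt_MapRep : Prop :=
  ∀ (R R' : Type) [CommRing R] [IsLocalRing R] [CommRing R'] [IsLocalRing R']
    (φ : R →+* R') (_ : IsLocalHom φ) (r : ℕ) (ρ : GQ →* Matrix (Fin r) (Fin r) R),
    MatAdicCont ρ →
    ∃ ρ' : GQ →* Matrix (Fin r) (Fin r) R', (∀ g, ρ' g = (ρ g).map φ) ∧ MatAdicCont ρ'

/-- **G4 (Assemble).** The pure-algebra core of S30: a nonzero continuous matrix representation
of any rank satisfying the Eichler–Shimura relations (with `ε` cyclotomic away from `S`) gives a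
`2`-dimensional representation over a finite extension with the right Frobenius characteristic
polynomials.  Two transfer clauses: where `ρ` and `ε` are trivial so is the new representation,
and where `ρ` is unipotent of order `2` and `ε` trivial the new one has characteristic
polynomial `(X - 1) ^ 2`. -/
def Stmt_Assemble : Prop :=
  ∀ (𝒪 : Type) [CommRing 𝒪] [IsDomain 𝒪] [IsDiscreteValuationRing 𝒪]
    [IsAdicComplete (IsLocalRing.maximalIdeal 𝒪) 𝒪] [Finite (IsLocalRing.ResidueField 𝒪)]
    [CharZero 𝒪]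
    (S : Finset ℕ) (a : ℕ → 𝒪) (r : ℕ) (_hr : 0 < r) (ρ : GQ →* Matrix (Fin r) (Fin r) 𝒪)
    (ε : GQ →* 𝒪ˣ), MatAdicCont ρ → CharAdicCont ε → MatES ρ a S → CharCycAt ε S →
    ∃ (𝒪'' : Type) (_ : CommRing 𝒪'') (_ : IsDomain 𝒪'') (_ : IsDiscreteValuationRing 𝒪'')
      (_ : IsAdicComplete (IsLocalRing.maximalIdeal 𝒪'') 𝒪'')
      (_ : Finite (IsLocalRing.ResidueField 𝒪'')) (_ : CharZero 𝒪'')
      (_ : Algebra 𝒪 𝒪'') (_ : Module.Finite 𝒪 𝒪'') (_ : IsLocalHom (algebraMap 𝒪 𝒪'')),
      Function.Injective (algebraMap 𝒪 𝒪'') ∧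
      ∃ ρ'' : GaloisRepAdic 𝒪'',
        (∀ ℓ : ℕ, ℓ.Prime → ℓ ∉ S →
          ∀ A : ValuationSubring (AlgebraicClosure ℚ), A.LiesOverPrime ℓ →
            ∀ σ : GQ, A.IsFrobeniusAt σ ℓ →
              LinearMap.charpoly (ρ''.ρ σ) =
                X ^ 2 - C (algebraMap 𝒪 𝒪'' (a ℓ)) * X + C ((ℓ : 𝒪''))) ∧
        (∀ σ : GQ, ρ σ = 1 → ε σ = 1 → ρ''.ρ σ = 1) ∧
        (∀ σ : GQ, (ρ σ - 1) ^ 2 = 0 → ε σ = 1 →
          LinearMap.charpoly (ρ''.ρ σ) = (X - 1) ^ 2)

end Fermat.Agent.S30

end
-- ==== END Fermat.Agent.S30.Defs2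

-- ==== BEGIN Fermat.Agent.S30.H29_SmallPiece
section

/-!
# S30 wiring, WP C (SmallPiece), helper29

Pure linear algebra.  `ρ : G →* M_r(K)`, `ε : G →* Kˣ`, every `ρ g` satisfies a monic quadratic
with constant term `ε g`.  Then over a finite extension of `K` there is a nonzero `G`-stable
subspace of dimension at most `2`.

Elementary proof (no Burnside, no algebraic closure):
* Clifford identity `ρ g ρ h + ρ h ρ g = a h ρ g + a g ρ h + c`;
* if some `x ∈ {ρ g, ρ g + ρ h}` has nonzero discriminant: over `K(√disc)` take an eigenvector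
  `v` of `x`; the compression of `ρ h` to each eigenspace of `x` is scalar, which bounds the
  dimension of a suitable cyclic subspace by `2`;
* otherwise the "traceless parts" `ρ g - a g / 2` square to zero and anticommute, hence have a
  common kernel vector, which spans a stable line.
-/

set_option autoImplicit false

open Matrix

namespace Fermat.Agent.S30.H29

section Clifford

variable {R : Type*} [CommRing R] {G : Type*} [Group G] {r : ℕ}

/-- The Clifford identity: from `(g h)⁻¹ = h⁻¹ g⁻¹` and the quadratic relations. -/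
theorem clifford_identity (ρ : G →* Matrix (Fin r) (Fin r) R) (ε : G →* Rˣ) (a : G → R)
    (ha : ∀ g, ρ g * ρ g - a g • ρ g + (ε g : R) • (1 : Matrix (Fin r) (Fin r) R) = 0)
    (g h : G) :
    ρ g * ρ h + ρ h * ρ g =
      a h • ρ g + a g • ρ h + (a (g * h) - a g * a h) • (1 : Matrix (Fin r) (Fin r) R) := by
  set X := ρ g with hX
  set Y := ρ h with hY
  have hXY : ρ (g * h) = X * Y := map_mul ρ g h
  have h1 : X * X = a g • X - (ε g : R) • (1 : Matrix (Fin r) (Fin r) R) := by
    have := ha g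
    rw [← hX] at this
    rw [← sub_eq_zero]
    rw [← this]
    abel
  have h2 : Y * Y = a h • Y - (ε h : R) • (1 : Matrix (Fin r) (Fin r) R) := by
    have := ha h
    rw [← hY] at this
    rw [← sub_eq_zero]
    rw [← this]
    abel
  have h3 : (X * Y) * (X * Y) = a (g * h) • (X * Y)
      - ((ε g : R) * (ε h : R)) • (1 : Matrix (Fin r) (Fin r) R) := by
    have := ha (g * h)
    rw [hXY, map_mul, Units.val_mul] at this
    rw [← sub_eq_zero]
    rw [← this]
    abel
  -- `X * Y * Z = 0` with `Z` the difference of the two sides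
  have hinv : ρ (g * h)⁻¹ * (X * Y) = 1 := by
    rw [← hXY, ← map_mul, inv_mul_cancel, map_one]
  have key : (X * Y) * (a (g * h) • (1 : Matrix (Fin r) (Fin r) R) - X * Y
      - (a h • (1 : Matrix (Fin r) (Fin r) R) - Y) * (a g • (1 : Matrix (Fin r) (Fin r) R) - X))
      = 0 := by
    have e1 : X * (a g • (1 : Matrix (Fin r) (Fin r) R) - X)
        = (ε g : R) • (1 : Matrix (Fin r) (Fin r) R) := by
      rw [mul_sub, h1]
      simp
    have e2 : Y * (a h • (1 : Matrix (Fin r) (Fin r) R) - Y)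
        = (ε h : R) • (1 : Matrix (Fin r) (Fin r) R) := by
      rw [mul_sub, h2]
      simp
    have e3 : (X * Y) * (a (g * h) • (1 : Matrix (Fin r) (Fin r) R) - X * Y)
        = ((ε g : R) * (ε h : R)) • (1 : Matrix (Fin r) (Fin r) R) := by
      rw [mul_sub, h3]
      simp
    have e4 : (X * Y) * ((a h • (1 : Matrix (Fin r) (Fin r) R) - Y)
        * (a g • (1 : Matrix (Fin r) (Fin r) R) - X))
        = ((ε g : R) * (ε h : R)) • (1 : Matrix (Fin r) (Fin r) R) := by
      rw [mul_assoc X Y, ← mul_assoc Y, e2]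
      rw [smul_mul_assoc, one_mul, mul_smul_comm, e1, smul_smul, mul_comm]
    rw [mul_sub, e3, e4, sub_self]
  have key2 : a (g * h) • (1 : Matrix (Fin r) (Fin r) R) - X * Y
      - (a h • (1 : Matrix (Fin r) (Fin r) R) - Y) * (a g • (1 : Matrix (Fin r) (Fin r) R) - X)
      = 0 := by
    have := congrArg (fun M => ρ (g * h)⁻¹ * M) key
    simp only [mul_zero] at this
    rwa [← mul_assoc, hinv, one_mul] at this
  -- expand
  have key3 := key2
  rw [sub_mul, mul_sub, mul_sub] at key3
  simp only [smul_mul_assoc, one_mul, mul_smul_comm, mul_one, smul_smul] at key3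
  rw [sub_smul]
  rw [← sub_eq_zero]
  rw [← neg_eq_zero]
  rw [← key3]
  rw [mul_comm (a g) (a h)]
  abel

end Clifford

section Core

variable {F : Type*} [Field F] {G : Type*} [Group G] {r : ℕ}

/-- The span of the orbit of a vector. -/
def orbitSpan (ρ : G →* Matrix (Fin r) (Fin r) F) (v : Fin r → F) : Submodule F (Fin r → F) :=
  Submodule.span F (Set.range fun h : G => (ρ h) *ᵥ v)

theorem mem_orbitSpan_self (ρ : G →* Matrix (Fin r) (Fin r) F) (v : Fin r → F) :
    v ∈ orbitSpan ρ v := by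
  apply Submodule.subset_span
  exact ⟨1, by simp⟩

theorem orbitSpan_stable (ρ : G →* Matrix (Fin r) (Fin r) F) (v : Fin r → F) (g : G)
    (w : Fin r → F) (hw : w ∈ orbitSpan ρ v) : ρ g *ᵥ w ∈ orbitSpan ρ v := by
  unfold orbitSpan at hw ⊢
  induction hw using Submodule.span_induction with
  | mem y hy =>
    obtain ⟨h, rfl⟩ := hy
    apply Submodule.subset_span
    exact ⟨g * h, by simp [map_mul]⟩
  | zero => simp
  | add y z _ _ hy hz =>
    rw [Matrix.mulVec_add]
    exact Submodule.add_mem _ hy hz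
  | smul c y _ hy =>
    rw [Matrix.mulVec_smul]
    exact Submodule.smul_mem _ c hy

theorem orbitSpan_le (ρ : G →* Matrix (Fin r) (Fin r) F) (v : Fin r → F)
    (W : Submodule F (Fin r → F)) (hW : ∀ g, ∀ w ∈ W, ρ g *ᵥ w ∈ W) (hv : v ∈ W) :
    orbitSpan ρ v ≤ W := by
  unfold orbitSpan
  rw [Submodule.span_le]
  rintro _ ⟨h, rfl⟩
  exact hW h v hv

/-- The compression of `ρ h` to an eigenspace of `x` is scalar. -/
theorem compress (ρ : G →* Matrix (Fin r) (Fin r) F) (a : G → F)
    (x : Matrix (Fin r) (Fin r) F) (τ : F)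
    (hCI : ∀ h, ∃ c : F, x * ρ h + ρ h * x
      = a h • x + τ • ρ h + c • (1 : Matrix (Fin r) (Fin r) F))
    (lam lam' : F) (hτ : τ = lam + lam') (v : Fin r → F) (hv : x *ᵥ v = lam • v) (h : G) :
    ∃ μ : F, (x - lam' • (1 : Matrix (Fin r) (Fin r) F)) *ᵥ (ρ h *ᵥ v) = μ • v := by
  obtain ⟨c, hc⟩ := hCI h
  refine ⟨a h * lam + c, ?_⟩
  have h1 : x * ρ h = a h • x + τ • ρ h + c • (1 : Matrix (Fin r) (Fin r) F) - ρ h * x := by
    rw [← hc]
    abel
  have h2 : x *ᵥ (ρ h *ᵥ v) = (a h * lam) • v + τ • (ρ h *ᵥ v) + c • v - lam • (ρ h *ᵥ v) := by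
    rw [Matrix.mulVec_mulVec, h1, Matrix.sub_mulVec, Matrix.add_mulVec, Matrix.add_mulVec,
      Matrix.smul_mulVec, Matrix.smul_mulVec, Matrix.smul_mulVec, Matrix.one_mulVec,
      ← Matrix.mulVec_mulVec, hv, Matrix.mulVec_smul, smul_smul]
  rw [Matrix.sub_mulVec, h2, Matrix.smul_mulVec, Matrix.one_mulVec, hτ]
  rw [add_smul, add_smul]
  abel

/-- Linear extension of `compress` to the orbit span. -/
theorem compress_span (ρ : G →* Matrix (Fin r) (Fin r) F) (a : G → F)
    (x : Matrix (Fin r) (Fin r) F) (τ : F)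
    (hCI : ∀ h, ∃ c : F, x * ρ h + ρ h * x
      = a h • x + τ • ρ h + c • (1 : Matrix (Fin r) (Fin r) F))
    (lam lam' : F) (hτ : τ = lam + lam') (v : Fin r → F) (hv : x *ᵥ v = lam • v)
    (w : Fin r → F) (hw : w ∈ orbitSpan ρ v) :
    ∃ μ : F, (x - lam' • (1 : Matrix (Fin r) (Fin r) F)) *ᵥ w = μ • v := by
  unfold orbitSpan at hw
  induction hw using Submodule.span_induction with
  | mem y hy =>
    obtain ⟨h, rfl⟩ := hy
    exact compress ρ a x τ hCI lam lam' hτ v hv h
  | zero => exact ⟨0, by simp⟩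
  | add y z _ _ hy hz =>
    obtain ⟨μ₁, h₁⟩ := hy
    obtain ⟨μ₂, h₂⟩ := hz
    exact ⟨μ₁ + μ₂, by rw [Matrix.mulVec_add, h₁, h₂, add_smul]⟩
  | smul c y _ hy =>
    obtain ⟨μ₁, h₁⟩ := hy
    exact ⟨c * μ₁, by rw [Matrix.mulVec_smul, h₁, smul_smul]⟩

theorem exists_mulVec_ne_zero {M : Matrix (Fin r) (Fin r) F} (hM : M ≠ 0) :
    ∃ u : Fin r → F, M *ᵥ u ≠ 0 := by
  by_contra hcon
  push Not at hcon
  apply hM
  ext i j
  have := congrFun (hcon (Pi.single j 1)) i
  simpa using this

theorem commute_sub_smul_one (x : Matrix (Fin r) (Fin r) F) (lam lam' : F) :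
    (x - lam' • (1 : Matrix (Fin r) (Fin r) F)) * (x - lam • (1 : Matrix (Fin r) (Fin r) F))
      = (x - lam • (1 : Matrix (Fin r) (Fin r) F)) * (x - lam' • (1 : Matrix (Fin r) (Fin r) F)) := by
  simp only [sub_mul, mul_sub, smul_mul_assoc, mul_smul_comm, one_mul, mul_one, smul_sub,
    smul_smul]
  rw [mul_comm lam lam']
  abel

/-- Core of WP C, assuming `x - lam' ≠ 0`. -/
theorem exists_stable_aux (ρ : G →* Matrix (Fin r) (Fin r) F) (a : G → F)
    (x : Matrix (Fin r) (Fin r) F) (τ : F)
    (hx : ∀ W : Submodule F (Fin r → F), (∀ g, ∀ w ∈ W, ρ g *ᵥ w ∈ W) → ∀ w ∈ W, x *ᵥ w ∈ W)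
    (hCI : ∀ h, ∃ c : F, x * ρ h + ρ h * x
      = a h • x + τ • ρ h + c • (1 : Matrix (Fin r) (Fin r) F))
    (lam lam' : F) (hne : lam ≠ lam') (hτ : τ = lam + lam')
    (hxx : (x - lam • (1 : Matrix (Fin r) (Fin r) F)) * (x - lam' • 1) = 0)
    (h0 : x - lam' • (1 : Matrix (Fin r) (Fin r) F) ≠ 0) :
    ∃ W : Submodule F (Fin r → F), W ≠ ⊥ ∧ Module.finrank F W ≤ 2 ∧
      ∀ g, ∀ w ∈ W, ρ g *ᵥ w ∈ W := by
  obtain ⟨u, hu⟩ := exists_mulVec_ne_zero h0
  set v := (x - lam' • (1 : Matrix (Fin r) (Fin r) F)) *ᵥ u with hvdef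
  have hv : x *ᵥ v = lam • v := by
    have : (x - lam • (1 : Matrix (Fin r) (Fin r) F)) *ᵥ v = 0 := by
      rw [hvdef, Matrix.mulVec_mulVec, hxx, Matrix.zero_mulVec]
    rw [Matrix.sub_mulVec, Matrix.smul_mulVec, Matrix.one_mulVec, sub_eq_zero] at this
    exact this
  have hd : lam - lam' ≠ 0 := sub_ne_zero.mpr hne
  set W := orbitSpan ρ v with hW
  have hWst : ∀ g, ∀ w ∈ W, ρ g *ᵥ w ∈ W := fun g w hw => orbitSpan_stable ρ v g w hw
  have hvW : v ∈ W := mem_orbitSpan_self ρ v
  have hsub : ∀ w : Fin r → F, (x - lam' • (1 : Matrix (Fin r) (Fin r) F)) *ᵥ w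
      - (x - lam • (1 : Matrix (Fin r) (Fin r) F)) *ᵥ w = (lam - lam') • w := by
    intro w
    simp only [Matrix.sub_mulVec, Matrix.smul_mulVec, Matrix.one_mulVec, sub_smul]
    abel
  by_cases hA : ∀ w ∈ W, (x - lam • (1 : Matrix (Fin r) (Fin r) F)) *ᵥ w = 0
  · -- `W` is the line spanned by `v`
    refine ⟨W, ?_, ?_, hWst⟩
    · intro hbot
      rw [hbot] at hvW
      exact hu ((Submodule.mem_bot F).1 hvW)
    · have hle : W ≤ Submodule.span F {v} := by
        intro w hw
        obtain ⟨μ, hμ⟩ := compress_span ρ a x τ hCI lam lam' hτ v hv w hw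
        have h1 := hsub w
        rw [hμ, hA w hw, sub_zero] at h1
        have : w = ((lam - lam')⁻¹ * μ) • v := by
          rw [← smul_smul, h1, smul_smul, inv_mul_cancel₀ hd, one_smul]
        rw [this]
        exact Submodule.smul_mem _ _ (Submodule.mem_span_singleton_self v)
      calc Module.finrank F W ≤ Module.finrank F (Submodule.span F {v}) :=
            Submodule.finrank_mono hle
        _ ≤ 1 := by
          classical
          have := finrank_span_finset_le_card (R := F) ({v} : Finset (Fin r → F))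
          rw [Set.finrank, Finset.coe_singleton, Finset.card_singleton] at this
          exact this
        _ ≤ 2 := by norm_num
  · push Not at hA
    obtain ⟨w₀, hw₀, hw₀ne⟩ := hA
    set w := (x - lam • (1 : Matrix (Fin r) (Fin r) F)) *ᵥ w₀ with hwdef
    have hwW : w ∈ W := by
      rw [hwdef, Matrix.sub_mulVec, Matrix.smul_mulVec, Matrix.one_mulVec]
      exact Submodule.sub_mem _ (hx W hWst w₀ hw₀) (Submodule.smul_mem _ _ hw₀)
    have hw : x *ᵥ w = lam' • w := by
      have : (x - lam' • (1 : Matrix (Fin r) (Fin r) F)) *ᵥ w = 0 := by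
        rw [hwdef, Matrix.mulVec_mulVec, commute_sub_smul_one, hxx, Matrix.zero_mulVec]
      rw [Matrix.sub_mulVec, Matrix.smul_mulVec, Matrix.one_mulVec, sub_eq_zero] at this
      exact this
    set W' := orbitSpan ρ w with hW'
    have hW'W : W' ≤ W := orbitSpan_le ρ w W hWst hwW
    refine ⟨W', ?_, ?_, fun g z hz => orbitSpan_stable ρ w g z hz⟩
    · intro hbot
      have := mem_orbitSpan_self ρ w
      rw [← hW', hbot] at this
      exact hw₀ne ((Submodule.mem_bot F).1 this)
    · have hle : W' ≤ Submodule.span F {v, w} := by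
        intro z hz
        obtain ⟨μ, hμ⟩ := compress_span ρ a x τ hCI lam lam' hτ v hv z (hW'W hz)
        obtain ⟨μ', hμ'⟩ := compress_span ρ a x τ hCI lam' lam (by rw [hτ, add_comm]) w hw z hz
        have h1 := hsub z
        rw [hμ, hμ'] at h1
        have : z = ((lam - lam')⁻¹ * μ) • v - ((lam - lam')⁻¹ * μ') • w := by
          rw [← smul_smul, ← smul_smul, ← smul_sub, h1, smul_smul, inv_mul_cancel₀ hd, one_smul]
        rw [this]
        refine Submodule.sub_mem _ (Submodule.smul_mem _ _ ?_) (Submodule.smul_mem _ _ ?_)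
        · exact Submodule.subset_span (by simp)
        · exact Submodule.subset_span (by simp)
      calc Module.finrank F W' ≤ Module.finrank F (Submodule.span F {v, w}) :=
            Submodule.finrank_mono hle
        _ ≤ 2 := by
          classical
          have := finrank_span_finset_le_card (R := F) ({v, w} : Finset (Fin r → F))
          have hc : ({v, w} : Finset (Fin r → F)).card ≤ 2 := Finset.card_le_two
          rw [Set.finrank, Finset.coe_pair] at this
          exact this.trans hc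

/-- Core of WP C: a matrix `x` with two distinct eigenvalues, satisfying the Clifford identity
with all `ρ h` and preserving the stable subspaces, produces a stable subspace of dimension
`≤ 2`. -/
theorem exists_stable_of_split (hr : 0 < r) (ρ : G →* Matrix (Fin r) (Fin r) F) (a : G → F)
    (x : Matrix (Fin r) (Fin r) F) (τ : F)
    (hx : ∀ W : Submodule F (Fin r → F), (∀ g, ∀ w ∈ W, ρ g *ᵥ w ∈ W) → ∀ w ∈ W, x *ᵥ w ∈ W)
    (hCI : ∀ h, ∃ c : F, x * ρ h + ρ h * x
      = a h • x + τ • ρ h + c • (1 : Matrix (Fin r) (Fin r) F))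
    (lam lam' : F) (hne : lam ≠ lam') (hτ : τ = lam + lam')
    (hxx : (x - lam • (1 : Matrix (Fin r) (Fin r) F)) * (x - lam' • 1) = 0) :
    ∃ W : Submodule F (Fin r → F), W ≠ ⊥ ∧ Module.finrank F W ≤ 2 ∧
      ∀ g, ∀ w ∈ W, ρ g *ᵥ w ∈ W := by
  by_cases h0 : x - lam' • (1 : Matrix (Fin r) (Fin r) F) = 0
  · have h1 : x - lam • (1 : Matrix (Fin r) (Fin r) F) ≠ 0 := by
      intro h
      have h2 : (lam - lam') • (1 : Matrix (Fin r) (Fin r) F) = 0 := by
        have : (x - lam' • (1 : Matrix (Fin r) (Fin r) F)) - (x - lam • 1) = 0 := by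
          rw [h0, h, sub_zero]
        rw [← this, sub_smul]
        abel
      have h3 := congrFun (congrFun h2 ⟨0, hr⟩) ⟨0, hr⟩
      simp only [Matrix.smul_apply, Matrix.one_apply_eq, smul_eq_mul, mul_one,
        Matrix.zero_apply] at h3
      exact hne (sub_eq_zero.mp h3)
    exact exists_stable_aux ρ a x τ hx hCI lam' lam hne.symm (by rw [hτ, add_comm])
      (by rw [h0, zero_mul]) h1
  · exact exists_stable_aux ρ a x τ hx hCI lam lam' hne hτ hxx h0

/-- A family of pairwise anticommuting matrices of square zero has a common kernel vector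
(finite list version). -/
theorem exists_common_kernel_list (hr : 0 < r) {ι : Type*} (ν : ι → Matrix (Fin r) (Fin r) F)
    (hsq : ∀ i, ν i * ν i = 0) (hanti : ∀ i j, ν i * ν j = -(ν j * ν i)) (l : List ι) :
    ∃ v : Fin r → F, v ≠ 0 ∧ ∀ i ∈ l, ν i *ᵥ v = 0 := by
  induction l with
  | nil =>
    refine ⟨Pi.single ⟨0, hr⟩ 1, ?_, by simp⟩
    intro h
    have := congrFun h ⟨0, hr⟩
    simp at this
  | cons i l ih =>
    obtain ⟨v, hv, hl⟩ := ih
    by_cases hi : ν i *ᵥ v = 0
    · refine ⟨v, hv, ?_⟩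
      intro j hj
      rcases List.mem_cons.mp hj with rfl | hj
      · exact hi
      · exact hl j hj
    · refine ⟨ν i *ᵥ v, hi, ?_⟩
      intro j hj
      rcases List.mem_cons.mp hj with rfl | hj
      · rw [Matrix.mulVec_mulVec, hsq, Matrix.zero_mulVec]
      · rw [Matrix.mulVec_mulVec, hanti, Matrix.neg_mulVec, ← Matrix.mulVec_mulVec, hl j hj,
          Matrix.mulVec_zero, neg_zero]

/-- A family of pairwise anticommuting matrices of square zero has a common kernel vector. -/
theorem exists_common_kernel (hr : 0 < r) {ι : Type*} (ν : ι → Matrix (Fin r) (Fin r) F)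
    (hsq : ∀ i, ν i * ν i = 0) (hanti : ∀ i j, ν i * ν j = -(ν j * ν i)) :
    ∃ v : Fin r → F, v ≠ 0 ∧ ∀ i, ν i *ᵥ v = 0 := by
  classical
  rcases isEmpty_or_nonempty ι with hι | hι
  · obtain ⟨v, hv, -⟩ := exists_common_kernel_list hr ν hsq hanti []
    exact ⟨v, hv, fun i => isEmptyElim i⟩
  have hfg : (Submodule.span F (Set.range ν)).FG := IsNoetherian.noetherian _
  obtain ⟨t, ht, hspan⟩ := (Submodule.fg_span_iff_fg_span_finset_subset (Set.range ν)).1 hfg
  -- choose indices for the elements of `t`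
  have hidx : ∀ M ∈ t, ∃ i, ν i = M := fun M hM => ht hM
  choose! idx hidx' using hidx
  obtain ⟨v, hv, hl⟩ := exists_common_kernel_list hr ν hsq hanti (t.toList.map idx)
  refine ⟨v, hv, fun i => ?_⟩
  -- the matrices killing `v` form a submodule
  let Z : Submodule F (Matrix (Fin r) (Fin r) F) :=
    { carrier := {M | M *ᵥ v = 0}
      add_mem' := fun {A B} hA hB => by
        have hA' : A *ᵥ v = 0 := hA
        have hB' : B *ᵥ v = 0 := hB
        show (A + B) *ᵥ v = 0
        rw [Matrix.add_mulVec, hA', hB', add_zero]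
      zero_mem' := by
        show (0 : Matrix (Fin r) (Fin r) F) *ᵥ v = 0
        simp
      smul_mem' := fun c A hA => by
        have hA' : A *ᵥ v = 0 := hA
        show (c • A) *ᵥ v = 0
        rw [Matrix.smul_mulVec, hA', smul_zero] }
  have htZ : (↑t : Set (Matrix (Fin r) (Fin r) F)) ⊆ Z := by
    intro M hM
    have hM' : M ∈ t := hM
    have : ν (idx M) *ᵥ v = 0 :=
      hl (idx M) (List.mem_map.mpr ⟨M, Finset.mem_toList.mpr hM', rfl⟩)
    rw [hidx' M hM'] at this
    exact this
  have hle : Submodule.span F (Set.range ν) ≤ Z := by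
    rw [hspan]
    exact Submodule.span_le.mpr htZ
  exact hle (Submodule.subset_span ⟨i, rfl⟩)

end Core

section Final

variable {K : Type} [Field K] [CharZero K] {G : Type} [Group G] {r : ℕ}

omit [CharZero K] in
theorem map_smul_matrix {K'' : Type} [Field K''] (φ : K →+* K'') (c : K)
    (M : Matrix (Fin r) (Fin r) K) : (c • M).map φ = φ c • M.map φ := by
  ext i j
  simp

/-- Base change of a matrix representation. -/
def baseChangeRep (K'' : Type) [Field K''] [Algebra K K''] (ρ : G →* Matrix (Fin r) (Fin r) K) :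
    G →* Matrix (Fin r) (Fin r) K'' :=
  ((algebraMap K K'').mapMatrix :
    Matrix (Fin r) (Fin r) K →+* Matrix (Fin r) (Fin r) K'').toMonoidHom.comp ρ

omit [CharZero K] in
theorem baseChangeRep_apply (K'' : Type) [Field K''] [Algebra K K'']
    (ρ : G →* Matrix (Fin r) (Fin r) K) (g : G) :
    baseChangeRep K'' ρ g = (ρ g).map (algebraMap K K'') := rfl

omit [CharZero K] in
/-- A finite extension containing a square root of `d`. -/
theorem exists_sqrt_ext (d : K) :
    ∃ (K'' : Type) (_ : Field K'') (_ : Algebra K K'') (_ : FiniteDimensional K K'')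
      (δ : K''), δ ^ 2 = algebraMap K K'' d := by
  classical
  have hdeg : ((Polynomial.X ^ 2 - Polynomial.C d : Polynomial K).map
      (algebraMap K (Polynomial.X ^ 2 - Polynomial.C d : Polynomial K).SplittingField)).degree
        ≠ 0 := by
    have h2 : (Polynomial.X ^ 2 - Polynomial.C d : Polynomial K).degree = 2 :=
      Polynomial.degree_X_pow_sub_C (by norm_num) _
    rw [Polynomial.degree_map, h2]
    norm_num
  obtain ⟨δ, hδ⟩ := (Polynomial.SplittingField.splits
    (Polynomial.X ^ 2 - Polynomial.C d : Polynomial K)).exists_eval_eq_zero hdeg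
  refine ⟨(Polynomial.X ^ 2 - Polynomial.C d : Polynomial K).SplittingField, inferInstance,
    inferInstance, inferInstance, δ, ?_⟩
  simp only [Polynomial.map_sub, Polynomial.map_pow, Polynomial.map_X, Polynomial.map_C,
    Polynomial.eval_sub, Polynomial.eval_pow, Polynomial.eval_X, Polynomial.eval_C] at hδ
  exact sub_eq_zero.mp hδ

/-- A matrix with nonzero discriminant satisfying the Clifford identity with all `ρ h` gives a
stable subspace of dimension `≤ 2` over the splitting field of `X² - disc`. -/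
theorem exists_stable_of_disc (hr : 0 < r) (ρ : G →* Matrix (Fin r) (Fin r) K) (a : G → K)
    (x : Matrix (Fin r) (Fin r) K) (τ n : K)
    (hxq : x * x = τ • x - n • (1 : Matrix (Fin r) (Fin r) K))
    (hdisc : τ ^ 2 - 4 * n ≠ 0)
    (hxCI : ∀ h, ∃ c : K, x * ρ h + ρ h * x
      = a h • x + τ • ρ h + c • (1 : Matrix (Fin r) (Fin r) K))
    (hxst : ∀ (K'' : Type) [Field K''] [Algebra K K''] (W : Submodule K'' (Fin r → K'')),
      (∀ g, ∀ w ∈ W, ((ρ g).map (algebraMap K K'')) *ᵥ w ∈ W) →
        ∀ w ∈ W, (x.map (algebraMap K K'')) *ᵥ w ∈ W) :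
    ∃ (K'' : Type) (_ : Field K'') (_ : Algebra K K'') (_ : FiniteDimensional K K'')
      (W : Submodule K'' (Fin r → K'')),
      W ≠ ⊥ ∧ Module.finrank K'' W ≤ 2 ∧
        ∀ g : G, ∀ w ∈ W, ((ρ g).map (algebraMap K K'')).mulVec w ∈ W := by
  classical
  obtain ⟨K'', iF, iA, iFD, δ, hδ2⟩ := exists_sqrt_ext (τ ^ 2 - 4 * n)
  let φ : K →+* K'' := algebraMap K K''
  change δ ^ 2 = φ (τ ^ 2 - 4 * n) at hδ2
  have hδ0 : δ ≠ 0 := by
    intro h
    rw [h, zero_pow (by norm_num)] at hδ2
    exact hdisc ((map_eq_zero φ).1 hδ2.symm)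
  have h2ne : (2 : K'') ≠ 0 := by
    have hcz : CharZero K'' := charZero_of_injective_algebraMap (algebraMap K K'').injective
    exact two_ne_zero
  set lam : K'' := (φ τ + δ) / 2 with hlam
  set lam' : K'' := (φ τ - δ) / 2 with hlam'
  have hne : lam ≠ lam' := by
    intro h
    apply hδ0
    have : lam - lam' = δ := by
      rw [hlam, hlam']
      field_simp
      ring
    rw [← this, h, sub_self]
  have hτ : φ τ = lam + lam' := by
    rw [hlam, hlam']
    field_simp
    ring
  have hprod : lam * lam' = φ n := by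
    have h4 : (4 : K'') * (lam * lam') = 4 * φ n := by
      have : (4 : K'') * (lam * lam') = φ τ ^ 2 - δ ^ 2 := by
        rw [hlam, hlam']
        field_simp
        ring
      rw [this, hδ2]
      simp only [map_sub, map_pow, map_mul, map_ofNat]
      ring
    have h4ne : (4 : K'') ≠ 0 := by
      have : (4 : K'') = 2 * 2 := by norm_num
      rw [this]
      exact mul_ne_zero h2ne h2ne
    exact mul_left_cancel₀ h4ne h4
  set x'' : Matrix (Fin r) (Fin r) K'' := x.map φ with hx''
  have hΦs : ∀ (c : K) (M : Matrix (Fin r) (Fin r) K),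
      φ.mapMatrix (c • M) = φ c • φ.mapMatrix M := by
    intro c M
    ext i j
    simp
  have hxq'' : x'' * x'' = φ τ • x'' - φ n • (1 : Matrix (Fin r) (Fin r) K'') := by
    have := congrArg (φ.mapMatrix : Matrix (Fin r) (Fin r) K →+* Matrix (Fin r) (Fin r) K'') hxq
    rw [map_mul, map_sub, hΦs, hΦs, map_one] at this
    exact this
  have hxx : (x'' - lam • (1 : Matrix (Fin r) (Fin r) K'')) * (x'' - lam' • 1) = 0 := by
    simp only [sub_mul, mul_sub, smul_mul_assoc, mul_smul_comm, one_mul, mul_one, smul_sub,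
      smul_smul]
    rw [hxq'', hτ, mul_comm lam' lam, hprod, add_smul]
    abel
  have hCI'' : ∀ h, ∃ c : K'', x'' * baseChangeRep K'' ρ h + baseChangeRep K'' ρ h * x''
      = (φ (a h)) • x'' + φ τ • baseChangeRep K'' ρ h + c • (1 : Matrix (Fin r) (Fin r) K'') := by
    intro h
    obtain ⟨c, hc⟩ := hxCI h
    refine ⟨φ c, ?_⟩
    have := congrArg (φ.mapMatrix : Matrix (Fin r) (Fin r) K →+* Matrix (Fin r) (Fin r) K'') hc
    rw [map_add, map_add, map_add, map_mul, map_mul, hΦs, hΦs, hΦs, map_one] at this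
    exact this
  obtain ⟨W, hW0, hWd, hWst⟩ := exists_stable_of_split hr (baseChangeRep K'' ρ)
    (fun h => φ (a h)) x'' (φ τ) (fun W hW => hxst K'' W hW) hCI'' lam lam' hne hτ hxx
  exact ⟨K'', iF, iA, iFD, W, hW0, hWd, hWst⟩

/-- **WP C (SmallPiece).** -/
theorem smallPiece : Stmt_SmallPiece := by
  intro K _ _ G _ r hr ρ ε hq
  classical
  choose a ha using hq
  have hCI := clifford_identity ρ ε a ha
  have hsq : ∀ g, ρ g * ρ g = a g • ρ g - (ε g : K) • (1 : Matrix (Fin r) (Fin r) K) := by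
    intro g
    rw [← sub_eq_zero, ← ha g]
    abel
  by_cases h1 : ∃ g, a g ^ 2 - 4 * (ε g : K) ≠ 0
  · obtain ⟨g, hg⟩ := h1
    refine exists_stable_of_disc hr ρ a (ρ g) (a g) (ε g) (hsq g) hg ?_ ?_
    · intro h
      exact ⟨a (g * h) - a g * a h, hCI g h⟩
    · intro K'' _ _ W hW w hw
      exact hW g w hw
  · push Not at h1
    by_cases h2 : ∃ g h, a (g * h) - a g * a h / 2 ≠ 0
    · obtain ⟨g, h, hs⟩ := h2
      refine exists_stable_of_disc hr ρ a (ρ g + ρ h) (a g + a h)
        ((ε g : K) + (ε h : K) - (a (g * h) - a g * a h)) ?_ ?_ ?_ ?_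
      · -- the quadratic relation of `x`
        have e : (ρ g + ρ h) * (ρ g + ρ h)
            = ρ g * ρ g + ρ h * ρ h + (ρ g * ρ h + ρ h * ρ g) := by
          rw [add_mul, mul_add, mul_add]
          abel
        rw [e, hsq g, hsq h, hCI g h]
        simp only [add_smul, sub_smul, smul_add]
        abel
      · -- the discriminant
        have e : (a g + a h) ^ 2 - 4 * ((ε g : K) + (ε h : K) - (a (g * h) - a g * a h))
            = (a g ^ 2 - 4 * (ε g : K)) + (a h ^ 2 - 4 * (ε h : K))
              + 4 * (a (g * h) - a g * a h / 2) := by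
          ring
        rw [e, h1 g, h1 h, zero_add, zero_add]
        exact mul_ne_zero (by norm_num) hs
      · intro k
        refine ⟨(a (g * k) - a g * a k) + (a (h * k) - a h * a k), ?_⟩
        have e : (ρ g + ρ h) * ρ k + ρ k * (ρ g + ρ h)
            = (ρ g * ρ k + ρ k * ρ g) + (ρ h * ρ k + ρ k * ρ h) := by
          rw [add_mul, mul_add]
          abel
        rw [e, hCI g k, hCI h k]
        simp only [add_smul, smul_add]
        abel
      · intro K'' _ _ W hW w hw
        rw [Matrix.map_add (f := algebraMap K K'') (map_add _), Matrix.add_mulVec]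
        exact W.add_mem (hW g w hw) (hW h w hw)
    · push Not at h2
      have h2ne : (2 : K) ≠ 0 := two_ne_zero
      have hνsq : ∀ g, (ρ g - (a g / 2) • (1 : Matrix (Fin r) (Fin r) K))
          * (ρ g - (a g / 2) • (1 : Matrix (Fin r) (Fin r) K)) = 0 := by
        intro g
        have e : (ρ g - (a g / 2) • (1 : Matrix (Fin r) (Fin r) K))
            * (ρ g - (a g / 2) • (1 : Matrix (Fin r) (Fin r) K))
            = ρ g * ρ g - a g • ρ g + (a g ^ 2 / 4) • (1 : Matrix (Fin r) (Fin r) K) := by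
          simp only [sub_mul, mul_sub, smul_mul_assoc, mul_smul_comm, one_mul, mul_one]
          module
        rw [e, hsq g]
        have e3 : a g ^ 2 / 4 = (ε g : K) := by
          have := h1 g
          field_simp
          linear_combination this
        rw [e3]
        abel
      have hνanti : ∀ g h, (ρ g - (a g / 2) • (1 : Matrix (Fin r) (Fin r) K))
          * (ρ h - (a h / 2) • (1 : Matrix (Fin r) (Fin r) K))
          = -((ρ h - (a h / 2) • (1 : Matrix (Fin r) (Fin r) K))
            * (ρ g - (a g / 2) • (1 : Matrix (Fin r) (Fin r) K))) := by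
        intro g h
        rw [eq_neg_iff_add_eq_zero]
        have e : (ρ g - (a g / 2) • (1 : Matrix (Fin r) (Fin r) K))
            * (ρ h - (a h / 2) • (1 : Matrix (Fin r) (Fin r) K))
            + (ρ h - (a h / 2) • (1 : Matrix (Fin r) (Fin r) K))
            * (ρ g - (a g / 2) • (1 : Matrix (Fin r) (Fin r) K))
            = (ρ g * ρ h + ρ h * ρ g) - a h • ρ g - a g • ρ h
              + (a g * a h / 2) • (1 : Matrix (Fin r) (Fin r) K) := by
          simp only [sub_mul, mul_sub, smul_mul_assoc, mul_smul_comm, one_mul, mul_one]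
          module
        rw [e, hCI g h]
        have e3 : a (g * h) - a g * a h = -(a g * a h / 2) := by
          have := h2 g h
          linear_combination this
        rw [e3, neg_smul]
        abel
      obtain ⟨v, hv, hker⟩ := exists_common_kernel hr
        (fun g => ρ g - (a g / 2) • (1 : Matrix (Fin r) (Fin r) K)) hνsq hνanti
      have hρv : ∀ g, ρ g *ᵥ v = (a g / 2) • v := by
        intro g
        have := hker g
        simp only [Matrix.sub_mulVec, Matrix.smul_mulVec, Matrix.one_mulVec] at this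
        exact sub_eq_zero.mp this
      refine ⟨K, inferInstance, Algebra.id K, inferInstance, Submodule.span K {v}, ?_, ?_, ?_⟩
      · intro h
        exact hv ((Submodule.span_singleton_eq_bot).1 h)
      · rw [finrank_span_singleton hv]
        norm_num
      · intro g w hw
        have hmap : (ρ g).map (algebraMap K K) = ρ g := by
          ext i j
          simp
        rw [hmap]
        obtain ⟨c, rfl⟩ := Submodule.mem_span_singleton.1 hw
        rw [Matrix.mulVec_smul, hρv g, smul_comm]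
        exact Submodule.smul_mem _ _ (Submodule.smul_mem _ _ (Submodule.mem_span_singleton_self v))

end Final

end Fermat.Agent.S30.H29


end
-- ==== END Fermat.Agent.S30.H29_SmallPiece

-- ==== BEGIN Fermat.Agent.S30.H2_Step0
section

/-!
# S30 wiring, WP B (helper2): Step 0, `R.Stmt_FD → Stmt_Step0`

Frobenius density + completeness: every element `g` of the Galois group satisfies a quadratic
relation `ρ(g)² - a(g) ρ(g) + ε(g) = 0`.

* `lucas_comm`, `lucas_algebra` : if `x² - a x + d = 0` then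
  `(x^j)² - V_j(a,d) x^j + d^j = 0` (`V_j` the Lucas sequence of `R/H91_Lucas.lean`).
* `step0 : Fermat.Agent.R.Stmt_FD → Stmt_Step0`.
-/

set_option autoImplicit false
set_option linter.style.haveILetI false
set_option linter.unusedSectionVars false
set_option linter.dupNamespace false

open Polynomial

namespace Fermat.Agent.S30.H2

open Fermat.Agent.S30 Fermat.Agent.R.H91

section Lucas

/-- Lucas sequences in a commutative ring. -/
theorem lucas_comm {C : Type*} [CommRing C] (x a d : C) (h : x * x - a * x + d = 0) (j : ℕ) :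
    x ^ j * x ^ j - lucasV a d j * x ^ j + d ^ j = 0 := by
  have hxy : x * (a - x) = d := by linear_combination (-1 : C) * h
  have hV : ∀ j : ℕ, x ^ j + (a - x) ^ j = lucasV a d j := by
    intro j
    induction j using Nat.strong_induction_on with
    | _ j ih =>
      match j with
      | 0 => rw [pow_zero, pow_zero, lucasV_zero]; norm_num
      | 1 => rw [pow_one, pow_one, lucasV_one]; ring
      | (j + 2) =>
        rw [lucasV_add_two, ← ih (j + 1) (by omega), ← ih j (by omega), ← hxy]
        ring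
  rw [← hV j, ← hxy, mul_pow]
  ring

/-- Lucas sequences in an algebra. -/
theorem lucas_algebra {R : Type*} [CommRing R] {A : Type*} [Ring A] [Algebra R A] (x : A)
    (a d : R) (h : x * x - a • x + d • (1 : A) = 0) (j : ℕ) :
    x ^ j * x ^ j - lucasV a d j • x ^ j + (d ^ j) • (1 : A) = 0 := by
  obtain ⟨f, hf⟩ : ∃ f : R[X], f = X * X - C a * X + C d := ⟨_, rfl⟩
  have hdvd : f ∣ X ^ j * X ^ j - C (lucasV a d j) * X ^ j + C (d ^ j) := by
    rw [← AdjoinRoot.mk_eq_zero]
    have h0 : AdjoinRoot.root f * AdjoinRoot.root f - AdjoinRoot.of f a * AdjoinRoot.root f +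
        AdjoinRoot.of f d = 0 := by
      have h00 : AdjoinRoot.mk f (X * X - C a * X + C d) = 0 := by
        rw [← hf]; exact AdjoinRoot.mk_self
      simpa [AdjoinRoot.mk_X, AdjoinRoot.mk_C] using h00
    have h1 := lucas_comm (AdjoinRoot.root f) (AdjoinRoot.of f a) (AdjoinRoot.of f d) h0 j
    rw [← map_lucasV] at h1
    simpa [AdjoinRoot.mk_X, AdjoinRoot.mk_C] using h1
  obtain ⟨Q, hQ⟩ := hdvd
  have h2 := congrArg (Polynomial.aeval x) hQ
  have hfx : Polynomial.aeval x f = 0 := by
    rw [hf]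
    simp only [map_add, map_sub, map_mul, aeval_X, aeval_C, Algebra.algebraMap_eq_smul_one,
      smul_mul_assoc, one_mul]
    exact h
  rw [map_mul, hfx, zero_mul] at h2
  simp only [map_add, map_sub, map_mul, map_pow, aeval_X, aeval_C,
    Algebra.algebraMap_eq_smul_one, smul_mul_assoc, one_mul] at h2
  rw [← h2, _root_.smul_pow, one_pow]

end Lucas

section MatMem

variable {R : Type} [CommRing R] {r : ℕ}

/-- All entries of the matrix lie in the ideal `I`. -/
def MatMem (I : Ideal R) (M : Matrix (Fin r) (Fin r) R) : Prop := ∀ i j, M i j ∈ I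

theorem MatMem.add {I : Ideal R} {M N : Matrix (Fin r) (Fin r) R} (hM : MatMem I M)
    (hN : MatMem I N) : MatMem I (M + N) := fun i j => by
  rw [Matrix.add_apply]; exact I.add_mem (hM i j) (hN i j)

theorem MatMem.sub {I : Ideal R} {M N : Matrix (Fin r) (Fin r) R} (hM : MatMem I M)
    (hN : MatMem I N) : MatMem I (M - N) := fun i j => by
  rw [Matrix.sub_apply]; exact I.sub_mem (hM i j) (hN i j)

theorem MatMem.mul_left {I : Ideal R} {M : Matrix (Fin r) (Fin r) R} (hM : MatMem I M)
    (N : Matrix (Fin r) (Fin r) R) : MatMem I (N * M) := fun i j => by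
  rw [Matrix.mul_apply]
  exact I.sum_mem (fun k _ => I.mul_mem_left _ (hM k j))

theorem MatMem.mul_right {I : Ideal R} {M : Matrix (Fin r) (Fin r) R} (hM : MatMem I M)
    (N : Matrix (Fin r) (Fin r) R) : MatMem I (M * N) := fun i j => by
  rw [Matrix.mul_apply]
  exact I.sum_mem (fun k _ => I.mul_mem_right _ (hM i k))

theorem MatMem.smul {I : Ideal R} {M : Matrix (Fin r) (Fin r) R} (hM : MatMem I M)
    (c : R) : MatMem I (c • M) := fun i j => by
  rw [Matrix.smul_apply, smul_eq_mul]; exact I.mul_mem_left _ (hM i j)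

theorem MatMem.smul_one {I : Ideal R} {c : R} (hc : c ∈ I) :
    MatMem I (c • (1 : Matrix (Fin r) (Fin r) R)) := fun i j => by
  rw [Matrix.smul_apply, smul_eq_mul]; exact I.mul_mem_right _ hc

theorem MatMem.mono {I J : Ideal R} (hIJ : I ≤ J) {M : Matrix (Fin r) (Fin r) R}
    (hM : MatMem I M) : MatMem J M := fun i j => hIJ (hM i j)

end MatMem

section Step0

variable {𝒪 : Type} [CommRing 𝒪] [IsLocalRing 𝒪] {r : ℕ}

/-- The approximate quadratic relation at level `n`. -/
theorem exists_approx (hFD : Fermat.Agent.R.Stmt_FD) (S : Finset ℕ) (a : ℕ → 𝒪)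
    (ρ : _root_.Fermat.Agent.S30.GQ →* Matrix (Fin r) (Fin r) 𝒪) (ε : _root_.Fermat.Agent.S30.GQ →* 𝒪ˣ) (hρ : MatAdicCont ρ)
    (hε : CharAdicCont ε) (hES : MatES ρ a S) (hcyc : CharCycAt ε S) (g : _root_.Fermat.Agent.S30.GQ) (n : ℕ) :
    ∃ b : 𝒪, MatMem (IsLocalRing.maximalIdeal 𝒪 ^ n)
      (ρ g * ρ g - b • ρ g + (ε g : 𝒪) • (1 : Matrix (Fin r) (Fin r) 𝒪)) := by
  obtain ⟨L₁, hL₁, h₁⟩ := hρ n
  obtain ⟨L₂, hL₂, h₂⟩ := hε n
  haveI := hL₁
  haveI := hL₂
  obtain ⟨ℓ, A, σ, j, hℓ, hℓS, hA, hσ, hσg⟩ := hFD S (L₁ ⊔ L₂) inferInstance g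
  -- `τ = g⁻¹ σ^j` fixes `L₁ ⊔ L₂`
  have hτ : ∀ x ∈ L₁ ⊔ L₂, (g⁻¹ * σ ^ j) x = x := by
    intro x hx
    rw [AlgEquiv.mul_apply, hσg x hx]
    exact (AlgEquiv.symm_apply_apply g x)
  have hτ₁ : ∀ x ∈ L₁, (g⁻¹ * σ ^ j) x = x := fun x hx => hτ x (le_sup_left (a := L₁) hx)
  have hτ₂ : ∀ x ∈ L₂, (g⁻¹ * σ ^ j) x = x := fun x hx => hτ x (le_sup_right (b := L₂) hx)
  have hσj : σ ^ j = g * (g⁻¹ * σ ^ j) := by rw [mul_inv_cancel_left]
  set I := IsLocalRing.maximalIdeal 𝒪 ^ n with hI
  -- `ρ(σ)^j ≡ ρ(g)`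
  have hρ1 : MatMem I (ρ σ ^ j - ρ g) := by
    have h3 : ρ σ ^ j - ρ g = ρ g * (ρ (g⁻¹ * σ ^ j) - 1) := by
      rw [mul_sub, mul_one, ← map_mul, ← hσj, map_pow]
    rw [h3]
    exact MatMem.mul_left (h₁ _ hτ₁) _
  -- `ε(σ)^j ≡ ε(g)`
  have hε1 : ((ℓ : 𝒪) ^ j - (ε g : 𝒪)) ∈ I := by
    have h3 : ((ℓ : 𝒪) ^ j - (ε g : 𝒪)) = (ε g : 𝒪) * (((ε (g⁻¹ * σ ^ j) : 𝒪ˣ) : 𝒪) - 1) := by
      rw [mul_sub, mul_one, ← Units.val_mul, ← map_mul, ← hσj, map_pow, Units.val_pow_eq_pow_val,
        hcyc ℓ hℓ hℓS A hA σ hσ]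
    rw [h3]
    exact Ideal.mul_mem_left _ _ (h₂ _ hτ₂)
  -- Lucas
  have hL := lucas_algebra (ρ σ) (a ℓ) (ℓ : 𝒪) (hES ℓ hℓ hℓS A hA σ hσ) j
  refine ⟨lucasV (a ℓ) (ℓ : 𝒪) j, ?_⟩
  have hdecomp : ρ g * ρ g - lucasV (a ℓ) (ℓ : 𝒪) j • ρ g +
      (ε g : 𝒪) • (1 : Matrix (Fin r) (Fin r) 𝒪) =
      (lucasV (a ℓ) (ℓ : 𝒪) j • (ρ σ ^ j - ρ g) -
        (ρ g * (ρ σ ^ j - ρ g) + (ρ σ ^ j - ρ g) * ρ σ ^ j)) -
        ((ℓ : 𝒪) ^ j - (ε g : 𝒪)) • (1 : Matrix (Fin r) (Fin r) 𝒪) := by
    have hL' : ρ σ ^ j * ρ σ ^ j = lucasV (a ℓ) (ℓ : 𝒪) j • ρ σ ^ j -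
        ((ℓ : 𝒪) ^ j) • (1 : Matrix (Fin r) (Fin r) 𝒪) := by
      rw [eq_sub_iff_add_eq, ← sub_eq_zero, ← hL]
      abel
    rw [mul_sub, sub_mul, hL', smul_sub, sub_smul]
    abel
  rw [hdecomp]
  exact ((hρ1.smul _).sub ((hρ1.mul_left _).add (hρ1.mul_right _))).sub (MatMem.smul_one hε1)

variable [IsAdicComplete (IsLocalRing.maximalIdeal 𝒪) 𝒪]

/-- **B (Step 0)**, for any complete local ring. -/
theorem quadAll_of_FD (hFD : Fermat.Agent.R.Stmt_FD) (S : Finset ℕ) (a : ℕ → 𝒪)
    (hr : 0 < r) (ρ : _root_.Fermat.Agent.S30.GQ →* Matrix (Fin r) (Fin r) 𝒪) (ε : _root_.Fermat.Agent.S30.GQ →* 𝒪ˣ) (hρ : MatAdicCont ρ)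
    (hε : CharAdicCont ε) (hES : MatES ρ a S) (hcyc : CharCycAt ε S) : QuadAll ρ ε := by
  intro g
  choose b hb using exists_approx hFD S a ρ ε hρ hε hES hcyc g
  set 𝔪 := IsLocalRing.maximalIdeal 𝒪 with h𝔪
  -- the sequence `b` is Cauchy
  have hcauchy : ∀ {m n : ℕ}, m ≤ n → b n - b m ∈ 𝔪 ^ m := by
    intro m n hmn
    have h1 : MatMem (𝔪 ^ m) ((b n - b m) • ρ g) := by
      have h2 : (b n - b m) • ρ g =
          (ρ g * ρ g - b m • ρ g + (ε g : 𝒪) • (1 : Matrix (Fin r) (Fin r) 𝒪)) -
          (ρ g * ρ g - b n • ρ g + (ε g : 𝒪) • (1 : Matrix (Fin r) (Fin r) 𝒪)) := by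
        rw [sub_smul]; abel
      rw [h2]
      exact (hb m).sub ((hb n).mono (Ideal.pow_le_pow_right hmn))
    have h3 : MatMem (𝔪 ^ m) ((b n - b m) • (1 : Matrix (Fin r) (Fin r) 𝒪)) := by
      have h4 : (b n - b m) • (1 : Matrix (Fin r) (Fin r) 𝒪) = ((b n - b m) • ρ g) * ρ g⁻¹ := by
        rw [Matrix.smul_mul, ← map_mul, mul_inv_cancel, map_one]
      rw [h4]
      exact h1.mul_right _
    have h5 := h3 ⟨0, hr⟩ ⟨0, hr⟩
    rw [Matrix.smul_apply, Matrix.one_apply_eq, smul_eq_mul, mul_one] at h5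
    exact h5
  -- the limit
  obtain ⟨c, hc⟩ := IsPrecomplete.prec (I := 𝔪) (M := 𝒪) inferInstance (f := b)
    (fun {m n} hmn => by
      rw [SModEq.sub_mem, smul_eq_mul, Ideal.mul_top]
      have := hcauchy hmn
      rw [← neg_sub]
      exact (𝔪 ^ m).neg_mem this)
  have hc' : ∀ n, b n - c ∈ 𝔪 ^ n := by
    intro n
    have := hc n
    rw [SModEq.sub_mem, smul_eq_mul, Ideal.mul_top] at this
    exact this
  refine ⟨c, ?_⟩
  -- all entries of the relation lie in `⋂ 𝔪 ^ n = 0`
  have hall : ∀ n, MatMem (𝔪 ^ n)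
      (ρ g * ρ g - c • ρ g + (ε g : 𝒪) • (1 : Matrix (Fin r) (Fin r) 𝒪)) := by
    intro n
    have h2 : ρ g * ρ g - c • ρ g + (ε g : 𝒪) • (1 : Matrix (Fin r) (Fin r) 𝒪) =
        (ρ g * ρ g - b n • ρ g + (ε g : 𝒪) • (1 : Matrix (Fin r) (Fin r) 𝒪)) +
          ((b n - c) • (1 : Matrix (Fin r) (Fin r) 𝒪)) * ρ g := by
      rw [Matrix.smul_mul, one_mul, sub_smul]; abel
    rw [h2]
    exact (hb n).add ((MatMem.smul_one (hc' n)).mul_right _)
  ext i j
  rw [Matrix.zero_apply]
  apply IsHausdorff.haus (I := 𝔪) (M := 𝒪) inferInstance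
  intro n
  rw [SModEq.sub_mem, sub_zero, smul_eq_mul, Ideal.mul_top]
  exact hall n i j

end Step0

/-- **B (Step 0).** -/
theorem step0 (hFD : Fermat.Agent.R.Stmt_FD) : Stmt_Step0 := by
  intro 𝒪 _ _ _ _ S a r hr ρ ε hρ hε hES hcyc
  exact quadAll_of_FD hFD S a hr ρ ε hρ hε hES hcyc

end Fermat.Agent.S30.H2

end
-- ==== END Fermat.Agent.S30.H2_Step0

-- ==== BEGIN Fermat.Agent.S30.H56_Lattice
section

/-!
# S30 work package E (Lattice) -- helper56

`stmt_lattice : Stmt_Lattice`: over a principal ideal domain `R` with fraction field `K`, the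
lattice `W ∩ R^r` of a subspace `W ⊆ K^r` is a direct summand of `R^r`, free of rank
`finrank K W`; `P` = matrix of a basis, `Q` = matrix of a retraction.

Reusable pieces: `lat R W` (the lattice), `mem_lat`, `finrank_lat`, `exists_retraction`,
`exists_smul_mem_lat`.
-/

set_option autoImplicit false
set_option linter.unusedSectionVars false
set_option linter.style.haveILetI false

namespace Fermat.Agent.S30.H56

open Module

section
variable (R : Type) [CommRing R] [IsDomain R] [IsPrincipalIdealRing R]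
  (K : Type) [Field K] [Algebra R K] [IsFractionRing R K] (r : ℕ)

/-- coordinatewise `algebraMap`, as an `R`-linear map `R^r → K^r` -/
noncomputable def coord : (Fin r → R) →ₗ[R] (Fin r → K) :=
  (Algebra.linearMap R K).compLeft (Fin r)

lemma coord_apply (v : Fin r → R) : coord R K r v = fun i => algebraMap R K (v i) := rfl

lemma coord_injective : Function.Injective (coord R K r) := by
  intro v w h
  funext i
  exact IsFractionRing.injective R K (congrFun h i)

variable {K r}

/-- `R^r → K^r / W` -/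
noncomputable def qmap (W : Submodule K (Fin r → K)) :
    (Fin r → R) →ₗ[R] ((Fin r → K) ⧸ W) :=
  (W.mkQ.restrictScalars R) ∘ₗ coord R K r

lemma qmap_eq_zero_iff (W : Submodule K (Fin r → K)) (v : Fin r → R) :
    qmap R W v = 0 ↔ coord R K r v ∈ W := by
  simp [qmap]

/-- The lattice `W ∩ R^r`. -/
noncomputable def lat (W : Submodule K (Fin r → K)) : Submodule R (Fin r → R) :=
  LinearMap.ker (qmap R W)

lemma mem_lat (W : Submodule K (Fin r → K)) (v : Fin r → R) :
    v ∈ lat R W ↔ coord R K r v ∈ W := by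
  rw [lat, LinearMap.mem_ker, qmap_eq_zero_iff]

instance torsionFree_quot (W : Submodule K (Fin r → K)) :
    Module.IsTorsionFree R ((Fin r → K) ⧸ W) :=
  Module.IsTorsionFree.trans K

/-- the lattice, mapped into `W` -/
noncomputable def latToW (W : Submodule K (Fin r → K)) : lat R W →ₗ[R] W :=
  ((coord R K r) ∘ₗ (lat R W).subtype).codRestrict (W.restrictScalars R)
    (fun v => (mem_lat R W v).1 v.2)

lemma latToW_coe (W : Submodule K (Fin r → K)) (v : lat R W) :
    ((latToW R W v : W) : Fin r → K) = coord R K r v := rfl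

lemma latToW_injective (W : Submodule K (Fin r → K)) : Function.Injective (latToW R W) := by
  intro v w h
  apply Subtype.ext
  apply coord_injective R K r
  have := congrArg (fun x : W => (x : Fin r → K)) h
  simpa [latToW_coe] using this

/-- every element of `W` has a nonzero multiple in the lattice -/
lemma exists_smul_mem_lat (W : Submodule K (Fin r → K)) (w : W) :
    ∃ (c : R) (u : lat R W), c ≠ 0 ∧ latToW R W u = algebraMap R K c • w := by
  obtain ⟨b, hb⟩ := IsLocalization.exist_integer_multiples_of_finite (nonZeroDivisors R)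
    (fun i => (w : Fin r → K) i)
  choose u hu using hb
  have hmem : u ∈ lat R W := by
    rw [mem_lat]
    have : coord R K r u = algebraMap R K (b : R) • (w : Fin r → K) := by
      funext i
      rw [coord_apply]
      simp only [Pi.smul_apply, smul_eq_mul]
      rw [hu i, Algebra.smul_def]
    rw [this]
    exact W.smul_mem _ w.2
  refine ⟨b, ⟨u, hmem⟩, nonZeroDivisors.ne_zero b.2, ?_⟩
  apply Subtype.ext
  funext i
  rw [latToW_coe, coord_apply]
  simp only [Submodule.coe_smul, Pi.smul_apply, smul_eq_mul]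
  rw [hu i, Algebra.smul_def]

instance free_lat (W : Submodule K (Fin r → K)) : Module.Free R (lat R W) := inferInstance
instance finite_lat (W : Submodule K (Fin r → K)) : Module.Finite R (lat R W) := inferInstance

lemma finrank_lat (W : Submodule K (Fin r → K)) :
    Module.finrank R (lat R W) = Module.finrank K W := by
  set b := Module.finBasis R (lat R W) with hb
  set v : Fin (Module.finrank R (lat R W)) → W := fun j => latToW R W (b j) with hv
  have hli : LinearIndependent K v := by
    rw [← LinearIndependent.iff_fractionRing R K]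
    exact b.linearIndependent.map' (latToW R W) (LinearMap.ker_eq_bot.2 (latToW_injective R W))
  have hsp : ⊤ ≤ Submodule.span K (Set.range v) := by
    rintro w -
    obtain ⟨c, u, hc, hu⟩ := exists_smul_mem_lat R W w
    have hcK : algebraMap R K c ≠ 0 := by
      rwa [Ne, map_eq_zero_iff _ (IsFractionRing.injective R K)]
    have hu' : latToW R W u ∈ Submodule.span K (Set.range v) := by
      have : u = ∑ j, b.repr u j • b j := (b.sum_repr u).symm
      rw [this, map_sum]
      refine Submodule.sum_mem _ (fun j _ => ?_)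
      rw [map_smul, ← algebraMap_smul K (b.repr u j)]
      exact Submodule.smul_mem _ _ (Submodule.subset_span ⟨j, rfl⟩)
    have : w = (algebraMap R K c)⁻¹ • latToW R W u := by
      rw [hu, smul_smul, inv_mul_cancel₀ hcK, one_smul]
    rw [this]
    exact Submodule.smul_mem _ _ hu'
  have := Module.finrank_eq_card_basis (Basis.mk hli hsp)
  simpa using this.symm

/-- A retraction of `R^r` onto the lattice. -/
lemma exists_retraction (W : Submodule K (Fin r → K)) :
    ∃ π : (Fin r → R) →ₗ[R] lat R W, ∀ v : lat R W, π v = v := by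
  -- the range of `qmap` is finitely generated and torsion-free, hence free, hence projective
  set g : (Fin r → R) →ₗ[R] LinearMap.range (qmap R W) := (qmap R W).rangeRestrict with hg
  have hsurj : Function.Surjective g := LinearMap.surjective_rangeRestrict _
  haveI : Module.Finite R (LinearMap.range (qmap R W)) := Module.Finite.range _
  haveI : Module.Free R (LinearMap.range (qmap R W)) := Module.free_of_finite_type_torsion_free'
  obtain ⟨s, hs⟩ := Module.projective_lifting_property g LinearMap.id hsurj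
  have hker : ∀ v, g v = 0 ↔ v ∈ lat R W := by
    intro v
    rw [lat, LinearMap.mem_ker, hg]
    constructor
    · intro h
      have := congrArg Subtype.val h
      simpa using this
    · intro h
      apply Subtype.ext
      simpa using h
  have hmem : ∀ v, v - s (g v) ∈ lat R W := by
    intro v
    rw [← hker, map_sub]
    have : g (s (g v)) = g v := by
      have := LinearMap.congr_fun hs (g v)
      simpa using this
    rw [this, sub_self]
  refine ⟨(LinearMap.id - s ∘ₗ g).codRestrict (lat R W) (fun v => by simpa using hmem v), ?_⟩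
  intro v
  apply Subtype.ext
  have hv : g (v : Fin r → R) = 0 := (hker _).2 v.2
  simp [hv]

end

/-- **WP E (Lattice)**: the exact interface `Stmt_Lattice`. -/
theorem stmt_lattice : Stmt_Lattice := by
  intro R _ _ _ K _ _ _ r W
  obtain ⟨π, hπ⟩ := exists_retraction R W
  -- a basis of the lattice indexed by `Fin (finrank K W)`
  let b : Basis (Fin (Module.finrank K W)) R (lat R W) :=
    (Module.finBasis R (lat R W)).reindex (finCongr (finrank_lat R W))
  let Pm : (Fin (Module.finrank K W) → R) →ₗ[R] (Fin r → R) :=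
    (lat R W).subtype ∘ₗ (b.equivFun.symm : (Fin (Module.finrank K W) → R) →ₗ[R] lat R W)
  let Qm : (Fin r → R) →ₗ[R] (Fin (Module.finrank K W) → R) :=
    (b.equivFun : lat R W →ₗ[R] (Fin (Module.finrank K W) → R)) ∘ₗ π
  have hQP : Qm ∘ₗ Pm = LinearMap.id := by
    apply LinearMap.ext
    intro x
    simp only [Pm, Qm, LinearMap.comp_apply, LinearMap.id_apply, Submodule.subtype_apply,
      LinearEquiv.coe_coe]
    rw [hπ, LinearEquiv.apply_symm_apply]
  refine ⟨LinearMap.toMatrix' Pm, LinearMap.toMatrix' Qm, ?_, ?_, ?_⟩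
  · rw [← LinearMap.toMatrix'_comp, hQP, LinearMap.toMatrix'_id]
  · intro j
    have h1 : (fun i => LinearMap.toMatrix' Pm i j) = Pm (Pi.single j 1) := by
      funext i
      rw [LinearMap.toMatrix'_apply]
    have h2 : Pm (Pi.single j 1) ∈ lat R W := by
      simp only [Pm, LinearMap.comp_apply, Submodule.subtype_apply]
      exact Submodule.coe_mem _
    have := (mem_lat R W _).1 h2
    rw [coord_apply] at this
    have h3 : (fun i => algebraMap R K (LinearMap.toMatrix' Pm i j))
        = fun i => algebraMap R K (Pm (Pi.single j 1) i) := by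
      funext i
      rw [congrFun h1 i]
    rw [h3]
    exact this
  · intro v hv
    have hvL : v ∈ lat R W := (mem_lat R W v).2 hv
    rw [LinearMap.toMatrix'_mulVec, LinearMap.toMatrix'_mulVec]
    simp only [Pm, Qm, LinearMap.comp_apply, Submodule.subtype_apply, LinearEquiv.coe_coe]
    rw [LinearEquiv.symm_apply_apply]
    have := hπ ⟨v, hvL⟩
    exact congrArg Subtype.val this

end Fermat.Agent.S30.H56

end
-- ==== END Fermat.Agent.S30.H56_Lattice

-- ==== BEGIN Fermat.Agent.S31.Wiring
section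

/-!
# S31 wiring (helper86, cluster R)

`Fermat.Agent.S31.wiring`: the frozen statement S31 (a Hecke–Galois datum is unramified outside
`S`) from

* `Stmt_S30`    : the frozen statement S30 (cluster R/G),
* `Stmt_FD`     : Frobenius density, division form (item 61),
* `Stmt_SepAll` : `p`-adic separation of the anemic Hecke algebras (leaf L3c).

No Carayol isomorphism is used: `ρ τ = 1` is detected by traces (Burnside–Nakayama, `H86_BN`),
and the trace identity `tr ρ (τ h) = tr ρ h` is transferred from the `p`-adic points of the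
Hecke algebra (`R/Transfer.lean`).  The coefficient ring `𝒪` may have characteristic `p` and
`T` may be non-reduced.
-/

set_option autoImplicit false

open Polynomial IsLocalRing

namespace Fermat.Agent.R

/-- `p`-adic separation for all anemic Hecke algebras of residue characteristic `p`. -/
def Stmt_SepAll : Prop :=
  ∀ (N : ℕ) [NeZero N] (S : Finset ℕ) (p : ℕ), p.Prime → p ∈ S →
    (∀ q : ℕ, q.Prime → q ∣ N → q ∈ S) → Stmt_Sep N S p

/-- The datum of a `HeckeGaloisRepDatum` gives `HasFrobCharpoly`. -/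
lemma hasFrobCharpoly_datum {N : ℕ} [NeZero N] {S : Finset ℕ}
    {𝒪 : Type} [CommRing 𝒪] [IsDomain 𝒪] [IsDiscreteValuationRing 𝒪]
    [IsAdicComplete (IsLocalRing.maximalIdeal 𝒪) 𝒪]
    {θ : CuspForm.heckeAlgebra N 2 (↑S : Set ℕ) →+* IsLocalRing.ResidueField 𝒪}
    {T : Type} [CommRing T] [IsLocalRing T] [IsNoetherianRing T]
    [IsAdicComplete (IsLocalRing.maximalIdeal T) T] [Algebra 𝒪 T] [IsLocalHom (algebraMap 𝒪 T)]
    [Module.Finite 𝒪 T] [Module.Free 𝒪 T]
    (H : CuspForm.HeckeGaloisRepDatum N (↑S : Set ℕ) 𝒪 θ T) : HasFrobCharpoly H.π H.ρ :=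
  fun ℓ hℓ hℓN hℓS B hB σ hσ => H.charpoly_frob ℓ hℓ hℓN hℓS B hB σ hσ

/-- `p` lies in the maximal ideal of `T`. -/
lemma natCast_mem_maximalIdeal_of_algebra {p : ℕ}
    {𝒪 : Type} [CommRing 𝒪] [IsLocalRing 𝒪]
    {T : Type} [CommRing T] [IsLocalRing T] [Algebra 𝒪 T] [IsLocalHom (algebraMap 𝒪 T)]
    (hp𝒪 : (p : 𝒪) ∈ maximalIdeal 𝒪) : (p : T) ∈ maximalIdeal T := by
  rw [mem_maximalIdeal, mem_nonunits_iff] at hp𝒪 ⊢
  intro hu
  apply hp𝒪
  have : (p : T) = algebraMap 𝒪 T (p : 𝒪) := by rw [map_natCast]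
  rw [this] at hu
  exact isUnit_of_map_unit (algebraMap 𝒪 T) _ hu

end Fermat.Agent.R

namespace Fermat.Agent.S31

open Fermat.Agent.R

variable {p : ℕ} {N : ℕ} [NeZero N] {S : Finset ℕ}
  {𝒪 : Type} [CommRing 𝒪] [IsDomain 𝒪] [IsDiscreteValuationRing 𝒪]
  [IsAdicComplete (IsLocalRing.maximalIdeal 𝒪) 𝒪]
  {θ : CuspForm.heckeAlgebra N 2 (↑S : Set ℕ) →+* IsLocalRing.ResidueField 𝒪}
  {T : Type} [CommRing T] [IsLocalRing T] [IsNoetherianRing T]
  [IsAdicComplete (IsLocalRing.maximalIdeal T) T] [Algebra 𝒪 T] [IsLocalHom (algebraMap 𝒪 T)]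
  [Module.Finite 𝒪 T] [Module.Free 𝒪 T]

/-- S31 from S30, Frobenius density and separation of the Hecke algebra. -/
theorem wiring (hS30 : Stmt_S30) (hFD : Stmt_FD) (hSep : Stmt_SepAll) (hp : p.Prime)
    (hp𝒪 : (p : 𝒪) ∈ IsLocalRing.maximalIdeal 𝒪) (hpS : p ∈ S)
    (hNS : ∀ q : ℕ, q.Prime → q ∣ N → q ∈ S)
    (H : CuspForm.HeckeGaloisRepDatum N (↑S : Set ℕ) 𝒪 θ T)
    (q : ℕ) (hq : q.Prime) (hqS : q ∉ S) :
    H.ρ.IsUnramifiedAt q := by
  intro P hP τ hτ
  have hqN : ¬ q ∣ N := fun hd => hqS (hNS q hq hd)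
  have hqp : q ≠ p := fun h => hqS (h ▸ hpS)
  have : Fact p.Prime := ⟨hp⟩
  apply H86.eq_one_of_forall_trace_mul H.ρ H.residual_absIrr τ
  intro g
  have hcp : (H.ρ.ρ (τ * g)).charpoly = (H.ρ.ρ g).charpoly := by
    refine transfer_charpoly hp.ne_zero hFD (hSep N S p hp hpS hNS) hNS
      (natCast_mem_maximalIdeal_of_algebra hp𝒪) H.π H.ρ (hasFrobCharpoly_datum H) (τ * g) g ?_
    intro P'
    obtain ⟨𝒪'', i1, i2, i3, i4, i5, i6, i7, i8, i9, hinj, ρ', hcp', hunr⟩ :=
      hS30 p N S hpS hNS P'.R P'.hp P'.χ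
    refine ⟨𝒪'', i1, i2, i3, i6, algebraMap P'.R 𝒪'', hinj, i9, ρ', ?_, ?_⟩
    · intro ℓ hℓ hℓN hℓS B hB σ hσ
      exact hcp' ℓ hℓ hℓN hℓS B hB σ hσ
    · have h1 : ρ'.ρ τ = 1 := hunr q hq hqN hqp P hP τ hτ
      rw [map_mul, h1, one_mul]
  exact (trace_det_eq_of_charpoly_eq H.ρ.finrank_eq H.ρ.finrank_eq _ _ hcp).1

end Fermat.Agent.S31

end
-- ==== END Fermat.Agent.S31.Wiring
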