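-- GENERATED (merged mirror, NOTES/tools/trim/merge3_helper67.py): 10 modules of the originals, bodies verbatim.
import Mathlib.LinearAlgebra.Charpoly.ToMatrix
import Fermat.Agent.Zm.S35_L03_004
import Fermat.Agent.Zm.S35_L01_004
import Fermat.Agent.Zm.S35_L03_005
import Fermat.Agent.S23.H22_Setup
import Fermat.Agent.S23.H83_Hermite
import Fermat.Agent.S23.H83_QExp
import Fermat.Agent.S23.H96_LevelOne
import Fermat.Agent.S28.H30_UL
import Fermat.Agent.Zm.S35_L03_002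

-- ==== BEGIN Fermat.Agent.S24.Closure.Atil
section

/-!
# S24 construction, layer 1b (WP CLO-Atil): the ring `Atil N` with its `SL(2, ℤ)`-action

Every `sorry` in this file belongs to WP CLO-Atil (fill in place, keep all signatures).
-/

set_option autoImplicit false

noncomputable section

namespace Fermat.Agent.S24

open ModularCurve UpperHalfPlane
open scoped MatrixGroups Manifold

/-! ## 3. The ring `Atil N` -/

/-- The generators: `j ∘ A`, `A` an integer matrix with `0 < det A ∣ N`. -/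
def genJ (N : ℕ) : Set Hol :=
  {f | ∃ A : Matrix (Fin 2) (Fin 2) ℤ, 0 < A.det ∧ A.det ∣ (N : ℤ) ∧ f = JA A}

/-- The `K`-algebra generated by the `j ∘ A`. -/
def Atil (N : ℕ) : Subalgebra Kbar Hol := Algebra.adjoin Kbar (genJ N)

theorem JA_mem_Atil (N : ℕ) (A : Matrix (Fin 2) (Fin 2) ℤ) (hA : 0 < A.det)
    (hN : A.det ∣ (N : ℤ)) : JA A ∈ Atil N :=
  Algebra.subset_adjoin ⟨A, hA, hN, rfl⟩

theorem smul_mem_Atil (N : ℕ) (γ : SL(2, ℤ)) {f : Hol} (hf : f ∈ Atil N) : γ • f ∈ Atil N := by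
  unfold Atil at hf ⊢
  induction hf using Algebra.adjoin_induction with
  | mem x hx =>
    obtain ⟨A, hA, hN, rfl⟩ := hx
    rw [smul_JA γ A hA]
    refine Algebra.subset_adjoin ⟨_, ?_, ?_, rfl⟩
    · rw [Matrix.det_mul, (γ⁻¹ : SL(2, ℤ)).2, mul_one]; exact hA
    · rw [Matrix.det_mul, (γ⁻¹ : SL(2, ℤ)).2, mul_one]; exact hN
  | algebraMap c =>
    have h : γ • (algebraMap Kbar Hol c) = algebraMap Kbar Hol c :=
      Subtype.ext (funext fun _ => rfl)
    rw [h]
    exact Subalgebra.algebraMap_mem _ c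
  | add x y _ _ hx hy =>
    rw [smul_add]
    exact Subalgebra.add_mem _ hx hy
  | mul x y _ _ hx hy =>
    rw [smul_mul']
    exact Subalgebra.mul_mem _ hx hy

/-- `SL(2, ℤ)` acts on `Atil N` (direct `SMul` instance, found first by instance search). -/
instance (priority := high) smulAtil (N : ℕ) : SMul SL(2, ℤ) (Atil N) :=
  ⟨fun γ f => ⟨γ • (f : Hol), smul_mem_Atil N γ f.2⟩⟩

/-- `SL(2, ℤ)` acts on `Atil N`. -/
instance mulSemiringActionAtil (N : ℕ) : MulSemiringAction SL(2, ℤ) (Atil N) where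
  toSMul := smulAtil N
  one_smul _ := Subtype.ext (one_smul _ _)
  mul_smul _ _ _ := Subtype.ext (mul_smul _ _ _)
  smul_zero _ := Subtype.ext (smul_zero _)
  smul_add _ _ _ := Subtype.ext (smul_add _ _ _)
  smul_one _ := Subtype.ext (smul_one _)
  smul_mul _ _ _ := Subtype.ext (smul_mul' _ _ _)

@[simp] theorem coe_smul_Atil (N : ℕ) (γ : SL(2, ℤ)) (f : Atil N) :
    ((γ • f : Atil N) : Hol) = γ • (f : Hol) := rfl

instance smulCommClass_SL_Kbar_Atil (N : ℕ) : SMulCommClass SL(2, ℤ) Kbar (Atil N) :=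
  ⟨fun γ c f => Subtype.ext (smul_comm γ c (f : Hol))⟩

instance isDomain_Atil (N : ℕ) : IsDomain (Atil N) := inferInstance

/-- `j` as an element of `Atil N`. -/
def jA (N : ℕ) : Atil N := ⟨JA 1, JA_mem_Atil N 1 (by simp) (by simp)⟩

theorem jA_apply (N : ℕ) (τ : ℍ) : ((jA N : Atil N) : ℍ → ℂ) τ = jAn τ := JA_one_apply τ

/-- `j (d τ)` as an element of `Atil N`, for `d ∣ N` (junk `JA` value otherwise). -/
def jdA (N : ℕ) (d : ℕ) : Atil N :=
  if h : 0 < d ∧ d ∣ N then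
    ⟨JA !![(d : ℤ), 0; 0, 1], JA_mem_Atil N _ (by simpa [Matrix.det_fin_two] using h.1)
      (by simpa [Matrix.det_fin_two] using Int.natCast_dvd_natCast.mpr h.2)⟩
  else 0

theorem jdA_coe (N : ℕ) (d : ℕ) (hd : 0 < d) (hdN : d ∣ N) :
    ((jdA N d : Atil N) : Hol) = JA !![(d : ℤ), 0; 0, 1] := by
  rw [jdA, dif_pos ⟨hd, hdN⟩]

theorem jdA_one (N : ℕ) : jdA N 1 = jA N := by
  apply Subtype.ext
  rw [jdA_coe N 1 one_pos (one_dvd N)]
  show JA !![((1 : ℕ) : ℤ), 0; 0, 1] = JA 1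
  congr 1
  rw [Nat.cast_one, Matrix.one_fin_two]

/-- `SL(2, ℤ)` fixes `j`. -/
theorem smul_jA (N : ℕ) (γ : SL(2, ℤ)) : γ • jA N = jA N := by
  apply Subtype.ext
  show γ • JA 1 = JA 1
  have h1 : 0 < (1 : Matrix (Fin 2) (Fin 2) ℤ).det := by rw [Matrix.det_one]; exact one_pos
  rw [smul_JA γ 1 h1, one_mul]
  have := JA_mul_left γ⁻¹ 1 h1
  rwa [mul_one] at this

/-- If `A γ⁻¹ = γ' A` with `γ' ∈ SL(2, ℤ)` then `γ` fixes `j ∘ A`. -/
theorem smul_JA_eq_of_mul_eq (γ γ' : SL(2, ℤ)) (A : Matrix (Fin 2) (Fin 2) ℤ) (hA : 0 < A.det)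
    (h : A * (γ⁻¹ : SL(2, ℤ)).1 = γ'.1 * A) : γ • JA A = JA A := by
  rw [smul_JA γ A hA, h, JA_mul_left γ' A hA]

/-- Conjugating an element of `Γ₀(N)` by `diag(d, 1)`, `d ∣ N`. -/
theorem exists_diag_mul_eq (d : ℤ) (δ : SL(2, ℤ)) (c : ℤ) (hc : δ.1 1 0 = d * c) :
    ∃ γ' : SL(2, ℤ), (!![d, 0; 0, 1] : Matrix (Fin 2) (Fin 2) ℤ) * δ.1
      = γ'.1 * !![d, 0; 0, 1] := by
  have hdet : δ.1 0 0 * δ.1 1 1 - δ.1 0 1 * δ.1 1 0 = 1 := by
    have := δ.2
    rwa [Matrix.det_fin_two] at this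
  have key : ∀ x y w : ℤ, (!![d, 0; 0, 1] : Matrix (Fin 2) (Fin 2) ℤ) * !![x, y; d * c, w]
      = !![x, d * y; c, w] * !![d, 0; 0, 1] := by
    intro x y w
    ext i j
    fin_cases i <;> fin_cases j <;> simp [Matrix.mul_apply, Fin.sum_univ_two] <;> ring
  have e : δ.1 = !![δ.1 0 0, δ.1 0 1; d * c, δ.1 1 1] := by
    conv_lhs => rw [Matrix.eta_fin_two δ.1, hc]
  refine ⟨⟨!![δ.1 0 0, d * δ.1 0 1; c, δ.1 1 1], ?_⟩, ?_⟩
  · rw [Matrix.det_fin_two_of]
    rw [hc] at hdet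
    linear_combination hdet
  · show (!![d, 0; 0, 1] : Matrix (Fin 2) (Fin 2) ℤ) * δ.1
      = !![δ.1 0 0, d * δ.1 0 1; c, δ.1 1 1] * !![d, 0; 0, 1]
    conv_lhs => rw [e]
    exact key _ _ _

/-- Conjugating an element congruent to `1` modulo `det A` by `A`. -/
theorem exists_mul_eq_of_congr (a b c d m00 m01 m10 m11 : ℤ) :
    (!![a, b; c, d] : Matrix (Fin 2) (Fin 2) ℤ)
        * !![1 + (a * d - b * c) * m00, (a * d - b * c) * m01;
            (a * d - b * c) * m10, 1 + (a * d - b * c) * m11]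
      = !![1 + ((a * m00 + b * m10) * d - (a * m01 + b * m11) * c),
            -(a * m00 + b * m10) * b + (a * m01 + b * m11) * a;
            (c * m00 + d * m10) * d - (c * m01 + d * m11) * c,
            1 + (-(c * m00 + d * m10) * b + (c * m01 + d * m11) * a)]
        * !![a, b; c, d] := by
  ext i j
  fin_cases i <;> fin_cases j <;> simp [Matrix.mul_apply, Fin.sum_univ_two] <;> ring

/-- `Γ₀(N)` fixes `j (d τ)` for `d ∣ N`. -/
theorem smul_jdA_of_mem_Gamma0 (N : ℕ) (d : ℕ) (hd : 0 < d) (hdN : d ∣ N) (γ : SL(2, ℤ))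
    (hγ : γ ∈ CongruenceSubgroup.Gamma0 N) : γ • jdA N d = jdA N d := by
  apply Subtype.ext
  rw [coe_smul_Atil, jdA_coe N d hd hdN]
  have hdet : 0 < (!![(d : ℤ), 0; 0, 1] : Matrix (Fin 2) (Fin 2) ℤ).det := by
    simpa [Matrix.det_fin_two] using hd
  have hγ' : γ⁻¹ ∈ CongruenceSubgroup.Gamma0 N := inv_mem hγ
  rw [CongruenceSubgroup.Gamma0_mem] at hγ'
  have hN : (N : ℤ) ∣ (γ⁻¹ : SL(2, ℤ)).1 1 0 := (ZMod.intCast_zmod_eq_zero_iff_dvd _ N).mp hγ'
  obtain ⟨c, hc⟩ : (d : ℤ) ∣ (γ⁻¹ : SL(2, ℤ)).1 1 0 :=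
    dvd_trans (Int.natCast_dvd_natCast.mpr hdN) hN
  obtain ⟨γ', hγ'⟩ := exists_diag_mul_eq (d : ℤ) γ⁻¹ c hc
  exact smul_JA_eq_of_mul_eq γ γ' _ hdet hγ'

/-- `Γ(N)` acts trivially on `Atil N`
(for `γ ∈ Γ(N)` and `det A ∣ N`: `A γ⁻¹ = γ' A` with `γ' ∈ SL(2, ℤ)`). -/
theorem smul_eq_of_mem_Gamma (N : ℕ) [NeZero N] (γ : SL(2, ℤ))
    (hγ : γ ∈ CongruenceSubgroup.Gamma N) (f : Atil N) : γ • f = f := by
  have key : ∀ (A : Matrix (Fin 2) (Fin 2) ℤ), 0 < A.det → A.det ∣ (N : ℤ) →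
      γ • JA A = JA A := by
    intro A hA hN
    have hγ' : γ⁻¹ ∈ CongruenceSubgroup.Gamma N := inv_mem hγ
    rw [CongruenceSubgroup.Gamma_mem] at hγ'
    obtain ⟨h00, h01, h10, h11⟩ := hγ'
    have hdvd : ∀ x : ℤ, ((x : ZMod N) = 0) → A.det ∣ x := fun x hx =>
      dvd_trans hN ((ZMod.intCast_zmod_eq_zero_iff_dvd _ N).mp hx)
    obtain ⟨m00, hm00⟩ : A.det ∣ (γ⁻¹ : SL(2, ℤ)).1 0 0 - 1 :=
      hdvd _ (by push_cast; rw [h00]; ring)
    obtain ⟨m01, hm01⟩ : A.det ∣ (γ⁻¹ : SL(2, ℤ)).1 0 1 := hdvd _ h01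
    obtain ⟨m10, hm10⟩ : A.det ∣ (γ⁻¹ : SL(2, ℤ)).1 1 0 := hdvd _ h10
    obtain ⟨m11, hm11⟩ : A.det ∣ (γ⁻¹ : SL(2, ℤ)).1 1 1 - 1 :=
      hdvd _ (by push_cast; rw [h11]; ring)
    have hdetA : A.det = A 0 0 * A 1 1 - A 0 1 * A 1 0 := Matrix.det_fin_two A
    have hA0 : A.det ≠ 0 := hA.ne'
    have eg : (γ⁻¹ : SL(2, ℤ)).1 = !![1 + (A 0 0 * A 1 1 - A 0 1 * A 1 0) * m00,
        (A 0 0 * A 1 1 - A 0 1 * A 1 0) * m01;
        (A 0 0 * A 1 1 - A 0 1 * A 1 0) * m10,
        1 + (A 0 0 * A 1 1 - A 0 1 * A 1 0) * m11] := by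
      rw [← hdetA]
      ext i j
      fin_cases i <;> fin_cases j
      · show (γ⁻¹ : SL(2, ℤ)).1 0 0 = 1 + A.det * m00
        linear_combination hm00
      · show (γ⁻¹ : SL(2, ℤ)).1 0 1 = A.det * m01
        exact hm01
      · show (γ⁻¹ : SL(2, ℤ)).1 1 0 = A.det * m10
        exact hm10
      · show (γ⁻¹ : SL(2, ℤ)).1 1 1 = 1 + A.det * m11
        linear_combination hm11
    have hmul := exists_mul_eq_of_congr (A 0 0) (A 0 1) (A 1 0) (A 1 1) m00 m01 m10 m11
    rw [← eg, ← Matrix.eta_fin_two A] at hmul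
    have hdet' : (!![1 + ((A 0 0 * m00 + A 0 1 * m10) * A 1 1
          - (A 0 0 * m01 + A 0 1 * m11) * A 1 0),
        -(A 0 0 * m00 + A 0 1 * m10) * A 0 1 + (A 0 0 * m01 + A 0 1 * m11) * A 0 0;
        (A 1 0 * m00 + A 1 1 * m10) * A 1 1 - (A 1 0 * m01 + A 1 1 * m11) * A 1 0,
        1 + (-(A 1 0 * m00 + A 1 1 * m10) * A 0 1 + (A 1 0 * m01 + A 1 1 * m11) * A 0 0)] :
          Matrix (Fin 2) (Fin 2) ℤ).det = 1 := by
      have h1 := congrArg Matrix.det hmul
      rw [Matrix.det_mul, Matrix.det_mul, (γ⁻¹ : SL(2, ℤ)).2, mul_one] at h1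
      exact (mul_right_cancel₀ hA0 (by rw [one_mul]; exact h1)).symm
    exact smul_JA_eq_of_mul_eq γ ⟨_, hdet'⟩ A hA hmul
  apply Subtype.ext
  rw [coe_smul_Atil]
  obtain ⟨f, hf⟩ := f
  show γ • f = f
  unfold Atil at hf
  induction hf using Algebra.adjoin_induction with
  | mem x hx =>
    obtain ⟨A, hA, hN, rfl⟩ := hx
    exact key A hA hN
  | algebraMap c => exact Subtype.ext (funext fun _ => rfl)
  | add x y _ _ hx hy => rw [smul_add, hx, hy]
  | mul x y _ _ hx hy => rw [smul_mul', hx, hy]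

/-- `j` is transcendental over `K` (use `jAn_surjective`). -/
theorem jA_transcendental (N : ℕ) : Transcendental Kbar (jA N) := by
  intro halg
  obtain ⟨P, hP0, hP⟩ := halg
  -- evaluate at every `τ`
  have h2 : ∀ (Q : Polynomial Kbar) (τ : ℍ),
      ((Polynomial.aeval (jA N) Q : Atil N) : ℍ → ℂ) τ = (Q.map iotaC).eval (jAn τ) := by
    intro Q τ
    induction Q using Polynomial.induction_on' with
    | add p q hp hq =>
      rw [map_add, Polynomial.map_add, Polynomial.eval_add, ← hp, ← hq]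
      rfl
    | monomial n a =>
      rw [Polynomial.aeval_monomial, Polynomial.map_monomial, Polynomial.eval_monomial]
      show iotaC a * ((jA N : Atil N) : ℍ → ℂ) τ ^ n = _
      rw [jA_apply]
  have hroot : ∀ τ : ℍ, (P.map iotaC).eval (jAn τ) = 0 := by
    intro τ
    rw [← h2, hP]
    rfl
  have hPne : P.map iotaC ≠ 0 := by
    rwa [Ne, Polynomial.map_eq_zero_iff iotaC_injective]
  have hfin : ((P.map iotaC).rootSet ℂ).Finite := Polynomial.rootSet_finite _ ℂ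
  have hall : (Set.univ : Set ℂ) ⊆ (P.map iotaC).rootSet ℂ := by
    intro a _
    obtain ⟨τ, rfl⟩ := jAn_surjective a
    rw [Polynomial.mem_rootSet]
    exact ⟨hPne, by simpa using hroot τ⟩
  exact Set.infinite_univ (hfin.subset hall)

end Fermat.Agent.S24

end
end
-- ==== END Fermat.Agent.S24.Closure.Atil

-- ==== BEGIN Fermat.Agent.S24.H72_FF1d
section

/-!
# S24, piece FF1d (helper72 + helper59): principal divisors have degree zero.

Glue of `ff_zeros` (FF1b, `H72_FF1b.lean`) with helper59's `ff_degree_principal_of`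
(`H59_FF1d.lean`).
-/

set_option autoImplicit false

noncomputable section

open AlgebraicCurve IntermediateField

namespace Fermat.Agent.S24

variable {K F : Type*} [Field K] [Field F] [Algebra K F] [IsAlgClosed K] [CharZero K]

/-- FF1b for all transcendental elements, in the packaged form used by helper59. -/
theorem h72_zerosStmt : H59.ZerosStmt K F := fun x hx _ => ff_zeros x hx

/-- FF1d. Principal divisors have degree zero. -/
theorem ff_degree_principal (x : F) (hx : Transcendental K x) [FiniteDimensional K⟮x⟯ F]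
    (f : F) (hf : f ≠ 0) :
    {v : Place K F | v.ord f ≠ 0}.Finite ∧
      ∀ D : Divisor K F, (∀ v, D v = v.ord f) → Divisor.degree D = 0 :=
  ff_degree_principal_of h72_zerosStmt x hx f hf

end Fermat.Agent.S24

end
end
-- ==== END Fermat.Agent.S24.H72_FF1d

-- ==== BEGIN Fermat.Agent.S24.H85_FF3Glue
section

/-!
# S24 / FF3 glue (helper85): the Riemann–Hurwitz count from FF1b alone

All other interface statements (FF1a, FF1c, FF1d, FF2a–e) are landed; the only remaining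
hypothesis is FF1b in the form `H59.ZerosStmt K F`.
-/

set_option autoImplicit false

noncomputable section

open AlgebraicCurve KaehlerDifferential IntermediateField

namespace Fermat.Agent.S24

variable {K F : Type*} [Field K] [Field F] [Algebra K F] [IsAlgClosed K] [CharZero K]

/-- **FF3** (Riemann–Hurwitz count) from FF1b. -/
theorem ff_riemann_hurwitz_of_zeros (hzeros : H59.ZerosStmt K F)
    (x : F) (hx : Transcendental K x) [FiniteDimensional K⟮x⟯ F]
    (S : Finset K) (r : K → ℕ)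
    (hr : ∀ a ∈ S, Nat.card {v : Place K F // 0 < v.ord (x - algebraMap K F a)} = r a)
    (hS : ∀ a ∉ S, Nat.card {v : Place K F // 0 < v.ord (x - algebraMap K F a)}
      = Module.finrank K⟮x⟯ F)
    (rinf : ℕ) (hrinf : Nat.card {v : Place K F // v.ord x < 0} = rinf)
    (ω : Ω[F⁄K]) (hω : ω ≠ 0) (D : Divisor K F) (hD : ∀ v, D v = v.ordDifferential ω) :
    Divisor.degree D
      = ∑ a ∈ S, ((Module.finrank K⟮x⟯ F : ℤ) - r a) - Module.finrank K⟮x⟯ F - rinf :=
  H85.ff_riemann_hurwitz_of x hx (fun v => ff_deg_eq_one x hx v)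
    (fun y hy hfd => @hzeros y hy hfd)
    (fun f hf => ff_degree_principal_of hzeros x hx f hf)
    (fun v a h => ff_ordDifferential_zero x hx v x a h)
    (fun v h => ff_ordDifferential_pole x hx v x h)
    S r hr hS rinf hrinf ω hω D hD

end Fermat.Agent.S24

end
end
-- ==== END Fermat.Agent.S24.H85_FF3Glue

-- ==== BEGIN Fermat.Agent.S28.H30_Conj
section

/-!
# S28, WP-F: conjugates of `Δ(Mz)`, `E₄(Mz)³` under `SL(2,ℤ)` and their `t`-expansions
(helper30)
-/

set_option autoImplicit false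
set_option linter.unusedSectionVars false
set_option linter.unusedVariables false

open UpperHalfPlane ModularForm ModularCurve Function SlashInvariantForm
open scoped MatrixGroups ModularForm Manifold Real

noncomputable section

namespace Fermat.Agent.S28.H30

open Fermat.Agent.S23.H22 (G0 Q toSL piPerm q1 E12 G0_le_conj quotientFunc_slash
  quotientFunc_mdiff quotientFunc_bdd quotientFunc_q1)

variable (N : ℕ) [NeZero N]

/-! ### Level raising to `Γ₀(N)` through a divisor `M ∣ N` -/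

lemma G0_mono {M : ℕ} (hM : M ∣ N) : G0 N ≤ G0 M := by
  intro g hg
  obtain ⟨γ, hγ, rfl⟩ := hg
  refine ⟨γ, ?_, rfl⟩
  have hγ' : γ ∈ CongruenceSubgroup.Gamma0 N := hγ
  show γ ∈ CongruenceSubgroup.Gamma0 M
  rw [CongruenceSubgroup.Gamma0_mem] at hγ' ⊢
  have hγ := hγ'
  have h1 : (N : ℤ) ∣ γ 1 0 := (ZMod.intCast_zmod_eq_zero_iff_dvd _ _).mp hγ
  exact (ZMod.intCast_zmod_eq_zero_iff_dvd _ _).mpr
    (dvd_trans (by exact_mod_cast hM) h1)

instance neZero_gcd (M : ℕ) : NeZero (Nat.gcd M N) :=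
  ⟨Nat.gcd_ne_zero_right (NeZero.ne N)⟩

/-- `F ∣[k] α_{gcd(M,N)}` as a modular form on `Γ₀(N)`. For `M ∣ N` this is
`M^(k-1) F(M z)`. -/
def raise (M : ℕ) {k : ℤ} (F : ModularForm 𝒮ℒ k) : ModularForm (G0 N) k where
  toFun := (F : ℍ → ℂ) ∣[k] heckeDiagMatrix (Nat.gcd M N)
  slash_action_eq' h hh :=
    (ModularForm.translate F (heckeDiagMatrix (Nat.gcd M N))).slash_action_eq' h
      (G0_le_conj (Nat.gcd M N) (G0_mono N (Nat.gcd_dvd_right M N) hh))
  holo' := (ModularForm.translate F (heckeDiagMatrix (Nat.gcd M N))).holo'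
  bdd_at_cusps' hc :=
    (ModularForm.translate F (heckeDiagMatrix (Nat.gcd M N))).bdd_at_cusps'
      (hc.mono (le_trans (G0_mono N (Nat.gcd_dvd_right M N)) (G0_le_conj (Nat.gcd M N))))

lemma raise_coe (M : ℕ) {k : ℤ} (F : ModularForm 𝒮ℒ k) :
    (raise N M F : ℍ → ℂ) = (F : ℍ → ℂ) ∣[k] heckeDiagMatrix (Nat.gcd M N) := rfl

lemma raise_coe_of_dvd {M : ℕ} (hM : M ∣ N) {k : ℤ} (F : ModularForm 𝒮ℒ k) :
    (raise N M F : ℍ → ℂ) = (F : ℍ → ℂ) ∣[k] heckeDiagMatrix M := by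
  rw [raise_coe, Nat.gcd_eq_left hM]

/-- The conjugates of `F ∣ α_M`. -/
def fam (M : ℕ) {k : ℤ} (F : ModularForm 𝒮ℒ k) (q : Q N) : ℍ → ℂ :=
  quotientFunc (raise N M F) q

lemma fam_slash (M : ℕ) {k : ℤ} (F : ModularForm 𝒮ℒ k) (γ : SL(2, ℤ)) (q : Q N) :
    fam N M F q ∣[k] γ = fam N M F (piPerm N γ q) :=
  quotientFunc_slash _ γ q

lemma fam_mdiff (M : ℕ) {k : ℤ} (F : ModularForm 𝒮ℒ k) (q : Q N) : MDiff (fam N M F q) :=
  quotientFunc_mdiff _ q

lemma fam_bdd (M : ℕ) {k : ℤ} (F : ModularForm 𝒮ℒ k) (q : Q N) :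
    IsBoundedAtImInfty (fam N M F q) :=
  quotientFunc_bdd _ q

lemma fam_q1 (M : ℕ) {k : ℤ} (F : ModularForm 𝒮ℒ k) : fam N M F q1 = raise N M F :=
  quotientFunc_q1 _

/-- The conjugate of a level raise at a coset, via any factorisation `α_M γ⁻¹ = γ' T`. -/
theorem fam_eq_slash {M : ℕ} (hM : M ∣ N) {k : ℤ} (F : ModularForm 𝒮ℒ k)
    (γ γ' : SL(2, ℤ)) (T : GL (Fin 2) ℝ)
    (hmat : heckeDiagMatrix M * Matrix.SpecialLinearGroup.mapGL ℝ γ⁻¹
      = Matrix.SpecialLinearGroup.mapGL ℝ γ' * T) :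
    fam N M F (⟦toSL γ⟧ : Q N) = (F : ℍ → ℂ) ∣[k] T := by
  rw [fam, quotientFunc_mk, raise_coe_of_dvd N hM, ← SlashAction.slash_mul]
  have : heckeDiagMatrix M * (toSL γ).val⁻¹ = Matrix.SpecialLinearGroup.mapGL ℝ γ' * T := by
    rw [← hmat, map_inv]
    rfl
  rw [this, SlashAction.slash_mul]
  congr 1
  exact SlashInvariantFormClass.slash_action_eq F _ ⟨γ', rfl⟩

/-! ### Hermite normal form with the value of `a` -/

/-- In the Hermite normal form of `diag(M,1) g`, the entry `a` is `gcd(g₁₀, M)`. -/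
lemma hnf_a_eq {M : ℕ} (g g' : SL(2, ℤ)) (a b d : ℕ) (had : a * d = M)
    (hmat : !![(M : ℤ), 0; 0, 1] * (g : Matrix (Fin 2) (Fin 2) ℤ) =
        (g' : Matrix (Fin 2) (Fin 2) ℤ) * !![(a : ℤ), (b : ℤ); 0, (d : ℤ)]) :
    a = Int.gcd (g 1 0) (M : ℤ) := by
  have h00 := congrFun (congrFun hmat 0) 0
  have h10 := congrFun (congrFun hmat 1) 0
  simp [Matrix.mul_apply, Fin.sum_univ_two] at h00 h10
  have hdet' := g'.det_coe
  rw [Matrix.det_fin_two] at hdet'
  -- a ∣ gcd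
  have ha1 : (a : ℤ) ∣ g 1 0 := ⟨g' 1 0, by rw [h10]; ring⟩
  have ha2 : (a : ℤ) ∣ (M : ℤ) := ⟨d, by rw [← had]; push_cast; ring⟩
  have h1 : (a : ℤ) ∣ ((Int.gcd (g 1 0) (M : ℤ) : ℕ) : ℤ) := Int.dvd_coe_gcd ha1 ha2
  -- gcd ∣ a
  have hG1 : ((Int.gcd (g 1 0) (M : ℤ) : ℕ) : ℤ) ∣ g 1 0 := Int.gcd_dvd_left _ _
  have hG2 : ((Int.gcd (g 1 0) (M : ℤ) : ℕ) : ℤ) ∣ (M : ℤ) := Int.gcd_dvd_right _ _
  have hcomb : (a : ℤ) = (M : ℤ) * g 0 0 * g' 1 1 - g' 0 1 * g 1 0 := by
    have : (a : ℤ) = a * (g' 0 0 * g' 1 1 - g' 0 1 * g' 1 0) := by rw [hdet', mul_one]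
    rw [this, h00, h10]; ring
  have h2 : ((Int.gcd (g 1 0) (M : ℤ) : ℕ) : ℤ) ∣ (a : ℤ) := by
    rw [hcomb]
    exact dvd_sub (Dvd.dvd.mul_right (Dvd.dvd.mul_right hG2 _) _) (Dvd.dvd.mul_left hG1 _)
  have := Int.natCast_dvd_natCast.mp h1
  have := Int.natCast_dvd_natCast.mp h2
  exact Nat.dvd_antisymm ‹_› ‹_›

/-- Hermite normal form in `GL(2,ℝ)` with `a = gcd(γ₁₀, M)`. -/
theorem exists_hnf_gcd (M : ℕ) [NeZero M] (γ : SL(2, ℤ)) :
    ∃ (γ' : SL(2, ℤ)) (a b d : ℕ) (h : (a : ℝ) * (d : ℝ) ≠ 0), a * d = M ∧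
      a = Int.gcd (γ 1 0) (M : ℤ) ∧
      ModularForm.heckeDiagMatrix M * Matrix.SpecialLinearGroup.mapGL ℝ γ
        = Matrix.SpecialLinearGroup.mapGL ℝ γ' * ModularForm.upperTriangularGL a b d h := by
  obtain ⟨γ', a, b, d, had, hb, hmat, hiff⟩ :=
    Fermat.Agent.S23.H83.exists_hermite_int M (NeZero.ne M) γ
  have h : (a : ℝ) * (d : ℝ) ≠ 0 := by
    rw [← Nat.cast_mul, had]; exact_mod_cast NeZero.ne M
  refine ⟨γ', a, b, d, h, had, hnf_a_eq γ γ' a b d had hmat, ?_⟩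
  have hL : (!![(M : ℝ), 0; 0, 1] : Matrix (Fin 2) (Fin 2) ℝ)
      = (Int.castRingHom ℝ).mapMatrix !![(M : ℤ), 0; 0, 1] := by
    ext i j; fin_cases i <;> fin_cases j <;> simp
  have hR : (!![(a : ℝ), (b : ℝ); 0, (d : ℝ)] : Matrix (Fin 2) (Fin 2) ℝ)
      = (Int.castRingHom ℝ).mapMatrix !![(a : ℤ), (b : ℤ); 0, (d : ℤ)] := by
    ext i j; fin_cases i <;> fin_cases j <;> simp
  have hmap : ∀ g : SL(2, ℤ), ((Matrix.SpecialLinearGroup.mapGL ℝ g : GL (Fin 2) ℝ) :
      Matrix (Fin 2) (Fin 2) ℝ) = (Int.castRingHom ℝ).mapMatrix (g : Matrix (Fin 2) (Fin 2) ℤ) := by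
    intro g
    rw [Matrix.SpecialLinearGroup.mapGL_coe_matrix]
    rfl
  apply Units.ext
  rw [Units.val_mul, Units.val_mul]
  show ((ModularForm.heckeDiagMatrix M : GL (Fin 2) ℝ) : Matrix (Fin 2) (Fin 2) ℝ) *
      ((Matrix.SpecialLinearGroup.mapGL ℝ γ : GL (Fin 2) ℝ) : Matrix (Fin 2) (Fin 2) ℝ) =
    ((Matrix.SpecialLinearGroup.mapGL ℝ γ' : GL (Fin 2) ℝ) : Matrix (Fin 2) (Fin 2) ℝ) *
      ((ModularForm.upperTriangularGL a b d h : GL (Fin 2) ℝ) : Matrix (Fin 2) (Fin 2) ℝ)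
  rw [ModularForm.val_heckeDiagMatrix (NeZero.ne M), ModularForm.val_upperTriangularGL,
    hmap, hmap, hL, hR, ← map_mul, ← map_mul, hmat]


/-! ### Expansion of `F ((a z + b) / d)` in `t = e^{2πiz/N}` -/

/-- `Δ` as a level one modular form. -/
def DeltaMF : ModularForm 𝒮ℒ 12 := CuspForm.toModularFormₗ CuspForm.discriminant

lemma DeltaMF_coe : (DeltaMF : ℍ → ℂ) = ModularForm.discriminant := rfl

/-- `z ↦ F ((a z + b) / d)`. -/
def compUT {k : ℤ} (F : ModularForm 𝒮ℒ k) (a b d : ℕ) (h : (a : ℝ) * (d : ℝ) ≠ 0) : ℍ → ℂ :=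
  fun z => F (ModularForm.upperTriangularGL a b d h • z)

section compUT

variable {N}
variable {k : ℤ} (F : ModularForm 𝒮ℒ k) (a b d : ℕ) (h : (a : ℝ) * (d : ℝ) ≠ 0)

lemma compUT_per_ad : Periodic (compUT F a b d h ∘ ofComplex) ((a * d : ℕ) : ℂ) :=
  Fermat.Agent.S23.H83.periodic_comp_upperTriangular F a b d h

lemma compUT_BPH (hadN : a * d ∣ N) : BPH N (compUT F a b d h) where
  per := by
    obtain ⟨L, hL⟩ := hadN
    have := (compUT_per_ad F a b d h).nat_mul L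
    rw [hL]
    push_cast at this ⊢
    rw [mul_comm]
    exact this
  hol := Fermat.Agent.S23.H83.mdifferentiable_comp_upperTriangular F a b d h
  bdd := Fermat.Agent.S23.H83.isBoundedAtImInfty_comp_upperTriangular F a b d h

include h in
lemma ad_pos : 0 < a * d := by
  have := Fermat.Agent.S23.H83.natCast_mul_pos' a d h
  exact_mod_cast this

lemma qExpansion_compUT_coeff (hadN : a * d ∣ N) (n : ℕ) :
    (qExpansion (N : ℝ) (compUT F a b d h)).coeff n =
      if (N / (a * d)) ∣ n then Fermat.Agent.S23.H83.compCoeff F a b d (n / (N / (a * d)))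
      else 0 := by
  have hpos : 0 < a * d := ad_pos a d h
  have hNpos : 0 < N := Nat.pos_of_ne_zero (NeZero.ne N)
  have hL : 0 < N / (a * d) := Nat.div_pos (Nat.le_of_dvd hNpos hadN) hpos
  have hper : Periodic (compUT F a b d h ∘ ofComplex) ((((a * d : ℕ) : ℝ)) : ℂ) := by
    rw [Complex.ofReal_natCast]
    exact compUT_per_ad F a b d h
  have key := UpperHalfPlane.qExpansion_coeff_nat_mul
    (Fermat.Agent.S23.H83.natCast_mul_pos' a d h) hper
    (Fermat.Agent.S23.H83.mdifferentiable_comp_upperTriangular F a b d h)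
    (Fermat.Agent.S23.H83.isBoundedAtImInfty_comp_upperTriangular F a b d h) hL n
  have hN : ((N / (a * d) : ℕ) : ℝ) * (((a * d : ℕ)) : ℝ) = (N : ℝ) := by
    rw [← Nat.cast_mul, Nat.div_mul_cancel hadN]
  rw [hN] at key
  rw [key]
  split_ifs with hdiv
  · exact Fermat.Agent.S23.H83.qExpansion_comp_upperTriangular_coeff F a b d h _
  · rfl

end compUT

/-! ### Order and leading coefficient from the coefficients -/

lemma order_eq_of_coeff {f : LaurentSeries ℂ} {k : ℤ} (hk : f.coeff k ≠ 0)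
    (hlt : ∀ n : ℤ, n < k → f.coeff n = 0) : f ≠ 0 ∧ f.order = k := by
  have hne : f ≠ 0 := by
    rintro rfl
    exact hk (by simp)
  refine ⟨hne, le_antisymm (HahnSeries.order_le_of_coeff_ne_zero hk) ?_⟩
  by_contra hcon
  push Not at hcon
  exact (HahnSeries.coeff_order_eq_zero.not.mpr hne) (hlt _ hcon)


/-! ### The coefficient ring `ℤ[ζ_N, 1/N]` -/

lemma rootOfUnity_mem {z : ℂ} (hz : z ^ N = 1) : z ∈ coeffRing N :=
  Subring.subset_closure (Or.inl hz)

lemma inv_N_mem : ((N : ℂ))⁻¹ ∈ coeffRing N :=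
  Subring.subset_closure (Or.inr rfl)

lemma natCast_mem_coeffRing (n : ℕ) : (n : ℂ) ∈ coeffRing N := natCast_mem _ n

lemma intCast_mem_coeffRing (n : ℤ) : (n : ℂ) ∈ coeffRing N := intCast_mem _ n

lemma inv_natCast_mem_of_dvd {d : ℕ} (hd : d ∣ N) : ((d : ℂ))⁻¹ ∈ coeffRing N := by
  obtain ⟨e, he⟩ := hd
  have hN : (N : ℂ) ≠ 0 := by exact_mod_cast NeZero.ne N
  have hd0 : (d : ℂ) ≠ 0 := by
    rintro h0
    apply hN
    rw [he]; push_cast; rw [h0, zero_mul]
  have he0 : (e : ℂ) ≠ 0 := by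
    rintro h0
    apply hN
    rw [he]; push_cast; rw [h0, mul_zero]
  have : ((d : ℂ))⁻¹ = (e : ℂ) * ((N : ℂ))⁻¹ := by
    rw [he]; push_cast
    field_simp
  rw [this]
  exact (coeffRing N).mul_mem (natCast_mem_coeffRing N e) (inv_N_mem N)

lemma exp_rootOfUnity {d : ℕ} (hd : d ∣ N) (hd0 : d ≠ 0) (m : ℤ) :
    Complex.exp (2 * π * Complex.I * m / d) ^ N = 1 := by
  obtain ⟨e, he⟩ := hd
  rw [← Complex.exp_nat_mul]
  have hd' : (d : ℂ) ≠ 0 := by exact_mod_cast hd0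
  have : (N : ℂ) * (2 * π * Complex.I * m / d) = ((e * m : ℤ) : ℂ) * (2 * π * Complex.I) := by
    rw [he]; push_cast; field_simp
  rw [this]
  exact Complex.exp_int_mul_two_pi_mul_I _

lemma exp_mem_coeffRing {d : ℕ} (hd : d ∣ N) (hd0 : d ≠ 0) (m : ℤ) :
    Complex.exp (2 * π * Complex.I * m / d) ∈ coeffRing N :=
  rootOfUnity_mem N (exp_rootOfUnity N hd hd0 m)

/-! ### The `t`-expansion of `Δ ((a z + b) / d)` -/

lemma qExpansion_DeltaMF_coeff_zero : (qExpansion 1 DeltaMF).coeff 0 = 0 := by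
  have := CuspFormClass.qExpansion_coeff_zero CuspForm.discriminant one_pos
    one_mem_strictPeriods_SL
  exact this

lemma qExpansion_DeltaMF_coeff_one : (qExpansion 1 DeltaMF).coeff 1 = 1 :=
  ModularForm.discriminant_qExpansion_coeff_one

lemma qExpansion_DeltaMF_int (m : ℕ) : ∃ c : ℤ, (qExpansion 1 DeltaMF).coeff m = (c : ℂ) :=
  Fermat.Agent.S23.H96.Delta_int m

section DeltaUT

variable {N}
variable (a b d : ℕ) (h : (a : ℝ) * (d : ℝ) ≠ 0)

include h in
lemma compCoeff_Delta_mem (hadN : a * d ∣ N) (n : ℕ) :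
    Fermat.Agent.S23.H83.compCoeff DeltaMF a b d n ∈ coeffRing N := by
  have hd0 : d ≠ 0 := by
    have := ad_pos a d h
    rintro rfl
    simp at this
  have hdN : d ∣ N := dvd_trans (dvd_mul_left d a) hadN
  unfold Fermat.Agent.S23.H83.compCoeff
  split_ifs with hdiv
  · generalize n / a ^ 2 = y
    obtain ⟨c, hc⟩ := qExpansion_DeltaMF_int y
    rw [hc]
    refine (coeffRing N).mul_mem ?_ (intCast_mem_coeffRing N c)
    have := exp_mem_coeffRing N hdN hd0 ((b : ℤ) * (y : ℤ))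
    convert this using 2
    push_cast
    ring
  · exact (coeffRing N).zero_mem

/-- The `t`-expansion of `Δ((az+b)/d)` has order `a² · N/(ad)`, unit leading coefficient
and coefficients in `ℤ[ζ_N]`. -/
theorem uls_compUT_Delta (hadN : a * d ∣ N) :
    ULS (coeffRing N) (pexp N (compUT DeltaMF a b d h)) ((a ^ 2 * (N / (a * d)) : ℕ) : ℤ) := by
  have hpos : 0 < a * d := ad_pos a d h
  have ha0 : a ≠ 0 := by rintro rfl; simp at hpos
  have hd0 : d ≠ 0 := by rintro rfl; simp at hpos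
  have hdN : d ∣ N := dvd_trans (dvd_mul_left d a) hadN
  have hNpos : 0 < N := Nat.pos_of_ne_zero (NeZero.ne N)
  have hL : 0 < N / (a * d) := Nat.div_pos (Nat.le_of_dvd hNpos hadN) hpos
  set L := N / (a * d) with hLdef
  have ha2 : 0 < a ^ 2 := by positivity
  -- all coefficients
  have hcoeff : ∀ n : ℕ, (pexp N (compUT DeltaMF a b d h)).coeff (n : ℤ) =
      if L ∣ n then Fermat.Agent.S23.H83.compCoeff DeltaMF a b d (n / L) else 0 := by
    intro n
    rw [pexp_coeff_nat, qExpansion_compUT_coeff DeltaMF a b d h hadN]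
  have hmem : ∀ n : ℤ, (pexp N (compUT DeltaMF a b d h)).coeff n ∈ coeffRing N := by
    intro n
    rcases lt_or_ge n 0 with hn | hn
    · rw [pexp_coeff_neg _ hn]; exact (coeffRing N).zero_mem
    · obtain ⟨m, rfl⟩ := Int.eq_ofNat_of_zero_le hn
      rw [hcoeff]
      split_ifs
      · exact compCoeff_Delta_mem a b d h hadN _
      · exact (coeffRing N).zero_mem
  -- the leading coefficient
  have hlead : (pexp N (compUT DeltaMF a b d h)).coeff ((a ^ 2 * L : ℕ) : ℤ) =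
      Complex.exp (2 * π * Complex.I * (b : ℤ) / d) := by
    rw [hcoeff, if_pos (dvd_mul_left L (a ^ 2)), Nat.mul_div_cancel _ hL]
    unfold Fermat.Agent.S23.H83.compCoeff
    rw [if_pos dvd_rfl, Nat.div_self ha2, qExpansion_DeltaMF_coeff_one]
    simp
  have hlead_ne : (pexp N (compUT DeltaMF a b d h)).coeff ((a ^ 2 * L : ℕ) : ℤ) ≠ 0 := by
    rw [hlead]; exact Complex.exp_ne_zero _
  have hlow : ∀ n : ℤ, n < ((a ^ 2 * L : ℕ) : ℤ) →
      (pexp N (compUT DeltaMF a b d h)).coeff n = 0 := by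
    intro n hn
    rcases lt_or_ge n 0 with hn0 | hn0
    · exact pexp_coeff_neg _ hn0
    · obtain ⟨m, rfl⟩ := Int.eq_ofNat_of_zero_le hn0
      have hm : m < a ^ 2 * L := by exact_mod_cast hn
      rw [hcoeff]
      split_ifs with hdiv
      · obtain ⟨m', rfl⟩ := hdiv
        rw [Nat.mul_div_cancel_left _ hL]
        have hm' : m' < a ^ 2 := by
          by_contra hcon
          push Not at hcon
          have : a ^ 2 * L ≤ L * m' := by
            rw [mul_comm]; exact Nat.mul_le_mul_left L hcon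
          omega
        unfold Fermat.Agent.S23.H83.compCoeff
        split_ifs with hdiv2
        · have : m' = 0 := Nat.eq_zero_of_dvd_of_lt hdiv2 hm'
          subst this
          simp [qExpansion_DeltaMF_coeff_zero]
        · rfl
      · rfl
  obtain ⟨hne, hord⟩ := order_eq_of_coeff hlead_ne hlow
  refine ⟨hmem, hne, hord, ?_⟩
  rw [HahnSeries.leadingCoeff_eq, hord, hlead, ← Complex.exp_neg]
  have := exp_mem_coeffRing N hdN hd0 (-(b : ℤ))
  convert this using 2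
  push_cast
  ring

end DeltaUT


/-! ### The conjugate families: explicit form, `BPH`, `ULS` -/

lemma exists_rep (q : Q N) : ∃ γ : SL(2, ℤ), q = (⟦toSL γ⟧ : Q N) := by
  induction q using Quotient.inductionOn with
  | h r =>
    obtain ⟨r, γ, rfl⟩ := r
    exact ⟨γ, rfl⟩

lemma mk_toSL_eq_q1' {γ : SL(2, ℤ)} (hγ : γ ∈ CongruenceSubgroup.Gamma0 N) :
    (⟦toSL γ⟧ : Q N) = q1 := by
  show ((toSL γ : ↥𝒮ℒ) : Q N) = ((1 : ↥𝒮ℒ) : Q N)
  rw [QuotientGroup.eq, mul_one, Subgroup.mem_subgroupOf]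
  refine ⟨γ⁻¹, inv_mem hγ, ?_⟩
  simp [toSL]

lemma not_dvd_of_ne_q1 {γ : SL(2, ℤ)} (hq : (⟦toSL γ⟧ : Q N) ≠ q1) :
    ¬ (N : ℤ) ∣ (γ⁻¹ : SL(2, ℤ)) 1 0 := by
  intro hdvd
  apply hq
  apply mk_toSL_eq_q1'
  have : γ⁻¹ ∈ CongruenceSubgroup.Gamma0 N := by
    rw [CongruenceSubgroup.Gamma0_mem]
    exact (ZMod.intCast_zmod_eq_zero_iff_dvd _ _).mpr hdvd
  simpa using inv_mem this

theorem fam_eq_smul_compUT {M : ℕ} (hM : M ∣ N) {k : ℤ} (F : ModularForm 𝒮ℒ k)
    (γ : SL(2, ℤ)) :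
    ∃ (a b d : ℕ) (h : (a : ℝ) * (d : ℝ) ≠ 0), a * d = M ∧
      a = Int.gcd ((γ⁻¹ : SL(2, ℤ)) 1 0) (M : ℤ) ∧
      fam N M F (⟦toSL γ⟧ : Q N) =
        (((a : ℂ) * (d : ℂ)) ^ (k - 1) * (d : ℂ) ^ (-k)) • compUT F a b d h := by
  haveI : NeZero M := ⟨ne_zero_of_dvd_ne_zero (NeZero.ne N) hM⟩
  obtain ⟨γ', a, b, d, h, had, hgcd, hmat⟩ := exists_hnf_gcd M γ⁻¹
  refine ⟨a, b, d, h, had, hgcd, ?_⟩
  rw [fam_eq_slash N hM F γ γ' _ hmat]
  exact Fermat.Agent.S23.H83.slash_upperTriangularGL_eq_smul F a b d h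

theorem fam_BPH {M : ℕ} (hM : M ∣ N) {k : ℤ} (F : ModularForm 𝒮ℒ k) (q : Q N) :
    BPH N (fam N M F q) := by
  obtain ⟨γ, rfl⟩ := exists_rep N q
  obtain ⟨a, b, d, h, had, -, heq⟩ := fam_eq_smul_compUT N hM F γ
  rw [heq]
  exact BPH.smul _ (compUT_BPH F a b d h (had ▸ hM))

/-- The `t`-order of the conjugate of `Δ(Mz)` at the coset of `γ`. -/
def ordAt (M : ℕ) (c : ℤ) : ℕ := (Int.gcd c (M : ℤ)) ^ 2 * (N / M)

theorem uls_fam_Delta {M : ℕ} (hM : M ∣ N) (γ : SL(2, ℤ)) :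
    ULS (coeffRing N) (pexp N (fam N M DeltaMF (⟦toSL γ⟧ : Q N)))
      ((ordAt N M ((γ⁻¹ : SL(2, ℤ)) 1 0) : ℕ) : ℤ) := by
  obtain ⟨a, b, d, h, had, hgcd, heq⟩ := fam_eq_smul_compUT N hM DeltaMF γ
  have hadN : a * d ∣ N := had ▸ hM
  have hpos : 0 < a * d := ad_pos a d h
  have ha0 : a ≠ 0 := by rintro rfl; simp at hpos
  have hd0 : d ≠ 0 := by rintro rfl; simp at hpos
  have hdN : d ∣ N := dvd_trans (dvd_mul_left d a) hadN
  have haN : a ∣ N := dvd_trans (dvd_mul_right a d) hadN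
  have hac : (a : ℂ) ≠ 0 := by exact_mod_cast ha0
  have hdc : (d : ℂ) ≠ 0 := by exact_mod_cast hd0
  rw [heq, pexp_smul _ (compUT_BPH DeltaMF a b d h hadN)]
  have hord : ordAt N M ((γ⁻¹ : SL(2, ℤ)) 1 0) = a ^ 2 * (N / (a * d)) := by
    rw [ordAt, ← hgcd, had]
  rw [hord]
  refine ULS.C_mul ?_ ?_ ?_ (uls_compUT_Delta a b d h hadN)
  · -- C ∈ O
    have : ((a : ℂ) * (d : ℂ)) ^ ((12 : ℤ) - 1) * (d : ℂ) ^ (-(12 : ℤ))
        = ((a * d : ℕ) : ℂ) ^ 11 * (((d : ℂ))⁻¹) ^ 12 := by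
      rw [show ((12 : ℤ) - 1) = ((11 : ℕ) : ℤ) by norm_num, zpow_natCast,
        show (-(12 : ℤ)) = -((12 : ℕ) : ℤ) by norm_num, zpow_neg, zpow_natCast, inv_pow]
      push_cast; ring
    rw [this]
    exact (coeffRing N).mul_mem ((coeffRing N).pow_mem (natCast_mem_coeffRing N _) _)
      ((coeffRing N).pow_mem (inv_natCast_mem_of_dvd N hdN) _)
  · have : (((a : ℂ) * (d : ℂ)) ^ ((12 : ℤ) - 1) * (d : ℂ) ^ (-(12 : ℤ)))⁻¹
        = ((((a * d : ℕ) : ℂ))⁻¹) ^ 11 * (d : ℂ) ^ 12 := by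
      rw [show ((12 : ℤ) - 1) = ((11 : ℕ) : ℤ) by norm_num, zpow_natCast,
        show (-(12 : ℤ)) = -((12 : ℕ) : ℤ) by norm_num, zpow_neg, zpow_natCast, mul_inv, inv_inv,
        inv_pow]
      push_cast; ring
    rw [this]
    exact (coeffRing N).mul_mem
      ((coeffRing N).pow_mem (inv_natCast_mem_of_dvd N hadN) _)
      ((coeffRing N).pow_mem (natCast_mem_coeffRing N _) _)
  · exact Fermat.Agent.S23.H83.slash_const_ne_zero a d h

end Fermat.Agent.S28.H30

end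
end
-- ==== END Fermat.Agent.S28.H30_Conj

-- ==== BEGIN Fermat.Agent.S28.H73_Prim
section
attribute [local instance 10000] SubalgebraClass.toAlgebra
attribute [local instance 10000] HahnSeries.powerSeriesAlgebra

set_option autoImplicit false
set_option linter.unusedSectionVars false

noncomputable section

namespace Fermat.Agent.S28.H73

open ModularCurve

/-! ### Transcendence of elements of valuation `≠ 1` -/

section Transc

open Polynomial

variable {k E Γ₀ : Type*} [Field k] [Field E] [Algebra k E] [LinearOrderedCommGroupWithZero Γ₀]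
  (w : Valuation E Γ₀)

/-- If `w` is trivial on `k` and `w t ∉ {0, 1}`, then `t` is transcendental over `k`. -/
theorem aeval_ne_zero_of_valuation_ne_one (hwk : ∀ c : k, c ≠ 0 → w (algebraMap k E c) = 1)
    {t : E} (ht0 : t ≠ 0) (ht1 : w t ≠ 1) (P : k[X]) (hP : P ≠ 0) : aeval t P ≠ 0 := by
  intro h
  rw [aeval_eq_sum_range] at h
  have hγ0 : (0 : Γ₀) < w t := zero_lt_iff.2 ((Valuation.ne_zero_iff w).2 ht0)
  have key := eq_zero_of_sum_eq_zero w (Finset.range (P.natDegree + 1))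
    (fun i => P.coeff i • t ^ i) ?_ h
  · have h1 := key P.natDegree (Finset.self_mem_range_succ _)
    rw [Algebra.smul_def] at h1
    rcases mul_eq_zero.1 h1 with h2 | h2
    · have : P.coeff P.natDegree = 0 := by
        by_contra hc
        have := hwk _ hc
        rw [h2, map_zero] at this
        exact zero_ne_one this
      exact hP (leadingCoeff_eq_zero.1 this)
    · exact pow_ne_zero _ ht0 h2
  · intro i _ i' _ hci hci' hww
    have hc : P.coeff i ≠ 0 := by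
      intro h0; apply hci; rw [h0, zero_smul]
    have hc' : P.coeff i' ≠ 0 := by
      intro h0; apply hci'; rw [h0, zero_smul]
    simp only [Algebra.smul_def, map_mul, map_pow, hwk _ hc, hwk _ hc', one_mul] at hww
    exact pow_right_injective₀ hγ0 ht1 hww

end Transc

/-! ### Primitive polynomials and series in terms of the reduction maps -/

section Prim

open Polynomial

variable {C : Type} [Field C] (O : ValuationSubring C)

/-- `PrimPoly` in terms of the reduction. -/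
theorem primPoly_iff (P : C[X]) :
    PrimPoly O.toSubring P ↔
      ∃ P₀ : (↥O)[X], P₀.map (resV O) ≠ 0 ∧ P₀.map O.subtype = P := by
  constructor
  · rintro ⟨hco, n, hn0, hninv⟩
    have hl : P ∈ Polynomial.lifts O.subtype := by
      rw [Polynomial.lifts_iff_coeff_lifts]
      intro i
      exact ⟨⟨_, hco i⟩, rfl⟩
    obtain ⟨P₀, hP₀⟩ := (Polynomial.mem_lifts _).1 hl
    refine ⟨P₀, ?_, hP₀⟩
    intro h0
    have h1 := congrArg (fun q : (kV O)[X] => q.coeff n) h0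
    simp only [coeff_map, coeff_zero] at h1
    have hc : ((P₀.coeff n : ↥O) : C) = P.coeff n := by
      rw [← hP₀, coeff_map]; rfl
    have hunit : IsUnit (P₀.coeff n) := by
      rw [isUnit_iff_inv_mem, hc]; exact ⟨hn0, hninv⟩
    exact (IsLocalRing.residue_ne_zero_iff_isUnit _).2 hunit h1
  · rintro ⟨P₀, hP₀, rfl⟩
    refine ⟨fun i => by rw [coeff_map]; exact (P₀.coeff i).2, ?_⟩
    have : ∃ n, (P₀.map (resV O)).coeff n ≠ 0 := by
      by_contra hcon
      simp only [not_exists, not_not] at hcon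
      exact hP₀ (Polynomial.ext fun n => by rw [hcon n, coeff_zero])
    obtain ⟨n, hn⟩ := this
    rw [coeff_map] at hn
    have hunit : IsUnit (P₀.coeff n) := (IsLocalRing.residue_ne_zero_iff_isUnit _).1 hn
    rw [isUnit_iff_inv_mem] at hunit
    exact ⟨n, by rw [coeff_map]; exact hunit.1, by rw [coeff_map]; exact hunit.2⟩

/-- (Ba) Gauss lemma for series: the product of primitive series is primitive. -/
theorem PrimSeries.mul {f g : LaurentSeries C} (hf : PrimSeries O.toSubring f)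
    (hg : PrimSeries O.toSubring g) : PrimSeries O.toSubring (f * g) := by
  obtain ⟨f₀, hf₀, rfl⟩ := (primSeries_iff O f).1 hf
  obtain ⟨g₀, hg₀, rfl⟩ := (primSeries_iff O g).1 hg
  exact (primSeries_iff O _).2 ⟨f₀ * g₀, by rw [map_mul]; exact mul_ne_zero hf₀ hg₀, map_mul _ _ _⟩

theorem primSeries_one : PrimSeries O.toSubring (1 : LaurentSeries C) :=
  (primSeries_iff O _).2 ⟨1, by rw [map_one]; exact one_ne_zero, map_one _⟩

/-- (Ba) product version. -/
theorem PrimSeries.prod {ι : Type*} (s : Finset ι) (f : ι → LaurentSeries C)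
    (hf : ∀ i ∈ s, PrimSeries O.toSubring (f i)) : PrimSeries O.toSubring (∏ i ∈ s, f i) := by
  classical
  induction s using Finset.induction_on with
  | empty => rw [Finset.prod_empty]; exact primSeries_one O
  | insert a s ha ih =>
    rw [Finset.prod_insert ha]
    exact PrimSeries.mul O (hf a (Finset.mem_insert_self a s))
      (ih fun i hi => hf i (Finset.mem_insert_of_mem hi))

/-- (Ba) Gauss lemma for polynomials: the product of primitive polynomials is primitive. -/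
theorem PrimPoly.mul {P Q : C[X]} (hP : PrimPoly O.toSubring P)
    (hQ : PrimPoly O.toSubring Q) : PrimPoly O.toSubring (P * Q) := by
  obtain ⟨P₀, hP₀, rfl⟩ := (primPoly_iff O P).1 hP
  obtain ⟨Q₀, hQ₀, rfl⟩ := (primPoly_iff O Q).1 hQ
  exact (primPoly_iff O _).2
    ⟨P₀ * Q₀, by rw [Polynomial.map_mul]; exact mul_ne_zero hP₀ hQ₀, Polynomial.map_mul _⟩

theorem primPoly_one : PrimPoly O.toSubring (1 : C[X]) :=
  (primPoly_iff O _).2 ⟨1, by rw [Polynomial.map_one]; exact one_ne_zero, Polynomial.map_one _⟩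

/-- (Ba) product version. -/
theorem PrimPoly.prod {ι : Type*} (s : Finset ι) (f : ι → C[X])
    (hf : ∀ i ∈ s, PrimPoly O.toSubring (f i)) : PrimPoly O.toSubring (∏ i ∈ s, f i) := by
  classical
  induction s using Finset.induction_on with
  | empty => rw [Finset.prod_empty]; exact primPoly_one O
  | insert a s ha ih =>
    rw [Finset.prod_insert ha]
    exact PrimPoly.mul O (hf a (Finset.mem_insert_self a s))
      (ih fun i hi => hf i (Finset.mem_insert_of_mem hi))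

/-! ### Evaluation of polynomials at series -/

theorem iotaV_comp_C :
    (iotaV O).comp (HahnSeries.C : ↥O →+* LaurentSeries ↥O)
      = (algebraMap C (LaurentSeries C)).comp O.subtype := by
  ext1 r
  rw [RingHom.comp_apply, RingHom.comp_apply, algebraMap_laurentSeries_eq_single]
  exact coeffMap_single O.subtype 0 r

theorem redV_comp_C :
    (redV O).comp (HahnSeries.C : ↥O →+* LaurentSeries ↥O)
      = (algebraMap (kV O) (LaurentSeries (kV O))).comp (resV O) := by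
  ext1 r
  rw [RingHom.comp_apply, RingHom.comp_apply, algebraMap_laurentSeries_eq_single]
  exact coeffMap_single (resV O) 0 r

theorem iotaV_eval₂ (P₀ : (↥O)[X]) (f₀ : LaurentSeries ↥O) :
    iotaV O (P₀.eval₂ HahnSeries.C f₀) = aeval (iotaV O f₀) (P₀.map O.subtype) := by
  rw [hom_eval₂, iotaV_comp_C, aeval_def, eval₂_map]

theorem redV_eval₂ (P₀ : (↥O)[X]) (f₀ : LaurentSeries ↥O) :
    redV O (P₀.eval₂ HahnSeries.C f₀) = aeval (redV O f₀) (P₀.map (resV O)) := by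
  rw [hom_eval₂, redV_comp_C, aeval_def, eval₂_map]

/-- A unit-lead series comes from `O((t))`, and its reduction is nonzero of the same order. -/
theorem exists_lift_of_unitLead {f : LaurentSeries C} (hf : UnitLead O.toSubring f) :
    ∃ f₀ : LaurentSeries ↥O, iotaV O f₀ = f ∧ redV O f₀ ≠ 0 ∧ (redV O f₀).order = f.order := by
  obtain ⟨hco, hf0, hlead⟩ := hf
  obtain ⟨g, hg⟩ := exists_iotaV_eq O hco
  have hlc : f.leadingCoeff = f.coeff f.order := HahnSeries.leadingCoeff_eq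
  have hcoef : ((g.coeff f.order : ↥O) : C) = f.coeff f.order := by rw [← hg]; rfl
  have hunit : IsUnit (g.coeff f.order) := by
    rw [isUnit_iff_inv_mem, hcoef, ← hlc]
    exact ⟨HahnSeries.leadingCoeff_ne_zero.2 hf0, hlead⟩
  have hres : resV O (g.coeff f.order) ≠ 0 := (IsLocalRing.residue_ne_zero_iff_isUnit _).2 hunit
  have hred0 : redV O g ≠ 0 := (redV_ne_zero_iff O g).2 ⟨_, hunit⟩
  refine ⟨g, hg, hred0, ?_⟩
  apply le_antisymm
  · exact HahnSeries.order_le_of_coeff_ne_zero (by rw [redV_coeff]; exact hres)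
  · by_contra hcon
    rw [not_le] at hcon
    have h1 : (redV O g).coeff (redV O g).order = 0 := by
      rw [redV_coeff]
      have h2 : f.coeff (redV O g).order = 0 := HahnSeries.coeff_eq_zero_of_lt_order hcon
      have h3 : g.coeff (redV O g).order = 0 := by
        apply Subtype.ext
        have : ((g.coeff (redV O g).order : ↥O) : C) = f.coeff (redV O g).order := by
          rw [← hg]; rfl
        rw [this, h2]; rfl
      rw [h3, map_zero]
    exact hred0 (HahnSeries.coeff_order_eq_zero.1 h1)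

/-- (Bb) A primitive polynomial evaluated at a unit-lead series of nonzero order is a primitive
series. -/
theorem primSeries_aeval {f : LaurentSeries C} (hf : UnitLead O.toSubring f)
    (hord : f.order ≠ 0) {Q : C[X]} (hQ : PrimPoly O.toSubring Q) :
    PrimSeries O.toSubring (aeval f Q) := by
  obtain ⟨f₀, hf₀, hred0, hordr⟩ := exists_lift_of_unitLead O hf
  obtain ⟨Q₀, hQ₀, rfl⟩ := (primPoly_iff O Q).1 hQ
  refine (primSeries_iff O _).2 ⟨Q₀.eval₂ HahnSeries.C f₀, ?_, ?_⟩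
  · rw [redV_eval₂]
    refine aeval_ne_zero_of_valuation_ne_one (tVal (kV O))
      (fun c hc => tVal_algebraMap (kV O) hc) hred0 ?_ _ hQ₀
    rw [tVal_eq_exp_neg_order _ hred0, hordr, ← WithZero.exp_zero]
    intro h
    have := WithZero.exp_injective h
    omega
  · rw [iotaV_eval₂, hf₀]

/-! ### Scaling by the largest coefficient -/

/-- A nonzero polynomial is `m` times a primitive polynomial, `m` one of its coefficients. -/
theorem exists_prim_scale (p : C[X]) (hp : p ≠ 0) :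
    ∃ (m : C) (p₁ : C[X]), m ≠ 0 ∧ (∃ i, p.coeff i = m) ∧ PrimPoly O.toSubring p₁ ∧
      p = Polynomial.C m * p₁ := by
  classical
  have hsupp : p.support.Nonempty := by
    rw [Finset.nonempty_iff_ne_empty, Ne, Polynomial.support_eq_empty]; exact hp
  obtain ⟨i₀, hi₀, hmax⟩ := Finset.exists_max_image p.support (fun i => O.valuation (p.coeff i))
    hsupp
  have hm0 : p.coeff i₀ ≠ 0 := Polynomial.mem_support_iff.1 hi₀
  have hv0 : O.valuation (p.coeff i₀) ≠ 0 := (Valuation.ne_zero_iff _).2 hm0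
  refine ⟨p.coeff i₀, Polynomial.C (p.coeff i₀)⁻¹ * p, hm0, ⟨i₀, rfl⟩, ⟨?_, i₀, ?_, ?_⟩, ?_⟩
  · intro i
    rw [coeff_C_mul]
    show (p.coeff i₀)⁻¹ * p.coeff i ∈ O
    rw [← ValuationSubring.valuation_le_one_iff, map_mul, map_inv₀,
      inv_mul_le_iff₀ (zero_lt_iff.2 hv0), mul_one]
    by_cases hi : i ∈ p.support
    · exact hmax i hi
    · rw [Polynomial.notMem_support_iff.1 hi, map_zero]; exact zero_le
  · rw [coeff_C_mul, inv_mul_cancel₀ hm0]; exact one_ne_zero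
  · rw [coeff_C_mul, inv_mul_cancel₀ hm0, inv_one]; exact O.toSubring.one_mem
  · rw [← mul_assoc, ← map_mul, mul_inv_cancel₀ hm0, map_one, one_mul]

theorem aeval_C_mul_coeff (J : LaurentSeries C) (m : C) (p₁ : C[X]) (n : ℤ) :
    (aeval J (Polynomial.C m * p₁)).coeff n = m * (aeval J p₁).coeff n := by
  rw [map_mul, aeval_C, algebraMap_laurentSeries_eq_single]
  have : (HahnSeries.single (0 : ℤ) m : LaurentSeries C) = HahnSeries.C m := rfl
  rw [this, HahnSeries.C_mul_eq_smul, HahnSeries.coeff_smul, smul_eq_mul]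

/-- (Bc1) If `p(J)` has coefficients in `O` (`J` unit-lead of negative order) then `p` has
coefficients in `O`. -/
theorem coeff_mem_of_coeffsIn_aeval {J : LaurentSeries C} (hJ : UnitLead O.toSubring J)
    (hord : J.order < 0) {p : C[X]} (h : CoeffsIn O.toSubring (aeval J p)) :
    ∀ n, p.coeff n ∈ O := by
  by_cases hp : p = 0
  · intro n; rw [hp, coeff_zero]; exact O.toSubring.zero_mem
  obtain ⟨m, p₁, hm0, -, hp₁, hpe⟩ := exists_prim_scale O p hp
  obtain ⟨hco₁, n₀, hn₀, hn₀inv⟩ := primSeries_aeval O hJ hord.ne hp₁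
  have hmO : m ∈ O := by
    have h1 : m * (aeval J p₁).coeff n₀ ∈ O := by
      have := h n₀
      rw [hpe, aeval_C_mul_coeff] at this
      exact this
    have : m = m * (aeval J p₁).coeff n₀ * ((aeval J p₁).coeff n₀)⁻¹ := by
      rw [mul_assoc, mul_inv_cancel₀ hn₀, mul_one]
    rw [this]
    exact O.toSubring.mul_mem h1 hn₀inv
  intro n
  rw [hpe, coeff_C_mul]
  exact O.toSubring.mul_mem hmO (hp₁.1 n)

/-- (Bc2) If `p(J)` is a primitive series (`J` unit-lead of negative order) then `p` is a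
primitive polynomial. -/
theorem primPoly_of_primSeries_aeval {J : LaurentSeries C} (hJ : UnitLead O.toSubring J)
    (hord : J.order < 0) {p : C[X]} (h : PrimSeries O.toSubring (aeval J p)) :
    PrimPoly O.toSubring p := by
  have hco := coeff_mem_of_coeffsIn_aeval O hJ hord h.1
  obtain ⟨-, n₁, hn₁, hn₁inv⟩ := h
  have hp : p ≠ 0 := by
    rintro rfl
    rw [map_zero, HahnSeries.coeff_zero] at hn₁
    exact hn₁ rfl
  obtain ⟨m, p₁, hm0, ⟨i, hi⟩, hp₁, hpe⟩ := exists_prim_scale O p hp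
  obtain ⟨hco₁, -⟩ := primSeries_aeval O hJ hord.ne hp₁
  refine ⟨hco, i, by rw [hi]; exact hm0, ?_⟩
  rw [hi]
  -- `m * c₁` is a unit of `O` with `c₁ ∈ O`, hence `m⁻¹ = c₁ * (m c₁)⁻¹ ∈ O`
  have hc : (aeval J p).coeff n₁ = m * (aeval J p₁).coeff n₁ := by
    conv_lhs => rw [hpe]
    exact aeval_C_mul_coeff J m p₁ n₁
  rw [hc] at hn₁ hn₁inv
  have hc₁0 : (aeval J p₁).coeff n₁ ≠ 0 := right_ne_zero_of_mul hn₁
  have : m⁻¹ = (aeval J p₁).coeff n₁ * (m * (aeval J p₁).coeff n₁)⁻¹ := by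
    field_simp
  rw [this]
  exact O.toSubring.mul_mem (hco₁ n₁) hn₁inv

end Prim

end Fermat.Agent.S28.H73

end
end
-- ==== END Fermat.Agent.S28.H73_Prim

-- ==== BEGIN Fermat.Agent.S30.H2_Compress
section

/-!
# S30 wiring, WP G2 (helper2): compression of a matrix representation to a stable subspace

`stmt_Compress : Fermat.Agent.S30.Stmt_Compress`, from `H56.stmt_lattice`: `ρ' g = Q * ρ g * P`.
-/

set_option autoImplicit false
set_option linter.style.haveILetI false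
set_option linter.unusedSectionVars false
set_option linter.dupNamespace false

namespace Fermat.Agent.S30.H2

open Fermat.Agent.S30

/-- **G2 (Compress).** -/
theorem stmt_Compress : Stmt_Compress := by
  intro R _ _ _ K _ _ _ G _ r ρ W hW
  obtain ⟨P, Q, hQP, hPW, hPQ⟩ := Fermat.Agent.S30.H56.stmt_lattice R K r W
  -- the columns of `ρ g * P` lie in `W`
  have hcol : ∀ (g : G) (j : Fin (Module.finrank K W)),
      (fun i => algebraMap R K ((ρ g * P) i j)) ∈ W := by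
    intro g j
    have h1 := hW g _ (hPW j)
    have h2 : ((ρ g).map (algebraMap R K)).mulVec (fun i => algebraMap R K (P i j)) =
        fun i => algebraMap R K ((ρ g * P) i j) := by
      ext i
      simp only [Matrix.mulVec, dotProduct, Matrix.map_apply, Matrix.mul_apply, map_sum, map_mul]
    rw [h2] at h1
    exact h1
  -- hence `P * Q` fixes `ρ g * P`
  have hfix : ∀ g : G, P * (Q * (ρ g * P)) = ρ g * P := by
    intro g
    ext i j
    have h1 := hPQ (fun i => (ρ g * P) i j) (hcol g j)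
    have h2 := congrFun h1 i
    rw [← h2]
    simp only [Matrix.mul_apply, Matrix.mulVec, dotProduct]
  refine ⟨P, Q,
    { toFun := fun g => Q * ρ g * P
      map_one' := by rw [map_one, Matrix.mul_one, hQP]
      map_mul' := fun g h => by
        rw [map_mul]
        calc Q * (ρ g * ρ h) * P = Q * ρ g * (ρ h * P) := by
              simp only [Matrix.mul_assoc]
          _ = Q * ρ g * (P * (Q * (ρ h * P))) := by rw [hfix h]
          _ = Q * ρ g * P * (Q * ρ h * P) := by simp only [Matrix.mul_assoc] },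
    hQP, ?_⟩
  intro g
  show ρ g * P = P * (Q * ρ g * P)
  rw [Matrix.mul_assoc Q, hfix g]

end Fermat.Agent.S30.H2

end
-- ==== END Fermat.Agent.S30.H2_Compress

-- ==== BEGIN Fermat.Agent.S30.H2_MapRep
section

/-!
# S30 wiring, WP G3 (helper2): base change of matrix representations along a local homomorphism

`stmt_MapRep : Fermat.Agent.S30.Stmt_MapRep`.
-/

set_option autoImplicit false
set_option linter.style.haveILetI false
set_option linter.unusedSectionVars false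
set_option linter.dupNamespace false

namespace Fermat.Agent.S30.H2

open Fermat.Agent.S30

/-- A local homomorphism maps `𝔪 ^ n` into `𝔪' ^ n`. -/
theorem map_mem_maximalIdeal_pow {R R' : Type} [CommRing R] [IsLocalRing R] [CommRing R']
    [IsLocalRing R'] (φ : R →+* R') [IsLocalHom φ] (n : ℕ) {x : R}
    (hx : x ∈ IsLocalRing.maximalIdeal R ^ n) : φ x ∈ IsLocalRing.maximalIdeal R' ^ n := by
  have hmap : (IsLocalRing.maximalIdeal R ^ n).map φ ≤ IsLocalRing.maximalIdeal R' ^ n := by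
    rw [Ideal.map_pow]
    exact Ideal.pow_right_mono (Ideal.map_le_iff_le_comap.mpr fun a ha =>
      Ideal.mem_comap.mpr (map_nonunit φ a ha)) n
  exact hmap (Ideal.mem_map_of_mem φ hx)

/-- **G3 (MapRep).** -/
theorem stmt_MapRep : Stmt_MapRep := by
  intro R R' _ _ _ _ φ hφ r ρ hρ
  haveI := hφ
  refine ⟨(RingHom.mapMatrix φ : Matrix (Fin r) (Fin r) R →+* Matrix (Fin r) (Fin r) R')
    |>.toMonoidHom.comp ρ, fun g => rfl, ?_⟩
  intro n
  obtain ⟨L, hL, h⟩ := hρ n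
  refine ⟨L, hL, fun σ hσ i j => ?_⟩
  have h1 : (((RingHom.mapMatrix φ : Matrix (Fin r) (Fin r) R →+* Matrix (Fin r) (Fin r) R')
      |>.toMonoidHom.comp ρ) σ - 1) i j = φ ((ρ σ - 1) i j) := by
    simp only [MonoidHom.coe_comp, Function.comp_apply, RingHom.toMonoidHom_eq_coe,
      MonoidHom.coe_coe, RingHom.mapMatrix_apply, Matrix.sub_apply, Matrix.map_apply, map_sub]
    congr 1
    by_cases hij : i = j
    · subst hij; simp
    · simp [Matrix.one_apply_ne hij]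
  rw [h1]
  exact map_mem_maximalIdeal_pow φ n (h σ hσ i j)

end Fermat.Agent.S30.H2

end
-- ==== END Fermat.Agent.S30.H2_MapRep

-- ==== BEGIN Fermat.Agent.S30.H2_MatToRep
section

/-!
# S30 wiring, WP G1 (helper2): a continuous `2 × 2` matrix representation is a `GaloisRepAdic`

`stmt_MatToRep : Fermat.Agent.S30.Stmt_MatToRep`, with `V = Fin 2 → R` and `ρ' σ = toLin' (ρ σ)`.
-/

set_option autoImplicit false
set_option linter.style.haveILetI false
set_option linter.unusedSectionVars false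
set_option linter.dupNamespace false

namespace Fermat.Agent.S30.H2

open Fermat.Agent.S30

section

variable {R : Type} [CommRing R]

/-- A vector all of whose coordinates lie in the ideal `I` lies in `I • ⊤`. -/
theorem mem_smul_top_of_forall_mem {r : ℕ} (I : Ideal R) (w : Fin r → R)
    (hw : ∀ i, w i ∈ I) : w ∈ I • (⊤ : Submodule R (Fin r → R)) := by
  classical
  have h1 : w = ∑ i, w i • (Pi.single i (1 : R) : Fin r → R) := by
    ext j
    simp [Finset.sum_apply, Pi.single_apply]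
  rw [h1]
  exact Submodule.sum_mem _ (fun i _ => Submodule.smul_mem_smul (hw i) Submodule.mem_top)

/-- The representation on `Fin r → R` attached to a matrix representation. -/
noncomputable def matToEnd {r : ℕ} (ρ : GQ →* Matrix (Fin r) (Fin r) R) :
    GQ →* Module.End R (Fin r → R) where
  toFun σ := Matrix.toLin' (ρ σ)
  map_one' := by rw [map_one, Matrix.toLin'_one]; rfl
  map_mul' σ τ := by rw [map_mul, Matrix.toLin'_mul]; rfl

theorem matToEnd_apply {r : ℕ} (ρ : GQ →* Matrix (Fin r) (Fin r) R) (σ : GQ) :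
    matToEnd ρ σ = Matrix.toLin' (ρ σ) := rfl

variable [IsLocalRing R]

theorem matToEnd_adicContinuous {r : ℕ} (ρ : GQ →* Matrix (Fin r) (Fin r) R)
    (hρ : MatAdicCont ρ) : GaloisActionIsAdicContinuous R (matToEnd ρ) := by
  intro n
  obtain ⟨L, hL, h⟩ := hρ n
  refine ⟨L, hL, fun σ hσ v => ?_⟩
  apply mem_smul_top_of_forall_mem
  intro i
  have h1 : (matToEnd ρ σ v - v) i = ∑ j, (ρ σ - 1) i j * v j := by
    rw [matToEnd_apply, Pi.sub_apply, Matrix.toLin'_apply, Matrix.mulVec, dotProduct]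
    have h2 : v i = ∑ j, (1 : Matrix (Fin r) (Fin r) R) i j * v j := by
      simp [Matrix.one_apply]
    conv_lhs => rw [h2]
    rw [← Finset.sum_sub_distrib]
    refine Finset.sum_congr rfl (fun j _ => ?_)
    rw [Matrix.sub_apply, sub_mul]
  rw [h1]
  exact Ideal.sum_mem _ (fun j _ => Ideal.mul_mem_right _ _ (h σ hσ i j))

/-- **G1 (MatToRep).** -/
theorem stmt_MatToRep : Stmt_MatToRep := by
  intro R _ _ ρ hρ
  refine ⟨{ V := Fin 2 → R
            finrank_eq := by simp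
            ρ := matToEnd ρ
            isAdicContinuous := matToEnd_adicContinuous ρ hρ }, ?_, ?_⟩
  · intro σ
    exact Matrix.charpoly_toLin' (ρ σ)
  · intro q hq P hP σ hσ
    show matToEnd ρ σ = 1
    rw [matToEnd_apply, hq P hP σ hσ, Matrix.toLin'_one]
    rfl

end

end Fermat.Agent.S30.H2

end
-- ==== END Fermat.Agent.S30.H2_MatToRep

-- ==== BEGIN Fermat.Agent.S34.H91_S30U
section

/-!
# S30U from the Tate piece with unipotent inertia (helper91, cluster R / item 65)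

`Stmt_TatePieceU` is the interface to the geometric package BAD_q (item 65): the Tate piece of
`Fermat.Agent.S30.Stmt_TatePiece` together with

  for every prime `q ∥ N`, `q ≠ p`, and every `σ` in an inertia group over `q`:
  `(ρ σ - 1) ^ 2 = 0`

(semistable reduction of `J₀(N)` at `q`).  Together with the pure-algebra assembly
`Fermat.Agent.S30.Stmt_Assemble` (owner helper29) and the cyclotomic character
(`Fermat.Agent.R.H89.stmt_CycChar`) it gives `Fermat.Agent.R.Stmt_S30U`, which is all that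
`Fermat.Agent.S34.of_S30U` needs.
-/

set_option autoImplicit false

open Polynomial

namespace Fermat.Agent.S34.H91

open Fermat.Agent.S30 Fermat.Agent.R

/-- **Interface to BAD_q (item 65).**  The Tate piece of `Stmt_TatePiece` with, in addition,
inertia at the primes `q ∥ N`, `q ≠ p`, acting unipotently of order `2`. -/
def Stmt_TatePieceU : Prop :=
  ∀ (p : ℕ) [Fact p.Prime] (N : ℕ) [NeZero N] (S : Finset ℕ)
    (_hpS : p ∈ S) (_hNS : ∀ q : ℕ, q.Prime → q ∣ N → q ∈ S)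
    (𝒪' : Type) [CommRing 𝒪'] [IsDomain 𝒪'] [IsDiscreteValuationRing 𝒪']
    [IsAdicComplete (IsLocalRing.maximalIdeal 𝒪') 𝒪'] [Finite (IsLocalRing.ResidueField 𝒪')]
    [CharZero 𝒪'] (_hp𝒪' : (p : 𝒪') ∈ IsLocalRing.maximalIdeal 𝒪')
    (χ : CuspForm.heckeAlgebra N 2 (↑S : Set ℕ) →+* 𝒪'),
    ∃ (r : ℕ) (ρ : GQ →* Matrix (Fin r) (Fin r) 𝒪'), 0 < r ∧ MatAdicCont ρ ∧
      (∀ (ℓ : ℕ) (hℓ : ℓ.Prime) (hℓN : ¬ ℓ ∣ N) (hℓS : ℓ ∉ (↑S : Set ℕ)),
        ∀ A : ValuationSubring (AlgebraicClosure ℚ), A.LiesOverPrime ℓ →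
          ∀ σ : GQ, A.IsFrobeniusAt σ ℓ →
            ρ σ * ρ σ - χ (CuspForm.heckeAlgebra.T hℓ hℓN hℓS) • ρ σ
              + (ℓ : 𝒪') • (1 : Matrix _ _ 𝒪') = 0) ∧
      (∀ q : ℕ, q.Prime → ¬ q ∣ N → q ≠ p → MatUnramAt ρ q) ∧
      (∀ q : ℕ, q.Prime → q ∣ N → ¬ q ^ 2 ∣ N → q ≠ p →
        ∀ P : ValuationSubring (AlgebraicClosure ℚ), P.LiesOverPrime q →
          ∀ σ ∈ P.inertiaSubgroupIn ℚ, (ρ σ - 1) ^ 2 = 0)

/-- The unipotent Tate piece is in particular a Tate piece. -/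
theorem Stmt_TatePieceU.toTatePiece (h : Stmt_TatePieceU) : Stmt_TatePiece := by
  intro p _ N _ S hpS hNS 𝒪' _ _ _ _ _ _ hp χ
  obtain ⟨r, ρ, hr, hc, hES, hun, -⟩ := h p N S hpS hNS 𝒪' hp χ
  exact ⟨r, ρ, hr, hc, hES, hun⟩

/-- **S30U from the unipotent Tate piece and the assembly.** -/
theorem stmt_S30U_of (hT : Stmt_TatePieceU) (hA : Stmt_Assemble) : Stmt_S30U := by
  intro p _ N _ S hpS hNS 𝒪' _ _ _ _ _ _ hp χ
  classical
  obtain ⟨r, ρ, hr, hc, hES, hun, huni⟩ := hT p N S hpS hNS 𝒪' hp χ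
  obtain ⟨ε, hεc, hεcyc, hεun⟩ := Fermat.Agent.R.H89.stmt_CycChar p 𝒪' hp S hpS
  -- the Hecke eigenvalues as a function on `ℕ`
  let a : ℕ → 𝒪' := fun ℓ =>
    if h : ℓ.Prime ∧ ¬ ℓ ∣ N ∧ ℓ ∉ (↑S : Set ℕ) then
      χ (CuspForm.heckeAlgebra.T h.1 h.2.1 h.2.2) else 0
  have ha : ∀ (ℓ : ℕ) (hℓ : ℓ.Prime) (hℓN : ¬ ℓ ∣ N) (hℓS : ℓ ∉ (↑S : Set ℕ)),
      a ℓ = χ (CuspForm.heckeAlgebra.T hℓ hℓN hℓS) := by
    intro ℓ hℓ hℓN hℓS
    simp only [a]
    rw [dif_pos ⟨hℓ, hℓN, hℓS⟩]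
  have hMES : MatES ρ a S := by
    intro ℓ hℓ hℓS A hA' σ hσ
    have hℓN : ¬ ℓ ∣ N := fun hd => hℓS (hNS ℓ hℓ hd)
    have hℓS' : ℓ ∉ (↑S : Set ℕ) := fun hm => hℓS (Finset.mem_coe.mp hm)
    rw [ha ℓ hℓ hℓN hℓS']
    exact hES ℓ hℓ hℓN hℓS' A hA' σ hσ
  obtain ⟨𝒪'', i1, i2, i3, i4, i5, i6, i7, i8, i9, hinj, ρ'', h1, h2, h3⟩ :=
    hA 𝒪' S a r hr ρ ε hc hεc hMES hεcyc
  refine ⟨𝒪'', i1, i2, i3, i4, i5, i6, i7, i8, i9, hinj, ρ'', ?_, ?_, ?_⟩
  · intro ℓ hℓ hℓN hℓS A hA' σ hσ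
    have hℓS' : ℓ ∉ S := fun hm => hℓS (Finset.mem_coe.mpr hm)
    rw [h1 ℓ hℓ hℓS' A hA' σ hσ, ha ℓ hℓ hℓN hℓS]
  · intro q hq hqN hqp P hP σ hσ
    exact h2 σ (hun q hq hqN hqp P hP σ hσ) (hεun q hq hqp P hP σ hσ)
  · intro q hq hqN hq2 hqp P hP σ hσ
    exact h3 σ (huni q hq hqN hq2 hqp P hP σ hσ) (hεun q hq hqp P hP σ hσ)

end Fermat.Agent.S34.H91

end
-- ==== END Fermat.Agent.S34.H91_S30U

-- ==== BEGIN Fermat.Agent.S35.Defs2
section

/-!
# S35 / S36 wiring: structural form of the S30 assembly (helper89; cluster R)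

`Stmt_AssembleS` is the STRUCTURAL form of `Fermat.Agent.S30.Stmt_Assemble`: instead of a list
of transfer clauses it says where the `2 × 2` representation `ρ₂` comes from:

* either `ρ₂` is a subrepresentation of `ρ ⊗ 𝒪''` (intertwiner `P` with retraction `Q`),
* or `ρ₂ = ψ ⊕ ε ψ⁻¹` for a character `ψ` carried by a stable line of `ρ ⊗ 𝒪''`;

in both cases `det ρ₂ = ε`.  Every transfer clause (Frobenius characteristic polynomials,
unramified, unipotent, Steinberg, no inertia invariants) follows from this by pure algebra: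
see `Fermat/Agent/S35/H89_Transfer.lean`.
-/

set_option autoImplicit false

open Polynomial

namespace Fermat.Agent.S35

open Fermat.Agent.S30

/-- **Structural assembly.** -/
def Stmt_AssembleS : Prop :=
  ∀ (𝒪 : Type) [CommRing 𝒪] [IsDomain 𝒪] [IsDiscreteValuationRing 𝒪]
    [IsAdicComplete (IsLocalRing.maximalIdeal 𝒪) 𝒪] [Finite (IsLocalRing.ResidueField 𝒪)]
    [CharZero 𝒪]
    (S : Finset ℕ) (a : ℕ → 𝒪) (r : ℕ) (_hr : 0 < r) (ρ : GQ →* Matrix (Fin r) (Fin r) 𝒪)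
    (ε : GQ →* 𝒪ˣ), MatAdicCont ρ → CharAdicCont ε → MatES ρ a S → CharCycAt ε S →
    ∃ (𝒪'' : Type) (_ : CommRing 𝒪'') (_ : IsDomain 𝒪'') (_ : IsDiscreteValuationRing 𝒪'')
      (_ : IsAdicComplete (IsLocalRing.maximalIdeal 𝒪'') 𝒪'')
      (_ : Finite (IsLocalRing.ResidueField 𝒪'')) (_ : CharZero 𝒪'')
      (_ : Algebra 𝒪 𝒪'') (_ : Module.Finite 𝒪 𝒪'') (_ : IsLocalHom (algebraMap 𝒪 𝒪'')),
      Function.Injective (algebraMap 𝒪 𝒪'') ∧
      ∃ ρ₂ : GQ →* Matrix (Fin 2) (Fin 2) 𝒪'', MatAdicCont ρ₂ ∧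
        (∀ g : GQ, (ρ₂ g).det = algebraMap 𝒪 𝒪'' (ε g : 𝒪)) ∧
        ((∃ (P : Matrix (Fin r) (Fin 2) 𝒪'') (Q : Matrix (Fin 2) (Fin r) 𝒪''),
            Q * P = 1 ∧ ∀ g : GQ, (ρ g).map (algebraMap 𝒪 𝒪'') * P = P * ρ₂ g) ∨
         (∃ (ψ : GQ →* 𝒪''ˣ) (v : Fin r → 𝒪''), v ≠ 0 ∧
            (∀ g : GQ, ((ρ g).map (algebraMap 𝒪 𝒪'')).mulVec v = (ψ g : 𝒪'') • v) ∧
            ∀ g : GQ, ρ₂ g =
              Matrix.diagonal ![(ψ g : 𝒪''),
                algebraMap 𝒪 𝒪'' (ε g : 𝒪) * (((ψ g)⁻¹ : 𝒪''ˣ) : 𝒪'')]))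

end Fermat.Agent.S35

end
-- ==== END Fermat.Agent.S35.Defs2
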