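-- GENERATED (merged mirror, NOTES/tools/trim/merge3_helper67.py): 10 modules of the originals, bodies verbatim.
import Mathlib
import Mathlib.RingTheory.Polynomial.IsIntegral
import Mathlib.Algebra.Polynomial.Lifts
import Fermat.Prelude.Thm_CongruenceSubgroup_one_mem_strictPeriods_Gamma0
import Mathlib.NumberTheory.ModularForms.LevelOne.Basic
import Mathlib.RingTheory.PowerSeries.Expand
import Fermat.Prelude.Def_ModularCurve_PeriodMap
import Fermat.Prelude.Def_ModularCurve_ModularUnit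
import Fermat.Agent.Zm.S35_L02_002
import Fermat.Agent.RED.H73_GAIrr
import Fermat.Agent.Zm.S35_L02_005
import Fermat.Agent.Zm.S35_L02_003
import Fermat.Agent.Lib.TorsionGen.Final
import Fermat.Agent.Zm.S35_L01_003
import Fermat.Agent.S16.H15_RhoAlg
import Fermat.Agent.S23.H96_LevelOne
import Fermat.Agent.Zm.S35_L02_000

-- ==== BEGIN Fermat.Agent.RED.H51_Core
section

/-!
# FF-B, piece P3 (helper51): the core independence lemma

Let `w k` (`k : ι`, finite) be places of `F'` and `e k : ℕ`.  A *local basis* is a family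
`y ⟨k, a⟩` (`a < e k`) of elements of `F'` with `w k (y ⟨k, a⟩) = a` and
`w j (y ⟨k, a⟩) ≥ e j` for `j ≠ k`.  It exists if the `w k` are pairwise distinct (weak
approximation).  If `E` is a subfield such that the orders of its elements at the `w j` are
`e j * m` for a common `m` (`Compat`), then a local basis is linearly independent over `E`, and
the order of a linear combination is computed by its coefficients (`coords`).
-/

set_option autoImplicit false
set_option linter.style.haveILetI false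

noncomputable section

open AlgebraicCurve

namespace Fermat.Agent.RED.H51

variable {K F' : Type*} [Field K] [Field F'] [Algebra K F']
variable {ι : Type*} [Fintype ι] (w : ι → Place K F') (e : ι → ℕ)

/-- A family of functions with prescribed orders at the places `w k`. -/
structure LocalBasis (y : (Σ k : ι, Fin (e k)) → F') : Prop where
  ne_zero : ∀ i, y i ≠ 0
  ord_self : ∀ i, (w i.1).ord (y i) = ((i.2 : ℕ) : ℤ)
  ordGe_other : ∀ i j, j ≠ i.1 → OrdGe (w j) (e j) (y i)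

/-- Local bases exist for pairwise distinct places. -/
theorem exists_localBasis (hw : Function.Injective w) :
    ∃ y : (Σ k : ι, Fin (e k)) → F', LocalBasis w e y := by
  classical
  have hex : ∀ i : (Σ k : ι, Fin (e k)), ∃ z : F', z ≠ 0 ∧
      (w i.1).ord z = ((i.2 : ℕ) : ℤ) ∧ ∀ j, j ≠ i.1 → OrdGe (w j) (e j) z := by
    intro i
    obtain ⟨t, ht0, ht⟩ := exists_ord_eq (w i.1) ((i.2 : ℕ) : ℤ)
    set N : ℤ := ((i.2 : ℕ) : ℤ) + 1 + ∑ j, (e j : ℤ) with hN
    obtain ⟨z, hz⟩ := exists_approx_family w hw (fun j => if j = i.1 then t else 0) N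
    have hsum : ∀ j, (e j : ℤ) ≤ ∑ j', (e j' : ℤ) := fun j =>
      Finset.single_le_sum (f := fun j' : ι => (e j' : ℤ))
        (fun _ _ => Int.natCast_nonneg _) (Finset.mem_univ j)
    have hpos : (0 : ℤ) ≤ ∑ j', (e j' : ℤ) :=
      Finset.sum_nonneg fun _ _ => Int.natCast_nonneg _
    have h1 := hz i.1
    rw [if_pos rfl] at h1
    have h2 := ord_add_eq (w i.1) ht0 (g := z - t) (h1.mono (by rw [ht]; omega))
    rw [add_sub_cancel] at h2
    refine ⟨z, h2.1, h2.2.trans ht, fun j hj => ?_⟩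
    have h3 := hz j
    rw [if_neg hj, sub_zero] at h3
    exact h3.mono (by have := hsum j; have := Int.natCast_nonneg (i.2 : ℕ); omega)
  choose y hy0 hy1 hy2 using hex
  exact ⟨y, ⟨hy0, hy1, hy2⟩⟩

variable {w e}

/-- The core computation: a combination of a local basis with coefficients that are either
units at all `w j` or divisible (order `≥ e j` at all `w j`), not all divisible, has order
`a < e k` at some `w k`; in particular it is not zero. -/
theorem core {y : (Σ k : ι, Fin (e k)) → F'} (hy : LocalBasis w e y)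
    (c : (Σ k : ι, Fin (e k)) → F')
    (hc : ∀ i, (c i ≠ 0 ∧ ∀ j, (w j).ord (c i) = 0) ∨ (∀ j, OrdGe (w j) (e j) (c i)))
    (hc1 : ∃ i, c i ≠ 0 ∧ ∀ j, (w j).ord (c i) = 0) :
    ∃ i : (Σ k : ι, Fin (e k)), (∑ i', c i' * y i') ≠ 0 ∧
      (w i.1).ord (∑ i', c i' * y i') = ((i.2 : ℕ) : ℤ) := by
  classical
  obtain ⟨⟨k, a₁⟩, ha₁⟩ := hc1
  -- the minimal `a` with `c ⟨k, a⟩` a unit
  let P : ℕ → Prop := fun a => ∃ h : a < e k, (c ⟨k, ⟨a, h⟩⟩ ≠ 0 ∧
    ∀ j, (w j).ord (c ⟨k, ⟨a, h⟩⟩) = 0)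
  have hP : ∃ a, P a := ⟨a₁, a₁.2, ha₁⟩
  obtain ⟨ha₀lt, ha₀⟩ := Nat.find_spec hP
  set a₀ : ℕ := Nat.find hP with ha₀def
  have hmin : ∀ b, b < a₀ → ¬ P b := fun b hb => Nat.find_min hP hb
  set i₀ : (Σ k : ι, Fin (e k)) := ⟨k, ⟨a₀, ha₀lt⟩⟩ with hi₀
  refine ⟨i₀, ?_⟩
  have hterm0 : c i₀ * y i₀ ≠ 0 := mul_ne_zero ha₀.1 (hy.ne_zero i₀)
  have hterm : (w k).ord (c i₀ * y i₀) = (a₀ : ℤ) := by
    rw [(w k).ord_mul ha₀.1 (hy.ne_zero i₀), ha₀.2 k, zero_add]
    exact hy.ord_self i₀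
  -- every coefficient is integral at `w k`
  have hc0 : ∀ i, OrdGe (w k) 0 (c i) := by
    intro i
    rcases hc i with h | h
    · exact Or.inr (h.2 k).ge
    · exact (h k).mono (Int.natCast_nonneg _)
  have hrest : OrdGe (w k) ((a₀ : ℤ) + 1) (∑ i ∈ Finset.univ.erase i₀, c i * y i) := by
    refine ordGe_sum _ _ _ _ fun i hi => ?_
    have hne : i ≠ i₀ := Finset.ne_of_mem_erase hi
    obtain ⟨j, b⟩ := i
    by_cases hjk : j = k
    · subst hjk
      have hba : (b : ℕ) ≠ a₀ := by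
        intro h
        apply hne
        rw [hi₀]
        congr 1
        exact Fin.ext h
      have hyb : OrdGe (w j) ((b : ℕ) : ℤ) (y ⟨j, b⟩) := Or.inr (hy.ord_self ⟨j, b⟩).ge
      rcases lt_or_gt_of_ne hba with hlt | hgt
      · -- `b < a₀`: the coefficient is divisible
        have hdiv : OrdGe (w j) (e j) (c ⟨j, b⟩) := by
          rcases hc ⟨j, b⟩ with h | h
          · exact absurd ⟨b.2, h⟩ (hmin b hlt)
          · exact h j
        have := hdiv.mul hyb
        exact this.mono (by have := Int.natCast_nonneg (b : ℕ); omega)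
      · have := (hc0 ⟨j, b⟩).mul hyb
        exact this.mono (by omega)
    · have hyj : OrdGe (w k) (e k) (y ⟨j, b⟩) :=
        hy.ordGe_other ⟨j, b⟩ k (fun h => hjk h.symm)
      have := (hc0 ⟨j, b⟩).mul hyj
      exact this.mono (by omega)
  have hsplit : ∑ i', c i' * y i' = c i₀ * y i₀ + ∑ i ∈ Finset.univ.erase i₀, c i * y i :=
    (Finset.add_sum_erase Finset.univ (fun i => c i * y i) (Finset.mem_univ i₀)).symm
  rw [hsplit]
  have key := ord_add_eq (w k) hterm0 (g := ∑ i ∈ Finset.univ.erase i₀, c i * y i)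
    (by rw [hterm]; exact hrest)
  exact ⟨key.1, key.2.trans hterm⟩

section Base

variable {E : Type*} [Field E] [Algebra E F']

variable (E w e) in
/-- The orders at the `w j` of an element of the subfield `E` are `e j * m` with a common `m`,
and `m = 1` occurs. -/
def Compat : Prop :=
  (∃ t : E, t ≠ 0 ∧ ∀ j, (w j).ord (algebraMap E F' t) = (e j : ℤ)) ∧
    ∀ c : E, c ≠ 0 → ∃ m : ℤ, ∀ j, (w j).ord (algebraMap E F' c) = (e j : ℤ) * m

/-- The order of a linear combination of a local basis with coefficients in `E`: if `m` is the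
minimal normalized order of the coefficients, the combination has order `a + e k * m` at some
`w k`, with `a < e k`. -/
theorem coords (H : Compat w e E) {y : (Σ k : ι, Fin (e k)) → F'} (hy : LocalBasis w e y)
    (g : (Σ k : ι, Fin (e k)) → E) (m : ℤ)
    (hg : ∀ i, g i = 0 ∨ ∃ m' : ℤ, m ≤ m' ∧
      ∀ j, (w j).ord (algebraMap E F' (g i)) = (e j : ℤ) * m')
    (hg1 : ∃ i, g i ≠ 0 ∧ ∀ j, (w j).ord (algebraMap E F' (g i)) = (e j : ℤ) * m) :
    ∃ i : (Σ k : ι, Fin (e k)), (∑ i', g i' • y i') ≠ 0 ∧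
      (w i.1).ord (∑ i', g i' • y i') = ((i.2 : ℕ) : ℤ) + (e i.1 : ℤ) * m := by
  obtain ⟨⟨t, ht0, ht⟩, -⟩ := H
  set τ : F' := algebraMap E F' t with hτ
  have hτ0 : τ ≠ 0 := by
    rw [hτ]
    exact (map_ne_zero (algebraMap E F')).mpr ht0
  have hτm0 : τ ^ (-m) ≠ 0 := zpow_ne_zero _ hτ0
  have hτm : ∀ j, (w j).ord (τ ^ (-m)) = -((e j : ℤ) * m) := fun j => by
    rw [(w j).ord_zpow, ht j]
    ring
  -- the normalized coefficients
  set c : (Σ k : ι, Fin (e k)) → F' := fun i => τ ^ (-m) * algebraMap E F' (g i) with hcdef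
  have hc : ∀ i, (c i ≠ 0 ∧ ∀ j, (w j).ord (c i) = 0) ∨ (∀ j, OrdGe (w j) (e j) (c i)) := by
    intro i
    rcases hg i with h0 | ⟨m', hm', hord⟩
    · right
      intro j
      simp only [hcdef, h0, map_zero, mul_zero]
      exact ordGe_zero _ _
    · rcases eq_or_ne (g i) 0 with h0 | h0
      · right
        intro j
        simp only [hcdef, h0, map_zero, mul_zero]
        exact ordGe_zero _ _
      have hgi0 : algebraMap E F' (g i) ≠ 0 := (map_ne_zero (algebraMap E F')).mpr h0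
      have hci : ∀ j, (w j).ord (c i) = (e j : ℤ) * (m' - m) := fun j => by
        simp only [hcdef]
        rw [(w j).ord_mul hτm0 hgi0, hτm j, hord j]
        ring
      rcases eq_or_lt_of_le hm' with heq | hlt
      · left
        refine ⟨mul_ne_zero hτm0 hgi0, fun j => ?_⟩
        rw [hci j, ← heq, sub_self, mul_zero]
      · right
        intro j
        refine Or.inr ?_
        rw [hci j]
        have h1 : (1 : ℤ) ≤ m' - m := by omega
        have := mul_le_mul_of_nonneg_left h1 (Int.natCast_nonneg (e j))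
        linarith
  have hc1 : ∃ i, c i ≠ 0 ∧ ∀ j, (w j).ord (c i) = 0 := by
    obtain ⟨i, hi0, hi⟩ := hg1
    have hgi0 : algebraMap E F' (g i) ≠ 0 := (map_ne_zero (algebraMap E F')).mpr hi0
    refine ⟨i, mul_ne_zero hτm0 hgi0, fun j => ?_⟩
    simp only [hcdef]
    rw [(w j).ord_mul hτm0 hgi0, hτm j, hi j]
    ring
  obtain ⟨i, hne, hord⟩ := core hy c hc hc1
  have hsum : ∑ i', c i' * y i' = τ ^ (-m) * ∑ i', g i' • y i' := by
    rw [Finset.mul_sum]
    refine Finset.sum_congr rfl fun i' _ => ?_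
    simp only [hcdef]
    rw [Algebra.smul_def, mul_assoc]
  rw [hsum] at hne hord
  have hz0 : (∑ i', g i' • y i') ≠ 0 := right_ne_zero_of_mul hne
  refine ⟨i, hz0, ?_⟩
  rw [(w i.1).ord_mul hτm0 hz0, hτm] at hord
  omega

/-- A nonzero family of coefficients has a minimal normalized order. -/
theorem exists_min_order (H : Compat w e E) (g : (Σ k : ι, Fin (e k)) → E)
    (hg0 : ∃ i, g i ≠ 0) :
    ∃ m : ℤ, (∀ i, g i = 0 ∨ ∃ m' : ℤ, m ≤ m' ∧
        ∀ j, (w j).ord (algebraMap E F' (g i)) = (e j : ℤ) * m') ∧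
      ∃ i, g i ≠ 0 ∧ ∀ j, (w j).ord (algebraMap E F' (g i)) = (e j : ℤ) * m := by
  classical
  have hex : ∀ i, ∃ m : ℤ, g i ≠ 0 →
      ∀ j, (w j).ord (algebraMap E F' (g i)) = (e j : ℤ) * m := by
    intro i
    by_cases h : g i = 0
    · exact ⟨0, fun h' => absurd h h'⟩
    · obtain ⟨m, hm⟩ := H.2 (g i) h
      exact ⟨m, fun _ => hm⟩
  choose μ hμ using hex
  obtain ⟨i₁, hi₁⟩ := hg0
  have hne : (Finset.univ.filter fun i => g i ≠ 0).Nonempty :=
    ⟨i₁, Finset.mem_filter.mpr ⟨Finset.mem_univ _, hi₁⟩⟩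
  obtain ⟨i₀, hi₀mem, hi₀⟩ := Finset.exists_min_image _ μ hne
  have hi₀ne : g i₀ ≠ 0 := (Finset.mem_filter.mp hi₀mem).2
  refine ⟨μ i₀, fun i => ?_, i₀, hi₀ne, hμ i₀ hi₀ne⟩
  by_cases h : g i = 0
  · exact Or.inl h
  · exact Or.inr ⟨μ i, hi₀ i (Finset.mem_filter.mpr ⟨Finset.mem_univ _, h⟩), hμ i h⟩

/-- A local basis is linearly independent over a compatible subfield. -/
theorem linearIndependent_localBasis (H : Compat w e E) {y : (Σ k : ι, Fin (e k)) → F'}
    (hy : LocalBasis w e y) : LinearIndependent E y := by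
  rw [Fintype.linearIndependent_iff]
  intro g hg
  by_contra hcon
  push Not at hcon
  obtain ⟨m, hm, hm1⟩ := exists_min_order H g hcon
  obtain ⟨i, hne, -⟩ := coords H hy g m hm hm1
  exact hne hg

/-- The sum of the `e k` is at most the degree. -/
theorem sum_le_finrank [Module.Finite E F'] (H : Compat w e E) (hw : Function.Injective w) :
    ∑ k, e k ≤ Module.finrank E F' := by
  obtain ⟨y, hy⟩ := exists_localBasis w e hw
  have := (linearIndependent_localBasis H hy).fintype_card_le_finrank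
  rwa [Fintype.card_sigma, Finset.sum_congr rfl fun k _ => Fintype.card_fin (e k)] at this

end Base

end Fermat.Agent.RED.H51

end
end
-- ==== END Fermat.Agent.RED.H51_Core

-- ==== BEGIN Fermat.Agent.RED.H73_GAConj
section

/-!
# G-RED package GA (helper73): conjugates with a single pole, over ANY field

`K` an infinite field, `J, U q ∈ K((t))` (`q ∈ Q` finite), `u = U q₀`.  Hypotheses `ConjHyp`:
`J` and `u` have a pole, the other `U q` are nonzero of positive order, and all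
`∏_q (c - U q)` (`c ∈ K`) are polynomials in `J`.  Then

* `chiR` : `χ_u = ∏_q (X - U q)` as a monic polynomial over `R = K[J] = Algebra.adjoin K {J}`;
* `minpoly_eq_chiR` : `χ_u` IS the minimal polynomial of `u` over `K[J]` (irreducibility);
* `natDegree_minpoly` : its degree is `card Q`;
* `aeval_ne_zero_of_natDegree_lt` : no nonzero polynomial of `X`-degree `< card Q` over `K[J]`
  kills `u`.

The hypotheses hold over `ℂ`/`ℚ̄` (from S28 `CoreHyp`) AND over the residue field (reduction of the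
conjugates), which is what gives `[F~ : k(j~)] = [F : K(j)]`.
-/

set_option autoImplicit false

open Polynomial ModularCurve Fermat.Agent.S28 Fermat.Agent.S28.H73 Fermat.Agent.S28.H90

noncomputable section

namespace Fermat.Agent.RED.H73

/-- Conjugates of a function `u = U q₀` whose only pole (among its conjugates) is at the place
`t = 0`. -/
structure ConjHyp {K : Type} [Field K] {Q : Type} [Fintype Q] (q₀ : Q)
    (J : LaurentSeries K) (U : Q → LaurentSeries K) : Prop where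
  J_order : J.order < 0
  U_order₀ : (U q₀).order < 0
  U_ne : ∀ q, U q ≠ 0
  U_order_pos : ∀ q, q ≠ q₀ → 0 < (U q).order
  sym : ∀ c : K, (∏ q, (HahnSeries.C c - U q)) ∈ Algebra.adjoin K ({J} : Set (LaurentSeries K))

/-- The conjugate data of the S28 core give `ConjHyp`. -/
theorem ConjHyp.of_coreHyp {C : Type} [Field C] {O : ValuationSubring C} {Q : Type} [Fintype Q]
    {q₀ : Q} {J : LaurentSeries C} {U : Q → LaurentSeries C} {nJ D : ℕ}
    (h : CoreHyp O q₀ J U nJ D) : ConjHyp q₀ J U where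
  J_order := by
    rw [h.J_order]
    have := h.nJ_pos
    omega
  U_order₀ := by
    rw [h.U_order₀]
    have h1 := h.nJ_pos
    have h2 := h.D_pos
    have : (0 : ℤ) < (D : ℤ) * (nJ : ℤ) := by positivity
    omega
  U_ne := fun q => (h.U_unitLead q).2.1
  U_order_pos := h.U_order_pos
  sym := h.sym

section

variable {K : Type} [Field K] {Q : Type} [Fintype Q] {q₀ : Q}
  {J : LaurentSeries K} {U : Q → LaurentSeries K}

theorem ConjHyp.one_lt_tVal_J (h : ConjHyp q₀ J U) : 1 < _root_.Fermat.Agent.S28.H90.tVal K J :=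
  one_lt_tVal_of_order_neg h.J_order

theorem ConjHyp.aeval_J_injective (h : ConjHyp q₀ J U) :
    Function.Injective (aeval J : K[X] →ₐ[K] LaurentSeries K) := by
  rw [injective_iff_map_eq_zero]
  intro p hp
  by_contra hne
  exact H73.aeval_ne_zero_of_one_lt (_root_.Fermat.Agent.S28.H90.tVal K) (fun _ hc => _root_.Fermat.Agent.S28.H90.tVal_algebraMap hc) h.one_lt_tVal_J p
    hne hp

theorem ConjHyp.U_ne_u (h : ConjHyp q₀ J U) (q : Q) (hq : q ≠ q₀) : U q ≠ U q₀ := by
  intro e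
  have h1 := h.U_order_pos q hq
  have h2 := h.U_order₀
  rw [e] at h1
  omega

/-- `K[J]` is integrally closed. -/
theorem ConjHyp.isIntegrallyClosed (h : ConjHyp q₀ J U) :
    IsIntegrallyClosed ↥(Algebra.adjoin K ({J} : Set (LaurentSeries K))) := by
  let e1 : K[X] ≃ₐ[K] ↥(aeval J : K[X] →ₐ[K] LaurentSeries K).range :=
    AlgEquiv.ofInjective _ h.aeval_J_injective
  let e2 : ↥(aeval J : K[X] →ₐ[K] LaurentSeries K).range ≃ₐ[K]
      ↥(Algebra.adjoin K ({J} : Set (LaurentSeries K))) :=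
    Subalgebra.equivOfEq _ _ (Algebra.adjoin_singleton_eq_range_aeval K J).symm
  exact IsIntegrallyClosed.of_equiv (e1.trans e2).toRingEquiv

theorem ConjHyp.one_le_tVal (h : ConjHyp q₀ J U)
    (r : ↥(Algebra.adjoin K ({J} : Set (LaurentSeries K)))) (hr : r ≠ 0) :
    1 ≤ _root_.Fermat.Agent.S28.H90.tVal K (algebraMap ↥(Algebra.adjoin K ({J} : Set (LaurentSeries K)))
      (LaurentSeries K) r) := by
  have hmem : (r : LaurentSeries K) ∈ (aeval J : K[X] →ₐ[K] LaurentSeries K).range := by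
    rw [← Algebra.adjoin_singleton_eq_range_aeval]
    exact r.2
  obtain ⟨p, hp⟩ := hmem
  have hp' : aeval J p = (r : LaurentSeries K) := hp
  have hp0 : p ≠ 0 := by
    rintro rfl
    apply hr
    apply Subtype.ext
    rw [← hp', map_zero]
    rfl
  show 1 ≤ _root_.Fermat.Agent.S28.H90.tVal K (r : LaurentSeries K)
  rw [← hp', H73.valuation_aeval_eq_pow (_root_.Fermat.Agent.S28.H90.tVal K) (fun _ hc => _root_.Fermat.Agent.S28.H90.tVal_algebraMap hc)
    h.one_lt_tVal_J p hp0]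
  exact one_le_pow₀ h.one_lt_tVal_J.le

variable [Infinite K]

theorem ConjHyp.chi_coeff_mem (h : ConjHyp q₀ J U) (k : ℕ) :
    (chi U).coeff k ∈ Algebra.adjoin K ({J} : Set (LaurentSeries K)) := by
  have := coeff_mem_of_eval_mem (C := K)
    (Subalgebra.toSubmodule (Algebra.adjoin K ({J} : Set (LaurentSeries K)))) (chi U)
    (fun c => by
      rw [chi_eval, LaurentSeries.algebraMap_apply]
      exact h.sym c) k
  exact this

theorem ConjHyp.exists_chiR (h : ConjHyp q₀ J U) :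
    ∃ P : (↥(Algebra.adjoin K ({J} : Set (LaurentSeries K))))[X],
      P.map (algebraMap _ (LaurentSeries K)) = chi U ∧ P.natDegree = Fintype.card Q ∧
        P.Monic := by
  have hl : chi U ∈ Polynomial.lifts
      (algebraMap ↥(Algebra.adjoin K ({J} : Set (LaurentSeries K))) (LaurentSeries K)) := by
    rw [Polynomial.lifts_iff_coeff_lifts]
    intro n
    exact ⟨⟨_, h.chi_coeff_mem n⟩, rfl⟩
  obtain ⟨P, hP, hdeg, hm⟩ := Polynomial.lifts_and_natDegree_eq_and_monic hl (chi_monic U)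
  exact ⟨P, hP, by rw [hdeg, chi_natDegree], hm⟩

/-- `χ_u` as a polynomial over `K[J]`. -/
def ConjHyp.chiR (h : ConjHyp q₀ J U) :
    (↥(Algebra.adjoin K ({J} : Set (LaurentSeries K))))[X] :=
  h.exists_chiR.choose

theorem ConjHyp.map_chiR (h : ConjHyp q₀ J U) :
    h.chiR.map (algebraMap _ (LaurentSeries K)) = chi U := h.exists_chiR.choose_spec.1

theorem ConjHyp.natDegree_chiR (h : ConjHyp q₀ J U) : h.chiR.natDegree = Fintype.card Q :=
  h.exists_chiR.choose_spec.2.1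

theorem ConjHyp.monic_chiR (h : ConjHyp q₀ J U) : h.chiR.Monic := h.exists_chiR.choose_spec.2.2

/-- **Irreducibility**: `χ_u` is the minimal polynomial of `u` over `K[J]`. -/
theorem ConjHyp.minpoly_eq_chiR (h : ConjHyp q₀ J U) :
    minpoly ↥(Algebra.adjoin K ({J} : Set (LaurentSeries K))) (U q₀) = h.chiR := by
  have := h.isIntegrallyClosed
  refine minpoly_eq_of_roots (_root_.Fermat.Agent.S28.H90.tVal K) h.one_le_tVal U q₀ (fun q _ => h.U_ne q)
    (fun q hq => tVal_lt_one_of_order_pos (h.U_order_pos q hq)) h.U_ne_u h.chiR h.monic_chiR ?_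
  rw [h.map_chiR]
  rfl

theorem ConjHyp.isIntegral_u (h : ConjHyp q₀ J U) :
    IsIntegral ↥(Algebra.adjoin K ({J} : Set (LaurentSeries K))) (U q₀) := by
  refine ⟨h.chiR, h.monic_chiR, ?_⟩
  rw [← aeval_def, aeval_def, ← eval_map, h.map_chiR]
  exact chi_eval_self U q₀

theorem ConjHyp.natDegree_minpoly (h : ConjHyp q₀ J U) :
    (minpoly ↥(Algebra.adjoin K ({J} : Set (LaurentSeries K))) (U q₀)).natDegree
      = Fintype.card Q := by
  rw [h.minpoly_eq_chiR, h.natDegree_chiR]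

/-- **Degree**: no nonzero polynomial over `K[J]` of degree `< card Q` kills `u`. -/
theorem ConjHyp.aeval_ne_zero_of_natDegree_lt (h : ConjHyp q₀ J U)
    (a : (↥(Algebra.adjoin K ({J} : Set (LaurentSeries K))))[X]) (ha : a ≠ 0)
    (hdeg : a.natDegree < Fintype.card Q) : aeval (U q₀) a ≠ 0 := by
  have := h.isIntegrallyClosed
  intro h0
  have hdvd := minpoly.isIntegrallyClosed_dvd h.isIntegral_u h0
  have := Polynomial.natDegree_le_of_dvd hdvd ha
  rw [h.natDegree_minpoly] at this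
  omega

end

end Fermat.Agent.RED.H73

end
end
-- ==== END Fermat.Agent.RED.H73_GAConj

-- ==== BEGIN Fermat.Agent.RED.H73_GASwap
section

/-!
# G-RED package GA (helper73): the symmetric-function hypothesis is symmetric in `U` and `X`

If `∏_q (c - U q - s X q) ∈ A` for all constants `c, s`, then
`∏_q (a - b U q - c X q) ∈ A` for all constants `a, b, c` (homogeneity + interpolation), hence the
Lagrange lemma of helper92 also holds with the roles of `U` and `X` exchanged: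
`U q₀ ∈ E` as soon as `X q₀ ∈ E` and `X q ≠ X q₀` for `q ≠ q₀`.
-/

set_option autoImplicit false

namespace Fermat.Agent.RED.H73

open Polynomial Fermat.Agent.S28.H92

/-- The three-parameter form of the symmetric-function hypothesis. -/
theorem sym_three {F L : Type*} [Field F] [Infinite F] [Field L] [Algebra F L]
    {Q : Type*} [Fintype Q] (A : Subalgebra F L) (U Y : Q → L)
    (hsym : ∀ c s : F, (∏ q, (algebraMap F L c - U q - algebraMap F L s * Y q)) ∈ A)
    (a b c : F) :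
    (∏ q, (algebraMap F L a - algebraMap F L b * U q - algebraMap F L c * Y q)) ∈ A := by
  classical
  -- the case `b ≠ 0`
  have hne : ∀ b : F, b ≠ 0 →
      (∏ q, (algebraMap F L a - algebraMap F L b * U q - algebraMap F L c * Y q)) ∈ A := by
    intro b hb
    have hb' : algebraMap F L b ≠ 0 := fun h0 => hb ((map_eq_zero _).1 h0)
    have e : (∏ q, (algebraMap F L a - algebraMap F L b * U q - algebraMap F L c * Y q))
        = algebraMap F L (b ^ Fintype.card Q) *
          ∏ q, (algebraMap F L (a / b) - U q - algebraMap F L (c / b) * Y q) := by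
      rw [map_pow, ← Finset.card_univ, ← Finset.prod_const, ← Finset.prod_mul_distrib]
      refine Finset.prod_congr rfl fun q _ => ?_
      rw [map_div₀, map_div₀]
      field_simp
    rw [e]
    exact A.mul_mem (A.algebraMap_mem _) (hsym _ _)
  -- interpolation in `b`
  set P : L[X] := ∏ q, (C (algebraMap F L a) - X * C (U q) - C (algebraMap F L c * Y q)) with hP
  have hPeval : ∀ b : F, P.eval (algebraMap F L b)
      = ∏ q, (algebraMap F L a - algebraMap F L b * U q - algebraMap F L c * Y q) := by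
    intro b
    rw [hP, eval_prod]
    refine Finset.prod_congr rfl fun q _ => ?_
    simp only [eval_sub, eval_mul, eval_C, eval_X]
  have hcoeff : ∀ k, P.coeff k ∈ A := by
    intro k
    have h1 : ∀ k, (X * P).coeff k ∈ A := by
      intro k
      refine coeff_mem_of_forall_eval_mem (Subalgebra.toSubmodule A) _ (fun b => ?_) k
      rw [eval_mul, eval_X, hPeval]
      by_cases hb : b = 0
      · rw [hb, map_zero, zero_mul]
        exact A.zero_mem
      · exact A.mul_mem (A.algebraMap_mem _) (hne b hb)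
    have := h1 (k + 1)
    rwa [coeff_X_mul] at this
  rw [← hPeval, eval_eq_sum_range]
  refine A.sum_mem fun k _ => A.mul_mem (hcoeff k) ?_
  rw [← map_pow]
  exact A.algebraMap_mem _

/-- The symmetric-function hypothesis with the roles of `U` and `Y` exchanged. -/
theorem sym_swap {F L : Type*} [Field F] [Infinite F] [Field L] [Algebra F L]
    {Q : Type*} [Fintype Q] (A : Subalgebra F L) (U Y : Q → L)
    (hsym : ∀ c s : F, (∏ q, (algebraMap F L c - U q - algebraMap F L s * Y q)) ∈ A)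
    (c s : F) :
    (∏ q, (algebraMap F L c - Y q - algebraMap F L s * U q)) ∈ A := by
  have h := sym_three A U Y hsym c s 1
  have e : (∏ q, (algebraMap F L c - Y q - algebraMap F L s * U q))
      = ∏ q, (algebraMap F L c - algebraMap F L s * U q - algebraMap F L 1 * Y q) :=
    Finset.prod_congr rfl fun q _ => by rw [map_one, one_mul]; ring
  rw [e]
  exact h

/-- **Lagrange, exchanged roles**: `U q₀ ∈ E` if `Y q₀ ∈ E` and `Y q ≠ Y q₀` for `q ≠ q₀`. -/
theorem lagrange_swap {F L : Type*} [Field F] [Infinite F] [Field L] [Algebra F L]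
    {Q : Type*} [Fintype Q] (q₀ : Q) (A : Subalgebra F L) (E : IntermediateField F L)
    (hAE : ∀ a ∈ A, a ∈ E) (U Y : Q → L) (hY₀ : Y q₀ ∈ E)
    (hY : ∀ q, q ≠ q₀ → Y q ≠ Y q₀)
    (hsym : ∀ c s : F, (∏ q, (algebraMap F L c - U q - algebraMap F L s * Y q)) ∈ A) :
    U q₀ ∈ E :=
  lagrange_abstract q₀ A E hAE Y U hY₀ hY (sym_swap A U Y hsym)

end Fermat.Agent.RED.H73

end
-- ==== END Fermat.Agent.RED.H73_GASwap

-- ==== BEGIN Fermat.Agent.RED.H76_RHInL
section

/-!
# RH-R (helper76), part I a: the spaces `L(m (x)_∞)` as predicates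

`P` is the pole divisor of `x` (`exp (P v) = max 1 |x|_v`).  `InL P m f` says
`f ∈ L(m • P)`, for an integer `m`.  Closure properties, polynomials in `x`, and the division
lemma: if `t h ∈ L(m P)`, `h` is regular outside the poles of `x` and `|t|_v = |x|_v ^ k` at the
poles, then `h ∈ L((m - k) P)`.
-/

set_option autoImplicit false

noncomputable section

open AlgebraicCurve WithZero Polynomial

namespace Fermat.Agent.RED.H76

open Fermat.Agent.RED.H42

variable {K F : Type*} [Field K] [Field F] [Algebra K F]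

local notation "L" => riemannRochSpace

/-- `f ∈ L(m • P)`. -/
def InL (P : Divisor K F) (m : ℤ) (f : F) : Prop :=
  ∀ v : Place K F, v.adicValuation f ≤ exp (m * P v)

/-- `P` is the pole divisor of `x`. -/
def IsPoleDiv (P : Divisor K F) (x : F) : Prop :=
  ∀ v : Place K F, exp (P v) = max 1 (v.adicValuation x)

theorem inL_iff_mem {P : Divisor K F} {m : ℤ} {f : F} : InL P m f ↔ f ∈ L (m • P) := by
  unfold InL
  rw [mem_L_iff]
  refine forall_congr' fun v => ?_
  rw [Finsupp.smul_apply, smul_eq_mul]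

theorem inL_iff_mem_nat {P : Divisor K F} {m : ℕ} {f : F} : InL P m f ↔ f ∈ L (m • P) := by
  rw [inL_iff_mem, natCast_zsmul]

namespace IsPoleDiv

variable {P : Divisor K F} {x : F}

theorem nonneg (h : IsPoleDiv P x) (v : Place K F) : 0 ≤ P v := by
  have h1 : (1 : ℤᵐ⁰) ≤ exp (P v) := by rw [h v]; exact le_max_left _ _
  rwa [← exp_zero, exp_le_exp] at h1

theorem val_le (h : IsPoleDiv P x) (v : Place K F) : v.adicValuation x ≤ exp (P v) := by
  rw [h v]; exact le_max_right _ _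

theorem val_eq_of_pos (h : IsPoleDiv P x) {v : Place K F} (hv : 0 < P v) :
    v.adicValuation x = exp (P v) := by
  have h1 := h v
  rcases le_total (v.adicValuation x) 1 with h2 | h2
  · rw [max_eq_left h2, ← exp_zero, exp_inj] at h1
    omega
  · rw [max_eq_right h2] at h1
    exact h1.symm

theorem one_lt_val (h : IsPoleDiv P x) {v : Place K F} (hv : 0 < P v) :
    1 < v.adicValuation x := by
  rw [h.val_eq_of_pos hv, ← exp_zero, exp_lt_exp]
  exact hv

theorem zero_le (h : IsPoleDiv P x) : (0 : Divisor K F) ≤ P := by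
  rw [Finsupp.le_def]
  intro v
  simpa using h.nonneg v

end IsPoleDiv

namespace InL

variable {P : Divisor K F} {m m' : ℤ} {f g : F}

theorem zero : InL P m (0 : F) := fun v => by simp

theorem add (hf : InL P m f) (hg : InL P m g) : InL P m (f + g) := fun v =>
  (Valuation.map_add _ _ _).trans (max_le (hf v) (hg v))

theorem neg (hf : InL P m f) : InL P m (-f) := fun v => by
  rw [Valuation.map_neg]; exact hf v

theorem sub (hf : InL P m f) (hg : InL P m g) : InL P m (f - g) := by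
  rw [sub_eq_add_neg]; exact hf.add hg.neg

theorem mul (hf : InL P m f) (hg : InL P m' g) : InL P (m + m') (f * g) := fun v => by
  rw [map_mul, add_mul, exp_add]
  exact mul_le_mul' (hf v) (hg v)

theorem const_mul (c : K) (hf : InL P m f) : InL P m (algebraMap K F c * f) := fun v => by
  rw [map_mul]
  exact (mul_le_of_le_one_left' (v.adicValuation_algebraMap_le_one c)).trans (hf v)

theorem mono {x : F} (hP : IsPoleDiv P x) (h : m ≤ m') (hf : InL P m f) : InL P m' f := fun v =>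
  (hf v).trans (exp_le_exp.mpr (mul_le_mul_of_nonneg_right h (hP.nonneg v)))

theorem sum {ι : Type*} (s : Finset ι) (f : ι → F) (h : ∀ i ∈ s, InL P m (f i)) :
    InL P m (∑ i ∈ s, f i) := by
  classical
  induction s using Finset.induction_on with
  | empty => simpa using (zero : InL P m (0 : F))
  | insert i s his ih =>
    rw [Finset.sum_insert his]
    exact (h i (Finset.mem_insert_self i s)).add
      (ih fun j hj => h j (Finset.mem_insert_of_mem hj))

end InL

variable {P : Divisor K F} {x : F}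

theorem inL_algebraMap (c : K) : InL P 0 (algebraMap K F c) := fun v => by
  rw [zero_mul, exp_zero]
  exact v.adicValuation_algebraMap_le_one c

theorem inL_one : InL P 0 (1 : F) := by
  simpa using (inL_algebraMap (P := P) (1 : K))

theorem inL_x (hP : IsPoleDiv P x) : InL P 1 x := fun v => by
  rw [one_mul]; exact hP.val_le v

theorem inL_x_pow (hP : IsPoleDiv P x) (k : ℕ) : InL P k (x ^ k) := by
  induction k with
  | zero => simpa using (inL_one (P := P))
  | succ k ih =>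
    rw [pow_succ]
    have := ih.mul (inL_x hP)
    simpa using this

theorem inL_aeval (hP : IsPoleDiv P x) (p : K[X]) {l : ℕ} (hp : p.natDegree ≤ l) :
    InL P l (aeval x p) := by
  rw [aeval_eq_sum_range]
  refine InL.sum _ _ fun i hi => ?_
  have hi' : i ≤ l := (Nat.lt_succ_iff.mp (Finset.mem_range.mp hi)).trans hp
  rw [Algebra.smul_def]
  refine InL.const_mul _ ?_
  exact (inL_x_pow hP i).mono hP (by exact_mod_cast hi')

/-- Polynomial combinations of bounded degree. -/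
theorem inL_comb (hP : IsPoleDiv P x) {r : ℕ} {ω : Fin r → F} {d : Fin r → ℕ}
    (hω : ∀ i, InL P (d i) (ω i)) (p : Fin r → K[X]) (m : ℤ)
    (hp : ∀ i, p i ≠ 0 → ((p i).natDegree : ℤ) + d i ≤ m) :
    InL P m (∑ i, aeval x (p i) * ω i) := by
  refine InL.sum _ _ fun i _ => ?_
  by_cases hi : p i = 0
  · rw [hi, map_zero, zero_mul]; exact InL.zero
  · exact ((inL_aeval hP (p i) le_rfl).mul (hω i)).mono hP (hp i hi)

/-- **Division lemma.** -/
theorem InL.of_mul (hP : IsPoleDiv P x) {t h : F} {k : ℕ} {m m' : ℤ}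
    (ht : ∀ v : Place K F, 0 < P v → v.adicValuation t = exp ((k : ℤ) * P v))
    (hth : InL P m (t * h)) (hh : InL P m' h) : InL P (m - k) h := by
  intro v
  rcases (hP.nonneg v).eq_or_lt with h0 | hpos
  · have := hh v
    rw [← h0, mul_zero] at this
    rw [← h0, mul_zero]
    exact this
  · have h1 := hth v
    rw [map_mul, ht v hpos] at h1
    have h2 : v.adicValuation h
        = exp (-((k : ℤ) * P v)) * (exp ((k : ℤ) * P v) * v.adicValuation h) := by
      rw [← mul_assoc, ← exp_add, neg_add_cancel, exp_zero, one_mul]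
    rw [h2, sub_mul, sub_eq_neg_add, exp_add]
    exact mul_le_mul_right h1 _

theorem val_x_pow (hP : IsPoleDiv P x) (k : ℕ) (v : Place K F) (hv : 0 < P v) :
    v.adicValuation (x ^ k) = exp ((k : ℤ) * P v) := by
  rw [map_pow, hP.val_eq_of_pos hv, ← exp_nsmul, nsmul_eq_mul]

theorem val_x_sub (hP : IsPoleDiv P x) (a : K) (v : Place K F) (hv : 0 < P v) :
    v.adicValuation (x - algebraMap K F a) = exp (((1 : ℕ) : ℤ) * P v) := by
  have h1 : v.adicValuation (algebraMap K F a) < v.adicValuation x :=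
    (v.adicValuation_algebraMap_le_one a).trans_lt (hP.one_lt_val hv)
  rw [Valuation.map_sub_eq_of_lt_left _ h1, hP.val_eq_of_pos hv]
  simp

end Fermat.Agent.RED.H76

end
end
-- ==== END Fermat.Agent.RED.H76_RHInL

-- ==== BEGIN Fermat.Agent.S13.H46_TorsionPrePsi
section

set_option autoImplicit false

namespace Fermat.Agent.S13

/-- (TP') holds: for an elliptic curve over an algebraically closed field of characteristic `0`
and an odd prime `p`, `p • P = 0 ↔ preΨ_p(x(P)) = 0`. -/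
theorem stmt_torsion_preΨ : Stmt_torsion_preΨ := by
  intro K _ _ _ _ W hΔ p hp hp2 x y h
  exact Fermat.Agent.Lib.TorsionGen.prime_zsmul_eq_zero_iff_eval hΔ hp hp2 h

end Fermat.Agent.S13

end
-- ==== END Fermat.Agent.S13.H46_TorsionPrePsi

-- ==== BEGIN Fermat.Agent.S13.H63_Supersingular
section

set_option autoImplicit false

namespace Fermat.Agent.S13.H63

open WeierstrassCurve WeierstrassCurve.Affine WeierstrassCurve.Affine.Point Polynomial
open Fermat.Agent.S13

/-- `Q̄/ℚ` is Galois. -/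
theorem isGalois_Qbar' : IsGalois ℚ Qbar :=
  have : Algebra.IsAlgebraic ℚ (AlgebraicClosure ℚ) := AlgebraicClosure.isAlgebraic ℚ
  have : IsAlgClosure ℚ (AlgebraicClosure ℚ) := ⟨inferInstance, inferInstance⟩
  inferInstance

/-- An element of `Q̄` fixed by every automorphism is rational. -/
theorem exists_rat_of_fixed' (x : Qbar) (h : ∀ σ : Gal, σ x = x) :
    ∃ r : ℚ, algebraMap ℚ Qbar r = x :=
  have := isGalois_Qbar'
  (InfiniteGalois.mem_range_algebraMap_iff_fixed x).mpr h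

/-- The `x`-coordinate of a point (`0` for the point at infinity). -/
noncomputable def xOf {L : Type*} [Field L] {W : Affine L} : W.Point → L
  | .zero => 0
  | .some x _ _ => x

theorem xOf_smul (P : FreyPackage) (σ : Gal) (Q : (P.freyCurve⁄Qbar).Point) :
    xOf (σ • Q) = σ (xOf Q) := by
  rcases Q with _ | ⟨x, y, h⟩
  · change xOf (0 : (P.freyCurve⁄Qbar).Point) = σ 0
    simp [xOf]
  · rfl

/-- The discriminant of the Frey curve over `Q̄` is nonzero. -/
theorem freyCurve_Qbar_Δ_ne_zero (P : FreyPackage) : (P.freyCurve⁄Qbar).Δ ≠ 0 := by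
  have h1 : P.freyCurve.Δ ≠ 0 := by
    rw [← Fermat.Agent.S04.H59.freyCurveInt_map P, WeierstrassCurve.map_Δ]
    simpa using Fermat.Agent.S04.H59.freyCurveInt_Δ_ne_zero P
  change (P.freyCurve.map (algebraMap ℚ Qbar)).Δ ≠ 0
  rw [WeierstrassCurve.map_Δ]
  exact (map_ne_zero_iff _ (algebraMap ℚ Qbar).injective).mpr h1

/-- Over an algebraically closed field every `x` is the `x`-coordinate of a point. -/
theorem exists_equation {K : Type*} [Field K] [IsAlgClosed K] (W : Affine K) (x : K) :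
    ∃ y : K, W.Equation x y := by
  let q : K[X] := X ^ 2 + C (W.a₁ * x + W.a₃) * X - C (x ^ 3 + W.a₂ * x ^ 2 + W.a₄ * x + W.a₆)
  have hdeg : q.degree = 2 := by
    have h1 : (C (W.a₁ * x + W.a₃) * X - C (x ^ 3 + W.a₂ * x ^ 2 + W.a₄ * x + W.a₆) : K[X]).degree
        < ((X : K[X]) ^ 2).degree := by
      rw [degree_X_pow]
      refine lt_of_le_of_lt (degree_sub_le _ _) (max_lt ?_ ?_)
      · refine lt_of_le_of_lt (degree_C_mul_X_le _) ?_
        norm_num
      · refine lt_of_le_of_lt degree_C_le ?_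
        norm_num
    have : q = X ^ 2 + (C (W.a₁ * x + W.a₃) * X -
        C (x ^ 3 + W.a₂ * x ^ 2 + W.a₄ * x + W.a₆)) := by
      simp only [q]; ring
    rw [this, degree_add_eq_left_of_degree_lt h1, degree_X_pow]
    rfl
  obtain ⟨y, hy⟩ := IsAlgClosed.exists_root q (by rw [hdeg]; norm_num)
  refine ⟨y, ?_⟩
  rw [Affine.equation_iff]
  have : y ^ 2 + (W.a₁ * x + W.a₃) * y - (x ^ 3 + W.a₂ * x ^ 2 + W.a₄ * x + W.a₆) = 0 := by
    simpa [q] using hy
  linear_combination this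


section Card

variable {p : ℕ} [Fact p.Prime] {V : Type*} [AddCommGroup V] [Module (ZMod p) V]

/-- A proper subspace of a space with at most `p²` elements has at most `p` elements. -/
theorem card_le_of_ne_top [Finite V] (hV : Nat.card V ≤ p ^ 2)
    (N : Submodule (ZMod p) V) (hN : N ≠ ⊤) : Nat.card N ≤ p := by
  have hp : p.Prime := Fact.out
  have hcardV : Nat.card V = p ^ Module.finrank (ZMod p) V := by
    rw [Module.natCard_eq_pow_finrank (K := ZMod p) (V := V), Nat.card_zmod]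
  have hfrV : Module.finrank (ZMod p) V ≤ 2 := by
    rw [hcardV] at hV
    exact (Nat.pow_le_pow_iff_right hp.one_lt).mp hV
  have hfrN : Module.finrank (ZMod p) N < Module.finrank (ZMod p) V :=
    Submodule.finrank_lt hN
  have hcardN : Nat.card N = p ^ Module.finrank (ZMod p) N := by
    rw [Module.natCard_eq_pow_finrank (K := ZMod p) (V := N), Nat.card_zmod]
  rw [hcardN]
  calc p ^ Module.finrank (ZMod p) N ≤ p ^ 1 :=
        Nat.pow_le_pow_right hp.pos (by omega)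
    _ = p := pow_one p

end Card

/-- **I7.** The "supersingular" case of S13, from the torsion polynomial. -/
theorem p_supersingular_of_torsion_poly (hTP : Stmt_torsion_poly) (hcard : Stmt_card) :
    Stmt_p_supersingular := by
  classical
  intro P A hA hall N hNs
  by_contra hcon
  rw [not_or] at hcon
  obtain ⟨hN0, hN1⟩ := hcon
  have : Fact P.p.Prime := ⟨P.pp⟩
  obtain ⟨w, hdeg, ⟨u, hlc, hu⟩, hTPw⟩ := hTP P
  obtain ⟨hfin, hcardV⟩ := hcard P
  letI : Fintype (Vp P) := Fintype.ofFinite _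
  have hp5 := P.hp5
  -- the valuation
  have hA' : ((P.p : ℕ) : Qbar) ∈ A.nonunits := hA
  have hvp : A.valuation ((P.p : ℕ) : Qbar) < 1 := val_lt_one_of_mem_nonunits hA'
  have hvp0 : A.valuation ((P.p : ℕ) : Qbar) ≠ 0 := by
    rw [Ne, map_eq_zero]
    exact_mod_cast P.pp.ne_zero
  have hvp0' : 0 < A.valuation ((P.p : ℕ) : Qbar) := zero_lt_iff.mpr hvp0
  -- the polynomial over `Q̄`
  have hinj : Function.Injective (algebraMap ℤ Qbar) := (algebraMap ℤ Qbar).injective_int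
  set wQ : Qbar[X] := w.map (algebraMap ℤ Qbar) with hwQ
  have hsplit : wQ.Splits := IsAlgClosed.splits wQ
  have hdegQ : wQ.natDegree = (P.p ^ 2 - 1) / 2 := by
    rw [hwQ, natDegree_map_eq_of_injective hinj, hdeg]
  have hcardroots : wQ.roots.card = (P.p ^ 2 - 1) / 2 := by
    rw [← hsplit.natDegree_eq_card_roots, hdegQ]
  have hw0 : w ≠ 0 := by
    intro h
    rw [h, leadingCoeff_zero] at hlc
    have hu0 : u ≠ 0 := fun h0 => hu (h0 ▸ dvd_zero _)
    have : (P.p : ℤ) * u ≠ 0 := mul_ne_zero (by exact_mod_cast P.pp.ne_zero) hu0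
    exact this hlc.symm
  have hwQ0 : wQ ≠ 0 := (Polynomial.map_ne_zero_iff hinj).mpr hw0
  -- Step 1: every root has valuation `> 1`
  have hroot : ∀ r : Qbar, wQ.eval r = 0 → 1 < A.valuation r := by
    intro r hr
    obtain ⟨y, hy⟩ := exists_equation (P.freyCurve⁄Qbar) r
    have hns : (P.freyCurve⁄Qbar).Nonsingular r y :=
      (Affine.equation_iff_nonsingular_of_Δ_ne_zero (freyCurve_Qbar_Δ_ne_zero P)).mp hy
    have htors : ((P.p : ℤ) • (Point.some r y hns : (P.freyCurve⁄Qbar).Point) = 0) :=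
      (hTPw r y hns).mpr hr
    have hmem : (Point.some r y hns : (P.freyCurve⁄Qbar).Point) ∈
        Submodule.torsionBy ℤ (P.freyCurve⁄Qbar).Point P.p := by
      rw [Submodule.mem_torsionBy_iff]
      exact htors
    have h1 := hall ⟨_, hmem⟩
    have h2 : r ∉ A := h1
    rw [← A.valuation_le_one_iff] at h2
    exact not_le.mp h2
  -- Step 2: `v(p) * ∏ v(r) ≤ 1`
  have hprod : A.valuation ((P.p : ℕ) : Qbar) * (wQ.roots.map A.valuation).prod ≤ 1 := by
    have h1 := hsplit.eval_eq_prod_roots 0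
    have h2 : wQ.eval 0 = ((w.coeff 0 : ℤ) : Qbar) := by
      rw [hwQ, ← coeff_zero_eq_eval_zero, coeff_map]
      simp
    have h3 : wQ.leadingCoeff = (((P.p : ℤ) * u : ℤ) : Qbar) := by
      rw [hwQ, leadingCoeff_map_of_injective hinj, hlc]
      simp
    have h4 : A.valuation wQ.leadingCoeff = A.valuation ((P.p : ℕ) : Qbar) := by
      rw [h3]
      push_cast
      rw [map_mul, val_intCast_eq_one_of_not_dvd P.pp hA' hu, mul_one]
    have h5 : A.valuation ((wQ.roots.map (0 - ·)).prod) = (wQ.roots.map A.valuation).prod := by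
      rw [map_multiset_prod, Multiset.map_map]
      congr 1
      refine Multiset.map_congr rfl (fun r _ => ?_)
      simp
    have h6 : A.valuation (wQ.eval 0) =
        A.valuation ((P.p : ℕ) : Qbar) * (wQ.roots.map A.valuation).prod := by
      rw [h1, map_mul, h4, h5]
    rw [← h6, h2]
    exact val_intCast_le_one A _
  -- Step 3: the `x`-coordinates of `N ∖ 0`
  set S : Finset (Vp P) := Finset.univ.filter (fun Q => Q ∈ N ∧ Q ≠ 0) with hS
  set xs : Finset Qbar := S.image (fun Q : Vp P => xOf Q.1) with hxs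
  -- `S` is nonempty
  have hSne : S.Nonempty := by
    obtain ⟨Q, hQN, hQ0⟩ := (Submodule.ne_bot_iff N).mp hN0
    exact ⟨Q, by simp [hS, hQN, hQ0]⟩
  have hxsne : xs.Nonempty := by
    rw [hxs]
    exact hSne.image _
  -- every element of `xs` is a root of `wQ`
  have hxsroot : ∀ r ∈ xs, wQ.eval r = 0 := by
    intro r hr
    rw [hxs, Finset.mem_image] at hr
    obtain ⟨Q, hQS, rfl⟩ := hr
    rw [hS, Finset.mem_filter] at hQS
    obtain ⟨-, -, hQ0⟩ := hQS
    obtain ⟨Qpt, hQmem⟩ := Q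
    rcases Qpt with _ | ⟨x, y, h⟩
    · exact absurd (Subtype.ext rfl) hQ0
    · rw [Submodule.mem_torsionBy_iff] at hQmem
      exact (hTPw x y h).mp hQmem
  have hxsval : ∀ r ∈ xs, 1 < A.valuation r := fun r hr => hroot r (hxsroot r hr)
  -- `xs ≤ roots` as multisets
  have hle : xs.val ≤ wQ.roots := by
    rw [Multiset.le_iff_subset xs.nodup]
    intro r hr
    rw [mem_roots hwQ0]
    exact hxsroot r hr
  -- `card xs < card roots`
  have hcardN : Nat.card N ≤ P.p := card_le_of_ne_top hcardV N hN1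
  have hcardS : S.card ≤ P.p := by
    have h1 : S.card ≤ (Finset.univ.filter (fun Q : Vp P => Q ∈ N)).card := by
      apply Finset.card_le_card
      intro Q hQ
      rw [hS, Finset.mem_filter] at hQ
      rw [Finset.mem_filter]
      exact ⟨hQ.1, hQ.2.1⟩
    have h2 : (Finset.univ.filter (fun Q : Vp P => Q ∈ N)).card = Nat.card N := by
      rw [Nat.card_eq_fintype_card, Fintype.card_subtype]
    omega
  have hcardxs : xs.card < wQ.roots.card := by
    have h1 : xs.card ≤ S.card := Finset.card_image_le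
    have h2 : P.p < (P.p ^ 2 - 1) / 2 := by
      have h3 : 2 * P.p + 2 ≤ P.p ^ 2 - 1 := by
        have : 5 * P.p ≤ P.p ^ 2 := by nlinarith
        omega
      omega
    omega
  obtain ⟨rest, hrest⟩ := Multiset.le_iff_exists_add.mp hle
  have hrest0 : rest ≠ 0 := by
    intro h
    rw [h, add_zero] at hrest
    rw [hrest] at hcardxs
    exact lt_irrefl _ hcardxs
  have hrestval : ∀ x ∈ rest.map A.valuation, 1 < x := by
    intro x hx
    rw [Multiset.mem_map] at hx
    obtain ⟨r, hr, rfl⟩ := hx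
    apply hroot
    have : r ∈ wQ.roots := by rw [hrest]; exact Multiset.mem_add.mpr (Or.inr hr)
    exact (mem_roots hwQ0).mp this
  have hrestprod : 1 < (rest.map A.valuation).prod :=
    one_lt_multiset_prod _ (by simpa using hrest0) hrestval
  -- the product `z` of `xs`
  set z : Qbar := ∏ r ∈ xs, r with hz
  have hvz : A.valuation z = (xs.val.map A.valuation).prod := by
    rw [hz, map_prod]
    rfl
  have hvz1 : 1 < A.valuation z := by
    rw [hvz]
    refine one_lt_multiset_prod _ ?_ ?_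
    · intro h
      have := congrArg Multiset.card h
      simp only [Multiset.card_map, Multiset.card_zero] at this
      exact (Finset.card_pos.mpr hxsne).ne' this
    · intro x hx
      rw [Multiset.mem_map] at hx
      obtain ⟨r, hr, rfl⟩ := hx
      exact hxsval r hr
  have hvz2 : A.valuation ((P.p : ℕ) : Qbar) * A.valuation z < 1 := by
    have h1 : (wQ.roots.map A.valuation).prod =
        A.valuation z * (rest.map A.valuation).prod := by
      rw [hrest, Multiset.map_add, Multiset.prod_add, hvz]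
    have h2 : A.valuation z < (wQ.roots.map A.valuation).prod := by
      rw [h1]
      have hz0 : 0 < A.valuation z := lt_trans zero_lt_one hvz1
      calc A.valuation z = A.valuation z * 1 := (mul_one _).symm
        _ < A.valuation z * (rest.map A.valuation).prod :=
          (mul_lt_mul_iff_right₀ hz0).mpr hrestprod
    calc A.valuation ((P.p : ℕ) : Qbar) * A.valuation z
        < A.valuation ((P.p : ℕ) : Qbar) * (wQ.roots.map A.valuation).prod :=
          (mul_lt_mul_iff_right₀ hvp0').mpr h2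
      _ ≤ 1 := hprod
  -- `z` is Galois invariant, hence rational
  have hxsσ : ∀ σ : Gal, xs.image σ = xs := by
    intro σ
    apply Finset.eq_of_subset_of_card_le
    · intro r hr
      rw [Finset.mem_image] at hr
      obtain ⟨r', hr', rfl⟩ := hr
      rw [hxs, Finset.mem_image] at hr'
      obtain ⟨Q, hQS, rfl⟩ := hr'
      rw [hS, Finset.mem_filter] at hQS
      obtain ⟨-, hQN, hQ0⟩ := hQS
      rw [hxs, Finset.mem_image]
      refine ⟨σ • Q, ?_, ?_⟩
      · rw [hS, Finset.mem_filter]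
        refine ⟨Finset.mem_univ _, hNs σ Q hQN, ?_⟩
        intro h
        apply hQ0
        have := congrArg (fun x => σ⁻¹ • x) h
        simpa using this
      · exact xOf_smul P σ Q.1
    · rw [Finset.card_image_of_injective _ σ.injective]
  have hzσ : ∀ σ : Gal, σ z = z := by
    intro σ
    rw [hz, map_prod]
    conv_rhs => rw [← hxsσ σ]
    rw [Finset.prod_image (fun a _ b _ h => σ.injective h)]
  obtain ⟨q, hq⟩ := exists_rat_of_fixed' z hzσ
  have hq0 : q ≠ 0 := by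
    rintro rfl
    rw [_root_.map_zero] at hq
    rw [← hq, _root_.map_zero] at hvz1
    exact not_lt.mpr zero_le_one hvz1
  obtain ⟨k, hk⟩ := val_ratCast_eq_zpow (A := A) P.pp hA' hq0
  have hqz : ((q : ℚ) : Qbar) = z := by
    rw [← hq, eq_ratCast]
  rw [hqz] at hk
  -- contradiction: `1 < v(p)^k` and `v(p)^(k+1) < 1`
  rw [hk] at hvz1 hvz2
  have hk1 : k < 0 := by
    by_contra hk0
    rw [not_lt] at hk0
    have : A.valuation ((P.p : ℕ) : Qbar) ^ k ≤ 1 := by
      obtain ⟨n, rfl⟩ := Int.eq_ofNat_of_zero_le hk0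
      rw [zpow_natCast]
      exact pow_le_one₀ hvp0'.le hvp.le
    exact not_lt.mpr this hvz1
  have hk2 : 0 < k + 1 := by
    by_contra hk0
    rw [not_lt] at hk0
    obtain ⟨n, hn⟩ := Int.exists_eq_neg_ofNat hk0
    have h1 : A.valuation ((P.p : ℕ) : Qbar) * A.valuation ((P.p : ℕ) : Qbar) ^ k =
        A.valuation ((P.p : ℕ) : Qbar) ^ (k + 1) := by
      rw [zpow_add₀ hvp0, zpow_one, mul_comm]
    rw [h1, hn, zpow_neg, zpow_natCast] at hvz2
    have h2 : A.valuation ((P.p : ℕ) : Qbar) ^ n ≤ 1 := pow_le_one₀ hvp0'.le hvp.le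
    have h3 : 0 < A.valuation ((P.p : ℕ) : Qbar) ^ n := pow_pos hvp0' n
    have h4 : 1 ≤ (A.valuation ((P.p : ℕ) : Qbar) ^ n)⁻¹ := (one_le_inv₀ h3).mpr h2
    exact not_lt.mpr h4 hvz2
  omega

end Fermat.Agent.S13.H63

end
-- ==== END Fermat.Agent.S13.H63_Supersingular

-- ==== BEGIN Fermat.Agent.S16.H21_Step1
section

/-!
# S16, upper bound at `ℓ = 2`, `p ≡ 7 mod 8`: Step 1 (helper21)

`G ∈ M₂(Γ₀(p))` with `q`-expansion `m + 8 h`, `h ∈ ℤ⟦q⟧`.  The forms
`F₄ = (G² - m² E₄) / 16 ∈ M₄(Γ₀(p))` and `F₆ = (3 m² G E₄ - 2 m³ E₆ - G³) / 32 ∈ M₆(Γ₀(p))`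
have integral `q`-expansions (`qExpansion_F4`, `qExpansion_F6`), given by the explicit series
`f4Series m h`, `f6Series m h`.  The same at the cusp `0` in series form (`f4HatSeries_spec`,
`f6HatSeries_spec`) for any ring endomorphism `V` of `ℤ⟦q⟧` (to be applied with `V = (q ↦ q ^ p)`).

The ring identities are helper15's (`H15_RhoAlg.lean`); the integral series of `E₄`, `E₆` are
helper96's (`S23/H96_LevelOne.lean`).
-/

set_option autoImplicit false

noncomputable section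

namespace Fermat.Agent.S16.H21

open UpperHalfPlane ModularForm EisensteinSeries ModularFormClass CongruenceSubgroup
open Fermat.Agent.S23.H96 (sigmaSeries e4Series e6Series intSeries)
open scoped MatrixGroups

/-! ## Part A: series over `ℤ` -/

theorem two_dvd_pow_three_add_pow_five (d : ℤ) : (2 : ℤ) ∣ d ^ 3 + d ^ 5 := by
  have h : ∀ x : ZMod 2, x ^ 3 + x ^ 5 = 0 := by decide
  have := h (d : ZMod 2)
  have h2 := (ZMod.intCast_zmod_eq_zero_iff_dvd (d ^ 3 + d ^ 5) 2).mp (by push_cast; exact this)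
  exact_mod_cast h2

theorem two_dvd_sigma_three_add_sigma_five (n : ℕ) :
    (2 : ℤ) ∣ ((ArithmeticFunction.sigma 3 n : ℕ) : ℤ) + ((ArithmeticFunction.sigma 5 n : ℕ) : ℤ) := by
  rw [ArithmeticFunction.sigma_apply, ArithmeticFunction.sigma_apply]
  push_cast
  rw [← Finset.sum_add_distrib]
  exact Finset.dvd_sum fun d _ => two_dvd_pow_three_add_pow_five d

/-- The series `(σ₃ + σ₅) / 2`. -/
def tSeries : PowerSeries ℤ :=
  PowerSeries.mk fun n =>
    (((ArithmeticFunction.sigma 3 n : ℕ) : ℤ) + ((ArithmeticFunction.sigma 5 n : ℕ) : ℤ)) / 2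

theorem sigmaSeries_three_add_five : sigmaSeries 3 + sigmaSeries 5 = 2 * tSeries := by
  ext n
  have h2 : (2 : PowerSeries ℤ) = PowerSeries.C (2 : ℤ) := by simp
  rw [h2]
  simp only [Fermat.Agent.S23.H96.coeff_sigmaSeries, map_add, PowerSeries.coeff_C_mul, tSeries,
    PowerSeries.coeff_mk]
  have := Int.mul_ediv_cancel' (two_dvd_sigma_three_add_sigma_five n)
  lia

theorem e4Series_eq : e4Series = 1 + 240 * sigmaSeries 3 := by
  have h1 : (PowerSeries.C (240 : ℤ) : PowerSeries ℤ) = 240 := by simp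
  rw [e4Series, h1]

theorem e6Series_eq : e6Series = 1 - 504 * sigmaSeries 5 := by
  have h1 : (PowerSeries.C (504 : ℤ) : PowerSeries ℤ) = 504 := by simp
  rw [e6Series, h1]

/-- The `q`-expansion of `F₄ = (G² - m² E₄)/16` for `G = m + 8 h`. -/
def f4Series (m h : PowerSeries ℤ) : PowerSeries ℤ :=
  m * h + 4 * h ^ 2 - 15 * m ^ 2 * sigmaSeries 3

/-- The `q`-expansion of `F₆ = (3 m² G E₄ - 2 m³ E₆ - G³)/32` for `G = m + 8 h`. -/
def f6Series (m h : PowerSeries ℤ) : PowerSeries ℤ :=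
  m ^ 3 * tSeries + 22 * m ^ 3 * sigmaSeries 3 + 31 * m ^ 3 * sigmaSeries 5
    + 180 * m ^ 2 * h * sigmaSeries 3 - 6 * m * h ^ 2 - 16 * h ^ 3

theorem f4Series_spec (m h : PowerSeries ℤ) :
    (m + 8 * h) ^ 2 - m ^ 2 * e4Series = 16 * f4Series m h := by
  rw [e4Series_eq, f4Series]
  exact H15.step1_F4_infty m h (sigmaSeries 3)

theorem f6Series_spec (m h : PowerSeries ℤ) :
    3 * m ^ 2 * (m + 8 * h) * e4Series - 2 * m ^ 3 * e6Series - (m + 8 * h) ^ 3
      = 32 * f6Series m h := by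
  rw [e4Series_eq, e6Series_eq, f6Series]
  exact H15.step1_F6_infty m h (sigmaSeries 3) (sigmaSeries 5) tSeries sigmaSeries_three_add_five

/-- The `q`-expansion of `F₄ ∣ W = ((G ∣ W)² - m² (E₄ ∣ W))/16` for `G ∣ W = -(m + 8 h')`,
`E₄ ∣ W = p² V(E₄)`, `p = 8 k - 1`. -/
def f4HatSeries (V : PowerSeries ℤ →+* PowerSeries ℤ) (k m h' : PowerSeries ℤ) : PowerSeries ℤ :=
  m ^ 2 * (k - 4 * k ^ 2) + m * h' + 4 * h' ^ 2 - 15 * m ^ 2 * (8 * k - 1) ^ 2 * V (sigmaSeries 3)

/-- The `q`-expansion of `F₆ ∣ W` for `G ∣ W = -(m + 8 h')`, `E₄ ∣ W = p² V(E₄)`,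
`E₆ ∣ W = p³ V(E₆)`, `p = 8 k - 1`. -/
def f6HatSeries (V : PowerSeries ℤ →+* PowerSeries ℤ) (k m h' : PowerSeries ℤ) : PowerSeries ℤ :=
  2 * m ^ 3 * k ^ 2 * (3 - 16 * k)
    + 12 * m ^ 2 * (k - 4 * k ^ 2) * h'
    + 6 * m * h' ^ 2 + 16 * h' ^ 3
    - 180 * m ^ 2 * (8 * k - 1) ^ 2 * h' * V (sigmaSeries 3)
    - m ^ 3 * (8 * k - 1) ^ 2 * V tSeries
    - 22 * m ^ 3 * (8 * k - 1) ^ 2 * V (sigmaSeries 3)
    + m ^ 3 * (8 * k - 1) ^ 2 * V (sigmaSeries 5)
    + 252 * m ^ 3 * (8 * k - 1) ^ 2 * k * V (sigmaSeries 5)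
    - 32 * m ^ 3 * (8 * k - 1) ^ 2 * V (sigmaSeries 5)

theorem map_e4Series (V : PowerSeries ℤ →+* PowerSeries ℤ) :
    V e4Series = 1 + 240 * V (sigmaSeries 3) := by
  rw [e4Series_eq, map_add, map_one, map_mul, map_ofNat]

theorem map_e6Series (V : PowerSeries ℤ →+* PowerSeries ℤ) :
    V e6Series = 1 - 504 * V (sigmaSeries 5) := by
  rw [e6Series_eq, map_sub, map_one, map_mul, map_ofNat]

theorem f4HatSeries_spec (V : PowerSeries ℤ →+* PowerSeries ℤ) (k m h' : PowerSeries ℤ) :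
    (-(m + 8 * h')) ^ 2 - m ^ 2 * ((8 * k - 1) ^ 2 * V e4Series)
      = 16 * f4HatSeries V k m h' := by
  rw [map_e4Series, f4HatSeries]
  exact H15.step1_F4_zero m h' (V (sigmaSeries 3)) k

theorem f6HatSeries_spec (V : PowerSeries ℤ →+* PowerSeries ℤ) (k m h' : PowerSeries ℤ) :
    3 * m ^ 2 * (-(m + 8 * h')) * ((8 * k - 1) ^ 2 * V e4Series)
        - 2 * m ^ 3 * ((8 * k - 1) ^ 3 * V e6Series) - (-(m + 8 * h')) ^ 3
      = 32 * f6HatSeries V k m h' := by
  rw [map_e4Series, map_e6Series, f6HatSeries]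
  refine H15.step1_F6_zero m h' (V (sigmaSeries 3)) (V (sigmaSeries 5)) (V tSeries) k ?_
  rw [← map_add, sigmaSeries_three_add_five, map_mul, map_ofNat]

end Fermat.Agent.S16.H21

namespace Fermat.Agent.S16.H21

open UpperHalfPlane ModularForm EisensteinSeries ModularFormClass CongruenceSubgroup
open Fermat.Agent.S23.H96 (sigmaSeries e4Series e6Series intSeries)
open scoped MatrixGroups

/-! ## Part B: the forms `F₄`, `F₆` on `Γ₀(p)` and their `q`-expansions at `∞` -/

/-- Restrict a modular form to a smaller subgroup. -/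
def restrictLevel {Γ Γ' : Subgroup (GL (Fin 2) ℝ)} {k : ℤ} (h : Γ' ≤ Γ) (f : ModularForm Γ k) :
    ModularForm Γ' k where
  toFun := f
  slash_action_eq' γ hγ := f.slash_action_eq' γ (h hγ)
  holo' := f.holo'
  bdd_at_cusps' hc := f.bdd_at_cusps' (hc.mono h)

@[simp] theorem coe_restrictLevel {Γ Γ' : Subgroup (GL (Fin 2) ℝ)} {k : ℤ} (h : Γ' ≤ Γ)
    (f : ModularForm Γ k) : ⇑(restrictLevel h f) = ⇑f := rfl

theorem Gamma0_le_SL (N : ℕ) : ((Gamma0 N : Subgroup SL(2, ℤ)) : Subgroup (GL (Fin 2) ℝ)) ≤ 𝒮ℒ := by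
  rintro _ ⟨g, -, rfl⟩
  exact ⟨g, rfl⟩

/-- `E₄` as a form on `Γ₀(N)`. -/
def E4N (N : ℕ) : ModularForm (Gamma0 N) 4 := restrictLevel (Gamma0_le_SL N) E₄

/-- `E₆` as a form on `Γ₀(N)`. -/
def E6N (N : ℕ) : ModularForm (Gamma0 N) 6 := restrictLevel (Gamma0_le_SL N) E₆

@[simp] theorem coe_E4N (N : ℕ) : ⇑(E4N N) = ⇑E₄ := rfl

@[simp] theorem coe_E6N (N : ℕ) : ⇑(E6N N) = ⇑E₆ := rfl

theorem qExpansion_E4N (N : ℕ) :
    qExpansion 1 (E4N N) = e4Series.map (Int.castRingHom ℂ) :=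
  Fermat.Agent.S23.H96.qExpansion_E₄_eq

theorem qExpansion_E6N (N : ℕ) :
    qExpansion 1 (E6N N) = e6Series.map (Int.castRingHom ℂ) :=
  Fermat.Agent.S23.H96.qExpansion_E₆_eq

variable {N : ℕ}

/-- `F₄ = (G² - m² E₄) / 16`. -/
def F4 (G : ModularForm (Gamma0 N) 2) (m : ℤ) : ModularForm (Gamma0 N) 4 :=
  (1 / 16 : ℂ) • (ModularForm.mcast (by norm_num) (G.mul G) - ((m : ℂ) ^ 2) • E4N N)

/-- `F₆ = (3 m² G E₄ - 2 m³ E₆ - G³) / 32`. -/
def F6 (G : ModularForm (Gamma0 N) 2) (m : ℤ) : ModularForm (Gamma0 N) 6 :=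
  (1 / 32 : ℂ) • ((3 * (m : ℂ) ^ 2) • ModularForm.mcast (by norm_num) (G.mul (E4N N))
    - (2 * (m : ℂ) ^ 3) • E6N N - ModularForm.mcast (by norm_num) ((G.mul G).mul G))

theorem coe_F4 (G : ModularForm (Gamma0 N) 2) (m : ℤ) (z : ℍ) :
    F4 G m z = (G z ^ 2 - (m : ℂ) ^ 2 * E₄ z) / 16 := by
  simp only [F4, smul_apply, sub_apply, ModularForm.mcast_apply, ModularForm.coe_mul,
    Pi.mul_apply, smul_eq_mul, coe_E4N]
  ring

theorem coe_F6 (G : ModularForm (Gamma0 N) 2) (m : ℤ) (z : ℍ) :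
    F6 G m z = (3 * (m : ℂ) ^ 2 * G z * E₄ z - 2 * (m : ℂ) ^ 3 * E₆ z - G z ^ 3) / 32 := by
  simp only [F6, smul_apply, sub_apply, ModularForm.mcast_apply, ModularForm.coe_mul,
    Pi.mul_apply, smul_eq_mul, coe_E4N, coe_E6N]
  ring

theorem map_C_int (m : ℤ) :
    (PowerSeries.C (m : ℤ) : PowerSeries ℤ).map (Int.castRingHom ℂ) = PowerSeries.C (m : ℂ) := by
  ext n
  rw [PowerSeries.coeff_map, PowerSeries.coeff_C, PowerSeries.coeff_C]
  split_ifs <;> simp

/-- The `q`-expansion of `F₄` is integral. -/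
theorem qExpansion_F4 (G : ModularForm (Gamma0 N) 2) (m : ℤ) (h : PowerSeries ℤ)
    (hG : qExpansion 1 G = (PowerSeries.C m + 8 * h).map (Int.castRingHom ℂ)) :
    qExpansion 1 (F4 G m) = (f4Series (PowerSeries.C m) h).map (Int.castRingHom ℂ) := by
  have hp := one_mem_strictPeriods_Gamma0 N
  have h1 : qExpansion 1 (F4 G m) = (1 / 16 : ℂ) • (qExpansion 1 G * qExpansion 1 G
      - ((m : ℂ) ^ 2) • qExpansion 1 (E4N N)) := by
    rw [F4, FunLike.coe_smul, ModularForm.qExpansion_smul one_pos hp, FunLike.coe_sub,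
      ModularForm.qExpansion_sub one_pos hp,
      ModularForm.qExpansion_mcast, ModularForm.qExpansion_mul one_pos hp, FunLike.coe_smul,
      ModularForm.qExpansion_smul one_pos hp]
  have h2 := congrArg (PowerSeries.map (Int.castRingHom ℂ)) (f4Series_spec (PowerSeries.C m) h)
  rw [h1, hG, qExpansion_E4N]
  simp only [map_sub, map_mul, map_pow, map_add, map_C_int, map_ofNat] at h2 ⊢
  rw [PowerSeries.smul_eq_C_mul, PowerSeries.smul_eq_C_mul]
  have h16 : (16 : PowerSeries ℂ) = PowerSeries.C (16 : ℂ) := (map_ofNat PowerSeries.C 16).symm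
  have hm : (PowerSeries.C ((m : ℂ) ^ 2) : PowerSeries ℂ) = PowerSeries.C (m : ℂ) ^ 2 := by simp
  have hinv : (PowerSeries.C (1 / 16 : ℂ) : PowerSeries ℂ) * PowerSeries.C (16 : ℂ) = 1 := by
    rw [← map_mul]; norm_num
  rw [hm]
  calc PowerSeries.C (1 / 16 : ℂ) * ((PowerSeries.C (m : ℂ) + 8 * PowerSeries.map (Int.castRingHom ℂ) h)
        * (PowerSeries.C (m : ℂ) + 8 * PowerSeries.map (Int.castRingHom ℂ) h)
        - PowerSeries.C (m : ℂ) ^ 2 * PowerSeries.map (Int.castRingHom ℂ) e4Series)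
      = PowerSeries.C (1 / 16 : ℂ) * ((PowerSeries.C (m : ℂ) + 8 * PowerSeries.map (Int.castRingHom ℂ) h) ^ 2
        - PowerSeries.C (m : ℂ) ^ 2 * PowerSeries.map (Int.castRingHom ℂ) e4Series) := by ring
    _ = PowerSeries.C (1 / 16 : ℂ) * (16 * PowerSeries.map (Int.castRingHom ℂ)
          (f4Series (PowerSeries.C m) h)) := by rw [h2]
    _ = (PowerSeries.C (1 / 16 : ℂ) * PowerSeries.C (16 : ℂ)) * PowerSeries.map (Int.castRingHom ℂ)
          (f4Series (PowerSeries.C m) h) := by rw [h16]; ring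
    _ = _ := by rw [hinv, one_mul]

end Fermat.Agent.S16.H21

end
end
-- ==== END Fermat.Agent.S16.H21_Step1

-- ==== BEGIN Fermat.Agent.S16.H26_TridDefs
section

/-!
# S16, package TRID (helper26): interface

* `Useries p φ` : the operator `U_p` on power series, `∑ a_n q^n ↦ ∑ a_{pn} q^n`.
* `Stmt_TRID p` : for `h ∈ M₂(Γ₀(p))` and a level one form `A` of weight `k` there is a level one
  form `F_A` of weight `k + 2` with `q`-expansion
  `p^k · h(q) · A(q^p) − U_p ((U_p h) · A)`   (`F_A = p^k · Tr (h · V_p A)`).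
* `Stmt_DeltaTest p` : if `h ∈ M₂(Γ₀(p))` is a unit constant modulo `ℓ^e`, `ℓ ≠ p`, then
  `ℓ^e ∣ p + 1`   (`A = Δ`: `F_Δ = 0`, so `τ(p) ≡ 0` and `τ(p²) ≡ p¹²`, and `τ(p²) = τ(p)² − p¹¹`).

Proofs: `H26_Trid.lean` (from the interfaces of package CONJ), `H26_DeltaTest.lean`.
-/

set_option autoImplicit false

open UpperHalfPlane ModularForm CongruenceSubgroup
open scoped MatrixGroups ModularForm

noncomputable section

namespace Fermat.Agent.S16.H26

/-- The operator `U_p` on power series: `∑ a_n q^n ↦ ∑ a_{pn} q^n`. -/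
def Useries (p : ℕ) (φ : PowerSeries ℂ) : PowerSeries ℂ :=
  PowerSeries.mk fun n => PowerSeries.coeff (p * n) φ

@[simp] lemma coeff_Useries (p : ℕ) (φ : PowerSeries ℂ) (n : ℕ) :
    PowerSeries.coeff n (Useries p φ) = PowerSeries.coeff (p * n) φ := by
  simp [Useries]

/-- `TRID`: the trace identity. -/
def Stmt_TRID (p : ℕ) : Prop :=
  ∀ (hp : p.Prime) (h : ModularForm (Gamma0 p) 2) (k : ℤ) (A : ModularForm 𝒮ℒ k),
    ∃ F : ModularForm 𝒮ℒ (k + 2),
      qExpansion 1 F =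
        (p : ℂ) ^ k • (qExpansion 1 h * PowerSeries.expand p hp.ne_zero (qExpansion 1 A)) -
          Useries p (Useries p (qExpansion 1 h) * qExpansion 1 A)

/-- The `Δ`-test. -/
def Stmt_DeltaTest (p : ℕ) : Prop :=
  p.Prime → ∀ ℓ e : ℕ, ℓ.Prime → ℓ ≠ p → ∀ h : ModularForm (Gamma0 p) 2,
    IsUnitConstMod p ℓ e h → ℓ ^ e ∣ p + 1

end Fermat.Agent.S16.H26

end
end
-- ==== END Fermat.Agent.S16.H26_TridDefs

-- ==== BEGIN Fermat.Agent.S16.H38_Chi
section

/-!
# S16, package LB-chi: the Shimura class `χ : Γ₀(p) → (ℤ/p)ˣ → ℤ/n` (helper38)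

* `heckeOp_twisted` : abstract lemma. If `χ (kap γ i) = χ γ * d i * (d (perm γ i))⁻¹` then
  `heckeOp (ψ ∘ χ) = card ι • (ψ ∘ χ)`.
* `chi0 N : Γ₀(N) →* (ZMod N)ˣ`, `γ ↦ d mod N`.
* `TB_chi` : `T_ℓ^B (ψ ∘ χ₀) = (ℓ + 1) • (ψ ∘ χ₀)` (`ℓ ∤ N` prime).
* `UB_chi` : `U_p^B (ψ ∘ χ₀) = p • (ψ ∘ χ₀)` (`p ∣ N`).
-/

set_option autoImplicit false

namespace Fermat.Agent.S16.H38

open Fermat.Agent.Betti CongruenceSubgroup Matrix.SpecialLinearGroup ModularForm
open scoped MatrixGroups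

section Abstract

variable {Γ G : Type*} [Group Γ] [Group G] {e : Γ →* G} {ι : Type*} [Fintype ι] {rep : ι → G}

/-- A character which is multiplied by a coboundary under `kap` is an eigenvector of the Betti
Hecke operator with eigenvalue the degree. -/
theorem heckeOp_twisted (H : IsHeckeFamily e rep) (he : Function.Injective e)
    {M : Type*} [CommGroup M] (χ : Γ →* M) (d : ι → M)
    (hχ : ∀ γ i, χ (H.kap γ i) = χ γ * d i * (d (H.perm γ i))⁻¹)
    {A : Type*} [AddCommGroup A] (ψ : Additive M →+ A) :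
    H.heckeOp he (ψ.comp (MonoidHom.toAdditive χ)) =
      Fintype.card ι • (ψ.comp (MonoidHom.toAdditive χ)) := by
  refine AddMonoidHom.ext fun γ => ?_
  obtain ⟨γ, rfl⟩ : ∃ g : Γ, Additive.ofMul g = γ := ⟨Additive.toMul γ, rfl⟩
  rw [IsHeckeFamily.heckeOp_apply]
  have hterm : ∀ i, (ψ.comp (MonoidHom.toAdditive χ)) (Additive.ofMul (H.kap γ i))
      = ψ (Additive.ofMul (χ γ)) + ψ (Additive.ofMul (d i))
        - ψ (Additive.ofMul (d (H.perm γ i))) := by
    intro i
    show ψ (Additive.ofMul (χ (H.kap γ i))) = _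
    rw [hχ γ i]
    simp only [ofMul_mul, ofMul_inv, map_add, map_neg]
    abel
  simp only [hterm, Finset.sum_add_distrib, Finset.sum_sub_distrib]
  have hperm : ∑ i, ψ (Additive.ofMul (d (H.perm γ i))) = ∑ i, ψ (Additive.ofMul (d i)) :=
    Equiv.sum_comp (H.permEquiv he γ) (fun i => ψ (Additive.ofMul (d i)))
  rw [hperm]
  simp only [Finset.sum_const, Finset.card_univ, AddMonoidHom.coe_smul, Pi.smul_apply]
  show _ = Fintype.card ι • ψ (Additive.ofMul (χ γ))
  abel

end Abstract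

section Gamma0

variable (N : ℕ)

/-- The character `γ ↦ d mod N` of `Γ₀(N)`. -/
noncomputable def chi0 : Gamma0 N →* (ZMod N)ˣ := (Gamma0Map N).toHomUnits

theorem coe_chi0 (γ : Gamma0 N) : ((chi0 N γ : (ZMod N)ˣ) : ZMod N) = ((γ : SL(2, ℤ)) 1 1 : ℤ) :=
  rfl

variable {N}

theorem cast_lower_left (γ : Gamma0 N) : (((γ : SL(2, ℤ)) 1 0 : ℤ) : ZMod N) = 0 :=
  Gamma0_mem.mp γ.2

/-- Entries of `mapGL ℝ γ`. -/
theorem mapGL_entry (g : SL(2, ℤ)) (i j : Fin 2) :
    ((mapGL ℝ g : GL (Fin 2) ℝ) : Matrix (Fin 2) (Fin 2) ℝ) i j = ((g i j : ℤ) : ℝ) := by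
  simp

/-- The key relation on lower right entries for upper triangular representatives. -/
theorem lower_right_rel {x y : GL (Fin 2) ℝ} {dx dy by' : ℕ}
    (hx10 : (x : Matrix (Fin 2) (Fin 2) ℝ) 1 0 = 0)
    (hx11 : (x : Matrix (Fin 2) (Fin 2) ℝ) 1 1 = dx)
    (hy01 : (y : Matrix (Fin 2) (Fin 2) ℝ) 0 1 = by')
    (hy11 : (y : Matrix (Fin 2) (Fin 2) ℝ) 1 1 = dy)
    (γ κ : Gamma0 N) (h : x * incl N γ = incl N κ * y) :
    (dx : ZMod N) * (chi0 N γ : ZMod N) = (chi0 N κ : ZMod N) * (dy : ZMod N) := by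
  have h11 := congrArg (fun M : GL (Fin 2) ℝ => (M : Matrix (Fin 2) (Fin 2) ℝ) 1 1) h
  simp only [Units.val_mul, Matrix.mul_apply, Fin.sum_univ_two, incl_apply, mapGL_entry,
    hx10, hx11, hy01, hy11] at h11
  have hZ : (dx : ℤ) * ((γ : SL(2, ℤ)) 1 1) =
      ((κ : SL(2, ℤ)) 1 0) * by' + ((κ : SL(2, ℤ)) 1 1) * dy := by
    have : ((dx : ℤ) : ℝ) * (((γ : SL(2, ℤ)) 1 1 : ℤ) : ℝ) =
        (((κ : SL(2, ℤ)) 1 0 : ℤ) : ℝ) * ((by' : ℤ) : ℝ)
          + (((κ : SL(2, ℤ)) 1 1 : ℤ) : ℝ) * ((dy : ℤ) : ℝ) := by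
      push_cast
      linarith
    exact_mod_cast this
  have hM := congrArg (Int.cast : ℤ → ZMod N) hZ
  push_cast at hM
  rw [cast_lower_left κ, zero_mul, zero_add] at hM
  rw [coe_chi0, coe_chi0]
  exact hM

section TChi

open P2MW.S_ModularForm_heckeT_slash_eq_self_of_mem_Gamma0.ModularForm.HeckeSlashInvariance

variable {ℓ : ℕ}

/-- lower right entries of the representatives of `T_ℓ`, as natural numbers. -/
def dNat (ℓ : ℕ) (x : OnePoint (ZMod ℓ)) : ℕ := x.elim 1 (fun _ => ℓ)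

/-- upper right entries of the representatives of `T_ℓ`, as natural numbers. -/
def bNat (ℓ : ℕ) (x : OnePoint (ZMod ℓ)) : ℕ := x.elim 0 (fun j => j.val)

theorem repT_10 (hℓ : ℓ ≠ 0) (x : OnePoint (ZMod ℓ)) :
    ((repT ℓ x : GL (Fin 2) ℝ) : Matrix (Fin 2) (Fin 2) ℝ) 1 0 = 0 := by
  induction x using OnePoint.rec with
  | infty => show ((heckeDiagMatrix ℓ : GL (Fin 2) ℝ) : Matrix (Fin 2) (Fin 2) ℝ) 1 0 = 0
             simp [hℓ]
  | coe j => show ((heckeMatrix ℓ j.val : GL (Fin 2) ℝ) : Matrix (Fin 2) (Fin 2) ℝ) 1 0 = 0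
             simp [hℓ]

theorem repT_11 (hℓ : ℓ ≠ 0) (x : OnePoint (ZMod ℓ)) :
    ((repT ℓ x : GL (Fin 2) ℝ) : Matrix (Fin 2) (Fin 2) ℝ) 1 1 = dNat ℓ x := by
  induction x using OnePoint.rec with
  | infty => show ((heckeDiagMatrix ℓ : GL (Fin 2) ℝ) : Matrix (Fin 2) (Fin 2) ℝ) 1 1 = ((1 : ℕ) : ℝ)
             simp [hℓ]
  | coe j => show ((heckeMatrix ℓ j.val : GL (Fin 2) ℝ) : Matrix (Fin 2) (Fin 2) ℝ) 1 1 = (ℓ : ℝ)
             simp [hℓ]

theorem repT_01 (hℓ : ℓ ≠ 0) (x : OnePoint (ZMod ℓ)) :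
    ((repT ℓ x : GL (Fin 2) ℝ) : Matrix (Fin 2) (Fin 2) ℝ) 0 1 = bNat ℓ x := by
  induction x using OnePoint.rec with
  | infty => show ((heckeDiagMatrix ℓ : GL (Fin 2) ℝ) : Matrix (Fin 2) (Fin 2) ℝ) 0 1 = ((0 : ℕ) : ℝ)
             simp [hℓ]
  | coe j => show ((heckeMatrix ℓ j.val : GL (Fin 2) ℝ) : Matrix (Fin 2) (Fin 2) ℝ) 0 1
               = ((j.val : ℕ) : ℝ)
             simp [hℓ]

variable {N : ℕ}

/-- lower right entries of the representatives of `T_ℓ`, as units modulo `N`. -/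
noncomputable def dUnit (h : Nat.Coprime ℓ N) (x : OnePoint (ZMod ℓ)) : (ZMod N)ˣ :=
  x.elim 1 (fun _ => ZMod.unitOfCoprime ℓ h)

theorem coe_dUnit (h : Nat.Coprime ℓ N) (x : OnePoint (ZMod ℓ)) :
    ((dUnit h x : (ZMod N)ˣ) : ZMod N) = (dNat ℓ x : ZMod N) := by
  induction x using OnePoint.rec with
  | infty => show ((1 : (ZMod N)ˣ) : ZMod N) = ((1 : ℕ) : ZMod N)
             simp
  | coe j => show ((ZMod.unitOfCoprime ℓ h : (ZMod N)ˣ) : ZMod N) = ((ℓ : ℕ) : ZMod N)
             simp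

/-- `T_ℓ^B (ψ ∘ χ₀) = (ℓ + 1) • (ψ ∘ χ₀)`. -/
theorem TB_chi (hℓ : ℓ.Prime) (hℓN : ¬ ℓ ∣ N) {A : Type*} [AddCommGroup A]
    (ψ : Additive (ZMod N)ˣ →+ A) :
    TB N A hℓ hℓN (ψ.comp (MonoidHom.toAdditive (chi0 N))) =
      (ℓ + 1) • (ψ.comp (MonoidHom.toAdditive (chi0 N))) := by
  have : Fact ℓ.Prime := ⟨hℓ⟩
  have hcop : Nat.Coprime ℓ N := (Nat.Prime.coprime_iff_not_dvd hℓ).mpr hℓN
  rw [TB_apply]
  have key := heckeOp_twisted (isHeckeFamily_T N hℓN) (incl_injective N) (chi0 N) (dUnit hcop)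
    (fun γ x => by
      have h := (isHeckeFamily_T N hℓN).rep_mul γ x
      have h1 := lower_right_rel (repT_10 hℓ.ne_zero x) (repT_11 hℓ.ne_zero x)
        (repT_01 hℓ.ne_zero _) (repT_11 hℓ.ne_zero _) γ _ h
      rw [eq_mul_inv_iff_mul_eq]
      apply Units.ext
      simp only [Units.val_mul, coe_dUnit]
      rw [← h1]
      ring) ψ
  rw [key]
  congr 1
  exact (Fintype.card_option (α := ZMod ℓ)).trans (by rw [ZMod.card])

end TChi

section UChi

variable {N p : ℕ}

/-- For the representatives `[1,j;0,p]` of `U_p`: `κ` and `γ` have the same lower right entry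
modulo `N`. -/
theorem chi0_kap_U (hp : p ≠ 0) {j j' : ℕ} (γ κ : Gamma0 N)
    (h : heckeMatrix p j * incl N γ = incl N κ * heckeMatrix p j') :
    chi0 N κ = chi0 N γ := by
  have h10 := congrArg (fun M : GL (Fin 2) ℝ => (M : Matrix (Fin 2) (Fin 2) ℝ) 1 0) h
  have h11 := congrArg (fun M : GL (Fin 2) ℝ => (M : Matrix (Fin 2) (Fin 2) ℝ) 1 1) h
  simp only [Units.val_mul, Matrix.mul_apply, Fin.sum_univ_two, incl_apply, mapGL_entry,
    val_heckeMatrix hp, Matrix.of_apply, Matrix.cons_val_zero, Matrix.cons_val_one,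
    Matrix.cons_val', Matrix.cons_val_fin_one] at h10 h11
  have hpR : (p : ℝ) ≠ 0 := Nat.cast_ne_zero.mpr hp
  have hR : (((γ : SL(2, ℤ)) 1 1 : ℤ) : ℝ) =
      (((γ : SL(2, ℤ)) 1 0 : ℤ) : ℝ) * (j' : ℝ) + (((κ : SL(2, ℤ)) 1 1 : ℤ) : ℝ) := by
    have h10' : (((κ : SL(2, ℤ)) 1 0 : ℤ) : ℝ) = (p : ℝ) * (((γ : SL(2, ℤ)) 1 0 : ℤ) : ℝ) := by
      linarith
    have h11' : (p : ℝ) * (((γ : SL(2, ℤ)) 1 1 : ℤ) : ℝ) =
        (p : ℝ) * ((((γ : SL(2, ℤ)) 1 0 : ℤ) : ℝ) * (j' : ℝ) + (((κ : SL(2, ℤ)) 1 1 : ℤ) : ℝ)) := by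
      rw [h10'] at h11
      linarith
    exact mul_left_cancel₀ hpR h11'
  have hZ : ((γ : SL(2, ℤ)) 1 1 : ℤ) = ((γ : SL(2, ℤ)) 1 0) * (j' : ℤ) + ((κ : SL(2, ℤ)) 1 1) := by
    exact_mod_cast hR
  have hM := congrArg (Int.cast : ℤ → ZMod N) hZ
  push_cast at hM
  rw [cast_lower_left γ, zero_mul, zero_add] at hM
  apply Units.ext
  rw [coe_chi0, coe_chi0]
  exact hM.symm

/-- `U_p^B (ψ ∘ χ₀) = p • (ψ ∘ χ₀)`. -/
theorem UB_chi [NeZero N] (hpN : p ∣ N) {A : Type*} [AddCommGroup A]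
    (ψ : Additive (ZMod N)ˣ →+ A) :
    UB N A hpN (ψ.comp (MonoidHom.toAdditive (chi0 N))) =
      p • (ψ.comp (MonoidHom.toAdditive (chi0 N))) := by
  have : NeZero p := neZero_of_dvd hpN
  rw [UB_apply]
  have key := heckeOp_twisted (isHeckeFamily_U N hpN) (incl_injective N) (chi0 N) (fun _ => 1)
    (fun γ x => by
      have h := (isHeckeFamily_U N hpN).rep_mul γ x
      rw [chi0_kap_U (NeZero.ne p) γ _ h]
      simp) ψ
  rw [key]
  congr 1
  exact ZMod.card p

end UChi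

section Surj

/-- `χ₀ : Γ₀(N) → (ZMod N)ˣ` is surjective. -/
theorem chi0_surjective (N : ℕ) [NeZero N] : Function.Surjective (chi0 N) := by
  intro u
  have hcop : Nat.Coprime (u : ZMod N).val N := ZMod.val_coe_unit_coprime u
  obtain ⟨a, b, hab⟩ := Nat.Coprime.isCoprime hcop
  have hdet : Matrix.det !![a, -b; (N : ℤ), ((u : ZMod N).val : ℤ)] = 1 := by
    rw [Matrix.det_fin_two_of]
    linarith
  let g : SL(2, ℤ) := ⟨!![a, -b; (N : ℤ), ((u : ZMod N).val : ℤ)], hdet⟩
  have hg : g ∈ Gamma0 N := by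
    rw [Gamma0_mem]
    show (((N : ℤ) : ℤ) : ZMod N) = 0
    simp
  refine ⟨⟨g, hg⟩, ?_⟩
  apply Units.ext
  rw [coe_chi0]
  show ((((u : ZMod N).val : ℤ) : ℤ) : ZMod N) = u
  simp

end Surj

section Vanishing

variable {p : ℕ}

/-- In `Γ₀(p)`, `p` prime, an element of trace `±2` has `d ≡ ±1 mod p`. -/
theorem chi0_of_trace_sq (hp : p.Prime) (γ : Gamma0 p)
    (h : ((γ : SL(2, ℤ)) : Matrix (Fin 2) (Fin 2) ℤ).trace ^ 2 = 4) :
    chi0 p γ = 1 ∨ chi0 p γ = -1 := by
  have : Fact p.Prime := ⟨hp⟩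
  have hdet := Matrix.SpecialLinearGroup.det_coe (γ : SL(2, ℤ))
  rw [Matrix.det_fin_two] at hdet
  rw [Matrix.trace_fin_two] at h
  have hc := cast_lower_left γ
  have h1 := congrArg (Int.cast : ℤ → ZMod p) hdet
  have h2 := congrArg (Int.cast : ℤ → ZMod p) h
  push_cast at h1 h2
  rw [hc, mul_zero, sub_zero] at h1
  set a : ZMod p := (((γ : SL(2, ℤ)) 0 0 : ℤ) : ZMod p) with ha
  set d : ZMod p := (((γ : SL(2, ℤ)) 1 1 : ℤ) : ZMod p) with hd
  have h3 : (d - a) ^ 2 = 0 := by linear_combination h2 - 4 * h1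
  have h4 : d = a := by
    have := pow_eq_zero_iff (two_ne_zero) |>.mp h3
    exact sub_eq_zero.mp this
  have h5 : (d - 1) * (d + 1) = 0 := by
    rw [← h4] at h1
    linear_combination h1
  rcases mul_eq_zero.mp h5 with h6 | h6
  · left
    apply Units.ext
    rw [coe_chi0]
    exact sub_eq_zero.mp h6
  · right
    apply Units.ext
    rw [coe_chi0, Units.val_neg, Units.val_one]
    exact eq_neg_of_add_eq_zero_left h6

/-- `ψ ∘ χ₀` is a parabolic homomorphism if `ψ (-1) = 0`. -/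
theorem isParabolicHom_chi (hp : p.Prime) {A : Type*} [AddCommGroup A]
    (ψ : Additive (ZMod p)ˣ →+ A) (hψ : ψ (Additive.ofMul (-1)) = 0) :
    ModularCurve.Period.IsParabolicHom (Gamma0 p) (ψ.comp (MonoidHom.toAdditive (chi0 p))) := by
  intro γ hγ
  show ψ (Additive.ofMul (chi0 p γ)) = 0
  rcases chi0_of_trace_sq hp γ hγ with h | h
  · rw [h]
    exact map_zero ψ
  · rw [h]
    exact hψ

/-- `ψ ∘ χ₀` kills the elements `γ` with `γ ^ k = 1` if `ψ` kills the `k`-torsion. -/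
theorem chi_torsion {N : ℕ} {A : Type*} [AddCommGroup A] (ψ : Additive (ZMod N)ˣ →+ A) (k : ℕ)
    (hψ : ∀ u : (ZMod N)ˣ, u ^ k = 1 → ψ (Additive.ofMul u) = 0) (γ : Gamma0 N)
    (hγ : γ ^ k = 1) : (ψ.comp (MonoidHom.toAdditive (chi0 N))) (Additive.ofMul γ) = 0 := by
  show ψ (Additive.ofMul (chi0 N γ)) = 0
  apply hψ
  rw [← map_pow, hγ, map_one]

end Vanishing

section Psi

/-- A finite cyclic group of order `m` has a surjection onto `ZMod n` (`n ∣ m`) which kills the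
`k`-torsion, if `m ∣ k * y → n ∣ y`. -/
theorem exists_hom_cyclic {G : Type*} [AddCommGroup G] [IsAddCyclic G] [Finite G] (n k : ℕ)
    (hn : n ∣ Nat.card G) (hk : ∀ y : ℕ, Nat.card G ∣ k * y → n ∣ y) :
    ∃ ψ : G →+ ZMod n, Function.Surjective ψ ∧ ∀ x : G, k • x = 0 → ψ x = 0 := by
  have hm : NeZero (Nat.card G) := ⟨Nat.card_pos.ne'⟩
  let E : ZMod (Nat.card G) ≃+ G := zmodAddCyclicAddEquiv inferInstance
  let c : ZMod (Nat.card G) →+* ZMod n := ZMod.castHom hn (ZMod n)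
  refine ⟨c.toAddMonoidHom.comp E.symm.toAddMonoidHom, ?_, ?_⟩
  · exact (ZMod.castHom_surjective hn).comp E.symm.surjective
  · intro x hx
    show c (E.symm x) = 0
    have h1 : k • E.symm x = 0 := by rw [← map_nsmul, hx, map_zero]
    have h2 : ((k * (E.symm x).val : ℕ) : ZMod (Nat.card G)) = 0 := by
      rw [Nat.cast_mul, ZMod.natCast_zmod_val, ← nsmul_eq_mul]
      exact h1
    have h3 : n ∣ (E.symm x).val := hk _ ((ZMod.natCast_eq_zero_iff _ _).mp h2)
    have h4 : c (E.symm x) = c (((E.symm x).val : ℕ) : ZMod (Nat.card G)) := by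
      rw [ZMod.natCast_zmod_val]
    rw [h4, map_natCast]
    exact (ZMod.natCast_eq_zero_iff _ _).mpr h3

/-- The arithmetic input: `(p - 1) ∣ 12 y → n ∣ y` for `n = eisensteinNumerator p`. -/
theorem eisensteinNumerator_dvd_of (p y : ℕ) (h : p - 1 ∣ 12 * y) :
    ModularCurve.eisensteinNumerator p ∣ y := by
  have hg0 : 0 < Nat.gcd (p - 1) 12 := Nat.gcd_pos_of_pos_right _ (by norm_num)
  have hcop : Nat.Coprime ((p - 1) / Nat.gcd (p - 1) 12) (12 / Nat.gcd (p - 1) 12) :=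
    Nat.coprime_div_gcd_div_gcd hg0
  have h1 : (p - 1) / Nat.gcd (p - 1) 12 * Nat.gcd (p - 1) 12 = p - 1 :=
    Nat.div_mul_cancel (Nat.gcd_dvd_left _ _)
  have h2 : 12 / Nat.gcd (p - 1) 12 * Nat.gcd (p - 1) 12 = 12 :=
    Nat.div_mul_cancel (Nat.gcd_dvd_right _ _)
  have h3 : Nat.gcd (p - 1) 12 * ((p - 1) / Nat.gcd (p - 1) 12) ∣
      Nat.gcd (p - 1) 12 * (12 / Nat.gcd (p - 1) 12 * y) := by
    have e1 : Nat.gcd (p - 1) 12 * ((p - 1) / Nat.gcd (p - 1) 12) = p - 1 := by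
      rw [mul_comm]; exact h1
    have e2 : Nat.gcd (p - 1) 12 * (12 / Nat.gcd (p - 1) 12 * y) = 12 * y := by
      rw [← mul_assoc, mul_comm (Nat.gcd (p - 1) 12), h2]
    rw [e1, e2]
    exact h
  have h4 := Nat.dvd_of_mul_dvd_mul_left hg0 h3
  exact hcop.dvd_of_dvd_mul_left h4

/-- The character `ψ : (ZMod p)ˣ → ZMod n`: surjective, kills the `12`-torsion. -/
theorem exists_psi {p : ℕ} (hp : p.Prime) :
    ∃ ψ : Additive (ZMod p)ˣ →+ ZMod (ModularCurve.eisensteinNumerator p),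
      Function.Surjective ψ ∧ ∀ u : (ZMod p)ˣ, u ^ 12 = 1 → ψ (Additive.ofMul u) = 0 := by
  have : Fact p.Prime := ⟨hp⟩
  have hcard : Nat.card (Additive (ZMod p)ˣ) = p - 1 := by
    rw [Nat.card_congr (Additive.toMul (α := (ZMod p)ˣ)), Nat.card_eq_fintype_card]
    exact ZMod.card_units p
  obtain ⟨ψ, hs, hk⟩ := exists_hom_cyclic (G := Additive (ZMod p)ˣ)
    (ModularCurve.eisensteinNumerator p) 12
    (by rw [hcard]; exact ModularCurve.eisensteinNumerator_dvd p)
    (fun y hy => eisensteinNumerator_dvd_of p y (by rwa [hcard] at hy))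
  refine ⟨ψ, hs, fun u hu => hk _ ?_⟩
  rw [← ofMul_pow, hu]
  rfl

end Psi

section Elliptic

theorem mat_pow_twelve (M : Matrix (Fin 2) (Fin 2) ℤ) (t : ℤ) (hsq : M ^ 2 = t • M - 1)
    (ht : t = 0 ∨ t = 1 ∨ t = -1) : M ^ 12 = 1 := by
  rcases ht with h0 | h1 | h1
  · rw [h0, zero_smul, zero_sub] at hsq
    have : M ^ 12 = (M ^ 2) ^ 6 := by rw [← pow_mul]
    rw [this, hsq]
    exact Even.neg_one_pow ⟨3, rfl⟩
  · rw [h1, one_smul] at hsq
    have h3 : M ^ 3 = -1 := by
      have : M ^ 3 = M ^ 2 * M := by rw [pow_succ]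
      rw [this, hsq, sub_mul, one_mul, ← pow_two, hsq]
      abel
    have : M ^ 12 = (M ^ 3) ^ 4 := by rw [← pow_mul]
    rw [this, h3]
    exact Even.neg_one_pow ⟨2, rfl⟩
  · rw [h1] at hsq
    have hsq' : M ^ 2 = -M - 1 := by rw [hsq]; simp
    have h3 : M ^ 3 = 1 := by
      have : M ^ 3 = M ^ 2 * M := by rw [pow_succ]
      rw [this, hsq', sub_mul, one_mul, neg_mul, ← pow_two, hsq']
      abel
    have : M ^ 12 = (M ^ 3) ^ 4 := by rw [← pow_mul]
    rw [this, h3, one_pow]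

/-- An element of `SL(2, ℤ)` with `trace ^ 2 < 4` has order dividing `12`. -/
theorem pow_twelve_eq_one_of_trace (g : SL(2, ℤ))
    (h : (g : Matrix (Fin 2) (Fin 2) ℤ).trace ^ 2 < 4) : g ^ 12 = 1 := by
  have hdet := Matrix.SpecialLinearGroup.det_coe g
  rw [Matrix.det_fin_two] at hdet
  rw [Matrix.trace_fin_two] at h
  have ht : (g : Matrix (Fin 2) (Fin 2) ℤ) 0 0 + (g : Matrix (Fin 2) (Fin 2) ℤ) 1 1 = 0 ∨
      (g : Matrix (Fin 2) (Fin 2) ℤ) 0 0 + (g : Matrix (Fin 2) (Fin 2) ℤ) 1 1 = 1 ∨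
      (g : Matrix (Fin 2) (Fin 2) ℤ) 0 0 + (g : Matrix (Fin 2) (Fin 2) ℤ) 1 1 = -1 := by
    have h1 : -2 < (g : Matrix (Fin 2) (Fin 2) ℤ) 0 0 + (g : Matrix (Fin 2) (Fin 2) ℤ) 1 1 := by
      nlinarith
    have h2 : (g : Matrix (Fin 2) (Fin 2) ℤ) 0 0 + (g : Matrix (Fin 2) (Fin 2) ℤ) 1 1 < 2 := by
      nlinarith
    omega
  apply Subtype.ext
  rw [Matrix.SpecialLinearGroup.coe_pow, Matrix.SpecialLinearGroup.coe_one]
  refine mat_pow_twelve _ _ ?_ ht
  rw [pow_two]
  ext i j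
  fin_cases i <;> fin_cases j <;>
    simp [Matrix.mul_apply, Fin.sum_univ_two, Matrix.smul_apply, Matrix.sub_apply,
      -zsmul_eq_mul] <;>
    first | linear_combination (-1 : ℤ) * hdet | ring

end Elliptic

section Main

/-- **LB-chi**: the Shimura class. For a prime `p` there is a surjective homomorphism
`φ : Γ₀(p) → ZMod n`, `n = eisensteinNumerator p`, vanishing on the elements of trace `±2` and on
the elements of order dividing `12` (in particular on all elements with `trace ^ 2 < 4`), with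
`T_ℓ^B φ = (ℓ + 1) φ` for the primes `ℓ ≠ p` and `U_p^B φ = φ`. -/
theorem exists_shimura_class {p : ℕ} (hp : p.Prime) :
    haveI : NeZero p := ⟨hp.ne_zero⟩
    ∃ φ : Additive (Gamma0 p) →+ ZMod (ModularCurve.eisensteinNumerator p),
      Function.Surjective φ ∧
      ModularCurve.Period.IsParabolicHom (Gamma0 p) φ ∧
      (∀ γ : Gamma0 p, γ ^ 12 = 1 → φ (Additive.ofMul γ) = 0) ∧
      (∀ γ : Gamma0 p, ((γ : SL(2, ℤ)) : Matrix (Fin 2) (Fin 2) ℤ).trace ^ 2 < 4 →
        φ (Additive.ofMul γ) = 0) ∧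
      (∀ (ℓ : ℕ) (hℓ : ℓ.Prime) (hℓp : ¬ ℓ ∣ p), TB p _ hℓ hℓp φ = (ℓ + 1) • φ) ∧
      UB p _ (dvd_refl p) φ = φ := by
  have : NeZero p := ⟨hp.ne_zero⟩
  obtain ⟨ψ, hs, hk⟩ := exists_psi hp
  have h12 : ∀ γ : Gamma0 p, γ ^ 12 = 1 →
      (ψ.comp (MonoidHom.toAdditive (chi0 p))) (Additive.ofMul γ) = 0 :=
    fun γ hγ => chi_torsion ψ 12 hk γ hγ
  refine ⟨ψ.comp (MonoidHom.toAdditive (chi0 p)), ?_, ?_, h12, ?_, ?_, ?_⟩
  · intro y
    obtain ⟨u, rfl⟩ := hs y
    obtain ⟨γ, hγ⟩ := chi0_surjective p (Additive.toMul u)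
    exact ⟨Additive.ofMul γ, by show ψ (Additive.ofMul (chi0 p γ)) = ψ u; rw [hγ]; rfl⟩
  · exact isParabolicHom_chi hp ψ (hk (-1) (by norm_num))
  · intro γ hγ
    apply h12
    apply Subtype.ext
    rw [Subgroup.coe_pow, Subgroup.coe_one]
    exact pow_twelve_eq_one_of_trace _ hγ
  · intro ℓ hℓ hℓp
    exact TB_chi hℓ hℓp ψ
  · rw [UB_chi (dvd_refl p) ψ]
    refine AddMonoidHom.ext fun γ => ?_
    show p • (ψ.comp (MonoidHom.toAdditive (chi0 p))) γ = (ψ.comp (MonoidHom.toAdditive (chi0 p))) γ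
    generalize (ψ.comp (MonoidHom.toAdditive (chi0 p))) γ = y
    have hp1 : ((p : ℕ) : ZMod (ModularCurve.eisensteinNumerator p)) = 1 := by
      have h1 : ((p - 1 : ℕ) : ZMod (ModularCurve.eisensteinNumerator p)) = 0 :=
        (ZMod.natCast_eq_zero_iff _ _).mpr (ModularCurve.eisensteinNumerator_dvd p)
      rw [Nat.cast_sub hp.one_le, Nat.cast_one, sub_eq_zero] at h1
      exact h1
    rw [nsmul_eq_mul, hp1, one_mul]

end Main

end Gamma0

end Fermat.Agent.S16.H38

end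
-- ==== END Fermat.Agent.S16.H38_Chi

-- ==== BEGIN Fermat.Agent.S16.H40_Chi
section

/-!
# S16, package `LB-χ-1` (helper40): the Shimura class

`χ : Γ₀(p) → ℤ/n`, `γ = [a,b;c,d] ↦ log (d mod p) mod n`, for any `n ∣ p - 1`.

* `chi p n hn : Additive (Gamma0 p) →+ ZMod n`;
* `TB_chi` : `T_ℓ^B χ = (ℓ + 1) • χ` for primes `ℓ ≠ p`;
* `UB_chi` : `U_p^B χ = χ`;
* `chi_surjective`;
* `chi_parabolic`, `chi_finOrder` : `χ` kills the elements of trace `±2` and, when
  `12 * n ∣ ... ` (see statement), the elements of finite order.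
-/

set_option autoImplicit false

namespace Fermat.Agent.S16.H40

open CongruenceSubgroup Matrix.SpecialLinearGroup ModularCurve ModularCurve.Period
open Fermat.Agent.Betti ModularForm
open scoped MatrixGroups

section Log

variable (p : ℕ) [Fact p.Prime] (n : ℕ)

/-- A surjective homomorphism `(ℤ/p)ˣ → ℤ/n` for `n ∣ p - 1` (discrete logarithm modulo `n`). -/
noncomputable def logn (hn : n ∣ Nat.card (ZMod p)ˣ) : (ZMod p)ˣ →* Multiplicative (ZMod n) :=
  (AddMonoidHom.toMultiplicative (ZMod.castHom hn (ZMod n)).toAddMonoidHom).comp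
    (zmodCyclicMulEquiv (inferInstance : IsCyclic (ZMod p)ˣ)).symm.toMonoidHom

theorem logn_surjective (hn : n ∣ Nat.card (ZMod p)ˣ) : Function.Surjective (logn p n hn) := by
  intro y
  obtain ⟨x, hx⟩ := ZMod.castHom_surjective hn (Multiplicative.toAdd y)
  refine ⟨zmodCyclicMulEquiv (inferInstance : IsCyclic (ZMod p)ˣ) (Multiplicative.ofAdd x), ?_⟩
  simp only [logn, MonoidHom.coe_comp, Function.comp_apply, MulEquiv.coe_toMonoidHom,
    MulEquiv.symm_apply_apply]
  exact congrArg Multiplicative.ofAdd hx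

end Log

section Chi

variable (p : ℕ) [Fact p.Prime] (n : ℕ)

/-- The unit `d mod p` of `γ = [a,b;c,d] ∈ Γ₀(p)`. -/
noncomputable def dU : Gamma0 p →* (ZMod p)ˣ := (Gamma0Map p).toHomUnits

@[simp] theorem coe_dU (γ : Gamma0 p) :
    ((dU p γ : (ZMod p)ˣ) : ZMod p) = (((γ : SL(2, ℤ)) 1 1 : ℤ) : ZMod p) := rfl

/-- The Shimura class `χ : Γ₀(p) → ℤ/n`, `γ ↦ log (d mod p) mod n`. -/
noncomputable def chi (hn : n ∣ Nat.card (ZMod p)ˣ) : Additive (Gamma0 p) →+ ZMod n :=
  MonoidHom.toAdditiveLeft ((logn p n hn).comp (dU p))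

theorem chi_apply (hn : n ∣ Nat.card (ZMod p)ˣ) (γ : Gamma0 p) :
    chi p n hn (Additive.ofMul γ) = Multiplicative.toAdd (logn p n hn (dU p γ)) := rfl

/-- The additive logarithm `L u = log u mod n` of a unit. -/
noncomputable def L (hn : n ∣ Nat.card (ZMod p)ˣ) (u : (ZMod p)ˣ) : ZMod n :=
  Multiplicative.toAdd (logn p n hn u)

theorem L_mul (hn : n ∣ Nat.card (ZMod p)ˣ) (u v : (ZMod p)ˣ) :
    L p n hn (u * v) = L p n hn u + L p n hn v := by
  simp [L, map_mul]

theorem L_one (hn : n ∣ Nat.card (ZMod p)ˣ) : L p n hn 1 = 0 := by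
  simp [L]

/-- Transfer rule: if `d(κ) * v = u * d(γ)` in `ℤ/p` then `χ κ = χ γ + L u - L v`. -/
theorem chi_of_mul_eq (hn : n ∣ Nat.card (ZMod p)ˣ) (γ κ : Gamma0 p) (u v : (ZMod p)ˣ)
    (h : ((dU p κ : (ZMod p)ˣ) : ZMod p) * (v : ZMod p) = (u : ZMod p) * ((dU p γ : (ZMod p)ˣ) : ZMod p)) :
    chi p n hn (Additive.ofMul κ) = chi p n hn (Additive.ofMul γ) + L p n hn u - L p n hn v := by
  have h' : dU p κ * v = u * dU p γ := Units.ext (by simpa using h)
  have h2 := congrArg (L p n hn) h'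
  rw [L_mul, L_mul] at h2
  rw [chi_apply, chi_apply]
  change L p n hn (dU p κ) = L p n hn (dU p γ) + L p n hn u - L p n hn v
  linear_combination h2

theorem chi_surjective (hn : n ∣ Nat.card (ZMod p)ˣ) : Function.Surjective (chi p n hn) := by
  intro y
  obtain ⟨u, hu⟩ := logn_surjective p n hn (Multiplicative.ofAdd y)
  -- a matrix in `Γ₀(p)` with lower right entry `≡ u mod p`
  have hp : (p : ℤ) ≠ 0 := by exact_mod_cast (Fact.out : p.Prime).ne_zero
  obtain ⟨d, hd⟩ : ∃ d : ℤ, ((d : ℤ) : ZMod p) = (u : ZMod p) :=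
    ⟨((u : ZMod p)).val, by simp⟩
  have hcop : IsCoprime d (p : ℤ) := by
    have hpp : Prime (p : ℤ) := Nat.prime_iff_prime_int.mp Fact.out
    rw [isCoprime_comm]
    refine (Prime.coprime_iff_not_dvd hpp).mpr ?_
    intro hdvd
    have : ((d : ℤ) : ZMod p) = 0 := (ZMod.intCast_zmod_eq_zero_iff_dvd _ _).mpr hdvd
    rw [hd] at this
    exact u.ne_zero this
  obtain ⟨a, b, hab⟩ := hcop
  -- a * d + b * p = 1 : matrix [a, -b; p, d]
  let M : Matrix (Fin 2) (Fin 2) ℤ := !![a, -b; (p : ℤ), d]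
  have hdet : M.det = 1 := by
    simp only [M, Matrix.det_fin_two_of]
    linear_combination hab
  let g : SL(2, ℤ) := ⟨M, hdet⟩
  have hg : g ∈ Gamma0 p := by
    rw [Gamma0_mem]
    show (((M 1 0 : ℤ)) : ZMod p) = 0
    simp [M]
  refine ⟨Additive.ofMul ⟨g, hg⟩, ?_⟩
  rw [chi_apply]
  have hdu : dU p ⟨g, hg⟩ = u := by
    apply Units.ext
    rw [coe_dU]
    show (((M 1 1 : ℤ)) : ZMod p) = _
    simp [M, hd]
  rw [hdu, hu]
  rfl

end Chi

section Entries

variable {p : ℕ} [Fact p.Prime]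

/-- In `Γ₀(p)`: `a * d = 1` in `ℤ/p`. -/
theorem a_mul_d (γ : Gamma0 p) :
    ((((γ : SL(2, ℤ)) 0 0 : ℤ)) : ZMod p) * ((((γ : SL(2, ℤ)) 1 1 : ℤ)) : ZMod p) = 1 := by
  have hdet : (γ : SL(2, ℤ)) 0 0 * (γ : SL(2, ℤ)) 1 1 - (γ : SL(2, ℤ)) 0 1 * (γ : SL(2, ℤ)) 1 0 = 1 := by
    have := (γ : SL(2, ℤ)).2
    rwa [Matrix.det_fin_two] at this
  have hc : ((((γ : SL(2, ℤ)) 1 0 : ℤ)) : ZMod p) = 0 := Gamma0_mem.mp γ.2
  have := congrArg (Int.cast : ℤ → ZMod p) hdet
  push_cast at this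
  rw [hc, mul_zero, sub_zero] at this
  exact this

/-- Entry comparison: if `R * γ = κ * R'` with `R = [a,b;0,d]`, `R' = [a',b';0,d']` integral upper
triangular and `γ, κ ∈ Γ₀(p)`, then `d * d(γ) = d(κ) * d'` and `a * a(γ) = a(κ) * a'` in `ℤ/p`. -/
theorem entry_rel (γ κ : Gamma0 p) (R R' : GL (Fin 2) ℝ) (a b d a' b' d' : ℤ)
    (hR : (R : Matrix (Fin 2) (Fin 2) ℝ) = !![(a : ℝ), (b : ℝ); 0, (d : ℝ)])
    (hR' : (R' : Matrix (Fin 2) (Fin 2) ℝ) = !![(a' : ℝ), (b' : ℝ); 0, (d' : ℝ)])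
    (h : R * incl p γ = incl p κ * R') :
    (d : ZMod p) * ((((γ : SL(2, ℤ)) 1 1 : ℤ)) : ZMod p)
        = ((((κ : SL(2, ℤ)) 1 1 : ℤ)) : ZMod p) * (d' : ZMod p) ∧
      (a : ZMod p) * ((((γ : SL(2, ℤ)) 0 0 : ℤ)) : ZMod p)
        = ((((κ : SL(2, ℤ)) 0 0 : ℤ)) : ZMod p) * (a' : ZMod p) := by
  have h11 := congrArg (fun M : GL (Fin 2) ℝ => (M : Matrix (Fin 2) (Fin 2) ℝ) 1 1) h
  have h00 := congrArg (fun M : GL (Fin 2) ℝ => (M : Matrix (Fin 2) (Fin 2) ℝ) 0 0) h
  simp only [Units.val_mul, hR, hR', incl_apply, Matrix.mul_apply, Fin.sum_univ_two] at h11 h00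
  simp at h11 h00
  have hκc : ((((κ : SL(2, ℤ)) 1 0 : ℤ)) : ZMod p) = 0 := Gamma0_mem.mp κ.2
  have hγc : ((((γ : SL(2, ℤ)) 1 0 : ℤ)) : ZMod p) = 0 := Gamma0_mem.mp γ.2
  have e11 : d * (γ : SL(2, ℤ)) 1 1 = (κ : SL(2, ℤ)) 1 0 * b' + (κ : SL(2, ℤ)) 1 1 * d' := by
    exact_mod_cast h11
  have e00 : a * (γ : SL(2, ℤ)) 0 0 + b * (γ : SL(2, ℤ)) 1 0 = (κ : SL(2, ℤ)) 0 0 * a' := by
    exact_mod_cast h00
  constructor
  · have := congrArg (Int.cast : ℤ → ZMod p) e11
    push_cast at this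
    rw [hκc, zero_mul, zero_add] at this
    exact this
  · have := congrArg (Int.cast : ℤ → ZMod p) e00
    push_cast at this
    rw [hγc, mul_zero, add_zero] at this
    exact this

end Entries

section HeckeEigen

open P2MW.S_ModularForm_heckeT_slash_eq_self_of_mem_Gamma0.ModularForm.HeckeSlashInvariance

variable (p : ℕ) [Fact p.Prime] (n : ℕ)

/-- The lower right entry of the representative `repT ℓ x`, as a unit modulo `p` (`ℓ ≠ p`). -/
noncomputable def uT {ℓ : ℕ} (hℓp : Nat.Coprime ℓ p) (x : OnePoint (ZMod ℓ)) : (ZMod p)ˣ :=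
  x.elim 1 (fun _ => ZMod.unitOfCoprime ℓ hℓp)

theorem TB_chi (hn : n ∣ Nat.card (ZMod p)ˣ) {ℓ : ℕ} (hℓ : ℓ.Prime) (hℓp : ¬ ℓ ∣ p) :
    TB p (ZMod n) hℓ hℓp (chi p n hn) = (ℓ + 1) • chi p n hn := by
  have : Fact ℓ.Prime := ⟨hℓ⟩
  have hℓ0 : ℓ ≠ 0 := hℓ.ne_zero
  have hcop : Nat.Coprime ℓ p := (Nat.Prime.coprime_iff_not_dvd hℓ).mpr hℓp
  refine AddMonoidHom.ext fun γ' => ?_
  obtain ⟨γ, rfl⟩ : ∃ γ : Gamma0 p, Additive.ofMul γ = γ' := ⟨Additive.toMul γ', rfl⟩
  rw [TB_apply_apply]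
  set H := isHeckeFamily_T p hℓp with hH
  have key : ∀ x : OnePoint (ZMod ℓ),
      chi p n hn (Additive.ofMul (H.kap γ x))
        = chi p n hn (Additive.ofMul γ) + L p n hn (uT p hcop x)
          - L p n hn (uT p hcop (H.perm γ x)) := by
    intro x
    apply chi_of_mul_eq
    have hmul := H.rep_mul γ x
    -- matrix shapes of the representatives
    have shape : ∀ y : OnePoint (ZMod ℓ), ∃ a b d : ℤ,
        ((repT ℓ y : GL (Fin 2) ℝ) : Matrix (Fin 2) (Fin 2) ℝ) = !![(a : ℝ), (b : ℝ); 0, (d : ℝ)]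
          ∧ (d : ZMod p) = ((uT p hcop y : (ZMod p)ˣ) : ZMod p) := by
      intro y
      induction y using OnePoint.rec with
      | infty =>
        refine ⟨ℓ, 0, 1, ?_, ?_⟩
        · show ((heckeDiagMatrix ℓ : GL (Fin 2) ℝ) : Matrix (Fin 2) (Fin 2) ℝ) = _
          rw [val_heckeDiagMatrix hℓ0]; simp
        · simp [uT]
      | coe j =>
        refine ⟨1, j.val, ℓ, ?_, ?_⟩
        · show ((heckeMatrix ℓ j.val : GL (Fin 2) ℝ) : Matrix (Fin 2) (Fin 2) ℝ) = _
          rw [val_heckeMatrix hℓ0]; simp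
        · simp [uT, ZMod.coe_unitOfCoprime]
    obtain ⟨a, b, d, hR, hd⟩ := shape x
    obtain ⟨a', b', d', hR', hd'⟩ := shape (H.perm γ x)
    have := (entry_rel γ (H.kap γ x) _ _ a b d a' b' d' hR hR' hmul).1
    rw [coe_dU, coe_dU, ← hd, ← hd']
    exact this.symm
  rw [Finset.sum_congr rfl (fun x _ => key x)]
  rw [Finset.sum_sub_distrib, Finset.sum_add_distrib]
  have hperm : ∑ x : OnePoint (ZMod ℓ), L p n hn (uT p hcop (H.perm γ x))
      = ∑ x : OnePoint (ZMod ℓ), L p n hn (uT p hcop x) :=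
    Equiv.sum_comp (H.permEquiv (incl_injective p) γ) (fun x => L p n hn (uT p hcop x))
  rw [hperm, add_sub_cancel_right, Finset.sum_const, Finset.card_univ]
  have hcard : Fintype.card (OnePoint (ZMod ℓ)) = ℓ + 1 := by
    show Fintype.card (Option (ZMod ℓ)) = ℓ + 1
    rw [Fintype.card_option, ZMod.card]
  rw [hcard]
  rfl

theorem UB_chi (hn : n ∣ Nat.card (ZMod p)ˣ) :
    haveI : NeZero p := ⟨(Fact.out : p.Prime).ne_zero⟩
    UB p (ZMod n) (dvd_refl p) (chi p n hn) = chi p n hn := by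
  have : NeZero p := ⟨(Fact.out : p.Prime).ne_zero⟩
  have hp0 : p ≠ 0 := (Fact.out : p.Prime).ne_zero
  refine AddMonoidHom.ext fun γ' => ?_
  obtain ⟨γ, rfl⟩ : ∃ γ : Gamma0 p, Additive.ofMul γ = γ' := ⟨Additive.toMul γ', rfl⟩
  rw [UB_apply_apply]
  set H := isHeckeFamily_U p (dvd_refl p) with hH
  have key : ∀ x : ZMod p,
      chi p n hn (Additive.ofMul (H.kap γ x)) = chi p n hn (Additive.ofMul γ) := by
    intro x
    have h := chi_of_mul_eq p n hn γ (H.kap γ x) 1 1 ?_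
    · simpa [L_one] using h
    have hmul := H.rep_mul γ x
    have hR : ((repU p x : GL (Fin 2) ℝ) : Matrix (Fin 2) (Fin 2) ℝ)
        = !![((1 : ℤ) : ℝ), ((x.val : ℤ) : ℝ); 0, ((p : ℤ) : ℝ)] := by
      show ((heckeMatrix p x.val : GL (Fin 2) ℝ) : Matrix (Fin 2) (Fin 2) ℝ) = _
      rw [val_heckeMatrix hp0]; simp
    have hR' : ((repU p (H.perm γ x) : GL (Fin 2) ℝ) : Matrix (Fin 2) (Fin 2) ℝ)
        = !![((1 : ℤ) : ℝ), (((H.perm γ x).val : ℤ) : ℝ); 0, ((p : ℤ) : ℝ)] := by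
      show ((heckeMatrix p (H.perm γ x).val : GL (Fin 2) ℝ) : Matrix (Fin 2) (Fin 2) ℝ) = _
      rw [val_heckeMatrix hp0]; simp
    have ha := (entry_rel γ (H.kap γ x) _ _ 1 x.val p 1 (H.perm γ x).val p hR hR' hmul).2
    simp only [Int.cast_one, one_mul, mul_one] at ha
    -- a(γ) = a(κ), hence d(κ) = d(γ)
    have h1 := a_mul_d γ
    have h2 := a_mul_d (H.kap γ x)
    rw [coe_dU, coe_dU, Units.val_one, mul_one, one_mul]
    rw [← ha] at h2
    -- a * dκ = 1 = a * dγ
    have hunit : IsUnit ((((γ : SL(2, ℤ)) 0 0 : ℤ)) : ZMod p) :=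
      IsUnit.of_mul_eq_one _ h1
    exact hunit.mul_left_cancel (h2.trans h1.symm)
  rw [Finset.sum_congr rfl (fun x _ => key x), Finset.sum_const, Finset.card_univ, ZMod.card]
  -- p • y = y in ZMod n since n ∣ p - 1
  have hp1 : ((p : ℕ) : ZMod n) = 1 := by
    have hcard : Nat.card (ZMod p)ˣ = p - 1 := by
      rw [Nat.card_eq_fintype_card, ZMod.card_units]
    rw [hcard] at hn
    have hpos : 1 ≤ p := (Fact.out : p.Prime).one_lt.le
    have : ((p - 1 : ℕ) : ZMod n) = 0 := (ZMod.natCast_eq_zero_iff _ _).mpr hn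
    rw [Nat.cast_sub hpos, Nat.cast_one, sub_eq_zero] at this
    exact this
  rw [nsmul_eq_mul, hp1, one_mul]

end HeckeEigen

section Vanishing

variable (p : ℕ) [Fact p.Prime] (n : ℕ)

/-- If `u ^ k = 1` and `k * n ∣ p - 1` then `log u ≡ 0 mod n`. -/
theorem L_eq_zero_of_pow (hn : n ∣ Nat.card (ZMod p)ˣ) {k : ℕ} (hk : k ≠ 0)
    (hkn : k * n ∣ Nat.card (ZMod p)ˣ) {u : (ZMod p)ˣ} (hu : u ^ k = 1) : L p n hn u = 0 := by
  set m := Nat.card (ZMod p)ˣ with hm
  have hm0 : NeZero m := ⟨Nat.card_pos.ne'⟩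
  set e := zmodCyclicMulEquiv (inferInstance : IsCyclic (ZMod p)ˣ) with he
  set t : ZMod m := Multiplicative.toAdd (e.symm u) with ht
  have hLt : L p n hn u = ZMod.castHom hn (ZMod n) t := rfl
  have hkt : (k : ZMod m) * t = 0 := by
    have h1 : e.symm (u ^ k) = 1 := by rw [hu, map_one]
    rw [map_pow] at h1
    have h2 := congrArg Multiplicative.toAdd h1
    rw [toAdd_pow, toAdd_one] at h2
    rw [← nsmul_eq_mul]
    exact h2
  have hval : m ∣ k * t.val := by
    rw [← ZMod.natCast_eq_zero_iff, Nat.cast_mul, ZMod.natCast_val, ZMod.cast_id', id]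
    exact hkt
  have hnt : n ∣ t.val := by
    have h3 : k * n ∣ k * t.val := hkn.trans hval
    exact (Nat.mul_dvd_mul_iff_left (Nat.pos_of_ne_zero hk)).mp h3
  rw [hLt, ZMod.castHom_apply, ZMod.cast_eq_val, ZMod.natCast_eq_zero_iff]
  exact hnt

/-- `d(γ) ^ 12 = 1` for `γ ∈ Γ₀(p)` with `(tr γ)² ≤ 4` (elliptic, parabolic, `±1`). -/
theorem dU_pow_twelve (γ : Gamma0 p)
    (htr : ((γ : SL(2, ℤ)) : Matrix (Fin 2) (Fin 2) ℤ).trace ^ 2 ≤ 4) : dU p γ ^ 12 = 1 := by
  apply Units.ext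
  rw [Units.val_pow_eq_pow_val, coe_dU, Units.val_one]
  set a : ZMod p := ((((γ : SL(2, ℤ)) 0 0 : ℤ)) : ZMod p) with ha
  set d : ZMod p := ((((γ : SL(2, ℤ)) 1 1 : ℤ)) : ZMod p) with hd
  have had : a * d = 1 := a_mul_d γ
  rw [Matrix.trace_fin_two] at htr
  set t : ℤ := (γ : SL(2, ℤ)) 0 0 + (γ : SL(2, ℤ)) 1 1 with ht
  have hsum : a + d = (t : ZMod p) := by rw [ht]; push_cast; rfl
  -- d² = t d - 1
  have hquad : d ^ 2 = (t : ZMod p) * d - 1 := by
    rw [← hsum, ← had]; ring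
  have ht2 : -2 ≤ t ∧ t ≤ 2 := by
    constructor <;> nlinarith
  obtain ⟨h1, h2⟩ := ht2
  interval_cases t
  · -- t = -2
    have : d ^ 2 = -2 * d - 1 := by simpa using hquad
    have h12 : d ^ 12 = 1 + (d ^ 2 + 2 * d + 1) * (d ^ 10 - 2 * d ^ 9 + 3 * d ^ 8 - 4 * d ^ 7
        + 5 * d ^ 6 - 6 * d ^ 5 + 7 * d ^ 4 - 8 * d ^ 3 + 9 * d ^ 2 - 10 * d + 11) + (-12) * (d + 1) := by
      ring
    have hd1 : (d + 1) ^ 2 = 0 := by linear_combination this
    have hd1' : d + 1 = 0 := by simpa using pow_eq_zero_iff (two_ne_zero) |>.mp hd1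
    rw [h12, hd1']
    have : d ^ 2 + 2 * d + 1 = 0 := by linear_combination hd1
    rw [this]; ring
  · -- t = -1
    have : d ^ 2 = -d - 1 := by simpa using hquad
    have h3 : d ^ 3 = 1 := by linear_combination (d - 1) * this
    calc d ^ 12 = (d ^ 3) ^ 4 := by ring
      _ = 1 := by rw [h3, one_pow]
  · -- t = 0
    have : d ^ 2 = -1 := by simpa using hquad
    calc d ^ 12 = (d ^ 2) ^ 6 := by ring
      _ = 1 := by rw [this]; ring
  · -- t = 1
    have : d ^ 2 = d - 1 := by simpa using hquad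
    have h3 : d ^ 3 = -1 := by linear_combination (d + 1) * this
    calc d ^ 12 = (d ^ 3) ^ 4 := by ring
      _ = 1 := by rw [h3]; ring
  · -- t = 2
    have : d ^ 2 = 2 * d - 1 := by simpa using hquad
    have hd1 : (d - 1) ^ 2 = 0 := by linear_combination this
    have hd1' : d - 1 = 0 := by simpa using pow_eq_zero_iff (two_ne_zero) |>.mp hd1
    have : d = 1 := by linear_combination hd1'
    rw [this, one_pow]

/-- `χ` kills every element of `Γ₀(p)` with `(tr γ)² ≤ 4` (elliptic, parabolic, `±1`), as soon as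
`gcd(p - 1, 12) * n ∣ p - 1`. -/
theorem chi_eq_zero_of_trace (hn : n ∣ Nat.card (ZMod p)ˣ)
    (hn12 : Nat.gcd (Nat.card (ZMod p)ˣ) 12 * n ∣ Nat.card (ZMod p)ˣ) (γ : Gamma0 p)
    (htr : ((γ : SL(2, ℤ)) : Matrix (Fin 2) (Fin 2) ℤ).trace ^ 2 ≤ 4) :
    chi p n hn (Additive.ofMul γ) = 0 := by
  rw [chi_apply]
  change L p n hn (dU p γ) = 0
  have h12 : dU p γ ^ 12 = 1 := dU_pow_twelve p γ htr
  have hcard : dU p γ ^ Nat.card (ZMod p)ˣ = 1 := pow_card_eq_one'
  have hg : dU p γ ^ Nat.gcd (Nat.card (ZMod p)ˣ) 12 = 1 := by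
    rw [pow_gcd_eq_one]
    exact ⟨hcard, h12⟩
  have hk : Nat.gcd (Nat.card (ZMod p)ˣ) 12 ≠ 0 := by
    intro h
    have := Nat.eq_zero_of_gcd_eq_zero_right h
    omega
  exact L_eq_zero_of_pow p n hn hk hn12 hg

theorem chi_isParabolicHom (hn : n ∣ Nat.card (ZMod p)ˣ)
    (hn12 : Nat.gcd (Nat.card (ZMod p)ˣ) 12 * n ∣ Nat.card (ZMod p)ˣ) :
    IsParabolicHom (Gamma0 p) (chi p n hn) := by
  intro γ hγ
  exact chi_eq_zero_of_trace p n hn hn12 γ (by rw [hγ])

end Vanishing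

end Fermat.Agent.S16.H40

end
-- ==== END Fermat.Agent.S16.H40_Chi
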