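-- GENERATED (merged mirror, NOTES/tools/trim/merge3_helper67.py): 7 modules of the originals, bodies verbatim.
import Mathlib.RingTheory.AdicCompletion.Completeness
import Mathlib.RingTheory.Henselian
import Mathlib.RingTheory.RootsOfUnity.AlgebraicallyClosed
import Mathlib
import Fermat.Prelude.Def_ModularCurve_HeckeModule
import Fermat.Agent.Zm.S35_L03_004
import Fermat.Agent.Zm.S35_L03_001
import Fermat.Agent.Zm.S35_L02_000
import Fermat.Agent.Zm.S35_L03_005
import Fermat.Agent.S23.H22_Nice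
import Fermat.Agent.S23.H83_QExp
import Fermat.Agent.Zm.S35_L01_000
import Fermat.Agent.Zm.S35_L02_001
import Fermat.Agent.Zm.S35_L03_000
import Fermat.Agent.Zm.S35_L02_005

-- ==== BEGIN Fermat.Agent.GTor.Clo.H72_GCtriv
section

/-!
# G-TOR A3–A5, WP GCtriv (helper72): valuations of `K(x)` vanishing at `x`

`F = K(x)`.  There is exactly one place of `F / K` where `x` vanishes, `x` has order one there,
and every valuation `w` of `F`, trivial on `K`, with `w x = exp (-m)`, `m > 0`, is the `m`-th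
power of the valuation of this place.
-/

set_option autoImplicit false

noncomputable section

open AlgebraicCurve IntermediateField WithZero Polynomial

namespace Fermat.Agent.GTor.Clo

section Val

variable {K F : Type*} [Field K] [Field F] [Algebra K F]

/-- A valuation that is `≤ 1` on `K` and at `x` is `≤ 1` on `K[x]`. -/
theorem h72_val_aeval_le_one (u : Valuation F ℤᵐ⁰) (huK : ∀ c : K, u (algebraMap K F c) ≤ 1)
    (x : F) (hux : u x ≤ 1) (p : K[X]) : u (aeval x p) ≤ 1 := by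
  induction p using Polynomial.induction_on' with
  | add p q hp hq =>
    rw [map_add]
    exact (u.map_add _ _).trans (max_le hp hq)
  | monomial n c =>
    rw [aeval_monomial, map_mul, map_pow]
    exact mul_le_one' (huK c) (pow_le_one₀ zero_le hux)

/-- A valuation, trivial on `K^×`, with `u x < 1`: its value on `p(x)` is `u x ^ k`, `k` the
multiplicity of the root `0` of `p`. -/
theorem h72_val_aeval (u : Valuation F ℤᵐ⁰) (huK : ∀ c : K, c ≠ 0 → u (algebraMap K F c) = 1)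
    (x : F) (hux : u x < 1) (p : K[X]) (hp : p ≠ 0) :
    u (aeval x p) = u x ^ (p.rootMultiplicity 0) := by
  have huK' : ∀ c : K, u (algebraMap K F c) ≤ 1 := by
    intro c
    rcases eq_or_ne c 0 with rfl | hc
    · simp
    · exact (huK c hc).le
  obtain ⟨q, hq, hXq⟩ := Polynomial.exists_eq_pow_rootMultiplicity_mul_and_not_dvd p hp 0
  rw [C_0, sub_zero] at hq hXq
  have hq0 : q.coeff 0 ≠ 0 := fun h => hXq (Polynomial.X_dvd_iff.mpr h)
  have hdecomp : aeval x q = x * aeval x q.divX + algebraMap K F (q.coeff 0) := by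
    conv_lhs => rw [← Polynomial.divX_mul_X_add q]
    rw [map_add, map_mul, aeval_X, aeval_C, mul_comm]
  have h1 : u (x * aeval x q.divX) < 1 := by
    rw [map_mul]
    calc u x * u (aeval x q.divX) ≤ u x * 1 :=
          mul_le_mul_right (h72_val_aeval_le_one u huK' x hux.le _) _
      _ = u x := mul_one _
      _ < 1 := hux
  have h2 : u (aeval x q) = 1 := by
    rw [hdecomp, add_comm]
    have h3 := huK _ hq0
    rw [Valuation.map_add_eq_of_lt_left u (by rw [h3]; exact h1), h3]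
  conv_lhs => rw [hq]
  rw [map_mul, map_pow, aeval_X, map_mul, map_pow, h2, mul_one]

end Val

section Places

variable {K F : Type*} [Field K] [Field F] [Algebra K F]

theorem h72_finrank_of_eq_top (S : IntermediateField K F) (hS : S = ⊤) :
    FiniteDimensional S F ∧ Module.finrank S F = 1 := by
  subst hS
  exact ⟨Module.finite_of_finrank_pos (by rw [IntermediateField.finrank_top]; exact one_pos),
    IntermediateField.finrank_top⟩

theorem h72_adicValuation_algebraMap (v : Place K F) (c : K) (hc : c ≠ 0) :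
    v.adicValuation (algebraMap K F c) = 1 := by
  have hu : IsUnit (algebraMap K v.toValuationSubring c) := (hc.isUnit).map _
  have := (v.adicValuation_coe_eq_one_iff (algebraMap K v.toValuationSubring c)).mpr hu
  rwa [v.coe_algebraMap] at this

theorem h72_adicValuation_eq_exp (v : Place K F) {f : F} (hf : f ≠ 0) :
    v.adicValuation f = exp (-(v.ord f)) := by
  rw [Place.ord, neg_neg, exp_log (v.adicValuation_ne_zero hf)]

variable [IsAlgClosed K] [CharZero K]

/-- `K(x)` has a place where `x` vanishes to order one, and it is the only zero of `x`. -/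
theorem h72_exists_unique_zero (x : F) (hx : Transcendental K x) (htop : K⟮x⟯ = ⊤) :
    ∃ v : Place K F, v.ord x = 1 ∧ ∀ v' : Place K F, 0 < v'.ord x → v' = v := by
  classical
  obtain ⟨hfd, hrank⟩ := h72_finrank_of_eq_top K⟮x⟯ htop
  obtain ⟨hfin, hsum⟩ := Fermat.Agent.S24.ff_zeros x hx
  rw [hrank, finsum_mem_eq_finite_toFinset_sum _ hfin] at hsum
  have hpos : ∀ v ∈ hfin.toFinset, 0 < v.ord x := fun v hv => by
    simpa using hv
  have hne : hfin.toFinset.Nonempty := by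
    by_contra hemp
    rw [Finset.not_nonempty_iff_eq_empty] at hemp
    rw [hemp, Finset.sum_empty] at hsum
    norm_num at hsum
  obtain ⟨v, hv⟩ := hne
  have hle : ∀ v' ∈ hfin.toFinset, v' ≠ v → False := by
    intro v' hv' hne'
    have h2 : v.ord x + v'.ord x ≤ ∑ u ∈ hfin.toFinset, u.ord x := by
      have hsub : ({v, v'} : Finset (Place K F)) ⊆ hfin.toFinset := by
        intro u hu
        rcases Finset.mem_insert.mp hu with rfl | hu
        · exact hv
        · rw [Finset.mem_singleton.mp hu]; exact hv'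
      calc v.ord x + v'.ord x = ∑ u ∈ ({v, v'} : Finset (Place K F)), u.ord x := by
            rw [Finset.sum_pair (Ne.symm hne')]
        _ ≤ ∑ u ∈ hfin.toFinset, u.ord x :=
            Finset.sum_le_sum_of_subset_of_nonneg hsub
              (fun u hu _ => (hpos u hu).le)
    have := hpos v hv
    have := hpos v' hv'
    rw [hsum] at h2
    push_cast at h2
    omega
  refine ⟨v, ?_, ?_⟩
  · have h1 : v.ord x ≤ ∑ u ∈ hfin.toFinset, u.ord x :=
      Finset.single_le_sum (f := fun u : Place K F => u.ord x)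
        (fun u hu => (hpos u hu).le) hv
    have := hpos v hv
    rw [hsum] at h1
    push_cast at h1
    omega
  · intro v' hv'
    by_contra hne'
    exact hle v' (by simpa using hv') hne'

/-- **GCtriv**, uniqueness: `K(x)` has only one place where `x` vanishes. -/
theorem h72_gc_val_triv_unique (x : F) (hx : Transcendental K x) (htop : K⟮x⟯ = ⊤)
    (v v' : Place K F) (hv : 0 < v.ord x) (hv' : 0 < v'.ord x) : v = v' := by
  obtain ⟨v₀, -, huniq⟩ := h72_exists_unique_zero x hx htop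
  rw [huniq v hv, huniq v' hv']

/-- **GCtriv** (the case `F = K(x)`). A valuation of `K(x)`, trivial on `K`, with
`w x = exp (-m)`, `m > 0`, is `m` times the order at a place. -/
theorem h72_gc_val_triv (x : F) (hx : Transcendental K x) (htop : K⟮x⟯ = ⊤)
    (w : Valuation F ℤᵐ⁰) (hwK : ∀ c : K, c ≠ 0 → w (algebraMap K F c) = 1)
    (m : ℕ) (hm : 0 < m) (hwx : w x = exp (-(m : ℤ))) :
    ∃ v : Place K F, 0 < v.ord x ∧ ∀ f : F, f ≠ 0 → w f = exp (-((m : ℤ) * v.ord f)) := by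
  obtain ⟨v, hvx, -⟩ := h72_exists_unique_zero x hx htop
  have hx0 : x ≠ 0 := fun h => by
    rw [h] at hvx
    simp at hvx
  refine ⟨v, by rw [hvx]; exact one_pos, ?_⟩
  have hwx1 : w x < 1 := by
    rw [hwx, ← exp_zero, exp_lt_exp]
    omega
  have hvx' : v.adicValuation x = exp (-(1 : ℤ)) := by
    rw [h72_adicValuation_eq_exp v hx0, hvx]
  have hvx1 : v.adicValuation x < 1 := by
    rw [hvx', ← exp_zero, exp_lt_exp]
    omega
  -- both valuations on polynomials in `x`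
  have hpoly : ∀ p : K[X], p ≠ 0 → aeval x p ≠ 0 ∧
      w (aeval x p) = exp (-((m : ℤ) * (p.rootMultiplicity 0 : ℤ))) ∧
      v.ord (aeval x p) = (p.rootMultiplicity 0 : ℤ) := by
    intro p hp
    have hne : aeval x p ≠ 0 := fun h => hx ⟨p, hp, h⟩
    refine ⟨hne, ?_, ?_⟩
    · rw [h72_val_aeval w hwK x hwx1 p hp, hwx, ← exp_nsmul, nsmul_eq_mul]
      congr 1
      ring
    · have h1 := h72_val_aeval v.adicValuation (h72_adicValuation_algebraMap v) x hvx1 p hp
      rw [hvx', ← exp_nsmul, nsmul_eq_mul, h72_adicValuation_eq_exp v hne, exp_inj] at h1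
      linarith
  intro f hf
  have hmem : f ∈ K⟮x⟯ := by rw [htop]; exact IntermediateField.mem_top
  obtain ⟨r, s, hrs⟩ := (IntermediateField.mem_adjoin_simple_iff K f).mp hmem
  have hs0 : aeval x s ≠ 0 := by
    intro h
    rw [h, div_zero] at hrs
    exact hf hrs
  have hr0 : aeval x r ≠ 0 := by
    intro h
    rw [h, zero_div] at hrs
    exact hf hrs
  have hr : r ≠ 0 := fun h => hr0 (by rw [h, map_zero])
  have hs : s ≠ 0 := fun h => hs0 (by rw [h, map_zero])
  obtain ⟨-, hwr, hvr⟩ := hpoly r hr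
  obtain ⟨-, hws, hvs⟩ := hpoly s hs
  have hord : v.ord f = (r.rootMultiplicity 0 : ℤ) - (s.rootMultiplicity 0 : ℤ) := by
    rw [hrs, div_eq_mul_inv, v.ord_mul hr0 (inv_ne_zero hs0), v.ord_inv, hvr, hvs]
    ring
  rw [hord, hrs, map_div₀, hwr, hws, ← exp_sub]
  congr 1
  ring

end Places

end Fermat.Agent.GTor.Clo

end
end
-- ==== END Fermat.Agent.GTor.Clo.H72_GCtriv

-- ==== BEGIN Fermat.Agent.GTor.H56_DescRoot
section

/-!
# G-TOR package DESC, sub-package ROOT (helper56)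

`stmt_DescRoot : H75.Stmt_DescRoot k K F₀`: if `f ∈ F_k` becomes an `n`-th power in `F_K`
(`k` algebraically closed of characteristic `0`), then `f` is an `n`-th power in `F_k`.

* `mem_of_coeffMap_mem` : `k((q)) ∩ F_K = F_k` (linear algebra, via `linearIndependent_coeffMap`);
* `exists_pow_eq_laurent` : `n`-th roots in `k((q))` (Hensel in `k⟦q⟧`);
* roots of unity of `K((q))` of order dividing `n` are constants from `k`.
-/

set_option autoImplicit false
set_option linter.style.haveILetI false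
set_option linter.unusedSectionVars false

noncomputable section

namespace Fermat.Agent.GTor.H56


open ModularCurve Module

variable {k K : Type} [Field k] [Field K] (ι : k →+* K)

lemma coeffMap_mem_span {S : Set (LaurentSeries k)} {x : LaurentSeries k}
    (hx : x ∈ Submodule.span k S) : coeffMap ι x ∈ Submodule.span K (⇑(coeffMap ι) '' S) := by
  induction hx using Submodule.span_induction with
  | mem y hy => exact Submodule.subset_span ⟨y, hy, rfl⟩
  | zero => rw [map_zero]; exact zero_mem _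
  | add x y _ _ hx hy => rw [map_add]; exact add_mem hx hy
  | smul c x _ hx => rw [coeffMap_smul']; exact Submodule.smul_mem _ _ hx

lemma sum_smul_mul {I : Type*} [Fintype I] {L : Type} [Field L] (c : I → L)
    (v : I → LaurentSeries L) (x : LaurentSeries L) :
    x * ∑ a, c a • v a = ∑ a, c a • (x * v a) := by
  rw [Finset.mul_sum]
  refine Finset.sum_congr rfl fun a _ => ?_
  rw [smul_eq_algebraMap_mul, smul_eq_algebraMap_mul]
  ring

section Descent

variable [Algebra ℚ k] [Algebra ℚ K] (F₀ : IntermediateField ℚ (LaurentSeries ℚ))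

/-- `k((q)) ∩ F_K = F_k`. -/
theorem mem_of_coeffMap_mem {h₁ : LaurentSeries k}
    (h : coeffMap ι h₁ ∈ laurentBaseChange K F₀) : h₁ ∈ laurentBaseChange k F₀ := by
  classical
  obtain ⟨P, hP, Q, hQ, e⟩ := exists_div_of_mem F₀ K h
  by_cases hQ0 : Q = 0
  · have h0 : coeffMap ι h₁ = 0 := by rw [e, hQ0, div_zero]
    have : h₁ = 0 := H75.coeffMap_injective ι (by rw [h0, map_zero])
    rw [this]; exact zero_mem _
  rw [genSet_eq_image ι F₀] at hP hQ
  obtain ⟨TP, hTP, hP'⟩ := Submodule.mem_span_finite_of_mem_span hP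
  obtain ⟨TQ, hTQ, hQ'⟩ := Submodule.mem_span_finite_of_mem_span hQ
  obtain ⟨SP, hSP, rfl⟩ := Finset.subset_set_image_iff.mp hTP
  obtain ⟨SQ, hSQ, rfl⟩ := Finset.subset_set_image_iff.mp hTQ
  set T : Finset (LaurentSeries k) := SP ∪ SQ with hT
  have hTsub : (T : Set (LaurentSeries k)) ⊆ genSet F₀ k := by
    rw [hT, Finset.coe_union]; exact Set.union_subset hSP hSQ
  set U : Submodule k (LaurentSeries k) := Submodule.span k (T : Set (LaurentSeries k)) with hU
  have hUle : U ≤ Submodule.span k (genSet F₀ k) := Submodule.span_mono hTsub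
  let b := Module.finBasis k U
  let u : Fin (finrank k U) → LaurentSeries k := fun j => (b j : LaurentSeries k)
  have hu_li : LinearIndependent k u :=
    b.linearIndependent.map' U.subtype (Submodule.ker_subtype U)
  have hu_span : Submodule.span k (Set.range u) = U := by
    have h1 : Set.range u = U.subtype '' Set.range b := by
      rw [← Set.range_comp]; rfl
    rw [h1, Submodule.span_image, b.span_eq, Submodule.map_top, Submodule.range_subtype]
  have hu_mem : ∀ j, u j ∈ laurentBaseChange k F₀ := fun j =>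
    span_genSet_le F₀ k (hUle (b j).2)
  -- `P` and `Q` are `K`-combinations of the `coeffMap ι (u j)`
  have hW : ∀ X ∈ Submodule.span K (⇑(coeffMap ι) '' (T : Set (LaurentSeries k))),
      ∃ c : Fin (finrank k U) → K, ∑ j, c j • coeffMap ι (u j) = X := by
    intro X hX
    have h2 : Submodule.span K (⇑(coeffMap ι) '' (T : Set (LaurentSeries k)))
        ≤ Submodule.span K (Set.range fun j => coeffMap ι (u j)) := by
      rw [Submodule.span_le]
      rintro _ ⟨t, ht, rfl⟩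
      have ht' : t ∈ Submodule.span k (Set.range u) := by
        rw [hu_span]; exact Submodule.subset_span ht
      have := coeffMap_mem_span ι ht'
      rw [← Set.range_comp] at this
      exact this
    exact (Submodule.mem_span_range_iff_exists_fun K).mp (h2 hX)
  have hPT : P ∈ Submodule.span K (⇑(coeffMap ι) '' (T : Set (LaurentSeries k))) := by
    refine Submodule.span_mono ?_ hP'
    rw [Finset.coe_image]
    exact Set.image_mono (by rw [hT, Finset.coe_union]; exact Set.subset_union_left)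
  have hQT : Q ∈ Submodule.span K (⇑(coeffMap ι) '' (T : Set (LaurentSeries k))) := by
    refine Submodule.span_mono ?_ hQ'
    rw [Finset.coe_image]
    exact Set.image_mono (by rw [hT, Finset.coe_union]; exact Set.subset_union_right)
  obtain ⟨p, hp⟩ := hW P hPT
  obtain ⟨q, hq⟩ := hW Q hQT
  have hrel : coeffMap ι h₁ * Q = P := by
    rw [e, div_mul_cancel₀ _ hQ0]
  -- the family `h₁ * u j`, `u j`
  let w : Fin (finrank k U) ⊕ Fin (finrank k U) → LaurentSeries k :=
    Sum.elim (fun j => h₁ * u j) u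
  have hdep : ¬ LinearIndependent k w := by
    intro hli
    have hK := linearIndependent_coeffMap ι w hli
    rw [Fintype.linearIndependent_iff] at hK
    have hz := hK (Sum.elim q (fun j => - p j)) (by
      rw [Fintype.sum_sum_type]
      simp only [Sum.elim_inl, Sum.elim_inr, w, map_mul, neg_smul, Finset.sum_neg_distrib]
      rw [← sum_smul_mul, hq, hp, hrel, add_neg_cancel])
    apply hQ0
    rw [← hq]
    exact Finset.sum_eq_zero fun j _ => by
      have := hz (Sum.inl j)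
      simp only [Sum.elim_inl] at this
      rw [this, zero_smul]
  obtain ⟨g, hg, i, hi⟩ := Fintype.not_linearIndependent_iff.mp hdep
  rw [Fintype.sum_sum_type] at hg
  simp only [Sum.elim_inl, Sum.elim_inr, w] at hg
  rw [← sum_smul_mul] at hg
  set Q' : LaurentSeries k := ∑ j, g (Sum.inl j) • u j with hQ'def
  set P' : LaurentSeries k := ∑ j, g (Sum.inr j) • u j with hP'def
  have hQ'mem : Q' ∈ laurentBaseChange k F₀ := by
    refine sum_mem fun j _ => ?_
    rw [smul_eq_algebraMap_mul]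
    exact mul_mem ((laurentBaseChange k F₀).algebraMap_mem _) (hu_mem j)
  have hP'mem : P' ∈ laurentBaseChange k F₀ := by
    refine sum_mem fun j _ => ?_
    rw [smul_eq_algebraMap_mul]
    exact mul_mem ((laurentBaseChange k F₀).algebraMap_mem _) (hu_mem j)
  have hQ'ne : Q' ≠ 0 := by
    intro h0
    have hP0 : P' = 0 := by
      rw [h0, mul_zero, zero_add] at hg
      exact hg
    have h1 := (Fintype.linearIndependent_iff.mp hu_li) _ h0
    have h2 := (Fintype.linearIndependent_iff.mp hu_li) _ hP0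
    rcases i with j | j
    · exact hi (h1 j)
    · exact hi (h2 j)
  have : h₁ = - P' / Q' := by
    rw [eq_div_iff hQ'ne]
    linear_combination hg
  rw [this]
  exact div_mem (neg_mem hP'mem) hQ'mem

end Descent




section Roots

variable {k : Type} [Field k]

lemma isUnit_natCast_powerSeries [CharZero k] {n : ℕ} (hn : 0 < n) :
    IsUnit ((n : PowerSeries k)) := by
  rw [PowerSeries.isUnit_iff_constantCoeff, map_natCast, isUnit_iff_ne_zero]
  exact Nat.cast_ne_zero.mpr hn.ne'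

/-- `n`-th roots of `1`-units in `k⟦X⟧` (Hensel). -/
lemma exists_pow_eq_powerSeries [CharZero k] {n : ℕ} (hn : 0 < n)
    (u : PowerSeries k) (hu : PowerSeries.constantCoeff u = 1) :
    ∃ a : PowerSeries k, a ^ n = u := by
  have H : HenselianRing (PowerSeries k) (Ideal.span {PowerSeries.X}) := inferInstance
  have hF : (Polynomial.X ^ n - Polynomial.C u : Polynomial (PowerSeries k)).Monic :=
    Polynomial.monic_X_pow_sub_C u hn.ne'
  obtain ⟨a, ha, -⟩ := H.is_henselian _ hF 1 (by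
      simp only [Polynomial.eval_sub, Polynomial.eval_pow, Polynomial.eval_X, one_pow,
        Polynomial.eval_C]
      rw [Ideal.mem_span_singleton, PowerSeries.X_dvd_iff, map_sub, map_one, hu, sub_self]) (by
      apply IsUnit.map
      simp only [Polynomial.derivative_sub, Polynomial.derivative_X_pow, Polynomial.derivative_C,
        sub_zero, Polynomial.eval_mul, Polynomial.eval_C, Polynomial.eval_pow, Polynomial.eval_X,
        one_pow, mul_one]
      exact isUnit_natCast_powerSeries hn)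
  refine ⟨a, ?_⟩
  have := ha
  simp only [Polynomial.IsRoot, Polynomial.eval_sub, Polynomial.eval_pow, Polynomial.eval_X,
    Polynomial.eval_C, sub_eq_zero] at this
  exact this

/-- `n`-th roots in `k((q))`. -/
lemma exists_pow_eq_laurent [IsAlgClosed k] [CharZero k] {n : ℕ} (hn : 0 < n)
    (f : LaurentSeries k) (hf : f ≠ 0) (hord : (n : ℤ) ∣ f.order) :
    ∃ h₁ : LaurentSeries k, h₁ ^ n = f := by
  set c : k := f.coeff f.order with hc
  have hc0 : c ≠ 0 := fun h => hf (HahnSeries.coeff_order_eq_zero.mp h)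
  obtain ⟨c₀, hc₀⟩ := IsAlgClosed.exists_pow_nat_eq c hn
  obtain ⟨m, hm⟩ := hord
  have hu : PowerSeries.constantCoeff (PowerSeries.C c⁻¹ * f.powerSeriesPart) = 1 := by
    rw [map_mul, PowerSeries.constantCoeff_C, ← PowerSeries.coeff_zero_eq_constantCoeff_apply,
      LaurentSeries.powerSeriesPart_coeff]
    simp only [Nat.cast_zero, add_zero]
    exact inv_mul_cancel₀ hc0
  obtain ⟨a, ha⟩ := exists_pow_eq_powerSeries hn _ hu
  refine ⟨HahnSeries.single m c₀ * HahnSeries.ofPowerSeries ℤ k a, ?_⟩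
  rw [mul_pow, HahnSeries.single_pow, ← map_pow, ha, map_mul, HahnSeries.ofPowerSeries_C, hc₀,
    ← mul_assoc, HahnSeries.C_apply, HahnSeries.single_mul_single, mul_inv_cancel₀ hc0, add_zero,
    nsmul_eq_mul, ← hm]
  exact LaurentSeries.single_order_mul_powerSeriesPart f

end Roots

section Order

variable {k K : Type} [Field k] [Field K] (ι : k →+* K)

lemma coeffMap_inj : Function.Injective (coeffMap ι) := by
  intro x y h
  ext m
  have := congrArg (fun z => z.coeff m) h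
  simpa using ι.injective this

lemma order_coeffMap (f : LaurentSeries k) : (coeffMap ι f).order = f.order := by
  by_cases hf : f = 0
  · rw [hf, map_zero, HahnSeries.order_zero, HahnSeries.order_zero]
  have hf' : coeffMap ι f ≠ 0 := fun h => hf (coeffMap_inj ι (by rw [h, map_zero]))
  apply le_antisymm
  · apply HahnSeries.order_le_of_coeff_ne_zero
    rw [coeffMap_coeff]
    exact fun h => hf (HahnSeries.coeff_order_eq_zero.mp (ι.injective (by rw [h, map_zero])))
  · apply HahnSeries.order_le_of_coeff_ne_zero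
    intro h
    apply hf'
    apply HahnSeries.coeff_order_eq_zero.mp
    rw [coeffMap_coeff, h, map_zero]

end Order


section Final

variable (k K : Type) [Field k] [Field K] [Algebra ℚ k] [Algebra ℚ K]
variable (F₀ : IntermediateField ℚ (LaurentSeries ℚ))

/-- **DESC-ROOT**. -/
theorem stmt_DescRoot : H75.Stmt_DescRoot k K F₀ := by
  intro _ _ ι n hn f hf ⟨h, hh⟩
  have hf' : (f : LaurentSeries k) ≠ 0 := fun h0 => hf (Subtype.ext h0)
  have hh' : coeffMap ι (f : LaurentSeries k) = (h : LaurentSeries K) ^ n := by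
    have := congrArg Subtype.val hh
    simpa using this
  have hord : (n : ℤ) ∣ (f : LaurentSeries k).order := by
    rw [← order_coeffMap ι, hh', HahnSeries.order_pow, nsmul_eq_mul]
    exact dvd_mul_right _ _
  obtain ⟨h₁, hh₁⟩ := exists_pow_eq_laurent hn (f : LaurentSeries k) hf' hord
  have hh₁0 : h₁ ≠ 0 := by
    rintro rfl
    rw [zero_pow hn.ne'] at hh₁
    exact hf' hh₁.symm
  have hc0 : coeffMap ι h₁ ≠ 0 := fun h0 => hh₁0 (coeffMap_inj ι (by rw [h0, map_zero]))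
  have hpow : ((h : LaurentSeries K) / coeffMap ι h₁) ^ n = 1 := by
    rw [div_pow, ← map_pow, hh₁, hh', div_self]
    rw [← hh']
    exact fun h0 => hf' (coeffMap_inj ι (by rw [h0, map_zero]))
  haveI : NeZero n := ⟨hn.ne'⟩
  haveI : NeZero ((n : ℕ) : k) := ⟨Nat.cast_ne_zero.mpr hn.ne'⟩
  obtain ⟨ω, hω⟩ := HasEnoughRootsOfUnity.exists_primitiveRoot k n
  have hζ : IsPrimitiveRoot (coeffMap ι (algebraMap k (LaurentSeries k) ω)) n := by
    have h1 : IsPrimitiveRoot (algebraMap k (LaurentSeries k) ω) n :=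
      hω.map_of_injective (algebraMap k (LaurentSeries k)).injective
    exact h1.map_of_injective (coeffMap_inj ι)
  obtain ⟨i, -, hi⟩ := hζ.eq_pow_of_pow_eq_one hpow
  set h₀ : LaurentSeries k := algebraMap k (LaurentSeries k) ω ^ i * h₁ with hh₀
  have hh₀K : coeffMap ι h₀ = (h : LaurentSeries K) := by
    rw [hh₀, map_mul, map_pow, hi, div_mul_cancel₀ _ hc0]
  have hmem : h₀ ∈ laurentBaseChange k F₀ :=
    mem_of_coeffMap_mem ι F₀ (by rw [hh₀K]; exact h.2)
  refine ⟨⟨h₀, hmem⟩, Subtype.ext ?_⟩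
  apply coeffMap_inj ι
  have hcoe : ((⟨h₀, hmem⟩ ^ n : ↥(laurentBaseChange k F₀)) : LaurentSeries k) = h₀ ^ n := rfl
  rw [hh', hcoe, map_pow, hh₀K]

end Final

end Fermat.Agent.GTor.H56

end
end
-- ==== END Fermat.Agent.GTor.H56_DescRoot

-- ==== BEGIN Fermat.Agent.GTor.H75_DescComb
section

/-!
# G-TOR package DESC (helper75): finite linear combinations `lc j y a = ∑ a_i · e(y_i)`

`y : I → ℚ((q))` a finite family, `a : I → R` coefficients in a commutative ring `R` (with its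
unique ring homomorphism `j : ℚ → R`).  The construction is natural in `R`, and over a field
`L` every element of `F_L = laurentBaseChange L F₀` is a quotient of two such combinations.
-/

set_option autoImplicit false
set_option linter.style.haveILetI false
set_option linter.unusedSectionVars false

noncomputable section

namespace Fermat.Agent.GTor.H75

open ModularCurve

section LC

variable {R S : Type*} [CommRing R] [CommRing S] {I : Type*} [Fintype I]

/-- `∑ i, a i • e(y i)` -/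
def lc (j : ℚ →+* R) (y : I → LaurentSeries ℚ) (a : I → R) : LaurentSeries R :=
  ∑ i, a i • coeffMap j (y i)

theorem lc_coeff (j : ℚ →+* R) (y : I → LaurentSeries ℚ) (a : I → R) (m : ℤ) :
    (lc j y a).coeff m = ∑ i, a i * j ((y i).coeff m) := by
  rw [lc, H56.coeff_sum_smul]
  rfl

theorem coeffMap_lc (φ : R →+* S) (j : ℚ →+* R) (j' : ℚ →+* S) (y : I → LaurentSeries ℚ)
    (a : I → R) : coeffMap φ (lc j y a) = lc j' y (fun i => φ (a i)) := by
  ext m
  rw [coeffMap_coeff, lc_coeff, lc_coeff, map_sum]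
  refine Finset.sum_congr rfl fun i _ => ?_
  rw [map_mul]
  congr 1
  exact RingHom.congr_fun (Subsingleton.elim (φ.comp j) j') _

theorem lc_smul (j : ℚ →+* R) (y : I → LaurentSeries ℚ) (a : I → R) (c : R) :
    lc j y (fun i => c * a i) = HahnSeries.C c * lc j y a := by
  rw [HahnSeries.C_mul_eq_smul]
  ext m
  rw [HahnSeries.coeff_smul, lc_coeff, lc_coeff, smul_eq_mul, Finset.mul_sum]
  exact Finset.sum_congr rfl fun i _ => mul_assoc _ _ _

theorem coeffMap_C (φ : R →+* S) (c : R) :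
    coeffMap φ (HahnSeries.C c : LaurentSeries R) = HahnSeries.C (φ c) := by
  rw [HahnSeries.C_apply, HahnSeries.C_apply, coeffMap_single]

theorem C_ne_zero_of_field {L : Type*} [Field L] {c : L} (hc : c ≠ 0) :
    (HahnSeries.C c : LaurentSeries L) ≠ 0 := by
  intro h
  have := congrArg (fun z : LaurentSeries L => z.coeff 0) h
  simp only [HahnSeries.C_apply, HahnSeries.coeff_single_same, HahnSeries.coeff_zero] at this
  exact hc this

/-- a nonzero series has a nonzero coefficient -/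
theorem exists_coeff_ne_zero {x : LaurentSeries R} (hx : x ≠ 0) : ∃ m : ℤ, x.coeff m ≠ 0 := by
  by_contra h
  push Not at h
  exact hx (HahnSeries.ext (funext h))

end LC

section Field

variable (L : Type) [Field L] [Algebra ℚ L] (F₀ : IntermediateField ℚ (LaurentSeries ℚ))

theorem lc_mem {I : Type*} [Fintype I] (y : I → LaurentSeries ℚ) (hy : ∀ i, y i ∈ F₀)
    (a : I → L) : lc (algebraMap ℚ L) y a ∈ laurentBaseChange L F₀ := by
  refine H56.span_genSet_le F₀ L ?_
  refine Submodule.sum_mem _ fun i _ => Submodule.smul_mem _ _ (Submodule.subset_span ?_)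
  exact ⟨y i, hy i, rfl⟩

theorem exists_lc_of_mem_span {x : LaurentSeries L}
    (hx : x ∈ Submodule.span L (H56.genSet F₀ L)) :
    ∃ (r : ℕ) (y : Fin r → LaurentSeries ℚ) (a : Fin r → L),
      (∀ i, y i ∈ F₀) ∧ x = lc (algebraMap ℚ L) y a := by
  rw [Submodule.mem_span_set'] at hx
  obtain ⟨r, a, g, rfl⟩ := hx
  have hg : ∀ i, ∃ z : LaurentSeries ℚ, z ∈ F₀ ∧ coeffEmb L z = (g i : LaurentSeries L) := by
    intro i
    obtain ⟨z, hz, hzg⟩ := (g i).2
    exact ⟨z, hz, hzg⟩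
  choose y hy hyg using hg
  refine ⟨r, y, a, hy, ?_⟩
  rw [lc]
  refine Finset.sum_congr rfl fun i _ => ?_
  rw [← hyg i]
  rfl

/-- **REP**: a nonzero element of `F_L` is a quotient of two finite linear combinations. -/
theorem exists_lc {f : LaurentSeries L} (hf : f ∈ laurentBaseChange L F₀) (hf0 : f ≠ 0) :
    ∃ (r : ℕ) (y : Fin r → LaurentSeries ℚ) (a : Fin r → L)
      (r' : ℕ) (y' : Fin r' → LaurentSeries ℚ) (b : Fin r' → L),
      (∀ i, y i ∈ F₀) ∧ (∀ i, y' i ∈ F₀) ∧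
      lc (algebraMap ℚ L) y a ≠ 0 ∧ lc (algebraMap ℚ L) y' b ≠ 0 ∧
      f * lc (algebraMap ℚ L) y' b = lc (algebraMap ℚ L) y a := by
  obtain ⟨P, hP, Q, hQ, e⟩ := H56.exists_div_of_mem F₀ L hf
  have hQ0 : Q ≠ 0 := by
    rintro rfl
    rw [div_zero] at e
    exact hf0 e
  have hP0 : P ≠ 0 := by
    rintro rfl
    rw [zero_div] at e
    exact hf0 e
  obtain ⟨r, y, a, hy, rfl⟩ := exists_lc_of_mem_span L F₀ hP
  obtain ⟨r', y', b, hy', rfl⟩ := exists_lc_of_mem_span L F₀ hQ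
  exact ⟨r, y, a, r', y', b, hy, hy', hP0, hQ0, by rw [e, div_mul_cancel₀ _ hQ0]⟩

end Field

end Fermat.Agent.GTor.H75

end
end
-- ==== END Fermat.Agent.GTor.H75_DescComb

-- ==== BEGIN Fermat.Agent.GTor.H76_HKanExp
section

/-!
# G-TOR, package HK-an (3): the `t`-expansions of the factors of `heckeProd`  (helper76)

For `A` holomorphic on `ℍ`, of period `1` and bounded at `i∞` (`Nice 1 A`), with `q`-expansion
`∑ a_n q^n`, and `t = exp(2πi z/ℓ)`:

* `A ((z + j)/ℓ) = ∑ a_n ζ^(j n) t^n`       (`pexp_comp_heckeMatrix`),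
* `A (ℓ z) = ∑ a_n t^(ℓ² n)`                 (`pexp_comp_heckeDiagMatrix`),

and both functions are `BPH ℓ` (holomorphic, `ℓ`-periodic, bounded at `i∞`).
The general statement is for `z ↦ A ((a z + b)/d)` (`qExpansion_comp_coeff`), generalising
`Fermat.Agent.S23.H83` from level one forms to `Nice 1` functions.
-/

set_option autoImplicit false
set_option linter.style.haveILetI false

open Complex Function Filter
open UpperHalfPlane hiding I
open scoped Real MatrixGroups ModularForm Manifold Topology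

noncomputable section

namespace Fermat.Agent.GTor.H76

open Fermat.Agent.S23.H22 (Nice)
open Fermat.Agent.S28.H30 (pexp BPH)
open Fermat.Agent.S23.H83
open Fermat.Agent.GTor.H44
open ModularCurve (qExpand)

section General

variable {A : ℍ → ℂ} (hA : Nice 1 A) (a b d : ℕ) (h : (a : ℝ) * (d : ℝ) ≠ 0)

include hA in
theorem nice_apply_eq_of_coe_eq_add_nat {τ₁ τ₂ : ℍ} (m : ℕ)
    (hτ : (τ₁ : ℂ) = τ₂ + m) : A τ₁ = A τ₂ := by
  have hper : Periodic (A ∘ ofComplex) ((1 : ℝ) : ℂ) := hA.per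
  have h1 : (A ∘ ofComplex) ((τ₂ : ℂ) + m) = (A ∘ ofComplex) (τ₂ : ℂ) := by
    have := hper.nat_mul m
    rw [Complex.ofReal_one, mul_one] at this
    exact this (τ₂ : ℂ)
  simp only [comp_apply] at h1
  rw [← hτ, ofComplex_apply, ofComplex_apply] at h1
  exact h1

include hA in
theorem nice_comp_apply_eq_of_coe_eq_add {τ τ' : ℍ} (hτ : (τ' : ℂ) = τ + (a * d : ℕ)) :
    A (ModularForm.upperTriangularGL a b d h • τ')
      = A (ModularForm.upperTriangularGL a b d h • τ) := by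
  refine nice_apply_eq_of_coe_eq_add_nat hA (a ^ 2) ?_
  rw [coe_upperTriangularGL_smul, coe_upperTriangularGL_smul, hτ]
  have hd := natCast_d_ne_zero a d h
  push_cast
  field_simp
  ring

/-- The coefficients of the `q_{ad}`-expansion of `A ((a z + b) / d)`. -/
def niceCoeff (A : ℍ → ℂ) (a b d : ℕ) (n : ℕ) : ℂ :=
  if a ^ 2 ∣ n then
    Complex.exp (2 * π * Complex.I * b * ((n / a ^ 2 : ℕ) : ℂ) / d)
      * (qExpansion 1 A).coeff (n / a ^ 2)
  else 0

include hA in
theorem hasSum_nice_comp (τ : ℍ) :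
    HasSum (fun n : ℕ ↦ niceCoeff A a b d n • Periodic.qParam ((a * d : ℕ) : ℝ) τ ^ n)
      (A (ModularForm.upperTriangularGL a b d h • τ)) := by
  have ha : a ≠ 0 := by
    have := natCast_a_ne_zero a d h
    exact_mod_cast this
  have ha2 : a ^ 2 ≠ 0 := pow_ne_zero 2 ha
  have hF := UpperHalfPlane.hasSum_qExpansion one_pos hA.per hA.hol hA.bdd
    (ModularForm.upperTriangularGL a b d h • τ)
  rw [qParam_upperTriangularGL_smul] at hF
  have hinj : Function.Injective (fun l : ℕ ↦ l * a ^ 2) := mul_left_injective₀ ha2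
  refine (hinj.hasSum_iff (fun m hm => ?_)).mp ?_
  · have hnd : ¬ a ^ 2 ∣ m := by
      rintro ⟨l, rfl⟩
      exact hm ⟨l, by simp [mul_comm]⟩
    simp [niceCoeff, hnd]
  · convert hF using 1
    funext l
    simp only [comp_apply, niceCoeff, if_pos (dvd_mul_left (a ^ 2) l),
      Nat.mul_div_cancel _ (Nat.pos_of_ne_zero ha2), smul_eq_mul]
    rw [mul_pow, ← pow_mul, ← Complex.exp_nat_mul, mul_comm l (a ^ 2)]
    have : (l : ℂ) * (2 * π * Complex.I * b / d) = 2 * π * Complex.I * b * (l : ℂ) / d := by ring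
    rw [this]
    ring

include hA in
theorem mdifferentiable_nice_comp :
    MDiff (fun z : ℍ => A (ModularForm.upperTriangularGL a b d h • z)) :=
  hA.hol.comp (mdifferentiable_smul (det_upperTriangularGL_pos a b d h))

include hA in
theorem periodic_nice_comp :
    Periodic ((fun z : ℍ => A (ModularForm.upperTriangularGL a b d h • z)) ∘ ofComplex)
      ((a * d : ℕ) : ℂ) :=
  periodic_comp_ofComplex_of_coe_add (a * d)
    (fun _ _ hτ => nice_comp_apply_eq_of_coe_eq_add hA a b d h hτ)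

include hA in
theorem isBoundedAtImInfty_nice_comp :
    IsBoundedAtImInfty (fun z : ℍ => A (ModularForm.upperTriangularGL a b d h • z)) :=
  isBoundedAtImInfty_of_hasSum_qExpansion (natCast_mul_pos' a d h)
    (hasSum_nice_comp hA a b d h)

include hA in
theorem qExpansion_nice_comp_coeff (n : ℕ) :
    (qExpansion ((a * d : ℕ) : ℝ)
      (fun z : ℍ => A (ModularForm.upperTriangularGL a b d h • z))).coeff n
      = niceCoeff A a b d n := by
  have hper : Periodic ((fun z : ℍ => A (ModularForm.upperTriangularGL a b d h • z)) ∘ ofComplex)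
      ((((a * d : ℕ) : ℝ)) : ℂ) := by
    rw [Complex.ofReal_natCast]
    exact periodic_nice_comp hA a b d h
  have han := analyticAt_cuspFunction_zero (natCast_mul_pos' a d h) hper
    (mdifferentiable_nice_comp hA a b d h)
    (isBoundedAtImInfty_nice_comp hA a b d h)
  exact (UpperHalfPlane.qExpansion_coeff_unique
    (ContinuousMap.mk _ (mdifferentiable_nice_comp hA a b d h).continuous)
    (natCast_mul_pos' a d h) han (hasSum_nice_comp hA a b d h) n).symm

end General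

/-! ### The two Hecke matrices -/

section Hecke

variable (ℓ : ℕ) [NeZero ℓ] {A : ℍ → ℂ}

theorem natCast_one_mul_ne_zero : (((1 : ℕ) : ℝ)) * ((ℓ : ℕ) : ℝ) ≠ 0 := by
  have : (ℓ : ℝ) ≠ 0 := by exact_mod_cast NeZero.ne ℓ
  simpa using this

theorem natCast_mul_one_ne_zero : ((ℓ : ℕ) : ℝ) * (((1 : ℕ) : ℝ)) ≠ 0 := by
  have : (ℓ : ℝ) ≠ 0 := by exact_mod_cast NeZero.ne ℓ
  simpa using this

theorem heckeMatrix_eq_upperTriangularGL (j : ℕ) :
    ModularForm.heckeMatrix ℓ j
      = ModularForm.upperTriangularGL ((1 : ℕ) : ℝ) (j : ℝ) ((ℓ : ℕ) : ℝ)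
          (natCast_one_mul_ne_zero ℓ) := by
  apply Units.ext
  rw [ModularForm.val_heckeMatrix (NeZero.ne ℓ), ModularForm.val_upperTriangularGL, Nat.cast_one]

theorem heckeDiagMatrix_eq_upperTriangularGL :
    ModularForm.heckeDiagMatrix ℓ
      = ModularForm.upperTriangularGL ((ℓ : ℕ) : ℝ) (((0 : ℕ)) : ℝ) ((1 : ℕ) : ℝ)
          (natCast_mul_one_ne_zero ℓ) := by
  apply Units.ext
  rw [ModularForm.val_heckeDiagMatrix (NeZero.ne ℓ), ModularForm.val_upperTriangularGL,
    Nat.cast_one, Nat.cast_zero]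

theorem bph_comp_heckeMatrix (hA : Nice 1 A) (j : ℕ) :
    BPH ℓ (fun z => A (ModularForm.heckeMatrix ℓ j • z)) := by
  rw [heckeMatrix_eq_upperTriangularGL]
  refine ⟨?_, mdifferentiable_nice_comp hA 1 j ℓ _, isBoundedAtImInfty_nice_comp hA 1 j ℓ _⟩
  have := periodic_nice_comp hA 1 j ℓ (natCast_one_mul_ne_zero ℓ)
  rwa [one_mul] at this

theorem bph_comp_heckeDiagMatrix (hA : Nice 1 A) :
    BPH ℓ (fun z => A (ModularForm.heckeDiagMatrix ℓ • z)) := by
  rw [heckeDiagMatrix_eq_upperTriangularGL]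
  refine ⟨?_, mdifferentiable_nice_comp hA ℓ 0 1 _, isBoundedAtImInfty_nice_comp hA ℓ 0 1 _⟩
  have := periodic_nice_comp hA ℓ 0 1 (natCast_mul_one_ne_zero ℓ)
  rwa [mul_one] at this

theorem qExpansion_comp_heckeMatrix_coeff (hA : Nice 1 A) (j n : ℕ) :
    (qExpansion (ℓ : ℝ) (fun z => A (ModularForm.heckeMatrix ℓ j • z))).coeff n
      = Complex.exp (2 * π * Complex.I * j * (n : ℂ) / ℓ) * (qExpansion 1 A).coeff n := by
  rw [heckeMatrix_eq_upperTriangularGL]
  have := qExpansion_nice_comp_coeff hA 1 j ℓ (natCast_one_mul_ne_zero ℓ) n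
  rw [one_mul] at this
  rw [this, niceCoeff, one_pow, if_pos (one_dvd n), Nat.div_one]

theorem qExpansion_comp_heckeDiagMatrix_coeff (hA : Nice 1 A) (n : ℕ) :
    (qExpansion (ℓ : ℝ) (fun z => A (ModularForm.heckeDiagMatrix ℓ • z))).coeff n
      = if ℓ ^ 2 ∣ n then (qExpansion 1 A).coeff (n / ℓ ^ 2) else 0 := by
  rw [heckeDiagMatrix_eq_upperTriangularGL]
  have := qExpansion_nice_comp_coeff hA ℓ 0 1 (natCast_mul_one_ne_zero ℓ) n
  rw [mul_one] at this
  rw [this, niceCoeff]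
  split_ifs with h
  · simp
  · rfl

theorem pexp_comp_heckeMatrix (hA : Nice 1 A) (j : ℕ) :
    pexp ℓ (fun z => A (ModularForm.heckeMatrix ℓ j • z))
      = twistBy (zetaUnit ℓ ^ j) (qLaurent A) := by
  ext m
  rcases lt_or_ge m 0 with hm | hm
  · rw [Fermat.Agent.S28.H30.pexp_coeff_neg _ hm, twistBy_coeff, qLaurent,
      ModularCurve.ofPowerSeries_coeff_of_neg _ hm, mul_zero]
  · obtain ⟨n, rfl⟩ := Int.eq_ofNat_of_zero_le hm
    rw [Fermat.Agent.S28.H30.pexp_coeff_nat, qExpansion_comp_heckeMatrix_coeff ℓ hA, twistBy_coeff,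
      qLaurent, HahnSeries.ofPowerSeries_apply_coeff]
    congr 1
    rw [zpow_natCast, ← pow_mul, Units.val_pow_eq_pow_val, coe_zetaUnit, ← Complex.exp_nat_mul]
    congr 1
    push_cast
    ring

theorem pexp_comp_heckeDiagMatrix (hA : Nice 1 A) :
    pexp ℓ (fun z => A (ModularForm.heckeDiagMatrix ℓ • z))
      = qExpand ℂ ℓ (qExpand ℂ ℓ (qLaurent A)) := by
  rw [ModularCurve.qExpand_qExpand]
  ext m
  rcases lt_or_ge m 0 with hm | hm
  · rw [Fermat.Agent.S28.H30.pexp_coeff_neg _ hm]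
    by_cases hd : (((ℓ * ℓ : ℕ)) : ℤ) ∣ m
    · obtain ⟨c, rfl⟩ := hd
      rw [ModularCurve.qExpand_coeff_mul, qLaurent]
      have hc : c < 0 := by
        by_contra hc
        rw [not_lt] at hc
        have : (0 : ℤ) ≤ ((ℓ * ℓ : ℕ) : ℤ) * c := mul_nonneg (by positivity) hc
        omega
      rw [ModularCurve.ofPowerSeries_coeff_of_neg _ hc]
    · rw [ModularCurve.qExpand_coeff_of_not_dvd _ _ hd]
  · obtain ⟨n, rfl⟩ := Int.eq_ofNat_of_zero_le hm
    rw [Fermat.Agent.S28.H30.pexp_coeff_nat, qExpansion_comp_heckeDiagMatrix_coeff ℓ hA]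
    split_ifs with h
    · obtain ⟨c, rfl⟩ := h
      have hℓ2 : 0 < ℓ ^ 2 := pow_pos (Nat.pos_of_ne_zero (NeZero.ne ℓ)) 2
      rw [Nat.mul_div_cancel_left _ hℓ2]
      have e : ((ℓ ^ 2 * c : ℕ) : ℤ) = ((ℓ * ℓ : ℕ) : ℤ) * (c : ℤ) := by
        push_cast
        ring
      rw [e, ModularCurve.qExpand_coeff_mul, qLaurent, HahnSeries.ofPowerSeries_apply_coeff]
    · rw [ModularCurve.qExpand_coeff_of_not_dvd]
      intro hd
      apply h
      have hd' : ((ℓ ^ 2 : ℕ) : ℤ) ∣ (n : ℤ) := by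
        have e : ((ℓ ^ 2 : ℕ) : ℤ) = ((ℓ * ℓ : ℕ) : ℤ) := by
          push_cast
          ring
        rw [e]
        exact hd
      exact Int.natCast_dvd_natCast.mp hd'

end Hecke

end Fermat.Agent.GTor.H76

end
end
-- ==== END Fermat.Agent.GTor.H76_HKanExp

-- ==== BEGIN Fermat.Agent.GTor.H96_MONO
section

set_option autoImplicit false

noncomputable section

namespace Fermat.Agent.GTor.H96

open Complex UpperHalfPlane Filter Topology Function ModularForm
open scoped MatrixGroups ModularForm Manifold Real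

variable {N : ℕ} {n : ℕ} {k : ℤ}

theorem exists_ne_zero_of_ne_zero {A : ModularForm (CongruenceSubgroup.Gamma0 N) k}
    (hA : A ≠ 0) : ∃ τ : ℍ, A τ ≠ 0 := by
  by_contra h
  push Not at h
  exact hA (by ext z; simpa using h z)

theorem coe_ne_zero_of_ne_zero {A : ModularForm (CongruenceSubgroup.Gamma0 N) k}
    (hA : A ≠ 0) : (A : ℍ → ℂ) ≠ 0 := by
  obtain ⟨τ, hτ⟩ := exists_ne_zero_of_ne_zero hA
  intro h
  exact hτ (by rw [h]; rfl)

/-- The product `A * B ^ (n - 1)` of nonzero modular forms is not identically zero. -/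
theorem exists_mul_pow_ne_zero [NeZero N] (A B : ModularForm (CongruenceSubgroup.Gamma0 N) k)
    (hA : A ≠ 0) (hB : B ≠ 0) (m : ℕ) : ∃ τ : ℍ, A τ * B τ ^ m ≠ 0 := by
  have hA' := (isCuspRegular_slash A 1)
  have hB' := (isCuspRegular_slash B 1)
  rw [SlashAction.slash_one] at hA' hB'
  have hN : (0 : ℝ) < (N : ℝ) := by exact_mod_cast Nat.pos_of_ne_zero (NeZero.ne N)
  have h1 : qExpansion (N : ℝ) ((A : ℍ → ℂ) * (B : ℍ → ℂ) ^ m) ≠ 0 := by
    rw [hA'.qExpansion_mul hN (hB'.pow m), hB'.qExpansion_pow hN]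
    exact mul_ne_zero (hA'.qExpansion_ne_zero hN (coe_ne_zero_of_ne_zero hA))
      (pow_ne_zero _ (hB'.qExpansion_ne_zero hN (coe_ne_zero_of_ne_zero hB)))
  by_contra h
  push Not at h
  apply h1
  have : ((A : ℍ → ℂ) * (B : ℍ → ℂ) ^ m) = 0 := by
    funext z
    simpa using h z
  rw [this, UpperHalfPlane.qExpansion_zero]

theorem mdiff_coe (A : ModularForm (CongruenceSubgroup.Gamma0 N) k) :
    MDifferentiable 𝓘(ℂ) 𝓘(ℂ) (A : ℍ → ℂ) := A.holo'

/-- The orders of vanishing of a root of `A * B ^ (n - 1)`. -/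
theorem ordAt_root (hn : n ≠ 0) (A B : ModularForm (CongruenceSubgroup.Gamma0 N) k)
    (hA : A ≠ 0) (hB : B ≠ 0) {R : ℍ → ℂ} (hR : MDifferentiable 𝓘(ℂ) 𝓘(ℂ) R)
    (hRn : ∀ z : ℍ, R z ^ n = A z * B z ^ (n - 1)) (z : ℍ) :
    (n : ℤ) * ordAt R z = ordAt A z + ((n : ℤ) - 1) * ordAt B z := by
  have hAan := Fermat.Agent.Lib.NthRoot.analyticOnNhd_comp_ofComplex (mdiff_coe A) z z.im_pos
  have hBan := Fermat.Agent.Lib.NthRoot.analyticOnNhd_comp_ofComplex (mdiff_coe B) z z.im_pos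
  have hRan := Fermat.Agent.Lib.NthRoot.analyticOnNhd_comp_ofComplex hR z z.im_pos
  have hAtop := analyticOrderAt_ne_top_of_mdifferentiable (mdiff_coe A)
    (exists_ne_zero_of_ne_zero hA) z
  have hBtop := analyticOrderAt_ne_top_of_mdifferentiable (mdiff_coe B)
    (exists_ne_zero_of_ne_zero hB) z
  have hfun : (R ∘ UpperHalfPlane.ofComplex) ^ n
      = ((A : ℍ → ℂ) ∘ UpperHalfPlane.ofComplex) *
        ((B : ℍ → ℂ) ∘ UpperHalfPlane.ofComplex) ^ (n - 1) := by
    funext x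
    simp only [Pi.pow_apply, Pi.mul_apply, Function.comp_apply]
    exact hRn _
  have hBpow : analyticOrderAt (((B : ℍ → ℂ) ∘ UpperHalfPlane.ofComplex) ^ (n - 1)) (z : ℂ) ≠ ⊤ := by
    rw [analyticOrderAt_pow hBan]
    lift analyticOrderAt ((B : ℍ → ℂ) ∘ UpperHalfPlane.ofComplex) (z : ℂ) to ℕ using hBtop with b
    rw [nsmul_eq_mul]
    exact_mod_cast ENat.natCast_ne_top _
  have h1 := congrArg (fun g => analyticOrderNatAt g (z : ℂ)) hfun
  beta_reduce at h1
  rw [analyticOrderNatAt_pow hRan, analyticOrderNatAt_mul hAan (hBan.pow _) hAtop hBpow,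
    analyticOrderNatAt_pow hBan] at h1
  have hn1 : (((n - 1 : ℕ) : ℕ) : ℤ) = (n : ℤ) - 1 := by
    have : 1 ≤ n := Nat.one_le_iff_ne_zero.mpr hn
    push_cast [Nat.cast_sub this]
    ring
  unfold ordAt
  have h2 : ((n • analyticOrderNatAt (R ∘ UpperHalfPlane.ofComplex) (z : ℂ) : ℕ) : ℤ)
      = ((analyticOrderNatAt ((A : ℍ → ℂ) ∘ UpperHalfPlane.ofComplex) (z : ℂ)
        + (n - 1) • analyticOrderNatAt ((B : ℍ → ℂ) ∘ UpperHalfPlane.ofComplex) (z : ℂ) : ℕ) : ℤ) := by
    rw [h1]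
  simp only [smul_eq_mul, Nat.cast_mul, Nat.cast_add, hn1] at h2
  exact h2

theorem exists_root_ne_zero [NeZero N] (hn : n ≠ 0)
    (A B : ModularForm (CongruenceSubgroup.Gamma0 N) k)
    (hA : A ≠ 0) (hB : B ≠ 0) {R : ℍ → ℂ}
    (hRn : ∀ z : ℍ, R z ^ n = A z * B z ^ (n - 1)) : ∃ τ : ℍ, R τ ≠ 0 := by
  obtain ⟨τ, hτ⟩ := exists_mul_pow_ne_zero A B hA hB (n - 1)
  refine ⟨τ, fun h0 => hτ ?_⟩
  rw [← hRn, h0, zero_pow hn]

/-- **MONO, elliptic points.** The character of the root is trivial on the stabiliser of a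
point at which the order of `A / B` is divisible by `n * ellOrder`. -/
theorem chi_eq_one_of_fixed [NeZero N] (hn : n ≠ 0)
    (A B : ModularForm (CongruenceSubgroup.Gamma0 N) k)
    (hA : A ≠ 0) (hB : B ≠ 0) {R : ℍ → ℂ} (hR : MDifferentiable 𝓘(ℂ) 𝓘(ℂ) R)
    (hRn : ∀ z : ℍ, R z ^ n = A z * B z ^ (n - 1))
    {χ : CongruenceSubgroup.Gamma0 N →* ℂˣ}
    (hχ : ∀ γ : CongruenceSubgroup.Gamma0 N,
      R ∣[k] (γ : SL(2, ℤ)) = fun z => ((χ γ : ℂˣ) : ℂ) * R z)
    {γ : CongruenceSubgroup.Gamma0 N} {z₀ : ℍ} (hfix : ((γ : SL(2, ℤ))) • z₀ = z₀)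
    (he : 0 < ellOrder N z₀) {t : ℤ}
    (ht : ordAt A z₀ - ordAt B z₀ = (ellOrder N z₀ : ℤ) * ((n : ℤ) * t)) : χ γ = 1 := by
  set j : ℂ := denom ((γ : SL(2, ℤ))) z₀ with hj
  have hj0 : j ≠ 0 := UpperHalfPlane.denom_ne_zero _ z₀
  have h1 : ((χ γ : ℂˣ) : ℂ) = j ^ (-k - 2 * ordAt R z₀) :=
    multiplier_at_fixed_point hR (exists_root_ne_zero hn A B hA hB hRn) hfix (hχ γ)
  have h2 : (1 : ℂ) = j ^ (-k - 2 * ordAt B z₀) :=
    multiplier_at_fixed_point (mdiff_coe B) (exists_ne_zero_of_ne_zero hB) hfix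
      (by rw [slash_eq_of_mem_Gamma0 B γ]; funext z; rw [one_mul])
  have h3 := ordAt_root hn A B hA hB hR hRn z₀
  have hnZ : (n : ℤ) ≠ 0 := by exact_mod_cast hn
  have h4 : ordAt R z₀ - ordAt B z₀ = (ellOrder N z₀ : ℤ) * t := by
    have : (n : ℤ) * (ordAt R z₀ - ordAt B z₀) = (n : ℤ) * ((ellOrder N z₀ : ℤ) * t) := by
      linear_combination h3 + ht
    exact mul_left_cancel₀ hnZ this
  have h5 : j ^ (2 * ellOrder N z₀) = 1 := denom_pow_two_mul_ellOrder he hfix
  have h6 : (-k - 2 * ordAt R z₀) = (-k - 2 * ordAt B z₀) + ((2 * ellOrder N z₀ : ℕ) : ℤ) * (-t) := by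
    push_cast
    linear_combination -2 * h4
  apply Units.ext
  rw [h1, h6, zpow_add₀ hj0, ← h2, one_mul, zpow_mul, zpow_natCast, h5, one_zpow, Units.val_one]

theorem cuspWidth_eq_sInf (N : ℕ) (σ : SL(2, ℤ)) :
    cuspWidth N σ = sInf {h : ℕ | 0 < h ∧
      (σ * ModularGroup.T * σ⁻¹) ^ h ∈ CongruenceSubgroup.Gamma0 N} := by
  unfold cuspWidth
  congr 1
  ext h
  simp only [Set.mem_ofPred_eq, conj_pow]

theorem conj_T_cuspWidth_mem {N : ℕ} {σ : SL(2, ℤ)} (hw : 0 < cuspWidth N σ) :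
    σ * ModularGroup.T ^ ((cuspWidth N σ : ℕ) : ℤ) * σ⁻¹ ∈ CongruenceSubgroup.Gamma0 N := by
  have hne : {h : ℕ | 0 < h ∧ σ * ModularGroup.T ^ h * σ⁻¹
      ∈ CongruenceSubgroup.Gamma0 N}.Nonempty := by
    by_contra hempty
    rw [Set.not_nonempty_iff_eq_empty] at hempty
    unfold cuspWidth at hw
    rw [hempty, Nat.sInf_empty] at hw
    exact lt_irrefl 0 hw
  have := (Nat.sInf_mem hne).2
  rw [zpow_natCast]
  exact this

theorem cuspWidth_dvd_of_mem {N : ℕ} {σ : SL(2, ℤ)} (hw : 0 < cuspWidth N σ) {j : ℤ}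
    (hj : σ * ModularGroup.T ^ j * σ⁻¹ ∈ CongruenceSubgroup.Gamma0 N) :
    ((cuspWidth N σ : ℕ) : ℤ) ∣ j := by
  rw [cuspWidth_eq_sInf] at hw ⊢
  refine sInf_dvd_of_zpow_mem (CongruenceSubgroup.Gamma0 N) (σ * ModularGroup.T * σ⁻¹) hw ?_
  rw [conj_zpow]
  exact hj

/-- **MONO, cusps.** The character of the root is trivial on the parabolic elements
`σ T^j σ⁻¹ ∈ Γ₀(N)`, if the order of `A / B` at the cusp `σ∞` is divisible by `n`. -/
theorem chi_eq_one_of_conj_T [NeZero N] (hn : n ≠ 0)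
    (A B : ModularForm (CongruenceSubgroup.Gamma0 N) k)
    (hA : A ≠ 0) (hB : B ≠ 0) {R : ℍ → ℂ} (hR : MDifferentiable 𝓘(ℂ) 𝓘(ℂ) R)
    (hRn : ∀ z : ℍ, R z ^ n = A z * B z ^ (n - 1))
    {χ : CongruenceSubgroup.Gamma0 N →* ℂˣ}
    (hχ : ∀ γ : CongruenceSubgroup.Gamma0 N,
      R ∣[k] (γ : SL(2, ℤ)) = fun z => ((χ γ : ℂˣ) : ℂ) * R z)
    (σ : SL(2, ℤ)) (hw : 0 < cuspWidth N σ) (hwN : cuspWidth N σ ∣ N) {t : ℤ}
    (ht : ordCusp N k A σ - ordCusp N k B σ
      = ((N / cuspWidth N σ : ℕ) : ℤ) * ((n : ℤ) * t))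
    {δ : CongruenceSubgroup.Gamma0 N} {j : ℤ}
    (hδ : (δ : SL(2, ℤ)) = σ * ModularGroup.T ^ j * σ⁻¹) : χ δ = 1 := by
  set w : ℕ := cuspWidth N σ with hwdef
  have hmem := conj_T_cuspWidth_mem hw
  set δw : CongruenceSubgroup.Gamma0 N := ⟨σ * ModularGroup.T ^ ((w : ℕ) : ℤ) * σ⁻¹, hmem⟩
    with hδw
  obtain ⟨j', hj'⟩ := cuspWidth_dvd_of_mem hw (j := j) (by rw [← hδ]; exact δ.2)
  have hδpow : δ = δw ^ j' := by
    apply Subtype.ext
    rw [hδ, Subgroup.coe_zpow, hδw]
    simp only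
    rw [← conj_zpow, ← conj_zpow, ← zpow_mul, hj']
  -- it suffices to treat `δw`
  suffices h : χ δw = 1 by rw [hδpow, map_zpow, h, one_zpow]
  have hN : (0 : ℝ) < (N : ℝ) := by exact_mod_cast Nat.pos_of_ne_zero (NeZero.ne N)
  have hRfun : (R ^ n : ℍ → ℂ) = (A : ℍ → ℂ) * (B : ℍ → ℂ) ^ (n - 1) := by
    funext z
    simpa using hRn z
  have hGn : ∀ z : ℍ, (R ∣[k] σ) z ^ n
      = ((A : ℍ → ℂ) ∣[k] σ) z * ((B : ℍ → ℂ) ∣[k] σ) z ^ (n - 1) := by
    intro z
    have h1 := congrFun (pow_slash_SL'' R k n σ) z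
    have h2 := congrFun (mul_pow_slash_SL (A : ℍ → ℂ) (B : ℍ → ℂ) k hn σ) z
    rw [hRfun] at h1
    rw [h1] at h2
    simpa using h2
  have hcast : (((w : ℕ) : ℤ) : ℝ) = (w : ℝ) := by push_cast; rfl
  have hGw : ∀ z : ℍ, (R ∣[k] σ) ((w : ℝ) +ᵥ z) = ((χ δw : ℂˣ) : ℂ) * (R ∣[k] σ) z := by
    intro z
    have := slash_vadd_of_conj (R := R) (k := k) (σ := σ) (δ := (δw : SL(2, ℤ)))
      (j := ((w : ℕ) : ℤ)) (c := ((χ δw : ℂˣ) : ℂ)) rfl (hχ δw) z
    rwa [hcast] at this
  have hBw : ∀ z : ℍ, ((B : ℍ → ℂ) ∣[k] σ) ((w : ℝ) +ᵥ z) = ((B : ℍ → ℂ) ∣[k] σ) z := by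
    intro z
    have := slash_vadd_of_conj (R := (B : ℍ → ℂ)) (k := k) (σ := σ) (δ := (δw : SL(2, ℤ)))
      (j := ((w : ℕ) : ℤ)) (c := 1) rfl
      (by rw [slash_eq_of_mem_Gamma0 B δw]; funext z; rw [one_mul]) z
    rw [hcast, one_mul] at this
    exact this
  have hL : ((((qExpansion (N : ℝ) ((A : ℍ → ℂ) ∣[k] σ)).order.toNat : ℕ)) : ℤ)
      = ((((qExpansion (N : ℝ) ((B : ℍ → ℂ) ∣[k] σ)).order.toNat : ℕ)) : ℤ)
        + (n : ℤ) * (((N / w : ℕ) : ℤ) * t) := by
    unfold ordCusp at ht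
    linear_combination ht
  have hwL : ∃ m : ℤ, (w : ℝ) * ((((N / w : ℕ) : ℤ) * t : ℤ) : ℝ) = (N : ℝ) * m := by
    refine ⟨t, ?_⟩
    have h1 : (w : ℤ) * ((N / w : ℕ) : ℤ) = (N : ℤ) := by
      exact_mod_cast Nat.mul_div_cancel' hwN
    have h2 : ((w : ℤ) : ℝ) * (((N / w : ℕ) : ℤ) : ℝ) = ((N : ℤ) : ℝ) := by exact_mod_cast h1
    push_cast at h2 ⊢
    linear_combination (t : ℝ) * h2
  have key := cusp_multiplier_eq_one hN (w := (w : ℝ)) hn (isCuspRegular_slash A σ)
    (isCuspRegular_slash B σ) (slash_ne_zero (coe_ne_zero_of_ne_zero hA) k σ)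
    (slash_ne_zero (coe_ne_zero_of_ne_zero hB) k σ) (hR.slash k (σ : GL (Fin 2) ℝ)) hGn hL hwL
    hGw hBw
  exact Units.ext (by simpa using key)

/-- The order of vanishing of `A * B ^ m` at a point. -/
theorem analyticOrderNatAt_mul_pow (A B : ModularForm (CongruenceSubgroup.Gamma0 N) k)
    (hA : A ≠ 0) (hB : B ≠ 0) (m : ℕ) (z : ℍ) :
    analyticOrderNatAt (((A : ℍ → ℂ) * (B : ℍ → ℂ) ^ m) ∘ UpperHalfPlane.ofComplex) (z : ℂ)
      = analyticOrderNatAt ((A : ℍ → ℂ) ∘ UpperHalfPlane.ofComplex) (z : ℂ)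
        + m * analyticOrderNatAt ((B : ℍ → ℂ) ∘ UpperHalfPlane.ofComplex) (z : ℂ) := by
  have hAan := Fermat.Agent.Lib.NthRoot.analyticOnNhd_comp_ofComplex (mdiff_coe A) z z.im_pos
  have hBan := Fermat.Agent.Lib.NthRoot.analyticOnNhd_comp_ofComplex (mdiff_coe B) z z.im_pos
  have hAtop := analyticOrderAt_ne_top_of_mdifferentiable (mdiff_coe A)
    (exists_ne_zero_of_ne_zero hA) z
  have hBtop := analyticOrderAt_ne_top_of_mdifferentiable (mdiff_coe B)
    (exists_ne_zero_of_ne_zero hB) z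
  have hfun : (((A : ℍ → ℂ) * (B : ℍ → ℂ) ^ m) ∘ UpperHalfPlane.ofComplex)
      = ((A : ℍ → ℂ) ∘ UpperHalfPlane.ofComplex) *
        ((B : ℍ → ℂ) ∘ UpperHalfPlane.ofComplex) ^ m := by
    funext x
    simp only [Pi.pow_apply, Pi.mul_apply, Function.comp_apply]
  have hBpow : analyticOrderAt (((B : ℍ → ℂ) ∘ UpperHalfPlane.ofComplex) ^ m) (z : ℂ) ≠ ⊤ := by
    rw [analyticOrderAt_pow hBan]
    lift analyticOrderAt ((B : ℍ → ℂ) ∘ UpperHalfPlane.ofComplex) (z : ℂ) to ℕ using hBtop with b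
    rw [nsmul_eq_mul]
    exact_mod_cast ENat.natCast_ne_top _
  rw [hfun, analyticOrderNatAt_mul hAan (hBan.pow _) hAtop hBpow, analyticOrderNatAt_pow hBan,
    smul_eq_mul]

/-- **MONO.** An unramified function has a character trivial on parabolic and elliptic
elements. -/
theorem stmt_MONO (N n : ℕ) [NeZero N] (hn : n ≠ 0) (hA1 : Stmt_A1 N) (hA3 : Stmt_A3 N)
    (hA4 : Stmt_A4 N) : Stmt_MONO N n := by
  intro f
  set f' : FNL ℂ N := ((f : (FNL ℂ N)ˣ) : FNL ℂ N) with hf'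
  have hf0 : f' ≠ 0 := Units.ne_zero _
  have hunr : ∀ v : AlgebraicCurve.Place ℂ (FNL ℂ N), (n : ℤ) ∣ v.ord f' := f.2
  obtain ⟨k, A, B, hB0, hAB⟩ := hA1 f'
  have hn1 : (((n - 1 : ℕ) : ℕ) : ℤ) = (n : ℤ) - 1 := by
    have : 1 ≤ n := Nat.one_le_iff_ne_zero.mpr hn
    push_cast [Nat.cast_sub this]
    ring
  -- `A ≠ 0`
  have hA0 : A ≠ 0 := by
    rintro rfl
    have h0 : qLaurent ((0 : ModularForm (CongruenceSubgroup.Gamma0 N) k) : ℍ → ℂ) = 0 :=
      Fermat.Agent.GTor.H56.qLaurent_zero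
    rw [h0] at hAB
    rcases mul_eq_zero.mp hAB.symm with h1 | h1
    · exact hf0 (by exact_mod_cast h1)
    · have := (Fermat.Agent.GTor.H56.qLaurent_eq_zero_iff
        (Fermat.Agent.GTor.H56.nice_of_gamma0 B)).mp h1
      exact hB0 (DFunLike.coe_injective this)
  have hk : Even k := even_weight_of_ne_zero hB0
  -- the function `A * B ^ (n - 1)` and its root
  have hmd : MDifferentiable 𝓘(ℂ) 𝓘(ℂ) ((A : ℍ → ℂ) * (B : ℍ → ℂ) ^ (n - 1)) :=
    (mdiff_coe A).mul ((mdiff_coe B).pow _)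
  have hne : ∃ τ : ℍ, ((A : ℍ → ℂ) * (B : ℍ → ℂ) ^ (n - 1)) τ ≠ 0 := by
    obtain ⟨τ, hτ⟩ := exists_mul_pow_ne_zero A B hA0 hB0 (n - 1)
    exact ⟨τ, by simpa using hτ⟩
  have hdiv : ∀ τ : ℍ, n ∣ analyticOrderNatAt
      (((A : ℍ → ℂ) * (B : ℍ → ℂ) ^ (n - 1)) ∘ UpperHalfPlane.ofComplex) (τ : ℂ) := by
    intro τ
    obtain ⟨-, v, hv⟩ := hA3 τ
    have h1 := hv f' k A B hf0 ⟨hB0, hAB⟩
    obtain ⟨t, ht⟩ := hunr v
    rw [analyticOrderNatAt_mul_pow A B hA0 hB0]
    rw [← Int.natCast_dvd_natCast]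
    refine ⟨(ellOrder N τ : ℤ) * t + ordAt B τ, ?_⟩
    unfold ordAt at h1 ⊢
    rw [ht] at h1
    push_cast
    rw [hn1]
    simp only [analyticOrderNatAt] at h1 ⊢
    linear_combination h1
  obtain ⟨R, hR, hRn'⟩ :=
    Fermat.Agent.Lib.NthRoot.exists_nthRoot_of_mdifferentiable hn hmd hne hdiv
  have hRn : ∀ z : ℍ, R z ^ n = A z * B z ^ (n - 1) := fun z => by
    simpa using hRn' z
  have hR0 : ∃ τ : ℍ, R τ ≠ 0 := exists_root_ne_zero hn A B hA0 hB0 hRn
  have hRfun : (R ^ n : ℍ → ℂ) = (A : ℍ → ℂ) * (B : ℍ → ℂ) ^ (n - 1) := by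
    funext z
    simpa using hRn z
  -- the character
  have hinv : ∀ γ ∈ CongruenceSubgroup.Gamma0 N, (R ^ n) ∣[k * n] γ = R ^ n := by
    intro γ hγ
    rw [hRfun, mul_pow_slash_SL _ _ k hn γ, slash_eq_of_mem_Gamma0 A ⟨γ, hγ⟩,
      slash_eq_of_mem_Gamma0 B ⟨γ, hγ⟩]
  obtain ⟨χ, hχn, hχ⟩ := Fermat.Agent.Lib.NthRoot.exists_character_of_root
    (CongruenceSubgroup.Gamma0 N) hn hR hR0 hinv
  obtain ⟨φ, hφ⟩ := exists_additive_of_character hn χ hχn
  have hφ0 : ∀ γ : CongruenceSubgroup.Gamma0 N, χ γ = 1 → φ (Additive.ofMul γ) = 0 := by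
    intro γ h1
    rw [← zetaPow_eq_one_iff hn, hφ, h1, Units.val_one]
  -- `χ (-1) = 1`
  have hneg : χ ⟨-1, neg_one_mem_Gamma0' N⟩ = 1 := by
    obtain ⟨τ, hτ⟩ := hR0
    have h1 := congrFun (hχ ⟨-1, neg_one_mem_Gamma0' N⟩) τ
    rw [slash_neg_one_of_even hk] at h1
    have h2 : ((χ ⟨-1, neg_one_mem_Gamma0' N⟩ : ℂˣ) : ℂ) = 1 := by
      have h3 : (((χ ⟨-1, neg_one_mem_Gamma0' N⟩ : ℂˣ) : ℂ) - 1) * R τ = 0 := by
        linear_combination -h1
      rcases mul_eq_zero.mp h3 with h4 | h4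
      · exact sub_eq_zero.mp h4
      · exact absurd h4 hτ
    exact Units.ext h2
  refine ⟨φ, ⟨?_, ?_⟩, k, R, B, ⟨hR, ?_, ?_⟩, hB0, ?_⟩
  · -- parabolic elements
    intro γ hγ
    apply hφ0
    obtain ⟨σ, j, hcase⟩ := trace_sq_eq_four_cases (γ : SL(2, ℤ)) hγ
    obtain ⟨hw, hwN, v, hv⟩ := hA4 σ
    have h1 := hv f' k A B hf0 ⟨hB0, hAB⟩
    obtain ⟨t, ht⟩ := hunr v
    rw [ht] at h1
    rcases hcase with h | h
    · exact chi_eq_one_of_conj_T hn A B hA0 hB0 hR hRn hχ σ hw hwN h1 h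
    · -- `γ = -(σ T^j σ⁻¹)`
      have hmem : σ * ModularGroup.T ^ j * σ⁻¹ ∈ CongruenceSubgroup.Gamma0 N := by
        have : σ * ModularGroup.T ^ j * σ⁻¹ = (-1 : SL(2, ℤ)) * (γ : SL(2, ℤ)) := by
          rw [h]; simp
        rw [this]
        exact (CongruenceSubgroup.Gamma0 N).mul_mem (neg_one_mem_Gamma0' N) γ.2
      have h2 : χ ⟨σ * ModularGroup.T ^ j * σ⁻¹, hmem⟩ = 1 :=
        chi_eq_one_of_conj_T hn A B hA0 hB0 hR hRn hχ σ hw hwN h1 rfl
      have h3 : γ = ⟨-1, neg_one_mem_Gamma0' N⟩ * ⟨σ * ModularGroup.T ^ j * σ⁻¹, hmem⟩ := by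
        apply Subtype.ext
        rw [Subgroup.coe_mul, h]
        simp
      rw [h3, map_mul, hneg, h2, one_mul]
  · -- elements of finite order
    intro γ hγ
    apply hφ0
    have hfin : IsOfFinOrder (γ : SL(2, ℤ)) := by
      obtain ⟨m, hm, hpow⟩ := isOfFinOrder_iff_pow_eq_one.mp hγ
      exact isOfFinOrder_iff_pow_eq_one.mpr ⟨m, hm, by
        have := congrArg (fun g : CongruenceSubgroup.Gamma0 N => (g : SL(2, ℤ))) hpow
        simpa using this⟩
    rcases finOrder_cases (γ : SL(2, ℤ)) hfin with h | h | ⟨z₀, hz₀⟩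
    · have : γ = 1 := Subtype.ext h
      rw [this, map_one]
    · have : γ = ⟨-1, neg_one_mem_Gamma0' N⟩ := Subtype.ext h
      rw [this, hneg]
    · obtain ⟨he, v, hv⟩ := hA3 z₀
      have h1 := hv f' k A B hf0 ⟨hB0, hAB⟩
      obtain ⟨t, ht⟩ := hunr v
      rw [ht] at h1
      exact chi_eq_one_of_fixed hn A B hA0 hB0 hR hRn hχ hz₀ he h1
  · -- the transformation law
    intro γ
    rw [hχ γ, hφ γ]
    rfl
  · -- boundedness at the cusps
    intro σ
    apply Fermat.Agent.Lib.NthRoot.isBoundedAtImInfty_of_pow hn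
    rw [← pow_slash_SL'' R k n σ, hRfun, mul_pow_slash_SL _ _ k hn σ]
    exact (ModularFormClass.bdd_at_infty_slash A σ).mul
      ((isCuspRegular_slash B σ).pow (n - 1)).bdd
  · -- the `q`-expansion identity
    have hNA := Fermat.Agent.GTor.H56.nice_of_gamma0 A
    have hNB := Fermat.Agent.GTor.H56.nice_of_gamma0 B
    have e1 : (fun z => R z ^ n) = (A : ℍ → ℂ) * (fun z => B z ^ (n - 1)) := by
      funext z
      simpa using hRn z
    have hNBp : Fermat.Agent.S23.H22.Nice 1 (fun z => B z ^ (n - 1)) := hNB.pow (n - 1)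
    rw [e1, Fermat.Agent.GTor.H56.qLaurent_mul hNA hNBp, Fermat.Agent.GTor.H56.qLaurent_pow hNB,
      Fermat.Agent.GTor.H56.qLaurent_pow hNB, hAB, mul_assoc, ← pow_succ',
      Nat.sub_add_cancel (Nat.one_le_iff_ne_zero.mpr hn)]

end Fermat.Agent.GTor.H96

end
end
-- ==== END Fermat.Agent.GTor.H96_MONO

-- ==== BEGIN Fermat.Agent.GTor.H98_ExistFinal
section

/-!
# G-TOR package EXIST, final form (helper98)

* `stmt_LocCusp : Stmt_LocCusp` (from helper96's LOC-CUSP package);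
* `exist : n ≠ 0 → Stmt_A2 N → Stmt_A5 N → Stmt_EXIST N n`.
-/

set_option autoImplicit false

noncomputable section

namespace Fermat.Agent.GTor.H98

open AlgebraicCurve ModularCurve UpperHalfPlane Filter Topology CongruenceSubgroup
open scoped MatrixGroups ModularForm Manifold

/-- Invariance under `T ^ w` in terms of the additive action. -/
theorem vadd_invariant_of_T_pow {G : ℍ → ℂ} {w : ℕ}
    (hGp : ∀ z : ℍ, G ((ModularGroup.T ^ w : SL(2, ℤ)) • z) = G z) (z : ℍ) :
    G (((w : ℕ) : ℝ) +ᵥ z) = G z := by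
  have h := UpperHalfPlane.modular_T_zpow_smul z (w : ℤ)
  rw [zpow_natCast] at h
  have h2 : (((w : ℤ) : ℝ)) = ((w : ℕ) : ℝ) := by push_cast; rfl
  rw [h2] at h
  rw [← h]
  exact hGp z

theorem vadd_invariant_mul {G : ℍ → ℂ} {w : ℕ}
    (hG : ∀ z : ℍ, G (((w : ℕ) : ℝ) +ᵥ z) = G z) (d : ℕ) (z : ℍ) :
    G ((((w * d : ℕ)) : ℝ) +ᵥ z) = G z := by
  induction d generalizing z with
  | zero => simp
  | succ d ih =>
    have h1 : (((w * (d + 1) : ℕ)) : ℝ) = ((w : ℕ) : ℝ) + (((w * d : ℕ)) : ℝ) := by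
      push_cast; ring
    rw [h1, add_vadd, hG, ih]

theorem periodic_comp_ofComplex_of_vadd {G : ℍ → ℂ} {h : ℝ}
    (hG : ∀ z : ℍ, G (h +ᵥ z) = G z) :
    Function.Periodic (G ∘ UpperHalfPlane.ofComplex) h := by
  intro x
  simp only [Function.comp_apply]
  by_cases hx : 0 < x.im
  · have hx' : 0 < (x + (h : ℂ)).im := by simpa using hx
    rw [UpperHalfPlane.ofComplex_apply_of_im_pos hx, UpperHalfPlane.ofComplex_apply_of_im_pos hx']
    rw [← hG ⟨x, hx⟩]
    congr 1
    apply UpperHalfPlane.ext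
    simp [UpperHalfPlane.coe_vadd, add_comm]
  · have hx1 : x.im ≤ 0 := not_lt.mp hx
    have hx' : (x + (h : ℂ)).im ≤ 0 := by simpa using hx1
    rw [UpperHalfPlane.ofComplex_apply_of_im_nonpos hx1,
      UpperHalfPlane.ofComplex_apply_of_im_nonpos hx']

/-- The local statement at the cusps, from helper96's package LOC-CUSP. -/
theorem stmt_LocCusp : Stmt_LocCusp := by
  intro N w hN hw hwN G hGm hGb hG0 hGp
  have hv : ∀ z : ℍ, G (((w : ℕ) : ℝ) +ᵥ z) = G z := vadd_invariant_of_T_pow hGp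
  have hvN : ∀ z : ℍ, G (((N : ℕ) : ℝ) +ᵥ z) = G z := by
    obtain ⟨d, rfl⟩ := hwN
    exact vadd_invariant_mul hv d
  have hX : H96.IsCuspRegular (N : ℝ) G :=
    ⟨periodic_comp_ofComplex_of_vadd hvN, hGm, hGb⟩
  have hX0 : G ≠ 0 := by
    obtain ⟨τ, hτ⟩ := hG0
    intro h
    exact hτ (by rw [h]; rfl)
  refine ⟨H96.IsCuspRegular.div_dvd_order hN hw hwN hX hX0 hv, fun n => ?_⟩
  have hNr : (0 : ℝ) < (N : ℝ) := by exact_mod_cast hN
  exact hX.order_toNat_qExpansion_pow hNr n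

/-- **EXIST** (final form): every character in `homPE` is the character of an unramified
function, given the packages A2 and A5. -/
theorem exist {N n : ℕ} [NeZero N] (hn : n ≠ 0) (hA2 : Stmt_A2 N) (hA5 : Stmt_A5 N) :
    Stmt_EXIST N n :=
  exist_of hn hA2 hA5 stmt_LocCusp

end Fermat.Agent.GTor.H98

end
end
-- ==== END Fermat.Agent.GTor.H98_ExistFinal

-- ==== BEGIN Fermat.Agent.GTor.TateDefs
section

/-!
# Cluster G, part TOR: the Tate module of `J₀(N)` — interfaces  (helper81)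

Goal: `Fermat.Agent.S30.Stmt_TatePiece` (interface of cluster R).  Route:

* `TorChar N n ι x φ` : the `n`-torsion class `x ∈ J₀(N)` has Betti character `φ`
  (`x = [D]`, `n D = div f`, `f` base-changed along `ι : ℚ̄ → ℂ` is `(R/B)ⁿ` with multiplier `ζ^φ`).
* `Stmt_TORc`   : `J₀(N)[n] ≃ homPE(Γ₀(N), ℤ/n)`, characterised by `TorChar`   (KUM + DESC + BETTI + CHAR)
* `Stmt_torsLift`: every `φ ∈ homPE(Γ₀(N), ℤ/m)` lifts to a parabolic hom to `ℤ`   (TORSLIFT, helper77)
* `Stmt_HK`     : `TorChar x φ → TorChar (T_ℓ x) (T_ℓ^B φ)`                       (Hecke compatibility)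
* `Stmt_GalHecke`: Galois commutes with the Hecke operators on `J₀(N)`
* `Stmt_TorsUnram`, `Stmt_TorsES` : inertia is trivial / Eichler–Shimura on `p`-power torsion (from G-RED)
* `Stmt_GAL`    : every point of `J₀(N)` is fixed by an open subgroup
* `IsTateSystem`: the resulting compatible system of matrix representations mod `p^k`
* T1 `Stmt_T1`  : `IsTateSystem` ⇒ `Stmt_TatePiece`   (pure algebra)
* T2 `Stmt_T2`  : all of the above ⇒ a Tate system     (plumbing)

Everything here is a definition or a `Prop`; no `sorry`.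
-/

set_option autoImplicit false

noncomputable section

namespace Fermat.Agent.GTor

open AlgebraicCurve ModularCurve
open scoped MatrixGroups

/-- The absolute Galois group of `ℚ`. -/
abbrev GQ : Type := AlgebraicClosure ℚ ≃ₐ[ℚ] AlgebraicClosure ℚ

/-! ## 1. The character of a torsion class -/

/-- `φ` is the Betti character of the class `x ∈ J₀(N)` (which is then killed by `n`):
`x = [D]`, `n • D = div f` with `f ∈ F_ℚ̄`, and the base change `f'` of `f` along `ι` has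
character `φ`. -/
def TorChar (N n : ℕ) [NeZero N] (ι : AlgebraicClosure ℚ →+* ℂ) (x : JZero N)
    (φ : Additive (CongruenceSubgroup.Gamma0 N) →+ ZMod n) : Prop :=
  ∃ (D : Divisor.degZero (K := AlgebraicClosure ℚ) (F := FNL (AlgebraicClosure ℚ) N))
    (f : FNL (AlgebraicClosure ℚ) N) (f' : FNL ℂ N),
    f ≠ 0 ∧ x = Pic0.mk D ∧
    (∀ v : Place (AlgebraicClosure ℚ) (FNL (AlgebraicClosure ℚ) N),
      (n : ℤ) * (D : Divisor (AlgebraicClosure ℚ) (FNL (AlgebraicClosure ℚ) N)) v = v.ord f) ∧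
    (∀ m : ℤ, (f' : LaurentSeries ℂ).coeff m = ι ((f : LaurentSeries (AlgebraicClosure ℚ)).coeff m)) ∧
    HasChar N n f' φ

/-- **TORc**: the characterised form of `Stmt_TOR`. -/
def Stmt_TORc (N n : ℕ) [NeZero N] : Prop :=
  ∀ ι : AlgebraicClosure ℚ →+* ℂ,
    ∃ e : Pic0.torsion (AlgebraicClosure ℚ) (modularFunctionFieldBar N) n ≃+
        homPE (CongruenceSubgroup.Gamma0 N) (ZMod n),
      (∀ x : Pic0.torsion (AlgebraicClosure ℚ) (modularFunctionFieldBar N) n,
        TorChar N n ι (x : JZero N)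
          ((e x : homPE (CongruenceSubgroup.Gamma0 N) (ZMod n)) :
            Additive (CongruenceSubgroup.Gamma0 N) →+ ZMod n)) ∧
      (∀ (x : Pic0.torsion (AlgebraicClosure ℚ) (modularFunctionFieldBar N) n)
        (φ : Additive (CongruenceSubgroup.Gamma0 N) →+ ZMod n),
        TorChar N n ι (x : JZero N) φ →
          φ = ((e x : homPE (CongruenceSubgroup.Gamma0 N) (ZMod n)) :
            Additive (CongruenceSubgroup.Gamma0 N) →+ ZMod n))

/-! ## 2. Inputs from the Betti side -/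

/-- **TORSLIFT** (helper77): every hom `Γ₀(N) → ℤ/m` killing parabolic and finite-order elements
lifts to a parabolic hom `Γ₀(N) → ℤ`. -/
def Stmt_torsLift (N : ℕ) [NeZero N] : Prop :=
  ∀ (m : ℕ), m ≠ 0 → ∀ φ ∈ homPE (CongruenceSubgroup.Gamma0 N) (ZMod m),
    ∃ ψ : Additive (CongruenceSubgroup.Gamma0 N) →+ ℤ,
      Period.IsParabolicHom (CongruenceSubgroup.Gamma0 N) ψ ∧ ∀ γ, φ γ = ((ψ γ : ℤ) : ZMod m)

/-! ## 3. Inputs from geometry -/

/-- **HK**: the Kummer–Betti dictionary intertwines the Hecke operator `T_ℓ = α_* β^*` of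
`J₀(N)` (prelude `heckeOperatorBar`) with the Betti operator `T_ℓ^B` (`Betti.TB`).
Proof: the Kummer function of `T_ℓ x` is `Norm_{F_{Nℓ}/F_N}(f(q^ℓ)) = ∏_i f ∘ rep_i`
(`rep_i` = the `ℓ + 1` Hecke representatives), whose `n`-th root `∏_i (R/B) ∘ rep_i` has
multiplier `γ ↦ ∏_i χ(κ_i(γ))`. -/
def Stmt_HK (N n : ℕ) [NeZero N] : Prop :=
  ∀ (ι : AlgebraicClosure ℚ →+* ℂ) (ℓ : ℕ) (hℓ : ℓ.Prime) (hℓN : ¬ ℓ ∣ N) (x : JZero N)
    (φ : Additive (CongruenceSubgroup.Gamma0 N) →+ ZMod n),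
    TorChar N n ι x φ →
      TorChar N n ι (heckeOperatorBar N ⟨ℓ, hℓ⟩ x) (Betti.TB N (ZMod n) hℓ hℓN φ)

/-- **GalHecke**: the Hecke operators of `J₀(N)` are defined over `ℚ`. -/
def Stmt_GalHecke (N : ℕ) [NeZero N] : Prop :=
  ∀ (ℓ : Nat.Primes) (σ : GQ) (x : JZero N),
    σ • heckeOperatorBar N ℓ x = heckeOperatorBar N ℓ (σ • x)

/-- Inertia at `q ∤ N p` acts trivially on the `p`-power torsion of `J₀(N)`. -/
def Stmt_TorsUnram (N p : ℕ) [NeZero N] : Prop :=
  ∀ q : ℕ, q.Prime → ¬ q ∣ N → q ≠ p →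
    ∀ P : ValuationSubring (AlgebraicClosure ℚ), P.LiesOverPrime q →
      ∀ σ ∈ P.inertiaSubgroupIn ℚ, ∀ x : JZero N, (∃ n : ℕ, p ^ n • x = 0) → σ • x = x

/-- The Eichler–Shimura relation on the `p`-power torsion of `J₀(N)`, for every Frobenius element
at every place over `ℓ ∤ N p`. -/
def Stmt_TorsES (N p : ℕ) [NeZero N] : Prop :=
  ∀ (ℓ : ℕ) (hℓ : ℓ.Prime), ¬ ℓ ∣ N → ℓ ≠ p →
    ∀ A : ValuationSubring (AlgebraicClosure ℚ), A.LiesOverPrime ℓ →
      ∀ σ : GQ, A.IsFrobeniusAt σ ℓ → ∀ x : JZero N, (∃ n : ℕ, p ^ n • x = 0) →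
        σ • σ • x - heckeOperatorBar N ⟨ℓ, hℓ⟩ (σ • x) + ℓ • x = 0

/-- **GAL**: every point of `J₀(N)` is fixed by the Galois group of a number field. -/
def Stmt_GAL (N : ℕ) [NeZero N] : Prop :=
  ∀ y : JZero N, ∃ L : IntermediateField ℚ (AlgebraicClosure ℚ), FiniteDimensional ℚ L ∧
    ∀ σ : GQ, (∀ x ∈ L, σ x = x) → σ • y = y

/-! ## 4. Tate systems -/

section TateSystem

variable {R : Type} [CommRing R] (p : ℕ) {r : ℕ}

/-- A compatible system of matrix representations `ρ k : G_ℚ → M_r(ℤ/p^k)` commuting with a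
ring of integer matrices `M : R → M_r(ℤ)`, each `ρ k` factoring through a number field. -/
structure IsTateSystem (ρ : ∀ k : ℕ, GQ →* Matrix (Fin r) (Fin r) (ZMod (p ^ k)))
    (M : R →+* Matrix (Fin r) (Fin r) ℤ) : Prop where
  compat : ∀ (k : ℕ) (σ : GQ) (i j : Fin r),
    ((ZMod.castHom (pow_dvd_pow p (Nat.le_succ k)) (ZMod (p ^ k))) (ρ (k + 1) σ i j)) = ρ k σ i j
  cont : ∀ k : ℕ, ∃ L : IntermediateField ℚ (AlgebraicClosure ℚ), FiniteDimensional ℚ L ∧
    ∀ σ : GQ, (∀ x ∈ L, σ x = x) → ρ k σ = 1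
  comm : ∀ (k : ℕ) (σ : GQ) (t : R),
    ρ k σ * (M t).map (Int.cast : ℤ → ZMod (p ^ k)) =
      (M t).map (Int.cast : ℤ → ZMod (p ^ k)) * ρ k σ
  inj : Function.Injective M

/-- The Eichler–Shimura relation for a Tate system, with `T_ℓ ↦ a ℓ ∈ R`. -/
def TateES (ρ : ∀ k : ℕ, GQ →* Matrix (Fin r) (Fin r) (ZMod (p ^ k)))
    (M : R →+* Matrix (Fin r) (Fin r) ℤ) (ℓ : ℕ) (a : R) : Prop :=
  ∀ A : ValuationSubring (AlgebraicClosure ℚ), A.LiesOverPrime ℓ →
    ∀ σ : GQ, A.IsFrobeniusAt σ ℓ → ∀ k : ℕ,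
      ρ k σ * ρ k σ - (M a).map (Int.cast : ℤ → ZMod (p ^ k)) * ρ k σ
        + (ℓ : ZMod (p ^ k)) • (1 : Matrix (Fin r) (Fin r) (ZMod (p ^ k))) = 0

/-- A Tate system is unramified at `q`. -/
def TateUnram (ρ : ∀ k : ℕ, GQ →* Matrix (Fin r) (Fin r) (ZMod (p ^ k))) (q : ℕ) : Prop :=
  ∀ P : ValuationSubring (AlgebraicClosure ℚ), P.LiesOverPrime q →
    ∀ σ ∈ P.inertiaSubgroupIn ℚ, ∀ k : ℕ, ρ k σ = 1

end TateSystem

/-- **Tate system of `J₀(N)`** at `p`, for the Hecke algebra away from `S`. -/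
def Stmt_TateSystem (N p : ℕ) [NeZero N] (S : Finset ℕ) : Prop :=
  ∃ (r : ℕ) (ρ : ∀ k : ℕ, GQ →* Matrix (Fin r) (Fin r) (ZMod (p ^ k)))
    (M : CuspForm.heckeAlgebra N 2 (↑S : Set ℕ) →+* Matrix (Fin r) (Fin r) ℤ),
    IsTateSystem p ρ M ∧
    (∀ (ℓ : ℕ) (hℓ : ℓ.Prime) (hℓN : ¬ ℓ ∣ N) (hℓS : ℓ ∉ (↑S : Set ℕ)),
      TateES p ρ M ℓ (CuspForm.heckeAlgebra.T hℓ hℓN hℓS)) ∧
    (∀ q : ℕ, q.Prime → ¬ q ∣ N → q ≠ p → TateUnram p ρ q)

/-- **T1** (pure algebra): a Tate system gives the Tate piece of every eigensystem.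
Route: limit `ρ : G_ℚ → M_r(𝒪')` (completeness), common eigenvector of `M(R)` with character `χ`
over `Frac 𝒪'` (`Betti.Stmt_algEig`), saturated lattice of the eigenspace (`S30.Stmt_Lattice`),
`ρ' = Q ρ P`. -/
def Stmt_T1 : Prop :=
  (∀ (p : ℕ) [Fact p.Prime] (N : ℕ) [NeZero N] (S : Finset ℕ), p ∈ S →
      (∀ q : ℕ, q.Prime → q ∣ N → q ∈ S) → Stmt_TateSystem N p S) →
    S30.Stmt_TatePiece

/-- **T2** (plumbing): the Tate system of `J₀(N)` from the torsion dictionary. -/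
def Stmt_T2 (N p : ℕ) [NeZero N] (S : Finset ℕ) : Prop :=
  p.Prime → p ∈ S → (∀ q : ℕ, q.Prime → q ∣ N → q ∈ S) →
  (∀ k : ℕ, Stmt_TORc N (p ^ k)) → (∀ k : ℕ, Stmt_HK N (p ^ k)) → Stmt_torsLift N →
  Stmt_GalHecke N → Stmt_TorsUnram N p → Stmt_TorsES N p → Stmt_GAL N →
  Betti.Stmt_basis → Betti.Stmt_matrixRep →
    Stmt_TateSystem N p S

end Fermat.Agent.GTor

end
end
-- ==== END Fermat.Agent.GTor.TateDefs
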