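-- GENERATED (merged mirror, NOTES/tools/trim/merge3_helper67.py): 8 modules of the originals, bodies verbatim.
import Mathlib
import Fermat.Prelude.Thm_ModularForm_sturm_bound_Gamma0
import Fermat.Agent.Zm.S35_L03_001
import Fermat.Agent.Lib.FrobDensity.H12_SplitZ
import Fermat.Agent.Lib.FrobDensity.H84_FibreCard
import Fermat.Agent.Zm.S35_L01_001
import Fermat.Agent.Zm.S35_L03_002
import Fermat.Agent.Zm.S35_L02_001
import Fermat.Agent.Zm.S35_L02_002
import Fermat.Agent.Zm.S35_L01_002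
import Fermat.Agent.Zm.S35_L01_000
import Fermat.Agent.Zm.S35_L03_005
import Fermat.Agent.RED.H17_Red
import Fermat.Agent.Zm.S35_L03_004
import Fermat.Agent.Zm.S35_L01_004
import Fermat.Agent.S20.H29_PartD

-- ==== BEGIN Fermat.Agent.Lib.FrobDensity.Main
section

/-!
# Item 61: the Frobenius density theorem (existence form), unconditional

Assembly of the packages of `NOTES/plan/FrobDensity.md`:

* A, A', C, B0, B3, FD: helper31 (`Lib/ZetaPrimes*`, `H31_*.lean`);
* B1 `Stmt_Split`, `Stmt_NormUnder`: helper12 (`H12_SplitZ.lean`);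
* B2 `Stmt_FibreCard`: helper84 (`H84_FibreCard.lean`);
* D bridge to `ValuationSubring ℚ̄`: helper97 (`H97_Bridge.lean`).

Results:

* `stmt_FrobSum : Stmt_FrobSum`;
* `stmt_FD_NF : Stmt_FD_NF` (number field form): for `L/ℚ` finite Galois, `g ∈ Gal(L/ℚ)` and a
  finite set `S` of primes there is a prime `Q` of `𝓞 L` over some `ℓ ∉ S`, with trivial inertia
  group, and a Frobenius `φ` at `Q` with `⟨φ⟩ = ⟨g⟩`;
* `stmt_FD : Fermat.Agent.R.Stmt_FD` (the form consumed by cluster R).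
-/

namespace Fermat.Agent.Lib.FrobDensity

/-- The number field instance of the hypothesis of the counting lemma. -/
theorem stmt_FrobSum : Stmt_FrobSum :=
  H31.stmt_FrobSum_of H12.stmt_Split H12.stmt_NormUnder H84.stmt_FibreCard

/-- **Frobenius density theorem, existence form, number field version.** -/
theorem stmt_FD_NF : Stmt_FD_NF :=
  H31.stmt_FD_NF_of_frobSum stmt_FrobSum

/-- **Frobenius density theorem, existence form**, for valuation subrings of `ℚ̄`. -/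
theorem stmt_FD : Fermat.Agent.R.Stmt_FD :=
  H97.stmt_FD_of_NF stmt_FD_NF

end Fermat.Agent.Lib.FrobDensity

end
-- ==== END Fermat.Agent.Lib.FrobDensity.Main

-- ==== BEGIN Fermat.Agent.R.H2_Sep
section

/-!
# Cluster R, leaf L3c (helper2): `IsReduced 𝕋 → Stmt_Sep N S p`

`Stmt_Sep` (defined in `Fermat/Agent/R/Defs.lean`) for the Hecke algebra
`𝕋 = heckeAlgebra N 2 S`, from reducedness of `𝕋` and finiteness of `𝕋` over `ℤ` (S22).
-/

set_option autoImplicit false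
set_option linter.style.haveILetI false

open IsLocalRing

namespace Fermat.Agent.R.H2

/-- The Hecke algebra is torsion free over `ℤ` (it is a ring of endomorphisms of a complex
vector space). -/
theorem heckeAlgebra_isTorsionFree (N : ℕ) [NeZero N] (k : ℤ) (S : Set ℕ) :
    Module.IsTorsionFree ℤ (CuspForm.heckeAlgebra N k S) := by
  infer_instance

/-- **L3c**: a reduced Hecke algebra (finite over `ℤ`) is `p`-adically separated by finitely
many points with values in complete discrete valuation rings. -/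
theorem stmt_Sep_of_isReduced (N : ℕ) [NeZero N] (S : Finset ℕ) (p : ℕ) [Fact p.Prime]
    [Module.Finite ℤ (CuspForm.heckeAlgebra N 2 (↑S : Set ℕ))]
    (hred : IsReduced (CuspForm.heckeAlgebra N 2 (↑S : Set ℕ))) :
    Fermat.Agent.R.Stmt_Sep N S p := by
  obtain ⟨ι, hι, P, c, hP⟩ := exists_sep p (CuspForm.heckeAlgebra N 2 (↑S : Set ℕ))
  exact ⟨ι, hι, fun i => { R := (P i).R, hp := (P i).hp, χ := (P i).χ }, c, hP⟩

end Fermat.Agent.R.H2

end
-- ==== END Fermat.Agent.R.H2_Sep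

-- ==== BEGIN Fermat.Agent.R.H2_SepTCore
section

/-!
# Cluster R (helper2): the local Hecke algebra `T` of a Hecke–Galois datum is reduced and is
separated by its points in complete discrete valuation rings — core (no Hecke algebra here)

* `isReduced_of_adjoin_eq_top` : a `K`-algebra (`K` a field of characteristic `0`) generated by
  the image of a reduced ring which is finite free over `ℤ` is reduced.
* `isReduced_of_free_of_adjoin_eq_top` : an algebra `T`, free over a domain `O` of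
  characteristic `0`, generated by the image of such a ring, is reduced.
* `exists_point_ne_zero` : if moreover `O` is a complete DVR with finite residue field and `T`
  is local and finite over `O`, every `t ≠ 0` is non-zero at some local homomorphism to a
  complete DVR (characteristic `0`, finite residue field).
-/

set_option autoImplicit false
set_option linter.style.haveILetI false
set_option linter.unusedSectionVars false
set_option linter.dupNamespace false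

open IsLocalRing TensorProduct

namespace Fermat.Agent.R.H2

section reducedK

variable (𝕋 : Type) [CommRing 𝕋] [Module.Free ℤ 𝕋] [Module.Finite ℤ 𝕋] [IsReduced 𝕋]
  (K : Type) [Field K] [CharZero K]
  (R : Type) [CommRing R] [Algebra K R]

/-- A `K`-algebra generated by the image of a reduced order is reduced (`K` of
characteristic `0`). -/
theorem isReduced_of_adjoin_eq_top (π : 𝕋 →+* R)
    (hgen : Algebra.adjoin K (Set.range π) = ⊤) : IsReduced R := by
  letI : Algebra ℚ R := ((algebraMap K R).comp (algebraMap ℚ K)).toAlgebra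
  haveI : IsScalarTower ℚ K R := IsScalarTower.of_algebraMap_eq (fun _ => rfl)
  haveI := formallyEtale_rat_tensor 𝕋
  let g : (ℚ ⊗[ℤ] 𝕋) →ₐ[ℚ] R :=
    Algebra.TensorProduct.lift (Algebra.ofId ℚ R) π.toIntAlgHom (fun _ _ => Commute.all _ _)
  let Ψ : (K ⊗[ℚ] (ℚ ⊗[ℤ] 𝕋)) →ₐ[K] R :=
    Algebra.TensorProduct.lift (Algebra.ofId K R) g (fun _ _ => Commute.all _ _)
  have hΨ : Function.Surjective Ψ := by
    rw [← AlgHom.range_eq_top, eq_top_iff, ← hgen]
    apply Algebra.adjoin_le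
    rintro _ ⟨t, rfl⟩
    refine ⟨(1 : K) ⊗ₜ[ℚ] ((1 : ℚ) ⊗ₜ[ℤ] t), ?_⟩
    simp [Ψ, g]
  haveI h1 : Algebra.FormallyUnramified ℚ (ℚ ⊗[ℤ] 𝕋) := inferInstance
  haveI h2 : Algebra.FormallyUnramified K (K ⊗[ℚ] (ℚ ⊗[ℤ] 𝕋)) := inferInstance
  haveI : Algebra.FormallyUnramified K R :=
    Algebra.FormallyUnramified.of_surjective (R := K) (A := K ⊗[ℚ] (ℚ ⊗[ℤ] 𝕋)) (B := R) Ψ hΨ
  haveI : Module.Finite K R := Module.Finite.of_surjective Ψ.toLinearMap hΨ
  exact Algebra.FormallyUnramified.isReduced_of_field K R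

end reducedK

section reducedO

variable (𝕋 : Type) [CommRing 𝕋] [Module.Free ℤ 𝕋] [Module.Finite ℤ 𝕋] [IsReduced 𝕋]
  (O : Type) [CommRing O] [IsDomain O] [CharZero O]
  (T : Type) [CommRing T] [Algebra O T] [Module.Flat O T]

/-- An algebra, flat over a domain `O` of characteristic `0`, generated over `O` by the image
of a reduced order, is reduced. -/
theorem isReduced_of_flat_of_adjoin_eq_top (π : 𝕋 →+* T)
    (hgen : Algebra.adjoin O (Set.range π) = ⊤) : IsReduced T := by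
  haveI : CharZero (FractionRing O) :=
    charZero_of_injective_algebraMap (IsFractionRing.injective O (FractionRing O))
  let ι : T →ₐ[O] (FractionRing O) ⊗[O] T := Algebra.TensorProduct.includeRight
  have hι : Function.Injective ι :=
    Algebra.TensorProduct.includeRight_injective (IsFractionRing.injective O (FractionRing O))
  let π' : 𝕋 →+* (FractionRing O) ⊗[O] T := ι.toRingHom.comp π
  have hmem : ∀ x : T, ι x ∈ Algebra.adjoin (FractionRing O) (Set.range π') := by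
    let S' : Subalgebra O T :=
      ((Algebra.adjoin (FractionRing O) (Set.range π')).restrictScalars O).comap ι
    have hle : Algebra.adjoin O (Set.range π) ≤ S' := by
      apply Algebra.adjoin_le
      rintro _ ⟨t, rfl⟩
      exact Algebra.subset_adjoin ⟨t, rfl⟩
    intro x
    have hx : x ∈ S' := hle (hgen ▸ Algebra.mem_top)
    exact hx
  have hgen' : Algebra.adjoin (FractionRing O) (Set.range π') = ⊤ := by
    rw [eq_top_iff]
    rintro z -
    induction z using TensorProduct.induction_on with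
    | zero => exact Subalgebra.zero_mem _
    | tmul k x =>
      have h1 : k ⊗ₜ[O] x = k • ι x := by
        simp [ι, TensorProduct.smul_tmul']
      rw [h1]
      exact Subalgebra.smul_mem _ (hmem x) k
    | add a b ha hb => exact Subalgebra.add_mem _ ha hb
  haveI : IsReduced ((FractionRing O) ⊗[O] T) :=
    isReduced_of_adjoin_eq_top 𝕋 (FractionRing O) _ π' hgen'
  exact isReduced_of_injective ι hι

end reducedO

section point

variable (O : Type) [CommRing O] [IsDomain O] [IsDiscreteValuationRing O]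
  [IsAdicComplete (maximalIdeal O) O] [Finite (ResidueField O)] [CharZero O]
  (T : Type) [CommRing T] [Algebra O T] [Module.Finite O T] [Module.Free O T]

/-- `O` injects into the quotient of a torsion-free algebra by a minimal prime. -/
theorem injective_algebraMap_quotient_minimalPrime' (𝔮 : Ideal T) (h𝔮 : 𝔮 ∈ minimalPrimes T) :
    Function.Injective (algebraMap O (T ⧸ 𝔮)) := by
  haveI h𝔮prime : 𝔮.IsPrime := h𝔮.1.1
  rw [injective_iff_map_eq_zero]
  intro a ha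
  by_contra ha0
  have hnzd : algebraMap O T a ∈ nonZeroDivisors T := by
    rw [mem_nonZeroDivisors_iff_right]
    intro x hx
    have h1 : a • x = 0 := by
      rw [Algebra.smul_def, mul_comm]; exact hx
    exact (smul_eq_zero.mp h1).resolve_left ha0
  have hmem : algebraMap O T a ∈ 𝔮 := by
    rw [← Ideal.Quotient.eq_zero_iff_mem]
    rw [IsScalarTower.algebraMap_apply O T (T ⧸ 𝔮)] at ha
    exact ha
  exact Set.disjoint_left.1 (Ideal.disjoint_nonZeroDivisors_of_mem_minimalPrimes h𝔮) hmem hnzd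

variable [IsLocalRing T] [IsReduced T]

include O in
/-- The points of a reduced local finite free `O`-algebra in complete discrete valuation rings
separate its elements. -/
theorem exists_point_ne_zero (t : T) (ht : t ≠ 0) :
    ∃ (O' : Type) (_ : CommRing O') (_ : IsDomain O') (_ : IsDiscreteValuationRing O')
      (_ : IsAdicComplete (maximalIdeal O') O') (_ : Finite (ResidueField O'))
      (_ : CharZero O') (ψ : T →+* O'), IsLocalHom ψ ∧ ψ t ≠ 0 := by
  classical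
  -- a minimal prime avoiding `t`
  obtain ⟨𝔮, h𝔮min, ht𝔮⟩ : ∃ 𝔮 ∈ minimalPrimes T, t ∉ 𝔮 := by
    by_contra hcon
    push Not at hcon
    have h1 : t ∈ sInf (minimalPrimes T) := by
      rw [Ideal.mem_sInf]
      intro 𝔮 h𝔮
      exact hcon 𝔮 h𝔮
    have h2 : sInf (minimalPrimes T) = (⊥ : Ideal T) := by
      have := Ideal.sInf_minimalPrimes (I := (⊥ : Ideal T))
      rw [minimalPrimes]
      rw [this]
      exact nilradical_eq_zero T
    rw [h2] at h1
    exact ht ((Submodule.mem_bot T).1 h1)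
  haveI h𝔮prime : 𝔮.IsPrime := h𝔮min.1.1
  have hinj : Function.Injective (algebraMap O (T ⧸ 𝔮)) :=
    injective_algebraMap_quotient_minimalPrime' O T 𝔮 h𝔮min
  haveI : FaithfulSMul O (T ⧸ 𝔮) := (faithfulSMul_iff_algebraMap_injective O (T ⧸ 𝔮)).2 hinj
  obtain ⟨O', iCR, iD, iDVR, iAC, iFin, iCZ, iAlg, iMF, iLH, j, -, hjinj, -, hjmax⟩ :=
    exists_dvr_of_finite_domain O (T ⧸ 𝔮)
  refine ⟨O', iCR, iD, iDVR, iAC, iFin, iCZ, j.comp (Ideal.Quotient.mk 𝔮), ?_, ?_⟩
  · -- local homomorphism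
    obtain ⟨𝔫, h𝔫⟩ := Ideal.exists_maximal (T ⧸ 𝔮)
    have h1 : (maximalIdeal O').comap j = 𝔫 := hjmax 𝔫 h𝔫
    have h2 : (𝔫.comap (Ideal.Quotient.mk 𝔮)).IsMaximal :=
      Ideal.comap_isMaximal_of_surjective _ Ideal.Quotient.mk_surjective
    have h3 : 𝔫.comap (Ideal.Quotient.mk 𝔮) = maximalIdeal T := IsLocalRing.eq_maximalIdeal h2
    constructor
    intro x hx
    by_contra hxu
    have hxm : x ∈ maximalIdeal T := (IsLocalRing.mem_maximalIdeal x).2 hxu
    rw [← h3, Ideal.mem_comap, ← h1, Ideal.mem_comap] at hxm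
    exact (IsLocalRing.mem_maximalIdeal _).1 hxm hx
  · intro h0
    rw [RingHom.comp_apply] at h0
    have h1 : Ideal.Quotient.mk 𝔮 t = 0 := hjinj (h0.trans (map_zero j).symm)
    exact ht𝔮 (Ideal.Quotient.eq_zero_iff_mem.1 h1)

end point

end Fermat.Agent.R.H2

end
-- ==== END Fermat.Agent.R.H2_SepTCore

-- ==== BEGIN Fermat.Agent.R.Pet.H58_PetB
section

/-!
# Pet (helper58): the Petersson pairing `B f g = mean F₀ (petersson k f g)` and `Stmt_pet`
from the work packages.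
-/

set_option autoImplicit false
set_option linter.unusedSectionVars false

namespace Fermat.Agent.R.Pet

open UpperHalfPlane ModularForm MatrixGroups MeasureTheory CongruenceSubgroup
open scoped Modular Pointwise ComplexConjugate

lemma Gamma_le_Gamma0_of_dvd {N M : ℕ} (h : N ∣ M) : Gamma M ≤ Gamma0 N := by
  intro γ hγ
  rw [Gamma_mem] at hγ
  rw [Gamma0_mem]
  have h1 : ((γ 1 0 : ℤ) : ZMod M) = 0 := hγ.2.2.1
  rw [ZMod.intCast_zmod_eq_zero_iff_dvd] at h1 ⊢
  exact (Int.natCast_dvd_natCast.mpr h).trans h1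

lemma GamR_le_of_dvd {N M : ℕ} (h : N ∣ M) :
    GamR M ≤ (Gamma0 N).map (Matrix.SpecialLinearGroup.mapGL ℝ) :=
  Subgroup.map_mono (Gamma_le_Gamma0_of_dvd h)

section inv

variable {N : ℕ} [NeZero N] {k : ℤ}

/-- The Petersson integrand of two cusp forms of level `Γ₀(N)` is `Γ(M)`-invariant, `N ∣ M`. -/
lemma pet_invariant {M : ℕ} (h : N ∣ M) (f g : CuspForm (Gamma0 N) k) :
    ∀ γ ∈ GamR M, ∀ z, petersson k f g (γ • z) = petersson k f g z := by
  intro γ hγ z
  exact SlashInvariantFormClass.petersson_smul (GamR_le_of_dvd h hγ)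

lemma pet_continuous (f g : CuspForm (Gamma0 N) k) : Continuous (petersson k f g) :=
  petersson_continuous k (CuspFormClass.holo f).continuous (CuspFormClass.holo g).continuous

lemma pet_integrableOn {F : Set ℍ} (hF : volume F < ⊤) (f g : CuspForm (Gamma0 N) k) :
    IntegrableOn (petersson k f g) F volume :=
  integrableOn_of_bdd_cont hF (pet_continuous f g)
    (PetBdd.pair (PetBdd.of_cuspForm f) (PetBdd.of_cuspForm g))

end inv

lemma countable_SL2Z : Countable SL(2, ℤ) :=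
  haveI : Countable (Matrix (Fin 2) (Fin 2) ℤ) :=
    inferInstanceAs (Countable (Fin 2 → Fin 2 → ℤ))
  Function.Injective.countable (f := fun A : SL(2, ℤ) => (A : Matrix (Fin 2) (Fin 2) ℤ))
    Subtype.val_injective

lemma countable_GamR (M : ℕ) : Countable (GamR M) := by
  have := countable_SL2Z
  have h : ((GamR M : Subgroup (GL (Fin 2) ℝ)) : Set (GL (Fin 2) ℝ)).Countable := by
    rw [GamR, Subgroup.coe_map]
    exact (Set.countable_range _).mono (Set.image_subset_range _ _)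
  exact h.to_subtype

/-- **PET** from the work packages. -/
theorem stmt_pet_of (hPC : Stmt_open_pos) (hfd : Stmt_exists_fd_Gamma) (hlev : Stmt_mean_level)
    (hpos : Stmt_pos) (hadj : Stmt_adj) (N : ℕ) [NeZero N] (k : ℤ) : Stmt_pet N k := by
  have hN : 0 < N := NeZero.pos N
  obtain ⟨F₀, hF₀⟩ := hfd (3 * N) (by omega)
  refine ⟨fun f g => mean F₀ (petersson k f g), ?_, ?_, ?_, ?_⟩
  · intro f f' g
    show mean F₀ (petersson k (⇑(f + f')) g) = _
    rw [FunLike.coe_add, pet_add_left]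
    exact mean_add (pet_integrableOn hF₀.fin f g) (pet_integrableOn hF₀.fin f' g)
  · intro f g g'
    show mean F₀ (petersson k f (⇑(g + g'))) = _
    rw [FunLike.coe_add, pet_add_right]
    exact mean_add (pet_integrableOn hF₀.fin f g) (pet_integrableOn hF₀.fin f g')
  · intro f hf
    have hμ : (volume : Measure ℍ) ≠ 0 := by
      intro h
      have := hPC Set.univ isOpen_univ Set.univ_nonempty
      rw [h] at this
      simp at this
    have := countable_GamR (3 * N)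
    have hvol0 : volume F₀ ≠ 0 := hF₀.fd.measure_ne_zero hμ
    have hvolR : (((volume F₀).toReal : ℝ) : ℂ) ≠ 0 := by
      rw [Ne, Complex.ofReal_eq_zero, ENNReal.toReal_eq_zero_iff]
      rintro (h | h)
      · exact hvol0 h
      · exact hF₀.fin.ne h
    have hint : ∫ z in F₀, petersson k f f z = 0 := by
      rcases div_eq_zero_iff.mp hf with h | h
      · exact h
      · exact absurd h hvolR
    set Φ : ℍ → ℝ := fun τ => ‖f τ‖ ^ 2 * τ.im ^ k with hΦdef
    have hΦ : ∀ τ, petersson k f f τ = ((Φ τ : ℝ) : ℂ) := pet_self k f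
    have hintR : ∫ z in F₀, Φ z = 0 := by
      have h1 : ∫ z in F₀, petersson k f f z = (((∫ z in F₀, Φ z) : ℝ) : ℂ) := by
        have h2 : ∫ z in F₀, ((Φ z : ℝ) : ℂ) = (((∫ z in F₀, Φ z) : ℝ) : ℂ) := integral_ofReal
        rw [← h2]
        exact integral_congr_ae (Filter.Eventually.of_forall hΦ)
      rw [h1] at hint
      exact_mod_cast hint
    have hcont : Continuous Φ := by
      have hc : Continuous (fun τ => petersson k f f τ) := pet_continuous f f
      have : Φ = fun τ => (petersson k f f τ).re := by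
        funext τ
        rw [hΦ, Complex.ofReal_re]
      rw [this]
      exact Complex.continuous_re.comp hc
    have hnn : ∀ z, 0 ≤ Φ z := fun z =>
      mul_nonneg (sq_nonneg _) (zpow_nonneg z.im_pos.le k)
    have hinv : ∀ g ∈ GamR (3 * N), ∀ z, Φ (g • z) = Φ z := by
      intro g hg z
      have := pet_invariant (dvd_mul_left N 3) f f g hg z
      rw [hΦ, hΦ] at this
      exact_mod_cast this
    have hintg : IntegrableOn Φ F₀ volume := by
      have h1 : IntegrableOn (petersson k f f) F₀ volume := pet_integrableOn hF₀.fin f f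
      have h2 : IntegrableOn (fun τ => (petersson k f f τ).re) F₀ volume := h1.re
      have : Φ = fun τ => (petersson k f f τ).re := by
        funext τ
        rw [hΦ, Complex.ofReal_re]
      rw [this]
      exact h2
    have hΦ0 := hpos (GamR (3 * N)) (countable_GamR _) F₀ hF₀ Φ hcont hnn hinv hintg hintR
    ext τ
    have h0 := hΦ0 τ
    rw [hΦdef] at h0
    have him : τ.im ^ k ≠ 0 := zpow_ne_zero k τ.im_pos.ne'
    have : ‖f τ‖ ^ 2 = 0 := by
      rcases mul_eq_zero.mp h0 with h | h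
      · exact h
      · exact absurd h him
    have : ‖f τ‖ = 0 := by simpa using this
    simpa using this
  · intro ℓ hℓ hℓN f g
    have hℓ0 : 0 < ℓ := hℓ.pos
    obtain ⟨F', hF'⟩ := hfd (3 * N * ℓ) (by nlinarith)
    have h1 := hlev (3 * N) (3 * N * ℓ) (by positivity) (dvd_mul_right _ _) F₀ F' hF₀ hF'
      (petersson k (CuspForm.heckeTLin k hℓ hℓN f) g) (pet_invariant (dvd_mul_left N 3) _ _)
    have h2 := hlev (3 * N) (3 * N * ℓ) (by positivity) (dvd_mul_right _ _) F₀ F' hF₀ hF'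
      (petersson k f (CuspForm.heckeTLin k hℓ hℓN g)) (pet_invariant (dvd_mul_left N 3) _ _)
    show mean F₀ _ = mean F₀ _
    rw [← h1, ← h2]
    exact hadj N k ℓ hℓ hℓN F' hF' f g

/-- **L3a** from the work packages. -/
theorem stmt_L3a_of (hPC : Stmt_open_pos) (hfd : Stmt_exists_fd_Gamma) (hlev : Stmt_mean_level)
    (hpos : Stmt_pos) (hadj : Stmt_adj) (hred : Stmt_reduced_of_pet) : Stmt_L3a :=
  fun N _ k S hS => hred N k S hS (stmt_pet_of hPC hfd hlev hpos hadj N k)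

end Fermat.Agent.R.Pet

end
-- ==== END Fermat.Agent.R.Pet.H58_PetB

-- ==== BEGIN Fermat.Agent.R.Pet.H98_Adj
section

/-!
# Pet (cluster R, leaf L3a): package ADJ (helper98)

`stmt_adj_of : Stmt_mean_SL → Stmt_comm0 → Stmt_conj0 → Stmt_conjInf → Stmt_adj`:
the Hecke operator `T_ℓ` (`ℓ ∤ N`) is self-adjoint for the mean value of the Petersson integrand
over a fundamental domain of `Γ(3Nℓ)`.

Reusable: `countable_SL2Z`, `countable_GamR`, `Gamma_le_Gamma0_of_dvd`, `pet_smul_of_slash`,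
`pet_inv_GamR`, `slash_a0_inv`, `slash_ainf_inv`, `slash_ainf_a0`, `pet_a0_eq`, `mean_pet_a0`,
`Nice` (continuity + boundedness), `Nice.integrableOn`.
-/

set_option autoImplicit false

namespace Fermat.Agent.R.Pet.H98

open UpperHalfPlane ModularForm MatrixGroups MeasureTheory CongruenceSubgroup
open scoped Modular Pointwise ComplexConjugate

section Adj

theorem countable_SL2Z : Countable SL(2, ℤ) := by
  have h : Function.Injective (fun (γ : SL(2, ℤ)) (i : Fin 2) (j : Fin 2) =>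
      (γ : Matrix (Fin 2) (Fin 2) ℤ) i j) := by
    intro a b hab
    ext i j
    exact congrFun (congrFun hab i) j
  exact h.countable

theorem countable_GamR (M : ℕ) : Countable (GamR M) := by
  have := _root_.Fermat.Agent.R.Pet.H98.countable_SL2Z
  have h : Function.Surjective
      (fun γ : Gamma M => (⟨Matrix.SpecialLinearGroup.mapGL ℝ (γ : SL(2, ℤ)),
        Subgroup.mem_map_of_mem _ γ.2⟩ : GamR M)) := by
    rintro ⟨g, γ, hγ, rfl⟩
    exact ⟨⟨γ, hγ⟩, rfl⟩
  exact h.countable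

variable {N : ℕ} {k : ℤ} {ℓ : ℕ}

/-- (a) invariance of a cusp form of level `Γ₀(N)` under the slash action of `Γ₀(N)`. -/
lemma slash_of_mem_Gamma0 (f : CuspForm (Gamma0 N) k) {γ : SL(2, ℤ)} (hγ : γ ∈ Gamma0 N) :
    (⇑f) ∣[k] (γ : GL (Fin 2) ℝ) = ⇑f :=
  SlashInvariantFormClass.slash_action_eq f _ (Subgroup.mem_map_of_mem _ hγ)

lemma Gamma_le_Gamma0_of_dvd {M : ℕ} (h : N ∣ M) : Gamma M ≤ Gamma0 N := by
  intro γ hγ
  rw [Gamma_mem] at hγ
  rw [Gamma0_mem]
  have h1 : ((γ 1 0 : ℤ) : ZMod M) = 0 := hγ.2.2.1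
  rw [ZMod.intCast_zmod_eq_zero_iff_dvd] at h1 ⊢
  exact (Int.natCast_dvd_natCast.2 h).trans h1

/-- (b) invariance of the Petersson integrand. -/
lemma pet_smul_of_slash {u v : ℍ → ℂ} {γ : SL(2, ℤ)} (hu : u ∣[k] (γ : GL (Fin 2) ℝ) = u)
    (hv : v ∣[k] (γ : GL (Fin 2) ℝ) = v) (z : ℍ) :
    petersson k u v ((γ : GL (Fin 2) ℝ) • z) = petersson k u v z := by
  have := petersson_slash_SL k u v γ z
  rw [show u ∣[k] γ = u from hu, show v ∣[k] γ = v from hv] at this
  exact this.symm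

/-- The Petersson integrand after slashing the left argument by `γ ∈ SL(2, ℤ)` fixing the
right argument. -/
lemma pet_slash_left {u v : ℍ → ℂ} {γ : SL(2, ℤ)}
    (hv : v ∣[k] (γ : GL (Fin 2) ℝ) = v) (z : ℍ) :
    petersson k (u ∣[k] (γ : GL (Fin 2) ℝ)) v z = petersson k u v ((γ : GL (Fin 2) ℝ) • z) := by
  have := petersson_slash_SL k u v γ z
  rw [show v ∣[k] γ = v from hv] at this
  exact this

lemma pet_slash_right {u v : ℍ → ℂ} {γ : SL(2, ℤ)}
    (hu : u ∣[k] (γ : GL (Fin 2) ℝ) = u) (z : ℍ) :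
    petersson k u (v ∣[k] (γ : GL (Fin 2) ℝ)) z = petersson k u v ((γ : GL (Fin 2) ℝ) • z) := by
  have := petersson_slash_SL k u v γ z
  rw [show u ∣[k] γ = u from hu] at this
  exact this

/-- (c) `f ∣ α₀` is invariant under `Γ(Mℓ)` when `N ∣ M`. -/
lemma slash_a0_inv (hc : Stmt_conj0) (f : CuspForm (Gamma0 N) k) (hℓ : ℓ ≠ 0) {M : ℕ}
    (hM : N ∣ M) {γ : SL(2, ℤ)} (hγ : γ ∈ Gamma (M * ℓ)) :
    ((⇑f) ∣[k] heckeMatrix ℓ 0) ∣[k] (γ : GL (Fin 2) ℝ) = (⇑f) ∣[k] heckeMatrix ℓ 0 := by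
  obtain ⟨δ, hδ, h⟩ := hc M ℓ hℓ γ hγ
  rw [← SlashAction.slash_mul, h, SlashAction.slash_mul,
    slash_of_mem_Gamma0 f (_root_.Fermat.Agent.R.Pet.H98.Gamma_le_Gamma0_of_dvd hM hδ)]

lemma slash_ainf_inv (hc : Stmt_conjInf) (f : CuspForm (Gamma0 N) k) (hℓ : ℓ ≠ 0) {M : ℕ}
    (hM : N ∣ M) {γ : SL(2, ℤ)} (hγ : γ ∈ Gamma (M * ℓ)) :
    ((⇑f) ∣[k] heckeDiagMatrix ℓ) ∣[k] (γ : GL (Fin 2) ℝ) = (⇑f) ∣[k] heckeDiagMatrix ℓ := by
  obtain ⟨δ, hδ, h⟩ := hc M ℓ hℓ γ hγ
  rw [← SlashAction.slash_mul, h, SlashAction.slash_mul,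
    slash_of_mem_Gamma0 f (_root_.Fermat.Agent.R.Pet.H98.Gamma_le_Gamma0_of_dvd hM hδ)]

lemma slash_self_of_mem_Gamma (f : CuspForm (Gamma0 N) k) {M : ℕ}
    (hM : N ∣ M) {γ : SL(2, ℤ)} (hγ : γ ∈ Gamma M) :
    (⇑f) ∣[k] (γ : GL (Fin 2) ℝ) = ⇑f :=
  slash_of_mem_Gamma0 f (_root_.Fermat.Agent.R.Pet.H98.Gamma_le_Gamma0_of_dvd hM hγ)

/-- invariance of `P(u, v)` under `GamR M` from the slash invariance of `u`, `v` under `Γ(M)`. -/
lemma pet_inv_GamR {u v : ℍ → ℂ} {M : ℕ}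
    (hu : ∀ γ ∈ Gamma M, u ∣[k] (γ : GL (Fin 2) ℝ) = u)
    (hv : ∀ γ ∈ Gamma M, v ∣[k] (γ : GL (Fin 2) ℝ) = v) :
    ∀ g ∈ GamR M, ∀ z, petersson k u v (g • z) = petersson k u v z := by
  rintro g ⟨γ, hγ, rfl⟩ z
  exact pet_smul_of_slash (hu γ hγ) (hv γ hγ) z

/-- (d), left slot. -/
lemma mean_pet_slash_left (hSL : Stmt_mean_SL) {M : ℕ} {F : Set ℍ} (hF : IsFD (GamR M) F)
    {u v : ℍ → ℂ} (hu : ∀ γ ∈ Gamma M, u ∣[k] (γ : GL (Fin 2) ℝ) = u)
    (hv : ∀ γ ∈ Gamma M, v ∣[k] (γ : GL (Fin 2) ℝ) = v)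
    {γ' : SL(2, ℤ)} (hvγ : v ∣[k] (γ' : GL (Fin 2) ℝ) = v) :
    mean F (petersson k (u ∣[k] (γ' : GL (Fin 2) ℝ)) v) = mean F (petersson k u v) := by
  rw [← hSL M F hF γ' (petersson k u v) (pet_inv_GamR hu hv)]
  exact mean_congr (fun z => pet_slash_left hvγ z)

/-- (d), right slot. -/
lemma mean_pet_slash_right (hSL : Stmt_mean_SL) {M : ℕ} {F : Set ℍ} (hF : IsFD (GamR M) F)
    {u v : ℍ → ℂ} (hu : ∀ γ ∈ Gamma M, u ∣[k] (γ : GL (Fin 2) ℝ) = u)
    (hv : ∀ γ ∈ Gamma M, v ∣[k] (γ : GL (Fin 2) ℝ) = v)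
    {γ' : SL(2, ℤ)} (huγ : u ∣[k] (γ' : GL (Fin 2) ℝ) = u) :
    mean F (petersson k u (v ∣[k] (γ' : GL (Fin 2) ℝ))) = mean F (petersson k u v) := by
  rw [← hSL M F hF γ' (petersson k u v) (pet_inv_GamR hu hv)]
  exact mean_congr (fun z => pet_slash_right huγ z)

lemma heckeDiag_smul_heckeMatrix_smul (hℓ : ℓ ≠ 0) (τ : ℍ) :
    heckeDiagMatrix ℓ • heckeMatrix ℓ 0 • τ = τ := by
  have hℓ' : (ℓ : ℂ) ≠ 0 := Nat.cast_ne_zero.2 hℓ
  ext1
  rw [coe_heckeDiagMatrix_smul hℓ, coe_heckeMatrix_smul hℓ]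
  simp only [Nat.cast_zero, add_zero]
  field_simp

lemma slash_ainf_a0 (hℓ : ℓ ≠ 0) (g : ℍ → ℂ) :
    (g ∣[k] heckeDiagMatrix ℓ) ∣[k] heckeMatrix ℓ 0 = ((ℓ : ℂ) ^ (k - 2)) • g := by
  have hℓ' : (ℓ : ℂ) ≠ 0 := Nat.cast_ne_zero.2 hℓ
  funext τ
  rw [slash_heckeMatrix_apply k hℓ, slash_heckeDiagMatrix_apply k hℓ,
    heckeDiag_smul_heckeMatrix_smul hℓ, Pi.smul_apply, smul_eq_mul, ← mul_assoc]
  congr 1
  rw [show k - 1 = (k - 2) + 1 by ring, zpow_add₀ hℓ', zpow_one]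
  field_simp

/-- (e), pointwise. -/
lemma pet_a0_eq (hℓ : ℓ ≠ 0) (u v : ℍ → ℂ) (τ : ℍ) :
    petersson k (u ∣[k] heckeMatrix ℓ 0) v τ
      = petersson k u (v ∣[k] heckeDiagMatrix ℓ) (heckeMatrix ℓ 0 • τ) := by
  have hℓ' : (ℓ : ℂ) ≠ 0 := Nat.cast_ne_zero.2 hℓ
  have h1 := petersson_slash k u (v ∣[k] heckeDiagMatrix ℓ) (heckeMatrix ℓ 0) τ
  rw [slash_ainf_a0 hℓ, pet_smul_right, σ_heckeMatrix, det_heckeMatrix hℓ] at h1
  simp only [Pi.smul_apply, smul_eq_mul, ContinuousAlgEquiv.refl_apply, Nat.abs_cast,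
    Complex.ofReal_natCast] at h1
  exact mul_left_cancel₀ (zpow_ne_zero _ hℓ') h1

/-- (e): the mean values of `P(f ∣ α₀, g)` and `P(f, g ∣ α∞)` agree. -/
lemma mean_pet_a0 (hcomm : Stmt_comm0) (hc0 : Stmt_conj0) (hcinf : Stmt_conjInf)
    (hℓ : ℓ ≠ 0) {M : ℕ} (hM0 : M ≠ 0) (hM : N ∣ M) {F : Set ℍ} (hF : IsFD (GamR (M * ℓ)) F)
    (f g : CuspForm (Gamma0 N) k) :
    mean F (petersson k ((⇑f) ∣[k] heckeMatrix ℓ 0) ⇑g)
      = mean F (petersson k ⇑f ((⇑g) ∣[k] heckeDiagMatrix ℓ)) := by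
  have := _root_.Fermat.Agent.R.Pet.H98.countable_GamR (M * ℓ)
  have h1 : mean F (petersson k ((⇑f) ∣[k] heckeMatrix ℓ 0) ⇑g)
      = mean F (fun z => petersson k ⇑f ((⇑g) ∣[k] heckeDiagMatrix ℓ) (heckeMatrix ℓ 0 • z)) :=
    mean_congr (fun z => pet_a0_eq hℓ _ _ z)
  rw [h1]
  refine mean_conj hF (heckeMatrix ℓ 0) (hcomm (M * ℓ) ℓ (mul_ne_zero hM0 hℓ) hℓ) _ ?_ ?_
  · exact pet_inv_GamR (fun γ hγ => slash_self_of_mem_Gamma f (hM.mul_right ℓ) hγ)
      (fun γ hγ => slash_ainf_inv hcinf g hℓ hM hγ)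
  · rintro g' ⟨γ, hγ, rfl⟩ z
    rw [mul_smul, mul_smul, ← pet_a0_eq hℓ]
    refine (pet_smul_of_slash (slash_a0_inv hc0 f hℓ hM hγ)
        (slash_self_of_mem_Gamma g (hM.mul_right ℓ) hγ) _).trans ?_
    rw [pet_a0_eq hℓ, smul_inv_smul]

/-- Continuity and boundedness, the two properties needed for integrability. -/
def Nice (k : ℤ) (u : ℍ → ℂ) : Prop := Continuous u ∧ PetBdd k u

lemma Nice.of_cuspForm (f : CuspForm (Gamma0 N) k) [NeZero N] : Nice k ⇑f :=
  ⟨(CuspFormClass.holo f).continuous, PetBdd.of_cuspForm f⟩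

lemma Nice.slash_heckeMatrix {u : ℍ → ℂ} (hu : Nice k u) (hℓ : ℓ ≠ 0) (j : ℕ) :
    Nice k (u ∣[k] heckeMatrix ℓ j) := by
  refine ⟨?_, hu.2.slash _⟩
  have : u ∣[k] heckeMatrix ℓ j = fun τ => (ℓ : ℂ)⁻¹ * u (heckeMatrix ℓ j • τ) :=
    funext fun τ => slash_heckeMatrix_apply k hℓ j u τ
  rw [this]
  exact continuous_const.mul (hu.1.comp (continuous_const_smul _))

lemma Nice.slash_heckeDiagMatrix {u : ℍ → ℂ} (hu : Nice k u) (hℓ : ℓ ≠ 0) :
    Nice k (u ∣[k] heckeDiagMatrix ℓ) := by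
  refine ⟨?_, hu.2.slash _⟩
  have : u ∣[k] heckeDiagMatrix ℓ = fun τ => (ℓ : ℂ) ^ (k - 1) * u (heckeDiagMatrix ℓ • τ) :=
    funext fun τ => slash_heckeDiagMatrix_apply k hℓ u τ
  rw [this]
  exact continuous_const.mul (hu.1.comp (continuous_const_smul _))

lemma Nice.integrableOn {u v : ℍ → ℂ} (hu : Nice k u) (hv : Nice k v) {F : Set ℍ}
    (hF : volume F < ⊤) : IntegrableOn (petersson k u v) F volume :=
  integrableOn_of_bdd_cont hF (petersson_continuous k hu.1 hv.1) (hu.2.pair hv.2)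

lemma T_pow_mem_Gamma0 (N j : ℕ) : (ModularGroup.T ^ j : SL(2, ℤ)) ∈ Gamma0 N := by
  rw [Gamma0_mem]
  have h := ModularGroup.coe_T_zpow (j : ℤ)
  rw [zpow_natCast] at h
  rw [h]
  simp

/-- **ADJ**: `T_ℓ` is self-adjoint for the mean values of the Petersson integrand. -/
theorem stmt_adj_of (hSL : Stmt_mean_SL) (hcomm : Stmt_comm0) (hc0 : Stmt_conj0)
    (hcinf : Stmt_conjInf) : Stmt_adj := by
  intro N _ k ℓ hℓ hℓN F hF f g
  have hℓ0 : ℓ ≠ 0 := hℓ.ne_zero
  have hM0 : 3 * N ≠ 0 := mul_ne_zero (by norm_num) (NeZero.ne N)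
  have hM : N ∣ 3 * N := Dvd.intro_left 3 rfl
  have hMℓ : N ∣ 3 * N * ℓ := hM.mul_right ℓ
  have hf : ∀ γ ∈ Gamma (3 * N * ℓ), (⇑f) ∣[k] (γ : GL (Fin 2) ℝ) = ⇑f :=
    fun γ hγ => slash_self_of_mem_Gamma f hMℓ hγ
  have hg : ∀ γ ∈ Gamma (3 * N * ℓ), (⇑g) ∣[k] (γ : GL (Fin 2) ℝ) = ⇑g :=
    fun γ hγ => slash_self_of_mem_Gamma g hMℓ hγ
  have hfa : ∀ γ ∈ Gamma (3 * N * ℓ), ((⇑f) ∣[k] heckeMatrix ℓ 0) ∣[k] (γ : GL (Fin 2) ℝ)
      = (⇑f) ∣[k] heckeMatrix ℓ 0 := fun γ hγ => slash_a0_inv hc0 f hℓ0 hM hγ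
  have hga : ∀ γ ∈ Gamma (3 * N * ℓ), ((⇑g) ∣[k] heckeMatrix ℓ 0) ∣[k] (γ : GL (Fin 2) ℝ)
      = (⇑g) ∣[k] heckeMatrix ℓ 0 := fun γ hγ => slash_a0_inv hc0 g hℓ0 hM hγ
  -- (d)
  have hL : ∀ j, mean F (petersson k ((⇑f) ∣[k] heckeMatrix ℓ j) ⇑g)
      = mean F (petersson k ((⇑f) ∣[k] heckeMatrix ℓ 0) ⇑g) := by
    intro j
    rw [H22.stmt_heckeMatrix_eq ℓ j hℓ0, SlashAction.slash_mul]
    exact mean_pet_slash_left hSL hF hfa hg (slash_of_mem_Gamma0 g (T_pow_mem_Gamma0 N j))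
  have hR : ∀ j, mean F (petersson k ⇑f ((⇑g) ∣[k] heckeMatrix ℓ j))
      = mean F (petersson k ⇑f ((⇑g) ∣[k] heckeMatrix ℓ 0)) := by
    intro j
    rw [H22.stmt_heckeMatrix_eq ℓ j hℓ0, SlashAction.slash_mul]
    exact mean_pet_slash_right hSL hF hf hga (slash_of_mem_Gamma0 f (T_pow_mem_Gamma0 N j))
  obtain ⟨γ, hγ, γ', hγ', hdc⟩ := H22.stmt_double_coset N ℓ hℓ hℓN
  have hLinf : mean F (petersson k ((⇑f) ∣[k] heckeDiagMatrix ℓ) ⇑g)
      = mean F (petersson k ((⇑f) ∣[k] heckeMatrix ℓ 0) ⇑g) := by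
    rw [hdc, SlashAction.slash_mul, SlashAction.slash_mul, slash_of_mem_Gamma0 f hγ]
    exact mean_pet_slash_left hSL hF hfa hg (slash_of_mem_Gamma0 g hγ')
  have hRinf : mean F (petersson k ⇑f ((⇑g) ∣[k] heckeDiagMatrix ℓ))
      = mean F (petersson k ⇑f ((⇑g) ∣[k] heckeMatrix ℓ 0)) := by
    rw [hdc, SlashAction.slash_mul, SlashAction.slash_mul, slash_of_mem_Gamma0 g hγ]
    exact mean_pet_slash_right hSL hF hf hga (slash_of_mem_Gamma0 f hγ')
  -- (e)
  have hE := mean_pet_a0 hcomm hc0 hcinf hℓ0 hM0 hM hF f g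
  -- integrability
  have nf : Nice k ⇑f := Nice.of_cuspForm f
  have ng : Nice k ⇑g := Nice.of_cuspForm g
  -- (f)
  rw [CuspForm.coe_heckeTLin_apply, CuspForm.coe_heckeTLin_apply, heckeT_def, heckeT_def,
    pet_add_left, pet_add_right, pet_sum_left, pet_sum_right]
  rw [mean_add, mean_add, mean_sum, mean_sum]
  · simp only [hL, hR, hLinf, hRinf, hE]
  · exact fun j _ => nf.integrableOn (ng.slash_heckeMatrix hℓ0 j) hF.fin
  · exact fun j _ => (nf.slash_heckeMatrix hℓ0 j).integrableOn ng hF.fin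
  · exact integrable_finsetSum' _ fun j _ => nf.integrableOn (ng.slash_heckeMatrix hℓ0 j) hF.fin
  · exact nf.integrableOn (ng.slash_heckeDiagMatrix hℓ0) hF.fin
  · exact integrable_finsetSum' _ fun j _ => (nf.slash_heckeMatrix hℓ0 j).integrableOn ng hF.fin
  · exact (nf.slash_heckeDiagMatrix hℓ0).integrableOn ng hF.fin

end Adj
end Fermat.Agent.R.Pet.H98

end
-- ==== END Fermat.Agent.R.Pet.H98_Adj

-- ==== BEGIN Fermat.Agent.RED.ES.H95_KronGauss
section

/-!
# G-RED, package ES-3 (helper95), part 1: Kronecker's congruence on the Gauss ring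

`C` a field, `O` a valuation subring of `C` with residue field `k` of characteristic `ℓ`, `C`
containing a primitive `ℓ`-th root of unity.  For a series `x ∈ C((q))` in the Gauss ring of `O`
(a quotient `h / g` of series with coefficients in `O`, `g` primitive) the formal Hecke norm
`normSeries x = x (q ^ ℓ) · ∏_{ζ ^ ℓ = 1} x (ζ q ^ (1 / ℓ))` (helper44) is again in the Gauss ring,
and it reduces to `frobNorm x~ = x~ (q ^ ℓ) · φ (x~)`, `φ` the Frobenius on the coefficients.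

* `exists_normSeries_iotaV` : the integral case, from `H10.kronecker_norm`;
* `normSeries_mem_gaussRingV`, `gaussRedV_normSeries` : the general case, by multiplicativity.
-/

set_option autoImplicit false

noncomputable section

namespace Fermat.Agent.RED.H95

open ModularCurve Fermat.Agent.S28 Fermat.Agent.S28.H73 Fermat.Agent.GTor

section KronGauss

variable {C : Type} [Field C] (O : ValuationSubring C) (ℓ : ℕ) [Fact ℓ.Prime]

/-- A root of unity lies in every valuation subring. -/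
theorem mem_of_pow_eq_one' {z : C} (hz : z ^ ℓ = 1) : z ∈ O := by
  have hℓ : ℓ ≠ 0 := (Fact.out : ℓ.Prime).ne_zero
  rcases O.mem_or_inv_mem z with h | h
  · exact h
  · have hz0 : z ≠ 0 := by
      rintro rfl
      rw [zero_pow hℓ] at hz
      exact zero_ne_one hz
    have h1 : z * z ^ (ℓ - 1) = 1 := by
      rw [← pow_succ', Nat.sub_add_cancel (Nat.pos_of_ne_zero hℓ), hz]
    have h2 : z = z⁻¹ ^ (ℓ - 1) := by
      rw [inv_pow]
      exact eq_inv_of_mul_eq_one_left h1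
    rw [h2]
    exact pow_mem h _

variable [CharP (kV O) ℓ]

/-- `frobNorm s = s (q ^ ℓ) · φ (s)`, `φ` the Frobenius on the coefficients. -/
def frobNorm (s : LaurentSeries (kV O)) : LaurentSeries (kV O) :=
  qExpand (kV O) ℓ s * coeffMap (frobenius (kV O) ℓ) s

theorem frobNorm_mul (s t : LaurentSeries (kV O)) :
    frobNorm O ℓ (s * t) = frobNorm O ℓ s * frobNorm O ℓ t := by
  unfold frobNorm
  rw [map_mul, map_mul]
  ring

theorem coeffMap_frobenius_injective :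
    Function.Injective (coeffMap (frobenius (kV O) ℓ) : LaurentSeries (kV O) → _) := by
  intro s t hst
  ext n
  have := congrArg (fun x : LaurentSeries (kV O) => x.coeff n) hst
  simp only [coeffMap_coeff] at this
  exact frobenius_inj (kV O) ℓ this

theorem frobNorm_ne_zero {s : LaurentSeries (kV O)} (hs : s ≠ 0) : frobNorm O ℓ s ≠ 0 := by
  unfold frobNorm
  refine mul_ne_zero ?_ ?_
  · intro h0
    exact hs (H44.qExpand_injective (ℓ := ℓ) (by rw [h0, map_zero]))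
  · intro h0
    exact hs (coeffMap_frobenius_injective O ℓ (by rw [h0, map_zero]))

theorem rot_eq_twistBy {K : Type*} [Field K] (u : Kˣ) (s : LaurentSeries K) :
    H10.rot u s = H44.twistBy u s := by
  ext n
  rw [H10.rot_coeff, H44.twistBy_coeff]

/-- **Kronecker's congruence** for the formal Hecke norm of an integral series. -/
theorem exists_normSeries_iotaV {ζ₀ : Cˣ} (hζ : IsPrimitiveRoot ζ₀ ℓ) (y : LaurentSeries ↥O) :
    ∃ z : LaurentSeries ↥O, iotaV O z = H44.normSeries C ℓ (iotaV O y) ∧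
      redV O z = frobNorm O ℓ (redV O y) := by
  have h1 : (ζ₀ : C) ^ ℓ = 1 := by
    rw [← Units.val_pow_eq_pow_val, hζ.pow_eq_one, Units.val_one]
  have h1' : ((ζ₀⁻¹ : Cˣ) : C) ^ ℓ = 1 := by
    rw [← Units.val_pow_eq_pow_val, inv_pow, hζ.pow_eq_one, inv_one, Units.val_one]
  have hmem : (ζ₀ : C) ∈ O := mem_of_pow_eq_one' O ℓ h1
  have hmem' : ((ζ₀⁻¹ : Cˣ) : C) ∈ O := mem_of_pow_eq_one' O ℓ h1'
  let ζ : (↥O)ˣ := ⟨⟨ζ₀, hmem⟩, ⟨(ζ₀⁻¹ : Cˣ), hmem'⟩,
    Subtype.ext (by show (ζ₀ : C) * ((ζ₀⁻¹ : Cˣ) : C) = 1; rw [← Units.val_mul, mul_inv_cancel,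
      Units.val_one]),
    Subtype.ext (by show ((ζ₀⁻¹ : Cˣ) : C) * (ζ₀ : C) = 1; rw [← Units.val_mul, inv_mul_cancel,
      Units.val_one])⟩
  have hζ' : ζ ^ ℓ = 1 := by
    apply Units.ext
    apply Subtype.ext
    show ((((ζ ^ ℓ : (↥O)ˣ) : ↥O) : C)) = 1
    rw [Units.val_pow_eq_pow_val]
    exact h1
  have hmap : Units.map ((O.subtype : ↥O →+* C) : ↥O →* C) ζ = ζ₀ := Units.ext rfl
  obtain ⟨z, hz1, hz2⟩ := H10.kronecker_norm ℓ (O.subtype : ↥O →+* C) Subtype.val_injective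
    (resV O) ζ hζ' (-y) 0 (H44.normSeries C ℓ (iotaV O y)) (by
      rw [H44.qExpand_normSeries hζ, H44.twistProd_eq_prod_range hζ, map_zero, map_zero,
        zero_sub, map_neg, map_neg, map_neg, neg_neg]
      congr 1
      refine Finset.prod_congr rfl fun b _ => ?_
      rw [zero_sub, map_neg, neg_neg, hmap, rot_eq_twistBy]
      rfl)
  refine ⟨z, hz1, ?_⟩
  show coeffMap (resV O) z = _
  rw [hz2, map_zero, map_zero, zero_pow (Fact.out : ℓ.Prime).ne_zero, map_zero, zero_sub,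
    zero_sub, map_neg, map_neg, map_neg, neg_neg, neg_neg]
  rfl

/-- The formal Hecke norm preserves the Gauss ring. -/
theorem normSeries_mem_gaussRingV {ζ₀ : Cˣ} (hζ : IsPrimitiveRoot ζ₀ ℓ) {x : LaurentSeries C}
    (hx : x ∈ gaussRingV O) : H44.normSeries C ℓ x ∈ gaussRingV O := by
  obtain ⟨g, h, hg, hgx⟩ := hx
  obtain ⟨zg, hzg1, hzg2⟩ := exists_normSeries_iotaV O ℓ hζ g
  obtain ⟨zh, hzh1, hzh2⟩ := exists_normSeries_iotaV O ℓ hζ h
  refine ⟨zg, zh, ?_, ?_⟩
  · rw [hzg2]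
    exact frobNorm_ne_zero O ℓ hg
  · rw [hzg1, hzh1, ← H44.normSeries_mul hζ, hgx]

/-- **Kronecker's congruence on the Gauss ring**: the reduction of the formal Hecke norm. -/
theorem gaussRedV_normSeries {ζ₀ : Cˣ} (hζ : IsPrimitiveRoot ζ₀ ℓ) {x : LaurentSeries C}
    (hx : x ∈ gaussRingV O) (hx' : H44.normSeries C ℓ x ∈ gaussRingV O) :
    gaussRedV O ⟨H44.normSeries C ℓ x, hx'⟩ = frobNorm O ℓ (gaussRedV O ⟨x, hx⟩) := by
  have hx0 := hx
  obtain ⟨g, h, hg, hgx⟩ := hx0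
  obtain ⟨zg, hzg1, hzg2⟩ := exists_normSeries_iotaV O ℓ hζ g
  obtain ⟨zh, hzh1, hzh2⟩ := exists_normSeries_iotaV O ℓ hζ h
  have hzg0 : redV O zg ≠ 0 := by
    rw [hzg2]
    exact frobNorm_ne_zero O ℓ hg
  have e1 : iotaV O zg * H44.normSeries C ℓ x = iotaV O zh := by
    rw [hzg1, hzh1, ← H44.normSeries_mul hζ, hgx]
  have e2 := gaussRedV_eq O ⟨H44.normSeries C ℓ x, hx'⟩ hzg0 e1
  have e3 := gaussRedV_eq O ⟨x, hx⟩ hg hgx
  rw [e2, e3, hzg2, hzh2]
  have e4 : redV O h = redV O h / redV O g * redV O g := by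
    rw [div_mul_cancel₀ _ hg]
  conv_lhs => rw [e4, frobNorm_mul]
  rw [mul_div_assoc, div_self (frobNorm_ne_zero O ℓ hg), mul_one]

end KronGauss

end Fermat.Agent.RED.H95

end
end
-- ==== END Fermat.Agent.RED.ES.H95_KronGauss

-- ==== BEGIN Fermat.Agent.RED.H17_Lift
section

/-!
# G-RED / TI route C (helper17), part 4: lifting functions with control of the poles

`S : RedSetup K F k F'`.

* `RedSetup.r_surjective`: every place of the reduced field lifts.
* `RedSetup.Rsub D`: the reduction of `L(D) ∩ V`; `Rsub_le`: it lies in `L(r_* D)`;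
  `le_finrank_Rsub`: its dimension is at least `l(D)` (pivots at places);
* `RedSetup.exists_lift`: if `l(r_* D) ≤ l(D)`, every element of `L(r_* D)` lifts to `L(D) ∩ V`;
* `RedSetup.exists_good_lift`: (genus does not drop) every function of the reduced field lifts to
  a function regular on the fibres of the places of a given finite set where it is regular.
-/

set_option autoImplicit false
set_option linter.style.haveILetI false

noncomputable section

open AlgebraicCurve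

attribute [local instance] Classical.propDecidable

namespace Fermat.Agent.RED.H17

local notation "L" => riemannRochSpace

theorem mapDomain_nonneg' {α β : Type*} (r : α → β) {D : α →₀ ℤ} (hD : ∀ a, 0 ≤ D a) (b : β) :
    0 ≤ Finsupp.mapDomain r D b := by
  rw [mapDomain_apply_eq_sum]
  refine Finset.sum_nonneg fun P _ => ?_
  split_ifs
  · exact hD P
  · exact le_rfl

theorem degree_mapDomain {K F k F' : Type*} [Field K] [Field F] [Algebra K F] [Field k]
    [Field F'] [Algebra k F'] (hdeg : ∀ v : Place K F, v.deg = 1)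
    (hdeg' : ∀ v : Place k F', v.deg = 1) (r : Place K F → Place k F') (D : Divisor K F) :
    Divisor.degree (Finsupp.mapDomain r D) = Divisor.degree D := by
  rw [degree_eq_sum hdeg', degree_eq_sum hdeg,
    Finsupp.sum_mapDomain_index (fun _ => rfl) (fun _ _ _ => rfl)]

namespace RedSetup

variable {K F k F' : Type*} [Field K] [Field F] [Algebra K F] [Field k] [Field F']
  [Algebra k F'] (S : RedSetup K F k F')

theorem exists_rd_eq (y : F') : ∃ u : F, u ∈ S.V ∧ S.rd u = y := by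
  obtain ⟨u, hu⟩ := S.red_surj y
  exact ⟨u, u.2, by rw [S.rd_of_mem u.2]; exact hu⟩

/-- Every place of the reduced field lifts. -/
theorem r_surjective (hP : HasPrincipalDivisors K F) (Q : Place k F') : ∃ P, S.r P = Q := by
  obtain ⟨t, ht0, ht⟩ := H51.exists_uniformizer Q
  obtain ⟨u, hu, hut⟩ := S.exists_rd_eq t
  have hGU : S.IsGU u := ⟨hu, by rw [hut]; exact ht0⟩
  obtain ⟨P, hPQ, -⟩ := S.exists_zero_of_ord_rd_pos hP hGU Q (by rw [hut, ht]; exact one_pos)
  exact ⟨P, hPQ⟩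

/-- The reduction of `L(D) ∩ V`. -/
def Rsub (D : Divisor K F) : Submodule k F' where
  carrier := {y | ∃ u : F, u ∈ S.V ∧ u ∈ L D ∧ S.rd u = y}
  zero_mem' := ⟨0, S.V.zero_mem, (L D).zero_mem, S.rd_zero⟩
  add_mem' := by
    rintro _ _ ⟨u, hu, huD, rfl⟩ ⟨u', hu', hu'D, rfl⟩
    exact ⟨u + u', S.V.add_mem _ _ hu hu', (L D).add_mem huD hu'D, S.rd_add hu hu'⟩
  smul_mem' := by
    rintro c' _ ⟨u, hu, huD, rfl⟩
    obtain ⟨c, hc, hcr⟩ := S.exists_const_lift c'
    refine ⟨algebraMap K F c * u, S.V.mul_mem _ _ hc hu, ?_, ?_⟩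
    · rw [← Algebra.smul_def]
      exact (L D).smul_mem c huD
    · rw [S.rd_mul hc hu, hcr, Algebra.smul_def]

theorem mem_Rsub {D : Divisor K F} {y : F'} :
    y ∈ S.Rsub D ↔ ∃ u : F, u ∈ S.V ∧ u ∈ L D ∧ S.rd u = y := Iff.rfl

theorem Rsub_mono {D D' : Divisor K F} (h : ∀ v, D v ≤ D' v) : S.Rsub D ≤ S.Rsub D' := by
  rintro _ ⟨u, hu, huD, rfl⟩
  exact ⟨u, hu, L_mono' h huD, rfl⟩

/-- The divisor identity for a Gauss unit, in terms of `dv`. -/
theorem mapDomain_dv (hP : HasPrincipalDivisors K F) {u : F} (hu : S.IsGU u) (Q : Place k F') :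
    Finsupp.mapDomain S.r (dv hP u) Q = Q.ord (S.rd u) := by
  have h := S.DI ⟨u, hu.1⟩ (by rw [← S.rd_of_mem hu.1]; exact hu.2) (dv hP u)
    (fun P => dv_apply hP u P) Q
  rw [← S.rd_of_mem hu.1] at h
  exact h

/-- The reduction of `L(D) ∩ V` lies in `L(r_* D)`. -/
theorem Rsub_le (hP : HasPrincipalDivisors K F) (D : Divisor K F) :
    S.Rsub D ≤ L (Finsupp.mapDomain S.r D) := by
  rintro _ ⟨u, hu, huD, rfl⟩
  by_cases h0 : S.rd u = 0
  · rw [h0]
    exact Submodule.zero_mem _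
  have hGU : S.IsGU u := ⟨hu, h0⟩
  rw [mem_L_iff_ord]
  intro Q
  right
  have h1 := S.mapDomain_dv hP hGU Q
  have h2 := mapDomain_nonneg' S.r (D := dv hP u + D) (fun P => by
    rw [Finsupp.add_apply, dv_apply]
    have := ord_ge_of_mem_L huD hGU.ne_zero P
    omega) Q
  rw [Finsupp.mapDomain_add, Finsupp.add_apply, h1] at h2
  omega

/-- **Pivots at places**: the reduction of `L(D) ∩ V` has dimension at least `l(D)`. -/
theorem le_finrank_Rsub (H : FFHyp K F) (H' : FFHyp k F') [Infinite k] :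
    ∀ (n : ℕ) (D : Divisor K F), Module.finrank K (L D) = n →
      n ≤ Module.finrank k (S.Rsub D) := by
  intro n
  induction n with
  | zero => intro D _; exact Nat.zero_le _
  | succ n ih =>
    intro D hD
    have hP := H.principal
    haveI := H.finite D
    have hne : L D ≠ ⊥ := by
      intro hbot
      rw [hbot, finrank_bot] at hD
      omega
    obtain ⟨u₀, hu₀, hu₀0⟩ := (Submodule.ne_bot_iff _).mp hne
    obtain ⟨c, hc, hGU⟩ := S.exists_isGU_scale hu₀0
    set u := algebraMap K F c * u₀ with hu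
    have huD : u ∈ L D := by
      rw [hu, ← Algebra.smul_def]
      exact (L D).smul_mem c hu₀
    -- a place `Q` outside the image of the support of `D` where `rd u` is a unit
    obtain ⟨Q, hQ⟩ := H'.exists_notMem
      (D.support.image S.r ∪ (dv H'.principal (S.rd u)).support)
    rw [Finset.mem_union, not_or] at hQ
    have hQ1 : ∀ P, S.r P = Q → D P = 0 := by
      intro P hPQ
      by_contra hne
      apply hQ.1
      rw [Finset.mem_image]
      exact ⟨P, Finsupp.mem_support_iff.mpr hne, hPQ⟩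
    have hQ2 : Q.ord (S.rd u) = 0 := by
      have := hQ.2
      rw [Finsupp.notMem_support_iff, dv_apply] at this
      exact this
    obtain ⟨P, hPQ⟩ := S.r_surjective hP Q
    have hreg : ∀ P', S.r P' = Q → 0 ≤ P'.ord u := by
      intro P' hP'Q
      have := ord_ge_of_mem_L huD hGU.ne_zero P'
      rw [hQ1 P' hP'Q] at this
      omega
    have hPu : P.ord u = 0 := S.ord_eq_zero_of_ord_rd_eq_zero hP hGU Q hreg hQ2 hPQ
    -- the smaller divisor
    set D' : Divisor K F := D - Finsupp.single P 1 with hD'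
    have hD'D : D' + Finsupp.single P 1 = D := sub_add_cancel _ _
    have hD'P : D' P = -1 := by
      rw [hD', Finsupp.sub_apply, Finsupp.single_eq_same, hQ1 P hPQ]
      rfl
    have hD'le : ∀ v, D' v ≤ D v := by
      intro v
      rw [hD', Finsupp.sub_apply, Finsupp.single_apply]
      split_ifs <;> omega
    have hle : L D' ≤ L D := L_mono' hD'le
    have hnot : u ∉ L D' := by
      intro hmem
      have := ord_ge_of_mem_L hmem hGU.ne_zero P
      rw [hD'P, hPu] at this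
      omega
    have hlt : L D' < L D := lt_of_le_of_ne hle (fun heq => hnot (heq ▸ huD))
    have h1 := Submodule.finrank_lt_finrank_of_lt hlt
    have h2 := H.finrank_add_single_le D' P
    rw [hD'D] at h2
    have hn : Module.finrank K (L D') = n := by omega
    have h3 := ih D' hn
    -- the reductions
    have hRle : S.Rsub D' ≤ S.Rsub D := S.Rsub_mono hD'le
    have hRnot : S.rd u ∉ S.Rsub D' := by
      rintro ⟨w, hw, hwD', hwu⟩
      have hwGU : S.IsGU w := ⟨hw, by rw [hwu]; exact hGU.2⟩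
      have hwreg : ∀ P', S.r P' = Q → 0 ≤ P'.ord w := by
        intro P' hP'Q
        have h5 := ord_ge_of_mem_L hwD' hwGU.ne_zero P'
        have h6 : D' P' ≤ 0 := by
          have := hD'le P'
          rw [hQ1 P' hP'Q] at this
          exact this
        omega
      have h7 := S.ord_le_ord_rd hP hwGU Q hwreg hPQ
      have h8 := ord_ge_of_mem_L hwD' hwGU.ne_zero P
      rw [hD'P] at h8
      rw [hwu, hQ2] at h7
      omega
    have hRlt : S.Rsub D' < S.Rsub D :=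
      lt_of_le_of_ne hRle (fun heq => hRnot (heq ▸ ⟨u, hGU.1, huD, rfl⟩))
    haveI : Module.Finite k (L (Finsupp.mapDomain S.r D)) := H'.finite _
    haveI : Module.Finite k (S.Rsub D) :=
      Submodule.finiteDimensional_of_le (S.Rsub_le hP D)
    have h4 := Submodule.finrank_lt_finrank_of_lt hRlt
    omega

/-- If `l(r_* D) ≤ l(D)`, every element of `L(r_* D)` lifts to `L(D) ∩ V`. -/
theorem exists_lift (H : FFHyp K F) (H' : FFHyp k F') [Infinite k] {D : Divisor K F}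
    (hle : Module.finrank k (L (Finsupp.mapDomain S.r D)) ≤ Module.finrank K (L D))
    {y : F'} (hy : y ∈ L (Finsupp.mapDomain S.r D)) :
    ∃ u : F, u ∈ S.V ∧ u ∈ L D ∧ S.rd u = y := by
  haveI : Module.Finite k (L (Finsupp.mapDomain S.r D)) := H'.finite _
  have heq : S.Rsub D = L (Finsupp.mapDomain S.r D) :=
    Submodule.eq_of_le_of_finrank_le (S.Rsub_le H.principal D)
      (hle.trans (S.le_finrank_Rsub H H' _ D rfl))
  rw [← heq] at hy
  exact hy

/-- "The genus does not drop". -/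
def GenusLE' : Prop :=
  ∃ c : ℤ, ∀ D : Divisor K F, c ≤ Divisor.degree D →
    Module.finrank k (L (Finsupp.mapDomain S.r D)) ≤ Module.finrank K (L D)

/-- **Lifting with control of the poles.** -/
theorem exists_good_lift (H : FFHyp K F) (H' : FFHyp k F') [Infinite k] (hG : S.GenusLE')
    (y : F') (T : Finset (Place k F')) (hT : ∀ Q ∈ T, 0 ≤ Q.ord y) :
    ∃ u : F, u ∈ S.V ∧ S.rd u = y ∧ ∀ P, S.r P ∈ T → 0 ≤ P.ord u := by
  obtain ⟨c, hc⟩ := hG
  have hP := H.principal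
  -- a section of `r`
  have hsur := S.r_surjective hP
  choose σ hσ using hsur
  have hσinj : Function.Injective σ := fun a b hab => by
    rw [← hσ a, ← hσ b, hab]
  -- the divisor of poles
  set D₀ : Divisor k F' :=
    (dv H'.principal y).mapRange (fun n : ℤ => max (-n) 0) (by simp) with hD₀
  have hD₀a : ∀ Q, D₀ Q = max (-Q.ord y) 0 := by
    intro Q
    rw [hD₀, Finsupp.mapRange_apply, dv_apply]
  obtain ⟨Z₀, hZ₀⟩ := H'.exists_notMem T
  set N : ℕ := (c - Divisor.degree D₀).toNat with hN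
  set Db : Divisor k F' := D₀ + Finsupp.single Z₀ (N : ℤ) with hDb
  set D : Divisor K F := Finsupp.mapDomain σ Db with hD
  have hrD : Finsupp.mapDomain S.r D = Db := by
    rw [hD, ← Finsupp.mapDomain_comp]
    have : S.r ∘ σ = id := funext hσ
    rw [this, Finsupp.mapDomain_id]
  have hdegD : c ≤ Divisor.degree D := by
    rw [← degree_mapDomain H.deg_one H'.deg_one S.r D, hrD, hDb, map_add,
      Divisor.degree_single, H'.deg_one, Nat.cast_one, mul_one]
    omega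
  have hy : y ∈ L (Finsupp.mapDomain S.r D) := by
    rw [hrD, mem_L_iff_ord]
    intro Q
    right
    rw [hDb, Finsupp.add_apply, hD₀a, Finsupp.single_apply]
    have : (0 : ℤ) ≤ N := Int.natCast_nonneg N
    split_ifs <;> omega
  obtain ⟨u, hu, huD, huy⟩ := S.exists_lift H H' (hc D hdegD) hy
  refine ⟨u, hu, huy, fun P hPT => ?_⟩
  by_cases hu0 : u = 0
  · rw [hu0, Place.ord_zero]
  have h1 := ord_ge_of_mem_L huD hu0 P
  have h2 : D P = 0 := by
    by_cases hPr : P ∈ Set.range σ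
    · obtain ⟨Q, rfl⟩ := hPr
      rw [hD, Finsupp.mapDomain_apply hσinj, hDb, Finsupp.add_apply, hD₀a,
        Finsupp.single_apply]
      rw [hσ Q] at hPT
      have h3 := hT Q hPT
      have h4 : Z₀ ≠ Q := fun h => hZ₀ (h ▸ hPT)
      rw [if_neg h4]
      omega
    · rw [hD]
      exact Finsupp.mapDomain_of_notMem_range _ _ hPr
  omega

end RedSetup

end Fermat.Agent.RED.H17

end
end
-- ==== END Fermat.Agent.RED.H17_Lift

-- ==== BEGIN Fermat.Agent.RED.H29_Mod3Forms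
section

/-!
# G-RED, package IG-MOD23, `p = 3` (helper29): modular forms on `Γ₀(3)`

Forms on `Γ₀(3)`:
* `g = 3 E₂(3z) - E₂(z)` (weight 2, helper6's `eisForm 3`), `E₄`, `E₆` (restricted),
  `E₄t = 27 E₄(3z)`, `Δt = 3¹¹ Δ(3z)` (helper22's `levelRaise`);
* `A8 = 27 g³ - 36 E₄ g - 16 E₆   (= 128 η(z)¹⁸ / η(3z)⁶)`,
  `B8 = 28 E₄ g - 9 g³ + 16 E₆    (= 3456 η(z)⁶ η(3z)⁶)`,
  `C8 = 7 g³ - 20 E₄ g - 16 E₆    (= 93312 η(3z)¹⁸ / η(z)⁶)`.

Identities (each by the Sturm bound for `Γ₀(3)`, a computation with 5 coefficients):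
* `A8 * B8 = 256 (E₄³ - E₆²)`,  `A8 * C8 = B8²`,  `9 B8 * C8 = 16384 Δt`,  `2 E₄t = 15 g² - 6 E₄`.
-/

set_option autoImplicit false

open UpperHalfPlane ModularForm EisensteinSeries CongruenceSubgroup
open scoped MatrixGroups ModularForm Manifold

noncomputable section

namespace Fermat.Agent.RED.H29

open Fermat.Agent.S23.H22 Fermat.Agent.S23 PowerSeries

/-! ### Tools -/

/-- The Sturm bound for `Γ₀(3)`: a form of weight `k` whose first `k / 3 + 1` coefficients vanish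
is zero. -/
theorem sturm3 {k : ℤ} (f : ModularForm (Gamma0 3) k)
    (h : ∀ n : ℕ, n ≤ (k * 4).toNat / 12 → (qExpansion 1 f).coeff n = 0) : f = 0 := by
  have hidx : (Gamma0 3).index = 4 := by
    rw [Fermat.Agent.S20.H19.G1]
    unfold ModularCurve.dedekindPsi
    rw [Nat.Prime.divisors Nat.prime_three, Finset.sum_filter]
    have h3 : Squarefree 3 := Nat.prime_three.squarefree
    simp [h3]
  refine ModularForm.sturm_bound_Gamma0 3 f fun n hn => h n ?_
  rw [hidx] at hn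
  exact hn

/-- Truncation at order `5`. -/
theorem X_pow_five_dvd_sub (P : PowerSeries ℂ) (c0 c1 c2 c3 c4 : ℂ) (h0 : P.coeff 0 = c0)
    (h1 : P.coeff 1 = c1) (h2 : P.coeff 2 = c2) (h3 : P.coeff 3 = c3) (h4 : P.coeff 4 = c4) :
    (X : PowerSeries ℂ) ^ 5 ∣ P - (C c0 + C c1 * X + C c2 * X ^ 2 + C c3 * X ^ 3 + C c4 * X ^ 4) := by
  rw [PowerSeries.X_pow_dvd_iff]
  intro m hm
  have h0' : PowerSeries.constantCoeff P = c0 := by
    rw [← PowerSeries.coeff_zero_eq_constantCoeff_apply]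
    exact h0
  interval_cases m
  · simp [h0']
  · simp [h1, PowerSeries.coeff_X_pow]
  · simp [h2, PowerSeries.coeff_X_pow]
  · simp [h3, PowerSeries.coeff_X_pow]
  · simp [h4, PowerSeries.coeff_X_pow]

/-- The quotient map modulo `X ^ 5`. -/
abbrev pi5 : PowerSeries ℂ →+* PowerSeries ℂ ⧸ Ideal.span {(X : PowerSeries ℂ) ^ 5} :=
  Ideal.Quotient.mk _

theorem pi5_eq_of_dvd {P Q : PowerSeries ℂ} (h : (X : PowerSeries ℂ) ^ 5 ∣ P - Q) :
    pi5 P = pi5 Q := by
  rw [Ideal.Quotient.eq, Ideal.mem_span_singleton]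
  exact h

theorem coeff_eq_zero_of_pi5 {P : PowerSeries ℂ} (h : pi5 P = 0) (n : ℕ) (hn : n ≤ 4) :
    P.coeff n = 0 := by
  rw [Ideal.Quotient.eq_zero_iff_mem, Ideal.mem_span_singleton, PowerSeries.X_pow_dvd_iff] at h
  exact h n (by omega)

/-! ### The basic forms and their `q`-expansions -/

theorem G0_le_SL (N : ℕ) : G0 N ≤ 𝒮ℒ := by
  rintro _ ⟨γ, -, rfl⟩
  exact ⟨γ, rfl⟩

/-- `E₄` on `Γ₀(3)`. -/
def E4r : ModularForm (Gamma0 3) 4 := Fermat.Agent.S20.H29.restrictLevel (G0_le_SL 3) E₄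

/-- `E₆` on `Γ₀(3)`. -/
def E6r : ModularForm (Gamma0 3) 6 := Fermat.Agent.S20.H29.restrictLevel (G0_le_SL 3) E₆

/-- `g = 3 E₂(3z) - E₂(z)`. -/
def g3 : ModularForm (Gamma0 3) 2 := Fermat.Agent.S16.H6.eisForm 3

/-- `27 E₄(3z)`. -/
def E4t : ModularForm (Gamma0 3) 4 := levelRaise 3 E₄

/-- `3¹¹ Δ(3z)`. -/
def Dt : ModularForm (Gamma0 3) 12 := levelRaise 3 CuspForm.discriminant

theorem coeff_qExp_E4 (m : ℕ) : (qExpansion 1 E₄).coeff m
    = if m = 0 then 1 else 240 * ((ArithmeticFunction.sigma 3 m : ℕ) : ℂ) := by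
  rw [H96.qExpansion_E₄_eq, PowerSeries.coeff_map, H96.coeff_e4Series]
  split_ifs <;> simp

theorem coeff_qExp_E6 (m : ℕ) : (qExpansion 1 E₆).coeff m
    = if m = 0 then 1 else -504 * ((ArithmeticFunction.sigma 5 m : ℕ) : ℂ) := by
  rw [H96.qExpansion_E₆_eq, PowerSeries.coeff_map, H96.coeff_e6Series]
  split_ifs <;> simp

theorem coeff_qExp_g3 (m : ℕ) : (qExpansion 1 g3).coeff m = Fermat.Agent.S16.H6.eisCoeff 3 m := by
  have hsum : ∀ τ : ℍ, HasSum (fun m : ℕ ↦ Fermat.Agent.S16.H6.eisCoeff 3 m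
      • Function.Periodic.qParam 1 (τ : ℂ) ^ m) (g3 τ) := fun τ =>
    Fermat.Agent.S16.H6.hasSum_eisFun 3 (by norm_num) τ
  exact (ModularFormClass.qExpansion_coeff_unique (f := g3) one_pos
    (CongruenceSubgroup.one_mem_strictPeriods_Gamma0 3) hsum m).symm

theorem coeff_qExp_E4t (n : ℕ) : (qExpansion 1 E4t).coeff n
    = if 3 ∣ n then 27 * (qExpansion 1 E₄).coeff (n / 3) else 0 := by
  have h := qExpansion_levelRaise_coeff 3 (k := 4) E₄ n
  rw [show ((3 : ℕ) : ℂ) ^ ((4 : ℤ) - 1) = 27 by norm_num] at h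
  exact h

theorem coeff_qExp_Dt (n : ℕ) : (qExpansion 1 Dt).coeff n
    = if 3 ∣ n then 177147 * (qExpansion 1 CuspForm.discriminant).coeff (n / 3) else 0 := by
  have h := qExpansion_levelRaise_coeff 3 (k := 12) CuspForm.discriminant n
  rw [show ((3 : ℕ) : ℂ) ^ ((12 : ℤ) - 1) = 177147 by norm_num] at h
  exact h

/-! ### Truncations -/

theorem trunc_E4 : (X : PowerSeries ℂ) ^ 5 ∣ qExpansion 1 E₄ -
    (C 1 + C 240 * X + C 2160 * X ^ 2 + C 6720 * X ^ 3 + C 17520 * X ^ 4) := by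
  apply X_pow_five_dvd_sub <;> rw [coeff_qExp_E4]
  · simp
  · have : ArithmeticFunction.sigma 3 1 = 1 := by decide +kernel
    simp [this]
  · have : ArithmeticFunction.sigma 3 2 = 9 := by decide +kernel
    simp [this]; norm_num
  · have : ArithmeticFunction.sigma 3 3 = 28 := by decide +kernel
    simp [this]; norm_num
  · have : ArithmeticFunction.sigma 3 4 = 73 := by decide +kernel
    simp [this]; norm_num

theorem trunc_E6 : (X : PowerSeries ℂ) ^ 5 ∣ qExpansion 1 E₆ -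
    (C 1 + C (-504) * X + C (-16632) * X ^ 2 + C (-122976) * X ^ 3 + C (-532728) * X ^ 4) := by
  apply X_pow_five_dvd_sub <;> rw [coeff_qExp_E6]
  · simp
  · have : ArithmeticFunction.sigma 5 1 = 1 := by decide +kernel
    simp [this]
  · have : ArithmeticFunction.sigma 5 2 = 33 := by decide +kernel
    simp [this]; norm_num
  · have : ArithmeticFunction.sigma 5 3 = 244 := by decide +kernel
    simp [this]; norm_num
  · have : ArithmeticFunction.sigma 5 4 = 1057 := by decide +kernel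
    simp [this]; norm_num

theorem trunc_g3 : (X : PowerSeries ℂ) ^ 5 ∣ qExpansion 1 g3 -
    (C 2 + C 24 * X + C 72 * X ^ 2 + C 24 * X ^ 3 + C 168 * X ^ 4) := by
  apply X_pow_five_dvd_sub <;> rw [coeff_qExp_g3] <;>
    simp only [Fermat.Agent.S16.H6.eisCoeff, Fermat.Agent.S20.H70.E2coeff]
  · norm_num
  · have : ArithmeticFunction.sigma 1 1 = 1 := by decide +kernel
    simp [this]
  · have : ArithmeticFunction.sigma 1 2 = 3 := by decide +kernel
    simp [this]; norm_num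
  · have : ArithmeticFunction.sigma 1 3 = 4 := by decide +kernel
    have h1 : ArithmeticFunction.sigma 1 1 = 1 := by decide +kernel
    simp [this, h1]; norm_num
  · have : ArithmeticFunction.sigma 1 4 = 7 := by decide +kernel
    simp [this]; norm_num

theorem trunc_Dt : (X : PowerSeries ℂ) ^ 5 ∣ qExpansion 1 Dt -
    (C 0 + C 0 * X + C 0 * X ^ 2 + C 177147 * X ^ 3 + C 0 * X ^ 4) := by
  apply X_pow_five_dvd_sub <;> rw [coeff_qExp_Dt]
  · have h0 : (qExpansion 1 CuspForm.discriminant).coeff 0 = 0 := by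
      simpa using CuspFormClass.qExpansion_coeff_zero CuspForm.discriminant one_pos
        one_mem_strictPeriods_SL
    rw [if_pos (dvd_zero 3), Nat.zero_div, h0, mul_zero]
  · norm_num
  · norm_num
  · have h1 : (qExpansion 1 CuspForm.discriminant).coeff 1 = 1 :=
      discriminant_qExpansion_coeff_one
    rw [if_pos (dvd_refl 3), Nat.div_self (by norm_num), h1, mul_one]
  · norm_num

theorem trunc_E4t : (X : PowerSeries ℂ) ^ 5 ∣ qExpansion 1 E4t -
    (C 27 + C 0 * X + C 0 * X ^ 2 + C 6480 * X ^ 3 + C 0 * X ^ 4) := by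
  apply X_pow_five_dvd_sub <;> rw [coeff_qExp_E4t, coeff_qExp_E4]
  · simp
  · norm_num
  · norm_num
  · have : ArithmeticFunction.sigma 3 1 = 1 := by decide +kernel
    simp [this]; norm_num
  · norm_num

/-! ### The forms `A8`, `B8`, `C8` -/

/-- `g³`. -/
def g3cube : ModularForm (Gamma0 3) 6 := ModularForm.mcast (by norm_num) ((g3.mul g3).mul g3)

/-- `E₄ g`. -/
def e4g : ModularForm (Gamma0 3) 6 := ModularForm.mcast (by norm_num) (E4r.mul g3)

/-- `128 η(z)¹⁸ / η(3z)⁶`. -/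
def A8 : ModularForm (Gamma0 3) 6 := (27 : ℂ) • g3cube - (36 : ℂ) • e4g - (16 : ℂ) • E6r

/-- `3456 η(z)⁶ η(3z)⁶`. -/
def B8 : ModularForm (Gamma0 3) 6 := (28 : ℂ) • e4g - (9 : ℂ) • g3cube + (16 : ℂ) • E6r

/-- `93312 η(3z)¹⁸ / η(z)⁶`. -/
def C8 : ModularForm (Gamma0 3) 6 := (7 : ℂ) • g3cube - (20 : ℂ) • e4g - (16 : ℂ) • E6r

theorem nice_g3 : Nice 1 (g3 : ℍ → ℂ) := nice_G0 3 g3
theorem nice_E4 : Nice 1 (E₄ : ℍ → ℂ) := nice_levelOne E₄
theorem nice_E6 : Nice 1 (E₆ : ℍ → ℂ) := nice_levelOne E₆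

theorem coe_A8 : (A8 : ℍ → ℂ) = (27 : ℂ) • ((g3 : ℍ → ℂ) * g3 * g3) - (36 : ℂ) • ((E₄ : ℍ → ℂ) * g3)
    - (16 : ℂ) • (E₆ : ℍ → ℂ) := by
  ext z
  simp [A8, g3cube, e4g, E4r, E6r]
  rfl

theorem coe_B8 : (B8 : ℍ → ℂ) = (28 : ℂ) • ((E₄ : ℍ → ℂ) * g3) - (9 : ℂ) • ((g3 : ℍ → ℂ) * g3 * g3)
    + (16 : ℂ) • (E₆ : ℍ → ℂ) := by
  ext z
  simp [B8, g3cube, e4g, E4r, E6r]
  rfl

theorem coe_C8 : (C8 : ℍ → ℂ) = (7 : ℂ) • ((g3 : ℍ → ℂ) * g3 * g3) - (20 : ℂ) • ((E₄ : ℍ → ℂ) * g3)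
    - (16 : ℂ) • (E₆ : ℍ → ℂ) := by
  ext z
  simp [C8, g3cube, e4g, E4r, E6r]
  rfl

/-! ### `q`-expansions -/

/-- The `q`-expansion of `g`. -/
abbrev gS : PowerSeries ℂ := qExpansion 1 (g3 : ℍ → ℂ)

/-- The `q`-expansion of `E₄`. -/
abbrev e4S : PowerSeries ℂ := qExpansion 1 (E₄ : ℍ → ℂ)

/-- The `q`-expansion of `E₆`. -/
abbrev e6S : PowerSeries ℂ := qExpansion 1 (E₆ : ℍ → ℂ)

/-- The `q`-expansion of `A8`. -/
def αS : PowerSeries ℂ := 27 * (gS * gS * gS) - 36 * (e4S * gS) - 16 * e6S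

/-- The `q`-expansion of `B8`. -/
def βS : PowerSeries ℂ := 28 * (e4S * gS) - 9 * (gS * gS * gS) + 16 * e6S

/-- The `q`-expansion of `C8`. -/
def γS : PowerSeries ℂ := 7 * (gS * gS * gS) - 20 * (e4S * gS) - 16 * e6S

theorem ofNat_smul_ps (n : ℕ) [n.AtLeastTwo] (P : PowerSeries ℂ) :
    (OfNat.ofNat n : ℂ) • P = (OfNat.ofNat n : PowerSeries ℂ) * P := by
  rw [PowerSeries.smul_eq_C_mul, map_ofNat]

theorem nice_A8 : Nice 1 (A8 : ℍ → ℂ) := nice_G0 3 A8
theorem nice_B8 : Nice 1 (B8 : ℍ → ℂ) := nice_G0 3 B8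
theorem nice_C8 : Nice 1 (C8 : ℍ → ℂ) := nice_G0 3 C8

theorem qExp_A8 : qExpansion 1 (A8 : ℍ → ℂ) = αS := by
  rw [coe_A8]
  have n1 := (nice_g3.mul nice_g3).mul nice_g3
  have n2 := nice_E4.mul nice_g3
  rw [Nice.qExpansion_sub one_pos ((n1.smul 27).sub (n2.smul 36)) (nice_E6.smul 16),
    Nice.qExpansion_sub one_pos (n1.smul 27) (n2.smul 36),
    Nice.qExpansion_smul one_pos n1, Nice.qExpansion_smul one_pos n2,
    Nice.qExpansion_smul one_pos nice_E6,
    Nice.qExpansion_mul one_pos (nice_g3.mul nice_g3) nice_g3,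
    Nice.qExpansion_mul one_pos nice_g3 nice_g3,
    Nice.qExpansion_mul one_pos nice_E4 nice_g3]
  simp only [PowerSeries.smul_eq_C_mul, map_ofNat, αS]

theorem qExp_B8 : qExpansion 1 (B8 : ℍ → ℂ) = βS := by
  rw [coe_B8]
  have n1 := (nice_g3.mul nice_g3).mul nice_g3
  have n2 := nice_E4.mul nice_g3
  rw [Nice.qExpansion_add one_pos ((n2.smul 28).sub (n1.smul 9)) (nice_E6.smul 16),
    Nice.qExpansion_sub one_pos (n2.smul 28) (n1.smul 9),
    Nice.qExpansion_smul one_pos n1, Nice.qExpansion_smul one_pos n2,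
    Nice.qExpansion_smul one_pos nice_E6,
    Nice.qExpansion_mul one_pos (nice_g3.mul nice_g3) nice_g3,
    Nice.qExpansion_mul one_pos nice_g3 nice_g3,
    Nice.qExpansion_mul one_pos nice_E4 nice_g3]
  simp only [PowerSeries.smul_eq_C_mul, map_ofNat, βS]

theorem qExp_C8 : qExpansion 1 (C8 : ℍ → ℂ) = γS := by
  rw [coe_C8]
  have n1 := (nice_g3.mul nice_g3).mul nice_g3
  have n2 := nice_E4.mul nice_g3
  rw [Nice.qExpansion_sub one_pos ((n1.smul 7).sub (n2.smul 20)) (nice_E6.smul 16),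
    Nice.qExpansion_sub one_pos (n1.smul 7) (n2.smul 20),
    Nice.qExpansion_smul one_pos n1, Nice.qExpansion_smul one_pos n2,
    Nice.qExpansion_smul one_pos nice_E6,
    Nice.qExpansion_mul one_pos (nice_g3.mul nice_g3) nice_g3,
    Nice.qExpansion_mul one_pos nice_g3 nice_g3,
    Nice.qExpansion_mul one_pos nice_E4 nice_g3]
  simp only [PowerSeries.smul_eq_C_mul, map_ofNat, γS]

/-! ### Truncations in the quotient modulo `X ^ 5` -/

theorem pi5_gS : pi5 gS = pi5 (2 + 24 * X + 72 * X ^ 2 + 24 * X ^ 3 + 168 * X ^ 4) := by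
  rw [pi5_eq_of_dvd trunc_g3]
  simp only [map_ofNat]

theorem pi5_e4S : pi5 e4S = pi5 (1 + 240 * X + 2160 * X ^ 2 + 6720 * X ^ 3 + 17520 * X ^ 4) := by
  rw [pi5_eq_of_dvd trunc_E4]
  simp only [map_ofNat, map_one]

theorem pi5_e6S : pi5 e6S
    = pi5 (1 - 504 * X - 16632 * X ^ 2 - 122976 * X ^ 3 - 532728 * X ^ 4) := by
  rw [pi5_eq_of_dvd trunc_E6]
  congr 1
  simp only [map_ofNat, map_one, map_neg]
  ring

theorem pi5_Dt : pi5 (qExpansion 1 (Dt : ℍ → ℂ)) = pi5 (177147 * X ^ 3) := by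
  rw [pi5_eq_of_dvd trunc_Dt]
  congr 1
  simp only [map_ofNat, map_zero]
  ring

theorem pi5_E4t : pi5 (qExpansion 1 (E4t : ℍ → ℂ)) = pi5 (27 + 6480 * X ^ 3) := by
  rw [pi5_eq_of_dvd trunc_E4t]
  congr 1
  simp only [map_ofNat, map_zero]
  ring

theorem pi5_eq_zero_of_eq_mul {P : PowerSeries ℂ} (s : PowerSeries ℂ) (h : P = X ^ 5 * s) :
    pi5 P = 0 := by
  rw [Ideal.Quotient.eq_zero_iff_mem, Ideal.mem_span_singleton]
  exact ⟨s, h⟩

/-! ### The four computations modulo `X ^ 5` -/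

theorem pi5_αS : pi5 αS = pi5 (27 * ((2 + 24 * X + 72 * X ^ 2 + 24 * X ^ 3 + 168 * X ^ 4) ^ 3)
    - 36 * ((1 + 240 * X + 2160 * X ^ 2 + 6720 * X ^ 3 + 17520 * X ^ 4)
      * (2 + 24 * X + 72 * X ^ 2 + 24 * X ^ 3 + 168 * X ^ 4))
    - 16 * (1 - 504 * X - 16632 * X ^ 2 - 122976 * X ^ 3 - 532728 * X ^ 4)) := by
  simp only [αS, map_sub, map_mul, map_pow, pi5_gS, pi5_e4S, pi5_e6S]
  ring

theorem pi5_βS : pi5 βS = pi5 (28 * ((1 + 240 * X + 2160 * X ^ 2 + 6720 * X ^ 3 + 17520 * X ^ 4)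
      * (2 + 24 * X + 72 * X ^ 2 + 24 * X ^ 3 + 168 * X ^ 4))
    - 9 * ((2 + 24 * X + 72 * X ^ 2 + 24 * X ^ 3 + 168 * X ^ 4) ^ 3)
    + 16 * (1 - 504 * X - 16632 * X ^ 2 - 122976 * X ^ 3 - 532728 * X ^ 4)) := by
  simp only [βS, map_sub, map_add, map_mul, map_pow, pi5_gS, pi5_e4S, pi5_e6S]
  ring

theorem pi5_γS : pi5 γS = pi5 (7 * ((2 + 24 * X + 72 * X ^ 2 + 24 * X ^ 3 + 168 * X ^ 4) ^ 3)
    - 20 * ((1 + 240 * X + 2160 * X ^ 2 + 6720 * X ^ 3 + 17520 * X ^ 4)
      * (2 + 24 * X + 72 * X ^ 2 + 24 * X ^ 3 + 168 * X ^ 4))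
    - 16 * (1 - 504 * X - 16632 * X ^ 2 - 122976 * X ^ 3 - 532728 * X ^ 4)) := by
  simp only [γS, map_sub, map_mul, map_pow, pi5_gS, pi5_e4S, pi5_e6S]
  ring

/-- `A8 B8 ≡ 256 (E₄³ - E₆²)` modulo `X ^ 5`. -/
theorem check1 : pi5 (αS * βS - 256 * (e4S * e4S * e4S - e6S * e6S)) = 0 := by
  simp only [map_sub, map_mul, pi5_αS, pi5_βS, pi5_e4S, pi5_e6S]
  simp only [← map_mul, ← map_sub]
  apply pi5_eq_zero_of_eq_mul (3841228800 + (-522024468480) * X + (-12323135029248) * X ^ 2 + (-109498700021760) * X ^ 3 + (-526765164724224) * X ^ 4 + (-1650852998184960) * X ^ 5 + (-3349458817302528) * X ^ 6 + (-3261456870506496) * X ^ 7 + (-2122372977721344) * X ^ 8 + 975007216336896 * X ^ 9 + 10642425598771200 * X ^ 10 + 12407318686089216 * X ^ 11 + 16323896483905536 * X ^ 12 + 13914019350577152 * X ^ 13 + (-5887604349075456) * X ^ 14 + (-6615740512862208) * X ^ 15 + (-15036260397613056) * X ^ 16 + (-15721174801317888) * X ^ 17 + (-4682903132307456)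 * X ^ 18 + (-5463386987692032) * X ^ 19)
  ring

/-- `9 B8 C8 ≡ 16384 Δt` modulo `X ^ 5`. -/
theorem check2 : pi5 (9 * (βS * γS) - 16384 * qExpansion 1 (Dt : ℍ → ℂ)) = 0 := by
  simp only [map_sub, map_mul, pi5_βS, pi5_γS, pi5_Dt]
  simp only [← map_mul, ← map_sub]
  apply pi5_eq_zero_of_eq_mul ((-816391913472) * X + 22757282906112 * X ^ 2 + 153095018692608 * X ^ 3 + 749355760484352 * X ^ 4 + (-2427765112406016) * X ^ 5 + (-11269153983578112) * X ^ 6 + (-16165379861839872) * X ^ 7 + (-27618386267013120) * X ^ 8 + (-19562966157459456) * X ^ 9 + 21299999309365248 * X ^ 10 + 30245387065049088 * X ^ 11 + 63489039338962944 * X ^ 12 + 58743430542655488 * X ^ 13 + (-2222214488653824) * X ^ 14 + (-3378458774863872) * X ^ 15 + (-35084607594430464) * X ^ 16 + (-36682741203075072) * X ^ 17 + (-10926773975384064) * X ^ 18 + (-12747902971281408) * X ^ 19)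
  ring

/-- `A8 C8 ≡ B8²` modulo `X ^ 5`. -/
theorem check3 : pi5 (αS * γS - βS * βS) = 0 := by
  simp only [map_sub, map_mul, pi5_αS, pi5_βS, pi5_γS]
  simp only [← map_mul, ← map_sub]
  apply pi5_eq_zero_of_eq_mul ((-3072983040) + (-113391894528) * X + (-1770439311360) * X ^ 2 + (-15224123621376) * X ^ 3 + (-79363891003392) * X ^ 4 + (-268159295029248) * X ^ 5 + (-661357378732032) * X ^ 6 + (-1405799380942848) * X ^ 7 + (-2515157588901888) * X ^ 8 + (-3388414730305536) * X ^ 9 + (-4381248252542976) * X ^ 10 + (-3948437133656064) * X ^ 11 + (-1610632316583936) * X ^ 12 + (-344589624410112) * X ^ 13 + 5175719486816256 * X ^ 14 + 5619944469823488 * X ^ 15 + 6682782398939136 * X ^ 16 + 6987188800585728 * X ^ 17 + 2081290281025536 * X ^ 18 + 2428171994529792 * X ^ 19)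
  ring

/-- `2 E₄t ≡ 15 g² - 6 E₄` modulo `X ^ 5`. -/
theorem check4 : pi5 (2 * qExpansion 1 (E4t : ℍ → ℂ) - (15 * (gS * gS) - 6 * e4S)) = 0 := by
  simp only [map_sub, map_mul, pi5_E4t, pi5_gS, pi5_e4S]
  simp only [← map_mul, ← map_sub]
  apply pi5_eq_zero_of_eq_mul ((-172800) + (-371520) * X + (-120960) * X ^ 2 + (-423360) * X ^ 3)
  ring

/-! ### The Sturm bound applied -/

theorem series_eq_zero_of_pi5 {k : ℤ} (F : ModularForm (Gamma0 3) k) (S : PowerSeries ℂ)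
    (hq : qExpansion 1 (F : ℍ → ℂ) = S) (hk : (k * 4).toNat / 12 ≤ 4) (h5 : pi5 S = 0) :
    S = 0 := by
  have h0 : F = 0 := sturm3 F fun n hn => by
    rw [hq]
    exact coeff_eq_zero_of_pi5 h5 n (hn.trans hk)
  rw [← hq, h0]
  exact qExpansion_zero 1

/-- `A8 B8 - 256 (E₄³ - E₆²)`. -/
def D1 : ModularForm (Gamma0 3) 12 :=
  ModularForm.mcast (by norm_num) (A8.mul B8)
    - (256 : ℂ) • (ModularForm.mcast (by norm_num) ((E4r.mul E4r).mul E4r)
        - ModularForm.mcast (by norm_num) (E6r.mul E6r))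

/-- `9 B8 C8 - 16384 Δt`. -/
def D2 : ModularForm (Gamma0 3) 12 :=
  (9 : ℂ) • ModularForm.mcast (by norm_num) (B8.mul C8) - (16384 : ℂ) • Dt

/-- `A8 C8 - B8²`. -/
def D3 : ModularForm (Gamma0 3) 12 :=
  ModularForm.mcast (by norm_num) (A8.mul C8) - ModularForm.mcast (by norm_num) (B8.mul B8)

/-- `2 E₄t - (15 g² - 6 E₄)`. -/
def D4 : ModularForm (Gamma0 3) 4 :=
  (2 : ℂ) • E4t - ((15 : ℂ) • ModularForm.mcast (by norm_num) (g3.mul g3) - (6 : ℂ) • E4r)

theorem coe_D1 : (D1 : ℍ → ℂ) = (A8 : ℍ → ℂ) * B8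
    - (256 : ℂ) • ((E₄ : ℍ → ℂ) * E₄ * E₄ - (E₆ : ℍ → ℂ) * E₆) := by
  ext z
  simp [D1, E4r, E6r]
  rfl

theorem coe_D2 : (D2 : ℍ → ℂ) = (9 : ℂ) • ((B8 : ℍ → ℂ) * C8) - (16384 : ℂ) • (Dt : ℍ → ℂ) := by
  ext z
  simp [D2]
  rfl

theorem coe_D3 : (D3 : ℍ → ℂ) = (A8 : ℍ → ℂ) * C8 - (B8 : ℍ → ℂ) * B8 := by
  ext z
  simp [D3]
  rfl

theorem coe_D4 : (D4 : ℍ → ℂ) = (2 : ℂ) • (E4t : ℍ → ℂ)
    - ((15 : ℂ) • ((g3 : ℍ → ℂ) * g3) - (6 : ℂ) • (E₄ : ℍ → ℂ)) := by
  ext z
  simp [D4, E4r]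
  rfl

theorem nice_Dt : Nice 1 (Dt : ℍ → ℂ) := nice_G0 3 Dt
theorem nice_E4t : Nice 1 (E4t : ℍ → ℂ) := nice_G0 3 E4t

/-- The `q`-expansion of `3¹¹ Δ(3z)`. -/
abbrev dtS : PowerSeries ℂ := qExpansion 1 (Dt : ℍ → ℂ)

/-- The `q`-expansion of `27 E₄(3z)`. -/
abbrev e4tS : PowerSeries ℂ := qExpansion 1 (E4t : ℍ → ℂ)

theorem qExp_D1 : qExpansion 1 (D1 : ℍ → ℂ)
    = αS * βS - 256 * (e4S * e4S * e4S - e6S * e6S) := by
  rw [coe_D1]
  have n1 := (nice_E4.mul nice_E4).mul nice_E4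
  have n2 := nice_E6.mul nice_E6
  rw [Nice.qExpansion_sub one_pos (nice_A8.mul nice_B8) ((n1.sub n2).smul 256),
    Nice.qExpansion_mul one_pos nice_A8 nice_B8,
    Nice.qExpansion_smul one_pos (n1.sub n2),
    Nice.qExpansion_sub one_pos n1 n2,
    Nice.qExpansion_mul one_pos (nice_E4.mul nice_E4) nice_E4,
    Nice.qExpansion_mul one_pos nice_E4 nice_E4,
    Nice.qExpansion_mul one_pos nice_E6 nice_E6, qExp_A8, qExp_B8]
  simp only [PowerSeries.smul_eq_C_mul, map_ofNat]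

theorem qExp_D2 : qExpansion 1 (D2 : ℍ → ℂ) = 9 * (βS * γS) - 16384 * dtS := by
  rw [coe_D2]
  rw [Nice.qExpansion_sub one_pos ((nice_B8.mul nice_C8).smul 9) (nice_Dt.smul 16384),
    Nice.qExpansion_smul one_pos (nice_B8.mul nice_C8),
    Nice.qExpansion_smul one_pos nice_Dt,
    Nice.qExpansion_mul one_pos nice_B8 nice_C8, qExp_B8, qExp_C8]
  simp only [PowerSeries.smul_eq_C_mul, map_ofNat]

theorem qExp_D3 : qExpansion 1 (D3 : ℍ → ℂ) = αS * γS - βS * βS := by
  rw [coe_D3]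
  rw [Nice.qExpansion_sub one_pos (nice_A8.mul nice_C8) (nice_B8.mul nice_B8),
    Nice.qExpansion_mul one_pos nice_A8 nice_C8,
    Nice.qExpansion_mul one_pos nice_B8 nice_B8, qExp_A8, qExp_B8, qExp_C8]

theorem qExp_D4 : qExpansion 1 (D4 : ℍ → ℂ) = 2 * e4tS - (15 * (gS * gS) - 6 * e4S) := by
  rw [coe_D4]
  have n1 := nice_g3.mul nice_g3
  rw [Nice.qExpansion_sub one_pos (nice_E4t.smul 2) ((n1.smul 15).sub (nice_E4.smul 6)),
    Nice.qExpansion_sub one_pos (n1.smul 15) (nice_E4.smul 6),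
    Nice.qExpansion_smul one_pos nice_E4t,
    Nice.qExpansion_smul one_pos n1,
    Nice.qExpansion_smul one_pos nice_E4,
    Nice.qExpansion_mul one_pos nice_g3 nice_g3]
  simp only [PowerSeries.smul_eq_C_mul, map_ofNat]

/-- `A8 B8 = 256 (E₄³ - E₆²)` on `q`-expansions. -/
theorem series_one : αS * βS = 256 * (e4S * e4S * e4S - e6S * e6S) :=
  sub_eq_zero.mp (series_eq_zero_of_pi5 D1 _ qExp_D1 (by decide) check1)

/-- `9 B8 C8 = 16384 Δt` on `q`-expansions. -/
theorem series_two : 9 * (βS * γS) = 16384 * dtS :=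
  sub_eq_zero.mp (series_eq_zero_of_pi5 D2 _ qExp_D2 (by decide) check2)

/-- `A8 C8 = B8²` on `q`-expansions. -/
theorem series_three : αS * γS = βS * βS :=
  sub_eq_zero.mp (series_eq_zero_of_pi5 D3 _ qExp_D3 (by decide) check3)

/-- `2 E₄t = 15 g² - 6 E₄` on `q`-expansions. -/
theorem series_four : 2 * e4tS = 15 * (gS * gS) - 6 * e4S :=
  sub_eq_zero.mp (series_eq_zero_of_pi5 D4 _ qExp_D4 (by decide) check4)

end Fermat.Agent.RED.H29

end
end
-- ==== END Fermat.Agent.RED.H29_Mod3Forms
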