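-- GENERATED (merged mirror, NOTES/tools/trim/merge3_helper67.py): 8 modules of the originals, bodies verbatim.
import Mathlib
import Fermat.Prelude.Def_ModularCurve_GenusNumerics
import Fermat.Prelude.Def_ModularCurve_PeriodHomPair
import Fermat.Prelude.Def_CuspForm_HeckeAlgebra
import Fermat.Statements.S23
import Fermat.Prelude.Thm_ModularFormClass_qCoeff_heckeT
import Fermat.Prelude.Thm_ModularFormClass_qCoeff_heckeU
import Fermat.Prelude.Thm_CongruenceSubgroup_one_mem_strictPeriods_Gamma0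
import Fermat.Agent.Zm.S35_L02_000
import Fermat.Agent.Zm.S35_L02_003
import Fermat.Agent.Zm.S35_L03_003
import Fermat.Agent.S20.H74_Defs
import Fermat.Agent.S20.H29_JInjective
import Fermat.Agent.S20.H70_Ramanujan
import Fermat.Agent.S20.H70_PartD
import Fermat.Agent.Zm.S35_L03_004
import Fermat.Agent.Zm.S35_L01_003
import Fermat.Agent.Zm.S35_L02_004
import Fermat.Agent.Zm.S35_L01_004
import Fermat.Agent.Zm.S35_L01_005
import Fermat.Agent.Zm.S35_L01_001

-- ==== BEGIN Fermat.Agent.S16.H40_LBchi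
section

/-!
# S16, lower bound by the Shimura class (helper40): `Stmt_B4 p → Stmt_TorsLift p n → Stmt_LBalg p`

* `genB p A ℓ` : the Betti Hecke generator at `ℓ` on `Hom(Γ₀(p), A)` (`U_p` if `ℓ = p`, else `T_ℓ`).
* `BettiWord p A P Φ` : `Φ` is "the" action of the Hecke polynomial `P` on `Hom(Γ₀(p), A)`
  (an inductive relation: no commutativity of the `T_ℓ^B` on `Hom(Γ₀(p), A)` is needed).
* `Stmt_B4 p` (package B4 of `NOTES/plan/Betti.md`, Eichler–Shimura + `Stmt_period_TB/UB`):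
  a Hecke polynomial which kills `S₂(Γ₀(p))` kills the parabolic homomorphisms `Γ₀(p) → ℤ`.
* `Stmt_TorsLift p n` (package TORSLIFT): a homomorphism `Γ₀(p) → ℤ/n` which kills all elements
  of trace `0, ±1, ±2` lifts to a parabolic homomorphism `Γ₀(p) → ℤ`.
* `stmt_LBalg_of` : `Stmt_B4 p → Stmt_TorsLift p (eisensteinNumerator p) → Stmt_LBalg p`.
-/

set_option autoImplicit false

namespace Fermat.Agent.S16

open CongruenceSubgroup Matrix.SpecialLinearGroup ModularCurve ModularCurve.Period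
open Fermat.Agent.Betti
open scoped MatrixGroups

/-- The Betti Hecke generator at the prime `ℓ` on `Hom(Γ₀(p), A)`. -/
noncomputable def genB (p : ℕ) [NeZero p] (A : Type) [AddCommGroup A] (ℓ : Nat.Primes) :
    (Additive (Gamma0 p) →+ A) →+ (Additive (Gamma0 p) →+ A) :=
  if h : (ℓ : ℕ) ∣ p then UB p A h else TB p A ℓ.2 h

theorem genB_of_dvd (p : ℕ) [NeZero p] (A : Type) [AddCommGroup A] (ℓ : Nat.Primes)
    (h : (ℓ : ℕ) ∣ p) : genB p A ℓ = UB p A h := dif_pos h

theorem genB_of_not_dvd (p : ℕ) [NeZero p] (A : Type) [AddCommGroup A] (ℓ : Nat.Primes)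
    (h : ¬ (ℓ : ℕ) ∣ p) : genB p A ℓ = TB p A ℓ.2 h := dif_neg h

/-- `BettiWord p A P Φ`: the endomorphism `Φ` of `Hom(Γ₀(p), A)` is obtained from the Hecke
polynomial `P` by substituting the Betti Hecke operators for the variables. -/
inductive BettiWord (p : ℕ) [NeZero p] (A : Type) [AddCommGroup A] :
    HeckeAlg → ((Additive (Gamma0 p) →+ A) →+ (Additive (Gamma0 p) →+ A)) → Prop
  | const (a : ℤ) : BettiWord p A (MvPolynomial.C a) (a • AddMonoidHom.id _)
  | gen (ℓ : Nat.Primes) : BettiWord p A (MvPolynomial.X ℓ) (genB p A ℓ)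
  | add {P Q : HeckeAlg} {Φ Ψ : (Additive (Gamma0 p) →+ A) →+ (Additive (Gamma0 p) →+ A)} :
      BettiWord p A P Φ → BettiWord p A Q Ψ → BettiWord p A (P + Q) (Φ + Ψ)
  | mul {P Q : HeckeAlg} {Φ Ψ : (Additive (Gamma0 p) →+ A) →+ (Additive (Gamma0 p) →+ A)} :
      BettiWord p A P Φ → BettiWord p A Q Ψ → BettiWord p A (P * Q) (Φ.comp Ψ)

/-- Every Hecke polynomial has a Betti word. -/
theorem exists_bettiWord (p : ℕ) [NeZero p] (A : Type) [AddCommGroup A] (P : HeckeAlg) :
    ∃ Φ, BettiWord p A P Φ := by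
  induction P using MvPolynomial.induction_on with
  | C a => exact ⟨_, BettiWord.const a⟩
  | add P Q hP hQ =>
    obtain ⟨Φ, hΦ⟩ := hP
    obtain ⟨Ψ, hΨ⟩ := hQ
    exact ⟨_, BettiWord.add hΦ hΨ⟩
  | mul_X P ℓ hP =>
    obtain ⟨Φ, hΦ⟩ := hP
    exact ⟨_, BettiWord.mul hΦ (BettiWord.gen ℓ)⟩

/-- **B4** (Eichler–Shimura, integral Betti form): a Hecke polynomial which acts by zero on
`S₂(Γ₀(p))` acts by zero on the parabolic homomorphisms `Γ₀(p) → ℤ`. -/
def Stmt_B4 (p : ℕ) [NeZero p] : Prop :=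
  ∀ (P : HeckeAlg) (Φ : (Additive (Gamma0 p) →+ ℤ) →+ (Additive (Gamma0 p) →+ ℤ)),
    BettiWord p ℤ P Φ → CuspForm.heckeEvalForms p 2 P = 0 →
    ∀ φ : Additive (Gamma0 p) →+ ℤ, IsParabolicHom (Gamma0 p) φ → Φ φ = 0

/-- **TORSLIFT**: a homomorphism `Γ₀(p) → ℤ/n` killing all elements of trace `0, ±1, ±2`
(elliptic, parabolic, `±1`) is the reduction of a parabolic homomorphism `Γ₀(p) → ℤ`. -/
def Stmt_TorsLift (p n : ℕ) : Prop :=
  ∀ χ : Additive (Gamma0 p) →+ ZMod n,
    (∀ γ : Gamma0 p, ((γ : SL(2, ℤ)) : Matrix (Fin 2) (Fin 2) ℤ).trace ^ 2 ≤ 4 →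
      χ (Additive.ofMul γ) = 0) →
    ∃ φ : Additive (Gamma0 p) →+ ℤ, IsParabolicHom (Gamma0 p) φ ∧
      ∀ γ : Gamma0 p, ((φ (Additive.ofMul γ) : ℤ) : ZMod n) = χ (Additive.ofMul γ)

namespace H40

variable (p : ℕ) [Fact p.Prime]

/-- `U_ℓ^B χ = χ` for the prime `ℓ ∣ p` (i.e. `ℓ = p`). -/
theorem UB_chi' (n : ℕ) (hn : n ∣ Nat.card (ZMod p)ˣ) {ℓ : ℕ} (hℓ : ℓ.Prime) (h : ℓ ∣ p) :
    haveI : NeZero p := ⟨(Fact.out : p.Prime).ne_zero⟩
    UB p (ZMod n) h (chi p n hn) = chi p n hn := by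
  obtain rfl : ℓ = p := (Nat.prime_dvd_prime_iff_eq hℓ Fact.out).mp h
  exact UB_chi ℓ n hn

/-- The generators act on `χ` through the Eisenstein system. -/
theorem genB_chi (n : ℕ) (hn : n ∣ Nat.card (ZMod p)ˣ) (ℓ : Nat.Primes) :
    haveI : NeZero p := ⟨(Fact.out : p.Prime).ne_zero⟩
    genB p (ZMod n) ℓ (chi p n hn) = (eisensteinSystem p ℓ) • chi p n hn := by
  have : NeZero p := ⟨(Fact.out : p.Prime).ne_zero⟩
  by_cases h : (ℓ : ℕ) ∣ p
  · rw [genB_of_dvd _ _ _ h, eisensteinSystem_of_dvd h, one_smul]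
    exact UB_chi' p n hn ℓ.2 h
  · rw [genB_of_not_dvd _ _ _ h, eisensteinSystem_of_not_dvd h]
    rw [TB_chi p n hn ℓ.2 h]
    rw [← natCast_zsmul]
    congr 1
    push_cast
    ring

/-- A Betti word acts on `χ` by the Eisenstein value of the polynomial. -/
theorem bettiWord_chi (n : ℕ) (hn : n ∣ Nat.card (ZMod p)ˣ) :
    haveI : NeZero p := ⟨(Fact.out : p.Prime).ne_zero⟩
    ∀ (P : HeckeAlg) (Φ : (Additive (Gamma0 p) →+ ZMod n) →+ (Additive (Gamma0 p) →+ ZMod n)),
      BettiWord p (ZMod n) P Φ →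
      Φ (chi p n hn) = (MvPolynomial.aeval (eisensteinSystem p) P : ℤ) • chi p n hn := by
  have : NeZero p := ⟨(Fact.out : p.Prime).ne_zero⟩
  intro P Φ h
  induction h with
  | const a => simp
  | gen ℓ => rw [genB_chi p n hn ℓ, MvPolynomial.aeval_X]
  | add _ _ ih1 ih2 => rw [AddMonoidHom.add_apply, ih1, ih2, map_add, add_smul]
  | mul _ _ ih1 ih2 =>
    rw [AddMonoidHom.comp_apply, ih2, map_zsmul, ih1, map_mul, smul_smul, mul_comm]

/-- Reduction of the coefficients `ℤ → ℤ/n`. -/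
noncomputable def red (n : ℕ) (φ : Additive (Gamma0 p) →+ ℤ) : Additive (Gamma0 p) →+ ZMod n :=
  (Int.castAddHom (ZMod n)).comp φ

theorem genB_red (n : ℕ) (ℓ : Nat.Primes) (φ : Additive (Gamma0 p) →+ ℤ) :
    haveI : NeZero p := ⟨(Fact.out : p.Prime).ne_zero⟩
    red p n (genB p ℤ ℓ φ) = genB p (ZMod n) ℓ (red p n φ) := by
  have : NeZero p := ⟨(Fact.out : p.Prime).ne_zero⟩
  by_cases h : (ℓ : ℕ) ∣ p
  · rw [genB_of_dvd _ _ _ h, genB_of_dvd _ _ _ h, UB_apply, UB_apply]
    haveI : NeZero (ℓ : ℕ) := neZero_of_dvd h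
    exact ((isHeckeFamily_U p h).heckeOp_comp (incl_injective p) _ φ).symm
  · rw [genB_of_not_dvd _ _ _ h, genB_of_not_dvd _ _ _ h, TB_apply, TB_apply]
    haveI : Fact (ℓ : ℕ).Prime := ⟨ℓ.2⟩
    exact ((isHeckeFamily_T p h).heckeOp_comp (incl_injective p) _ φ).symm

/-- A word over `ℤ` reduces to a word over `ℤ/n` for the same polynomial. -/
theorem bettiWord_red (n : ℕ) :
    haveI : NeZero p := ⟨(Fact.out : p.Prime).ne_zero⟩
    ∀ (P : HeckeAlg) (Φ : (Additive (Gamma0 p) →+ ℤ) →+ (Additive (Gamma0 p) →+ ℤ)),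
      BettiWord p ℤ P Φ →
      ∃ Φ' : (Additive (Gamma0 p) →+ ZMod n) →+ (Additive (Gamma0 p) →+ ZMod n),
        BettiWord p (ZMod n) P Φ' ∧ ∀ φ, red p n (Φ φ) = Φ' (red p n φ) := by
  have : NeZero p := ⟨(Fact.out : p.Prime).ne_zero⟩
  intro P Φ h
  induction h with
  | const a =>
    refine ⟨_, BettiWord.const a, fun φ => ?_⟩
    refine AddMonoidHom.ext fun γ => ?_
    simp [red]
  | gen ℓ => exact ⟨_, BettiWord.gen ℓ, fun φ => genB_red p n ℓ φ⟩
  | add _ _ ih1 ih2 =>
    obtain ⟨Φ1, h1, e1⟩ := ih1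
    obtain ⟨Φ2, h2, e2⟩ := ih2
    refine ⟨_, BettiWord.add h1 h2, fun φ => ?_⟩
    rw [AddMonoidHom.add_apply, AddMonoidHom.add_apply, ← e1, ← e2]
    refine AddMonoidHom.ext fun γ => ?_
    simp [red]
  | mul _ _ ih1 ih2 =>
    obtain ⟨Φ1, h1, e1⟩ := ih1
    obtain ⟨Φ2, h2, e2⟩ := ih2
    refine ⟨_, BettiWord.mul h1 h2, fun φ => ?_⟩
    rw [AddMonoidHom.comp_apply, AddMonoidHom.comp_apply, e1, e2]

/-- **Lower bound from the Shimura class.** -/
theorem stmt_LBalg_of
    (hB4 : haveI : NeZero p := ⟨(Fact.out : p.Prime).ne_zero⟩; Stmt_B4 p)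
    (hTL : Stmt_TorsLift p (eisensteinNumerator p)) :
    haveI : NeZero p := ⟨(Fact.out : p.Prime).ne_zero⟩
    Stmt_LBalg p := by
  have : NeZero p := ⟨(Fact.out : p.Prime).ne_zero⟩
  set n := eisensteinNumerator p with hndef
  have hcard : Nat.card (ZMod p)ˣ = p - 1 := by
    rw [Nat.card_eq_fintype_card, ZMod.card_units]
  have hn : n ∣ Nat.card (ZMod p)ˣ := by rw [hcard]; exact eisensteinNumerator_dvd p
  have hn12 : Nat.gcd (Nat.card (ZMod p)ˣ) 12 * n ∣ Nat.card (ZMod p)ˣ := by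
    rw [hcard, hndef, eisensteinNumerator, Nat.mul_div_cancel' (Nat.gcd_dvd_left _ _)]
  intro P hP
  obtain ⟨Φ, hΦ⟩ := exists_bettiWord p ℤ P
  obtain ⟨φ, hφpar, hφ⟩ := hTL (chi p n hn) (chi_eq_zero_of_trace p n hn hn12)
  have hred : red p n φ = chi p n hn := by
    refine AddMonoidHom.ext fun γ' => ?_
    obtain ⟨γ, rfl⟩ : ∃ γ : Gamma0 p, Additive.ofMul γ = γ' := ⟨Additive.toMul γ', rfl⟩
    exact hφ γ
  have h0 : Φ φ = 0 := hB4 P Φ hΦ hP φ hφpar
  obtain ⟨Φ', hΦ', hcomm⟩ := bettiWord_red p n P Φ hΦ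
  have h1 := hcomm φ
  rw [h0, hred, bettiWord_chi p n hn P Φ' hΦ'] at h1
  -- evaluate at an element where χ = 1
  obtain ⟨γ, hγ⟩ := chi_surjective p n hn 1
  have h2 := congrArg (fun ψ : Additive (Gamma0 p) →+ ZMod n => ψ γ) h1
  simp only [red, AddMonoidHom.comp_apply, AddMonoidHom.zero_apply, map_zero,
    AddMonoidHom.smul_apply, hγ, zsmul_eq_mul, mul_one] at h2
  exact (ZMod.intCast_zmod_eq_zero_iff_dvd _ _).mp h2.symm

end H40

end Fermat.Agent.S16

end
-- ==== END Fermat.Agent.S16.H40_LBchi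

-- ==== BEGIN Fermat.Agent.S20.H75_Glue
section

/-!
# S20 glue (helper75)

* `hgeo : H74.LevelOneGeometry` from A1 (helper29) and A2 (helper70);
* `hsep N` : the separating form for `Γ₀(N)` in `MF` form, from part D (helper70);
* `neg_one_mem N : -1 ∈ Γ₀(N)`;
* `S20_of_core` : the core count implies the frozen statement of S20, via G1–G4.
-/

set_option autoImplicit false

open UpperHalfPlane ModularForm MatrixGroups Filter EisensteinSeries CongruenceSubgroup
open scoped Manifold Topology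

namespace Fermat.Agent.S20.H75

open Fermat.Agent.S20

/-- (a) level one geometry. -/
theorem hgeo : H74.LevelOneGeometry where
  inj := fun z w lam hlam h4 h6 => H29.exists_smul_eq_of_E₄_E₆ z w lam hlam h4 h6
  simpleE4 := fun z hz => H70.deriv_E₄_ne_zero z hz
  simpleE6 := fun z hz => H70.deriv_E₆_ne_zero z hz
  simpleB := fun z₀ z h4 h6 hz => H70.deriv_B_ne_zero z₀ z h4 h6 hz

/-- (c) `-1 ∈ Γ₀(N)`. -/
theorem neg_one_mem (N : ℕ) : (-1 : SL(2, ℤ)) ∈ Gamma0 N := by
  rw [Gamma0_mem]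
  simp

/-- (b) the separating form, in `MF` form. -/
theorem hsep (N : ℕ) [NeZero N] :
    ∃ (k : ℤ) (f : ℍ → ℂ), f ∈ H74.MF (Gamma0 N) k ∧
      ∀ g : SL(2, ℤ), f ∣[k] g = f → g ∈ Gamma0 N := by
  obtain ⟨k, f, hf⟩ := H70.partD N
  exact ⟨k, ⇑f, H74.coe_mem_MF rfl f, hf⟩

/-- (d) the core count implies the frozen statement of S20. -/
theorem S20_of_core (N : ℕ) [NeZero N]
    (hcore : 12 * (Module.finrank ℂ (H74.CF (Gamma0 N) 2) : ℤ) + 3 * H74.ellTwo (Gamma0 N)
      + 4 * H74.ellThree (Gamma0 N) + 6 * H74.cuspNum (Gamma0 N) = 12 + (Gamma0 N).index) :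
    (Module.finrank ℂ (CuspForm (CongruenceSubgroup.Gamma0 N) 2) : ℚ)
      = ModularCurve.genusFormula N := by
  have h1 : Module.finrank ℂ (CuspForm (CongruenceSubgroup.Gamma0 N) 2)
      = Module.finrank ℂ (H74.CF (Gamma0 N) 2) :=
    LinearEquiv.finrank_eq (H74.CFEquivOfFiniteIndex (Gamma0 N) 2)
  have hG1 : (Gamma0 N).index = ModularCurve.dedekindPsi N := H19.G1 N
  have hG2 : H74.ellTwo (Gamma0 N) = ModularCurve.nuTwo N := H19.G2 N
  have hG3 : H74.ellThree (Gamma0 N) = ModularCurve.nuThree N := H19.G3 N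
  have hG4 : H74.cuspNum (Gamma0 N) = ModularCurve.cuspCount N := H38.G4 N
  rw [hG1, hG2, hG3, hG4] at hcore
  rw [h1, ModularCurve.genusFormula]
  have hq : (12 : ℚ) * (Module.finrank ℂ (H74.CF (Gamma0 N) 2) : ℚ) + 3 * ModularCurve.nuTwo N
      + 4 * ModularCurve.nuThree N + 6 * ModularCurve.cuspCount N
      = 12 + ModularCurve.dedekindPsi N := by
    exact_mod_cast hcore
  linarith

end Fermat.Agent.S20.H75

end
-- ==== END Fermat.Agent.S20.H75_Glue

-- ==== BEGIN Fermat.Agent.S21.H20_Final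
section

/-!
# S21: the Eichler–Shimura statement from the dimension count alone

Parts A, B, C, D are proved; what remains is the dimension count (E1 and S20).
-/

set_option autoImplicit false

open ModularCurve ModularCurve.Period UpperHalfPlane CongruenceSubgroup
open scoped MatrixGroups

namespace Fermat.Agent.S21

/-- Part C in the form used by the assembly. -/
theorem periodMap_mem_parabolicHoms (N : ℕ) [NeZero N] (f : CuspForm (Gamma0 N) 2) :
    periodMap N f ∈ parabolicHoms ℂ (Gamma0 N) ℂ := by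
  obtain ⟨F, hF⟩ := partA N f
  rw [mem_parabolicHoms_iff]
  intro γ hγ
  rw [periodMap_apply_of_hasEquivariantPrimitive hF γ UpperHalfPlane.I, partC N hF γ hγ, sub_self]

/-- The period pairing is injective and lands in the parabolic homomorphisms (no dimension count
needed). -/
theorem periodHomPair_injective (N : ℕ) [NeZero N] :
    Function.Injective (ModularCurve.periodHomPair N) := by
  obtain ⟨pml, hpml, hdef⟩ := periodHomPair_def N (existsPeriodMapLinear_of_partA (partA N))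
  have hform : ∀ f g : CuspForm (Gamma0 N) 2, periodHomPair N (f, g)
      = periodMap N (f + g) + charInvolution N ℂ ℂ (periodMap N (f - g)) := by
    intro f g
    rw [hdef, ← hpml, ← hpml]
    simp only [LinearMap.coprod_apply, LinearMap.comp_apply, LinearMap.add_apply,
      LinearMap.sub_apply, LinearMap.id_apply, map_add, map_sub]
    abel
  rw [injective_iff_map_eq_zero]
  rintro ⟨f, g⟩ h
  rw [hform] at h
  obtain ⟨h1, h2⟩ := partD N _ _ h
  have hf : f = 0 := by
    have : (2 : ℂ) • f = 0 := by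
      rw [two_smul]
      calc f + f = (f + g) + (f - g) := by abel
        _ = 0 := by rw [h1, h2, add_zero]
    exact (smul_eq_zero.mp this).resolve_left two_ne_zero
  have hg : g = 0 := by
    rw [hf, zero_add] at h1
    exact h1
  rw [hf, hg]
  rfl

/-- The Eichler–Shimura statement, given only the dimension count: the bound `E1` on the
parabolic homomorphisms and the dimension formula `S20`. -/
theorem result_of_dimension_count (N : ℕ) [NeZero N]
    (hE : Module.Finite ℂ (parabolicHoms ℂ (Gamma0 N) ℂ) ∧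
      (Module.finrank ℂ (parabolicHoms ℂ (Gamma0 N) ℂ) : ℚ) ≤ 2 * genusFormula N)
    (hS20 : (Module.finrank ℂ (CuspForm (Gamma0 N) 2) : ℚ) = genusFormula N) :
    Function.Injective (ModularCurve.periodHomPair N)
      ∧ LinearMap.range (ModularCurve.periodHomPair N)
          = ModularCurve.Period.parabolicHoms ℂ (CongruenceSubgroup.Gamma0 N) ℂ :=
  result_of_parts (partA N) (periodMap_mem_parabolicHoms N) (partD N) hE hS20

/-- By-product (upper bound half of S20): `2 * dim S₂(Γ₀(N)) ≤ dim Hom_par`. -/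
theorem two_mul_finrank_cuspForm_le (N : ℕ) [NeZero N]
    [Module.Finite ℂ (parabolicHoms ℂ (Gamma0 N) ℂ)] :
    2 * Module.finrank ℂ (CuspForm (Gamma0 N) 2)
      ≤ Module.finrank ℂ (parabolicHoms ℂ (Gamma0 N) ℂ) := by
  obtain ⟨pml, hpml, hdef⟩ := periodHomPair_def N (existsPeriodMapLinear_of_partA (partA N))
  have hle : LinearMap.range (periodHomPair N) ≤ parabolicHoms ℂ (Gamma0 N) ℂ := by
    rintro _ ⟨⟨f, g⟩, rfl⟩
    rw [hdef]
    simp only [LinearMap.coprod_apply, LinearMap.comp_apply, LinearMap.add_apply,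
      LinearMap.sub_apply, LinearMap.id_apply, hpml]
    exact Submodule.add_mem _
      (Submodule.add_mem _ (periodMap_mem_parabolicHoms N f)
        (charInvolution_mem_parabolicHoms N ℂ ℂ (periodMap_mem_parabolicHoms N f)))
      (Submodule.sub_mem _ (periodMap_mem_parabolicHoms N g)
        (charInvolution_mem_parabolicHoms N ℂ ℂ (periodMap_mem_parabolicHoms N g)))
  let ι : (CuspForm (Gamma0 N) 2 × CuspForm (Gamma0 N) 2) →ₗ[ℂ] parabolicHoms ℂ (Gamma0 N) ℂ :=
    (periodHomPair N).codRestrict _ (fun x => hle ⟨x, rfl⟩)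
  have hιinj : Function.Injective ι :=
    fun x y hxy => periodHomPair_injective N (congrArg Subtype.val hxy)
  have : Module.Finite ℂ (CuspForm (Gamma0 N) 2 × CuspForm (Gamma0 N) 2) :=
    Module.Finite.of_injective ι hιinj
  have : Module.Finite ℂ (CuspForm (Gamma0 N) 2) :=
    Module.Finite.of_injective (LinearMap.inl ℂ _ (CuspForm (Gamma0 N) 2)) LinearMap.inl_injective
  have h1 := LinearMap.finrank_le_finrank_of_injective hιinj
  rw [Module.finrank_prod] at h1
  omega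

end Fermat.Agent.S21

end
-- ==== END Fermat.Agent.S21.H20_Final

-- ==== BEGIN Fermat.Agent.S21.H75_Main
section

set_option autoImplicit false
set_option linter.unusedSectionVars false

/-!
# The abstract cohomological upper bound
-/

namespace Fermat.Agent.S21.H75

open Module

variable {G : Type*} [Group G] (Γ : Subgroup G)

/-- homs `Γ → ℂ` vanishing on all `G`-conjugates of powers of `T` lying in `Γ` -/
def parHoms (T : G) : Submodule ℂ (Additive Γ →+ ℂ) where
  carrier := {φ | ∀ (g : G) (n : ℕ) (h : g⁻¹ * (T ^ n * g) ∈ Γ), φ (Additive.ofMul ⟨_, h⟩) = 0}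
  zero_mem' := fun _ _ _ => rfl
  add_mem' := by
    intro φ ψ hφ hψ g n h
    show φ _ + ψ _ = 0
    rw [hφ g n h, hψ g n h, add_zero]
  smul_mem' := by
    intro c φ hφ g n h
    show c • φ _ = 0
    rw [hφ g n h, smul_zero]

lemma coc_add (φ ψ : Additive Γ →+ ℂ) (g : G) : coc Γ (φ + ψ) g = coc Γ φ g + coc Γ ψ g := rfl

lemma coc_smul (a : ℂ) (φ : Additive Γ →+ ℂ) (g : G) : coc Γ (a • φ) g = a • coc Γ φ g := rfl

lemma cob_add (v w : (G ⧸ Γ) → ℂ) (g : G) : cob Γ (v + w) g = cob Γ v g + cob Γ w g := by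
  simp only [cob, map_add]; abel

lemma cob_smul (a : ℂ) (v : (G ⧸ Γ) → ℂ) (g : G) : cob Γ (a • v) g = a • cob Γ v g := by
  simp only [cob, map_smul, smul_sub]

/-- the total cocycle `coc φ + cob v` evaluated at `g`, as a linear map in `(φ, v)` -/
noncomputable def evalCoc (g : G) :
    ((Additive Γ →+ ℂ) × ((G ⧸ Γ) → ℂ)) →ₗ[ℂ] ((G ⧸ Γ) → ℂ) where
  toFun p := coc Γ p.1 g + cob Γ p.2 g
  map_add' p p' := by
    simp only [Prod.fst_add, Prod.snd_add, coc_add, cob_add]; abel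
  map_smul' a p := by
    simp only [Prod.smul_fst, Prod.smul_snd, coc_smul, cob_smul, smul_add, RingHom.id_apply]

lemma evalCoc_apply (g : G) (p : (Additive Γ →+ ℂ) × ((G ⧸ Γ) → ℂ)) :
    evalCoc Γ g p = coc Γ p.1 g + cob Γ p.2 g := rfl

lemma isCoc_evalCoc (p : (Additive Γ →+ ℂ) × ((G ⧸ Γ) → ℂ)) :
    IsCoc Γ (fun g => evalCoc Γ g p) :=
  (isCoc_coc Γ p.1).add Γ (isCoc_cob Γ p.2)

/-- the section value at the base coset lies in `Γ` -/
lemma out_base_mem : (Quotient.out (QuotientGroup.mk 1 : G ⧸ Γ) : G) ∈ Γ := by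
  have h := QuotientGroup.out_eq' (QuotientGroup.mk 1 : G ⧸ Γ)
  rw [QuotientGroup.eq] at h
  simpa using Γ.inv_mem h

/-- Shapiro: evaluating the total cocycle at `γ ∈ Γ` and the base coset recovers `φ γ`. -/
lemma evalCoc_base (p : (Additive Γ →+ ℂ) × ((G ⧸ Γ) → ℂ)) (γ : Γ) :
    evalCoc Γ (γ : G) p (QuotientGroup.mk 1) = p.1 (Additive.ofMul γ) := by
  have hfix : (γ : G) • (QuotientGroup.mk 1 : G ⧸ Γ) = QuotientGroup.mk 1 := by
    rw [← QuotientGroup.mk_mul_of_mem (1 : G) γ.2]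
    simp [MulAction.Quotient.smul_mk]
  have hk : kappa Γ (γ : G) (QuotientGroup.mk 1)
      = ⟨_, out_base_mem Γ⟩⁻¹ * γ * ⟨_, out_base_mem Γ⟩ := by
    apply Subtype.ext
    simp only [kappa_coe, hfix, Subgroup.coe_mul, Subgroup.coe_inv, mul_assoc]
  rw [evalCoc_apply, Pi.add_apply, coc_apply, hk]
  simp only [cob, Pi.sub_apply, R_apply, hfix, sub_self, add_zero, ofMul_mul, ofMul_inv,
    map_add, map_neg]
  abel

/-- If the total cocycle vanishes at generators, then `φ = 0` and `v` is `G`-invariant. -/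
lemma evalCoc_eq_zero_of_gen {s : Set G} (hs : Subgroup.closure s = ⊤)
    (p : (Additive Γ →+ ℂ) × ((G ⧸ Γ) → ℂ)) (h0 : ∀ g ∈ s, evalCoc Γ g p = 0) :
    p.1 = 0 ∧ ∀ q q' : G ⧸ Γ, p.2 q = p.2 q' := by
  have hall : ∀ g, evalCoc Γ g p = 0 :=
    fun g => (isCoc_evalCoc Γ p).eq_zero_of_closure hs h0 g
  have h1 : p.1 = 0 := by
    ext γ
    have := evalCoc_base Γ p (Additive.toMul γ)
    rw [hall] at this
    exact this.symm
  refine ⟨h1, fun q q' => ?_⟩
  obtain ⟨g, rfl⟩ := MulAction.exists_smul_eq G q' q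
  have := congrFun (hall g) q'
  rw [evalCoc_apply, h1] at this
  simp only [cob, Pi.add_apply, Pi.sub_apply, R_apply, Pi.zero_apply] at this
  have h2 : coc Γ 0 g q' = 0 := rfl
  rw [h2, zero_add] at this
  exact sub_eq_zero.mp this

section MainCount

/-- the hypotheses of the abstract count -/
structure Hyp (S T z : G) (M : ℕ) : Prop where
  gen : Subgroup.closure {S, T} = ⊤
  zc : ∀ g : G, z * g = g * z
  zΓ : z ∈ Γ
  z2 : z * z = 1
  hS : S ^ 2 = z
  hU : (S * T) ^ 3 = z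
  hM : 0 < M
  hTM : ∀ q : G ⧸ Γ, (T ^ M) • q = q

variable {Γ} {S T z : G} {M : ℕ}

lemma Hyp.smul_z (H : Hyp Γ S T z M) (q : G ⧸ Γ) : z • q = q := by
  induction q using QuotientGroup.induction_on with
  | H g =>
    rw [MulAction.Quotient.smul_mk, smul_eq_mul, H.zc g]
    exact QuotientGroup.mk_mul_of_mem g H.zΓ

lemma Hyp.R_z (H : Hyp Γ S T z M) : R Γ z = 1 := by
  ext v q
  simp [H.smul_z]

lemma Hyp.R_S_sq (H : Hyp Γ S T z M) : R Γ S ^ 2 = 1 := by
  rw [← R_pow, H.hS, H.R_z]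

lemma Hyp.R_U_cube (H : Hyp Γ S T z M) : R Γ (S * T) ^ 3 = 1 := by
  rw [← R_pow, H.hU, H.R_z]

lemma Hyp.R_T_pow (H : Hyp Γ S T z M) : R Γ T ^ M = 1 := by
  rw [← R_pow]
  ext v q
  simp [H.hTM]

lemma Hyp.gen' (H : Hyp Γ S T z M) : Subgroup.closure {S, S * T} = ⊤ := by
  rw [eq_top_iff, ← H.gen, Subgroup.closure_le]
  intro x hx
  have hS : S ∈ Subgroup.closure {S, S * T} := Subgroup.subset_closure (by simp)
  have hU : S * T ∈ Subgroup.closure {S, S * T} := Subgroup.subset_closure (by simp)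
  rcases hx with hx | hx
  · rw [hx]; exact hS
  · rw [Set.mem_singleton_iff] at hx
    rw [hx]
    have h3 : S⁻¹ * (S * T) ∈ Subgroup.closure {S, S * T} := mul_mem (inv_mem hS) hU
    rwa [inv_mul_cancel_left] at h3

/-- the total cocycle of a parabolic hom vanishes at the central element `z` -/
lemma Hyp.evalCoc_z (H : Hyp Γ S T z M) (p : (Additive Γ →+ ℂ) × ((G ⧸ Γ) → ℂ)) :
    evalCoc Γ z p = 0 := by
  ext q
  have hk : kappa Γ z q = ⟨z, H.zΓ⟩ := by
    apply Subtype.ext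
    rw [kappa_coe, H.smul_z, H.zc, inv_mul_cancel_left]
  have hz : p.1 (Additive.ofMul (⟨z, H.zΓ⟩ : Γ)) = 0 := by
    have h1 : (⟨z, H.zΓ⟩ : Γ) * ⟨z, H.zΓ⟩ = 1 := Subtype.ext H.z2
    have h2 := congrArg (fun γ : Γ => p.1 (Additive.ofMul γ)) h1
    simp only [ofMul_mul, map_add, ofMul_one, map_zero] at h2
    have h3 : (2 : ℂ) * p.1 (Additive.ofMul (⟨z, H.zΓ⟩ : Γ)) = 0 := by rw [two_mul]; exact h2
    exact (mul_eq_zero.mp h3).resolve_left two_ne_zero
  simp [evalCoc_apply, coc_apply, hk, hz, cob, H.smul_z]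

/-- the total cocycle of a parabolic hom vanishes at `T ^ M` -/
lemma Hyp.evalCoc_T_pow (H : Hyp Γ S T z M) (p : (Additive Γ →+ ℂ) × ((G ⧸ Γ) → ℂ))
    (hp : p.1 ∈ parHoms Γ T) : evalCoc Γ (T ^ M) p = 0 := by
  ext q
  have hmem : (Quotient.out q)⁻¹ * (T ^ M * Quotient.out q) ∈ Γ := by
    have := (kappa Γ (T ^ M) q).2
    rwa [kappa_coe, H.hTM] at this
  have hk : kappa Γ (T ^ M) q = ⟨_, hmem⟩ := by
    apply Subtype.ext
    rw [kappa_coe, H.hTM]
  simp [evalCoc_apply, coc_apply, hk, hp (Quotient.out q) M hmem, cob, H.hTM]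

lemma Hyp.normOp_S (H : Hyp Γ S T z M) (p : (Additive Γ →+ ℂ) × ((G ⧸ Γ) → ℂ)) :
    normOp (R Γ S) 2 (evalCoc Γ S p) = 0 := by
  rw [← (isCoc_evalCoc Γ p).map_pow S 2, H.hS, H.evalCoc_z]

lemma Hyp.normOp_U (H : Hyp Γ S T z M) (p : (Additive Γ →+ ℂ) × ((G ⧸ Γ) → ℂ)) :
    normOp (R Γ (S * T)) 3 (evalCoc Γ (S * T) p) = 0 := by
  rw [← (isCoc_evalCoc Γ p).map_pow (S * T) 3, H.hU, H.evalCoc_z]

lemma Hyp.normOp_T (H : Hyp Γ S T z M) (p : (Additive Γ →+ ℂ) × ((G ⧸ Γ) → ℂ))
    (hp : p.1 ∈ parHoms Γ T) :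
    normOp (R Γ T) M (evalCoc Γ (S * T) p - evalCoc Γ S p) = 0 := by
  have h1 : evalCoc Γ (S * T) p = R Γ T (evalCoc Γ S p) + evalCoc Γ T p :=
    isCoc_evalCoc Γ p S T
  have h2 : normOp (R Γ T) M (evalCoc Γ T p) = 0 := by
    rw [← (isCoc_evalCoc Γ p).map_pow T M, H.evalCoc_T_pow p hp]
  rw [h1, map_sub, map_add, normOp_comp_self H.R_T_pow, h2]
  abel

/-- `Hom(Γ, ℂ)` is finite-dimensional (finite index, `G` generated by `S, T`). -/
lemma Hyp.finite_hom [Finite (G ⧸ Γ)] (H : Hyp Γ S T z M) :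
    FiniteDimensional ℂ (Additive Γ →+ ℂ) := by
  let Ψ : (Additive Γ →+ ℂ) →ₗ[ℂ] ((G ⧸ Γ) → ℂ) × ((G ⧸ Γ) → ℂ) :=
    ((evalCoc Γ S).prod (evalCoc Γ T)) ∘ₗ (LinearMap.inl ℂ _ _)
  have hΨ : Function.Injective Ψ := by
    rw [injective_iff_map_eq_zero]
    intro φ hφ
    have h1 : evalCoc Γ S (φ, 0) = 0 := congrArg Prod.fst hφ
    have h2 : evalCoc Γ T (φ, 0) = 0 := congrArg Prod.snd hφ
    have := evalCoc_eq_zero_of_gen Γ H.gen (φ, 0) (by
      rintro g (rfl | hg)
      · exact h1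
      · rw [Set.mem_singleton_iff] at hg; rw [hg]; exact h2)
    exact this.1
  exact FiniteDimensional.of_injective Ψ hΨ

section Count

variable [Fintype (G ⧸ Γ)]

/-- the abstract dimension count -/
theorem Hyp.finrank_bound (H : Hyp Γ S T z M) :
    finrank ℂ (parHoms Γ T) + finrank ℂ (LinearMap.ker (R Γ S - 1))
      + finrank ℂ (LinearMap.ker (R Γ (S * T) - 1)) + finrank ℂ (LinearMap.ker (R Γ T - 1))
      ≤ Fintype.card (G ⧸ Γ) + 2 := by
  classical
  have := H.finite_hom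
  set A : Submodule ℂ ((G ⧸ Γ) → ℂ) := LinearMap.ker (normOp (R Γ S) 2) with hA
  set B : Submodule ℂ ((G ⧸ Γ) → ℂ) := LinearMap.ker (normOp (R Γ (S * T)) 3) with hB
  -- the inclusion of parabolic data
  let incl : (parHoms Γ T) × ((G ⧸ Γ) → ℂ) →ₗ[ℂ] (Additive Γ →+ ℂ) × ((G ⧸ Γ) → ℂ) :=
    LinearMap.prodMap (parHoms Γ T).subtype LinearMap.id
  let Θ : (parHoms Γ T) × ((G ⧸ Γ) → ℂ) →ₗ[ℂ] A × B :=
    LinearMap.prod
      (LinearMap.codRestrict A ((evalCoc Γ S) ∘ₗ incl) (fun p => H.normOp_S _))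
      (LinearMap.codRestrict B ((evalCoc Γ (S * T)) ∘ₗ incl) (fun p => H.normOp_U _))
  let L : A × B →ₗ[ℂ] ((G ⧸ Γ) → ℂ) :=
    (normOp (R Γ T) M) ∘ₗ (B.subtype ∘ₗ LinearMap.snd ℂ A B - A.subtype ∘ₗ LinearMap.fst ℂ A B)
  -- (3) range Θ ≤ ker L
  have h3 : LinearMap.range Θ ≤ LinearMap.ker L := by
    rintro _ ⟨p, rfl⟩
    rw [LinearMap.mem_ker]
    exact H.normOp_T (incl p) p.1.2
  -- (4) ker Θ is at most one-dimensional
  have h4 : finrank ℂ (LinearMap.ker Θ) ≤ 1 := by
    have hle : LinearMap.ker Θ ≤ Submodule.span ℂ {((0 : parHoms Γ T), (fun _ => (1 : ℂ) : (G ⧸ Γ) → ℂ))} := by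
      intro p hp
      rw [LinearMap.mem_ker] at hp
      have h1 : evalCoc Γ S (incl p) = 0 := congrArg (fun x : A × B => (x.1 : (G ⧸ Γ) → ℂ)) hp
      have h2 : evalCoc Γ (S * T) (incl p) = 0 := congrArg (fun x : A × B => (x.2 : (G ⧸ Γ) → ℂ)) hp
      have := evalCoc_eq_zero_of_gen Γ H.gen' (incl p) (by
        rintro g (rfl | hg)
        · exact h1
        · rw [Set.mem_singleton_iff] at hg; rw [hg]; exact h2)
      rw [Submodule.mem_span_singleton]
      refine ⟨p.2 (QuotientGroup.mk 1), ?_⟩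
      apply Prod.ext
      · apply Subtype.ext
        have h1' : (p.1 : Additive Γ →+ ℂ) = 0 := this.1
        simp [h1']
      · funext q
        have h2' : p.2 (QuotientGroup.mk 1) = p.2 q := this.2 (QuotientGroup.mk 1) q
        simp [h2']
    calc finrank ℂ (LinearMap.ker Θ)
        ≤ finrank ℂ (Submodule.span ℂ {((0 : parHoms Γ T), (fun _ => (1 : ℂ) : (G ⧸ Γ) → ℂ))}) :=
          Submodule.finrank_mono hle
      _ ≤ 1 := by
          have := finrank_span_le_card (R := ℂ) ({((0 : parHoms Γ T), (fun _ => (1 : ℂ) : (G ⧸ Γ) → ℂ))} :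
            Set ((parHoms Γ T) × ((G ⧸ Γ) → ℂ)))
          simpa using this
  -- (5) range L ⊇ T-fixed sum-zero vectors
  have h5 : (LinearMap.ker (R Γ T - 1) ⊓ LinearMap.ker (sumFun Γ) : Submodule ℂ ((G ⧸ Γ) → ℂ))
      ≤ LinearMap.range L := by
    intro w hw
    obtain ⟨hw1, hw2⟩ := Submodule.mem_inf.mp hw
    rw [LinearMap.mem_ker, LinearMap.sub_apply, Module.End.one_apply, sub_eq_zero] at hw1
    have hM0 : (M : ℂ) ≠ 0 := by exact_mod_cast H.hM.ne'
    have hw' : ((M : ℂ)⁻¹ • w) ∈ LinearMap.ker (sumFun Γ) :=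
      Submodule.smul_mem _ _ hw2
    have hsup := ker_sumFun_le_sup Γ H.gen' hw'
    obtain ⟨a, ha, b, hb, hab⟩ := Submodule.mem_sup.mp hsup
    have haA : a ∈ A := range_sub_one_le_ker_normOp H.R_S_sq ha
    have hbB : b ∈ B := range_sub_one_le_ker_normOp H.R_U_cube hb
    refine ⟨(⟨-a, A.neg_mem haA⟩, ⟨b, hbB⟩), ?_⟩
    show normOp (R Γ T) M (b - -a) = w
    rw [sub_neg_eq_add, add_comm, hab, map_smul, normOp_of_fixed M hw1, smul_smul,
      inv_mul_cancel₀ hM0, one_smul]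
  -- counting
  have c1 : finrank ℂ A + finrank ℂ (LinearMap.ker (R Γ S - 1)) = finrank ℂ ((G ⧸ Γ) → ℂ) :=
    finrank_ker_normOp_add (R := R Γ S) (M := 2) (by norm_num) H.R_S_sq
  have c2 : finrank ℂ B + finrank ℂ (LinearMap.ker (R Γ (S * T) - 1))
      = finrank ℂ ((G ⧸ Γ) → ℂ) :=
    finrank_ker_normOp_add (R := R Γ (S * T)) (M := 3) (by norm_num) H.R_U_cube
  have c3 : finrank ℂ ((G ⧸ Γ) → ℂ) = Fintype.card (G ⧸ Γ) := Module.finrank_fintype_fun_eq_card ℂ
  have c4 := LinearMap.finrank_range_add_finrank_ker Θ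
  have c5 := LinearMap.finrank_range_add_finrank_ker L
  have c6 : finrank ℂ ((parHoms Γ T) × ((G ⧸ Γ) → ℂ)) = finrank ℂ (parHoms Γ T) + finrank ℂ ((G ⧸ Γ) → ℂ) :=
    Module.finrank_prod
  have c7 : finrank ℂ (A × B) = finrank ℂ A + finrank ℂ B := Module.finrank_prod
  have c8 : finrank ℂ (LinearMap.range Θ) ≤ finrank ℂ (LinearMap.ker L) :=
    Submodule.finrank_mono h3
  have c9 : finrank ℂ (LinearMap.ker (R Γ T - 1)) ≤
      finrank ℂ (LinearMap.ker (R Γ T - 1) ⊓ LinearMap.ker (sumFun Γ) : Submodule ℂ ((G ⧸ Γ) → ℂ)) + 1 :=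
    finrank_le_finrank_inf_ker_add_one (LinearMap.ker (R Γ T - 1)) (sumFun Γ)
  have c10 : finrank ℂ (LinearMap.ker (R Γ T - 1) ⊓ LinearMap.ker (sumFun Γ) : Submodule ℂ ((G ⧸ Γ) → ℂ))
      ≤ finrank ℂ (LinearMap.range L) := Submodule.finrank_mono h5
  omega

end Count

end MainCount

end Fermat.Agent.S21.H75

end
-- ==== END Fermat.Agent.S21.H75_Main

-- ==== BEGIN Fermat.Agent.S22.Lattice
section

/-!
# S22: the period lattice is finitely generated, Hecke stable and separating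
-/

set_option autoImplicit false

namespace Fermat.Agent.S22

open Polynomial
open scoped MatrixGroups ModularForm
open UpperHalfPlane Matrix.SpecialLinearGroup CongruenceSubgroup

theorem groupFG_SL2Z : Group.FG SL(2, ℤ) := by
  rw [Group.fg_iff]
  exact ⟨{ModularGroup.S, ModularGroup.T}, SpecialLinearGroup.SL2Z_generators, by simp⟩

theorem groupFG_Gamma0 (N : ℕ) [NeZero N] : Group.FG ↥(Gamma0 N) := by
  have := groupFG_SL2Z
  exact Subgroup.fg_of_index_ne_zero (Gamma0 N)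

namespace EichlerData

variable {N : ℕ} [NeZero N] {n : ℕ} (D : EichlerData N n)

/-- the `m`-th coefficient of the period polynomial at `g`, as a linear functional -/
noncomputable def coeffFun (g : SL(2, ℤ)) (m : ℕ) :
    Module.Dual ℂ (CuspForm (Gamma0 N) ((n : ℤ) + 2)) where
  toFun f := (D.period f g).coeff m
  map_add' f f' := by rw [D.period_add, Polynomial.coeff_add]
  map_smul' c f := by rw [D.period_smul, Polynomial.coeff_smul]; rfl

@[simp] theorem coeffFun_apply (g : SL(2, ℤ)) (m : ℕ) (f : CuspForm (Gamma0 N) ((n : ℤ) + 2)) :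
    D.coeffFun g m f = (D.period f g).coeff m := rfl

theorem coeffFun_eq_zero_of_lt (g : SL(2, ℤ)) {m : ℕ} (hm : n < m) : D.coeffFun g m = 0 := by
  ext f
  rw [coeffFun_apply, LinearMap.zero_apply]
  exact Polynomial.coeff_eq_zero_of_natDegree_lt (lt_of_le_of_lt (D.natDegree_period_le f g) hm)

/-- the period lattice -/
noncomputable def lattice : Submodule ℤ (Module.Dual ℂ (CuspForm (Gamma0 N) ((n : ℤ) + 2))) :=
  Submodule.span ℤ {l | ∃ g ∈ Gamma0 N, ∃ m : ℕ, l = D.coeffFun g m}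

theorem coeffFun_mem_lattice {g : SL(2, ℤ)} (hg : g ∈ Gamma0 N) (m : ℕ) :
    D.coeffFun g m ∈ D.lattice :=
  Submodule.subset_span ⟨g, hg, m, rfl⟩

/-- the functional `f ↦ coeff_j (polySlash (period f g))` is an integer combination of
coefficient functionals at `g`. -/
theorem coeff_polySlash_period_eq (a b c d : ℤ) (g : SL(2, ℤ)) (j : ℕ)
    (f : CuspForm (Gamma0 N) ((n : ℤ) + 2)) :
    (polySlash n a b c d (D.period f g)).coeff j =
      (∑ m ∈ Finset.range (n + 1), ((basisPoly n a b c d m).coeff j : ℤ) • D.coeffFun g m) f := by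
  rw [coeff_polySlash, LinearMap.sum_apply]
  refine Finset.sum_congr rfl fun m _ => ?_
  rw [LinearMap.smul_apply, coeffFun_apply]

theorem sum_coeffFun_mem {M : Submodule ℤ (Module.Dual ℂ (CuspForm (Gamma0 N) ((n : ℤ) + 2)))}
    (a b c d : ℤ) (g : SL(2, ℤ)) (j : ℕ) (h : ∀ m, D.coeffFun g m ∈ M) :
    (∑ m ∈ Finset.range (n + 1), ((basisPoly n a b c d m).coeff j : ℤ) • D.coeffFun g m) ∈ M :=
  Submodule.sum_mem _ fun m _ => M.smul_mem _ (h m)

theorem lattice_fg : D.lattice.FG := by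
  classical
  obtain ⟨S₀, hS₀, hfin⟩ := Group.fg_iff.mp (groupFG_Gamma0 N)
  set M : Submodule ℤ (Module.Dual ℂ (CuspForm (Gamma0 N) ((n : ℤ) + 2))) :=
    Submodule.span ℤ ((fun x : ↥(Gamma0 N) × ℕ => D.coeffFun (x.1 : SL(2, ℤ)) x.2) ''
      (S₀ ×ˢ (Finset.range (n + 1) : Set ℕ))) with hM
  have hMfg : M.FG :=
    Submodule.fg_span ((hfin.prod (Finset.finite_toSet _)).image _)
  have hmem : ∀ g : ↥(Gamma0 N), ∀ j : ℕ, D.coeffFun (g : SL(2, ℤ)) j ∈ M := by
    intro g
    have hg : g ∈ Subgroup.closure S₀ := by rw [hS₀]; trivial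
    induction hg using Subgroup.closure_induction with
    | mem x hx =>
      intro j
      by_cases hj : j ≤ n
      · exact Submodule.subset_span
          ⟨(x, j), ⟨hx, by simpa using Nat.lt_succ_of_le hj⟩, rfl⟩
      · rw [D.coeffFun_eq_zero_of_lt _ (not_le.mp hj)]
        exact M.zero_mem
    | one =>
      intro j
      have : D.coeffFun ((1 : ↥(Gamma0 N)) : SL(2, ℤ)) j = 0 := by
        ext f
        rw [coeffFun_apply, Subgroup.coe_one, D.period_one]
        simp
      rw [this]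
      exact M.zero_mem
    | mul x y _ _ hx hy =>
      intro j
      have : D.coeffFun ((x * y : ↥(Gamma0 N)) : SL(2, ℤ)) j =
          (∑ m ∈ Finset.range (n + 1),
            ((basisPoly n ((y : SL(2, ℤ)) 0 0) ((y : SL(2, ℤ)) 0 1) ((y : SL(2, ℤ)) 1 0)
              ((y : SL(2, ℤ)) 1 1) m).coeff j : ℤ) • D.coeffFun (x : SL(2, ℤ)) m) +
            D.coeffFun (y : SL(2, ℤ)) j := by
        ext f
        rw [coeffFun_apply, Subgroup.coe_mul, D.period_mul f x.2 y.2, Polynomial.coeff_add,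
          LinearMap.add_apply, coeffFun_apply, ← coeff_polySlash_period_eq]
      rw [this]
      exact M.add_mem (D.sum_coeffFun_mem _ _ _ _ _ _ hx) (hy j)
    | inv x _ hx =>
      intro j
      have : D.coeffFun ((x⁻¹ : ↥(Gamma0 N)) : SL(2, ℤ)) j =
          - (∑ m ∈ Finset.range (n + 1),
            ((basisPoly n ((x : SL(2, ℤ))⁻¹ 0 0) ((x : SL(2, ℤ))⁻¹ 0 1) ((x : SL(2, ℤ))⁻¹ 1 0)
              ((x : SL(2, ℤ))⁻¹ 1 1) m).coeff j : ℤ) • D.coeffFun (x : SL(2, ℤ)) m) := by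
        ext f
        rw [coeffFun_apply, Subgroup.coe_inv, D.period_inv f x.2, Polynomial.coeff_neg,
          LinearMap.neg_apply, ← coeff_polySlash_period_eq]
      rw [this]
      exact M.neg_mem (D.sum_coeffFun_mem _ _ _ _ _ _ hx)
  have hle : D.lattice ≤ M := by
    refine Submodule.span_le.mpr ?_
    rintro l ⟨g, hg, m, rfl⟩
    exact hmem ⟨g, hg⟩ m
  have hge : M ≤ D.lattice := by
    refine Submodule.span_le.mpr ?_
    rintro l ⟨⟨g, m⟩, _, rfl⟩
    exact D.coeffFun_mem_lattice g.2 m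
  rw [le_antisymm hle hge]
  exact hMfg

theorem lattice_sep (f : CuspForm (Gamma0 N) ((n : ℤ) + 2))
    (h : ∀ l ∈ D.lattice, l f = 0) : f = 0 := by
  apply D.sep f
  intro g hg
  have hper : D.period f g = 0 := by
    ext m
    rw [Polynomial.coeff_zero]
    exact h _ (D.coeffFun_mem_lattice hg m)
  have := D.polyFun_period f hg
  rw [hper, polyFun_zero] at this
  exact (sub_eq_zero.mp this.symm)

theorem lattice_comp_mem_of_forall
    (τ : Module.End ℂ (CuspForm (Gamma0 N) ((n : ℤ) + 2)))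
    (hτ : ∀ g ∈ Gamma0 N, ∀ j : ℕ, (D.coeffFun g j).comp τ ∈ D.lattice) :
    ∀ l ∈ D.lattice, l.comp τ ∈ D.lattice := by
  intro l hl
  induction hl using Submodule.span_induction with
  | mem x hx =>
    obtain ⟨g, hg, m, rfl⟩ := hx
    exact hτ g hg m
  | zero =>
    rw [LinearMap.zero_comp]
    exact Submodule.zero_mem _
  | add x y _ _ hx hy =>
    rw [LinearMap.add_comp]
    exact Submodule.add_mem _ hx hy
  | smul a x _ hx =>
    have : (a • x).comp τ = a • x.comp τ := by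
      ext v; simp
    rw [this]
    exact Submodule.smul_mem _ a hx

theorem lattice_stable_T {p : ℕ} (hp : p.Prime) (hpN : ¬ p ∣ N) :
    ∀ l ∈ D.lattice, l.comp (CuspForm.heckeTLin ((n : ℤ) + 2) hp hpN) ∈ D.lattice := by
  classical
  have : NeZero p := ⟨hp.ne_zero⟩
  apply D.lattice_comp_mem_of_forall
  intro g hg j
  obtain ⟨σ, g', hg', hrel⟩ := D.period_heckeT hp hpN hg
  have : (D.coeffFun g j).comp (CuspForm.heckeTLin ((n : ℤ) + 2) hp hpN) =
      ∑ x : OnePoint (ZMod p), ((σ x).elim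
        (∑ m ∈ Finset.range (n + 1), ((basisPoly n p 0 0 1 m).coeff j : ℤ) •
          D.coeffFun (g' x) m)
        (fun i => ∑ m ∈ Finset.range (n + 1), ((basisPoly n 1 i.val 0 p m).coeff j : ℤ) •
          D.coeffFun (g' x) m)) := by
    ext f
    rw [LinearMap.comp_apply, coeffFun_apply, hrel f, Polynomial.finsetSum_coeff,
      LinearMap.sum_apply]
    refine Finset.sum_congr rfl fun x _ => ?_
    generalize σ x = y
    induction y using OnePoint.rec with
    | infty => exact D.coeff_polySlash_period_eq _ _ _ _ _ _ _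
    | coe i => exact D.coeff_polySlash_period_eq _ _ _ _ _ _ _
  rw [this]
  refine Submodule.sum_mem _ fun x _ => ?_
  generalize σ x = y
  induction y using OnePoint.rec with
  | infty => exact D.sum_coeffFun_mem _ _ _ _ _ _ fun m => D.coeffFun_mem_lattice (hg' _) m
  | coe i => exact D.sum_coeffFun_mem _ _ _ _ _ _ fun m => D.coeffFun_mem_lattice (hg' _) m

theorem lattice_stable_U {p : ℕ} (hp : p.Prime) (hpN : p ∣ N) :
    ∀ l ∈ D.lattice, l.comp (CuspForm.heckeULin ((n : ℤ) + 2) hpN) ∈ D.lattice := by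
  classical
  have : NeZero p := ⟨hp.ne_zero⟩
  apply D.lattice_comp_mem_of_forall
  intro g hg j
  obtain ⟨σ, g', hg', hrel⟩ := D.period_heckeU hp hpN hg
  have : (D.coeffFun g j).comp (CuspForm.heckeULin ((n : ℤ) + 2) hpN) =
      ∑ x : ZMod p, ∑ m ∈ Finset.range (n + 1),
        ((basisPoly n 1 (σ x).val 0 p m).coeff j : ℤ) • D.coeffFun (g' x) m := by
    ext f
    rw [LinearMap.comp_apply, coeffFun_apply, hrel f, Polynomial.finsetSum_coeff,
      LinearMap.sum_apply]
    refine Finset.sum_congr rfl fun x _ => ?_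
    exact D.coeff_polySlash_period_eq _ _ _ _ _ _ _
  rw [this]
  exact Submodule.sum_mem _ fun x _ =>
    D.sum_coeffFun_mem _ _ _ _ _ _ fun m => D.coeffFun_mem_lattice (hg' _) m

/-- **Main algebraic theorem**: from `EichlerData`, the Hecke algebra is a finite `ℤ`-module. -/
theorem moduleFinite_heckeAlgebra (D : EichlerData N n) (S : Set ℕ) :
    Module.Finite ℤ (CuspForm.heckeAlgebra N ((n : ℤ) + 2) S) := by
  refine moduleFinite_adjoin_of_lattice (CuspForm.heckeGenerators N ((n : ℤ) + 2) S) D.lattice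
    D.lattice_fg D.lattice_sep ?_
  rintro τ (⟨ℓ, hℓ, hℓN, -, rfl⟩ | ⟨q, hqN, hq, -, rfl⟩)
  · exact D.lattice_stable_T hℓ hℓN
  · exact D.lattice_stable_U hq hqN

end EichlerData

end Fermat.Agent.S22

end
-- ==== END Fermat.Agent.S22.Lattice

-- ==== BEGIN Fermat.Agent.S23.H22_GS3
section

/-!
# Galois stability of `S_k(Γ₀(N))`: the conjugate function (helper22, part of the S23 development)
-/

set_option autoImplicit false
set_option linter.unusedSectionVars false

open UpperHalfPlane ModularForm Polynomial SlashInvariantForm EisensteinSeries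
open scoped MatrixGroups ModularForm Manifold

noncomputable section

namespace Fermat.Agent.S23.H22

variable (N : ℕ) [NeZero N]

lemma card_Q_pos : 0 < Fintype.card (Q N) := Fintype.card_pos_iff.mpr ⟨q1⟩

/-- The weight of the reindexed coefficient forms of the norm relation. -/
def relWeight (k : ℤ) (m : ℕ) : ℤ :=
  0 * (((Fintype.card (Q N) - 1 - m : ℕ) : ℕ) : ℤ) +
    k * ((Fintype.card (Q N) : ℤ) - ((Fintype.card (Q N) - 1 - m : ℕ) : ℤ))

lemma relWeight_eq (k : ℤ) (m : ℕ) (hm : m ≤ Fintype.card (Q N) - 1) :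
    relWeight N k m = k * ((m : ℤ) + 1) := by
  have := card_Q_pos N
  unfold relWeight
  have h : ((Fintype.card (Q N) - 1 - m : ℕ) : ℤ) = (Fintype.card (Q N) : ℤ) - 1 - m := by omega
  rw [h]; ring

/-- The norm relation in the format of `relFun`. -/
theorem exists_norm_relation' {k : ℤ} (f : CuspForm (G0 N) k) :
    ∃ c : (m : ℕ) → CuspForm 𝒮ℒ (relWeight N k m), ∀ z,
      f z ^ (Fintype.card (Q N) - 1 + 1) + ∑ m ∈ Finset.range (Fintype.card (Q N) - 1 + 1),
        c m z * f z ^ (Fintype.card (Q N) - 1 - m) = 0 := by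
  obtain ⟨c, hc⟩ := exists_norm_relation N f
  refine ⟨fun m => c (Fintype.card (Q N) - 1 - m), fun z => ?_⟩
  have hpos := card_Q_pos N
  have h1 : Fintype.card (Q N) - 1 + 1 = Fintype.card (Q N) := by omega
  rw [h1, ← hc z]
  congr 1
  exact Finset.sum_range_reflect (fun j => c j z * f z ^ j) (Fintype.card (Q N))

/-- `Dhat` is a nice function. -/
lemma Dhat_nice : Nice 1 (Dhat N) := by
  obtain ⟨Φ, hΦ⟩ := exists_identity_one N
  have hDf : combo N Φ = Dhat N := funext fun z => by rw [combo_apply, hΦ]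
  rw [← hDf]
  exact combo_nice N Φ

/-- The conjugate function: holomorphic, `Γ₀(N)`-invariant of weight `k`, satisfying a monic
relation with level one cusp forms as coefficients, together with the numerator/denominator
presentation that determines its `q`-expansion. -/
theorem exists_conj_fun (hD : Dhat N ≠ 0) (σ : ℂ →+* ℂ) {k : ℤ} (f : CuspForm (G0 N) k) :
    ∃ (g : ℍ → ℂ) (D' : ℍ → ℂ) (c' : (m : ℕ) → CuspForm 𝒮ℒ (relWeight N k m)),
      MDiff g ∧ Nice 1 D' ∧ D' ≠ 0 ∧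
      qExpansion 1 D' = (qExpansion 1 (Dhat N)).map σ ∧
      qExpansion 1 (g * D') = (qExpansion 1 f).map σ * (qExpansion 1 (Dhat N)).map σ ∧
      (∀ γ : SL(2, ℤ), γ ∈ CongruenceSubgroup.Gamma0 N → g ∣[k] γ = g) ∧
      (∀ z, g z ^ (Fintype.card (Q N) - 1 + 1) +
        ∑ m ∈ Finset.range (Fintype.card (Q N) - 1 + 1),
          c' m z * g z ^ (Fintype.card (Q N) - 1 - m) = 0) := by
  have hpos := card_Q_pos N
  obtain ⟨H, hH⟩ := exists_identity N f
  obtain ⟨Φ, hΦ⟩ := exists_identity_one N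
  obtain ⟨c, hc⟩ := exists_norm_relation' N f
  choose H' hH' using fun j => H96.exists_conj σ (H j)
  choose Φ' hΦ' using fun j => H96.exists_conj σ (Φ j)
  choose c' hc' using fun m => H96.exists_conj_levelOne_cusp σ (c m)
  have hGf : combo N H = (f : ℍ → ℂ) * Dhat N := funext fun z => by
    rw [combo_apply, hH]; rfl
  have hDf : combo N Φ = Dhat N := funext fun z => by rw [combo_apply, hΦ]
  have hfn : Nice 1 (f : ℍ → ℂ) := nice_G0 N f
  have hDn : Nice 1 (Dhat N) := Dhat_nice N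
  have hG'n : Nice 1 (combo N H') := combo_nice N H'
  have hD'n : Nice 1 (combo N Φ') := combo_nice N Φ'
  have hG'q : qExpansion 1 (combo N H') =
      (qExpansion 1 f).map σ * (qExpansion 1 (Dhat N)).map σ := by
    rw [qExpansion_combo_conj N σ H H' hH', hGf, Nice.qExpansion_mul one_pos hfn hDn, map_mul]
  have hD'q : qExpansion 1 (combo N Φ') = (qExpansion 1 (Dhat N)).map σ := by
    rw [qExpansion_combo_conj N σ Φ Φ' hΦ', hDf]
  have hD'0 : combo N Φ' ≠ 0 := by
    intro h0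
    apply hD
    apply Nice.eq_zero_of_qExpansion_eq_zero one_pos hDn
    have h1 : (qExpansion 1 (Dhat N)).map σ = 0 := by
      rw [← hD'q, h0]; exact qExpansion_zero 1
    exact (PowerSeries.map_injective σ σ.injective) (by rw [h1, map_zero])
  -- the relation
  have hrel0 : relFun (Fintype.card (Q N) - 1) (fun m => (c m : ℍ → ℂ))
      ((f : ℍ → ℂ) * Dhat N) (Dhat N) = 0 :=
    relFun_mul_eq_zero _ _ _ _ hc
  have hcn : ∀ m, Nice 1 (c m : ℍ → ℂ) := fun m => nice_levelOne (c m)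
  have hc'n : ∀ m, Nice 1 (c' m : ℍ → ℂ) := fun m => nice_levelOne (c' m)
  have hrel1 : relFun (Fintype.card (Q N) - 1) (fun m => (c' m : ℍ → ℂ))
      (combo N H') (combo N Φ') = 0 := by
    apply Nice.eq_zero_of_qExpansion_eq_zero one_pos (relFun_nice _ hc'n hG'n hD'n)
    rw [qExpansion_relFun _ hc'n hG'n hD'n, hG'q, hD'q]
    have h2 := congrArg (PowerSeries.map σ) (congrArg (qExpansion 1) hrel0)
    rw [qExpansion_relFun _ hcn (hfn.mul hDn) hDn, Nice.qExpansion_mul one_pos hfn hDn,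
      qExpansion_zero, map_zero, map_add, map_pow, map_mul, map_sum] at h2
    rw [← h2]
    congr 1
    refine Finset.sum_congr rfl fun m _ => ?_
    rw [map_mul, map_mul, map_pow, map_pow, map_mul, hc']
  have hrel2 : ∀ z, combo N H' z ^ (Fintype.card (Q N) - 1 + 1) +
      ∑ m ∈ Finset.range (Fintype.card (Q N) - 1 + 1),
        c' m z * combo N Φ' z ^ (m + 1) * combo N H' z ^ (Fintype.card (Q N) - 1 - m) = 0 := by
    intro z
    have := congrFun hrel1 z
    rwa [relFun_apply] at this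
  obtain ⟨g, hgd, hgD⟩ := H96.exists_mdiff_div (Fintype.card (Q N) - 1) (combo N H')
    (combo N Φ') hG'n.hol hD'n.hol hD'0 (fun m => (c' m : ℍ → ℂ))
    (fun m => (hc'n m).hol) hrel2
  have hgG : g * combo N Φ' = combo N H' := funext fun z => hgD z
  refine ⟨g, combo N Φ', c', hgd, hD'n, hD'0, hD'q, by rw [hgG, hG'q], ?_, ?_⟩
  · -- invariance
    intro γ hγ
    have hF : MDiff (g ∣[k] γ - g) := (hgd.slash k _).sub hgd
    have hzero := H96.mdiff_eq_zero_of_mul_eq_zero (g ∣[k] γ - g) (combo N Φ') hF hD'n.hol hD'0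
      (fun z => by
        have hJ := denom_ne_zero γ z
        have e1 := combo_smul N H' γ hγ z
        have e2 := combo_smul N Φ' γ hγ z
        have e3 := hgD (γ • z)
        have e4 := hgD z
        rw [Pi.sub_apply, ModularForm.SL_slash_apply, sub_mul]
        have hpow : denom γ z ^ (lagrWeight (Q N) k 12 + 12 * ((Fintype.card (Q N) : ℤ) - 1)) =
            denom γ z ^ k *
              denom γ z ^ (lagrWeight (Q N) 0 12 + 12 * ((Fintype.card (Q N) : ℤ) - 1)) := by
          rw [← zpow_add₀ hJ]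
          congr 1
          unfold lagrWeight; push_cast; ring
        have hne : denom γ z ^ (lagrWeight (Q N) 0 12 + 12 * ((Fintype.card (Q N) : ℤ) - 1)) ≠ 0 :=
          zpow_ne_zero _ hJ
        rw [e1, hpow] at e3
        rw [e2] at e3
        have hk : denom γ z ^ k ≠ 0 := zpow_ne_zero _ hJ
        have e5 : g (γ • z) * combo N Φ' z = denom γ z ^ k * combo N H' z := by
          apply mul_left_cancel₀ hne
          linear_combination e3
        rw [sub_eq_zero, mul_right_comm, e5, e4, zpow_neg]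
        field_simp)
    exact sub_eq_zero.mp hzero
  · exact monic_rel_of_relFun_eq_zero _ _ g (combo N Φ') (fun m => (hc'n m).hol) hgd hD'n.hol
      hD'0 (by rw [hgG]; exact hrel1)

end Fermat.Agent.S23.H22

end
end
-- ==== END Fermat.Agent.S23.H22_GS3

-- ==== BEGIN Fermat.Agent.S23.H77_BDHecke
section

/-!
# Bounded denominators (BD) for `S₂(Γ₀(N))` from finiteness of the Hecke algebra (S22).
-/

set_option autoImplicit false

namespace Fermat.Agent.S23.H77

open ModularFormClass CuspForm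
open P2MW.S_CuspForm_intLattice_fg.W3WsD

local notation "Γ₀(" N ")" => CongruenceSubgroup.Gamma0 N

variable {N : ℕ}

/-- The `n`-th `q`-coefficient as a `ℂ`-linear functional. -/
noncomputable def coeffLin (N : ℕ) (k : ℤ) (n : ℕ) : CuspForm Γ₀(N) k →ₗ[ℂ] ℂ where
  toFun f := qCoeff ⇑f n
  map_add' f g := qCoeff_add f g n
  map_smul' c f := qCoeff_smulC c f n

theorem coeffLin_apply {k : ℤ} (n : ℕ) (f : CuspForm Γ₀(N) k) :
    coeffLin N k n f = qCoeff ⇑f n := rfl

theorem coeffLin_zero_eq_zero {k : ℤ} (f : CuspForm Γ₀(N) k) : coeffLin N k 0 f = 0 := by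
  rw [coeffLin_apply, qCoeff]
  exact CuspFormClass.qExpansion_coeff_zero f one_pos (hΓ N)

theorem coeffLin_heckeTLin {k : ℤ} {p : ℕ} (hp : p.Prime) (hpN : ¬ p ∣ N)
    (f : CuspForm Γ₀(N) k) (n : ℕ) :
    coeffLin N k n (CuspForm.heckeTLin k hp hpN f)
      = ModularForm.coeffHeckeT k p (fun m => coeffLin N k m f) n := by
  rw [coeffLin_apply, CuspForm.coe_heckeTLin_apply]
  exact ModularFormClass.qCoeff_heckeT f (hΓ N) hp.ne_zero n

theorem coeffLin_heckeULin [NeZero N] {k : ℤ} {p : ℕ} (hp : p.Prime) (hpN : p ∣ N)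
    (f : CuspForm Γ₀(N) k) (n : ℕ) :
    coeffLin N k n (CuspForm.heckeULin k hpN f)
      = ModularForm.coeffHeckeU p (fun m => coeffLin N k m f) n := by
  rw [coeffLin_apply, CuspForm.coe_heckeULin_apply]
  exact ModularFormClass.qCoeff_heckeU f (hΓ N) hp.ne_zero n

/-- For every `n ≥ 1` there is a Hecke operator `T_n` in the Hecke algebra with
`a₁ (T_n g) = a_n g`. -/
theorem exists_hecke_coeff [NeZero N] (n : ℕ) (hn : 0 < n) :
    ∃ T ∈ CuspForm.heckeAlgebra N 2 ∅, ∀ g : CuspForm Γ₀(N) 2,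
      coeffLin N 2 1 (T g) = coeffLin N 2 n g := by
  induction n using Nat.strong_induction_on with
  | _ n ih =>
    by_cases h1 : n = 1
    · subst h1
      exact ⟨1, Subalgebra.one_mem _, fun g => rfl⟩
    · have hp : (n.minFac).Prime := Nat.minFac_prime h1
      obtain ⟨m, hm⟩ : n.minFac ∣ n := Nat.minFac_dvd n
      set p := n.minFac with hpdef
      have hp0 : 0 < p := hp.pos
      have hm0 : 0 < m := by
        rcases Nat.eq_zero_or_pos m with h | h
        · rw [h, mul_zero] at hm; omega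
        · exact h
      have hmn : m < n := by
        rw [hm]
        have : 2 ≤ p := hp.two_le
        nlinarith
      obtain ⟨Tm, hTm, hTm'⟩ := ih m hmn hm0
      by_cases hpN : p ∣ N
      · refine ⟨Tm * CuspForm.heckeULin 2 hpN,
          mul_mem hTm (CuspForm.heckeULin_mem_heckeAlgebra hp hpN (by simp)), fun g => ?_⟩
        rw [Module.End.mul_apply, hTm', coeffLin_heckeULin hp hpN, ModularForm.coeffHeckeU_apply,
          hm, mul_comm]
      · by_cases hpm : p ∣ m
        · have hmp0 : 0 < m / p := Nat.div_pos (Nat.le_of_dvd hm0 hpm) hp0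
          have hmpn : m / p < n := lt_of_le_of_lt (Nat.div_le_self m p) hmn
          obtain ⟨Tm', hTm'mem, hTm'spec⟩ := ih (m / p) hmpn hmp0
          refine ⟨Tm * CuspForm.heckeTLin 2 hp hpN - (p : ℤ) • Tm',
            sub_mem (mul_mem hTm (CuspForm.heckeTLin_mem_heckeAlgebra hp hpN (by simp)))
              (Subalgebra.zsmul_mem _ hTm'mem _), fun g => ?_⟩
          rw [LinearMap.sub_apply, LinearMap.smul_apply, Module.End.mul_apply, map_sub, hTm',
            coeffLin_heckeTLin hp hpN, ModularForm.coeffHeckeT_of_dvd 2 hpm]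
          have hz : ((p : ℤ) • Tm' g) = ((p : ℂ)) • Tm' g := by
            rw [← Int.cast_natCast (R := ℂ), Int.cast_smul_eq_zsmul]
          rw [hz, map_smul, hTm'spec, hm, mul_comm p m]
          simp only [smul_eq_mul]
          norm_num
        · refine ⟨Tm * CuspForm.heckeTLin 2 hp hpN,
            mul_mem hTm (CuspForm.heckeTLin_mem_heckeAlgebra hp hpN (by simp)), fun g => ?_⟩
          rw [Module.End.mul_apply, hTm', coeffLin_heckeTLin hp hpN,
            ModularForm.coeffHeckeT_of_not_dvd 2 hpm, hm, mul_comm]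

/-- A finitely generated `ℤ`-submodule of `ℂ` consisting of rational numbers has a common
denominator. -/
theorem exists_common_denominator (Λ₀ : Submodule ℤ ℂ) (hfg : Λ₀.FG)
    (hrat : ∀ x ∈ Λ₀, ∃ r : ℚ, x = (r : ℂ)) :
    ∃ M : ℕ, M ≠ 0 ∧ ∀ x ∈ Λ₀, ∃ m : ℤ, (M : ℂ) * x = (m : ℂ) := by
  classical
  obtain ⟨s, hs⟩ := hfg
  have hsmem : ∀ x ∈ s, x ∈ Λ₀ := fun x hx => hs ▸ Submodule.subset_span hx
  choose! r hr using hrat
  refine ⟨∏ x ∈ s, (r x).den, Finset.prod_ne_zero_iff.2 fun x _ => (r x).den_nz, ?_⟩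
  intro x hx
  rw [← hs] at hx
  induction hx using Submodule.span_induction with
  | mem x hx =>
    have hxs : x ∈ s := hx
    refine ⟨(∏ y ∈ s.erase x, ((r y).den : ℤ)) * (r x).num, ?_⟩
    rw [← Finset.prod_erase_mul _ _ hxs]
    have h1 : x = (r x : ℂ) := hr x (hsmem x hxs)
    have h2 : ((r x).den : ℂ) * (r x : ℂ) = ((r x).num : ℂ) := by
      have := Rat.den_mul_eq_num (r x)
      exact_mod_cast this
    have h3 : ((r x).den : ℂ) * x = ((r x).num : ℂ) := by
      rw [← h1] at h2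
      exact h2
    push_cast
    rw [mul_assoc, h3]
  | zero => exact ⟨0, by simp⟩
  | add x y _ _ hx hy =>
    obtain ⟨a, ha⟩ := hx
    obtain ⟨b, hb⟩ := hy
    exact ⟨a + b, by rw [mul_add, ha, hb]; push_cast; ring⟩
  | smul c x _ hx =>
    obtain ⟨a, ha⟩ := hx
    refine ⟨c * a, ?_⟩
    rw [zsmul_eq_mul, mul_left_comm, ha]
    push_cast
    ring

/-- **BD** from finiteness of the Hecke algebra. -/
theorem bounded_denominators_of_finite [NeZero N]
    (hfin : Module.Finite ℤ (CuspForm.heckeAlgebra N 2 ∅))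
    (f : CuspForm Γ₀(N) 2)
    (hf : ∀ n : ℕ, ∃ r : ℚ, ModularFormClass.qCoeff f n = (r : ℂ)) :
    ∃ M : ℕ, M ≠ 0 ∧ ∀ n : ℕ, ∃ m : ℤ, (M : ℂ) * ModularFormClass.qCoeff f n = (m : ℂ) := by
  classical
  -- the additive map `T ↦ a₁ (T f)`
  let Φ : CuspForm.heckeAlgebra N 2 ∅ →ₗ[ℤ] ℂ :=
    { toFun := fun T => coeffLin N 2 1 ((T : Module.End ℂ (CuspForm Γ₀(N) 2)) f)
      map_add' := fun T T' => by
        simp only [Subalgebra.coe_add, LinearMap.add_apply, map_add]
      map_smul' := fun c T => by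
        simp only [Subalgebra.coe_smul, LinearMap.smul_apply, eq_intCast, Int.cast_id]
        have hz : (c • ((T : Module.End ℂ (CuspForm Γ₀(N) 2)) f))
            = ((c : ℂ)) • ((T : Module.End ℂ (CuspForm Γ₀(N) 2)) f) := by
          rw [Int.cast_smul_eq_zsmul]
        rw [hz, map_smul, smul_eq_mul, zsmul_eq_mul] }
  set Λ : Submodule ℤ ℂ := LinearMap.range Φ with hΛ
  have hΛfg : Λ.FG := by
    rw [hΛ, LinearMap.range_eq_map]
    exact (Module.Finite.fg_top).map Φ
  -- the rational numbers as a `ℤ`-submodule of `ℂ`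
  let Q : Submodule ℤ ℂ :=
    { carrier := {x | ∃ r : ℚ, x = (r : ℂ)}
      add_mem' := by
        rintro x y ⟨a, rfl⟩ ⟨b, rfl⟩
        exact ⟨a + b, by push_cast; rfl⟩
      zero_mem' := ⟨0, by simp⟩
      smul_mem' := by
        rintro c x ⟨a, rfl⟩
        exact ⟨c * a, by rw [zsmul_eq_mul]; push_cast; rfl⟩ }
  have hΛ₀fg : (Λ ⊓ Q).FG := hΛfg.of_le inf_le_left
  obtain ⟨M, hM0, hM⟩ := exists_common_denominator (Λ ⊓ Q) hΛ₀fg (fun x hx => hx.2)
  refine ⟨M, hM0, fun n => ?_⟩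
  rcases Nat.eq_zero_or_pos n with h0 | hn
  · subst h0
    have : ModularFormClass.qCoeff f 0 = 0 := coeffLin_zero_eq_zero f
    exact ⟨0, by rw [this]; simp⟩
  · apply hM
    refine ⟨?_, hf n⟩
    obtain ⟨T, hT, hTspec⟩ := exists_hecke_coeff (N := N) n hn
    exact ⟨⟨T, hT⟩, hTspec f⟩

end Fermat.Agent.S23.H77

end
-- ==== END Fermat.Agent.S23.H77_BDHecke

-- ==== BEGIN Fermat.Agent.S24.Asm.Grp
section

/-!
# S24 assembly, group theory (WP ASM-Grp): orbit counts on `SL(2, ℤ) ⧸ Γ₀(N)` and the arithmetic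

Inputs (all landed): `Fermat.Agent.S24.wp_scott` (Scott.lean), `Fermat.Agent.S20.H54.G2/G3`,
`G1_card` (S20/H19_Index.lean), `Fermat.Agent.Lib.H40CuspCount.card_orbits_T`,
Mathlib's generation of `SL(2, ℤ)` by `S` and `T`.
`S` acts on the cosets as an involution (`S ^ 2 = -1 ∈ Γ₀(N)` is central), `S * T` has order
dividing `3` on the cosets (`(S * T) ^ 3 = -1`).

WP ASM-Grp: all statements proved (helper95); signatures as in the skeleton.
-/

set_option autoImplicit false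
set_option linter.style.haveILetI false
set_option linter.unusedSectionVars false

noncomputable section

namespace Fermat.Agent.S24

open CongruenceSubgroup ModularGroup ModularCurve
open scoped MatrixGroups

/-- The number of orbits of `⟨γ⟩` on `SL(2, ℤ) ⧸ Γ₀(N)`. -/
def orbN (N : ℕ) (γ : SL(2, ℤ)) : ℕ :=
  Nat.card (MulAction.orbitRel.Quotient (Subgroup.zpowers γ) (SL(2, ℤ) ⧸ Gamma0 N))

section Bridge

variable {G X : Type*} [Group G] [MulAction G X]

/-- The orbits of `⟨γ⟩` are the orbits of the cyclic group generated by the permutation `γ • ·`. -/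
theorem h95_card_orbits_toPerm (γ : G) :
    Nat.card (MulAction.orbitRel.Quotient (Subgroup.zpowers γ) X)
      = Nat.card (MulAction.orbitRel.Quotient
          (Subgroup.zpowers (MulAction.toPermHom G X γ)) X) := by
  refine Nat.card_congr (Quotient.congr (Equiv.refl X) fun a b => ?_)
  show (MulAction.orbitRel (Subgroup.zpowers γ) X).r a b ↔
    (MulAction.orbitRel (Subgroup.zpowers (MulAction.toPermHom G X γ)) X).r a b
  rw [MulAction.orbitRel_apply, MulAction.orbitRel_apply, MulAction.mem_orbit_iff,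
    MulAction.mem_orbit_iff]
  constructor
  · rintro ⟨⟨g, hg⟩, rfl⟩
    obtain ⟨k, rfl⟩ := Subgroup.mem_zpowers_iff.1 hg
    refine ⟨⟨(MulAction.toPermHom G X γ) ^ k, ⟨k, rfl⟩⟩, ?_⟩
    show ((MulAction.toPermHom G X γ) ^ k) b = γ ^ k • b
    rw [← map_zpow]
    rfl
  · rintro ⟨⟨g, hg⟩, rfl⟩
    obtain ⟨k, rfl⟩ := Subgroup.mem_zpowers_iff.1 hg
    refine ⟨⟨γ ^ k, ⟨k, rfl⟩⟩, ?_⟩
    show γ ^ k • b = ((MulAction.toPermHom G X γ) ^ k) b
    rw [← map_zpow]
    rfl

end Bridge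

section Prime

variable {X : Type*} [Finite X]

/-- For a permutation `g` with `g ^ p = 1`, `p` prime: `p * #orbits = #X + (p - 1) * #fixed`. -/
theorem h95_card_orbits_of_pow_prime (g : Equiv.Perm X) (p : ℕ) [hp : Fact p.Prime]
    (hg : g ^ p = 1) :
    p * Nat.card (MulAction.orbitRel.Quotient (Subgroup.zpowers g) X)
      = Nat.card X + (p - 1) * Nat.card {x : X // g x = x} := by
  classical
  letI : Fintype X := Fintype.ofFinite X
  have hfix : Nat.card {x : X // g x = x} = Fintype.card (Function.fixedPoints g) := by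
    rw [← Nat.card_eq_fintype_card]
    exact Nat.card_congr (Equiv.subtypeEquivRight fun q => Iff.rfl)
  have hall : ∀ n ∈ g.cycleType, n = p := by
    intro n hn
    have h1 : n ∣ orderOf g := Equiv.Perm.dvd_of_mem_cycleType hn
    have h2 : orderOf g ∣ p := orderOf_dvd_of_pow_eq_one hg
    have h3 : 2 ≤ n := Equiv.Perm.two_le_of_mem_cycleType hn
    rcases (Nat.dvd_prime hp.out).1 (h1.trans h2) with h | h
    · omega
    · exact h
  have hsum : g.cycleType.sum = Multiset.card g.cycleType * p := by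
    rw [Multiset.eq_replicate_card.2 hall, Multiset.sum_replicate, Multiset.card_replicate,
      smul_eq_mul]
  have hle := g.sum_cycleType_le
  have hco := card_orbits_eq g
  have hfp := Equiv.Perm.card_fixedPoints g
  have hX : Nat.card X = Fintype.card X := Nat.card_eq_fintype_card
  rw [hsum] at hle hco hfp
  rw [hfix, hX, hco, hfp]
  have hp1 : 1 ≤ p := hp.out.one_lt.le
  obtain ⟨q, rfl⟩ : ∃ q, p = q + 1 := ⟨p - 1, by omega⟩
  obtain ⟨r, hr⟩ : ∃ r, Fintype.card X = Multiset.card g.cycleType * (q + 1) + r :=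
    ⟨Fintype.card X - Multiset.card g.cycleType * (q + 1), by omega⟩
  rw [hr]
  simp only [Nat.add_sub_cancel_left, Nat.add_sub_cancel]
  ring

end Prime

section Cosets

variable (N : ℕ)

theorem h95_neg_one_smul (q : SL(2, ℤ) ⧸ Gamma0 N) : (-1 : SL(2, ℤ)) • q = q := by
  induction q using QuotientGroup.induction_on with
  | H g =>
    rw [Fermat.Agent.S20.H54.smul_mk_eq_iff]
    have h : g⁻¹ * (-1 * g) = -1 := by
      rw [neg_one_mul, mul_neg, inv_mul_cancel]
    rw [h]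
    simp

theorem h95_S_sq : (S : SL(2, ℤ)) ^ 2 = -1 := by
  rw [pow_two]
  apply Subtype.ext
  rw [Matrix.SpecialLinearGroup.coe_mul, S_mul_S_eq]
  simp

theorem h95_ST_cube : (S * T : SL(2, ℤ)) ^ 3 = -1 := by
  apply Subtype.ext
  simp only [pow_succ, pow_zero, one_mul, Matrix.SpecialLinearGroup.coe_mul, coe_S, coe_T,
    Matrix.SpecialLinearGroup.coe_neg, Matrix.SpecialLinearGroup.coe_one]
  ext i j
  fin_cases i <;> fin_cases j <;> simp [Matrix.mul_apply, Fin.sum_univ_two]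

theorem h95_toPerm_pow_eq_one (γ : SL(2, ℤ)) (n : ℕ) (h : γ ^ n = -1) :
    (MulAction.toPermHom (SL(2, ℤ)) (SL(2, ℤ) ⧸ Gamma0 N) γ) ^ n = 1 := by
  rw [← map_pow, h]
  ext q
  exact h95_neg_one_smul N q

theorem h95_orbN_eq (γ : SL(2, ℤ)) :
    orbN N γ = Nat.card (MulAction.orbitRel.Quotient
      (Subgroup.zpowers (MulAction.toPermHom (SL(2, ℤ)) (SL(2, ℤ) ⧸ Gamma0 N) γ))
      (SL(2, ℤ) ⧸ Gamma0 N)) :=
  h95_card_orbits_toPerm (G := SL(2, ℤ)) (X := SL(2, ℤ) ⧸ Gamma0 N) γ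

theorem h95_toPerm_fixed (γ : SL(2, ℤ)) :
    Nat.card {q : SL(2, ℤ) ⧸ Gamma0 N //
        MulAction.toPermHom (SL(2, ℤ)) (SL(2, ℤ) ⧸ Gamma0 N) γ q = q}
      = Nat.card {q : SL(2, ℤ) ⧸ Gamma0 N // γ • q = q} := rfl

end Cosets

theorem asm_orb_one (N : ℕ) [NeZero N] : orbN N 1 = dedekindPsi N := by
  haveI : Fact (Nat.Prime 2) := ⟨Nat.prime_two⟩
  have h := h95_card_orbits_of_pow_prime
    (MulAction.toPermHom (SL(2, ℤ)) (SL(2, ℤ) ⧸ Gamma0 N) 1) 2 (by rw [map_one, one_pow])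
  rw [← h95_orbN_eq, h95_toPerm_fixed, Fermat.Agent.S20.H19.G1_card] at h
  have h2 : Nat.card {q : SL(2, ℤ) ⧸ Gamma0 N // (1 : SL(2, ℤ)) • q = q} = dedekindPsi N := by
    rw [← Fermat.Agent.S20.H19.G1_card N]
    exact Nat.card_congr (Equiv.subtypeUnivEquiv fun q => one_smul _ q)
  rw [h2] at h
  omega

theorem asm_orb_S (N : ℕ) [NeZero N] : 2 * orbN N S = dedekindPsi N + nuTwo N := by
  haveI : Fact (Nat.Prime 2) := ⟨Nat.prime_two⟩
  rw [h95_orbN_eq,
    h95_card_orbits_of_pow_prime _ 2 (h95_toPerm_pow_eq_one N S 2 h95_S_sq),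
    h95_toPerm_fixed N S, Fermat.Agent.S20.H54.G2, Fermat.Agent.S20.H19.G1_card]
  simp

theorem asm_orb_ST (N : ℕ) [NeZero N] : 3 * orbN N (S * T) = dedekindPsi N + 2 * nuThree N := by
  haveI : Fact (Nat.Prime 3) := ⟨Nat.prime_three⟩
  rw [h95_orbN_eq,
    h95_card_orbits_of_pow_prime _ 3 (h95_toPerm_pow_eq_one N (S * T) 3 h95_ST_cube),
    h95_toPerm_fixed N (S * T), Fermat.Agent.S20.H54.G3, Fermat.Agent.S20.H19.G1_card]

theorem asm_orb_T (N : ℕ) [NeZero N] : orbN N T = cuspCount N :=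
  Fermat.Agent.Lib.H40CuspCount.card_orbits_T N

/-- Scott's inequality and the parity statement for the triple `(S, T, S * T)`. -/
theorem asm_scott (N : ℕ) [NeZero N] :
    orbN N S + orbN N T + orbN N (S * T) ≤ dedekindPsi N + 2 ∧
      Even (dedekindPsi N + orbN N S + orbN N T + orbN N (S * T)) := by
  classical
  letI : Fintype (SL(2, ℤ) ⧸ Gamma0 N) := Fintype.ofFinite _
  set φ := MulAction.toPermHom (SL(2, ℤ)) (SL(2, ℤ) ⧸ Gamma0 N) with hφ
  have htrans : ∀ x y : SL(2, ℤ) ⧸ Gamma0 N, ∃ g ∈ Subgroup.closure {φ S, φ T}, g x = y := by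
    intro x y
    induction x using QuotientGroup.induction_on with
    | H a =>
      induction y using QuotientGroup.induction_on with
      | H b =>
        refine ⟨φ (b * a⁻¹), ?_, ?_⟩
        · have h1 : (b * a⁻¹) ∈ Subgroup.closure ({S, T} : Set (SL(2, ℤ))) := by
            rw [SpecialLinearGroup.SL2Z_generators]
            exact Subgroup.mem_top _
          have h2 := Subgroup.mem_map_of_mem φ h1
          rw [MonoidHom.map_closure, Set.image_pair] at h2
          exact h2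
        · show (b * a⁻¹) • (a : SL(2, ℤ) ⧸ Gamma0 N) = b
          show (((b * a⁻¹) * a : SL(2, ℤ)) : SL(2, ℤ) ⧸ Gamma0 N) = b
          rw [inv_mul_cancel_right]
  have key := wp_scott (φ S) (φ T) htrans
  rw [← map_mul, hφ, ← h95_orbN_eq, ← h95_orbN_eq, ← h95_orbN_eq, ← Nat.card_eq_fintype_card,
    Fermat.Agent.S20.H19.G1_card] at key
  exact key

/-- The arithmetic: the Riemann–Hurwitz degree gives the genus formula. -/
theorem asm_genus_arith (N : ℕ) [NeZero N] (d : ℤ)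
    (hd : d = (((dedekindPsi N : ℤ) - orbN N (S * T)) + ((dedekindPsi N : ℤ) - orbN N S))
      - dedekindPsi N - orbN N T) :
    (((d + 2).toNat / 2 : ℕ) : ℚ) = genusFormula N := by
  obtain ⟨hle, hev⟩ := asm_scott N
  have hS := asm_orb_S N
  have hST := asm_orb_ST N
  have hT := asm_orb_T N
  set a := orbN N S
  set b := orbN N T
  set c := orbN N (S * T)
  set ψ := dedekindPsi N
  obtain ⟨m, hm⟩ : ∃ m : ℕ, ψ + 2 = a + b + c + m := ⟨ψ + 2 - (a + b + c), by omega⟩
  have hd2 : d + 2 = (m : ℤ) := by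
    rw [hd]
    have : ((ψ : ℤ) + 2) = a + b + c + m := by exact_mod_cast hm
    linarith
  have hmev : Even m := by
    have h1 : Even (ψ + a + b + c + m) := by
      have : ψ + a + b + c + m = 2 * (ψ + 1) := by omega
      rw [this]
      exact even_two_mul _
    exact (Nat.even_add.mp h1).mp hev
  obtain ⟨k, hk⟩ := hmev
  rw [hd2, Int.toNat_natCast, hk, ← two_mul, Nat.mul_div_cancel_left k (by norm_num)]
  rw [genusFormula]
  have h1 : (2 : ℚ) * a = ψ + nuTwo N := by exact_mod_cast hS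
  have h2 : (3 : ℚ) * c = ψ + 2 * nuThree N := by exact_mod_cast hST
  have h3 : (b : ℚ) = cuspCount N := by exact_mod_cast hT
  have h4 : (ψ : ℚ) + 2 = a + b + c + 2 * k := by
    have : ψ + 2 = a + b + c + (k + k) := by rw [← hk]; exact hm
    have h := congrArg (Nat.cast : ℕ → ℚ) this
    push_cast at h
    linarith
  linarith

end Fermat.Agent.S24

end
end
-- ==== END Fermat.Agent.S24.Asm.Grp
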