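-- GENERATED (merged mirror, NOTES/tools/trim/merge3_helper67.py): 11 modules of the originals, bodies verbatim.
import Fermat.Prelude.Def_AlgebraicCurve_DivisorPushPull
import Fermat.Prelude.Def_AlgebraicCurve_Correspondence
import Mathlib
import Fermat.Agent.Zm.S35_L04_002
import Fermat.Agent.Zm.S35_L03_000
import Fermat.Agent.Zm.S35_L04_000
import Fermat.Agent.Zm.S35_L04_004
import Fermat.Agent.Zm.S35_L01_000
import Fermat.Agent.Zm.S35_L03_003
import Fermat.Agent.Zm.S35_L02_005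
import Fermat.Agent.Zm.S35_L01_004
import Fermat.Agent.Zm.S35_L03_004
import Fermat.Agent.Zm.S35_L04_001

-- ==== BEGIN Fermat.Agent.BAD.H28_Tot
section

/-!
# Item 65, BAD_q, leaf TOT-ABS (helper28): the law of total conservation, abstract form

Setting: `E ⊆ L` function fields over `K` (modular: `E = F_M · ℚ̄ ⊆ L = F_{Mq} · ℚ̄`),
`SE : RedSetup K E k E'` the reduction datum of the lower level (Gauss valuation `SE.V`, residue
field `E'`, reduction of places `SE.r` with the conservation law `SE.DI`), `V₁`, `V₂` the two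
extensions of `SE.V` to `L` with residue maps `red_i : V_i → L_i`, `L_i ⊇ E'`,
`[L : E] = [L₁ : E'] + [L₂ : E']`.

`tot_of_normRed` : the field `tot` of `BAD.H79.TotData`:
`∑_{ρ P = z} ord_P u₁ = ord_z (red₁ u₁) + ord_{β z} (red₂ u₂)` for `u₂ = c u₁`.

Inputs:
* helper42's `H42.normRed_two` (norm reduction for two valuations);
* the norm formula for places `Divisor.PushforwardNormFormula K E L` (FF-B, helper51);
* the conservation law of the lower level (`SE.DI`);
* `ρ P = κ⁻¹ (SE.r (P | E))` for an injective transport of places `κ : Place k L₁ → Place k E'`;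
* `ord_{κ z} (N_{L₁/E'} g) = ord_z g` and `ord_{κ z} (N_{L₂/E'} g) = ord_{β z} g`
  (modular: `L₁ = E'`, and `L₂ / E'` is purely inseparable of degree `q` with `N g = g ^ q`).
-/

set_option autoImplicit false
set_option linter.style.haveILetI false

noncomputable section

open AlgebraicCurve

attribute [local instance] Classical.propDecidable

namespace Fermat.Agent.BAD.H28

open Fermat.Agent.RED.H17 Fermat.Agent.RED

section Push

variable {K E L : Type*} [Field K] [Field E] [Field L] [Algebra K E] [Algebra K L]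
  [Algebra E L] [IsScalarTower K E L] [Algebra.IsIntegral E L]

/-- If all inertia degrees are `1`, the push-forward of divisors is `mapDomain` of the
restriction of places. -/
theorem pushforward_eq_mapDomain (hin : ∀ w : Place K L, w.inertiaDeg E = 1)
    (D : Divisor K L) :
    Divisor.pushforward E D = Finsupp.mapDomain (fun P : Place K L => P.restrict E) D := by
  induction D using Finsupp.induction_linear with
  | zero => simp
  | add D₁ D₂ h₁ h₂ => rw [map_add, Finsupp.mapDomain_add, h₁, h₂]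
  | single w n =>
    rw [Divisor.pushforward_single, Finsupp.mapDomain_single, hin w, Nat.cast_one, mul_one]

end Push

variable {K E L k E' L₁ L₂ : Type} [Field K] [Field E] [Field L] [Field k] [Field E']
  [Field L₁] [Field L₂] [Algebra K E] [Algebra K L] [Algebra E L] [IsScalarTower K E L]
  [Module.Finite E L] [Algebra k E'] [Algebra k L₁] [Algebra k L₂] [Algebra E' L₁]
  [Algebra E' L₂] [Module.Finite E' L₁] [Module.Finite E' L₂]

/-- **TOT-ABS**: the law of total conservation (the field `tot` of `BAD.H79.TotData`) from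
norm reduction for two valuations, the norm formula for places and the conservation law of the
lower level. -/
theorem tot_of_normRed (SE : RedSetup K E k E') (hPE : HasPrincipalDivisors K E)
    (hin : ∀ w : Place K L, w.inertiaDeg E = 1)
    (hnorm : Divisor.PushforwardNormFormula K E L)
    (V₁ V₂ : ValuationSubring L) (red₁ : ↥V₁ →+* L₁) (red₂ : ↥V₂ →+* L₂)
    (hV₁ : ∀ a : E, a ∈ SE.V → algebraMap E L a ∈ V₁)
    (hV₂ : ∀ a : E, a ∈ SE.V → algebraMap E L a ∈ V₂)
    (hsurj₁ : Function.Surjective red₁) (hsurj₂ : Function.Surjective red₂)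
    (hker₁ : ∀ a : ↥V₁, ¬ IsUnit a → red₁ a = 0) (hker₂ : ∀ a : ↥V₂, ¬ IsUnit a → red₂ a = 0)
    (hcompat₁ : ∀ (a : ↥SE.V) (ha : algebraMap E L (a : E) ∈ V₁),
      red₁ ⟨algebraMap E L (a : E), ha⟩ = algebraMap E' L₁ (SE.red a))
    (hcompat₂ : ∀ (a : ↥SE.V) (ha : algebraMap E L (a : E) ∈ V₂),
      red₂ ⟨algebraMap E L (a : E), ha⟩ = algebraMap E' L₂ (SE.red a))
    (h₁₂ : ¬ V₁ ≤ V₂) (h₂₁ : ¬ V₂ ≤ V₁) (hA₁ : H42.IsArch V₁) (hA₂ : H42.IsArch V₂)
    (hdeg : Module.finrank E L = Module.finrank E' L₁ + Module.finrank E' L₂)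
    (ρ : Place K L → Place k L₁) (κ : Place k L₁ → Place k E') (hκ : Function.Injective κ)
    (hρ : ∀ P : Place K L, κ (ρ P) = SE.r (P.restrict E))
    (β : Place k L₁ → Place k L₂)
    (hN₁ : ∀ (z : Place k L₁) (g : L₁), g ≠ 0 → (κ z).ord (Algebra.norm E' g) = z.ord g)
    (hN₂ : ∀ (z : Place k L₁) (g : L₂), g ≠ 0 →
      (κ z).ord (Algebra.norm E' g) = (β z).ord g) :
    ∀ (u₁ : ↥V₁) (u₂ : ↥V₂), red₁ u₁ ≠ 0 → red₂ u₂ ≠ 0 →
      (∃ c : K, (u₂ : L) = algebraMap K L c * (u₁ : L)) →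
      ∀ D : Divisor K L, (∀ P, D P = P.ord (u₁ : L)) → ∀ z : Place k L₁,
        Finsupp.mapDomain ρ D z = z.ord (red₁ u₁) + (β z).ord (red₂ u₂) := by
  intro u₁ u₂ h1 h2 hc D hD z
  obtain ⟨c, hc⟩ := hc
  have hu₂0 : (u₂ : L) ≠ 0 := fun h => h2 (by
    have : u₂ = 0 := Subtype.ext h
    rw [this, map_zero])
  have hu₁0 : (u₁ : L) ≠ 0 := fun h => h1 (by
    have : u₁ = 0 := Subtype.ext h
    rw [this, map_zero])
  have hc0 : c ≠ 0 := by
    rintro rfl
    apply hu₂0
    rw [hc, map_zero, zero_mul]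
  have hcE : algebraMap K E c ≠ 0 := (map_ne_zero_iff _ (algebraMap K E).injective).mpr hc0
  have hkerE : ∀ a : ↥SE.V, ¬ IsUnit a → SE.red a = 0 := fun a ha =>
    (SE.red_eq_zero_iff a).2 ((IsLocalRing.mem_maximalIdeal a).2 ha)
  -- norm reduction
  obtain ⟨δ, hδ, hδr⟩ := H42.normRed_two SE.V V₁ V₂ SE.red red₁ red₂ hV₁ hV₂ hkerE hsurj₁
    hsurj₂ hker₁ hker₂ hcompat₁ hcompat₂ h₁₂ h₂₁ hA₁ hA₂ hdeg (u₁ : L) 1 (algebraMap K E c)⁻¹
    one_ne_zero (inv_ne_zero hcE) u₁ u₂ (by rw [map_one, one_mul]) (by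
      rw [hc, map_inv₀, ← IsScalarTower.algebraMap_apply, ← mul_assoc, inv_mul_cancel₀
        ((map_ne_zero_iff _ (algebraMap K L).injective).mpr hc0), one_mul])
  have hδ0 : SE.red δ ≠ 0 := by
    rw [hδr]
    exact mul_ne_zero (Algebra.norm_ne_zero_iff.2 h1) (Algebra.norm_ne_zero_iff.2 h2)
  have hGU : SE.IsGU (δ : E) := ⟨δ.2, by rw [SE.rd_of_mem δ.2]; exact hδ0⟩
  -- the orders of the norm
  have hord : ∀ v : Place K E, v.ord (Algebra.norm E (u₁ : L)) = v.ord (δ : E) := by
    intro v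
    rw [hδ, one_pow, one_mul, ← map_inv₀, ← map_pow]
    exact ord_algebraMap_mul v (pow_ne_zero _ (inv_ne_zero hc0)) _
  have hpush : Divisor.pushforward E D = dv hPE (δ : E) :=
    Finsupp.ext fun v => by rw [hnorm _ hu₁0 D hD v, hord, dv_apply]
  -- transport
  have h3 : Finsupp.mapDomain κ (Finsupp.mapDomain ρ D) =
      Finsupp.mapDomain SE.r (dv hPE (δ : E)) := by
    rw [← hpush, pushforward_eq_mapDomain hin, ← Finsupp.mapDomain_comp,
      ← Finsupp.mapDomain_comp]
    congr 1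
    exact funext hρ
  have h4 : Finsupp.mapDomain ρ D z = (κ z).ord (SE.rd (δ : E)) := by
    rw [← Finsupp.mapDomain_apply hκ (Finsupp.mapDomain ρ D) z, h3]
    exact SE.mapDomain_dv hPE hGU (κ z)
  rw [h4, SE.rd_of_mem δ.2, hδr,
    Place.ord_mul _ (Algebra.norm_ne_zero_iff.2 h1) (Algebra.norm_ne_zero_iff.2 h2),
    hN₁ z _ h1, hN₂ z _ h2]

end Fermat.Agent.BAD.H28

end
end
-- ==== END Fermat.Agent.BAD.H28_Tot

-- ==== BEGIN Fermat.Agent.BAD.H28_Unif
section

/-!
# Item 65, BAD_q, leaf UNIF (helper28): uniformizers of the first component, regular on the fibre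

Abstract form of `BAD.H79.TotData.unif`.  Setting: `SE : RedSetup K E k E'` is the reduction datum
of the LOWER level (modular: `E = F_M · ℚ̄` with its Gauss valuation and `r_M`), with "genus does
not drop" (`SE.GenusLE'`); `φ : E → L` is the inclusion into the function field of the upper level
(modular: `L = F_{Mq} · ℚ̄`), `V₁`, `V₂` are two valuation rings of `L` containing `φ (SE.V)`,
`red₁ : V₁ → L₁` is the reduction of the first one, `ρ : Place K L → Place k L₁` is the reduction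
map (modular: `ρ P = r_M (P | E)`, transported to `L₁ ≅ E'`), and `κ : Place k L₁ → Place k E'` is
the transport of places.

* `RedSetup.exists_unif` : in the lower level, every place `z'` of the reduced field has a
  uniformizer which lifts to a function of `SE.V` without pole on the fibre of `z'`.
* `unif_of_level` : the statement of `TotData.unif` from the compatibilities
  `κ (ρ P) = SE.r (P | E)` and `ord_z (red₁ (φ u)) = ord_{κ z} (SE.red u)`.
-/

set_option autoImplicit false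
set_option linter.style.haveILetI false

noncomputable section

open AlgebraicCurve

attribute [local instance] Classical.propDecidable

namespace Fermat.Agent.BAD.H28

open Fermat.Agent.RED.H17 Fermat.Agent.RED

variable {K E k E' : Type*} [Field K] [Field E] [Algebra K E] [Field k] [Field E']
  [Algebra k E']

/-- **UNIF, lower level**: every place `z'` of the reduced field has a uniformizer `y` with a
lift `u ∈ V` which has no pole on the fibre of `z'`. -/
theorem exists_unif_level (SE : RedSetup K E k E') (H : FFHyp K E) (H' : FFHyp k E')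
    [Infinite k] (hG : SE.GenusLE') (z' : Place k E') :
    ∃ u : SE.V, z'.ord (SE.red u) = 1 ∧ ∀ P, SE.r P = z' → 0 ≤ P.ord (u : E) := by
  obtain ⟨y, -, hy⟩ := H51.exists_uniformizer z'
  obtain ⟨u, hu, huy, hreg⟩ := SE.exists_good_lift H H' hG y {z'} (fun Q hQ => by
    rw [Finset.mem_singleton] at hQ
    rw [hQ, hy]
    exact zero_le_one)
  refine ⟨⟨u, hu⟩, ?_, fun P hP => hreg P (by rw [hP]; exact Finset.mem_singleton_self _)⟩
  rw [← SE.rd_of_mem hu, huy]
  exact hy

variable {L L₁ : Type*} [Field L] [Algebra K L] [Field L₁] [Algebra k L₁]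

/-- **UNIF** (the field `unif` of `BAD.H79.TotData`), from the reduction datum of the lower
level. -/
theorem unif_of_level (SE : RedSetup K E k E') (H : FFHyp K E) (H' : FFHyp k E')
    [Infinite k] (hG : SE.GenusLE')
    (φ : E →ₐ[K] L) (hφ : φ.toRingHom.IsIntegral)
    (V₁ V₂ : ValuationSubring L) (red₁ : V₁ →+* L₁)
    (hV₁ : ∀ u ∈ SE.V, φ u ∈ V₁) (hV₂ : ∀ u ∈ SE.V, φ u ∈ V₂)
    (ρ : Place K L → Place k L₁) (κ : Place k L₁ → Place k E')
    (hρ : ∀ P, κ (ρ P) = SE.r (P.restrictAlong φ hφ))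
    (hord : ∀ (z : Place k L₁) (u : SE.V) (h : φ (u : E) ∈ V₁),
      z.ord (red₁ ⟨φ (u : E), h⟩) = (κ z).ord (SE.red u))
    (z : Place k L₁) :
    ∃ (t : L) (h₁ : t ∈ V₁), t ∈ V₂ ∧ (∀ P, ρ P = z → 0 ≤ P.ord t) ∧
      z.ord (red₁ ⟨t, h₁⟩) = 1 := by
  obtain ⟨u, hu1, hureg⟩ := exists_unif_level SE H H' hG (κ z)
  refine ⟨φ (u : E), hV₁ _ u.2, hV₂ _ u.2, fun P hP => ?_, ?_⟩
  · rw [Place.ord_restrictAlong φ hφ P (u : E)]
    have h1 : 0 ≤ (P.restrictAlong φ hφ).ord (u : E) :=
      hureg _ (by rw [← hρ P, hP])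
    exact mul_nonneg (Int.natCast_nonneg _) h1
  · rw [hord z u (hV₁ _ u.2)]
    exact hu1

end Fermat.Agent.BAD.H28

end
end
-- ==== END Fermat.Agent.BAD.H28_Unif

-- ==== BEGIN Fermat.Agent.BAD.H55_Alg
section

/-!
# Item 65, package ABS: the two ALG leaves (helper55)

* `stmt_Ratio : Stmt_Ratio` (evaluate at the root `t = -A/A₀`; neither `Infinite k` nor
  `(n : k) ≠ 0` beyond `n ≠ 0` is used);
* `stmt_Avoid : Stmt_Avoid` (Mathlib `Subspace.biUnion_ne_univ_of_top_notMem`).
-/

set_option autoImplicit false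

namespace Fermat.Agent.BAD.H55

theorem stmt_Ratio : Fermat.Agent.BAD.Stmt_Ratio := by
  intro k _ _ n hn A A₀ B B₀ lam hA₀ h
  have hn0 : n ≠ 0 := by
    rintro rfl
    exact hn (by simp)
  -- the root of `A + t A₀`
  have h0 := h (-A / A₀)
  have e1 : A + -A / A₀ * A₀ = 0 := by field_simp; ring
  rw [e1, zero_pow hn0] at h0
  have hlam : lam ≠ 0 := by
    rintro rfl
    have h1 := h 0
    have h2 := h 1
    simp only [zero_mul, add_zero, one_mul] at h1 h2
    have hA : A = 0 := by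
      have := pow_eq_zero_iff hn0 |>.mp h1
      exact this
    have hAA : A + A₀ = 0 := pow_eq_zero_iff hn0 |>.mp h2
    rw [hA, zero_add] at hAA
    exact hA₀ hAA
  have h3 : (B + -A / A₀ * B₀) ^ n = 0 := by
    rcases mul_eq_zero.mp h0.symm with h4 | h4
    · exact absurd h4 hlam
    · exact h4
  have h4 : B + -A / A₀ * B₀ = 0 := pow_eq_zero_iff hn0 |>.mp h3
  have h5 : (B + -A / A₀ * B₀) * A₀ = B * A₀ - A * B₀ := by field_simp; ring
  rw [h4, zero_mul] at h5
  linear_combination h5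

theorem stmt_Avoid : Fermat.Agent.BAD.Stmt_Avoid := by
  classical
  intro k V _ _ _ _ ι s W hW
  have hs : (⊤ : Submodule k V) ∉ s.image W := by
    intro h
    obtain ⟨i, hi, hWi⟩ := Finset.mem_image.mp h
    exact hW i hi hWi
  have hne := Subspace.biUnion_ne_univ_of_top_notMem (k := k) (E := V) hs
  obtain ⟨v, hv⟩ := (Set.ne_univ_iff_exists_notMem _).mp hne
  refine ⟨v, fun i hi hvi => hv ?_⟩
  simp only [Set.mem_iUnion]
  exact ⟨W i, Finset.mem_image_of_mem W hi, hvi⟩

end Fermat.Agent.BAD.H55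

end
-- ==== END Fermat.Agent.BAD.H55_Alg

-- ==== BEGIN Fermat.Agent.BAD.H55_Eval
section

/-!
# Item 65, package ABS: leaf EVAL (helper55)

`stmt_Eval : Stmt_Eval`: at a place of degree one, the residue map composed with the inverse of
`k ≃ residue field` is a `k`-algebra homomorphism `O_v → k` whose fibre over `a` consists of the
functions `x` with `x - a` vanishing at the place.
-/

set_option autoImplicit false

noncomputable section

open AlgebraicCurve

namespace Fermat.Agent.BAD.H55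

open Fermat.Agent.RED.H17

variable {k F : Type} [Field k] [Field F] [Algebra k F]

/-- `k ≃ residue field` at a place of degree one. -/
def residueEquiv (v : Place k F) (hdeg : v.deg = 1) : k ≃ₐ[k] v.ResidueField :=
  AlgEquiv.ofBijective (Algebra.ofId k v.ResidueField)
    ⟨(algebraMap k v.ResidueField).injective, by
      have h1 : (⊥ : Subalgebra k v.ResidueField) = ⊤ :=
        Subalgebra.bot_eq_top_of_finrank_eq_one hdeg
      intro y
      have : y ∈ (⊥ : Subalgebra k v.ResidueField) := by rw [h1]; exact Algebra.mem_top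
      obtain ⟨a, ha⟩ := Algebra.mem_bot.mp this
      exact ⟨a, ha⟩⟩

/-- The evaluation map at a place of degree one. -/
def evalAt (v : Place k F) (hdeg : v.deg = 1) : v.toValuationSubring →ₐ[k] k :=
  (residueEquiv v hdeg).symm.toAlgHom.comp
    (IsScalarTower.toAlgHom k v.toValuationSubring v.ResidueField)

theorem evalAt_eq_iff (v : Place k F) (hdeg : v.deg = 1) (x : v.toValuationSubring) (a : k) :
    evalAt v hdeg x = a ↔ VanAt v ((x : F) - algebraMap k F a) := by
  have e1 : evalAt v hdeg x = a ↔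
      IsLocalRing.residue v.toValuationSubring x = algebraMap k v.ResidueField a := by
    have h0 : evalAt v hdeg x
        = (residueEquiv v hdeg).symm (IsLocalRing.residue v.toValuationSubring x) := rfl
    rw [h0]
    constructor
    · intro h
      have := congrArg (residueEquiv v hdeg) h
      rw [AlgEquiv.apply_symm_apply] at this
      exact this
    · intro h
      rw [h]
      exact (residueEquiv v hdeg).symm_apply_apply a
  rw [e1]
  have hmem' : (x : F) - algebraMap k F a ∈ v.toValuationSubring :=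
    v.toValuationSubring.sub_mem x.2 (v.algebraMap_mem' a)
  have h3 : (⟨(x : F) - algebraMap k F a, hmem'⟩ : v.toValuationSubring)
      = x - algebraMap k v.toValuationSubring a := by
    ext
    rfl
  have h4 := v.adicValuation_coe ⟨(x : F) - algebraMap k F a, hmem'⟩
  rw [show ((⟨(x : F) - algebraMap k F a, hmem'⟩ : v.toValuationSubring) : F)
    = (x : F) - algebraMap k F a from rfl] at h4
  unfold VanAt
  rw [h4, IsDedekindDomain.HeightOneSpectrum.intValuation_lt_one_iff_mem,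
    Place.heightOneSpectrum_asIdeal, ← IsLocalRing.residue_eq_zero_iff, h3, map_sub, sub_eq_zero]
  rfl

theorem stmt_Eval : Fermat.Agent.BAD.Stmt_Eval := by
  intro k F _ _ _ v hdeg
  exact ⟨evalAt v hdeg, fun x a => evalAt_eq_iff v hdeg x a⟩

end Fermat.Agent.BAD.H55

end
end
-- ==== END Fermat.Agent.BAD.H55_Eval

-- ==== BEGIN Fermat.Agent.BAD.H60_NS
section

/-!
# Item 65, package ABS, leaf P1 (helper60): `Stmt_NS` and `Stmt_LNeg`

* `H60.stmt_LNeg : Stmt_LNeg`: `L(G) = 0` if `deg G < 0`;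
* `H60.stmt_NS : Stmt_NS`: the general "non-special points" lemma: if `l(G) = l₀` and
  `deg G + m ≤ g - 1 + l₀`, then there are `m` distinct places `A` outside a given finite set
  with `l(G + ∑ A) = l₀`.
-/

set_option autoImplicit false
set_option linter.style.haveILetI false

noncomputable section

open AlgebraicCurve

attribute [local instance] Classical.propDecidable

namespace Fermat.Agent.BAD.H60

open Fermat.Agent.RED.H17

local notation "L" => riemannRochSpace

variable {k F : Type*} [Field k] [Field F] [Algebra k F]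

/-- The degree of an effective divisor is non-negative (all places of degree one). -/
theorem degree_nonneg_of_nonneg (hdeg : ∀ v : Place k F, v.deg = 1) (D : Divisor k F)
    (hD : ∀ v, 0 ≤ D v) : 0 ≤ Divisor.degree D := by
  rw [degree_eq_sum hdeg, Finsupp.sum]
  exact Finset.sum_nonneg fun v _ => hD v

/-- `L(G) = 0` if `deg G < 0`. -/
theorem L_eq_bot_of_degree_neg (H : FFHyp k F) (G : Divisor k F)
    (hG : Divisor.degree G < 0) : L G = ⊥ := by
  rw [eq_bot_iff]
  intro f hf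
  rw [Submodule.mem_bot]
  by_contra hf0
  haveI := H.principal
  obtain ⟨D, hD, hD0⟩ := HasPrincipalDivisors.exists_divisor (K := k) f hf0
  have h1 : 0 ≤ Divisor.degree (D + G) := by
    apply degree_nonneg_of_nonneg H.deg_one
    intro v
    have h2 := ord_ge_of_mem_L hf hf0 v
    rw [Finsupp.add_apply, hD v]
    omega
  rw [map_add, hD0, zero_add] at h1
  omega

theorem stmt_LNeg : Stmt_LNeg := by
  intro k F _ _ _ H G hG
  exact L_eq_bot_of_degree_neg H G hG

/-- One step of the search: either a good point outside `T`, or `N` bad points. -/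
theorem search_good [Infinite k] (H : FFHyp k F) (D : Divisor k F) (T : Finset (Place k F))
    (N : ℕ) :
    (∃ v, v ∉ T ∧ L (D + Finsupp.single v 1) ≤ L D) ∨
      ∃ B : Finset (Place k F), B.card = N ∧
        ∀ v ∈ B, ¬ (L (D + Finsupp.single v 1) ≤ L D) := by
  induction N with
  | zero => exact Or.inr ⟨∅, rfl, fun v hv => absurd hv (Finset.notMem_empty v)⟩
  | succ N ihN =>
    rcases ihN with h | ⟨B, hB, hbad⟩
    · exact Or.inl h
    obtain ⟨v, hv⟩ := H.exists_notMem (T ∪ B)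
    rw [Finset.mem_union, not_or] at hv
    by_cases hgood : L (D + Finsupp.single v 1) ≤ L D
    · exact Or.inl ⟨v, hv.1, hgood⟩
    · right
      refine ⟨insert v B, by rw [Finset.card_insert_of_notMem hv.2, hB], ?_⟩
      intro w hw
      rcases Finset.mem_insert.mp hw with rfl | hw
      · exact hgood
      · exact hbad w hw

/-- A good point: if `l(D) + deg-bound` holds, there is a place `v` outside `T` with
`L(D + v) = L(D)`. -/
theorem exists_good_point [Infinite k] (H : FFHyp k F) {g : ℕ} {c : ℤ}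
    (hR : IsGenus k F g c) (D : Divisor k F) (T : Finset (Place k F))
    (hD : Divisor.degree D + 1 < (g : ℤ) + Module.finrank k (L D)) :
    ∃ v, v ∉ T ∧ Module.finrank k (L (D + Finsupp.single v 1)) = Module.finrank k (L D) := by
  rcases search_good H D T (c - Divisor.degree D).toNat with ⟨v, hv, hgood⟩ | ⟨B, hB, hbad⟩
  · refine ⟨v, hv, le_antisymm ?_ ?_⟩
    · haveI := H.finite D
      exact Submodule.finrank_mono hgood
    · haveI := H.finite (D + Finsupp.single v 1)
      apply Submodule.finrank_mono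
      apply L_mono'
      intro w
      simp only [Finsupp.add_apply, Finsupp.single_apply]
      split_ifs <;> omega
  · exfalso
    have h1 := H.finrank_add_ptsDiv_ge D B hbad
    have hdeg : Divisor.degree (D + ptsDiv B) = Divisor.degree D + (c - Divisor.degree D).toNat := by
      rw [map_add, degree_ptsDiv H.deg_one, hB]
    have h2 := (hR (D + ptsDiv B)).2 (by rw [hdeg]; omega)
    rw [hdeg] at h2
    rw [hB] at h1
    omega

theorem exists_nonspecial_general [Infinite k] (H : FFHyp k F) {g : ℕ} {c : ℤ}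
    (hR : IsGenus k F g c) (G : Divisor k F) (T : Finset (Place k F)) (m l₀ : ℕ)
    (hl : Module.finrank k (L G) = l₀) (hdeg : Divisor.degree G + m ≤ (g : ℤ) - 1 + l₀) :
    ∃ A : Finset (Place k F), A.card = m ∧ Disjoint A T ∧
      Module.finrank k (L (G + ptsDiv A)) = l₀ := by
  have key : ∀ j : ℕ, j ≤ m → ∃ A : Finset (Place k F), A.card = j ∧ Disjoint A T ∧
      Module.finrank k (L (G + ptsDiv A)) = l₀ := by
    intro j
    induction j with
    | zero =>
      intro _
      exact ⟨∅, rfl, Finset.disjoint_empty_left T, by rw [ptsDiv_empty, add_zero]; exact hl⟩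
    | succ j ih =>
      intro hj
      obtain ⟨A, hA, hAT, hlA⟩ := ih (by omega)
      have hdegA : Divisor.degree (G + ptsDiv A) = Divisor.degree G + j := by
        rw [map_add, degree_ptsDiv H.deg_one, hA]
      obtain ⟨v, hv, hlv⟩ := exists_good_point H hR (G + ptsDiv A) (A ∪ T) (by
        rw [hdegA, hlA]
        have : (j : ℤ) + 1 ≤ m := by exact_mod_cast hj
        omega)
      rw [Finset.mem_union, not_or] at hv
      refine ⟨insert v A, by rw [Finset.card_insert_of_notMem hv.1, hA], ?_, ?_⟩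
      · rw [Finset.disjoint_insert_left]
        exact ⟨hv.2, hAT⟩
      · rw [ptsDiv_insert hv.1, ← add_assoc, hlv, hlA]
  exact key m le_rfl

theorem stmt_NS : Stmt_NS := by
  intro k F _ _ _ _ H g c hR G T m l₀ hl hdeg
  exact exists_nonspecial_general H hR G T m l₀ hl hdeg

end Fermat.Agent.BAD.H60

end
end
-- ==== END Fermat.Agent.BAD.H60_NS

-- ==== BEGIN Fermat.Agent.Betti.H21_BasisGe
section

/-!
# TORSLIFT, package BASIS (helper21): the universal basis has at least `2 dim S₂` elements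

`exists_basis_ge N` : there are `r` and `b : Fin r → Hom(Γ₀(N), ℤ)` with `IsParBasis N b` and
`2 * finrank ℂ S₂(Γ₀(N)) ≤ r`.

Proof: `IsParBasis` at `A = ℂ` gives a linear equivalence `ℂ^r ≃ Hom_par(Γ₀(N), ℂ)`, and
`2 dim S₂ ≤ dim Hom_par(Γ₀(N), ℂ)` is the injectivity of the Eichler–Shimura map (S21).
-/

set_option autoImplicit false

noncomputable section

namespace Fermat.Agent.Betti.H21

open CongruenceSubgroup ModularCurve ModularCurve.Period Fermat.Agent.Betti
open scoped MatrixGroups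

variable {N : ℕ} {r : ℕ}

/-- The homomorphism `γ ↦ ∑ i, b i γ • a i`. -/
def combC (b : Fin r → (Additive (Gamma0 N) →+ ℤ)) (a : Fin r → ℂ) : Additive (Gamma0 N) →+ ℂ :=
  ∑ i, (zmultiplesHom ℂ (a i)).comp (b i)

theorem combC_apply (b : Fin r → (Additive (Gamma0 N) →+ ℤ)) (a : Fin r → ℂ)
    (γ : Additive (Gamma0 N)) : combC b a γ = ∑ i, b i γ • a i := by
  simp [combC]

theorem combC_parabolic {b : Fin r → (Additive (Gamma0 N) →+ ℤ)}
    (hb : ∀ i, IsParabolicHom (Gamma0 N) (b i)) (a : Fin r → ℂ) :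
    IsParabolicHom (Gamma0 N) (combC b a) := by
  intro γ hγ
  rw [combC_apply]
  exact Finset.sum_eq_zero fun i _ => by rw [hb i γ hγ, zero_smul]

/-- The linear map `ℂ^r → Hom_par(Γ₀(N), ℂ)`. -/
def combLin (b : Fin r → (Additive (Gamma0 N) →+ ℤ))
    (hb : ∀ i, IsParabolicHom (Gamma0 N) (b i)) :
    (Fin r → ℂ) →ₗ[ℂ] parabolicHoms ℂ (Gamma0 N) ℂ where
  toFun a := ⟨combC b a, combC_parabolic hb a⟩
  map_add' a a' := by
    apply Subtype.ext
    refine AddMonoidHom.ext fun γ => ?_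
    show combC b (a + a') γ = combC b a γ + combC b a' γ
    simp only [combC_apply, Pi.add_apply, smul_add, Finset.sum_add_distrib]
  map_smul' c a := by
    apply Subtype.ext
    refine AddMonoidHom.ext fun γ => ?_
    show combC b (c • a) γ = c • combC b a γ
    simp only [combC_apply, Pi.smul_apply, smul_eq_mul, Finset.mul_sum, zsmul_eq_mul]
    refine Finset.sum_congr rfl fun i _ => ?_
    ring

theorem combLin_bijective {b : Fin r → (Additive (Gamma0 N) →+ ℤ)} (hb : IsParBasis N b) :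
    Function.Bijective (combLin b hb.1) := by
  constructor
  · intro a a' h
    have h1 : ∀ γ, combC b a γ = ∑ i, b i γ • a' i := by
      intro γ
      have := congrArg (fun f : parabolicHoms ℂ (Gamma0 N) ℂ => (f : Additive (Gamma0 N) →+ ℂ) γ) h
      rw [← combC_apply]
      exact this
    obtain ⟨a₀, -, huniq⟩ := hb.2 ℂ (combC b a) (combC_parabolic hb.1 a)
    rw [huniq a (combC_apply b a), huniq a' h1]
  · rintro ⟨φ, hφ⟩
    obtain ⟨a, ha, -⟩ := hb.2 ℂ φ hφ
    refine ⟨a, Subtype.ext (AddMonoidHom.ext fun γ => ?_)⟩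
    show combC b a γ = φ γ
    rw [combC_apply, ha γ]

/-- **BASIS**: a universal basis with at least `2 dim S₂(Γ₀(N))` elements. -/
theorem exists_basis_ge (N : ℕ) [NeZero N] :
    ∃ (r : ℕ) (b : Fin r → (Additive (Gamma0 N) →+ ℤ)), IsParBasis N b ∧
      2 * Module.finrank ℂ (CuspForm (Gamma0 N) 2) ≤ r := by
  obtain ⟨r, b, hb⟩ := stmt_basis N
  refine ⟨r, b, hb, ?_⟩
  let e : (Fin r → ℂ) ≃ₗ[ℂ] parabolicHoms ℂ (Gamma0 N) ℂ :=
    LinearEquiv.ofBijective (combLin b hb.1) (combLin_bijective hb)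
  have hfin : Module.Finite ℂ (parabolicHoms ℂ (Gamma0 N) ℂ) := Module.Finite.equiv e
  have hr : Module.finrank ℂ (parabolicHoms ℂ (Gamma0 N) ℂ) = r := by
    rw [← e.finrank_eq, Module.finrank_pi, Fintype.card_fin]
  have := Fermat.Agent.S21.two_mul_finrank_cuspForm_le N
  rw [hr] at this
  exact this

end Fermat.Agent.Betti.H21

end
end
-- ==== END Fermat.Agent.Betti.H21_BasisGe

-- ==== BEGIN Fermat.Agent.Betti.H41_TorsLiftOfCount
section

/-!
# TORSLIFT from a count mod primes (helper41)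

`H41.torsLift_of_count` : if `b` is a universal basis of the parabolic homomorphisms of `Γ₀(N)`
(`IsParBasis N b`, exists by `stmt_basis`) with `r` elements and for every prime `ℓ` there are at
most `ℓ ^ r` homomorphisms `Γ₀(N) → ℤ/ℓ` vanishing on the elements with `trace ^ 2 ≤ 4`, then
`Stmt_TorsLift N n` holds for every `n`.

`H41.torsLift_of_inj` : the same with the count given by injective maps into `Fin r → ZMod ℓ`.
-/

set_option autoImplicit false

namespace Fermat.Agent.Betti.H41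

open CongruenceSubgroup ModularCurve ModularCurve.Period
open scoped MatrixGroups

/-- The elements of `Γ₀(N)` (additive notation) with `trace ^ 2 ≤ 4`. -/
def smallTrace (N : ℕ) : Set (Additive (Gamma0 N)) :=
  {x | (((Additive.toMul x : Gamma0 N) : SL(2, ℤ)) : Matrix (Fin 2) (Fin 2) ℤ).trace ^ 2 ≤ 4}

/-- A homomorphism `Γ₀(N) → ℤ` kills the elements with `trace ^ 2 < 4` (they have finite
order). -/
theorem hom_int_kills_elliptic (N : ℕ) (φ : Additive (Gamma0 N) →+ ℤ) (γ : Gamma0 N)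
    (h : ((γ : SL(2, ℤ)) : Matrix (Fin 2) (Fin 2) ℤ).trace ^ 2 < 4) :
    φ (Additive.ofMul γ) = 0 := by
  have h12 : γ ^ 12 = 1 := by
    apply Subtype.ext
    rw [Subgroup.coe_pow, Subgroup.coe_one]
    exact Fermat.Agent.S16.H38.pow_twelve_eq_one_of_trace _ h
  have h1 : (12 : ℕ) • φ (Additive.ofMul γ) = 0 := by
    rw [← map_nsmul, ← ofMul_pow, h12, ofMul_one, map_zero]
  simpa using h1

theorem isBasisKilling_of_isParBasis (N : ℕ) {r : ℕ} {b : Fin r → (Additive (Gamma0 N) →+ ℤ)}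
    (hb : IsParBasis N b) : IsBasisKilling (smallTrace N) b := by
  obtain ⟨hpar, huniv⟩ := hb
  refine ⟨fun i x hx => ?_, fun φ hφ => ?_, fun a ha => ?_⟩
  · have hx' : (((Additive.toMul x : Gamma0 N) : SL(2, ℤ)) :
        Matrix (Fin 2) (Fin 2) ℤ).trace ^ 2 ≤ 4 := hx
    rcases lt_or_eq_of_le hx' with h | h
    · exact hom_int_kills_elliptic N (b i) (Additive.toMul x) h
    · exact hpar i (Additive.toMul x) h
  · have hφpar : IsParabolicHom (Gamma0 N) φ := fun γ hγ => hφ (Additive.ofMul γ) (le_of_eq hγ)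
    obtain ⟨a, ha, -⟩ := huniv ℤ φ hφpar
    refine ⟨a, fun x => ?_⟩
    rw [ha x]
    exact Finset.sum_congr rfl fun i _ => by rw [smul_eq_mul, mul_comm]
  · obtain ⟨a₀, -, huniq⟩ := huniv ℤ 0 (fun _ _ => rfl)
    have h1 : a = a₀ := huniq a (fun x => by
      rw [AddMonoidHom.zero_apply, ← ha x]
      exact Finset.sum_congr rfl fun i _ => by rw [smul_eq_mul, mul_comm])
    have h2 : (0 : Fin r → ℤ) = a₀ := huniq 0 (fun x => by simp)
    rw [h1, ← h2]

/-- Homomorphisms from a finitely generated group to a finite group: finitely many. -/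
theorem finite_hom_of_fg (Q : Type) [AddGroup Q] [AddGroup.FG Q] (A : Type) [AddCommGroup A]
    [Finite A] : Finite (Q →+ A) := by
  obtain ⟨s, hs, hfin⟩ := AddGroup.fg_iff.mp (inferInstance : AddGroup.FG Q)
  have : Finite s := hfin
  let ev : (Q →+ A) → (s → A) := fun φ x => φ x
  refine Finite.of_injective ev ?_
  intro φ ψ h
  refine AddMonoidHom.eq_of_eqOn_dense hs ?_
  intro x hx
  exact congrFun h ⟨x, hx⟩

theorem finite_killMod (N : ℕ) [NeZero N] (ℓ : ℕ) [NeZero ℓ] :
    Finite (KillMod (smallTrace N) ℓ) := by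
  have : Group.FG (Gamma0 N) := fg_Gamma0 N
  have : AddGroup.FG (Additive (Gamma0 N)) := inferInstance
  have : Finite (Additive (Gamma0 N) →+ ZMod ℓ) := finite_hom_of_fg _ _
  exact Subtype.finite

/-- **TORSLIFT from the count mod primes.** -/
theorem torsLift_of_count (N : ℕ) [NeZero N] {r : ℕ} {b : Fin r → (Additive (Gamma0 N) →+ ℤ)}
    (hb : IsParBasis N b)
    (hcount : ∀ ℓ : ℕ, ℓ.Prime → Nat.card (KillMod (smallTrace N) ℓ) ≤ ℓ ^ r) (n : ℕ) :
    Fermat.Agent.S16.Stmt_TorsLift N n := by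
  intro χ hχ
  have hB := isBasisKilling_of_isParBasis N hb
  obtain ⟨φ, hφ, hφχ⟩ := exists_lift hB (fun ℓ hℓ =>
    ⟨haveI : NeZero ℓ := ⟨hℓ.ne_zero⟩; finite_killMod N ℓ, hcount ℓ hℓ⟩) n χ
    (fun x hx => hχ (Additive.toMul x) hx)
  exact ⟨φ, fun γ hγ => hφ (Additive.ofMul γ) (le_of_eq hγ), fun γ => hφχ (Additive.ofMul γ)⟩

/-- **TORSLIFT from the count mod primes**, the count being given by injections into
`(ℤ/ℓ)^r`. -/
theorem torsLift_of_inj (N : ℕ) [NeZero N] {r : ℕ} {b : Fin r → (Additive (Gamma0 N) →+ ℤ)}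
    (hb : IsParBasis N b)
    (hinj : ∀ ℓ : ℕ, ℓ.Prime →
      ∃ f : KillMod (smallTrace N) ℓ → (Fin r → ZMod ℓ), Function.Injective f) (n : ℕ) :
    Fermat.Agent.S16.Stmt_TorsLift N n := by
  refine torsLift_of_count N hb (fun ℓ hℓ => ?_) n
  obtain ⟨f, hf⟩ := hinj ℓ hℓ
  have : NeZero ℓ := ⟨hℓ.ne_zero⟩
  have h1 := Nat.card_le_card_of_injective f hf
  have h6 : Nat.card (Fin r → ZMod ℓ) = ℓ ^ r := by
    rw [Nat.card_eq_fintype_card, Fintype.card_fun, ZMod.card, Fintype.card_fin]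
  rwa [h6] at h1

end Fermat.Agent.Betti.H41

end
-- ==== END Fermat.Agent.Betti.H41_TorsLiftOfCount

-- ==== BEGIN Fermat.Agent.Betti.H77_CocK
section

/-!
# Shapiro cocycles with coefficients in an arbitrary field (helper77, package TORSLIFT)

`K`-valued version of `Fermat.Agent.S21.H75` (which works over `ℂ`): for a subgroup `Γ` of a group
`G` and a homomorphism `φ : Γ → K` the cocycle `cocK φ : G → ((G ⧸ Γ) → K)`.
-/

set_option autoImplicit false
set_option linter.unusedSectionVars false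

namespace Fermat.Agent.Betti.H77

open Module
open Fermat.Agent.S21.H75 (kappa kappa_coe kappa_mul out_base_mem)

variable (K : Type*) [Field K] {G : Type*} [Group G] (Γ : Subgroup G)

/-- precomposition with the action of `g` on `G ⧸ Γ` -/
noncomputable def RK (g : G) : ((G ⧸ Γ) → K) →ₗ[K] ((G ⧸ Γ) → K) :=
  LinearMap.funLeft K K (fun q => g • q)

@[simp] lemma RK_apply (g : G) (v : (G ⧸ Γ) → K) (q : G ⧸ Γ) : RK K Γ g v q = v (g • q) := rfl

lemma RK_mul (g h : G) : RK K Γ (g * h) = RK K Γ h * RK K Γ g := by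
  ext v q
  simp [mul_smul]

lemma RK_one : RK K Γ (1 : G) = 1 := by
  ext v q
  simp

/-- the cocycle attached to `φ : Γ → K` -/
noncomputable def cocK (φ : Additive Γ →+ K) (g : G) : (G ⧸ Γ) → K :=
  fun q => φ (Additive.ofMul (kappa Γ g q))

lemma cocK_apply (φ : Additive Γ →+ K) (g : G) (q : G ⧸ Γ) :
    cocK K Γ φ g q = φ (Additive.ofMul (kappa Γ g q)) := rfl

/-- coboundary of `v` -/
noncomputable def cobK (v : (G ⧸ Γ) → K) (g : G) : (G ⧸ Γ) → K := RK K Γ g v - v

lemma cobK_apply (v : (G ⧸ Γ) → K) (g : G) (q : G ⧸ Γ) :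
    cobK K Γ v g q = v (g • q) - v q := rfl

/-- A (right) cocycle `c : G → V`: `c (g h) = R_h (c g) + c h`. -/
def IsCocK (c : G → ((G ⧸ Γ) → K)) : Prop :=
  ∀ g h : G, c (g * h) = RK K Γ h (c g) + c h

lemma isCocK_cocK (φ : Additive Γ →+ K) : IsCocK K Γ (cocK K Γ φ) := by
  intro g h
  ext q
  simp only [cocK_apply, Pi.add_apply, RK_apply, kappa_mul, ofMul_mul, map_add]

lemma isCocK_cobK (v : (G ⧸ Γ) → K) : IsCocK K Γ (cobK K Γ v) := by
  intro g h
  simp only [cobK, RK_mul, Module.End.mul_apply, map_sub]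
  abel

lemma IsCocK.add {c d : G → ((G ⧸ Γ) → K)} (hc : IsCocK K Γ c) (hd : IsCocK K Γ d) :
    IsCocK K Γ (c + d) := by
  intro g h
  simp only [Pi.add_apply, hc g h, hd g h, map_add]
  abel

variable {K Γ}

lemma IsCocK.map_one {c : G → ((G ⧸ Γ) → K)} (hc : IsCocK K Γ c) : c 1 = 0 := by
  have h := hc 1 1
  rw [mul_one, RK_one, Module.End.one_apply] at h
  simpa using h

lemma IsCocK.map_inv {c : G → ((G ⧸ Γ) → K)} (hc : IsCocK K Γ c) (g : G) :
    c g⁻¹ = - RK K Γ g⁻¹ (c g) := by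
  have h := hc g g⁻¹
  rw [mul_inv_cancel, hc.map_one] at h
  exact eq_neg_of_add_eq_zero_right h.symm

/-- the value of a cocycle at `g ^ n` is the sum along the `g`-path -/
lemma IsCocK.map_pow_apply {c : G → ((G ⧸ Γ) → K)} (hc : IsCocK K Γ c) (g : G) (n : ℕ)
    (q : G ⧸ Γ) : c (g ^ n) q = ∑ i ∈ Finset.range n, c g ((g ^ i) • q) := by
  induction n with
  | zero => simp [hc.map_one]
  | succ n ih =>
    rw [pow_succ', hc g (g ^ n), Pi.add_apply, RK_apply, ih, Finset.sum_range_succ]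
    abel

/-- a cocycle vanishing on a generating set vanishes identically -/
lemma IsCocK.eq_zero_of_closure {c : G → ((G ⧸ Γ) → K)} (hc : IsCocK K Γ c) {s : Set G}
    (hs : Subgroup.closure s = ⊤) (h0 : ∀ g ∈ s, c g = 0) (g : G) : c g = 0 := by
  have hg : g ∈ Subgroup.closure s := by rw [hs]; trivial
  induction hg using Subgroup.closure_induction with
  | mem x hx => exact h0 x hx
  | one => exact hc.map_one
  | mul x y _ _ hx hy => rw [hc x y, hx, hy, map_zero, add_zero]
  | inv x _ hx => rw [hc.map_inv, hx, map_zero, neg_zero]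

variable (K Γ)

lemma cocK_add (φ ψ : Additive Γ →+ K) (g : G) :
    cocK K Γ (φ + ψ) g = cocK K Γ φ g + cocK K Γ ψ g := rfl

lemma cocK_smul (a : K) (φ : Additive Γ →+ K) (g : G) :
    cocK K Γ (a • φ) g = a • cocK K Γ φ g := rfl

lemma cobK_add (v w : (G ⧸ Γ) → K) (g : G) :
    cobK K Γ (v + w) g = cobK K Γ v g + cobK K Γ w g := by
  simp only [cobK, map_add]; abel

lemma cobK_smul (a : K) (v : (G ⧸ Γ) → K) (g : G) :
    cobK K Γ (a • v) g = a • cobK K Γ v g := by
  simp only [cobK, map_smul, smul_sub]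

/-- the total cocycle `coc φ + cob v` evaluated at `g`, as a linear map in `(φ, v)` -/
noncomputable def evalK (g : G) :
    ((Additive Γ →+ K) × ((G ⧸ Γ) → K)) →ₗ[K] ((G ⧸ Γ) → K) where
  toFun p := cocK K Γ p.1 g + cobK K Γ p.2 g
  map_add' p p' := by
    simp only [Prod.fst_add, Prod.snd_add, cocK_add, cobK_add]; abel
  map_smul' a p := by
    simp only [Prod.smul_fst, Prod.smul_snd, cocK_smul, cobK_smul, smul_add, RingHom.id_apply]

lemma evalK_apply (g : G) (p : (Additive Γ →+ K) × ((G ⧸ Γ) → K)) :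
    evalK K Γ g p = cocK K Γ p.1 g + cobK K Γ p.2 g := rfl

lemma isCocK_evalK (p : (Additive Γ →+ K) × ((G ⧸ Γ) → K)) :
    IsCocK K Γ (fun g => evalK K Γ g p) :=
  (isCocK_cocK K Γ p.1).add K Γ (isCocK_cobK K Γ p.2)

/-- Shapiro: evaluating the total cocycle at `γ ∈ Γ` and the base coset recovers `φ γ`. -/
lemma evalK_base (p : (Additive Γ →+ K) × ((G ⧸ Γ) → K)) (γ : Γ) :
    evalK K Γ (γ : G) p (QuotientGroup.mk 1) = p.1 (Additive.ofMul γ) := by
  have hfix : (γ : G) • (QuotientGroup.mk 1 : G ⧸ Γ) = QuotientGroup.mk 1 := by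
    rw [← QuotientGroup.mk_mul_of_mem (1 : G) γ.2]
    simp [MulAction.Quotient.smul_mk]
  have hk : kappa Γ (γ : G) (QuotientGroup.mk 1)
      = ⟨_, out_base_mem Γ⟩⁻¹ * γ * ⟨_, out_base_mem Γ⟩ := by
    apply Subtype.ext
    simp only [kappa_coe, hfix, Subgroup.coe_mul, Subgroup.coe_inv, mul_assoc]
  rw [evalK_apply, Pi.add_apply, cocK_apply, hk]
  simp only [cobK, Pi.sub_apply, RK_apply, hfix, sub_self, add_zero, ofMul_mul, ofMul_inv,
    map_add, map_neg]
  abel

/-- If the total cocycle vanishes at generators, then `φ = 0` and `v` is `G`-invariant. -/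
lemma evalK_eq_zero_of_gen {s : Set G} (hs : Subgroup.closure s = ⊤)
    (p : (Additive Γ →+ K) × ((G ⧸ Γ) → K)) (h0 : ∀ g ∈ s, evalK K Γ g p = 0) :
    p.1 = 0 ∧ ∀ q q' : G ⧸ Γ, p.2 q = p.2 q' := by
  have hall : ∀ g, evalK K Γ g p = 0 :=
    fun g => (isCocK_evalK K Γ p).eq_zero_of_closure hs h0 g
  have h1 : p.1 = 0 := by
    ext γ
    have := evalK_base K Γ p (Additive.toMul γ)
    rw [hall] at this
    exact this.symm
  refine ⟨h1, fun q q' => ?_⟩
  obtain ⟨g, rfl⟩ := MulAction.exists_smul_eq G q' q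
  have := congrFun (hall g) q'
  rw [evalK_apply, h1] at this
  simp only [cobK, Pi.add_apply, Pi.sub_apply, RK_apply, Pi.zero_apply] at this
  have h2 : cocK K Γ 0 g q' = 0 := rfl
  rw [h2, zero_add] at this
  exact sub_eq_zero.mp this

section SumZero

variable [Fintype (G ⧸ Γ)]

/-- the sum functional on `(G ⧸ Γ) → K` -/
noncomputable def sumK : ((G ⧸ Γ) → K) →ₗ[K] K :=
  ∑ q : G ⧸ Γ, LinearMap.proj q

lemma sumK_apply (v : (G ⧸ Γ) → K) : sumK K Γ v = ∑ q, v q := by
  simp [sumK, LinearMap.sum_apply]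

omit [Fintype (G ⧸ Γ)] in
/-- `R_g w - w` lies in `range (R_S - 1) ⊔ range (R_U - 1)` whenever `S, U` generate. -/
lemma RK_sub_mem_sup {S U : G} (hgen : Subgroup.closure {S, U} = ⊤) (g : G)
    (w : (G ⧸ Γ) → K) :
    RK K Γ g w - w ∈ LinearMap.range (RK K Γ S - 1) ⊔ LinearMap.range (RK K Γ U - 1) := by
  have hg : g ∈ Subgroup.closure {S, U} := by rw [hgen]; trivial
  induction hg using Subgroup.closure_induction generalizing w with
  | mem x hx =>
    rcases hx with rfl | rfl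
    · exact Submodule.mem_sup_left ⟨w, rfl⟩
    · exact Submodule.mem_sup_right ⟨w, rfl⟩
  | one => simp [RK_one]
  | mul x y _ _ hx hy =>
    have : RK K Γ (x * y) w - w = (RK K Γ y (RK K Γ x w) - RK K Γ x w) + (RK K Γ x w - w) := by
      rw [RK_mul, Module.End.mul_apply]; abel
    rw [this]
    exact Submodule.add_mem _ (hy _) (hx _)
  | inv x _ hx =>
    have h1 : RK K Γ x (RK K Γ x⁻¹ w) = w := by
      rw [← Module.End.mul_apply, ← RK_mul, inv_mul_cancel, RK_one, Module.End.one_apply]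
    have : RK K Γ x⁻¹ w - w = -(RK K Γ x (RK K Γ x⁻¹ w) - RK K Γ x⁻¹ w) := by
      rw [h1]; abel
    rw [this]
    exact Submodule.neg_mem _ (hx _)

lemma single_sub_single_mem_supK [DecidableEq (G ⧸ Γ)] {S U : G}
    (hgen : Subgroup.closure {S, U} = ⊤) (q q₀ : G ⧸ Γ) :
    (Pi.single q (1 : K) - Pi.single q₀ (1 : K) : (G ⧸ Γ) → K) ∈
      LinearMap.range (RK K Γ S - 1) ⊔ LinearMap.range (RK K Γ U - 1) := by
  obtain ⟨g, hg⟩ := MulAction.exists_smul_eq G q q₀
  have : (Pi.single q (1 : K) : (G ⧸ Γ) → K) = RK K Γ g (Pi.single q₀ (1 : K)) := by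
    ext q'
    simp only [RK_apply, Pi.single_apply]
    have : q' = q ↔ g • q' = q₀ := by
      rw [← hg]
      exact ⟨fun h => by rw [h], fun h => MulAction.injective g h⟩
    simp only [this]
  rw [this]
  exact RK_sub_mem_sup K Γ hgen g _

/-- Sum-zero vectors lie in `range (R_S - 1) ⊔ range (R_U - 1)`. -/
lemma ker_sumK_le_sup {S U : G} (hgen : Subgroup.closure {S, U} = ⊤) :
    LinearMap.ker (sumK K Γ) ≤
      LinearMap.range (RK K Γ S - 1) ⊔ LinearMap.range (RK K Γ U - 1) := by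
  classical
  intro v hv
  rw [LinearMap.mem_ker, sumK_apply] at hv
  let q₀ : G ⧸ Γ := QuotientGroup.mk 1
  have hv' : v = ∑ q, v q • (Pi.single q (1 : K) - Pi.single q₀ (1 : K) : (G ⧸ Γ) → K) := by
    simp only [smul_sub, Finset.sum_sub_distrib, ← Finset.sum_smul, hv, zero_smul, sub_zero]
    ext q'
    simp [Finset.sum_apply, Pi.single_apply]
  rw [hv']
  exact Submodule.sum_mem _ fun q _ =>
    Submodule.smul_mem _ _ (single_sub_single_mem_supK K Γ hgen q q₀)

/-- invariance under `g` propagates to the cyclic group generated by `g` -/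
lemma apply_smul_of_mem_zpowersK {g : G} {v : (G ⧸ Γ) → K} (hv : ∀ q, v (g • q) = v q)
    {h : G} (hh : h ∈ Subgroup.zpowers g) (q : G ⧸ Γ) : v (h • q) = v q := by
  obtain ⟨n, rfl⟩ := Subgroup.mem_zpowers_iff.mp hh
  clear hh
  have hinv : ∀ q, v (g⁻¹ • q) = v q := fun q => by
    have := hv (g⁻¹ • q)
    rw [smul_inv_smul] at this
    exact this.symm
  induction n using Int.induction_on generalizing q with
  | zero => simp
  | succ n ih =>
    rw [zpow_add_one, mul_smul, ih, hv]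
  | pred n ih =>
    rw [zpow_sub_one, mul_smul, ih, hinv]

/-- `dim ker (R_g - 1)` is the number of orbits of `⟨g⟩` on `G ⧸ Γ`. -/
theorem finrank_ker_RK_sub_one (g : G) :
    finrank K (LinearMap.ker (RK K Γ g - 1)) =
      Nat.card (MulAction.orbitRel.Quotient (Subgroup.zpowers g) (G ⧸ Γ)) := by
  classical
  let π : (G ⧸ Γ) → MulAction.orbitRel.Quotient (Subgroup.zpowers g) (G ⧸ Γ) :=
    Quotient.mk''
  have hπ : Function.Surjective π := Quotient.mk''_surjective
  let F : (MulAction.orbitRel.Quotient (Subgroup.zpowers g) (G ⧸ Γ) → K) →ₗ[K]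
      ((G ⧸ Γ) → K) := LinearMap.funLeft K K π
  have hF : Function.Injective F := LinearMap.funLeft_injective_of_surjective K K π hπ
  have hrange : LinearMap.range F = LinearMap.ker (RK K Γ g - 1) := by
    apply le_antisymm
    · rintro _ ⟨f, rfl⟩
      rw [LinearMap.mem_ker, LinearMap.sub_apply, Module.End.one_apply, sub_eq_zero]
      funext q
      show f (π (g • q)) = f (π q)
      congr 1
      apply Quotient.sound'
      exact ⟨⟨g, Subgroup.mem_zpowers g⟩, rfl⟩
    · intro v hv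
      rw [LinearMap.mem_ker, LinearMap.sub_apply, Module.End.one_apply, sub_eq_zero] at hv
      have hv' : ∀ q, v (g • q) = v q := fun q => congrFun hv q
      refine ⟨Quotient.lift v ?_, ?_⟩
      · rintro a b ⟨⟨h, hh⟩, rfl⟩
        exact apply_smul_of_mem_zpowersK K Γ hv' hh b
      · funext q
        rfl
  have : Finite (MulAction.orbitRel.Quotient (Subgroup.zpowers g) (G ⧸ Γ)) :=
    Finite.of_surjective π hπ
  let _ := Fintype.ofFinite (MulAction.orbitRel.Quotient (Subgroup.zpowers g) (G ⧸ Γ))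
  rw [← hrange, LinearMap.finrank_range_of_inj hF, Module.finrank_fintype_fun_eq_card,
    Nat.card_eq_fintype_card]

end SumZero

end Fermat.Agent.Betti.H77

end
-- ==== END Fermat.Agent.Betti.H77_CocK

-- ==== BEGIN Fermat.Agent.GTor.Clo.AsmDegree
section

/-!
# S24 assembly (WP ASM-Degree): from a `ModClosure N` to `[F_N : Q̄(j)] = ψ(N)`

Let `M : ModClosure N`, `x = jF N`, `G = Gal (M.L / M.E)`, `H = Gal (M.L / F_N)`.
* `M.t` is transcendental and generates `M.E`, so `M.E ≃ Q̄(x)` and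
  `[F_N : Q̄(x)] = [F_N : M.E] = |G ⧸ H| = |SL(2, ℤ) ⧸ Γ₀(N)| = ψ(N)`
  (`M.π_surjective`, `M.π_comap`, `h1_quotEquiv`, `G1_card`).
* zeros of `x - a`: `gc_card_zeros` for the generator `M.t - a` of `M.E`, the valuation `M.w τ`
  with `jAn τ = ι a` (`jAn_surjective`; `τ = ρ` for `a = 0`, `τ = i` for `a = 1728`) and
  `σ = M.π γ`, `γ = S * T`, `S`, `1` respectively (`h27_ST_smul_rho`, `h27_S_smul_I`, `M.w_π`);
  `jOrd τ ≤ orderOf σ` because `γ, γ ^ 2 ∉ Γ₀(N)` for `1 < N` (`M.π_comap`); then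
  `gc_orbits_transfer`.
* poles of `x`: `gc_card_zeros` for the generator `(M.t)⁻¹`, `M.winf`, `σ = M.π T`;
  `N ≤ orderOf (M.π T)` because `S * T ^ k * S⁻¹ ∈ Γ₀(N)` iff `N ∣ k`.

WP ASM-Degree (helper59): all statements of this file are proved.
-/

set_option autoImplicit false

noncomputable section

namespace Fermat.Agent.GTor.Clo

open Fermat.Agent.S24

open CongruenceSubgroup ModularGroup ModularCurve AlgebraicCurve IntermediateField
open scoped MatrixGroups

attribute [local instance] ModClosure.instFieldE ModClosure.instField ModClosure.instAlgKE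
  ModClosure.instAlgK ModClosure.instAlgEF ModClosure.instAlgF ModClosure.instAlgE
  ModClosure.towerKEF ModClosure.towerKFL ModClosure.towerEFL ModClosure.towerKEL
  ModClosure.finite ModClosure.galois

variable {N : ℕ} [NeZero N]

/-- The generator `t` of `M.E` is not a constant. -/
theorem asm_t_ne_algebraMap (M : _root_.Fermat.Agent.GTor.Clo.ModClosure N) (c : _root_.Fermat.Agent.GTor.Clo.Kbar) : M.t ≠ algebraMap _root_.Fermat.Agent.GTor.Clo.Kbar M.E c := by
  intro h
  have hw := M.winf_j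
  have hN : (0 : ℤ) < N := by exact_mod_cast Nat.pos_of_ne_zero (NeZero.ne N)
  have hlt : WithZero.exp (-(N : ℤ)) < 1 := by
    rw [← WithZero.exp_zero, WithZero.exp_lt_exp]; omega
  rcases eq_or_ne c 0 with rfl | hc
  · rw [h, map_zero, inv_zero, map_zero, map_zero] at hw
    exact WithZero.exp_ne_zero hw.symm
  · have h1 : algebraMap M.E M.L (M.t)⁻¹ = algebraMap _root_.Fermat.Agent.GTor.Clo.Kbar M.L c⁻¹ := by
      rw [h, ← map_inv₀, ← IsScalarTower.algebraMap_apply]
    rw [h1, M.winf_algebraMap _ (inv_ne_zero hc)] at hw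
    rw [← hw] at hlt
    exact lt_irrefl _ hlt

theorem asm_transcendental_t (M : _root_.Fermat.Agent.GTor.Clo.ModClosure N) : Transcendental _root_.Fermat.Agent.GTor.Clo.Kbar M.t := by
  intro halg
  have hint : IsIntegral _root_.Fermat.Agent.GTor.Clo.Kbar M.t := halg.isIntegral
  have hdeg1 : (minpoly _root_.Fermat.Agent.GTor.Clo.Kbar M.t).degree = 1 :=
    IsAlgClosed.degree_eq_one_of_irreducible _root_.Fermat.Agent.GTor.Clo.Kbar (minpoly.irreducible hint)
  obtain ⟨a, ha⟩ := minpoly.mem_range_of_degree_eq_one _root_.Fermat.Agent.GTor.Clo.Kbar M.t hdeg1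
  exact _root_.Fermat.Agent.GTor.Clo.asm_t_ne_algebraMap M a ha.symm

theorem asm_transcendental_jF (M : _root_.Fermat.Agent.GTor.Clo.ModClosure N) : Transcendental _root_.Fermat.Agent.GTor.Clo.Kbar (_root_.Fermat.Agent.GTor.Clo.jF N) := by
  rw [← M.t_map]
  exact (transcendental_algebraMap_iff (algebraMap M.E (_root_.Fermat.Agent.GTor.Clo.FN N)).injective).mpr
    (_root_.Fermat.Agent.GTor.Clo.asm_transcendental_t M)

/-- The image of `M.E` in `F_N` is `Q̄(j)`. -/
theorem asm_algebraMap_mem (M : _root_.Fermat.Agent.GTor.Clo.ModClosure N) (y : M.E) :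
    algebraMap M.E (_root_.Fermat.Agent.GTor.Clo.FN N) y ∈ _root_.Fermat.Agent.GTor.Clo.Kbar⟮_root_.Fermat.Agent.GTor.Clo.jF N⟯ := by
  obtain ⟨p, q, hq, rfl⟩ := M.t_gen y
  have h : ∀ r : Polynomial _root_.Fermat.Agent.GTor.Clo.Kbar, algebraMap M.E (_root_.Fermat.Agent.GTor.Clo.FN N) (Polynomial.aeval M.t r)
      = Polynomial.aeval (_root_.Fermat.Agent.GTor.Clo.jF N) r := fun r => by
    rw [← M.t_map, ← Polynomial.aeval_algebraMap_apply]
  rw [map_div₀, h, h]
  have hmem : ∀ r : Polynomial _root_.Fermat.Agent.GTor.Clo.Kbar, Polynomial.aeval (_root_.Fermat.Agent.GTor.Clo.jF N) r ∈ _root_.Fermat.Agent.GTor.Clo.Kbar⟮_root_.Fermat.Agent.GTor.Clo.jF N⟯ := fun r => by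
    rw [Polynomial.aeval_eq_sum_range]
    refine sum_mem fun i _ => ?_
    exact (_root_.Fermat.Agent.GTor.Clo.Kbar⟮_root_.Fermat.Agent.GTor.Clo.jF N⟯).smul_mem (pow_mem (mem_adjoin_simple_self _root_.Fermat.Agent.GTor.Clo.Kbar (_root_.Fermat.Agent.GTor.Clo.jF N)) i)
  exact div_mem (hmem p) (hmem q)

theorem asm_mem_range (M : _root_.Fermat.Agent.GTor.Clo.ModClosure N) (z : _root_.Fermat.Agent.GTor.Clo.FN N) (hz : z ∈ _root_.Fermat.Agent.GTor.Clo.Kbar⟮_root_.Fermat.Agent.GTor.Clo.jF N⟯) :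
    ∃ y : M.E, algebraMap M.E (_root_.Fermat.Agent.GTor.Clo.FN N) y = z := by
  have hle : _root_.Fermat.Agent.GTor.Clo.Kbar⟮_root_.Fermat.Agent.GTor.Clo.jF N⟯ ≤ (IsScalarTower.toAlgHom _root_.Fermat.Agent.GTor.Clo.Kbar M.E (_root_.Fermat.Agent.GTor.Clo.FN N)).fieldRange := by
    rw [adjoin_simple_le_iff]
    exact ⟨M.t, M.t_map⟩
  obtain ⟨y, hy⟩ := hle hz
  exact ⟨y, hy⟩

/-- The isomorphism `M.E ≃ Q̄(j)`. -/
def asmEquiv (M : _root_.Fermat.Agent.GTor.Clo.ModClosure N) : M.E ≃+* _root_.Fermat.Agent.GTor.Clo.Kbar⟮_root_.Fermat.Agent.GTor.Clo.jF N⟯ :=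
  RingEquiv.ofBijective
    ((algebraMap M.E (_root_.Fermat.Agent.GTor.Clo.FN N)).codRestrict (_root_.Fermat.Agent.GTor.Clo.Kbar⟮_root_.Fermat.Agent.GTor.Clo.jF N⟯).toSubfield.toSubring
      (fun y => _root_.Fermat.Agent.GTor.Clo.asm_algebraMap_mem M y))
    ⟨fun a b h => (algebraMap M.E (_root_.Fermat.Agent.GTor.Clo.FN N)).injective (congrArg Subtype.val h),
      fun z => by
        obtain ⟨y, hy⟩ := _root_.Fermat.Agent.GTor.Clo.asm_mem_range M z.1 z.2
        exact ⟨y, Subtype.ext hy⟩⟩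

theorem asmEquiv_comp (M : _root_.Fermat.Agent.GTor.Clo.ModClosure N) :
    (algebraMap _root_.Fermat.Agent.GTor.Clo.Kbar⟮_root_.Fermat.Agent.GTor.Clo.jF N⟯ (_root_.Fermat.Agent.GTor.Clo.FN N)).comp (_root_.Fermat.Agent.GTor.Clo.asmEquiv M : M.E ≃+* _root_.Fermat.Agent.GTor.Clo.Kbar⟮_root_.Fermat.Agent.GTor.Clo.jF N⟯).toRingHom
      = (RingEquiv.refl (_root_.Fermat.Agent.GTor.Clo.FN N)).toRingHom.comp (algebraMap M.E (_root_.Fermat.Agent.GTor.Clo.FN N)) := by
  ext y
  rfl

theorem asm_finiteDimensional (M : _root_.Fermat.Agent.GTor.Clo.ModClosure N) : FiniteDimensional _root_.Fermat.Agent.GTor.Clo.Kbar⟮_root_.Fermat.Agent.GTor.Clo.jF N⟯ (_root_.Fermat.Agent.GTor.Clo.FN N) := by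
  have : FiniteDimensional M.E (_root_.Fermat.Agent.GTor.Clo.FN N) := FiniteDimensional.left M.E (_root_.Fermat.Agent.GTor.Clo.FN N) M.L
  exact Module.Finite.of_equiv_equiv (_root_.Fermat.Agent.GTor.Clo.asmEquiv M) (RingEquiv.refl (_root_.Fermat.Agent.GTor.Clo.FN N)) (_root_.Fermat.Agent.GTor.Clo.asmEquiv_comp M)

theorem asm_finrank (M : _root_.Fermat.Agent.GTor.Clo.ModClosure N) :
    Module.finrank _root_.Fermat.Agent.GTor.Clo.Kbar⟮_root_.Fermat.Agent.GTor.Clo.jF N⟯ (_root_.Fermat.Agent.GTor.Clo.FN N) = dedekindPsi N := by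
  rw [← Algebra.finrank_eq_of_equiv_equiv (_root_.Fermat.Agent.GTor.Clo.asmEquiv M) (RingEquiv.refl (_root_.Fermat.Agent.GTor.Clo.FN N)) (_root_.Fermat.Agent.GTor.Clo.asmEquiv_comp M)]
  -- `[F_N : E] = [K : E]` for `K` the image of `F_N` in `L`
  have e : _root_.Fermat.Agent.GTor.Clo.FN N ≃ₗ[M.E] (IsScalarTower.toAlgHom M.E (_root_.Fermat.Agent.GTor.Clo.FN N) M.L).fieldRange :=
    (AlgEquiv.ofInjectiveField (IsScalarTower.toAlgHom M.E (_root_.Fermat.Agent.GTor.Clo.FN N) M.L)).toLinearEquiv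
  rw [e.finrank_eq, IntermediateField.finrank_eq_fixingSubgroup_index,
    ← Subgroup.index_comap_of_surjective _ M.π_surjective, M.π_comap, Subgroup.index_eq_card]
  exact Fermat.Agent.S20.H19.G1_card N

end Fermat.Agent.GTor.Clo

end
end
-- ==== END Fermat.Agent.GTor.Clo.AsmDegree

-- ==== BEGIN Fermat.Agent.GTor.Clo.GC4
section

/-!
# G-TOR A3–A5, abstract part (WPs GC4, GC5, GCtriv): the valuation of a Galois closure at a prime

Setting of `Fermat.Agent.S24.gc_card_zeros` (file `Fermat/Agent/S24/H95_GC2.lean`):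
`K` algebraically closed, `E = K(t)`, `L / E` finite Galois, `F` an intermediate field,
`w` a valuation of `L` trivial on `K` with `w t < 1`, invariant under `σ ∈ Gal (L / E)`, and
normalised by `exp (- orderOf σ) ≤ w t`.

Proof sketch. `C` = integral closure of `K[t]` in `L`, `P = {c ∈ C | w c < 1}` (a prime over `(t)`),
`B` = integral closure in `F`, `𝔭 = P ∩ B`.
* GC2 shows `Stab P = ⟨σ⟩` and `e(P | t) = orderOf σ = - log (w t)`.
* The valuation ring of `w` contains the discrete valuation ring `C_P`, hence equals it; two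
  `ℤ`-valued valuations with the same valuation ring are proportional, and comparing at `t`
  gives `w = exp (- ord_P)`.
* For `f ∈ F`: `ord_P f = e(P | 𝔭) * ord_𝔭 f` and `e(P | 𝔭) = |Stab_H P| = |⟨σ⟩ ⊓ H|`
  (`H = Gal (L / F)`, residue fields are `K`).
* GC5: `Gal (L / E)` is transitive on the primes of `C` over `(t)`; apply GC4 to `w ∘ g`,
  `g⁻¹ σ g`.

All work packages of this file are filled (helper24: GC4, helper72: GC5, GCtriv).
-/

set_option autoImplicit false

noncomputable section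

open AlgebraicCurve IntermediateField WithZero

namespace Fermat.Agent.GTor.Clo

section Galois

variable {K E F L : Type*} [Field K] [IsAlgClosed K] [CharZero K] [Field E] [Field F] [Field L]
  [Algebra K E] [Algebra K F] [Algebra K L] [Algebra E F] [Algebra E L] [Algebra F L]
  [IsScalarTower K E F] [IsScalarTower K E L] [IsScalarTower E F L] [IsScalarTower K F L]
  [FiniteDimensional E L] [IsGalois E L]

variable (E F L) in
/-- The subgroup `Gal (L / F)` of `Gal (L / E)`. -/
abbrev fixF : Subgroup (L ≃ₐ[E] L) :=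
  IntermediateField.fixingSubgroup (IsScalarTower.toAlgHom E F L).fieldRange

/-- **GC4**. The valuation `w`, restricted to `F`, is `e` times the order at a place of `F`,
`e = |⟨σ⟩ ⊓ Gal (L / F)|`. -/
theorem gc_val_eq
    (t : E) (ht : Transcendental K t)
    (hE : ∀ y : E, ∃ p q : Polynomial K, Polynomial.aeval t q ≠ 0 ∧
      y = Polynomial.aeval t p / Polynomial.aeval t q)
    (w : Valuation L ℤᵐ⁰) (hwK : ∀ c : K, c ≠ 0 → w (algebraMap K L c) = 1)
    (hwt : w (algebraMap E L t) < 1)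
    (σ : L ≃ₐ[E] L) (hσ : ∀ y, w (σ y) = w y)
    (hord : exp (-(orderOf σ : ℤ)) ≤ w (algebraMap E L t)) :
    ∃ v : Place K F, 0 < v.ord (algebraMap E F t) ∧
      ∀ f : F, f ≠ 0 → w (algebraMap F L f)
        = exp (-((Nat.card ↥(Subgroup.zpowers σ ⊓ fixF E F L) : ℤ) * v.ord f)) :=
  H24.h24_gc_val_eq t ht hE w hwK hwt σ hσ hord

/-- **GC5**. Every place of `F` over `t = 0` arises as in GC4 from a conjugate `w ∘ g` of `w`. -/
theorem gc_val_eq_of_place
    (t : E) (ht : Transcendental K t)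
    (hE : ∀ y : E, ∃ p q : Polynomial K, Polynomial.aeval t q ≠ 0 ∧
      y = Polynomial.aeval t p / Polynomial.aeval t q)
    (w : Valuation L ℤᵐ⁰) (hwK : ∀ c : K, c ≠ 0 → w (algebraMap K L c) = 1)
    (hwt : w (algebraMap E L t) < 1)
    (σ : L ≃ₐ[E] L) (hσ : ∀ y, w (σ y) = w y)
    (hord : exp (-(orderOf σ : ℤ)) ≤ w (algebraMap E L t))
    (v : Place K F) (hv : 0 < v.ord (algebraMap E F t)) :
    ∃ g : L ≃ₐ[E] L, ∀ f : F, f ≠ 0 → w (g (algebraMap F L f))
        = exp (-((Nat.card ↥(Subgroup.zpowers (g⁻¹ * σ * g) ⊓ fixF E F L) : ℤ) * v.ord f)) :=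
  h72_gc_val_eq_of_place t ht hE
    (fun w' h1 h2 σ' h3 h4 => gc_val_eq t ht hE w' h1 h2 σ' h3 h4) w hwK hwt σ hσ hord v hv

/-- In the situation of GC4 the order of `σ` is `- log (w t)`. -/
theorem gc_orderOf_eq
    (t : E) (ht : Transcendental K t)
    (hE : ∀ y : E, ∃ p q : Polynomial K, Polynomial.aeval t q ≠ 0 ∧
      y = Polynomial.aeval t p / Polynomial.aeval t q)
    (w : Valuation L ℤᵐ⁰) (hwK : ∀ c : K, c ≠ 0 → w (algebraMap K L c) = 1)
    (hwt : w (algebraMap E L t) < 1)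
    (σ : L ≃ₐ[E] L) (hσ : ∀ y, w (σ y) = w y)
    (hord : exp (-(orderOf σ : ℤ)) ≤ w (algebraMap E L t)) :
    w (algebraMap E L t) = exp (-(orderOf σ : ℤ)) :=
  H24.h24_gc_orderOf_eq t ht hE w hwK hwt σ hσ hord

end Galois

section Trivial

variable {K F : Type*} [Field K] [IsAlgClosed K] [CharZero K] [Field F] [Algebra K F]

/-- **GCtriv** (the case `F = K(x)`). A valuation of `K(x)`, trivial on `K`, with
`w x = exp (-m)`, `m > 0`, is `m` times the order at a place. -/
theorem gc_val_triv (x : F) (hx : Transcendental K x) (htop : K⟮x⟯ = ⊤)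
    (w : Valuation F ℤᵐ⁰) (hwK : ∀ c : K, c ≠ 0 → w (algebraMap K F c) = 1)
    (m : ℕ) (hm : 0 < m) (hwx : w x = exp (-(m : ℤ))) :
    ∃ v : Place K F, 0 < v.ord x ∧ ∀ f : F, f ≠ 0 → w f = exp (-((m : ℤ) * v.ord f)) :=
  h72_gc_val_triv x hx htop w hwK m hm hwx

/-- **GCtriv**, uniqueness: `K(x)` has only one place where `x` vanishes. -/
theorem gc_val_triv_unique (x : F) (hx : Transcendental K x) (htop : K⟮x⟯ = ⊤)
    (v v' : Place K F) (hv : 0 < v.ord x) (hv' : 0 < v'.ord x) : v = v' :=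
  h72_gc_val_triv_unique x hx htop v v' hv hv'

end Trivial

end Fermat.Agent.GTor.Clo

end
end
-- ==== END Fermat.Agent.GTor.Clo.GC4

-- ==== BEGIN Fermat.Agent.GTor.Clo.JA
section

/-!
# S24 construction, layer 1a (WP CLO-JA): the functions `j ∘ A`

Notation: `K = Kbar = Q̄`, `ι = iotaC : K → ℂ`, `Hol` = holomorphic functions on `ℍ`.
WP CLO-JA (helper59): all statements of this file are proved (no `sorry` here; the only
remaining ones in the closure are those of `An/Hol.lean`).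
-/

set_option autoImplicit false

noncomputable section

namespace Fermat.Agent.GTor.Clo

open Fermat.Agent.S24

open ModularCurve UpperHalfPlane
open scoped MatrixGroups Manifold

/-! ## 1. `Hol` as a `K`-algebra -/

/-- `Hol` is a `Q̄`-algebra through `ι`. -/
instance algKbarHol : Algebra _root_.Fermat.Agent.GTor.Clo.Kbar Hol := ((algebraMap ℂ Hol).comp _root_.Fermat.Agent.GTor.Clo.iotaC).toAlgebra

theorem algebraMap_Kbar_Hol_apply (c : _root_.Fermat.Agent.GTor.Clo.Kbar) (τ : ℍ) :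
    ((algebraMap _root_.Fermat.Agent.GTor.Clo.Kbar Hol c : Hol) : ℍ → ℂ) τ = _root_.Fermat.Agent.GTor.Clo.iotaC c := rfl

instance smulCommClass_SL_Kbar_Hol : SMulCommClass SL(2, ℤ) _root_.Fermat.Agent.GTor.Clo.Kbar Hol :=
  ⟨fun _ _ _ => Subtype.ext (funext fun _ => rfl)⟩

theorem iotaC_injective : Function.Injective _root_.Fermat.Agent.GTor.Clo.iotaC := _root_.Fermat.Agent.GTor.Clo.iotaC.injective

/-! ## 2. The functions `j ∘ A` for integer matrices `A` of positive determinant -/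

/-- `jAn` is holomorphic. -/
theorem jAn_mdifferentiable : MDifferentiable 𝓘(ℂ) 𝓘(ℂ) jAn := by
  have h4 : MDifferentiable 𝓘(ℂ) 𝓘(ℂ)
      (fun τ : ℍ => (ModularForm.E (k := 4) (by norm_num)) τ) :=
    ModularForm.holo' (ModularForm.E (k := 4) (by norm_num))
  have hΔ : MDifferentiable 𝓘(ℂ) 𝓘(ℂ) (fun τ : ℍ => ModularForm.discriminant τ) :=
    CuspForm.holo' CuspForm.discriminant
  exact (h4.pow 3).div hΔ ModularForm.discriminant_ne_zero

/-- An integer matrix of positive determinant, as an element of `GL₂(ℝ)`. -/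
def intGL (A : Matrix (Fin 2) (Fin 2) ℤ) (hA : 0 < A.det) : GL (Fin 2) ℝ :=
  Matrix.GeneralLinearGroup.mkOfDetNeZero (A.map (Int.cast : ℤ → ℝ)) (by
    have h : (A.map (Int.cast : ℤ → ℝ)).det = ((A.det : ℤ) : ℝ) := by
      simpa using (RingHom.map_det (Int.castRingHom ℝ) A).symm
    rw [h]
    exact_mod_cast hA.ne')

theorem intGL_val (A : Matrix (Fin 2) (Fin 2) ℤ) (hA : 0 < A.det) :
    ((_root_.Fermat.Agent.GTor.Clo.intGL A hA : GL (Fin 2) ℝ) : Matrix (Fin 2) (Fin 2) ℝ) = A.map (Int.cast : ℤ → ℝ) := rfl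

theorem intGL_det_pos (A : Matrix (Fin 2) (Fin 2) ℤ) (hA : 0 < A.det) :
    0 < (_root_.Fermat.Agent.GTor.Clo.intGL A hA).det.val := by
  have h : (A.map (Int.cast : ℤ → ℝ)).det = ((A.det : ℤ) : ℝ) := by
    simpa using (RingHom.map_det (Int.castRingHom ℝ) A).symm
  rw [Matrix.GeneralLinearGroup.val_det_apply, _root_.Fermat.Agent.GTor.Clo.intGL_val, h]
  exact_mod_cast hA

/-- The Möbius action of an integer matrix of positive determinant, explicitly. -/
theorem coe_intGL_smul (A : Matrix (Fin 2) (Fin 2) ℤ) (hA : 0 < A.det) (τ : ℍ) :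
    ((_root_.Fermat.Agent.GTor.Clo.intGL A hA • τ : ℍ) : ℂ) = ((A 0 0 : ℂ) * τ + A 0 1) / ((A 1 0 : ℂ) * τ + A 1 1) := by
  rw [coe_smul_of_det_pos (_root_.Fermat.Agent.GTor.Clo.intGL_det_pos A hA)]
  simp [num, denom, _root_.Fermat.Agent.GTor.Clo.intGL_val]

theorem intGL_mul (A B : Matrix (Fin 2) (Fin 2) ℤ) (hA : 0 < A.det) (hB : 0 < B.det)
    (hAB : 0 < (A * B).det) : _root_.Fermat.Agent.GTor.Clo.intGL (A * B) hAB = _root_.Fermat.Agent.GTor.Clo.intGL A hA * _root_.Fermat.Agent.GTor.Clo.intGL B hB := by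
  apply Matrix.GeneralLinearGroup.ext
  intro i j
  rw [Matrix.GeneralLinearGroup.coe_mul, _root_.Fermat.Agent.GTor.Clo.intGL_val, _root_.Fermat.Agent.GTor.Clo.intGL_val, _root_.Fermat.Agent.GTor.Clo.intGL_val]
  simp [Matrix.mul_apply]

theorem intGL_mul_smul (A B : Matrix (Fin 2) (Fin 2) ℤ) (hA : 0 < A.det) (hB : 0 < B.det)
    (hAB : 0 < (A * B).det) (τ : ℍ) :
    _root_.Fermat.Agent.GTor.Clo.intGL (A * B) hAB • τ = _root_.Fermat.Agent.GTor.Clo.intGL A hA • (_root_.Fermat.Agent.GTor.Clo.intGL B hB • τ) := by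
  rw [_root_.Fermat.Agent.GTor.Clo.intGL_mul A B hA hB hAB, mul_smul]

theorem intGL_SL (γ : SL(2, ℤ)) (h : 0 < (γ.1).det) :
    _root_.Fermat.Agent.GTor.Clo.intGL γ.1 h = (γ : GL (Fin 2) ℝ) := by
  apply Matrix.GeneralLinearGroup.ext
  intro i j
  rfl

theorem intGL_SL_smul (γ : SL(2, ℤ)) (h : 0 < (γ.1).det) (τ : ℍ) :
    _root_.Fermat.Agent.GTor.Clo.intGL γ.1 h • τ = γ • τ := by
  rw [ModularGroup.sl_moeb, _root_.Fermat.Agent.GTor.Clo.intGL_SL]

open scoped Classical in
/-- The holomorphic function `τ ↦ j (A τ)` (junk value `0` if `det A ≤ 0`). -/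
def JA (A : Matrix (Fin 2) (Fin 2) ℤ) : Hol :=
  if hA : 0 < A.det then ⟨fun τ => jAn (_root_.Fermat.Agent.GTor.Clo.intGL A hA • τ),
    _root_.Fermat.Agent.GTor.Clo.jAn_mdifferentiable.comp (mdifferentiable_smul (_root_.Fermat.Agent.GTor.Clo.intGL_det_pos A hA))⟩ else 0

theorem JA_apply (A : Matrix (Fin 2) (Fin 2) ℤ) (hA : 0 < A.det) (τ : ℍ) :
    (_root_.Fermat.Agent.GTor.Clo.JA A : ℍ → ℂ) τ = jAn (_root_.Fermat.Agent.GTor.Clo.intGL A hA • τ) := by
  rw [_root_.Fermat.Agent.GTor.Clo.JA, dif_pos hA]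

theorem intGL_SL_det_pos (γ : SL(2, ℤ)) : 0 < (γ.1).det := by
  rw [γ.2]; exact one_pos

theorem JA_one_apply (τ : ℍ) : (_root_.Fermat.Agent.GTor.Clo.JA 1 : ℍ → ℂ) τ = jAn τ := by
  have h1 : 0 < (1 : Matrix (Fin 2) (Fin 2) ℤ).det := by rw [Matrix.det_one]; exact one_pos
  rw [_root_.Fermat.Agent.GTor.Clo.JA_apply 1 h1]
  have := _root_.Fermat.Agent.GTor.Clo.intGL_SL_smul 1 (_root_.Fermat.Agent.GTor.Clo.intGL_SL_det_pos 1) τ
  rw [one_smul] at this
  congr 1

/-- `γ • (j ∘ A) = j ∘ (A γ⁻¹)`. -/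
theorem smul_JA (γ : SL(2, ℤ)) (A : Matrix (Fin 2) (Fin 2) ℤ) (hA : 0 < A.det) :
    γ • _root_.Fermat.Agent.GTor.Clo.JA A = _root_.Fermat.Agent.GTor.Clo.JA (A * (γ⁻¹ : SL(2, ℤ)).1) := by
  have hdet : 0 < (A * (γ⁻¹ : SL(2, ℤ)).1).det := by
    rw [Matrix.det_mul, (γ⁻¹ : SL(2, ℤ)).2, mul_one]; exact hA
  apply Subtype.ext
  funext τ
  rw [Hol.smul_apply, _root_.Fermat.Agent.GTor.Clo.JA_apply A hA, _root_.Fermat.Agent.GTor.Clo.JA_apply _ hdet,
    _root_.Fermat.Agent.GTor.Clo.intGL_mul_smul A _ hA (_root_.Fermat.Agent.GTor.Clo.intGL_SL_det_pos γ⁻¹) hdet, _root_.Fermat.Agent.GTor.Clo.intGL_SL_smul]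

/-- `j ∘ (γ A) = j ∘ A`. -/
theorem JA_mul_left (γ : SL(2, ℤ)) (A : Matrix (Fin 2) (Fin 2) ℤ) (hA : 0 < A.det) :
    _root_.Fermat.Agent.GTor.Clo.JA (γ.1 * A) = _root_.Fermat.Agent.GTor.Clo.JA A := by
  have hdet : 0 < (γ.1 * A).det := by
    rw [Matrix.det_mul, γ.2, one_mul]; exact hA
  apply Subtype.ext
  funext τ
  rw [_root_.Fermat.Agent.GTor.Clo.JA_apply A hA, _root_.Fermat.Agent.GTor.Clo.JA_apply _ hdet, _root_.Fermat.Agent.GTor.Clo.intGL_mul_smul _ A (_root_.Fermat.Agent.GTor.Clo.intGL_SL_det_pos γ) hA hdet, _root_.Fermat.Agent.GTor.Clo.intGL_SL_smul,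
    jAn_smul]

end Fermat.Agent.GTor.Clo

end
end
-- ==== END Fermat.Agent.GTor.Clo.JA
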