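-- GENERATED (merged mirror, NOTES/tools/trim/merge3_helper67.py): 9 modules of the originals, bodies verbatim.
import Mathlib.FieldTheory.Relrank
import Mathlib.FieldTheory.Separable
import Mathlib.FieldTheory.IntermediateField.Adjoin.Algebra
import Mathlib.FieldTheory.Minpoly.IsIntegrallyClosed
import Mathlib
import Fermat.Prelude.Def_AlgebraicCurve_DivisorClassGroup
import Fermat.Agent.Zm.S35_L03_002
import Fermat.Agent.Zm.S35_L03_005
import Fermat.Agent.RED.Defs
import Fermat.Agent.Zm.S35_L03_004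
import Fermat.Agent.Zm.S35_L02_002
import Fermat.Agent.Zm.S35_L03_003
import Fermat.Agent.Zm.S35_L01_003
import Fermat.Agent.Zm.S35_L02_003
import Fermat.Agent.S16.H79_ConjDefs
import Fermat.Agent.Zm.S35_L01_004

-- ==== BEGIN Fermat.Agent.RED.H34_Lattice
section

/-!
# G-RED package IG (helper34): trace and discriminant commute with reduction

`bF` a `C(x)`-basis of `F` contained in `V` whose reduction `bt` is a `k(xt)`-basis of `Ft`.
Then coordinates of elements of `V` lie in `Vx = V ∩ C(x)`, and `red ∘ Tr = Tr ∘ red`,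
`red (disc bF) = disc bt`.
-/

set_option autoImplicit false

noncomputable section

open Polynomial IntermediateField

namespace Fermat.Agent.RED.H34

variable {C F k Ft : Type} [Field C] [Field F] [Algebra C F] [Field k] [Field Ft] [Algebra k Ft]

namespace RedSetting

variable {S : RedSetting C F k Ft} {x : F} (hx : x ∈ S.V)

/-- `Vx = V ∩ C(x)` as a subring of `C(x)`. -/
def Vx (S : RedSetting C F k Ft) (x : F) : Subring ↥C⟮x⟯ :=
  S.V.toSubring.comap (algebraMap ↥C⟮x⟯ F)

theorem mem_Vx (a : ↥C⟮x⟯) : a ∈ S.Vx x ↔ ((a : ↥C⟮x⟯) : F) ∈ S.V := Iff.rfl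

/-- The reduction map `Vx → k(xt)`. -/
def redx (hxt : Transcendental k (S.red ⟨x, hx⟩)) : ↥(S.Vx x) →+* ↥k⟮S.red ⟨x, hx⟩⟯ where
  toFun a := ⟨S.red ⟨((a : ↥C⟮x⟯) : F), a.2⟩, red_mem_adjoin hx hxt _ (a : ↥C⟮x⟯).2 a.2⟩
  map_one' := by
    apply Subtype.ext
    exact map_one S.red
  map_mul' a b := by
    apply Subtype.ext
    exact map_mul S.red ⟨_, a.2⟩ ⟨_, b.2⟩
  map_zero' := by
    apply Subtype.ext
    exact map_zero S.red
  map_add' a b := by
    apply Subtype.ext
    exact map_add S.red ⟨_, a.2⟩ ⟨_, b.2⟩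

theorem coe_redx (hxt : Transcendental k (S.red ⟨x, hx⟩)) (a : ↥(S.Vx x)) :
    ((redx hx hxt a : ↥k⟮S.red ⟨x, hx⟩⟯) : Ft) = S.red ⟨((a : ↥C⟮x⟯) : F), a.2⟩ := rfl

variable {ι : Type}
variable (bF : Module.Basis ι ↥C⟮x⟯ F) (hbV : ∀ i, bF i ∈ S.V)
variable (bt : Module.Basis ι ↥k⟮S.red ⟨x, hx⟩⟯ Ft) (hbt : ∀ i, bt i = S.red ⟨bF i, hbV i⟩)

include hbt in
theorem linearIndependent_red : LinearIndependent ↥k⟮S.red ⟨x, hx⟩⟯
    (fun i => S.red ⟨bF i, hbV i⟩) := by
  have : (fun i => S.red ⟨bF i, hbV i⟩) = bt := by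
    funext i
    exact (hbt i).symm
  rw [this]
  exact bt.linearIndependent

variable [Fintype ι]

include hbt in
/-- Coordinates of elements of `V` lie in `V`. -/
theorem repr_mem_V (hxt : Transcendental k (S.red ⟨x, hx⟩)) (f : F) (hf : f ∈ S.V) (i : ι) :
    bF.repr f i ∈ S.Vx x := by
  rw [mem_Vx]
  refine coeff_mem_V hx bF hbV hxt (linearIndependent_red hx bF hbV bt hbt) (fun j => bF.repr f j)
    ?_ i
  rw [bF.sum_repr]
  exact hf

include hbt in
/-- Coordinates commute with reduction. -/
theorem repr_red (hxt : Transcendental k (S.red ⟨x, hx⟩)) (f : F) (hf : f ∈ S.V) (i : ι) :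
    bt.repr (S.red ⟨f, hf⟩) i = redx hx hxt ⟨bF.repr f i, repr_mem_V hx bF hbV bt hbt hxt f hf i⟩ := by
  have h1 : S.red ⟨f, hf⟩ = ∑ j, (redx hx hxt ⟨bF.repr f j,
      repr_mem_V hx bF hbV bt hbt hxt f hf j⟩) • bt j := by
    have h2 : (⟨f, hf⟩ : ↥S.V) = ∑ j, (⟨((bF.repr f j : ↥C⟮x⟯) : F),
        repr_mem_V hx bF hbV bt hbt hxt f hf j⟩ : ↥S.V) * ⟨bF j, hbV j⟩ := by
      apply Subtype.ext
      rw [AddSubmonoidClass.coe_finsetSum]
      show f = _
      conv_lhs => rw [← bF.sum_repr f]
      refine Finset.sum_congr rfl fun j _ => ?_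
      rw [IntermediateField.smul_def, smul_eq_mul]
      rfl
    rw [h2, map_sum]
    refine Finset.sum_congr rfl fun j _ => ?_
    rw [map_mul, hbt j, IntermediateField.smul_def, smul_eq_mul]
    rfl
  conv_lhs => rw [h1]
  rw [bt.repr_sum_self]

variable [DecidableEq ι]

include hbt in
/-- The trace of an element of `V` lies in `Vx`, and reduces to the trace of the reduction. -/
theorem trace_red (hxt : Transcendental k (S.red ⟨x, hx⟩)) (f : F) (hf : f ∈ S.V) :
    ∃ t : ↥(S.Vx x), (t : ↥C⟮x⟯) = Algebra.trace ↥C⟮x⟯ F f ∧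
      redx hx hxt t = Algebra.trace ↥k⟮S.red ⟨x, hx⟩⟯ Ft (S.red ⟨f, hf⟩) := by
  have hmem : ∀ i, f * bF i ∈ S.V := fun i => mul_mem hf (hbV i)
  refine ⟨∑ i, ⟨bF.repr (f * bF i) i, repr_mem_V hx bF hbV bt hbt hxt _ (hmem i) i⟩, ?_, ?_⟩
  · rw [Algebra.trace_eq_matrix_trace bF, Matrix.trace, AddSubmonoidClass.coe_finsetSum]
    refine Finset.sum_congr rfl fun i _ => ?_
    rw [Matrix.diag_apply, Algebra.leftMulMatrix_eq_repr_mul]
  · rw [Algebra.trace_eq_matrix_trace bt, Matrix.trace, map_sum]
    refine Finset.sum_congr rfl fun i _ => ?_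
    rw [Matrix.diag_apply, Algebra.leftMulMatrix_eq_repr_mul, hbt i, ← map_mul,
      ← repr_red hx bF hbV bt hbt hxt (f * bF i) (hmem i) i]
    rfl

include hbt in
/-- The discriminant of `bF` lies in `Vx` and reduces to the discriminant of `bt`. -/
theorem discr_red (hxt : Transcendental k (S.red ⟨x, hx⟩)) :
    ∃ δ : ↥(S.Vx x), (δ : ↥C⟮x⟯) = Algebra.discr ↥C⟮x⟯ bF ∧
      redx hx hxt δ = Algebra.discr ↥k⟮S.red ⟨x, hx⟩⟯ bt := by
  have hmem : ∀ i j, bF i * bF j ∈ S.V := fun i j => mul_mem (hbV i) (hbV j)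
  choose t ht1 ht2 using fun i j => trace_red hx bF hbV bt hbt hxt (bF i * bF j) (hmem i j)
  let M : Matrix ι ι ↥(S.Vx x) := Matrix.of t
  refine ⟨M.det, ?_, ?_⟩
  · rw [Algebra.discr_def]
    have : Algebra.traceMatrix ↥C⟮x⟯ bF = (S.Vx x).subtype.mapMatrix M := by
      ext i j
      simp [M, Algebra.traceMatrix_apply, Algebra.traceForm_apply, ht1]
    rw [this, ← RingHom.map_det]
    rfl
  · rw [Algebra.discr_def]
    have : Algebra.traceMatrix ↥k⟮S.red ⟨x, hx⟩⟯ bt = (redx hx hxt).mapMatrix M := by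
      ext i j
      simp only [M, Algebra.traceMatrix_apply, Algebra.traceForm_apply, RingHom.mapMatrix_apply,
        Matrix.map_apply, Matrix.of_apply, ht2, hbt, ← map_mul]
      rfl
    rw [this, ← RingHom.map_det]

end RedSetting

end Fermat.Agent.RED.H34

end
end
-- ==== END Fermat.Agent.RED.H34_Lattice

-- ==== BEGIN Fermat.Agent.RED.H42_Lat
section

/-!
# G-RED package LAT (helper42), part 1: orthonormal bases of finite-dimensional spaces of series

`C` a field, `O : ValuationSubring C` arbitrary (not discrete), `k` its residue field.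
`W` a finite-dimensional `C`-subspace of `C((t))` all of whose nonzero elements have a primitive
scalar multiple (`PrimScalable O W`).  Then

* `exists_orthonormal`: `W` has a basis `ι f_i`, `f_i ∈ O((t))`, whose reductions are linearly
  independent over `k`; the elements of `W` in the Gauss ring are the `O`-combinations of the
  `ι f_i`; the reduction `redSub O W` of `W ∩ (Gauss ring)` is spanned by the reductions;
* `finrank_redSub`: `dim_k (redSub O W) = dim_C W`.

The proof is by pivots: no discreteness or completeness of `O` is needed.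
-/

set_option autoImplicit false

open ModularCurve Fermat.Agent.S28 Fermat.Agent.S28.H73

noncomputable section

namespace Fermat.Agent.RED.H42

variable {C : Type} [Field C] (O : ValuationSubring C)

/-- The scaling property of a subspace of `C((t))`. -/
def PrimScalable (W : Submodule C (LaurentSeries C)) : Prop :=
  ∀ x ∈ W, x ≠ 0 → ∃ c : C, c ≠ 0 ∧ PrimSeries O.toSubring (HahnSeries.C c * x)

theorem PrimScalable.mono {W W' : Submodule C (LaurentSeries C)} (h : PrimScalable O W)
    (hle : W' ≤ W) : PrimScalable O W' :=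
  fun x hx hx0 => h x (hle hx) hx0

/-- The coefficient functional. -/
def coeffL (C : Type) [Field C] (p : ℤ) : LaurentSeries C →ₗ[C] C where
  toFun x := x.coeff p
  map_add' x y := by simp
  map_smul' c x := by simp

@[simp] theorem coeffL_apply (p : ℤ) (x : LaurentSeries C) : coeffL C p x = x.coeff p := rfl

theorem C_mul_mem (W : Submodule C (LaurentSeries C)) (c : C) {x : LaurentSeries C}
    (hx : x ∈ W) : HahnSeries.C c * x ∈ W := by
  have : HahnSeries.C c * x = c • x := by
    rw [HahnSeries.C_mul_eq_smul]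
  rw [this]
  exact W.smul_mem c hx

/-- A nonzero scalable subspace contains a primitive element. -/
theorem exists_prim_mem {W : Submodule C (LaurentSeries C)} (hW : PrimScalable O W)
    (hne : W ≠ ⊥) : ∃ f : LaurentSeries ↥O, redV O f ≠ 0 ∧ iotaV O f ∈ W := by
  obtain ⟨x, hx, hx0⟩ := (Submodule.ne_bot_iff _).mp hne
  obtain ⟨c, -, hc⟩ := hW x hx hx0
  obtain ⟨f, hf, hfx⟩ := (primSeries_iff O _).1 hc
  exact ⟨f, hf, hfx ▸ C_mul_mem W c hx⟩

/-- The subspace of `W` of series whose `p`-th coefficient vanishes. -/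
def killCoeff (W : Submodule C (LaurentSeries C)) (p : ℤ) : Submodule C (LaurentSeries C) :=
  W ⊓ LinearMap.ker (coeffL C p)

theorem mem_killCoeff {W : Submodule C (LaurentSeries C)} {p : ℤ} {x : LaurentSeries C} :
    x ∈ killCoeff W p ↔ x ∈ W ∧ x.coeff p = 0 := by
  rw [killCoeff, Submodule.mem_inf, LinearMap.mem_ker, coeffL_apply]

theorem finrank_killCoeff {W : Submodule C (LaurentSeries C)} [FiniteDimensional C W] {p : ℤ}
    {x : LaurentSeries C} (hx : x ∈ W) (hxp : x.coeff p ≠ 0) :
    Module.finrank C (killCoeff W p) + 1 = Module.finrank C W := by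
  let φ : W →ₗ[C] C := (coeffL C p).comp W.subtype
  have hsurj : Function.Surjective φ := by
    intro a
    refine ⟨(a * (x.coeff p)⁻¹) • ⟨x, hx⟩, ?_⟩
    simp only [φ, map_smul, LinearMap.comp_apply, Submodule.subtype_apply, coeffL_apply,
      smul_eq_mul]
    rw [mul_assoc, inv_mul_cancel₀ hxp, mul_one]
  have h1 := LinearMap.finrank_range_add_finrank_ker φ
  rw [LinearMap.range_eq_top.mpr hsurj, finrank_top, Module.finrank_self] at h1
  have h2 : Module.finrank C (LinearMap.ker φ) = Module.finrank C (killCoeff W p) := by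
    have e : (LinearMap.ker φ).map W.subtype = killCoeff W p := by
      ext y
      simp only [Submodule.mem_map, LinearMap.mem_ker, Submodule.subtype_apply, Subtype.exists,
        exists_and_right, exists_eq_right, mem_killCoeff, φ, LinearMap.comp_apply, coeffL_apply]
      constructor
      · rintro ⟨hy, h0⟩
        exact ⟨hy, h0⟩
      · rintro ⟨hy, h0⟩
        exact ⟨hy, h0⟩
    rw [← e]
    exact (Submodule.equivMapOfInjective W.subtype W.injective_subtype _).finrank_eq
  omega

/-! ## The orthonormal basis -/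

/-- The coefficient functional on `k((t))`. -/
theorem coeff_eq_zero_of_mem_span {k : Type*} [Field k] {ι : Type*} (v : ι → LaurentSeries k)
    (p : ℤ) (hv : ∀ i, (v i).coeff p = 0) {y : LaurentSeries k}
    (hy : y ∈ Submodule.span k (Set.range v)) : y.coeff p = 0 := by
  induction hy using Submodule.span_induction with
  | mem x hx =>
    obtain ⟨i, rfl⟩ := hx
    exact hv i
  | zero => simp
  | add x y _ _ hx hy => simp [hx, hy]
  | smul a x _ hx => simp [hx]

/-- **Orthonormal bases**: a scalable subspace of dimension `n` contains `n` integral series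
whose reductions are linearly independent. -/
theorem exists_orthonormal_aux : ∀ (n : ℕ) (W : Submodule C (LaurentSeries C)),
    FiniteDimensional C W → Module.finrank C W = n → PrimScalable O W →
    ∃ f : Fin n → LaurentSeries ↥O, (∀ i, iotaV O (f i) ∈ W) ∧
      LinearIndependent (kV O) (fun i => redV O (f i)) := by
  intro n
  induction n with
  | zero =>
    intro W _ _ _
    exact ⟨Fin.elim0, fun i => i.elim0, linearIndependent_empty_type⟩
  | succ n ih =>
    intro W hfin hrk hW
    have hne : W ≠ ⊥ := by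
      intro h
      rw [h, finrank_bot] at hrk
      omega
    obtain ⟨f₀, hf₀, hf₀W⟩ := exists_prim_mem O hW hne
    obtain ⟨p, hp⟩ : ∃ p, (redV O f₀).coeff p ≠ 0 := by
      by_contra hcon
      push Not at hcon
      exact hf₀ (HahnSeries.ext (funext hcon))
    have hp' : (iotaV O f₀).coeff p ≠ 0 := by
      rw [iotaV_coeff]
      intro h0
      apply hp
      rw [redV_coeff]
      have : f₀.coeff p = 0 := Subtype.ext h0
      rw [this, map_zero]
    have hrk' : Module.finrank C (killCoeff W p) = n := by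
      have := finrank_killCoeff hf₀W hp'
      omega
    have hle : killCoeff W p ≤ W := inf_le_left
    have hfin' : FiniteDimensional C (killCoeff W p) := Submodule.finiteDimensional_of_le hle
    obtain ⟨f, hfW, hfli⟩ := ih (killCoeff W p) hfin' hrk' (hW.mono O hle)
    refine ⟨Fin.cons f₀ f, ?_, ?_⟩
    · intro i
      refine Fin.cases ?_ (fun j => ?_) i
      · simpa using hf₀W
      · simpa using hle (hfW j)
    · have hcomp : (fun i => redV O ((Fin.cons f₀ f : Fin (n + 1) → LaurentSeries ↥O) i))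
          = Fin.cons (redV O f₀) (fun i => redV O (f i)) := by
        funext i
        refine Fin.cases ?_ (fun j => ?_) i
        · simp
        · simp
      rw [hcomp, linearIndependent_finCons]
      refine ⟨hfli, fun hmem => hp ?_⟩
      refine coeff_eq_zero_of_mem_span _ p (fun i => ?_) hmem
      have h1 := (mem_killCoeff.mp (hfW i)).2
      rw [iotaV_coeff] at h1
      have h2 : (f i).coeff p = 0 := Subtype.ext h1
      rw [redV_coeff, h2, map_zero]

/-! ## Scaling a coefficient vector -/

/-- A nonzero finite family of elements of `C` has an element of maximal valuation. -/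
theorem exists_max_coeff {ι : Type*} [Fintype ι] (c : ι → C) (hc : c ≠ 0) :
    ∃ m, c m ≠ 0 ∧ ∀ i, c i * (c m)⁻¹ ∈ O := by
  classical
  have hne : (Finset.univ : Finset ι).Nonempty := by
    by_contra h
    rw [Finset.not_nonempty_iff_eq_empty, Finset.univ_eq_empty_iff] at h
    exact hc (funext fun i => (h.false i).elim)
  obtain ⟨m, -, hm⟩ := Finset.exists_max_image Finset.univ (fun i => O.valuation (c i)) hne
  have hcm : c m ≠ 0 := by
    intro h0
    apply hc
    funext i
    have := hm i (Finset.mem_univ i)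
    rw [h0, map_zero] at this
    exact (map_eq_zero _).mp (le_antisymm this zero_le)
  refine ⟨m, hcm, fun i => ?_⟩
  rw [← O.valuation_le_one_iff, map_mul, map_inv₀]
  exact mul_inv_le_one_of_le₀ (hm i (Finset.mem_univ i)) zero_le

theorem iotaV_C (a : ↥O) :
    iotaV O (HahnSeries.C a) = (HahnSeries.C (a : C) : LaurentSeries C) :=
  coeffMap_single O.subtype 0 a

theorem redV_C (a : ↥O) :
    redV O (HahnSeries.C a) = (HahnSeries.C (resV O a) : LaurentSeries (kV O)) :=
  coeffMap_single (resV O) 0 a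

/-- The integral combination `Σ d_i f_i`. -/
def intComb {ι : Type*} [Fintype ι] (f : ι → LaurentSeries ↥O) (d : ι → ↥O) : LaurentSeries ↥O :=
  ∑ i, HahnSeries.C (d i) * f i

theorem iotaV_intComb {ι : Type*} [Fintype ι] (f : ι → LaurentSeries ↥O) (d : ι → ↥O) :
    iotaV O (intComb O f d) = ∑ i, ((d i : ↥O) : C) • iotaV O (f i) := by
  rw [intComb, map_sum]
  refine Finset.sum_congr rfl fun i _ => ?_
  rw [map_mul, iotaV_C, HahnSeries.C_mul_eq_smul]

theorem redV_intComb {ι : Type*} [Fintype ι] (f : ι → LaurentSeries ↥O) (d : ι → ↥O) :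
    redV O (intComb O f d) = ∑ i, resV O (d i) • redV O (f i) := by
  rw [intComb, map_sum]
  refine Finset.sum_congr rfl fun i _ => ?_
  rw [map_mul, redV_C, HahnSeries.C_mul_eq_smul]

/-- If the reductions of the `f_i` are independent and some `d_m` is a unit, then the reduction
of `Σ d_i f_i` is nonzero. -/
theorem redV_intComb_ne_zero {ι : Type*} [Fintype ι] {f : ι → LaurentSeries ↥O}
    (hf : LinearIndependent (kV O) (fun i => redV O (f i))) {d : ι → ↥O} {m : ι}
    (hm : IsUnit (d m)) : redV O (intComb O f d) ≠ 0 := by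
  intro h0
  rw [redV_intComb] at h0
  have := (Fintype.linearIndependent_iff.mp hf) (fun i => resV O (d i)) h0 m
  exact (IsLocalRing.residue_ne_zero_iff_isUnit _).2 hm this

/-- **Lifting**: independent reductions give independent series. -/
theorem linearIndependent_iotaV {ι : Type*} [Fintype ι] {f : ι → LaurentSeries ↥O}
    (hf : LinearIndependent (kV O) (fun i => redV O (f i))) :
    LinearIndependent C (fun i => iotaV O (f i)) := by
  rw [Fintype.linearIndependent_iff]
  intro c hc
  by_contra hne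
  have hc0 : c ≠ 0 := fun h => hne (fun i => by rw [h]; rfl)
  obtain ⟨m, hcm, hmax⟩ := exists_max_coeff O c hc0
  let d : ι → ↥O := fun i => ⟨c i * (c m)⁻¹, hmax i⟩
  have hdm : IsUnit (d m) := by
    have : d m = 1 := Subtype.ext (mul_inv_cancel₀ hcm)
    rw [this]
    exact isUnit_one
  have h1 : iotaV O (intComb O f d) = 0 := by
    rw [iotaV_intComb]
    have : ∑ i, ((d i : ↥O) : C) • iotaV O (f i) = (c m)⁻¹ • ∑ i, c i • iotaV O (f i) := by
      rw [Finset.smul_sum]
      refine Finset.sum_congr rfl fun i _ => ?_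
      rw [smul_smul, mul_comm]
    rw [this, hc, smul_zero]
  have h2 : intComb O f d = 0 := iotaV_injective O (by rw [h1, map_zero])
  exact redV_intComb_ne_zero O hf hdm (by rw [h2, map_zero])

/-! ## Orthonormality -/

/-- Multiplication by a non-unit of `O` kills the reduction. -/
theorem gaussRedV_C_mul_eq_zero {a : C} (ha : a ∈ O) (hna : ¬ IsUnit (⟨a, ha⟩ : ↥O))
    {x : LaurentSeries C} (hx : x ∈ gaussRingV O)
    (h : HahnSeries.C a * x ∈ gaussRingV O) : gaussRedV O ⟨HahnSeries.C a * x, h⟩ = 0 := by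
  have e : (⟨HahnSeries.C a * x, h⟩ : gaussRingV O)
      = ⟨iotaV O (HahnSeries.C (⟨a, ha⟩ : ↥O)), iotaV_mem_gaussRingV O _⟩ * ⟨x, hx⟩ := by
    apply Subtype.ext
    show HahnSeries.C a * x = iotaV O (HahnSeries.C (⟨a, ha⟩ : ↥O)) * x
    rw [iotaV_C]
  rw [e, map_mul, gaussRedV_iotaV, redV_C]
  have : resV O ⟨a, ha⟩ = 0 := by
    by_contra hne
    exact hna ((IsLocalRing.residue_ne_zero_iff_isUnit _).1 hne)
  rw [this, map_zero, zero_mul]

/-- **Orthonormality**: if the reductions of the `f_i` are independent and `Σ c_i f_i` lies in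
the Gauss ring, then all `c_i` lie in `O`. -/
theorem coeff_mem_of_mem_gaussRingV {ι : Type*} [Fintype ι] {f : ι → LaurentSeries ↥O}
    (hf : LinearIndependent (kV O) (fun i => redV O (f i))) (c : ι → C)
    (hx : ∑ i, c i • iotaV O (f i) ∈ gaussRingV O) : ∀ i, c i ∈ O := by
  by_contra hcon
  push Not at hcon
  obtain ⟨j, hj⟩ := hcon
  have hc0 : c ≠ 0 := by
    intro h
    apply hj
    rw [h]
    exact O.zero_mem
  obtain ⟨m, hcm, hmax⟩ := exists_max_coeff O c hc0
  -- `c m ∉ O`
  have hcmO : c m ∉ O := by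
    intro hmem
    apply hj
    have := O.mul_mem _ _ (hmax j) hmem
    rwa [mul_assoc, inv_mul_cancel₀ hcm, mul_one] at this
  have hinv : (c m)⁻¹ ∈ O := (O.mem_or_inv_mem (c m)).resolve_left hcmO
  have hnu : ¬ IsUnit (⟨(c m)⁻¹, hinv⟩ : ↥O) := by
    intro hu
    rw [isUnit_iff_inv_mem] at hu
    apply hcmO
    have := hu.2
    simpa using this
  let d : ι → ↥O := fun i => ⟨c i * (c m)⁻¹, hmax i⟩
  have hdm : IsUnit (d m) := by
    have : d m = 1 := Subtype.ext (mul_inv_cancel₀ hcm)
    rw [this]
    exact isUnit_one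
  have h1 : iotaV O (intComb O f d) = HahnSeries.C (c m)⁻¹ * ∑ i, c i • iotaV O (f i) := by
    rw [iotaV_intComb, HahnSeries.C_mul_eq_smul, Finset.smul_sum]
    refine Finset.sum_congr rfl fun i _ => ?_
    rw [smul_smul, mul_comm]
  have hmem : HahnSeries.C (c m)⁻¹ * ∑ i, c i • iotaV O (f i) ∈ gaussRingV O := by
    rw [← h1]
    exact iotaV_mem_gaussRingV O _
  have h2 := gaussRedV_C_mul_eq_zero O hinv hnu hx hmem
  have h3 : (⟨HahnSeries.C (c m)⁻¹ * ∑ i, c i • iotaV O (f i), hmem⟩ : gaussRingV O)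
      = ⟨iotaV O (intComb O f d), iotaV_mem_gaussRingV O _⟩ := Subtype.ext h1.symm
  rw [h3, gaussRedV_iotaV] at h2
  exact redV_intComb_ne_zero O hf hdm h2

/-- The reduction of an integral combination. -/
theorem gaussRedV_sum {ι : Type*} [Fintype ι] (f : ι → LaurentSeries ↥O) (d : ι → ↥O)
    (hx : ∑ i, ((d i : ↥O) : C) • iotaV O (f i) ∈ gaussRingV O) :
    gaussRedV O ⟨_, hx⟩ = ∑ i, resV O (d i) • redV O (f i) := by
  have e : (⟨_, hx⟩ : gaussRingV O) = ⟨iotaV O (intComb O f d), iotaV_mem_gaussRingV O _⟩ :=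
    Subtype.ext (iotaV_intComb O f d).symm
  rw [e, gaussRedV_iotaV, redV_intComb]

/-! ## The reduction of a subspace -/

theorem C_mul_mem_gaussRingV (a : ↥O) {x : LaurentSeries C} (hx : x ∈ gaussRingV O) :
    HahnSeries.C (a : C) * x ∈ gaussRingV O := by
  rw [← iotaV_C]
  exact (gaussRingV O).mul_mem (iotaV_mem_gaussRingV O _) hx

theorem gaussRedV_C_mul (a : ↥O) {x : LaurentSeries C} (hx : x ∈ gaussRingV O) :
    gaussRedV O ⟨HahnSeries.C (a : C) * x, C_mul_mem_gaussRingV O a hx⟩
      = resV O a • gaussRedV O ⟨x, hx⟩ := by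
  have e : (⟨HahnSeries.C (a : C) * x, C_mul_mem_gaussRingV O a hx⟩ : gaussRingV O)
      = ⟨iotaV O (HahnSeries.C a), iotaV_mem_gaussRingV O _⟩ * ⟨x, hx⟩ := by
    apply Subtype.ext
    show HahnSeries.C (a : C) * x = iotaV O (HahnSeries.C a) * x
    rw [iotaV_C]
  rw [e, map_mul, gaussRedV_iotaV, redV_C, HahnSeries.C_mul_eq_smul]

/-- The reduction of `W ∩ (Gauss ring)`: a `k`-subspace of `k((t))`. -/
def redSub (W : Submodule C (LaurentSeries C)) : Submodule (kV O) (LaurentSeries (kV O)) where
  carrier := {y | ∃ (x : LaurentSeries C) (hx : x ∈ gaussRingV O),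
    x ∈ W ∧ gaussRedV O ⟨x, hx⟩ = y}
  zero_mem' := by
    refine ⟨0, (gaussRingV O).zero_mem, W.zero_mem, ?_⟩
    have e : (⟨0, (gaussRingV O).zero_mem⟩ : gaussRingV O) = 0 := rfl
    rw [e, map_zero]
  add_mem' := by
    rintro y y' ⟨x, hx, hxW, rfl⟩ ⟨x', hx', hxW', rfl⟩
    refine ⟨x + x', (gaussRingV O).add_mem hx hx', W.add_mem hxW hxW', ?_⟩
    have e : (⟨x + x', (gaussRingV O).add_mem hx hx'⟩ : gaussRingV O)
        = ⟨x, hx⟩ + ⟨x', hx'⟩ := rfl
    rw [e, map_add]
  smul_mem' := by
    rintro a y ⟨x, hx, hxW, rfl⟩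
    obtain ⟨a, rfl⟩ := IsLocalRing.residue_surjective a
    exact ⟨HahnSeries.C (a : C) * x, C_mul_mem_gaussRingV O a hx, C_mul_mem W _ hxW,
      gaussRedV_C_mul O a hx⟩

theorem mem_redSub {W : Submodule C (LaurentSeries C)} {y : LaurentSeries (kV O)} :
    y ∈ redSub O W ↔ ∃ (x : LaurentSeries C) (hx : x ∈ gaussRingV O),
      x ∈ W ∧ gaussRedV O ⟨x, hx⟩ = y := Iff.rfl

/-- **Orthonormal bases**, final form. -/
theorem exists_orthonormal (W : Submodule C (LaurentSeries C)) [FiniteDimensional C W]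
    (hW : PrimScalable O W) :
    ∃ f : Fin (Module.finrank C W) → LaurentSeries ↥O,
      LinearIndependent (kV O) (fun i => redV O (f i)) ∧
      Submodule.span C (Set.range fun i => iotaV O (f i)) = W ∧
      redSub O W = Submodule.span (kV O) (Set.range fun i => redV O (f i)) ∧
      ∀ x ∈ W, x ∈ gaussRingV O → ∃ d : Fin (Module.finrank C W) → ↥O,
        x = ∑ i, ((d i : ↥O) : C) • iotaV O (f i) := by
  obtain ⟨f, hfW, hfli⟩ := exists_orthonormal_aux O _ W inferInstance rfl hW
  have hli := linearIndependent_iotaV O hfli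
  have hspan : Submodule.span C (Set.range fun i => iotaV O (f i)) = W := by
    apply Submodule.eq_of_le_of_finrank_eq
    · rw [Submodule.span_le]
      rintro _ ⟨i, rfl⟩
      exact hfW i
    · rw [finrank_span_eq_card hli, Fintype.card_fin]
  have hrepr : ∀ x ∈ W, x ∈ gaussRingV O → ∃ d : Fin (Module.finrank C W) → ↥O,
      x = ∑ i, ((d i : ↥O) : C) • iotaV O (f i) := by
    intro x hxW hx
    rw [← hspan] at hxW
    obtain ⟨c, hc⟩ := (Submodule.mem_span_range_iff_exists_fun C).mp hxW
    have hcO := coeff_mem_of_mem_gaussRingV O hfli c (by rw [hc]; exact hx)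
    exact ⟨fun i => ⟨c i, hcO i⟩, hc.symm⟩
  refine ⟨f, hfli, hspan, ?_, hrepr⟩
  apply le_antisymm
  · rintro y ⟨x, hx, hxW, rfl⟩
    obtain ⟨d, hd⟩ := hrepr x hxW hx
    subst hd
    rw [gaussRedV_sum]
    exact Submodule.sum_mem _ fun i _ =>
      Submodule.smul_mem _ _ (Submodule.subset_span ⟨i, rfl⟩)
  · rw [Submodule.span_le]
    rintro _ ⟨i, rfl⟩
    exact ⟨iotaV O (f i), iotaV_mem_gaussRingV O _, hfW i, gaussRedV_iotaV O _⟩

/-- **LAT**: the reduction of a scalable finite-dimensional subspace has the same dimension. -/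
theorem finrank_redSub (W : Submodule C (LaurentSeries C)) [FiniteDimensional C W]
    (hW : PrimScalable O W) :
    Module.finrank (kV O) (redSub O W) = Module.finrank C W := by
  obtain ⟨f, hfli, -, hred, -⟩ := exists_orthonormal O W hW
  rw [hred, finrank_span_eq_card hfli, Fintype.card_fin]

theorem finite_redSub (W : Submodule C (LaurentSeries C)) [FiniteDimensional C W]
    (hW : PrimScalable O W) : Module.Finite (kV O) (redSub O W) := by
  obtain ⟨f, -, -, hred, -⟩ := exists_orthonormal O W hW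
  rw [hred]
  exact FiniteDimensional.span_of_finite _ (Set.finite_range _)

end Fermat.Agent.RED.H42

end
end
-- ==== END Fermat.Agent.RED.H42_Lat

-- ==== BEGIN Fermat.Agent.RED.H42_RiemannStmt
section

/-!
# G-RED, package FF-R (helper42): the interface statements `Stmt_FFR_*` from the zeros theorem

The only input is the zeros theorem (S24 FF1b / FF-B `stmt_FFB_zeros`) in the shape
`Fermat.Agent.S24.H59.ZerosStmt K F`.
-/

set_option autoImplicit false

noncomputable section

open AlgebraicCurve IntermediateField WithZero Polynomial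

namespace Fermat.Agent.RED.H42

open Fermat.Agent.S24

variable {K F : Type*} [Field K] [Field F] [Algebra K F]

local notation "L" => riemannRochSpace

/-- Over an algebraically closed field, an element outside `K` is transcendental. -/
theorem transcendental_of_not_mem_range [IsAlgClosed K] {f : F}
    (hf : f ∉ Set.range (algebraMap K F)) : Transcendental K f := by
  intro halg
  have hint : IsIntegral K f := halg.isIntegral
  have hdeg1 : (minpoly K f).degree = 1 :=
    IsAlgClosed.degree_eq_one_of_irreducible K (minpoly.irreducible hint)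
  obtain ⟨a, ha⟩ := minpoly.mem_range_of_degree_eq_one K f hdeg1
  exact hf ⟨a, ha⟩

/-- The zeros theorem implies that a transcendental element has a zero. -/
theorem exists_zero_of_zeros (hz : H59.ZerosStmt K F) {f : F} (hf : Transcendental K f)
    [FiniteDimensional K⟮f⟯ F] : ∃ v : Place K F, 0 < v.ord f := by
  obtain ⟨-, hsum⟩ := hz f hf
  by_contra hne
  push Not at hne
  have hempty : {v : Place K F | 0 < v.ord f} = ∅ := by
    ext v
    simp only [Set.mem_ofPred_eq, Set.mem_empty_iff_false, iff_false, not_lt]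
    exact hne v
  rw [hempty, finsum_mem_empty] at hsum
  have hpos : 0 < Module.finrank K⟮f⟯ F := Module.finrank_pos
  omega

/-- The hypotheses of Riemann's theorem follow from the zeros theorem. -/
theorem hyp_of_zeros [IsAlgClosed K] (hz : H59.ZerosStmt K F) {x : F}
    (hx : Transcendental K x) [FiniteDimensional K⟮x⟯ F] : Hyp K F where
  principal f hf := by
    obtain ⟨hfin, hdeg⟩ := ff_degree_principal_of hz x hx f hf
    refine ⟨Finsupp.ofSupportFinite (fun v => v.ord f) hfin, fun v => rfl, hdeg _ fun v => rfl⟩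
  deg_one v := ff_deg_eq_one x hx v
  exists_pole f hf := by
    have htr : Transcendental K f := transcendental_of_not_mem_range hf
    have htr' : Transcendental K f⁻¹ := fun h => htr (IsAlgebraic.inv_iff.mp h)
    have := ff_finite_of_transcendental x hx f⁻¹ htr'
    obtain ⟨v, hv⟩ := exists_zero_of_zeros hz htr'
    refine ⟨v, ?_⟩
    rw [Place.ord_inv] at hv
    omega

/-- The pole divisor of `x` has degree `[F : K(x)]`. -/
theorem exists_pole_divisor [IsAlgClosed K] (hz : H59.ZerosStmt K F) {x : F}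
    (hx : Transcendental K x) [FiniteDimensional K⟮x⟯ F] :
    ∃ B : Divisor K F, 0 ≤ B ∧ x ∈ L B ∧
      Divisor.degree B = (Module.finrank K⟮x⟯ F : ℤ) := by
  classical
  have htr' : Transcendental K x⁻¹ := fun h => hx (IsAlgebraic.inv_iff.mp h)
  have := ff_finite_of_transcendental x hx x⁻¹ htr'
  obtain ⟨hPfin, hPsum⟩ := hz x⁻¹ htr'
  rw [H59.finrank_adjoin_inv] at hPsum
  have hsupp : (Function.support fun v : Place K F => max (v.ord x⁻¹) 0).Finite := by
    refine hPfin.subset fun v hv => ?_
    simp only [Function.mem_support, ne_eq] at hv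
    simp only [Set.mem_ofPred_eq]
    omega
  refine ⟨Finsupp.ofSupportFinite _ hsupp, ?_, ?_, ?_⟩
  · rw [Finsupp.le_def]
    intro v
    exact le_max_right _ _
  · rw [mem_riemannRochSpace_iff]
    intro v
    right
    have h1 : (Finsupp.ofSupportFinite _ hsupp : Divisor K F) v = max (v.ord x⁻¹) 0 := rfl
    rw [h1, Place.ord_inv]
    omega
  · rw [H59.degree_eq_sum_of_deg_eq_one (fun v => ff_deg_eq_one x hx v), ← hPsum,
      finsum_mem_eq_finite_toFinset_sum _ hPfin]
    have hs : (Finsupp.ofSupportFinite _ hsupp : Divisor K F).support = hPfin.toFinset := by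
      ext v
      simp only [Finsupp.mem_support_iff, Set.Finite.mem_toFinset, Set.mem_ofPred_eq]
      have h1 : (Finsupp.ofSupportFinite _ hsupp : Divisor K F) v = max (v.ord x⁻¹) 0 := rfl
      rw [h1]
      omega
    rw [hs]
    refine Finset.sum_congr rfl fun v hv => ?_
    have h1 : (Finsupp.ofSupportFinite _ hsupp : Divisor K F) v = max (v.ord x⁻¹) 0 := rfl
    rw [h1]
    simp only [Set.Finite.mem_toFinset, Set.mem_ofPred_eq] at hv
    omega

/-! ## The interface statements -/

/-- The zeros theorem for all function fields over algebraically closed fields (FF-B). -/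
def ZerosAll : Prop :=
  ∀ (K F : Type) [Field K] [Field F] [Algebra K F] [IsAlgClosed K], IsFF K F →
    H59.ZerosStmt K F

theorem stmt_FFR_finite_of (hz : ZerosAll) : Stmt_FFR_finite := by
  intro K F _ _ _ _ hFF D
  obtain ⟨x, hx, hfin⟩ := hFF
  exact finite_L (hyp_of_zeros (hz K F ⟨x, hx, hfin⟩) hx) D

theorem stmt_FFR_le_of (hz : ZerosAll) : Stmt_FFR_le := by
  intro K F _ _ _ _ hFF D
  obtain ⟨x, hx, hfin⟩ := hFF
  have H := hyp_of_zeros (hz K F ⟨x, hx, hfin⟩) hx
  exact ⟨fun h => L_eq_bot_of_degree_neg H h, fun h => finrank_L_le H h⟩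

theorem stmt_FFR_riemann_of (hz : ZerosAll) : Stmt_FFR_riemann := by
  intro K F _ _ _ _ hFF
  obtain ⟨x, hx, hfin⟩ := hFF
  have hzKF := hz K F ⟨x, hx, hfin⟩
  have H := hyp_of_zeros hzKF hx
  obtain ⟨B, hB, hxB, hdeg⟩ := exists_pole_divisor hzKF hx
  exact riemann H hx hB hxB hdeg.le

end Fermat.Agent.RED.H42

end
end
-- ==== END Fermat.Agent.RED.H42_RiemannStmt

-- ==== BEGIN Fermat.Agent.RED.H73_GADeg
section

/-!
# G-RED package GA (helper73): degree and separability of `K(u, J) / K(J)`

Abstract setting `ConjHyp q₀ J U` over an infinite field `K` (any characteristic):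
* `ConjHyp.natDegree_minpoly_field` : the minimal polynomial of `u` over the FIELD `K(J)` has
  degree `card Q`;
* `ConjHyp.relfinrank_eq` : `[K(u, J) : K(J)] = card Q`;
* `ConjHyp.isSeparable_u`, `ConjHyp.isSeparable_of_mem` : `K(u, J) / K(J)` is separable.
-/

set_option autoImplicit false

open Polynomial ModularCurve Fermat.Agent.S28 Fermat.Agent.S28.H73 Fermat.Agent.S28.H90
open IntermediateField
open scoped IntermediateField.algebraAdjoinAdjoin

noncomputable section

namespace Fermat.Agent.RED.H73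

variable {K : Type} [Field K] [Infinite K] {Q : Type} [Fintype Q] {q₀ : Q}
  {J : LaurentSeries K} {U : Q → LaurentSeries K}

/-- Gauss's lemma: the minimal polynomial of `u` over the field `K(J)` is the one over `K[J]`. -/
theorem ConjHyp.minpoly_field (h : ConjHyp q₀ J U) :
    minpoly ↥(adjoin K ({J} : Set (LaurentSeries K))) (U q₀)
      = (minpoly ↥(Algebra.adjoin K ({J} : Set (LaurentSeries K))) (U q₀)).map
          (algebraMap ↥(Algebra.adjoin K ({J} : Set (LaurentSeries K)))
            ↥(adjoin K ({J} : Set (LaurentSeries K)))) := by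
  have := h.isIntegrallyClosed
  exact minpoly.isIntegrallyClosed_eq_field_fractions' _ h.isIntegral_u

theorem ConjHyp.natDegree_minpoly_field (h : ConjHyp q₀ J U) :
    (minpoly ↥(adjoin K ({J} : Set (LaurentSeries K))) (U q₀)).natDegree = Fintype.card Q := by
  rw [h.minpoly_field, (minpoly.monic h.isIntegral_u).natDegree_map, h.natDegree_minpoly]

theorem ConjHyp.isIntegral_u_field (h : ConjHyp q₀ J U) :
    IsIntegral ↥(adjoin K ({J} : Set (LaurentSeries K))) (U q₀) :=
  h.isIntegral_u.tower_top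

omit [Infinite K] in
theorem ConjHyp.adjoin_le (_h : ConjHyp q₀ J U) :
    adjoin K ({J} : Set (LaurentSeries K)) ≤ adjoin K ({U q₀, J} : Set (LaurentSeries K)) :=
  IntermediateField.adjoin.mono _ _ _ (by intro x hx; right; exact hx)

/-- **Degree**: `[K(u, J) : K(J)] = card Q`. -/
theorem ConjHyp.relfinrank_eq (h : ConjHyp q₀ J U) :
    (adjoin K ({J} : Set (LaurentSeries K))).relfinrank
      (adjoin K ({U q₀, J} : Set (LaurentSeries K))) = Fintype.card Q := by
  rw [relfinrank_eq_finrank_of_le h.adjoin_le]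
  have e : extendScalars h.adjoin_le
      = adjoin ↥(adjoin K ({J} : Set (LaurentSeries K))) ({U q₀} : Set (LaurentSeries K)) := by
    apply restrictScalars_injective K
    rw [extendScalars_restrictScalars, adjoin_adjoin_left]
    congr 1
    ext x
    simp [or_comm]
  rw [e, adjoin.finrank h.isIntegral_u_field, h.natDegree_minpoly_field]

/-- `u` is a simple root of its minimal polynomial: `K(J)(u) / K(J)` is separable. -/
theorem ConjHyp.isSeparable_u (h : ConjHyp q₀ J U) :
    IsSeparable ↥(adjoin K ({J} : Set (LaurentSeries K))) (U q₀) := by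
  classical
  unfold IsSeparable
  rw [separable_iff_derivative_ne_zero (minpoly.irreducible h.isIntegral_u_field)]
  intro h0
  -- map everything to `K((t))`
  have hmap : (minpoly ↥(adjoin K ({J} : Set (LaurentSeries K))) (U q₀)).map
      (algebraMap ↥(adjoin K ({J} : Set (LaurentSeries K))) (LaurentSeries K)) = chi U := by
    rw [h.minpoly_field, Polynomial.map_map, h.minpoly_eq_chiR, ← h.map_chiR]
    rfl
  have h1 : derivative (chi U) = 0 := by
    rw [← hmap, derivative_map, h0, Polynomial.map_zero]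
  have h2 : (derivative (chi U)).eval (U q₀) = ∏ q ∈ Finset.univ.erase q₀, (U q₀ - U q) := by
    rw [chi, derivative_prod_finset, eval_finsetSum]
    rw [Finset.sum_eq_single q₀]
    · simp [eval_prod]
    · intro q _ hq
      rw [eval_mul, eval_prod]
      have : ∏ j ∈ Finset.univ.erase q, eval (U q₀) (X - C (U j)) = 0 := by
        refine Finset.prod_eq_zero (i := q₀) (Finset.mem_erase.2 ⟨hq.symm, Finset.mem_univ _⟩) ?_
        simp
      rw [this, zero_mul]
    · intro hq
      exact absurd (Finset.mem_univ q₀) hq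
  rw [h1, eval_zero] at h2
  have h3 : (∏ q ∈ Finset.univ.erase q₀, (U q₀ - U q)) ≠ 0 := by
    rw [Finset.prod_ne_zero_iff]
    intro q hq
    rw [Finset.mem_erase] at hq
    exact sub_ne_zero.2 (h.U_ne_u q hq.1).symm
  exact h3 h2.symm

/-- **Separability**: every element of `K(u, J)` is separable over `K(J)`. -/
theorem ConjHyp.isSeparable_of_mem (h : ConjHyp q₀ J U) {y : LaurentSeries K}
    (hy : y ∈ adjoin K ({U q₀, J} : Set (LaurentSeries K))) :
    IsSeparable ↥(adjoin K ({J} : Set (LaurentSeries K))) y := by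
  have hy' : y ∈ adjoin ↥(adjoin K ({J} : Set (LaurentSeries K)))
      ({U q₀} : Set (LaurentSeries K)) := by
    have e : (adjoin ↥(adjoin K ({J} : Set (LaurentSeries K)))
        ({U q₀} : Set (LaurentSeries K))).restrictScalars K
        = adjoin K ({U q₀, J} : Set (LaurentSeries K)) := by
      rw [adjoin_adjoin_left]
      congr 1
      ext x
      simp [or_comm]
    have : y ∈ (adjoin ↥(adjoin K ({J} : Set (LaurentSeries K)))
        ({U q₀} : Set (LaurentSeries K))).restrictScalars K := by
      rw [e]; exact hy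
    exact this
  have hsep : Algebra.IsSeparable ↥(adjoin K ({J} : Set (LaurentSeries K)))
      ↥(adjoin ↥(adjoin K ({J} : Set (LaurentSeries K))) ({U q₀} : Set (LaurentSeries K))) :=
    (isSeparable_adjoin_simple_iff_isSeparable _ _).2 h.isSeparable_u
  have := Algebra.IsSeparable.isSeparable ↥(adjoin K ({J} : Set (LaurentSeries K)))
    (⟨y, hy'⟩ : ↥(adjoin ↥(adjoin K ({J} : Set (LaurentSeries K)))
      ({U q₀} : Set (LaurentSeries K))))
  unfold IsSeparable at this ⊢
  rwa [IntermediateField.minpoly_eq] at this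

end Fermat.Agent.RED.H73

end
end
-- ==== END Fermat.Agent.RED.H73_GADeg

-- ==== BEGIN Fermat.Agent.RED.H76_RHDefs
section

/-!
# RH-R (helper76, for BAD_q leaf GENUS): interface statements

Goal of the package: for a function field `F / K` (`K` algebraically closed of characteristic
zero) the RIEMANN genus `g` (`RED.H17.IsGenus K F g c`) satisfies the Hurwitz formula
`2 g - 2 = ∑_a (n - r_a) + (n - r_∞) - 2 n` for every non-constant `x`, `n = [F : K(x)]`,
`r_a = #{v | ord_v (x - a) > 0}`, `r_∞ = #{v | ord_v x < 0}`.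

Route (Dedekind–Weber): a reduced basis `ω` of `B = integralClosure K[x] F` with degrees `d_i`
(`∑ d_i = g + n - 1`, helper76); `x^{-d_i} ω_i` is a basis of `B' = integralClosure K[x⁻¹] F`;
`disc' = x^{-2 ∑ d_i} disc`; the order of the discriminant of an integral basis at `x = a` is
exactly `n - r_a` (`Stmt_discrExact`: upper bound = `H82.h82_tameDiscr`, lower bound =
`Stmt_discrLower`).

This file contains definitions only.
-/

set_option autoImplicit false

noncomputable section

open AlgebraicCurve IntermediateField Polynomial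

namespace Fermat.Agent.RED.H76

/-- **DISC-LOW** (mirror of `H82.h82_tameDiscr`; any residue characteristic): `R` a PID,
`B` the integral closure of `R` in a finite separable extension `L` of `K = Frac R`, `c` an
`R`-basis of `B` (`n` elements), `π` a prime of `R` such that all maximal ideals of `B` over `π`
have residue degree one.  Then `π ^ (n - r) ∣ disc(c)`, `r` the number of maximal ideals of `B`
containing `π`.

Proof sketch: Smith normal form of the trace pairing as in `h82_tameDiscr`
(`Tr(b'_i ·) = a_i • bM_i`, `disc = unit * ∏ a_i`).  The `b'_i` with `π ∤ a_i` are linearly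
independent modulo `J = rad (π B)`: if `z = ∑ λ_i b'_i ∈ J` then `z b` is nilpotent modulo `π`,
so `π ∣ Tr(z b)` for all `b`, hence `π ∣ λ_i a_i` for all `i`.  As `B / J` embeds into
`∏_{P ∋ π} B / P = (R / π)^r` there are at most `r` such `i`. -/
def Stmt_discrLower : Prop :=
  ∀ (R K L : Type) [CommRing R] [IsDomain R] [IsPrincipalIdealRing R] [Field K] [Field L]
    [Algebra R K] [IsFractionRing R K] [Algebra K L] [Algebra R L] [IsScalarTower R K L]
    [FiniteDimensional K L] [Algebra.IsSeparable K L]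
    (ι : Type) [Fintype ι] [DecidableEq ι] (c : Module.Basis ι R ↥(integralClosure R L))
    (π : R), Prime π →
    (∀ P : Ideal ↥(integralClosure R L), P.IsMaximal →
      algebraMap R ↥(integralClosure R L) π ∈ P →
        Function.Surjective (algebraMap R (↥(integralClosure R L) ⧸ P))) →
    π ^ (Fintype.card ι -
        Set.ncard {P : Ideal ↥(integralClosure R L) |
          P.IsMaximal ∧ algebraMap R ↥(integralClosure R L) π ∈ P}) ∣ Algebra.discr R c

/-- **DISC-EXACT**: for the chart `x` of a function field over an algebraically closed field of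
characteristic zero, the discriminant of an integral basis of `B = integralClosure K[x] F`,
written as a polynomial `p(x)`, vanishes at `x = a` to the order `n - #{v | ord_v (x - a) > 0}`.

From `H82.h82_tameDiscr` (upper bound), `Stmt_discrLower` (lower bound), the dictionary
`H76.card_ptsOver` and `H79.isDedekind_Bx`. -/
def Stmt_discrExact : Prop :=
  ∀ (K F : Type) [Field K] [Field F] [Algebra K F] [IsAlgClosed K] [CharZero K]
    (x : F), Transcendental K x → FiniteDimensional K⟮x⟯ F →
    ∀ (n : ℕ) (c : Module.Basis (Fin n) ↥(Algebra.adjoin K {x})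
        ↥(integralClosure ↥(Algebra.adjoin K {x}) F))
      (p : K[X]),
      aeval x p = (((Algebra.discr ↥(Algebra.adjoin K {x}) c : ↥(Algebra.adjoin K {x})) : F)) →
      ∀ a : K, p.rootMultiplicity a
        + Nat.card {v : Place K F // 0 < v.ord (x - algebraMap K F a)} = n

/-- **DISC-SCALE**: if `c` is a `K[x]`-basis of `B = integralClosure K[x] F`, `c'` a
`K[x⁻¹]`-basis of `B' = integralClosure K[x⁻¹] F` and `c'_i = x^{-d_i} c_i`, then
`disc(c') = x^{-2 ∑ d_i} disc(c)` (in `F`).

Proof: both discriminants are `det (Tr_{F / K(x)} (· ·))` (`Algebra.discr_localizationLocalization`,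
`K⟮x⁻¹⟯ = K⟮x⟯`), and the trace is `K(x)`-linear. -/
def Stmt_discrScale : Prop :=
  ∀ (K F : Type) [Field K] [Field F] [Algebra K F] [IsAlgClosed K] [CharZero K]
    (x : F), Transcendental K x → FiniteDimensional K⟮x⟯ F →
    ∀ (n : ℕ) (c : Module.Basis (Fin n) ↥(Algebra.adjoin K {x})
        ↥(integralClosure ↥(Algebra.adjoin K {x}) F))
      (c' : Module.Basis (Fin n) ↥(Algebra.adjoin K {x⁻¹})
        ↥(integralClosure ↥(Algebra.adjoin K {x⁻¹}) F))
      (d : Fin n → ℕ),
      (∀ i, ((c' i : ↥(integralClosure ↥(Algebra.adjoin K {x⁻¹}) F)) : F)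
        = x⁻¹ ^ (d i) * ((c i : ↥(integralClosure ↥(Algebra.adjoin K {x}) F)) : F)) →
      (((Algebra.discr ↥(Algebra.adjoin K {x⁻¹}) c' : ↥(Algebra.adjoin K {x⁻¹})) : F))
        = x⁻¹ ^ (2 * ∑ i, d i)
          * (((Algebra.discr ↥(Algebra.adjoin K {x}) c : ↥(Algebra.adjoin K {x})) : F))

/-- **RH-R**: the Riemann genus satisfies the Hurwitz formula (same shape as S24
`asm_genus_eq`). -/
def Stmt_RHR : Prop :=
  ∀ (K F : Type) [Field K] [Field F] [Algebra K F] [IsAlgClosed K] [CharZero K]
    (g : ℕ) (c : ℤ), Fermat.Agent.RED.H17.IsGenus K F g c →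
    ∀ (x : F), Transcendental K x → FiniteDimensional K⟮x⟯ F →
    ∀ (S : Finset K) (r : K → ℕ),
      (∀ a ∈ S, Nat.card {v : Place K F // 0 < v.ord (x - algebraMap K F a)} = r a) →
      (∀ a ∉ S, Nat.card {v : Place K F // 0 < v.ord (x - algebraMap K F a)}
        = Module.finrank K⟮x⟯ F) →
      ∀ (rinf : ℕ), Nat.card {v : Place K F // v.ord x < 0} = rinf →
      2 * (g : ℤ) - 2
        = ∑ a ∈ S, ((Module.finrank K⟮x⟯ F : ℤ) - r a) - Module.finrank K⟮x⟯ F - rinf

end Fermat.Agent.RED.H76

end
end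
-- ==== END Fermat.Agent.RED.H76_RHDefs

-- ==== BEGIN Fermat.Agent.RED.H76_RHFam
section

/-!
# RH-R (helper76), part I b: independent families and the exchange lemma

`comb x p ω = ∑ p_i(x) ω_i`.  `Fam P x r ω d`: `ω_i ∈ L(d_i P)` and the `ω_i` are linearly
independent over `K[x]`.  **Exchange lemma** (`Fam.exchange`): if `t(x) h = ∑ q_i(x) ω_i` with
`q_j ≠ 0` and `h ∈ L((d_j - 1) P)` then replacing `ω_j` by `h` gives an independent family of
weight `∑ d_i - 1`.
-/

set_option autoImplicit false

noncomputable section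

open AlgebraicCurve WithZero Polynomial

namespace Fermat.Agent.RED.H76

variable {K F : Type*} [Field K] [Field F] [Algebra K F]

/-- The polynomial combination `∑ p_i(x) ω_i`. -/
def comb (x : F) {r : ℕ} (p : Fin r → K[X]) (ω : Fin r → F) : F :=
  ∑ i, aeval x (p i) * ω i

section Comb

variable (x : F) {r : ℕ} (p p' : Fin r → K[X]) (ω : Fin r → F)

theorem comb_add : comb x (p + p') ω = comb x p ω + comb x p' ω := by
  unfold comb
  rw [← Finset.sum_add_distrib]
  refine Finset.sum_congr rfl fun i _ => ?_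
  rw [Pi.add_apply, map_add, add_mul]

theorem comb_sub : comb x (p - p') ω = comb x p ω - comb x p' ω := by
  unfold comb
  rw [← Finset.sum_sub_distrib]
  refine Finset.sum_congr rfl fun i _ => ?_
  rw [Pi.sub_apply, map_sub, sub_mul]

theorem comb_neg : comb x (-p) ω = -comb x p ω := by
  unfold comb
  rw [← Finset.sum_neg_distrib]
  refine Finset.sum_congr rfl fun i _ => ?_
  rw [Pi.neg_apply, map_neg, neg_mul]

theorem comb_zero : comb x (0 : Fin r → K[X]) ω = 0 := by
  unfold comb
  simp

theorem comb_mul (t : K[X]) : comb x (fun i => t * p i) ω = aeval x t * comb x p ω := by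
  unfold comb
  rw [Finset.mul_sum]
  refine Finset.sum_congr rfl fun i _ => ?_
  rw [map_mul, mul_assoc]

theorem comb_single [DecidableEq (Fin r)] (j : Fin r) (a : K[X]) :
    comb x (Pi.single j a) ω = aeval x a * ω j := by
  unfold comb
  rw [Finset.sum_eq_single j]
  · rw [Pi.single_eq_same]
  · intro i _ hij
    rw [Pi.single_eq_of_ne hij, map_zero, zero_mul]
  · intro h
    exact absurd (Finset.mem_univ j) h

theorem comb_update [DecidableEq (Fin r)] (j : Fin r) (h : F) :
    comb x p (Function.update ω j h) = comb x p ω + aeval x (p j) * (h - ω j) := by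
  unfold comb
  have h1 : ∀ i, aeval x (p i) * Function.update ω j h i
      = aeval x (p i) * ω i + (if i = j then aeval x (p j) * (h - ω j) else 0) := by
    intro i
    by_cases hij : i = j
    · subst hij
      rw [Function.update_self, if_pos rfl]
      ring
    · rw [Function.update_of_ne hij, if_neg hij, add_zero]
  rw [Finset.sum_congr rfl fun i _ => h1 i, Finset.sum_add_distrib, Finset.sum_ite_eq' ,
    if_pos (Finset.mem_univ j)]

end Comb

/-- An independent family of functions with poles only at the poles of `x`. -/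
structure Fam (P : Divisor K F) (x : F) (r : ℕ) (ω : Fin r → F) (d : Fin r → ℕ) : Prop where
  mem : ∀ i, InL P (d i) (ω i)
  indep : ∀ p : Fin r → K[X], comb x p ω = 0 → p = 0

variable {P : Divisor K F} {x : F}

theorem Fam.exchange (hneg : ∀ f : F, InL P (-1) f → f = 0)
    {r : ℕ} {ω : Fin r → F} {d : Fin r → ℕ} (h : Fam P x r ω d) (j : Fin r) (hnew : F)
    (hmem : InL P ((d j : ℤ) - 1) hnew) (t : K[X]) (ht : t ≠ 0) (q : Fin r → K[X])
    (hqj : q j ≠ 0) (hrel : aeval x t * hnew = comb x q ω) :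
    ∃ (ω' : Fin r → F) (d' : Fin r → ℕ), Fam P x r ω' d' ∧ ∑ i, d' i + 1 = ∑ i, d i := by
  classical
  have hnew0 : hnew ≠ 0 := by
    rintro rfl
    rw [mul_zero] at hrel
    have := h.indep q hrel.symm
    exact hqj (by rw [this]; rfl)
  have hdj : 1 ≤ d j := by
    by_contra hlt
    have h0 : d j = 0 := by omega
    rw [h0] at hmem
    exact hnew0 (hneg hnew (by simpa using hmem))
  refine ⟨Function.update ω j hnew, Function.update d j (d j - 1), ⟨?_, ?_⟩, ?_⟩
  · intro i
    by_cases hij : i = j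
    · subst hij
      rw [Function.update_self, Function.update_self]
      have : ((d i - 1 : ℕ) : ℤ) = (d i : ℤ) - 1 := by omega
      rw [this]
      exact hmem
    · rw [Function.update_of_ne hij, Function.update_of_ne hij]
      exact h.mem i
  · intro s hs
    rw [comb_update] at hs
    -- multiply by `t(x)`
    have h1 : comb x (fun i => t * s i + s j * q i
        - (Pi.single j (s j * t) : Fin r → K[X]) i) ω = 0 := by
      have e1 : (fun i => t * s i + s j * q i - (Pi.single j (s j * t) : Fin r → K[X]) i)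
          = ((fun i => t * s i) + (fun i => s j * q i)) - Pi.single j (s j * t) := by
        funext i; simp
      rw [e1, comb_sub, comb_add, comb_mul, comb_mul, comb_single, ← hrel]
      have : aeval x t * comb x s ω + aeval x (s j) * (aeval x t * hnew)
          - aeval x (s j * t) * ω j
          = aeval x t * (comb x s ω + aeval x (s j) * (hnew - ω j)) := by
        rw [map_mul]; ring
      rw [this, hs, mul_zero]
    have h2 := h.indep _ h1
    have hj := congrFun h2 j
    simp only [Pi.single_eq_same, Pi.zero_apply] at hj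
    have hsj : s j = 0 := by
      have : s j * q j = 0 := by
        have e : t * s j + s j * q j - s j * t = s j * q j := by ring
        rw [← e]; exact hj
      exact (mul_eq_zero.mp this).resolve_right hqj
    funext i
    have hi := congrFun h2 i
    simp only [Pi.zero_apply] at hi
    by_cases hij : i = j
    · rw [hij]; exact hsj
    · rw [Pi.single_eq_of_ne hij, hsj, zero_mul, add_zero, sub_zero] at hi
      exact (mul_eq_zero.mp hi).resolve_left ht
  · rw [Finset.sum_update_of_mem (Finset.mem_univ j)]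
    have h2 : ∑ i, d i = d j + ∑ i ∈ Finset.univ \ {j}, d i := by
      rw [← Finset.sum_sdiff (Finset.singleton_subset_iff.mpr (Finset.mem_univ j)),
        Finset.sum_singleton, add_comm]
    rw [h2]
    omega

/-- A family of maximal size and, among those, of minimal weight. -/
structure MinFam (P : Divisor K F) (x : F) (r : ℕ) (ω : Fin r → F) (d : Fin r → ℕ) : Prop
    extends Fam P x r ω d where
  min : ∀ (ω' : Fin r → F) (d' : Fin r → ℕ), Fam P x r ω' d' → ∑ i, d i ≤ ∑ i, d' i
  max : ∀ (ω' : Fin (r + 1) → F) (d' : Fin (r + 1) → ℕ), ¬ Fam P x (r + 1) ω' d'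

theorem MinFam.no_exchange (hneg : ∀ f : F, InL P (-1) f → f = 0)
    {r : ℕ} {ω : Fin r → F} {d : Fin r → ℕ} (h : MinFam P x r ω d) (j : Fin r) (hnew : F)
    (hmem : InL P ((d j : ℤ) - 1) hnew) (t : K[X]) (ht : t ≠ 0) (q : Fin r → K[X])
    (hqj : q j ≠ 0) (hrel : aeval x t * hnew = comb x q ω) : False := by
  obtain ⟨ω', d', hF, hw⟩ := h.toFam.exchange hneg j hnew hmem t ht q hqj hrel
  have := h.min ω' d' hF
  omega

end Fermat.Agent.RED.H76

end
end
-- ==== END Fermat.Agent.RED.H76_RHFam

-- ==== BEGIN Fermat.Agent.S13.H63_CardOfTP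
section

set_option autoImplicit false

namespace Fermat.Agent.S13.H63

open WeierstrassCurve WeierstrassCurve.Affine WeierstrassCurve.Affine.Point Polynomial
open Fermat.Agent.S13

section General

variable {F : Type*} [Field F] (W : WeierstrassCurve.Affine F)

/-- The Weierstrass equation at a fixed `x`, as a monic quadratic polynomial in `y`. -/
noncomputable def yQuad (x : F) : F[X] :=
  X ^ 2 + C (W.a₁ * x + W.a₃) * X - C (x ^ 3 + W.a₂ * x ^ 2 + W.a₄ * x + W.a₆)

lemma yQuad_natDegree (x : F) : (yQuad W x).natDegree = 2 := by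
  unfold yQuad
  compute_degree!

lemma yQuad_ne_zero (x : F) : yQuad W x ≠ 0 := by
  intro h
  have := yQuad_natDegree W x
  rw [h, natDegree_zero] at this
  exact absurd this (by norm_num)

lemma isRoot_yQuad_iff (x y : F) : (yQuad W x).IsRoot y ↔ W.Equation x y := by
  rw [Affine.equation_iff', IsRoot, yQuad]
  simp only [eval_sub, eval_add, eval_pow, eval_X, eval_mul, eval_C]
  constructor <;> intro h <;> linear_combination h

/-- Coding of points by `Option (F × F)`. -/
def ptCode : W.Point → Option (F × F)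
  | .zero => none
  | .some x y _ => some (x, y)

lemma ptCode_injective : Function.Injective (ptCode W) := by
  rintro (_ | ⟨x₁, y₁, h₁⟩) (_ | ⟨x₂, y₂, h₂⟩) h <;>
    simp only [ptCode, Option.some.injEq, Prod.mk.injEq, reduceCtorEq] at h
  · rfl
  · obtain ⟨rfl, rfl⟩ := h; rfl

variable [DecidableEq F]

/-- If the `x`-coordinates of the nonzero `n`-torsion points are roots of a nonzero polynomial `p`
then the `n`-torsion is finite with at most `1 + 2 deg p` points. -/
theorem finite_and_card_torsionBy_le (p : F[X]) (hp : p ≠ 0) (n : ℤ)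
    (hroot : ∀ (x y : F) (h : W.Nonsingular x y), n • Point.some x y h = 0 → p.IsRoot x) :
    Finite (Submodule.torsionBy ℤ W.Point n) ∧
      Nat.card (Submodule.torsionBy ℤ W.Point n) ≤ 1 + 2 * p.natDegree := by
  classical
  set S : Finset (Option (F × F)) :=
    insert none ((p.roots.toFinset.biUnion fun r =>
      (yQuad W r).roots.toFinset.image fun y => (r, y)).image some) with hS
  have hcard : S.card ≤ 1 + 2 * p.natDegree := by
    calc S.card ≤ ((p.roots.toFinset.biUnion fun r =>
          (yQuad W r).roots.toFinset.image fun y => (r, y)).image some).card + 1 :=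
          Finset.card_insert_le _ _
      _ ≤ (p.roots.toFinset.biUnion fun r =>
          (yQuad W r).roots.toFinset.image fun y => (r, y)).card + 1 :=
          Nat.add_le_add_right Finset.card_image_le 1
      _ ≤ p.roots.toFinset.card * 2 + 1 := by
          refine Nat.add_le_add_right (Finset.card_biUnion_le_card_mul _ _ _ fun r _ => ?_) 1
          calc ((yQuad W r).roots.toFinset.image fun y => (r, y)).card
              ≤ (yQuad W r).roots.toFinset.card := Finset.card_image_le
            _ ≤ Multiset.card (yQuad W r).roots := Multiset.toFinset_card_le _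
            _ ≤ (yQuad W r).natDegree := card_roots' _
            _ = 2 := yQuad_natDegree W r
      _ ≤ p.natDegree * 2 + 1 := by
          refine Nat.add_le_add_right (Nat.mul_le_mul_right 2 ?_) 1
          exact (Multiset.toFinset_card_le _).trans (card_roots' p)
      _ = 1 + 2 * p.natDegree := by ring
  have hmem : ∀ P : Submodule.torsionBy ℤ W.Point n, ptCode W P.1 ∈ S := by
    rintro ⟨P, hP⟩
    rw [Submodule.mem_torsionBy_iff] at hP
    rcases P with _ | ⟨x, y, h⟩
    · simp [hS, ptCode]
    · have hx : p.IsRoot x := hroot x y h hP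
      simp only [hS, ptCode, Finset.mem_insert, reduceCtorEq, Finset.mem_image,
        Finset.mem_biUnion, Multiset.mem_toFinset, false_or]
      refine ⟨(x, y), ⟨x, (mem_roots hp).mpr hx, y, ?_, rfl⟩, rfl⟩
      exact (mem_roots (yQuad_ne_zero W x)).mpr ((isRoot_yQuad_iff W x y).mpr h.1)
  let f : Submodule.torsionBy ℤ W.Point n → S := fun P => ⟨ptCode W P.1, hmem P⟩
  have hf : Function.Injective f := by
    intro P Q hPQ
    have : ptCode W P.1 = ptCode W Q.1 := congrArg Subtype.val hPQ
    exact Subtype.ext (ptCode_injective W this)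
  have hfin : Finite (Submodule.torsionBy ℤ W.Point n) := Finite.of_injective f hf
  refine ⟨hfin, ?_⟩
  calc Nat.card (Submodule.torsionBy ℤ W.Point n) ≤ Nat.card S :=
        Nat.card_le_card_of_injective f hf
    _ = S.card := by rw [Nat.card_eq_fintype_card, Fintype.card_coe]
    _ ≤ 1 + 2 * p.natDegree := hcard

end General

/-- `p²` is `1 + 2 * ((p² - 1) / 2)` for the odd prime of a Frey package. -/
theorem one_add_two_mul_half (P : FreyPackage) : 1 + 2 * ((P.p ^ 2 - 1) / 2) = P.p ^ 2 := by
  have hodd : Odd (P.p ^ 2) := P.hp_odd.pow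
  have h1 : P.p ^ 2 % 2 = 1 := Nat.odd_iff.mp hodd
  omega

/-- The torsion polynomial of the interface is nonzero of positive degree over `Q̄`. -/
theorem torsion_poly_map_natDegree (P : FreyPackage) (w : ℤ[X])
    (hdeg : w.natDegree = (P.p ^ 2 - 1) / 2) :
    (w.map (algebraMap ℤ Qbar)).natDegree = (P.p ^ 2 - 1) / 2 ∧
      0 < (w.map (algebraMap ℤ Qbar)).natDegree := by
  have hinj : Function.Injective (algebraMap ℤ Qbar) := (algebraMap ℤ Qbar).injective_int
  have h1 : (w.map (algebraMap ℤ Qbar)).natDegree = (P.p ^ 2 - 1) / 2 := by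
    rw [natDegree_map_eq_of_injective hinj, hdeg]
  refine ⟨h1, ?_⟩
  rw [h1]
  have hp5 := P.hp5
  have : 5 ^ 2 ≤ P.p ^ 2 := Nat.pow_le_pow_left hp5 2
  omega

/-- **I1.** `#E[p](Q̄) ≤ p²`, from the torsion polynomial. -/
theorem card_of_torsion_poly (hTP : Stmt_torsion_poly) : Stmt_card := by
  classical
  intro P
  obtain ⟨w, hdeg, -, hTPw⟩ := hTP P
  obtain ⟨hdegQ, hpos⟩ := torsion_poly_map_natDegree P w hdeg
  have hne : w.map (algebraMap ℤ Qbar) ≠ 0 := by
    intro h
    rw [h, natDegree_zero] at hpos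
    exact lt_irrefl _ hpos
  have key := finite_and_card_torsionBy_le (P.freyCurve⁄Qbar) (w.map (algebraMap ℤ Qbar)) hne
    (P.p : ℤ) (fun x y h hP => (hTPw x y h).mp hP)
  rw [hdegQ, one_add_two_mul_half P] at key
  exact key

/-- **I2.** `E[p](Q̄) ≠ 0`, from the torsion polynomial. -/
theorem nontrivial_of_torsion_poly (hTP : Stmt_torsion_poly) : Stmt_nontrivial := by
  classical
  intro P
  obtain ⟨w, hdeg, -, hTPw⟩ := hTP P
  obtain ⟨hdegQ, hpos⟩ := torsion_poly_map_natDegree P w hdeg
  have hne : w.map (algebraMap ℤ Qbar) ≠ 0 := by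
    intro h
    rw [h, natDegree_zero] at hpos
    exact lt_irrefl _ hpos
  have hdeg0 : (w.map (algebraMap ℤ Qbar)).degree ≠ 0 := by
    rw [degree_eq_natDegree hne]
    exact_mod_cast hpos.ne'
  obtain ⟨x, hx⟩ := IsAlgClosed.exists_root (w.map (algebraMap ℤ Qbar)) hdeg0
  obtain ⟨y, hy⟩ := exists_equation (P.freyCurve⁄Qbar) x
  have h : (P.freyCurve⁄Qbar).Nonsingular x y :=
    (Affine.equation_iff_nonsingular_of_Δ_ne_zero (freyCurve_Qbar_Δ_ne_zero P)).mp hy
  have hP : (Point.some x y h : (P.freyCurve⁄Qbar).Point) ∈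
      Submodule.torsionBy ℤ (P.freyCurve⁄Qbar).Point (P.p : ℤ) := by
    rw [Submodule.mem_torsionBy_iff]
    exact (hTPw x y h).mpr hx
  refine ⟨⟨⟨_, hP⟩, 0, fun h0 => ?_⟩⟩
  exact Point.some_ne_zero h (congrArg Subtype.val h0)

end Fermat.Agent.S13.H63

end
-- ==== END Fermat.Agent.S13.H63_CardOfTP

-- ==== BEGIN Fermat.Agent.S13.H63_TPofPrePsi
section

set_option autoImplicit false

namespace Fermat.Agent.S13.H63

open WeierstrassCurve WeierstrassCurve.Affine WeierstrassCurve.Affine.Point Polynomial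
open Fermat.Agent.S13

/-- The Frey curve over `Q̄` is the base change of the integral Frey model. -/
theorem freyCurve_Qbar_eq_map (P : FreyPackage) :
    (P.freyCurve⁄Qbar) = P.freyCurveInt.map (algebraMap ℤ Qbar) := by
  change P.freyCurve.map (algebraMap ℚ Qbar) = _
  rw [← Fermat.Agent.S04.H59.freyCurveInt_map P, WeierstrassCurve.map_map]
  exact congrArg _ (RingHom.ext_int _ _)

/-- The division polynomial `preΨ_n` of the Frey curve over `Q̄` comes from `ℤ[X]`. -/
theorem freyCurve_Qbar_preΨ (P : FreyPackage) (n : ℤ) :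
    (P.freyCurve⁄Qbar).preΨ n = (P.freyCurveInt.preΨ n).map (algebraMap ℤ Qbar) := by
  rw [freyCurve_Qbar_eq_map P, WeierstrassCurve.map_preΨ]

theorem not_even_p (P : FreyPackage) : ¬ Even (P.p : ℤ) := by
  rw [Int.not_even_iff_odd]
  exact_mod_cast P.hp_odd

theorem natDegree_freyCurveInt_preΨ (P : FreyPackage) :
    (P.freyCurveInt.preΨ (P.p : ℤ)).natDegree = (P.p ^ 2 - 1) / 2 := by
  have hp0 : (Int.cast (R := ℤ) (P.p : ℤ)) ≠ 0 := by
    simpa using P.hp0
  rw [WeierstrassCurve.natDegree_preΨ P.freyCurveInt (n := (P.p : ℤ)) hp0,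
    if_neg (not_even_p P), Int.natAbs_natCast]

theorem leadingCoeff_freyCurveInt_preΨ (P : FreyPackage) :
    (P.freyCurveInt.preΨ (P.p : ℤ)).leadingCoeff = (P.p : ℤ) := by
  have hp0 : (Int.cast (R := ℤ) (P.p : ℤ)) ≠ 0 := by
    simpa using P.hp0
  rw [WeierstrassCurve.leadingCoeff_preΨ P.freyCurveInt (n := (P.p : ℤ)) hp0,
    if_neg (not_even_p P)]
  simp

/-- **TP from TP'.** -/
theorem torsion_poly_of_preΨ (h : Stmt_torsion_preΨ) : Stmt_torsion_poly := by
  intro P
  refine ⟨P.freyCurveInt.preΨ (P.p : ℤ), natDegree_freyCurveInt_preΨ P, ⟨1, ?_, ?_⟩, ?_⟩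
  · rw [leadingCoeff_freyCurveInt_preΨ, mul_one]
  · intro hdvd
    have h1 : (P.p : ℤ) ≤ 1 := Int.le_of_dvd one_pos hdvd
    have h5 : (5 : ℤ) ≤ (P.p : ℤ) := by exact_mod_cast P.hp5
    omega
  · intro x y hxy
    have h2 : P.p ≠ 2 := by
      have := P.hp5
      omega
    have key := h Qbar (P.freyCurve⁄Qbar) (freyCurve_Qbar_Δ_ne_zero P) P.p P.pp h2 x y hxy
    rw [← freyCurve_Qbar_preΨ P]
    exact key

end Fermat.Agent.S13.H63

end
-- ==== END Fermat.Agent.S13.H63_TPofPrePsi

-- ==== BEGIN Fermat.Agent.S16.H26_Trid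
section

/-!
# S16, package TRID (helper26): the trace identity

For `h ∈ M₂(Γ₀(p))` and a level one form `A` of weight `k`,
`F_A := p^k · h · V_p A − U_p ((U_p h) · A)` is a level one form of weight `k + 2`
(`p^k · Tr (h · V_p A)`), where `V_p A (z) = A (p z)` and `U_p` is the operator
`∑ a_n q^n ↦ ∑ a_{pn} q^n` on `q`-expansions.

Inputs (interfaces of package CONJ, `H79_ConjDefs.lean`): `Stmt_conjExp`, `Stmt_trace`, `Stmt_T0`.
-/

set_option autoImplicit false

open UpperHalfPlane ModularForm CongruenceSubgroup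
open scoped MatrixGroups ModularForm Manifold

noncomputable section

namespace Fermat.Agent.S16.H26

open Fermat.Agent.S16.H79 Fermat.Agent.S20.H74 Fermat.Agent.S23.H22

lemma zetaP_pow_self {p : ℕ} (hp : p ≠ 0) : zetaP p ^ p = 1 := by
  have hp' : (p : ℂ) ≠ 0 := by exact_mod_cast hp
  rw [zetaP, ← Complex.exp_nat_mul]
  rw [show (p : ℂ) * (2 * Real.pi * Complex.I / p) = 2 * Real.pi * Complex.I by field_simp]
  exact Complex.exp_two_pi_mul_I

/-- The matrix identity `diag(p, 1) · S = S · [[1, 0], [0, p]]`. -/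
lemma heckeDiag_mul_S (p : ℕ) (hp : p ≠ 0) :
    heckeDiagMatrix p * Matrix.SpecialLinearGroup.mapGL ℝ ModularGroup.S =
      Matrix.SpecialLinearGroup.mapGL ℝ ModularGroup.S * heckeMatrix p 0 := by
  apply Matrix.GeneralLinearGroup.ext
  intro i j
  simp only [Matrix.GeneralLinearGroup.coe_mul, val_heckeDiagMatrix hp, val_heckeMatrix hp,
    Matrix.SpecialLinearGroup.mapGL_coe_matrix]
  have hS : ((Matrix.SpecialLinearGroup.map (algebraMap ℤ ℝ) ModularGroup.S : SL(2, ℝ)) :
      Matrix (Fin 2) (Fin 2) ℝ) = !![0, -1; 1, 0] := by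
    ext a b
    rw [Matrix.SpecialLinearGroup.map_apply_coe, ModularGroup.coe_S]
    fin_cases a <;> fin_cases b <;> simp
  rw [hS]
  fin_cases i <;> fin_cases j <;> simp [Matrix.mul_apply, Fin.sum_univ_two]

/-- `(A ∣ α_p) ∣ S = A ∣ [[1, 0], [0, p]]` for a level one form `A`. -/
lemma levelRaise_slash_S {p : ℕ} [NeZero p] {k : ℤ} (A : ModularForm 𝒮ℒ k) :
    (levelRaise p A : ℍ → ℂ) ∣[k] ModularGroup.S = (A : ℍ → ℂ) ∣[k] heckeMatrix p 0 := by
  rw [levelRaise_coe, ModularForm.SL_slash, ← SlashAction.slash_mul]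
  have h := heckeDiag_mul_S p (NeZero.ne p)
  rw [show (Matrix.SpecialLinearGroup.toGL ((Matrix.SpecialLinearGroup.map (Int.castRingHom ℝ))
      ModularGroup.S)) = Matrix.SpecialLinearGroup.mapGL ℝ ModularGroup.S from rfl, h,
    SlashAction.slash_mul]
  congr 1
  exact SlashInvariantFormClass.slash_action_eq A _ ⟨ModularGroup.S, rfl⟩

/-- The parameter at width `p` of `τ` is the parameter at width `1` of `τ / p`. -/
lemma qParam_heckeMatrix_zero {p : ℕ} (hp : p ≠ 0) (τ : ℍ) :
    Function.Periodic.qParam 1 ((heckeMatrix p 0 • τ : ℍ) : ℂ) =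
      Function.Periodic.qParam (p : ℝ) (τ : ℂ) := by
  rw [coe_heckeMatrix_smul hp]
  simp [Function.Periodic.qParam, mul_div_assoc]

/-- The expansion of `A ∣ [[1, 0], [0, p]]` (`= p⁻¹ A (z / p)`) in `t = exp (2 π i z / p)`. -/
lemma qExpansion_slash_heckeMatrix_zero {p : ℕ} (hp : p ≠ 0) {k : ℤ} (A : ModularForm 𝒮ℒ k)
    (hN : Nice (p : ℝ) ((A : ℍ → ℂ) ∣[k] heckeMatrix p 0)) :
    qExpansion (p : ℝ) ((A : ℍ → ℂ) ∣[k] heckeMatrix p 0) = (p : ℂ)⁻¹ • qExpansion 1 A := by
  have hpos : (0 : ℝ) < p := by exact_mod_cast Nat.pos_of_ne_zero hp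
  have hA := nice_levelOne A
  ext m
  symm
  rw [PowerSeries.coeff_smul]
  have key := UpperHalfPlane.qExpansion_coeff_unique
    (c := fun m => (p : ℂ)⁻¹ * PowerSeries.coeff m (qExpansion 1 A))
    (ModularForm.translate A (heckeMatrix p 0)) hpos
    (by rw [ModularForm.coe_translate]; exact hN.analyticAt hpos) (fun τ => ?_) m
  · rw [ModularForm.coe_translate] at key
    exact key
  have h1 := UpperHalfPlane.hasSum_qExpansion one_pos hA.per hA.hol hA.bdd (heckeMatrix p 0 • τ)
  rw [qParam_heckeMatrix_zero hp] at h1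
  have h2 := h1.mul_left (p : ℂ)⁻¹
  rw [ModularForm.coe_translate, slash_heckeMatrix_apply k hp]
  have h3 : (fun m : ℕ => ((p : ℂ)⁻¹ * PowerSeries.coeff m (qExpansion 1 A)) •
      Function.Periodic.qParam (p : ℝ) (τ : ℂ) ^ m) =
      fun i : ℕ => (p : ℂ)⁻¹ * PowerSeries.coeff i (qExpansion 1 A) •
        Function.Periodic.qParam (p : ℝ) (τ : ℂ) ^ i := by
    funext m
    rw [smul_eq_mul, smul_eq_mul, mul_assoc]
  rw [h3]
  exact h2

/-- The `q`-expansion of the level raise, as a power series identity. -/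
lemma qExpansion_levelRaise_eq {p : ℕ} [NeZero p] {k : ℤ} (A : ModularForm 𝒮ℒ k) :
    qExpansion 1 (levelRaise p A) =
      (p : ℂ) ^ (k - 1) • PowerSeries.expand p (NeZero.ne p) (qExpansion 1 A) := by
  ext n
  rw [qExpansion_levelRaise_coeff, PowerSeries.coeff_smul, PowerSeries.coeff_expand]
  split_ifs <;> simp

/-- `T0` as a power series identity. -/
lemma sExp_eq_of_T0 {p : ℕ} (hp : p.Prime) (hT0 : Stmt_T0 p) (h : ModularForm (Gamma0 p) 2) :
    sExp p 2 h = (-(p : ℂ)⁻¹) • Useries p (qExpansion 1 h) := by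
  have : NeZero p := ⟨hp.ne_zero⟩
  ext n
  rw [hT0 hp h (coe_mem_MF rfl h) n, PowerSeries.coeff_smul, coeff_Useries, smul_eq_mul]

/-- **TRID**: the trace identity, from the interfaces of package CONJ. -/
theorem trid {p : ℕ} (hCE : Stmt_conjExp p) (hTr : Stmt_trace p) (hT0 : Stmt_T0 p) :
    Stmt_TRID p := by
  intro hp h k A
  have : NeZero p := ⟨hp.ne_zero⟩
  have hp0 : p ≠ 0 := hp.ne_zero
  have hpC : (p : ℂ) ≠ 0 := by exact_mod_cast hp0
  have hpos : (0 : ℝ) < p := by exact_mod_cast hp.pos
  set L : ModularForm (G0 p) k := levelRaise p A with hL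
  set Hf : ℍ → ℂ := (h : ℍ → ℂ) * (L : ℍ → ℂ) with hHf
  have hmem : Hf ∈ MF (Gamma0 p) (2 + k) := coe_mem_MF rfl (h.mul L)
  obtain ⟨E, -, hE⟩ := hTr hp (2 + k) Hf hmem
  have hh_mem : (h : ℍ → ℂ) ∈ MF (Gamma0 p) 2 := coe_mem_MF rfl h
  have hL_mem : (L : ℍ → ℂ) ∈ MF (Gamma0 p) k := coe_mem_MF rfl L
  have hconj0 : ∀ (k : ℤ) (G : ℍ → ℂ),
      conjFam p k G (some ⟨0, hp.pos⟩) = G ∣[k] ModularGroup.S := by
    intro k G
    simp [conjFam]
  have hNh : Nice (p : ℝ) ((h : ℍ → ℂ) ∣[(2 : ℤ)] ModularGroup.S) := by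
    have := (hCE hp 2 h hh_mem (some ⟨0, hp.pos⟩)).1
    rwa [hconj0] at this
  have hNL : Nice (p : ℝ) ((L : ℍ → ℂ) ∣[k] ModularGroup.S) := by
    have := (hCE hp k L hL_mem (some ⟨0, hp.pos⟩)).1
    rwa [hconj0] at this
  have hNA : Nice (p : ℝ) ((A : ℍ → ℂ) ∣[k] heckeMatrix p 0) := by
    rw [← levelRaise_slash_S]; exact hNL
  -- the expansion at the cusp `0`
  have hsExp : sExp p (2 + k) Hf =
      (-((p : ℂ)⁻¹ * (p : ℂ)⁻¹)) • (Useries p (qExpansion 1 h) * qExpansion 1 A) := by
    unfold sExp at *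
    rw [hHf, ModularForm.mul_slash_SL2, Nice.qExpansion_mul hpos hNh hNL, levelRaise_slash_S,
      qExpansion_slash_heckeMatrix_zero hp0 A hNA]
    have := sExp_eq_of_T0 hp hT0 h
    unfold sExp at this
    rw [this]
    simp only [smul_mul_assoc, mul_smul_comm, smul_smul]
    congr 1
    ring
  -- the expansion at `∞`
  have hq : qExpansion 1 Hf = qExpansion 1 h * qExpansion 1 L :=
    Nice.qExpansion_mul one_pos (nice_G0 p h) (nice_G0 p L)
  refine ⟨ModularForm.mcast (by ring) ((p : ℂ) • E), ?_⟩
  rw [ModularForm.qExpansion_mcast]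
  have hsm : qExpansion 1 ((p : ℂ) • E : ModularForm 𝒮ℒ (2 + k)) = (p : ℂ) • qExpansion 1 E :=
    Nice.qExpansion_smul one_pos (nice_levelOne E) (p : ℂ)
  rw [hsm]
  ext n
  have hcoef := congrArg (PowerSeries.coeff (p * n)) hE
  rw [PowerSeries.coeff_expand, if_pos (dvd_mul_right p n), Nat.mul_div_cancel_left n hp.pos,
    Fintype.sum_option, map_add, map_sum] at hcoef
  have hnone : PowerSeries.coeff (p * n) (expFam p hp0 (2 + k) Hf none) =
      PowerSeries.coeff n (qExpansion 1 Hf) := by
    simp only [expFam]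
    rw [PowerSeries.coeff_expand, if_pos (dvd_mul_right p n), Nat.mul_div_cancel_left n hp.pos]
  have hsome : ∀ j : Fin p, PowerSeries.coeff (p * n) (expFam p hp0 (2 + k) Hf (some j)) =
      PowerSeries.coeff (p * n) (sExp p (2 + k) Hf) := by
    intro j
    simp only [expFam]
    rw [PowerSeries.coeff_rescale, ← pow_mul, mul_comm (j : ℕ) (p * n), mul_assoc, pow_mul,
      zetaP_pow_self hp0, one_pow, one_mul]
  rw [hnone, Finset.sum_congr rfl (fun j _ => hsome j), Finset.sum_const, Finset.card_univ,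
    Fintype.card_fin, nsmul_eq_mul, hsExp, hq, qExpansion_levelRaise_eq] at hcoef
  rw [PowerSeries.coeff_smul, hcoef, map_sub, PowerSeries.coeff_smul, coeff_Useries]
  simp only [PowerSeries.coeff_smul, mul_smul_comm, smul_eq_mul]
  have hpk : (p : ℂ) ^ k = (p : ℂ) * (p : ℂ) ^ (k - 1) := by
    rw [← zpow_one_add₀ hpC]; congr 1; ring
  rw [hpk]
  field_simp
  ring

end Fermat.Agent.S16.H26

end
end
-- ==== END Fermat.Agent.S16.H26_Trid
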