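-- GENERATED (merged mirror, NOTES/tools/trim/merge3_helper67.py): 10 modules of the originals, bodies verbatim.
import Fermat.Statements.S20
import Mathlib
import Fermat.Prelude.Def_CuspForm_HeckeAlgebra
import Fermat.Agent.Zm.S35_L04_003
import Fermat.Agent.Zm.S35_L01_002
import Fermat.Agent.Zm.S35_L03_004
import Fermat.Agent.Zm.S35_L04_004
import Fermat.Agent.S20.H70_BDiv
import Fermat.Agent.Zm.S35_L01_004
import Fermat.Agent.Zm.S35_L02_004
import Fermat.Agent.S23.H77_Cusp
import Fermat.Agent.Zm.S35_L02_005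
import Fermat.Agent.Zm.S35_L04_005
import Fermat.Agent.S24.H89_JAnQ
import Fermat.Agent.S28.H76_Bridge

-- ==== BEGIN Fermat.Agent.RED.H76_RHReduced
section

/-!
# RH-R (helper76), part I c: a minimal family is reduced

`MinFam.reduced` : if `∑ p_i(x) ω_i ∈ L(m P)` then `deg p_i + d_i ≤ m` for all `i` with
`p_i ≠ 0`.
-/

set_option autoImplicit false

noncomputable section

open AlgebraicCurve WithZero Polynomial

namespace Fermat.Agent.RED.H76

variable {K F : Type*} [Field K] [Field F] [Algebra K F]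
variable {P : Divisor K F} {x : F}

/-- A polynomial minus its leading monomial. -/
theorem sub_leading_eq_eraseLead (p : K[X]) :
    p - C p.leadingCoeff * X ^ p.natDegree = p.eraseLead := by
  have := Polynomial.eraseLead_add_C_mul_X_pow p
  rw [eq_sub_iff_add_eq.mpr this]

theorem MinFam.reduced (hP : IsPoleDiv P x) (hneg : ∀ f : F, InL P (-1) f → f = 0)
    {r : ℕ} {ω : Fin r → F} {d : Fin r → ℕ} (h : MinFam P x r ω d)
    (p : Fin r → K[X]) (m : ℤ) (hm : InL P m (comb x p ω)) (i₀ : Fin r) (hi₀ : p i₀ ≠ 0) :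
    ((p i₀).natDegree : ℤ) + d i₀ ≤ m := by
  classical
  by_contra hlt
  push Not at hlt
  -- the maximal weight `M`
  set T : Finset (Fin r) := Finset.univ.filter (fun i => p i ≠ 0) with hT
  have hTne : T.Nonempty := ⟨i₀, Finset.mem_filter.mpr ⟨Finset.mem_univ _, hi₀⟩⟩
  obtain ⟨i₁, hi₁T, hi₁⟩ := Finset.exists_max_image T (fun i => (p i).natDegree + d i) hTne
  set M : ℕ := (p i₁).natDegree + d i₁ with hM
  have hMmax : ∀ i, p i ≠ 0 → (p i).natDegree + d i ≤ M := fun i hi =>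
    hi₁ i (Finset.mem_filter.mpr ⟨Finset.mem_univ _, hi⟩)
  have hmM : m ≤ (M : ℤ) - 1 := by
    have := hMmax i₀ hi₀
    omega
  -- the set `I` where the maximum is attained
  set I : Finset (Fin r) := T.filter (fun i => (p i).natDegree + d i = M) with hI
  have hIne : I.Nonempty := ⟨i₁, Finset.mem_filter.mpr ⟨hi₁T, rfl⟩⟩
  have hImem : ∀ i, i ∈ I ↔ p i ≠ 0 ∧ (p i).natDegree + d i = M := by
    intro i
    rw [hI, Finset.mem_filter, hT, Finset.mem_filter]
    simp
  obtain ⟨j, hjI, hj⟩ := Finset.exists_max_image I d hIne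
  have hjI' := (hImem j).mp hjI
  -- the new element
  set q : Fin r → K[X] :=
    fun i => if i ∈ I then C (p i).leadingCoeff * X ^ (d j - d i) else 0 with hq
  set t : K[X] := X ^ (M - d j) with ht
  have htq : ∀ i, t * q i = if i ∈ I then C (p i).leadingCoeff * X ^ (p i).natDegree else 0 := by
    intro i
    by_cases hiI : i ∈ I
    · have h1 := (hImem i).mp hiI
      have h2 := hj i hiI
      simp only [hq, ht, if_pos hiI]
      have : M - d j + (d j - d i) = (p i).natDegree := by omega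
      rw [← this, pow_add]
      ring
    · simp only [hq, if_neg hiI, mul_zero]
  have hqmem : InL P (d j) (comb x q ω) := by
    refine inL_comb hP h.mem q (d j) ?_
    intro i hi
    by_cases hiI : i ∈ I
    · have h2 := hj i hiI
      simp only [hq, if_pos hiI] at hi ⊢
      have hlc : (p i).leadingCoeff ≠ 0 := leadingCoeff_ne_zero.mpr ((hImem i).mp hiI).1
      rw [natDegree_C_mul_X_pow _ _ hlc]
      have : ((d j - d i : ℕ) : ℤ) = (d j : ℤ) - d i := by omega
      rw [this]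
      omega
    · simp only [hq, if_neg hiI] at hi
      exact absurd rfl hi
  have hrest : InL P ((M : ℤ) - 1) (comb x (p - fun i => t * q i) ω) := by
    refine inL_comb hP h.mem _ _ ?_
    intro i hi
    rw [Pi.sub_apply, htq] at hi ⊢
    by_cases hiI : i ∈ I
    · rw [if_pos hiI, sub_leading_eq_eraseLead] at hi ⊢
      have h1 := (hImem i).mp hiI
      rcases Polynomial.eraseLead_natDegree_lt_or_eraseLead_eq_zero (p i) with h3 | h3
      · omega
      · exact absurd h3 hi
    · rw [if_neg hiI, sub_zero] at hi ⊢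
      have h1 := hMmax i hi
      have h2 : (p i).natDegree + d i ≠ M := fun h2 => hiI ((hImem i).mpr ⟨hi, h2⟩)
      omega
  have hprod : InL P ((M : ℤ) - 1) (aeval x t * comb x q ω) := by
    rw [← comb_mul]
    have e : (fun i => t * q i) = p - (p - fun i => t * q i) := by
      funext i; simp
    rw [e, comb_sub]
    exact (hm.mono hP hmM).sub hrest
  have hdiv : InL P ((d j : ℤ) - 1) (comb x q ω) := by
    have hk : M - d j + d j = M := by omega
    have h1 := InL.of_mul hP (t := aeval x t) (k := M - d j)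
      (fun v hv => by rw [ht, map_pow, aeval_X]; exact val_x_pow hP _ v hv) hprod hqmem
    have e : (M : ℤ) - 1 - ((M - d j : ℕ) : ℤ) = (d j : ℤ) - 1 := by omega
    rwa [e] at h1
  have ht0 : t ≠ 0 := pow_ne_zero _ X_ne_zero
  refine h.no_exchange hneg j (comb x q ω) hdiv t ht0 (fun i => t * q i) ?_ ?_
  · rw [htq, if_pos hjI]
    exact mul_ne_zero (C_ne_zero.mpr (leadingCoeff_ne_zero.mpr hjI'.1))
      (pow_ne_zero _ X_ne_zero)
  · rw [comb_mul]

end Fermat.Agent.RED.H76

end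
end
-- ==== END Fermat.Agent.RED.H76_RHReduced

-- ==== BEGIN Fermat.Agent.RED.H79_ConsDefs
section

/-!
# G-RED package CONS (helper79 + helper10): shared definitions

Setting: helper34's `RedSetting C F k Ft` (`S.V` valuation ring of `F`, `S.red : S.V → Ft`,
`S.O = S.V ∩ C`, `S.resO : S.O → k`).  A **chart** is `x ∈ S.V` with transcendental reduction
`xt = S.red x` such that `[Ft : k(xt)] = [F : C(x)]` and the chart is normal
(`ChartNormal` = conclusion of helper34's `Stmt_chartNormal`).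
`B` = integral closure of `C[x]` in `F`, `R = B ∩ V`, `Bt` = integral closure of `k[xt]` in `Ft`.

* `InChart S x P` : the place `P` lies in the closed unit disc of the chart: `x(P) ∈ O`.
* `RedTo S x hx P Q` : `Q` is finite over `xt` and evaluation at `Q` is the reduction of the
  evaluation at `P` on `R` (`f(P) = a ∈ O ⇒ (red f)(Q) = a mod m`).
* `ChartIntegral` (C2, helper10) : for `f ∈ R`: `red f ∈ Bt`, and `f(P) ∈ O` for `P` in the chart.
* `Stmt_C4` (helper79) : every `P` in the chart reduces to some `Q`.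
* `Stmt_C5` (helper79) : `ord_Q (red f) ≤ Σ_{P in chart, r P = Q} ord_P f` for Gauss units `f ∈ R`.

Route (helper10's note "CONS via FF-B norm formula"): C3 (fibre-wise conservation from the norm
formula) + C5 ⇒ conservation on the chart; two charts `x`, `1/x` ⇒ `IsRed`.
This file contains no `sorry`.
-/

set_option autoImplicit false

noncomputable section

open AlgebraicCurve IntermediateField

namespace Fermat.Agent.RED.H79

open Fermat.Agent.RED.H34 Fermat.Agent.RED.H51

variable {C F k Ft : Type} [Field C] [Field F] [Algebra C F] [Field k] [Field Ft] [Algebra k Ft]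

/-- **(N)** the chart `x` is normal: every element of `Ft` integral over `k[xt]` is the reduction
of an element of `V` integral over `C[x]`. -/
def ChartNormal (S : RedSetting C F k Ft) (x : F) (hx : x ∈ S.V) : Prop :=
  ∀ y : Ft, IsIntegral ↥(Algebra.adjoin k {S.red ⟨x, hx⟩}) y →
    ∃ f : ↥S.V, IsIntegral ↥(Algebra.adjoin C {x}) (f : F) ∧ S.red f = y

/-- The standing hypotheses on a chart. -/
structure GoodChart (S : RedSetting C F k Ft) (x : F) (hx : x ∈ S.V) : Prop where
  transc : Transcendental k (S.red ⟨x, hx⟩)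
  fin : FiniteDimensional C⟮x⟯ F
  sep : Algebra.IsSeparable C⟮x⟯ F
  deg : Module.finrank k⟮S.red ⟨x, hx⟩⟯ Ft = Module.finrank C⟮x⟯ F
  sept : Algebra.IsSeparable k⟮S.red ⟨x, hx⟩⟯ Ft
  normal : ChartNormal S x hx

/-- The place `P` lies in the closed unit disc of the chart `x`: `x(P) = a` with `a ∈ O`. -/
def InChart (S : RedSetting C F k Ft) (x : F) (P : Place C F) : Prop :=
  ∃ a : C, algebraMap C F a ∈ S.V ∧ OrdGe P 1 (x - algebraMap C F a)

/-- `Q` is a reduction of `P` on the chart `x` (evaluation form): `Q` is finite over `xt`, and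
for `f ∈ R = B ∩ V` with `f(P) = a ∈ O` the reduction `red f` has the value `a mod m` at `Q`. -/
def RedTo (S : RedSetting C F k Ft) (x : F) (hx : x ∈ S.V) (P : Place C F) (Q : Place k Ft) :
    Prop :=
  S.red ⟨x, hx⟩ ∈ Q.toValuationSubring ∧
  ∀ f : ↥S.V, IsIntegral ↥(Algebra.adjoin C {x}) (f : F) → ∀ a : ↥S.O,
    OrdGe P 1 ((f : F) - algebraMap C F (a : C)) →
    OrdGe Q 1 (S.red f - algebraMap k Ft (S.resO a))

/-- **(C2)** integrality on the chart (helper10): for `f ∈ R = B ∩ V` the reduction is integral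
over `k[xt]`, and `f` has a value in `O` at every place of the chart. -/
def ChartIntegral (S : RedSetting C F k Ft) (x : F) (hx : x ∈ S.V) : Prop :=
  ∀ f : ↥S.V, IsIntegral ↥(Algebra.adjoin C {x}) (f : F) →
    IsIntegral ↥(Algebra.adjoin k {S.red ⟨x, hx⟩}) (S.red f) ∧
    ∀ P : Place C F, InChart S x P →
      ∃ a : ↥S.O, OrdGe P 1 ((f : F) - algebraMap C F (a : C))

/-- **(C4)** every place of the chart has a reduction. -/
def Stmt_C4 : Prop :=
  ∀ (C F k Ft : Type) [Field C] [Field F] [Algebra C F] [Field k] [Field Ft] [Algebra k Ft]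
    [IsAlgClosed C] [IsAlgClosed k] (S : RedSetting C F k Ft) (x : F) (hx : x ∈ S.V),
    GoodChart S x hx → ChartIntegral S x hx →
    ∀ P : Place C F, InChart S x P → ∃ Q : Place k Ft, RedTo S x hx P Q

open Classical in
/-- **(C5)** the pointwise inequality: for a Gauss unit `f ∈ R` with divisor `D` and a place `Q`
of `Ft` finite over `xt`: `ord_Q (red f) ≤ Σ_{P in the chart, r P = Q} ord_P f`. -/
def Stmt_C5 : Prop :=
  ∀ (C F k Ft : Type) [Field C] [Field F] [Algebra C F] [Field k] [Field Ft] [Algebra k Ft]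
    [IsAlgClosed C] [IsAlgClosed k] (S : RedSetting C F k Ft) (x : F) (hx : x ∈ S.V),
    GoodChart S x hx → ChartIntegral S x hx →
    ∀ r : Place C F → Place k Ft, (∀ P, InChart S x P → RedTo S x hx P (r P)) →
    ∀ f : ↥S.V, IsUnit f → IsIntegral ↥(Algebra.adjoin C {x}) (f : F) →
    ∀ D : Divisor C F, (∀ P, D P = P.ord (f : F)) →
    ∀ Q : Place k Ft, S.red ⟨x, hx⟩ ∈ Q.toValuationSubring →
      Q.ord (S.red f) ≤ ∑ P ∈ D.support.filter (fun P => InChart S x P ∧ r P = Q), D P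

end Fermat.Agent.RED.H79

end
end
-- ==== END Fermat.Agent.RED.H79_ConsDefs

-- ==== BEGIN Fermat.Agent.S20
section

/-!
# S20: `dim S₂(Γ₀(N)) = genusFormula N`

Assembly (helper74) of the S20 team's packages: `M_*(Γ₀(N))` is free over `ℂ[E₄, E₆]`
(helper25), local independence of the basis (helper53, helper61, helper70), rank = index
(helper86), weights and trace relations (helper89, helper44), duality (helper58), the cusp
filtration (helper19, helper2, helper44), the final count (helper74) and the coset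
combinatorics and level one geometry (helper19, helper2, helper29, helper38, helper54, helper70,
helper75).
-/

set_option autoImplicit false
open CuspForm

namespace Fermat.Agent.S20

theorem result (N : ℕ) [NeZero N] :
    (Module.finrank ℂ (CuspForm (CongruenceSubgroup.Gamma0 N) 2) : ℚ) = ModularCurve.genusFormula N :=
  H75.S20_of_core N
    (H74.core_of_div_inf H75.hgeo (CongruenceSubgroup.Gamma0 N) (H75.neg_one_mem N) (H75.hsep N)
      (fun _ _ hB hc hs => H70.B_div hB hc hs)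
      (fun K hfin h => H19.INF1_eis K hfin h)
      (fun K hfin h => H19.INF2_adapted K hfin h))

end Fermat.Agent.S20

end
-- ==== END Fermat.Agent.S20

-- ==== BEGIN Fermat.Agent.S21.H75_Orbits
section

set_option autoImplicit false
set_option linter.unusedSectionVars false

/-!
# Dimensions of fixed spaces: orbit counts and fixed-point counts
-/

namespace Fermat.Agent.S21.H75

open Module

variable {G : Type*} [Group G] (Γ : Subgroup G)

section Orbits

variable [Fintype (G ⧸ Γ)]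

/-- invariance under `g` propagates to the cyclic group generated by `g` -/
lemma apply_smul_of_mem_zpowers {g : G} {v : (G ⧸ Γ) → ℂ} (hv : ∀ q, v (g • q) = v q)
    {h : G} (hh : h ∈ Subgroup.zpowers g) (q : G ⧸ Γ) : v (h • q) = v q := by
  obtain ⟨n, rfl⟩ := Subgroup.mem_zpowers_iff.mp hh
  clear hh
  have hinv : ∀ q, v (g⁻¹ • q) = v q := fun q => by
    have := hv (g⁻¹ • q)
    rw [smul_inv_smul] at this
    exact this.symm
  induction n using Int.induction_on generalizing q with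
  | zero => simp
  | succ n ih =>
    rw [zpow_add_one, mul_smul, ih, hv]
  | pred n ih =>
    rw [zpow_sub_one, mul_smul, ih, hinv]

/-- `dim ker (R_g - 1)` is the number of orbits of `⟨g⟩` on `G ⧸ Γ`. -/
theorem finrank_ker_R_sub_one (g : G) :
    finrank ℂ (LinearMap.ker (R Γ g - 1)) =
      Nat.card (MulAction.orbitRel.Quotient (Subgroup.zpowers g) (G ⧸ Γ)) := by
  classical
  let π : (G ⧸ Γ) → MulAction.orbitRel.Quotient (Subgroup.zpowers g) (G ⧸ Γ) :=
    Quotient.mk''
  have hπ : Function.Surjective π := Quotient.mk''_surjective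
  let F : (MulAction.orbitRel.Quotient (Subgroup.zpowers g) (G ⧸ Γ) → ℂ) →ₗ[ℂ]
      ((G ⧸ Γ) → ℂ) := LinearMap.funLeft ℂ ℂ π
  have hF : Function.Injective F := LinearMap.funLeft_injective_of_surjective ℂ ℂ π hπ
  have hrange : LinearMap.range F = LinearMap.ker (R Γ g - 1) := by
    apply le_antisymm
    · rintro _ ⟨f, rfl⟩
      rw [LinearMap.mem_ker, LinearMap.sub_apply, Module.End.one_apply, sub_eq_zero]
      funext q
      show f (π (g • q)) = f (π q)
      congr 1
      apply Quotient.sound'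
      exact ⟨⟨g, Subgroup.mem_zpowers g⟩, rfl⟩
    · intro v hv
      rw [LinearMap.mem_ker, LinearMap.sub_apply, Module.End.one_apply, sub_eq_zero] at hv
      have hv' : ∀ q, v (g • q) = v q := fun q => congrFun hv q
      refine ⟨Quotient.lift v ?_, ?_⟩
      · rintro a b ⟨⟨h, hh⟩, rfl⟩
        exact apply_smul_of_mem_zpowers Γ hv' hh b
      · funext q
        rfl
  have : Finite (MulAction.orbitRel.Quotient (Subgroup.zpowers g) (G ⧸ Γ)) :=
    Finite.of_surjective π hπ
  let _ := Fintype.ofFinite (MulAction.orbitRel.Quotient (Subgroup.zpowers g) (G ⧸ Γ))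
  rw [← hrange, LinearMap.finrank_range_of_inj hF, Module.finrank_fintype_fun_eq_card,
    Nat.card_eq_fintype_card]

/-- `R_g` is the linear map of a permutation matrix -/
lemma R_eq_toLin' [DecidableEq (G ⧸ Γ)] (g : G) :
    R Γ g = Matrix.toLin' ((MulAction.toPerm g : Equiv.Perm (G ⧸ Γ)).permMatrix ℂ) := by
  apply LinearMap.ext
  intro v
  funext q
  rw [Matrix.toLin'_apply, Matrix.permMatrix_mulVec]
  rfl

/-- the trace of `R_g` is the number of fixed points of `g` -/
lemma trace_R (g : G) :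
    LinearMap.trace ℂ ((G ⧸ Γ) → ℂ) (R Γ g) = (Nat.card {q : G ⧸ Γ // g • q = q} : ℂ) := by
  classical
  rw [R_eq_toLin', Matrix.trace_toLin'_eq, Matrix.trace_permutation]
  congr 1

lemma isProj_normOp {V : Type*} [AddCommGroup V] [Module ℂ V] {R : V →ₗ[ℂ] V} {M : ℕ}
    (hM : 0 < M) (hR : R ^ M = 1) :
    LinearMap.IsProj (LinearMap.ker (R - 1)) (((M : ℂ)⁻¹) • normOp R M) := by
  have hM0 : (M : ℂ) ≠ 0 := by exact_mod_cast hM.ne'
  constructor
  · intro x
    rw [LinearMap.mem_ker, LinearMap.sub_apply, Module.End.one_apply, LinearMap.smul_apply,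
      map_smul, self_comp_normOp hR, sub_self]
  · intro x hx
    rw [LinearMap.mem_ker, LinearMap.sub_apply, Module.End.one_apply, sub_eq_zero] at hx
    rw [LinearMap.smul_apply, normOp_of_fixed M hx, smul_smul, inv_mul_cancel₀ hM0, one_smul]

/-- `M * dim ker (R_g - 1) = ∑_{k<M} #Fix(g^k)` when `g^M` acts trivially. -/
theorem mul_finrank_ker_R_sub_one (g : G) {M : ℕ} (hM : 0 < M) (hg : R Γ g ^ M = 1) :
    M * finrank ℂ (LinearMap.ker (R Γ g - 1)) =
      ∑ k ∈ Finset.range M, Nat.card {q : G ⧸ Γ // (g ^ k) • q = q} := by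
  have hM0 : (M : ℂ) ≠ 0 := by exact_mod_cast hM.ne'
  have h1 := (isProj_normOp hM hg).trace
  rw [map_smul, normOp, map_sum] at h1
  have h2 : ∀ k ∈ Finset.range M, LinearMap.trace ℂ ((G ⧸ Γ) → ℂ) (R Γ g ^ k)
      = (Nat.card {q : G ⧸ Γ // (g ^ k) • q = q} : ℂ) := fun k _ => by
    rw [← R_pow, trace_R]
  rw [Finset.sum_congr rfl h2, smul_eq_mul, inv_mul_eq_iff_eq_mul₀ hM0] at h1
  have h3 : ((M * finrank ℂ (LinearMap.ker (R Γ g - 1)) : ℕ) : ℂ)
      = ((∑ k ∈ Finset.range M, Nat.card {q : G ⧸ Γ // (g ^ k) • q = q} : ℕ) : ℂ) := by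
    push_cast
    exact h1.symm
  exact_mod_cast h3

end Orbits

end Fermat.Agent.S21.H75

end
-- ==== END Fermat.Agent.S21.H75_Orbits

-- ==== BEGIN Fermat.Agent.S22.Assembly
section

/-!
# S22: assembly

`Module.Finite ℤ (heckeAlgebra N k S)` for all `k`, given `EichlerData N n` for all `N ≠ 0`, `n`.
-/

set_option autoImplicit false

namespace Fermat.Agent.S22

open scoped MatrixGroups ModularForm
open CongruenceSubgroup

theorem moduleFinite_heckeAlgebra_of_eichlerData
    (h : ∀ (N : ℕ) [NeZero N] (n : ℕ), Nonempty (EichlerData N n))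
    (N : ℕ) [NeZero N] (k : ℤ) (S : Set ℕ) :
    Module.Finite ℤ (CuspForm.heckeAlgebra N k S) := by
  by_cases hk : k ≤ 0
  · exact H7.moduleFinite_heckeAlgebra_of_nonpos_or_odd N k S (Or.inl hk)
  · obtain ⟨n, rfl⟩ : ∃ n : ℕ, k = (n : ℤ) + 1 := ⟨(k - 1).toNat, by omega⟩
    rcases n with _ | n
    · exact H7.moduleFinite_heckeAlgebra_of_nonpos_or_odd N _ S (Or.inr (by decide))
    · obtain ⟨D⟩ := h N n
      have hkn : ((n + 1 : ℕ) : ℤ) + 1 = (n : ℤ) + 2 := by push_cast; ring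
      rw [hkn]
      exact D.moduleFinite_heckeAlgebra S

end Fermat.Agent.S22

end
-- ==== END Fermat.Agent.S22.Assembly

-- ==== BEGIN Fermat.Agent.S23.H22_GS4
section

/-!
# Galois stability of `S_k(Γ₀(N))` (helper22, part of the S23 development)
-/

set_option autoImplicit false
set_option linter.unusedSectionVars false

open UpperHalfPlane ModularForm Polynomial SlashInvariantForm EisensteinSeries
open scoped MatrixGroups ModularForm Manifold

noncomputable section

namespace Fermat.Agent.S23.H22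

variable (N : ℕ) [NeZero N]

/-- **Galois stability**, assuming the nonvanishing of `Dhat`. -/
theorem galois_stable_of_Dhat (hD : Dhat N ≠ 0) (σ : ℂ →+* ℂ) {k : ℤ}
    (f : CuspForm (CongruenceSubgroup.Gamma0 N) k) :
    ∃ g : CuspForm (CongruenceSubgroup.Gamma0 N) k,
      qExpansion 1 g = (qExpansion 1 f).map σ := by
  obtain ⟨g, D', c', hgd, hD'n, hD'0, hD'q, hgq, hinv, hrel⟩ := exists_conj_fun N hD σ f
  obtain ⟨G, hG⟩ := H77.exists_cuspForm_of_monic_rel N k (Fintype.card (Q N) - 1) g hgd hinv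
    (relWeight N k) (fun m hm => relWeight_eq N k m hm) c' hrel
  refine ⟨G, ?_⟩
  have hGg : (G : ℍ → ℂ) = g := funext hG
  have hgn : Nice 1 g := hGg ▸ nice_G0 N G
  rw [Nice.qExpansion_mul one_pos hgn hD'n, hD'q] at hgq
  have hne : (qExpansion 1 (Dhat N)).map σ ≠ 0 := by
    rw [← hD'q]
    intro h0
    exact hD'0 (Nice.eq_zero_of_qExpansion_eq_zero one_pos hD'n h0)
  rw [hGg]
  exact mul_right_cancel₀ hne hgq

/-- **Galois stability** in the form needed for the integral structure. -/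
theorem galois_stable_qCoeff_of_Dhat (hD : Dhat N ≠ 0) (σ : ℂ →+* ℂ)
    (f : CuspForm (CongruenceSubgroup.Gamma0 N) 2) :
    ∃ g : CuspForm (CongruenceSubgroup.Gamma0 N) 2, ∀ n : ℕ,
      ModularFormClass.qCoeff g n = σ (ModularFormClass.qCoeff f n) := by
  obtain ⟨g, hg⟩ := galois_stable_of_Dhat N hD σ f
  refine ⟨g, fun n => ?_⟩
  unfold ModularFormClass.qCoeff
  rw [hg, PowerSeries.coeff_map]

end Fermat.Agent.S23.H22

end
end
-- ==== END Fermat.Agent.S23.H22_GS4

-- ==== BEGIN Fermat.Agent.S24.Asm.Degree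
section

/-!
# S24 assembly (WP ASM-Degree): from a `ModClosure N` to `[F_N : Q̄(j)] = ψ(N)`

Let `M : ModClosure N`, `x = jF N`, `G = Gal (M.L / M.E)`, `H = Gal (M.L / F_N)`.
* `M.t` is transcendental and generates `M.E`, so `M.E ≃ Q̄(x)` and
  `[F_N : Q̄(x)] = [F_N : M.E] = |G ⧸ H| = |SL(2, ℤ) ⧸ Γ₀(N)| = ψ(N)`
  (`M.π_surjective`, `M.π_comap`, `h1_quotEquiv`, `G1_card`).
* zeros of `x - a`: `gc_card_zeros` for the generator `M.t - a` of `M.E`, the valuation `M.w τ`
  with `jAn τ = ι a` (`jAn_surjective`; `τ = ρ` for `a = 0`, `τ = i` for `a = 1728`) and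
  `σ = M.π γ`, `γ = S * T`, `S`, `1` respectively (`h27_ST_smul_rho`, `h27_S_smul_I`, `M.w_π`);
  `jOrd τ ≤ orderOf σ` because `γ, γ ^ 2 ∉ Γ₀(N)` for `1 < N` (`M.π_comap`); then
  `gc_orbits_transfer`.
* poles of `x`: `gc_card_zeros` for the generator `(M.t)⁻¹`, `M.winf`, `σ = M.π T`;
  `N ≤ orderOf (M.π T)` because `S * T ^ k * S⁻¹ ∈ Γ₀(N)` iff `N ∣ k`.

WP ASM-Degree (helper59): all statements of this file are proved.
-/

set_option autoImplicit false

noncomputable section

namespace Fermat.Agent.S24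

open CongruenceSubgroup ModularGroup ModularCurve AlgebraicCurve IntermediateField
open scoped MatrixGroups

attribute [local instance] ModClosure.instFieldE ModClosure.instField ModClosure.instAlgKE
  ModClosure.instAlgK ModClosure.instAlgEF ModClosure.instAlgF ModClosure.instAlgE
  ModClosure.towerKEF ModClosure.towerKFL ModClosure.towerEFL ModClosure.towerKEL
  ModClosure.finite ModClosure.galois

variable {N : ℕ} [NeZero N]

/-- The generator `t` of `M.E` is not a constant. -/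
theorem asm_t_ne_algebraMap (M : ModClosure N) (c : Kbar) : M.t ≠ algebraMap Kbar M.E c := by
  intro h
  have hw := M.winf_j
  have hN : (0 : ℤ) < N := by exact_mod_cast Nat.pos_of_ne_zero (NeZero.ne N)
  have hlt : WithZero.exp (-(N : ℤ)) < 1 := by
    rw [← WithZero.exp_zero, WithZero.exp_lt_exp]; omega
  rcases eq_or_ne c 0 with rfl | hc
  · rw [h, map_zero, inv_zero, map_zero, map_zero] at hw
    exact WithZero.exp_ne_zero hw.symm
  · have h1 : algebraMap M.E M.L (M.t)⁻¹ = algebraMap Kbar M.L c⁻¹ := by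
      rw [h, ← map_inv₀, ← IsScalarTower.algebraMap_apply]
    rw [h1, M.winf_algebraMap _ (inv_ne_zero hc)] at hw
    rw [← hw] at hlt
    exact lt_irrefl _ hlt

theorem asm_transcendental_t (M : ModClosure N) : Transcendental Kbar M.t := by
  intro halg
  have hint : IsIntegral Kbar M.t := halg.isIntegral
  have hdeg1 : (minpoly Kbar M.t).degree = 1 :=
    IsAlgClosed.degree_eq_one_of_irreducible Kbar (minpoly.irreducible hint)
  obtain ⟨a, ha⟩ := minpoly.mem_range_of_degree_eq_one Kbar M.t hdeg1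
  exact asm_t_ne_algebraMap M a ha.symm

theorem asm_transcendental_jF (M : ModClosure N) : Transcendental Kbar (jF N) := by
  rw [← M.t_map]
  exact (transcendental_algebraMap_iff (algebraMap M.E (FN N)).injective).mpr
    (asm_transcendental_t M)

/-- The image of `M.E` in `F_N` is `Q̄(j)`. -/
theorem asm_algebraMap_mem (M : ModClosure N) (y : M.E) :
    algebraMap M.E (FN N) y ∈ Kbar⟮jF N⟯ := by
  obtain ⟨p, q, hq, rfl⟩ := M.t_gen y
  have h : ∀ r : Polynomial Kbar, algebraMap M.E (FN N) (Polynomial.aeval M.t r)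
      = Polynomial.aeval (jF N) r := fun r => by
    rw [← M.t_map, ← Polynomial.aeval_algebraMap_apply]
  rw [map_div₀, h, h]
  have hmem : ∀ r : Polynomial Kbar, Polynomial.aeval (jF N) r ∈ Kbar⟮jF N⟯ := fun r => by
    rw [Polynomial.aeval_eq_sum_range]
    refine sum_mem fun i _ => ?_
    exact (Kbar⟮jF N⟯).smul_mem (pow_mem (mem_adjoin_simple_self Kbar (jF N)) i)
  exact div_mem (hmem p) (hmem q)

theorem asm_mem_range (M : ModClosure N) (z : FN N) (hz : z ∈ Kbar⟮jF N⟯) :
    ∃ y : M.E, algebraMap M.E (FN N) y = z := by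
  have hle : Kbar⟮jF N⟯ ≤ (IsScalarTower.toAlgHom Kbar M.E (FN N)).fieldRange := by
    rw [adjoin_simple_le_iff]
    exact ⟨M.t, M.t_map⟩
  obtain ⟨y, hy⟩ := hle hz
  exact ⟨y, hy⟩

/-- The isomorphism `M.E ≃ Q̄(j)`. -/
def asmEquiv (M : ModClosure N) : M.E ≃+* Kbar⟮jF N⟯ :=
  RingEquiv.ofBijective
    ((algebraMap M.E (FN N)).codRestrict (Kbar⟮jF N⟯).toSubfield.toSubring
      (fun y => asm_algebraMap_mem M y))
    ⟨fun a b h => (algebraMap M.E (FN N)).injective (congrArg Subtype.val h),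
      fun z => by
        obtain ⟨y, hy⟩ := asm_mem_range M z.1 z.2
        exact ⟨y, Subtype.ext hy⟩⟩

theorem asmEquiv_comp (M : ModClosure N) :
    (algebraMap Kbar⟮jF N⟯ (FN N)).comp (asmEquiv M : M.E ≃+* Kbar⟮jF N⟯).toRingHom
      = (RingEquiv.refl (FN N)).toRingHom.comp (algebraMap M.E (FN N)) := by
  ext y
  rfl

theorem asm_finiteDimensional (M : ModClosure N) : FiniteDimensional Kbar⟮jF N⟯ (FN N) := by
  have : FiniteDimensional M.E (FN N) := FiniteDimensional.left M.E (FN N) M.L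
  exact Module.Finite.of_equiv_equiv (asmEquiv M) (RingEquiv.refl (FN N)) (asmEquiv_comp M)

theorem asm_finrank (M : ModClosure N) :
    Module.finrank Kbar⟮jF N⟯ (FN N) = dedekindPsi N := by
  rw [← Algebra.finrank_eq_of_equiv_equiv (asmEquiv M) (RingEquiv.refl (FN N)) (asmEquiv_comp M)]
  -- `[F_N : E] = [K : E]` for `K` the image of `F_N` in `L`
  have e : FN N ≃ₗ[M.E] (IsScalarTower.toAlgHom M.E (FN N) M.L).fieldRange :=
    (AlgEquiv.ofInjectiveField (IsScalarTower.toAlgHom M.E (FN N) M.L)).toLinearEquiv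
  rw [e.finrank_eq, IntermediateField.finrank_eq_fixingSubgroup_index,
    ← Subgroup.index_comap_of_surjective _ M.π_surjective, M.π_comap, Subgroup.index_eq_card]
  exact Fermat.Agent.S20.H19.G1_card N

end Fermat.Agent.S24

end
end
-- ==== END Fermat.Agent.S24.Asm.Degree

-- ==== BEGIN Fermat.Agent.S24.Closure.UExpJA
section

/-!
# S24 construction, layer 2 (WP CLO-UExpJA): the expansion homomorphism `uExp` on `Atil N`

`uExp N : Atil N →ₐ[Q̄] Q̄((u))`, `u = exp (2 π i τ / N)`: every element of `Atil N` has an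
expansion at `∞` with coefficients in `Q̄` (through `ι = iotaC`).

All proofs of this file are complete (helper1); they use the statements of
`Closure/UExp.lean`, `Closure/UExpSubst.lean`, `Closure/JA.lean`, `Closure/Atil.lean`.
-/

set_option autoImplicit false

noncomputable section

namespace Fermat.Agent.S24

open ModularCurve UpperHalfPlane
open scoped MatrixGroups Manifold

/-! ## Roots of unity in `Q̄` -/

/-- `exp (2 π i / N)` lies in `ι(Q̄)`. -/
theorem exists_zetaK (N : ℕ) [NeZero N] :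
    ∃ z : Kbar, iotaC z = Complex.exp (2 * Real.pi * Complex.I / N) := by
  obtain ⟨ζ, hζ⟩ := HasEnoughRootsOfUnity.exists_primitiveRoot Kbar N
  have hζ' : IsPrimitiveRoot (iotaC ζ) N := hζ.map_of_injective iotaC.injective
  have hexp : IsPrimitiveRoot (Complex.exp (2 * Real.pi * Complex.I / N)) N :=
    Complex.isPrimitiveRoot_exp N (NeZero.ne N)
  obtain ⟨i, -, hi⟩ := hζ'.eq_pow_of_pow_eq_one hexp.pow_eq_one
  exact ⟨ζ ^ i, by rw [map_pow, hi]⟩

/-- The element of `Q̄` with `ι z = exp (2 π i / N)`. -/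
def zetaK (N : ℕ) [NeZero N] : Kbar := (exists_zetaK N).choose

theorem iotaC_zetaK (N : ℕ) [NeZero N] :
    iotaC (zetaK N) = Complex.exp (2 * Real.pi * Complex.I / N) := (exists_zetaK N).choose_spec

theorem zetaK_ne_zero (N : ℕ) [NeZero N] : zetaK N ≠ 0 := by
  intro h
  have := iotaC_zetaK N
  rw [h, map_zero] at this
  exact Complex.exp_ne_zero _ this.symm

theorem isPrimitiveRoot_zetaK (N : ℕ) [NeZero N] : IsPrimitiveRoot (zetaK N) N := by
  have hexp : IsPrimitiveRoot (Complex.exp (2 * Real.pi * Complex.I / N)) N :=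
    Complex.isPrimitiveRoot_exp N (NeZero.ne N)
  rw [← iotaC_zetaK] at hexp
  exact hexp.of_map_of_injective iotaC.injective

theorem zetaK_zpow_eq_one_iff (N : ℕ) [NeZero N] (n : ℤ) :
    zetaK N ^ n = 1 ↔ (N : ℤ) ∣ n :=
  (isPrimitiveRoot_zetaK N).zpow_eq_one_iff_dvd n

/-! ## Hermite normal form -/

/-- Every integer matrix of positive determinant is `δ * [a, b; 0, d]` with `δ ∈ SL(2, ℤ)`,
`a, d > 0`. -/
theorem hermite_general (A : Matrix (Fin 2) (Fin 2) ℤ) (hA : 0 < A.det) :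
    ∃ (δ : SL(2, ℤ)) (a d : ℕ) (b : ℤ), 0 < a ∧ 0 < d ∧ (a : ℤ) * d = A.det ∧
      A = δ.1 * !![(a : ℤ), b; 0, (d : ℤ)] := by
  have hdet : A.det = A 0 0 * A 1 1 - A 0 1 * A 1 0 := Matrix.det_fin_two A
  have hg0 : Int.gcd (A 0 0) (A 1 0) ≠ 0 := by
    intro h
    rw [Int.gcd_eq_zero_iff] at h
    rw [hdet, h.1, h.2] at hA
    simp at hA
  obtain ⟨x', hx'⟩ := Int.gcd_dvd_left (A 0 0) (A 1 0)
  obtain ⟨y', hy'⟩ := Int.gcd_dvd_right (A 0 0) (A 1 0)
  have hbez := Int.gcd_eq_gcd_ab (A 0 0) (A 1 0)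
  have hgpos : (0 : ℤ) < (Int.gcd (A 0 0) (A 1 0) : ℤ) := by
    exact_mod_cast Nat.pos_of_ne_zero hg0
  generalize hu : Int.gcdA (A 0 0) (A 1 0) = u at hbez
  generalize hv : Int.gcdB (A 0 0) (A 1 0) = v at hbez
  generalize hg : (Int.gcd (A 0 0) (A 1 0) : ℤ) = g at hx' hy' hbez hgpos
  have h1 : x' * u + y' * v = 1 := by
    have h2 : g * (x' * u + y' * v) = g * 1 := by
      have h3 : g = g * x' * u + g * y' * v := by
        rw [← hx', ← hy']
        exact hbez
      linear_combination -h3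
    exact mul_left_cancel₀ hgpos.ne' h2
  have hgd : g * (x' * A 1 1 - y' * A 0 1) = A.det := by
    rw [hdet, hx', hy']
    ring
  have hdpos : 0 < x' * A 1 1 - y' * A 0 1 := by
    have h3 : 0 < g * (x' * A 1 1 - y' * A 0 1) := by rw [hgd]; exact hA
    exact (mul_pos_iff_of_pos_left hgpos).mp h3
  refine ⟨⟨!![x', -v; y', u], ?_⟩, Int.gcd (A 0 0) (A 1 0), (x' * A 1 1 - y' * A 0 1).toNat,
    u * A 0 1 + v * A 1 1, Nat.pos_of_ne_zero hg0, ?_, ?_, ?_⟩
  · rw [Matrix.det_fin_two_of]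
    linear_combination h1
  · exact Int.pos_iff_toNat_pos.mp hdpos
  · rw [hg, Int.toNat_of_nonneg hdpos.le, hgd]
  · rw [hg, Int.toNat_of_nonneg hdpos.le]
    ext i j
    fin_cases i <;> fin_cases j
    · simp [Matrix.mul_apply, Fin.sum_univ_two]
      rw [hx']; ring
    · simp [Matrix.mul_apply, Fin.sum_univ_two]
      linear_combination (-(A 0 1)) * h1
    · simp [Matrix.mul_apply, Fin.sum_univ_two]
      rw [hy']; ring
    · simp [Matrix.mul_apply, Fin.sum_univ_two]
      linear_combination (-(A 1 1)) * h1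

/-! ## Expansions of the generators -/

theorem coeffMap_ofPowerSeries {R S : Type*} [CommRing R] [CommRing S] (φ : R →+* S)
    (f : PowerSeries R) :
    coeffMap φ (HahnSeries.ofPowerSeries ℤ R f) = HahnSeries.ofPowerSeries ℤ S (f.map φ) := by
  ext k
  rw [coeffMap_coeff]
  rcases lt_or_ge k 0 with hk | hk
  · rw [ofPowerSeries_coeff_of_neg _ hk, ofPowerSeries_coeff_of_neg _ hk, map_zero]
  · obtain ⟨n, rfl⟩ := Int.eq_ofNat_of_zero_le hk
    rw [HahnSeries.ofPowerSeries_apply_coeff, HahnSeries.ofPowerSeries_apply_coeff,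
      PowerSeries.coeff_map]

theorem coeffMap_iotaC_jBar :
    coeffMap iotaC jBar = HahnSeries.single (-1 : ℤ) (1 : ℂ) *
      HahnSeries.ofPowerSeries ℤ ℂ
        (PowerSeries.mk fun n : ℕ => ((PowerSeries.coeff n ModularCurve.jNum : ℤ) : ℂ)) := by
  rw [jBar, coeffEmb, jq, map_mul, map_mul, coeffMap_single, coeffMap_single, map_one, map_one,
    coeffMap_ofPowerSeries, coeffMap_ofPowerSeries]
  congr 2
  ext n
  simp [jNumQ, PowerSeries.coeff_map]

/-- The `q`-expansion of `j` is the formal `j`. -/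
theorem hasUExp_jAn : HasUExp 1 jAn (coeffMap iotaC jBar) := by
  rw [coeffMap_iotaC_jBar]
  exact HasUExp.of_hasSum_mul_q (fun τ => jAn_hasSum τ)

theorem iotaC_zetaK_zpow (d : ℕ) [NeZero d] (b n : ℤ) :
    iotaC (zetaK d ^ (b * n)) = Complex.exp (2 * Real.pi * Complex.I * b / d) ^ n := by
  rw [map_zpow₀, iotaC_zetaK, zpow_mul, ← Complex.exp_int_mul]
  congr 2
  ring

/-- The expansion of `j ((a τ + b) / d)` in `u = exp (2 π i τ / N)`. -/
theorem hasUExp_JA_upper (N : ℕ) [NeZero N] (a d : ℕ) (b : ℤ) (ha : 0 < a) (hd : 0 < d)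
    (hdN : d ∣ N) :
    haveI : NeZero d := ⟨hd.ne'⟩
    ∃ c : LaurentSeries Kbar,
      HasUExp N (JA !![(a : ℤ), b; 0, (d : ℤ)] : ℍ → ℂ) (coeffMap iotaC c) ∧
      (∀ n : ℤ, c.coeff (((N / d * a : ℕ) : ℤ) * n) = zetaK d ^ (b * n) * jBar.coeff n) ∧
      (∀ m : ℤ, ¬ (((N / d * a : ℕ) : ℤ) ∣ m) → c.coeff m = 0) := by
  have : NeZero d := ⟨hd.ne'⟩
  have hNd : 0 < N / d := Nat.div_pos (Nat.le_of_dvd (Nat.pos_of_ne_zero (NeZero.ne N)) hdN) hd
  have : NeZero (N / d * a) := ⟨(Nat.mul_pos hNd ha).ne'⟩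
  have hdet : 0 < (!![(a : ℤ), b; 0, (d : ℤ)]).det := by
    rw [Matrix.det_fin_two_of]
    simp only [mul_zero, sub_zero]
    positivity
  obtain ⟨c', hc', hc1, hc2⟩ := HasUExp.comp_affine (N := N) hasUExp_jAn a d b ha hd hdN
    (JA !![(a : ℤ), b; 0, (d : ℤ)] : ℍ → ℂ) (by
      intro τ τ' hτ'
      rw [JA_apply _ hdet]
      congr 1
      apply UpperHalfPlane.ext
      rw [coe_intGL_smul, hτ']
      simp)
  refine ⟨qExpand Kbar (N / d * a) (twist (zetaK d ^ b) jBar), ?_, ?_, ?_⟩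
  · have e : coeffMap iotaC (qExpand Kbar (N / d * a) (twist (zetaK d ^ b) jBar)) = c' := by
      ext m
      rw [coeffMap_coeff]
      by_cases hm : ((N / d * a : ℕ) : ℤ) ∣ m
      · obtain ⟨n, rfl⟩ := hm
        rw [qExpand_coeff_mul, hc1, twist_coeff, coeffMap_coeff, map_mul, ← zpow_mul,
          iotaC_zetaK_zpow]
      · rw [qExpand_coeff_of_not_dvd _ _ hm, hc2 m hm, map_zero]
    rw [e]
    exact hc'
  · intro n
    rw [qExpand_coeff_mul, twist_coeff, ← zpow_mul]
  · intro m hm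
    exact qExpand_coeff_of_not_dvd _ _ hm

theorem coeffMap_iotaC_injective : Function.Injective (coeffMap iotaC) := by
  intro x y h
  ext n
  have := congrArg (fun z : LaurentSeries ℂ => z.coeff n) h
  simp only [coeffMap_coeff] at this
  exact iotaC.injective this

theorem coeffMap_iotaC_C (r : Kbar) :
    coeffMap iotaC (HahnSeries.C r) = HahnSeries.C (iotaC r) := by
  rw [HahnSeries.C_apply, HahnSeries.C_apply, coeffMap_single]

theorem dvd_of_hermite (N : ℕ) (A : Matrix (Fin 2) (Fin 2) ℤ) (hN : A.det ∣ (N : ℤ))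
    (a d : ℕ) (had : (a : ℤ) * d = A.det) : d ∣ N := by
  have h : ((d : ℕ) : ℤ) ∣ (N : ℤ) := Dvd.dvd.trans ⟨(a : ℤ), by rw [← had]; ring⟩ hN
  exact Int.natCast_dvd_natCast.mp h

theorem det_upper_pos (a d : ℕ) (b : ℤ) (ha : 0 < a) (hd : 0 < d) :
    0 < (!![(a : ℤ), b; 0, (d : ℤ)]).det := by
  rw [Matrix.det_fin_two_of]
  simp only [mul_zero, sub_zero]
  positivity

/-- Every element of `Atil N` has an expansion with coefficients in `Q̄`. -/
theorem exists_hasUExp (N : ℕ) [NeZero N] (f : Atil N) :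
    ∃ c : LaurentSeries Kbar, HasUExp N ((f : Hol) : ℍ → ℂ) (coeffMap iotaC c) := by
  obtain ⟨f, hf⟩ := f
  show ∃ c : LaurentSeries Kbar, HasUExp N (f : ℍ → ℂ) (coeffMap iotaC c)
  unfold Atil at hf
  induction hf using Algebra.adjoin_induction with
  | mem x hx =>
    obtain ⟨A, hA, hN, rfl⟩ := hx
    obtain ⟨δ, a, d, b, ha, hd, had, hAδ⟩ := hermite_general A hA
    have hdN : d ∣ N := dvd_of_hermite N A hN a d had
    obtain ⟨c, hc, -, -⟩ := hasUExp_JA_upper N a d b ha hd hdN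
    refine ⟨c, ?_⟩
    rw [hAδ, JA_mul_left δ _ (det_upper_pos a d b ha hd)]
    exact hc
  | algebraMap r =>
    refine ⟨HahnSeries.C r, ?_⟩
    rw [coeffMap_iotaC_C]
    exact (HasUExp.const N (iotaC r)).congr (fun τ => (algebraMap_Kbar_Hol_apply r τ).symm)
  | add x y hx hy ihx ihy =>
    obtain ⟨c, hc⟩ := ihx
    obtain ⟨c', hc'⟩ := ihy
    refine ⟨c + c', ?_⟩
    rw [map_add]
    exact (hc.add hc').congr (fun τ => rfl)
  | mul x y hx hy ihx ihy =>
    obtain ⟨c, hc⟩ := ihx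
    obtain ⟨c', hc'⟩ := ihy
    refine ⟨c * c', ?_⟩
    rw [map_mul]
    exact (hc.mul hc').congr (fun τ => rfl)

/-! ## The expansion homomorphism -/

/-- The expansion of `f ∈ Atil N` at `∞`, with coefficients in `Q̄`. -/
def uExpFun (N : ℕ) [NeZero N] (f : Atil N) : LaurentSeries Kbar := (exists_hasUExp N f).choose

theorem uExpFun_spec (N : ℕ) [NeZero N] (f : Atil N) :
    HasUExp N ((f : Hol) : ℍ → ℂ) (coeffMap iotaC (uExpFun N f)) :=
  (exists_hasUExp N f).choose_spec

theorem uExpFun_eq (N : ℕ) [NeZero N] (f : Atil N) (c : LaurentSeries Kbar)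
    (h : HasUExp N ((f : Hol) : ℍ → ℂ) (coeffMap iotaC c)) : uExpFun N f = c :=
  coeffMap_iotaC_injective ((uExpFun_spec N f).unique h)

/-- The expansion homomorphism. -/
def uExp (N : ℕ) [NeZero N] : Atil N →ₐ[Kbar] LaurentSeries Kbar where
  toFun := uExpFun N
  map_one' := by
    apply uExpFun_eq
    rw [map_one]
    exact (HasUExp.one N).congr (fun τ => rfl)
  map_mul' f g := by
    apply uExpFun_eq
    rw [map_mul]
    exact ((uExpFun_spec N f).mul (uExpFun_spec N g)).congr (fun τ => rfl)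
  map_zero' := by
    apply uExpFun_eq
    rw [map_zero]
    exact (HasUExp.zero N).congr (fun τ => rfl)
  map_add' f g := by
    apply uExpFun_eq
    rw [map_add]
    exact ((uExpFun_spec N f).add (uExpFun_spec N g)).congr (fun τ => rfl)
  commutes' r := by
    apply uExpFun_eq
    rw [algebraMap_laurentSeries_eq_single, coeffMap_single, ← HahnSeries.C_apply]
    exact (HasUExp.const N (iotaC r)).congr (fun τ => rfl)

theorem uExp_spec (N : ℕ) [NeZero N] (f : Atil N) :
    HasUExp N ((f : Hol) : ℍ → ℂ) (coeffMap iotaC (uExp N f)) := uExpFun_spec N f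

theorem uExp_eq (N : ℕ) [NeZero N] (f : Atil N) (c : LaurentSeries Kbar)
    (h : HasUExp N ((f : Hol) : ℍ → ℂ) (coeffMap iotaC c)) : uExp N f = c := uExpFun_eq N f c h

theorem uExp_injective (N : ℕ) [NeZero N] : Function.Injective (uExp N) := by
  rw [injective_iff_map_eq_zero]
  intro f hf
  have h := uExp_spec N f
  rw [hf, map_zero] at h
  apply Subtype.ext
  apply Subtype.ext
  funext τ
  have h0 : HasSum (fun n : ℤ => (0 : LaurentSeries ℂ).coeff n * uPar N τ ^ n) 0 := by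
    simp
  exact (h τ).unique h0

/-- If `f ∈ Atil N` is constant as a function, the constant lies in `ι(Q̄)`. -/
theorem eq_algebraMap_of_const (N : ℕ) [NeZero N] (f : Atil N) (a : ℂ)
    (h : ∀ τ : ℍ, ((f : Hol) : ℍ → ℂ) τ = a) :
    f = algebraMap Kbar (Atil N) ((uExp N f).coeff 0) := by
  have h1 : HasUExp N ((f : Hol) : ℍ → ℂ) (HahnSeries.C a) :=
    (HasUExp.const N a).congr (fun τ => (h τ).symm)
  have h2 := (uExp_spec N f).unique h1
  have h3 : iotaC ((uExp N f).coeff 0) = a := by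
    have := congrArg (fun z : LaurentSeries ℂ => z.coeff 0) h2
    simpa using this
  apply Subtype.ext
  apply Subtype.ext
  funext τ
  rw [h τ, ← h3]
  rfl

theorem coe_T_inv_smul_eq (τ : ℍ) :
    (((ModularGroup.T⁻¹ : SL(2, ℤ)) • τ : ℍ) : ℂ) = (τ : ℂ) + ((-1 : ℤ) : ℂ) := by
  have h := ModularGroup.coe_T_zpow_smul_eq (z := τ) (n := -1)
  rwa [zpow_neg_one] at h

theorem iotaC_zetaK_inv (N : ℕ) [NeZero N] :
    iotaC (zetaK N)⁻¹ = Complex.exp (2 * Real.pi * Complex.I * ((-1 : ℤ) : ℂ) / N) := by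
  rw [map_inv₀, iotaC_zetaK, ← Complex.exp_neg]
  congr 1
  push_cast
  ring

/-- `T` twists the expansion by `ζ_N⁻¹` (`(T • f) τ = f (τ - 1)`). -/
theorem uExp_T_smul (N : ℕ) [NeZero N] (f : Atil N) :
    uExp N (ModularGroup.T • f) = twist (zetaK N)⁻¹ (uExp N f) := by
  apply uExp_eq
  rw [coeffMap_twist, iotaC_zetaK_inv]
  refine HasUExp.comp_translate (uExp_spec N f) (-1) _ ?_
  intro τ τ' hτ'
  show ((f : Hol) : ℍ → ℂ) (ModularGroup.T⁻¹ • τ) = ((f : Hol) : ℍ → ℂ) τ'
  have e : (ModularGroup.T⁻¹ : SL(2, ℤ)) • τ = τ' := by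
    apply UpperHalfPlane.ext
    rw [coe_T_inv_smul_eq, hτ']
  rw [e]

/-- The expansion of `j (d τ)`. -/
theorem uExp_jdA (N : ℕ) [NeZero N] (d : ℕ) [NeZero d] (hd : d ∣ N) :
    uExp N (jdA N d) = qExpand Kbar N (coeffEmb Kbar (qExpand ℚ d jq)) := by
  have hd0 : 0 < d := Nat.pos_of_ne_zero (NeZero.ne d)
  obtain ⟨c, hc, hc1, hc2⟩ := hasUExp_JA_upper N d 1 0 hd0 one_pos (one_dvd N)
  have e : uExp N (jdA N d) = c := by
    apply uExp_eq
    rw [jdA_coe N d hd0 hd]
    exact_mod_cast hc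
  rw [e]
  ext m
  simp only [Nat.div_one, Nat.cast_mul, zero_mul, zpow_zero, one_mul] at hc1 hc2
  by_cases hm : ((N : ℤ) * (d : ℤ)) ∣ m
  · obtain ⟨n, rfl⟩ := hm
    rw [hc1, mul_assoc, qExpand_coeff_mul, coeffEmb_coeff, qExpand_coeff_mul, jBar, coeffEmb_coeff]
  · rw [hc2 m hm]
    by_cases hmN : (N : ℤ) ∣ m
    · obtain ⟨k, rfl⟩ := hmN
      rw [qExpand_coeff_mul, coeffEmb_coeff]
      have hk : ¬ (d : ℤ) ∣ k := fun ⟨l, hl⟩ => hm ⟨l, by rw [hl]; ring⟩
      rw [qExpand_coeff_of_not_dvd _ _ hk, map_zero]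
    · rw [qExpand_coeff_of_not_dvd _ _ hmN]

theorem uExp_jA (N : ℕ) [NeZero N] : uExp N (jA N) = qExpand Kbar N jBar := by
  have h := uExp_jdA N 1 (one_dvd N)
  rw [jdA_one, qExpand_one_apply] at h
  exact h

/-- The pole order of `j ∘ A`, `A = δ * [a, b; 0, d]`, in `u` is `N a / d`. -/
theorem uExp_JA_order (N : ℕ) [NeZero N] (A : Matrix (Fin 2) (Fin 2) ℤ) (hA : 0 < A.det)
    (hN : A.det ∣ (N : ℤ)) (δ : SL(2, ℤ)) (a d : ℕ) (b : ℤ) (ha : 0 < a) (hd : 0 < d)
    (hAδ : A = δ.1 * !![(a : ℤ), b; 0, (d : ℤ)]) :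
    (uExp N ⟨JA A, JA_mem_Atil N A hA hN⟩).order = -((N / d * a : ℕ) : ℤ) := by
  have hdetU := det_upper_pos a d b ha hd
  have had : (a : ℤ) * d = A.det := by
    rw [hAδ, Matrix.det_mul, δ.2, one_mul, Matrix.det_fin_two_of]
    ring
  have hdN : d ∣ N := dvd_of_hermite N A hN a d had
  have : NeZero d := ⟨hd.ne'⟩
  obtain ⟨c, hc, hc1, hc2⟩ := hasUExp_JA_upper N a d b ha hd hdN
  have e : uExp N ⟨JA A, JA_mem_Atil N A hA hN⟩ = c := by
    apply uExp_eq
    show HasUExp N (JA A : ℍ → ℂ) (coeffMap iotaC c)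
    rw [hAδ, JA_mul_left δ _ hdetU]
    exact hc
  rw [e]
  have hNd : 0 < N / d := Nat.div_pos (Nat.le_of_dvd (Nat.pos_of_ne_zero (NeZero.ne N)) hdN) hd
  have hM : (0 : ℤ) < ((N / d * a : ℕ) : ℤ) := by exact_mod_cast Nat.mul_pos hNd ha
  generalize ((N / d * a : ℕ) : ℤ) = M at hc1 hc2 hM
  have hlead : c.coeff (-M) ≠ 0 := by
    have h := hc1 (-1)
    rw [mul_neg_one] at h
    rw [h]
    refine mul_ne_zero (zpow_ne_zero _ (zetaK_ne_zero d)) ?_
    rw [jBar, coeffEmb_coeff, coeff_jq_neg_one, map_one]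
    exact one_ne_zero
  have hc0 : c ≠ 0 := fun h => hlead (by rw [h]; rfl)
  apply le_antisymm
  · exact HahnSeries.order_le_of_coeff_ne_zero hlead
  · rw [HahnSeries.le_order_iff_forall hc0]
    intro m hm
    by_cases hdiv : M ∣ m
    · obtain ⟨n, rfl⟩ := hdiv
      have hn : n < -1 := by
        by_contra hcon
        have : -M ≤ M * n := by nlinarith
        omega
      rw [hc1, jBar, coeffEmb_coeff, coeff_jq_of_lt hn, map_zero, mul_zero]
    · exact hc2 m hdiv

/-- An element of `Atil N` whose expansion has no negative terms is bounded at `∞`. -/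
theorem isBoundedAtImInfty_of_uExp (N : ℕ) [NeZero N] (f : Atil N)
    (h : ∀ n : ℤ, n < 0 → (uExp N f).coeff n = 0) :
    IsBoundedAtImInfty ((f : Hol) : ℍ → ℂ) :=
  (uExp_spec N f).isBoundedAtImInfty (fun n hn => by rw [coeffMap_coeff, h n hn, map_zero])

end Fermat.Agent.S24

end
end
-- ==== END Fermat.Agent.S24.Closure.UExpJA

-- ==== BEGIN Fermat.Agent.S28.H10_Bridge
section

set_option autoImplicit false

open UpperHalfPlane ModularForm ModularCurve
open scoped MatrixGroups ModularForm Manifold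

noncomputable section

namespace Fermat.Agent.S28.H10

open Fermat.Agent.S23.H22 (G0 Q q1 E12 levelRaise Nice nice_G0 qExpansion_levelRaise_coeff)
open Fermat.Agent.S28.H30 (pexp fam raise DeltaMF)

local notation "ofPS" => HahnSeries.ofPowerSeries ℤ ℂ

/-- The `q`-expansion of a level raise `F ∣[k] α_d`, as a Laurent series. -/
theorem ofPS_qExpansion_levelRaise (d : ℕ) [NeZero d] {k : ℤ} (F : ModularForm 𝒮ℒ k) :
    ofPS (qExpansion 1 (levelRaise d F)) =
      HahnSeries.C ((d : ℂ) ^ (k - 1)) * qExpand ℂ d (ofPS (qExpansion 1 F)) := by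
  have hd : 0 < d := NeZero.pos d
  ext n
  rw [HahnSeries.C_mul_eq_smul, HahnSeries.coeff_smul, smul_eq_mul]
  rcases lt_or_ge n 0 with hn | hn
  · rw [ModularCurve.ofPowerSeries_coeff_of_neg _ hn]
    by_cases hdn : (d : ℤ) ∣ n
    · obtain ⟨m, rfl⟩ := hdn
      rw [qExpand_coeff_mul]
      have hm : m < 0 := by
        by_contra hm
        rw [not_lt] at hm
        have : (0 : ℤ) ≤ (d : ℤ) * m := mul_nonneg (by positivity) hm
        omega
      rw [ModularCurve.ofPowerSeries_coeff_of_neg _ hm, mul_zero]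
    · rw [qExpand_coeff_of_not_dvd _ _ hdn, mul_zero]
  · obtain ⟨m, rfl⟩ := Int.eq_ofNat_of_zero_le hn
    rw [HahnSeries.ofPowerSeries_apply_coeff, qExpansion_levelRaise_coeff d F m]
    by_cases hdm : d ∣ m
    · rw [if_pos hdm]
      obtain ⟨l, rfl⟩ := hdm
      rw [Nat.mul_div_cancel_left _ hd]
      push_cast
      rw [qExpand_coeff_mul, HahnSeries.ofPowerSeries_apply_coeff]
    · rw [if_neg hdm, qExpand_coeff_of_not_dvd, mul_zero]
      exact_mod_cast hdm

/-- Extension of coefficients commutes with `q ↦ q^d`. -/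
theorem coeffMap_qExpand (d : ℕ) [NeZero d] (f : LaurentSeries ℚ) :
    coeffMap (algebraMap ℚ ℂ) (qExpand ℚ d f) = qExpand ℂ d (coeffMap (algebraMap ℚ ℂ) f) := by
  ext n
  rw [coeffMap_coeff]
  by_cases hdn : (d : ℤ) ∣ n
  · obtain ⟨m, rfl⟩ := hdn
    rw [qExpand_coeff_mul, qExpand_coeff_mul, coeffMap_coeff]
  · rw [qExpand_coeff_of_not_dvd _ _ hdn, qExpand_coeff_of_not_dvd _ _ hdn, map_zero]

theorem iotaN_qExpand (N : ℕ) [NeZero N] (d : ℕ) [NeZero d] (f : LaurentSeries ℚ) :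
    iotaN N (qExpand ℚ d f) = qExpand ℂ N (qExpand ℂ d (coeffMap (algebraMap ℚ ℂ) f)) := by
  rw [iotaN, RingHom.comp_apply, coeffMap_qExpand]

/-- The `t`-expansion of the level raise `F ∣[k] α_d`, `d ∣ N`. -/
theorem pexp_fam_q1 (N : ℕ) [NeZero N] (d : ℕ) [NeZero d] (hd : d ∣ N) {k : ℤ}
    (F : ModularForm 𝒮ℒ k) :
    pexp N (fam N d F q1) =
      HahnSeries.C ((d : ℂ) ^ (k - 1)) * qExpand ℂ N (qExpand ℂ d (ofPS (qExpansion 1 F))) := by
  have h1 : (fam N d F q1 : ℍ → ℂ) = (levelRaise d F : ℍ → ℂ) := by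
    rw [Fermat.Agent.S28.H30.fam_q1, Fermat.Agent.S28.H30.raise_coe_of_dvd N hd]
    rfl
  have hnice : Nice 1 (levelRaise d F : ℍ → ℂ) := nice_G0 d (levelRaise d F)
  rw [pexp, h1, Fermat.Agent.S28.H76.ofPS_qExpansion_natCast N hnice,
    ofPS_qExpansion_levelRaise d F, map_mul, qExpand_C]

theorem qExpansion_E12 : qExpansion 1 E12 = qExpansion 1 E₄ ^ 3 := by
  have h1 : (E12 : ℍ → ℂ) = ((E₄.mul E₄).mul E₄ : ModularForm 𝒮ℒ (4 + 4 + 4)) := rfl
  rw [h1, ModularForm.qExpansion_mul one_pos one_mem_strictPeriods_SL,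
    ModularForm.qExpansion_mul one_pos one_mem_strictPeriods_SL]
  ring

/-- **Bridge BR.** -/
theorem bridge_BR (N : ℕ) [NeZero N] (d : ℕ) [NeZero d] (hd : d ∣ N) :
    pexp N (fam N d E12 q1) =
      iotaN N (qExpand ℚ d jq) * pexp N (fam N d DeltaMF q1) := by
  rw [pexp_fam_q1 N d hd E12, pexp_fam_q1 N d hd DeltaMF, iotaN_qExpand]
  have hΔ : qExpansion 1 DeltaMF = qExpansion 1 ModularForm.discriminant := rfl
  rw [qExpansion_E12, hΔ, map_pow, ← Fermat.Agent.S28.H76.coeffMap_jq_mul_disc, map_mul, map_mul]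
  ring

end Fermat.Agent.S28.H10

end
end
-- ==== END Fermat.Agent.S28.H10_Bridge

-- ==== BEGIN Fermat.Agent.S28.H30_Eta
section

/-!
# S28, WP-F: general eta quotients, their conjugates, `t`-expansions and the `sym` property
(helper30)

Index set `s : Finset ι`, levels `M i ∣ N`, exponents `mp i` (numerator), `mm i` (denominator).
`numF q = ∏ (Δ_{M i})_q ^ mp i`, `denF q = ∏ (Δ_{M i})_q ^ mm i`, `Ueta q = pexp numF / pexp denF`.
-/

set_option autoImplicit false
set_option linter.unusedSectionVars false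
set_option linter.unusedVariables false

open UpperHalfPlane ModularForm ModularCurve Function SlashInvariantForm
open scoped MatrixGroups ModularForm Manifold Real

noncomputable section

namespace Fermat.Agent.S28.H30

open Fermat.Agent.S23.H22 (G0 Q toSL piPerm q1 E12)

variable (N : ℕ) [NeZero N]

/-! ### Equivariant families -/

/-- A family indexed by the cosets is slash-equivariant of weight `k`. -/
def Equi (k : ℤ) (F : Q N → ℍ → ℂ) : Prop :=
  ∀ (γ : SL(2, ℤ)) (q : Q N), F q ∣[k] γ = F (piPerm N γ q)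

variable {N}

lemma Equi.mul {k₁ k₂ : ℤ} {F G : Q N → ℍ → ℂ} (hF : Equi N k₁ F) (hG : Equi N k₂ G) :
    Equi N (k₁ + k₂) (fun q => F q * G q) := by
  intro γ q
  show (F q * G q) ∣[k₁ + k₂] γ = F (piPerm N γ q) * G (piPerm N γ q)
  rw [mul_slash_SL2, hF, hG]

lemma Equi.one : Equi N 0 (fun _ : Q N => (1 : ℍ → ℂ)) := by
  intro γ q
  exact is_invariant_one γ

lemma Equi.congr_wt {k l : ℤ} {F : Q N → ℍ → ℂ} (hF : Equi N k F) (h : k = l) : Equi N l F :=
  h ▸ hF

lemma Equi.pow {k : ℤ} {F : Q N → ℍ → ℂ} (hF : Equi N k F) (n : ℕ) :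
    Equi N (n * k) (fun q => F q ^ n) := by
  induction n with
  | zero =>
    simp only [Nat.cast_zero, zero_mul, pow_zero]
    exact Equi.one
  | succ n ih =>
    have h0 := ih.mul hF
    have hwt : (n : ℤ) * k + k = ((n + 1 : ℕ) : ℤ) * k := by push_cast; ring
    refine Equi.congr_wt (k := (n : ℤ) * k + k) (F := fun q => F q ^ (n + 1)) ?_ hwt
    intro γ q
    have h1 := h0 γ q
    simp only [pow_succ]
    exact h1

lemma Equi.prod {ι : Type} (s : Finset ι) (K : ι → ℤ) (F : ι → Q N → ℍ → ℂ)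
    (hF : ∀ i ∈ s, Equi N (K i) (F i)) :
    Equi N (∑ i ∈ s, K i) (fun q => ∏ i ∈ s, F i q) := by
  classical
  induction s using Finset.induction_on with
  | empty =>
    simp only [Finset.sum_empty, Finset.prod_empty]
    exact Equi.one
  | insert i t hi ih =>
    have h1 := (hF i (Finset.mem_insert_self i t)).mul
      (ih fun j hj => hF j (Finset.mem_insert_of_mem hj))
    rw [Finset.sum_insert hi]
    intro γ q
    have := h1 γ q
    simp only [Finset.prod_insert hi]
    exact this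

lemma Equi.smul {k : ℤ} {F : Q N → ℍ → ℂ} (hF : Equi N k F) (c : ℂ) :
    Equi N k (fun q => c • F q) := by
  intro γ q
  show (c • F q) ∣[k] γ = c • F (piPerm N γ q)
  rw [SL_smul_slash, hF]

lemma Equi.sub {k : ℤ} {F G : Q N → ℍ → ℂ} (hF : Equi N k F) (hG : Equi N k G) :
    Equi N k (fun q => F q - G q) := by
  intro γ q
  show (F q - G q) ∣[k] γ = F (piPerm N γ q) - G (piPerm N γ q)
  rw [sub_eq_add_neg, SlashAction.add_slash, SlashAction.neg_slash, hF, hG, ← sub_eq_add_neg]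

lemma fam_equi (M : ℕ) {k : ℤ} (F : ModularForm 𝒮ℒ k) : Equi N k (fam N M F) :=
  fun γ q => fam_slash N M F γ q

/-! ### Non-vanishing of the conjugates of `Δ` -/

lemma fam_Delta_ne_zero {M : ℕ} (hM : M ∣ N) (q : Q N) (z : ℍ) : fam N M DeltaMF q z ≠ 0 := by
  obtain ⟨γ, rfl⟩ := exists_rep N q
  obtain ⟨a, b, d, h, had, -, heq⟩ := fam_eq_smul_compUT N hM DeltaMF γ
  rw [heq, Pi.smul_apply, smul_eq_mul]
  refine mul_ne_zero (Fermat.Agent.S23.H83.slash_const_ne_zero a d h) ?_
  exact ModularForm.discriminant_ne_zero _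

/-! ### Eta quotients -/

section Eta

variable (N)
variable {ι : Type} (s : Finset ι) (M mp mm : ι → ℕ)

/-- `∏ (Δ_{M i})_q ^ m i`. -/
def prodF (m : ι → ℕ) (q : Q N) : ℍ → ℂ := ∏ i ∈ s, (fam N (M i) DeltaMF q) ^ (m i)

/-- The `t`-expansion of the conjugate of the eta quotient. -/
def Ueta (q : Q N) : LaurentSeries ℂ :=
  pexp N (prodF N s M mp q) / pexp N (prodF N s M mm q)

/-- The `t`-expansion of the conjugate of `j(d z)`. -/
def Xfam (d : ℕ) (q : Q N) : LaurentSeries ℂ :=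
  pexp N (fam N d E12 q) / pexp N (fam N d DeltaMF q)

variable {N s M}

lemma prodF_BPH (hM : ∀ i ∈ s, M i ∣ N) (m : ι → ℕ) (q : Q N) : BPH N (prodF N s M m q) :=
  BPH.prod s _ fun i hi => (fam_BPH N (hM i hi) DeltaMF q).pow (m i)

lemma prodF_ne_zero (hM : ∀ i ∈ s, M i ∣ N) (m : ι → ℕ) (q : Q N) (z : ℍ) :
    prodF N s M m q z ≠ 0 := by
  unfold prodF
  rw [Finset.prod_apply]
  refine Finset.prod_ne_zero_iff.mpr fun i hi => ?_
  rw [Pi.pow_apply]
  exact pow_ne_zero _ (fam_Delta_ne_zero (hM i hi) q z)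

lemma prodF_equi (m : ι → ℕ) : Equi N (∑ i ∈ s, (m i : ℤ) * 12) (prodF N s M m) :=
  Equi.prod s _ _ fun i _ => (fam_equi (M i) DeltaMF).pow (m i)

lemma pexp_prodF (hM : ∀ i ∈ s, M i ∣ N) (m : ι → ℕ) (q : Q N) :
    pexp N (prodF N s M m q) = ∏ i ∈ s, pexp N (fam N (M i) DeltaMF q) ^ (m i) := by
  unfold prodF
  rw [pexp_prod s _ fun i hi => (fam_BPH N (hM i hi) DeltaMF q).pow (m i)]
  refine Finset.prod_congr rfl fun i hi => ?_
  rw [pexp_pow (fam_BPH N (hM i hi) DeltaMF q)]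

theorem uls_pexp_prodF (hM : ∀ i ∈ s, M i ∣ N) (m : ι → ℕ) (γ : SL(2, ℤ)) :
    ULS (coeffRing N) (pexp N (prodF N s M m (⟦toSL γ⟧ : Q N)))
      (∑ i ∈ s, (m i : ℤ) * (ordAt N (M i) ((γ⁻¹ : SL(2, ℤ)) 1 0) : ℤ)) := by
  rw [pexp_prodF hM]
  exact ULS.prod s _ _ fun i hi => (uls_fam_Delta N (hM i hi) γ).pow (m i)

/-- **Orders, integrality and unit leading coefficients of the conjugates of an eta quotient.** -/
theorem uls_Ueta (hM : ∀ i ∈ s, M i ∣ N) (γ : SL(2, ℤ)) :
    ULS (coeffRing N) (Ueta N s M mp mm (⟦toSL γ⟧ : Q N))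
      (∑ i ∈ s, ((mp i : ℤ) - (mm i : ℤ)) * (ordAt N (M i) ((γ⁻¹ : SL(2, ℤ)) 1 0) : ℤ)) := by
  have h := (uls_pexp_prodF hM mp γ).div (uls_pexp_prodF hM mm γ)
  refine ULS.congr_ord h ?_
  rw [← Finset.sum_sub_distrib]
  refine Finset.sum_congr rfl fun i _ => ?_
  ring

/-! ### The `sym` property -/

theorem sym_of_stmt (hsym : Stmt_Sym) (hM : ∀ i ∈ s, M i ∣ N)
    (hw : ∑ i ∈ s, (mp i : ℤ) = ∑ i ∈ s, (mm i : ℤ)) {d : ℕ} (hd : d ∣ N) (c x : ℂ) :
    (∏ q : Q N, (HahnSeries.C c - Ueta N s M mp mm q - HahnSeries.C x * Xfam N d q)) ∈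
      Algebra.adjoin ℂ ({iotaN N jq} : Set (LaurentSeries ℂ)) := by
  classical
  have hk : ∃ k : ℤ, k = (∑ i ∈ s, (mm i : ℤ) * 12) + 12 := ⟨_, rfl⟩
  obtain ⟨k, hk⟩ := hk
  -- the families
  let A : Q N → ℍ → ℂ := prodF N s M mm
  let B : Q N → ℍ → ℂ := prodF N s M mp
  let D : Q N → ℍ → ℂ := fam N d DeltaMF
  let E : Q N → ℍ → ℂ := fam N d E12
  have hA : ∀ q, BPH N (A q) := prodF_BPH hM mm
  have hB : ∀ q, BPH N (B q) := prodF_BPH hM mp
  have hD : ∀ q, BPH N (D q) := fam_BPH N hd DeltaMF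
  have hE : ∀ q, BPH N (E q) := fam_BPH N hd E12
  have eA : Equi N (∑ i ∈ s, (mm i : ℤ) * 12) A := prodF_equi mm
  have eB : Equi N (∑ i ∈ s, (mm i : ℤ) * 12) B := by
    refine (prodF_equi (N := N) (s := s) (M := M) mp).congr_wt ?_
    rw [← Finset.sum_mul, ← Finset.sum_mul, hw]
  have eD : Equi N 12 D := fam_equi d DeltaMF
  have eE : Equi N 12 E := fam_equi d E12
  let a : Q N → ℍ → ℂ := fun q => (c • (A q * D q) - B q * D q) - x • (E q * A q)
  let b : Q N → ℍ → ℂ := fun q => A q * D q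
  have ea : Equi N k a :=
    ((((eA.mul eD).smul c).sub (eB.mul eD)).sub
      (((eE.mul eA).smul x).congr_wt (add_comm _ _))).congr_wt hk.symm
  have eb : Equi N k b := (eA.mul eD).congr_wt hk.symm
  have ha : ∀ q, BPH N (a q) := fun q =>
    ((BPH.smul c ((hA q).mul (hD q))).sub ((hB q).mul (hD q))).sub
      (BPH.smul x ((hE q).mul (hA q)))
  have hb : ∀ q, BPH N (b q) := fun q => (hA q).mul (hD q)
  have hb0 : ∀ q z, b q z ≠ 0 := fun q z =>
    mul_ne_zero (prodF_ne_zero hM mm q z) (fam_Delta_ne_zero hd q z)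
  have key := hsym N (Q N) (piPerm N) k a b ea eb (fun q => (ha q).hol) (fun q => (hb q).hol)
    (fun q => (ha q).bdd) (fun q => (hb q).bdd) (fun q => (ha q).per) (fun q => (hb q).per) hb0
  convert key using 1
  refine Finset.prod_congr rfl fun q _ => ?_
  have hAne : pexp N (A q) ≠ 0 :=
    pexp_ne_zero (hA q) (z := UpperHalfPlane.I) (prodF_ne_zero hM mm q _)
  have hDne : pexp N (D q) ≠ 0 :=
    pexp_ne_zero (hD q) (z := UpperHalfPlane.I) (fam_Delta_ne_zero hd q _)
  have h1 : pexp N (a q) = HahnSeries.C c * (pexp N (A q) * pexp N (D q))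
      - pexp N (B q) * pexp N (D q) - HahnSeries.C x * (pexp N (E q) * pexp N (A q)) := by
    show pexp N ((c • (A q * D q) - B q * D q) - x • (E q * A q)) = _
    rw [pexp_sub ((BPH.smul c ((hA q).mul (hD q))).sub ((hB q).mul (hD q)))
        (BPH.smul x ((hE q).mul (hA q))),
      pexp_sub (BPH.smul c ((hA q).mul (hD q))) ((hB q).mul (hD q)),
      pexp_smul c ((hA q).mul (hD q)), pexp_smul x ((hE q).mul (hA q)),
      pexp_mul (hA q) (hD q), pexp_mul (hB q) (hD q), pexp_mul (hE q) (hA q)]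
  have h2 : pexp N (b q) = pexp N (A q) * pexp N (D q) := pexp_mul (hA q) (hD q)
  rw [h1, h2, Ueta, Xfam]
  show _ - pexp N (B q) / pexp N (A q) - _ * (pexp N (E q) / pexp N (D q)) = _
  rw [eq_div_iff (mul_ne_zero hAne hDne)]
  field_simp

end Eta

end Fermat.Agent.S28.H30

end
end
-- ==== END Fermat.Agent.S28.H30_Eta
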