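-- GENERATED (merged mirror, NOTES/tools/trim/merge3_helper67.py): 5 modules of the originals, bodies verbatim.
import Mathlib
import Fermat.Agent.Zm.S35_L05_000
import Fermat.Agent.Zm.S35_L04_000
import Fermat.Agent.Zm.S35_L02_005
import Fermat.Agent.Zm.S35_L01_004
import Fermat.Agent.Zm.S35_L03_004
import Fermat.Agent.Zm.S35_L04_004
import Fermat.Agent.Zm.S35_L02_004
import Fermat.Agent.S20.H29_JInjective
import Fermat.Agent.S20.H70_Ramanujan
import Fermat.Agent.Zm.S35_L02_001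

-- ==== BEGIN Fermat.Agent.Betti.H41_TorsLiftFinal
section

/-!
# TORSLIFT: final assembly in the shapes of the split (helper41)

* COUNT (helper77): for every prime `ℓ`,
  `Nat.card {χ : Additive (Gamma0 N) →+ ZMod ℓ // ∀ γ, trace ^ 2 ≤ 4 → χ (ofMul γ) = 0} ≤ ℓ ^ d`;
* BASIS (helper21): a universal basis `b : Fin r → _` (`IsParBasis N b`) with `d ≤ r`;
* then `Stmt_TorsLift N n` for all `n` (`H41.torsLift_of_basis_count`), and in the existential
  form (`H41.torsLift_of_exists`).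
-/

set_option autoImplicit false

namespace Fermat.Agent.Betti.H41

open CongruenceSubgroup ModularCurve ModularCurve.Period
open scoped MatrixGroups

/-- The set of homomorphisms counted by package COUNT. -/
abbrev KillsPE (N ℓ : ℕ) : Type :=
  {χ : Additive (Gamma0 N) →+ ZMod ℓ //
    ∀ γ : Gamma0 N, ((γ : SL(2, ℤ)) : Matrix (Fin 2) (Fin 2) ℤ).trace ^ 2 ≤ 4 →
      χ (Additive.ofMul γ) = 0}

theorem card_killMod_eq (N ℓ : ℕ) :
    Nat.card (KillMod (smallTrace N) ℓ) = Nat.card (KillsPE N ℓ) :=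
  Nat.card_congr (Equiv.subtypeEquivRight fun _ =>
    ⟨fun h γ hγ => h (Additive.ofMul γ) hγ, fun h x hx => h (Additive.toMul x) hx⟩)

/-- **TORSLIFT** from BASIS and COUNT. -/
theorem torsLift_of_basis_count (N : ℕ) [NeZero N] {r d : ℕ}
    {b : Fin r → (Additive (Gamma0 N) →+ ℤ)} (hb : IsParBasis N b) (hdr : d ≤ r)
    (hcount : ∀ (ℓ : ℕ) [Fact ℓ.Prime], Nat.card (KillsPE N ℓ) ≤ ℓ ^ d) (n : ℕ) :
    Fermat.Agent.S16.Stmt_TorsLift N n := by
  refine torsLift_of_count N hb (fun ℓ hℓ => ?_) n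
  have : Fact ℓ.Prime := ⟨hℓ⟩
  rw [card_killMod_eq]
  exact (hcount ℓ).trans (Nat.pow_le_pow_right hℓ.pos hdr)

/-- **TORSLIFT** from BASIS (existential form) and COUNT. -/
theorem torsLift_of_exists (N : ℕ) [NeZero N] {d : ℕ}
    (hbasis : ∃ (r : ℕ) (b : Fin r → (Additive (Gamma0 N) →+ ℤ)), IsParBasis N b ∧ d ≤ r)
    (hcount : ∀ (ℓ : ℕ) [Fact ℓ.Prime], Nat.card (KillsPE N ℓ) ≤ ℓ ^ d) (n : ℕ) :
    Fermat.Agent.S16.Stmt_TorsLift N n := by
  obtain ⟨r, b, hb, hdr⟩ := hbasis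
  exact torsLift_of_basis_count N hb hdr hcount n

/-- Variant of BASIS: it suffices to have `d` parabolic homomorphisms `Γ₀(N) → ℤ` which are
linearly independent over `ℤ`: the universal basis of `stmt_basis` then has `r ≥ d` elements. -/
theorem exists_basis_ge_of_indep (N : ℕ) [NeZero N] {d : ℕ}
    (c : Fin d → (Additive (Gamma0 N) →+ ℤ)) (hc : ∀ i, IsParabolicHom (Gamma0 N) (c i))
    (hind : LinearIndependent ℤ c) :
    ∃ (r : ℕ) (b : Fin r → (Additive (Gamma0 N) →+ ℤ)), IsParBasis N b ∧ d ≤ r := by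
  obtain ⟨r, b, hb⟩ := stmt_basis N
  refine ⟨r, b, hb, ?_⟩
  -- express `c i = ∑ j, A i j • b j`; the matrix `A : Fin d → Fin r → ℤ` has independent rows
  have hex : ∀ i, ∃ a : Fin r → ℤ, ∀ γ, c i γ = ∑ j, b j γ • a j := fun i =>
    (hb.2 ℤ (c i) (hc i)).exists
  choose A hA using hex
  -- the linear map `(Fin r → ℤ) → Hom`, `a ↦ ∑ j, a j • b j`
  let L : (Fin r → ℤ) →ₗ[ℤ] (Additive (Gamma0 N) →+ ℤ) :=
    { toFun := fun a => ∑ j, a j • b j
      map_add' := fun a a' => by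
        simp only [Pi.add_apply, add_smul, Finset.sum_add_distrib]
      map_smul' := fun k a => by
        simp only [Pi.smul_apply, smul_eq_mul, RingHom.id_apply, Finset.smul_sum, mul_smul] }
  have hL : ∀ i, L (A i) = c i := by
    intro i
    refine AddMonoidHom.ext fun γ => ?_
    rw [hA i γ]
    simp only [L, LinearMap.coe_mk, AddHom.coe_mk, AddMonoidHom.finsetSum_apply,
      AddMonoidHom.smul_apply, smul_eq_mul]
    exact Finset.sum_congr rfl fun j _ => mul_comm _ _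
  have hAind : LinearIndependent ℤ A := by
    have h1 : LinearIndependent ℤ (L ∘ A) := by
      have : (L ∘ A) = c := funext hL
      rw [this]
      exact hind
    exact LinearIndependent.of_comp L h1
  have h2 := hAind.fintype_card_le_finrank
  simpa using h2

end Fermat.Agent.Betti.H41

end
-- ==== END Fermat.Agent.Betti.H41_TorsLiftFinal

-- ==== BEGIN Fermat.Agent.Betti.H77_CountK
section

/-!
# The dimension count over an arbitrary field (helper77, package TORSLIFT)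

`G` a group generated by `S, T`, `Γ` a subgroup of finite index, `K` a field.  Let `V` be the
space of homomorphisms `Γ → K` which vanish on all `G`-conjugates of powers of `S`, `S * T`, `T`
lying in `Γ`.  Then

  `dim V + o(S) + o(S * T) + o(T) ≤ [G : Γ] + 2`,

`o(g)` the number of orbits of `g` on `G ⧸ Γ`  (`count_bound`).  For `K = ℂ` this is
`Fermat.Agent.S21.H75.Hyp.finrank_bound`; the proof here divides by nothing.
-/

set_option autoImplicit false
set_option linter.unusedSectionVars false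

namespace Fermat.Agent.Betti.H77

open Module
open Fermat.Agent.S21.H75 (kappa kappa_coe kappa_mul out_base_mem)

variable (K : Type*) [Field K] {G : Type*} [Group G] (Γ : Subgroup G)

/-- homs `Γ → K` vanishing on all `G`-conjugates of powers of elements of `E` lying in `Γ` -/
def vanHoms (E : Set G) : Submodule K (Additive Γ →+ K) where
  carrier := {φ | ∀ x ∈ E, ∀ (g : G) (n : ℕ) (h : g⁻¹ * (x ^ n * g) ∈ Γ),
    φ (Additive.ofMul ⟨_, h⟩) = 0}
  zero_mem' := fun _ _ _ _ _ => rfl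
  add_mem' := by
    intro φ ψ hφ hψ x hx g n h
    show φ _ + ψ _ = 0
    rw [hφ x hx g n h, hψ x hx g n h, add_zero]
  smul_mem' := by
    intro c φ hφ x hx g n h
    show c • φ _ = 0
    rw [hφ x hx g n h, smul_zero]

lemma mem_vanHoms {E : Set G} {φ : Additive Γ →+ K} :
    φ ∈ vanHoms K Γ E ↔ ∀ x ∈ E, ∀ (g : G) (n : ℕ) (h : g⁻¹ * (x ^ n * g) ∈ Γ),
      φ (Additive.ofMul ⟨_, h⟩) = 0 := Iff.rfl

lemma toPerm_pow_apply (x : G) (i : ℕ) (q : G ⧸ Γ) :
    ((MulAction.toPerm x : Equiv.Perm (G ⧸ Γ)) ^ i) q = (x ^ i) • q := by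
  induction i generalizing q with
  | zero => simp
  | succ i ih =>
    rw [pow_succ, Equiv.Perm.mul_apply, ih, pow_succ, mul_smul]
    rfl

/-- On the special elements the Shapiro cocycle of a hom in `vanHoms` is a coboundary. -/
lemma exists_cobK [Finite (G ⧸ Γ)] {E : Set G} {φ : Additive Γ →+ K}
    (hφ : φ ∈ vanHoms K Γ E) {x : G} (hx : x ∈ E) :
    ∃ v : (G ⧸ Γ) → K, cocK K Γ φ x = cobK K Γ v x := by
  obtain ⟨v, hv⟩ := cyc_cob (MulAction.toPerm x : Equiv.Perm (G ⧸ Γ)) (cocK K Γ φ x) (by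
    intro q n hn hq
    rw [toPerm_pow_apply] at hq
    simp only [toPerm_pow_apply]
    rw [← (isCocK_cocK K Γ φ).map_pow_apply x n q, cocK_apply]
    have hmem : (Quotient.out q)⁻¹ * (x ^ n * Quotient.out q) ∈ Γ := by
      have := (kappa Γ (x ^ n) q).2
      rwa [kappa_coe, hq] at this
    have hk : kappa Γ (x ^ n) q = ⟨_, hmem⟩ := by
      apply Subtype.ext
      rw [kappa_coe, hq]
    rw [hk]
    exact hφ x hx _ n hmem)
  refine ⟨v, ?_⟩
  funext q
  rw [cobK_apply]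
  exact (hv q).symm

lemma evalK_mem_range [Finite (G ⧸ Γ)] {E : Set G} {φ : Additive Γ →+ K}
    (hφ : φ ∈ vanHoms K Γ E) {x : G} (hx : x ∈ E) (a : (G ⧸ Γ) → K) :
    evalK K Γ x (φ, a) ∈ LinearMap.range (RK K Γ x - 1) := by
  obtain ⟨v, hv⟩ := exists_cobK K Γ hφ hx
  refine ⟨v + a, ?_⟩
  rw [evalK_apply]
  show (RK K Γ x - 1) (v + a) = cocK K Γ φ x + cobK K Γ a x
  rw [hv]
  simp only [cobK, LinearMap.sub_apply, Module.End.one_apply, map_add]

/-- `Hom(Γ, K)` is finite-dimensional (finite index, `G` generated by `S, T`). -/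
lemma finite_homK [Finite (G ⧸ Γ)] {S T : G} (hgen : Subgroup.closure {S, T} = ⊤) :
    FiniteDimensional K (Additive Γ →+ K) := by
  let Ψ : (Additive Γ →+ K) →ₗ[K] ((G ⧸ Γ) → K) × ((G ⧸ Γ) → K) :=
    ((evalK K Γ S).prod (evalK K Γ T)) ∘ₗ (LinearMap.inl K _ _)
  have hΨ : Function.Injective Ψ := by
    rw [injective_iff_map_eq_zero]
    intro φ hφ
    have h1 : evalK K Γ S (φ, 0) = 0 := congrArg Prod.fst hφ
    have h2 : evalK K Γ T (φ, 0) = 0 := congrArg Prod.snd hφ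
    have := evalK_eq_zero_of_gen K Γ hgen (φ, 0) (by
      rintro g (rfl | hg)
      · exact h1
      · rw [Set.mem_singleton_iff] at hg; rw [hg]; exact h2)
    exact this.1
  exact FiniteDimensional.of_injective Ψ hΨ

lemma closure_ST_T {S T : G} (hgen : Subgroup.closure {S, T} = ⊤) :
    Subgroup.closure {S * T, T} = ⊤ := by
  rw [eq_top_iff, ← hgen, Subgroup.closure_le]
  intro x hx
  have hU : S * T ∈ Subgroup.closure {S * T, T} := Subgroup.subset_closure (by simp)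
  have hT : T ∈ Subgroup.closure {S * T, T} := Subgroup.subset_closure (by simp)
  rcases hx with hx | hx
  · rw [hx]
    have h3 : S * T * T⁻¹ ∈ Subgroup.closure {S * T, T} := mul_mem hU (inv_mem hT)
    rwa [mul_inv_cancel_right] at h3
  · rw [Set.mem_singleton_iff] at hx
    rw [hx]; exact hT

/-- the relation between the three trivialisations -/
lemma rel_of_evalK_eq_zero {S T : G} (φ : Additive Γ →+ K) (a b c : (G ⧸ Γ) → K)
    (hS : evalK K Γ S (φ, a) = 0) (hU : evalK K Γ (S * T) (φ, b) = 0)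
    (hT : evalK K Γ T (φ, c) = 0) :
    (RK K Γ (S * T) - 1) (b - a) = (RK K Γ T - 1) (c - a) := by
  have h1 : evalK K Γ (S * T) (φ, a) = RK K Γ T (evalK K Γ S (φ, a)) + evalK K Γ T (φ, a) :=
    isCocK_evalK K Γ (φ, a) S T
  rw [hS, map_zero, zero_add] at h1
  have h2 : evalK K Γ (S * T) (φ, a) = (RK K Γ (S * T) - 1) (a - b) := by
    have : evalK K Γ (S * T) (φ, a) = evalK K Γ (S * T) (φ, a) - evalK K Γ (S * T) (φ, b) := by
      rw [hU, sub_zero]
    rw [this]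
    simp only [evalK_apply, cobK, LinearMap.sub_apply, Module.End.one_apply, map_sub]
    abel
  have h3 : evalK K Γ T (φ, a) = (RK K Γ T - 1) (a - c) := by
    have : evalK K Γ T (φ, a) = evalK K Γ T (φ, a) - evalK K Γ T (φ, c) := by
      rw [hT, sub_zero]
    rw [this]
    simp only [evalK_apply, cobK, LinearMap.sub_apply, Module.End.one_apply, map_sub]
    abel
  rw [h2, h3] at h1
  have h4 : (RK K Γ (S * T) - 1) (b - a) = -((RK K Γ (S * T) - 1) (a - b)) := by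
    rw [← map_neg, neg_sub]
  have h5 : (RK K Γ T - 1) (c - a) = -((RK K Γ T - 1) (a - c)) := by
    rw [← map_neg, neg_sub]
  rw [h4, h5, h1]

/-- a common trivialisation vanishing at the base point is zero -/
lemma eq_zero_of_evalK_eq_zero {S T : G} (hgen : Subgroup.closure {S, T} = ⊤)
    (φ : Additive Γ →+ K) (a : (G ⧸ Γ) → K)
    (hS : evalK K Γ S (φ, a) = 0) (hT : evalK K Γ T (φ, a) = 0)
    (h0 : a (QuotientGroup.mk 1) = 0) : φ = 0 ∧ a = 0 := by
  have := evalK_eq_zero_of_gen K Γ hgen (φ, a) (by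
    rintro g (rfl | hg)
    · exact hS
    · rw [Set.mem_singleton_iff] at hg; rw [hg]; exact hT)
  refine ⟨this.1, ?_⟩
  funext q
  have h := this.2 q (QuotientGroup.mk 1)
  show a q = 0
  exact h.trans h0

section Count

variable [Fintype (G ⧸ Γ)]

lemma finrank_ker_sumK_ge :
    Fintype.card (G ⧸ Γ) ≤ finrank K (LinearMap.ker (sumK K Γ)) + 1 := by
  have h2 := LinearMap.finrank_range_add_finrank_ker (sumK K Γ)
  have h3 : finrank K (LinearMap.range (sumK K Γ)) ≤ 1 := by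
    have := Submodule.finrank_le (LinearMap.range (sumK K Γ))
    simpa using this
  have c3 : finrank K ((G ⧸ Γ) → K) = Fintype.card (G ⧸ Γ) := Module.finrank_fintype_fun_eq_card K
  omega

lemma finrank_range_RK_sub_one (g : G) :
    finrank K (LinearMap.range (RK K Γ g - 1))
      + Nat.card (MulAction.orbitRel.Quotient (Subgroup.zpowers g) (G ⧸ Γ))
      = Fintype.card (G ⧸ Γ) := by
  have h2 := LinearMap.finrank_range_add_finrank_ker (RK K Γ g - 1)
  rw [finrank_ker_RK_sub_one, Module.finrank_fintype_fun_eq_card] at h2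
  exact h2

/-- abstract linear algebra bookkeeping for the count -/
lemma abstract_count {K : Type*} [Field K] {V M R1 R2 R3 : Type*}
    [AddCommGroup V] [Module K V] [FiniteDimensional K V]
    [AddCommGroup M] [Module K M] [FiniteDimensional K M]
    [AddCommGroup R1] [Module K R1] [FiniteDimensional K R1]
    [AddCommGroup R2] [Module K R2] [FiniteDimensional K R2]
    [AddCommGroup R3] [Module K R3] [FiniteDimensional K R3]
    (Ψ : V × (M × (M × M)) →ₗ[K] R1 × (R2 × R3))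
    (L : M × M →ₗ[K] M) (ev : M →ₗ[K] K)
    (hrel : ∀ p, Ψ p = 0 → L (p.2.2.1 - p.2.1, p.2.2.2 - p.2.1) = 0)
    (hker : ∀ p, Ψ p = 0 → p.2.2.1 - p.2.1 = 0 → p.2.2.2 - p.2.1 = 0 → ev p.2.1 = 0 → p = 0) :
    finrank K V + finrank K M + finrank K (LinearMap.range L)
      ≤ finrank K R1 + finrank K R2 + finrank K R3 + 1 := by
  -- the projection
  let P : V × (M × (M × M)) →ₗ[K] M × M :=
    LinearMap.prod
      (LinearMap.fst K M M ∘ₗ LinearMap.snd K M (M × M) ∘ₗ LinearMap.snd K V (M × (M × M))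
        - LinearMap.fst K M (M × M) ∘ₗ LinearMap.snd K V (M × (M × M)))
      (LinearMap.snd K M M ∘ₗ LinearMap.snd K M (M × M) ∘ₗ LinearMap.snd K V (M × (M × M))
        - LinearMap.fst K M (M × M) ∘ₗ LinearMap.snd K V (M × (M × M)))
  have hP : ∀ p, P p = (p.2.2.1 - p.2.1, p.2.2.2 - p.2.1) := fun p => rfl
  let A : V × (M × (M × M)) →ₗ[K] K :=
    ev ∘ₗ LinearMap.fst K M (M × M) ∘ₗ LinearMap.snd K V (M × (M × M))
  have hA : ∀ p, A p = ev p.2.1 := fun p => rfl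
  let Θ : LinearMap.ker Ψ →ₗ[K] (LinearMap.ker L) × K :=
    LinearMap.prod
      (LinearMap.codRestrict (LinearMap.ker L) (P ∘ₗ (LinearMap.ker Ψ).subtype) (fun w => by
        rw [LinearMap.mem_ker]
        exact hrel w.1 (LinearMap.mem_ker.mp w.2)))
      (A ∘ₗ (LinearMap.ker Ψ).subtype)
  have hΘ : Function.Injective Θ := by
    rw [injective_iff_map_eq_zero]
    intro w hw
    have h1 : P w.1 = 0 := congrArg (fun x : (LinearMap.ker L) × K => (x.1 : M × M)) hw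
    have h2 : A w.1 = 0 := congrArg (fun x : (LinearMap.ker L) × K => x.2) hw
    rw [hP] at h1
    apply Subtype.ext
    exact hker w.1 (LinearMap.mem_ker.mp w.2) (congrArg Prod.fst h1) (congrArg Prod.snd h1) h2
  have c1 := LinearMap.finrank_le_finrank_of_injective hΘ
  have c2 : finrank K ((LinearMap.ker L) × K) = finrank K (LinearMap.ker L) + 1 := by
    rw [Module.finrank_prod, Module.finrank_self]
  have c3 := LinearMap.finrank_range_add_finrank_ker Ψ
  have c4 := LinearMap.finrank_range_add_finrank_ker L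
  have c5 : finrank K (V × (M × (M × M))) = finrank K V + (finrank K M + (finrank K M + finrank K M)) := by
    rw [Module.finrank_prod, Module.finrank_prod, Module.finrank_prod]
  have c6 : finrank K (M × M) = finrank K M + finrank K M := Module.finrank_prod
  have c7 : finrank K (R1 × (R2 × R3)) = finrank K R1 + (finrank K R2 + finrank K R3) := by
    rw [Module.finrank_prod, Module.finrank_prod]
  have c8 : finrank K (LinearMap.range Ψ) ≤ finrank K (R1 × (R2 × R3)) := Submodule.finrank_le _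
  omega

/-- **The dimension count over `K`.** -/
theorem count_bound {S T : G} (hgen : Subgroup.closure {S, T} = ⊤) :
    finrank K (vanHoms K Γ {S, S * T, T})
      + Nat.card (MulAction.orbitRel.Quotient (Subgroup.zpowers S) (G ⧸ Γ))
      + Nat.card (MulAction.orbitRel.Quotient (Subgroup.zpowers (S * T)) (G ⧸ Γ))
      + Nat.card (MulAction.orbitRel.Quotient (Subgroup.zpowers T) (G ⧸ Γ))
      ≤ Fintype.card (G ⧸ Γ) + 2 := by
  classical
  have hfin := finite_homK K Γ hgen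
  have hS : S ∈ ({S, S * T, T} : Set G) := by simp
  have hU : S * T ∈ ({S, S * T, T} : Set G) := by simp
  have hT : T ∈ ({S, S * T, T} : Set G) := by simp
  -- the map `Ψ`
  obtain ⟨Ψ, hΨ⟩ : ∃ Ψ : (vanHoms K Γ {S, S * T, T}) ×
        (((G ⧸ Γ) → K) × (((G ⧸ Γ) → K) × ((G ⧸ Γ) → K)))
      →ₗ[K] (LinearMap.range (RK K Γ S - 1)) ×
        ((LinearMap.range (RK K Γ (S * T) - 1)) × (LinearMap.range (RK K Γ T - 1))),
      ∀ p, Ψ p = 0 → evalK K Γ S (p.1.1, p.2.1) = 0 ∧ evalK K Γ (S * T) (p.1.1, p.2.2.1) = 0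
        ∧ evalK K Γ T (p.1.1, p.2.2.2) = 0 := by
    let πφ : (vanHoms K Γ {S, S * T, T}) × (((G ⧸ Γ) → K) × (((G ⧸ Γ) → K) × ((G ⧸ Γ) → K)))
        →ₗ[K] (Additive Γ →+ K) :=
      (vanHoms K Γ {S, S * T, T}).subtype ∘ₗ LinearMap.fst K _ _
    let πa : (vanHoms K Γ {S, S * T, T}) × (((G ⧸ Γ) → K) × (((G ⧸ Γ) → K) × ((G ⧸ Γ) → K)))
        →ₗ[K] ((G ⧸ Γ) → K) :=
      LinearMap.fst K _ _ ∘ₗ LinearMap.snd K _ _
    let πb : (vanHoms K Γ {S, S * T, T}) × (((G ⧸ Γ) → K) × (((G ⧸ Γ) → K) × ((G ⧸ Γ) → K)))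
        →ₗ[K] ((G ⧸ Γ) → K) :=
      LinearMap.fst K _ _ ∘ₗ LinearMap.snd K _ _ ∘ₗ LinearMap.snd K _ _
    let πc : (vanHoms K Γ {S, S * T, T}) × (((G ⧸ Γ) → K) × (((G ⧸ Γ) → K) × ((G ⧸ Γ) → K)))
        →ₗ[K] ((G ⧸ Γ) → K) :=
      LinearMap.snd K _ _ ∘ₗ LinearMap.snd K _ _ ∘ₗ LinearMap.snd K _ _
    refine ⟨LinearMap.prod
      (LinearMap.codRestrict _ (evalK K Γ S ∘ₗ LinearMap.prod πφ πa)
        (fun p => evalK_mem_range K Γ p.1.2 hS _))
      (LinearMap.prod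
        (LinearMap.codRestrict _ (evalK K Γ (S * T) ∘ₗ LinearMap.prod πφ πb)
          (fun p => evalK_mem_range K Γ p.1.2 hU _))
        (LinearMap.codRestrict _ (evalK K Γ T ∘ₗ LinearMap.prod πφ πc)
          (fun p => evalK_mem_range K Γ p.1.2 hT _))), ?_⟩
    intro p hp
    refine ⟨?_, ?_, ?_⟩
    · exact congrArg (fun x : (LinearMap.range (RK K Γ S - 1)) ×
        ((LinearMap.range (RK K Γ (S * T) - 1)) × (LinearMap.range (RK K Γ T - 1))) =>
          (x.1 : (G ⧸ Γ) → K)) hp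
    · exact congrArg (fun x : (LinearMap.range (RK K Γ S - 1)) ×
        ((LinearMap.range (RK K Γ (S * T) - 1)) × (LinearMap.range (RK K Γ T - 1))) =>
          (x.2.1 : (G ⧸ Γ) → K)) hp
    · exact congrArg (fun x : (LinearMap.range (RK K Γ S - 1)) ×
        ((LinearMap.range (RK K Γ (S * T) - 1)) × (LinearMap.range (RK K Γ T - 1))) =>
          (x.2.2 : (G ⧸ Γ) → K)) hp
  obtain ⟨L, hL⟩ : ∃ L : ((G ⧸ Γ) → K) × ((G ⧸ Γ) → K) →ₗ[K] ((G ⧸ Γ) → K),
      ∀ m, L m = (RK K Γ (S * T) - 1) m.1 - (RK K Γ T - 1) m.2 :=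
    ⟨(RK K Γ (S * T) - 1) ∘ₗ LinearMap.fst K _ _ - (RK K Γ T - 1) ∘ₗ LinearMap.snd K _ _,
      fun m => rfl⟩
  have hrel : ∀ p, Ψ p = 0 → L (p.2.2.1 - p.2.1, p.2.2.2 - p.2.1) = 0 := by
    intro p hp
    obtain ⟨h1, h2, h3⟩ := hΨ p hp
    rw [hL]
    have := rel_of_evalK_eq_zero K Γ p.1.1 p.2.1 p.2.2.1 p.2.2.2 h1 h2 h3
    show (RK K Γ (S * T) - 1) (p.2.2.1 - p.2.1) - (RK K Γ T - 1) (p.2.2.2 - p.2.1) = 0
    rw [this, sub_self]
  have hker : ∀ p, Ψ p = 0 → p.2.2.1 - p.2.1 = 0 → p.2.2.2 - p.2.1 = 0 →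
      (LinearMap.proj (QuotientGroup.mk 1 : G ⧸ Γ) : ((G ⧸ Γ) → K) →ₗ[K] K) p.2.1 = 0 →
      p = 0 := by
    intro p hp hba hca h0
    obtain ⟨h1, h2, h3⟩ := hΨ p hp
    rw [sub_eq_zero] at hba hca
    rw [hca] at h3
    obtain ⟨hφ, ha⟩ := eq_zero_of_evalK_eq_zero K Γ hgen p.1.1 p.2.1 h1 h3 h0
    have hφ' : p.1 = 0 := Subtype.ext hφ
    have hb' : p.2.2.1 = 0 := hba.trans ha
    have hc' : p.2.2.2 = 0 := hca.trans ha
    exact Prod.ext hφ' (Prod.ext ha (Prod.ext hb' hc'))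
  have key := abstract_count (K := K) (V := vanHoms K Γ {S, S * T, T}) (M := (G ⧸ Γ) → K)
    (R1 := LinearMap.range (RK K Γ S - 1)) (R2 := LinearMap.range (RK K Γ (S * T) - 1))
    (R3 := LinearMap.range (RK K Γ T - 1)) Ψ L
    (LinearMap.proj (QuotientGroup.mk 1 : G ⧸ Γ)) hrel hker
  -- ker sumK ≤ range L
  have h5 : LinearMap.ker (sumK K Γ) ≤ LinearMap.range L := by
    intro w hw
    have hsup := ker_sumK_le_sup K Γ (closure_ST_T hgen) hw
    obtain ⟨a, ⟨a', rfl⟩, b, ⟨b', rfl⟩, hab⟩ := Submodule.mem_sup.mp hsup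
    refine ⟨(a', -b'), ?_⟩
    rw [hL]
    show (RK K Γ (S * T) - 1) a' - (RK K Γ T - 1) (-b') = w
    rw [map_neg, sub_neg_eq_add, hab]
  -- bookkeeping
  have c0 := finrank_ker_sumK_ge K Γ
  have cS := finrank_range_RK_sub_one K Γ S
  have cU := finrank_range_RK_sub_one K Γ (S * T)
  have cT := finrank_range_RK_sub_one K Γ T
  have c3 : finrank K ((G ⧸ Γ) → K) = Fintype.card (G ⧸ Γ) := Module.finrank_fintype_fun_eq_card K
  have c12 : finrank K (LinearMap.ker (sumK K Γ)) ≤ finrank K (LinearMap.range L) :=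
    Submodule.finrank_mono h5
  omega

end Count

end Fermat.Agent.Betti.H77

end
-- ==== END Fermat.Agent.Betti.H77_CountK

-- ==== BEGIN Fermat.Agent.GTor.Clo.AsmCount
section
attribute [local instance 10000] SubalgebraClass.toAlgebra
attribute [local instance 10000] HahnSeries.powerSeriesAlgebra

/-!
# S24 assembly (WP ASM-Count): from a `ModClosure N` to the counts of places of `F_N`

Let `M : ModClosure N`, `x = jF N`, `G = Gal (M.L / M.E)`, `H = Gal (M.L / F_N)`.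
* `M.t` is transcendental and generates `M.E`, so `M.E ≃ Q̄(x)` and
  `[F_N : Q̄(x)] = [F_N : M.E] = |G ⧸ H| = |SL(2, ℤ) ⧸ Γ₀(N)| = ψ(N)`
  (`M.π_surjective`, `M.π_comap`, `h1_quotEquiv`, `G1_card`).
* zeros of `x - a`: `gc_card_zeros` for the generator `M.t - a` of `M.E`, the valuation `M.w τ`
  with `jAn τ = ι a` (`jAn_surjective`; `τ = ρ` for `a = 0`, `τ = i` for `a = 1728`) and
  `σ = M.π γ`, `γ = S * T`, `S`, `1` respectively (`h27_ST_smul_rho`, `h27_S_smul_I`, `M.w_π`);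
  `jOrd τ ≤ orderOf σ` because `γ, γ ^ 2 ∉ Γ₀(N)` for `1 < N` (`M.π_comap`); then
  `gc_orbits_transfer`.
* poles of `x`: `gc_card_zeros` for the generator `(M.t)⁻¹`, `M.winf`, `σ = M.π T`;
  `N ≤ orderOf (M.π T)` because `S * T ^ k * S⁻¹ ∈ Γ₀(N)` iff `N ∣ k`.

WP ASM-Count (helper85): all statements proved.
-/

set_option autoImplicit false

noncomputable section

namespace Fermat.Agent.GTor.Clo

open Fermat.Agent.S24

open CongruenceSubgroup ModularGroup ModularCurve AlgebraicCurve IntermediateField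
open scoped MatrixGroups

attribute [local instance] ModClosure.instFieldE ModClosure.instField ModClosure.instAlgKE
  ModClosure.instAlgK ModClosure.instAlgEF ModClosure.instAlgF ModClosure.instAlgE
  ModClosure.towerKEF ModClosure.towerKFL ModClosure.towerEFL ModClosure.towerKEL
  ModClosure.finite ModClosure.galois

variable {N : ℕ} [NeZero N]

/-! ### Generators of `M.E` -/

/-- `t - a` is transcendental. -/
theorem h85_transcendental_sub {K E : Type*} [Field K] [Field E] [Algebra K E] {t : E}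
    (ht : Transcendental K t) (a : K) : Transcendental K (t - algebraMap K E a) := by
  intro h
  apply ht
  have h2 := h.add (isAlgebraic_algebraMap (R := K) (A := E) a)
  simpa using h2

/-- `t⁻¹` is transcendental. -/
theorem h85_transcendental_inv {K E : Type*} [Field K] [Field E] [Algebra K E] {t : E}
    (ht : Transcendental K t) : Transcendental K t⁻¹ := by
  intro h
  apply ht
  have h2 := h.inv
  simpa using h2

/-- If `t` generates `E` as a field, so does `t - a`. -/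
theorem h85_gen_sub {K E : Type*} [Field K] [Field E] [Algebra K E] {t : E}
    (hE : ∀ y : E, ∃ p q : Polynomial K, Polynomial.aeval t q ≠ 0 ∧
      y = Polynomial.aeval t p / Polynomial.aeval t q) (a : K) :
    ∀ y : E, ∃ p q : Polynomial K, Polynomial.aeval (t - algebraMap K E a) q ≠ 0 ∧
      y = Polynomial.aeval (t - algebraMap K E a) p / Polynomial.aeval (t - algebraMap K E a) q := by
  intro y
  obtain ⟨p, q, hq, hy⟩ := hE y
  have key : ∀ f : Polynomial K, Polynomial.aeval (t - algebraMap K E a)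
      (f.comp (Polynomial.X + Polynomial.C a)) = Polynomial.aeval t f := by
    intro f
    rw [Polynomial.aeval_comp]
    congr 1
    simp
  exact ⟨p.comp (Polynomial.X + Polynomial.C a), q.comp (Polynomial.X + Polynomial.C a),
    by rw [key]; exact hq, by rw [key, key]; exact hy⟩

/-- If `t` generates `E` as a field, so does `t⁻¹` (for `t ≠ 0`). -/
theorem h85_gen_inv {K E : Type*} [Field K] [Field E] [Algebra K E] {t : E} (ht : t ≠ 0)
    (hE : ∀ y : E, ∃ p q : Polynomial K, Polynomial.aeval t q ≠ 0 ∧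
      y = Polynomial.aeval t p / Polynomial.aeval t q) :
    ∀ y : E, ∃ p q : Polynomial K, Polynomial.aeval t⁻¹ q ≠ 0 ∧
      y = Polynomial.aeval t⁻¹ p / Polynomial.aeval t⁻¹ q := by
  intro y
  obtain ⟨p, q, hq, hy⟩ := hE y
  -- `f(t) = (reflect n f)(t⁻¹) * t ^ n` for `natDegree f ≤ n`
  have key : ∀ (n : ℕ) (f : Polynomial K), f.natDegree ≤ n →
      Polynomial.aeval t⁻¹ (Polynomial.reflect n f) * t ^ n = Polynomial.aeval t f := by
    intro n f hf
    let _ : Invertible t := invertibleOfNonzero ht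
    have h := Polynomial.eval₂_reflect_mul_pow (algebraMap K E) t n f hf
    rw [invOf_eq_inv] at h
    exact h
  set n := max p.natDegree q.natDegree with hn
  have hp := key n p (le_max_left _ _)
  have hq' := key n q (le_max_right _ _)
  have htn : t ^ n ≠ 0 := pow_ne_zero n ht
  refine ⟨Polynomial.reflect n p, Polynomial.reflect n q, ?_, ?_⟩
  · intro h0
    apply hq
    rw [← hq', h0, zero_mul]
  · rw [hy, ← hp, ← hq', mul_div_mul_right _ _ htn]

/-! ### Orders of the images of `S`, `S * T`, `T` in the Galois group -/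

theorem h85_ker_le_Gamma0 (M : _root_.Fermat.Agent.GTor.Clo.ModClosure N) {γ : SL(2, ℤ)} (h : M.π γ = 1) : γ ∈ Gamma0 N := by
  rw [← M.π_comap, Subgroup.mem_comap, h]
  exact Subgroup.one_mem _

omit [NeZero N] in
theorem h85_S_notMem (hN : 1 < N) : (S : SL(2, ℤ)) ∉ Gamma0 N := by
  rw [Gamma0_mem]
  have h : ((S : SL(2, ℤ)) 1 0 : ℤ) = 1 := by
    simp [ModularGroup.coe_S]
  rw [h, Int.cast_one]
  have : Fact (1 < N) := ⟨hN⟩
  exact one_ne_zero

omit [NeZero N] in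
theorem h85_ST_notMem (hN : 1 < N) : (S * T : SL(2, ℤ)) ∉ Gamma0 N := by
  rw [Gamma0_mem]
  have h : ((S * T : SL(2, ℤ)) 1 0 : ℤ) = 1 := by
    simp [ModularGroup.coe_T]
  rw [h, Int.cast_one]
  have : Fact (1 < N) := ⟨hN⟩
  exact one_ne_zero

omit [NeZero N] in
theorem h85_ST_sq_notMem (hN : 1 < N) : ((S * T) ^ 2 : SL(2, ℤ)) ∉ Gamma0 N := by
  rw [Gamma0_mem]
  have h : (((S * T) ^ 2 : SL(2, ℤ)) 1 0 : ℤ) = 1 := by
    simp [pow_two, ModularGroup.coe_T]
  rw [h, Int.cast_one]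
  have : Fact (1 < N) := ⟨hN⟩
  exact one_ne_zero

omit [NeZero N] in
theorem h85_conj_T_pow_mem_iff (k : ℕ) :
    (S * T ^ k * S⁻¹ : SL(2, ℤ)) ∈ Gamma0 N ↔ N ∣ k := by
  rw [Gamma0_mem]
  have h : ((S * T ^ k * S⁻¹ : SL(2, ℤ)) 1 0 : ℤ) = -(k : ℤ) := by
    have hT : ((T ^ k : SL(2, ℤ)) : Matrix (Fin 2) (Fin 2) ℤ) = !![1, (k : ℤ); 0, 1] := by
      have := ModularGroup.coe_T_zpow (k : ℤ)
      rwa [zpow_natCast] at this
    simp [ModularGroup.coe_S, hT, Matrix.mul_apply, Fin.sum_univ_two,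
      Matrix.SpecialLinearGroup.coe_inv, Matrix.adjugate_fin_two]
  rw [h, Int.cast_neg, neg_eq_zero, Int.cast_natCast, ZMod.natCast_eq_zero_iff]

theorem h85_two_le_orderOf_S (M : _root_.Fermat.Agent.GTor.Clo.ModClosure N) (hN : 1 < N) : 2 ≤ orderOf (M.π S) := by
  have hpos : 0 < orderOf (M.π S) := orderOf_pos _
  by_contra hlt
  have h1 : orderOf (M.π S) = 1 := by omega
  exact _root_.Fermat.Agent.GTor.Clo.h85_S_notMem hN (_root_.Fermat.Agent.GTor.Clo.h85_ker_le_Gamma0 M (orderOf_eq_one_iff.mp h1))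

theorem h85_three_le_orderOf_ST (M : _root_.Fermat.Agent.GTor.Clo.ModClosure N) (hN : 1 < N) :
    3 ≤ orderOf (M.π (S * T)) := by
  have hpos : 0 < orderOf (M.π (S * T)) := orderOf_pos _
  by_contra hlt
  have h12 : orderOf (M.π (S * T)) = 1 ∨ orderOf (M.π (S * T)) = 2 := by omega
  rcases h12 with h1 | h2
  · exact _root_.Fermat.Agent.GTor.Clo.h85_ST_notMem hN (_root_.Fermat.Agent.GTor.Clo.h85_ker_le_Gamma0 M (orderOf_eq_one_iff.mp h1))
  · have h := pow_orderOf_eq_one (M.π (S * T))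
    rw [h2, ← map_pow] at h
    exact _root_.Fermat.Agent.GTor.Clo.h85_ST_sq_notMem hN (_root_.Fermat.Agent.GTor.Clo.h85_ker_le_Gamma0 M h)

theorem h85_le_orderOf_T (M : _root_.Fermat.Agent.GTor.Clo.ModClosure N) : N ≤ orderOf (M.π T) := by
  have hpos : 0 < orderOf (M.π T) := orderOf_pos _
  have h := pow_orderOf_eq_one (M.π T)
  rw [← map_pow] at h
  have h2 : M.π (S * T ^ orderOf (M.π T) * S⁻¹) = 1 := by
    rw [map_mul, map_mul, h, mul_one, ← map_mul, mul_inv_cancel, map_one]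
  exact Nat.le_of_dvd hpos ((_root_.Fermat.Agent.GTor.Clo.h85_conj_T_pow_mem_iff _).mp (_root_.Fermat.Agent.GTor.Clo.h85_ker_le_Gamma0 M h2))

/-! ### The counts -/

open WithZero in
/-- The count of zeros of `x - a` from a point `τ` with `j τ = a` and an element `γ` of the
stabiliser of `τ` whose image has order at least `jOrd τ`. -/
theorem h85_card_zeros_aux (M : _root_.Fermat.Agent.GTor.Clo.ModClosure N) (a : _root_.Fermat.Agent.GTor.Clo.Kbar) (τ : UpperHalfPlane)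
    (hτ : _root_.Fermat.Agent.GTor.Clo.iotaC a = jAn τ) (hpos : 0 < jOrd τ) (γ : SL(2, ℤ)) (hγ : γ • τ = τ)
    (hord : jOrd τ ≤ orderOf (M.π γ)) :
    Nat.card {v : Place _root_.Fermat.Agent.GTor.Clo.Kbar (_root_.Fermat.Agent.GTor.Clo.FN N) // 0 < v.ord (_root_.Fermat.Agent.GTor.Clo.jF N - algebraMap _root_.Fermat.Agent.GTor.Clo.Kbar (_root_.Fermat.Agent.GTor.Clo.FN N) a)}
      = orbN N γ := by
  have hγ' : γ⁻¹ • τ = τ := inv_smul_eq_iff.mpr hγ.symm
  have h := gc_card_zeros (K := _root_.Fermat.Agent.GTor.Clo.Kbar) (E := M.E) (F := _root_.Fermat.Agent.GTor.Clo.FN N) (L := M.L)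
    (M.t - algebraMap _root_.Fermat.Agent.GTor.Clo.Kbar M.E a) (_root_.Fermat.Agent.GTor.Clo.h85_transcendental_sub M.t_transcendental a)
    (_root_.Fermat.Agent.GTor.Clo.h85_gen_sub M.t_gen a) (M.w τ) (M.w_algebraMap τ)
    (by
      rw [M.w_j τ a hτ, ← exp_zero, exp_lt_exp]
      omega)
    (M.π γ) (fun y => by rw [M.w_π, hγ'])
    (by
      rw [M.w_j τ a hτ, exp_le_exp]
      omega)
  rw [map_sub, M.t_map, ← IsScalarTower.algebraMap_apply] at h
  rw [h, gc_orbits_transfer M.π M.π_surjective _ _ M.π_comap γ]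
  rfl

theorem asm_card_zeros_zero (M : _root_.Fermat.Agent.GTor.Clo.ModClosure N) (hN : 1 < N) :
    Nat.card {v : Place _root_.Fermat.Agent.GTor.Clo.Kbar (_root_.Fermat.Agent.GTor.Clo.FN N) // 0 < v.ord (_root_.Fermat.Agent.GTor.Clo.jF N - algebraMap _root_.Fermat.Agent.GTor.Clo.Kbar (_root_.Fermat.Agent.GTor.Clo.FN N) 0)}
      = orbN N (S * T) := by
  refine _root_.Fermat.Agent.GTor.Clo.h85_card_zeros_aux M 0 UpperHalfPlane.ρ (by rw [map_zero, jAn_rho]) ?_ (S * T)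
    h27_ST_smul_rho ?_
  · rw [jOrd_rho]; norm_num
  · rw [jOrd_rho]; exact _root_.Fermat.Agent.GTor.Clo.h85_three_le_orderOf_ST M hN

theorem asm_card_zeros_1728 (M : _root_.Fermat.Agent.GTor.Clo.ModClosure N) (hN : 1 < N) :
    Nat.card {v : Place _root_.Fermat.Agent.GTor.Clo.Kbar (_root_.Fermat.Agent.GTor.Clo.FN N) // 0 < v.ord (_root_.Fermat.Agent.GTor.Clo.jF N - algebraMap _root_.Fermat.Agent.GTor.Clo.Kbar (_root_.Fermat.Agent.GTor.Clo.FN N) 1728)}
      = orbN N S := by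
  refine _root_.Fermat.Agent.GTor.Clo.h85_card_zeros_aux M 1728 UpperHalfPlane.I (by rw [map_ofNat, jAn_I]) ?_ S
    h27_S_smul_I ?_
  · rw [jOrd_I]; norm_num
  · rw [jOrd_I]; exact _root_.Fermat.Agent.GTor.Clo.h85_two_le_orderOf_S M hN

theorem asm_card_zeros_generic (M : _root_.Fermat.Agent.GTor.Clo.ModClosure N) (a : _root_.Fermat.Agent.GTor.Clo.Kbar) (h0 : a ≠ 0) (h1728 : a ≠ 1728) :
    Nat.card {v : Place _root_.Fermat.Agent.GTor.Clo.Kbar (_root_.Fermat.Agent.GTor.Clo.FN N) // 0 < v.ord (_root_.Fermat.Agent.GTor.Clo.jF N - algebraMap _root_.Fermat.Agent.GTor.Clo.Kbar (_root_.Fermat.Agent.GTor.Clo.FN N) a)}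
      = dedekindPsi N := by
  obtain ⟨τ, hτ⟩ := jAn_surjective (_root_.Fermat.Agent.GTor.Clo.iotaC a)
  have h0' : jAn τ ≠ 0 := by
    rw [hτ]
    exact (map_ne_zero _root_.Fermat.Agent.GTor.Clo.iotaC).mpr h0
  have h1' : jAn τ ≠ 1728 := by
    rw [hτ]
    intro h
    apply h1728
    apply _root_.Fermat.Agent.GTor.Clo.iotaC.injective
    rw [h, map_ofNat]
  have hj : jOrd τ = 1 := jOrd_eq_one τ h0' h1'
  rw [← asm_orb_one N]
  refine _root_.Fermat.Agent.GTor.Clo.h85_card_zeros_aux M a τ hτ.symm ?_ 1 (one_smul _ _) ?_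
  · rw [hj]; norm_num
  · rw [hj, map_one, orderOf_one]

open WithZero in
theorem asm_card_poles (M : _root_.Fermat.Agent.GTor.Clo.ModClosure N) :
    Nat.card {v : Place _root_.Fermat.Agent.GTor.Clo.Kbar (_root_.Fermat.Agent.GTor.Clo.FN N) // v.ord (_root_.Fermat.Agent.GTor.Clo.jF N) < 0} = orbN N T := by
  have ht0 : M.t ≠ 0 := fun h0 => M.t_transcendental (h0 ▸ isAlgebraic_zero)
  have hNpos : 0 < N := Nat.pos_of_ne_zero (NeZero.ne N)
  have h := gc_card_zeros (K := _root_.Fermat.Agent.GTor.Clo.Kbar) (E := M.E) (F := _root_.Fermat.Agent.GTor.Clo.FN N) (L := M.L)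
    (M.t)⁻¹ (_root_.Fermat.Agent.GTor.Clo.h85_transcendental_inv M.t_transcendental)
    (_root_.Fermat.Agent.GTor.Clo.h85_gen_inv ht0 M.t_gen) M.winf M.winf_algebraMap
    (by
      rw [M.winf_j, ← exp_zero, exp_lt_exp]
      omega)
    (M.π T) M.winf_π_T
    (by
      rw [M.winf_j, exp_le_exp]
      have := _root_.Fermat.Agent.GTor.Clo.h85_le_orderOf_T M
      omega)
  rw [map_inv₀, M.t_map] at h
  have hcard : Nat.card {v : Place _root_.Fermat.Agent.GTor.Clo.Kbar (_root_.Fermat.Agent.GTor.Clo.FN N) // v.ord (_root_.Fermat.Agent.GTor.Clo.jF N) < 0}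
      = Nat.card {v : Place _root_.Fermat.Agent.GTor.Clo.Kbar (_root_.Fermat.Agent.GTor.Clo.FN N) // 0 < v.ord (_root_.Fermat.Agent.GTor.Clo.jF N)⁻¹} := by
    refine Nat.card_congr (Equiv.subtypeEquivRight fun v => ?_)
    rw [Place.ord_inv]
    omega
  rw [hcard, h, gc_orbits_transfer M.π M.π_surjective _ _ M.π_comap T]
  rfl

end Fermat.Agent.GTor.Clo

end
end
-- ==== END Fermat.Agent.GTor.Clo.AsmCount

-- ==== BEGIN Fermat.Agent.GTor.Clo.Atil
section

/-!
# S24 construction, layer 1b (WP CLO-Atil): the ring `Atil N` with its `SL(2, ℤ)`-action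

Every `sorry` in this file belongs to WP CLO-Atil (fill in place, keep all signatures).
-/

set_option autoImplicit false

noncomputable section

namespace Fermat.Agent.GTor.Clo

open Fermat.Agent.S24

open ModularCurve UpperHalfPlane
open scoped MatrixGroups Manifold

/-! ## 3. The ring `Atil N` -/

/-- The generators: `j ∘ A`, `A` an integer matrix with `0 < det A ∣ N`. -/
def genJ (N : ℕ) : Set Hol :=
  {f | ∃ A : Matrix (Fin 2) (Fin 2) ℤ, 0 < A.det ∧ A.det ∣ (N : ℤ) ∧ f = _root_.Fermat.Agent.GTor.Clo.JA A}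

/-- The `K`-algebra generated by the `j ∘ A`. -/
def Atil (N : ℕ) : Subalgebra _root_.Fermat.Agent.GTor.Clo.Kbar Hol := Algebra.adjoin _root_.Fermat.Agent.GTor.Clo.Kbar (_root_.Fermat.Agent.GTor.Clo.genJ N)

theorem JA_mem_Atil (N : ℕ) (A : Matrix (Fin 2) (Fin 2) ℤ) (hA : 0 < A.det)
    (hN : A.det ∣ (N : ℤ)) : _root_.Fermat.Agent.GTor.Clo.JA A ∈ _root_.Fermat.Agent.GTor.Clo.Atil N :=
  Algebra.subset_adjoin ⟨A, hA, hN, rfl⟩

theorem smul_mem_Atil (N : ℕ) (γ : SL(2, ℤ)) {f : Hol} (hf : f ∈ _root_.Fermat.Agent.GTor.Clo.Atil N) : γ • f ∈ _root_.Fermat.Agent.GTor.Clo.Atil N := by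
  unfold _root_.Fermat.Agent.GTor.Clo.Atil at hf ⊢
  induction hf using Algebra.adjoin_induction with
  | mem x hx =>
    obtain ⟨A, hA, hN, rfl⟩ := hx
    rw [_root_.Fermat.Agent.GTor.Clo.smul_JA γ A hA]
    refine Algebra.subset_adjoin ⟨_, ?_, ?_, rfl⟩
    · rw [Matrix.det_mul, (γ⁻¹ : SL(2, ℤ)).2, mul_one]; exact hA
    · rw [Matrix.det_mul, (γ⁻¹ : SL(2, ℤ)).2, mul_one]; exact hN
  | algebraMap c =>
    have h : γ • (algebraMap _root_.Fermat.Agent.GTor.Clo.Kbar Hol c) = algebraMap _root_.Fermat.Agent.GTor.Clo.Kbar Hol c :=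
      Subtype.ext (funext fun _ => rfl)
    rw [h]
    exact Subalgebra.algebraMap_mem _ c
  | add x y _ _ hx hy =>
    rw [smul_add]
    exact Subalgebra.add_mem _ hx hy
  | mul x y _ _ hx hy =>
    rw [smul_mul']
    exact Subalgebra.mul_mem _ hx hy

/-- `SL(2, ℤ)` acts on `Atil N` (direct `SMul` instance, found first by instance search). -/
instance (priority := high) smulAtil (N : ℕ) : SMul SL(2, ℤ) (_root_.Fermat.Agent.GTor.Clo.Atil N) :=
  ⟨fun γ f => ⟨γ • (f : Hol), _root_.Fermat.Agent.GTor.Clo.smul_mem_Atil N γ f.2⟩⟩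

/-- `SL(2, ℤ)` acts on `Atil N`. -/
instance mulSemiringActionAtil (N : ℕ) : MulSemiringAction SL(2, ℤ) (_root_.Fermat.Agent.GTor.Clo.Atil N) where
  toSMul := _root_.Fermat.Agent.GTor.Clo.smulAtil N
  one_smul _ := Subtype.ext (one_smul _ _)
  mul_smul _ _ _ := Subtype.ext (mul_smul _ _ _)
  smul_zero _ := Subtype.ext (smul_zero _)
  smul_add _ _ _ := Subtype.ext (smul_add _ _ _)
  smul_one _ := Subtype.ext (smul_one _)
  smul_mul _ _ _ := Subtype.ext (smul_mul' _ _ _)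

@[simp] theorem coe_smul_Atil (N : ℕ) (γ : SL(2, ℤ)) (f : _root_.Fermat.Agent.GTor.Clo.Atil N) :
    ((γ • f : _root_.Fermat.Agent.GTor.Clo.Atil N) : Hol) = γ • (f : Hol) := rfl

instance smulCommClass_SL_Kbar_Atil (N : ℕ) : SMulCommClass SL(2, ℤ) _root_.Fermat.Agent.GTor.Clo.Kbar (_root_.Fermat.Agent.GTor.Clo.Atil N) :=
  ⟨fun γ c f => Subtype.ext (smul_comm γ c (f : Hol))⟩

instance isDomain_Atil (N : ℕ) : IsDomain (_root_.Fermat.Agent.GTor.Clo.Atil N) := inferInstance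

/-- `j` as an element of `Atil N`. -/
def jA (N : ℕ) : _root_.Fermat.Agent.GTor.Clo.Atil N := ⟨_root_.Fermat.Agent.GTor.Clo.JA 1, _root_.Fermat.Agent.GTor.Clo.JA_mem_Atil N 1 (by simp) (by simp)⟩

theorem jA_apply (N : ℕ) (τ : ℍ) : ((_root_.Fermat.Agent.GTor.Clo.jA N : _root_.Fermat.Agent.GTor.Clo.Atil N) : ℍ → ℂ) τ = jAn τ := _root_.Fermat.Agent.GTor.Clo.JA_one_apply τ

/-- `j (d τ)` as an element of `Atil N`, for `d ∣ N` (junk `JA` value otherwise). -/
def jdA (N : ℕ) (d : ℕ) : _root_.Fermat.Agent.GTor.Clo.Atil N :=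
  if h : 0 < d ∧ d ∣ N then
    ⟨_root_.Fermat.Agent.GTor.Clo.JA !![(d : ℤ), 0; 0, 1], _root_.Fermat.Agent.GTor.Clo.JA_mem_Atil N _ (by simpa [Matrix.det_fin_two] using h.1)
      (by simpa [Matrix.det_fin_two] using Int.natCast_dvd_natCast.mpr h.2)⟩
  else 0

theorem jdA_coe (N : ℕ) (d : ℕ) (hd : 0 < d) (hdN : d ∣ N) :
    ((_root_.Fermat.Agent.GTor.Clo.jdA N d : _root_.Fermat.Agent.GTor.Clo.Atil N) : Hol) = _root_.Fermat.Agent.GTor.Clo.JA !![(d : ℤ), 0; 0, 1] := by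
  rw [_root_.Fermat.Agent.GTor.Clo.jdA, dif_pos ⟨hd, hdN⟩]

theorem jdA_one (N : ℕ) : _root_.Fermat.Agent.GTor.Clo.jdA N 1 = _root_.Fermat.Agent.GTor.Clo.jA N := by
  apply Subtype.ext
  rw [_root_.Fermat.Agent.GTor.Clo.jdA_coe N 1 one_pos (one_dvd N)]
  show _root_.Fermat.Agent.GTor.Clo.JA !![((1 : ℕ) : ℤ), 0; 0, 1] = _root_.Fermat.Agent.GTor.Clo.JA 1
  congr 1
  rw [Nat.cast_one, Matrix.one_fin_two]

/-- `SL(2, ℤ)` fixes `j`. -/
theorem smul_jA (N : ℕ) (γ : SL(2, ℤ)) : γ • _root_.Fermat.Agent.GTor.Clo.jA N = _root_.Fermat.Agent.GTor.Clo.jA N := by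
  apply Subtype.ext
  show γ • _root_.Fermat.Agent.GTor.Clo.JA 1 = _root_.Fermat.Agent.GTor.Clo.JA 1
  have h1 : 0 < (1 : Matrix (Fin 2) (Fin 2) ℤ).det := by rw [Matrix.det_one]; exact one_pos
  rw [_root_.Fermat.Agent.GTor.Clo.smul_JA γ 1 h1, one_mul]
  have := _root_.Fermat.Agent.GTor.Clo.JA_mul_left γ⁻¹ 1 h1
  rwa [mul_one] at this

/-- If `A γ⁻¹ = γ' A` with `γ' ∈ SL(2, ℤ)` then `γ` fixes `j ∘ A`. -/
theorem smul_JA_eq_of_mul_eq (γ γ' : SL(2, ℤ)) (A : Matrix (Fin 2) (Fin 2) ℤ) (hA : 0 < A.det)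
    (h : A * (γ⁻¹ : SL(2, ℤ)).1 = γ'.1 * A) : γ • _root_.Fermat.Agent.GTor.Clo.JA A = _root_.Fermat.Agent.GTor.Clo.JA A := by
  rw [_root_.Fermat.Agent.GTor.Clo.smul_JA γ A hA, h, _root_.Fermat.Agent.GTor.Clo.JA_mul_left γ' A hA]

/-- Conjugating an element of `Γ₀(N)` by `diag(d, 1)`, `d ∣ N`. -/
theorem exists_diag_mul_eq (d : ℤ) (δ : SL(2, ℤ)) (c : ℤ) (hc : δ.1 1 0 = d * c) :
    ∃ γ' : SL(2, ℤ), (!![d, 0; 0, 1] : Matrix (Fin 2) (Fin 2) ℤ) * δ.1
      = γ'.1 * !![d, 0; 0, 1] := by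
  have hdet : δ.1 0 0 * δ.1 1 1 - δ.1 0 1 * δ.1 1 0 = 1 := by
    have := δ.2
    rwa [Matrix.det_fin_two] at this
  have key : ∀ x y w : ℤ, (!![d, 0; 0, 1] : Matrix (Fin 2) (Fin 2) ℤ) * !![x, y; d * c, w]
      = !![x, d * y; c, w] * !![d, 0; 0, 1] := by
    intro x y w
    ext i j
    fin_cases i <;> fin_cases j <;> simp [Matrix.mul_apply, Fin.sum_univ_two] <;> ring
  have e : δ.1 = !![δ.1 0 0, δ.1 0 1; d * c, δ.1 1 1] := by
    conv_lhs => rw [Matrix.eta_fin_two δ.1, hc]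
  refine ⟨⟨!![δ.1 0 0, d * δ.1 0 1; c, δ.1 1 1], ?_⟩, ?_⟩
  · rw [Matrix.det_fin_two_of]
    rw [hc] at hdet
    linear_combination hdet
  · show (!![d, 0; 0, 1] : Matrix (Fin 2) (Fin 2) ℤ) * δ.1
      = !![δ.1 0 0, d * δ.1 0 1; c, δ.1 1 1] * !![d, 0; 0, 1]
    conv_lhs => rw [e]
    exact key _ _ _

/-- Conjugating an element congruent to `1` modulo `det A` by `A`. -/
theorem exists_mul_eq_of_congr (a b c d m00 m01 m10 m11 : ℤ) :
    (!![a, b; c, d] : Matrix (Fin 2) (Fin 2) ℤ)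
        * !![1 + (a * d - b * c) * m00, (a * d - b * c) * m01;
            (a * d - b * c) * m10, 1 + (a * d - b * c) * m11]
      = !![1 + ((a * m00 + b * m10) * d - (a * m01 + b * m11) * c),
            -(a * m00 + b * m10) * b + (a * m01 + b * m11) * a;
            (c * m00 + d * m10) * d - (c * m01 + d * m11) * c,
            1 + (-(c * m00 + d * m10) * b + (c * m01 + d * m11) * a)]
        * !![a, b; c, d] := by
  ext i j
  fin_cases i <;> fin_cases j <;> simp [Matrix.mul_apply, Fin.sum_univ_two] <;> ring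

/-- `Γ₀(N)` fixes `j (d τ)` for `d ∣ N`. -/
theorem smul_jdA_of_mem_Gamma0 (N : ℕ) (d : ℕ) (hd : 0 < d) (hdN : d ∣ N) (γ : SL(2, ℤ))
    (hγ : γ ∈ CongruenceSubgroup.Gamma0 N) : γ • _root_.Fermat.Agent.GTor.Clo.jdA N d = _root_.Fermat.Agent.GTor.Clo.jdA N d := by
  apply Subtype.ext
  rw [_root_.Fermat.Agent.GTor.Clo.coe_smul_Atil, _root_.Fermat.Agent.GTor.Clo.jdA_coe N d hd hdN]
  have hdet : 0 < (!![(d : ℤ), 0; 0, 1] : Matrix (Fin 2) (Fin 2) ℤ).det := by
    simpa [Matrix.det_fin_two] using hd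
  have hγ' : γ⁻¹ ∈ CongruenceSubgroup.Gamma0 N := inv_mem hγ
  rw [CongruenceSubgroup.Gamma0_mem] at hγ'
  have hN : (N : ℤ) ∣ (γ⁻¹ : SL(2, ℤ)).1 1 0 := (ZMod.intCast_zmod_eq_zero_iff_dvd _ N).mp hγ'
  obtain ⟨c, hc⟩ : (d : ℤ) ∣ (γ⁻¹ : SL(2, ℤ)).1 1 0 :=
    dvd_trans (Int.natCast_dvd_natCast.mpr hdN) hN
  obtain ⟨γ', hγ'⟩ := _root_.Fermat.Agent.GTor.Clo.exists_diag_mul_eq (d : ℤ) γ⁻¹ c hc
  exact _root_.Fermat.Agent.GTor.Clo.smul_JA_eq_of_mul_eq γ γ' _ hdet hγ'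

/-- `Γ(N)` acts trivially on `Atil N`
(for `γ ∈ Γ(N)` and `det A ∣ N`: `A γ⁻¹ = γ' A` with `γ' ∈ SL(2, ℤ)`). -/
theorem smul_eq_of_mem_Gamma (N : ℕ) [NeZero N] (γ : SL(2, ℤ))
    (hγ : γ ∈ CongruenceSubgroup.Gamma N) (f : _root_.Fermat.Agent.GTor.Clo.Atil N) : γ • f = f := by
  have key : ∀ (A : Matrix (Fin 2) (Fin 2) ℤ), 0 < A.det → A.det ∣ (N : ℤ) →
      γ • _root_.Fermat.Agent.GTor.Clo.JA A = _root_.Fermat.Agent.GTor.Clo.JA A := by
    intro A hA hN
    have hγ' : γ⁻¹ ∈ CongruenceSubgroup.Gamma N := inv_mem hγ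
    rw [CongruenceSubgroup.Gamma_mem] at hγ'
    obtain ⟨h00, h01, h10, h11⟩ := hγ'
    have hdvd : ∀ x : ℤ, ((x : ZMod N) = 0) → A.det ∣ x := fun x hx =>
      dvd_trans hN ((ZMod.intCast_zmod_eq_zero_iff_dvd _ N).mp hx)
    obtain ⟨m00, hm00⟩ : A.det ∣ (γ⁻¹ : SL(2, ℤ)).1 0 0 - 1 :=
      hdvd _ (by push_cast; rw [h00]; ring)
    obtain ⟨m01, hm01⟩ : A.det ∣ (γ⁻¹ : SL(2, ℤ)).1 0 1 := hdvd _ h01
    obtain ⟨m10, hm10⟩ : A.det ∣ (γ⁻¹ : SL(2, ℤ)).1 1 0 := hdvd _ h10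
    obtain ⟨m11, hm11⟩ : A.det ∣ (γ⁻¹ : SL(2, ℤ)).1 1 1 - 1 :=
      hdvd _ (by push_cast; rw [h11]; ring)
    have hdetA : A.det = A 0 0 * A 1 1 - A 0 1 * A 1 0 := Matrix.det_fin_two A
    have hA0 : A.det ≠ 0 := hA.ne'
    have eg : (γ⁻¹ : SL(2, ℤ)).1 = !![1 + (A 0 0 * A 1 1 - A 0 1 * A 1 0) * m00,
        (A 0 0 * A 1 1 - A 0 1 * A 1 0) * m01;
        (A 0 0 * A 1 1 - A 0 1 * A 1 0) * m10,
        1 + (A 0 0 * A 1 1 - A 0 1 * A 1 0) * m11] := by
      rw [← hdetA]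
      ext i j
      fin_cases i <;> fin_cases j
      · show (γ⁻¹ : SL(2, ℤ)).1 0 0 = 1 + A.det * m00
        linear_combination hm00
      · show (γ⁻¹ : SL(2, ℤ)).1 0 1 = A.det * m01
        exact hm01
      · show (γ⁻¹ : SL(2, ℤ)).1 1 0 = A.det * m10
        exact hm10
      · show (γ⁻¹ : SL(2, ℤ)).1 1 1 = 1 + A.det * m11
        linear_combination hm11
    have hmul := _root_.Fermat.Agent.GTor.Clo.exists_mul_eq_of_congr (A 0 0) (A 0 1) (A 1 0) (A 1 1) m00 m01 m10 m11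
    rw [← eg, ← Matrix.eta_fin_two A] at hmul
    have hdet' : (!![1 + ((A 0 0 * m00 + A 0 1 * m10) * A 1 1
          - (A 0 0 * m01 + A 0 1 * m11) * A 1 0),
        -(A 0 0 * m00 + A 0 1 * m10) * A 0 1 + (A 0 0 * m01 + A 0 1 * m11) * A 0 0;
        (A 1 0 * m00 + A 1 1 * m10) * A 1 1 - (A 1 0 * m01 + A 1 1 * m11) * A 1 0,
        1 + (-(A 1 0 * m00 + A 1 1 * m10) * A 0 1 + (A 1 0 * m01 + A 1 1 * m11) * A 0 0)] :
          Matrix (Fin 2) (Fin 2) ℤ).det = 1 := by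
      have h1 := congrArg Matrix.det hmul
      rw [Matrix.det_mul, Matrix.det_mul, (γ⁻¹ : SL(2, ℤ)).2, mul_one] at h1
      exact (mul_right_cancel₀ hA0 (by rw [one_mul]; exact h1)).symm
    exact _root_.Fermat.Agent.GTor.Clo.smul_JA_eq_of_mul_eq γ ⟨_, hdet'⟩ A hA hmul
  apply Subtype.ext
  rw [_root_.Fermat.Agent.GTor.Clo.coe_smul_Atil]
  obtain ⟨f, hf⟩ := f
  show γ • f = f
  unfold _root_.Fermat.Agent.GTor.Clo.Atil at hf
  induction hf using Algebra.adjoin_induction with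
  | mem x hx =>
    obtain ⟨A, hA, hN, rfl⟩ := hx
    exact key A hA hN
  | algebraMap c => exact Subtype.ext (funext fun _ => rfl)
  | add x y _ _ hx hy => rw [smul_add, hx, hy]
  | mul x y _ _ hx hy => rw [smul_mul', hx, hy]

/-- `j` is transcendental over `K` (use `jAn_surjective`). -/
theorem jA_transcendental (N : ℕ) : Transcendental _root_.Fermat.Agent.GTor.Clo.Kbar (_root_.Fermat.Agent.GTor.Clo.jA N) := by
  intro halg
  obtain ⟨P, hP0, hP⟩ := halg
  -- evaluate at every `τ`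
  have h2 : ∀ (Q : Polynomial _root_.Fermat.Agent.GTor.Clo.Kbar) (τ : ℍ),
      ((Polynomial.aeval (_root_.Fermat.Agent.GTor.Clo.jA N) Q : _root_.Fermat.Agent.GTor.Clo.Atil N) : ℍ → ℂ) τ = (Q.map _root_.Fermat.Agent.GTor.Clo.iotaC).eval (jAn τ) := by
    intro Q τ
    induction Q using Polynomial.induction_on' with
    | add p q hp hq =>
      rw [map_add, Polynomial.map_add, Polynomial.eval_add, ← hp, ← hq]
      rfl
    | monomial n a =>
      rw [Polynomial.aeval_monomial, Polynomial.map_monomial, Polynomial.eval_monomial]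
      show _root_.Fermat.Agent.GTor.Clo.iotaC a * ((_root_.Fermat.Agent.GTor.Clo.jA N : _root_.Fermat.Agent.GTor.Clo.Atil N) : ℍ → ℂ) τ ^ n = _
      rw [_root_.Fermat.Agent.GTor.Clo.jA_apply]
  have hroot : ∀ τ : ℍ, (P.map _root_.Fermat.Agent.GTor.Clo.iotaC).eval (jAn τ) = 0 := by
    intro τ
    rw [← h2, hP]
    rfl
  have hPne : P.map _root_.Fermat.Agent.GTor.Clo.iotaC ≠ 0 := by
    rwa [Ne, Polynomial.map_eq_zero_iff _root_.Fermat.Agent.GTor.Clo.iotaC_injective]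
  have hfin : ((P.map _root_.Fermat.Agent.GTor.Clo.iotaC).rootSet ℂ).Finite := Polynomial.rootSet_finite _ ℂ
  have hall : (Set.univ : Set ℂ) ⊆ (P.map _root_.Fermat.Agent.GTor.Clo.iotaC).rootSet ℂ := by
    intro a _
    obtain ⟨τ, rfl⟩ := jAn_surjective a
    rw [Polynomial.mem_rootSet]
    exact ⟨hPne, by simpa using hroot τ⟩
  exact Set.infinite_univ (hfin.subset hall)

end Fermat.Agent.GTor.Clo

end
end
-- ==== END Fermat.Agent.GTor.Clo.Atil

-- ==== BEGIN Fermat.Agent.GTor.Clo.Stab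
section

/-!
# G-TOR A3–A5 (WP Stab): stabilisers in `SL(2, ℤ)` of the points of `ℍ` and the order of `j`

Inputs (landed): `Fermat.Agent.S24.jOrd_I / jOrd_rho / jOrd_eq_one`
(order of `j - j(τ)` at `τ`: `2` at `i`, `3` at `ρ`, `1` if `j τ ∉ {0, 1728}`), `jAn_smul`,
`jAn_eq_zero_iff`, `jAn_eq_1728_iff`, `h27_S_smul_I`, `h27_ST_smul_rho`,
`Fermat.Agent.S20.H29.exists_smul_eq_of_E₄_E₆` (equal `j` ⇒ same orbit).

* `Stab(i) = {±1, ±S}`: `γ • i = i` ⇔ `a = d, b = -c, a² + c² = 1`.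
* `Stab(ρ) = ⟨S * T⟩` (order `6`): `γ • ρ = ρ` ⇔ `a = d - c, b = -c, c² - c d + d² = 1`.
* `j τ ∉ {0, 1728}` ⇒ `Stab(τ) = {±1}`: if `γ ≠ ±1` fixes `τ`, differentiate `j (γ z) = j z`
  at `τ`: `(c τ + d)⁻² ≠ 1`, so the derivative of `j` vanishes at `τ`, i.e. the order is `≥ 2`.

WP Stab (helper38): all statements of this file are proved.  Route actually used:
* `jAn_eq_iff` from `exists_smul_eq_of_E₄_E₆` (choose `λ` by extracting roots in `ℂ`);
* `jOrd z = 2 / 3 / 1` according to `j z = 1728 / 0 / else`, for every `z` (`jOrd_of_1728`,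
  `jOrd_of_zero`, `S24.jOrd_eq_one`);
* `γ ↦ denom γ z` is injective on `Stab(z)` with values in the `2 * jOrd z`-th roots of unity
  (helper96's `multiplier_at_fixed_point` applied to `j - j(z)`), so `|Stab(z)| ≤ 2 * jOrd z`;
* a conjugate of `-1`, `S` or `S * T` has order `2 * jOrd z` and fixes `z`.
-/

set_option autoImplicit false

noncomputable section

namespace Fermat.Agent.GTor.Clo

open Fermat.Agent.S24

open UpperHalfPlane ModularGroup
open scoped MatrixGroups Manifold ModularForm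

/-! ### `j` separates the orbits -/

open ModularForm EisensteinSeries in
/-- The relation between the Eisenstein series at two points with the same `j`. -/
theorem stab_E_rel (z w : ℍ) (h : jAn z = jAn w) :
    E₆ z ^ 2 * E₄ w ^ 3 = E₄ z ^ 3 * E₆ w ^ 2 := by
  have h1 := jAn_sub_jAn z w
  rw [← h, sub_self] at h1
  have hne : -(1728 * ModularForm.discriminant w * ModularForm.discriminant z)⁻¹ ≠ 0 :=
    neg_ne_zero.mpr (inv_ne_zero (mul_ne_zero (mul_ne_zero (by norm_num)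
      (ModularForm.discriminant_ne_zero w)) (ModularForm.discriminant_ne_zero z)))
  have h2 := (mul_eq_zero.mp h1.symm).resolve_right hne
  linear_combination h2

open ModularForm EisensteinSeries in
theorem stab_E6_ne_zero_of_E4 (z : ℍ) (h : E₄ z = 0) : E₆ z ≠ 0 := by
  intro h6
  have := h27_disc_eq z
  rw [h, h6] at this
  have hd := ModularForm.discriminant_ne_zero z
  apply hd
  have h0 : (1728 : ℂ) * ModularForm.discriminant z = 0 := by rw [this]; ring
  exact (mul_eq_zero.mp h0).resolve_left (by norm_num)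

open ModularForm EisensteinSeries in
/-- `j` separates the `SL(2, ℤ)`-orbits. -/
theorem jAn_eq_iff (z w : ℍ) : jAn z = jAn w ↔ ∃ γ : SL(2, ℤ), w = γ • z := by
  constructor
  · intro h
    have hrel := stab_E_rel z w h
    by_cases h4 : E₄ z = 0
    · have h4w : E₄ w = 0 := (jAn_eq_zero_iff w).mp (h ▸ (jAn_eq_zero_iff z).mpr h4)
      have h6 := stab_E6_ne_zero_of_E4 z h4
      have h6w := stab_E6_ne_zero_of_E4 w h4w
      obtain ⟨lam, hlam⟩ := IsAlgClosed.exists_pow_nat_eq (E₆ w / E₆ z) (n := 6) (by norm_num)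
      have hl0 : lam ≠ 0 := by
        rintro rfl
        rw [zero_pow (by norm_num)] at hlam
        exact div_ne_zero h6w h6 hlam.symm
      refine S20.H29.exists_smul_eq_of_E₄_E₆ z w lam hl0 ?_ ?_
      · rw [h4, h4w, mul_zero]
      · rw [hlam, div_mul_cancel₀ _ h6]
    · by_cases h6 : E₆ z = 0
      · have h6w : E₆ w = 0 := (jAn_eq_1728_iff w).mp (h ▸ (jAn_eq_1728_iff z).mpr h6)
        have h4w : E₄ w ≠ 0 := fun h0 => h4 ((jAn_eq_zero_iff z).mp
          (h.trans ((jAn_eq_zero_iff w).mpr h0)))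
        obtain ⟨lam, hlam⟩ := IsAlgClosed.exists_pow_nat_eq (E₄ w / E₄ z) (n := 4) (by norm_num)
        have hl0 : lam ≠ 0 := by
          rintro rfl
          rw [zero_pow (by norm_num)] at hlam
          exact div_ne_zero h4w h4 hlam.symm
        refine S20.H29.exists_smul_eq_of_E₄_E₆ z w lam hl0 ?_ ?_
        · rw [hlam, div_mul_cancel₀ _ h4]
        · rw [h6, h6w, mul_zero]
      · have h4w : E₄ w ≠ 0 := fun h0 => h4 ((jAn_eq_zero_iff z).mp
          (h.trans ((jAn_eq_zero_iff w).mpr h0)))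
        have h6w : E₆ w ≠ 0 := fun h0 => h6 ((jAn_eq_1728_iff z).mp
          (h.trans ((jAn_eq_1728_iff w).mpr h0)))
        -- `t = b / a` with `a = E₄ w / E₄ z`, `b = E₆ w / E₆ z`
        set t : ℂ := (E₆ w / E₆ z) / (E₄ w / E₄ z) with ht
        obtain ⟨lam, hlam⟩ := IsAlgClosed.exists_pow_nat_eq t (n := 2) (by norm_num)
        have ht0 : t ≠ 0 := div_ne_zero (div_ne_zero h6w h6) (div_ne_zero h4w h4)
        have hl0 : lam ≠ 0 := by
          rintro rfl
          rw [zero_pow (by norm_num)] at hlam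
          exact ht0 hlam.symm
        have ht2 : t ^ 2 = E₄ w / E₄ z := by
          rw [ht]
          field_simp
          linear_combination -hrel
        have ht3 : t ^ 3 = E₆ w / E₆ z := by
          rw [ht]
          field_simp
          linear_combination -hrel
        refine S20.H29.exists_smul_eq_of_E₄_E₆ z w lam hl0 ?_ ?_
        · rw [show lam ^ 4 = (lam ^ 2) ^ 2 by ring, hlam, ht2, div_mul_cancel₀ _ h4]
        · rw [show lam ^ 6 = (lam ^ 2) ^ 3 by ring, hlam, ht3, div_mul_cancel₀ _ h6]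
  · rintro ⟨γ, rfl⟩
    exact (jAn_smul γ z).symm

/-! ### The order of `j - j(z)` at `z` -/

open ModularForm EisensteinSeries Fermat.Agent.S20.H70 in
/-- The order of `j - j(z)` at `z` is `2` if `j z = 1728`. -/
theorem stab_order_of_E6 (z : ℍ) (h6 : E₆ z = 0) :
    analyticOrderAt (fun w : ℂ => jAn (ofComplex w) - jAn z) (z : ℂ) = 2 := by
  have hj : jAn z = 1728 := (jAn_eq_1728_iff z).mpr h6
  have hfun : (fun w : ℂ => jAn (ofComplex w) - jAn z) =
      fun w => (⇑E₆ ∘ ofComplex) w ^ 2 *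
        (fun w : ℂ => ((ModularForm.discriminant ∘ ofComplex) w)⁻¹) w := by
    funext w
    rw [hj, jAn_sub_1728]
    simp only [Function.comp_apply, div_eq_mul_inv]
  rw [hfun]
  rw [h27_order_pow_mul (h27_analyticAt E₆ z)
    (h27_analyticAt_disc_inv z)
    (inv_ne_zero (h27_disc_comp_ne_zero z))
    ((h27_comp_ofComplex_apply _ _).trans h6)
    (deriv_E₆_ne_zero z h6) 2]
  rfl

open ModularForm EisensteinSeries Fermat.Agent.S20.H70 in
/-- The order of `j - j(z)` at `z` is `3` if `j z = 0`. -/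
theorem stab_order_of_E4 (z : ℍ) (h4 : E₄ z = 0) :
    analyticOrderAt (fun w : ℂ => jAn (ofComplex w) - jAn z) (z : ℂ) = 3 := by
  have hj : jAn z = 0 := (jAn_eq_zero_iff z).mpr h4
  have hfun : (fun w : ℂ => jAn (ofComplex w) - jAn z) =
      fun w => (⇑E₄ ∘ ofComplex) w ^ 3 *
        (fun w : ℂ => ((ModularForm.discriminant ∘ ofComplex) w)⁻¹) w := by
    funext w
    rw [hj, sub_zero, jAn_eq]
    simp only [Function.comp_apply, div_eq_mul_inv]
  rw [hfun]
  rw [h27_order_pow_mul (h27_analyticAt E₄ z)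
    (h27_analyticAt_disc_inv z)
    (inv_ne_zero (h27_disc_comp_ne_zero z))
    ((h27_comp_ofComplex_apply _ _).trans h4)
    (deriv_E₄_ne_zero z h4) 3]
  rfl

/-- `jOrd z = 2` at every point with `j z = 1728`. -/
theorem jOrd_of_1728 (z : ℍ) (h : jAn z = 1728) : jOrd z = 2 := by
  unfold jOrd
  rw [stab_order_of_E6 z ((jAn_eq_1728_iff z).mp h)]
  rfl

/-- `jOrd z = 3` at every point with `j z = 0`. -/
theorem jOrd_of_zero (z : ℍ) (h : jAn z = 0) : jOrd z = 3 := by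
  unfold jOrd
  rw [stab_order_of_E4 z ((jAn_eq_zero_iff z).mp h)]
  rfl

theorem jOrd_smul (γ : SL(2, ℤ)) (z : ℍ) : jOrd (γ • z) = jOrd z := by
  have h := jAn_smul γ z
  by_cases h0 : jAn z = 0
  · rw [jOrd_of_zero z h0, jOrd_of_zero _ (h.trans h0)]
  · by_cases h1 : jAn z = 1728
    · rw [jOrd_of_1728 z h1, jOrd_of_1728 _ (h.trans h1)]
    · rw [jOrd_eq_one z h0 h1, jOrd_eq_one _ (by rw [h]; exact h0) (by rw [h]; exact h1)]

theorem jOrd_pos (z : ℍ) : 0 < jOrd z := by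
  by_cases h0 : jAn z = 0
  · rw [jOrd_of_zero z h0]; norm_num
  · by_cases h1 : jAn z = 1728
    · rw [jOrd_of_1728 z h1]; norm_num
    · rw [jOrd_eq_one z h0 h1]; norm_num

/-! ### The automorphy factor on the stabiliser -/

/-- The automorphy factor at a fixed point is a `2 * jOrd z`-th root of unity. -/
theorem stab_denom_pow (z : ℍ) (g : SL(2, ℤ)) (hg : g • z = z) :
    denom g z ^ (2 * jOrd z) = 1 := by
  have hG : MDifferentiable 𝓘(ℂ) 𝓘(ℂ) (fun τ : ℍ => jAn τ - jAn z) :=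
    _root_.Fermat.Agent.GTor.Clo.jAn_mdifferentiable.sub mdifferentiable_const
  have hG0 : ∃ τ : ℍ, (fun τ : ℍ => jAn τ - jAn z) τ ≠ 0 := by
    obtain ⟨τ, hτ⟩ := jAn_surjective (jAn z + 1)
    refine ⟨τ, ?_⟩
    simp only [hτ]
    simp
  have hc : (fun τ : ℍ => jAn τ - jAn z) ∣[(0 : ℤ)] g =
      fun w => (1 : ℂ) * (fun τ : ℍ => jAn τ - jAn z) w := by
    funext w
    rw [ModularForm.SL_slash_apply]
    simp only [neg_zero, zpow_zero, mul_one, one_mul, jAn_smul]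
  have h := H96.multiplier_at_fixed_point hG hG0 hg hc
  have hord : analyticOrderNatAt ((fun τ : ℍ => jAn τ - jAn z) ∘ UpperHalfPlane.ofComplex)
      (z : ℂ) = jOrd z := rfl
  rw [hord] at h
  have h2 : denom g z ^ (-(0 : ℤ) - 2 * (jOrd z : ℤ)) = (denom g z ^ (2 * jOrd z))⁻¹ := by
    rw [neg_zero, zero_sub, zpow_neg]
    congr 1
  rw [h2] at h
  exact inv_eq_one.mp h.symm

open Fermat.Agent.GTor.H96 in
theorem stab_denom_cocycle (g h : SL(2, ℤ)) (z : ℍ) :
    denom (g * h : SL(2, ℤ)) z = denom g ((h • z : ℍ) : ℂ) * denom h z := by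
  have hne : autj h (z : ℂ) ≠ 0 := autj_ne_zero h z.im_pos
  rw [denom_eq_autj, denom_eq_autj, denom_eq_autj, coe_smul_eq_moeb]
  unfold autj moeb
  unfold autj at hne
  rw [Matrix.SpecialLinearGroup.coe_mul]
  simp only [Matrix.mul_apply, Fin.sum_univ_two]
  push_cast
  field_simp
  ring

theorem stab_denom_mul (g h : SL(2, ℤ)) (z : ℍ) (hh : h • z = z) :
    denom (g * h : SL(2, ℤ)) z = denom g z * denom h z := by
  rw [stab_denom_cocycle, hh]

theorem stab_denom_one (z : ℍ) : denom (1 : SL(2, ℤ)) z = 1 := by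
  rw [H96.denom_eq_autj]
  simp [H96.autj]

open Fermat.Agent.GTor.H96 in
theorem stab_eq_one_of_denom (g : SL(2, ℤ)) (z : ℍ) (hg : g • z = z) (hd : denom g z = 1) :
    g = 1 := by
  rw [denom_eq_autj] at hd
  unfold autj at hd
  have hc : (g : Matrix (Fin 2) (Fin 2) ℤ) 1 0 = 0 := by
    have him := congrArg Complex.im hd
    simp at him
    rcases him with h | h
    · exact h
    · exact absurd h z.im_ne_zero
  have hd1 : (g : Matrix (Fin 2) (Fin 2) ℤ) 1 1 = 1 := by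
    rw [hc] at hd
    simp at hd
    exact_mod_cast hd
  have hdet := g.2
  rw [Matrix.det_fin_two, hc, hd1] at hdet
  have ha : (g : Matrix (Fin 2) (Fin 2) ℤ) 0 0 = 1 := by linarith
  have hb : (g : Matrix (Fin 2) (Fin 2) ℤ) 0 1 = 0 := by
    have h1 := congrArg (fun w : ℍ => (w : ℂ)) hg
    simp only [coe_smul_eq_moeb] at h1
    unfold moeb at h1
    rw [hc, hd1, ha] at h1
    simp at h1
    exact h1
  ext i j
  fin_cases i <;> fin_cases j <;> simp [ha, hb, hc, hd1]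

/-- The automorphy factor, as a map from the stabiliser to the roots of unity. -/
def stabRoot (z : ℍ) (g : MulAction.stabilizer SL(2, ℤ) z) : rootsOfUnity (2 * jOrd z) ℂ :=
  ⟨Units.mk0 (denom (g : SL(2, ℤ)) z) (UpperHalfPlane.denom_ne_zero _ z), by
    rw [mem_rootsOfUnity]
    apply Units.ext
    rw [Units.val_pow_eq_pow_val, Units.val_mk0, Units.val_one]
    exact stab_denom_pow z g (MulAction.mem_stabilizer_iff.mp g.2)⟩

theorem stabRoot_injective (z : ℍ) : Function.Injective (stabRoot z) := by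
  intro g h hgh
  have h1 : denom (g : SL(2, ℤ)) z = denom (h : SL(2, ℤ)) z := by
    have := congrArg (fun x : rootsOfUnity (2 * jOrd z) ℂ => ((x : ℂˣ) : ℂ)) hgh
    simpa [stabRoot] using this
  have hg := MulAction.mem_stabilizer_iff.mp g.2
  have hh := MulAction.mem_stabilizer_iff.mp h.2
  have hhinv : (h : SL(2, ℤ))⁻¹ • z = z := by
    rw [inv_smul_eq_iff, hh]
  -- `denom (g * h⁻¹) z = 1`
  have h2 : denom ((g : SL(2, ℤ)) * (h : SL(2, ℤ))⁻¹ : SL(2, ℤ)) z = 1 := by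
    rw [stab_denom_mul _ _ z hhinv, h1, ← stab_denom_mul _ _ z hhinv, mul_inv_cancel]
    exact stab_denom_one z
  have h3 := stab_eq_one_of_denom _ z (by rw [mul_smul, hhinv, hg]) h2
  exact Subtype.ext (mul_inv_eq_one.mp h3)

theorem stab_finite_roots (z : ℍ) : Finite (rootsOfUnity (2 * jOrd z) ℂ) := by
  have : NeZero (2 * jOrd z) := ⟨(Nat.mul_pos (by norm_num) (jOrd_pos z)).ne'⟩
  exact Nat.finite_of_card_ne_zero (by rw [Complex.card_rootsOfUnity]; exact NeZero.ne _)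

theorem stab_finite (z : ℍ) : Finite (MulAction.stabilizer SL(2, ℤ) z) := by
  have := stab_finite_roots z
  exact Finite.of_injective _ (stabRoot_injective z)

theorem stab_card_le (z : ℍ) : Nat.card (MulAction.stabilizer SL(2, ℤ) z) ≤ 2 * jOrd z := by
  have : NeZero (2 * jOrd z) := ⟨(Nat.mul_pos (by norm_num) (jOrd_pos z)).ne'⟩
  have := stab_finite_roots z
  have := Nat.card_le_card_of_injective _ (stabRoot_injective z)
  rwa [Complex.card_rootsOfUnity] at this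

/-- An element of order `2 * jOrd z` in the stabiliser generates it. -/
theorem stab_of_orderOf (z : ℍ) (g : SL(2, ℤ)) (hg : g • z = z) (ho : orderOf g = 2 * jOrd z) :
    Nat.card (MulAction.stabilizer SL(2, ℤ) z) = 2 * jOrd z ∧
      MulAction.stabilizer SL(2, ℤ) z = Subgroup.zpowers g := by
  have hle : Subgroup.zpowers g ≤ MulAction.stabilizer SL(2, ℤ) z :=
    (Subgroup.zpowers_le).mpr (MulAction.mem_stabilizer_iff.mpr hg)
  have := stab_finite z
  have hc : Nat.card (Subgroup.zpowers g) = 2 * jOrd z := by rw [Nat.card_zpowers, ho]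
  have heq : Subgroup.zpowers g = MulAction.stabilizer SL(2, ℤ) z :=
    Subgroup.eq_of_le_of_card_ge hle (by rw [hc]; exact stab_card_le z)
  exact ⟨by rw [← heq, hc], heq.symm⟩

/-! ### The elements `-1`, `S`, `S * T` -/

theorem stab_S_sq : (S : SL(2, ℤ)) ^ 2 = -1 := by
  apply Subtype.ext
  rw [pow_two, Matrix.SpecialLinearGroup.coe_mul, S_mul_S_eq]
  simp

theorem stab_ST_val : ((S * T : SL(2, ℤ)) : Matrix (Fin 2) (Fin 2) ℤ) = !![0, -1; 1, 1] := by
  rw [Matrix.SpecialLinearGroup.coe_mul, coe_S, coe_T]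
  ext i j
  fin_cases i <;> fin_cases j <;> simp [Matrix.mul_apply, Fin.sum_univ_two]

theorem stab_ST_sq_val : (((S * T : SL(2, ℤ)) ^ 2 : SL(2, ℤ)) : Matrix (Fin 2) (Fin 2) ℤ) =
    !![-1, -1; 1, 0] := by
  rw [pow_two, Matrix.SpecialLinearGroup.coe_mul, stab_ST_val]
  ext i j
  fin_cases i <;> fin_cases j <;> simp [Matrix.mul_apply, Fin.sum_univ_two]

theorem stab_ST_cube : (S * T : SL(2, ℤ)) ^ 3 = -1 := by
  apply Subtype.ext
  rw [pow_succ, Matrix.SpecialLinearGroup.coe_mul, stab_ST_sq_val, stab_ST_val]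
  ext i j
  fin_cases i <;> fin_cases j <;> simp [Matrix.mul_apply, Fin.sum_univ_two]

theorem stab_neg_one_ne_one : (-1 : SL(2, ℤ)) ≠ 1 := by
  intro h
  have := congrArg (fun g : SL(2, ℤ) => (g : Matrix (Fin 2) (Fin 2) ℤ) 0 0) h
  simp at this

theorem stab_neg_one_sq : (-1 : SL(2, ℤ)) ^ 2 = 1 := by
  rw [pow_two]
  simp

theorem stab_orderOf_neg_one : orderOf (-1 : SL(2, ℤ)) = 2 := by
  refine orderOf_eq_of_pow_and_pow_div_prime (by norm_num) stab_neg_one_sq ?_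
  intro p hp hdvd
  have : p = 2 := (Nat.prime_dvd_prime_iff_eq hp Nat.prime_two).mp hdvd
  subst this
  simpa using stab_neg_one_ne_one

theorem stab_orderOf_S : orderOf (S : SL(2, ℤ)) = 4 := by
  refine orderOf_eq_of_pow_and_pow_div_prime (by norm_num) ?_ ?_
  · rw [show (4 : ℕ) = 2 * 2 by norm_num, pow_mul, stab_S_sq, stab_neg_one_sq]
  · intro p hp hdvd
    have : p = 2 := by
      have h2 : p ∣ 2 ^ 2 := by simpa using hdvd
      exact (Nat.prime_dvd_prime_iff_eq hp Nat.prime_two).mp (hp.dvd_of_dvd_pow h2)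
    subst this
    rw [show (4 : ℕ) / 2 = 2 by norm_num, stab_S_sq]
    exact stab_neg_one_ne_one

theorem stab_orderOf_ST : orderOf (S * T : SL(2, ℤ)) = 6 := by
  refine orderOf_eq_of_pow_and_pow_div_prime (by norm_num) ?_ ?_
  · rw [show (6 : ℕ) = 3 * 2 by norm_num, pow_mul, stab_ST_cube, stab_neg_one_sq]
  · intro p hp hdvd
    have h23 : p = 2 ∨ p = 3 := by
      have h2 : p ∣ 2 * 3 := by simpa using hdvd
      rcases (Nat.Prime.dvd_mul hp).mp h2 with h | h
      · exact Or.inl ((Nat.prime_dvd_prime_iff_eq hp Nat.prime_two).mp h)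
      · exact Or.inr ((Nat.prime_dvd_prime_iff_eq hp Nat.prime_three).mp h)
    rcases h23 with rfl | rfl
    · rw [show (6 : ℕ) / 2 = 3 by norm_num, stab_ST_cube]
      exact stab_neg_one_ne_one
    · rw [show (6 : ℕ) / 3 = 2 by norm_num]
      intro h
      have := congrArg (fun g : SL(2, ℤ) => (g : Matrix (Fin 2) (Fin 2) ℤ) 1 0) h
      simp only [stab_ST_sq_val] at this
      simp at this

/-- The three model generators. -/
def StabModel (g₀ : SL(2, ℤ)) (m : ℕ) : Prop :=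
  (g₀ = -1 ∧ m = 1) ∨ (g₀ = S ∧ m = 2) ∨ (g₀ = S * T ∧ m = 3)

theorem StabModel.orderOf_eq {g₀ : SL(2, ℤ)} {m : ℕ} (h : StabModel g₀ m) :
    orderOf g₀ = 2 * m := by
  rcases h with ⟨rfl, rfl⟩ | ⟨rfl, rfl⟩ | ⟨rfl, rfl⟩
  · exact stab_orderOf_neg_one
  · exact stab_orderOf_S
  · exact stab_orderOf_ST

theorem StabModel.pow_eq {g₀ : SL(2, ℤ)} {m : ℕ} (h : StabModel g₀ m) : g₀ ^ m = -1 := by
  rcases h with ⟨rfl, rfl⟩ | ⟨rfl, rfl⟩ | ⟨rfl, rfl⟩
  · exact pow_one _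
  · exact stab_S_sq
  · exact stab_ST_cube

/-- Every point of `ℍ` is a translate of a point fixed by a model generator of the right
order. -/
theorem stab_exists_model (z : ℍ) :
    ∃ (γ₀ g₀ : SL(2, ℤ)) (z₀ : ℍ), z = γ₀ • z₀ ∧ g₀ • z₀ = z₀ ∧ StabModel g₀ (jOrd z) := by
  by_cases h0 : jAn z = 0
  · obtain ⟨γ₀, hγ₀⟩ := (jAn_eq_iff ρ z).mp (jAn_rho.trans h0.symm)
    exact ⟨γ₀, S * T, ρ, hγ₀, h27_ST_smul_rho, Or.inr (Or.inr ⟨rfl, jOrd_of_zero z h0⟩)⟩
  · by_cases h1 : jAn z = 1728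
    · obtain ⟨γ₀, hγ₀⟩ := (jAn_eq_iff UpperHalfPlane.I z).mp (jAn_I.trans h1.symm)
      exact ⟨γ₀, S, UpperHalfPlane.I, hγ₀, h27_S_smul_I,
        Or.inr (Or.inl ⟨rfl, jOrd_of_1728 z h1⟩)⟩
    · refine ⟨1, -1, z, (one_smul _ z).symm, ?_, Or.inl ⟨rfl, jOrd_eq_one z h0 h1⟩⟩
      rw [ModularGroup.SL_neg_smul, one_smul]

/-- The generator of the stabiliser, with its model. -/
theorem stab_exists_generator (z : ℍ) :
    ∃ (γ₀ g₀ : SL(2, ℤ)), StabModel g₀ (jOrd z) ∧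
      Nat.card (MulAction.stabilizer SL(2, ℤ) z) = 2 * jOrd z ∧
      MulAction.stabilizer SL(2, ℤ) z = Subgroup.zpowers (γ₀ * g₀ * γ₀⁻¹) := by
  obtain ⟨γ₀, g₀, z₀, hz, hg₀, hm⟩ := stab_exists_model z
  have hfix : (γ₀ * g₀ * γ₀⁻¹) • z = z := by
    rw [hz, mul_smul, mul_smul, inv_smul_smul, hg₀]
  have ho : orderOf (γ₀ * g₀ * γ₀⁻¹) = 2 * jOrd z := by
    rw [← hm.orderOf_eq]
    exact orderOf_injective (MulAut.conj γ₀).toMonoidHom (MulAut.conj γ₀).injective g₀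
  exact ⟨γ₀, g₀, hm, stab_of_orderOf z _ hfix ho⟩

/-- The stabiliser of `z` has `2 * jOrd z` elements. -/
theorem card_stabilizer (z : ℍ) :
    Nat.card (MulAction.stabilizer SL(2, ℤ) z) = 2 * jOrd z := by
  obtain ⟨γ₀, g₀, -, hc, -⟩ := stab_exists_generator z
  exact hc

theorem stab_conj_neg_one (γ₀ : SL(2, ℤ)) : γ₀ * (-1) * γ₀⁻¹ = -1 := by
  apply Subtype.ext
  have h : γ₀ * (-1 : SL(2, ℤ)) = (-1 : SL(2, ℤ)) * γ₀ := by
    apply Subtype.ext
    simp
  rw [h, mul_assoc, mul_inv_cancel, mul_one]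

/-- The stabiliser of `z` is cyclic, generated by an element `γ` with `γ ^ jOrd z = -1`. -/
theorem exists_stabilizer_generator (z : ℍ) :
    ∃ γ : SL(2, ℤ), MulAction.stabilizer SL(2, ℤ) z = Subgroup.zpowers γ ∧
      γ ^ jOrd z = -1 := by
  obtain ⟨γ₀, g₀, hm, -, hs⟩ := stab_exists_generator z
  refine ⟨γ₀ * g₀ * γ₀⁻¹, hs, ?_⟩
  rw [conj_pow, hm.pow_eq, stab_conj_neg_one]

/-! ### Normal subgroups contained in `Γ₀(N)` -/

theorem stab_zpow_eq_pow {g : SL(2, ℤ)} {n : ℕ} (hn : 0 < n) (ho : orderOf g = n) (k : ℤ) :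
    ∃ r : ℕ, r < n ∧ g ^ k = g ^ r := by
  have hn' : (n : ℤ) ≠ 0 := by exact_mod_cast hn.ne'
  refine ⟨(k % n).toNat, ?_, ?_⟩
  · have h1 : k % (n : ℤ) < n := Int.emod_lt_of_pos k (by exact_mod_cast hn)
    have h2 : 0 ≤ k % (n : ℤ) := Int.emod_nonneg k hn'
    omega
  · have h2 : 0 ≤ k % (n : ℤ) := Int.emod_nonneg k hn'
    rw [← zpow_natCast, Int.toNat_of_nonneg h2, ← ho, zpow_mod_orderOf]

/-- Powers of a model generator are `±1` or have lower-left entry `±1`. -/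
theorem StabModel.zpow_cases {g₀ : SL(2, ℤ)} {m : ℕ} (h : StabModel g₀ m) (k : ℤ) :
    g₀ ^ k = 1 ∨ g₀ ^ k = -1 ∨
      ((g₀ ^ k : SL(2, ℤ)) : Matrix (Fin 2) (Fin 2) ℤ) 1 0 = 1 ∨
      ((g₀ ^ k : SL(2, ℤ)) : Matrix (Fin 2) (Fin 2) ℤ) 1 0 = -1 := by
  rcases h with ⟨rfl, rfl⟩ | ⟨rfl, rfl⟩ | ⟨rfl, rfl⟩
  · obtain ⟨r, hr, hk⟩ := stab_zpow_eq_pow (by norm_num) stab_orderOf_neg_one k
    rw [hk]
    interval_cases r
    · exact Or.inl (pow_zero _)
    · exact Or.inr (Or.inl (pow_one _))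
  · obtain ⟨r, hr, hk⟩ := stab_zpow_eq_pow (by norm_num) stab_orderOf_S k
    rw [hk]
    interval_cases r
    · exact Or.inl (pow_zero _)
    · refine Or.inr (Or.inr (Or.inl ?_))
      rw [pow_one, coe_S]
      rfl
    · exact Or.inr (Or.inl stab_S_sq)
    · refine Or.inr (Or.inr (Or.inr ?_))
      rw [pow_succ, stab_S_sq, Matrix.SpecialLinearGroup.coe_mul, coe_S]
      simp [Matrix.mul_apply, Fin.sum_univ_two]
  · obtain ⟨r, hr, hk⟩ := stab_zpow_eq_pow (by norm_num) stab_orderOf_ST k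
    rw [hk]
    interval_cases r
    · exact Or.inl (pow_zero _)
    · refine Or.inr (Or.inr (Or.inl ?_))
      rw [pow_one, stab_ST_val]
      rfl
    · refine Or.inr (Or.inr (Or.inl ?_))
      rw [stab_ST_sq_val]
      rfl
    · exact Or.inr (Or.inl stab_ST_cube)
    · refine Or.inr (Or.inr (Or.inr ?_))
      rw [pow_succ, stab_ST_cube, Matrix.SpecialLinearGroup.coe_mul, stab_ST_val]
      simp [Matrix.mul_apply, Fin.sum_univ_two]
    · refine Or.inr (Or.inr (Or.inr ?_))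
      rw [show (5 : ℕ) = 3 + 2 by norm_num, pow_add, stab_ST_cube,
        Matrix.SpecialLinearGroup.coe_mul, stab_ST_sq_val]
      simp [Matrix.mul_apply, Fin.sum_univ_two]

/-- If `1 < N`, no nontrivial element of a stabiliser lies in all conjugates of `Γ₀(N)`:
a normal subgroup contained in `Γ₀(N)` meets every stabiliser in `{±1}`. -/
theorem eq_one_or_neg_one_of_mem_normal (N : ℕ) (hN : 1 < N) (Q : Subgroup SL(2, ℤ)) [Q.Normal]
    (hQ : Q ≤ CongruenceSubgroup.Gamma0 N) (z : ℍ) (γ : SL(2, ℤ)) (hγ : γ • z = z)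
    (hγQ : γ ∈ Q) : γ = 1 ∨ γ = -1 := by
  obtain ⟨γ₀, g₀, hm, -, hs⟩ := stab_exists_generator z
  have hmem : γ ∈ Subgroup.zpowers (γ₀ * g₀ * γ₀⁻¹) := by
    rw [← hs]
    exact MulAction.mem_stabilizer_iff.mpr hγ
  obtain ⟨k, hk⟩ := Subgroup.mem_zpowers_iff.mp hmem
  rw [conj_zpow] at hk
  -- `g₀ ^ k` lies in `Q`
  have hconj : g₀ ^ k = γ₀⁻¹ * γ * γ₀⁻¹⁻¹ := by
    rw [← hk]
    group
  have hQk : g₀ ^ k ∈ Q := by
    rw [hconj]
    exact Subgroup.Normal.conj_mem inferInstance γ hγQ γ₀⁻¹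
  have hΓ := (CongruenceSubgroup.Gamma0_mem).mp (hQ hQk)
  have : Fact (1 < N) := ⟨hN⟩
  rcases hm.zpow_cases k with h | h | h | h
  · left
    rw [← hk, h, mul_one, mul_inv_cancel]
  · right
    rw [← hk, h, stab_conj_neg_one]
  · exfalso
    rw [h] at hΓ
    simp at hΓ
  · exfalso
    rw [h] at hΓ
    simp at hΓ

end Fermat.Agent.GTor.Clo

end
end
-- ==== END Fermat.Agent.GTor.Clo.Stab
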