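-- GENERATED (merged mirror, NOTES/tools/trim/merge3_helper67.py): 9 modules of the originals, bodies verbatim.
import Mathlib
import Fermat.Agent.Zm.S35_L04_002
import Fermat.Agent.Zm.S35_L04_001
import Fermat.Agent.GTor.H2_Equivariance
import Fermat.Agent.Zm.S35_L01_000
import Fermat.Agent.Zm.S35_L02_000
import Fermat.Agent.Zm.S35_L02_004
import Fermat.Agent.Zm.S35_L03_004
import Fermat.Agent.Zm.S35_L04_005
import Fermat.Agent.Zm.S35_L02_001

-- ==== BEGIN Fermat.Agent.BAD.H94_SepLift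
section

/-!
# BAD_q, package SIGMA, leaf Σ3 (helper94): the separating lift

Abstract over helper17's `RedSetup S` (with `S.GenusLE'`, `FFHyp` on both sides and Riemann's theorem
`IsGenus k F' g' c'` on the reduced side): for a place `P₀` of `F` and two distinct places
`w₁ ≠ w₂` of the reduced field, both different from `S.r P₀`, there is a Gauss-integral function
`x` of `F` whose only pole is at `P₀` and whose reduction vanishes at `w₁` and does not vanish at
`w₂`.

Proof: `D = n P₀`, `r_* D = n z₀` (`z₀ = S.r P₀`); Riemann gives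
`y ∈ L(n z₀ - w₁) \ L(n z₀ - w₁ - w₂)` for `n` large; `RedSetup.exists_lift`.
-/

set_option autoImplicit false
set_option linter.style.haveILetI false

noncomputable section

open AlgebraicCurve

attribute [local instance] Classical.propDecidable

namespace Fermat.Agent.BAD.H94

open Fermat.Agent.RED.H17

local notation "L" => riemannRochSpace

variable {k F' : Type*} [Field k] [Field F'] [Algebra k F']

/-- Riemann: for `n` large there is `y ∈ L(n z₀)` vanishing at `w₁` and not at `w₂`. -/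
theorem exists_sep_function (H' : FFHyp k F') {g' : ℕ} {c' : ℤ} (hg : IsGenus k F' g' c')
    (z₀ : Place k F') {w₁ w₂ : Place k F'} (h12 : w₁ ≠ w₂) (h1 : w₁ ≠ z₀) (h2 : w₂ ≠ z₀)
    (n : ℤ) (hn : c' + 2 ≤ n) :
    ∃ y : F', y ∈ L (Finsupp.single z₀ n : Divisor k F') ∧ y ≠ 0 ∧ 0 < w₁.ord y ∧
      w₂.ord y = 0 := by
  set D₁ : Divisor k F' := Finsupp.single z₀ n - Finsupp.single w₁ 1 with hD₁
  set D₂ : Divisor k F' := D₁ - Finsupp.single w₂ 1 with hD₂
  have hdeg1 : Divisor.degree D₁ = n - 1 := by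
    rw [hD₁, map_sub, Divisor.degree_single, Divisor.degree_single, H'.deg_one, H'.deg_one]
    push_cast
    ring
  have hdeg2 : Divisor.degree D₂ = n - 2 := by
    rw [hD₂, map_sub, hdeg1, Divisor.degree_single, H'.deg_one]
    push_cast
    ring
  have hl1 := (hg D₁).2 (by rw [hdeg1]; omega)
  have hl2 := (hg D₂).2 (by rw [hdeg2]; omega)
  rw [hdeg1] at hl1
  rw [hdeg2] at hl2
  have hle : L D₂ ≤ L D₁ := by
    refine L_mono' fun v => ?_
    rw [hD₂, Finsupp.sub_apply, Finsupp.single_apply]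
    split_ifs <;> omega
  have hlt : L D₂ < L D₁ := by
    refine lt_of_le_of_ne hle fun heq => ?_
    rw [heq] at hl2
    omega
  obtain ⟨y, hy1, hy2⟩ := SetLike.exists_of_lt hlt
  have hy0 : y ≠ 0 := fun h => hy2 (h ▸ (L D₂).zero_mem)
  have hD₁z : ∀ v, D₁ v ≤ (Finsupp.single z₀ n : Divisor k F') v := by
    intro v
    rw [hD₁, Finsupp.sub_apply, Finsupp.single_apply, Finsupp.single_apply]
    split_ifs <;> omega
  have hw1 : D₁ w₁ = -1 := by
    rw [hD₁, Finsupp.sub_apply, Finsupp.single_apply, Finsupp.single_apply,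
      if_neg (Ne.symm h1), if_pos rfl]
    omega
  have hw2 : D₁ w₂ = 0 := by
    rw [hD₁, Finsupp.sub_apply, Finsupp.single_apply, Finsupp.single_apply,
      if_neg (Ne.symm h2), if_neg h12]
    omega
  refine ⟨y, L_mono' hD₁z hy1, hy0, ?_, ?_⟩
  · have := ord_ge_of_mem_L hy1 hy0 w₁
    rw [hw1] at this
    omega
  · have h3 := ord_ge_of_mem_L hy1 hy0 w₂
    rw [hw2] at h3
    by_contra hne
    apply hy2
    rw [mem_L_iff_ord]
    intro v
    right
    by_cases hv : v = w₂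
    · subst hv
      rw [hD₂, Finsupp.sub_apply, hw2, Finsupp.single_apply, if_pos rfl]
      omega
    · have h4 := ord_ge_of_mem_L hy1 hy0 v
      rw [hD₂, Finsupp.sub_apply, Finsupp.single_apply, if_neg (Ne.symm hv)]
      omega

variable {K F : Type*} [Field K] [Field F] [Algebra K F]

/-- **Σ3 (separating lift).** -/
theorem exists_sep_lift (S : RedSetup K F k F') (H : FFHyp K F) (H' : FFHyp k F') [Infinite k]
    (hG : S.GenusLE') {g' : ℕ} {c' : ℤ} (hg : IsGenus k F' g' c')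
    (P₀ : Place K F) {w₁ w₂ : Place k F'} (h12 : w₁ ≠ w₂) (h1 : w₁ ≠ S.r P₀)
    (h2 : w₂ ≠ S.r P₀) :
    ∃ x : F, x ∈ S.V ∧ (∀ P : Place K F, P ≠ P₀ → 0 ≤ P.ord x) ∧
      VanAt w₁ (S.rd x) ∧ ¬ VanAt w₂ (S.rd x) := by
  obtain ⟨c, hc⟩ := hG
  set n : ℤ := max c (c' + 2) with hn
  have hnc : c ≤ n := le_max_left _ _
  have hnc' : c' + 2 ≤ n := le_max_right _ _
  set D : Divisor K F := Finsupp.single P₀ n with hD
  have hrD : Finsupp.mapDomain S.r D = Finsupp.single (S.r P₀) n := by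
    rw [hD, Finsupp.mapDomain_single]
  have hdegD : c ≤ Divisor.degree D := by
    rw [hD, Divisor.degree_single, H.deg_one, Nat.cast_one, mul_one]
    exact hnc
  obtain ⟨y, hy, hy0, hyw1, hyw2⟩ := exists_sep_function H' hg (S.r P₀) h12 h1 h2 n hnc'
  rw [← hrD] at hy
  obtain ⟨u, hu, huD, huy⟩ := S.exists_lift H H' (hc D hdegD) hy
  have hu0 : u ≠ 0 := by
    rintro rfl
    rw [S.rd_zero] at huy
    exact hy0 huy.symm
  refine ⟨u, hu, fun P hP => ?_, ?_, ?_⟩
  · have h3 := ord_ge_of_mem_L huD hu0 P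
    rw [hD, Finsupp.single_apply, if_neg (Ne.symm hP)] at h3
    omega
  · rw [huy]
    exact vanAt_of_ord_pos hyw1
  · rw [huy, vanAt_iff_ord]
    rintro (h | h)
    · exact hy0 h
    · omega

/-- Variant with a prescribed value at `w₁`: the reduction of `x` takes the value `a` at `w₁`
and a different value at `w₂` (used with the test function `x - a`). -/
theorem exists_sep_lift_val (S : RedSetup K F k F') (H : FFHyp K F) (H' : FFHyp k F')
    [Infinite k] (hG : S.GenusLE') {g' : ℕ} {c' : ℤ} (hg : IsGenus k F' g' c')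
    (P₀ : Place K F) {w₁ w₂ : Place k F'} (h12 : w₁ ≠ w₂) (h1 : w₁ ≠ S.r P₀)
    (h2 : w₂ ≠ S.r P₀) :
    ∃ (x : F) (a : k), x ∈ S.V ∧ (∀ P : Place K F, P ≠ P₀ → 0 ≤ P.ord x) ∧
      VanAt w₁ (S.rd x - algebraMap k F' a) ∧ ¬ VanAt w₂ (S.rd x - algebraMap k F' a) := by
  obtain ⟨x, hx, hreg, hv1, hv2⟩ := exists_sep_lift S H H' hG hg P₀ h12 h1 h2
  exact ⟨x, 0, hx, hreg, by rwa [map_zero, sub_zero], by rwa [map_zero, sub_zero]⟩

end Fermat.Agent.BAD.H94

end
end
-- ==== END Fermat.Agent.BAD.H94_SepLift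

-- ==== BEGIN Fermat.Agent.GTor.H2_GalHecke
section
attribute [local instance 10000] SubalgebraClass.toAlgebra
attribute [local instance 10000] HahnSeries.powerSeriesAlgebra

/-!
# Cluster G, part TOR (helper2): `Stmt_GalHecke N`

The Hecke operators `T_ℓ = α_* β^*` of `J₀(N)` commute with the Galois action: the degeneracy
maps `α` (inclusion) and `β` (`q ↦ q^ℓ`) commute with the action of `Gal(ℚ̄/ℚ)` on the
coefficients of Laurent series.
-/

set_option autoImplicit false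
set_option linter.unusedSectionVars false
set_option linter.style.haveILetI false
set_option linter.dupNamespace false

noncomputable section

namespace Fermat.Agent.GTor.H2

open AlgebraicCurve AlgebraicCurve.SemilinearAut ModularCurve

section Intertwine

variable {L : Type*} [Field L] [Algebra ℚ L] (N ℓ : ℕ) [NeZero N] [NeZero ℓ]

/-- `qExpand` commutes with maps on coefficients. -/
theorem coeffMap_qExpand {R S : Type*} [CommRing R] [CommRing S] (f : R →+* S) (n : ℕ)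
    [NeZero n] (x : LaurentSeries R) : coeffMap f (qExpand R n x) = qExpand S n (coeffMap f x) := by
  ext k
  by_cases hk : (n : ℤ) ∣ k
  · obtain ⟨m, rfl⟩ := hk
    rw [coeffMap_coeff, qExpand_coeff_mul, qExpand_coeff_mul, coeffMap_coeff]
  · rw [coeffMap_coeff, qExpand_coeff_of_not_dvd n _ hk, qExpand_coeff_of_not_dvd n _ hk,
      map_zero]

/-- The degeneracy map `α` commutes with the arithmetic Galois action. -/
theorem intertwines_heckeAlphaBar (σ : L ≃ₐ[ℚ] L) :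
    IntertwinesAlong ((heckeAlphaBar L N ℓ : _ →ₐ[L] _) : _ →+* _)
      (arithmeticGalois (modularFunctionFieldFull N) σ)
      (arithmeticGalois (modularFunctionFieldFull (N * ℓ)) σ) := by
  intro x
  apply Subtype.ext
  rw [coe_arithmeticGalois_smul]
  show coeffMap (σ : L →+* L) ((heckeAlphaBar L N ℓ x : _) : LaurentSeries L) =
    ((heckeAlphaBar L N ℓ (arithmeticGalois (modularFunctionFieldFull N) σ • x) : _) :
      LaurentSeries L)
  rw [coe_heckeAlphaBar, coe_heckeAlphaBar, coe_arithmeticGalois_smul]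

/-- The degeneracy map `β` commutes with the arithmetic Galois action. -/
theorem intertwines_heckeBetaBar (σ : L ≃ₐ[ℚ] L) :
    IntertwinesAlong ((heckeBetaBar L N ℓ : _ →ₐ[L] _) : _ →+* _)
      (arithmeticGalois (modularFunctionFieldFull N) σ)
      (arithmeticGalois (modularFunctionFieldFull (N * ℓ)) σ) := by
  intro x
  apply Subtype.ext
  rw [coe_arithmeticGalois_smul]
  show coeffMap (σ : L →+* L) ((heckeBetaBar L N ℓ x : _) : LaurentSeries L) =
    ((heckeBetaBar L N ℓ (arithmeticGalois (modularFunctionFieldFull N) σ • x) : _) :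
      LaurentSeries L)
  rw [coe_heckeBetaBar, coe_heckeBetaBar, coe_arithmeticGalois_smul, coeffMap_qExpand]

/-- The Hecke operator along `L` commutes with the Galois action. -/
theorem heckeOperatorAlong_smul (σ : L ≃ₐ[ℚ] L)
    (x : Pic0 L (laurentBaseChange L (modularFunctionFieldFull N))) :
    heckeOperatorAlong L N ℓ (σ • x) = σ • heckeOperatorAlong L N ℓ x := by
  by_cases hI : HeckeInputsAlong L N ℓ
  · obtain ⟨hα, hβ, hP, hfin, hFI, hN⟩ := hI
    rw [heckeOperatorAlong_eq hα hβ hFI hfin hN, galois_smul_pic0_def, galois_smul_pic0_def]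
    exact pic0_correspondence_smul _ _ _ _ hβ hα hFI hfin hN
      (intertwines_heckeBetaBar N ℓ σ) (intertwines_heckeAlphaBar N ℓ σ) x
  · rw [heckeOperatorAlong_of_not hI, AddMonoidHom.zero_apply, AddMonoidHom.zero_apply,
      smul_zero]

end Intertwine

/-- **GalHecke.** -/
theorem stmt_GalHecke (N : ℕ) [NeZero N] : Stmt_GalHecke N := by
  intro ℓ σ x
  haveI : NeZero (ℓ : ℕ) := ⟨ℓ.2.ne_zero⟩
  rw [heckeOperatorBar_apply, heckeOperatorBar_apply]
  exact (heckeOperatorAlong_smul N (ℓ : ℕ) σ x).symm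

end Fermat.Agent.GTor.H2

end
end
-- ==== END Fermat.Agent.GTor.H2_GalHecke

-- ==== BEGIN Fermat.Agent.GTor.H2_HKalg
section
attribute [local instance 10000] SubalgebraClass.toAlgebra
attribute [local instance 10000] HahnSeries.powerSeriesAlgebra

/-!
# G-TOR, package HK-alg (helper2): wiring of `Stmt_HK`

`x = [D]`, `n D = div f`.  Then `T_ℓ x = [α_* β^* D]` (prelude `Pic0.correspondence β α`) and
`n · α_* β^* D = α_* β^* div f = α_* div (β f) = div (Norm_α (β f))`.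

* `heckeNormFn L N ℓ f` : the Kummer function `Norm_α (β f) ∈ F_L(N)` of `T_ℓ x`.
* `Stmt_HKC N n` : the combined analytic input: if `f'` is the base change of `f` along `ι` and
  `f'` has character `φ`, then the base change of `heckeNormFn f` has character `T_ℓ^B φ`.
* `hk_of_HKC : HeckeInputsAlong → Stmt_HKC N n → Stmt_HK N n`.
-/

set_option autoImplicit false
set_option linter.style.haveILetI false
set_option linter.unusedSectionVars false
set_option linter.dupNamespace false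

noncomputable section

namespace Fermat.Agent.GTor.H2

open AlgebraicCurve ModularCurve

/-- The Kummer function of `T_ℓ x`: the norm along `α : F_N → F_{Nℓ}` (inclusion) of
`β f = f(q^ℓ)`. -/
def heckeNormFn (L : Type) [Field L] [Algebra ℚ L] (N ℓ : ℕ) [NeZero N] [NeZero ℓ]
    (f : FNL L N) : FNL L N :=
  letI := algebraAlong (heckeAlphaBar L N ℓ)
  Algebra.norm (FNL L N) (heckeBetaBar L N ℓ f)

theorem heckeNormFn_ne_zero (L : Type) [Field L] [Algebra ℚ L] (N ℓ : ℕ) [NeZero N] [NeZero ℓ]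
    (hfin : FiniteAlong L (heckeAlphaBar L N ℓ)) {f : FNL L N} (hf : f ≠ 0) :
    heckeNormFn L N ℓ f ≠ 0 := by
  letI := algebraAlong (heckeAlphaBar L N ℓ)
  haveI : Module.Finite (FNL L N) (FNL L (N * ℓ)) := hfin
  have h : heckeBetaBar L N ℓ f ≠ 0 := by
    intro h0
    exact hf ((heckeBetaBar L N ℓ).toRingHom.injective (by simpa using h0))
  exact Algebra.norm_ne_zero_iff.mpr h

/-- `n • correspondence D = div (Norm_α (β f))` if `n • D = div f`. -/
theorem correspondence_ord (L : Type) [Field L] [Algebra ℚ L] (N ℓ : ℕ) [NeZero N] [NeZero ℓ]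
    (hα : HeckeAlphaBarIntegral L N ℓ) (hβ : HeckeBetaBarIntegral L N ℓ)
    [HasPrincipalDivisors L (laurentBaseChange L (modularFunctionFieldFull (N * ℓ)))]
    (hfin : FiniteAlong L (heckeAlphaBar L N ℓ))
    (hN : NormFormulaAlong L (heckeAlphaBar L N ℓ) hfin)
    (n : ℤ) (D : Divisor L (FNL L N)) {f : FNL L N} (hf : f ≠ 0)
    (hD : ∀ v : Place L (FNL L N), n * D v = v.ord f) (v : Place L (FNL L N)) :
    n * Divisor.correspondence (heckeBetaBar L N ℓ) (heckeAlphaBar L N ℓ) hβ hα D v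
      = v.ord (heckeNormFn L N ℓ f) := by
  have hE : ∀ v : Place L (FNL L N), (n • D) v = v.ord f := fun v => by
    rw [Finsupp.smul_apply, smul_eq_mul, hD v]
  have h1 : ∀ w : Place L (FNL L (N * ℓ)),
      Divisor.pullbackAlong (heckeBetaBar L N ℓ) hβ (n • D) w
        = w.ord (heckeBetaBar L N ℓ f) := by
    intro w
    letI := algebraAlong (heckeBetaBar L N ℓ)
    haveI := isScalarTower_along (heckeBetaBar L N ℓ)
    haveI := isIntegral_along (heckeBetaBar L N ℓ) hβ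
    exact Divisor.pullback_apply_eq_ord hE w
  have hβf : heckeBetaBar L N ℓ f ≠ 0 := by
    intro h0
    exact hf ((heckeBetaBar L N ℓ).toRingHom.injective (by simpa using h0))
  have h2 : Divisor.pushforwardAlong (heckeAlphaBar L N ℓ) hα
      (Divisor.pullbackAlong (heckeBetaBar L N ℓ) hβ (n • D)) v
        = v.ord (heckeNormFn L N ℓ f) := by
    letI := algebraAlong (heckeAlphaBar L N ℓ)
    haveI := isScalarTower_along (heckeAlphaBar L N ℓ)
    haveI := isIntegral_along (heckeAlphaBar L N ℓ) hα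
    haveI : Module.Finite (FNL L N) (FNL L (N * ℓ)) := hfin
    exact hN _ hβf _ h1 v
  have h3 : Divisor.correspondence (heckeBetaBar L N ℓ) (heckeAlphaBar L N ℓ) hβ hα (n • D)
      = n • Divisor.correspondence (heckeBetaBar L N ℓ) (heckeAlphaBar L N ℓ) hβ hα D :=
    map_zsmul _ n D
  rw [← h2, ← Divisor.correspondence_apply, h3, Finsupp.smul_apply, smul_eq_mul]

/-- **HKC**: the combined analytic input of HK-alg (hk_an + the norm series + base change). -/
def Stmt_HKC (N n : ℕ) [NeZero N] : Prop :=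
  ∀ (ι : AlgebraicClosure ℚ →+* ℂ) (ℓ : ℕ) (hℓ : ℓ.Prime) (hℓN : ¬ ℓ ∣ N)
    (f : FNL (AlgebraicClosure ℚ) N) (f' : FNL ℂ N)
    (φ : Additive (CongruenceSubgroup.Gamma0 N) →+ ZMod n),
    f ≠ 0 →
    (∀ m : ℤ, (f' : LaurentSeries ℂ).coeff m
      = ι ((f : LaurentSeries (AlgebraicClosure ℚ)).coeff m)) →
    HasChar N n f' φ →
    ∃ g' : FNL ℂ N,
      (∀ m : ℤ, (g' : LaurentSeries ℂ).coeff m
        = ι (((haveI : NeZero ℓ := ⟨hℓ.ne_zero⟩; heckeNormFn (AlgebraicClosure ℚ) N ℓ f :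
            FNL (AlgebraicClosure ℚ) N) : LaurentSeries (AlgebraicClosure ℚ)).coeff m)) ∧
      HasChar N n g' (Betti.TB N (ZMod n) hℓ hℓN φ)

/-- **HK-alg, wiring**: `Stmt_HK` from the Hecke inputs (HK-A) and `Stmt_HKC`. -/
theorem hk_of_HKC (N n : ℕ) [NeZero N]
    (hIn : ∀ (ℓ : ℕ) [NeZero ℓ], HeckeInputsAlong (AlgebraicClosure ℚ) N ℓ)
    (hC : Stmt_HKC N n) : Stmt_HK N n := by
  rintro ι ℓ hℓ hℓN x φ ⟨D, f, f', hf, hx, hord, hco, hch⟩
  haveI : NeZero ℓ := ⟨hℓ.ne_zero⟩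
  obtain ⟨hα, hβ, hP, hfin, hFI, hN⟩ := hIn ℓ
  obtain ⟨g', hg', hch'⟩ := hC ι ℓ hℓ hℓN f f' φ hf hco hch
  refine ⟨Pic0.degZeroCorrespondence (heckeBetaBar _ N ℓ) (heckeAlphaBar _ N ℓ) hβ hα hFI D,
    heckeNormFn _ N ℓ f, g', heckeNormFn_ne_zero _ N ℓ hfin hf, ?_, ?_, hg', hch'⟩
  · rw [heckeOperatorBar_apply, heckeOperatorAlong_eq hα hβ hFI hfin hN, hx]
    rfl
  · intro v
    rw [Pic0.coe_degZeroCorrespondence]
    exact correspondence_ord _ N ℓ hα hβ hfin hN (n : ℤ) _ hf hord v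

end Fermat.Agent.GTor.H2

end
end
-- ==== END Fermat.Agent.GTor.H2_HKalg

-- ==== BEGIN Fermat.Agent.GTor.H33_Curve
section

/-!
# Cluster G-TOR, package CURVE (helper33), generic part

`K` algebraically closed of characteristic `0`, `F / K` a function field of one variable
(`x : F` transcendental over `K`, `F / K(x)` finite).  Then

* `hasPrincipalDivisors_of_finite`: `HasPrincipalDivisors K F`;
* `exists_algebraMap_eq_of_forall_ord_eq_zero`: a function without zeros and poles is constant;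
* `stmt_KUM_of_finite`: `Stmt_KUM K F n` for `n ≠ 0`.
-/

set_option autoImplicit false

noncomputable section

namespace Fermat.Agent.GTor.H33

open AlgebraicCurve IntermediateField Fermat.Agent.GTor Fermat.Agent.S24

variable {K F : Type*} [Field K] [Field F] [Algebra K F] [IsAlgClosed K] [CharZero K]

/-- Principal divisors exist and have degree `0`. -/
theorem hasPrincipalDivisors_of_finite (x : F) (hx : Transcendental K x)
    [FiniteDimensional K⟮x⟯ F] : HasPrincipalDivisors K F := by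
  refine ⟨fun f hf => ?_⟩
  obtain ⟨hfin, hdeg⟩ := ff_degree_principal x hx f hf
  have hsupp : (Function.support fun v : Place K F => v.ord f).Finite := hfin
  refine ⟨Finsupp.ofSupportFinite (fun v : Place K F => v.ord f) hsupp, fun v => rfl, ?_⟩
  exact hdeg _ fun v => rfl

/-- An element algebraic over an algebraically closed field of constants is a constant. -/
theorem exists_algebraMap_eq_of_isAlgebraic {f : F} (hf : IsAlgebraic K f) :
    ∃ c : K, algebraMap K F c = f := by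
  have hint : IsIntegral K f := hf.isIntegral
  have hdeg1 : (minpoly K f).degree = 1 :=
    IsAlgClosed.degree_eq_one_of_irreducible K (minpoly.irreducible hint)
  exact minpoly.mem_range_of_degree_eq_one K f hdeg1

/-- A function without zeros and poles is constant. -/
theorem exists_algebraMap_eq_of_forall_ord_eq_zero (x : F) (hx : Transcendental K x)
    [FiniteDimensional K⟮x⟯ F] (f : F) (_hf : f ≠ 0) (h : ∀ v : Place K F, v.ord f = 0) :
    ∃ c : K, algebraMap K F c = f := by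
  by_contra hcon
  have htr : Transcendental K f := fun halg =>
    hcon (exists_algebraMap_eq_of_isAlgebraic halg)
  haveI : FiniteDimensional K⟮f⟯ F := ff_finite_of_transcendental x hx f htr
  obtain ⟨-, hsum⟩ := ff_zeros (K := K) f htr
  have hempty : {v : Place K F | 0 < v.ord f} = ∅ := by
    ext v
    simp only [Set.mem_setOf_eq, Set.mem_empty_iff_false, iff_false, not_lt]
    rw [h v]
  rw [hempty, finsum_mem_empty] at hsum
  have hpos : 0 < Module.finrank K⟮f⟯ F := Module.finrank_pos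
  have : (Module.finrank K⟮f⟯ F : ℤ) = 0 := hsum.symm
  omega

/-- **KUM** for a function field of one variable over an algebraically closed field of
characteristic `0`. -/
theorem stmt_KUM_of_finite (x : F) (hx : Transcendental K x) [FiniteDimensional K⟮x⟯ F]
    {n : ℕ} (hn : n ≠ 0) : Stmt_KUM K F n :=
  haveI := hasPrincipalDivisors_of_finite x hx
  stmt_KUM hn (exists_algebraMap_eq_of_forall_ord_eq_zero x hx)

end Fermat.Agent.GTor.H33

end
end
-- ==== END Fermat.Agent.GTor.H33_Curve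

-- ==== BEGIN Fermat.Agent.GTor.H58_T1
section

/-!
# G-TOR package T1 (helper58): a Tate system gives the Tate piece of every eigensystem
(pure algebra).
-/

set_option autoImplicit false
set_option linter.unusedSectionVars false

noncomputable section

namespace Fermat.Agent.GTor.H58T1

open Fermat.Agent.GTor

/-! ## 1. Limits in an adically complete ring -/

section Limit

variable {𝒪 : Type} [CommRing 𝒪] (I : Ideal 𝒪) [IsAdicComplete I 𝒪]

/-- The projection `𝒪 → 𝒪 / I^k`. -/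
abbrev piK (k : ℕ) : 𝒪 →+* 𝒪 ⧸ I ^ k := Ideal.Quotient.mk (I ^ k)

lemma smodEq_iff {k : ℕ} {x y : 𝒪} :
    x ≡ y [SMOD (I ^ k • ⊤ : Submodule 𝒪 𝒪)] ↔ piK I k x = piK I k y := by
  rw [SModEq.sub_mem, smul_eq_mul, Ideal.mul_top, ← Ideal.Quotient.eq]

lemma eq_of_forall_piK {x y : 𝒪} (h : ∀ k, piK I k x = piK I k y) : x = y := by
  have h1 : x - y = 0 := by
    apply (IsAdicComplete.toIsHausdorff (I := I) (M := 𝒪)).haus
    intro n
    rw [smodEq_iff, map_sub, h n, sub_self, map_zero]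
  exact sub_eq_zero.mp h1

lemma exists_limit (f : ℕ → 𝒪) (hf : ∀ k, piK I k (f (k + 1)) = piK I k (f k)) :
    ∃ L : 𝒪, ∀ k, piK I k L = piK I k (f k) := by
  have hmn : ∀ m n, m ≤ n → piK I m (f m) = piK I m (f n) := by
    intro m n hmn
    induction n, hmn using Nat.le_induction with
    | base => rfl
    | succ n hn ih =>
      rw [ih]
      have h1 := hf n
      -- reduce mod `I^m ⊇ I^n`
      have h2 : f (n + 1) - f n ∈ I ^ n := by
        rw [← Ideal.Quotient.eq]; exact h1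
      have h3 : f (n + 1) - f n ∈ I ^ m := Ideal.pow_le_pow_right hn h2
      exact ((Ideal.Quotient.eq).mpr h3).symm
  obtain ⟨L, hL⟩ := (IsAdicComplete.toIsPrecomplete (I := I) (M := 𝒪)).prec
    (f := f) (fun {m n} h => (smodEq_iff I).mpr (hmn m n h))
  exact ⟨L, fun k => ((smodEq_iff I).mp (hL k)).symm⟩

variable (p : ℕ) [Fact p.Prime] (hp : (p : 𝒪) ∈ I)

include hp in
lemma natCast_pow_eq_zero (k : ℕ) : (((p ^ k : ℕ) : ℕ) : 𝒪 ⧸ I ^ k) = 0 := by
  have : ((p ^ k : ℕ) : 𝒪) ∈ I ^ k := by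
    push_cast
    exact Ideal.pow_mem_pow hp k
  rw [← map_natCast (piK I k)]
  exact Ideal.Quotient.eq_zero_iff_mem.mpr this

/-- The canonical map `ℤ/p^k → 𝒪/I^k`. -/
def cK (k : ℕ) : ZMod (p ^ k) →+* 𝒪 ⧸ I ^ k :=
  ZMod.castHom (ringChar.dvd (natCast_pow_eq_zero I p hp k)) (𝒪 ⧸ I ^ k)

lemma cK_val (k : ℕ) (x : ZMod (p ^ k)) :
    cK I p hp k x = piK I k ((x.val : ℕ) : 𝒪) := by
  conv_lhs => rw [← ZMod.natCast_zmod_val x]
  rw [map_natCast, map_natCast]

lemma cK_compat (k : ℕ) (x : ZMod (p ^ (k + 1))) :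
    cK I p hp k (ZMod.castHom (pow_dvd_pow p (Nat.le_succ k)) (ZMod (p ^ k)) x) =
      piK I k ((x.val : ℕ) : 𝒪) := by
  conv_lhs => rw [← ZMod.natCast_zmod_val x]
  rw [map_natCast, map_natCast, map_natCast]

/-- The limit of a compatible sequence. -/
lemma exists_limit_zmod (x : ∀ k : ℕ, ZMod (p ^ k))
    (hx : ∀ k, ZMod.castHom (pow_dvd_pow p (Nat.le_succ k)) (ZMod (p ^ k)) (x (k + 1)) = x k) :
    ∃ L : 𝒪, ∀ k, piK I k L = cK I p hp k (x k) := by
  obtain ⟨L, hL⟩ := exists_limit I (fun k => (((x k).val : ℕ) : 𝒪)) (fun k => by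
    rw [← cK_compat I p hp k (x (k + 1)), hx k, cK_val])
  exact ⟨L, fun k => by rw [hL k, cK_val]⟩

/-! ### The limit representation -/

variable {G : Type} [Group G] {r : ℕ}

lemma matrix_eq_of_forall_piK {X Y : Matrix (Fin r) (Fin r) 𝒪}
    (h : ∀ k, (piK I k).mapMatrix X = (piK I k).mapMatrix Y) : X = Y := by
  ext i j
  apply eq_of_forall_piK I
  intro k
  have := congrFun (congrFun (h k) i) j
  simpa [RingHom.mapMatrix_apply, Matrix.map_apply] using this

/-- The limit of a compatible system of matrix representations. -/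
theorem exists_limit_rep (ρ : ∀ k : ℕ, G →* Matrix (Fin r) (Fin r) (ZMod (p ^ k)))
    (compat : ∀ (k : ℕ) (σ : G) (i j : Fin r),
      ((ZMod.castHom (pow_dvd_pow p (Nat.le_succ k)) (ZMod (p ^ k))) (ρ (k + 1) σ i j))
        = ρ k σ i j) :
    ∃ ρ' : G →* Matrix (Fin r) (Fin r) 𝒪, ∀ k σ,
      (piK I k).mapMatrix (ρ' σ) = (cK I p hp k).mapMatrix (ρ k σ) := by
  have hex : ∀ (σ : G) (i j : Fin r), ∃ L : 𝒪, ∀ k, piK I k L = cK I p hp k (ρ k σ i j) :=
    fun σ i j => exists_limit_zmod I p hp (fun k => ρ k σ i j) (fun k => compat k σ i j)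
  choose L hL using hex
  have key : ∀ k σ, (piK I k).mapMatrix (Matrix.of (L σ)) = (cK I p hp k).mapMatrix (ρ k σ) := by
    intro k σ
    ext i j
    simp only [RingHom.mapMatrix_apply, Matrix.map_apply, Matrix.of_apply]
    exact hL σ i j k
  refine ⟨{ toFun := fun σ => Matrix.of (L σ), map_one' := ?_, map_mul' := ?_ }, key⟩
  · apply matrix_eq_of_forall_piK I
    intro k
    rw [key, map_one, map_one, map_one]
  · intro σ τ
    apply matrix_eq_of_forall_piK I
    intro k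
    rw [key, map_mul, map_mul (piK I k).mapMatrix, key, key, map_mul]

end Limit

/-! ## 2. The eigen-piece -/

section Piece

variable {𝒪 : Type} [CommRing 𝒪] [IsDomain 𝒪] {R : Type} [CommRing R] {r : ℕ}

/-- The integer matrix `M t` with entries in `A`. -/
abbrev Mc (A : Type) [Ring A] (M : R →+* Matrix (Fin r) (Fin r) ℤ) (t : R) :
    Matrix (Fin r) (Fin r) A :=
  (M t).map (Int.cast : ℤ → A)

/-- The `χ`-eigenspace over the fraction field. -/
def eigW (M : R →+* Matrix (Fin r) (Fin r) ℤ) (χ : R →+* 𝒪) :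
    Submodule (FractionRing 𝒪) (Fin r → FractionRing 𝒪) where
  carrier := {w | ∀ t, (Mc (FractionRing 𝒪) M t).mulVec w = algebraMap 𝒪 (FractionRing 𝒪) (χ t) • w}
  add_mem' := by
    intro a b ha hb t
    rw [Matrix.mulVec_add, ha t, hb t, smul_add]
  zero_mem' := by
    intro t
    rw [Matrix.mulVec_zero, smul_zero]
  smul_mem' := by
    intro c a ha t
    rw [Matrix.mulVec_smul, ha t, smul_comm]

lemma mem_eigW_of_mul_eq (M : R →+* Matrix (Fin r) (Fin r) ℤ) (χ : R →+* 𝒪) {d : ℕ}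
    (Y : Matrix (Fin r) (Fin d) 𝒪) (hY : ∀ t, Mc 𝒪 M t * Y = χ t • Y) (j : Fin d) :
    (fun i => algebraMap 𝒪 (FractionRing 𝒪) (Y i j)) ∈ eigW M χ := by
  intro t
  funext i
  have h := congrFun (congrFun (hY t) i) j
  simp only [Matrix.mul_apply, Matrix.smul_apply, smul_eq_mul, Matrix.map_apply] at h
  simp only [Matrix.mulVec, dotProduct, Matrix.map_apply, Pi.smul_apply, smul_eq_mul]
  rw [← map_mul, ← h, map_sum]
  refine Finset.sum_congr rfl fun l _ => ?_
  rw [map_mul, map_intCast]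

lemma mul_eq_of_mem_eigW (M : R →+* Matrix (Fin r) (Fin r) ℤ) (χ : R →+* 𝒪) {d : ℕ}
    (Y : Matrix (Fin r) (Fin d) 𝒪)
    (hY : ∀ j, (fun i => algebraMap 𝒪 (FractionRing 𝒪) (Y i j)) ∈ eigW M χ) (t : R) :
    Mc 𝒪 M t * Y = χ t • Y := by
  ext i j
  have h := congrFun (hY j t) i
  simp only [Matrix.mulVec, dotProduct, Matrix.map_apply, Pi.smul_apply, smul_eq_mul] at h
  simp only [Matrix.mul_apply, Matrix.smul_apply, smul_eq_mul, Matrix.map_apply]
  apply IsFractionRing.injective 𝒪 (FractionRing 𝒪)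
  rw [map_mul, ← h, map_sum]
  refine Finset.sum_congr rfl fun l _ => ?_
  rw [map_mul, map_intCast]

/-- The eigen-piece: intertwining matrices for the `χ`-eigenspace. -/
theorem exists_piece (hEig : Betti.Stmt_algEig) (hLat : S30.Stmt_Lattice)
    [IsPrincipalIdealRing 𝒪] [CharZero 𝒪]
    (M : R →+* Matrix (Fin r) (Fin r) ℤ) (hM : Function.Injective M) (χ : R →+* 𝒪) :
    ∃ (d : ℕ) (P : Matrix (Fin r) (Fin d) 𝒪) (Q : Matrix (Fin d) (Fin r) 𝒪), 0 < d ∧
      Q * P = 1 ∧ (∀ t, Mc 𝒪 M t * P = χ t • P) ∧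
      ∀ X : Matrix (Fin r) (Fin r) 𝒪, (∀ t, X * Mc 𝒪 M t = Mc 𝒪 M t * X) →
        P * Q * (X * P) = X * P := by
  have : CharZero (FractionRing 𝒪) :=
    charZero_of_injective_algebraMap (IsFractionRing.injective 𝒪 (FractionRing 𝒪))
  obtain ⟨v, hv0, hv⟩ := hEig R r M hM (FractionRing 𝒪)
    ((algebraMap 𝒪 (FractionRing 𝒪)).comp χ)
  have hvW : v ∈ eigW M χ := fun t => hv t
  obtain ⟨P, Q, hQP, hPW, hfix⟩ := hLat 𝒪 (FractionRing 𝒪) r (eigW M χ)
  have hd : 0 < Module.finrank (FractionRing 𝒪) (eigW M χ) := by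
    have : Nontrivial (eigW M χ) :=
      ⟨⟨⟨v, hvW⟩, 0, fun h => hv0 (congrArg Subtype.val h)⟩⟩
    exact Module.finrank_pos
  have hMP : ∀ t, Mc 𝒪 M t * P = χ t • P := mul_eq_of_mem_eigW M χ P hPW
  refine ⟨_, P, Q, hd, hQP, hMP, ?_⟩
  intro X hX
  have hXP : ∀ t, Mc 𝒪 M t * (X * P) = χ t • (X * P) := by
    intro t
    rw [← Matrix.mul_assoc, ← hX t, Matrix.mul_assoc, hMP t, Matrix.mul_smul]
  ext i j
  have h := congrFun (hfix (fun i => (X * P) i j) (mem_eigW_of_mul_eq M χ (X * P) hXP j)) i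
  rw [Matrix.mul_assoc]
  simp only [Matrix.mulVec, dotProduct] at h
  simp only [Matrix.mul_apply]
  exact h

end Piece

/-! ## 3. Assembly -/

section Assembly

variable {𝒪 : Type} [CommRing 𝒪] (I : Ideal 𝒪) [IsAdicComplete I 𝒪]
variable (p : ℕ) [Fact p.Prime] (hp : (p : 𝒪) ∈ I) {r : ℕ}

lemma piK_Mc_eq (k : ℕ) (X : Matrix (Fin r) (Fin r) ℤ) :
    (piK I k).mapMatrix (X.map (Int.cast : ℤ → 𝒪)) =
      (cK I p hp k).mapMatrix (X.map (Int.cast : ℤ → ZMod (p ^ k))) := by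
  ext i j
  simp only [RingHom.mapMatrix_apply, Matrix.map_apply, map_intCast]

lemma natCast_smul_one (A : Type) [Ring A] (ℓ : ℕ) :
    (ℓ : A) • (1 : Matrix (Fin r) (Fin r) A) = ((ℓ : ℕ) : Matrix (Fin r) (Fin r) A) := by
  rw [Nat.cast_smul_eq_nsmul, nsmul_one]

end Assembly

/-- **T1**: a Tate system gives the Tate piece of every eigensystem. -/
theorem t1 (hEig : Betti.Stmt_algEig) (hLat : S30.Stmt_Lattice) : Stmt_T1 := by
  intro hTS p _ N _ S hpS hNS 𝒪' _ _ _ _ _ _ hp𝒪' χ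
  obtain ⟨r, ρ, M, hTate, hES, hUnr⟩ := hTS p N S hpS hNS
  set I := IsLocalRing.maximalIdeal 𝒪' with hI
  obtain ⟨ρL, hρL⟩ := exists_limit_rep I p hp𝒪' ρ hTate.compat
  -- commutation with the Hecke matrices
  have hcomm : ∀ σ t, ρL σ * Mc 𝒪' M t = Mc 𝒪' M t * ρL σ := by
    intro σ t
    apply matrix_eq_of_forall_piK I
    intro k
    rw [map_mul, map_mul, hρL, piK_Mc_eq I p hp𝒪', ← map_mul, ← map_mul, hTate.comm k σ t]
  -- Eichler-Shimura on the big module
  have hESbig : ∀ (ℓ : ℕ) (hℓ : ℓ.Prime) (hℓN : ¬ ℓ ∣ N) (hℓS : ℓ ∉ (↑S : Set ℕ)),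
      ∀ A : ValuationSubring (AlgebraicClosure ℚ), A.LiesOverPrime ℓ →
        ∀ σ : GQ, A.IsFrobeniusAt σ ℓ →
          ρL σ * ρL σ - Mc 𝒪' M (CuspForm.heckeAlgebra.T hℓ hℓN hℓS) * ρL σ
            + (ℓ : 𝒪') • (1 : Matrix (Fin r) (Fin r) 𝒪') = 0 := by
    intro ℓ hℓ hℓN hℓS A hA σ hσ
    apply matrix_eq_of_forall_piK I
    intro k
    have h := hES ℓ hℓ hℓN hℓS A hA σ hσ k
    rw [natCast_smul_one] at h ⊢
    rw [map_add, map_sub, map_mul, map_mul, hρL, piK_Mc_eq I p hp𝒪', map_natCast, map_zero]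
    have h2 := congrArg (cK I p hp𝒪' k).mapMatrix h
    rw [map_add, map_sub, map_mul, map_mul, map_natCast, map_zero] at h2
    exact h2
  obtain ⟨d, P, Q, hd, hQP, hMP, hfix⟩ := exists_piece hEig hLat M hTate.inj χ
  have hfixσ : ∀ σ, P * Q * (ρL σ * P) = ρL σ * P := fun σ => hfix (ρL σ) (hcomm σ)
  refine ⟨d, { toFun := fun σ => Q * ρL σ * P, map_one' := ?_, map_mul' := ?_ }, hd, ?_, ?_, ?_⟩
  · rw [map_one, Matrix.mul_one, hQP]
  · intro σ τ
    rw [map_mul]
    calc Q * (ρL σ * ρL τ) * P = Q * ρL σ * (ρL τ * P) := by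
          simp only [Matrix.mul_assoc]
      _ = Q * ρL σ * (P * Q * (ρL τ * P)) := by rw [hfixσ τ]
      _ = Q * ρL σ * P * (Q * ρL τ * P) := by simp only [Matrix.mul_assoc]
  · -- continuity
    intro n
    obtain ⟨L, hL, hLσ⟩ := hTate.cont n
    refine ⟨L, hL, fun σ hσ i j => ?_⟩
    have h1 : ρ n σ = 1 := hLσ σ hσ
    have hent : ∀ a b, (ρL σ - 1) a b ∈ I ^ n := by
      intro a b
      have h2 := hρL n σ
      rw [h1, map_one] at h2
      have h3 : (piK I n).mapMatrix (ρL σ - 1) = 0 := by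
        rw [map_sub, h2, map_one, sub_self]
      have h4 := congrFun (congrFun h3 a) b
      simp only [RingHom.mapMatrix_apply, Matrix.map_apply, Matrix.zero_apply] at h4
      exact Ideal.Quotient.eq_zero_iff_mem.mp h4
    have e : (Q * ρL σ * P - 1 : Matrix (Fin d) (Fin d) 𝒪') = Q * (ρL σ - 1) * P := by
      rw [Matrix.mul_sub, Matrix.sub_mul, Matrix.mul_one, hQP]
    show ((Q * ρL σ * P - 1 : Matrix (Fin d) (Fin d) 𝒪') i j) ∈ I ^ n
    rw [e]
    simp only [Matrix.mul_apply]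
    refine Ideal.sum_mem _ fun b _ => Ideal.mul_mem_right _ _ ?_
    exact Ideal.sum_mem _ fun a _ => Ideal.mul_mem_left _ _ (hent a b)
  · -- Eichler-Shimura
    intro ℓ hℓ hℓN hℓS A hA σ hσ
    have h := hESbig ℓ hℓ hℓN hℓS A hA σ hσ
    set T := CuspForm.heckeAlgebra.T hℓ hℓN hℓS with hT
    show Q * ρL σ * P * (Q * ρL σ * P) - χ T • (Q * ρL σ * P) + (ℓ : 𝒪') • 1 = 0
    have e1 : Q * ρL σ * P * (Q * ρL σ * P) = Q * (ρL σ * ρL σ) * P := by
      calc Q * ρL σ * P * (Q * ρL σ * P) = Q * ρL σ * (P * Q * (ρL σ * P)) := by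
            simp only [Matrix.mul_assoc]
        _ = Q * ρL σ * (ρL σ * P) := by rw [hfixσ σ]
        _ = Q * (ρL σ * ρL σ) * P := by simp only [Matrix.mul_assoc]
    have e2 : χ T • (Q * ρL σ * P) = Q * (Mc 𝒪' M T * ρL σ) * P := by
      rw [← hcomm σ T]
      calc χ T • (Q * ρL σ * P) = Q * ρL σ * (χ T • P) := by rw [Matrix.mul_smul]
        _ = Q * ρL σ * (Mc 𝒪' M T * P) := by rw [hMP T]
        _ = Q * (ρL σ * Mc 𝒪' M T) * P := by simp only [Matrix.mul_assoc]
    have e3 : (ℓ : 𝒪') • (1 : Matrix (Fin d) (Fin d) 𝒪') =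
        Q * ((ℓ : 𝒪') • (1 : Matrix (Fin r) (Fin r) 𝒪')) * P := by
      rw [Matrix.mul_smul, Matrix.mul_one, Matrix.smul_mul, hQP]
    rw [e1, e2, e3, ← Matrix.sub_mul, ← Matrix.mul_sub, ← Matrix.add_mul, ← Matrix.mul_add, h,
      Matrix.mul_zero, Matrix.zero_mul]
  · -- unramified
    intro q hq hqN hqp Pv hPv σ hσ
    have h1 : ρL σ = 1 := by
      apply matrix_eq_of_forall_piK I
      intro k
      rw [hρL, hUnr q hq hqN hqp Pv hPv σ hσ k, map_one, map_one]
    show Q * ρL σ * P = 1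
    rw [h1, Matrix.mul_one, hQP]

end Fermat.Agent.GTor.H58T1

end
end
-- ==== END Fermat.Agent.GTor.H58_T1

-- ==== BEGIN Fermat.Agent.GTor.H75_DescIdent
section

/-!
# G-TOR package DESC (helper75): the six-term identity between linear combinations and its
functoriality; the final step of DESC-CORE.
-/

set_option autoImplicit false
set_option linter.style.haveILetI false
set_option linter.unusedSectionVars false

noncomputable section

namespace Fermat.Agent.GTor.H75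

open ModularCurve

section Ident

variable {R S : Type*} [CommRing R] [CommRing S]
variable {I I' J J' : Type*} [Fintype I] [Fintype I'] [Fintype J] [Fintype J']

theorem coeffMap_injective_of_injective (φ : R →+* S) (hφ : Function.Injective φ) :
    Function.Injective (coeffMap φ) := by
  intro x y h
  ext m
  have := congrArg (fun z => z.coeff m) h
  simpa using hφ this

/-- the six-term identity `lc A1 * lc A2 * (lc A3)^n = (lc A4)^n * lc A5 * lc A6` -/
def Ident (j : ℚ →+* R) (y : I → LaurentSeries ℚ) (y' : I' → LaurentSeries ℚ)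
    (z : J → LaurentSeries ℚ) (z' : J' → LaurentSeries ℚ) (n : ℕ)
    (A1 : I → R) (A2 : I' → R) (A3 : J' → R) (A4 : J → R) (A5 : I → R) (A6 : I' → R) : Prop :=
  lc j y A1 * lc j y' A2 * lc j z' A3 ^ n = lc j z A4 ^ n * lc j y A5 * lc j y' A6

variable {j : ℚ →+* R} {y : I → LaurentSeries ℚ} {y' : I' → LaurentSeries ℚ}
  {z : J → LaurentSeries ℚ} {z' : J' → LaurentSeries ℚ} {n : ℕ}
  {A1 : I → R} {A2 : I' → R} {A3 : J' → R} {A4 : J → R} {A5 : I → R} {A6 : I' → R}

theorem Ident.map (h : Ident j y y' z z' n A1 A2 A3 A4 A5 A6) (φ : R →+* S) (j' : ℚ →+* S) :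
    Ident j' y y' z z' n (fun i => φ (A1 i)) (fun i => φ (A2 i)) (fun i => φ (A3 i))
      (fun i => φ (A4 i)) (fun i => φ (A5 i)) (fun i => φ (A6 i)) := by
  have := congrArg (coeffMap φ) h
  simp only [map_mul, map_pow, coeffMap_lc φ j j'] at this
  exact this

theorem Ident.of_map (φ : R →+* S) (hφ : Function.Injective φ) (j' : ℚ →+* S)
    (h : Ident j' y y' z z' n (fun i => φ (A1 i)) (fun i => φ (A2 i)) (fun i => φ (A3 i))
      (fun i => φ (A4 i)) (fun i => φ (A5 i)) (fun i => φ (A6 i))) :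
    Ident j y y' z z' n A1 A2 A3 A4 A5 A6 := by
  apply coeffMap_injective_of_injective φ hφ
  simp only [map_mul, map_pow, coeffMap_lc φ j j']
  exact h

theorem Ident.scale (h : Ident j y y' z z' n A1 A2 A3 A4 A5 A6) (c₁ c₂ : R) :
    Ident j y y' z z' n (fun i => c₁ * A1 i) A2 (fun i => c₂ * A3 i)
      (fun i => c₂ * A4 i) A5 (fun i => c₁ * A6 i) := by
  unfold Ident at h ⊢
  rw [lc_smul, lc_smul, lc_smul, lc_smul, mul_pow, mul_pow]
  linear_combination (HahnSeries.C c₁ * HahnSeries.C c₂ ^ n) * h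

end Ident

section Final

variable {k K : Type} [Field k] [Field K] [Algebra ℚ k] [Algebra ℚ K]
variable (F₀ : IntermediateField ℚ (LaurentSeries ℚ))
variable {I I' J J' : Type*} [Fintype I] [Fintype I'] [Fintype J] [Fintype J']

theorem core_final (ι : k →+* K) (n : ℕ) (hn : 0 < n) (f : ↥(laurentBaseChange K F₀))
    (y : I → LaurentSeries ℚ) (y' : I' → LaurentSeries ℚ)
    (z : J → LaurentSeries ℚ) (z' : J' → LaurentSeries ℚ)
    (hy : ∀ i, y i ∈ F₀) (hy' : ∀ i, y' i ∈ F₀) (hz : ∀ i, z i ∈ F₀) (hz' : ∀ i, z' i ∈ F₀)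
    (a : I → K) (b : I' → K) (a₀ : I → k) (b₀ : I' → k) (α : J → K) (β : J' → K)
    (hP : lc (algebraMap ℚ K) y a ≠ 0) (hQ : lc (algebraMap ℚ K) y' b ≠ 0)
    (hfQ : (f : LaurentSeries K) * lc (algebraMap ℚ K) y' b = lc (algebraMap ℚ K) y a)
    (hQ' : lc (algebraMap ℚ K) y' (fun i => ι (b₀ i)) ≠ 0)
    (hA : lc (algebraMap ℚ K) z α ≠ 0)
    (hid : Ident (algebraMap ℚ K) y y' z z' n (fun i => ι (a₀ i)) b β α a (fun i => ι (b₀ i))) :
    ∃ (f₀ : ↥(laurentBaseChange k F₀)) (h : ↥(laurentBaseChange K F₀)),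
      f₀ ≠ 0 ∧ h ≠ 0 ∧ f = bcHom ι F₀ f₀ * h ^ n := by
  unfold Ident at hid
  set P := lc (algebraMap ℚ K) y a with hPdef
  set Q := lc (algebraMap ℚ K) y' b with hQdef
  set P' := lc (algebraMap ℚ K) y (fun i => ι (a₀ i)) with hP'def
  set Q' := lc (algebraMap ℚ K) y' (fun i => ι (b₀ i)) with hQ'def
  set A := lc (algebraMap ℚ K) z α with hAdef
  set B := lc (algebraMap ℚ K) z' β with hBdef
  -- nonvanishing of the remaining two terms
  have hR : A ^ n * P * Q' ≠ 0 := mul_ne_zero (mul_ne_zero (pow_ne_zero n hA) hP) hQ'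
  rw [← hid] at hR
  have hP' : P' ≠ 0 := fun h0 => hR (by rw [h0, zero_mul, zero_mul])
  have hBn : B ^ n ≠ 0 := fun h0 => hR (by rw [h0, mul_zero])
  have hB : B ≠ 0 := fun h0 => hBn (by rw [h0]; exact zero_pow hn.ne')
  -- the series over `k`
  have hP0eq : coeffMap ι (lc (algebraMap ℚ k) y a₀) = P' := coeffMap_lc ι _ _ y a₀
  have hQ0eq : coeffMap ι (lc (algebraMap ℚ k) y' b₀) = Q' := coeffMap_lc ι _ _ y' b₀
  have hP0 : lc (algebraMap ℚ k) y a₀ ≠ 0 := by
    intro h0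
    rw [h0, map_zero] at hP0eq
    exact hP' hP0eq.symm
  have hQ0 : lc (algebraMap ℚ k) y' b₀ ≠ 0 := by
    intro h0
    rw [h0, map_zero] at hQ0eq
    exact hQ' hQ0eq.symm
  let p₀ : ↥(laurentBaseChange k F₀) := ⟨_, lc_mem k F₀ y hy a₀⟩
  let q₀ : ↥(laurentBaseChange k F₀) := ⟨_, lc_mem k F₀ y' hy' b₀⟩
  let Ae : ↥(laurentBaseChange K F₀) := ⟨A, lc_mem K F₀ z hz α⟩
  let Be : ↥(laurentBaseChange K F₀) := ⟨B, lc_mem K F₀ z' hz' β⟩
  have hp₀ : p₀ ≠ 0 := fun h0 => hP0 (congrArg Subtype.val h0)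
  have hq₀ : q₀ ≠ 0 := fun h0 => hQ0 (congrArg Subtype.val h0)
  have hAe : Ae ≠ 0 := fun h0 => hA (congrArg Subtype.val h0)
  have hBe : Be ≠ 0 := fun h0 => hB (congrArg Subtype.val h0)
  refine ⟨p₀ / q₀, Be / Ae, div_ne_zero hp₀ hq₀, div_ne_zero hBe hAe, ?_⟩
  apply Subtype.ext
  have hf : (f : LaurentSeries K) = P / Q := by
    rw [← hfQ, mul_div_assoc, div_self hQ, mul_one]
  have hbc : ((bcHom ι F₀ (p₀ / q₀) : ↥(laurentBaseChange K F₀)) : LaurentSeries K) = P' / Q' := by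
    rw [map_div₀]
    show ((bcHom ι F₀ p₀ : ↥(laurentBaseChange K F₀)) : LaurentSeries K) /
      ((bcHom ι F₀ q₀ : ↥(laurentBaseChange K F₀)) : LaurentSeries K) = P' / Q'
    rw [bcHom_coe, bcHom_coe]
    show coeffMap ι (lc (algebraMap ℚ k) y a₀) / coeffMap ι (lc (algebraMap ℚ k) y' b₀) = _
    rw [hP0eq, hQ0eq]
  show (f : LaurentSeries K) =
    ((bcHom ι F₀ (p₀ / q₀) : ↥(laurentBaseChange K F₀)) : LaurentSeries K) * (B / A) ^ n
  rw [hbc, hf, div_pow]
  field_simp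
  linear_combination -hid

end Final

end Fermat.Agent.GTor.H75

end
end
-- ==== END Fermat.Agent.GTor.H75_DescIdent

-- ==== BEGIN Fermat.Agent.GTor.H81_T2a
section

/-!
# G-TOR plumbing T2, part a: change of modulus for `HasChar` / `TorChar`, and coordinates on
`homPE(Γ₀(N), ℤ/m)`  (helper81)
-/

set_option autoImplicit false

noncomputable section

namespace Fermat.Agent.GTor.H81

open AlgebraicCurve ModularCurve UpperHalfPlane Fermat.Agent.GTor
open scoped MatrixGroups ModularForm Manifold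

/-! ## 1. Roots of unity -/

theorem zeta_pow_div {n m : ℕ} (hmn : m ∣ n) (hn : n ≠ 0) :
    H96.zeta n ^ (n / m) = H96.zeta m := by
  obtain ⟨d, rfl⟩ := hmn
  have hm : m ≠ 0 := fun h => hn (by rw [h, zero_mul])
  have hd : d ≠ 0 := fun h => hn (by rw [h, mul_zero])
  rw [Nat.mul_div_cancel_left d (Nat.pos_of_ne_zero hm)]
  unfold H96.zeta
  rw [← Complex.exp_nat_mul]
  congr 1
  have hm' : (m : ℂ) ≠ 0 := Nat.cast_ne_zero.2 hm
  have hd' : (d : ℂ) ≠ 0 := Nat.cast_ne_zero.2 hd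
  push_cast
  field_simp

/-- `ζ_n^(a · n/m) = ζ_m^(a mod m)`. -/
theorem zetaPow_pow_div {n m : ℕ} (hmn : m ∣ n) (hn : n ≠ 0) (a : ZMod n) :
    zetaPow n a ^ (n / m) = zetaPow m (ZMod.castHom hmn (ZMod m) a) := by
  have hm : m ≠ 0 := by
    rintro rfl
    exact hn (Nat.eq_zero_of_zero_dvd hmn)
  haveI : NeZero n := ⟨hn⟩
  rw [H96.zetaPow_eq_zeta_pow, ← pow_mul, mul_comm, pow_mul, zeta_pow_div hmn hn,
    ZMod.castHom_apply, ← ZMod.natCast_val, H96.zeta_pow_natCast hm]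

/-! ## 2. Change of modulus -/

section Reduce

variable {N n m : ℕ}

/-- reduction of a character modulo `m ∣ n`. -/
def redChar (hmn : m ∣ n) (φ : Additive (CongruenceSubgroup.Gamma0 N) →+ ZMod n) :
    Additive (CongruenceSubgroup.Gamma0 N) →+ ZMod m :=
  (ZMod.castHom hmn (ZMod m)).toAddMonoidHom.comp φ

@[simp]
theorem redChar_apply (hmn : m ∣ n) (φ : Additive (CongruenceSubgroup.Gamma0 N) →+ ZMod n)
    (γ : Additive (CongruenceSubgroup.Gamma0 N)) :
    redChar hmn φ γ = ZMod.castHom hmn (ZMod m) (φ γ) := rfl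

theorem isTwistedForm_reduce (hmn : m ∣ n) (hn : n ≠ 0) {k : ℤ}
    {φ : Additive (CongruenceSubgroup.Gamma0 N) →+ ZMod n} {R : ℍ → ℂ}
    (h : IsTwistedForm N n k φ R) :
    IsTwistedForm N m (((n / m : ℕ) : ℤ) * k) (redChar hmn φ) (fun z => R z ^ (n / m)) where
  mdiff := by
    have := h.mdiff.pow (n / m)
    exact this
  slash γ := by
    rw [H56.slash_pow_SL, h.slash γ]
    funext z
    simp only [Pi.smul_apply, smul_eq_mul, mul_pow, redChar_apply]
    rw [zetaPow_pow_div hmn hn]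
  bdd σ := by
    rw [H56.slash_pow_SL]
    exact H56.isBoundedAtImInfty_pow (h.bdd σ) (n / m)

theorem hasChar_reduce [NeZero N] (hmn : m ∣ n) (hn : n ≠ 0) {f : FNL ℂ N}
    {φ : Additive (CongruenceSubgroup.Gamma0 N) →+ ZMod n} (h : HasChar N n f φ) :
    HasChar N m f (redChar hmn φ) := by
  obtain ⟨k, R, B, hR, hB, hq⟩ := h
  have hB' : IsTwistedForm N m (((n / m : ℕ) : ℤ) * k) 0 (fun z => (B : ℍ → ℂ) z ^ (n / m)) := by
    have h0 := isTwistedForm_reduce hmn hn (H56.isTwistedForm_of_modularForm (N := N) n B)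
    have e : redChar hmn (0 : Additive (CongruenceSubgroup.Gamma0 N) →+ ZMod n) = 0 := by
      ext γ; simp
    rw [e] at h0
    exact h0
  have hpow : ∀ F : ℍ → ℂ, (fun z => (F z ^ (n / m)) ^ m) = fun z => F z ^ n := by
    intro F
    funext z
    rw [← pow_mul, Nat.div_mul_cancel hmn]
  refine ⟨((n / m : ℕ) : ℤ) * k, fun z => R z ^ (n / m), H56.toModularForm hB',
    isTwistedForm_reduce hmn hn hR, ?_, ?_⟩
  · intro h0
    apply hB
    have h1 : ∀ z, (B : ℍ → ℂ) z ^ (n / m) = 0 := fun z =>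
      congrArg (fun F : ModularForm (CongruenceSubgroup.Gamma0 N) _ => (F : ℍ → ℂ) z) h0
    ext z
    exact pow_eq_zero_iff (Nat.div_pos (Nat.le_of_dvd (Nat.pos_of_ne_zero hn) hmn)
      (Nat.pos_of_ne_zero (fun h => hn (by
        rw [h] at hmn; exact Nat.eq_zero_of_zero_dvd hmn)))).ne' |>.1 (h1 z)
  · have e1 : (fun z => (H56.toModularForm hB' : ℍ → ℂ) z ^ m) = fun z => (B : ℍ → ℂ) z ^ n :=
      hpow B
    rw [hpow R, e1]
    exact hq

theorem torChar_reduce [NeZero N] (hmn : m ∣ n) (hn : n ≠ 0) {ι : AlgebraicClosure ℚ →+* ℂ}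
    {x : JZero N} {φ : Additive (CongruenceSubgroup.Gamma0 N) →+ ZMod n}
    (h : TorChar N n ι x φ) : TorChar N m ι ((n / m) • x) (redChar hmn φ) := by
  obtain ⟨D, f, f', hf, hx, hdiv, hcoef, hchar⟩ := h
  refine ⟨(n / m) • D, f, f', hf, ?_, fun v => ?_, hcoef, hasChar_reduce hmn hn hchar⟩
  · rw [hx]; rfl
  · rw [← hdiv v]
    have : (((n / m) • D : Divisor.degZero (K := AlgebraicClosure ℚ)
        (F := FNL (AlgebraicClosure ℚ) N)) :
        Divisor (AlgebraicClosure ℚ) (FNL (AlgebraicClosure ℚ) N)) v =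
        ((n / m : ℕ) : ℤ) * (D : Divisor (AlgebraicClosure ℚ) (FNL (AlgebraicClosure ℚ) N)) v := by
      simp
    rw [this, ← mul_assoc]
    congr 1
    exact_mod_cast Nat.mul_div_cancel' hmn

end Reduce

end Fermat.Agent.GTor.H81

end
end
-- ==== END Fermat.Agent.GTor.H81_T2a

-- ==== BEGIN Fermat.Agent.GTor.H81_T2b
section

/-!
# G-TOR plumbing T2, part b: coordinates on `homPE(Γ₀(N), ℤ/m)` from a universal parabolic basis
and TORSLIFT; the Betti Hecke operator in coordinates  (helper81)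
-/

set_option autoImplicit false

noncomputable section

namespace Fermat.Agent.GTor.H81

open AlgebraicCurve ModularCurve Fermat.Agent.GTor Fermat.Agent.Betti
open scoped MatrixGroups

section Coord

variable {N : ℕ} {r : ℕ} (b : Fin r → (Additive (CongruenceSubgroup.Gamma0 N) →+ ℤ)) (m : ℕ)

/-- the character with coordinates `a` in the basis `b`, reduced mod `m`. -/
def coordFun (a : Fin r → ZMod m) : Additive (CongruenceSubgroup.Gamma0 N) →+ ZMod m where
  toFun γ := ∑ i, a i * ((b i γ : ℤ) : ZMod m)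
  map_zero' := by simp
  map_add' γ δ := by
    simp only [map_add, Int.cast_add, mul_add, Finset.sum_add_distrib]

@[simp]
theorem coordFun_apply (a : Fin r → ZMod m) (γ : Additive (CongruenceSubgroup.Gamma0 N)) :
    coordFun b m a γ = ∑ i, a i * ((b i γ : ℤ) : ZMod m) := rfl

theorem coordFun_add (a a' : Fin r → ZMod m) :
    coordFun b m (a + a') = coordFun b m a + coordFun b m a' := by
  refine AddMonoidHom.ext fun γ => ?_
  simp [add_mul, Finset.sum_add_distrib]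

theorem coordFun_zero : coordFun b m 0 = 0 := by
  refine AddMonoidHom.ext fun γ => ?_
  simp

/-- a hom to a torsion free group kills the elements of finite order. -/
theorem eq_zero_of_isOfFinOrder {A : Type*} [AddCommGroup A] [IsAddTorsionFree A]
    (ψ : Additive (CongruenceSubgroup.Gamma0 N) →+ A) (γ : CongruenceSubgroup.Gamma0 N)
    (hγ : IsOfFinOrder γ) : ψ (Additive.ofMul γ) = 0 := by
  obtain ⟨k, hk, hγk⟩ := isOfFinOrder_iff_pow_eq_one.1 hγ
  have h1 : k • ψ (Additive.ofMul γ) = 0 := by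
    rw [← map_nsmul, ← ofMul_pow, hγk]
    exact map_zero ψ
  exact (nsmul_eq_zero_iff_right hk.ne').1 h1

variable {b}

theorem coordFun_mem (hb : IsParBasis N b) (a : Fin r → ZMod m) :
    coordFun b m a ∈ homPE (CongruenceSubgroup.Gamma0 N) (ZMod m) := by
  refine ⟨fun γ hγ => ?_, fun γ hγ => ?_⟩
  · rw [coordFun_apply]
    refine Finset.sum_eq_zero fun i _ => ?_
    rw [hb.1 i γ hγ, Int.cast_zero, mul_zero]
  · rw [coordFun_apply]
    refine Finset.sum_eq_zero fun i _ => ?_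
    rw [eq_zero_of_isOfFinOrder (b i) γ hγ, Int.cast_zero, mul_zero]

theorem coordFun_surjective [NeZero N] (hb : IsParBasis N b) (hL : Stmt_torsLift N)
    (hm : m ≠ 0) (φ : Additive (CongruenceSubgroup.Gamma0 N) →+ ZMod m)
    (hφ : φ ∈ homPE (CongruenceSubgroup.Gamma0 N) (ZMod m)) :
    ∃ a : Fin r → ZMod m, coordFun b m a = φ := by
  obtain ⟨ψ, hψ, hψφ⟩ := hL m hm φ hφ
  obtain ⟨a, ha, -⟩ := hb.2 ℤ ψ hψ
  refine ⟨fun i => ((a i : ℤ) : ZMod m), ?_⟩
  refine AddMonoidHom.ext fun γ => ?_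
  rw [coordFun_apply, hψφ γ, ha γ]
  push_cast
  refine Finset.sum_congr rfl fun i _ => ?_
  rw [smul_eq_mul, Int.cast_mul, mul_comm]

theorem coordFun_injective (hb : IsParBasis N b) (hm : m ≠ 0) (a : Fin r → ZMod m)
    (h : coordFun b m a = 0) : a = 0 := by
  have : NeZero m := ⟨hm⟩
  -- integer lifts
  let a' : Fin r → ℤ := fun i => ((a i).val : ℤ)
  have ha' : ∀ i, ((a' i : ℤ) : ZMod m) = a i := fun i => by
    simp [a']
  -- the integral hom `Ψ = ∑ a'_i b_i`
  let Ψ : Additive (CongruenceSubgroup.Gamma0 N) →+ ℤ := ∑ i, a' i • b i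
  have hΨ : ∀ γ, Ψ γ = ∑ i, b i γ • a' i := by
    intro γ
    simp only [Ψ, AddMonoidHom.finsetSum_apply, AddMonoidHom.smul_apply, smul_eq_mul]
    exact Finset.sum_congr rfl fun i _ => mul_comm _ _
  have hdvd : ∀ γ, (m : ℤ) ∣ Ψ γ := by
    intro γ
    rw [← ZMod.intCast_zmod_eq_zero_iff_dvd, hΨ γ]
    have := congrArg (fun φ : Additive (CongruenceSubgroup.Gamma0 N) →+ ZMod m => φ γ) h
    simp only [coordFun_apply, AddMonoidHom.zero_apply] at this
    rw [← this]
    push_cast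
    refine Finset.sum_congr rfl fun i _ => ?_
    rw [smul_eq_mul, Int.cast_mul, ha' i, mul_comm]
  have hm' : (m : ℤ) ≠ 0 := Nat.cast_ne_zero.2 hm
  -- `Ψ / m`
  let Ψ' : Additive (CongruenceSubgroup.Gamma0 N) →+ ℤ :=
    { toFun := fun γ => Ψ γ / (m : ℤ)
      map_zero' := by simp
      map_add' := fun γ δ => by
        show Ψ (γ + δ) / (m : ℤ) = Ψ γ / (m : ℤ) + Ψ δ / (m : ℤ)
        rw [map_add, Int.add_ediv_of_dvd_left (hdvd γ)] }
  have hΨ' : ∀ γ, Ψ γ = (m : ℤ) * Ψ' γ := fun γ => (Int.mul_ediv_cancel' (hdvd γ)).symm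
  have hparΨ : Period.IsParabolicHom (CongruenceSubgroup.Gamma0 N) Ψ := by
    intro γ hγ
    rw [hΨ]
    refine Finset.sum_eq_zero fun i _ => ?_
    rw [hb.1 i γ hγ, zero_smul]
  have hparΨ' : Period.IsParabolicHom (CongruenceSubgroup.Gamma0 N) Ψ' := by
    intro γ hγ
    have := hΨ' (Additive.ofMul γ)
    rw [hparΨ γ hγ] at this
    rcases mul_eq_zero.1 this.symm with h0 | h0
    · exact absurd h0 hm'
    · exact h0
  obtain ⟨c, hc, -⟩ := hb.2 ℤ Ψ' hparΨ'
  obtain ⟨a₀, -, huniq⟩ := hb.2 ℤ Ψ hparΨ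
  have e1 : a' = a₀ := huniq a' hΨ
  have e2 : (fun i => (m : ℤ) * c i) = a₀ := by
    refine huniq _ fun γ => ?_
    rw [hΨ' γ, hc γ, Finset.mul_sum]
    refine Finset.sum_congr rfl fun i _ => ?_
    simp only [smul_eq_mul]
    ring
  funext i
  have e3 : a' i = (m : ℤ) * c i := by rw [e1, ← e2]
  rw [← ha' i, e3]
  simp

/-- the coordinate map as a homomorphism. -/
def coordHom (hb : IsParBasis N b) :
    (Fin r → ZMod m) →+ homPE (CongruenceSubgroup.Gamma0 N) (ZMod m) where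
  toFun a := ⟨coordFun b m a, coordFun_mem m hb a⟩
  map_zero' := Subtype.ext (coordFun_zero b m)
  map_add' a a' := Subtype.ext (coordFun_add b m a a')

theorem coordHom_bijective [NeZero N] (hb : IsParBasis N b) (hL : Stmt_torsLift N) (hm : m ≠ 0) :
    Function.Bijective (coordHom m hb) := by
  constructor
  · rw [injective_iff_map_eq_zero]
    intro a ha
    exact coordFun_injective m hb hm a (congrArg Subtype.val ha)
  · intro φ
    obtain ⟨a, ha⟩ := coordFun_surjective m hb hL hm φ.1 φ.2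
    exact ⟨a, Subtype.ext ha⟩

/-- coordinates on `homPE(Γ₀(N), ℤ/m)`. -/
def coordEquiv [NeZero N] (hb : IsParBasis N b) (hL : Stmt_torsLift N) (hm : m ≠ 0) :
    (Fin r → ZMod m) ≃+ homPE (CongruenceSubgroup.Gamma0 N) (ZMod m) :=
  AddEquiv.ofBijective (coordHom m hb) (coordHom_bijective m hb hL hm)

@[simp]
theorem coe_coordEquiv [NeZero N] (hb : IsParBasis N b) (hL : Stmt_torsLift N) (hm : m ≠ 0)
    (a : Fin r → ZMod m) :
    ((coordEquiv m hb hL hm a : homPE (CongruenceSubgroup.Gamma0 N) (ZMod m)) :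
      Additive (CongruenceSubgroup.Gamma0 N) →+ ZMod m) = coordFun b m a := rfl

/-- reduction of coordinates corresponds to reduction of characters. -/
theorem coordFun_cast {n : ℕ} (hmn : m ∣ n) (a : Fin r → ZMod n)
    (γ : Additive (CongruenceSubgroup.Gamma0 N)) :
    ZMod.castHom hmn (ZMod m) (coordFun b n a γ) =
      coordFun b m (fun i => ZMod.castHom hmn (ZMod m) (a i)) γ := by
  simp only [coordFun_apply, map_sum, map_mul, map_intCast]

/-- the Betti Hecke operator in coordinates. -/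
theorem TB_coordFun {ℓ : ℕ} (hℓ : ℓ.Prime) (hℓN : ¬ ℓ ∣ N) (Mat : Matrix (Fin r) (Fin r) ℤ)
    (hMat : ∀ j, TB N ℤ hℓ hℓN (b j) = ∑ i, Mat i j • b i) (a : Fin r → ZMod m) :
    TB N (ZMod m) hℓ hℓN (coordFun b m a) =
      coordFun b m ((Mat.map (Int.cast : ℤ → ZMod m)).mulVec a) := by
  have h1 : coordFun b m a =
      ∑ j, ((AddMonoidHom.mulLeft (a j)).comp (Int.castAddHom (ZMod m))).comp (b j) := by
    refine AddMonoidHom.ext fun γ => ?_
    simp
  rw [h1, map_sum]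
  refine AddMonoidHom.ext fun γ => ?_
  rw [AddMonoidHom.finsetSum_apply, coordFun_apply]
  have h2 : ∀ j, TB N (ZMod m) hℓ hℓN
      (((AddMonoidHom.mulLeft (a j)).comp (Int.castAddHom (ZMod m))).comp (b j)) γ =
      a j * ((∑ i, Mat i j * b i γ : ℤ) : ZMod m) := by
    intro j
    have hc : TB N (ZMod m) hℓ hℓN
        (((AddMonoidHom.mulLeft (a j)).comp (Int.castAddHom (ZMod m))).comp (b j)) =
        ((AddMonoidHom.mulLeft (a j)).comp (Int.castAddHom (ZMod m))).comp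
          (TB N ℤ hℓ hℓN (b j)) := by
      haveI : Fact ℓ.Prime := ⟨hℓ⟩
      exact (isHeckeFamily_T N hℓN).heckeOp_comp (incl_injective N)
        ((AddMonoidHom.mulLeft (a j)).comp (Int.castAddHom (ZMod m))) (b j)
    rw [hc, hMat j]
    simp
  simp only [h2]
  simp only [Matrix.mulVec, dotProduct, Matrix.map_apply, Finset.sum_mul]
  push_cast
  simp only [Finset.mul_sum]
  rw [Finset.sum_comm]
  refine Finset.sum_congr rfl fun i _ => Finset.sum_congr rfl fun j _ => ?_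
  ring

end Coord

end Fermat.Agent.GTor.H81

end
end
-- ==== END Fermat.Agent.GTor.H81_T2b

-- ==== BEGIN Fermat.Agent.GTor.H81_Tor
section

/-!
# G-TOR plumbing: `Stmt_TORc` (hence `Stmt_TOR`) from `Stmt_KUM`, `Stmt_DESC`, `Stmt_BETTI`,
`Stmt_CHAR`  (helper81)
-/

set_option autoImplicit false

noncomputable section

namespace Fermat.Agent.GTor.H81

open AlgebraicCurve ModularCurve Fermat.Agent.GTor
open scoped MatrixGroups

/-! ## The map on Kummer classes induced by a ring homomorphism -/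

section KumMap

variable {K₁ F₁ K₂ F₂ : Type*} [Field K₁] [Field F₁] [Algebra K₁ F₁]
  [Field K₂] [Field F₂] [Algebra K₂ F₂] (bc : F₁ →+* F₂) (n : ℕ)

/-- the map on unramified functions. -/
def unrMap (h : ∀ f : F₁, f ≠ 0 → (∀ v : Place K₁ F₁, (n : ℤ) ∣ v.ord f) →
      ∀ w : Place K₂ F₂, (n : ℤ) ∣ w.ord (bc f)) :
    unrSubgroup K₁ F₁ n →* unrSubgroup K₂ F₂ n where
  toFun f := ⟨Units.map (bc : F₁ →* F₂) (f : F₁ˣ), fun w => by
    have := h ((f : F₁ˣ) : F₁) (f : F₁ˣ).ne_zero f.2 w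
    simpa using this⟩
  map_one' := by
    apply Subtype.ext
    simp
  map_mul' f g := by
    apply Subtype.ext
    simp

@[simp]
theorem coe_unrMap (h : ∀ f : F₁, f ≠ 0 → (∀ v : Place K₁ F₁, (n : ℤ) ∣ v.ord f) →
      ∀ w : Place K₂ F₂, (n : ℤ) ∣ w.ord (bc f)) (f : unrSubgroup K₁ F₁ n) :
    (((unrMap bc n h f : unrSubgroup K₂ F₂ n) : F₂ˣ) : F₂) = bc ((f : F₁ˣ) : F₁) := rfl

theorem mem_powSubgroup_iff {K F : Type*} [Field K] [Field F] [Algebra K F] {n : ℕ}
    (f : unrSubgroup K F n) :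
    f ∈ powSubgroup K F n ↔ ∃ h : F, ((f : Fˣ) : F) = h ^ n := by
  constructor
  · rintro ⟨g, hg⟩
    refine ⟨(g : F), ?_⟩
    have : (g ^ n : Fˣ) = (f : Fˣ) := hg
    rw [← this]
    simp
  · rintro ⟨h, hh⟩
    rcases Nat.eq_zero_or_pos n with h0 | hpos
    · subst h0
      refine ⟨1, ?_⟩
      show (1 : Fˣ) ^ 0 = (f : Fˣ)
      apply Units.ext
      simpa using hh.symm
    · have hne : h ≠ 0 := by
        rintro rfl
        rw [zero_pow hpos.ne'] at hh
        exact (f : Fˣ).ne_zero hh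
      refine ⟨Units.mk0 h hne, ?_⟩
      show (Units.mk0 h hne) ^ n = (f : Fˣ)
      apply Units.ext
      simpa using hh.symm

/-- the map on Kummer classes. -/
def kumMap (h : ∀ f : F₁, f ≠ 0 → (∀ v : Place K₁ F₁, (n : ℤ) ∣ v.ord f) →
      ∀ w : Place K₂ F₂, (n : ℤ) ∣ w.ord (bc f)) :
    UnrKummer K₁ F₁ n →* UnrKummer K₂ F₂ n :=
  QuotientGroup.map (powSubgroup K₁ F₁ n) (powSubgroup K₂ F₂ n) (unrMap bc n h) (by
    intro f hf
    rw [Subgroup.mem_comap, mem_powSubgroup_iff]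
    obtain ⟨g, hg⟩ := (mem_powSubgroup_iff f).1 hf
    exact ⟨bc g, by rw [coe_unrMap, hg, map_pow]⟩)

@[simp]
theorem kumMap_mk (h : ∀ f : F₁, f ≠ 0 → (∀ v : Place K₁ F₁, (n : ℤ) ∣ v.ord f) →
      ∀ w : Place K₂ F₂, (n : ℤ) ∣ w.ord (bc f)) (f : unrSubgroup K₁ F₁ n) :
    kumMap bc n h (QuotientGroup.mk f) = QuotientGroup.mk (unrMap bc n h f) := rfl

theorem kumMap_injective (h : ∀ f : F₁, f ≠ 0 → (∀ v : Place K₁ F₁, (n : ℤ) ∣ v.ord f) →
      ∀ w : Place K₂ F₂, (n : ℤ) ∣ w.ord (bc f))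
    (hinj : ∀ f : F₁, f ≠ 0 → (∃ g : F₂, bc f = g ^ n) → ∃ g₀ : F₁, f = g₀ ^ n) :
    Function.Injective (kumMap bc n h) := by
  rw [injective_iff_map_eq_one]
  intro x hx
  obtain ⟨f, rfl⟩ := QuotientGroup.mk_surjective x
  rw [kumMap_mk, QuotientGroup.eq_one_iff, mem_powSubgroup_iff] at hx
  rw [QuotientGroup.eq_one_iff, mem_powSubgroup_iff]
  obtain ⟨g, hg⟩ := hx
  exact hinj _ (f : F₁ˣ).ne_zero ⟨g, by rw [← hg, coe_unrMap]⟩

theorem kumMap_surjective (h : ∀ f : F₁, f ≠ 0 → (∀ v : Place K₁ F₁, (n : ℤ) ∣ v.ord f) →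
      ∀ w : Place K₂ F₂, (n : ℤ) ∣ w.ord (bc f))
    (hconv : ∀ f : F₁, f ≠ 0 → (∀ w : Place K₂ F₂, (n : ℤ) ∣ w.ord (bc f)) →
      ∀ v : Place K₁ F₁, (n : ℤ) ∣ v.ord f)
    (hsurj : ∀ f : F₂, f ≠ 0 → (∀ w : Place K₂ F₂, (n : ℤ) ∣ w.ord f) →
      ∃ (f₀ : F₁) (g : F₂), f₀ ≠ 0 ∧ g ≠ 0 ∧ f = bc f₀ * g ^ n) :
    Function.Surjective (kumMap bc n h) := by
  intro y
  obtain ⟨f, rfl⟩ := QuotientGroup.mk_surjective y
  obtain ⟨f₀, g, hf₀, hg, hfg⟩ := hsurj ((f : F₂ˣ) : F₂) (f : F₂ˣ).ne_zero f.2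
  have hbc0 : bc f₀ ≠ 0 := by
    intro h0
    rw [h0, zero_mul] at hfg
    exact (f : F₂ˣ).ne_zero hfg
  have hunr : ∀ w : Place K₂ F₂, (n : ℤ) ∣ w.ord (bc f₀) := by
    intro w
    have h1 : bc f₀ = ((f : F₂ˣ) : F₂) * (g ^ n)⁻¹ := by
      rw [hfg]; field_simp
    rw [h1, w.ord_mul (f : F₂ˣ).ne_zero (inv_ne_zero (pow_ne_zero n hg)), w.ord_inv]
    refine dvd_add (f.2 w) ((dvd_neg).mpr ?_)
    have : w.ord (g ^ n) = (n : ℤ) * w.ord g := by
      have := w.ord_zpow g (n : ℤ)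
      simpa using this
    rw [this]
    exact dvd_mul_right _ _
  let f₁ : unrSubgroup K₁ F₁ n := ⟨Units.mk0 f₀ hf₀, fun v => by
    simpa using hconv f₀ hf₀ hunr v⟩
  refine ⟨QuotientGroup.mk f₁, ?_⟩
  rw [kumMap_mk, QuotientGroup.eq, mem_powSubgroup_iff]
  refine ⟨g, ?_⟩
  have h2 : (((unrMap bc n h f₁)⁻¹ * f : unrSubgroup K₂ F₂ n) : F₂ˣ) =
      (Units.map (bc : F₁ →* F₂) (Units.mk0 f₀ hf₀))⁻¹ * (f : F₂ˣ) := rfl
  rw [h2]
  simp only [Units.val_mul, Units.val_inv_eq_inv_val, Units.coe_map, Units.val_mk0,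
    MonoidHom.coe_coe]
  rw [hfg]
  field_simp

/-- the equivalence on Kummer classes. -/
def kumEquiv (h : ∀ f : F₁, f ≠ 0 → (∀ v : Place K₁ F₁, (n : ℤ) ∣ v.ord f) →
      ∀ w : Place K₂ F₂, (n : ℤ) ∣ w.ord (bc f))
    (hconv : ∀ f : F₁, f ≠ 0 → (∀ w : Place K₂ F₂, (n : ℤ) ∣ w.ord (bc f)) →
      ∀ v : Place K₁ F₁, (n : ℤ) ∣ v.ord f)
    (hinj : ∀ f : F₁, f ≠ 0 → (∃ g : F₂, bc f = g ^ n) → ∃ g₀ : F₁, f = g₀ ^ n)
    (hsurj : ∀ f : F₂, f ≠ 0 → (∀ w : Place K₂ F₂, (n : ℤ) ∣ w.ord f) →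
      ∃ (f₀ : F₁) (g : F₂), f₀ ≠ 0 ∧ g ≠ 0 ∧ f = bc f₀ * g ^ n) :
    UnrKummer K₁ F₁ n ≃* UnrKummer K₂ F₂ n :=
  MulEquiv.ofBijective (kumMap bc n h)
    ⟨kumMap_injective bc n h hinj, kumMap_surjective bc n h hconv hsurj⟩

end KumMap

/-! ## `Stmt_TORc` -/

section Tor

variable (N n : ℕ) [NeZero N]

omit [NeZero N] in
theorem eq_of_isBaseChange {ι : AlgebraicClosure ℚ →+* ℂ}
    {bc : FNL (AlgebraicClosure ℚ) N →+* FNL ℂ N} (hbc : IsBaseChange ι N bc)
    (f : FNL (AlgebraicClosure ℚ) N) (f' : FNL ℂ N)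
    (h : ∀ m : ℤ, (f' : LaurentSeries ℂ).coeff m =
      ι ((f : LaurentSeries (AlgebraicClosure ℚ)).coeff m)) : bc f = f' := by
  apply Subtype.ext
  apply HahnSeries.ext
  funext m
  rw [hbc f m, h m]

/-- **TORc** from KUM over `ℚ̄`, DESC, BETTI and CHAR. -/
theorem torc_of (hK : Stmt_KUM (AlgebraicClosure ℚ) (FNL (AlgebraicClosure ℚ) N) n)
    (hD : Stmt_DESC N n) (hB : Stmt_BETTI N n) (hC : Stmt_CHAR N n) : Stmt_TORc N n := by
  intro ι
  obtain ⟨eK, heK⟩ := hK
  obtain ⟨eB, heB⟩ := hB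
  obtain ⟨bc, hbc, h1, h2, h3⟩ := hD ι
  have hfw : ∀ f : FNL (AlgebraicClosure ℚ) N, f ≠ 0 →
      (∀ v : Place (AlgebraicClosure ℚ) (FNL (AlgebraicClosure ℚ) N), (n : ℤ) ∣ v.ord f) →
      ∀ w : Place ℂ (FNL ℂ N), (n : ℤ) ∣ w.ord (bc f) := fun f hf => (h1 f hf).1
  have hbw : ∀ f : FNL (AlgebraicClosure ℚ) N, f ≠ 0 →
      (∀ w : Place ℂ (FNL ℂ N), (n : ℤ) ∣ w.ord (bc f)) →
      ∀ v : Place (AlgebraicClosure ℚ) (FNL (AlgebraicClosure ℚ) N), (n : ℤ) ∣ v.ord f :=
    fun f hf => (h1 f hf).2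
  let eD : UnrKummer (AlgebraicClosure ℚ) (FNL (AlgebraicClosure ℚ) N) n ≃*
      UnrKummer ℂ (FNL ℂ N) n := kumEquiv bc n hfw hbw h2 h3
  let eD' : Additive (UnrKummer (AlgebraicClosure ℚ) (FNL (AlgebraicClosure ℚ) N) n) ≃+
      Additive (UnrKummer ℂ (FNL ℂ N) n) := MulEquiv.toAdditive eD
  let e : Pic0.torsion (AlgebraicClosure ℚ) (modularFunctionFieldBar N) n ≃+
      homPE (CongruenceSubgroup.Gamma0 N) (ZMod n) := (eK.symm.trans eD').trans eB
  -- the key computation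
  have key : ∀ (D : Divisor.degZero (K := AlgebraicClosure ℚ) (F := FNL (AlgebraicClosure ℚ) N))
      (f : FNL (AlgebraicClosure ℚ) N) (f' : FNL ℂ N) (hf : f ≠ 0)
      (x : Pic0.torsion (AlgebraicClosure ℚ) (modularFunctionFieldBar N) n),
      (x : JZero N) = Pic0.mk D →
      (∀ v : Place (AlgebraicClosure ℚ) (FNL (AlgebraicClosure ℚ) N),
        (n : ℤ) * (D : Divisor (AlgebraicClosure ℚ) (FNL (AlgebraicClosure ℚ) N)) v = v.ord f) →
      (∀ m : ℤ, (f' : LaurentSeries ℂ).coeff m =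
        ι ((f : LaurentSeries (AlgebraicClosure ℚ)).coeff m)) →
      HasChar N n f' ((e x : homPE (CongruenceSubgroup.Gamma0 N) (ZMod n)) :
        Additive (CongruenceSubgroup.Gamma0 N) →+ ZMod n) := by
    intro D f f' hf x hx hdiv hcoef
    let fu : unrSubgroup (AlgebraicClosure ℚ) (FNL (AlgebraicClosure ℚ) N) n :=
      ⟨Units.mk0 f hf, fun v => ⟨_, (hdiv v).symm⟩⟩
    have hx' : eK (Additive.ofMul (QuotientGroup.mk fu)) = x := by
      apply Subtype.ext
      rw [heK fu D (fun v => hdiv v), hx]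
    have hx'' : eK.symm x = Additive.ofMul (QuotientGroup.mk fu) := by
      rw [← hx', AddEquiv.symm_apply_apply]
    have he : e x = eB (Additive.ofMul (QuotientGroup.mk (unrMap bc n hfw fu))) := by
      show eB (eD' (eK.symm x)) = _
      rw [hx'']
      rfl
    rw [he]
    have := heB (unrMap bc n hfw fu)
    rw [coe_unrMap] at this
    have hbcf : bc f = f' := eq_of_isBaseChange N hbc f f' hcoef
    have hfu : ((fu : (FNL (AlgebraicClosure ℚ) N)ˣ) : FNL (AlgebraicClosure ℚ) N) = f := rfl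
    rw [hfu, hbcf] at this
    exact this
  refine ⟨e, ?_, ?_⟩
  · intro x
    obtain ⟨D, hD⟩ := Pic0.mk_surjective (x : JZero N)
    have hxn : (n : ℤ) • (x : JZero N) = 0 := Pic0.mem_torsion.1 x.2
    have hprin : ((n : ℤ) • D : Divisor.degZero (K := AlgebraicClosure ℚ)
        (F := FNL (AlgebraicClosure ℚ) N)) ∈
        (Divisor.principal (K := AlgebraicClosure ℚ)
          (F := FNL (AlgebraicClosure ℚ) N)).addSubgroupOf Divisor.degZero := by
      rw [← QuotientAddGroup.eq_zero_iff]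
      have : ((QuotientAddGroup.mk ((n : ℤ) • D)) : JZero N) = (n : ℤ) • Pic0.mk D := rfl
      rw [this, hD]
      exact hxn
    obtain ⟨f, hf, hfD⟩ := hprin
    refine ⟨D, f, bc f, hf, hD.symm, fun v => ?_, fun m => hbc f m, ?_⟩
    · rw [← hfD v]
      simp
    · refine key D f (bc f) hf x hD.symm (fun v => ?_) (fun m => hbc f m)
      rw [← hfD v]
      simp
  · rintro x φ ⟨D, f, f', hf, hx, hdiv, hcoef, hchar⟩
    have h := key D f f' hf x hx hdiv hcoef
    have hf' : f' ≠ 0 := by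
      intro h0
      have hbcf : bc f = f' := eq_of_isBaseChange N hbc f f' hcoef
      rw [h0] at hbcf
      exact hf ((map_eq_zero bc).1 hbcf)
    exact hC.1 f' _ _ hf' hchar h

/-- `Stmt_TOR` from `Stmt_TORc`. -/
theorem tor_of_torc (h : Stmt_TORc N n) : Stmt_TOR N n := by
  have : Algebra.IsAlgebraic ℚ (AlgebraicClosure ℚ) := AlgebraicClosure.isAlgebraic ℚ
  obtain ⟨ι⟩ : Nonempty (AlgebraicClosure ℚ →+* ℂ) :=
    ⟨((IsAlgClosed.lift : AlgebraicClosure ℚ →ₐ[ℚ] ℂ) : AlgebraicClosure ℚ →+* ℂ)⟩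
  obtain ⟨e, -, -⟩ := h ι
  exact ⟨e⟩

end Tor

end Fermat.Agent.GTor.H81

end
end
-- ==== END Fermat.Agent.GTor.H81_Tor
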