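-- GENERATED (merged mirror, NOTES/tools/trim/merge3_helper67.py): 1 modules of the originals, bodies verbatim.
import Fermat.Prelude.Def_ModularCurve_HeckeModule
import Fermat.Agent.Zm.S35_L02_001

-- ==== BEGIN Fermat.Agent.S37.H36_Wiring
section

/-!
# S37 (Eichler–Shimura congruence, packaged form): abstract wiring  (helper36)

`SpecializationExists N p J` asks, for every prime `ℓ ∤ N p` and every valuation subring `A` of
`ℚ̄` over `ℓ`, for a Hecke module `J'`, a Hecke-equivariant hom `sp : J → J'` and `F : J' → J'` with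
`sp ∘ τ = sp` (`τ` inertia), `sp ∘ σ = F ∘ sp` (`σ` Frobenius), `sp` injective on `p`-power torsion and
`F² - T_ℓ F + ℓ = 0` on `J'`.

This file reduces it to the existence of a plain group hom `red : J →+ Y` (NO Hecke structure on
`Y`, NO Hecke compatibility of `red`) and ONE Frobenius element `σ₀` such that
* `red (τ • x) = red x` for `τ` in the inertia group,
* `red x = 0 → red (σ₀ • x) = 0`,
* `red` is injective on `p`-power torsion,
* `red (σ₀ • σ₀ • x - T_ℓ • (σ₀ • x) + ℓ • x) = 0`.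

Construction: `M = {x | ∀ t : HeckeAlg, red (t • x) = 0}`, `J' = J ⧸ M`.

Main exports (namespace `Fermat.Agent.S37`):
* `frobenius_div_mem_inertia` : two Frobenius elements differ by an inertia element.
* `exists_specialization_of_red` : the abstract statement at one `(ℓ, A)`.
* `specializationExists_of_red` : the abstract statement for all `(ℓ, A)`.
* `specializationExists_JZero_of_red` : the same for `JZero N` in the exact shape of S37, with
  `T_ℓ` written as `heckeOperatorAlong (AlgebraicClosure ℚ) N ℓ`.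
-/

set_option autoImplicit false

namespace Fermat.Agent.S37

open ModularCurve

/-- Two Frobenius elements at the same valuation subring differ by an element of inertia. -/
theorem frobenius_div_mem_inertia {K L : Type*} [Field K] [Field L] [Algebra K L]
    (A : ValuationSubring L) (ℓ : ℕ) (σ₀ σ : L ≃ₐ[K] L)
    (h₀ : A.IsFrobeniusAt σ₀ ℓ) (h : A.IsFrobeniusAt σ ℓ) :
    σ₀⁻¹ * σ ∈ A.inertiaSubgroupIn K := by
  have hd₀ := h₀.mem_decompositionSubgroup
  have hd := h.mem_decompositionSubgroup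
  have hmem : σ₀⁻¹ * σ ∈ A.decompositionSubgroup K :=
    (A.decompositionSubgroup K).mul_mem ((A.decompositionSubgroup K).inv_mem hd₀) hd
  refine ⟨⟨σ₀⁻¹ * σ, hmem⟩, ?_, rfl⟩
  show (⟨σ₀⁻¹ * σ, hmem⟩ : A.decompositionSubgroup K) ∈ A.inertiaSubgroup K
  rw [ValuationSubring.inertiaSubgroup, MonoidHom.mem_ker]
  ext x
  have e : (⟨σ₀⁻¹ * σ, hmem⟩ : A.decompositionSubgroup K)
      = (⟨σ₀, hd₀⟩ : A.decompositionSubgroup K)⁻¹ * ⟨σ, hd⟩ := rfl
  show (⟨σ₀⁻¹ * σ, hmem⟩ : A.decompositionSubgroup K) • x = x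
  rw [e, mul_smul, h.smul_residue_eq x, inv_smul_eq_iff, h₀.smul_residue_eq x]

section Abstract

variable {K L : Type*} [Field K] [Field L] [Algebra K L]
variable {J : Type} [AddCommGroup J] [Module HeckeAlg J]
  [DistribMulAction (L ≃ₐ[K] L) J] [SMulCommClass (L ≃ₐ[K] L) HeckeAlg J]
variable {Y : Type*} [AddCommGroup Y]

/-- The Hecke-saturated kernel of a group hom `red : J →+ Y`. -/
def heckeKer (red : J →+ Y) : Submodule HeckeAlg J where
  carrier := {x | ∀ t : HeckeAlg, red (t • x) = 0}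
  zero_mem' := fun t => by rw [smul_zero, map_zero]
  add_mem' := fun {x y} hx hy t => by rw [smul_add, map_add, hx t, hy t, add_zero]
  smul_mem' := fun c x hx t => by rw [← mul_smul]; exact hx (t * c)

theorem mem_heckeKer {red : J →+ Y} {x : J} :
    x ∈ heckeKer red ↔ ∀ t : HeckeAlg, red (t • x) = 0 := Iff.rfl

theorem red_eq_zero_of_mem_heckeKer {red : J →+ Y} {x : J} (hx : x ∈ heckeKer red) :
    red x = 0 := by
  have := hx 1
  rwa [one_smul] at this

theorem smul_sub_mem_heckeKer (red : J →+ Y) (τ : L ≃ₐ[K] L)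
    (hτ : ∀ x : J, red (τ • x) = red x) (x : J) : τ • x - x ∈ heckeKer red := by
  intro t
  rw [smul_sub, map_sub, ← smul_comm τ t x, hτ, sub_self]

theorem smul_mem_heckeKer (red : J →+ Y) (σ : L ≃ₐ[K] L)
    (hσ : ∀ x : J, red x = 0 → red (σ • x) = 0) {x : J} (hx : x ∈ heckeKer red) :
    σ • x ∈ heckeKer red := by
  intro t
  rw [← smul_comm σ t x]
  exact hσ _ (hx t)

/-- The map induced by `σ` on `J ⧸ heckeKer red`. -/
noncomputable def frobQuot (red : J →+ Y) (σ : L ≃ₐ[K] L)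
    (hσ : ∀ x : J, red x = 0 → red (σ • x) = 0) :
    (J ⧸ heckeKer red) →+ (J ⧸ heckeKer red) :=
  QuotientAddGroup.map (heckeKer red).toAddSubgroup (heckeKer red).toAddSubgroup
    (DistribSMul.toAddMonoidHom J σ) (fun _ hx => smul_mem_heckeKer red σ hσ hx)

theorem frobQuot_mk (red : J →+ Y) (σ : L ≃ₐ[K] L)
    (hσ : ∀ x : J, red x = 0 → red (σ • x) = 0) (x : J) :
    frobQuot red σ hσ ((heckeKer red).mkQ x) = (heckeKer red).mkQ (σ • x) := rfl

/-- **Abstract wiring at one place.** -/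
theorem exists_specialization_of_red (p ℓ : ℕ) (hℓ : ℓ.Prime) (A : ValuationSubring L)
    (red : J →+ Y) (σ₀ : L ≃ₐ[K] L) (hσ₀ : A.IsFrobeniusAt σ₀ ℓ)
    (h_inertia : ∀ τ ∈ A.inertiaSubgroupIn K, ∀ x : J, red (τ • x) = red x)
    (h_frob : ∀ x : J, red x = 0 → red (σ₀ • x) = 0)
    (h_inj : ∀ x : J, (∃ n : ℕ, p ^ n • x = 0) → red x = 0 → x = 0)
    (h_ES : ∀ x : J, red (σ₀ • σ₀ • x - heckeGen ⟨ℓ, hℓ⟩ • (σ₀ • x) + ℓ • x) = 0) :
    ∃ (J' : Type) (_ : AddCommGroup J') (_ : Module HeckeAlg J') (sp : J →+ J')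
      (F : J' →+ J'),
      IsSpecialization (K := K) p J J' A ℓ sp F ∧ SpecialFibreRelation J' ℓ hℓ F := by
  refine ⟨J ⧸ heckeKer red, inferInstance, inferInstance, (heckeKer red).mkQ.toAddMonoidHom,
    frobQuot red σ₀ h_frob, ⟨?_, ?_, ?_, ?_⟩, ?_⟩
  · -- Hecke equivariance
    intro T x
    rfl
  · -- inertia invariance
    intro τ hτ x
    show (heckeKer red).mkQ (τ • x) = (heckeKer red).mkQ x
    rw [← sub_eq_zero, ← map_sub, Submodule.mkQ_apply, Submodule.Quotient.mk_eq_zero]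
    exact smul_sub_mem_heckeKer red τ (h_inertia τ hτ) x
  · -- Frobenius equivariance
    intro σ hσ x
    show (heckeKer red).mkQ (σ • x) = frobQuot red σ₀ h_frob ((heckeKer red).mkQ x)
    rw [frobQuot_mk, ← sub_eq_zero, ← map_sub, Submodule.mkQ_apply,
      Submodule.Quotient.mk_eq_zero]
    have hτ := frobenius_div_mem_inertia A ℓ σ₀ σ hσ₀ hσ
    have h1 : σ • x - σ₀ • x = σ₀ • ((σ₀⁻¹ * σ) • x - x) := by
      rw [smul_sub, ← mul_smul, mul_inv_cancel_left]
    rw [h1]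
    exact smul_mem_heckeKer red σ₀ h_frob
      (smul_sub_mem_heckeKer red _ (h_inertia _ hτ) x)
  · -- injectivity on p-power torsion
    intro x hx h0
    have h0' : (heckeKer red).mkQ x = 0 := h0
    rw [Submodule.mkQ_apply, Submodule.Quotient.mk_eq_zero] at h0'
    exact h_inj x hx (red_eq_zero_of_mem_heckeKer h0')
  · -- the relation on the special fibre
    intro y
    obtain ⟨x, rfl⟩ := (heckeKer red).mkQ_surjective y
    rw [frobQuot_mk, frobQuot_mk]
    have e : (heckeKer red).mkQ (σ₀ • σ₀ • x) - heckeGen ⟨ℓ, hℓ⟩ • (heckeKer red).mkQ (σ₀ • x)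
        + ℓ • (heckeKer red).mkQ x
        = (heckeKer red).mkQ (σ₀ • σ₀ • x - heckeGen ⟨ℓ, hℓ⟩ • (σ₀ • x) + ℓ • x) := by
      rw [map_add, map_sub, (heckeKer red).mkQ.map_smul (heckeGen ⟨ℓ, hℓ⟩) (σ₀ • x),
        map_nsmul]
    rw [e, Submodule.mkQ_apply, Submodule.Quotient.mk_eq_zero]
    intro t
    have h2 : t • (σ₀ • σ₀ • x - heckeGen ⟨ℓ, hℓ⟩ • (σ₀ • x) + ℓ • x)
        = σ₀ • σ₀ • (t • x) - heckeGen ⟨ℓ, hℓ⟩ • (σ₀ • (t • x)) + ℓ • (t • x) := by
      rw [smul_add, smul_sub, smul_comm t (heckeGen ⟨ℓ, hℓ⟩) (σ₀ • x), ← smul_comm σ₀ t x,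
        ← smul_comm σ₀ t (σ₀ • x), ← smul_comm σ₀ t x, smul_comm t ℓ x]
    rw [h2]
    exact h_ES (t • x)

/-- **Abstract wiring, all places.** -/
theorem specializationExists_of_red (N p : ℕ)
    (h : ∀ ℓ : ℕ, (hℓ : ℓ.Prime) → ¬ ℓ ∣ N * p →
      ∀ A : ValuationSubring L, A.LiesOverPrime ℓ →
        ∃ (Y : Type) (_ : AddCommGroup Y) (red : J →+ Y) (σ₀ : L ≃ₐ[K] L),
          A.IsFrobeniusAt σ₀ ℓ ∧
          (∀ τ ∈ A.inertiaSubgroupIn K, ∀ x : J, red (τ • x) = red x) ∧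
          (∀ x : J, red x = 0 → red (σ₀ • x) = 0) ∧
          (∀ x : J, (∃ n : ℕ, p ^ n • x = 0) → red x = 0 → x = 0) ∧
          (∀ x : J, red (σ₀ • σ₀ • x - heckeGen ⟨ℓ, hℓ⟩ • (σ₀ • x) + ℓ • x) = 0)) :
    SpecializationExists (K := K) (L := L) N p J := by
  intro ℓ hℓ hndvd A hA
  obtain ⟨Y, _, red, σ₀, hσ₀, h1, h2, h3, h4⟩ := h ℓ hℓ hndvd A hA
  exact exists_specialization_of_red p ℓ hℓ A red σ₀ hσ₀ h1 h2 h3 h4

end Abstract

section JZeroCase

/-- The reduction package needed for S37 at one place `(ℓ, A)`: a group hom `red` from `JZero N`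
to some abelian group such that, for some Frobenius element `σ₀` at `A`: `red` is invariant under
inertia, `ker red` is `σ₀`-stable, `red` is injective on `p`-power torsion and the
Eichler–Shimura relation `σ₀² - T_ℓ σ₀ + ℓ` lands in `ker red`.  Here `T_ℓ` is the prelude's
`heckeOperatorAlong (AlgebraicClosure ℚ) N ℓ`. -/
def RedPackage (N p ℓ : ℕ) [NeZero N] [NeZero ℓ]
    (A : ValuationSubring (AlgebraicClosure ℚ)) : Prop :=
  ∃ (Y : Type) (_ : AddCommGroup Y) (red : JZero N →+ Y)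
    (σ₀ : AlgebraicClosure ℚ ≃ₐ[ℚ] AlgebraicClosure ℚ),
    A.IsFrobeniusAt σ₀ ℓ ∧
    (∀ τ ∈ A.inertiaSubgroupIn ℚ, ∀ x : JZero N, red (τ • x) = red x) ∧
    (∀ x : JZero N, red x = 0 → red (σ₀ • x) = 0) ∧
    (∀ x : JZero N, (∃ n : ℕ, p ^ n • x = 0) → red x = 0 → x = 0) ∧
    (∀ x : JZero N,
      red (σ₀ • σ₀ • x - heckeOperatorAlong (AlgebraicClosure ℚ) N ℓ (σ₀ • x) + ℓ • x) = 0)

/-- **S37 from reduction packages** (exact shape of the frozen statement). -/
theorem specializationExists_JZero_of_red (N p : ℕ) [NeZero N]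
    (hcomm : HeckeOperatorsCommuteBar N)
    (hred : ∀ ℓ : ℕ, (hℓ : ℓ.Prime) → ¬ ℓ ∣ N * p →
      ∀ A : ValuationSubring (AlgebraicClosure ℚ), A.LiesOverPrime ℓ →
        haveI : NeZero ℓ := ⟨hℓ.ne_zero⟩
        RedPackage N p ℓ A) :
    letI := heckeModuleBar N
    ∀ (_ : SMulCommClass (AlgebraicClosure ℚ ≃ₐ[ℚ] AlgebraicClosure ℚ) HeckeAlg (JZero N)),
      SpecializationExists (K := ℚ) (L := AlgebraicClosure ℚ) N p (JZero N) := by
  intro inst
  refine @specializationExists_of_red ℚ (AlgebraicClosure ℚ) _ _ _ (JZero N) _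
    (heckeModuleBar N) _ inst N p ?_
  intro ℓ hℓ hndvd A hA
  obtain ⟨Y, instY, red, σ₀, hσ₀, h1, h2, h3, h4⟩ := hred ℓ hℓ hndvd A hA
  refine ⟨Y, instY, red, σ₀, hσ₀, h1, h2, h3, fun x => ?_⟩
  have e := heckeModuleBar_heckeGen_smul hcomm ⟨ℓ, hℓ⟩ (σ₀ • x)
  rw [e]
  exact h4 x

end JZeroCase

end Fermat.Agent.S37

end
-- ==== END Fermat.Agent.S37.H36_Wiring
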