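-- GENERATED (merged mirror, NOTES/tools/trim/merge3_helper67.py): 8 modules of the originals, bodies verbatim.
import Mathlib
import Mathlib.RingTheory.PowerSeries.Expand
import Fermat.Agent.Zm.S35_L04_001
import Fermat.Agent.Zm.S35_L03_006
import Fermat.Agent.Zm.S35_L04_002
import Fermat.Agent.Zm.S35_L02_002
import Fermat.Agent.Zm.S35_L02_001
import Fermat.Agent.Zm.S35_L03_002
import Fermat.Agent.Zm.S35_L04_005
import Fermat.Agent.Zm.S35_L04_003
import Fermat.Agent.RED.H29_Mod3Alg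
import Fermat.Agent.S28.H76_Bridge
import Fermat.Agent.S23.H96_LevelOne
import Fermat.Agent.Zm.S35_L01_002

-- ==== BEGIN Fermat.Agent.GTor.H81_TorsRed
section

/-!
# G-TOR plumbing: inertia and Eichler–Shimura on `p`-power torsion from G-RED's `RedPackage`
(helper81)
-/

set_option autoImplicit false

noncomputable section

namespace Fermat.Agent.GTor.H81

open AlgebraicCurve ModularCurve Fermat.Agent.GTor Fermat.Agent.S37

variable (N p : ℕ) [NeZero N]

/-- The hypothesis of G-RED: a reduction package at every place over every prime `ℓ ∤ N p`. -/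
def AllRed : Prop :=
  ∀ ℓ : ℕ, (hℓ : ℓ.Prime) → ¬ ℓ ∣ N * p →
    ∀ A : ValuationSubring (AlgebraicClosure ℚ), A.LiesOverPrime ℓ →
      haveI : NeZero ℓ := ⟨hℓ.ne_zero⟩
      RedPackage N p ℓ A

variable {N p}

omit [NeZero N] in
theorem not_dvd_mul_of_prime (hp : p.Prime) {q : ℕ} (hq : q.Prime) (hqN : ¬ q ∣ N)
    (hqp : q ≠ p) : ¬ q ∣ N * p := by
  intro h
  rcases (Nat.Prime.dvd_mul hq).1 h with h | h
  · exact hqN h
  · exact hqp ((Nat.prime_dvd_prime_iff_eq hq hp).1 h)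

/-- the action of a Galois element as an additive map. -/
def galHom (N : ℕ) [NeZero N] (σ : GQ) : JZero N →+ JZero N where
  toFun x := σ • x
  map_zero' := smul_zero σ
  map_add' := smul_add σ

@[simp] theorem galHom_apply (σ : GQ) (x : JZero N) : galHom N σ x = σ • x := rfl

theorem gal_nsmul (σ : GQ) (m : ℕ) (x : JZero N) : m • (σ • x) = σ • (m • x) :=
  ((galHom N σ).map_nsmul m x).symm

theorem gal_sub (σ : GQ) (x y : JZero N) : σ • (x - y) = σ • x - σ • y :=
  (galHom N σ).map_sub x y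

theorem gal_zero (σ : GQ) : σ • (0 : JZero N) = 0 := (galHom N σ).map_zero

theorem torsion_smul (σ : GQ) {x : JZero N} (hx : ∃ n : ℕ, p ^ n • x = 0) :
    ∃ n : ℕ, p ^ n • (σ • x) = 0 := by
  obtain ⟨n, hn⟩ := hx
  exact ⟨n, by rw [gal_nsmul, hn, gal_zero]⟩

/-- inertia acts trivially on `p`-power torsion. -/
theorem torsUnram_of_red (hp : p.Prime) (hred : AllRed N p) : Stmt_TorsUnram N p := by
  intro q hq hqN hqp P hP σ hσ x hx
  have : NeZero q := ⟨hq.ne_zero⟩
  obtain ⟨Y, _, red, σ₀, -, h1, -, h3, -⟩ := hred q hq (not_dvd_mul_of_prime hp hq hqN hqp) P hP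
  obtain ⟨n, hn⟩ := hx
  have h0 : red (σ • x - x) = 0 := by rw [map_sub, h1 σ hσ x, sub_self]
  have ht : p ^ n • (σ • x - x) = 0 := by
    rw [nsmul_sub, gal_nsmul, hn, gal_zero, sub_zero]
  exact sub_eq_zero.1 (h3 _ ⟨n, ht⟩ h0)

/-- the Eichler–Shimura relation on `p`-power torsion, for all Frobenius elements. -/
theorem torsES_of_red (hp : p.Prime) (hred : AllRed N p) : Stmt_TorsES N p := by
  intro ℓ hℓ hℓN hℓp A hA σ hσ x hx
  have : NeZero ℓ := ⟨hℓ.ne_zero⟩
  have hunr := torsUnram_of_red hp hred ℓ hℓ hℓN hℓp A hA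
  obtain ⟨Y, _, red, σ₀, hσ₀, -, -, h3, h4⟩ :=
    hred ℓ hℓ (not_dvd_mul_of_prime hp hℓ hℓN hℓp) A hA
  -- `σ = σ₀ τ` with `τ` in inertia
  have hτ := frobenius_div_mem_inertia A ℓ σ₀ σ hσ₀ hσ
  have hσx : ∀ y : JZero N, (∃ n : ℕ, p ^ n • y = 0) → σ • y = σ₀ • y := by
    intro y hy
    have h := hunr (σ₀⁻¹ * σ) hτ y hy
    have : σ • y = σ₀ • ((σ₀⁻¹ * σ) • y) := by
      rw [← mul_smul, mul_inv_cancel_left]
    rw [this, h]
  rw [hσx x hx, hσx (σ₀ • x) (torsion_smul σ₀ hx)]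
  obtain ⟨n, hn⟩ := hx
  have hT : heckeOperatorBar N ⟨ℓ, hℓ⟩ (σ₀ • x) =
      heckeOperatorAlong (AlgebraicClosure ℚ) N ℓ (σ₀ • x) := rfl
  rw [hT]
  refine h3 _ ⟨n, ?_⟩ (h4 x)
  have e1 : p ^ n • (σ₀ • σ₀ • x) = 0 := by
    rw [gal_nsmul, gal_nsmul, hn, gal_zero, gal_zero]
  have e2 : p ^ n • (heckeOperatorAlong (AlgebraicClosure ℚ) N ℓ (σ₀ • x)) = 0 := by
    rw [← map_nsmul, gal_nsmul, hn, gal_zero, map_zero]
  have e3 : p ^ n • (ℓ • x) = 0 := by
    rw [smul_comm, hn, smul_zero]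
  rw [nsmul_add, nsmul_sub, e1, e2, e3, sub_zero, add_zero]

end Fermat.Agent.GTor.H81

end
end
-- ==== END Fermat.Agent.GTor.H81_TorsRed

-- ==== BEGIN Fermat.Agent.R.Pet.L3a
section

/-!
# Cluster R, leaf L3a: the anemic Hecke algebra of `S_k(Γ₀(N))` is reduced.

Assembly of the Pet mini-project (helper58 coordinator; helper22, helper24, helper78, helper98).
-/

set_option autoImplicit false

namespace Fermat.Agent.R.Pet

open CongruenceSubgroup

/-- The Petersson pairing exists: positive definite, biadditive, `T_ℓ` (`ℓ ∤ N`) self-adjoint. -/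
theorem stmt_pet (N : ℕ) [NeZero N] (k : ℤ) : Stmt_pet N k :=
  stmt_pet_of stmt_open_pos
    (H22.stmt_exists_fd_Gamma (H98.stmt_exists_fd_of H78.fd_boundary_null H78.fd_volume_lt_top))
    H24.stmt_mean_level stmt_pos
    (H98.stmt_adj_of H24.stmt_mean_SL H22.stmt_comm0 H22.stmt_conj0 H22.stmt_conjInf) N k

/-- **L3a**: for `S ⊇ {primes dividing N}`, the Hecke algebra `heckeAlgebra N k S` is reduced. -/
theorem stmt_L3a : Stmt_L3a :=
  fun N _ k S hS => reduced_of_pet N k S hS (stmt_pet N k)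

/-- L3a in the consumer's shape. -/
theorem heckeAlgebra_isReduced (N : ℕ) [NeZero N] (k : ℤ) (S : Set ℕ)
    (hS : ∀ q : ℕ, q.Prime → q ∣ N → q ∈ S) : IsReduced (CuspForm.heckeAlgebra N k S) :=
  stmt_L3a N k S hS

end Fermat.Agent.R.Pet

end
-- ==== END Fermat.Agent.R.Pet.L3a

-- ==== BEGIN Fermat.Agent.RED.ES.H95_Cosets
section

/-!
# G-RED, package ES (helper95): the cosets of `Γ₀(N) ∩ Γ⁰(ℓ)` in `Γ₀(N)`

`dg d e = [[d, 0], [0, e]]`.  For `d ∣ N` the function `j ∘ dg d ℓ` (`τ ↦ j (d τ / ℓ)`) is fixed by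
`Γ₀(N) ∩ Γ⁰(ℓ)`; the cosets of this group in `Γ₀(N)` are represented by `T ^ b` (`0 ≤ b < ℓ`) and
by `deltaInf`, and `deltaInf • (j ∘ dg d ℓ) = j ∘ dg (d ℓ) 1`.

The action is `(γ • f) τ = f (γ⁻¹ τ)`, so `γ • (j ∘ A) = j ∘ (A γ⁻¹)`.
-/

set_option autoImplicit false

noncomputable section

namespace Fermat.Agent.RED.H95

open Fermat.Agent.S24 Matrix ModularGroup CongruenceSubgroup UpperHalfPlane
open scoped MatrixGroups

/-- The diagonal matrix `[[d, 0], [0, e]]`. -/
def dg (d e : ℤ) : Matrix (Fin 2) (Fin 2) ℤ := !![d, 0; 0, e]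

theorem det_dg (d e : ℤ) : (dg d e).det = d * e := by
  simp [dg, Matrix.det_fin_two]

theorem det_dg_pos {d e : ℤ} (hd : 0 < d) (he : 0 < e) : 0 < (dg d e).det := by
  rw [det_dg]; exact mul_pos hd he

/-- Conjugating by `dg d e` an element with `e ∣` upper right entry and `d ∣` lower left entry. -/
theorem exists_dg_mul_eq (d e : ℤ) (δ : SL(2, ℤ)) (b₁ c₁ : ℤ) (hb : δ.1 0 1 = e * b₁)
    (hc : δ.1 1 0 = d * c₁) :
    ∃ γ' : SL(2, ℤ), dg d e * δ.1 = γ'.1 * dg d e := by
  have hdet : δ.1 0 0 * δ.1 1 1 - δ.1 0 1 * δ.1 1 0 = 1 := by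
    have := δ.2
    rwa [Matrix.det_fin_two] at this
  refine ⟨⟨!![δ.1 0 0, d * b₁; e * c₁, δ.1 1 1], ?_⟩, ?_⟩
  · rw [Matrix.det_fin_two_of]
    rw [hb, hc] at hdet
    linear_combination hdet
  · show dg d e * δ.1 = !![δ.1 0 0, d * b₁; e * c₁, δ.1 1 1] * dg d e
    have e1 : δ.1 = !![δ.1 0 0, e * b₁; d * c₁, δ.1 1 1] := by
      conv_lhs => rw [Matrix.eta_fin_two δ.1, hb, hc]
    conv_lhs => rw [e1]
    ext i j
    fin_cases i <;> fin_cases j <;> simp [dg, Matrix.mul_apply, Fin.sum_univ_two] <;> ring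

/-- An element `η` with `e ∣ (η⁻¹)₀₁` and `d ∣ (η⁻¹)₁₀` fixes `j ∘ dg d e`. -/
theorem smul_JA_dg (d e : ℤ) (hd : 0 < d) (he : 0 < e) (η : SL(2, ℤ))
    (hb : e ∣ (η⁻¹ : SL(2, ℤ)).1 0 1) (hc : d ∣ (η⁻¹ : SL(2, ℤ)).1 1 0) :
    η • JA (dg d e) = JA (dg d e) := by
  obtain ⟨b₁, hb₁⟩ := hb
  obtain ⟨c₁, hc₁⟩ := hc
  obtain ⟨γ', hγ'⟩ := exists_dg_mul_eq d e η⁻¹ b₁ c₁ hb₁ hc₁
  exact smul_JA_eq_of_mul_eq η γ' _ (det_dg_pos hd he) hγ'

/-- `Γ₀(N)` fixes `j ∘ dg d 1` for `d ∣ N`. -/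
theorem smul_JA_dg_one_of_mem_Gamma0 (N : ℕ) (d : ℤ) (hd : 0 < d) (hdN : d ∣ (N : ℤ))
    (γ : SL(2, ℤ)) (hγ : γ ∈ Gamma0 N) : γ • JA (dg d 1) = JA (dg d 1) := by
  have hγ' : γ⁻¹ ∈ Gamma0 N := inv_mem hγ
  rw [Gamma0_mem] at hγ'
  have hN : (N : ℤ) ∣ (γ⁻¹ : SL(2, ℤ)).1 1 0 := (ZMod.intCast_zmod_eq_zero_iff_dvd _ N).mp hγ'
  exact smul_JA_dg d 1 hd one_pos γ (one_dvd _) (dvd_trans hdN hN)

/-! ### The extra coset -/

/-- The inverse of `deltaInf`: the matrix `[[ℓ, v], [-N, u]]`, `u ℓ + v N = 1`. -/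
def epsInf (N ℓ : ℕ) (u v : ℤ) (h : u * ℓ + v * N = 1) : SL(2, ℤ) :=
  ⟨!![(ℓ : ℤ), v; -(N : ℤ), u], by rw [Matrix.det_fin_two_of]; linear_combination h⟩

/-- The representative of the extra coset. -/
def deltaInf (N ℓ : ℕ) (u v : ℤ) (h : u * ℓ + v * N = 1) : SL(2, ℤ) := (epsInf N ℓ u v h)⁻¹

theorem deltaInf_inv (N ℓ : ℕ) (u v : ℤ) (h : u * ℓ + v * N = 1) :
    (deltaInf N ℓ u v h)⁻¹ = epsInf N ℓ u v h := inv_inv _

theorem coe_deltaInf (N ℓ : ℕ) (u v : ℤ) (h : u * ℓ + v * N = 1) :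
    (deltaInf N ℓ u v h).1 = !![u, -v; (N : ℤ), (ℓ : ℤ)] := by
  rw [deltaInf, Matrix.SpecialLinearGroup.coe_inv, epsInf]
  simp [Matrix.adjugate_fin_two]

theorem epsInf_mem_Gamma0 (N ℓ : ℕ) (u v : ℤ) (h : u * ℓ + v * N = 1) :
    epsInf N ℓ u v h ∈ Gamma0 N := by
  rw [Gamma0_mem]
  show (((-(N : ℤ) : ℤ)) : ZMod N) = 0
  simp

theorem deltaInf_mem_Gamma0 (N ℓ : ℕ) (u v : ℤ) (h : u * ℓ + v * N = 1) :
    deltaInf N ℓ u v h ∈ Gamma0 N := inv_mem (epsInf_mem_Gamma0 N ℓ u v h)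

/-- `deltaInf • (j ∘ dg d ℓ) = j ∘ dg (d ℓ) 1` for `d ∣ N`. -/
theorem deltaInf_smul_JA (N ℓ : ℕ) (u v : ℤ) (h : u * ℓ + v * N = 1) (d : ℤ) (hd : 0 < d)
    (hℓ : 0 < ℓ) (hdN : d ∣ (N : ℤ)) :
    deltaInf N ℓ u v h • JA (dg d ℓ) = JA (dg (d * ℓ) 1) := by
  obtain ⟨N₁, hN₁⟩ := hdN
  have hℓ' : (0 : ℤ) < ℓ := by exact_mod_cast hℓ
  rw [smul_JA _ _ (det_dg_pos hd hℓ'), deltaInf_inv]
  have hdet : (!![(1 : ℤ), d * v; -N₁, (ℓ : ℤ) * u] : Matrix (Fin 2) (Fin 2) ℤ).det = 1 := by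
    rw [Matrix.det_fin_two_of]
    rw [hN₁] at h
    linear_combination h
  have hmul : dg d ℓ * (epsInf N ℓ u v h).1
      = (⟨!![(1 : ℤ), d * v; -N₁, (ℓ : ℤ) * u], hdet⟩ : SL(2, ℤ)).1 * dg (d * ℓ) 1 := by
    show dg d ℓ * !![(ℓ : ℤ), v; -(N : ℤ), u]
      = !![(1 : ℤ), d * v; -N₁, (ℓ : ℤ) * u] * dg (d * ℓ) 1
    rw [hN₁]
    ext i j
    fin_cases i <;> fin_cases j <;> simp [dg, Matrix.mul_apply, Fin.sum_univ_two] <;> ring
  have hfin := JA_mul_left (⟨!![(1 : ℤ), d * v; -N₁, (ℓ : ℤ) * u], hdet⟩ : SL(2, ℤ))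
    (dg (d * ℓ) 1) (det_dg_pos (mul_pos hd hℓ') one_pos)
  rw [hmul]
  exact hfin

/-! ### The covering -/

/-- The representatives: `T ^ b` for `b < ℓ` and `deltaInf`. -/
def cosetRep (N ℓ : ℕ) (u v : ℤ) (h : u * ℓ + v * N = 1) : Option (Fin ℓ) → SL(2, ℤ)
  | some b => T ^ (b : ℕ)
  | none => deltaInf N ℓ u v h

theorem cosetRep_mem_Gamma0 (N ℓ : ℕ) (u v : ℤ) (h : u * ℓ + v * N = 1) (c : Option (Fin ℓ)) :
    cosetRep N ℓ u v h c ∈ Gamma0 N := by
  cases c with
  | none => exact deltaInf_mem_Gamma0 N ℓ u v h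
  | some b =>
    show T ^ (b : ℕ) ∈ Gamma0 N
    rw [Gamma0_mem]
    have hT : ((T ^ (b : ℕ) : SL(2, ℤ)) : Matrix (Fin 2) (Fin 2) ℤ) = !![1, ((b : ℕ) : ℤ); 0, 1] := by
      have := ModularGroup.coe_T_zpow ((b : ℕ) : ℤ)
      rwa [zpow_natCast] at this
    have : ((T ^ (b : ℕ) : SL(2, ℤ)) 1 0 : ℤ) = 0 := by
      show ((T ^ (b : ℕ) : SL(2, ℤ)) : Matrix (Fin 2) (Fin 2) ℤ) 1 0 = 0
      rw [hT]; rfl
    rw [this, Int.cast_zero]

/-- Entries of a product with `!![x, y; z, w]` on the right. -/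
theorem mul_of_apply_zero_one (A : Matrix (Fin 2) (Fin 2) ℤ) (x y z w : ℤ) :
    (A * !![x, y; z, w]) 0 1 = A 0 0 * y + A 0 1 * w := by
  simp [Matrix.mul_apply, Fin.sum_univ_two]

theorem mul_of_apply_one_zero (A : Matrix (Fin 2) (Fin 2) ℤ) (x y z w : ℤ) :
    (A * !![x, y; z, w]) 1 0 = A 1 0 * x + A 1 1 * z := by
  simp [Matrix.mul_apply, Fin.sum_univ_two]

/-- **The covering.** Every `γ ∈ Γ₀(N)` is `cosetRep c * η` with `η ∈ Γ₀(N) ∩ Γ⁰(ℓ)`
(expressed on `η⁻¹`). -/
theorem exists_cosetRep (N ℓ : ℕ) (hℓ : ℓ.Prime) (u v : ℤ) (h : u * ℓ + v * N = 1)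
    (γ : SL(2, ℤ)) (hγ : γ ∈ Gamma0 N) :
    ∃ (c : Option (Fin ℓ)) (η : SL(2, ℤ)), γ = cosetRep N ℓ u v h c * η ∧
      (ℓ : ℤ) ∣ (η⁻¹ : SL(2, ℤ)).1 0 1 ∧ (N : ℤ) ∣ (η⁻¹ : SL(2, ℤ)).1 1 0 := by
  have hγ' : γ⁻¹ ∈ Gamma0 N := inv_mem hγ
  rw [Gamma0_mem] at hγ'
  have hN : (N : ℤ) ∣ (γ⁻¹ : SL(2, ℤ)).1 1 0 := (ZMod.intCast_zmod_eq_zero_iff_dvd _ N).mp hγ'
  have : Fact ℓ.Prime := ⟨hℓ⟩
  by_cases hla : (ℓ : ℤ) ∣ (γ⁻¹ : SL(2, ℤ)).1 0 0
  · -- the extra coset
    have e1 : ((deltaInf N ℓ u v h)⁻¹ * γ)⁻¹ = γ⁻¹ * deltaInf N ℓ u v h := by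
      rw [_root_.mul_inv_rev, inv_inv]
    refine ⟨none, (deltaInf N ℓ u v h)⁻¹ * γ, ?_, ?_, ?_⟩
    · show γ = deltaInf N ℓ u v h * ((deltaInf N ℓ u v h)⁻¹ * γ)
      rw [mul_inv_cancel_left]
    · rw [e1, Matrix.SpecialLinearGroup.coe_mul, coe_deltaInf, mul_of_apply_zero_one]
      exact dvd_add (Dvd.dvd.mul_right hla _) (Dvd.intro_left _ rfl)
    · rw [e1, Matrix.SpecialLinearGroup.coe_mul, coe_deltaInf, mul_of_apply_one_zero]
      exact dvd_add (Dvd.dvd.mul_right hN _) (Dvd.intro_left _ rfl)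
  · -- a translation
    set a := (γ⁻¹ : SL(2, ℤ)).1 0 0 with ha
    set b' := (γ⁻¹ : SL(2, ℤ)).1 0 1 with hb'
    have ha0 : ((a : ZMod ℓ)) ≠ 0 := by
      rwa [Ne, ZMod.intCast_zmod_eq_zero_iff_dvd]
    -- `b ≡ - b' / a`
    set bz : ZMod ℓ := -(b' : ZMod ℓ) * (a : ZMod ℓ)⁻¹ with hbz
    set b : ℕ := bz.val with hb
    have hblt : b < ℓ := ZMod.val_lt bz
    have hbcast : ((b : ℕ) : ZMod ℓ) = bz := by
      rw [hb, ZMod.natCast_zmod_val]
    have hkey : (ℓ : ℤ) ∣ a * (b : ℤ) + b' * 1 := by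
      rw [← ZMod.intCast_zmod_eq_zero_iff_dvd]
      push_cast
      rw [hbcast, hbz]
      field_simp
      ring
    have hT : ((T ^ b : SL(2, ℤ)) : Matrix (Fin 2) (Fin 2) ℤ) = !![1, (b : ℤ); 0, 1] := by
      have := ModularGroup.coe_T_zpow (b : ℤ)
      rwa [zpow_natCast] at this
    have e1 : ((T ^ b : SL(2, ℤ))⁻¹ * γ)⁻¹ = γ⁻¹ * T ^ b := by
      rw [_root_.mul_inv_rev, inv_inv]
    refine ⟨some ⟨b, hblt⟩, (T ^ b)⁻¹ * γ, ?_, ?_, ?_⟩
    · show γ = T ^ b * ((T ^ b)⁻¹ * γ)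
      rw [mul_inv_cancel_left]
    · rw [e1, Matrix.SpecialLinearGroup.coe_mul, hT, mul_of_apply_zero_one]
      exact hkey
    · rw [e1, Matrix.SpecialLinearGroup.coe_mul, hT, mul_of_apply_one_zero]
      rw [mul_one, mul_zero, add_zero]
      exact hN

end Fermat.Agent.RED.H95

end
end
-- ==== END Fermat.Agent.RED.ES.H95_Cosets

-- ==== BEGIN Fermat.Agent.RED.H10_ConsNorm
section

/-!
# G-RED package CONS (helper10), part C1: norm and characteristic polynomial commute with reduction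

Setting of helper34's `H34_Lattice`: `S : RedSetting C F k Ft`, `x ∈ V` with transcendental
reduction `xt`, `bF` a `C(x)`-basis of `F` contained in `V` whose reduction `bt` is a
`k(xt)`-basis of `Ft`.

* `mulMat`       : the matrix of multiplication by `f ∈ V`, with entries in `Vx = V ∩ C(x)`;
* `mulMat_map_subtype`, `mulMat_map_redx` : it maps to the matrices of `f` and of `red f`;
* `norm_red`     : `N f ∈ Vx` and `red (N f) = N (red f)`;
* `charpoly_red` : the same for the characteristic polynomial.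
-/

set_option autoImplicit false

noncomputable section

open Polynomial IntermediateField

namespace Fermat.Agent.RED.H10

open Fermat.Agent.RED.H34 Fermat.Agent.RED.H34.RedSetting

variable {C F k Ft : Type} [Field C] [Field F] [Algebra C F] [Field k] [Field Ft] [Algebra k Ft]
variable {S : RedSetting C F k Ft} {x : F} (hx : x ∈ S.V)
variable {ι : Type} [Fintype ι] [DecidableEq ι]
variable (bF : Module.Basis ι ↥C⟮x⟯ F) (hbV : ∀ i, bF i ∈ S.V)
variable (bt : Module.Basis ι ↥k⟮S.red ⟨x, hx⟩⟯ Ft) (hbt : ∀ i, bt i = S.red ⟨bF i, hbV i⟩)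

/-- The matrix of multiplication by `f ∈ V` in the basis `bF`, with entries in `Vx`. -/
def mulMat (hxt : Transcendental k (S.red ⟨x, hx⟩)) (f : F) (hf : f ∈ S.V) :
    Matrix ι ι ↥(S.Vx x) :=
  Matrix.of fun i j => ⟨bF.repr (f * bF j) i,
    repr_mem_V hx bF hbV bt hbt hxt _ (mul_mem hf (hbV j)) i⟩

theorem mulMat_map_subtype (hxt : Transcendental k (S.red ⟨x, hx⟩)) (f : F) (hf : f ∈ S.V) :
    (S.Vx x).subtype.mapMatrix (mulMat hx bF hbV bt hbt hxt f hf) =
      Algebra.leftMulMatrix bF f := by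
  refine Matrix.ext fun i j => ?_
  rw [Algebra.leftMulMatrix_eq_repr_mul]
  rfl

theorem mulMat_map_redx (hxt : Transcendental k (S.red ⟨x, hx⟩)) (f : F) (hf : f ∈ S.V) :
    (redx hx hxt).mapMatrix (mulMat hx bF hbV bt hbt hxt f hf) =
      Algebra.leftMulMatrix bt (S.red ⟨f, hf⟩) := by
  refine Matrix.ext fun i j => ?_
  rw [Algebra.leftMulMatrix_eq_repr_mul, hbt j, ← map_mul]
  exact (repr_red hx bF hbV bt hbt hxt (f * bF j) (mul_mem hf (hbV j)) i).symm

include hbt in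
/-- The norm of an element of `V` lies in `Vx`, and reduces to the norm of the reduction. -/
theorem norm_red (hxt : Transcendental k (S.red ⟨x, hx⟩)) (f : F) (hf : f ∈ S.V) :
    ∃ t : ↥(S.Vx x), (t : ↥C⟮x⟯) = Algebra.norm ↥C⟮x⟯ f ∧
      redx hx hxt t = Algebra.norm ↥k⟮S.red ⟨x, hx⟩⟯ (S.red ⟨f, hf⟩) := by
  refine ⟨(mulMat hx bF hbV bt hbt hxt f hf).det, ?_, ?_⟩
  · rw [Algebra.norm_eq_matrix_det bF, ← mulMat_map_subtype hx bF hbV bt hbt hxt f hf,
      ← RingHom.map_det]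
    rfl
  · rw [Algebra.norm_eq_matrix_det bt, ← mulMat_map_redx hx bF hbV bt hbt hxt f hf,
      ← RingHom.map_det]

include hbt in
/-- The characteristic polynomial of an element of `V` has coefficients in `Vx`, and reduces to
the characteristic polynomial of the reduction. -/
theorem charpoly_red (hxt : Transcendental k (S.red ⟨x, hx⟩)) (f : F) (hf : f ∈ S.V) :
    ∃ χ : (↥(S.Vx x))[X], χ.Monic ∧
      χ.map (S.Vx x).subtype = (Algebra.leftMulMatrix bF f).charpoly ∧
      χ.map (redx hx hxt) = (Algebra.leftMulMatrix bt (S.red ⟨f, hf⟩)).charpoly := by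
  refine ⟨(mulMat hx bF hbV bt hbt hxt f hf).charpoly, Matrix.charpoly_monic _, ?_, ?_⟩
  · rw [← mulMat_map_subtype hx bF hbV bt hbt hxt f hf, RingHom.mapMatrix_apply,
      Matrix.charpoly_map]
  · rw [← mulMat_map_redx hx bF hbV bt hbt hxt f hf, RingHom.mapMatrix_apply,
      Matrix.charpoly_map]

end Fermat.Agent.RED.H10

end
end
-- ==== END Fermat.Agent.RED.H10_ConsNorm

-- ==== BEGIN Fermat.Agent.RED.H17_DiscrScale
section

/-!
# RH-R leaf DISC-SCALE (helper17): `H76.Stmt_discrScale`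

If `c` is a `K[x]`-basis of `B = integralClosure K[x] F`, `c'` a `K[x⁻¹]`-basis of
`B' = integralClosure K[x⁻¹] F` and `c'_i = x^{-d_i} c_i`, then
`disc(c') = x^{-2 ∑ d_i} disc(c)` in `F`.

Both discriminants are the determinant of the trace form of `F / K(x)` (`K⟮x⁻¹⟯ = K⟮x⟯`;
`Algebra.trace_localization`), and the trace is `K(x)`-linear.
-/

set_option autoImplicit false

noncomputable section

open IntermediateField Polynomial

namespace Fermat.Agent.RED.H17

open IntermediateField.algebraAdjoinAdjoin in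
/-- The discriminant of a `K[y]`-basis of the integral closure of `K[y]` in `F` is the
determinant of the trace form of `F / K(y)`. -/
theorem ds_discr_coe_eq_det {K F : Type} [Field K] [Field F] [Algebra K F] (y : F)
    (hfin : FiniteDimensional K⟮y⟯ F) (n : ℕ)
    (c : Module.Basis (Fin n) ↥(Algebra.adjoin K {y})
      ↥(integralClosure ↥(Algebra.adjoin K {y}) F)) :
    (((Algebra.discr ↥(Algebra.adjoin K {y}) c : ↥(Algebra.adjoin K {y})) : F))
      = Matrix.det (Matrix.of fun i j : Fin n =>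
          (((Algebra.trace K⟮y⟯ F
            (((c i : ↥(integralClosure ↥(Algebra.adjoin K {y}) F)) : F)
              * ((c j : ↥(integralClosure ↥(Algebra.adjoin K {y}) F)) : F)) : K⟮y⟯)) : F)) := by
  classical
  have : Module.Free ↥(Algebra.adjoin K {y}) ↥(integralClosure ↥(Algebra.adjoin K {y}) F) :=
    Module.Free.of_basis c
  have : Module.Finite ↥(Algebra.adjoin K {y}) ↥(integralClosure ↥(Algebra.adjoin K {y}) F) :=
    Module.Finite.of_basis c
  have : Algebra.IsAlgebraic K⟮y⟯ F := Algebra.IsAlgebraic.of_finite _ _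
  have : IsLocalization (Algebra.algebraMapSubmonoid
      ↥(integralClosure ↥(Algebra.adjoin K {y}) F) (nonZeroDivisors ↥(Algebra.adjoin K {y}))) F :=
    IsIntegralClosure.isLocalization ↥(Algebra.adjoin K {y}) K⟮y⟯ F
      ↥(integralClosure ↥(Algebra.adjoin K {y}) F)
  have hentry : ∀ b : ↥(integralClosure ↥(Algebra.adjoin K {y}) F),
      (((Algebra.trace ↥(Algebra.adjoin K {y}) ↥(integralClosure ↥(Algebra.adjoin K {y}) F) b :
        ↥(Algebra.adjoin K {y})) : F))
        = (((Algebra.trace K⟮y⟯ F (b : F) : K⟮y⟯)) : F) := by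
    intro b
    have h := Algebra.trace_localization (R := ↥(Algebra.adjoin K {y}))
      (S := ↥(integralClosure ↥(Algebra.adjoin K {y}) F)) (Rₘ := K⟮y⟯) (Sₘ := F)
      (nonZeroDivisors ↥(Algebra.adjoin K {y})) b
    have h2 : (algebraMap ↥(integralClosure ↥(Algebra.adjoin K {y}) F) F b) = (b : F) := rfl
    rw [h2] at h
    rw [h]
    rfl
  rw [Algebra.discr_def]
  have h1 : (((Algebra.traceMatrix ↥(Algebra.adjoin K {y}) c).det : ↥(Algebra.adjoin K {y})) : F)
      = algebraMap ↥(Algebra.adjoin K {y}) F (Algebra.traceMatrix ↥(Algebra.adjoin K {y}) c).det :=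
    rfl
  rw [h1, RingHom.map_det]
  congr 1
  ext i j
  simp only [RingHom.mapMatrix_apply, Matrix.map_apply, Matrix.of_apply,
    Algebra.traceMatrix_apply, Algebra.traceForm_apply]
  exact hentry (c i * c j)

/-- Traces over equal intermediate fields agree. -/
theorem ds_trace_congr {K F : Type} [Field K] [Field F] [Algebra K F]
    (Q Q' : IntermediateField K F) (h : Q = Q') (z : F) :
    (((Algebra.trace Q F z : Q)) : F) = (((Algebra.trace Q' F z : Q')) : F) := by
  subst h; rfl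

/-- `K(x⁻¹) = K(x)`. -/
theorem ds_adjoin_inv {K F : Type} [Field K] [Field F] [Algebra K F] (x : F) :
    K⟮x⁻¹⟯ = K⟮x⟯ := by
  apply le_antisymm
  · rw [IntermediateField.adjoin_simple_le_iff]
    exact inv_mem (IntermediateField.mem_adjoin_simple_self K x)
  · rw [IntermediateField.adjoin_simple_le_iff]
    have := inv_mem (IntermediateField.mem_adjoin_simple_self K x⁻¹)
    rwa [inv_inv] at this

/-- The trace is linear over the base field. -/
theorem ds_trace_mul {K F : Type} [Field K] [Field F] [Algebra K F]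
    (Q : IntermediateField K F) (q : F) (hq : q ∈ Q) (z : F) :
    (((Algebra.trace Q F (q * z) : Q)) : F) = q * (((Algebra.trace Q F z : Q)) : F) := by
  have h : q * z = (⟨q, hq⟩ : Q) • z := rfl
  rw [h, map_smul]
  rfl

/-- **DISC-SCALE**. -/
theorem stmt_discrScale : Fermat.Agent.RED.H76.Stmt_discrScale := by
  intro K F _ _ _ _ _ x _ hfin n c c' d hcc
  have hfin' : FiniteDimensional K⟮x⁻¹⟯ F := by
    rw [ds_adjoin_inv x]; exact hfin
  rw [ds_discr_coe_eq_det x hfin n c, ds_discr_coe_eq_det x⁻¹ hfin' n c']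
  have hxmem : ∀ k : ℕ, x⁻¹ ^ k ∈ K⟮x⟯ := fun k =>
    pow_mem (inv_mem (IntermediateField.mem_adjoin_simple_self K x)) k
  have hM : (Matrix.of fun i j : Fin n =>
      (((Algebra.trace K⟮x⁻¹⟯ F
        (((c' i : ↥(integralClosure ↥(Algebra.adjoin K {x⁻¹}) F)) : F)
          * ((c' j : ↥(integralClosure ↥(Algebra.adjoin K {x⁻¹}) F)) : F)) : K⟮x⁻¹⟯)) : F))
      = Matrix.of fun i j : Fin n => x⁻¹ ^ (d i) * (x⁻¹ ^ (d j) *
          (((Algebra.trace K⟮x⟯ F
            (((c i : ↥(integralClosure ↥(Algebra.adjoin K {x}) F)) : F)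
              * ((c j : ↥(integralClosure ↥(Algebra.adjoin K {x}) F)) : F)) : K⟮x⟯)) : F)) := by
    ext i j
    simp only [Matrix.of_apply]
    rw [ds_trace_congr _ _ (ds_adjoin_inv x), hcc i, hcc j]
    have e : x⁻¹ ^ d i * ((c i : ↥(integralClosure ↥(Algebra.adjoin K {x}) F)) : F)
        * (x⁻¹ ^ d j * ((c j : ↥(integralClosure ↥(Algebra.adjoin K {x}) F)) : F))
        = x⁻¹ ^ d i * (x⁻¹ ^ d j * (((c i : ↥(integralClosure ↥(Algebra.adjoin K {x}) F)) : F)
          * ((c j : ↥(integralClosure ↥(Algebra.adjoin K {x}) F)) : F))) := by ring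
    rw [e, ds_trace_mul _ _ (hxmem _), ds_trace_mul _ _ (hxmem _)]
  rw [hM]
  have hcol := Matrix.det_mul_column (fun i : Fin n => x⁻¹ ^ (d i))
    (Matrix.of fun i j : Fin n => x⁻¹ ^ (d j) *
          (((Algebra.trace K⟮x⟯ F
            (((c i : ↥(integralClosure ↥(Algebra.adjoin K {x}) F)) : F)
              * ((c j : ↥(integralClosure ↥(Algebra.adjoin K {x}) F)) : F)) : K⟮x⟯)) : F))
  have hrow := Matrix.det_mul_row (fun i : Fin n => x⁻¹ ^ (d i))
    (Matrix.of fun i j : Fin n =>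
          (((Algebra.trace K⟮x⟯ F
            (((c i : ↥(integralClosure ↥(Algebra.adjoin K {x}) F)) : F)
              * ((c j : ↥(integralClosure ↥(Algebra.adjoin K {x}) F)) : F)) : K⟮x⟯)) : F))
  simp only [Matrix.of_apply] at hcol hrow
  rw [hcol, hrow, Finset.prod_pow_eq_pow_sum, ← mul_assoc, ← pow_add, two_mul]

end Fermat.Agent.RED.H17

end
end
-- ==== END Fermat.Agent.RED.H17_DiscrScale

-- ==== BEGIN Fermat.Agent.RED.H17_Local
section

/-!
# G-RED / TI route C (helper17), part 5: local lemmas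

* `RedSetup.const_of_vanAt` (**evaluation is compatible with reduction**): if `w ∈ V` is regular on
  the fibre of `Q` and takes the value `e` at a place `X` of the fibre, then `e` is integral and
  `rd w - rd e` vanishes at `Q`.
* `RedSetup.coord_value`, `RedSetup.coord_zero` (**coordinate on a residue disc**): if `rd s` has a
  simple zero at `Q` and `s` is regular on the fibre, then `X ↦ s(X)` is a bijection from the
  fibre to the maximal ideal.
* `fibre_zero`, `fibre_one`: fibres of a non-negative divisor.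
* finite products; first order congruences `Cong`.
-/

set_option autoImplicit false
set_option linter.style.haveILetI false

noncomputable section

open AlgebraicCurve

attribute [local instance] Classical.propDecidable

namespace Fermat.Agent.RED.H17

/-! ### Fibres of a non-negative divisor -/

section Fibre

variable {α β : Type*} (r : α → β)

theorem fibre_zero {E : α →₀ ℤ} (hE : ∀ a, 0 ≤ E a) {b : β}
    (hb : Finsupp.mapDomain r E b = 0) {a : α} (ha : r a = b) : E a = 0 := by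
  rw [mapDomain_apply_eq_sum] at hb
  by_cases hmem : a ∈ E.support
  · have h1 : ∀ x ∈ E.support, 0 ≤ (if r x = b then E x else 0) := by
      intro x _
      split_ifs
      · exact hE x
      · exact le_rfl
    have := eq_zero_of_sum_eq_zero _ _ h1 hb hmem
    rwa [if_pos ha] at this
  · exact Finsupp.notMem_support_iff.mp hmem

theorem fibre_one {E : α →₀ ℤ} (hE : ∀ a, 0 ≤ E a) {b : β}
    (hb : Finsupp.mapDomain r E b = 1) :
    ∃ x, r x = b ∧ E x = 1 ∧ ∀ a, r a = b → a ≠ x → E a = 0 := by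
  rw [mapDomain_apply_eq_sum] at hb
  have hnn : ∀ x ∈ E.support, 0 ≤ (if r x = b then E x else 0) := by
    intro x _
    split_ifs
    · exact hE x
    · exact le_rfl
  -- some term is positive
  have hex : ∃ x ∈ E.support, r x = b := by
    by_contra hcon
    push Not at hcon
    have : ∑ P ∈ E.support, (if r P = b then E P else 0) = 0 :=
      Finset.sum_eq_zero fun x hx => by rw [if_neg (hcon x hx)]
    omega
  obtain ⟨x, hx, hxb⟩ := hex
  have hxpos : 0 < E x := lt_of_le_of_ne (hE x) (Ne.symm (Finsupp.mem_support_iff.mp hx))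
  have hxle : E x ≤ 1 := by
    have := le_sum_of_nonneg _ _ hnn hx
    rw [if_pos hxb, hb] at this
    exact this
  refine ⟨x, hxb, by omega, fun a hab hne => ?_⟩
  by_contra h0
  have ha : a ∈ E.support := Finsupp.mem_support_iff.mpr h0
  have hapos : 0 < E a := lt_of_le_of_ne (hE a) (Ne.symm h0)
  have h2 : (∑ P ∈ ({x, a} : Finset α), if r P = b then E P else 0)
      ≤ ∑ P ∈ E.support, if r P = b then E P else 0 := by
    refine Finset.sum_le_sum_of_subset_of_nonneg ?_ fun y hy _ => hnn y hy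
    intro y hy
    rw [Finset.mem_insert, Finset.mem_singleton] at hy
    rcases hy with rfl | rfl
    · exact hx
    · exact ha
  rw [Finset.sum_pair (Ne.symm hne), if_pos hxb, if_pos hab, hb] at h2
  omega

end Fibre

/-! ### Finite products and sums -/

section Prod

variable {K F : Type*} [Field K] [Field F] [Algebra K F]

theorem ord_prod {ι : Type*} (v : Place K F) (s : Finset ι) (f : ι → F)
    (hf : ∀ i ∈ s, f i ≠ 0) : v.ord (∏ i ∈ s, f i) = ∑ i ∈ s, v.ord (f i) := by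
  induction s using Finset.induction_on with
  | empty => simp
  | insert i s hi ih =>
    rw [Finset.prod_insert hi, Finset.sum_insert hi,
      v.ord_mul (hf i (Finset.mem_insert_self i s))
        (Finset.prod_ne_zero_iff.mpr fun j hj => hf j (Finset.mem_insert_of_mem hj)),
      ih fun j hj => hf j (Finset.mem_insert_of_mem hj)]

theorem VanAt.sum {ι : Type*} {v : Place K F} (s : Finset ι) (f : ι → F)
    (hf : ∀ i ∈ s, VanAt v (f i)) : VanAt v (∑ i ∈ s, f i) := by
  induction s using Finset.induction_on with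
  | empty => rw [Finset.sum_empty]; exact vanAt_zero v
  | insert i s hi ih =>
    rw [Finset.sum_insert hi]
    exact (hf i (Finset.mem_insert_self i s)).add
      (ih fun j hj => hf j (Finset.mem_insert_of_mem hj))

theorem RegAt.sum {ι : Type*} {v : Place K F} (s : Finset ι) (f : ι → F)
    (hf : ∀ i ∈ s, RegAt v (f i)) : RegAt v (∑ i ∈ s, f i) := by
  induction s using Finset.induction_on with
  | empty => rw [Finset.sum_empty]; exact regAt_zero v
  | insert i s hi ih =>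
    rw [Finset.sum_insert hi]
    exact (hf i (Finset.mem_insert_self i s)).add
      (ih fun j hj => hf j (Finset.mem_insert_of_mem hj))

theorem regAt_inv_of_ord_eq_zero {v : Place K F} {f : F} (h : v.ord f = 0) : RegAt v f⁻¹ := by
  apply regAt_of_ord_nonneg
  rw [Place.ord_inv, h]
  rfl

/-- A constant that vanishes at a place is zero. -/
theorem const_eq_zero_of_vanAt {v : Place K F} {c : K}
    (h : VanAt v (algebraMap K F c)) : c = 0 := by
  by_contra hne
  exact not_vanAt_algebraMap v hne h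

end Prod

namespace RedSetup

variable {K F k F' : Type*} [Field K] [Field F] [Algebra K F] [Field k] [Field F']
  [Algebra k F'] (S : RedSetup K F k F')

theorem rd_prod {ι : Type*} (s : Finset ι) (f : ι → F) (hf : ∀ i ∈ s, f i ∈ S.V) :
    (∏ i ∈ s, f i) ∈ S.V ∧ S.rd (∏ i ∈ s, f i) = ∏ i ∈ s, S.rd (f i) := by
  induction s using Finset.induction_on with
  | empty => simp only [Finset.prod_empty]; exact ⟨S.V.one_mem, S.rd_one⟩
  | insert i s hi ih =>
    obtain ⟨h1, h2⟩ := ih fun j hj => hf j (Finset.mem_insert_of_mem hj)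
    have hi' := hf i (Finset.mem_insert_self i s)
    rw [Finset.prod_insert hi, Finset.prod_insert hi]
    exact ⟨S.V.mul_mem _ _ hi' h1, by rw [S.rd_mul hi' h1, h2]⟩

theorem rd_sum {ι : Type*} (s : Finset ι) (f : ι → F) (hf : ∀ i ∈ s, f i ∈ S.V) :
    (∑ i ∈ s, f i) ∈ S.V ∧ S.rd (∑ i ∈ s, f i) = ∑ i ∈ s, S.rd (f i) := by
  induction s using Finset.induction_on with
  | empty => simp only [Finset.sum_empty]; exact ⟨S.V.zero_mem, S.rd_zero⟩
  | insert i s hi ih =>
    obtain ⟨h1, h2⟩ := ih fun j hj => hf j (Finset.mem_insert_of_mem hj)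
    have hi' := hf i (Finset.mem_insert_self i s)
    rw [Finset.sum_insert hi, Finset.sum_insert hi]
    exact ⟨S.V.add_mem _ _ hi' h1, by rw [S.rd_add hi' h1, h2]⟩

variable {S} in
theorem IsGU.prod {ι : Type*} (s : Finset ι) (f : ι → F) (hf : ∀ i ∈ s, S.IsGU (f i)) :
    S.IsGU (∏ i ∈ s, f i) := by
  obtain ⟨h1, h2⟩ := S.rd_prod s f fun i hi => (hf i hi).1
  exact ⟨h1, by rw [h2]; exact Finset.prod_ne_zero_iff.mpr fun i hi => (hf i hi).2⟩

/-- The reduction of an integral constant, as an element of `k`. -/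
theorem rd_const_eq (c : K) (hc : algebraMap K F c ∈ S.V) :
    ∃ c' : k, S.rd (algebraMap K F c) = algebraMap k F' c' :=
  S.rd_algebraMap_mem_range hc

/-- If `c ∉ V` for a constant `c`, then `c⁻¹` is in the maximal ideal. -/
theorem inv_const_of_not_mem {c : K} (hc : algebraMap K F c ∉ S.V) :
    algebraMap K F c⁻¹ ∈ S.V ∧ S.rd (algebraMap K F c⁻¹) = 0 := by
  have h1 : algebraMap K F c⁻¹ ∈ S.V := (S.const_mem_or_inv_mem c).resolve_left hc
  refine ⟨h1, ?_⟩
  by_contra h0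
  have hGU : S.IsGU (algebraMap K F c⁻¹) := ⟨h1, h0⟩
  have := hGU.inv_mem
  rw [map_inv₀, inv_inv] at this
  exact hc this

/-- **Evaluation is compatible with reduction.** -/
theorem const_of_vanAt (hP : HasPrincipalDivisors K F) {w : F} (hw : w ∈ S.V)
    {Q : Place k F'} (hreg : ∀ P, S.r P = Q → 0 ≤ P.ord w) {X : Place K F} (hX : S.r X = Q)
    {e : K} (he : VanAt X (w - algebraMap K F e)) :
    algebraMap K F e ∈ S.V ∧ VanAt Q (S.rd w - S.rd (algebraMap K F e)) := by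
  have hregw : ∀ P, S.r P = Q → RegAt P w := fun P hPQ => regAt_of_ord_nonneg (hreg P hPQ)
  have hmem : algebraMap K F e ∈ S.V := by
    by_contra hne
    obtain ⟨h1, h2⟩ := S.inv_const_of_not_mem hne
    have he0 : e ≠ 0 := by
      rintro rfl
      rw [map_zero] at hne
      exact hne S.V.zero_mem
    set z : F := algebraMap K F e⁻¹ * w - 1 with hz
    have hz1 : algebraMap K F e⁻¹ * w ∈ S.V := S.V.mul_mem _ _ h1 hw
    have hzV : z ∈ S.V := S.V.sub_mem hz1 S.V.one_mem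
    have hzr : S.rd z = -1 := by
      rw [hz, S.rd_sub hz1 S.V.one_mem, S.rd_mul h1 hw, h2, zero_mul, S.rd_one, zero_sub]
    have hGU : S.IsGU z := ⟨hzV, by rw [hzr]; exact neg_ne_zero.mpr one_ne_zero⟩
    have hzreg : ∀ P, S.r P = Q → 0 ≤ P.ord z := fun P hPQ =>
      (((regAt_algebraMap P e⁻¹).mul (hregw P hPQ)).sub (regAt_one P)).ord_nonneg
    have hQz : Q.ord (S.rd z) = 0 := by
      rw [hzr]
      have : (-1 : F') = algebraMap k F' (-1) := by rw [map_neg, map_one]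
      rw [this]
      exact ord_algebraMap Q _
    have h3 := S.ord_eq_zero_of_ord_rd_eq_zero hP hGU Q hzreg hQz hX
    have h4 : z = algebraMap K F e⁻¹ * (w - algebraMap K F e) := by
      rw [hz, mul_sub, ← map_mul, inv_mul_cancel₀ he0, map_one]
    have h5 : VanAt X z := by
      rw [h4]
      exact (regAt_algebraMap X e⁻¹).mul_vanAt he
    have := h5.ord_pos hGU.ne_zero
    omega
  refine ⟨hmem, ?_⟩
  rw [← S.rd_sub hw hmem]
  by_cases h0 : S.rd (w - algebraMap K F e) = 0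
  · rw [h0]
    exact vanAt_zero Q
  have hGU : S.IsGU (w - algebraMap K F e) := ⟨S.V.sub_mem hw hmem, h0⟩
  have hzreg : ∀ P, S.r P = Q → 0 ≤ P.ord (w - algebraMap K F e) := fun P hPQ =>
    ((hregw P hPQ).sub (regAt_algebraMap P e)).ord_nonneg
  have h1 := S.ord_le_ord_rd hP hGU Q hzreg hX
  have h2 := he.ord_pos hGU.ne_zero
  exact vanAt_of_ord_pos (by omega)

/-- The value at a place of the fibre of a Gauss unit with constant reduction. -/
theorem const_of_vanAt_of_rd_const (hP : HasPrincipalDivisors K F) {w : F} (hw : w ∈ S.V)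
    {Q : Place k F'} (hreg : ∀ P, S.r P = Q → 0 ≤ P.ord w) {X : Place K F} (hX : S.r X = Q)
    {e : K} (he : VanAt X (w - algebraMap K F e)) {c' : k} (hc : S.rd w = algebraMap k F' c') :
    algebraMap K F e ∈ S.V ∧ S.rd (algebraMap K F e) = S.rd w := by
  obtain ⟨h1, h2⟩ := S.const_of_vanAt hP hw hreg hX he
  refine ⟨h1, ?_⟩
  obtain ⟨e', he'⟩ := S.rd_const_eq e h1
  rw [hc, he', ← map_sub] at h2
  have := const_eq_zero_of_vanAt h2
  rw [hc, he']
  rw [sub_eq_zero] at this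
  rw [this]

/-! ### The coordinate on a residue disc -/

/-- Data: `s` is a Gauss unit, regular on the fibre of `Q`, whose reduction has a simple zero at
`Q`. -/
structure IsCoord (s : F) (Q : Place k F') : Prop where
  isGU : S.IsGU s
  reg : ∀ P, S.r P = Q → 0 ≤ P.ord s
  ord_one : Q.ord (S.rd s) = 1

variable {S}

theorem IsCoord.sub_const {s : F} {Q : Place k F'} (h : S.IsCoord s Q) {a : K}
    (ha : algebraMap K F a ∈ S.V) (ha0 : S.rd (algebraMap K F a) = 0) :
    S.IsCoord (s - algebraMap K F a) Q := by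
  have hrd : S.rd (s - algebraMap K F a) = S.rd s := by
    rw [S.rd_sub h.isGU.1 ha, ha0, sub_zero]
  refine ⟨⟨S.V.sub_mem h.isGU.1 ha, by rw [hrd]; exact h.isGU.2⟩, fun P hPQ => ?_, by
    rw [hrd]; exact h.ord_one⟩
  exact ((regAt_of_ord_nonneg (h.reg P hPQ)).sub (regAt_algebraMap P a)).ord_nonneg

/-- The unique zero of a coordinate in the fibre. -/
theorem IsCoord.exists_zero (hP : HasPrincipalDivisors K F) {s : F} {Q : Place k F'}
    (h : S.IsCoord s Q) :
    ∃ X, S.r X = Q ∧ X.ord s = 1 ∧ ∀ P, S.r P = Q → P ≠ X → P.ord s = 0 :=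
  S.exists_unique_zero_of_ord_rd_eq_one hP h.isGU Q h.reg h.ord_one

/-- The value of a coordinate at a place of the fibre lies in the maximal ideal. -/
theorem IsCoord.exists_value (hP : HasPrincipalDivisors K F)
    (hdeg : ∀ v : Place K F, v.deg = 1) {s : F} {Q : Place k F'} (h : S.IsCoord s Q)
    {X : Place K F} (hX : S.r X = Q) :
    ∃ a : K, algebraMap K F a ∈ S.V ∧ S.rd (algebraMap K F a) = 0 ∧
      VanAt X (s - algebraMap K F a) := by
  obtain ⟨a, ha⟩ := _root_.Fermat.Agent.RED.H17.exists_value X (hdeg X)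
    (regAt_of_ord_nonneg (h.reg X hX))
  obtain ⟨h1, h2⟩ := S.const_of_vanAt hP h.isGU.1 h.reg hX ha
  refine ⟨a, h1, ?_, ha⟩
  obtain ⟨a', ha'⟩ := S.rd_const_eq a h1
  have h3 : VanAt Q (S.rd s) := vanAt_of_ord_pos (by rw [h.ord_one]; exact one_pos)
  have h4 : VanAt Q (S.rd (algebraMap K F a)) := by
    have := h3.sub h2
    rwa [sub_sub_cancel] at this
  rw [ha'] at h4 ⊢
  rw [const_eq_zero_of_vanAt h4, map_zero]

/-- On the fibre of `Q`, the order of `s - a` is the indicator of the place with coordinate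
`a`. -/
theorem IsCoord.ord_sub_eq (hP : HasPrincipalDivisors K F) {s : F} {Q : Place k F'}
    (h : S.IsCoord s Q) {a : K} (ha : algebraMap K F a ∈ S.V)
    (ha0 : S.rd (algebraMap K F a) = 0) {X : Place K F} (hX : S.r X = Q)
    (hXa : VanAt X (s - algebraMap K F a)) {P : Place K F} (hPQ : S.r P = Q) :
    P.ord (s - algebraMap K F a) = if P = X then 1 else 0 := by
  have hc := h.sub_const ha ha0
  obtain ⟨X', hX', h1, h2⟩ := hc.exists_zero hP
  have hXX' : X = X' := by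
    by_contra hne
    have h3 := h2 X hX hne
    have h4 := hXa.ord_pos hc.isGU.ne_zero
    omega
  subst hXX'
  split_ifs with hPX
  · rw [hPX]; exact h1
  · exact h2 P hPQ hPX

end RedSetup

/-! ### First order congruences -/

section Cong

variable {F : Type*} [Field F] (V : ValuationSubring F)

/-- `x ≡ 1 + d a` modulo `d² V`. -/
def Cong (d a x : F) : Prop := ∃ ρ ∈ V, x = 1 + d * a + d ^ 2 * ρ

variable {V}

theorem cong_one (d : F) : Cong V d 0 1 := ⟨0, V.zero_mem, by ring⟩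

theorem cong_self (d a : F) : Cong V d a (1 + d * a) := ⟨0, V.zero_mem, by ring⟩

theorem Cong.mul {d a b x y : F} (hd : d ∈ V) (ha : a ∈ V) (hb : b ∈ V) (hx : Cong V d a x)
    (hy : Cong V d b y) : Cong V d (a + b) (x * y) := by
  obtain ⟨ρ, hρ, rfl⟩ := hx
  obtain ⟨σ, hσ, rfl⟩ := hy
  refine ⟨a * b + ρ + σ + d * (a * σ + b * ρ) + d ^ 2 * (ρ * σ), ?_, by ring⟩
  refine V.add_mem _ _ (V.add_mem _ _ (V.add_mem _ _ (V.add_mem _ _ (V.mul_mem _ _ ha hb) hρ) hσ)
    (V.mul_mem _ _ hd (V.add_mem _ _ (V.mul_mem _ _ ha hσ) (V.mul_mem _ _ hb hρ))))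
    (V.mul_mem _ _ (V.pow_mem hd 2) (V.mul_mem _ _ hρ hσ))

theorem Cong.pow {d a x : F} (hd : d ∈ V) (ha : a ∈ V) (hx : Cong V d a x) (n : ℕ) :
    Cong V d (n * a) (x ^ n) := by
  induction n with
  | zero => simpa using cong_one (V := V) d
  | succ n ih =>
    have hna : (n : F) * a ∈ V := V.mul_mem _ _ (natCast_mem V n) ha
    have := ih.mul hd hna ha hx
    rw [pow_succ]
    convert this using 1
    push_cast
    ring

theorem Cong.prod {ι : Type*} {d : F} (hd : d ∈ V) (s : Finset ι) (a x : ι → F)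
    (ha : ∀ i ∈ s, a i ∈ V) (hx : ∀ i ∈ s, Cong V d (a i) (x i)) :
    Cong V d (∑ i ∈ s, a i) (∏ i ∈ s, x i) := by
  induction s using Finset.induction_on with
  | empty => simpa using cong_one (V := V) d
  | insert i s hi ih =>
    rw [Finset.sum_insert hi, Finset.prod_insert hi]
    have h1 : ∑ j ∈ s, a j ∈ V :=
      Subring.sum_mem V.toSubring fun j hj => ha j (Finset.mem_insert_of_mem hj)
    exact (hx i (Finset.mem_insert_self i s)).mul hd (ha i (Finset.mem_insert_self i s)) h1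
      (ih (fun j hj => ha j (Finset.mem_insert_of_mem hj))
        fun j hj => hx j (Finset.mem_insert_of_mem hj))

end Cong

end Fermat.Agent.RED.H17

end
end
-- ==== END Fermat.Agent.RED.H17_Local

-- ==== BEGIN Fermat.Agent.RED.H29_Mod3Series
section

/-!
# G-RED, package IG-MOD23, `p = 3` (helper29): the formal identities

With `a = etaProd = ∏ (1 - qⁿ)`, `b = a(q³)`, `e = eisenstein4` in `ℤ⟦q⟧`:
* `hauptPS_one : e³ (a¹² b¹²) = (a¹² + 27 q b¹²) (a¹² + 243 q b¹²)³`,
* `hauptPS_two : e(q³)³ (a¹² b¹²) = (a¹² + 27 q b¹²) (a¹² + 3 q b¹²)³`.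
-/

set_option autoImplicit false

open UpperHalfPlane ModularForm EisensteinSeries CongruenceSubgroup
open scoped MatrixGroups ModularForm Manifold

noncomputable section

namespace Fermat.Agent.RED.H29

open Fermat.Agent.S23.H22 Fermat.Agent.S23 PowerSeries

/-- `∏ (1 - qⁿ)` over `ℂ`. -/
abbrev aC : PowerSeries ℂ := ModularCurve.etaProd.map (Int.castRingHom ℂ)

/-- `∏ (1 - q³ⁿ)` over `ℂ`. -/
abbrev bC : PowerSeries ℂ := PowerSeries.expand 3 three_ne_zero aC

/-- `E₄(q³)` over `ℂ`. -/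
abbrev e4C3 : PowerSeries ℂ := PowerSeries.expand 3 three_ne_zero e4S

/-! ### Constant coefficients -/

theorem constantCoeff_aC : constantCoeff aC = 1 := by
  rw [← PowerSeries.coeff_zero_eq_constantCoeff_apply, PowerSeries.coeff_map,
    PowerSeries.coeff_zero_eq_constantCoeff_apply, ModularCurve.constantCoeff_etaProd]
  simp

theorem constantCoeff_bC : constantCoeff bC = 1 := by
  rw [PowerSeries.constantCoeff_expand, constantCoeff_aC]

theorem constantCoeff_of_pi5 {P Q : PowerSeries ℂ} (h : pi5 P = pi5 Q) :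
    constantCoeff P = constantCoeff Q := by
  rw [Ideal.Quotient.eq, Ideal.mem_span_singleton, PowerSeries.X_pow_dvd_iff] at h
  have := h 0 (by norm_num)
  rw [map_sub, PowerSeries.coeff_zero_eq_constantCoeff_apply,
    PowerSeries.coeff_zero_eq_constantCoeff_apply] at this
  exact sub_eq_zero.mp this

theorem constantCoeff_αS : constantCoeff αS = 128 := by
  rw [constantCoeff_of_pi5 pi5_αS]
  simp only [map_sub, map_add, map_mul, map_pow, map_ofNat, map_one, PowerSeries.constantCoeff_X]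
  norm_num

/-! ### Bridges -/

theorem e4S_cube_sub : e4S * e4S * e4S - e6S * e6S = 1728 * (X * aC ^ 24) := by
  have h1 : qExpansion 1 H96.e4CubeSubE6Sq = (1728 : ℂ) • qExpansion 1 ModularForm.discriminant := by
    rw [H96.e4CubeSubE6Sq_eq]
    exact ModularForm.qExpansion_smul one_pos one_mem_strictPeriods_SL (1728 : ℂ)
      CuspForm.discriminant
  rw [H96.qExpansion_e4CubeSubE6Sq, Fermat.Agent.S28.H76.qExpansion_disc_eq_etaProd,
    PowerSeries.smul_eq_C_mul, map_ofNat] at h1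
  rw [← h1]
  ring

theorem dtS_eq : dtS = 177147 * (X ^ 3 * bC ^ 24) := by
  have h : dtS = C (177147 : ℂ) * PowerSeries.expand 3 three_ne_zero
      (qExpansion 1 ModularForm.discriminant) := by
    ext n
    rw [PowerSeries.coeff_C_mul, PowerSeries.coeff_expand]
    have := coeff_qExp_Dt n
    rw [this]
    split_ifs <;> simp
  rw [h, Fermat.Agent.S28.H76.qExpansion_disc_eq_etaProd, map_mul, map_pow,
    PowerSeries.expand_X, map_ofNat]

theorem e4tS_eq : e4tS = 27 * e4C3 := by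
  have h : e4tS = C (27 : ℂ) * PowerSeries.expand 3 three_ne_zero e4S := by
    ext n
    rw [PowerSeries.coeff_C_mul, PowerSeries.coeff_expand]
    have := coeff_qExp_E4t n
    rw [this]
    split_ifs <;> simp
  rw [h, map_ofNat]

/-! ### The identities over `ℂ` -/

theorem natCast_ne_zero_ps (n : ℕ) (hn : n ≠ 0) : ((n : ℕ) : PowerSeries ℂ) ≠ 0 := by
  intro h
  have := congrArg constantCoeff h
  rw [map_natCast, map_zero] at this
  exact hn (Nat.cast_eq_zero.mp this)

theorem ne_zero_of_constantCoeff {P : PowerSeries ℂ} (h : constantCoeff P ≠ 0) : P ≠ 0 := by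
  rintro rfl
  exact h (map_zero _)

theorem hauptC : e4S ^ 3 * (aC ^ 12 * bC ^ 12)
        = (aC ^ 12 + 27 * (X * bC ^ 12)) * (aC ^ 12 + 243 * (X * bC ^ 12)) ^ 3 ∧
      e4C3 ^ 3 * (aC ^ 12 * bC ^ 12)
        = (aC ^ 12 + 27 * (X * bC ^ 12)) * (aC ^ 12 + 3 * (X * bC ^ 12)) ^ 3 := by
  refine alg_main αS βS γS gS e4S e4C3 aC bC X PowerSeries.X_ne_zero
    (ne_zero_of_constantCoeff (by rw [constantCoeff_aC]; exact one_ne_zero))
    (ne_zero_of_constantCoeff ?_) natCast_ne_zero_ps ?_ ?_ ?_ ?_ series_three ?_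
    (ne_zero_of_constantCoeff ?_)
  · simp only [map_add, map_mul, map_pow, map_ofNat, constantCoeff_aC, constantCoeff_bC,
      PowerSeries.constantCoeff_X]
    norm_num
  · simp only [αS, βS, γS]
    ring
  · simp only [αS, βS, γS]
    ring
  · rw [series_one, e4S_cube_sub]
    ring
  · rw [series_two, dtS_eq]
  · have h := series_four
    rw [e4tS_eq] at h
    linear_combination h
  · simp only [map_add, map_mul, map_pow, map_ofNat, constantCoeff_aC, constantCoeff_bC,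
      constantCoeff_αS]
    norm_num

/-! ### The identities over `ℤ` -/

/-- `∏ (1 - q³ⁿ)`. -/
abbrev bZ : PowerSeries ℤ := PowerSeries.expand 3 three_ne_zero ModularCurve.etaProd

/-- `E₄(q³)`. -/
abbrev e4Z3 : PowerSeries ℤ := PowerSeries.expand 3 three_ne_zero ModularCurve.eisenstein4

theorem hauptPS_one : ModularCurve.eisenstein4 ^ 3 * (ModularCurve.etaProd ^ 12 * bZ ^ 12)
    = (ModularCurve.etaProd ^ 12 + 27 * (X * bZ ^ 12))
      * (ModularCurve.etaProd ^ 12 + 243 * (X * bZ ^ 12)) ^ 3 := by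
  apply PowerSeries.map_injective (Int.castRingHom ℂ) Int.cast_injective
  simp only [map_mul, map_pow, map_add, map_ofNat, PowerSeries.map_X, PowerSeries.map_expand]
  rw [← Fermat.Agent.S28.H76.qExpansion_E4_eq_eisenstein4]
  exact hauptC.1

theorem hauptPS_two : e4Z3 ^ 3 * (ModularCurve.etaProd ^ 12 * bZ ^ 12)
    = (ModularCurve.etaProd ^ 12 + 27 * (X * bZ ^ 12))
      * (ModularCurve.etaProd ^ 12 + 3 * (X * bZ ^ 12)) ^ 3 := by
  apply PowerSeries.map_injective (Int.castRingHom ℂ) Int.cast_injective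
  simp only [map_mul, map_pow, map_add, map_ofNat, PowerSeries.map_X, PowerSeries.map_expand]
  rw [← Fermat.Agent.S28.H76.qExpansion_E4_eq_eisenstein4]
  exact hauptC.2

/-! ### The Hauptmodul `h₃ = η(q)¹² / η(q³)¹²` in `ℤ((q))` -/

theorem constantCoeff_bZ : constantCoeff bZ = 1 := by
  rw [PowerSeries.constantCoeff_expand, ModularCurve.constantCoeff_etaProd]

/-- The inverse of `∏ (1 - q³ⁿ)¹²`. -/
def bInv : PowerSeries ℤ := (bZ ^ 12).invOfUnit 1

theorem bZ_mul_bInv : bZ ^ 12 * bInv = 1 :=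
  PowerSeries.mul_invOfUnit _ _ (by rw [map_pow, constantCoeff_bZ, one_pow]; rfl)

theorem constantCoeff_bInv : constantCoeff bInv = 1 := by
  have h := congrArg (PowerSeries.constantCoeff (R := ℤ)) bZ_mul_bInv
  rwa [map_mul, map_pow, constantCoeff_bZ, one_pow, one_mul, map_one] at h

/-- The numerator of `h₃`: `∏ (1 - qⁿ)¹² / ∏ (1 - q³ⁿ)¹²`. -/
def hNum : PowerSeries ℤ := ModularCurve.etaProd ^ 12 * bInv

theorem constantCoeff_hNum : constantCoeff hNum = 1 := by
  rw [hNum, map_mul, map_pow, ModularCurve.constantCoeff_etaProd, constantCoeff_bInv, one_pow,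
    one_mul]

/-- The Hauptmodul `h₃ = η(q)¹² / η(q³)¹² = q⁻¹ ∏ (1 - qⁿ)¹² / ∏ (1 - q³ⁿ)¹²` of `X₀(3)`. -/
def hZ3 : LaurentSeries ℤ :=
  HahnSeries.single (-1 : ℤ) 1 * HahnSeries.ofPowerSeries ℤ ℤ hNum

theorem coeff_hZ3_neg_one : hZ3.coeff (-1 : ℤ) = 1 := by
  rw [hZ3, HahnSeries.coeff_single_mul, one_mul, sub_neg_eq_add, neg_add_cancel,
    show (0 : ℤ) = ((0 : ℕ) : ℤ) from rfl, HahnSeries.ofPowerSeries_apply_coeff,
    PowerSeries.coeff_zero_eq_constantCoeff_apply, constantCoeff_hNum]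

theorem coeff_hZ3_of_lt {m : ℤ} (hm : m < -1) : hZ3.coeff m = 0 := by
  rw [hZ3, HahnSeries.coeff_single_mul, one_mul]
  exact ModularCurve.ofPowerSeries_coeff_of_neg _ (by omega)

theorem hZ3_ne_zero : hZ3 ≠ 0 := by
  intro h
  have h1 := coeff_hZ3_neg_one
  rw [h, HahnSeries.coeff_zero] at h1
  exact zero_ne_one h1

theorem hZ3_order : hZ3.order = -1 := by
  refine le_antisymm (HahnSeries.order_le_of_coeff_ne_zero ?_) ?_
  · rw [coeff_hZ3_neg_one]
    exact one_ne_zero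
  · by_contra hlt
    rw [not_le] at hlt
    exact HahnSeries.coeff_order_eq_zero.not.mpr hZ3_ne_zero (coeff_hZ3_of_lt hlt)

theorem hZ3_order_neg : hZ3.order < 0 := by
  rw [hZ3_order]
  norm_num

theorem hZ3_leadingCoeff : hZ3.leadingCoeff = 1 := by
  rw [HahnSeries.leadingCoeff_eq, hZ3_order, coeff_hZ3_neg_one]

/-! ### The two identities in `ℤ((q))` -/

theorem single_neg_one_mul_X :
    (HahnSeries.single (-1 : ℤ) (1 : ℤ)) * HahnSeries.ofPowerSeries ℤ ℤ X = 1 := by
  rw [HahnSeries.ofPowerSeries_X, HahnSeries.single_mul_single]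
  simp

theorem jqModC_int_eq : ModularCurve.jqModC ℤ = HahnSeries.single (-1 : ℤ) 1
    * (HahnSeries.ofPowerSeries ℤ ℤ ModularCurve.eisenstein4 ^ 3
      * HahnSeries.ofPowerSeries ℤ ℤ ModularCurve.dedekindEtaUnitInv) := by
  have h : ModularCurve.jNum.map (Int.castRingHom ℤ) = ModularCurve.jNum := by
    ext n
    simp
  rw [ModularCurve.jqModC, h, ModularCurve.jNum, map_mul, map_pow]

theorem qExpand_jqModC_int_eq : ModularCurve.qExpand ℤ 3 (ModularCurve.jqModC ℤ)
    = HahnSeries.single (-1 : ℤ) 1 ^ 3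
      * (HahnSeries.ofPowerSeries ℤ ℤ e4Z3 ^ 3
        * HahnSeries.ofPowerSeries ℤ ℤ
          (PowerSeries.expand 3 three_ne_zero ModularCurve.dedekindEtaUnitInv)) := by
  rw [jqModC_int_eq, map_mul, map_mul, map_pow, ModularCurve.qExpand_single,
    Fermat.Agent.RED.H10.qExpand_ofPowerSeries, Fermat.Agent.RED.H10.qExpand_ofPowerSeries,
    HahnSeries.single_pow]
  simp

/-- **`j h³ = (h + 27)(h + 243)³`** in `ℤ((q))`. -/
theorem hZ3_one : (hZ3 + 27) * (hZ3 + 243) ^ 3 = ModularCurve.jqModC ℤ * hZ3 ^ 3 := by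
  rw [jqModC_int_eq, hZ3, hNum, map_mul, map_pow]
  refine alg_laurent_one _ (HahnSeries.ofPowerSeries ℤ ℤ X) _ _ (HahnSeries.ofPowerSeries ℤ ℤ bZ)
    _ _ single_neg_one_mul_X ?_ ?_ ?_
  · rw [← map_pow, ← map_mul]
    have := ModularCurve.dedekindEtaUnit_mul_inv
    rw [ModularCurve.dedekindEtaUnit] at this
    rw [this, map_one]
  · rw [← map_pow, ← map_mul, bZ_mul_bInv, map_one]
  · have h := congrArg (HahnSeries.ofPowerSeries ℤ ℤ) hauptPS_one
    simpa only [map_mul, map_pow, map_add, map_ofNat] using h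

/-- **`j(q³) h = (h + 27)(h + 3)³`** in `ℤ((q))`. -/
theorem hZ3_two : (hZ3 + 27) * (hZ3 + 3) ^ 3
    = ModularCurve.qExpand ℤ 3 (ModularCurve.jqModC ℤ) * hZ3 := by
  rw [qExpand_jqModC_int_eq, hZ3, hNum, map_mul, map_pow]
  refine alg_laurent_two _ (HahnSeries.ofPowerSeries ℤ ℤ X) _ _
    (HahnSeries.ofPowerSeries ℤ ℤ bZ) _ _ single_neg_one_mul_X ?_ ?_ ?_
  · rw [← map_pow, ← map_mul, bZ_mul_bInv, map_one]
  · rw [← map_pow, ← map_mul]
    have := congrArg (PowerSeries.expand 3 three_ne_zero) ModularCurve.dedekindEtaUnit_mul_inv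
    rw [ModularCurve.dedekindEtaUnit, map_mul, map_pow, map_one] at this
    rw [this, map_one]
  · have h := congrArg (HahnSeries.ofPowerSeries ℤ ℤ) hauptPS_two
    simpa only [map_mul, map_pow, map_add, map_ofNat] using h

end Fermat.Agent.RED.H29

end
end
-- ==== END Fermat.Agent.RED.H29_Mod3Series

-- ==== BEGIN Fermat.Agent.RED.H34_Int
section

/-!
# G-RED package IG (helper34): the chart theorem, part 1 (integrality over `O[x]`)

* `exists_ortho_basis` : orthonormal bases exist when `[Ft : k(xt)] = [F : C(x)]`.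
* `exists_monic_of_mem` (INT) : elements of `B ∩ V` are integral over `O[x]`.
-/

set_option autoImplicit false

noncomputable section

open Polynomial IntermediateField Module
open scoped IntermediateField.algebraAdjoinAdjoin nonZeroDivisors

namespace Fermat.Agent.RED.H34

variable {C F k Ft : Type} [Field C] [Field F] [Algebra C F] [Field k] [Field Ft] [Algebra k Ft]

/-- The characteristic polynomial over `R` of an element of the integral closure `B` maps to its
characteristic polynomial over `K`. -/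
theorem charpoly_intClosure {R K L : Type} [CommRing R] [IsDomain R] [IsPrincipalIdealRing R]
    [Field K] [Field L] [Algebra R K] [IsFractionRing R K] [Algebra K L] [Algebra R L]
    [IsScalarTower R K L] [FiniteDimensional K L] [Algebra.IsSeparable K L]
    (f : ↥(integralClosure R L)) :
    ∃ Φ : R[X], Φ.Monic ∧ Polynomial.aeval f Φ = 0 ∧
      Φ.map (algebraMap R K) = LinearMap.charpoly (Algebra.lmul K L (f : L)) := by
  classical
  have hinj : Function.Injective (algebraMap R L) := by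
    rw [IsScalarTower.algebraMap_eq R K L]
    exact (algebraMap K L).injective.comp (IsFractionRing.injective R K)
  have htf : Module.IsTorsionFree R L := by
    rw [Module.isTorsionFree_iff_algebraMap_injective]
    exact hinj
  have hfree : Module.Free R (integralClosure R L) :=
    IsIntegralClosure.module_free R K L (integralClosure R L)
  have hfin : Module.Finite R (integralClosure R L) :=
    IsIntegralClosure.finite R K L (integralClosure R L)
  let c := Module.Free.chooseBasis R (integralClosure R L)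
  have hloc : IsLocalization (Algebra.algebraMapSubmonoid (integralClosure R L) R⁰) L :=
    IsIntegralClosure.isLocalization R K L (integralClosure R L)
  refine ⟨(Algebra.leftMulMatrix c f).charpoly, Matrix.charpoly_monic _, ?_, ?_⟩
  · apply Algebra.leftMulMatrix_injective c
    rw [map_zero, ← Polynomial.aeval_algHom_apply]
    exact Matrix.aeval_self_charpoly _
  · have hb := Algebra.map_leftMulMatrix_localization R (Rₘ := K) (Sₘ := L) R⁰ c f
    rw [← Matrix.charpoly_map, ← RingHom.mapMatrix_apply, hb, Algebra.leftMulMatrix_apply,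
      LinearMap.charpoly_toMatrix]
    rfl

namespace RedSetting

variable {S : RedSetting C F k Ft} {x : F} (hx : x ∈ S.V)

/-- Existence of an orthonormal basis: a `C(x)`-basis of `F` in `V` reducing to a basis. -/
theorem exists_ortho_basis (hxt : Transcendental k (S.red ⟨x, hx⟩)) [FiniteDimensional ↥C⟮x⟯ F]
    (hdeg : Module.finrank ↥k⟮S.red ⟨x, hx⟩⟯ Ft = Module.finrank ↥C⟮x⟯ F) :
    ∃ (βF : Module.Basis (Fin (Module.finrank ↥C⟮x⟯ F)) ↥C⟮x⟯ F) (hβV : ∀ i, βF i ∈ S.V)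
      (βt : Module.Basis (Fin (Module.finrank ↥C⟮x⟯ F)) ↥k⟮S.red ⟨x, hx⟩⟯ Ft),
      ∀ i, βt i = S.red ⟨βF i, hβV i⟩ := by
  have hpos : 0 < Module.finrank ↥C⟮x⟯ F := Module.finrank_pos
  have hfin : FiniteDimensional ↥k⟮S.red ⟨x, hx⟩⟯ Ft :=
    Module.finite_of_finrank_pos (hdeg ▸ hpos)
  let βt : Module.Basis (Fin (Module.finrank ↥C⟮x⟯ F)) ↥k⟮S.red ⟨x, hx⟩⟯ Ft :=
    Module.finBasisOfFinrankEq _ _ hdeg
  choose β hβ using fun i => S.red_surj (βt i)
  have hlin : LinearIndependent ↥k⟮S.red ⟨x, hx⟩⟯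
      (fun i => S.red ⟨((β i : ↥S.V) : F), (β i).2⟩) := by
    have : (fun i => S.red ⟨((β i : ↥S.V) : F), (β i).2⟩) = βt := by
      funext i
      exact hβ i
    rw [this]
    exact βt.linearIndependent
  have hlinF := linearIndependent_lift hx (fun i => ((β i : ↥S.V) : F)) (fun i => (β i).2)
    hxt hlin
  have : Nonempty (Fin (Module.finrank ↥C⟮x⟯ F)) := ⟨⟨0, hpos⟩⟩
  refine ⟨basisOfLinearIndependentOfCardEqFinrank hlinF (by simp), ?_, βt, ?_⟩
  · intro i
    rw [coe_basisOfLinearIndependentOfCardEqFinrank]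
    exact (β i).2
  · intro i
    simp only [coe_basisOfLinearIndependentOfCardEqFinrank]
    exact (hβ i).symm

/-- The ring hom `O[X] → C[x]`. -/
def psiR (S : RedSetting C F k Ft) (hxC : Transcendental C x) :
    (↥S.O)[X] →+* ↥(Algebra.adjoin C {x}) :=
  (polyEquiv hxC).toRingEquiv.toRingHom.comp (Polynomial.mapRingHom S.O.subtype)

theorem coe_psiR (hxC : Transcendental C x) (p₀ : (↥S.O)[X]) :
    ((S.psiR hxC p₀ : ↥(Algebra.adjoin C {x})) : F) = ((psi hx p₀ : ↥S.V) : F) := by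
  rw [coe_psi]
  exact coe_polyEquiv hxC _

/-- Elements of `C[x] ∩ V` come from `O[X]`. -/
theorem exists_psiR_eq (hxt : Transcendental k (S.red ⟨x, hx⟩)) (hxC : Transcendental C x)
    (r : ↥(Algebra.adjoin C {x})) (hr : (r : F) ∈ S.V) :
    ∃ p₀ : (↥S.O)[X], S.psiR hxC p₀ = r := by
  obtain ⟨p, rfl⟩ := (polyEquiv hxC).surjective r
  rw [coe_polyEquiv] at hr
  obtain ⟨p₀, hp₀⟩ := exists_lift_of_aeval_mem hx hxt p hr
  exact ⟨p₀, by rw [← hp₀]; rfl⟩

/-- Coefficients of the characteristic polynomial of an element of `V` lie in `Vx`. -/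
theorem charpoly_coeff_mem (hxt : Transcendental k (S.red ⟨x, hx⟩)) [FiniteDimensional ↥C⟮x⟯ F]
    (hdeg : Module.finrank ↥k⟮S.red ⟨x, hx⟩⟯ Ft = Module.finrank ↥C⟮x⟯ F)
    (f : F) (hf : f ∈ S.V) (i : ℕ) :
    (LinearMap.charpoly (Algebra.lmul ↥C⟮x⟯ F f)).coeff i ∈ S.Vx x := by
  classical
  obtain ⟨βF, hβV, βt, hβt⟩ := exists_ortho_basis hx hxt hdeg
  have hmem : ∀ j, f * βF j ∈ S.V := fun j => mul_mem hf (hβV j)
  let MV : Matrix (Fin (Module.finrank ↥C⟮x⟯ F)) (Fin (Module.finrank ↥C⟮x⟯ F)) ↥(S.Vx x) :=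
    Matrix.of fun i j => ⟨βF.repr (f * βF j) i, repr_mem_V hx βF hβV βt hβt hxt _ (hmem j) i⟩
  have h1 : Algebra.leftMulMatrix βF f = (S.Vx x).subtype.mapMatrix MV := by
    ext i j
    rw [Algebra.leftMulMatrix_eq_repr_mul]
    rfl
  rw [← LinearMap.charpoly_toMatrix (Algebra.lmul ↥C⟮x⟯ F f) βF, ← Algebra.leftMulMatrix_apply, h1,
    RingHom.mapMatrix_apply, Matrix.charpoly_map, Polynomial.coeff_map]
  exact Subtype.mem _

/-- **(INT)** An element of `B ∩ V` is integral over `O[x]`. -/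
theorem exists_monic_of_mem [CharZero C] (hxt : Transcendental k (S.red ⟨x, hx⟩))
    [FiniteDimensional ↥C⟮x⟯ F]
    (hdeg : Module.finrank ↥k⟮S.red ⟨x, hx⟩⟯ Ft = Module.finrank ↥C⟮x⟯ F)
    (f : ↥(Bx (C := C) x)) (hf : (f : F) ∈ S.V) :
    ∃ Φ : ((↥S.O)[X])[X], Φ.Monic ∧
      Polynomial.eval₂ ((algebraMap ↥(Algebra.adjoin C {x}) ↥(Bx (C := C) x)).comp
        (S.psiR (transcendental_x hx hxt))) f Φ = 0 := by
  classical
  have hxC := transcendental_x hx hxt
  have hpid : IsPrincipalIdealRing ↥(Algebra.adjoin C {x}) := isPrincipalIdealRing_adjoin hxC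
  have hcz : CharZero ↥C⟮x⟯ := charZero_of_injective_algebraMap (algebraMap C ↥C⟮x⟯).injective
  obtain ⟨Φc, hmonic, hzero, hmap⟩ :=
    charpoly_intClosure (R := ↥(Algebra.adjoin C {x})) (K := ↥C⟮x⟯) (L := F) f
  -- coefficients lie in `V`
  have hcoeff : ∀ i, ((Φc.coeff i : ↥(Algebra.adjoin C {x})) : F) ∈ S.V := by
    intro i
    have h2 := charpoly_coeff_mem hx hxt hdeg (f : F) hf i
    rw [← hmap, Polynomial.coeff_map] at h2
    exact h2
  have hlifts : Φc ∈ Polynomial.lifts (S.psiR hxC) := by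
    rw [Polynomial.lifts_iff_coeff_lifts]
    intro i
    obtain ⟨p₀, hp₀⟩ := exists_psiR_eq hx hxt hxC (Φc.coeff i) (hcoeff i)
    exact ⟨p₀, hp₀⟩
  obtain ⟨Φ, hΦ, -, hΦm⟩ := Polynomial.lifts_and_degree_eq_and_monic hlifts hmonic
  refine ⟨Φ, hΦm, ?_⟩
  rw [← Polynomial.eval₂_map, hΦ]
  exact hzero

end RedSetting

end Fermat.Agent.RED.H34

end
end
-- ==== END Fermat.Agent.RED.H34_Int
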