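-- GENERATED (merged mirror, NOTES/tools/trim/merge3_helper67.py): 5 modules of the originals, bodies verbatim.
import Fermat.Prelude.Thm_ModularForm_sturm_bound_Gamma0
import Fermat.Agent.Zm.S35_L04_003
import Fermat.Agent.S28.H76_Bridge
import Fermat.Agent.Zm.S35_L03_003
import Fermat.Agent.Zm.S35_L03_004
import Fermat.Agent.S16.H45_CuspExp
import Fermat.Agent.Zm.S35_L04_005

-- ==== BEGIN Fermat.Agent.RED.H42_Lat2
section

/-!
# G-RED package LAT (helper42), part 2: subspaces of fractions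

If `R` is a `C`-subalgebra of `C((t))` all of whose nonzero elements have a primitive scalar
multiple (for instance `IntSpan C`), then every finite-dimensional `C`-subspace `W` of `C((t))`
consisting of fractions of elements of `R` satisfies `dim_k (redSub O W) = dim_C W`, and
`W ∩ (Gauss ring)` is a free `O`-module on an orthonormal basis.
-/

set_option autoImplicit false

open ModularCurve Fermat.Agent.S28 Fermat.Agent.S28.H73

noncomputable section

namespace Fermat.Agent.RED.H42

variable {C : Type} [Field C] (O : ValuationSubring C)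

/-! ## Multiplication by a primitive series -/

/-- Multiplication by `b` as a linear map of `K((t))`. -/
def mulL {K : Type} [Field K] (b : LaurentSeries K) : LaurentSeries K →ₗ[K] LaurentSeries K where
  toFun x := b * x
  map_add' := mul_add b
  map_smul' c x := by
    rw [RingHom.id_apply, ← HahnSeries.C_mul_eq_smul, ← HahnSeries.C_mul_eq_smul]
    ring

@[simp] theorem mulL_apply {K : Type} [Field K] (b x : LaurentSeries K) : mulL b x = b * x := rfl

theorem mulL_injective {K : Type} [Field K] {b : LaurentSeries K} (hb : b ≠ 0) :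
    Function.Injective (mulL b) := fun _ _ hxy => mul_left_cancel₀ hb hxy

/-- The image of `W` under multiplication by `b`. -/
def mulSub (b : LaurentSeries C) (W : Submodule C (LaurentSeries C)) :
    Submodule C (LaurentSeries C) :=
  W.map (mulL b)

theorem mem_mulSub {b : LaurentSeries C} {W : Submodule C (LaurentSeries C)}
    {y : LaurentSeries C} : y ∈ mulSub b W ↔ ∃ x ∈ W, b * x = y := by
  rw [mulSub, Submodule.mem_map]
  rfl

theorem finrank_mulSub {b : LaurentSeries C} (hb : b ≠ 0) (W : Submodule C (LaurentSeries C)) :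
    Module.finrank C (mulSub b W) = Module.finrank C W := by
  exact (Submodule.equivMapOfInjective _ (mulL_injective hb) W).finrank_eq.symm

instance finiteDimensional_mulSub (b : LaurentSeries C) (W : Submodule C (LaurentSeries C))
    [FiniteDimensional C W] : FiniteDimensional C (mulSub b W) := by
  unfold mulSub
  infer_instance

/-- The inverse of a primitive series lies in the Gauss ring. -/
theorem inv_iotaV_mem {g : LaurentSeries ↥O} (hg : redV O g ≠ 0) :
    (iotaV O g)⁻¹ ∈ gaussRingV O :=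
  inv_mem_gaussRingV O (iotaV_mem_gaussRingV O g) (by rw [gaussRedV_iotaV]; exact hg)

theorem gaussRedV_iotaV_mul (g : LaurentSeries ↥O) {x : LaurentSeries C}
    (hx : x ∈ gaussRingV O) (h : iotaV O g * x ∈ gaussRingV O) :
    gaussRedV O ⟨iotaV O g * x, h⟩ = redV O g * gaussRedV O ⟨x, hx⟩ := by
  have e : (⟨iotaV O g * x, h⟩ : gaussRingV O)
      = ⟨iotaV O g, iotaV_mem_gaussRingV O g⟩ * ⟨x, hx⟩ := rfl
  rw [e, map_mul, gaussRedV_iotaV]

/-- Reduction commutes with multiplication by a primitive series. -/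
theorem redSub_mulSub {g : LaurentSeries ↥O} (hg : redV O g ≠ 0)
    (W : Submodule C (LaurentSeries C)) :
    redSub O (mulSub (iotaV O g) W) = (redSub O W).map (mulL (redV O g)) := by
  ext z
  rw [Submodule.mem_map]
  constructor
  · rintro ⟨x₁, hx₁, hx₁W, rfl⟩
    obtain ⟨x, hxW, rfl⟩ := mem_mulSub.mp hx₁W
    have hx : x ∈ gaussRingV O := by
      have h1 := (gaussRingV O).mul_mem (inv_iotaV_mem O hg) hx₁
      rwa [← mul_assoc, inv_mul_cancel₀ (iotaV_ne_zero_of_redV_ne_zero O hg), one_mul] at h1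
    exact ⟨gaussRedV O ⟨x, hx⟩, ⟨x, hx, hxW, rfl⟩, (gaussRedV_iotaV_mul O g hx hx₁).symm⟩
  · rintro ⟨y, ⟨x, hx, hxW, rfl⟩, rfl⟩
    have h : iotaV O g * x ∈ gaussRingV O :=
      (gaussRingV O).mul_mem (iotaV_mem_gaussRingV O g) hx
    exact ⟨iotaV O g * x, h, mem_mulSub.mpr ⟨x, hxW, rfl⟩, gaussRedV_iotaV_mul O g hx h⟩

theorem finrank_redSub_mulSub {g : LaurentSeries ↥O} (hg : redV O g ≠ 0)
    (W : Submodule C (LaurentSeries C)) :
    Module.finrank (kV O) (redSub O (mulSub (iotaV O g) W))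
      = Module.finrank (kV O) (redSub O W) := by
  rw [redSub_mulSub O hg]
  exact (Submodule.equivMapOfInjective _ (mulL_injective hg) _).finrank_eq.symm

/-- **LAT**, multiplied form. -/
theorem finrank_redSub_of_mul (W : Submodule C (LaurentSeries C)) [FiniteDimensional C W]
    {g : LaurentSeries ↥O} (hg : redV O g ≠ 0) (hW : PrimScalable O (mulSub (iotaV O g) W)) :
    Module.finrank (kV O) (redSub O W) = Module.finrank C W := by
  rw [← finrank_redSub_mulSub O hg, finrank_redSub O _ hW,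
    finrank_mulSub (iotaV_ne_zero_of_redV_ne_zero O hg)]

/-! ## Common denominators -/

/-- The scaling property of a subalgebra. -/
def ScalableAlg (R : Subalgebra C (LaurentSeries C)) : Prop :=
  ∀ x ∈ R, x ≠ 0 → ∃ c : C, c ≠ 0 ∧ PrimSeries O.toSubring (HahnSeries.C c * x)

theorem C_eq_algebraMap (c : C) :
    (HahnSeries.C c : LaurentSeries C) = algebraMap C (LaurentSeries C) c := by
  have h1 : algebraMap C (PowerSeries C) c = PowerSeries.C c := by simp
  rw [HahnSeries.algebraMap_apply', h1, HahnSeries.ofPowerSeries_C]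

theorem C_mul_mem_subalgebra (R : Subalgebra C (LaurentSeries C)) (c : C) {x : LaurentSeries C}
    (hx : x ∈ R) : HahnSeries.C c * x ∈ R := by
  rw [C_eq_algebraMap]
  exact R.mul_mem (R.algebraMap_mem c) hx

/-- A finite-dimensional space of fractions has a common denominator. -/
theorem exists_common_denominator (R : Subalgebra C (LaurentSeries C))
    (W : Submodule C (LaurentSeries C)) [FiniteDimensional C W]
    (hW : ∀ x ∈ W, ∃ b ∈ R, b ≠ 0 ∧ b * x ∈ R) :
    ∃ b ∈ R, b ≠ 0 ∧ ∀ x ∈ W, b * x ∈ R := by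
  classical
  obtain ⟨s, hs⟩ : W.FG := (Submodule.fg_iff_finiteDimensional W).mpr inferInstance
  have hsW : ∀ x ∈ s, x ∈ W := fun x hx => hs ▸ Submodule.subset_span hx
  choose! d hdR hd0 hdx using hW
  refine ⟨∏ y ∈ s, d y, Subalgebra.prod_mem R fun y hy => hdR y (hsW y hy),
    Finset.prod_ne_zero_iff.mpr fun y hy => hd0 y (hsW y hy), ?_⟩
  intro x hx
  rw [← hs] at hx
  induction hx using Submodule.span_induction with
  | mem x hx =>
    rw [← Finset.mul_prod_erase s d hx, mul_comm (d x), mul_assoc]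
    exact R.mul_mem (Subalgebra.prod_mem R fun y hy =>
      hdR y (hsW y (Finset.mem_of_mem_erase hy))) (hdx x (hsW x hx))
  | zero => rw [mul_zero]; exact R.zero_mem
  | add x y _ _ hx hy => rw [mul_add]; exact R.add_mem hx hy
  | smul a x _ hx =>
    rw [← HahnSeries.C_mul_eq_smul, mul_left_comm]
    exact C_mul_mem_subalgebra R a hx

/-- **LAT for spaces of fractions**: if the nonzero elements of the subalgebra `R` are scalable
and `W` is a finite-dimensional space of fractions of elements of `R`, then the reduction of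
`W ∩ (Gauss ring)` has the same dimension as `W`. -/
theorem finrank_redSub_of_fractions {R : Subalgebra C (LaurentSeries C)} (hR : ScalableAlg O R)
    (W : Submodule C (LaurentSeries C)) [FiniteDimensional C W]
    (hW : ∀ x ∈ W, ∃ b ∈ R, b ≠ 0 ∧ b * x ∈ R) :
    Module.finrank (kV O) (redSub O W) = Module.finrank C W := by
  obtain ⟨b, hbR, hb0, hbW⟩ := exists_common_denominator R W hW
  obtain ⟨c, -, hc⟩ := hR b hbR hb0
  obtain ⟨g, hg, hgb⟩ := (primSeries_iff O _).1 hc
  refine finrank_redSub_of_mul O W hg ?_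
  intro y hy hy0
  obtain ⟨x, hxW, rfl⟩ := mem_mulSub.mp hy
  refine hR _ ?_ hy0
  rw [hgb, mul_assoc]
  exact C_mul_mem_subalgebra R c (hbW x hxW)

/-! ## Orthonormal bases of spaces of fractions -/

/-- An **orthonormal basis** of `W`: elements `e_i ∈ W` of the Gauss ring, with linearly
independent reductions, such that `W ∩ (Gauss ring)` is the `O`-span of the `e_i`. -/
structure IsOrthonormal (W : Submodule C (LaurentSeries C)) {n : ℕ}
    (e : Fin n → gaussRingV O) : Prop where
  mem : ∀ i, ((e i : gaussRingV O) : LaurentSeries C) ∈ W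
  indep : LinearIndependent (kV O) (fun i => gaussRedV O (e i))
  repr : ∀ x ∈ W, x ∈ gaussRingV O →
    ∃ d : Fin n → ↥O, x = ∑ i, ((d i : ↥O) : C) • ((e i : gaussRingV O) : LaurentSeries C)

/-- The reduction of an `O`-combination of elements of the Gauss ring. -/
theorem gaussRedV_sum' {n : ℕ} (e : Fin n → gaussRingV O) (d : Fin n → ↥O)
    (hx : ∑ i, ((d i : ↥O) : C) • ((e i : gaussRingV O) : LaurentSeries C) ∈ gaussRingV O) :
    gaussRedV O ⟨_, hx⟩ = ∑ i, resV O (d i) • gaussRedV O (e i) := by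
  have e1 : (⟨_, hx⟩ : gaussRingV O)
      = ∑ i, (⟨iotaV O (HahnSeries.C (d i)), iotaV_mem_gaussRingV O _⟩ : gaussRingV O) * e i := by
    apply Subtype.ext
    have hcoe : ((∑ i, (⟨iotaV O (HahnSeries.C (d i)), iotaV_mem_gaussRingV O _⟩ : gaussRingV O)
        * e i : gaussRingV O) : LaurentSeries C)
        = ∑ i, iotaV O (HahnSeries.C (d i)) * ((e i : gaussRingV O) : LaurentSeries C) :=
      map_sum (gaussRingV O).val _ _
    rw [hcoe]
    show ∑ i, ((d i : ↥O) : C) • ((e i : gaussRingV O) : LaurentSeries C)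
      = ∑ i, iotaV O (HahnSeries.C (d i)) * ((e i : gaussRingV O) : LaurentSeries C)
    refine Finset.sum_congr rfl fun i _ => ?_
    rw [← HahnSeries.C_mul_eq_smul, ← iotaV_C]
  rw [e1, map_sum]
  refine Finset.sum_congr rfl fun i _ => ?_
  rw [map_mul, gaussRedV_iotaV, redV_C, HahnSeries.C_mul_eq_smul]

theorem IsOrthonormal.redSub_eq {W : Submodule C (LaurentSeries C)} {n : ℕ}
    {e : Fin n → gaussRingV O} (he : IsOrthonormal O W e) :
    redSub O W = Submodule.span (kV O) (Set.range fun i => gaussRedV O (e i)) := by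
  apply le_antisymm
  · rintro y ⟨x, hx, hxW, rfl⟩
    obtain ⟨d, hd⟩ := he.repr x hxW hx
    subst hd
    rw [gaussRedV_sum']
    exact Submodule.sum_mem _ fun i _ =>
      Submodule.smul_mem _ _ (Submodule.subset_span ⟨i, rfl⟩)
  · rw [Submodule.span_le]
    rintro _ ⟨i, rfl⟩
    exact ⟨(e i : LaurentSeries C), (e i).2, he.mem i, rfl⟩

theorem IsOrthonormal.finrank_redSub {W : Submodule C (LaurentSeries C)} {n : ℕ}
    {e : Fin n → gaussRingV O} (he : IsOrthonormal O W e) :
    Module.finrank (kV O) (redSub O W) = n := by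
  rw [he.redSub_eq, finrank_span_eq_card he.indep, Fintype.card_fin]

/-- Orthonormal basis of a scalable space, with prescribed index set. -/
theorem exists_isOrthonormal_of_primScalable (W : Submodule C (LaurentSeries C))
    [FiniteDimensional C W] (hW : PrimScalable O W) {n : ℕ} (hn : Module.finrank C W = n) :
    ∃ f : Fin n → LaurentSeries ↥O,
      IsOrthonormal O W (fun i => ⟨iotaV O (f i), iotaV_mem_gaussRingV O _⟩) := by
  obtain ⟨f, hfW, hfli⟩ := exists_orthonormal_aux O n W inferInstance hn hW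
  have hli := linearIndependent_iotaV O hfli
  have hspan : Submodule.span C (Set.range fun i => iotaV O (f i)) = W := by
    apply Submodule.eq_of_le_of_finrank_eq
    · rw [Submodule.span_le]
      rintro _ ⟨i, rfl⟩
      exact hfW i
    · rw [finrank_span_eq_card hli, Fintype.card_fin, hn]
  refine ⟨f, hfW, ?_, ?_⟩
  · simpa only [gaussRedV_iotaV] using hfli
  · intro x hxW hx
    rw [← hspan] at hxW
    obtain ⟨c, hc⟩ := (Submodule.mem_span_range_iff_exists_fun C).mp hxW
    have hcO := coeff_mem_of_mem_gaussRingV O hfli c (by rw [hc]; exact hx)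
    exact ⟨fun i => ⟨c i, hcO i⟩, hc.symm⟩

/-- Orthonormal basis of `W` from one of `g W`, `g` primitive. -/
theorem exists_isOrthonormal_of_mul (W : Submodule C (LaurentSeries C)) [FiniteDimensional C W]
    {g : LaurentSeries ↥O} (hg : redV O g ≠ 0) (hW : PrimScalable O (mulSub (iotaV O g) W)) :
    ∃ e : Fin (Module.finrank C W) → gaussRingV O, IsOrthonormal O W e := by
  have hg0 : iotaV O g ≠ 0 := iotaV_ne_zero_of_redV_ne_zero O hg
  obtain ⟨f, hf⟩ := exists_isOrthonormal_of_primScalable O (mulSub (iotaV O g) W) hW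
    (finrank_mulSub hg0 W)
  let u : gaussRingV O := ⟨(iotaV O g)⁻¹, inv_iotaV_mem O hg⟩
  have hu : gaussRedV O u * redV O g = 1 := by
    rw [← gaussRedV_iotaV O g, ← map_mul]
    have : u * ⟨iotaV O g, iotaV_mem_gaussRingV O g⟩ = 1 :=
      Subtype.ext (inv_mul_cancel₀ hg0)
    rw [this, map_one]
  have hu0 : gaussRedV O u ≠ 0 := left_ne_zero_of_mul_eq_one hu
  refine ⟨fun i => u * ⟨iotaV O (f i), iotaV_mem_gaussRingV O _⟩, ?_, ?_, ?_⟩
  · intro i
    obtain ⟨x, hxW, hx⟩ := mem_mulSub.mp (hf.mem i)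
    have : ((u * ⟨iotaV O (f i), iotaV_mem_gaussRingV O _⟩ : gaussRingV O) : LaurentSeries C)
        = x := by
      show (iotaV O g)⁻¹ * iotaV O (f i) = x
      have hx' : iotaV O g * x = iotaV O (f i) := hx
      rw [← hx', ← mul_assoc, inv_mul_cancel₀ hg0, one_mul]
    rw [this]
    exact hxW
  · have h1 := hf.indep
    rw [Fintype.linearIndependent_iff] at h1 ⊢
    intro c hc
    apply h1 c
    have h2 : ∑ i, c i • gaussRedV O (u * ⟨iotaV O (f i), iotaV_mem_gaussRingV O _⟩)
        = gaussRedV O u * ∑ i, c i • gaussRedV O ⟨iotaV O (f i), iotaV_mem_gaussRingV O _⟩ := by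
      rw [Finset.mul_sum]
      refine Finset.sum_congr rfl fun i _ => ?_
      rw [map_mul, ← HahnSeries.C_mul_eq_smul, ← HahnSeries.C_mul_eq_smul]
      ring
    rw [h2] at hc
    exact (mul_eq_zero.mp hc).resolve_left hu0
  · intro x hxW hx
    have h1 : iotaV O g * x ∈ gaussRingV O :=
      (gaussRingV O).mul_mem (iotaV_mem_gaussRingV O g) hx
    obtain ⟨d, hd⟩ := hf.repr (iotaV O g * x) (mem_mulSub.mpr ⟨x, hxW, rfl⟩) h1
    refine ⟨d, ?_⟩
    have h2 : x = (iotaV O g)⁻¹ * (iotaV O g * x) := by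
      rw [← mul_assoc, inv_mul_cancel₀ hg0, one_mul]
    rw [h2, hd, Finset.mul_sum]
    refine Finset.sum_congr rfl fun i _ => ?_
    show (iotaV O g)⁻¹ * (((d i : ↥O) : C) • iotaV O (f i))
      = ((d i : ↥O) : C) • ((iotaV O g)⁻¹ * iotaV O (f i))
    rw [← HahnSeries.C_mul_eq_smul, ← HahnSeries.C_mul_eq_smul]
    ring


/-- **LAT, orthonormal form**: a finite-dimensional space `W` of fractions of elements of a
scalable subalgebra has an orthonormal basis. -/
theorem exists_isOrthonormal_of_fractions {R : Subalgebra C (LaurentSeries C)}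
    (hR : ScalableAlg O R) (W : Submodule C (LaurentSeries C)) [FiniteDimensional C W]
    (hW : ∀ x ∈ W, ∃ b ∈ R, b ≠ 0 ∧ b * x ∈ R) :
    ∃ e : Fin (Module.finrank C W) → gaussRingV O, IsOrthonormal O W e := by
  obtain ⟨b, hbR, hb0, hbW⟩ := exists_common_denominator R W hW
  obtain ⟨c, -, hc⟩ := hR b hbR hb0
  obtain ⟨g, hg, hgb⟩ := (primSeries_iff O _).1 hc
  refine exists_isOrthonormal_of_mul O W hg ?_
  intro y hy hy0
  obtain ⟨x, hxW, rfl⟩ := mem_mulSub.mp hy
  refine hR _ ?_ hy0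
  rw [hgb, mul_assoc]
  exact C_mul_mem_subalgebra R c (hbW x hxW)

end Fermat.Agent.RED.H42

end
end
-- ==== END Fermat.Agent.RED.H42_Lat2

-- ==== BEGIN Fermat.Agent.RED.H42_PoleDegree
section

/-!
# G-RED, FF-R/FF-B (helper42): the lower bound `[F : K(x)] ≤ deg (x)_∞` from `L`-spaces

No principal divisors are used: the inputs are `deg v = 1`, "non-constant functions have a pole",
and finiteness of the set of poles.  Consequently the zeros theorem (`H59.ZerosStmt`) follows
from its `≤` half (`ZerosLe`, which is what weak approximation gives).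
-/

set_option autoImplicit false

noncomputable section

open AlgebraicCurve IntermediateField WithZero Polynomial

namespace Fermat.Agent.RED.H42

open Fermat.Agent.S24

variable {K F : Type*} [Field K] [Field F] [Algebra K F]

local notation "L" => riemannRochSpace

/-- The hypotheses on places that do not involve principal divisors. -/
structure Hyp0 (K F : Type*) [Field K] [Field F] [Algebra K F] : Prop where
  deg_one : ∀ v : Place K F, v.deg = 1
  exists_pole : ∀ f : F, f ∉ Set.range (algebraMap K F) → ∃ v : Place K F, v.ord f < 0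

theorem Hyp.toHyp0 (H : Hyp K F) : Hyp0 K F := ⟨H.deg_one, H.exists_pole⟩

section

variable (H : Hyp0 K F)
include H

theorem L_zero_eq0 : L (0 : Divisor K F) = Submodule.span K {(1 : F)} := by
  apply le_antisymm
  · intro f hf
    by_cases hfr : f ∈ Set.range (algebraMap K F)
    · obtain ⟨c, rfl⟩ := hfr
      rw [Submodule.mem_span_singleton]
      exact ⟨c, by rw [Algebra.smul_def, mul_one]⟩
    · exfalso
      obtain ⟨v, hv⟩ := H.exists_pole f hfr
      have h1 := (mem_riemannRochSpace_iff.mp hf) v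
      rcases h1 with rfl | h1
      · simp at hv
      · simp only [Finsupp.coe_zero, Pi.zero_apply, neg_zero] at h1
        omega
  · rw [Submodule.span_singleton_le_iff_mem]
    intro v
    simp

theorem finite_L_zero0 : Module.Finite K (L (0 : Divisor K F)) := by
  rw [L_zero_eq0 H]
  infer_instance

theorem finrank_L_zero0 : Module.finrank K (L (0 : Divisor K F)) = 1 := by
  rw [L_zero_eq0 H]
  exact finrank_span_singleton one_ne_zero

theorem finite_L0 (D : Divisor K F) : Module.Finite K (L D) := by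
  have h1 : Module.Finite K (L (D ⊔ 0)) := finite_of_le H.deg_one le_sup_right (finite_L_zero0 H)
  exact Submodule.finiteDimensional_of_le (L_mono (le_sup_left : D ≤ D ⊔ 0))

/-- `l(D) ≤ deg D + 1` for `D ≥ 0` (no principal divisors needed). -/
theorem finrank_L_le0 {D : Divisor K F} (hD : 0 ≤ D) :
    (Module.finrank K (L D) : ℤ) ≤ Divisor.degree D + 1 := by
  have h := finrank_le_add H.deg_one hD (finite_L_zero0 H)
  rw [finrank_L_zero0 H, map_zero] at h
  simp only [Nat.cast_one, sub_zero] at h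
  omega

/-- **Lower bound for the degree of the pole divisor**: if `x ∈ L(B)`, `B ≥ 0`, then
`[F : K(x)] ≤ deg B`. -/
theorem finrank_le_degree_of_mem_L {x : F} (hxt : Transcendental K x) [Module.Finite K⟮x⟯ F]
    {B : Divisor K F} (hB : 0 ≤ B) (hx : x ∈ L B)
    (hpoles : ∀ f : F, ∃ C : Divisor K F, 0 ≤ C ∧ f ∈ L C) :
    (Module.finrank K⟮x⟯ F : ℤ) ≤ Divisor.degree B := by
  set n := Module.finrank K⟮x⟯ F with hn
  let b := Module.finBasis K⟮x⟯ F
  -- a common pole bound for the basis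
  obtain ⟨C, hC, hb⟩ : ∃ C : Divisor K F, 0 ≤ C ∧ ∀ j, b j ∈ L C := by
    choose C hC0 hC using fun j => hpoles (b j)
    refine ⟨∑ j, C j, Finset.sum_nonneg fun j _ => hC0 j, fun j => ?_⟩
    exact L_mono (Finset.single_le_sum (fun i _ => hC0 i) (Finset.mem_univ j)) (hC j)
  by_contra hlt
  push Not at hlt
  have hdC : 0 ≤ Divisor.degree C := degree_nonneg hC
  set l : ℕ := (Divisor.degree C + 1).toNat with hl
  have hl' : (l : ℤ) = Divisor.degree C + 1 := Int.toNat_of_nonneg (by omega)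
  have h1 := le_finrank_L hB hx hxt b.linearIndependent hb l (finite_L0 H _)
  have h2 : (0 : Divisor K F) ≤ l • B + C := add_nonneg (nsmul_nonneg hB l) hC
  have h3 := finrank_L_le0 H h2
  rw [map_add, map_nsmul, nsmul_eq_mul] at h3
  have h1' : ((n * (l + 1) : ℕ) : ℤ) ≤ Module.finrank K (L (l • B + C)) := by exact_mod_cast h1
  push_cast at h1'
  have h4 : (l : ℤ) * (Divisor.degree B + 1) ≤ l * n :=
    mul_le_mul_of_nonneg_left (by omega) (by positivity)
  have hn1 : (1 : ℤ) ≤ n := by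
    have : 0 < Module.finrank K⟮x⟯ F := Module.finrank_pos
    rw [hn]
    exact_mod_cast this
  nlinarith

end

/-! ## The zeros theorem from its `≤` half -/

/-- The `≤` half of the zeros theorem (this is what weak approximation gives). -/
def ZerosLe (K F : Type*) [Field K] [Field F] [Algebra K F] : Prop :=
  ∀ (x : F), Transcendental K x → ∀ [FiniteDimensional K⟮x⟯ F],
    {v : Place K F | 0 < v.ord x}.Finite ∧
      ∑ᶠ v ∈ {v : Place K F | 0 < v.ord x}, v.ord x ≤ (Module.finrank K⟮x⟯ F : ℤ)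

/-- The zero divisor of `x`, given that `x` has finitely many zeros. -/
def zeroDivisor (x : F) (h : {v : Place K F | 0 < v.ord x}.Finite) : Divisor K F :=
  Finsupp.ofSupportFinite (fun v => max (v.ord x) 0) (h.subset fun v hv => by
    simp only [Function.mem_support, ne_eq] at hv
    simp only [Set.mem_ofPred_eq]
    omega)

theorem zeroDivisor_apply (x : F) (h : {v : Place K F | 0 < v.ord x}.Finite) (v : Place K F) :
    zeroDivisor x h v = max (v.ord x) 0 := rfl

theorem zeroDivisor_nonneg (x : F) (h : {v : Place K F | 0 < v.ord x}.Finite) :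
    0 ≤ zeroDivisor x h := by
  rw [Finsupp.le_def]
  intro v
  exact le_max_right _ _

theorem inv_mem_L_zeroDivisor (x : F) (h : {v : Place K F | 0 < v.ord x}.Finite) :
    x⁻¹ ∈ L (zeroDivisor x h) := by
  rw [mem_riemannRochSpace_iff]
  intro v
  right
  rw [zeroDivisor_apply, Place.ord_inv]
  omega

theorem degree_zeroDivisor (hdeg : ∀ v : Place K F, v.deg = 1) (x : F)
    (h : {v : Place K F | 0 < v.ord x}.Finite) :
    Divisor.degree (zeroDivisor x h) = ∑ᶠ v ∈ {v : Place K F | 0 < v.ord x}, v.ord x := by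
  classical
  rw [H59.degree_eq_sum_of_deg_eq_one hdeg, finsum_mem_eq_finite_toFinset_sum _ h]
  have hs : (zeroDivisor x h).support = h.toFinset := by
    ext v
    simp only [Finsupp.mem_support_iff, Set.Finite.mem_toFinset, Set.mem_ofPred_eq,
      zeroDivisor_apply]
    omega
  rw [hs]
  refine Finset.sum_congr rfl fun v hv => ?_
  rw [zeroDivisor_apply]
  simp only [Set.Finite.mem_toFinset, Set.mem_ofPred_eq] at hv
  omega

/-- The zeros theorem follows from its `≤` half, `deg v = 1` and the existence of poles. -/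
theorem zerosStmt_of_le [IsAlgClosed K] {x₀ : F} (hx₀ : Transcendental K x₀)
    [FiniteDimensional K⟮x₀⟯ F]
    (hpole : ∀ f : F, f ∉ Set.range (algebraMap K F) → ∃ v : Place K F, v.ord f < 0)
    (hle : ZerosLe K F) : H59.ZerosStmt K F := by
  have H : Hyp0 K F := ⟨fun v => ff_deg_eq_one x₀ hx₀ v, hpole⟩
  have hpoles : ∀ f : F, ∃ C : Divisor K F, 0 ≤ C ∧ f ∈ L C := by
    intro f
    by_cases hfr : f ∈ Set.range (algebraMap K F)
    · obtain ⟨c, rfl⟩ := hfr
      exact ⟨0, le_rfl, algebraMap_mem_L le_rfl c⟩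
    · have htr : Transcendental K f := transcendental_of_not_mem_range hfr
      have htr' : Transcendental K f⁻¹ := fun h => htr (IsAlgebraic.inv_iff.mp h)
      have := ff_finite_of_transcendental x₀ hx₀ f⁻¹ htr'
      obtain ⟨hfin, -⟩ := hle f⁻¹ htr'
      refine ⟨zeroDivisor f⁻¹ hfin, zeroDivisor_nonneg _ _, ?_⟩
      have := inv_mem_L_zeroDivisor f⁻¹ hfin
      rwa [inv_inv] at this
  intro x hx _
  obtain ⟨hfin, hsum⟩ := hle x hx
  refine ⟨hfin, le_antisymm hsum ?_⟩
  have htr' : Transcendental K x⁻¹ := fun h => hx (IsAlgebraic.inv_iff.mp h)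
  have := ff_finite_of_transcendental x₀ hx₀ x⁻¹ htr'
  have h1 := finrank_le_degree_of_mem_L H htr' (zeroDivisor_nonneg x hfin)
    (inv_mem_L_zeroDivisor x hfin) hpoles
  rw [H59.finrank_adjoin_inv, degree_zeroDivisor H.deg_one] at h1
  exact h1

/-- Existence of poles from existence of zeros (the shape of FF-B piece P1). -/
theorem exists_pole_of_exists_zero [IsAlgClosed K]
    (hzero : ∀ x : F, Transcendental K x → ∃ v : Place K F, 0 < v.ord x) :
    ∀ f : F, f ∉ Set.range (algebraMap K F) → ∃ v : Place K F, v.ord f < 0 := by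
  intro f hf
  have htr : Transcendental K f := transcendental_of_not_mem_range hf
  have htr' : Transcendental K f⁻¹ := fun h => htr (IsAlgebraic.inv_iff.mp h)
  obtain ⟨v, hv⟩ := hzero f⁻¹ htr'
  refine ⟨v, ?_⟩
  rw [Place.ord_inv] at hv
  omega

/-- The zeros theorem from existence of zeros (P1) and the `≤` half (P4). -/
theorem zerosStmt_of_exists_zero_of_le [IsAlgClosed K] {x₀ : F} (hx₀ : Transcendental K x₀)
    [FiniteDimensional K⟮x₀⟯ F]
    (hzero : ∀ x : F, Transcendental K x → ∃ v : Place K F, 0 < v.ord x)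
    (hle : ZerosLe K F) : H59.ZerosStmt K F :=
  zerosStmt_of_le hx₀ (exists_pole_of_exists_zero hzero) hle

/-- `Hyp0` from existence of zeros. -/
theorem hyp0_of_exists_zero [IsAlgClosed K] {x₀ : F} (hx₀ : Transcendental K x₀)
    [FiniteDimensional K⟮x₀⟯ F]
    (hzero : ∀ x : F, Transcendental K x → ∃ v : Place K F, 0 < v.ord x) : Hyp0 K F :=
  ⟨fun v => ff_deg_eq_one x₀ hx₀ v, exists_pole_of_exists_zero hzero⟩

/-- Existence of zeros for all function fields over algebraically closed fields (FF-B, P1). -/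
def ExistsZeroAll : Prop :=
  ∀ (K F : Type) [Field K] [Field F] [Algebra K F] [IsAlgClosed K], IsFF K F →
    ∀ x : F, Transcendental K x → ∃ v : Place K F, 0 < v.ord x

/-- The `≤` half of the zeros theorem for all function fields (FF-B, P4). -/
def ZerosLeAll : Prop :=
  ∀ (K F : Type) [Field K] [Field F] [Algebra K F] [IsAlgClosed K], IsFF K F → ZerosLe K F

theorem zerosAll_of (h1 : ExistsZeroAll) (h4 : ZerosLeAll) : ZerosAll := by
  intro K F _ _ _ _ hFF
  obtain ⟨x, hx, hfin⟩ := hFF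
  exact zerosStmt_of_exists_zero_of_le hx (h1 K F ⟨x, hx, hfin⟩) (h4 K F ⟨x, hx, hfin⟩)

/-- `Stmt_FFB_principal` from the zeros theorem. -/
theorem stmt_FFB_principal_of (hz : ZerosAll) : Stmt_FFB_principal := by
  intro K F _ _ _ _ hFF
  obtain ⟨x, hx, hfin⟩ := hFF
  exact ⟨(hyp_of_zeros (hz K F ⟨x, hx, hfin⟩) hx).principal⟩

end Fermat.Agent.RED.H42

end
end
-- ==== END Fermat.Agent.RED.H42_PoleDegree

-- ==== BEGIN Fermat.Agent.RED.H70_Mod2Forms
section

/-!
# G-RED, package IG-MOD23, `p = 2` (helper70): three identities of modular forms on `Γ₀(2)`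

With `G = 2 E₂(2z) - E₂(z) = 1 + 24 ∑ σ_odd(n) qⁿ` (integral expansion `g2Series`),
`α = 4 G² - E₄`, `β = E₄ - G²`:

* `w4`   : `4 E₄(2z) = 5 G² - E₄`,
* `w12a` : `1728 Δ(z) = α² β`,
* `w12b` : `110592 Δ(2z) = α β²`,

as identities of integral `q`-expansions (power series over `ℤ`). Each is a Sturm bound check
on `Γ₀(2)` (index 3; prelude `ModularForm.sturm_bound_Gamma0`): coefficients `0, 1` in weight 4,
`0, …, 3` in weight 12.
-/

set_option autoImplicit false

noncomputable section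

namespace Fermat.Agent.RED.H70

section formal

open PowerSeries

/-- Congruence modulo `X ^ n` through the quotient ring. -/
theorem pi_eq_of_dvd {n : ℕ} {a b : PowerSeries ℤ} (h : (X : PowerSeries ℤ) ^ n ∣ a - b) :
    Ideal.Quotient.mk (Ideal.span {(X : PowerSeries ℤ) ^ n}) a
      = Ideal.Quotient.mk (Ideal.span {(X : PowerSeries ℤ) ^ n}) b :=
  Ideal.Quotient.eq.2 (Ideal.mem_span_singleton.2 h)

theorem dvd_of_pi_eq_zero {n : ℕ} {a : PowerSeries ℤ}
    (h : Ideal.Quotient.mk (Ideal.span {(X : PowerSeries ℤ) ^ n}) a = 0) :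
    (X : PowerSeries ℤ) ^ n ∣ a :=
  Ideal.mem_span_singleton.1 (Ideal.Quotient.eq_zero_iff_mem.1 h)

theorem pi_X_pow (n : ℕ) :
    (Ideal.Quotient.mk (Ideal.span {(X : PowerSeries ℤ) ^ n}) X) ^ n = 0 := by
  rw [← map_pow]
  exact Ideal.Quotient.eq_zero_iff_mem.2 (Ideal.mem_span_singleton.2 dvd_rfl)

/-- A power series is congruent modulo `X ^ 4` to its first four terms. -/
theorem dvd_four (P : PowerSeries ℤ) (c0 c1 c2 c3 : ℤ) (h0 : coeff 0 P = c0)
    (h1 : coeff 1 P = c1) (h2 : coeff 2 P = c2) (h3 : coeff 3 P = c3) :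
    (X : PowerSeries ℤ) ^ 4 ∣ P - (C c0 + C c1 * X + C c2 * X ^ 2 + C c3 * X ^ 3) := by
  rw [PowerSeries.X_pow_dvd_iff]
  intro m hm
  interval_cases m <;>
    simp only [map_sub, map_add, PowerSeries.coeff_C_mul, PowerSeries.coeff_X_pow,
      PowerSeries.coeff_X, PowerSeries.coeff_C, h0, h1, h2, h3] <;> norm_num

theorem dvd_two (P : PowerSeries ℤ) (c0 c1 : ℤ) (h0 : coeff 0 P = c0)
    (h1 : coeff 1 P = c1) :
    (X : PowerSeries ℤ) ^ 2 ∣ P - (C c0 + C c1 * X) := by
  rw [PowerSeries.X_pow_dvd_iff]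
  intro m hm
  interval_cases m <;>
    simp only [map_sub, map_add, PowerSeries.coeff_C_mul,
      PowerSeries.coeff_X, PowerSeries.coeff_C, h0, h1] <;> norm_num

/-- The truncated check for `(W4)`. -/
theorem t4_dvd (g e Ee : PowerSeries ℤ)
    (hg : (X : PowerSeries ℤ) ^ 2 ∣ g - (C 1 + C 24 * X))
    (he : (X : PowerSeries ℤ) ^ 2 ∣ e - (C 1 + C 240 * X))
    (hEe : (X : PowerSeries ℤ) ^ 2 ∣ Ee - (C 1 + C 0 * X)) :
    (X : PowerSeries ℤ) ^ 2 ∣ 5 * g ^ 2 - e - 4 * Ee := by
  apply dvd_of_pi_eq_zero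
  have hg' := pi_eq_of_dvd hg
  have he' := pi_eq_of_dvd he
  have hEe' := pi_eq_of_dvd hEe
  have hx := pi_X_pow 2
  simp only [map_sub, map_mul, map_pow, map_add, map_ofNat, map_one, map_zero] at hg' he' hEe' ⊢
  rw [hg', he', hEe']
  generalize (Ideal.Quotient.mk (Ideal.span {(X : PowerSeries ℤ) ^ 2})) X = x at hx ⊢
  linear_combination (2880) * hx

/-- The truncated check for `(W12a)`. -/
theorem t12a_dvd (g e e6 : PowerSeries ℤ)
    (hg : (X : PowerSeries ℤ) ^ 4 ∣ g - (C 1 + C 24 * X + C 24 * X ^ 2 + C 96 * X ^ 3))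
    (he : (X : PowerSeries ℤ) ^ 4 ∣ e - (C 1 + C 240 * X + C 2160 * X ^ 2 + C 6720 * X ^ 3))
    (he6 : (X : PowerSeries ℤ) ^ 4 ∣
      e6 - (C 1 + C (-504) * X + C (-16632) * X ^ 2 + C (-122976) * X ^ 3)) :
    (X : PowerSeries ℤ) ^ 4 ∣ (4 * g ^ 2 - e) ^ 2 * (e - g ^ 2) - (e ^ 3 - e6 ^ 2) := by
  apply dvd_of_pi_eq_zero
  have hg' := pi_eq_of_dvd hg
  have he' := pi_eq_of_dvd he
  have he6' := pi_eq_of_dvd he6
  have hx := pi_X_pow 4
  simp only [map_sub, map_mul, map_pow, map_add, map_ofNat, map_one, map_neg] at hg' he' he6' ⊢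
  rw [hg', he', he6']
  generalize (Ideal.Quotient.mk (Ideal.span {(X : PowerSeries ℤ) ^ 4})) X = x at hx ⊢
  linear_combination ((960768) + (-483784704) * x + (-16201562112) * x ^ 2 + (-125961412608) * x ^ 3 + (-296545370112) * x ^ 4 + (-208277471232) * x ^ 5 + (433931157504) * x ^ 6 + (3762435391488) * x ^ 7 + (4692469874688) * x ^ 8 + (7509582544896) * x ^ 9 + (-7093742469120) * x ^ 10 + (-14481019109376) * x ^ 11 + (-30527553798144) * x ^ 12 + (-18786186952704) * x ^ 13 + (-12524124635136) * x ^ 14) * hx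

/-- The truncated check for `(W12b)`. -/
theorem t12b_dvd (g e Ee Ee6 : PowerSeries ℤ)
    (hg : (X : PowerSeries ℤ) ^ 4 ∣ g - (C 1 + C 24 * X + C 24 * X ^ 2 + C 96 * X ^ 3))
    (he : (X : PowerSeries ℤ) ^ 4 ∣ e - (C 1 + C 240 * X + C 2160 * X ^ 2 + C 6720 * X ^ 3))
    (hEe : (X : PowerSeries ℤ) ^ 4 ∣ Ee - (C 1 + C 0 * X + C 240 * X ^ 2 + C 0 * X ^ 3))
    (hEe6 : (X : PowerSeries ℤ) ^ 4 ∣ Ee6 - (C 1 + C 0 * X + C (-504) * X ^ 2 + C 0 * X ^ 3)) :
    (X : PowerSeries ℤ) ^ 4 ∣
      (4 * g ^ 2 - e) * (e - g ^ 2) ^ 2 - 64 * (Ee ^ 3 - Ee6 ^ 2) := by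
  apply dvd_of_pi_eq_zero
  have hg' := pi_eq_of_dvd hg
  have he' := pi_eq_of_dvd he
  have hEe' := pi_eq_of_dvd hEe
  have hEe6' := pi_eq_of_dvd hEe6
  have hx := pi_X_pow 4
  simp only [map_sub, map_mul, map_pow, map_add, map_ofNat, map_one, map_neg, map_zero]
    at hg' he' hEe' hEe6' ⊢
  rw [hg', he', hEe', hEe6']
  generalize (Ideal.Quotient.mk (Ideal.span {(X : PowerSeries ℤ) ^ 4})) X = x at hx ⊢
  linear_combination ((2543616) + (-20127744) * x + (-90243072) * x ^ 2 + (11086626816) * x ^ 3 + (91576479744) * x ^ 4 + (367016804352) * x ^ 5 + (747547066368) * x ^ 6 + (-734790942720) * x ^ 7 + (-1893193482240) * x ^ 8 + (-4843313823744) * x ^ 9 + (-489223618560) * x ^ 10 + (1907972112384) * x ^ 11 + (7631888449536) * x ^ 12 + (4696546738176) * x ^ 13 + (3131031158784) * x ^ 14) * hx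


end formal

open UpperHalfPlane ModularForm CongruenceSubgroup
open scoped MatrixGroups ModularForm

open Fermat.Agent.S20.H74 (MF)
open Fermat.Agent.S16.H45
open Fermat.Agent.S23.H96 (e4Series e6Series deltaSeries)



/-- The integral `q`-expansion of `G = 2 E₂(2z) - E₂(z) = 1 + 24 ∑ σ_odd(n) qⁿ`. -/
def g2Series : PowerSeries ℤ :=
  PowerSeries.mk fun n => if n = 0 then 1 else 24 * (Fermat.Agent.S16.sigmaP 2 n : ℤ)

theorem index_Gamma0_two : (Gamma0 2).index = 3 := by
  rw [Fermat.Agent.S20.H19.G1, ModularCurve.dedekindPsi, Nat.Prime.divisors Nat.prime_two,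
    Finset.sum_filter, Finset.sum_pair (by norm_num)]
  simp [Nat.prime_two.squarefree]

theorem MF_congr {Γ : Subgroup SL(2, ℤ)} {k l : ℤ} (h : k = l) {F : ℍ → ℂ} (hF : F ∈ MF Γ k) :
    F ∈ MF Γ l := h ▸ hF

/-- The Eisenstein series of weight 2 on `Γ₀(2)` with integral expansion `g2Series`. -/
theorem exists_G : ∃ G : ℍ → ℂ, G ∈ MF (Gamma0 2) 2 ∧
    qExpansion 1 G = g2Series.map (Int.castRingHom ℂ) := by
  obtain ⟨E, h0, hk⟩ := Fermat.Agent.S16.H6.stmt_Eis 2 (by norm_num)
  have hE : (⇑E : ℍ → ℂ) ∈ MF (Gamma0 2) 2 := coe_mem_MF_Gamma0 2 E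
  refine ⟨(24 : ℂ) • ⇑E, (MF (Gamma0 2) 2).smul_mem _ hE, ?_⟩
  rw [qExp_smul 2 hE]
  ext n
  rw [PowerSeries.coeff_map, g2Series, PowerSeries.coeff_mk, PowerSeries.coeff_smul]
  rcases Nat.eq_zero_or_pos n with rfl | hn
  · have := h0
    unfold ModularFormClass.qCoeff at this
    rw [this]
    norm_num
  · have := hk n hn
    unfold ModularFormClass.qCoeff at this
    rw [this, if_neg (by omega)]
    simp only [smul_eq_mul, eq_intCast]
    push_cast
    ring

/-- Sturm's bound on `Γ₀(2)` for forms with integral `q`-expansion. -/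
theorem sturm_two {k : ℤ} {F : ℍ → ℂ} (hF : F ∈ MF (Gamma0 2) k) (T : PowerSeries ℤ)
    (hq : qExpansion 1 F = T.map (Int.castRingHom ℂ)) (n : ℕ) (hn : (k * 3).toNat / 12 < n)
    (hT : (PowerSeries.X : PowerSeries ℤ) ^ n ∣ T) : T = 0 := by
  obtain ⟨F', hF'⟩ := exists_modularForm_Gamma0 2 hF
  have h0 : F' = 0 := by
    refine ModularForm.sturm_bound_Gamma0 2 F' fun m hm => ?_
    rw [index_Gamma0_two] at hm
    have hmn : m < n := lt_of_le_of_lt (by exact_mod_cast hm) hn
    rw [hF', hq, PowerSeries.coeff_map, (PowerSeries.X_pow_dvd_iff.1 hT) m hmn]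
    simp
  have h1 : qExpansion 1 F = 0 := by
    rw [← hF', h0]
    exact qExpansion_zero 1
  rw [hq] at h1
  ext m
  have := congrArg (PowerSeries.coeff m) h1
  rw [PowerSeries.coeff_map] at this
  simpa using this






theorem smul_eq_C_mul' (c : ℂ) (P : PowerSeries ℂ) : c • P = PowerSeries.C c * P := by
  ext n
  simp

theorem two_ne_zero' : (2 : ℕ) ≠ 0 := by norm_num

theorem E4_mem : (⇑E₄ : ℍ → ℂ) ∈ MF (Gamma0 2) 4 := coe_levelOne_mem_MF_Gamma0 2 E₄

theorem qExp_E4 : qExpansion 1 (⇑E₄ : ℍ → ℂ) = e4Series.map (Int.castRingHom ℂ) :=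
  Fermat.Agent.S23.H96.qExpansion_E₄_eq

theorem LRE4_mem : (⇑(Fermat.Agent.S23.H22.levelRaise 2 E₄) : ℍ → ℂ) ∈ MF (Gamma0 2) 4 :=
  coe_mem_MF_Gamma0 2 (Fermat.Agent.S23.H22.levelRaise 2 E₄)

theorem qExp_LRE4 : qExpansion 1 (⇑(Fermat.Agent.S23.H22.levelRaise 2 E₄) : ℍ → ℂ)
    = ((PowerSeries.C 8 : PowerSeries ℤ) * PowerSeries.expand 2 two_ne_zero' e4Series).map
        (Int.castRingHom ℂ) := by
  rw [Fermat.Agent.S16.H26.qExpansion_levelRaise_eq, qExp_E4, smul_eq_C_mul', map_mul,
    PowerSeries.map_expand, PowerSeries.map_C]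
  norm_num



/-! ### Low coefficients -/

theorem g2_dvd_four : (PowerSeries.X : PowerSeries ℤ) ^ 4 ∣ g2Series -
    (PowerSeries.C 1 + PowerSeries.C 24 * PowerSeries.X + PowerSeries.C 24 * PowerSeries.X ^ 2
      + PowerSeries.C 96 * PowerSeries.X ^ 3) := by
  have h1 : Fermat.Agent.S16.sigmaP 2 1 = 1 := by decide
  have h2 : Fermat.Agent.S16.sigmaP 2 2 = 1 := by decide
  have h3 : Fermat.Agent.S16.sigmaP 2 3 = 4 := by decide
  refine dvd_four _ _ _ _ _ ?_ ?_ ?_ ?_ <;>
    simp [g2Series, PowerSeries.coeff_mk, h1, h2, h3]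

theorem g2_dvd_two : (PowerSeries.X : PowerSeries ℤ) ^ 2 ∣ g2Series -
    (PowerSeries.C 1 + PowerSeries.C 24 * PowerSeries.X) := by
  have h1 : Fermat.Agent.S16.sigmaP 2 1 = 1 := by decide
  refine dvd_two _ _ _ ?_ ?_ <;> simp [g2Series, PowerSeries.coeff_mk, h1]

theorem e4_dvd_four : (PowerSeries.X : PowerSeries ℤ) ^ 4 ∣ e4Series -
    (PowerSeries.C 1 + PowerSeries.C 240 * PowerSeries.X + PowerSeries.C 2160 * PowerSeries.X ^ 2
      + PowerSeries.C 6720 * PowerSeries.X ^ 3) := by
  have h1 : ArithmeticFunction.sigma 3 1 = 1 := by decide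
  have h2 : ArithmeticFunction.sigma 3 2 = 9 := by decide
  have h3 : ArithmeticFunction.sigma 3 3 = 28 := by decide
  refine dvd_four _ _ _ _ _ ?_ ?_ ?_ ?_ <;>
    simp [Fermat.Agent.S23.H96.coeff_e4Series, h1, h2, h3]

theorem e4_dvd_two : (PowerSeries.X : PowerSeries ℤ) ^ 2 ∣ e4Series -
    (PowerSeries.C 1 + PowerSeries.C 240 * PowerSeries.X) := by
  have h1 : ArithmeticFunction.sigma 3 1 = 1 := by decide
  refine dvd_two _ _ _ ?_ ?_ <;> simp [Fermat.Agent.S23.H96.coeff_e4Series, h1]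

theorem e6_dvd_four : (PowerSeries.X : PowerSeries ℤ) ^ 4 ∣ e6Series -
    (PowerSeries.C 1 + PowerSeries.C (-504) * PowerSeries.X
      + PowerSeries.C (-16632) * PowerSeries.X ^ 2
      + PowerSeries.C (-122976) * PowerSeries.X ^ 3) := by
  have h1 : ArithmeticFunction.sigma 5 1 = 1 := by decide
  have h2 : ArithmeticFunction.sigma 5 2 = 33 := by decide
  have h3 : ArithmeticFunction.sigma 5 3 = 244 := by decide
  refine dvd_four _ _ _ _ _ ?_ ?_ ?_ ?_ <;>
    simp [Fermat.Agent.S23.H96.coeff_e6Series, h1, h2, h3]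

theorem Ee4_dvd_four : (PowerSeries.X : PowerSeries ℤ) ^ 4 ∣
    PowerSeries.expand 2 two_ne_zero' e4Series -
    (PowerSeries.C 1 + PowerSeries.C 0 * PowerSeries.X + PowerSeries.C 240 * PowerSeries.X ^ 2
      + PowerSeries.C 0 * PowerSeries.X ^ 3) := by
  have h1 : ArithmeticFunction.sigma 3 1 = 1 := by decide
  refine dvd_four _ _ _ _ _ ?_ ?_ ?_ ?_ <;>
    simp [PowerSeries.coeff_expand, Fermat.Agent.S23.H96.coeff_e4Series, h1]

theorem Ee4_dvd_two : (PowerSeries.X : PowerSeries ℤ) ^ 2 ∣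
    PowerSeries.expand 2 two_ne_zero' e4Series -
    (PowerSeries.C 1 + PowerSeries.C 0 * PowerSeries.X) := by
  refine dvd_two _ _ _ ?_ ?_ <;>
    simp [PowerSeries.coeff_expand, Fermat.Agent.S23.H96.coeff_e4Series]

theorem Ee6_dvd_four : (PowerSeries.X : PowerSeries ℤ) ^ 4 ∣
    PowerSeries.expand 2 two_ne_zero' e6Series -
    (PowerSeries.C 1 + PowerSeries.C 0 * PowerSeries.X + PowerSeries.C (-504) * PowerSeries.X ^ 2
      + PowerSeries.C 0 * PowerSeries.X ^ 3) := by
  have h1 : ArithmeticFunction.sigma 5 1 = 1 := by decide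
  refine dvd_four _ _ _ _ _ ?_ ?_ ?_ ?_ <;>
    simp [PowerSeries.coeff_expand, Fermat.Agent.S23.H96.coeff_e6Series, h1]

/-! ### The three identities -/

/-- `(W4)`: `4 E₄(2z) = 5 G² - E₄`. -/
theorem w4 : (5 : PowerSeries ℤ) * g2Series ^ 2 - e4Series
    - 4 * PowerSeries.expand 2 two_ne_zero' e4Series = 0 := by
  obtain ⟨G, hG, hqG⟩ := exists_G
  have hG2 : G ^ 2 ∈ MF (Gamma0 2) 4 := MF_congr (by norm_num) (MF_pow hG 2)
  have h5G2 : (5 : ℂ) • G ^ 2 ∈ MF (Gamma0 2) 4 := Submodule.smul_mem _ _ hG2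
  have hL : (1 / 2 : ℂ) • (⇑(Fermat.Agent.S23.H22.levelRaise 2 E₄) : ℍ → ℂ) ∈ MF (Gamma0 2) 4 :=
    Submodule.smul_mem _ _ LRE4_mem
  have h1 := Submodule.sub_mem _ h5G2 E4_mem
  have hF := Submodule.sub_mem _ h1 hL
  refine sturm_two hF _ ?_ 2 (by decide) (t4_dvd _ _ _ g2_dvd_two e4_dvd_two Ee4_dvd_two)
  rw [qExp_sub 2 h1 hL, qExp_sub 2 h5G2 E4_mem, qExp_smul 2 hG2, qExp_smul 2 LRE4_mem,
    qExp_pow 2 hG, hqG, qExp_E4, qExp_LRE4]
  simp only [map_sub, map_mul, map_pow, smul_eq_C_mul', map_ofNat, PowerSeries.map_expand]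
  have h2 : (PowerSeries.C (1 / 2 : ℂ) : PowerSeries ℂ) * 8 = 4 := by
    rw [show (8 : PowerSeries ℂ) = PowerSeries.C (8 : ℂ) from (map_ofNat _ 8).symm, ← map_mul,
      show ((1 / 2 : ℂ) * 8) = 4 by norm_num, map_ofNat]
  rw [← mul_assoc, h2]

/-- `Δ` as a form on `Γ₀(2)`. -/
theorem disc_mem_top : (ModularForm.discriminant : ℍ → ℂ) ∈ MF ⊤ 12 :=
  Fermat.Agent.S20.H74.CF_le_MF (Fermat.Agent.S20.H74.coe_mem_CF_top CuspForm.discriminant)

theorem disc_mem : (ModularForm.discriminant : ℍ → ℂ) ∈ MF (Gamma0 2) 12 :=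
  MF_levelOne disc_mem_top

theorem qExp_disc : qExpansion 1 (ModularForm.discriminant : ℍ → ℂ)
    = deltaSeries.map (Int.castRingHom ℂ) :=
  Fermat.Agent.S23.H96.qExpansion_discriminant_eq

theorem delta_eq : (1728 : PowerSeries ℤ) * deltaSeries = e4Series ^ 3 - e6Series ^ 2 := by
  rw [Fermat.Agent.S23.H96.e4Series_cube_sub_e6Series_sq, map_ofNat]

/-- `(W12a)`: `α² β = 1728 Δ`. -/
theorem w12a : (4 * g2Series ^ 2 - e4Series) ^ 2 * (e4Series - g2Series ^ 2)
    - 1728 * deltaSeries = 0 := by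
  obtain ⟨G, hG, hqG⟩ := exists_G
  have hG2 : G ^ 2 ∈ MF (Gamma0 2) 4 := MF_congr (by norm_num) (MF_pow hG 2)
  have h4G2 : (4 : ℂ) • G ^ 2 ∈ MF (Gamma0 2) 4 := Submodule.smul_mem _ _ hG2
  have hα := Submodule.sub_mem _ h4G2 E4_mem
  have hβ := Submodule.sub_mem _ E4_mem hG2
  have hα2 : ((4 : ℂ) • G ^ 2 - ⇑E₄) ^ 2 ∈ MF (Gamma0 2) 8 :=
    MF_congr (by norm_num) (MF_pow hα 2)
  have hαβ : ((4 : ℂ) • G ^ 2 - ⇑E₄) ^ 2 * (⇑E₄ - G ^ 2) ∈ MF (Gamma0 2) 12 :=
    MF_mul' hα2 hβ (by norm_num)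
  have hD : (1728 : ℂ) • (ModularForm.discriminant : ℍ → ℂ) ∈ MF (Gamma0 2) 12 :=
    Submodule.smul_mem _ _ disc_mem
  have hF := Submodule.sub_mem _ hαβ hD
  refine sturm_two hF _ ?_ 4 (by decide) ?_
  · rw [qExp_sub 2 hαβ hD, qExp_mul 2 hα2 hβ, qExp_pow 2 hα, qExp_sub 2 h4G2 E4_mem,
      qExp_sub 2 E4_mem hG2, qExp_smul 2 hG2, qExp_smul 2 disc_mem,
      qExp_pow 2 hG, hqG, qExp_E4, qExp_disc]
    simp only [map_sub, map_mul, map_pow, smul_eq_C_mul', map_ofNat]
  · rw [delta_eq]
    exact t12a_dvd _ _ _ g2_dvd_four e4_dvd_four e6_dvd_four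

/-- `(W12b)`: `α β² = 110592 Δ(2z)`. -/
theorem w12b : (4 * g2Series ^ 2 - e4Series) * (e4Series - g2Series ^ 2) ^ 2
    - 110592 * PowerSeries.expand 2 two_ne_zero' deltaSeries = 0 := by
  obtain ⟨G, hG, hqG⟩ := exists_G
  obtain ⟨D, hD⟩ := Fermat.Agent.S20.H74.exists_modularForm_top disc_mem_top
  have hG2 : G ^ 2 ∈ MF (Gamma0 2) 4 := MF_congr (by norm_num) (MF_pow hG 2)
  have h4G2 : (4 : ℂ) • G ^ 2 ∈ MF (Gamma0 2) 4 := Submodule.smul_mem _ _ hG2
  have hα := Submodule.sub_mem _ h4G2 E4_mem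
  have hβ := Submodule.sub_mem _ E4_mem hG2
  have hβ2 : ((⇑E₄ : ℍ → ℂ) - G ^ 2) ^ 2 ∈ MF (Gamma0 2) 8 :=
    MF_congr (by norm_num) (MF_pow hβ 2)
  have hαβ : ((4 : ℂ) • G ^ 2 - ⇑E₄) * (⇑E₄ - G ^ 2) ^ 2 ∈ MF (Gamma0 2) 12 :=
    MF_mul' hα hβ2 (by norm_num)
  have hLD : (⇑(Fermat.Agent.S23.H22.levelRaise 2 D) : ℍ → ℂ) ∈ MF (Gamma0 2) 12 :=
    coe_mem_MF_Gamma0 2 (Fermat.Agent.S23.H22.levelRaise 2 D)
  have hL : (54 : ℂ) • (⇑(Fermat.Agent.S23.H22.levelRaise 2 D) : ℍ → ℂ) ∈ MF (Gamma0 2) 12 :=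
    Submodule.smul_mem _ _ hLD
  have hF := Submodule.sub_mem _ hαβ hL
  have hqL : qExpansion 1 (⇑(Fermat.Agent.S23.H22.levelRaise 2 D) : ℍ → ℂ)
      = ((2048 : PowerSeries ℤ) * PowerSeries.expand 2 two_ne_zero' deltaSeries).map
          (Int.castRingHom ℂ) := by
    rw [Fermat.Agent.S16.H26.qExpansion_levelRaise_eq, hD, qExp_disc, smul_eq_C_mul', map_mul,
      PowerSeries.map_expand, map_ofNat]
    congr 1
    rw [show ((2 : ℕ) : ℂ) ^ ((12 : ℤ) - 1) = 2048 by norm_num, map_ofNat]
  refine sturm_two hF _ ?_ 4 (by decide) ?_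
  · rw [qExp_sub 2 hαβ hL, qExp_mul 2 hα hβ2, qExp_pow 2 hβ, qExp_sub 2 h4G2 E4_mem,
      qExp_sub 2 E4_mem hG2, qExp_smul 2 hG2, qExp_smul 2 hLD,
      qExp_pow 2 hG, hqG, qExp_E4, hqL]
    simp only [map_sub, map_mul, map_pow, smul_eq_C_mul', map_ofNat, PowerSeries.map_expand]
    rw [← mul_assoc]
    norm_num
  · have h : (110592 : PowerSeries ℤ) * PowerSeries.expand 2 two_ne_zero' deltaSeries
        = 64 * ((PowerSeries.expand 2 two_ne_zero' e4Series) ^ 3
          - (PowerSeries.expand 2 two_ne_zero' e6Series) ^ 2) := by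
      rw [← map_pow, ← map_pow, ← map_sub, ← delta_eq, map_mul, map_ofNat, ← mul_assoc]
      norm_num
    rw [h]
    exact t12b_dvd _ _ _ _ g2_dvd_four e4_dvd_four Ee4_dvd_four Ee6_dvd_four

/-! ### Bridges to the prelude series -/

theorem map_intCast_injective :
    Function.Injective (PowerSeries.map (Int.castRingHom ℂ)) := by
  intro P Q h
  ext n
  have := congrArg (PowerSeries.coeff n) h
  rw [PowerSeries.coeff_map, PowerSeries.coeff_map] at this
  simpa using this

theorem e4Series_eq : e4Series = ModularCurve.eisenstein4 :=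
  map_intCast_injective
    (Fermat.Agent.S23.H96.qExpansion_E₄_eq.symm.trans
      Fermat.Agent.S28.H76.qExpansion_E4_eq_eisenstein4)

theorem deltaSeries_eq : deltaSeries = PowerSeries.X * ModularCurve.etaProd ^ 24 := by
  apply map_intCast_injective
  rw [← qExp_disc, Fermat.Agent.S28.H76.qExpansion_disc_eq_etaProd, map_mul, map_pow,
    PowerSeries.map_X]

end Fermat.Agent.RED.H70

end
end
-- ==== END Fermat.Agent.RED.H70_Mod2Forms

-- ==== BEGIN Fermat.Agent.RED.H73_GARedConj
section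

/-!
# G-RED package GA (helper73): reduction of the conjugates modulo the maximal ideal

From the S28 core hypotheses `CoreHyp O q₀ J U nJ D` over `(C, O)` we construct the reduced series
`Jred, Ured q ∈ k((t))` (`k` the residue field of `O`) and show that they satisfy `ConjHyp` over
`k`.  Hence (by `H73_GAConj`) `χ_{u~}` is the minimal polynomial of `u~` over `k[J~]`:
`[k(J~, u~) : k(J~)] = card Q`.
-/

set_option autoImplicit false

open Polynomial ModularCurve Fermat.Agent.S28 Fermat.Agent.S28.H73 Fermat.Agent.S28.H90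

noncomputable section

namespace Fermat.Agent.RED.H73

variable {C : Type} [Field C] (O : ValuationSubring C)

/-- A lift to `O((t))` of a unit-lead series. -/
def liftUL {f : LaurentSeries C} (hf : UnitLead O.toSubring f) : LaurentSeries ↥O :=
  (exists_lift_of_unitLead O hf).choose

theorem iotaV_liftUL {f : LaurentSeries C} (hf : UnitLead O.toSubring f) :
    iotaV O (liftUL O hf) = f := (exists_lift_of_unitLead O hf).choose_spec.1

theorem redV_liftUL_ne_zero {f : LaurentSeries C} (hf : UnitLead O.toSubring f) :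
    redV O (liftUL O hf) ≠ 0 := (exists_lift_of_unitLead O hf).choose_spec.2.1

theorem order_redV_liftUL {f : LaurentSeries C} (hf : UnitLead O.toSubring f) :
    (redV O (liftUL O hf)).order = f.order := (exists_lift_of_unitLead O hf).choose_spec.2.2

variable {O} {Q : Type} [Fintype Q] {q₀ : Q} {J : LaurentSeries C} {U : Q → LaurentSeries C}
  {nJ D : ℕ}

/-- The reduction of `J`. -/
def Jred (h : CoreHyp O q₀ J U nJ D) : LaurentSeries (kV O) :=
  redV O (liftUL O h.J_unitLead)

/-- The reductions of the conjugates. -/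
def Ured (h : CoreHyp O q₀ J U nJ D) (q : Q) : LaurentSeries (kV O) :=
  redV O (liftUL O (h.U_unitLead q))

theorem coreHyp_J_order_neg (h : CoreHyp O q₀ J U nJ D) : J.order < 0 := by
  rw [h.J_order]
  have := h.nJ_pos
  omega

/-- Polynomials in `J` with coefficients in `O((t))` reduce to polynomials in `J~`. -/
theorem redV_mem_adjoin_Jred (h : CoreHyp O q₀ J U nJ D) (x₀ : LaurentSeries ↥O)
    (hx : iotaV O x₀ ∈ Algebra.adjoin C ({J} : Set (LaurentSeries C))) :
    redV O x₀ ∈ Algebra.adjoin (kV O) ({Jred h} : Set (LaurentSeries (kV O))) := by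
  rw [Algebra.adjoin_singleton_eq_range_aeval] at hx
  obtain ⟨p, hp⟩ := hx
  have hp' : aeval J p = iotaV O x₀ := hp
  have hco : ∀ n, p.coeff n ∈ O :=
    coeff_mem_of_coeffsIn_aeval O h.J_unitLead (coreHyp_J_order_neg h)
      (by rw [hp']; exact coeffsIn_iotaV O x₀)
  have hl : p ∈ Polynomial.lifts O.subtype := by
    rw [Polynomial.lifts_iff_coeff_lifts]
    intro n
    exact ⟨⟨_, hco n⟩, rfl⟩
  obtain ⟨p₀, rfl⟩ := hl
  have e : x₀ = p₀.eval₂ HahnSeries.C (liftUL O h.J_unitLead) := by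
    apply iotaV_injective O
    rw [iotaV_eval₂, iotaV_liftUL, ← hp']
    rfl
  rw [e, redV_eval₂, Algebra.adjoin_singleton_eq_range_aeval]
  exact ⟨p₀.map (resV O), rfl⟩

theorem redV_C (a : ↥O) : redV O (HahnSeries.C a) = HahnSeries.C (resV O a) :=
  coeffMap_single (resV O) 0 a

theorem iotaV_C (a : ↥O) : iotaV O (HahnSeries.C a) = HahnSeries.C (a : C) :=
  coeffMap_single O.subtype 0 a

/-- **The reduced conjugates satisfy `ConjHyp` over the residue field.** -/
theorem conjHyp_red (h : CoreHyp O q₀ J U nJ D) : ConjHyp q₀ (Jred h) (Ured h) where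
  J_order := by
    rw [Jred, order_redV_liftUL]
    exact coreHyp_J_order_neg h
  U_order₀ := by
    rw [Ured, order_redV_liftUL]
    exact (ConjHyp.of_coreHyp h).U_order₀
  U_ne := fun q => redV_liftUL_ne_zero O (h.U_unitLead q)
  U_order_pos := fun q hq => by
    rw [Ured, order_redV_liftUL]
    exact h.U_order_pos q hq
  sym := by
    intro c
    obtain ⟨a, rfl⟩ := IsLocalRing.residue_surjective c
    have e : (∏ q, (HahnSeries.C (IsLocalRing.residue ↥O a) - Ured h q))
        = redV O (∏ q, (HahnSeries.C a - liftUL O (h.U_unitLead q))) := by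
      rw [map_prod]
      refine Finset.prod_congr rfl fun q _ => ?_
      rw [map_sub, redV_C]
      rfl
    rw [e]
    apply redV_mem_adjoin_Jred h
    rw [map_prod]
    have e2 : (∏ q, iotaV O (HahnSeries.C a - liftUL O (h.U_unitLead q)))
        = ∏ q, (HahnSeries.C (a : C) - U q) := by
      refine Finset.prod_congr rfl fun q _ => ?_
      rw [map_sub, iotaV_C, iotaV_liftUL]
    rw [e2]
    exact h.sym (a : C)

/-- **Degree of the residue extension**: no nonzero polynomial of degree `< card Q` over `k[J~]`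
kills `u~`. -/
theorem aeval_Ured_ne_zero [Infinite (kV O)] (h : CoreHyp O q₀ J U nJ D)
    (a : (↥(Algebra.adjoin (kV O) ({Jred h} : Set (LaurentSeries (kV O)))))[X]) (ha : a ≠ 0)
    (hdeg : a.natDegree < Fintype.card Q) : aeval (Ured h q₀) a ≠ 0 :=
  (conjHyp_red h).aeval_ne_zero_of_natDegree_lt a ha hdeg

theorem natDegree_minpoly_Ured [Infinite (kV O)] (h : CoreHyp O q₀ J U nJ D) :
    (minpoly ↥(Algebra.adjoin (kV O) ({Jred h} : Set (LaurentSeries (kV O)))) (Ured h q₀)).natDegree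
      = Fintype.card Q :=
  (conjHyp_red h).natDegree_minpoly

end Fermat.Agent.RED.H73

end
end
-- ==== END Fermat.Agent.RED.H73_GARedConj

-- ==== BEGIN Fermat.Agent.RED.H73_GAScale
section

/-!
# G-RED package GA, part 1 (helper73): scaling to Gauss units

`C` a field, `O : ValuationSubring C` ARBITRARY (not discrete), series ring `LaurentSeries C`.

* `GaussUnit O x` : `x = h / g` with `g, h` primitive (coefficients in `O`, nonzero reduction).
* `IntSpan C` : the `C`-span of the Laurent series with integer coefficients.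
* `exists_primSeries_scale` : every nonzero `x ∈ IntSpan C` has a scalar multiple `c * x` which is
  primitive (the maximum of the valuations of the coefficients is attained: the coefficient vectors
  span a finitely generated `ℤ`-module).
* `HasScale O F` : every nonzero element of the intermediate field `F` has a scalar multiple which
  is a Gauss unit ("the value group of the Gauss valuation on `F` is the value group of `O`").
* `hasScale_adjoin` : `HasScale O (IntermediateField.adjoin C S)` for `S ⊆ IntSpan C`.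
-/

set_option autoImplicit false

open ModularCurve Fermat.Agent.S28 Fermat.Agent.S28.H73

noncomputable section

namespace Fermat.Agent.RED.H73

variable {C : Type} [Field C]

section Units

variable (O : ValuationSubring C)

/-- `x` is a unit of the Gauss ring: a quotient of two primitive series. -/
def GaussUnit (x : LaurentSeries C) : Prop :=
  ∃ g h : LaurentSeries ↥O, redV O g ≠ 0 ∧ redV O h ≠ 0 ∧ iotaV O g * x = iotaV O h

variable {O}

theorem GaussUnit.mem {x : LaurentSeries C} (hx : GaussUnit O x) : x ∈ gaussRingV O := by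
  obtain ⟨g, h, hg, -, e⟩ := hx
  exact ⟨g, h, hg, e⟩

theorem GaussUnit.ne_zero {x : LaurentSeries C} (hx : GaussUnit O x) : x ≠ 0 := by
  obtain ⟨g, h, hg, hh, e⟩ := hx
  rintro rfl
  rw [mul_zero] at e
  exact iotaV_ne_zero_of_redV_ne_zero O hh e.symm

theorem GaussUnit.inv {x : LaurentSeries C} (hx : GaussUnit O x) : GaussUnit O x⁻¹ := by
  have hx0 := hx.ne_zero
  obtain ⟨g, h, hg, hh, e⟩ := hx
  exact ⟨h, g, hh, hg, by rw [← e, mul_assoc, mul_inv_cancel₀ hx0, mul_one]⟩

theorem GaussUnit.mul {x y : LaurentSeries C} (hx : GaussUnit O x) (hy : GaussUnit O y) :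
    GaussUnit O (x * y) := by
  obtain ⟨g, h, hg, hh, e⟩ := hx
  obtain ⟨g', h', hg', hh', e'⟩ := hy
  refine ⟨g * g', h * h', ?_, ?_, ?_⟩
  · rw [map_mul]; exact mul_ne_zero hg hg'
  · rw [map_mul]; exact mul_ne_zero hh hh'
  · rw [map_mul, map_mul, ← e, ← e']; ring

variable (O)

theorem gaussUnit_one : GaussUnit O (1 : LaurentSeries C) :=
  ⟨1, 1, by rw [map_one]; exact one_ne_zero, by rw [map_one]; exact one_ne_zero, by simp⟩

theorem gaussUnit_of_primSeries {x : LaurentSeries C} (hx : PrimSeries O.toSubring x) :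
    GaussUnit O x := by
  obtain ⟨h, hh, rfl⟩ := (primSeries_iff O x).1 hx
  exact ⟨1, h, by rw [map_one]; exact one_ne_zero, hh, by simp⟩

theorem gaussRedV_ne_zero_of_gaussUnit {x : LaurentSeries C} (hx : GaussUnit O x)
    (hm : x ∈ gaussRingV O) : gaussRedV O ⟨x, hm⟩ ≠ 0 := by
  obtain ⟨g, h, hg, hh, e⟩ := hx
  have := gaussRedV_eq O ⟨x, hm⟩ hg e
  rw [this]
  exact div_ne_zero hh hg

theorem gaussUnit_of_gaussRedV_ne_zero {x : LaurentSeries C} (hx : x ∈ gaussRingV O)
    (hr : gaussRedV O ⟨x, hx⟩ ≠ 0) : GaussUnit O x := by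
  have hx' := hx
  obtain ⟨g, h, hg, e⟩ := hx'
  refine ⟨g, h, hg, ?_, e⟩
  intro h0
  apply hr
  have := gaussRedV_eq O ⟨x, hx⟩ hg e
  rw [this, h0, zero_div]

end Units

/-! ### Series with integer coefficients and their `C`-span -/

section IntSpan

/-- The Laurent series over `C` with integer coefficients. -/
def intSeries (C : Type) [Field C] : Subring (LaurentSeries C) :=
  (coeffMap (Int.castRingHom C)).range

/-- The `C`-span of the integer series (a subalgebra). -/
def IntSpan (C : Type) [Field C] : Subalgebra C (LaurentSeries C) :=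
  Algebra.adjoin C (intSeries C : Set (LaurentSeries C))

theorem intSeries_le_intSpan {x : LaurentSeries C} (hx : x ∈ intSeries C) : x ∈ IntSpan C :=
  Algebra.subset_adjoin hx

theorem coeffMap_int_mem_intSpan (m : LaurentSeries ℤ) :
    coeffMap (Int.castRingHom C) m ∈ IntSpan C :=
  intSeries_le_intSpan ⟨m, rfl⟩

/-- Explicit form of the elements of `IntSpan C`. -/
theorem exists_repr_of_mem_intSpan {x : LaurentSeries C} (hx : x ∈ IntSpan C) :
    ∃ (ι : Type) (_ : Fintype ι) (c : ι → C) (m : ι → LaurentSeries ℤ),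
      x = ∑ i, HahnSeries.C (c i) * coeffMap (Int.castRingHom C) (m i) := by
  induction hx using Algebra.adjoin_induction with
  | mem x hx =>
    obtain ⟨m, rfl⟩ := hx
    exact ⟨Unit, inferInstance, fun _ => 1, fun _ => m, by simp⟩
  | algebraMap r =>
    refine ⟨Unit, inferInstance, fun _ => r, fun _ => 1, ?_⟩
    rw [algebraMap_laurentSeries_eq_single]
    simp
  | add x y _ _ hx hy =>
    obtain ⟨ι, _, c, m, rfl⟩ := hx
    obtain ⟨ι', _, c', m', rfl⟩ := hy
    refine ⟨ι ⊕ ι', inferInstance, Sum.elim c c', Sum.elim m m', ?_⟩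
    rw [Fintype.sum_sum_type]
    rfl
  | mul x y _ _ hx hy =>
    obtain ⟨ι, _, c, m, rfl⟩ := hx
    obtain ⟨ι', _, c', m', rfl⟩ := hy
    refine ⟨ι × ι', inferInstance, fun p => c p.1 * c' p.2, fun p => m p.1 * m' p.2, ?_⟩
    rw [Fintype.sum_prod_type, Finset.sum_mul_sum]
    refine Finset.sum_congr rfl fun i _ => Finset.sum_congr rfl fun j _ => ?_
    rw [map_mul, map_mul]
    ring

theorem coeff_repr {ι : Type} [Fintype ι] (c : ι → C) (m : ι → LaurentSeries ℤ) (k : ℤ) :
    (∑ i, HahnSeries.C (c i) * coeffMap (Int.castRingHom C) (m i)).coeff k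
      = ∑ i, c i * (((m i).coeff k : ℤ) : C) := by
  rw [HahnSeries.coeff_sum]
  refine Finset.sum_congr rfl fun i _ => ?_
  rw [HahnSeries.C_mul_eq_smul, HahnSeries.coeff_smul, smul_eq_mul, coeffMap_coeff]
  rfl

variable (O : ValuationSubring C)

/-- **Scaling.** Every nonzero element of `IntSpan C` has a coefficient of maximal valuation:
after division by it the series is primitive. -/
theorem exists_primSeries_scale {x : LaurentSeries C} (hx : x ∈ IntSpan C) (hx0 : x ≠ 0) :
    ∃ c : C, c ≠ 0 ∧ PrimSeries O.toSubring (HahnSeries.C c * x) := by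
  classical
  obtain ⟨ι, _, c, m, rfl⟩ := exists_repr_of_mem_intSpan hx
  -- the coefficient vectors
  let w : ℤ → (ι → ℤ) := fun k i => (m i).coeff k
  let φ : (ι → ℤ) →ₗ[ℤ] C :=
    { toFun := fun v => ∑ i, c i * ((v i : ℤ) : C)
      map_add' := fun u v => by
        simp only [Pi.add_apply, Int.cast_add, mul_add, Finset.sum_add_distrib]
      map_smul' := fun a v => by
        simp only [Pi.smul_apply, smul_eq_mul, Int.cast_mul, RingHom.id_apply, zsmul_eq_mul,
          Finset.mul_sum]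
        refine Finset.sum_congr rfl fun i _ => ?_
        ring }
  have hφ : ∀ k, (∑ i, HahnSeries.C (c i) * coeffMap (Int.castRingHom C) (m i)).coeff k
      = φ (w k) := fun k => coeff_repr c m k
  have hfg : (Submodule.span ℤ (Set.range w)).FG := IsNoetherian.noetherian _
  obtain ⟨s, hs, hspan⟩ := (Submodule.fg_span_iff_fg_span_finset_subset (Set.range w)).1 hfg
  have hsne : s.Nonempty := by
    rw [Finset.nonempty_iff_ne_empty]
    rintro rfl
    apply hx0
    ext k
    rw [hφ k]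
    have hk : w k ∈ Submodule.span ℤ (Set.range w) := Submodule.subset_span ⟨k, rfl⟩
    rw [hspan, Finset.coe_empty, Submodule.span_empty, Submodule.mem_bot] at hk
    rw [hk, map_zero]
    rfl
  obtain ⟨v₀, hv₀, hmax⟩ := s.exists_max_image (fun v => O.valuation (φ v)) hsne
  obtain ⟨k₀, hk₀⟩ := hs hv₀
  -- the subgroup of elements of valuation at most that of `φ v₀`
  let B : AddSubgroup C :=
    { carrier := {y | O.valuation y ≤ O.valuation (φ v₀)}
      zero_mem' := by simp
      add_mem' := fun {a b} ha hb => by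
        rw [Set.mem_ofPred_eq] at ha hb ⊢
        exact (Valuation.map_add _ a b).trans (max_le ha hb)
      neg_mem' := fun {a} ha => by
        rw [Set.mem_ofPred_eq] at ha ⊢
        rw [Valuation.map_neg]; exact ha }
  have hall : ∀ k, O.valuation (φ (w k)) ≤ O.valuation (φ v₀) := by
    intro k
    have hk : w k ∈ Submodule.span ℤ (s : Set (ι → ℤ)) := by
      rw [← hspan]; exact Submodule.subset_span ⟨k, rfl⟩
    have hle : Submodule.span ℤ (s : Set (ι → ℤ)) ≤
        (AddSubgroup.toIntSubmodule B).comap φ := by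
      rw [Submodule.span_le]
      intro v hv
      exact hmax v hv
    exact hle hk
  have hy0 : φ v₀ ≠ 0 := by
    intro h0
    apply hx0
    ext k
    rw [hφ k]
    have := hall k
    rw [h0, map_zero, le_zero_iff, Valuation.zero_iff] at this
    rw [this]; rfl
  refine ⟨(φ v₀)⁻¹, inv_ne_zero hy0, ?_, k₀, ?_, ?_⟩
  · intro k
    rw [HahnSeries.C_mul_eq_smul, HahnSeries.coeff_smul, smul_eq_mul, hφ k]
    show (φ v₀)⁻¹ * φ (w k) ∈ O
    rw [← ValuationSubring.valuation_le_one_iff, map_mul, map_inv₀]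
    have hpos : 0 < O.valuation (φ v₀) := by
      rw [pos_iff_ne_zero]; exact (Valuation.ne_zero_iff _).2 hy0
    rw [inv_mul_le_iff₀ hpos, mul_one]
    exact hall k
  · rw [HahnSeries.C_mul_eq_smul, HahnSeries.coeff_smul, smul_eq_mul, hφ k₀, hk₀,
      inv_mul_cancel₀ hy0]
    exact one_ne_zero
  · rw [HahnSeries.C_mul_eq_smul, HahnSeries.coeff_smul, smul_eq_mul, hφ k₀, hk₀,
      inv_mul_cancel₀ hy0, inv_one]
    exact O.one_mem

end IntSpan

/-! ### The scaling property of a field of series -/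

section Scale

variable (O : ValuationSubring C)

/-- Every nonzero element of `F` has a scalar multiple which is a Gauss unit. -/
def HasScale (F : IntermediateField C (LaurentSeries C)) : Prop :=
  ∀ x ∈ F, x ≠ 0 → ∃ c : C, c ≠ 0 ∧ GaussUnit O (HahnSeries.C c * x)

theorem C_ne_zero' {c : C} (hc : c ≠ 0) : (HahnSeries.C c : LaurentSeries C) ≠ 0 := by
  intro h
  apply hc
  have := congrArg (fun f : LaurentSeries C => f.coeff 0) h
  simpa using this

theorem C_inv' (c : C) : (HahnSeries.C c⁻¹ : LaurentSeries C) = (HahnSeries.C c)⁻¹ :=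
  map_inv₀ (HahnSeries.C : C →+* LaurentSeries C) c

/-- Quotients of elements of `IntSpan C` have the scaling property. -/
theorem exists_gaussUnit_scale_div {a b : LaurentSeries C} (ha : a ∈ IntSpan C)
    (hb : b ∈ IntSpan C) (ha0 : a ≠ 0) (hb0 : b ≠ 0) :
    ∃ c : C, c ≠ 0 ∧ GaussUnit O (HahnSeries.C c * (a / b)) := by
  obtain ⟨ca, hca, hpa⟩ := exists_primSeries_scale O ha ha0
  obtain ⟨cb, hcb, hpb⟩ := exists_primSeries_scale O hb hb0
  refine ⟨ca * cb⁻¹, mul_ne_zero hca (inv_ne_zero hcb), ?_⟩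
  have h := (gaussUnit_of_primSeries O hpa).mul ((gaussUnit_of_primSeries O hpb).inv)
  have e : HahnSeries.C (ca * cb⁻¹) * (a / b)
      = HahnSeries.C ca * a * (HahnSeries.C cb * b)⁻¹ := by
    rw [map_mul, C_inv', mul_inv, div_eq_mul_inv]
    ring
  rw [e]
  exact h

/-- **GA, scaling**: a field generated over `C` by elements of `IntSpan C` has the scaling
property with respect to every valuation subring of `C`. -/
theorem hasScale_adjoin {S : Set (LaurentSeries C)} (hS : S ⊆ (IntSpan C : Set (LaurentSeries C))) :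
    HasScale O (IntermediateField.adjoin C S) := by
  intro x hx hx0
  obtain ⟨a, ha, b, hb, rfl⟩ := IntermediateField.mem_adjoin_iff_div.1 hx
  have hle : Algebra.adjoin C S ≤ IntSpan C := Algebra.adjoin_le hS
  have ha0 : a ≠ 0 := by rintro rfl; exact hx0 (by simp)
  have hb0 : b ≠ 0 := by rintro rfl; exact hx0 (by simp)
  exact exists_gaussUnit_scale_div O (hle ha) (hle hb) ha0 hb0

theorem HasScale.mono {F F' : IntermediateField C (LaurentSeries C)} (h : HasScale O F')
    (hle : F ≤ F') : HasScale O F :=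
  fun x hx hx0 => h x (hle hx) hx0

end Scale

end Fermat.Agent.RED.H73

end
end
-- ==== END Fermat.Agent.RED.H73_GAScale
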