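-- GENERATED (merged mirror, NOTES/tools/trim/merge3_helper67.py): 10 modules of the originals, bodies verbatim.
import Fermat.Agent.Zm.S35_L05_001
import Fermat.Agent.Zm.S35_L02_000
import Fermat.Agent.Zm.S35_L01_000
import Fermat.Agent.S28.H76_Bridge
import Fermat.Agent.Zm.S35_L05_004
import Fermat.Agent.Zm.S35_L01_004
import Fermat.Agent.Zm.S35_L04_001
import Fermat.Agent.Zm.S35_L02_001
import Fermat.Agent.Zm.S35_L05_002
import Fermat.Agent.RED.H17_Place
import Fermat.Agent.Zm.S35_L03_002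
import Fermat.Agent.Zm.S35_L01_002
import Fermat.Agent.Zm.S35_L05_003

-- ==== BEGIN Fermat.Agent.GTor.H2_HKalgC
section

/-!
# G-TOR, package HK-alg (helper2): `Stmt_HKC` from `hk_an`, the norm series and base change

* `Stmt_HKan N n` : the analytic statement (helper44 / helper76): if `f' ∈ F_ℂ` has character `φ`
  then `heckeNormSeries ℓ f'` is the expansion of some `g' ∈ F_ℂ` with character `T_ℓ^B φ`.
* `Stmt_NormSeries N` : the expansion of `Norm_α (β f)` is `normSeries ℚ̄ ℓ f` (helper95).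
* `hkc_of : Stmt_HKan N n → Stmt_NormSeries N → Stmt_HKC N n`,
* `hk_of : (∀ ℓ, HeckeInputsAlong ℚ̄ N ℓ) → Stmt_HKan N n → Stmt_NormSeries N → Stmt_HK N n`.
-/

set_option autoImplicit false
set_option linter.style.haveILetI false
set_option linter.unusedSectionVars false
set_option linter.dupNamespace false

noncomputable section

namespace Fermat.Agent.GTor.H2

open AlgebraicCurve ModularCurve

/-- **HK-an** (helper44, helper76): the analytic half of HK. -/
def Stmt_HKan (N n : ℕ) [NeZero N] : Prop :=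
  ∀ (ℓ : ℕ) (hℓ : ℓ.Prime) (hℓN : ¬ ℓ ∣ N) (f' : FNL ℂ N)
    (φ : Additive (CongruenceSubgroup.Gamma0 N) →+ ZMod n),
    f' ≠ 0 → HasChar N n f' φ →
    ∃ g' : FNL ℂ N,
      (g' : LaurentSeries ℂ)
        = (haveI : NeZero ℓ := ⟨hℓ.ne_zero⟩; H44.heckeNormSeries ℓ (f' : LaurentSeries ℂ)) ∧
      HasChar N n g' (Betti.TB N (ZMod n) hℓ hℓN φ)

/-- **NormSeries** (helper95): the `q`-expansion of `Norm_α (β f)`. -/
def Stmt_NormSeries (N : ℕ) [NeZero N] : Prop :=
  ∀ (ℓ : ℕ) (hℓ : ℓ.Prime) (_ : ¬ ℓ ∣ N) (f : FNL (AlgebraicClosure ℚ) N),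
    haveI : NeZero ℓ := ⟨hℓ.ne_zero⟩
    ((heckeNormFn (AlgebraicClosure ℚ) N ℓ f : FNL (AlgebraicClosure ℚ) N) :
        LaurentSeries (AlgebraicClosure ℚ))
      = H44.normSeries (AlgebraicClosure ℚ) ℓ (f : LaurentSeries (AlgebraicClosure ℚ))

/-- `ℚ̄` contains a primitive `ℓ`-th root of unity. -/
theorem exists_primitiveRoot_Qbar (ℓ : ℕ) [NeZero ℓ] :
    ∃ ζ : (AlgebraicClosure ℚ)ˣ, IsPrimitiveRoot ζ ℓ := by
  obtain ⟨z, hz⟩ := HasEnoughRootsOfUnity.exists_primitiveRoot (AlgebraicClosure ℚ) ℓ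
  have hz0 : z ≠ 0 := hz.ne_zero (NeZero.ne ℓ)
  exact ⟨Units.mk0 z hz0, IsPrimitiveRoot.coe_units_iff.mp (by simpa using hz)⟩

theorem hkc_of (N n : ℕ) [NeZero N] (han : Stmt_HKan N n) (hns : Stmt_NormSeries N) :
    Stmt_HKC N n := by
  intro ι ℓ hℓ hℓN f f' φ hf hco hch
  haveI : NeZero ℓ := ⟨hℓ.ne_zero⟩
  have hcoe : (f' : LaurentSeries ℂ) = coeffMap ι (f : LaurentSeries (AlgebraicClosure ℚ)) := by
    ext m
    rw [hco m, coeffMap_coeff]
  have hf' : f' ≠ 0 := by
    intro h0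
    apply hf
    apply Subtype.ext
    ext m
    have h1 := hco m
    rw [h0] at h1
    have h2 : ι ((f : LaurentSeries (AlgebraicClosure ℚ)).coeff m) = 0 := by
      rw [← h1]
      rfl
    have h3 := (map_eq_zero ι).mp h2
    rw [h3]
    rfl
  obtain ⟨g', hg', hch'⟩ := han ℓ hℓ hℓN f' φ hf' hch
  obtain ⟨ζ, hζ⟩ := exists_primitiveRoot_Qbar ℓ
  refine ⟨g', fun m => ?_, hch'⟩
  rw [hg', hns ℓ hℓ hℓN f, ← coeffMap_coeff, H44.coeffMap_normSeries ι hζ, ← hcoe]
  rfl

/-- **HK-alg**: `Stmt_HK` from the Hecke inputs, `hk_an` and the norm series. -/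
theorem hk_of (N n : ℕ) [NeZero N]
    (hIn : ∀ (ℓ : ℕ) [NeZero ℓ], HeckeInputsAlong (AlgebraicClosure ℚ) N ℓ)
    (han : Stmt_HKan N n) (hns : Stmt_NormSeries N) : Stmt_HK N n :=
  hk_of_HKC N n hIn (hkc_of N n han hns)

end Fermat.Agent.GTor.H2

end
end
-- ==== END Fermat.Agent.GTor.H2_HKalgC

-- ==== BEGIN Fermat.Agent.GTor.H58_A1
section

/-!
# G-TOR package A1 (helper58): every element of `F_ℂ = ℂ(j(q^d) : d ∣ N)` is a ratio of two
modular forms of the same weight on `Γ₀(N)`.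
-/

set_option autoImplicit false
set_option linter.unusedSectionVars false

open UpperHalfPlane ModularForm ModularCurve CongruenceSubgroup
open scoped MatrixGroups ModularForm Manifold

noncomputable section

namespace Fermat.Agent.GTor.H58

open Fermat.Agent.GTor

variable (N : ℕ) [NeZero N]

local notation "ofPS" => HahnSeries.ofPowerSeries ℤ ℂ

/-- `x` is a ratio of two modular forms of the same weight on `Γ₀(N)`. -/
def IsRat (x : LaurentSeries ℂ) : Prop :=
  ∃ (k : ℤ) (A B : ModularForm (Gamma0 N) k), B ≠ 0 ∧ qLaurent A = x * qLaurent B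

lemma h1 : (1 : ℝ) ∈ ((Gamma0 N : Subgroup (GL (Fin 2) ℝ))).strictPeriods :=
  CongruenceSubgroup.one_mem_strictPeriods_Gamma0 N

variable {N}

lemma qLaurent_mul {a b : ℤ} (A : ModularForm (Gamma0 N) a) (B : ModularForm (Gamma0 N) b) :
    qLaurent (A.mul B) = qLaurent A * qLaurent B := by
  unfold qLaurent
  rw [ModularForm.qExpansion_mul one_pos (h1 N), map_mul]

lemma qLaurent_add {a : ℤ} (A B : ModularForm (Gamma0 N) a) :
    qLaurent ((A + B : ModularForm (Gamma0 N) a) : ℍ → ℂ) = qLaurent A + qLaurent B := by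
  unfold qLaurent
  have e : (⇑(A + B) : ℍ → ℂ) = ⇑A + ⇑B := rfl
  rw [e, ModularForm.qExpansion_add one_pos (h1 N), map_add]

lemma qLaurent_neg {a : ℤ} (A : ModularForm (Gamma0 N) a) :
    qLaurent ((-A : ModularForm (Gamma0 N) a) : ℍ → ℂ) = -qLaurent A := by
  unfold qLaurent
  have e : (⇑(-A) : ℍ → ℂ) = -⇑A := rfl
  rw [e, ModularForm.qExpansion_neg one_pos (h1 N), map_neg]

lemma one_ne_zero' : (1 : ModularForm (Gamma0 N) 0) ≠ 0 := by
  intro h
  have := congrArg (fun f : ModularForm (Gamma0 N) 0 => f UpperHalfPlane.I) h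
  simp at this

lemma qLaurent_ne_zero {a : ℤ} {A : ModularForm (Gamma0 N) a} (hA : A ≠ 0) :
    qLaurent A ≠ 0 := by
  unfold qLaurent
  intro h
  have h' : qExpansion 1 A = 0 := by
    have := HahnSeries.ofPowerSeries_injective (Γ := ℤ) (R := ℂ)
    exact this (by rw [h, map_zero])
  exact hA ((ModularForm.qExpansion_eq_zero_iff one_pos (h1 N) A).mp h')

lemma qLaurent_const (c : ℂ) :
    qLaurent (ModularForm.const c : ModularForm (Gamma0 N) 0) = HahnSeries.C c := by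
  unfold qLaurent
  have : (ModularForm.const c : ModularForm (Gamma0 N) 0) = c • (1 : ModularForm (Gamma0 N) 0) := by
    ext z
    simp
  rw [this]
  have e : (⇑(c • (1 : ModularForm (Gamma0 N) 0)) : ℍ → ℂ)
      = c • ⇑(1 : ModularForm (Gamma0 N) 0) := rfl
  rw [e, ModularForm.qExpansion_smul one_pos (h1 N), ModularForm.qExpansion_one]
  rw [← HahnSeries.ofPowerSeries_C]
  congr 1
  ext n
  simp [PowerSeries.coeff_C, PowerSeries.coeff_one]

namespace IsRat

lemma const (c : ℂ) : IsRat N (HahnSeries.C c) :=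
  ⟨0, ModularForm.const c, 1, one_ne_zero', by
    rw [qLaurent_const]
    have : qLaurent (1 : ModularForm (Gamma0 N) 0) = 1 := by
      have := qLaurent_const (N := N) 1
      rw [map_one] at this
      rw [← this]
      congr 1
    rw [this, mul_one]⟩

lemma zero : IsRat N 0 := by
  have := const (N := N) 0
  rwa [map_zero] at this

lemma one : IsRat N 1 := by
  have := const (N := N) 1
  rwa [map_one] at this

lemma mul {x y : LaurentSeries ℂ} (hx : IsRat N x) (hy : IsRat N y) : IsRat N (x * y) := by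
  obtain ⟨a, A, B, hB, hAB⟩ := hx
  obtain ⟨b, A', B', hB', hAB'⟩ := hy
  refine ⟨a + b, A.mul A', B.mul B', ModularForm.mul_ne_zero ⟨1, h1 N, one_pos⟩ hB hB', ?_⟩
  rw [qLaurent_mul, qLaurent_mul, hAB, hAB']
  ring

lemma neg {x : LaurentSeries ℂ} (hx : IsRat N x) : IsRat N (-x) := by
  obtain ⟨a, A, B, hB, hAB⟩ := hx
  refine ⟨a, -A, B, hB, ?_⟩
  rw [qLaurent_neg, hAB]
  ring

lemma add {x y : LaurentSeries ℂ} (hx : IsRat N x) (hy : IsRat N y) : IsRat N (x + y) := by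
  obtain ⟨a, A, B, hB, hAB⟩ := hx
  obtain ⟨b, A', B', hB', hAB'⟩ := hy
  refine ⟨a + b, A.mul B' + B.mul A', B.mul B',
    ModularForm.mul_ne_zero ⟨1, h1 N, one_pos⟩ hB hB', ?_⟩
  rw [qLaurent_add, qLaurent_mul, qLaurent_mul, qLaurent_mul, hAB, hAB']
  ring

lemma inv {x : LaurentSeries ℂ} (hx : IsRat N x) : IsRat N x⁻¹ := by
  by_cases hx0 : x = 0
  · rw [hx0, inv_zero]
    exact zero
  obtain ⟨a, A, B, hB, hAB⟩ := hx
  have hA : A ≠ 0 := by
    rintro rfl
    have h0 : qLaurent (0 : ModularForm (Gamma0 N) a) = 0 := by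
      unfold qLaurent
      have : qExpansion 1 (⇑(0 : ModularForm (Gamma0 N) a)) = 0 :=
        (ModularForm.qExpansion_eq_zero_iff one_pos (h1 N) _).mpr rfl
      rw [this, map_zero]
    rw [h0] at hAB
    rcases mul_eq_zero.mp hAB.symm with h | h
    · exact hx0 h
    · exact qLaurent_ne_zero hB h
  refine ⟨a, B, A, hA, ?_⟩
  rw [hAB, ← mul_assoc, inv_mul_cancel₀ hx0, one_mul]

end IsRat

open Fermat.Agent.S23.H22 (G0 E12 levelRaise levelRaise_apply)
open Fermat.Agent.S28.H30 (DeltaMF DeltaMF_coe)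

lemma G0_le_of_dvd {d M : ℕ} (h : d ∣ M) : G0 M ≤ G0 d := by
  apply Subgroup.map_mono
  intro γ hγ
  rw [Gamma0_mem] at hγ ⊢
  rw [ZMod.intCast_zmod_eq_zero_iff_dvd] at hγ ⊢
  exact (Int.natCast_dvd_natCast.mpr h).trans hγ

/-- Restriction of the level. -/
def resLevel {Γ Γ' : Subgroup (GL (Fin 2) ℝ)} {k : ℤ} (h : Γ' ≤ Γ) (f : ModularForm Γ k) :
    ModularForm Γ' k where
  toFun := f
  slash_action_eq' γ hγ := f.slash_action_eq' γ (h hγ)
  holo' := f.holo'
  bdd_at_cusps' hc := f.bdd_at_cusps' (hc.mono h)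

/-- `d^(k-1) F(d z)` as a modular form on `Γ₀(N)`, `d ∣ N`. -/
def gen (d : ℕ) [NeZero d] (hd : d ∣ N) {k : ℤ} (F : ModularForm 𝒮ℒ k) :
    ModularForm (Gamma0 N) k :=
  resLevel (G0_le_of_dvd hd) (levelRaise d F)

lemma qLaurent_gen (d : ℕ) [NeZero d] (hd : d ∣ N) {k : ℤ} (F : ModularForm 𝒮ℒ k) :
    qLaurent (gen d hd F : ModularForm (Gamma0 N) k) =
      HahnSeries.C ((d : ℂ) ^ (k - 1)) * qExpand ℂ d (ofPS (qExpansion 1 F)) :=
  Fermat.Agent.S28.H10.ofPS_qExpansion_levelRaise d F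

lemma gen_DeltaMF_ne_zero (d : ℕ) [NeZero d] (hd : d ∣ N) :
    (gen d hd DeltaMF : ModularForm (Gamma0 N) 12) ≠ 0 := by
  intro h
  have h2 := congrArg (fun f : ModularForm (Gamma0 N) 12 => f UpperHalfPlane.I) h
  have h3 : (gen d hd DeltaMF : ModularForm (Gamma0 N) 12) UpperHalfPlane.I
      = (d : ℂ) ^ ((12 : ℤ) - 1) * DeltaMF (heckeDiagMatrix d • UpperHalfPlane.I) :=
    levelRaise_apply d DeltaMF _
  simp only [h3, zero_apply, mul_eq_zero] at h2
  rcases h2 with h2 | h2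
  · have hd0 : (d : ℂ) ≠ 0 := by exact_mod_cast NeZero.ne d
    exact zpow_ne_zero _ hd0 h2
  · exact ModularForm.discriminant_ne_zero _ h2

/-- The generators `j(q^d)`, `d ∣ N`, are ratios of modular forms. -/
lemma isRat_gen (d : ℕ) [NeZero d] (hd : d ∣ N) : IsRat N (coeffEmb ℂ (qExpand ℚ d jq)) := by
  refine ⟨12, gen d hd E12, gen d hd DeltaMF, gen_DeltaMF_ne_zero d hd, ?_⟩
  rw [qLaurent_gen, qLaurent_gen, coeffEmb, Fermat.Agent.S28.H10.coeffMap_qExpand,
    Fermat.Agent.S28.H10.qExpansion_E12]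
  have hΔ : qExpansion 1 DeltaMF = qExpansion 1 ModularForm.discriminant := rfl
  rw [hΔ, map_pow, ← Fermat.Agent.S28.H76.coeffMap_jq_mul_disc, map_mul]
  ring

lemma isRat_coeffEmb {z : LaurentSeries ℚ}
    (hz : z ∈ Subfield.closure
      (Set.range (algebraMap ℚ (LaurentSeries ℚ)) ∪ divisorExpansions N)) :
    IsRat N (coeffEmb ℂ z) := by
  induction hz using Subfield.closure_induction with
  | mem w hw =>
    rcases hw with ⟨c, rfl⟩ | ⟨d, hd0, hd, rfl⟩
    · rw [algebraMap_laurentSeries_eq_single, coeffEmb, coeffMap_single]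
      exact IsRat.const _
    · have := hd0
      exact isRat_gen d hd
  | one => rw [map_one]; exact IsRat.one
  | add x y _ _ hx hy => rw [map_add]; exact hx.add hy
  | neg x _ hx => rw [map_neg]; exact hx.neg
  | inv x _ hx => rw [map_inv₀]; exact hx.inv
  | mul x y _ _ hx hy => rw [map_mul]; exact hx.mul hy

lemma isRat_of_mem {x : LaurentSeries ℂ}
    (hx : x ∈ Subfield.closure
        (Set.range (algebraMap ℂ (LaurentSeries ℂ)) ∪
          (⇑(coeffEmb ℂ) '' ((modularFunctionFieldFull N : IntermediateField ℚ (LaurentSeries ℚ)) :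
            Set (LaurentSeries ℚ))))) :
    IsRat N x := by
  induction hx using Subfield.closure_induction with
  | mem y hy =>
    rcases hy with ⟨c, rfl⟩ | ⟨z, hz, rfl⟩
    · rw [algebraMap_laurentSeries_eq_single]
      exact IsRat.const c
    · exact isRat_coeffEmb hz
  | one => exact IsRat.one
  | add x y _ _ hx hy => exact hx.add hy
  | neg x _ hx => exact hx.neg
  | inv x _ hx => exact hx.inv
  | mul x y _ _ hx hy => exact hx.mul hy

/-- **A1**: every element of `F_ℂ` is a ratio of two modular forms of the same weight. -/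
theorem stmt_A1 (N : ℕ) [NeZero N] : Stmt_A1 N := by
  intro f
  obtain ⟨k, A, B, hB, hAB⟩ := isRat_of_mem (N := N) (mem_laurentBaseChange_iff.mp f.2)
  exact ⟨k, A, B, hB, hAB⟩

end Fermat.Agent.GTor.H58

end
end
-- ==== END Fermat.Agent.GTor.H58_A1

-- ==== BEGIN Fermat.Agent.GTor.H75_DescCoreA
section

/-!
# G-TOR package DESC (helper75): DESC-CORE, the root step

From `τ f = f · gⁿ` with `f = lc(a)/lc(b)`, all of `a, b, τa, τb` in the algebraically closed
subfield `k₂`, DESC-ROOT over `k₂` gives an `n`-th root with coefficients in `k₂`, whence the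
six-term identity `lc(τa)·lc(b)·lc(β)ⁿ = lc(α)ⁿ·lc(a)·lc(τb)` with `α, β ∈ k₂`.
-/

set_option autoImplicit false
set_option linter.style.haveILetI false
set_option linter.unusedSectionVars false
set_option maxHeartbeats 1000000

noncomputable section

namespace Fermat.Agent.GTor.H75

open ModularCurve

variable {k₂ K : Type} [Field k₂] [Field K] [Algebra ℚ k₂] [Algebra ℚ K]
  [IsAlgClosed k₂] [CharZero k₂]
variable (F₀ : IntermediateField ℚ (LaurentSeries ℚ))

theorem core_stepA (ι₂ : k₂ →+* K) (n : ℕ) (hn : 0 < n)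
    (f : ↥(laurentBaseChange K F₀))
    {r r' : ℕ} (y : Fin r → LaurentSeries ℚ) (y' : Fin r' → LaurentSeries ℚ)
    (hy : ∀ i, y i ∈ F₀) (hy' : ∀ i, y' i ∈ F₀)
    (a : Fin r → K) (b : Fin r' → K)
    (hP : lc (algebraMap ℚ K) y a ≠ 0) (hQ : lc (algebraMap ℚ K) y' b ≠ 0)
    (hfQ : (f : LaurentSeries K) * lc (algebraMap ℚ K) y' b = lc (algebraMap ℚ K) y a)
    (ha₂ : ∀ i, a i ∈ ι₂.range) (hb₂ : ∀ i, b i ∈ ι₂.range)
    (τ : K →+* K)
    (hτa₂ : ∀ i, τ (a i) ∈ ι₂.range) (hτb₂ : ∀ i, τ (b i) ∈ ι₂.range)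
    (g : ↥(laurentBaseChange K F₀))
    (hτ : coeffMap τ (f : LaurentSeries K) = (f : LaurentSeries K) * (g : LaurentSeries K) ^ n) :
    ∃ (s s' : ℕ) (z : Fin s → LaurentSeries ℚ) (z' : Fin s' → LaurentSeries ℚ)
      (α : Fin s → K) (β : Fin s' → K),
      (∀ i, z i ∈ F₀) ∧ (∀ i, z' i ∈ F₀) ∧ (∀ i, α i ∈ ι₂.range) ∧ (∀ i, β i ∈ ι₂.range) ∧
      lc (algebraMap ℚ K) z α ≠ 0 ∧ lc (algebraMap ℚ K) y' (fun i => τ (b i)) ≠ 0 ∧
      Ident (algebraMap ℚ K) y y' z z' n (fun i => τ (a i)) b β α a (fun i => τ (b i)) := by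
  classical
  choose a₂ ha₂' using ha₂
  choose b₂ hb₂' using hb₂
  choose τa₂ hτa₂' using hτa₂
  choose τb₂ hτb₂' using hτb₂
  set P := lc (algebraMap ℚ K) y a with hPdef
  set Q := lc (algebraMap ℚ K) y' b with hQdef
  set τP := lc (algebraMap ℚ K) y (fun i => τ (a i)) with hτPdef
  set τQ := lc (algebraMap ℚ K) y' (fun i => τ (b i)) with hτQdef
  have hτinj : Function.Injective (coeffMap τ) := coeffMap_injective_of_injective τ τ.injective
  have hι₂inj : Function.Injective (coeffMap ι₂) :=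
    coeffMap_injective_of_injective ι₂ ι₂.injective
  have eτP : coeffMap τ P = τP := coeffMap_lc τ _ _ y a
  have eτQ : coeffMap τ Q = τQ := coeffMap_lc τ _ _ y' b
  have hτP0 : τP ≠ 0 := by
    rw [← eτP]; exact fun h0 => hP (hτinj (by rw [h0, map_zero]))
  have hτQ0 : τQ ≠ 0 := by
    rw [← eτQ]; exact fun h0 => hQ (hτinj (by rw [h0, map_zero]))
  have hfτ : (f : LaurentSeries K) * (g : LaurentSeries K) ^ n * τQ = τP := by
    rw [← hτ, ← eτQ, ← eτP, ← map_mul, hfQ]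
  have hf0 : (f : LaurentSeries K) ≠ 0 := by
    intro h0
    rw [h0, zero_mul] at hfQ
    exact hP hfQ.symm
  -- the series over `k₂`
  have eP : coeffMap ι₂ (lc (algebraMap ℚ k₂) y a₂) = P := by
    rw [coeffMap_lc ι₂ _ (algebraMap ℚ K) y a₂, hPdef]
    congr 1
    exact funext ha₂'
  have eQ : coeffMap ι₂ (lc (algebraMap ℚ k₂) y' b₂) = Q := by
    rw [coeffMap_lc ι₂ _ (algebraMap ℚ K) y' b₂, hQdef]
    congr 1
    exact funext hb₂'
  have eτP₂ : coeffMap ι₂ (lc (algebraMap ℚ k₂) y τa₂) = τP := by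
    rw [coeffMap_lc ι₂ _ (algebraMap ℚ K) y τa₂, hτPdef]
    congr 1
    exact funext hτa₂'
  have eτQ₂ : coeffMap ι₂ (lc (algebraMap ℚ k₂) y' τb₂) = τQ := by
    rw [coeffMap_lc ι₂ _ (algebraMap ℚ K) y' τb₂, hτQdef]
    congr 1
    exact funext hτb₂'
  let Pe : ↥(laurentBaseChange k₂ F₀) := ⟨_, lc_mem k₂ F₀ y hy a₂⟩
  let Qe : ↥(laurentBaseChange k₂ F₀) := ⟨_, lc_mem k₂ F₀ y' hy' b₂⟩
  let τPe : ↥(laurentBaseChange k₂ F₀) := ⟨_, lc_mem k₂ F₀ y hy τa₂⟩
  let τQe : ↥(laurentBaseChange k₂ F₀) := ⟨_, lc_mem k₂ F₀ y' hy' τb₂⟩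
  have hne : ∀ (x : LaurentSeries k₂) (X : LaurentSeries K), coeffMap ι₂ x = X → X ≠ 0 → x ≠ 0 := by
    intro x X hx hX h0
    rw [h0, map_zero] at hx
    exact hX hx.symm
  have hPe : Pe ≠ 0 := fun h0 => hne _ _ eP hP (congrArg Subtype.val h0)
  have hQe : Qe ≠ 0 := fun h0 => hne _ _ eQ hQ (congrArg Subtype.val h0)
  have hτPe : τPe ≠ 0 := fun h0 => hne _ _ eτP₂ hτP0 (congrArg Subtype.val h0)
  have hτQe : τQe ≠ 0 := fun h0 => hne _ _ eτQ₂ hτQ0 (congrArg Subtype.val h0)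
  set u₂ : ↥(laurentBaseChange k₂ F₀) := (τPe * Qe) / (Pe * τQe) with hu₂def
  have hu₂0 : u₂ ≠ 0 := div_ne_zero (mul_ne_zero hτPe hQe) (mul_ne_zero hPe hτQe)
  have hu₂coe : coeffMap ι₂ (u₂ : LaurentSeries k₂) = (τP * Q) / (P * τQ) := by
    have : (u₂ : LaurentSeries k₂) = ((τPe : LaurentSeries k₂) * (Qe : LaurentSeries k₂)) /
        ((Pe : LaurentSeries k₂) * (τQe : LaurentSeries k₂)) := rfl
    rw [this, map_div₀, map_mul, map_mul]
    show coeffMap ι₂ (lc (algebraMap ℚ k₂) y τa₂) * coeffMap ι₂ (lc (algebraMap ℚ k₂) y' b₂) /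
      (coeffMap ι₂ (lc (algebraMap ℚ k₂) y a₂) * coeffMap ι₂ (lc (algebraMap ℚ k₂) y' τb₂)) = _
    rw [eP, eQ, eτP₂, eτQ₂]
  have hgn : (τP * Q) / (P * τQ) = (g : LaurentSeries K) ^ n := by
    rw [div_eq_iff (mul_ne_zero hP hτQ0), ← hfτ, ← hfQ]
    ring
  have hbc : bcHom ι₂ F₀ u₂ = g ^ n := by
    apply Subtype.ext
    show coeffMap ι₂ (u₂ : LaurentSeries k₂) = (g : LaurentSeries K) ^ n
    rw [hu₂coe, hgn]
  obtain ⟨h₂, hh₂⟩ := H56.stmt_DescRoot k₂ K F₀ ι₂ n hn u₂ hu₂0 ⟨g, hbc⟩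
  have hh₂0 : h₂ ≠ 0 := by
    rintro rfl
    rw [zero_pow hn.ne'] at hh₂
    exact hu₂0 hh₂
  have hh₂0' : (h₂ : LaurentSeries k₂) ≠ 0 := fun h0 => hh₂0 (Subtype.ext h0)
  obtain ⟨s, z, α₂, s', z', β₂, hz, hz', hA₂, hB₂, hhB⟩ := exists_lc k₂ F₀ h₂.2 hh₂0'
  refine ⟨s, s', z, z', fun i => ι₂ (α₂ i), fun i => ι₂ (β₂ i), hz, hz',
    fun i => ⟨_, rfl⟩, fun i => ⟨_, rfl⟩, ?_, hτQ0, ?_⟩
  · rw [← coeffMap_lc ι₂ (algebraMap ℚ k₂) (algebraMap ℚ K) z α₂]
    exact fun h0 => hA₂ (hι₂inj (by rw [h0, map_zero]))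
  · unfold Ident
    rw [← coeffMap_lc ι₂ (algebraMap ℚ k₂) (algebraMap ℚ K) z α₂,
      ← coeffMap_lc ι₂ (algebraMap ℚ k₂) (algebraMap ℚ K) z' β₂]
    set A := coeffMap ι₂ (lc (algebraMap ℚ k₂) z α₂) with hAdef
    set B := coeffMap ι₂ (lc (algebraMap ℚ k₂) z' β₂) with hBdef
    set H := coeffMap ι₂ (h₂ : LaurentSeries k₂) with hHdef
    have hHB : H * B = A := by
      rw [hHdef, hBdef, ← map_mul, hhB]
    have hHn : (τP * Q) / (P * τQ) = H ^ n := by
      rw [← hu₂coe, hh₂, hHdef, ← map_pow]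
      rfl
    rw [div_eq_iff (mul_ne_zero hP hτQ0)] at hHn
    rw [← hHB, mul_pow]
    linear_combination (B ^ n) * hHn

end Fermat.Agent.GTor.H75

end
end
-- ==== END Fermat.Agent.GTor.H75_DescCoreA

-- ==== BEGIN Fermat.Agent.GTor.H75_DescCoreBC
section

/-!
# G-TOR package DESC (helper75): DESC-CORE, the specialisation step

From an identity `lc(ta)·lc(b)·lc(β)ⁿ = lc(α)ⁿ·lc(a)·lc(tb)` in `K((q))` with `a, b ∈ E`,
`ta, tb` algebraic over `k[t']`, `α, β` algebraic over `E[t']` (`t'` algebraically independent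
over the algebraically closed field `E ⊇ k`), we get `f = lc(a)/lc(b) = bc(f₀)·hⁿ`.
-/

set_option autoImplicit false
set_option linter.style.haveILetI false
set_option linter.unusedSectionVars false
set_option maxHeartbeats 1000000

noncomputable section

namespace Fermat.Agent.GTor.H75

open ModularCurve

variable {k E K : Type} [Field k] [Field E] [Field K] [Algebra ℚ k] [Algebra ℚ K]
  [Algebra k E] [Algebra E K] [Algebra k K] [IsScalarTower k E K]
  [IsAlgClosed k] [IsAlgClosed E]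
variable (F₀ : IntermediateField ℚ (LaurentSeries ℚ))

theorem core_stepBC (jE : ℚ →+* E) (n : ℕ) (hn : 0 < n) {d : ℕ} (t' : Fin d → K)
    (ht' : AlgebraicIndependent E t')
    (f : ↥(laurentBaseChange K F₀))
    {r r' s s' : ℕ} (y : Fin r → LaurentSeries ℚ) (y' : Fin r' → LaurentSeries ℚ)
    (z : Fin s → LaurentSeries ℚ) (z' : Fin s' → LaurentSeries ℚ)
    (hy : ∀ i, y i ∈ F₀) (hy' : ∀ i, y' i ∈ F₀) (hz : ∀ i, z i ∈ F₀) (hz' : ∀ i, z' i ∈ F₀)
    (a : Fin r → K) (b : Fin r' → K)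
    (hP : lc (algebraMap ℚ K) y a ≠ 0) (hQ : lc (algebraMap ℚ K) y' b ≠ 0)
    (hfQ : (f : LaurentSeries K) * lc (algebraMap ℚ K) y' b = lc (algebraMap ℚ K) y a)
    (haE : ∀ i, a i ∈ (algebraMap E K).range) (hbE : ∀ i, b i ∈ (algebraMap E K).range)
    (ta : Fin r → K) (tb : Fin r' → K)
    (hta : ∀ i, AlgElem
      (MvPolynomial.aeval t' : MvPolynomial (Fin d) k →ₐ[k] K).toRingHom (ta i))
    (htb : ∀ i, AlgElem
      (MvPolynomial.aeval t' : MvPolynomial (Fin d) k →ₐ[k] K).toRingHom (tb i))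
    (hτQ : lc (algebraMap ℚ K) y' tb ≠ 0)
    (α : Fin s → K) (β : Fin s' → K)
    (hα : ∀ i, AlgElem
      (MvPolynomial.aeval t' : MvPolynomial (Fin d) E →ₐ[E] K).toRingHom (α i))
    (hβ : ∀ i, AlgElem
      (MvPolynomial.aeval t' : MvPolynomial (Fin d) E →ₐ[E] K).toRingHom (β i))
    (hA : lc (algebraMap ℚ K) z α ≠ 0)
    (hid : Ident (algebraMap ℚ K) y y' z z' n ta b β α a tb) :
    ∃ (f₀ : ↥(laurentBaseChange k F₀)) (h : ↥(laurentBaseChange K F₀)),
      f₀ ≠ 0 ∧ h ≠ 0 ∧ f = bcHom (algebraMap k K) F₀ f₀ * h ^ n := by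
  classical
  -- scaling
  have ht'k : AlgebraicIndependent k t' :=
    ht'.restrictScalars (algebraMap k E).injective
  have hinjk : Function.Injective
      (MvPolynomial.aeval t' : MvPolynomial (Fin d) k →ₐ[k] K).toRingHom := ht'k
  have hinjE : Function.Injective
      (MvPolynomial.aeval t' : MvPolynomial (Fin d) E →ₐ[E] K).toRingHom := ht'
  obtain ⟨y₁, hy₁0, hy₁⟩ := exists_integral_multiples hinjk (Sum.elim ta tb)
    (by rintro (i | i) <;> simp only [Sum.elim_inl, Sum.elim_inr] <;> [exact hta i; exact htb i])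
  obtain ⟨y₂, hy₂0, hy₂⟩ := exists_integral_multiples hinjE (Sum.elim α β)
    (by rintro (i | i) <;> simp only [Sum.elim_inl, Sum.elim_inr] <;> [exact hα i; exact hβ i])
  set Y₁ : K := (MvPolynomial.aeval t' : MvPolynomial (Fin d) k →ₐ[k] K).toRingHom y₁ with hY₁
  set Y₂ : K := (MvPolynomial.aeval t' : MvPolynomial (Fin d) E →ₐ[E] K).toRingHom y₂ with hY₂
  have hY₁0 : Y₁ ≠ 0 := fun h0 => hy₁0 (hinjk (by rw [← hY₁, h0, map_zero]))
  have hY₂0 : Y₂ ≠ 0 := fun h0 => hy₂0 (hinjE (by rw [← hY₂, h0, map_zero]))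
  have hita : ∀ i, (MvPolynomial.aeval t' : MvPolynomial (Fin d) k →ₐ[k] K).toRingHom.IsIntegralElem
      (Y₁ * ta i) := fun i => hy₁ (Sum.inl i)
  have hitb : ∀ i, (MvPolynomial.aeval t' : MvPolynomial (Fin d) k →ₐ[k] K).toRingHom.IsIntegralElem
      (Y₁ * tb i) := fun i => hy₁ (Sum.inr i)
  have hiα : ∀ i, (MvPolynomial.aeval t' : MvPolynomial (Fin d) E →ₐ[E] K).toRingHom.IsIntegralElem
      (Y₂ * α i) := fun i => hy₂ (Sum.inl i)
  have hiβ : ∀ i, (MvPolynomial.aeval t' : MvPolynomial (Fin d) E →ₐ[E] K).toRingHom.IsIntegralElem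
      (Y₂ * β i) := fun i => hy₂ (Sum.inr i)
  have hid2 := hid.scale Y₁ Y₂
  -- the set `W` and the algebra `C`
  set W : Set K := (Set.range (fun i => Y₁ * ta i) ∪ Set.range (fun i => Y₁ * tb i)) ∪
    (Set.range (fun i => Y₂ * α i) ∪ Set.range (fun i => Y₂ * β i)) with hWdef
  have hW : ∀ w ∈ W,
      (MvPolynomial.aeval t' : MvPolynomial (Fin d) E →ₐ[E] K).toRingHom.IsIntegralElem w := by
    rintro w ((⟨i, rfl⟩ | ⟨i, rfl⟩) | (⟨i, rfl⟩ | ⟨i, rfl⟩))
    · exact isIntegralElem_extend (hita i)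
    · exact isIntegralElem_extend (hitb i)
    · exact hiα i
    · exact hiβ i
  have hWta : ∀ i, Y₁ * ta i ∈ W := fun i => Or.inl (Or.inl ⟨i, rfl⟩)
  have hWtb : ∀ i, Y₁ * tb i ∈ W := fun i => Or.inl (Or.inr ⟨i, rfl⟩)
  have hWα : ∀ i, Y₂ * α i ∈ W := fun i => Or.inr (Or.inl ⟨i, rfl⟩)
  have hWβ : ∀ i, Y₂ * β i ∈ W := fun i => Or.inr (Or.inr ⟨i, rfl⟩)
  set C : Subalgebra E K := Algebra.adjoin E (Set.range t' ∪ W) with hCdef
  have hWC : ∀ w ∈ W, w ∈ C := fun w hw => Algebra.subset_adjoin (Or.inr hw)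
  have hEC : ∀ x ∈ (algebraMap E K).range, x ∈ C := by
    rintro x ⟨e, rfl⟩
    exact C.algebraMap_mem e
  let jC : ℚ →+* ↥C := (algebraMap E ↥C).comp jE
  let vC : ↥C →+* K := C.val.toRingHom
  have hvC : Function.Injective vC := Subtype.val_injective
  -- families over `C`
  let A1 : Fin r → ↥C := fun i => ⟨Y₁ * ta i, hWC _ (hWta i)⟩
  let A2 : Fin r' → ↥C := fun i => ⟨b i, hEC _ (hbE i)⟩
  let A3 : Fin s' → ↥C := fun i => ⟨Y₂ * β i, hWC _ (hWβ i)⟩
  let A4 : Fin s → ↥C := fun i => ⟨Y₂ * α i, hWC _ (hWα i)⟩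
  let A5 : Fin r → ↥C := fun i => ⟨a i, hEC _ (haE i)⟩
  let A6 : Fin r' → ↥C := fun i => ⟨Y₁ * tb i, hWC _ (hWtb i)⟩
  have hidC : Ident jC y y' z z' n A1 A2 A3 A4 A5 A6 :=
    Ident.of_map vC hvC (algebraMap ℚ K) hid2
  -- nonzero coefficients
  have h6 : lc (algebraMap ℚ K) y' (fun i => Y₁ * tb i) ≠ 0 := by
    rw [lc_smul]
    exact mul_ne_zero (C_ne_zero_of_field hY₁0) hτQ
  have h4 : lc (algebraMap ℚ K) z (fun i => Y₂ * α i) ≠ 0 := by
    rw [lc_smul]
    exact mul_ne_zero (C_ne_zero_of_field hY₂0) hA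
  obtain ⟨m₁, hm₁⟩ := exists_coeff_ne_zero h6
  obtain ⟨m₂, hm₂⟩ := exists_coeff_ne_zero h4
  have e6 : coeffMap vC (lc jC y' A6) = lc (algebraMap ℚ K) y' (fun i => Y₁ * tb i) :=
    coeffMap_lc vC jC _ y' A6
  have e4 : coeffMap vC (lc jC z A4) = lc (algebraMap ℚ K) z (fun i => Y₂ * α i) :=
    coeffMap_lc vC jC _ z A4
  set c₁ : ↥C := (lc jC y' A6).coeff m₁ with hc₁
  set c₂ : ↥C := (lc jC z A4).coeff m₂ with hc₂
  have hc₁0 : (c₁ : K) ≠ 0 := by
    have : (c₁ : K) = (coeffMap vC (lc jC y' A6)).coeff m₁ := rfl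
    rw [this, e6]
    exact hm₁
  have hc₂0 : (c₂ : K) ≠ 0 := by
    have : (c₂ : K) = (coeffMap vC (lc jC z A4)).coeff m₂ := rfl
    rw [this, e4]
    exact hm₂
  have hb₀0 : ((c₁ * c₂ : ↥C) : K) ≠ 0 := by
    rw [Subalgebra.coe_mul]
    exact mul_ne_zero hc₁0 hc₂0
  obtain ⟨sp, hsp0, -, hspW⟩ := spec (k₀ := k) t' ht' W hW ((c₁ * c₂ : ↥C) : K) (c₁ * c₂).2 hb₀0
  have hsp0' : sp (c₁ * c₂) ≠ 0 := hsp0
  rw [map_mul] at hsp0'
  have hsc₁ : sp c₁ ≠ 0 := left_ne_zero_of_mul hsp0'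
  have hsc₂ : sp c₂ ≠ 0 := right_ne_zero_of_mul hsp0'
  let ψ : ↥C →+* K := (algebraMap E K).comp (sp : ↥C →+* E)
  have hψ : ∀ c : ↥C, ψ c = algebraMap E K (sp c) := fun c => rfl
  have hidψ := hidC.map ψ (algebraMap ℚ K)
  -- `ψ` on `E`
  have hψE : ∀ (x : K) (hx : x ∈ (algebraMap E K).range), ψ ⟨x, hEC x hx⟩ = x := by
    rintro x ⟨e, rfl⟩
    have : (⟨algebraMap E K e, hEC _ ⟨e, rfl⟩⟩ : ↥C) = algebraMap E ↥C e := Subtype.ext rfl
    rw [hψ, this, sp.commutes]
    rfl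
  -- `ψ` on the `k`-integral elements
  have hψk : ∀ (w : K) (hw : w ∈ W),
      (MvPolynomial.aeval t' : MvPolynomial (Fin d) k →ₐ[k] K).toRingHom.IsIntegralElem w →
      ∃ c : k, ψ ⟨w, hWC w hw⟩ = algebraMap k K c := by
    intro w hw hint
    obtain ⟨c, hc⟩ := hspW w hw hint
    refine ⟨c, ?_⟩
    rw [hψ]
    have : sp ⟨w, hWC w hw⟩ = algebraMap k E c := hc.symm
    rw [this, ← IsScalarTower.algebraMap_apply]
  choose a₀ ha₀ using fun i => hψk _ (hWta i) (hita i)
  choose b₀ hb₀ using fun i => hψk _ (hWtb i) (hitb i)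
  have E1 : (fun i => ψ (A1 i)) = fun i => algebraMap k K (a₀ i) := funext ha₀
  have E6 : (fun i => ψ (A6 i)) = fun i => algebraMap k K (b₀ i) := funext hb₀
  have E2 : (fun i => ψ (A2 i)) = b := funext fun i => hψE _ (hbE i)
  have E5 : (fun i => ψ (A5 i)) = a := funext fun i => hψE _ (haE i)
  rw [E1, E2, E5, E6] at hidψ
  -- nonvanishing after specialisation
  have hQ' : lc (algebraMap ℚ K) y' (fun i => algebraMap k K (b₀ i)) ≠ 0 := by
    rw [← E6, ← coeffMap_lc ψ jC (algebraMap ℚ K) y' A6]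
    intro h0
    have := congrArg (fun x : LaurentSeries K => x.coeff m₁) h0
    simp only [coeffMap_coeff, HahnSeries.coeff_zero] at this
    rw [← hc₁, hψ] at this
    exact hsc₁ ((algebraMap E K).injective (by rw [this, map_zero]))
  have hA' : lc (algebraMap ℚ K) z (fun i => ψ (A4 i)) ≠ 0 := by
    rw [← coeffMap_lc ψ jC (algebraMap ℚ K) z A4]
    intro h0
    have := congrArg (fun x : LaurentSeries K => x.coeff m₂) h0
    simp only [coeffMap_coeff, HahnSeries.coeff_zero] at this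
    rw [← hc₂, hψ] at this
    exact hsc₂ ((algebraMap E K).injective (by rw [this, map_zero]))
  exact core_final F₀ (algebraMap k K) n hn f y y' z z' hy hy' hz hz' a b a₀ b₀ _ _ hP hQ hfQ
    hQ' hA' hidψ

end Fermat.Agent.GTor.H75

end
end
-- ==== END Fermat.Agent.GTor.H75_DescCoreBC

-- ==== BEGIN Fermat.Agent.GTor.H81_PieceAbs
section

/-!
# G-TOR, T-X: pieces of a matrix representation cut out by a stable subspace  (helper81)

Pure algebra.  `𝒪` is a principal ideal domain with fraction field `F`, `ρL : G → M_r(𝒪)` a matrix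
representation and `W ⊆ F^r` a nonzero `ρL`-stable subspace.  `S30.Stmt_Lattice` gives matrices
`P` (columns: a basis of the saturated lattice `W ∩ 𝒪^r`) and `Q` with `Q P = 1`; then
`ρ' σ = Q ρL(σ) P` is a representation of rank `d = dim W > 0` with `P ρ'(σ) = ρL(σ) P`.
Identities between matrices are transported from `ρL` to `ρ'` by `SubPiece.Rel`.
-/

set_option autoImplicit false
set_option linter.unusedSectionVars false

noncomputable section

namespace Fermat.Agent.GTor.H81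

open Fermat.Agent.GTor

section Sub

variable {𝒪 : Type} [CommRing 𝒪] [IsDomain 𝒪] {r : ℕ}

/-- a column of a matrix, viewed over the fraction field. -/
def colF {d : ℕ} (Y : Matrix (Fin r) (Fin d) 𝒪) (j : Fin d) : Fin r → FractionRing 𝒪 :=
  fun i => algebraMap 𝒪 (FractionRing 𝒪) (Y i j)

/-- a vector, viewed over the fraction field. -/
def vecF (v : Fin r → 𝒪) : Fin r → FractionRing 𝒪 :=
  fun i => algebraMap 𝒪 (FractionRing 𝒪) (v i)

/-- a matrix over the fraction field. -/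
abbrev matF (X : Matrix (Fin r) (Fin r) 𝒪) : Matrix (Fin r) (Fin r) (FractionRing 𝒪) :=
  X.map (algebraMap 𝒪 (FractionRing 𝒪))

theorem colF_mul {d : ℕ} (X : Matrix (Fin r) (Fin r) 𝒪) (Y : Matrix (Fin r) (Fin d) 𝒪)
    (j : Fin d) : colF (X * Y) j = (matF X).mulVec (colF Y j) := by
  funext i
  simp only [colF, Matrix.mul_apply, Matrix.mulVec, dotProduct, Matrix.map_apply, map_sum,
    map_mul]

theorem vecF_mulVec (X : Matrix (Fin r) (Fin r) 𝒪) (v : Fin r → 𝒪) :
    vecF (X.mulVec v) = (matF X).mulVec (vecF v) := by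
  funext i
  simp only [vecF, Matrix.mulVec, dotProduct, Matrix.map_apply, map_sum, map_mul]

theorem vecF_injective : Function.Injective (vecF : (Fin r → 𝒪) → (Fin r → FractionRing 𝒪)) := by
  intro v w h
  funext i
  exact IsFractionRing.injective 𝒪 (FractionRing 𝒪) (congrFun h i)

theorem colF_mulVec {d : ℕ} (Y : Matrix (Fin r) (Fin d) 𝒪) (v : Fin d → 𝒪) :
    vecF (Y.mulVec v) = ∑ j, algebraMap 𝒪 (FractionRing 𝒪) (v j) • colF Y j := by
  funext i
  simp only [vecF, colF, Matrix.mulVec, dotProduct, map_sum, map_mul, Finset.sum_apply,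
    Pi.smul_apply, smul_eq_mul]
  exact Finset.sum_congr rfl fun j _ => mul_comm _ _

theorem matF_Mc {R : Type} [CommRing R] (M : R →+* Matrix (Fin r) (Fin r) ℤ) (t : R) :
    matF (H58T1.Mc 𝒪 M t) = H58T1.Mc (FractionRing 𝒪) M t := by
  ext i j
  simp only [Matrix.map_apply, map_intCast]

variable {G : Type} [Group G]

/-- A piece of a matrix representation: intertwining matrices for a stable direct summand. -/
structure SubPiece (ρL : G →* Matrix (Fin r) (Fin r) 𝒪) where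
  /-- the rank of the piece. -/
  d : ℕ
  /-- the inclusion of the piece. -/
  P : Matrix (Fin r) (Fin d) 𝒪
  /-- a retraction. -/
  Q : Matrix (Fin d) (Fin r) 𝒪
  pos : 0 < d
  QP : Q * P = 1
  stab : ∀ σ, P * Q * (ρL σ * P) = ρL σ * P

namespace SubPiece

variable {ρL : G →* Matrix (Fin r) (Fin r) 𝒪} (Pc : SubPiece ρL)

/-- the representation on the piece. -/
def rep : G →* Matrix (Fin Pc.d) (Fin Pc.d) 𝒪 where
  toFun σ := Pc.Q * ρL σ * Pc.P
  map_one' := by rw [map_one, Matrix.mul_one, Pc.QP]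
  map_mul' σ τ := by
    rw [map_mul]
    calc Pc.Q * (ρL σ * ρL τ) * Pc.P = Pc.Q * ρL σ * (ρL τ * Pc.P) := by
          simp only [Matrix.mul_assoc]
      _ = Pc.Q * ρL σ * (Pc.P * Pc.Q * (ρL τ * Pc.P)) := by rw [Pc.stab τ]
      _ = Pc.Q * ρL σ * Pc.P * (Pc.Q * ρL τ * Pc.P) := by simp only [Matrix.mul_assoc]

theorem rep_apply (σ : G) : Pc.rep σ = Pc.Q * ρL σ * Pc.P := rfl

/-- `X` on the big module and `X'` on the piece are intertwined by the inclusion `P`. -/
def Rel (X : Matrix (Fin r) (Fin r) 𝒪) (X' : Matrix (Fin Pc.d) (Fin Pc.d) 𝒪) : Prop :=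
  X * Pc.P = Pc.P * X'

theorem rel_rep (σ : G) : Pc.Rel (ρL σ) (Pc.rep σ) := by
  show ρL σ * Pc.P = Pc.P * (Pc.Q * ρL σ * Pc.P)
  rw [Matrix.mul_assoc, ← Matrix.mul_assoc, Pc.stab σ]

theorem rel_one : Pc.Rel 1 1 := by
  show (1 : Matrix (Fin r) (Fin r) 𝒪) * Pc.P = Pc.P * 1
  rw [Matrix.one_mul, Matrix.mul_one]

theorem rel_zero : Pc.Rel 0 0 := by
  show (0 : Matrix (Fin r) (Fin r) 𝒪) * Pc.P = Pc.P * 0
  rw [Matrix.zero_mul, Matrix.mul_zero]

variable {Pc}

theorem Rel.out {X : Matrix (Fin r) (Fin r) 𝒪} {X' : Matrix (Fin Pc.d) (Fin Pc.d) 𝒪}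
    (h : Pc.Rel X X') : X * Pc.P = Pc.P * X' := h

theorem Rel.add {X Y : Matrix (Fin r) (Fin r) 𝒪} {X' Y' : Matrix (Fin Pc.d) (Fin Pc.d) 𝒪}
    (h : Pc.Rel X X') (h' : Pc.Rel Y Y') : Pc.Rel (X + Y) (X' + Y') := by
  show (X + Y) * Pc.P = Pc.P * (X' + Y')
  rw [Matrix.add_mul, Matrix.mul_add, h.out, h'.out]

theorem Rel.sub {X Y : Matrix (Fin r) (Fin r) 𝒪} {X' Y' : Matrix (Fin Pc.d) (Fin Pc.d) 𝒪}
    (h : Pc.Rel X X') (h' : Pc.Rel Y Y') : Pc.Rel (X - Y) (X' - Y') := by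
  show (X - Y) * Pc.P = Pc.P * (X' - Y')
  rw [Matrix.sub_mul, Matrix.mul_sub, h.out, h'.out]

theorem Rel.mul {X Y : Matrix (Fin r) (Fin r) 𝒪} {X' Y' : Matrix (Fin Pc.d) (Fin Pc.d) 𝒪}
    (h : Pc.Rel X X') (h' : Pc.Rel Y Y') : Pc.Rel (X * Y) (X' * Y') := by
  show X * Y * Pc.P = Pc.P * (X' * Y')
  rw [Matrix.mul_assoc, h'.out, ← Matrix.mul_assoc, h.out, Matrix.mul_assoc]

theorem Rel.smul (c : 𝒪) {X : Matrix (Fin r) (Fin r) 𝒪} {X' : Matrix (Fin Pc.d) (Fin Pc.d) 𝒪}
    (h : Pc.Rel X X') : Pc.Rel (c • X) (c • X') := by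
  show c • X * Pc.P = Pc.P * (c • X')
  rw [Matrix.smul_mul, Matrix.mul_smul, h.out]

theorem Rel.pow {X : Matrix (Fin r) (Fin r) 𝒪} {X' : Matrix (Fin Pc.d) (Fin Pc.d) 𝒪}
    (h : Pc.Rel X X') (n : ℕ) : Pc.Rel (X ^ n) (X' ^ n) := by
  induction n with
  | zero => simpa using Pc.rel_one
  | succ n ih => rw [pow_succ, pow_succ]; exact ih.mul h

/-- an identity on the big module holds on the piece. -/
theorem Rel.eq_zero {X : Matrix (Fin r) (Fin r) 𝒪} {X' : Matrix (Fin Pc.d) (Fin Pc.d) 𝒪}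
    (h : Pc.Rel X X') (hX : X * Pc.P = 0) : X' = 0 := by
  have h1 : Pc.P * X' = 0 := by rw [← h.out, hX]
  calc X' = Pc.Q * Pc.P * X' := by rw [Pc.QP, Matrix.one_mul]
    _ = Pc.Q * (Pc.P * X') := Matrix.mul_assoc _ _ _
    _ = 0 := by rw [h1, Matrix.mul_zero]

theorem Rel.eq_zero' {X : Matrix (Fin r) (Fin r) 𝒪} {X' : Matrix (Fin Pc.d) (Fin Pc.d) 𝒪}
    (h : Pc.Rel X X') (hX : X = 0) : X' = 0 :=
  h.eq_zero (by rw [hX, Matrix.zero_mul])

/-- a scalar on the piece. -/
theorem rel_of_eig {X : Matrix (Fin r) (Fin r) 𝒪} {c : 𝒪} (h : X * Pc.P = c • Pc.P) :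
    Pc.Rel X (c • (1 : Matrix (Fin Pc.d) (Fin Pc.d) 𝒪)) := by
  show X * Pc.P = Pc.P * (c • (1 : Matrix (Fin Pc.d) (Fin Pc.d) 𝒪))
  rw [h, Matrix.mul_smul, Matrix.mul_one]

theorem P_mulVec_injective : Function.Injective (fun v : Fin Pc.d → 𝒪 => Pc.P.mulVec v) := by
  intro v w h
  have h' : Pc.P.mulVec v = Pc.P.mulVec w := h
  have := congrArg (fun u => Pc.Q.mulVec u) h'
  simpa [Matrix.mulVec_mulVec, Pc.QP] using this

theorem Rel.mulVec {X : Matrix (Fin r) (Fin r) 𝒪} {X' : Matrix (Fin Pc.d) (Fin Pc.d) 𝒪}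
    (h : Pc.Rel X X') (v : Fin Pc.d → 𝒪) : X.mulVec (Pc.P.mulVec v) = Pc.P.mulVec (X'.mulVec v) := by
  rw [Matrix.mulVec_mulVec, Matrix.mulVec_mulVec, h.out]

end SubPiece

/-- **Pieces from stable subspaces.** -/
theorem exists_subPiece (hLat : S30.Stmt_Lattice) [IsPrincipalIdealRing 𝒪]
    (ρL : G →* Matrix (Fin r) (Fin r) 𝒪)
    (W : Submodule (FractionRing 𝒪) (Fin r → FractionRing 𝒪)) (hW : W ≠ ⊥)
    (hstab : ∀ σ, ∀ w ∈ W, (matF (ρL σ)).mulVec w ∈ W) :
    ∃ Pc : SubPiece ρL, ∀ j, colF Pc.P j ∈ W := by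
  obtain ⟨P, Q, hQP, hPW, hfix⟩ := hLat 𝒪 (FractionRing 𝒪) r W
  have hd : 0 < Module.finrank (FractionRing 𝒪) W := by
    have : Nontrivial W := Submodule.nontrivial_iff_ne_bot.mpr hW
    exact Module.finrank_pos
  refine ⟨⟨_, P, Q, hd, hQP, fun σ => ?_⟩, hPW⟩
  ext i j
  have hcol : colF (ρL σ * P) j ∈ W := by
    rw [colF_mul]
    exact hstab σ _ (hPW j)
  have h := congrFun (hfix (fun i => (ρL σ * P) i j) hcol) i
  rw [Matrix.mul_assoc]
  simp only [Matrix.mulVec, dotProduct] at h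
  simp only [Matrix.mul_apply]
  exact h

end Sub

end Fermat.Agent.GTor.H81

end
end
-- ==== END Fermat.Agent.GTor.H81_PieceAbs

-- ==== BEGIN Fermat.Agent.GTor.H81_T2c
section

/-!
# G-TOR plumbing T2, part c: coordinates on `J₀(N)[p^k]` and the matrices of the Galois action
(helper81)
-/

set_option autoImplicit false

noncomputable section

namespace Fermat.Agent.GTor.H81

open AlgebraicCurve ModularCurve Fermat.Agent.GTor Fermat.Agent.Betti
open scoped MatrixGroups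

/-- the `n`-torsion of `J₀(N)`. -/
abbrev Jtor (N n : ℕ) [NeZero N] : AddSubgroup (JZero N) :=
  Pic0.torsion (AlgebraicClosure ℚ) (modularFunctionFieldBar N) n

section Theta

variable {N : ℕ} [NeZero N] {ι : AlgebraicClosure ℚ →+* ℂ}
  {r : ℕ} {b : Fin r → (Additive (CongruenceSubgroup.Gamma0 N) →+ ℤ)}
  (hb : IsParBasis N b) (hL : Stmt_torsLift N)

/-- The data of the torsion dictionary at level `n`. -/
structure TorIso (N n : ℕ) [NeZero N] (ι : AlgebraicClosure ℚ →+* ℂ) where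
  e : Jtor N n ≃+ homPE (CongruenceSubgroup.Gamma0 N) (ZMod n)
  spec : ∀ x : Jtor N n, TorChar N n ι (x : JZero N)
    ((e x : homPE (CongruenceSubgroup.Gamma0 N) (ZMod n)) :
      Additive (CongruenceSubgroup.Gamma0 N) →+ ZMod n)
  uniq : ∀ (x : Jtor N n) (φ : Additive (CongruenceSubgroup.Gamma0 N) →+ ZMod n),
    TorChar N n ι (x : JZero N) φ →
      φ = ((e x : homPE (CongruenceSubgroup.Gamma0 N) (ZMod n)) :
        Additive (CongruenceSubgroup.Gamma0 N) →+ ZMod n)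

theorem nonempty_torIso {n : ℕ} (h : Stmt_TORc N n) (ι : AlgebraicClosure ℚ →+* ℂ) :
    Nonempty (TorIso N n ι) := by
  obtain ⟨e, h1, h2⟩ := h ι
  exact ⟨⟨e, h1, h2⟩⟩

variable {n : ℕ} (hn : n ≠ 0) (E : TorIso N n ι)

/-- coordinates on `J₀(N)[n]`. -/
def theta : Jtor N n ≃+ (Fin r → ZMod n) :=
  E.e.trans (coordEquiv n hb hL hn).symm

theorem coordFun_theta (x : Jtor N n) :
    coordFun b n (theta hb hL hn E x) =
      ((E.e x : homPE (CongruenceSubgroup.Gamma0 N) (ZMod n)) :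
        Additive (CongruenceSubgroup.Gamma0 N) →+ ZMod n) := by
  rw [← coe_coordEquiv n hb hL hn]
  congr 1
  exact (coordEquiv n hb hL hn).apply_symm_apply (E.e x)

theorem torChar_theta (x : Jtor N n) :
    TorChar N n ι (x : JZero N) (coordFun b n (theta hb hL hn E x)) := by
  rw [coordFun_theta]
  exact E.spec x

theorem theta_eq_of_torChar (x : Jtor N n) (a : Fin r → ZMod n)
    (h : TorChar N n ι (x : JZero N) (coordFun b n a)) : theta hb hL hn E x = a := by
  have h1 := E.uniq x _ h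
  have h2 : coordEquiv n hb hL hn a = E.e x := Subtype.ext (by rw [coe_coordEquiv]; exact h1)
  show (coordEquiv n hb hL hn).symm (E.e x) = a
  rw [← h2, AddEquiv.symm_apply_apply]

/-- `theta` as a `ZMod n`-linear equivalence. -/
def thetaLin : Jtor N n ≃ₗ[ZMod n] (Fin r → ZMod n) :=
  { theta hb hL hn E with
    map_smul' := fun c x => ZMod.map_smul (theta hb hL hn E).toAddMonoidHom c x }

@[simp]
theorem thetaLin_apply (x : Jtor N n) : thetaLin hb hL hn E x = theta hb hL hn E x := rfl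

/-- the matrix of a Galois element on `J₀(N)[n]`. -/
def rhoMat : GQ →* Matrix (Fin r) (Fin r) (ZMod n) :=
  ((LinearMap.toMatrixAlgEquiv' : Module.End (ZMod n) (Fin r → ZMod n) ≃ₐ[ZMod n]
      Matrix (Fin r) (Fin r) (ZMod n)).toRingEquiv.toMonoidHom.comp
    (thetaLin hb hL hn E).conjRingEquiv.toMonoidHom).comp (JZero.torsionGaloisRep N n)

theorem rhoMat_mulVec (σ : GQ) (x : Jtor N n) :
    (rhoMat hb hL hn E σ).mulVec (theta hb hL hn E x) =
      theta hb hL hn E (JZero.torsionGaloisRep N n σ x) := by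
  show (LinearMap.toMatrixAlgEquiv' ((thetaLin hb hL hn E).conjRingEquiv
    (JZero.torsionGaloisRep N n σ))).mulVec (theta hb hL hn E x) = _
  rw [← Matrix.toLinAlgEquiv'_apply, Matrix.toLinAlgEquiv'_toMatrixAlgEquiv']
  have h : (thetaLin hb hL hn E).symm (theta hb hL hn E x) = x :=
    (thetaLin hb hL hn E).symm_apply_apply x
  simp [LinearEquiv.conjRingEquiv, h]

theorem matrix_ext_theta {A B : Matrix (Fin r) (Fin r) (ZMod n)}
    (h : ∀ x : Jtor N n, A.mulVec (theta hb hL hn E x) = B.mulVec (theta hb hL hn E x)) :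
    A = B := by
  apply Matrix.mulVec_injective
  funext v
  obtain ⟨x, rfl⟩ := (theta hb hL hn E).surjective v
  exact h x

end Theta

end Fermat.Agent.GTor.H81

end
end
-- ==== END Fermat.Agent.GTor.H81_T2c

-- ==== BEGIN Fermat.Agent.R.H58_HeckeReduced
section

/-!
# Cluster R, leaf L3a in the shape of `Fermat/Agent/R/Leaves.lean` (helper58; proof = Pet).
-/

set_option autoImplicit false

namespace Fermat.Agent.R.H58

/-- **L3a**: `Stmt_HeckeReduced`. -/
theorem stmt_HeckeReduced : Fermat.Agent.R.Stmt_HeckeReduced :=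
  fun N _ S hS => Fermat.Agent.R.Pet.heckeAlgebra_isReduced N 2 S hS

end Fermat.Agent.R.H58

end
-- ==== END Fermat.Agent.R.H58_HeckeReduced

-- ==== BEGIN Fermat.Agent.RED.H10_ConsInt
section

/-!
# G-RED package CONS (helper10), part C2: integrality on a chart

* `valHom P hdeg : O_P →+* K` : the value of a regular function at a place of degree one, as a
  ring homomorphism; `ordGe_sub_valHom`, `valHom_eq_of_ordGe`.
* `mem_of_isIntegral_adjoin` : `B ⊂ O_P` if `x ∈ O_P`.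
* `chartIntegral` : `GoodChart S x hx → ChartIntegral S x hx` (C2), from helper34's (INT)
  `H34.RedSetting.exists_monic_of_mem`.
-/

set_option autoImplicit false

noncomputable section

open AlgebraicCurve Polynomial IntermediateField

namespace Fermat.Agent.RED.H10

open Fermat.Agent.RED.H34 Fermat.Agent.RED.H34.RedSetting Fermat.Agent.RED.H51
  Fermat.Agent.RED.H79

section ValHom

variable {K F : Type*} [Field K] [Field F] [Algebra K F]

theorem ordGe_one_iff_vanAt (v : Place K F) (f : F) : OrdGe v 1 f ↔ H17.VanAt v f := by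
  rw [H17.vanAt_iff_ord]
  unfold OrdGe
  constructor
  · rintro (h | h)
    · exact Or.inl h
    · exact Or.inr (by omega)
  · rintro (h | h)
    · exact Or.inl h
    · exact Or.inr (by omega)

theorem ordGe_one_iff_mem_maximalIdeal (v : Place K F) (a : ↥v.toValuationSubring) :
    OrdGe v 1 (a : F) ↔ a ∈ IsLocalRing.maximalIdeal ↥v.toValuationSubring := by
  rw [ordGe_one_iff_vanAt]
  unfold H17.VanAt
  rw [v.adicValuation_coe]
  exact IsDedekindDomain.HeightOneSpectrum.intValuation_lt_one_iff_mem _ _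

/-- The value at a place of degree one, as a ring homomorphism `O_P → K`. -/
def valHom (v : Place K F) (hdeg : v.deg = 1) : ↥v.toValuationSubring →+* K :=
  ((RingEquiv.ofBijective (algebraMap K v.ResidueField)
    (Algebra.finrank_eq_one_iff_bijective_algebraMap.mp hdeg)).symm : v.ResidueField →+* K).comp
    (IsLocalRing.residue ↥v.toValuationSubring)

theorem algebraMap_valHom (v : Place K F) (hdeg : v.deg = 1) (a : ↥v.toValuationSubring) :
    algebraMap K v.ResidueField (valHom v hdeg a) = IsLocalRing.residue _ a := by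
  unfold valHom
  exact (RingEquiv.ofBijective (algebraMap K v.ResidueField)
    (Algebra.finrank_eq_one_iff_bijective_algebraMap.mp hdeg)).apply_symm_apply _

theorem valHom_algebraMap (v : Place K F) (hdeg : v.deg = 1) (c : K) :
    valHom v hdeg (algebraMap K ↥v.toValuationSubring c) = c := by
  have hinj : Function.Injective (algebraMap K v.ResidueField) :=
    (Algebra.finrank_eq_one_iff_bijective_algebraMap.mp hdeg).1
  apply hinj
  rw [algebraMap_valHom]
  rfl

theorem ordGe_sub_valHom (v : Place K F) (hdeg : v.deg = 1) (a : ↥v.toValuationSubring) :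
    OrdGe v 1 ((a : F) - algebraMap K F (valHom v hdeg a)) := by
  have h1 : (a : F) - algebraMap K F (valHom v hdeg a) =
      ((a - algebraMap K ↥v.toValuationSubring (valHom v hdeg a) : ↥v.toValuationSubring) : F) :=
    rfl
  rw [h1, ordGe_one_iff_mem_maximalIdeal, ← IsLocalRing.residue_eq_zero_iff, map_sub,
    ← algebraMap_valHom v hdeg a, sub_eq_zero]
  rfl

theorem valHom_eq_of_ordGe (v : Place K F) (hdeg : v.deg = 1) (a : ↥v.toValuationSubring)
    {c : K} (h : OrdGe v 1 ((a : F) - algebraMap K F c)) : valHom v hdeg a = c := by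
  have h1 := ordGe_sub_valHom v hdeg a
  rw [ordGe_one_iff_vanAt] at h h1
  exact H17.value_unique v h1 h

theorem mem_of_ordGe_one_sub (v : Place K F) {f : F} {c : K}
    (h : OrdGe v 1 (f - algebraMap K F c)) : f ∈ v.toValuationSubring := by
  rw [ordGe_one_iff_vanAt] at h
  exact (H17.regAt_iff_mem v f).mp (H17.RegAt.of_vanAt_sub h)

end ValHom

section Chart

variable {C F k Ft : Type} [Field C] [Field F] [Algebra C F] [Field k] [Field Ft] [Algebra k Ft]
variable {S : RedSetting C F k Ft} {x : F} (hx : x ∈ S.V)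

/-- The ring hom `O[X] → F`, `X ↦ x`. -/
def phiF (S : RedSetting C F k Ft) (x : F) : (↥S.O)[X] →+* F :=
  ((Polynomial.aeval x : C[X] →ₐ[C] F) : C[X] →+* F).comp (Polynomial.mapRingHom S.O.subtype)

theorem phiF_C (a : ↥S.O) : phiF S x (Polynomial.C a) = algebraMap C F (a : C) := by
  simp [phiF]

theorem phiF_X : phiF S x Polynomial.X = x := by
  simp [phiF]

theorem subtype_comp_psi : S.V.subtype.comp (psi hx) = phiF S x := by
  apply Polynomial.ringHom_ext
  · intro a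
    rw [phiF_C]
    simp [psi]
  · rw [phiF_X]
    simp [psi]

/-- **(INT)** in `F`: an element of `B ∩ V` satisfies a monic equation over `O[x]`. -/
theorem exists_monic_phiF [CharZero C] (hxt : Transcendental k (S.red ⟨x, hx⟩))
    [FiniteDimensional ↥C⟮x⟯ F]
    (hdeg : Module.finrank ↥k⟮S.red ⟨x, hx⟩⟯ Ft = Module.finrank ↥C⟮x⟯ F)
    (f : F) (hfi : IsIntegral ↥(Algebra.adjoin C {x}) f) (hfV : f ∈ S.V) :
    ∃ Φ : ((↥S.O)[X])[X], Φ.Monic ∧ Polynomial.eval₂ (phiF S x) f Φ = 0 := by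
  obtain ⟨Φ, hΦ, h0⟩ := exists_monic_of_mem hx hxt hdeg (⟨f, hfi⟩ : ↥(Bx (C := C) x)) hfV
  refine ⟨Φ, hΦ, ?_⟩
  have h1 := congrArg ((Bx (C := C) x).toSubring.subtype) h0
  rw [Polynomial.hom_eval₂, map_zero] at h1
  have h2 : ((Bx (C := C) x).toSubring.subtype).comp
      ((algebraMap ↥(Algebra.adjoin C {x}) ↥(Bx (C := C) x)).comp
        (S.psiR (transcendental_x hx hxt))) = phiF S x := by
    apply Polynomial.ringHom_ext
    · intro a
      rw [phiF_C]
      show ((S.psiR (transcendental_x hx hxt) (Polynomial.C a) : ↥(Algebra.adjoin C {x})) : F) = _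
      rw [coe_psiR hx]
      simp [psi]
    · rw [phiF_X]
      show ((S.psiR (transcendental_x hx hxt) Polynomial.X : ↥(Algebra.adjoin C {x})) : F) = _
      rw [coe_psiR hx]
      simp [psi]
  rw [h2] at h1
  exact h1

/-- `B ⊂ O_P` for the places `P` finite over `x`. -/
theorem mem_of_isIntegral_adjoin (P : Place C F) (hxP : x ∈ P.toValuationSubring) (f : F)
    (hfi : IsIntegral ↥(Algebra.adjoin C {x}) f) : f ∈ P.toValuationSubring := by
  have hle : ∀ a : ↥(Algebra.adjoin C {x}), (a : F) ∈ P.toValuationSubring := by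
    intro a
    have h1 : Algebra.adjoin C {x} ≤
        { P.toValuationSubring.toSubring with
          algebraMap_mem' := fun c => P.algebraMap_mem' c } := by
      apply Algebra.adjoin_le
      intro y hy
      rw [Set.mem_singleton_iff] at hy
      rw [hy]
      exact hxP
    exact h1 a.2
  let j : ↥(Algebra.adjoin C {x}) →+* ↥P.toValuationSubring :=
    { toFun := fun a => ⟨(a : F), hle a⟩
      map_one' := rfl
      map_mul' := fun _ _ => rfl
      map_zero' := rfl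
      map_add' := fun _ _ => rfl }
  obtain ⟨p, hp, h0⟩ := hfi
  have hint : IsIntegral ↥P.toValuationSubring f := by
    refine ⟨p.map j, hp.map j, ?_⟩
    rw [Polynomial.eval₂_map]
    exact h0
  obtain ⟨y, hy⟩ := IsIntegrallyClosed.isIntegral_iff.mp hint
  rw [← hy]
  exact y.2

/-- **(C2)** integrality on the chart. -/
theorem chartIntegral [IsAlgClosed C] [CharZero C] (hFF : IsFF C F) (gc : GoodChart S x hx) :
    ChartIntegral S x hx := by
  have hxt := gc.transc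
  have := gc.fin
  intro f hfi
  obtain ⟨Φ, hΦ, h0⟩ := exists_monic_phiF hx hxt gc.deg (f : F) hfi f.2
  refine ⟨?_, ?_⟩
  · -- the reduction is integral over `k[xt]`
    have h1 : Polynomial.eval₂ (psi hx) f Φ = 0 := by
      apply Subtype.ext
      have := Polynomial.hom_eval₂ Φ (psi hx) S.V.subtype f
      rw [subtype_comp_psi] at this
      exact this.trans h0
    have h2 := congrArg S.red h1
    rw [Polynomial.hom_eval₂, map_zero] at h2
    let g : (↥S.O)[X] →+* ↥(Algebra.adjoin k {S.red ⟨x, hx⟩}) :=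
      ((polyEquiv hxt).toRingEquiv.toRingHom).comp (Polynomial.mapRingHom S.resO)
    have h3 : S.red.comp (psi hx) =
        (algebraMap ↥(Algebra.adjoin k {S.red ⟨x, hx⟩}) Ft).comp g := by
      refine RingHom.ext fun p₀ => ?_
      show S.red (psi hx p₀) = _
      rw [red_psi]
      exact (coe_polyEquiv hxt _).symm
    rw [h3] at h2
    refine ⟨Φ.map g, hΦ.map g, ?_⟩
    rw [Polynomial.eval₂_map]
    exact h2
  · -- values in `O`
    rintro P ⟨ρ, hρ, hP⟩
    have hdeg : P.deg = 1 := H51.stmt_FFB_deg C F hFF P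
    have hxP : x ∈ P.toValuationSubring := mem_of_ordGe_one_sub P hP
    have hfP : (f : F) ∈ P.toValuationSubring := mem_of_isIntegral_adjoin P hxP _ hfi
    -- the ring hom `O[X] → O_P`
    let ιO : ↥S.O →+* ↥P.toValuationSubring :=
      { toFun := fun a => ⟨algebraMap C F (a : C), P.algebraMap_mem' _⟩
        map_one' := by apply Subtype.ext; simp
        map_mul' := fun _ _ => by apply Subtype.ext; simp
        map_zero' := by apply Subtype.ext; simp
        map_add' := fun _ _ => by apply Subtype.ext; simp }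
    let ψP : (↥S.O)[X] →+* ↥P.toValuationSubring := Polynomial.eval₂RingHom ιO ⟨x, hxP⟩
    have hψ : P.toValuationSubring.subtype.comp ψP = phiF S x := by
      apply Polynomial.ringHom_ext
      · intro a
        rw [phiF_C]
        simp [ψP, ιO]
      · rw [phiF_X]
        simp [ψP]
    have h1 : Polynomial.eval₂ ψP (⟨(f : F), hfP⟩ : ↥P.toValuationSubring) Φ = 0 := by
      apply Subtype.ext
      have := Polynomial.hom_eval₂ Φ ψP P.toValuationSubring.subtype ⟨(f : F), hfP⟩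
      rw [hψ] at this
      exact this.trans h0
    have h2 := congrArg (valHom P hdeg) h1
    rw [Polynomial.hom_eval₂, map_zero] at h2
    set a : C := valHom P hdeg ⟨(f : F), hfP⟩ with ha
    have h3 : (valHom P hdeg).comp ψP =
        S.O.subtype.comp (Polynomial.evalRingHom (⟨ρ, hρ⟩ : ↥S.O)) := by
      apply Polynomial.ringHom_ext
      · intro c
        simp only [RingHom.comp_apply, Polynomial.coe_evalRingHom, Polynomial.eval_C]
        have : ψP (Polynomial.C c) = algebraMap C ↥P.toValuationSubring (c : C) := by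
          apply Subtype.ext
          simp [ψP, ιO]
        rw [this, valHom_algebraMap]
        rfl
      · simp only [RingHom.comp_apply, Polynomial.coe_evalRingHom, Polynomial.eval_X]
        have : ψP Polynomial.X = ⟨x, hxP⟩ := by simp [ψP]
        rw [this]
        exact valHom_eq_of_ordGe P hdeg ⟨x, hxP⟩ hP
    rw [h3] at h2
    have hint : IsIntegral ↥S.O a := by
      refine ⟨Φ.map (Polynomial.evalRingHom (⟨ρ, hρ⟩ : ↥S.O)), hΦ.map _, ?_⟩
      rw [Polynomial.eval₂_map]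
      exact h2
    obtain ⟨y, hy⟩ := IsIntegrallyClosed.isIntegral_iff.mp hint
    refine ⟨y, ?_⟩
    have : ((y : ↥S.O) : C) = a := hy
    rw [this, ha]
    exact ordGe_sub_valHom P hdeg ⟨(f : F), hfP⟩

end Chart

end Fermat.Agent.RED.H10

end
end
-- ==== END Fermat.Agent.RED.H10_ConsInt

-- ==== BEGIN Fermat.Agent.RED.H12_ZeroAll
section

set_option autoImplicit false

namespace Fermat.Agent.RED.H12

open IntermediateField AlgebraicCurve

theorem existsZeroAll : Fermat.Agent.RED.H42.ExistsZeroAll := by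
  intro K F _ _ _ _ hFF x hx
  obtain ⟨x₀, hx₀, hfin₀⟩ := hFF
  have : FiniteDimensional K⟮x₀⟯ F := hfin₀
  exact exists_place_ord_pos
    (fun y hy => Fermat.Agent.S24.ff_finite_of_transcendental x₀ hx₀ y hy) x hx

end Fermat.Agent.RED.H12

end
-- ==== END Fermat.Agent.RED.H12_ZeroAll

-- ==== BEGIN Fermat.Agent.RED.H17_Pole
section

/-!
# G-RED / TI route C (helper17), part 6: the pole analysis on the reduced curve

`pole_analysis`: on a function field with a non-special reduced divisor `A`, let `s̄_Q` (`Q ∈ A`)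
have a simple zero at `Q` and no zero at the other points of `A`.  If
`φ̄ = ᾱ - m ∑_Q b_Q / s̄_Q` (`b_Q` constants, `ᾱ` regular on `A`, `m ≠ 0`) is regular outside `A`
and vanishes at some place outside `A`, then `ᾱ = 0` and all `b_Q = 0`.

`RedSetup.exists_scale_max`: a common scale for finitely many elements of the maximal ideal.
-/

set_option autoImplicit false
set_option linter.style.haveILetI false

noncomputable section

open AlgebraicCurve

attribute [local instance] Classical.propDecidable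

namespace Fermat.Agent.RED.H17

local notation "L" => riemannRochSpace

section Pole

variable {k F' : Type*} [Field k] [Field F'] [Algebra k F']

theorem pole_analysis (A : Finset (Place k F'))
    (hA : ∀ y ∈ L (ptsDiv A), ∃ a : k, y = algebraMap k F' a)
    (sb : Place k F' → F') (hsb1 : ∀ Q ∈ A, Q.ord (sb Q) = 1)
    (hsb0 : ∀ Q ∈ A, ∀ Q' ∈ A, Q' ≠ Q → Q'.ord (sb Q) = 0)
    (m : ℕ) (hm : (m : k) ≠ 0) (b : Place k F' → k) (αb : F')
    (hα : ∀ Q ∈ A, RegAt Q αb) (φb : F')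
    (hφ : φb = αb - (m : F') * ∑ Q ∈ A, algebraMap k F' (b Q) / sb Q)
    (hφreg : ∀ Q, Q ∉ A → RegAt Q φb) (Qinf : Place k F')
    (hφinf : VanAt Qinf φb) :
    αb = 0 ∧ ∀ Q ∈ A, b Q = 0 := by
  have hsbne : ∀ Q ∈ A, sb Q ≠ 0 := by
    intro Q hQ h0
    have := hsb1 Q hQ
    rw [h0, Place.ord_zero] at this
    omega
  have hmF : (m : F') = algebraMap k F' (m : k) := (map_natCast (algebraMap k F') m).symm
  -- the regular part of the sum
  set T : Place k F' → F' := fun Q =>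
    ∑ Q' ∈ A.erase Q, algebraMap k F' (b Q') * (sb Q * (sb Q')⁻¹) with hT
  have hTvan : ∀ Q ∈ A, VanAt Q (T Q) := by
    intro Q hQ
    apply VanAt.sum
    intro Q' hQ'
    have hQ'A : Q' ∈ A := Finset.mem_of_mem_erase hQ'
    have hne : Q' ≠ Q := Finset.ne_of_mem_erase hQ'
    have h1 : VanAt Q (sb Q) := vanAt_of_ord_pos (by rw [hsb1 Q hQ]; exact one_pos)
    have h2 : RegAt Q (sb Q')⁻¹ := regAt_inv_of_ord_eq_zero (hsb0 Q' hQ'A Q hQ (Ne.symm hne))
    exact (regAt_algebraMap Q _).mul_vanAt (h1.mul_regAt h2)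
  have hid : ∀ Q ∈ A, sb Q * φb =
      sb Q * αb - algebraMap k F' ((m : k) * b Q) - (m : F') * T Q := by
    intro Q hQ
    have hne := hsbne Q hQ
    have e1 : sb Q * ∑ Q' ∈ A.erase Q, algebraMap k F' (b Q') / sb Q' = T Q := by
      rw [hT, Finset.mul_sum]
      apply Finset.sum_congr rfl
      intro Q' _
      rw [div_eq_mul_inv]
      ring
    have e2 : sb Q * (algebraMap k F' (b Q) / sb Q) = algebraMap k F' (b Q) :=
      mul_div_cancel₀ _ hne
    rw [hφ, ← Finset.add_sum_erase A _ hQ, map_mul, ← hmF]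
    linear_combination (-(m : F')) * e2 + (-(m : F')) * e1
  -- `φb` lies in `L(A)`
  have hreg : ∀ Q ∈ A, RegAt Q (sb Q * φb) := by
    intro Q hQ
    rw [hid Q hQ]
    have h1 : RegAt Q (sb Q) := regAt_of_ord_nonneg (by rw [hsb1 Q hQ]; exact zero_le_one)
    refine ((h1.mul (hα Q hQ)).sub (regAt_algebraMap Q _)).sub ?_
    rw [hmF]
    exact (regAt_algebraMap Q _).mul (hTvan Q hQ).regAt
  have hmem : φb ∈ L (ptsDiv A) := by
    rw [mem_L_iff_ord]
    intro Q
    by_cases h0 : φb = 0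
    · exact Or.inl h0
    right
    rw [ptsDiv_apply]
    split_ifs with hQ
    · have h1 := (hreg Q hQ).ord_nonneg
      rw [Q.ord_mul (hsbne Q hQ) h0, hsb1 Q hQ] at h1
      omega
    · have := (hφreg Q hQ).ord_nonneg
      omega
  obtain ⟨c₀, hc₀⟩ := hA φb hmem
  have hφ0 : φb = 0 := by
    rw [hc₀] at hφinf
    rw [hc₀, const_eq_zero_of_vanAt hφinf, map_zero]
  have hb : ∀ Q ∈ A, b Q = 0 := by
    intro Q hQ
    have h1 := hid Q hQ
    rw [hφ0, mul_zero] at h1
    have h2 : algebraMap k F' ((m : k) * b Q) = sb Q * αb - (m : F') * T Q := by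
      linear_combination h1
    have h3 : VanAt Q (algebraMap k F' ((m : k) * b Q)) := by
      rw [h2]
      have h4 : VanAt Q (sb Q) := vanAt_of_ord_pos (by rw [hsb1 Q hQ]; exact one_pos)
      refine (h4.mul_regAt (hα Q hQ)).sub ?_
      rw [hmF]
      exact (regAt_algebraMap Q _).mul_vanAt (hTvan Q hQ)
    have h5 := const_eq_zero_of_vanAt h3
    exact (mul_eq_zero.mp h5).resolve_left hm
  refine ⟨?_, hb⟩
  have h6 : ∑ Q ∈ A, algebraMap k F' (b Q) / sb Q = 0 :=
    Finset.sum_eq_zero fun Q hQ => by rw [hb Q hQ, map_zero, zero_div]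
  rw [hφ0, h6, mul_zero, sub_zero] at hφ
  exact hφ.symm

end Pole

namespace RedSetup

variable {K F k F' : Type*} [Field K] [Field F] [Algebra K F] [Field k] [Field F']
  [Algebra k F'] (S : RedSetup K F k F')

theorem natCast_mem_V (n : ℕ) : (n : F) ∈ S.V := natCast_mem S.V n

theorem rd_natCast (n : ℕ) : S.rd (n : F) = (n : F') := by
  rw [S.rd_of_mem (S.natCast_mem_V n)]
  have : (⟨(n : F), S.natCast_mem_V n⟩ : S.V) = (n : S.V) := rfl
  rw [this, map_natCast]

/-- A common scale for finitely many elements of the maximal ideal, not all zero. -/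
theorem exists_scale_max (I : Finset F) (hI : ∀ z ∈ I, z ∈ S.V ∧ S.rd z = 0)
    (hne : ∃ z ∈ I, z ≠ 0) :
    ∃ c : K, c ≠ 0 ∧ algebraMap K F c⁻¹ ∈ S.V ∧ S.rd (algebraMap K F c⁻¹) = 0 ∧
      (∀ z ∈ I, algebraMap K F c * z ∈ S.V) ∧ ∃ z ∈ I, S.IsGU (algebraMap K F c * z) := by
  obtain ⟨z₁, hz₁, hz₁0⟩ := hne
  obtain ⟨z₀, hz₀, hmax⟩ := I.exists_max_image S.V.valuation ⟨z₁, hz₁⟩
  have hz₀0 : z₀ ≠ 0 := by
    rintro rfl
    have := hmax z₁ hz₁
    rw [map_zero, le_zero_iff, Valuation.zero_iff] at this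
    exact hz₁0 this
  obtain ⟨c, hc, hGU⟩ := S.exists_isGU_scale hz₀0
  have hcF : algebraMap K F c ≠ 0 := (map_ne_zero_iff _ (algebraMap K F).injective).mpr hc
  have hd : algebraMap K F c⁻¹ = z₀ * (algebraMap K F c * z₀)⁻¹ := by
    rw [map_inv₀]
    field_simp
  refine ⟨c, hc, ?_, ?_, ?_, z₀, hz₀, hGU⟩
  · rw [hd]
    exact S.V.mul_mem _ _ (hI z₀ hz₀).1 hGU.inv_mem
  · rw [hd, S.rd_mul (hI z₀ hz₀).1 hGU.inv_mem, (hI z₀ hz₀).2, zero_mul]
  · intro z hz
    rw [← ValuationSubring.valuation_le_one_iff, map_mul]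
    calc S.V.valuation (algebraMap K F c) * S.V.valuation z
        ≤ S.V.valuation (algebraMap K F c) * S.V.valuation z₀ :=
          mul_le_mul_right (hmax z hz) _
      _ = S.V.valuation (algebraMap K F c * z₀) := (map_mul _ _ _).symm
      _ ≤ 1 := (ValuationSubring.valuation_le_one_iff _ _).mpr hGU.1

end RedSetup

end Fermat.Agent.RED.H17

end
end
-- ==== END Fermat.Agent.RED.H17_Pole
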