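-- GENERATED (merged mirror, NOTES/tools/trim/merge3_helper67.py): 8 modules of the originals, bodies verbatim.
import Mathlib
import Fermat.Prelude.Def_ModularCurve_JqCoeff
import Fermat.Prelude.Def_ModularCurve_X0ModL
import Fermat.Agent.Zm.S35_L05_002
import Fermat.Agent.Zm.S35_L03_003
import Fermat.Agent.Zm.S35_L05_003
import Fermat.Agent.Zm.S35_L01_002
import Fermat.Agent.Zm.S35_L05_004
import Fermat.Agent.Zm.S35_L01_004
import Fermat.Agent.Zm.S35_L02_004

-- ==== BEGIN Fermat.Agent.RED.H34_IntCons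
section

/-!
# G-RED package IG (helper34): consequences of (INT)

* `red_isIntegral` : the reduction of an element of `B ∩ V` is integral over `k[xt]`.
* `evP_mem_O` : the value of an element of `B ∩ V` at a point over `ρ ∈ O` lies in `O`.
-/

set_option autoImplicit false

noncomputable section

open Polynomial IntermediateField Module
open scoped IntermediateField.algebraAdjoinAdjoin nonZeroDivisors

namespace Fermat.Agent.RED.H34

variable {C F k Ft : Type} [Field C] [Field F] [Algebra C F] [Field k] [Field Ft] [Algebra k Ft]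

namespace RedSetting

variable {S : RedSetting C F k Ft} {x : F} (hx : x ∈ S.V)

/-- The ring hom `O[X] → k[xt]`. -/
def psiT (S : RedSetting C F k Ft) (hx : x ∈ S.V) :
    (↥S.O)[X] →+* ↥(Algebra.adjoin k {S.red ⟨x, hx⟩}) :=
  ((Polynomial.aeval (genX (S.red ⟨x, hx⟩)) :
      k[X] →ₐ[k] ↥(Algebra.adjoin k {S.red ⟨x, hx⟩})) : k[X] →+* _).comp
    (Polynomial.mapRingHom S.resO)

theorem coe_psiT (p₀ : (↥S.O)[X]) :
    ((S.psiT hx p₀ : ↥(Algebra.adjoin k {S.red ⟨x, hx⟩})) : Ft) = S.red (psi hx p₀) := by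
  rw [red_psi]
  show ((Polynomial.aeval (genX (S.red ⟨x, hx⟩)) (p₀.map S.resO) :
    ↥(Algebra.adjoin k {S.red ⟨x, hx⟩})) : Ft) = _
  rw [← Subalgebra.coe_val, ← Polynomial.aeval_algHom_apply]
  rfl


/-- The reduction of an element of `B ∩ V` is integral over `k[xt]`. -/
theorem red_isIntegral [CharZero C] (hxt : Transcendental k (S.red ⟨x, hx⟩)) [FiniteDimensional ↥C⟮x⟯ F]
    (hdeg : Module.finrank ↥k⟮S.red ⟨x, hx⟩⟯ Ft = Module.finrank ↥C⟮x⟯ F)
    (f : F) (hfB : IsIntegral ↥(Algebra.adjoin C {x}) f) (hf : f ∈ S.V) :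
    IsIntegral ↥(Algebra.adjoin k {S.red ⟨x, hx⟩}) (S.red ⟨f, hf⟩) := by
  obtain ⟨Φ, hΦm, hΦ⟩ := exists_monic_of_mem hx hxt hdeg ⟨f, hfB⟩ hf
  have hxC := transcendental_x hx hxt
  -- transport the equation to `V`
  have hθ : (algebraMap ↥(Bx (C := C) x) F).comp
      ((algebraMap ↥(Algebra.adjoin C {x}) ↥(Bx (C := C) x)).comp (S.psiR hxC)) =
      S.V.subtype.comp (psi hx) := by
    apply RingHom.ext
    intro p₀
    exact coe_psiR hx hxC p₀
  have h1 : Polynomial.eval₂ (psi hx) (⟨f, hf⟩ : ↥S.V) Φ = 0 := by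
    apply Subtype.val_injective
    have hl := Polynomial.hom_eval₂ Φ (psi hx) S.V.subtype ⟨f, hf⟩
    have hr := Polynomial.hom_eval₂ Φ ((algebraMap ↥(Algebra.adjoin C {x})
      ↥(Bx (C := C) x)).comp (S.psiR hxC)) (algebraMap ↥(Bx (C := C) x) F) ⟨f, hfB⟩
    rw [hΦ, map_zero, hθ] at hr
    exact hl.trans hr.symm
  have h3 := congrArg S.red h1
  rw [Polynomial.hom_eval₂, map_zero] at h3
  refine ⟨Φ.map (S.psiT hx), hΦm.map _, ?_⟩
  rw [Polynomial.eval₂_map, ← h3]
  congr 1
  apply RingHom.ext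
  intro p₀
  exact coe_psiT hx p₀


variable [CharZero C] [IsAlgClosed C]

omit [CharZero C] in
theorem evP_comp_psiR (hxC : Transcendental C x) {ρ : C} (hρ : ρ ∈ S.O)
    {P : Ideal ↥(Bx (C := C) x)} (hP : P ∈ ptsOver x ρ) :
    (evP hP).comp ((algebraMap ↥(Algebra.adjoin C {x}) ↥(Bx (C := C) x)).comp (S.psiR hxC)) =
      S.O.subtype.comp (Polynomial.evalRingHom (⟨ρ, hρ⟩ : ↥S.O)) := by
  apply Polynomial.ringHom_ext
  · intro a
    have h1 : S.psiR hxC (Polynomial.C a) = algebraMap C _ (a : C) := by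
      simp only [psiR, RingHom.comp_apply, Polynomial.coe_mapRingHom, Polynomial.map_C]
      exact polyEquiv_C hxC _
    simp only [RingHom.comp_apply, h1, Polynomial.coe_evalRingHom, Polynomial.eval_C]
    rw [← IsScalarTower.algebraMap_apply C ↥(Algebra.adjoin C {x}) ↥(Bx (C := C) x),
      evP_algebraMap]
    rfl
  · have h1 : S.psiR hxC Polynomial.X = genX x := by
      simp only [psiR, RingHom.comp_apply, Polynomial.coe_mapRingHom, Polynomial.map_X]
      exact polyEquiv_X hxC
    simp only [RingHom.comp_apply, h1, Polynomial.coe_evalRingHom, Polynomial.eval_X]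
    rw [evP_genX]
    rfl

/-- The value of an element of `B ∩ V` at a point over `ρ ∈ O` lies in `O`. -/
theorem evP_mem_O (hxt : Transcendental k (S.red ⟨x, hx⟩)) [FiniteDimensional ↥C⟮x⟯ F]
    (hdeg : Module.finrank ↥k⟮S.red ⟨x, hx⟩⟯ Ft = Module.finrank ↥C⟮x⟯ F)
    {ρ : C} (hρ : ρ ∈ S.O) {P : Ideal ↥(Bx (C := C) x)} (hP : P ∈ ptsOver x ρ)
    (f : ↥(Bx (C := C) x)) (hf : (f : F) ∈ S.V) : evP hP f ∈ S.O := by
  obtain ⟨Φ, hΦm, hΦ⟩ := exists_monic_of_mem hx hxt hdeg f hf
  have hxC := transcendental_x hx hxt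
  have h1 := congrArg (evP hP) hΦ
  rw [Polynomial.hom_eval₂, map_zero, evP_comp_psiR hxC hρ hP, ← Polynomial.eval₂_map] at h1
  have hint : IsIntegral ↥S.O (evP hP f) :=
    ⟨Φ.map (Polynomial.evalRingHom (⟨ρ, hρ⟩ : ↥S.O)), hΦm.map _, h1⟩
  obtain ⟨y, hy⟩ := IsIntegrallyClosed.isIntegral_iff.1 hint
  rw [← hy]
  exact y.2

end RedSetting

end Fermat.Agent.RED.H34

end
end
-- ==== END Fermat.Agent.RED.H34_IntCons

-- ==== BEGIN Fermat.Agent.RED.H42_Gen1
section

/-!
# G-RED package GEN (helper42), part 1: reduction of integral elements, lifted bases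

Setting: `S : RedSetting C F k Ft` (helper34), `x ∈ V` with transcendental reduction `xt`.
* `gen_red_isIntegral` : `f ∈ V` integral over `C[x]`  ⟹  `red f` integral over `k[xt]`.
* `IsLift` : a family `e : ι → F` in `B ∩ V` whose reduction is a `k[xt]`-basis of the integral
  closure `Bt` of `k[xt]` in `Ft`.
-/

set_option autoImplicit false

noncomputable section

open Polynomial IntermediateField Module
open scoped IntermediateField.algebraAdjoinAdjoin

namespace Fermat.Agent.RED.H42

open Fermat.Agent.RED.H34 Fermat.Agent.RED.H34.RedSetting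

variable {C F k Ft : Type} [Field C] [Field F] [Algebra C F] [Field k] [Field Ft] [Algebra k Ft]
variable {S : RedSetting C F k Ft} {x : F} (hx : x ∈ S.V)

/-- The generator of `k[xt]`. -/
def genT (hx : x ∈ S.V) : ↥(Algebra.adjoin k {S.red ⟨x, hx⟩}) :=
  ⟨S.red ⟨x, hx⟩, Algebra.self_mem_adjoin_singleton k _⟩

/-- The ring hom `O[X] → k[xt]`, reduction of coefficients followed by `X ↦ xt`. -/
def rhoT (hx : x ∈ S.V) : (↥S.O)[X] →+* ↥(Algebra.adjoin k {S.red ⟨x, hx⟩}) :=
  ((Polynomial.aeval (genT hx) : k[X] →ₐ[k] ↥(Algebra.adjoin k {S.red ⟨x, hx⟩})) :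
    k[X] →+* ↥(Algebra.adjoin k {S.red ⟨x, hx⟩})).comp (Polynomial.mapRingHom S.resO)

theorem coe_rhoT (p₀ : (↥S.O)[X]) :
    ((rhoT hx p₀ : ↥(Algebra.adjoin k {S.red ⟨x, hx⟩})) : Ft) = S.red (psi hx p₀) := by
  rw [red_psi]
  show ((Polynomial.aeval (genT hx) (p₀.map S.resO) : ↥(Algebra.adjoin k {S.red ⟨x, hx⟩})) : Ft)
    = _
  rw [← Subalgebra.coe_val, ← Polynomial.aeval_algHom_apply]
  rfl

theorem algebraMap_comp_rhoT :
    (algebraMap ↥(Algebra.adjoin k {S.red ⟨x, hx⟩}) Ft).comp (rhoT hx) = S.red.comp (psi hx) := by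
  refine RingHom.ext fun p₀ => ?_
  exact coe_rhoT hx p₀

/-- An element of `V` annihilated by a monic polynomial over `O[x]` has integral reduction. -/
theorem gen_red_isIntegral_of_monic (f : ↥S.V) (Φ : ((↥S.O)[X])[X]) (hΦ : Φ.Monic)
    (h0 : Polynomial.eval₂ (psi hx) f Φ = 0) :
    IsIntegral ↥(Algebra.adjoin k {S.red ⟨x, hx⟩}) (S.red f) := by
  refine ⟨Φ.map (rhoT hx), hΦ.map _, ?_⟩
  rw [Polynomial.eval₂_map, algebraMap_comp_rhoT, ← Polynomial.hom_eval₂, h0, map_zero]

/-- **Reduction of integral elements**: `f ∈ V` integral over `C[x]` has a reduction which is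
integral over `k[xt]`. -/
theorem gen_red_isIntegral [CharZero C] (hxt : Transcendental k (S.red ⟨x, hx⟩))
    [FiniteDimensional ↥C⟮x⟯ F]
    (hdeg : Module.finrank ↥k⟮S.red ⟨x, hx⟩⟯ Ft = Module.finrank ↥C⟮x⟯ F)
    (f : ↥S.V) (hf : IsIntegral ↥(Algebra.adjoin C {x}) (f : F)) :
    IsIntegral ↥(Algebra.adjoin k {S.red ⟨x, hx⟩}) (S.red f) := by
  have hxC := transcendental_x hx hxt
  obtain ⟨Φ, hΦ, h0⟩ := exists_monic_of_mem hx hxt hdeg (⟨(f : F), hf⟩ : ↥(Bx (C := C) x)) f.2
  refine gen_red_isIntegral_of_monic hx f Φ hΦ ?_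
  apply Subtype.ext
  have h1 := congrArg (fun b : ↥(Bx (C := C) x) => (b : F)) h0
  simp only [ZeroMemClass.coe_zero] at h1
  rw [ZeroMemClass.coe_zero, ← h1]
  have h2 : (S.V.subtype.comp (psi hx)) =
      ((Bx (C := C) x).val : ↥(Bx (C := C) x) →+* F).comp
        ((algebraMap ↥(Algebra.adjoin C {x}) ↥(Bx (C := C) x)).comp (S.psiR hxC)) := by
    refine RingHom.ext fun p₀ => ?_
    exact (coe_psiR hx hxC p₀).symm
  have h3 := Polynomial.hom_eval₂ Φ (psi hx) S.V.subtype f
  have h4 := Polynomial.hom_eval₂ Φ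
    ((algebraMap ↥(Algebra.adjoin C {x}) ↥(Bx (C := C) x)).comp (S.psiR hxC))
    ((Bx (C := C) x).val : ↥(Bx (C := C) x) →+* F) (⟨(f : F), hf⟩ : ↥(Bx (C := C) x))
  calc ((Polynomial.eval₂ (psi hx) f Φ : ↥S.V) : F)
      = S.V.subtype (Polynomial.eval₂ (psi hx) f Φ) := rfl
    _ = Polynomial.eval₂ (S.V.subtype.comp (psi hx)) (S.V.subtype f) Φ := h3
    _ = _ := by rw [h2]; exact h4.symm

end Fermat.Agent.RED.H42

end
end
-- ==== END Fermat.Agent.RED.H42_Gen1

-- ==== BEGIN Fermat.Agent.RED.H51_ZerosLe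
section

/-!
# FF-B, piece P4 (helper51): the `≤` half of the zeros theorem

For `x : F` and finitely many pairwise distinct zeros `v` of `x`, `∑ v(x) ≤ [F : K(x)]`
(Stichtenoth, Prop. 1.3.3).  Hence `x` has finitely many zeros.  This is
`Fermat.Agent.RED.H42.ZerosLeAll`.  No hypothesis on the characteristic.
-/

set_option autoImplicit false
set_option linter.style.haveILetI false

noncomputable section

open AlgebraicCurve IntermediateField Polynomial

namespace Fermat.Agent.RED.H51

variable {K F : Type*} [Field K] [Field F] [Algebra K F]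

/-- Polynomials in an integral element are integral. -/
theorem ordGe_aeval (v : Place K F) {x : F} (hx : OrdGe v 0 x) (q : K[X]) :
    OrdGe v 0 (aeval x q) := by
  induction q using Polynomial.induction_on' with
  | add p q hp hq =>
    rw [map_add]
    exact hp.add hq
  | monomial n a =>
    rw [aeval_monomial]
    have h1 := (ordGe_algebraMap v a).mul (ordGe_pow hx n)
    exact h1.mono (by simp)

/-- A polynomial with nonzero constant term is a unit at every zero of `x`. -/
theorem ord_aeval_of_coeff_zero_ne (v : Place K F) {x : F} (hx : 0 < v.ord x) {q : K[X]}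
    (hq : q.coeff 0 ≠ 0) : aeval x q ≠ 0 ∧ v.ord (aeval x q) = 0 := by
  have hx1 : OrdGe v 1 x := Or.inr (by omega)
  have hx0 : OrdGe v 0 x := hx1.mono (by omega)
  have hdecomp : aeval x q = algebraMap K F (q.coeff 0) + x * aeval x q.divX := by
    conv_lhs => rw [← X_mul_divX_add q]
    rw [map_add, map_mul, aeval_X, aeval_C, add_comm]
  have hc0 : algebraMap K F (q.coeff 0) ≠ 0 := (map_ne_zero (algebraMap K F)).mpr hq
  have h := ord_add_eq v hc0 (g := x * aeval x q.divX) (by
    rw [ord_algebraMap]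
    have := hx1.mul (ordGe_aeval v hx0 q.divX)
    exact this.mono (by omega))
  rw [← hdecomp] at h
  exact ⟨h.1, h.2.trans (ord_algebraMap v _)⟩

/-- The order of a polynomial in `x` at a zero of `x`. -/
theorem ord_aeval (v : Place K F) {x : F} (hx : 0 < v.ord x) {p : K[X]} (hp : p ≠ 0) :
    aeval x p ≠ 0 ∧ v.ord (aeval x p) = (p.rootMultiplicity 0 : ℤ) * v.ord x := by
  obtain ⟨q, hpq, hq⟩ := exists_eq_pow_rootMultiplicity_mul_and_not_dvd p hp 0
  rw [C_0, sub_zero] at hpq hq
  have hq0 : q.coeff 0 ≠ 0 := fun h => hq (X_dvd_iff.mpr h)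
  obtain ⟨h1, h2⟩ := ord_aeval_of_coeff_zero_ne v hx hq0
  have hx0 : x ≠ 0 := ne_zero_of_ord_ne_zero v hx.ne'
  have heq : aeval x p = x ^ p.rootMultiplicity 0 * aeval x q := by
    conv_lhs => rw [hpq]
    rw [map_mul, map_pow, aeval_X]
  rw [heq]
  refine ⟨mul_ne_zero (pow_ne_zero _ hx0) h1, ?_⟩
  rw [v.ord_mul (pow_ne_zero _ hx0) h1, ord_pow, h2, add_zero]

/-- The order of an element of `K(x)` at a zero `v` of `x` is a multiple of `v(x)`, with a
multiplier which does not depend on `v`. -/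
theorem exists_ord_adjoin_simple (x : F) (c : K⟮x⟯) (hc : c ≠ 0) :
    ∃ m : ℤ, ∀ v : Place K F, 0 < v.ord x → v.ord (c : F) = v.ord x * m := by
  obtain ⟨r, s, hrs⟩ := (mem_adjoin_simple_iff K (c : F)).mp c.2
  have hcF : (c : F) ≠ 0 := fun h => hc (Subtype.ext h)
  have hr : r ≠ 0 := by
    rintro rfl
    rw [map_zero, zero_div] at hrs
    exact hcF hrs
  have hs : s ≠ 0 := by
    rintro rfl
    rw [map_zero, div_zero] at hrs
    exact hcF hrs
  refine ⟨(r.rootMultiplicity 0 : ℤ) - (s.rootMultiplicity 0 : ℤ), fun v hv => ?_⟩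
  obtain ⟨hr1, hr2⟩ := ord_aeval v hv hr
  obtain ⟨hs1, hs2⟩ := ord_aeval v hv hs
  rw [hrs, ord_div v hr1 hs1, hr2, hs2]
  ring

/-- **Stichtenoth 1.3.3**: for a finite set `S` of zeros of `x`, `∑ v(x) ≤ [F : K(x)]`. -/
theorem sum_ord_le_finrank (x : F) [FiniteDimensional K⟮x⟯ F] (S : Finset (Place K F))
    (hS : ∀ v ∈ S, 0 < v.ord x) : ∑ v ∈ S, v.ord x ≤ (Module.finrank K⟮x⟯ F : ℤ) := by
  classical
  rcases S.eq_empty_or_nonempty with rfl | ⟨v₁, hv₁⟩
  · simp
  have hx0 : x ≠ 0 := ne_zero_of_ord_ne_zero v₁ (hS v₁ hv₁).ne'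
  have hcompat : Compat (fun v : S => (v : Place K F))
      (fun v : S => ((v : Place K F).ord x).toNat) K⟮x⟯ := by
    refine ⟨⟨AdjoinSimple.gen K x, ?_, fun v => ?_⟩, fun c hc => ?_⟩
    · intro h
      have h1 : (AdjoinSimple.gen K x : F) = 0 := by rw [h]; rfl
      rw [AdjoinSimple.coe_gen] at h1
      exact hx0 h1
    · show (v : Place K F).ord (algebraMap K⟮x⟯ F (AdjoinSimple.gen K x)) = _
      rw [AdjoinSimple.algebraMap_gen]
      exact (Int.toNat_of_nonneg (hS v v.2).le).symm
    · obtain ⟨m, hm⟩ := exists_ord_adjoin_simple x c hc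
      refine ⟨m, fun v => ?_⟩
      show (v : Place K F).ord (c : F) = _
      rw [hm v (hS v v.2), Int.toNat_of_nonneg (hS v v.2).le]
  have h := sum_le_finrank hcompat Subtype.val_injective
  have h2 : ∑ v ∈ S, v.ord x = ((∑ v : S, ((v : Place K F).ord x).toNat : ℕ) : ℤ) := by
    rw [Nat.cast_sum, ← Finset.sum_coe_sort S]
    refine Finset.sum_congr rfl fun v _ => ?_
    exact (Int.toNat_of_nonneg (hS v v.2).le).symm
  rw [h2]
  exact_mod_cast h

/-- The `≤` half of the zeros theorem. -/
theorem zerosLe (K F : Type*) [Field K] [Field F] [Algebra K F] :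
    Fermat.Agent.RED.H42.ZerosLe K F := by
  classical
  intro x _ _
  have hcard : ∀ S : Finset (Place K F), (∀ v ∈ S, 0 < v.ord x) →
      S.card ≤ Module.finrank K⟮x⟯ F := by
    intro S hS
    have h1 := sum_ord_le_finrank x S hS
    have h2 : (S.card : ℤ) ≤ ∑ v ∈ S, v.ord x := by
      rw [Finset.card_eq_sum_ones, Nat.cast_sum]
      refine Finset.sum_le_sum fun v hv => ?_
      have := hS v hv
      push_cast
      omega
    exact_mod_cast h2.trans h1
  have hfin : {v : Place K F | 0 < v.ord x}.Finite := by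
    by_contra hinf
    obtain ⟨S, hS, hScard⟩ :=
      Set.Infinite.exists_subset_card_eq hinf (Module.finrank K⟮x⟯ F + 1)
    have := hcard S fun v hv => hS hv
    omega
  refine ⟨hfin, ?_⟩
  rw [finsum_mem_eq_finite_toFinset_sum _ hfin]
  exact sum_ord_le_finrank x _ fun v hv => (Set.Finite.mem_toFinset hfin).mp hv

/-- P4 for all function fields. -/
theorem zerosLeAll : Fermat.Agent.RED.H42.ZerosLeAll :=
  fun K F _ _ _ _ _ => zerosLe K F

end Fermat.Agent.RED.H51

end
end
-- ==== END Fermat.Agent.RED.H51_ZerosLe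

-- ==== BEGIN Fermat.Agent.RED.H70_Mod2Series
section

/-!
# G-RED, package IG-MOD23, `p = 2` (helper70): the Hauptmodul `h₂ = Δ(q)/Δ(q²)` over `ℤ`

* `hZ2 : LaurentSeries ℤ` : `q⁻¹ ∏ (1 - qⁿ)²⁴ / (1 - q²ⁿ)²⁴`;
* `hZ2_order`, `hZ2_leadingCoeff` : simple pole with leading coefficient `1`;
* `hZ2_ident`  : `(h + 256)³ = j · h²`;
* `hZ2_ident'` : `(h + 16)³ = j(q²) · h`.
-/

set_option autoImplicit false

noncomputable section

namespace Fermat.Agent.RED.H70

open Fermat.Agent.S23.H96 (e4Series e6Series)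

local notation "ι" => HahnSeries.ofPowerSeries ℤ ℤ
local notation "E2" => PowerSeries.expand 2 two_ne_zero'
local notation "deltaSeries" => Fermat.Agent.S23.H96.deltaSeries

theorem ofNat_ne_zero_ps (n : ℕ) [n.AtLeastTwo] : (OfNat.ofNat n : PowerSeries ℤ) ≠ 0 := by
  intro h
  have h1 := congrArg (PowerSeries.coeff 0) h
  rw [show (OfNat.ofNat n : PowerSeries ℤ) = PowerSeries.C ((OfNat.ofNat n : ℤ)) from
    (map_ofNat _ _).symm, PowerSeries.coeff_zero_C, map_zero] at h1
  exact (OfNat.ofNat_ne_zero n) h1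

/-- `(P1)`: `E₄³ Δ(q) Δ(q²) = (Δ(q) + 256 Δ(q²))³`. -/
theorem p1 : e4Series ^ 3 * deltaSeries * E2 deltaSeries
    = (deltaSeries + 256 * E2 deltaSeries) ^ 3 := by
  have ha : (1728 : PowerSeries ℤ) * deltaSeries
      = (4 * g2Series ^ 2 - e4Series) ^ 2 * (e4Series - g2Series ^ 2) := by
    linear_combination -w12a
  have hb : (110592 : PowerSeries ℤ) * E2 deltaSeries
      = (4 * g2Series ^ 2 - e4Series) * (e4Series - g2Series ^ 2) ^ 2 := by
    linear_combination -w12b
  have key : (3 * e4Series) ^ 3 * ((1728 : PowerSeries ℤ) * deltaSeries)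
      * ((110592 : PowerSeries ℤ) * E2 deltaSeries)
      = ((1728 : PowerSeries ℤ) * deltaSeries + 4 * ((110592 : PowerSeries ℤ) * E2 deltaSeries)) ^ 3 := by
    rw [ha, hb]
    ring
  have h0 : ((1728 : PowerSeries ℤ) ^ 3) ≠ 0 := pow_ne_zero _ (ofNat_ne_zero_ps 1728)
  apply mul_left_cancel₀ h0
  linear_combination key

/-- `(P2)`: `E₄(q²)³ Δ(q) Δ(q²) = (Δ(q) + 16 Δ(q²))³`. -/
theorem p2 : (E2 e4Series) ^ 3 * deltaSeries * E2 deltaSeries
    = (deltaSeries + 16 * E2 deltaSeries) ^ 3 := by
  have ha : (1728 : PowerSeries ℤ) * deltaSeries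
      = (4 * g2Series ^ 2 - e4Series) ^ 2 * (e4Series - g2Series ^ 2) := by
    linear_combination -w12a
  have hb : (110592 : PowerSeries ℤ) * E2 deltaSeries
      = (4 * g2Series ^ 2 - e4Series) * (e4Series - g2Series ^ 2) ^ 2 := by
    linear_combination -w12b
  have hc : (12 : PowerSeries ℤ) * E2 e4Series
      = 4 * (4 * g2Series ^ 2 - e4Series) + (e4Series - g2Series ^ 2) := by
    linear_combination (-3 : PowerSeries ℤ) * w4
  have key : ((12 : PowerSeries ℤ) * E2 e4Series) ^ 3 * ((1728 : PowerSeries ℤ) * deltaSeries)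
      * ((110592 : PowerSeries ℤ) * E2 deltaSeries)
      = (4 * ((1728 : PowerSeries ℤ) * deltaSeries) + ((110592 : PowerSeries ℤ) * E2 deltaSeries)) ^ 3 := by
    rw [ha, hb, hc]
    ring
  have h0 : ((6912 : PowerSeries ℤ) ^ 3) ≠ 0 := pow_ne_zero _ (ofNat_ne_zero_ps 6912)
  apply mul_left_cancel₀ h0
  linear_combination key

/-! ### The Hauptmodul -/

/-- `∏ (1 - q²ⁿ)²⁴`. -/
def eta2Unit : PowerSeries ℤ := E2 ModularCurve.dedekindEtaUnit

theorem constantCoeff_eta2Unit : PowerSeries.constantCoeff eta2Unit = 1 := by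
  rw [eta2Unit, PowerSeries.constantCoeff_expand, ModularCurve.constantCoeff_dedekindEtaUnit]

/-- The inverse of `∏ (1 - q²ⁿ)²⁴`. -/
def eta2UnitInv : PowerSeries ℤ := eta2Unit.invOfUnit 1

theorem eta2Unit_mul_inv : eta2Unit * eta2UnitInv = 1 :=
  PowerSeries.mul_invOfUnit _ _ (by rw [constantCoeff_eta2Unit]; rfl)

theorem constantCoeff_eta2UnitInv : PowerSeries.constantCoeff eta2UnitInv = 1 := by
  have h := congrArg (PowerSeries.constantCoeff (R := ℤ)) eta2Unit_mul_inv
  rwa [map_mul, constantCoeff_eta2Unit, one_mul, map_one] at h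

/-- The Hauptmodul `h₂ = Δ(q)/Δ(q²) = q⁻¹ ∏ (1 - qⁿ)²⁴/(1 - q²ⁿ)²⁴` of `X₀(2)`, over `ℤ`. -/
def hZ2 : LaurentSeries ℤ :=
  HahnSeries.single (-1 : ℤ) 1 * ι (ModularCurve.dedekindEtaUnit * eta2UnitInv)

theorem delta_eq_X_mul : deltaSeries = PowerSeries.X * ModularCurve.dedekindEtaUnit :=
  deltaSeries_eq

theorem expand_delta : E2 deltaSeries = PowerSeries.X ^ 2 * eta2Unit := by
  rw [delta_eq_X_mul, map_mul, PowerSeries.expand_X, eta2Unit]

theorem single_neg_one_mul_X :
    (HahnSeries.single (-1 : ℤ) (1 : ℤ)) * ι PowerSeries.X = 1 := by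
  rw [HahnSeries.ofPowerSeries_X, HahnSeries.single_mul_single]
  simp

theorem jNum_map_int : ModularCurve.jNum.map (Int.castRingHom ℤ) = ModularCurve.jNum := by
  ext n
  simp

/-- `(a)`: `j Δ = E₄³`. -/
theorem jZ_mul_delta : ModularCurve.jqModC ℤ * ι deltaSeries = ι (e4Series ^ 3) := by
  rw [ModularCurve.jqModC, jNum_map_int, ModularCurve.jNum, delta_eq_X_mul, e4Series_eq]
  calc HahnSeries.single (-1 : ℤ) (1 : ℤ)
        * ι (ModularCurve.eisenstein4 ^ 3 * ModularCurve.dedekindEtaUnitInv)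
        * ι (PowerSeries.X * ModularCurve.dedekindEtaUnit)
      = (HahnSeries.single (-1 : ℤ) (1 : ℤ) * ι PowerSeries.X)
        * ι (ModularCurve.eisenstein4 ^ 3
          * (ModularCurve.dedekindEtaUnit * ModularCurve.dedekindEtaUnitInv)) := by
        simp only [map_mul, map_pow]
        ring
    _ = ι (ModularCurve.eisenstein4 ^ 3) := by
        rw [single_neg_one_mul_X, ModularCurve.dedekindEtaUnit_mul_inv, mul_one, one_mul]

/-- `(b)`: `h₂ Δ(q²) = Δ(q)`. -/
theorem hZ2_mul_delta2 : hZ2 * ι (E2 deltaSeries) = ι deltaSeries := by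
  rw [hZ2, expand_delta, delta_eq_X_mul]
  calc HahnSeries.single (-1 : ℤ) (1 : ℤ) * ι (ModularCurve.dedekindEtaUnit * eta2UnitInv)
        * ι (PowerSeries.X ^ 2 * eta2Unit)
      = (HahnSeries.single (-1 : ℤ) (1 : ℤ) * ι PowerSeries.X)
        * ι (PowerSeries.X * ModularCurve.dedekindEtaUnit * (eta2Unit * eta2UnitInv)) := by
        simp only [map_mul, map_pow]
        ring
    _ = ι (PowerSeries.X * ModularCurve.dedekindEtaUnit) := by
        rw [single_neg_one_mul_X, eta2Unit_mul_inv, mul_one, one_mul]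

/-- `(c)`: `j(q²) Δ(q²) = E₄(q²)³`. -/
theorem jZ2_mul_delta2 :
    ModularCurve.qExpand ℤ 2 (ModularCurve.jqModC ℤ) * ι (E2 deltaSeries)
      = ι ((E2 e4Series) ^ 3) := by
  have h := congrArg (ModularCurve.qExpand ℤ 2) jZ_mul_delta
  rw [map_mul, Fermat.Agent.RED.H10.qExpand_ofPowerSeries,
    Fermat.Agent.RED.H10.qExpand_ofPowerSeries, map_pow] at h
  exact h

theorem delta_ne_zero : ι deltaSeries ≠ 0 := by
  intro h
  have h1 : deltaSeries = 0 := HahnSeries.ofPowerSeries_injective (by rw [h, map_zero])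
  have h2 := congrArg (PowerSeries.coeff 1) h1
  rw [delta_eq_X_mul, show (1 : ℕ) = 0 + 1 from rfl, PowerSeries.coeff_succ_X_mul,
    PowerSeries.coeff_zero_eq_constantCoeff_apply,
    ModularCurve.constantCoeff_dedekindEtaUnit, map_zero] at h2
  exact one_ne_zero h2

theorem delta2_ne_zero : ι (E2 deltaSeries) ≠ 0 := by
  intro h
  have h1 : E2 deltaSeries = 0 := HahnSeries.ofPowerSeries_injective (by rw [h, map_zero])
  have h2 := congrArg (PowerSeries.coeff 2) h1
  rw [expand_delta, show (2 : ℕ) = 0 + 2 from rfl, PowerSeries.coeff_X_pow_mul,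
    PowerSeries.coeff_zero_eq_constantCoeff_apply, constantCoeff_eta2Unit, map_zero] at h2
  exact one_ne_zero h2

/-- **`(I2)`**: `(h₂ + 256)³ = j h₂²`. -/
theorem hZ2_ident : (hZ2 + 256) ^ 3 = ModularCurve.jqModC ℤ * hZ2 ^ 2 := by
  have ha := jZ_mul_delta
  have hb := hZ2_mul_delta2
  have hp : ι (e4Series ^ 3) * ι deltaSeries * ι (E2 deltaSeries)
      = (ι deltaSeries + 256 * ι (E2 deltaSeries)) ^ 3 := by
    have := congrArg ι p1
    simpa only [map_mul, map_pow, map_add, map_ofNat] using this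
  have hne : ι deltaSeries * ι (E2 deltaSeries) ^ 3 ≠ 0 :=
    mul_ne_zero delta_ne_zero (pow_ne_zero _ delta2_ne_zero)
  apply mul_right_cancel₀ hne
  calc (hZ2 + 256) ^ 3 * (ι deltaSeries * ι (E2 deltaSeries) ^ 3)
      = (hZ2 * ι (E2 deltaSeries) + 256 * ι (E2 deltaSeries)) ^ 3 * ι deltaSeries := by ring
    _ = (ι deltaSeries + 256 * ι (E2 deltaSeries)) ^ 3 * ι deltaSeries := by rw [hb]
    _ = ι (e4Series ^ 3) * ι deltaSeries * ι (E2 deltaSeries) * ι deltaSeries := by rw [hp]
    _ = (ModularCurve.jqModC ℤ * ι deltaSeries) * (hZ2 * ι (E2 deltaSeries)) ^ 2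
          * ι (E2 deltaSeries) := by rw [ha, hb]; ring
    _ = ModularCurve.jqModC ℤ * hZ2 ^ 2 * (ι deltaSeries * ι (E2 deltaSeries) ^ 3) := by ring

/-- **`(I2')`**: `(h₂ + 16)³ = j(q²) h₂`. -/
theorem hZ2_ident' :
    (hZ2 + 16) ^ 3 = ModularCurve.qExpand ℤ 2 (ModularCurve.jqModC ℤ) * hZ2 := by
  have hc := jZ2_mul_delta2
  have hb := hZ2_mul_delta2
  have hp : ι ((E2 e4Series) ^ 3) * ι deltaSeries * ι (E2 deltaSeries)
      = (ι deltaSeries + 16 * ι (E2 deltaSeries)) ^ 3 := by
    have := congrArg ι p2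
    simpa only [map_mul, map_pow, map_add, map_ofNat] using this
  have hne : ι (E2 deltaSeries) ^ 3 ≠ 0 := pow_ne_zero _ delta2_ne_zero
  apply mul_right_cancel₀ hne
  calc (hZ2 + 16) ^ 3 * ι (E2 deltaSeries) ^ 3
      = (hZ2 * ι (E2 deltaSeries) + 16 * ι (E2 deltaSeries)) ^ 3 := by ring
    _ = (ι deltaSeries + 16 * ι (E2 deltaSeries)) ^ 3 := by rw [hb]
    _ = ι ((E2 e4Series) ^ 3) * ι deltaSeries * ι (E2 deltaSeries) := by rw [hp]
    _ = (ModularCurve.qExpand ℤ 2 (ModularCurve.jqModC ℤ) * ι (E2 deltaSeries))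
          * (hZ2 * ι (E2 deltaSeries)) * ι (E2 deltaSeries) := by rw [hc, hb]
    _ = ModularCurve.qExpand ℤ 2 (ModularCurve.jqModC ℤ) * hZ2 * ι (E2 deltaSeries) ^ 3 := by
        ring

/-! ### The pole of `h₂` -/

theorem hZ2_coeff (k : ℤ) : hZ2.coeff (k + -1)
    = (ι (ModularCurve.dedekindEtaUnit * eta2UnitInv)).coeff k := by
  rw [hZ2, HahnSeries.coeff_single_mul_add, one_mul]

theorem hZ2_coeff_neg_one : hZ2.coeff (-1) = 1 := by
  have h := hZ2_coeff 0
  rw [zero_add] at h
  rw [h]
  have h2 := HahnSeries.ofPowerSeries_apply_coeff (Γ := ℤ)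
    (ModularCurve.dedekindEtaUnit * eta2UnitInv) 0
  rw [Nat.cast_zero] at h2
  rw [h2, PowerSeries.coeff_zero_eq_constantCoeff_apply, map_mul,
    ModularCurve.constantCoeff_dedekindEtaUnit, constantCoeff_eta2UnitInv, one_mul]

theorem hZ2_coeff_of_lt {k : ℤ} (hk : k < -1) : hZ2.coeff k = 0 := by
  have h := hZ2_coeff (k + 1)
  rw [show k + 1 + -1 = k by ring] at h
  rw [h]
  exact ModularCurve.ofPowerSeries_coeff_of_neg _ (by omega)

theorem hZ2_ne_zero : hZ2 ≠ 0 := by
  intro h
  have := hZ2_coeff_neg_one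
  rw [h] at this
  simp at this

theorem hZ2_order_eq : hZ2.order = -1 := by
  apply le_antisymm
  · exact HahnSeries.order_le_of_coeff_ne_zero (by rw [hZ2_coeff_neg_one]; exact one_ne_zero)
  · by_contra hcon
    rw [not_le] at hcon
    exact (HahnSeries.coeff_order_eq_zero.not.mpr hZ2_ne_zero) (hZ2_coeff_of_lt hcon)

/-- **`(H1)`**: `h₂` has a pole. -/
theorem hZ2_order : hZ2.order < 0 := by
  rw [hZ2_order_eq]
  norm_num

/-- **`(H1)`**: the leading coefficient of `h₂` is `1`. -/
theorem hZ2_leadingCoeff : hZ2.leadingCoeff = 1 := by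
  rw [HahnSeries.leadingCoeff_eq, hZ2_order_eq, hZ2_coeff_neg_one]

end Fermat.Agent.RED.H70

end
end
-- ==== END Fermat.Agent.RED.H70_Mod2Series

-- ==== BEGIN Fermat.Agent.RED.H73_GAModular
section

/-!
# G-RED package GA, part 1b (helper73): the modular function fields have the scaling property

For every field `L ⊇ ℚ` (of `Type`) and EVERY valuation subring `A` of `L`, every nonzero element
of `laurentBaseChange L (modularFunctionFieldFull N) = L(j(q^d) : d ∣ N) ⊂ L((q))` has a scalar
multiple which is a unit of the Gauss ring.  Same for `modularFunctionFieldFullC k N`.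
-/

set_option autoImplicit false

open ModularCurve Fermat.Agent.S28 Fermat.Agent.S28.H73

noncomputable section

namespace Fermat.Agent.RED.H73

variable {L : Type} [Field L]

theorem qExpand_jqModC_mem_intSeries (d : ℕ) [NeZero d] :
    qExpand L d (jqModC L) ∈ intSeries L :=
  ⟨qExpand ℤ d (jqModC ℤ), by rw [coeffMap_qExpand, coeffMap_jqModC]⟩

theorem divisorExpansionsC_subset_intSpan (N : ℕ) :
    divisorExpansionsC L N ⊆ (IntSpan L : Set (LaurentSeries L)) := by
  rintro x ⟨d, hd, -, rfl⟩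
  exact intSeries_le_intSpan (qExpand_jqModC_mem_intSeries d)

/-- **GA (scaling), characteristic-free form**: `k(j(q^d) : d ∣ N)` has the scaling property. -/
theorem hasScale_fullC (A : ValuationSubring L) (N : ℕ) :
    HasScale A (modularFunctionFieldFullC L N) :=
  hasScale_adjoin A (divisorExpansionsC_subset_intSpan N)

variable [Algebra ℚ L]

theorem coeffEmb_qExpand_jq (d : ℕ) [NeZero d] :
    coeffEmb L (qExpand ℚ d jq) = qExpand L d (jqModC L) := by
  rw [coeffEmb, coeffMap_qExpand, ← jqModC_rat, coeffMap_jqModC]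

/-- The base change of the modular function field is the field generated by the `j(q^d)`. -/
theorem laurentBaseChange_full_eq (N : ℕ) :
    laurentBaseChange L (modularFunctionFieldFull N) = modularFunctionFieldFullC L N := by
  apply le_antisymm
  · rw [laurentBaseChange, IntermediateField.adjoin_le_iff]
    rintro x ⟨y, hy, rfl⟩
    -- the preimage of the target under `coeffEmb` is a subfield containing the generators
    let S : Subfield (LaurentSeries ℚ) := (modularFunctionFieldFullC L N).toSubfield.comap (coeffEmb L)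
    have hS : ∀ r : ℚ, algebraMap ℚ (LaurentSeries ℚ) r ∈ S := by
      intro r
      show coeffEmb L (algebraMap ℚ (LaurentSeries ℚ) r) ∈ modularFunctionFieldFullC L N
      rw [algebraMap_laurentSeries_eq_single, coeffEmb, coeffMap_single,
        ← algebraMap_laurentSeries_eq_single]
      exact (modularFunctionFieldFullC L N).algebraMap_mem _
    let S' : IntermediateField ℚ (LaurentSeries ℚ) := S.toIntermediateField hS
    have hle : modularFunctionFieldFull N ≤ S' := by
      rw [modularFunctionFieldFull, IntermediateField.adjoin_le_iff]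
      rintro z ⟨d, hd0, hd, rfl⟩
      show coeffEmb L (qExpand ℚ d jq) ∈ modularFunctionFieldFullC L N
      rw [coeffEmb_qExpand_jq]
      exact jqModCd_mem_full L N hd
    exact hle hy
  · rw [modularFunctionFieldFullC, IntermediateField.adjoin_le_iff]
    rintro x ⟨d, hd0, hd, rfl⟩
    rw [← coeffEmb_qExpand_jq]
    exact coeffEmb_mem_laurentBaseChange L (jqd_mem_full N hd)

/-- **GA (scaling)**: every nonzero element of `F_N · L` is a scalar times a Gauss unit, for
every valuation subring `A` of `L`. -/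
theorem hasScale_laurentBaseChange (A : ValuationSubring L) (N : ℕ) :
    HasScale A (laurentBaseChange L (modularFunctionFieldFull N)) := by
  rw [laurentBaseChange_full_eq]
  exact hasScale_fullC A N

end Fermat.Agent.RED.H73

end
end
-- ==== END Fermat.Agent.RED.H73_GAModular

-- ==== BEGIN Fermat.Agent.RED.H73_GAVal
section
attribute [local instance 10000] SubalgebraClass.toAlgebra
attribute [local instance 10000] HahnSeries.powerSeriesAlgebra

/-!
# G-RED package GA, part 2 (helper73): the Gauss valuation ring of a field of series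

`C` a field, `O : ValuationSubring C` arbitrary, `F : IntermediateField C (LaurentSeries C)` with
the scaling property `HasScale O F` (part 1).  Then

* `gaussValSub O F h : ValuationSubring F` : the elements of `F` lying in the Gauss ring;
* `gaussResF O F h : gaussValSub O F h →+* LaurentSeries (kV O)` : reduction of `q`-expansions;
  its kernel is the maximal ideal (`gaussResF_eq_zero_iff`);
* `algebraMap_mem_gaussValSub_iff` : `V ∩ C = O`;
* `exists_unit_scale` : value group of `V` = value group of `O`;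
* `redField O F h : IntermediateField (kV O) (LaurentSeries (kV O))` : the residue field of `V`,
  realised inside `k((q))`; `resFieldEquiv : ResidueField V ≃+* redField`.
-/

set_option autoImplicit false

open ModularCurve Fermat.Agent.S28 Fermat.Agent.S28.H73

noncomputable section

namespace Fermat.Agent.RED.H73

variable {C : Type} [Field C] (O : ValuationSubring C)

theorem C_eq_iotaV (a : ↥O) :
    (HahnSeries.C (a : C) : LaurentSeries C) = iotaV O (HahnSeries.C a) :=
  (coeffMap_single O.subtype 0 a).symm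

theorem C_mem_gaussRingV {c : C} (hc : c ∈ O) :
    (HahnSeries.C c : LaurentSeries C) ∈ gaussRingV O := by
  have := iotaV_mem_gaussRingV O (HahnSeries.C (⟨c, hc⟩ : ↥O))
  rwa [← C_eq_iotaV] at this

theorem gaussRedV_C (a : ↥O) (h : (HahnSeries.C (a : C) : LaurentSeries C) ∈ gaussRingV O) :
    gaussRedV O ⟨HahnSeries.C (a : C), h⟩ = HahnSeries.C (resV O a) := by
  have e : (⟨HahnSeries.C (a : C), h⟩ : gaussRingV O)
      = ⟨iotaV O (HahnSeries.C a), iotaV_mem_gaussRingV O _⟩ := Subtype.ext (C_eq_iotaV O a)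
  rw [e, gaussRedV_iotaV]
  exact coeffMap_single (resV O) 0 a

/-- A constant is a Gauss unit iff it is a unit of `O`. -/
theorem gaussUnit_C_iff {c : C} :
    GaussUnit O (HahnSeries.C c) ↔ c ∈ O ∧ c ≠ 0 ∧ c⁻¹ ∈ O := by
  constructor
  · intro h
    have hc0 : c ≠ 0 := by
      rintro rfl
      exact h.ne_zero (map_zero _)
    -- `C c * g = h'` with `g, h'` primitive: compare a coefficient of maximal valuation
    have key : ∀ {c : C}, GaussUnit O (HahnSeries.C c) → c ∈ O := by
      intro c h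
      obtain ⟨g, h', hg, hh', e⟩ := h
      obtain ⟨n, hn⟩ : ∃ n, (redV O g).coeff n ≠ 0 := by
        by_contra hcon
        apply hg
        ext n
        by_contra hn
        exact hcon ⟨n, hn⟩
      have hu : IsUnit (g.coeff n) := by
        have : resV O (g.coeff n) ≠ 0 := hn
        exact (IsLocalRing.residue_ne_zero_iff_isUnit _).1 this
      have e1 : (iotaV O g * HahnSeries.C c).coeff n = (iotaV O h').coeff n := by rw [e]
      rw [mul_comm, HahnSeries.C_mul_eq_smul, HahnSeries.coeff_smul, smul_eq_mul] at e1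
      have e2 : c * ((g.coeff n : ↥O) : C) = ((h'.coeff n : ↥O) : C) := e1
      obtain ⟨hne, hinv⟩ := (isUnit_iff_inv_mem O _).1 hu
      have : c = ((h'.coeff n : ↥O) : C) * ((g.coeff n : ↥O) : C)⁻¹ := by
        rw [← e2, mul_assoc, mul_inv_cancel₀ hne, mul_one]
      rw [this]
      exact O.mul_mem _ _ (h'.coeff n).2 hinv
    refine ⟨key h, hc0, ?_⟩
    have h2 := h.inv
    rw [← C_inv'] at h2
    exact key h2
  · rintro ⟨hc, hc0, hci⟩
    have hu : IsUnit (⟨c, hc⟩ : ↥O) := (isUnit_iff_inv_mem O _).2 ⟨hc0, hci⟩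
    refine ⟨1, HahnSeries.C (⟨c, hc⟩ : ↥O), by rw [map_one]; exact one_ne_zero, ?_, ?_⟩
    · have : redV O (HahnSeries.C (⟨c, hc⟩ : ↥O)) = HahnSeries.C (resV O ⟨c, hc⟩) :=
        coeffMap_single (resV O) 0 _
      rw [this]
      intro h0
      have h1 : (HahnSeries.C (resV O ⟨c, hc⟩) : LaurentSeries (kV O)).coeff 0 = 0 := by
        rw [h0]; rfl
      exact (IsLocalRing.residue_ne_zero_iff_isUnit _).2 hu (by simpa using h1)
    · rw [map_one, one_mul]
      exact C_eq_iotaV O ⟨c, hc⟩

variable (F : IntermediateField C (LaurentSeries C))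

/-- The Gauss valuation ring of `F`. -/
def gaussValSub (h : HasScale O F) : ValuationSubring F where
  carrier := {x | (x : LaurentSeries C) ∈ gaussRingV O}
  mul_mem' := fun {a b} ha hb => (gaussRingV O).mul_mem ha hb
  one_mem' := (gaussRingV O).one_mem
  add_mem' := fun {a b} ha hb => (gaussRingV O).add_mem ha hb
  zero_mem' := (gaussRingV O).zero_mem
  neg_mem' := fun {a} ha => by
    show ((-a : F) : LaurentSeries C) ∈ gaussRingV O
    have : ((-a : F) : LaurentSeries C) = -(a : LaurentSeries C) := rfl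
    rw [this]
    exact (gaussRingV O).toSubring.neg_mem ha
  mem_or_inv_mem' := by
    intro x
    by_cases hx0 : x = 0
    · left
      rw [hx0]
      exact (gaussRingV O).zero_mem
    have hx0' : (x : LaurentSeries C) ≠ 0 := fun h0 => hx0 (Subtype.ext h0)
    obtain ⟨c, hc, hu⟩ := h x x.2 hx0'
    rcases O.mem_or_inv_mem c with hcO | hcO
    · -- `c ∈ O`: `x⁻¹ = c * (c x)⁻¹`
      right
      show ((x⁻¹ : F) : LaurentSeries C) ∈ gaussRingV O
      have e : ((x⁻¹ : F) : LaurentSeries C)
          = HahnSeries.C c * (HahnSeries.C c * (x : LaurentSeries C))⁻¹ := by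
        rw [mul_inv, ← mul_assoc, mul_inv_cancel₀ (C_ne_zero' hc), one_mul]
        rfl
      rw [e]
      exact (gaussRingV O).mul_mem (C_mem_gaussRingV O hcO) hu.inv.mem
    · -- `c⁻¹ ∈ O`: `x = c⁻¹ * (c x)`
      left
      show (x : LaurentSeries C) ∈ gaussRingV O
      have e : (x : LaurentSeries C)
          = HahnSeries.C c⁻¹ * (HahnSeries.C c * (x : LaurentSeries C)) := by
        rw [C_inv', ← mul_assoc, inv_mul_cancel₀ (C_ne_zero' hc), one_mul]
      rw [e]
      exact (gaussRingV O).mul_mem (C_mem_gaussRingV O hcO) hu.mem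

variable {F}

theorem mem_gaussValSub_iff (h : HasScale O F) (x : F) :
    x ∈ gaussValSub O F h ↔ (x : LaurentSeries C) ∈ gaussRingV O := Iff.rfl

/-- The reduction map on the Gauss valuation ring of `F`. -/
def gaussResF (h : HasScale O F) : ↥(gaussValSub O F h) →+* LaurentSeries (kV O) :=
  (gaussRedV O).comp
    { toFun := fun x => ⟨((x : F) : LaurentSeries C), x.2⟩
      map_one' := rfl
      map_mul' := fun _ _ => rfl
      map_zero' := rfl
      map_add' := fun _ _ => rfl }

theorem gaussResF_apply (h : HasScale O F) (x : ↥(gaussValSub O F h)) :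
    gaussResF O h x = gaussRedV O ⟨((x : F) : LaurentSeries C), x.2⟩ := rfl

/-- Units of the Gauss valuation ring = elements with nonzero reduction. -/
theorem isUnit_iff_gaussResF_ne_zero (h : HasScale O F) (x : ↥(gaussValSub O F h)) :
    IsUnit x ↔ gaussResF O h x ≠ 0 := by
  constructor
  · intro hu h0
    have := hu.map (gaussResF O h)
    rw [h0] at this
    exact not_isUnit_zero this
  · intro hne
    have hG : GaussUnit O ((x : F) : LaurentSeries C) :=
      gaussUnit_of_gaussRedV_ne_zero O x.2 hne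
    have hinv : (x : F)⁻¹ ∈ gaussValSub O F h := hG.inv.mem
    have hx0 : (x : F) ≠ 0 := fun h0 => hG.ne_zero (by rw [h0]; rfl)
    refine IsUnit.of_mul_eq_one (⟨(x : F)⁻¹, hinv⟩ : ↥(gaussValSub O F h)) ?_
    exact Subtype.ext (mul_inv_cancel₀ hx0)

theorem gaussResF_eq_zero_iff (h : HasScale O F) (x : ↥(gaussValSub O F h)) :
    gaussResF O h x = 0 ↔ x ∈ IsLocalRing.maximalIdeal ↥(gaussValSub O F h) := by
  rw [IsLocalRing.mem_maximalIdeal, mem_nonunits_iff, isUnit_iff_gaussResF_ne_zero O h, not_not]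

theorem ker_gaussResF (h : HasScale O F) :
    RingHom.ker (gaussResF O h) = IsLocalRing.maximalIdeal ↥(gaussValSub O F h) := by
  ext x
  rw [RingHom.mem_ker, gaussResF_eq_zero_iff]

theorem coe_algebraMap_F (c : C) :
    ((algebraMap C F c : F) : LaurentSeries C) = HahnSeries.C c := by
  show algebraMap C (LaurentSeries C) c = HahnSeries.C c
  rw [algebraMap_laurentSeries_eq_single]
  rfl

/-- `V ∩ C = O`. -/
theorem algebraMap_mem_gaussValSub_iff (h : HasScale O F) (c : C) :
    algebraMap C F c ∈ gaussValSub O F h ↔ c ∈ O := by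
  rw [mem_gaussValSub_iff, coe_algebraMap_F]
  constructor
  · intro hm
    by_cases hc0 : c = 0
    · rw [hc0]; exact O.zero_mem
    rcases O.mem_or_inv_mem c with hc | hc
    · exact hc
    · -- `c⁻¹ ∈ O` and `C c` in the Gauss ring: then `C c` is a Gauss unit
      by_cases hr : gaussRedV O ⟨HahnSeries.C c, hm⟩ = 0
      · exfalso
        have h1 : gaussRedV O (⟨HahnSeries.C c, hm⟩ * ⟨HahnSeries.C c⁻¹, C_mem_gaussRingV O hc⟩)
            = 1 := by
          have e : (⟨HahnSeries.C c, hm⟩ * ⟨HahnSeries.C c⁻¹, C_mem_gaussRingV O hc⟩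
              : gaussRingV O) = 1 := by
            apply Subtype.ext
            show (HahnSeries.C c : LaurentSeries C) * HahnSeries.C c⁻¹ = 1
            rw [C_inv', mul_inv_cancel₀ (C_ne_zero' hc0)]
          rw [e, map_one]
        rw [map_mul, hr, zero_mul] at h1
        exact zero_ne_one h1
      · exact ((gaussUnit_C_iff O).1 (gaussUnit_of_gaussRedV_ne_zero O hm hr)).1
  · exact C_mem_gaussRingV O

theorem gaussResF_algebraMap (h : HasScale O F) (a : ↥O)
    (hm : algebraMap C F (a : C) ∈ gaussValSub O F h) :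
    gaussResF O h ⟨algebraMap C F (a : C), hm⟩ = HahnSeries.C (resV O a) := by
  rw [gaussResF_apply]
  have e : (⟨((algebraMap C F (a : C) : F) : LaurentSeries C), hm⟩ : gaussRingV O)
      = ⟨HahnSeries.C (a : C), C_mem_gaussRingV O a.2⟩ :=
    Subtype.ext (coe_algebraMap_F (F := F) _)
  rw [e, gaussRedV_C]

/-- **Value group**: every nonzero element of `F` is a constant times a unit of `V`. -/
theorem exists_unit_scale (h : HasScale O F) (x : F) (hx : x ≠ 0) :
    ∃ (c : C) (u : (↥(gaussValSub O F h))ˣ), c ≠ 0 ∧ x = algebraMap C F c * ((u : ↥(gaussValSub O F h)) : F) := by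
  have hx0' : (x : LaurentSeries C) ≠ 0 := fun h0 => hx (Subtype.ext h0)
  obtain ⟨c, hc, hu⟩ := h x x.2 hx0'
  have hmem : algebraMap C F c * x ∈ gaussValSub O F h := by
    rw [mem_gaussValSub_iff]
    have : ((algebraMap C F c * x : F) : LaurentSeries C)
        = HahnSeries.C c * (x : LaurentSeries C) := by
      show ((algebraMap C F c : F) : LaurentSeries C) * (x : LaurentSeries C) = _
      rw [coe_algebraMap_F]
    rw [this]
    exact hu.mem
  have hunit : IsUnit (⟨algebraMap C F c * x, hmem⟩ : ↥(gaussValSub O F h)) := by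
    rw [isUnit_iff_gaussResF_ne_zero, gaussResF_apply]
    have e : (⟨((⟨algebraMap C F c * x, hmem⟩ : ↥(gaussValSub O F h)) : F), hmem⟩ : gaussRingV O)
        = ⟨HahnSeries.C c * (x : LaurentSeries C), hu.mem⟩ := by
      apply Subtype.ext
      show ((algebraMap C F c : F) : LaurentSeries C) * (x : LaurentSeries C) = _
      rw [coe_algebraMap_F]
    rw [e]
    exact gaussRedV_ne_zero_of_gaussUnit O hu hu.mem
  refine ⟨c⁻¹, hunit.unit, inv_ne_zero hc, ?_⟩
  rw [IsUnit.unit_spec]
  show x = algebraMap C F c⁻¹ * (algebraMap C F c * x)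
  rw [map_inv₀, ← mul_assoc, inv_mul_cancel₀, one_mul]
  exact fun h0 => hc ((map_eq_zero _).1 h0)

/-! ### The residue field inside `k((q))` -/

variable (F)

/-- The residue field of the Gauss valuation on `F`, as a subfield of `k((q))`. -/
def redField (h : HasScale O F) : IntermediateField (kV O) (LaurentSeries (kV O)) where
  carrier := Set.range (gaussResF O h)
  mul_mem' := by
    rintro _ _ ⟨a, rfl⟩ ⟨b, rfl⟩
    exact ⟨a * b, map_mul _ _ _⟩
  one_mem' := ⟨1, map_one _⟩
  add_mem' := by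
    rintro _ _ ⟨a, rfl⟩ ⟨b, rfl⟩
    exact ⟨a + b, map_add _ _ _⟩
  zero_mem' := ⟨0, map_zero _⟩
  algebraMap_mem' := by
    intro r
    obtain ⟨a, rfl⟩ := IsLocalRing.residue_surjective r
    have hm : algebraMap C F (a : C) ∈ gaussValSub O F h :=
      (algebraMap_mem_gaussValSub_iff O h _).2 a.2
    refine ⟨⟨algebraMap C F (a : C), hm⟩, ?_⟩
    rw [gaussResF_algebraMap, algebraMap_kV]
  inv_mem' := by
    rintro _ ⟨a, rfl⟩
    by_cases h0 : gaussResF O h a = 0
    · rw [h0, inv_zero]
      exact ⟨0, map_zero _⟩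
    · have hu := (isUnit_iff_gaussResF_ne_zero O h a).2 h0
      refine ⟨((hu.unit⁻¹ : (↥(gaussValSub O F h))ˣ) : ↥(gaussValSub O F h)), ?_⟩
      have h1 : gaussResF O h a * gaussResF O h ((hu.unit⁻¹ : (↥(gaussValSub O F h))ˣ)) = 1 := by
        rw [← map_mul]
        have : a * ((hu.unit⁻¹ : (↥(gaussValSub O F h))ˣ) : ↥(gaussValSub O F h)) = 1 := by
          have := hu.unit.mul_inv
          rwa [IsUnit.unit_spec] at this
        rw [this, map_one]
      exact (eq_inv_of_mul_eq_one_right h1)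

variable {F}

theorem mem_redField_iff (h : HasScale O F) (y : LaurentSeries (kV O)) :
    y ∈ redField O F h ↔ ∃ x : ↥(gaussValSub O F h), gaussResF O h x = y := Iff.rfl

theorem gaussResF_mem_redField (h : HasScale O F) (x : ↥(gaussValSub O F h)) :
    gaussResF O h x ∈ redField O F h := ⟨x, rfl⟩

/-- Reduction as a surjective ring hom onto the residue field `redField`. -/
def gaussResF' (h : HasScale O F) : ↥(gaussValSub O F h) →+* ↥(redField O F h) :=
  (gaussResF O h).codRestrict (redField O F h).toSubring (gaussResF_mem_redField O h)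

theorem gaussResF'_surjective (h : HasScale O F) : Function.Surjective (gaussResF' O h) := by
  rintro ⟨y, x, rfl⟩
  exact ⟨x, rfl⟩

theorem ker_gaussResF' (h : HasScale O F) :
    RingHom.ker (gaussResF' O h) = IsLocalRing.maximalIdeal ↥(gaussValSub O F h) := by
  rw [← ker_gaussResF O h]
  ext x
  rw [RingHom.mem_ker, RingHom.mem_ker]
  constructor
  · intro h0
    exact congrArg Subtype.val h0
  · intro h0
    exact Subtype.ext h0

/-- The residue field of the Gauss valuation ring of `F` is `redField`. -/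
def resFieldEquiv (h : HasScale O F) :
    IsLocalRing.ResidueField ↥(gaussValSub O F h) ≃+* ↥(redField O F h) :=
  (Ideal.quotEquivOfEq (ker_gaussResF' O h).symm).trans
    (RingHom.quotientKerEquivOfSurjective (gaussResF'_surjective O h))

theorem resFieldEquiv_residue (h : HasScale O F) (x : ↥(gaussValSub O F h)) :
    resFieldEquiv O h (IsLocalRing.residue _ x) = gaussResF' O h x := rfl

end Fermat.Agent.RED.H73

end
end
-- ==== END Fermat.Agent.RED.H73_GAVal

-- ==== BEGIN Fermat.Agent.RED.H76_RHSpan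
section

/-!
# RH-R (helper76), part I d: a minimal family spans

`MinFam.span` : every `f ∈ L(m P)` is a polynomial combination `∑ p_i(x) ω_i`.
-/

set_option autoImplicit false

noncomputable section

open AlgebraicCurve WithZero Polynomial

namespace Fermat.Agent.RED.H76

variable {K F : Type*} [Field K] [Field F] [Algebra K F]
variable {P : Divisor K F} {x : F}

/-- Regular outside the poles of `x`. -/
def Reg (P : Divisor K F) (f : F) : Prop := ∃ m : ℤ, InL P m f

namespace Reg

variable {f g : F}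

theorem add (hP : IsPoleDiv P x) (hf : Reg P f) (hg : Reg P g) : Reg P (f + g) := by
  obtain ⟨m, hm⟩ := hf
  obtain ⟨m', hm'⟩ := hg
  exact ⟨max m m', (hm.mono hP (le_max_left _ _)).add (hm'.mono hP (le_max_right _ _))⟩

theorem neg (hf : Reg P f) : Reg P (-f) := by
  obtain ⟨m, hm⟩ := hf
  exact ⟨m, hm.neg⟩

theorem sub (hP : IsPoleDiv P x) (hf : Reg P f) (hg : Reg P g) : Reg P (f - g) := by
  rw [sub_eq_add_neg]; exact hf.add hP hg.neg

theorem mul (hf : Reg P f) (hg : Reg P g) : Reg P (f * g) := by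
  obtain ⟨m, hm⟩ := hf
  obtain ⟨m', hm'⟩ := hg
  exact ⟨m + m', hm.mul hm'⟩

theorem aeval (hP : IsPoleDiv P x) (p : K[X]) : Reg P (Polynomial.aeval x p) :=
  ⟨p.natDegree, inL_aeval hP p le_rfl⟩

theorem sum (hP : IsPoleDiv P x) {ι : Type*} (s : Finset ι) (f : ι → F)
    (h : ∀ i ∈ s, Reg P (f i)) : Reg P (∑ i ∈ s, f i) := by
  classical
  induction s using Finset.induction_on with
  | empty => exact ⟨0, by simpa using (InL.zero : InL P 0 (0 : F))⟩
  | insert i s his ih =>
    rw [Finset.sum_insert his]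
    exact (h i (Finset.mem_insert_self i s)).add hP
      (ih fun j hj => h j (Finset.mem_insert_of_mem hj))

theorem comb (hP : IsPoleDiv P x) {r : ℕ} {ω : Fin r → F} (hω : ∀ i, Reg P (ω i))
    (p : Fin r → K[X]) : Reg P (_root_.Fermat.Agent.RED.H76.comb x p ω) :=
  Reg.sum hP _ _ fun i _ => (Reg.aeval hP (p i)).mul (hω i)

end Reg

theorem aeval_ne_zero_of_transcendental (hx : Transcendental K x) {b : K[X]} (hb : b ≠ 0) :
    aeval x b ≠ 0 := fun h => hb ((transcendental_iff.mp hx) b h)

/-- The inductive step of the spanning property: `b(x) f ∈ span ⟹ f ∈ span`. -/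
theorem MinFam.span_aux [IsAlgClosed K] (hP : IsPoleDiv P x) (hx : Transcendental K x)
    (hneg : ∀ f : F, InL P (-1) f → f = 0)
    {r : ℕ} {ω : Fin r → F} {d : Fin r → ℕ} (h : MinFam P x r ω d) :
    ∀ (k : ℕ) (f : F) (b : K[X]) (p : Fin r → K[X]), Reg P f → b ≠ 0 → b.natDegree ≤ k →
      aeval x b * f = comb x p ω → ∃ p' : Fin r → K[X], f = comb x p' ω := by
  classical
  have hωreg : ∀ i, Reg P (ω i) := fun i => ⟨d i, h.mem i⟩
  intro k
  induction k with
  | zero =>
    intro f b p _ hb hdeg hrel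
    have hbC : b = C (b.coeff 0) := eq_C_of_natDegree_le_zero hdeg
    have hβ : b.coeff 0 ≠ 0 := fun h0 => hb (by rw [hbC, h0, C_0])
    refine ⟨fun i => C (b.coeff 0)⁻¹ * p i, ?_⟩
    rw [comb_mul, ← hrel, ← mul_assoc, ← map_mul]
    nth_rewrite 2 [hbC]
    rw [← C_mul, inv_mul_cancel₀ hβ, C_1, map_one, one_mul]
  | succ k ih =>
    intro f b p hf hb hdeg hrel
    rcases Nat.lt_or_ge b.natDegree (k + 1) with hlt | hge
    · exact ih f b p hf hb (by omega) hrel
    have hdeg' : b.natDegree = k + 1 := le_antisymm hdeg hge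
    have hdeg0 : b.degree ≠ 0 := by
      rw [degree_eq_natDegree hb, hdeg']
      exact_mod_cast Nat.succ_ne_zero k
    obtain ⟨α, hα⟩ := IsAlgClosed.exists_root b hdeg0
    have hfac : (X - C α) * (b /ₘ (X - C α)) = b := mul_divByMonic_eq_iff_isRoot.mpr hα
    set b₁ : K[X] := b /ₘ (X - C α) with hb₁
    have hb₁0 : b₁ ≠ 0 := by
      rintro h0
      rw [h0, mul_zero] at hfac
      exact hb hfac.symm
    have hb₁deg : b₁.natDegree ≤ k := by
      have := congrArg natDegree hfac
      rw [natDegree_mul (X_sub_C_ne_zero α) hb₁0, natDegree_X_sub_C, hdeg'] at this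
      omega
    set f₁ : F := aeval x b₁ * f with hf₁
    have hf₁reg : Reg P f₁ := (Reg.aeval hP b₁).mul hf
    have hrel₁ : (x - algebraMap K F α) * f₁ = comb x p ω := by
      rw [← hrel, ← hfac, map_mul, map_sub, aeval_X, aeval_C, hf₁, mul_assoc]
    -- divide the coefficients by `X - α`
    set p' : Fin r → K[X] := fun i => p i /ₘ (X - C α) with hp'
    set γ : Fin r → K := fun i => (p i).eval α with hγ
    have hpi : ∀ i, p i = (X - C α) * p' i + C (γ i) := by
      intro i
      have := modByMonic_add_div (p i) (X - C α)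
      rw [modByMonic_X_sub_C_eq_C_eval] at this
      rw [← this]; ring
    set hh : F := f₁ - comb x p' ω with hhh
    have hhreg : Reg P hh := hf₁reg.sub hP (Reg.comb hP hωreg p')
    have hrel₂ : aeval x (X - C α) * hh = comb x (fun i => C (γ i)) ω := by
      have e : p = (fun i => (X - C α) * p' i) + fun i => C (γ i) := by
        funext i; rw [Pi.add_apply]; exact hpi i
      rw [e, comb_add, comb_mul] at hrel₁
      rw [hhh, mul_sub, map_sub, aeval_X, aeval_C, hrel₁]
      rw [map_sub, aeval_X, aeval_C]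
      ring
    by_cases hγ0 : ∀ i, γ i = 0
    · -- `hh = 0`
      have hz : comb x (fun i => C (γ i)) ω = 0 := by
        have : (fun i => C (γ i)) = (0 : Fin r → K[X]) := by
          funext i; rw [hγ0 i, C_0]; rfl
        rw [this, comb_zero]
      rw [hz] at hrel₂
      have hh0 : hh = 0 :=
        (mul_eq_zero.mp hrel₂).resolve_left
          (aeval_ne_zero_of_transcendental hx (X_sub_C_ne_zero α))
      have hf₁eq : aeval x b₁ * f = comb x p' ω := by
        rw [← hf₁]; exact sub_eq_zero.mp hh0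
      exact ih f b₁ p' hf hb₁0 hb₁deg hf₁eq
    · exfalso
      push Not at hγ0
      obtain ⟨i₀, hi₀⟩ := hγ0
      set J : Finset (Fin r) := Finset.univ.filter (fun i => γ i ≠ 0) with hJ
      have hJne : J.Nonempty := ⟨i₀, Finset.mem_filter.mpr ⟨Finset.mem_univ _, hi₀⟩⟩
      obtain ⟨j, hjJ, hj⟩ := Finset.exists_max_image J d hJne
      have hγj : γ j ≠ 0 := (Finset.mem_filter.mp hjJ).2
      have hzmem : InL P (d j) (comb x (fun i => C (γ i)) ω) := by
        refine inL_comb hP h.mem _ (d j) ?_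
        intro i hi
        have hγi : γ i ≠ 0 := fun h0 => hi (by rw [h0, C_0])
        have := hj i (Finset.mem_filter.mpr ⟨Finset.mem_univ _, hγi⟩)
        rw [natDegree_C]
        omega
      obtain ⟨m', hm'⟩ := hhreg
      have hdiv : InL P ((d j : ℤ) - 1) hh := by
        have h1 := InL.of_mul hP (t := aeval x (X - C α)) (k := 1)
          (fun v hv => by
            rw [map_sub, aeval_X, aeval_C]; exact val_x_sub hP α v hv)
          (by rw [hrel₂]; exact hzmem) hm'
        simpa using h1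
      exact h.no_exchange hneg j hh hdiv (X - C α) (X_sub_C_ne_zero α) (fun i => C (γ i))
        (C_ne_zero.mpr hγj) hrel₂

/-- **Spanning**: every function with poles only at the poles of `x` is a polynomial
combination of a minimal family. -/
theorem MinFam.span [IsAlgClosed K] (hP : IsPoleDiv P x) (hx : Transcendental K x)
    (hneg : ∀ f : F, InL P (-1) f → f = 0)
    {r : ℕ} {ω : Fin r → F} {d : Fin r → ℕ} (h : MinFam P x r ω d) (f : F) (hf : Reg P f) :
    ∃ p : Fin r → K[X], f = comb x p ω := by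
  classical
  obtain ⟨m, hm⟩ := hf
  -- the family `(ω, f)` is dependent
  have hnot := h.max (Fin.snoc ω f) (Fin.snoc d m.toNat)
  have hmem : ∀ i, InL P ((Fin.snoc d m.toNat : Fin (r + 1) → ℕ) i)
      ((Fin.snoc ω f : Fin (r + 1) → F) i) := by
    intro i
    refine Fin.lastCases ?_ (fun i => ?_) i
    · rw [Fin.snoc_last, Fin.snoc_last]
      exact hm.mono hP (Int.self_le_toNat m)
    · rw [Fin.snoc_castSucc, Fin.snoc_castSucc]
      exact h.mem i
  have hdep : ¬ ∀ p : Fin (r + 1) → K[X], comb x p (Fin.snoc ω f) = 0 → p = 0 :=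
    fun hind => hnot ⟨hmem, hind⟩
  push Not at hdep
  obtain ⟨pt, hpt, hpt0⟩ := hdep
  have hsplit : comb x pt (Fin.snoc ω f)
      = comb x (fun i => pt (Fin.castSucc i)) ω + aeval x (pt (Fin.last r)) * f := by
    unfold comb
    rw [Fin.sum_univ_castSucc]
    simp only [Fin.snoc_castSucc, Fin.snoc_last]
  rw [hsplit] at hpt
  have hb : pt (Fin.last r) ≠ 0 := by
    intro h0
    rw [h0, map_zero, zero_mul, add_zero] at hpt
    have := h.indep _ hpt
    apply hpt0
    funext i
    refine Fin.lastCases ?_ (fun i => ?_) i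
    · exact h0
    · exact congrFun this i
  have hrel : aeval x (pt (Fin.last r)) * f = comb x (-fun i => pt (Fin.castSucc i)) ω := by
    rw [comb_neg]
    exact eq_neg_of_add_eq_zero_right hpt
  exact h.span_aux hP hx hneg _ f _ _ ⟨m, hm⟩ hb le_rfl hrel

end Fermat.Agent.RED.H76

end
end
-- ==== END Fermat.Agent.RED.H76_RHSpan

-- ==== BEGIN Fermat.Agent.RED.H79_ConsDict
section

/-!
# G-RED package CONS, dictionary (helper79): places containing a Dedekind domain

`B` a Dedekind domain with fraction field `F`, a `K`-algebra.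
* `ordGe_ofH_iff` : `OrdGe (ofHeightOneSpectrum w) n f ↔ w.valuation F f ≤ exp (-n)`.
* `ordGe_one_algebraMap_iff` : `b ∈ w ↔ ord_w b ≥ 1`.
* `mem_range_of_forall_ordGe` : (b) an element of `F` regular at all `w` lies in `B`.
* `exists_eq_ofH` : (c) a place containing `B` is `ofHeightOneSpectrum w`.
* `exists_ord_eq_one` : (d) uniformizers in `B`.
* `exists_mem_not_mem_ofH` : separation of two primes by an element of `B`.
-/

set_option autoImplicit false

noncomputable section

open AlgebraicCurve IsDedekindDomain WithZero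

namespace Fermat.Agent.RED.H79

open Fermat.Agent.RED.H51

section Dict

variable {K F : Type*} [Field K] [Field F] [Algebra K F]
variable {B : Type*} [CommRing B] [IsDedekindDomain B] [Algebra B F] [IsFractionRing B F]
  [Algebra K B] [IsScalarTower K B F]

/-- The place of a height one prime (abbreviation). -/
abbrev ofH (K : Type*) {F : Type*} [Field K] [Field F] [Algebra K F]
    {B : Type*} [CommRing B] [IsDedekindDomain B] [Algebra B F] [IsFractionRing B F]
    [Algebra K B] [IsScalarTower K B F] (w : HeightOneSpectrum B) : Place K F :=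
  Place.ofHeightOneSpectrum (K := K) (F := F) w

theorem ordGe_ofH_iff (w : HeightOneSpectrum B) (n : ℤ) (f : F) :
    OrdGe (ofH K w) n f ↔ w.valuation F f ≤ exp (-n) := by
  rcases eq_or_ne f 0 with rfl | hf
  · simp [OrdGe]
  · have hv : w.valuation F f ≠ 0 := (Valuation.ne_zero_iff _).mpr hf
    unfold OrdGe
    rw [or_iff_right hf, Fermat.Agent.S24.ord_ofHeightOneSpectrum (K := K) w hf]
    conv_rhs => rw [← exp_log hv, exp_le_exp]
    constructor <;> intro h <;> omega

theorem ordGe_zero_algebraMap (w : HeightOneSpectrum B) (b : B) :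
    OrdGe (ofH K w) 0 (algebraMap B F b) := by
  rw [ordGe_ofH_iff, neg_zero, exp_zero]
  exact w.valuation_le_one b

theorem ordGe_one_algebraMap_iff (w : HeightOneSpectrum B) (b : B) :
    OrdGe (ofH K w) 1 (algebraMap B F b) ↔ b ∈ w.asIdeal := by
  rw [ordGe_ofH_iff, HeightOneSpectrum.valuation_of_algebraMap,
    ← HeightOneSpectrum.intValuation_lt_one_iff_mem]
  rcases eq_or_ne (w.intValuation b) 0 with h0 | h0
  · rw [h0]; simp
  · conv_lhs => rw [← exp_log h0, exp_le_exp]
    conv_rhs => rw [← exp_log h0, ← exp_zero, exp_lt_exp]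
    constructor <;> intro h <;> omega

/-- (b) An element of `F` which is regular at all height one primes lies in `B`. -/
theorem mem_range_of_forall_ordGe (f : F)
    (h : ∀ w : HeightOneSpectrum B, OrdGe (ofH K w) 0 f) : f ∈ (algebraMap B F).range := by
  apply HeightOneSpectrum.mem_integers_of_valuation_le_one F f
  intro w
  have := (ordGe_ofH_iff (K := K) w 0 f).1 (h w)
  simpa using this

/-- (c) A place containing `B` is the place of a height one prime. -/
theorem exists_eq_ofH (v : Place K F) (hB : ∀ b : B, algebraMap B F b ∈ v.toValuationSubring) :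
    ∃ w : HeightOneSpectrum B, v = ofH K w := by
  obtain ⟨w, hw⟩ := Fermat.Agent.S24.exists_heightOneSpectrum_of_le v hB
  exact ⟨w, Place.ext hw⟩

theorem ofH_injective : Function.Injective (ofH K (F := F) (B := B)) := by
  intro w w' h
  by_contra hne
  -- an element of `w` not in `w'`
  have hnle : ¬ w.asIdeal ≤ w'.asIdeal := by
    intro hle
    have hmax : w.asIdeal.IsMaximal := w.isMaximal
    have := hmax.eq_of_le w'.isPrime.ne_top hle
    exact hne (HeightOneSpectrum.ext this)
  obtain ⟨b, hb, hb'⟩ := Set.not_subset.1 hnle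
  have h1 := (ordGe_one_algebraMap_iff (K := K) (F := F) w b).2 hb
  rw [h] at h1
  exact hb' ((ordGe_one_algebraMap_iff (K := K) (F := F) w' b).1 h1)

/-- (d) A uniformizer in `B`. -/
theorem exists_ord_eq_one (w : HeightOneSpectrum B) :
    ∃ b : B, b ∈ w.asIdeal ∧ (ofH K w).ord (algebraMap B F b) = 1 := by
  obtain ⟨π, hπ⟩ := w.intValuation_exists_uniformizer
  have hπ0 : π ≠ 0 := by
    rintro rfl
    rw [map_zero] at hπ
    exact exp_ne_zero hπ.symm
  have hπF : algebraMap B F π ≠ 0 := by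
    rwa [ne_eq, map_eq_zero_iff _ (IsFractionRing.injective B F)]
  refine ⟨π, ?_, ?_⟩
  · rw [← HeightOneSpectrum.intValuation_lt_one_iff_mem, hπ, ← exp_zero, exp_lt_exp]
    norm_num
  · rw [Fermat.Agent.S24.ord_ofHeightOneSpectrum (K := K) w hπF,
      HeightOneSpectrum.valuation_of_algebraMap, hπ, log_exp]
    norm_num

/-- An element of `B` outside `w` has order zero at `w`. -/
theorem ord_eq_zero_of_not_mem (w : HeightOneSpectrum B) {b : B} (hb : b ∉ w.asIdeal) :
    (ofH K w).ord (algebraMap B F b) = 0 := by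
  have hb0 : b ≠ 0 := fun h => hb (h ▸ w.asIdeal.zero_mem)
  have hbF : algebraMap B F b ≠ 0 := by
    rwa [ne_eq, map_eq_zero_iff _ (IsFractionRing.injective B F)]
  have h0 := (ordGe_zero_algebraMap (K := K) (F := F) w b).le hbF
  have h1 : ¬ OrdGe (ofH K w) 1 (algebraMap B F b) := fun h =>
    hb ((ordGe_one_algebraMap_iff (K := K) (F := F) w b).1 h)
  have h2 : ¬ (1 ≤ (ofH K w).ord (algebraMap B F b)) := fun h => h1 (Or.inr h)
  omega

/-- Separation: for `w ≠ w'` there is `b ∈ w'` with `b ∉ w`. -/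
theorem exists_mem_not_mem_of_ne {w w' : HeightOneSpectrum B} (h : w ≠ w') :
    ∃ b : B, b ∈ w'.asIdeal ∧ b ∉ w.asIdeal := by
  have hnle : ¬ w'.asIdeal ≤ w.asIdeal := by
    intro hle
    have hmax : w'.asIdeal.IsMaximal := w'.isMaximal
    have := hmax.eq_of_le w.isPrime.ne_top hle
    exact h (HeightOneSpectrum.ext this).symm
  obtain ⟨b, hb, hb'⟩ := Set.not_subset.1 hnle
  exact ⟨b, hb, hb'⟩

end Dict

end Fermat.Agent.RED.H79

end
end
-- ==== END Fermat.Agent.RED.H79_ConsDict
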