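-- GENERATED (merged mirror, NOTES/tools/trim/merge3_helper67.py): 4 modules of the originals, bodies verbatim.
import Fermat.Prelude.Thm_ModularCurve_coeffMap_qExpand
import Mathlib
import Fermat.Agent.Zm.S35_L04_005
import Fermat.Agent.Zm.S35_L03_005
import Fermat.Agent.Zm.S35_L01_004
import Fermat.Agent.Zm.S35_L01_001
import Fermat.Agent.Zm.S35_L03_002
import Fermat.Agent.Zm.S35_L01_005
import Fermat.Agent.Zm.S35_L02_002
import Fermat.Agent.Zm.S35_L04_002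

-- ==== BEGIN Fermat.Agent.S28.H76_X
section

/-!
# S28, WP-F: the conjugates of `j(dz)` and the symmetric-function property of `CAData`
(helper76)

* `Xfam N d q`: the `t`-expansion of the conjugate of `j(dz)` at the coset `q`.
* `Xfam_q1`: at the trivial coset this is `iotaN N (qExpand ℚ d jq)`.
* `sym_of_families`: the `sym` field of `CAData` for any `U q = pexp (uNum q) / pexp (uDen q)`.
-/

set_option autoImplicit false

open UpperHalfPlane ModularForm ModularCurve Function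
open scoped MatrixGroups ModularForm Manifold

noncomputable section

namespace Fermat.Agent.S28.H76

open Fermat.Agent.S28.H30
open Fermat.Agent.S23.H22 (G0 Q toSL piPerm q1 E12 levelRaise Nice)

local notation "ofPS" => HahnSeries.ofPowerSeries ℤ ℂ

/-- A power series supported on multiples of `d` is a `qExpand`. -/
lemma ofPS_eq_C_mul_qExpand (d : ℕ) [NeZero d] (c : ℂ) (f g : PowerSeries ℂ)
    (h : ∀ n : ℕ, PowerSeries.coeff n f = if d ∣ n then c * PowerSeries.coeff (n / d) g else 0) :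
    ofPS f = HahnSeries.C c * qExpand ℂ d (ofPS g) := by
  have hd : 0 < d := NeZero.pos d
  ext n
  rw [HahnSeries.C_mul_eq_smul, HahnSeries.coeff_smul, smul_eq_mul]
  rcases lt_or_ge n 0 with hn | hn
  · rw [ModularCurve.ofPowerSeries_coeff_of_neg _ hn]
    by_cases hdv : (d : ℤ) ∣ n
    · obtain ⟨k, rfl⟩ := hdv
      rw [qExpand_coeff_mul]
      have hk : k < 0 := by
        by_contra hk
        rw [not_lt] at hk
        have : (0 : ℤ) ≤ (d : ℤ) * k := mul_nonneg (by positivity) hk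
        omega
      rw [ModularCurve.ofPowerSeries_coeff_of_neg _ hk, mul_zero]
    · rw [qExpand_coeff_of_not_dvd _ _ hdv, mul_zero]
  · obtain ⟨m, rfl⟩ := Int.eq_ofNat_of_zero_le hn
    rw [HahnSeries.ofPowerSeries_apply_coeff, h m]
    by_cases hdv : d ∣ m
    · rw [if_pos hdv]
      obtain ⟨k, rfl⟩ := hdv
      rw [Nat.mul_div_cancel_left _ hd]
      push_cast
      rw [qExpand_coeff_mul, HahnSeries.ofPowerSeries_apply_coeff]
    · rw [if_neg hdv, qExpand_coeff_of_not_dvd, mul_zero]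
      exact_mod_cast hdv

/-- The `q`-expansion of a level raise. -/
lemma ofPS_qExpansion_levelRaise (d : ℕ) [NeZero d] {k : ℤ} (F : ModularForm 𝒮ℒ k) :
    ofPS (qExpansion 1 (levelRaise d F)) =
      HahnSeries.C ((d : ℂ) ^ (k - 1)) * qExpand ℂ d (ofPS (qExpansion 1 F)) :=
  ofPS_eq_C_mul_qExpand d _ _ _
    (Fermat.Agent.S23.H22.qExpansion_levelRaise_coeff d F)

variable (N : ℕ) [NeZero N]

/-- The `t`-expansion of the level raise `F ∣ α_d`, `d ∣ N`. -/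
lemma pexp_fam_q1 {d : ℕ} [NeZero d] (hd : d ∣ N) {k : ℤ} (F : ModularForm 𝒮ℒ k) :
    pexp N (fam N d F (q1 : Q N)) =
      qExpand ℂ N (HahnSeries.C ((d : ℂ) ^ (k - 1)) * qExpand ℂ d (ofPS (qExpansion 1 F))) := by
  have e : fam N d F (q1 : Q N) = (levelRaise d F : ℍ → ℂ) := by
    rw [fam_q1, raise_coe_of_dvd N hd]; rfl
  rw [e, pexp, ofPS_qExpansion_natCast N (Fermat.Agent.S23.H22.nice_G0 d (levelRaise d F)),
    ofPS_qExpansion_levelRaise]


/-- The level one expansions: `E12 / Δ = j`. -/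
lemma ofPS_E12_div_Delta :
    ofPS (qExpansion 1 E12) / ofPS (qExpansion 1 DeltaMF) = coeffMap (algebraMap ℚ ℂ) jq := by
  have h := coeffMap_jq_mul_disc
  have hD : ofPS (qExpansion 1 ModularForm.discriminant) ≠ 0 := by
    intro h0
    have h2 : qExpansion 1 ModularForm.discriminant = 0 := by
      apply HahnSeries.ofPowerSeries_injective (Γ := ℤ) (R := ℂ)
      rw [h0, map_zero]
    have h3 := nice_one_disc.eq_zero_of_qExpansion_eq_zero one_pos h2
    exact ModularForm.discriminant_ne_zero UpperHalfPlane.I (by rw [h3]; rfl)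
  have e1 : (E12 : ℍ → ℂ) = (E₄ : ℍ → ℂ) ^ 3 := by
    ext z; rw [Fermat.Agent.S23.H22.E12_apply]; rfl
  rw [DeltaMF_coe, e1, Nice.qExpansion_pow one_pos nice_one_E4, map_pow, div_eq_iff hD, h]

/-- The `t`-expansion of the conjugate of `j(dz)` at the coset `q`. -/
def Xfam (d : ℕ) (q : Q N) : LaurentSeries ℂ :=
  pexp N (fam N d E12 q) / pexp N (fam N d DeltaMF q)

/-- At the trivial coset, `Xfam` is the formal `j(q^d)`. -/
theorem Xfam_q1 {d : ℕ} [NeZero d] (hd : d ∣ N) :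
    _root_.Fermat.Agent.S28.H76.Xfam N d (q1 : Q N) = iotaN N (qExpand ℚ d jq) := by
  have hc : (HahnSeries.C ((d : ℂ) ^ ((12 : ℤ) - 1)) : LaurentSeries ℂ) ≠ 0 := by
    intro h0
    have : (d : ℂ) ^ ((12 : ℤ) - 1) = 0 := by
      have := congrArg (fun x : LaurentSeries ℂ => x.coeff 0) h0
      simpa [HahnSeries.C_apply] using this
    exact (zpow_ne_zero _ (Nat.cast_ne_zero.mpr (NeZero.ne d))) this
  rw [_root_.Fermat.Agent.S28.H76.Xfam, pexp_fam_q1 N hd E12, pexp_fam_q1 N hd DeltaMF, ← map_div₀ (qExpand ℂ N),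
    mul_div_mul_left _ _ hc, ← map_div₀ (qExpand ℂ d), ofPS_E12_div_Delta, iotaN,
    RingHom.comp_apply, ModularCurve.coeffMap_qExpand]


/-- **Bridge (BR form).** -/
theorem pexp_E12_q1_eq {d : ℕ} [NeZero d] (hd : d ∣ N) :
    pexp N (fam N d E12 (q1 : Q N)) =
      iotaN N (qExpand ℚ d jq) * pexp N (fam N d DeltaMF (q1 : Q N)) := by
  have h := Xfam_q1 N hd
  have h2 : pexp N (fam N d DeltaMF (q1 : Q N)) ≠ 0 := by
    refine pexp_ne_zero (fam_BPH N hd DeltaMF _) (z := UpperHalfPlane.I) ?_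
    obtain ⟨γ, hγ⟩ := exists_rep N (q1 : Q N)
    obtain ⟨a, b, d', h', -, -, heq⟩ := fam_eq_smul_compUT N hd DeltaMF γ
    rw [hγ, heq, Pi.smul_apply, smul_eq_mul]
    refine mul_ne_zero (Fermat.Agent.S23.H83.slash_const_ne_zero a d' h') ?_
    rw [compUT, DeltaMF_coe]
    exact ModularForm.discriminant_ne_zero _
  rw [← h, _root_.Fermat.Agent.S28.H76.Xfam, div_mul_cancel₀ _ h2]

/-- The conjugates of `Δ(Mz)` vanish nowhere. -/
lemma fam_Delta_ne_zero {M : ℕ} (hM : M ∣ N) (q : Q N) (z : ℍ) : fam N M DeltaMF q z ≠ 0 := by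
  obtain ⟨γ, rfl⟩ := exists_rep N q
  obtain ⟨a, b, d, h, -, -, heq⟩ := fam_eq_smul_compUT N hM DeltaMF γ
  rw [heq, Pi.smul_apply, smul_eq_mul]
  refine mul_ne_zero (Fermat.Agent.S23.H83.slash_const_ne_zero a d h) ?_
  rw [compUT, DeltaMF_coe]
  exact ModularForm.discriminant_ne_zero _

/-- Pointwise form of equivariance of a product-combination of families. -/
lemma slash_combo (k₁ k₂ : ℤ) (γ : SL(2, ℤ)) (c s : ℂ)
    (n n' dn dn' De De' Ee Ee' : ℍ → ℂ)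
    (hn : n ∣[k₁] γ = n') (hdn : dn ∣[k₁] γ = dn') (hDe : De ∣[k₂] γ = De')
    (hEe : Ee ∣[k₂] γ = Ee') :
    (c • (dn * De) - n * De - s • (dn * Ee)) ∣[k₁ + k₂] γ =
      c • (dn' * De') - n' * De' - s • (dn' * Ee') := by
  rw [sub_eq_add_neg, sub_eq_add_neg, SlashAction.add_slash, SlashAction.add_slash,
    SlashAction.neg_slash, SlashAction.neg_slash, ModularForm.SL_smul_slash,
    ModularForm.SL_smul_slash, ModularForm.mul_slash_SL2, ModularForm.mul_slash_SL2,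
    ModularForm.mul_slash_SL2, hn, hdn, hDe, hEe, ← sub_eq_add_neg, ← sub_eq_add_neg]

/-- The field identity behind `sym_of_families`. -/
lemma combo_div {K : Type*} [Field K] (C S xn xd e D : K) (hxd : xd ≠ 0) (hD : D ≠ 0) :
    C - xn / xd - S * (e / D) = (C * (xd * D) - xn * D - S * (xd * e)) / (xd * D) := by
  field_simp

/-- **The `sym` field of `CAData`** for a unit given as a quotient of two equivariant families. -/
theorem sym_of_families (ku : ℤ) (uNum uDen : Q N → ℍ → ℂ)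
    (hn : ∀ γ q, uNum q ∣[ku] γ = uNum (piPerm N γ q))
    (hd : ∀ γ q, uDen q ∣[ku] γ = uDen (piPerm N γ q))
    (hnB : ∀ q, BPH N (uNum q)) (hdB : ∀ q, BPH N (uDen q)) (hd0 : ∀ q z, uDen q z ≠ 0)
    (d : ℕ) (hdN : d ∣ N) (c s : ℂ) :
    (∏ q, (HahnSeries.C c - pexp N (uNum q) / pexp N (uDen q) - HahnSeries.C s * _root_.Fermat.Agent.S28.H76.Xfam N d q)) ∈
      Algebra.adjoin ℂ ({iotaN N jq} : Set (LaurentSeries ℂ)) := by
  have hDeB : ∀ q, BPH N (fam N d DeltaMF q) := fun q => fam_BPH N hdN DeltaMF q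
  have hEeB : ∀ q, BPH N (fam N d E12 q) := fun q => fam_BPH N hdN E12 q
  have hDe0 : ∀ q z, fam N d DeltaMF q z ≠ 0 := fun q z => _root_.Fermat.Agent.S28.H76.fam_Delta_ne_zero N hdN q z
  have haB : ∀ q, BPH N (c • (uDen q * fam N d DeltaMF q) - uNum q * fam N d DeltaMF q -
      s • (uDen q * fam N d E12 q)) := fun q =>
    ((((hdB q).mul (hDeB q)).smul c).sub ((hnB q).mul (hDeB q))).sub
      (((hdB q).mul (hEeB q)).smul s)
  have hbB : ∀ q, BPH N (uDen q * fam N d DeltaMF q) := fun q => (hdB q).mul (hDeB q)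
  have key := stmt_sym N (Q N) (piPerm N) (ku + 12)
    (fun q => c • (uDen q * fam N d DeltaMF q) - uNum q * fam N d DeltaMF q -
      s • (uDen q * fam N d E12 q))
    (fun q => uDen q * fam N d DeltaMF q)
    (fun γ q => slash_combo ku 12 γ c s _ _ _ _ _ _ _ _ (hn γ q) (hd γ q)
      (fam_slash N d DeltaMF γ q) (fam_slash N d E12 γ q))
    (fun γ q => by
      rw [ModularForm.mul_slash_SL2, hd, fam_slash])
    (fun q => (haB q).hol) (fun q => (hbB q).hol) (fun q => (haB q).bdd) (fun q => (hbB q).bdd)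
    (fun q => (haB q).per) (fun q => (hbB q).per)
    (fun q z => mul_ne_zero (hd0 q z) (hDe0 q z))
  convert key using 1
  refine Finset.prod_congr rfl fun q _ => ?_
  have h1 : pexp N (uDen q) ≠ 0 := pexp_ne_zero (hdB q) (hd0 q UpperHalfPlane.I)
  have h2 : pexp N (fam N d DeltaMF q) ≠ 0 := pexp_ne_zero (hDeB q) (hDe0 q UpperHalfPlane.I)
  rw [_root_.Fermat.Agent.S28.H76.Xfam, combo_div _ _ _ _ _ _ h1 h2,
    pexp_sub ((((hdB q).mul (hDeB q)).smul c).sub ((hnB q).mul (hDeB q)))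
      (((hdB q).mul (hEeB q)).smul s),
    pexp_sub (((hdB q).mul (hDeB q)).smul c) ((hnB q).mul (hDeB q)),
    pexp_smul c ((hdB q).mul (hDeB q)), pexp_smul s ((hdB q).mul (hEeB q)),
    pexp_mul (hdB q) (hDeB q), pexp_mul (hnB q) (hDeB q), pexp_mul (hdB q) (hEeB q)]

end Fermat.Agent.S28.H76

end
end
-- ==== END Fermat.Agent.S28.H76_X

-- ==== BEGIN Fermat.Agent.S30.H29_Assemble
section

/-!
# S30 wiring, WP G4 (Assembly), helper29

`assembleS : Stmt_Step0 → Fermat.Agent.S35.Stmt_AssembleS` (structural form of the assembly):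

* Step 0 gives the quadratic relations over `𝒪`;
* base change to `K = Frac 𝒪`, SmallPiece gives a stable subspace `W` of dimension `1` or `2` over
  a finite extension `K''`;
* `exists_finiteExtDVR` gives the complete discrete valuation ring `𝒪''` of `K''`;
* Compress gives the representation `ρ_d` on the lattice of `W`;
* `d = 2`: Lemma B: `det = ε` (stable plane) or everything is scalar (stable line);
* `d = 1` or scalar: `ψ ⊕ ε ψ⁻¹`.
-/

set_option autoImplicit false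

open Matrix

namespace Fermat.Agent.S30.H29

open Fermat.Agent.S30

section Transfer

variable {R : Type} [CommRing R] {G : Type} [Group G] {r d : ℕ}

/-- The compressed representation is `Q * ρ g * P`. -/
theorem compress_eq (ρ : G →* Matrix (Fin r) (Fin r) R) (ρ' : G →* Matrix (Fin d) (Fin d) R)
    (P : Matrix (Fin r) (Fin d) R) (Q : Matrix (Fin d) (Fin r) R) (hQP : Q * P = 1)
    (hint : ∀ g, ρ g * P = P * ρ' g) (g : G) : ρ' g = Q * ρ g * P := by
  rw [Matrix.mul_assoc, hint, ← Matrix.mul_assoc, hQP, Matrix.one_mul]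

/-- Quadratic relations pass to the compressed representation. -/
theorem quadAll_compress (ρ : G →* Matrix (Fin r) (Fin r) R)
    (ρ' : G →* Matrix (Fin d) (Fin d) R)
    (P : Matrix (Fin r) (Fin d) R) (Q : Matrix (Fin d) (Fin r) R) (hQP : Q * P = 1)
    (hint : ∀ g, ρ g * P = P * ρ' g) (ε : G →* Rˣ) (hq : QuadAll ρ ε) : QuadAll ρ' ε := by
  intro g
  obtain ⟨a, ha⟩ := hq g
  refine ⟨a, ?_⟩
  have h1 : ρ' g = Q * ρ g * P := compress_eq ρ ρ' P Q hQP hint g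
  have h2 : ρ' g * ρ' g = Q * (ρ g * ρ g) * P := by
    calc ρ' g * ρ' g = Q * ρ g * P * ρ' g := by rw [← h1]
      _ = Q * ρ g * (ρ g * P) := by rw [Matrix.mul_assoc (Q * ρ g), hint]
      _ = Q * (ρ g * ρ g) * P := by simp only [Matrix.mul_assoc]
  have h3 : Q * (ρ g * ρ g - a • ρ g + (ε g : R) • (1 : Matrix (Fin r) (Fin r) R)) * P
      = ρ' g * ρ' g - a • ρ' g + (ε g : R) • (1 : Matrix (Fin d) (Fin d) R) := by
    rw [Matrix.mul_add, Matrix.mul_sub, Matrix.add_mul, Matrix.sub_mul, ← h2,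
      Matrix.mul_smul, Matrix.smul_mul, ← h1, Matrix.mul_smul, Matrix.smul_mul, Matrix.mul_one,
      hQP]
  rw [← h3, ha, Matrix.mul_zero, Matrix.zero_mul]

/-- Continuity passes to the compressed representation. -/
theorem matAdicCont_compress [IsLocalRing R] (ρ : GQ →* Matrix (Fin r) (Fin r) R)
    (ρ' : GQ →* Matrix (Fin d) (Fin d) R)
    (P : Matrix (Fin r) (Fin d) R) (Q : Matrix (Fin d) (Fin r) R) (hQP : Q * P = 1)
    (hint : ∀ g, ρ g * P = P * ρ' g) (h : MatAdicCont ρ) : MatAdicCont ρ' := by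
  intro n
  obtain ⟨L, hL, hσ⟩ := h n
  refine ⟨L, hL, fun σ hfix i j => ?_⟩
  have e : ρ' σ - 1 = Q * (ρ σ - 1) * P := by
    rw [Matrix.mul_sub, Matrix.sub_mul, Matrix.mul_one, hQP,
      ← compress_eq ρ ρ' P Q hQP hint σ]
  rw [e, Matrix.mul_apply]
  refine Ideal.sum_mem _ fun k _ => ?_
  apply Ideal.mul_mem_right
  rw [Matrix.mul_apply]
  exact Ideal.sum_mem _ fun l _ => Ideal.mul_mem_left _ _ (hσ σ hfix l k)

/-- A scalar compressed representation gives a stable line with its character. -/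
theorem line_of_scalar [Nontrivial R] (hd : 0 < d) (ρ : G →* Matrix (Fin r) (Fin r) R)
    (ρ' : G →* Matrix (Fin d) (Fin d) R)
    (P : Matrix (Fin r) (Fin d) R) (Q : Matrix (Fin d) (Fin r) R) (hQP : Q * P = 1)
    (hint : ∀ g, ρ g * P = P * ρ' g)
    (hsc : ∀ g, ∃ c : R, ρ' g = c • (1 : Matrix (Fin d) (Fin d) R)) :
    ∃ (ψ : G →* Rˣ) (v : Fin r → R), v ≠ 0 ∧ (∀ g, (ρ g).mulVec v = (ψ g : R) • v) ∧
      ∀ g, (ψ g : R) = ρ' g ⟨0, hd⟩ ⟨0, hd⟩ := by
  classical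
  have hc : ∀ g, ρ' g = (ρ' g ⟨0, hd⟩ ⟨0, hd⟩) • (1 : Matrix (Fin d) (Fin d) R) := by
    intro g
    obtain ⟨c, hc⟩ := hsc g
    have : ρ' g ⟨0, hd⟩ ⟨0, hd⟩ = c := by
      rw [hc]
      simp
    rw [this]
    exact hc
  let ψ₀ : G →* R :=
    { toFun := fun g => ρ' g ⟨0, hd⟩ ⟨0, hd⟩
      map_one' := by simp
      map_mul' := fun g h => by
        show ρ' (g * h) ⟨0, hd⟩ ⟨0, hd⟩ = ρ' g ⟨0, hd⟩ ⟨0, hd⟩ * ρ' h ⟨0, hd⟩ ⟨0, hd⟩
        rw [map_mul]
        nth_rewrite 1 [hc g]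
        rw [Matrix.smul_mul, Matrix.one_mul, Matrix.smul_apply, smul_eq_mul] }
  refine ⟨ψ₀.toHomUnits, fun i => P i ⟨0, hd⟩, ?_, ?_, fun g => rfl⟩
  · intro hv
    have h1 : (Q * P) ⟨0, hd⟩ ⟨0, hd⟩ = 0 := by
      rw [Matrix.mul_apply]
      refine Finset.sum_eq_zero fun i _ => ?_
      have := congrFun hv i
      simp only [Pi.zero_apply] at this
      rw [this, mul_zero]
    rw [hQP, Matrix.one_apply_eq] at h1
    exact one_ne_zero h1
  · intro g
    ext i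
    have h1 : ((ρ g).mulVec fun i => P i ⟨0, hd⟩) i = (ρ g * P) i ⟨0, hd⟩ := by
      rw [Matrix.mul_apply]
      rfl
    rw [h1, hint, hc g, Matrix.mul_smul, Matrix.mul_one, Matrix.smul_apply]
    rfl

end Transfer

section Maps

variable {R R' : Type} [CommRing R] [CommRing R'] {G : Type} [Group G] {r : ℕ}

/-- Quadratic relations pass to a base change. -/
theorem quadAll_map (φ : R →+* R') (ρ : G →* Matrix (Fin r) (Fin r) R)
    (ρ' : G →* Matrix (Fin r) (Fin r) R') (hρ' : ∀ g, ρ' g = (ρ g).map φ) (ε : G →* Rˣ)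
    (h : QuadAll ρ ε) : QuadAll ρ' ((Units.map φ.toMonoidHom).comp ε) := by
  intro g
  obtain ⟨a, ha⟩ := h g
  refine ⟨φ a, ?_⟩
  have hΦs : ∀ (c : R) (M : Matrix (Fin r) (Fin r) R),
      φ.mapMatrix (c • M) = φ c • φ.mapMatrix M := by
    intro c M
    ext i j
    simp
  have := congrArg (φ.mapMatrix : Matrix (Fin r) (Fin r) R →+* Matrix (Fin r) (Fin r) R') ha
  rw [map_add, map_sub, map_mul, hΦs, hΦs, map_one, map_zero] at this
  rw [hρ' g]
  exact this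

/-- Continuity of a character passes to a base change along a local homomorphism. -/
theorem charAdicCont_map [IsLocalRing R] [IsLocalRing R'] (φ : R →+* R') [IsLocalHom φ]
    (ε : GQ →* Rˣ) (h : CharAdicCont ε) :
    CharAdicCont ((Units.map φ.toMonoidHom).comp ε) := by
  intro n
  obtain ⟨L, hL, hσ⟩ := h n
  refine ⟨L, hL, fun σ hfix => ?_⟩
  have e : ((((Units.map φ.toMonoidHom).comp ε) σ : R'ˣ) : R') - 1 = φ ((ε σ : R) - 1) := by
    rw [map_sub, map_one]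
    rfl
  rw [e]
  exact H2.map_mem_maximalIdeal_pow φ n (hσ σ hfix)

end Maps

section Diag

variable {R : Type} [CommRing R] [IsLocalRing R]

/-- Continuity of `ψ ⊕ ε ψ⁻¹`. -/
theorem matAdicCont_diag (ψ ε : GQ →* Rˣ) (ρ₂ : GQ →* Matrix (Fin 2) (Fin 2) R)
    (hρ₂ : ∀ g, ρ₂ g = Matrix.diagonal ![(ψ g : R), ((ε g * (ψ g)⁻¹ : Rˣ) : R)])
    (hψ : CharAdicCont ψ) (hε : CharAdicCont ε) : MatAdicCont ρ₂ := by
  intro n
  obtain ⟨L₁, hL₁, h₁⟩ := hψ n
  obtain ⟨L₂, hL₂, h₂⟩ := hε n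
  have := hL₁
  have := hL₂
  refine ⟨L₁ ⊔ L₂, IntermediateField.finiteDimensional_sup L₁ L₂, fun σ hfix i j => ?_⟩
  have hf₁ := h₁ σ (fun x hx => hfix x ((le_sup_left : L₁ ≤ L₁ ⊔ L₂) hx))
  have hf₂ := h₂ σ (fun x hx => hfix x ((le_sup_right : L₂ ≤ L₁ ⊔ L₂) hx))
  rw [hρ₂ σ]
  have key : ((ε σ * (ψ σ)⁻¹ : Rˣ) : R) - 1
      = (((ψ σ)⁻¹ : Rˣ) : R) * (((ε σ : R) - 1) - ((ψ σ : R) - 1)) := by
    have h1 : (((ψ σ)⁻¹ : Rˣ) : R) * (ψ σ : R) = 1 := by
      rw [← Units.val_mul, inv_mul_cancel, Units.val_one]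
    rw [Units.val_mul]
    linear_combination h1
  have hent : ∀ (dv : Fin 2 → R) (i j : Fin 2),
      (Matrix.diagonal dv - 1) i j = if i = j then dv i - 1 else 0 := by
    intro dv i j
    by_cases h : i = j
    · subst h
      simp
    · simp [h, Matrix.one_apply_ne h]
  rw [hent]
  split_ifs with h
  · subst h
    fin_cases i
    · simpa using hf₁
    · show ((ε σ * (ψ σ)⁻¹ : Rˣ) : R) - 1 ∈ _
      rw [key]
      exact Ideal.mul_mem_left _ _ (Ideal.sub_mem _ hf₂ hf₁)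
  · exact zero_mem _

end Diag

section Main

/-- The line case of the assembly: a character `ψ` on a stable line gives `ψ ⊕ ε ψ⁻¹`. -/
theorem assemble_line {𝒪 𝒪'' : Type} [CommRing 𝒪] [CommRing 𝒪''] [IsLocalRing 𝒪]
    [IsLocalRing 𝒪''] [Algebra 𝒪 𝒪''] [IsLocalHom (algebraMap 𝒪 𝒪'')] {r : ℕ}
    (ρ : GQ →* Matrix (Fin r) (Fin r) 𝒪) (ε : GQ →* 𝒪ˣ) (hε : CharAdicCont ε)
    (ψ : GQ →* 𝒪''ˣ) (hψ : CharAdicCont ψ) (v : Fin r → 𝒪'') (hv : v ≠ 0)
    (hρv : ∀ g : GQ, ((ρ g).map (algebraMap 𝒪 𝒪'')).mulVec v = (ψ g : 𝒪'') • v) :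
    ∃ ρ₂ : GQ →* Matrix (Fin 2) (Fin 2) 𝒪'', MatAdicCont ρ₂ ∧
        (∀ g : GQ, (ρ₂ g).det = algebraMap 𝒪 𝒪'' (ε g : 𝒪)) ∧
        ((∃ (P : Matrix (Fin r) (Fin 2) 𝒪'') (Q : Matrix (Fin 2) (Fin r) 𝒪''),
            Q * P = 1 ∧ ∀ g : GQ, (ρ g).map (algebraMap 𝒪 𝒪'') * P = P * ρ₂ g) ∨
         (∃ (ψ : GQ →* 𝒪''ˣ) (v : Fin r → 𝒪''), v ≠ 0 ∧
            (∀ g : GQ, ((ρ g).map (algebraMap 𝒪 𝒪'')).mulVec v = (ψ g : 𝒪'') • v) ∧
            ∀ g : GQ, ρ₂ g =
              Matrix.diagonal ![(ψ g : 𝒪''),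
                algebraMap 𝒪 𝒪'' (ε g : 𝒪) * (((ψ g)⁻¹ : 𝒪''ˣ) : 𝒪'')])) := by
  set ε'' : GQ →* 𝒪''ˣ := (Units.map (algebraMap 𝒪 𝒪'').toMonoidHom).comp ε with hε''
  have hε''c : CharAdicCont ε'' := charAdicCont_map (algebraMap 𝒪 𝒪'') ε hε
  have hε''v : ∀ g, ((ε'' g : 𝒪''ˣ) : 𝒪'') = algebraMap 𝒪 𝒪'' (ε g : 𝒪) := fun g => rfl
  obtain ⟨ρ₂, hρ₂, -⟩ := Fermat.Agent.R.H89.stmt_CharSum 𝒪'' GQ ψ ε''
  refine ⟨ρ₂, matAdicCont_diag ψ ε'' ρ₂ hρ₂ hψ hε''c, ?_, Or.inr ⟨ψ, v, hv, hρv, ?_⟩⟩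
  · intro g
    rw [hρ₂ g, Matrix.det_diagonal, Fin.prod_univ_two]
    simp only [Matrix.cons_val_zero, Matrix.cons_val_one]
    rw [← hε''v g, ← Units.val_mul]
    congr 1
    rw [mul_comm, mul_assoc, inv_mul_cancel, mul_one]
  · intro g
    rw [hρ₂ g, Units.val_mul, hε''v g]

/-- **WP G4 (Assembly), structural form.** -/
theorem assembleS (h0 : Stmt_Step0) : Fermat.Agent.S35.Stmt_AssembleS := by
  intro 𝒪 _ _ _ _ _ _ S a r hr ρ ε hρ hε hES hcyc
  classical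
  have hq : QuadAll ρ ε := h0 𝒪 S a r hr ρ ε hρ hε hES hcyc
  -- base change to the fraction field
  obtain ⟨ρK, hρK⟩ : ∃ ρK : GQ →* Matrix (Fin r) (Fin r) (FractionRing 𝒪),
      ∀ g, ρK g = (ρ g).map (algebraMap 𝒪 (FractionRing 𝒪)) :=
    ⟨((algebraMap 𝒪 (FractionRing 𝒪)).mapMatrix :
      Matrix (Fin r) (Fin r) 𝒪 →+* Matrix (Fin r) (Fin r) (FractionRing 𝒪)).toMonoidHom.comp ρ,
      fun g => rfl⟩
  have hqK := quadAll_map (algebraMap 𝒪 (FractionRing 𝒪)) ρ ρK hρK ε hq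
  have hcz : CharZero (FractionRing 𝒪) :=
    charZero_of_injective_algebraMap (IsFractionRing.injective 𝒪 (FractionRing 𝒪))
  obtain ⟨K'', iF, iA, iFD, W, hW0, hWd, hWst⟩ :=
    smallPiece (FractionRing 𝒪) GQ r hr ρK _ hqK
  let iA2 : Algebra 𝒪 K'' :=
    ((algebraMap (FractionRing 𝒪) K'').comp (algebraMap 𝒪 (FractionRing 𝒪))).toAlgebra
  have iST : IsScalarTower 𝒪 (FractionRing 𝒪) K'' := IsScalarTower.of_algebraMap_eq (fun x => rfl)
  obtain ⟨𝒪'', i1, i2, i3, i4, i5, i6, i7, i8, i9, i10, i11, i12, hinj, -⟩ :=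
    Fermat.Agent.R.H2.exists_finiteExtDVR 𝒪 (FractionRing 𝒪) K''
  refine ⟨𝒪'', i1, i2, i3, i4, i5, i6, i7, i8, i9, hinj, ?_⟩
  -- the representation over `𝒪''`
  obtain ⟨ρ'', hρ'', hρ''c⟩ := H2.stmt_MapRep 𝒪 𝒪'' (algebraMap 𝒪 𝒪'') i9 r ρ hρ
  have hq'' := quadAll_map (algebraMap 𝒪 𝒪'') ρ ρ'' hρ'' ε hq
  have hε''c : CharAdicCont ((Units.map (algebraMap 𝒪 𝒪'').toMonoidHom).comp ε) :=
    charAdicCont_map (algebraMap 𝒪 𝒪'') ε hε
  have hWst'' : ∀ g : GQ, ∀ w ∈ W, ((ρ'' g).map (algebraMap 𝒪'' K'')).mulVec w ∈ W := by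
    intro g w hw
    have e : (ρ'' g).map (algebraMap 𝒪'' K'')
        = (ρK g).map (algebraMap (FractionRing 𝒪) K'') := by
      ext i j
      rw [hρ'', hρK]
      simp only [Matrix.map_apply]
      rw [← IsScalarTower.algebraMap_apply, ← IsScalarTower.algebraMap_apply]
    rw [e]
    exact hWst g w hw
  have hpos : 0 < Module.finrank K'' W := by
    rw [Module.finrank_pos_iff_exists_ne_zero]
    obtain ⟨w, hw, hw0⟩ := (Submodule.ne_bot_iff W).1 hW0
    exact ⟨⟨w, hw⟩, fun h => hw0 (congrArg Subtype.val h)⟩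
  obtain ⟨P, Q, ρd, hQP, hint⟩ := H2.stmt_Compress 𝒪'' K'' GQ r ρ'' W hWst''
  generalize hd : Module.finrank K'' W = d at P Q ρd hQP hint hWd hpos
  have hqd := quadAll_compress ρ'' ρd P Q hQP hint _ hq''
  have hcd := matAdicCont_compress ρ'' ρd P Q hQP hint hρ''c
  -- the scalar case
  have hline : (∀ g, ∃ c : 𝒪'', ρd g = c • (1 : Matrix (Fin d) (Fin d) 𝒪'')) →
      ∃ ρ₂ : GQ →* Matrix (Fin 2) (Fin 2) 𝒪'', MatAdicCont ρ₂ ∧
        (∀ g : GQ, (ρ₂ g).det = algebraMap 𝒪 𝒪'' (ε g : 𝒪)) ∧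
        ((∃ (P : Matrix (Fin r) (Fin 2) 𝒪'') (Q : Matrix (Fin 2) (Fin r) 𝒪''),
            Q * P = 1 ∧ ∀ g : GQ, (ρ g).map (algebraMap 𝒪 𝒪'') * P = P * ρ₂ g) ∨
         (∃ (ψ : GQ →* 𝒪''ˣ) (v : Fin r → 𝒪''), v ≠ 0 ∧
            (∀ g : GQ, ((ρ g).map (algebraMap 𝒪 𝒪'')).mulVec v = (ψ g : 𝒪'') • v) ∧
            ∀ g : GQ, ρ₂ g =
              Matrix.diagonal ![(ψ g : 𝒪''),
                algebraMap 𝒪 𝒪'' (ε g : 𝒪) * (((ψ g)⁻¹ : 𝒪''ˣ) : 𝒪'')])) := by
    intro hsc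
    obtain ⟨ψ, v, hv, hρv, hψ⟩ := line_of_scalar hpos ρ'' ρd P Q hQP hint hsc
    have hψc : CharAdicCont ψ := by
      intro n
      obtain ⟨L, hL, hσ⟩ := hcd n
      refine ⟨L, hL, fun σ hfix => ?_⟩
      have := hσ σ hfix ⟨0, hpos⟩ ⟨0, hpos⟩
      rw [Matrix.sub_apply, Matrix.one_apply_eq, ← hψ σ] at this
      exact this
    refine assemble_line ρ ε hε ψ hψc v hv ?_
    intro g
    rw [← hρ'' g]
    exact hρv g
  have hd12 : d = 1 ∨ d = 2 := by omega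
  rcases hd12 with rfl | rfl
  · -- rank one: everything is scalar
    refine hline (fun g => ⟨ρd g 0 0, ?_⟩)
    ext i j
    have hi : i = 0 := Subsingleton.elim _ _
    have hj : j = 0 := Subsingleton.elim _ _
    rw [hi, hj]
    simp
  · -- rank two: Lemma B
    rcases Fermat.Agent.R.H89.stmt_LemmaB 𝒪'' GQ ρd _ hqd with hdet | hsc
    · refine ⟨ρd, hcd, hdet, Or.inl ⟨P, Q, hQP, fun g => ?_⟩⟩
      rw [← hρ'' g]
      exact hint g
    · exact hline hsc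

/-- **WP G4**: Frobenius density gives the structural assembly. -/
theorem assembleS_of_FD (hFD : Fermat.Agent.R.Stmt_FD) : Fermat.Agent.S35.Stmt_AssembleS :=
  assembleS (H2.step0 hFD)

end Main

end Fermat.Agent.S30.H29

end
-- ==== END Fermat.Agent.S30.H29_Assemble

-- ==== BEGIN Fermat.Agent.S35.H89_Transfer
section

/-!
# Transfer clauses from the structural assembly (helper89; cluster R, rows S30/S30U/S35/S36)

`Stmt_AssembleX` : the assembly with ALL transfer clauses: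

* (F) Frobenius characteristic polynomials at the primes outside `S`;
* (T) `ρ σ = 1`, `ε σ = 1` ⇒ `ρ'' σ = 1`;
* (Q) `ρ σ² - t ρ σ + ε σ = 0` ⇒ `charpoly (ρ'' σ) = X² - t X + ε σ`;
* (P) `∏_{c ∈ cs} (ρ σ - c) = 0` ⇒ `charpoly (ρ'' σ) = (X - c)(X - d)`, `c ∈ cs`, `c d = ε σ`;
* (N) a subgroup `H` without nonzero fixed vector in `𝒪^r` is not unipotent in `ρ''`.

`assembleX_of_assembleS : Stmt_AssembleS → Stmt_AssembleX` and
`assemble_of_assembleX : Stmt_AssembleX → Fermat.Agent.S30.Stmt_Assemble`.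
-/

set_option autoImplicit false

open Polynomial Matrix

namespace Fermat.Agent.S35

open Fermat.Agent.S30

/-- The assembly with all transfer clauses. -/
def Stmt_AssembleX : Prop :=
  ∀ (𝒪 : Type) [CommRing 𝒪] [IsDomain 𝒪] [IsDiscreteValuationRing 𝒪]
    [IsAdicComplete (IsLocalRing.maximalIdeal 𝒪) 𝒪] [Finite (IsLocalRing.ResidueField 𝒪)]
    [CharZero 𝒪]
    (S : Finset ℕ) (a : ℕ → 𝒪) (r : ℕ) (_hr : 0 < r) (ρ : GQ →* Matrix (Fin r) (Fin r) 𝒪)
    (ε : GQ →* 𝒪ˣ), MatAdicCont ρ → CharAdicCont ε → MatES ρ a S → CharCycAt ε S →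
    ∃ (𝒪'' : Type) (_ : CommRing 𝒪'') (_ : IsDomain 𝒪'') (_ : IsDiscreteValuationRing 𝒪'')
      (_ : IsAdicComplete (IsLocalRing.maximalIdeal 𝒪'') 𝒪'')
      (_ : Finite (IsLocalRing.ResidueField 𝒪'')) (_ : CharZero 𝒪'')
      (_ : Algebra 𝒪 𝒪'') (_ : Module.Finite 𝒪 𝒪'') (_ : IsLocalHom (algebraMap 𝒪 𝒪'')),
      Function.Injective (algebraMap 𝒪 𝒪'') ∧
      ∃ ρ'' : GaloisRepAdic 𝒪'',
        (∀ ℓ : ℕ, ℓ.Prime → ℓ ∉ S →
          ∀ A : ValuationSubring (AlgebraicClosure ℚ), A.LiesOverPrime ℓ →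
            ∀ σ : GQ, A.IsFrobeniusAt σ ℓ →
              LinearMap.charpoly (ρ''.ρ σ) =
                X ^ 2 - C (algebraMap 𝒪 𝒪'' (a ℓ)) * X + C ((ℓ : 𝒪''))) ∧
        (∀ σ : GQ, ρ σ = 1 → ε σ = 1 → ρ''.ρ σ = 1) ∧
        (∀ (σ : GQ) (t : 𝒪),
          ρ σ * ρ σ - t • ρ σ + (ε σ : 𝒪) • (1 : Matrix (Fin r) (Fin r) 𝒪) = 0 →
          LinearMap.charpoly (ρ''.ρ σ) =
            X ^ 2 - C (algebraMap 𝒪 𝒪'' t) * X + C (algebraMap 𝒪 𝒪'' (ε σ : 𝒪))) ∧
        (∀ (σ : GQ) (cs : List 𝒪),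
          (cs.map (fun c => ρ σ - c • (1 : Matrix (Fin r) (Fin r) 𝒪))).prod = 0 →
          ∃ c ∈ cs, ∃ d : 𝒪'', algebraMap 𝒪 𝒪'' c * d = algebraMap 𝒪 𝒪'' (ε σ : 𝒪) ∧
            LinearMap.charpoly (ρ''.ρ σ) = (X - C (algebraMap 𝒪 𝒪'' c)) * (X - C d)) ∧
        (∀ H : Subgroup GQ,
          (∀ v : Fin r → 𝒪, (∀ σ ∈ H, (ρ σ).mulVec v = v) → v = 0) →
          ∃ σ ∈ H, LinearMap.charpoly (ρ''.ρ σ) ≠ (X - 1) ^ 2)

namespace H89

section Plane

variable {R : Type} [CommRing R] {r : ℕ}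

theorem plane_pow {A : Matrix (Fin r) (Fin r) R} {B : Matrix (Fin 2) (Fin 2) R}
    {P : Matrix (Fin r) (Fin 2) R} (h : A * P = P * B) :
    A * A * P = P * (B * B) := by
  rw [Matrix.mul_assoc, h, ← Matrix.mul_assoc, h, Matrix.mul_assoc]

theorem plane_quad {A : Matrix (Fin r) (Fin r) R} {B : Matrix (Fin 2) (Fin 2) R}
    {P : Matrix (Fin r) (Fin 2) R} {Q : Matrix (Fin 2) (Fin r) R} (hQP : Q * P = 1)
    (h : A * P = P * B) (t e : R)
    (hA : A * A - t • A + e • (1 : Matrix (Fin r) (Fin r) R) = 0) :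
    B * B - t • B + e • (1 : Matrix (Fin 2) (Fin 2) R) = 0 := by
  have h1 : P * (B * B - t • B + e • (1 : Matrix (Fin 2) (Fin 2) R)) =
      (A * A - t • A + e • (1 : Matrix (Fin r) (Fin r) R)) * P := by
    rw [Matrix.mul_add, Matrix.mul_sub, Matrix.add_mul, Matrix.sub_mul, plane_pow h,
      Matrix.mul_smul, Matrix.smul_mul, h, Matrix.mul_smul, Matrix.smul_mul, Matrix.mul_one,
      Matrix.one_mul]
  rw [hA, Matrix.zero_mul] at h1
  have h2 := congrArg (fun X => Q * X) h1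
  simp only [Matrix.mul_zero] at h2
  rw [← Matrix.mul_assoc, hQP, Matrix.one_mul] at h2
  exact h2

theorem plane_prod {A : Matrix (Fin r) (Fin r) R} {B : Matrix (Fin 2) (Fin 2) R}
    {P : Matrix (Fin r) (Fin 2) R} {Q : Matrix (Fin 2) (Fin r) R} (hQP : Q * P = 1)
    (h : A * P = P * B) (cs : List R)
    (hA : (cs.map (fun c => A - c • (1 : Matrix (Fin r) (Fin r) R))).prod = 0) :
    (cs.map (fun c => B - c • (1 : Matrix (Fin 2) (Fin 2) R))).prod = 0 := by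
  have key : ∀ cs : List R,
      (cs.map (fun c => A - c • (1 : Matrix (Fin r) (Fin r) R))).prod * P =
        P * (cs.map (fun c => B - c • (1 : Matrix (Fin 2) (Fin 2) R))).prod := by
    intro cs
    induction cs with
    | nil => simp
    | cons c cs ih =>
      rw [List.map_cons, List.prod_cons, List.map_cons, List.prod_cons, Matrix.mul_assoc, ih,
        ← Matrix.mul_assoc, ← Matrix.mul_assoc]
      congr 1
      rw [Matrix.sub_mul, Matrix.mul_sub, h, Matrix.smul_mul, Matrix.mul_smul, Matrix.one_mul,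
        Matrix.mul_one]
  have h1 := key cs
  rw [hA, Matrix.zero_mul] at h1
  have h2 := congrArg (fun X => Q * X) h1
  simp only [Matrix.mul_zero] at h2
  rw [← Matrix.mul_assoc, hQP, Matrix.one_mul] at h2
  exact h2.symm

theorem plane_one {A : Matrix (Fin r) (Fin r) R} {B : Matrix (Fin 2) (Fin 2) R}
    {P : Matrix (Fin r) (Fin 2) R} {Q : Matrix (Fin 2) (Fin r) R} (hQP : Q * P = 1)
    (h : A * P = P * B) (hA : A = 1) : B = 1 := by
  rw [hA, Matrix.one_mul] at h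
  have h2 : Q * P = Q * (P * B) := congrArg (fun X => Q * X) h
  rw [← Matrix.mul_assoc, hQP, Matrix.one_mul] at h2
  exact h2.symm

theorem plane_fixed {A : Matrix (Fin r) (Fin r) R} {B : Matrix (Fin 2) (Fin 2) R}
    {P : Matrix (Fin r) (Fin 2) R} (h : A * P = P * B) (w : Fin 2 → R)
    (hw : B.mulVec w = w) : A.mulVec (P.mulVec w) = P.mulVec w := by
  rw [Matrix.mulVec_mulVec, h, ← Matrix.mulVec_mulVec, hw]

theorem plane_ne_zero {P : Matrix (Fin r) (Fin 2) R} {Q : Matrix (Fin 2) (Fin r) R}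
    (hQP : Q * P = 1) (w : Fin 2 → R) (hw : w ≠ 0) : P.mulVec w ≠ 0 := by
  intro h
  apply hw
  have := congrArg (fun x => Q.mulVec x) h
  simp only [Matrix.mulVec_mulVec, hQP, Matrix.one_mulVec, Matrix.mulVec_zero] at this
  exact this

end Plane

section Line

variable {R : Type} [CommRing R] [IsDomain R] {r : ℕ}

theorem line_scalar {v : Fin r → R} (hv : v ≠ 0) (c : R) (h : c • v = 0) : c = 0 := by
  by_contra hc
  apply hv
  ext i
  have := congrFun h i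
  simp only [Pi.smul_apply, smul_eq_mul, Pi.zero_apply] at this ⊢
  exact (mul_eq_zero.1 this).resolve_left hc

theorem line_quad {A : Matrix (Fin r) (Fin r) R} {v : Fin r → R} (hv : v ≠ 0) (ψ : R)
    (h : A.mulVec v = ψ • v) (t e : R)
    (hA : A * A - t • A + e • (1 : Matrix (Fin r) (Fin r) R) = 0) :
    ψ * ψ - t * ψ + e = 0 := by
  apply line_scalar hv
  have h1 : (A * A - t • A + e • (1 : Matrix (Fin r) (Fin r) R)).mulVec v =
      (ψ * ψ - t * ψ + e) • v := by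
    rw [Matrix.add_mulVec, Matrix.sub_mulVec, ← Matrix.mulVec_mulVec, h, Matrix.mulVec_smul, h,
      Matrix.smul_mulVec, h, Matrix.smul_mulVec, Matrix.one_mulVec, add_smul, sub_smul,
      smul_smul, smul_smul]
  rw [← h1, hA, Matrix.zero_mulVec]

theorem line_prod {A : Matrix (Fin r) (Fin r) R} {v : Fin r → R} (hv : v ≠ 0) (ψ : R)
    (h : A.mulVec v = ψ • v) (cs : List R)
    (hA : (cs.map (fun c => A - c • (1 : Matrix (Fin r) (Fin r) R))).prod = 0) :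
    ∃ c ∈ cs, ψ = c := by
  have key : ∀ cs : List R,
      ((cs.map (fun c => A - c • (1 : Matrix (Fin r) (Fin r) R))).prod).mulVec v =
        ((cs.map (fun c => ψ - c)).prod) • v := by
    intro cs
    induction cs with
    | nil => simp
    | cons c cs ih =>
      rw [List.map_cons, List.prod_cons, List.map_cons, List.prod_cons,
        ← Matrix.mulVec_mulVec, ih, Matrix.mulVec_smul, Matrix.sub_mulVec, h,
        Matrix.smul_mulVec, Matrix.one_mulVec, ← sub_smul, smul_smul, mul_comm]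
  have h1 := key cs
  rw [hA, Matrix.zero_mulVec] at h1
  have h2 := line_scalar hv _ h1.symm
  rw [List.prod_eq_zero_iff] at h2
  obtain ⟨c, hc, hc0⟩ := List.mem_map.1 h2
  exact ⟨c, hc, sub_eq_zero.1 hc0⟩

theorem line_one {A : Matrix (Fin r) (Fin r) R} {v : Fin r → R} (hv : v ≠ 0) (ψ : R)
    (h : A.mulVec v = ψ • v) (hA : A = 1) : ψ = 1 := by
  rw [hA, Matrix.one_mulVec] at h
  have h1 : (ψ - 1) • v = 0 := by rw [sub_smul, one_smul, ← h, sub_self]
  exact sub_eq_zero.1 (line_scalar hv _ h1)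

end Line

section Descent

/-- Fixed vectors descend along a finite free extension. -/
theorem descent_fixed {𝒪 𝒪'' : Type} [CommRing 𝒪] [IsDomain 𝒪] [IsPrincipalIdealRing 𝒪]
    [CommRing 𝒪''] [IsDomain 𝒪''] [Algebra 𝒪 𝒪''] [Module.Finite 𝒪 𝒪'']
    (hinj : Function.Injective (algebraMap 𝒪 𝒪'')) {r : ℕ} {ι : Type*}
    (A : ι → Matrix (Fin r) (Fin r) 𝒪) (v : Fin r → 𝒪'') (hv : v ≠ 0)
    (hfix : ∀ i, ((A i).map (algebraMap 𝒪 𝒪'')).mulVec v = v) :
    ∃ v₀ : Fin r → 𝒪, v₀ ≠ 0 ∧ ∀ i, (A i).mulVec v₀ = v₀ := by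
  have : Module.IsTorsionFree 𝒪 𝒪'' := Module.isTorsionFree_iff_algebraMap_injective.2 hinj
  have : Module.Free 𝒪 𝒪'' := Module.free_of_finite_type_torsion_free'
  let b := Module.Free.chooseBasis 𝒪 𝒪''
  have hk : ∃ k, v k ≠ 0 := by
    by_contra hcon
    rw [not_exists] at hcon
    apply hv
    ext k
    exact not_not.1 (hcon k)
  obtain ⟨k, hk⟩ := hk
  have hj : ∃ j, b.repr (v k) j ≠ 0 := by
    by_contra hcon
    rw [not_exists] at hcon
    apply hk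
    apply b.repr.injective
    ext j
    rw [map_zero, Finsupp.zero_apply]
    exact not_not.1 (hcon j)
  obtain ⟨j, hj⟩ := hj
  refine ⟨fun m => b.coord j (v m), ?_, fun i => ?_⟩
  · intro h
    exact hj (congrFun h k)
  · ext m
    have h1 := congrFun (hfix i) m
    simp only [Matrix.mulVec, dotProduct, Matrix.map_apply] at h1 ⊢
    rw [← h1, map_sum]
    refine Finset.sum_congr rfl (fun n _ => ?_)
    rw [← Algebra.smul_def, map_smul, smul_eq_mul]

end Descent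

section MapLemmas

variable {R R' : Type} [CommRing R] [CommRing R'] {n : ℕ}

theorem map_quad (f : R →+* R') (A : Matrix (Fin n) (Fin n) R) (t e : R)
    (h : A * A - t • A + e • (1 : Matrix (Fin n) (Fin n) R) = 0) :
    A.map f * A.map f - f t • A.map f + f e • (1 : Matrix (Fin n) (Fin n) R') = 0 := by
  have h1 := congrArg (fun M => f.mapMatrix M) h
  simp only [map_add, map_sub, map_mul, map_zero] at h1
  rw [RingHom.mapMatrix_apply] at h1
  have e1 : f.mapMatrix (t • A) = f t • A.map f := by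
    ext i j
    simp [RingHom.mapMatrix_apply]
  have e2 : f.mapMatrix (e • (1 : Matrix (Fin n) (Fin n) R)) =
      f e • (1 : Matrix (Fin n) (Fin n) R') := by
    ext i j
    simp [RingHom.mapMatrix_apply, Matrix.one_apply]
    split_ifs <;> simp
  rw [e1, e2] at h1
  exact h1

theorem map_prod (f : R →+* R') (A : Matrix (Fin n) (Fin n) R) (cs : List R)
    (h : (cs.map (fun c => A - c • (1 : Matrix (Fin n) (Fin n) R))).prod = 0) :
    ((cs.map f).map (fun c => A.map f - c • (1 : Matrix (Fin n) (Fin n) R'))).prod = 0 := by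
  have h1 := congrArg (fun M => f.mapMatrix M) h
  simp only [map_zero, map_list_prod, List.map_map] at h1
  rw [List.map_map]
  rw [← h1]
  congr 1
  apply List.map_congr_left
  intro c _
  simp only [Function.comp_apply, map_sub]
  congr 1
  ext i j
  simp [RingHom.mapMatrix_apply, Matrix.one_apply]
  split_ifs <;> simp

theorem map_one_of_eq_one (f : R →+* R') (A : Matrix (Fin n) (Fin n) R) (h : A = 1) :
    A.map f = 1 := by
  rw [h]
  ext i j
  simp [Matrix.one_apply]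

theorem map_mulVec_map (f : R →+* R') (A : Matrix (Fin n) (Fin n) R) (v : Fin n → R) :
    (A.map f).mulVec (fun i => f (v i)) = fun i => f (A.mulVec v i) := by
  ext i
  simp [Matrix.mulVec, dotProduct, map_sum]

theorem charpoly_diag2 [Nontrivial R] (x y : R) :
    (Matrix.diagonal ![x, y]).charpoly = (X - C x) * (X - C y) := by
  rw [Matrix.charpoly_fin_two]
  simp
  ring

end MapLemmas

section Struct

variable {R R' : Type} [CommRing R] [CommRing R'] [IsDomain R'] [Algebra R R']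
  {G : Type} [Group G] {r : ℕ}

/-- The structural alternative of `Stmt_AssembleS`. -/
def Struct (ρ : G →* Matrix (Fin r) (Fin r) R) (ε : G →* Rˣ)
    (ρ₂ : G →* Matrix (Fin 2) (Fin 2) R') : Prop :=
  (∃ (P : Matrix (Fin r) (Fin 2) R') (Q : Matrix (Fin 2) (Fin r) R'),
      Q * P = 1 ∧ ∀ g : G, (ρ g).map (algebraMap R R') * P = P * ρ₂ g) ∨
   (∃ (ψ : G →* R'ˣ) (v : Fin r → R'), v ≠ 0 ∧
      (∀ g : G, ((ρ g).map (algebraMap R R')).mulVec v = (ψ g : R') • v) ∧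
      ∀ g : G, ρ₂ g =
        Matrix.diagonal ![(ψ g : R'),
          algebraMap R R' (ε g : R) * (((ψ g)⁻¹ : R'ˣ) : R')])

variable {ρ : G →* Matrix (Fin r) (Fin r) R} {ε : G →* Rˣ}
  {ρ₂ : G →* Matrix (Fin 2) (Fin 2) R'}

theorem algebraMap_unit_ne_zero (u : Rˣ) : algebraMap R R' (u : R) ≠ 0 := by
  have h : IsUnit (algebraMap R R' (u : R)) := (Units.isUnit u).map (algebraMap R R')
  exact h.ne_zero

theorem struct_quad (hs : Struct ρ ε ρ₂) (hdet : ∀ g, (ρ₂ g).det = algebraMap R R' (ε g : R))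
    (σ : G) (t : R)
    (h : ρ σ * ρ σ - t • ρ σ + (ε σ : R) • (1 : Matrix (Fin r) (Fin r) R) = 0) :
    (ρ₂ σ).charpoly = X ^ 2 - C (algebraMap R R' t) * X + C (algebraMap R R' (ε σ : R)) := by
  have h' := map_quad (algebraMap R R') _ _ _ h
  rcases hs with ⟨P, Q, hQP, hP⟩ | ⟨ψ, v, hv, hψ, hρ₂⟩
  · exact two_quad_charpoly _ _ _ (plane_quad hQP (hP σ) _ _ h') (hdet σ)
      (algebraMap_unit_ne_zero _)
  · have hq := line_quad hv _ (hψ σ) _ _ h'
    rw [hρ₂ σ, charpoly_diag2]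
    have hu : ((ψ σ : R'ˣ) : R') * (((ψ σ)⁻¹ : R'ˣ) : R') = 1 := by
      rw [← Units.val_mul, mul_inv_cancel, Units.val_one]
    have hsum : (ψ σ : R') + algebraMap R R' (ε σ : R) * (((ψ σ)⁻¹ : R'ˣ) : R') =
        algebraMap R R' t := by
      have h2 : ((ψ σ : R'ˣ) : R') *
          ((ψ σ : R') + algebraMap R R' (ε σ : R) * (((ψ σ)⁻¹ : R'ˣ) : R')
            - algebraMap R R' t) = 0 := by
        calc ((ψ σ : R'ˣ) : R') *
            ((ψ σ : R') + algebraMap R R' (ε σ : R) * (((ψ σ)⁻¹ : R'ˣ) : R')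
              - algebraMap R R' t)
            = ((ψ σ : R') * ψ σ - algebraMap R R' t * ψ σ) +
                algebraMap R R' (ε σ : R) * ((ψ σ : R') * (((ψ σ)⁻¹ : R'ˣ) : R')) := by ring
          _ = ((ψ σ : R') * ψ σ - algebraMap R R' t * ψ σ) + algebraMap R R' (ε σ : R) := by
                rw [hu, mul_one]
          _ = 0 := hq
      exact sub_eq_zero.1 ((Units.mul_right_eq_zero (ψ σ)).1 h2)
    have hprod : (ψ σ : R') * (algebraMap R R' (ε σ : R) * (((ψ σ)⁻¹ : R'ˣ) : R')) =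
        algebraMap R R' (ε σ : R) := by
      calc (ψ σ : R') * (algebraMap R R' (ε σ : R) * (((ψ σ)⁻¹ : R'ˣ) : R'))
          = algebraMap R R' (ε σ : R) * ((ψ σ : R') * (((ψ σ)⁻¹ : R'ˣ) : R')) := by ring
        _ = algebraMap R R' (ε σ : R) := by rw [hu, mul_one]
    have e1 : ∀ x y : R', (X - C x) * (X - C y) = X ^ 2 - C (x + y) * X + C (x * y) := by
      intro x y
      simp only [C_add, C_mul]
      ring
    rw [e1, hsum, hprod]

theorem struct_prod (hs : Struct ρ ε ρ₂) (hdet : ∀ g, (ρ₂ g).det = algebraMap R R' (ε g : R))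
    (σ : G) (cs : List R)
    (h : (cs.map (fun c => ρ σ - c • (1 : Matrix (Fin r) (Fin r) R))).prod = 0) :
    ∃ c ∈ cs, ∃ d : R', algebraMap R R' c * d = algebraMap R R' (ε σ : R) ∧
      (ρ₂ σ).charpoly = (X - C (algebraMap R R' c)) * (X - C d) := by
  have h' := map_prod (algebraMap R R') _ _ h
  rcases hs with ⟨P, Q, hQP, hP⟩ | ⟨ψ, v, hv, hψ, hρ₂⟩
  · obtain ⟨c', hc', d, hcd, hcp⟩ := two_prod_charpoly _ _ (plane_prod hQP (hP σ) _ h')
    obtain ⟨c, hc, rfl⟩ := List.mem_map.1 hc'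
    exact ⟨c, hc, d, by rw [hcd, hdet σ], hcp⟩
  · obtain ⟨c', hc', hψc⟩ := line_prod hv _ (hψ σ) _ h'
    obtain ⟨c, hc, rfl⟩ := List.mem_map.1 hc'
    have hu : ((ψ σ : R'ˣ) : R') * (((ψ σ)⁻¹ : R'ˣ) : R') = 1 := by
      rw [← Units.val_mul, mul_inv_cancel, Units.val_one]
    refine ⟨c, hc, algebraMap R R' (ε σ : R) * (((ψ σ)⁻¹ : R'ˣ) : R'), ?_, ?_⟩
    · rw [← hψc]
      calc (ψ σ : R') * (algebraMap R R' (ε σ : R) * (((ψ σ)⁻¹ : R'ˣ) : R'))
          = algebraMap R R' (ε σ : R) * ((ψ σ : R') * (((ψ σ)⁻¹ : R'ˣ) : R')) := by ring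
        _ = algebraMap R R' (ε σ : R) := by rw [hu, mul_one]
    · rw [hρ₂ σ, charpoly_diag2, hψc]

theorem struct_one (hs : Struct ρ ε ρ₂) (σ : G) (h : ρ σ = 1) (hε : ε σ = 1) : ρ₂ σ = 1 := by
  have h' := map_one_of_eq_one (algebraMap R R') _ h
  rcases hs with ⟨P, Q, hQP, hP⟩ | ⟨ψ, v, hv, hψ, hρ₂⟩
  · exact plane_one hQP (hP σ) h'
  · have h1 := line_one hv _ (hψ σ) h'
    have h2 : ψ σ = 1 := Units.ext h1
    rw [hρ₂ σ, hε, h2]
    simp only [Units.val_one, map_one, inv_one, mul_one]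
    ext i j
    fin_cases i <;> fin_cases j <;> simp

end Struct

section StructNU

variable {R R' : Type} [CommRing R] [IsDomain R] [IsPrincipalIdealRing R]
  [CommRing R'] [IsDomain R'] [Algebra R R'] [Module.Finite R R']
  {G : Type} [Group G] {r : ℕ}
  {ρ : G →* Matrix (Fin r) (Fin r) R} {ε : G →* Rˣ}
  {ρ₂ : G →* Matrix (Fin 2) (Fin 2) R'}

theorem struct_NU (hinj : Function.Injective (algebraMap R R')) (h2 : (2 : R') ≠ 0)
    (hs : Struct ρ ε ρ₂) (H : Subgroup G)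
    (hNU : ∀ v : Fin r → R, (∀ σ ∈ H, (ρ σ).mulVec v = v) → v = 0) :
    ∃ σ ∈ H, (ρ₂ σ).charpoly ≠ (X - 1) ^ 2 := by
  by_contra hcon
  have hU : ∀ σ ∈ H, (ρ₂ σ).charpoly = (X - 1) ^ 2 := by
    intro σ hσ
    by_contra hne
    exact hcon ⟨σ, hσ, hne⟩
  -- a nonzero vector of `R'^r` fixed by `H`
  have hv : ∃ v : Fin r → R', v ≠ 0 ∧
      ∀ σ : H, ((ρ (σ : G)).map (algebraMap R R')).mulVec v = v := by
    rcases hs with ⟨P, Q, hQP, hP⟩ | ⟨ψ, v, hv, hψ, hρ₂⟩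
    · obtain ⟨w, hw, hfix⟩ := kolchin_two ρ₂ h2 H hU
      exact ⟨P.mulVec w, plane_ne_zero hQP w hw,
        fun σ => plane_fixed (hP σ) w (hfix σ σ.2)⟩
    · refine ⟨v, hv, fun σ => ?_⟩
      have h1 := hU σ σ.2
      rw [hρ₂ σ, charpoly_diag2] at h1
      have h3 := congrArg (fun p : R'[X] => p.eval ((ψ (σ : G) : R'ˣ) : R')) h1
      simp only [eval_mul, eval_sub, eval_X, eval_C, sub_self, zero_mul, eval_pow,
        eval_one] at h3
      have h4 : ((ψ (σ : G) : R'ˣ) : R') = 1 :=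
        sub_eq_zero.1 ((pow_eq_zero_iff (two_ne_zero)).1 h3.symm)
      rw [hψ σ, h4, one_smul]
  obtain ⟨v, hv0, hfix⟩ := hv
  obtain ⟨v₀, hv₀, hfix₀⟩ := descent_fixed hinj (fun σ : H => ρ (σ : G)) v hv0 hfix
  exact hv₀ (hNU v₀ (fun σ hσ => hfix₀ ⟨σ, hσ⟩))

end StructNU

end H89

open H89 in
/-- **All transfer clauses from the structural assembly.** -/
theorem assembleX_of_assembleS (hS : Stmt_AssembleS) : Stmt_AssembleX := by
  intro 𝒪 _ _ _ _ _ _ S a r hr ρ ε hρ hε hES hCyc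
  obtain ⟨𝒪'', i1, i2, i3, i4, i5, i6, i7, i8, i9, hinj, ρ₂, hc, hdet, hstruct⟩ :=
    hS 𝒪 S a r hr ρ ε hρ hε hES hCyc
  have hs : H89.Struct ρ ε ρ₂ := hstruct
  refine ⟨𝒪'', i1, i2, i3, i4, i5, i6, i7, i8, i9, hinj,
    { V := Fin 2 → 𝒪''
      finrank_eq := by simp
      ρ := Fermat.Agent.S30.H2.matToEnd ρ₂
      isAdicContinuous := Fermat.Agent.S30.H2.matToEnd_adicContinuous ρ₂ hc }, ?_, ?_, ?_, ?_, ?_⟩
  · -- (F)
    intro ℓ hℓ hℓS A hA σ hσ
    show LinearMap.charpoly (Matrix.toLin' (ρ₂ σ)) = _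
    rw [Matrix.charpoly_toLin']
    have h1 := hES ℓ hℓ hℓS A hA σ hσ
    have h2 : ((ε σ : 𝒪ˣ) : 𝒪) = (ℓ : 𝒪) := hCyc ℓ hℓ hℓS A hA σ hσ
    rw [← h2] at h1
    rw [H89.struct_quad hs hdet σ (a ℓ) h1, h2, map_natCast]
  · -- (T)
    intro σ h1 h2
    show Matrix.toLin' (ρ₂ σ) = 1
    rw [H89.struct_one hs σ h1 h2, Matrix.toLin'_one]
    rfl
  · -- (Q)
    intro σ t h
    show LinearMap.charpoly (Matrix.toLin' (ρ₂ σ)) = _
    rw [Matrix.charpoly_toLin']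
    exact H89.struct_quad hs hdet σ t h
  · -- (P)
    intro σ cs h
    obtain ⟨c, hc, d, hcd, hcp⟩ := H89.struct_prod hs hdet σ cs h
    refine ⟨c, hc, d, hcd, ?_⟩
    show LinearMap.charpoly (Matrix.toLin' (ρ₂ σ)) = _
    rw [Matrix.charpoly_toLin']
    exact hcp
  · -- (N)
    intro H hNU
    have h2 : (2 : 𝒪'') ≠ 0 := two_ne_zero
    obtain ⟨σ, hσ, hne⟩ := H89.struct_NU hinj h2 hs H hNU
    refine ⟨σ, hσ, ?_⟩
    show LinearMap.charpoly (Matrix.toLin' (ρ₂ σ)) ≠ _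
    rw [Matrix.charpoly_toLin']
    exact hne

/-- The assembly statement of the S30 wiring follows from the extended one. -/
theorem assemble_of_assembleX (hX : Stmt_AssembleX) : Fermat.Agent.S30.Stmt_Assemble := by
  intro 𝒪 _ _ _ _ _ _ S a r hr ρ ε hρ hε hES hCyc
  obtain ⟨𝒪'', i1, i2, i3, i4, i5, i6, i7, i8, i9, hinj, ρ'', hF, hT, hQ, -, -⟩ :=
    hX 𝒪 S a r hr ρ ε hρ hε hES hCyc
  refine ⟨𝒪'', i1, i2, i3, i4, i5, i6, i7, i8, i9, hinj, ρ'', hF, hT, ?_⟩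
  intro σ h1 h2
  have h3 : ρ σ * ρ σ - (2 : 𝒪) • ρ σ + ((ε σ : 𝒪ˣ) : 𝒪) • (1 : Matrix (Fin r) (Fin r) 𝒪) = 0 := by
    rw [h2, Units.val_one, one_smul]
    have : (ρ σ - 1) ^ 2 = ρ σ * ρ σ - (2 : 𝒪) • ρ σ + 1 := by
      rw [pow_two, Matrix.sub_mul, Matrix.mul_sub, Matrix.mul_sub, Matrix.mul_one,
        Matrix.one_mul, Matrix.one_mul, two_smul]
      abel
    rw [← this, h1]
  rw [hQ σ 2 h3, h2, Units.val_one, map_one, map_ofNat]
  have e2 : (C (2 : 𝒪'') : 𝒪''[X]) = 2 := by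
    rw [← Nat.cast_ofNat, map_natCast]; rfl
  rw [e2, map_one]
  ring

end Fermat.Agent.S35

end
-- ==== END Fermat.Agent.S35.H89_Transfer

-- ==== BEGIN Fermat.Agent.S58.H99_Rig
section

/-!
# S58, rigidity tools (helper99)

Two adically continuous representations over (possibly different) local rings whose Frobenius
elements outside a finite set have characteristic polynomial `X² - a_ℓ X + ℓ` with the SAME
integers `a_ℓ` have, at every element `g` of the Galois group and at every pair of levels,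
trace and determinant congruent to the same integers (Frobenius density + Lucas sequences).

Consequence `P1` (`stmt_AdicUnip_of_tate`): unipotency on inertia transfers from the Tate module
to every representation with the same Frobenius characteristic polynomials.
-/

set_option autoImplicit false

open Polynomial IsLocalRing

namespace Fermat.Agent.S58.H99

open Fermat.Agent.S58

/-- `ρ` has integral Frobenius characteristic polynomials `X² - a_ℓ X + ℓ` outside `S`. -/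
def HasIntFrob {A : Type} [CommRing A] [IsLocalRing A] (ρ : GaloisRepAdic A) (a : ℕ → ℤ)
    (S : Finset ℕ) : Prop :=
  ∀ ℓ : ℕ, ℓ.Prime → ℓ ∉ S →
    ∀ P : ValuationSubring (AlgebraicClosure ℚ), P.LiesOverPrime ℓ →
      ∀ σ : GQ, P.IsFrobeniusAt σ ℓ →
        LinearMap.charpoly (ρ.ρ σ) = X ^ 2 - C (((a ℓ : ℤ) : A)) * X + C ((ℓ : A))

theorem HasIntFrob.mono {A : Type} [CommRing A] [IsLocalRing A] {ρ : GaloisRepAdic A}
    {a : ℕ → ℤ} {S T : Finset ℕ} (h : HasIntFrob ρ a S) (hST : S ⊆ T) : HasIntFrob ρ a T :=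
  fun ℓ hℓ hℓT P hP σ hσ => h ℓ hℓ (fun hS => hℓT (hST hS)) P hP σ hσ

theorem hasIntFrob_of_hasFrobOf {W : WeierstrassCurve ℤ} {A : Type} [CommRing A] [IsLocalRing A]
    {ρ : GaloisRepAdic A} {S : Finset ℕ} (h : HasFrobOf W ρ S) :
    HasIntFrob ρ (fun ℓ => W.apOfModel ℓ) S := h

/-- `ρ` has Frobenius characteristic polynomials `X² - φ(a_ℓ) X + ℓ` outside `S`, the `a_ℓ` in a
ring `B` mapping to the coefficient ring by `φ`. -/
def HasFrobVia {B : Type*} [CommRing B] {A : Type} [CommRing A] [IsLocalRing A] (φ : B →+* A)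
    (ρ : GaloisRepAdic A) (a : ℕ → B) (S : Finset ℕ) : Prop :=
  ∀ ℓ : ℕ, ℓ.Prime → ℓ ∉ S →
    ∀ P : ValuationSubring (AlgebraicClosure ℚ), P.LiesOverPrime ℓ →
      ∀ σ : GQ, P.IsFrobeniusAt σ ℓ →
        LinearMap.charpoly (ρ.ρ σ) = X ^ 2 - C (φ (a ℓ)) * X + C ((ℓ : A))

theorem hasFrobVia_of_hasIntFrob {A : Type} [CommRing A] [IsLocalRing A] {ρ : GaloisRepAdic A}
    {a : ℕ → ℤ} {S : Finset ℕ} (h : HasIntFrob ρ a S) :
    HasFrobVia (Int.castRingHom A) ρ a S := by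
  intro ℓ hℓ hℓS P hP σ hσ
  rw [h ℓ hℓ hℓS P hP σ hσ, eq_intCast]

/-- **Joint approximation** over a common ring of Frobenius traces. -/
theorem exists_approx {B : Type*} [CommRing B] {A₁ A₂ : Type} [CommRing A₁] [IsLocalRing A₁]
    [CommRing A₂] [IsLocalRing A₂] (φ₁ : B →+* A₁) (φ₂ : B →+* A₂)
    (ρ₁ : GaloisRepAdic A₁) (ρ₂ : GaloisRepAdic A₂) (a : ℕ → B)
    (S₁ S₂ : Finset ℕ) (h₁ : HasFrobVia φ₁ ρ₁ a S₁) (h₂ : HasFrobVia φ₂ ρ₂ a S₂) (n₁ n₂ : ℕ)
    (g : GQ) :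
    ∃ t d : B,
      LinearMap.trace A₁ ρ₁.V (ρ₁.ρ g) - φ₁ t ∈ maximalIdeal A₁ ^ n₁ ∧
      LinearMap.det (ρ₁.ρ g) - φ₁ d ∈ maximalIdeal A₁ ^ n₁ ∧
      LinearMap.trace A₂ ρ₂.V (ρ₂.ρ g) - φ₂ t ∈ maximalIdeal A₂ ^ n₂ ∧
      LinearMap.det (ρ₂.ρ g) - φ₂ d ∈ maximalIdeal A₂ ^ n₂ := by
  classical
  obtain ⟨L₁, hL₁, hc₁⟩ := Fermat.Agent.R.exists_field_congr ρ₁ n₁
  obtain ⟨L₂, hL₂, hc₂⟩ := Fermat.Agent.R.exists_field_congr ρ₂ n₂
  have := hL₁; have := hL₂
  have hL : FiniteDimensional ℚ ↥(L₁ ⊔ L₂) := IntermediateField.finiteDimensional_sup L₁ L₂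
  obtain ⟨ℓ, P, φ, j, hℓ, hℓS, hP, hφ, hj⟩ :=
    Fermat.Agent.Lib.FrobDensity.stmt_FD (S₁ ∪ S₂) (L₁ ⊔ L₂) hL g
  have hℓ₁ : ℓ ∉ S₁ := fun h => hℓS (Finset.mem_union_left _ h)
  have hℓ₂ : ℓ ∉ S₂ := fun h => hℓS (Finset.mem_union_right _ h)
  have hj₁ : ∀ x ∈ L₁, (φ ^ j) x = g x := fun x hx => hj x ((le_sup_left : L₁ ≤ L₁ ⊔ L₂) hx)
  have hj₂ : ∀ x ∈ L₂, (φ ^ j) x = g x := fun x hx => hj x ((le_sup_right : L₂ ≤ L₁ ⊔ L₂) hx)
  have e₁ := Fermat.Agent.R.charpoly_congr_of_frob ρ₁ n₁ hc₁ g φ j hj₁ (h₁ ℓ hℓ hℓ₁ P hP φ hφ)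
  have e₂ := Fermat.Agent.R.charpoly_congr_of_frob ρ₂ n₂ hc₂ g φ j hj₂ (h₂ ℓ hℓ hℓ₂ P hP φ hφ)
  refine ⟨Fermat.Agent.R.H91.lucasV (a ℓ) (ℓ : B) j, (ℓ : B) ^ j, ?_, ?_, ?_, ?_⟩
  · rw [Fermat.Agent.R.H91.map_lucasV, map_natCast]
    exact e₁.1
  · rw [map_pow, map_natCast]
    exact e₁.2
  · rw [Fermat.Agent.R.H91.map_lucasV, map_natCast]
    exact e₂.1
  · rw [map_pow, map_natCast]
    exact e₂.2

/-- **Joint integral approximation.** -/
theorem exists_int_approx {A₁ A₂ : Type} [CommRing A₁] [IsLocalRing A₁] [CommRing A₂]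
    [IsLocalRing A₂] (ρ₁ : GaloisRepAdic A₁) (ρ₂ : GaloisRepAdic A₂) (a : ℕ → ℤ)
    (S₁ S₂ : Finset ℕ) (h₁ : HasIntFrob ρ₁ a S₁) (h₂ : HasIntFrob ρ₂ a S₂) (n₁ n₂ : ℕ) (g : GQ) :
    ∃ t d : ℤ,
      LinearMap.trace A₁ ρ₁.V (ρ₁.ρ g) - (t : A₁) ∈ maximalIdeal A₁ ^ n₁ ∧
      LinearMap.det (ρ₁.ρ g) - (d : A₁) ∈ maximalIdeal A₁ ^ n₁ ∧
      LinearMap.trace A₂ ρ₂.V (ρ₂.ρ g) - (t : A₂) ∈ maximalIdeal A₂ ^ n₂ ∧
      LinearMap.det (ρ₂.ρ g) - (d : A₂) ∈ maximalIdeal A₂ ^ n₂ := by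
  obtain ⟨t, d, h⟩ := exists_approx (Int.castRingHom A₁) (Int.castRingHom A₂) ρ₁ ρ₂ a S₁ S₂
    (hasFrobVia_of_hasIntFrob h₁) (hasFrobVia_of_hasIntFrob h₂) n₁ n₂ g
  simp only [eq_intCast] at h
  exact ⟨t, d, h⟩

section IntegersInDVR

variable {𝒪 : Type*} [CommRing 𝒪] [IsDomain 𝒪] [IsLocalRing 𝒪] [CharZero 𝒪]

/-- An integer which lies in the maximal ideal of a local ring of residue characteristic `p` is
divisible by `p`. -/
theorem int_dvd_of_mem_maximalIdeal {B : Type*} [CommRing B] [IsLocalRing B] {p : ℕ}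
    (hp : p.Prime) (hpm : (p : B) ∈ maximalIdeal B) (z : ℤ) (hz : (z : B) ∈ maximalIdeal B) :
    (p : ℤ) ∣ z := by
  by_contra hndvd
  have hcop : IsCoprime (p : ℤ) z :=
    (Nat.prime_iff_prime_int.mp hp).coprime_iff_not_dvd.mpr hndvd
  obtain ⟨u, v, huv⟩ := hcop
  have h1 : ((u * p + v * z : ℤ) : B) = 1 := by rw [huv, Int.cast_one]
  have h2 : ((u * p + v * z : ℤ) : B) ∈ maximalIdeal B := by
    push_cast
    exact Ideal.add_mem _ (Ideal.mul_mem_left _ _ hpm) (Ideal.mul_mem_left _ _ hz)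
  rw [h1] at h2
  exact (Ideal.ne_top_iff_one _).mp (maximalIdeal.isMaximal B).ne_top h2

/-- Divisibility of integers by powers of `p` can be tested in a local domain of characteristic
`0` and residue characteristic `p`. -/
theorem int_pow_dvd_of_dvd {p : ℕ} (hp : p.Prime) (hpm : (p : 𝒪) ∈ maximalIdeal 𝒪) (k : ℕ) :
    ∀ z : ℤ, ((p : 𝒪) ^ k ∣ (z : 𝒪)) → (p : ℤ) ^ k ∣ z := by
  induction k with
  | zero => intro z _; simp
  | succ k ih =>
    intro z hz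
    have hp0 : (p : 𝒪) ≠ 0 := by exact_mod_cast hp.ne_zero
    have h1 : (p : 𝒪) ∣ (z : 𝒪) := Dvd.dvd.trans (dvd_pow_self _ (Nat.succ_ne_zero k)) hz
    have h2 : (z : 𝒪) ∈ maximalIdeal 𝒪 := by
      obtain ⟨w, hw⟩ := h1
      rw [hw]
      exact Ideal.mul_mem_right _ _ hpm
    obtain ⟨z₁, rfl⟩ := int_dvd_of_mem_maximalIdeal hp hpm z h2
    have h3 : (p : 𝒪) ^ k ∣ (z₁ : 𝒪) := by
      have : (p : 𝒪) * (p : 𝒪) ^ k ∣ (p : 𝒪) * (z₁ : 𝒪) := by
        have e : (((p : ℤ) * z₁ : ℤ) : 𝒪) = (p : 𝒪) * (z₁ : 𝒪) := by push_cast; rfl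
        rw [← e, ← pow_succ']
        exact hz
      exact (mul_dvd_mul_iff_left hp0).mp this
    rw [pow_succ']
    exact mul_dvd_mul_left _ (ih z₁ h3)

end IntegersInDVR

/-- In a discrete valuation ring of characteristic `0` and residue characteristic `p`, integers
in a high power of the maximal ideal are divisible by a high power of `p`. -/
theorem exists_level_int {𝒪 : Type*} [CommRing 𝒪] [IsDomain 𝒪] [IsDiscreteValuationRing 𝒪]
    [CharZero 𝒪] {p : ℕ} (hp : p.Prime) (hpm : (p : 𝒪) ∈ maximalIdeal 𝒪) (k : ℕ) :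
    ∃ m : ℕ, ∀ z : ℤ, (z : 𝒪) ∈ maximalIdeal 𝒪 ^ m → (p : ℤ) ^ k ∣ z := by
  have hp0 : ((p : 𝒪)) ^ k ≠ 0 := pow_ne_zero _ (by exact_mod_cast hp.ne_zero)
  obtain ⟨M, hM⟩ := Fermat.Agent.R.exists_pow_le_span hp0
  refine ⟨M, fun z hz => int_pow_dvd_of_dvd hp hpm k z ?_⟩
  exact Ideal.mem_span_singleton.mp (hM hz)

/-- Integers divisible by `p ^ n` lie in the `n`-th power of the maximal ideal. -/
theorem intCast_mem_pow {B : Type*} [CommRing B] [IsLocalRing B] {p : ℕ}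
    (hpm : (p : B) ∈ maximalIdeal B) (n : ℕ) (z : ℤ) (hz : (p : ℤ) ^ n ∣ z) :
    (z : B) ∈ maximalIdeal B ^ n := by
  obtain ⟨w, rfl⟩ := hz
  push_cast
  exact Ideal.mul_mem_right _ _ (Ideal.pow_mem_pow hpm n)

/-- Krull's intersection theorem for a Noetherian local ring, elementwise. -/
theorem eq_zero_of_forall_mem_pow {B : Type*} [CommRing B] [IsLocalRing B] [IsNoetherianRing B]
    (x : B) (hx : ∀ n : ℕ, x ∈ maximalIdeal B ^ n) : x = 0 := by
  have h := Ideal.iInf_pow_eq_bot_of_isLocalRing (maximalIdeal B)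
    (maximalIdeal.isMaximal B).ne_top
  have : x ∈ ⨅ n : ℕ, maximalIdeal B ^ n := by
    rw [Ideal.mem_iInf]; exact hx
  rw [h] at this
  exact this

/-- **P1.** -/
theorem stmt_AdicUnip_of_tate (hT : Stmt_TateUnip) : Stmt_AdicUnip := by
  intro p hpF W hΔ hss O _ _ _ _ _ _ hpO ρ' S hρ' q hq hqp
  classical
  have hp : p.Prime := hpF.out
  obtain ⟨𝒪, i1, i2, i3, i4, i5, i6, hp𝒪, ρ, hunip, hfrob⟩ := hT p W hΔ hss
  -- the finite set of exceptional primes for the Tate module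
  have hnat : W.Δ.natAbs ≠ 0 := Int.natAbs_ne_zero.mpr hΔ
  set S₂ : Finset ℕ := insert p W.Δ.natAbs.primeFactors with hS₂
  have hρ : HasIntFrob ρ (fun ℓ => W.apOfModel ℓ) S₂ := by
    intro ℓ hℓ hℓS P hP σ hσ
    have hℓp : ℓ ≠ p := fun h => hℓS (h ▸ Finset.mem_insert_self _ _)
    have hgood : W.IsGoodPrimeFor ℓ := by
      intro hdvd
      apply hℓS
      refine Finset.mem_insert_of_mem ?_
      rw [Nat.mem_primeFactors]
      exact ⟨hℓ, Int.natCast_dvd.mp hdvd, hnat⟩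
    exact hfrob ℓ hℓ hℓp hgood P hP σ hσ
  intro P hP σ hσ
  -- trace and determinant of the Tate module at `σ`
  have hσ₂ := hunip q hq hqp P hP σ hσ
  have e2 : (X - 1 : 𝒪[X]) ^ 2 = X ^ 2 - C (2 : 𝒪) * X + C (1 : 𝒪) := by
    simp only [map_ofNat, map_one]; ring
  rw [e2, Fermat.Agent.R.H91.charpoly_eq_of_finrank_two ρ.finrank_eq] at hσ₂
  have htr₂ : LinearMap.trace 𝒪 ρ.V (ρ.ρ σ) = 2 := by
    have h1 := congrArg (fun f : 𝒪[X] => f.coeff 1) hσ₂
    simp only [coeff_add, coeff_sub, coeff_X_pow, coeff_C_mul, coeff_X_one, coeff_C_succ,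
      mul_one, add_zero] at h1
    norm_num at h1
    exact h1
  have hdet₂ : LinearMap.det (ρ.ρ σ) = 1 := by
    have h0 := congrArg (fun f : 𝒪[X] => f.coeff 0) hσ₂
    simp only [coeff_add, coeff_sub, coeff_X_pow, coeff_C_mul, coeff_X_zero, coeff_C_zero,
      mul_zero, sub_zero] at h0
    norm_num at h0
    exact h0
  -- congruences at every level
  have key : ∀ n : ℕ, LinearMap.trace O ρ'.V (ρ'.ρ σ) - 2 ∈ maximalIdeal O ^ n ∧
      LinearMap.det (ρ'.ρ σ) - 1 ∈ maximalIdeal O ^ n := by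
    intro n
    obtain ⟨m, hm⟩ := exists_level_int (𝒪 := 𝒪) hp hp𝒪 n
    obtain ⟨t, d, ht₁, hd₁, ht₂, hd₂⟩ :=
      exists_int_approx ρ' ρ (fun ℓ => W.apOfModel ℓ) S S₂ hρ' hρ n m σ
    rw [htr₂] at ht₂
    rw [hdet₂] at hd₂
    have ht : (p : ℤ) ^ n ∣ (2 - t) := hm _ (by push_cast; exact ht₂)
    have hd : (p : ℤ) ^ n ∣ (1 - d) := hm _ (by push_cast; exact hd₂)
    have ht' := intCast_mem_pow (B := O) hpO n _ ht
    have hd' := intCast_mem_pow (B := O) hpO n _ hd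
    push_cast at ht' hd'
    constructor
    · have := Ideal.sub_mem _ ht₁ ht'
      have e : LinearMap.trace O ρ'.V (ρ'.ρ σ) - (t : O) - (2 - (t : O)) =
          LinearMap.trace O ρ'.V (ρ'.ρ σ) - 2 := by ring
      rwa [e] at this
    · have := Ideal.sub_mem _ hd₁ hd'
      have e : LinearMap.det (ρ'.ρ σ) - (d : O) - (1 - (d : O)) =
          LinearMap.det (ρ'.ρ σ) - 1 := by ring
      rwa [e] at this
  have htr : LinearMap.trace O ρ'.V (ρ'.ρ σ) = 2 :=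
    sub_eq_zero.mp (eq_zero_of_forall_mem_pow _ fun n => (key n).1)
  have hdet : LinearMap.det (ρ'.ρ σ) = 1 :=
    sub_eq_zero.mp (eq_zero_of_forall_mem_pow _ fun n => (key n).2)
  rw [Fermat.Agent.R.H91.charpoly_eq_of_finrank_two ρ'.finrank_eq, htr, hdet]
  simp only [map_ofNat, map_one]; ring

end Fermat.Agent.S58.H99

end
-- ==== END Fermat.Agent.S58.H99_Rig
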