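-- GENERATED (merged mirror, NOTES/tools/trim/merge3_helper67.py): 8 modules of the originals, bodies verbatim.
import Mathlib
import Fermat.Prelude.Def_ModularCurve_PeriodHomPair
import Fermat.Statements.S22
import Fermat.Prelude.Def_CuspForm_HeckeGaloisRepDatum
import Fermat.Prelude.Def_CuspForm_Newforms
import Fermat.Prelude.Def_GaloisRep_LocalConditions
import Fermat.Prelude.Def_GaloisRep_Residual
import Fermat.Agent.Zm.S35_L05_004
import Fermat.Agent.Zm.S35_L02_004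
import Fermat.Agent.Zm.S35_L02_005
import Fermat.Agent.Zm.S35_L01_004
import Fermat.Agent.Zm.S35_L03_004
import Fermat.Agent.Zm.S35_L04_004
import Fermat.Agent.Zm.S35_L05_005
import Fermat.Agent.Zm.S35_L03_005
import Fermat.Agent.S28.H92_Moebius
import Fermat.Agent.Zm.S35_L03_002

-- ==== BEGIN Fermat.Agent.RED.H79_ConsGlueDefs
section

/-!
# G-RED package CONS (helper79 + helper10): interface of C6 (conservation on a chart) and
C7 (glueing of the charts `x`, `x' = 1/(x - c₀)`)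

* `ChartCons S x hx r` : conservation on the chart `x` for all Gauss units
  (= conclusion of helper10's `H10.chart_conservation`, C6 = C3 + C5).
* `IsRedAbs S r` : the conservation law `r_* (div f) = div (red f)` for all Gauss units
  (`IsRed O h r` of `RED/Core.lean` is `IsRedAbs (redSetting O h) r`).
This file contains no `sorry`.
-/

set_option autoImplicit false

noncomputable section

open AlgebraicCurve IntermediateField

namespace Fermat.Agent.RED.H79

open Fermat.Agent.RED.H34 Fermat.Agent.RED.H51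

variable {C F k Ft : Type} [Field C] [Field F] [Algebra C F] [Field k] [Field Ft] [Algebra k Ft]

open Classical in
/-- **(C6)** conservation on the chart `x`: for a Gauss unit `f` with divisor `D` and a place `Q`
of `Ft` finite over `xt`: `Σ_{P in the chart, r P = Q} ord_P f = ord_Q (red f)`. -/
def ChartCons (S : RedSetting C F k Ft) (x : F) (hx : x ∈ S.V)
    (r : Place C F → Place k Ft) : Prop :=
  ∀ f : ↥S.V, IsUnit f → ∀ D : Divisor C F, (∀ P, D P = P.ord (f : F)) →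
    ∀ Q : Place k Ft, S.red ⟨x, hx⟩ ∈ Q.toValuationSubring →
      ∑ P ∈ D.support.filter (fun P => InChart S x P ∧ r P = Q), D P = Q.ord (S.red f)

/-- The conservation law `r_* (div f) = div (red f)` for every Gauss unit `f`. -/
def IsRedAbs (S : RedSetting C F k Ft) (r : Place C F → Place k Ft) : Prop :=
  ∀ f : ↥S.V, IsUnit f → ∀ D : Divisor C F, (∀ P, D P = P.ord (f : F)) →
    ∀ Q : Place k Ft, Finsupp.mapDomain r D Q = Q.ord (S.red f)

end Fermat.Agent.RED.H79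

end
end
-- ==== END Fermat.Agent.RED.H79_ConsGlueDefs

-- ==== BEGIN Fermat.Agent.S21.H75_PartE1a
section

set_option autoImplicit false
set_option linter.unusedSectionVars false

/-!
# Part E1a of S21: the cohomological upper bound for `Γ₀(N)`
-/

open ModularCurve ModularCurve.Period CongruenceSubgroup
open scoped MatrixGroups

namespace Fermat.Agent.S21.H75

open Module

lemma S_sq : ModularGroup.S ^ 2 = (-1 : SL(2, ℤ)) := by decide

lemma ST_cube : (ModularGroup.S * ModularGroup.T) ^ 3 = (-1 : SL(2, ℤ)) := by decide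

lemma neg_one_central (g : SL(2, ℤ)) : (-1 : SL(2, ℤ)) * g = g * (-1) := by
  simp

lemma neg_one_mem_Gamma0 (N : ℕ) : (-1 : SL(2, ℤ)) ∈ Gamma0 N := by
  rw [Gamma0_mem]
  simp

lemma neg_one_sq : (-1 : SL(2, ℤ)) * (-1) = 1 := by decide

/-- the hypotheses of the abstract count hold for `Γ₀(N)` -/
lemma hyp_Gamma0 (N : ℕ) [NeZero N] :
    ∃ M : ℕ, Hyp (Gamma0 N) ModularGroup.S ModularGroup.T (-1 : SL(2, ℤ)) M := by
  classical
  let _ := Fintype.ofFinite (SL(2, ℤ) ⧸ Gamma0 N)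
  let τ : Equiv.Perm (SL(2, ℤ) ⧸ Gamma0 N) := MulAction.toPermHom _ _ ModularGroup.T
  refine ⟨orderOf τ, ?_⟩
  refine
    { gen := SpecialLinearGroup.SL2Z_generators
      zc := neg_one_central
      zΓ := neg_one_mem_Gamma0 N
      z2 := neg_one_sq
      hS := S_sq
      hU := ST_cube
      hM := orderOf_pos τ
      hTM := ?_ }
  intro q
  have h1 : MulAction.toPermHom _ (SL(2, ℤ) ⧸ Gamma0 N) (ModularGroup.T ^ orderOf τ) = 1 := by
    rw [map_pow]
    exact pow_orderOf_eq_one τ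
  have h2 := congrArg (fun σ : Equiv.Perm (SL(2, ℤ) ⧸ Gamma0 N) => σ q) h1
  simpa using h2

/-- conjugates of powers of `T` have trace `2` -/
lemma trace_conj_T_pow (g : SL(2, ℤ)) (n : ℕ) :
    ((g⁻¹ * (ModularGroup.T ^ n * g) : SL(2, ℤ)) : Matrix (Fin 2) (Fin 2) ℤ).trace = 2 := by
  have h1 : ((g⁻¹ * (ModularGroup.T ^ n * g) : SL(2, ℤ)) : Matrix (Fin 2) (Fin 2) ℤ)
      = (g⁻¹ : SL(2, ℤ)).1 * ((ModularGroup.T ^ n * g : SL(2, ℤ)) : Matrix (Fin 2) (Fin 2) ℤ) :=
    Matrix.SpecialLinearGroup.coe_mul _ _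
  rw [h1, Matrix.trace_mul_comm, ← Matrix.SpecialLinearGroup.coe_mul, mul_assoc,
    mul_inv_cancel, mul_one]
  have h2 := ModularGroup.coe_T_zpow (n : ℤ)
  rw [zpow_natCast] at h2
  rw [show ((ModularGroup.T ^ n : SL(2, ℤ)) : Matrix (Fin 2) (Fin 2) ℤ)
      = (ModularGroup.T ^ n).1 from rfl, h2, Matrix.trace_fin_two_of]
  norm_num

lemma parabolicHoms_le_parHoms (N : ℕ) :
    parabolicHoms ℂ (Gamma0 N) ℂ ≤ parHoms (Gamma0 N) ModularGroup.T := by
  intro φ hφ g n h
  rw [mem_parabolicHoms_iff] at hφ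
  refine hφ ⟨_, h⟩ ?_
  show ((g⁻¹ * (ModularGroup.T ^ n * g) : SL(2, ℤ)) : Matrix (Fin 2) (Fin 2) ℤ).trace ^ 2 = 4
  rw [_root_.Fermat.Agent.S21.H75.trace_conj_T_pow]
  norm_num

/-- **Part E1a** -/
theorem partE1a (N : ℕ) [NeZero N] :
    Module.Finite ℂ (parabolicHoms ℂ (Gamma0 N) ℂ) ∧
      6 * Module.finrank ℂ (parabolicHoms ℂ (Gamma0 N) ℂ)
        + 3 * Nat.card {q : SL(2, ℤ) ⧸ Gamma0 N // ModularGroup.S • q = q}
        + 4 * Nat.card {q : SL(2, ℤ) ⧸ Gamma0 N // (ModularGroup.S * ModularGroup.T) • q = q}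
        + 6 * Nat.card (MulAction.orbitRel.Quotient (Subgroup.zpowers ModularGroup.T)
            (SL(2, ℤ) ⧸ Gamma0 N))
        ≤ (Gamma0 N).index + 12 := by
  classical
  let _ := Fintype.ofFinite (SL(2, ℤ) ⧸ Gamma0 N)
  obtain ⟨M, H⟩ := hyp_Gamma0 N
  have hfin := H.finite_hom
  refine ⟨inferInstance, ?_⟩
  have hb := H.finrank_bound
  have hmono : finrank ℂ (parabolicHoms ℂ (Gamma0 N) ℂ)
      ≤ finrank ℂ (parHoms (Gamma0 N) ModularGroup.T) :=
    Submodule.finrank_mono (parabolicHoms_le_parHoms N)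
  have hT := finrank_ker_R_sub_one (Gamma0 N) ModularGroup.T
  have hS := mul_finrank_ker_R_sub_one (Gamma0 N) ModularGroup.S (M := 2) (by norm_num) H.R_S_sq
  have hU := mul_finrank_ker_R_sub_one (Gamma0 N) (ModularGroup.S * ModularGroup.T) (M := 3)
    (by norm_num) H.R_U_cube
  have hidx : (Gamma0 N).index = Fintype.card (SL(2, ℤ) ⧸ Gamma0 N) := by
    rw [Subgroup.index_eq_card, Nat.card_eq_fintype_card]
  have hall : ∀ g : SL(2, ℤ), (∀ q : SL(2, ℤ) ⧸ Gamma0 N, g • q = q) →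
      Nat.card {q : SL(2, ℤ) ⧸ Gamma0 N // g • q = q}
        = Fintype.card (SL(2, ℤ) ⧸ Gamma0 N) := by
    intro g hg
    rw [← Nat.card_eq_fintype_card]
    exact Nat.card_congr (Equiv.subtypeUnivEquiv hg)
  have h0S : Nat.card {q : SL(2, ℤ) ⧸ Gamma0 N // (ModularGroup.S ^ 0) • q = q}
      = Fintype.card (SL(2, ℤ) ⧸ Gamma0 N) := hall _ (by simp)
  have h0U : Nat.card {q : SL(2, ℤ) ⧸ Gamma0 N //
      ((ModularGroup.S * ModularGroup.T) ^ 0) • q = q}
      = Fintype.card (SL(2, ℤ) ⧸ Gamma0 N) := hall _ (by simp)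
  have h1S : Nat.card {q : SL(2, ℤ) ⧸ Gamma0 N // (ModularGroup.S ^ 1) • q = q}
      = Nat.card {q : SL(2, ℤ) ⧸ Gamma0 N // ModularGroup.S • q = q} := by
    rw [pow_one]
  have h1U : Nat.card {q : SL(2, ℤ) ⧸ Gamma0 N //
      ((ModularGroup.S * ModularGroup.T) ^ 1) • q = q}
      = Nat.card {q : SL(2, ℤ) ⧸ Gamma0 N // (ModularGroup.S * ModularGroup.T) • q = q} := by
    rw [pow_one]
  have h2U : Nat.card {q : SL(2, ℤ) ⧸ Gamma0 N //
      ((ModularGroup.S * ModularGroup.T) ^ 2) • q = q}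
      = Nat.card {q : SL(2, ℤ) ⧸ Gamma0 N // (ModularGroup.S * ModularGroup.T) • q = q} := by
    apply Nat.card_congr
    apply Equiv.subtypeEquivRight
    intro q
    constructor
    · intro h
      have h3 : ((ModularGroup.S * ModularGroup.T) ^ 3) • q = q := by
        rw [H.hU]; exact H.smul_z q
      rw [pow_succ', mul_smul, h] at h3
      exact h3
    · intro h
      rw [pow_two, mul_smul, h, h]
  rw [Finset.sum_range_succ, Finset.sum_range_one, h0S, h1S] at hS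
  rw [Finset.sum_range_succ, Finset.sum_range_succ, Finset.sum_range_one, h0U, h1U, h2U] at hU
  omega

end Fermat.Agent.S21.H75

end
-- ==== END Fermat.Agent.S21.H75_PartE1a

-- ==== BEGIN Fermat.Agent.S22
section

set_option autoImplicit false
open CuspForm

namespace Fermat.Agent.S22

theorem result (N : ℕ) [NeZero N] (k : ℤ) (S : Set ℕ) :
    Module.Finite ℤ (CuspForm.heckeAlgebra N k S) := by
  exact moduleFinite_heckeAlgebra_of_eichlerData
    (fun N _ n => ⟨H21.eichlerDataOfSep n fun f _ hG hD hinv => H94.sep f hG.mdiff hD hinv⟩)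
    N k S

end Fermat.Agent.S22

end
-- ==== END Fermat.Agent.S22

-- ==== BEGIN Fermat.Agent.S24.Asm.Count
section
attribute [local instance 10000] SubalgebraClass.toAlgebra
attribute [local instance 10000] HahnSeries.powerSeriesAlgebra

/-!
# S24 assembly (WP ASM-Count): from a `ModClosure N` to the counts of places of `F_N`

Let `M : ModClosure N`, `x = jF N`, `G = Gal (M.L / M.E)`, `H = Gal (M.L / F_N)`.
* `M.t` is transcendental and generates `M.E`, so `M.E ≃ Q̄(x)` and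
  `[F_N : Q̄(x)] = [F_N : M.E] = |G ⧸ H| = |SL(2, ℤ) ⧸ Γ₀(N)| = ψ(N)`
  (`M.π_surjective`, `M.π_comap`, `h1_quotEquiv`, `G1_card`).
* zeros of `x - a`: `gc_card_zeros` for the generator `M.t - a` of `M.E`, the valuation `M.w τ`
  with `jAn τ = ι a` (`jAn_surjective`; `τ = ρ` for `a = 0`, `τ = i` for `a = 1728`) and
  `σ = M.π γ`, `γ = S * T`, `S`, `1` respectively (`h27_ST_smul_rho`, `h27_S_smul_I`, `M.w_π`);
  `jOrd τ ≤ orderOf σ` because `γ, γ ^ 2 ∉ Γ₀(N)` for `1 < N` (`M.π_comap`); then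
  `gc_orbits_transfer`.
* poles of `x`: `gc_card_zeros` for the generator `(M.t)⁻¹`, `M.winf`, `σ = M.π T`;
  `N ≤ orderOf (M.π T)` because `S * T ^ k * S⁻¹ ∈ Γ₀(N)` iff `N ∣ k`.

WP ASM-Count (helper85): all statements proved.
-/

set_option autoImplicit false

noncomputable section

namespace Fermat.Agent.S24

open CongruenceSubgroup ModularGroup ModularCurve AlgebraicCurve IntermediateField
open scoped MatrixGroups

attribute [local instance] ModClosure.instFieldE ModClosure.instField ModClosure.instAlgKE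
  ModClosure.instAlgK ModClosure.instAlgEF ModClosure.instAlgF ModClosure.instAlgE
  ModClosure.towerKEF ModClosure.towerKFL ModClosure.towerEFL ModClosure.towerKEL
  ModClosure.finite ModClosure.galois

variable {N : ℕ} [NeZero N]

/-! ### Generators of `M.E` -/

/-- `t - a` is transcendental. -/
theorem h85_transcendental_sub {K E : Type*} [Field K] [Field E] [Algebra K E] {t : E}
    (ht : Transcendental K t) (a : K) : Transcendental K (t - algebraMap K E a) := by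
  intro h
  apply ht
  have h2 := h.add (isAlgebraic_algebraMap (R := K) (A := E) a)
  simpa using h2

/-- `t⁻¹` is transcendental. -/
theorem h85_transcendental_inv {K E : Type*} [Field K] [Field E] [Algebra K E] {t : E}
    (ht : Transcendental K t) : Transcendental K t⁻¹ := by
  intro h
  apply ht
  have h2 := h.inv
  simpa using h2

/-- If `t` generates `E` as a field, so does `t - a`. -/
theorem h85_gen_sub {K E : Type*} [Field K] [Field E] [Algebra K E] {t : E}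
    (hE : ∀ y : E, ∃ p q : Polynomial K, Polynomial.aeval t q ≠ 0 ∧
      y = Polynomial.aeval t p / Polynomial.aeval t q) (a : K) :
    ∀ y : E, ∃ p q : Polynomial K, Polynomial.aeval (t - algebraMap K E a) q ≠ 0 ∧
      y = Polynomial.aeval (t - algebraMap K E a) p / Polynomial.aeval (t - algebraMap K E a) q := by
  intro y
  obtain ⟨p, q, hq, hy⟩ := hE y
  have key : ∀ f : Polynomial K, Polynomial.aeval (t - algebraMap K E a)
      (f.comp (Polynomial.X + Polynomial.C a)) = Polynomial.aeval t f := by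
    intro f
    rw [Polynomial.aeval_comp]
    congr 1
    simp
  exact ⟨p.comp (Polynomial.X + Polynomial.C a), q.comp (Polynomial.X + Polynomial.C a),
    by rw [key]; exact hq, by rw [key, key]; exact hy⟩

/-- If `t` generates `E` as a field, so does `t⁻¹` (for `t ≠ 0`). -/
theorem h85_gen_inv {K E : Type*} [Field K] [Field E] [Algebra K E] {t : E} (ht : t ≠ 0)
    (hE : ∀ y : E, ∃ p q : Polynomial K, Polynomial.aeval t q ≠ 0 ∧
      y = Polynomial.aeval t p / Polynomial.aeval t q) :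
    ∀ y : E, ∃ p q : Polynomial K, Polynomial.aeval t⁻¹ q ≠ 0 ∧
      y = Polynomial.aeval t⁻¹ p / Polynomial.aeval t⁻¹ q := by
  intro y
  obtain ⟨p, q, hq, hy⟩ := hE y
  -- `f(t) = (reflect n f)(t⁻¹) * t ^ n` for `natDegree f ≤ n`
  have key : ∀ (n : ℕ) (f : Polynomial K), f.natDegree ≤ n →
      Polynomial.aeval t⁻¹ (Polynomial.reflect n f) * t ^ n = Polynomial.aeval t f := by
    intro n f hf
    let _ : Invertible t := invertibleOfNonzero ht
    have h := Polynomial.eval₂_reflect_mul_pow (algebraMap K E) t n f hf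
    rw [invOf_eq_inv] at h
    exact h
  set n := max p.natDegree q.natDegree with hn
  have hp := key n p (le_max_left _ _)
  have hq' := key n q (le_max_right _ _)
  have htn : t ^ n ≠ 0 := pow_ne_zero n ht
  refine ⟨Polynomial.reflect n p, Polynomial.reflect n q, ?_, ?_⟩
  · intro h0
    apply hq
    rw [← hq', h0, zero_mul]
  · rw [hy, ← hp, ← hq', mul_div_mul_right _ _ htn]

/-! ### Orders of the images of `S`, `S * T`, `T` in the Galois group -/

theorem h85_ker_le_Gamma0 (M : ModClosure N) {γ : SL(2, ℤ)} (h : M.π γ = 1) : γ ∈ Gamma0 N := by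
  rw [← M.π_comap, Subgroup.mem_comap, h]
  exact Subgroup.one_mem _

omit [NeZero N] in
theorem h85_S_notMem (hN : 1 < N) : (S : SL(2, ℤ)) ∉ Gamma0 N := by
  rw [Gamma0_mem]
  have h : ((S : SL(2, ℤ)) 1 0 : ℤ) = 1 := by
    simp [ModularGroup.coe_S]
  rw [h, Int.cast_one]
  have : Fact (1 < N) := ⟨hN⟩
  exact one_ne_zero

omit [NeZero N] in
theorem h85_ST_notMem (hN : 1 < N) : (S * T : SL(2, ℤ)) ∉ Gamma0 N := by
  rw [Gamma0_mem]
  have h : ((S * T : SL(2, ℤ)) 1 0 : ℤ) = 1 := by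
    simp [ModularGroup.coe_T]
  rw [h, Int.cast_one]
  have : Fact (1 < N) := ⟨hN⟩
  exact one_ne_zero

omit [NeZero N] in
theorem h85_ST_sq_notMem (hN : 1 < N) : ((S * T) ^ 2 : SL(2, ℤ)) ∉ Gamma0 N := by
  rw [Gamma0_mem]
  have h : (((S * T) ^ 2 : SL(2, ℤ)) 1 0 : ℤ) = 1 := by
    simp [pow_two, ModularGroup.coe_T]
  rw [h, Int.cast_one]
  have : Fact (1 < N) := ⟨hN⟩
  exact one_ne_zero

omit [NeZero N] in
theorem h85_conj_T_pow_mem_iff (k : ℕ) :
    (S * T ^ k * S⁻¹ : SL(2, ℤ)) ∈ Gamma0 N ↔ N ∣ k := by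
  rw [Gamma0_mem]
  have h : ((S * T ^ k * S⁻¹ : SL(2, ℤ)) 1 0 : ℤ) = -(k : ℤ) := by
    have hT : ((T ^ k : SL(2, ℤ)) : Matrix (Fin 2) (Fin 2) ℤ) = !![1, (k : ℤ); 0, 1] := by
      have := ModularGroup.coe_T_zpow (k : ℤ)
      rwa [zpow_natCast] at this
    simp [ModularGroup.coe_S, hT, Matrix.mul_apply, Fin.sum_univ_two,
      Matrix.SpecialLinearGroup.coe_inv, Matrix.adjugate_fin_two]
  rw [h, Int.cast_neg, neg_eq_zero, Int.cast_natCast, ZMod.natCast_eq_zero_iff]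

theorem h85_two_le_orderOf_S (M : ModClosure N) (hN : 1 < N) : 2 ≤ orderOf (M.π S) := by
  have hpos : 0 < orderOf (M.π S) := orderOf_pos _
  by_contra hlt
  have h1 : orderOf (M.π S) = 1 := by omega
  exact h85_S_notMem hN (h85_ker_le_Gamma0 M (orderOf_eq_one_iff.mp h1))

theorem h85_three_le_orderOf_ST (M : ModClosure N) (hN : 1 < N) :
    3 ≤ orderOf (M.π (S * T)) := by
  have hpos : 0 < orderOf (M.π (S * T)) := orderOf_pos _
  by_contra hlt
  have h12 : orderOf (M.π (S * T)) = 1 ∨ orderOf (M.π (S * T)) = 2 := by omega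
  rcases h12 with h1 | h2
  · exact h85_ST_notMem hN (h85_ker_le_Gamma0 M (orderOf_eq_one_iff.mp h1))
  · have h := pow_orderOf_eq_one (M.π (S * T))
    rw [h2, ← map_pow] at h
    exact h85_ST_sq_notMem hN (h85_ker_le_Gamma0 M h)

theorem h85_le_orderOf_T (M : ModClosure N) : N ≤ orderOf (M.π T) := by
  have hpos : 0 < orderOf (M.π T) := orderOf_pos _
  have h := pow_orderOf_eq_one (M.π T)
  rw [← map_pow] at h
  have h2 : M.π (S * T ^ orderOf (M.π T) * S⁻¹) = 1 := by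
    rw [map_mul, map_mul, h, mul_one, ← map_mul, mul_inv_cancel, map_one]
  exact Nat.le_of_dvd hpos ((h85_conj_T_pow_mem_iff _).mp (h85_ker_le_Gamma0 M h2))

/-! ### The counts -/

open WithZero in
/-- The count of zeros of `x - a` from a point `τ` with `j τ = a` and an element `γ` of the
stabiliser of `τ` whose image has order at least `jOrd τ`. -/
theorem h85_card_zeros_aux (M : ModClosure N) (a : Kbar) (τ : UpperHalfPlane)
    (hτ : iotaC a = jAn τ) (hpos : 0 < jOrd τ) (γ : SL(2, ℤ)) (hγ : γ • τ = τ)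
    (hord : jOrd τ ≤ orderOf (M.π γ)) :
    Nat.card {v : Place Kbar (FN N) // 0 < v.ord (jF N - algebraMap Kbar (FN N) a)}
      = orbN N γ := by
  have hγ' : γ⁻¹ • τ = τ := inv_smul_eq_iff.mpr hγ.symm
  have h := gc_card_zeros (K := Kbar) (E := M.E) (F := FN N) (L := M.L)
    (M.t - algebraMap Kbar M.E a) (h85_transcendental_sub M.t_transcendental a)
    (h85_gen_sub M.t_gen a) (M.w τ) (M.w_algebraMap τ)
    (by
      rw [M.w_j τ a hτ, ← exp_zero, exp_lt_exp]
      omega)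
    (M.π γ) (fun y => by rw [M.w_π, hγ'])
    (by
      rw [M.w_j τ a hτ, exp_le_exp]
      omega)
  rw [map_sub, M.t_map, ← IsScalarTower.algebraMap_apply] at h
  rw [h, gc_orbits_transfer M.π M.π_surjective _ _ M.π_comap γ]
  rfl

theorem asm_card_zeros_zero (M : ModClosure N) (hN : 1 < N) :
    Nat.card {v : Place Kbar (FN N) // 0 < v.ord (jF N - algebraMap Kbar (FN N) 0)}
      = orbN N (S * T) := by
  refine h85_card_zeros_aux M 0 UpperHalfPlane.ρ (by rw [map_zero, jAn_rho]) ?_ (S * T)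
    h27_ST_smul_rho ?_
  · rw [jOrd_rho]; norm_num
  · rw [jOrd_rho]; exact h85_three_le_orderOf_ST M hN

theorem asm_card_zeros_1728 (M : ModClosure N) (hN : 1 < N) :
    Nat.card {v : Place Kbar (FN N) // 0 < v.ord (jF N - algebraMap Kbar (FN N) 1728)}
      = orbN N S := by
  refine h85_card_zeros_aux M 1728 UpperHalfPlane.I (by rw [map_ofNat, jAn_I]) ?_ S
    h27_S_smul_I ?_
  · rw [jOrd_I]; norm_num
  · rw [jOrd_I]; exact h85_two_le_orderOf_S M hN

theorem asm_card_zeros_generic (M : ModClosure N) (a : Kbar) (h0 : a ≠ 0) (h1728 : a ≠ 1728) :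
    Nat.card {v : Place Kbar (FN N) // 0 < v.ord (jF N - algebraMap Kbar (FN N) a)}
      = dedekindPsi N := by
  obtain ⟨τ, hτ⟩ := jAn_surjective (iotaC a)
  have h0' : jAn τ ≠ 0 := by
    rw [hτ]
    exact (map_ne_zero iotaC).mpr h0
  have h1' : jAn τ ≠ 1728 := by
    rw [hτ]
    intro h
    apply h1728
    apply iotaC.injective
    rw [h, map_ofNat]
  have hj : jOrd τ = 1 := jOrd_eq_one τ h0' h1'
  rw [← asm_orb_one N]
  refine h85_card_zeros_aux M a τ hτ.symm ?_ 1 (one_smul _ _) ?_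
  · rw [hj]; norm_num
  · rw [hj, map_one, orderOf_one]

open WithZero in
theorem asm_card_poles (M : ModClosure N) :
    Nat.card {v : Place Kbar (FN N) // v.ord (jF N) < 0} = orbN N T := by
  have ht0 : M.t ≠ 0 := fun h0 => M.t_transcendental (h0 ▸ isAlgebraic_zero)
  have hNpos : 0 < N := Nat.pos_of_ne_zero (NeZero.ne N)
  have h := gc_card_zeros (K := Kbar) (E := M.E) (F := FN N) (L := M.L)
    (M.t)⁻¹ (h85_transcendental_inv M.t_transcendental)
    (h85_gen_inv ht0 M.t_gen) M.winf M.winf_algebraMap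
    (by
      rw [M.winf_j, ← exp_zero, exp_lt_exp]
      omega)
    (M.π T) M.winf_π_T
    (by
      rw [M.winf_j, exp_le_exp]
      have := h85_le_orderOf_T M
      omega)
  rw [map_inv₀, M.t_map] at h
  have hcard : Nat.card {v : Place Kbar (FN N) // v.ord (jF N) < 0}
      = Nat.card {v : Place Kbar (FN N) // 0 < v.ord (jF N)⁻¹} := by
    refine Nat.card_congr (Equiv.subtypeEquivRight fun v => ?_)
    rw [Place.ord_inv]
    omega
  rw [hcard, h, gc_orbits_transfer M.π M.π_surjective _ _ M.π_comap T]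
  rfl

end Fermat.Agent.S24

end
end
-- ==== END Fermat.Agent.S24.Asm.Count

-- ==== BEGIN Fermat.Agent.S24.Closure.LemmaJ
section

/-!
# S24 construction, layer 3 (WP CLO-LemmaJ): the `SL(2, ℤ)`-invariants of `Atil N` are `Q̄[j]`

Proof sketch. Let `f ∈ Atil N` be invariant, `c = uExp N f`.
* `T • f = f` and `uExp_T_smul` give `c n = ζ_N ^ (-n) * c n`, so `c n = 0` unless `N ∣ n`
  (`zetaK_zpow_eq_one_iff`).
* Induction on the pole order `M` (`c n = 0` for `n < - N * M`):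
  - `M = 0`: `f` is bounded at `∞` (`isBoundedAtImInfty_of_uExp`), holomorphic and invariant,
    so it is a modular form of weight `0` and level one, hence constant
    (`ModularFormClass.levelOne_weight_zero_const`); then `eq_algebraMap_of_const`.
  - `M + 1`: `f - c (- N (M+1)) • j ^ (M+1)` is invariant with pole order `≤ M`
    (`uExp_jA`, `jq` has leading coefficient `1` at `-1`, `smul_jA`).
-/

set_option autoImplicit false

noncomputable section

namespace Fermat.Agent.S24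

open ModularCurve UpperHalfPlane
open scoped MatrixGroups Manifold ModularForm

/-- `T`-invariance forces the expansion to be supported on the multiples of `N`. -/
theorem lemmaJ_coeff_eq_zero_of_not_dvd (N : ℕ) [NeZero N] (f : Atil N)
    (hT : ModularGroup.T • f = f) (n : ℤ) (hn : ¬ (N : ℤ) ∣ n) : (uExp N f).coeff n = 0 := by
  have h := uExp_T_smul N f
  rw [hT] at h
  have h1 : (uExp N f).coeff n = (zetaK N)⁻¹ ^ n * (uExp N f).coeff n := by
    conv_lhs => rw [h]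
    rw [twist_coeff]
  by_contra hne
  have h2 : (zetaK N)⁻¹ ^ n = 1 := by
    have h3 : ((zetaK N)⁻¹ ^ n - 1) * (uExp N f).coeff n = 0 := by
      linear_combination -h1
    rcases mul_eq_zero.mp h3 with h4 | h4
    · exact sub_eq_zero.mp h4
    · exact absurd h4 hne
  rw [inv_zpow] at h2
  exact hn ((zetaK_zpow_eq_one_iff N n).mp (inv_eq_one.mp h2))

/-- An invariant element of `Atil N`, as a function, is invariant under `τ ↦ γ τ`. -/
theorem lemmaJ_apply_smul (N : ℕ) (f : Atil N) (hf : ∀ γ : SL(2, ℤ), γ • f = f)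
    (γ : SL(2, ℤ)) (τ : ℍ) : ((f : Hol) : ℍ → ℂ) (γ • τ) = ((f : Hol) : ℍ → ℂ) τ := by
  have h := hf γ⁻¹
  have h1 : ((γ⁻¹ • f : Atil N) : Hol) = (f : Hol) := congrArg Subtype.val h
  rw [coe_smul_Atil] at h1
  have h2 := congrFun (congrArg Subtype.val h1) τ
  rw [Hol.smul_apply, inv_inv] at h2
  exact h2

/-- An invariant element of `Atil N` which is bounded at `∞` is constant. -/
theorem lemmaJ_const (N : ℕ) (f : Atil N) (hf : ∀ γ : SL(2, ℤ), γ • f = f)
    (hb : IsBoundedAtImInfty ((f : Hol) : ℍ → ℂ)) :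
    ∃ a : ℂ, ∀ τ : ℍ, ((f : Hol) : ℍ → ℂ) τ = a := by
  have hslash : ∀ γ : SL(2, ℤ), (((f : Hol) : ℍ → ℂ) ∣[(0 : ℤ)] γ) = ((f : Hol) : ℍ → ℂ) := by
    intro γ
    funext τ
    rw [ModularForm.SL_slash_apply, lemmaJ_apply_smul N f hf γ τ]
    simp
  let F : ModularForm 𝒮ℒ 0 :=
    { toFun := ((f : Hol) : ℍ → ℂ)
      slash_action_eq' := fun _ ⟨γ, hγ⟩ ↦ hγ ▸ hslash γ
      holo' := Hol.mdifferentiable (f : Hol)
      bdd_at_cusps' := by
        intro c hc
        rw [Subgroup.IsArithmetic.isCusp_iff_isCusp_SL2Z] at hc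
        rw [OnePoint.isBoundedAt_iff_forall_SL2Z hc]
        intro γ _
        rw [hslash γ]
        exact hb }
  obtain ⟨a, ha⟩ := ModularFormClass.levelOne_weight_zero_const F
  exact ⟨a, fun τ => congrFun ha τ⟩

/-- The expansion of `j ^ n`. -/
theorem lemmaJ_uExp_jA_pow (N : ℕ) [NeZero N] (n : ℕ) :
    uExp N (jA N ^ n) = qExpand Kbar N (coeffEmb Kbar (jq ^ n)) := by
  rw [map_pow, uExp_jA, jBar, map_pow, map_pow]

theorem lemmaJ_coeff_jA_pow_self (N : ℕ) [NeZero N] (n : ℕ) :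
    (uExp N (jA N ^ n)).coeff (-((N : ℤ) * n)) = 1 := by
  rw [lemmaJ_uExp_jA_pow, show -((N : ℤ) * n) = (N : ℤ) * (-(n : ℤ)) by ring,
    qExpand_coeff_mul, coeffEmb_coeff, coeff_jq_pow_self, map_one]

theorem lemmaJ_coeff_jA_pow_of_lt (N : ℕ) [NeZero N] (n : ℕ) {m : ℤ}
    (hm : m < -((N : ℤ) * n)) : (uExp N (jA N ^ n)).coeff m = 0 := by
  rw [lemmaJ_uExp_jA_pow]
  by_cases hd : (N : ℤ) ∣ m
  · obtain ⟨k, rfl⟩ := hd
    have hN : (0 : ℤ) < N := by exact_mod_cast Nat.pos_of_ne_zero (NeZero.ne N)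
    have hk : k < -(n : ℤ) := by
      by_contra hk
      have : -((N : ℤ) * n) ≤ (N : ℤ) * k := by
        have := mul_le_mul_of_nonneg_left (not_lt.mp hk) hN.le
        linarith
      exact absurd hm (not_lt.mpr this)
    rw [qExpand_coeff_mul, coeffEmb_coeff, coeff_jq_pow_of_lt hk, map_zero]
  · exact qExpand_coeff_of_not_dvd N _ hd

theorem lemmaJ_coeff_algebraMap_mul (a : Kbar) (c : LaurentSeries Kbar) (n : ℤ) :
    (algebraMap Kbar (LaurentSeries Kbar) a * c).coeff n = a * c.coeff n := by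
  rw [LaurentSeries.algebraMap_apply, HahnSeries.C_mul_eq_smul, HahnSeries.coeff_smul,
    smul_eq_mul]

/-- The element `f - a j ^ n` and its properties. -/
theorem lemmaJ_step_smul (N : ℕ) [NeZero N] (f : Atil N) (hf : ∀ γ : SL(2, ℤ), γ • f = f)
    (a : Kbar) (n : ℕ) (γ : SL(2, ℤ)) :
    γ • (f - algebraMap Kbar (Atil N) a * jA N ^ n) =
      f - algebraMap Kbar (Atil N) a * jA N ^ n := by
  have h1 : γ • (f - algebraMap Kbar (Atil N) a * jA N ^ n) =
      γ • f - γ • (algebraMap Kbar (Atil N) a * jA N ^ n) := smul_sub γ f _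
  have h2 : γ • (algebraMap Kbar (Atil N) a * jA N ^ n) =
      γ • (algebraMap Kbar (Atil N) a) * γ • (jA N ^ n) := smul_mul' γ _ _
  have h3 : γ • (jA N ^ n) = (γ • jA N) ^ n := smul_pow' γ (jA N) n
  have h4 : γ • (algebraMap Kbar (Atil N) a) = algebraMap Kbar (Atil N) a :=
    smul_algebraMap γ a
  rw [h1, h2, h3, h4, hf γ, smul_jA]

theorem lemmaJ_step_coeff (N : ℕ) [NeZero N] (f : Atil N) (a : Kbar) (n : ℕ) (m : ℤ) :
    (uExp N (f - algebraMap Kbar (Atil N) a * jA N ^ n)).coeff m =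
      (uExp N f).coeff m - a * (uExp N (jA N ^ n)).coeff m := by
  have h1 : uExp N (f - algebraMap Kbar (Atil N) a * jA N ^ n) =
      uExp N f - uExp N (algebraMap Kbar (Atil N) a * jA N ^ n) := map_sub (uExp N) f _
  have h2 : uExp N (algebraMap Kbar (Atil N) a * jA N ^ n) =
      uExp N (algebraMap Kbar (Atil N) a) * uExp N (jA N ^ n) := map_mul (uExp N) _ _
  have h3 : uExp N (algebraMap Kbar (Atil N) a) = algebraMap Kbar (LaurentSeries Kbar) a :=
    AlgHom.commutes (uExp N) a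
  rw [h1, h2, h3, HahnSeries.coeff_sub, lemmaJ_coeff_algebraMap_mul]

/-- Lemma J, by induction on the pole order. -/
theorem lemmaJ_aux (N : ℕ) [NeZero N] (M : ℕ) :
    ∀ f : Atil N, (∀ γ : SL(2, ℤ), γ • f = f) →
      (∀ n : ℤ, n < -((N : ℤ) * M) → (uExp N f).coeff n = 0) →
      ∃ p : Polynomial Kbar, Polynomial.aeval (jA N) p = f := by
  have hN : (0 : ℤ) < N := by exact_mod_cast Nat.pos_of_ne_zero (NeZero.ne N)
  induction M with
  | zero =>
    intro f hf hc
    have hb : IsBoundedAtImInfty ((f : Hol) : ℍ → ℂ) :=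
      isBoundedAtImInfty_of_uExp N f (fun n hn => hc n (by simpa using hn))
    obtain ⟨a, ha⟩ := lemmaJ_const N f hf hb
    refine ⟨Polynomial.C ((uExp N f).coeff 0), ?_⟩
    rw [Polynomial.aeval_C]
    exact (eq_algebraMap_of_const N f a ha).symm
  | succ M ih =>
    intro f hf hc
    obtain ⟨a, ha⟩ : ∃ a : Kbar, a = (uExp N f).coeff (-((N : ℤ) * ((M + 1 : ℕ) : ℤ))) :=
      ⟨_, rfl⟩
    have hginv := lemmaJ_step_smul N f hf a (M + 1)
    have hgc := lemmaJ_step_coeff N f a (M + 1)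
    have hgvanish : ∀ n : ℤ, n < -((N : ℤ) * M) →
        (uExp N (f - algebraMap Kbar (Atil N) a * jA N ^ (M + 1))).coeff n = 0 := by
      intro n hn
      by_cases hd : (N : ℤ) ∣ n
      · obtain ⟨k, rfl⟩ := hd
        have hk : k < -(M : ℤ) := by
          by_contra hk
          have := mul_le_mul_of_nonneg_left (not_lt.mp hk) hN.le
          linarith
        rcases lt_or_eq_of_le (show k ≤ -((M + 1 : ℕ) : ℤ) by push_cast; omega) with hk' | hk'
        · have hlt : (N : ℤ) * k < -((N : ℤ) * ((M + 1 : ℕ) : ℤ)) := by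
            have := mul_lt_mul_of_pos_left hk' hN
            linarith
          rw [hgc, hc _ hlt, lemmaJ_coeff_jA_pow_of_lt N (M + 1) hlt]
          ring
        · have he : (N : ℤ) * k = -((N : ℤ) * ((M + 1 : ℕ) : ℤ)) := by
            rw [hk']; ring
          rw [hgc, he, lemmaJ_coeff_jA_pow_self N (M + 1), ← ha]
          ring
      · exact lemmaJ_coeff_eq_zero_of_not_dvd N _ (hginv _) n hd
    obtain ⟨p, hp⟩ := ih _ hginv hgvanish
    refine ⟨p + Polynomial.C a * Polynomial.X ^ (M + 1), ?_⟩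
    have e1 : Polynomial.aeval (jA N) (p + Polynomial.C a * Polynomial.X ^ (M + 1)) =
        Polynomial.aeval (jA N) p +
          Polynomial.aeval (jA N) (Polynomial.C a * Polynomial.X ^ (M + 1)) :=
      map_add (Polynomial.aeval (jA N)) _ _
    have e2 : Polynomial.aeval (jA N) (Polynomial.C a * Polynomial.X ^ (M + 1)) =
        Polynomial.aeval (jA N) (Polynomial.C a) *
          Polynomial.aeval (jA N) (Polynomial.X ^ (M + 1)) :=
      map_mul (Polynomial.aeval (jA N)) _ _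
    have e3 : Polynomial.aeval (jA N) (Polynomial.X ^ (M + 1) : Polynomial Kbar) =
        jA N ^ (M + 1) := by
      have := map_pow (Polynomial.aeval (jA N)) (Polynomial.X : Polynomial Kbar) (M + 1)
      rw [Polynomial.aeval_X] at this
      exact this
    rw [e1, e2, e3, hp, Polynomial.aeval_C]
    exact sub_add_cancel f (algebraMap Kbar (Atil N) a * jA N ^ (M + 1))

/-- **Lemma J**: an `SL(2, ℤ)`-invariant element of `Atil N` is a polynomial in `j` with
coefficients in `Q̄`. -/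
theorem lemmaJ (N : ℕ) [NeZero N] (f : Atil N) (hf : ∀ γ : SL(2, ℤ), γ • f = f) :
    ∃ p : Polynomial Kbar, Polynomial.aeval (jA N) p = f := by
  have hN : (1 : ℤ) ≤ N := by exact_mod_cast Nat.pos_of_ne_zero (NeZero.ne N)
  refine lemmaJ_aux N (-(uExp N f).order).toNat f hf (fun n hn => ?_)
  apply HahnSeries.coeff_eq_zero_of_lt_order
  have h1 : -(uExp N f).order ≤ ((-(uExp N f).order).toNat : ℤ) := Int.self_le_toNat _
  have h2 : (0 : ℤ) ≤ ((-(uExp N f).order).toNat : ℤ) := Int.natCast_nonneg _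
  nlinarith

end Fermat.Agent.S24

end
end
-- ==== END Fermat.Agent.S24.Closure.LemmaJ

-- ==== BEGIN Fermat.Agent.S28.H30_CA
section

/-!
# S28, WP-F: the record assembly `Stmt_CA` (helper30)

For `N ≥ 2`, with `r = ∏_{p ∣ N} p`, the modular unit is the eta quotient
`u = Δ^{φ(r)} / ∏_{e ∣ r} Δ_{N/e}^{μ(e) r/e}`; index set `insert 0 r.divisors ⊂ ℕ`
(`0` is the index of `Δ = Δ₁`).
-/

set_option autoImplicit false
set_option linter.unusedSectionVars false
set_option linter.unusedVariables false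

open UpperHalfPlane ModularForm ModularCurve Function SlashInvariantForm
open scoped MatrixGroups ModularForm Manifold Real ArithmeticFunction.Moebius

noncomputable section

namespace Fermat.Agent.S28.H30

open Fermat.Agent.S23.H22 (G0 Q toSL piPerm q1 E12)

/-- The radical of `N`. -/
def etaRad (N : ℕ) : ℕ := ∏ p ∈ N.primeFactors, p

/-- The index set: `0` (for `Δ`) and the divisors of the radical. -/
def etaS (N : ℕ) : Finset ℕ := insert 0 (etaRad N).divisors

/-- The levels. -/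
def etaM (N e : ℕ) : ℕ := if e = 0 then 1 else N / e

/-- Exponents in the numerator. -/
def etaP (N e : ℕ) : ℕ :=
  if e = 0 then (etaRad N).totient else if μ e = -1 then etaRad N / e else 0

/-- Exponents in the denominator. -/
def etaMm (N e : ℕ) : ℕ :=
  if e = 0 then 0 else if μ e = 1 then etaRad N / e else 0

lemma etaRad_pos (N : ℕ) : 0 < etaRad N :=
  Nat.pos_of_ne_zero (Fermat.Agent.S28.H92.rad_ne_zero N)

lemma etaRad_dvd (N : ℕ) : etaRad N ∣ N := Nat.prod_primeFactors_dvd N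

lemma zero_notMem_etaDiv (N : ℕ) : (0 : ℕ) ∉ (etaRad N).divisors := by
  intro h
  exact (Nat.pos_of_mem_divisors h).ne' rfl

lemma etaP_sub_etaMm (N : ℕ) {e : ℕ} (he : e ≠ 0) :
    (etaP N e : ℤ) - (etaMm N e : ℤ) = -((μ e : ℤ) * ((etaRad N / e : ℕ) : ℤ)) := by
  unfold etaP etaMm
  rw [if_neg he, if_neg he]
  rcases ArithmeticFunction.moebius_eq_or e with h | h | h
  · rw [h]; simp
  · rw [h]; simp
  · rw [h]; simp

lemma etaM_dvd (N : ℕ) : ∀ e ∈ etaS N, etaM N e ∣ N := by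
  intro e he
  unfold etaM
  split_ifs with h
  · exact one_dvd N
  · rw [etaS, Finset.mem_insert] at he
    rcases he with he | he
    · exact absurd he h
    · exact Nat.div_dvd_of_dvd ((Nat.dvd_of_mem_divisors he).trans (etaRad_dvd N))

/-- The weights of numerator and denominator agree. -/
lemma eta_weight (N : ℕ) :
    ∑ e ∈ etaS N, (etaP N e : ℤ) = ∑ e ∈ etaS N, (etaMm N e : ℤ) := by
  rw [← sub_eq_zero, ← Finset.sum_sub_distrib, etaS, Finset.sum_insert (zero_notMem_etaDiv N)]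
  have h0 : (etaP N 0 : ℤ) - (etaMm N 0 : ℤ) = ((etaRad N).totient : ℤ) := by
    simp [etaP, etaMm]
  rw [h0]
  have h1 : ∑ e ∈ (etaRad N).divisors, ((etaP N e : ℤ) - (etaMm N e : ℤ))
      = - ∑ e ∈ (etaRad N).divisors, (μ e : ℤ) * ((etaRad N / e : ℕ) : ℤ) := by
    rw [← Finset.sum_neg_distrib]
    refine Finset.sum_congr rfl fun e he => ?_
    exact etaP_sub_etaMm N (Nat.pos_of_mem_divisors he).ne'
  rw [h1]
  have := Fermat.Agent.S28.H92.P1c N
  unfold etaRad
  rw [this]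
  ring

/-- The order of the conjugate at the coset with lower-left entry `c`. -/
lemma eta_order_sum (N : ℕ) [NeZero N] (c : ℤ) :
    ∑ e ∈ etaS N, ((etaP N e : ℤ) - (etaMm N e : ℤ)) * ((ordAt N (etaM N e) c : ℕ) : ℤ)
      = (N : ℤ) * ((etaRad N).totient : ℤ) - (etaRad N : ℤ) *
          ∑ e ∈ (etaRad N).divisors, (μ e : ℤ) * ((Int.gcd c ((N / e : ℕ) : ℤ) : ℤ)) ^ 2 := by
  have hN0 : N ≠ 0 := NeZero.ne N
  rw [etaS, Finset.sum_insert (zero_notMem_etaDiv N)]
  have h0 : ((etaP N 0 : ℤ) - (etaMm N 0 : ℤ)) * ((ordAt N (etaM N 0) c : ℕ) : ℤ)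
      = (N : ℤ) * ((etaRad N).totient : ℤ) := by
    simp [etaP, etaMm, etaM, ordAt, mul_comm]
  rw [h0, sub_eq_add_neg, Finset.mul_sum, ← Finset.sum_neg_distrib]
  congr 1
  refine Finset.sum_congr rfl fun e he => ?_
  have he0 : e ≠ 0 := (Nat.pos_of_mem_divisors he).ne'
  have her : e ∣ etaRad N := Nat.dvd_of_mem_divisors he
  have heN : e ∣ N := her.trans (etaRad_dvd N)
  rw [etaP_sub_etaMm N he0]
  have hM : etaM N e = N / e := by simp [etaM, he0]
  have h1 : N / (N / e) = e := Nat.div_div_self heN hN0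
  have h2 : ((etaRad N / e : ℕ) : ℤ) * (e : ℤ) = (etaRad N : ℤ) := by
    exact_mod_cast Nat.div_mul_cancel her
  rw [hM, ordAt, h1, Nat.cast_mul, Nat.cast_pow, ← h2]
  ring

variable (N : ℕ) [NeZero N]

/-- The conjugates of the modular unit. -/
def etaU (q : Q N) : LaurentSeries ℂ := Ueta N (etaS N) (etaM N) (etaP N) (etaMm N) q

lemma uls_etaU (γ : SL(2, ℤ)) :
    ULS (coeffRing N) (etaU N (⟦toSL γ⟧ : Q N))
      ((N : ℤ) * ((etaRad N).totient : ℤ) - (etaRad N : ℤ) *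
          ∑ e ∈ (etaRad N).divisors,
            (μ e : ℤ) * ((Int.gcd ((γ⁻¹ : SL(2, ℤ)) 1 0) ((N / e : ℕ) : ℤ) : ℤ)) ^ 2) :=
  ULS.congr_ord (uls_Ueta (mp := etaP N) (mm := etaMm N) (etaM_dvd N) γ) (eta_order_sum N _)

lemma etaU_order_pos (q : Q N) (hq : q ≠ q1) : 0 < (etaU N q).order := by
  obtain ⟨γ, rfl⟩ := exists_rep N q
  rw [(uls_etaU N γ).ord]
  have h := Fermat.Agent.S28.H92.P1a (NeZero.ne N) _ (not_dvd_of_ne_q1 N hq)
  unfold etaRad
  rw [h, mul_zero, sub_zero]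
  have h1 : 0 < N := Nat.pos_of_ne_zero (NeZero.ne N)
  have h2 : 0 < (∏ p ∈ N.primeFactors, p).totient := Nat.totient_pos.mpr (etaRad_pos N)
  positivity

lemma etaU_order_q1 (hN : 2 ≤ N) :
    ∃ D : ℕ, 0 < D ∧ (etaU N (q1 : Q N)).order = -((D : ℤ) * (N : ℤ)) := by
  obtain ⟨D, hD, hDeq⟩ := Fermat.Agent.S28.H92.P1b hN
  refine ⟨D, hD, ?_⟩
  have hq : (q1 : Q N) = (⟦toSL (1 : SL(2, ℤ))⟧ : Q N) :=
    (mk_toSL_eq_q1' N (one_mem _)).symm
  rw [hq, (uls_etaU N 1).ord, ← hDeq]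
  unfold etaRad
  rw [Fermat.Agent.S28.H92.P1a_dvd _ (by simp)]

/-- **WP-F for `N ≥ 2`.** -/
theorem nonempty_caData_of_two_le (hN : 2 ≤ N) : Nonempty (CAData N) := by
  obtain ⟨D, hD, hDeq⟩ := etaU_order_q1 N hN
  exact ⟨{
    Q := Q N
    instFintype := inferInstance
    q₀ := q1
    D := D
    D_pos := hD
    U := etaU N
    X := fun d q => Fermat.Agent.S28.H76.Xfam N d q
    U_coeff := fun q n => by
      obtain ⟨γ, rfl⟩ := exists_rep N q
      exact (uls_etaU N γ).coeffs n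
    U_ne := fun q => by
      obtain ⟨γ, rfl⟩ := exists_rep N q
      exact (uls_etaU N γ).ne
    U_lead := fun q => by
      obtain ⟨γ, rfl⟩ := exists_rep N q
      exact (uls_etaU N γ).lead
    U_order₀ := hDeq
    U_order_pos := fun q hq => etaU_order_pos N q hq
    X_q₀ := fun d _ hd => Fermat.Agent.S28.H76.Xfam_q1 N hd
    sym := fun d hd c s =>
      sym_of_stmt (mp := etaP N) (mm := etaMm N) Fermat.Agent.S28.H76.stmt_sym
        (etaM_dvd N) (eta_weight N) hd c s }⟩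

/-- **WP-F**: `Stmt_CA`. -/
theorem stmt_CA : Stmt_CA := by
  intro N _
  rcases Nat.lt_or_ge N 2 with h | h
  · have hN0 : N ≠ 0 := NeZero.ne N
    have h1 : N = 1 := by omega
    subst h1
    have := Fermat.Agent.S28.H10.nonempty_caData_one
    convert this
  · exact nonempty_caData_of_two_le N h

end Fermat.Agent.S28.H30

end
end
-- ==== END Fermat.Agent.S28.H30_CA

-- ==== BEGIN Fermat.Agent.S30.H29_Wiring
section

/-!
# S30 wiring, final step (helper29)

`stmt_S30_of : Stmt_TatePiece → Fermat.Agent.R.Stmt_FD → Fermat.Agent.R.Stmt_S30`.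

So the frozen statement S30 follows from the two remaining inputs:
* `Stmt_TatePiece` (cluster G: the Eichler–Shimura piece of the Tate module of `J₀(N)`), and
* `Fermat.Agent.R.Stmt_FD` (Frobenius density, item 61).
-/

set_option autoImplicit false

open Polynomial

namespace Fermat.Agent.S30.H29

open Fermat.Agent.S30 Fermat.Agent.R

/-- S30 from the Tate piece and the assembly. -/
theorem stmt_S30_of_assemble (hT : Stmt_TatePiece) (hA : Stmt_Assemble) : Stmt_S30 := by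
  intro p _ N _ S hpS hNS 𝒪' _ _ _ _ _ _ hp χ
  classical
  obtain ⟨r, ρ, hr, hc, hES, hun⟩ := hT p N S hpS hNS 𝒪' hp χ
  obtain ⟨ε, hεc, hεcyc, hεun⟩ := Fermat.Agent.R.H89.stmt_CycChar p 𝒪' hp S hpS
  -- the Hecke eigenvalues as a function on `ℕ`
  let a : ℕ → 𝒪' := fun ℓ =>
    if h : ℓ.Prime ∧ ¬ ℓ ∣ N ∧ ℓ ∉ (↑S : Set ℕ) then
      χ (CuspForm.heckeAlgebra.T h.1 h.2.1 h.2.2) else 0
  have ha : ∀ (ℓ : ℕ) (hℓ : ℓ.Prime) (hℓN : ¬ ℓ ∣ N) (hℓS : ℓ ∉ (↑S : Set ℕ)),
      a ℓ = χ (CuspForm.heckeAlgebra.T hℓ hℓN hℓS) := by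
    intro ℓ hℓ hℓN hℓS
    simp only [a]
    rw [dif_pos ⟨hℓ, hℓN, hℓS⟩]
  have hMES : MatES ρ a S := by
    intro ℓ hℓ hℓS A hA' σ hσ
    have hℓN : ¬ ℓ ∣ N := fun hd => hℓS (hNS ℓ hℓ hd)
    have hℓS' : ℓ ∉ (↑S : Set ℕ) := fun hm => hℓS (Finset.mem_coe.mp hm)
    rw [ha ℓ hℓ hℓN hℓS']
    exact hES ℓ hℓ hℓN hℓS' A hA' σ hσ
  obtain ⟨𝒪'', i1, i2, i3, i4, i5, i6, i7, i8, i9, hinj, ρ'', h1, h2, -⟩ :=
    hA 𝒪' S a r hr ρ ε hc hεc hMES hεcyc
  refine ⟨𝒪'', i1, i2, i3, i4, i5, i6, i7, i8, i9, hinj, ρ'', ?_, ?_⟩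
  · intro ℓ hℓ hℓN hℓS A hA' σ hσ
    have hℓS' : ℓ ∉ S := fun hm => hℓS (Finset.mem_coe.mpr hm)
    rw [h1 ℓ hℓ hℓS' A hA' σ hσ, ha ℓ hℓ hℓN hℓS]
  · intro q hq hqN hqp P hP σ hσ
    exact h2 σ (hun q hq hqN hqp P hP σ hσ) (hεun q hq hqp P hP σ hσ)

/-- The assembly statement from Frobenius density. -/
theorem stmt_Assemble_of_FD (hFD : Stmt_FD) : Stmt_Assemble :=
  Fermat.Agent.S35.assemble_of_assembleX
    (Fermat.Agent.S35.assembleX_of_assembleS (assembleS_of_FD hFD))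

/-- **S30 from the Tate piece and Frobenius density.** -/
theorem stmt_S30_of (hT : Stmt_TatePiece) (hFD : Stmt_FD) : Stmt_S30 :=
  stmt_S30_of_assemble hT (stmt_Assemble_of_FD hFD)

end Fermat.Agent.S30.H29

end
-- ==== END Fermat.Agent.S30.H29_Wiring

-- ==== BEGIN Fermat.Agent.S35.H89_Final
section

/-!
# S35 and S36 from enriched Tate pieces (helper89; cluster R)

Interfaces to the geometry (item 65, BAD):

* `Stmt_TatePieceSt` : for the eigensystem of a NEWFORM `g` of level `M`, an Eichler–Shimura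
  piece `ρ` (any rank) such that at the primes `q ∥ M`, `q ≠ lam`, every Frobenius lift `φ`
  satisfies `(ρ φ - 1)(ρ φ + 1)(ρ φ - q)(ρ φ + q) = 0`.
* `Stmt_TatePieceNU` : the same with: at the primes `q² ∥ M`, `q ≠ lam`, some inertia group at
  `q` has no nonzero fixed vector.

Wirings (sorry-free):

* `s35_of : Stmt_AssembleS → Stmt_TatePieceSt → <frozen type of S35>`
* `s36_of : Stmt_AssembleS → Stmt_TatePieceNU → <frozen type of S36>`
-/

set_option autoImplicit false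

open Polynomial
open CuspForm CuspForm.IsNewform

namespace Fermat.Agent.S35

open Fermat.Agent.S30

/-- **Interface to the geometry, Steinberg primes.** -/
def Stmt_TatePieceSt : Prop :=
  ∀ {M : ℕ} [NeZero M] {g : CuspForm (CongruenceSubgroup.Gamma0 M) 2} (_hg : g.IsNewform)
    (lam : ℕ) [Fact lam.Prime]
    (S : Finset ℕ)
    (O' : Type) [CommRing O'] [IsDomain O'] [IsDiscreteValuationRing O']
    [IsAdicComplete (IsLocalRing.maximalIdeal O') O'] [Finite (IsLocalRing.ResidueField O')]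
    [CharZero O'] (_hlamO' : (lam : O') ∈ IsLocalRing.maximalIdeal O')
    (chig : CuspForm.heckeAlgebra M 2 (↑S : Set ℕ) →+* ℂ)
    (_hchig : ∀ (ℓ : ℕ) (hℓ : ℓ.Prime) (hℓM : ¬ ℓ ∣ M) (hℓS : ℓ ∉ (↑S : Set ℕ)),
      chig (CuspForm.heckeAlgebra.T hℓ hℓM hℓS) = ModularFormClass.qCoeff g ℓ)
    (iota : chig.range →+* O')
    (_hlamS : lam ∈ S) (_hMS : ∀ q : ℕ, q.Prime → q ∣ M → q ∈ S),
    ∃ (r : ℕ) (ρ : GQ →* Matrix (Fin r) (Fin r) O'), 0 < r ∧ MatAdicCont ρ ∧
      (∀ (ℓ : ℕ) (hℓ : ℓ.Prime) (hℓM : ¬ ℓ ∣ M) (hℓS : ℓ ∉ (↑S : Set ℕ)),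
        ∀ A : ValuationSubring (AlgebraicClosure ℚ), A.LiesOverPrime ℓ →
          ∀ σ : GQ, A.IsFrobeniusAt σ ℓ →
            ρ σ * ρ σ - (iota.comp chig.rangeRestrict) (CuspForm.heckeAlgebra.T hℓ hℓM hℓS) • ρ σ
              + (ℓ : O') • (1 : Matrix _ _ O') = 0) ∧
      (∀ q : ℕ, q.Prime → q ≠ lam → q ∣ M → ¬ q ^ 2 ∣ M →
        ∀ A : ValuationSubring (AlgebraicClosure ℚ), A.LiesOverPrime q →
          ∀ σ : GQ, A.IsFrobeniusAt σ q →
            (([1, -1, (q : O'), -(q : O')] : List O').map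
              (fun c => ρ σ - c • (1 : Matrix (Fin r) (Fin r) O'))).prod = 0)

/-- **Interface to the geometry, primes `q² ∥ M`.** -/
def Stmt_TatePieceNU : Prop :=
  ∀ {M : ℕ} [NeZero M] {g : CuspForm (CongruenceSubgroup.Gamma0 M) 2} (_hg : g.IsNewform)
    (lam : ℕ) [Fact lam.Prime]
    (S : Finset ℕ)
    (O' : Type) [CommRing O'] [IsDomain O'] [IsDiscreteValuationRing O']
    [IsAdicComplete (IsLocalRing.maximalIdeal O') O'] [Finite (IsLocalRing.ResidueField O')]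
    [CharZero O'] (_hlamO' : (lam : O') ∈ IsLocalRing.maximalIdeal O')
    (chig : CuspForm.heckeAlgebra M 2 (↑S : Set ℕ) →+* ℂ)
    (_hchig : ∀ (ℓ : ℕ) (hℓ : ℓ.Prime) (hℓM : ¬ ℓ ∣ M) (hℓS : ℓ ∉ (↑S : Set ℕ)),
      chig (CuspForm.heckeAlgebra.T hℓ hℓM hℓS) = ModularFormClass.qCoeff g ℓ)
    (iota : chig.range →+* O')
    (_hlamS : lam ∈ S) (_hMS : ∀ q : ℕ, q.Prime → q ∣ M → q ∈ S),
    ∃ (r : ℕ) (ρ : GQ →* Matrix (Fin r) (Fin r) O'), 0 < r ∧ MatAdicCont ρ ∧
      (∀ (ℓ : ℕ) (hℓ : ℓ.Prime) (hℓM : ¬ ℓ ∣ M) (hℓS : ℓ ∉ (↑S : Set ℕ)),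
        ∀ A : ValuationSubring (AlgebraicClosure ℚ), A.LiesOverPrime ℓ →
          ∀ σ : GQ, A.IsFrobeniusAt σ ℓ →
            ρ σ * ρ σ - (iota.comp chig.rangeRestrict) (CuspForm.heckeAlgebra.T hℓ hℓM hℓS) • ρ σ
              + (ℓ : O') • (1 : Matrix _ _ O') = 0) ∧
      (∀ q : ℕ, q.Prime → q ≠ lam → M.factorization q = 2 →
        ∃ P : ValuationSubring (AlgebraicClosure ℚ), P.LiesOverPrime q ∧
          ∀ v : Fin r → O', (∀ σ ∈ P.inertiaSubgroupIn ℚ, (ρ σ).mulVec v = v) → v = 0)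

namespace H89

open Classical in
/-- The eigenvalue function of an eigensystem, extended by `0`. -/
noncomputable def aOf {M : ℕ} [NeZero M] (S : Finset ℕ) {O' : Type} [CommRing O']
    (χ : CuspForm.heckeAlgebra M 2 (↑S : Set ℕ) →+* O') (ℓ : ℕ) : O' :=
  if h : ℓ.Prime ∧ ¬ ℓ ∣ M ∧ ℓ ∉ (↑S : Set ℕ) then χ (CuspForm.heckeAlgebra.T h.1 h.2.1 h.2.2)
  else 0

theorem aOf_eq {M : ℕ} [NeZero M] (S : Finset ℕ) {O' : Type} [CommRing O']
    (χ : CuspForm.heckeAlgebra M 2 (↑S : Set ℕ) →+* O') (ℓ : ℕ) (hℓ : ℓ.Prime) (hℓM : ¬ ℓ ∣ M)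
    (hℓS : ℓ ∉ (↑S : Set ℕ)) : aOf S χ ℓ = χ (CuspForm.heckeAlgebra.T hℓ hℓM hℓS) := by
  unfold aOf
  rw [dif_pos ⟨hℓ, hℓM, hℓS⟩]

/-- The common core: an Eichler–Shimura piece gives the hypotheses of the assembly. -/
theorem core {M : ℕ} [NeZero M] (lam : ℕ) [Fact lam.Prime] (S : Finset ℕ)
    (O' : Type) [CommRing O'] [IsDomain O'] [IsDiscreteValuationRing O']
    [IsAdicComplete (IsLocalRing.maximalIdeal O') O'] [Finite (IsLocalRing.ResidueField O')]
    [CharZero O'] (hlamO' : (lam : O') ∈ IsLocalRing.maximalIdeal O')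
    (χ : CuspForm.heckeAlgebra M 2 (↑S : Set ℕ) →+* O')
    (hlamS : lam ∈ S) (hMS : ∀ q : ℕ, q.Prime → q ∣ M → q ∈ S)
    (r : ℕ) (ρ : GQ →* Matrix (Fin r) (Fin r) O')
    (hES : ∀ (ℓ : ℕ) (hℓ : ℓ.Prime) (hℓM : ¬ ℓ ∣ M) (hℓS : ℓ ∉ (↑S : Set ℕ)),
        ∀ A : ValuationSubring (AlgebraicClosure ℚ), A.LiesOverPrime ℓ →
          ∀ σ : GQ, A.IsFrobeniusAt σ ℓ →
            ρ σ * ρ σ - χ (CuspForm.heckeAlgebra.T hℓ hℓM hℓS) • ρ σ
              + (ℓ : O') • (1 : Matrix _ _ O') = 0) :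
    ∃ ε : GQ →* O'ˣ, CharAdicCont ε ∧ CharCycAt ε S ∧ MatES ρ (aOf S χ) S ∧
      ∀ q : ℕ, q.Prime → q ≠ lam →
        ∀ A : ValuationSubring (AlgebraicClosure ℚ), A.LiesOverPrime q →
          ∀ σ : GQ, A.IsFrobeniusAt σ q → ((ε σ : O'ˣ) : O') = (q : O') := by
  obtain ⟨ε, hε1, hε2, -⟩ :=
    Fermat.Agent.R.H89.stmt_CycChar lam O' hlamO' {lam} (Finset.mem_singleton_self lam)
  refine ⟨ε, hε1, ?_, ?_, ?_⟩
  · intro ℓ hℓ hℓS A hA σ hσ
    refine hε2 ℓ hℓ ?_ A hA σ hσ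
    intro h
    rw [Finset.mem_singleton] at h
    exact hℓS (h ▸ hlamS)
  · intro ℓ hℓ hℓS A hA σ hσ
    have hℓM : ¬ ℓ ∣ M := fun h => hℓS (hMS ℓ hℓ h)
    have hℓS' : ℓ ∉ (↑S : Set ℕ) := fun h => hℓS (Finset.mem_coe.1 h)
    rw [aOf_eq S χ ℓ hℓ hℓM hℓS']
    exact hES ℓ hℓ hℓM hℓS' A hA σ hσ
  · intro q hq hqlam A hA σ hσ
    refine hε2 q hq ?_ A hA σ hσ
    intro h
    rw [Finset.mem_singleton] at h
    exact hqlam h

end H89

/-- **S35 from the structural assembly and the Steinberg Tate piece.** -/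
theorem s35_of (hS : Stmt_AssembleS) (hT : Stmt_TatePieceSt)
    {M : ℕ} [NeZero M] {g : CuspForm (CongruenceSubgroup.Gamma0 M) 2} (hg : g.IsNewform)
    (lam : ℕ) [Fact lam.Prime]
    (S : Finset ℕ)
    (O' : Type) [CommRing O'] [IsDomain O'] [IsDiscreteValuationRing O']
    [IsAdicComplete (IsLocalRing.maximalIdeal O') O'] [Finite (IsLocalRing.ResidueField O')]
    [CharZero O'] (hlamO' : (lam : O') ∈ IsLocalRing.maximalIdeal O')
    (chig : CuspForm.heckeAlgebra M 2 (↑S : Set ℕ) →+* ℂ)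
    (hchig : ∀ (ℓ : ℕ) (hℓ : ℓ.Prime) (hℓM : ¬ ℓ ∣ M) (hℓS : ℓ ∉ (↑S : Set ℕ)),
      chig (CuspForm.heckeAlgebra.T hℓ hℓM hℓS) = ModularFormClass.qCoeff g ℓ)
    (iota : chig.range →+* O')
    (hlamS : lam ∈ S) (hMS : ∀ q : ℕ, q.Prime → q ∣ M → q ∈ S)
    :
    ∃ (O'' : Type) (_ : CommRing O'') (_ : IsDomain O'') (_ : IsDiscreteValuationRing O'')
      (_ : IsAdicComplete (IsLocalRing.maximalIdeal O'') O'') (_ : Finite (IsLocalRing.ResidueField O''))
      (_ : CharZero O'') (_ : Algebra O' O'') (_ : Module.Finite O' O'') (_ : IsLocalHom (algebraMap O' O'')),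
      Function.Injective (algebraMap O' O'') ∧
      ∃ ρ : GaloisRepAdic O'',
        (∀ (ℓ : ℕ) (hℓ : ℓ.Prime) (hℓM : ¬ ℓ ∣ M) (hℓS : ℓ ∉ (↑S : Set ℕ)),
          ∀ A : ValuationSubring (AlgebraicClosure ℚ), A.LiesOverPrime ℓ →
            ∀ σ : AlgebraicClosure ℚ ≃ₐ[ℚ] AlgebraicClosure ℚ, A.IsFrobeniusAt σ ℓ →
              LinearMap.charpoly (ρ.ρ σ) =
                X ^ 2 - C (algebraMap O' O'' ((iota.comp chig.rangeRestrict) (CuspForm.heckeAlgebra.T hℓ hℓM hℓS))) * X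
                  + C ((ℓ : O''))) ∧
        (∀ q : ℕ, q.Prime → q ≠ lam → q ∣ M → ¬ q ^ 2 ∣ M →
          ∀ A : ValuationSubring (AlgebraicClosure ℚ), A.LiesOverPrime q →
            ∀ σ : AlgebraicClosure ℚ ≃ₐ[ℚ] AlgebraicClosure ℚ, A.IsFrobeniusAt σ q →
              LinearMap.charpoly (ρ.ρ σ) = X ^ 2 - C ((q : O'') + 1) * X + C ((q : O'')) ∨
              LinearMap.charpoly (ρ.ρ σ) = X ^ 2 + C ((q : O'') + 1) * X + C ((q : O''))) := by
  obtain ⟨r, ρ, hr, hcont, hES, hSt⟩ := hT hg lam S O' hlamO' chig hchig iota hlamS hMS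
  obtain ⟨ε, hε1, hε2, hES', hεq⟩ :=
    H89.core lam S O' hlamO' (iota.comp chig.rangeRestrict) hlamS hMS r ρ hES
  obtain ⟨O'', i1, i2, i3, i4, i5, i6, i7, i8, i9, hinj, ρ'', hF, -, -, hP, -⟩ :=
    assembleX_of_assembleS hS O' S (H89.aOf S (iota.comp chig.rangeRestrict)) r hr ρ ε
      hcont hε1 hES' hε2
  refine ⟨O'', i1, i2, i3, i4, i5, i6, i7, i8, i9, hinj, ρ'', ?_, ?_⟩
  · intro ℓ hℓ hℓM hℓS A hA σ hσ
    have hℓS' : ℓ ∉ S := fun h => hℓS (Finset.mem_coe.2 h)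
    rw [hF ℓ hℓ hℓS' A hA σ hσ, H89.aOf_eq S _ ℓ hℓ hℓM hℓS]
  · intro q hq hqlam hqM hq2 A hA σ hσ
    obtain ⟨c, hc, d, hcd, hcp⟩ := hP σ _ (hSt q hq hqlam hqM hq2 A hA σ hσ)
    rw [hεq q hq hqlam A hA σ hσ, map_natCast] at hcd
    have hq0 : (q : O'') ≠ 0 := Nat.cast_ne_zero.2 hq.ne_zero
    simp only [List.mem_cons, List.not_mem_nil, or_false] at hc
    rcases hc with rfl | rfl | rfl | rfl
    · -- c = 1, d = q
      left
      rw [map_one, one_mul] at hcd
      rw [hcp, map_one, hcd]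
      simp only [map_add, map_one]
      ring
    · -- c = -1, d = -q
      right
      rw [map_neg, map_one] at hcd
      have hd : d = -(q : O'') := by linear_combination -hcd
      rw [hcp, map_neg, map_one, hd]
      simp only [map_add, map_one, map_neg]
      ring
    · -- c = q, d = 1
      left
      rw [map_natCast] at hcd
      have hd : d = 1 := by
        have : (q : O'') * (d - 1) = 0 := by linear_combination hcd
        exact sub_eq_zero.1 ((mul_eq_zero.1 this).resolve_left hq0)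
      rw [hcp, map_natCast, hd]
      simp only [map_add, map_one]
      ring
    · -- c = -q, d = -1
      right
      rw [map_neg, map_natCast] at hcd
      have hd : d = -1 := by
        have : (q : O'') * (d + 1) = 0 := by linear_combination -hcd
        exact eq_neg_of_add_eq_zero_left ((mul_eq_zero.1 this).resolve_left hq0)
      rw [hcp, map_neg, map_natCast, hd]
      simp only [map_add, map_one, map_neg]
      ring

/-- **S36 from the structural assembly and the Tate piece without inertia invariants.** -/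
theorem s36_of (hS : Stmt_AssembleS) (hT : Stmt_TatePieceNU)
    {M : ℕ} [NeZero M] {g : CuspForm (CongruenceSubgroup.Gamma0 M) 2} (hg : g.IsNewform)
    (lam : ℕ) [Fact lam.Prime]
    (S : Finset ℕ)
    (O' : Type) [CommRing O'] [IsDomain O'] [IsDiscreteValuationRing O']
    [IsAdicComplete (IsLocalRing.maximalIdeal O') O'] [Finite (IsLocalRing.ResidueField O')]
    [CharZero O'] (hlamO' : (lam : O') ∈ IsLocalRing.maximalIdeal O')
    (_hlam2 : lam ≠ 2)
    (chig : CuspForm.heckeAlgebra M 2 (↑S : Set ℕ) →+* ℂ)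
    (hchig : ∀ (ℓ : ℕ) (hℓ : ℓ.Prime) (hℓM : ¬ ℓ ∣ M) (hℓS : ℓ ∉ (↑S : Set ℕ)),
      chig (CuspForm.heckeAlgebra.T hℓ hℓM hℓS) = ModularFormClass.qCoeff g ℓ)
    (iota : chig.range →+* O')
    (hlamS : lam ∈ S) (hMS : ∀ q : ℕ, q.Prime → q ∣ M → q ∈ S)
    (_hres : ∀ (O'' : Type) [CommRing O''] [IsDomain O''] [IsDiscreteValuationRing O'']
      [IsAdicComplete (IsLocalRing.maximalIdeal O'') O''] [Finite (IsLocalRing.ResidueField O'')] [CharZero O'']
      [Algebra O' O''] [Module.Finite O' O''] [IsLocalHom (algebraMap O' O'')],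
      Function.Injective (algebraMap O' O'') → ∀ (ρ : GaloisRepAdic O''),
      (∀ (ℓ : ℕ) (hℓ : ℓ.Prime) (_hℓlam : ℓ ≠ lam) (hℓM : ¬ ℓ ∣ M) (hℓS : ℓ ∉ (↑S : Set ℕ)),
        ∀ A : ValuationSubring (AlgebraicClosure ℚ), A.LiesOverPrime ℓ →
          ∀ σ : AlgebraicClosure ℚ ≃ₐ[ℚ] AlgebraicClosure ℚ, A.IsFrobeniusAt σ ℓ →
            LinearMap.charpoly (ρ.ρ σ) =
              X ^ 2 - C (algebraMap O' O'' ((iota.comp chig.rangeRestrict) (CuspForm.heckeAlgebra.T hℓ hℓM hℓS))) * X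
                + C ((ℓ : O'')))
      → ρ.residual.IsAbsolutelyIrreducible ∧ ρ.residual.IsOdd)
    :
    ∃ (O'' : Type) (_ : CommRing O'') (_ : IsDomain O'') (_ : IsDiscreteValuationRing O'')
      (_ : IsAdicComplete (IsLocalRing.maximalIdeal O'') O'') (_ : Finite (IsLocalRing.ResidueField O''))
      (_ : CharZero O'') (_ : Algebra O' O'') (_ : Module.Finite O' O'') (_ : IsLocalHom (algebraMap O' O'')),
      Function.Injective (algebraMap O' O'') ∧
      ∃ ρ : GaloisRepAdic O'',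
        (∀ (ℓ : ℕ) (hℓ : ℓ.Prime) (hℓM : ¬ ℓ ∣ M) (hℓS : ℓ ∉ (↑S : Set ℕ)),
          ∀ A : ValuationSubring (AlgebraicClosure ℚ), A.LiesOverPrime ℓ →
            ∀ σ : AlgebraicClosure ℚ ≃ₐ[ℚ] AlgebraicClosure ℚ, A.IsFrobeniusAt σ ℓ →
              LinearMap.charpoly (ρ.ρ σ) =
                X ^ 2 - C (algebraMap O' O'' ((iota.comp chig.rangeRestrict) (CuspForm.heckeAlgebra.T hℓ hℓM hℓS))) * X
                  + C ((ℓ : O''))) ∧
        (∀ q : ℕ, q.Prime → q ≠ lam → M.factorization q = 2 → ¬ ρ.IsUnipotentOnInertiaAt q) := by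
  obtain ⟨r, ρ, hr, hcont, hES, hNU⟩ := hT hg lam S O' hlamO' chig hchig iota hlamS hMS
  obtain ⟨ε, hε1, hε2, hES', -⟩ :=
    H89.core lam S O' hlamO' (iota.comp chig.rangeRestrict) hlamS hMS r ρ hES
  obtain ⟨O'', i1, i2, i3, i4, i5, i6, i7, i8, i9, hinj, ρ'', hF, -, -, -, hN⟩ :=
    assembleX_of_assembleS hS O' S (H89.aOf S (iota.comp chig.rangeRestrict)) r hr ρ ε
      hcont hε1 hES' hε2
  refine ⟨O'', i1, i2, i3, i4, i5, i6, i7, i8, i9, hinj, ρ'', ?_, ?_⟩
  · intro ℓ hℓ hℓM hℓS A hA σ hσ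
    have hℓS' : ℓ ∉ S := fun h => hℓS (Finset.mem_coe.2 h)
    rw [hF ℓ hℓ hℓS' A hA σ hσ, H89.aOf_eq S _ ℓ hℓ hℓM hℓS]
  · intro q hq hqlam hq2 hU
    obtain ⟨P, hP, hfix⟩ := hNU q hq hqlam hq2
    obtain ⟨σ, hσ, hne⟩ := hN (P.inertiaSubgroupIn ℚ) hfix
    exact hne (hU P hP σ hσ)

end Fermat.Agent.S35

end
-- ==== END Fermat.Agent.S35.H89_Final
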