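-- GENERATED (merged mirror, NOTES/tools/trim/merge3_helper67.py): 7 modules of the originals, bodies verbatim.
import Fermat.Prelude.Def_ModularCurve_ArithmeticGalois
import Fermat.Prelude.Def_FLTPrelim_Ramification
import Mathlib
import Fermat.Prelude.Def_ModularCurve_PeriodHomPair
import Fermat.Prelude.Def_ModularCurve_GenusNumerics
import Fermat.Agent.Zm.S35_L06_002
import Fermat.Agent.Zm.S35_L04_000
import Fermat.Agent.Zm.S35_L02_000
import Fermat.Agent.Zm.S35_L06_001
import Fermat.Agent.S05.H95_Inertia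
import Fermat.Agent.Zm.S35_L05_000
import Fermat.Agent.Zm.S35_L06_000
import Fermat.Agent.Zm.S35_L06_003
import Fermat.Agent.Zm.S35_L03_004
import Fermat.Agent.Zm.S35_L02_003
import Fermat.Agent.Zm.S35_L05_004
import Fermat.Agent.Zm.S35_L04_005
import Fermat.Agent.Zm.S35_L02_004

-- ==== BEGIN Fermat.Agent.BAD.Defs
section

/-!
# Item 65, package BAD_q: interface statements of the S34 slice  (helper91, coordinator)

Plan: `NOTES/plan/BAD.md`.  Setting: `K = ℚ̄`, `A ⊂ K` a valuation ring over the prime `q`,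
`F = F_N · K ⊂ K((t))`, `V = gaussValSub A F h` the Gauss valuation ring of helper73 (it exists for
EVERY level `N`, also for `q ∣ N`), `res = gaussResF' A h`.

* `Stmt_TorsUnip N p` **(UNIP)** : `(σ - 1)(τ - 1) x = 0` for `σ, τ` in an inertia group over
  `q ‖ N`, `q ≠ p`, and `x ∈ J₀(N)[p^∞]`.  This is the torsion-level input of
  `Fermat.Agent.S34.H91.Stmt_TatePieceU`.
* `InK1 A N n x` : the class `x` has a Kummer function which is `≡ 1` for the Gauss valuation
  ("the Kummer cover of `x` splits completely over the component of `∞`").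
* `Stmt_B0 N` **(B0)** : `(σ - 1) J₀(N)[n] ⊆ K1(n)` for `σ` in inertia.  FREE (`BAD/H91_B0.lean`).
* `Stmt_B1core N q` **(B1), Kummer form** : if `f ∈ V`, `res f = 1` and `n ∣ div f`, `q ∤ n`, then
  `σ f / f` is an `n`-th power for `σ` in inertia over `q`.
* `Stmt_B1 N q` **(B1)** : inertia over `q` acts trivially on `K1(n)`, `q ∤ n`.
* `Stmt_ModSSD N q` : the modular side: a semistable Deuring datum (helper28's `SSD`) for
  `F_N · K` whose first component is the Gauss valuation, on which the inertia group acts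
  inertially, with Riemann's theorem and enough nodes.

This file contains definitions only.
-/

set_option autoImplicit false

noncomputable section

open AlgebraicCurve ModularCurve Fermat.Agent.S28.H73 Fermat.Agent.RED.H73

namespace Fermat.Agent.BAD

/-- The absolute Galois group of `ℚ`. -/
abbrev GalQ : Type := AlgebraicClosure ℚ ≃ₐ[ℚ] AlgebraicClosure ℚ

/-- The function field `F_N · ℚ̄`. -/
abbrev FNbar (N : ℕ) : IntermediateField (AlgebraicClosure ℚ) (LaurentSeries (AlgebraicClosure ℚ)) :=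
  modularFunctionFieldBar N

/-- The Gauss valuation ring of `F_N · ℚ̄` with respect to `A`. -/
abbrev gaussV (A : ValuationSubring (AlgebraicClosure ℚ)) (N : ℕ) : ValuationSubring ↥(FNbar N) :=
  gaussValSub A (FNbar N) (hasScale_laurentBaseChange A N)

/-- The reduction map of the Gauss valuation ring of `F_N · ℚ̄`. -/
abbrev gaussRes (A : ValuationSubring (AlgebraicClosure ℚ)) (N : ℕ) :
    ↥(gaussV A N) →+* ↥(redField A (FNbar N) (hasScale_laurentBaseChange A N)) :=
  gaussResF' A (hasScale_laurentBaseChange A N)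

/-- The coefficientwise action of `σ ∈ G_ℚ` on `F_N · ℚ̄`. -/
abbrev galF (N : ℕ) (σ : GalQ) : SemilinearAut (AlgebraicClosure ℚ) ↥(FNbar N) :=
  arithmeticGalois (modularFunctionFieldFull N) σ

/-- **(UNIP)**: inertia at `q ‖ N`, `q ≠ p`, acts unipotently (of level two) on the `p`-power
torsion of `J₀(N)`. -/
def Stmt_TorsUnip (N p : ℕ) [NeZero N] : Prop :=
  ∀ q : ℕ, q.Prime → q ∣ N → ¬ q ^ 2 ∣ N → q ≠ p →
    ∀ A : ValuationSubring (AlgebraicClosure ℚ), A.LiesOverPrime q →
      ∀ σ ∈ A.inertiaSubgroupIn ℚ, ∀ τ ∈ A.inertiaSubgroupIn ℚ,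
        ∀ x : JZero N, (∃ n : ℕ, p ^ n • x = 0) → σ • τ • x - σ • x - τ • x + x = 0

/-- `x ∈ K1(n)`: the class `x` is represented by a divisor `D` with `n D = div f` for a function
`f` of the Gauss valuation ring with reduction `1`. -/
def InK1 (A : ValuationSubring (AlgebraicClosure ℚ)) (N n : ℕ) (x : JZero N) : Prop :=
  ∃ (D : Divisor.degZero (K := AlgebraicClosure ℚ) (F := ↥(FNbar N))) (f : ↥(gaussV A N)),
    x = Pic0.mk D ∧ gaussRes A N f = 1 ∧
    ∀ P : Place (AlgebraicClosure ℚ) ↥(FNbar N),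
      (n : ℤ) * (D : Divisor (AlgebraicClosure ℚ) ↥(FNbar N)) P = P.ord ((f : ↥(FNbar N)))

/-- **(B0)**: `(σ - 1)` maps the `n`-torsion into `K1(n)`, for every `σ` in an inertia group
(every level, every prime, every `n`). -/
def Stmt_B0 (N : ℕ) : Prop :=
  ∀ A : ValuationSubring (AlgebraicClosure ℚ), ∀ σ ∈ A.inertiaSubgroupIn ℚ,
    ∀ (n : ℕ) (x : JZero N), n • x = 0 → InK1 A N n (σ • x - x)

/-- **(B1), Kummer form**, at the prime `q`: a function `f ≡ 1` for the Gauss valuation whose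
divisor is divisible by `n`, `q ∤ n`, satisfies `σ f / f ∈ (F^×)^n` for `σ` in inertia. -/
def Stmt_B1core (N q : ℕ) : Prop :=
  ∀ A : ValuationSubring (AlgebraicClosure ℚ), A.LiesOverPrime q →
    ∀ σ ∈ A.inertiaSubgroupIn ℚ, ∀ n : ℕ, ¬ q ∣ n →
      ∀ f : ↥(gaussV A N), gaussRes A N f = 1 →
        (∀ P : Place (AlgebraicClosure ℚ) ↥(FNbar N), (n : ℤ) ∣ P.ord ((f : ↥(FNbar N)))) →
        ∃ t : ↥(FNbar N), t ^ n = (galF N σ • ((f : ↥(FNbar N)))) / ((f : ↥(FNbar N)))

/-- **(B1)** at the prime `q`: inertia acts trivially on `K1(n)`, `q ∤ n`. -/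
def Stmt_B1 (N q : ℕ) : Prop :=
  ∀ A : ValuationSubring (AlgebraicClosure ℚ), A.LiesOverPrime q →
    ∀ σ ∈ A.inertiaSubgroupIn ℚ, ∀ n : ℕ, ¬ q ∣ n →
      ∀ x : JZero N, InK1 A N n x → σ • x = x

/-- **The modular side** of BAD_q at `(N, q)`: for every `A` over `q` there is a semistable
Deuring datum for `F_N · ℚ̄` whose first component is the Gauss valuation ring, such that the
inertia group of `A` acts inertially, Riemann's theorem holds for the three function fields and
there are enough nodes. -/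
def Stmt_ModSSD (N q : ℕ) : Prop :=
  ∀ A : ValuationSubring (AlgebraicClosure ℚ), A.LiesOverPrime q →
    ∃ (F₁ F₂ : Type) (_ : Field F₁) (_ : Algebra (kV A) F₁) (_ : Field F₂)
      (_ : Algebra (kV A) F₂)
      (S : SSD (AlgebraicClosure ℚ) ↥(FNbar N) (kV A) F₁ F₂)
      (_ : RED.H17.FFHyp (AlgebraicClosure ℚ) ↥(FNbar N)) (_ : RED.H17.FFHyp (kV A) F₁)
      (_ : RED.H17.FFHyp (kV A) F₂) (g g₁ g₂ : ℕ) (c c₁ c₂ : ℤ),
      RED.H17.IsGenus (AlgebraicClosure ℚ) ↥(FNbar N) g c ∧
      RED.H17.IsGenus (kV A) F₁ g₁ c₁ ∧ RED.H17.IsGenus (kV A) F₂ g₂ c₂ ∧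
      g + 1 ≤ g₁ + g₂ + S.nodes.card ∧
      (∀ f : ↥(FNbar N), f ∈ gaussV A N → f ∈ S.c₁.V) ∧
      (∀ (f : ↥(gaussV A N)) (hf : (f : ↥(FNbar N)) ∈ S.c₁.V), gaussRes A N f = 1 →
        S.c₁.red ⟨(f : ↥(FNbar N)), hf⟩ = 1) ∧
      ∀ σ ∈ A.inertiaSubgroupIn ℚ, S.IsInertial (galF N σ)

end Fermat.Agent.BAD

end
end
-- ==== END Fermat.Agent.BAD.Defs

-- ==== BEGIN Fermat.Agent.BAD.H21_Count
section

/-!
# BAD_q, package NUM (helper21): abstract counting of the zeros of `H(x)`

`K ⊂ F` a function field, `x ∈ F`, `H ∈ K[X]` a polynomial with root set `S`.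

* `H21_fibre_disjoint` : a place is a zero of `x - a` for at most one constant `a`;
* `H21_ord_nonneg_of_fibre` : `x` is regular at the zeros of `x - a`;
* `H21_ord_aeval_pos` : a zero of `x - a`, `a` a root of `H`, is a zero of `H(x)`;
* `H21_exists_zeros` : if the fibre of `x` over `a ∈ S` has at least `c a > 0` points, there is a
  finite set `Z` of places, each a zero of some `x - a`, `a ∈ S`, with `∑_{a ∈ S} c a ≤ #Z`;
* `H21_sum_ss` : the sum `∑_{J ∈ S} c J` for the supersingular set.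
-/

set_option autoImplicit false
set_option linter.style.haveILetI false
set_option linter.unusedSectionVars false

noncomputable section

open AlgebraicCurve Polynomial

namespace Fermat.Agent.BAD.H21

open Fermat.Agent.RED.H51

section Abs

variable {K F : Type*} [Field K] [Field F] [Algebra K F]

/-- A place is a zero of `x - a` for at most one constant `a`. -/
theorem H21_fibre_disjoint (z : Place K F) {x : F} {a b : K}
    (ha : 0 < z.ord (x - algebraMap K F a)) (hb : 0 < z.ord (x - algebraMap K F b)) :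
    a = b := by
  by_contra hab
  have h1 : OrdGe z 1 (x - algebraMap K F a) := Or.inr (by omega)
  have h2 : OrdGe z 1 (x - algebraMap K F b) := Or.inr (by omega)
  have h3 := h2.sub h1
  have e : x - algebraMap K F b - (x - algebraMap K F a) = algebraMap K F (a - b) := by
    rw [map_sub]; ring
  rw [e] at h3
  have hne : algebraMap K F (a - b) ≠ 0 :=
    (map_ne_zero (algebraMap K F)).mpr (sub_ne_zero.mpr hab)
  have := h3.le hne
  rw [ord_algebraMap] at this
  omega

/-- `x` is regular at the zeros of `x - a`. -/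
theorem H21_ord_nonneg_of_fibre (z : Place K F) {x : F} {a : K}
    (ha : 0 < z.ord (x - algebraMap K F a)) : 0 ≤ z.ord x := by
  rcases eq_or_ne x 0 with rfl | hx
  · rw [Place.ord_zero]
  have h1 : OrdGe z 0 (x - algebraMap K F a) := Or.inr ha.le
  have h2 : OrdGe z 0 (algebraMap K F a) := ordGe_algebraMap z a
  have h3 := h1.add h2
  rw [sub_add_cancel] at h3
  exact h3.le hx

/-- The order of `p(h)` at a zero of `h - ρ`. -/
theorem H21_ord_aeval_sub (v : Place K F) {h : F} {ρ : K}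
    (hv : 0 < v.ord (h - algebraMap K F ρ)) {p : K[X]} (hp : p ≠ 0) :
    aeval h p ≠ 0 ∧
      v.ord (aeval h p) = (p.rootMultiplicity ρ : ℤ) * v.ord (h - algebraMap K F ρ) := by
  have hcomp : aeval (h - algebraMap K F ρ) (p.comp (X + C ρ)) = aeval h p := by
    rw [aeval_comp]
    congr 1
    simp
  have hp' : p.comp (X + C ρ) ≠ 0 := by
    intro h0
    apply hp
    have := congrArg (fun q : K[X] => q.comp (X - C ρ)) h0
    simpa [Polynomial.comp_assoc] using this
  have := ord_aeval v hv hp'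
  rw [hcomp, ← rootMultiplicity_eq_rootMultiplicity] at this
  exact this

/-- A zero of `x - a`, `a` a root of `H ≠ 0`, is a zero of `H(x)`. -/
theorem H21_ord_aeval_pos (z : Place K F) {x : F} {a : K}
    (ha : 0 < z.ord (x - algebraMap K F a)) {H : K[X]} (hH : H ≠ 0) (hroot : H.IsRoot a) :
    0 < z.ord (aeval x H) := by
  obtain ⟨-, h2⟩ := H21_ord_aeval_sub z ha hH
  rw [h2]
  have hm : 0 < H.rootMultiplicity a := (rootMultiplicity_pos hH).mpr hroot
  positivity

open Classical in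
/-- **Counting**: if the fibre of `x` over every `a ∈ S` has at least `c a > 0` points, there is
a finite set `Z` of zeros of the `x - a`, `a ∈ S`, with at least `∑_{a ∈ S} c a` elements. -/
theorem H21_exists_zeros (x : F) (S : Finset K) (c : K → ℕ)
    (hc : ∀ a ∈ S, 0 < c a ∧ c a ≤ Nat.card {z : Place K F // 0 < z.ord (x - algebraMap K F a)}) :
    ∃ Z : Finset (Place K F), (∀ z ∈ Z, ∃ a ∈ S, 0 < z.ord (x - algebraMap K F a)) ∧
      ∑ a ∈ S, c a ≤ Z.card := by
  have hfin : ∀ a ∈ S, {z : Place K F | 0 < z.ord (x - algebraMap K F a)}.Finite := by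
    intro a ha
    have h1 := hc a ha
    have h2 : Nat.card {z : Place K F // 0 < z.ord (x - algebraMap K F a)} ≠ 0 := by omega
    exact Nat.finite_of_card_ne_zero h2
  let Zf : K → Finset (Place K F) := fun a => if h : a ∈ S then (hfin a h).toFinset else ∅
  refine ⟨S.biUnion Zf, ?_, ?_⟩
  · intro z hz
    rw [Finset.mem_biUnion] at hz
    obtain ⟨a, ha, hza⟩ := hz
    refine ⟨a, ha, ?_⟩
    simp only [Zf, dif_pos ha, Set.Finite.mem_toFinset] at hza
    exact hza
  · rw [Finset.card_biUnion]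
    · apply Finset.sum_le_sum
      intro a ha
      simp only [Zf, dif_pos ha]
      rw [← Set.ncard_eq_toFinset_card _ (hfin a ha), ← Nat.card_coe_set_eq]
      exact (hc a ha).2
    · intro a ha b hb hab
      rw [Function.onFun, Finset.disjoint_left]
      intro z hza hzb
      simp only [Zf, dif_pos (Finset.mem_coe.mp ha), dif_pos (Finset.mem_coe.mp hb),
        Set.Finite.mem_toFinset] at hza hzb
      exact hab (H21_fibre_disjoint z hza hzb)

open Classical in
/-- The sum of the fibre cardinalities over the supersingular set. -/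
theorem H21_sum_ss (S : Finset K) (h01 : (0 : K) ≠ 1728) (ψ oS oST m a b : ℕ)
    (hcard : S.card = m + a + b) (h0 : (0 : K) ∈ S ↔ a = 1) (h1 : (1728 : K) ∈ S ↔ b = 1)
    (ha : a ≤ 1) (hb : b ≤ 1) :
    ∑ J ∈ S, (if J = 0 then oST else if J = 1728 then oS else ψ)
      = m * ψ + a * oST + b * oS := by
  have key : ∀ T : Finset K, (0 : K) ∉ T → (1728 : K) ∉ T →
      ∑ J ∈ T, (if J = 0 then oST else if J = 1728 then oS else ψ) = T.card * ψ := by
    intro T h0 h1
    rw [Finset.sum_congr rfl (g := fun _ => ψ), Finset.sum_const, smul_eq_mul]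
    intro J hJ
    have e0 : J ≠ 0 := fun h => h0 (h ▸ hJ)
    have e1 : J ≠ 1728 := fun h => h1 (h ▸ hJ)
    rw [if_neg e0, if_neg e1]
  by_cases m0 : (0 : K) ∈ S <;> by_cases m1 : (1728 : K) ∈ S
  · have ea : a = 1 := h0.mp m0
    have eb : b = 1 := h1.mp m1
    have m1' : (1728 : K) ∈ S.erase 0 := Finset.mem_erase.mpr ⟨h01.symm, m1⟩
    rw [← Finset.add_sum_erase S _ m0, ← Finset.add_sum_erase (S.erase 0) _ m1',
      key ((S.erase 0).erase 1728) (fun h => Finset.notMem_erase 0 S (Finset.mem_of_mem_erase h))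
        (Finset.notMem_erase _ _),
      Finset.card_erase_of_mem m1', Finset.card_erase_of_mem m0, hcard, ea, eb]
    simp only [if_true, if_neg h01.symm]
    simp
    ring
  · have ea : a = 1 := h0.mp m0
    have eb : b = 0 := by
      have : b ≠ 1 := fun h => m1 (h1.mpr h)
      omega
    rw [← Finset.add_sum_erase S _ m0,
      key (S.erase 0) (Finset.notMem_erase _ _) (fun h => m1 (Finset.mem_of_mem_erase h)),
      Finset.card_erase_of_mem m0, hcard, ea, eb]
    simp
    ring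
  · have ea : a = 0 := by
      have : a ≠ 1 := fun h => m0 (h0.mpr h)
      omega
    have eb : b = 1 := h1.mp m1
    rw [← Finset.add_sum_erase S _ m1,
      key (S.erase 1728) (fun h => m0 (Finset.mem_of_mem_erase h)) (Finset.notMem_erase _ _),
      Finset.card_erase_of_mem m1, hcard, ea, eb]
    simp only [if_neg h01.symm]
    simp
    ring
  · have ea : a = 0 := by
      have : a ≠ 1 := fun h => m0 (h0.mpr h)
      omega
    have eb : b = 0 := by
      have : b ≠ 1 := fun h => m1 (h1.mpr h)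
      omega
    rw [key S m0 m1, hcard, ea, eb]
    simp

end Abs

end Fermat.Agent.BAD.H21

end
end
-- ==== END Fermat.Agent.BAD.H21_Count

-- ==== BEGIN Fermat.Agent.BAD.H28_PRed
section

/-!
# Item 65, package ABS (helper28), part P0: local lemmas for `PRed`

Port of helper17's local lemmas (G-RED route C: `RED/H17_Red.lean`, `H17_Lift.lean`,
`H17_Local.lean`, `H17_Key.lean`, `H17_Pole.lean`) from `PRed` to `PRed` (partial reduction
map, divisor identity at the good places only).  The proofs are helper17's.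
-/

set_option autoImplicit false
set_option linter.style.haveILetI false

noncomputable section

open AlgebraicCurve

attribute [local instance] Classical.propDecidable

namespace Fermat.Agent.BAD

open Fermat.Agent.RED.H17 Fermat.Agent.RED

local notation "L" => riemannRochSpace

namespace PRed

variable {K F k F' : Type*} [Field K] [Field F] [Algebra K F] [Field k] [Field F']
  [Algebra k F'] (S : PRed K F k F')

open Classical in
/-- Reduction as a total function on `F` (junk value `0` outside `V`). -/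
def rd (f : F) : F' := if h : f ∈ S.V then S.red ⟨f, h⟩ else 0

theorem rd_of_mem {f : F} (h : f ∈ S.V) : S.rd f = S.red ⟨f, h⟩ := by
  unfold rd
  rw [dif_pos h]

theorem rd_of_not_mem {f : F} (h : f ∉ S.V) : S.rd f = 0 := by
  unfold rd
  rw [dif_neg h]

@[simp] theorem rd_zero : S.rd (0 : F) = 0 := by
  rw [S.rd_of_mem S.V.zero_mem]
  exact map_zero S.red

@[simp] theorem rd_one : S.rd (1 : F) = 1 := by
  rw [S.rd_of_mem S.V.one_mem]
  exact map_one S.red

theorem rd_add {f g : F} (hf : f ∈ S.V) (hg : g ∈ S.V) : S.rd (f + g) = S.rd f + S.rd g := by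
  rw [S.rd_of_mem hf, S.rd_of_mem hg, S.rd_of_mem (S.V.add_mem _ _ hf hg), ← map_add]
  rfl

theorem rd_mul {f g : F} (hf : f ∈ S.V) (hg : g ∈ S.V) : S.rd (f * g) = S.rd f * S.rd g := by
  rw [S.rd_of_mem hf, S.rd_of_mem hg, S.rd_of_mem (S.V.mul_mem _ _ hf hg), ← map_mul]
  rfl

theorem rd_neg {f : F} (hf : f ∈ S.V) : S.rd (-f) = -S.rd f := by
  rw [S.rd_of_mem hf, S.rd_of_mem (S.V.neg_mem _ hf), ← map_neg]
  rfl

theorem rd_sub {f g : F} (hf : f ∈ S.V) (hg : g ∈ S.V) : S.rd (f - g) = S.rd f - S.rd g := by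
  rw [S.rd_of_mem hf, S.rd_of_mem hg, S.rd_of_mem (S.V.sub_mem hf hg), ← map_sub]
  rfl

theorem rd_pow {f : F} (hf : f ∈ S.V) (n : ℕ) : S.rd (f ^ n) = S.rd f ^ n := by
  rw [S.rd_of_mem hf, S.rd_of_mem (S.V.pow_mem hf n), ← map_pow]
  rfl

/-- `f` is a Gauss unit. -/
def IsGU (f : F) : Prop := f ∈ S.V ∧ S.rd f ≠ 0

variable {S}

theorem IsGU.mem {f : F} (h : S.IsGU f) : f ∈ S.V := h.1

theorem IsGU.rd_ne_zero {f : F} (h : S.IsGU f) : S.rd f ≠ 0 := h.2

theorem IsGU.ne_zero {f : F} (h : S.IsGU f) : f ≠ 0 := by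
  rintro rfl
  exact h.2 S.rd_zero

variable (S) in
theorem isGU_one : S.IsGU (1 : F) := ⟨S.V.one_mem, by rw [S.rd_one]; exact one_ne_zero⟩

variable (S) in
theorem isGU_iff_isUnit {f : F} (hf : f ∈ S.V) : S.IsGU f ↔ IsUnit (⟨f, hf⟩ : S.V) := by
  unfold IsGU
  rw [S.rd_of_mem hf]
  constructor
  · rintro ⟨-, h⟩
    by_contra hu
    exact h ((S.red_eq_zero_iff _).mpr ((IsLocalRing.mem_maximalIdeal _).mpr hu))
  · intro hu
    refine ⟨hf, fun h0 => ?_⟩
    have := (S.red_eq_zero_iff _).mp h0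
    exact (IsLocalRing.mem_maximalIdeal _).mp this hu

theorem IsGU.inv_mem {f : F} (h : S.IsGU f) : f⁻¹ ∈ S.V := by
  have hu := (S.isGU_iff_isUnit h.1).mp h
  obtain ⟨u, hu⟩ := hu
  have h1 : ((u⁻¹ : S.Vˣ) : S.V) * ⟨f, h.1⟩ = 1 := by rw [← hu]; exact u.inv_mul
  have h2 : (((u⁻¹ : S.Vˣ) : S.V) : F) * f = 1 := congrArg Subtype.val h1
  have h3 : f⁻¹ = (((u⁻¹ : S.Vˣ) : S.V) : F) := by
    rw [eq_comm, ← mul_eq_one_iff_eq_inv₀ h.ne_zero]
    exact h2
  rw [h3]
  exact Subtype.mem _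

theorem IsGU.mul {f g : F} (hf : S.IsGU f) (hg : S.IsGU g) : S.IsGU (f * g) :=
  ⟨S.V.mul_mem _ _ hf.1 hg.1, by rw [S.rd_mul hf.1 hg.1]; exact mul_ne_zero hf.2 hg.2⟩

theorem IsGU.rd_inv {f : F} (h : S.IsGU f) : S.rd f⁻¹ = (S.rd f)⁻¹ := by
  have h1 : S.rd (f * f⁻¹) = S.rd f * S.rd f⁻¹ := S.rd_mul h.1 h.inv_mem
  rw [mul_inv_cancel₀ h.ne_zero, S.rd_one] at h1
  exact eq_inv_of_mul_eq_one_right h1.symm

theorem IsGU.inv {f : F} (h : S.IsGU f) : S.IsGU f⁻¹ :=
  ⟨h.inv_mem, by rw [h.rd_inv]; exact inv_ne_zero h.2⟩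

theorem IsGU.div {f g : F} (hf : S.IsGU f) (hg : S.IsGU g) : S.IsGU (f / g) := by
  rw [div_eq_mul_inv]
  exact hf.mul hg.inv

theorem IsGU.rd_div {f g : F} (hf : S.IsGU f) (hg : S.IsGU g) :
    S.rd (f / g) = S.rd f / S.rd g := by
  rw [div_eq_mul_inv, S.rd_mul hf.1 hg.inv_mem, hg.rd_inv, div_eq_mul_inv]

theorem IsGU.pow {f : F} (h : S.IsGU f) (n : ℕ) : S.IsGU (f ^ n) :=
  ⟨S.V.pow_mem h.1 n, by rw [S.rd_pow h.1]; exact pow_ne_zero _ h.2⟩

variable (S)

/-- Adding an element of the maximal ideal does not change the reduction. -/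
theorem rd_add_of_rd_eq_zero {f g : F} (hf : f ∈ S.V) (hg : g ∈ S.V) (h0 : S.rd g = 0) :
    S.rd (f + g) = S.rd f := by
  rw [S.rd_add hf hg, h0, add_zero]

variable {S} in
theorem IsGU.add_of_rd_eq_zero {f g : F} (hf : S.IsGU f) (hg : g ∈ S.V) (h0 : S.rd g = 0) :
    S.IsGU (f + g) :=
  ⟨S.V.add_mem _ _ hf.1 hg, by rw [S.rd_add_of_rd_eq_zero hf.1 hg h0]; exact hf.2⟩

/-- Scaling to a Gauss unit. -/
theorem exists_isGU_scale {f : F} (hf : f ≠ 0) :
    ∃ c : K, c ≠ 0 ∧ S.IsGU (algebraMap K F c * f) := by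
  obtain ⟨c, hc, h, hr⟩ := S.exists_scale f hf
  exact ⟨c, hc, h, by rw [S.rd_of_mem h]; exact hr⟩

/-! ### Constants -/

theorem rd_algebraMap_mem_range {c : K} (h : algebraMap K F c ∈ S.V) :
    ∃ c' : k, S.rd (algebraMap K F c) = algebraMap k F' c' := by
  obtain ⟨c', hc'⟩ := S.red_const c h
  exact ⟨c', by rw [S.rd_of_mem h]; exact hc'⟩

theorem exists_const_lift (c' : k) :
    ∃ c : K, algebraMap K F c ∈ S.V ∧ S.rd (algebraMap K F c) = algebraMap k F' c' := by
  obtain ⟨c, h, hc⟩ := S.const_surj c'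
  exact ⟨c, h, by rw [S.rd_of_mem h]; exact hc⟩

/-- For a constant `c ≠ 0`, either `c` or `c⁻¹` is integral. -/
theorem const_mem_or_inv_mem (c : K) :
    algebraMap K F c ∈ S.V ∨ algebraMap K F c⁻¹ ∈ S.V := by
  rw [map_inv₀]
  exact S.V.mem_or_inv_mem _

/-! ### The divisor identity in the fibres of `r` -/

/-- The divisor identity as a sum over the support of `div f`. -/
theorem ord_rd_eq_sum (hP : HasPrincipalDivisors K F) {f : F} (hf : S.IsGU f) (Q : Place k F') (hQg : Q ∈ S.good) :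
    Q.ord (S.rd f) = ∑ P ∈ (dv hP f).support, if S.r P = some Q then P.ord f else 0 := by
  have h := S.DI ⟨f, hf.1⟩ (by rw [← S.rd_of_mem hf.1]; exact hf.2) (dv hP f)
    (fun P => dv_apply hP f P) Q hQg
  rw [← S.rd_of_mem hf.1] at h
  rw [← h, mapDomain_apply_eq_sum]
  refine Finset.sum_congr rfl fun P _ => ?_
  by_cases hPQ : S.r P = some Q
  · rw [if_pos hPQ, if_pos hPQ, dv_apply]
  · rw [if_neg hPQ, if_neg hPQ]

/-- If `f` is regular on the fibre of `Q`, then `ord_P f ≤ ord_Q (rd f)` on the fibre. -/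
theorem ord_le_ord_rd (hP : HasPrincipalDivisors K F) {f : F} (hf : S.IsGU f) (Q : Place k F') (hQg : Q ∈ S.good)
    (hreg : ∀ P, S.r P = some Q → 0 ≤ P.ord f) {P : Place K F} (hPQ : S.r P = some Q) :
    P.ord f ≤ Q.ord (S.rd f) := by
  rw [S.ord_rd_eq_sum hP hf Q hQg]
  have hnn : ∀ P' ∈ (dv hP f).support, 0 ≤ (if S.r P' = some Q then P'.ord f else 0) := by
    intro P' _
    split_ifs with h
    · exact hreg P' h
    · exact le_rfl
  by_cases hmem : P ∈ (dv hP f).support
  · have := le_sum_of_nonneg _ _ hnn hmem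
    rwa [if_pos hPQ] at this
  · rw [Finsupp.notMem_support_iff, dv_apply] at hmem
    rw [hmem]
    exact Finset.sum_nonneg hnn

theorem ord_rd_nonneg (hP : HasPrincipalDivisors K F) {f : F} (hf : S.IsGU f) (Q : Place k F') (hQg : Q ∈ S.good)
    (hreg : ∀ P, S.r P = some Q → 0 ≤ P.ord f) : 0 ≤ Q.ord (S.rd f) := by
  rw [S.ord_rd_eq_sum hP hf Q hQg]
  refine Finset.sum_nonneg fun P' _ => ?_
  split_ifs with h
  · exact hreg P' h
  · exact le_rfl

/-- If `f` is regular on the fibre of `Q` and `rd f` does not vanish at `Q`, then `f` has no zero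
on the fibre. -/
theorem ord_eq_zero_of_ord_rd_eq_zero (hP : HasPrincipalDivisors K F) {f : F} (hf : S.IsGU f) (Q : Place k F') (hQg : Q ∈ S.good)
    (hreg : ∀ P, S.r P = some Q → 0 ≤ P.ord f) (hQ : Q.ord (S.rd f) = 0) {P : Place K F}
    (hPQ : S.r P = some Q) : P.ord f = 0 :=
  le_antisymm (hQ ▸ S.ord_le_ord_rd hP hf Q hQg hreg hPQ) (hreg P hPQ)

/-- If all orders of `f` on the fibre of `Q` vanish, `rd f` is a unit at `Q`. -/
theorem ord_rd_eq_zero (hP : HasPrincipalDivisors K F) {f : F} (hf : S.IsGU f) (Q : Place k F') (hQg : Q ∈ S.good)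
    (h0 : ∀ P, S.r P = some Q → P.ord f = 0) : Q.ord (S.rd f) = 0 := by
  rw [S.ord_rd_eq_sum hP hf Q hQg]
  refine Finset.sum_eq_zero fun P' _ => ?_
  split_ifs with h
  · exact h0 P' h
  · rfl

/-- A zero of the reduction lifts to a zero in the fibre (if there is no pole in the fibre). -/
theorem exists_zero_of_ord_rd_pos (hP : HasPrincipalDivisors K F) {f : F} (hf : S.IsGU f) (Q : Place k F') (hQg : Q ∈ S.good)
    (hQ : 0 < Q.ord (S.rd f)) : ∃ P, S.r P = some Q ∧ 0 < P.ord f := by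
  by_contra hcon
  push Not at hcon
  have : Q.ord (S.rd f) ≤ 0 := by
    rw [S.ord_rd_eq_sum hP hf Q hQg]
    refine Finset.sum_nonpos fun P' _ => ?_
    split_ifs with h
    · exact hcon P' h
    · exact le_rfl
  omega

/-- A simple zero of the reduction: exactly one zero in the fibre, and it is simple. -/
theorem exists_unique_zero_of_ord_rd_eq_one (hP : HasPrincipalDivisors K F) {f : F} (hf : S.IsGU f) (Q : Place k F') (hQg : Q ∈ S.good)
    (hreg : ∀ P, S.r P = some Q → 0 ≤ P.ord f) (hQ : Q.ord (S.rd f) = 1) :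
    ∃ P, S.r P = some Q ∧ P.ord f = 1 ∧ ∀ P', S.r P' = some Q → P' ≠ P → P'.ord f = 0 := by
  classical
  obtain ⟨P, hPQ, hpos⟩ := S.exists_zero_of_ord_rd_pos hP hf Q hQg (by omega)
  have hle := S.ord_le_ord_rd hP hf Q hQg hreg hPQ
  have h1 : P.ord f = 1 := by omega
  refine ⟨P, hPQ, h1, fun P' hP'Q hne => ?_⟩
  by_contra h0
  have hpos' : 0 < P'.ord f := lt_of_le_of_ne (hreg P' hP'Q) (Ne.symm h0)
  -- the sum over the support contains both `P` and `P'`
  have hsum := S.ord_rd_eq_sum hP hf Q hQg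
  have hmemP : P ∈ (dv hP f).support := by
    rw [Finsupp.mem_support_iff, dv_apply]; omega
  have hmemP' : P' ∈ (dv hP f).support := by
    rw [Finsupp.mem_support_iff, dv_apply]; omega
  have hnn : ∀ P'' ∈ (dv hP f).support, 0 ≤ (if S.r P'' = some Q then P''.ord f else 0) := by
    intro P'' _
    split_ifs with h
    · exact hreg P'' h
    · exact le_rfl
  have h2 : (∑ P'' ∈ ({P, P'} : Finset (Place K F)), if S.r P'' = some Q then P''.ord f else 0)
      ≤ ∑ P'' ∈ (dv hP f).support, if S.r P'' = some Q then P''.ord f else 0 := by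
    refine Finset.sum_le_sum_of_subset_of_nonneg ?_ fun x hx _ => hnn x hx
    intro x hx
    rw [Finset.mem_insert, Finset.mem_singleton] at hx
    rcases hx with rfl | rfl
    · exact hmemP
    · exact hmemP'
  rw [Finset.sum_pair (Ne.symm hne), if_pos hPQ, if_pos hP'Q, ← hsum, hQ] at h2
  omega

end PRed

namespace PRed

variable {K F k F' : Type*} [Field K] [Field F] [Algebra K F] [Field k] [Field F']
  [Algebra k F'] (S : PRed K F k F')


theorem exists_rd_eq (y : F') : ∃ u : F, u ∈ S.V ∧ S.rd u = y := by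
  obtain ⟨u, hu⟩ := S.red_surj y
  exact ⟨u, u.2, by rw [S.rd_of_mem u.2]; exact hu⟩

/-- Every place of the reduced field lifts. -/
theorem r_surjective (hP : HasPrincipalDivisors K F) (Q : Place k F') (hQg : Q ∈ S.good) : ∃ P, S.r P = some Q := by
  obtain ⟨t, ht0, ht⟩ := H51.exists_uniformizer Q
  obtain ⟨u, hu, hut⟩ := S.exists_rd_eq t
  have hGU : S.IsGU u := ⟨hu, by rw [hut]; exact ht0⟩
  obtain ⟨P, hPQ, -⟩ := S.exists_zero_of_ord_rd_pos hP hGU Q hQg (by rw [hut, ht]; exact one_pos)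
  exact ⟨P, hPQ⟩

/-- The reduction of `L(D) ∩ V`. -/

theorem rd_prod {ι : Type*} (s : Finset ι) (f : ι → F) (hf : ∀ i ∈ s, f i ∈ S.V) :
    (∏ i ∈ s, f i) ∈ S.V ∧ S.rd (∏ i ∈ s, f i) = ∏ i ∈ s, S.rd (f i) := by
  induction s using Finset.induction_on with
  | empty => simp only [Finset.prod_empty]; exact ⟨S.V.one_mem, S.rd_one⟩
  | insert i s hi ih =>
    obtain ⟨h1, h2⟩ := ih fun j hj => hf j (Finset.mem_insert_of_mem hj)
    have hi' := hf i (Finset.mem_insert_self i s)
    rw [Finset.prod_insert hi, Finset.prod_insert hi]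
    exact ⟨S.V.mul_mem _ _ hi' h1, by rw [S.rd_mul hi' h1, h2]⟩

theorem rd_sum {ι : Type*} (s : Finset ι) (f : ι → F) (hf : ∀ i ∈ s, f i ∈ S.V) :
    (∑ i ∈ s, f i) ∈ S.V ∧ S.rd (∑ i ∈ s, f i) = ∑ i ∈ s, S.rd (f i) := by
  induction s using Finset.induction_on with
  | empty => simp only [Finset.sum_empty]; exact ⟨S.V.zero_mem, S.rd_zero⟩
  | insert i s hi ih =>
    obtain ⟨h1, h2⟩ := ih fun j hj => hf j (Finset.mem_insert_of_mem hj)
    have hi' := hf i (Finset.mem_insert_self i s)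
    rw [Finset.sum_insert hi, Finset.sum_insert hi]
    exact ⟨S.V.add_mem _ _ hi' h1, by rw [S.rd_add hi' h1, h2]⟩

variable {S} in
theorem IsGU.prod {ι : Type*} (s : Finset ι) (f : ι → F) (hf : ∀ i ∈ s, S.IsGU (f i)) :
    S.IsGU (∏ i ∈ s, f i) := by
  obtain ⟨h1, h2⟩ := S.rd_prod s f fun i hi => (hf i hi).1
  exact ⟨h1, by rw [h2]; exact Finset.prod_ne_zero_iff.mpr fun i hi => (hf i hi).2⟩

/-- The reduction of an integral constant, as an element of `k`. -/
theorem rd_const_eq (c : K) (hc : algebraMap K F c ∈ S.V) :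
    ∃ c' : k, S.rd (algebraMap K F c) = algebraMap k F' c' :=
  S.rd_algebraMap_mem_range hc

/-- If `c ∉ V` for a constant `c`, then `c⁻¹` is in the maximal ideal. -/
theorem inv_const_of_not_mem {c : K} (hc : algebraMap K F c ∉ S.V) :
    algebraMap K F c⁻¹ ∈ S.V ∧ S.rd (algebraMap K F c⁻¹) = 0 := by
  have h1 : algebraMap K F c⁻¹ ∈ S.V := (S.const_mem_or_inv_mem c).resolve_left hc
  refine ⟨h1, ?_⟩
  by_contra h0
  have hGU : S.IsGU (algebraMap K F c⁻¹) := ⟨h1, h0⟩
  have := hGU.inv_mem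
  rw [map_inv₀, inv_inv] at this
  exact hc this

/-- **Evaluation is compatible with reduction.** -/
theorem const_of_vanAt (hP : HasPrincipalDivisors K F) {w : F} (hw : w ∈ S.V)
    {Q : Place k F'} (hQg : Q ∈ S.good) (hreg : ∀ P, S.r P = some Q → 0 ≤ P.ord w) {X : Place K F} (hX : S.r X = some Q)
    {e : K} (he : VanAt X (w - algebraMap K F e)) :
    algebraMap K F e ∈ S.V ∧ VanAt Q (S.rd w - S.rd (algebraMap K F e)) := by
  have hregw : ∀ P, S.r P = some Q → RegAt P w := fun P hPQ => regAt_of_ord_nonneg (hreg P hPQ)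
  have hmem : algebraMap K F e ∈ S.V := by
    by_contra hne
    obtain ⟨h1, h2⟩ := S.inv_const_of_not_mem hne
    have he0 : e ≠ 0 := by
      rintro rfl
      rw [map_zero] at hne
      exact hne S.V.zero_mem
    set z : F := algebraMap K F e⁻¹ * w - 1 with hz
    have hz1 : algebraMap K F e⁻¹ * w ∈ S.V := S.V.mul_mem _ _ h1 hw
    have hzV : z ∈ S.V := S.V.sub_mem hz1 S.V.one_mem
    have hzr : S.rd z = -1 := by
      rw [hz, S.rd_sub hz1 S.V.one_mem, S.rd_mul h1 hw, h2, zero_mul, S.rd_one, zero_sub]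
    have hGU : S.IsGU z := ⟨hzV, by rw [hzr]; exact neg_ne_zero.mpr one_ne_zero⟩
    have hzreg : ∀ P, S.r P = some Q → 0 ≤ P.ord z := fun P hPQ =>
      (((regAt_algebraMap P e⁻¹).mul (hregw P hPQ)).sub (regAt_one P)).ord_nonneg
    have hQz : Q.ord (S.rd z) = 0 := by
      rw [hzr]
      have : (-1 : F') = algebraMap k F' (-1) := by rw [map_neg, map_one]
      rw [this]
      exact ord_algebraMap Q _
    have h3 := S.ord_eq_zero_of_ord_rd_eq_zero hP hGU Q hQg hzreg hQz hX
    have h4 : z = algebraMap K F e⁻¹ * (w - algebraMap K F e) := by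
      rw [hz, mul_sub, ← map_mul, inv_mul_cancel₀ he0, map_one]
    have h5 : VanAt X z := by
      rw [h4]
      exact (regAt_algebraMap X e⁻¹).mul_vanAt he
    have := h5.ord_pos hGU.ne_zero
    omega
  refine ⟨hmem, ?_⟩
  rw [← S.rd_sub hw hmem]
  by_cases h0 : S.rd (w - algebraMap K F e) = 0
  · rw [h0]
    exact vanAt_zero Q
  have hGU : S.IsGU (w - algebraMap K F e) := ⟨S.V.sub_mem hw hmem, h0⟩
  have hzreg : ∀ P, S.r P = some Q → 0 ≤ P.ord (w - algebraMap K F e) := fun P hPQ =>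
    ((hregw P hPQ).sub (regAt_algebraMap P e)).ord_nonneg
  have h1 := S.ord_le_ord_rd hP hGU Q hQg hzreg hX
  have h2 := he.ord_pos hGU.ne_zero
  exact vanAt_of_ord_pos (by omega)

/-- The value at a place of the fibre of a Gauss unit with constant reduction. -/
theorem const_of_vanAt_of_rd_const (hP : HasPrincipalDivisors K F) {w : F} (hw : w ∈ S.V)
    {Q : Place k F'} (hQg : Q ∈ S.good) (hreg : ∀ P, S.r P = some Q → 0 ≤ P.ord w) {X : Place K F} (hX : S.r X = some Q)
    {e : K} (he : VanAt X (w - algebraMap K F e)) {c' : k} (hc : S.rd w = algebraMap k F' c') :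
    algebraMap K F e ∈ S.V ∧ S.rd (algebraMap K F e) = S.rd w := by
  obtain ⟨h1, h2⟩ := S.const_of_vanAt hP hw hQg hreg hX he
  refine ⟨h1, ?_⟩
  obtain ⟨e', he'⟩ := S.rd_const_eq e h1
  rw [hc, he', ← map_sub] at h2
  have := const_eq_zero_of_vanAt h2
  rw [hc, he']
  rw [sub_eq_zero] at this
  rw [this]

/-! ### The coordinate on a residue disc -/

/-- Data: `s` is a Gauss unit, regular on the fibre of `Q`, whose reduction has a simple zero at
`Q`. -/
structure IsCoord (s : F) (Q : Place k F') : Prop where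
  good : Q ∈ S.good
  isGU : S.IsGU s
  reg : ∀ P, S.r P = some Q → 0 ≤ P.ord s
  ord_one : Q.ord (S.rd s) = 1

variable {S}

theorem IsCoord.sub_const {s : F} {Q : Place k F'} (h : S.IsCoord s Q) {a : K}
    (ha : algebraMap K F a ∈ S.V) (ha0 : S.rd (algebraMap K F a) = 0) :
    S.IsCoord (s - algebraMap K F a) Q := by
  have hrd : S.rd (s - algebraMap K F a) = S.rd s := by
    rw [S.rd_sub h.isGU.1 ha, ha0, sub_zero]
  refine ⟨h.good, ⟨S.V.sub_mem h.isGU.1 ha, by rw [hrd]; exact h.isGU.2⟩, fun P hPQ => ?_, by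
    rw [hrd]; exact h.ord_one⟩
  exact ((regAt_of_ord_nonneg (h.reg P hPQ)).sub (regAt_algebraMap P a)).ord_nonneg

/-- The unique zero of a coordinate in the fibre. -/
theorem IsCoord.exists_zero (hP : HasPrincipalDivisors K F) {s : F} {Q : Place k F'}
    (h : S.IsCoord s Q) :
    ∃ X, S.r X = some Q ∧ X.ord s = 1 ∧ ∀ P, S.r P = some Q → P ≠ X → P.ord s = 0 :=
  S.exists_unique_zero_of_ord_rd_eq_one hP h.isGU Q h.good h.reg h.ord_one

/-- The value of a coordinate at a place of the fibre lies in the maximal ideal. -/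
theorem IsCoord.exists_value (hP : HasPrincipalDivisors K F)
    (hdeg : ∀ v : Place K F, v.deg = 1) {s : F} {Q : Place k F'} (h : S.IsCoord s Q)
    {X : Place K F} (hX : S.r X = some Q) :
    ∃ a : K, algebraMap K F a ∈ S.V ∧ S.rd (algebraMap K F a) = 0 ∧
      VanAt X (s - algebraMap K F a) := by
  obtain ⟨a, ha⟩ := _root_.Fermat.Agent.RED.H17.exists_value X (hdeg X)
    (regAt_of_ord_nonneg (h.reg X hX))
  obtain ⟨h1, h2⟩ := S.const_of_vanAt hP h.isGU.1 h.good h.reg hX ha
  refine ⟨a, h1, ?_, ha⟩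
  obtain ⟨a', ha'⟩ := S.rd_const_eq a h1
  have h3 : VanAt Q (S.rd s) := vanAt_of_ord_pos (by rw [h.ord_one]; exact one_pos)
  have h4 : VanAt Q (S.rd (algebraMap K F a)) := by
    have := h3.sub h2
    rwa [sub_sub_cancel] at this
  rw [ha'] at h4 ⊢
  rw [const_eq_zero_of_vanAt h4, map_zero]

/-- On the fibre of `Q`, the order of `s - a` is the indicator of the place with coordinate
`a`. -/
theorem IsCoord.ord_sub_eq (hP : HasPrincipalDivisors K F) {s : F} {Q : Place k F'}
    (h : S.IsCoord s Q) {a : K} (ha : algebraMap K F a ∈ S.V)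
    (ha0 : S.rd (algebraMap K F a) = 0) {X : Place K F} (hX : S.r X = some Q)
    (hXa : VanAt X (s - algebraMap K F a)) {P : Place K F} (hPQ : S.r P = some Q) :
    P.ord (s - algebraMap K F a) = if P = X then 1 else 0 := by
  have hc := h.sub_const ha ha0
  obtain ⟨X', hX', h1, h2⟩ := hc.exists_zero hP
  have hXX' : X = X' := by
    by_contra hne
    have h3 := h2 X hX hne
    have h4 := hXa.ord_pos hc.isGU.ne_zero
    omega
  subst hXX'
  split_ifs with hPX
  · rw [hPX]; exact h1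
  · exact h2 P hPQ hPX


variable (S)

/-- Regularity of the reduction from regularity on the fibre. -/
theorem regAt_rd (hP : HasPrincipalDivisors K F) {w : F} (hw : w ∈ S.V) {Q : Place k F'} (hQg : Q ∈ S.good)
    (hreg : ∀ P, S.r P = some Q → 0 ≤ P.ord w) : RegAt Q (S.rd w) := by
  by_cases h0 : S.rd w = 0
  · rw [h0]; exact regAt_zero Q
  · exact regAt_of_ord_nonneg (S.ord_rd_nonneg hP ⟨hw, h0⟩ Q hQg hreg)

/-- Vanishing of the reduction from vanishing at a place of the fibre. -/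
theorem vanAt_rd (hP : HasPrincipalDivisors K F) {w : F} (hw : w ∈ S.V) {Q : Place k F'} (hQg : Q ∈ S.good)
    (hreg : ∀ P, S.r P = some Q → 0 ≤ P.ord w) {X : Place K F} (hX : S.r X = some Q)
    (hXw : VanAt X w) : VanAt Q (S.rd w) := by
  by_cases h0 : S.rd w = 0
  · rw [h0]; exact vanAt_zero Q
  · have hGU : S.IsGU w := ⟨hw, h0⟩
    have h1 := S.ord_le_ord_rd hP hGU Q hQg hreg hX
    have h2 := hXw.ord_pos hGU.ne_zero
    exact vanAt_of_ord_pos (by omega)


theorem natCast_mem_V (n : ℕ) : (n : F) ∈ S.V := natCast_mem S.V n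

theorem rd_natCast (n : ℕ) : S.rd (n : F) = (n : F') := by
  rw [S.rd_of_mem (S.natCast_mem_V n)]
  have : (⟨(n : F), S.natCast_mem_V n⟩ : S.V) = (n : S.V) := rfl
  rw [this, map_natCast]

/-- A common scale for finitely many elements of the maximal ideal, not all zero. -/
theorem exists_scale_max (I : Finset F) (hI : ∀ z ∈ I, z ∈ S.V ∧ S.rd z = 0)
    (hne : ∃ z ∈ I, z ≠ 0) :
    ∃ c : K, c ≠ 0 ∧ algebraMap K F c⁻¹ ∈ S.V ∧ S.rd (algebraMap K F c⁻¹) = 0 ∧
      (∀ z ∈ I, algebraMap K F c * z ∈ S.V) ∧ ∃ z ∈ I, S.IsGU (algebraMap K F c * z) := by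
  obtain ⟨z₁, hz₁, hz₁0⟩ := hne
  obtain ⟨z₀, hz₀, hmax⟩ := I.exists_max_image S.V.valuation ⟨z₁, hz₁⟩
  have hz₀0 : z₀ ≠ 0 := by
    rintro rfl
    have := hmax z₁ hz₁
    rw [map_zero, le_zero_iff, Valuation.zero_iff] at this
    exact hz₁0 this
  obtain ⟨c, hc, hGU⟩ := S.exists_isGU_scale hz₀0
  have hcF : algebraMap K F c ≠ 0 := (map_ne_zero_iff _ (algebraMap K F).injective).mpr hc
  have hd : algebraMap K F c⁻¹ = z₀ * (algebraMap K F c * z₀)⁻¹ := by
    rw [map_inv₀]
    field_simp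
  refine ⟨c, hc, ?_, ?_, ?_, z₀, hz₀, hGU⟩
  · rw [hd]
    exact S.V.mul_mem _ _ (hI z₀ hz₀).1 hGU.inv_mem
  · rw [hd, S.rd_mul (hI z₀ hz₀).1 hGU.inv_mem, (hI z₀ hz₀).2, zero_mul]
  · intro z hz
    rw [← ValuationSubring.valuation_le_one_iff, map_mul]
    calc S.V.valuation (algebraMap K F c) * S.V.valuation z
        ≤ S.V.valuation (algebraMap K F c) * S.V.valuation z₀ :=
          mul_le_mul_right (hmax z hz) _
      _ = S.V.valuation (algebraMap K F c * z₀) := (map_mul _ _ _).symm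
      _ ≤ 1 := (ValuationSubring.valuation_le_one_iff _ _).mpr hGU.1


end PRed

end Fermat.Agent.BAD

end
end
-- ==== END Fermat.Agent.BAD.H28_PRed

-- ==== BEGIN Fermat.Agent.BAD.H91_GaussInertia
section

/-!
# BAD_q / G-RED: inertia acts trivially on the reduction of the Gauss ring  (helper91)

`C` a field, `O : ValuationSubring C`, `σ : C →+* C` with `σ O ⊆ O` and `σ a ≡ a` modulo the
maximal ideal for `a ∈ O` (an element of the inertia group).  Then the coefficientwise action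
`coeffMap σ` on `C((t))` preserves the Gauss ring `gaussRingV O` and commutes with the reduction
`gaussRedV O`:

* `InertialOn O σ` : the hypothesis;
* `coeffMap_mem_gaussRingV` : `x ∈ gaussRingV O → coeffMap σ x ∈ gaussRingV O`;
* `gaussRedV_coeffMap` : `gaussRedV O (coeffMap σ x) = gaussRedV O x`;
* `gaussUnit_coeffMap` : Gauss units are preserved;
* `inertialOn_of_mem_inertia` : elements of `A.inertiaSubgroupIn K` are inertial.
-/

set_option autoImplicit false

noncomputable section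

open ModularCurve Fermat.Agent.S28.H73 Fermat.Agent.RED.H73

namespace Fermat.Agent.BAD.H91

variable {C : Type} [Field C] (O : ValuationSubring C)

/-- `σ` maps `O` to itself and acts trivially on the residue field. -/
def InertialOn (σ : C →+* C) : Prop :=
  ∀ a : C, a ∈ O → σ a ∈ O ∧ σ a - a ∈ O.nonunits

variable {O}

/-- the restriction of `σ` to `O`. -/
def restrO {σ : C →+* C} (hσ : InertialOn O σ) : ↥O →+* ↥O :=
  (σ.comp O.subtype).codRestrict O.toSubring (fun a => (hσ a a.2).1)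

@[simp] theorem coe_restrO {σ : C →+* C} (hσ : InertialOn O σ) (a : ↥O) :
    ((restrO hσ a : ↥O) : C) = σ (a : C) := rfl

theorem subtype_comp_restrO {σ : C →+* C} (hσ : InertialOn O σ) :
    O.subtype.comp (restrO hσ) = σ.comp O.subtype :=
  RingHom.ext fun _ => rfl

theorem resV_comp_restrO {σ : C →+* C} (hσ : InertialOn O σ) :
    (resV O).comp (restrO hσ) = resV O := by
  ext a
  show IsLocalRing.residue ↥O (restrO hσ a) = IsLocalRing.residue ↥O a
  rw [← sub_eq_zero, ← map_sub, IsLocalRing.residue_eq_zero_iff]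
  have h := (hσ a a.2).2
  obtain ⟨hm, hmax⟩ := (O.mem_nonunits_iff_exists_mem_maximalIdeal (a := σ (a : C) - (a : C))).1 h
  have e : (restrO hσ a - a : ↥O) = ⟨σ (a : C) - (a : C), hm⟩ := Subtype.ext rfl
  rw [e]
  exact hmax

theorem coeffMap_iotaV {σ : C →+* C} (hσ : InertialOn O σ) (g : LaurentSeries ↥O) :
    coeffMap σ (iotaV O g) = iotaV O (coeffMap (restrO hσ) g) := by
  rw [iotaV, _root_.ModularCurve.coeffMap_coeffMap, _root_.ModularCurve.coeffMap_coeffMap, subtype_comp_restrO]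

theorem redV_coeffMap {σ : C →+* C} (hσ : InertialOn O σ) (g : LaurentSeries ↥O) :
    redV O (coeffMap (restrO hσ) g) = redV O g := by
  rw [redV, _root_.ModularCurve.coeffMap_coeffMap, resV_comp_restrO]

/-- The coefficientwise action of an inertial `σ` preserves the Gauss ring. -/
theorem coeffMap_mem_gaussRingV {σ : C →+* C} (hσ : InertialOn O σ) {x : LaurentSeries C}
    (hx : x ∈ gaussRingV O) : coeffMap σ x ∈ gaussRingV O := by
  obtain ⟨g, h, hg, e⟩ := hx
  refine ⟨coeffMap (restrO hσ) g, coeffMap (restrO hσ) h, ?_, ?_⟩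
  · rw [redV_coeffMap]; exact hg
  · rw [← coeffMap_iotaV, ← coeffMap_iotaV, ← map_mul, e]

/-- The coefficientwise action of an inertial `σ` commutes with the reduction of the Gauss
ring. -/
theorem gaussRedV_coeffMap {σ : C →+* C} (hσ : InertialOn O σ) {x : LaurentSeries C}
    (hx : x ∈ gaussRingV O) (hx' : coeffMap σ x ∈ gaussRingV O) :
    gaussRedV O ⟨coeffMap σ x, hx'⟩ = gaussRedV O ⟨x, hx⟩ := by
  have hx0 := hx
  obtain ⟨g, h, hg, e⟩ := hx0
  have hg' : redV O (coeffMap (restrO hσ) g) ≠ 0 := by rw [redV_coeffMap]; exact hg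
  have e' : iotaV O (coeffMap (restrO hσ) g) * coeffMap σ x = iotaV O (coeffMap (restrO hσ) h) := by
    rw [← coeffMap_iotaV, ← coeffMap_iotaV, ← map_mul, e]
  rw [gaussRedV_eq O ⟨coeffMap σ x, hx'⟩ hg' e', gaussRedV_eq O ⟨x, hx⟩ hg e, redV_coeffMap,
    redV_coeffMap]

/-- Gauss units are preserved by the coefficientwise action of an inertial `σ`. -/
theorem gaussUnit_coeffMap {σ : C →+* C} (hσ : InertialOn O σ) {x : LaurentSeries C}
    (hx : GaussUnit O x) : GaussUnit O (coeffMap σ x) := by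
  obtain ⟨g, h, hg, hh, e⟩ := hx
  refine ⟨coeffMap (restrO hσ) g, coeffMap (restrO hσ) h, ?_, ?_, ?_⟩
  · rw [redV_coeffMap]; exact hg
  · rw [redV_coeffMap]; exact hh
  · rw [← coeffMap_iotaV, ← coeffMap_iotaV, ← map_mul, e]

/-- Elements of the inertia group of `A` are inertial. -/
theorem inertialOn_of_mem_inertia {K L : Type} [Field K] [Field L] [Algebra K L]
    (A : ValuationSubring L) {σ : L ≃ₐ[K] L} (hσ : σ ∈ A.inertiaSubgroupIn K) :
    InertialOn A (σ : L →+* L) := fun _ ha =>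
  ⟨(Fermat.Agent.S05.H95.mem_iff_of_mem_inertia A hσ).2 ha,
    Fermat.Agent.S05.H95.sub_mem_nonunits_of_mem_inertia A hσ ha⟩

end Fermat.Agent.BAD.H91

end
end
-- ==== END Fermat.Agent.BAD.H91_GaussInertia

-- ==== BEGIN Fermat.Agent.Betti.H21_TorsLiftGlue
section

/-!
# TORSLIFT from COUNT alone (helper21): BASIS (`H21.exists_basis_ge`) + ABS-LIFT (helper41)

`stmt_torsLift_of_card` : if for every prime `ℓ` at most `ℓ ^ (2 dim S₂(Γ₀(N)))` homomorphisms
`Γ₀(N) → ℤ/ℓ` kill the elements with `(tr γ)² ≤ 4` (package COUNT, helper77), then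
`Fermat.Agent.S16.Stmt_TorsLift N n` holds for every `n`.
-/

set_option autoImplicit false

namespace Fermat.Agent.Betti.H21

open CongruenceSubgroup

/-- **TORSLIFT** from COUNT. -/
theorem stmt_torsLift_of_card (N : ℕ) [NeZero N]
    (hcount : ∀ (ℓ : ℕ) [Fact ℓ.Prime], Nat.card (Fermat.Agent.Betti.H41.KillsPE N ℓ) ≤
      ℓ ^ (2 * Module.finrank ℂ (CuspForm (Gamma0 N) 2))) (n : ℕ) :
    Fermat.Agent.S16.Stmt_TorsLift N n :=
  Fermat.Agent.Betti.H41.torsLift_of_exists N (exists_basis_ge N) hcount n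

end Fermat.Agent.Betti.H21

end
-- ==== END Fermat.Agent.Betti.H21_TorsLiftGlue

-- ==== BEGIN Fermat.Agent.Betti.H77_Count0
section

/-!
# TORSLIFT, the count for `Γ₀(N)` (helper77)

For every field `K`, the space `killsPE K N` of homomorphisms `Γ₀(N) → K` which kill all elements
of trace `0, ±1, ±2` has dimension at most `2 * dim S₂(Γ₀(N))` (`finrank_killsPE_le`); for
`K = ℤ/ℓ` this bounds the number of such homomorphisms by `ℓ ^ (2 * dim S₂(Γ₀(N)))`
(`card_killsPE_le`).
-/

set_option autoImplicit false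
set_option linter.unusedSectionVars false

open ModularCurve ModularCurve.Period CongruenceSubgroup
open scoped MatrixGroups

namespace Fermat.Agent.Betti.H77

open Module

/-- homs `Γ₀(N) → K` killing all elements with `trace² ≤ 4` -/
def killsPE (K : Type*) [Field K] (N : ℕ) : Submodule K (Additive (Gamma0 N) →+ K) where
  carrier := {χ | ∀ γ : Gamma0 N,
    ((γ : SL(2, ℤ)) : Matrix (Fin 2) (Fin 2) ℤ).trace ^ 2 ≤ 4 → χ (Additive.ofMul γ) = 0}
  zero_mem' := fun _ _ => rfl
  add_mem' := by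
    intro φ ψ hφ hψ γ hγ
    show φ _ + ψ _ = 0
    rw [hφ γ hγ, hψ γ hγ, add_zero]
  smul_mem' := by
    intro c φ hφ γ hγ
    show c • φ _ = 0
    rw [hφ γ hγ, smul_zero]

lemma mem_killsPE {K : Type*} [Field K] {N : ℕ} {χ : Additive (Gamma0 N) →+ K} :
    χ ∈ killsPE K N ↔ ∀ γ : Gamma0 N,
      ((γ : SL(2, ℤ)) : Matrix (Fin 2) (Fin 2) ℤ).trace ^ 2 ≤ 4 → χ (Additive.ofMul γ) = 0 :=
  Iff.rfl

/-- the trace is invariant under conjugation -/
lemma trace_conj (g x : SL(2, ℤ)) :
    ((g⁻¹ * (x * g) : SL(2, ℤ)) : Matrix (Fin 2) (Fin 2) ℤ).trace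
      = (x : Matrix (Fin 2) (Fin 2) ℤ).trace := by
  have h1 : ((g⁻¹ * (x * g) : SL(2, ℤ)) : Matrix (Fin 2) (Fin 2) ℤ)
      = (g⁻¹ : SL(2, ℤ)).1 * ((x * g : SL(2, ℤ)) : Matrix (Fin 2) (Fin 2) ℤ) :=
    Matrix.SpecialLinearGroup.coe_mul _ _
  rw [h1, Matrix.trace_mul_comm, ← Matrix.SpecialLinearGroup.coe_mul, mul_assoc,
    mul_inv_cancel, mul_one]

lemma S_pow_four : ModularGroup.S ^ 4 = (1 : SL(2, ℤ)) := by decide

lemma ST_pow_six : (ModularGroup.S * ModularGroup.T) ^ 6 = (1 : SL(2, ℤ)) := by decide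

lemma trace_sq_S_pow (n : ℕ) :
    ((ModularGroup.S ^ n : SL(2, ℤ)) : Matrix (Fin 2) (Fin 2) ℤ).trace ^ 2 ≤ 4 := by
  rw [pow_eq_pow_mod n S_pow_four]
  have h : n % 4 < 4 := Nat.mod_lt _ (by norm_num)
  interval_cases (n % 4) <;> decide

lemma trace_sq_ST_pow (n : ℕ) :
    (((ModularGroup.S * ModularGroup.T) ^ n : SL(2, ℤ)) : Matrix (Fin 2) (Fin 2) ℤ).trace ^ 2
      ≤ 4 := by
  rw [pow_eq_pow_mod n ST_pow_six]
  have h : n % 6 < 6 := Nat.mod_lt _ (by norm_num)
  interval_cases (n % 6) <;> decide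

lemma trace_sq_T_pow (n : ℕ) :
    ((ModularGroup.T ^ n : SL(2, ℤ)) : Matrix (Fin 2) (Fin 2) ℤ).trace ^ 2 ≤ 4 := by
  have h2 := ModularGroup.coe_T_zpow (n : ℤ)
  rw [zpow_natCast] at h2
  rw [show ((ModularGroup.T ^ n : SL(2, ℤ)) : Matrix (Fin 2) (Fin 2) ℤ)
      = (ModularGroup.T ^ n).1 from rfl, h2, Matrix.trace_fin_two_of]
  norm_num

/-- conjugates of powers of `S`, `S * T`, `T` have `trace² ≤ 4` -/
lemma trace_sq_conj_le {x : SL(2, ℤ)}
    (hx : x ∈ ({ModularGroup.S, ModularGroup.S * ModularGroup.T, ModularGroup.T} : Set SL(2, ℤ)))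
    (g : SL(2, ℤ)) (n : ℕ) :
    ((g⁻¹ * (x ^ n * g) : SL(2, ℤ)) : Matrix (Fin 2) (Fin 2) ℤ).trace ^ 2 ≤ 4 := by
  rw [trace_conj]
  rcases hx with rfl | rfl | hx
  · exact trace_sq_S_pow n
  · exact trace_sq_ST_pow n
  · rw [Set.mem_singleton_iff] at hx
    rw [hx]
    exact trace_sq_T_pow n

lemma killsPE_le_vanHoms (K : Type*) [Field K] (N : ℕ) :
    killsPE K N ≤ vanHoms K (Gamma0 N)
      {ModularGroup.S, ModularGroup.S * ModularGroup.T, ModularGroup.T} := by
  intro χ hχ x hx g n h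
  exact hχ ⟨_, h⟩ (trace_sq_conj_le hx g n)

/-- **The count for `Γ₀(N)`**, first form. -/
theorem finrank_killsPE_bound (K : Type*) [Field K] (N : ℕ) [NeZero N] :
    Module.Finite K (killsPE K N) ∧
      6 * Module.finrank K (killsPE K N)
        + 3 * Nat.card {q : SL(2, ℤ) ⧸ Gamma0 N // ModularGroup.S • q = q}
        + 4 * Nat.card {q : SL(2, ℤ) ⧸ Gamma0 N // (ModularGroup.S * ModularGroup.T) • q = q}
        + 6 * Nat.card (MulAction.orbitRel.Quotient (Subgroup.zpowers ModularGroup.T)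
            (SL(2, ℤ) ⧸ Gamma0 N))
        ≤ (Gamma0 N).index + 12 := by
  classical
  let _ := Fintype.ofFinite (SL(2, ℤ) ⧸ Gamma0 N)
  obtain ⟨M, H⟩ := Fermat.Agent.S21.H75.hyp_Gamma0 N
  have hfin := finite_homK K (Gamma0 N) H.gen
  refine ⟨inferInstance, ?_⟩
  have hb := count_bound K (Gamma0 N) H.gen
  have hmono : finrank K (killsPE K N)
      ≤ finrank K (vanHoms K (Gamma0 N)
        {ModularGroup.S, ModularGroup.S * ModularGroup.T, ModularGroup.T}) :=
    Submodule.finrank_mono (killsPE_le_vanHoms K N)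
  rw [← Fermat.Agent.S21.H75.finrank_ker_R_sub_one (Gamma0 N) ModularGroup.S,
    ← Fermat.Agent.S21.H75.finrank_ker_R_sub_one (Gamma0 N) (ModularGroup.S * ModularGroup.T)]
    at hb
  have hS := Fermat.Agent.S21.H75.mul_finrank_ker_R_sub_one (Gamma0 N) ModularGroup.S (M := 2)
    (by norm_num) H.R_S_sq
  have hU := Fermat.Agent.S21.H75.mul_finrank_ker_R_sub_one (Gamma0 N)
    (ModularGroup.S * ModularGroup.T) (M := 3) (by norm_num) H.R_U_cube
  have hidx : (Gamma0 N).index = Fintype.card (SL(2, ℤ) ⧸ Gamma0 N) := by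
    rw [Subgroup.index_eq_card, Nat.card_eq_fintype_card]
  have hall : ∀ g : SL(2, ℤ), (∀ q : SL(2, ℤ) ⧸ Gamma0 N, g • q = q) →
      Nat.card {q : SL(2, ℤ) ⧸ Gamma0 N // g • q = q}
        = Fintype.card (SL(2, ℤ) ⧸ Gamma0 N) := by
    intro g hg
    rw [← Nat.card_eq_fintype_card]
    exact Nat.card_congr (Equiv.subtypeUnivEquiv hg)
  have h0S : Nat.card {q : SL(2, ℤ) ⧸ Gamma0 N // (ModularGroup.S ^ 0) • q = q}
      = Fintype.card (SL(2, ℤ) ⧸ Gamma0 N) := hall _ (by simp)
  have h0U : Nat.card {q : SL(2, ℤ) ⧸ Gamma0 N //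
      ((ModularGroup.S * ModularGroup.T) ^ 0) • q = q}
      = Fintype.card (SL(2, ℤ) ⧸ Gamma0 N) := hall _ (by simp)
  have h1S : Nat.card {q : SL(2, ℤ) ⧸ Gamma0 N // (ModularGroup.S ^ 1) • q = q}
      = Nat.card {q : SL(2, ℤ) ⧸ Gamma0 N // ModularGroup.S • q = q} := by
    rw [pow_one]
  have h1U : Nat.card {q : SL(2, ℤ) ⧸ Gamma0 N //
      ((ModularGroup.S * ModularGroup.T) ^ 1) • q = q}
      = Nat.card {q : SL(2, ℤ) ⧸ Gamma0 N // (ModularGroup.S * ModularGroup.T) • q = q} := by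
    rw [pow_one]
  have h2U : Nat.card {q : SL(2, ℤ) ⧸ Gamma0 N //
      ((ModularGroup.S * ModularGroup.T) ^ 2) • q = q}
      = Nat.card {q : SL(2, ℤ) ⧸ Gamma0 N // (ModularGroup.S * ModularGroup.T) • q = q} := by
    apply Nat.card_congr
    apply Equiv.subtypeEquivRight
    intro q
    constructor
    · intro h
      have h3 : ((ModularGroup.S * ModularGroup.T) ^ 3) • q = q := by
        rw [H.hU]; exact H.smul_z q
      rw [pow_succ', mul_smul, h] at h3
      exact h3
    · intro h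
      rw [pow_two, mul_smul, h, h]
  rw [Finset.sum_range_succ, Finset.sum_range_one, h0S, h1S] at hS
  rw [Finset.sum_range_succ, Finset.sum_range_succ, Finset.sum_range_one, h0U, h1U, h2U] at hU
  omega

/-- **The count for `Γ₀(N)`**: `dim_K ≤ 2 * dim S₂(Γ₀(N))`, for every field `K`. -/
theorem finrank_killsPE_le (K : Type*) [Field K] (N : ℕ) [NeZero N] :
    Module.finrank K (killsPE K N) ≤ 2 * Module.finrank ℂ (CuspForm (Gamma0 N) 2) := by
  obtain ⟨-, h2⟩ := finrank_killsPE_bound K N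
  rw [Fermat.Agent.S20.H19.G1, Fermat.Agent.S20.H19.G2, Fermat.Agent.S20.H19.G3,
    Fermat.Agent.S20.H38.G4] at h2
  have h3 : ((6 * Module.finrank K (killsPE K N) + 3 * nuTwo N + 4 * nuThree N
      + 6 * cuspCount N : ℕ) : ℚ) ≤ ((dedekindPsi N + 12 : ℕ) : ℚ) := by exact_mod_cast h2
  push_cast at h3
  have h4 := Fermat.Agent.S20.result N
  unfold genusFormula at h4
  have h5 : (Module.finrank K (killsPE K N) : ℚ)
      ≤ ((2 * Module.finrank ℂ (CuspForm (Gamma0 N) 2) : ℕ) : ℚ) := by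
    push_cast
    linarith
  exact_mod_cast h5

/-- **The count for `Γ₀(N)`** over `ℤ/ℓ`, cardinality form. -/
theorem card_killsPE_le (N : ℕ) [NeZero N] (l : ℕ) [Fact l.Prime] :
    Nat.card {χ : Additive (Gamma0 N) →+ ZMod l //
        ∀ γ : Gamma0 N, ((γ : SL(2, ℤ)) : Matrix (Fin 2) (Fin 2) ℤ).trace ^ 2 ≤ 4 →
          χ (Additive.ofMul γ) = 0}
      ≤ l ^ (2 * Module.finrank ℂ (CuspForm (Gamma0 N) 2)) := by
  have hfin := (finrank_killsPE_bound (ZMod l) N).1
  have h1 : Nat.card (killsPE (ZMod l) N) = l ^ Module.finrank (ZMod l) (killsPE (ZMod l) N) := by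
    rw [Module.natCard_eq_pow_finrank (K := ZMod l), Nat.card_zmod]
  have h2 : Nat.card {χ : Additive (Gamma0 N) →+ ZMod l //
        ∀ γ : Gamma0 N, ((γ : SL(2, ℤ)) : Matrix (Fin 2) (Fin 2) ℤ).trace ^ 2 ≤ 4 →
          χ (Additive.ofMul γ) = 0} = Nat.card (killsPE (ZMod l) N) := rfl
  rw [h2, h1]
  exact Nat.pow_le_pow_right (Fact.out : l.Prime).pos (finrank_killsPE_le (ZMod l) N)

end Fermat.Agent.Betti.H77

end
-- ==== END Fermat.Agent.Betti.H77_Count0

-- ==== BEGIN Fermat.Agent.GTor.Clo.AsmGenus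
section

/-!
# S24 assembly: the genus from the counts (N > 1)
-/

set_option autoImplicit false

noncomputable section

namespace Fermat.Agent.GTor.Clo

open Fermat.Agent.S24

open CongruenceSubgroup ModularGroup ModularCurve AlgebraicCurve IntermediateField
  KaehlerDifferential
open scoped MatrixGroups

/-- The genus in terms of the Riemann–Hurwitz count. -/
theorem asm_genus_eq {K F : Type*} [Field K] [Field F] [Algebra K F] [IsAlgClosed K] [CharZero K]
    [HasCanonicalDivisor (K := K) (F := F)]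
    (hzeros : H59.ZerosStmt K F)
    (x : F) (hx : Transcendental K x) [FiniteDimensional K⟮x⟯ F]
    (S : Finset K) (r : K → ℕ)
    (hr : ∀ a ∈ S, Nat.card {v : Place K F // 0 < v.ord (x - algebraMap K F a)} = r a)
    (hS : ∀ a ∉ S, Nat.card {v : Place K F // 0 < v.ord (x - algebraMap K F a)}
      = Module.finrank K⟮x⟯ F)
    (rinf : ℕ) (hrinf : Nat.card {v : Place K F // v.ord x < 0} = rinf) :
    AlgebraicCurve.genus K F
      = ((∑ a ∈ S, ((Module.finrank K⟮x⟯ F : ℤ) - r a) - Module.finrank K⟮x⟯ F - rinf)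
          + 2).toNat / 2 := by
  have hex : ∃ ω : Ω[F⁄K], ω ≠ 0 := ⟨D K F x, ff_D_ne_zero x hx x hx⟩
  unfold AlgebraicCurve.genus
  rw [dif_pos hex]
  rw [ff_riemann_hurwitz_of_zeros hzeros x hx S r hr hS rinf hrinf hex.choose hex.choose_spec
    (canonicalDivisorOf hex.choose_spec) (fun v => canonicalDivisorOf_apply hex.choose_spec v)]

/-- The genus of `F_N` from a `ModClosure N`, for `1 < N`. -/
theorem asm_genus_of_modClosure (N : ℕ) [NeZero N]
    [HasCanonicalDivisor (K := _root_.Fermat.Agent.GTor.Clo.Kbar) (F := _root_.Fermat.Agent.GTor.Clo.FN N)] (hN : 1 < N) (M : _root_.Fermat.Agent.GTor.Clo.ModClosure N)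
    (hzeros : H59.ZerosStmt _root_.Fermat.Agent.GTor.Clo.Kbar (_root_.Fermat.Agent.GTor.Clo.FN N)) :
    (AlgebraicCurve.genus _root_.Fermat.Agent.GTor.Clo.Kbar (_root_.Fermat.Agent.GTor.Clo.FN N) : ℚ) = genusFormula N := by
  classical
  have hx := _root_.Fermat.Agent.GTor.Clo.asm_transcendental_jF M
  haveI := _root_.Fermat.Agent.GTor.Clo.asm_finiteDimensional M
  have hn := _root_.Fermat.Agent.GTor.Clo.asm_finrank M
  have h01728 : (0 : _root_.Fermat.Agent.GTor.Clo.Kbar) ≠ 1728 := by norm_num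
  have key := _root_.Fermat.Agent.GTor.Clo.asm_genus_eq hzeros (_root_.Fermat.Agent.GTor.Clo.jF N) hx {0, 1728}
    (fun a => if a = 0 then orbN N (S * T) else orbN N S)
    (by
      intro a ha
      rcases Finset.mem_insert.mp ha with rfl | ha
      · simpa using _root_.Fermat.Agent.GTor.Clo.asm_card_zeros_zero M hN
      · rw [Finset.mem_singleton] at ha
        subst ha
        simpa [h01728.symm] using _root_.Fermat.Agent.GTor.Clo.asm_card_zeros_1728 M hN)
    (by
      intro a ha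
      rw [Finset.mem_insert, Finset.mem_singleton, not_or] at ha
      rw [hn]
      exact _root_.Fermat.Agent.GTor.Clo.asm_card_zeros_generic M a ha.1 ha.2)
    (orbN N T) (_root_.Fermat.Agent.GTor.Clo.asm_card_poles M)
  rw [key]
  refine asm_genus_arith N _ ?_
  rw [Finset.sum_pair h01728, hn]
  simp [h01728.symm]

end Fermat.Agent.GTor.Clo

end
end
-- ==== END Fermat.Agent.GTor.Clo.AsmGenus
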