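-- GENERATED (merged mirror, NOTES/tools/trim/merge3_helper67.py): 7 modules of the originals, bodies verbatim.
import Fermat.Prelude.Def_ModularCurve_ReductionModL
import Fermat.Prelude.Def_FLTPrelim_Ramification
import Mathlib
import Fermat.Prelude.Def_AlgebraicCurve_Correspondence
import Fermat.Agent.RED.Defs
import Fermat.Agent.Zm.S35_L06_002
import Fermat.Agent.Zm.S35_L06_001
import Fermat.Agent.Zm.S35_L05_003
import Fermat.Agent.Zm.S35_L03_002

-- ==== BEGIN Fermat.Agent.RED.Core
section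
attribute [local instance 10000] SubalgebraClass.toAlgebra
attribute [local instance 10000] HahnSeries.powerSeriesAlgebra

/-!
# Cluster G, part RED: interface statements, layer 1 (Deuring reduction), version 4

Plan: `NOTES/plan/G_RED.md`, sections "v2", "v4".  Setting (helper73's package GA):
`C` a field, `O : ValuationSubring C`, `F : IntermediateField C (LaurentSeries C)` with
`h : HasScale O F`; `V = gaussValSub O F h`, `res = gaussResF' O h : V →+* redField O F h`,
`redField O F h ⊂ k((q))` the reduced function field.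

* `IsRed O h r` : **conservation law** `r_* (div f) = div (res f)` for every Gauss unit `f`.
* `GenusLE O h r` : `l(r_* D) ≤ l(D)` for all `D` of large degree ("the genus does not drop").
* `HasDR O h` : a **Deuring reduction datum** exists (`r` with `IsRed` and `GenusLE`, and the
  reduced field is a function field).
* `TIcoreFor O h ℓ` : **the Kummer form of torsion injectivity**.
* `Stmt_DR`, `Stmt_TIcore`, `Stmt_TIabs`, `Stmt_KD` : the packages.

`Stmt_TIabs` is proved by helper17's ROUTE C (non-special divisor, valuations only); the cusp,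
the residue disc, Weierstrass preparation and orthonormal `q`-bases of v3 are NOT needed.
This file contains no `sorry`.
-/

set_option autoImplicit false
set_option synthInstance.maxHeartbeats 400000
set_option maxHeartbeats 1000000

noncomputable section

open AlgebraicCurve ModularCurve Fermat.Agent.S28.H73 Fermat.Agent.RED.H73

namespace Fermat.Agent.RED

section Abstract

variable {C : Type} [Field C] (O : ValuationSubring C)
variable {F : IntermediateField C (LaurentSeries C)} (h : HasScale O F)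

/-- **Conservation law** (Deuring): `r_* (div f) = div (res f)` for every Gauss unit `f`. -/
def IsRed (r : Place C ↥F → Place (kV O) ↥(redField O F h)) : Prop :=
  ∀ f : ↥(gaussValSub O F h), IsUnit f →
    ∀ D : Divisor C ↥F, (∀ P, D P = P.ord (f : ↥F)) →
      ∀ Q : Place (kV O) ↥(redField O F h),
        Finsupp.mapDomain r D Q = Q.ord (gaussResF' O h f)

/-- The place is the `q`-order (the cusp `∞`). -/
def IsCuspPlace {k : Type} [Field k] {E : IntermediateField k (LaurentSeries k)}
    (P : Place k ↥E) : Prop :=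
  ∀ f : ↥E, f ≠ 0 → P.ord f = (f : LaurentSeries k).order

/-- "The genus does not drop": `l(r_* D) ≤ l(D)` for all divisors `D` of large degree. -/
def GenusLE (r : Place C ↥F → Place (kV O) ↥(redField O F h)) : Prop :=
  ∃ c : ℤ, ∀ D : Divisor C ↥F, c ≤ Divisor.degree D →
    Module.finrank (kV O) (riemannRochSpace (Finsupp.mapDomain r D)) ≤
      Module.finrank C (riemannRochSpace D)

/-- `(F, V)` has good reduction in the sense of Deuring: the reduced field is a function field
and there is a map `r` of places with the conservation law such that the genus does not drop. -/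
def HasDR : Prop :=
  IsFF (kV O) ↥(redField O F h) ∧
  ∃ r : Place C ↥F → Place (kV O) ↥(redField O F h), IsRed O h r ∧ GenusLE O h r

/-- **Kummer form of torsion injectivity.** -/
def TIcoreFor (ℓ : ℕ) : Prop :=
  ∀ m : ℕ, ¬ ℓ ∣ m → ∀ f : ↥(gaussValSub O F h), gaussResF' O h f = 1 →
    (∀ P : Place C ↥F, (m : ℤ) ∣ P.ord (f : ↥F)) → ∃ t : ↥F, t ^ m = (f : ↥F)

end Abstract

/-- **Package TI-abs** (abstract; helper17, Route C): a Deuring reduction datum gives the Kummer
form of torsion injectivity.  Inputs from the function field layer: FF-B and Riemann's theorem,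
for `F / C` and for the reduced field. -/
def Stmt_TIabs : Prop :=
  Stmt_FFB_principal → Stmt_FFB_deg → Stmt_FFR_finite → Stmt_FFR_le → Stmt_FFR_riemann →
  ∀ (C : Type) [Field C] [IsAlgClosed C] (O : ValuationSubring C) [IsAlgClosed (kV O)]
    (F : IntermediateField C (LaurentSeries C)) (h : HasScale O F) (ℓ : ℕ),
    ℓ.Prime → ((ℓ : ℕ) : kV O) = 0 → IsFF C ↥F → HasDR O h → TIcoreFor O h ℓ

/-- **Package DR** (existence of the Deuring reduction datum at the levels where the Igusa
crux IG is proved): `ℓ ≥ 5` (base = `j`-line), or levels `M` divisible by `4` (for odd `ℓ`) or by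
`9` (for `ℓ = 2`) (base = `X₀(4)`, `X₀(9)`). -/
def Stmt_DR : Prop :=
  ∀ (M ℓ : ℕ) [NeZero M], ℓ.Prime → ¬ ℓ ∣ M → (5 ≤ ℓ ∨ 4 ∣ M ∨ 9 ∣ M) →
    ∀ A : ValuationSubring (AlgebraicClosure ℚ), A.LiesOverPrime ℓ →
      HasDR A (hasScale_laurentBaseChange A M)

/-- **Package TIcore** at every level `N` prime to `ℓ`. -/
def Stmt_TIcore : Prop :=
  ∀ (N ℓ : ℕ) [NeZero N], ℓ.Prime → ¬ ℓ ∣ N →
    ∀ A : ValuationSubring (AlgebraicClosure ℚ), A.LiesOverPrime ℓ →
      TIcoreFor A (hasScale_laurentBaseChange A N) ℓ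

/-- **Package KD** (Kummer descent from level `M` to level `N ∣ M`, `M ∣ 36 N`): an element of
`F_N` whose divisor on `F_N` is divisible by `m` and which is an `m`-th power in `F_M` is an
`m`-th power in `F_N` (the cover `X₀(M) → X₀(N)` has no unramified abelian subcover: a cusp of
ramification index `4` resp. `9` lies in a fibre with unramified cusps). -/
def Stmt_KD : Prop :=
  ∀ (N M m : ℕ) [NeZero N] [NeZero M], N ∣ M → M ∣ 36 * N → 0 < m →
    ∀ f : ↥(modularFunctionFieldBar N),
      (∀ P : Place (AlgebraicClosure ℚ) ↥(modularFunctionFieldBar N), (m : ℤ) ∣ P.ord f) →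
      (∃ t : LaurentSeries (AlgebraicClosure ℚ), t ∈ modularFunctionFieldBar M ∧
        t ^ m = (f : LaurentSeries (AlgebraicClosure ℚ))) →
      ∃ t : ↥(modularFunctionFieldBar N), t ^ m = f

end Fermat.Agent.RED

end
end
-- ==== END Fermat.Agent.RED.Core

-- ==== BEGIN Fermat.Agent.RED.H17_Key
section

/-!
# G-RED / TI route C (helper17), part 7: the key lemma

`RedSetup.key`: let `A` be a non-special reduced divisor of the reduced curve, `s_Q` (`Q ∈ A`)
coordinates on the residue discs of the points of `A`.  A Gauss unit `f` with reduction `1`, with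
`f(P∞) = 1` at a place outside the discs, whose divisor is `m ∑_Q (X_Q - Y_Q)` with `X_Q`, `Y_Q`
in the disc of `Q` (`Y_Q` the zero of `s_Q`, `X_Q` the zero of `s_Q - a_Q`), `m` invertible in
the residue field, is `1`.
-/

set_option autoImplicit false
set_option linter.style.haveILetI false
set_option maxHeartbeats 1000000

noncomputable section

open AlgebraicCurve

attribute [local instance] Classical.propDecidable

namespace Fermat.Agent.RED.H17

local notation "L" => riemannRochSpace

namespace RedSetup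

variable {K F k F' : Type*} [Field K] [Field F] [Algebra K F] [Field k] [Field F']
  [Algebra k F'] (S : RedSetup K F k F')

/-- Regularity of the reduction from regularity on the fibre. -/
theorem regAt_rd (hP : HasPrincipalDivisors K F) {w : F} (hw : w ∈ S.V) {Q : Place k F'}
    (hreg : ∀ P, S.r P = Q → 0 ≤ P.ord w) : RegAt Q (S.rd w) := by
  by_cases h0 : S.rd w = 0
  · rw [h0]; exact regAt_zero Q
  · exact regAt_of_ord_nonneg (S.ord_rd_nonneg hP ⟨hw, h0⟩ Q hreg)

/-- Vanishing of the reduction from vanishing at a place of the fibre. -/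
theorem vanAt_rd (hP : HasPrincipalDivisors K F) {w : F} (hw : w ∈ S.V) {Q : Place k F'}
    (hreg : ∀ P, S.r P = Q → 0 ≤ P.ord w) {X : Place K F} (hX : S.r X = Q)
    (hXw : VanAt X w) : VanAt Q (S.rd w) := by
  by_cases h0 : S.rd w = 0
  · rw [h0]; exact vanAt_zero Q
  · have hGU : S.IsGU w := ⟨hw, h0⟩
    have h1 := S.ord_le_ord_rd hP hGU Q hreg hX
    have h2 := hXw.ord_pos hGU.ne_zero
    exact vanAt_of_ord_pos (by omega)

/-- The orders of `f / ∏ h_Q ^ m` on the discs. -/
theorem key_ord (hP : HasPrincipalDivisors K F) (A : Finset (Place k F'))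
    (s : Place k F' → F) (hs : ∀ Q ∈ A, S.IsCoord (s Q) Q)
    (hsreg : ∀ Q ∈ A, ∀ P, S.r P ∈ A → 0 ≤ P.ord (s Q))
    (hs0 : ∀ Q ∈ A, ∀ Q' ∈ A, Q' ≠ Q → Q'.ord (S.rd (s Q)) = 0)
    (m : ℕ) (f : F) (hf : f ≠ 0) (a : Place k F' → K)
    (ha : ∀ Q ∈ A, algebraMap K F (a Q) ∈ S.V ∧ S.rd (algebraMap K F (a Q)) = 0)
    (hord : ∀ Q ∈ A, ∀ P, S.r P = Q →
      P.ord f = m * (P.ord (s Q - algebraMap K F (a Q)) - P.ord (s Q)))
    {Q : Place k F'} (hQ : Q ∈ A) {P : Place K F} (hPQ : S.r P = Q) :
    P.ord (f / (∏ Q ∈ A, (s Q - algebraMap K F (a Q)) / s Q) ^ m) = 0 := by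
  have hsub : ∀ Q ∈ A, S.IsCoord (s Q - algebraMap K F (a Q)) Q := fun Q hQ =>
    (hs Q hQ).sub_const (ha Q hQ).1 (ha Q hQ).2
  have hrdsub : ∀ Q ∈ A, S.rd (s Q - algebraMap K F (a Q)) = S.rd (s Q) := fun Q hQ => by
    rw [S.rd_sub (hs Q hQ).isGU.1 (ha Q hQ).1, (ha Q hQ).2, sub_zero]
  have hhne : ∀ Q ∈ A, (s Q - algebraMap K F (a Q)) / s Q ≠ 0 := fun Q hQ =>
    div_ne_zero (hsub Q hQ).isGU.ne_zero (hs Q hQ).isGU.ne_zero
  have h1 : ∀ Q' ∈ A, Q' ≠ Q → P.ord ((s Q' - algebraMap K F (a Q')) / s Q') = 0 := by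
    intro Q' hQ' hne
    have hreg1 : ∀ P', S.r P' = Q → 0 ≤ P'.ord (s Q') := fun P' hP' =>
      hsreg Q' hQ' P' (hP' ▸ hQ)
    have e0 : Q.ord (S.rd (s Q')) = 0 := hs0 Q' hQ' Q hQ (Ne.symm hne)
    have e1 : P.ord (s Q') = 0 :=
      S.ord_eq_zero_of_ord_rd_eq_zero hP (hs Q' hQ').isGU Q hreg1 e0 hPQ
    have hreg2 : ∀ P', S.r P' = Q → 0 ≤ P'.ord (s Q' - algebraMap K F (a Q')) := fun P' hP' =>
      ((regAt_of_ord_nonneg (hreg1 P' hP')).sub (regAt_algebraMap P' _)).ord_nonneg
    have e2 : P.ord (s Q' - algebraMap K F (a Q')) = 0 :=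
      S.ord_eq_zero_of_ord_rd_eq_zero hP (hsub Q' hQ').isGU Q hreg2
        (by rw [hrdsub Q' hQ']; exact e0) hPQ
    rw [ord_div P (hsub Q' hQ').isGU.ne_zero (hs Q' hQ').isGU.ne_zero, e1, e2]
    rfl
  have h2 : P.ord (∏ Q ∈ A, (s Q - algebraMap K F (a Q)) / s Q)
      = P.ord (s Q - algebraMap K F (a Q)) - P.ord (s Q) := by
    rw [ord_prod P A _ hhne, Finset.sum_eq_single_of_mem Q hQ fun Q' hQ' hne => h1 Q' hQ' hne,
      ord_div P (hsub Q hQ).isGU.ne_zero (hs Q hQ).isGU.ne_zero]
  rw [ord_div P hf (pow_ne_zero _ (Finset.prod_ne_zero_iff.mpr hhne)), ord_pow, h2,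
    hord Q hQ P hPQ]
  ring

/-- **The key lemma.** -/
theorem key (H : FFHyp K F) (A : Finset (Place k F'))
    (hA : ∀ y ∈ L (ptsDiv A), ∃ a : k, y = algebraMap k F' a)
    (s : Place k F' → F) (hs : ∀ Q ∈ A, S.IsCoord (s Q) Q)
    (hsreg : ∀ Q ∈ A, ∀ P, S.r P ∈ A → 0 ≤ P.ord (s Q))
    (hs0 : ∀ Q ∈ A, ∀ Q' ∈ A, Q' ≠ Q → Q'.ord (S.rd (s Q)) = 0)
    (m : ℕ) (hm : (m : k) ≠ 0)
    (f : F) (hf : f ∈ S.V) (hf1 : S.rd f = 1)
    (Pinf : Place K F) (hPinf : S.r Pinf ∉ A) (hfinf : VanAt Pinf (f - 1))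
    (a : Place k F' → K)
    (ha : ∀ Q ∈ A, algebraMap K F (a Q) ∈ S.V ∧ S.rd (algebraMap K F (a Q)) = 0)
    (hord0 : ∀ P, S.r P ∉ A → 0 ≤ P.ord f)
    (hord : ∀ Q ∈ A, ∀ P, S.r P = Q →
      P.ord f = m * (P.ord (s Q - algebraMap K F (a Q)) - P.ord (s Q))) :
    f = 1 := by
  have hP := H.principal
  have hfGU : S.IsGU f := ⟨hf, by rw [hf1]; exact one_ne_zero⟩
  have hsub : ∀ Q ∈ A, S.IsCoord (s Q - algebraMap K F (a Q)) Q := fun Q hQ =>
    (hs Q hQ).sub_const (ha Q hQ).1 (ha Q hQ).2
  have hrdsub : ∀ Q ∈ A, S.rd (s Q - algebraMap K F (a Q)) = S.rd (s Q) := fun Q hQ => by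
    rw [S.rd_sub (hs Q hQ).isGU.1 (ha Q hQ).1, (ha Q hQ).2, sub_zero]
  set h : Place k F' → F := fun Q => (s Q - algebraMap K F (a Q)) / s Q with hh
  have hhGU : ∀ Q ∈ A, S.IsGU (h Q) := fun Q hQ => (hsub Q hQ).isGU.div (hs Q hQ).isGU
  have hhrd : ∀ Q ∈ A, S.rd (h Q) = 1 := fun Q hQ => by
    rw [(hsub Q hQ).isGU.rd_div (hs Q hQ).isGU, hrdsub Q hQ, div_self (hs Q hQ).isGU.2]
  set Hp : F := ∏ Q ∈ A, h Q with hHp
  have hHGU : S.IsGU Hp := IsGU.prod A h hhGU
  have hHrd : S.rd Hp = 1 := by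
    rw [(S.rd_prod A h fun Q hQ => (hhGU Q hQ).1).2]
    exact Finset.prod_eq_one hhrd
  set f₂ : F := f / Hp ^ m with hf₂
  have hf₂GU : S.IsGU f₂ := hfGU.div (hHGU.pow m)
  have hf₂rd : S.rd f₂ = 1 := by
    rw [hfGU.rd_div (hHGU.pow m), hf1, S.rd_pow hHGU.1, hHrd, one_pow, div_one]
  have hff₂ : f = f₂ * Hp ^ m := by
    rw [hf₂, div_mul_cancel₀ _ (pow_ne_zero _ hHGU.ne_zero)]
  have hord₂ : ∀ Q ∈ A, ∀ P, S.r P = Q → P.ord f₂ = 0 := fun Q hQ P hPQ =>
    S.key_ord hP A s hs hsreg hs0 m f hfGU.ne_zero a ha hord hQ hPQ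
  -- the scale
  set I : Finset F := insert (f₂ - 1) (A.image fun Q => algebraMap K F (a Q)) with hI
  have hImem : ∀ z ∈ I, z ∈ S.V ∧ S.rd z = 0 := by
    intro z hz
    rcases Finset.mem_insert.mp hz with rfl | hz
    · exact ⟨S.V.sub_mem hf₂GU.1 S.V.one_mem, by
        rw [S.rd_sub hf₂GU.1 S.V.one_mem, hf₂rd, S.rd_one, sub_self]⟩
    · obtain ⟨Q, hQ, rfl⟩ := Finset.mem_image.mp hz
      exact ha Q hQ
  by_cases hall : ∀ z ∈ I, z = 0
  · have e1 : f₂ = 1 := sub_eq_zero.mp (hall _ (Finset.mem_insert_self _ _))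
    have e2 : ∀ Q ∈ A, h Q = 1 := by
      intro Q hQ
      have : algebraMap K F (a Q) = 0 :=
        hall _ (Finset.mem_insert_of_mem (Finset.mem_image_of_mem _ hQ))
      simp only [hh, this, sub_zero]
      exact div_self (hs Q hQ).isGU.ne_zero
    rw [hff₂, e1, hHp, Finset.prod_eq_one e2, one_pow, mul_one]
  exfalso
  push Not at hall
  obtain ⟨c, hc, hdV, hdrd, hcI, z₀, hz₀, hz₀GU⟩ := S.exists_scale_max I hImem hall
  have hcF : algebraMap K F c ≠ 0 := (map_ne_zero_iff _ (algebraMap K F).injective).mpr hc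
  have hcd : algebraMap K F c * algebraMap K F c⁻¹ = 1 := by
    rw [← map_mul, mul_inv_cancel₀ hc, map_one]
  set α : F := algebraMap K F c * (f₂ - 1) with hα
  have hαV : α ∈ S.V := hcI _ (Finset.mem_insert_self _ _)
  have hβV : ∀ Q ∈ A, algebraMap K F (c * a Q) ∈ S.V := fun Q hQ => by
    rw [map_mul]
    exact hcI _ (Finset.mem_insert_of_mem (Finset.mem_image_of_mem _ hQ))
  -- the constants `b`
  have hbex : ∀ Q, ∃ b : k, Q ∈ A → S.rd (algebraMap K F (c * a Q)) = algebraMap k F' b := by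
    intro Q
    by_cases hQ : Q ∈ A
    · obtain ⟨b, hb⟩ := S.rd_const_eq (c * a Q) (hβV Q hQ)
      exact ⟨b, fun _ => hb⟩
    · exact ⟨0, fun h => absurd h hQ⟩
  choose b hb using hbex
  set γ : Place k F' → F := fun Q => algebraMap K F (c * a Q) / s Q with hγ
  have hγV : ∀ Q ∈ A, γ Q ∈ S.V := fun Q hQ => by
    simp only [hγ]
    rw [div_eq_mul_inv]
    exact S.V.mul_mem _ _ (hβV Q hQ) (hs Q hQ).isGU.inv_mem
  have hγrd : ∀ Q ∈ A, S.rd (γ Q) = algebraMap k F' (b Q) / S.rd (s Q) := fun Q hQ => by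
    simp only [hγ]
    rw [div_eq_mul_inv, S.rd_mul (hβV Q hQ) (hs Q hQ).isGU.inv_mem, (hs Q hQ).isGU.rd_inv,
      hb Q hQ, div_eq_mul_inv]
  have hhγ : ∀ Q ∈ A, h Q = 1 + algebraMap K F c⁻¹ * (-(γ Q)) := by
    intro Q hQ
    have hne := (hs Q hQ).isGU.ne_zero
    simp only [hh, hγ, map_mul, map_inv₀]
    field_simp
    ring
  have hCongH : Cong S.V (algebraMap K F c⁻¹) (∑ Q ∈ A, -(γ Q)) Hp :=
    Cong.prod hdV A (fun Q => -(γ Q)) h (fun Q hQ => S.V.neg_mem _ (hγV Q hQ))
      (fun Q hQ => by rw [hhγ Q hQ]; exact cong_self _ _)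
  have hsumV : ∑ Q ∈ A, -(γ Q) ∈ S.V :=
    Subring.sum_mem S.V.toSubring fun Q hQ => S.V.neg_mem _ (hγV Q hQ)
  have hCongHm := hCongH.pow hdV hsumV m
  have hf₂α : f₂ = 1 + algebraMap K F c⁻¹ * α := by
    rw [hα]
    linear_combination (1 - f₂) * hcd
  have hCongf₂ : Cong S.V (algebraMap K F c⁻¹) α f₂ := ⟨0, S.V.zero_mem, by
    rw [mul_zero, add_zero]; exact hf₂α⟩
  have hmsumV : (m : F) * ∑ Q ∈ A, -(γ Q) ∈ S.V := S.V.mul_mem _ _ (S.natCast_mem_V m) hsumV
  have hCongf := hCongf₂.mul hdV hαV hmsumV hCongHm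
  rw [← hff₂] at hCongf
  obtain ⟨ρ, hρ, hfρ⟩ := hCongf
  set φ : F := algebraMap K F c * (f - 1) with hφ
  have hφeq : φ = α + (m : F) * ∑ Q ∈ A, -(γ Q) + algebraMap K F c⁻¹ * ρ := by
    rw [hφ]
    linear_combination (algebraMap K F c) * hfρ +
      (α + (m : F) * ∑ Q ∈ A, -(γ Q) + algebraMap K F c⁻¹ * ρ) * hcd
  have hφV : φ ∈ S.V := by
    rw [hφeq]
    exact S.V.add_mem _ _ (S.V.add_mem _ _ hαV hmsumV) (S.V.mul_mem _ _ hdV hρ)
  have hφrd : S.rd φ = S.rd α - (m : F') * ∑ Q ∈ A, algebraMap k F' (b Q) / S.rd (s Q) := by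
    have e1 : ∑ Q ∈ A, S.rd (-(γ Q)) = -∑ Q ∈ A, algebraMap k F' (b Q) / S.rd (s Q) := by
      rw [← Finset.sum_neg_distrib]
      apply Finset.sum_congr rfl
      intro Q hQ
      rw [S.rd_neg (hγV Q hQ), hγrd Q hQ]
    rw [hφeq, S.rd_add (S.V.add_mem _ _ hαV hmsumV) (S.V.mul_mem _ _ hdV hρ),
      S.rd_mul hdV hρ, hdrd, zero_mul, add_zero, S.rd_add hαV hmsumV,
      S.rd_mul (S.natCast_mem_V m) hsumV, S.rd_natCast,
      (S.rd_sum A _ fun Q hQ => S.V.neg_mem _ (hγV Q hQ)).2, e1]
    ring
  -- regularity on the fibres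
  have hφreg0 : ∀ Q, Q ∉ A → RegAt Q (S.rd φ) := by
    intro Q hQ
    apply S.regAt_rd hP hφV
    intro P hPQ
    have h1 : RegAt P f := regAt_of_ord_nonneg (hord0 P (by rw [hPQ]; exact hQ))
    exact ((regAt_algebraMap P c).mul (h1.sub (regAt_one P))).ord_nonneg
  have hαreg : ∀ Q ∈ A, RegAt Q (S.rd α) := by
    intro Q hQ
    apply S.regAt_rd hP hαV
    intro P hPQ
    have h1 : RegAt P f₂ := regAt_of_ord_nonneg (le_of_eq (hord₂ Q hQ P hPQ).symm)
    exact ((regAt_algebraMap P c).mul (h1.sub (regAt_one P))).ord_nonneg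
  have hφinf : VanAt (S.r Pinf) (S.rd φ) := by
    refine S.vanAt_rd hP hφV (X := Pinf) ?_ rfl ((regAt_algebraMap Pinf c).mul_vanAt hfinf)
    intro P hPQ
    have h1 : RegAt P f := regAt_of_ord_nonneg (hord0 P (by rw [hPQ]; exact hPinf))
    exact ((regAt_algebraMap P c).mul (h1.sub (regAt_one P))).ord_nonneg
  obtain ⟨hα0, hb0⟩ := pole_analysis A hA (fun Q => S.rd (s Q))
    (fun Q hQ => (hs Q hQ).ord_one) hs0 m hm b (S.rd α) hαreg (S.rd φ) hφrd hφreg0
    (S.r Pinf) hφinf
  -- contradiction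
  rcases Finset.mem_insert.mp hz₀ with rfl | hz
  · exact hz₀GU.2 hα0
  · obtain ⟨Q, hQ, rfl⟩ := Finset.mem_image.mp hz
    apply hz₀GU.2
    rw [← map_mul, hb Q hQ, hb0 Q hQ, map_zero]

end RedSetup

end Fermat.Agent.RED.H17

end
end
-- ==== END Fermat.Agent.RED.H17_Key

-- ==== BEGIN Fermat.Agent.RED.H34_Bbar
section

/-!
# G-RED package IG (helper34): the reduced order `Bbar = red (B ∩ V)`

* `exists_basis_of_le_integralClosure` : a full lattice in the integral closure over a PID has a basis.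
* `RedSetting.Bbar` : `red (B ∩ V)` as a `k[xt]`-submodule of `Ft`; it consists of integral elements
  and spans `Ft` over `k(xt)`.
-/

set_option autoImplicit false

noncomputable section

open Polynomial IntermediateField Module
open scoped IntermediateField.algebraAdjoinAdjoin nonZeroDivisors

namespace Fermat.Agent.RED.H34

/-- A full `R`-lattice inside the integral closure has an `R`-basis which is a `K`-basis. -/
theorem exists_basis_of_le_integralClosure {R K L : Type} [CommRing R] [IsDomain R]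
    [IsPrincipalIdealRing R] [Field K] [Field L] [Algebra R K] [IsFractionRing R K] [Algebra K L]
    [Algebra R L] [IsScalarTower R K L] [FiniteDimensional K L] [Algebra.IsSeparable K L]
    (N : Submodule R L) (hN : ∀ y ∈ N, IsIntegral R y)
    (hspan : ∀ y : L, ∃ q : R, q ≠ 0 ∧ q • y ∈ N) :
    ∃ (m : ℕ) (b : Module.Basis (Fin m) K L), (∀ i, b i ∈ N) ∧
      ∀ y ∈ N, y ∈ Submodule.span R (Set.range b) := by
  classical
  have hinj : Function.Injective (algebraMap R L) := by
    rw [IsScalarTower.algebraMap_eq R K L]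
    exact (algebraMap K L).injective.comp (IsFractionRing.injective R K)
  have htf : Module.IsTorsionFree R L := by
    rw [Module.isTorsionFree_iff_algebraMap_injective]
    exact hinj
  have hfree : Module.Free R (integralClosure R L) :=
    IsIntegralClosure.module_free R K L (integralClosure R L)
  have hfin : Module.Finite R (integralClosure R L) :=
    IsIntegralClosure.finite R K L (integralClosure R L)
  let c := Module.Free.chooseBasis R (integralClosure R L)
  have hle : N ≤ Subalgebra.toSubmodule (integralClosure R L) := fun y hy => hN y hy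
  obtain ⟨m, bN⟩ := Submodule.basisOfPidOfLE hle
    (c.map (LinearEquiv.refl R _) : Module.Basis _ R ↥(Subalgebra.toSubmodule (integralClosure R L)))
  let β : Fin m → L := fun i => (bN i : L)
  have hlinR : LinearIndependent R β :=
    bN.linearIndependent.map' N.subtype (Submodule.ker_subtype N)
  have hlinK : LinearIndependent K β := (LinearIndependent.iff_fractionRing R K).1 hlinR
  have hNspan : ∀ y ∈ N, y ∈ Submodule.span R (Set.range β) := by
    intro y hy
    have h1 := bN.sum_repr ⟨y, hy⟩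
    have h2 := congrArg (fun z : ↥N => (z : L)) h1
    simp only [AddSubmonoidClass.coe_finsetSum, Submodule.coe_smul] at h2
    rw [← h2]
    exact Submodule.sum_mem _ fun i _ => Submodule.smul_mem _ _ (Submodule.subset_span ⟨i, rfl⟩)
  have hKspan : ⊤ ≤ Submodule.span K (Set.range β) := by
    intro y _
    obtain ⟨q, hq, hqy⟩ := hspan y
    have h1 : q • y ∈ Submodule.span K (Set.range β) := by
      have := hNspan _ hqy
      exact Submodule.span_subset_span R K _ this
    have hq' : algebraMap R K q ≠ 0 := by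
      intro h0
      exact hq ((IsFractionRing.injective R K) (h0.trans (map_zero _).symm))
    have h2 : y = (algebraMap R K q)⁻¹ • (q • y) := by
      rw [← algebraMap_smul K q y, smul_smul, inv_mul_cancel₀ hq', one_smul]
    rw [h2]
    exact Submodule.smul_mem _ _ h1
  refine ⟨m, Module.Basis.mk hlinK hKspan, ?_, ?_⟩
  · intro i
    rw [Module.Basis.mk_apply]
    exact (bN i).2
  · intro y hy
    rw [Module.Basis.coe_mk]
    exact hNspan y hy

variable {C F k Ft : Type} [Field C] [Field F] [Algebra C F] [Field k] [Field Ft] [Algebra k Ft]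

namespace RedSetting

variable {S : RedSetting C F k Ft} {x : F} (hx : x ∈ S.V)

theorem psiT_surjective : Function.Surjective (S.psiT hx) := by
  intro r
  obtain ⟨r, hr⟩ := r
  rw [Algebra.adjoin_singleton_eq_range_aeval] at hr
  obtain ⟨pbar, rfl⟩ := hr
  obtain ⟨p₀, rfl⟩ := Polynomial.map_surjective S.resO S.resO_surj pbar
  refine ⟨p₀, ?_⟩
  apply Subtype.ext
  rw [coe_psiT, red_psi]
  rfl

theorem psi_isIntegral (p₀ : (↥S.O)[X]) :
    IsIntegral ↥(Algebra.adjoin C {x}) ((psi hx p₀ : ↥S.V) : F) := by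
  rw [coe_psi]
  have : Polynomial.aeval x (p₀.map S.O.subtype) ∈ Algebra.adjoin C {x} := by
    rw [Algebra.adjoin_singleton_eq_range_aeval]
    exact ⟨_, rfl⟩
  exact isIntegral_algebraMap (R := ↥(Algebra.adjoin C {x})) (A := F) (x := ⟨_, this⟩)

/-- `Bbar = red (B ∩ V)` as a `k[xt]`-submodule of `Ft`. -/
def Bbar (S : RedSetting C F k Ft) (hx : x ∈ S.V) :
    Submodule ↥(Algebra.adjoin k {S.red ⟨x, hx⟩}) Ft where
  carrier := {y | ∃ (f : F) (hf : f ∈ S.V), IsIntegral ↥(Algebra.adjoin C {x}) f ∧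
    S.red ⟨f, hf⟩ = y}
  add_mem' := by
    rintro _ _ ⟨f, hf, hfi, rfl⟩ ⟨g, hg, hgi, rfl⟩
    exact ⟨f + g, add_mem hf hg, hfi.add hgi, map_add S.red ⟨f, hf⟩ ⟨g, hg⟩⟩
  zero_mem' := ⟨0, zero_mem _, isIntegral_zero, map_zero S.red⟩
  smul_mem' := by
    rintro r _ ⟨f, hf, hfi, rfl⟩
    obtain ⟨p₀, rfl⟩ := psiT_surjective hx r
    refine ⟨((psi hx p₀ : ↥S.V) : F) * f, mul_mem (psi hx p₀).2 hf,
      (psi_isIntegral hx p₀).mul hfi, ?_⟩
    rw [Algebra.smul_def]
    show S.red (psi hx p₀ * ⟨f, hf⟩) = ((S.psiT hx p₀ : ↥(Algebra.adjoin k {S.red ⟨x, hx⟩})) : Ft) * _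
    rw [map_mul, coe_psiT]

theorem mem_Bbar (y : Ft) : y ∈ S.Bbar hx ↔ ∃ (f : F) (hf : f ∈ S.V),
    IsIntegral ↥(Algebra.adjoin C {x}) f ∧ S.red ⟨f, hf⟩ = y := Iff.rfl

theorem Bbar_isIntegral [CharZero C] (hxt : Transcendental k (S.red ⟨x, hx⟩))
    [FiniteDimensional ↥C⟮x⟯ F]
    (hdeg : Module.finrank ↥k⟮S.red ⟨x, hx⟩⟯ Ft = Module.finrank ↥C⟮x⟯ F)
    (y : Ft) (hy : y ∈ S.Bbar hx) : IsIntegral ↥(Algebra.adjoin k {S.red ⟨x, hx⟩}) y := by
  obtain ⟨f, hf, hfi, rfl⟩ := hy
  exact red_isIntegral hx hxt hdeg f hfi hf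

theorem Bbar_span (hxt : Transcendental k (S.red ⟨x, hx⟩)) [FiniteDimensional ↥C⟮x⟯ F] (y : Ft) :
    ∃ q : ↥(Algebra.adjoin k {S.red ⟨x, hx⟩}), q ≠ 0 ∧ q • y ∈ S.Bbar hx := by
  obtain ⟨f, rfl⟩ := S.red_surj y
  have hxC := transcendental_x hx hxt
  have halg : IsAlgebraic ↥(Algebra.adjoin C {x}) ((f : ↥S.V) : F) := by
    rw [IsFractionRing.isAlgebraic_iff ↥(Algebra.adjoin C {x}) ↥C⟮x⟯ F]
    exact Algebra.IsAlgebraic.isAlgebraic _
  obtain ⟨r, hr0, hri⟩ := halg.exists_integral_multiple
  obtain ⟨p, rfl⟩ := (polyEquiv hxC).surjective r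
  have hp : p ≠ 0 := by
    rintro rfl
    exact hr0 (map_zero _)
  obtain ⟨c, hc, p₀, hne, hu, hp₀, he⟩ := exists_decomp hx hxt p hp
  have h1 : ((psi hx p₀ : ↥S.V) : F) * (f : F) =
      algebraMap C F c⁻¹ * ((polyEquiv hxC p) • ((f : ↥S.V) : F)) := by
    rw [Algebra.smul_def]
    show _ = _ * (((polyEquiv hxC p : ↥(Algebra.adjoin C {x})) : F) * _)
    rw [coe_polyEquiv, he, map_inv₀]
    have hc' : algebraMap C F c ≠ 0 := fun h => hc ((map_eq_zero _).1 h)
    field_simp
  refine ⟨S.psiT hx p₀, ?_, ((psi hx p₀ : ↥S.V) : F) * (f : F), mul_mem (psi hx p₀).2 f.2, ?_, ?_⟩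
  · intro h0
    have h2 := congrArg (fun z : ↥(Algebra.adjoin k {S.red ⟨x, hx⟩}) => (z : Ft)) h0
    simp only [coe_psiT] at h2
    exact (S.red_eq_zero_iff _).1 h2 hu
  · rw [h1]
    have : IsIntegral ↥(Algebra.adjoin C {x}) (algebraMap C F c⁻¹) := by
      have hm : algebraMap C F c⁻¹ ∈ Algebra.adjoin C {x} := Subalgebra.algebraMap_mem _ _
      exact isIntegral_algebraMap (R := ↥(Algebra.adjoin C {x})) (A := F) (x := ⟨_, hm⟩)
    exact this.mul hri
  · rw [Algebra.smul_def]
    show S.red (psi hx p₀ * f) = ((S.psiT hx p₀ : ↥(Algebra.adjoin k {S.red ⟨x, hx⟩})) : Ft) * _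
    rw [map_mul, coe_psiT]

end RedSetting

end Fermat.Agent.RED.H34

end
end
-- ==== END Fermat.Agent.RED.H34_Bbar

-- ==== BEGIN Fermat.Agent.RED.H42_Gen2
section

/-!
# G-RED package GEN (helper42), part 2: polynomial spans and the witness lemma

`GSpan C x e b` : `b = ∑ p i (x) * e i` with `p i ∈ C[X]`.
`exists_witness` : if `e` is a `C(x)`-basis of `F` and `b ∉ GSpan e`, there are `a ∈ C`, constants
`h i ∈ O` with `h i₀ = 1` and `b' ∉ GSpan e` with `(x - a) b' = ∑ h i * e i`.
-/

set_option autoImplicit false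

noncomputable section

open Polynomial IntermediateField Module

namespace Fermat.Agent.RED.H42

open Fermat.Agent.RED.H34 Fermat.Agent.RED.H34.RedSetting

variable {C F : Type} [Field C] [Field F] [Algebra C F]

/-- `b` is a polynomial combination of the `e i`. -/
def GSpan (C : Type) {F : Type} [Field C] [Field F] [Algebra C F] (x : F) {ι : Type} [Fintype ι]
    (e : ι → F) (b : F) : Prop :=
  ∃ p : ι → C[X], b = ∑ i, Polynomial.aeval x (p i) * e i

section GSpan

variable {x : F} {ι : Type} [Fintype ι] {e : ι → F}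

theorem GSpan.zero : GSpan C x e 0 := ⟨fun _ => 0, by simp⟩

theorem GSpan.add {b b' : F} (hb : GSpan C x e b) (hb' : GSpan C x e b') :
    GSpan C x e (b + b') := by
  obtain ⟨p, rfl⟩ := hb
  obtain ⟨p', rfl⟩ := hb'
  refine ⟨fun i => p i + p' i, ?_⟩
  rw [← Finset.sum_add_distrib]
  refine Finset.sum_congr rfl fun i _ => ?_
  rw [map_add, add_mul]

theorem GSpan.aeval_mul {b : F} (hb : GSpan C x e b) (q : C[X]) :
    GSpan C x e (Polynomial.aeval x q * b) := by
  obtain ⟨p, rfl⟩ := hb
  refine ⟨fun i => q * p i, ?_⟩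
  rw [Finset.mul_sum]
  refine Finset.sum_congr rfl fun i _ => ?_
  rw [map_mul, mul_assoc]

theorem GSpan.const_mul {b : F} (hb : GSpan C x e b) (c : C) :
    GSpan C x e (algebraMap C F c * b) := by
  have := hb.aeval_mul (Polynomial.C c)
  rwa [Polynomial.aeval_C] at this

theorem GSpan.neg {b : F} (hb : GSpan C x e b) : GSpan C x e (-b) := by
  have := hb.const_mul (-1)
  rwa [map_neg, map_one, neg_one_mul] at this

theorem GSpan.sub {b b' : F} (hb : GSpan C x e b) (hb' : GSpan C x e b') :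
    GSpan C x e (b - b') := by
  rw [sub_eq_add_neg]
  exact hb.add hb'.neg

theorem GSpan.self (i : ι) : GSpan C x e (e i) := by
  classical
  refine ⟨fun j => if j = i then 1 else 0, ?_⟩
  rw [Finset.sum_eq_single i]
  · simp
  · intro j _ hj
    simp [hj]
  · intro h
    exact absurd (Finset.mem_univ i) h

theorem GSpan.sum_mul (p : ι → C[X]) : GSpan C x e (∑ i, Polynomial.aeval x (p i) * e i) :=
  ⟨p, rfl⟩

theorem GSpan.isIntegral {b : F} (hb : GSpan C x e b)
    (he : ∀ i, IsIntegral ↥(Algebra.adjoin C {x}) (e i)) :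
    IsIntegral ↥(Algebra.adjoin C {x}) b := by
  obtain ⟨p, rfl⟩ := hb
  refine IsIntegral.sum _ fun i _ => IsIntegral.mul ?_ (he i)
  have : Polynomial.aeval x (p i) ∈ Algebra.adjoin C {x} := by
    rw [Algebra.adjoin_singleton_eq_range_aeval]
    exact ⟨p i, rfl⟩
  exact isIntegral_algebraMap (x := (⟨_, this⟩ : ↥(Algebra.adjoin C {x})))

theorem isIntegral_aeval_mul {b : F} (hb : IsIntegral ↥(Algebra.adjoin C {x}) b) (q : C[X]) :
    IsIntegral ↥(Algebra.adjoin C {x}) (Polynomial.aeval x q * b) := by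
  refine IsIntegral.mul ?_ hb
  have : Polynomial.aeval x q ∈ Algebra.adjoin C {x} := by
    rw [Algebra.adjoin_singleton_eq_range_aeval]
    exact ⟨q, rfl⟩
  exact isIntegral_algebraMap (x := (⟨_, this⟩ : ↥(Algebra.adjoin C {x})))

/-- Every element of the `C(x)`-span of `e` has a nonzero polynomial multiple in `GSpan e`. -/
theorem exists_mul_gspan (hxC : Transcendental C x) (b : F)
    (hb : b ∈ Submodule.span ↥C⟮x⟯ (Set.range e)) :
    ∃ g : C[X], g ≠ 0 ∧ GSpan C x e (Polynomial.aeval x g * b) := by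
  induction hb using Submodule.span_induction with
  | mem y hy =>
    obtain ⟨i, rfl⟩ := hy
    exact ⟨1, one_ne_zero, by rw [map_one, one_mul]; exact GSpan.self i⟩
  | zero => exact ⟨1, one_ne_zero, by rw [mul_zero]; exact GSpan.zero⟩
  | add y z _ _ hy hz =>
    obtain ⟨g, hg, hgy⟩ := hy
    obtain ⟨g', hg', hgz⟩ := hz
    refine ⟨g * g', mul_ne_zero hg hg', ?_⟩
    rw [map_mul, mul_add]
    refine GSpan.add ?_ ?_
    · have := hgy.aeval_mul g'
      rwa [← mul_assoc, mul_comm (Polynomial.aeval x g') (Polynomial.aeval x g)] at this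
    · have := hgz.aeval_mul g
      rwa [← mul_assoc] at this
  | smul r y _ hy =>
    obtain ⟨g, hg, hgy⟩ := hy
    obtain ⟨p, q, hpq⟩ := (IntermediateField.mem_adjoin_simple_iff C (r : F)).1 r.2
    by_cases hq : q = 0
    · refine ⟨1, one_ne_zero, ?_⟩
      have : r • y = 0 := by
        rw [IntermediateField.smul_def, smul_eq_mul, hpq, hq, map_zero, div_zero, zero_mul]
      rw [this, mul_zero]
      exact GSpan.zero
    · have hq0 : Polynomial.aeval x q ≠ 0 := fun h => hq ((transcendental_iff.1 hxC) q h)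
      refine ⟨q * g, mul_ne_zero hq hg, ?_⟩
      have : Polynomial.aeval x (q * g) * r • y =
          Polynomial.aeval x p * (Polynomial.aeval x g * y) := by
        rw [IntermediateField.smul_def, smul_eq_mul, hpq, map_mul]
        field_simp
      rw [this]
      exact hgy.aeval_mul p

end GSpan

section Witness

variable {x : F} {ι : Type} [Fintype ι] {e : ι → F}

theorem exists_prime_witness_aux [IsAlgClosed C] (n : ℕ) : ∀ (g : C[X]) (b : F),
    g.natDegree = n → g ≠ 0 →
    IsIntegral ↥(Algebra.adjoin C {x}) b → ¬ GSpan C x e b →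
    GSpan C x e (Polynomial.aeval x g * b) →
    ∃ (a : C) (b' : F), IsIntegral ↥(Algebra.adjoin C {x}) b' ∧ ¬ GSpan C x e b' ∧
      GSpan C x e ((x - algebraMap C F a) * b') := by
  induction n with
  | zero =>
    intro g b hdeg hg hb hnb hgb
    exfalso
    obtain ⟨c, rfl⟩ := Polynomial.natDegree_eq_zero.1 hdeg
    have hc : c ≠ 0 := fun h => hg (by rw [h, map_zero])
    rw [Polynomial.aeval_C] at hgb
    have := hgb.const_mul c⁻¹
    rw [← mul_assoc, ← map_mul, inv_mul_cancel₀ hc, map_one, one_mul] at this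
    exact hnb this
  | succ n ih =>
    intro g b hdeg hg hb hnb hgb
    have hd : g.degree ≠ 0 := by
      intro h
      have h1 : g.natDegree = 0 := Polynomial.natDegree_eq_of_degree_eq_some h
      rw [hdeg] at h1
      exact Nat.succ_ne_zero n h1
    obtain ⟨a, ha⟩ := IsAlgClosed.exists_root g hd
    have hfac := Polynomial.mul_divByMonic_eq_iff_isRoot.2 ha
    have hg' : g /ₘ (Polynomial.X - Polynomial.C a) ≠ 0 := by
      intro h
      rw [h, mul_zero] at hfac
      exact hg hfac.symm
    have hdeg' : (g /ₘ (Polynomial.X - Polynomial.C a)).natDegree = n := by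
      rw [Polynomial.natDegree_divByMonic _ (Polynomial.monic_X_sub_C a),
        Polynomial.natDegree_X_sub_C, hdeg]
      rfl
    have hmul : (x - algebraMap C F a) *
        (Polynomial.aeval x (g /ₘ (Polynomial.X - Polynomial.C a)) * b) =
        Polynomial.aeval x g * b := by
      conv_rhs => rw [← hfac]
      rw [map_mul, map_sub, Polynomial.aeval_X, Polynomial.aeval_C, mul_assoc]
    by_cases hsp : GSpan C x e (Polynomial.aeval x (g /ₘ (Polynomial.X - Polynomial.C a)) * b)
    · exact ih _ b hdeg' hg' hb hnb hsp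
    · exact ⟨a, _, isIntegral_aeval_mul hb _, hsp, by rw [hmul]; exact hgb⟩

theorem exists_const_witness {a : C} {b : F} (he : ∀ i, IsIntegral ↥(Algebra.adjoin C {x}) (e i))
    (hb : IsIntegral ↥(Algebra.adjoin C {x}) b) (hnb : ¬ GSpan C x e b)
    (hab : GSpan C x e ((x - algebraMap C F a) * b)) :
    ∃ (b' : F) (h : ι → C), IsIntegral ↥(Algebra.adjoin C {x}) b' ∧ ¬ GSpan C x e b' ∧
      (x - algebraMap C F a) * b' = ∑ i, algebraMap C F (h i) * e i := by
  obtain ⟨p, hp⟩ := hab
  refine ⟨b - ∑ i, Polynomial.aeval x (p i /ₘ (Polynomial.X - Polynomial.C a)) * e i,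
    fun i => (p i).eval a, ?_, ?_, ?_⟩
  · exact IsIntegral.sub hb ((GSpan.sum_mul _).isIntegral he)
  · intro h
    apply hnb
    have := h.add (GSpan.sum_mul (x := x) (e := e)
      (fun i => p i /ₘ (Polynomial.X - Polynomial.C a)))
    simpa using this
  · rw [mul_sub, hp, Finset.mul_sum, ← Finset.sum_sub_distrib]
    refine Finset.sum_congr rfl fun i _ => ?_
    have h1 := Polynomial.modByMonic_add_div (p i) (Polynomial.X - Polynomial.C a)
    rw [Polynomial.modByMonic_X_sub_C_eq_C_eval] at h1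
    have h2 := congrArg (Polynomial.aeval x) h1
    simp only [map_add, map_mul, map_sub, Polynomial.aeval_X, Polynomial.aeval_C] at h2
    rw [← h2]
    ring

theorem exists_unit_witness (O : ValuationSubring C) {a : C} {b : F} {h : ι → C}
    (hxa : x - algebraMap C F a ≠ 0)
    (hb : IsIntegral ↥(Algebra.adjoin C {x}) b) (hnb : ¬ GSpan C x e b)
    (hab : (x - algebraMap C F a) * b = ∑ i, algebraMap C F (h i) * e i) :
    ∃ (b' : F) (h' : ι → ↥O) (i₀ : ι), IsIntegral ↥(Algebra.adjoin C {x}) b' ∧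
      ¬ GSpan C x e b' ∧ h' i₀ = 1 ∧
      (x - algebraMap C F a) * b' = ∑ i, algebraMap C F (h' i : C) * e i := by
  classical
  have hex : ∃ i, h i ≠ 0 := by
    by_contra hno
    push Not at hno
    have h0 : (x - algebraMap C F a) * b = 0 := by
      rw [hab]
      exact Finset.sum_eq_zero fun i _ => by rw [hno i, map_zero, zero_mul]
    rcases mul_eq_zero.1 h0 with h1 | h1
    · exact hxa h1
    · exact hnb (h1 ▸ GSpan.zero)
  obtain ⟨i₁, hi₁⟩ := hex
  obtain ⟨i₀, -, hmax⟩ := Finset.exists_max_image (Finset.univ : Finset ι)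
    (fun i => O.valuation (h i)) ⟨i₁, Finset.mem_univ i₁⟩
  have hv1 : O.valuation (h i₁) ≠ 0 := (Valuation.ne_zero_iff _).2 hi₁
  have hv0 : O.valuation (h i₀) ≠ 0 := by
    intro h0
    have := hmax i₁ (Finset.mem_univ i₁)
    rw [h0] at this
    exact hv1 (le_antisymm this zero_le)
  have hc : h i₀ ≠ 0 := (Valuation.ne_zero_iff _).1 hv0
  have hall : ∀ i, h i / h i₀ ∈ O := by
    intro i
    rw [← O.valuation_le_one_iff, map_div₀, div_le_one₀ (zero_lt_iff.2 hv0)]
    exact hmax i (Finset.mem_univ i)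
  refine ⟨algebraMap C F (h i₀)⁻¹ * b, fun i => ⟨h i / h i₀, hall i⟩, i₀, ?_, ?_, ?_, ?_⟩
  · have := isIntegral_aeval_mul hb (Polynomial.C (h i₀)⁻¹)
    rwa [Polynomial.aeval_C] at this
  · intro hsp
    apply hnb
    have := hsp.const_mul (h i₀)
    rwa [← mul_assoc, ← map_mul, mul_inv_cancel₀ hc, map_one, one_mul] at this
  · apply Subtype.ext
    exact div_self hc
  · rw [mul_left_comm, hab, Finset.mul_sum]
    refine Finset.sum_congr rfl fun i _ => ?_
    rw [← mul_assoc, ← map_mul, inv_mul_eq_div]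

/-- **Witness lemma.** -/
theorem exists_witness [IsAlgClosed C] (O : ValuationSubring C) (hxC : Transcendental C x)
    (he : ∀ i, IsIntegral ↥(Algebra.adjoin C {x}) (e i))
    (hspan : ⊤ ≤ Submodule.span ↥C⟮x⟯ (Set.range e))
    {b : F} (hb : IsIntegral ↥(Algebra.adjoin C {x}) b) (hnb : ¬ GSpan C x e b) :
    ∃ (a : C) (b' : F) (h' : ι → ↥O) (i₀ : ι), IsIntegral ↥(Algebra.adjoin C {x}) b' ∧
      ¬ GSpan C x e b' ∧ h' i₀ = 1 ∧
      (x - algebraMap C F a) * b' = ∑ i, algebraMap C F (h' i : C) * e i := by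
  obtain ⟨g, hg, hgb⟩ := exists_mul_gspan hxC b (hspan Submodule.mem_top)
  obtain ⟨a, b₁, hb₁, hnb₁, hab₁⟩ := exists_prime_witness_aux _ g b rfl hg hb hnb hgb
  obtain ⟨b₂, h, hb₂, hnb₂, hab₂⟩ := exists_const_witness he hb₁ hnb₁ hab₁
  have hxa : x - algebraMap C F a ≠ 0 := by
    intro h0
    have : Polynomial.aeval x (Polynomial.X - Polynomial.C a) = 0 := by
      rw [map_sub, Polynomial.aeval_X, Polynomial.aeval_C, h0]
    exact Polynomial.X_sub_C_ne_zero a ((transcendental_iff.1 hxC) _ this)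
  obtain ⟨b₃, h', i₀, hb₃, hnb₃, hi₀, hab₃⟩ := exists_unit_witness O hxa hb₂ hnb₂ hab₂
  exact ⟨a, b₃, h', i₀, hb₃, hnb₃, hi₀, hab₃⟩

end Witness

section Repl

variable {A : Type*} [CommRing A] {ι : Type} [Fintype ι] [DecidableEq ι]

theorem gen_repl2 (r h l : ι → A) (i₀ : ι) :
    ∑ i, l i * (Function.update r i₀ (∑ j, h j * r j)) i =
      ∑ j, ((if j = i₀ then 0 else l j) + l i₀ * h j) * r j := by
  have h1 : ∀ i, l i * (Function.update r i₀ (∑ j, h j * r j)) i =
      (if i = i₀ then 0 else l i) * r i + (if i = i₀ then l i₀ * ∑ j, h j * r j else 0) := by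
    intro i
    by_cases hi : i = i₀
    · subst hi
      simp
    · simp [hi]
  rw [Finset.sum_congr rfl fun i _ => h1 i, Finset.sum_add_distrib, Finset.sum_ite_eq']
  simp only [Finset.mem_univ, if_true]
  rw [Finset.mul_sum, ← Finset.sum_add_distrib]
  refine Finset.sum_congr rfl fun j _ => ?_
  ring

theorem gen_repl1 (r h c : ι → A) (i₀ : ι) (hi₀ : h i₀ = 1) :
    ∑ i, c i * r i =
      ∑ i, (if i = i₀ then c i₀ else c i - c i₀ * h i) *
        (Function.update r i₀ (∑ j, h j * r j)) i := by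
  rw [gen_repl2]
  refine Finset.sum_congr rfl fun j _ => ?_
  by_cases hj : j = i₀
  · subst hj
    simp [hi₀]
  · simp [hj]

end Repl

end Fermat.Agent.RED.H42

end
end
-- ==== END Fermat.Agent.RED.H42_Gen2

-- ==== BEGIN Fermat.Agent.RED.H42_Lat3
section
attribute [local instance 10000] SubalgebraClass.toAlgebra
attribute [local instance 10000] HahnSeries.powerSeriesAlgebra

/-!
# G-RED package LAT (helper42), part 3: lattices in the function field `F`

Setting of package GA (helper73): `F : IntermediateField C (LaurentSeries C)`, `h : HasScale O F`,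
`V = gaussValSub O F h`, `res = gaussResF' O h : V →+* redField O F h`.

If moreover `F` consists of fractions of a scalable subalgebra (`FracScalable O F`; true for
`F = C(S)`, `S ⊆ IntSpan C`, in particular for the modular function fields), then for every
finite-dimensional `C`-subspace `W` of `F`:

* `exists_isOrthonormalF`: `W ∩ V` is a free `O`-module on a basis `e_i` whose reductions are
  linearly independent over `k`, and `res (Σ d_i e_i) = Σ res(d_i) res(e_i)`;
* `finrank_redSubF`: `dim_k res(W ∩ V) = dim_C W`.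
-/

set_option autoImplicit false
set_option synthInstance.maxHeartbeats 400000
set_option maxHeartbeats 1000000

open ModularCurve Fermat.Agent.S28 Fermat.Agent.S28.H73 Fermat.Agent.RED.H73

noncomputable section

namespace Fermat.Agent.RED.H42

variable {C : Type} [Field C] (O : ValuationSubring C)

/-! ## Fields of fractions of scalable algebras -/

/-- `F` consists of fractions of elements of a scalable subalgebra of `C((t))`. -/
def FracScalable (F : IntermediateField C (LaurentSeries C)) : Prop :=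
  ∃ R : Subalgebra C (LaurentSeries C), ScalableAlg O R ∧
    ∀ x ∈ F, ∃ b ∈ R, b ≠ 0 ∧ b * x ∈ R

theorem scalableAlg_intSpan : ScalableAlg O (IntSpan C) :=
  fun _ hx hx0 => exists_primSeries_scale O hx hx0

theorem fracScalable_adjoin {S : Set (LaurentSeries C)}
    (hS : S ⊆ (IntSpan C : Set (LaurentSeries C))) :
    FracScalable O (IntermediateField.adjoin C S) := by
  refine ⟨IntSpan C, scalableAlg_intSpan O, fun x hx => ?_⟩
  obtain ⟨a, ha, b, hb, rfl⟩ := IntermediateField.mem_adjoin_iff_div.1 hx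
  have hle : Algebra.adjoin C S ≤ IntSpan C := Algebra.adjoin_le hS
  by_cases hb0 : b = 0
  · refine ⟨1, (IntSpan C).one_mem, one_ne_zero, ?_⟩
    rw [hb0, div_zero, mul_zero]
    exact (IntSpan C).zero_mem
  · refine ⟨b, hle hb, hb0, ?_⟩
    rw [mul_div_cancel₀ _ hb0]
    exact hle ha

theorem FracScalable.mono {F F' : IntermediateField C (LaurentSeries C)}
    (h : FracScalable O F') (hle : F ≤ F') : FracScalable O F := by
  obtain ⟨R, hR, hF⟩ := h
  exact ⟨R, hR, fun x hx => hF x (hle hx)⟩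

theorem fracScalable_fullC {L : Type} [Field L] (A : ValuationSubring L) (N : ℕ) :
    FracScalable A (modularFunctionFieldFullC L N) :=
  fracScalable_adjoin A (divisorExpansionsC_subset_intSpan N)

theorem fracScalable_laurentBaseChange {L : Type} [Field L] [Algebra ℚ L]
    (A : ValuationSubring L) (N : ℕ) :
    FracScalable A (laurentBaseChange L (modularFunctionFieldFull N)) := by
  rw [laurentBaseChange_full_eq]
  exact fracScalable_fullC A N

/-! ## From `F` to series -/

/-- The inclusion of an intermediate field of `K((t))`, as a `K`-linear map. -/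
def valL {K : Type} [Field K] (E : IntermediateField K (LaurentSeries K)) :
    ↥E →ₗ[K] LaurentSeries K where
  toFun x := (x : LaurentSeries K)
  map_add' _ _ := rfl
  map_smul' c x := by
    rw [RingHom.id_apply, ← HahnSeries.C_mul_eq_smul, C_eq_algebraMap, Algebra.smul_def]
    rfl

@[simp] theorem valL_apply {K : Type} [Field K] (E : IntermediateField K (LaurentSeries K))
    (x : ↥E) : valL E x = (x : LaurentSeries K) := rfl

theorem valL_injective {K : Type} [Field K] (E : IntermediateField K (LaurentSeries K)) :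
    Function.Injective (valL E) := fun _ _ hxy => Subtype.ext hxy

variable {F : IntermediateField C (LaurentSeries C)}

/-- The image of a subspace of `F` in `C((t))`. -/
def toSeries (W : Submodule C ↥F) : Submodule C (LaurentSeries C) := W.map (valL F)

theorem mem_toSeries {W : Submodule C ↥F} {y : LaurentSeries C} :
    y ∈ toSeries W ↔ ∃ x ∈ W, ((x : ↥F) : LaurentSeries C) = y := by
  rw [toSeries, Submodule.mem_map]
  rfl

theorem finrank_toSeries (W : Submodule C ↥F) :
    Module.finrank C (toSeries W) = Module.finrank C W :=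
  (Submodule.equivMapOfInjective _ (valL_injective F) W).finrank_eq.symm

instance finiteDimensional_toSeries (W : Submodule C ↥F) [FiniteDimensional C W] :
    FiniteDimensional C (toSeries W) := by
  unfold toSeries
  infer_instance

/-! ## Orthonormal bases in `F` -/

theorem IsOrthonormal.cast {W : Submodule C (LaurentSeries C)} {n m : ℕ} (hnm : m = n)
    {e : Fin n → gaussRingV O} (he : IsOrthonormal O W e) :
    IsOrthonormal O W (fun i : Fin m => e (Fin.cast hnm i)) := by
  subst hnm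
  exact he

/-- An **orthonormal basis** of the subspace `W` of `F` with respect to the Gauss valuation:
`e_i ∈ W ∩ V` with linearly independent reductions, such that every element of `W ∩ V` is an
`O`-combination `Σ d_i e_i`, with reduction `Σ res(d_i) res(e_i)`. -/
structure IsOrthonormalF (h : HasScale O F) (W : Submodule C ↥F) {n : ℕ}
    (e : Fin n → ↥(gaussValSub O F h)) : Prop where
  mem : ∀ i, ((e i : ↥(gaussValSub O F h)) : ↥F) ∈ W
  indep : LinearIndependent (kV O) (fun i => gaussResF' O h (e i))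
  repr : ∀ x : ↥(gaussValSub O F h), (x : ↥F) ∈ W → ∃ d : Fin n → ↥O,
    (x : ↥F) = ∑ i, ((d i : ↥O) : C) • ((e i : ↥(gaussValSub O F h)) : ↥F) ∧
    gaussResF' O h x = ∑ i, resV O (d i) • gaussResF' O h (e i)

theorem coe_sum_smul {n : ℕ} (c : Fin n → C) (w : Fin n → ↥F) :
    ((∑ i, c i • w i : ↥F) : LaurentSeries C) = ∑ i, c i • ((w i : ↥F) : LaurentSeries C) := by
  have := map_sum (valL F) (fun i => c i • w i) Finset.univ
  simp only [map_smul, valL_apply] at this
  exact this

theorem coe_sum_smul_red (h : HasScale O F) {n : ℕ} (a : Fin n → kV O)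
    (y : Fin n → ↥(redField O F h)) :
    ((∑ i, a i • y i : ↥(redField O F h)) : LaurentSeries (kV O))
      = ∑ i, a i • ((y i : ↥(redField O F h)) : LaurentSeries (kV O)) := by
  have := map_sum (valL (redField O F h)) (fun i => a i • y i) Finset.univ
  simp only [map_smul, valL_apply] at this
  exact this

/-- **LAT**: orthonormal bases of finite-dimensional subspaces of `F`. -/
theorem exists_isOrthonormalF (hF : FracScalable O F) (h : HasScale O F)
    (W : Submodule C ↥F) [FiniteDimensional C W] :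
    ∃ e : Fin (Module.finrank C W) → ↥(gaussValSub O F h), IsOrthonormalF O h W e := by
  obtain ⟨R, hR, hFR⟩ := hF
  have hW : ∀ x ∈ toSeries W, ∃ b ∈ R, b ≠ 0 ∧ b * x ∈ R := by
    intro x hx
    obtain ⟨w, -, rfl⟩ := mem_toSeries.mp hx
    exact hFR _ w.2
  obtain ⟨e', he'⟩ := exists_isOrthonormal_of_fractions O hR (toSeries W) hW
  have he'' := he'.cast O (finrank_toSeries W).symm
  set e'' : Fin (Module.finrank C W) → gaussRingV O :=
    fun i => e' (Fin.cast (finrank_toSeries W).symm i) with he''def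
  have hex : ∀ i, ∃ w : ↥F, w ∈ W ∧ ((w : ↥F) : LaurentSeries C) = (e'' i : LaurentSeries C) :=
    fun i => mem_toSeries.mp (he''.mem i)
  choose w hwW hw using hex
  have hwV : ∀ i, w i ∈ gaussValSub O F h := fun i => by
    rw [mem_gaussValSub_iff, hw i]
    exact (e'' i).2
  have hres : ∀ i, ((gaussResF' O h ⟨w i, hwV i⟩ : ↥(redField O F h)) : LaurentSeries (kV O))
      = gaussRedV O (e'' i) := by
    intro i
    show gaussResF O h ⟨w i, hwV i⟩ = gaussRedV O (e'' i)
    rw [gaussResF_apply]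
    congr 1
    exact Subtype.ext (hw i)
  refine ⟨fun i => ⟨w i, hwV i⟩, hwW, ?_, ?_⟩
  · refine LinearIndependent.of_comp (valL (redField O F h)) ?_
    have : (valL (redField O F h)) ∘ (fun i => gaussResF' O h ⟨w i, hwV i⟩)
        = fun i => gaussRedV O (e'' i) := funext hres
    rw [this]
    exact he''.indep
  · intro x hxW
    have hx1 : ((x : ↥F) : LaurentSeries C) ∈ toSeries W := mem_toSeries.mpr ⟨_, hxW, rfl⟩
    have hx2 : ((x : ↥F) : LaurentSeries C) ∈ gaussRingV O := x.2
    obtain ⟨d, hd⟩ := he''.repr _ hx1 hx2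
    refine ⟨d, ?_, ?_⟩
    · apply valL_injective F
      rw [valL_apply, valL_apply, coe_sum_smul, hd]
      refine Finset.sum_congr rfl fun i _ => ?_
      rw [hw i]
    · apply valL_injective (redField O F h)
      rw [valL_apply, valL_apply, coe_sum_smul_red]
      have h1 : ((gaussResF' O h x : ↥(redField O F h)) : LaurentSeries (kV O))
          = gaussRedV O ⟨((x : ↥F) : LaurentSeries C), hx2⟩ := rfl
      rw [h1]
      have h2 : (⟨((x : ↥F) : LaurentSeries C), hx2⟩ : gaussRingV O)
          = ⟨∑ i, ((d i : ↥O) : C) • ((e'' i : gaussRingV O) : LaurentSeries C), hd ▸ hx2⟩ :=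
        Subtype.ext hd
      rw [h2, gaussRedV_sum']
      refine Finset.sum_congr rfl fun i _ => ?_
      rw [hres i]


/-- The reductions of an orthonormal basis span the reduction of `W ∩ V`. -/
theorem IsOrthonormalF.exists_lift {h : HasScale O F} {W : Submodule C ↥F} {n : ℕ}
    {e : Fin n → ↥(gaussValSub O F h)} (he : IsOrthonormalF O h W e) (a : Fin n → kV O) :
    ∃ x : ↥(gaussValSub O F h), (x : ↥F) ∈ W ∧
      gaussResF' O h x = ∑ i, a i • gaussResF' O h (e i) := by
  choose d hd using fun i => IsLocalRing.residue_surjective (a i)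
  have hdV : ∀ i, algebraMap C ↥F ((d i : ↥O) : C) ∈ gaussValSub O F h := fun i =>
    (algebraMap_mem_gaussValSub_iff O h _).2 (d i).2
  refine ⟨∑ i, ⟨algebraMap C ↥F ((d i : ↥O) : C), hdV i⟩ * e i, ?_, ?_⟩
  · have hcoe : ((∑ i, (⟨algebraMap C ↥F ((d i : ↥O) : C), hdV i⟩ : ↥(gaussValSub O F h)) * e i
        : ↥(gaussValSub O F h)) : ↥F)
        = ∑ i, algebraMap C ↥F ((d i : ↥O) : C) * ((e i : ↥(gaussValSub O F h)) : ↥F) :=
      map_sum (gaussValSub O F h).subtype _ _
    rw [hcoe]
    refine Submodule.sum_mem _ fun i _ => ?_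
    rw [← Algebra.smul_def]
    exact W.smul_mem _ (he.mem i)
  · rw [map_sum]
    refine Finset.sum_congr rfl fun i _ => ?_
    rw [map_mul, Algebra.smul_def]
    congr 1
    apply Subtype.ext
    show gaussResF O h ⟨algebraMap C ↥F ((d i : ↥O) : C), hdV i⟩ = _
    rw [gaussResF_algebraMap, ← hd i, ← algebraMap_kV]
    rfl

/-- The reduction of `W ∩ V`, as a set. -/
def redSetF (h : HasScale O F) (W : Submodule C ↥F) : Set ↥(redField O F h) :=
  {y | ∃ x : ↥(gaussValSub O F h), (x : ↥F) ∈ W ∧ gaussResF' O h x = y}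

/-- The reduction of `W ∩ V` is the `k`-span of the reductions of an orthonormal basis. -/
theorem IsOrthonormalF.redSetF_eq {h : HasScale O F} {W : Submodule C ↥F} {n : ℕ}
    {e : Fin n → ↥(gaussValSub O F h)} (he : IsOrthonormalF O h W e) :
    redSetF O h W = (Submodule.span (kV O) (Set.range fun i => gaussResF' O h (e i)) : Set _) := by
  ext y
  constructor
  · rintro ⟨x, hxW, rfl⟩
    obtain ⟨d, -, hd⟩ := he.repr x hxW
    rw [hd]
    exact Submodule.sum_mem _ fun i _ =>
      Submodule.smul_mem _ _ (Submodule.subset_span ⟨i, rfl⟩)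
  · intro hy
    obtain ⟨a, rfl⟩ := (Submodule.mem_span_range_iff_exists_fun (kV O)).mp hy
    exact he.exists_lift O a

/-- **LAT, dimension form**: `res (W ∩ V)` is a `k`-subspace of `F~` of dimension `dim_C W`. -/
theorem exists_redSubF (hF : FracScalable O F) (h : HasScale O F)
    (W : Submodule C ↥F) [FiniteDimensional C W] :
    ∃ Wt : Submodule (kV O) ↥(redField O F h), (Wt : Set _) = redSetF O h W ∧
      Module.finrank (kV O) Wt = Module.finrank C W ∧ Module.Finite (kV O) Wt := by
  obtain ⟨e, he⟩ := exists_isOrthonormalF O hF h W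
  refine ⟨Submodule.span (kV O) (Set.range fun i => gaussResF' O h (e i)),
    (he.redSetF_eq O).symm, ?_, ?_⟩
  · rw [finrank_span_eq_card he.indep, Fintype.card_fin]
  · exact FiniteDimensional.span_of_finite _ (Set.finite_range _)

end Fermat.Agent.RED.H42

end
end
-- ==== END Fermat.Agent.RED.H42_Lat3

-- ==== BEGIN Fermat.Agent.RED.H42_RiemannFinal
section

/-!
# G-RED, packages FF-R and FF-B (zeros theorem): unconditional statements

Inputs: `H12.existsZeroAll` (helper12, existence of zeros), `H51.zerosLeAll` (helper51, the `≤`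
half of the zeros theorem).  Output: the zeros theorem `zerosAll`, principal divisors
(`stmt_FFB_principal`) and Riemann's theorem (`stmt_FFR_finite`, `stmt_FFR_le`,
`stmt_FFR_riemann`) for all function fields of one variable over algebraically closed fields of
any characteristic.
-/

set_option autoImplicit false

namespace Fermat.Agent.RED.H42

/-- **The zeros theorem** (any characteristic): a non-constant function `x` has finitely many
zeros and their orders sum to `[F : K(x)]`. -/
theorem zerosAll : ZerosAll :=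
  zerosAll_of Fermat.Agent.RED.H12.existsZeroAll Fermat.Agent.RED.H51.zerosLeAll

/-- Principal divisors exist and have degree zero. -/
theorem stmt_FFB_principal : Stmt_FFB_principal := stmt_FFB_principal_of zerosAll

/-- `L(D)` is finite dimensional. -/
theorem stmt_FFR_finite : Stmt_FFR_finite := stmt_FFR_finite_of zerosAll

/-- `l(D) ≤ deg D + 1`, and `L(D) = 0` if `deg D < 0`. -/
theorem stmt_FFR_le : Stmt_FFR_le := stmt_FFR_le_of zerosAll

/-- **Riemann's theorem.** -/
theorem stmt_FFR_riemann : Stmt_FFR_riemann := stmt_FFR_riemann_of zerosAll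

end Fermat.Agent.RED.H42

end
-- ==== END Fermat.Agent.RED.H42_RiemannFinal

-- ==== BEGIN Fermat.Agent.RED.H51_Fundamental
section

/-!
# FF-B, piece P7 (helper51): the fundamental identity `∑_{w | v} e(w | v) = [F' : F]`

* `sum_ramificationIndex_le` : the inequality `≤`, for any finite set of places over `v`
  (core independence lemma);
* `fundamentalIdentity_of_zeros` : equality, from the zeros theorem in `F` and in `F'`;
* `stmt_FFB_fundamental_of : H42.ZerosAll → Stmt_FFB_fundamental`.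
-/

set_option autoImplicit false
set_option linter.style.haveILetI false

noncomputable section

open AlgebraicCurve IntermediateField

namespace Fermat.Agent.RED.H51

section Rel

variable {K F F' : Type*} [Field K] [Field F] [Field F'] [Algebra K F] [Algebra K F']
  [Algebra F F'] [IsScalarTower K F F'] [Algebra.IsIntegral F F']

/-- The places over `v` are compatible with the base field `F`. -/
theorem compat_of_restrict (v : Place K F) {ι : Type*} [Fintype ι] (w : ι → Place K F')
    (hw : ∀ j, (w j).restrict F = v) :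
    Compat w (fun j => (w j).ramificationIndex F) F := by
  obtain ⟨t, ht0, ht⟩ := exists_uniformizer v
  refine ⟨⟨t, ht0, fun j => ?_⟩, fun c _ => ⟨v.ord c, fun j => ?_⟩⟩
  · rw [(w j).ord_restrict t, hw j, ht, mul_one]
  · rw [(w j).ord_restrict c, hw j]

/-- `∑ e(w | v) ≤ [F' : F]` for every finite set of places over `v`. -/
theorem sum_ramificationIndex_le [Module.Finite F F'] (v : Place K F)
    (S : Finset (Place K F')) (hS : ∀ w ∈ S, w.restrict F = v) :
    ∑ w ∈ S, w.ramificationIndex F ≤ Module.finrank F F' := by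
  have h := sum_le_finrank
    (compat_of_restrict v (fun w : S => (w : Place K F')) (fun w => hS w w.2))
    Subtype.val_injective
  rwa [Finset.sum_coe_sort S (fun w => w.ramificationIndex F)] at h

/-- An element of nonzero order at some place is transcendental over the algebraically closed
field of constants. -/
theorem transcendental_of_ord_ne_zero [IsAlgClosed K] (v : Place K F) {x : F}
    (hx : v.ord x ≠ 0) : Transcendental K x := by
  intro halg
  have hint : IsIntegral K x := halg.isIntegral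
  have hdeg1 : (minpoly K x).degree = 1 :=
    IsAlgClosed.degree_eq_one_of_irreducible K (minpoly.irreducible hint)
  obtain ⟨a, ha⟩ := minpoly.mem_range_of_degree_eq_one K x hdeg1
  apply hx
  rw [← ha]
  exact ord_algebraMap v a

omit [Algebra.IsIntegral F F'] in
/-- `[F' : K(x')] = [F : K(x)] [F' : F]` for the image `x'` of `x`. -/
theorem finrank_adjoin_algebraMap (x : F) :
    Module.finrank K⟮algebraMap F F' x⟯ F' = Module.finrank K⟮x⟯ F * Module.finrank F F' := by
  rw [Module.finrank_mul_finrank K⟮x⟯ F F']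
  symm
  have hmap : K⟮x⟯.map (IsScalarTower.toAlgHom K F F') = K⟮algebraMap F F' x⟯ := by
    rw [adjoin_map, Set.image_singleton]
    rfl
  let i : K⟮x⟯ ≃ₐ[K] K⟮algebraMap F F' x⟯ :=
    (equivMap K⟮x⟯ (IsScalarTower.toAlgHom K F F')).trans (equivOfEq hmap)
  refine Algebra.finrank_eq_of_equiv_equiv (i : K⟮x⟯ ≃+* K⟮algebraMap F F' x⟯)
    (RingEquiv.refl F') ?_
  ext c
  rfl

end Rel

section Main

variable {K F F' : Type*} [Field K] [Field F] [Field F'] [Algebra K F] [Algebra K F']
  [Algebra F F'] [IsScalarTower K F F'] [Algebra.IsIntegral F F']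

open Fermat.Agent.S24 in
/-- The fundamental identity at `v`, in the form `∑_{w | v} e(w | v) = [F' : F]`, for every
finite set `T` containing all the places over `v`. -/
theorem sum_ramificationIndex_eq [IsAlgClosed K] [Module.Finite F F']
    (hzF : H59.ZerosStmt K F) (hzF' : H59.ZerosStmt K F')
    {x₀ : F} (hx₀ : Transcendental K x₀) [FiniteDimensional K⟮x₀⟯ F]
    {x₀' : F'} (hx₀' : Transcendental K x₀') [FiniteDimensional K⟮x₀'⟯ F']
    (v : Place K F) (T : Finset (Place K F')) (hT : ∀ w, w ∈ T ↔ w.restrict F = v) :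
    ∑ w ∈ T, w.ramificationIndex F = Module.finrank F F' := by
  classical
  obtain ⟨x, hx0, hxv⟩ := exists_uniformizer v
  have hxtr : Transcendental K x := transcendental_of_ord_ne_zero v (by omega)
  haveI : FiniteDimensional K⟮x⟯ F := ff_finite_of_transcendental x₀ hx₀ x hxtr
  set x' : F' := algebraMap F F' x with hx'
  have hx'tr : Transcendental K x' :=
    (transcendental_algebraMap_iff (algebraMap F F').injective).mpr hxtr
  haveI : FiniteDimensional K⟮x'⟯ F' := ff_finite_of_transcendental x₀' hx₀' x' hx'tr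
  obtain ⟨hZfin, hZsum⟩ := hzF x hxtr
  obtain ⟨hZ'fin, hZ'sum⟩ := hzF' x' hx'tr
  rw [finsum_mem_eq_finite_toFinset_sum _ hZfin] at hZsum
  rw [finsum_mem_eq_finite_toFinset_sum _ hZ'fin] at hZ'sum
  set Z := hZfin.toFinset with hZdef
  set Z' := hZ'fin.toFinset with hZ'def
  have hmemZ : ∀ u, u ∈ Z ↔ 0 < u.ord x := fun u => by
    rw [hZdef, Set.Finite.mem_toFinset]; rfl
  have hmemZ' : ∀ w, w ∈ Z' ↔ 0 < w.ord x' := fun w => by
    rw [hZ'def, Set.Finite.mem_toFinset]; rfl
  have hepos : ∀ w : Place K F', 0 < w.ramificationIndex F := fun w =>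
    w.ramificationIndex_pos (F := F)
  have hordw : ∀ w : Place K F', w.ord x' = w.ramificationIndex F * (w.restrict F).ord x :=
    fun w => w.ord_restrict x
  have hmaps : ∀ w ∈ Z', w.restrict F ∈ Z := by
    intro w hw
    rw [hmemZ'] at hw
    rw [hmemZ]
    rw [hordw w] at hw
    have := hepos w
    by_contra hcon
    have h1 : (w.restrict F).ord x ≤ 0 := not_lt.mp hcon
    have h2 : (w.ramificationIndex F : ℤ) * (w.restrict F).ord x ≤ 0 :=
      mul_nonpos_of_nonneg_of_nonpos (Int.natCast_nonneg _) h1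
    omega
  -- the degree
  set N : ℕ := Module.finrank F F' with hN
  have hdegree : (Module.finrank K⟮x'⟯ F' : ℤ) = (Module.finrank K⟮x⟯ F : ℤ) * (N : ℤ) := by
    rw [hx', finrank_adjoin_algebraMap x]
    push_cast
    rfl
  -- the partial sums
  set E : Place K F → ℕ := fun u =>
    ∑ w ∈ Z' with w.restrict F = u, w.ramificationIndex F with hE
  have hEle : ∀ u, E u ≤ N := fun u =>
    sum_ramificationIndex_le u _ fun w hw => (Finset.mem_filter.mp hw).2
  have hsplit : ∑ w ∈ Z', w.ord x' = ∑ u ∈ Z, u.ord x * (E u : ℤ) := by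
    rw [← Finset.sum_fiberwise_of_maps_to hmaps]
    refine Finset.sum_congr rfl fun u _ => ?_
    rw [hE]
    push_cast
    rw [Finset.mul_sum]
    refine Finset.sum_congr rfl fun w hw => ?_
    rw [hordw w, (Finset.mem_filter.mp hw).2]
    ring
  have hvZ : v ∈ Z := (hmemZ v).mpr (by omega)
  have hEv : E v = N := by
    by_contra hne
    have hlt : E v < N := lt_of_le_of_ne (hEle v) hne
    have hstrict : ∑ u ∈ Z, u.ord x * (E u : ℤ) < ∑ u ∈ Z, u.ord x * (N : ℤ) := by
      refine Finset.sum_lt_sum (fun u hu => ?_) ⟨v, hvZ, ?_⟩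
      · have h1 : (E u : ℤ) ≤ (N : ℤ) := by exact_mod_cast hEle u
        exact mul_le_mul_of_nonneg_left h1 ((hmemZ u).mp hu).le
      · have h1 : (E v : ℤ) < (N : ℤ) := by exact_mod_cast hlt
        rw [hxv]
        omega
    rw [← hsplit, hZ'sum, hdegree, ← Finset.sum_mul, hZsum] at hstrict
    exact lt_irrefl _ hstrict
  have hTeq : T = Z'.filter fun w => w.restrict F = v := by
    ext w
    rw [hT, Finset.mem_filter, hmemZ', hordw w]
    constructor
    · intro h
      refine ⟨?_, h⟩
      rw [h, hxv, mul_one]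
      exact_mod_cast hepos w
    · exact fun h => h.2
  rw [hTeq]
  exact hEv

/-- The fundamental identity from the zeros theorem. -/
theorem fundamentalIdentity_of_zeros [IsAlgClosed K] [Module.Finite F F']
    [HasPrincipalDivisors K F']
    (hzF : Fermat.Agent.S24.H59.ZerosStmt K F) (hzF' : Fermat.Agent.S24.H59.ZerosStmt K F')
    {x₀ : F} (hx₀ : Transcendental K x₀) [FiniteDimensional K⟮x₀⟯ F]
    {x₀' : F'} (hx₀' : Transcendental K x₀') [FiniteDimensional K⟮x₀'⟯ F'] :
    FundamentalIdentity K F F' := by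
  refine ⟨fun v => ?_⟩
  have h := sum_ramificationIndex_eq hzF hzF' hx₀ hx₀' v (v.fiber F') (fun w => Place.mem_fiber)
  have hdeg : ∀ w : Place K F', w.deg = 1 := fun w => Fermat.Agent.S24.ff_deg_eq_one x₀' hx₀' w
  rw [Fermat.Agent.S24.ff_deg_eq_one x₀ hx₀ v, Nat.cast_one, mul_one, ← h, Nat.cast_sum]
  refine Finset.sum_congr rfl fun w _ => ?_
  rw [hdeg w, Nat.cast_one, mul_one]

end Main

/-- `Stmt_FFB_fundamental` from the zeros theorem. -/
theorem stmt_FFB_fundamental_of (hz : Fermat.Agent.RED.H42.ZerosAll) :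
    Fermat.Agent.RED.Stmt_FFB_fundamental := by
  intro K F F' _ _ _ _ _ _ hFF hFF' φ hφ _
  have hzF := hz K F hFF
  have hzF' := hz K F' hFF'
  obtain ⟨hint, hfin⟩ := stmt_FFB_finite K F F' hFF hFF' φ
  obtain ⟨x₀, hx₀, hfin₀⟩ := hFF
  obtain ⟨x₀', hx₀', hfin₀'⟩ := hFF'
  haveI : FiniteDimensional K⟮x₀⟯ F := hfin₀
  haveI : FiniteDimensional K⟮x₀'⟯ F' := hfin₀'
  unfold FundamentalIdentityAlong
  letI := algebraAlong φ
  haveI := isScalarTower_along φ
  haveI := isIntegral_along φ hφ
  haveI : Module.Finite F F' := hfin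
  exact fundamentalIdentity_of_zeros hzF hzF' hx₀ hx₀'

end Fermat.Agent.RED.H51

end
end
-- ==== END Fermat.Agent.RED.H51_Fundamental
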