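-- GENERATED (merged mirror, NOTES/tools/trim/merge3_helper67.py): 11 modules of the originals, bodies verbatim.
import Mathlib
import Fermat.Prelude.Def_ModularCurve_PeriodHomPair
import Fermat.Prelude.Def_ModularCurve_GenusNumerics
import Fermat.Agent.Zm.S35_L05_003
import Fermat.Agent.Zm.S35_L06_002
import Fermat.Agent.Zm.S35_L01_002
import Fermat.Agent.Zm.S35_L04_003
import Fermat.Agent.Zm.S35_L06_003
import Fermat.Agent.Zm.S35_L03_004
import Fermat.Agent.Zm.S35_L02_003
import Fermat.Agent.Zm.S35_L04_004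
import Fermat.Agent.Zm.S35_L04_005
import Fermat.Agent.Zm.S35_L02_004
import Fermat.Agent.Zm.S35_L05_004

-- ==== BEGIN Fermat.Agent.RED.H73_GACore
section
attribute [local instance 10000] SubalgebraClass.toAlgebra
attribute [local instance 10000] HahnSeries.powerSeriesAlgebra

/-!
# G-RED package GA (helper73): the Gauss valuation on `C(u, J)` under the S28 core hypotheses

`CoreHyp O q₀ J U nJ D` over `(C, O)`, `C` algebraically closed, `u = U q₀`, `F' = C(u, J)`.

* `exists_scale_core` : every nonzero `x ∈ F'` has a scalar multiple `c x` in the Gauss ring whose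
  reduction is nonzero and lies in `k(u~, J~)`.
* `hasScale_core` : `HasScale O F'`.
* `redField_core` : the residue field of the Gauss valuation on `F'` is `k(u~, J~)`.
-/

set_option autoImplicit false

open Polynomial ModularCurve Fermat.Agent.S28 Fermat.Agent.S28.H73

noncomputable section

namespace Fermat.Agent.RED.H73

variable {C : Type} [Field C] (O : ValuationSubring C)

theorem tVal_redV_liftUL {f : LaurentSeries C} (hf : UnitLead O.toSubring f) :
    H90.tVal (kV O) (redV O (liftUL O hf)) = WithZero.exp (-f.order) := by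
  rw [H90.tVal_eq_exp_neg_order (redV_liftUL_ne_zero O hf), order_redV_liftUL]

theorem aeval_redV_liftUL_ne_zero {f : LaurentSeries C} (hf : UnitLead O.toSubring f)
    (hord : f.order ≠ 0) (P : (kV O)[X]) (hP : P ≠ 0) :
    aeval (redV O (liftUL O hf)) P ≠ 0 := by
  refine aeval_ne_zero_of_valuation_ne_one (H90.tVal (kV O))
    (fun _ hc => H90.tVal_algebraMap hc) (redV_liftUL_ne_zero O hf) ?_ P hP
  rw [tVal_redV_liftUL, ← WithZero.exp_zero, Ne, WithZero.exp_inj]
  omega

/-- Quotients `P(f)/Q(f)` with `Q` primitive lie in the Gauss ring and reduce as expected. -/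
theorem gaussRedV_frac {f : LaurentSeries C} (hf : UnitLead O.toSubring f) (hord : f.order ≠ 0)
    (P₀ Q₀ : (↥O)[X]) (hQ : Q₀.map (resV O) ≠ 0) :
    ∃ hE : aeval f (P₀.map O.subtype) / aeval f (Q₀.map O.subtype) ∈ gaussRingV O,
      gaussRedV O ⟨_, hE⟩ = aeval (redV O (liftUL O hf)) (P₀.map (resV O)) /
        aeval (redV O (liftUL O hf)) (Q₀.map (resV O)) := by
  have hb : redV O (Q₀.eval₂ HahnSeries.C (liftUL O hf)) ≠ 0 := by
    rw [redV_eval₂]
    exact aeval_redV_liftUL_ne_zero O hf hord _ hQ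
  have hb' : iotaV O (Q₀.eval₂ HahnSeries.C (liftUL O hf)) ≠ 0 :=
    iotaV_ne_zero_of_redV_ne_zero O hb
  have e : iotaV O (Q₀.eval₂ HahnSeries.C (liftUL O hf)) *
      (aeval f (P₀.map O.subtype) / aeval f (Q₀.map O.subtype))
        = iotaV O (P₀.eval₂ HahnSeries.C (liftUL O hf)) := by
    rw [iotaV_eval₂, iotaV_eval₂, iotaV_liftUL]
    rw [iotaV_eval₂, iotaV_liftUL] at hb'
    field_simp
  have hE : aeval f (P₀.map O.subtype) / aeval f (Q₀.map O.subtype) ∈ gaussRingV O :=
    ⟨_, _, hb, e⟩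
  refine ⟨hE, ?_⟩
  rw [gaussRedV_eq O ⟨_, hE⟩ hb e, redV_eval₂, redV_eval₂]

/-- Primitive part of a polynomial over `C`, in lifted form. -/
theorem exists_scale_poly (p : C[X]) :
    ∃ (m : C) (p₀ : (↥O)[X]), p = Polynomial.C m * p₀.map O.subtype ∧
      (p ≠ 0 → m ≠ 0 ∧ p₀.map (resV O) ≠ 0) ∧ (p = 0 → m = 0) := by
  by_cases hp : p = 0
  · exact ⟨0, 0, by simp [hp], fun h => absurd hp h, fun _ => rfl⟩
  · obtain ⟨m, p₁, hm, -, hp₁, he⟩ := exists_prim_scale O p hp
    obtain ⟨p₀, hp₀, rfl⟩ := (primPoly_iff O p₁).1 hp₁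
    exact ⟨m, p₀, he, fun _ => ⟨hm, hp₀⟩, fun h => absurd h hp⟩

theorem C_mem_gaussRingV_iff {c : C} :
    (HahnSeries.C c : LaurentSeries C) ∈ gaussRingV O ↔ c ∈ O := by
  constructor
  · intro hm
    by_cases hc0 : c = 0
    · rw [hc0]; exact O.zero_mem
    rcases O.mem_or_inv_mem c with hc | hc
    · exact hc
    · by_cases hr : gaussRedV O ⟨HahnSeries.C c, hm⟩ = 0
      · exfalso
        have h1 : gaussRedV O (⟨HahnSeries.C c, hm⟩ * ⟨HahnSeries.C c⁻¹, C_mem_gaussRingV O hc⟩)
            = 1 := by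
          have e : (⟨HahnSeries.C c, hm⟩ * ⟨HahnSeries.C c⁻¹, C_mem_gaussRingV O hc⟩
              : gaussRingV O) = 1 := by
            apply Subtype.ext
            show (HahnSeries.C c : LaurentSeries C) * HahnSeries.C c⁻¹ = 1
            rw [C_inv', mul_inv_cancel₀ (C_ne_zero' hc0)]
          rw [e, map_one]
        rw [map_mul, hr, zero_mul] at h1
        exact zero_ne_one h1
      · exact ((gaussUnit_C_iff O).1 (gaussUnit_of_gaussRedV_ne_zero O hm hr)).1
  · exact C_mem_gaussRingV O

variable {O} {Q : Type} [Fintype Q] {q₀ : Q} {J : LaurentSeries C} {U : Q → LaurentSeries C}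
  {nJ D : ℕ}

theorem tVal_Jred (h : CoreHyp O q₀ J U nJ D) :
    H90.tVal (kV O) (Jred h) = WithZero.exp (nJ : ℤ) := by
  rw [Jred, tVal_redV_liftUL, h.J_order, neg_neg]

theorem tVal_Ured₀ (h : CoreHyp O q₀ J U nJ D) :
    H90.tVal (kV O) (Ured h q₀) = WithZero.exp (nJ : ℤ) ^ D := by
  rw [Ured, tVal_redV_liftUL, h.U_order₀, neg_neg, ← WithZero.exp_nsmul, nsmul_eq_mul]

theorem one_lt_exp_nJ (h : CoreHyp O q₀ J U nJ D) :
    (1 : WithZero (Multiplicative ℤ)) < WithZero.exp (nJ : ℤ) := by
  rw [← WithZero.exp_zero, WithZero.exp_lt_exp]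
  exact_mod_cast h.nJ_pos

theorem u_order_ne_zero (h : CoreHyp O q₀ J U nJ D) : (U q₀).order ≠ 0 :=
  ((ConjHyp.of_coreHyp h).U_order₀).ne

theorem J_mem_gaussRingV (h : CoreHyp O q₀ J U nJ D) : J ∈ gaussRingV O := by
  rw [← iotaV_liftUL O h.J_unitLead]
  exact iotaV_mem_gaussRingV O _

theorem gaussRedV_J (h : CoreHyp O q₀ J U nJ D) (hm : J ∈ gaussRingV O) :
    gaussRedV O ⟨J, hm⟩ = Jred h := by
  have e : (⟨J, hm⟩ : gaussRingV O)
      = ⟨iotaV O (liftUL O h.J_unitLead), iotaV_mem_gaussRingV O _⟩ :=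
    Subtype.ext (iotaV_liftUL O h.J_unitLead).symm
  rw [e, gaussRedV_iotaV]
  rfl

theorem U_mem_gaussRingV (h : CoreHyp O q₀ J U nJ D) (q : Q) : U q ∈ gaussRingV O := by
  rw [← iotaV_liftUL O (h.U_unitLead q)]
  exact iotaV_mem_gaussRingV O _

theorem gaussRedV_U (h : CoreHyp O q₀ J U nJ D) (q : Q) (hm : U q ∈ gaussRingV O) :
    gaussRedV O ⟨U q, hm⟩ = Ured h q := by
  have e : (⟨U q, hm⟩ : gaussRingV O)
      = ⟨iotaV O (liftUL O (h.U_unitLead q)), iotaV_mem_gaussRingV O _⟩ :=
    Subtype.ext (iotaV_liftUL O (h.U_unitLead q)).symm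
  rw [e, gaussRedV_iotaV]
  rfl

/-- The valuation of a quotient of nonzero polynomials in `u~` is a power of `g^D`. -/
theorem tVal_frac_Ured (h : CoreHyp O q₀ J U nJ D) (P Q' : (kV O)[X]) (hP : P ≠ 0)
    (hQ : Q' ≠ 0) :
    ∃ m : ℤ, H90.tVal (kV O) (aeval (Ured h q₀) P / aeval (Ured h q₀) Q')
      = WithZero.exp (nJ : ℤ) ^ ((D : ℤ) * m) := by
  have hu1 : 1 < H90.tVal (kV O) (Ured h q₀) := by
    rw [tVal_Ured₀]
    exact one_lt_pow₀ (one_lt_exp_nJ h) h.D_pos.ne'
  have hwk : ∀ c : kV O, c ≠ 0 → H90.tVal (kV O) (algebraMap (kV O) (LaurentSeries (kV O)) c) = 1 :=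
    fun _ hc => H90.tVal_algebraMap hc
  refine ⟨(P.natDegree : ℤ) - Q'.natDegree, ?_⟩
  rw [map_div₀, valuation_aeval_eq_pow _ hwk hu1 P hP, valuation_aeval_eq_pow _ hwk hu1 Q' hQ,
    tVal_Ured₀, ← pow_mul, ← pow_mul, mul_sub, zpow_sub₀ (WithZero.exp_ne_zero), ← zpow_natCast,
    ← zpow_natCast]
  push_cast
  rfl

theorem aeval_mem_adjoin_pair {k : Type} [Field k] (a b : LaurentSeries k) (P : k[X]) :
    aeval a P ∈ IntermediateField.adjoin k ({a, b} : Set (LaurentSeries k)) := by
  have h1 : aeval a P ∈ Algebra.adjoin k ({a} : Set (LaurentSeries k)) :=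
    Polynomial.aeval_mem_adjoin_singleton k a
  have h2 : Algebra.adjoin k ({a} : Set (LaurentSeries k)) ≤
      (IntermediateField.adjoin k ({a, b} : Set (LaurentSeries k))).toSubalgebra :=
    (Algebra.adjoin_mono (by intro z hz; rw [Set.mem_singleton_iff] at hz; rw [hz]; simp)).trans
      (IntermediateField.algebra_adjoin_le_adjoin k _)
  exact h2 h1

/-- **Scaling in `C(u, J)`**, with control of the reduction. -/
theorem exists_scale_core [IsAlgClosed C] (h : CoreHyp O q₀ J U nJ D) {x : LaurentSeries C}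
    (hx : x ∈ IntermediateField.adjoin C ({U q₀, J} : Set (LaurentSeries C))) (hx0 : x ≠ 0) :
    ∃ (c : C) (hm : HahnSeries.C c * x ∈ gaussRingV O), c ≠ 0 ∧
      gaussRedV O ⟨HahnSeries.C c * x, hm⟩ ≠ 0 ∧
      gaussRedV O ⟨HahnSeries.C c * x, hm⟩ ∈
        IntermediateField.adjoin (kV O) ({Ured h q₀, Jred h} : Set (LaurentSeries (kV O))) := by
  classical
  obtain ⟨P, Q', hQ', hxe⟩ := H90.exists_decomp h hx
  choose m P₀ hP hPne hP0 using fun i => exists_scale_poly O (P i)
  choose d Q₀ hQ hQne hQ0 using fun i => exists_scale_poly O (Q' i)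
  have hd : ∀ i, d i ≠ 0 := fun i => (hQne i (hQ' i)).1
  have hQ₀ : ∀ i, (Q₀ i).map (resV O) ≠ 0 := fun i => (hQne i (hQ' i)).2
  -- the unit parts of the coefficients
  have hE := fun i => gaussRedV_frac O (h.U_unitLead q₀) (u_order_ne_zero h) (P₀ i) (Q₀ i) (hQ₀ i)
  choose hEm hEr using hE
  have hterm : ∀ i, aeval (U q₀) (P i) / aeval (U q₀) (Q' i) = HahnSeries.C (m i / d i) *
      (aeval (U q₀) ((P₀ i).map O.subtype) / aeval (U q₀) ((Q₀ i).map O.subtype)) := by
    intro i
    conv_lhs => rw [hP i, hQ i]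
    rw [map_mul, map_mul, aeval_C, aeval_C, LaurentSeries.algebraMap_apply,
      LaurentSeries.algebraMap_apply, mul_div_mul_comm, ← map_div₀]
  -- some coefficient is nonzero
  have hex : ∃ i, m i / d i ≠ 0 := by
    by_contra hcon
    push Not at hcon
    apply hx0
    rw [hxe]
    refine Finset.sum_eq_zero fun i _ => ?_
    rw [hterm i, hcon i, map_zero, zero_mul, zero_mul]
  obtain ⟨i₁, hi₁⟩ := hex
  obtain ⟨i₀, -, hmax⟩ := Finset.exists_max_image Finset.univ
    (fun i => O.valuation (m i / d i)) ⟨i₁, Finset.mem_univ _⟩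
  have hγ₀ : m i₀ / d i₀ ≠ 0 := by
    intro h0
    have := hmax i₁ (Finset.mem_univ _)
    rw [h0, map_zero, le_zero_iff, Valuation.zero_iff] at this
    exact hi₁ this
  have hm₀ : m i₀ ≠ 0 := fun h0 => hγ₀ (by rw [h0, zero_div])
  have hδ : ∀ i, (m i₀ / d i₀)⁻¹ * (m i / d i) ∈ O := by
    intro i
    rw [← ValuationSubring.valuation_le_one_iff, map_mul, map_inv₀]
    have hpos : 0 < O.valuation (m i₀ / d i₀) := by
      rw [pos_iff_ne_zero]; exact (Valuation.ne_zero_iff _).2 hγ₀
    rw [inv_mul_le_iff₀ hpos, mul_one]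
    exact hmax i (Finset.mem_univ _)
  have hJm := J_mem_gaussRingV h
  -- the scaled element, inside the Gauss ring
  let y : gaussRingV O := ∑ i : Fin D,
    (⟨HahnSeries.C ((m i₀ / d i₀)⁻¹ * (m i / d i)), C_mem_gaussRingV O (hδ i)⟩ : gaussRingV O) *
      ⟨_, hEm i⟩ * (⟨J, hJm⟩ : gaussRingV O) ^ (i : ℕ)
  have hy : (y : LaurentSeries C) = HahnSeries.C (m i₀ / d i₀)⁻¹ * x := by
    show ((∑ i : Fin D,
      (⟨HahnSeries.C ((m i₀ / d i₀)⁻¹ * (m i / d i)), C_mem_gaussRingV O (hδ i)⟩ : gaussRingV O) *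
        ⟨_, hEm i⟩ * (⟨J, hJm⟩ : gaussRingV O) ^ (i : ℕ) : gaussRingV O) : LaurentSeries C) = _
    rw [AddSubmonoidClass.coe_finsetSum, hxe, Finset.mul_sum]
    refine Finset.sum_congr rfl fun i _ => ?_
    rw [hterm i]
    show HahnSeries.C ((m i₀ / d i₀)⁻¹ * (m i / d i)) * _ * J ^ (i : ℕ) = _
    rw [map_mul]
    ring
  have hym : HahnSeries.C (m i₀ / d i₀)⁻¹ * x ∈ gaussRingV O := hy ▸ y.2
  have hyeq : (⟨HahnSeries.C (m i₀ / d i₀)⁻¹ * x, hym⟩ : gaussRingV O) = y := Subtype.ext hy.symm
  -- its reduction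
  have hred : gaussRedV O y = ∑ i : Fin D,
      (HahnSeries.C (resV O ⟨_, hδ i⟩) * (aeval (Ured h q₀) ((P₀ i).map (resV O)) /
        aeval (Ured h q₀) ((Q₀ i).map (resV O)))) * Jred h ^ (i : ℕ) := by
    show gaussRedV O (∑ i : Fin D, _) = _
    rw [map_sum]
    refine Finset.sum_congr rfl fun i _ => ?_
    rw [map_mul, map_mul, map_pow, hEr i, gaussRedV_J h]
    congr 2
    exact gaussRedV_C O ⟨_, hδ i⟩ _
  refine ⟨(m i₀ / d i₀)⁻¹, hym, inv_ne_zero hγ₀, ?_, ?_⟩
  · rw [hyeq, hred]
    intro hsum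
    have hb : ∀ i : Fin D, (HahnSeries.C (resV O ⟨_, hδ i⟩) *
        (aeval (Ured h q₀) ((P₀ i).map (resV O)) / aeval (Ured h q₀) ((Q₀ i).map (resV O)))) = 0 ∨
        ∃ e : ℤ, H90.tVal (kV O) (HahnSeries.C (resV O ⟨_, hδ i⟩) *
          (aeval (Ured h q₀) ((P₀ i).map (resV O)) / aeval (Ured h q₀) ((Q₀ i).map (resV O))))
          = WithZero.exp (nJ : ℤ) ^ ((D : ℤ) * e) := by
      intro i
      by_cases hc : resV O ⟨_, hδ i⟩ = 0
      · left
        rw [hc, map_zero, zero_mul]
      · right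
        have hmi : m i ≠ 0 := by
          intro h0
          apply hc
          have : (⟨(m i₀ / d i₀)⁻¹ * (m i / d i), hδ i⟩ : ↥O) = 0 := by
            apply Subtype.ext
            show (m i₀ / d i₀)⁻¹ * (m i / d i) = 0
            rw [h0, zero_div, mul_zero]
          rw [this, map_zero]
        have hPi : P i ≠ 0 := fun h0 => hmi (hP0 i h0)
        obtain ⟨e, he⟩ := tVal_frac_Ured h _ _ (hPne i hPi).2 (hQ₀ i)
        refine ⟨e, ?_⟩
        rw [map_mul, H90.tVal_C hc, one_mul, he]
    have hall := orthogonality (H90.tVal (kV O)) (one_lt_exp_nJ h) (tVal_Jred h) _ hb hsum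
    have h0 := hall i₀
    have hone : resV O ⟨_, hδ i₀⟩ = 1 := by
      have : (⟨(m i₀ / d i₀)⁻¹ * (m i₀ / d i₀), hδ i₀⟩ : ↥O) = 1 := by
        apply Subtype.ext
        show (m i₀ / d i₀)⁻¹ * (m i₀ / d i₀) = 1
        exact inv_mul_cancel₀ hγ₀
      rw [this, map_one]
    rw [hone, map_one, one_mul, div_eq_zero_iff] at h0
    have hPi₀ : P i₀ ≠ 0 := fun h0 => hm₀ (hP0 i₀ h0)
    rcases h0 with h0 | h0
    · exact aeval_redV_liftUL_ne_zero O (h.U_unitLead q₀) (u_order_ne_zero h) _
        (hPne i₀ hPi₀).2 h0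
    · exact aeval_redV_liftUL_ne_zero O (h.U_unitLead q₀) (u_order_ne_zero h) _ (hQ₀ i₀) h0
  · rw [hyeq, hred]
    refine sum_mem fun i _ => ?_
    refine mul_mem (mul_mem ?_ (div_mem (aeval_mem_adjoin_pair _ _ _)
      (aeval_mem_adjoin_pair _ _ _))) (pow_mem (IntermediateField.subset_adjoin _ _ (by simp)) _)
    rw [← LaurentSeries.algebraMap_apply]
    exact IntermediateField.algebraMap_mem _ _

/-- **GA**: `C(u, J)` has the scaling property (value group of the Gauss valuation = that of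
`O`), for an ARBITRARY valuation subring `O`. -/
theorem hasScale_core [IsAlgClosed C] (h : CoreHyp O q₀ J U nJ D) :
    HasScale O (IntermediateField.adjoin C ({U q₀, J} : Set (LaurentSeries C))) := by
  intro x hx hx0
  obtain ⟨c, hm, hc, hr, -⟩ := exists_scale_core h hx hx0
  exact ⟨c, hc, gaussUnit_of_gaussRedV_ne_zero O hm hr⟩

theorem u_mem_core (h : CoreHyp O q₀ J U nJ D) :
    U q₀ ∈ IntermediateField.adjoin C ({U q₀, J} : Set (LaurentSeries C)) :=
  IntermediateField.subset_adjoin _ _ (by simp)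

theorem J_mem_core (h : CoreHyp O q₀ J U nJ D) :
    J ∈ IntermediateField.adjoin C ({U q₀, J} : Set (LaurentSeries C)) :=
  IntermediateField.subset_adjoin _ _ (by simp)

/-- **GA**: the residue field of the Gauss valuation on `C(u, J)` is `k(u~, J~)`. -/
theorem redField_core [IsAlgClosed C] (h : CoreHyp O q₀ J U nJ D) :
    redField O (IntermediateField.adjoin C ({U q₀, J} : Set (LaurentSeries C))) (hasScale_core h)
      = IntermediateField.adjoin (kV O) ({Ured h q₀, Jred h} : Set (LaurentSeries (kV O))) := by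
  apply le_antisymm
  · rintro y ⟨x, rfl⟩
    rw [gaussResF_apply]
    by_cases hx0 : ((x : ↥(IntermediateField.adjoin C ({U q₀, J} : Set (LaurentSeries C))))
        : LaurentSeries C) = 0
    · have e : (⟨((x : ↥(IntermediateField.adjoin C ({U q₀, J} : Set (LaurentSeries C))))
          : LaurentSeries C), x.2⟩ : gaussRingV O) = 0 := Subtype.ext hx0
      rw [e, map_zero]
      exact zero_mem _
    · obtain ⟨c, hm, hc, hr, hmem⟩ := exists_scale_core h (x : ↥(IntermediateField.adjoin C
        ({U q₀, J} : Set (LaurentSeries C)))).2 hx0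
      have hu := gaussUnit_of_gaussRedV_ne_zero O hm hr
      -- `c⁻¹ ∈ O`
      have hci : (HahnSeries.C c⁻¹ : LaurentSeries C) ∈ gaussRingV O := by
        have e : (HahnSeries.C c⁻¹ : LaurentSeries C)
            = ((x : ↥(IntermediateField.adjoin C ({U q₀, J} : Set (LaurentSeries C))))
              : LaurentSeries C) * (HahnSeries.C c * ((x : ↥(IntermediateField.adjoin C
                ({U q₀, J} : Set (LaurentSeries C)))) : LaurentSeries C))⁻¹ := by
          rw [mul_inv, C_inv', mul_comm _ ((x : ↥(IntermediateField.adjoin C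
            ({U q₀, J} : Set (LaurentSeries C)))) : LaurentSeries C)⁻¹, ← mul_assoc,
            mul_inv_cancel₀ hx0, one_mul]
        rw [e]
        exact (gaussRingV O).mul_mem x.2 hu.inv.mem
      have hprod : (⟨((x : ↥(IntermediateField.adjoin C ({U q₀, J} : Set (LaurentSeries C))))
          : LaurentSeries C), x.2⟩ : gaussRingV O)
          = ⟨HahnSeries.C c⁻¹, hci⟩ * ⟨_, hm⟩ := by
        apply Subtype.ext
        show _ = HahnSeries.C c⁻¹ * (HahnSeries.C c * _)
        rw [C_inv', ← mul_assoc, inv_mul_cancel₀ (C_ne_zero' hc), one_mul]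
      rw [hprod, map_mul]
      refine mul_mem ?_ hmem
      have hcO : c⁻¹ ∈ O := (C_mem_gaussRingV_iff O).1 hci
      have := gaussRedV_C O ⟨c⁻¹, hcO⟩ hci
      rw [this, ← LaurentSeries.algebraMap_apply]
      exact IntermediateField.algebraMap_mem _ _
  · rw [IntermediateField.adjoin_le_iff]
    rintro y hy
    rcases hy with rfl | hy
    · refine ⟨⟨⟨U q₀, u_mem_core h⟩, U_mem_gaussRingV h q₀⟩, ?_⟩
      rw [gaussResF_apply]
      exact gaussRedV_U h q₀ _
    · rw [Set.mem_singleton_iff] at hy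
      subst hy
      refine ⟨⟨⟨J, J_mem_core h⟩, J_mem_gaussRingV h⟩, ?_⟩
      rw [gaussResF_apply]
      exact gaussRedV_J h _

end Fermat.Agent.RED.H73

end
end
-- ==== END Fermat.Agent.RED.H73_GACore

-- ==== BEGIN Fermat.Agent.RED.H73_GARedSetting
section
attribute [local instance 10000] SubalgebraClass.toAlgebra
attribute [local instance 10000] HahnSeries.powerSeriesAlgebra

/-!
# G-RED package GA (helper73): the Gauss valuation as a `RedSetting` of helper34

`redSetting O F h : H34.RedSetting C F (kV O) (redField O F h)` for every field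
`F ⊂ C((q))` with the scaling property.
-/

set_option autoImplicit false
set_option synthInstance.maxHeartbeats 400000
set_option maxHeartbeats 1000000

open ModularCurve Fermat.Agent.S28 Fermat.Agent.S28.H73

noncomputable section

namespace Fermat.Agent.RED.H73

variable {C : Type} [Field C] (O : ValuationSubring C)
variable {F : IntermediateField C (LaurentSeries C)}

/-- The constants of the Gauss valuation ring, as elements of `O`. -/
def constToO (h : HasScale O F) :
    ↥((gaussValSub O F h).comap (algebraMap C ↥F)) →+* ↥O where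
  toFun a := ⟨(a : C), (algebraMap_mem_gaussValSub_iff O h _).1 a.2⟩
  map_one' := rfl
  map_mul' _ _ := rfl
  map_zero' := rfl
  map_add' _ _ := rfl

theorem constToO_coe (h : HasScale O F)
    (a : ↥((gaussValSub O F h).comap (algebraMap C ↥F))) : ((constToO O h a : ↥O) : C) = a := rfl

theorem constToO_surjective (h : HasScale O F) : Function.Surjective (constToO O h) := by
  intro a
  exact ⟨⟨(a : C), (algebraMap_mem_gaussValSub_iff O h _).2 a.2⟩, rfl⟩

/-- The Gauss valuation on `F` as a reduction setting. -/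
def redSetting (h : HasScale O F) :
    Fermat.Agent.RED.H34.RedSetting C ↥F (kV O) ↥(redField O F h) where
  V := gaussValSub O F h
  red := gaussResF' O h
  red_surj := gaussResF'_surjective O h
  resO := (resV O).comp (constToO O h)
  resO_surj := (IsLocalRing.residue_surjective).comp (constToO_surjective O h)
  red_algebraMap := by
    intro a
    apply Subtype.ext
    show gaussResF O h ⟨algebraMap C ↥F (a : C), a.2⟩ = _
    have := gaussResF_algebraMap O h (constToO O h a) a.2
    refine this.trans ?_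
    show _ = algebraMap (kV O) (LaurentSeries (kV O)) _
    rw [algebraMap_kV]
    rfl
  scale := by
    intro f hf
    obtain ⟨c, u, hc, hu⟩ := exists_unit_scale O h f hf
    exact ⟨c, hc, u, hu⟩

theorem redSetting_V (h : HasScale O F) : (redSetting O h).V = gaussValSub O F h := rfl

theorem redSetting_red (h : HasScale O F) (x : ↥(gaussValSub O F h)) :
    (redSetting O h).red x = gaussResF' O h x := rfl

end Fermat.Agent.RED.H73

end
end
-- ==== END Fermat.Agent.RED.H73_GARedSetting

-- ==== BEGIN Fermat.Agent.RED.H73_GARes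
section

/-!
# G-RED package GA, part 3 (helper73): the residue field of the Gauss valuation, first facts

* `fullC_le_redField` : the residue field `F~ ⊂ k((q))` of the Gauss valuation on
  `F = L(j(q^d) : d ∣ N)` contains `k(j~(q^d) : d ∣ N) = modularFunctionFieldFullC k N`.
* `linearIndependent_of_gaussResF` (`f ≤ n`): elements of the Gauss valuation ring of `F` whose
  reductions are linearly independent over the residue field of a subfield `E` are linearly
  independent over `E`.
-/

set_option autoImplicit false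

open ModularCurve Fermat.Agent.S28 Fermat.Agent.S28.H73

noncomputable section

namespace Fermat.Agent.RED.H73

section Modular

variable {L : Type} [Field L] (A : ValuationSubring L)

theorem iotaV_qExpand_jqModC (d : ℕ) [NeZero d] :
    iotaV A (qExpand ↥A d (jqModC ↥A)) = qExpand L d (jqModC L) := by
  rw [iotaV, coeffMap_qExpand, coeffMap_jqModC]

theorem redV_qExpand_jqModC (d : ℕ) [NeZero d] :
    redV A (qExpand ↥A d (jqModC ↥A)) = qExpand (kV A) d (jqModC (kV A)) := by
  rw [redV, coeffMap_qExpand, coeffMap_jqModC]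

/-- `j(q^d)` lies in the Gauss valuation ring and reduces to `j~(q^d)`. -/
theorem qExpand_jqModC_mem_gaussRingV (d : ℕ) [NeZero d] :
    qExpand L d (jqModC L) ∈ gaussRingV A := by
  rw [← iotaV_qExpand_jqModC A d]
  exact iotaV_mem_gaussRingV A _

theorem gaussRedV_qExpand_jqModC (d : ℕ) [NeZero d]
    (h : qExpand L d (jqModC L) ∈ gaussRingV A) :
    gaussRedV A ⟨qExpand L d (jqModC L), h⟩ = qExpand (kV A) d (jqModC (kV A)) := by
  have e : (⟨qExpand L d (jqModC L), h⟩ : gaussRingV A)
      = ⟨iotaV A (qExpand ↥A d (jqModC ↥A)), iotaV_mem_gaussRingV A _⟩ :=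
    Subtype.ext (iotaV_qExpand_jqModC A d).symm
  rw [e, gaussRedV_iotaV, redV_qExpand_jqModC]

/-- **GA (3a)**: the residue field of the Gauss valuation contains `k(j~(q^d) : d ∣ N)`. -/
theorem fullC_le_redField (N : ℕ) :
    modularFunctionFieldFullC (kV A) N ≤
      redField A (modularFunctionFieldFullC L N) (hasScale_fullC A N) := by
  rw [modularFunctionFieldFullC, IntermediateField.adjoin_le_iff]
  rintro x ⟨d, hd0, hd, rfl⟩
  have hF : qExpand L d (jqModC L) ∈ modularFunctionFieldFullC L N := jqModCd_mem_full L N hd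
  have hV : (⟨qExpand L d (jqModC L), hF⟩ : ↥(modularFunctionFieldFullC L N)) ∈
      gaussValSub A (modularFunctionFieldFullC L N) (hasScale_fullC A N) :=
    qExpand_jqModC_mem_gaussRingV A d
  refine ⟨⟨⟨qExpand L d (jqModC L), hF⟩, hV⟩, ?_⟩
  rw [gaussResF_apply]
  exact gaussRedV_qExpand_jqModC A d _

end Modular

end Fermat.Agent.RED.H73

end
end
-- ==== END Fermat.Agent.RED.H73_GARes

-- ==== BEGIN Fermat.Agent.RED.H76_RHCount
section

/-!
# RH-R (helper76), part I e: existence of a minimal family, the dimension count, the genus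

* `Fam.card_le` : an independent family has at most `deg (x)_∞` elements.
* `exists_minFam` : a minimal family exists.
* `MinFam.finrank_eq` : `l(m P) = ∑ (m + 1 - d_i)` for `m ≥ d_i`.
* `MinFam.genus` : `r = deg P` and `∑ d_i = g + r - 1` (Riemann's theorem with genus `g`).
-/

set_option autoImplicit false

noncomputable section

open AlgebraicCurve WithZero Polynomial

namespace Fermat.Agent.RED.H76

open Fermat.Agent.RED.H42

variable {K F : Type*} [Field K] [Field F] [Algebra K F]
variable {P : Divisor K F} {x : F}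

local notation "L" => riemannRochSpace

instance finite_degreeLT (n : ℕ) : Module.Finite K (degreeLT K n) :=
  Module.Finite.equiv (degreeLTEquiv K n).symm

/-- The linear map `(p_i) ↦ ∑ p_i(x) ω_i` on polynomials of bounded degrees. -/
def combLin (x : F) {r : ℕ} (ω : Fin r → F) (e : Fin r → ℕ) :
    ((i : Fin r) → degreeLT K (e i + 1)) →ₗ[K] F where
  toFun p := comb x (fun i => (p i : K[X])) ω
  map_add' p p' := by
    rw [← comb_add]
    rfl
  map_smul' c p := by
    simp only [RingHom.id_apply]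
    unfold comb
    rw [Finset.smul_sum]
    refine Finset.sum_congr rfl fun i _ => ?_
    simp only [Pi.smul_apply, Submodule.coe_smul, map_smul, smul_mul_assoc]

theorem combLin_apply (x : F) {r : ℕ} (ω : Fin r → F) (e : Fin r → ℕ)
    (p : (i : Fin r) → degreeLT K (e i + 1)) :
    combLin x ω e p = comb x (fun i => (p i : K[X])) ω := rfl

theorem natDegree_le_of_mem_degreeLT' {l : ℕ} (p : degreeLT K (l + 1)) :
    (p : K[X]).natDegree ≤ l := natDegree_le_of_mem_degreeLT p.2

theorem mem_degreeLT_of_natDegree_le {l : ℕ} {p : K[X]} (hp : p.natDegree ≤ l) :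
    p ∈ degreeLT K (l + 1) := by
  rw [mem_degreeLT]
  exact lt_of_le_of_lt degree_le_natDegree (by exact_mod_cast Nat.lt_succ_of_le hp)

theorem Fam.combLin_injective {r : ℕ} {ω : Fin r → F} {d : Fin r → ℕ} (h : Fam P x r ω d)
    (e : Fin r → ℕ) : Function.Injective (combLin (K := K) x ω e) := by
  rw [injective_iff_map_eq_zero]
  intro p hp
  have := h.indep _ hp
  funext i
  exact Subtype.ext (congrFun this i)

theorem Fam.combLin_mem (hP : IsPoleDiv P x) {r : ℕ} {ω : Fin r → F} {d : Fin r → ℕ}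
    (h : Fam P x r ω d) (e : Fin r → ℕ) (m : ℕ) (hm : ∀ i, e i + d i ≤ m)
    (p : (i : Fin r) → degreeLT K (e i + 1)) : combLin x ω e p ∈ L (m • P) := by
  rw [← inL_iff_mem_nat, combLin_apply]
  refine inL_comb hP h.mem _ _ ?_
  intro i _
  have h1 := natDegree_le_of_mem_degreeLT' (p i)
  have h2 := hm i
  omega

theorem finrank_pi_degreeLT {r : ℕ} (e : Fin r → ℕ) :
    Module.finrank K ((i : Fin r) → degreeLT K (e i + 1)) = ∑ i, (e i + 1) := by
  rw [Module.finrank_pi_fintype]
  exact Finset.sum_congr rfl fun i _ => finrank_degreeLT _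

/-- The lower bound `∑ (e_i + 1) ≤ l(m P)`. -/
theorem Fam.sum_le_finrank (H : Hyp K F) (hP : IsPoleDiv P x) {r : ℕ} {ω : Fin r → F}
    {d : Fin r → ℕ} (h : Fam P x r ω d) (e : Fin r → ℕ) (m : ℕ) (hm : ∀ i, e i + d i ≤ m) :
    ∑ i, (e i + 1) ≤ Module.finrank K (L (m • P)) := by
  have hfin := finite_L H (m • P)
  let Φ : ((i : Fin r) → degreeLT K (e i + 1)) →ₗ[K] L (m • P) :=
    (combLin x ω e).codRestrict (L (m • P)) (h.combLin_mem hP e m hm)
  have hΦ : Function.Injective Φ := fun p p' hpp' =>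
    h.combLin_injective e (congrArg Subtype.val hpp')
  have := LinearMap.finrank_le_finrank_of_injective hΦ
  rwa [finrank_pi_degreeLT] at this

theorem degree_nsmul (m : ℕ) (D : Divisor K F) :
    Divisor.degree (m • D) = m * Divisor.degree D := by
  rw [map_nsmul, nsmul_eq_mul]

/-- An independent family has at most `deg P` elements. -/
theorem Fam.card_le (H : Hyp K F) (hP : IsPoleDiv P x) {r : ℕ} {ω : Fin r → F}
    {d : Fin r → ℕ} (h : Fam P x r ω d) : (r : ℤ) ≤ Divisor.degree P := by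
  classical
  set n := Divisor.degree P with hn
  have hn0 : 0 ≤ n := degree_nonneg hP.zero_le
  by_contra hlt
  push Not at hlt
  -- a uniform bound for the `d_i`
  set D : ℕ := ∑ i, d i with hD
  have hdD : ∀ i, d i ≤ D := fun i =>
    Finset.single_le_sum (f := d) (fun _ _ => Nat.zero_le _) (Finset.mem_univ i)
  set l : ℕ := n.toNat * D + 1 with hl
  have h1 := h.sum_le_finrank H hP (fun _ => l) (l + D) (fun i => by have := hdD i; omega)
  have h2 : (Module.finrank K (L ((l + D) • P)) : ℤ) ≤ ((l + D : ℕ) : ℤ) * n + 1 := by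
    have := finrank_L_le H (D := (l + D) • P) (by
      rw [degree_nsmul]; exact mul_nonneg (by positivity) hn0)
    rwa [degree_nsmul] at this
  rw [Finset.sum_const, Finset.card_univ, Fintype.card_fin, smul_eq_mul] at h1
  have h3 : ((r * (l + 1) : ℕ) : ℤ) ≤ ((l + D : ℕ) : ℤ) * n + 1 :=
    le_trans (by exact_mod_cast h1) h2
  obtain ⟨n', hn'⟩ := Int.eq_ofNat_of_zero_le hn0
  rw [hn'] at h3 hlt
  have hr : n' + 1 ≤ r := by exact_mod_cast hlt
  have hl' : l = n' * D + 1 := by rw [hl, hn']; simp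
  have h4 : r * (l + 1) ≤ (l + D) * n' + 1 := by exact_mod_cast h3
  have h5 : (n' + 1) * (l + 1) ≤ r * (l + 1) := Nat.mul_le_mul_right _ hr
  have h6 : (n' + 1) * (l + 1) ≤ (l + D) * n' + 1 := h5.trans h4
  rw [hl'] at h6
  nlinarith [h6]

end Fermat.Agent.RED.H76

end
end
-- ==== END Fermat.Agent.RED.H76_RHCount

-- ==== BEGIN Fermat.Agent.RED.H76_RHDefs2
section

/-!
# RH-R (helper76): interface statement `Stmt_basisTransfer`

A reduced basis `ω` (independent, spanning, reduced, `ω_i ∈ L(d_i (x)_∞)`) of the functions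
regular outside the poles of `x` gives a `K[x]`-basis `c` of `B = integralClosure K[x] F`
(`c_i = ω_i`) and a `K[x⁻¹]`-basis `c'` of `B' = integralClosure K[x⁻¹] F`
(`c'_i = x^{-d_i} ω_i`).

Proof sketch.  Dictionary (`H79.isIntegral_of_forall_ordGe`, `H79.mem_of_isIntegral`):
`f ∈ B ↔ f` regular where `x` is regular `↔ Reg P f`; `K[x] = range (aeval x)`.
`c'`: (a) `x^{-d_i} ω_i` is regular wherever `|x| ≥ 1` since `|ω_i| ≤ |x|^{d_i}` at the poles.
(b) `f ∈ B'` ⟹ `x^k f ∈ L(k P)` for `k` large (finitely many poles of `f`, all at zeros of `x`)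
⟹ `x^k f = ∑ p_i(x) ω_i` with `deg p_i + d_i ≤ k` ⟹ `f = ∑ (x^{-(k - d_i)} p_i(x)) x^{-d_i} ω_i`
with coefficients polynomial in `x⁻¹`.  (c) independence: multiply by a power of `x`.
-/

set_option autoImplicit false

noncomputable section

open AlgebraicCurve IntermediateField Polynomial

namespace Fermat.Agent.RED.H76

/-- **BASIS-TRANSFER**. -/
def Stmt_basisTransfer : Prop :=
  ∀ (K F : Type) [Field K] [Field F] [Algebra K F] [IsAlgClosed K] [CharZero K]
    (x : F), Transcendental K x → FiniteDimensional K⟮x⟯ F →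
    ∀ (P : Divisor K F), IsPoleDiv P x →
    ∀ (r : ℕ) (ω : Fin r → F) (d : Fin r → ℕ),
      (∀ i, InL P (d i) (ω i)) →
      (∀ p : Fin r → K[X], comb x p ω = 0 → p = 0) →
      (∀ f : F, Reg P f → ∃ p : Fin r → K[X], f = comb x p ω) →
      (∀ (p : Fin r → K[X]) (m : ℤ), InL P m (comb x p ω) →
        ∀ i, p i ≠ 0 → ((p i).natDegree : ℤ) + d i ≤ m) →
      ∃ (c : Module.Basis (Fin r) ↥(Algebra.adjoin K {x})
            ↥(integralClosure ↥(Algebra.adjoin K {x}) F))
        (c' : Module.Basis (Fin r) ↥(Algebra.adjoin K {x⁻¹})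
            ↥(integralClosure ↥(Algebra.adjoin K {x⁻¹}) F)),
        (∀ i, ((c i : ↥(integralClosure ↥(Algebra.adjoin K {x}) F)) : F) = ω i) ∧
        (∀ i, ((c' i : ↥(integralClosure ↥(Algebra.adjoin K {x⁻¹}) F)) : F)
          = x⁻¹ ^ (d i) * ω i)

end Fermat.Agent.RED.H76

end
end
-- ==== END Fermat.Agent.RED.H76_RHDefs2

-- ==== BEGIN Fermat.Agent.RED.H79_ConsChart
section

/-!
# G-RED package CONS (helper79): the Dedekind domain of a chart

`x ∈ F` transcendental over `K`, `F / K(x)` finite separable, `B = integralClosure K[x] F`.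
* `isDedekind_Bx`, `isFractionRing_Bx`.
* `exists_eq_ofH_of_mem` : a place `P` with `x ∈ O_P` is the place of a height one prime of `B`.
* `isIntegral_of_forall_ordGe` : `f ∈ F` regular at all places finite over `x` is integral
  over `K[x]`.
-/

set_option autoImplicit false
set_option linter.style.haveILetI false

noncomputable section

open AlgebraicCurve IsDedekindDomain WithZero IntermediateField
open scoped IntermediateField.algebraAdjoinAdjoin

namespace Fermat.Agent.RED.H79

open Fermat.Agent.RED.H51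

section Chart

variable {K F : Type*} [Field K] [Field F] [Algebra K F]

theorem isDedekind_Bx (x : F) (hx : Transcendental K x) [FiniteDimensional K⟮x⟯ F]
    [Algebra.IsSeparable K⟮x⟯ F] :
    IsDedekindDomain ↥(integralClosure ↥(Algebra.adjoin K {x}) F) := by
  have hPID : IsPrincipalIdealRing (Algebra.adjoin K {x}) :=
    IsPrincipalIdealRing.of_surjective
      (Polynomial.algEquivOfTranscendental K x hx).toRingEquiv.toRingHom
      (Polynomial.algEquivOfTranscendental K x hx).surjective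
  exact integralClosure.isDedekindDomain (Algebra.adjoin K {x}) K⟮x⟯ F

theorem isFractionRing_Bx (x : F) [FiniteDimensional K⟮x⟯ F] :
    IsFractionRing ↥(integralClosure ↥(Algebra.adjoin K {x}) F) F :=
  integralClosure.isFractionRing_of_finite_extension K⟮x⟯ F

/-- An element integral over `K[x]` lies in every valuation ring of a place containing `x`. -/
theorem mem_of_isIntegral (P : Place K F) {x : F} (hxP : x ∈ P.toValuationSubring) {b : F}
    (hb : IsIntegral ↥(Algebra.adjoin K {x}) b) : b ∈ P.toValuationSubring := by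
  have hle : ∀ a : ↥(Algebra.adjoin K {x}),
      algebraMap ↥(Algebra.adjoin K {x}) F a ∈ P.toValuationSubring.toSubring := by
    rintro ⟨a, ha⟩
    show a ∈ P.toValuationSubring
    induction ha using Algebra.adjoin_induction with
    | mem y hy =>
      rw [Set.mem_singleton_iff] at hy
      subst hy
      exact hxP
    | algebraMap r => exact P.algebraMap_mem' r
    | add _ _ _ _ h1 h2 => exact add_mem h1 h2
    | mul _ _ _ _ h1 h2 => exact mul_mem h1 h2
  let ι : ↥(Algebra.adjoin K {x}) →+* ↥P.toValuationSubring :=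
    (algebraMap ↥(Algebra.adjoin K {x}) F).codRestrict P.toValuationSubring.toSubring hle
  obtain ⟨p, hp, hpb⟩ := hb
  have hint : IsIntegral ↥P.toValuationSubring b := by
    refine ⟨p.map ι, hp.map ι, ?_⟩
    rw [Polynomial.eval₂_map]
    exact hpb
  obtain ⟨y, hy⟩ := IsIntegrallyClosed.isIntegral_iff.mp hint
  rw [← hy]
  exact y.2

/-- A place `P` with `x ∈ O_P` is the place of a height one prime of `B`. -/
theorem exists_eq_ofH_of_mem (x : F) (hx : Transcendental K x) [FiniteDimensional K⟮x⟯ F]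
    [Algebra.IsSeparable K⟮x⟯ F] (P : Place K F) (hxP : x ∈ P.toValuationSubring) :
    haveI := isDedekind_Bx x hx
    haveI := isFractionRing_Bx (K := K) x
    ∃ w : HeightOneSpectrum ↥(integralClosure ↥(Algebra.adjoin K {x}) F), P = ofH K w := by
  haveI := isDedekind_Bx x hx
  haveI := isFractionRing_Bx (K := K) x
  exact exists_eq_ofH P fun b => mem_of_isIntegral P hxP b.2

/-- `x` lies in the valuation ring of the place of a height one prime of `B`. -/
theorem mem_ofH (x : F) (hx : Transcendental K x) [FiniteDimensional K⟮x⟯ F]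
    [Algebra.IsSeparable K⟮x⟯ F] :
    haveI := isDedekind_Bx x hx
    haveI := isFractionRing_Bx (K := K) x
    ∀ (w : HeightOneSpectrum ↥(integralClosure ↥(Algebra.adjoin K {x}) F)) (b : F),
      IsIntegral ↥(Algebra.adjoin K {x}) b → OrdGe (ofH K w) 0 b := by
  haveI := isDedekind_Bx x hx
  haveI := isFractionRing_Bx (K := K) x
  intro w b hb
  exact ordGe_zero_algebraMap (K := K) (F := F) w
    (⟨b, hb⟩ : ↥(integralClosure ↥(Algebra.adjoin K {x}) F))

/-- (b) An element of `F` regular at all places finite over `x` is integral over `K[x]`. -/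
theorem isIntegral_of_forall_ordGe (x : F) (hx : Transcendental K x) [FiniteDimensional K⟮x⟯ F]
    [Algebra.IsSeparable K⟮x⟯ F] (f : F)
    (h : ∀ P : Place K F, x ∈ P.toValuationSubring → OrdGe P 0 f) :
    IsIntegral ↥(Algebra.adjoin K {x}) f := by
  haveI := isDedekind_Bx x hx
  haveI := isFractionRing_Bx (K := K) x
  have hx0 : IsIntegral ↥(Algebra.adjoin K {x}) x :=
    (isIntegral_algebraMap (R := ↥(Algebra.adjoin K {x})) (A := F)
      (x := ⟨x, Algebra.self_mem_adjoin_singleton K x⟩))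
  obtain ⟨b, hb⟩ := mem_range_of_forall_ordGe (K := K)
    (B := ↥(integralClosure ↥(Algebra.adjoin K {x}) F)) f (fun w => h _
      ((ordGe_zero_iff_mem _ _).1 (mem_ofH x hx w x hx0)))
  rw [← hb]
  exact b.2

end Chart

end Fermat.Agent.RED.H79

end
end
-- ==== END Fermat.Agent.RED.H79_ConsChart

-- ==== BEGIN Fermat.Agent.S21.H20_E1
section

/-!
# S21, part E1: `dim Hom_par(Γ₀(N), ℂ) ≤ 2 * genusFormula N`, and the upper bound
`dim S₂(Γ₀(N)) ≤ genusFormula N`.
-/

set_option autoImplicit false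

open ModularCurve ModularCurve.Period UpperHalfPlane CongruenceSubgroup
open scoped MatrixGroups

namespace Fermat.Agent.S21

/-- **Part E1**: the parabolic homomorphisms `Γ₀(N) → ℂ` form a space of dimension at most
`2 * genusFormula N`. -/
theorem partE1 (N : ℕ) [NeZero N] :
    Module.Finite ℂ (parabolicHoms ℂ (Gamma0 N) ℂ) ∧
      (Module.finrank ℂ (parabolicHoms ℂ (Gamma0 N) ℂ) : ℚ) ≤ 2 * genusFormula N := by
  obtain ⟨h1, h2⟩ := H75.partE1a N
  refine ⟨h1, ?_⟩
  rw [Fermat.Agent.S20.H19.G1, Fermat.Agent.S20.H19.G2, Fermat.Agent.S20.H19.G3,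
    Fermat.Agent.S20.H38.G4] at h2
  have h3 : ((6 * Module.finrank ℂ (parabolicHoms ℂ (Gamma0 N) ℂ) + 3 * nuTwo N + 4 * nuThree N
      + 6 * cuspCount N : ℕ) : ℚ) ≤ ((dedekindPsi N + 12 : ℕ) : ℚ) := by exact_mod_cast h2
  push_cast at h3
  unfold genusFormula
  linarith

/-- Upper-bound half of S20: `dim S₂(Γ₀(N)) ≤ genusFormula N`. -/
theorem finrank_cuspForm_le_genusFormula (N : ℕ) [NeZero N] :
    (Module.finrank ℂ (CuspForm (Gamma0 N) 2) : ℚ) ≤ genusFormula N := by
  obtain ⟨h1, h2⟩ := partE1 N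
  have h3 := two_mul_finrank_cuspForm_le N
  have h4 : ((2 * Module.finrank ℂ (CuspForm (Gamma0 N) 2) : ℕ) : ℚ)
      ≤ (Module.finrank ℂ (parabolicHoms ℂ (Gamma0 N) ℂ) : ℚ) := by exact_mod_cast h3
  push_cast at h4
  linarith

/-- `S₂(Γ₀(N))` is finite-dimensional. -/
theorem finite_cuspForm (N : ℕ) [NeZero N] : Module.Finite ℂ (CuspForm (Gamma0 N) 2) := by
  obtain ⟨h1, -⟩ := partE1 N
  obtain ⟨pml, hpml, hdef⟩ := periodHomPair_def N (existsPeriodMapLinear_of_partA (partA N))
  have hinj := periodHomPair_injective N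
  let ι : CuspForm (Gamma0 N) 2 →ₗ[ℂ] parabolicHoms ℂ (Gamma0 N) ℂ :=
    ((periodHomPair N).comp (LinearMap.inl ℂ _ (CuspForm (Gamma0 N) 2))).codRestrict _ (fun f => by
      have h0 : ((periodHomPair N).comp (LinearMap.inl ℂ _ (CuspForm (Gamma0 N) 2))) f
          = periodMap N f + charInvolution N ℂ ℂ (periodMap N f) := by
        rw [hdef]
        simp [hpml]
      rw [h0]
      exact Submodule.add_mem _ (periodMap_mem_parabolicHoms N f)
        (charInvolution_mem_parabolicHoms N ℂ ℂ (periodMap_mem_parabolicHoms N f)))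
  have hιinj : Function.Injective ι := by
    intro x y hxy
    have := congrArg Subtype.val hxy
    exact LinearMap.inl_injective (hinj this)
  exact Module.Finite.of_injective ι hιinj

end Fermat.Agent.S21

end
-- ==== END Fermat.Agent.S21.H20_E1

-- ==== BEGIN Fermat.Agent.S23.H77_OfGS
section

/-!
# S23 from Galois stability alone (bounded denominators come from S22).
-/

set_option autoImplicit false

namespace Fermat.Agent.S23.H77

/-- `HasIntegralStructure N 2` from Galois stability (GS) of the `q`-expansions of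
`S₂(Γ₀(N))`; bounded denominators are supplied by the finiteness of the Hecke algebra (S22). -/
theorem hasIntegralStructure_of_GS (N : ℕ) [NeZero N]
    (GS : ∀ (σ : ℂ →+* ℂ) (f : CuspForm (CongruenceSubgroup.Gamma0 N) 2),
      ∃ g : CuspForm (CongruenceSubgroup.Gamma0 N) 2, ∀ n : ℕ,
        ModularFormClass.qCoeff g n = σ (ModularFormClass.qCoeff f n)) :
    CuspForm.HasIntegralStructure N 2 :=
  hasIntegralStructure_of_GS_BD N GS fun f hf =>
    bounded_denominators_of_finite (Fermat.Agent.S22.result N 2 ∅) f hf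

end Fermat.Agent.S23.H77

end
-- ==== END Fermat.Agent.S23.H77_OfGS

-- ==== BEGIN Fermat.Agent.S24.Asm.Genus
section

/-!
# S24 assembly: the genus from the counts (N > 1)
-/

set_option autoImplicit false

noncomputable section

namespace Fermat.Agent.S24

open CongruenceSubgroup ModularGroup ModularCurve AlgebraicCurve IntermediateField
  KaehlerDifferential
open scoped MatrixGroups

/-- The genus in terms of the Riemann–Hurwitz count. -/
theorem asm_genus_eq {K F : Type*} [Field K] [Field F] [Algebra K F] [IsAlgClosed K] [CharZero K]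
    [HasCanonicalDivisor (K := K) (F := F)]
    (hzeros : H59.ZerosStmt K F)
    (x : F) (hx : Transcendental K x) [FiniteDimensional K⟮x⟯ F]
    (S : Finset K) (r : K → ℕ)
    (hr : ∀ a ∈ S, Nat.card {v : Place K F // 0 < v.ord (x - algebraMap K F a)} = r a)
    (hS : ∀ a ∉ S, Nat.card {v : Place K F // 0 < v.ord (x - algebraMap K F a)}
      = Module.finrank K⟮x⟯ F)
    (rinf : ℕ) (hrinf : Nat.card {v : Place K F // v.ord x < 0} = rinf) :
    AlgebraicCurve.genus K F
      = ((∑ a ∈ S, ((Module.finrank K⟮x⟯ F : ℤ) - r a) - Module.finrank K⟮x⟯ F - rinf)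
          + 2).toNat / 2 := by
  have hex : ∃ ω : Ω[F⁄K], ω ≠ 0 := ⟨D K F x, ff_D_ne_zero x hx x hx⟩
  unfold AlgebraicCurve.genus
  rw [dif_pos hex]
  rw [ff_riemann_hurwitz_of_zeros hzeros x hx S r hr hS rinf hrinf hex.choose hex.choose_spec
    (canonicalDivisorOf hex.choose_spec) (fun v => canonicalDivisorOf_apply hex.choose_spec v)]

/-- The genus of `F_N` from a `ModClosure N`, for `1 < N`. -/
theorem asm_genus_of_modClosure (N : ℕ) [NeZero N]
    [HasCanonicalDivisor (K := Kbar) (F := FN N)] (hN : 1 < N) (M : ModClosure N)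
    (hzeros : H59.ZerosStmt Kbar (FN N)) :
    (AlgebraicCurve.genus Kbar (FN N) : ℚ) = genusFormula N := by
  classical
  have hx := asm_transcendental_jF M
  haveI := asm_finiteDimensional M
  have hn := asm_finrank M
  have h01728 : (0 : Kbar) ≠ 1728 := by norm_num
  have key := asm_genus_eq hzeros (jF N) hx {0, 1728}
    (fun a => if a = 0 then orbN N (S * T) else orbN N S)
    (by
      intro a ha
      rcases Finset.mem_insert.mp ha with rfl | ha
      · simpa using asm_card_zeros_zero M hN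
      · rw [Finset.mem_singleton] at ha
        subst ha
        simpa [h01728.symm] using asm_card_zeros_1728 M hN)
    (by
      intro a ha
      rw [Finset.mem_insert, Finset.mem_singleton, not_or] at ha
      rw [hn]
      exact asm_card_zeros_generic M a ha.1 ha.2)
    (orbN N T) (asm_card_poles M)
  rw [key]
  refine asm_genus_arith N _ ?_
  rw [Finset.sum_pair h01728, hn]
  simp [h01728.symm]

end Fermat.Agent.S24

end
end
-- ==== END Fermat.Agent.S24.Asm.Genus

-- ==== BEGIN Fermat.Agent.S24.Closure.Galois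
section

/-!
# S24 construction, layer 4 (WP CLO-Galois): `Frac (Atil N)` is Galois over `Q̄(j)`

To keep instance search fast we work with the type synonym `AT N` of `↥(Atil N)`.
-/

set_option autoImplicit false

noncomputable section

namespace Fermat.Agent.S24

open ModularCurve UpperHalfPlane
open scoped MatrixGroups Manifold

/-- `↥(Atil N)` as a type of its own (instance search does not unfold it). -/
def AT (N : ℕ) : Type := ↥(Atil N)

instance commRingAT (N : ℕ) : CommRing (AT N) := inferInstanceAs (CommRing ↥(Atil N))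
instance isDomainAT (N : ℕ) : IsDomain (AT N) := isDomain_Atil N
instance algebraKbarAT (N : ℕ) : Algebra Kbar (AT N) := inferInstanceAs (Algebra Kbar ↥(Atil N))
instance mulSemiringActionAT (N : ℕ) : MulSemiringAction SL(2, ℤ) (AT N) :=
  mulSemiringActionAtil N
instance smulCommClassAT (N : ℕ) : SMulCommClass SL(2, ℤ) Kbar (AT N) :=
  smulCommClass_SL_Kbar_Atil N

/-- The identification `Atil N ≃ AT N`. -/
def toAT (N : ℕ) : ↥(Atil N) ≃ₐ[Kbar] AT N := AlgEquiv.refl

/-- `j` in `AT N`. -/
def jT (N : ℕ) : AT N := toAT N (jA N)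

/-- The action of `SL(2, ℤ)` on `AT N` as a homomorphism to ring automorphisms. -/
def actHom (N : ℕ) : SL(2, ℤ) →* RingAut (AT N) := MulSemiringAction.toRingAut SL(2, ℤ) (AT N)

theorem actHom_apply (N : ℕ) (γ : SL(2, ℤ)) (f : AT N) : actHom N γ f = γ • f := rfl

/-- The finite group through which `SL(2, ℤ)` acts on `AT N`. -/
def G0 (N : ℕ) : Type := ↥(actHom N).range

instance groupG0 (N : ℕ) : Group (G0 N) := inferInstanceAs (Group ↥(actHom N).range)

instance mulSemiringActionG0 (N : ℕ) : MulSemiringAction (G0 N) (AT N) :=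
  inferInstanceAs (MulSemiringAction ↥(actHom N).range (AT N))

/-- `SL(2, ℤ) → G0 N`. -/
def toG0 (N : ℕ) : SL(2, ℤ) →* G0 N := (actHom N).rangeRestrict

theorem toG0_surjective (N : ℕ) : Function.Surjective (toG0 N) :=
  (actHom N).rangeRestrict_surjective

theorem toG0_smul (N : ℕ) (γ : SL(2, ℤ)) (f : AT N) : toG0 N γ • f = γ • f := rfl

theorem Gamma_le_ker_actHom (N : ℕ) [NeZero N] :
    CongruenceSubgroup.Gamma N ≤ (actHom N).ker := by
  intro γ hγ
  rw [MonoidHom.mem_ker]
  ext f
  exact smul_eq_of_mem_Gamma N γ hγ f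

instance finite_G0 (N : ℕ) [NeZero N] : Finite (G0 N) := by
  have : (actHom N).ker.FiniteIndex := Subgroup.finiteIndex_of_le (Gamma_le_ker_actHom N)
  exact Finite.of_equiv _ (QuotientGroup.quotientKerEquivRange (actHom N)).toEquiv

instance faithfulSMul_G0 (N : ℕ) : FaithfulSMul (G0 N) (AT N) :=
  ⟨fun h => Subtype.ext (RingEquiv.ext h)⟩

/-- `Q̄[X] → AT N`, `X ↦ j`. -/
instance algPolyAT (N : ℕ) : Algebra (Polynomial Kbar) (AT N) :=
  (Polynomial.aeval (jT N)).toRingHom.toAlgebra

theorem algebraMap_poly_AT (N : ℕ) (p : Polynomial Kbar) :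
    algebraMap (Polynomial Kbar) (AT N) p = Polynomial.aeval (jT N) p := rfl

theorem jT_transcendental (N : ℕ) : Transcendental Kbar (jT N) := jA_transcendental N

instance faithfulSMul_poly_AT (N : ℕ) : FaithfulSMul (Polynomial Kbar) (AT N) := by
  rw [faithfulSMul_iff_algebraMap_injective]
  exact transcendental_iff_injective.mp (jT_transcendental N)

instance isScalarTower_Kbar_poly_AT (N : ℕ) :
    IsScalarTower Kbar (Polynomial Kbar) (AT N) :=
  IsScalarTower.of_algebraMap_eq fun c => by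
    rw [algebraMap_poly_AT, Polynomial.algebraMap_apply, Polynomial.aeval_C]
    rfl

theorem smul_jT (N : ℕ) (γ : SL(2, ℤ)) : γ • jT N = jT N := smul_jA N γ

theorem smul_aeval_jT (N : ℕ) (γ : SL(2, ℤ)) (p : Polynomial Kbar) :
    γ • Polynomial.aeval (jT N) p = Polynomial.aeval (jT N) p := by
  induction p using Polynomial.induction_on' with
  | add p q hp hq => rw [map_add, smul_add, hp, hq]
  | monomial n c =>
    rw [← Polynomial.C_mul_X_pow_eq_monomial, map_mul, map_pow, Polynomial.aeval_C,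
      Polynomial.aeval_X, smul_mul', smul_pow', smul_jT, Algebra.algebraMap_eq_smul_one,
      smul_comm, smul_one]

instance smulCommClass_G0_poly_AT (N : ℕ) : SMulCommClass (G0 N) (Polynomial Kbar) (AT N) :=
  ⟨fun g p f => by
    obtain ⟨γ, rfl⟩ := toG0_surjective N g
    rw [toG0_smul, toG0_smul, Algebra.smul_def, Algebra.smul_def, smul_mul', algebraMap_poly_AT,
      smul_aeval_jT]⟩

instance isGaloisGroup_G0 (N : ℕ) [NeZero N] : IsGaloisGroup (G0 N) (Polynomial Kbar) (AT N) where
  faithful := faithfulSMul_G0 N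
  commutes := smulCommClass_G0_poly_AT N
  isInvariant := ⟨fun f hf => by
    have hf' : ∀ γ : SL(2, ℤ), γ • (show ↥(Atil N) from f) = (show ↥(Atil N) from f) :=
      fun γ => hf (toG0 N γ)
    obtain ⟨p, hp⟩ := lemmaJ N f hf'
    exact ⟨p, hp⟩⟩

/-- The base field `Q̄(j)`. -/
abbrev EN : Type := FractionRing (Polynomial Kbar)

/-- The Galois closure. -/
abbrev LN (N : ℕ) : Type := FractionRing (AT N)

instance algEL (N : ℕ) : Algebra EN (LN N) := FractionRing.liftAlgebra _ _

instance (N : ℕ) : IsScalarTower (Polynomial Kbar) EN (LN N) :=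
  FractionRing.isScalarTower_liftAlgebra _ _

instance mulSemiringAction_G0_LN (N : ℕ) : MulSemiringAction (G0 N) (LN N) :=
  IsFractionRing.mulSemiringAction (G0 N) (AT N) (LN N)

instance (N : ℕ) : SMulDistribClass (G0 N) (AT N) (LN N) :=
  IsFractionRing.smulDistribClass (G0 N) (AT N) (LN N)

instance isGaloisGroup_G0_LN (N : ℕ) [NeZero N] : IsGaloisGroup (G0 N) EN (LN N) :=
  IsGaloisGroup.to_isFractionRing (G0 N) (Polynomial Kbar) (AT N) EN (LN N)

instance (N : ℕ) [NeZero N] : IsGalois EN (LN N) := IsGaloisGroup.isGalois (G0 N) EN (LN N)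

instance (N : ℕ) [NeZero N] : FiniteDimensional EN (LN N) :=
  IsGaloisGroup.finiteDimensional (G0 N) EN (LN N)

/-- The action of the modular group on the Galois closure. -/
def piN (N : ℕ) [NeZero N] : SL(2, ℤ) →* (LN N ≃ₐ[EN] LN N) :=
  (IsGaloisGroup.mulEquivAlgEquiv (G0 N) EN (LN N)).toMonoidHom.comp (toG0 N)

theorem piN_surjective (N : ℕ) [NeZero N] : Function.Surjective (piN N) :=
  (IsGaloisGroup.mulEquivAlgEquiv (G0 N) EN (LN N)).surjective.comp (toG0_surjective N)

theorem piN_algebraMap (N : ℕ) [NeZero N] (γ : SL(2, ℤ)) (f : AT N) :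
    piN N γ (algebraMap (AT N) (LN N) f) = algebraMap (AT N) (LN N) (γ • f) := by
  show (toG0 N γ) • (algebraMap (AT N) (LN N) f) = algebraMap (AT N) (LN N) (γ • f)
  rw [← toG0_smul, algebraMap.smul']

end Fermat.Agent.S24

end
end
-- ==== END Fermat.Agent.S24.Closure.Galois

-- ==== BEGIN Fermat.Agent.S28.H30_CAStrong
section

/-!
# S28, WP-F, strengthened output for the reduction of `J₀(N)` (helper30, on request of helper73)

* `uls_Xfam`: the conjugates `X d q` of `j(dz)` have coefficients in `ℤ[ζ_N, 1/N]`, unit leading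
  coefficient and order `-(gcd(c, d)² · N / d)`;
* `exists_caData_strong`: a `CAData N` with (a) all `X d q`, `d ∣ N`, integral and
  (b) `(X N q).coeff (-N²) = 0` for `q ≠ q₀`.
-/

set_option autoImplicit false
set_option linter.unusedSectionVars false
set_option linter.unusedVariables false

open UpperHalfPlane ModularForm ModularCurve Function SlashInvariantForm
open scoped MatrixGroups ModularForm Manifold Real ArithmeticFunction.Moebius

noncomputable section

namespace Fermat.Agent.S28.H30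

open Fermat.Agent.S23.H22 (G0 Q toSL piPerm q1 E12)

/-! ### Level one forms with integral `q`-expansion -/

/-- `F` has integral `q`-expansion coefficients. -/
def IntQ {k : ℤ} (F : ModularForm 𝒮ℒ k) : Prop :=
  ∀ m : ℕ, ∃ c : ℤ, (qExpansion 1 F).coeff m = (c : ℂ)

lemma intQ_E12 : IntQ E12 := by
  intro m
  rw [Fermat.Agent.S28.H10.qExpansion_E12]
  exact (Fermat.Agent.S23.H96.mem_intSeries_iff _).mp
    (Subring.pow_mem _ Fermat.Agent.S23.H96.qExpansion_E₄_mem_intSeries 3) m

lemma qExpansion_E12_coeff_zero : (qExpansion 1 E12).coeff 0 = 1 := by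
  rw [Fermat.Agent.S28.H10.qExpansion_E12, PowerSeries.coeff_zero_eq_constantCoeff, map_pow,
    ← PowerSeries.coeff_zero_eq_constantCoeff_apply, Fermat.Agent.S23.H96.qExpansion_E₄_eq,
    PowerSeries.coeff_map, Fermat.Agent.S23.H96.coeff_e4Series]
  simp

variable (N : ℕ) [NeZero N]

section IntUT

variable {N}
variable {k : ℤ} (F : ModularForm 𝒮ℒ k)
variable (a b d : ℕ) (h : (a : ℝ) * (d : ℝ) ≠ 0)

include h in
lemma compCoeff_mem_of_intQ (hF : IntQ F) (hadN : a * d ∣ N) (n : ℕ) :
    Fermat.Agent.S23.H83.compCoeff F a b d n ∈ coeffRing N := by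
  have hd0 : d ≠ 0 := by
    have := ad_pos a d h
    rintro rfl
    simp at this
  have hdN : d ∣ N := dvd_trans (dvd_mul_left d a) hadN
  unfold Fermat.Agent.S23.H83.compCoeff
  split_ifs with hdiv
  · generalize n / a ^ 2 = y
    obtain ⟨c, hc⟩ := hF y
    rw [hc]
    refine (coeffRing N).mul_mem ?_ (intCast_mem_coeffRing N c)
    have := exp_mem_coeffRing N hdN hd0 ((b : ℤ) * (y : ℤ))
    convert this using 2
    push_cast
    ring
  · exact (coeffRing N).zero_mem

lemma pexp_compUT_coeff_eq (hadN : a * d ∣ N) (n : ℕ) :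
    (pexp N (compUT F a b d h)).coeff (n : ℤ) =
      if (N / (a * d)) ∣ n then Fermat.Agent.S23.H83.compCoeff F a b d (n / (N / (a * d)))
      else 0 := by
  rw [pexp_coeff_nat, qExpansion_compUT_coeff F a b d h hadN]

lemma pexp_compUT_coeff_mem (hF : IntQ F) (hadN : a * d ∣ N) (n : ℤ) :
    (pexp N (compUT F a b d h)).coeff n ∈ coeffRing N := by
  rcases lt_or_ge n 0 with hn | hn
  · rw [pexp_coeff_neg _ hn]; exact (coeffRing N).zero_mem
  · obtain ⟨m, rfl⟩ := Int.eq_ofNat_of_zero_le hn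
    rw [pexp_compUT_coeff_eq F a b d h hadN]
    split_ifs
    · exact compCoeff_mem_of_intQ F a b d h hF hadN _
    · exact (coeffRing N).zero_mem

/-- If `F = 1 + O(q)` is integral, the `t`-expansion of `F((az+b)/d)` is a unit power series. -/
theorem uls_compUT_of_intQ (hF : IntQ F) (hF0 : (qExpansion 1 F).coeff 0 = 1)
    (hadN : a * d ∣ N) :
    ULS (coeffRing N) (pexp N (compUT F a b d h)) 0 := by
  have hpos : 0 < a * d := ad_pos a d h
  have ha0 : a ≠ 0 := by rintro rfl; simp at hpos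
  have ha2 : 0 < a ^ 2 := by positivity
  have hlead : (pexp N (compUT F a b d h)).coeff 0 = 1 := by
    have := pexp_compUT_coeff_eq F a b d h hadN 0
    rw [Nat.cast_zero] at this
    rw [this, if_pos (dvd_zero _), Nat.zero_div]
    unfold Fermat.Agent.S23.H83.compCoeff
    rw [if_pos (dvd_zero _), Nat.zero_div, hF0]
    simp
  have hlead_ne : (pexp N (compUT F a b d h)).coeff 0 ≠ 0 := by
    rw [hlead]; exact one_ne_zero
  obtain ⟨hne, hord⟩ := order_eq_of_coeff hlead_ne (fun n hn => pexp_coeff_neg _ hn)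
  refine ⟨pexp_compUT_coeff_mem F a b d h hF hadN, hne, hord, ?_⟩
  rw [HahnSeries.leadingCoeff_eq, hord, hlead, inv_one]
  exact (coeffRing N).one_mem

end IntUT

/-! ### The slash constant -/

lemma zpow_mem_coeffRing {x : ℂ} (hx : x ∈ coeffRing N) (hx' : x⁻¹ ∈ coeffRing N) (n : ℤ) :
    x ^ n ∈ coeffRing N := by
  rcases Int.eq_nat_or_neg n with ⟨m, rfl | rfl⟩
  · rw [zpow_natCast]; exact (coeffRing N).pow_mem hx m
  · rw [zpow_neg, zpow_natCast, ← inv_pow]; exact (coeffRing N).pow_mem hx' m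

lemma slashConst_mem {a d : ℕ} (hadN : a * d ∣ N) (k : ℤ) :
    ((a : ℂ) * (d : ℂ)) ^ (k - 1) * (d : ℂ) ^ (-k) ∈ coeffRing N ∧
    (((a : ℂ) * (d : ℂ)) ^ (k - 1) * (d : ℂ) ^ (-k))⁻¹ ∈ coeffRing N := by
  have hdN : d ∣ N := dvd_trans (dvd_mul_left d a) hadN
  have h1 : ((a : ℂ) * (d : ℂ)) ∈ coeffRing N := by
    have := natCast_mem_coeffRing N (a * d)
    push_cast at this
    exact this
  have h1' : ((a : ℂ) * (d : ℂ))⁻¹ ∈ coeffRing N := by
    have := inv_natCast_mem_of_dvd N hadN
    push_cast at this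
    exact this
  have h2 : (d : ℂ) ∈ coeffRing N := natCast_mem_coeffRing N d
  have h2' : ((d : ℂ))⁻¹ ∈ coeffRing N := inv_natCast_mem_of_dvd N hdN
  refine ⟨(coeffRing N).mul_mem (zpow_mem_coeffRing N h1 h1' _) (zpow_mem_coeffRing N h2 h2' _), ?_⟩
  rw [mul_inv, ← zpow_neg, ← zpow_neg]
  exact (coeffRing N).mul_mem (zpow_mem_coeffRing N h1 h1' _) (zpow_mem_coeffRing N h2 h2' _)

/-! ### The conjugates of an integral level one form -/

theorem pexp_fam_coeff_mem {M : ℕ} (hM : M ∣ N) {k : ℤ} (F : ModularForm 𝒮ℒ k) (hF : IntQ F)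
    (q : Q N) (n : ℤ) : (pexp N (fam N M F q)).coeff n ∈ coeffRing N := by
  obtain ⟨γ, rfl⟩ := exists_rep N q
  obtain ⟨a, b, d, h, had, hgcd, heq⟩ := fam_eq_smul_compUT N hM F γ
  have hadN : a * d ∣ N := had ▸ hM
  rw [heq, pexp_smul _ (compUT_BPH F a b d h hadN), HahnSeries.C_mul_eq_smul,
    HahnSeries.coeff_smul, smul_eq_mul]
  exact (coeffRing N).mul_mem (slashConst_mem N hadN k).1
    (pexp_compUT_coeff_mem F a b d h hF hadN n)

theorem uls_fam_of_intQ {M : ℕ} (hM : M ∣ N) {k : ℤ} (F : ModularForm 𝒮ℒ k) (hF : IntQ F)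
    (hF0 : (qExpansion 1 F).coeff 0 = 1) (q : Q N) :
    ULS (coeffRing N) (pexp N (fam N M F q)) 0 := by
  obtain ⟨γ, rfl⟩ := exists_rep N q
  obtain ⟨a, b, d, h, had, hgcd, heq⟩ := fam_eq_smul_compUT N hM F γ
  have hadN : a * d ∣ N := had ▸ hM
  rw [heq, pexp_smul _ (compUT_BPH F a b d h hadN)]
  exact ULS.C_mul (slashConst_mem N hadN k).1 (slashConst_mem N hadN k).2
    (Fermat.Agent.S23.H83.slash_const_ne_zero a d h) (uls_compUT_of_intQ F a b d h hF hF0 hadN)

/-- **The conjugates of `j(dz)`**: coefficients in `ℤ[ζ_N, 1/N]`, unit leading coefficient,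
order `-(gcd(c, d)² · N / d)`. -/
theorem uls_Xfam {d : ℕ} (hd : d ∣ N) (γ : SL(2, ℤ)) :
    ULS (coeffRing N) (Fermat.Agent.S28.H76.Xfam N d (⟦toSL γ⟧ : Q N))
      (-((ordAt N d ((γ⁻¹ : SL(2, ℤ)) 1 0) : ℕ) : ℤ)) := by
  have h := (uls_fam_of_intQ N hd E12 intQ_E12 qExpansion_E12_coeff_zero (⟦toSL γ⟧ : Q N)).div
    (uls_fam_Delta N hd γ)
  rw [zero_sub] at h
  exact h

theorem Xfam_coeff_mem {d : ℕ} (hd : d ∣ N) (q : Q N) (n : ℤ) :
    (Fermat.Agent.S28.H76.Xfam N d q).coeff n ∈ coeffRing N := by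
  obtain ⟨γ, rfl⟩ := exists_rep N q
  exact (uls_Xfam N hd γ).coeffs n

/-- For `q ≠ q₀` the conjugate of `j(Nz)` has `t`-order `> -N²`. -/
theorem Xfam_order_gt (q : Q N) (hq : q ≠ q1) :
    -((N : ℤ) ^ 2) < (Fermat.Agent.S28.H76.Xfam N N q).order := by
  obtain ⟨γ, rfl⟩ := exists_rep N q
  rw [(uls_Xfam N dvd_rfl γ).ord, neg_lt_neg_iff]
  have hc := not_dvd_of_ne_q1 N hq
  set c := (γ⁻¹ : SL(2, ℤ)) 1 0 with hcdef
  have hNpos : 0 < N := Nat.pos_of_ne_zero (NeZero.ne N)
  have hgN : Int.gcd c (N : ℤ) ∣ N := by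
    have := Int.gcd_dvd_right c (N : ℤ)
    exact_mod_cast this
  have hlt : Int.gcd c (N : ℤ) < N := by
    refine lt_of_le_of_ne (Nat.le_of_dvd hNpos hgN) fun heq => hc ?_
    have := Int.gcd_dvd_left c (N : ℤ)
    rwa [heq] at this
  rw [ordAt, Nat.div_self hNpos, mul_one]
  have : (Int.gcd c (N : ℤ)) ^ 2 < N ^ 2 := Nat.pow_lt_pow_left hlt (by norm_num)
  exact_mod_cast this

theorem Xfam_coeff_neg_sq (q : Q N) (hq : q ≠ q1) :
    (Fermat.Agent.S28.H76.Xfam N N q).coeff (-((N : ℤ) ^ 2)) = 0 :=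
  HahnSeries.coeff_eq_zero_of_lt_order (Xfam_order_gt N q hq)

/-! ### The strengthened data -/

/-- The data for `N ≥ 2`, as a term. -/
def caDataEta (hN : 2 ≤ N) : CAData N where
  Q := Q N
  instFintype := inferInstance
  q₀ := q1
  D := Classical.choose (etaU_order_q1 N hN)
  D_pos := (Classical.choose_spec (etaU_order_q1 N hN)).1
  U := etaU N
  X := fun d q => Fermat.Agent.S28.H76.Xfam N d q
  U_coeff := fun q n => by
    obtain ⟨γ, rfl⟩ := exists_rep N q
    exact (uls_etaU N γ).coeffs n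
  U_ne := fun q => by
    obtain ⟨γ, rfl⟩ := exists_rep N q
    exact (uls_etaU N γ).ne
  U_lead := fun q => by
    obtain ⟨γ, rfl⟩ := exists_rep N q
    exact (uls_etaU N γ).lead
  U_order₀ := (Classical.choose_spec (etaU_order_q1 N hN)).2
  U_order_pos := fun q hq => etaU_order_pos N q hq
  X_q₀ := fun d _ hd => Fermat.Agent.S28.H76.Xfam_q1 N hd
  sym := fun d hd c s =>
    sym_of_stmt (mp := etaP N) (mm := etaMm N) Fermat.Agent.S28.H76.stmt_sym
      (etaM_dvd N) (eta_weight N) hd c s

/-- **Strengthened WP-F** (for the reduction of `J₀(N)`): the data can be chosen with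
(a) all conjugates of `j(dz)`, `d ∣ N`, having coefficients in `ℤ[ζ_N, 1/N]`, and
(b) the conjugates of `j(Nz)` at `q ≠ q₀` having `t`-order `> -N²`. -/
theorem exists_caData_strong (N : ℕ) [NeZero N] : ∃ D : CAData N,
    (∀ (d : ℕ) (q : D.Q) (n : ℤ), d ∣ N → (D.X d q).coeff n ∈ coeffRing N) ∧
    (∀ q : D.Q, q ≠ D.q₀ → (D.X N q).coeff (-((N : ℤ) ^ 2)) = 0) := by
  rcases Nat.lt_or_ge N 2 with h | h
  · have hN0 : N ≠ 0 := NeZero.ne N
    have h1 : N = 1 := by omega
    subst h1
    refine ⟨Fermat.Agent.S28.H10.caDataOne, fun d q n hd => ?_, fun q hq => ?_⟩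
    · exact iotaN_jq_coeffsIn 1 (coeffRing 1) n
    · exact absurd (Subsingleton.elim (α := Unit) q ()) hq
  · exact ⟨caDataEta N h, fun d q n hd => Xfam_coeff_mem N hd q n,
      fun q hq => Xfam_coeff_neg_sq N q hq⟩

end Fermat.Agent.S28.H30

end
end
-- ==== END Fermat.Agent.S28.H30_CAStrong
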