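-- GENERATED (merged mirror, NOTES/tools/trim/merge3_helper67.py): 8 modules of the originals, bodies verbatim.
import Fermat.Agent.Zm.S35_L07_000
import Fermat.Agent.Zm.S35_L05_002
import Fermat.Agent.Zm.S35_L07_002
import Fermat.Agent.Zm.S35_L01_000
import Fermat.Agent.Zm.S35_L07_003
import Fermat.Agent.Zm.S35_L01_002

-- ==== BEGIN Fermat.Agent.BAD.H28_KeyGen
section

/-!
# Item 65, package ABS (helper28), part P5: generic one-valuation steps of the key lemma

Port of the middle of helper17's `RedSetup.key` (`RED/H17_Key.lean`) to `PRed`, with an arbitrary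
finite index set for the coordinates:

* `PRed.key_ord_gen`: the orders of `f / ∏ h_i ^ m` on the disc of `Q`;
* `PRed.cong_formula`: the first order congruence
  `red (c (f - 1)) = red (c (f₂ - 1)) - m ∑ b_i / red (s_i)`.
-/

set_option autoImplicit false
set_option linter.style.haveILetI false
set_option maxHeartbeats 1000000

noncomputable section

open AlgebraicCurve

attribute [local instance] Classical.propDecidable

namespace Fermat.Agent.BAD

open Fermat.Agent.RED.H17 Fermat.Agent.RED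

local notation "L" => riemannRochSpace

namespace PRed

variable {K F k F' : Type*} [Field K] [Field F] [Algebra K F] [Field k] [Field F']
  [Algebra k F'] (S : PRed K F k F')

variable {S} in
/-- A unit minus a constant of the maximal ideal is a unit with the same reduction. -/
theorem IsGU.sub_const {s : F} (h : S.IsGU s) {a : K} (ha : algebraMap K F a ∈ S.V)
    (ha0 : S.rd (algebraMap K F a) = 0) :
    S.IsGU (s - algebraMap K F a) ∧ S.rd (s - algebraMap K F a) = S.rd s := by
  have hrd : S.rd (s - algebraMap K F a) = S.rd s := by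
    rw [S.rd_sub h.1 ha, ha0, sub_zero]
  exact ⟨⟨S.V.sub_mem h.1 ha, by rw [hrd]; exact h.2⟩, hrd⟩

/-- The orders of `f / ∏ h_i ^ m` on the disc of `Q`, where `h_i = (s_i - a_i) / s_i`. -/
theorem key_ord_gen (hP : HasPrincipalDivisors K F) {ι : Type*} (A : Finset ι) (s : ι → F)
    (a : ι → K) (hs : ∀ i ∈ A, S.IsGU (s i))
    (ha : ∀ i ∈ A, algebraMap K F (a i) ∈ S.V ∧ S.rd (algebraMap K F (a i)) = 0)
    {Q : Place k F'} (hQg : Q ∈ S.good) {i₀ : ι} (hi₀ : i₀ ∈ A)
    (hreg : ∀ i ∈ A, i ≠ i₀ → ∀ P, S.r P = some Q → 0 ≤ P.ord (s i))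
    (h0 : ∀ i ∈ A, i ≠ i₀ → Q.ord (S.rd (s i)) = 0)
    (m : ℕ) (f : F) (hf : f ≠ 0)
    (hord : ∀ P, S.r P = some Q →
      P.ord f = m * (P.ord (s i₀ - algebraMap K F (a i₀)) - P.ord (s i₀)))
    {P : Place K F} (hPQ : S.r P = some Q) :
    P.ord (f / (∏ i ∈ A, (s i - algebraMap K F (a i)) / s i) ^ m) = 0 := by
  have hsub : ∀ i ∈ A, S.IsGU (s i - algebraMap K F (a i)) := fun i hi =>
    ((hs i hi).sub_const (ha i hi).1 (ha i hi).2).1
  have hrdsub : ∀ i ∈ A, S.rd (s i - algebraMap K F (a i)) = S.rd (s i) := fun i hi =>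
    ((hs i hi).sub_const (ha i hi).1 (ha i hi).2).2
  have hhne : ∀ i ∈ A, (s i - algebraMap K F (a i)) / s i ≠ 0 := fun i hi =>
    div_ne_zero (hsub i hi).ne_zero (hs i hi).ne_zero
  have h1 : ∀ i ∈ A, i ≠ i₀ → P.ord ((s i - algebraMap K F (a i)) / s i) = 0 := by
    intro i hi hne
    have hreg1 := hreg i hi hne
    have e0 := h0 i hi hne
    have e1 : P.ord (s i) = 0 :=
      S.ord_eq_zero_of_ord_rd_eq_zero hP (hs i hi) Q hQg hreg1 e0 hPQ
    have hreg2 : ∀ P', S.r P' = some Q → 0 ≤ P'.ord (s i - algebraMap K F (a i)) :=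
      fun P' hP' =>
        ((regAt_of_ord_nonneg (hreg1 P' hP')).sub (regAt_algebraMap P' _)).ord_nonneg
    have e2 : P.ord (s i - algebraMap K F (a i)) = 0 :=
      S.ord_eq_zero_of_ord_rd_eq_zero hP (hsub i hi) Q hQg hreg2
        (by rw [hrdsub i hi]; exact e0) hPQ
    rw [ord_div P (hsub i hi).ne_zero (hs i hi).ne_zero, e1, e2]
    rfl
  have h2 : P.ord (∏ i ∈ A, (s i - algebraMap K F (a i)) / s i)
      = P.ord (s i₀ - algebraMap K F (a i₀)) - P.ord (s i₀) := by
    rw [ord_prod P A _ hhne, Finset.sum_eq_single_of_mem i₀ hi₀ fun i hi hne => h1 i hi hne,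
      ord_div P (hsub i₀ hi₀).ne_zero (hs i₀ hi₀).ne_zero]
  rw [ord_div P hf (pow_ne_zero _ (Finset.prod_ne_zero_iff.mpr hhne)), ord_pow, h2,
    hord P hPQ]
  ring

/-- The product `∏ (s_i - a_i) / s_i` is a unit with reduction `1`. -/
theorem isGU_prod_h {ι : Type*} (A : Finset ι) (s : ι → F) (a : ι → K)
    (hs : ∀ i ∈ A, S.IsGU (s i))
    (ha : ∀ i ∈ A, algebraMap K F (a i) ∈ S.V ∧ S.rd (algebraMap K F (a i)) = 0) :
    S.IsGU (∏ i ∈ A, (s i - algebraMap K F (a i)) / s i) ∧
      S.rd (∏ i ∈ A, (s i - algebraMap K F (a i)) / s i) = 1 := by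
  have hsub : ∀ i ∈ A, S.IsGU (s i - algebraMap K F (a i)) := fun i hi =>
    ((hs i hi).sub_const (ha i hi).1 (ha i hi).2).1
  have hrdsub : ∀ i ∈ A, S.rd (s i - algebraMap K F (a i)) = S.rd (s i) := fun i hi =>
    ((hs i hi).sub_const (ha i hi).1 (ha i hi).2).2
  have hhGU : ∀ i ∈ A, S.IsGU ((s i - algebraMap K F (a i)) / s i) := fun i hi =>
    (hsub i hi).div (hs i hi)
  have hhrd : ∀ i ∈ A, S.rd ((s i - algebraMap K F (a i)) / s i) = 1 := fun i hi => by
    rw [(hsub i hi).rd_div (hs i hi), hrdsub i hi, div_self (hs i hi).2]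
  refine ⟨IsGU.prod A _ hhGU, ?_⟩
  rw [(S.rd_prod A _ fun i hi => (hhGU i hi).1).2]
  exact Finset.prod_eq_one hhrd

/-- **First order congruence.**  With `h_i = (s_i - a_i) / s_i`, `f₂ = f / (∏ h_i) ^ m`,
`c⁻¹` in the maximal ideal, `c (f₂ - 1)` and the `c a_i` integral:
`red (c (f - 1)) = red (c (f₂ - 1)) - m ∑ b_i / red (s_i)`, `b_i = red (c a_i)`. -/
theorem cong_formula {ι : Type*} (A : Finset ι) (s : ι → F) (a : ι → K)
    (hs : ∀ i ∈ A, S.IsGU (s i))
    (ha : ∀ i ∈ A, algebraMap K F (a i) ∈ S.V ∧ S.rd (algebraMap K F (a i)) = 0)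
    (m : ℕ) (f : F)
    (c : K) (hc : c ≠ 0) (hdV : algebraMap K F c⁻¹ ∈ S.V)
    (hdrd : S.rd (algebraMap K F c⁻¹) = 0)
    (hαV : algebraMap K F c *
      (f / (∏ i ∈ A, (s i - algebraMap K F (a i)) / s i) ^ m - 1) ∈ S.V)
    (hβV : ∀ i ∈ A, algebraMap K F (c * a i) ∈ S.V)
    (b : ι → k) (hb : ∀ i ∈ A, S.rd (algebraMap K F (c * a i)) = algebraMap k F' (b i)) :
    algebraMap K F c * (f - 1) ∈ S.V ∧
      S.rd (algebraMap K F c * (f - 1)) =
        S.rd (algebraMap K F c *
          (f / (∏ i ∈ A, (s i - algebraMap K F (a i)) / s i) ^ m - 1)) -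
          (m : F') * ∑ i ∈ A, algebraMap k F' (b i) / S.rd (s i) := by
  set h : ι → F := fun i => (s i - algebraMap K F (a i)) / s i with hh
  set Hp : F := ∏ i ∈ A, h i with hHp
  obtain ⟨hHGU, hHrd⟩ := S.isGU_prod_h A s a hs ha
  set f₂ : F := f / Hp ^ m with hf₂
  have hff₂ : f = f₂ * Hp ^ m := by
    rw [hf₂, div_mul_cancel₀ _ (pow_ne_zero _ hHGU.ne_zero)]
  have hcF : algebraMap K F c ≠ 0 := (map_ne_zero_iff _ (algebraMap K F).injective).mpr hc
  have hcd : algebraMap K F c * algebraMap K F c⁻¹ = 1 := by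
    rw [← map_mul, mul_inv_cancel₀ hc, map_one]
  set α : F := algebraMap K F c * (f₂ - 1) with hα
  set γ : ι → F := fun i => algebraMap K F (c * a i) / s i with hγ
  have hγV : ∀ i ∈ A, γ i ∈ S.V := fun i hi => by
    simp only [hγ]
    rw [div_eq_mul_inv]
    exact S.V.mul_mem _ _ (hβV i hi) (hs i hi).inv_mem
  have hγrd : ∀ i ∈ A, S.rd (γ i) = algebraMap k F' (b i) / S.rd (s i) := fun i hi => by
    simp only [hγ]
    rw [div_eq_mul_inv, S.rd_mul (hβV i hi) (hs i hi).inv_mem, (hs i hi).rd_inv,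
      hb i hi, div_eq_mul_inv]
  have hhγ : ∀ i ∈ A, h i = 1 + algebraMap K F c⁻¹ * (-(γ i)) := by
    intro i hi
    have hne := (hs i hi).ne_zero
    simp only [hh, hγ, map_mul, map_inv₀]
    field_simp
    ring
  have hCongH : Cong S.V (algebraMap K F c⁻¹) (∑ i ∈ A, -(γ i)) Hp :=
    Cong.prod hdV A (fun i => -(γ i)) h (fun i hi => S.V.neg_mem _ (hγV i hi))
      (fun i hi => by rw [hhγ i hi]; exact cong_self _ _)
  have hsumV : ∑ i ∈ A, -(γ i) ∈ S.V :=
    Subring.sum_mem S.V.toSubring fun i hi => S.V.neg_mem _ (hγV i hi)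
  have hCongHm := hCongH.pow hdV hsumV m
  have hf₂α : f₂ = 1 + algebraMap K F c⁻¹ * α := by
    rw [hα]
    linear_combination (1 - f₂) * hcd
  have hCongf₂ : Cong S.V (algebraMap K F c⁻¹) α f₂ := ⟨0, S.V.zero_mem, by
    rw [mul_zero, add_zero]; exact hf₂α⟩
  have hmsumV : (m : F) * ∑ i ∈ A, -(γ i) ∈ S.V := S.V.mul_mem _ _ (S.natCast_mem_V m) hsumV
  have hCongf := hCongf₂.mul hdV hαV hmsumV hCongHm
  rw [← hff₂] at hCongf
  obtain ⟨ρ, hρ, hfρ⟩ := hCongf
  set φ : F := algebraMap K F c * (f - 1) with hφ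
  have hφeq : φ = α + (m : F) * ∑ i ∈ A, -(γ i) + algebraMap K F c⁻¹ * ρ := by
    rw [hφ]
    linear_combination (algebraMap K F c) * hfρ +
      (α + (m : F) * ∑ i ∈ A, -(γ i) + algebraMap K F c⁻¹ * ρ) * hcd
  have hφV : φ ∈ S.V := by
    rw [hφeq]
    exact S.V.add_mem _ _ (S.V.add_mem _ _ hαV hmsumV) (S.V.mul_mem _ _ hdV hρ)
  refine ⟨hφV, ?_⟩
  have e1 : ∑ i ∈ A, S.rd (-(γ i)) = -∑ i ∈ A, algebraMap k F' (b i) / S.rd (s i) := by
    rw [← Finset.sum_neg_distrib]
    apply Finset.sum_congr rfl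
    intro i hi
    rw [S.rd_neg (hγV i hi), hγrd i hi]
  rw [hφeq, S.rd_add (S.V.add_mem _ _ hαV hmsumV) (S.V.mul_mem _ _ hdV hρ),
    S.rd_mul hdV hρ, hdrd, zero_mul, add_zero, S.rd_add hαV hmsumV,
    S.rd_mul (S.natCast_mem_V m) hsumV, S.rd_natCast,
    (S.rd_sum A _ fun i hi => S.V.neg_mem _ (hγV i hi)).2, e1]
  ring

end PRed

end Fermat.Agent.BAD

end
end
-- ==== END Fermat.Agent.BAD.H28_KeyGen

-- ==== BEGIN Fermat.Agent.BAD.H42_Cusp
section

/-!
# Item 65, BAD_q, leaf CUSP (helper42): poles reduce to poles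

Abstract form of "the cusps reduce to the cusps".  Let `S : RedSetup K F k F'` be a reduction
datum with the divisor identity (conservation law) and `x` a Gauss unit whose degree does not
drop under reduction (`[F : K(x)] ≤ [F' : k(x~)]`).  Then every pole of `x` reduces to a pole of
`x~ = rd x`.  (Without the degree hypothesis this is false: `1 + π / x` has constant reduction.)

* `neg_of_mapDomain` : the combinatorial core (a push-forward of divisors which does not decrease
  the degree of the polar part maps poles to poles);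
* `negDeg`, `negDeg_dv_eq_finrank` : the degree of the polar part of `div x` is `[F : K(x)]`;
* `pole_of_pole`, `pole_of_pole_of_finrank` : poles of `x` reduce to poles of `rd x`;
* `ord_nonneg_of_ord_rd_nonneg` : if `rd x` is regular at `r P` then `x` is regular at `P`;
* `ord_nonneg_of_restrict_red` : the same for a place `P` of an extension `L ⊇ E` and the
  reduction of `P|_E` (the form used for `TotData.isNode_of_ord_ne_zero`).

This file contains no `sorry`.
-/

set_option autoImplicit false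

noncomputable section

open AlgebraicCurve IntermediateField

namespace Fermat.Agent.BAD.H42

open Fermat.Agent.RED.H17 Fermat.Agent.RED Fermat.Agent.S24

section Comb

variable {α β : Type*}

/-- The degree of the polar part of a divisor. -/
def negDeg (D : α →₀ ℤ) : ℤ := ∑ a ∈ D.support, max (-D a) 0

theorem negDeg_nonneg (D : α →₀ ℤ) : 0 ≤ negDeg D :=
  Finset.sum_nonneg fun _ _ => le_max_right _ _

/-- **Combinatorial core**: if `r_* D = D'` and the degree of the polar part of `D` is at most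
the degree of the polar part of `D'`, then `r` maps the poles of `D` to poles of `D'`. -/
theorem neg_of_mapDomain (r : α → β) (D : α →₀ ℤ) (D' : β →₀ ℤ)
    (h : Finsupp.mapDomain r D = D') (hdeg : negDeg D ≤ negDeg D') (a : α) (ha : D a < 0) :
    D' (r a) < 0 := by
  classical
  by_contra hge
  -- `g b ≤ ∑_{r a = b} f a` for poles `b`
  have h1 : ∀ b, max (-D' b) 0 ≤
      if D' b < 0 then ∑ a ∈ D.support, (if r a = b then max (-D a) 0 else 0) else 0 := by
    intro b
    split_ifs with hb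
    · have hb' : D' b = ∑ a ∈ D.support, if r a = b then D a else 0 := by
        rw [← h, mapDomain_apply_eq_sum]
      refine max_le ?_ (Finset.sum_nonneg fun a _ => ?_)
      · rw [hb', ← Finset.sum_neg_distrib]
        refine Finset.sum_le_sum fun a _ => ?_
        split_ifs
        · exact le_max_left _ _
        · simp
      · split_ifs
        · exact le_max_right _ _
        · exact le_rfl
    · exact max_le (by omega) le_rfl
  have h2 : negDeg D' ≤ ∑ a ∈ D.support, if D' (r a) < 0 then max (-D a) 0 else 0 := by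
    calc negDeg D' ≤ ∑ b ∈ D'.support,
          if D' b < 0 then ∑ a ∈ D.support, (if r a = b then max (-D a) 0 else 0) else 0 :=
        Finset.sum_le_sum fun b _ => h1 b
      _ = ∑ b ∈ D'.support, ∑ a ∈ D.support,
          (if D' b < 0 then (if r a = b then max (-D a) 0 else 0) else 0) := by
        refine Finset.sum_congr rfl fun b _ => ?_
        split_ifs
        · rfl
        · simp
      _ = ∑ a ∈ D.support, ∑ b ∈ D'.support,
          (if D' b < 0 then (if r a = b then max (-D a) 0 else 0) else 0) := Finset.sum_comm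
      _ = ∑ a ∈ D.support, if D' (r a) < 0 then max (-D a) 0 else 0 := by
        refine Finset.sum_congr rfl fun a _ => ?_
        by_cases hra : D' (r a) < 0
        · rw [if_pos hra]
          have hmem : r a ∈ D'.support := by
            rw [Finsupp.mem_support_iff]; omega
          rw [Finset.sum_eq_single (r a)]
          · rw [if_pos hra, if_pos rfl]
          · intro b _ hb
            split_ifs with h1 h2
            · exact absurd h2.symm hb
            · rfl
            · rfl
          · intro h'; exact absurd hmem h'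
        · rw [if_neg hra]
          refine Finset.sum_eq_zero fun b _ => ?_
          by_cases hb : D' b < 0
          · rw [if_pos hb, if_neg]
            rintro rfl
            exact hra hb
          · rw [if_neg hb]
  have h3 : ∑ a ∈ D.support, (max (-D a) 0 - if D' (r a) < 0 then max (-D a) 0 else 0) ≤ 0 := by
    rw [Finset.sum_sub_distrib]
    have : negDeg D = ∑ a ∈ D.support, max (-D a) 0 := rfl
    omega
  have h4 : ∀ a ∈ D.support,
      0 ≤ max (-D a) 0 - if D' (r a) < 0 then max (-D a) 0 else 0 := by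
    intro a _
    split_ifs
    · simp
    · simp
  have hmem : a ∈ D.support := by
    rw [Finsupp.mem_support_iff]; omega
  have h5 := (Finset.sum_eq_zero_iff_of_nonneg h4).1
    (le_antisymm h3 (Finset.sum_nonneg h4)) a hmem
  rw [if_neg hge, sub_zero] at h5
  have : -D a ≤ max (-D a) 0 := le_max_left _ _
  omega

end Comb

section PoleDeg

variable {K F : Type*} [Field K] [Field F] [Algebra K F]

/-- The degree of the polar part of `div x` is `[F : K(x)]`. -/
theorem negDeg_dv_eq_finrank (hP : HasPrincipalDivisors K F) (hz : H59.ZerosStmt K F) {x : F}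
    (hx : Transcendental K x) [FiniteDimensional K⟮x⟯ F] :
    negDeg (dv hP x) = (Module.finrank K⟮x⟯ F : ℤ) := by
  classical
  have htr' : Transcendental K x⁻¹ := fun h => hx (IsAlgebraic.inv_iff.mp h)
  have : FiniteDimensional K⟮x⁻¹⟯ F := ff_finite_of_transcendental x hx x⁻¹ htr'
  obtain ⟨hfin, hsum⟩ := hz x⁻¹ htr'
  rw [H59.finrank_adjoin_inv] at hsum
  rw [← hsum, finsum_mem_eq_finite_toFinset_sum _ hfin]
  unfold negDeg
  symm
  have hsub : hfin.toFinset ⊆ (dv hP x).support := by
    intro v hv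
    simp only [Set.Finite.mem_toFinset, Set.mem_ofPred_eq, Place.ord_inv] at hv
    rw [Finsupp.mem_support_iff, dv_apply]
    omega
  rw [← Finset.sum_subset hsub]
  · refine Finset.sum_congr rfl fun v hv => ?_
    simp only [Set.Finite.mem_toFinset, Set.mem_ofPred_eq, Place.ord_inv] at hv
    rw [dv_apply, Place.ord_inv]
    omega
  · intro v _ hv
    simp only [Set.Finite.mem_toFinset, Set.mem_ofPred_eq, Place.ord_inv] at hv
    rw [dv_apply]
    omega

end PoleDeg

section Red

variable {K F k F' : Type*} [Field K] [Field F] [Algebra K F] [Field k] [Field F']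
  [Algebra k F'] (S : RedSetup K F k F')

/-- **CUSP, abstract form**: if the degree of the polar part does not drop under reduction,
poles of the Gauss unit `x` reduce to poles of `rd x`. -/
theorem pole_of_pole (hP : HasPrincipalDivisors K F) (hP' : HasPrincipalDivisors k F')
    {x : F} (hx : S.IsGU x) (hdeg : negDeg (dv hP x) ≤ negDeg (dv hP' (S.rd x)))
    (P : Place K F) (hPx : P.ord x < 0) : (S.r P).ord (S.rd x) < 0 := by
  have h := S.DI ⟨x, hx.mem⟩ (by rw [← S.rd_of_mem hx.mem]; exact hx.rd_ne_zero) (dv hP x)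
    (fun P => dv_apply hP x P)
  have h' : Finsupp.mapDomain S.r (dv hP x) = dv hP' (S.rd x) := by
    ext Q
    rw [h Q, dv_apply, S.rd_of_mem hx.mem]
  have h2 := neg_of_mapDomain S.r _ _ h' hdeg P (by rwa [dv_apply])
  rwa [dv_apply] at h2

/-- **CUSP**: if `[F : K(x)] ≤ [F' : k(rd x)]`, poles of the Gauss unit `x` reduce to poles of
`rd x`. -/
theorem pole_of_pole_of_finrank (hP : HasPrincipalDivisors K F)
    (hP' : HasPrincipalDivisors k F') (hz : H59.ZerosStmt K F) (hz' : H59.ZerosStmt k F')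
    {x : F} (hx : S.IsGU x) (hxt : Transcendental K x) (hxt' : Transcendental k (S.rd x))
    [FiniteDimensional K⟮x⟯ F] [FiniteDimensional k⟮S.rd x⟯ F']
    (hdeg : Module.finrank K⟮x⟯ F ≤ Module.finrank k⟮S.rd x⟯ F')
    (P : Place K F) (hPx : P.ord x < 0) : (S.r P).ord (S.rd x) < 0 := by
  refine pole_of_pole S hP hP' hx ?_ P hPx
  rw [negDeg_dv_eq_finrank hP hz hxt, negDeg_dv_eq_finrank hP' hz' hxt']
  exact_mod_cast hdeg

/-- If `rd x` is regular at `r P` then `x` is regular at `P` (for `x` as above). -/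
theorem ord_nonneg_of_ord_rd_nonneg (hP : HasPrincipalDivisors K F)
    (hP' : HasPrincipalDivisors k F') (hz : H59.ZerosStmt K F) (hz' : H59.ZerosStmt k F')
    {x : F} (hx : S.IsGU x) (hxt : Transcendental K x) (hxt' : Transcendental k (S.rd x))
    [FiniteDimensional K⟮x⟯ F] [FiniteDimensional k⟮S.rd x⟯ F']
    (hdeg : Module.finrank K⟮x⟯ F ≤ Module.finrank k⟮S.rd x⟯ F')
    (P : Place K F) (hQ : 0 ≤ (S.r P).ord (S.rd x)) : 0 ≤ P.ord x := by
  by_contra hPx
  have := pole_of_pole_of_finrank S hP hP' hz hz' hx hxt hxt' hdeg P (not_le.1 hPx)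
  omega

end Red

section Tower

variable {K E L : Type*} [Field K] [Field E] [Field L] [Algebra K E] [Algebra K L]
  [Algebra E L] [IsScalarTower K E L] [Algebra.IsIntegral E L]

/-- Regularity at the restricted place gives regularity upstairs. -/
theorem ord_algebraMap_nonneg_of_restrict (P : Place K L) (x : E)
    (h : 0 ≤ (P.restrict E).ord x) : 0 ≤ P.ord (algebraMap E L x) := by
  rw [P.ord_restrict x]
  exact mul_nonneg (Int.natCast_nonneg _) h

/-- A pole upstairs is a pole at the restricted place. -/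
theorem ord_restrict_neg_of_ord_algebraMap_neg (P : Place K L) (x : E)
    (h : P.ord (algebraMap E L x) < 0) : (P.restrict E).ord x < 0 := by
  by_contra hge
  have := ord_algebraMap_nonneg_of_restrict P x (not_lt.1 hge)
  omega

end Tower

section TotForm

variable {K E L k E' : Type*} [Field K] [Field E] [Field L] [Algebra K E] [Algebra K L]
  [Algebra E L] [IsScalarTower K E L] [Algebra.IsIntegral E L] [Field k] [Field E']
  [Algebra k E']

/-- **CUSP, in the form used for the nodes**: `SE` the reduction datum of the lower level `E`,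
`x ∈ E` a Gauss unit whose degree does not drop (modular: `x = j`).  If `P` is a place of `L`
such that `rd x` is regular at the reduction of `P|_E`, then `x` is regular at `P`. -/
theorem ord_nonneg_of_restrict_red (SE : RedSetup K E k E') (hP : HasPrincipalDivisors K E)
    (hP' : HasPrincipalDivisors k E') (hz : H59.ZerosStmt K E) (hz' : H59.ZerosStmt k E')
    {x : E} (hx : SE.IsGU x) (hxt : Transcendental K x) (hxt' : Transcendental k (SE.rd x))
    [FiniteDimensional K⟮x⟯ E] [FiniteDimensional k⟮SE.rd x⟯ E']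
    (hdeg : Module.finrank K⟮x⟯ E ≤ Module.finrank k⟮SE.rd x⟯ E')
    (P : Place K L) (hQ : 0 ≤ (SE.r (P.restrict E)).ord (SE.rd x)) :
    0 ≤ P.ord (algebraMap E L x) :=
  ord_algebraMap_nonneg_of_restrict P x
    (ord_nonneg_of_ord_rd_nonneg SE hP hP' hz hz' hx hxt hxt' hdeg _ hQ)

end TotForm

end Fermat.Agent.BAD.H42

end
end
-- ==== END Fermat.Agent.BAD.H42_Cusp

-- ==== BEGIN Fermat.Agent.BAD.H79_Defs
section

/-!
# Item 65, package CONS-ss (helper79): the abstract semistable Deuring datum from TOTAL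
conservation.  Definitions.

Setting: `L / K` a function field (modular: `L = F_N · ℚ̄`, `N = M q`), two valuation rings
`V₁`, `V₂` of `L` with residue maps onto function fields `L₁`, `L₂` over `k` (the two extensions of
the Gauss valuation of level `M`), a map `ρ : Place K L → Place k L₁` (modular: the reduction of
the restriction of the place to level `M`) and a bijection `β : Place k L₁ ≃ Place k L₂` (the
place of the second component over the same point of level `M`).

* `VRed K F k F'` : a valuation ring with residue map (helper28's `PRed` without the reduction of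
  places); `VRed.toPRed` gives access to helper28's API (`rd`, `IsGU`, ...).
* `TotData K L k L₁ L₂` : the data above with the law of TOTAL conservation `tot`
  (`∑_{ρ P = z} ord_P f = ord_z (red₁ u₁) + ord_{β z} (red₂ u₂)`), a uniformizer of the FIRST
  component regular on the fibre (`unif`), a separating element (`sep`) and rank one (`arch`).
* `TotData.InR z f` : `f` is integral for both valuations, without pole on the fibre of `z`.
* `TotData.IsNode z` : the two reductions of every `f ∈ R_z` have the same value at `z`, `β z`.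
* `TotData.OnSide₁ P`, `TotData.OnSide₂ P` : the value at `P` of every `f ∈ R_{ρ P}` reduces to the
  value of the first (second) reduction.

The theorem of the package (`H79_SSD.lean`): a `TotData` with one node gives an `SSD`
(`TotData.toSSD`) with nodes `{(z, β z) | IsNode z}`; no further input.
-/

set_option autoImplicit false
set_option linter.style.haveILetI false

noncomputable section

open AlgebraicCurve

attribute [local instance] Classical.propDecidable

namespace Fermat.Agent.BAD.H79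

open Fermat.Agent.RED.H17 Fermat.Agent.RED Fermat.Agent.BAD

/-- A valuation ring of the function field `F / K` with residue map onto `F'` (a `PRed` without
the reduction of places). -/
structure VRed (K F k F' : Type*) [Field K] [Field F] [Algebra K F] [Field k] [Field F']
    [Algebra k F'] where
  /-- the valuation ring -/
  V : ValuationSubring F
  /-- reduction of integral functions -/
  red : V →+* F'
  red_eq_zero_iff : ∀ u : V, red u = 0 ↔ u ∈ IsLocalRing.maximalIdeal V
  red_surj : Function.Surjective red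
  /-- every non-zero function is a constant times a unit -/
  exists_scale : ∀ f : F, f ≠ 0 → ∃ c : K, c ≠ 0 ∧
    ∃ h : algebraMap K F c * f ∈ V, red ⟨_, h⟩ ≠ 0
  /-- integral constants reduce to constants -/
  red_const : ∀ (c : K) (h : algebraMap K F c ∈ V), ∃ c' : k, red ⟨_, h⟩ = algebraMap k F' c'
  /-- every constant of the residue field lifts -/
  const_surj : ∀ c' : k, ∃ (c : K) (h : algebraMap K F c ∈ V),
    red ⟨_, h⟩ = algebraMap k F' c'

/-- The `PRed` of a `VRed` with empty reduction map (to use helper28's API). -/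
def VRed.toPRed {K F k F' : Type*} [Field K] [Field F] [Algebra K F] [Field k] [Field F']
    [Algebra k F'] (B : VRed K F k F') : PRed K F k F' where
  V := B.V
  red := B.red
  red_eq_zero_iff := B.red_eq_zero_iff
  red_surj := B.red_surj
  exists_scale := B.exists_scale
  red_const := B.red_const
  const_surj := B.const_surj
  r := fun _ => none
  good := ∅
  DI := fun _ _ _ _ Q hQ => absurd hQ (Set.notMem_empty Q)

/-- **Total conservation datum**: two valuation rings of `L` with residue fields `L₁`, `L₂`, a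
reduction map `ρ` to the places of `L₁`, a bijection `β` between the places of `L₁` and `L₂`, and
the law of total conservation. -/
structure TotData (K L k L₁ L₂ : Type*) [Field K] [Field L] [Algebra K L] [Field k] [Field L₁]
    [Algebra k L₁] [Field L₂] [Algebra k L₂] where
  /-- the first valuation -/
  b₁ : VRed K L k L₁
  /-- the second valuation -/
  b₂ : VRed K L k L₂
  /-- the two valuations agree on the constants -/
  const_mem : ∀ c : K, algebraMap K L c ∈ b₁.V ↔ algebraMap K L c ∈ b₂.V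
  const_red : ∀ (c : K) (h₁ : algebraMap K L c ∈ b₁.V) (h₂ : algebraMap K L c ∈ b₂.V) (a : k),
    b₁.red ⟨_, h₁⟩ = algebraMap k L₁ a → b₂.red ⟨_, h₂⟩ = algebraMap k L₂ a
  /-- the reduction map (to the points of the curve of lower level) -/
  ρ : Place K L → Place k L₁
  /-- the point of the second component over a point of the first -/
  β : Place k L₁ ≃ Place k L₂
  /-- TOTAL conservation: the number of zeros minus poles of `u` in the fibre of `z` is the sum
  of the orders of the two (scaled) reductions at `z` and `β z` -/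
  tot : ∀ (u₁ : b₁.V) (u₂ : b₂.V), b₁.red u₁ ≠ 0 → b₂.red u₂ ≠ 0 →
    (∃ c : K, (u₂ : L) = algebraMap K L c * (u₁ : L)) →
    ∀ D : Divisor K L, (∀ P, D P = P.ord (u₁ : L)) → ∀ z : Place k L₁,
      Finsupp.mapDomain ρ D z = z.ord (b₁.red u₁) + (β z).ord (b₂.red u₂)
  /-- a uniformizer of the first component at `z`, integral for both valuations and regular on
  the fibre of `z` (modular: a function of the lower level) -/
  unif : ∀ z : Place k L₁, ∃ (t : L) (h₁ : t ∈ b₁.V), t ∈ b₂.V ∧
    (∀ P, ρ P = z → 0 ≤ P.ord t) ∧ z.ord (b₁.red ⟨t, h₁⟩) = 1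
  /-- a separating element: the two valuations are different -/
  sep : ∃ (e : L) (h₁ : e ∈ b₁.V) (h₂ : e ∈ b₂.V), b₁.red ⟨e, h₁⟩ ≠ 0 ∧ b₂.red ⟨e, h₂⟩ = 0
  /-- rank one: a power of a constant of the maximal ideal is divisible by any non-zero
  constant -/
  arch : ∀ (c d : K) (h : algebraMap K L c ∈ b₁.V), b₁.red ⟨_, h⟩ = 0 → d ≠ 0 →
    ∃ m : ℕ, algebraMap K L (c ^ m / d) ∈ b₁.V

namespace TotData

variable {K L k L₁ L₂ : Type*} [Field K] [Field L] [Algebra K L] [Field k] [Field L₁]
  [Algebra k L₁] [Field L₂] [Algebra k L₂] (T : TotData K L k L₁ L₂)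

/-- The first valuation as a `PRed` (for helper28's API). -/
abbrev p₁ : PRed K L k L₁ := T.b₁.toPRed

/-- The second valuation as a `PRed` (for helper28's API). -/
abbrev p₂ : PRed K L k L₂ := T.b₂.toPRed

/-- `f ∈ R_z`: integral for both valuations, without pole on the fibre of `z`. -/
def InR (z : Place k L₁) (f : L) : Prop :=
  f ∈ T.b₁.V ∧ f ∈ T.b₂.V ∧ ∀ P, T.ρ P = z → RegAt P f

/-- `z` is a **node**: for every `f ∈ R_z` the two reductions take the same value at `z` and at
`β z`. -/
def IsNode (z : Place k L₁) : Prop :=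
  ∀ f : L, T.InR z f → ∀ a : k,
    (VanAt z (T.p₁.rd f - algebraMap k L₁ a) ↔ VanAt (T.β z) (T.p₂.rd f - algebraMap k L₂ a))

/-- `P` lies on the first side: the value at `P` of `f ∈ R_{ρ P}` reduces to the value of the
first reduction of `f` at `ρ P`. -/
def OnSide₁ (P : Place K L) : Prop :=
  ∀ f : L, T.InR (T.ρ P) f → ∀ a : K, VanAt P (f - algebraMap K L a) →
    VanAt (T.ρ P) (T.p₁.rd f - T.p₁.rd (algebraMap K L a))

/-- `P` lies on the second side. -/
def OnSide₂ (P : Place K L) : Prop :=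
  ∀ f : L, T.InR (T.ρ P) f → ∀ a : K, VanAt P (f - algebraMap K L a) →
    VanAt (T.β (T.ρ P)) (T.p₂.rd f - T.p₂.rd (algebraMap K L a))

/-- The partial reduction map of the first component. -/
def r₁ (P : Place K L) : Option (Place k L₁) := if T.OnSide₁ P then some (T.ρ P) else none

/-- The partial reduction map of the second component. -/
def r₂ (P : Place K L) : Option (Place k L₂) :=
  if T.OnSide₂ P then some (T.β (T.ρ P)) else none

end TotData

end Fermat.Agent.BAD.H79

end
end
-- ==== END Fermat.Agent.BAD.H79_Defs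

-- ==== BEGIN Fermat.Agent.BAD.H82_ArchF
section

/-!
# Item 65, package V2 (helper82): rank one for the Gauss valuation of `F_N · Q̄`

`arch_gaussV` is the field `arch` of helper79's `TotData` for the Gauss valuation ring
`gaussV A N` (`A` a valuation ring of `Q̄` over the prime `q`).
-/

set_option autoImplicit false

noncomputable section

open ModularCurve Fermat.Agent.S28 Fermat.Agent.S28.H73 Fermat.Agent.RED.H73

namespace Fermat.Agent.BAD.H82

theorem isAlgebraic_int_Qbar (x : AlgebraicClosure ℚ) : IsAlgebraic ℤ x :=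
  (IsFractionRing.isAlgebraic_iff ℤ ℚ (AlgebraicClosure ℚ)).2
    ((AlgebraicClosure.isAlgebraic ℚ).isAlgebraic x)

/-- **Rank one** for a valuation ring of `Q̄` over `q`. -/
theorem arch_Qbar (A : ValuationSubring (AlgebraicClosure ℚ)) {q : ℕ} (hq : q.Prime)
    (hA : A.LiesOverPrime q) {c d : AlgebraicClosure ℚ} (hc : c ∈ A.nonunits) (hd : d ≠ 0) :
    ∃ m : ℕ, c ^ m / d ∈ A :=
  arch A hq hA isAlgebraic_int_Qbar hc hd

/-- A constant with reduction `0` is a non-unit of `A`. -/
theorem mem_nonunits_of_gaussRes_eq_zero (A : ValuationSubring (AlgebraicClosure ℚ)) (N : ℕ)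
    (c : AlgebraicClosure ℚ) (h : algebraMap (AlgebraicClosure ℚ) ↥(FNbar N) c ∈ gaussV A N)
    (h0 : gaussRes A N ⟨_, h⟩ = 0) : c ∈ A.nonunits := by
  have hcA : c ∈ A := (algebraMap_mem_gaussValSub_iff A _ c).1 h
  have h1 : gaussResF A (hasScale_laurentBaseChange A N)
      ⟨algebraMap (AlgebraicClosure ℚ) ↥(FNbar N) ((⟨c, hcA⟩ : ↥A) : AlgebraicClosure ℚ), h⟩ = 0 :=
    congrArg Subtype.val h0
  rw [gaussResF_algebraMap A (hasScale_laurentBaseChange A N) ⟨c, hcA⟩ h] at h1
  have h2 : resV A ⟨c, hcA⟩ = 0 := by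
    have := congrArg (fun s : LaurentSeries (kV A) => s.coeff 0) h1
    simpa using this
  rw [ValuationSubring.mem_nonunits_iff_exists_mem_maximalIdeal]
  exact ⟨hcA, (IsLocalRing.residue_eq_zero_iff _).1 h2⟩

/-- **Rank one** for the Gauss valuation ring of `F_N · Q̄` (the field `arch` of `TotData`). -/
theorem arch_gaussV (A : ValuationSubring (AlgebraicClosure ℚ)) {q : ℕ} (hq : q.Prime)
    (hA : A.LiesOverPrime q) (N : ℕ) (c d : AlgebraicClosure ℚ)
    (h : algebraMap (AlgebraicClosure ℚ) ↥(FNbar N) c ∈ gaussV A N)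
    (h0 : gaussRes A N ⟨_, h⟩ = 0) (hd : d ≠ 0) :
    ∃ m : ℕ, algebraMap (AlgebraicClosure ℚ) ↥(FNbar N) (c ^ m / d) ∈ gaussV A N := by
  obtain ⟨m, hm⟩ := arch_Qbar A hq hA (mem_nonunits_of_gaussRes_eq_zero A N c h h0) hd
  exact ⟨m, (algebraMap_mem_gaussValSub_iff A _ _).2 hm⟩

end Fermat.Agent.BAD.H82

end
end
-- ==== END Fermat.Agent.BAD.H82_ArchF

-- ==== BEGIN Fermat.Agent.BAD.H82_FrGauss
section

/-!
# Item 65, package V2 (helper82), part (D): the substitution `t ↦ t ^ q` and the Gauss ring;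
the inequality `f ≤ n`

* `Fr_mem_gaussRingV`, `gaussRedV_Fr` : the substitution `Fr = (t ↦ t ^ n)` preserves the Gauss
  ring and commutes with the reduction;
* `mem_gaussRingV_of_Fr_mem` : conversely, for `x` with the scaling property, `Fr x` in the Gauss
  ring implies `x` in the Gauss ring;
* `linearIndependent_of_red` (**`f ≤ n`**) : elements of a valuation ring `V` of `F` whose
  reductions are linearly independent over a subfield containing the reductions of `V ∩ E` are
  linearly independent over `E`.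
-/

set_option autoImplicit false

noncomputable section

open ModularCurve Fermat.Agent.S28 Fermat.Agent.S28.H73 Fermat.Agent.RED.H73

namespace Fermat.Agent.BAD.H82

section Fr

variable {C : Type} [Field C] (O : ValuationSubring C) (n : ℕ) [NeZero n]

theorem Fr_iotaV (g : LaurentSeries ↥O) :
    qExpand C n (iotaV O g) = iotaV O (qExpand ↥O n g) := by
  rw [iotaV, coeffMap_qExpand]

theorem redV_Fr (g : LaurentSeries ↥O) :
    redV O (qExpand ↥O n g) = qExpand (kV O) n (redV O g) := by
  rw [redV, coeffMap_qExpand]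

theorem redV_Fr_ne_zero {g : LaurentSeries ↥O} (hg : redV O g ≠ 0) :
    redV O (qExpand ↥O n g) ≠ 0 := by
  rw [redV_Fr]
  intro h
  exact hg (qExpand_injective (R := kV O) n (by rw [h, map_zero]))

/-- `Fr` preserves the Gauss ring. -/
theorem Fr_mem_gaussRingV {x : LaurentSeries C} (hx : x ∈ gaussRingV O) :
    qExpand C n x ∈ gaussRingV O := by
  obtain ⟨g, h, hg, e⟩ := hx
  refine ⟨qExpand ↥O n g, qExpand ↥O n h, redV_Fr_ne_zero O n hg, ?_⟩
  rw [← Fr_iotaV, ← Fr_iotaV, ← map_mul, e]

/-- `Fr` commutes with the reduction. -/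
theorem gaussRedV_Fr {x : LaurentSeries C} (hx : x ∈ gaussRingV O)
    (hx' : qExpand C n x ∈ gaussRingV O) :
    gaussRedV O ⟨qExpand C n x, hx'⟩ = qExpand (kV O) n (gaussRedV O ⟨x, hx⟩) := by
  have hx0 := hx
  obtain ⟨g, h, hg, e⟩ := hx0
  have e' : iotaV O (qExpand ↥O n g) * qExpand C n x = iotaV O (qExpand ↥O n h) := by
    rw [← Fr_iotaV, ← Fr_iotaV, ← map_mul, e]
  rw [gaussRedV_eq O ⟨qExpand C n x, hx'⟩ (redV_Fr_ne_zero O n hg) e',
    gaussRedV_eq O ⟨x, hx⟩ hg e, map_div₀, redV_Fr, redV_Fr]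

theorem GaussUnit.Fr {x : LaurentSeries C} (hx : GaussUnit O x) :
    GaussUnit O (qExpand C n x) := by
  obtain ⟨g, h, hg, hh, e⟩ := hx
  refine ⟨qExpand ↥O n g, qExpand ↥O n h, redV_Fr_ne_zero O n hg, redV_Fr_ne_zero O n hh, ?_⟩
  rw [← Fr_iotaV, ← Fr_iotaV, ← map_mul, e]

/-- If `x` has the scaling property and `Fr x` is in the Gauss ring, then `x` is in the Gauss
ring. -/
theorem mem_gaussRingV_of_Fr_mem {x : LaurentSeries C}
    (hsc : ∃ c : C, c ≠ 0 ∧ GaussUnit O (HahnSeries.C c * x))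
    (hx : qExpand C n x ∈ gaussRingV O) : x ∈ gaussRingV O := by
  obtain ⟨c, hc, hu⟩ := hsc
  have hu' : GaussUnit O (HahnSeries.C c * qExpand C n x) := by
    have := GaussUnit.Fr O n hu
    rwa [map_mul, qExpand_C] at this
  -- `C c⁻¹ = Fr x * (C c * Fr x)⁻¹`
  have hx0 : qExpand C n x ≠ 0 := by
    intro h0
    rw [h0, mul_zero] at hu'
    exact hu'.ne_zero rfl
  have h1 : (HahnSeries.C c⁻¹ : LaurentSeries C)
      = qExpand C n x * (HahnSeries.C c * qExpand C n x)⁻¹ := by
    rw [C_inv', mul_inv, mul_comm (HahnSeries.C c)⁻¹, ← mul_assoc, mul_inv_cancel₀ hx0, one_mul]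
  have h2 : (HahnSeries.C c⁻¹ : LaurentSeries C) ∈ gaussRingV O := by
    rw [h1]
    exact (gaussRingV O).mul_mem hx hu'.inv.mem
  have h3 : x = HahnSeries.C c⁻¹ * (HahnSeries.C c * x) := by
    rw [C_inv', ← mul_assoc, inv_mul_cancel₀ (C_ne_zero' hc), one_mul]
  rw [h3]
  exact (gaussRingV O).mul_mem h2 hu.mem

end Fr

section FLeN

variable {F κ : Type*} [Field F] [Field κ]

/-- **`f ≤ n`**: elements of a valuation ring `V` of `F` whose reductions are linearly
independent over a subfield `κE` of the residue field containing the reductions of `V ∩ E` are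
linearly independent over the subfield `E` of `F`. -/
theorem linearIndependent_of_red (E : Subfield F) (V : ValuationSubring F) (red : V →+* κ)
    (κE : Subfield κ) (hE : ∀ (α : F) (_ : α ∈ E) (hV : α ∈ V), red ⟨α, hV⟩ ∈ κE)
    {ι : Type*} [Fintype ι] (u : ι → V)
    (hu : LinearIndependent κE (fun i => red (u i))) :
    LinearIndependent E (fun i => ((u i : V) : F)) := by
  classical
  rw [Fintype.linearIndependent_iff]
  intro g hg
  by_contra hne
  rw [not_forall] at hne
  obtain ⟨i₁, hi₁⟩ := hne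
  -- an index of maximal valuation
  obtain ⟨i₀, -, hi₀⟩ := Finset.exists_max_image Finset.univ
    (fun i => V.valuation ((g i : E) : F)) ⟨i₁, Finset.mem_univ _⟩
  have hg0 : ((g i₀ : E) : F) ≠ 0 := by
    intro h0
    have h1 := hi₀ i₁ (Finset.mem_univ _)
    rw [h0, map_zero] at h1
    have h2 : V.valuation ((g i₁ : E) : F) = 0 := le_antisymm h1 zero_le
    rw [map_eq_zero] at h2
    exact hi₁ (Subtype.ext h2)
  -- the normalised coefficients
  have hβV : ∀ i, ((g i : E) : F) / ((g i₀ : E) : F) ∈ V := by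
    intro i
    rw [← V.valuation_le_one_iff, map_div₀]
    have h0 : V.valuation ((g i₀ : E) : F) ≠ 0 := (Valuation.ne_zero_iff _).2 hg0
    exact (div_le_one₀ (lt_of_le_of_ne zero_le h0.symm)).2 (hi₀ i (Finset.mem_univ _))
  have hβE : ∀ i, ((g i : E) : F) / ((g i₀ : E) : F) ∈ E :=
    fun i => E.div_mem (g i).2 (g i₀).2
  let β : ι → V := fun i => ⟨_, hβV i⟩
  have hsum : ∑ i, β i * u i = 0 := by
    apply Subtype.ext
    have h1 : ((∑ i, β i * u i : V) : F) = ∑ i, ((β i : V) : F) * ((u i : V) : F) := by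
      rw [← ValuationSubring.subtype_apply, map_sum]
      rfl
    rw [h1]
    have h2 : ∑ i, ((β i : V) : F) * ((u i : V) : F)
        = (((g i₀ : E) : F))⁻¹ * ∑ i, ((g i : E) : F) * ((u i : V) : F) := by
      rw [Finset.mul_sum]
      refine Finset.sum_congr rfl fun i _ => ?_
      show ((g i : E) : F) / ((g i₀ : E) : F) * _ = _
      rw [div_eq_mul_inv]
      ring
    rw [h2]
    have h3 : ∑ i, ((g i : E) : F) * ((u i : V) : F) = 0 := hg
    rw [h3, mul_zero]
    rfl
  have hred : ∑ i, red (β i) * red (u i) = 0 := by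
    rw [← map_zero red, ← hsum, map_sum]
    simp only [map_mul]
  -- the reduced relation is non-trivial
  let c : ι → κE := fun i => ⟨red (β i), hE _ (hβE i) (hβV i)⟩
  have hc : ∑ i, c i • red (u i) = 0 := hred
  have hci := (Fintype.linearIndependent_iff.1 hu) c hc i₀
  have h1 : red (β i₀) = 1 := by
    have e : β i₀ = 1 := Subtype.ext (div_self hg0)
    rw [e, map_one]
  have h2 : red (β i₀) = 0 := congrArg Subtype.val hci
  rw [h1] at h2
  exact one_ne_zero h2

end FLeN

end Fermat.Agent.BAD.H82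

end
end
-- ==== END Fermat.Agent.BAD.H82_FrGauss

-- ==== BEGIN Fermat.Agent.BAD.H82_Kron
section

/-!
# Item 65, package V2 (helper82), part (K): Kronecker's congruence `j(t^q) ≡ j(t)^q mod q`

Pure Laurent series statements for a valuation ring `O` of `C` with residue characteristic `q`.

* `kronX C q = j(t^q) - j(t)^q` lies in the Gauss ring and reduces to `0`;
* `kronY C q = j(t) - j(t^q)^q` lies in the Gauss ring and its reduction is not `0`.

The Atkin-Lehner involution `w_q` of `F_N`, `q ‖ N`, exchanges `kronX` and `kronY`, so that the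
Gauss valuation `V₁` and `V₂ = V₁ ∘ w_q` are different: `kronX` is in the maximal ideal of `V₁` and
a unit of `V₂`.
-/

set_option autoImplicit false

noncomputable section

open ModularCurve Fermat.Agent.S28 Fermat.Agent.S28.H73 Fermat.Agent.RED.H73

namespace Fermat.Agent.BAD.H82

/-- The residue field of a valuation subring over `q` has characteristic `q`. -/
theorem charP_kV {L : Type} [Field L] (A : ValuationSubring L) {q : ℕ}
    (hq : q.Prime) (hA : (q : L) ∈ A.nonunits) : CharP (kV A) q := by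
  apply (CharP.charP_iff_prime_eq_zero hq).2
  have h1 : (((q : ℕ) : A) : L) ∈ A.nonunits := by
    rw [show (((q : ℕ) : A) : L) = (q : L) by simp]
    exact hA
  obtain ⟨ha, hmem⟩ := (A.mem_nonunits_iff_exists_mem_maximalIdeal).1 h1
  rw [← map_natCast (IsLocalRing.residue A)]
  exact (IsLocalRing.residue_eq_zero_iff _).2 hmem

section Series

variable (R : Type*) [CommRing R] (q : ℕ) [NeZero q]

/-- `j(t^q) - j(t)^q`. -/
def kronX : LaurentSeries R := qExpand R q (jqModC R) - jqModC R ^ q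

/-- `j(t) - j(t^q)^q`. -/
def kronY : LaurentSeries R := jqModC R - qExpand R q (jqModC R) ^ q

variable {R}

theorem coeffMap_kronX {S : Type*} [CommRing S] (f : R →+* S) :
    coeffMap f (kronX R q) = kronX S q := by
  rw [kronX, kronX, map_sub, map_pow, coeffMap_qExpand, coeffMap_jqModC]

theorem coeffMap_kronY {S : Type*} [CommRing S] (f : R →+* S) :
    coeffMap f (kronY R q) = kronY S q := by
  rw [kronY, kronY, map_sub, map_pow, coeffMap_qExpand, coeffMap_jqModC]

variable (k : Type*) [CommRing k] [Fact q.Prime] [CharP k q]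

/-- **Kronecker**: `j(t^q) = j(t)^q` in characteristic `q`. -/
theorem kronX_eq_zero : kronX k q = 0 := by
  rw [kronX, Fermat.Agent.RED.H10.pow_char_eq q (jqModC k), coeffMap_jqModC, sub_self]

theorem kronY_eq : kronY k q = jqModC k - qExpand k q (qExpand k q (jqModC k)) := by
  rw [kronY, Fermat.Agent.RED.H10.pow_char_eq q (qExpand k q (jqModC k)), coeffMap_qExpand,
    coeffMap_jqModC]

theorem kronY_coeff_neg_one : (kronY k q).coeff (-1) = 1 := by
  rw [kronY_eq, HahnSeries.coeff_sub, coeff_jqModC_neg_one]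
  have hq1 : 1 < q := (Fact.out : q.Prime).one_lt
  have h : ¬ ((q : ℕ) : ℤ) ∣ (-1 : ℤ) := by
    intro hd
    have h1 : ((q : ℕ) : ℤ) ∣ 1 := (dvd_neg (a := (q : ℤ)) (b := 1)).mp hd
    have h2 : q ∣ 1 := by exact_mod_cast h1
    exact hq1.ne' (Nat.dvd_one.mp h2)
  rw [qExpand_coeff_of_not_dvd q _ h, sub_zero]

theorem kronY_ne_zero [Nontrivial k] : kronY k q ≠ 0 := by
  intro h
  have h1 := kronY_coeff_neg_one q k
  rw [h, HahnSeries.coeff_zero] at h1
  exact zero_ne_one h1

end Series

section Gauss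

variable {C : Type} [Field C] (O : ValuationSubring C) (q : ℕ) [NeZero q]

theorem iotaV_kronX : iotaV O (kronX ↥O q) = kronX C q := coeffMap_kronX q _

theorem iotaV_kronY : iotaV O (kronY ↥O q) = kronY C q := coeffMap_kronY q _

theorem kronX_mem_gaussRingV : kronX C q ∈ gaussRingV O := by
  rw [← iotaV_kronX O q]
  exact iotaV_mem_gaussRingV O _

theorem kronY_mem_gaussRingV : kronY C q ∈ gaussRingV O := by
  rw [← iotaV_kronY O q]
  exact iotaV_mem_gaussRingV O _

theorem gaussRedV_kronX' (h : kronX C q ∈ gaussRingV O) :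
    gaussRedV O ⟨kronX C q, h⟩ = kronX (kV O) q := by
  have e : (⟨kronX C q, h⟩ : gaussRingV O)
      = ⟨iotaV O (kronX ↥O q), iotaV_mem_gaussRingV O _⟩ :=
    Subtype.ext (iotaV_kronX O q).symm
  rw [e, gaussRedV_iotaV]
  exact coeffMap_kronX q _

theorem gaussRedV_kronY' (h : kronY C q ∈ gaussRingV O) :
    gaussRedV O ⟨kronY C q, h⟩ = kronY (kV O) q := by
  have e : (⟨kronY C q, h⟩ : gaussRingV O)
      = ⟨iotaV O (kronY ↥O q), iotaV_mem_gaussRingV O _⟩ :=
    Subtype.ext (iotaV_kronY O q).symm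
  rw [e, gaussRedV_iotaV]
  exact coeffMap_kronY q _

variable [Fact q.Prime] [CharP (kV O) q]

/-- `j(t^q) - j(t)^q` reduces to `0`. -/
theorem gaussRedV_kronX (h : kronX C q ∈ gaussRingV O) :
    gaussRedV O ⟨kronX C q, h⟩ = 0 := by
  rw [gaussRedV_kronX', kronX_eq_zero]

/-- `j(t) - j(t^q)^q` does not reduce to `0`. -/
theorem gaussRedV_kronY_ne_zero (h : kronY C q ∈ gaussRingV O) :
    gaussRedV O ⟨kronY C q, h⟩ ≠ 0 := by
  rw [gaussRedV_kronY']
  exact kronY_ne_zero q (kV O)

end Gauss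

end Fermat.Agent.BAD.H82

end
end
-- ==== END Fermat.Agent.BAD.H82_Kron

-- ==== BEGIN Fermat.Agent.BAD.H91_B0
section
attribute [local instance 10000] SubalgebraClass.toAlgebra
attribute [local instance 10000] HahnSeries.powerSeriesAlgebra

/-!
# BAD_q, package B0 (helper91): `(σ - 1) J₀(N)[n] ⊆ K1(n)` for `σ` in inertia

For every level `N`, every valuation ring `A` of `ℚ̄`, every `σ` in the inertia group of `A` and
every `n`: if `n x = 0` then `σ x - x` is the class of a divisor `D₁` with `n D₁ = div f₁`,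
`f₁ = σ u / u` a Gauss unit with reduction `1` (`n D = div (c u)`, `u` a Gauss unit).

* `galF_mem_gaussV`, `gaussRes_galF` : inertia preserves the Gauss valuation ring of `F_N · ℚ̄` and
  acts trivially on its residue field;
* `stmt_B0 N : Stmt_B0 N`;
* `b1_of_core : Stmt_B1core N q → Stmt_B1 N q`;
* `torsUnip_of_B1 : (∀ q, q.Prime → q ∣ N → ¬ q ^ 2 ∣ N → q ≠ p → Stmt_B1 N q) → Stmt_TorsUnip N p`.
-/

set_option autoImplicit false

noncomputable section

open AlgebraicCurve ModularCurve Fermat.Agent.S28.H73 Fermat.Agent.RED.H73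

namespace Fermat.Agent.BAD.H91

open Fermat.Agent.BAD

/-- constants have order zero at every place. -/
theorem ord_algebraMap_zero {K F : Type*} [Field K] [Field F] [Algebra K F] (v : Place K F)
    (c : K) : v.ord (algebraMap K F c) = 0 := by
  rcases eq_or_ne c 0 with rfl | hc
  · rw [map_zero, v.ord_zero]
  · have h1 : algebraMap K F c ∈ v.toValuationSubring := v.algebraMap_mem' c
    have h2 : algebraMap K F c⁻¹ ∈ v.toValuationSubring := v.algebraMap_mem' c⁻¹
    have h3 : algebraMap K F c * algebraMap K F c⁻¹ = 1 := by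
      rw [← map_mul, mul_inv_cancel₀ hc, map_one]
    have h4 : algebraMap K F c⁻¹ * algebraMap K F c = 1 := by
      rw [← map_mul, inv_mul_cancel₀ hc, map_one]
    let u : v.toValuationSubringˣ :=
      ⟨⟨algebraMap K F c, h1⟩, ⟨algebraMap K F c⁻¹, h2⟩, Subtype.ext h3, Subtype.ext h4⟩
    exact v.ord_coe_unit u

variable (A : ValuationSubring (AlgebraicClosure ℚ)) (N : ℕ)

/-- Inertia preserves the Gauss valuation ring of `F_N · ℚ̄`. -/
theorem galF_mem_gaussV {σ : GalQ} (hσ : σ ∈ A.inertiaSubgroupIn ℚ) {f : ↥(FNbar N)}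
    (hf : f ∈ gaussV A N) : galF N σ • f ∈ gaussV A N := by
  show ((galF N σ • f : ↥(FNbar N)) : LaurentSeries (AlgebraicClosure ℚ)) ∈ gaussRingV A
  rw [coe_arithmeticGalois_smul]
  exact coeffMap_mem_gaussRingV (inertialOn_of_mem_inertia A hσ) hf

/-- Inertia acts trivially on the residue field of the Gauss valuation of `F_N · ℚ̄`. -/
theorem gaussRes_galF {σ : GalQ} (hσ : σ ∈ A.inertiaSubgroupIn ℚ) {f : ↥(FNbar N)}
    (hf : f ∈ gaussV A N) :
    gaussRes A N ⟨galF N σ • f, galF_mem_gaussV A N hσ hf⟩ = gaussRes A N ⟨f, hf⟩ := by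
  apply Subtype.ext
  show gaussResF A (hasScale_laurentBaseChange A N) ⟨galF N σ • f, _⟩
    = gaussResF A (hasScale_laurentBaseChange A N) ⟨f, hf⟩
  rw [gaussResF_apply, gaussResF_apply]
  exact gaussRedV_coeffMap (inertialOn_of_mem_inertia A hσ) hf _

/-- the order of `σ f` at `P` is the order of `f` at `σ⁻¹ P`. -/
theorem ord_galF_smul (σ : GalQ) (P : Place (AlgebraicClosure ℚ) ↥(FNbar N)) (f : ↥(FNbar N)) :
    P.ord (galF N σ • f) = ((galF N σ)⁻¹ • P).ord f := by
  have h := SemilinearAut.ord_smul (galF N σ) ((galF N σ)⁻¹ • P) f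
  rwa [smul_inv_smul] at h

/-- A divisor class killed by `n` is represented by `D` with `n D = div f`. -/
theorem exists_kummer_of_nsmul_eq_zero (n : ℕ)
    (D : Divisor.degZero (K := AlgebraicClosure ℚ) (F := ↥(FNbar N)))
    (h : n • (Pic0.mk D : JZero N) = 0) :
    ∃ f : ↥(FNbar N), f ≠ 0 ∧ ∀ P : Place (AlgebraicClosure ℚ) ↥(FNbar N),
      (n : ℤ) * (D : Divisor (AlgebraicClosure ℚ) ↥(FNbar N)) P = P.ord f := by
  have h1 : (Pic0.mk (n • D) : JZero N) = 0 := by
    rw [← h]; rfl
  have h2 : (n • D : Divisor.degZero (K := AlgebraicClosure ℚ) (F := ↥(FNbar N))) ∈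
      (Divisor.principal (K := AlgebraicClosure ℚ) (F := ↥(FNbar N))).addSubgroupOf
        (Divisor.degZero (K := AlgebraicClosure ℚ) (F := ↥(FNbar N))) :=
    (QuotientAddGroup.eq_zero_iff _).1 h1
  rw [AddSubgroup.mem_addSubgroupOf] at h2
  obtain ⟨f, hf0, hf⟩ := h2
  refine ⟨f, hf0, fun P => ?_⟩
  rw [← hf P]
  simp

/-- **(B0)**: `(σ - 1)` maps the `n`-torsion of `J₀(N)` into `K1(n)`. -/
theorem stmt_B0 : Stmt_B0 N := by
  intro A σ hσ n x hx
  obtain ⟨D, rfl⟩ := Pic0.mk_surjective x
  obtain ⟨f, hf0, hfD⟩ := exists_kummer_of_nsmul_eq_zero N n D hx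
  obtain ⟨c, u, hc, hfu⟩ := exists_unit_scale A (hasScale_laurentBaseChange A N) f hf0
  have hu : ((u : ↥(gaussV A N)) : ↥(FNbar N)) ∈ gaussV A N := (u : ↥(gaussV A N)).2
  have hu0 : ((u : ↥(gaussV A N)) : ↥(FNbar N)) ≠ 0 := by
    intro h0
    apply hf0
    rw [hfu, h0, mul_zero]
  -- the function `f₁ = σ u / u`
  let σu : ↥(gaussV A N) := ⟨galF N σ • ((u : ↥(gaussV A N)) : ↥(FNbar N)),
    galF_mem_gaussV A N hσ hu⟩
  let f₁ : ↥(gaussV A N) := σu * ((u⁻¹ : (↥(gaussV A N))ˣ) : ↥(gaussV A N))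
  have hres : gaussRes A N f₁ = 1 := by
    show gaussRes A N (σu * ((u⁻¹ : (↥(gaussV A N))ˣ) : ↥(gaussV A N))) = 1
    rw [map_mul]
    have e1 : gaussRes A N σu = gaussRes A N (u : ↥(gaussV A N)) :=
      gaussRes_galF A N hσ hu
    rw [e1, ← map_mul, Units.mul_inv, map_one]
  have hf₁ : ((f₁ : ↥(gaussV A N)) : ↥(FNbar N))
      = (galF N σ • ((u : ↥(gaussV A N)) : ↥(FNbar N))) * (((u : ↥(gaussV A N)) : ↥(FNbar N)))⁻¹ := by
    show (galF N σ • ((u : ↥(gaussV A N)) : ↥(FNbar N)))
        * (((u⁻¹ : (↥(gaussV A N))ˣ) : ↥(gaussV A N)) : ↥(FNbar N)) = _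
    congr 1
    have : ((u : ↥(gaussV A N)) : ↥(FNbar N))
        * (((u⁻¹ : (↥(gaussV A N))ˣ) : ↥(gaussV A N)) : ↥(FNbar N)) = 1 := by
      have h := congrArg (fun z : ↥(gaussV A N) => (z : ↥(FNbar N))) (Units.mul_inv u)
      exact h
    exact (eq_inv_of_mul_eq_one_right this)
  -- orders of `u`
  have hordu : ∀ P : Place (AlgebraicClosure ℚ) ↥(FNbar N),
      P.ord ((u : ↥(gaussV A N)) : ↥(FNbar N))
        = (n : ℤ) * (D : Divisor (AlgebraicClosure ℚ) ↥(FNbar N)) P := by
    intro P
    rw [hfD P, hfu, Place.ord_mul _ ((map_ne_zero _).2 hc) hu0, ord_algebraMap_zero, zero_add]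
  refine ⟨SemilinearAut.degZeroSMulHom (galF N σ) D - D, f₁, ?_, hres, fun P => ?_⟩
  · show galF N σ • (Pic0.mk D) - Pic0.mk D = _
    rw [SemilinearAut.pic0_smul_mk]
    rfl
  · have hσu0 : galF N σ • ((u : ↥(gaussV A N)) : ↥(FNbar N)) ≠ 0 := by
      intro h0
      apply hu0
      have h1 := congrArg (fun z => (galF N σ)⁻¹ • z) h0
      simp only [inv_smul_smul, smul_zero] at h1
      exact h1
    rw [hf₁, Place.ord_mul _ hσu0 (inv_ne_zero hu0), Place.ord_inv, ord_galF_smul, hordu, hordu]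
    have e : ((SemilinearAut.degZeroSMulHom (galF N σ) D - D :
        Divisor.degZero (K := AlgebraicClosure ℚ) (F := ↥(FNbar N))) :
          Divisor (AlgebraicClosure ℚ) ↥(FNbar N)) P
        = (D : Divisor (AlgebraicClosure ℚ) ↥(FNbar N)) ((galF N σ)⁻¹ • P)
          - (D : Divisor (AlgebraicClosure ℚ) ↥(FNbar N)) P := by
      rw [AddSubgroup.coe_sub, SemilinearAut.coe_degZeroSMulHom, Finsupp.sub_apply,
        SemilinearAut.divisor_smul_apply]
    rw [e]
    ring

/-- **(B1)** from its Kummer form. -/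
theorem b1_of_core {q : ℕ} (h : Stmt_B1core N q) : Stmt_B1 N q := by
  rintro A hA σ hσ n hn x ⟨D, f, rfl, hres, hD⟩
  have hn0 : (n : ℤ) ≠ 0 := by
    intro h0
    apply hn
    have : n = 0 := by exact_mod_cast h0
    rw [this]
    exact dvd_zero q
  have hf0 : ((f : ↥(gaussV A N)) : ↥(FNbar N)) ≠ 0 := by
    intro h0
    have e : f = 0 := Subtype.ext h0
    rw [e, map_zero] at hres
    exact zero_ne_one hres
  obtain ⟨t, ht⟩ := h A hA σ hσ n hn f hres (fun P => ⟨_, (hD P).symm⟩)
  have hσf0 : galF N σ • ((f : ↥(gaussV A N)) : ↥(FNbar N)) ≠ 0 := by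
    intro h0
    apply hf0
    have h1 := congrArg (fun z => (galF N σ)⁻¹ • z) h0
    simp only [inv_smul_smul, smul_zero] at h1
    exact h1
  have ht0 : t ≠ 0 := by
    rintro rfl
    have hn' : n ≠ 0 := fun h0 => hn0 (by rw [h0]; rfl)
    rw [zero_pow hn'] at ht
    exact (div_ne_zero hσf0 hf0) ht.symm
  -- `σ D - D = div t`
  have hprin : ((SemilinearAut.degZeroSMulHom (galF N σ) D - D :
      Divisor.degZero (K := AlgebraicClosure ℚ) (F := ↥(FNbar N))) :
        Divisor (AlgebraicClosure ℚ) ↥(FNbar N)) ∈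
      Divisor.principal (K := AlgebraicClosure ℚ) (F := ↥(FNbar N)) := by
    refine ⟨t, ht0, fun P => ?_⟩
    have e : ((SemilinearAut.degZeroSMulHom (galF N σ) D - D :
        Divisor.degZero (K := AlgebraicClosure ℚ) (F := ↥(FNbar N))) :
          Divisor (AlgebraicClosure ℚ) ↥(FNbar N)) P
        = (D : Divisor (AlgebraicClosure ℚ) ↥(FNbar N)) ((galF N σ)⁻¹ • P)
          - (D : Divisor (AlgebraicClosure ℚ) ↥(FNbar N)) P := by
      rw [AddSubgroup.coe_sub, SemilinearAut.coe_degZeroSMulHom, Finsupp.sub_apply,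
        SemilinearAut.divisor_smul_apply]
    rw [e]
    apply mul_left_cancel₀ hn0
    have h1 : (n : ℤ) * P.ord t = P.ord (t ^ n) := by
      have := Place.ord_zpow P t (n : ℤ)
      rw [zpow_natCast] at this
      exact this.symm
    rw [h1, ht, div_eq_mul_inv, Place.ord_mul _ hσf0 (inv_ne_zero hf0), Place.ord_inv,
      ord_galF_smul, ← hD, ← hD]
    ring
  have hzero : (Pic0.mk (SemilinearAut.degZeroSMulHom (galF N σ) D - D) : JZero N) = 0 :=
    (QuotientAddGroup.eq_zero_iff _).2 (AddSubgroup.mem_addSubgroupOf.2 hprin)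
  have hsub : galF N σ • (Pic0.mk D : JZero N) - Pic0.mk D = 0 := by
    rw [SemilinearAut.pic0_smul_mk]
    exact hzero
  exact sub_eq_zero.1 hsub

/-- **(UNIP) from (B1)** (and the free statement (B0)). -/
theorem torsUnip_of_B1 [NeZero N] {p : ℕ} (hp : p.Prime)
    (h : ∀ q : ℕ, q.Prime → q ∣ N → ¬ q ^ 2 ∣ N → q ≠ p → Stmt_B1 N q) :
    Stmt_TorsUnip N p := by
  rintro q hq hqN hq2 hqp A hA σ hσ τ hτ x ⟨k, hk⟩
  have hK : InK1 A N (p ^ k) (τ • x - x) := stmt_B0 N A τ hτ (p ^ k) x hk
  have hqpk : ¬ q ∣ p ^ k := by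
    intro hd
    exact hqp ((Nat.prime_dvd_prime_iff_eq hq hp).1 (hq.dvd_of_dvd_pow hd))
  have h1 := h q hq hqN hq2 hqp A hA σ hσ (p ^ k) hqpk (τ • x - x) hK
  rw [smul_sub] at h1
  have h2 : σ • τ • x - σ • x - τ • x + x = (σ • τ • x - σ • x) - (τ • x - x) := by abel
  rw [h2, h1, sub_self]

/-- **(UNIP) from the Kummer form of (B1)**. -/
theorem torsUnip_of_B1core [NeZero N] {p : ℕ} (hp : p.Prime)
    (h : ∀ q : ℕ, q.Prime → q ∣ N → ¬ q ^ 2 ∣ N → q ≠ p → Stmt_B1core N q) :
    Stmt_TorsUnip N p :=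
  torsUnip_of_B1 N hp (fun q hq hqN hq2 hqp => b1_of_core N (h q hq hqN hq2 hqp))

end Fermat.Agent.BAD.H91

end
end
-- ==== END Fermat.Agent.BAD.H91_B0

-- ==== BEGIN Fermat.Agent.GTor.Clo.AsmOne
section
attribute [local instance 10000] SubalgebraClass.toAlgebra
attribute [local instance 10000] HahnSeries.powerSeriesAlgebra

/-!
# S24 assembly (WP ASM-One): the case `N = 1`

`F_1 = Q̄(j)`: `x = jF N` is transcendental (a Laurent series with a simple pole) and generates
`F_1` (`modularFunctionFieldFull 1 = ℚ(jq)`, so `laurentBaseChange` is `Q̄(jBar)`), hence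
`[F_1 : Q̄(x)] = 1`. By FF1b (`hzeros`) applied to `x - a` and to `x⁻¹` (both generate the same
field), `x - a` has exactly one zero and `x` has exactly one pole. Then `asm_genus_eq` with
`S = ∅` gives genus `((0 - 1 - 1) + 2).toNat / 2 = 0 = genusFormula 1`.

WP ASM-One (helper59): all statements of this file are proved.
-/

set_option autoImplicit false

noncomputable section

namespace Fermat.Agent.GTor.Clo

open Fermat.Agent.S24

open ModularCurve AlgebraicCurve IntermediateField

theorem asm_nuTwo_one : nuTwo 1 = 1 := by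
  unfold nuTwo
  rw [Nat.card_eq_one_iff_unique]
  exact ⟨⟨fun a b => Subtype.ext (Subsingleton.elim (α := ZMod 1) _ _)⟩,
    ⟨⟨0, Subsingleton.elim (α := ZMod 1) _ _⟩⟩⟩

theorem asm_nuThree_one : nuThree 1 = 1 := by
  unfold nuThree
  rw [Nat.card_eq_one_iff_unique]
  exact ⟨⟨fun a b => Subtype.ext (Subsingleton.elim (α := ZMod 1) _ _)⟩,
    ⟨⟨0, Subsingleton.elim (α := ZMod 1) _ _⟩⟩⟩

theorem asm_genusFormula_one : genusFormula 1 = 0 := by
  unfold genusFormula
  rw [dedekindPsi_one, _root_.Fermat.Agent.GTor.Clo.asm_nuTwo_one, _root_.Fermat.Agent.GTor.Clo.asm_nuThree_one, cuspCount_one]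
  norm_num

theorem asm_jBar_coeff_neg_one : (_root_.Fermat.Agent.GTor.Clo.jBar : LaurentSeries _root_.Fermat.Agent.GTor.Clo.Kbar).coeff (-1 : ℤ) = 1 := by
  rw [_root_.Fermat.Agent.GTor.Clo.jBar, coeffEmb_coeff, coeff_jq_neg_one, map_one]

theorem asm_one_transcendental (N : ℕ) [NeZero N] : Transcendental _root_.Fermat.Agent.GTor.Clo.Kbar (_root_.Fermat.Agent.GTor.Clo.jF N) := by
  intro halg
  have hint : IsIntegral _root_.Fermat.Agent.GTor.Clo.Kbar (_root_.Fermat.Agent.GTor.Clo.jF N) := halg.isIntegral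
  have hdeg1 : (minpoly _root_.Fermat.Agent.GTor.Clo.Kbar (_root_.Fermat.Agent.GTor.Clo.jF N)).degree = 1 :=
    IsAlgClosed.degree_eq_one_of_irreducible _root_.Fermat.Agent.GTor.Clo.Kbar (minpoly.irreducible hint)
  obtain ⟨c, hc⟩ := minpoly.mem_range_of_degree_eq_one _root_.Fermat.Agent.GTor.Clo.Kbar (_root_.Fermat.Agent.GTor.Clo.jF N) hdeg1
  have h1 : algebraMap _root_.Fermat.Agent.GTor.Clo.Kbar (LaurentSeries _root_.Fermat.Agent.GTor.Clo.Kbar) c = _root_.Fermat.Agent.GTor.Clo.jBar := congrArg Subtype.val hc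
  have h2 := congrArg (fun f : LaurentSeries _root_.Fermat.Agent.GTor.Clo.Kbar => f.coeff (-1 : ℤ)) h1
  simp only [_root_.Fermat.Agent.GTor.Clo.asm_jBar_coeff_neg_one, algebraMap_laurentSeries_eq_single] at h2
  rw [HahnSeries.coeff_single_of_ne (by norm_num)] at h2
  exact zero_ne_one h2

/-- `coeffEmb` maps `ℚ(jq)` into `Q̄(jBar)`. -/
theorem asm_coeffEmb_mem_adjoin_jBar {x : LaurentSeries ℚ} (hx : x ∈ ℚ⟮jq⟯) :
    coeffEmb _root_.Fermat.Agent.GTor.Clo.Kbar x ∈ _root_.Fermat.Agent.GTor.Clo.Kbar⟮_root_.Fermat.Agent.GTor.Clo.jBar⟯ := by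
  induction hx using IntermediateField.adjoin_induction with
  | mem y hy =>
    rw [Set.mem_singleton_iff.mp hy]
    exact mem_adjoin_simple_self _root_.Fermat.Agent.GTor.Clo.Kbar _root_.Fermat.Agent.GTor.Clo.jBar
  | algebraMap r =>
    have : coeffEmb _root_.Fermat.Agent.GTor.Clo.Kbar (algebraMap ℚ (LaurentSeries ℚ) r)
        = algebraMap _root_.Fermat.Agent.GTor.Clo.Kbar (LaurentSeries _root_.Fermat.Agent.GTor.Clo.Kbar) (algebraMap ℚ _root_.Fermat.Agent.GTor.Clo.Kbar r) := by
      rw [coeffEmb, algebraMap_laurentSeries_eq_single, algebraMap_laurentSeries_eq_single,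
        coeffMap_single]
    rw [this]
    exact (_root_.Fermat.Agent.GTor.Clo.Kbar⟮_root_.Fermat.Agent.GTor.Clo.jBar⟯).algebraMap_mem _
  | add y z _ _ hy hz => rw [map_add]; exact add_mem hy hz
  | mul y z _ _ hy hz => rw [map_mul]; exact mul_mem hy hz
  | inv y _ hy => rw [map_inv₀]; exact inv_mem hy

theorem asm_full_one : modularFunctionFieldFull 1 = ℚ⟮jq⟯ := by
  rw [modularFunctionFieldFull]
  congr 1
  ext x
  constructor
  · rintro ⟨d, hd, hdvd, rfl⟩
    have : d = 1 := Nat.dvd_one.mp hdvd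
    subst this
    rw [qExpand_one_apply]
    exact Set.mem_singleton _
  · intro hx
    rw [Set.mem_singleton_iff.mp hx]
    exact ⟨1, inferInstance, dvd_rfl, (qExpand_one_apply jq).symm⟩

theorem asm_bar_one_le : modularFunctionFieldBar 1 ≤ _root_.Fermat.Agent.GTor.Clo.Kbar⟮_root_.Fermat.Agent.GTor.Clo.jBar⟯ := by
  rw [modularFunctionFieldBar, laurentBaseChange, adjoin_le_iff]
  rintro _ ⟨x, hx, rfl⟩
  rw [SetLike.mem_coe, _root_.Fermat.Agent.GTor.Clo.asm_full_one] at hx
  exact _root_.Fermat.Agent.GTor.Clo.asm_coeffEmb_mem_adjoin_jBar hx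

theorem asm_one_adjoin (N : ℕ) [NeZero N] (hN : N = 1) : _root_.Fermat.Agent.GTor.Clo.Kbar⟮_root_.Fermat.Agent.GTor.Clo.jF N⟯ = ⊤ := by
  subst hN
  rw [eq_top_iff]
  intro z _
  have hz : (z : LaurentSeries _root_.Fermat.Agent.GTor.Clo.Kbar) ∈ _root_.Fermat.Agent.GTor.Clo.Kbar⟮_root_.Fermat.Agent.GTor.Clo.jBar⟯ := _root_.Fermat.Agent.GTor.Clo.asm_bar_one_le z.2
  have hmap : (_root_.Fermat.Agent.GTor.Clo.Kbar⟮_root_.Fermat.Agent.GTor.Clo.jF 1⟯).map (modularFunctionFieldBar 1).val = _root_.Fermat.Agent.GTor.Clo.Kbar⟮_root_.Fermat.Agent.GTor.Clo.jBar⟯ := by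
    rw [adjoin_map, Set.image_singleton]
    rfl
  rw [← hmap] at hz
  obtain ⟨y, hy, hyz⟩ := hz
  have : y = z := Subtype.ext hyz
  rwa [← this]

/-- If `y` generates `F` over `K`, then `y` has exactly one zero. -/
theorem asm_card_zeros_eq_one {K F : Type*} [Field K] [Field F] [Algebra K F]
    (hzeros : H59.ZerosStmt K F) (y : F) (hy : Transcendental K y) (htop : K⟮y⟯ = ⊤) :
    Nat.card {v : Place K F // 0 < v.ord y} = 1 := by
  classical
  have hfd : FiniteDimensional K⟮y⟯ F := by
    apply FiniteDimensional.of_finrank_pos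
    rw [htop, IntermediateField.finrank_top]
    exact one_pos
  obtain ⟨hfin, hsum⟩ := hzeros y hy
  have h1 : Module.finrank K⟮y⟯ F = 1 := by rw [htop, IntermediateField.finrank_top]
  rw [h1, finsum_mem_eq_finite_toFinset_sum _ hfin, Nat.cast_one] at hsum
  have hcard : (hfin.toFinset.card : ℤ) ≤ 1 := by
    have : ∑ _v ∈ hfin.toFinset, (1 : ℤ) ≤ ∑ v ∈ hfin.toFinset, v.ord y := by
      refine Finset.sum_le_sum fun v hv => ?_
      have : 0 < v.ord y := by simpa using hv
      omega
    rw [Finset.sum_const, nsmul_eq_mul, mul_one, hsum] at this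
    exact_mod_cast this
  have hne : hfin.toFinset.Nonempty := by
    rw [Finset.nonempty_iff_ne_empty]
    intro h
    rw [h, Finset.sum_empty] at hsum
    exact zero_ne_one hsum
  have hc : hfin.toFinset.card = 1 := by
    have := Finset.card_pos.mpr hne
    omega
  rw [← hc]
  show Nat.card ↥{v : Place K F | 0 < v.ord y} = _
  rw [Nat.card_coe_set_eq, Set.ncard_eq_toFinset_card _ hfin]

/-- The genus of `F_1`. -/
theorem asm_genus_one (N : ℕ) [NeZero N] (hN : N = 1)
    [HasCanonicalDivisor (K := _root_.Fermat.Agent.GTor.Clo.Kbar) (F := _root_.Fermat.Agent.GTor.Clo.FN N)]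
    (hzeros : H59.ZerosStmt _root_.Fermat.Agent.GTor.Clo.Kbar (_root_.Fermat.Agent.GTor.Clo.FN N)) :
    (AlgebraicCurve.genus _root_.Fermat.Agent.GTor.Clo.Kbar (_root_.Fermat.Agent.GTor.Clo.FN N) : ℚ) = genusFormula N := by
  have hx := _root_.Fermat.Agent.GTor.Clo.asm_one_transcendental N
  have htop := _root_.Fermat.Agent.GTor.Clo.asm_one_adjoin N hN
  have hfd : FiniteDimensional _root_.Fermat.Agent.GTor.Clo.Kbar⟮_root_.Fermat.Agent.GTor.Clo.jF N⟯ (_root_.Fermat.Agent.GTor.Clo.FN N) := by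
    apply FiniteDimensional.of_finrank_pos
    rw [htop, IntermediateField.finrank_top]
    exact one_pos
  have h1 : Module.finrank _root_.Fermat.Agent.GTor.Clo.Kbar⟮_root_.Fermat.Agent.GTor.Clo.jF N⟯ (_root_.Fermat.Agent.GTor.Clo.FN N) = 1 := by rw [htop, IntermediateField.finrank_top]
  -- zeros of `x - a`
  have hzero : ∀ a : _root_.Fermat.Agent.GTor.Clo.Kbar,
      Nat.card {v : Place _root_.Fermat.Agent.GTor.Clo.Kbar (_root_.Fermat.Agent.GTor.Clo.FN N) // 0 < v.ord (_root_.Fermat.Agent.GTor.Clo.jF N - algebraMap _root_.Fermat.Agent.GTor.Clo.Kbar (_root_.Fermat.Agent.GTor.Clo.FN N) a)} = 1 := by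
    intro a
    have htr : Transcendental _root_.Fermat.Agent.GTor.Clo.Kbar (_root_.Fermat.Agent.GTor.Clo.jF N - algebraMap _root_.Fermat.Agent.GTor.Clo.Kbar (_root_.Fermat.Agent.GTor.Clo.FN N) a) := by
      intro h
      apply hx
      have := h.add (isAlgebraic_algebraMap (R := _root_.Fermat.Agent.GTor.Clo.Kbar) (A := _root_.Fermat.Agent.GTor.Clo.FN N) a)
      rwa [sub_add_cancel] at this
    have htop' : _root_.Fermat.Agent.GTor.Clo.Kbar⟮_root_.Fermat.Agent.GTor.Clo.jF N - algebraMap _root_.Fermat.Agent.GTor.Clo.Kbar (_root_.Fermat.Agent.GTor.Clo.FN N) a⟯ = ⊤ := by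
      rw [eq_top_iff, ← htop, adjoin_simple_le_iff]
      have h1 : _root_.Fermat.Agent.GTor.Clo.jF N - algebraMap _root_.Fermat.Agent.GTor.Clo.Kbar (_root_.Fermat.Agent.GTor.Clo.FN N) a ∈ _root_.Fermat.Agent.GTor.Clo.Kbar⟮_root_.Fermat.Agent.GTor.Clo.jF N - algebraMap _root_.Fermat.Agent.GTor.Clo.Kbar (_root_.Fermat.Agent.GTor.Clo.FN N) a⟯ :=
        mem_adjoin_simple_self _ _
      have := add_mem h1 ((_root_.Fermat.Agent.GTor.Clo.Kbar⟮_root_.Fermat.Agent.GTor.Clo.jF N - algebraMap _root_.Fermat.Agent.GTor.Clo.Kbar (_root_.Fermat.Agent.GTor.Clo.FN N) a⟯).algebraMap_mem a)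
      rwa [sub_add_cancel] at this
    exact _root_.Fermat.Agent.GTor.Clo.asm_card_zeros_eq_one hzeros _ htr htop'
  -- poles of `x`
  have hpole : Nat.card {v : Place _root_.Fermat.Agent.GTor.Clo.Kbar (_root_.Fermat.Agent.GTor.Clo.FN N) // v.ord (_root_.Fermat.Agent.GTor.Clo.jF N) < 0} = 1 := by
    have htr : Transcendental _root_.Fermat.Agent.GTor.Clo.Kbar (_root_.Fermat.Agent.GTor.Clo.jF N)⁻¹ := fun h => hx (IsAlgebraic.inv_iff.mp h)
    have htop' : _root_.Fermat.Agent.GTor.Clo.Kbar⟮(_root_.Fermat.Agent.GTor.Clo.jF N)⁻¹⟯ = ⊤ := by rw [H59.adjoin_inv_eq, htop]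
    have := _root_.Fermat.Agent.GTor.Clo.asm_card_zeros_eq_one hzeros _ htr htop'
    rw [← this]
    refine Nat.card_congr (Equiv.subtypeEquivRight fun v => ?_)
    rw [Place.ord_inv]
    omega
  have key := _root_.Fermat.Agent.GTor.Clo.asm_genus_eq hzeros (_root_.Fermat.Agent.GTor.Clo.jF N) hx ∅ (fun _ => 0) (by simp)
    (fun a _ => by rw [h1]; exact hzero a) 1 hpole
  rw [key, h1, hN, _root_.Fermat.Agent.GTor.Clo.asm_genusFormula_one]
  simp

end Fermat.Agent.GTor.Clo

end
end
-- ==== END Fermat.Agent.GTor.Clo.AsmOne
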