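-- GENERATED (merged mirror, NOTES/tools/trim/merge3_helper67.py): 6 modules of the originals, bodies verbatim.
import Fermat.Prelude.Def_EllipticCurve_FrobeniusTrace
import Fermat.Agent.Zm.S35_L07_002
import Fermat.Agent.Zm.S35_L01_002
import Fermat.Agent.Zm.S35_L07_003
import Fermat.Agent.Zm.S35_L02_003
import Fermat.Agent.Zm.S35_L02_005
import Fermat.Agent.Zm.S35_L03_002
import Fermat.Agent.RED.H17_Red

-- ==== BEGIN Fermat.Agent.RED.H42_Gen8
section

/-!
# G-RED package GEN (helper42), part 8: the dictionary `L(N (x)_∞)` ↔ integrality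

`K` algebraically closed, `F / K` a function field, `x ∈ F` nonzero with finitely many poles,
`D = (x)_∞ = zeroDivisor x⁻¹`.  Then
`f ∈ L(N D)  ↔  f integral over K[x]  and  x⁻¹ ^ N * f integral over K[x⁻¹]`.
-/

set_option autoImplicit false

noncomputable section

open AlgebraicCurve IntermediateField WithZero Polynomial

namespace Fermat.Agent.RED.H42

open Fermat.Agent.S24

variable {K F : Type} [Field K] [Field F] [Algebra K F]

local notation "L" => riemannRochSpace

theorem coe_mem_valuationSubring_of_adjoin (A : ValuationSubring F)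
    (hK : ∀ a : K, algebraMap K F a ∈ A) {x : F} (hx : x ∈ A)
    (r : ↥(Algebra.adjoin K {x})) : (r : F) ∈ A := by
  let A' : Subalgebra K F := { A.toSubring with algebraMap_mem' := hK }
  have h1 : Algebra.adjoin K {x} ≤ A' := Algebra.adjoin_le (by
    intro y hy
    rw [Set.mem_singleton_iff] at hy
    rw [hy]
    exact hx)
  exact h1 r.2

/-- A valuation subring containing `K[x]` contains the integral closure of `K[x]`. -/
theorem mem_valuationSubring_of_isIntegral (A : ValuationSubring F)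
    (hK : ∀ a : K, algebraMap K F a ∈ A) {x : F} (hx : x ∈ A) {f : F}
    (hf : IsIntegral ↥(Algebra.adjoin K {x}) f) : f ∈ A := by
  obtain ⟨p, hp, h0⟩ := hf
  let ι : ↥(Algebra.adjoin K {x}) →+* ↥A :=
    ((Algebra.adjoin K {x}).val : ↥(Algebra.adjoin K {x}) →+* F).codRestrict A
      (coe_mem_valuationSubring_of_adjoin A hK hx)
  have hint : IsIntegral ↥A f := by
    refine ⟨p.map ι, hp.map ι, ?_⟩
    rw [Polynomial.eval₂_map]
    exact h0
  obtain ⟨y, hy⟩ := IsIntegrallyClosedIn.isIntegral_iff.1 hint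
  rw [← hy]
  exact y.2

/-- An element lying in all valuation subrings containing a set `s` is integral over the
subring generated by `s`. -/
theorem isIntegral_closure_of_forall_mem {s : Set F} {f : F}
    (h : ∀ A : ValuationSubring F, s ⊆ (A : Set F) → f ∈ A) :
    IsIntegral ↥(Subring.closure s) f := by
  have h1 : f ∈ (⨅ V : {V : ValuationSubring F // s ⊆ V.toSubring}, V.1.toSubring) := by
    rw [Subring.mem_iInf]
    rintro ⟨V, hV⟩
    exact h V hV
  have h2 := iInf_valuationSubring_superset (K := F) (s := s)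
  rw [h2] at h1
  exact h1

/-- An element lying in all valuation subrings containing `K[x]` is integral over `K[x]`. -/
theorem isIntegral_adjoin_of_forall_mem {x f : F}
    (h : ∀ A : ValuationSubring F, (∀ a : K, algebraMap K F a ∈ A) → x ∈ A → f ∈ A) :
    IsIntegral ↥(Algebra.adjoin K {x}) f := by
  have h2 : IsIntegral ↥(Subring.closure ((Algebra.adjoin K {x} : Subalgebra K F) : Set F)) f :=
    isIntegral_closure_of_forall_mem fun A hA =>
      h A (fun a => hA (Subalgebra.algebraMap_mem _ a))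
        (hA (Algebra.self_mem_adjoin_singleton K x))
  have hcl : ∀ r : F, r ∈ Subring.closure ((Algebra.adjoin K {x} : Subalgebra K F) : Set F) →
      r ∈ Algebra.adjoin K {x} := by
    intro r hr
    have h3 : Subring.closure ((Algebra.adjoin K {x} : Subalgebra K F) : Set F) ≤
        (Algebra.adjoin K {x}).toSubring := Subring.closure_le.2 fun y hy => hy
    exact h3 hr
  obtain ⟨p, hp, h0⟩ := h2
  let ι : ↥(Subring.closure ((Algebra.adjoin K {x} : Subalgebra K F) : Set F)) →+*
      ↥(Algebra.adjoin K {x}) :=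
    (Subring.subtype _).codRestrict (Algebra.adjoin K {x}) (fun r => hcl _ r.2)
  refine ⟨p.map ι, hp.map ι, ?_⟩
  rw [Polynomial.eval₂_map]
  exact h0

/-- In a function field over an algebraically closed field, every nontrivial valuation subring
containing the constants is (the valuation ring of) a place. -/
theorem exists_place_eq [IsAlgClosed K] (hFF : IsFF K F) (A : ValuationSubring F)
    (hK : ∀ a : K, algebraMap K F a ∈ A) (hne : A ≠ ⊤) :
    ∃ v : Place K F, v.toValuationSubring = A := by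
  obtain ⟨x₀, hx₀, hfin₀⟩ := hFF
  have hfin : ∀ y : F, Transcendental K y → FiniteDimensional K⟮y⟯ F :=
    fun y hy => ff_finite_of_transcendental x₀ hx₀ y hy
  obtain ⟨z, hz⟩ : ∃ z, z ∉ A := by
    by_contra hno
    push Not at hno
    exact hne (eq_top_iff.2 fun z _ => hno z)
  have hz0 : z ≠ 0 := fun h => hz (h ▸ A.zero_mem)
  have hzi : A.valuation z⁻¹ < 1 := by
    have h1 : ¬ A.valuation z ≤ 1 := fun h => hz ((A.valuation_le_one_iff z).1 h)
    rw [map_inv₀]
    exact inv_lt_one_of_one_lt₀ (not_le.1 h1)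
  have hfact := Fermat.Agent.RED.H12.hasUnitMulPowIrreducibleFactorization A hK hfin
    (inv_ne_zero hz0) hzi
  have hdvr : IsDiscreteValuationRing A :=
    IsDiscreteValuationRing.ofHasUnitMulPowIrreducibleFactorization hfact
  exact ⟨⟨A, hK, hne, inferInstance⟩, rfl⟩

theorem nsmul_zeroDivisor_apply (x : F) (h : {v : Place K F | 0 < v.ord x}.Finite) (N : ℕ)
    (v : Place K F) : (N • zeroDivisor x h) v = N * max (v.ord x) 0 := by
  rw [Finsupp.smul_apply, zeroDivisor_apply, nsmul_eq_mul]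

/-- **Dictionary, easy direction.** -/
theorem mem_L_of_isIntegral {x : F} (hx0 : x ≠ 0)
    (hfin : {v : Place K F | 0 < v.ord x⁻¹}.Finite) (N : ℕ) {f : F}
    (hf : IsIntegral ↥(Algebra.adjoin K {x}) f)
    (hf' : IsIntegral ↥(Algebra.adjoin K {x⁻¹}) (x⁻¹ ^ N * f)) :
    f ∈ L (N • zeroDivisor x⁻¹ hfin) := by
  rw [mem_riemannRochSpace_iff]
  intro v
  by_cases hf0 : f = 0
  · exact Or.inl hf0
  right
  rw [nsmul_zeroDivisor_apply]
  by_cases hxv : x ∈ v.toValuationSubring
  · have h1 := mem_valuationSubring_of_isIntegral v.toValuationSubring v.algebraMap_mem' hxv hf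
    have h2 := (Fermat.Agent.RED.H51.mem_iff_ord_nonneg v hf0).1 h1
    have h3 : (0 : ℤ) ≤ N * max (v.ord x⁻¹) 0 :=
      mul_nonneg (Int.natCast_nonneg N) (le_max_right _ _)
    omega
  · have hxi : x⁻¹ ∈ v.toValuationSubring :=
      (v.toValuationSubring.mem_or_inv_mem x).resolve_left hxv
    have h1 := mem_valuationSubring_of_isIntegral v.toValuationSubring v.algebraMap_mem' hxi hf'
    have hne : x⁻¹ ^ N * f ≠ 0 := mul_ne_zero (pow_ne_zero N (inv_ne_zero hx0)) hf0
    have h2 := (Fermat.Agent.RED.H51.mem_iff_ord_nonneg v hne).1 h1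
    rw [v.ord_mul (pow_ne_zero N (inv_ne_zero hx0)) hf0, Fermat.Agent.RED.H51.ord_pow] at h2
    have h3 := (Fermat.Agent.RED.H51.mem_iff_ord_nonneg v (inv_ne_zero hx0)).1 hxi
    rw [max_eq_left h3]
    omega

/-- **Dictionary, hard direction** (uses that valuation subrings are places). -/
theorem isIntegral_of_mem_L [IsAlgClosed K] (hFF : IsFF K F) {x : F} (hx0 : x ≠ 0)
    (hfin : {v : Place K F | 0 < v.ord x⁻¹}.Finite) (N : ℕ) {f : F}
    (hf : f ∈ L (N • zeroDivisor x⁻¹ hfin)) :
    IsIntegral ↥(Algebra.adjoin K {x}) f ∧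
      IsIntegral ↥(Algebra.adjoin K {x⁻¹}) (x⁻¹ ^ N * f) := by
  rw [mem_riemannRochSpace_iff] at hf
  by_cases hf0 : f = 0
  · rw [hf0, mul_zero]
    exact ⟨isIntegral_zero, isIntegral_zero⟩
  constructor
  · apply isIntegral_adjoin_of_forall_mem (K := K)
    intro A hK hxA
    by_cases hA : A = ⊤
    · rw [hA]
      exact ValuationSubring.mem_top _
    obtain ⟨v, rfl⟩ := exists_place_eq hFF A hK hA
    rw [Fermat.Agent.RED.H51.mem_iff_ord_nonneg v hf0]
    have h1 := (hf v).resolve_left hf0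
    rw [nsmul_zeroDivisor_apply] at h1
    have h2 := (Fermat.Agent.RED.H51.mem_iff_ord_nonneg v hx0).1 hxA
    have h3 : v.ord x⁻¹ ≤ 0 := by
      rw [v.ord_inv]
      omega
    rw [max_eq_right h3, mul_zero] at h1
    omega
  · apply isIntegral_adjoin_of_forall_mem (K := K)
    intro A hK hxA
    by_cases hA : A = ⊤
    · rw [hA]
      exact ValuationSubring.mem_top _
    obtain ⟨v, rfl⟩ := exists_place_eq hFF A hK hA
    have hne : x⁻¹ ^ N * f ≠ 0 := mul_ne_zero (pow_ne_zero N (inv_ne_zero hx0)) hf0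
    rw [Fermat.Agent.RED.H51.mem_iff_ord_nonneg v hne,
      v.ord_mul (pow_ne_zero N (inv_ne_zero hx0)) hf0, Fermat.Agent.RED.H51.ord_pow]
    have h1 := (hf v).resolve_left hf0
    rw [nsmul_zeroDivisor_apply] at h1
    have h2 := (Fermat.Agent.RED.H51.mem_iff_ord_nonneg v (inv_ne_zero hx0)).1 hxA
    rw [max_eq_left h2] at h1
    omega

end Fermat.Agent.RED.H42

end
end
-- ==== END Fermat.Agent.RED.H42_Gen8

-- ==== BEGIN Fermat.Agent.RED.H73_GAMainA
section

/-!
# G-RED package GA (helper73): from `CADataL` to the S28 core hypotheses over `(L, A)`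

* `coeffRingL_le`        : `ℤ[ζ_N, 1/N] ⊂ A` when `N` is invertible in `A`.
* `JL L N`               : `J = j(t^N) ∈ L((t))`; order, leading coefficient.
* `coreHyp_of_caDataL`   : `CADataL L N` gives `CoreHyp A q₀ J U N D`.
* `qExpand_mem_gaussRingV`, `gaussRedV_qExpand` : `q ↦ t^N` commutes with Gauss reduction.
-/

set_option autoImplicit false

open Polynomial ModularCurve Fermat.Agent.S28 Fermat.Agent.S28.H73

noncomputable section

namespace Fermat.Agent.RED.H73

section CoeffRing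

variable {L : Type} [Field L] (A : ValuationSubring L) (N : ℕ) [NeZero N]

/-- `ℤ[ζ_N, 1/N] ⊂ A` as soon as `1/N ∈ A`. -/
theorem coeffRingL_le (hN : ((N : L))⁻¹ ∈ A) : coeffRingL L N ≤ A.toSubring := by
  unfold coeffRingL
  rw [Subring.closure_le]
  rintro z (hz | hz)
  · exact Fermat.Agent.S28.H48.mem_of_pow_eq_one A (NeZero.ne N) hz
  · rw [Set.mem_singleton_iff] at hz
    subst hz
    exact hN

omit [NeZero N] in
/-- `1/N ∈ A` if `A` lies over a prime `ℓ ∤ N`. -/
theorem inv_natCast_mem_of_liesOver {ℓ : ℕ} (hℓ : ℓ.Prime) (hℓN : ¬ ℓ ∣ N)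
    (hA : A.LiesOverPrime ℓ) : ((N : L))⁻¹ ∈ A := by
  refine Fermat.Agent.S28.H48.inv_natCast_mem A (ℓ := ℓ) ?_ ?_
  · exact (ValuationSubring.mem_nonunits_iff (A := A)).1 hA
  · exact (Nat.Coprime.symm ((Nat.Prime.coprime_iff_not_dvd hℓ).mpr hℓN))

end CoeffRing

section JSeries

variable (L : Type) [Field L] (N : ℕ) [NeZero N]

/-- `J = j(t^N)`. -/
def JL : LaurentSeries L := qExpand L N (jqModC L)

theorem JL_coeff_neg : (JL L N).coeff (-(N : ℤ)) = 1 := by
  have h := qExpand_coeff_mul N (jqModC L) (-1)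
  rw [mul_neg_one] at h
  rw [JL, h, coeff_jqModC_neg_one]

theorem JL_coeff_of_lt {k : ℤ} (hk : k < -(N : ℤ)) : (JL L N).coeff k = 0 := by
  by_cases hn : (N : ℤ) ∣ k
  · obtain ⟨m, rfl⟩ := hn
    rw [JL, qExpand_coeff_mul]
    have hN : (0 : ℤ) < N := by exact_mod_cast Nat.pos_of_ne_zero (NeZero.ne N)
    have hm : m < -1 := by
      by_contra hcon
      rw [not_lt] at hcon
      have : -(N : ℤ) ≤ (N : ℤ) * m := by nlinarith
      omega
    exact coeff_jqModC_of_lt L hm
  · exact qExpand_coeff_of_not_dvd N _ hn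

theorem JL_ne_zero : JL L N ≠ 0 := by
  intro h
  have := JL_coeff_neg L N
  rw [h] at this
  simp at this

theorem JL_order : (JL L N).order = -(N : ℤ) := by
  have hne := JL_ne_zero L N
  apply le_antisymm
  · exact HahnSeries.order_le_of_coeff_ne_zero (by rw [JL_coeff_neg]; exact one_ne_zero)
  · by_contra hcon
    rw [not_le] at hcon
    have := JL_coeff_of_lt L N hcon
    exact (HahnSeries.coeff_order_eq_zero.not.mpr hne) this

theorem JL_leadingCoeff : (JL L N).leadingCoeff = 1 := by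
  rw [HahnSeries.leadingCoeff_eq, JL_order, JL_coeff_neg]

theorem JL_coeffsIn (O : Subring L) : CoeffsIn O (JL L N) := by
  intro n
  by_cases hn : (N : ℤ) ∣ n
  · obtain ⟨k, rfl⟩ := hn
    rw [JL, qExpand_coeff_mul, coeff_jqModC_eq_intCast]
    exact intCast_mem O _
  · rw [JL, qExpand_coeff_of_not_dvd N _ hn]
    exact zero_mem _

theorem JL_unitLead (O : Subring L) : UnitLead O (JL L N) :=
  ⟨JL_coeffsIn L N O, JL_ne_zero L N, by rw [JL_leadingCoeff, inv_one]; exact O.one_mem⟩

end JSeries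

section Core

variable {L : Type} [Field L] (A : ValuationSubring L) {N : ℕ} [NeZero N]

/-- The S28 core hypotheses over `(L, A)` from the conjugate data over `L`. -/
theorem coreHyp_of_caDataL (hN : ((N : L))⁻¹ ∈ A) (D : CADataL L N) :
    CoreHyp A D.q₀ (JL L N) D.U N D.D where
  nJ_pos := Nat.pos_of_ne_zero (NeZero.ne N)
  D_pos := D.D_pos
  J_unitLead := JL_unitLead L N _
  J_order := JL_order L N
  U_unitLead := fun q =>
    ⟨fun n => coeffRingL_le A N hN (D.U_coeff q n), D.U_ne q, coeffRingL_le A N hN (D.U_lead q)⟩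
  U_order₀ := D.U_order₀
  U_order_pos := D.U_order_pos
  sym := fun c => by
    have h := D.sym N dvd_rfl c 0
    have e : (∏ q, (HahnSeries.C c - D.U q - HahnSeries.C 0 * D.X N q))
        = ∏ q, (HahnSeries.C c - D.U q) :=
      Finset.prod_congr rfl fun q _ => by rw [map_zero, zero_mul, sub_zero]
    rw [e] at h
    exact h

end Core

section QExpandGauss

variable {C : Type} [Field C] (O : ValuationSubring C) (N : ℕ) [NeZero N]

theorem iotaV_qExpand (g : LaurentSeries ↥O) :
    iotaV O (qExpand ↥O N g) = qExpand C N (iotaV O g) := by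
  rw [iotaV, coeffMap_qExpand]

theorem redV_qExpand (g : LaurentSeries ↥O) :
    redV O (qExpand ↥O N g) = qExpand (kV O) N (redV O g) := by
  rw [redV, coeffMap_qExpand]

theorem qExpand_ne_zero {R : Type} [CommRing R] {f : LaurentSeries R} (hf : f ≠ 0) :
    qExpand R N f ≠ 0 := fun h => hf (qExpand_injective N (h.trans (map_zero _).symm))

/-- `q ↦ t^N` preserves the Gauss ring. -/
theorem qExpand_mem_gaussRingV {x : LaurentSeries C} (hx : x ∈ gaussRingV O) :
    qExpand C N x ∈ gaussRingV O := by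
  obtain ⟨g, h, hg, hgx⟩ := hx
  refine ⟨qExpand ↥O N g, qExpand ↥O N h, ?_, ?_⟩
  · rw [redV_qExpand]
    exact qExpand_ne_zero N hg
  · rw [iotaV_qExpand, iotaV_qExpand, ← map_mul, hgx]

/-- `q ↦ t^N` commutes with the Gauss reduction. -/
theorem gaussRedV_qExpand (x : gaussRingV O) (h' : qExpand C N (x : LaurentSeries C) ∈ gaussRingV O) :
    gaussRedV O ⟨qExpand C N (x : LaurentSeries C), h'⟩ = qExpand (kV O) N (gaussRedV O x) := by
  obtain ⟨g, h, hg, hgx⟩ := x.2
  have hg' : redV O (qExpand ↥O N g) ≠ 0 := by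
    rw [redV_qExpand]
    exact qExpand_ne_zero N hg
  have hgx' : iotaV O (qExpand ↥O N g) * qExpand C N (x : LaurentSeries C)
      = iotaV O (qExpand ↥O N h) := by
    rw [iotaV_qExpand, iotaV_qExpand, ← map_mul, hgx]
  rw [gaussRedV_eq O x hg hgx, gaussRedV_eq O ⟨_, h'⟩ hg' hgx', map_div₀, redV_qExpand,
    redV_qExpand]

end QExpandGauss

end Fermat.Agent.RED.H73

end
end
-- ==== END Fermat.Agent.RED.H73_GAMainA

-- ==== BEGIN Fermat.Agent.RED.H79_ConsC4
section

/-!
# G-RED package CONS, C4 (helper79): every place of a chart has a reduction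

`stmt_C4 : Stmt_C4`.  For `P` in the chart, `n := red (R ∩ m_P)` is a proper ideal of `Bt`; any
maximal ideal `n' ⊇ n` gives a place `Q` of `Ft` with `RedTo S x hx P Q`.
-/

set_option autoImplicit false
set_option linter.style.haveILetI false

noncomputable section

open AlgebraicCurve IsDedekindDomain WithZero IntermediateField
open scoped IntermediateField.algebraAdjoinAdjoin

namespace Fermat.Agent.RED.H79

open Fermat.Agent.RED.H34 Fermat.Agent.RED.H51

section General

variable {K F : Type*} [Field K] [Field F] [Algebra K F]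

/-- A constant of positive order is zero. -/
theorem const_eq_zero_of_ordGe_one (P : Place K F) (c : K)
    (h : OrdGe P 1 (algebraMap K F c)) : c = 0 := by
  rcases h with h | h
  · exact (map_eq_zero_iff _ (algebraMap K F).injective).1 h
  · rw [ord_algebraMap] at h
    omega

/-- Constants are integral over `K[x]`. -/
theorem isIntegral_const (x : F) (c : K) :
    IsIntegral ↥(Algebra.adjoin K {x}) (algebraMap K F c) := by
  have : algebraMap K F c = algebraMap ↥(Algebra.adjoin K {x}) F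
      (algebraMap K ↥(Algebra.adjoin K {x}) c) := rfl
  rw [this]
  exact isIntegral_algebraMap

/-- `x` is integral over `K[x]`. -/
theorem isIntegral_gen (x : F) : IsIntegral ↥(Algebra.adjoin K {x}) x :=
  isIntegral_algebraMap (R := ↥(Algebra.adjoin K {x})) (A := F)
    (x := ⟨x, Algebra.self_mem_adjoin_singleton K x⟩)

end General

section Red

variable {C F k Ft : Type} [Field C] [Field F] [Algebra C F] [Field k] [Field Ft] [Algebra k Ft]
variable (S : RedSetting C F k Ft) {x : F}

theorem InChart.mem {P : Place C F} (h : InChart S x P) : x ∈ P.toValuationSubring := by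
  obtain ⟨a, -, ha⟩ := h
  have h1 : OrdGe P 0 (x - algebraMap C F a) := ha.mono (by norm_num)
  have h2 : OrdGe P 0 (algebraMap C F a) := ordGe_algebraMap P a
  have h3 := h1.add h2
  rw [sub_add_cancel] at h3
  exact (ordGe_zero_iff_mem P x).1 h3

/-- The kernel of `red` on `R = B ∩ V` is `m_O R`. -/
theorem exists_scale_of_red_eq_zero (f : ↥S.V)
    (hf : IsIntegral ↥(Algebra.adjoin C {x}) (f : F)) (h0 : S.red f = 0) :
    ∃ (c : ↥S.O) (u : ↥S.V), S.resO c = 0 ∧ IsIntegral ↥(Algebra.adjoin C {x}) (u : F) ∧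
      (f : F) = algebraMap C F (c : C) * (u : F) := by
  rcases eq_or_ne (f : F) 0 with hf0 | hf0
  · exact ⟨0, 0, map_zero _, by simpa using isIntegral_zero, by simp [hf0]⟩
  obtain ⟨c, hc, u, hu⟩ := S.scale (f : F) hf0
  have hcV : algebraMap C F c ∈ S.V := by
    have : algebraMap C F c = (f : F) * (((u⁻¹ : (↥S.V)ˣ) : ↥S.V) : F) := by
      rw [hu, mul_assoc]
      have h1 : ((u : ↥S.V) : F) * (((u⁻¹ : (↥S.V)ˣ) : ↥S.V) : F) = 1 := by
        have := congrArg Subtype.val u.mul_inv
        exact this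
      rw [h1, mul_one]
    rw [this]
    exact mul_mem f.2 (Subtype.mem _)
  refine ⟨⟨c, hcV⟩, (u : ↥S.V), ?_, ?_, hu⟩
  · have h1 : f = S.inclO ⟨c, hcV⟩ * (u : ↥S.V) := Subtype.ext hu
    rw [h1, map_mul, S.red_inclO] at h0
    have hu0 : S.red (u : ↥S.V) ≠ 0 := (u.isUnit.map S.red).ne_zero
    have := (mul_eq_zero.1 h0).resolve_right hu0
    exact (map_eq_zero_iff _ (algebraMap k Ft).injective).1 this
  · have h1 : ((u : ↥S.V) : F) = algebraMap C F c⁻¹ * (f : F) := by
      rw [hu, ← mul_assoc, ← map_mul, inv_mul_cancel₀ hc, map_one, one_mul]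
    rw [h1]
    exact (isIntegral_const x c⁻¹).mul hf

end Red

section C4

variable {C F k Ft : Type} [Field C] [Field F] [Algebra C F] [Field k] [Field Ft] [Algebra k Ft]
variable (S : RedSetting C F k Ft) {x : F} (hx : x ∈ S.V)

theorem GoodChart.finite_red {S : RedSetting C F k Ft} {x : F} {hx : x ∈ S.V}
    (G : GoodChart S x hx) : FiniteDimensional k⟮S.red ⟨x, hx⟩⟯ Ft := by
  haveI := G.fin
  have h : 0 < Module.finrank k⟮S.red ⟨x, hx⟩⟯ Ft := by
    rw [G.deg]
    exact Module.finrank_pos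
  exact Module.finite_of_finrank_pos h

/-- The ideal `red (R ∩ m_P)` of `Bt`. -/
def redIdeal (hN : ChartNormal S x hx) (P : Place C F) (hxP : x ∈ P.toValuationSubring) :
    Ideal ↥(integralClosure ↥(Algebra.adjoin k {S.red ⟨x, hx⟩}) Ft) where
  carrier := {y | ∃ f : ↥S.V, IsIntegral ↥(Algebra.adjoin C {x}) (f : F) ∧
    OrdGe P 1 (f : F) ∧ S.red f = (y : Ft)}
  zero_mem' := ⟨0, by simpa using isIntegral_zero, ordGe_zero _ _, by simp⟩
  add_mem' := by
    rintro y y' ⟨f, hf, hfP, hfy⟩ ⟨f', hf', hfP', hfy'⟩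
    refine ⟨f + f', ?_, ?_, ?_⟩
    · simpa using hf.add hf'
    · simpa using hfP.add hfP'
    · rw [map_add, hfy, hfy']
      rfl
  smul_mem' := by
    rintro c y ⟨f, hf, hfP, hfy⟩
    obtain ⟨g, hg, hgc⟩ := hN (c : Ft) c.2
    refine ⟨g * f, ?_, ?_, ?_⟩
    · simpa using hg.mul hf
    · have h0 : OrdGe P 0 (g : F) := (ordGe_zero_iff_mem P _).2 (mem_of_isIntegral P hxP hg)
      have := h0.mul hfP
      simpa using this
    · rw [map_mul, hfy, hgc]
      rfl

theorem mem_redIdeal_iff (hN : ChartNormal S x hx) (P : Place C F)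
    (hxP : x ∈ P.toValuationSubring)
    (y : ↥(integralClosure ↥(Algebra.adjoin k {S.red ⟨x, hx⟩}) Ft)) :
    y ∈ redIdeal S hx hN P hxP ↔ ∃ f : ↥S.V, IsIntegral ↥(Algebra.adjoin C {x}) (f : F) ∧
      OrdGe P 1 (f : F) ∧ S.red f = (y : Ft) := Iff.rfl

theorem redIdeal_ne_top (hN : ChartNormal S x hx) (hI : ChartIntegral S x hx) (P : Place C F)
    (hP : InChart S x P) : redIdeal S hx hN P (InChart.mem S hP) ≠ ⊤ := by
  rw [Ideal.ne_top_iff_one]
  rintro ⟨f, hf, hfP, hf1⟩
  have hred : S.red (f - 1) = 0 := by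
    rw [map_sub, hf1, map_one]
    exact sub_self _
  have hint : IsIntegral ↥(Algebra.adjoin C {x}) ((f - 1 : ↥S.V) : F) := by
    simpa using hf.sub isIntegral_one
  obtain ⟨c, u, hc, hu, hfu⟩ := exists_scale_of_red_eq_zero S (f - 1) hint hred
  obtain ⟨a, ha⟩ := (hI u hu).2 P hP
  -- `1 + c a` has positive order at `P`
  have h1 : OrdGe P 1 (algebraMap C F ((1 + c * a : ↥S.O) : C)) := by
    have e : algebraMap C F ((1 + c * a : ↥S.O) : C)
        = (f : F) - algebraMap C F (c : C) * ((u : F) - algebraMap C F (a : C)) := by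
      have : ((f - 1 : ↥S.V) : F) = (f : F) - 1 := rfl
      rw [this] at hfu
      show algebraMap C F (1 + (c : C) * (a : C)) = _
      rw [map_add, map_one, map_mul]
      linear_combination (-1 : F) * hfu
    rw [e]
    have h2 : OrdGe P 1 (algebraMap C F (c : C) * ((u : F) - algebraMap C F (a : C))) := by
      have := (ordGe_algebraMap P (c : C)).mul ha
      simpa using this
    exact hfP.sub h2
  have h2 := const_eq_zero_of_ordGe_one P _ h1
  have h3 : (1 + c * a : ↥S.O) = 0 := Subtype.ext h2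
  have h4 := congrArg S.resO h3
  rw [map_add, map_mul, hc, zero_mul, add_zero, map_one, map_zero] at h4
  exact one_ne_zero h4

/-- **C4**: every place of the chart has a reduction. -/
theorem stmt_C4 : Stmt_C4 := by
  intro C F k Ft _ _ _ _ _ _ _ _ S x hx G hI P hP
  haveI := G.finite_red
  haveI := G.sept
  haveI := isDedekind_Bx (K := k) (S.red ⟨x, hx⟩) G.transc
  haveI := isFractionRing_Bx (K := k) (F := Ft) (S.red ⟨x, hx⟩)
  have hxP := InChart.mem S hP
  obtain ⟨n', hmax, hle⟩ := Ideal.exists_le_maximal _ (redIdeal_ne_top S hx G.normal hI P hP)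
  -- membership in `n` for `f - a`
  have key : ∀ f : ↥S.V, IsIntegral ↥(Algebra.adjoin C {x}) (f : F) → ∀ a : ↥S.O,
      OrdGe P 1 ((f : F) - algebraMap C F (a : C)) →
      ∃ y : ↥(integralClosure ↥(Algebra.adjoin k {S.red ⟨x, hx⟩}) Ft),
        y ∈ n' ∧ (y : Ft) = S.red f - algebraMap k Ft (S.resO a) := by
    intro f hf a ha
    have hint : IsIntegral ↥(Algebra.adjoin C {x}) ((f - S.inclO a : ↥S.V) : F) := by
      have : ((f - S.inclO a : ↥S.V) : F) = (f : F) - algebraMap C F (a : C) := rfl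
      rw [this]
      exact hf.sub (isIntegral_const x _)
    have hred : S.red (f - S.inclO a) = S.red f - algebraMap k Ft (S.resO a) := by
      rw [map_sub, S.red_inclO]
    have hy : IsIntegral ↥(Algebra.adjoin k {S.red ⟨x, hx⟩})
        (S.red f - algebraMap k Ft (S.resO a)) := by
      rw [← hred]
      exact (hI _ hint).1
    refine ⟨⟨_, hy⟩, hle ?_, rfl⟩
    exact ⟨f - S.inclO a, hint, ha, hred⟩
  have hne : n' ≠ ⊥ := by
    obtain ⟨a, haV, haP⟩ := hP
    obtain ⟨y, hy, hyx⟩ := key ⟨x, hx⟩ (isIntegral_gen x) ⟨a, haV⟩ haP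
    intro hbot
    rw [hbot, Ideal.mem_bot] at hy
    rw [hy] at hyx
    have h0 : S.red ⟨x, hx⟩ = algebraMap k Ft (S.resO ⟨a, haV⟩) := by
      have : (0 : Ft) = S.red ⟨x, hx⟩ - algebraMap k Ft (S.resO ⟨a, haV⟩) := hyx
      exact sub_eq_zero.1 this.symm
    apply G.transc
    rw [h0]
    exact isAlgebraic_algebraMap _
  let w : HeightOneSpectrum ↥(integralClosure ↥(Algebra.adjoin k {S.red ⟨x, hx⟩}) Ft) :=
    ⟨n', hmax.isPrime, hne⟩
  refine ⟨ofH k w, ?_, ?_⟩
  · exact (ordGe_zero_iff_mem _ _).1 (ordGe_zero_algebraMap (K := k) (F := Ft) w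
      ⟨S.red ⟨x, hx⟩, isIntegral_gen _⟩)
  · intro f hf a ha
    obtain ⟨y, hy, hyx⟩ := key f hf a ha
    rw [← hyx]
    exact (ordGe_one_algebraMap_iff (K := k) (F := Ft) w y).2 hy

end C4

end Fermat.Agent.RED.H79

end
end
-- ==== END Fermat.Agent.RED.H79_ConsC4

-- ==== BEGIN Fermat.Agent.RED.H82_NotDvdDet
section

/-!
# G-RED package IG, lemma (S5) of the chart theorem (helper82 for helper34): `not_dvd_det`

`bF` a `C(x)`-basis of `F` of integral elements of `V` reducing to a basis `bt` that spans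
`Bbar = red (B ∩ V)` over `k[xt]`, `c` a `C[x]`-basis of `B`, `bF = P c`.  Then `det P` has no
root `ρ ∈ O`: a root gives `y = Σ μ_i b_i = (x - ρ) y'` with `μ_i ∈ O`, `μ_{i₀} = 1`, `y' ∈ B ∩ V`,
and comparing the `bt`-coordinates of `red y` at `i₀` makes `xt - γ` a unit of `k[xt]`.
-/

set_option autoImplicit false
set_option linter.unusedVariables false

noncomputable section

open Polynomial IntermediateField Module Matrix
open scoped IntermediateField.algebraAdjoinAdjoin nonZeroDivisors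
open Fermat.Agent.RED.H34 Fermat.Agent.RED.H34.RedSetting

namespace Fermat.Agent.RED.H82

variable {C F k Ft : Type} [Field C] [Field F] [Algebra C F] [Field k] [Field Ft] [Algebra k Ft]
variable {S : RedSetting C F k Ft} {x : F} (hx : x ∈ S.V)

theorem evAt_algebraMap (hxC : Transcendental C x) (ρ a : C) :
    evAt hxC ρ (algebraMap C ↥(Algebra.adjoin C {x}) a) = a := by
  rw [← polyEquiv_C hxC, evAt_polyEquiv, Polynomial.eval_C]

/-- `x - ρ` as an element of `V`, for `ρ ∈ O`. -/
theorem coe_psi_X_sub_C (ρ : C) (hρ : ρ ∈ S.O) :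
    ((psi hx (Polynomial.X - Polynomial.C (⟨ρ, hρ⟩ : ↥S.O)) : ↥S.V) : F)
      = x - algebraMap C F ρ := by
  rw [coe_psi]
  simp

theorem isUnit_psi_X_sub_C (hxt : Transcendental k (S.red ⟨x, hx⟩)) (ρ : C) (hρ : ρ ∈ S.O) :
    IsUnit (psi hx (Polynomial.X - Polynomial.C (⟨ρ, hρ⟩ : ↥S.O))) := by
  apply isUnit_psi hx hxt
  rw [Polynomial.map_sub, Polynomial.map_X, Polynomial.map_C]
  exact Polynomial.X_sub_C_ne_zero _

theorem not_dvd_det [CharZero C] (hxt : Transcendental k (S.red ⟨x, hx⟩))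
    [FiniteDimensional ↥C⟮x⟯ F]
    (hdeg : Module.finrank ↥k⟮S.red ⟨x, hx⟩⟯ Ft = Module.finrank ↥C⟮x⟯ F)
    {m : ℕ} (bF : Module.Basis (Fin m) ↥C⟮x⟯ F) (hbV : ∀ i, bF i ∈ S.V)
    (hbB : ∀ i, IsIntegral ↥(Algebra.adjoin C {x}) (bF i))
    (bt : Module.Basis (Fin m) ↥k⟮S.red ⟨x, hx⟩⟯ Ft) (hbt : ∀ i, bt i = S.red ⟨bF i, hbV i⟩)
    (hspan : ∀ y ∈ S.Bbar hx,
      y ∈ Submodule.span ↥(Algebra.adjoin k {S.red ⟨x, hx⟩}) (Set.range bt))
    (c : Module.Basis (Fin m) ↥(Algebra.adjoin C {x}) ↥(Bx (C := C) x))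
    (P : Matrix (Fin m) (Fin m) ↥(Algebra.adjoin C {x}))
    (hP : ∀ i, (⟨bF i, hbB i⟩ : ↥(Bx (C := C) x)) = ∑ j, P i j • c j)
    (ρ : C) (hρ : ρ ∈ S.O) : ¬ piRho x ρ ∣ P.det := by
  classical
  intro hdvd
  have hxC := transcendental_x hx hxt
  -- Step 1: a nonzero vector in the left kernel of `P(ρ)`
  have hev : evAt hxC ρ P.det = 0 := (evAt_eq_zero_iff hxC ρ _).2 hdvd
  have hdet0 : (P.map (evAt hxC ρ)).det = 0 := by
    rw [← RingHom.mapMatrix_apply, ← RingHom.map_det, hev]
  obtain ⟨lam, hlam0, hlam⟩ := Matrix.exists_vecMul_eq_zero_iff.2 hdet0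
  -- Step 2: scaling
  have hne : ∃ i, lam i ≠ 0 := by
    by_contra h
    push Not at h
    exact hlam0 (funext h)
  obtain ⟨i₁, hi₁⟩ := hne
  obtain ⟨i₀, -, hi₀⟩ := Finset.exists_max_image Finset.univ
    (fun i => S.O.valuation (lam i)) ⟨i₁, Finset.mem_univ _⟩
  have hlam_i₀ : lam i₀ ≠ 0 := by
    intro h0
    have h1 := hi₀ i₁ (Finset.mem_univ _)
    simp only [h0, map_zero] at h1
    exact hi₁ ((map_eq_zero _).1 (le_antisymm h1 zero_le))
  set μ : Fin m → C := fun i => lam i / lam i₀ with hμ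
  have hμi₀ : μ i₀ = 1 := div_self hlam_i₀
  have hμO : ∀ i, μ i ∈ S.O := by
    intro i
    rw [← ValuationSubring.valuation_le_one_iff, hμ]
    simp only [map_div₀]
    have hpos : 0 < S.O.valuation (lam i₀) := by
      rw [pos_iff_ne_zero]
      exact fun h => hlam_i₀ ((map_eq_zero _).1 h)
    exact (div_le_one₀ hpos).2 (hi₀ i (Finset.mem_univ _))
  have hμker : ∀ j, ∑ i, μ i * evAt hxC ρ (P i j) = 0 := by
    intro j
    have h1 := congrFun hlam j
    simp only [Matrix.vecMul, dotProduct, Matrix.map_apply, Pi.zero_apply] at h1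
    simp only [hμ, div_mul_eq_mul_div]
    rw [← Finset.sum_div, h1, zero_div]
  -- Step 3: divide by `x - ρ` inside `B`
  have hr : ∀ j, piRho x ρ ∣ ∑ i, algebraMap C ↥(Algebra.adjoin C {x}) (μ i) * P i j := by
    intro j
    rw [← evAt_eq_zero_iff hxC ρ, map_sum]
    simp only [map_mul, _root_.Fermat.Agent.RED.H82.evAt_algebraMap]
    exact hμker j
  choose q hq using hr
  set y' : ↥(Bx (C := C) x) := ∑ j, q j • c j with hy'
  have hyB : ∑ i, algebraMap C ↥(Algebra.adjoin C {x}) (μ i) • (⟨bF i, hbB i⟩ : ↥(Bx (C := C) x))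
      = piRho x ρ • y' := by
    simp only [hP, Finset.smul_sum, smul_smul]
    rw [Finset.sum_comm]
    rw [hy', Finset.smul_sum]
    refine Finset.sum_congr rfl fun j _ => ?_
    rw [← Finset.sum_smul, hq j, smul_smul]
  have hyF : ∑ i, algebraMap C F (μ i) * bF i = (x - algebraMap C F ρ) * (y' : F) := by
    have hsm : ∀ (a : ↥(Algebra.adjoin C {x})) (b : ↥(Bx (C := C) x)),
        ((a • b : ↥(Bx (C := C) x)) : F) = (a : F) * (b : F) := fun a b => rfl
    have h1 := congrArg (fun z : ↥(Bx (C := C) x) => (z : F)) hyB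
    simp only [AddSubmonoidClass.coe_finsetSum, hsm] at h1
    exact h1
  -- Step 4: `y'` lies in `V`
  set u : ↥S.V := psi hx (Polynomial.X - Polynomial.C (⟨ρ, hρ⟩ : ↥S.O)) with hu
  have huu : IsUnit u := _root_.Fermat.Agent.RED.H82.isUnit_psi_X_sub_C hx hxt ρ hρ
  have hucoe : (u : F) = x - algebraMap C F ρ := _root_.Fermat.Agent.RED.H82.coe_psi_X_sub_C hx ρ hρ
  have hu0 : (x - algebraMap C F ρ) ≠ 0 := by
    rw [← hucoe]
    intro h0
    have : u = 0 := Subtype.ext h0
    rw [this] at huu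
    exact not_isUnit_zero huu
  set yV : ↥S.V := ∑ i, S.inclO ⟨μ i, hμO i⟩ * ⟨bF i, hbV i⟩ with hyV
  have hyVcoe : (yV : F) = ∑ i, algebraMap C F (μ i) * bF i := by
    rw [hyV, AddSubmonoidClass.coe_finsetSum]
    rfl
  obtain ⟨w, hw⟩ := huu.exists_right_inv
  have hy'V : (y' : F) = ((w * yV : ↥S.V) : F) := by
    apply mul_left_cancel₀ hu0
    rw [← hyF, ← hyVcoe, ← hucoe]
    have : u * (w * yV) = yV := by rw [← mul_assoc, hw, one_mul]
    exact (congrArg (fun z : ↥S.V => (z : F)) this).symm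
  have hy'mem : (y' : F) ∈ S.V := by rw [hy'V]; exact (w * yV).2
  have hredy' : S.red ⟨(y' : F), hy'mem⟩ ∈ S.Bbar hx :=
    (mem_Bbar hx _).2 ⟨(y' : F), hy'mem, y'.2, rfl⟩
  obtain ⟨β, hβ⟩ := (Submodule.mem_span_range_iff_exists_fun _).1 (hspan _ hredy')
  -- Step 5: compare coordinates at `i₀`
  set γ : k := S.resO ⟨ρ, hρ⟩ with hγ
  have hredu : S.red u = S.red ⟨x, hx⟩ - algebraMap k Ft γ := by
    rw [hu, red_psi]
    simp [hγ]
  have hyVfac : yV = u * ⟨(y' : F), hy'mem⟩ := by
    apply Subtype.ext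
    show (yV : F) = (u : F) * (y' : F)
    rw [hyVcoe, hyF, hucoe]
  have hred1 : S.red yV = ∑ i, algebraMap k Ft (S.resO ⟨μ i, hμO i⟩) * bt i := by
    rw [hyV, map_sum]
    refine Finset.sum_congr rfl fun i _ => ?_
    rw [map_mul, red_inclO, hbt i]
  have hred2 : S.red yV = (S.red ⟨x, hx⟩ - algebraMap k Ft γ) * ∑ i, β i • bt i := by
    rw [hyVfac, map_mul, hredu, hβ]
  -- coefficients in `k(xt)`
  set a : Fin m → ↥k⟮S.red ⟨x, hx⟩⟯ :=
    fun i => algebraMap k ↥k⟮S.red ⟨x, hx⟩⟯ (S.resO ⟨μ i, hμO i⟩) with ha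
  set b : Fin m → ↥k⟮S.red ⟨x, hx⟩⟯ :=
    fun i => algebraMap ↥(Algebra.adjoin k {S.red ⟨x, hx⟩}) ↥k⟮S.red ⟨x, hx⟩⟯
      (piRho (S.red ⟨x, hx⟩) γ * β i) with hb
  have hsum : ∑ i, a i • bt i = ∑ i, b i • bt i := by
    have h1 : ∑ i, a i • bt i = S.red yV := by
      rw [hred1]
      refine Finset.sum_congr rfl fun i _ => ?_
      rw [IntermediateField.smul_def, smul_eq_mul]
      rfl
    have h2 : ∑ i, b i • bt i = S.red yV := by
      rw [hred2, Finset.mul_sum]
      refine Finset.sum_congr rfl fun i _ => ?_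
      rw [IntermediateField.smul_def, smul_eq_mul]
      show ((piRho (S.red ⟨x, hx⟩) γ * β i : ↥(Algebra.adjoin k {S.red ⟨x, hx⟩})) : Ft) * bt i
        = (S.red ⟨x, hx⟩ - algebraMap k Ft γ) * (((β i : ↥(Algebra.adjoin k {S.red ⟨x, hx⟩})) : Ft) * bt i)
      rw [Subalgebra.coe_mul, mul_assoc]
      rfl
    rw [h1, h2]
  have hab : a = b := by
    have h1 := congrArg (fun z => (bt.repr z : Fin m → ↥k⟮S.red ⟨x, hx⟩⟯)) hsum
    simp only [Module.Basis.repr_sum_self] at h1
    exact h1
  have hai₀ : a i₀ = 1 := by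
    rw [ha]
    have : (⟨μ i₀, hμO i₀⟩ : ↥S.O) = 1 := Subtype.ext hμi₀
    simp only [this, map_one]
  have h1 : piRho (S.red ⟨x, hx⟩) γ * β i₀ = 1 := by
    have h2 : b i₀ = 1 := by rw [← hab]; exact hai₀
    apply Subtype.ext
    have h3 := congrArg (fun z : ↥k⟮S.red ⟨x, hx⟩⟯ => (z : Ft)) h2
    exact h3
  exact (prime_piRho hxt γ).not_isUnit (IsUnit.of_mul_eq_one _ h1)

end Fermat.Agent.RED.H82

end
end
-- ==== END Fermat.Agent.RED.H82_NotDvdDet

-- ==== BEGIN Fermat.Agent.RED.H94_BasisTransfer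
section

/-!
# RH-R, helper94: BASIS-TRANSFER

`stmt_basisTransfer : H76.Stmt_basisTransfer`: a reduced basis `ω` (degrees `d_i`) of the
functions regular outside the poles of `x` is a `K[x]`-basis of `B = integralClosure K[x] F`,
and `x^{-d_i} ω_i` is a `K[x⁻¹]`-basis of `B' = integralClosure K[x⁻¹] F`.
-/

set_option autoImplicit false
set_option linter.style.haveILetI false
set_option synthInstance.maxHeartbeats 400000
set_option maxHeartbeats 1000000

noncomputable section

open AlgebraicCurve IsDedekindDomain IntermediateField Polynomial WithZero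
open scoped IntermediateField.algebraAdjoinAdjoin

namespace Fermat.Agent.RED.H94

open Fermat.Agent.RED.H34 Fermat.Agent.RED.H76 Fermat.Agent.RED.H51

variable {K F : Type} [Field K] [Field F] [Algebra K F]

/-! ### A basis of the integral closure from elementwise data -/

theorem bt_coe_smul {y : F} (a : ↥(Algebra.adjoin K {y}))
    (b : ↥(integralClosure ↥(Algebra.adjoin K {y}) F)) :
    ((a • b : ↥(integralClosure ↥(Algebra.adjoin K {y}) F)) : F) = (a : F) * (b : F) := rfl

theorem bt_coe_sum {y : F} {ι : Type*} (s : Finset ι)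
    (b : ι → ↥(integralClosure ↥(Algebra.adjoin K {y}) F)) :
    ((∑ i ∈ s, b i : ↥(integralClosure ↥(Algebra.adjoin K {y}) F)) : F) = ∑ i ∈ s, (b i : F) := by
  classical
  induction s using Finset.induction_on with
  | empty => simp
  | insert i s his ih =>
    rw [Finset.sum_insert his, Finset.sum_insert his, ← ih]
    rfl

theorem bt_exists_basis {y : F} (hy : Transcendental K y) {r : ℕ} (u : Fin r → F)
    (hint : ∀ i, IsIntegral ↥(Algebra.adjoin K {y}) (u i))
    (hind : ∀ q : Fin r → K[X], (∑ i, aeval y (q i) * u i) = 0 → q = 0)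
    (hspan : ∀ f : F, IsIntegral ↥(Algebra.adjoin K {y}) f →
      ∃ q : Fin r → K[X], f = ∑ i, aeval y (q i) * u i) :
    ∃ c : Module.Basis (Fin r) ↥(Algebra.adjoin K {y})
        ↥(integralClosure ↥(Algebra.adjoin K {y}) F),
      ∀ i, ((c i : ↥(integralClosure ↥(Algebra.adjoin K {y}) F)) : F) = u i := by
  classical
  set v : Fin r → ↥(integralClosure ↥(Algebra.adjoin K {y}) F) := fun i => ⟨u i, hint i⟩ with hv
  have hli : LinearIndependent ↥(Algebra.adjoin K {y}) v := by
    rw [Fintype.linearIndependent_iff]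
    intro g hg i
    have h1 : ((∑ j, g j • v j : ↥(integralClosure ↥(Algebra.adjoin K {y}) F)) : F) = 0 := by
      rw [hg]; rfl
    rw [bt_coe_sum] at h1
    have h2 : ∀ j, ((g j • v j : ↥(integralClosure ↥(Algebra.adjoin K {y}) F)) : F)
        = aeval y ((polyEquiv hy).symm (g j)) * u j := by
      intro j
      rw [bt_coe_smul, ← coe_polyEquiv hy, AlgEquiv.apply_symm_apply]
    rw [Finset.sum_congr rfl fun j _ => h2 j] at h1
    have h3 := hind (fun j => (polyEquiv hy).symm (g j)) (by simpa using h1)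
    have h4 := congrFun h3 i
    simp only [Pi.zero_apply] at h4
    exact (EmbeddingLike.map_eq_zero_iff (f := (polyEquiv hy).symm)).mp h4
  have hsp : ⊤ ≤ Submodule.span ↥(Algebra.adjoin K {y}) (Set.range v) := by
    rintro b -
    obtain ⟨q, hq⟩ := hspan (b : F) b.2
    have hb : b = ∑ i, polyEquiv hy (q i) • v i := by
      apply Subtype.ext
      rw [bt_coe_sum, hq]
      refine Finset.sum_congr rfl fun i _ => ?_
      rw [bt_coe_smul, coe_polyEquiv]
    rw [hb]
    exact Submodule.sum_mem _ fun i _ =>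
      Submodule.smul_mem _ _ (Submodule.subset_span ⟨i, rfl⟩)
  refine ⟨Module.Basis.mk hli hsp, fun i => ?_⟩
  rw [Module.Basis.mk_apply]

/-! ### The dictionary: integral over `K[y]` ↔ regular where `y` is regular -/

theorem bt_mem_iff (v : Place K F) (f : F) :
    f ∈ v.toValuationSubring ↔ v.adicValuation f ≤ 1 := by
  rw [← ordGe_zero_iff_mem, ordGe_iff, neg_zero, exp_zero]

theorem bt_isIntegral_iff [CharZero K] {y : F} (hy : Transcendental K y)
    [FiniteDimensional K⟮y⟯ F] (f : F) :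
    IsIntegral ↥(Algebra.adjoin K {y}) f ↔
      ∀ v : Place K F, v.adicValuation y ≤ 1 → v.adicValuation f ≤ 1 := by
  haveI hcz : CharZero ↥K⟮y⟯ := charZero_of_injective_algebraMap (algebraMap K ↥K⟮y⟯).injective
  haveI hsep : Algebra.IsSeparable ↥K⟮y⟯ F := inferInstance
  constructor
  · intro hf v hv
    exact (bt_mem_iff v f).1 (H79.mem_of_isIntegral v ((bt_mem_iff v y).2 hv) hf)
  · intro h
    refine H79.isIntegral_of_forall_ordGe y hy f fun v hv => ?_
    rw [ordGe_iff, neg_zero, exp_zero]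
    exact h v ((bt_mem_iff v y).1 hv)

theorem bt_ne_zero {x : F} (hx : Transcendental K x) : x ≠ 0 := by
  rintro rfl
  exact hx isAlgebraic_zero

theorem bt_transcendental_inv {x : F} (hx : Transcendental K x) : Transcendental K x⁻¹ := by
  intro h
  exact hx (by simpa using h.inv)

theorem bt_adjoin_inv (x : F) : K⟮x⁻¹⟯ = K⟮x⟯ := by
  apply le_antisymm
  · rw [IntermediateField.adjoin_simple_le_iff]
    exact inv_mem (IntermediateField.mem_adjoin_simple_self K x)
  · rw [IntermediateField.adjoin_simple_le_iff]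
    have := inv_mem (IntermediateField.mem_adjoin_simple_self K x⁻¹)
    rwa [inv_inv] at this

theorem bt_finiteDimensional_inv (x : F) (h : FiniteDimensional K⟮x⟯ F) :
    FiniteDimensional K⟮x⁻¹⟯ F := by
  rw [bt_adjoin_inv]
  exact h

/-! ### `Reg P f ↔ f` integral over `K[x]` -/

theorem bt_poleDiv_eq_zero_iff {P : Divisor K F} {x : F} (hP : IsPoleDiv P x) (v : Place K F) :
    P v = 0 ↔ v.adicValuation x ≤ 1 := by
  have h := hP v
  constructor
  · intro h0
    rw [h0, exp_zero] at h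
    exact max_eq_left_iff.mp h.symm
  · intro h1
    rw [max_eq_left h1, ← exp_zero, exp_inj] at h
    exact h

theorem bt_isIntegral_of_reg [CharZero K] {x : F} (hx : Transcendental K x)
    [FiniteDimensional K⟮x⟯ F] {P : Divisor K F} (hP : IsPoleDiv P x) {f : F} (hf : Reg P f) :
    IsIntegral ↥(Algebra.adjoin K {x}) f := by
  rw [bt_isIntegral_iff hx]
  intro v hv
  obtain ⟨m, hm⟩ := hf
  have := hm v
  rw [(bt_poleDiv_eq_zero_iff hP v).2 hv, mul_zero, exp_zero] at this
  exact this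

theorem bt_reg_of_isIntegral [CharZero K] {x : F} (hx : Transcendental K x)
    [FiniteDimensional K⟮x⟯ F] {P : Divisor K F} (hP : IsPoleDiv P x) {f : F}
    (hf : IsIntegral ↥(Algebra.adjoin K {x}) f) : Reg P f := by
  rw [bt_isIntegral_iff hx] at hf
  rcases eq_or_ne f 0 with rfl | hf0
  · exact ⟨0, InL.zero⟩
  refine ⟨∑ v ∈ P.support, |v.ord f|, fun v => ?_⟩
  by_cases hv : P v = 0
  · rw [hv, mul_zero, exp_zero]
    exact hf v ((bt_poleDiv_eq_zero_iff hP v).1 hv)
  · have hvS : v ∈ P.support := Finsupp.mem_support_iff.2 hv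
    have h1 : 1 ≤ P v := by
      have := hP.nonneg v
      omega
    have h2 : |v.ord f| ≤ ∑ w ∈ P.support, |w.ord f| :=
      Finset.single_le_sum (f := fun w : Place K F => |w.ord f|) (fun w _ => abs_nonneg _) hvS
    rw [v.adicValuation_eq_exp_neg_ord hf0, exp_le_exp]
    have h3 : -v.ord f ≤ |v.ord f| := neg_le_abs _
    have h4 : 0 ≤ ∑ w ∈ P.support, |w.ord f| := Finset.sum_nonneg fun w _ => abs_nonneg _
    nlinarith

/-! ### The chart at infinity -/

theorem bt_isIntegral_inv_pow_mul [CharZero K] {x : F} (hx : Transcendental K x)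
    [FiniteDimensional K⟮x⟯ F] {P : Divisor K F} (hP : IsPoleDiv P x) {d : ℕ} {w : F}
    (hw : InL P d w) : IsIntegral ↥(Algebra.adjoin K {x⁻¹}) (x⁻¹ ^ d * w) := by
  haveI := bt_finiteDimensional_inv (K := K) x inferInstance
  rw [bt_isIntegral_iff (bt_transcendental_inv hx)]
  intro v hv
  have hx0 : x ≠ 0 := bt_ne_zero hx
  have hne : v.adicValuation x ≠ 0 := (Valuation.ne_zero_iff _).2 hx0
  have hx1 : 1 ≤ v.adicValuation x := by
    rw [map_inv₀] at hv
    exact (inv_le_one₀ (zero_lt_iff.2 hne)).1 hv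
  have h1 := hw v
  have h2 : exp ((d : ℤ) * P v) = (v.adicValuation x) ^ d := by
    rw [← nsmul_eq_mul, exp_nsmul, hP v, max_eq_right hx1]
  rw [h2] at h1
  rw [map_mul, map_pow, map_inv₀]
  calc (v.adicValuation x)⁻¹ ^ d * v.adicValuation w
      ≤ (v.adicValuation x)⁻¹ ^ d * (v.adicValuation x) ^ d := mul_le_mul_right h1 _
    _ = 1 := by rw [← mul_pow, inv_mul_cancel₀ hne, one_pow]

theorem bt_exists_pow_mul_inL [IsAlgClosed K] [CharZero K] {x : F} (hx : Transcendental K x)
    [FiniteDimensional K⟮x⟯ F] {P : Divisor K F} (hP : IsPoleDiv P x) {f : F}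
    (hf : IsIntegral ↥(Algebra.adjoin K {x⁻¹}) f) : ∃ k : ℕ, InL P k (x ^ k * f) := by
  classical
  haveI := bt_finiteDimensional_inv (K := K) x inferInstance
  rw [bt_isIntegral_iff (bt_transcendental_inv hx)] at hf
  rcases eq_or_ne f 0 with rfl | hf0
  · exact ⟨0, by rw [mul_zero]; exact InL.zero⟩
  have hPD : HasPrincipalDivisors K F := H42.stmt_FFB_principal K F ⟨x, hx, inferInstance⟩
  have hfin := H17.finite_ord_ne_zero hPD f
  set T : Finset (Place K F) := hfin.toFinset with hT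
  have hx0 : x ≠ 0 := bt_ne_zero hx
  refine ⟨(∑ v ∈ T, |v.ord f|).toNat, fun v => ?_⟩
  have hk0 : 0 ≤ ∑ w ∈ T, |w.ord f| := Finset.sum_nonneg fun w _ => abs_nonneg _
  have hne : v.adicValuation x ≠ 0 := (Valuation.ne_zero_iff _).2 hx0
  by_cases hv : v.adicValuation x⁻¹ ≤ 1
  · have hf1 := hf v hv
    have hx1 : 1 ≤ v.adicValuation x := by
      rw [map_inv₀] at hv
      exact (inv_le_one₀ (zero_lt_iff.2 hne)).1 hv
    have h2 : exp ((((∑ v ∈ T, |v.ord f|).toNat : ℕ) : ℤ) * P v)
        = (v.adicValuation x) ^ (∑ v ∈ T, |v.ord f|).toNat := by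
      rw [← nsmul_eq_mul, exp_nsmul, hP v, max_eq_right hx1]
    rw [h2, map_mul, map_pow]
    exact mul_le_of_le_one_right' hf1
  · have hordx : 0 < v.ord x := by
      have := (v.not_adicValuation_le_one_iff).1 hv
      rw [v.ord_inv] at this
      omega
    have hxle : v.adicValuation x ≤ 1 := (v.adicValuation_le_one_iff).2 (Or.inr hordx.le)
    rw [(bt_poleDiv_eq_zero_iff hP v).2 hxle, mul_zero, exp_zero, v.adicValuation_le_one_iff]
    right
    rw [v.ord_mul (pow_ne_zero _ hx0) hf0, ord_pow, Int.toNat_of_nonneg hk0]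
    by_cases hvf : v.ord f = 0
    · rw [hvf, add_zero]
      exact mul_nonneg hk0 hordx.le
    · have hvT : v ∈ T := by
        rw [hT, Set.Finite.mem_toFinset]
        exact hvf
      have h2 : |v.ord f| ≤ ∑ w ∈ T, |w.ord f| :=
        Finset.single_le_sum (f := fun w : Place K F => |w.ord f|) (fun w _ => abs_nonneg _) hvT
      have h3 : -v.ord f ≤ |v.ord f| := neg_le_abs _
      nlinarith

theorem bt_aeval_inv_reflect {x : F} (hx0 : x ≠ 0) (N : ℕ) (p : K[X]) (hp : p.natDegree ≤ N) :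
    aeval x⁻¹ (reflect N p) = x⁻¹ ^ N * aeval x p := by
  letI := invertibleOfNonzero hx0
  have := eval₂_reflect_mul_pow (algebraMap K F) x N p hp
  rw [invOf_eq_inv] at this
  rw [aeval_def, aeval_def, ← this, mul_comm, mul_assoc, ← mul_pow, mul_inv_cancel₀ hx0, one_pow,
    mul_one]

theorem bt_aeval_reflect {x : F} (hx0 : x ≠ 0) (N : ℕ) (q : K[X]) (hq : q.natDegree ≤ N) :
    aeval x (reflect N q) = x ^ N * aeval x⁻¹ q := by
  have := bt_aeval_inv_reflect (inv_ne_zero hx0) N q hq
  rwa [inv_inv] at this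

/-! ### Independence and spanning at infinity -/

theorem bt_indep_inv {x : F} (hx0 : x ≠ 0) {r : ℕ} (ω : Fin r → F) (d : Fin r → ℕ)
    (hind : ∀ p : Fin r → K[X], comb x p ω = 0 → p = 0)
    (q : Fin r → K[X]) (hq : (∑ i, aeval x⁻¹ (q i) * (x⁻¹ ^ d i * ω i)) = 0) : q = 0 := by
  classical
  set N : ℕ := ∑ i, (q i).natDegree with hN
  set D : ℕ := ∑ i, d i with hD
  have hNi : ∀ i, (q i).natDegree ≤ N := fun i =>
    Finset.single_le_sum (f := fun i => (q i).natDegree) (fun _ _ => Nat.zero_le _)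
      (Finset.mem_univ i)
  have hDi : ∀ i, d i ≤ D := fun i =>
    Finset.single_le_sum (f := fun i => d i) (fun _ _ => Nat.zero_le _) (Finset.mem_univ i)
  have h0 : comb x (fun i => reflect N (q i) * X ^ (D - d i)) ω = 0 := by
    unfold comb
    have : ∀ i, aeval x (reflect N (q i) * X ^ (D - d i)) * ω i
        = x ^ (N + D) * (aeval x⁻¹ (q i) * (x⁻¹ ^ d i * ω i)) := by
      intro i
      rw [map_mul, bt_aeval_reflect hx0 N (q i) (hNi i), map_pow, aeval_X]
      have hxD : x ^ D = x ^ (D - d i) * x ^ d i := by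
        rw [← pow_add, Nat.sub_add_cancel (hDi i)]
      rw [pow_add, hxD, inv_pow]
      have hxd : x ^ d i ≠ 0 := pow_ne_zero _ hx0
      field_simp
    rw [Finset.sum_congr rfl fun i _ => this i, ← Finset.mul_sum, hq, mul_zero]
  have h1 := hind _ h0
  funext i
  have h2 := congrFun h1 i
  simp only [Pi.zero_apply] at h2 ⊢
  rcases mul_eq_zero.mp h2 with h3 | h3
  · exact reflect_eq_zero_iff.mp h3
  · exact absurd h3 (pow_ne_zero _ X_ne_zero)

theorem bt_span_inv [IsAlgClosed K] [CharZero K] {x : F} (hx : Transcendental K x)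
    [FiniteDimensional K⟮x⟯ F] {P : Divisor K F} (hP : IsPoleDiv P x)
    {r : ℕ} (ω : Fin r → F) (d : Fin r → ℕ)
    (hspan : ∀ f : F, Reg P f → ∃ p : Fin r → K[X], f = comb x p ω)
    (hred : ∀ (p : Fin r → K[X]) (m : ℤ), InL P m (comb x p ω) →
        ∀ i, p i ≠ 0 → ((p i).natDegree : ℤ) + d i ≤ m)
    (f : F) (hf : IsIntegral ↥(Algebra.adjoin K {x⁻¹}) f) :
    ∃ q : Fin r → K[X], f = ∑ i, aeval x⁻¹ (q i) * (x⁻¹ ^ d i * ω i) := by
  classical
  have hx0 : x ≠ 0 := bt_ne_zero hx
  obtain ⟨k, hk⟩ := bt_exists_pow_mul_inL hx hP hf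
  obtain ⟨p, hp⟩ := hspan (x ^ k * f) ⟨k, hk⟩
  have hdeg : ∀ i, p i ≠ 0 → (p i).natDegree + d i ≤ k := by
    intro i hi
    have := hred p k (hp ▸ hk) i hi
    exact_mod_cast this
  refine ⟨fun i => reflect (k - d i) (p i), ?_⟩
  have hfe : f = x⁻¹ ^ k * comb x p ω := by
    rw [← hp, ← mul_assoc, ← mul_pow, inv_mul_cancel₀ hx0, one_pow, one_mul]
  rw [hfe]
  unfold comb
  rw [Finset.mul_sum]
  refine Finset.sum_congr rfl fun i _ => ?_
  by_cases hi : p i = 0
  · simp [hi]
  · have h1 := hdeg i hi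
    rw [bt_aeval_inv_reflect hx0 (k - d i) (p i) (by omega)]
    have hxk : x⁻¹ ^ k = x⁻¹ ^ (k - d i) * x⁻¹ ^ d i := by
      rw [← pow_add, Nat.sub_add_cancel (by omega)]
    rw [hxk]
    ring

/-- **BASIS-TRANSFER**. -/
theorem stmt_basisTransfer : H76.Stmt_basisTransfer := by
  intro K F _ _ _ _ _ x hx hfd P hP r ω d hω hind hspan hred
  haveI := hfd
  have hx0 : x ≠ 0 := bt_ne_zero hx
  have hxi : Transcendental K x⁻¹ := bt_transcendental_inv hx
  obtain ⟨c, hc⟩ := bt_exists_basis hx ω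
    (fun i => bt_isIntegral_of_reg hx hP ⟨d i, hω i⟩)
    (fun q hq => hind q hq)
    (fun f hf => hspan f (bt_reg_of_isIntegral hx hP hf))
  obtain ⟨c', hc'⟩ := bt_exists_basis hxi (fun i => x⁻¹ ^ d i * ω i)
    (fun i => bt_isIntegral_inv_pow_mul hx hP (hω i))
    (fun q hq => bt_indep_inv hx0 ω d hind q hq)
    (fun f hf => bt_span_inv hx hP ω d hspan hred f hf)
  exact ⟨c, c', hc, hc'⟩

end Fermat.Agent.RED.H94

end
end
-- ==== END Fermat.Agent.RED.H94_BasisTransfer

-- ==== BEGIN Fermat.Agent.S18.WiringCore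
section
attribute [local instance 10000] SubalgebraClass.toAlgebra
attribute [local instance 10000] HahnSeries.powerSeriesAlgebra

/-!
# S18 wiring, version 2 (cluster G, part RED; helper17): S18 from `TIcoreFor`

`s18_of_TIcore`: the frozen statement of S18, with two extra hypotheses:

* `hTI : TIcoreFor A (hasScale_laurentBaseChange A N) ℓ` (Kummer form of torsion injectivity,
  `Fermat/Agent/RED/Core.lean`);
* `hconst`: a non-zero element of `k(j(q^d) : d ∣ N)` without zeros and poles is constant.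

No place reduction has to be constructed: the one hidden in `reductionModL` is used only through
its divisor identity.
-/

set_option autoImplicit false
set_option synthInstance.maxHeartbeats 400000
set_option maxHeartbeats 1000000

noncomputable section

open HahnSeries IntermediateField AlgebraicCurve ModularCurve
open Fermat.Agent.S28.H73 Fermat.Agent.RED.H73 Fermat.Agent.RED

namespace Fermat.Agent.S18

variable (A : ValuationSubring (AlgebraicClosure ℚ)) (N : ℕ)

/-- The Gauss valuation ring of `F_N · ℚ̄`. -/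
abbrev VN : ValuationSubring ↥(modularFunctionFieldBar N) :=
  gaussValSub A (modularFunctionFieldBar N) (hasScale_laurentBaseChange A N)

/-- A divisor of `F_N · ℚ̄` is *good* if it is the divisor of a Gauss unit whose reduction lies in
`k(j(q^d))` and the place reduction `r` maps it to the divisor of the reduction. -/
def GoodDiv (r : Place (AlgebraicClosure ℚ) (modularFunctionFieldBar N) →
      Place (kV A) (modularFunctionFieldFullC (kV A) N))
    (E : Divisor (AlgebraicClosure ℚ) (modularFunctionFieldBar N)) : Prop :=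
  ∃ (x : ↥(VN A N)) (xb : ↥(modularFunctionFieldFullC (kV A) N)),
    IsUnit x ∧ gaussResF A (hasScale_laurentBaseChange A N) x = (xb : LaurentSeries (kV A)) ∧
    (∀ P, E P = P.ord (x : ↥(modularFunctionFieldBar N))) ∧
    (∀ Q, Finsupp.mapDomain r E Q = Q.ord xb)

variable {A N}

theorem GoodDiv.xb_ne_zero {x : ↥(VN A N)} {xb : ↥(modularFunctionFieldFullC (kV A) N)}
    (hu : IsUnit x)
    (hx : gaussResF A (hasScale_laurentBaseChange A N) x = (xb : LaurentSeries (kV A))) :
    xb ≠ 0 := by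
  intro h0
  have := (isUnit_iff_gaussResF_ne_zero A (hasScale_laurentBaseChange A N) x).1 hu
  apply this
  rw [hx, h0]
  rfl

theorem unit_coe_ne_zero {x : ↥(VN A N)} (hu : IsUnit x) :
    (x : ↥(modularFunctionFieldBar N)) ≠ 0 := by
  intro h0
  have : x = 0 := Subtype.ext h0
  rw [this] at hu
  exact not_isUnit_zero hu

theorem goodDiv_of_integral
    {r : Place (AlgebraicClosure ℚ) (modularFunctionFieldBar N) →
      Place (kV A) (modularFunctionFieldFullC (kV A) N)}
    (hr : IsPlaceReductionModL A N r)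
    {E : Divisor (AlgebraicClosure ℚ) (modularFunctionFieldBar N)}
    (hE : E ∈ integralPrincipalDivisors A (IsLocalRing.residue A) N) : GoodDiv A N r E := by
  obtain ⟨y, hy, hyk, hne, hEy⟩ := hE
  have hmem : (⟨coeffMap A.subtype y, hy⟩ : ↥(modularFunctionFieldBar N)) ∈ VN A N :=
    iotaV_mem_gaussRingV A y
  have hres : gaussResF A (hasScale_laurentBaseChange A N) ⟨⟨coeffMap A.subtype y, hy⟩, hmem⟩
      = coeffMap (IsLocalRing.residue A) y := by
    rw [gaussResF_apply]
    exact gaussRedV_iotaV A y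
  refine ⟨⟨⟨coeffMap A.subtype y, hy⟩, hmem⟩, ⟨coeffMap (IsLocalRing.residue A) y, hyk⟩, ?_,
    hres, hEy, fun Q => hr.2 y hy hyk hne E hEy Q⟩
  rw [isUnit_iff_gaussResF_ne_zero, hres]
  exact hne

theorem goodDiv_zero
    (r : Place (AlgebraicClosure ℚ) (modularFunctionFieldBar N) →
      Place (kV A) (modularFunctionFieldFullC (kV A) N)) : GoodDiv A N r 0 := by
  refine ⟨1, 1, isUnit_one, ?_, fun P => ?_, fun Q => ?_⟩
  · rw [map_one]; rfl
  · simp
  · rw [Finsupp.mapDomain_zero]; simp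

theorem GoodDiv.add
    {r : Place (AlgebraicClosure ℚ) (modularFunctionFieldBar N) →
      Place (kV A) (modularFunctionFieldFullC (kV A) N)}
    {E E' : Divisor (AlgebraicClosure ℚ) (modularFunctionFieldBar N)}
    (h : GoodDiv A N r E) (h' : GoodDiv A N r E') : GoodDiv A N r (E + E') := by
  obtain ⟨x, xb, hu, hx, hE, hQ⟩ := h
  obtain ⟨x', xb', hu', hx', hE', hQ'⟩ := h'
  refine ⟨x * x', xb * xb', hu.mul hu', ?_, fun P => ?_, fun Q => ?_⟩
  · rw [map_mul, hx, hx']; rfl
  · rw [Finsupp.add_apply, hE, hE']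
    exact (P.ord_mul (unit_coe_ne_zero hu) (unit_coe_ne_zero hu')).symm
  · rw [Finsupp.mapDomain_add, Finsupp.add_apply, hQ, hQ']
    exact (Q.ord_mul (GoodDiv.xb_ne_zero hu hx) (GoodDiv.xb_ne_zero hu' hx')).symm

theorem GoodDiv.neg
    {r : Place (AlgebraicClosure ℚ) (modularFunctionFieldBar N) →
      Place (kV A) (modularFunctionFieldFullC (kV A) N)}
    {E : Divisor (AlgebraicClosure ℚ) (modularFunctionFieldBar N)}
    (h : GoodDiv A N r E) : GoodDiv A N r (-E) := by
  obtain ⟨x, xb, hu, hx, hE, hQ⟩ := h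
  have hxb := GoodDiv.xb_ne_zero hu hx
  have hcoe : (((hu.unit⁻¹ : (↥(VN A N))ˣ) : ↥(VN A N)) : ↥(modularFunctionFieldBar N))
      = (x : ↥(modularFunctionFieldBar N))⁻¹ := by
    have h1 : x * ((hu.unit⁻¹ : (↥(VN A N))ˣ) : ↥(VN A N)) = 1 := by
      have := hu.unit.mul_inv
      rwa [IsUnit.unit_spec] at this
    have h2 : (x : ↥(modularFunctionFieldBar N))
        * (((hu.unit⁻¹ : (↥(VN A N))ˣ) : ↥(VN A N)) : ↥(modularFunctionFieldBar N)) = 1 :=
      congrArg Subtype.val h1
    exact eq_inv_of_mul_eq_one_right h2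
  refine ⟨((hu.unit⁻¹ : (↥(VN A N))ˣ) : ↥(VN A N)), xb⁻¹, (hu.unit⁻¹).isUnit, ?_, fun P => ?_,
    fun Q => ?_⟩
  · have h1 : gaussResF A (hasScale_laurentBaseChange A N) x
        * gaussResF A (hasScale_laurentBaseChange A N)
          ((hu.unit⁻¹ : (↥(VN A N))ˣ) : ↥(VN A N)) = 1 := by
      rw [← map_mul]
      have : x * ((hu.unit⁻¹ : (↥(VN A N))ˣ) : ↥(VN A N)) = 1 := by
        have := hu.unit.mul_inv
        rwa [IsUnit.unit_spec] at this
      rw [this, map_one]
    rw [eq_inv_of_mul_eq_one_right h1, hx]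
    rfl
  · rw [Finsupp.neg_apply, hE, hcoe, P.ord_inv]
  · rw [← Finsupp.mapDomain.addMonoidHom_apply, map_neg, Finsupp.mapDomain.addMonoidHom_apply,
      Finsupp.neg_apply, hQ, Q.ord_inv]

theorem goodDiv_of_mem_principal
    {r : Place (AlgebraicClosure ℚ) (modularFunctionFieldBar N) →
      Place (kV A) (modularFunctionFieldFullC (kV A) N)}
    (hr : IsPlaceReductionModL A N r)
    (hgen : PrincipalGeneratedByIntegral A (IsLocalRing.residue A) N)
    {E : Divisor (AlgebraicClosure ℚ) (modularFunctionFieldBar N)}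
    (hE : E ∈ Divisor.principal (K := AlgebraicClosure ℚ) (F := modularFunctionFieldBar N)) :
    GoodDiv A N r E := by
  have hE' := hgen hE
  clear hE
  induction hE' using AddSubgroup.closure_induction with
  | mem E hE => exact goodDiv_of_integral hr hE
  | zero => exact goodDiv_zero r
  | add E E' _ _ hE hE' => exact hE.add hE'
  | neg E _ hE => exact hE.neg

/-- Every element of `k(j(q^d) : d ∣ N)` is the reduction of an element of the Gauss valuation
ring of `F_N · ℚ̄`. -/
theorem exists_lift (hb : ↥(modularFunctionFieldFullC (kV A) N)) :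
    ∃ H : ↥(VN A N),
      gaussResF A (hasScale_laurentBaseChange A N) H = (hb : LaurentSeries (kV A)) := by
  obtain ⟨X, hX⟩ := fullC_le_redField A N hb.2
  have hXF : ((X : ↥(modularFunctionFieldFullC (AlgebraicClosure ℚ) N)) :
      LaurentSeries (AlgebraicClosure ℚ)) ∈ modularFunctionFieldBar N := by
    show _ ∈ laurentBaseChange (AlgebraicClosure ℚ) (modularFunctionFieldFull N)
    rw [laurentBaseChange_full_eq]
    exact Subtype.mem _
  have hXV : (⟨_, hXF⟩ : ↥(modularFunctionFieldBar N)) ∈ VN A N := X.2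
  exact ⟨⟨⟨_, hXF⟩, hXV⟩, hX⟩

/-- **S18 from TIcore** (the frozen statement of S18 with `TIcoreFor` and the constancy of
functions without zeros and poles on the reduced field as extra hypotheses). -/
theorem s18_of_TIcore (N : ℕ) [NeZero N] {ℓ : ℕ} [Fact ℓ.Prime] (_hℓN : ¬ ℓ ∣ N)
    (A : ValuationSubring (AlgebraicClosure ℚ)) (_hA : A.LiesOverPrime ℓ)
    (hTI : TIcoreFor A (hasScale_laurentBaseChange A N) ℓ)
    (hconst : ∀ g : ↥(modularFunctionFieldFullC (kV A) N), g ≠ 0 →
      (∀ Q : Place (kV A) ↥(modularFunctionFieldFullC (kV A) N), Q.ord g = 0) →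
      ∃ c : kV A, g = algebraMap (kV A) ↥(modularFunctionFieldFullC (kV A) N) c)
    (h : ModularCurve.ReductionInputsModL A N) (m : ℕ) (hm : ¬ ℓ ∣ m) (z : ModularCurve.JZero N)
    (hmz : m • z = 0) (hz : ModularCurve.reductionModL A N z = 0) :
    z = 0 := by
  obtain ⟨D, rfl⟩ := Pic0.mk_surjective z
  have hm0 : m ≠ 0 := by
    rintro rfl
    exact hm (dvd_zero ℓ)
  have hmZ : (m : ℤ) ≠ 0 := by exact_mod_cast hm0
  -- `m D` is principal
  have hmD : m • (D : Divisor (AlgebraicClosure ℚ) (modularFunctionFieldBar N)) ∈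
      Divisor.principal (K := AlgebraicClosure ℚ) (F := modularFunctionFieldBar N) := by
    have h1 : ((m • D : Divisor.degZero (K := AlgebraicClosure ℚ)
        (F := modularFunctionFieldBar N)) : Pic0 (AlgebraicClosure ℚ) (modularFunctionFieldBar N))
        = 0 := hmz
    rw [QuotientAddGroup.eq_zero_iff, AddSubgroup.mem_addSubgroupOf] at h1
    exact h1
  -- the reduction of `D` is principal
  have hrD : Finsupp.mapDomain (placeReductionModL h)
      (D : Divisor (AlgebraicClosure ℚ) (modularFunctionFieldBar N)) ∈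
      Divisor.principal (K := IsLocalRing.ResidueField A)
        (F := modularFunctionFieldFullC (IsLocalRing.ResidueField A) N) := by
    rw [reductionModL_mk h D] at hz
    have h1 := (QuotientAddGroup.eq_zero_iff _).mp hz
    rw [AddSubgroup.mem_addSubgroupOf] at h1
    exact h1
  -- (1) `m D = div x`, `x` a Gauss unit with reduction `xb`, and `r_* (m D) = div xb`
  obtain ⟨x, xb, hu, hx, hE, hQ⟩ :=
    goodDiv_of_mem_principal (isPlaceReductionModL_placeReductionModL h) h.choose_spec.2 hmD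
  have hxb := GoodDiv.xb_ne_zero hu hx
  -- (2) `r_* D = div hb`, hence `xb / hb ^ m` is a constant `cb`
  obtain ⟨hb, hb0, hhb⟩ := hrD
  have hord : ∀ Q : Place (kV A) ↥(modularFunctionFieldFullC (kV A) N),
      Q.ord (xb / hb ^ m) = 0 := by
    intro Q
    have h1 : Q.ord xb = m * Q.ord hb := by
      rw [← hQ, ← hhb, ← Finsupp.mapDomain.addMonoidHom_apply, map_nsmul,
        Finsupp.mapDomain.addMonoidHom_apply, Finsupp.smul_apply, nsmul_eq_mul]
    have h2 : Q.ord (hb ^ m) = m * Q.ord hb := by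
      have := Q.ord_zpow hb m
      rwa [zpow_natCast] at this
    rw [div_eq_mul_inv, Q.ord_mul hxb (inv_ne_zero (pow_ne_zero _ hb0)), Q.ord_inv, h1, h2]
    ring
  obtain ⟨cb, hcb⟩ := hconst (xb / hb ^ m) (div_ne_zero hxb (pow_ne_zero _ hb0)) hord
  have hcb0 : cb ≠ 0 := by
    rintro rfl
    rw [map_zero] at hcb
    exact div_ne_zero hxb (pow_ne_zero _ hb0) hcb
  -- (3) lifts of `hb` and `cb`
  obtain ⟨H, hH⟩ := exists_lift (A := A) (N := N) hb
  have hHu : IsUnit H := by
    rw [isUnit_iff_gaussResF_ne_zero, hH]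
    exact fun h0 => hb0 (Subtype.ext h0)
  obtain ⟨c₀, hc₀⟩ := IsLocalRing.residue_surjective (R := ↥A) cb
  have hc₀m : algebraMap (AlgebraicClosure ℚ) ↥(modularFunctionFieldBar N) (c₀ : AlgebraicClosure ℚ)
      ∈ VN A N :=
    (algebraMap_mem_gaussValSub_iff A (hasScale_laurentBaseChange A N) _).2 c₀.2
  have hc₀r : gaussResF A (hasScale_laurentBaseChange A N) ⟨_, hc₀m⟩ = HahnSeries.C cb := by
    rw [gaussResF_algebraMap, ← hc₀]
  have hCcb : (HahnSeries.C cb : LaurentSeries (kV A)) ≠ 0 := by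
    intro h0
    apply hcb0
    have := congrArg (fun s : LaurentSeries (kV A) => s.coeff 0) h0
    simpa using this
  have hc₀u : IsUnit (⟨_, hc₀m⟩ : ↥(VN A N)) := by
    rw [isUnit_iff_gaussResF_ne_zero, hc₀r]
    exact hCcb
  -- (4) the normalised function `f' = x / (c₀ H ^ m)`
  set y : ↥(VN A N) := ⟨_, hc₀m⟩ * H ^ m with hy
  have hyu : IsUnit y := hc₀u.mul (hHu.pow m)
  set f' : ↥(VN A N) := x * ((hyu.unit⁻¹ : (↥(VN A N))ˣ) : ↥(VN A N)) with hf'
  have hyinv : y * ((hyu.unit⁻¹ : (↥(VN A N))ˣ) : ↥(VN A N)) = 1 := by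
    have := hyu.unit.mul_inv
    rwa [IsUnit.unit_spec] at this
  have hf'y : f' * y = x := by
    rw [hf', mul_assoc, mul_comm _ y, hyinv, mul_one]
  have hres_y : gaussResF A (hasScale_laurentBaseChange A N) y
      = HahnSeries.C cb * (hb : LaurentSeries (kV A)) ^ m := by
    rw [hy, map_mul, map_pow, hc₀r, hH]
  have hxb_eq : (xb : LaurentSeries (kV A)) = HahnSeries.C cb * (hb : LaurentSeries (kV A)) ^ m := by
    have h1 : xb = algebraMap (kV A) ↥(modularFunctionFieldFullC (kV A) N) cb * hb ^ m := by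
      rw [← hcb, div_mul_cancel₀ _ (pow_ne_zero _ hb0)]
    have h2 := congrArg (Subtype.val : ↥(modularFunctionFieldFullC (kV A) N) →
      LaurentSeries (kV A)) h1
    rw [h2]
    show (algebraMap (kV A) (LaurentSeries (kV A)) cb) * (hb : LaurentSeries (kV A)) ^ m = _
    rw [algebraMap_laurentSeries_eq_single]
    rfl
  have hres_f' : gaussResF A (hasScale_laurentBaseChange A N) f' = 1 := by
    have h1 : gaussResF A (hasScale_laurentBaseChange A N) f'
        * gaussResF A (hasScale_laurentBaseChange A N) y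
        = gaussResF A (hasScale_laurentBaseChange A N) y := by
      rw [← map_mul, hf'y, hx, hxb_eq, hres_y]
    have hy0 : gaussResF A (hasScale_laurentBaseChange A N) y ≠ 0 :=
      (isUnit_iff_gaussResF_ne_zero A (hasScale_laurentBaseChange A N) y).1 hyu
    exact mul_right_cancel₀ hy0 (h1.trans (one_mul _).symm)
  have hres_f'' : gaussResF' A (hasScale_laurentBaseChange A N) f' = 1 := Subtype.ext hres_f'
  have hf'u : IsUnit f' := by
    rw [isUnit_iff_gaussResF_ne_zero, hres_f']
    exact one_ne_zero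
  -- orders of `f'`
  have hordf : ∀ P : Place (AlgebraicClosure ℚ) ↥(modularFunctionFieldBar N),
      P.ord (f' : ↥(modularFunctionFieldBar N))
        = m * ((D : Divisor (AlgebraicClosure ℚ) (modularFunctionFieldBar N)) P
          - P.ord (H : ↥(modularFunctionFieldBar N))) := by
    intro P
    have h1 : (f' : ↥(modularFunctionFieldBar N)) * (y : ↥(modularFunctionFieldBar N))
        = (x : ↥(modularFunctionFieldBar N)) := congrArg Subtype.val hf'y
    have h2 := P.ord_mul (unit_coe_ne_zero hf'u) (unit_coe_ne_zero hyu)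
    rw [h1, ← hE, Finsupp.smul_apply, nsmul_eq_mul] at h2
    have h3 : (y : ↥(modularFunctionFieldBar N))
        = algebraMap (AlgebraicClosure ℚ) ↥(modularFunctionFieldBar N) (c₀ : AlgebraicClosure ℚ)
          * (H : ↥(modularFunctionFieldBar N)) ^ m := rfl
    have hc₀0 : algebraMap (AlgebraicClosure ℚ) ↥(modularFunctionFieldBar N)
        (c₀ : AlgebraicClosure ℚ) ≠ 0 := unit_coe_ne_zero hc₀u
    have h4 : P.ord (y : ↥(modularFunctionFieldBar N))
        = m * P.ord (H : ↥(modularFunctionFieldBar N)) := by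
      rw [h3, P.ord_mul hc₀0 (pow_ne_zero _ (unit_coe_ne_zero hHu))]
      have h5 := P.ord_zpow (H : ↥(modularFunctionFieldBar N)) m
      rw [zpow_natCast] at h5
      rw [h5]
      have h6 : P.ord (algebraMap (AlgebraicClosure ℚ) ↥(modularFunctionFieldBar N)
          (c₀ : AlgebraicClosure ℚ)) = 0 := by
        have hc₀inv : (algebraMap (AlgebraicClosure ℚ) ↥(modularFunctionFieldBar N)
            (c₀ : AlgebraicClosure ℚ))⁻¹ = algebraMap (AlgebraicClosure ℚ)
            ↥(modularFunctionFieldBar N) (c₀ : AlgebraicClosure ℚ)⁻¹ := (map_inv₀ _ _).symm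
        have hle1 := P.adicValuation_algebraMap_le_one (c₀ : AlgebraicClosure ℚ)
        have hle2 := P.adicValuation_algebraMap_le_one (c₀ : AlgebraicClosure ℚ)⁻¹
        rw [← hc₀inv, map_inv₀] at hle2
        have hne := P.adicValuation_ne_zero hc₀0
        have hge : 1 ≤ P.adicValuation (algebraMap (AlgebraicClosure ℚ)
            ↥(modularFunctionFieldBar N) (c₀ : AlgebraicClosure ℚ)) := by
          by_contra hlt
          rw [not_le] at hlt
          have := (one_lt_inv₀ (zero_lt_iff.mpr hne)).mpr hlt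
          exact absurd hle2 (not_le.mpr this)
        have heq := le_antisymm hle1 hge
        simp [Place.ord, heq]
      rw [h6, zero_add]
    rw [h4] at h2
    linear_combination -h2
  -- (5) TIcore
  obtain ⟨t, ht⟩ := hTI m hm f' hres_f'' (fun P => ⟨_, hordf P⟩)
  have ht0 : t ≠ 0 := by
    rintro rfl
    rw [zero_pow hm0] at ht
    exact unit_coe_ne_zero hf'u ht.symm
  have hDprin : (D : Divisor (AlgebraicClosure ℚ) (modularFunctionFieldBar N)) ∈
      Divisor.principal (K := AlgebraicClosure ℚ) (F := modularFunctionFieldBar N) := by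
    refine ⟨t * (H : ↥(modularFunctionFieldBar N)), mul_ne_zero ht0 (unit_coe_ne_zero hHu),
      fun P => ?_⟩
    rw [P.ord_mul ht0 (unit_coe_ne_zero hHu)]
    have h1 := P.ord_zpow t m
    rw [zpow_natCast, ht, hordf P] at h1
    have h2 : (D : Divisor (AlgebraicClosure ℚ) (modularFunctionFieldBar N)) P
        - P.ord (H : ↥(modularFunctionFieldBar N)) = P.ord t :=
      mul_left_cancel₀ hmZ h1
    linarith
  exact (QuotientAddGroup.eq_zero_iff _).mpr (AddSubgroup.mem_addSubgroupOf.mpr hDprin)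

end Fermat.Agent.S18

end
end
-- ==== END Fermat.Agent.S18.WiringCore
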