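-- GENERATED (merged mirror, NOTES/tools/trim/merge3_helper67.py): 7 modules of the originals, bodies verbatim.
import Mathlib
import Fermat.Agent.Zm.S35_L06_000
import Fermat.Agent.Zm.S35_L03_004
import Fermat.Agent.S24.H89_JAnQ
import Fermat.Agent.Zm.S35_L06_001
import Fermat.Agent.S28.H76_SymCore
import Fermat.Agent.S23.H96_DhatNeZero
import Fermat.Agent.Zm.S35_L04_004
import Fermat.Agent.Zm.S35_L01_000
import Fermat.Agent.Zm.S35_L02_000
import Fermat.Agent.Zm.S35_L05_002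
import Fermat.Agent.Zm.S35_L06_003
import Fermat.Agent.Zm.S35_L04_002
import Fermat.Agent.Zm.S35_L02_001
import Fermat.Agent.Zm.S35_L03_002
import Fermat.Agent.Zm.S35_L01_005

-- ==== BEGIN Fermat.Agent.GTor.Clo.UExpJA
section

/-!
# S24 construction, layer 2 (WP CLO-UExpJA): the expansion homomorphism `uExp` on `Atil N`

`uExp N : Atil N →ₐ[Q̄] Q̄((u))`, `u = exp (2 π i τ / N)`: every element of `Atil N` has an
expansion at `∞` with coefficients in `Q̄` (through `ι = iotaC`).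

All proofs of this file are complete (helper1); they use the statements of
`Closure/UExp.lean`, `Closure/UExpSubst.lean`, `Closure/JA.lean`, `Closure/Atil.lean`.
-/

set_option autoImplicit false

noncomputable section

namespace Fermat.Agent.GTor.Clo

open Fermat.Agent.S24

open ModularCurve UpperHalfPlane
open scoped MatrixGroups Manifold

/-! ## Roots of unity in `Q̄` -/

/-- `exp (2 π i / N)` lies in `ι(Q̄)`. -/
theorem exists_zetaK (N : ℕ) [NeZero N] :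
    ∃ z : _root_.Fermat.Agent.GTor.Clo.Kbar, _root_.Fermat.Agent.GTor.Clo.iotaC z = Complex.exp (2 * Real.pi * Complex.I / N) := by
  obtain ⟨ζ, hζ⟩ := HasEnoughRootsOfUnity.exists_primitiveRoot _root_.Fermat.Agent.GTor.Clo.Kbar N
  have hζ' : IsPrimitiveRoot (_root_.Fermat.Agent.GTor.Clo.iotaC ζ) N := hζ.map_of_injective _root_.Fermat.Agent.GTor.Clo.iotaC.injective
  have hexp : IsPrimitiveRoot (Complex.exp (2 * Real.pi * Complex.I / N)) N :=
    Complex.isPrimitiveRoot_exp N (NeZero.ne N)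
  obtain ⟨i, -, hi⟩ := hζ'.eq_pow_of_pow_eq_one hexp.pow_eq_one
  exact ⟨ζ ^ i, by rw [map_pow, hi]⟩

/-- The element of `Q̄` with `ι z = exp (2 π i / N)`. -/
def zetaK (N : ℕ) [NeZero N] : _root_.Fermat.Agent.GTor.Clo.Kbar := (_root_.Fermat.Agent.GTor.Clo.exists_zetaK N).choose

theorem iotaC_zetaK (N : ℕ) [NeZero N] :
    _root_.Fermat.Agent.GTor.Clo.iotaC (_root_.Fermat.Agent.GTor.Clo.zetaK N) = Complex.exp (2 * Real.pi * Complex.I / N) := (_root_.Fermat.Agent.GTor.Clo.exists_zetaK N).choose_spec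

theorem zetaK_ne_zero (N : ℕ) [NeZero N] : _root_.Fermat.Agent.GTor.Clo.zetaK N ≠ 0 := by
  intro h
  have := _root_.Fermat.Agent.GTor.Clo.iotaC_zetaK N
  rw [h, map_zero] at this
  exact Complex.exp_ne_zero _ this.symm

theorem isPrimitiveRoot_zetaK (N : ℕ) [NeZero N] : IsPrimitiveRoot (_root_.Fermat.Agent.GTor.Clo.zetaK N) N := by
  have hexp : IsPrimitiveRoot (Complex.exp (2 * Real.pi * Complex.I / N)) N :=
    Complex.isPrimitiveRoot_exp N (NeZero.ne N)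
  rw [← _root_.Fermat.Agent.GTor.Clo.iotaC_zetaK] at hexp
  exact hexp.of_map_of_injective _root_.Fermat.Agent.GTor.Clo.iotaC.injective

theorem zetaK_zpow_eq_one_iff (N : ℕ) [NeZero N] (n : ℤ) :
    _root_.Fermat.Agent.GTor.Clo.zetaK N ^ n = 1 ↔ (N : ℤ) ∣ n :=
  (_root_.Fermat.Agent.GTor.Clo.isPrimitiveRoot_zetaK N).zpow_eq_one_iff_dvd n

/-! ## Hermite normal form -/

/-- Every integer matrix of positive determinant is `δ * [a, b; 0, d]` with `δ ∈ SL(2, ℤ)`,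
`a, d > 0`. -/
theorem hermite_general (A : Matrix (Fin 2) (Fin 2) ℤ) (hA : 0 < A.det) :
    ∃ (δ : SL(2, ℤ)) (a d : ℕ) (b : ℤ), 0 < a ∧ 0 < d ∧ (a : ℤ) * d = A.det ∧
      A = δ.1 * !![(a : ℤ), b; 0, (d : ℤ)] := by
  have hdet : A.det = A 0 0 * A 1 1 - A 0 1 * A 1 0 := Matrix.det_fin_two A
  have hg0 : Int.gcd (A 0 0) (A 1 0) ≠ 0 := by
    intro h
    rw [Int.gcd_eq_zero_iff] at h
    rw [hdet, h.1, h.2] at hA
    simp at hA
  obtain ⟨x', hx'⟩ := Int.gcd_dvd_left (A 0 0) (A 1 0)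
  obtain ⟨y', hy'⟩ := Int.gcd_dvd_right (A 0 0) (A 1 0)
  have hbez := Int.gcd_eq_gcd_ab (A 0 0) (A 1 0)
  have hgpos : (0 : ℤ) < (Int.gcd (A 0 0) (A 1 0) : ℤ) := by
    exact_mod_cast Nat.pos_of_ne_zero hg0
  generalize hu : Int.gcdA (A 0 0) (A 1 0) = u at hbez
  generalize hv : Int.gcdB (A 0 0) (A 1 0) = v at hbez
  generalize hg : (Int.gcd (A 0 0) (A 1 0) : ℤ) = g at hx' hy' hbez hgpos
  have h1 : x' * u + y' * v = 1 := by
    have h2 : g * (x' * u + y' * v) = g * 1 := by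
      have h3 : g = g * x' * u + g * y' * v := by
        rw [← hx', ← hy']
        exact hbez
      linear_combination -h3
    exact mul_left_cancel₀ hgpos.ne' h2
  have hgd : g * (x' * A 1 1 - y' * A 0 1) = A.det := by
    rw [hdet, hx', hy']
    ring
  have hdpos : 0 < x' * A 1 1 - y' * A 0 1 := by
    have h3 : 0 < g * (x' * A 1 1 - y' * A 0 1) := by rw [hgd]; exact hA
    exact (mul_pos_iff_of_pos_left hgpos).mp h3
  refine ⟨⟨!![x', -v; y', u], ?_⟩, Int.gcd (A 0 0) (A 1 0), (x' * A 1 1 - y' * A 0 1).toNat,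
    u * A 0 1 + v * A 1 1, Nat.pos_of_ne_zero hg0, ?_, ?_, ?_⟩
  · rw [Matrix.det_fin_two_of]
    linear_combination h1
  · exact Int.pos_iff_toNat_pos.mp hdpos
  · rw [hg, Int.toNat_of_nonneg hdpos.le, hgd]
  · rw [hg, Int.toNat_of_nonneg hdpos.le]
    ext i j
    fin_cases i <;> fin_cases j
    · simp [Matrix.mul_apply, Fin.sum_univ_two]
      rw [hx']; ring
    · simp [Matrix.mul_apply, Fin.sum_univ_two]
      linear_combination (-(A 0 1)) * h1
    · simp [Matrix.mul_apply, Fin.sum_univ_two]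
      rw [hy']; ring
    · simp [Matrix.mul_apply, Fin.sum_univ_two]
      linear_combination (-(A 1 1)) * h1

/-! ## Expansions of the generators -/

theorem coeffMap_ofPowerSeries {R S : Type*} [CommRing R] [CommRing S] (φ : R →+* S)
    (f : PowerSeries R) :
    coeffMap φ (HahnSeries.ofPowerSeries ℤ R f) = HahnSeries.ofPowerSeries ℤ S (f.map φ) := by
  ext k
  rw [coeffMap_coeff]
  rcases lt_or_ge k 0 with hk | hk
  · rw [ofPowerSeries_coeff_of_neg _ hk, ofPowerSeries_coeff_of_neg _ hk, map_zero]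
  · obtain ⟨n, rfl⟩ := Int.eq_ofNat_of_zero_le hk
    rw [HahnSeries.ofPowerSeries_apply_coeff, HahnSeries.ofPowerSeries_apply_coeff,
      PowerSeries.coeff_map]

theorem coeffMap_iotaC_jBar :
    coeffMap _root_.Fermat.Agent.GTor.Clo.iotaC _root_.Fermat.Agent.GTor.Clo.jBar = HahnSeries.single (-1 : ℤ) (1 : ℂ) *
      HahnSeries.ofPowerSeries ℤ ℂ
        (PowerSeries.mk fun n : ℕ => ((PowerSeries.coeff n ModularCurve.jNum : ℤ) : ℂ)) := by
  rw [_root_.Fermat.Agent.GTor.Clo.jBar, coeffEmb, jq, map_mul, map_mul, coeffMap_single, coeffMap_single, map_one, map_one,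
    _root_.Fermat.Agent.GTor.Clo.coeffMap_ofPowerSeries, _root_.Fermat.Agent.GTor.Clo.coeffMap_ofPowerSeries]
  congr 2
  ext n
  simp [jNumQ, PowerSeries.coeff_map]

/-- The `q`-expansion of `j` is the formal `j`. -/
theorem hasUExp_jAn : HasUExp 1 jAn (coeffMap _root_.Fermat.Agent.GTor.Clo.iotaC _root_.Fermat.Agent.GTor.Clo.jBar) := by
  rw [_root_.Fermat.Agent.GTor.Clo.coeffMap_iotaC_jBar]
  exact HasUExp.of_hasSum_mul_q (fun τ => jAn_hasSum τ)

theorem iotaC_zetaK_zpow (d : ℕ) [NeZero d] (b n : ℤ) :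
    _root_.Fermat.Agent.GTor.Clo.iotaC (_root_.Fermat.Agent.GTor.Clo.zetaK d ^ (b * n)) = Complex.exp (2 * Real.pi * Complex.I * b / d) ^ n := by
  rw [map_zpow₀, _root_.Fermat.Agent.GTor.Clo.iotaC_zetaK, zpow_mul, ← Complex.exp_int_mul]
  congr 2
  ring

/-- The expansion of `j ((a τ + b) / d)` in `u = exp (2 π i τ / N)`. -/
theorem hasUExp_JA_upper (N : ℕ) [NeZero N] (a d : ℕ) (b : ℤ) (ha : 0 < a) (hd : 0 < d)
    (hdN : d ∣ N) :
    haveI : NeZero d := ⟨hd.ne'⟩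
    ∃ c : LaurentSeries _root_.Fermat.Agent.GTor.Clo.Kbar,
      HasUExp N (_root_.Fermat.Agent.GTor.Clo.JA !![(a : ℤ), b; 0, (d : ℤ)] : ℍ → ℂ) (coeffMap _root_.Fermat.Agent.GTor.Clo.iotaC c) ∧
      (∀ n : ℤ, c.coeff (((N / d * a : ℕ) : ℤ) * n) = _root_.Fermat.Agent.GTor.Clo.zetaK d ^ (b * n) * _root_.Fermat.Agent.GTor.Clo.jBar.coeff n) ∧
      (∀ m : ℤ, ¬ (((N / d * a : ℕ) : ℤ) ∣ m) → c.coeff m = 0) := by
  have : NeZero d := ⟨hd.ne'⟩
  have hNd : 0 < N / d := Nat.div_pos (Nat.le_of_dvd (Nat.pos_of_ne_zero (NeZero.ne N)) hdN) hd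
  have : NeZero (N / d * a) := ⟨(Nat.mul_pos hNd ha).ne'⟩
  have hdet : 0 < (!![(a : ℤ), b; 0, (d : ℤ)]).det := by
    rw [Matrix.det_fin_two_of]
    simp only [mul_zero, sub_zero]
    positivity
  obtain ⟨c', hc', hc1, hc2⟩ := HasUExp.comp_affine (N := N) _root_.Fermat.Agent.GTor.Clo.hasUExp_jAn a d b ha hd hdN
    (_root_.Fermat.Agent.GTor.Clo.JA !![(a : ℤ), b; 0, (d : ℤ)] : ℍ → ℂ) (by
      intro τ τ' hτ'
      rw [_root_.Fermat.Agent.GTor.Clo.JA_apply _ hdet]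
      congr 1
      apply UpperHalfPlane.ext
      rw [_root_.Fermat.Agent.GTor.Clo.coe_intGL_smul, hτ']
      simp)
  refine ⟨qExpand _root_.Fermat.Agent.GTor.Clo.Kbar (N / d * a) (twist (_root_.Fermat.Agent.GTor.Clo.zetaK d ^ b) _root_.Fermat.Agent.GTor.Clo.jBar), ?_, ?_, ?_⟩
  · have e : coeffMap _root_.Fermat.Agent.GTor.Clo.iotaC (qExpand _root_.Fermat.Agent.GTor.Clo.Kbar (N / d * a) (twist (_root_.Fermat.Agent.GTor.Clo.zetaK d ^ b) _root_.Fermat.Agent.GTor.Clo.jBar)) = c' := by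
      ext m
      rw [coeffMap_coeff]
      by_cases hm : ((N / d * a : ℕ) : ℤ) ∣ m
      · obtain ⟨n, rfl⟩ := hm
        rw [qExpand_coeff_mul, hc1, twist_coeff, coeffMap_coeff, map_mul, ← zpow_mul,
          _root_.Fermat.Agent.GTor.Clo.iotaC_zetaK_zpow]
      · rw [qExpand_coeff_of_not_dvd _ _ hm, hc2 m hm, map_zero]
    rw [e]
    exact hc'
  · intro n
    rw [qExpand_coeff_mul, twist_coeff, ← zpow_mul]
  · intro m hm
    exact qExpand_coeff_of_not_dvd _ _ hm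

theorem coeffMap_iotaC_injective : Function.Injective (coeffMap _root_.Fermat.Agent.GTor.Clo.iotaC) := by
  intro x y h
  ext n
  have := congrArg (fun z : LaurentSeries ℂ => z.coeff n) h
  simp only [coeffMap_coeff] at this
  exact _root_.Fermat.Agent.GTor.Clo.iotaC.injective this

theorem coeffMap_iotaC_C (r : _root_.Fermat.Agent.GTor.Clo.Kbar) :
    coeffMap _root_.Fermat.Agent.GTor.Clo.iotaC (HahnSeries.C r) = HahnSeries.C (_root_.Fermat.Agent.GTor.Clo.iotaC r) := by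
  rw [HahnSeries.C_apply, HahnSeries.C_apply, coeffMap_single]

theorem dvd_of_hermite (N : ℕ) (A : Matrix (Fin 2) (Fin 2) ℤ) (hN : A.det ∣ (N : ℤ))
    (a d : ℕ) (had : (a : ℤ) * d = A.det) : d ∣ N := by
  have h : ((d : ℕ) : ℤ) ∣ (N : ℤ) := Dvd.dvd.trans ⟨(a : ℤ), by rw [← had]; ring⟩ hN
  exact Int.natCast_dvd_natCast.mp h

theorem det_upper_pos (a d : ℕ) (b : ℤ) (ha : 0 < a) (hd : 0 < d) :
    0 < (!![(a : ℤ), b; 0, (d : ℤ)]).det := by
  rw [Matrix.det_fin_two_of]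
  simp only [mul_zero, sub_zero]
  positivity

/-- Every element of `Atil N` has an expansion with coefficients in `Q̄`. -/
theorem exists_hasUExp (N : ℕ) [NeZero N] (f : _root_.Fermat.Agent.GTor.Clo.Atil N) :
    ∃ c : LaurentSeries _root_.Fermat.Agent.GTor.Clo.Kbar, HasUExp N ((f : Hol) : ℍ → ℂ) (coeffMap _root_.Fermat.Agent.GTor.Clo.iotaC c) := by
  obtain ⟨f, hf⟩ := f
  show ∃ c : LaurentSeries _root_.Fermat.Agent.GTor.Clo.Kbar, HasUExp N (f : ℍ → ℂ) (coeffMap _root_.Fermat.Agent.GTor.Clo.iotaC c)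
  unfold _root_.Fermat.Agent.GTor.Clo.Atil at hf
  induction hf using Algebra.adjoin_induction with
  | mem x hx =>
    obtain ⟨A, hA, hN, rfl⟩ := hx
    obtain ⟨δ, a, d, b, ha, hd, had, hAδ⟩ := _root_.Fermat.Agent.GTor.Clo.hermite_general A hA
    have hdN : d ∣ N := _root_.Fermat.Agent.GTor.Clo.dvd_of_hermite N A hN a d had
    obtain ⟨c, hc, -, -⟩ := _root_.Fermat.Agent.GTor.Clo.hasUExp_JA_upper N a d b ha hd hdN
    refine ⟨c, ?_⟩
    rw [hAδ, _root_.Fermat.Agent.GTor.Clo.JA_mul_left δ _ (_root_.Fermat.Agent.GTor.Clo.det_upper_pos a d b ha hd)]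
    exact hc
  | algebraMap r =>
    refine ⟨HahnSeries.C r, ?_⟩
    rw [_root_.Fermat.Agent.GTor.Clo.coeffMap_iotaC_C]
    exact (HasUExp.const N (_root_.Fermat.Agent.GTor.Clo.iotaC r)).congr (fun τ => (_root_.Fermat.Agent.GTor.Clo.algebraMap_Kbar_Hol_apply r τ).symm)
  | add x y hx hy ihx ihy =>
    obtain ⟨c, hc⟩ := ihx
    obtain ⟨c', hc'⟩ := ihy
    refine ⟨c + c', ?_⟩
    rw [map_add]
    exact (hc.add hc').congr (fun τ => rfl)
  | mul x y hx hy ihx ihy =>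
    obtain ⟨c, hc⟩ := ihx
    obtain ⟨c', hc'⟩ := ihy
    refine ⟨c * c', ?_⟩
    rw [map_mul]
    exact (hc.mul hc').congr (fun τ => rfl)

/-! ## The expansion homomorphism -/

/-- The expansion of `f ∈ Atil N` at `∞`, with coefficients in `Q̄`. -/
def uExpFun (N : ℕ) [NeZero N] (f : _root_.Fermat.Agent.GTor.Clo.Atil N) : LaurentSeries _root_.Fermat.Agent.GTor.Clo.Kbar := (_root_.Fermat.Agent.GTor.Clo.exists_hasUExp N f).choose

theorem uExpFun_spec (N : ℕ) [NeZero N] (f : _root_.Fermat.Agent.GTor.Clo.Atil N) :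
    HasUExp N ((f : Hol) : ℍ → ℂ) (coeffMap _root_.Fermat.Agent.GTor.Clo.iotaC (_root_.Fermat.Agent.GTor.Clo.uExpFun N f)) :=
  (_root_.Fermat.Agent.GTor.Clo.exists_hasUExp N f).choose_spec

theorem uExpFun_eq (N : ℕ) [NeZero N] (f : _root_.Fermat.Agent.GTor.Clo.Atil N) (c : LaurentSeries _root_.Fermat.Agent.GTor.Clo.Kbar)
    (h : HasUExp N ((f : Hol) : ℍ → ℂ) (coeffMap _root_.Fermat.Agent.GTor.Clo.iotaC c)) : _root_.Fermat.Agent.GTor.Clo.uExpFun N f = c :=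
  _root_.Fermat.Agent.GTor.Clo.coeffMap_iotaC_injective ((_root_.Fermat.Agent.GTor.Clo.uExpFun_spec N f).unique h)

/-- The expansion homomorphism. -/
def uExp (N : ℕ) [NeZero N] : _root_.Fermat.Agent.GTor.Clo.Atil N →ₐ[_root_.Fermat.Agent.GTor.Clo.Kbar] LaurentSeries _root_.Fermat.Agent.GTor.Clo.Kbar where
  toFun := _root_.Fermat.Agent.GTor.Clo.uExpFun N
  map_one' := by
    apply _root_.Fermat.Agent.GTor.Clo.uExpFun_eq
    rw [map_one]
    exact (HasUExp.one N).congr (fun τ => rfl)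
  map_mul' f g := by
    apply _root_.Fermat.Agent.GTor.Clo.uExpFun_eq
    rw [map_mul]
    exact ((_root_.Fermat.Agent.GTor.Clo.uExpFun_spec N f).mul (_root_.Fermat.Agent.GTor.Clo.uExpFun_spec N g)).congr (fun τ => rfl)
  map_zero' := by
    apply _root_.Fermat.Agent.GTor.Clo.uExpFun_eq
    rw [map_zero]
    exact (HasUExp.zero N).congr (fun τ => rfl)
  map_add' f g := by
    apply _root_.Fermat.Agent.GTor.Clo.uExpFun_eq
    rw [map_add]
    exact ((_root_.Fermat.Agent.GTor.Clo.uExpFun_spec N f).add (_root_.Fermat.Agent.GTor.Clo.uExpFun_spec N g)).congr (fun τ => rfl)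
  commutes' r := by
    apply _root_.Fermat.Agent.GTor.Clo.uExpFun_eq
    rw [algebraMap_laurentSeries_eq_single, coeffMap_single, ← HahnSeries.C_apply]
    exact (HasUExp.const N (_root_.Fermat.Agent.GTor.Clo.iotaC r)).congr (fun τ => rfl)

theorem uExp_spec (N : ℕ) [NeZero N] (f : _root_.Fermat.Agent.GTor.Clo.Atil N) :
    HasUExp N ((f : Hol) : ℍ → ℂ) (coeffMap _root_.Fermat.Agent.GTor.Clo.iotaC (_root_.Fermat.Agent.GTor.Clo.uExp N f)) := _root_.Fermat.Agent.GTor.Clo.uExpFun_spec N f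

theorem uExp_eq (N : ℕ) [NeZero N] (f : _root_.Fermat.Agent.GTor.Clo.Atil N) (c : LaurentSeries _root_.Fermat.Agent.GTor.Clo.Kbar)
    (h : HasUExp N ((f : Hol) : ℍ → ℂ) (coeffMap _root_.Fermat.Agent.GTor.Clo.iotaC c)) : _root_.Fermat.Agent.GTor.Clo.uExp N f = c := _root_.Fermat.Agent.GTor.Clo.uExpFun_eq N f c h

theorem uExp_injective (N : ℕ) [NeZero N] : Function.Injective (_root_.Fermat.Agent.GTor.Clo.uExp N) := by
  rw [injective_iff_map_eq_zero]
  intro f hf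
  have h := _root_.Fermat.Agent.GTor.Clo.uExp_spec N f
  rw [hf, map_zero] at h
  apply Subtype.ext
  apply Subtype.ext
  funext τ
  have h0 : HasSum (fun n : ℤ => (0 : LaurentSeries ℂ).coeff n * uPar N τ ^ n) 0 := by
    simp
  exact (h τ).unique h0

/-- If `f ∈ Atil N` is constant as a function, the constant lies in `ι(Q̄)`. -/
theorem eq_algebraMap_of_const (N : ℕ) [NeZero N] (f : _root_.Fermat.Agent.GTor.Clo.Atil N) (a : ℂ)
    (h : ∀ τ : ℍ, ((f : Hol) : ℍ → ℂ) τ = a) :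
    f = algebraMap _root_.Fermat.Agent.GTor.Clo.Kbar (_root_.Fermat.Agent.GTor.Clo.Atil N) ((_root_.Fermat.Agent.GTor.Clo.uExp N f).coeff 0) := by
  have h1 : HasUExp N ((f : Hol) : ℍ → ℂ) (HahnSeries.C a) :=
    (HasUExp.const N a).congr (fun τ => (h τ).symm)
  have h2 := (_root_.Fermat.Agent.GTor.Clo.uExp_spec N f).unique h1
  have h3 : _root_.Fermat.Agent.GTor.Clo.iotaC ((_root_.Fermat.Agent.GTor.Clo.uExp N f).coeff 0) = a := by
    have := congrArg (fun z : LaurentSeries ℂ => z.coeff 0) h2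
    simpa using this
  apply Subtype.ext
  apply Subtype.ext
  funext τ
  rw [h τ, ← h3]
  rfl

theorem coe_T_inv_smul_eq (τ : ℍ) :
    (((ModularGroup.T⁻¹ : SL(2, ℤ)) • τ : ℍ) : ℂ) = (τ : ℂ) + ((-1 : ℤ) : ℂ) := by
  have h := ModularGroup.coe_T_zpow_smul_eq (z := τ) (n := -1)
  rwa [zpow_neg_one] at h

theorem iotaC_zetaK_inv (N : ℕ) [NeZero N] :
    _root_.Fermat.Agent.GTor.Clo.iotaC (_root_.Fermat.Agent.GTor.Clo.zetaK N)⁻¹ = Complex.exp (2 * Real.pi * Complex.I * ((-1 : ℤ) : ℂ) / N) := by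
  rw [map_inv₀, _root_.Fermat.Agent.GTor.Clo.iotaC_zetaK, ← Complex.exp_neg]
  congr 1
  push_cast
  ring

/-- `T` twists the expansion by `ζ_N⁻¹` (`(T • f) τ = f (τ - 1)`). -/
theorem uExp_T_smul (N : ℕ) [NeZero N] (f : _root_.Fermat.Agent.GTor.Clo.Atil N) :
    _root_.Fermat.Agent.GTor.Clo.uExp N (ModularGroup.T • f) = twist (_root_.Fermat.Agent.GTor.Clo.zetaK N)⁻¹ (_root_.Fermat.Agent.GTor.Clo.uExp N f) := by
  apply _root_.Fermat.Agent.GTor.Clo.uExp_eq
  rw [coeffMap_twist, _root_.Fermat.Agent.GTor.Clo.iotaC_zetaK_inv]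
  refine HasUExp.comp_translate (_root_.Fermat.Agent.GTor.Clo.uExp_spec N f) (-1) _ ?_
  intro τ τ' hτ'
  show ((f : Hol) : ℍ → ℂ) (ModularGroup.T⁻¹ • τ) = ((f : Hol) : ℍ → ℂ) τ'
  have e : (ModularGroup.T⁻¹ : SL(2, ℤ)) • τ = τ' := by
    apply UpperHalfPlane.ext
    rw [_root_.Fermat.Agent.GTor.Clo.coe_T_inv_smul_eq, hτ']
  rw [e]

/-- The expansion of `j (d τ)`. -/
theorem uExp_jdA (N : ℕ) [NeZero N] (d : ℕ) [NeZero d] (hd : d ∣ N) :
    _root_.Fermat.Agent.GTor.Clo.uExp N (_root_.Fermat.Agent.GTor.Clo.jdA N d) = qExpand _root_.Fermat.Agent.GTor.Clo.Kbar N (coeffEmb _root_.Fermat.Agent.GTor.Clo.Kbar (qExpand ℚ d jq)) := by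
  have hd0 : 0 < d := Nat.pos_of_ne_zero (NeZero.ne d)
  obtain ⟨c, hc, hc1, hc2⟩ := _root_.Fermat.Agent.GTor.Clo.hasUExp_JA_upper N d 1 0 hd0 one_pos (one_dvd N)
  have e : _root_.Fermat.Agent.GTor.Clo.uExp N (_root_.Fermat.Agent.GTor.Clo.jdA N d) = c := by
    apply _root_.Fermat.Agent.GTor.Clo.uExp_eq
    rw [_root_.Fermat.Agent.GTor.Clo.jdA_coe N d hd0 hd]
    exact_mod_cast hc
  rw [e]
  ext m
  simp only [Nat.div_one, Nat.cast_mul, zero_mul, zpow_zero, one_mul] at hc1 hc2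
  by_cases hm : ((N : ℤ) * (d : ℤ)) ∣ m
  · obtain ⟨n, rfl⟩ := hm
    rw [hc1, mul_assoc, qExpand_coeff_mul, coeffEmb_coeff, qExpand_coeff_mul, _root_.Fermat.Agent.GTor.Clo.jBar, coeffEmb_coeff]
  · rw [hc2 m hm]
    by_cases hmN : (N : ℤ) ∣ m
    · obtain ⟨k, rfl⟩ := hmN
      rw [qExpand_coeff_mul, coeffEmb_coeff]
      have hk : ¬ (d : ℤ) ∣ k := fun ⟨l, hl⟩ => hm ⟨l, by rw [hl]; ring⟩
      rw [qExpand_coeff_of_not_dvd _ _ hk, map_zero]
    · rw [qExpand_coeff_of_not_dvd _ _ hmN]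

theorem uExp_jA (N : ℕ) [NeZero N] : _root_.Fermat.Agent.GTor.Clo.uExp N (_root_.Fermat.Agent.GTor.Clo.jA N) = qExpand _root_.Fermat.Agent.GTor.Clo.Kbar N _root_.Fermat.Agent.GTor.Clo.jBar := by
  have h := _root_.Fermat.Agent.GTor.Clo.uExp_jdA N 1 (one_dvd N)
  rw [_root_.Fermat.Agent.GTor.Clo.jdA_one, qExpand_one_apply] at h
  exact h

/-- The pole order of `j ∘ A`, `A = δ * [a, b; 0, d]`, in `u` is `N a / d`. -/
theorem uExp_JA_order (N : ℕ) [NeZero N] (A : Matrix (Fin 2) (Fin 2) ℤ) (hA : 0 < A.det)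
    (hN : A.det ∣ (N : ℤ)) (δ : SL(2, ℤ)) (a d : ℕ) (b : ℤ) (ha : 0 < a) (hd : 0 < d)
    (hAδ : A = δ.1 * !![(a : ℤ), b; 0, (d : ℤ)]) :
    (_root_.Fermat.Agent.GTor.Clo.uExp N ⟨_root_.Fermat.Agent.GTor.Clo.JA A, _root_.Fermat.Agent.GTor.Clo.JA_mem_Atil N A hA hN⟩).order = -((N / d * a : ℕ) : ℤ) := by
  have hdetU := _root_.Fermat.Agent.GTor.Clo.det_upper_pos a d b ha hd
  have had : (a : ℤ) * d = A.det := by
    rw [hAδ, Matrix.det_mul, δ.2, one_mul, Matrix.det_fin_two_of]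
    ring
  have hdN : d ∣ N := _root_.Fermat.Agent.GTor.Clo.dvd_of_hermite N A hN a d had
  have : NeZero d := ⟨hd.ne'⟩
  obtain ⟨c, hc, hc1, hc2⟩ := _root_.Fermat.Agent.GTor.Clo.hasUExp_JA_upper N a d b ha hd hdN
  have e : _root_.Fermat.Agent.GTor.Clo.uExp N ⟨_root_.Fermat.Agent.GTor.Clo.JA A, _root_.Fermat.Agent.GTor.Clo.JA_mem_Atil N A hA hN⟩ = c := by
    apply _root_.Fermat.Agent.GTor.Clo.uExp_eq
    show HasUExp N (_root_.Fermat.Agent.GTor.Clo.JA A : ℍ → ℂ) (coeffMap _root_.Fermat.Agent.GTor.Clo.iotaC c)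
    rw [hAδ, _root_.Fermat.Agent.GTor.Clo.JA_mul_left δ _ hdetU]
    exact hc
  rw [e]
  have hNd : 0 < N / d := Nat.div_pos (Nat.le_of_dvd (Nat.pos_of_ne_zero (NeZero.ne N)) hdN) hd
  have hM : (0 : ℤ) < ((N / d * a : ℕ) : ℤ) := by exact_mod_cast Nat.mul_pos hNd ha
  generalize ((N / d * a : ℕ) : ℤ) = M at hc1 hc2 hM
  have hlead : c.coeff (-M) ≠ 0 := by
    have h := hc1 (-1)
    rw [mul_neg_one] at h
    rw [h]
    refine mul_ne_zero (zpow_ne_zero _ (_root_.Fermat.Agent.GTor.Clo.zetaK_ne_zero d)) ?_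
    rw [_root_.Fermat.Agent.GTor.Clo.jBar, coeffEmb_coeff, coeff_jq_neg_one, map_one]
    exact one_ne_zero
  have hc0 : c ≠ 0 := fun h => hlead (by rw [h]; rfl)
  apply le_antisymm
  · exact HahnSeries.order_le_of_coeff_ne_zero hlead
  · rw [HahnSeries.le_order_iff_forall hc0]
    intro m hm
    by_cases hdiv : M ∣ m
    · obtain ⟨n, rfl⟩ := hdiv
      have hn : n < -1 := by
        by_contra hcon
        have : -M ≤ M * n := by nlinarith
        omega
      rw [hc1, _root_.Fermat.Agent.GTor.Clo.jBar, coeffEmb_coeff, coeff_jq_of_lt hn, map_zero, mul_zero]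
    · exact hc2 m hdiv

/-- An element of `Atil N` whose expansion has no negative terms is bounded at `∞`. -/
theorem isBoundedAtImInfty_of_uExp (N : ℕ) [NeZero N] (f : _root_.Fermat.Agent.GTor.Clo.Atil N)
    (h : ∀ n : ℤ, n < 0 → (_root_.Fermat.Agent.GTor.Clo.uExp N f).coeff n = 0) :
    IsBoundedAtImInfty ((f : Hol) : ℍ → ℂ) :=
  (_root_.Fermat.Agent.GTor.Clo.uExp_spec N f).isBoundedAtImInfty (fun n hn => by rw [coeffMap_coeff, h n hn, map_zero])

end Fermat.Agent.GTor.Clo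

end
end
-- ==== END Fermat.Agent.GTor.Clo.UExpJA

-- ==== BEGIN Fermat.Agent.GTor.H58_A2
section

/-!
# G-TOR package A2 (helper58): every ratio of two modular forms of the same weight on `Γ₀(N)`
lies in `F_ℂ = ℂ(j(q^d) : d ∣ N)`.
-/

set_option autoImplicit false
set_option linter.unusedSectionVars false

open UpperHalfPlane ModularForm ModularCurve CongruenceSubgroup Polynomial
open scoped MatrixGroups ModularForm Manifold

noncomputable section

namespace Fermat.Agent.GTor.H58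

open Fermat.Agent.GTor
open Fermat.Agent.S23.H22 (Nice nice_levelOne nice_G0)

local notation "ofPS" => HahnSeries.ofPowerSeries ℤ ℂ
local notation "Δ" => ModularForm.discriminant

/-- The formal `j` over `ℂ`. -/
def j1 : LaurentSeries ℂ := coeffEmb ℂ jq

lemma j1_mul_disc : j1 * ofPS (qExpansion 1 Δ) = ofPS (qExpansion 1 E₄) ^ 3 :=
  Fermat.Agent.S28.H76.coeffMap_jq_mul_disc

lemma ofPS_ne_zero {F : ℍ → ℂ} (hF : Nice 1 F) (h0 : F ≠ 0) : ofPS (qExpansion 1 F) ≠ 0 := by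
  intro h
  have h' : qExpansion 1 F = 0 :=
    HahnSeries.ofPowerSeries_injective (Γ := ℤ) (R := ℂ) (by rw [h, map_zero])
  exact h0 (hF.eq_zero_of_qExpansion_eq_zero one_pos h')

lemma disc_fun_ne_zero : (Δ : ℍ → ℂ) ≠ 0 := fun h =>
  ModularForm.discriminant_ne_zero UpperHalfPlane.I (by rw [h]; rfl)

lemma nice_disc1 : Nice 1 (Δ : ℍ → ℂ) := nice_levelOne CuspForm.discriminant

lemma ofPS_disc_ne_zero : ofPS (qExpansion 1 Δ) ≠ 0 := ofPS_ne_zero nice_disc1 disc_fun_ne_zero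

lemma J_eq_j1 : ofPS (qExpansion 1 E₄) ^ 3 / ofPS (qExpansion 1 Δ) = j1 := by
  rw [← j1_mul_disc, mul_div_assoc, div_self ofPS_disc_ne_zero, mul_one]

/-- slash invariance of powers -/
lemma slash_pow_SL {k : ℤ} {f : ℍ → ℂ} (γ : SL(2, ℤ)) (hf : f ∣[k] γ = f) (n : ℕ) :
    (f ^ n) ∣[(n : ℤ) * k] γ = f ^ n := by
  induction n with
  | zero =>
    simp only [Nat.cast_zero, zero_mul, pow_zero]
    exact ModularForm.is_invariant_one γ
  | succ n ih =>
    have e : ((n + 1 : ℕ) : ℤ) * k = (n : ℤ) * k + k := by push_cast; ring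
    rw [pow_succ, e, ModularForm.mul_slash_SL2, ih, hf]

lemma slash_levelOne {k : ℤ} (H : ModularForm 𝒮ℒ k) (γ : SL(2, ℤ)) : (H : ℍ → ℂ) ∣[k] γ = H :=
  SlashInvariantFormClass.slash_action_eq H _ ⟨γ, rfl⟩

lemma slash_disc (γ : SL(2, ℤ)) : (Δ : ℍ → ℂ) ∣[(12 : ℤ)] γ = Δ :=
  SlashInvariantFormClass.slash_action_eq CuspForm.discriminant _ ⟨γ, rfl⟩

/-- A quotient `a / Δ^n` of weight zero, with `a` nice of level one, is a polynomial in `j`
at the level of `q`-expansions. -/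
lemma exists_poly_of_div_disc_pow (n : ℕ) (a : ℍ → ℂ)
    (ha : ∀ γ : SL(2, ℤ), a ∣[(n : ℤ) * 12] γ = a) (hah : MDiff a)
    (hab : IsBoundedAtImInfty a) (hap : Function.Periodic (a ∘ UpperHalfPlane.ofComplex) 1) :
    ∃ p : ℂ[X], ofPS (qExpansion 1 a) = p.eval₂ HahnSeries.C j1 * ofPS (qExpansion 1 Δ) ^ n := by
  have hbN : Nice 1 ((Δ : ℍ → ℂ) ^ n) := nice_disc1.pow n
  obtain ⟨p, hp⟩ := Fermat.Agent.S28.H76.sym_series (Q := Unit) (fun _ => 1) ((n : ℤ) * 12) 1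
    (fun _ => a) (fun _ => (Δ : ℍ → ℂ) ^ n)
    (fun γ _ => ha γ) (fun γ _ => slash_pow_SL γ (slash_disc γ) n)
    (fun _ => hah) (fun _ => hbN.hol) (fun _ => hab) (fun _ => hbN.bdd)
    (fun _ => by simpa using hap) (fun _ => by simpa using hbN.per)
    (fun _ z => pow_ne_zero _ (ModularForm.discriminant_ne_zero z))
  refine ⟨p, ?_⟩
  simp only [Finset.univ_unique, Finset.prod_singleton, Nat.cast_one] at hp
  rw [J_eq_j1] at hp
  have hΔn : ofPS (qExpansion 1 ((Δ : ℍ → ℂ) ^ n)) = ofPS (qExpansion 1 Δ) ^ n := by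
    rw [Nice.qExpansion_pow one_pos nice_disc1, map_pow]
  rw [hΔn] at hp
  rw [← hp, div_mul_cancel₀]
  exact pow_ne_zero _ ofPS_disc_ne_zero

/-- Ratios of level one forms of the same weight are rational functions of `j`. -/
lemma levelOne_ratio {w : ℤ} (H G : ModularForm 𝒮ℒ w) (hG : G ≠ 0) :
    ∃ p₁ p₂ : ℂ[X], p₂.eval₂ HahnSeries.C j1 ≠ 0 ∧
      ofPS (qExpansion 1 H) * p₂.eval₂ HahnSeries.C j1 =
        p₁.eval₂ HahnSeries.C j1 * ofPS (qExpansion 1 G) := by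
  have hw : 0 ≤ w := by
    by_contra hw
    rw [not_le] at hw
    apply hG
    exact DFunLike.coe_injective (ModularFormClass.levelOne_neg_weight_eq_zero hw G)
  obtain ⟨n, rfl⟩ := Int.eq_ofNat_of_zero_le hw
  have nH := nice_levelOne H
  have nG := nice_levelOne G
  have hGf : (G : ℍ → ℂ) ≠ 0 := fun h => hG (DFunLike.coe_injective h)
  have hg : ofPS (qExpansion 1 G) ≠ 0 := ofPS_ne_zero nG hGf
  -- the two numerators
  have e1 : ((n : ℕ) : ℤ) * 12 = (n : ℤ) + ((11 : ℕ) : ℤ) * (n : ℤ) := by push_cast; ring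
  have e2 : ((n : ℕ) : ℤ) * 12 = ((12 : ℕ) : ℤ) * (n : ℤ) := by push_cast; ring
  obtain ⟨p₁, hp₁⟩ := exists_poly_of_div_disc_pow n ((H : ℍ → ℂ) * (G : ℍ → ℂ) ^ 11)
    (fun γ => by
      rw [e1, ModularForm.mul_slash_SL2, slash_levelOne H γ,
        slash_pow_SL γ (slash_levelOne G γ) 11])
    (nH.mul (nG.pow 11)).hol (nH.mul (nG.pow 11)).bdd (nH.mul (nG.pow 11)).per
  obtain ⟨p₂, hp₂⟩ := exists_poly_of_div_disc_pow n ((G : ℍ → ℂ) ^ 12)
    (fun γ => by rw [e2, slash_pow_SL γ (slash_levelOne G γ) 12])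
    (nG.pow 12).hol (nG.pow 12).bdd (nG.pow 12).per
  rw [Nice.qExpansion_mul one_pos nH (nG.pow 11), Nice.qExpansion_pow one_pos nG, map_mul,
    map_pow] at hp₁
  rw [Nice.qExpansion_pow one_pos nG, map_pow] at hp₂
  have hD : ofPS (qExpansion 1 Δ) ^ n ≠ 0 := pow_ne_zero _ ofPS_disc_ne_zero
  refine ⟨p₁, p₂, ?_, ?_⟩
  · intro h0
    rw [h0, zero_mul] at hp₂
    exact pow_ne_zero _ hg hp₂
  · apply mul_right_cancel₀ hD
    calc ofPS (qExpansion 1 H) * p₂.eval₂ HahnSeries.C j1 * ofPS (qExpansion 1 Δ) ^ n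
        = ofPS (qExpansion 1 H) * (p₂.eval₂ HahnSeries.C j1 * ofPS (qExpansion 1 Δ) ^ n) := by
          ring
      _ = ofPS (qExpansion 1 H) * ofPS (qExpansion 1 G) ^ 12 := by rw [← hp₂]
      _ = (ofPS (qExpansion 1 H) * ofPS (qExpansion 1 G) ^ 11) * ofPS (qExpansion 1 G) := by ring
      _ = p₁.eval₂ HahnSeries.C j1 * ofPS (qExpansion 1 G) * ofPS (qExpansion 1 Δ) ^ n := by
          rw [hp₁]; ring

section Field

variable (N : ℕ) [NeZero N]

/-- `F_ℂ` as an intermediate field. -/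
abbrev FF : IntermediateField ℂ (LaurentSeries ℂ) :=
  laurentBaseChange ℂ (modularFunctionFieldFull N)

/-- The formal `j(q^N)` over `ℂ`. -/
def jN : LaurentSeries ℂ := coeffEmb ℂ (qExpand ℚ N jq)

lemma j1_mem : j1 ∈ FF N :=
  coeffEmb_mem_laurentBaseChange ℂ (modularFunctionField_le_full N (jq_mem N))

lemma jN_mem : jN N ∈ FF N :=
  coeffEmb_mem_laurentBaseChange ℂ (jqd_mem_full N dvd_rfl)

lemma C_mem (c : ℂ) : HahnSeries.C c ∈ FF N := by
  have : (HahnSeries.C c : LaurentSeries ℂ) = algebraMap ℂ (LaurentSeries ℂ) c := by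
    rw [algebraMap_laurentSeries_eq_single]; rfl
  rw [this]
  exact (FF N).algebraMap_mem c

lemma eval₂_mem (p : ℂ[X]) : p.eval₂ HahnSeries.C j1 ∈ FF N := by
  rw [Polynomial.eval₂_eq_sum_range]
  exact sum_mem fun i _ => mul_mem (C_mem N _) (pow_mem (j1_mem N) i)

open Fermat.Agent.S23.H22 (Q eN deltaN Dhat exists_identity deltaN_ne_zero Dhat_nice)

lemma eN_eq_jN_mul :
    ofPS (qExpansion 1 (eN N)) = jN N * ofPS (qExpansion 1 (deltaN N)) := by
  have h := isRat_gen (N := N) N dvd_rfl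
  have h1 : ofPS (qExpansion 1 (eN N)) =
      HahnSeries.C ((N : ℂ) ^ ((12 : ℤ) - 1)) * qExpand ℂ N (ofPS (qExpansion 1 Fermat.Agent.S23.H22.E12)) :=
    Fermat.Agent.S28.H10.ofPS_qExpansion_levelRaise N Fermat.Agent.S23.H22.E12
  have h2 : ofPS (qExpansion 1 (deltaN N)) =
      HahnSeries.C ((N : ℂ) ^ ((12 : ℤ) - 1)) *
        qExpand ℂ N (ofPS (qExpansion 1 Fermat.Agent.S28.H30.DeltaMF)) :=
    Fermat.Agent.S28.H10.ofPS_qExpansion_levelRaise N Fermat.Agent.S28.H30.DeltaMF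
  rw [h1, h2, jN, coeffEmb, Fermat.Agent.S28.H10.coeffMap_qExpand,
    Fermat.Agent.S28.H10.qExpansion_E12]
  have hΔ : qExpansion 1 Fermat.Agent.S28.H30.DeltaMF = qExpansion 1 ModularForm.discriminant := rfl
  rw [hΔ, map_pow, ← Fermat.Agent.S28.H76.coeffMap_jq_mul_disc, map_mul]
  ring

/-- The `q`-expansion of the Lagrange identity. -/
lemma identity_series {k : ℤ} (A : ModularForm (Gamma0 N) k)
    (H : ℕ → ModularForm 𝒮ℒ (Fermat.Agent.S23.H22.lagrWeight (Q N) k 12))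
    (hH : ∀ z, ∑ j ∈ Finset.range (Fintype.card (Q N)),
        H j z * eN N z ^ j * deltaN N z ^ (Fintype.card (Q N) - 1 - j) = A z * Dhat N z) :
    ofPS (qExpansion 1 (deltaN N)) ^ (Fintype.card (Q N) - 1) *
        ∑ j ∈ Finset.range (Fintype.card (Q N)), ofPS (qExpansion 1 (H j)) * jN N ^ j =
      ofPS (qExpansion 1 A) * ofPS (qExpansion 1 (Dhat N)) := by
  have nA : Nice 1 (A : ℍ → ℂ) := nice_G0 N A
  have ne : Nice 1 (eN N : ℍ → ℂ) := nice_G0 N (eN N)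
  have nd : Nice 1 (deltaN N : ℍ → ℂ) := nice_G0 N (deltaN N)
  have nH : ∀ j, Nice 1 (H j : ℍ → ℂ) := fun j => nice_levelOne (H j)
  have nT : ∀ j ∈ Finset.range (Fintype.card (Q N)),
      Nice 1 ((H j : ℍ → ℂ) * (eN N : ℍ → ℂ) ^ j *
        (deltaN N : ℍ → ℂ) ^ (Fintype.card (Q N) - 1 - j)) :=
    fun j _ => ((nH j).mul (ne.pow j)).mul (nd.pow _)
  have hfun : (∑ j ∈ Finset.range (Fintype.card (Q N)),
      (H j : ℍ → ℂ) * (eN N : ℍ → ℂ) ^ j * (deltaN N : ℍ → ℂ) ^ (Fintype.card (Q N) - 1 - j))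
      = (A : ℍ → ℂ) * Dhat N := by
    funext z
    simp only [Finset.sum_apply, Pi.mul_apply, Pi.pow_apply]
    exact hH z
  have hser : ofPS (qExpansion 1 (∑ j ∈ Finset.range (Fintype.card (Q N)),
      (H j : ℍ → ℂ) * (eN N : ℍ → ℂ) ^ j * (deltaN N : ℍ → ℂ) ^ (Fintype.card (Q N) - 1 - j)))
      = ofPS (qExpansion 1 ((A : ℍ → ℂ) * Dhat N)) := by rw [hfun]
  rw [Nice.qExpansion_sum one_pos _ nT, Nice.qExpansion_mul one_pos nA (Dhat_nice N), map_sum,
    map_mul] at hser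
  rw [← hser, Finset.mul_sum]
  refine Finset.sum_congr rfl fun j hj => ?_
  have hj' : j ≤ Fintype.card (Q N) - 1 := by
    have := Finset.mem_range.mp hj
    omega
  rw [Nice.qExpansion_mul one_pos ((nH j).mul (ne.pow j)) (nd.pow _),
    Nice.qExpansion_mul one_pos (nH j) (ne.pow j), Nice.qExpansion_pow one_pos ne,
    Nice.qExpansion_pow one_pos nd, map_mul, map_mul, map_pow, map_pow, eN_eq_jN_mul, mul_pow]
  have e : ofPS (qExpansion 1 (deltaN N)) ^ (Fintype.card (Q N) - 1) =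
      ofPS (qExpansion 1 (deltaN N)) ^ j *
        ofPS (qExpansion 1 (deltaN N)) ^ (Fintype.card (Q N) - 1 - j) := by
    rw [← pow_add, Nat.add_sub_cancel' hj']
  rw [e]
  ring

/-- **A2**: every ratio of two modular forms of the same weight on `Γ₀(N)` lies in `F_ℂ`. -/
theorem stmt_A2 : Stmt_A2 N := by
  intro k A B hB
  classical
  obtain ⟨HA, hHA⟩ := exists_identity N A
  obtain ⟨HB, hHB⟩ := exists_identity N B
  have hA := identity_series N A HA hHA
  have hB' := identity_series N B HB hHB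
  set μ := Fintype.card (Q N) with hμ
  set d := ofPS (qExpansion 1 (deltaN N)) with hd
  set D := ofPS (qExpansion 1 (Dhat N)) with hD
  have nB : Nice 1 (B : ℍ → ℂ) := nice_G0 N B
  have hBf : (B : ℍ → ℂ) ≠ 0 := fun h => hB (DFunLike.coe_injective h)
  have hb0 : ofPS (qExpansion 1 B) ≠ 0 := ofPS_ne_zero nB hBf
  have hD0 : D ≠ 0 := ofPS_ne_zero (Dhat_nice N) (Fermat.Agent.S23.H96.Dhat_ne_zero N)
  have hd0 : d ≠ 0 := ofPS_ne_zero (nice_G0 N (deltaN N))
    (fun h => deltaN_ne_zero N UpperHalfPlane.I (by rw [h]; rfl))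
  -- some `HB j₀` is nonzero
  have hsum0 : ∑ j ∈ Finset.range μ, ofPS (qExpansion 1 (HB j)) * jN N ^ j ≠ 0 := by
    intro h0
    rw [h0, mul_zero] at hB'
    exact mul_ne_zero hb0 hD0 hB'.symm
  obtain ⟨j₀, -, hj₀⟩ := Finset.exists_ne_zero_of_sum_ne_zero hsum0
  have hG : HB j₀ ≠ 0 := by
    rintro h
    apply hj₀
    rw [h]
    have : qExpansion 1 (⇑(0 : ModularForm 𝒮ℒ (Fermat.Agent.S23.H22.lagrWeight (Q N) k 12))) = 0 :=
      qExpansion_zero 1
    rw [this, map_zero, zero_mul]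
  set g := ofPS (qExpansion 1 (HB j₀)) with hg
  have hg0 : g ≠ 0 := ofPS_ne_zero (nice_levelOne (HB j₀)) (fun h => hG (DFunLike.coe_injective h))
  -- ratios
  have hrat : ∀ H : ModularForm 𝒮ℒ (Fermat.Agent.S23.H22.lagrWeight (Q N) k 12),
      ∃ r ∈ FF N, ofPS (qExpansion 1 H) = r * g := by
    intro H
    obtain ⟨p₁, p₂, hp₂, hp⟩ := levelOne_ratio H (HB j₀) hG
    refine ⟨p₁.eval₂ HahnSeries.C j1 / p₂.eval₂ HahnSeries.C j1,
      div_mem (eval₂_mem N p₁) (eval₂_mem N p₂), ?_⟩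
    rw [div_mul_eq_mul_div, eq_div_iff hp₂]
    exact hp
  choose rA hrA_mem hrA using fun j => hrat (HA j)
  choose rB hrB_mem hrB using fun j => hrat (HB j)
  set SA := ∑ j ∈ Finset.range μ, rA j * jN N ^ j with hSA
  set SB := ∑ j ∈ Finset.range μ, rB j * jN N ^ j with hSB
  have hSA_mem : SA ∈ FF N :=
    sum_mem fun j _ => mul_mem (hrA_mem j) (pow_mem (jN_mem N) j)
  have hSB_mem : SB ∈ FF N :=
    sum_mem fun j _ => mul_mem (hrB_mem j) (pow_mem (jN_mem N) j)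
  have eA : ∑ j ∈ Finset.range μ, ofPS (qExpansion 1 (HA j)) * jN N ^ j = g * SA := by
    rw [hSA, Finset.mul_sum]
    refine Finset.sum_congr rfl fun j _ => ?_
    rw [hrA j]; ring
  have eB : ∑ j ∈ Finset.range μ, ofPS (qExpansion 1 (HB j)) * jN N ^ j = g * SB := by
    rw [hSB, Finset.mul_sum]
    refine Finset.sum_congr rfl fun j _ => ?_
    rw [hrB j]; ring
  rw [eA] at hA
  rw [eB] at hB' hsum0
  have hSB0 : SB ≠ 0 := fun h => hsum0 (by rw [h, mul_zero])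
  refine ⟨⟨SA / SB, div_mem hSA_mem hSB_mem⟩, hB, ?_⟩
  show ofPS (qExpansion 1 A) = SA / SB * ofPS (qExpansion 1 B)
  rw [div_mul_eq_mul_div, eq_div_iff hSB0]
  apply mul_right_cancel₀ hD0
  calc ofPS (qExpansion 1 A) * SB * D = (ofPS (qExpansion 1 A) * D) * SB := by ring
    _ = d ^ (μ - 1) * (g * SA) * SB := by rw [← hA]
    _ = SA * (d ^ (μ - 1) * (g * SB)) := by ring
    _ = SA * ofPS (qExpansion 1 B) * D := by rw [hB']; ring

end Field

end Fermat.Agent.GTor.H58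

end
end
-- ==== END Fermat.Agent.GTor.H58_A2

-- ==== BEGIN Fermat.Agent.GTor.H75_DescCore
section

/-!
# G-TOR package DESC (helper75): DESC-CORE (clause 4 of `Stmt_DESC`)
-/

set_option autoImplicit false
set_option linter.style.haveILetI false
set_option linter.unusedSectionVars false
set_option maxHeartbeats 1000000

noncomputable section

namespace Fermat.Agent.GTor.H75

open ModularCurve AlgebraicCurve

/-- The pigeonhole statement (proved by helper56 in `GTor/H56_DescPigeon.lean`). -/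
def Stmt_DescPigeon (K : Type) [Field K] [Algebra ℚ K]
    (F₀ : IntermediateField ℚ (LaurentSeries ℚ)) : Prop :=
  ∀ (n : ℕ), Finite (UnrKummer K ↥(laurentBaseChange K F₀) n) →
    ∀ f : ↥(laurentBaseChange K F₀), f ≠ 0 →
    (∀ w : Place K ↥(laurentBaseChange K F₀), (n : ℤ) ∣ w.ord f) →
    ∀ (m : ℕ), Nat.card (UnrKummer K ↥(laurentBaseChange K F₀) n) < m →
    ∀ σ : Fin m → (K ≃+* K),
    ∃ i j, i ≠ j ∧ ∃ g : ↥(laurentBaseChange K F₀), g ≠ 0 ∧
      coeffMap (((σ i).symm : K →+* K).comp ((σ j : K ≃+* K) : K →+* K)) (f : LaurentSeries K)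
        = (f : LaurentSeries K) * (g : LaurentSeries K) ^ n

theorem descCore_of (k K : Type) [Field k] [Field K] [Algebra ℚ k] [Algebra ℚ K]
    (F₀ : IntermediateField ℚ (LaurentSeries ℚ)) (hPig : Stmt_DescPigeon K F₀) :
    Stmt_DescCore k K F₀ := by
  intro _ _ _ ι n hn htr hfin f hf hunr
  classical
  letI : Algebra k K := ι.toAlgebra
  haveI : CharZero K := charZero_of_injective_ringHom ι.injective
  have hf0 : (f : LaurentSeries K) ≠ 0 := fun h0 => hf (Subtype.ext h0)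
  obtain ⟨r, y, a, r', y', b, hy, hy', hP, hQ, hfQ⟩ := exists_lc K F₀ f.2 hf0
  let c : Finset K := Finset.univ.image a ∪ Finset.univ.image b
  have hac : ∀ i, a i ∈ c := fun i =>
    Finset.mem_union_left _ (Finset.mem_image_of_mem a (Finset.mem_univ i))
  have hbc : ∀ i, b i ∈ c := fun i =>
    Finset.mem_union_right _ (Finset.mem_image_of_mem b (Finset.mem_univ i))
  obtain ⟨d, t, σ, ht, hc, hind⟩ := H56.stmt_DescAut k K htr c
    (Nat.card (UnrKummer K ↥(laurentBaseChange K F₀) n) + 1)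
  obtain ⟨i, j, hij, g, hg, hτ⟩ := hPig n hfin f hf hunr _ (Nat.lt_succ_self _)
    (fun i => (σ i).toRingEquiv)
  let τ : K →ₐ[k] K := ((σ i).symm : K →ₐ[k] K).comp (σ j : K →ₐ[k] K)
  let t' : Fin d → K := fun l => τ (t l)
  have hτ' : coeffMap (τ : K →+* K) (f : LaurentSeries K)
      = (f : LaurentSeries K) * (g : LaurentSeries K) ^ n := hτ
  -- independence of `t'` over the algebraic closure `E` of `k(t)`
  have h1 : AlgebraicIndependent k (Sum.elim t' t) := by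
    have := (hind i j hij).comp Sum.swap Sum.swap_leftInverse.injective
    convert this using 1
    ext (l | l) <;> rfl
  obtain ⟨-, h2⟩ := AlgebraicIndependent.sumElim_iff.mp h1
  have h3 : AlgebraicIndependent ↥(IntermediateField.adjoin k (Set.range t)) t' :=
    IntermediateField.algebraicIndependent_adjoin_iff.mpr h2
  let Ft : IntermediateField k K := IntermediateField.adjoin k (Set.range t)
  let E : IntermediateField ↥Ft K := algebraicClosure ↥Ft K
  have h4 : AlgebraicIndependent ↥E t' := h3.algebraicClosure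
  haveI : IsScalarTower k ↥E K := IsScalarTower.of_algebraMap_eq (fun x => rfl)
  haveI : IsAlgClosed ↥E := IsAlgClosure.isAlgClosed ↥Ft
  let F' : IntermediateField ↥E K := IntermediateField.adjoin ↥E (Set.range t')
  let k₂ : IntermediateField ↥F' K := algebraicClosure ↥F' K
  haveI : IsAlgClosed ↥k₂ := IsAlgClosure.isAlgClosed ↥F'
  -- membership facts
  have hE : ∀ x ∈ c, x ∈ E := fun x hx =>
    mem_algebraicClosure_iff.mpr (IntermediateField.isAlgebraic_adjoin_iff.mpr (hc x hx))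
  have hEk₂ : ∀ x : K, x ∈ E → x ∈ k₂ := fun x hx =>
    k₂.algebraMap_mem ⟨x, F'.algebraMap_mem ⟨x, hx⟩⟩
  have hck : ∀ x ∈ c, AlgElem
      (MvPolynomial.aeval t' : MvPolynomial (Fin d) k →ₐ[k] K).toRingHom (τ x) := fun x hx =>
    (algElem_of_isAlgebraic_adjoin ht (hc x hx)).algHom τ
  have hτk₂ : ∀ x ∈ c, τ x ∈ k₂ := fun x hx =>
    mem_algebraicClosure_iff.mpr (IntermediateField.isAlgebraic_adjoin_iff.mpr
      (isAlgebraic_adjoin_of_algElem h4 (hck x hx).extend))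
  have hk₂ : ∀ x : ↥k₂, AlgElem
      (MvPolynomial.aeval t' : MvPolynomial (Fin d) ↥E →ₐ[↥E] K).toRingHom
        (algebraMap ↥k₂ K x) := fun x =>
    algElem_of_isAlgebraic_adjoin h4 (IntermediateField.isAlgebraic_adjoin_iff.mp
      (mem_algebraicClosure_iff.mp x.2))
  -- step A
  obtain ⟨s, s', z, z', α, β, hz, hz', hα, hβ, hA, hτQ, hid⟩ :=
    core_stepA F₀ (algebraMap ↥k₂ K) n hn f y y' hy hy' a b hP hQ hfQ
      (fun i => ⟨⟨a i, hEk₂ _ (hE _ (hac i))⟩, rfl⟩)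
      (fun i => ⟨⟨b i, hEk₂ _ (hE _ (hbc i))⟩, rfl⟩)
      (τ : K →+* K)
      (fun i => ⟨⟨τ (a i), hτk₂ _ (hac i)⟩, rfl⟩)
      (fun i => ⟨⟨τ (b i), hτk₂ _ (hbc i)⟩, rfl⟩) g hτ'
  -- step BC
  exact core_stepBC (k := k) (E := ↥E) F₀ (algebraMap ℚ ↥E) n hn t' h4 f y y' z z' hy hy' hz hz'
    a b hP hQ hfQ
    (fun i => ⟨⟨a i, hE _ (hac i)⟩, rfl⟩) (fun i => ⟨⟨b i, hE _ (hbc i)⟩, rfl⟩)
    (fun i => τ (a i)) (fun i => τ (b i)) (fun i => hck _ (hac i)) (fun i => hck _ (hbc i)) hτQ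
    α β
    (fun i => by obtain ⟨x, hx⟩ := hα i; rw [← hx]; exact hk₂ x)
    (fun i => by obtain ⟨x, hx⟩ := hβ i; rw [← hx]; exact hk₂ x)
    hA hid

end Fermat.Agent.GTor.H75

end
end
-- ==== END Fermat.Agent.GTor.H75_DescCore

-- ==== BEGIN Fermat.Agent.GTor.H81_T2d
section

/-!
# G-TOR plumbing T2, part d: the Tate system of `J₀(N)`  (helper81)
-/

set_option autoImplicit false

noncomputable section

namespace Fermat.Agent.GTor.H81

open AlgebraicCurve ModularCurve Fermat.Agent.GTor Fermat.Agent.Betti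
open scoped MatrixGroups

section Props

variable {N : ℕ} [NeZero N] {ι : AlgebraicClosure ℚ →+* ℂ}
  {r : ℕ} {b : Fin r → (Additive (CongruenceSubgroup.Gamma0 N) →+ ℤ)}
  (hb : IsParBasis N b) (hL : Stmt_torsLift N)

/-! ### elements of `J₀(N)[n]` -/

theorem coe_gal {n : ℕ} (σ : GQ) (x : Jtor N n) :
    ((JZero.torsionGaloisRep N n σ x : Jtor N n) : JZero N) = σ • (x : JZero N) := rfl

/-- the Hecke operator on `J₀(N)[n]`. -/
def heckeTor (n : ℕ) (ℓ : Nat.Primes) (x : Jtor N n) : Jtor N n :=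
  ⟨heckeOperatorBar N ℓ (x : JZero N), by
    rw [Pic0.mem_torsion, ← map_zsmul, Pic0.mem_torsion.1 x.2, map_zero]⟩

@[simp]
theorem coe_heckeTor (n : ℕ) (ℓ : Nat.Primes) (x : Jtor N n) :
    ((heckeTor n ℓ x : Jtor N n) : JZero N) = heckeOperatorBar N ℓ (x : JZero N) := rfl

theorem heckeTor_gal (hGH : Stmt_GalHecke N) (n : ℕ) (ℓ : Nat.Primes) (σ : GQ) (x : Jtor N n) :
    JZero.torsionGaloisRep N n σ (heckeTor n ℓ x) =
      heckeTor n ℓ (JZero.torsionGaloisRep N n σ x) :=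
  Subtype.ext (hGH ℓ σ (x : JZero N))

theorem pow_nsmul_coe {p k : ℕ} (x : Jtor N (p ^ k)) : p ^ k • (x : JZero N) = 0 := by
  have := Pic0.mem_torsion.1 x.2
  rw [← natCast_zsmul]
  exact_mod_cast this

/-- multiplication by `n / m` from `J₀(N)[n]` to `J₀(N)[m]`. -/
def mulTor {n m : ℕ} (hmn : m ∣ n) (x : Jtor N n) : Jtor N m :=
  ⟨(n / m) • (x : JZero N), by
    rw [Pic0.mem_torsion, ← natCast_zsmul, smul_smul]
    have : (m : ℤ) * ((n / m : ℕ) : ℤ) = (n : ℤ) := by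
      exact_mod_cast Nat.mul_div_cancel' hmn
    rw [this]
    exact Pic0.mem_torsion.1 x.2⟩

@[simp]
theorem coe_mulTor {n m : ℕ} (hmn : m ∣ n) (x : Jtor N n) :
    ((mulTor hmn x : Jtor N m) : JZero N) = (n / m) • (x : JZero N) := rfl

/-! ### compatibility in the level -/

variable {n m : ℕ} (hn : n ≠ 0) (hm : m ≠ 0) (hmn : m ∣ n)
  (E : TorIso N n ι) (E' : TorIso N m ι)

theorem theta_mulTor (x : Jtor N n) :
    theta hb hL hm E' (mulTor hmn x) =
      fun i => ZMod.castHom hmn (ZMod m) (theta hb hL hn E x i) := by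
  apply theta_eq_of_torChar
  have h := torChar_reduce hmn hn (torChar_theta hb hL hn E x)
  have e : redChar hmn (coordFun b n (theta hb hL hn E x)) =
      coordFun b m (fun i => ZMod.castHom hmn (ZMod m) (theta hb hL hn E x i)) := by
    refine AddMonoidHom.ext fun γ => ?_
    rw [redChar_apply, coordFun_cast]
  rw [e] at h
  exact h

theorem mulTor_gal (σ : GQ) (x : Jtor N n) :
    mulTor hmn (JZero.torsionGaloisRep N n σ x) = JZero.torsionGaloisRep N m σ (mulTor hmn x) := by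
  apply Subtype.ext
  rw [coe_gal, coe_mulTor, coe_mulTor, coe_gal]
  exact gal_nsmul σ (n / m) (x : JZero N)

theorem rhoMat_compat (σ : GQ) :
    (rhoMat hb hL hn E σ).map (ZMod.castHom hmn (ZMod m)) = rhoMat hb hL hm E' σ := by
  apply Matrix.mulVec_injective
  funext v
  -- lift `v` to level `n`
  have hsurj : Function.Surjective (ZMod.castHom hmn (ZMod m)) := ZMod.castHom_surjective hmn
  choose w hw using fun i => hsurj (v i)
  obtain ⟨x, hx⟩ := (theta hb hL hn E).surjective w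
  have hv : v = fun i => ZMod.castHom hmn (ZMod m) (theta hb hL hn E x i) := by
    funext i
    rw [hx, hw i]
  have h1 : (rhoMat hb hL hm E' σ).mulVec v =
      fun i => ZMod.castHom hmn (ZMod m)
        (theta hb hL hn E (JZero.torsionGaloisRep N n σ x) i) := by
    rw [hv, ← theta_mulTor hb hL hn hm hmn E E' x, rhoMat_mulVec, ← mulTor_gal,
      theta_mulTor hb hL hn hm hmn E E']
  rw [h1]
  funext i
  rw [← rhoMat_mulVec, hv]
  exact (RingHom.map_mulVec (ZMod.castHom hmn (ZMod m)) (rhoMat hb hL hn E σ)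
    (theta hb hL hn E x) i).symm

/-! ### triviality -/

theorem rhoMat_eq_one (σ : GQ) (h : ∀ x : Jtor N n, σ • (x : JZero N) = x) :
    rhoMat hb hL hn E σ = 1 := by
  apply matrix_ext_theta hb hL hn E
  intro x
  rw [rhoMat_mulVec, Matrix.one_mulVec]
  congr 1
  apply Subtype.ext
  rw [coe_gal, h x]

include hb hL hn E in
theorem finite_Jtor : Finite (Jtor N n) := by
  haveI : NeZero n := ⟨hn⟩
  exact Finite.of_equiv _ (theta hb hL hn E).symm.toEquiv

theorem rhoMat_cont (hG : Stmt_GAL N) :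
    ∃ L : IntermediateField ℚ (AlgebraicClosure ℚ), FiniteDimensional ℚ L ∧
      ∀ σ : GQ, (∀ x ∈ L, σ x = x) → rhoMat hb hL hn E σ = 1 := by
  haveI := finite_Jtor hb hL hn E
  choose L hL1 hL2 using fun x : Jtor N n => hG (x : JZero N)
  refine ⟨⨆ x, L x, ?_, fun σ hσ => rhoMat_eq_one hb hL hn E σ fun x => hL2 x σ fun y hy => ?_⟩
  · haveI : ∀ x, FiniteDimensional ℚ (L x) := hL1
    exact IntermediateField.finiteDimensional_iSup_of_finite
  · exact hσ y ((le_iSup L x) hy)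

/-! ### Hecke operators -/

theorem theta_heckeTor {ℓ : ℕ} (hℓ : ℓ.Prime) (hℓN : ¬ ℓ ∣ N) (hHK : Stmt_HK N n)
    (Mat : Matrix (Fin r) (Fin r) ℤ)
    (hMat : ∀ j, TB N ℤ hℓ hℓN (b j) = ∑ i, Mat i j • b i) (x : Jtor N n) :
    theta hb hL hn E (heckeTor n (⟨ℓ, hℓ⟩ : Nat.Primes) x) =
      (Mat.map (Int.cast : ℤ → ZMod n)).mulVec (theta hb hL hn E x) := by
  apply theta_eq_of_torChar
  have h := hHK ι ℓ hℓ hℓN (x : JZero N) _ (torChar_theta hb hL hn E x)
  rw [TB_coordFun n hℓ hℓN Mat hMat] at h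
  exact h

theorem rhoMat_comm_T {ℓ : ℕ} (hℓ : ℓ.Prime) (hℓN : ¬ ℓ ∣ N) (hHK : Stmt_HK N n)
    (hGH : Stmt_GalHecke N) (Mat : Matrix (Fin r) (Fin r) ℤ)
    (hMat : ∀ j, TB N ℤ hℓ hℓN (b j) = ∑ i, Mat i j • b i) (σ : GQ) :
    rhoMat hb hL hn E σ * Mat.map (Int.cast : ℤ → ZMod n) =
      Mat.map (Int.cast : ℤ → ZMod n) * rhoMat hb hL hn E σ := by
  apply matrix_ext_theta hb hL hn E
  intro x
  rw [← Matrix.mulVec_mulVec, ← Matrix.mulVec_mulVec,
    ← theta_heckeTor hb hL hn E hℓ hℓN hHK Mat hMat, rhoMat_mulVec, rhoMat_mulVec,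
    ← theta_heckeTor hb hL hn E hℓ hℓN hHK Mat hMat]
  exact congrArg (theta hb hL hn E) (heckeTor_gal hGH n (⟨ℓ, hℓ⟩ : Nat.Primes) σ x)

end Props

/-- linear algebra: the Eichler–Shimura relation from its action on a vector. -/
theorem mulVec_es {R : Type*} [CommRing R] {r : ℕ} (ρ M : Matrix (Fin r) (Fin r) R) (ℓ : ℕ)
    (v : Fin r → R)
    (h : ρ.mulVec (ρ.mulVec v) - M.mulVec (ρ.mulVec v) + ℓ • v = 0) :
    (ρ * ρ - M * ρ + (ℓ : R) • (1 : Matrix (Fin r) (Fin r) R)).mulVec v =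
      (0 : Matrix (Fin r) (Fin r) R).mulVec v := by
  rw [Matrix.zero_mulVec, Matrix.add_mulVec, Matrix.sub_mulVec, ← Matrix.mulVec_mulVec,
    ← Matrix.mulVec_mulVec, Matrix.smul_mulVec, Matrix.one_mulVec, ← h]
  congr 1
  funext i
  simp [nsmul_eq_mul]

section PropsP

variable {N : ℕ} [NeZero N] {ι : AlgebraicClosure ℚ →+* ℂ}
  {r : ℕ} {b : Fin r → (Additive (CongruenceSubgroup.Gamma0 N) →+ ℤ)}
  (hb : IsParBasis N b) (hL : Stmt_torsLift N) {n : ℕ} (hn : n ≠ 0)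
  (E : TorIso N n ι)

/-! ### Eichler–Shimura -/

theorem rhoMat_ES {p : ℕ} (hnp : ∀ x : Jtor N n, ∃ j : ℕ, p ^ j • (x : JZero N) = 0)
    {ℓ : ℕ} (hℓ : ℓ.Prime) (hℓN : ¬ ℓ ∣ N)
    (hℓp : ℓ ≠ p)
    (hHK : Stmt_HK N n) (hES : Stmt_TorsES N p) (Mat : Matrix (Fin r) (Fin r) ℤ)
    (hMat : ∀ j, TB N ℤ hℓ hℓN (b j) = ∑ i, Mat i j • b i)
    (A : ValuationSubring (AlgebraicClosure ℚ)) (hA : A.LiesOverPrime ℓ) (σ : GQ)
    (hσ : A.IsFrobeniusAt σ ℓ) :
    rhoMat hb hL hn E σ * rhoMat hb hL hn E σ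
      - Mat.map (Int.cast : ℤ → ZMod n) * rhoMat hb hL hn E σ
      + (ℓ : ZMod n) • (1 : Matrix (Fin r) (Fin r) (ZMod n)) = 0 := by
  apply matrix_ext_theta hb hL hn E
  intro x
  have key := hES ℓ hℓ hℓN hℓp A hA σ hσ (x : JZero N) (hnp x)
  -- the relation inside `J₀(N)[n]`, with opaque names for the three elements
  obtain ⟨y, hy⟩ : ∃ y : Jtor N n, y = JZero.torsionGaloisRep N n σ x := ⟨_, rfl⟩
  obtain ⟨z, hz⟩ : ∃ z : Jtor N n, z = JZero.torsionGaloisRep N n σ y := ⟨_, rfl⟩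
  obtain ⟨t, ht⟩ : ∃ t : Jtor N n, t = heckeTor n (⟨ℓ, hℓ⟩ : Nat.Primes) y :=
    ⟨_, rfl⟩
  have hyc : (y : JZero N) = σ • (x : JZero N) := by rw [hy]; rfl
  have hzc : (z : JZero N) = σ • σ • (x : JZero N) := by rw [hz, ← hyc]; rfl
  have htc : (t : JZero N) = heckeOperatorBar N ⟨ℓ, hℓ⟩ (σ • (x : JZero N)) := by
    rw [ht, ← hyc]; rfl
  have key' : z - t + ℓ • x = 0 := by
    apply Subtype.ext
    rw [AddSubgroup.coe_zero, AddSubgroup.coe_add, AddSubgroup.coe_sub, AddSubgroup.coe_nsmul,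
      hzc, htc]
    exact key
  have h2 : theta hb hL hn E z - theta hb hL hn E t + ℓ • theta hb hL hn E x = 0 := by
    have h3 := congrArg (theta hb hL hn E) key'
    have h4 : theta hb hL hn E (z - t + ℓ • x) =
        theta hb hL hn E z - theta hb hL hn E t + ℓ • theta hb hL hn E x := by
      rw [AddEquiv.map_add, AddEquiv.map_sub]
      congr 1
      exact map_nsmul (theta hb hL hn E) ℓ x
    rw [h4, AddEquiv.map_zero] at h3
    exact h3
  have e1 : theta hb hL hn E y = (rhoMat hb hL hn E σ).mulVec (theta hb hL hn E x) := by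
    rw [hy]
    exact (rhoMat_mulVec hb hL hn E σ x).symm
  have e2 : theta hb hL hn E z = (rhoMat hb hL hn E σ).mulVec (theta hb hL hn E y) := by
    rw [hz]
    exact (rhoMat_mulVec hb hL hn E σ y).symm
  have e3 : theta hb hL hn E t =
      (Mat.map (Int.cast : ℤ → ZMod n)).mulVec (theta hb hL hn E y) := by
    rw [ht]
    exact theta_heckeTor hb hL hn E hℓ hℓN hHK Mat hMat y
  rw [e2, e3, e1] at h2
  exact mulVec_es _ _ ℓ _ h2

/-! ### inertia -/

theorem rhoMat_unram {p : ℕ} (hnp : ∀ x : Jtor N n, ∃ j : ℕ, p ^ j • (x : JZero N) = 0)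
    (hU : Stmt_TorsUnram N p) {q : ℕ}
    (hq : q.Prime) (hqN : ¬ q ∣ N) (hqp : q ≠ p)
    (P : ValuationSubring (AlgebraicClosure ℚ)) (hP : P.LiesOverPrime q) (σ : GQ)
    (hσ : σ ∈ P.inertiaSubgroupIn ℚ) : rhoMat hb hL hn E σ = 1 := by
  apply rhoMat_eq_one
  intro x
  exact hU q hq hqN hqp P hP σ hσ (x : JZero N) (hnp x)

end PropsP

end Fermat.Agent.GTor.H81

end
end
-- ==== END Fermat.Agent.GTor.H81_T2d

-- ==== BEGIN Fermat.Agent.R.H2_SepS22
section

/-!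
# Cluster R, leaf L3c (helper2): `IsReduced 𝕋 → Stmt_Sep N S p`, with S22 plugged in
-/

set_option autoImplicit false
set_option linter.style.haveILetI false

namespace Fermat.Agent.R.H2

/-- **L3c** with the finiteness of the Hecke algebra (S22) plugged in. -/
theorem stmt_Sep_of_isReduced' (N : ℕ) [NeZero N] (S : Finset ℕ) (p : ℕ) [Fact p.Prime]
    (hred : IsReduced (CuspForm.heckeAlgebra N 2 (↑S : Set ℕ))) :
    Fermat.Agent.R.Stmt_Sep N S p := by
  haveI : Module.Finite ℤ (CuspForm.heckeAlgebra N 2 (↑S : Set ℕ)) :=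
    Fermat.Agent.S22.result N 2 (↑S : Set ℕ)
  exact stmt_Sep_of_isReduced N S p hred

end Fermat.Agent.R.H2

end
-- ==== END Fermat.Agent.R.H2_SepS22

-- ==== BEGIN Fermat.Agent.R.H2_SepT
section

/-!
# Cluster R (helper2): `Stmt_HeckeReduced → Stmt_SepT`

The local Hecke algebra `T` of a Hecke–Galois datum is generated over `𝒪` by the image of the
Hecke algebra `𝕋` (finite over `ℤ` by S22, reduced by `Stmt_HeckeReduced`) and is free over
`𝒪`; hence it is reduced, and every `t ≠ 0` survives in the normalisation of `T ⧸ 𝔮` for some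
minimal prime `𝔮`, which is a complete discrete valuation ring.
-/

set_option autoImplicit false
set_option linter.style.haveILetI false

open IsLocalRing

namespace Fermat.Agent.R.H2

/-- The coefficient ring of a Hecke–Galois datum is reduced, if the Hecke algebra is. -/
theorem isReduced_of_heckeGaloisRepDatum (N : ℕ) [NeZero N] (S : Set ℕ)
    (𝒪 : Type) [CommRing 𝒪] [IsDomain 𝒪] [IsDiscreteValuationRing 𝒪]
    [IsAdicComplete (maximalIdeal 𝒪) 𝒪] [CharZero 𝒪]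
    (θ : CuspForm.heckeAlgebra N 2 S →+* ResidueField 𝒪)
    (T : Type) [CommRing T] [IsLocalRing T] [IsNoetherianRing T]
    [IsAdicComplete (maximalIdeal T) T] [Algebra 𝒪 T] [IsLocalHom (algebraMap 𝒪 T)]
    [Module.Finite 𝒪 T] [Module.Free 𝒪 T]
    (hred : IsReduced (CuspForm.heckeAlgebra N 2 S))
    (H : CuspForm.HeckeGaloisRepDatum N S 𝒪 θ T) : IsReduced T := by
  haveI : Module.Finite ℤ (CuspForm.heckeAlgebra N 2 S) := Fermat.Agent.S22.result N 2 S
  exact isReduced_of_flat_of_adjoin_eq_top (CuspForm.heckeAlgebra N 2 S) 𝒪 T H.π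
    H.adjoin_range_π

/-- **`Stmt_SepT`** from the reducedness of the Hecke algebra (L3a). -/
theorem stmt_SepT (hred : Fermat.Agent.R.Stmt_HeckeReduced) : Fermat.Agent.R.Stmt_SepT := by
  intro N _ S 𝒪 _ _ _ _ _ _ θ T _ _ _ _ _ _ _ _ hNS H t ht
  haveI : IsReduced T :=
    isReduced_of_heckeGaloisRepDatum N (↑S : Set ℕ) 𝒪 θ T (hred N (↑S : Set ℕ) hNS) H
  exact exists_point_ne_zero 𝒪 T t ht

end Fermat.Agent.R.H2

end
-- ==== END Fermat.Agent.R.H2_SepT

-- ==== BEGIN Fermat.Agent.R.H99_EigenChar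
section

/-!
# Cluster R, leaf L5(0): the eigen-character of a normalised eigenform

The prelude's `CuspForm.IsNormalizedEigenform` is a condition on `q`-coefficients only
(`a 1 = 1`, multiplicativity, the two prime-power recursions).  Here we show that such a form
is a simultaneous eigenvector of every Hecke operator `T_ℓ` (`ℓ ∤ N`) and `U_q` (`q ∣ N`), with
eigenvalue its `ℓ`-th (`q`-th) coefficient, and we build the eigen-character

`χ : heckeAlgebra N 2 S →+* integralClosure ℤ ℂ`,  `χ T_ℓ = a_ℓ`, `χ U_q = a_q`.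

Main results (namespace `Fermat.Agent.R.H99`):
* `heckeTLin_apply_eq_smul`, `heckeULin_apply_eq_smul` : the eigenvector property;
* `exists_eigenvalue` : every element of `heckeAlgebra N 2 S` acts on `g` by a scalar;
* `eigenCharC` : the character with values in `ℂ`; `eigenCharC_spec`, `eigenCharC_T`, `eigenCharC_U`;
* `eigenChar` : the character with values in the algebraic integers (integrality from S22);
* `stmt_eigenChar` : the statement `Stmt_EigenChar` asked for by the S29/S42 wiring.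
-/

set_option autoImplicit false

namespace Fermat.Agent.R.H99

open CuspForm CongruenceSubgroup ModularFormClass Fermat.Agent.S49

variable {N : ℕ}

/-- coefficient at `p ^ (r + 1) * m` for `p ∤ N`, `p ∤ m`. -/
theorem qCoeff_rel_of_not_dvd {g : CuspForm (Gamma0 N) 2} (hg : g.IsNormalizedEigenform)
    {ℓ : ℕ} (hℓ : ℓ.Prime) (hℓN : ¬ ℓ ∣ N) (n : ℕ) :
    qCoeff ⇑g (n * ℓ) + (if ℓ ∣ n then (ℓ : ℂ) * qCoeff ⇑g (n / ℓ) else 0)
      = qCoeff ⇑g ℓ * qCoeff ⇑g n := by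
  rcases Nat.eq_zero_or_pos n with hn | hn
  · subst hn
    simp [qCoeff_at_zero]
  obtain ⟨e, m, hm, rfl⟩ := Nat.exists_eq_pow_mul_and_not_dvd hn.ne' ℓ hℓ.ne_one
  have hcop : ∀ k : ℕ, (ℓ ^ k).Coprime m := fun k =>
    Nat.Coprime.pow_left k ((Nat.Prime.coprime_iff_not_dvd hℓ).mpr hm)
  have h1 : ℓ ^ e * m * ℓ = ℓ ^ (e + 1) * m := by ring
  rw [h1, hg.qCoeff_mul_of_coprime _ _ (hcop (e + 1)), hg.qCoeff_mul_of_coprime _ _ (hcop e)]
  rcases Nat.eq_zero_or_pos e with he | he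
  · subst he
    have hnd : ¬ ℓ ∣ ℓ ^ 0 * m := by simpa using hm
    rw [if_neg hnd]
    simp [hg.qCoeff_one]
  · obtain ⟨r, rfl⟩ : ∃ r, e = r + 1 := ⟨e - 1, by omega⟩
    have hd : ℓ ∣ ℓ ^ (r + 1) * m := Dvd.dvd.mul_right (dvd_pow_self ℓ (by omega)) m
    rw [if_pos hd]
    have h2 : ℓ ^ (r + 1) * m / ℓ = ℓ ^ r * m := by
      rw [pow_succ, mul_comm (ℓ ^ r) ℓ, mul_assoc, Nat.mul_div_cancel_left _ hℓ.pos]
    rw [h2, hg.qCoeff_mul_of_coprime _ _ (hcop r), hg.qCoeff_prime_pow_of_not_dvd ℓ r hℓ hℓN]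
    ring

theorem qCoeff_rel_of_dvd {g : CuspForm (Gamma0 N) 2} (hg : g.IsNormalizedEigenform)
    {q : ℕ} (hq : q.Prime) (hqN : q ∣ N) (n : ℕ) :
    qCoeff ⇑g (n * q) = qCoeff ⇑g q * qCoeff ⇑g n := by
  rcases Nat.eq_zero_or_pos n with hn | hn
  · subst hn
    simp [qCoeff_at_zero]
  obtain ⟨e, m, hm, rfl⟩ := Nat.exists_eq_pow_mul_and_not_dvd hn.ne' q hq.ne_one
  have hcop : ∀ k : ℕ, (q ^ k).Coprime m := fun k =>
    Nat.Coprime.pow_left k ((Nat.Prime.coprime_iff_not_dvd hq).mpr hm)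
  have h1 : q ^ e * m * q = q ^ (e + 1) * m := by ring
  rw [h1, hg.qCoeff_mul_of_coprime _ _ (hcop (e + 1)), hg.qCoeff_mul_of_coprime _ _ (hcop e)]
  rcases Nat.eq_zero_or_pos e with he | he
  · subst he
    simp [hg.qCoeff_one]
  · obtain ⟨r, rfl⟩ : ∃ r, e = r + 1 := ⟨e - 1, by omega⟩
    rw [hg.qCoeff_prime_pow_of_dvd q r hq hqN]
    ring

/-- A normalised eigenform is an eigenvector of `T_ℓ`, `ℓ ∤ N`, with eigenvalue `a_ℓ`. -/
theorem heckeTLin_apply_eq_smul {g : CuspForm (Gamma0 N) 2} (hg : g.IsNormalizedEigenform)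
    {ℓ : ℕ} (hℓ : ℓ.Prime) (hℓN : ¬ ℓ ∣ N) :
    CuspForm.heckeTLin 2 hℓ hℓN g = qCoeff ⇑g ℓ • g := by
  apply cuspForm_ext_qCoeff
  intro n
  rw [qCoeff_heckeTLin, qCoeff_smul, ← qCoeff_rel_of_not_dvd hg hℓ hℓN n]
  norm_num

/-- A normalised eigenform is an eigenvector of `U_q`, `q ∣ N`, with eigenvalue `a_q`. -/
theorem heckeULin_apply_eq_smul [NeZero N] {g : CuspForm (Gamma0 N) 2}
    (hg : g.IsNormalizedEigenform) {q : ℕ} (hq : q.Prime) (hqN : q ∣ N) :
    CuspForm.heckeULin 2 hqN g = qCoeff ⇑g q • g := by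
  apply cuspForm_ext_qCoeff
  intro n
  rw [qCoeff_heckeULin hq.ne_zero, qCoeff_smul, qCoeff_rel_of_dvd hg hq hqN n]

variable [NeZero N]

/-- Every element of the Hecke algebra acts on a normalised eigenform by a scalar. -/
theorem exists_eigenvalue (S : Set ℕ) {g : CuspForm (Gamma0 N) 2} (hg : g.IsNormalizedEigenform)
    (T : heckeAlgebra N 2 S) :
    ∃ c : ℂ, (T : Module.End ℂ (CuspForm (Gamma0 N) 2)) g = c • g := by
  obtain ⟨T, hT⟩ := T
  show ∃ c : ℂ, T g = c • g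
  induction hT using Algebra.adjoin_induction with
  | mem x hx =>
    rcases hx with ⟨ℓ, hℓ, hℓN, -, rfl⟩ | ⟨q, hqN, hq, -, rfl⟩
    · exact ⟨_, heckeTLin_apply_eq_smul hg hℓ hℓN⟩
    · exact ⟨_, heckeULin_apply_eq_smul hg hq hqN⟩
  | algebraMap r =>
    refine ⟨(r : ℂ), ?_⟩
    rw [Algebra.algebraMap_eq_smul_one, LinearMap.smul_apply, Module.End.one_apply]
    exact (Int.cast_smul_eq_zsmul ℂ r g).symm
  | add x y _ _ hx hy =>
    obtain ⟨c, hc⟩ := hx
    obtain ⟨d, hd⟩ := hy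
    exact ⟨c + d, by rw [LinearMap.add_apply, hc, hd, add_smul]⟩
  | mul x y _ _ hx hy =>
    obtain ⟨c, hc⟩ := hx
    obtain ⟨d, hd⟩ := hy
    exact ⟨d * c, by rw [Module.End.mul_apply, hd, map_smul, hc, smul_smul]⟩

/-- The eigenvalue of `T` on the normalised eigenform `g`. -/
noncomputable def eigenvalue (S : Set ℕ) {g : CuspForm (Gamma0 N) 2}
    (hg : g.IsNormalizedEigenform) (T : heckeAlgebra N 2 S) : ℂ :=
  (exists_eigenvalue S hg T).choose

theorem eigenvalue_spec (S : Set ℕ) {g : CuspForm (Gamma0 N) 2}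
    (hg : g.IsNormalizedEigenform) (T : heckeAlgebra N 2 S) :
    (T : Module.End ℂ (CuspForm (Gamma0 N) 2)) g = eigenvalue S hg T • g :=
  (exists_eigenvalue S hg T).choose_spec

theorem eigenvalue_unique (S : Set ℕ) {g : CuspForm (Gamma0 N) 2}
    (hg : g.IsNormalizedEigenform) (T : heckeAlgebra N 2 S) {c : ℂ}
    (h : (T : Module.End ℂ (CuspForm (Gamma0 N) 2)) g = c • g) : eigenvalue S hg T = c := by
  have h0 : g ≠ 0 := by
    rintro rfl
    have h1 := hg.qCoeff_one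
    rw [qCoeff_zero_form] at h1
    exact zero_ne_one h1
  have := (eigenvalue_spec S hg T).symm.trans h
  exact smul_left_injective ℂ h0 this

/-- The eigen-character of a normalised eigenform, with values in `ℂ`. -/
noncomputable def eigenCharC (S : Set ℕ) {g : CuspForm (Gamma0 N) 2}
    (hg : g.IsNormalizedEigenform) : heckeAlgebra N 2 S →+* ℂ where
  toFun := eigenvalue S hg
  map_one' := eigenvalue_unique S hg 1 (by simp)
  map_mul' x y := eigenvalue_unique S hg (x * y) (by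
    rw [MulMemClass.coe_mul, Module.End.mul_apply, eigenvalue_spec S hg y, map_smul,
      eigenvalue_spec S hg x, smul_smul, mul_comm])
  map_zero' := eigenvalue_unique S hg 0 (by simp)
  map_add' x y := eigenvalue_unique S hg (x + y) (by
    rw [AddMemClass.coe_add, LinearMap.add_apply, eigenvalue_spec S hg x, eigenvalue_spec S hg y,
      add_smul])

theorem eigenCharC_spec (S : Set ℕ) {g : CuspForm (Gamma0 N) 2}
    (hg : g.IsNormalizedEigenform) (T : heckeAlgebra N 2 S) :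
    (T : Module.End ℂ (CuspForm (Gamma0 N) 2)) g = eigenCharC S hg T • g :=
  eigenvalue_spec S hg T

theorem eigenCharC_T (S : Set ℕ) {g : CuspForm (Gamma0 N) 2}
    (hg : g.IsNormalizedEigenform) {ℓ : ℕ} (hℓ : ℓ.Prime) (hℓN : ¬ ℓ ∣ N) (hℓS : ℓ ∉ S) :
    eigenCharC S hg (heckeAlgebra.T hℓ hℓN hℓS) = qCoeff ⇑g ℓ :=
  eigenvalue_unique S hg _ (by rw [heckeAlgebra.coe_T]; exact heckeTLin_apply_eq_smul hg hℓ hℓN)

theorem eigenCharC_U (S : Set ℕ) {g : CuspForm (Gamma0 N) 2}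
    (hg : g.IsNormalizedEigenform) {q : ℕ} (hq : q.Prime) (hqN : q ∣ N) (hqS : q ∉ S) :
    eigenCharC S hg (heckeAlgebra.U hq hqN hqS) = qCoeff ⇑g q :=
  eigenvalue_unique S hg _ (by rw [heckeAlgebra.coe_U]; exact heckeULin_apply_eq_smul hg hq hqN)

/-- The values of the eigen-character are algebraic integers (S22). -/
theorem eigenCharC_mem_integralClosure (S : Set ℕ) {g : CuspForm (Gamma0 N) 2}
    (hg : g.IsNormalizedEigenform) (T : heckeAlgebra N 2 S) :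
    eigenCharC S hg T ∈ integralClosure ℤ ℂ := by
  have : Module.Finite ℤ (heckeAlgebra N 2 S) := Fermat.Agent.S22.result N 2 S
  have hT : IsIntegral ℤ T := Algebra.IsIntegral.isIntegral T
  exact hT.map (eigenCharC S hg).toIntAlgHom

/-- The eigen-character of a normalised eigenform, with values in the algebraic integers. -/
noncomputable def eigenChar (S : Set ℕ) {g : CuspForm (Gamma0 N) 2}
    (hg : g.IsNormalizedEigenform) : heckeAlgebra N 2 S →+* integralClosure ℤ ℂ :=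
  ((eigenCharC S hg).toIntAlgHom.codRestrict (integralClosure ℤ ℂ)
    (eigenCharC_mem_integralClosure S hg)).toRingHom

@[simp] theorem coe_eigenChar (S : Set ℕ) {g : CuspForm (Gamma0 N) 2}
    (hg : g.IsNormalizedEigenform) (T : heckeAlgebra N 2 S) :
    ((eigenChar S hg T : integralClosure ℤ ℂ) : ℂ) = eigenCharC S hg T := rfl

/-- **L5(0)**, in the exact shape of `Fermat.Agent.R.Stmt_EigenChar`. -/
theorem stmt_eigenChar :
    ∀ (N : ℕ) [NeZero N] (S : Set ℕ) (g : CuspForm (CongruenceSubgroup.Gamma0 N) 2),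
      g.IsNormalizedEigenform →
      ∃ χ : CuspForm.heckeAlgebra N 2 S →+* integralClosure ℤ ℂ,
        ∀ (ℓ : ℕ) (hℓ : ℓ.Prime) (hℓN : ¬ ℓ ∣ N) (hℓS : ℓ ∉ S),
          ((χ (CuspForm.heckeAlgebra.T hℓ hℓN hℓS) : integralClosure ℤ ℂ) : ℂ)
            = ModularFormClass.qCoeff g ℓ := by
  intro N _ S g hg
  exact ⟨eigenChar S hg, fun ℓ hℓ hℓN hℓS => eigenCharC_T S hg hℓ hℓN hℓS⟩

/-- The same with the values at the `U_q` and the eigenvector property recorded. -/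
theorem stmt_eigenChar_full (N : ℕ) [NeZero N] (S : Set ℕ)
    (g : CuspForm (CongruenceSubgroup.Gamma0 N) 2) (hg : g.IsNormalizedEigenform) :
    ∃ χ : CuspForm.heckeAlgebra N 2 S →+* integralClosure ℤ ℂ,
      (∀ (ℓ : ℕ) (hℓ : ℓ.Prime) (hℓN : ¬ ℓ ∣ N) (hℓS : ℓ ∉ S),
          ((χ (CuspForm.heckeAlgebra.T hℓ hℓN hℓS) : integralClosure ℤ ℂ) : ℂ)
            = ModularFormClass.qCoeff g ℓ) ∧
      (∀ (q : ℕ) (hq : q.Prime) (hqN : q ∣ N) (hqS : q ∉ S),
          ((χ (CuspForm.heckeAlgebra.U hq hqN hqS) : integralClosure ℤ ℂ) : ℂ)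
            = ModularFormClass.qCoeff g q) ∧
      ∀ T : CuspForm.heckeAlgebra N 2 S,
        (T : Module.End ℂ (CuspForm (CongruenceSubgroup.Gamma0 N) 2)) g
          = ((χ T : integralClosure ℤ ℂ) : ℂ) • g :=
  ⟨eigenChar S hg, fun _ hℓ hℓN hℓS => eigenCharC_T S hg hℓ hℓN hℓS,
    fun _ hq hqN hqS => eigenCharC_U S hg hq hqN hqS, fun T => eigenCharC_spec S hg T⟩

end Fermat.Agent.R.H99

end
-- ==== END Fermat.Agent.R.H99_EigenChar
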