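-- GENERATED (merged mirror, NOTES/tools/trim/merge3_helper67.py): 7 modules of the originals, bodies verbatim.
import Fermat.Statements.S21
import Fermat.Statements.S23
import Fermat.Prelude.Def_ModularCurve_X0ModL
import Mathlib
import Fermat.Prelude.Def_GaloisRep_Residual
import Fermat.Prelude.Def_GaloisRep_Adic
import Fermat.Agent.Zm.S35_L07_003
import Fermat.Agent.Zm.S35_L04_004
import Fermat.Agent.Zm.S35_L05_004
import Fermat.Agent.S23.H96_DhatNeZero
import Fermat.Agent.Zm.S35_L01_001
import Fermat.Agent.Zm.S35_L02_001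
import Fermat.Agent.Zm.S35_L03_001
import Fermat.Agent.Zm.S35_L07_001
import Fermat.Agent.Zm.S35_L01_005
import Fermat.Agent.R.H91_Lucas

-- ==== BEGIN Fermat.Agent.RED.H76_RHGenus
section

/-!
# RH-R (helper76), part I f: the reduced basis and the genus

`exists_redBasis` : for a non-constant `x` with pole divisor `P` there is a reduced basis
`ω_1, …, ω_r` with degrees `d_i` of the functions regular outside the poles of `x`, with
`r = deg P` and `∑ d_i = g + r - 1`, `g` the genus in Riemann's theorem.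
-/

set_option autoImplicit false

noncomputable section

open AlgebraicCurve WithZero Polynomial

namespace Fermat.Agent.RED.H76

open Fermat.Agent.RED.H42

variable {K F : Type*} [Field K] [Field F] [Algebra K F]
variable {P : Divisor K F} {x : F}

local notation "L" => riemannRochSpace

/-- A minimal family exists. -/
theorem exists_minFam (H : Hyp K F) (hP : IsPoleDiv P x) :
    ∃ (r : ℕ) (ω : Fin r → F) (d : Fin r → ℕ), MinFam P x r ω d := by
  classical
  set n := (Divisor.degree P).toNat with hn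
  let Q : ℕ → Prop := fun r => ∃ (ω : Fin r → F) (d : Fin r → ℕ), Fam P x r ω d
  have hQ0 : Q 0 :=
    ⟨Fin.elim0, Fin.elim0, ⟨fun i => i.elim0, fun p _ => funext fun i => i.elim0⟩⟩
  have hQle : ∀ r, Q r → r ≤ n := by
    rintro r ⟨ω, d, h⟩
    have := h.card_le H hP
    omega
  set r := Nat.findGreatest Q n with hr
  have hQr : Q r := Nat.findGreatest_spec (Nat.zero_le n) hQ0
  have hmax : ∀ r', r < r' → ¬ Q r' := fun r' hr' hQ' =>
    Nat.findGreatest_is_greatest hr' (hQle r' hQ') hQ'
  let W : ℕ → Prop := fun s => ∃ (ω : Fin r → F) (d : Fin r → ℕ), Fam P x r ω d ∧ ∑ i, d i = s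
  have hW : ∃ s, W s := by
    obtain ⟨ω, d, h⟩ := hQr
    exact ⟨_, ω, d, h, rfl⟩
  obtain ⟨ω, d, hF, hs⟩ := Nat.find_spec hW
  refine ⟨r, ω, d, ⟨hF, ?_, ?_⟩⟩
  · intro ω' d' hF'
    rw [hs]
    exact Nat.find_min' hW ⟨ω', d', hF', rfl⟩
  · intro ω' d' hF'
    exact hmax (r + 1) (Nat.lt_succ_self r) ⟨ω', d', hF'⟩

/-- `x` has a pole, so `deg P ≥ 1`. -/
theorem one_le_degree (H : Hyp K F) (hP : IsPoleDiv P x) (hx : Transcendental K x) :
    1 ≤ Divisor.degree P := by
  have hxr : x ∉ Set.range (algebraMap K F) := by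
    rintro ⟨a, rfl⟩
    exact hx (isAlgebraic_algebraMap a)
  obtain ⟨v, hv⟩ := H.exists_pole x hxr
  have h1 : ¬ v.adicValuation x ≤ 1 := v.not_adicValuation_le_one_iff.mpr hv
  have h2 : 1 ≤ P v := by
    have h3 := hP v
    rw [max_eq_right (le_of_not_ge h1)] at h3
    have h4 : exp (0 : ℤ) < exp (P v) := by
      rw [h3, exp_zero]; exact lt_of_not_ge h1
    have := exp_lt_exp.mp h4
    omega
  have h5 : (Finsupp.single v 1 : Divisor K F) ≤ P := by
    rw [Finsupp.le_def]
    intro w
    by_cases hw : w = v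
    · subst hw; rw [Finsupp.single_eq_same]; exact h2
    · rw [Finsupp.single_eq_of_ne hw]; exact hP.nonneg w
  have h6 := degree_mono h5
  rw [Divisor.degree_single, H.deg_one v] at h6
  simpa using h6

/-- `L(-P) = 0`. -/
theorem inL_neg_one_eq_zero (H : Hyp K F) (hP : IsPoleDiv P x) (hx : Transcendental K x)
    (f : F) (hf : InL P (-1) f) : f = 0 := by
  have h1 : f ∈ L ((-1 : ℤ) • P) := inL_iff_mem.mp hf
  have hdeg : Divisor.degree ((-1 : ℤ) • P) < 0 := by
    rw [map_zsmul]
    have := one_le_degree H hP hx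
    simp only [smul_eq_mul]
    omega
  rw [L_eq_bot_of_degree_neg H hdeg] at h1
  exact (Submodule.mem_bot K).mp h1

/-- The dimension count. -/
theorem MinFam.finrank_eq [IsAlgClosed K] (H : Hyp K F) (hP : IsPoleDiv P x)
    (hx : Transcendental K x) {r : ℕ} {ω : Fin r → F} {d : Fin r → ℕ} (h : MinFam P x r ω d)
    (m : ℕ) (hm : ∀ i, d i ≤ m) :
    Module.finrank K (L (m • P)) = ∑ i, (m - d i + 1) := by
  classical
  have hneg := inL_neg_one_eq_zero H hP hx
  have hfin := finite_L H (m • P)
  let Φ : ((i : Fin r) → degreeLT K (m - d i + 1)) →ₗ[K] L (m • P) :=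
    (combLin x ω (fun i => m - d i)).codRestrict (L (m • P))
      (h.toFam.combLin_mem hP _ m (fun i => by have := hm i; omega))
  have hΦi : Function.Injective Φ := fun p p' hpp' =>
    h.toFam.combLin_injective _ (congrArg Subtype.val hpp')
  have hΦs : Function.Surjective Φ := by
    rintro ⟨f, hf⟩
    have hfL : InL P m f := inL_iff_mem_nat.mpr hf
    obtain ⟨p, hp⟩ := h.span hP hx hneg f ⟨m, hfL⟩
    have hdeg : ∀ i, (p i).natDegree ≤ m - d i := by
      intro i
      by_cases hi : p i = 0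
      · rw [hi]; simp
      · have := h.reduced hP hneg p m (by rw [← hp]; exact hfL) i hi
        omega
    refine ⟨fun i => ⟨p i, mem_degreeLT_of_natDegree_le (hdeg i)⟩, ?_⟩
    apply Subtype.ext
    show combLin x ω _ _ = f
    rw [combLin_apply, hp]
  have e := (LinearEquiv.ofBijective Φ ⟨hΦi, hΦs⟩).finrank_eq
  rw [← e, finrank_pi_degreeLT]

/-- The number of elements and the weight of a minimal family. -/
theorem MinFam.genus [IsAlgClosed K] (H : Hyp K F) (hP : IsPoleDiv P x)
    (hx : Transcendental K x) {r : ℕ} {ω : Fin r → F} {d : Fin r → ℕ} (h : MinFam P x r ω d)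
    (g : ℕ) (c : ℤ)
    (hG : ∀ D : Divisor K F, c ≤ Divisor.degree D →
      (Module.finrank K (L D) : ℤ) = Divisor.degree D + 1 - g) :
    (r : ℤ) = Divisor.degree P ∧ ∑ i, (d i : ℤ) = g + r - 1 := by
  classical
  set n := Divisor.degree P with hn
  have hn1 : 1 ≤ n := one_le_degree H hP hx
  set m : ℕ := ∑ i, d i + c.toNat with hm
  have hdm : ∀ i, d i ≤ m := fun i => by
    have := Finset.single_le_sum (f := d) (fun _ _ => Nat.zero_le _) (Finset.mem_univ i)
    omega
  have hcm : c ≤ (m : ℤ) := by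
    have := Int.self_le_toNat c
    omega
  have key : ∀ m' : ℕ, m ≤ m' →
      ((r : ℤ) * (m' + 1) - ∑ i, (d i : ℤ)) = m' * n + 1 - g := by
    intro m' hm'
    have h1 := h.finrank_eq H hP hx m' (fun i => (hdm i).trans hm')
    have h2 := hG (m' • P) (by
      rw [degree_nsmul]
      have : (m : ℤ) ≤ m' := by exact_mod_cast hm'
      nlinarith)
    rw [degree_nsmul, h1] at h2
    rw [← h2]
    push_cast
    rw [Finset.sum_congr rfl (fun i _ => by
      rw [Nat.cast_sub ((hdm i).trans hm')]; ring : ∀ i ∈ Finset.univ,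
        (((m' - d i : ℕ) : ℤ) + 1) = ((m' : ℤ) + 1) - (d i : ℤ))]
    rw [Finset.sum_sub_distrib, Finset.sum_const, Finset.card_univ, Fintype.card_fin]
    simp only [nsmul_eq_mul]
  have e1 := key m le_rfl
  have e2 := key (m + 1) (Nat.le_succ m)
  push_cast at e2
  have hr : (r : ℤ) = n := by linarith
  refine ⟨hr, ?_⟩
  rw [hr] at e1 ⊢
  linarith

/-- **The reduced basis.** -/
theorem exists_redBasis [IsAlgClosed K] (H : Hyp K F) (hP : IsPoleDiv P x)
    (hx : Transcendental K x) (g : ℕ) (c : ℤ)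
    (hG : ∀ D : Divisor K F, c ≤ Divisor.degree D →
      (Module.finrank K (L D) : ℤ) = Divisor.degree D + 1 - g) :
    ∃ (r : ℕ) (ω : Fin r → F) (d : Fin r → ℕ),
      (∀ i, InL P (d i) (ω i)) ∧
      (∀ p : Fin r → K[X], comb x p ω = 0 → p = 0) ∧
      (∀ f : F, Reg P f → ∃ p : Fin r → K[X], f = comb x p ω) ∧
      (∀ (p : Fin r → K[X]) (m : ℤ), InL P m (comb x p ω) →
        ∀ i, p i ≠ 0 → ((p i).natDegree : ℤ) + d i ≤ m) ∧
      (r : ℤ) = Divisor.degree P ∧ ∑ i, (d i : ℤ) = g + r - 1 := by
  obtain ⟨r, ω, d, h⟩ := exists_minFam (x := x) H hP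
  have hneg := inL_neg_one_eq_zero H hP hx
  obtain ⟨h1, h2⟩ := h.genus H hP hx g c hG
  exact ⟨r, ω, d, h.mem, h.indep, fun f hf => h.span hP hx hneg f hf,
    fun p m hm i hi => h.reduced hP hneg p m hm i hi, h1, h2⟩

end Fermat.Agent.RED.H76

end
end
-- ==== END Fermat.Agent.RED.H76_RHGenus

-- ==== BEGIN Fermat.Agent.S21
section

/-!
# S21: the Eichler–Shimura period map is injective with image the parabolic homomorphisms

Assembly (helper20) of the S21 team's packages:
* part A (existence of equivariant primitives, helper20), part B (linearity, helper20),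
* part C (periods are parabolic, helper86),
* part D (injectivity: maximum modulus core by helper78, glue by helper20),
* part E1 (`dim Hom_par ≤ 2g`: cocycle bound by helper75/helper69, coset combinatorics G1–G4
  by helper19, helper54, helper38, helper40),
* the dimension formula S20 (helper74 and the S20 team).
-/

set_option autoImplicit false
open ModularCurve

namespace Fermat.Agent.S21

theorem result (N : ℕ) [NeZero N] :
    Function.Injective (ModularCurve.periodHomPair N)
      ∧ LinearMap.range (ModularCurve.periodHomPair N)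
          = ModularCurve.Period.parabolicHoms ℂ (CongruenceSubgroup.Gamma0 N) ℂ :=
  result_of_dimension_count N (partE1 N) (Fermat.Agent.S20.result N)

end Fermat.Agent.S21

end
-- ==== END Fermat.Agent.S21

-- ==== BEGIN Fermat.Agent.S23
section

set_option autoImplicit false
open CuspForm

namespace Fermat.Agent.S23

theorem result (N : ℕ) [NeZero N] : CuspForm.HasIntegralStructure N 2 :=
  H77.hasIntegralStructure_of_GS N
    (H22.galois_stable_qCoeff_of_Dhat N (H96.Dhat_ne_zero N))

end Fermat.Agent.S23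

end
-- ==== END Fermat.Agent.S23

-- ==== BEGIN Fermat.Agent.S24.Asm.One
section
attribute [local instance 10000] SubalgebraClass.toAlgebra
attribute [local instance 10000] HahnSeries.powerSeriesAlgebra

/-!
# S24 assembly (WP ASM-One): the case `N = 1`

`F_1 = Q̄(j)`: `x = jF N` is transcendental (a Laurent series with a simple pole) and generates
`F_1` (`modularFunctionFieldFull 1 = ℚ(jq)`, so `laurentBaseChange` is `Q̄(jBar)`), hence
`[F_1 : Q̄(x)] = 1`. By FF1b (`hzeros`) applied to `x - a` and to `x⁻¹` (both generate the same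
field), `x - a` has exactly one zero and `x` has exactly one pole. Then `asm_genus_eq` with
`S = ∅` gives genus `((0 - 1 - 1) + 2).toNat / 2 = 0 = genusFormula 1`.

WP ASM-One (helper59): all statements of this file are proved.
-/

set_option autoImplicit false

noncomputable section

namespace Fermat.Agent.S24

open ModularCurve AlgebraicCurve IntermediateField

theorem asm_nuTwo_one : nuTwo 1 = 1 := by
  unfold nuTwo
  rw [Nat.card_eq_one_iff_unique]
  exact ⟨⟨fun a b => Subtype.ext (Subsingleton.elim (α := ZMod 1) _ _)⟩,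
    ⟨⟨0, Subsingleton.elim (α := ZMod 1) _ _⟩⟩⟩

theorem asm_nuThree_one : nuThree 1 = 1 := by
  unfold nuThree
  rw [Nat.card_eq_one_iff_unique]
  exact ⟨⟨fun a b => Subtype.ext (Subsingleton.elim (α := ZMod 1) _ _)⟩,
    ⟨⟨0, Subsingleton.elim (α := ZMod 1) _ _⟩⟩⟩

theorem asm_genusFormula_one : genusFormula 1 = 0 := by
  unfold genusFormula
  rw [dedekindPsi_one, asm_nuTwo_one, asm_nuThree_one, cuspCount_one]
  norm_num

theorem asm_jBar_coeff_neg_one : (jBar : LaurentSeries Kbar).coeff (-1 : ℤ) = 1 := by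
  rw [jBar, coeffEmb_coeff, coeff_jq_neg_one, map_one]

theorem asm_one_transcendental (N : ℕ) [NeZero N] : Transcendental Kbar (jF N) := by
  intro halg
  have hint : IsIntegral Kbar (jF N) := halg.isIntegral
  have hdeg1 : (minpoly Kbar (jF N)).degree = 1 :=
    IsAlgClosed.degree_eq_one_of_irreducible Kbar (minpoly.irreducible hint)
  obtain ⟨c, hc⟩ := minpoly.mem_range_of_degree_eq_one Kbar (jF N) hdeg1
  have h1 : algebraMap Kbar (LaurentSeries Kbar) c = jBar := congrArg Subtype.val hc
  have h2 := congrArg (fun f : LaurentSeries Kbar => f.coeff (-1 : ℤ)) h1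
  simp only [asm_jBar_coeff_neg_one, algebraMap_laurentSeries_eq_single] at h2
  rw [HahnSeries.coeff_single_of_ne (by norm_num)] at h2
  exact zero_ne_one h2

/-- `coeffEmb` maps `ℚ(jq)` into `Q̄(jBar)`. -/
theorem asm_coeffEmb_mem_adjoin_jBar {x : LaurentSeries ℚ} (hx : x ∈ ℚ⟮jq⟯) :
    coeffEmb Kbar x ∈ Kbar⟮jBar⟯ := by
  induction hx using IntermediateField.adjoin_induction with
  | mem y hy =>
    rw [Set.mem_singleton_iff.mp hy]
    exact mem_adjoin_simple_self Kbar jBar
  | algebraMap r =>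
    have : coeffEmb Kbar (algebraMap ℚ (LaurentSeries ℚ) r)
        = algebraMap Kbar (LaurentSeries Kbar) (algebraMap ℚ Kbar r) := by
      rw [coeffEmb, algebraMap_laurentSeries_eq_single, algebraMap_laurentSeries_eq_single,
        coeffMap_single]
    rw [this]
    exact (Kbar⟮jBar⟯).algebraMap_mem _
  | add y z _ _ hy hz => rw [map_add]; exact add_mem hy hz
  | mul y z _ _ hy hz => rw [map_mul]; exact mul_mem hy hz
  | inv y _ hy => rw [map_inv₀]; exact inv_mem hy

theorem asm_full_one : modularFunctionFieldFull 1 = ℚ⟮jq⟯ := by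
  rw [modularFunctionFieldFull]
  congr 1
  ext x
  constructor
  · rintro ⟨d, hd, hdvd, rfl⟩
    have : d = 1 := Nat.dvd_one.mp hdvd
    subst this
    rw [qExpand_one_apply]
    exact Set.mem_singleton _
  · intro hx
    rw [Set.mem_singleton_iff.mp hx]
    exact ⟨1, inferInstance, dvd_rfl, (qExpand_one_apply jq).symm⟩

theorem asm_bar_one_le : modularFunctionFieldBar 1 ≤ Kbar⟮jBar⟯ := by
  rw [modularFunctionFieldBar, laurentBaseChange, adjoin_le_iff]
  rintro _ ⟨x, hx, rfl⟩
  rw [SetLike.mem_coe, asm_full_one] at hx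
  exact asm_coeffEmb_mem_adjoin_jBar hx

theorem asm_one_adjoin (N : ℕ) [NeZero N] (hN : N = 1) : Kbar⟮jF N⟯ = ⊤ := by
  subst hN
  rw [eq_top_iff]
  intro z _
  have hz : (z : LaurentSeries Kbar) ∈ Kbar⟮jBar⟯ := asm_bar_one_le z.2
  have hmap : (Kbar⟮jF 1⟯).map (modularFunctionFieldBar 1).val = Kbar⟮jBar⟯ := by
    rw [adjoin_map, Set.image_singleton]
    rfl
  rw [← hmap] at hz
  obtain ⟨y, hy, hyz⟩ := hz
  have : y = z := Subtype.ext hyz
  rwa [← this]

/-- If `y` generates `F` over `K`, then `y` has exactly one zero. -/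
theorem asm_card_zeros_eq_one {K F : Type*} [Field K] [Field F] [Algebra K F]
    (hzeros : H59.ZerosStmt K F) (y : F) (hy : Transcendental K y) (htop : K⟮y⟯ = ⊤) :
    Nat.card {v : Place K F // 0 < v.ord y} = 1 := by
  classical
  have hfd : FiniteDimensional K⟮y⟯ F := by
    apply FiniteDimensional.of_finrank_pos
    rw [htop, IntermediateField.finrank_top]
    exact one_pos
  obtain ⟨hfin, hsum⟩ := hzeros y hy
  have h1 : Module.finrank K⟮y⟯ F = 1 := by rw [htop, IntermediateField.finrank_top]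
  rw [h1, finsum_mem_eq_finite_toFinset_sum _ hfin, Nat.cast_one] at hsum
  have hcard : (hfin.toFinset.card : ℤ) ≤ 1 := by
    have : ∑ _v ∈ hfin.toFinset, (1 : ℤ) ≤ ∑ v ∈ hfin.toFinset, v.ord y := by
      refine Finset.sum_le_sum fun v hv => ?_
      have : 0 < v.ord y := by simpa using hv
      omega
    rw [Finset.sum_const, nsmul_eq_mul, mul_one, hsum] at this
    exact_mod_cast this
  have hne : hfin.toFinset.Nonempty := by
    rw [Finset.nonempty_iff_ne_empty]
    intro h
    rw [h, Finset.sum_empty] at hsum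
    exact zero_ne_one hsum
  have hc : hfin.toFinset.card = 1 := by
    have := Finset.card_pos.mpr hne
    omega
  rw [← hc]
  show Nat.card ↥{v : Place K F | 0 < v.ord y} = _
  rw [Nat.card_coe_set_eq, Set.ncard_eq_toFinset_card _ hfin]

/-- The genus of `F_1`. -/
theorem asm_genus_one (N : ℕ) [NeZero N] (hN : N = 1)
    [HasCanonicalDivisor (K := Kbar) (F := FN N)]
    (hzeros : H59.ZerosStmt Kbar (FN N)) :
    (AlgebraicCurve.genus Kbar (FN N) : ℚ) = genusFormula N := by
  have hx := asm_one_transcendental N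
  have htop := asm_one_adjoin N hN
  have hfd : FiniteDimensional Kbar⟮jF N⟯ (FN N) := by
    apply FiniteDimensional.of_finrank_pos
    rw [htop, IntermediateField.finrank_top]
    exact one_pos
  have h1 : Module.finrank Kbar⟮jF N⟯ (FN N) = 1 := by rw [htop, IntermediateField.finrank_top]
  -- zeros of `x - a`
  have hzero : ∀ a : Kbar,
      Nat.card {v : Place Kbar (FN N) // 0 < v.ord (jF N - algebraMap Kbar (FN N) a)} = 1 := by
    intro a
    have htr : Transcendental Kbar (jF N - algebraMap Kbar (FN N) a) := by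
      intro h
      apply hx
      have := h.add (isAlgebraic_algebraMap (R := Kbar) (A := FN N) a)
      rwa [sub_add_cancel] at this
    have htop' : Kbar⟮jF N - algebraMap Kbar (FN N) a⟯ = ⊤ := by
      rw [eq_top_iff, ← htop, adjoin_simple_le_iff]
      have h1 : jF N - algebraMap Kbar (FN N) a ∈ Kbar⟮jF N - algebraMap Kbar (FN N) a⟯ :=
        mem_adjoin_simple_self _ _
      have := add_mem h1 ((Kbar⟮jF N - algebraMap Kbar (FN N) a⟯).algebraMap_mem a)
      rwa [sub_add_cancel] at this
    exact asm_card_zeros_eq_one hzeros _ htr htop'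
  -- poles of `x`
  have hpole : Nat.card {v : Place Kbar (FN N) // v.ord (jF N) < 0} = 1 := by
    have htr : Transcendental Kbar (jF N)⁻¹ := fun h => hx (IsAlgebraic.inv_iff.mp h)
    have htop' : Kbar⟮(jF N)⁻¹⟯ = ⊤ := by rw [H59.adjoin_inv_eq, htop]
    have := asm_card_zeros_eq_one hzeros _ htr htop'
    rw [← this]
    refine Nat.card_congr (Equiv.subtypeEquivRight fun v => ?_)
    rw [Place.ord_inv]
    omega
  have key := asm_genus_eq hzeros (jF N) hx ∅ (fun _ => 0) (by simp)
    (fun a _ => by rw [h1]; exact hzero a) 1 hpole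
  rw [key, h1, hN, asm_genusFormula_one]
  simp

end Fermat.Agent.S24

end
end
-- ==== END Fermat.Agent.S24.Asm.One

-- ==== BEGIN Fermat.Agent.S24.Closure.Phi
section
attribute [local instance 10000] SubalgebraClass.toAlgebra
attribute [local instance 10000] HahnSeries.powerSeriesAlgebra

/-!
# S24 construction, layer 5 (WP CLO-Phi): the embedding `F_N → Frac (Atil N)`

`phi N : F_N →ₐ[Q̄] LN N` is characterised by `UL (phi x) = x (u ^ N)`, where
`UL : LN N → Q̄((u))` is the expansion at `∞`.

WP CLO-Phi (helper89): all statements proved, signatures as in the skeleton.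
-/

set_option autoImplicit false

noncomputable section

namespace Fermat.Agent.S24

open ModularCurve UpperHalfPlane
open scoped MatrixGroups Manifold

/-- `uExp` on `AT N`. -/
def uExpT (N : ℕ) [NeZero N] : AT N →ₐ[Kbar] LaurentSeries Kbar :=
  (uExp N).comp (toAT N).symm.toAlgHom

theorem uExpT_injective (N : ℕ) [NeZero N] : Function.Injective (uExpT N) :=
  (uExp_injective N).comp (toAT N).symm.injective

/-- The expansion at `∞` on the fraction field. -/
def UL (N : ℕ) [NeZero N] : LN N →ₐ[Kbar] LaurentSeries Kbar :=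
  IsFractionRing.liftAlgHom (uExpT_injective N)

theorem UL_algebraMap (N : ℕ) [NeZero N] (f : AT N) :
    UL N (algebraMap (AT N) (LN N) f) = uExpT N f := by
  rw [UL, IsFractionRing.liftAlgHom_apply]
  exact IsFractionRing.lift_algebraMap (uExpT_injective N) f

theorem UL_injective (N : ℕ) [NeZero N] : Function.Injective (UL N) :=
  (UL N).toRingHom.injective

/-- `x(q) ↦ x(u ^ N)` on `F_N`. -/
def qN (N : ℕ) [NeZero N] : FN N →ₐ[Kbar] LaurentSeries Kbar :=
  (qExpandAlgHomC Kbar N).comp (modularFunctionFieldBar N).val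

theorem qN_apply (N : ℕ) [NeZero N] (x : FN N) : qN N x = qExpand Kbar N (x : LaurentSeries Kbar) :=
  rfl

/-- `j (q ^ d)` as an element of `F_N`. -/
def jdF (N : ℕ) [NeZero N] (d : ℕ) [NeZero d] (hd : d ∣ N) : FN N :=
  ⟨coeffEmb Kbar (qExpand ℚ d jq), coeffEmb_mem_laurentBaseChange Kbar (jqd_mem_full N hd)⟩

/-- `F_N` is generated over `Q̄` by the `j (q ^ d)`, `d ∣ N`. -/
theorem adjoin_jdF (N : ℕ) [NeZero N] :
    IntermediateField.adjoin Kbar
      {x : FN N | ∃ (d : ℕ) (_ : NeZero d) (hd : d ∣ N), x = jdF N d hd} = ⊤ := by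
  apply IntermediateField.lift_injective
  rw [IntermediateField.lift_adjoin, IntermediateField.lift_top]
  apply le_antisymm
  · rw [IntermediateField.adjoin_le_iff]
    rintro _ ⟨x, ⟨d, hd0, hd, rfl⟩, rfl⟩
    exact (jdF N d hd).2
  · show laurentBaseChange Kbar (modularFunctionFieldFull N) ≤ _
    rw [laurentBaseChange, IntermediateField.adjoin_le_iff]
    rintro _ ⟨y, hy, rfl⟩
    -- the preimage of the right-hand side under `coeffEmb` is a subfield containing the generators
    have hy' : y ∈ Subfield.closure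
        (Set.range (algebraMap ℚ (LaurentSeries ℚ)) ∪ divisorExpansions N) := hy
    clear hy
    induction hy' using Subfield.closure_induction with
    | mem z hz =>
      rcases hz with ⟨a, rfl⟩ | ⟨d, hd0, hd, rfl⟩
      · have : coeffEmb Kbar (algebraMap ℚ (LaurentSeries ℚ) a)
            = algebraMap Kbar (LaurentSeries Kbar) (algebraMap ℚ Kbar a) := by
          rw [coeffEmb, algebraMap_laurentSeries_eq_single, algebraMap_laurentSeries_eq_single,
            coeffMap_single]
        rw [this]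
        exact IntermediateField.algebraMap_mem _ _
      · refine IntermediateField.subset_adjoin Kbar _ ⟨jdF N d hd, ⟨d, hd0, hd, rfl⟩, rfl⟩
    | one => rw [map_one]; exact one_mem _
    | add x y _ _ hx hy => rw [map_add]; exact add_mem hx hy
    | neg x _ hx => rw [map_neg]; exact neg_mem hx
    | inv x _ hx => rw [map_inv₀]; exact inv_mem hx
    | mul x y _ _ hx hy => rw [map_mul]; exact mul_mem hx hy

theorem qN_jdF (N : ℕ) [NeZero N] (d : ℕ) [NeZero d] (hd : d ∣ N) :
    qN N (jdF N d hd) = UL N (algebraMap (AT N) (LN N) (toAT N (jdA N d))) := by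
  rw [UL_algebraMap, qN_apply]
  show qExpand Kbar N (coeffEmb Kbar (qExpand ℚ d jq)) = uExp N ((toAT N).symm (toAT N (jdA N d)))
  rw [AlgEquiv.symm_apply_apply, uExp_jdA N d hd]

/-- The expansion of every element of `F_N` is the expansion of an element of `LN N`. -/
theorem qN_mem_range (N : ℕ) [NeZero N] (x : FN N) : qN N x ∈ (UL N).range := by
  -- the elements with this property form an intermediate field containing the generators
  have hmul : ∀ a b : FN N, qN N (a * b) = qN N a * qN N b :=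
    fun a b => (qN N).toRingHom.map_mul a b
  have hadd : ∀ a b : FN N, qN N (a + b) = qN N a + qN N b :=
    fun a b => (qN N).toRingHom.map_add a b
  have hone : qN N 1 = 1 := (qN N).toRingHom.map_one
  have hzero : qN N 0 = 0 := (qN N).toRingHom.map_zero
  have hinv : ∀ a : FN N, qN N a⁻¹ = (qN N a)⁻¹ := fun a => map_inv₀ (qN N).toRingHom a
  have hinvU : ∀ y : LN N, UL N y⁻¹ = (UL N y)⁻¹ := fun y => map_inv₀ (UL N).toRingHom y
  let M : IntermediateField Kbar (FN N) :=
    { carrier := {x | qN N x ∈ (UL N).range}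
      mul_mem' := fun {a b} ha hb => by
        show qN N (a * b) ∈ (UL N).range
        rw [hmul]; exact mul_mem ha hb
      one_mem' := by
        show qN N 1 ∈ (UL N).range
        rw [hone]; exact one_mem _
      add_mem' := fun {a b} ha hb => by
        show qN N (a + b) ∈ (UL N).range
        rw [hadd]; exact add_mem ha hb
      zero_mem' := by
        show qN N 0 ∈ (UL N).range
        rw [hzero]; exact zero_mem _
      algebraMap_mem' := fun c => by
        show qN N (algebraMap Kbar (FN N) c) ∈ (UL N).range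
        rw [(qN N).commutes c]; exact Subalgebra.algebraMap_mem _ c
      inv_mem' := fun a ha => by
        show qN N a⁻¹ ∈ (UL N).range
        obtain ⟨y, hy⟩ := ha
        refine ⟨y⁻¹, ?_⟩
        have hy' : UL N y = qN N a := hy
        show UL N y⁻¹ = qN N a⁻¹
        rw [hinvU, hinv, hy'] }
  have hM : M = ⊤ := by
    rw [eq_top_iff, ← adjoin_jdF N, IntermediateField.adjoin_le_iff]
    rintro _ ⟨d, hd0, hd, rfl⟩
    exact ⟨_, (qN_jdF N d hd).symm⟩
  have : x ∈ M := by rw [hM]; exact IntermediateField.mem_top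
  exact this

/-- The embedding of `F_N` into the Galois closure. -/
def phi (N : ℕ) [NeZero N] : FN N →ₐ[Kbar] LN N :=
  ((AlgEquiv.ofInjective (UL N) (UL_injective N)).symm : (UL N).range →ₐ[Kbar] LN N).comp
    ((qN N).codRestrict (UL N).range (qN_mem_range N))

theorem UL_phi (N : ℕ) [NeZero N] (x : FN N) : UL N (phi N x) = qN N x := by
  have h := (AlgEquiv.ofInjective (UL N) (UL_injective N)).apply_symm_apply
    ((qN N).codRestrict (UL N).range (qN_mem_range N) x)
  have h2 := congrArg Subtype.val h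
  exact h2

theorem phi_jdF (N : ℕ) [NeZero N] (d : ℕ) [NeZero d] (hd : d ∣ N) :
    phi N (jdF N d hd) = algebraMap (AT N) (LN N) (toAT N (jdA N d)) := by
  apply UL_injective N
  rw [UL_phi, qN_jdF]

theorem jF_eq_jdF (N : ℕ) [NeZero N] : jF N = jdF N 1 (one_dvd N) := by
  apply Subtype.ext
  show jBar = coeffEmb Kbar (qExpand ℚ 1 jq)
  rw [qExpand_one_apply]
  rfl

theorem phi_jF (N : ℕ) [NeZero N] : phi N (jF N) = algebraMap (AT N) (LN N) (jT N) := by
  rw [jF_eq_jdF, phi_jdF, jdA_one]
  rfl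

/-! ## The algebra structures -/

theorem jF_transcendental (N : ℕ) [NeZero N] : Transcendental Kbar (jF N) := by
  intro halg
  have h1 : IsAlgebraic Kbar (phi N (jF N)) := halg.algHom (phi N)
  rw [phi_jF] at h1
  obtain ⟨p, hp0, hp⟩ := h1
  apply jT_transcendental N
  refine ⟨p, hp0, ?_⟩
  apply IsFractionRing.injective (AT N) (LN N)
  rw [map_zero, ← hp, Polynomial.aeval_algebraMap_apply]

/-- `Q̄[X] → F_N`, `X ↦ j`. -/
instance algPolyFN (N : ℕ) [NeZero N] : Algebra (Polynomial Kbar) (FN N) :=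
  (Polynomial.aeval (jF N)).toRingHom.toAlgebra

theorem algebraMap_poly_FN (N : ℕ) [NeZero N] (p : Polynomial Kbar) :
    algebraMap (Polynomial Kbar) (FN N) p = Polynomial.aeval (jF N) p := rfl

instance faithfulSMul_poly_FN (N : ℕ) [NeZero N] : FaithfulSMul (Polynomial Kbar) (FN N) := by
  rw [faithfulSMul_iff_algebraMap_injective]
  exact transcendental_iff_injective.mp (jF_transcendental N)

instance isScalarTower_Kbar_poly_FN (N : ℕ) [NeZero N] :
    IsScalarTower Kbar (Polynomial Kbar) (FN N) :=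
  IsScalarTower.of_algebraMap_eq fun c => by
    rw [algebraMap_poly_FN, Polynomial.algebraMap_apply, Polynomial.aeval_C]
    rfl

instance algEF (N : ℕ) [NeZero N] : Algebra EN (FN N) := FractionRing.liftAlgebra _ _

instance (N : ℕ) [NeZero N] : IsScalarTower (Polynomial Kbar) EN (FN N) :=
  FractionRing.isScalarTower_liftAlgebra _ _

instance algFL (N : ℕ) [NeZero N] : Algebra (FN N) (LN N) := (phi N).toRingHom.toAlgebra

theorem algebraMap_FN_LN (N : ℕ) [NeZero N] (x : FN N) : algebraMap (FN N) (LN N) x = phi N x :=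
  rfl

instance towerKEF (N : ℕ) [NeZero N] : IsScalarTower Kbar EN (FN N) :=
  IsScalarTower.of_algebraMap_eq fun c => by
    rw [IsScalarTower.algebraMap_apply Kbar (Polynomial Kbar) EN,
      ← IsScalarTower.algebraMap_apply (Polynomial Kbar) EN (FN N),
      ← IsScalarTower.algebraMap_apply Kbar (Polynomial Kbar) (FN N)]

instance towerKFL (N : ℕ) [NeZero N] : IsScalarTower Kbar (FN N) (LN N) :=
  IsScalarTower.of_algebraMap_eq fun c => ((phi N).commutes c).symm

theorem phi_aeval_jF (N : ℕ) [NeZero N] (p : Polynomial Kbar) :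
    phi N (Polynomial.aeval (jF N) p) = algebraMap (AT N) (LN N) (Polynomial.aeval (jT N) p) := by
  rw [← Polynomial.aeval_algHom_apply, phi_jF, Polynomial.aeval_algebraMap_apply]

instance towerEFL (N : ℕ) [NeZero N] : IsScalarTower EN (FN N) (LN N) :=
  IsScalarTower.of_algebraMap_eq' <| by
    apply IsLocalization.ringHom_ext (nonZeroDivisors (Polynomial Kbar))
    ext p
    · show algebraMap EN (LN N) (algebraMap (Polynomial Kbar) EN (Polynomial.C p))
        = algebraMap (FN N) (LN N) (algebraMap EN (FN N)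
          (algebraMap (Polynomial Kbar) EN (Polynomial.C p)))
      rw [← IsScalarTower.algebraMap_apply (Polynomial Kbar) EN (LN N),
        ← IsScalarTower.algebraMap_apply (Polynomial Kbar) EN (FN N),
        IsScalarTower.algebraMap_apply (Polynomial Kbar) (AT N) (LN N),
        algebraMap_FN_LN, algebraMap_poly_FN, algebraMap_poly_AT, phi_aeval_jF]
    · show algebraMap EN (LN N) (algebraMap (Polynomial Kbar) EN Polynomial.X)
        = algebraMap (FN N) (LN N) (algebraMap EN (FN N)
          (algebraMap (Polynomial Kbar) EN Polynomial.X))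
      rw [← IsScalarTower.algebraMap_apply (Polynomial Kbar) EN (LN N),
        ← IsScalarTower.algebraMap_apply (Polynomial Kbar) EN (FN N),
        IsScalarTower.algebraMap_apply (Polynomial Kbar) (AT N) (LN N),
        algebraMap_FN_LN, algebraMap_poly_FN, algebraMap_poly_AT, phi_aeval_jF]

instance towerKEL (N : ℕ) [NeZero N] : IsScalarTower Kbar EN (LN N) :=
  IsScalarTower.of_algebraMap_eq fun c => by
    rw [IsScalarTower.algebraMap_apply Kbar (FN N) (LN N),
      IsScalarTower.algebraMap_apply Kbar EN (FN N),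
      ← IsScalarTower.algebraMap_apply EN (FN N) (LN N)]

/-- The generator `j` of `Q̄(j)`. -/
def tE : EN := algebraMap (Polynomial Kbar) EN Polynomial.X

theorem tE_map_FN (N : ℕ) [NeZero N] : algebraMap EN (FN N) tE = jF N := by
  rw [tE, ← IsScalarTower.algebraMap_apply (Polynomial Kbar) EN (FN N), algebraMap_poly_FN,
    Polynomial.aeval_X]

theorem tE_map_LN (N : ℕ) [NeZero N] :
    algebraMap EN (LN N) tE = algebraMap (AT N) (LN N) (jT N) := by
  rw [tE, ← IsScalarTower.algebraMap_apply (Polynomial Kbar) EN (LN N),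
    IsScalarTower.algebraMap_apply (Polynomial Kbar) (AT N) (LN N), algebraMap_poly_AT,
    Polynomial.aeval_X]

theorem aeval_tE (p : Polynomial Kbar) :
    Polynomial.aeval tE p = algebraMap (Polynomial Kbar) EN p := by
  rw [tE, Polynomial.aeval_algebraMap_apply, Polynomial.aeval_X_left_apply]

theorem tE_gen (y : EN) : ∃ p q : Polynomial Kbar, Polynomial.aeval tE q ≠ 0 ∧
    y = Polynomial.aeval tE p / Polynomial.aeval tE q := by
  obtain ⟨p, q, hq, rfl⟩ := IsFractionRing.div_surjective (A := Polynomial Kbar) y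
  refine ⟨p, q, ?_, ?_⟩
  · rw [aeval_tE]
    exact IsFractionRing.to_map_ne_zero_of_mem_nonZeroDivisors hq
  · rw [aeval_tE, aeval_tE]

/-! ## The subgroup fixing `F_N` -/

/-- If `γ` fixes `j (N τ)` then `γ ∈ Γ₀(N)`: compare pole orders at `∞`
(`uExp_JA_order`, Hermite form of `diag(N, 1) γ⁻¹`, e.g. `Fermat.Agent.S20.H70.hermite_int`). -/
theorem mem_Gamma0_of_smul_jdA (N : ℕ) [NeZero N] (γ : SL(2, ℤ))
    (h : γ • jdA N N = jdA N N) : γ ∈ CongruenceSubgroup.Gamma0 N := by
  have hNpos : 0 < N := NeZero.pos N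
  set D : Matrix (Fin 2) (Fin 2) ℤ := !![(N : ℤ), 0; 0, 1] with hD
  have hDdet : D.det = N := by simp [hD, Matrix.det_fin_two]
  have hDpos : 0 < D.det := by rw [hDdet]; exact_mod_cast hNpos
  have hDN : D.det ∣ (N : ℤ) := by rw [hDdet]
  -- the hypothesis in terms of `JA`
  have h1 : γ • JA D = JA D := by
    have := congrArg (fun f : Atil N => (f : Hol)) h
    simpa only [coe_smul_Atil, jdA_coe N N hNpos dvd_rfl] using this
  set A : Matrix (Fin 2) (Fin 2) ℤ := D * (γ⁻¹ : SL(2, ℤ)).1 with hA
  have hAdet : A.det = N := by rw [hA, Matrix.det_mul, (γ⁻¹ : SL(2, ℤ)).2, mul_one, hDdet]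
  have hApos : 0 < A.det := by rw [hAdet]; exact_mod_cast hNpos
  have hAN : A.det ∣ (N : ℤ) := by rw [hAdet]
  have h2 : JA A = JA D := by rw [← h1, smul_JA γ D hDpos]
  obtain ⟨δ, a, d, b, ha, hd, had, hAδ⟩ := hermite_general A hApos
  have ho1 := uExp_JA_order N A hApos hAN δ a d b ha hd hAδ
  have hD1 : D = (1 : SL(2, ℤ)).1 * !![((N : ℕ) : ℤ), (0 : ℤ); 0, ((1 : ℕ) : ℤ)] := by
    rw [Matrix.SpecialLinearGroup.coe_one, one_mul, hD, Nat.cast_one]
  have ho2 := uExp_JA_order N D hDpos hDN 1 N 1 0 hNpos one_pos hD1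
  have heq : (⟨JA A, JA_mem_Atil N A hApos hAN⟩ : Atil N) = ⟨JA D, JA_mem_Atil N D hDpos hDN⟩ :=
    Subtype.ext h2
  rw [heq, ho2] at ho1
  have h3 : N / 1 * N = N / d * a := by
    have := neg_injective ho1
    exact_mod_cast this
  rw [Nat.div_one] at h3
  have had' : a * d = N := by
    have : ((a * d : ℕ) : ℤ) = (N : ℤ) := by rw [← hAdet, ← had]; push_cast; ring
    exact_mod_cast this
  have hdiv : N / d = a := by
    rw [← had']
    exact Nat.mul_div_cancel a hd
  rw [hdiv] at h3
  have haN : a = N := by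
    rcases Nat.lt_trichotomy a N with hlt | heq | hgt
    · exfalso
      have : a * a < N * N := Nat.mul_lt_mul'' hlt hlt
      omega
    · exact heq
    · exfalso
      have : N * N < a * a := Nat.mul_lt_mul'' hgt hgt
      omega
  -- read off the lower left entry
  have h10 : A 1 0 = (γ⁻¹ : SL(2, ℤ)).1 1 0 := by
    rw [hA, hD]
    simp [Matrix.mul_apply, Fin.sum_univ_two]
  have h10' : A 1 0 = δ.1 1 0 * N := by
    rw [hAδ, haN]
    simp [Matrix.mul_apply, Fin.sum_univ_two]
  have hmem : γ⁻¹ ∈ CongruenceSubgroup.Gamma0 N := by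
    rw [CongruenceSubgroup.Gamma0_mem]
    rw [(ZMod.intCast_zmod_eq_zero_iff_dvd _ N)]
    rw [← h10, h10']
    exact Dvd.intro_left _ rfl
  have := inv_mem hmem
  rwa [inv_inv] at this

theorem piN_phi_jdF (N : ℕ) [NeZero N] (γ : SL(2, ℤ)) (d : ℕ) [NeZero d] (hd : d ∣ N) :
    piN N γ (phi N (jdF N d hd)) = algebraMap (AT N) (LN N) (toAT N (γ • jdA N d)) := by
  rw [phi_jdF, piN_algebraMap]
  rfl

theorem piN_phi_of_mem_Gamma0 (N : ℕ) [NeZero N] (γ : SL(2, ℤ))
    (hγ : γ ∈ CongruenceSubgroup.Gamma0 N) (y : FN N) : piN N γ (phi N y) = phi N y := by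
  have hmul : ∀ a b : FN N, phi N (a * b) = phi N a * phi N b :=
    fun a b => (phi N).toRingHom.map_mul a b
  have hadd : ∀ a b : FN N, phi N (a + b) = phi N a + phi N b :=
    fun a b => (phi N).toRingHom.map_add a b
  have hone : phi N 1 = 1 := (phi N).toRingHom.map_one
  have hzero : phi N 0 = 0 := (phi N).toRingHom.map_zero
  have hinv : ∀ a : FN N, phi N a⁻¹ = (phi N a)⁻¹ := fun a => map_inv₀ (phi N).toRingHom a
  let M : IntermediateField Kbar (FN N) :=
    { carrier := {y | piN N γ (phi N y) = phi N y}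
      mul_mem' := fun {a b} ha hb => by
        show piN N γ (phi N (a * b)) = phi N (a * b)
        have ha' : piN N γ (phi N a) = phi N a := ha
        have hb' : piN N γ (phi N b) = phi N b := hb
        rw [hmul, map_mul, ha', hb']
      one_mem' := by
        show piN N γ (phi N 1) = phi N 1
        rw [hone, map_one]
      add_mem' := fun {a b} ha hb => by
        show piN N γ (phi N (a + b)) = phi N (a + b)
        have ha' : piN N γ (phi N a) = phi N a := ha
        have hb' : piN N γ (phi N b) = phi N b := hb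
        rw [hadd, map_add, ha', hb']
      zero_mem' := by
        show piN N γ (phi N 0) = phi N 0
        rw [hzero, map_zero]
      algebraMap_mem' := fun c => by
        show piN N γ (phi N (algebraMap Kbar (FN N) c)) = phi N (algebraMap Kbar (FN N) c)
        rw [(phi N).commutes c, IsScalarTower.algebraMap_apply Kbar EN (LN N)]
        exact (piN N γ).commutes _
      inv_mem' := fun a ha => by
        show piN N γ (phi N a⁻¹) = phi N a⁻¹
        have ha' : piN N γ (phi N a) = phi N a := ha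
        rw [hinv, map_inv₀, ha'] }
  have hM : M = ⊤ := by
    rw [eq_top_iff, ← adjoin_jdF N, IntermediateField.adjoin_le_iff]
    rintro _ ⟨d, hd0, hd, rfl⟩
    show piN N γ (phi N (jdF N d hd)) = phi N (jdF N d hd)
    rw [piN_phi_jdF, smul_jdA_of_mem_Gamma0 N d (Nat.pos_of_ne_zero (NeZero.ne d)) hd γ hγ,
      phi_jdF]
  have : y ∈ M := by rw [hM]; exact IntermediateField.mem_top
  exact this

/-- The preimage of `Gal (LN N / F_N)` in `SL(2, ℤ)` is `Γ₀(N)`. -/
theorem piN_comap (N : ℕ) [NeZero N] :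
    (IntermediateField.fixingSubgroup
      (IsScalarTower.toAlgHom EN (FN N) (LN N)).fieldRange).comap (piN N)
      = CongruenceSubgroup.Gamma0 N := by
  ext γ
  rw [Subgroup.mem_comap, IntermediateField.mem_fixingSubgroup_iff]
  constructor
  · intro h
    apply mem_Gamma0_of_smul_jdA
    have h1 := h (phi N (jdF N N dvd_rfl)) ⟨jdF N N dvd_rfl, rfl⟩
    rw [piN_phi_jdF, phi_jdF] at h1
    have h2 := IsFractionRing.injective (AT N) (LN N) h1
    exact (toAT N).injective h2
  · rintro hγ _ ⟨y, rfl⟩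
    exact piN_phi_of_mem_Gamma0 N γ hγ y

end Fermat.Agent.S24

end
end
-- ==== END Fermat.Agent.S24.Closure.Phi

-- ==== BEGIN Fermat.Agent.S29.H33_Core
section

/-!
# S29 from S30 (cluster R wiring, helper33)

`core : Stmt_S30 → (frozen S29 for N ≠ 0)`.

Given a normalised eigenform `g` of level `N ≠ 0` and `φ : ℤ̄ → k`, `char k = p`:
* `χ_g : 𝕋 → ℤ̄` the eigen-character (helper99), `R = χ_g(𝕋)` an order, `P = R ∩ ker φ` maximal;
* `ι : R ↪ 𝒪'` a complete DVR with `ι⁻¹(𝔪) = P` (helper2, `stmt_PDVR`);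
* `Stmt_S30` for `χ = ι ∘ χ_g` gives `ρ` over `𝒪''`;
* the finite residue field `k''` of `𝒪''` embeds in the algebraically closed field `ℤ̄ ⧸ ker φ`
  over `R ⧸ P`; base change `ρ` along `𝒪'' → k'' → ℤ̄ ⧸ ker φ → k`.
-/

set_option autoImplicit false

namespace Fermat.Agent.S29.H33

open Polynomial
open scoped TensorProduct

/-- Extension of an embedding of a finite residue field into an algebraically closed field. -/
theorem exists_lift_residue {R k K : Type*} [CommRing R] [Field k] [Finite k] [Field K]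
    [IsAlgClosed K] (P : Ideal R) [P.IsMaximal] (a : R →+* k) (b : R →+* K)
    (ha : ∀ r ∈ P, a r = 0) (hb : ∀ r ∈ P, b r = 0) :
    ∃ j : k →+* K, ∀ r, j (a r) = b r := by
  letI := Ideal.Quotient.field P
  letI : Algebra (R ⧸ P) k := (Ideal.Quotient.lift P a ha).toAlgebra
  letI : Algebra (R ⧸ P) K := (Ideal.Quotient.lift P b hb).toAlgebra
  haveI : Algebra.IsAlgebraic (R ⧸ P) k := Algebra.IsAlgebraic.of_finite _ _
  let j : k →ₐ[R ⧸ P] K := IsAlgClosed.lift
  refine ⟨j.toRingHom, fun r => ?_⟩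
  have h := j.commutes (Ideal.Quotient.mk P r)
  have h1 : algebraMap (R ⧸ P) k (Ideal.Quotient.mk P r) = a r := by
    rw [RingHom.algebraMap_toAlgebra]; exact Ideal.Quotient.lift_mk P a ha
  have h2 : algebraMap (R ⧸ P) K (Ideal.Quotient.mk P r) = b r := by
    rw [RingHom.algebraMap_toAlgebra]; exact Ideal.Quotient.lift_mk P b hb
  rw [h1, h2] at h
  exact h

/-- A ring homomorphism from a local ring to a field that kills the maximal ideal is local. -/
theorem isLocalHom_of_residue {A k : Type*} [CommRing A] [IsLocalRing A] [Field k]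
    (f : A →+* k) (hf : ∀ x ∈ IsLocalRing.maximalIdeal A, f x = 0) : IsLocalHom f := by
  refine ⟨fun x hx => ?_⟩
  by_contra hxu
  have hxm : x ∈ IsLocalRing.maximalIdeal A := (IsLocalRing.mem_maximalIdeal x).mpr hxu
  rw [hf x hxm] at hx
  exact not_isUnit_zero hx

/-- The trivial two-dimensional representation. -/
noncomputable def trivialRep (k : Type) [Field k] : ResidualGaloisRep k where
  V := Fin 2 → k
  finrank_eq := by simp
  ρ := 1
  factorsThroughFiniteLevel := ⟨⊥, inferInstance, fun _ _ => rfl⟩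


/-- The residual representation over `k` of an adic representation over a local ring `A`, along a
ring homomorphism `f : A → k` killing the maximal ideal. -/
noncomputable def residualAlong {A : Type} [CommRing A] [IsLocalRing A] {k : Type} [Field k]
    (ρ : GaloisRepAdic A) (f : A →+* k) (hf : ∀ x ∈ IsLocalRing.maximalIdeal A, f x = 0) :
    ResidualGaloisRep k :=
  (ρ.baseChangeAlong f (isLocalHom_of_residue f hf)).toResidualGaloisRep

theorem residualAlong_charpoly {A : Type} [CommRing A] [IsLocalRing A] {k : Type} [Field k]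
    (ρ : GaloisRepAdic A) (f : A →+* k) (hf : ∀ x ∈ IsLocalRing.maximalIdeal A, f x = 0)
    (σ : AlgebraicClosure ℚ ≃ₐ[ℚ] AlgebraicClosure ℚ) :
    LinearMap.charpoly ((residualAlong ρ f hf).ρ σ) = (LinearMap.charpoly (ρ.ρ σ)).map f := by
  letI : Algebra A k := f.toAlgebra
  exact LinearMap.charpoly_baseChange (ρ.ρ σ) k

theorem residualAlong_isUnramifiedAt {A : Type} [CommRing A] [IsLocalRing A] {k : Type} [Field k]
    (ρ : GaloisRepAdic A) (f : A →+* k) (hf : ∀ x ∈ IsLocalRing.maximalIdeal A, f x = 0)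
    {q : ℕ} (h : ρ.IsUnramifiedAt q) : (residualAlong ρ f hf).IsUnramifiedAt q := by
  intro P hP σ hσ
  letI : Algebra A k := f.toAlgebra
  have h1 : ρ.ρ σ = 1 := h P hP σ hσ
  show (ρ.ρ σ).baseChange k = 1
  rw [h1, LinearMap.baseChange_one]


/-- The type of the frozen statement S29. -/
def Stmt_S29 : Prop :=
  ∀ {N : ℕ} {g : CuspForm (CongruenceSubgroup.Gamma0 N) 2} (_hg : g.IsNormalizedEigenform)
    {p : ℕ} (_hp : p.Prime) {k : Type} [Field k] [CharP k p]
    (φ : integralClosure ℤ ℂ →+* k),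
    ∃ ρ : ResidualGaloisRep k, ρ.IsAttachedTo g φ ∧
      ∀ ℓ : ℕ, ℓ.Prime → ¬ ℓ ∣ N * p → ρ.IsUnramifiedAt ℓ

/-- **S29 for `N ≠ 0` from S30.** -/
theorem core (hS30 : Fermat.Agent.R.Stmt_S30)
    {N : ℕ} [NeZero N] {g : CuspForm (CongruenceSubgroup.Gamma0 N) 2}
    (hg : g.IsNormalizedEigenform)
    {p : ℕ} (hp : p.Prime) {k : Type} [Field k] [CharP k p]
    (φ : integralClosure ℤ ℂ →+* k) :
    ∃ ρ : ResidualGaloisRep k, ρ.IsAttachedTo g φ ∧
      ∀ ℓ : ℕ, ℓ.Prime → ¬ ℓ ∣ N * p → ρ.IsUnramifiedAt ℓ := by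
  classical
  haveI : Fact p.Prime := ⟨hp⟩
  -- the set `S`
  set S : Finset ℕ := insert p N.primeFactors with hS
  have hpS : p ∈ S := Finset.mem_insert_self _ _
  have hNS : ∀ q : ℕ, q.Prime → q ∣ N → q ∈ S := fun q hq hqN =>
    Finset.mem_insert_of_mem (Nat.mem_primeFactors.mpr ⟨hq, hqN, NeZero.ne N⟩)
  -- the eigen-character
  obtain ⟨χg, hχg⟩ := Fermat.Agent.R.H99.stmt_eigenChar N (↑S : Set ℕ) g hg
  -- the order `R`
  let R : Subring (integralClosure ℤ ℂ) := χg.range
  haveI hfinT : Module.Finite ℤ (CuspForm.heckeAlgebra N 2 (↑S : Set ℕ)) :=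
    Fermat.Agent.S22.result N 2 _
  haveI hfinR : Module.Finite ℤ R :=
    Module.Finite.of_surjective (χg.rangeRestrict.toIntAlgHom.toLinearMap)
      χg.rangeRestrict_surjective
  -- the maximal ideal `P`
  haveI hmax : (RingHom.ker φ).IsMaximal := ker_isMaximal_of_charP p φ
  let P : Ideal R := (RingHom.ker φ).comap R.subtype
  have hsubint : R.subtype.IsIntegral := by
    intro x
    have hx : IsIntegral ℤ x := Algebra.IsIntegral.isIntegral x
    obtain ⟨q, hq, hqx⟩ := hx
    refine ⟨q.map (Int.castRingHom R), hq.map _, ?_⟩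
    rw [Polynomial.eval₂_map]
    have : R.subtype.comp (Int.castRingHom R) = algebraMap ℤ (integralClosure ℤ ℂ) :=
      RingHom.ext_int _ _
    rw [this]
    exact hqx
  haveI hPmax : P.IsMaximal :=
    Ideal.isMaximal_comap_of_isIntegral_of_isMaximal' R.subtype hsubint (RingHom.ker φ)
  have hpker : (p : integralClosure ℤ ℂ) ∈ RingHom.ker φ := by
    rw [RingHom.mem_ker, map_natCast]; exact CharP.cast_eq_zero k p
  have hpP : (p : R) ∈ P := by
    show R.subtype (p : R) ∈ RingHom.ker φ
    rw [map_natCast]; exact hpker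
  -- the complete DVR `𝒪'`
  obtain ⟨𝒪', iCR, iD, iDVR, iAC, iFin, iCZ, ι, hιinj, hιcomap⟩ :=
    Fermat.Agent.R.H2.stmt_PDVR R P
  have hp𝒪' : (p : 𝒪') ∈ IsLocalRing.maximalIdeal 𝒪' := by
    have : (p : R) ∈ (IsLocalRing.maximalIdeal 𝒪').comap ι := hιcomap ▸ hpP
    rw [Ideal.mem_comap, map_natCast] at this
    exact this
  let χ : CuspForm.heckeAlgebra N 2 (↑S : Set ℕ) →+* 𝒪' := ι.comp χg.rangeRestrict
  -- the Galois representation
  obtain ⟨𝒪'', iCR'', iD'', iDVR'', iAC'', iFin'', iCZ'', iAlg, iMF, iLH, hinj'', ρ, hchar, hunr⟩ :=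
    hS30 p N S hpS hNS 𝒪' hp𝒪' χ
  -- the embedding of residue fields
  letI : Field (integralClosure ℤ ℂ ⧸ RingHom.ker φ) := Ideal.Quotient.field _
  haveI : IsAlgClosed (integralClosure ℤ ℂ ⧸ RingHom.ker φ) := isAlgClosed_quot _
  let a : R →+* IsLocalRing.ResidueField 𝒪'' :=
    (IsLocalRing.residue 𝒪'').comp ((algebraMap 𝒪' 𝒪'').comp ι)
  let b : R →+* (integralClosure ℤ ℂ ⧸ RingHom.ker φ) :=
    (Ideal.Quotient.mk (RingHom.ker φ)).comp R.subtype
  have ha : ∀ r ∈ P, a r = 0 := by
    intro r hr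
    have h1 : ι r ∈ IsLocalRing.maximalIdeal 𝒪' := by
      have : r ∈ (IsLocalRing.maximalIdeal 𝒪').comap ι := hιcomap ▸ hr
      exact this
    have h2 : algebraMap 𝒪' 𝒪'' (ι r) ∈ IsLocalRing.maximalIdeal 𝒪'' := by
      rw [IsLocalRing.mem_maximalIdeal, mem_nonunits_iff] at h1 ⊢
      exact fun hu => h1 (isUnit_of_map_unit (algebraMap 𝒪' 𝒪'') _ hu)
    exact (IsLocalRing.residue_eq_zero_iff _).mpr h2
  have hb : ∀ r ∈ P, b r = 0 := by
    intro r hr
    exact Ideal.Quotient.eq_zero_iff_mem.mpr hr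
  obtain ⟨j₀, hj₀⟩ := exists_lift_residue P a b ha hb
  let j : IsLocalRing.ResidueField 𝒪'' →+* k := (RingHom.kerLift φ).comp j₀
  have hj : ∀ r : R, j (a r) = φ r := by
    intro r
    show RingHom.kerLift φ (j₀ (a r)) = φ r
    rw [hj₀ r]
    exact RingHom.kerLift_mk φ _
  let f : 𝒪'' →+* k := j.comp (IsLocalRing.residue 𝒪'')
  have hf : ∀ x ∈ IsLocalRing.maximalIdeal 𝒪'', f x = 0 := by
    intro x hx
    show j (IsLocalRing.residue 𝒪'' x) = 0
    rw [(IsLocalRing.residue_eq_zero_iff _).mpr hx, map_zero]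
  refine ⟨residualAlong ρ f hf, ?_, ?_⟩
  · intro ℓ hℓ hℓN hℓk A hA σ hσ
    have hℓp : ℓ ≠ p := by
      rintro rfl
      exact hℓk (CharP.cast_eq_zero k ℓ)
    have hℓS : ℓ ∉ (↑S : Set ℕ) := by
      rw [Finset.mem_coe, hS, Finset.mem_insert]
      rintro (h | h)
      · exact hℓp h
      · exact hℓN (Nat.dvd_of_mem_primeFactors h)
    refine ⟨χg (CuspForm.heckeAlgebra.T hℓ hℓN hℓS), hχg ℓ hℓ hℓN hℓS, ?_⟩
    rw [residualAlong_charpoly, hchar ℓ hℓ hℓN hℓS A hA σ hσ]
    have hval : f (algebraMap 𝒪' 𝒪'' (χ (CuspForm.heckeAlgebra.T hℓ hℓN hℓS))) =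
        φ (χg (CuspForm.heckeAlgebra.T hℓ hℓN hℓS)) := by
      have := hj (χg.rangeRestrict (CuspForm.heckeAlgebra.T hℓ hℓN hℓS))
      exact this
    simp only [Polynomial.map_add, Polynomial.map_sub, Polynomial.map_mul, Polynomial.map_pow,
      Polynomial.map_X, Polynomial.map_C, hval, map_natCast, Polynomial.map_natCast]
  · intro ℓ hℓ hℓNp
    have hℓN : ¬ ℓ ∣ N := fun h => hℓNp (Dvd.dvd.mul_right h p)
    have hℓp : ℓ ≠ p := by
      rintro rfl
      exact hℓNp (Dvd.intro_left N rfl)
    exact residualAlong_isUnramifiedAt ρ f hf (hunr ℓ hℓ hℓN hℓp)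

/-- **S29 from S30** (all `N`; for `N = 0` the statement is vacuous). -/
theorem stmt_S29_of_S30 (hS30 : Fermat.Agent.R.Stmt_S30) : Stmt_S29 := by
  intro N g hg p hp k _ _ φ
  rcases Nat.eq_zero_or_pos N with hN | hN
  · subst hN
    refine ⟨trivialRep k, ?_, ?_⟩
    · intro ℓ _ hℓN
      exact absurd (dvd_zero ℓ) hℓN
    · intro ℓ _ hℓNp
      rw [zero_mul] at hℓNp
      exact absurd (dvd_zero ℓ) hℓNp
  · haveI : NeZero N := ⟨hN.ne'⟩
    exact core hS30 hg hp φ

end Fermat.Agent.S29.H33

end
-- ==== END Fermat.Agent.S29.H33_Core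

-- ==== BEGIN Fermat.Agent.S58.H99_Plumb
section

/-!
# S58: plumbing for the wiring (helper99)

* `trace_det_of_charpoly_two`: trace and determinant from the characteristic polynomial, rank 2.
* `exists_padic_embedding`: the coefficient ring of an eigen-character embeds into a complete
  discrete valuation ring of residue characteristic `lam`, for every prime `lam`.
* `eq_zero_of_forall_prime_mem`: an algebraic integer which lies, for infinitely many primes
  `lam`, in a proper ideal containing `lam` of a subring of `ℂ`, is zero.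
-/

set_option autoImplicit false

open Polynomial IsLocalRing

namespace Fermat.Agent.S58.H99

/-- Trace and determinant from the characteristic polynomial in rank 2. -/
theorem trace_det_of_charpoly_two {A V : Type*} [CommRing A] [AddCommGroup V] [Module A V]
    [Module.Free A V] [Module.Finite A V] (hV : Module.finrank A V = 2) (f : Module.End A V)
    {t d : A} (h : f.charpoly = X ^ 2 - C t * X + C d) :
    LinearMap.trace A V f = t ∧ LinearMap.det f = d := by
  rw [Fermat.Agent.R.H91.charpoly_eq_of_finrank_two hV f] at h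
  have h0 := congrArg (fun q : A[X] => q.coeff 0) h
  have h1 := congrArg (fun q : A[X] => q.coeff 1) h
  simp only [coeff_add, coeff_sub, coeff_X_pow, coeff_C_mul, coeff_X_zero, coeff_X_one,
    coeff_C_zero, coeff_C_succ, mul_zero, mul_one, sub_zero, add_zero] at h0 h1
  norm_num at h0 h1
  exact ⟨h1, h0⟩

section Embedding

variable {M : ℕ} [NeZero M] {S : Set ℕ}

/-- The range of a character of the Hecke algebra is finite over `ℤ`. -/
theorem finite_range (chig : CuspForm.heckeAlgebra M 2 S →+* ℂ) : Module.Finite ℤ chig.range := by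
  have hfinT : Module.Finite ℤ (CuspForm.heckeAlgebra M 2 S) := Fermat.Agent.S22.result M 2 _
  exact Module.Finite.of_surjective (chig.rangeRestrict.toIntAlgHom.toLinearMap)
    chig.rangeRestrict_surjective

/-- The values of a character of the Hecke algebra are algebraic integers. -/
theorem isIntegral_apply (chig : CuspForm.heckeAlgebra M 2 S →+* ℂ)
    (T : CuspForm.heckeAlgebra M 2 S) : IsIntegral ℤ (chig T) := by
  have : Module.Finite ℤ (CuspForm.heckeAlgebra M 2 S) := Fermat.Agent.S22.result M 2 S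
  have hT : IsIntegral ℤ T := Algebra.IsIntegral.isIntegral T
  exact hT.map chig.toIntAlgHom

/-- A prime number is not a unit in a subring of `ℂ` which is finite over `ℤ`. -/
theorem not_isUnit_natCast_of_finite (R : Subring ℂ) [Module.Finite ℤ R] {lam : ℕ}
    (hlam : lam.Prime) : ¬ IsUnit (lam : R) := by
  intro hu
  obtain ⟨u, hu⟩ := hu
  have hint : IsIntegral ℤ ((u⁻¹ : Rˣ) : R) := Algebra.IsIntegral.isIntegral _
  have hintC : IsIntegral ℤ (((u⁻¹ : Rˣ) : R) : ℂ) := hint.map R.subtype.toIntAlgHom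
  have h1 : (lam : ℂ) * (((u⁻¹ : Rˣ) : R) : ℂ) = 1 := by
    have h2 : ((u : R) * ((u⁻¹ : Rˣ) : R)) = 1 := u.mul_inv
    rw [hu] at h2
    have := congrArg (fun z : R => (z : ℂ)) h2
    simpa using this
  have hlam0 : (lam : ℂ) ≠ 0 := by exact_mod_cast hlam.ne_zero
  have hval : (((u⁻¹ : Rˣ) : R) : ℂ) = (lam : ℂ)⁻¹ := by
    field_simp
    linear_combination h1
  rw [hval] at hintC
  have hmap : (algebraMap ℚ ℂ) ((lam : ℚ)⁻¹) = (lam : ℂ)⁻¹ := by
    rw [eq_ratCast (algebraMap ℚ ℂ)]; push_cast; rfl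
  rw [← hmap] at hintC
  have hintQ : IsIntegral ℤ ((lam : ℚ)⁻¹) :=
    (isIntegral_algebraMap_iff (algebraMap ℚ ℂ).injective).mp hintC
  obtain ⟨m, hm⟩ := IsIntegrallyClosed.isIntegral_iff.mp hintQ
  rw [eq_intCast] at hm
  have hpQ : (lam : ℚ) ≠ 0 := by exact_mod_cast hlam.ne_zero
  have hmul : ((lam * m : ℤ) : ℚ) = ((1 : ℤ) : ℚ) := by
    push_cast; rw [hm]; field_simp
  have hdvd : (lam : ℤ) ∣ 1 := ⟨m, (Int.cast_injective hmul).symm⟩
  have hple : (lam : ℤ) ≤ 1 := Int.le_of_dvd one_pos hdvd
  have := hlam.two_le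
  omega

/-- **Embedding of the coefficient ring.** -/
theorem exists_padic_embedding (chig : CuspForm.heckeAlgebra M 2 S →+* ℂ) {lam : ℕ}
    (hlam : lam.Prime) :
    ∃ (P : Ideal chig.range) (O' : Type) (_ : CommRing O') (_ : IsDomain O')
      (_ : IsDiscreteValuationRing O') (_ : IsAdicComplete (maximalIdeal O') O')
      (_ : Finite (ResidueField O')) (_ : CharZero O') (iota : chig.range →+* O'),
      P.IsMaximal ∧ (lam : chig.range) ∈ P ∧ Function.Injective iota ∧
        (maximalIdeal O').comap iota = P ∧ (lam : O') ∈ maximalIdeal O' := by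
  have hfin : Module.Finite ℤ chig.range := finite_range chig
  have hCZ : CharZero chig.range := ⟨fun a b hab => by
    have := congrArg (fun z : chig.range => (z : ℂ)) hab
    simpa using this⟩
  have hne : Ideal.span {(lam : chig.range)} ≠ ⊤ := fun htop =>
    not_isUnit_natCast_of_finite chig.range hlam (Ideal.span_singleton_eq_top.mp htop)
  obtain ⟨P, hPmax, hPle⟩ := Ideal.exists_le_maximal _ hne
  have hlamP : (lam : chig.range) ∈ P := hPle (Ideal.subset_span rfl)
  obtain ⟨O', i1, i2, i3, i4, i5, i6, ι, hιinj, hιcomap⟩ :=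
    Fermat.Agent.R.H2.stmt_PDVR chig.range P
  refine ⟨P, O', i1, i2, i3, i4, i5, i6, ι, hPmax, hlamP, hιinj, hιcomap, ?_⟩
  have : (lam : chig.range) ∈ (maximalIdeal O').comap ι := hιcomap ▸ hlamP
  rw [Ideal.mem_comap, map_natCast] at this
  exact this

/-- An integral value of a character, as an element of the range. -/
theorem rangeRestrict_eq_intCast (chig : CuspForm.heckeAlgebra M 2 S →+* ℂ)
    (T : CuspForm.heckeAlgebra M 2 S) (a : ℤ) (h : chig T = (a : ℂ)) :
    chig.rangeRestrict T = (a : chig.range) := by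
  apply Subtype.ext
  rw [RingHom.coe_rangeRestrict, h]
  simp

end Embedding

section Zero

/-- **ZERO.** -/
theorem eq_zero_of_forall_prime_mem (x : ℂ) (hx : IsIntegral ℤ x) (B : ℕ)
    (h : ∀ lam : ℕ, lam.Prime → B < lam →
      ∃ (R : Subring ℂ) (P : Ideal R) (hxR : x ∈ R), P ≠ ⊤ ∧ (lam : R) ∈ P ∧
        (⟨x, hxR⟩ : R) ∈ P) : x = 0 := by
  by_contra hx0
  -- a polynomial `f` over `ℤ` with `f(x) = 0` and nonzero constant term
  obtain ⟨f, hfx, hf0⟩ : ∃ f : ℤ[X], Polynomial.aeval x f = 0 ∧ f.coeff 0 ≠ 0 := by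
    obtain ⟨p, hp, hpx⟩ := hx
    have hp0 : p ≠ 0 := hp.ne_zero
    obtain ⟨q, hq, hnd⟩ := Polynomial.exists_eq_pow_rootMultiplicity_mul_and_not_dvd p hp0 0
    rw [map_zero, sub_zero] at hq hnd
    refine ⟨q, ?_, fun h0 => hnd (Polynomial.X_dvd_iff.mpr h0)⟩
    have h1 : Polynomial.aeval x p = 0 := hpx
    rw [hq, map_mul, map_pow, Polynomial.aeval_X] at h1
    exact (mul_eq_zero.mp h1).resolve_left (pow_ne_zero _ hx0)
  set c : ℤ := f.coeff 0 with hc
  have hc0 : c ≠ 0 := hf0
  -- every large prime divides `c`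
  have hdvd : ∀ lam : ℕ, lam.Prime → B < lam → (lam : ℤ) ∣ c := by
    intro lam hlam hB
    obtain ⟨R, P, hxR, hPtop, hlamP, hxP⟩ := h lam hlam hB
    have hR0 : Polynomial.aeval (⟨x, hxR⟩ : R) f = 0 := by
      apply Subtype.val_injective
      have := Polynomial.aeval_algHom_apply R.subtype.toIntAlgHom (⟨x, hxR⟩ : R) f
      simp only [RingHom.toIntAlgHom_apply, Subring.subtype_apply] at this
      rw [← this, hfx]
      rfl
    have hsplit : f.divX * X + C c = f := Polynomial.divX_mul_X_add f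
    rw [← hsplit] at hR0
    simp only [map_add, map_mul, Polynomial.aeval_X, eq_intCast, map_intCast] at hR0
    have hcP : (c : R) ∈ P := by
      have e : (c : R) = -(Polynomial.aeval (⟨x, hxR⟩ : R) f.divX * (⟨x, hxR⟩ : R)) :=
        eq_neg_of_add_eq_zero_right hR0
      rw [e]
      exact P.neg_mem (P.mul_mem_left _ hxP)
    by_contra hndvd
    have hcop : IsCoprime (lam : ℤ) c :=
      (Nat.prime_iff_prime_int.mp hlam).coprime_iff_not_dvd.mpr hndvd
    obtain ⟨u, v, huv⟩ := hcop
    have h1 : ((u * lam + v * c : ℤ) : R) = 1 := by rw [huv, Int.cast_one]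
    have h2 : ((u * lam + v * c : ℤ) : R) ∈ P := by
      push_cast
      exact P.add_mem (P.mul_mem_left _ hlamP) (P.mul_mem_left _ hcP)
    rw [h1] at h2
    exact hPtop ((Ideal.eq_top_iff_one P).mpr h2)
  obtain ⟨lam, hlam1, hlam2⟩ := Nat.exists_infinite_primes (max B c.natAbs + 1)
  have hB : B < lam := by
    have := le_max_left B c.natAbs
    omega
  have h3 := hdvd lam hlam2 hB
  have h4 : lam ∣ c.natAbs := Int.natCast_dvd.mp h3
  have h5 : lam ≤ c.natAbs := Nat.le_of_dvd (Nat.pos_of_ne_zero (Int.natAbs_ne_zero.mpr hc0)) h4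
  have := le_max_right B c.natAbs
  omega

end Zero

end Fermat.Agent.S58.H99

end
-- ==== END Fermat.Agent.S58.H99_Plumb
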