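-- GENERATED (merged mirror, NOTES/tools/trim/merge3_helper67.py): 9 modules of the originals, bodies verbatim.
import Fermat.Prelude.Def_AlgebraicCurve_BaseChangeGalois
import Fermat.Prelude.Def_ModularCurve_HeckeOperator
import Fermat.Prelude.Def_EllipticCurve_FrobeniusTrace
import Fermat.Prelude.Thm_ModularCurve_coeffMap_qExpand
import Fermat.Agent.Zm.S35_L07_000
import Fermat.Agent.Zm.S35_L04_000
import Fermat.Agent.Zm.S35_L07_001
import Fermat.Agent.Zm.S35_L04_001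
import Fermat.Agent.Zm.S35_L03_001
import Fermat.Agent.Zm.S35_L06_001
import Fermat.Agent.S28.H76_Bridge
import Fermat.Agent.Zm.S35_L03_003
import Fermat.Agent.Zm.S35_L07_002
import Fermat.Agent.Zm.S35_L02_003
import Fermat.Agent.Zm.S35_L07_003

-- ==== BEGIN Fermat.Agent.BAD.H28_Skel
section

/-!
# Item 65, package ABS (helper28): skeleton of the proof of `Stmt_ABS`

Definitions (`SSD.IsNodeP`, `SSD.GoodPos`, `SSD.push₁/₂`, `SSD.Rsub`, `SSD.Lam`, `SSD.Twist`) and
the exact statements of the packages P2 .. P7 of `NOTES/plan/BAD_ABS.md`, as `Prop`s.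
Each package is proved in its own file `Fermat/Agent/BAD/Hnn_*.lean` (statements of other
packages may be used as hypotheses).  This file contains no `sorry`.
-/

set_option autoImplicit false
set_option linter.style.haveILetI false

noncomputable section

open AlgebraicCurve

attribute [local instance] Classical.propDecidable

namespace Fermat.Agent.BAD

open Fermat.Agent.RED.H17 Fermat.Agent.RED

local notation "L" => riemannRochSpace

namespace SSD

variable {K F k F₁ F₂ : Type*} [Field K] [Field F] [Algebra K F] [Field k] [Field F₁]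
  [Algebra k F₁] [Field F₂] [Algebra k F₂] (S : SSD K F k F₁ F₂)

/-- The place `P` reduces to a node. -/
def IsNodeP (P : Place K F) : Prop := ∃ s ∈ S.nodes, S.c₁.r P = some s.1

/-- The divisor `D` is in good position: no place of its support reduces to a node. -/
def GoodPos (D : Divisor K F) : Prop := ∀ P, D P ≠ 0 → ¬ S.IsNodeP P

/-- Push-forward of a divisor to the first component. -/
def push₁ (D : Divisor K F) : Divisor k F₁ := (Finsupp.mapDomain S.c₁.r D).some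

/-- Push-forward of a divisor to the second component. -/
def push₂ (D : Divisor K F) : Divisor k F₂ := (Finsupp.mapDomain S.c₂.r D).some

theorem push₁_apply (D : Divisor K F) (Q : Place k F₁) :
    S.push₁ D Q = Finsupp.mapDomain S.c₁.r D (some Q) := Finsupp.some_apply _ _

theorem push₂_apply (D : Divisor K F) (Q : Place k F₂) :
    S.push₂ D Q = Finsupp.mapDomain S.c₂.r D (some Q) := Finsupp.some_apply _ _

/-- The branches of the nodes on the first component. -/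
def br₁ : Finset (Place k F₁) := S.nodes.image Prod.fst

/-- The branches of the nodes on the second component. -/
def br₂ : Finset (Place k F₂) := S.nodes.image Prod.snd

/-- Lifting constants of the residue field, integral for both valuations. -/
theorem exists_const (a : k) : ∃ c : K, algebraMap K F c ∈ S.c₁.V ∧ algebraMap K F c ∈ S.c₂.V ∧
    S.c₁.rd (algebraMap K F c) = algebraMap k F₁ a ∧
    S.c₂.rd (algebraMap K F c) = algebraMap k F₂ a := by
  obtain ⟨c, h₁, hc⟩ := S.c₁.const_surj a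
  have h₂ := (S.const_mem c).mp h₁
  refine ⟨c, h₁, h₂, ?_, ?_⟩
  · rw [S.c₁.rd_of_mem h₁]; exact hc
  · rw [S.c₂.rd_of_mem h₂]; exact S.const_red c h₁ h₂ a hc

/-- The reduction of the unit ball of `L(D)` for the pair of norms `|h|₁`, `|ϑ h|₂`: the set of
pairs `(red₁ h, red₂ (ϑ h))`, `h ∈ L(D)`, `h ∈ V₁`, `ϑ h ∈ V₂`. -/
def Rsub (ϑ : F) (D : Divisor K F) : Submodule k (F₁ × F₂) where
  carrier := {ψ | ∃ h : F, h ∈ L D ∧ h ∈ S.c₁.V ∧ ϑ * h ∈ S.c₂.V ∧
    S.c₁.rd h = ψ.1 ∧ S.c₂.rd (ϑ * h) = ψ.2}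
  zero_mem' := ⟨0, (L D).zero_mem, S.c₁.V.zero_mem, by rw [mul_zero]; exact S.c₂.V.zero_mem,
    S.c₁.rd_zero, by rw [mul_zero]; exact S.c₂.rd_zero⟩
  add_mem' := by
    rintro ψ ψ' ⟨h, hL, h1, h2, e1, e2⟩ ⟨h', hL', h1', h2', e1', e2'⟩
    refine ⟨h + h', (L D).add_mem hL hL', S.c₁.V.add_mem _ _ h1 h1', ?_, ?_, ?_⟩
    · rw [mul_add]; exact S.c₂.V.add_mem _ _ h2 h2'
    · rw [S.c₁.rd_add h1 h1', e1, e1']; rfl
    · rw [mul_add, S.c₂.rd_add h2 h2', e2, e2']; rfl
  smul_mem' := by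
    rintro a ψ ⟨h, hL, h1, h2, e1, e2⟩
    obtain ⟨c, hc1, hc2, hr1, hr2⟩ := S.exists_const a
    refine ⟨algebraMap K F c * h, ?_, S.c₁.V.mul_mem _ _ hc1 h1, ?_, ?_, ?_⟩
    · rw [← Algebra.smul_def]; exact (L D).smul_mem c hL
    · rw [mul_left_comm]; exact S.c₂.V.mul_mem _ _ hc2 h2
    · rw [S.c₁.rd_mul hc1 h1, hr1, e1, Prod.smul_fst, Algebra.smul_def]
    · rw [mul_left_comm, S.c₂.rd_mul hc2 h2, hr2, e2, Prod.smul_snd, Algebra.smul_def]

theorem mem_Rsub {ϑ : F} {D : Divisor K F} {ψ : F₁ × F₂} :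
    ψ ∈ S.Rsub ϑ D ↔ ∃ h : F, h ∈ L D ∧ h ∈ S.c₁.V ∧ ϑ * h ∈ S.c₂.V ∧
      S.c₁.rd h = ψ.1 ∧ S.c₂.rd (ϑ * h) = ψ.2 := Iff.rfl

/-- The space of pairs `(ψ₁, ψ₂) ∈ L(G₁) × L(G₂)` which are glued at the nodes with the
multipliers `lam`: `ψ₁(s₁) = lam_s ψ₂(s₂)` for every node `s = (s₁, s₂)`. -/
def Lam (lam : Place k F₁ × Place k F₂ → k) (G₁ : Divisor k F₁) (G₂ : Divisor k F₂) :
    Submodule k (F₁ × F₂) where
  carrier := {ψ | ψ.1 ∈ L G₁ ∧ ψ.2 ∈ L G₂ ∧ ∀ s ∈ S.nodes, ∃ a : k,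
    VanAt s.1 (ψ.1 - algebraMap k F₁ a) ∧
    VanAt s.2 (algebraMap k F₂ (lam s) * ψ.2 - algebraMap k F₂ a)}
  zero_mem' := ⟨(L G₁).zero_mem, (L G₂).zero_mem, fun s _ => ⟨0, by
    simp only [Prod.fst_zero, map_zero, sub_zero]; exact vanAt_zero _, by
    simp only [Prod.snd_zero, mul_zero, map_zero, sub_zero]; exact vanAt_zero _⟩⟩
  add_mem' := by
    rintro ψ ψ' ⟨h1, h2, h3⟩ ⟨h1', h2', h3'⟩
    refine ⟨(L G₁).add_mem h1 h1', (L G₂).add_mem h2 h2', fun s hs => ?_⟩
    obtain ⟨a, ha1, ha2⟩ := h3 s hs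
    obtain ⟨a', ha1', ha2'⟩ := h3' s hs
    refine ⟨a + a', ?_, ?_⟩
    · have := ha1.add ha1'
      rw [Prod.fst_add, map_add]
      convert this using 1
      ring
    · have := ha2.add ha2'
      rw [Prod.snd_add, map_add]
      convert this using 1
      ring
  smul_mem' := by
    rintro c ψ ⟨h1, h2, h3⟩
    refine ⟨(L G₁).smul_mem c h1, (L G₂).smul_mem c h2, fun s hs => ?_⟩
    obtain ⟨a, ha1, ha2⟩ := h3 s hs
    refine ⟨c * a, ?_, ?_⟩
    · have := (regAt_algebraMap s.1 c).mul_vanAt ha1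
      rw [Prod.smul_fst, Algebra.smul_def, map_mul]
      convert this using 1
      ring
    · have := (regAt_algebraMap s.2 c).mul_vanAt ha2
      rw [Prod.smul_snd, Algebra.smul_def, map_mul]
      convert this using 1
      ring

theorem mem_Lam {lam : Place k F₁ × Place k F₂ → k} {G₁ : Divisor k F₁} {G₂ : Divisor k F₂}
    {ψ : F₁ × F₂} :
    ψ ∈ S.Lam lam G₁ G₂ ↔ ψ.1 ∈ L G₁ ∧ ψ.2 ∈ L G₂ ∧ ∀ s ∈ S.nodes, ∃ a : k,
      VanAt s.1 (ψ.1 - algebraMap k F₁ a) ∧
      VanAt s.2 (algebraMap k F₂ (lam s) * ψ.2 - algebraMap k F₂ a) := Iff.rfl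

/-- **Twist datum** of a function `f` with `red₁ f = 1` and divisor divisible by `n`:
`f = ϑ ^ n f₂` with `f₂` a unit for `V₂` whose reduction `γ` has no zero or pole at the branches
of the nodes. -/
structure Twist (n : ℕ) where
  /-- the function -/
  f : F
  /-- the twist -/
  ϑ : F
  hϑ : ϑ ≠ 0
  hf₁ : f ∈ S.c₁.V
  hrd₁ : S.c₁.rd f = 1
  hf₂ : S.c₂.IsGU (f / ϑ ^ n)
  hdiv : ∀ P : Place K F, (n : ℤ) ∣ P.ord f
  hγ : ∀ s ∈ S.nodes, s.2.ord (S.c₂.rd (f / ϑ ^ n)) = 0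

namespace Twist

variable {S} {n : ℕ} (x : S.Twist n)

/-- The reduction of `f / ϑ ^ n` on the second component. -/
def γ : F₂ := S.c₂.rd (x.f / x.ϑ ^ n)

/-- The divisor `(1/n) div f`. -/
def Dx (hP : HasPrincipalDivisors K F) : Divisor K F :=
  (dv hP x.f).mapRange (fun m : ℤ => m / (n : ℤ)) (by simp)

/-- The divisor `(1/n) div γ`. -/
def Δ (hP₂ : HasPrincipalDivisors k F₂) : Divisor k F₂ :=
  (dv hP₂ x.γ).mapRange (fun m : ℤ => m / (n : ℤ)) (by simp)

end Twist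

end SSD

/-! ### The packages -/

section Stmts

/-- **P2 (ii), twisted pivot**: the reduction of the unit ball of `L(D)` has dimension at least
`l(D)` (if it is finite-dimensional). -/
def Stmt_Pivot : Prop :=
  ∀ (K F k F₁ F₂ : Type) [Field K] [Field F] [Algebra K F] [Field k] [Field F₁]
    [Algebra k F₁] [Field F₂] [Algebra k F₂] [Infinite k]
    (S : SSD K F k F₁ F₂), FFHyp K F → FFHyp k F₁ → FFHyp k F₂ →
    ∀ (ϑ : F), ϑ ≠ 0 → ∀ D : Divisor K F, Module.Finite k (S.Rsub ϑ D) →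
      Module.finrank K (L D) ≤ Module.finrank k (S.Rsub ϑ D)

/-- **P2 (i), containment**: for a twist datum `x` and `G` in good position, the reduction of
the unit ball of `L(D_x + G)` lies in `L₁(r₁_* G) × L₂(r₂_* G + Δ)`, and its elements satisfy the
`n`-th power gluing condition at the nodes. -/
def Stmt_Contain : Prop :=
  ∀ (K F k F₁ F₂ : Type) [Field K] [Field F] [Algebra K F] [Field k] [Field F₁]
    [Algebra k F₁] [Field F₂] [Algebra k F₂]
    (S : SSD K F k F₁ F₂) (H : FFHyp K F) (_ : FFHyp k F₁) (H₂ : FFHyp k F₂)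
    (n : ℕ), (n : k) ≠ 0 → ∀ (x : S.Twist n) (G : Divisor K F), S.GoodPos G →
    ∀ ψ ∈ S.Rsub x.ϑ (x.Dx H.principal + G),
      ψ.1 ∈ L (S.push₁ G) ∧ ψ.2 ∈ L (S.push₂ G + x.Δ H₂.principal) ∧
      ∀ s ∈ S.nodes, ∃ a : k, VanAt s.1 (ψ.1 ^ n - algebraMap k F₁ a) ∧
        VanAt s.2 (x.γ * ψ.2 ^ n - algebraMap k F₂ a)

/-- **P3, linearisation**: a `k`-subspace of pairs satisfying the `n`-th power gluing condition
satisfies a linear gluing condition. -/
def Stmt_Linearise : Prop :=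
  ∀ (k F₁ F₂ : Type) [Field k] [Field F₁] [Algebra k F₁] [Field F₂] [Algebra k F₂]
    [Infinite k], FFHyp k F₁ → FFHyp k F₂ →
    ∀ (nodes : Finset (Place k F₁ × Place k F₂)) (n : ℕ), (n : k) ≠ 0 →
    ∀ (γ : F₂), γ ≠ 0 → (∀ s ∈ nodes, s.2.ord γ = 0) →
    ∀ I : Submodule k (F₁ × F₂),
      (∀ ψ ∈ I, ∀ s ∈ nodes, ∃ a : k, VanAt s.1 (ψ.1 ^ n - algebraMap k F₁ a) ∧
        VanAt s.2 (γ * ψ.2 ^ n - algebraMap k F₂ a)) →
      ∃ lam : Place k F₁ × Place k F₂ → k, (∀ s ∈ nodes, lam s ≠ 0) ∧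
        ∀ ψ ∈ I, ∀ s ∈ nodes, ∃ a : k, VanAt s.1 (ψ.1 - algebraMap k F₁ a) ∧
          VanAt s.2 (algebraMap k F₂ (lam s) * ψ.2 - algebraMap k F₂ a)

/-- **P3, count**: `dim Λ^λ(G₁, G₂) ≤ l₁(G₁ - ∑ s₁) + l₂(G₂ - ∑ s₂) + δ`. -/
def Stmt_LamCount : Prop :=
  ∀ (K F k F₁ F₂ : Type) [Field K] [Field F] [Algebra K F] [Field k] [Field F₁]
    [Algebra k F₁] [Field F₂] [Algebra k F₂]
    (S : SSD K F k F₁ F₂), FFHyp k F₁ → FFHyp k F₂ →
    ∀ (lam : Place k F₁ × Place k F₂ → k), (∀ s ∈ S.nodes, lam s ≠ 0) →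
    ∀ (G₁ : Divisor k F₁) (G₂ : Divisor k F₂),
      (∀ s ∈ S.nodes, G₁ s.1 = 0) → (∀ s ∈ S.nodes, G₂ s.2 = 0) →
      Module.finrank k (S.Lam lam G₁ G₂) ≤
        Module.finrank k (L (G₁ - ptsDiv S.br₁)) + Module.finrank k (L (G₂ - ptsDiv S.br₂)) +
          S.nodes.card

/-- **P3, surjectivity of the twisted reduction**: for `G` in good position of large degree on
both components, the reduction of the unit ball of `L(D_x + G)` is the whole of `Λ^λ`, for
suitable multipliers `λ`. -/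
def Stmt_TwSurj : Prop :=
  ∀ (K F k F₁ F₂ : Type) [Field K] [Field F] [Algebra K F] [Field k] [Field F₁]
    [Algebra k F₁] [Field F₂] [Algebra k F₂] [Infinite k]
    (S : SSD K F k F₁ F₂) (H : FFHyp K F) (_ : FFHyp k F₁) (H₂ : FFHyp k F₂)
    (g g₁ g₂ : ℕ) (c c₁ c₂ : ℤ), IsGenus K F g c → IsGenus k F₁ g₁ c₁ → IsGenus k F₂ g₂ c₂ →
    g + 1 ≤ g₁ + g₂ + S.nodes.card →
    ∀ (n : ℕ), (n : k) ≠ 0 → ∀ (x : S.Twist n) (G : Divisor K F), S.GoodPos G →
      c₁ + S.nodes.card ≤ Divisor.degree (S.push₁ G) →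
      c₂ + S.nodes.card ≤ Divisor.degree (S.push₂ G) →
      ∃ lam : Place k F₁ × Place k F₂ → k, (∀ s ∈ S.nodes, lam s ≠ 0) ∧
        S.Rsub x.ϑ (x.Dx H.principal + G) =
          S.Lam lam (S.push₁ G) (S.push₂ G + x.Δ H₂.principal) ∧
        (Module.finrank k (S.Lam lam (S.push₁ G) (S.push₂ G + x.Δ H₂.principal)) : ℤ) =
          Divisor.degree G + 2 - g₁ - g₂ - S.nodes.card

/-- **Existence of twist data.** -/
def Stmt_TwistExists : Prop :=
  ∀ (K F k F₁ F₂ : Type) [Field K] [Field F] [Algebra K F] [Field k] [Field F₁]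
    [Algebra k F₁] [Field F₂] [Algebra k F₂] [IsAlgClosed K]
    (S : SSD K F k F₁ F₂), FFHyp K F → FFHyp k F₁ → FFHyp k F₂ →
    ∀ (n : ℕ), n ≠ 0 → ∀ (f : F) (hf : f ∈ S.c₁.V), S.c₁.red ⟨f, hf⟩ = 1 →
      (∀ P : Place K F, (n : ℤ) ∣ P.ord f) → ∃ x : S.Twist n, x.f = f

/-- **P4, good lifts**: a pair of functions on the two components, regular at the branches of
the nodes with equal values there, lifts to a function integral for both valuations, regular on
the fibres of the nodes and of finitely many prescribed regular points where the pair is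
regular. -/
def Stmt_GoodLift : Prop :=
  ∀ (K F k F₁ F₂ : Type) [Field K] [Field F] [Algebra K F] [Field k] [Field F₁]
    [Algebra k F₁] [Field F₂] [Algebra k F₂] [Infinite k]
    (S : SSD K F k F₁ F₂), FFHyp K F → FFHyp k F₁ → FFHyp k F₂ →
    ∀ (g g₁ g₂ : ℕ) (c c₁ c₂ : ℤ), IsGenus K F g c → IsGenus k F₁ g₁ c₁ → IsGenus k F₂ g₂ c₂ →
    g + 1 ≤ g₁ + g₂ + S.nodes.card →
    ∀ (y₁ : F₁) (y₂ : F₂) (T₁ : Finset (Place k F₁)) (T₂ : Finset (Place k F₂)),
      (∀ Q ∈ T₁, 0 ≤ Q.ord y₁) → (∀ Q ∈ T₂, 0 ≤ Q.ord y₂) →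
      (∀ s ∈ S.nodes, ∃ a : k, VanAt s.1 (y₁ - algebraMap k F₁ a) ∧
        VanAt s.2 (y₂ - algebraMap k F₂ a)) →
      ∃ u : F, u ∈ S.c₁.V ∧ u ∈ S.c₂.V ∧ S.c₁.rd u = y₁ ∧ S.c₂.rd u = y₂ ∧
        (∀ P, ∀ Q ∈ T₁, S.c₁.r P = some Q → 0 ≤ P.ord u) ∧
        (∀ P, ∀ Q ∈ T₂, S.c₂.r P = some Q → 0 ≤ P.ord u) ∧
        ∀ P, S.IsNodeP P → 0 ≤ P.ord u

/-- **P1', non-special pair on the nodal curve.** -/
def Stmt_NodalNS : Prop :=
  ∀ (K F k F₁ F₂ : Type) [Field K] [Field F] [Algebra K F] [Field k] [Field F₁]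
    [Algebra k F₁] [Field F₂] [Algebra k F₂] [Infinite k]
    (S : SSD K F k F₁ F₂), FFHyp k F₁ → FFHyp k F₂ →
    ∀ (g₁ g₂ : ℕ) (c₁ c₂ : ℤ), IsGenus k F₁ g₁ c₁ → IsGenus k F₂ g₂ c₂ →
    ∀ (T₁ : Finset (Place k F₁)) (T₂ : Finset (Place k F₂)),
    ∃ (A₁ : Finset (Place k F₁)) (A₂ : Finset (Place k F₂)),
      A₁.card + A₂.card + 1 = g₁ + g₂ + S.nodes.card ∧
      Disjoint A₁ (S.br₁ ∪ T₁) ∧ Disjoint A₂ (S.br₂ ∪ T₂) ∧
      ∀ ψ₁ ∈ L (ptsDiv A₁), ∀ ψ₂ ∈ L (ptsDiv A₂),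
        (∀ s ∈ S.nodes, ∃ a : k, VanAt s.1 (ψ₁ - algebraMap k F₁ a) ∧
          VanAt s.2 (ψ₂ - algebraMap k F₂ a)) →
        ∃ a : k, ψ₁ = algebraMap k F₁ a ∧ ψ₂ = algebraMap k F₂ a

/-- **P5, torsion injectivity in good position** (TI-ss-gp). -/
def Stmt_TIss : Prop :=
  ∀ (K F k F₁ F₂ : Type) [Field K] [Field F] [Algebra K F] [Field k] [Field F₁]
    [Algebra k F₁] [Field F₂] [Algebra k F₂] [IsAlgClosed K] [Infinite k]
    (S : SSD K F k F₁ F₂), FFHyp K F → FFHyp k F₁ → FFHyp k F₂ →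
    ∀ (g g₁ g₂ : ℕ) (c c₁ c₂ : ℤ), IsGenus K F g c → IsGenus k F₁ g₁ c₁ → IsGenus k F₂ g₂ c₂ →
    g + 1 ≤ g₁ + g₂ + S.nodes.card →
    ∀ (n : ℕ), (n : k) ≠ 0 →
    ∀ (f : F), f ∈ S.c₁.V → f ∈ S.c₂.V → S.c₁.rd f = 1 → S.c₂.rd f = 1 →
      (∀ P : Place K F, (n : ℤ) ∣ P.ord f) → (∀ P : Place K F, S.IsNodeP P → P.ord f = 0) →
      ∃ t : F, t ^ n = f

/-- **P6, moving lemma.** -/
def Stmt_Moving : Prop :=
  ∀ (K F k F₁ F₂ : Type) [Field K] [Field F] [Algebra K F] [Field k] [Field F₁]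
    [Algebra k F₁] [Field F₂] [Algebra k F₂] [Infinite k]
    (S : SSD K F k F₁ F₂), FFHyp K F → FFHyp k F₁ → FFHyp k F₂ →
    ∀ (g g₁ g₂ : ℕ) (c c₁ c₂ : ℤ), IsGenus K F g c → IsGenus k F₁ g₁ c₁ → IsGenus k F₂ g₂ c₂ →
    g + 1 ≤ g₁ + g₂ + S.nodes.card →
    ∀ (n : ℕ), (n : k) ≠ 0 → ∀ (x : S.Twist n),
      ∃ h : F, S.c₁.IsGU h ∧ S.c₂.IsGU (x.ϑ * h) ∧
        ∀ P : Place K F, S.IsNodeP P → P.ord (x.f * h ^ n) = 0

/-- **P2 (i), untwisted containment**: for `D` in good position, the reduction of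
`L(D) ∩ V₁ ∩ V₂` lies in `Λ¹(r₁_* D, r₂_* D)` (linear gluing with multipliers `1`). -/
def Stmt_Contain0 : Prop :=
  ∀ (K F k F₁ F₂ : Type) [Field K] [Field F] [Algebra K F] [Field k] [Field F₁]
    [Algebra k F₁] [Field F₂] [Algebra k F₂]
    (S : SSD K F k F₁ F₂), FFHyp K F → FFHyp k F₁ → FFHyp k F₂ →
    ∀ (D : Divisor K F), S.GoodPos D →
      S.Rsub 1 D ≤ S.Lam (fun _ => 1) (S.push₁ D) (S.push₂ D)

/-- **P4', coordinates on the residue discs**: for finite sets `A₁`, `A₂` of regular points of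
the two components and `Q ∈ A₁` there is a function `s`, a unit for both valuations, regular on
the fibres of the points of `A₁`, `A₂` and of the nodes, whose reduction on the first component
has a simple zero at `Q` and no zero at the other points of `A₁`, and whose reduction on the
second component has no zero on `A₂`; and symmetrically for `Q ∈ A₂`. -/
def Stmt_Coords : Prop :=
  ∀ (K F k F₁ F₂ : Type) [Field K] [Field F] [Algebra K F] [Field k] [Field F₁]
    [Algebra k F₁] [Field F₂] [Algebra k F₂] [Infinite k]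
    (S : SSD K F k F₁ F₂), FFHyp K F → FFHyp k F₁ → FFHyp k F₂ →
    ∀ (g g₁ g₂ : ℕ) (c c₁ c₂ : ℤ), IsGenus K F g c → IsGenus k F₁ g₁ c₁ → IsGenus k F₂ g₂ c₂ →
    g + 1 ≤ g₁ + g₂ + S.nodes.card →
    ∀ (A₁ : Finset (Place k F₁)) (A₂ : Finset (Place k F₂)),
      Disjoint A₁ S.br₁ → Disjoint A₂ S.br₂ →
      (∀ Q ∈ A₁, ∃ s : F, S.c₁.IsCoord s Q ∧ S.c₂.IsGU s ∧
        (∀ Q' ∈ A₁, Q' ≠ Q → Q'.ord (S.c₁.rd s) = 0) ∧
        (∀ Q' ∈ A₂, Q'.ord (S.c₂.rd s) = 0) ∧
        (∀ P, ∀ Q' ∈ A₁, S.c₁.r P = some Q' → 0 ≤ P.ord s) ∧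
        (∀ P, ∀ Q' ∈ A₂, S.c₂.r P = some Q' → 0 ≤ P.ord s) ∧
        ∀ P, S.IsNodeP P → P.ord s = 0) ∧
      (∀ Q ∈ A₂, ∃ s : F, S.c₂.IsCoord s Q ∧ S.c₁.IsGU s ∧
        (∀ Q' ∈ A₂, Q' ≠ Q → Q'.ord (S.c₂.rd s) = 0) ∧
        (∀ Q' ∈ A₁, Q'.ord (S.c₁.rd s) = 0) ∧
        (∀ P, ∀ Q' ∈ A₁, S.c₁.r P = some Q' → 0 ≤ P.ord s) ∧
        (∀ P, ∀ Q' ∈ A₂, S.c₂.r P = some Q' → 0 ≤ P.ord s) ∧
        ∀ P, S.IsNodeP P → P.ord s = 0)

end Stmts

end Fermat.Agent.BAD

end
end
-- ==== END Fermat.Agent.BAD.H28_Skel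

-- ==== BEGIN Fermat.Agent.GTor.Clo.LemmaJ
section

/-!
# S24 construction, layer 3 (WP CLO-LemmaJ): the `SL(2, ℤ)`-invariants of `Atil N` are `Q̄[j]`

Proof sketch. Let `f ∈ Atil N` be invariant, `c = uExp N f`.
* `T • f = f` and `uExp_T_smul` give `c n = ζ_N ^ (-n) * c n`, so `c n = 0` unless `N ∣ n`
  (`zetaK_zpow_eq_one_iff`).
* Induction on the pole order `M` (`c n = 0` for `n < - N * M`):
  - `M = 0`: `f` is bounded at `∞` (`isBoundedAtImInfty_of_uExp`), holomorphic and invariant,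
    so it is a modular form of weight `0` and level one, hence constant
    (`ModularFormClass.levelOne_weight_zero_const`); then `eq_algebraMap_of_const`.
  - `M + 1`: `f - c (- N (M+1)) • j ^ (M+1)` is invariant with pole order `≤ M`
    (`uExp_jA`, `jq` has leading coefficient `1` at `-1`, `smul_jA`).
-/

set_option autoImplicit false

noncomputable section

namespace Fermat.Agent.GTor.Clo

open Fermat.Agent.S24

open ModularCurve UpperHalfPlane
open scoped MatrixGroups Manifold ModularForm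

/-- `T`-invariance forces the expansion to be supported on the multiples of `N`. -/
theorem lemmaJ_coeff_eq_zero_of_not_dvd (N : ℕ) [NeZero N] (f : _root_.Fermat.Agent.GTor.Clo.Atil N)
    (hT : ModularGroup.T • f = f) (n : ℤ) (hn : ¬ (N : ℤ) ∣ n) : (_root_.Fermat.Agent.GTor.Clo.uExp N f).coeff n = 0 := by
  have h := _root_.Fermat.Agent.GTor.Clo.uExp_T_smul N f
  rw [hT] at h
  have h1 : (_root_.Fermat.Agent.GTor.Clo.uExp N f).coeff n = (_root_.Fermat.Agent.GTor.Clo.zetaK N)⁻¹ ^ n * (_root_.Fermat.Agent.GTor.Clo.uExp N f).coeff n := by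
    conv_lhs => rw [h]
    rw [twist_coeff]
  by_contra hne
  have h2 : (_root_.Fermat.Agent.GTor.Clo.zetaK N)⁻¹ ^ n = 1 := by
    have h3 : ((_root_.Fermat.Agent.GTor.Clo.zetaK N)⁻¹ ^ n - 1) * (_root_.Fermat.Agent.GTor.Clo.uExp N f).coeff n = 0 := by
      linear_combination -h1
    rcases mul_eq_zero.mp h3 with h4 | h4
    · exact sub_eq_zero.mp h4
    · exact absurd h4 hne
  rw [inv_zpow] at h2
  exact hn ((_root_.Fermat.Agent.GTor.Clo.zetaK_zpow_eq_one_iff N n).mp (inv_eq_one.mp h2))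

/-- An invariant element of `Atil N`, as a function, is invariant under `τ ↦ γ τ`. -/
theorem lemmaJ_apply_smul (N : ℕ) (f : _root_.Fermat.Agent.GTor.Clo.Atil N) (hf : ∀ γ : SL(2, ℤ), γ • f = f)
    (γ : SL(2, ℤ)) (τ : ℍ) : ((f : Hol) : ℍ → ℂ) (γ • τ) = ((f : Hol) : ℍ → ℂ) τ := by
  have h := hf γ⁻¹
  have h1 : ((γ⁻¹ • f : _root_.Fermat.Agent.GTor.Clo.Atil N) : Hol) = (f : Hol) := congrArg Subtype.val h
  rw [_root_.Fermat.Agent.GTor.Clo.coe_smul_Atil] at h1
  have h2 := congrFun (congrArg Subtype.val h1) τ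
  rw [Hol.smul_apply, inv_inv] at h2
  exact h2

/-- An invariant element of `Atil N` which is bounded at `∞` is constant. -/
theorem lemmaJ_const (N : ℕ) (f : _root_.Fermat.Agent.GTor.Clo.Atil N) (hf : ∀ γ : SL(2, ℤ), γ • f = f)
    (hb : IsBoundedAtImInfty ((f : Hol) : ℍ → ℂ)) :
    ∃ a : ℂ, ∀ τ : ℍ, ((f : Hol) : ℍ → ℂ) τ = a := by
  have hslash : ∀ γ : SL(2, ℤ), (((f : Hol) : ℍ → ℂ) ∣[(0 : ℤ)] γ) = ((f : Hol) : ℍ → ℂ) := by
    intro γ
    funext τ
    rw [ModularForm.SL_slash_apply, _root_.Fermat.Agent.GTor.Clo.lemmaJ_apply_smul N f hf γ τ]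
    simp
  let F : ModularForm 𝒮ℒ 0 :=
    { toFun := ((f : Hol) : ℍ → ℂ)
      slash_action_eq' := fun _ ⟨γ, hγ⟩ ↦ hγ ▸ hslash γ
      holo' := Hol.mdifferentiable (f : Hol)
      bdd_at_cusps' := by
        intro c hc
        rw [Subgroup.IsArithmetic.isCusp_iff_isCusp_SL2Z] at hc
        rw [OnePoint.isBoundedAt_iff_forall_SL2Z hc]
        intro γ _
        rw [hslash γ]
        exact hb }
  obtain ⟨a, ha⟩ := ModularFormClass.levelOne_weight_zero_const F
  exact ⟨a, fun τ => congrFun ha τ⟩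

/-- The expansion of `j ^ n`. -/
theorem lemmaJ_uExp_jA_pow (N : ℕ) [NeZero N] (n : ℕ) :
    _root_.Fermat.Agent.GTor.Clo.uExp N (_root_.Fermat.Agent.GTor.Clo.jA N ^ n) = qExpand _root_.Fermat.Agent.GTor.Clo.Kbar N (coeffEmb _root_.Fermat.Agent.GTor.Clo.Kbar (jq ^ n)) := by
  rw [map_pow, _root_.Fermat.Agent.GTor.Clo.uExp_jA, _root_.Fermat.Agent.GTor.Clo.jBar, map_pow, map_pow]

theorem lemmaJ_coeff_jA_pow_self (N : ℕ) [NeZero N] (n : ℕ) :
    (_root_.Fermat.Agent.GTor.Clo.uExp N (_root_.Fermat.Agent.GTor.Clo.jA N ^ n)).coeff (-((N : ℤ) * n)) = 1 := by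
  rw [_root_.Fermat.Agent.GTor.Clo.lemmaJ_uExp_jA_pow, show -((N : ℤ) * n) = (N : ℤ) * (-(n : ℤ)) by ring,
    qExpand_coeff_mul, coeffEmb_coeff, coeff_jq_pow_self, map_one]

theorem lemmaJ_coeff_jA_pow_of_lt (N : ℕ) [NeZero N] (n : ℕ) {m : ℤ}
    (hm : m < -((N : ℤ) * n)) : (_root_.Fermat.Agent.GTor.Clo.uExp N (_root_.Fermat.Agent.GTor.Clo.jA N ^ n)).coeff m = 0 := by
  rw [_root_.Fermat.Agent.GTor.Clo.lemmaJ_uExp_jA_pow]
  by_cases hd : (N : ℤ) ∣ m
  · obtain ⟨k, rfl⟩ := hd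
    have hN : (0 : ℤ) < N := by exact_mod_cast Nat.pos_of_ne_zero (NeZero.ne N)
    have hk : k < -(n : ℤ) := by
      by_contra hk
      have : -((N : ℤ) * n) ≤ (N : ℤ) * k := by
        have := mul_le_mul_of_nonneg_left (not_lt.mp hk) hN.le
        linarith
      exact absurd hm (not_lt.mpr this)
    rw [qExpand_coeff_mul, coeffEmb_coeff, coeff_jq_pow_of_lt hk, map_zero]
  · exact qExpand_coeff_of_not_dvd N _ hd

theorem lemmaJ_coeff_algebraMap_mul (a : _root_.Fermat.Agent.GTor.Clo.Kbar) (c : LaurentSeries _root_.Fermat.Agent.GTor.Clo.Kbar) (n : ℤ) :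
    (algebraMap _root_.Fermat.Agent.GTor.Clo.Kbar (LaurentSeries _root_.Fermat.Agent.GTor.Clo.Kbar) a * c).coeff n = a * c.coeff n := by
  rw [LaurentSeries.algebraMap_apply, HahnSeries.C_mul_eq_smul, HahnSeries.coeff_smul,
    smul_eq_mul]

/-- The element `f - a j ^ n` and its properties. -/
theorem lemmaJ_step_smul (N : ℕ) [NeZero N] (f : _root_.Fermat.Agent.GTor.Clo.Atil N) (hf : ∀ γ : SL(2, ℤ), γ • f = f)
    (a : _root_.Fermat.Agent.GTor.Clo.Kbar) (n : ℕ) (γ : SL(2, ℤ)) :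
    γ • (f - algebraMap _root_.Fermat.Agent.GTor.Clo.Kbar (_root_.Fermat.Agent.GTor.Clo.Atil N) a * _root_.Fermat.Agent.GTor.Clo.jA N ^ n) =
      f - algebraMap _root_.Fermat.Agent.GTor.Clo.Kbar (_root_.Fermat.Agent.GTor.Clo.Atil N) a * _root_.Fermat.Agent.GTor.Clo.jA N ^ n := by
  have h1 : γ • (f - algebraMap _root_.Fermat.Agent.GTor.Clo.Kbar (_root_.Fermat.Agent.GTor.Clo.Atil N) a * _root_.Fermat.Agent.GTor.Clo.jA N ^ n) =
      γ • f - γ • (algebraMap _root_.Fermat.Agent.GTor.Clo.Kbar (_root_.Fermat.Agent.GTor.Clo.Atil N) a * _root_.Fermat.Agent.GTor.Clo.jA N ^ n) := smul_sub γ f _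
  have h2 : γ • (algebraMap _root_.Fermat.Agent.GTor.Clo.Kbar (_root_.Fermat.Agent.GTor.Clo.Atil N) a * _root_.Fermat.Agent.GTor.Clo.jA N ^ n) =
      γ • (algebraMap _root_.Fermat.Agent.GTor.Clo.Kbar (_root_.Fermat.Agent.GTor.Clo.Atil N) a) * γ • (_root_.Fermat.Agent.GTor.Clo.jA N ^ n) := smul_mul' γ _ _
  have h3 : γ • (_root_.Fermat.Agent.GTor.Clo.jA N ^ n) = (γ • _root_.Fermat.Agent.GTor.Clo.jA N) ^ n := smul_pow' γ (_root_.Fermat.Agent.GTor.Clo.jA N) n
  have h4 : γ • (algebraMap _root_.Fermat.Agent.GTor.Clo.Kbar (_root_.Fermat.Agent.GTor.Clo.Atil N) a) = algebraMap _root_.Fermat.Agent.GTor.Clo.Kbar (_root_.Fermat.Agent.GTor.Clo.Atil N) a :=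
    smul_algebraMap γ a
  rw [h1, h2, h3, h4, hf γ, _root_.Fermat.Agent.GTor.Clo.smul_jA]

theorem lemmaJ_step_coeff (N : ℕ) [NeZero N] (f : _root_.Fermat.Agent.GTor.Clo.Atil N) (a : _root_.Fermat.Agent.GTor.Clo.Kbar) (n : ℕ) (m : ℤ) :
    (_root_.Fermat.Agent.GTor.Clo.uExp N (f - algebraMap _root_.Fermat.Agent.GTor.Clo.Kbar (_root_.Fermat.Agent.GTor.Clo.Atil N) a * _root_.Fermat.Agent.GTor.Clo.jA N ^ n)).coeff m =
      (_root_.Fermat.Agent.GTor.Clo.uExp N f).coeff m - a * (_root_.Fermat.Agent.GTor.Clo.uExp N (_root_.Fermat.Agent.GTor.Clo.jA N ^ n)).coeff m := by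
  have h1 : _root_.Fermat.Agent.GTor.Clo.uExp N (f - algebraMap _root_.Fermat.Agent.GTor.Clo.Kbar (_root_.Fermat.Agent.GTor.Clo.Atil N) a * _root_.Fermat.Agent.GTor.Clo.jA N ^ n) =
      _root_.Fermat.Agent.GTor.Clo.uExp N f - _root_.Fermat.Agent.GTor.Clo.uExp N (algebraMap _root_.Fermat.Agent.GTor.Clo.Kbar (_root_.Fermat.Agent.GTor.Clo.Atil N) a * _root_.Fermat.Agent.GTor.Clo.jA N ^ n) := map_sub (_root_.Fermat.Agent.GTor.Clo.uExp N) f _
  have h2 : _root_.Fermat.Agent.GTor.Clo.uExp N (algebraMap _root_.Fermat.Agent.GTor.Clo.Kbar (_root_.Fermat.Agent.GTor.Clo.Atil N) a * _root_.Fermat.Agent.GTor.Clo.jA N ^ n) =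
      _root_.Fermat.Agent.GTor.Clo.uExp N (algebraMap _root_.Fermat.Agent.GTor.Clo.Kbar (_root_.Fermat.Agent.GTor.Clo.Atil N) a) * _root_.Fermat.Agent.GTor.Clo.uExp N (_root_.Fermat.Agent.GTor.Clo.jA N ^ n) := map_mul (_root_.Fermat.Agent.GTor.Clo.uExp N) _ _
  have h3 : _root_.Fermat.Agent.GTor.Clo.uExp N (algebraMap _root_.Fermat.Agent.GTor.Clo.Kbar (_root_.Fermat.Agent.GTor.Clo.Atil N) a) = algebraMap _root_.Fermat.Agent.GTor.Clo.Kbar (LaurentSeries _root_.Fermat.Agent.GTor.Clo.Kbar) a :=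
    AlgHom.commutes (_root_.Fermat.Agent.GTor.Clo.uExp N) a
  rw [h1, h2, h3, HahnSeries.coeff_sub, _root_.Fermat.Agent.GTor.Clo.lemmaJ_coeff_algebraMap_mul]

/-- Lemma J, by induction on the pole order. -/
theorem lemmaJ_aux (N : ℕ) [NeZero N] (M : ℕ) :
    ∀ f : _root_.Fermat.Agent.GTor.Clo.Atil N, (∀ γ : SL(2, ℤ), γ • f = f) →
      (∀ n : ℤ, n < -((N : ℤ) * M) → (_root_.Fermat.Agent.GTor.Clo.uExp N f).coeff n = 0) →
      ∃ p : Polynomial _root_.Fermat.Agent.GTor.Clo.Kbar, Polynomial.aeval (_root_.Fermat.Agent.GTor.Clo.jA N) p = f := by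
  have hN : (0 : ℤ) < N := by exact_mod_cast Nat.pos_of_ne_zero (NeZero.ne N)
  induction M with
  | zero =>
    intro f hf hc
    have hb : IsBoundedAtImInfty ((f : Hol) : ℍ → ℂ) :=
      _root_.Fermat.Agent.GTor.Clo.isBoundedAtImInfty_of_uExp N f (fun n hn => hc n (by simpa using hn))
    obtain ⟨a, ha⟩ := _root_.Fermat.Agent.GTor.Clo.lemmaJ_const N f hf hb
    refine ⟨Polynomial.C ((_root_.Fermat.Agent.GTor.Clo.uExp N f).coeff 0), ?_⟩
    rw [Polynomial.aeval_C]
    exact (_root_.Fermat.Agent.GTor.Clo.eq_algebraMap_of_const N f a ha).symm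
  | succ M ih =>
    intro f hf hc
    obtain ⟨a, ha⟩ : ∃ a : _root_.Fermat.Agent.GTor.Clo.Kbar, a = (_root_.Fermat.Agent.GTor.Clo.uExp N f).coeff (-((N : ℤ) * ((M + 1 : ℕ) : ℤ))) :=
      ⟨_, rfl⟩
    have hginv := _root_.Fermat.Agent.GTor.Clo.lemmaJ_step_smul N f hf a (M + 1)
    have hgc := _root_.Fermat.Agent.GTor.Clo.lemmaJ_step_coeff N f a (M + 1)
    have hgvanish : ∀ n : ℤ, n < -((N : ℤ) * M) →
        (_root_.Fermat.Agent.GTor.Clo.uExp N (f - algebraMap _root_.Fermat.Agent.GTor.Clo.Kbar (_root_.Fermat.Agent.GTor.Clo.Atil N) a * _root_.Fermat.Agent.GTor.Clo.jA N ^ (M + 1))).coeff n = 0 := by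
      intro n hn
      by_cases hd : (N : ℤ) ∣ n
      · obtain ⟨k, rfl⟩ := hd
        have hk : k < -(M : ℤ) := by
          by_contra hk
          have := mul_le_mul_of_nonneg_left (not_lt.mp hk) hN.le
          linarith
        rcases lt_or_eq_of_le (show k ≤ -((M + 1 : ℕ) : ℤ) by push_cast; omega) with hk' | hk'
        · have hlt : (N : ℤ) * k < -((N : ℤ) * ((M + 1 : ℕ) : ℤ)) := by
            have := mul_lt_mul_of_pos_left hk' hN
            linarith
          rw [hgc, hc _ hlt, _root_.Fermat.Agent.GTor.Clo.lemmaJ_coeff_jA_pow_of_lt N (M + 1) hlt]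
          ring
        · have he : (N : ℤ) * k = -((N : ℤ) * ((M + 1 : ℕ) : ℤ)) := by
            rw [hk']; ring
          rw [hgc, he, _root_.Fermat.Agent.GTor.Clo.lemmaJ_coeff_jA_pow_self N (M + 1), ← ha]
          ring
      · exact _root_.Fermat.Agent.GTor.Clo.lemmaJ_coeff_eq_zero_of_not_dvd N _ (hginv _) n hd
    obtain ⟨p, hp⟩ := ih _ hginv hgvanish
    refine ⟨p + Polynomial.C a * Polynomial.X ^ (M + 1), ?_⟩
    have e1 : Polynomial.aeval (_root_.Fermat.Agent.GTor.Clo.jA N) (p + Polynomial.C a * Polynomial.X ^ (M + 1)) =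
        Polynomial.aeval (_root_.Fermat.Agent.GTor.Clo.jA N) p +
          Polynomial.aeval (_root_.Fermat.Agent.GTor.Clo.jA N) (Polynomial.C a * Polynomial.X ^ (M + 1)) :=
      map_add (Polynomial.aeval (_root_.Fermat.Agent.GTor.Clo.jA N)) _ _
    have e2 : Polynomial.aeval (_root_.Fermat.Agent.GTor.Clo.jA N) (Polynomial.C a * Polynomial.X ^ (M + 1)) =
        Polynomial.aeval (_root_.Fermat.Agent.GTor.Clo.jA N) (Polynomial.C a) *
          Polynomial.aeval (_root_.Fermat.Agent.GTor.Clo.jA N) (Polynomial.X ^ (M + 1)) :=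
      map_mul (Polynomial.aeval (_root_.Fermat.Agent.GTor.Clo.jA N)) _ _
    have e3 : Polynomial.aeval (_root_.Fermat.Agent.GTor.Clo.jA N) (Polynomial.X ^ (M + 1) : Polynomial _root_.Fermat.Agent.GTor.Clo.Kbar) =
        _root_.Fermat.Agent.GTor.Clo.jA N ^ (M + 1) := by
      have := map_pow (Polynomial.aeval (_root_.Fermat.Agent.GTor.Clo.jA N)) (Polynomial.X : Polynomial _root_.Fermat.Agent.GTor.Clo.Kbar) (M + 1)
      rw [Polynomial.aeval_X] at this
      exact this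
    rw [e1, e2, e3, hp, Polynomial.aeval_C]
    exact sub_add_cancel f (algebraMap _root_.Fermat.Agent.GTor.Clo.Kbar (_root_.Fermat.Agent.GTor.Clo.Atil N) a * _root_.Fermat.Agent.GTor.Clo.jA N ^ (M + 1))

/-- **Lemma J**: an `SL(2, ℤ)`-invariant element of `Atil N` is a polynomial in `j` with
coefficients in `Q̄`. -/
theorem lemmaJ (N : ℕ) [NeZero N] (f : _root_.Fermat.Agent.GTor.Clo.Atil N) (hf : ∀ γ : SL(2, ℤ), γ • f = f) :
    ∃ p : Polynomial _root_.Fermat.Agent.GTor.Clo.Kbar, Polynomial.aeval (_root_.Fermat.Agent.GTor.Clo.jA N) p = f := by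
  have hN : (1 : ℤ) ≤ N := by exact_mod_cast Nat.pos_of_ne_zero (NeZero.ne N)
  refine _root_.Fermat.Agent.GTor.Clo.lemmaJ_aux N (-(_root_.Fermat.Agent.GTor.Clo.uExp N f).order).toNat f hf (fun n hn => ?_)
  apply HahnSeries.coeff_eq_zero_of_lt_order
  have h1 : -(_root_.Fermat.Agent.GTor.Clo.uExp N f).order ≤ ((-(_root_.Fermat.Agent.GTor.Clo.uExp N f).order).toNat : ℤ) := Int.self_le_toNat _
  have h2 : (0 : ℤ) ≤ ((-(_root_.Fermat.Agent.GTor.Clo.uExp N f).order).toNat : ℤ) := Int.natCast_nonneg _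
  nlinarith

end Fermat.Agent.GTor.Clo

end
end
-- ==== END Fermat.Agent.GTor.Clo.LemmaJ

-- ==== BEGIN Fermat.Agent.GTor.H44_HKan
section

/-!
# G-TOR, package HK-an, parts (3)+(4) and the final statement  (helper44)

* `qLaurent_heckeProd`: for `A` nice of period one such that `heckeProd K ℓ A` is again of period
  one, `qLaurent (heckeProd K ℓ A) = C c * heckeNormSeries ℓ (qLaurent A)` with
  `c = heckeConst K ℓ = ℓ^(-ℓ) ℓ^(K-1)`;
* `hk_an : H2.Stmt_HKan N n`: if `f' ∈ F_ℂ` has character `φ` then `heckeNormSeries ℓ f'` is the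
  expansion of some `g' ∈ F_ℂ` with character `T_ℓ φ`.
-/

set_option autoImplicit false
set_option linter.style.haveILetI false
set_option linter.unusedSectionVars false

open UpperHalfPlane ModularForm CongruenceSubgroup ModularCurve
open scoped MatrixGroups ModularForm Manifold

noncomputable section

namespace Fermat.Agent.GTor.H44

open Fermat.Agent.S23.H22 (Nice)
open Fermat.Agent.S28.H30 (pexp BPH)
open Fermat.Agent.GTor.H76

/-- The constant `ℓ^(-ℓ) ℓ^(K-1)` of the slashes in `heckeProd`. -/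
def heckeConst (K : ℤ) (ℓ : ℕ) : ℂ := ((ℓ : ℂ)⁻¹) ^ ℓ * (ℓ : ℂ) ^ (K - 1)

theorem heckeConst_ne_zero (K : ℤ) {ℓ : ℕ} (hℓ : ℓ ≠ 0) : heckeConst K ℓ ≠ 0 := by
  have h : (ℓ : ℂ) ≠ 0 := by exact_mod_cast hℓ
  exact mul_ne_zero (pow_ne_zero _ (inv_ne_zero h)) (zpow_ne_zero _ h)

theorem heckeProd_eq_smul (K : ℤ) {ℓ : ℕ} (hℓ : ℓ ≠ 0) (A : ℍ → ℂ) :
    heckeProd K ℓ A = heckeConst K ℓ •
      ((∏ j ∈ Finset.range ℓ, fun z => A (heckeMatrix ℓ j • z)) *
        fun z => A (heckeDiagMatrix ℓ • z)) := by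
  funext τ
  rw [heckeProd_apply K hℓ, Pi.smul_apply, Pi.mul_apply, Finset.prod_apply, smul_eq_mul,
    Finset.prod_mul_distrib, Finset.prod_const, Finset.card_range, heckeConst]
  ring

theorem pexp_heckeProd (K : ℤ) (ℓ : ℕ) [NeZero ℓ] {A : ℍ → ℂ} (hA : Nice 1 A) :
    pexp ℓ (heckeProd K ℓ A) = HahnSeries.C (heckeConst K ℓ) *
      ((∏ j ∈ Finset.range ℓ, twistBy (zetaUnit ℓ ^ j) (qLaurent A)) *
        qExpand ℂ ℓ (qExpand ℂ ℓ (qLaurent A))) := by
  have h1 : ∀ j ∈ Finset.range ℓ, BPH ℓ (fun z => A (heckeMatrix ℓ j • z)) :=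
    fun j _ => bph_comp_heckeMatrix ℓ hA j
  have h2 : BPH ℓ (fun z => A (heckeDiagMatrix ℓ • z)) := bph_comp_heckeDiagMatrix ℓ hA
  rw [heckeProd_eq_smul K (NeZero.ne ℓ),
    Fermat.Agent.S28.H30.pexp_smul _ ((BPH.prod _ _ h1).mul h2),
    Fermat.Agent.S28.H30.pexp_mul (BPH.prod _ _ h1) h2,
    Fermat.Agent.S28.H30.pexp_prod _ _ h1, pexp_comp_heckeDiagMatrix ℓ hA]
  congr 2
  exact Finset.prod_congr rfl fun j _ => pexp_comp_heckeMatrix ℓ hA j

/-- **(3)** the `q`-expansion of the Hecke product. -/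
theorem qLaurent_heckeProd (K : ℤ) (ℓ : ℕ) [NeZero ℓ] {A : ℍ → ℂ} (hA : Nice 1 A)
    (hP : Nice 1 (heckeProd K ℓ A)) :
    qLaurent (heckeProd K ℓ A)
      = HahnSeries.C (heckeConst K ℓ) * heckeNormSeries ℓ (qLaurent A) := by
  have h1 : pexp ℓ (heckeProd K ℓ A) = qExpand ℂ ℓ (qLaurent (heckeProd K ℓ A)) :=
    Fermat.Agent.S28.H76.ofPS_qExpansion_natCast ℓ hP
  apply H44.qExpand_injective (K := ℂ) (ℓ := ℓ)
  rw [← h1, pexp_heckeProd K ℓ hA, map_mul, qExpand_C, heckeNormSeries,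
    qExpand_normSeries (isPrimitiveRoot_zetaUnit ℓ),
    twistProd_eq_prod_range (isPrimitiveRoot_zetaUnit ℓ), mul_comm (qExpand ℂ ℓ _)]

theorem qLaurent_smul (c : ℂ) {F : ℍ → ℂ} (hF : Nice 1 F) :
    qLaurent (c • F) = HahnSeries.C c * qLaurent F := by
  have := Fermat.Agent.S28.H30.pexp_smul (N := 1) c (f := F)
    ⟨by simpa using hF.per, hF.hol, hF.bdd⟩
  simpa [pexp, qLaurent] using this

/-! ### The final statement -/

section Final

variable {N n : ℕ} [NeZero N] {k : ℤ} {ℓ : ℕ}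

theorem nice_heckeProd_pow (hℓ : ℓ.Prime) (hℓN : ¬ ℓ ∣ N)
    {φ : Additive (Gamma0 N) →+ ZMod n} {R : ℍ → ℂ} (hR : IsTwistedForm N n k φ R) :
    Nice 1 (fun z => heckeProd k ℓ R z ^ n) :=
  (isTwistedForm_heckeProd hℓ hℓN hR).nice_pow

theorem nice_heckeProd_of_pow (hℓ : ℓ.Prime) (hℓN : ¬ ℓ ∣ N)
    {φ : Additive (Gamma0 N) →+ ZMod n} {R : ℍ → ℂ} (hR : IsTwistedForm N n k φ R) :
    Nice 1 (heckeProd ((n : ℤ) * k) ℓ (fun z => R z ^ n)) := by
  rw [heckeProd_pow k hℓ.ne_zero n R]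
  exact (nice_heckeProd_pow hℓ hℓN hR).smul _

/-- the `q`-expansion of `(heckeProd R)ⁿ` in terms of that of `Rⁿ` -/
theorem qLaurent_heckeProd_pow (hℓ : ℓ.Prime) (hℓN : ¬ ℓ ∣ N)
    {φ : Additive (Gamma0 N) →+ ZMod n} {R : ℍ → ℂ} (hR : IsTwistedForm N n k φ R) :
    HahnSeries.C (((ℓ : ℂ) ^ ((n : ℤ) - 1)) ^ (ℓ + 1)) * qLaurent (fun z => heckeProd k ℓ R z ^ n)
      = HahnSeries.C (heckeConst ((n : ℤ) * k) ℓ) *
        (haveI : NeZero ℓ := ⟨hℓ.ne_zero⟩; heckeNormSeries ℓ (qLaurent (fun z => R z ^ n))) := by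
  haveI : NeZero ℓ := ⟨hℓ.ne_zero⟩
  rw [← qLaurent_smul _ (nice_heckeProd_pow hℓ hℓN hR), ← heckeProd_pow k hℓ.ne_zero n R]
  exact qLaurent_heckeProd _ ℓ hR.nice_pow (nice_heckeProd_of_pow hℓ hℓN hR)

theorem heckeProd_pow_fun_ne_zero (hℓ : ℓ.Prime) {B : ModularForm (Gamma0 N) k} (hB : B ≠ 0) :
    (fun z => heckeProd k ℓ (B : ℍ → ℂ) z ^ n) ≠ 0 := by
  intro h
  apply hB
  have h1 : heckeProd k ℓ (B : ℍ → ℂ) = 0 := by
    funext z
    have h2 := congrFun h z
    simp only [Pi.zero_apply] at h2 ⊢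
    exact eq_zero_of_pow_eq_zero h2
  exact DFunLike.coe_injective ((heckeProd_eq_zero_iff k B.holo').mp h1)

/-- **HK-an**: the analytic half of HK. -/
theorem hk_an (N n : ℕ) [NeZero N] : H2.Stmt_HKan N n := by
  intro ℓ hℓ hℓN f' φ _ hch
  haveI : NeZero ℓ := ⟨hℓ.ne_zero⟩
  obtain ⟨k, R, B, hR, hB, hq⟩ := hch
  have hBt : IsTwistedForm N n k 0 (B : ℍ → ℂ) := H56.isTwistedForm_of_modularForm n B
  have eR := qLaurent_heckeProd_pow hℓ hℓN hR
  have eB := qLaurent_heckeProd_pow hℓ hℓN hBt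
  have hc1 : (((ℓ : ℂ) ^ ((n : ℤ) - 1)) ^ (ℓ + 1)) ≠ 0 := heckeProd_pow_const_ne_zero hℓ.ne_zero n
  have hC : (HahnSeries.C (((ℓ : ℂ) ^ ((n : ℤ) - 1)) ^ (ℓ + 1)) : LaurentSeries ℂ) ≠ 0 := by
    intro h0
    apply hc1
    have := congrArg (fun s : LaurentSeries ℂ => s.coeff 0) h0
    simpa using this
  have key : qLaurent (fun z => heckeProd k ℓ R z ^ n)
      = heckeNormSeries ℓ (f' : LaurentSeries ℂ)
        * qLaurent (fun z => heckeProd k ℓ (B : ℍ → ℂ) z ^ n) := by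
    apply mul_left_cancel₀ hC
    rw [eR, hq, heckeNormSeries_mul, mul_left_comm, ← eB]
    ring
  -- (4): the ratio lies in `F_ℂ`
  have hℬ : H56.toModularForm (isTwistedForm_heckeProd hℓ hℓN hBt).pow ≠ 0 := by
    intro h0
    apply heckeProd_pow_fun_ne_zero (n := n) hℓ hB
    have := congrArg (fun F : ModularForm (Gamma0 N) _ => (F : ℍ → ℂ)) h0
    exact this
  obtain ⟨g', -, hg'⟩ := H58.stmt_A2 N _
    (H56.toModularForm (isTwistedForm_heckeProd hℓ hℓN hR).pow)
    (H56.toModularForm (isTwistedForm_heckeProd hℓ hℓN hBt).pow) hℬ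
  rw [H56.toModularForm_coe, H56.toModularForm_coe] at hg'
  have hne : qLaurent (fun z => heckeProd k ℓ (B : ℍ → ℂ) z ^ n) ≠ 0 := by
    rw [Ne, H56.qLaurent_eq_zero_iff (nice_heckeProd_pow hℓ hℓN hBt)]
    exact heckeProd_pow_fun_ne_zero hℓ hB
  have hgg : (g' : LaurentSeries ℂ) = heckeNormSeries ℓ (f' : LaurentSeries ℂ) :=
    mul_right_cancel₀ hne (hg'.symm.trans key)
  exact ⟨g', hgg, hasChar_heckeProd hℓ hℓN hR hB g' hg'⟩

end Final

end Fermat.Agent.GTor.H44

end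
end
-- ==== END Fermat.Agent.GTor.H44_HKan

-- ==== BEGIN Fermat.Agent.GTor.H75_DescCoreFinal
section

/-!
# G-TOR package DESC (helper75): DESC-CORE, unconditional
-/

set_option autoImplicit false

noncomputable section

namespace Fermat.Agent.GTor.H75

open ModularCurve AlgebraicCurve

theorem stmt_DescPigeon (K : Type) [Field K] [Algebra ℚ K]
    (F₀ : IntermediateField ℚ (LaurentSeries ℚ)) : Stmt_DescPigeon K F₀ :=
  fun n hfin f hf hunr m hm σ =>
    H56.exists_pair K F₀ (H56.stmt_DescPlaceDown K K F₀) n hfin f hf hunr m hm σ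

/-- **DESC-CORE**. -/
theorem stmt_DescCore (k K : Type) [Field k] [Field K] [Algebra ℚ k] [Algebra ℚ K]
    (F₀ : IntermediateField ℚ (LaurentSeries ℚ)) : Stmt_DescCore k K F₀ :=
  descCore_of k K F₀ (stmt_DescPigeon K F₀)

end Fermat.Agent.GTor.H75

end
end
-- ==== END Fermat.Agent.GTor.H75_DescCoreFinal

-- ==== BEGIN Fermat.Agent.GTor.H77_TorsLift
section

/-!
# G-TOR, package TORSLIFT (helper77): `Stmt_torsLift N` unconditionally

Every homomorphism `Γ₀(N) → ℤ/m` killing the parabolic and the finite-order elements lifts to a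
parabolic homomorphism `Γ₀(N) → ℤ`.  Assembly of COUNT (`Betti.H77.card_killsPE_le`),
BASIS (`Betti.H21.exists_basis_ge`, helper21) and ABS-LIFT (`Betti.H41`, helper41).
-/

set_option autoImplicit false

open CongruenceSubgroup ModularCurve
open scoped MatrixGroups

namespace Fermat.Agent.GTor.H77

/-- `S16.Stmt_TorsLift N n` for all `N ≠ 0` and all `n`. -/
theorem stmt_TorsLift_S16 (N : ℕ) [NeZero N] (n : ℕ) : Fermat.Agent.S16.Stmt_TorsLift N n :=
  Fermat.Agent.Betti.H21.stmt_torsLift_of_card N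
    (fun ℓ _ => Fermat.Agent.Betti.H77.card_killsPE_le N ℓ) n

/-- **TORSLIFT** in the shape of `GTor/TateDefs.lean`. -/
theorem stmt_torsLift (N : ℕ) [NeZero N] : Fermat.Agent.GTor.Stmt_torsLift N := by
  intro m _ φ hφ
  obtain ⟨hpar, hfin⟩ := (Fermat.Agent.GTor.mem_homPE _ _).mp hφ
  obtain ⟨ψ, hψ, h⟩ := stmt_TorsLift_S16 N m φ (by
    intro γ hγ
    rcases hγ.lt_or_eq with hlt | heq
    · refine hfin γ ?_
      have h12 : (γ : SL(2, ℤ)) ^ 12 = 1 :=
        Fermat.Agent.S16.H38.pow_twelve_eq_one_of_trace _ hlt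
      refine isOfFinOrder_iff_pow_eq_one.mpr ⟨12, by norm_num, ?_⟩
      exact Subtype.ext h12
    · exact hpar γ heq)
  exact ⟨ψ, hψ, fun γ => (h (Additive.toMul γ)).symm⟩

end Fermat.Agent.GTor.H77

end
-- ==== END Fermat.Agent.GTor.H77_TorsLift

-- ==== BEGIN Fermat.Agent.GTor.H81_T2
section

/-!
# G-TOR plumbing T2: the Tate system of `J₀(N)` from the torsion dictionary  (helper81)

`t2 : Stmt_T2 N p S`.
-/

set_option autoImplicit false

noncomputable section

namespace Fermat.Agent.GTor.H81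

open AlgebraicCurve ModularCurve Fermat.Agent.GTor Fermat.Agent.Betti
open scoped MatrixGroups

/-- commutation with a ring of integer matrices, from commutation with generators. -/
theorem comm_of_generators {N : ℕ} [NeZero N] (S : Set ℕ) {r m : ℕ}
    (M : CuspForm.heckeAlgebra N 2 S →+* Matrix (Fin r) (Fin r) ℤ)
    (ρ : Matrix (Fin r) (Fin r) (ZMod m))
    (hS : ∀ q : ℕ, q.Prime → q ∣ N → q ∈ S)
    (hT : ∀ (ℓ : ℕ) (hℓ : ℓ.Prime) (hℓN : ¬ ℓ ∣ N) (hℓS : ℓ ∉ S),
      ρ * (M (CuspForm.heckeAlgebra.T hℓ hℓN hℓS)).map (Int.cast : ℤ → ZMod m) =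
        (M (CuspForm.heckeAlgebra.T hℓ hℓN hℓS)).map (Int.cast : ℤ → ZMod m) * ρ)
    (t : CuspForm.heckeAlgebra N 2 S) :
    ρ * (M t).map (Int.cast : ℤ → ZMod m) = (M t).map (Int.cast : ℤ → ZMod m) * ρ := by
  let Φ : CuspForm.heckeAlgebra N 2 S →+* Matrix (Fin r) (Fin r) (ZMod m) :=
    (Int.castRingHom (ZMod m)).mapMatrix.comp M
  have hΦ : ∀ t, Φ t = (M t).map (Int.cast : ℤ → ZMod m) := fun t => rfl
  suffices h : ∀ (x : Module.End ℂ (CuspForm (CongruenceSubgroup.Gamma0 N) 2))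
      (hx : x ∈ Algebra.adjoin ℤ (CuspForm.heckeGenerators N 2 S)),
      ρ * Φ ⟨x, hx⟩ = Φ ⟨x, hx⟩ * ρ by
    rw [← hΦ]
    exact h t.1 t.2
  intro x hx
  induction hx using Algebra.adjoin_induction with
  | mem x hx =>
    rcases hx with ⟨ℓ, hℓ, hℓN, hℓS, rfl⟩ | ⟨q, hqN, hq, hqS, rfl⟩
    · exact hT ℓ hℓ hℓN hℓS
    · exact absurd (hS q hq hqN) hqS
  | algebraMap c =>
    have : (⟨algebraMap ℤ _ c, Subalgebra.algebraMap_mem _ c⟩ : CuspForm.heckeAlgebra N 2 S) =
        ((c : ℤ) : CuspForm.heckeAlgebra N 2 S) := by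
      apply Subtype.ext
      simp
    rw [this, map_intCast]
    exact (Int.cast_commute c ρ).symm.eq
  | add x y hx hy ihx ihy =>
    have : (⟨x + y, add_mem hx hy⟩ : CuspForm.heckeAlgebra N 2 S) = ⟨x, hx⟩ + ⟨y, hy⟩ := rfl
    rw [this, map_add, mul_add, add_mul, ihx, ihy]
  | mul x y hx hy ihx ihy =>
    have : (⟨x * y, mul_mem hx hy⟩ : CuspForm.heckeAlgebra N 2 S) = ⟨x, hx⟩ * ⟨y, hy⟩ := rfl
    rw [this, map_mul, ← mul_assoc, ihx, mul_assoc, ihy, mul_assoc]

/-- **T2**: the Tate system of `J₀(N)`. -/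
theorem t2 (N p : ℕ) [NeZero N] (S : Finset ℕ) : Stmt_T2 N p S := by
  intro hp hpS hNS hTOR hHK hLift hGH hU hES hGAL hBasis hMat
  obtain ⟨r, b, hb⟩ := hBasis N
  obtain ⟨M, hMinj, hMT, -⟩ := hMat N (↑S : Set ℕ) r b hb
  have halg : Algebra.IsAlgebraic ℚ (AlgebraicClosure ℚ) := AlgebraicClosure.isAlgebraic ℚ
  obtain ⟨ι⟩ : Nonempty (AlgebraicClosure ℚ →+* ℂ) :=
    ⟨((IsAlgClosed.lift : AlgebraicClosure ℚ →ₐ[ℚ] ℂ) : AlgebraicClosure ℚ →+* ℂ)⟩
  have hE : ∀ k : ℕ, Nonempty (TorIso N (p ^ k) ι) := fun k => nonempty_torIso (hTOR k) ι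
  have hn : ∀ k : ℕ, p ^ k ≠ 0 := fun k => pow_ne_zero k hp.ne_zero
  have hnp : ∀ (k : ℕ) (x : Jtor N (p ^ k)), ∃ j : ℕ, p ^ j • (x : JZero N) = 0 :=
    fun k x => ⟨k, pow_nsmul_coe x⟩
  let E : ∀ k : ℕ, TorIso N (p ^ k) ι := fun k => Classical.choice (hE k)
  refine ⟨r, fun k => rhoMat hb hLift (hn k) (E k), M, ⟨?_, ?_, ?_, hMinj⟩, ?_, ?_⟩
  · -- compatibility
    intro k σ i j
    have h := rhoMat_compat hb hLift (hn (k + 1)) (hn k) (pow_dvd_pow p (Nat.le_succ k))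
      (E (k + 1)) (E k) σ
    have h2 := congrFun (congrFun h i) j
    rw [Matrix.map_apply] at h2
    exact h2
  · -- continuity
    intro k
    exact rhoMat_cont hb hLift (hn k) (E k) hGAL
  · -- commutation with the Hecke algebra
    intro k σ t
    refine comm_of_generators (↑S : Set ℕ) M _ hNS (fun ℓ hℓ hℓN hℓS => ?_) t
    exact rhoMat_comm_T hb hLift (hn k) (E k) hℓ hℓN (hHK k) hGH _ (hMT ℓ hℓ hℓN hℓS) σ
  · -- Eichler–Shimura
    intro ℓ hℓ hℓN hℓS A hA σ hσ k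
    have hℓp : ℓ ≠ p := by
      rintro rfl
      exact hℓS (by exact_mod_cast hpS)
    exact rhoMat_ES hb hLift (hn k) (E k) (hnp k) hℓ hℓN hℓp (hHK k) hES _
      (hMT ℓ hℓ hℓN hℓS) A hA σ hσ
  · -- unramified
    intro q hq hqN hqp P hP σ hσ k
    exact rhoMat_unram hb hLift (hn k) (E k) (hnp k) hU hq hqN hqp P hP σ hσ

end Fermat.Agent.GTor.H81

end
end
-- ==== END Fermat.Agent.GTor.H81_T2

-- ==== BEGIN Fermat.Agent.R.H2_SepTFinal
section

/-!
# Cluster R (helper2): `Stmt_SepT` and `Stmt_Sep`, unconditional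

`Stmt_HeckeReduced` is proved in `Fermat/Agent/R/H58_HeckeReduced.lean` (helper58).
-/

set_option autoImplicit false

namespace Fermat.Agent.R.H2

/-- **`Stmt_SepT`**, unconditional. -/
theorem stmt_SepT_final : Fermat.Agent.R.Stmt_SepT :=
  stmt_SepT Fermat.Agent.R.H58.stmt_HeckeReduced

/-- **`Stmt_Sep`** (L3c), unconditional. -/
theorem stmt_Sep_final (N : ℕ) [NeZero N] (S : Finset ℕ) (p : ℕ) [Fact p.Prime]
    (hNS : ∀ q : ℕ, q.Prime → q ∣ N → q ∈ (↑S : Set ℕ)) :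
    Fermat.Agent.R.Stmt_Sep N S p :=
  stmt_Sep_of_isReduced' N S p (Fermat.Agent.R.H58.stmt_HeckeReduced N (↑S : Set ℕ) hNS)

end Fermat.Agent.R.H2

end
-- ==== END Fermat.Agent.R.H2_SepTFinal

-- ==== BEGIN Fermat.Agent.RED.Core2
section
attribute [local instance 10000] SubalgebraClass.toAlgebra
attribute [local instance 10000] HahnSeries.powerSeriesAlgebra

/-!
# G-RED, v5 interfaces (helper36): LIFT, MOVE, UNIQ, EQ, NDESC, ES-3, RM

Plan: `NOTES/plan/G_RED.md`, section v5.  Setting as in `RED/Core.lean`: `C` a field, `O` a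
valuation subring of `C`, `F ⊆ C((q))` with `h : HasScale O F`; `V = gaussValSub O F h`,
`res = gaussResF' O h : V → F~ = redField O F h`, `k = kV O`.

* `HasLift O h r` : for `deg D` large, `res (L(D) ∩ V) = L~(r_* D)`.
* `HasMove O h r` : **moving lemma**: for a place `P` and a finite set `S` of places of `F~` there
  is a Gauss unit `f` with `div f = W - n P`, `n ≥ 1`, `W ≥ 0`, `r (supp W) ∩ (S ∪ {r P}) = ∅`.
* `HasRM O h` : there is `r` with the conservation law and the moving lemma.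
* `Stmt_LIFT`, `Stmt_MOVE` : abstract, from `IsRed + GenusLE` (+ LAT of helper42, Riemann).
* `Stmt_UNIQ` : the conservation law determines `r` (NO genus hypothesis).
* `Stmt_EQabs` : `r` commutes with compatible pairs of semilinear automorphisms.
* `Stmt_NDESC` : **norm descent**: if `F ⊆ F'`, `[F' : F] = [F~' : F~]` and `F'` has a Deuring
  datum, then `F` has `r` with the conservation law and the moving lemma.
* `Stmt_DR2` : the Deuring datum at the tame levels (`ℓ ≥ 5`; `ℓ = 3, 2 ∣ M`; `ℓ = 2, 3 ∣ M`).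
* `Stmt_RM` : `HasRM` at every level `N` prime to `ℓ`.
* `Stmt_EQ` : equivariance of `r` under the decomposition group.
* `Stmt_ES3` : Eichler–Shimura on divisors: `r_* T_ℓ = (φ + ℓ φ⁻¹) r_*`.
This file contains no `sorry`.
-/

set_option autoImplicit false
set_option synthInstance.maxHeartbeats 400000
set_option maxHeartbeats 1000000

noncomputable section

open AlgebraicCurve ModularCurve Fermat.Agent.S28.H73 Fermat.Agent.RED.H73

namespace Fermat.Agent.RED

section Abstract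

variable {C : Type} [Field C] (O : ValuationSubring C)
variable {F : IntermediateField C (LaurentSeries C)} (h : HasScale O F)

/-- **LIFT**: for `deg D` large every element of `L~(r_* D)` is the reduction of an element of
`L(D) ∩ V`. -/
def HasLift (r : Place C ↥F → Place (kV O) ↥(redField O F h)) : Prop :=
  ∃ c : ℤ, ∀ D : Divisor C ↥F, c ≤ Divisor.degree D →
    ∀ y : ↥(redField O F h), y ∈ riemannRochSpace (Finsupp.mapDomain r D) →
      ∃ f : ↥(gaussValSub O F h), (f : ↥F) ∈ riemannRochSpace D ∧ gaussResF' O h f = y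

/-- **MOVE** (moving lemma with control of the reduction): for every place `P` and every finite
set `S` of places of the reduced field there is a Gauss unit `f` with a pole of order `n ≥ 1` at
`P`, no other pole, and whose zeros reduce outside `S ∪ {r P}`. -/
def HasMove (r : Place C ↥F → Place (kV O) ↥(redField O F h)) : Prop :=
  ∀ (P : Place C ↥F) (S : Finset (Place (kV O) ↥(redField O F h))),
    ∃ (n : ℕ) (f : ↥(gaussValSub O F h)), 0 < n ∧ IsUnit f ∧ P.ord (f : ↥F) = -(n : ℤ) ∧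
      ∀ P' : Place C ↥F, P' ≠ P →
        0 ≤ P'.ord (f : ↥F) ∧ (0 < P'.ord (f : ↥F) → r P' ∉ S ∧ r P' ≠ r P)

/-- A reduction map with the conservation law and the moving lemma. -/
def HasRM : Prop :=
  ∃ r : Place C ↥F → Place (kV O) ↥(redField O F h), IsRed O h r ∧ HasMove O h r

end Abstract

/-- **Package LIFT** (abstract): `IsRed + GenusLE ⇒ HasLift`.
Proof: `W = L(D)`, `Wt = res (W ∩ V)` has `dim Wt = dim W` (`H42.exists_redSubF`),
`Wt ⊆ L~(r_* D)` (`IsRed`), `dim L~(r_* D) ≤ dim L(D)` (`GenusLE`). -/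
def Stmt_LIFT : Prop :=
  ∀ (C : Type) [Field C] [IsAlgClosed C] (O : ValuationSubring C) [IsAlgClosed (kV O)]
    (F : IntermediateField C (LaurentSeries C)) (h : HasScale O F),
    H42.FracScalable O F → IsFF C ↥F → IsFF (kV O) ↥(redField O F h) →
    ∀ r : Place C ↥F → Place (kV O) ↥(redField O F h),
      IsRed O h r → GenusLE O h r → HasLift O h r

/-- **Package MOVE** (abstract): `IsRed + HasLift ⇒ HasMove`.
Proof: for `n` large choose `y ∈ L~(n · r P)` with pole order exactly `n` at `r P` and no zero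
in `S` (a vector space over an infinite field is not a finite union of proper subspaces), lift it
to `f ∈ L(n P) ∩ V`; `r_* (div f) = div y` forces `ord_P f = -n` and the zeros of `f` reduce to
zeros of `y`. -/
def Stmt_MOVE : Prop :=
  ∀ (C : Type) [Field C] [IsAlgClosed C] (O : ValuationSubring C) [IsAlgClosed (kV O)]
    (F : IntermediateField C (LaurentSeries C)) (h : HasScale O F),
    IsFF C ↥F → IsFF (kV O) ↥(redField O F h) →
    ∀ r : Place C ↥F → Place (kV O) ↥(redField O F h),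
      IsRed O h r → HasLift O h r → HasMove O h r

/-- **Package UNIQ** (abstract): the conservation law determines the reduction map.
Proof: `res (L(nP) ∩ V) ⊆ L~(n · r P) ∩ L~(n · r' P)`, of dimension `n + 1 - g` (LAT + Riemann);
if `r P ≠ r' P` the intersection is `L~(0) = k`. -/
def Stmt_UNIQ : Prop :=
  ∀ (C : Type) [Field C] [IsAlgClosed C] (O : ValuationSubring C) [IsAlgClosed (kV O)]
    (F : IntermediateField C (LaurentSeries C)) (h : HasScale O F),
    H42.FracScalable O F → IsFF C ↥F → IsFF (kV O) ↥(redField O F h) →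
    ∀ r r' : Place C ↥F → Place (kV O) ↥(redField O F h),
      IsRed O h r → IsRed O h r' → r = r'

/-- **Package EQ-abs** (abstract): the reduction map commutes with every pair `(g, gt)` of
semilinear automorphisms of `F` and of `F~` which is compatible with the reduction. -/
def Stmt_EQabs : Prop :=
  ∀ (C : Type) [Field C] [IsAlgClosed C] (O : ValuationSubring C) [IsAlgClosed (kV O)]
    (F : IntermediateField C (LaurentSeries C)) (h : HasScale O F),
    H42.FracScalable O F → IsFF C ↥F → IsFF (kV O) ↥(redField O F h) →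
    ∀ (g : SemilinearAut C ↥F) (gt : SemilinearAut (kV O) ↥(redField O F h)),
      (∀ (f : ↥(gaussValSub O F h)),
        ∃ hf : g • (f : ↥F) ∈ gaussValSub O F h,
          gaussResF' O h ⟨g • (f : ↥F), hf⟩ = gt • gaussResF' O h f) →
      ∀ r : Place C ↥F → Place (kV O) ↥(redField O F h), IsRed O h r →
        ∀ P : Place C ↥F, r (g • P) = gt • r P

/-- **Package NDESC** (abstract norm descent): `F ⊆ F'` with `[F' : F] = [F~' : F~]` finite; a
Deuring datum on `F'` gives a reduction map on `F` with the conservation law and the moving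
lemma. -/
def Stmt_NDESC : Prop :=
  ∀ (C : Type) [Field C] [IsAlgClosed C] [CharZero C] (O : ValuationSubring C)
    [IsAlgClosed (kV O)] (F F' : IntermediateField C (LaurentSeries C)) (_ : F ≤ F')
    (h : HasScale O F) (h' : HasScale O F'),
    H42.FracScalable O F' → IsFF C ↥F → IsFF C ↥F' →
    IsFF (kV O) ↥(redField O F h) → IsFF (kV O) ↥(redField O F' h') →
    F.relfinrank F' = (redField O F h).relfinrank (redField O F' h') →
    HasDR O h' → HasRM O h

section Modular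

/-- **Package DR2** (supersedes `Stmt_DR`): the Deuring datum at the levels with a tame chart:
`ℓ ≥ 5` (chart `j`), `ℓ = 3` and `2 ∣ M` (chart `h₂ = Δ(q)/Δ(q²)`), `ℓ = 2` and `3 ∣ M`
(chart `h₃ = q⁻¹ ∏ ((1 - qⁿ)/(1 - q³ⁿ))¹²`). -/
def Stmt_DR2 : Prop :=
  ∀ (M ℓ : ℕ) [NeZero M], ℓ.Prime → ¬ ℓ ∣ M → (5 ≤ ℓ ∨ (ℓ = 3 ∧ 2 ∣ M) ∨ (ℓ = 2 ∧ 3 ∣ M)) →
    ∀ A : ValuationSubring (AlgebraicClosure ℚ), A.LiesOverPrime ℓ →
      HasDR A (hasScale_laurentBaseChange A M)

/-- `DR2` implies `DR`. -/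
theorem stmt_DR_of_DR2 (H : Stmt_DR2) : Stmt_DR := by
  intro M ℓ _ hℓ hM hcase A hA
  refine H M ℓ hℓ hM ?_ A hA
  by_cases h5 : 5 ≤ ℓ
  · exact Or.inl h5
  right
  have hℓ2 : 2 ≤ ℓ := hℓ.two_le
  have h23 : ℓ = 2 ∨ ℓ = 3 ∨ ℓ = 4 := by omega
  rcases h23 with rfl | rfl | rfl
  · right
    refine ⟨rfl, ?_⟩
    rcases hcase with h | h | h
    · omega
    · exact absurd (Dvd.dvd.trans (by norm_num) h) hM
    · exact Dvd.dvd.trans (by norm_num) h
  · left
    refine ⟨rfl, ?_⟩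
    rcases hcase with h | h | h
    · omega
    · exact Dvd.dvd.trans (by norm_num) h
    · exact absurd (Dvd.dvd.trans (by norm_num) h) hM
  · exact absurd hℓ (by decide)

/-- **Package RM**: at every level `N` prime to `ℓ` there is a reduction map with the
conservation law and the moving lemma. -/
def Stmt_RM : Prop :=
  ∀ (N ℓ : ℕ) [NeZero N], ℓ.Prime → ¬ ℓ ∣ N →
    ∀ A : ValuationSubring (AlgebraicClosure ℚ), A.LiesOverPrime ℓ →
      HasRM A (hasScale_laurentBaseChange A N)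

/-- **Package EQ**: the reduction map is equivariant under the decomposition group of `A`:
for `σ` in it there is a semilinear automorphism `gt` of the reduced field, acting on the
coefficients by the residual action of `σ`, with `r (σ P) = gt (r P)`. -/
def Stmt_EQ : Prop :=
  ∀ (N ℓ : ℕ) [NeZero N], ℓ.Prime → ¬ ℓ ∣ N →
    ∀ A : ValuationSubring (AlgebraicClosure ℚ), A.LiesOverPrime ℓ →
    ∀ r : Place (AlgebraicClosure ℚ) ↥(modularFunctionFieldBar N) →
        Place (kV A) ↥(redField A (modularFunctionFieldBar N) (hasScale_laurentBaseChange A N)),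
      IsRed A (hasScale_laurentBaseChange A N) r →
    ∀ (σ : AlgebraicClosure ℚ ≃ₐ[ℚ] AlgebraicClosure ℚ) (hσ : σ ∈ A.decompositionSubgroup ℚ),
      ∃ gt : SemilinearAut (kV A)
          ↥(redField A (modularFunctionFieldBar N) (hasScale_laurentBaseChange A N)),
        (∀ (x : ↥(redField A (modularFunctionFieldBar N) (hasScale_laurentBaseChange A N)))
            (n : ℤ),
          ((gt • x : ↥(redField A (modularFunctionFieldBar N)
              (hasScale_laurentBaseChange A N))) : LaurentSeries (kV A)).coeff n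
            = (⟨σ, hσ⟩ : A.decompositionSubgroup ℚ) • (x : LaurentSeries (kV A)).coeff n) ∧
        ∀ P : Place (AlgebraicClosure ℚ) ↥(modularFunctionFieldBar N),
          r (arithmeticGalois (modularFunctionFieldFull N) σ • P) = gt • r P

/-- **Package ES-3** (Eichler–Shimura on divisors): for a reduction map `r` with the conservation
law and the moving lemma, and `φ` the coefficientwise Frobenius of the reduced field,
`r_* (T_ℓ D) = φ (r_* D) + ℓ φ⁻¹ (r_* D)`. -/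
def Stmt_ES3 : Prop :=
  ∀ (N ℓ : ℕ) [NeZero N] [NeZero ℓ], ℓ.Prime → ¬ ℓ ∣ N →
    ∀ A : ValuationSubring (AlgebraicClosure ℚ), A.LiesOverPrime ℓ →
    ∀ (hα : HeckeAlphaBarIntegral (AlgebraicClosure ℚ) N ℓ)
      (hβ : HeckeBetaBarIntegral (AlgebraicClosure ℚ) N ℓ)
      [HasPrincipalDivisors (AlgebraicClosure ℚ) ↥(modularFunctionFieldBar (N * ℓ))],
    ∀ r : Place (AlgebraicClosure ℚ) ↥(modularFunctionFieldBar N) →
        Place (kV A) ↥(redField A (modularFunctionFieldBar N) (hasScale_laurentBaseChange A N)),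
      IsRed A (hasScale_laurentBaseChange A N) r →
      HasMove A (hasScale_laurentBaseChange A N) r →
    ∀ φ : SemilinearAut (kV A)
        ↥(redField A (modularFunctionFieldBar N) (hasScale_laurentBaseChange A N)),
      (∀ (x : ↥(redField A (modularFunctionFieldBar N) (hasScale_laurentBaseChange A N)))
          (n : ℤ),
        ((φ • x : ↥(redField A (modularFunctionFieldBar N)
            (hasScale_laurentBaseChange A N))) : LaurentSeries (kV A)).coeff n
          = ((x : LaurentSeries (kV A)).coeff n) ^ ℓ) →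
    ∀ D : Divisor (AlgebraicClosure ℚ) ↥(modularFunctionFieldBar N),
      Finsupp.mapDomain r (heckeDivBar hα hβ D)
        = φ • Finsupp.mapDomain r D + ℓ • (φ⁻¹ • Finsupp.mapDomain r D)

end Modular

end Fermat.Agent.RED

end
end
-- ==== END Fermat.Agent.RED.Core2

-- ==== BEGIN Fermat.Agent.RED.H30_CAL
section

/-!
# G-RED package GA: transfer of the conjugate data from `ℂ` to `ℚ̄` (helper30)

`stmt_CAL : Fermat.Agent.RED.H73.Stmt_CAL`.

* Part A: descent of Laurent series along a field embedding `ι : K → L` (coefficientwise).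
* Part B: `ℤ[ζ_N, 1/N] ⊂ L` is the image of `ℤ[ζ_N, 1/N] ⊂ K` when `K` is algebraically closed.
* Part D: descent of membership in `L[J]` to `K[J]` by a `K`-linear retraction `L → K`.
* Part C: the data.
-/

set_option autoImplicit false
set_option linter.unusedSectionVars false
set_option linter.unusedVariables false

open ModularCurve Polynomial

noncomputable section

namespace Fermat.Agent.RED.H30

open Fermat.Agent.S28 (CAData coeffRing iotaN)
open Fermat.Agent.RED.H73 (CADataL coeffRingL Stmt_CAL)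

/-! ### Part A: coefficientwise descent of series -/

section Series

variable {K L : Type} [Field K] [Field L] (ι : K →+* L)

lemma coeffMap_injective : Function.Injective (coeffMap ι) := by
  intro f g h
  ext n
  have := congrArg (fun x : LaurentSeries L => x.coeff n) h
  simp only [coeffMap_coeff] at this
  exact ι.injective this

lemma coeffMap_eq_zero_iff (f : LaurentSeries K) : coeffMap ι f = 0 ↔ f = 0 := by
  constructor
  · intro h
    exact coeffMap_injective ι (by rw [h, map_zero])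
  · rintro rfl
    exact map_zero _

lemma coeffMap_C (c : K) :
    coeffMap ι (HahnSeries.C c : LaurentSeries K) = HahnSeries.C (ι c) := by
  show coeffMap ι (HahnSeries.single 0 c) = HahnSeries.single 0 (ι c)
  exact coeffMap_single ι 0 c

lemma coeffMap_order (f : LaurentSeries K) : (coeffMap ι f).order = f.order := by
  by_cases hf : f = 0
  · subst hf; simp
  · have hne : coeffMap ι f ≠ 0 := fun h => hf ((coeffMap_eq_zero_iff ι f).mp h)
    refine le_antisymm ?_ ?_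
    · refine HahnSeries.order_le_of_coeff_ne_zero ?_
      rw [coeffMap_coeff]
      intro h0
      exact HahnSeries.coeff_order_eq_zero.not.mpr hf (ι.injective (by rw [h0, map_zero]))
    · refine HahnSeries.order_le_of_coeff_ne_zero ?_
      intro h0
      have := HahnSeries.coeff_order_eq_zero.not.mpr hne
      apply this
      rw [coeffMap_coeff, h0, map_zero]

lemma coeffMap_leadingCoeff (f : LaurentSeries K) :
    (coeffMap ι f).leadingCoeff = ι f.leadingCoeff := by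
  by_cases hf : f = 0
  · subst hf; simp
  · rw [HahnSeries.leadingCoeff_eq, HahnSeries.leadingCoeff_eq, coeffMap_order, coeffMap_coeff]

/-- A series with coefficients in the range of `ι` comes from `K((t))`. -/
lemma exists_coeffMap_eq {f : LaurentSeries L} (hf : ∀ n, f.coeff n ∈ ι.range) :
    ∃ g : LaurentSeries K, coeffMap ι g = f := by
  choose c hc using hf
  have hsupp : Function.support c ⊆ f.support := by
    intro n hn
    show f.coeff n ≠ 0
    intro h0
    apply hn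
    apply ι.injective
    rw [hc, h0, map_zero]
  refine ⟨⟨c, f.isPWO_support.mono hsupp⟩, ?_⟩
  ext n
  rw [coeffMap_coeff]
  exact hc n

end Series

/-! ### Part B: the coefficient rings -/

section CoeffRing

variable {K : Type} [Field K] [IsAlgClosed K] (ι : K →+* ℂ) (N : ℕ) [NeZero N]

lemma rootOfUnity_mem_range {z : ℂ} (hz : z ^ N = 1) : ∃ w : K, w ^ N = 1 ∧ ι w = z := by
  have hsplit : (X ^ N - 1 : K[X]).Splits := IsAlgClosed.splits _
  have hmap : (X ^ N - 1 : K[X]).map ι = X ^ N - 1 := by simp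
  have hne : (X ^ N - 1 : ℂ[X]) ≠ 0 := X_pow_sub_C_ne_zero (Nat.pos_of_ne_zero (NeZero.ne N)) 1
  have hroot : z ∈ ((X ^ N - 1 : K[X]).map ι).roots := by
    rw [hmap, mem_roots hne]
    simp [hz]
  rw [hsplit.roots_map ι, Multiset.mem_map] at hroot
  obtain ⟨w, hw, hwz⟩ := hroot
  refine ⟨w, ?_, hwz⟩
  have hne' : (X ^ N - 1 : K[X]) ≠ 0 := X_pow_sub_C_ne_zero (Nat.pos_of_ne_zero (NeZero.ne N)) 1
  have := (mem_roots hne').mp hw
  simpa [sub_eq_zero] using this

lemma coeffRing_le_map : coeffRing N ≤ (coeffRingL K N).map ι := by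
  unfold coeffRing
  rw [Subring.closure_le]
  rintro z (hz | hz)
  · obtain ⟨w, hw, rfl⟩ := rootOfUnity_mem_range ι N hz
    exact ⟨w, Subring.subset_closure (Or.inl hw), rfl⟩
  · refine ⟨((N : K))⁻¹, Subring.subset_closure (Or.inr rfl), ?_⟩
    rw [Set.mem_singleton_iff] at hz
    rw [hz]
    simp

lemma mem_coeffRingL_of_map_mem {x : K} (hx : ι x ∈ coeffRing N) : x ∈ coeffRingL K N := by
  obtain ⟨y, hy, hyx⟩ := coeffRing_le_map ι N hx
  have : y = x := ι.injective hyx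
  rwa [← this]

lemma mem_range_of_mem_coeffRing {z : ℂ} (hz : z ∈ coeffRing N) : z ∈ ι.range := by
  obtain ⟨y, hy, hyx⟩ := coeffRing_le_map ι N hz
  exact ⟨y, hyx⟩

end CoeffRing

/-! ### Part D: descent of `L[J]` to `K[J]` -/

section Descent

variable {K L : Type} [Field K] [Field L] (ι : K →+* L)

/-- Apply a map coefficientwise (for a map sending `0` to `0`). -/
def piS (π : L → K) (h0 : π 0 = 0) (f : LaurentSeries L) : LaurentSeries K :=
  ⟨fun n => π (f.coeff n), f.isPWO_support.mono (by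
    intro n hn
    show f.coeff n ≠ 0
    intro h
    apply hn
    show π (f.coeff n) = 0
    rw [h, h0])⟩

lemma piS_coeff (π : L → K) (h0 : π 0 = 0) (f : LaurentSeries L) (n : ℤ) :
    (piS π h0 f).coeff n = π (f.coeff n) := rfl

/-- **Descent lemma**: if `ι P ∈ L[ι J]` then `P ∈ K[J]`. -/
theorem mem_adjoin_of_coeffMap_mem (P J : LaurentSeries K)
    (h : coeffMap ι P ∈ Algebra.adjoin L ({coeffMap ι J} : Set (LaurentSeries L))) :
    P ∈ Algebra.adjoin K ({J} : Set (LaurentSeries K)) := by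
  let _ : Algebra K L := ι.toAlgebra
  have hinj : LinearMap.ker (Algebra.linearMap K L) = ⊥ := by
    rw [LinearMap.ker_eq_bot]
    exact ι.injective
  obtain ⟨π, hπ⟩ := LinearMap.exists_leftInverse_of_injective (Algebra.linearMap K L) hinj
  have hπι : ∀ x : K, π (ι x) = x := fun x => by
    have := LinearMap.congr_fun hπ x
    exact this
  have hπmul : ∀ (a : L) (x : K), π (a * ι x) = π a * x := fun a x => by
    have : a * ι x = x • a := by
      rw [Algebra.smul_def, mul_comm]; rfl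
    rw [this, map_smul, smul_eq_mul, mul_comm]
  rw [Algebra.adjoin_singleton_eq_range_aeval] at h ⊢
  obtain ⟨p, hp⟩ := h
  have key : ∀ p : L[X], ∃ p' : K[X],
      piS π (map_zero π) (aeval (coeffMap ι J) p) = aeval J p' := by
    intro p
    induction p using Polynomial.induction_on' with
    | add p q hp hq =>
      obtain ⟨p', hp'⟩ := hp
      obtain ⟨q', hq'⟩ := hq
      refine ⟨p' + q', ?_⟩
      rw [map_add, map_add, ← hp', ← hq']
      ext n
      simp only [piS_coeff, HahnSeries.coeff_add, map_add]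
    | monomial n a =>
      refine ⟨monomial n (π a), ?_⟩
      rw [aeval_monomial, aeval_monomial, ← map_pow]
      ext m
      rw [piS_coeff]
      have h1 : (algebraMap L (LaurentSeries L) a * coeffMap ι (J ^ n)).coeff m
          = a * ι ((J ^ n).coeff m) := by
        rw [algebraMap_laurentSeries_eq_single, HahnSeries.coeff_single_mul, sub_zero,
          coeffMap_coeff]
      have h2 : (algebraMap K (LaurentSeries K) (π a) * J ^ n).coeff m
          = π a * (J ^ n).coeff m := by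
        rw [algebraMap_laurentSeries_eq_single, HahnSeries.coeff_single_mul, sub_zero]
      rw [h1, h2, hπmul]
  obtain ⟨p', hp'⟩ := key p
  refine ⟨p', ?_⟩
  show aeval J p' = P
  rw [← hp']
  have hp2 : (aeval (coeffMap ι J)) p = coeffMap ι P := hp
  rw [hp2]
  ext n
  rw [piS_coeff, coeffMap_coeff, hπι]

end Descent

/-! ### Part C: the data -/

section Data

lemma coeffMap_jqModC {K K' : Type} [Field K] [Field K'] (f : K →+* K') :
    coeffMap f (jqModC K) = jqModC K' :=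
  map_jqModC f

lemma iotaN_qExpand_jq (N : ℕ) [NeZero N] (d : ℕ) [NeZero d] :
    iotaN N (qExpand ℚ d jq) = qExpand ℂ N (qExpand ℂ d (jqModC ℂ)) := by
  rw [iotaN, RingHom.comp_apply, ModularCurve.coeffMap_qExpand, ← jqModC_rat, coeffMap_jqModC]

lemma coeffMap_qExpand_jqModC {K : Type} [Field K] (ι : K →+* ℂ) (N : ℕ) [NeZero N]
    (d : ℕ) [NeZero d] :
    coeffMap ι (qExpand K N (qExpand K d (jqModC K))) = iotaN N (qExpand ℚ d jq) := by
  rw [iotaN_qExpand_jq, ModularCurve.coeffMap_qExpand, ModularCurve.coeffMap_qExpand,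
    coeffMap_jqModC]

lemma coeffMap_qExpand_jqModC_one {K : Type} [Field K] (ι : K →+* ℂ) (N : ℕ) [NeZero N] :
    coeffMap ι (qExpand K N (jqModC K)) = iotaN N jq := by
  have := coeffMap_qExpand_jqModC ι N 1
  rwa [qExpand_one_apply, qExpand_one_apply] at this

/-- **Transfer**: the conjugate data over any algebraically closed subfield of `ℂ`. -/
theorem nonempty_caDataL {K : Type} [Field K] [IsAlgClosed K] (ι : K →+* ℂ) (N : ℕ) [NeZero N] :
    Nonempty (CADataL K N) := by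
  obtain ⟨D, hXc, hXtop⟩ := Fermat.Agent.S28.H30.exists_caData_strong N
  have hU : ∀ q, ∃ g : LaurentSeries K, coeffMap ι g = D.U q := fun q =>
    exists_coeffMap_eq ι fun n => mem_range_of_mem_coeffRing ι N (D.U_coeff q n)
  choose U' hU' using hU
  have hX : ∀ (d : ℕ) (q : D.Q), ∃ g : LaurentSeries K, d ∣ N → coeffMap ι g = D.X d q := by
    intro d q
    by_cases hd : d ∣ N
    · obtain ⟨g, hg⟩ :=
        exists_coeffMap_eq ι fun n => mem_range_of_mem_coeffRing ι N (hXc d q n hd)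
      exact ⟨g, fun _ => hg⟩
    · exact ⟨0, fun h => absurd h hd⟩
  choose X' hX' using hX
  exact ⟨{
    Q := D.Q
    instFintype := D.instFintype
    q₀ := D.q₀
    D := D.D
    D_pos := D.D_pos
    U := U'
    X := X'
    U_coeff := fun q n => mem_coeffRingL_of_map_mem ι N (by
      rw [← coeffMap_coeff, hU']; exact D.U_coeff q n)
    U_ne := fun q h => D.U_ne q (by rw [← hU', h, map_zero])
    U_lead := fun q => mem_coeffRingL_of_map_mem ι N (by
      rw [map_inv₀, ← coeffMap_leadingCoeff, hU']; exact D.U_lead q)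
    U_order₀ := by rw [← coeffMap_order ι, hU']; exact D.U_order₀
    U_order_pos := fun q hq => by rw [← coeffMap_order ι, hU']; exact D.U_order_pos q hq
    X_coeff := fun d q n hd => mem_coeffRingL_of_map_mem ι N (by
      rw [← coeffMap_coeff, hX' d q hd]; exact hXc d q n hd)
    X_q₀ := fun d _ hd => coeffMap_injective ι (by
      rw [hX' d _ hd, D.X_q₀ d hd, coeffMap_qExpand_jqModC])
    X_top := fun q hq => ι.injective (by
      rw [← coeffMap_coeff, hX' N q dvd_rfl, map_zero]; exact hXtop q hq)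
    sym := fun d hd c s => mem_adjoin_of_coeffMap_mem ι _ _ (by
      rw [coeffMap_qExpand_jqModC_one, map_prod]
      have := D.sym d hd (ι c) (ι s)
      convert this using 2
      rename_i q _
      rw [map_sub, map_sub, map_mul, coeffMap_C, coeffMap_C, hU', hX' d q hd]) }⟩

end Data

/-- **Stmt_CAL**: the conjugate data exist over `ℚ̄`. -/
theorem stmt_CAL : Stmt_CAL := fun N _ =>
  haveI : Algebra.IsAlgebraic ℚ (AlgebraicClosure ℚ) := AlgebraicClosure.isAlgebraic ℚ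
  nonempty_caDataL ((IsAlgClosed.lift : AlgebraicClosure ℚ →ₐ[ℚ] ℂ) : AlgebraicClosure ℚ →+* ℂ) N

end Fermat.Agent.RED.H30

end
end
-- ==== END Fermat.Agent.RED.H30_CAL
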