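-- GENERATED (merged mirror, NOTES/tools/trim/merge3_helper67.py): 6 modules of the originals, bodies verbatim.
import Mathlib
import Fermat.Prelude.Def_FLTPrelim_Ramification
import Fermat.Agent.Zm.S35_L07_002
import Fermat.Agent.Zm.S35_L03_002
import Fermat.Agent.Zm.S35_L07_003

-- ==== BEGIN Fermat.Agent.RED.H17_Main
section

/-!
# G-RED / TI route C (helper17), part 8: the Kummer form of torsion injectivity, abstract form

`RedSetup.ticore`: let `S : RedSetup K F k F'` be reduction data with the divisor identity, `F / K`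
and `F' / k` function fields (FF-B, FF-R) such that the genus does not drop (`GenusLE'`), `K`
algebraically closed.  If `m` is invertible in `k`, `f ∈ V` has reduction `1` and all orders of
`f` are divisible by `m`, then `f` is an `m`-th power in `F`.
-/

set_option autoImplicit false
set_option linter.style.haveILetI false
set_option maxHeartbeats 1000000

noncomputable section

open AlgebraicCurve

attribute [local instance] Classical.propDecidable

namespace Fermat.Agent.RED.H17

local notation "L" => riemannRochSpace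

/-- Push-forward along a section. -/
theorem mapDomain_section_apply {α β : Type*} {r : α → β} {σ : β → α}
    (hσ : ∀ b, r (σ b) = b) (D : β →₀ ℤ) (a : α) :
    Finsupp.mapDomain σ D a = if a = σ (r a) then D (r a) else 0 := by
  have hinj : Function.Injective σ := fun x y hxy => by rw [← hσ x, ← hσ y, hxy]
  split_ifs with h
  · rw [h, Finsupp.mapDomain_apply hinj, hσ]
  · apply Finsupp.mapDomain_of_notMem_range
    rintro ⟨b, rfl⟩
    exact h (by rw [hσ])

namespace RedSetup

variable {K F k F' : Type*} [Field K] [Field F] [Algebra K F] [Field k] [Field F']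
  [Algebra k F'] (S : RedSetup K F k F')

/-- The genus does not rise either. -/
theorem genus_le (H : FFHyp K F) (H' : FFHyp k F') [Infinite k] {g : ℕ} {c : ℤ}
    (hR : IsGenus K F g c) {g' : ℕ} {c' : ℤ} (hR' : IsGenus k F' g' c') (hG : S.GenusLE') :
    g ≤ g' := by
  obtain ⟨Q₀, -⟩ := H'.exists_notMem ∅
  obtain ⟨P₀, -⟩ := S.r_surjective H.principal Q₀
  obtain ⟨cG, hcG⟩ := hG
  set N : ℕ := (max c cG).toNat with hN
  set D : Divisor K F := Finsupp.single P₀ (N : ℤ) with hD
  have hdeg : Divisor.degree D = N := by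
    rw [hD, Divisor.degree_single, H.deg_one, Nat.cast_one, mul_one]
  have h1 := (hR D).2 (by rw [hdeg]; omega)
  have h2 := hcG D (by rw [hdeg]; omega)
  have h3 := (hR' (Finsupp.mapDomain S.r D)).1
  rw [degree_mapDomain H.deg_one H'.deg_one] at h3
  rw [hdeg] at h1 h3
  have h4 : (Module.finrank k (L (Finsupp.mapDomain S.r D)) : ℤ)
      ≤ Module.finrank K (L D) := by exact_mod_cast h2
  omega

/-- **Kummer form of torsion injectivity** for reduction data with the divisor identity. -/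
theorem ticore (H : FFHyp K F) (H' : FFHyp k F') [IsAlgClosed K] [Infinite k] {g : ℕ} {c : ℤ}
    (hR : IsGenus K F g c) {g' : ℕ} {c' : ℤ} (hR' : IsGenus k F' g' c') (hG : S.GenusLE')
    (m : ℕ) (hm : (m : k) ≠ 0) (f : F) (hf : f ∈ S.V) (hf1 : S.rd f = 1)
    (hdiv : ∀ P : Place K F, (m : ℤ) ∣ P.ord f) : ∃ t : F, t ^ m = f := by
  have hP := H.principal
  have hP' := H'.principal
  have hm0 : m ≠ 0 := by
    rintro rfl
    exact hm Nat.cast_zero
  have hmZ : (m : ℤ) ≠ 0 := by exact_mod_cast hm0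
  have hgg : g ≤ g' := S.genus_le H H' hR hR' hG
  have hfGU : S.IsGU f := ⟨hf, by rw [hf1]; exact one_ne_zero⟩
  -- the non-special divisor and the place at infinity
  obtain ⟨A, hAcard, hA⟩ := H'.exists_nonspecial hR'
  obtain ⟨Qinf, hQinf⟩ := H'.exists_notMem A
  obtain ⟨Pinf, hPinf⟩ := S.r_surjective hP Qinf
  -- the coordinates
  have hsex : ∀ Q, ∃ s : F, Q ∈ A → S.IsCoord s Q ∧ (∀ P, S.r P ∈ A → 0 ≤ P.ord s) ∧
      ∀ Q' ∈ A, Q' ≠ Q → Q'.ord (S.rd s) = 0 := by
    intro Q
    by_cases hQ : Q ∈ A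
    · obtain ⟨sb, hsb0, hsb⟩ := H51.exists_ord_eq_family A (fun v => if v = Q then 1 else 0)
      obtain ⟨s, hsV, hsrd, hsreg⟩ := S.exists_good_lift H H' hG sb A (fun v hv => by
        rw [hsb v hv]; split_ifs <;> omega)
      refine ⟨s, fun _ => ⟨⟨⟨hsV, by rw [hsrd]; exact hsb0⟩, fun P hPQ =>
        hsreg P (by rw [hPQ]; exact hQ), by rw [hsrd, hsb Q hQ, if_pos rfl]⟩, hsreg, ?_⟩⟩
      intro Q' hQ' hne
      rw [hsrd, hsb Q' hQ', if_neg hne]
    · exact ⟨0, fun h => absurd h hQ⟩
  choose s hs using hsex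
  have hsC : ∀ Q ∈ A, S.IsCoord (s Q) Q := fun Q hQ => (hs Q hQ).1
  have hsreg : ∀ Q ∈ A, ∀ P, S.r P ∈ A → 0 ≤ P.ord (s Q) := fun Q hQ => (hs Q hQ).2.1
  have hs0 : ∀ Q ∈ A, ∀ Q' ∈ A, Q' ≠ Q → Q'.ord (S.rd (s Q)) = 0 := fun Q hQ Q' hQ' hne =>
    (hs Q hQ).2.2 Q' hQ' hne
  -- the section `Y`
  have hYex : ∀ Q, ∃ Y, S.r Y = Q ∧ (Q ∈ A → Y.ord (s Q) = 1 ∧
      ∀ P, S.r P = Q → P ≠ Y → P.ord (s Q) = 0) := by
    intro Q
    by_cases hQ : Q ∈ A
    · obtain ⟨Y, h1, h2, h3⟩ := (hsC Q hQ).exists_zero hP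
      exact ⟨Y, h1, fun _ => ⟨h2, h3⟩⟩
    · obtain ⟨Y, h1⟩ := S.r_surjective hP Q
      exact ⟨Y, h1, fun h => absurd h hQ⟩
  choose Y hY using hYex
  have hrY : ∀ Q, S.r (Y Q) = Q := fun Q => (hY Q).1
  -- the divisor `E'`
  set E' : Divisor K F := Finsupp.mapDomain Y (ptsDiv A) with hE'
  have hE'a : ∀ P, E' P = if P = Y (S.r P) then ptsDiv A (S.r P) else 0 := fun P =>
    mapDomain_section_apply hrY (ptsDiv A) P
  have hrE' : Finsupp.mapDomain S.r E' = ptsDiv A := by
    rw [hE', ← Finsupp.mapDomain_comp]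
    have : S.r ∘ Y = id := funext hrY
    rw [this, Finsupp.mapDomain_id]
  have hdegE' : Divisor.degree E' = g' := by
    rw [← degree_mapDomain H.deg_one H'.deg_one S.r E', hrE', degree_ptsDiv H'.deg_one, hAcard]
  -- the divisor `D₀ = (1/m) div f`
  set D₀ : Divisor K F := (dv hP f).mapRange (fun n : ℤ => n / (m : ℤ)) (by simp) with hD₀
  have hD₀a : ∀ P, (m : ℤ) * D₀ P = P.ord f := by
    intro P
    rw [hD₀, Finsupp.mapRange_apply, dv_apply]
    exact Int.mul_ediv_cancel' (hdiv P)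
  have hmD₀ : (m : ℤ) • D₀ = dv hP f := by
    ext P
    rw [Finsupp.smul_apply, smul_eq_mul, hD₀a, dv_apply]
  have hdegD₀ : Divisor.degree D₀ = 0 := by
    have h1 : Divisor.degree ((m : ℤ) • D₀) = 0 := by rw [hmD₀, degree_dv]
    rw [map_zsmul, smul_eq_mul] at h1
    exact (mul_eq_zero.mp h1).resolve_left hmZ
  have hrD₀ : Finsupp.mapDomain S.r D₀ = 0 := by
    have h1 : (m : ℤ) • Finsupp.mapDomain S.r D₀ = 0 := by
      rw [← Finsupp.mapDomain_smul, hmD₀]
      ext Q
      rw [S.mapDomain_dv hP hfGU, hf1, Place.ord_one]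
      rfl
    exact (smul_eq_zero.mp h1).resolve_left hmZ
  -- the function `u`
  have hex : ∃ u₀ : F, u₀ ∈ L (D₀ + E') ∧ u₀ ≠ 0 := by
    have h1 := (hR (D₀ + E')).1
    rw [map_add, hdegD₀, hdegE'] at h1
    have h2 : L (D₀ + E') ≠ ⊥ := by
      intro hbot
      rw [hbot, finrank_bot] at h1
      push_cast at h1
      omega
    exact (Submodule.ne_bot_iff _).mp h2
  obtain ⟨u₀, hu₀, hu₀0⟩ := hex
  obtain ⟨c₁, hc₁, huGU⟩ := S.exists_isGU_scale hu₀0
  set u : F := algebraMap K F c₁ * u₀ with hu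
  have huL : u ∈ L (D₀ + E') := by
    rw [hu, ← Algebra.smul_def]
    exact (L (D₀ + E')).smul_mem c₁ hu₀
  -- the divisor `E`
  set E : Divisor K F := dv hP u + D₀ + E' with hE
  have hEa : ∀ P, E P = P.ord u + D₀ P + E' P := fun P => by
    rw [hE, Finsupp.add_apply, Finsupp.add_apply, dv_apply]
  have hEnn : ∀ P, 0 ≤ E P := by
    intro P
    have := ord_ge_of_mem_L huL huGU.ne_zero P
    rw [Finsupp.add_apply] at this
    rw [hEa]
    omega
  have hrE : ∀ Q, Finsupp.mapDomain S.r E Q = Q.ord (S.rd u) + ptsDiv A Q := by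
    intro Q
    rw [hE, Finsupp.mapDomain_add, Finsupp.mapDomain_add, hrD₀, hrE', Finsupp.add_apply,
      Finsupp.add_apply, S.mapDomain_dv hP huGU]
    simp
  have hruL : S.rd u ∈ L (ptsDiv A) := by
    rw [mem_L_iff_ord]
    intro Q
    right
    have := mapDomain_nonneg' S.r hEnn Q
    rw [hrE] at this
    omega
  obtain ⟨cu, hcu⟩ := hA _ hruL
  have hcu0 : cu ≠ 0 := by
    rintro rfl
    rw [map_zero] at hcu
    exact huGU.2 hcu
  have hrE2 : ∀ Q, Finsupp.mapDomain S.r E Q = ptsDiv A Q := by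
    intro Q
    rw [hrE, hcu, ord_algebraMap, zero_add]
  -- the points `X`
  have hXex : ∀ Q, ∃ X, Q ∈ A → S.r X = Q ∧ E X = 1 ∧ ∀ P, S.r P = Q → P ≠ X → E P = 0 := by
    intro Q
    by_cases hQ : Q ∈ A
    · obtain ⟨X, h1, h2, h3⟩ := fibre_one S.r hEnn (b := Q) (by
        rw [hrE2, ptsDiv_apply, if_pos hQ])
      exact ⟨X, fun _ => ⟨h1, h2, h3⟩⟩
    · exact ⟨Pinf, fun h => absurd h hQ⟩
  choose X hX using hXex
  have hE0 : ∀ P, S.r P ∉ A → E P = 0 := by
    intro P hPA
    exact fibre_zero S.r hEnn (b := S.r P) (by rw [hrE2, ptsDiv_apply, if_neg hPA]) rfl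
  have hE'0 : ∀ P, S.r P ∉ A → E' P = 0 := by
    intro P hPA
    rw [hE'a, ptsDiv_apply, if_neg hPA]
    split_ifs <;> rfl
  -- the values `a`
  have haex : ∀ Q, ∃ a : K, Q ∈ A → algebraMap K F a ∈ S.V ∧ S.rd (algebraMap K F a) = 0 ∧
      VanAt (X Q) (s Q - algebraMap K F a) := by
    intro Q
    by_cases hQ : Q ∈ A
    · obtain ⟨a, h1, h2, h3⟩ := (hsC Q hQ).exists_value hP H.deg_one (hX Q hQ).1
      exact ⟨a, fun _ => ⟨h1, h2, h3⟩⟩
    · exact ⟨0, fun h => absurd h hQ⟩
  choose a ha using haex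
  -- the function `f₀ = f u ^ m`
  set f₀ : F := f * u ^ m with hf₀
  have hf₀GU : S.IsGU f₀ := hfGU.mul (huGU.pow m)
  have hf₀rd : S.rd f₀ = algebraMap k F' (cu ^ m) := by
    rw [hf₀, S.rd_mul hf (huGU.pow m).1, hf1, one_mul, S.rd_pow huGU.1, hcu, map_pow]
  have hf₀ord : ∀ P, P.ord f₀ = m * (E P - E' P) := by
    intro P
    rw [hf₀, P.ord_mul hfGU.ne_zero (pow_ne_zero _ huGU.ne_zero), ord_pow, ← hD₀a, hEa]
    ring
  have hf₀ord0 : ∀ P, S.r P ∉ A → P.ord f₀ = 0 := by
    intro P hPA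
    rw [hf₀ord, hE0 P hPA, hE'0 P hPA]
    simp
  -- the value of `f₀` at infinity
  have hPinfA : S.r Pinf ∉ A := by rw [hPinf]; exact hQinf
  obtain ⟨e₀, he₀⟩ := exists_value Pinf (H.deg_one Pinf)
    (regAt_of_ord_nonneg (le_of_eq (hf₀ord0 Pinf hPinfA).symm))
  obtain ⟨he₀V, he₀rd⟩ := S.const_of_vanAt_of_rd_const hP hf₀GU.1 (Q := S.r Pinf)
    (fun P hPQ => le_of_eq (hf₀ord0 P (by rw [hPQ]; exact hPinfA)).symm) rfl he₀ hf₀rd
  have he₀GU : S.IsGU (algebraMap K F e₀) := ⟨he₀V, by rw [he₀rd]; exact hf₀GU.2⟩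
  have he₀0 : e₀ ≠ 0 := by
    rintro rfl
    rw [map_zero] at he₀GU
    exact he₀GU.ne_zero rfl
  set f₁ : F := f₀ / algebraMap K F e₀ with hf₁
  have hf₁GU : S.IsGU f₁ := hf₀GU.div he₀GU
  have hf₁rd : S.rd f₁ = 1 := by
    rw [hf₁, hf₀GU.rd_div he₀GU, he₀rd, div_self hf₀GU.2]
  have hf₁ord : ∀ P, P.ord f₁ = m * (E P - E' P) := by
    intro P
    rw [hf₁, ord_div P hf₀GU.ne_zero he₀GU.ne_zero, ord_algebraMap, sub_zero, hf₀ord]
  have hf₁inf : VanAt Pinf (f₁ - 1) := by
    have : f₁ - 1 = (f₀ - algebraMap K F e₀) * algebraMap K F e₀⁻¹ := by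
      rw [hf₁, map_inv₀]
      field_simp [he₀GU.ne_zero]
    rw [this]
    exact he₀.mul_regAt (regAt_algebraMap Pinf _)
  -- the key lemma
  have hkey : f₁ = 1 := by
    refine S.key H A hA s hsC hsreg hs0 m hm f₁ hf₁GU.1 hf₁rd Pinf hPinfA hf₁inf a
      (fun Q hQ => ⟨(ha Q hQ).1, (ha Q hQ).2.1⟩) ?_ ?_
    · intro P hPA
      rw [hf₁ord, hE0 P hPA, hE'0 P hPA]
      simp
    · intro Q hQ P hPQ
      have h1 : P.ord (s Q - algebraMap K F (a Q)) = if P = X Q then 1 else 0 :=
        (hsC Q hQ).ord_sub_eq hP (ha Q hQ).1 (ha Q hQ).2.1 (hX Q hQ).1 (ha Q hQ).2.2 hPQ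
      have h2 : E P = if P = X Q then 1 else 0 := by
        split_ifs with hPX
        · rw [hPX]; exact (hX Q hQ).2.1
        · exact (hX Q hQ).2.2 P hPQ hPX
      have h3 : P.ord (s Q) = if P = Y Q then 1 else 0 := by
        split_ifs with hPY
        · rw [hPY]; exact ((hY Q).2 hQ).1
        · exact ((hY Q).2 hQ).2 P hPQ hPY
      have h4 : E' P = if P = Y Q then 1 else 0 := by
        rw [hE'a, hPQ, ptsDiv_apply, if_pos hQ]
      rw [hf₁ord, h1, h2, h3, h4]
  -- conclusion
  obtain ⟨t₀, ht₀⟩ := IsAlgClosed.exists_pow_nat_eq e₀ (Nat.pos_of_ne_zero hm0)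
  refine ⟨algebraMap K F t₀ * u⁻¹, ?_⟩
  have h1 : f₀ = algebraMap K F e₀ := by
    have := hkey
    rw [hf₁, div_eq_one_iff_eq he₀GU.ne_zero] at this
    exact this
  have hum : u ^ m ≠ 0 := pow_ne_zero _ huGU.ne_zero
  rw [mul_pow, ← map_pow, ht₀, ← h1, hf₀, inv_pow, mul_assoc, mul_inv_cancel₀ hum, mul_one]

end RedSetup

end Fermat.Agent.RED.H17

end
end
-- ==== END Fermat.Agent.RED.H17_Main

-- ==== BEGIN Fermat.Agent.RED.H33_Uni
section
attribute [local instance 10000] SubalgebraClass.toAlgebra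
attribute [local instance 10000] HahnSeries.powerSeriesAlgebra

/-!
# G-RED package UNI (helper33): uniqueness and equivariance of the Deuring reduction map

* `isRed_unique` (**UNIQ**): two maps of places `r, r' : Place C F → Place k F~` satisfying the
  conservation law `IsRed` coincide.
  Proof: if `r P ≠ r' P`, every `x ∈ L(nP) ∩ V` reduces into `L~(n rP) ∩ L~(n r'P) = L~(0)`, of
  dimension `≤ 1`; but `dim res (L(nP) ∩ V) = l(nP) ≥ 2` for large `n` (LAT + Riemann).
* `isRed_equivariant` (**EQ**): semilinear automorphisms `g` of `F`, `g~` of `F~` compatible with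
  the Gauss valuation and the reduction satisfy `r (g • P) = g~ • r P`.
-/

set_option autoImplicit false
set_option linter.style.haveILetI false
set_option linter.unusedSectionVars false
set_option synthInstance.maxHeartbeats 400000
set_option maxHeartbeats 1000000

noncomputable section

open AlgebraicCurve ModularCurve Fermat.Agent.S28 Fermat.Agent.S28.H73 Fermat.Agent.RED.H73

namespace Fermat.Agent.RED.H33

section Push

variable {K E K' E' : Type*} [Field K] [Field E] [Algebra K E] [Field K'] [Field E'] [Algebra K' E']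

/-- The push-forward of a divisor is nonnegative at `Q` if the divisor is nonnegative on the
fibre of `Q`. -/
theorem mapDomain_nonneg (r : Place K E → Place K' E') (D : Divisor K E) (Q : Place K' E')
    (hD : ∀ P, r P = Q → 0 ≤ D P) : 0 ≤ Finsupp.mapDomain r D Q := by
  classical
  rw [Finsupp.mapDomain, Finsupp.sum_apply]
  refine Finset.sum_nonneg fun P _ => ?_
  show 0 ≤ (Finsupp.single (r P) (D P)) Q
  rw [Finsupp.single_apply]
  split_ifs with hP
  · exact hD P hP
  · exact le_rfl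

end Push

section Uniq

variable {C : Type} [Field C] [IsAlgClosed C] (O : ValuationSubring C) [IsAlgClosed (kV O)]
variable {F : IntermediateField C (LaurentSeries C)} (h : HasScale O F)

/-- Key step: a function with poles only at `P`, lying in `V`, reduces to a function without
poles if `r P ≠ r' P`. -/
theorem res_mem_riemannRochSpace_zero (hFF : IsFF C ↥F)
    {r r' : Place C ↥F → Place (kV O) ↥(redField O F h)}
    (hr : IsRed O h r) (hr' : IsRed O h r') (P : Place C ↥F) (hne : r P ≠ r' P) (n : ℤ)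
    (x : ↥(gaussValSub O F h))
    (hx : (x : ↥F) ∈ riemannRochSpace (Finsupp.single P n : Divisor C ↥F)) :
    gaussResF' O h x ∈ riemannRochSpace (0 : Divisor (kV O) ↥(redField O F h)) := by
  classical
  rw [mem_riemannRochSpace_iff]
  intro Q
  by_cases hy : gaussResF' O h x = 0
  · exact Or.inl hy
  right
  have hunit : IsUnit x := by
    rw [isUnit_iff_gaussResF_ne_zero]
    intro h0
    exact hy (Subtype.ext h0)
  have hx0 : (x : ↥F) ≠ 0 := by
    intro h0
    apply hy
    have : x = 0 := Subtype.ext h0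
    rw [this, map_zero]
  haveI : HasPrincipalDivisors C ↥F := H42.stmt_FFB_principal C ↥F hFF
  obtain ⟨D, hD, -⟩ := HasPrincipalDivisors.exists_divisor (K := C) (x : ↥F) hx0
  have hpos : ∀ P', P' ≠ P → 0 ≤ D P' := by
    intro P' hP'
    rw [hD]
    rcases (mem_riemannRochSpace_iff.mp hx) P' with h0 | h1
    · exact absurd h0 hx0
    · rw [Finsupp.single_apply, if_neg (Ne.symm hP'), neg_zero] at h1
      exact h1
  simp only [Finsupp.coe_zero, Pi.zero_apply, neg_zero]
  by_cases hQ : r P = Q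
  · -- use `r'`
    rw [← hr' x hunit D hD Q]
    refine mapDomain_nonneg r' D Q fun P' hP' => hpos P' ?_
    rintro rfl
    exact hne (hQ.trans hP'.symm)
  · rw [← hr x hunit D hD Q]
    refine mapDomain_nonneg r D Q fun P' hP' => hpos P' ?_
    rintro rfl
    exact hQ hP'

/-- **UNIQ**: the Deuring reduction map is determined by the conservation law. -/
theorem isRed_unique (hFF : IsFF C ↥F) (hFt : IsFF (kV O) ↥(redField O F h))
    (hscal : H42.FracScalable O F)
    {r r' : Place C ↥F → Place (kV O) ↥(redField O F h)}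
    (hr : IsRed O h r) (hr' : IsRed O h r') : r = r' := by
  classical
  funext P
  by_contra hne
  obtain ⟨g, c, hg⟩ := H42.stmt_FFR_riemann C ↥F hFF
  -- a large multiple of `P`
  set n : ℤ := max c ((g : ℤ) + 1) with hn
  have hdegP : (P.deg : ℤ) = 1 := by
    exact_mod_cast H51.stmt_FFB_deg C ↥F hFF P
  have hdeg : Divisor.degree (Finsupp.single P n : Divisor C ↥F) = n := by
    rw [Divisor.degree_single, hdegP, mul_one]
  have hdim : (Module.finrank C (riemannRochSpace (Finsupp.single P n : Divisor C ↥F)) : ℤ)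
      = n + 1 - g := by
    have := (hg (Finsupp.single P n)).2 (by rw [hdeg]; exact le_max_left _ _)
    rw [this, hdeg]
  have hdim2 : 2 ≤ Module.finrank C (riemannRochSpace (Finsupp.single P n : Divisor C ↥F)) := by
    have h1 : (g : ℤ) + 1 ≤ n := le_max_right _ _
    have : (2 : ℤ) ≤ Module.finrank C (riemannRochSpace (Finsupp.single P n : Divisor C ↥F)) := by
      rw [hdim]; omega
    exact_mod_cast this
  haveI : Module.Finite C (riemannRochSpace (Finsupp.single P n : Divisor C ↥F)) :=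
    H42.stmt_FFR_finite C ↥F hFF _
  obtain ⟨Wt, hWt, hfin, -⟩ := H42.exists_redSubF O hscal h
    (riemannRochSpace (Finsupp.single P n : Divisor C ↥F))
  have hle : Wt ≤ riemannRochSpace (0 : Divisor (kV O) ↥(redField O F h)) := by
    intro y hy
    have hy' : y ∈ H42.redSetF O h (riemannRochSpace (Finsupp.single P n : Divisor C ↥F)) := by
      rw [← hWt]; exact hy
    obtain ⟨x, hxW, rfl⟩ := hy'
    exact res_mem_riemannRochSpace_zero O h hFF hr hr' P hne n x hxW
  haveI : Module.Finite (kV O) (riemannRochSpace (0 : Divisor (kV O) ↥(redField O F h))) :=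
    H42.stmt_FFR_finite (kV O) ↥(redField O F h) hFt _
  have h1 : Module.finrank (kV O) Wt ≤
      Module.finrank (kV O) (riemannRochSpace (0 : Divisor (kV O) ↥(redField O F h))) :=
    Submodule.finrank_mono hle
  have h2 : (Module.finrank (kV O)
      (riemannRochSpace (0 : Divisor (kV O) ↥(redField O F h))) : ℤ) ≤ 1 := by
    have := (H42.stmt_FFR_le (kV O) ↥(redField O F h) hFt 0).2 (by simp)
    simpa using this
  have h3 : Module.finrank (kV O)
      (riemannRochSpace (0 : Divisor (kV O) ↥(redField O F h))) ≤ 1 := by exact_mod_cast h2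
  omega

/-- **EQ**: semilinear automorphisms `g` of `F` and `gt` of `F~` which are compatible with the
Gauss valuation ring and the reduction map commute with the Deuring reduction of places. -/
theorem isRed_equivariant (hFF : IsFF C ↥F) (hFt : IsFF (kV O) ↥(redField O F h))
    (hscal : H42.FracScalable O F)
    (g : SemilinearAut C ↥F) (gt : SemilinearAut (kV O) ↥(redField O F h))
    (hg : ∀ f : ↥(gaussValSub O F h), ∃ hmem : g • (f : ↥F) ∈ gaussValSub O F h,
      gaussResF' O h ⟨g • (f : ↥F), hmem⟩ = gt • gaussResF' O h f)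
    {r : Place C ↥F → Place (kV O) ↥(redField O F h)} (hr : IsRed O h r) (P : Place C ↥F) :
    r (g • P) = gt • r P := by
  classical
  have hr' : IsRed O h (fun P => gt⁻¹ • r (g • P)) := by
    intro f hf D hD Q
    obtain ⟨hmem, hres⟩ := hg f
    have hunit : IsUnit (⟨g • (f : ↥F), hmem⟩ : ↥(gaussValSub O F h)) := by
      rw [isUnit_iff_gaussResF_ne_zero]
      intro h0
      have h1 : gaussResF' O h ⟨g • (f : ↥F), hmem⟩ = 0 := Subtype.ext h0
      rw [hres] at h1
      have h2 : gaussResF' O h f = 0 := by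
        have := congrArg (fun y => gt⁻¹ • y) h1
        simpa using this
      have h3 : gaussResF O h f = 0 := congrArg Subtype.val h2
      exact (isUnit_iff_gaussResF_ne_zero O h f).mp hf h3
    have hD' : ∀ P', (g • D) P' = P'.ord ((⟨g • (f : ↥F), hmem⟩ : ↥(gaussValSub O F h)) : ↥F) := by
      intro P'
      rw [SemilinearAut.divisor_smul_apply, hD]
      have := SemilinearAut.ord_smul g (g⁻¹ • P') (f : ↥F)
      rw [smul_inv_smul] at this
      exact this.symm
    have key := hr _ hunit (g • D) hD' (gt • Q)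
    rw [hres, SemilinearAut.ord_smul] at key
    rw [← key]
    have hcomp : Finsupp.mapDomain (fun P => gt⁻¹ • r (g • P)) D =
        gt⁻¹ • Finsupp.mapDomain r (g • D) := by
      rw [SemilinearAut.divisor_smul_def, SemilinearAut.divisor_smul_def,
        ← Finsupp.mapDomain_comp, ← Finsupp.mapDomain_comp]
      rfl
    rw [hcomp, SemilinearAut.divisor_smul_apply, inv_inv]
  have := congrFun (isRed_unique O h hFF hFt hscal hr' hr) P
  have h2 := congrArg (fun Q => gt • Q) this
  simpa using h2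

end Uniq

end Fermat.Agent.RED.H33

end
end
-- ==== END Fermat.Agent.RED.H33_Uni

-- ==== BEGIN Fermat.Agent.RED.H34_ChartData
section

/-!
# G-RED package IG (helper34): data for the chart theorem

* `exists_transition` : transition matrix from an integral `K`-basis to an `R`-basis of the
  integral closure, with the discriminant relation `disc b = det P ^ 2 * disc c`.
* `RedSetting.exists_good_basis` : a `k[xt]`-basis `bt` of the reduced order `Bbar = red (B ∩ V)`
  with a lift `bF` to a `C(x)`-basis of `F` inside `B ∩ V`.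
* `RedSetting.exists_discr_lift` (S6) : the discriminant of `bF` lies in `O[x]` and reduces to the
  discriminant of `bt`.
-/

set_option autoImplicit false

noncomputable section

open Polynomial IntermediateField Module Matrix
open scoped IntermediateField.algebraAdjoinAdjoin nonZeroDivisors

namespace Fermat.Agent.RED.H34

/-- Transition from an integral `K`-basis to an `R`-basis of the integral closure. -/
theorem exists_transition {R K L : Type} [CommRing R] [IsDomain R]
    [IsPrincipalIdealRing R] [Field K] [Field L] [Algebra R K] [IsFractionRing R K] [Algebra K L]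
    [Algebra R L] [IsScalarTower R K L] [FiniteDimensional K L] [Algebra.IsSeparable K L]
    {ι : Type} [Fintype ι] [DecidableEq ι] (b : Module.Basis ι K L)
    (hb : ∀ i, IsIntegral R (b i)) :
    ∃ (c : Module.Basis ι R ↥(integralClosure R L)) (P : Matrix ι ι R),
      (∀ i, (⟨b i, hb i⟩ : ↥(integralClosure R L)) = ∑ j, P i j • c j) ∧
      algebraMap R K (P.det ^ 2 * Algebra.discr R c) = Algebra.discr K b := by
  classical
  have hinj : Function.Injective (algebraMap R L) := by
    rw [IsScalarTower.algebraMap_eq R K L]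
    exact (algebraMap K L).injective.comp (IsFractionRing.injective R K)
  have htf : Module.IsTorsionFree R L := by
    rw [Module.isTorsionFree_iff_algebraMap_injective]
    exact hinj
  have hfree : Module.Free R (integralClosure R L) :=
    IsIntegralClosure.module_free R K L (integralClosure R L)
  have hfin : Module.Finite R (integralClosure R L) :=
    IsIntegralClosure.finite R K L (integralClosure R L)
  have hrank : Module.finrank R (integralClosure R L) = Fintype.card ι := by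
    rw [IsIntegralClosure.rank R K L (integralClosure R L), Module.finrank_eq_card_basis b]
  let c : Module.Basis ι R (integralClosure R L) :=
    (Module.finBasisOfFinrankEq R (integralClosure R L) hrank).reindex (Fintype.equivFin ι).symm
  have hloc : IsLocalization (Algebra.algebraMapSubmonoid (integralClosure R L) R⁰) L :=
    IsIntegralClosure.isLocalization R K L (integralClosure R L)
  let cK : Module.Basis ι K L := c.localizationLocalization K R⁰ L
  have hcK : ∀ i, cK i = (c i : L) := fun i => by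
    simp [cK, Module.Basis.localizationLocalization_apply]
  let bB : ι → integralClosure R L := fun i => ⟨b i, hb i⟩
  let P : Matrix ι ι R := Matrix.of fun i j => c.repr (bB i) j
  have hbB : ∀ i, bB i = ∑ j, P i j • c j := fun i => (c.sum_repr (bB i)).symm
  have hbP : ∀ i, b i = ∑ j, P i j • (c j : L) := by
    intro i
    have h2 := congrArg (fun z : integralClosure R L => (z : L)) (hbB i)
    simp only [AddSubmonoidClass.coe_finsetSum, Subalgebra.coe_smul] at h2
    exact h2
  have hbP' : (b : ι → L) =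
      ((P.map (algebraMap R K)).map (algebraMap K L)) *ᵥ (cK : ι → L) := by
    ext i
    rw [hbP i]
    simp only [Matrix.mulVec, dotProduct, Matrix.map_apply, hcK]
    refine Finset.sum_congr rfl fun j _ => ?_
    rw [← IsScalarTower.algebraMap_apply, Algebra.smul_def]
  refine ⟨c, P, hbB, ?_⟩
  rw [hbP', Algebra.discr_of_matrix_mulVec, Algebra.discr_localizationLocalization R R⁰ L c,
    map_mul, map_pow, RingHom.map_det, RingHom.mapMatrix_apply]

variable {C F k Ft : Type} [Field C] [Field F] [Algebra C F] [Field k] [Field Ft] [Algebra k Ft]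

namespace RedSetting

variable {S : RedSetting C F k Ft} {x : F} (hx : x ∈ S.V)

theorem finiteDimensional_red [FiniteDimensional ↥C⟮x⟯ F]
    (hdeg : Module.finrank ↥k⟮S.red ⟨x, hx⟩⟯ Ft = Module.finrank ↥C⟮x⟯ F) :
    FiniteDimensional ↥k⟮S.red ⟨x, hx⟩⟯ Ft := by
  apply Module.finite_of_finrank_pos
  rw [hdeg]
  exact Module.finrank_pos

/-- A basis of `Ft` over `k(xt)` generating the reduced order `Bbar` over `k[xt]`, together with a
lift to a `C(x)`-basis of `F` contained in `B ∩ V`. -/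
theorem exists_good_basis [CharZero C] (hxt : Transcendental k (S.red ⟨x, hx⟩))
    [FiniteDimensional ↥C⟮x⟯ F]
    (hdeg : Module.finrank ↥k⟮S.red ⟨x, hx⟩⟯ Ft = Module.finrank ↥C⟮x⟯ F)
    [Algebra.IsSeparable ↥k⟮S.red ⟨x, hx⟩⟯ Ft] :
    ∃ (m : ℕ) (bF : Module.Basis (Fin m) ↥C⟮x⟯ F) (hbV : ∀ i, bF i ∈ S.V)
      (bt : Module.Basis (Fin m) ↥k⟮S.red ⟨x, hx⟩⟯ Ft),
      (∀ i, IsIntegral ↥(Algebra.adjoin C {x}) (bF i)) ∧
      (∀ i, bt i = S.red ⟨bF i, hbV i⟩) ∧
      ∀ y ∈ S.Bbar hx, y ∈ Submodule.span ↥(Algebra.adjoin k {S.red ⟨x, hx⟩}) (Set.range bt) := by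
  classical
  have := finiteDimensional_red hx hdeg
  have : IsPrincipalIdealRing ↥(Algebra.adjoin k {S.red ⟨x, hx⟩}) :=
    isPrincipalIdealRing_adjoin hxt
  obtain ⟨m, bt, hbt, hspan⟩ := exists_basis_of_le_integralClosure
    (R := ↥(Algebra.adjoin k {S.red ⟨x, hx⟩})) (K := ↥k⟮S.red ⟨x, hx⟩⟯) (L := Ft)
    (S.Bbar hx) (Bbar_isIntegral hx hxt hdeg) (Bbar_span hx hxt)
  choose f hfV hfi hfr using fun i => (mem_Bbar hx (bt i)).1 (hbt i)
  have hlin : LinearIndependent ↥k⟮S.red ⟨x, hx⟩⟯ (fun i => S.red ⟨f i, hfV i⟩) := by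
    have h1 : (fun i => S.red ⟨f i, hfV i⟩) = bt := funext hfr
    rw [h1]
    exact bt.linearIndependent
  have hlinF : LinearIndependent ↥C⟮x⟯ f := linearIndependent_lift hx f hfV hxt hlin
  have hcard : Fintype.card (Fin m) = Module.finrank ↥C⟮x⟯ F := by
    rw [← hdeg, Module.finrank_eq_card_basis bt]
  have hm : 0 < m := by
    have h1 : 0 < Module.finrank ↥C⟮x⟯ F := Module.finrank_pos
    rw [← hcard, Fintype.card_fin] at h1
    exact h1
  have : Nonempty (Fin m) := ⟨⟨0, hm⟩⟩
  let bF : Module.Basis (Fin m) ↥C⟮x⟯ F := basisOfLinearIndependentOfCardEqFinrank hlinF hcard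
  have hbF : ∀ i, bF i = f i := fun i => by
    simp [bF]
  refine ⟨m, bF, fun i => by rw [hbF i]; exact hfV i, bt, fun i => by rw [hbF i]; exact hfi i,
    fun i => ?_, hspan⟩
  rw [← hfr i]
  congr 1
  exact Subtype.ext (hbF i).symm

theorem psiT_eq (hxt : Transcendental k (S.red ⟨x, hx⟩)) (p₀ : (↥S.O)[X]) :
    S.psiT hx p₀ = polyEquiv hxt (p₀.map S.resO) := by
  apply Subtype.ext
  rw [coe_psiT, red_psi, coe_polyEquiv]

theorem psiR_eq (hxC : Transcendental C x) (p₀ : (↥S.O)[X]) :
    S.psiR hxC p₀ = polyEquiv hxC (p₀.map S.O.subtype) := rfl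

theorem psiT_eq_zero_iff (hxt : Transcendental k (S.red ⟨x, hx⟩)) (p₀ : (↥S.O)[X]) :
    S.psiT hx p₀ = 0 ↔ p₀.map S.resO = 0 := by
  rw [psiT_eq hx hxt]
  exact EmbeddingLike.map_eq_zero_iff

/-- (S6) the discriminant of the lifted basis comes from `O[X]` and reduces to the discriminant
of the reduced basis. -/
theorem exists_discr_lift (hxt : Transcendental k (S.red ⟨x, hx⟩))
    [FiniteDimensional ↥k⟮S.red ⟨x, hx⟩⟯ Ft] [Algebra.IsSeparable ↥k⟮S.red ⟨x, hx⟩⟯ Ft]
    {ι : Type} [Fintype ι] [DecidableEq ι]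
    (bF : Module.Basis ι ↥C⟮x⟯ F) (hbV : ∀ i, bF i ∈ S.V)
    (bt : Module.Basis ι ↥k⟮S.red ⟨x, hx⟩⟯ Ft) (hbt : ∀ i, bt i = S.red ⟨bF i, hbV i⟩)
    (D : ↥(Algebra.adjoin C {x}))
    (hD : algebraMap ↥(Algebra.adjoin C {x}) ↥C⟮x⟯ D = Algebra.discr ↥C⟮x⟯ bF) :
    ∃ D₀ : (↥S.O)[X], S.psiR (transcendental_x hx hxt) D₀ = D ∧
      algebraMap ↥(Algebra.adjoin k {S.red ⟨x, hx⟩}) ↥k⟮S.red ⟨x, hx⟩⟯ (S.psiT hx D₀) =
        Algebra.discr ↥k⟮S.red ⟨x, hx⟩⟯ bt ∧ D₀.map S.resO ≠ 0 := by
  classical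
  have hxC := transcendental_x hx hxt
  obtain ⟨δ, hδ, hδr⟩ := discr_red hx bF hbV bt hbt hxt
  have hDF : ((D : ↥(Algebra.adjoin C {x})) : F) = (((δ : ↥(S.Vx x)) : ↥C⟮x⟯) : F) := by
    rw [hδ, ← hD]
    rfl
  have hDV : ((D : ↥(Algebra.adjoin C {x})) : F) ∈ S.V := by
    rw [hDF]
    exact δ.2
  obtain ⟨D₀, hD₀⟩ := exists_psiR_eq hx hxt hxC D hDV
  have hpsi : psi hx D₀ = ⟨(((δ : ↥(S.Vx x)) : ↥C⟮x⟯) : F), δ.2⟩ := by
    apply Subtype.ext
    rw [← coe_psiR hx hxC, hD₀, hDF]
  have h1 : algebraMap ↥(Algebra.adjoin k {S.red ⟨x, hx⟩}) ↥k⟮S.red ⟨x, hx⟩⟯ (S.psiT hx D₀) =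
      Algebra.discr ↥k⟮S.red ⟨x, hx⟩⟯ bt := by
    rw [← hδr]
    apply Subtype.ext
    rw [coe_redx]
    show ((S.psiT hx D₀ : ↥(Algebra.adjoin k {S.red ⟨x, hx⟩})) : Ft) = _
    rw [coe_psiT, hpsi]
  refine ⟨D₀, hD₀, h1, ?_⟩
  intro h0
  have h2 : S.psiT hx D₀ = 0 := (psiT_eq_zero_iff hx hxt D₀).2 h0
  rw [h2, map_zero] at h1
  exact Algebra.discr_not_zero_of_basis ↥k⟮S.red ⟨x, hx⟩⟯ bt h1.symm

end RedSetting

end Fermat.Agent.RED.H34

end
end
-- ==== END Fermat.Agent.RED.H34_ChartData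

-- ==== BEGIN Fermat.Agent.RED.H42_Gen3
section

/-!
# G-RED package GEN (helper42), part 3: lifted bases, the two cases of the exchange step

`IsLift hx e` : `e : ι → F` lies in `B ∩ V` and its reduction is a `k[xt]`-basis of `Bt`.
* `case_small` : the witness `(x - a) b = ∑ h i e i` with `a ∈ O` is impossible.
* `case_large` : for `a ∉ O` the witness yields a lifted basis with a strictly bigger span.
-/

set_option autoImplicit false

noncomputable section

open Polynomial IntermediateField Module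

namespace Fermat.Agent.RED.H42

open Fermat.Agent.RED.H34 Fermat.Agent.RED.H34.RedSetting

variable {C F k Ft : Type} [Field C] [Field F] [Algebra C F] [Field k] [Field Ft] [Algebra k Ft]
variable {S : RedSetting C F k Ft} {x : F} (hx : x ∈ S.V)

/-- A lifted basis: a family in `B ∩ V` whose reduction is a `k[xt]`-basis of `Bt`. -/
structure IsLift (hx : x ∈ S.V) {ι : Type} [Fintype ι] (e : ι → F) : Prop where
  memV : ∀ i, e i ∈ S.V
  int : ∀ i, IsIntegral ↥(Algebra.adjoin C {x}) (e i)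
  lin : LinearIndependent ↥k⟮S.red ⟨x, hx⟩⟯ (fun i => S.red ⟨e i, memV i⟩)
  span : ∀ y : Ft, IsIntegral ↥(Algebra.adjoin k {S.red ⟨x, hx⟩}) y →
      ∃ c : ι → k[X], y = ∑ i, Polynomial.aeval (S.red ⟨x, hx⟩) (c i) * S.red ⟨e i, memV i⟩

variable {ι : Type} [Fintype ι] {e : ι → F}

theorem aeval_mem_simple {K E : Type} [Field K] [Field E] [Algebra K E] (t : E) (p : K[X]) :
    Polynomial.aeval t p ∈ K⟮t⟯ :=
  IntermediateField.algebra_adjoin_le_adjoin K {t} (Polynomial.aeval_mem_adjoin_singleton K t)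

theorem IsLift.linearIndependent (he : IsLift hx e) (hxt : Transcendental k (S.red ⟨x, hx⟩)) :
    LinearIndependent ↥C⟮x⟯ e :=
  linearIndependent_lift hx e he.memV hxt he.lin

theorem IsLift.span_top (he : IsLift hx e) (hxt : Transcendental k (S.red ⟨x, hx⟩))
    [FiniteDimensional ↥C⟮x⟯ F] (hcard : Fintype.card ι = Module.finrank ↥C⟮x⟯ F) :
    ⊤ ≤ Submodule.span ↥C⟮x⟯ (Set.range e) :=
  ((he.linearIndependent hx hxt).span_eq_top_of_card_eq_finrank' hcard).ge

/-- Uniqueness of polynomial coordinates of the reduction. -/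
theorem IsLift.coeff_unique (he : IsLift hx e) (hxt : Transcendental k (S.red ⟨x, hx⟩))
    (c : ι → k[X]) (h0 : ∑ i, Polynomial.aeval (S.red ⟨x, hx⟩) (c i) * S.red ⟨e i, he.memV i⟩ = 0)
    (i : ι) : c i = 0 := by
  have h1 : ∑ j, (⟨Polynomial.aeval (S.red ⟨x, hx⟩) (c j), aeval_mem_simple _ _⟩ :
      ↥k⟮S.red ⟨x, hx⟩⟯) • S.red ⟨e j, he.memV j⟩ = 0 := by
    rw [← h0]
    refine Finset.sum_congr rfl fun j _ => ?_
    rw [IntermediateField.smul_def, smul_eq_mul]
  have h2 := (Fintype.linearIndependent_iff.1 he.lin) _ h1 i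
  have h3 : Polynomial.aeval (S.red ⟨x, hx⟩) (c i) = 0 := congrArg Subtype.val h2
  exact (transcendental_iff.1 hxt) _ h3

/-- The combination `∑ h i * e i` as an element of `V`. -/
def combV (he : IsLift hx e) (h : ι → ↥S.O) : ↥S.V :=
  ∑ i, S.inclO (h i) * ⟨e i, he.memV i⟩

theorem coe_combV (he : IsLift hx e) (h : ι → ↥S.O) :
    ((combV hx he h : ↥S.V) : F) = ∑ i, algebraMap C F (h i : C) * e i := by
  rw [combV, AddSubmonoidClass.coe_finsetSum]
  rfl

theorem red_combV (he : IsLift hx e) (h : ι → ↥S.O) :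
    S.red (combV hx he h) =
      ∑ i, Polynomial.aeval (S.red ⟨x, hx⟩) (Polynomial.C (S.resO (h i))) *
        S.red ⟨e i, he.memV i⟩ := by
  rw [combV, map_sum]
  refine Finset.sum_congr rfl fun i _ => ?_
  rw [map_mul, red_inclO, Polynomial.aeval_C]

/-- **Case `|a| ≤ 1`** of the exchange step: impossible. -/
theorem case_small [CharZero C] (hxt : Transcendental k (S.red ⟨x, hx⟩))
    [FiniteDimensional ↥C⟮x⟯ F]
    (hdeg : Module.finrank ↥k⟮S.red ⟨x, hx⟩⟯ Ft = Module.finrank ↥C⟮x⟯ F)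
    (he : IsLift hx e) {a : C} (ha : a ∈ S.O) {b : F}
    (hb : IsIntegral ↥(Algebra.adjoin C {x}) b) (h : ι → ↥S.O) (i₀ : ι) (hi₀ : h i₀ = 1)
    (hab : (x - algebraMap C F a) * b = ∑ i, algebraMap C F (h i : C) * e i) : False := by
  -- the unit `w = x - a`
  let q : (↥S.O)[X] := Polynomial.X - Polynomial.C ⟨a, ha⟩
  have hqmap : q.map S.resO = Polynomial.X - Polynomial.C (S.resO ⟨a, ha⟩) := by
    simp [q]
  have hqne : q.map S.resO ≠ 0 := by
    rw [hqmap]
    exact Polynomial.X_sub_C_ne_zero _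
  obtain ⟨w, hw⟩ := isUnit_psi hx hxt q hqne
  have hwF : (((w : (↥S.V)ˣ) : ↥S.V) : F) = x - algebraMap C F a := by
    rw [hw, coe_psi]
    simp [q]
  -- `b ∈ V`
  have hbV : b = ((((w⁻¹ : (↥S.V)ˣ) : ↥S.V) * combV hx he h : ↥S.V) : F) := by
    have h1 : ((((w : (↥S.V)ˣ) : ↥S.V) * (((w⁻¹ : (↥S.V)ˣ) : ↥S.V) * combV hx he h) : ↥S.V) : F)
        = (x - algebraMap C F a) * b := by
      rw [← mul_assoc, ← Units.val_mul, mul_inv_cancel, Units.val_one, one_mul, coe_combV, hab]
    rw [Subring.coe_mul, hwF] at h1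
    have hne : x - algebraMap C F a ≠ 0 := by
      rw [← hwF]
      intro h0
      have : ((w : (↥S.V)ˣ) : ↥S.V) = 0 := Subtype.ext h0
      exact w.ne_zero this
    exact (mul_left_cancel₀ hne h1).symm
  set bV : ↥S.V := ((w⁻¹ : (↥S.V)ˣ) : ↥S.V) * combV hx he h with hbVdef
  have hbint : IsIntegral ↥(Algebra.adjoin C {x}) (bV : F) := by
    rw [← hbV]
    exact hb
  have hred := gen_red_isIntegral hx hxt hdeg bV hbint
  obtain ⟨c, hc⟩ := he.span _ hred
  have hmul : S.red ((w : (↥S.V)ˣ) : ↥S.V) * S.red bV = S.red (combV hx he h) := by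
    rw [← map_mul, hbVdef, ← mul_assoc, ← Units.val_mul, mul_inv_cancel, Units.val_one, one_mul]
  rw [hw, red_psi, hqmap, red_combV, hc, Finset.mul_sum] at hmul
  have h0 : ∑ i, Polynomial.aeval (S.red ⟨x, hx⟩)
      ((Polynomial.X - Polynomial.C (S.resO ⟨a, ha⟩)) * c i - Polynomial.C (S.resO (h i))) *
        S.red ⟨e i, he.memV i⟩ = 0 := by
    rw [← sub_eq_zero, ← Finset.sum_sub_distrib] at hmul
    rw [← hmul]
    refine Finset.sum_congr rfl fun i _ => ?_
    rw [map_sub, map_mul, sub_mul, mul_assoc]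
  have h1 := he.coeff_unique hx hxt _ h0 i₀
  have h2 := congrArg (Polynomial.eval (S.resO ⟨a, ha⟩)) h1
  rw [hi₀, map_one] at h2
  simp at h2

theorem GSpan.of_forall {e' : ι → F} (h : ∀ i, GSpan C x e' (e i)) {b : F}
    (hb : GSpan C x e b) : GSpan C x e' b := by
  obtain ⟨p, rfl⟩ := hb
  exact Finset.sum_induction _ (GSpan C x e') (fun _ _ ha hb => ha.add hb) GSpan.zero
    fun i _ => (h i).aeval_mul (p i)

/-- **Case `|a| > 1`** of the exchange step: a lifted basis with a strictly bigger span. -/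
theorem case_large [DecidableEq ι] (hxt : Transcendental k (S.red ⟨x, hx⟩))
    (he : IsLift hx e) {a : C} (ha : a ∉ S.O) {b : F}
    (hb : IsIntegral ↥(Algebra.adjoin C {x}) b) (hnb : ¬ GSpan C x e b)
    (h : ι → ↥S.O) (i₀ : ι) (hi₀ : h i₀ = 1)
    (hab : (x - algebraMap C F a) * b = ∑ i, algebraMap C F (h i : C) * e i) :
    ∃ e' : ι → F, IsLift hx e' ∧ (∀ b', GSpan C x e b' → GSpan C x e' b') ∧
      ∃ b₁, GSpan C x e' b₁ ∧ ¬ GSpan C x e b₁ := by
  have ha0 : a ≠ 0 := fun h0 => ha (h0 ▸ S.O.zero_mem)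
  have hinv : a⁻¹ ∈ S.O := (S.O.mem_or_inv_mem a).resolve_left ha
  have hnu : ¬ IsUnit (⟨a⁻¹, hinv⟩ : ↥S.O) := by
    rintro ⟨v, hv⟩
    apply ha
    have h1 : (((v⁻¹ : (↥S.O)ˣ) : ↥S.O) : C) * a⁻¹ = 1 := by
      have : ((v⁻¹ : (↥S.O)ˣ) : ↥S.O) * (⟨a⁻¹, hinv⟩ : ↥S.O) = 1 := by
        rw [← hv, ← Units.val_mul, inv_mul_cancel, Units.val_one]
      exact congrArg Subtype.val this
    have h2 : (((v⁻¹ : (↥S.O)ˣ) : ↥S.O) : C) = a := by
      field_simp at h1
      exact h1
    rw [← h2]
    exact Subtype.mem _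
  have hres : S.resO ⟨a⁻¹, hinv⟩ = 0 := (S.resO_eq_zero_iff _).2 hnu
  -- the unit `u = 1 - x / a`
  let q : (↥S.O)[X] := 1 - Polynomial.C ⟨a⁻¹, hinv⟩ * Polynomial.X
  have hqmap : q.map S.resO = 1 := by
    simp [q, hres]
  have hqne : q.map S.resO ≠ 0 := by
    rw [hqmap]
    exact one_ne_zero
  obtain ⟨u, hu⟩ := isUnit_psi hx hxt q hqne
  have huF : (((u : (↥S.V)ˣ) : ↥S.V) : F) =
      Polynomial.aeval x (1 - Polynomial.C a⁻¹ * Polynomial.X : C[X]) := by
    rw [hu, coe_psi]
    simp [q]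
  have huF' : (((u : (↥S.V)ˣ) : ↥S.V) : F) = 1 - algebraMap C F a⁻¹ * x := by
    rw [huF]
    simp
  have hured : S.red ((u : (↥S.V)ˣ) : ↥S.V) = 1 := by
    rw [hu, red_psi, hqmap, map_one]
  have huinv : S.red ((u⁻¹ : (↥S.V)ˣ) : ↥S.V) = 1 := by
    have : S.red ((u : (↥S.V)ˣ) : ↥S.V) * S.red ((u⁻¹ : (↥S.V)ˣ) : ↥S.V) = 1 := by
      rw [← map_mul, ← Units.val_mul, mul_inv_cancel, Units.val_one, map_one]
    rwa [hured, one_mul] at this
  have hune : (((u : (↥S.V)ˣ) : ↥S.V) : F) ≠ 0 := by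
    intro h0
    have : ((u : (↥S.V)ˣ) : ↥S.V) = 0 := Subtype.ext h0
    exact u.ne_zero this
  set bV : ↥S.V := ((u⁻¹ : (↥S.V)ˣ) : ↥S.V) * combV hx he h with hbVdef
  have hubV : ((u : (↥S.V)ˣ) : ↥S.V) * bV = combV hx he h := by
    rw [hbVdef, ← mul_assoc, ← Units.val_mul, mul_inv_cancel, Units.val_one, one_mul]
  have hubF : (((u : (↥S.V)ˣ) : ↥S.V) : F) * (bV : F) = ∑ i, algebraMap C F (h i : C) * e i := by
    rw [← Subring.coe_mul, hubV, coe_combV]
  have hbVF : (bV : F) = algebraMap C F (-a) * b := by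
    have h1 : (((u : (↥S.V)ˣ) : ↥S.V) : F) * (algebraMap C F (-a) * b) =
        (((u : (↥S.V)ˣ) : ↥S.V) : F) * (bV : F) := by
      rw [hubF, ← hab, huF', map_neg, map_inv₀]
      have : algebraMap C F a ≠ 0 := fun h0 => ha0 ((map_eq_zero _).1 h0)
      field_simp
      ring
    exact (mul_left_cancel₀ hune h1).symm
  have hbVred : S.red bV = ∑ i, Polynomial.aeval (S.red ⟨x, hx⟩)
      (Polynomial.C (S.resO (h i))) * S.red ⟨e i, he.memV i⟩ := by
    rw [hbVdef, map_mul, huinv, one_mul, red_combV]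
  have hbVint : IsIntegral ↥(Algebra.adjoin C {x}) (bV : F) := by
    rw [hbVF]
    have := isIntegral_aeval_mul hb (Polynomial.C (-a))
    rwa [Polynomial.aeval_C] at this
  -- the new family
  have hmemV : ∀ i, Function.update e i₀ (bV : F) i ∈ S.V := by
    intro i
    by_cases hi : i = i₀
    · subst hi
      rw [Function.update_self]
      exact bV.2
    · rw [Function.update_of_ne hi]
      exact he.memV i
  have hredupd : ∀ i, S.red ⟨Function.update e i₀ (bV : F) i, hmemV i⟩ =
      Function.update (fun j => S.red ⟨e j, he.memV j⟩) i₀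
        (∑ j, algebraMap k Ft (S.resO (h j)) * S.red ⟨e j, he.memV j⟩) i := by
    intro i
    by_cases hi : i = i₀
    · subst hi
      have hR : Function.update (fun j => S.red ⟨e j, he.memV j⟩) i
          (∑ j, algebraMap k Ft (S.resO (h j)) * S.red ⟨e j, he.memV j⟩) i =
          ∑ j, algebraMap k Ft (S.resO (h j)) * S.red ⟨e j, he.memV j⟩ :=
        Function.update_self _ _ _
      have : (⟨Function.update e i (bV : F) i, hmemV i⟩ : ↥S.V) = bV := by
        apply Subtype.ext
        simp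
      rw [hR, this, hbVred]
      refine Finset.sum_congr rfl fun j _ => ?_
      rw [Polynomial.aeval_C]
    · have hR : Function.update (fun j => S.red ⟨e j, he.memV j⟩) i₀
          (∑ j, algebraMap k Ft (S.resO (h j)) * S.red ⟨e j, he.memV j⟩) i =
          S.red ⟨e i, he.memV i⟩ :=
        Function.update_of_ne hi _ _
      rw [hR]
      congr 1
      apply Subtype.ext
      simp [Function.update_of_ne hi]
  have hH : (fun j => algebraMap k Ft (S.resO (h j))) i₀ = 1 := by
    simp [hi₀]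
  refine ⟨Function.update e i₀ (bV : F), ⟨hmemV, ?_, ?_, ?_⟩, ?_, (bV : F), ?_, ?_⟩
  · intro i
    by_cases hi : i = i₀
    · subst hi
      rw [Function.update_self]
      exact hbVint
    · rw [Function.update_of_ne hi]
      exact he.int i
  · rw [Fintype.linearIndependent_iff]
    intro l hl
    have h1 : ∑ i, ((l i : ↥k⟮S.red ⟨x, hx⟩⟯) : Ft) *
        (Function.update (fun j => S.red ⟨e j, he.memV j⟩) i₀
          (∑ j, algebraMap k Ft (S.resO (h j)) * S.red ⟨e j, he.memV j⟩)) i = 0 := by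
      rw [← hl]
      refine Finset.sum_congr rfl fun i _ => ?_
      rw [IntermediateField.smul_def, smul_eq_mul, hredupd]
    rw [gen_repl2] at h1
    have h2 : ∑ j, ((if j = i₀ then 0 else l j) +
        l i₀ * algebraMap k ↥k⟮S.red ⟨x, hx⟩⟯ (S.resO (h j))) • S.red ⟨e j, he.memV j⟩ = 0 := by
      rw [← h1]
      refine Finset.sum_congr rfl fun j _ => ?_
      rw [IntermediateField.smul_def, smul_eq_mul]
      congr 1
      by_cases hj : j = i₀
      · simp [hj]
      · simp [hj]
    have h3 := Fintype.linearIndependent_iff.1 he.lin _ h2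
    have h4 : l i₀ = 0 := by
      have := h3 i₀
      simpa [hi₀] using this
    intro i
    by_cases hi : i = i₀
    · rw [hi]
      exact h4
    · have := h3 i
      simpa [hi, h4] using this
  · intro y hy
    obtain ⟨c, hc⟩ := he.span y hy
    refine ⟨fun i => if i = i₀ then c i₀ else c i - c i₀ * Polynomial.C (S.resO (h i)), ?_⟩
    rw [hc, gen_repl1 _ (fun j => algebraMap k Ft (S.resO (h j))) _ i₀ hH]
    refine Finset.sum_congr rfl fun i _ => ?_
    rw [hredupd]
    congr 1
    by_cases hi : i = i₀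
    · simp [hi]
    · simp [hi]
  · intro b' hb'
    refine GSpan.of_forall (fun i => ?_) hb'
    by_cases hi : i = i₀
    · subst hi
      have h1 : e i = Polynomial.aeval x (1 - Polynomial.C a⁻¹ * Polynomial.X : C[X]) *
          Function.update e i (bV : F) i -
          ∑ j ∈ Finset.univ.erase i, algebraMap C F (h j : C) * e j := by
        rw [Function.update_self, ← huF, hubF, ← Finset.add_sum_erase _ _ (Finset.mem_univ i),
          hi₀]
        simp
      rw [h1]
      refine GSpan.sub ((GSpan.self i).aeval_mul _) ?_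
      refine Finset.sum_induction _ (GSpan C x _) (fun _ _ ha hb => ha.add hb) GSpan.zero ?_
      intro j hj
      have hji : j ≠ i := Finset.ne_of_mem_erase hj
      have : e j = Function.update e i (bV : F) j := by
        rw [Function.update_of_ne hji]
      rw [this]
      exact (GSpan.self j).const_mul _
    · have : e i = Function.update e i₀ (bV : F) i := by
        rw [Function.update_of_ne hi]
      rw [this]
      exact GSpan.self i
  · have := GSpan.self (C := C) (x := x) (e := Function.update e i₀ (bV : F)) i₀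
    rwa [Function.update_self] at this
  · intro hsp
    apply hnb
    have h1 := hsp.const_mul (-a⁻¹)
    rw [hbVF, ← mul_assoc, ← map_mul] at h1
    have h2 : -a⁻¹ * -a = 1 := by
      field_simp
    rwa [h2, map_one, one_mul] at h1

end Fermat.Agent.RED.H42

end
end
-- ==== END Fermat.Agent.RED.H42_Gen3

-- ==== BEGIN Fermat.Agent.RED.H51_Coords
section

/-!
# FF-B, piece P8a (helper51): coordinates with respect to a local basis

Relative situation: `v` a place of `F`, `w j` places of `F'` over `v`, `e j = e(w j | v)`, `y` a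
local basis.  For `z = ∑ g i • y i` with `g i ∈ F`:

* `coords_integral` : if `z` is integral at all `w j`, all `g i` are integral at `v`;
* `coords_divisible` : if moreover `w k (z) ≥ a` and `w j (z) ≥ e j` for `j ≠ k`, then the
  coordinates `g ⟨j, b⟩` with `j ≠ k` or `b < a` are divisible by the uniformizer of `v`.
-/

set_option autoImplicit false
set_option linter.style.haveILetI false

noncomputable section

open AlgebraicCurve

namespace Fermat.Agent.RED.H51

section Block

variable {K F' : Type*} [Field K] [Field F'] [Algebra K F']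
variable {ι : Type*} [Fintype ι] {w : ι → Place K F'} {e : ι → ℕ}

/-- The core computation, with the block `k` prescribed: if the block `k` contains a unit
coefficient and `a` is the first index of a unit coefficient in this block, the combination has
order `a` at `w k`. -/
theorem core_block {y : (Σ k : ι, Fin (e k)) → F'} (hy : LocalBasis w e y)
    (c : (Σ k : ι, Fin (e k)) → F')
    (hc : ∀ i, (c i ≠ 0 ∧ ∀ j, (w j).ord (c i) = 0) ∨ (∀ j, OrdGe (w j) (e j) (c i)))
    (k : ι) (hk : ∃ a : Fin (e k), c ⟨k, a⟩ ≠ 0 ∧ ∀ j, (w j).ord (c ⟨k, a⟩) = 0) :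
    ∃ a : Fin (e k), (c ⟨k, a⟩ ≠ 0 ∧ ∀ j, (w j).ord (c ⟨k, a⟩) = 0) ∧
      (∀ b : Fin (e k), b < a → ¬ (c ⟨k, b⟩ ≠ 0 ∧ ∀ j, (w j).ord (c ⟨k, b⟩) = 0)) ∧
      (∑ i', c i' * y i') ≠ 0 ∧ (w k).ord (∑ i', c i' * y i') = ((a : ℕ) : ℤ) := by
  classical
  obtain ⟨a₁, ha₁⟩ := hk
  let P : ℕ → Prop := fun a => ∃ h : a < e k, (c ⟨k, ⟨a, h⟩⟩ ≠ 0 ∧
    ∀ j, (w j).ord (c ⟨k, ⟨a, h⟩⟩) = 0)
  have hP : ∃ a, P a := ⟨a₁, a₁.2, ha₁⟩
  obtain ⟨ha₀lt, ha₀⟩ := Nat.find_spec hP
  set a₀ : ℕ := Nat.find hP with ha₀def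
  have hmin : ∀ b, b < a₀ → ¬ P b := fun b hb => Nat.find_min hP hb
  set i₀ : (Σ k : ι, Fin (e k)) := ⟨k, ⟨a₀, ha₀lt⟩⟩ with hi₀
  refine ⟨⟨a₀, ha₀lt⟩, ha₀, fun b hb hunit => hmin b hb ⟨b.2, hunit⟩, ?_⟩
  have hterm0 : c i₀ * y i₀ ≠ 0 := mul_ne_zero ha₀.1 (hy.ne_zero i₀)
  have hterm : (w k).ord (c i₀ * y i₀) = (a₀ : ℤ) := by
    rw [(w k).ord_mul ha₀.1 (hy.ne_zero i₀), ha₀.2 k, zero_add]
    exact hy.ord_self i₀
  have hc0 : ∀ i, OrdGe (w k) 0 (c i) := by
    intro i
    rcases hc i with h | h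
    · exact Or.inr (h.2 k).ge
    · exact (h k).mono (Int.natCast_nonneg _)
  have hrest : OrdGe (w k) ((a₀ : ℤ) + 1) (∑ i ∈ Finset.univ.erase i₀, c i * y i) := by
    refine ordGe_sum _ _ _ _ fun i hi => ?_
    have hne : i ≠ i₀ := Finset.ne_of_mem_erase hi
    obtain ⟨j, b⟩ := i
    by_cases hjk : j = k
    · subst hjk
      have hba : (b : ℕ) ≠ a₀ := by
        intro h
        apply hne
        rw [hi₀]
        congr 1
        exact Fin.ext h
      have hyb : OrdGe (w j) ((b : ℕ) : ℤ) (y ⟨j, b⟩) := Or.inr (hy.ord_self ⟨j, b⟩).ge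
      rcases lt_or_gt_of_ne hba with hlt | hgt
      · have hdiv : OrdGe (w j) (e j) (c ⟨j, b⟩) := by
          rcases hc ⟨j, b⟩ with h | h
          · exact absurd ⟨b.2, h⟩ (hmin b hlt)
          · exact h j
        have := hdiv.mul hyb
        exact this.mono (by have := Int.natCast_nonneg (b : ℕ); omega)
      · have := (hc0 ⟨j, b⟩).mul hyb
        exact this.mono (by omega)
    · have hyj : OrdGe (w k) (e k) (y ⟨j, b⟩) :=
        hy.ordGe_other ⟨j, b⟩ k (fun h => hjk h.symm)
      have := (hc0 ⟨j, b⟩).mul hyj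
      exact this.mono (by omega)
  have hsplit : ∑ i', c i' * y i' = c i₀ * y i₀ + ∑ i ∈ Finset.univ.erase i₀, c i * y i :=
    (Finset.add_sum_erase Finset.univ (fun i => c i * y i) (Finset.mem_univ i₀)).symm
  rw [hsplit]
  have key := ord_add_eq (w k) hterm0 (g := ∑ i ∈ Finset.univ.erase i₀, c i * y i)
    (by rw [hterm]; exact hrest)
  exact ⟨key.1, key.2.trans hterm⟩

end Block

section Rel

variable {K F F' : Type*} [Field K] [Field F] [Field F'] [Algebra K F] [Algebra K F']
  [Algebra F F'] [IsScalarTower K F F'] [Algebra.IsIntegral F F']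
variable {ι : Type*} [Fintype ι] {w : ι → Place K F'} {v : Place K F}

/-- Relative form of the block computation: `m` is a lower bound for the orders at `v` of the
coefficients, attained in the block `k`; then the order of the combination at `w k` is
`a + e k * m`, where `a` is the first index in the block `k` where `m` is attained. -/
theorem coords_block (hw : ∀ j, (w j).restrict F = v)
    {y : (Σ k : ι, Fin ((w k).ramificationIndex F)) → F'}
    (hy : LocalBasis w (fun j => (w j).ramificationIndex F) y)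
    (g : (Σ k : ι, Fin ((w k).ramificationIndex F)) → F) (m : ℤ)
    (hg : ∀ i, OrdGe v m (g i))
    (k : ι) (hk : ∃ a : Fin ((w k).ramificationIndex F), g ⟨k, a⟩ ≠ 0 ∧ v.ord (g ⟨k, a⟩) = m) :
    ∃ a : Fin ((w k).ramificationIndex F), (g ⟨k, a⟩ ≠ 0 ∧ v.ord (g ⟨k, a⟩) = m) ∧
      (∀ b : Fin ((w k).ramificationIndex F), b < a → OrdGe v (m + 1) (g ⟨k, b⟩)) ∧
      (∑ i', g i' • y i') ≠ 0 ∧
      (w k).ord (∑ i', g i' • y i') = ((a : ℕ) : ℤ) + ((w k).ramificationIndex F : ℤ) * m := by
  obtain ⟨t, ht0, ht⟩ := exists_uniformizer v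
  have hepos : ∀ j, 0 < (w j).ramificationIndex F := fun j =>
    (w j).ramificationIndex_pos (F := F)
  have hordF : ∀ (j : ι) (c : F), (w j).ord (algebraMap F F' c)
      = ((w j).ramificationIndex F : ℤ) * v.ord c := fun j c => by
    rw [(w j).ord_restrict c, hw j]
  set τ : F := t ^ (-m) with hτ
  have hτ0 : τ ≠ 0 := zpow_ne_zero _ ht0
  have hτord : v.ord τ = -m := by rw [hτ, v.ord_zpow, ht, mul_one]
  -- the normalized coefficients
  set c : (Σ k : ι, Fin ((w k).ramificationIndex F)) → F' :=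
    fun i => algebraMap F F' (τ * g i) with hcdef
  have hcord : ∀ i, g i ≠ 0 → ∀ j, (w j).ord (c i)
      = ((w j).ramificationIndex F : ℤ) * (v.ord (g i) - m) := by
    intro i hi j
    simp only [hcdef]
    rw [hordF j, v.ord_mul hτ0 hi, hτord]
    ring
  have hunit_iff : ∀ i, (c i ≠ 0 ∧ ∀ j, (w j).ord (c i) = 0) ↔ (g i ≠ 0 ∧ v.ord (g i) = m) := by
    intro i
    constructor
    · rintro ⟨h0, h⟩
      have hgi : g i ≠ 0 := by
        rintro h'
        apply h0
        simp only [hcdef, h', mul_zero, map_zero]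
      refine ⟨hgi, ?_⟩
      have := h k
      rw [hcord i hgi k] at this
      have hk' := hepos k
      have h2 : v.ord (g i) - m = 0 := by
        rcases mul_eq_zero.mp this with h3 | h3
        · omega
        · exact h3
      omega
    · rintro ⟨hgi, hm⟩
      refine ⟨(map_ne_zero (algebraMap F F')).mpr (mul_ne_zero hτ0 hgi), fun j => ?_⟩
      rw [hcord i hgi j, hm, sub_self, mul_zero]
  have hc : ∀ i, (c i ≠ 0 ∧ ∀ j, (w j).ord (c i) = 0) ∨
      (∀ j, OrdGe (w j) ((w j).ramificationIndex F) (c i)) := by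
    intro i
    rcases eq_or_ne (g i) 0 with h0 | h0
    · right
      intro j
      simp only [hcdef, h0, mul_zero, map_zero]
      exact ordGe_zero _ _
    · have hm' : m ≤ v.ord (g i) := (hg i).le h0
      rcases eq_or_lt_of_le hm' with heq | hlt
      · exact Or.inl ((hunit_iff i).mpr ⟨h0, heq.symm⟩)
      · right
        intro j
        refine Or.inr ?_
        rw [hcord i h0 j]
        have h1 : (1 : ℤ) ≤ v.ord (g i) - m := by omega
        have := mul_le_mul_of_nonneg_left h1 (Int.natCast_nonneg ((w j).ramificationIndex F))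
        linarith
  obtain ⟨a, ha⟩ := hk
  obtain ⟨a₀, hunit, hmin, hne, hord⟩ := core_block hy c hc k ⟨a, (hunit_iff _).mpr ha⟩
  have hsum : ∑ i', c i' * y i' = algebraMap F F' τ * ∑ i', g i' • y i' := by
    rw [Finset.mul_sum]
    refine Finset.sum_congr rfl fun i' _ => ?_
    simp only [hcdef]
    rw [Algebra.smul_def, map_mul, mul_assoc]
  rw [hsum] at hne hord
  have hz0 : (∑ i', g i' • y i') ≠ 0 := right_ne_zero_of_mul hne
  have hτ0' : algebraMap F F' τ ≠ 0 := (map_ne_zero (algebraMap F F')).mpr hτ0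
  refine ⟨a₀, (hunit_iff _).mp hunit, fun b hb => ?_, hz0, ?_⟩
  · rcases eq_or_ne (g ⟨k, b⟩) 0 with h0 | h0
    · exact Or.inl h0
    · refine Or.inr ?_
      have h1 : m ≤ v.ord (g ⟨k, b⟩) := (hg _).le h0
      have h2 : v.ord (g ⟨k, b⟩) ≠ m := fun h => hmin b hb ((hunit_iff _).mpr ⟨h0, h⟩)
      omega
  · rw [(w k).ord_mul hτ0' hz0, hordF k, hτord] at hord
    linarith

/-- Coordinates of an element which is integral at all `w j` are integral at `v`. -/
theorem coords_integral (hw : ∀ j, (w j).restrict F = v)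
    {y : (Σ k : ι, Fin ((w k).ramificationIndex F)) → F'}
    (hy : LocalBasis w (fun j => (w j).ramificationIndex F) y)
    (g : (Σ k : ι, Fin ((w k).ramificationIndex F)) → F)
    (hz : ∀ j, OrdGe (w j) 0 (∑ i', g i' • y i')) (i : Σ k : ι, Fin ((w k).ramificationIndex F)) :
    OrdGe v 0 (g i) := by
  classical
  by_contra hcon
  have hi0 : g i ≠ 0 := fun h => hcon (Or.inl h)
  have hineg : v.ord (g i) < 0 := by
    by_contra h
    exact hcon (Or.inr (not_lt.mp h))
  -- a coefficient of minimal order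
  have hne : (Finset.univ.filter fun i => g i ≠ 0).Nonempty :=
    ⟨i, Finset.mem_filter.mpr ⟨Finset.mem_univ _, hi0⟩⟩
  obtain ⟨i₀, hi₀mem, hi₀⟩ := Finset.exists_min_image _ (fun i => v.ord (g i)) hne
  have hi₀ne : g i₀ ≠ 0 := (Finset.mem_filter.mp hi₀mem).2
  set m := v.ord (g i₀) with hm
  have hmneg : m < 0 := lt_of_le_of_lt
    (hi₀ i (Finset.mem_filter.mpr ⟨Finset.mem_univ _, hi0⟩)) hineg
  have hg : ∀ i', OrdGe v m (g i') := by
    intro i'
    rcases eq_or_ne (g i') 0 with h0 | h0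
    · exact Or.inl h0
    · exact Or.inr (hi₀ i' (Finset.mem_filter.mpr ⟨Finset.mem_univ _, h0⟩))
  obtain ⟨k, a⟩ := i₀
  obtain ⟨a₀, -, -, hz0, hord⟩ := coords_block hw hy g m hg k ⟨a, hi₀ne, rfl⟩
  have h1 := (hz k).le hz0
  rw [hord] at h1
  have h2 : ((a₀ : ℕ) : ℤ) < ((w k).ramificationIndex F : ℤ) := by exact_mod_cast a₀.2
  have h3 : ((w k).ramificationIndex F : ℤ) * m ≤ ((w k).ramificationIndex F : ℤ) * (-1) :=
    mul_le_mul_of_nonneg_left (by omega) (Int.natCast_nonneg _)
  linarith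

/-- Coordinates of an element of order `≥ a` at `w k` and `≥ e j` at the `w j`, `j ≠ k`: those
outside of the block `k`, and those of index `< a` in the block `k`, are divisible. -/
theorem coords_divisible (hw : ∀ j, (w j).restrict F = v)
    {y : (Σ k : ι, Fin ((w k).ramificationIndex F)) → F'}
    (hy : LocalBasis w (fun j => (w j).ramificationIndex F) y)
    (g : (Σ k : ι, Fin ((w k).ramificationIndex F)) → F) (k : ι) (a : ℕ)
    (hzk : OrdGe (w k) a (∑ i', g i' • y i'))
    (hz : ∀ j, j ≠ k → OrdGe (w j) ((w j).ramificationIndex F) (∑ i', g i' • y i'))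
    (i : Σ k : ι, Fin ((w k).ramificationIndex F)) (hi : i.1 ≠ k ∨ (i.2 : ℕ) < a) :
    OrdGe v 1 (g i) := by
  classical
  have hz0 : ∀ j, OrdGe (w j) 0 (∑ i', g i' • y i') := by
    intro j
    by_cases hjk : j = k
    · subst hjk
      exact hzk.mono (Int.natCast_nonneg _)
    · exact (hz j hjk).mono (Int.natCast_nonneg _)
  have hint : ∀ i', OrdGe v 0 (g i') := coords_integral hw hy g hz0
  by_contra hcon
  have hi0 : g i ≠ 0 := fun h => hcon (Or.inl h)
  have hord0 : v.ord (g i) = 0 := by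
    have h1 := (hint i).le hi0
    have h2 : ¬ (1 ≤ v.ord (g i)) := fun h => hcon (Or.inr h)
    omega
  obtain ⟨j, b⟩ := i
  obtain ⟨a₀, -, hmin, hne, hord⟩ := coords_block hw hy g 0 hint j ⟨b, hi0, hord0⟩
  rw [mul_zero, add_zero] at hord
  have hab : a₀ ≤ b := by
    by_contra hlt
    have h1 := hmin b (not_le.mp hlt)
    rw [zero_add] at h1
    have := h1.le hi0
    omega
  rcases hi with hjk | hba
  · have h1 := (hz j hjk).le hne
    rw [hord] at h1
    have h2 : ((a₀ : ℕ) : ℤ) < ((w j).ramificationIndex F : ℤ) := by exact_mod_cast a₀.2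
    omega
  · by_cases hjk : j = k
    · subst hjk
      have h1 := hzk.le hne
      rw [hord] at h1
      have h2 : ((a₀ : ℕ) : ℤ) ≤ ((b : ℕ) : ℤ) := by exact_mod_cast hab
      have h3 : ((b : ℕ) : ℤ) < (a : ℤ) := by exact_mod_cast hba
      omega
    · have h1 := (hz j hjk).le hne
      rw [hord] at h1
      have h2 : ((a₀ : ℕ) : ℤ) < ((w j).ramificationIndex F : ℤ) := by exact_mod_cast a₀.2
      omega

end Rel

end Fermat.Agent.RED.H51

end
end
-- ==== END Fermat.Agent.RED.H51_Coords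

-- ==== BEGIN Fermat.Agent.RED.H73_GADefs
section

/-!
# G-RED package GA (helper73): the target statements

* `Stmt_GA`     : the residue field of the Gauss valuation on `F_N · ℚ̄` is
                  `k(j~(q^d) : d ∣ N) = modularFunctionFieldFullC k N`  (for `ℓ ∤ N`).
* `Stmt_GA_deg` : `[F_{N,k} : k(j~)] = [F_N ℚ̄ : ℚ̄(j)]`, and `F_{N,k} / k(j~)` is separable.
This file contains no `sorry`.
-/

set_option autoImplicit false

open ModularCurve Fermat.Agent.S28 Fermat.Agent.S28.H73

noncomputable section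

namespace Fermat.Agent.RED.H73

theorem redField_congr {C : Type} [Field C] (O : ValuationSubring C)
    {F F' : IntermediateField C (LaurentSeries C)} (e : F = F') (h : HasScale O F)
    (h' : HasScale O F') : redField O F h = redField O F' h' := by
  subst e
  rfl

/-- **GA, main target**: the residue field of the Gauss valuation on `F_N · ℚ̄` is the
function field `k(j~(q^d) : d ∣ N)` of the prelude. -/
def Stmt_GA : Prop :=
  ∀ (N ℓ : ℕ) [NeZero N], ℓ.Prime → ¬ ℓ ∣ N →
    ∀ A : ValuationSubring (AlgebraicClosure ℚ), A.LiesOverPrime ℓ →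
      redField A (laurentBaseChange (AlgebraicClosure ℚ) (modularFunctionFieldFull N))
        (hasScale_laurentBaseChange A N) = modularFunctionFieldFullC (kV A) N

/-- **GA, degrees**: `[F_{N,k} : k(j~)] = [F_N ℚ̄ : ℚ̄(j)]` and `F_{N,k} / k(j~)` is separable. -/
def Stmt_GA_deg : Prop :=
  ∀ (N ℓ : ℕ) [NeZero N], ℓ.Prime → ¬ ℓ ∣ N →
    ∀ A : ValuationSubring (AlgebraicClosure ℚ), A.LiesOverPrime ℓ →
      (IntermediateField.adjoin (kV A) ({jqModC (kV A)} : Set (LaurentSeries (kV A)))).relfinrank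
          (modularFunctionFieldFullC (kV A) N) =
        (IntermediateField.adjoin (AlgebraicClosure ℚ)
          ({jqModC (AlgebraicClosure ℚ)} : Set (LaurentSeries (AlgebraicClosure ℚ)))).relfinrank
          (modularFunctionFieldFullC (AlgebraicClosure ℚ) N) ∧
      ∀ x ∈ modularFunctionFieldFullC (kV A) N,
        IsSeparable ↥(IntermediateField.adjoin (kV A)
          ({jqModC (kV A)} : Set (LaurentSeries (kV A)))) x

end Fermat.Agent.RED.H73

end
end
-- ==== END Fermat.Agent.RED.H73_GADefs
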