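-- GENERATED (merged mirror, NOTES/tools/trim/merge3_helper67.py): 8 modules of the originals, bodies verbatim.
import Fermat.Prelude.Def_ModularCurve_HeckeOperator
import Mathlib
import Fermat.Prelude.Def_CuspForm_Newforms
import Fermat.Prelude.Thm_CuspForm_intLattice_fg
import Fermat.Prelude.Def_ModularCurve_ArithmeticGalois
import Fermat.Agent.Zm.S35_L08_001
import Fermat.Agent.Zm.S35_L08_004
import Fermat.Agent.Zm.S35_L01_001
import Fermat.Agent.Zm.S35_L02_005
import Fermat.Agent.Zm.S35_L07_001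
import Fermat.Agent.Zm.S35_L05_002
import Fermat.Agent.Zm.S35_L03_002
import Fermat.Agent.Zm.S35_L07_002
import Fermat.Agent.Zm.S35_L08_002
import Fermat.Agent.Zm.S35_L03_001

-- ==== BEGIN Fermat.Agent.BAD.H17_Pivot
section

/-!
# Item 65, package ABS, leaf `Stmt_Pivot` (helper17): pivots at places with two valuations

`stmt_Pivot : Stmt_Pivot`: the reduction `S.Rsub ϑ D` of the unit ball of `L(D)` for the norms
`|h|₁`, `|ϑ h|₂` has dimension at least `l(D)`.

Proof (route C, "pivots at places"): scale `u ∈ L(D)` to `max (|u|₁, |ϑ u|₂) = 1`; on the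
component where the scaled element is a unit choose a general good point `Q` and a place `P`
over `Q`; then `u ∉ L(D - P)`, and the reduction of `u` is not in the reduction of `L(D - P)`
(whose elements vanish at `Q`).
-/

set_option autoImplicit false
set_option linter.style.haveILetI false
set_option maxHeartbeats 1000000

noncomputable section

open AlgebraicCurve

attribute [local instance] Classical.propDecidable

namespace Fermat.Agent.BAD.H17

open Fermat.Agent.RED.H17 Fermat.Agent.RED Fermat.Agent.BAD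

local notation "L" => riemannRochSpace

section Step

variable {K F k F' : Type*} [Field K] [Field F] [Algebra K F] [Field k] [Field F']
  [Algebra k F']

/-- **The pivot step** on one component. -/
theorem pivot_step (c : PRed K F k F') (H : FFHyp K F) (H' : FFHyp k F') [Infinite k]
    (B : Finset (Place k F')) (hB : ∀ Q, Q ∉ B → Q ∈ c.good) {θ : F} (hθ : θ ≠ 0)
    (D : Divisor K F) {u : F} (hu : u ∈ L D) (hGU : c.IsGU (θ * u)) :
    ∃ P : Place K F, P.ord u = 0 ∧ D P = 0 ∧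
      ∀ h : F, h ∈ L (D - Finsupp.single P 1) → θ * h ∈ c.V → c.rd (θ * h) ≠ c.rd (θ * u) := by
  have hP := H.principal
  have hu0 : u ≠ 0 := fun h0 => hGU.ne_zero (by rw [h0, mul_zero])
  obtain ⟨Q, hQ⟩ := H'.exists_notMem
    (B ∪ (dv H'.principal (c.rd (θ * u))).support ∪ (D.support.image c.r).eraseNone ∪
      ((dv hP θ).support.image c.r).eraseNone)
  simp only [Finset.mem_union, not_or] at hQ
  obtain ⟨⟨⟨hQB, hQ2⟩, hQ3⟩, hQ4⟩ := hQ
  have hQg : Q ∈ c.good := hB Q hQB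
  have hQ2' : Q.ord (c.rd (θ * u)) = 0 := by
    rw [Finsupp.notMem_support_iff, dv_apply] at hQ2
    exact hQ2
  have hQ3' : ∀ P', c.r P' = some Q → D P' = 0 := by
    intro P' hP'
    by_contra hne
    apply hQ3
    rw [Finset.mem_eraseNone, Finset.mem_image]
    exact ⟨P', Finsupp.mem_support_iff.mpr hne, hP'⟩
  have hQ4' : ∀ P', c.r P' = some Q → P'.ord θ = 0 := by
    intro P' hP'
    by_contra hne
    apply hQ4
    rw [Finset.mem_eraseNone, Finset.mem_image]
    exact ⟨P', by rw [Finsupp.mem_support_iff, dv_apply]; exact hne, hP'⟩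
  obtain ⟨P, hPQ⟩ := c.r_surjective hP Q hQg
  have hreg : ∀ P', c.r P' = some Q → 0 ≤ P'.ord (θ * u) := by
    intro P' hP'
    have := ord_ge_of_mem_L hu hu0 P'
    rw [P'.ord_mul hθ hu0, hQ4' P' hP']
    rw [hQ3' P' hP'] at this
    omega
  have hPu : P.ord (θ * u) = 0 := c.ord_eq_zero_of_ord_rd_eq_zero hP hGU Q hQg hreg hQ2' hPQ
  rw [P.ord_mul hθ hu0, hQ4' P hPQ, zero_add] at hPu
  refine ⟨P, hPu, hQ3' P hPQ, fun h hh hθh heq => ?_⟩
  have hGUh : c.IsGU (θ * h) := ⟨hθh, by rw [heq]; exact hGU.2⟩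
  have hh0 : h ≠ 0 := fun h0 => hGUh.ne_zero (by rw [h0, mul_zero])
  have hregh : ∀ P', c.r P' = some Q → 0 ≤ P'.ord (θ * h) := by
    intro P' hP'
    have := ord_ge_of_mem_L hh hh0 P'
    rw [Finsupp.sub_apply, hQ3' P' hP', Finsupp.single_apply] at this
    rw [P'.ord_mul hθ hh0, hQ4' P' hP']
    split_ifs at this <;> omega
  have h1 := c.ord_le_ord_rd hP hGUh Q hQg hregh hPQ
  have h2 := ord_ge_of_mem_L hh hh0 P
  rw [Finsupp.sub_apply, hQ3' P hPQ, Finsupp.single_eq_same] at h2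
  rw [heq, hQ2', P.ord_mul hθ hh0, hQ4' P hPQ] at h1
  omega

end Step

section Main

variable {K F k F₁ F₂ : Type*} [Field K] [Field F] [Algebra K F] [Field k] [Field F₁]
  [Algebra k F₁] [Field F₂] [Algebra k F₂] (S : SSD K F k F₁ F₂)

theorem Rsub_mono (ϑ : F) {D D' : Divisor K F} (h : ∀ v, D v ≤ D' v) :
    S.Rsub ϑ D ≤ S.Rsub ϑ D' := by
  rintro ψ ⟨u, huD, h1, h2, e1, e2⟩
  exact ⟨u, L_mono' h huD, h1, h2, e1, e2⟩

/-- Scaling for the pair of norms `|u|₁`, `|ϑ u|₂`. -/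
theorem exists_scale_pair {ϑ : F} (hϑ : ϑ ≠ 0) {u₀ : F} (hu₀ : u₀ ≠ 0) :
    ∃ c : K, c ≠ 0 ∧ algebraMap K F c * u₀ ∈ S.c₁.V ∧ ϑ * (algebraMap K F c * u₀) ∈ S.c₂.V ∧
      (S.c₁.IsGU (algebraMap K F c * u₀) ∨ S.c₂.IsGU (ϑ * (algebraMap K F c * u₀))) := by
  obtain ⟨a₁, ha₁, hG₁⟩ := S.c₁.exists_isGU_scale hu₀
  obtain ⟨a₂, ha₂, hG₂⟩ := S.c₂.exists_isGU_scale (mul_ne_zero hϑ hu₀)
  have hF₁ : algebraMap K F a₁ ≠ 0 := (map_ne_zero_iff _ (algebraMap K F).injective).mpr ha₁
  have hF₂ : algebraMap K F a₂ ≠ 0 := (map_ne_zero_iff _ (algebraMap K F).injective).mpr ha₂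
  rcases S.c₁.const_mem_or_inv_mem (a₁ / a₂) with he | he
  · -- `|a₁| ≤ |a₂|`: scale by `a₁`
    refine ⟨a₁, ha₁, hG₁.1, ?_, Or.inl hG₁⟩
    have e : ϑ * (algebraMap K F a₁ * u₀)
        = algebraMap K F (a₁ / a₂) * (algebraMap K F a₂ * (ϑ * u₀)) := by
      rw [map_div₀]
      field_simp
    rw [e]
    exact S.c₂.V.mul_mem _ _ ((S.const_mem _).mp he) hG₂.1
  · -- `|a₂| ≤ |a₁|`: scale by `a₂`
    have e2 : ϑ * (algebraMap K F a₂ * u₀) = algebraMap K F a₂ * (ϑ * u₀) := by ring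
    refine ⟨a₂, ha₂, ?_, by rw [e2]; exact hG₂.1, Or.inr (by rw [e2]; exact hG₂)⟩
    have e : algebraMap K F a₂ * u₀ = algebraMap K F (a₁ / a₂)⁻¹ * (algebraMap K F a₁ * u₀) := by
      rw [map_inv₀, map_div₀]
      field_simp
    rw [e]
    exact S.c₁.V.mul_mem _ _ he hG₁.1

theorem good₁_of_notMem {Q : Place k F₁} (hQ : Q ∉ S.br₁) : Q ∈ S.c₁.good := by
  rw [S.good₁]
  intro s hs hsQ
  apply hQ
  rw [SSD.br₁, Finset.mem_image]
  exact ⟨s, hs, hsQ⟩

theorem good₂_of_notMem {Q : Place k F₂} (hQ : Q ∉ S.br₂) : Q ∈ S.c₂.good := by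
  rw [S.good₂]
  intro s hs hsQ
  apply hQ
  rw [SSD.br₂, Finset.mem_image]
  exact ⟨s, hs, hsQ⟩

/-- **Twisted pivot.** -/
theorem pivot (H : FFHyp K F) (H₁ : FFHyp k F₁) (H₂ : FFHyp k F₂) [Infinite k] {ϑ : F}
    (hϑ : ϑ ≠ 0) :
    ∀ (n : ℕ) (D : Divisor K F), Module.Finite k (S.Rsub ϑ D) → Module.finrank K (L D) = n →
      n ≤ Module.finrank k (S.Rsub ϑ D) := by
  intro n
  induction n with
  | zero => intro D _ _; exact Nat.zero_le _
  | succ n ih =>
    intro D hfin hD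
    haveI := H.finite D
    have hne : L D ≠ ⊥ := by
      intro hbot
      rw [hbot, finrank_bot] at hD
      omega
    obtain ⟨u₀, hu₀, hu₀0⟩ := (Submodule.ne_bot_iff _).mp hne
    obtain ⟨c, hc, hu1, hu2, hcase⟩ := exists_scale_pair S hϑ hu₀0
    set u := algebraMap K F c * u₀ with hu
    have huD : u ∈ L D := by
      rw [hu, ← Algebra.smul_def]
      exact (L D).smul_mem c hu₀
    have hmemD : ((S.c₁.rd u, S.c₂.rd (ϑ * u)) : F₁ × F₂) ∈ S.Rsub ϑ D :=
      ⟨u, huD, hu1, hu2, rfl, rfl⟩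
    -- the pivot
    have hpiv : ∃ P : Place K F, P.ord u = 0 ∧ D P = 0 ∧
        ((S.c₁.rd u, S.c₂.rd (ϑ * u)) : F₁ × F₂) ∉ S.Rsub ϑ (D - Finsupp.single P 1) := by
      rcases hcase with hG | hG
      · have hG' : S.c₁.IsGU (1 * u) := by rw [one_mul]; exact hG
        obtain ⟨P, h1, h2, h3⟩ := pivot_step S.c₁ H H₁ S.br₁
          (fun Q hQ => good₁_of_notMem S hQ) one_ne_zero D huD hG'
        refine ⟨P, h1, h2, ?_⟩
        rintro ⟨h, hhD, hh1, -, e1, -⟩
        refine h3 h hhD (by rw [one_mul]; exact hh1) ?_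
        rw [one_mul, one_mul]
        exact e1
      · obtain ⟨P, h1, h2, h3⟩ := pivot_step S.c₂ H H₂ S.br₂
          (fun Q hQ => good₂_of_notMem S hQ) hϑ D huD hG
        refine ⟨P, h1, h2, ?_⟩
        rintro ⟨h, hhD, -, hh2, -, e2⟩
        exact h3 h hhD hh2 e2
    obtain ⟨P, hPu, hDP, hnot⟩ := hpiv
    set D' : Divisor K F := D - Finsupp.single P 1 with hD'
    have hD'D : D' + Finsupp.single P 1 = D := sub_add_cancel _ _
    have hD'le : ∀ v, D' v ≤ D v := by
      intro v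
      rw [hD', Finsupp.sub_apply, Finsupp.single_apply]
      split_ifs <;> omega
    have hle : L D' ≤ L D := L_mono' hD'le
    have hu0 : u ≠ 0 := by
      rw [hu]
      exact mul_ne_zero ((map_ne_zero_iff _ (algebraMap K F).injective).mpr hc) hu₀0
    have hnotL : u ∉ L D' := by
      intro hmem
      have := ord_ge_of_mem_L hmem hu0 P
      rw [hD', Finsupp.sub_apply, hDP, Finsupp.single_eq_same, hPu] at this
      omega
    have hlt : L D' < L D := lt_of_le_of_ne hle (fun heq => hnotL (heq ▸ huD))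
    have h1 := Submodule.finrank_lt_finrank_of_lt hlt
    have h2 := H.finrank_add_single_le D' P
    rw [hD'D] at h2
    have hn : Module.finrank K (L D') = n := by omega
    have hRle : S.Rsub ϑ D' ≤ S.Rsub ϑ D := Rsub_mono S ϑ hD'le
    haveI : Module.Finite k (S.Rsub ϑ D') := Submodule.finiteDimensional_of_le hRle
    have h3 := ih D' inferInstance hn
    have hRlt : S.Rsub ϑ D' < S.Rsub ϑ D :=
      lt_of_le_of_ne hRle (fun heq => hnot (heq ▸ hmemD))
    have h4 := Submodule.finrank_lt_finrank_of_lt hRlt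
    omega

end Main

/-- **Leaf `Stmt_Pivot`.** -/
theorem stmt_Pivot : Stmt_Pivot := by
  intro K F k F₁ F₂ _ _ _ _ _ _ _ _ _ S H H₁ H₂ ϑ hϑ D hfin
  exact pivot S H H₁ H₂ hϑ _ D hfin rfl

end Fermat.Agent.BAD.H17

end
end
-- ==== END Fermat.Agent.BAD.H17_Pivot

-- ==== BEGIN Fermat.Agent.GTor.Clo.Galois
section

/-!
# S24 construction, layer 4 (WP CLO-Galois): `Frac (Atil N)` is Galois over `Q̄(j)`

To keep instance search fast we work with the type synonym `AT N` of `↥(Atil N)`.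
-/

set_option autoImplicit false

noncomputable section

namespace Fermat.Agent.GTor.Clo

open Fermat.Agent.S24

open ModularCurve UpperHalfPlane
open scoped MatrixGroups Manifold

/-- `↥(Atil N)` as a type of its own (instance search does not unfold it). -/
def AT (N : ℕ) : Type := ↥(_root_.Fermat.Agent.GTor.Clo.Atil N)

instance commRingAT (N : ℕ) : CommRing (_root_.Fermat.Agent.GTor.Clo.AT N) := inferInstanceAs (CommRing ↥(_root_.Fermat.Agent.GTor.Clo.Atil N))
instance isDomainAT (N : ℕ) : IsDomain (_root_.Fermat.Agent.GTor.Clo.AT N) := _root_.Fermat.Agent.GTor.Clo.isDomain_Atil N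
instance algebraKbarAT (N : ℕ) : Algebra _root_.Fermat.Agent.GTor.Clo.Kbar (_root_.Fermat.Agent.GTor.Clo.AT N) := inferInstanceAs (Algebra _root_.Fermat.Agent.GTor.Clo.Kbar ↥(_root_.Fermat.Agent.GTor.Clo.Atil N))
instance mulSemiringActionAT (N : ℕ) : MulSemiringAction SL(2, ℤ) (_root_.Fermat.Agent.GTor.Clo.AT N) :=
  _root_.Fermat.Agent.GTor.Clo.mulSemiringActionAtil N
instance smulCommClassAT (N : ℕ) : SMulCommClass SL(2, ℤ) _root_.Fermat.Agent.GTor.Clo.Kbar (_root_.Fermat.Agent.GTor.Clo.AT N) :=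
  _root_.Fermat.Agent.GTor.Clo.smulCommClass_SL_Kbar_Atil N

/-- The identification `Atil N ≃ AT N`. -/
def toAT (N : ℕ) : ↥(_root_.Fermat.Agent.GTor.Clo.Atil N) ≃ₐ[_root_.Fermat.Agent.GTor.Clo.Kbar] _root_.Fermat.Agent.GTor.Clo.AT N := AlgEquiv.refl

/-- `j` in `AT N`. -/
def jT (N : ℕ) : _root_.Fermat.Agent.GTor.Clo.AT N := _root_.Fermat.Agent.GTor.Clo.toAT N (_root_.Fermat.Agent.GTor.Clo.jA N)

/-- The action of `SL(2, ℤ)` on `AT N` as a homomorphism to ring automorphisms. -/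
def actHom (N : ℕ) : SL(2, ℤ) →* RingAut (_root_.Fermat.Agent.GTor.Clo.AT N) := MulSemiringAction.toRingAut SL(2, ℤ) (_root_.Fermat.Agent.GTor.Clo.AT N)

theorem actHom_apply (N : ℕ) (γ : SL(2, ℤ)) (f : _root_.Fermat.Agent.GTor.Clo.AT N) : _root_.Fermat.Agent.GTor.Clo.actHom N γ f = γ • f := rfl

/-- The finite group through which `SL(2, ℤ)` acts on `AT N`. -/
def G0 (N : ℕ) : Type := ↥(_root_.Fermat.Agent.GTor.Clo.actHom N).range

instance groupG0 (N : ℕ) : Group (_root_.Fermat.Agent.GTor.Clo.G0 N) := inferInstanceAs (Group ↥(_root_.Fermat.Agent.GTor.Clo.actHom N).range)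

instance mulSemiringActionG0 (N : ℕ) : MulSemiringAction (_root_.Fermat.Agent.GTor.Clo.G0 N) (_root_.Fermat.Agent.GTor.Clo.AT N) :=
  inferInstanceAs (MulSemiringAction ↥(_root_.Fermat.Agent.GTor.Clo.actHom N).range (_root_.Fermat.Agent.GTor.Clo.AT N))

/-- `SL(2, ℤ) → G0 N`. -/
def toG0 (N : ℕ) : SL(2, ℤ) →* _root_.Fermat.Agent.GTor.Clo.G0 N := (_root_.Fermat.Agent.GTor.Clo.actHom N).rangeRestrict

theorem toG0_surjective (N : ℕ) : Function.Surjective (_root_.Fermat.Agent.GTor.Clo.toG0 N) :=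
  (_root_.Fermat.Agent.GTor.Clo.actHom N).rangeRestrict_surjective

theorem toG0_smul (N : ℕ) (γ : SL(2, ℤ)) (f : _root_.Fermat.Agent.GTor.Clo.AT N) : _root_.Fermat.Agent.GTor.Clo.toG0 N γ • f = γ • f := rfl

theorem Gamma_le_ker_actHom (N : ℕ) [NeZero N] :
    CongruenceSubgroup.Gamma N ≤ (_root_.Fermat.Agent.GTor.Clo.actHom N).ker := by
  intro γ hγ
  rw [MonoidHom.mem_ker]
  ext f
  exact _root_.Fermat.Agent.GTor.Clo.smul_eq_of_mem_Gamma N γ hγ f

instance finite_G0 (N : ℕ) [NeZero N] : Finite (_root_.Fermat.Agent.GTor.Clo.G0 N) := by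
  have : (_root_.Fermat.Agent.GTor.Clo.actHom N).ker.FiniteIndex := Subgroup.finiteIndex_of_le (_root_.Fermat.Agent.GTor.Clo.Gamma_le_ker_actHom N)
  exact Finite.of_equiv _ (QuotientGroup.quotientKerEquivRange (_root_.Fermat.Agent.GTor.Clo.actHom N)).toEquiv

instance faithfulSMul_G0 (N : ℕ) : FaithfulSMul (_root_.Fermat.Agent.GTor.Clo.G0 N) (_root_.Fermat.Agent.GTor.Clo.AT N) :=
  ⟨fun h => Subtype.ext (RingEquiv.ext h)⟩

/-- `Q̄[X] → AT N`, `X ↦ j`. -/
instance algPolyAT (N : ℕ) : Algebra (Polynomial _root_.Fermat.Agent.GTor.Clo.Kbar) (_root_.Fermat.Agent.GTor.Clo.AT N) :=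
  (Polynomial.aeval (_root_.Fermat.Agent.GTor.Clo.jT N)).toRingHom.toAlgebra

theorem algebraMap_poly_AT (N : ℕ) (p : Polynomial _root_.Fermat.Agent.GTor.Clo.Kbar) :
    algebraMap (Polynomial _root_.Fermat.Agent.GTor.Clo.Kbar) (_root_.Fermat.Agent.GTor.Clo.AT N) p = Polynomial.aeval (_root_.Fermat.Agent.GTor.Clo.jT N) p := rfl

theorem jT_transcendental (N : ℕ) : Transcendental _root_.Fermat.Agent.GTor.Clo.Kbar (_root_.Fermat.Agent.GTor.Clo.jT N) := _root_.Fermat.Agent.GTor.Clo.jA_transcendental N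

instance faithfulSMul_poly_AT (N : ℕ) : FaithfulSMul (Polynomial _root_.Fermat.Agent.GTor.Clo.Kbar) (_root_.Fermat.Agent.GTor.Clo.AT N) := by
  rw [faithfulSMul_iff_algebraMap_injective]
  exact transcendental_iff_injective.mp (_root_.Fermat.Agent.GTor.Clo.jT_transcendental N)

instance isScalarTower_Kbar_poly_AT (N : ℕ) :
    IsScalarTower _root_.Fermat.Agent.GTor.Clo.Kbar (Polynomial _root_.Fermat.Agent.GTor.Clo.Kbar) (_root_.Fermat.Agent.GTor.Clo.AT N) :=
  IsScalarTower.of_algebraMap_eq fun c => by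
    rw [_root_.Fermat.Agent.GTor.Clo.algebraMap_poly_AT, Polynomial.algebraMap_apply, Polynomial.aeval_C]
    rfl

theorem smul_jT (N : ℕ) (γ : SL(2, ℤ)) : γ • _root_.Fermat.Agent.GTor.Clo.jT N = _root_.Fermat.Agent.GTor.Clo.jT N := _root_.Fermat.Agent.GTor.Clo.smul_jA N γ

theorem smul_aeval_jT (N : ℕ) (γ : SL(2, ℤ)) (p : Polynomial _root_.Fermat.Agent.GTor.Clo.Kbar) :
    γ • Polynomial.aeval (_root_.Fermat.Agent.GTor.Clo.jT N) p = Polynomial.aeval (_root_.Fermat.Agent.GTor.Clo.jT N) p := by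
  induction p using Polynomial.induction_on' with
  | add p q hp hq => rw [map_add, smul_add, hp, hq]
  | monomial n c =>
    rw [← Polynomial.C_mul_X_pow_eq_monomial, map_mul, map_pow, Polynomial.aeval_C,
      Polynomial.aeval_X, smul_mul', smul_pow', _root_.Fermat.Agent.GTor.Clo.smul_jT, Algebra.algebraMap_eq_smul_one,
      smul_comm, smul_one]

instance smulCommClass_G0_poly_AT (N : ℕ) : SMulCommClass (_root_.Fermat.Agent.GTor.Clo.G0 N) (Polynomial _root_.Fermat.Agent.GTor.Clo.Kbar) (_root_.Fermat.Agent.GTor.Clo.AT N) :=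
  ⟨fun g p f => by
    obtain ⟨γ, rfl⟩ := _root_.Fermat.Agent.GTor.Clo.toG0_surjective N g
    rw [_root_.Fermat.Agent.GTor.Clo.toG0_smul, _root_.Fermat.Agent.GTor.Clo.toG0_smul, Algebra.smul_def, Algebra.smul_def, smul_mul', _root_.Fermat.Agent.GTor.Clo.algebraMap_poly_AT,
      _root_.Fermat.Agent.GTor.Clo.smul_aeval_jT]⟩

instance isGaloisGroup_G0 (N : ℕ) [NeZero N] : IsGaloisGroup (_root_.Fermat.Agent.GTor.Clo.G0 N) (Polynomial _root_.Fermat.Agent.GTor.Clo.Kbar) (_root_.Fermat.Agent.GTor.Clo.AT N) where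
  faithful := _root_.Fermat.Agent.GTor.Clo.faithfulSMul_G0 N
  commutes := _root_.Fermat.Agent.GTor.Clo.smulCommClass_G0_poly_AT N
  isInvariant := ⟨fun f hf => by
    have hf' : ∀ γ : SL(2, ℤ), γ • (show ↥(_root_.Fermat.Agent.GTor.Clo.Atil N) from f) = (show ↥(_root_.Fermat.Agent.GTor.Clo.Atil N) from f) :=
      fun γ => hf (_root_.Fermat.Agent.GTor.Clo.toG0 N γ)
    obtain ⟨p, hp⟩ := _root_.Fermat.Agent.GTor.Clo.lemmaJ N f hf'
    exact ⟨p, hp⟩⟩

/-- The base field `Q̄(j)`. -/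
abbrev EN : Type := FractionRing (Polynomial _root_.Fermat.Agent.GTor.Clo.Kbar)

/-- The Galois closure. -/
abbrev LN (N : ℕ) : Type := FractionRing (_root_.Fermat.Agent.GTor.Clo.AT N)

instance algEL (N : ℕ) : Algebra _root_.Fermat.Agent.GTor.Clo.EN (_root_.Fermat.Agent.GTor.Clo.LN N) := FractionRing.liftAlgebra _ _

instance (N : ℕ) : IsScalarTower (Polynomial _root_.Fermat.Agent.GTor.Clo.Kbar) _root_.Fermat.Agent.GTor.Clo.EN (_root_.Fermat.Agent.GTor.Clo.LN N) :=
  FractionRing.isScalarTower_liftAlgebra _ _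

instance mulSemiringAction_G0_LN (N : ℕ) : MulSemiringAction (_root_.Fermat.Agent.GTor.Clo.G0 N) (_root_.Fermat.Agent.GTor.Clo.LN N) :=
  IsFractionRing.mulSemiringAction (_root_.Fermat.Agent.GTor.Clo.G0 N) (_root_.Fermat.Agent.GTor.Clo.AT N) (_root_.Fermat.Agent.GTor.Clo.LN N)

instance (N : ℕ) : SMulDistribClass (_root_.Fermat.Agent.GTor.Clo.G0 N) (_root_.Fermat.Agent.GTor.Clo.AT N) (_root_.Fermat.Agent.GTor.Clo.LN N) :=
  IsFractionRing.smulDistribClass (_root_.Fermat.Agent.GTor.Clo.G0 N) (_root_.Fermat.Agent.GTor.Clo.AT N) (_root_.Fermat.Agent.GTor.Clo.LN N)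

instance isGaloisGroup_G0_LN (N : ℕ) [NeZero N] : IsGaloisGroup (_root_.Fermat.Agent.GTor.Clo.G0 N) _root_.Fermat.Agent.GTor.Clo.EN (_root_.Fermat.Agent.GTor.Clo.LN N) :=
  IsGaloisGroup.to_isFractionRing (_root_.Fermat.Agent.GTor.Clo.G0 N) (Polynomial _root_.Fermat.Agent.GTor.Clo.Kbar) (_root_.Fermat.Agent.GTor.Clo.AT N) _root_.Fermat.Agent.GTor.Clo.EN (_root_.Fermat.Agent.GTor.Clo.LN N)

instance (N : ℕ) [NeZero N] : IsGalois _root_.Fermat.Agent.GTor.Clo.EN (_root_.Fermat.Agent.GTor.Clo.LN N) := IsGaloisGroup.isGalois (_root_.Fermat.Agent.GTor.Clo.G0 N) _root_.Fermat.Agent.GTor.Clo.EN (_root_.Fermat.Agent.GTor.Clo.LN N)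

instance (N : ℕ) [NeZero N] : FiniteDimensional _root_.Fermat.Agent.GTor.Clo.EN (_root_.Fermat.Agent.GTor.Clo.LN N) :=
  IsGaloisGroup.finiteDimensional (_root_.Fermat.Agent.GTor.Clo.G0 N) _root_.Fermat.Agent.GTor.Clo.EN (_root_.Fermat.Agent.GTor.Clo.LN N)

/-- The action of the modular group on the Galois closure. -/
def piN (N : ℕ) [NeZero N] : SL(2, ℤ) →* (_root_.Fermat.Agent.GTor.Clo.LN N ≃ₐ[_root_.Fermat.Agent.GTor.Clo.EN] _root_.Fermat.Agent.GTor.Clo.LN N) :=
  (IsGaloisGroup.mulEquivAlgEquiv (_root_.Fermat.Agent.GTor.Clo.G0 N) _root_.Fermat.Agent.GTor.Clo.EN (_root_.Fermat.Agent.GTor.Clo.LN N)).toMonoidHom.comp (_root_.Fermat.Agent.GTor.Clo.toG0 N)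

theorem piN_surjective (N : ℕ) [NeZero N] : Function.Surjective (_root_.Fermat.Agent.GTor.Clo.piN N) :=
  (IsGaloisGroup.mulEquivAlgEquiv (_root_.Fermat.Agent.GTor.Clo.G0 N) _root_.Fermat.Agent.GTor.Clo.EN (_root_.Fermat.Agent.GTor.Clo.LN N)).surjective.comp (_root_.Fermat.Agent.GTor.Clo.toG0_surjective N)

theorem piN_algebraMap (N : ℕ) [NeZero N] (γ : SL(2, ℤ)) (f : _root_.Fermat.Agent.GTor.Clo.AT N) :
    _root_.Fermat.Agent.GTor.Clo.piN N γ (algebraMap (_root_.Fermat.Agent.GTor.Clo.AT N) (_root_.Fermat.Agent.GTor.Clo.LN N) f) = algebraMap (_root_.Fermat.Agent.GTor.Clo.AT N) (_root_.Fermat.Agent.GTor.Clo.LN N) (γ • f) := by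
  show (_root_.Fermat.Agent.GTor.Clo.toG0 N γ) • (algebraMap (_root_.Fermat.Agent.GTor.Clo.AT N) (_root_.Fermat.Agent.GTor.Clo.LN N) f) = algebraMap (_root_.Fermat.Agent.GTor.Clo.AT N) (_root_.Fermat.Agent.GTor.Clo.LN N) (γ • f)
  rw [← _root_.Fermat.Agent.GTor.Clo.toG0_smul, algebraMap.smul']

end Fermat.Agent.GTor.Clo

end
end
-- ==== END Fermat.Agent.GTor.Clo.Galois

-- ==== BEGIN Fermat.Agent.GTor.H81_TateCoords
section

/-!
# G-TOR: the coordinatised Tate system of `J₀(N)`  (helper81)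

`TateCoords N p S` packages coordinates `θ k : J₀(N)[p^k] ≃ (ℤ/p^k)^r` together with the matrices
`ρ k σ` of the Galois action and the integer matrices `M t` of the Hecke algebra away from `S`
(`S ⊇ {q ∣ N}`; `p ∈ S` is NOT needed), compatible with `θ`.  Every torsion-level statement about
`J₀(N)[p^∞]` (Eichler–Shimura, unramifiedness, unipotent inertia, …) can be transported to the
matrices through `θ` (`TateCoords.matrix_ext`, `TateCoords.gal`, `TateCoords.hecke`).

* `tateCoords_of` : construction from the torsion dictionary (same inputs as `t2`, without G-RED).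
-/

set_option autoImplicit false

noncomputable section

namespace Fermat.Agent.GTor.H81

open AlgebraicCurve ModularCurve Fermat.Agent.GTor Fermat.Agent.Betti
open scoped MatrixGroups

/-- **Coordinatised Tate system** of `J₀(N)` at `p` for the Hecke algebra away from `S`. -/
structure TateCoords (N p : ℕ) [NeZero N] (S : Set ℕ) where
  /-- the rank `2 g`. -/
  r : ℕ
  /-- the Galois matrices modulo `p ^ k`. -/
  ρ : ∀ k : ℕ, GQ →* Matrix (Fin r) (Fin r) (ZMod (p ^ k))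
  /-- the integral Hecke matrices. -/
  M : CuspForm.heckeAlgebra N 2 S →+* Matrix (Fin r) (Fin r) ℤ
  /-- coordinates on `J₀(N)[p ^ k]`. -/
  θ : ∀ k : ℕ, Jtor N (p ^ k) ≃+ (Fin r → ZMod (p ^ k))
  tate : IsTateSystem p ρ M
  gal : ∀ (k : ℕ) (σ : GQ) (x : Jtor N (p ^ k)),
    θ k (JZero.torsionGaloisRep N (p ^ k) σ x) = (ρ k σ).mulVec (θ k x)
  hecke : ∀ (k : ℕ) (ℓ : ℕ) (hℓ : ℓ.Prime) (hℓN : ¬ ℓ ∣ N) (hℓS : ℓ ∉ S) (x : Jtor N (p ^ k)),
    θ k (heckeTor (p ^ k) (⟨ℓ, hℓ⟩ : Nat.Primes) x) =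
      ((M (CuspForm.heckeAlgebra.T hℓ hℓN hℓS)).map (Int.cast : ℤ → ZMod (p ^ k))).mulVec (θ k x)

namespace TateCoords

variable {N p : ℕ} [NeZero N] {S : Set ℕ} (C : TateCoords N p S)

/-- two matrices agreeing on all coordinate vectors of torsion points are equal. -/
theorem matrix_ext {k : ℕ} {A B : Matrix (Fin C.r) (Fin C.r) (ZMod (p ^ k))}
    (h : ∀ x : Jtor N (p ^ k), A.mulVec (C.θ k x) = B.mulVec (C.θ k x)) : A = B := by
  apply Matrix.mulVec_injective
  funext v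
  obtain ⟨x, rfl⟩ := (C.θ k).surjective v
  exact h x

/-- a matrix killing all coordinate vectors of torsion points is zero. -/
theorem matrix_eq_zero {k : ℕ} {A : Matrix (Fin C.r) (Fin C.r) (ZMod (p ^ k))}
    (h : ∀ x : Jtor N (p ^ k), A.mulVec (C.θ k x) = 0) : A = 0 :=
  C.matrix_ext fun x => by rw [h x, Matrix.zero_mulVec]

end TateCoords

/-- **The coordinatised Tate system** from the torsion dictionary. -/
theorem tateCoords_of (N p : ℕ) [NeZero N] (S : Set ℕ) (hp : p.Prime)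
    (hNS : ∀ q : ℕ, q.Prime → q ∣ N → q ∈ S)
    (hTOR : ∀ k : ℕ, Stmt_TORc N (p ^ k)) (hHK : ∀ k : ℕ, Stmt_HK N (p ^ k))
    (hLift : Stmt_torsLift N) (hGH : Stmt_GalHecke N) (hGAL : Stmt_GAL N)
    (hBasis : Betti.Stmt_basis) (hMat : Betti.Stmt_matrixRep) :
    Nonempty (TateCoords N p S) := by
  obtain ⟨r, b, hb⟩ := hBasis N
  obtain ⟨M, hMinj, hMT, -⟩ := hMat N S r b hb
  have halg : Algebra.IsAlgebraic ℚ (AlgebraicClosure ℚ) := AlgebraicClosure.isAlgebraic ℚ
  obtain ⟨ι⟩ : Nonempty (AlgebraicClosure ℚ →+* ℂ) :=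
    ⟨((IsAlgClosed.lift : AlgebraicClosure ℚ →ₐ[ℚ] ℂ) : AlgebraicClosure ℚ →+* ℂ)⟩
  have hE : ∀ k : ℕ, Nonempty (TorIso N (p ^ k) ι) := fun k => nonempty_torIso (hTOR k) ι
  have hn : ∀ k : ℕ, p ^ k ≠ 0 := fun k => pow_ne_zero k hp.ne_zero
  let E : ∀ k : ℕ, TorIso N (p ^ k) ι := fun k => Classical.choice (hE k)
  refine ⟨{ r := r
            ρ := fun k => rhoMat hb hLift (hn k) (E k)
            M := M
            θ := fun k => theta hb hLift (hn k) (E k)
            tate := ⟨?_, ?_, ?_, hMinj⟩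
            gal := ?_
            hecke := ?_ }⟩
  · -- compatibility
    intro k σ i j
    have h := rhoMat_compat hb hLift (hn (k + 1)) (hn k) (pow_dvd_pow p (Nat.le_succ k))
      (E (k + 1)) (E k) σ
    have h2 := congrFun (congrFun h i) j
    rw [Matrix.map_apply] at h2
    exact h2
  · -- continuity
    intro k
    exact rhoMat_cont hb hLift (hn k) (E k) hGAL
  · -- commutation with the Hecke algebra
    intro k σ t
    refine comm_of_generators S M _ hNS (fun ℓ hℓ hℓN hℓS => ?_) t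
    exact rhoMat_comm_T hb hLift (hn k) (E k) hℓ hℓN (hHK k) hGH _ (hMT ℓ hℓ hℓN hℓS) σ
  · intro k σ x
    exact (rhoMat_mulVec hb hLift (hn k) (E k) σ x).symm
  · intro k ℓ hℓ hℓN hℓS x
    exact theta_heckeTor hb hLift (hn k) (E k) hℓ hℓN (hHK k) _ (hMT ℓ hℓ hℓN hℓS) x

end Fermat.Agent.GTor.H81

end
end
-- ==== END Fermat.Agent.GTor.H81_TateCoords

-- ==== BEGIN Fermat.Agent.Lib.HeckeComm.H2_TowerDefs
section
attribute [local instance 10000] SubalgebraClass.toAlgebra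
attribute [local instance 10000] HahnSeries.powerSeriesAlgebra

/-!
# COMM (helper2): the tower of the fields `F_X ⊂ F_M`, `X ∣ M` — definitions and interfaces

* `inclFN X M h : F_X →ₐ F_M` the inclusion (`= heckeAlphaBar` for `M = X * ℓ`, by `rfl`).
* `degFN X d M h : F_X →ₐ F_M`, `f(q) ↦ f(q ^ d)`, for `X * d ∣ M` (`= heckeBetaBar` for `M = X * d`).
* `Stmt_GenJ X M h` (package G): `F_M = F_X (j (q ^ M))`.
* `Stmt_Deg X M h` (package D): `[F_M : F_X] * ψ(X) = ψ(M)`.
-/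

set_option autoImplicit false
set_option linter.style.haveILetI false
set_option linter.unusedSectionVars false

noncomputable section

namespace Fermat.Agent.Lib.HeckeComm

open AlgebraicCurve ModularCurve Fermat.Agent.S24

local notation "Kb" => AlgebraicClosure ℚ

theorem laurentBaseChange_mono_h2 {F₀ F₁ : IntermediateField ℚ (LaurentSeries ℚ)}
    (h : F₀ ≤ F₁) : laurentBaseChange Kb F₀ ≤ laurentBaseChange Kb F₁ := by
  rw [laurentBaseChange, IntermediateField.adjoin_le_iff]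
  rintro _ ⟨y, hy, rfl⟩
  exact coeffEmb_mem_laurentBaseChange Kb (h hy)

theorem modularFunctionFieldBar_mono {X M : ℕ} [NeZero X] [NeZero M] (h : X ∣ M) :
    modularFunctionFieldBar X ≤ modularFunctionFieldBar M :=
  laurentBaseChange_mono_h2 (full_degeneracy_le h)

/-- The inclusion `F_X ⊂ F_M` for `X ∣ M`. -/
def inclFN (X M : ℕ) [NeZero X] [NeZero M] (h : X ∣ M) : FN X →ₐ[Kb] FN M :=
  IntermediateField.inclusion (modularFunctionFieldBar_mono h)

@[simp]
theorem coe_inclFN (X M : ℕ) [NeZero X] [NeZero M] (h : X ∣ M) (x : FN X) :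
    (inclFN X M h x : LaurentSeries Kb) = (x : LaurentSeries Kb) :=
  IntermediateField.coe_inclusion _ x

theorem inclFN_eq_heckeAlphaBar (N ℓ : ℕ) [NeZero N] [NeZero ℓ] :
    inclFN N (N * ℓ) (dvd_mul_right N ℓ) = heckeAlphaBar Kb N ℓ := rfl

theorem inclFN_comp (X Y M : ℕ) [NeZero X] [NeZero Y] [NeZero M] (h : X ∣ Y) (h' : Y ∣ M) :
    (inclFN Y M h').comp (inclFN X Y h) = inclFN X M (h.trans h') := by
  ext x
  rfl

theorem inclFN_jF (X M : ℕ) [NeZero X] [NeZero M] (h : X ∣ M) : inclFN X M h (jF X) = jF M :=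
  Subtype.ext rfl

theorem inclFN_jdF (X M : ℕ) [NeZero X] [NeZero M] (h : X ∣ M) (d : ℕ) [NeZero d] (hd : d ∣ X) :
    inclFN X M h (jdF X d hd) = jdF M d (hd.trans h) :=
  Subtype.ext rfl

/-- **Package G**: `F_M` is generated over `F_X` by `j (q ^ M)`.
(Galois correspondence in the S24 closure `LN M / EN`: an automorphism `piN M γ` fixing
`phi M (jdF M M _)` has `γ ∈ Γ₀(M)` (`mem_Gamma0_of_smul_jdA`) hence fixes `F_M`
(`piN_phi_of_mem_Gamma0`); so `F_M = Q̄(j, j_M)`.) -/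
def Stmt_GenJ (X M : ℕ) [NeZero X] [NeZero M] (h : X ∣ M) : Prop :=
  letI := (inclFN X M h).toRingHom.toAlgebra
  IntermediateField.adjoin (FN X) {jdF M M dvd_rfl} = ⊤

/-- **Package D**: `[F_M : F_X] * ψ(X) = ψ(M)`  (from `S24.asm_finrank` and the tower law). -/
def Stmt_Deg (X M : ℕ) [NeZero X] [NeZero M] (h : X ∣ M) : Prop :=
  (letI := (inclFN X M h).toRingHom.toAlgebra; Module.finrank (FN X) (FN M)) * dedekindPsi X
    = dedekindPsi M

/-- Finiteness of `F_M / F_X`. -/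
def Stmt_Fin (X M : ℕ) [NeZero X] [NeZero M] (h : X ∣ M) : Prop :=
  letI := (inclFN X M h).toRingHom.toAlgebra
  Module.Finite (FN X) (FN M)

end Fermat.Agent.Lib.HeckeComm

end
end
-- ==== END Fermat.Agent.Lib.HeckeComm.H2_TowerDefs

-- ==== BEGIN Fermat.Agent.R.H99_Newform
section

/-!
# Cluster R, leaf L5(1),(2): newform bookkeeping

* `exists_common_eigenvector_mem` : a commuting family of endomorphisms of a finite-dimensional
  vector space over an algebraically closed field has a common eigenvector in every nonzero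
  invariant subspace.
* `exists_normalizedEigenform_of_common_eigenvector` : if a nonzero cusp form `v` of level `M` is
  a common eigenvector of a family `F i` of Hecke operators (elements of the full Hecke algebra
  `heckeAlgebra M 2 ∅`), then there is a *normalised eigenform* `g` of level `M` (eigenvector of
  ALL `T_ℓ`, `U_q`) with the same eigenvalues for the `F i`.
* `exists_normalizedEigenform_of_eigenvector` : the same for the family `T_ℓ`, `ℓ ∤ M`, `ℓ ∉ S`,
  conclusion on `q`-coefficients.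
* `exists_normalizedEigenform_of_character` : the same for an eigenvector of the Hecke algebra
  away from `S`.
* `goodEigensystemOccursAt_of_eigenvector` : an eigenvector of level `M ∣ N` with the good
  eigenvalues of `f` shows `GoodEigensystemOccursAt f M`.
* `IsNewform.eq_zero_of_eigenvector` : a newform of level `N` has no eigenvector with its good
  eigenvalues at a proper divisor of the level.
* `exists_isNewform` : every normalised eigenform of level `N` has an associated newform (prelude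
  sense) of some level `M ∣ N` with the same `a_ℓ`, `ℓ ∤ N`.
-/

set_option autoImplicit false

namespace Fermat.Agent.R.H99

open CuspForm CongruenceSubgroup ModularFormClass Fermat.Agent.S49 Module FormalHecke

section LinearAlgebra

variable {K V ι : Type*} [Field K] [IsAlgClosed K] [AddCommGroup V] [Module K V]
  [FiniteDimensional K V]

theorem exists_common_eigenvector_mem_aux (f : ι → Module.End K V)
    (hcomm : ∀ i j, Commute (f i) (f j)) :
    ∀ (n : ℕ) (U : Submodule K V), finrank K U = n → U ≠ ⊥ → (∀ i, ∀ x ∈ U, f i x ∈ U) →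
      ∃ v ∈ U, v ≠ 0 ∧ ∀ i, ∃ c : K, f i v = c • v := by
  intro n
  induction n using Nat.strong_induction_on with
  | _ n ih =>
    intro U hn hU hinv
    by_cases hall : ∀ i, ∃ c : K, ∀ x ∈ U, f i x = c • x
    · obtain ⟨v, hvU, hv0⟩ := Submodule.exists_mem_ne_zero_of_ne_bot hU
      exact ⟨v, hvU, hv0, fun i => ⟨(hall i).choose, (hall i).choose_spec v hvU⟩⟩
    · simp only [not_forall, not_exists] at hall
      obtain ⟨i, hi⟩ := hall
      -- an eigenvalue of `f i` on `U`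
      have : Nontrivial U := Submodule.nontrivial_iff_ne_bot.mpr hU
      obtain ⟨μ, hμ⟩ := Module.End.exists_eigenvalue ((f i).restrict (hinv i))
      obtain ⟨u, hu⟩ := hμ.exists_hasEigenvector
      have hu1 : f i (u : V) = μ • (u : V) := by
        have := hu.apply_eq_smul
        exact congrArg Subtype.val this
      have hu0 : (u : V) ≠ 0 := fun h => hu.2 (Subtype.ext h)
      set U' : Submodule K V := U ⊓ (f i).eigenspace μ with hU'
      have hU'ne : U' ≠ ⊥ := by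
        intro h
        have : (u : V) ∈ U' := ⟨u.2, Module.End.mem_eigenspace_iff.mpr hu1⟩
        rw [h] at this
        exact hu0 ((Submodule.mem_bot K).mp this)
      have hlt : U' < U := by
        refine lt_of_le_of_ne inf_le_left ?_
        intro h
        obtain ⟨x, hxU, hx⟩ := hi μ
        apply hx
        have : x ∈ U' := h ▸ hxU
        exact Module.End.mem_eigenspace_iff.mp this.2
      have hfin : finrank K U' < n := hn ▸ Submodule.finrank_lt_finrank_of_lt hlt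
      have hinv' : ∀ j, ∀ x ∈ U', f j x ∈ U' := by
        intro j x hx
        refine ⟨hinv j x hx.1, Module.End.mem_eigenspace_iff.mpr ?_⟩
        have hx2 : f i x = μ • x := Module.End.mem_eigenspace_iff.mp hx.2
        have hc : f i (f j x) = f j (f i x) := by
          have := (hcomm i j).eq
          exact congrArg (fun g => g x) this
        rw [hc, hx2, map_smul]
      obtain ⟨v, hvU', hv0, hv⟩ := ih _ hfin U' rfl hU'ne hinv'
      exact ⟨v, hvU'.1, hv0, hv⟩

/-- A commuting family of endomorphisms has a common eigenvector in every nonzero invariant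
subspace (finite dimension, algebraically closed field). -/
theorem exists_common_eigenvector_mem (f : ι → Module.End K V)
    (hcomm : ∀ i j, Commute (f i) (f j)) (U : Submodule K V) (hU : U ≠ ⊥)
    (hinv : ∀ i, ∀ x ∈ U, f i x ∈ U) :
    ∃ v ∈ U, v ≠ 0 ∧ ∀ i, ∃ c : K, f i v = c • v :=
  exists_common_eigenvector_mem_aux f hcomm _ U rfl hU hinv

end LinearAlgebra

variable {M : ℕ} [NeZero M]

/-- `S₂(Γ₀(M))` is finite-dimensional (from the integral structure S23). -/
theorem finiteDimensional_cuspForm (M : ℕ) [NeZero M] :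
    FiniteDimensional ℂ (CuspForm (Gamma0 M) 2) := by
  obtain ⟨s, hs⟩ := CuspForm.intLattice_fg M 2
  refine ⟨⟨s, ?_⟩⟩
  have h : CuspForm.HasIntegralStructure M 2 := Fermat.Agent.S23.result M
  unfold CuspForm.HasIntegralStructure at h
  rw [← h, ← hs, Submodule.span_span_of_tower]

/-- A simultaneous eigenvector of the full Hecke algebra has nonzero first coefficient, and its
normalisation is a normalised eigenform (prelude sense). -/
theorem isNormalizedEigenform_of_eigenvector (χ : heckeAlgebra M 2 ∅ →+* ℂ)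
    (v : CuspForm (Gamma0 M) 2) (hv0 : v ≠ 0)
    (hv : ∀ T : heckeAlgebra M 2 ∅,
      (T : Module.End ℂ (CuspForm (Gamma0 M) 2)) v = χ T • v) :
    qCoeff ⇑v 1 ≠ 0 ∧ ((qCoeff ⇑v 1)⁻¹ • v).IsNormalizedEigenform := by
  have hrel := fun (ℓ : ℕ) (hℓ : ℓ.Prime) (n : ℕ) => qCoeff_eigen_relation χ v hv hℓ n
  have hb1 : qCoeff ⇑v 1 ≠ 0 := by
    intro h1
    apply hv0
    apply cuspForm_eq_zero_of_qCoeff
    exact eq_zero_of_relation (e := levelChar M) (c := eigenvalueAt χ) hrel (qCoeff_at_zero v) h1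
  refine ⟨hb1, ?_⟩
  set f : CuspForm (Gamma0 M) 2 := (qCoeff ⇑v 1)⁻¹ • v with hf
  have hfcoeff : ∀ n, qCoeff ⇑f n = (qCoeff ⇑v 1)⁻¹ * qCoeff ⇑v n := fun n => qCoeff_smul _ _ _
  have hf1 : qCoeff ⇑f 1 = 1 := by
    rw [hfcoeff, inv_mul_cancel₀ hb1]
  have hfrel : ∀ ℓ : ℕ, ℓ.Prime → ∀ n : ℕ,
      qCoeff ⇑f (ℓ * n) + levelChar M ℓ * (if ℓ ∣ n then qCoeff ⇑f (n / ℓ) else 0)
        = eigenvalueAt χ ℓ * qCoeff ⇑f n := by
    intro ℓ hℓ n
    rw [hfcoeff, hfcoeff, hfcoeff]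
    have := hrel ℓ hℓ n
    have h2 : (qCoeff ⇑v 1)⁻¹ * qCoeff ⇑v (ℓ * n)
        + levelChar M ℓ * (if ℓ ∣ n then (qCoeff ⇑v 1)⁻¹ * qCoeff ⇑v (n / ℓ) else 0)
        = (qCoeff ⇑v 1)⁻¹ * (qCoeff ⇑v (ℓ * n)
          + levelChar M ℓ * (if ℓ ∣ n then qCoeff ⇑v (n / ℓ) else 0)) := by
      split_ifs <;> ring
    rw [h2, this]
    ring
  have hfℓ : ∀ ℓ : ℕ, ℓ.Prime → qCoeff ⇑f ℓ = eigenvalueAt χ ℓ := by
    intro ℓ hℓ
    have := hfrel ℓ hℓ 1
    have hnd : ¬ ℓ ∣ 1 := by
      intro h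
      exact hℓ.one_lt.ne' (Nat.dvd_one.mp h)
    rw [if_neg hnd, mul_zero, add_zero, mul_one, hf1, mul_one] at this
    exact this
  have heig : IsEigensystem (levelChar M) (fun n => qCoeff ⇑f n) := by
    refine ⟨hf1, ?_⟩
    intro ℓ hℓ n
    show qCoeff ⇑f (ℓ * n) + levelChar M ℓ * (if ℓ ∣ n then qCoeff ⇑f (n / ℓ) else 0)
      = qCoeff ⇑f ℓ * qCoeff ⇑f n
    rw [hfrel ℓ hℓ n, hfℓ ℓ hℓ]
  have hrec := formal_isRecursive heig
  refine ⟨hf1, hrec.2.1, ?_, ?_⟩
  · intro p r hp hpN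
    have := hrec.2.2 p r hp
    simp only [levelChar, if_neg hpN] at this
    exact this
  · intro p r hp hpN
    have := hrec.2.2 p r hp
    simp only [levelChar, if_pos hpN, zero_mul, sub_zero] at this
    exact this

/-- The character of a simultaneous eigenvector. -/
theorem exists_character_of_eigenvector (S : Set ℕ) (v : CuspForm (Gamma0 M) 2) (hv0 : v ≠ 0)
    (hv : ∀ T : heckeAlgebra M 2 S, ∃ c : ℂ,
      (T : Module.End ℂ (CuspForm (Gamma0 M) 2)) v = c • v) :
    ∃ χ : heckeAlgebra M 2 S →+* ℂ, ∀ T : heckeAlgebra M 2 S,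
      (T : Module.End ℂ (CuspForm (Gamma0 M) 2)) v = χ T • v := by
  choose e he using hv
  have huniq : ∀ (T : heckeAlgebra M 2 S) {c : ℂ},
      (T : Module.End ℂ (CuspForm (Gamma0 M) 2)) v = c • v → e T = c := by
    intro T c h
    exact smul_left_injective ℂ hv0 ((he T).symm.trans h)
  refine ⟨{ toFun := e
            map_one' := huniq 1 (by simp)
            map_mul' := fun x y => huniq (x * y) (by
              rw [MulMemClass.coe_mul, Module.End.mul_apply, he y, map_smul, he x, smul_smul,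
                mul_comm])
            map_zero' := huniq 0 (by simp)
            map_add' := fun x y => huniq (x + y) (by
              rw [AddMemClass.coe_add, LinearMap.add_apply, he x, he y, add_smul]) }, he⟩

/-- **L5(1), general form.** If a nonzero cusp form of level `M` is a common eigenvector of a
family of Hecke operators `F i ∈ heckeAlgebra M 2 ∅`, then some normalised eigenform of level `M`
(an eigenvector of the FULL Hecke algebra) has the same eigenvalues for the `F i`. -/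
theorem exists_normalizedEigenform_of_common_eigenvector {ι : Type*}
    (F : ι → Module.End ℂ (CuspForm (Gamma0 M) 2)) (hF : ∀ i, F i ∈ heckeAlgebra M 2 ∅)
    (c : ι → ℂ) (v : CuspForm (Gamma0 M) 2) (hv0 : v ≠ 0) (hv : ∀ i, F i v = c i • v) :
    ∃ g : CuspForm (Gamma0 M) 2, g.IsNormalizedEigenform ∧ ∀ i, F i g = c i • g := by
  have := finiteDimensional_cuspForm M
  set U : Submodule ℂ (CuspForm (Gamma0 M) 2) := ⨅ i, (F i).eigenspace (c i) with hU
  have hvU : v ∈ U := by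
    rw [hU, Submodule.mem_iInf]
    exact fun i => Module.End.mem_eigenspace_iff.mpr (hv i)
  have hUne : U ≠ ⊥ := fun h => hv0 ((Submodule.mem_bot ℂ).mp (h ▸ hvU))
  have hcomm : ∀ T T' : heckeAlgebra M 2 ∅,
      Commute (T : Module.End ℂ (CuspForm (Gamma0 M) 2)) T' := by
    intro T T'
    have h := mul_comm T T'
    exact congrArg Subtype.val h
  have hinv : ∀ T : heckeAlgebra M 2 ∅, ∀ x ∈ U,
      (T : Module.End ℂ (CuspForm (Gamma0 M) 2)) x ∈ U := by
    intro T x hx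
    rw [hU, Submodule.mem_iInf] at hx ⊢
    intro i
    rw [Module.End.mem_eigenspace_iff]
    have h1 : F i x = c i • x := Module.End.mem_eigenspace_iff.mp (hx i)
    have h2 := (hcomm ⟨F i, hF i⟩ T).eq
    have h3 : F i ((T : Module.End ℂ (CuspForm (Gamma0 M) 2)) x)
        = (T : Module.End ℂ (CuspForm (Gamma0 M) 2)) (F i x) :=
      congrArg (fun g : Module.End ℂ (CuspForm (Gamma0 M) 2) => g x) h2
    rw [h3, h1, map_smul]
  obtain ⟨w, hwU, hw0, hw⟩ := exists_common_eigenvector_mem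
    (fun T : heckeAlgebra M 2 ∅ => (T : Module.End ℂ (CuspForm (Gamma0 M) 2))) hcomm U hUne hinv
  obtain ⟨χ, hχ⟩ := exists_character_of_eigenvector ∅ w hw0 hw
  obtain ⟨hb1, hnorm⟩ := isNormalizedEigenform_of_eigenvector χ w hw0 hχ
  refine ⟨_, hnorm, fun i => ?_⟩
  rw [hU, Submodule.mem_iInf] at hwU
  rw [map_smul, Module.End.mem_eigenspace_iff.mp (hwU i), smul_comm]

/-- **L5(1).** An eigenvector (of level `M`) of the `T_ℓ`, `ℓ ∤ M`, `ℓ ∉ S`, with eigenvalues
`a ℓ` gives a normalised eigenform of level `M` with `a_ℓ = a ℓ` for those `ℓ`. -/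
theorem exists_normalizedEigenform_of_eigenvector (S : Set ℕ) (a : ℕ → ℂ)
    (v : CuspForm (Gamma0 M) 2) (hv0 : v ≠ 0)
    (hv : ∀ (ℓ : ℕ) (hℓ : ℓ.Prime) (hℓM : ¬ ℓ ∣ M), ℓ ∉ S →
      CuspForm.heckeTLin 2 hℓ hℓM v = a ℓ • v) :
    ∃ g : CuspForm (Gamma0 M) 2, g.IsNormalizedEigenform ∧
      ∀ ℓ : ℕ, ℓ.Prime → ¬ ℓ ∣ M → ℓ ∉ S → qCoeff ⇑g ℓ = a ℓ := by
  obtain ⟨g, hg, hgF⟩ := exists_normalizedEigenform_of_common_eigenvector
    (ι := {ℓ : ℕ // ℓ.Prime ∧ ¬ ℓ ∣ M ∧ ℓ ∉ S})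
    (fun ℓ => CuspForm.heckeTLin 2 ℓ.2.1 ℓ.2.2.1)
    (fun ℓ => heckeTLin_mem_heckeAlgebra ℓ.2.1 ℓ.2.2.1 (Set.notMem_empty _))
    (fun ℓ => a ℓ.1) v hv0 (fun ℓ => hv ℓ.1 ℓ.2.1 ℓ.2.2.1 ℓ.2.2.2)
  refine ⟨g, hg, fun ℓ hℓ hℓM hℓS => ?_⟩
  have h1 := hgF ⟨ℓ, hℓ, hℓM, hℓS⟩
  have h2 := heckeTLin_apply_eq_smul hg hℓ hℓM
  have hg0 : g ≠ 0 := by
    rintro rfl
    have h1 := hg.qCoeff_one
    rw [qCoeff_zero_form] at h1
    exact zero_ne_one h1
  exact smul_left_injective ℂ hg0 (h2.symm.trans h1)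

/-- **L5(1), character form.** A nonzero eigenvector of the Hecke algebra away from `S`, with
character `χ`, gives a normalised eigenform with the same character. -/
theorem exists_normalizedEigenform_of_character (S : Set ℕ) (χ : heckeAlgebra M 2 S → ℂ)
    (v : CuspForm (Gamma0 M) 2) (hv0 : v ≠ 0)
    (hv : ∀ T : heckeAlgebra M 2 S,
      (T : Module.End ℂ (CuspForm (Gamma0 M) 2)) v = χ T • v) :
    ∃ g : CuspForm (Gamma0 M) 2, g.IsNormalizedEigenform ∧
      ∀ T : heckeAlgebra M 2 S,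
        (T : Module.End ℂ (CuspForm (Gamma0 M) 2)) g = χ T • g :=
  exists_normalizedEigenform_of_common_eigenvector
    (fun T : heckeAlgebra M 2 S => (T : Module.End ℂ (CuspForm (Gamma0 M) 2)))
    (fun T => heckeAlgebra_mono (Set.empty_subset S) T.2) χ v hv0 hv

omit [NeZero M] in
/-- An eigenvector at level `M ∣ N` carrying the good eigenvalues of `f` (level `N`) shows that
the good eigensystem of `f` occurs at level `M`. -/
theorem goodEigensystemOccursAt_of_eigenvector {N : ℕ} (f : CuspForm (Gamma0 N) 2)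
    (hM : M ≠ 0) (hMN : M ∣ N) (v : CuspForm (Gamma0 M) 2) (hv0 : v ≠ 0)
    (hv : ∀ (ℓ : ℕ) (hℓ : ℓ.Prime) (hℓM : ¬ ℓ ∣ M), ¬ ℓ ∣ N →
      CuspForm.heckeTLin 2 hℓ hℓM v = qCoeff ⇑f ℓ • v) :
    GoodEigensystemOccursAt f M := by
  have : NeZero M := ⟨hM⟩
  obtain ⟨g, hg, hga⟩ := exists_normalizedEigenform_of_eigenvector {ℓ | ℓ ∣ N}
    (fun ℓ => qCoeff ⇑f ℓ) v hv0 (fun ℓ hℓ hℓM hℓS => hv ℓ hℓ hℓM hℓS)
  exact ⟨g, hg, fun ℓ hℓ hℓN => hga ℓ hℓ (fun h => hℓN (h.trans hMN)) hℓN⟩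

omit [NeZero M] in
/-- A newform of level `N` has no eigenvector with its good eigenvalues at a proper divisor of
the level. -/
theorem IsNewform.eq_zero_of_eigenvector {N : ℕ} {f : CuspForm (Gamma0 N) 2} (hf : f.IsNewform)
    (hM : M ≠ 0) (hMN : M ∣ N) (hne : M ≠ N) (v : CuspForm (Gamma0 M) 2)
    (hv : ∀ (ℓ : ℕ) (hℓ : ℓ.Prime) (hℓM : ¬ ℓ ∣ M), ¬ ℓ ∣ N →
      CuspForm.heckeTLin 2 hℓ hℓM v = qCoeff ⇑f ℓ • v) : v = 0 := by
  by_contra hv0
  exact hf.2 M hMN hne (goodEigensystemOccursAt_of_eigenvector f hM hMN v hv0 hv)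

omit [NeZero M] in
/-- **L5(2).** Every normalised eigenform of level `N` has an associated newform (prelude sense:
no lower level carries its good eigensystem) of some level `M ∣ N`, with the same `a_ℓ`,
`ℓ ∤ N`. -/
theorem exists_isNewform {N : ℕ} [NeZero N] {f : CuspForm (Gamma0 N) 2}
    (hf : f.IsNormalizedEigenform) :
    ∃ (M : ℕ) (_ : M ∣ N) (g : CuspForm (Gamma0 M) 2), g.IsNewform ∧
      ∀ ℓ : ℕ, ℓ.Prime → ¬ ℓ ∣ N → qCoeff ⇑g ℓ = qCoeff ⇑f ℓ := by
  classical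
  have hex : ∃ M : ℕ, M ∣ N ∧ GoodEigensystemOccursAt f M :=
    ⟨N, dvd_rfl, GoodEigensystemOccursAt.refl hf⟩
  have hspec := Nat.find_spec hex
  have hmin := fun {m : ℕ} (h : m < Nat.find hex) => Nat.find_min hex h
  generalize Nat.find hex = M at hspec hmin
  obtain ⟨hMN, g, hg, hga⟩ := hspec
  have hM0 : M ≠ 0 := fun h => NeZero.ne N (Nat.eq_zero_of_zero_dvd (h ▸ hMN))
  refine ⟨M, hMN, g, ⟨hg, ?_⟩, hga⟩
  rintro M' hM'M hM'ne ⟨g', hg', hg'a⟩
  have hlt : M' < M := lt_of_le_of_ne (Nat.le_of_dvd (Nat.pos_of_ne_zero hM0) hM'M) hM'ne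
  refine hmin hlt ⟨hM'M.trans hMN, g', hg', fun ℓ hℓ hℓN => ?_⟩
  rw [hg'a ℓ hℓ (fun h => hℓN (h.trans hMN)), hga ℓ hℓ hℓN]

end Fermat.Agent.R.H99

end
-- ==== END Fermat.Agent.R.H99_Newform

-- ==== BEGIN Fermat.Agent.RED.ES.H95_Rho
section

/-!
# G-RED, package ES (helper95): the embedding `ρ : F_{Nℓ} → Frac (Atil (N ℓ))`, `h ↦ h (τ / ℓ)`

`M = N ℓ`, `u = exp (2 π i τ / M)`.  The embedding `phi M : F_M → LN M` of S24 is `h ↦ h (τ)`
(`UL (phi h) = h (u ^ M)`); here we construct `rho : F_M → LN M`, `h ↦ h (τ / ℓ)`,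
characterised by `UL (rho h) = h (u ^ N)`.  Then

* `rho (β g) = phi M (α g)` for `g ∈ F_N` (`α` the inclusion, `β : g (q) ↦ g (q ^ ℓ)`),
* `rho (j (q ^ d)) = j ∘ dg d ℓ` for `d ∣ N`.
-/

set_option autoImplicit false

noncomputable section

namespace Fermat.Agent.RED.H95

open Fermat.Agent.S24 ModularCurve Matrix ModularGroup CongruenceSubgroup UpperHalfPlane
open scoped MatrixGroups

variable (N ℓ : ℕ) [NeZero N] [NeZero ℓ]

/-- The series of `j (q ^ d)` over `Q̄`. -/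
theorem coeffEmb_qExpand_jq (d : ℕ) [NeZero d] :
    coeffEmb Kbar (qExpand ℚ d jq) = qExpand Kbar d jBar := by
  ext m
  by_cases hm : (d : ℤ) ∣ m
  · obtain ⟨k, rfl⟩ := hm
    rw [coeffEmb_coeff, qExpand_coeff_mul, qExpand_coeff_mul, jBar, coeffEmb_coeff]
  · rw [coeffEmb_coeff, qExpand_coeff_of_not_dvd _ _ hm, qExpand_coeff_of_not_dvd _ _ hm,
      map_zero]

theorem coe_jdF (M : ℕ) [NeZero M] (d : ℕ) [NeZero d] (hd : d ∣ M) :
    ((jdF M d hd : FN M) : LaurentSeries Kbar) = qExpand Kbar d jBar :=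
  coeffEmb_qExpand_jq d

/-- `j (d τ / ℓ)` as an element of `Atil (N ℓ)`, for `d ∣ N`. -/
def xdA (d : ℕ) (hd : 0 < d) (hdN : d ∣ N) : Atil (N * ℓ) :=
  ⟨JA (dg d ℓ), JA_mem_Atil (N * ℓ) _
    (det_dg_pos (by exact_mod_cast hd) (by exact_mod_cast NeZero.pos ℓ)) (by
      rw [det_dg]
      exact_mod_cast Nat.mul_dvd_mul_right hdN ℓ)⟩

omit [NeZero N] in
theorem xdA_coe (d : ℕ) (hd : 0 < d) (hdN : d ∣ N) :
    ((xdA N ℓ d hd hdN : Atil (N * ℓ)) : Hol) = JA (dg d ℓ) := rfl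

/-- The expansion of `j (d τ / ℓ)` is `j (u ^ (N d))`. -/
theorem uExp_xdA (d : ℕ) (hd : 0 < d) (hdN : d ∣ N) :
    haveI : NeZero (N * d) := ⟨Nat.mul_ne_zero (NeZero.ne N) hd.ne'⟩
    uExp (N * ℓ) (xdA N ℓ d hd hdN) = qExpand Kbar (N * d) jBar := by
  have : NeZero (N * d) := ⟨Nat.mul_ne_zero (NeZero.ne N) hd.ne'⟩
  have hℓ0 : 0 < ℓ := NeZero.pos ℓ
  obtain ⟨c, hc, hc1, hc2⟩ := hasUExp_JA_upper (N * ℓ) d ℓ 0 hd hℓ0 (dvd_mul_left ℓ N)
  have hdiv : N * ℓ / ℓ * d = N * d := by rw [Nat.mul_div_cancel _ hℓ0]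
  have e : uExp (N * ℓ) (xdA N ℓ d hd hdN) = c := by
    apply uExp_eq
    rw [xdA_coe]
    exact hc
  rw [e]
  ext m
  simp only [zero_mul, zpow_zero, one_mul, hdiv] at hc1 hc2
  by_cases hm : (((N * d : ℕ) : ℤ)) ∣ m
  · obtain ⟨n, rfl⟩ := hm
    rw [hc1, qExpand_coeff_mul]
  · rw [hc2 m hm, qExpand_coeff_of_not_dvd _ _ hm]

/-- `x (q) ↦ x (u ^ N)` on `F_{N ℓ}`. -/
def rhoSer : FN (N * ℓ) →ₐ[Kbar] LaurentSeries Kbar :=
  (qExpandAlgHomC Kbar N).comp (modularFunctionFieldBar (N * ℓ)).val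

omit [NeZero ℓ] in
theorem rhoSer_apply (x : FN (N * ℓ)) :
    rhoSer N ℓ x = qExpand Kbar N (x : LaurentSeries Kbar) := rfl

theorem rhoSer_jdF_of_dvd (d : ℕ) [NeZero d] (hdN : d ∣ N) :
    rhoSer N ℓ (jdF (N * ℓ) d (dvd_mul_of_dvd_left hdN ℓ))
      = UL (N * ℓ) (algebraMap (AT (N * ℓ)) (LN (N * ℓ))
          (toAT (N * ℓ) (xdA N ℓ d (NeZero.pos d) hdN))) := by
  rw [UL_algebraMap, rhoSer_apply, coe_jdF]
  show _ = uExp (N * ℓ) ((toAT (N * ℓ)).symm (toAT (N * ℓ) (xdA N ℓ d (NeZero.pos d) hdN)))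
  rw [AlgEquiv.symm_apply_apply, uExp_xdA, qExpand_qExpand]

theorem rhoSer_jdF_mul (d : ℕ) [NeZero d] (hdN : d ∣ N) :
    rhoSer N ℓ (jdF (N * ℓ) (ℓ * d) (by rw [mul_comm ℓ d]; exact Nat.mul_dvd_mul_right hdN ℓ))
      = UL (N * ℓ) (algebraMap (AT (N * ℓ)) (LN (N * ℓ))
          (toAT (N * ℓ) (jdA (N * ℓ) d))) := by
  rw [UL_algebraMap, rhoSer_apply, coe_jdF]
  show _ = uExp (N * ℓ) ((toAT (N * ℓ)).symm (toAT (N * ℓ) (jdA (N * ℓ) d)))
  rw [AlgEquiv.symm_apply_apply, uExp_jdA (N * ℓ) d (dvd_mul_of_dvd_left hdN ℓ),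
    coeffEmb_qExpand_jq, qExpand_qExpand, qExpand_qExpand]
  exact qExpand_congr (by ring) _

/-- A divisor of `N ℓ` is a divisor of `N` or `ℓ` times a divisor of `N` (`ℓ` prime). -/
theorem dvd_mul_prime_cases {N ℓ : ℕ} (hℓ : ℓ.Prime) {d' : ℕ} (h : d' ∣ N * ℓ) :
    d' ∣ N ∨ ∃ d, d ∣ N ∧ d' = ℓ * d := by
  by_cases hl : ℓ ∣ d'
  · obtain ⟨d, rfl⟩ := hl
    right
    refine ⟨d, ?_, rfl⟩
    rw [mul_comm N ℓ] at h
    exact (Nat.mul_dvd_mul_iff_left hℓ.pos).mp h
  · left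
    have hco : Nat.Coprime d' ℓ := (Nat.Prime.coprime_iff_not_dvd hℓ).mpr hl |>.symm
    exact hco.dvd_of_dvd_mul_right h

variable {ℓ} in
/-- The expansion `x (u ^ N)` of every element of `F_{N ℓ}` is the expansion of an element of
`LN (N ℓ)`. -/
theorem rhoSer_mem_range (hℓ : ℓ.Prime) (x : FN (N * ℓ)) :
    rhoSer N ℓ x ∈ (UL (N * ℓ)).fieldRange := by
  have hM : IntermediateField.comap (rhoSer N ℓ) (UL (N * ℓ)).fieldRange = ⊤ := by
    rw [eq_top_iff, ← adjoin_jdF (N * ℓ), IntermediateField.adjoin_le_iff]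
    rintro _ ⟨d', hd0, hd', rfl⟩
    show rhoSer N ℓ (jdF (N * ℓ) d' hd') ∈ (UL (N * ℓ)).fieldRange
    rcases dvd_mul_prime_cases hℓ hd' with hdN | ⟨d, hdN, rfl⟩
    · exact ⟨_, (rhoSer_jdF_of_dvd N ℓ d' hdN).symm⟩
    · have : NeZero d := ⟨fun h0 => NeZero.ne (ℓ * d) (by rw [h0, mul_zero])⟩
      exact ⟨_, (rhoSer_jdF_mul N ℓ d hdN).symm⟩
  have : x ∈ IntermediateField.comap (rhoSer N ℓ) (UL (N * ℓ)).fieldRange := by
    rw [hM]; exact IntermediateField.mem_top
  exact this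

variable {ℓ} in
theorem rhoSer_mem_range' (hℓ : ℓ.Prime) (x : FN (N * ℓ)) :
    rhoSer N ℓ x ∈ (UL (N * ℓ)).range := by
  obtain ⟨y, hy⟩ := rhoSer_mem_range N hℓ x
  exact ⟨y, hy⟩

variable {ℓ} in
/-- The embedding `h ↦ h (τ / ℓ)` of `F_{N ℓ}` into the Galois closure. -/
def rho (hℓ : ℓ.Prime) : FN (N * ℓ) →ₐ[Kbar] LN (N * ℓ) :=
  ((AlgEquiv.ofInjective (UL (N * ℓ)) (UL_injective (N * ℓ))).symm :
      (UL (N * ℓ)).range →ₐ[Kbar] LN (N * ℓ)).comp
    ((rhoSer N ℓ).codRestrict (UL (N * ℓ)).range (rhoSer_mem_range' N hℓ))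

variable {ℓ} in
theorem UL_rho (hℓ : ℓ.Prime) (x : FN (N * ℓ)) :
    UL (N * ℓ) (rho N hℓ x) = qExpand Kbar N (x : LaurentSeries Kbar) := by
  have h := (AlgEquiv.ofInjective (UL (N * ℓ)) (UL_injective (N * ℓ))).apply_symm_apply
    ((rhoSer N ℓ).codRestrict (UL (N * ℓ)).range (rhoSer_mem_range' N hℓ) x)
  exact congrArg Subtype.val h

variable {ℓ} in
theorem rho_jdF_of_dvd (hℓ : ℓ.Prime) (d : ℕ) [NeZero d] (hdN : d ∣ N) :
    rho N hℓ (jdF (N * ℓ) d (dvd_mul_of_dvd_left hdN ℓ))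
      = algebraMap (AT (N * ℓ)) (LN (N * ℓ))
          (toAT (N * ℓ) (xdA N ℓ d (NeZero.pos d) hdN)) := by
  apply UL_injective (N * ℓ)
  rw [UL_rho, ← rhoSer_apply, rhoSer_jdF_of_dvd N ℓ d hdN]

variable {ℓ} in
theorem rho_jdF_mul (hℓ : ℓ.Prime) (d : ℕ) [NeZero d] (hdN : d ∣ N) :
    rho N hℓ (jdF (N * ℓ) (ℓ * d) (by rw [mul_comm ℓ d]; exact Nat.mul_dvd_mul_right hdN ℓ))
      = algebraMap (AT (N * ℓ)) (LN (N * ℓ)) (toAT (N * ℓ) (jdA (N * ℓ) d)) := by
  apply UL_injective (N * ℓ)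
  rw [UL_rho, ← rhoSer_apply, rhoSer_jdF_mul N ℓ d hdN]

variable {ℓ} in
/-- `ρ ∘ β = φ ∘ α`. -/
theorem rho_beta (hℓ : ℓ.Prime) (g : FN N) :
    rho N hℓ (heckeBetaBar Kbar N ℓ g) = phi (N * ℓ) (heckeAlphaBar Kbar N ℓ g) := by
  apply UL_injective (N * ℓ)
  rw [UL_rho, UL_phi, qN_apply, coe_heckeBetaBar, coe_heckeAlphaBar, qExpand_qExpand]

end Fermat.Agent.RED.H95

end
end
-- ==== END Fermat.Agent.RED.ES.H95_Rho

-- ==== BEGIN Fermat.Agent.RED.H17_TIabs
section
attribute [local instance 10000] SubalgebraClass.toAlgebra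
attribute [local instance 10000] HahnSeries.powerSeriesAlgebra

/-!
# G-RED package TI-abs (helper17, route C): `Stmt_TIabs`

A Deuring reduction datum (`HasDR`: the reduced field is a function field, and there is a map `r`
of places with the conservation law `IsRed` such that the genus does not drop, `GenusLE`) gives
the Kummer form of torsion injectivity `TIcoreFor`.

Proof: `Fermat.Agent.RED.H17.RedSetup.ticore` (non-special divisor, coordinates on residue
discs, first order congruence), applied to the reduction data of the Gauss valuation.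
-/

set_option autoImplicit false
set_option linter.style.haveILetI false
set_option synthInstance.maxHeartbeats 400000
set_option maxHeartbeats 1000000

noncomputable section

open AlgebraicCurve ModularCurve Fermat.Agent.S28.H73 Fermat.Agent.RED.H73

namespace Fermat.Agent.RED.H17

section Bridge

variable {C : Type} [Field C] (O : ValuationSubring C)
variable {F : IntermediateField C (LaurentSeries C)} (h : HasScale O F)

theorem gaussResF'_eq_zero_iff (x : ↥(gaussValSub O F h)) :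
    gaussResF' O h x = 0 ↔ x ∈ IsLocalRing.maximalIdeal ↥(gaussValSub O F h) := by
  rw [← ker_gaussResF' O h, RingHom.mem_ker]

theorem gaussResF'_ne_zero_iff_isUnit (x : ↥(gaussValSub O F h)) :
    gaussResF' O h x ≠ 0 ↔ IsUnit x := by
  rw [Ne, gaussResF'_eq_zero_iff, IsLocalRing.mem_maximalIdeal, mem_nonunits_iff, not_not]

theorem gaussResF'_algebraMap (a : ↥O)
    (hm : algebraMap C F (a : C) ∈ gaussValSub O F h) :
    gaussResF' O h ⟨algebraMap C F (a : C), hm⟩ =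
      algebraMap (kV O) ↥(redField O F h) (resV O a) := by
  apply Subtype.ext
  rw [coe_algebraMap_F]
  exact gaussResF_algebraMap O h a hm

/-- The reduction data of a map of places with the conservation law. -/
def redSetupOf (r : Place C ↥F → Place (kV O) ↥(redField O F h)) (hr : IsRed O h r) :
    RedSetup C ↥F (kV O) ↥(redField O F h) where
  V := gaussValSub O F h
  red := gaussResF' O h
  red_eq_zero_iff := gaussResF'_eq_zero_iff O h
  red_surj := gaussResF'_surjective O h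
  exists_scale := by
    intro f hf
    obtain ⟨c, u, hc, hfu⟩ := exists_unit_scale O h f hf
    refine ⟨c⁻¹, inv_ne_zero hc, ?_⟩
    have e : algebraMap C F c⁻¹ * f = ((u : ↥(gaussValSub O F h)) : F) := by
      rw [hfu, ← mul_assoc, ← map_mul, inv_mul_cancel₀ hc, map_one, one_mul]
    have hmem : algebraMap C F c⁻¹ * f ∈ gaussValSub O F h := e ▸ (u : ↥(gaussValSub O F h)).2
    refine ⟨hmem, ?_⟩
    have e2 : (⟨_, hmem⟩ : ↥(gaussValSub O F h)) = u := Subtype.ext e
    rw [e2]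
    exact (gaussResF'_ne_zero_iff_isUnit O h _).mpr u.isUnit
  red_const := by
    intro c hmem
    have hc : c ∈ O := (algebraMap_mem_gaussValSub_iff O h c).mp hmem
    exact ⟨resV O ⟨c, hc⟩, gaussResF'_algebraMap O h ⟨c, hc⟩ hmem⟩
  const_surj := by
    intro c'
    obtain ⟨a, rfl⟩ := IsLocalRing.residue_surjective c'
    have hmem : algebraMap C F (a : C) ∈ gaussValSub O F h :=
      (algebraMap_mem_gaussValSub_iff O h _).mpr a.2
    exact ⟨(a : C), hmem, gaussResF'_algebraMap O h a hmem⟩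
  r := r
  DI := fun u hu D hD Q => hr u ((gaussResF'_ne_zero_iff_isUnit O h u).mp hu) D hD Q

end Bridge

/-- The hypotheses on a function field, from the interface statements. -/
theorem ffHyp_of (h1 : Stmt_FFB_principal) (h2 : Stmt_FFB_deg) (h3 : Stmt_FFR_finite)
    (h4 : Stmt_FFR_le) (K F : Type) [Field K] [Field F] [Algebra K F] [IsAlgClosed K]
    (hFF : IsFF K F) : FFHyp K F where
  principal := h1 K F hFF
  deg_one := h2 K F hFF
  finite := h3 K F hFF
  le := fun D => (h4 K F hFF D).2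
  transc := by
    obtain ⟨x, hx, -⟩ := hFF
    exact ⟨x, hx⟩

/-- **Package TI-abs** (route C). -/
theorem stmt_TIabs : Stmt_TIabs := by
  intro h1 h2 h3 h4 h5 C _ _ O _ F h ℓ hℓ hℓ0 hFF hDR m hm f hf1 hdiv
  obtain ⟨hFF', r, hr, hG⟩ := hDR
  have H : FFHyp C ↥F := ffHyp_of h1 h2 h3 h4 C ↥F hFF
  have H' : FFHyp (kV O) ↥(redField O F h) := ffHyp_of h1 h2 h3 h4 _ _ hFF'
  obtain ⟨g, c, hR⟩ := h5 C ↥F hFF
  obtain ⟨g', c', hR'⟩ := h5 (kV O) ↥(redField O F h) hFF'
  have hmk : (m : kV O) ≠ 0 := by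
    intro h0
    have hcop : Nat.Coprime m ℓ :=
      Nat.Coprime.symm ((Nat.Prime.coprime_iff_not_dvd hℓ).mpr hm)
    obtain ⟨a, b, hab⟩ := Nat.isCoprime_iff_coprime.mpr hcop
    have := congrArg (Int.cast : ℤ → kV O) hab
    push_cast at this
    rw [h0, hℓ0, mul_zero, mul_zero, add_zero] at this
    exact zero_ne_one this
  set S := redSetupOf O h r hr with hS
  have hrd : S.rd (f : ↥F) = 1 := by
    rw [S.rd_of_mem f.2]
    exact hf1
  exact S.ticore H H' hR hR' hG m hmk (f : ↥F) f.2 hrd hdiv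

end Fermat.Agent.RED.H17

end
end
-- ==== END Fermat.Agent.RED.H17_TIabs

-- ==== BEGIN Fermat.Agent.RED.H33_UniGal
section
attribute [local instance 10000] SubalgebraClass.toAlgebra
attribute [local instance 10000] HahnSeries.powerSeriesAlgebra

/-!
# G-RED package UNI, part 2 (helper33): Galois equivariance of the Deuring reduction map

`s : C ≃+* C` a ring automorphism preserving the valuation ring `O`.  It induces
`autO`, `autk` on `O` and on the residue field `k`, and acts on `C((q))`, `k((q))` through the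
coefficients; the Gauss ring and its reduction map are compatible with these actions
(`coeffMap_mem_gaussRingV`, `gaussRedV_coeffMap`).  For a field `F ⊆ C((q))` stable under `s` and
`s⁻¹` this gives a semilinear automorphism `redSemi` of the reduced field `F~`, and

* `isRed_coeffAut` : `r (g • P) = redSemi • r P` for every `r` with the conservation law;
* `isRed_decomposition`, `isRed_inertia` : the case of the arithmetic Galois action of the
  decomposition / inertia group of `A` on `F = laurentBaseChange L F₀`.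
-/

set_option autoImplicit false
set_option linter.style.haveILetI false
set_option linter.unusedSectionVars false
set_option linter.unusedVariables false
set_option synthInstance.maxHeartbeats 400000
set_option maxHeartbeats 1000000

noncomputable section

open AlgebraicCurve ModularCurve Fermat.Agent.S28 Fermat.Agent.S28.H73 Fermat.Agent.RED.H73

namespace Fermat.Agent.RED.H33

section CoeffAut

variable {C : Type} [Field C] (O : ValuationSubring C)

/-- The automorphism of `O` induced by `s`. -/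
def autO (s : C ≃+* C) (hs : ∀ a : C, s a ∈ O ↔ a ∈ O) : ↥O ≃+* ↥O where
  toFun a := ⟨s (a : C), (hs a).mpr a.2⟩
  invFun a := ⟨s.symm (a : C), by
    have := (hs (s.symm (a : C))).mp
    rw [RingEquiv.apply_symm_apply] at this
    exact this a.2⟩
  left_inv a := Subtype.ext (s.symm_apply_apply (a : C))
  right_inv a := Subtype.ext (s.apply_symm_apply (a : C))
  map_mul' a b := Subtype.ext (map_mul s (a : C) (b : C))
  map_add' a b := Subtype.ext (map_add s (a : C) (b : C))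

@[simp]
theorem coe_autO (s : C ≃+* C) (hs : ∀ a : C, s a ∈ O ↔ a ∈ O) (a : ↥O) :
    ((autO O s hs a : ↥O) : C) = s (a : C) := rfl

/-- The automorphism of the residue field induced by `s`, as a ring homomorphism. -/
def autkHom (s : C ≃+* C) (hs : ∀ a : C, s a ∈ O ↔ a ∈ O) : kV O →+* kV O :=
  (IsLocalRing.ResidueField.mapEquiv (autO O s hs) : kV O →+* kV O)

theorem autkHom_residue (s : C ≃+* C) (hs : ∀ a : C, s a ∈ O ↔ a ∈ O) (a : ↥O) :
    autkHom O s hs (resV O a) = resV O (autO O s hs a) := by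
  show IsLocalRing.ResidueField.mapEquiv (autO O s hs) (IsLocalRing.residue _ a) = _
  rw [IsLocalRing.ResidueField.mapEquiv_apply]
  exact IsLocalRing.ResidueField.map_residue _ a

theorem autkHom_injective (s : C ≃+* C) (hs : ∀ a : C, s a ∈ O ↔ a ∈ O) :
    Function.Injective (autkHom O s hs) :=
  (autkHom O s hs).injective

theorem coeffMap_iotaV (s : C ≃+* C) (hs : ∀ a : C, s a ∈ O ↔ a ∈ O) (g : LaurentSeries ↥O) :
    coeffMap (s : C →+* C) (iotaV O g) = iotaV O (coeffMap (autO O s hs : ↥O →+* ↥O) g) := by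
  ext n
  rfl

theorem redV_coeffMap (s : C ≃+* C) (hs : ∀ a : C, s a ∈ O ↔ a ∈ O) (g : LaurentSeries ↥O) :
    redV O (coeffMap (autO O s hs : ↥O →+* ↥O) g) = coeffMap (autkHom O s hs) (redV O g) := by
  ext n
  simp only [redV_coeff, coeffMap_coeff, RingHom.coe_coe]
  exact (autkHom_residue O s hs _).symm

theorem coeffMap_injective' {R S : Type*} [CommRing R] [CommRing S] (f : R →+* S)
    (hf : Function.Injective f) : Function.Injective (coeffMap f) := by
  intro x y hxy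
  ext n
  have := congrArg (fun z : LaurentSeries S => z.coeff n) hxy
  exact hf (by simpa using this)

theorem redV_coeffMap_ne_zero (s : C ≃+* C) (hs : ∀ a : C, s a ∈ O ↔ a ∈ O)
    {g : LaurentSeries ↥O} (hg : redV O g ≠ 0) :
    redV O (coeffMap (autO O s hs : ↥O →+* ↥O) g) ≠ 0 := by
  rw [redV_coeffMap]
  intro h0
  apply hg
  have h1 : coeffMap (autkHom O s hs) (redV O g) = coeffMap (autkHom O s hs) 0 := by
    rw [h0, map_zero]
  exact coeffMap_injective' _ (autkHom_injective O s hs) h1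

/-- The Gauss ring is stable under the coefficientwise action of `s`. -/
theorem coeffMap_mem_gaussRingV (s : C ≃+* C) (hs : ∀ a : C, s a ∈ O ↔ a ∈ O)
    {x : LaurentSeries C} (hx : x ∈ gaussRingV O) :
    coeffMap (s : C →+* C) x ∈ gaussRingV O := by
  obtain ⟨g, h, hg, hgx⟩ := hx
  refine ⟨coeffMap (autO O s hs : ↥O →+* ↥O) g, coeffMap (autO O s hs : ↥O →+* ↥O) h,
    redV_coeffMap_ne_zero O s hs hg, ?_⟩
  rw [← coeffMap_iotaV, ← coeffMap_iotaV, ← map_mul, hgx]

/-- The reduction map of the Gauss ring commutes with the coefficientwise action of `s`. -/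
theorem gaussRedV_coeffMap (s : C ≃+* C) (hs : ∀ a : C, s a ∈ O ↔ a ∈ O)
    {x : LaurentSeries C} (hx : x ∈ gaussRingV O) :
    gaussRedV O ⟨coeffMap (s : C →+* C) x, coeffMap_mem_gaussRingV O s hs hx⟩ =
      coeffMap (autkHom O s hs) (gaussRedV O ⟨x, hx⟩) := by
  have hx' := hx
  obtain ⟨g, h, hg, hgx⟩ := hx'
  have hg' := redV_coeffMap_ne_zero O s hs hg
  have hgx' : iotaV O (coeffMap (autO O s hs : ↥O →+* ↥O) g) * coeffMap (s : C →+* C) x =
      iotaV O (coeffMap (autO O s hs : ↥O →+* ↥O) h) := by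
    rw [← coeffMap_iotaV, ← coeffMap_iotaV, ← map_mul, hgx]
  have e1 := gaussRedV_eq O ⟨coeffMap (s : C →+* C) x, coeffMap_mem_gaussRingV O s hs hx⟩ hg' hgx'
  have e2 := gaussRedV_eq O ⟨x, hx⟩ hg hgx
  rw [e1, e2, redV_coeffMap, redV_coeffMap, map_div₀]

theorem hs_symm (s : C ≃+* C) (hs : ∀ a : C, s a ∈ O ↔ a ∈ O) :
    ∀ a : C, s.symm a ∈ O ↔ a ∈ O := fun a => by
  have := hs (s.symm a)
  rw [RingEquiv.apply_symm_apply] at this
  exact this.symm

theorem coeffMap_symm_coeffMap (s : C ≃+* C) (x : LaurentSeries C) :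
    coeffMap (s : C →+* C) (coeffMap (s.symm : C →+* C) x) = x := by
  ext n
  simp

end CoeffAut

section RedSemi

variable {C : Type} [Field C] (O : ValuationSubring C)
variable {F : IntermediateField C (LaurentSeries C)} (h : HasScale O F)

/-- The action of `s` on the Gauss valuation ring of `F`. -/
def gaussAct (s : C ≃+* C) (hs : ∀ a : C, s a ∈ O ↔ a ∈ O)
    (hF : ∀ x : LaurentSeries C, x ∈ F → coeffMap (s : C →+* C) x ∈ F)
    (x : ↥(gaussValSub O F h)) : ↥(gaussValSub O F h) :=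
  ⟨⟨coeffMap (s : C →+* C) ((x : ↥F) : LaurentSeries C), hF _ (x : ↥F).2⟩,
    coeffMap_mem_gaussRingV O s hs x.2⟩

theorem gaussResF_gaussAct (s : C ≃+* C) (hs : ∀ a : C, s a ∈ O ↔ a ∈ O)
    (hF : ∀ x : LaurentSeries C, x ∈ F → coeffMap (s : C →+* C) x ∈ F)
    (x : ↥(gaussValSub O F h)) :
    gaussResF O h (gaussAct O h s hs hF x) = coeffMap (autkHom O s hs) (gaussResF O h x) :=
  gaussRedV_coeffMap O s hs x.2

theorem coeffMap_autk_mem_redField (s : C ≃+* C) (hs : ∀ a : C, s a ∈ O ↔ a ∈ O)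
    (hF : ∀ x : LaurentSeries C, x ∈ F → coeffMap (s : C →+* C) x ∈ F)
    {y : LaurentSeries (kV O)} (hy : y ∈ redField O F h) :
    coeffMap (autkHom O s hs) y ∈ redField O F h := by
  obtain ⟨x, rfl⟩ := hy
  exact ⟨gaussAct O h s hs hF x, gaussResF_gaussAct O h s hs hF x⟩

/-- The ring homomorphism of the reduced field induced by `s`. -/
def redHom (s : C ≃+* C) (hs : ∀ a : C, s a ∈ O ↔ a ∈ O)
    (hF : ∀ x : LaurentSeries C, x ∈ F → coeffMap (s : C →+* C) x ∈ F) :
    ↥(redField O F h) →+* ↥(redField O F h) where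
  toFun y := ⟨coeffMap (autkHom O s hs) (y : LaurentSeries (kV O)),
    coeffMap_autk_mem_redField O h s hs hF y.2⟩
  map_one' := Subtype.ext (by simp)
  map_mul' a b := Subtype.ext (by simp)
  map_zero' := Subtype.ext (by simp)
  map_add' a b := Subtype.ext (by simp)

theorem redHom_surjective (s : C ≃+* C) (hs : ∀ a : C, s a ∈ O ↔ a ∈ O)
    (hF : ∀ x : LaurentSeries C, x ∈ F → coeffMap (s : C →+* C) x ∈ F)
    (hF' : ∀ x : LaurentSeries C, x ∈ F → coeffMap (s.symm : C →+* C) x ∈ F) :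
    Function.Surjective (redHom O h s hs hF) := by
  rintro ⟨y, x, rfl⟩
  let x' : ↥(gaussValSub O F h) := gaussAct O h s.symm (hs_symm O s hs) hF' x
  refine ⟨⟨gaussResF O h x', gaussResF_mem_redField O h x'⟩, Subtype.ext ?_⟩
  show coeffMap (autkHom O s hs) (gaussResF O h x') = gaussResF O h x
  rw [← gaussResF_gaussAct O h s hs hF x']
  congr 1
  apply Subtype.ext
  apply Subtype.ext
  exact coeffMap_symm_coeffMap s _

/-- The ring automorphism of the reduced field induced by `s`. -/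
def redAut (s : C ≃+* C) (hs : ∀ a : C, s a ∈ O ↔ a ∈ O)
    (hF : ∀ x : LaurentSeries C, x ∈ F → coeffMap (s : C →+* C) x ∈ F)
    (hF' : ∀ x : LaurentSeries C, x ∈ F → coeffMap (s.symm : C →+* C) x ∈ F) :
    ↥(redField O F h) ≃+* ↥(redField O F h) :=
  RingEquiv.ofBijective (redHom O h s hs hF)
    ⟨(redHom O h s hs hF).injective, redHom_surjective O h s hs hF hF'⟩

/-- The semilinear automorphism of the reduced field `F~ / k` induced by `s`. -/
def redSemi (s : C ≃+* C) (hs : ∀ a : C, s a ∈ O ↔ a ∈ O)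
    (hF : ∀ x : LaurentSeries C, x ∈ F → coeffMap (s : C →+* C) x ∈ F)
    (hF' : ∀ x : LaurentSeries C, x ∈ F → coeffMap (s.symm : C →+* C) x ∈ F) :
    SemilinearAut (kV O) ↥(redField O F h) :=
  ⟨(redAut O h s hs hF hF', IsLocalRing.ResidueField.mapEquiv (autO O s hs)), fun a => by
    apply Subtype.ext
    show coeffMap (autkHom O s hs) (algebraMap (kV O) (LaurentSeries (kV O)) a) = _
    exact coeffMap_algebraMap (autkHom O s hs) a⟩

theorem coe_redSemi_smul (s : C ≃+* C) (hs : ∀ a : C, s a ∈ O ↔ a ∈ O)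
    (hF : ∀ x : LaurentSeries C, x ∈ F → coeffMap (s : C →+* C) x ∈ F)
    (hF' : ∀ x : LaurentSeries C, x ∈ F → coeffMap (s.symm : C →+* C) x ∈ F)
    (y : ↥(redField O F h)) :
    ((redSemi O h s hs hF hF' • y : ↥(redField O F h)) : LaurentSeries (kV O)) =
      coeffMap (autkHom O s hs) (y : LaurentSeries (kV O)) := rfl

theorem redSemi_eq_one (s : C ≃+* C) (hs : ∀ a : C, s a ∈ O ↔ a ∈ O)
    (hF : ∀ x : LaurentSeries C, x ∈ F → coeffMap (s : C →+* C) x ∈ F)
    (hF' : ∀ x : LaurentSeries C, x ∈ F → coeffMap (s.symm : C →+* C) x ∈ F)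
    (hk : ∀ a : kV O, autkHom O s hs a = a) : redSemi O h s hs hF hF' = 1 := by
  apply Subtype.ext
  refine Prod.ext (RingEquiv.ext fun y => Subtype.ext ?_) (RingEquiv.ext fun a => hk a)
  show coeffMap (autkHom O s hs) (y : LaurentSeries (kV O)) = _
  ext n
  exact hk _

variable [IsAlgClosed C] [IsAlgClosed (kV O)]

/-- **EQ for coefficient automorphisms.** -/
theorem isRed_coeffAut (hFF : IsFF C ↥F) (hFt : IsFF (kV O) ↥(redField O F h))
    (hscal : H42.FracScalable O F)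
    (s : C ≃+* C) (hs : ∀ a : C, s a ∈ O ↔ a ∈ O)
    (hF : ∀ x : LaurentSeries C, x ∈ F → coeffMap (s : C →+* C) x ∈ F)
    (hF' : ∀ x : LaurentSeries C, x ∈ F → coeffMap (s.symm : C →+* C) x ∈ F)
    (g : SemilinearAut C ↥F)
    (hg : ∀ x : ↥F, ((g • x : ↥F) : LaurentSeries C) = coeffMap (s : C →+* C) (x : LaurentSeries C))
    {r : Place C ↥F → Place (kV O) ↥(redField O F h)} (hr : IsRed O h r) (P : Place C ↥F) :
    r (g • P) = redSemi O h s hs hF hF' • r P := by
  refine isRed_equivariant O h hFF hFt hscal g (redSemi O h s hs hF hF') (fun f => ?_) hr P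
  have e : g • (f : ↥F) = ((gaussAct O h s hs hF f : ↥(gaussValSub O F h)) : ↥F) :=
    Subtype.ext (hg _)
  have hmem : g • (f : ↥F) ∈ gaussValSub O F h := by
    rw [e]; exact Subtype.mem _
  refine ⟨hmem, ?_⟩
  have e2 : (⟨g • (f : ↥F), hmem⟩ : ↥(gaussValSub O F h)) = gaussAct O h s hs hF f :=
    Subtype.ext e
  rw [e2]
  apply Subtype.ext
  exact gaussResF_gaussAct O h s hs hF f

end RedSemi

section Galois

variable {L : Type} [Field L] [Algebra ℚ L] (A : ValuationSubring L)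
variable (F₀ : IntermediateField ℚ (LaurentSeries ℚ)) (h : HasScale A (laurentBaseChange L F₀))

theorem mem_iff_of_mem_decompositionSubgroup {σ : L ≃ₐ[ℚ] L}
    (hσ : σ ∈ A.decompositionSubgroup ℚ) (a : L) : σ.toRingEquiv a ∈ A ↔ a ∈ A :=
  (Fermat.Agent.Lib.InertiaBridge.mem_decompositionSubgroup_iff_forall A σ).mp hσ a

theorem coeffMap_toRingEquiv_mem (σ : L ≃ₐ[ℚ] L) (x : LaurentSeries L)
    (hx : x ∈ laurentBaseChange L F₀) :
    coeffMap (σ.toRingEquiv : L →+* L) x ∈ laurentBaseChange L F₀ :=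
  coeffMap_mem_laurentBaseChange σ hx

theorem coeffMap_toRingEquiv_symm_mem (σ : L ≃ₐ[ℚ] L) (x : LaurentSeries L)
    (hx : x ∈ laurentBaseChange L F₀) :
    coeffMap (σ.toRingEquiv.symm : L →+* L) x ∈ laurentBaseChange L F₀ :=
  coeffMap_mem_laurentBaseChange σ.symm hx

/-- The semilinear automorphism of the reduced field induced by an element of the decomposition
group of `A`: the action of `σ` mod `A` on the coefficients of `q`-expansions. -/
def redGalois (σ : L ≃ₐ[ℚ] L) (hσ : σ ∈ A.decompositionSubgroup ℚ) :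
    SemilinearAut (kV A) ↥(redField A (laurentBaseChange L F₀) h) :=
  redSemi A h σ.toRingEquiv (mem_iff_of_mem_decompositionSubgroup A hσ)
    (coeffMap_toRingEquiv_mem F₀ σ) (coeffMap_toRingEquiv_symm_mem F₀ σ)

theorem coe_redGalois_smul (σ : L ≃ₐ[ℚ] L) (hσ : σ ∈ A.decompositionSubgroup ℚ)
    (y : ↥(redField A (laurentBaseChange L F₀) h)) :
    ((redGalois A F₀ h σ hσ • y : ↥(redField A (laurentBaseChange L F₀) h)) :
        LaurentSeries (kV A)) =
      coeffMap (autkHom A σ.toRingEquiv (mem_iff_of_mem_decompositionSubgroup A hσ))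
        (y : LaurentSeries (kV A)) := rfl

/-- The automorphism of the residue field induced by `σ` is the action of the decomposition
group. -/
theorem autkHom_eq_smul (σ : L ≃ₐ[ℚ] L) (hσ : σ ∈ A.decompositionSubgroup ℚ) (a : kV A) :
    autkHom A σ.toRingEquiv (mem_iff_of_mem_decompositionSubgroup A hσ) a =
      (⟨σ, hσ⟩ : A.decompositionSubgroup ℚ) • a := by
  obtain ⟨b, rfl⟩ := IsLocalRing.residue_surjective a
  rw [autkHom_residue, ← IsLocalRing.ResidueField.residue_smul]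
  rfl

theorem autkHom_frobenius {σ : L ≃ₐ[ℚ] L} {q : ℕ} (hσ : A.IsFrobeniusAt σ q) (a : kV A) :
    autkHom A σ.toRingEquiv
      (mem_iff_of_mem_decompositionSubgroup A hσ.mem_decompositionSubgroup) a = a ^ q := by
  rw [autkHom_eq_smul A σ hσ.mem_decompositionSubgroup]
  exact hσ.smul_residue_eq a

theorem autkHom_inertia {τ : L ≃ₐ[ℚ] L} (hτ : τ ∈ A.inertiaSubgroupIn ℚ)
    (hdec : τ ∈ A.decompositionSubgroup ℚ) (a : kV A) :
    autkHom A τ.toRingEquiv (mem_iff_of_mem_decompositionSubgroup A hdec) a = a := by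
  rw [autkHom_eq_smul A τ hdec]
  obtain ⟨g, hg, hgτ⟩ := hτ
  have hg' : g = ⟨τ, hdec⟩ := Subtype.ext hgτ
  rw [← hg']
  have := MonoidHom.mem_ker.mp hg
  exact congrArg (fun e : RingAut (IsLocalRing.ResidueField A) => e a) this

variable [IsAlgClosed L] [IsAlgClosed (kV A)]

/-- **EQ for the decomposition group**: `r (σ P) = σ~ (r P)`. -/
theorem isRed_decomposition (hFF : IsFF L ↥(laurentBaseChange L F₀))
    (hFt : IsFF (kV A) ↥(redField A (laurentBaseChange L F₀) h))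
    (hscal : H42.FracScalable A (laurentBaseChange L F₀))
    {σ : L ≃ₐ[ℚ] L} (hσ : σ ∈ A.decompositionSubgroup ℚ)
    {r : Place L ↥(laurentBaseChange L F₀) →
      Place (kV A) ↥(redField A (laurentBaseChange L F₀) h)}
    (hr : IsRed A h r) (P : Place L ↥(laurentBaseChange L F₀)) :
    r (arithmeticGalois F₀ σ • P) = redGalois A F₀ h σ hσ • r P :=
  isRed_coeffAut A h hFF hFt hscal σ.toRingEquiv (mem_iff_of_mem_decompositionSubgroup A hσ)
    (coeffMap_toRingEquiv_mem F₀ σ) (coeffMap_toRingEquiv_symm_mem F₀ σ)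
    (arithmeticGalois F₀ σ) (fun _ => rfl) hr P

/-- **(R2)**: the Deuring reduction of places is invariant under inertia. -/
theorem isRed_inertia (hFF : IsFF L ↥(laurentBaseChange L F₀))
    (hFt : IsFF (kV A) ↥(redField A (laurentBaseChange L F₀) h))
    (hscal : H42.FracScalable A (laurentBaseChange L F₀))
    {τ : L ≃ₐ[ℚ] L} (hτ : τ ∈ A.inertiaSubgroupIn ℚ)
    {r : Place L ↥(laurentBaseChange L F₀) →
      Place (kV A) ↥(redField A (laurentBaseChange L F₀) h)}
    (hr : IsRed A h r) (P : Place L ↥(laurentBaseChange L F₀)) :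
    r (arithmeticGalois F₀ τ • P) = r P := by
  have hdec : τ ∈ A.decompositionSubgroup ℚ := by
    obtain ⟨g, -, rfl⟩ := hτ
    exact g.2
  rw [isRed_decomposition A F₀ h hFF hFt hscal hdec hr P]
  have h1 : redGalois A F₀ h τ hdec = 1 :=
    redSemi_eq_one A h _ _ _ _ (autkHom_inertia A hτ hdec)
  rw [h1, one_smul]

end Galois

end Fermat.Agent.RED.H33

end
end
-- ==== END Fermat.Agent.RED.H33_UniGal
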