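-- GENERATED (merged mirror, NOTES/tools/trim/merge3_helper67.py): 8 modules of the originals, bodies verbatim.
import Mathlib
import Fermat.Agent.Zm.S35_L08_001
import Fermat.Agent.Zm.S35_L08_002
import Fermat.Agent.Zm.S35_L02_003
import Fermat.Agent.Zm.S35_L08_003
import Fermat.Agent.Zm.S35_L03_003
import Fermat.Agent.Zm.S35_L08_004

-- ==== BEGIN Fermat.Agent.BAD.H28_KeyStmt
section

/-!
# Item 65, package ABS (helper28): statement of the nodal key lemma (part of P5)

`Stmt_KeyNodal` is the two-valuation version of helper17's `RedSetup.key`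
(`RED/H17_Key.lean`).  `Stmt_TIss` follows from `Stmt_NodalNS`, `Stmt_Coords`, `Stmt_Contain0`
and `Stmt_KeyNodal` as `RedSetup.ticore` follows from `RedSetup.key` (`RED/H17_Main.lean`).
-/

set_option autoImplicit false

noncomputable section

open AlgebraicCurve

namespace Fermat.Agent.BAD

open Fermat.Agent.RED.H17 Fermat.Agent.RED

local notation "L" => riemannRochSpace

namespace SSD

variable {K F k F₁ F₂ : Type*} [Field K] [Field F] [Algebra K F] [Field k] [Field F₁]
  [Algebra k F₁] [Field F₂] [Algebra k F₂] (S : SSD K F k F₁ F₂)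

/-- `s` is a coordinate on the residue disc of `Q ∈ A₁` adapted to `A₁`, `A₂`
(the shape of the output of `Stmt_Coords`). -/
def IsCoordA₁ (A₁ : Finset (Place k F₁)) (A₂ : Finset (Place k F₂)) (s : F)
    (Q : Place k F₁) : Prop :=
  S.c₁.IsCoord s Q ∧ S.c₂.IsGU s ∧
    (∀ Q' ∈ A₁, Q' ≠ Q → Q'.ord (S.c₁.rd s) = 0) ∧
    (∀ Q' ∈ A₂, Q'.ord (S.c₂.rd s) = 0) ∧
    (∀ P, ∀ Q' ∈ A₁, S.c₁.r P = some Q' → 0 ≤ P.ord s) ∧
    (∀ P, ∀ Q' ∈ A₂, S.c₂.r P = some Q' → 0 ≤ P.ord s) ∧
    ∀ P, S.IsNodeP P → P.ord s = 0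

/-- `s` is a coordinate on the residue disc of `Q ∈ A₂` adapted to `A₁`, `A₂`. -/
def IsCoordA₂ (A₁ : Finset (Place k F₁)) (A₂ : Finset (Place k F₂)) (s : F)
    (Q : Place k F₂) : Prop :=
  S.c₂.IsCoord s Q ∧ S.c₁.IsGU s ∧
    (∀ Q' ∈ A₂, Q' ≠ Q → Q'.ord (S.c₂.rd s) = 0) ∧
    (∀ Q' ∈ A₁, Q'.ord (S.c₁.rd s) = 0) ∧
    (∀ P, ∀ Q' ∈ A₁, S.c₁.r P = some Q' → 0 ≤ P.ord s) ∧
    (∀ P, ∀ Q' ∈ A₂, S.c₂.r P = some Q' → 0 ≤ P.ord s) ∧
    ∀ P, S.IsNodeP P → P.ord s = 0

/-- The pair `(A₁, A₂)` is non-special on the nodal curve: a glued pair of functions with at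
most simple poles on `A₁`, `A₂` is a constant. -/
def IsNS (A₁ : Finset (Place k F₁)) (A₂ : Finset (Place k F₂)) : Prop :=
  ∀ ψ₁ ∈ L (ptsDiv A₁), ∀ ψ₂ ∈ L (ptsDiv A₂),
    (∀ s ∈ S.nodes, ∃ a : k, VanAt s.1 (ψ₁ - algebraMap k F₁ a) ∧
      VanAt s.2 (ψ₂ - algebraMap k F₂ a)) →
    ∃ a : k, ψ₁ = algebraMap k F₁ a ∧ ψ₂ = algebraMap k F₂ a

end SSD

/-- **The nodal key lemma.**  `(A₁, A₂)` non-special, `s₁ Q`, `s₂ Q` coordinates on the residue
discs.  A function `f`, integral with reduction `1` for both valuations, with `f(P∞) = 1` at a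
place over a regular point of `C₁` outside `A₁`, regular outside the discs, whose divisor on the
disc of `Q` is `n (X_Q - Y_Q)` (`Y_Q` the zero of `s Q`, `X_Q` the zero of `s Q - a Q`), `n`
invertible in `k`, is `1`. -/
def Stmt_KeyNodal : Prop :=
  ∀ (K F k F₁ F₂ : Type) [Field K] [Field F] [Algebra K F] [Field k] [Field F₁]
    [Algebra k F₁] [Field F₂] [Algebra k F₂] [Infinite k]
    (S : SSD K F k F₁ F₂), FFHyp K F → FFHyp k F₁ → FFHyp k F₂ →
    ∀ (A₁ : Finset (Place k F₁)) (A₂ : Finset (Place k F₂)),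
      Disjoint A₁ S.br₁ → Disjoint A₂ S.br₂ → S.IsNS A₁ A₂ →
    ∀ (s₁ : Place k F₁ → F) (s₂ : Place k F₂ → F),
      (∀ Q ∈ A₁, S.IsCoordA₁ A₁ A₂ (s₁ Q) Q) → (∀ Q ∈ A₂, S.IsCoordA₂ A₁ A₂ (s₂ Q) Q) →
    ∀ (n : ℕ), (n : k) ≠ 0 →
    ∀ (f : F), f ∈ S.c₁.V → f ∈ S.c₂.V → S.c₁.rd f = 1 → S.c₂.rd f = 1 →
    ∀ (Pinf : Place K F) (Qinf : Place k F₁), Qinf ∈ S.c₁.good → Qinf ∉ A₁ →
      S.c₁.r Pinf = some Qinf → VanAt Pinf (f - 1) →
    ∀ (a₁ : Place k F₁ → K) (a₂ : Place k F₂ → K),
      (∀ Q ∈ A₁, algebraMap K F (a₁ Q) ∈ S.c₁.V ∧ S.c₁.rd (algebraMap K F (a₁ Q)) = 0) →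
      (∀ Q ∈ A₂, algebraMap K F (a₂ Q) ∈ S.c₂.V ∧ S.c₂.rd (algebraMap K F (a₂ Q)) = 0) →
      (∀ P, (∀ Q ∈ A₁, S.c₁.r P ≠ some Q) → (∀ Q ∈ A₂, S.c₂.r P ≠ some Q) → 0 ≤ P.ord f) →
      (∀ Q ∈ A₁, ∀ P, S.c₁.r P = some Q →
        P.ord f = n * (P.ord (s₁ Q - algebraMap K F (a₁ Q)) - P.ord (s₁ Q))) →
      (∀ Q ∈ A₂, ∀ P, S.c₂.r P = some Q →
        P.ord f = n * (P.ord (s₂ Q - algebraMap K F (a₂ Q)) - P.ord (s₂ Q))) →
      f = 1

end Fermat.Agent.BAD

end
end
-- ==== END Fermat.Agent.BAD.H28_KeyStmt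

-- ==== BEGIN Fermat.Agent.RED.H34_ChartNil
section

/-!
# G-RED package IG (helper34): the nilpotency lemma (NIL) of the chart theorem

`ρ ∈ O`, `γ` its residue.  If `v_i ∈ k[xt]` are such that the values of `f = ∑ v_i b_i` at all points
of `B` over `x = ρ` reduce to zero, then `(∑ v_i • red b_i) ^ n = (xt - γ) • z` with `z` integral
over `k[xt]`.
-/

set_option autoImplicit false

noncomputable section

open Polynomial IntermediateField Module Matrix
open scoped IntermediateField.algebraAdjoinAdjoin nonZeroDivisors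

namespace Fermat.Agent.RED.H34

variable {C F k Ft : Type} [Field C] [Field F] [Algebra C F] [Field k] [Field Ft] [Algebra k Ft]

theorem evAt_algebraMap {x : F} (hx : Transcendental C x) (ρ a : C) :
    evAt hx ρ (algebraMap C ↥(Algebra.adjoin C {x}) a) = a := by
  rw [← polyEquiv_C hx, evAt_polyEquiv, Polynomial.eval_C]

namespace RedSetting

variable {S : RedSetting C F k Ft} {x : F} (hx : x ∈ S.V)

/-- `x - ρ` as a unit of `V`, for `ρ ∈ O`. -/
theorem isUnit_psi_X_sub_C (hxt : Transcendental k (S.red ⟨x, hx⟩)) (ρ₀ : ↥S.O) :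
    IsUnit (psi hx (Polynomial.X - Polynomial.C ρ₀)) := by
  apply isUnit_psi hx hxt
  rw [Polynomial.map_sub, Polynomial.map_X, Polynomial.map_C]
  exact Polynomial.X_sub_C_ne_zero _

theorem coe_psi_X_sub_C (ρ₀ : ↥S.O) :
    ((psi hx (Polynomial.X - Polynomial.C ρ₀) : ↥S.V) : F) = x - algebraMap C F (ρ₀ : C) := by
  rw [coe_psi, Polynomial.map_sub, Polynomial.map_X, Polynomial.map_C, map_sub, Polynomial.aeval_X,
    Polynomial.aeval_C]
  rfl

theorem red_psi_X_sub_C (ρ₀ : ↥S.O) :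
    S.red (psi hx (Polynomial.X - Polynomial.C ρ₀)) =
      S.red ⟨x, hx⟩ - algebraMap k Ft (S.resO ρ₀) := by
  rw [red_psi, Polynomial.map_sub, Polynomial.map_X, Polynomial.map_C, map_sub, Polynomial.aeval_X,
    Polynomial.aeval_C]

variable [CharZero C] [IsAlgClosed C]

/-- **(NIL)** If the values of `f = ∑ v_i b_i` at all points over `x = ρ` reduce to `0`, then the
reduction of `f` is nilpotent modulo `xt - γ` in the integral closure. -/
theorem exists_pow_eq_smul (hxt : Transcendental k (S.red ⟨x, hx⟩)) [FiniteDimensional ↥C⟮x⟯ F]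
    (hdeg : Module.finrank ↥k⟮S.red ⟨x, hx⟩⟯ Ft = Module.finrank ↥C⟮x⟯ F)
    {m : ℕ} (bF : Fin m → F) (hbV : ∀ i, bF i ∈ S.V)
    (hbB : ∀ i, IsIntegral ↥(Algebra.adjoin C {x}) (bF i))
    (ρ : C) (hρ : ρ ∈ S.O) {r : ℕ} (pt : Fin r → Ideal ↥(Bx (C := C) x))
    (hpt : ∀ t, pt t ∈ ptsOver x ρ) (hall : ∀ P ∈ ptsOver x ρ, ∃ t, pt t = P)
    (v : Fin m → ↥(Algebra.adjoin k {S.red ⟨x, hx⟩}))
    (hv : ∀ t, piRho (S.red ⟨x, hx⟩) (S.resO ⟨ρ, hρ⟩) ∣
      ∑ i, algebraMap k ↥(Algebra.adjoin k {S.red ⟨x, hx⟩})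
        (S.resO ⟨evP (hpt t) ⟨bF i, hbB i⟩,
          evP_mem_O hx hxt hdeg hρ (hpt t) ⟨bF i, hbB i⟩ (hbV i)⟩) * v i) :
    ∃ (n : ℕ) (z : Ft), IsIntegral ↥(Algebra.adjoin k {S.red ⟨x, hx⟩}) z ∧
      (∑ i, v i • S.red ⟨bF i, hbV i⟩) ^ n = piRho (S.red ⟨x, hx⟩) (S.resO ⟨ρ, hρ⟩) • z := by
  classical
  have hxC := transcendental_x hx hxt
  set ρ₀ : ↥S.O := ⟨ρ, hρ⟩ with hρ₀
  set γ : k := S.resO ρ₀ with hγ
  -- lifts of the coefficients
  choose p hp using fun i => psiT_surjective hx (v i)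
  -- the element `f`
  set fB : ↥(Bx (C := C) x) :=
    ∑ i, algebraMap ↥(Algebra.adjoin C {x}) ↥(Bx (C := C) x) (S.psiR hxC (p i)) * ⟨bF i, hbB i⟩
    with hfB
  set fV : ↥S.V := ∑ i, psi hx (p i) * ⟨bF i, hbV i⟩ with hfV
  have hfBV : ((fB : ↥(Bx (C := C) x)) : F) = ((fV : ↥S.V) : F) := by
    rw [hfB, hfV, AddSubmonoidClass.coe_finsetSum, AddSubmonoidClass.coe_finsetSum]
    refine Finset.sum_congr rfl fun i _ => ?_
    show ((S.psiR hxC (p i) : ↥(Algebra.adjoin C {x})) : F) * bF i = ((psi hx (p i) : ↥S.V) : F) * bF i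
    rw [coe_psiR hx hxC]
  have hredf : S.red fV = ∑ i, v i • S.red ⟨bF i, hbV i⟩ := by
    rw [hfV, map_sum]
    refine Finset.sum_congr rfl fun i _ => ?_
    rw [map_mul, ← coe_psiT, hp i, Algebra.smul_def]
    rfl
  -- the values at the points
  set eO : Fin r → Fin m → ↥S.O := fun t i =>
    ⟨evP (hpt t) ⟨bF i, hbB i⟩, evP_mem_O hx hxt hdeg hρ (hpt t) ⟨bF i, hbB i⟩ (hbV i)⟩ with heO
  set cO : Fin r → ↥S.O := fun t => ∑ i, (p i).eval ρ₀ * eO t i with hcO
  have hc : ∀ t, evP (hpt t) fB = ((cO t : ↥S.O) : C) := by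
    intro t
    rw [hfB, map_sum, hcO]
    simp only [AddSubmonoidClass.coe_finsetSum]
    refine Finset.sum_congr rfl fun i _ => ?_
    rw [map_mul]
    have h1 := congrArg (fun φ : (↥S.O)[X] →+* C => φ (p i)) (evP_comp_psiR hxC hρ (hpt t))
    simp only [RingHom.comp_apply, Polynomial.coe_evalRingHom] at h1
    rw [h1]
    rfl
  have hcres : ∀ t, S.resO (cO t) = 0 := by
    intro t
    have h1 := (evAt_eq_zero_iff hxt γ _).2 (hv t)
    rw [map_sum] at h1
    rw [hcO, map_sum, ← h1]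
    refine Finset.sum_congr rfl fun i _ => ?_
    rw [map_mul, map_mul, evAt_algebraMap, ← hp i, psiT_eq hx hxt, evAt_polyEquiv,
      Polynomial.eval_map, mul_comm]
    congr 1
    rw [Polynomial.eval₂_hom]
  -- the product
  set w : ↥(Bx (C := C) x) := ∏ t, (fB - algebraMap C ↥(Bx (C := C) x) ((cO t : ↥S.O) : C)) with hw
  have hwP : ∀ P ∈ ptsOver x ρ, w ∈ P := by
    intro P hP
    obtain ⟨t, rfl⟩ := hall P hP
    refine Ideal.prod_mem _ (Finset.mem_univ t) ?_
    rw [← hc t]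
    exact sub_evP_mem (hpt t) fB
  obtain ⟨e, he⟩ := pow_mem_of_forall_mem w hwP
  obtain ⟨z₀, hz₀⟩ := Ideal.mem_span_singleton'.1 he
  set wV : ↥S.V := ∏ t, (fV - S.inclO (cO t)) with hwV
  have hwF : ((w : ↥(Bx (C := C) x)) : F) = ((wV : ↥S.V) : F) := by
    rw [hw, hwV, SubmonoidClass.coe_finsetProd, SubmonoidClass.coe_finsetProd]
    refine Finset.prod_congr rfl fun t _ => ?_
    show ((fB : ↥(Bx (C := C) x)) : F) - algebraMap C F ((cO t : ↥S.O) : C) = _
    rw [hfBV]
    rfl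
  have hredw : S.red wV = (S.red fV) ^ r := by
    rw [hwV, map_prod]
    have : ∀ t ∈ (Finset.univ : Finset (Fin r)), S.red (fV - S.inclO (cO t)) = S.red fV := by
      intro t _
      rw [map_sub, S.red_inclO, hcres t, map_zero, sub_zero]
    rw [Finset.prod_congr rfl this, Finset.prod_const, Finset.card_univ, Fintype.card_fin]
  -- the unit `x - ρ`
  have hu := isUnit_psi_X_sub_C hx hxt ρ₀
  set u : ↥S.V := psi hx (Polynomial.X - Polynomial.C ρ₀) with hudef
  have huF : ((u : ↥S.V) : F) = x - algebraMap C F ρ := coe_psi_X_sub_C hx ρ₀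
  have hkey : ((z₀ : ↥(Bx (C := C) x)) : F) * ((u : ↥S.V) : F) = ((wV : ↥S.V) : F) ^ e := by
    rw [← hwF, huF]
    have h1 : ((z₀ : ↥(Bx (C := C) x)) : F) * ((piRho x ρ : ↥(Algebra.adjoin C {x})) : F) =
        ((w : ↥(Bx (C := C) x)) : F) ^ e := by
      simpa using congrArg (fun b : ↥(Bx (C := C) x) => (b : F)) hz₀
    exact h1
  have hz₀V : ((z₀ : ↥(Bx (C := C) x)) : F) ∈ S.V := by
    have h2 : ((z₀ : ↥(Bx (C := C) x)) : F) = ((wV ^ e * ((hu.unit⁻¹ : (↥S.V)ˣ) : ↥S.V) : ↥S.V) : F) := by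
      have h3 : ((u * ((hu.unit⁻¹ : (↥S.V)ˣ) : ↥S.V) : ↥S.V) : F) = 1 := by
        rw [show u * ((hu.unit⁻¹ : (↥S.V)ˣ) : ↥S.V) = 1 from hu.mul_val_inv]
        rfl
      push_cast at h3 ⊢
      rw [← hkey, mul_assoc, h3, mul_one]
    rw [h2]
    exact Subtype.mem _
  refine ⟨r * e, S.red ⟨(z₀ : F), hz₀V⟩, red_isIntegral hx hxt hdeg _ z₀.2 hz₀V, ?_⟩
  rw [← hredf, pow_mul, ← hredw, ← map_pow]
  have h4 : wV ^ e = u * ⟨(z₀ : F), hz₀V⟩ := by
    apply Subtype.ext
    push_cast
    rw [← hkey, mul_comm]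
  rw [h4, map_mul, hudef, red_psi_X_sub_C, Algebra.smul_def]
  rfl

end RedSetting

end Fermat.Agent.RED.H34

end
end
-- ==== END Fermat.Agent.RED.H34_ChartNil

-- ==== BEGIN Fermat.Agent.RED.H42_Gen4
section

/-!
# G-RED package GEN (helper42), part 4: the chart is a free `O[x]`-module on a lifted basis

* `exists_lift_gspan` (FG) : there is a lifted basis `e` with `B = ∑ C[x] e i`.
* `exists_repr_psi` : elements of `B ∩ V` are `O[x]`-combinations of the `e i`.
-/

set_option autoImplicit false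

noncomputable section

open Polynomial IntermediateField Module
open scoped IntermediateField.algebraAdjoinAdjoin

namespace Fermat.Agent.RED.H42

open Fermat.Agent.RED.H34 Fermat.Agent.RED.H34.RedSetting

variable {C F k Ft : Type} [Field C] [Field F] [Algebra C F] [Field k] [Field Ft] [Algebra k Ft]
variable {S : RedSetting C F k Ft} {x : F} (hx : x ∈ S.V)
variable {ι : Type} [Fintype ι]

/-- The polynomial span of `e` inside `B`, as a `C[x]`-submodule. -/
def gspanB (C : Type) {F : Type} [Field C] [Field F] [Algebra C F] (x : F) {ι : Type} [Fintype ι]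
    (e : ι → F) : Submodule ↥(Algebra.adjoin C {x}) ↥(Bx (C := C) x) where
  carrier := {b | GSpan C x e (b : F)}
  zero_mem' := GSpan.zero
  add_mem' := fun ha hb => ha.add hb
  smul_mem' := by
    intro r b hb
    obtain ⟨q, hq⟩ : ∃ q : C[X], Polynomial.aeval x q = (r : F) := by
      have h1 : (r : F) ∈ (Polynomial.aeval x : C[X] →ₐ[C] F).range := by
        rw [← Algebra.adjoin_singleton_eq_range_aeval]
        exact r.2
      exact h1
    show GSpan C x e ((r • b : ↥(Bx (C := C) x)) : F)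
    have : ((r • b : ↥(Bx (C := C) x)) : F) = Polynomial.aeval x q * (b : F) := by
      rw [hq]
      rfl
    rw [this]
    exact GSpan.aeval_mul hb q

theorem mem_gspanB {e : ι → F} (b : ↥(Bx (C := C) x)) :
    b ∈ gspanB C x e ↔ GSpan C x e (b : F) := Iff.rfl

/-- **(FG)** There is a lifted basis spanning the integral closure `B` of `C[x]` over `C[x]`. -/
theorem exists_lift_gspan [IsAlgClosed C] [CharZero C] (hxt : Transcendental k (S.red ⟨x, hx⟩))
    [FiniteDimensional ↥C⟮x⟯ F]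
    (hdeg : Module.finrank ↥k⟮S.red ⟨x, hx⟩⟯ Ft = Module.finrank ↥C⟮x⟯ F)
    (hcard : Fintype.card ι = Module.finrank ↥C⟮x⟯ F)
    (hex : ∃ e : ι → F, IsLift hx e) :
    ∃ e : ι → F, IsLift hx e ∧ ∀ b, IsIntegral ↥(Algebra.adjoin C {x}) b → GSpan C x e b := by
  classical
  have hxC := transcendental_x hx hxt
  have hpid : IsPrincipalIdealRing ↥(Algebra.adjoin C {x}) := isPrincipalIdealRing_adjoin hxC
  have hcz : CharZero ↥C⟮x⟯ := charZero_of_injective_algebraMap (algebraMap C ↥C⟮x⟯).injective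
  have hnoeth : IsNoetherian ↥(Algebra.adjoin C {x}) ↥(Bx (C := C) x) :=
    IsIntegralClosure.isNoetherian ↥(Algebra.adjoin C {x}) ↥C⟮x⟯ F ↥(Bx (C := C) x)
  obtain ⟨e₀, he₀⟩ := hex
  obtain ⟨M, ⟨e, he, rfl⟩, hmax⟩ := (set_has_maximal_iff_noetherian.2 hnoeth)
    {M | ∃ e : ι → F, IsLift hx e ∧ M = gspanB C x e} ⟨_, e₀, he₀, rfl⟩
  refine ⟨e, he, fun b hb => ?_⟩
  by_contra hnb
  obtain ⟨a, b', h', i₀, hb', hnb', hi₀, hab⟩ :=
    exists_witness S.O hxC he.int (he.span_top hx hxt hcard) hb hnb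
  by_cases ha : a ∈ S.O
  · exact case_small hx hxt hdeg he ha hb' h' i₀ hi₀ hab
  · obtain ⟨e', he', hle, b₁, hb₁, hnb₁⟩ := case_large hx hxt he ha hb' hnb' h' i₀ hi₀ hab
    apply hmax (gspanB C x e') ⟨e', he', rfl⟩
    rw [SetLike.lt_iff_le_and_exists]
    exact ⟨fun c hc => hle _ hc, ⟨(b₁ : F), hb₁.isIntegral he'.int⟩, hb₁, hnb₁⟩

/-- Elements of `V` in the polynomial span of a lifted basis are `O[x]`-combinations. -/
theorem exists_repr_psi (hxt : Transcendental k (S.red ⟨x, hx⟩)) {e : ι → F} (he : IsLift hx e)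
    (f : F) (hfV : f ∈ S.V) (hf : GSpan C x e f) :
    ∃ p : ι → (↥S.O)[X], f = ∑ i, ((psi hx (p i) : ↥S.V) : F) * e i := by
  obtain ⟨P, hP⟩ := hf
  have hmem : ∀ i, Polynomial.aeval x (P i) ∈ S.V := by
    intro i
    have h1 : ∑ j, (⟨Polynomial.aeval x (P j), aeval_mem_simple x (P j)⟩ : ↥C⟮x⟯) • e j ∈ S.V := by
      have : ∑ j, (⟨Polynomial.aeval x (P j), aeval_mem_simple x (P j)⟩ : ↥C⟮x⟯) • e j = f := by
        rw [hP]
        refine Finset.sum_congr rfl fun j _ => ?_
        rw [IntermediateField.smul_def, smul_eq_mul]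
      rw [this]
      exact hfV
    exact coeff_mem_V hx e he.memV hxt he.lin _ h1 i
  choose p hp using fun i => exists_lift_of_aeval_mem hx hxt (P i) (hmem i)
  refine ⟨p, ?_⟩
  rw [hP]
  refine Finset.sum_congr rfl fun i _ => ?_
  rw [coe_psi, hp]

end Fermat.Agent.RED.H42

end
end
-- ==== END Fermat.Agent.RED.H42_Gen4

-- ==== BEGIN Fermat.Agent.RED.H51_Norm
section

/-!
# FF-B, piece P8 (helper51): the local norm formula

Relative situation: `F'` finite over `F`, `v` a place of `F`, `T` the (finite) set of places of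
`F'` over `v`, with `∑_{w ∈ T} e(w | v) = [F' : F]` (the fundamental identity).

* `norm_value` : if `h` has the value `c w` at `w ∈ T`, then `N(h)` has the value
  `∏ (c w) ^ e(w | v)` at `v` (local norm formula for values);
* `norm_ord` : `v (N f) = ∑_{w ∈ T} w (f)`.
-/

set_option autoImplicit false
set_option linter.style.haveILetI false

noncomputable section

open AlgebraicCurve

namespace Fermat.Agent.RED.H51

section Rel

variable {K F F' : Type*} [Field K] [Field F] [Field F'] [Algebra K F] [Algebra K F']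
  [Algebra F F'] [IsScalarTower K F F'] [Module.Finite F F']

/-- **Local norm formula for values.** -/
theorem norm_value (v : Place K F) (T : Finset (Place K F'))
    (hT : ∀ w ∈ T, w.restrict F = v)
    (hsum : ∑ w ∈ T, w.ramificationIndex F = Module.finrank F F')
    (h : F') (c : Place K F' → K) (hc : ∀ w ∈ T, OrdGe w 1 (h - algebraMap K F' (c w))) :
    OrdGe v 1 (Algebra.norm F h - algebraMap K F (∏ w ∈ T, c w ^ w.ramificationIndex F)) := by
  classical
  set w : T → Place K F' := fun j => (j : Place K F') with hwdef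
  have hw : ∀ j : T, (w j).restrict F = v := fun j => hT j j.2
  obtain ⟨y, hy⟩ := exists_localBasis w (fun j => (w j).ramificationIndex F)
    Subtype.val_injective
  have hli : LinearIndependent F y :=
    linearIndependent_localBasis (compat_of_restrict v w hw) hy
  have hcard : Fintype.card (Σ j : T, Fin ((w j).ramificationIndex F))
      = Module.finrank F F' := by
    rw [Fintype.card_sigma, ← hsum, ← Finset.sum_coe_sort T]
    exact Finset.sum_congr rfl fun j _ => Fintype.card_fin _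
  set b : Module.Basis (Σ j : T, Fin ((w j).ramificationIndex F)) F F' :=
    basisOfLinearIndependentOfCardEqFinrank' y hli hcard with hbdef
  have hb : ∀ i, b i = y i := fun i => by
    rw [hbdef, coe_basisOfLinearIndependentOfCardEqFinrank']
  -- integrality of `h - c` at all places of `T`
  have hint : ∀ (j k : T), OrdGe (w j) 0 (h - algebraMap K F' (c (w k))) := by
    intro j k
    have h1 : h - algebraMap K F' (c (w k)) = (h - algebraMap K F' (c (w j)))
        + (algebraMap K F' (c (w j)) - algebraMap K F' (c (w k))) := by ring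
    rw [h1]
    exact ((hc (w j) j.2).mono (by omega)).add
      ((ordGe_algebraMap _ _).sub (ordGe_algebraMap _ _))
  -- analysis of the columns of the matrix of `h`
  have hcol : ∀ (j₀ i : Σ j : T, Fin ((w j).ramificationIndex F)),
      ∃ gi : F, Algebra.leftMulMatrix b h i j₀
          = gi + (if i = j₀ then algebraMap K F (c (w j₀.1)) else 0) ∧
        OrdGe v 0 gi ∧ ((i.1 ≠ j₀.1 ∨ (i.2 : ℕ) ≤ (j₀.2 : ℕ)) → OrdGe v 1 gi) := by
    intro j₀ i
    set z' : F' := (h - algebraMap K F' (c (w j₀.1))) * y j₀ with hz'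
    set g : (Σ j : T, Fin ((w j).ramificationIndex F)) → F := fun i' => b.repr z' i' with hg
    have hsumg : ∑ i', g i' • y i' = z' := by
      have := b.sum_repr z'
      simp only [hb] at this
      exact this
    have hzk : OrdGe (w j₀.1) (((j₀.2 : ℕ) + 1 : ℕ) : ℤ) (∑ i', g i' • y i') := by
      rw [hsumg, hz']
      have h1 : OrdGe (w j₀.1) ((j₀.2 : ℕ) : ℤ) (y j₀) := Or.inr (hy.ord_self j₀).ge
      have := (hc (w j₀.1) j₀.1.2).mul h1
      exact this.mono (by push_cast; omega)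
    have hz : ∀ j, j ≠ j₀.1 →
        OrdGe (w j) ((w j).ramificationIndex F) (∑ i', g i' • y i') := by
      intro j hj
      rw [hsumg, hz']
      have := (hint j j₀.1).mul (hy.ordGe_other j₀ j hj)
      simpa using this
    have hz0 : ∀ j, OrdGe (w j) 0 (∑ i', g i' • y i') := by
      intro j
      by_cases hjk : j = j₀.1
      · rw [hjk]
        exact hzk.mono (Int.natCast_nonneg _)
      · exact (hz j hjk).mono (Int.natCast_nonneg _)
    refine ⟨g i, ?_, coords_integral hw hy g hz0 i, fun hcase => ?_⟩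
    · rw [Algebra.leftMulMatrix_eq_repr_mul, hb]
      have h1 : h * y j₀ = z' + algebraMap K F (c (w j₀.1)) • b j₀ := by
        rw [hz', hb, Algebra.smul_def, ← IsScalarTower.algebraMap_apply K F F']
        ring
      rw [h1, map_add, map_smul, Module.Basis.repr_self, Finsupp.add_apply,
        Finsupp.smul_apply, Finsupp.single_apply, smul_eq_mul]
      by_cases hij : i = j₀
      · rw [if_pos hij, if_pos hij.symm, mul_one]
      · rw [if_neg hij, if_neg (fun h' => hij h'.symm), mul_zero]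
    · refine coords_divisible hw hy g j₀.1 ((j₀.2 : ℕ) + 1) hzk hz i ?_
      rcases hcase with h1 | h1
      · exact Or.inl h1
      · exact Or.inr (by omega)
  choose G hG1 hG2 hG3 using hcol
  have key := det_cong v (fun i : (Σ j : T, Fin ((w j).ramificationIndex F)) => i.1)
    (fun i => (i.2 : ℕ)) (Algebra.leftMulMatrix b h) (fun i => algebraMap K F (c (w i.1)))
    (fun i j => by
      rw [hG1 j i]
      refine (hG2 j i).add ?_
      by_cases hij : i = j
      · rw [if_pos hij]; exact ordGe_algebraMap v _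
      · rw [if_neg hij]; exact ordGe_zero v _)
    (fun i j hij hcase => by
      rw [hG1 j i, if_neg hij, add_zero]
      exact hG3 j i hcase)
    (fun i => by
      rw [hG1 i i, if_pos rfl, add_sub_cancel_right]
      exact hG3 i i (Or.inr le_rfl))
    (fun i => ordGe_algebraMap v _)
  rw [Algebra.norm_eq_matrix_det b h]
  have hprod : ∏ i : (Σ j : T, Fin ((w j).ramificationIndex F)), algebraMap K F (c (w i.1))
      = algebraMap K F (∏ w' ∈ T, c w' ^ w'.ramificationIndex F) := by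
    rw [← map_prod]
    congr 1
    rw [Fintype.prod_sigma, ← Finset.prod_coe_sort T]
    refine Finset.prod_congr rfl fun j _ => ?_
    show ∏ _y : Fin ((w j).ramificationIndex F), c (w j) = _
    rw [Finset.prod_const, Finset.card_univ, Fintype.card_fin]
  rw [← hprod]
  exact key

omit [IsScalarTower K F F'] [Algebra K F] [Algebra K F'] [Module.Finite F F'] in
/-- The norm commutes with integer powers. -/
theorem norm_zpow {x : F'} (hx : x ≠ 0) (n : ℤ) :
    Algebra.norm F (x ^ n) = (Algebra.norm F x) ^ n := by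
  have h := map_zpow (Units.map (Algebra.norm F : F' →* F)) (Units.mk0 x hx) n
  have h' : ((Units.map (Algebra.norm F : F' →* F) (Units.mk0 x hx ^ n) : Fˣ) : F)
      = (((Units.map (Algebra.norm F : F' →* F) (Units.mk0 x hx)) ^ n : Fˣ) : F) :=
    congrArg (fun u : Fˣ => (u : F)) h
  rw [Units.coe_map, Units.val_zpow_eq_zpow_val, Units.val_zpow_eq_zpow_val, Units.coe_map,
    Units.val_mk0] at h'
  exact h'

/-- The norm of an element which is a unit at all places over `v` is a unit at `v`. -/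
theorem norm_ord_of_unit (v : Place K F) (T : Finset (Place K F'))
    (hT : ∀ w ∈ T, w.restrict F = v)
    (hsum : ∑ w ∈ T, w.ramificationIndex F = Module.finrank F F')
    (hdeg : ∀ w : Place K F', w.deg = 1)
    {h : F'} (hh0 : h ≠ 0) (hh : ∀ w ∈ T, w.ord h = 0) :
    v.ord (Algebra.norm F h) = 0 := by
  classical
  have hex : ∀ w : Place K F', ∃ c : K, w ∈ T → (c ≠ 0 ∧ OrdGe w 1 (h - algebraMap K F' c)) := by
    intro w
    by_cases hw : w ∈ T
    · obtain ⟨c, hc⟩ := exists_value w (hdeg w) (h := h) (Or.inr (hh w hw).ge)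
      refine ⟨c, fun _ => ⟨?_, hc⟩⟩
      rintro rfl
      rw [map_zero, sub_zero] at hc
      have := hc.le hh0
      rw [hh w hw] at this
      omega
    · exact ⟨0, fun h' => absurd h' hw⟩
  choose c hc using hex
  have hval := norm_value v T hT hsum h c fun w hw => (hc w hw).2
  set C : K := ∏ w ∈ T, c w ^ w.ramificationIndex F with hC
  have hC0 : C ≠ 0 := Finset.prod_ne_zero_iff.mpr fun w hw => pow_ne_zero _ (hc w hw).1
  have hCF : algebraMap K F C ≠ 0 := (map_ne_zero (algebraMap K F)).mpr hC0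
  have h1 := ord_add_eq v hCF (g := Algebra.norm F h - algebraMap K F C)
    (by rw [ord_algebraMap, zero_add]; exact hval)
  rw [add_sub_cancel] at h1
  rw [h1.2, ord_algebraMap]

/-- The norm of an integral element with a zero over `v` has a zero at `v`. -/
theorem norm_ordGe_one (v : Place K F) (T : Finset (Place K F'))
    (hT : ∀ w ∈ T, w.restrict F = v)
    (hsum : ∑ w ∈ T, w.ramificationIndex F = Module.finrank F F')
    (hdeg : ∀ w : Place K F', w.deg = 1)
    {h : F'} (hh : ∀ w ∈ T, OrdGe w 0 h) {w₀ : Place K F'} (hw₀ : w₀ ∈ T)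
    (hh₀ : OrdGe w₀ 1 h) : OrdGe v 1 (Algebra.norm F h) := by
  classical
  have hex : ∀ w : Place K F', ∃ c : K, w ∈ T →
      ((w = w₀ → c = 0) ∧ OrdGe w 1 (h - algebraMap K F' c)) := by
    intro w
    by_cases hw : w ∈ T
    · by_cases hww : w = w₀
      · refine ⟨0, fun _ => ⟨fun _ => rfl, ?_⟩⟩
        rw [map_zero, sub_zero, hww]
        exact hh₀
      · obtain ⟨c, hc⟩ := exists_value w (hdeg w) (hh w hw)
        exact ⟨c, fun _ => ⟨fun h' => absurd h' hww, hc⟩⟩
    · exact ⟨0, fun h' => absurd h' hw⟩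
  choose c hc using hex
  have hval := norm_value v T hT hsum h c fun w hw => (hc w hw).2
  have hC : ∏ w ∈ T, c w ^ w.ramificationIndex F = 0 := by
    refine Finset.prod_eq_zero hw₀ ?_
    rw [(hc w₀ hw₀).1 rfl]
    exact zero_pow (w₀.ramificationIndex_pos (F := F)).ne'
  rwa [hC, map_zero, sub_zero] at hval

/-- **The local norm formula**: `v (N f) = ∑_{w | v} w (f)`. -/
theorem norm_ord (v : Place K F) (T : Finset (Place K F'))
    (hT : ∀ w ∈ T, w.restrict F = v)
    (hsum : ∑ w ∈ T, w.ramificationIndex F = Module.finrank F F')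
    (hdeg : ∀ w : Place K F', w.deg = 1)
    {f : F'} (hf : f ≠ 0) :
    v.ord (Algebra.norm F f) = ∑ w ∈ T, w.ord f := by
  classical
  -- functions with a simple zero at exactly one place of `T`
  have hex : ∀ j : Place K F', ∃ g : F', g ≠ 0 ∧
      ∀ w ∈ T, w.ord g = if w = j then 1 else 0 :=
    fun j => exists_ord_eq_family T fun w => if w = j then 1 else 0
  choose g hg0 hg using hex
  have hN0 : ∀ x : F', x ≠ 0 → Algebra.norm F x ≠ 0 := fun x hx =>
    Algebra.norm_ne_zero_iff.mpr hx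
  set ν : Place K F' → ℤ := fun j => v.ord (Algebra.norm F (g j)) with hν
  have hν1 : ∀ j ∈ T, 1 ≤ ν j := by
    intro j hj
    have h1 : OrdGe v 1 (Algebra.norm F (g j)) := by
      refine norm_ordGe_one v T hT hsum hdeg (w₀ := j) (fun w hw => Or.inr ?_) hj (Or.inr ?_)
      · rw [hg j w hw]
        split_ifs <;> omega
      · rw [hg j j hj, if_pos rfl]
    exact h1.le (hN0 _ (hg0 j))
  -- the general formula with multiplicities `ν`
  have hgen : ∀ x : F', x ≠ 0 → v.ord (Algebra.norm F x) = ∑ j ∈ T, j.ord x * ν j := by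
    intro x hx
    set u : F' := x * ∏ j ∈ T, (g j) ^ (-(j.ord x)) with hu
    have hpow0 : ∀ j ∈ T, (g j) ^ (-(j.ord x)) ≠ 0 := fun j _ => zpow_ne_zero _ (hg0 j)
    have hprod0 : ∏ j ∈ T, (g j) ^ (-(j.ord x)) ≠ 0 := Finset.prod_ne_zero_iff.mpr hpow0
    have hu0 : u ≠ 0 := mul_ne_zero hx hprod0
    have huord : ∀ w ∈ T, w.ord u = 0 := by
      intro w hw
      rw [hu, w.ord_mul hx hprod0, ord_prod w T _ hpow0]
      have h1 : ∑ j ∈ T, w.ord ((g j) ^ (-(j.ord x))) = -(w.ord x) := by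
        rw [Finset.sum_eq_single_of_mem w hw]
        · rw [w.ord_zpow, hg w w hw, if_pos rfl, mul_one]
        · intro j _ hjw
          rw [w.ord_zpow, hg j w hw, if_neg (fun h' => hjw h'.symm), mul_zero]
      rw [h1]
      ring
    have h0 := norm_ord_of_unit v T hT hsum hdeg hu0 huord
    have hNu : Algebra.norm F u
        = Algebra.norm F x * ∏ j ∈ T, (Algebra.norm F (g j)) ^ (-(j.ord x)) := by
      rw [hu, map_mul, map_prod]
      congr 1
      refine Finset.prod_congr rfl fun j _ => ?_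
      exact norm_zpow (hg0 j) _
    have hNpow0 : ∀ j ∈ T, (Algebra.norm F (g j)) ^ (-(j.ord x)) ≠ 0 :=
      fun j _ => zpow_ne_zero _ (hN0 _ (hg0 j))
    rw [hNu, v.ord_mul (hN0 x hx) (Finset.prod_ne_zero_iff.mpr hNpow0),
      ord_prod v T _ hNpow0] at h0
    have h2 : ∑ j ∈ T, v.ord ((Algebra.norm F (g j)) ^ (-(j.ord x)))
        = -∑ j ∈ T, j.ord x * ν j := by
      rw [← Finset.sum_neg_distrib]
      refine Finset.sum_congr rfl fun j _ => ?_
      rw [v.ord_zpow]
      ring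
    rw [h2] at h0
    linarith
  -- apply it to a uniformizer of `v`
  obtain ⟨t, ht0, ht⟩ := exists_uniformizer v
  have ht' : algebraMap F F' t ≠ 0 := (map_ne_zero (algebraMap F F')).mpr ht0
  have h1 := hgen (algebraMap F F' t) ht'
  rw [Algebra.norm_algebraMap, ord_pow, ht, mul_one] at h1
  have he : ∀ j ∈ T, j.ord (algebraMap F F' t) = (j.ramificationIndex F : ℤ) := by
    intro j hj
    rw [j.ord_restrict t, hT j hj, ht, mul_one]
  have h2 : ∑ j ∈ T, (j.ramificationIndex F : ℤ) * (ν j - 1) = 0 := by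
    have h3 : ∑ j ∈ T, j.ord (algebraMap F F' t) * ν j
        = ∑ j ∈ T, (j.ramificationIndex F : ℤ) * ν j :=
      Finset.sum_congr rfl fun j hj => by rw [he j hj]
    rw [h3] at h1
    have h4 : ((Module.finrank F F' : ℕ) : ℤ) = ∑ j ∈ T, (j.ramificationIndex F : ℤ) := by
      rw [← hsum]
      push_cast
      rfl
    simp only [mul_sub, mul_one, Finset.sum_sub_distrib]
    linarith
  have h5 : ∀ j ∈ T, (j.ramificationIndex F : ℤ) * (ν j - 1) = 0 :=
    (Finset.sum_eq_zero_iff_of_nonneg fun j hj =>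
      mul_nonneg (Int.natCast_nonneg _) (by have := hν1 j hj; omega)).mp h2
  have hν_eq : ∀ j ∈ T, ν j = 1 := by
    intro j hj
    have hpos : 0 < j.ramificationIndex F := j.ramificationIndex_pos (F := F)
    rcases mul_eq_zero.mp (h5 j hj) with h6 | h6
    · omega
    · omega
  rw [hgen f hf]
  refine Finset.sum_congr rfl fun j hj => ?_
  rw [hν_eq j hj, mul_one]

end Rel

end Fermat.Agent.RED.H51

end
end
-- ==== END Fermat.Agent.RED.H51_Norm

-- ==== BEGIN Fermat.Agent.RED.H73_GAMainB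
section
attribute [local instance 10000] SubalgebraClass.toAlgebra
attribute [local instance 10000] HahnSeries.powerSeriesAlgebra

/-!
# G-RED package GA (helper73): the residue field of the Gauss valuation on `F_N · L`

Main result: `redField_fullC_eq` : for `L` algebraically closed, `A` a valuation subring of `L` in
which `N` is invertible, and conjugate data `D : CADataL L N`:
`redField A (modularFunctionFieldFullC L N) = modularFunctionFieldFullC (kV A) N`.

Route: `q ↦ t^N` maps `F_N L` into the core field `L(u, J)` (Lagrange), whose residue field is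
`k(u~, J~)` (`redField_core`); and `u~ ∈ k(j~(t^{N²}), J~)` (Lagrange with exchanged roles over
`k`, using that the other conjugates of `j(Nz)` have pole order `< N²`).
-/

set_option autoImplicit false

open Polynomial ModularCurve Fermat.Agent.S28 Fermat.Agent.S28.H73

noncomputable section

namespace Fermat.Agent.RED.H73

section Forward

variable {L : Type} [Field L] {N : ℕ} [NeZero N] (D : CADataL L N)

/-- The core field `L(u, J) ⊂ L((t))`. -/
def coreField : IntermediateField L (LaurentSeries L) :=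
  IntermediateField.adjoin L ({D.U D.q₀, JL L N} : Set (LaurentSeries L))

theorem caDataL_U_ne (q : D.Q) (hq : q ≠ D.q₀) : D.U q ≠ D.U D.q₀ := by
  intro h
  have h1 := D.U_order_pos q hq
  rw [h, D.U_order₀] at h1
  have h2 := D.D_pos
  have h3 : (0 : ℤ) < (N : ℤ) := by exact_mod_cast Nat.pos_of_ne_zero (NeZero.ne N)
  have : (0 : ℤ) < (D.D : ℤ) * (N : ℤ) := by positivity
  omega

variable [IsAlgClosed L]

/-- **Lagrange**: `j(t^{Nd}) ∈ L(u, J)` for `d ∣ N`. -/
theorem qExpand_jd_mem_coreField {d : ℕ} [NeZero d] (hd : d ∣ N) :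
    qExpand L N (qExpand L d (jqModC L)) ∈ coreField D := by
  rw [← D.X_q₀ d hd]
  exact Fermat.Agent.S28.H92.stmt_lagrange L D.Q D.q₀ (JL L N) D.U (D.X d) (caDataL_U_ne D)
    (D.sym d hd)

/-- `q ↦ t^N` maps `F_N L` into the core field. -/
theorem map_fullC_le_coreField :
    (modularFunctionFieldFullC L N).map (qExpandAlgHomC L N) ≤ coreField D := by
  rw [modularFunctionFieldFullC, IntermediateField.adjoin_map, IntermediateField.adjoin_le_iff]
  rintro x ⟨y, ⟨d, hd0, hd, rfl⟩, rfl⟩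
  have := hd0
  exact qExpand_jd_mem_coreField D hd

theorem qExpand_mem_coreField {x : LaurentSeries L} (hx : x ∈ modularFunctionFieldFullC L N) :
    qExpand L N x ∈ coreField D :=
  map_fullC_le_coreField D ⟨x, hx, rfl⟩

end Forward

section Lifts

variable {C : Type} [Field C] (O : ValuationSubring C)

/-- A lift to `O((t))` of a series with coefficients in `O`. -/
def liftCI {f : LaurentSeries C} (hf : CoeffsIn O.toSubring f) : LaurentSeries ↥O :=
  (exists_iotaV_eq O hf).choose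

theorem iotaV_liftCI {f : LaurentSeries C} (hf : CoeffsIn O.toSubring f) :
    iotaV O (liftCI O hf) = f := (exists_iotaV_eq O hf).choose_spec

theorem liftCI_coeff {f : LaurentSeries C} (hf : CoeffsIn O.toSubring f) (n : ℤ) :
    ((liftCI O hf).coeff n : C) = f.coeff n := by
  conv_rhs => rw [← iotaV_liftCI O hf]
  rfl

theorem eq_of_iotaV_eq {g g' : LaurentSeries ↥O} (h : iotaV O g = iotaV O g') : g = g' :=
  iotaV_injective O h

end Lifts

section Backward

variable {L : Type} [Field L] (A : ValuationSubring L) {N : ℕ} [NeZero N]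
  (hN : ((N : L))⁻¹ ∈ A) (D : CADataL L N)

include hN in
theorem caDataL_X_coeffsIn : ∀ q, CoeffsIn A.toSubring (D.X N q) :=
  fun q n => coeffRingL_le A N hN (D.X_coeff N q n dvd_rfl)

/-- The reductions of the conjugates of `j(Nz)`. -/
def Xred (q : D.Q) : LaurentSeries (kV A) :=
  redV A (liftCI A (caDataL_X_coeffsIn A hN D q))

theorem Xred_q₀ :
    Xred A hN D D.q₀ = qExpand (kV A) N (qExpand (kV A) N (jqModC (kV A))) := by
  have h1 : liftCI A (caDataL_X_coeffsIn A hN D D.q₀)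
      = qExpand ↥A N (qExpand ↥A N (jqModC ↥A)) := by
    apply iotaV_injective A
    rw [iotaV_liftCI, iotaV_qExpand, iotaV_qExpand_jqModC, D.X_q₀ N dvd_rfl]
  rw [Xred, h1, redV_qExpand, redV_qExpand_jqModC]

theorem Xred_q₀_coeff : (Xred A hN D D.q₀).coeff (-(N : ℤ) ^ 2) = 1 := by
  rw [Xred_q₀ A hN D]
  have e : (-(N : ℤ) ^ 2) = (N : ℤ) * ((N : ℤ) * (-1)) := by ring
  rw [e, qExpand_coeff_mul, qExpand_coeff_mul, coeff_jqModC_neg_one]

theorem Xred_coeff (q : D.Q) (hq : q ≠ D.q₀) : (Xred A hN D q).coeff (-(N : ℤ) ^ 2) = 0 := by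
  rw [Xred, redV_coeff]
  have h0 : (liftCI A (caDataL_X_coeffsIn A hN D q)).coeff (-(N : ℤ) ^ 2) = 0 := by
    apply Subtype.ext
    rw [liftCI_coeff, D.X_top q hq]
    rfl
  rw [h0, map_zero]

theorem Xred_ne (q : D.Q) (hq : q ≠ D.q₀) : Xred A hN D q ≠ Xred A hN D D.q₀ := by
  intro h
  have h1 := Xred_coeff A hN D q hq
  rw [h, Xred_q₀_coeff] at h1
  exact one_ne_zero h1

/-- The symmetric-function property over the residue field. -/
theorem sym_red (c s : kV A) :
    (∏ q, (HahnSeries.C c - Ured (coreHyp_of_caDataL A hN D) q - HahnSeries.C s * Xred A hN D q)) ∈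
      Algebra.adjoin (kV A) ({Jred (coreHyp_of_caDataL A hN D)} : Set (LaurentSeries (kV A))) := by
  obtain ⟨a, rfl⟩ := IsLocalRing.residue_surjective c
  obtain ⟨b, rfl⟩ := IsLocalRing.residue_surjective s
  set h := coreHyp_of_caDataL A hN D with hh
  have e : (∏ q, (HahnSeries.C (IsLocalRing.residue ↥A a) - Ured h q
        - HahnSeries.C (IsLocalRing.residue ↥A b) * Xred A hN D q))
      = redV A (∏ q, (HahnSeries.C a - liftUL A (h.U_unitLead q)
          - HahnSeries.C b * liftCI A (caDataL_X_coeffsIn A hN D q))) := by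
    rw [map_prod]
    refine Finset.prod_congr rfl fun q _ => ?_
    rw [map_sub, map_sub, map_mul, redV_C, redV_C]
    rfl
  rw [e]
  apply redV_mem_adjoin_Jred h
  rw [map_prod]
  have e2 : (∏ q, iotaV A (HahnSeries.C a - liftUL A (h.U_unitLead q)
        - HahnSeries.C b * liftCI A (caDataL_X_coeffsIn A hN D q)))
      = ∏ q, (HahnSeries.C (a : L) - D.U q - HahnSeries.C (b : L) * D.X N q) := by
    refine Finset.prod_congr rfl fun q _ => ?_
    rw [map_sub, map_sub, map_mul, iotaV_C, iotaV_C, iotaV_liftUL, iotaV_liftCI]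
  rw [e2]
  exact D.sym N dvd_rfl (a : L) (b : L)

theorem Jred_eq : Jred (coreHyp_of_caDataL A hN D) = qExpand (kV A) N (jqModC (kV A)) := by
  have h1 : liftUL A (coreHyp_of_caDataL A hN D).J_unitLead = qExpand ↥A N (jqModC ↥A) := by
    apply iotaV_injective A
    rw [iotaV_liftUL, iotaV_qExpand_jqModC]
    rfl
  rw [Jred, h1, redV_qExpand_jqModC]

variable [Infinite (kV A)]

/-- **Lagrange with exchanged roles, over the residue field**: `u~ ∈ k(j~(t^{N²}), J~)`. -/
theorem Ured_mem :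
    Ured (coreHyp_of_caDataL A hN D) D.q₀ ∈
      IntermediateField.adjoin (kV A)
        ({Xred A hN D D.q₀, Jred (coreHyp_of_caDataL A hN D)} : Set (LaurentSeries (kV A))) := by
  refine lagrange_swap (F := kV A) (L := LaurentSeries (kV A)) D.q₀
    (Algebra.adjoin (kV A) ({Jred (coreHyp_of_caDataL A hN D)} : Set (LaurentSeries (kV A))))
    _ ?_ (Ured (coreHyp_of_caDataL A hN D)) (Xred A hN D) ?_ (Xred_ne A hN D) ?_
  · intro a ha
    have hle : Algebra.adjoin (kV A) ({Jred (coreHyp_of_caDataL A hN D)} :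
        Set (LaurentSeries (kV A)))
        ≤ (IntermediateField.adjoin (kV A) ({Xred A hN D D.q₀,
            Jred (coreHyp_of_caDataL A hN D)} : Set (LaurentSeries (kV A)))).toSubalgebra := by
      refine Algebra.adjoin_le ?_
      intro x hx
      rw [Set.mem_singleton_iff] at hx
      subst hx
      exact IntermediateField.subset_adjoin (kV A) _ (by simp)
    exact hle ha
  · exact IntermediateField.subset_adjoin (kV A) _ (by simp)
  · intro c s
    have := sym_red A hN D c s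
    simp only [Fermat.Agent.S28.H92.hahnC_eq_algebraMap] at this
    exact this

/-- `k(u~, J~) ⊂ (q ↦ t^N)(F_{N,k})`. -/
theorem coreRed_le_map_fullC :
    IntermediateField.adjoin (kV A)
        ({Ured (coreHyp_of_caDataL A hN D) D.q₀, Jred (coreHyp_of_caDataL A hN D)} :
          Set (LaurentSeries (kV A)))
      ≤ (modularFunctionFieldFullC (kV A) N).map (qExpandAlgHomC (kV A) N) := by
  have hJ : Jred (coreHyp_of_caDataL A hN D) ∈
      (modularFunctionFieldFullC (kV A) N).map (qExpandAlgHomC (kV A) N) := by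
    rw [Jred_eq A hN D]
    exact ⟨jqModC (kV A), jqModC_mem_full (kV A) N, rfl⟩
  have hX : Xred A hN D D.q₀ ∈
      (modularFunctionFieldFullC (kV A) N).map (qExpandAlgHomC (kV A) N) := by
    rw [Xred_q₀ A hN D]
    exact ⟨qExpand (kV A) N (jqModC (kV A)), jqModCd_mem_full (kV A) N dvd_rfl, rfl⟩
  have hle : IntermediateField.adjoin (kV A)
      ({Xred A hN D D.q₀, Jred (coreHyp_of_caDataL A hN D)} : Set (LaurentSeries (kV A)))
      ≤ (modularFunctionFieldFullC (kV A) N).map (qExpandAlgHomC (kV A) N) := by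
    rw [IntermediateField.adjoin_le_iff]
    rintro x (rfl | hx)
    · exact hX
    · rw [Set.mem_singleton_iff] at hx
      subst hx
      exact hJ
  rw [IntermediateField.adjoin_le_iff]
  rintro x (rfl | hx)
  · exact hle (Ured_mem A hN D)
  · rw [Set.mem_singleton_iff] at hx
    subst hx
    exact hJ

end Backward

section Main

variable {L : Type} [Field L] [IsAlgClosed L] (A : ValuationSubring L) [Infinite (kV A)]
  {N : ℕ} [NeZero N] (hN : ((N : L))⁻¹ ∈ A) (D : CADataL L N)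

include hN D in
/-- The reduction of a Gauss-integral element of `F_N L` lies in `F_{N,k}`. -/
theorem gaussRedV_mem_fullC {x : LaurentSeries L} (hx : x ∈ modularFunctionFieldFullC L N)
    (hV : x ∈ gaussRingV A) :
    gaussRedV A ⟨x, hV⟩ ∈ modularFunctionFieldFullC (kV A) N := by
  set h := coreHyp_of_caDataL A hN D with hh
  have hmem : qExpand L N x ∈ coreField D := qExpand_mem_coreField D hx
  have hV' : qExpand L N x ∈ gaussRingV A := qExpand_mem_gaussRingV A N hV
  -- the reduction of `qExpand x` lies in the residue field of the core field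
  have h1 : gaussRedV A ⟨qExpand L N x, hV'⟩ ∈
      redField A (IntermediateField.adjoin L ({D.U D.q₀, JL L N} : Set (LaurentSeries L)))
        (hasScale_core h) :=
    ⟨⟨⟨qExpand L N x, hmem⟩, hV'⟩, rfl⟩
  rw [redField_core h] at h1
  have h2 := coreRed_le_map_fullC A hN D h1
  obtain ⟨z, hz, hzx⟩ := h2
  have h3 : qExpand (kV A) N z = qExpand (kV A) N (gaussRedV A ⟨x, hV⟩) := by
    rw [← gaussRedV_qExpand A N ⟨x, hV⟩ hV']
    exact hzx
  rw [← qExpand_injective N h3]
  exact hz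

include hN D in
/-- **GA, main theorem (abstract form)**. -/
theorem redField_fullC_eq :
    redField A (modularFunctionFieldFullC L N) (hasScale_fullC A N)
      = modularFunctionFieldFullC (kV A) N := by
  apply le_antisymm
  · rintro y ⟨x, rfl⟩
    rw [gaussResF_apply]
    exact gaussRedV_mem_fullC A hN D (x : ↥(modularFunctionFieldFullC L N)).2 x.2
  · exact fullC_le_redField A N

end Main

end Fermat.Agent.RED.H73

end
end
-- ==== END Fermat.Agent.RED.H73_GAMainB

-- ==== BEGIN Fermat.Agent.RED.H79_ConsC5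
section

/-!
# G-RED package CONS, C5 (helper79): the pointwise inequality

`stmt_C5 : Stmt_C5`: for a Gauss unit `f ∈ R = B ∩ V` with divisor `D` and a place `Q` of `Ft`
finite over `xt`:  `ord_Q (red f) ≤ Σ_{P in the chart, r P = Q} ord_P f`.

Proof (helper10's C5): for every zero `P` of `f` finite over `x` choose `g_P ∈ R` vanishing at `P`
with `ord_Q (red g_P) = 1` if `P` is in the chart and `r P = Q`, and `= 0` otherwise.  Then
`g = Π g_P ^ ord_P f` is divisible by `f` in `R`.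
-/

set_option autoImplicit false
set_option linter.style.haveILetI false

noncomputable section

open AlgebraicCurve IsDedekindDomain WithZero IntermediateField
open scoped IntermediateField.algebraAdjoinAdjoin

namespace Fermat.Agent.RED.H79

open Fermat.Agent.RED.H34 Fermat.Agent.RED.H51

section C5

variable {C F k Ft : Type} [Field C] [Field F] [Algebra C F] [Field k] [Field Ft] [Algebra k Ft]
variable (S : RedSetting C F k Ft) {x : F} (hx : x ∈ S.V)

/-- A constant outside `O` has its inverse in the maximal ideal of `O`. -/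
theorem exists_inv_of_not_mem {a : C} (ha : algebraMap C F a ∉ S.V) :
    ∃ b : ↥S.O, (b : C) = a⁻¹ ∧ S.resO b = 0 := by
  have hinv : algebraMap C F a⁻¹ ∈ S.V := by
    rw [map_inv₀]
    exact (S.V.mem_or_inv_mem _).resolve_left ha
  refine ⟨⟨a⁻¹, hinv⟩, rfl, ?_⟩
  rw [S.resO_eq_zero_iff]
  rintro ⟨u, hu⟩
  apply ha
  have ha0 : a ≠ 0 := by
    rintro rfl
    apply ha
    rw [map_zero]
    exact zero_mem _
  have h1 : ((u⁻¹ : (↥S.O)ˣ) : ↥S.O) * ⟨a⁻¹, hinv⟩ = 1 := by
    rw [← hu]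
    exact u.inv_mul
  have h2 : (((u⁻¹ : (↥S.O)ˣ) : ↥S.O) : C) * a⁻¹ = 1 := congrArg Subtype.val h1
  have h3 : (((u⁻¹ : (↥S.O)ˣ) : ↥S.O) : C) = a := (mul_inv_eq_one₀ ha0).1 h2
  have h4 := ((u⁻¹ : (↥S.O)ˣ) : ↥S.O).2
  rw [h3] at h4
  exact h4

/-- Case (i): a place finite over `x` outside the chart: `g = 1 - x / x(P)`. -/
theorem exists_g_out [IsAlgClosed C] (hx : x ∈ S.V) (hxC : Transcendental C x)
    [FiniteDimensional C⟮x⟯ F] (P : Place C F) (hxP : x ∈ P.toValuationSubring) (hP : ¬ InChart S x P) :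
    ∃ g : ↥S.V, IsIntegral ↥(Algebra.adjoin C {x}) (g : F) ∧ OrdGe P 1 (g : F) ∧
      S.red g = 1 := by
  have hdeg : P.deg = 1 := Fermat.Agent.S24.ff_deg_eq_one x hxC P
  obtain ⟨a, ha⟩ := exists_value P hdeg ((ordGe_zero_iff_mem P x).2 hxP)
  have haV : algebraMap C F a ∉ S.V := fun h => hP ⟨a, h, ha⟩
  obtain ⟨b, hb, hb0⟩ := exists_inv_of_not_mem S haV
  have ha0 : a ≠ 0 := by
    rintro rfl
    apply haV
    rw [map_zero]
    exact zero_mem _
  refine ⟨1 - S.inclO b * ⟨x, hx⟩, ?_, ?_, ?_⟩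
  · have : ((1 - S.inclO b * ⟨x, hx⟩ : ↥S.V) : F) = 1 - algebraMap C F (b : C) * x := rfl
    rw [this]
    exact isIntegral_one.sub ((isIntegral_const x _).mul (isIntegral_gen x))
  · have : ((1 - S.inclO b * ⟨x, hx⟩ : ↥S.V) : F)
        = algebraMap C F (-a⁻¹) * (x - algebraMap C F a) := by
      show 1 - algebraMap C F (b : C) * x = _
      rw [hb, map_neg, map_inv₀]
      have : algebraMap C F a ≠ 0 := by
        rwa [ne_eq, map_eq_zero_iff _ (algebraMap C F).injective]
      field_simp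
      ring
    rw [this]
    have := (ordGe_algebraMap P (-a⁻¹)).mul ha
    simpa using this
  · rw [map_sub, map_mul, S.red_inclO, hb0, map_one, map_zero, zero_mul, sub_zero]

/-- Cases (ii), (iii): lift of an element of `Bt` vanishing at the reduction of `P`. -/
theorem exists_g_lift (hN : ChartNormal S x hx) (hI : ChartIntegral S x hx)
    (P : Place C F) (hP : InChart S x P) (Q' : Place k Ft) (hPQ : RedTo S x hx P Q')
    (b : Ft) (hb : IsIntegral ↥(Algebra.adjoin k {S.red ⟨x, hx⟩}) b) (hbQ : OrdGe Q' 1 b) :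
    ∃ g : ↥S.V, IsIntegral ↥(Algebra.adjoin C {x}) (g : F) ∧ OrdGe P 1 (g : F) ∧
      S.red g = b := by
  obtain ⟨t, ht, htb⟩ := hN b hb
  obtain ⟨a, ha⟩ := (hI t ht).2 P hP
  have h1 := hPQ.2 t ht a ha
  rw [htb] at h1
  have h2 : OrdGe Q' 1 (algebraMap k Ft (S.resO a)) := by
    have := hbQ.sub h1
    rwa [sub_sub_cancel] at this
  have h3 : S.resO a = 0 := const_eq_zero_of_ordGe_one Q' _ h2
  refine ⟨t - S.inclO a, ?_, ha, ?_⟩
  · have : ((t - S.inclO a : ↥S.V) : F) = (t : F) - algebraMap C F (a : C) := rfl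
    rw [this]
    exact ht.sub (isIntegral_const x _)
  · rw [map_sub, S.red_inclO, h3, map_zero, sub_zero, htb]

open Classical in
/-- The functions `g_P`. -/
theorem exists_gP [IsAlgClosed C] (G : GoodChart S x hx) (hI : ChartIntegral S x hx)
    (r : Place C F → Place k Ft) (hr : ∀ P, InChart S x P → RedTo S x hx P (r P))
    (Q : Place k Ft) (hQ : S.red ⟨x, hx⟩ ∈ Q.toValuationSubring)
    (P : Place C F) (hxP : x ∈ P.toValuationSubring) :
    ∃ g : ↥S.V, IsIntegral ↥(Algebra.adjoin C {x}) (g : F) ∧ OrdGe P 1 (g : F) ∧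
      S.red g ≠ 0 ∧ Q.ord (S.red g) = if InChart S x P ∧ r P = Q then 1 else 0 := by
  haveI := G.fin
  haveI := G.sep
  haveI := G.finite_red
  haveI := G.sept
  have hxC : Transcendental C x := RedSetting.transcendental_x hx G.transc
  haveI := isDedekind_Bx (K := k) (S.red ⟨x, hx⟩) G.transc
  haveI := isFractionRing_Bx (K := k) (F := Ft) (S.red ⟨x, hx⟩)
  obtain ⟨wQ, hwQ⟩ := exists_eq_ofH_of_mem (S.red ⟨x, hx⟩) G.transc Q hQ
  by_cases hP : InChart S x P
  · by_cases hrQ : r P = Q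
    · obtain ⟨b, -, hb1⟩ := exists_ord_eq_one (K := k) (F := Ft) wQ
      rw [← hwQ] at hb1
      have hrP : RedTo S x hx P Q := hrQ ▸ hr P hP
      obtain ⟨g, hg1, hg2, hg3⟩ := exists_g_lift S hx G.normal hI P hP Q hrP
        (algebraMap _ Ft b) b.2 (Or.inr hb1.ge)
      refine ⟨g, hg1, hg2, ?_, ?_⟩
      · rw [hg3]
        exact ne_zero_of_ord_ne_zero Q (by rw [hb1]; norm_num)
      · rw [hg3, if_pos ⟨hP, hrQ⟩]
        exact hb1
    · have hrP := hr P hP
      obtain ⟨w', hw'⟩ := exists_eq_ofH_of_mem (S.red ⟨x, hx⟩) G.transc (r P) hrP.1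
      have hne : wQ ≠ w' := by
        rintro rfl
        exact hrQ (hw'.trans hwQ.symm)
      obtain ⟨b, hb', hbQ⟩ := exists_mem_not_mem_of_ne hne
      have h1 : OrdGe (r P) 1 (algebraMap _ Ft b) := by
        rw [hw']
        exact (ordGe_one_algebraMap_iff (K := k) (F := Ft) w' b).2 hb'
      obtain ⟨g, hg1, hg2, hg3⟩ := exists_g_lift S hx G.normal hI P hP (r P) hrP
        (algebraMap _ Ft b) b.2 h1
      have h0 : Q.ord (algebraMap _ Ft b) = 0 := by
        rw [hwQ]
        exact ord_eq_zero_of_not_mem (K := k) (F := Ft) wQ hbQ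
      refine ⟨g, hg1, hg2, ?_, ?_⟩
      · rw [hg3]
        intro h
        apply hbQ
        have : b = 0 := Subtype.ext h
        rw [this]
        exact zero_mem _
      · rw [hg3, if_neg (fun h => hrQ h.2)]
        exact h0
  · obtain ⟨g, hg1, hg2, hg3⟩ := exists_g_out S hx hxC P hxP hP
    refine ⟨g, hg1, hg2, by rw [hg3]; exact one_ne_zero, ?_⟩
    rw [hg3, if_neg (fun h => hP h.1)]
    exact Q.ord_one

open Classical in
/-- **C5**: the pointwise inequality. -/
theorem stmt_C5 : Stmt_C5 := by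
  intro C F k Ft _ _ _ _ _ _ _ _ S x hx G hI r hr f hfu hfint D hD Q hQ
  haveI := G.fin
  haveI := G.sep
  have hxC : Transcendental C x := RedSetting.transcendental_x hx G.transc
  have hf0 : (f : F) ≠ 0 := by
    intro h
    have : f = 0 := Subtype.ext h
    rw [this] at hfu
    exact not_isUnit_zero hfu
  choose! g hg1 hg2 hg3 hg4 using exists_gP S hx G hI r hr Q hQ
  -- the finite zeros of `f`
  set Zf : Finset (Place C F) := D.support.filter (fun P => x ∈ P.toValuationSubring) with hZf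
  have hZfin : ∀ P ∈ Zf, x ∈ P.toValuationSubring := fun P hP => (Finset.mem_filter.1 hP).2
  -- orders of `f` at finite places are nonnegative
  have hDnn : ∀ P : Place C F, x ∈ P.toValuationSubring → 0 ≤ D P := by
    intro P hxP
    rw [hD P]
    exact (mem_iff_ord_nonneg P hf0).1 (mem_of_isIntegral P hxP hfint)
  set Gp : ↥S.V := ∏ P ∈ Zf, g P ^ (D P).toNat with hGp
  have hGpF : ∀ T : Finset (Place C F),
      ((∏ P ∈ T, g P ^ (D P).toNat : ↥S.V) : F) = ∏ P ∈ T, (g P : F) ^ (D P).toNat := by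
    intro T
    simp
  have hintT : ∀ T : Finset (Place C F), (∀ P ∈ T, x ∈ P.toValuationSubring) →
      IsIntegral ↥(Algebra.adjoin C {x}) (∏ P ∈ T, (g P : F) ^ (D P).toNat) := by
    intro T hT
    exact IsIntegral.prod _ fun P hP => (hg1 P (hT P hP)).pow _
  have hGint : IsIntegral ↥(Algebra.adjoin C {x}) (Gp : F) := by
    rw [hGp, hGpF]
    exact hintT Zf hZfin
  have hredG : S.red Gp = ∏ P ∈ Zf, S.red (g P) ^ (D P).toNat := by
    rw [hGp, map_prod]
    exact Finset.prod_congr rfl fun P _ => map_pow _ _ _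
  have hredG0 : S.red Gp ≠ 0 := by
    rw [hredG, Finset.prod_ne_zero_iff]
    exact fun P hP => pow_ne_zero _ (hg3 P (hZfin P hP))
  have hGp0 : (Gp : F) ≠ 0 := by
    intro h
    have : Gp = 0 := Subtype.ext h
    rw [this, map_zero] at hredG0
    exact hredG0 rfl
  -- (d) `ord_P G ≥ ord_P f` at finite places
  have hord : ∀ P : Place C F, x ∈ P.toValuationSubring → OrdGe P (D P) (Gp : F) := by
    intro P hxP
    by_cases hPD : P ∈ D.support
    · have hPZ : P ∈ Zf := Finset.mem_filter.2 ⟨hPD, hxP⟩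
      rw [hGp, hGpF, ← Finset.mul_prod_erase Zf _ hPZ]
      have h1 : OrdGe P (((D P).toNat : ℤ) * 1) ((g P : F) ^ (D P).toNat) :=
        ordGe_pow (hg2 P hxP) _
      have h2 : OrdGe P 0 (∏ P' ∈ Zf.erase P, (g P' : F) ^ (D P').toNat) :=
        (ordGe_zero_iff_mem P _).2 (mem_of_isIntegral P hxP
          (hintT _ fun P' hP' => hZfin P' (Finset.mem_of_mem_erase hP')))
      have h3 := h1.mul h2
      refine h3.mono ?_
      have := Int.self_le_toNat (D P)
      omega
    · have : D P = 0 := Finsupp.notMem_support_iff.1 hPD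
      rw [this]
      exact (ordGe_zero_iff_mem P _).2 (mem_of_isIntegral P hxP hGint)
  -- (e) `h = G / f ∈ R`
  set h : ↥S.V := Gp * ((hfu.unit⁻¹ : (↥S.V)ˣ) : ↥S.V) with hh
  have hGhf : Gp = h * f := by
    rw [hh, mul_assoc]
    have : ((hfu.unit⁻¹ : (↥S.V)ˣ) : ↥S.V) * f = 1 := by
      have := hfu.unit.inv_mul
      rwa [IsUnit.unit_spec] at this
    rw [this, mul_one]
  have hhF : (h : F) = (Gp : F) * (f : F)⁻¹ := by
    have : (Gp : F) = (h : F) * (f : F) := congrArg Subtype.val hGhf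
    rw [this, mul_assoc, mul_inv_cancel₀ hf0, mul_one]
  have hhint : IsIntegral ↥(Algebra.adjoin C {x}) (h : F) := by
    apply isIntegral_of_forall_ordGe x hxC
    intro P hxP
    rw [hhF]
    refine Or.inr ?_
    rw [P.ord_mul hGp0 (inv_ne_zero hf0), P.ord_inv, ← hD P]
    have := (hord P hxP).le hGp0
    omega
  -- (f) orders at `Q`
  have hredh0 : S.red h ≠ 0 := by
    intro h0
    rw [hGhf, map_mul, h0, zero_mul] at hredG0
    exact hredG0 rfl
  have hredf0 : S.red f ≠ 0 := (hfu.map S.red).ne_zero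
  have hQh : 0 ≤ Q.ord (S.red h) :=
    (mem_iff_ord_nonneg Q hredh0).1 (mem_of_isIntegral Q hQ (hI h hhint).1)
  have hQG : Q.ord (S.red Gp) = Q.ord (S.red h) + Q.ord (S.red f) := by
    rw [hGhf, map_mul, Q.ord_mul hredh0 hredf0]
  have hQG' : Q.ord (S.red Gp)
      = ∑ P ∈ Zf, ((D P).toNat : ℤ) * (if InChart S x P ∧ r P = Q then 1 else 0) := by
    rw [hredG, ord_prod Q Zf _ fun P hP => pow_ne_zero _ (hg3 P (hZfin P hP))]
    refine Finset.sum_congr rfl fun P hP => ?_
    rw [ord_pow, hg4 P (hZfin P hP)]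
  -- (g) the sum
  have hsum : ∑ P ∈ Zf, ((D P).toNat : ℤ) * (if InChart S x P ∧ r P = Q then 1 else 0)
      = ∑ P ∈ D.support.filter (fun P => InChart S x P ∧ r P = Q), D P := by
    have hfilt : D.support.filter (fun P => InChart S x P ∧ r P = Q)
        = Zf.filter (fun P => InChart S x P ∧ r P = Q) := by
      ext P
      simp only [Finset.mem_filter, hZf]
      constructor
      · rintro ⟨h1, h2⟩
        exact ⟨⟨h1, InChart.mem S h2.1⟩, h2⟩
      · rintro ⟨⟨h1, -⟩, h2⟩
        exact ⟨h1, h2⟩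
    rw [hfilt, Finset.sum_filter (s := Zf) (p := fun P => InChart S x P ∧ r P = Q)]
    refine Finset.sum_congr rfl fun P hP => ?_
    have := Int.toNat_of_nonneg (hDnn P (hZfin P hP))
    split_ifs <;> simp [this]
  rw [← hsum, ← hQG', hQG]
  omega

end C5

end Fermat.Agent.RED.H79

end
end
-- ==== END Fermat.Agent.RED.H79_ConsC5

-- ==== BEGIN Fermat.Agent.RED.KD.H22_Cusp0
section

/-!
# G-RED package KD (helper22), part 3: the expansion of `F_M` at the cusp `0`

`iota0 M : F_M →+* Q̄((u))`, `u = q^(1/M)`: the expansion at `∞` of `f ∘ S⁻¹`, built from the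
Galois closure of S24.  `iota0 (j(q^d)) = j(u^(M/d))`.
-/

set_option autoImplicit false

noncomputable section

open HahnSeries ModularCurve

namespace Fermat.Agent.RED.KD.H22

open Fermat.Agent.S24 Fermat.Agent.RED.H10
open scoped MatrixGroups

/-- The expansion at the cusp `0`. -/
def iota0 (M : ℕ) [NeZero M] : FN M →+* LaurentSeries Kbar :=
  ((UL M).toRingHom.comp ((piN M ModularGroup.S : LN M ≃ₐ[EN] LN M) : LN M →+* LN M)).comp
    (phi M).toRingHom

theorem iota0_apply (M : ℕ) [NeZero M] (x : FN M) :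
    iota0 M x = UL M (piN M ModularGroup.S (phi M x)) := rfl

theorem iota0_algebraMap (M : ℕ) [NeZero M] (a : Kbar) :
    iota0 M (algebraMap Kbar (FN M) a) = HahnSeries.C a := by
  rw [iota0_apply, (phi M).commutes, IsScalarTower.algebraMap_apply Kbar EN (LN M),
    AlgEquiv.commutes, ← IsScalarTower.algebraMap_apply Kbar EN (LN M), (UL M).commutes,
    algebraMap_laurentSeries_eq_single, HahnSeries.C_apply]

/-- `S • j(d τ) = j(τ / d)`. -/
theorem S_smul_JA_diag (d : ℕ) (hd : 0 < d) :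
    (ModularGroup.S : SL(2, ℤ)) • JA !![(d : ℤ), 0; 0, 1] = JA !![(1 : ℤ), 0; 0, (d : ℤ)] := by
  have hdet : 0 < (!![(d : ℤ), 0; 0, 1] : Matrix (Fin 2) (Fin 2) ℤ).det := by
    simpa [Matrix.det_fin_two] using hd
  have hdet' : 0 < (!![(1 : ℤ), 0; 0, (d : ℤ)] : Matrix (Fin 2) (Fin 2) ℤ).det := by
    simpa [Matrix.det_fin_two] using hd
  rw [smul_JA _ _ hdet]
  have h := JA_mul_left (ModularGroup.S⁻¹ : SL(2, ℤ)) !![(1 : ℤ), 0; 0, (d : ℤ)] hdet'
  rw [← h]
  congr 1
  have hS : ((ModularGroup.S⁻¹ : SL(2, ℤ)) : Matrix (Fin 2) (Fin 2) ℤ) = !![0, 1; -1, 0] := by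
    rw [Matrix.SpecialLinearGroup.coe_inv, ModularGroup.coe_S, Matrix.adjugate_fin_two_of]
    simp
  rw [hS]
  ext i j
  fin_cases i <;> fin_cases j <;> simp [Matrix.mul_apply, Fin.sum_univ_two]

/-- The expansion of `j(τ / d)` in `u = exp(2πiτ/M)` is `j(u^(M/d))`. -/
theorem uExp_JA_lower (M : ℕ) [NeZero M] (d : ℕ) [NeZero d] (hd : d ∣ M)
    (f : Atil M) (hf : (f : Hol) = JA !![(1 : ℤ), 0; 0, (d : ℤ)]) :
    haveI : NeZero (M / d) := ⟨(Nat.div_pos (Nat.le_of_dvd (Nat.pos_of_ne_zero (NeZero.ne M)) hd)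
      (Nat.pos_of_ne_zero (NeZero.ne d))).ne'⟩
    uExp M f = qExpand Kbar (M / d) jBar := by
  have hd0 : 0 < d := Nat.pos_of_ne_zero (NeZero.ne d)
  have : NeZero (M / d) := ⟨(Nat.div_pos (Nat.le_of_dvd (Nat.pos_of_ne_zero (NeZero.ne M)) hd)
      hd0).ne'⟩
  obtain ⟨c, hc, hc1, hc2⟩ := hasUExp_JA_upper M 1 d 0 one_pos hd0 hd
  have e : uExp M f = c := by
    apply uExp_eq
    rw [hf]
    exact_mod_cast hc
  rw [e]
  ext m
  simp only [mul_one, zero_mul, zpow_zero, one_mul] at hc1 hc2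
  by_cases hm : ((M / d : ℕ) : ℤ) ∣ m
  · obtain ⟨n, rfl⟩ := hm
    rw [hc1, qExpand_coeff_mul]
  · rw [hc2 m hm, qExpand_coeff_of_not_dvd _ _ hm]

theorem coe_smul_jdA (M : ℕ) (d : ℕ) (hd : 0 < d) (hdM : d ∣ M) :
    (((ModularGroup.S : SL(2, ℤ)) • jdA M d : Atil M) : Hol) = JA !![(1 : ℤ), 0; 0, (d : ℤ)] := by
  rw [coe_smul_Atil, jdA_coe M d hd hdM, S_smul_JA_diag d hd]

/-- `iota0 (j(q^d)) = j(u^(M/d))`. -/
theorem iota0_jdF (M : ℕ) [NeZero M] (d : ℕ) [NeZero d] (hd : d ∣ M) :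
    haveI : NeZero (M / d) := ⟨(Nat.div_pos (Nat.le_of_dvd (Nat.pos_of_ne_zero (NeZero.ne M)) hd)
      (Nat.pos_of_ne_zero (NeZero.ne d))).ne'⟩
    iota0 M (jdF M d hd) = qExpand Kbar (M / d) jBar := by
  have hd0 : 0 < d := Nat.pos_of_ne_zero (NeZero.ne d)
  rw [iota0_apply, phi_jdF, piN_algebraMap, UL_algebraMap]
  show uExp M ((toAT M).symm (ModularGroup.S • toAT M (jdA M d))) = _
  exact uExp_JA_lower M d hd _ (coe_smul_jdA M d hd0 hd)

end Fermat.Agent.RED.KD.H22

end
end
-- ==== END Fermat.Agent.RED.KD.H22_Cusp0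

-- ==== BEGIN Fermat.Agent.S24.Closure.Val
section

/-!
# S24 construction, layer 6 (WP CLO-Val): the valuations of the Galois closure

* `wN N τ`  : order of vanishing at `τ ∈ ℍ`;
* `winfN N` : order at the cusp `∞` in `u = exp (2 π i τ / N)`.

(WP CLO-Val: `winfN` part by helper1, `wN` part by helper23.)
-/

set_option autoImplicit false

noncomputable section

namespace Fermat.Agent.S24

open ModularCurve UpperHalfPlane WithZero
open scoped MatrixGroups Manifold

/-- The inclusion `AT N → Hol`. -/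
def valAT (N : ℕ) : AT N →+* Hol := (Atil N).val.toRingHom.comp (toAT N).symm.toAlgHom.toRingHom

theorem valAT_injective (N : ℕ) : Function.Injective (valAT N) := by
  intro f g h
  have h' : ((toAT N).symm f : Hol) = ((toAT N).symm g : Hol) := h
  exact (toAT N).symm.injective (Subtype.ext h')

theorem valAT_smul (N : ℕ) (γ : SL(2, ℤ)) (f : AT N) : valAT N (γ • f) = γ • valAT N f := rfl

theorem valAT_algebraMap (N : ℕ) (c : Kbar) :
    valAT N (algebraMap Kbar (AT N) c) = algebraMap Kbar Hol c := rfl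

theorem valAT_jT_apply (N : ℕ) (τ : ℍ) : ((valAT N (jT N) : Hol) : ℍ → ℂ) τ = jAn τ := by
  show (((toAT N).symm (toAT N (jA N)) : Atil N) : ℍ → ℂ) τ = jAn τ
  rw [AlgEquiv.symm_apply_apply]
  exact jA_apply N τ

def wAT (N : ℕ) (τ : ℍ) : Valuation (AT N) ℤᵐ⁰ := (Hol.ordVal τ).comap (valAT N)

theorem wAT_apply (N : ℕ) (τ : ℍ) (f : AT N) : wAT N τ f = Hol.ordVal τ (valAT N f) := rfl

theorem wAT_ne_zero (N : ℕ) (τ : ℍ) {f : AT N} (hf : f ≠ 0) : wAT N τ f ≠ 0 := by
  rw [wAT_apply]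
  have h : valAT N f ≠ 0 := fun h0 => hf (valAT_injective N (by rw [h0, map_zero]))
  rw [Hol.ordVal_apply τ h]
  exact WithZero.exp_ne_zero

theorem nonZeroDivisors_le_wAT (N : ℕ) (τ : ℍ) :
    nonZeroDivisors (AT N) ≤ (wAT N τ).supp.primeCompl := by
  intro f hf
  have hf0 : f ≠ 0 := nonZeroDivisors.ne_zero hf
  show f ∉ (wAT N τ).supp
  rw [Valuation.mem_supp_iff]
  exact wAT_ne_zero N τ hf0

def wN (N : ℕ) (τ : ℍ) : Valuation (LN N) ℤᵐ⁰ :=
  (wAT N τ).extendToLocalization (nonZeroDivisors_le_wAT N τ) (LN N)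

theorem wN_algebraMap_AT (N : ℕ) (τ : ℍ) (f : AT N) :
    wN N τ (algebraMap (AT N) (LN N) f) = wAT N τ f :=
  Valuation.extendToLocalization_apply_map_apply _ _ _ f

theorem wN_algebraMap (N : ℕ) (τ : ℍ) (c : Kbar) (hc : c ≠ 0) :
    wN N τ (algebraMap Kbar (LN N) c) = 1 := by
  rw [IsScalarTower.algebraMap_apply Kbar (AT N) (LN N), wN_algebraMap_AT, wAT_apply]
  have h1 : valAT N (algebraMap Kbar (AT N) c) = algebraMap ℂ Hol (iotaC c) := rfl
  rw [h1]
  exact Hol.ordVal_algebraMap τ (by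
    intro h0
    exact hc (iotaC.injective (by rw [h0, map_zero])))

theorem wN_piN_AT (N : ℕ) [NeZero N] (τ : ℍ) (γ : SL(2, ℤ)) (f : AT N) :
    wN N τ (piN N γ (algebraMap (AT N) (LN N) f)) = wN N (γ⁻¹ • τ) (algebraMap (AT N) (LN N) f) := by
  rw [piN_algebraMap, wN_algebraMap_AT, wN_algebraMap_AT, wAT_apply, wAT_apply]
  exact Hol.ordVal_smul τ γ (valAT N f)

theorem wN_piN (N : ℕ) [NeZero N] (τ : ℍ) (γ : SL(2, ℤ)) (y : LN N) :
    wN N τ (piN N γ y) = wN N (γ⁻¹ • τ) y := by
  obtain ⟨f, g, -, hy⟩ := IsFractionRing.div_surjective (A := AT N) y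
  subst hy
  calc wN N τ (piN N γ (algebraMap (AT N) (LN N) f / algebraMap (AT N) (LN N) g))
      = wN N τ (piN N γ (algebraMap (AT N) (LN N) f) / piN N γ (algebraMap (AT N) (LN N) g)) :=
        congrArg _ (map_div₀ (piN N γ) _ _)
    _ = wN N τ (piN N γ (algebraMap (AT N) (LN N) f)) /
          wN N τ (piN N γ (algebraMap (AT N) (LN N) g)) := map_div₀ (wN N τ) _ _
    _ = wN N (γ⁻¹ • τ) (algebraMap (AT N) (LN N) f) /
          wN N (γ⁻¹ • τ) (algebraMap (AT N) (LN N) g) :=
        congrArg₂ (· / ·) (wN_piN_AT N τ γ f) (wN_piN_AT N τ γ g)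
    _ = wN N (γ⁻¹ • τ) (algebraMap (AT N) (LN N) f / algebraMap (AT N) (LN N) g) :=
        (map_div₀ (wN N (γ⁻¹ • τ)) _ _).symm

theorem valAT_j_sub_apply (N : ℕ) (a : Kbar) (z : ℍ) :
    ((valAT N (jT N - algebraMap Kbar (AT N) a) : Hol) : ℍ → ℂ) z = jAn z - iotaC a := by
  have h1 : valAT N (jT N - algebraMap Kbar (AT N) a)
      = valAT N (jT N) - valAT N (algebraMap Kbar (AT N) a) := RingHom.map_sub _ _ _
  rw [h1]
  show ((valAT N (jT N) : Hol) : ℍ → ℂ) z - iotaC a = _
  rw [valAT_jT_apply]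

theorem valAT_j_sub_ne_zero (N : ℕ) (a : Kbar) :
    valAT N (jT N - algebraMap Kbar (AT N) a) ≠ 0 := by
  intro h0
  obtain ⟨z, hz⟩ := jAn_surjective (iotaC a + 1)
  have := valAT_j_sub_apply N a z
  rw [h0, hz] at this
  have h2 : ((0 : Hol) : ℍ → ℂ) z = 0 := rfl
  rw [h2] at this
  simp at this

theorem wAT_j (N : ℕ) (τ : ℍ) (a : Kbar) (h : iotaC a = jAn τ) :
    wAT N τ (jT N - algebraMap Kbar (AT N) a) = exp (-(jOrd τ : ℤ)) := by
  rw [wAT_apply, Hol.ordVal_apply τ (valAT_j_sub_ne_zero N a)]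
  have key : Hol.ordNat τ (valAT N (jT N - algebraMap Kbar (AT N) a)) = jOrd τ := by
    unfold Hol.ordNat jOrd
    have hfun : (((valAT N (jT N - algebraMap Kbar (AT N) a) : Hol) : ℍ → ℂ) ∘ ofComplex)
        = fun z : ℂ => jAn (ofComplex z) - jAn τ := by
      funext z
      show ((valAT N (jT N - algebraMap Kbar (AT N) a) : Hol) : ℍ → ℂ) (ofComplex z) = _
      rw [valAT_j_sub_apply, h]
    rw [hfun]
  rw [key]

theorem algebraMap_tE_sub (N : ℕ) [NeZero N] (a : Kbar) :
    algebraMap EN (LN N) (tE - algebraMap Kbar EN a)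
      = algebraMap (AT N) (LN N) (jT N - algebraMap Kbar (AT N) a) := by
  have h1 : algebraMap EN (LN N) (tE - algebraMap Kbar EN a)
      = algebraMap EN (LN N) tE - algebraMap EN (LN N) (algebraMap Kbar EN a) :=
    RingHom.map_sub _ _ _
  have h2 : algebraMap (AT N) (LN N) (jT N - algebraMap Kbar (AT N) a)
      = algebraMap (AT N) (LN N) (jT N) - algebraMap (AT N) (LN N) (algebraMap Kbar (AT N) a) :=
    RingHom.map_sub _ _ _
  have h3 : algebraMap EN (LN N) (algebraMap Kbar EN a) = algebraMap Kbar (LN N) a :=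
    (IsScalarTower.algebraMap_apply Kbar EN (LN N) a).symm
  have h4 : algebraMap (AT N) (LN N) (algebraMap Kbar (AT N) a) = algebraMap Kbar (LN N) a :=
    (IsScalarTower.algebraMap_apply Kbar (AT N) (LN N) a).symm
  rw [h1, h2, h3, h4, tE_map_LN]

theorem wN_j (N : ℕ) [NeZero N] (τ : ℍ) (a : Kbar) (h : iotaC a = jAn τ) :
    wN N τ (algebraMap EN (LN N) (tE - algebraMap Kbar EN a)) = exp (-(jOrd τ : ℤ)) := by
  rw [algebraMap_tE_sub, wN_algebraMap_AT]
  exact wAT_j N τ a h

/-- The order at the cusp `∞` (in `u = exp (2 π i τ / N)`), on the Galois closure. -/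
def winfN (N : ℕ) [NeZero N] : Valuation (LN N) ℤᵐ⁰ :=
  (Valued.v : Valuation (LaurentSeries Kbar) ℤᵐ⁰).comap (UL N).toRingHom

theorem winfN_apply (N : ℕ) [NeZero N] (y : LN N) :
    winfN N y = (Valued.v : Valuation (LaurentSeries Kbar) ℤᵐ⁰) (UL N y) := rfl

/-- The valuation of a Laurent series with lowest term in degree `m`. -/
theorem laurent_valuation_eq_of_coeff {K : Type*} [Field K] (f : LaurentSeries K) (m : ℤ)
    (hm : f.coeff m ≠ 0) (hlt : ∀ n : ℤ, n < m → f.coeff n = 0) :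
    (Valued.v : Valuation (LaurentSeries K) ℤᵐ⁰) f = exp (-m) := by
  apply le_antisymm
  · exact (LaurentSeries.valuation_le_iff_coeff_lt_eq_zero K).mpr hlt
  · by_contra hcon
    rw [not_le] at hcon
    have hf0 : f ≠ 0 := fun h => hm (by rw [h]; rfl)
    have hv0 : (Valued.v : Valuation (LaurentSeries K) ℤᵐ⁰) f ≠ 0 :=
      (Valuation.ne_zero_iff _).mpr hf0
    obtain ⟨a, ha⟩ : ∃ a : ℤ, (Valued.v : Valuation (LaurentSeries K) ℤᵐ⁰) f = exp a :=
      ⟨log _, (exp_log hv0).symm⟩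
    rw [ha, exp_lt_exp] at hcon
    have h1 : (Valued.v : Valuation (LaurentSeries K) ℤᵐ⁰) f ≤ exp (-(m + 1)) := by
      rw [ha, exp_le_exp]
      omega
    exact hm ((LaurentSeries.valuation_le_iff_coeff_lt_eq_zero K).mp h1 m (by omega))

/-- Twisting by a nonzero scalar does not change the valuation. -/
theorem laurent_valuation_twist {K : Type*} [Field K] (z : K) (hz : z ≠ 0) (c : LaurentSeries K) :
    (Valued.v : Valuation (LaurentSeries K) ℤᵐ⁰) (twist z c)
      = (Valued.v : Valuation (LaurentSeries K) ℤᵐ⁰) c := by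
  by_cases hc : c = 0
  · have : twist z c = 0 := by
      ext n
      rw [twist_coeff, hc]
      simp
    rw [this, hc]
  have hm : c.coeff c.order ≠ 0 := fun h => hc (HahnSeries.coeff_order_eq_zero.mp h)
  have hlt : ∀ n : ℤ, n < c.order → c.coeff n = 0 :=
    fun n hn => HahnSeries.coeff_eq_zero_of_lt_order hn
  rw [laurent_valuation_eq_of_coeff c c.order hm hlt,
    laurent_valuation_eq_of_coeff (twist z c) c.order
      (by rw [twist_coeff]; exact mul_ne_zero (zpow_ne_zero _ hz) hm)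
      (fun n hn => by rw [twist_coeff, hlt n hn, mul_zero])]

theorem winfN_algebraMap (N : ℕ) [NeZero N] (c : Kbar) (hc : c ≠ 0) :
    winfN N (algebraMap Kbar (LN N) c) = 1 := by
  rw [winfN_apply, AlgHom.commutes, algebraMap_laurentSeries_eq_single,
    laurent_valuation_eq_of_coeff _ 0 (by rw [HahnSeries.coeff_single_same]; exact hc)
      (fun n hn => HahnSeries.coeff_single_of_ne hn.ne)]
  simp

theorem winfN_piN_T_algebraMap (N : ℕ) [NeZero N] (f : AT N) :
    winfN N (piN N ModularGroup.T (algebraMap (AT N) (LN N) f))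
      = winfN N (algebraMap (AT N) (LN N) f) := by
  rw [piN_algebraMap, winfN_apply, winfN_apply, UL_algebraMap, UL_algebraMap]
  have h := uExp_T_smul N ((toAT N).symm f)
  have e : uExpT N (ModularGroup.T • f) = twist (zetaK N)⁻¹ (uExpT N f) := h
  rw [e, laurent_valuation_twist _ (inv_ne_zero (zetaK_ne_zero N))]

theorem winfN_piN_T (N : ℕ) [NeZero N] (y : LN N) :
    winfN N (piN N ModularGroup.T y) = winfN N y := by
  obtain ⟨a, b, hb, rfl⟩ := IsFractionRing.div_surjective (A := AT N) y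
  rw [map_div₀, map_div₀, map_div₀, winfN_piN_T_algebraMap, winfN_piN_T_algebraMap]

theorem winfN_j (N : ℕ) [NeZero N] :
    winfN N (algebraMap EN (LN N) tE⁻¹) = exp (-(N : ℤ)) := by
  rw [map_inv₀, map_inv₀, tE_map_LN, winfN_apply, UL_algebraMap]
  have e : uExpT N (jT N) = qExpand Kbar N jBar := uExp_jA N
  rw [e, laurent_valuation_eq_of_coeff (qExpand Kbar N jBar) (-(N : ℤ)) ?_ ?_, neg_neg, exp_neg]
  · have h := qExpand_coeff_mul (R := Kbar) N jBar (-1)
    rw [mul_neg_one] at h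
    rw [h, jBar, coeffEmb_coeff, coeff_jq_neg_one, map_one]
    exact one_ne_zero
  · intro n hn
    by_cases hdiv : (N : ℤ) ∣ n
    · obtain ⟨k, rfl⟩ := hdiv
      have hN : (0 : ℤ) < N := by exact_mod_cast Nat.pos_of_ne_zero (NeZero.ne N)
      have hk : k < -1 := by
        by_contra hcon
        have : -(N : ℤ) ≤ N * k := by nlinarith
        omega
      rw [qExpand_coeff_mul, jBar, coeffEmb_coeff, coeff_jq_of_lt hk, map_zero]
    · exact qExpand_coeff_of_not_dvd N _ hdiv

end Fermat.Agent.S24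

end
end
-- ==== END Fermat.Agent.S24.Closure.Val
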