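-- GENERATED (merged mirror, NOTES/tools/trim/merge3_helper67.py): 7 modules of the originals, bodies verbatim.
import Mathlib
import Fermat.Agent.Zm.S35_L08_001
import Fermat.Agent.Zm.S35_L04_002
import Fermat.Agent.Zm.S35_L05_000
import Fermat.Agent.Zm.S35_L08_000
import Fermat.Agent.Zm.S35_L08_004
import Fermat.Agent.Zm.S35_L03_000
import Fermat.Agent.Zm.S35_L04_000

-- ==== BEGIN Fermat.Agent.BAD.H17_Contain
section

/-!
# Item 65, package ABS, leaves `Stmt_Contain` and `Stmt_Contain0` (helper17)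

* `stmt_Contain : Stmt_Contain`: for a twist datum `x` and `G` in good position, the reduction of
  the unit ball of `L(D_x + G)` lies in `L₁(r₁_* G) × L₂(r₂_* G + Δ)` and satisfies the `n`-th
  power gluing condition at the nodes.
* `stmt_Contain0 : Stmt_Contain0`: the untwisted case.

Proof: at the good places the divisor identity (`PRed.DI`); at the nodes the gluing condition
(`SSD.glue`) applied to `f hⁿ = (f / ϑⁿ) (ϑ h)ⁿ`, which is regular on the fibres of the nodes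
because `G` is in good position.
-/

set_option autoImplicit false
set_option linter.style.haveILetI false
set_option maxHeartbeats 1000000

noncomputable section

open AlgebraicCurve

attribute [local instance] Classical.propDecidable

namespace Fermat.Agent.BAD.H17

open Fermat.Agent.RED.H17 Fermat.Agent.RED Fermat.Agent.BAD

local notation "L" => riemannRochSpace

section Comp

variable {K F k F' : Type*} [Field K] [Field F] [Algebra K F] [Field k] [Field F']
  [Algebra k F']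

/-- The divisor identity at a good place, as an inequality: if `div w ≥ -E`, then
`ord_Q (rd w) ≥ -(r_* E)(Q)`. -/
theorem ord_rd_ge_of_le (c : PRed K F k F') (hP : HasPrincipalDivisors K F) {w : F}
    (hw : c.IsGU w) (E : Divisor K F) (hE : ∀ P, -E P ≤ P.ord w) {Q : Place k F'}
    (hQ : Q ∈ c.good) :
    -(Finsupp.mapDomain c.r E (some Q)) ≤ Q.ord (c.rd w) := by
  have h1 := c.DI ⟨w, hw.1⟩ (by rw [← c.rd_of_mem hw.1]; exact hw.2) (dv hP w)
    (fun P => dv_apply hP w P) Q hQ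
  rw [← c.rd_of_mem hw.1] at h1
  have h2 := mapDomain_nonneg' c.r (D := dv hP w + E) (fun P => by
    rw [Finsupp.add_apply, dv_apply]
    have := hE P
    omega) (some Q)
  rw [Finsupp.mapDomain_add, Finsupp.add_apply, h1] at h2
  omega

/-- The divisor identity for a divisor `E` with `n E = div w`. -/
theorem mapDomain_eq_ediv (c : PRed K F k F') (_hP : HasPrincipalDivisors K F) {w : F}
    (hw : c.IsGU w) {n : ℕ} (hn : n ≠ 0) (E : Divisor K F)
    (hE : ∀ P, (n : ℤ) * E P = P.ord w) {Q : Place k F'} (hQ : Q ∈ c.good) :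
    Finsupp.mapDomain c.r E (some Q) = Q.ord (c.rd w) / (n : ℤ) := by
  have h1 := c.DI ⟨w, hw.1⟩ (by rw [← c.rd_of_mem hw.1]; exact hw.2) ((n : ℤ) • E)
    (fun P => by rw [Finsupp.smul_apply, smul_eq_mul]; exact hE P) Q hQ
  rw [← c.rd_of_mem hw.1, Finsupp.mapDomain_smul, Finsupp.smul_apply, smul_eq_mul] at h1
  rw [← h1, Int.mul_ediv_cancel_left _ (by exact_mod_cast hn)]

end Comp

section Main

variable {K F k F₁ F₂ : Type*} [Field K] [Field F] [Algebra K F] [Field k] [Field F₁]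
  [Algebra k F₁] [Field F₂] [Algebra k F₂] (S : SSD K F k F₁ F₂)

theorem isNodeP_of_r₂ {s : Place k F₁ × Place k F₂} (hs : s ∈ S.nodes) {P : Place K F}
    (h : S.c₂.r P = some s.2) : S.IsNodeP P := by
  rcases S.r_cases P with ⟨Q, hQ, h1, h2⟩ | ⟨Q, hQ, h1, h2⟩ | ⟨s', hs', h1, h2⟩
  · rw [h2] at h
    cases h
  · rw [h1] at h
    have hQs : Q = s.2 := Option.some.inj h
    exact absurd hQs.symm ((S.good₂ Q).mp hQ s hs)
  · exact ⟨s', hs', h1⟩

theorem push₁_node {G : Divisor K F} (hG : S.GoodPos G) {s : Place k F₁ × Place k F₂}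
    (hs : s ∈ S.nodes) : S.push₁ G s.1 = 0 := by
  rw [S.push₁_apply, mapDomain_apply_eq_sum]
  refine Finset.sum_eq_zero fun P hP => ?_
  rw [if_neg]
  intro h
  exact hG P (Finsupp.mem_support_iff.mp hP) ⟨s, hs, h⟩

theorem push₂_node {G : Divisor K F} (hG : S.GoodPos G) {s : Place k F₁ × Place k F₂}
    (hs : s ∈ S.nodes) : S.push₂ G s.2 = 0 := by
  rw [S.push₂_apply, mapDomain_apply_eq_sum]
  refine Finset.sum_eq_zero fun P hP => ?_
  rw [if_neg]
  intro h
  exact hG P (Finsupp.mem_support_iff.mp hP) (isNodeP_of_r₂ S hs h)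

theorem not_good₁ {Q : Place k F₁} (hQ : Q ∉ S.c₁.good) : ∃ s ∈ S.nodes, s.1 = Q := by
  rw [S.good₁] at hQ
  push Not at hQ
  exact hQ

theorem not_good₂ {Q : Place k F₂} (hQ : Q ∉ S.c₂.good) : ∃ s ∈ S.nodes, s.2 = Q := by
  rw [S.good₂] at hQ
  push Not at hQ
  exact hQ

/-- Regularity of `ψ` from regularity of `u ψⁿ`, `u` a unit at the place. -/
theorem ord_nonneg_of_regAt_mul_pow {k' F' : Type*} [Field k'] [Field F'] [Algebra k' F']
    (Q : Place k' F') {u ψ : F'} (hu : u ≠ 0) (hu0 : Q.ord u = 0) {n : ℕ} (hn : n ≠ 0)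
    (h : RegAt Q (u * ψ ^ n)) (hψ : ψ ≠ 0) : 0 ≤ Q.ord ψ := by
  have h1 := h.ord_nonneg
  rw [Q.ord_mul hu (pow_ne_zero n hψ), hu0, zero_add, ord_pow] at h1
  have hn' : (0 : ℤ) < n := by exact_mod_cast Nat.pos_of_ne_zero hn
  by_contra hneg
  push Not at hneg
  have := mul_neg_of_pos_of_neg hn' hneg
  omega

/-! ### Twist data -/

variable {S}

theorem twist_isGU₁ {n : ℕ} (x : S.Twist n) : S.c₁.IsGU x.f :=
  ⟨x.hf₁, by rw [x.hrd₁]; exact one_ne_zero⟩

theorem Dx_apply {n : ℕ} (x : S.Twist n) (hP : HasPrincipalDivisors K F) (P : Place K F) :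
    x.Dx hP P = P.ord x.f / (n : ℤ) := by
  unfold SSD.Twist.Dx
  rw [Finsupp.mapRange_apply, dv_apply]

theorem n_mul_Dx {n : ℕ} (x : S.Twist n) (hP : HasPrincipalDivisors K F) (P : Place K F) :
    (n : ℤ) * x.Dx hP P = P.ord x.f := by
  rw [Dx_apply]
  exact Int.mul_ediv_cancel' (x.hdiv P)

theorem Δ_apply {n : ℕ} (x : S.Twist n) (hP₂ : HasPrincipalDivisors k F₂) (Q : Place k F₂) :
    x.Δ hP₂ Q = Q.ord x.γ / (n : ℤ) := by
  unfold SSD.Twist.Δ
  rw [Finsupp.mapRange_apply, dv_apply]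

/-- The `n`-th power gluing condition for the reduction of `h ∈ L(D_x + G)`. -/
theorem glue_twist (hP : HasPrincipalDivisors K F) {n : ℕ} (hn : n ≠ 0) (x : S.Twist n)
    (G : Divisor K F) (hG : S.GoodPos G) {h : F} (hL : h ∈ L (x.Dx hP + G))
    (h1 : h ∈ S.c₁.V) (h2 : x.ϑ * h ∈ S.c₂.V) :
    ∀ s ∈ S.nodes, ∃ a : k, VanAt s.1 (S.c₁.rd h ^ n - algebraMap k F₁ a) ∧
      VanAt s.2 (x.γ * S.c₂.rd (x.ϑ * h) ^ n - algebraMap k F₂ a) := by
  intro s hs
  have hf0 : x.f ≠ 0 := (twist_isGU₁ x).ne_zero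
  have hfh1 : x.f * h ^ n ∈ S.c₁.V := S.c₁.V.mul_mem _ _ x.hf₁ (pow_mem h1 n)
  have e : x.f * h ^ n = (x.f / x.ϑ ^ n) * (x.ϑ * h) ^ n := by
    have := x.hϑ
    field_simp
    ring
  have hfh2 : x.f * h ^ n ∈ S.c₂.V := by
    rw [e]
    exact S.c₂.V.mul_mem _ _ x.hf₂.1 (pow_mem h2 n)
  have hreg : ∀ P, S.c₁.r P = some s.1 → 0 ≤ P.ord (x.f * h ^ n) := by
    intro P hPs
    by_cases hh0 : h = 0
    · rw [hh0, zero_pow hn, mul_zero, Place.ord_zero]
    · have hGP : G P = 0 := by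
        by_contra hne
        exact hG P hne ⟨s, hs, hPs⟩
      have h3 := ord_ge_of_mem_L hL hh0 P
      rw [Finsupp.add_apply, hGP, add_zero] at h3
      have h4 := n_mul_Dx x hP P
      rw [P.ord_mul hf0 (pow_ne_zero n hh0), ord_pow]
      have hn' : (0 : ℤ) ≤ n := Int.natCast_nonneg n
      nlinarith
  obtain ⟨a, ha1, ha2⟩ := S.glue s hs _ hfh1 hfh2 hreg
  refine ⟨a, ?_, ?_⟩
  · rw [← S.c₁.rd_of_mem hfh1, S.c₁.rd_mul x.hf₁ (pow_mem h1 n), x.hrd₁, one_mul,
      S.c₁.rd_pow h1] at ha1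
    exact ha1
  · have e3 : S.c₂.red ⟨_, hfh2⟩ = x.γ * S.c₂.rd (x.ϑ * h) ^ n := by
      rw [← S.c₂.rd_of_mem hfh2, e, S.c₂.rd_mul x.hf₂.1 (pow_mem h2 n), S.c₂.rd_pow h2]
      rfl
    rw [e3] at ha2
    exact ha2

/-- **Containment.** -/
theorem contain (H : FFHyp K F) (H₂ : FFHyp k F₂) {n : ℕ} (hn : n ≠ 0) (x : S.Twist n)
    (G : Divisor K F) (hG : S.GoodPos G) {ψ : F₁ × F₂}
    (hψ : ψ ∈ S.Rsub x.ϑ (x.Dx H.principal + G)) :
    ψ.1 ∈ L (S.push₁ G) ∧ ψ.2 ∈ L (S.push₂ G + x.Δ H₂.principal) ∧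
      ∀ s ∈ S.nodes, ∃ a : k, VanAt s.1 (ψ.1 ^ n - algebraMap k F₁ a) ∧
        VanAt s.2 (x.γ * ψ.2 ^ n - algebraMap k F₂ a) := by
  obtain ⟨h, hL, h1, h2, e1, e2⟩ := hψ
  have hP := H.principal
  have hf0 : x.f ≠ 0 := (twist_isGU₁ x).ne_zero
  have hglue := glue_twist hP hn x G hG hL h1 h2
  rw [e1, e2] at hglue
  refine ⟨?_, ?_, hglue⟩
  · rw [mem_L_iff_ord]
    intro Q
    by_cases hψ0 : ψ.1 = 0
    · exact Or.inl hψ0
    right
    have hGU : S.c₁.IsGU h := ⟨h1, by rw [e1]; exact hψ0⟩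
    by_cases hQ : Q ∈ S.c₁.good
    · have h3 := ord_rd_ge_of_le S.c₁ hP hGU (x.Dx hP + G)
        (fun P => ord_ge_of_mem_L hL hGU.ne_zero P) hQ
      rw [Finsupp.mapDomain_add, Finsupp.add_apply, e1] at h3
      have hDx := mapDomain_eq_ediv S.c₁ hP (twist_isGU₁ x) hn (x.Dx hP) (n_mul_Dx x hP) hQ
      rw [x.hrd₁, Place.ord_one, Int.zero_ediv] at hDx
      rw [S.push₁_apply]
      omega
    · obtain ⟨s, hs, rfl⟩ := not_good₁ S hQ
      rw [push₁_node S hG hs, neg_zero]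
      obtain ⟨a, ha1, -⟩ := hglue s hs
      have hreg : RegAt s.1 (1 * ψ.1 ^ n) := by
        rw [one_mul]
        exact RegAt.of_vanAt_sub ha1
      exact ord_nonneg_of_regAt_mul_pow s.1 one_ne_zero (Place.ord_one _) hn hreg hψ0
  · rw [mem_L_iff_ord]
    intro Q
    by_cases hψ0 : ψ.2 = 0
    · exact Or.inl hψ0
    right
    have hGU : S.c₂.IsGU (x.ϑ * h) := ⟨h2, by rw [e2]; exact hψ0⟩
    have hh0 : h ≠ 0 := fun h0 => hGU.ne_zero (by rw [h0, mul_zero])
    rw [Finsupp.add_apply, Δ_apply]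
    by_cases hQ : Q ∈ S.c₂.good
    · have h3 := ord_rd_ge_of_le S.c₂ hP hGU ((x.Dx hP - dv hP x.ϑ) + G) (fun P => by
        have := ord_ge_of_mem_L hL hh0 P
        rw [Finsupp.add_apply] at this
        rw [Finsupp.add_apply, Finsupp.sub_apply, dv_apply, P.ord_mul x.hϑ hh0]
        omega) hQ
      rw [Finsupp.mapDomain_add, Finsupp.add_apply, e2] at h3
      rw [S.push₂_apply]
      have hDx := mapDomain_eq_ediv S.c₂ hP x.hf₂ hn (x.Dx hP - dv hP x.ϑ) (fun P => by
        rw [Finsupp.sub_apply, mul_sub, n_mul_Dx, dv_apply,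
          ord_div _ hf0 (pow_ne_zero n x.hϑ), ord_pow]) hQ
      change _ = Q.ord x.γ / _ at hDx
      omega
    · obtain ⟨s, hs, rfl⟩ := not_good₂ S hQ
      have hγ0 : s.2.ord x.γ = 0 := x.hγ s hs
      rw [push₂_node S hG hs, hγ0, Int.zero_ediv, add_zero, neg_zero]
      obtain ⟨a, -, ha2⟩ := hglue s hs
      have hreg : RegAt s.2 (x.γ * ψ.2 ^ n) := RegAt.of_vanAt_sub ha2
      exact ord_nonneg_of_regAt_mul_pow s.2 x.hf₂.2 hγ0 hn hreg hψ0

/-- **Untwisted containment.** -/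
theorem contain0 (H : FFHyp K F) (D : Divisor K F) (hD : S.GoodPos D) :
    S.Rsub 1 D ≤ S.Lam (fun _ => 1) (S.push₁ D) (S.push₂ D) := by
  rintro ψ ⟨h, hL, h1, h2, e1, e2⟩
  have hP := H.principal
  rw [one_mul] at h2 e2
  have hglue : ∀ s ∈ S.nodes, ∃ a : k, VanAt s.1 (ψ.1 - algebraMap k F₁ a) ∧
      VanAt s.2 (ψ.2 - algebraMap k F₂ a) := by
    intro s hs
    have hreg : ∀ P, S.c₁.r P = some s.1 → 0 ≤ P.ord h := by
      intro P hPs
      by_cases hh0 : h = 0
      · rw [hh0, Place.ord_zero]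
      · have hDP : D P = 0 := by
          by_contra hne
          exact hD P hne ⟨s, hs, hPs⟩
        have h3 := ord_ge_of_mem_L hL hh0 P
        rw [hDP] at h3
        omega
    obtain ⟨a, ha1, ha2⟩ := S.glue s hs h h1 h2 hreg
    rw [← S.c₁.rd_of_mem h1, e1] at ha1
    rw [← S.c₂.rd_of_mem h2, e2] at ha2
    exact ⟨a, ha1, ha2⟩
  rw [SSD.mem_Lam]
  refine ⟨?_, ?_, fun s hs => ?_⟩
  · rw [mem_L_iff_ord]
    intro Q
    by_cases hψ0 : ψ.1 = 0
    · exact Or.inl hψ0
    right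
    have hGU : S.c₁.IsGU h := ⟨h1, by rw [e1]; exact hψ0⟩
    by_cases hQ : Q ∈ S.c₁.good
    · have h3 := ord_rd_ge_of_le S.c₁ hP hGU D
        (fun P => ord_ge_of_mem_L hL hGU.ne_zero P) hQ
      rw [← S.push₁_apply, e1] at h3
      exact h3
    · obtain ⟨s, hs, rfl⟩ := not_good₁ S hQ
      rw [push₁_node S hD hs, neg_zero]
      obtain ⟨a, ha1, -⟩ := hglue s hs
      exact (RegAt.of_vanAt_sub ha1).ord_nonneg
  · rw [mem_L_iff_ord]
    intro Q
    by_cases hψ0 : ψ.2 = 0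
    · exact Or.inl hψ0
    right
    have hGU : S.c₂.IsGU h := ⟨h2, by rw [e2]; exact hψ0⟩
    by_cases hQ : Q ∈ S.c₂.good
    · have h3 := ord_rd_ge_of_le S.c₂ hP hGU D
        (fun P => ord_ge_of_mem_L hL hGU.ne_zero P) hQ
      rw [← S.push₂_apply, e2] at h3
      exact h3
    · obtain ⟨s, hs, rfl⟩ := not_good₂ S hQ
      rw [push₂_node S hD hs, neg_zero]
      obtain ⟨a, -, ha2⟩ := hglue s hs
      exact (RegAt.of_vanAt_sub ha2).ord_nonneg
  · obtain ⟨a, ha1, ha2⟩ := hglue s hs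
    refine ⟨a, ha1, ?_⟩
    rw [map_one, one_mul]
    exact ha2

end Main

/-- **Leaf `Stmt_Contain`.** -/
theorem stmt_Contain : Stmt_Contain := by
  intro K F k F₁ F₂ _ _ _ _ _ _ _ _ S H _ H₂ n hn x G hG ψ hψ
  have hn0 : n ≠ 0 := by
    rintro rfl
    exact hn Nat.cast_zero
  exact contain H H₂ hn0 x G hG hψ

/-- **Leaf `Stmt_Contain0`.** -/
theorem stmt_Contain0 : Stmt_Contain0 := by
  intro K F k F₁ F₂ _ _ _ _ _ _ _ _ S H _ _ D hD
  exact contain0 H D hD

end Fermat.Agent.BAD.H17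

end
end
-- ==== END Fermat.Agent.BAD.H17_Contain

-- ==== BEGIN Fermat.Agent.BAD.H28_GlueStmt
section

/-!
# Item 65, package ABS (helper28): GLUE for Frobenius-like automorphisms ((B2') for S35)

`SSD.IsFrobLike τ τ₁ τ₂ Q`: the semilinear automorphism `τ` of `F` preserves the two valuation
rings, induces `τ₁`, `τ₂` on the residue fields, preserves the set of places reducing to nodes,
and `τ_i` raises the values at the branches of the nodes to the `Q`-th power (`τ_i` fixes the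
branches and acts on `k` by `a ↦ a ^ Q`; e.g. `τ = φ²`, `φ` a Frobenius at `q`, `Q = q²`: the
supersingular points are rational over the field with `q²` elements).

`Stmt_GlueFrob`: on the toric part `T = ker red₁ ∩ ker red₂` such a `τ` acts as multiplication
by `Q`: if `red₁ f = 1`, `red₂ (f / c₀ ^ n) = 1` and `n ∣ div f`, then `τ f / f ^ Q` is an `n`-th
power.

Proof (from `Stmt_Moving`, `Stmt_GoodLift`, `Stmt_TIss`): twist datum `ϑ = c₀`; moving lemma:
`F_h = f h ^ n` unit for both valuations, no zero or pole on the node fibres, reductions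
`ψ₁ ^ n`, `ψ₂ ^ n` with `ψ_i` units at the branches (`glue` + `DIn`); `G = τ F_h / F_h ^ Q` has
reductions `u_i ^ n`, `u_i = τ_i ψ_i / ψ_i ^ Q`, and `u₁(s₁) = 1 = u₂(s₂)`; lift `(u₁, u₂)` to
`u` (good lift, no zero on the node fibres); `G / u ^ n` satisfies TI-ss-gp.
-/

set_option autoImplicit false

noncomputable section

open AlgebraicCurve

namespace Fermat.Agent.BAD

open Fermat.Agent.RED.H17 Fermat.Agent.RED

namespace SSD

variable {K F k F₁ F₂ : Type*} [Field K] [Field F] [Algebra K F] [Field k] [Field F₁]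
  [Algebra k F₁] [Field F₂] [Algebra k F₂]

/-- `τ` is Frobenius-like of exponent `Q` for the datum `S`. -/
structure IsFrobLike (S : SSD K F k F₁ F₂) (τ : SemilinearAut K F) (τ₁ : F₁ →+* F₁)
    (τ₂ : F₂ →+* F₂) (Q : ℕ) : Prop where
  mem₁ : ∀ f : F, f ∈ S.c₁.V → τ • f ∈ S.c₁.V
  mem₂ : ∀ f : F, f ∈ S.c₂.V → τ • f ∈ S.c₂.V
  red₁ : ∀ (f : F) (h : f ∈ S.c₁.V) (h' : τ • f ∈ S.c₁.V),
    S.c₁.red ⟨_, h'⟩ = τ₁ (S.c₁.red ⟨f, h⟩)
  red₂ : ∀ (f : F) (h : f ∈ S.c₂.V) (h' : τ • f ∈ S.c₂.V),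
    S.c₂.red ⟨_, h'⟩ = τ₂ (S.c₂.red ⟨f, h⟩)
  node : ∀ P : Place K F, S.IsNodeP P → S.IsNodeP (τ⁻¹ • P)
  val₁ : ∀ s ∈ S.nodes, ∀ (ψ : F₁) (a : k), VanAt s.1 (ψ - algebraMap k F₁ a) →
    VanAt s.1 (τ₁ ψ - algebraMap k F₁ (a ^ Q))
  val₂ : ∀ s ∈ S.nodes, ∀ (ψ : F₂) (a : k), VanAt s.2 (ψ - algebraMap k F₂ a) →
    VanAt s.2 (τ₂ ψ - algebraMap k F₂ (a ^ Q))

end SSD

/-- **GLUE, Frobenius form ((B2') of `NOTES/plan/BAD.md`).** -/
def Stmt_GlueFrob : Prop :=
  ∀ (K F k F₁ F₂ : Type) [Field K] [Field F] [Algebra K F] [Field k] [Field F₁]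
    [Algebra k F₁] [Field F₂] [Algebra k F₂] [IsAlgClosed K] [IsAlgClosed k]
    (S : SSD K F k F₁ F₂) (_ : FFHyp K F) (_ : FFHyp k F₁) (_ : FFHyp k F₂)
    (g g₁ g₂ : ℕ) (c c₁ c₂ : ℤ), IsGenus K F g c → IsGenus k F₁ g₁ c₁ → IsGenus k F₂ g₂ c₂ →
    g + 1 ≤ g₁ + g₂ + S.nodes.card →
    ∀ (n : ℕ), (n : k) ≠ 0 →
    ∀ (τ : SemilinearAut K F) (τ₁ : F₁ →+* F₁) (τ₂ : F₂ →+* F₂) (Q : ℕ),
      S.IsFrobLike τ τ₁ τ₂ Q →
    ∀ (f : F) (c₀ : K), c₀ ≠ 0 → f ∈ S.c₁.V → S.c₁.rd f = 1 →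
      f / algebraMap K F c₀ ^ n ∈ S.c₂.V → S.c₂.rd (f / algebraMap K F c₀ ^ n) = 1 →
      (∀ P : Place K F, (n : ℤ) ∣ P.ord f) →
      ∃ t : F, t ^ n = (τ • f) / f ^ Q

end Fermat.Agent.BAD

end
end
-- ==== END Fermat.Agent.BAD.H28_GlueStmt

-- ==== BEGIN Fermat.Agent.BAD.H41_Linearise
section

/-!
# Item 65, package ABS, leaf 3: `Stmt_Linearise` (helper41)

A `k`-subspace `I` of pairs `(ψ₁, ψ₂)` satisfying the `n`-th power gluing condition
`ψ₁(s₁)^n = (γ ψ₂^n)(s₂)` at the nodes satisfies a linear gluing condition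
`ψ₁(s₁) = λ_s ψ₂(s₂)`.

Proof: `A(ψ) = ψ₁(s₁)` and `B(ψ) = ψ₂(s₂)` are linear on `I` with `A^n = γ(s₂) B^n`; pick `ψ0`
with `A(ψ0) ≠ 0` and apply `H55.stmt_Ratio` to `ψ + t ψ0`.
-/

set_option autoImplicit false
set_option linter.style.haveILetI false

noncomputable section

open AlgebraicCurve

namespace Fermat.Agent.BAD.H41

open Fermat.Agent.RED.H17 Fermat.Agent.BAD Fermat.Agent.BAD.H55

variable {k F : Type} [Field k] [Field F] [Algebra k F]

/-- The value of a function at a place of degree one (`0` if the function is not regular). -/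
def valAt (v : Place k F) (hdeg : v.deg = 1) (f : F) : k :=
  open Classical in
  if h : RegAt v f then evalAt v hdeg ⟨f, (regAt_iff_mem v f).mp h⟩ else 0

theorem valAt_of_regAt (v : Place k F) (hdeg : v.deg = 1) {f : F} (h : RegAt v f) :
    valAt v hdeg f = evalAt v hdeg ⟨f, (regAt_iff_mem v f).mp h⟩ := by
  unfold valAt
  rw [dif_pos h]

theorem valAt_eq_iff (v : Place k F) (hdeg : v.deg = 1) {f : F} (h : RegAt v f) (a : k) :
    valAt v hdeg f = a ↔ VanAt v (f - algebraMap k F a) := by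
  rw [valAt_of_regAt v hdeg h]
  exact evalAt_eq_iff v hdeg ⟨f, (regAt_iff_mem v f).mp h⟩ a

theorem vanAt_sub_valAt (v : Place k F) (hdeg : v.deg = 1) {f : F} (h : RegAt v f) :
    VanAt v (f - algebraMap k F (valAt v hdeg f)) :=
  (valAt_eq_iff v hdeg h _).mp rfl

theorem valAt_add (v : Place k F) (hdeg : v.deg = 1) {f g : F} (hf : RegAt v f)
    (hg : RegAt v g) : valAt v hdeg (f + g) = valAt v hdeg f + valAt v hdeg g := by
  rw [valAt_of_regAt v hdeg hf, valAt_of_regAt v hdeg hg, valAt_of_regAt v hdeg (hf.add hg),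
    ← map_add]
  rfl

theorem valAt_mul (v : Place k F) (hdeg : v.deg = 1) {f g : F} (hf : RegAt v f)
    (hg : RegAt v g) : valAt v hdeg (f * g) = valAt v hdeg f * valAt v hdeg g := by
  rw [valAt_of_regAt v hdeg hf, valAt_of_regAt v hdeg hg, valAt_of_regAt v hdeg (hf.mul hg),
    ← map_mul]
  rfl

theorem valAt_algebraMap (v : Place k F) (hdeg : v.deg = 1) (a : k) :
    valAt v hdeg (algebraMap k F a) = a := by
  rw [valAt_eq_iff v hdeg (regAt_algebraMap v a), sub_self]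
  exact vanAt_zero v

theorem valAt_pow (v : Place k F) (hdeg : v.deg = 1) {f : F} (hf : RegAt v f) (n : ℕ) :
    valAt v hdeg (f ^ n) = valAt v hdeg f ^ n := by
  induction n with
  | zero =>
    rw [pow_zero, pow_zero, ← map_one (algebraMap k F)]
    exact valAt_algebraMap v hdeg 1
  | succ m ih =>
    rw [pow_succ, pow_succ, valAt_mul v hdeg (hf.pow m) hf, ih]

theorem valAt_smul (v : Place k F) (hdeg : v.deg = 1) (t : k) {f : F} (hf : RegAt v f) :
    valAt v hdeg (t • f) = t * valAt v hdeg f := by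
  rw [Algebra.smul_def, valAt_mul v hdeg (regAt_algebraMap v t) hf, valAt_algebraMap]

/-- A function with a regular `n`-th power is regular. -/
theorem regAt_of_pow {v : Place k F} {f : F} {n : ℕ} (hn : n ≠ 0) (h : RegAt v (f ^ n)) :
    RegAt v f := by
  by_contra hcon
  rw [not_regAt_iff_ord] at hcon
  have hf : f ≠ 0 := by
    rintro rfl
    simp at hcon
  have h1 := h.ord_nonneg
  rw [Fermat.Agent.RED.H17.ord_pow] at h1
  have hn' : (0 : ℤ) < n := by exact_mod_cast Nat.pos_of_ne_zero hn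
  nlinarith

/-- The linearisation at one node. -/
theorem linearise_node {F₁ F₂ : Type} [Field F₁] [Algebra k F₁] [Field F₂] [Algebra k F₂]
    [Infinite k] (H₁ : FFHyp k F₁) (H₂ : FFHyp k F₂) (n : ℕ) (hn : (n : k) ≠ 0)
    (γ : F₂) (hγ0 : γ ≠ 0) (s₁ : Place k F₁) (s₂ : Place k F₂) (hγ : s₂.ord γ = 0)
    (I : Submodule k (F₁ × F₂))
    (hI : ∀ ψ ∈ I, ∃ a : k, VanAt s₁ (ψ.1 ^ n - algebraMap k F₁ a) ∧
      VanAt s₂ (γ * ψ.2 ^ n - algebraMap k F₂ a)) :
    ∃ lam : k, lam ≠ 0 ∧ ∀ ψ ∈ I, ∃ a : k, VanAt s₁ (ψ.1 - algebraMap k F₁ a) ∧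
      VanAt s₂ (algebraMap k F₂ lam * ψ.2 - algebraMap k F₂ a) := by
  have hn0 : n ≠ 0 := by
    rintro rfl
    exact hn (by simp)
  have hd₁ := H₁.deg_one s₁
  have hd₂ := H₂.deg_one s₂
  -- `γ` is a unit at `s₂`
  have hγreg : RegAt s₂ γ := regAt_of_ord_nonneg (by rw [hγ])
  have hγinv : RegAt s₂ γ⁻¹ := by
    apply regAt_of_ord_nonneg
    rw [Place.ord_inv, hγ, neg_zero]
  have hc : valAt s₂ hd₂ γ ≠ 0 := by
    intro h0
    have h1 := (valAt_eq_iff s₂ hd₂ hγreg 0).mp h0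
    rw [map_zero, sub_zero] at h1
    have := h1.ord_pos hγ0
    omega
  -- regularity
  have hR1 : ∀ ψ ∈ I, RegAt s₁ ψ.1 := by
    intro ψ hψ
    obtain ⟨a, ha, -⟩ := hI ψ hψ
    have h1 : RegAt s₁ (ψ.1 ^ n) := by
      have := ha.regAt.add (regAt_algebraMap s₁ a)
      rwa [sub_add_cancel] at this
    exact regAt_of_pow hn0 h1
  have hR2 : ∀ ψ ∈ I, RegAt s₂ ψ.2 := by
    intro ψ hψ
    obtain ⟨a, -, ha⟩ := hI ψ hψ
    have h1 : RegAt s₂ (γ * ψ.2 ^ n) := by
      have := ha.regAt.add (regAt_algebraMap s₂ a)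
      rwa [sub_add_cancel] at this
    have h2 : RegAt s₂ (ψ.2 ^ n) := by
      have := hγinv.mul h1
      rwa [← mul_assoc, inv_mul_cancel₀ hγ0, one_mul] at this
    exact regAt_of_pow hn0 h2
  -- the power relation
  have hpow : ∀ ψ ∈ I, valAt s₁ hd₁ ψ.1 ^ n = valAt s₂ hd₂ γ * valAt s₂ hd₂ ψ.2 ^ n := by
    intro ψ hψ
    obtain ⟨a, ha1, ha2⟩ := hI ψ hψ
    have e1 := (valAt_eq_iff s₁ hd₁ ((hR1 ψ hψ).pow n) a).mpr ha1
    have e2 := (valAt_eq_iff s₂ hd₂ (hγreg.mul ((hR2 ψ hψ).pow n)) a).mpr ha2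
    rw [valAt_pow s₁ hd₁ (hR1 ψ hψ)] at e1
    rw [valAt_mul s₂ hd₂ hγreg ((hR2 ψ hψ).pow n), valAt_pow s₂ hd₂ (hR2 ψ hψ)] at e2
    rw [e1, e2]
  -- the conclusion from a linear relation
  have hfin : ∀ lam : k, (∀ ψ ∈ I, valAt s₁ hd₁ ψ.1 = lam * valAt s₂ hd₂ ψ.2) →
      ∀ ψ ∈ I, ∃ a : k, VanAt s₁ (ψ.1 - algebraMap k F₁ a) ∧
        VanAt s₂ (algebraMap k F₂ lam * ψ.2 - algebraMap k F₂ a) := by
    intro lam hlam ψ hψ
    refine ⟨valAt s₁ hd₁ ψ.1, vanAt_sub_valAt s₁ hd₁ (hR1 ψ hψ), ?_⟩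
    rw [← valAt_eq_iff s₂ hd₂ ((regAt_algebraMap s₂ lam).mul (hR2 ψ hψ)),
      valAt_mul s₂ hd₂ (regAt_algebraMap s₂ lam) (hR2 ψ hψ), valAt_algebraMap, hlam ψ hψ]
  by_cases hex : ∃ ψ0 ∈ I, valAt s₁ hd₁ ψ0.1 ≠ 0
  · obtain ⟨ψ0, hψ0, hA₀⟩ := hex
    have hB₀ : valAt s₂ hd₂ ψ0.2 ≠ 0 := by
      intro h0
      have := hpow ψ0 hψ0
      rw [h0, zero_pow hn0, mul_zero] at this
      exact hA₀ (pow_eq_zero_iff hn0 |>.mp this)
    refine ⟨valAt s₁ hd₁ ψ0.1 / valAt s₂ hd₂ ψ0.2, div_ne_zero hA₀ hB₀, ?_⟩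
    apply hfin
    intro ψ hψ
    have hrat := stmt_Ratio k n hn (valAt s₁ hd₁ ψ.1) (valAt s₁ hd₁ ψ0.1)
      (valAt s₂ hd₂ ψ.2) (valAt s₂ hd₂ ψ0.2) (valAt s₂ hd₂ γ) hA₀ (by
        intro t
        have hmem : ψ + t • ψ0 ∈ I := I.add_mem hψ (I.smul_mem t hψ0)
        have := hpow _ hmem
        rw [Prod.fst_add, Prod.snd_add, Prod.smul_fst, Prod.smul_snd,
          valAt_add s₁ hd₁ (hR1 ψ hψ) (by
            rw [Algebra.smul_def]; exact (regAt_algebraMap s₁ t).mul (hR1 ψ0 hψ0)),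
          valAt_add s₂ hd₂ (hR2 ψ hψ) (by
            rw [Algebra.smul_def]; exact (regAt_algebraMap s₂ t).mul (hR2 ψ0 hψ0)),
          valAt_smul s₁ hd₁ t (hR1 ψ0 hψ0), valAt_smul s₂ hd₂ t (hR2 ψ0 hψ0)] at this
        exact this)
    field_simp
    linear_combination hrat
  · push Not at hex
    refine ⟨1, one_ne_zero, ?_⟩
    apply hfin
    intro ψ hψ
    have hA := hex ψ hψ
    have := hpow ψ hψ
    rw [hA, zero_pow hn0] at this
    have hB : valAt s₂ hd₂ ψ.2 = 0 := by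
      rcases mul_eq_zero.mp this.symm with h | h
      · exact absurd h hc
      · exact pow_eq_zero_iff hn0 |>.mp h
    rw [hA, hB, mul_zero]

/-- **P3, linearisation.** -/
theorem stmt_Linearise : Stmt_Linearise := by
  classical
  intro k F₁ F₂ _ _ _ _ _ _ H₁ H₂ nodes n hn γ hγ0 hγ I hI
  have key : ∀ s : Place k F₁ × Place k F₂, s ∈ nodes →
      ∃ lam : k, lam ≠ 0 ∧ ∀ ψ ∈ I, ∃ a : k, VanAt s.1 (ψ.1 - algebraMap k F₁ a) ∧
        VanAt s.2 (algebraMap k F₂ lam * ψ.2 - algebraMap k F₂ a) := by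
    intro s hs
    exact linearise_node H₁ H₂ n hn γ hγ0 s.1 s.2 (hγ s hs) I (fun ψ hψ => hI ψ hψ s hs)
  refine ⟨fun s => if h : s ∈ nodes then Classical.choose (key s h) else 1, ?_, ?_⟩
  · intro s hs
    simp only [dif_pos hs]
    exact (Classical.choose_spec (key s hs)).1
  · intro ψ hψ s hs
    simp only [dif_pos hs]
    exact (Classical.choose_spec (key s hs)).2 ψ hψ

end Fermat.Agent.BAD.H41

end
end
-- ==== END Fermat.Agent.BAD.H41_Linearise

-- ==== BEGIN Fermat.Agent.BAD.H79_Fsum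
section

/-!
# Item 65, package CONS-ss (helper79): sums of orders over a set of places

`fsum A D = ∑_{P ∈ A} D P` as an additive map on divisors, `dv` of products, inverses and
constants.
-/

set_option autoImplicit false
set_option linter.style.haveILetI false

noncomputable section

open AlgebraicCurve

attribute [local instance] Classical.propDecidable

namespace Fermat.Agent.BAD.H79

open Fermat.Agent.RED.H17 Fermat.Agent.RED Fermat.Agent.BAD

section Fsum

variable {α : Type*}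

/-- The sum of the values of `D` over the set `A`. -/
def fsum (A : Set α) : (α →₀ ℤ) →+ ℤ :=
  Finsupp.liftAddHom fun P => if P ∈ A then AddMonoidHom.id ℤ else 0

theorem fsum_apply (A : Set α) (D : α →₀ ℤ) :
    fsum A D = ∑ P ∈ D.support, if P ∈ A then D P else 0 := by
  unfold fsum
  rw [Finsupp.liftAddHom_apply, Finsupp.sum]
  refine Finset.sum_congr rfl fun P _ => ?_
  split_ifs <;> rfl

theorem mapDomain_eq_fsum {β : Type*} (r : α → β) (D : α →₀ ℤ) (Q : β) :
    Finsupp.mapDomain r D Q = fsum {P | r P = Q} D := by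
  rw [mapDomain_apply_eq_sum, fsum_apply]
  rfl

theorem fsum_congr {A B : Set α} (D : α →₀ ℤ) (h : ∀ P, D P ≠ 0 → (P ∈ A ↔ P ∈ B)) :
    fsum A D = fsum B D := by
  rw [fsum_apply, fsum_apply]
  refine Finset.sum_congr rfl fun P hP => ?_
  rw [Finsupp.mem_support_iff] at hP
  by_cases hA : P ∈ A
  · rw [if_pos hA, if_pos ((h P hP).mp hA)]
  · rw [if_neg hA, if_neg fun hB => hA ((h P hP).mpr hB)]

theorem fsum_nonneg {A : Set α} {D : α →₀ ℤ} (h : ∀ P ∈ A, 0 ≤ D P) : 0 ≤ fsum A D := by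
  rw [fsum_apply]
  refine Finset.sum_nonneg fun P _ => ?_
  split_ifs with hA
  · exact h P hA
  · exact le_rfl

theorem fsum_eq_zero {A : Set α} {D : α →₀ ℤ} (h : ∀ P ∈ A, D P = 0) : fsum A D = 0 := by
  rw [fsum_apply]
  refine Finset.sum_eq_zero fun P _ => ?_
  split_ifs with hA
  · exact h P hA
  · rfl

theorem le_fsum {A : Set α} {D : α →₀ ℤ} (h : ∀ P ∈ A, 0 ≤ D P) {P : α} (hP : P ∈ A) :
    D P ≤ fsum A D := by
  rw [fsum_apply]
  by_cases hmem : P ∈ D.support
  · have hnn : ∀ P' ∈ D.support, 0 ≤ (if P' ∈ A then D P' else 0) := by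
      intro P' _
      split_ifs with hA
      · exact h P' hA
      · exact le_rfl
    have := Finset.single_le_sum hnn hmem
    rwa [if_pos hP] at this
  · rw [Finsupp.notMem_support_iff] at hmem
    rw [hmem]
    refine Finset.sum_nonneg fun P' _ => ?_
    split_ifs with hA
    · exact h P' hA
    · exact le_rfl

/-- If `fsum A D = 0` and `D ≥ 0` on `A`, then `D = 0` on `A`. -/
theorem eq_zero_of_fsum_eq_zero {A : Set α} {D : α →₀ ℤ} (h : ∀ P ∈ A, 0 ≤ D P)
    (h0 : fsum A D ≤ 0) {P : α} (hP : P ∈ A) : D P = 0 :=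
  le_antisymm ((le_fsum h hP).trans h0) (h P hP)

theorem fsum_union {A B : Set α} (D : α →₀ ℤ) (h : ∀ P, P ∈ A → P ∈ B → False) :
    fsum (A ∪ B) D = fsum A D + fsum B D := by
  rw [fsum_apply, fsum_apply, fsum_apply, ← Finset.sum_add_distrib]
  refine Finset.sum_congr rfl fun P _ => ?_
  by_cases hA : P ∈ A
  · have hB : P ∉ B := fun hB => h P hA hB
    have hAB : P ∈ A ∪ B := Or.inl hA
    rw [if_pos hAB, if_pos hA, if_neg hB, add_zero]
  · by_cases hB : P ∈ B
    · have hAB : P ∈ A ∪ B := Or.inr hB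
      rw [if_pos hAB, if_neg hA, if_pos hB, zero_add]
    · have hAB : P ∉ A ∪ B := fun h' => h'.elim hA hB
      rw [if_neg hAB, if_neg hA, if_neg hB, add_zero]

/-- If `D` vanishes on `A` except at `P ∈ A`, then `fsum A D = D P`. -/
theorem fsum_eq_single {A : Set α} {D : α →₀ ℤ} {P : α} (hP : P ∈ A)
    (h : ∀ P' ∈ A, P' ≠ P → D P' = 0) : fsum A D = D P := by
  rw [fsum_apply]
  by_cases hmem : P ∈ D.support
  · rw [Finset.sum_eq_single_of_mem P hmem, if_pos hP]
    intro P' _ hne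
    split_ifs with hA
    · exact h P' hA hne
    · rfl
  · rw [Finsupp.notMem_support_iff] at hmem
    rw [hmem]
    refine Finset.sum_eq_zero fun P' hP' => ?_
    split_ifs with hA
    · by_cases hne : P' = P
      · rw [hne, hmem]
      · exact h P' hA hne
    · rfl

/-- Two distinct places of `A`: the sum of their values is at most `fsum A D`. -/
theorem add_le_fsum {A : Set α} {D : α →₀ ℤ} (h : ∀ P ∈ A, 0 ≤ D P) {P P' : α} (hP : P ∈ A)
    (hP' : P' ∈ A) (hne : P' ≠ P) : D P + D P' ≤ fsum A D := by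
  have e : A = {P} ∪ {Q | Q ∈ A ∧ Q ≠ P} := by
    ext Q
    constructor
    · intro hQ
      by_cases hQP : Q = P
      · exact Or.inl hQP
      · exact Or.inr ⟨hQ, hQP⟩
    · rintro (hQ | hQ)
      · rw [Set.mem_singleton_iff] at hQ
        rw [hQ]; exact hP
      · exact hQ.1
  have h1 : fsum A D = fsum {P} D + fsum {Q | Q ∈ A ∧ Q ≠ P} D := by
    conv_lhs => rw [e]
    refine fsum_union D fun Q hQ hQ' => ?_
    rw [Set.mem_singleton_iff] at hQ
    exact hQ'.2 hQ
  have h2 : fsum ({P} : Set α) D = D P :=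
    fsum_eq_single (Set.mem_singleton P) fun P' hP' hne' => absurd hP' hne'
  have h3 : D P' ≤ fsum {Q | Q ∈ A ∧ Q ≠ P} D :=
    le_fsum (fun Q hQ => h Q hQ.1) ⟨hP', hne⟩
  rw [h1, h2]
  omega

end Fsum

section Dv

variable {K F : Type*} [Field K] [Field F] [Algebra K F]

theorem dv_mul' (hP : HasPrincipalDivisors K F) {f g : F} (hf : f ≠ 0) (hg : g ≠ 0) :
    dv hP (f * g) = dv hP f + dv hP g := by
  ext P
  rw [Finsupp.add_apply, dv_apply, dv_apply, dv_apply, P.ord_mul hf hg]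

theorem dv_inv' (hP : HasPrincipalDivisors K F) (f : F) : dv hP f⁻¹ = -dv hP f := by
  ext P
  rw [Finsupp.neg_apply, dv_apply, dv_apply, P.ord_inv]

theorem dv_div' (hP : HasPrincipalDivisors K F) {f g : F} (hf : f ≠ 0) (hg : g ≠ 0) :
    dv hP (f / g) = dv hP f - dv hP g := by
  rw [div_eq_mul_inv, dv_mul' hP hf (inv_ne_zero hg), dv_inv', sub_eq_add_neg]

theorem dv_algebraMap' (hP : HasPrincipalDivisors K F) (c : K) :
    dv hP (algebraMap K F c) = 0 := by
  ext P
  rw [dv_apply, Finsupp.zero_apply, ord_algebraMap]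

theorem dv_const_mul' (hP : HasPrincipalDivisors K F) {c : K} (hc : c ≠ 0) (f : F) :
    dv hP (algebraMap K F c * f) = dv hP f := by
  ext P
  rw [dv_apply, dv_apply, ord_algebraMap_mul P hc]

theorem dv_pow' (hP : HasPrincipalDivisors K F) (f : F) (n : ℕ) :
    dv hP (f ^ n) = n • dv hP f := by
  ext P
  rw [Finsupp.smul_apply, dv_apply, dv_apply, ord_pow, nsmul_eq_mul]

end Dv

end Fermat.Agent.BAD.H79

end
end
-- ==== END Fermat.Agent.BAD.H79_Fsum

-- ==== BEGIN Fermat.Agent.BAD.H88_AL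
section

/-!
# Item 65 (BAD_q), package V2 (helper88): the Atkin–Lehner involution `w_q` on `F_N · Q̄`

`N = M q`, `q ∤ M`.  `W = !![q a, b; M q, q]` with `q a - M b = 1` has determinant `q` and
normalises `Γ₀(N)`; composition with `W` on holomorphic functions swaps `j (d τ)` and
`j (d q τ)` for `d ∣ M`.  Through the analytic embedding `F_N → Frac (Hol)` of S24 this gives the
`Q̄`-automorphism `wq` of `F_N = Q̄(j(q^d) : d ∣ N) ⊂ Q̄((q))`.

Part 1 (this file): composition operators on `Hol` and on `Frac (Hol)`, the embedding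
`emb N : F_N → Frac (Hol)`.
-/

set_option autoImplicit false

noncomputable section

namespace Fermat.Agent.BAD.H88

open Fermat.Agent.S24 ModularCurve UpperHalfPlane
open scoped MatrixGroups Manifold

/-! ## Composition with a Möbius transformation on `Hol` -/

/-- `f ↦ f ∘ W`, for an integer matrix `W` of positive determinant. -/
def compHol (W : Matrix (Fin 2) (Fin 2) ℤ) (hW : 0 < W.det) : Hol →ₐ[Kbar] Hol where
  toFun f := ⟨fun τ => (f : ℍ → ℂ) (intGL W hW • τ),
    f.2.comp (mdifferentiable_smul (intGL_det_pos W hW))⟩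
  map_one' := rfl
  map_mul' _ _ := rfl
  map_zero' := rfl
  map_add' _ _ := rfl
  commutes' _ := rfl

theorem compHol_apply (W : Matrix (Fin 2) (Fin 2) ℤ) (hW : 0 < W.det) (f : Hol) (τ : ℍ) :
    (compHol W hW f : ℍ → ℂ) τ = (f : ℍ → ℂ) (intGL W hW • τ) := rfl

theorem compHol_injective (W : Matrix (Fin 2) (Fin 2) ℤ) (hW : 0 < W.det) :
    Function.Injective (compHol W hW) := by
  intro f g h
  apply Subtype.ext
  funext τ
  have := congrArg (fun x : Hol => (x : ℍ → ℂ) ((intGL W hW)⁻¹ • τ)) h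
  simpa [compHol_apply, smul_smul] using this

/-- `(j ∘ A) ∘ W = j ∘ (A W)`. -/
theorem compHol_JA (W A : Matrix (Fin 2) (Fin 2) ℤ) (hW : 0 < W.det) (hA : 0 < A.det) :
    compHol W hW (JA A) = JA (A * W) := by
  have hAW : 0 < (A * W).det := by rw [Matrix.det_mul]; exact mul_pos hA hW
  apply Subtype.ext
  funext τ
  rw [compHol_apply, JA_apply A hA, JA_apply _ hAW, intGL_mul_smul A W hA hW hAW]

/-- Scalar matrices act trivially: `j ∘ (c A) = j ∘ A` for `c > 0`. -/
theorem JA_smul (c : ℤ) (hc : 0 < c) (A : Matrix (Fin 2) (Fin 2) ℤ) (hA : 0 < A.det) :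
    JA (c • A) = JA A := by
  have hcA : 0 < (c • A).det := by
    rw [Matrix.det_smul]
    simpa using mul_pos (pow_pos hc 2) hA
  apply Subtype.ext
  funext τ
  rw [JA_apply A hA, JA_apply _ hcA]
  congr 1
  apply UpperHalfPlane.ext
  rw [coe_intGL_smul, coe_intGL_smul]
  have hc' : (c : ℂ) ≠ 0 := by exact_mod_cast hc.ne'
  simp only [Matrix.smul_apply, smul_eq_mul, Int.cast_mul]
  have hden : ((A 1 0 : ℂ) * τ + A 1 1) ≠ 0 := by
    have := UpperHalfPlane.denom_ne_zero (intGL A hA) τ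
    simpa [denom, intGL_val] using this
  field_simp

/-! ## The field of fractions of `Hol` -/

/-- The field of fractions of `Hol` ("meromorphic functions"). -/
abbrev MerH : Type := FractionRing Hol

/-- `Hol → Frac Hol`, as a `Q̄`-algebra homomorphism. -/
def holToMer : Hol →ₐ[Kbar] MerH := IsScalarTower.toAlgHom Kbar Hol MerH

theorem holToMer_injective : Function.Injective holToMer :=
  IsFractionRing.injective Hol MerH

theorem holToMer_comp_compHol_injective (W : Matrix (Fin 2) (Fin 2) ℤ) (hW : 0 < W.det) :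
    Function.Injective (holToMer.comp (compHol W hW)) := fun _ _ h =>
  compHol_injective W hW (holToMer_injective h)

/-- Composition with `W` on `Frac Hol`. -/
def compMer (W : Matrix (Fin 2) (Fin 2) ℤ) (hW : 0 < W.det) : MerH →ₐ[Kbar] MerH :=
  IsFractionRing.liftAlgHom (holToMer_comp_compHol_injective W hW)

theorem compMer_holToMer (W : Matrix (Fin 2) (Fin 2) ℤ) (hW : 0 < W.det) (f : Hol) :
    compMer W hW (holToMer f) = holToMer (compHol W hW f) := by
  rw [compMer, IsFractionRing.liftAlgHom_apply]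
  exact IsFractionRing.lift_algebraMap (holToMer_comp_compHol_injective W hW) f

/-- `AT N → Hol`. -/
def inclAT (N : ℕ) : AT N →ₐ[Kbar] Hol := (Atil N).val.comp (toAT N).symm.toAlgHom

theorem inclAT_injective (N : ℕ) : Function.Injective (inclAT N) :=
  Subtype.val_injective.comp (toAT N).symm.injective

theorem inclAT_toAT (N : ℕ) (f : Atil N) : inclAT N (toAT N f) = (f : Hol) := rfl

theorem holToMer_comp_inclAT_injective (N : ℕ) :
    Function.Injective (holToMer.comp (inclAT N)) := fun _ _ h =>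
  inclAT_injective N (holToMer_injective h)

/-- `LN N = Frac (AT N) → Frac Hol`. -/
def inclLN (N : ℕ) : LN N →ₐ[Kbar] MerH :=
  IsFractionRing.liftAlgHom (holToMer_comp_inclAT_injective N)

theorem inclLN_algebraMap (N : ℕ) (f : AT N) :
    inclLN N (algebraMap (AT N) (LN N) f) = holToMer (inclAT N f) := by
  rw [inclLN, IsFractionRing.liftAlgHom_apply]
  exact IsFractionRing.lift_algebraMap (holToMer_comp_inclAT_injective N) f

/-- The analytic embedding `F_N → Frac Hol`. -/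
def emb (N : ℕ) [NeZero N] : FN N →ₐ[Kbar] MerH := (inclLN N).comp (phi N)

theorem emb_injective (N : ℕ) [NeZero N] : Function.Injective (emb N) :=
  (emb N).toRingHom.injective

/-- `j (q ^ d) ↦ j (d τ)`. -/
theorem emb_jdF (N : ℕ) [NeZero N] (d : ℕ) [NeZero d] (hd : d ∣ N) :
    emb N (jdF N d hd) = holToMer (JA !![(d : ℤ), 0; 0, 1]) := by
  show inclLN N (phi N (jdF N d hd)) = _
  rw [phi_jdF, inclLN_algebraMap, inclAT_toAT, jdA_coe N d (Nat.pos_of_ne_zero (NeZero.ne d)) hd]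

end Fermat.Agent.BAD.H88

end
end
-- ==== END Fermat.Agent.BAD.H88_AL

-- ==== BEGIN Fermat.Agent.BAD.H90_TwistExists
section

/-!
# Item 65, package ABS: leaf `Stmt_TwistExists` (helper90)

For `f ∈ V₁` with `red₁ f = 1` and divisor divisible by `n` there is a twist datum: `ϑ ≠ 0` such
that `f / ϑ ^ n` is a Gauss unit for `V₂` whose reduction has neither zero nor pole at the
branches of the nodes on the second component.

Proof: scale `f` to a Gauss unit `a f` for `V₂`; by conservation at the nodes (`DIn`) the order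
of `γ₀ = red₂ (a f)` at every branch `s₂` is the sum of the orders of `f` on the fibre of the
node, hence divisible by `n`; choose `y` on the second component with `ord_{s₂} y =
ord_{s₂} γ₀ / n` (weak approximation), lift it to a Gauss unit `ϑ₁`, and put `ϑ = c ϑ₁` with
`c ^ n = a⁻¹`.
-/

set_option autoImplicit false

noncomputable section

open AlgebraicCurve

namespace Fermat.Agent.BAD.H90

open Fermat.Agent.RED.H17 Fermat.Agent.RED

theorem stmt_TwistExists : Fermat.Agent.BAD.Stmt_TwistExists := by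
  classical
  intro K F k F₁ F₂ _ _ _ _ _ _ _ _ _ S H _ _ n hn f hf hrd hdiv
  have hrd' : S.c₁.rd f = 1 := by rw [S.c₁.rd_of_mem hf]; exact hrd
  have hf0 : f ≠ 0 := by
    rintro rfl
    rw [S.c₁.rd_zero] at hrd'
    exact zero_ne_one hrd'
  -- scale for `V₂`
  obtain ⟨a, ha0, hGU⟩ := S.c₂.exists_isGU_scale hf0
  -- `n ∣ ord_{s₂} γ₀` at the nodes
  have hdvd : ∀ s ∈ S.nodes, (n : ℤ) ∣ s.2.ord (S.c₂.rd (algebraMap K F a * f)) := by
    intro s hs
    have h := S.DIn s hs ⟨f, hf⟩ ⟨algebraMap K F a * f, hGU.1⟩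
      (by rw [hrd]; exact one_ne_zero)
      (by rw [← S.c₂.rd_of_mem hGU.1]; exact hGU.2) ⟨a, rfl⟩ (dv H.principal f)
      (fun P => dv_apply H.principal f P)
    rw [hrd, Place.ord_one, zero_add, ← S.c₂.rd_of_mem hGU.1] at h
    rw [← h, mapDomain_apply_eq_sum]
    refine Finset.dvd_sum fun P _ => ?_
    split_ifs
    · rw [dv_apply]; exact hdiv P
    · exact dvd_zero _
  -- the function on the second component
  obtain ⟨y, hy0, hy⟩ := H51.exists_ord_eq_family S.br₂
    (fun v => v.ord (S.c₂.rd (algebraMap K F a * f)) / (n : ℤ))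
  obtain ⟨ϑ₁, hϑ₁V, hϑ₁⟩ := S.c₂.exists_rd_eq y
  have hϑ₁GU : S.c₂.IsGU ϑ₁ := ⟨hϑ₁V, by rw [hϑ₁]; exact hy0⟩
  -- the constant
  obtain ⟨c, hc⟩ := IsAlgClosed.exists_pow_nat_eq a⁻¹ (Nat.pos_of_ne_zero hn)
  have hc0 : c ≠ 0 := by
    rintro rfl
    rw [zero_pow hn] at hc
    exact inv_ne_zero ha0 hc.symm
  have hϑ0 : algebraMap K F c * ϑ₁ ≠ 0 :=
    mul_ne_zero ((map_ne_zero (algebraMap K F)).mpr hc0) hϑ₁GU.ne_zero
  have hquot : f / (algebraMap K F c * ϑ₁) ^ n = algebraMap K F a * f / ϑ₁ ^ n := by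
    have hca : algebraMap K F c ^ n = (algebraMap K F a)⁻¹ := by
      rw [← map_pow, hc, map_inv₀]
    have ha' : algebraMap K F a ≠ 0 := (map_ne_zero (algebraMap K F)).mpr ha0
    have hϑn : ϑ₁ ^ n ≠ 0 := pow_ne_zero n hϑ₁GU.ne_zero
    rw [mul_pow, hca]
    field_simp
  have hGUq : S.c₂.IsGU (algebraMap K F a * f / ϑ₁ ^ n) := hGU.div (hϑ₁GU.pow n)
  refine ⟨⟨f, algebraMap K F c * ϑ₁, hϑ0, hf, hrd', ?_, hdiv, ?_⟩, rfl⟩
  · rw [hquot]; exact hGUq
  · intro s hs
    rw [hquot, hGU.rd_div (hϑ₁GU.pow n), S.c₂.rd_pow hϑ₁V, hϑ₁,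
      ord_div s.2 hGU.2 (pow_ne_zero n hy0), ord_pow,
      hy s.2 (Finset.mem_image_of_mem Prod.snd hs)]
    have := Int.mul_ediv_cancel' (hdvd s hs)
    omega

end Fermat.Agent.BAD.H90

end
end
-- ==== END Fermat.Agent.BAD.H90_TwistExists

-- ==== BEGIN Fermat.Agent.Betti.H76_Rel
section

/-!
# Betti-Hecke, part B4(i): transfer of Hecke relations between `S₂(Γ₀(N))` and `Hom_par(Γ₀(N), A)`

Words in the Hecke generators are elements `w` of the free algebra `FreeAlgebra ℤ (Gen S)` on the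
primes outside `S`; `wordS N S w` is the operator on `S₂(Γ₀(N))` (`T_ℓ` for `ℓ ∤ N`, `U_ℓ` for
`ℓ ∣ N`), `wordB N S A w` the Betti operator on `Hom(Γ₀(N), A)`.

* `range_wordS`: the range of `wordS` is the prelude's `CuspForm.heckeAlgebra N 2 S`;
* `periodMap_wordS`: `periodMap (w_S f) = w_B (periodMap f)`;
* `wordB_comp`, `wordB_charInvolution`, `wordB_mem_parabolicHoms`: naturality in the coefficients,
  commutation with the involution, stability of parabolic homomorphisms (any coefficients);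
* `wordS_eq_zero_iff`: `w_S = 0` on `S₂` iff `w_B = 0` on `Hom_par(Γ₀(N), ℂ)`;
* `wordS_eq_zero_of_int`, `wordS_eq_zero_of_zmod`: given the spanning hypothesis `SpanHyp N`
  (`Hom_par(Γ₀(N), ℂ)` is spanned by `Hom_par(Γ₀(N), ℤ)`), `w_B = 0` on `Hom_par(Γ₀(N), ℤ)`, or
  on `Hom_par(Γ₀(N), ℤ/pⁿ)` for all `n`, implies `w_S = 0`  (= item (c') of `NOTES/plan/R.md`).
-/

set_option autoImplicit false

open CongruenceSubgroup ModularCurve ModularCurve.Period
open scoped MatrixGroups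

namespace Fermat.Agent.Betti.H76

/-- Indices of the Hecke generators: the primes outside `S`. -/
def Gen (S : Set ℕ) : Type := {l : ℕ // l.Prime ∧ l ∉ S}

section Defs

variable (N : ℕ) [NeZero N] (S : Set ℕ)

/-- The Hecke generator at `l` on cusp forms: `U_l` if `l ∣ N`, `T_l` otherwise. -/
noncomputable def genS (l : Gen S) : Module.End ℂ (CuspForm (Gamma0 N) 2) :=
  if h : l.1 ∣ N then CuspForm.heckeULin 2 h else CuspForm.heckeTLin 2 l.2.1 h

/-- The Betti Hecke generator at `l` on `Hom(Γ₀(N), A)`. -/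
noncomputable def genB (A : Type*) [AddCommGroup A] (l : Gen S) :
    Module.End ℤ (Additive (Gamma0 N) →+ A) :=
  if h : l.1 ∣ N then (UB N A h).toIntLinearMap else (TB N A l.2.1 h).toIntLinearMap

/-- The operator on `S₂(Γ₀(N))` of a word in the Hecke generators. -/
noncomputable def wordS :
    FreeAlgebra ℤ (Gen S) →ₐ[ℤ] Module.End ℂ (CuspForm (Gamma0 N) 2) :=
  FreeAlgebra.lift ℤ (genS N S)

/-- The Betti operator on `Hom(Γ₀(N), A)` of a word in the Hecke generators. -/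
noncomputable def wordB (A : Type*) [AddCommGroup A] :
    FreeAlgebra ℤ (Gen S) →ₐ[ℤ] Module.End ℤ (Additive (Gamma0 N) →+ A) :=
  FreeAlgebra.lift ℤ (genB N S A)

@[simp] theorem wordS_ι (l : Gen S) : wordS N S (FreeAlgebra.ι ℤ l) = genS N S l := by
  simp [wordS]

@[simp] theorem wordB_ι (A : Type*) [AddCommGroup A] (l : Gen S) :
    wordB N S A (FreeAlgebra.ι ℤ l) = genB N S A l := by
  simp [wordB]

theorem range_genS : Set.range (genS N S) = CuspForm.heckeGenerators N 2 S := by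
  ext T
  constructor
  · rintro ⟨l, rfl⟩
    unfold genS
    split_ifs with h
    · exact CuspForm.heckeULin_mem_heckeGenerators l.2.1 h l.2.2
    · exact CuspForm.heckeTLin_mem_heckeGenerators l.2.1 h l.2.2
  · rintro (⟨l, hl, hlN, hlS, rfl⟩ | ⟨q, hqN, hq, hqS, rfl⟩)
    · refine ⟨⟨l, hl, hlS⟩, ?_⟩
      unfold genS
      rw [dif_neg hlN]
    · refine ⟨⟨q, hq, hqS⟩, ?_⟩
      unfold genS
      rw [dif_pos hqN]

/-- The range of `wordS` is the Hecke algebra of the prelude. -/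
theorem range_wordS : (wordS N S).range = CuspForm.heckeAlgebra N 2 S := by
  unfold wordS CuspForm.heckeAlgebra
  rw [← Algebra.adjoin_range_eq_range_freeAlgebra_lift, range_genS]

theorem wordS_mem_heckeAlgebra (w : FreeAlgebra ℤ (Gen S)) :
    wordS N S w ∈ CuspForm.heckeAlgebra N 2 S := by
  rw [← range_wordS]
  exact ⟨w, rfl⟩

theorem exists_word_of_mem_heckeAlgebra {t : Module.End ℂ (CuspForm (Gamma0 N) 2)}
    (ht : t ∈ CuspForm.heckeAlgebra N 2 S) : ∃ w : FreeAlgebra ℤ (Gen S), wordS N S w = t := by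
  rw [← range_wordS] at ht
  exact ht

end Defs

section Equivariance

variable (N : ℕ) [NeZero N] (S : Set ℕ)

theorem periodMap_genS (l : Gen S) (f : CuspForm (Gamma0 N) 2) :
    periodMap N (genS N S l f) = genB N S ℂ l (periodMap N f) := by
  unfold genS genB
  split_ifs with h
  · exact stmt_period_UB N h f
  · exact stmt_period_TB N l.2.1 h f

/-- **B4(i), equivariance**: the period map intertwines every word in the Hecke operators. -/
theorem periodMap_wordS (w : FreeAlgebra ℤ (Gen S)) (f : CuspForm (Gamma0 N) 2) :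
    periodMap N (wordS N S w f) = wordB N S ℂ w (periodMap N f) := by
  obtain ⟨pml, hpml⟩ := Fermat.Agent.S21.existsPeriodMapLinear_of_partA (Fermat.Agent.S21.partA N)
  induction w using FreeAlgebra.induction generalizing f with
  | grade0 r =>
    rw [AlgHom.commutes, AlgHom.commutes, Module.algebraMap_end_apply,
      Module.algebraMap_end_apply, ← hpml, ← hpml, map_zsmul]
  | grade1 l => rw [wordS_ι, wordB_ι, periodMap_genS]
  | mul a b iha ihb =>
    rw [map_mul, map_mul, Module.End.mul_apply, Module.End.mul_apply, iha, ihb]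
  | add a b iha ihb =>
    rw [map_add, map_add, LinearMap.add_apply, LinearMap.add_apply, ← hpml, map_add, hpml, hpml,
      iha, ihb]

end Equivariance

section Naturality

variable (N : ℕ) [NeZero N] (S : Set ℕ) {A B : Type*} [AddCommGroup A] [AddCommGroup B]

theorem genB_comp (u : A →+ B) (l : Gen S) (φ : Additive (Gamma0 N) →+ A) :
    genB N S B l (u.comp φ) = u.comp (genB N S A l φ) := by
  unfold genB
  split_ifs with h
  · have : NeZero l.1 := neZero_of_dvd h
    exact (isHeckeFamily_U N h).heckeOp_comp (incl_injective N) u φ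
  · have : Fact l.1.Prime := ⟨l.2.1⟩
    exact (isHeckeFamily_T N h).heckeOp_comp (incl_injective N) u φ

/-- Naturality of the Betti operators in the coefficient group. -/
theorem wordB_comp (u : A →+ B) (w : FreeAlgebra ℤ (Gen S)) (φ : Additive (Gamma0 N) →+ A) :
    wordB N S B w (u.comp φ) = u.comp (wordB N S A w φ) := by
  induction w using FreeAlgebra.induction generalizing φ with
  | grade0 r =>
    rw [AlgHom.commutes, AlgHom.commutes, Module.algebraMap_end_apply,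
      Module.algebraMap_end_apply]
    ext γ
    simp
  | grade1 l => rw [wordB_ι, wordB_ι, genB_comp]
  | mul a b iha ihb =>
    rw [map_mul, map_mul, Module.End.mul_apply, Module.End.mul_apply, ihb, iha]
  | add a b iha ihb =>
    rw [map_add, map_add, LinearMap.add_apply, LinearMap.add_apply, iha, ihb]
    ext γ
    simp

theorem genB_charInvolution (R : Type*) [Semiring R] [Module R A] (l : Gen S)
    (φ : Additive (Gamma0 N) →+ A) :
    charInvolution N R A (genB N S A l φ) = genB N S A l (charInvolution N R A φ) := by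
  unfold genB
  split_ifs with h
  · exact charInvolution_UB R h φ
  · exact charInvolution_TB R l.2.1 h φ

/-- The Betti operators commute with the involution. -/
theorem wordB_charInvolution (R : Type*) [Semiring R] [Module R A] (w : FreeAlgebra ℤ (Gen S))
    (φ : Additive (Gamma0 N) →+ A) :
    charInvolution N R A (wordB N S A w φ) = wordB N S A w (charInvolution N R A φ) := by
  induction w using FreeAlgebra.induction generalizing φ with
  | grade0 r =>
    rw [AlgHom.commutes, Module.algebraMap_end_apply, Module.algebraMap_end_apply]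
    ext γ
    simp
  | grade1 l => rw [wordB_ι, genB_charInvolution]
  | mul a b iha ihb =>
    rw [map_mul, Module.End.mul_apply, Module.End.mul_apply, iha, ihb]
  | add a b iha ihb =>
    rw [map_add, LinearMap.add_apply, LinearMap.add_apply, ← iha, ← ihb]
    ext γ
    simp

theorem genB_mem_parabolicHoms (R : Type*) [Semiring R] [Module R A] (l : Gen S)
    {φ : Additive (Gamma0 N) →+ A} (hφ : φ ∈ parabolicHoms R (Gamma0 N) A) :
    genB N S A l φ ∈ parabolicHoms R (Gamma0 N) A := by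
  unfold genB
  split_ifs with h
  · exact UB_mem_parabolicHoms_gen R h hφ
  · exact TB_mem_parabolicHoms_gen R l.2.1 h hφ

/-- The Betti operators preserve the parabolic homomorphisms (any coefficient group). -/
theorem wordB_mem_parabolicHoms (R : Type*) [Semiring R] [Module R A]
    (w : FreeAlgebra ℤ (Gen S)) {φ : Additive (Gamma0 N) →+ A}
    (hφ : φ ∈ parabolicHoms R (Gamma0 N) A) :
    wordB N S A w φ ∈ parabolicHoms R (Gamma0 N) A := by
  induction w using FreeAlgebra.induction generalizing φ with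
  | grade0 r =>
    rw [AlgHom.commutes, Module.algebraMap_end_apply]
    intro γ hγ
    show r • φ (Additive.ofMul γ) = 0
    rw [hφ γ hγ, smul_zero]
  | grade1 l => rw [wordB_ι]; exact genB_mem_parabolicHoms N S R l hφ
  | mul a b iha ihb =>
    rw [map_mul, Module.End.mul_apply]
    exact iha (ihb hφ)
  | add a b iha ihb =>
    rw [map_add, LinearMap.add_apply]
    exact Submodule.add_mem _ (iha hφ) (ihb hφ)

/-- The Betti operators are linear over any ring acting on the coefficients by endomorphisms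
(here: complex scalars). -/
theorem wordB_smul (w : FreeAlgebra ℤ (Gen S)) (c : ℂ) (φ : Additive (Gamma0 N) →+ ℂ) :
    wordB N S ℂ w (c • φ) = c • wordB N S ℂ w φ := by
  have h1 : c • φ = (AddMonoidHom.mulLeft c).comp φ := by
    ext γ; rfl
  have h2 : c • wordB N S ℂ w φ = (AddMonoidHom.mulLeft c).comp (wordB N S ℂ w φ) := by
    ext γ; rfl
  rw [h1, h2, wordB_comp]

end Naturality

section Relations

variable (N : ℕ) [NeZero N] (S : Set ℕ)

theorem periodMap_injective' {f : CuspForm (Gamma0 N) 2} (h : periodMap N f = 0) : f = 0 := by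
  have hinj := Fermat.Agent.S21.periodHomPair_injective N
  obtain ⟨pml, hpml, hdef⟩ := periodHomPair_def N
    (Fermat.Agent.S21.existsPeriodMapLinear_of_partA (Fermat.Agent.S21.partA N))
  have h0 : periodHomPair N (f, 0) = 0 := by
    rw [hdef]
    simp only [LinearMap.coprod_apply, LinearMap.comp_apply, map_zero, add_zero, hpml, h]
  have := hinj (h0.trans (map_zero _).symm)
  exact (Prod.mk.inj this).1

/-- **B4(i)**: a word in the Hecke operators vanishes on `S₂(Γ₀(N))` if and only if the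
corresponding Betti operator vanishes on `Hom_par(Γ₀(N), ℂ)`. -/
theorem wordS_eq_zero_iff (w : FreeAlgebra ℤ (Gen S)) :
    wordS N S w = 0 ↔ ∀ φ ∈ parabolicHoms ℂ (Gamma0 N) ℂ, wordB N S ℂ w φ = 0 := by
  constructor
  · intro hw φ hφ
    obtain ⟨pml, hpml, hdef⟩ := periodHomPair_def N
      (Fermat.Agent.S21.existsPeriodMapLinear_of_partA (Fermat.Agent.S21.partA N))
    rw [← (Fermat.Agent.S21.result N).2] at hφ
    obtain ⟨⟨f, g⟩, rfl⟩ := hφ
    rw [hdef]
    simp only [LinearMap.coprod_apply, LinearMap.comp_apply, LinearMap.add_apply,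
      LinearMap.sub_apply, LinearMap.id_apply, hpml, map_add, map_sub]
    rw [← wordB_charInvolution, ← wordB_charInvolution, ← periodMap_wordS, ← periodMap_wordS, hw]
    simp only [LinearMap.zero_apply]
    have hz : periodMap N (0 : CuspForm (Gamma0 N) 2) = 0 := by
      rw [← hpml, map_zero]
    rw [hz]
    simp
  · intro h
    ext f : 1
    apply periodMap_injective' N
    rw [periodMap_wordS]
    exact h _ (Fermat.Agent.S21.periodMap_mem_parabolicHoms N f)

/-- The spanning hypothesis (part of B1): `Hom_par(Γ₀(N), ℂ)` is spanned over `ℂ` by the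
integer valued parabolic homomorphisms. -/
def SpanHyp : Prop :=
  ∀ φ ∈ parabolicHoms ℂ (Gamma0 N) ℂ,
    φ ∈ Submodule.span ℂ {ψ : Additive (Gamma0 N) →+ ℂ |
      ∃ φ₀ ∈ parabolicHoms ℤ (Gamma0 N) ℤ, ψ = (Int.castAddHom ℂ).comp φ₀}

/-- **B4(i), integral form**: under `SpanHyp`, a word vanishing on `Hom_par(Γ₀(N), ℤ)` vanishes on
`S₂(Γ₀(N))`. -/
theorem wordS_eq_zero_of_int (hspan : SpanHyp N) (w : FreeAlgebra ℤ (Gen S))
    (h : ∀ φ ∈ parabolicHoms ℤ (Gamma0 N) ℤ, wordB N S ℤ w φ = 0) : wordS N S w = 0 := by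
  rw [wordS_eq_zero_iff]
  intro φ hφ
  refine Submodule.span_induction ?_ ?_ ?_ ?_ (hspan φ hφ)
  · rintro ψ ⟨φ₀, hφ₀, rfl⟩
    rw [wordB_comp, h φ₀ hφ₀, AddMonoidHom.comp_zero]
  · exact map_zero _
  · intro x y _ _ hx hy
    rw [map_add, hx, hy, add_zero]
  · intro c x _ hx
    rw [wordB_smul, hx, smul_zero]

omit [NeZero N] in
theorem castHom_complex_comp_mem_parabolicHoms {φ : Additive (Gamma0 N) →+ ℤ}
    (hφ : φ ∈ parabolicHoms ℤ (Gamma0 N) ℤ) :
    (Int.castAddHom ℂ).comp φ ∈ parabolicHoms ℂ (Gamma0 N) ℂ := by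
  intro γ hγ
  show ((φ (Additive.ofMul γ) : ℤ) : ℂ) = 0
  rw [hφ γ hγ, Int.cast_zero]

/-- Converse direction, integrally (no spanning hypothesis needed): a relation on `S₂(Γ₀(N))`
holds on `Hom_par(Γ₀(N), ℤ)`. -/
theorem wordB_int_eq_zero_of_wordS (w : FreeAlgebra ℤ (Gen S)) (hw : wordS N S w = 0)
    {φ : Additive (Gamma0 N) →+ ℤ} (hφ : φ ∈ parabolicHoms ℤ (Gamma0 N) ℤ) :
    wordB N S ℤ w φ = 0 := by
  have h1 := (wordS_eq_zero_iff N S w).mp hw _ (castHom_complex_comp_mem_parabolicHoms N hφ)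
  rw [wordB_comp] at h1
  refine AddMonoidHom.ext fun γ => ?_
  have h2 := congrArg (fun ψ : Additive (Gamma0 N) →+ ℂ => ψ γ) h1
  simp only [AddMonoidHom.comp_apply, Int.coe_castAddHom, AddMonoidHom.zero_apply] at h2
  exact_mod_cast h2

/-- Under `SpanHyp`: a relation holds on `S₂(Γ₀(N))` iff it holds on `Hom_par(Γ₀(N), ℤ)`. -/
theorem wordS_eq_zero_iff_int (hspan : SpanHyp N) (w : FreeAlgebra ℤ (Gen S)) :
    wordS N S w = 0 ↔ ∀ φ ∈ parabolicHoms ℤ (Gamma0 N) ℤ, wordB N S ℤ w φ = 0 :=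
  ⟨fun hw _ hφ => wordB_int_eq_zero_of_wordS N S w hw hφ, wordS_eq_zero_of_int N S hspan w⟩

omit [NeZero N] in
/-- Reduction of an integer valued parabolic homomorphism modulo `m` is parabolic. -/
theorem castHom_comp_mem_parabolicHoms (m : ℕ) {φ : Additive (Gamma0 N) →+ ℤ}
    (hφ : φ ∈ parabolicHoms ℤ (Gamma0 N) ℤ) :
    (Int.castAddHom (ZMod m)).comp φ ∈ parabolicHoms ℤ (Gamma0 N) (ZMod m) := by
  intro γ hγ
  show ((φ (Additive.ofMul γ) : ℤ) : ZMod m) = 0
  rw [hφ γ hγ, Int.cast_zero]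

/-- **B4(i), torsion form** (item (c') of cluster R): under `SpanHyp`, a word in the Hecke
operators vanishing on `Hom_par(Γ₀(N), ℤ/pⁿ)` for all `n` vanishes on `S₂(Γ₀(N))`. -/
theorem wordS_eq_zero_of_zmod (hspan : SpanHyp N) {p : ℕ} (hp : 2 ≤ p)
    (w : FreeAlgebra ℤ (Gen S))
    (h : ∀ n : ℕ, ∀ φ ∈ parabolicHoms ℤ (Gamma0 N) (ZMod (p ^ n)),
      wordB N S (ZMod (p ^ n)) w φ = 0) : wordS N S w = 0 := by
  refine wordS_eq_zero_of_int N S hspan w (fun φ hφ => AddMonoidHom.ext fun γ => ?_)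
  show wordB N S ℤ w φ γ = 0
  -- divisible by all powers of `p`
  have hdiv : ∀ n : ℕ, ((p : ℤ) ^ n) ∣ wordB N S ℤ w φ γ := by
    intro n
    have h1 := h n _ (castHom_comp_mem_parabolicHoms N (p ^ n) hφ)
    rw [wordB_comp] at h1
    have h2 := congrArg (fun ψ : Additive (Gamma0 N) →+ ZMod (p ^ n) => ψ γ) h1
    simp only [AddMonoidHom.comp_apply, Int.coe_castAddHom, AddMonoidHom.zero_apply] at h2
    have := (ZMod.intCast_zmod_eq_zero_iff_dvd _ _).mp h2
    exact_mod_cast this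
  by_contra hne
  -- |x| < p ^ |x|
  set x := wordB N S ℤ w φ γ with hx
  have hlt : x.natAbs < p ^ x.natAbs := Nat.lt_pow_self hp
  have hd := Int.natAbs_dvd_natAbs.mpr (hdiv x.natAbs)
  rw [Int.natAbs_pow, Int.natAbs_natCast] at hd
  have hle := Nat.le_of_dvd (Int.natAbs_pos.mpr hne) hd
  omega

end Relations

end Fermat.Agent.Betti.H76

end
-- ==== END Fermat.Agent.Betti.H76_Rel
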