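-- GENERATED (merged mirror, NOTES/tools/trim/merge3_helper67.py): 3 modules of the originals, bodies verbatim.
import Mathlib
import Fermat.Prelude.Def_FreyPackage_EigenformResidualAttachment
import Fermat.Agent.Zm.S35_L08_001
import Fermat.Agent.Zm.S35_L03_005
import Fermat.Agent.Zm.S35_L04_002
import Fermat.Agent.Zm.S35_L08_004
import Fermat.Agent.R.H91_Lucas
import Fermat.Agent.Zm.S35_L02_003
import Fermat.Agent.Zm.S35_L04_003
import Fermat.Agent.Zm.S35_L03_003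

-- ==== BEGIN Fermat.Agent.BAD.H28_Two
section

/-!
# Item 65, package ABS (helper28): basic API for the two valuations of an `SSD`

* constants: `mem₂_iff`, `rd₂_const`, `rd₁_const`, `rd_const_zero_iff`;
* fibres: `isNodeP_iff₂`, `r₂_none_of_good₁`, `r₁_none_of_good₂`, `not_good₁_of_mem`, ...;
* scaling: `exists_scale₂` (unit ball of the pair of norms), `exists_scale_max₂`;
* conservation at the nodes in the fibre: `sum_node`, `ord_eq_zero_of_node`.
-/

set_option autoImplicit false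
set_option linter.style.haveILetI false

noncomputable section

open AlgebraicCurve

attribute [local instance] Classical.propDecidable

namespace Fermat.Agent.BAD

open Fermat.Agent.RED.H17 Fermat.Agent.RED

local notation "L" => riemannRochSpace

namespace SSD

variable {K F k F₁ F₂ : Type*} [Field K] [Field F] [Algebra K F] [Field k] [Field F₁]
  [Algebra k F₁] [Field F₂] [Algebra k F₂] (S : SSD K F k F₁ F₂)

/-! ### Constants -/

theorem rd₂_const {c : K} (h₁ : algebraMap K F c ∈ S.c₁.V) {a : k}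
    (h : S.c₁.rd (algebraMap K F c) = algebraMap k F₁ a) :
    algebraMap K F c ∈ S.c₂.V ∧ S.c₂.rd (algebraMap K F c) = algebraMap k F₂ a := by
  have h₂ := (S.const_mem c).mp h₁
  refine ⟨h₂, ?_⟩
  rw [S.c₂.rd_of_mem h₂]
  rw [S.c₁.rd_of_mem h₁] at h
  exact S.const_red c h₁ h₂ a h

theorem rd₁_const {c : K} (h₂ : algebraMap K F c ∈ S.c₂.V) {a : k}
    (h : S.c₂.rd (algebraMap K F c) = algebraMap k F₂ a) :
    algebraMap K F c ∈ S.c₁.V ∧ S.c₁.rd (algebraMap K F c) = algebraMap k F₁ a := by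
  have h₁ := (S.const_mem c).mpr h₂
  refine ⟨h₁, ?_⟩
  obtain ⟨a', ha'⟩ := S.c₁.rd_const_eq c h₁
  have := (S.rd₂_const h₁ ha').2
  rw [h] at this
  have haa : a = a' := (algebraMap k F₂).injective this
  rw [ha', haa]

theorem rd₂_const_zero {c : K} (h₁ : algebraMap K F c ∈ S.c₁.V)
    (h : S.c₁.rd (algebraMap K F c) = 0) :
    algebraMap K F c ∈ S.c₂.V ∧ S.c₂.rd (algebraMap K F c) = 0 := by
  have := S.rd₂_const h₁ (a := 0) (by rw [h, map_zero])
  rwa [map_zero] at this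

theorem rd₁_const_zero {c : K} (h₂ : algebraMap K F c ∈ S.c₂.V)
    (h : S.c₂.rd (algebraMap K F c) = 0) :
    algebraMap K F c ∈ S.c₁.V ∧ S.c₁.rd (algebraMap K F c) = 0 := by
  have := S.rd₁_const h₂ (a := 0) (by rw [h, map_zero])
  rwa [map_zero] at this

/-- A constant is a unit for `V₁` iff it is a unit for `V₂`. -/
theorem isGU₂_const {c : K} (h : S.c₁.IsGU (algebraMap K F c)) : S.c₂.IsGU (algebraMap K F c) := by
  obtain ⟨a, ha⟩ := S.c₁.rd_const_eq c h.1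
  obtain ⟨h2, h3⟩ := S.rd₂_const h.1 ha
  refine ⟨h2, ?_⟩
  rw [h3]
  intro h0
  apply h.2
  have ha0 : a = 0 := (map_eq_zero_iff _ (algebraMap k F₂).injective).mp h0
  rw [ha, ha0, map_zero]

theorem isGU₁_const {c : K} (h : S.c₂.IsGU (algebraMap K F c)) : S.c₁.IsGU (algebraMap K F c) := by
  obtain ⟨a, ha⟩ := S.c₂.rd_const_eq c h.1
  obtain ⟨h2, h3⟩ := S.rd₁_const h.1 ha
  refine ⟨h2, ?_⟩
  rw [h3]
  intro h0
  apply h.2
  have ha0 : a = 0 := (map_eq_zero_iff _ (algebraMap k F₁).injective).mp h0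
  rw [ha, ha0, map_zero]

/-! ### Fibres -/

theorem not_good₁ {s : Place k F₁ × Place k F₂} (hs : s ∈ S.nodes) : s.1 ∉ S.c₁.good :=
  fun h => (S.good₁ s.1).mp h s hs rfl

theorem not_good₂ {s : Place k F₁ × Place k F₂} (hs : s ∈ S.nodes) : s.2 ∉ S.c₂.good :=
  fun h => (S.good₂ s.2).mp h s hs rfl

theorem good₁_of_notMem {Q : Place k F₁} (h : Q ∉ S.br₁) : Q ∈ S.c₁.good := by
  rw [S.good₁]
  intro s hs hsQ
  exact h (Finset.mem_image.mpr ⟨s, hs, hsQ⟩)

theorem good₂_of_notMem {Q : Place k F₂} (h : Q ∉ S.br₂) : Q ∈ S.c₂.good := by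
  rw [S.good₂]
  intro s hs hsQ
  exact h (Finset.mem_image.mpr ⟨s, hs, hsQ⟩)

theorem notMem_br₁ {Q : Place k F₁} (h : Q ∈ S.c₁.good) : Q ∉ S.br₁ := by
  intro hQ
  obtain ⟨s, hs, rfl⟩ := Finset.mem_image.mp hQ
  exact S.not_good₁ hs h

theorem notMem_br₂ {Q : Place k F₂} (h : Q ∈ S.c₂.good) : Q ∉ S.br₂ := by
  intro hQ
  obtain ⟨s, hs, rfl⟩ := Finset.mem_image.mp hQ
  exact S.not_good₂ hs h

/-- The three cases of `r_cases` exclude each other: a place over a good place of `C₁`. -/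
theorem r₂_none_of_good₁ {P : Place K F} {Q : Place k F₁} (hQ : Q ∈ S.c₁.good)
    (hP : S.c₁.r P = some Q) : S.c₂.r P = none := by
  rcases S.r_cases P with ⟨Q', _, h1, h2⟩ | ⟨Q', _, _, h2⟩ | ⟨s, hs, h1, _⟩
  · exact h2
  · rw [h2] at hP; exact absurd hP (by simp)
  · rw [h1] at hP
    have : s.1 = Q := Option.some.inj hP
    exact absurd (this ▸ hQ) (S.not_good₁ hs)

theorem r₁_none_of_good₂ {P : Place K F} {Q : Place k F₂} (hQ : Q ∈ S.c₂.good)
    (hP : S.c₂.r P = some Q) : S.c₁.r P = none := by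
  rcases S.r_cases P with ⟨Q', _, _, h2⟩ | ⟨Q', _, h1, h2⟩ | ⟨s, hs, _, h2⟩
  · rw [h2] at hP; exact absurd hP (by simp)
  · exact h2
  · rw [h2] at hP
    have : s.2 = Q := Option.some.inj hP
    exact absurd (this ▸ hQ) (S.not_good₂ hs)

/-- A place over the first branch of a node lies over the second branch. -/
theorem r₂_of_node {P : Place K F} {s : Place k F₁ × Place k F₂} (hs : s ∈ S.nodes)
    (hP : S.c₁.r P = some s.1) : S.c₂.r P = some s.2 := by
  rcases S.r_cases P with ⟨Q', hQ', h1, _⟩ | ⟨Q', _, _, h2⟩ | ⟨s', hs', h1, h2⟩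
  · rw [h1] at hP
    have : Q' = s.1 := Option.some.inj hP
    exact absurd (this ▸ hQ') (S.not_good₁ hs)
  · rw [h2] at hP; exact absurd hP (by simp)
  · rw [h1] at hP
    have : s'.1 = s.1 := Option.some.inj hP
    rw [h2, S.inj₁ s' hs' s hs this]

theorem r₁_of_node {P : Place K F} {s : Place k F₁ × Place k F₂} (hs : s ∈ S.nodes)
    (hP : S.c₂.r P = some s.2) : S.c₁.r P = some s.1 := by
  rcases S.r_cases P with ⟨Q', _, _, h2⟩ | ⟨Q', hQ', h1, _⟩ | ⟨s', hs', h1, h2⟩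
  · rw [h2] at hP; exact absurd hP (by simp)
  · rw [h1] at hP
    have : Q' = s.2 := Option.some.inj hP
    exact absurd (this ▸ hQ') (S.not_good₂ hs)
  · rw [h2] at hP
    have : s'.2 = s.2 := Option.some.inj hP
    rw [h1, S.inj₂ s' hs' s hs this]

theorem isNodeP_iff₂ {P : Place K F} : S.IsNodeP P ↔ ∃ s ∈ S.nodes, S.c₂.r P = some s.2 :=
  ⟨fun ⟨s, hs, h⟩ => ⟨s, hs, S.r₂_of_node hs h⟩, fun ⟨s, hs, h⟩ => ⟨s, hs, S.r₁_of_node hs h⟩⟩

theorem not_isNodeP_of_good₁ {P : Place K F} {Q : Place k F₁} (hQ : Q ∈ S.c₁.good)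
    (hP : S.c₁.r P = some Q) : ¬ S.IsNodeP P := by
  rintro ⟨s, hs, h⟩
  rw [hP] at h
  exact S.not_good₁ hs (Option.some.inj h ▸ hQ)

theorem not_isNodeP_of_good₂ {P : Place K F} {Q : Place k F₂} (hQ : Q ∈ S.c₂.good)
    (hP : S.c₂.r P = some Q) : ¬ S.IsNodeP P := by
  rw [S.isNodeP_iff₂]
  rintro ⟨s, hs, h⟩
  rw [hP] at h
  exact S.not_good₂ hs (Option.some.inj h ▸ hQ)

/-- If `r₁ P = some Q`, then `Q` is good or `P` reduces to a node. -/
theorem good₁_or_node {P : Place K F} {Q : Place k F₁} (hP : S.c₁.r P = some Q) :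
    Q ∈ S.c₁.good ∨ S.IsNodeP P := by
  rcases S.r_cases P with ⟨Q', hQ', h1, _⟩ | ⟨Q', _, _, h2⟩ | ⟨s, hs, h1, _⟩
  · rw [h1] at hP
    exact Or.inl (Option.some.inj hP ▸ hQ')
  · rw [h2] at hP; exact absurd hP (by simp)
  · exact Or.inr ⟨s, hs, h1⟩

theorem good₂_or_node {P : Place K F} {Q : Place k F₂} (hP : S.c₂.r P = some Q) :
    Q ∈ S.c₂.good ∨ S.IsNodeP P := by
  rcases S.r_cases P with ⟨Q', _, _, h2⟩ | ⟨Q', hQ', h1, _⟩ | ⟨s, hs, h1, _⟩
  · rw [h2] at hP; exact absurd hP (by simp)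
  · rw [h1] at hP
    exact Or.inl (Option.some.inj hP ▸ hQ')
  · exact Or.inr ⟨s, hs, h1⟩

/-! ### Scaling -/

/-- Scaling to the unit sphere of the pair of norms `|u|₁`, `|ϑ u|₂`. -/
theorem exists_scale₂ {u ϑ : F} (hu : u ≠ 0) (hϑ : ϑ ≠ 0) :
    ∃ a : K, a ≠ 0 ∧ algebraMap K F a * u ∈ S.c₁.V ∧ ϑ * (algebraMap K F a * u) ∈ S.c₂.V ∧
      (S.c₁.IsGU (algebraMap K F a * u) ∨ S.c₂.IsGU (ϑ * (algebraMap K F a * u))) := by
  obtain ⟨a₁, ha₁, hGU₁⟩ := S.c₁.exists_isGU_scale hu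
  obtain ⟨a₂, ha₂, hGU₂⟩ := S.c₂.exists_isGU_scale (mul_ne_zero hϑ hu)
  have ha₁F : algebraMap K F a₁ ≠ 0 := (map_ne_zero_iff _ (algebraMap K F).injective).mpr ha₁
  have ha₂F : algebraMap K F a₂ ≠ 0 := (map_ne_zero_iff _ (algebraMap K F).injective).mpr ha₂
  rcases S.c₁.const_mem_or_inv_mem (a₂ / a₁) with h | h
  · -- `a₂ / a₁` integral: take `a₂`
    refine ⟨a₂, ha₂, ?_, ?_, Or.inr ?_⟩
    · have : algebraMap K F a₂ * u = algebraMap K F (a₂ / a₁) * (algebraMap K F a₁ * u) := by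
        rw [map_div₀]; field_simp
      rw [this]
      exact S.c₁.V.mul_mem _ _ h hGU₁.1
    · have : ϑ * (algebraMap K F a₂ * u) = algebraMap K F a₂ * (ϑ * u) := by ring
      rw [this]; exact hGU₂.1
    · have : ϑ * (algebraMap K F a₂ * u) = algebraMap K F a₂ * (ϑ * u) := by ring
      rw [this]; exact hGU₂
  · -- `a₁ / a₂` integral: take `a₁`
    have h' : algebraMap K F (a₁ / a₂) ∈ S.c₂.V := by
      have : (a₂ / a₁)⁻¹ = a₁ / a₂ := inv_div a₂ a₁
      rw [this] at h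
      exact (S.const_mem _).mp h
    refine ⟨a₁, ha₁, hGU₁.1, ?_, Or.inl hGU₁⟩
    have : ϑ * (algebraMap K F a₁ * u) = algebraMap K F (a₁ / a₂) * (algebraMap K F a₂ * (ϑ * u)) := by
      rw [map_div₀]; field_simp
    rw [this]
    exact S.c₂.V.mul_mem _ _ h' hGU₂.1

/-- A common scale, for both valuations, for finitely many elements of both maximal ideals. -/
theorem exists_scale_max₂ (I : Finset F)
    (hI : ∀ z ∈ I, (z ∈ S.c₁.V ∧ S.c₁.rd z = 0) ∧ (z ∈ S.c₂.V ∧ S.c₂.rd z = 0))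
    (hne : ∃ z ∈ I, z ≠ 0) :
    ∃ c : K, c ≠ 0 ∧ (algebraMap K F c⁻¹ ∈ S.c₁.V ∧ S.c₁.rd (algebraMap K F c⁻¹) = 0) ∧
      (algebraMap K F c⁻¹ ∈ S.c₂.V ∧ S.c₂.rd (algebraMap K F c⁻¹) = 0) ∧
      (∀ z ∈ I, algebraMap K F c * z ∈ S.c₁.V ∧ algebraMap K F c * z ∈ S.c₂.V) ∧
      ∃ z ∈ I, S.c₁.IsGU (algebraMap K F c * z) ∨ S.c₂.IsGU (algebraMap K F c * z) := by
  obtain ⟨c₁, hc₁, hd₁, hdr₁, hI₁, z₁, hz₁, hG₁⟩ :=
    S.c₁.exists_scale_max I (fun z hz => (hI z hz).1) hne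
  obtain ⟨c₂, hc₂, hd₂, hdr₂, hI₂, z₂, hz₂, hG₂⟩ :=
    S.c₂.exists_scale_max I (fun z hz => (hI z hz).2) hne
  have hc₁F : algebraMap K F c₁ ≠ 0 := (map_ne_zero_iff _ (algebraMap K F).injective).mpr hc₁
  have hc₂F : algebraMap K F c₂ ≠ 0 := (map_ne_zero_iff _ (algebraMap K F).injective).mpr hc₂
  rcases S.c₁.const_mem_or_inv_mem (c₁ / c₂) with h | h
  · -- `c₁ / c₂` integral: take `c₁`
    have h' := (S.const_mem _).mp h
    refine ⟨c₁, hc₁, ⟨hd₁, hdr₁⟩, S.rd₂_const_zero hd₁ hdr₁, fun z hz => ⟨hI₁ z hz, ?_⟩,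
      z₁, hz₁, Or.inl hG₁⟩
    have : algebraMap K F c₁ * z = algebraMap K F (c₁ / c₂) * (algebraMap K F c₂ * z) := by
      rw [map_div₀]; field_simp
    rw [this]
    exact S.c₂.V.mul_mem _ _ h' (hI₂ z hz)
  · have h1 : algebraMap K F (c₂ / c₁) ∈ S.c₁.V := by
      have : (c₁ / c₂)⁻¹ = c₂ / c₁ := inv_div c₁ c₂
      rwa [this] at h
    refine ⟨c₂, hc₂, S.rd₁_const_zero hd₂ hdr₂, ⟨hd₂, hdr₂⟩, fun z hz => ⟨?_, hI₂ z hz⟩,
      z₂, hz₂, Or.inr hG₂⟩
    have : algebraMap K F c₂ * z = algebraMap K F (c₂ / c₁) * (algebraMap K F c₁ * z) := by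
      rw [map_div₀]; field_simp
    rw [this]
    exact S.c₁.V.mul_mem _ _ h1 (hI₁ z hz)

/-! ### Conservation at the nodes -/

/-- Conservation at a node, as a sum over the support of `div u`. -/
theorem sum_node (hP : HasPrincipalDivisors K F) {s : Place k F₁ × Place k F₂}
    (hs : s ∈ S.nodes) {u₁ u₂ : F} (h₁ : S.c₁.IsGU u₁) (h₂ : S.c₂.IsGU u₂)
    (hc : ∃ c : K, u₂ = algebraMap K F c * u₁) :
    s.1.ord (S.c₁.rd u₁) + s.2.ord (S.c₂.rd u₂) =
      ∑ P ∈ (dv hP u₁).support, if S.c₁.r P = some s.1 then P.ord u₁ else 0 := by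
  have h := S.DIn s hs ⟨u₁, h₁.1⟩ ⟨u₂, h₂.1⟩ (by rw [← S.c₁.rd_of_mem h₁.1]; exact h₁.2)
    (by rw [← S.c₂.rd_of_mem h₂.1]; exact h₂.2) hc (dv hP u₁) (fun P => dv_apply hP u₁ P)
  rw [← S.c₁.rd_of_mem h₁.1, ← S.c₂.rd_of_mem h₂.1] at h
  rw [← h, mapDomain_apply_eq_sum]
  refine Finset.sum_congr rfl fun P _ => ?_
  by_cases hPQ : S.c₁.r P = some s.1
  · rw [if_pos hPQ, if_pos hPQ, dv_apply]
  · rw [if_neg hPQ, if_neg hPQ]

/-- If `u` is a unit for both valuations (up to a constant), regular on the fibre of the node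
`s`, and the two reductions have no zero or pole at the branches, then `u` has no zero on the
fibre of `s`. -/
theorem ord_eq_zero_of_node (hP : HasPrincipalDivisors K F) {s : Place k F₁ × Place k F₂}
    (hs : s ∈ S.nodes) {u₁ u₂ : F} (h₁ : S.c₁.IsGU u₁) (h₂ : S.c₂.IsGU u₂)
    (hc : ∃ c : K, u₂ = algebraMap K F c * u₁)
    (hreg : ∀ P, S.c₁.r P = some s.1 → 0 ≤ P.ord u₁)
    (ho₁ : s.1.ord (S.c₁.rd u₁) = 0) (ho₂ : s.2.ord (S.c₂.rd u₂) = 0)
    {P : Place K F} (hPs : S.c₁.r P = some s.1) : P.ord u₁ = 0 := by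
  have hsum := S.sum_node hP hs h₁ h₂ hc
  rw [ho₁, ho₂, add_zero] at hsum
  by_cases hmem : P ∈ (dv hP u₁).support
  · have hnn : ∀ P' ∈ (dv hP u₁).support,
        0 ≤ (if S.c₁.r P' = some s.1 then P'.ord u₁ else 0) := by
      intro P' _
      split_ifs with h
      · exact hreg P' h
      · exact le_rfl
    have := eq_zero_of_sum_eq_zero _ _ hnn hsum.symm hmem
    rwa [if_pos hPs] at this
  · rw [Finsupp.notMem_support_iff, dv_apply] at hmem
    exact hmem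

end SSD

end Fermat.Agent.BAD

end
end
-- ==== END Fermat.Agent.BAD.H28_Two

-- ==== BEGIN Fermat.Agent.S31.Final
section

/-!
# S31 from `Stmt_S30` alone (helper86, cluster R)

All algebraic leaves of the wiring are proved (Frobenius density: item 61; separation of the
Hecke algebra: leaves L3a, L3c).  What is left is the existence statement `Stmt_S30`
(= the frozen statement S30).
-/

set_option autoImplicit false

open Polynomial IsLocalRing

namespace Fermat.Agent.R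

/-- `Stmt_SepAll`, unconditional. -/
theorem stmt_SepAll : Stmt_SepAll := by
  intro N _ S p hp _ hNS
  have : Fact p.Prime := ⟨hp⟩
  exact H2.stmt_Sep_final N S p (fun q hq hd => Finset.mem_coe.2 (hNS q hq hd))

end Fermat.Agent.R

namespace Fermat.Agent.S31

open Fermat.Agent.R

variable {p : ℕ} {N : ℕ} [NeZero N] {S : Finset ℕ}
  {𝒪 : Type} [CommRing 𝒪] [IsDomain 𝒪] [IsDiscreteValuationRing 𝒪]
  [IsAdicComplete (IsLocalRing.maximalIdeal 𝒪) 𝒪]
  {θ : CuspForm.heckeAlgebra N 2 (↑S : Set ℕ) →+* IsLocalRing.ResidueField 𝒪}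
  {T : Type} [CommRing T] [IsLocalRing T] [IsNoetherianRing T]
  [IsAdicComplete (IsLocalRing.maximalIdeal T) T] [Algebra 𝒪 T] [IsLocalHom (algebraMap 𝒪 T)]
  [Module.Finite 𝒪 T] [Module.Free 𝒪 T]

/-- S31 from S30. -/
theorem of_S30 (hS30 : Stmt_S30) (hp : p.Prime)
    (hp𝒪 : (p : 𝒪) ∈ IsLocalRing.maximalIdeal 𝒪) (hpS : p ∈ S)
    (hNS : ∀ q : ℕ, q.Prime → q ∣ N → q ∈ S)
    (H : CuspForm.HeckeGaloisRepDatum N (↑S : Set ℕ) 𝒪 θ T)
    (q : ℕ) (hq : q.Prime) (hqS : q ∉ S) :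
    H.ρ.IsUnramifiedAt q :=
  wiring hS30 Fermat.Agent.Lib.FrobDensity.stmt_FD stmt_SepAll hp hp𝒪 hpS hNS H q hq hqS

end Fermat.Agent.S31

end
-- ==== END Fermat.Agent.S31.Final

-- ==== BEGIN Fermat.Agent.S42.H33_Wiring
section

/-!
# S42 from S29 (hence from S30): cluster R wiring, helper33

`result_of_S29 : Stmt_S29 → ∀ P M, 0 < M → P.EigenformResidualAttachmentAt M`.

`K = ℤ̄ ⧸ 𝔪`, `ψ` the quotient map, `ρ` the residual representation of S29 for `φ = ψ`; the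
number field `F` is the normal closure of the compositum of a finite level of `ρ` and the field
of the coordinates of the (finitely many, S13) `p`-torsion points of the Frey curve.
-/

set_option autoImplicit false

namespace Fermat.Agent.S42.H33

open WeierstrassCurve WeierstrassCurve.Affine WeierstrassCurve.Affine.Point Polynomial
open Fermat.Agent.S13

/-- A finite Galois extension of `ℚ` inside `Q̄` containing a given finite-dimensional
intermediate field and a given finite set. -/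
theorem exists_galois_field (L₁ : IntermediateField ℚ Qbar) (h₁ : FiniteDimensional ℚ L₁)
    (S : Finset Qbar) :
    ∃ F : IntermediateField ℚ Qbar, FiniteDimensional ℚ F ∧ Normal ℚ F ∧ L₁ ≤ F ∧
      ∀ x ∈ S, x ∈ F := by
  haveI := h₁
  haveI halg : Algebra.IsAlgebraic ℚ Qbar := AlgebraicClosure.isAlgebraic ℚ
  haveI hcl : IsAlgClosure ℚ Qbar := ⟨inferInstance, inferInstance⟩
  haveI hgal : IsGalois ℚ Qbar := inferInstance
  haveI hnorm : Normal ℚ Qbar := IsGalois.to_normal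
  let L₂ : IntermediateField ℚ Qbar := IntermediateField.adjoin ℚ (S : Set Qbar)
  haveI : FiniteDimensional ℚ L₂ := IntermediateField.finiteDimensional_adjoin
    (fun x _ => (Algebra.IsAlgebraic.isAlgebraic x).isIntegral)
  let L : IntermediateField ℚ Qbar := L₁ ⊔ L₂
  refine ⟨IntermediateField.normalClosure ℚ L Qbar, inferInstance,
    normalClosure.normal ℚ L Qbar, ?_, ?_⟩
  · exact le_trans le_sup_left (IntermediateField.le_normalClosure L)
  · intro x hx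
    have h1 : x ∈ L₂ := IntermediateField.subset_adjoin ℚ _ hx
    have h2 : L₂ ≤ L := le_sup_right
    exact IntermediateField.le_normalClosure L (h2 h1)

/-- Trace and determinant from the characteristic polynomial in rank 2. -/
theorem trace_det_of_charpoly {K V : Type*} [Field K] [AddCommGroup V] [Module K V]
    [Module.Free K V] [Module.Finite K V] (hV : Module.finrank K V = 2) (f : Module.End K V)
    {t d : K} (h : f.charpoly = X ^ 2 - C t * X + C d) :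
    LinearMap.trace K V f = t ∧ LinearMap.det f = d := by
  rw [Fermat.Agent.R.H91.charpoly_eq_of_finrank_two hV f] at h
  have h0 := congrArg (fun q : K[X] => q.coeff 0) h
  have h1 := congrArg (fun q : K[X] => q.coeff 1) h
  simp only [coeff_add, coeff_sub, coeff_X_pow, coeff_C_mul, coeff_X_zero, coeff_X_one,
    coeff_C_zero, coeff_C_succ, mul_zero, mul_one, sub_zero, add_zero] at h0 h1
  norm_num at h0 h1
  exact ⟨h1, h0⟩

/-- **S42 from S29.** -/
theorem result_of_S29 (hS29 : Fermat.Agent.S29.H33.Stmt_S29) (P : FreyPackage) :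
    ∀ M : ℕ, 0 < M → P.EigenformResidualAttachmentAt M := by
  intro M _hM g hg 𝔪 h𝔪 hp𝔪
  classical
  haveI := h𝔪
  haveI : Fact P.p.Prime := ⟨P.pp⟩
  letI iK : Field (integralClosure ℤ ℂ ⧸ 𝔪) := Ideal.Quotient.field 𝔪
  let ψ : integralClosure ℤ ℂ →+* (integralClosure ℤ ℂ ⧸ 𝔪) := Ideal.Quotient.mk 𝔪
  haveI iChar : CharP (integralClosure ℤ ℂ ⧸ 𝔪) P.p := by
    refine (CharP.charP_iff_prime_eq_zero P.pp).mpr ?_
    have : ψ (P.p : integralClosure ℤ ℂ) = 0 := Ideal.Quotient.eq_zero_iff_mem.mpr hp𝔪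
    rwa [map_natCast] at this
  obtain ⟨ρ₀, hatt, -⟩ := hS29 hg P.pp ψ
  -- the field `F`
  obtain ⟨L₁, hL₁, hρ₀⟩ := ρ₀.factorsThroughFiniteLevel
  haveI hfin : Finite (Vp P) :=
    (H63.card_of_torsion_poly (H63.torsion_poly_of_preΨ stmt_torsion_preΨ) P).1
  letI : Fintype (Vp P) := Fintype.ofFinite _
  let S : Finset Qbar := Finset.univ.biUnion fun v : Vp P =>
    coordSet (v : (P.freyCurve⁄Qbar).Point)
  obtain ⟨F, hFfin, hFnorm, hL₁F, hSF⟩ := exists_galois_field L₁ hL₁ S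
  haveI := hFfin
  haveI := hFnorm
  have hℓK : ∀ ℓ : ℕ, ℓ.Prime → ℓ ≠ P.p → ((ℓ : ℕ) : integralClosure ℤ ℂ ⧸ 𝔪) ≠ 0 := by
    intro ℓ hℓ hℓp h0
    have hdvd : P.p ∣ ℓ := (CharP.cast_eq_zero_iff (integralClosure ℤ ℂ ⧸ 𝔪) P.p ℓ).mp h0
    exact hℓp ((Nat.prime_dvd_prime_iff_eq P.pp hℓ).mp hdvd).symm
  refine ⟨integralClosure ℤ ℂ ⧸ 𝔪, iK, ZMod.algebra _ P.p, ρ₀.V, inferInstance, inferInstance,
    ρ₀.ρ, ψ, F, inferInstance, ⟨⟩, ⟨⟩, inferInstance, inferInstance, ?_, ρ₀.finrank_eq,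
    ?_, ?_, ?_⟩
  · rw [Ideal.mk_ker]
  · intro σ hσ
    rw [MonoidHom.mem_ker] at hσ
    have hfix : ∀ x ∈ F, σ x = x := by
      intro x hx
      have h := AlgEquiv.restrictNormal_commutes σ F ⟨x, hx⟩
      have h1 : σ.restrictNormal F = 1 := hσ
      rw [h1] at h
      exact h.symm
    refine ⟨?_, ?_⟩
    · show σ ∈ MonoidHom.ker _
      rw [MonoidHom.mem_ker]
      refine LinearMap.ext fun v => ?_
      rw [galoisRepModuleEnd_apply, Module.End.one_apply]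
      refine smul_eq_of_fix_coords P σ v fun x hx => hfix x (hSF x ?_)
      exact Finset.mem_biUnion.mpr ⟨v, Finset.mem_univ _, hx⟩
    · show σ ∈ MonoidHom.ker _
      rw [MonoidHom.mem_ker]
      exact hρ₀ σ fun x hx => hfix x (hL₁F hx)
  · intro ℓ hℓ hℓM hℓp A hA τ hτ
    obtain ⟨a, ha, hcp⟩ := hatt ℓ hℓ hℓM (hℓK ℓ hℓ hℓp) A hA τ hτ
    exact ⟨a, ha, (trace_det_of_charpoly ρ₀.finrank_eq _ hcp).1⟩
  · intro ℓ hℓ hℓM hℓp A hA τ hτ
    obtain ⟨a, _, hcp⟩ := hatt ℓ hℓ hℓM (hℓK ℓ hℓ hℓp) A hA τ hτ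
    exact (trace_det_of_charpoly ρ₀.finrank_eq _ hcp).2

/-- **S42 from S30.** -/
theorem result_of_S30 (hS30 : Fermat.Agent.R.Stmt_S30) (P : FreyPackage) :
    ∀ M : ℕ, 0 < M → P.EigenformResidualAttachmentAt M :=
  result_of_S29 (Fermat.Agent.S29.H33.stmt_S29_of_S30 hS30) P

end Fermat.Agent.S42.H33

end
-- ==== END Fermat.Agent.S42.H33_Wiring
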