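-- GENERATED (merged mirror, NOTES/tools/trim/merge3_helper67.py): 7 modules of the originals, bodies verbatim.
import Mathlib
import Fermat.Prelude.Def_ModularCurve_X0ModL
import Fermat.Agent.Zm.S35_L09_003
import Fermat.Agent.Zm.S35_L09_000
import Fermat.Agent.Zm.S35_L09_001
import Fermat.Agent.Zm.S35_L06_001
import Fermat.Agent.Zm.S35_L06_003
import Fermat.Agent.Zm.S35_L08_004
import Fermat.Agent.Zm.S35_L04_002

-- ==== BEGIN Fermat.Agent.BAD.H28_Final
section

/-!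
# Item 65, package ABS (helper28), part P7: the final assembly

`stmt_ABS_of : Stmt_TwistExists → Stmt_Moving → Stmt_TIss → Stmt_ABS`.

Given `f` with `red₁ f = 1` and divisor divisible by `n`: a twist datum `x` with `x.f = f`, the
moving lemma gives `h` such that `F_h = f h ^ n` is a unit for both valuations without zero or
pole on the fibres of the nodes; then `g = σ(F_h) / F_h` satisfies the hypotheses of TI-ss-gp, so
`g = t ^ n` and `σ f / f = (t h / σ h) ^ n`.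
-/

set_option autoImplicit false
set_option linter.style.haveILetI false
set_option maxHeartbeats 1000000

noncomputable section

open AlgebraicCurve

attribute [local instance] Classical.propDecidable

namespace Fermat.Agent.BAD

open Fermat.Agent.RED.H17 Fermat.Agent.RED

local notation "L" => riemannRochSpace

namespace H28

/-- **Final assembly of package ABS.** -/
theorem stmt_ABS_of (hTE : Stmt_TwistExists) (hMv : Stmt_Moving) (hTI : Stmt_TIss) :
    Stmt_ABS := by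
  intro K F k F₁ F₂ _ _ _ _ _ _ _ _ _ _ S H H₁ H₂ g g₁ g₂ c c₁ c₂ hR hR₁ hR₂ hnum n hn σ hσ f
    hf hf1 hdiv
  have hn0 : n ≠ 0 := by
    rintro rfl
    exact hn Nat.cast_zero
  obtain ⟨x, rfl⟩ := hTE K F k F₁ F₂ S H H₁ H₂ n hn0 f hf hf1 hdiv
  obtain ⟨h, hh₁, hh₂, hnode⟩ :=
    hMv K F k F₁ F₂ S H H₁ H₂ g g₁ g₂ c c₁ c₂ hR hR₁ hR₂ hnum n hn x
  have hfGU₁ : S.c₁.IsGU x.f := ⟨x.hf₁, by rw [x.hrd₁]; exact one_ne_zero⟩
  have hf0 : x.f ≠ 0 := hfGU₁.ne_zero
  have hh0 : h ≠ 0 := hh₁.ne_zero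
  set Fh : F := x.f * h ^ n with hFh
  have hFh0 : Fh ≠ 0 := mul_ne_zero hf0 (pow_ne_zero _ hh0)
  have hFh₁ : S.c₁.IsGU Fh := hfGU₁.mul (hh₁.pow n)
  have hFh₂ : S.c₂.IsGU Fh := by
    have e : Fh = (x.f / x.ϑ ^ n) * (x.ϑ * h) ^ n := by
      have hϑn : x.ϑ ^ n ≠ 0 := pow_ne_zero _ x.hϑ
      rw [hFh, mul_pow]
      field_simp
    rw [e]
    exact x.hf₂.mul (hh₂.pow n)
  -- `σ F_h`
  have hσ₁ : S.c₁.IsGU (σ • Fh) ∧ S.c₁.rd (σ • Fh) = S.c₁.rd Fh := by
    have hm := hσ.mem₁ Fh hFh₁.1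
    have hr : S.c₁.rd (σ • Fh) = S.c₁.rd Fh := by
      rw [S.c₁.rd_of_mem hm, S.c₁.rd_of_mem hFh₁.1]
      exact hσ.red₁ Fh hFh₁.1 hm
    exact ⟨⟨hm, by rw [hr]; exact hFh₁.2⟩, hr⟩
  have hσ₂ : S.c₂.IsGU (σ • Fh) ∧ S.c₂.rd (σ • Fh) = S.c₂.rd Fh := by
    have hm := hσ.mem₂ Fh hFh₂.1
    have hr : S.c₂.rd (σ • Fh) = S.c₂.rd Fh := by
      rw [S.c₂.rd_of_mem hm, S.c₂.rd_of_mem hFh₂.1]
      exact hσ.red₂ Fh hFh₂.1 hm
    exact ⟨⟨hm, by rw [hr]; exact hFh₂.2⟩, hr⟩
  set gg : F := (σ • Fh) / Fh with hgg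
  have hgg₁ : S.c₁.IsGU gg := hσ₁.1.div hFh₁
  have hgg₂ : S.c₂.IsGU gg := hσ₂.1.div hFh₂
  have hggrd₁ : S.c₁.rd gg = 1 := by
    rw [hσ₁.1.rd_div hFh₁, hσ₁.2, div_self hFh₁.2]
  have hggrd₂ : S.c₂.rd gg = 1 := by
    rw [hσ₂.1.rd_div hFh₂, hσ₂.2, div_self hFh₂.2]
  -- orders
  have hordσ : ∀ (P : Place K F) (y : F), P.ord (σ • y) = (σ⁻¹ • P).ord y := by
    intro P y
    have := SemilinearAut.ord_smul σ (σ⁻¹ • P) y
    rwa [smul_inv_smul] at this
  have hordF : ∀ P : Place K F, (n : ℤ) ∣ P.ord Fh := by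
    intro P
    rw [hFh, P.ord_mul hf0 (pow_ne_zero _ hh0), ord_pow]
    exact dvd_add (x.hdiv P) (dvd_mul_right _ _)
  have hordg : ∀ P : Place K F, P.ord gg = (σ⁻¹ • P).ord Fh - P.ord Fh := by
    intro P
    rw [hgg, ord_div P hσ₁.1.ne_zero hFh0, hordσ]
  have hdivg : ∀ P : Place K F, (n : ℤ) ∣ P.ord gg := by
    intro P
    rw [hordg]
    exact dvd_sub (hordF _) (hordF _)
  have hnodeσ : ∀ P : Place K F, S.IsNodeP P → S.IsNodeP (σ⁻¹ • P) := by
    rintro P ⟨s, hs, hP⟩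
    refine ⟨s, hs, ?_⟩
    have := hσ.r₁ (σ⁻¹ • P)
    rw [smul_inv_smul] at this
    rw [← this, hP]
  have hnodeg : ∀ P : Place K F, S.IsNodeP P → P.ord gg = 0 := by
    intro P hP
    rw [hordg, hnode P hP, hnode _ (hnodeσ P hP), sub_zero]
  obtain ⟨t, ht⟩ := hTI K F k F₁ F₂ S H H₁ H₂ g g₁ g₂ c c₁ c₂ hR hR₁ hR₂ hnum n hn gg
    hgg₁.1 hgg₂.1 hggrd₁ hggrd₂ hdivg hnodeg
  -- conclusion
  have hσh0 : σ • h ≠ 0 := by
    intro h0
    apply hh0
    have := congrArg (fun y => σ⁻¹ • y) h0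
    simpa using this
  have hσFh : σ • Fh = (σ • x.f) * (σ • h) ^ n := by
    rw [hFh, smul_mul', smul_pow']
  refine ⟨t * h / (σ • h), ?_⟩
  rw [div_pow, mul_pow, ht, hgg, hσFh, hFh]
  field_simp

end H28

end Fermat.Agent.BAD

end
end
-- ==== END Fermat.Agent.BAD.H28_Final

-- ==== BEGIN Fermat.Agent.BAD.H88_Wq
section

/-!
# Item 65 (BAD_q), package V2 (helper88): the Atkin–Lehner involution `w_q` on `F_N · Q̄`, part 2

`N = M q` with `a q + b M = 1`.  `W = !![q a, -b; M q, q]`, `det W = q`.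
* `wq : F_N ≃ₐ[Q̄] F_N` with `wq (j (q^d)) = j (q^(d q))`, `wq (j (q^(d q))) = j (q^d)` for `d ∣ M`;
* `wq` is an involution and commutes with the coefficientwise action of `Gal(Q̄/ℚ)`.
-/

set_option autoImplicit false
set_option synthInstance.maxHeartbeats 400000
set_option maxHeartbeats 1000000
set_option linter.unusedSectionVars false
set_option linter.style.haveILetI false

noncomputable section

namespace Fermat.Agent.BAD.H88

open Fermat.Agent.S24 ModularCurve UpperHalfPlane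
open scoped MatrixGroups Manifold

/-! ## Generalities -/

/-- Two `K`-algebra homomorphisms of fields which agree on a generating set are equal. -/
theorem algHom_ext_of_adjoin {K F E : Type*} [Field K] [Field F] [Field E] [Algebra K F]
    [Algebra K E] (S : Set F) (hS : IntermediateField.adjoin K S = ⊤) (f g : F →ₐ[K] E)
    (h : ∀ x ∈ S, f x = g x) : f = g := by
  ext x
  have hx : x ∈ IntermediateField.adjoin K S := by rw [hS]; exact IntermediateField.mem_top
  induction hx using IntermediateField.adjoin_induction with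
  | mem y hy => exact h y hy
  | algebraMap c => rw [f.commutes, g.commutes]
  | add y z _ _ hy hz => rw [map_add, map_add, hy, hz]
  | inv y _ hy => rw [map_inv₀, map_inv₀, hy]
  | mul y z _ _ hy hz => rw [map_mul, map_mul, hy, hz]

/-! ## The matrix `W` -/

/-- The Atkin–Lehner matrix `!![q a, -b; M q, q]`. -/
def Wmat (q M : ℕ) (a b : ℤ) : Matrix (Fin 2) (Fin 2) ℤ := !![(q : ℤ) * a, -b; (M : ℤ) * q, q]

theorem Wmat_det (q M : ℕ) (a b : ℤ) (hab : a * q + b * M = 1) : (Wmat q M a b).det = q := by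
  rw [Wmat, Matrix.det_fin_two_of]
  linear_combination (q : ℤ) * hab

theorem Wmat_det_pos (q M : ℕ) (a b : ℤ) (hab : a * q + b * M = 1) (hq : 0 < q) :
    0 < (Wmat q M a b).det := by
  rw [Wmat_det q M a b hab]; exact_mod_cast hq

/-- `diag(d, 1) W = γ diag(d q, 1)` with `γ ∈ SL₂(ℤ)`, for `M = d e`. -/
theorem diag_mul_Wmat (q M : ℕ) (a b : ℤ) (hab : a * q + b * M = 1) (d e : ℕ) (hM : M = d * e) :
    ∃ γ : SL(2, ℤ), (!![(d : ℤ), 0; 0, 1] : Matrix (Fin 2) (Fin 2) ℤ) * Wmat q M a b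
      = γ.1 * !![((d * q : ℕ) : ℤ), 0; 0, 1] := by
  refine ⟨⟨!![a, -(d : ℤ) * b; (e : ℤ), q], ?_⟩, ?_⟩
  · rw [Matrix.det_fin_two_of]
    subst hM
    push_cast at hab
    linear_combination hab
  · subst hM
    rw [Wmat]
    ext i j
    fin_cases i <;> fin_cases j <;> simp [Matrix.mul_apply, Fin.sum_univ_two] <;> ring

/-- `diag(d q, 1) W = q • (γ diag(d, 1))` with `γ ∈ SL₂(ℤ)`, for `M = d e`. -/
theorem diagq_mul_Wmat (q M : ℕ) (a b : ℤ) (hab : a * q + b * M = 1) (d e : ℕ)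
    (hM : M = d * e) :
    ∃ γ : SL(2, ℤ), (!![((d * q : ℕ) : ℤ), 0; 0, 1] : Matrix (Fin 2) (Fin 2) ℤ) * Wmat q M a b
      = (q : ℤ) • (γ.1 * !![(d : ℤ), 0; 0, 1]) := by
  refine ⟨⟨!![(q : ℤ) * a, -(d : ℤ) * b; (e : ℤ), 1], ?_⟩, ?_⟩
  · rw [Matrix.det_fin_two_of]
    subst hM
    push_cast at hab
    linear_combination hab
  · subst hM
    rw [Wmat]
    ext i j
    fin_cases i <;> fin_cases j <;>
      simp [Matrix.mul_apply, Fin.sum_univ_two, Matrix.smul_apply] <;> ring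

theorem diag_det_pos (d : ℕ) (hd : 0 < d) :
    0 < (!![(d : ℤ), 0; 0, 1] : Matrix (Fin 2) (Fin 2) ℤ).det := by
  simpa [Matrix.det_fin_two] using hd

/-- `j (d W τ) = j (d q τ)`. -/
theorem compHol_JA_diag (q M : ℕ) (a b : ℤ) (hab : a * q + b * M = 1) (hq : 0 < q)
    (d e : ℕ) (hd : 0 < d) (hM : M = d * e) :
    compHol (Wmat q M a b) (Wmat_det_pos q M a b hab hq) (JA !![(d : ℤ), 0; 0, 1])
      = JA !![((d * q : ℕ) : ℤ), 0; 0, 1] := by
  obtain ⟨γ, hγ⟩ := diag_mul_Wmat q M a b hab d e hM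
  rw [compHol_JA _ _ _ (diag_det_pos d hd), hγ,
    JA_mul_left γ _ (diag_det_pos (d * q) (Nat.mul_pos hd hq))]

/-- `j (d q W τ) = j (d τ)`. -/
theorem compHol_JA_diagq (q M : ℕ) (a b : ℤ) (hab : a * q + b * M = 1) (hq : 0 < q)
    (d e : ℕ) (hd : 0 < d) (hM : M = d * e) :
    compHol (Wmat q M a b) (Wmat_det_pos q M a b hab hq) (JA !![((d * q : ℕ) : ℤ), 0; 0, 1])
      = JA !![(d : ℤ), 0; 0, 1] := by
  obtain ⟨γ, hγ⟩ := diagq_mul_Wmat q M a b hab d e hM
  have h1 : 0 < (γ.1 * !![(d : ℤ), 0; 0, 1]).det := by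
    rw [Matrix.det_mul, γ.2, one_mul]; exact diag_det_pos d hd
  rw [compHol_JA _ _ _ (diag_det_pos (d * q) (Nat.mul_pos hd hq)), hγ,
    JA_smul (q : ℤ) (by exact_mod_cast hq) _ h1, JA_mul_left γ _ (diag_det_pos d hd)]

/-! ## The automorphism `wq` of `F_N` -/

section Wq

variable (q M : ℕ) (a b : ℤ) (hab : a * q + b * M = 1) (hq : q.Prime) [NeZero (M * q)]

include hab hq

theorem q_not_dvd_M : ¬ q ∣ M := by
  intro h
  obtain ⟨m, rfl⟩ := h
  have h1 : (q : ℤ) ∣ 1 := by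
    rw [← hab]
    exact dvd_add (dvd_mul_left _ _) (by push_cast; exact (dvd_mul_right _ _).mul_left b)
  have h2 : q ∣ 1 := by exact_mod_cast h1
  exact hq.one_lt.ne' (Nat.dvd_one.mp h2)

/-- The divisors of `M q` are the `d` and the `d q`, `d ∣ M`. -/
theorem dvd_cases (D : ℕ) (hD : D ∣ M * q) :
    (∃ e, M = D * e) ∨ ∃ d e, D = d * q ∧ M = d * e := by
  by_cases h : q ∣ D
  · obtain ⟨d, rfl⟩ := h
    right
    have h2 : d ∣ M := by
      have h3 : q * d ∣ q * M := by rwa [mul_comm q M]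
      exact (Nat.mul_dvd_mul_iff_left hq.pos).mp h3
    obtain ⟨e, he⟩ := h2
    exact ⟨d, e, mul_comm _ _, he⟩
  · left
    have hcop : Nat.Coprime D q := ((Nat.Prime.coprime_iff_not_dvd hq).mpr h).symm
    exact hcop.dvd_of_dvd_mul_right hD

theorem M_pos : 0 < M := by
  rcases Nat.eq_zero_or_pos M with h | h
  · exfalso
    exact q_not_dvd_M q M a b hab hq (h ▸ dvd_zero q)
  · exact h

/-- `W` maps the analytic image of `F_N` into itself. -/
theorem compMer_emb_mem_range (x : FN (M * q)) :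
    compMer (Wmat q M a b) (Wmat_det_pos q M a b hab hq.pos) (emb (M * q) x)
      ∈ (emb (M * q)).range := by
  have hx : x ∈ IntermediateField.adjoin Kbar
      {x : FN (M * q) | ∃ (d : ℕ) (_ : NeZero d) (hd : d ∣ M * q), x = jdF (M * q) d hd} := by
    rw [adjoin_jdF]; exact IntermediateField.mem_top
  induction hx using IntermediateField.adjoin_induction with
  | mem y hy =>
    obtain ⟨D, hD0, hD, rfl⟩ := hy
    rw [emb_jdF, compMer_holToMer]
    rcases dvd_cases q M a b hab hq D hD with ⟨e, he⟩ | ⟨d, e, rfl, he⟩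
    · have hDpos : 0 < D := Nat.pos_of_ne_zero (NeZero.ne D)
      rw [compHol_JA_diag q M a b hab hq.pos D e hDpos he]
      haveI : NeZero (D * q) := ⟨(Nat.mul_pos hDpos hq.pos).ne'⟩
      have hdvd : D * q ∣ M * q := Nat.mul_dvd_mul_right ⟨e, he⟩ q
      exact ⟨jdF (M * q) (D * q) hdvd, emb_jdF (M * q) (D * q) hdvd⟩
    · have hdpos : 0 < d := by
        rcases Nat.eq_zero_or_pos d with h | h
        · exfalso; apply NeZero.ne (d * q); rw [h, zero_mul]
        · exact h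
      rw [compHol_JA_diagq q M a b hab hq.pos d e hdpos he]
      haveI : NeZero d := ⟨hdpos.ne'⟩
      have hdvd : d ∣ M * q := Dvd.dvd.mul_right ⟨e, he⟩ q
      exact ⟨jdF (M * q) d hdvd, emb_jdF (M * q) d hdvd⟩
  | algebraMap c =>
    rw [AlgHom.commutes, AlgHom.commutes]
    exact Subalgebra.algebraMap_mem _ c
  | add y z _ _ hy hz =>
    rw [map_add, map_add]; exact add_mem hy hz
  | inv y _ hy =>
    rw [map_inv₀, map_inv₀]
    obtain ⟨t, ht⟩ := hy
    exact ⟨t⁻¹, by rw [map_inv₀]; exact congrArg _ ht⟩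
  | mul y z _ _ hy hz =>
    rw [map_mul, map_mul]; exact mul_mem hy hz

/-- The Atkin–Lehner involution, as an algebra homomorphism. -/
def wqHom : FN (M * q) →ₐ[Kbar] FN (M * q) :=
  ((AlgEquiv.ofInjective (emb (M * q)) (emb_injective (M * q))).symm.toAlgHom).comp
    (((compMer (Wmat q M a b) (Wmat_det_pos q M a b hab hq.pos)).comp (emb (M * q))).codRestrict
      (emb (M * q)).range (compMer_emb_mem_range q M a b hab hq))

theorem emb_wqHom (x : FN (M * q)) :
    emb (M * q) (wqHom q M a b hab hq x)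
      = compMer (Wmat q M a b) (Wmat_det_pos q M a b hab hq.pos) (emb (M * q) x) := by
  have h := (AlgEquiv.ofInjective (emb (M * q)) (emb_injective (M * q))).apply_symm_apply
    ((((compMer (Wmat q M a b) (Wmat_det_pos q M a b hab hq.pos)).comp (emb (M * q))).codRestrict
      (emb (M * q)).range (compMer_emb_mem_range q M a b hab hq)) x)
  exact congrArg Subtype.val h

/-- `wq (j (q^d)) = j (q^(d q))` for `d ∣ M`. -/
theorem wqHom_jdF (d : ℕ) [NeZero d] [NeZero (d * q)] (hd : d ∣ M) :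
    wqHom q M a b hab hq (jdF (M * q) d (Dvd.dvd.mul_right hd q))
      = jdF (M * q) (d * q) (Nat.mul_dvd_mul_right hd q) := by
  apply emb_injective (M * q)
  obtain ⟨e, he⟩ := hd
  rw [emb_wqHom, emb_jdF, emb_jdF, compMer_holToMer,
    compHol_JA_diag q M a b hab hq.pos d e (Nat.pos_of_ne_zero (NeZero.ne d)) he]

/-- `wq (j (q^(d q))) = j (q^d)` for `d ∣ M`. -/
theorem wqHom_jdF_mul (d : ℕ) [NeZero d] [NeZero (d * q)] (hd : d ∣ M) :
    wqHom q M a b hab hq (jdF (M * q) (d * q) (Nat.mul_dvd_mul_right hd q))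
      = jdF (M * q) d (Dvd.dvd.mul_right hd q) := by
  apply emb_injective (M * q)
  obtain ⟨e, he⟩ := hd
  rw [emb_wqHom, emb_jdF, emb_jdF, compMer_holToMer,
    compHol_JA_diagq q M a b hab hq.pos d e (Nat.pos_of_ne_zero (NeZero.ne d)) he]

/-- `wq` is an involution. -/
theorem wqHom_comp_self :
    (wqHom q M a b hab hq).comp (wqHom q M a b hab hq) = AlgHom.id Kbar (FN (M * q)) := by
  apply algHom_ext_of_adjoin _ (adjoin_jdF (M * q))
  rintro x ⟨D, hD0, hD, rfl⟩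
  rw [AlgHom.comp_apply, AlgHom.id_apply]
  rcases dvd_cases q M a b hab hq D hD with ⟨e, he⟩ | ⟨d, e, rfl, he⟩
  · haveI : NeZero (D * q) := ⟨(Nat.mul_pos (Nat.pos_of_ne_zero (NeZero.ne D)) hq.pos).ne'⟩
    rw [wqHom_jdF q M a b hab hq D ⟨e, he⟩, wqHom_jdF_mul q M a b hab hq D ⟨e, he⟩]
  · have hdpos : 0 < d := by
      rcases Nat.eq_zero_or_pos d with h | h
      · exfalso; apply NeZero.ne (d * q); rw [h, zero_mul]
      · exact h
    haveI : NeZero d := ⟨hdpos.ne'⟩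
    rw [wqHom_jdF_mul q M a b hab hq d ⟨e, he⟩, wqHom_jdF q M a b hab hq d ⟨e, he⟩]

theorem wqHom_wqHom (x : FN (M * q)) :
    wqHom q M a b hab hq (wqHom q M a b hab hq x) = x :=
  congrArg (fun f : FN (M * q) →ₐ[Kbar] FN (M * q) => f x) (wqHom_comp_self q M a b hab hq)

/-- **The Atkin–Lehner involution `w_q`** of `F_N = Q̄(j(q^d) : d ∣ N)`, `N = M q`. -/
def wq : FN (M * q) ≃ₐ[Kbar] FN (M * q) :=
  AlgEquiv.ofAlgHom (wqHom q M a b hab hq) (wqHom q M a b hab hq)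
    (wqHom_comp_self q M a b hab hq) (wqHom_comp_self q M a b hab hq)

theorem wq_apply (x : FN (M * q)) : wq q M a b hab hq x = wqHom q M a b hab hq x := rfl

theorem wq_symm : (wq q M a b hab hq).symm = wq q M a b hab hq := by
  ext x
  rfl

theorem wq_wq (x : FN (M * q)) : wq q M a b hab hq (wq q M a b hab hq x) = x :=
  wqHom_wqHom q M a b hab hq x

end Wq

end Fermat.Agent.BAD.H88

end
end
-- ==== END Fermat.Agent.BAD.H88_Wq

-- ==== BEGIN Fermat.Agent.Betti.H76_Span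
section

/-!
# Betti-Hecke, part of B1: `Hom_par(Γ₀(N), ℂ)` is spanned by `Hom_par(Γ₀(N), ℤ)`

* `span_int_of_fg`: for a finitely generated group `Γ` and a set `P ⊆ Γ`, every homomorphism
  `Γ → ℂ` vanishing on `P` is a `ℂ`-linear combination of homomorphisms `Γ → ℤ` vanishing on `P`
  (the `ℤ`-span of the evaluation functionals is a finitely generated torsion free `ℤ`-module,
  hence free);
* `fg_Gamma0`: `Γ₀(N)` is finitely generated (Schreier's lemma, `SL(2, ℤ) = ⟨S, T⟩`);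
* `spanHyp : SpanHyp N`;
* consequences: `wordS_eq_zero_iff_int'`, `wordS_eq_zero_of_zmod'` (relations of Hecke operators
  on `Hom_par(Γ₀(N), ℤ)` resp. on all `Hom_par(Γ₀(N), ℤ/pⁿ)` hold on `S₂(Γ₀(N))`).
-/

set_option autoImplicit false

open CongruenceSubgroup ModularCurve ModularCurve.Period
open scoped MatrixGroups

namespace Fermat.Agent.Betti.H76

theorem span_int_of_fg {Γ : Type*} [Group Γ] [hfg : Group.FG Γ] (P : Set Γ)
    (φ : Additive Γ →+ ℂ) (hφ : ∀ g ∈ P, φ (Additive.ofMul g) = 0) :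
    φ ∈ Submodule.span ℂ {ψ : Additive Γ →+ ℂ | ∃ φ₀ : Additive Γ →+ ℤ,
        (∀ g ∈ P, φ₀ (Additive.ofMul g) = 0) ∧ ψ = (Int.castAddHom ℂ).comp φ₀} := by
  classical
  -- the homomorphisms vanishing on `P` and the evaluation map
  let HP : Type _ := {ψ : Additive Γ →+ ℂ // ∀ g ∈ P, ψ (Additive.ofMul g) = 0}
  let π : Additive Γ →+ (HP → ℂ) :=
    { toFun := fun g ψ => ψ.1 g
      map_zero' := by funext ψ; simp
      map_add' := by intro a b; funext ψ; simp }
  have hπ : ∀ g ψ, π g ψ = ψ.1 g := fun _ _ => rfl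
  -- a finite generating set
  obtain ⟨S, hS⟩ := Group.fg_iff.mp hfg
  obtain ⟨hScl, hSfin⟩ := hS
  let Q : Submodule ℤ (HP → ℂ) := Submodule.span ℤ ((fun g : Γ => π (Additive.ofMul g)) '' S)
  have hmem : ∀ g : Γ, π (Additive.ofMul g) ∈ Q := by
    intro g
    have hg : g ∈ Subgroup.closure S := by rw [hScl]; trivial
    induction hg using Subgroup.closure_induction with
    | mem x hx => exact Submodule.subset_span ⟨x, hx, rfl⟩
    | one => rw [ofMul_one, map_zero]; exact Q.zero_mem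
    | mul x y _ _ hx hy => rw [ofMul_mul, map_add]; exact Q.add_mem hx hy
    | inv x _ hx => rw [ofMul_inv, map_neg]; exact Q.neg_mem hx
  have hQfg : Q.FG := Submodule.fg_span (hSfin.image _)
  have : Module.Finite ℤ Q := Module.Finite.iff_fg.mpr hQfg
  obtain ⟨n, b⟩ := Module.basisOfFiniteTypeTorsionFree' (R := ℤ) (M := Q)
  -- the map to `Q`
  let π' : Additive Γ →+ Q :=
    { toFun := fun g => ⟨π g, hmem (Additive.toMul g)⟩
      map_zero' := by apply Subtype.ext; exact map_zero π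
      map_add' := by intro a c; apply Subtype.ext; exact map_add π a c }
  have hπ' : ∀ g, ((π' g : Q) : HP → ℂ) = π g := fun _ => rfl
  let ψ : Fin n → (Additive Γ →+ ℤ) := fun i => (b.coord i).toAddMonoidHom.comp π'
  have hψ : ∀ i g, ψ i g = b.repr (π' g) i := fun _ _ => rfl
  have hψP : ∀ i, ∀ g ∈ P, ψ i (Additive.ofMul g) = 0 := by
    intro i g hg
    have h0 : π' (Additive.ofMul g) = 0 := by
      apply Subtype.ext
      funext χ
      exact χ.2 g hg
    rw [hψ, h0, map_zero]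
    rfl
  have hsum : φ = ∑ i, ((b i : HP → ℂ) ⟨φ, hφ⟩) • (Int.castAddHom ℂ).comp (ψ i) := by
    refine AddMonoidHom.ext fun g => ?_
    have h1 := b.sum_repr (π' g)
    have h2 := congrArg (fun q : Q => (q : HP → ℂ) ⟨φ, hφ⟩) h1
    simp only [hπ', hπ] at h2
    rw [← h2]
    simp only [Submodule.coe_sum, Submodule.coe_smul, Finset.sum_apply, Pi.smul_apply,
      zsmul_eq_mul, AddMonoidHom.coe_finsetSum, AddMonoidHom.coe_smul, smul_eq_mul,
      AddMonoidHom.comp_apply, Int.coe_castAddHom, hψ]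
    refine Finset.sum_congr rfl fun i _ => ?_
    rw [Pi.mul_apply, Pi.intCast_apply, mul_comm]
  rw [hsum]
  refine Submodule.sum_mem _ fun i _ => Submodule.smul_mem _ _ (Submodule.subset_span ?_)
  exact ⟨ψ i, hψP i, rfl⟩

theorem fg_SL2Z : Group.FG SL(2, ℤ) := by
  rw [Group.fg_iff]
  exact ⟨{ModularGroup.S, ModularGroup.T}, SpecialLinearGroup.SL2Z_generators, Set.toFinite _⟩

theorem fg_Gamma0 (N : ℕ) [NeZero N] : Group.FG (Gamma0 N) := by
  have := _root_.Fermat.Agent.Betti.H76.fg_SL2Z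
  exact Subgroup.fg_of_index_ne_zero (Gamma0 N)

/-- **B1 (span)**: `Hom_par(Γ₀(N), ℂ)` is spanned over `ℂ` by the integer valued parabolic
homomorphisms. -/
theorem spanHyp (N : ℕ) [NeZero N] : SpanHyp N := by
  intro φ hφ
  have := _root_.Fermat.Agent.Betti.H76.fg_Gamma0 N
  have h := span_int_of_fg (Γ := Gamma0 N)
    {γ : Gamma0 N | ((γ : SL(2, ℤ)) : Matrix (Fin 2) (Fin 2) ℤ).trace ^ 2 = 4} φ
    (fun g hg => hφ g hg)
  refine Submodule.span_mono ?_ h
  rintro ψ ⟨φ₀, hφ₀, rfl⟩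
  exact ⟨φ₀, fun γ hγ => hφ₀ γ hγ, rfl⟩

/-- A relation among the Hecke operators holds on `S₂(Γ₀(N))` iff it holds on
`Hom_par(Γ₀(N), ℤ)`. -/
theorem wordS_eq_zero_iff_int' (N : ℕ) [NeZero N] (S : Set ℕ) (w : FreeAlgebra ℤ (Gen S)) :
    wordS N S w = 0 ↔ ∀ φ ∈ parabolicHoms ℤ (Gamma0 N) ℤ, wordB N S ℤ w φ = 0 :=
  wordS_eq_zero_iff_int N S (spanHyp N) w

/-- **Item (c') of cluster R**: a relation among the Betti Hecke operators that holds on
`Hom_par(Γ₀(N), ℤ/pⁿ)` for all `n` holds on `S₂(Γ₀(N))`. -/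
theorem wordS_eq_zero_of_zmod' (N : ℕ) [NeZero N] (S : Set ℕ) {p : ℕ} (hp : 2 ≤ p)
    (w : FreeAlgebra ℤ (Gen S))
    (h : ∀ n : ℕ, ∀ φ ∈ parabolicHoms ℤ (Gamma0 N) (ZMod (p ^ n)),
      wordB N S (ZMod (p ^ n)) w φ = 0) : wordS N S w = 0 :=
  wordS_eq_zero_of_zmod N S (spanHyp N) hp w h

end Fermat.Agent.Betti.H76

end
-- ==== END Fermat.Agent.Betti.H76_Span

-- ==== BEGIN Fermat.Agent.GTor.Clo.Phi
section
attribute [local instance 10000] SubalgebraClass.toAlgebra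
attribute [local instance 10000] HahnSeries.powerSeriesAlgebra

/-!
# S24 construction, layer 5 (WP CLO-Phi): the embedding `F_N → Frac (Atil N)`

`phi N : F_N →ₐ[Q̄] LN N` is characterised by `UL (phi x) = x (u ^ N)`, where
`UL : LN N → Q̄((u))` is the expansion at `∞`.

WP CLO-Phi (helper89): all statements proved, signatures as in the skeleton.
-/

set_option autoImplicit false

noncomputable section

namespace Fermat.Agent.GTor.Clo

open Fermat.Agent.S24

open ModularCurve UpperHalfPlane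
open scoped MatrixGroups Manifold

/-- `uExp` on `AT N`. -/
def uExpT (N : ℕ) [NeZero N] : _root_.Fermat.Agent.GTor.Clo.AT N →ₐ[_root_.Fermat.Agent.GTor.Clo.Kbar] LaurentSeries _root_.Fermat.Agent.GTor.Clo.Kbar :=
  (_root_.Fermat.Agent.GTor.Clo.uExp N).comp (_root_.Fermat.Agent.GTor.Clo.toAT N).symm.toAlgHom

theorem uExpT_injective (N : ℕ) [NeZero N] : Function.Injective (_root_.Fermat.Agent.GTor.Clo.uExpT N) :=
  (_root_.Fermat.Agent.GTor.Clo.uExp_injective N).comp (_root_.Fermat.Agent.GTor.Clo.toAT N).symm.injective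

/-- The expansion at `∞` on the fraction field. -/
def UL (N : ℕ) [NeZero N] : _root_.Fermat.Agent.GTor.Clo.LN N →ₐ[_root_.Fermat.Agent.GTor.Clo.Kbar] LaurentSeries _root_.Fermat.Agent.GTor.Clo.Kbar :=
  IsFractionRing.liftAlgHom (_root_.Fermat.Agent.GTor.Clo.uExpT_injective N)

theorem UL_algebraMap (N : ℕ) [NeZero N] (f : _root_.Fermat.Agent.GTor.Clo.AT N) :
    _root_.Fermat.Agent.GTor.Clo.UL N (algebraMap (_root_.Fermat.Agent.GTor.Clo.AT N) (_root_.Fermat.Agent.GTor.Clo.LN N) f) = _root_.Fermat.Agent.GTor.Clo.uExpT N f := by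
  rw [_root_.Fermat.Agent.GTor.Clo.UL, IsFractionRing.liftAlgHom_apply]
  exact IsFractionRing.lift_algebraMap (_root_.Fermat.Agent.GTor.Clo.uExpT_injective N) f

theorem UL_injective (N : ℕ) [NeZero N] : Function.Injective (_root_.Fermat.Agent.GTor.Clo.UL N) :=
  (_root_.Fermat.Agent.GTor.Clo.UL N).toRingHom.injective

/-- `x(q) ↦ x(u ^ N)` on `F_N`. -/
def qN (N : ℕ) [NeZero N] : _root_.Fermat.Agent.GTor.Clo.FN N →ₐ[_root_.Fermat.Agent.GTor.Clo.Kbar] LaurentSeries _root_.Fermat.Agent.GTor.Clo.Kbar :=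
  (qExpandAlgHomC _root_.Fermat.Agent.GTor.Clo.Kbar N).comp (modularFunctionFieldBar N).val

theorem qN_apply (N : ℕ) [NeZero N] (x : _root_.Fermat.Agent.GTor.Clo.FN N) : _root_.Fermat.Agent.GTor.Clo.qN N x = qExpand _root_.Fermat.Agent.GTor.Clo.Kbar N (x : LaurentSeries _root_.Fermat.Agent.GTor.Clo.Kbar) :=
  rfl

/-- `j (q ^ d)` as an element of `F_N`. -/
def jdF (N : ℕ) [NeZero N] (d : ℕ) [NeZero d] (hd : d ∣ N) : _root_.Fermat.Agent.GTor.Clo.FN N :=
  ⟨coeffEmb _root_.Fermat.Agent.GTor.Clo.Kbar (qExpand ℚ d jq), coeffEmb_mem_laurentBaseChange _root_.Fermat.Agent.GTor.Clo.Kbar (jqd_mem_full N hd)⟩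

/-- `F_N` is generated over `Q̄` by the `j (q ^ d)`, `d ∣ N`. -/
theorem adjoin_jdF (N : ℕ) [NeZero N] :
    IntermediateField.adjoin _root_.Fermat.Agent.GTor.Clo.Kbar
      {x : _root_.Fermat.Agent.GTor.Clo.FN N | ∃ (d : ℕ) (_ : NeZero d) (hd : d ∣ N), x = _root_.Fermat.Agent.GTor.Clo.jdF N d hd} = ⊤ := by
  apply IntermediateField.lift_injective
  rw [IntermediateField.lift_adjoin, IntermediateField.lift_top]
  apply le_antisymm
  · rw [IntermediateField.adjoin_le_iff]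
    rintro _ ⟨x, ⟨d, hd0, hd, rfl⟩, rfl⟩
    exact (_root_.Fermat.Agent.GTor.Clo.jdF N d hd).2
  · show laurentBaseChange _root_.Fermat.Agent.GTor.Clo.Kbar (modularFunctionFieldFull N) ≤ _
    rw [laurentBaseChange, IntermediateField.adjoin_le_iff]
    rintro _ ⟨y, hy, rfl⟩
    -- the preimage of the right-hand side under `coeffEmb` is a subfield containing the generators
    have hy' : y ∈ Subfield.closure
        (Set.range (algebraMap ℚ (LaurentSeries ℚ)) ∪ divisorExpansions N) := hy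
    clear hy
    induction hy' using Subfield.closure_induction with
    | mem z hz =>
      rcases hz with ⟨a, rfl⟩ | ⟨d, hd0, hd, rfl⟩
      · have : coeffEmb _root_.Fermat.Agent.GTor.Clo.Kbar (algebraMap ℚ (LaurentSeries ℚ) a)
            = algebraMap _root_.Fermat.Agent.GTor.Clo.Kbar (LaurentSeries _root_.Fermat.Agent.GTor.Clo.Kbar) (algebraMap ℚ _root_.Fermat.Agent.GTor.Clo.Kbar a) := by
          rw [coeffEmb, algebraMap_laurentSeries_eq_single, algebraMap_laurentSeries_eq_single,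
            coeffMap_single]
        rw [this]
        exact IntermediateField.algebraMap_mem _ _
      · refine IntermediateField.subset_adjoin _root_.Fermat.Agent.GTor.Clo.Kbar _ ⟨_root_.Fermat.Agent.GTor.Clo.jdF N d hd, ⟨d, hd0, hd, rfl⟩, rfl⟩
    | one => rw [map_one]; exact one_mem _
    | add x y _ _ hx hy => rw [map_add]; exact add_mem hx hy
    | neg x _ hx => rw [map_neg]; exact neg_mem hx
    | inv x _ hx => rw [map_inv₀]; exact inv_mem hx
    | mul x y _ _ hx hy => rw [map_mul]; exact mul_mem hx hy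

theorem qN_jdF (N : ℕ) [NeZero N] (d : ℕ) [NeZero d] (hd : d ∣ N) :
    _root_.Fermat.Agent.GTor.Clo.qN N (_root_.Fermat.Agent.GTor.Clo.jdF N d hd) = _root_.Fermat.Agent.GTor.Clo.UL N (algebraMap (_root_.Fermat.Agent.GTor.Clo.AT N) (_root_.Fermat.Agent.GTor.Clo.LN N) (_root_.Fermat.Agent.GTor.Clo.toAT N (_root_.Fermat.Agent.GTor.Clo.jdA N d))) := by
  rw [_root_.Fermat.Agent.GTor.Clo.UL_algebraMap, _root_.Fermat.Agent.GTor.Clo.qN_apply]
  show qExpand _root_.Fermat.Agent.GTor.Clo.Kbar N (coeffEmb _root_.Fermat.Agent.GTor.Clo.Kbar (qExpand ℚ d jq)) = _root_.Fermat.Agent.GTor.Clo.uExp N ((_root_.Fermat.Agent.GTor.Clo.toAT N).symm (_root_.Fermat.Agent.GTor.Clo.toAT N (_root_.Fermat.Agent.GTor.Clo.jdA N d)))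
  rw [AlgEquiv.symm_apply_apply, _root_.Fermat.Agent.GTor.Clo.uExp_jdA N d hd]

/-- The expansion of every element of `F_N` is the expansion of an element of `LN N`. -/
theorem qN_mem_range (N : ℕ) [NeZero N] (x : _root_.Fermat.Agent.GTor.Clo.FN N) : _root_.Fermat.Agent.GTor.Clo.qN N x ∈ (_root_.Fermat.Agent.GTor.Clo.UL N).range := by
  -- the elements with this property form an intermediate field containing the generators
  have hmul : ∀ a b : _root_.Fermat.Agent.GTor.Clo.FN N, _root_.Fermat.Agent.GTor.Clo.qN N (a * b) = _root_.Fermat.Agent.GTor.Clo.qN N a * _root_.Fermat.Agent.GTor.Clo.qN N b :=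
    fun a b => (_root_.Fermat.Agent.GTor.Clo.qN N).toRingHom.map_mul a b
  have hadd : ∀ a b : _root_.Fermat.Agent.GTor.Clo.FN N, _root_.Fermat.Agent.GTor.Clo.qN N (a + b) = _root_.Fermat.Agent.GTor.Clo.qN N a + _root_.Fermat.Agent.GTor.Clo.qN N b :=
    fun a b => (_root_.Fermat.Agent.GTor.Clo.qN N).toRingHom.map_add a b
  have hone : _root_.Fermat.Agent.GTor.Clo.qN N 1 = 1 := (_root_.Fermat.Agent.GTor.Clo.qN N).toRingHom.map_one
  have hzero : _root_.Fermat.Agent.GTor.Clo.qN N 0 = 0 := (_root_.Fermat.Agent.GTor.Clo.qN N).toRingHom.map_zero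
  have hinv : ∀ a : _root_.Fermat.Agent.GTor.Clo.FN N, _root_.Fermat.Agent.GTor.Clo.qN N a⁻¹ = (_root_.Fermat.Agent.GTor.Clo.qN N a)⁻¹ := fun a => map_inv₀ (_root_.Fermat.Agent.GTor.Clo.qN N).toRingHom a
  have hinvU : ∀ y : _root_.Fermat.Agent.GTor.Clo.LN N, _root_.Fermat.Agent.GTor.Clo.UL N y⁻¹ = (_root_.Fermat.Agent.GTor.Clo.UL N y)⁻¹ := fun y => map_inv₀ (_root_.Fermat.Agent.GTor.Clo.UL N).toRingHom y
  let M : IntermediateField _root_.Fermat.Agent.GTor.Clo.Kbar (_root_.Fermat.Agent.GTor.Clo.FN N) :=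
    { carrier := {x | _root_.Fermat.Agent.GTor.Clo.qN N x ∈ (_root_.Fermat.Agent.GTor.Clo.UL N).range}
      mul_mem' := fun {a b} ha hb => by
        show _root_.Fermat.Agent.GTor.Clo.qN N (a * b) ∈ (_root_.Fermat.Agent.GTor.Clo.UL N).range
        rw [hmul]; exact mul_mem ha hb
      one_mem' := by
        show _root_.Fermat.Agent.GTor.Clo.qN N 1 ∈ (_root_.Fermat.Agent.GTor.Clo.UL N).range
        rw [hone]; exact one_mem _
      add_mem' := fun {a b} ha hb => by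
        show _root_.Fermat.Agent.GTor.Clo.qN N (a + b) ∈ (_root_.Fermat.Agent.GTor.Clo.UL N).range
        rw [hadd]; exact add_mem ha hb
      zero_mem' := by
        show _root_.Fermat.Agent.GTor.Clo.qN N 0 ∈ (_root_.Fermat.Agent.GTor.Clo.UL N).range
        rw [hzero]; exact zero_mem _
      algebraMap_mem' := fun c => by
        show _root_.Fermat.Agent.GTor.Clo.qN N (algebraMap _root_.Fermat.Agent.GTor.Clo.Kbar (_root_.Fermat.Agent.GTor.Clo.FN N) c) ∈ (_root_.Fermat.Agent.GTor.Clo.UL N).range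
        rw [(_root_.Fermat.Agent.GTor.Clo.qN N).commutes c]; exact Subalgebra.algebraMap_mem _ c
      inv_mem' := fun a ha => by
        show _root_.Fermat.Agent.GTor.Clo.qN N a⁻¹ ∈ (_root_.Fermat.Agent.GTor.Clo.UL N).range
        obtain ⟨y, hy⟩ := ha
        refine ⟨y⁻¹, ?_⟩
        have hy' : _root_.Fermat.Agent.GTor.Clo.UL N y = _root_.Fermat.Agent.GTor.Clo.qN N a := hy
        show _root_.Fermat.Agent.GTor.Clo.UL N y⁻¹ = _root_.Fermat.Agent.GTor.Clo.qN N a⁻¹
        rw [hinvU, hinv, hy'] }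
  have hM : M = ⊤ := by
    rw [eq_top_iff, ← _root_.Fermat.Agent.GTor.Clo.adjoin_jdF N, IntermediateField.adjoin_le_iff]
    rintro _ ⟨d, hd0, hd, rfl⟩
    exact ⟨_, (_root_.Fermat.Agent.GTor.Clo.qN_jdF N d hd).symm⟩
  have : x ∈ M := by rw [hM]; exact IntermediateField.mem_top
  exact this

/-- The embedding of `F_N` into the Galois closure. -/
def phi (N : ℕ) [NeZero N] : _root_.Fermat.Agent.GTor.Clo.FN N →ₐ[_root_.Fermat.Agent.GTor.Clo.Kbar] _root_.Fermat.Agent.GTor.Clo.LN N :=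
  ((AlgEquiv.ofInjective (_root_.Fermat.Agent.GTor.Clo.UL N) (_root_.Fermat.Agent.GTor.Clo.UL_injective N)).symm : (_root_.Fermat.Agent.GTor.Clo.UL N).range →ₐ[_root_.Fermat.Agent.GTor.Clo.Kbar] _root_.Fermat.Agent.GTor.Clo.LN N).comp
    ((_root_.Fermat.Agent.GTor.Clo.qN N).codRestrict (_root_.Fermat.Agent.GTor.Clo.UL N).range (_root_.Fermat.Agent.GTor.Clo.qN_mem_range N))

theorem UL_phi (N : ℕ) [NeZero N] (x : _root_.Fermat.Agent.GTor.Clo.FN N) : _root_.Fermat.Agent.GTor.Clo.UL N (_root_.Fermat.Agent.GTor.Clo.phi N x) = _root_.Fermat.Agent.GTor.Clo.qN N x := by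
  have h := (AlgEquiv.ofInjective (_root_.Fermat.Agent.GTor.Clo.UL N) (_root_.Fermat.Agent.GTor.Clo.UL_injective N)).apply_symm_apply
    ((_root_.Fermat.Agent.GTor.Clo.qN N).codRestrict (_root_.Fermat.Agent.GTor.Clo.UL N).range (_root_.Fermat.Agent.GTor.Clo.qN_mem_range N) x)
  have h2 := congrArg Subtype.val h
  exact h2

theorem phi_jdF (N : ℕ) [NeZero N] (d : ℕ) [NeZero d] (hd : d ∣ N) :
    _root_.Fermat.Agent.GTor.Clo.phi N (_root_.Fermat.Agent.GTor.Clo.jdF N d hd) = algebraMap (_root_.Fermat.Agent.GTor.Clo.AT N) (_root_.Fermat.Agent.GTor.Clo.LN N) (_root_.Fermat.Agent.GTor.Clo.toAT N (_root_.Fermat.Agent.GTor.Clo.jdA N d)) := by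
  apply _root_.Fermat.Agent.GTor.Clo.UL_injective N
  rw [_root_.Fermat.Agent.GTor.Clo.UL_phi, _root_.Fermat.Agent.GTor.Clo.qN_jdF]

theorem jF_eq_jdF (N : ℕ) [NeZero N] : _root_.Fermat.Agent.GTor.Clo.jF N = _root_.Fermat.Agent.GTor.Clo.jdF N 1 (one_dvd N) := by
  apply Subtype.ext
  show _root_.Fermat.Agent.GTor.Clo.jBar = coeffEmb _root_.Fermat.Agent.GTor.Clo.Kbar (qExpand ℚ 1 jq)
  rw [qExpand_one_apply]
  rfl

theorem phi_jF (N : ℕ) [NeZero N] : _root_.Fermat.Agent.GTor.Clo.phi N (_root_.Fermat.Agent.GTor.Clo.jF N) = algebraMap (_root_.Fermat.Agent.GTor.Clo.AT N) (_root_.Fermat.Agent.GTor.Clo.LN N) (_root_.Fermat.Agent.GTor.Clo.jT N) := by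
  rw [_root_.Fermat.Agent.GTor.Clo.jF_eq_jdF, _root_.Fermat.Agent.GTor.Clo.phi_jdF, _root_.Fermat.Agent.GTor.Clo.jdA_one]
  rfl

/-! ## The algebra structures -/

theorem jF_transcendental (N : ℕ) [NeZero N] : Transcendental _root_.Fermat.Agent.GTor.Clo.Kbar (_root_.Fermat.Agent.GTor.Clo.jF N) := by
  intro halg
  have h1 : IsAlgebraic _root_.Fermat.Agent.GTor.Clo.Kbar (_root_.Fermat.Agent.GTor.Clo.phi N (_root_.Fermat.Agent.GTor.Clo.jF N)) := halg.algHom (_root_.Fermat.Agent.GTor.Clo.phi N)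
  rw [_root_.Fermat.Agent.GTor.Clo.phi_jF] at h1
  obtain ⟨p, hp0, hp⟩ := h1
  apply _root_.Fermat.Agent.GTor.Clo.jT_transcendental N
  refine ⟨p, hp0, ?_⟩
  apply IsFractionRing.injective (_root_.Fermat.Agent.GTor.Clo.AT N) (_root_.Fermat.Agent.GTor.Clo.LN N)
  rw [map_zero, ← hp, Polynomial.aeval_algebraMap_apply]

/-- `Q̄[X] → F_N`, `X ↦ j`. -/
instance algPolyFN (N : ℕ) [NeZero N] : Algebra (Polynomial _root_.Fermat.Agent.GTor.Clo.Kbar) (_root_.Fermat.Agent.GTor.Clo.FN N) :=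
  (Polynomial.aeval (_root_.Fermat.Agent.GTor.Clo.jF N)).toRingHom.toAlgebra

theorem algebraMap_poly_FN (N : ℕ) [NeZero N] (p : Polynomial _root_.Fermat.Agent.GTor.Clo.Kbar) :
    algebraMap (Polynomial _root_.Fermat.Agent.GTor.Clo.Kbar) (_root_.Fermat.Agent.GTor.Clo.FN N) p = Polynomial.aeval (_root_.Fermat.Agent.GTor.Clo.jF N) p := rfl

instance faithfulSMul_poly_FN (N : ℕ) [NeZero N] : FaithfulSMul (Polynomial _root_.Fermat.Agent.GTor.Clo.Kbar) (_root_.Fermat.Agent.GTor.Clo.FN N) := by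
  rw [faithfulSMul_iff_algebraMap_injective]
  exact transcendental_iff_injective.mp (_root_.Fermat.Agent.GTor.Clo.jF_transcendental N)

instance isScalarTower_Kbar_poly_FN (N : ℕ) [NeZero N] :
    IsScalarTower _root_.Fermat.Agent.GTor.Clo.Kbar (Polynomial _root_.Fermat.Agent.GTor.Clo.Kbar) (_root_.Fermat.Agent.GTor.Clo.FN N) :=
  IsScalarTower.of_algebraMap_eq fun c => by
    rw [_root_.Fermat.Agent.GTor.Clo.algebraMap_poly_FN, Polynomial.algebraMap_apply, Polynomial.aeval_C]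
    rfl

instance algEF (N : ℕ) [NeZero N] : Algebra _root_.Fermat.Agent.GTor.Clo.EN (_root_.Fermat.Agent.GTor.Clo.FN N) := FractionRing.liftAlgebra _ _

instance (N : ℕ) [NeZero N] : IsScalarTower (Polynomial _root_.Fermat.Agent.GTor.Clo.Kbar) _root_.Fermat.Agent.GTor.Clo.EN (_root_.Fermat.Agent.GTor.Clo.FN N) :=
  FractionRing.isScalarTower_liftAlgebra _ _

instance algFL (N : ℕ) [NeZero N] : Algebra (_root_.Fermat.Agent.GTor.Clo.FN N) (_root_.Fermat.Agent.GTor.Clo.LN N) := (_root_.Fermat.Agent.GTor.Clo.phi N).toRingHom.toAlgebra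

theorem algebraMap_FN_LN (N : ℕ) [NeZero N] (x : _root_.Fermat.Agent.GTor.Clo.FN N) : algebraMap (_root_.Fermat.Agent.GTor.Clo.FN N) (_root_.Fermat.Agent.GTor.Clo.LN N) x = _root_.Fermat.Agent.GTor.Clo.phi N x :=
  rfl

instance towerKEF (N : ℕ) [NeZero N] : IsScalarTower _root_.Fermat.Agent.GTor.Clo.Kbar _root_.Fermat.Agent.GTor.Clo.EN (_root_.Fermat.Agent.GTor.Clo.FN N) :=
  IsScalarTower.of_algebraMap_eq fun c => by
    rw [IsScalarTower.algebraMap_apply _root_.Fermat.Agent.GTor.Clo.Kbar (Polynomial _root_.Fermat.Agent.GTor.Clo.Kbar) _root_.Fermat.Agent.GTor.Clo.EN,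
      ← IsScalarTower.algebraMap_apply (Polynomial _root_.Fermat.Agent.GTor.Clo.Kbar) _root_.Fermat.Agent.GTor.Clo.EN (_root_.Fermat.Agent.GTor.Clo.FN N),
      ← IsScalarTower.algebraMap_apply _root_.Fermat.Agent.GTor.Clo.Kbar (Polynomial _root_.Fermat.Agent.GTor.Clo.Kbar) (_root_.Fermat.Agent.GTor.Clo.FN N)]

instance towerKFL (N : ℕ) [NeZero N] : IsScalarTower _root_.Fermat.Agent.GTor.Clo.Kbar (_root_.Fermat.Agent.GTor.Clo.FN N) (_root_.Fermat.Agent.GTor.Clo.LN N) :=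
  IsScalarTower.of_algebraMap_eq fun c => ((_root_.Fermat.Agent.GTor.Clo.phi N).commutes c).symm

theorem phi_aeval_jF (N : ℕ) [NeZero N] (p : Polynomial _root_.Fermat.Agent.GTor.Clo.Kbar) :
    _root_.Fermat.Agent.GTor.Clo.phi N (Polynomial.aeval (_root_.Fermat.Agent.GTor.Clo.jF N) p) = algebraMap (_root_.Fermat.Agent.GTor.Clo.AT N) (_root_.Fermat.Agent.GTor.Clo.LN N) (Polynomial.aeval (_root_.Fermat.Agent.GTor.Clo.jT N) p) := by
  rw [← Polynomial.aeval_algHom_apply, _root_.Fermat.Agent.GTor.Clo.phi_jF, Polynomial.aeval_algebraMap_apply]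

instance towerEFL (N : ℕ) [NeZero N] : IsScalarTower _root_.Fermat.Agent.GTor.Clo.EN (_root_.Fermat.Agent.GTor.Clo.FN N) (_root_.Fermat.Agent.GTor.Clo.LN N) :=
  IsScalarTower.of_algebraMap_eq' <| by
    apply IsLocalization.ringHom_ext (nonZeroDivisors (Polynomial _root_.Fermat.Agent.GTor.Clo.Kbar))
    ext p
    · show algebraMap _root_.Fermat.Agent.GTor.Clo.EN (_root_.Fermat.Agent.GTor.Clo.LN N) (algebraMap (Polynomial _root_.Fermat.Agent.GTor.Clo.Kbar) _root_.Fermat.Agent.GTor.Clo.EN (Polynomial.C p))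
        = algebraMap (_root_.Fermat.Agent.GTor.Clo.FN N) (_root_.Fermat.Agent.GTor.Clo.LN N) (algebraMap _root_.Fermat.Agent.GTor.Clo.EN (_root_.Fermat.Agent.GTor.Clo.FN N)
          (algebraMap (Polynomial _root_.Fermat.Agent.GTor.Clo.Kbar) _root_.Fermat.Agent.GTor.Clo.EN (Polynomial.C p)))
      rw [← IsScalarTower.algebraMap_apply (Polynomial _root_.Fermat.Agent.GTor.Clo.Kbar) _root_.Fermat.Agent.GTor.Clo.EN (_root_.Fermat.Agent.GTor.Clo.LN N),
        ← IsScalarTower.algebraMap_apply (Polynomial _root_.Fermat.Agent.GTor.Clo.Kbar) _root_.Fermat.Agent.GTor.Clo.EN (_root_.Fermat.Agent.GTor.Clo.FN N),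
        IsScalarTower.algebraMap_apply (Polynomial _root_.Fermat.Agent.GTor.Clo.Kbar) (_root_.Fermat.Agent.GTor.Clo.AT N) (_root_.Fermat.Agent.GTor.Clo.LN N),
        _root_.Fermat.Agent.GTor.Clo.algebraMap_FN_LN, _root_.Fermat.Agent.GTor.Clo.algebraMap_poly_FN, _root_.Fermat.Agent.GTor.Clo.algebraMap_poly_AT, _root_.Fermat.Agent.GTor.Clo.phi_aeval_jF]
    · show algebraMap _root_.Fermat.Agent.GTor.Clo.EN (_root_.Fermat.Agent.GTor.Clo.LN N) (algebraMap (Polynomial _root_.Fermat.Agent.GTor.Clo.Kbar) _root_.Fermat.Agent.GTor.Clo.EN Polynomial.X)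
        = algebraMap (_root_.Fermat.Agent.GTor.Clo.FN N) (_root_.Fermat.Agent.GTor.Clo.LN N) (algebraMap _root_.Fermat.Agent.GTor.Clo.EN (_root_.Fermat.Agent.GTor.Clo.FN N)
          (algebraMap (Polynomial _root_.Fermat.Agent.GTor.Clo.Kbar) _root_.Fermat.Agent.GTor.Clo.EN Polynomial.X))
      rw [← IsScalarTower.algebraMap_apply (Polynomial _root_.Fermat.Agent.GTor.Clo.Kbar) _root_.Fermat.Agent.GTor.Clo.EN (_root_.Fermat.Agent.GTor.Clo.LN N),
        ← IsScalarTower.algebraMap_apply (Polynomial _root_.Fermat.Agent.GTor.Clo.Kbar) _root_.Fermat.Agent.GTor.Clo.EN (_root_.Fermat.Agent.GTor.Clo.FN N),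
        IsScalarTower.algebraMap_apply (Polynomial _root_.Fermat.Agent.GTor.Clo.Kbar) (_root_.Fermat.Agent.GTor.Clo.AT N) (_root_.Fermat.Agent.GTor.Clo.LN N),
        _root_.Fermat.Agent.GTor.Clo.algebraMap_FN_LN, _root_.Fermat.Agent.GTor.Clo.algebraMap_poly_FN, _root_.Fermat.Agent.GTor.Clo.algebraMap_poly_AT, _root_.Fermat.Agent.GTor.Clo.phi_aeval_jF]

instance towerKEL (N : ℕ) [NeZero N] : IsScalarTower _root_.Fermat.Agent.GTor.Clo.Kbar _root_.Fermat.Agent.GTor.Clo.EN (_root_.Fermat.Agent.GTor.Clo.LN N) :=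
  IsScalarTower.of_algebraMap_eq fun c => by
    rw [IsScalarTower.algebraMap_apply _root_.Fermat.Agent.GTor.Clo.Kbar (_root_.Fermat.Agent.GTor.Clo.FN N) (_root_.Fermat.Agent.GTor.Clo.LN N),
      IsScalarTower.algebraMap_apply _root_.Fermat.Agent.GTor.Clo.Kbar _root_.Fermat.Agent.GTor.Clo.EN (_root_.Fermat.Agent.GTor.Clo.FN N),
      ← IsScalarTower.algebraMap_apply _root_.Fermat.Agent.GTor.Clo.EN (_root_.Fermat.Agent.GTor.Clo.FN N) (_root_.Fermat.Agent.GTor.Clo.LN N)]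

/-- The generator `j` of `Q̄(j)`. -/
def tE : _root_.Fermat.Agent.GTor.Clo.EN := algebraMap (Polynomial _root_.Fermat.Agent.GTor.Clo.Kbar) _root_.Fermat.Agent.GTor.Clo.EN Polynomial.X

theorem tE_map_FN (N : ℕ) [NeZero N] : algebraMap _root_.Fermat.Agent.GTor.Clo.EN (_root_.Fermat.Agent.GTor.Clo.FN N) _root_.Fermat.Agent.GTor.Clo.tE = _root_.Fermat.Agent.GTor.Clo.jF N := by
  rw [_root_.Fermat.Agent.GTor.Clo.tE, ← IsScalarTower.algebraMap_apply (Polynomial _root_.Fermat.Agent.GTor.Clo.Kbar) _root_.Fermat.Agent.GTor.Clo.EN (_root_.Fermat.Agent.GTor.Clo.FN N), _root_.Fermat.Agent.GTor.Clo.algebraMap_poly_FN,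
    Polynomial.aeval_X]

theorem tE_map_LN (N : ℕ) [NeZero N] :
    algebraMap _root_.Fermat.Agent.GTor.Clo.EN (_root_.Fermat.Agent.GTor.Clo.LN N) _root_.Fermat.Agent.GTor.Clo.tE = algebraMap (_root_.Fermat.Agent.GTor.Clo.AT N) (_root_.Fermat.Agent.GTor.Clo.LN N) (_root_.Fermat.Agent.GTor.Clo.jT N) := by
  rw [_root_.Fermat.Agent.GTor.Clo.tE, ← IsScalarTower.algebraMap_apply (Polynomial _root_.Fermat.Agent.GTor.Clo.Kbar) _root_.Fermat.Agent.GTor.Clo.EN (_root_.Fermat.Agent.GTor.Clo.LN N),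
    IsScalarTower.algebraMap_apply (Polynomial _root_.Fermat.Agent.GTor.Clo.Kbar) (_root_.Fermat.Agent.GTor.Clo.AT N) (_root_.Fermat.Agent.GTor.Clo.LN N), _root_.Fermat.Agent.GTor.Clo.algebraMap_poly_AT,
    Polynomial.aeval_X]

theorem aeval_tE (p : Polynomial _root_.Fermat.Agent.GTor.Clo.Kbar) :
    Polynomial.aeval _root_.Fermat.Agent.GTor.Clo.tE p = algebraMap (Polynomial _root_.Fermat.Agent.GTor.Clo.Kbar) _root_.Fermat.Agent.GTor.Clo.EN p := by
  rw [_root_.Fermat.Agent.GTor.Clo.tE, Polynomial.aeval_algebraMap_apply, Polynomial.aeval_X_left_apply]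

theorem tE_gen (y : _root_.Fermat.Agent.GTor.Clo.EN) : ∃ p q : Polynomial _root_.Fermat.Agent.GTor.Clo.Kbar, Polynomial.aeval _root_.Fermat.Agent.GTor.Clo.tE q ≠ 0 ∧
    y = Polynomial.aeval _root_.Fermat.Agent.GTor.Clo.tE p / Polynomial.aeval _root_.Fermat.Agent.GTor.Clo.tE q := by
  obtain ⟨p, q, hq, rfl⟩ := IsFractionRing.div_surjective (A := Polynomial _root_.Fermat.Agent.GTor.Clo.Kbar) y
  refine ⟨p, q, ?_, ?_⟩
  · rw [_root_.Fermat.Agent.GTor.Clo.aeval_tE]
    exact IsFractionRing.to_map_ne_zero_of_mem_nonZeroDivisors hq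
  · rw [_root_.Fermat.Agent.GTor.Clo.aeval_tE, _root_.Fermat.Agent.GTor.Clo.aeval_tE]

/-! ## The subgroup fixing `F_N` -/

/-- If `γ` fixes `j (N τ)` then `γ ∈ Γ₀(N)`: compare pole orders at `∞`
(`uExp_JA_order`, Hermite form of `diag(N, 1) γ⁻¹`, e.g. `Fermat.Agent.S20.H70.hermite_int`). -/
theorem mem_Gamma0_of_smul_jdA (N : ℕ) [NeZero N] (γ : SL(2, ℤ))
    (h : γ • _root_.Fermat.Agent.GTor.Clo.jdA N N = _root_.Fermat.Agent.GTor.Clo.jdA N N) : γ ∈ CongruenceSubgroup.Gamma0 N := by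
  have hNpos : 0 < N := NeZero.pos N
  set D : Matrix (Fin 2) (Fin 2) ℤ := !![(N : ℤ), 0; 0, 1] with hD
  have hDdet : D.det = N := by simp [hD, Matrix.det_fin_two]
  have hDpos : 0 < D.det := by rw [hDdet]; exact_mod_cast hNpos
  have hDN : D.det ∣ (N : ℤ) := by rw [hDdet]
  -- the hypothesis in terms of `JA`
  have h1 : γ • _root_.Fermat.Agent.GTor.Clo.JA D = _root_.Fermat.Agent.GTor.Clo.JA D := by
    have := congrArg (fun f : _root_.Fermat.Agent.GTor.Clo.Atil N => (f : Hol)) h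
    simpa only [_root_.Fermat.Agent.GTor.Clo.coe_smul_Atil, _root_.Fermat.Agent.GTor.Clo.jdA_coe N N hNpos dvd_rfl] using this
  set A : Matrix (Fin 2) (Fin 2) ℤ := D * (γ⁻¹ : SL(2, ℤ)).1 with hA
  have hAdet : A.det = N := by rw [hA, Matrix.det_mul, (γ⁻¹ : SL(2, ℤ)).2, mul_one, hDdet]
  have hApos : 0 < A.det := by rw [hAdet]; exact_mod_cast hNpos
  have hAN : A.det ∣ (N : ℤ) := by rw [hAdet]
  have h2 : _root_.Fermat.Agent.GTor.Clo.JA A = _root_.Fermat.Agent.GTor.Clo.JA D := by rw [← h1, _root_.Fermat.Agent.GTor.Clo.smul_JA γ D hDpos]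
  obtain ⟨δ, a, d, b, ha, hd, had, hAδ⟩ := _root_.Fermat.Agent.GTor.Clo.hermite_general A hApos
  have ho1 := _root_.Fermat.Agent.GTor.Clo.uExp_JA_order N A hApos hAN δ a d b ha hd hAδ
  have hD1 : D = (1 : SL(2, ℤ)).1 * !![((N : ℕ) : ℤ), (0 : ℤ); 0, ((1 : ℕ) : ℤ)] := by
    rw [Matrix.SpecialLinearGroup.coe_one, one_mul, hD, Nat.cast_one]
  have ho2 := _root_.Fermat.Agent.GTor.Clo.uExp_JA_order N D hDpos hDN 1 N 1 0 hNpos one_pos hD1
  have heq : (⟨_root_.Fermat.Agent.GTor.Clo.JA A, _root_.Fermat.Agent.GTor.Clo.JA_mem_Atil N A hApos hAN⟩ : _root_.Fermat.Agent.GTor.Clo.Atil N) = ⟨_root_.Fermat.Agent.GTor.Clo.JA D, _root_.Fermat.Agent.GTor.Clo.JA_mem_Atil N D hDpos hDN⟩ :=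
    Subtype.ext h2
  rw [heq, ho2] at ho1
  have h3 : N / 1 * N = N / d * a := by
    have := neg_injective ho1
    exact_mod_cast this
  rw [Nat.div_one] at h3
  have had' : a * d = N := by
    have : ((a * d : ℕ) : ℤ) = (N : ℤ) := by rw [← hAdet, ← had]; push_cast; ring
    exact_mod_cast this
  have hdiv : N / d = a := by
    rw [← had']
    exact Nat.mul_div_cancel a hd
  rw [hdiv] at h3
  have haN : a = N := by
    rcases Nat.lt_trichotomy a N with hlt | heq | hgt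
    · exfalso
      have : a * a < N * N := Nat.mul_lt_mul'' hlt hlt
      omega
    · exact heq
    · exfalso
      have : N * N < a * a := Nat.mul_lt_mul'' hgt hgt
      omega
  -- read off the lower left entry
  have h10 : A 1 0 = (γ⁻¹ : SL(2, ℤ)).1 1 0 := by
    rw [hA, hD]
    simp [Matrix.mul_apply, Fin.sum_univ_two]
  have h10' : A 1 0 = δ.1 1 0 * N := by
    rw [hAδ, haN]
    simp [Matrix.mul_apply, Fin.sum_univ_two]
  have hmem : γ⁻¹ ∈ CongruenceSubgroup.Gamma0 N := by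
    rw [CongruenceSubgroup.Gamma0_mem]
    rw [(ZMod.intCast_zmod_eq_zero_iff_dvd _ N)]
    rw [← h10, h10']
    exact Dvd.intro_left _ rfl
  have := inv_mem hmem
  rwa [inv_inv] at this

theorem piN_phi_jdF (N : ℕ) [NeZero N] (γ : SL(2, ℤ)) (d : ℕ) [NeZero d] (hd : d ∣ N) :
    _root_.Fermat.Agent.GTor.Clo.piN N γ (_root_.Fermat.Agent.GTor.Clo.phi N (_root_.Fermat.Agent.GTor.Clo.jdF N d hd)) = algebraMap (_root_.Fermat.Agent.GTor.Clo.AT N) (_root_.Fermat.Agent.GTor.Clo.LN N) (_root_.Fermat.Agent.GTor.Clo.toAT N (γ • _root_.Fermat.Agent.GTor.Clo.jdA N d)) := by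
  rw [_root_.Fermat.Agent.GTor.Clo.phi_jdF, _root_.Fermat.Agent.GTor.Clo.piN_algebraMap]
  rfl

theorem piN_phi_of_mem_Gamma0 (N : ℕ) [NeZero N] (γ : SL(2, ℤ))
    (hγ : γ ∈ CongruenceSubgroup.Gamma0 N) (y : _root_.Fermat.Agent.GTor.Clo.FN N) : _root_.Fermat.Agent.GTor.Clo.piN N γ (_root_.Fermat.Agent.GTor.Clo.phi N y) = _root_.Fermat.Agent.GTor.Clo.phi N y := by
  have hmul : ∀ a b : _root_.Fermat.Agent.GTor.Clo.FN N, _root_.Fermat.Agent.GTor.Clo.phi N (a * b) = _root_.Fermat.Agent.GTor.Clo.phi N a * _root_.Fermat.Agent.GTor.Clo.phi N b :=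
    fun a b => (_root_.Fermat.Agent.GTor.Clo.phi N).toRingHom.map_mul a b
  have hadd : ∀ a b : _root_.Fermat.Agent.GTor.Clo.FN N, _root_.Fermat.Agent.GTor.Clo.phi N (a + b) = _root_.Fermat.Agent.GTor.Clo.phi N a + _root_.Fermat.Agent.GTor.Clo.phi N b :=
    fun a b => (_root_.Fermat.Agent.GTor.Clo.phi N).toRingHom.map_add a b
  have hone : _root_.Fermat.Agent.GTor.Clo.phi N 1 = 1 := (_root_.Fermat.Agent.GTor.Clo.phi N).toRingHom.map_one
  have hzero : _root_.Fermat.Agent.GTor.Clo.phi N 0 = 0 := (_root_.Fermat.Agent.GTor.Clo.phi N).toRingHom.map_zero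
  have hinv : ∀ a : _root_.Fermat.Agent.GTor.Clo.FN N, _root_.Fermat.Agent.GTor.Clo.phi N a⁻¹ = (_root_.Fermat.Agent.GTor.Clo.phi N a)⁻¹ := fun a => map_inv₀ (_root_.Fermat.Agent.GTor.Clo.phi N).toRingHom a
  let M : IntermediateField _root_.Fermat.Agent.GTor.Clo.Kbar (_root_.Fermat.Agent.GTor.Clo.FN N) :=
    { carrier := {y | _root_.Fermat.Agent.GTor.Clo.piN N γ (_root_.Fermat.Agent.GTor.Clo.phi N y) = _root_.Fermat.Agent.GTor.Clo.phi N y}
      mul_mem' := fun {a b} ha hb => by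
        show _root_.Fermat.Agent.GTor.Clo.piN N γ (_root_.Fermat.Agent.GTor.Clo.phi N (a * b)) = _root_.Fermat.Agent.GTor.Clo.phi N (a * b)
        have ha' : _root_.Fermat.Agent.GTor.Clo.piN N γ (_root_.Fermat.Agent.GTor.Clo.phi N a) = _root_.Fermat.Agent.GTor.Clo.phi N a := ha
        have hb' : _root_.Fermat.Agent.GTor.Clo.piN N γ (_root_.Fermat.Agent.GTor.Clo.phi N b) = _root_.Fermat.Agent.GTor.Clo.phi N b := hb
        rw [hmul, map_mul, ha', hb']
      one_mem' := by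
        show _root_.Fermat.Agent.GTor.Clo.piN N γ (_root_.Fermat.Agent.GTor.Clo.phi N 1) = _root_.Fermat.Agent.GTor.Clo.phi N 1
        rw [hone, map_one]
      add_mem' := fun {a b} ha hb => by
        show _root_.Fermat.Agent.GTor.Clo.piN N γ (_root_.Fermat.Agent.GTor.Clo.phi N (a + b)) = _root_.Fermat.Agent.GTor.Clo.phi N (a + b)
        have ha' : _root_.Fermat.Agent.GTor.Clo.piN N γ (_root_.Fermat.Agent.GTor.Clo.phi N a) = _root_.Fermat.Agent.GTor.Clo.phi N a := ha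
        have hb' : _root_.Fermat.Agent.GTor.Clo.piN N γ (_root_.Fermat.Agent.GTor.Clo.phi N b) = _root_.Fermat.Agent.GTor.Clo.phi N b := hb
        rw [hadd, map_add, ha', hb']
      zero_mem' := by
        show _root_.Fermat.Agent.GTor.Clo.piN N γ (_root_.Fermat.Agent.GTor.Clo.phi N 0) = _root_.Fermat.Agent.GTor.Clo.phi N 0
        rw [hzero, map_zero]
      algebraMap_mem' := fun c => by
        show _root_.Fermat.Agent.GTor.Clo.piN N γ (_root_.Fermat.Agent.GTor.Clo.phi N (algebraMap _root_.Fermat.Agent.GTor.Clo.Kbar (_root_.Fermat.Agent.GTor.Clo.FN N) c)) = _root_.Fermat.Agent.GTor.Clo.phi N (algebraMap _root_.Fermat.Agent.GTor.Clo.Kbar (_root_.Fermat.Agent.GTor.Clo.FN N) c)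
        rw [(_root_.Fermat.Agent.GTor.Clo.phi N).commutes c, IsScalarTower.algebraMap_apply _root_.Fermat.Agent.GTor.Clo.Kbar _root_.Fermat.Agent.GTor.Clo.EN (_root_.Fermat.Agent.GTor.Clo.LN N)]
        exact (_root_.Fermat.Agent.GTor.Clo.piN N γ).commutes _
      inv_mem' := fun a ha => by
        show _root_.Fermat.Agent.GTor.Clo.piN N γ (_root_.Fermat.Agent.GTor.Clo.phi N a⁻¹) = _root_.Fermat.Agent.GTor.Clo.phi N a⁻¹
        have ha' : _root_.Fermat.Agent.GTor.Clo.piN N γ (_root_.Fermat.Agent.GTor.Clo.phi N a) = _root_.Fermat.Agent.GTor.Clo.phi N a := ha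
        rw [hinv, map_inv₀, ha'] }
  have hM : M = ⊤ := by
    rw [eq_top_iff, ← _root_.Fermat.Agent.GTor.Clo.adjoin_jdF N, IntermediateField.adjoin_le_iff]
    rintro _ ⟨d, hd0, hd, rfl⟩
    show _root_.Fermat.Agent.GTor.Clo.piN N γ (_root_.Fermat.Agent.GTor.Clo.phi N (_root_.Fermat.Agent.GTor.Clo.jdF N d hd)) = _root_.Fermat.Agent.GTor.Clo.phi N (_root_.Fermat.Agent.GTor.Clo.jdF N d hd)
    rw [_root_.Fermat.Agent.GTor.Clo.piN_phi_jdF, _root_.Fermat.Agent.GTor.Clo.smul_jdA_of_mem_Gamma0 N d (Nat.pos_of_ne_zero (NeZero.ne d)) hd γ hγ,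
      _root_.Fermat.Agent.GTor.Clo.phi_jdF]
  have : y ∈ M := by rw [hM]; exact IntermediateField.mem_top
  exact this

/-- The preimage of `Gal (LN N / F_N)` in `SL(2, ℤ)` is `Γ₀(N)`. -/
theorem piN_comap (N : ℕ) [NeZero N] :
    (IntermediateField.fixingSubgroup
      (IsScalarTower.toAlgHom _root_.Fermat.Agent.GTor.Clo.EN (_root_.Fermat.Agent.GTor.Clo.FN N) (_root_.Fermat.Agent.GTor.Clo.LN N)).fieldRange).comap (_root_.Fermat.Agent.GTor.Clo.piN N)
      = CongruenceSubgroup.Gamma0 N := by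
  ext γ
  rw [Subgroup.mem_comap, IntermediateField.mem_fixingSubgroup_iff]
  constructor
  · intro h
    apply _root_.Fermat.Agent.GTor.Clo.mem_Gamma0_of_smul_jdA
    have h1 := h (_root_.Fermat.Agent.GTor.Clo.phi N (_root_.Fermat.Agent.GTor.Clo.jdF N N dvd_rfl)) ⟨_root_.Fermat.Agent.GTor.Clo.jdF N N dvd_rfl, rfl⟩
    rw [_root_.Fermat.Agent.GTor.Clo.piN_phi_jdF, _root_.Fermat.Agent.GTor.Clo.phi_jdF] at h1
    have h2 := IsFractionRing.injective (_root_.Fermat.Agent.GTor.Clo.AT N) (_root_.Fermat.Agent.GTor.Clo.LN N) h1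
    exact (_root_.Fermat.Agent.GTor.Clo.toAT N).injective h2
  · rintro hγ _ ⟨y, rfl⟩
    exact _root_.Fermat.Agent.GTor.Clo.piN_phi_of_mem_Gamma0 N γ hγ y

end Fermat.Agent.GTor.Clo

end
end
-- ==== END Fermat.Agent.GTor.Clo.Phi

-- ==== BEGIN Fermat.Agent.GTor.H81_TateLimit
section

/-!
# G-TOR, T-X: the limit representation of a coordinatised Tate system  (helper81)

For `C : TateCoords N p S` and a `p`-adically complete local ring `𝒪` (`p ∈ 𝔪`):

* `TateCoords.mat k` : the ring homomorphism `End(J₀(N)[p^k]) → M_r(ℤ/p^k)` given by the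
  coordinates; `mat_gal`, `mat_hecke`.
* `Compat X Xk` : `X ∈ M_r(𝒪)` reduces to `Xk k ∈ M_r(ℤ/p^k)` for every `k`; closed under the ring
  operations; `Compat.eq_zero`.
* `TateLimit C 𝒪 hp` : the limit `ρL : G_ℚ → M_r(𝒪)` of the `ρ k`; it commutes with the Hecke
  matrices and is continuous.
* `compat_of_end` : a noncommutative polynomial identity between endomorphisms of `J₀(N)[p^k]`
  (all `k`) gives the identity between the limit matrices.
-/

set_option autoImplicit false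
set_option linter.unusedSectionVars false

noncomputable section

namespace Fermat.Agent.GTor.H81

open AlgebraicCurve ModularCurve Fermat.Agent.GTor Fermat.Agent.GTor.H58T1

/-! ## 1. Endomorphisms of `J₀(N)[p^k]` as matrices -/

namespace TateCoords

variable {N p : ℕ} [NeZero N] {S : Set ℕ} (C : TateCoords N p S) (k : ℕ)

/-- the coordinates as a linear equivalence. -/
def θLin : Jtor N (p ^ k) ≃ₗ[ZMod (p ^ k)] (Fin C.r → ZMod (p ^ k)) :=
  { C.θ k with
    map_smul' := fun c x => ZMod.map_smul (C.θ k).toAddMonoidHom c x }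

@[simp] theorem θLin_apply (x : Jtor N (p ^ k)) : C.θLin k x = C.θ k x := rfl

/-- an additive endomorphism of `J₀(N)[p^k]` as a linear map. -/
def endLin : AddMonoid.End (Jtor N (p ^ k)) →+* Module.End (ZMod (p ^ k)) (Jtor N (p ^ k)) where
  toFun f := AddMonoidHom.toZModLinearMap (p ^ k) f
  map_one' := rfl
  map_mul' _ _ := rfl
  map_zero' := rfl
  map_add' _ _ := rfl

/-- the matrix of an additive endomorphism of `J₀(N)[p^k]`. -/
def mat : AddMonoid.End (Jtor N (p ^ k)) →+* Matrix (Fin C.r) (Fin C.r) (ZMod (p ^ k)) :=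
  ((LinearMap.toMatrixAlgEquiv' : Module.End (ZMod (p ^ k)) (Fin C.r → ZMod (p ^ k)) ≃ₐ[ZMod (p ^ k)]
      Matrix (Fin C.r) (Fin C.r) (ZMod (p ^ k))).toRingEquiv.toRingHom.comp
    (C.θLin k).conjRingEquiv.toRingHom).comp (endLin k)

theorem mat_mulVec (f : AddMonoid.End (Jtor N (p ^ k))) (x : Jtor N (p ^ k)) :
    (C.mat k f).mulVec (C.θ k x) = C.θ k (f x) := by
  show (LinearMap.toMatrixAlgEquiv' ((C.θLin k).conjRingEquiv (endLin k f))).mulVec
    (C.θ k x) = _
  rw [← Matrix.toLinAlgEquiv'_apply, Matrix.toLinAlgEquiv'_toMatrixAlgEquiv']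
  have h : (C.θLin k).symm (C.θ k x) = x := (C.θLin k).symm_apply_apply x
  simp [LinearEquiv.conjRingEquiv, h, endLin]
  rfl

theorem mat_eq_of_forall {f : AddMonoid.End (Jtor N (p ^ k))}
    {A : Matrix (Fin C.r) (Fin C.r) (ZMod (p ^ k))}
    (h : ∀ x : Jtor N (p ^ k), C.θ k (f x) = A.mulVec (C.θ k x)) : C.mat k f = A :=
  C.matrix_ext fun x => by rw [mat_mulVec, h x]

/-- the Galois action on `J₀(N)[p^k]`. -/
def galEnd (σ : GQ) : AddMonoid.End (Jtor N (p ^ k)) :=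
  (JZero.torsionGaloisRep N (p ^ k) σ).toAddMonoidHom

@[simp] theorem coe_galEnd (σ : GQ) (x : Jtor N (p ^ k)) :
    ((galEnd (N := N) (p := p) k σ x : Jtor N (p ^ k)) : JZero N) = σ • (x : JZero N) := rfl

/-- the Hecke operator `T_ℓ` on `J₀(N)[p^k]`. -/
def heckeEnd (ℓ : Nat.Primes) : AddMonoid.End (Jtor N (p ^ k)) where
  toFun x := heckeTor (p ^ k) ℓ x
  map_zero' := Subtype.ext (map_zero _)
  map_add' _ _ := Subtype.ext (map_add _ _ _)

@[simp] theorem coe_heckeEnd (ℓ : Nat.Primes) (x : Jtor N (p ^ k)) :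
    ((heckeEnd (N := N) (p := p) k ℓ x : Jtor N (p ^ k)) : JZero N) =
      heckeOperatorBar N ℓ (x : JZero N) := rfl

theorem mat_gal (σ : GQ) : C.mat k (galEnd k σ) = C.ρ k σ :=
  C.mat_eq_of_forall k fun x => C.gal k σ x

theorem mat_hecke {ℓ : ℕ} (hℓ : ℓ.Prime) (hℓN : ¬ ℓ ∣ N) (hℓS : ℓ ∉ S) :
    C.mat k (heckeEnd k (⟨ℓ, hℓ⟩ : Nat.Primes)) =
      Mc (ZMod (p ^ k)) C.M (CuspForm.heckeAlgebra.T hℓ hℓN hℓS) :=
  C.mat_eq_of_forall k fun x => C.hecke k ℓ hℓ hℓN hℓS x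

/-- an endomorphism vanishing on all of `J₀(N)[p^k]` (as a statement about `J₀(N)`) has matrix
zero. -/
theorem mat_eq_zero {f : AddMonoid.End (Jtor N (p ^ k))}
    (h : ∀ x : Jtor N (p ^ k), ((f x : Jtor N (p ^ k)) : JZero N) = 0) : C.mat k f = 0 := by
  have hf : f = 0 := by
    refine AddMonoidHom.ext fun x => Subtype.ext ?_
    exact h x
  rw [hf, map_zero]

end TateCoords

/-! ## 2. Compatible families -/

section Compat

variable {𝒪 : Type} [CommRing 𝒪] [IsLocalRing 𝒪]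
  [IsAdicComplete (IsLocalRing.maximalIdeal 𝒪) 𝒪]
  {p : ℕ} [Fact p.Prime] (hp : (p : 𝒪) ∈ IsLocalRing.maximalIdeal 𝒪) {r : ℕ}

/-- `X ∈ M_r(𝒪)` reduces to `Xk k ∈ M_r(ℤ/p^k)` modulo `𝔪^k`, for every `k`. -/
def Compat (X : Matrix (Fin r) (Fin r) 𝒪) (Xk : ∀ k : ℕ, Matrix (Fin r) (Fin r) (ZMod (p ^ k))) :
    Prop :=
  ∀ k : ℕ, (piK (IsLocalRing.maximalIdeal 𝒪) k).mapMatrix X =
    (cK (IsLocalRing.maximalIdeal 𝒪) p hp k).mapMatrix (Xk k)

variable {hp}

theorem Compat.add {X Y : Matrix (Fin r) (Fin r) 𝒪}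
    {Xk Yk : ∀ k : ℕ, Matrix (Fin r) (Fin r) (ZMod (p ^ k))}
    (h : Compat hp X Xk) (h' : Compat hp Y Yk) : Compat hp (X + Y) (fun k => Xk k + Yk k) :=
  fun k => by rw [map_add, map_add, h k, h' k]

theorem Compat.sub {X Y : Matrix (Fin r) (Fin r) 𝒪}
    {Xk Yk : ∀ k : ℕ, Matrix (Fin r) (Fin r) (ZMod (p ^ k))}
    (h : Compat hp X Xk) (h' : Compat hp Y Yk) : Compat hp (X - Y) (fun k => Xk k - Yk k) :=
  fun k => by rw [map_sub, map_sub, h k, h' k]

theorem Compat.mul {X Y : Matrix (Fin r) (Fin r) 𝒪}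
    {Xk Yk : ∀ k : ℕ, Matrix (Fin r) (Fin r) (ZMod (p ^ k))}
    (h : Compat hp X Xk) (h' : Compat hp Y Yk) : Compat hp (X * Y) (fun k => Xk k * Yk k) :=
  fun k => by rw [map_mul, map_mul, h k, h' k]

theorem Compat.pow {X : Matrix (Fin r) (Fin r) 𝒪}
    {Xk : ∀ k : ℕ, Matrix (Fin r) (Fin r) (ZMod (p ^ k))}
    (h : Compat hp X Xk) (n : ℕ) : Compat hp (X ^ n) (fun k => Xk k ^ n) :=
  fun k => by rw [map_pow, map_pow, h k]

theorem compat_one : Compat hp (1 : Matrix (Fin r) (Fin r) 𝒪) (fun _ => 1) :=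
  fun k => by rw [map_one, map_one]

theorem compat_zero : Compat hp (0 : Matrix (Fin r) (Fin r) 𝒪) (fun _ => 0) :=
  fun k => by rw [map_zero, map_zero]

theorem compat_natCast (n : ℕ) :
    Compat hp ((n : Matrix (Fin r) (Fin r) 𝒪)) (fun _ => (n : Matrix (Fin r) (Fin r) _)) :=
  fun k => by rw [map_natCast, map_natCast]

theorem compat_intCast (n : ℤ) :
    Compat hp ((n : Matrix (Fin r) (Fin r) 𝒪)) (fun _ => (n : Matrix (Fin r) (Fin r) _)) :=
  fun k => by rw [map_intCast, map_intCast]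

theorem compat_Mc {R : Type} [CommRing R] (M : R →+* Matrix (Fin r) (Fin r) ℤ) (t : R) :
    Compat hp (Mc 𝒪 M t) (fun k => Mc (ZMod (p ^ k)) M t) :=
  fun k => piK_Mc_eq (IsLocalRing.maximalIdeal 𝒪) p hp k (M t)

/-- a matrix over `𝒪` all of whose reductions vanish is zero. -/
theorem Compat.eq_zero {X : Matrix (Fin r) (Fin r) 𝒪}
    {Xk : ∀ k : ℕ, Matrix (Fin r) (Fin r) (ZMod (p ^ k))}
    (h : Compat hp X Xk) (h0 : ∀ k, Xk k = 0) : X = 0 := by
  apply matrix_eq_of_forall_piK (IsLocalRing.maximalIdeal 𝒪)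
  intro k
  rw [h k, h0 k, map_zero, map_zero]

theorem Compat.eq {X Y : Matrix (Fin r) (Fin r) 𝒪}
    {Xk Yk : ∀ k : ℕ, Matrix (Fin r) (Fin r) (ZMod (p ^ k))}
    (h : Compat hp X Xk) (h' : Compat hp Y Yk) (h0 : ∀ k, Xk k = Yk k) : X = Y := by
  apply matrix_eq_of_forall_piK (IsLocalRing.maximalIdeal 𝒪)
  intro k
  rw [h k, h' k, h0 k]

end Compat

/-! ## 3. The limit representation -/

section Limit

variable {N p : ℕ} [NeZero N] [Fact p.Prime] {S : Set ℕ} (C : TateCoords N p S)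
variable (𝒪 : Type) [CommRing 𝒪] [IsLocalRing 𝒪]
  [IsAdicComplete (IsLocalRing.maximalIdeal 𝒪) 𝒪]
  (hp : (p : 𝒪) ∈ IsLocalRing.maximalIdeal 𝒪)

/-- The limit of the Galois matrices of a coordinatised Tate system. -/
structure TateLimit where
  /-- the limit representation. -/
  ρL : GQ →* Matrix (Fin C.r) (Fin C.r) 𝒪
  spec : ∀ σ, Compat hp (ρL σ) (fun k => C.ρ k σ)

theorem exists_tateLimit : Nonempty (TateLimit C 𝒪 hp) := by
  obtain ⟨ρL, hρL⟩ := exists_limit_rep (IsLocalRing.maximalIdeal 𝒪) p hp C.ρ C.tate.compat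
  exact ⟨⟨ρL, fun σ k => hρL k σ⟩⟩

variable {C 𝒪 hp} (L : TateLimit C 𝒪 hp)

namespace TateLimit

theorem comm (σ : GQ) (t : CuspForm.heckeAlgebra N 2 S) :
    L.ρL σ * Mc 𝒪 C.M t = Mc 𝒪 C.M t * L.ρL σ :=
  ((L.spec σ).mul (compat_Mc C.M t)).eq ((compat_Mc C.M t).mul (L.spec σ))
    (fun k => C.tate.comm k σ t)

theorem cont (n : ℕ) : ∃ K : IntermediateField ℚ (AlgebraicClosure ℚ), FiniteDimensional ℚ K ∧
    ∀ σ : GQ, (∀ x ∈ K, σ x = x) → ∀ a b, (L.ρL σ - 1) a b ∈ IsLocalRing.maximalIdeal 𝒪 ^ n := by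
  obtain ⟨K, hK, hKσ⟩ := C.tate.cont n
  refine ⟨K, hK, fun σ hσ a b => ?_⟩
  have h1 : C.ρ n σ = 1 := hKσ σ hσ
  have h2 : (piK (IsLocalRing.maximalIdeal 𝒪) n).mapMatrix (L.ρL σ) =
      (cK (IsLocalRing.maximalIdeal 𝒪) p hp n).mapMatrix (C.ρ n σ) := L.spec σ n
  rw [h1, map_one] at h2
  have h3 : (piK (IsLocalRing.maximalIdeal 𝒪) n).mapMatrix (L.ρL σ - 1) = 0 := by
    rw [map_sub, h2, map_one, sub_self]
  have h4 := congrFun (congrFun h3 a) b
  simp only [RingHom.mapMatrix_apply, Matrix.map_apply, Matrix.zero_apply] at h4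
  exact Ideal.Quotient.eq_zero_iff_mem.mp h4

/-- continuity of the representation on a piece. -/
theorem cont_piece [IsDomain 𝒪] (Pc : SubPiece L.ρL) : S30.MatAdicCont Pc.rep := by
  intro n
  obtain ⟨K, hK, hKσ⟩ := L.cont n
  refine ⟨K, hK, fun σ hσ i j => ?_⟩
  have hent := hKσ σ hσ
  have e : (Pc.Q * L.ρL σ * Pc.P - 1 : Matrix (Fin Pc.d) (Fin Pc.d) 𝒪) =
      Pc.Q * (L.ρL σ - 1) * Pc.P := by
    rw [Matrix.mul_sub, Matrix.sub_mul, Matrix.mul_one, Pc.QP]
  show ((Pc.Q * L.ρL σ * Pc.P - 1 : Matrix (Fin Pc.d) (Fin Pc.d) 𝒪) i j) ∈ _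
  rw [e]
  simp only [Matrix.mul_apply]
  refine Ideal.sum_mem _ fun b _ => Ideal.mul_mem_right _ _ ?_
  exact Ideal.sum_mem _ fun a _ => Ideal.mul_mem_left _ _ (hent a b)

end TateLimit

end Limit

end Fermat.Agent.GTor.H81

end
end
-- ==== END Fermat.Agent.GTor.H81_TateLimit

-- ==== BEGIN Fermat.Agent.Lib.HeckeComm.H44_GenJ
section

/-!
# COMM, package G (helper44): `F_M = F_X (j (q ^ M))` for `X ∣ M`

Galois correspondence in the S24 closure `LN M / EN`: an automorphism `piN M γ` fixing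
`phi M (jdF M M _)` has `γ ∈ Γ₀(M)`, hence fixes `F_M`; so `F_M = EN (j_M) = Q̄(j, j_M)`.

* `adjoin_EN_jdF M : IntermediateField.adjoin EN {jdF M M _} = ⊤` (over `EN = Q̄(j)`);
* `adjoin_jF_jdF M : IntermediateField.adjoin Q̄ {jF M, jdF M M _} = ⊤`;
* `stmt_GenJ X M h : Stmt_GenJ X M h`.
-/

set_option autoImplicit false
set_option linter.style.haveILetI false
set_option linter.unusedSectionVars false

noncomputable section

namespace Fermat.Agent.Lib.HeckeComm.H44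

open AlgebraicCurve ModularCurve Fermat.Agent.S24 Fermat.Agent.Lib.HeckeComm

local notation "Kb" => AlgebraicClosure ℚ

variable (M : ℕ) [NeZero M]

/-- An automorphism of the closure fixing `j_M` fixes `F_M`. -/
theorem fixingSubgroup_adjoin_le :
    (IntermediateField.adjoin EN {phi M (jdF M M dvd_rfl)} :
        IntermediateField EN (LN M)).fixingSubgroup
      ≤ (IsScalarTower.toAlgHom EN (FN M) (LN M)).fieldRange.fixingSubgroup := by
  intro σ hσ
  obtain ⟨γ, rfl⟩ := piN_surjective M σ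
  rw [IntermediateField.mem_fixingSubgroup_iff] at hσ ⊢
  have h1 := hσ (phi M (jdF M M dvd_rfl))
    (IntermediateField.subset_adjoin _ _ (Set.mem_singleton _))
  rw [piN_phi_jdF, phi_jdF] at h1
  have h2 := IsFractionRing.injective (AT M) (LN M) h1
  have h3 := (toAT M).injective h2
  have hγ := mem_Gamma0_of_smul_jdA M γ h3
  rintro _ ⟨y, rfl⟩
  exact piN_phi_of_mem_Gamma0 M γ hγ y

/-- The image of `F_M` in the closure is `EN (j_M)`. -/
theorem fieldRange_eq_adjoin :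
    (IsScalarTower.toAlgHom EN (FN M) (LN M)).fieldRange
      = IntermediateField.adjoin EN {phi M (jdF M M dvd_rfl)} := by
  apply le_antisymm
  · rw [← IsGalois.fixedField_fixingSubgroup
      (IntermediateField.adjoin EN {phi M (jdF M M dvd_rfl)} : IntermediateField EN (LN M)),
      IntermediateField.le_iff_le]
    exact fixingSubgroup_adjoin_le M
  · rw [IntermediateField.adjoin_le_iff]
    rintro _ rfl
    exact ⟨jdF M M dvd_rfl, rfl⟩

/-- `F_M` is generated by `j_M` over `EN = Q̄(j)`. -/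
theorem adjoin_EN_jdF :
    (IntermediateField.adjoin EN {jdF M M dvd_rfl} : IntermediateField EN (FN M)) = ⊤ := by
  apply IntermediateField.map_injective (IsScalarTower.toAlgHom EN (FN M) (LN M))
  rw [IntermediateField.adjoin_map, Set.image_singleton, ← AlgHom.fieldRange_eq_map,
    fieldRange_eq_adjoin]
  rfl

/-- An intermediate field of `F_M / Q̄` containing `j` contains the image of `EN = Q̄(j)`. -/
theorem algebraMap_EN_mem (A : IntermediateField Kb (FN M)) (hj : jF M ∈ A) (y : EN) :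
    algebraMap EN (FN M) y ∈ A := by
  have hp : ∀ p : Polynomial Kb, algebraMap EN (FN M) (Polynomial.aeval tE p) ∈ A := by
    intro p
    rw [← Polynomial.aeval_algebraMap_apply, tE_map_FN]
    have := Subalgebra.aeval_coe A.toSubalgebra (⟨jF M, hj⟩ : A.toSubalgebra) p
    have h2 : Polynomial.aeval (jF M) p
        = ((Polynomial.aeval (⟨jF M, hj⟩ : A.toSubalgebra) p : A.toSubalgebra) : FN M) := this
    rw [h2]
    exact (Polynomial.aeval (⟨jF M, hj⟩ : A.toSubalgebra) p).2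
  obtain ⟨p, q, -, rfl⟩ := tE_gen y
  rw [map_div₀]
  exact div_mem (hp p) (hp q)

/-- `F_M = Q̄(j, j_M)`. -/
theorem adjoin_jF_jdF :
    (IntermediateField.adjoin Kb {jF M, jdF M M dvd_rfl} : IntermediateField Kb (FN M)) = ⊤ := by
  have hj : jF M ∈ (IntermediateField.adjoin Kb {jF M, jdF M M dvd_rfl} :
      IntermediateField Kb (FN M)) :=
    IntermediateField.subset_adjoin _ _ (Set.mem_insert _ _)
  have hjM : jdF M M dvd_rfl ∈ (IntermediateField.adjoin Kb {jF M, jdF M M dvd_rfl} :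
      IntermediateField Kb (FN M)) :=
    IntermediateField.subset_adjoin _ _ (Set.mem_insert_of_mem _ (Set.mem_singleton _))
  let B : IntermediateField EN (FN M) :=
    { (IntermediateField.adjoin Kb {jF M, jdF M M dvd_rfl} :
        IntermediateField Kb (FN M)).toSubfield with
      algebraMap_mem' := fun y => algebraMap_EN_mem M _ hj y }
  have hB : B = ⊤ := by
    rw [eq_top_iff, ← adjoin_EN_jdF M, IntermediateField.adjoin_le_iff]
    rintro _ rfl
    exact hjM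
  rw [eq_top_iff]
  intro x _
  have hx : x ∈ B := by rw [hB]; exact IntermediateField.mem_top
  exact hx

end Fermat.Agent.Lib.HeckeComm.H44

namespace Fermat.Agent.Lib.HeckeComm

open AlgebraicCurve ModularCurve Fermat.Agent.S24

local notation "Kb" => AlgebraicClosure ℚ

/-- **Package G**: `F_M` is generated over `F_X` by `j (q ^ M)`, for `X ∣ M`. -/
theorem stmt_GenJ (X M : ℕ) [NeZero X] [NeZero M] (h : X ∣ M) : Stmt_GenJ X M h := by
  letI := (inclFN X M h).toRingHom.toAlgebra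
  show (IntermediateField.adjoin (FN X) {jdF M M dvd_rfl} : IntermediateField (FN X) (FN M)) = ⊤
  let D : IntermediateField Kb (FN M) :=
    { (IntermediateField.adjoin (FN X) {jdF M M dvd_rfl} :
        IntermediateField (FN X) (FN M)).toSubfield with
      algebraMap_mem' := fun c => by
        have hc : algebraMap Kb (FN M) c = algebraMap (FN X) (FN M) (algebraMap Kb (FN X) c) :=
          ((inclFN X M h).commutes c).symm
        rw [hc]
        exact (IntermediateField.adjoin (FN X) {jdF M M dvd_rfl} :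
          IntermediateField (FN X) (FN M)).algebraMap_mem _ }
  have hD : (IntermediateField.adjoin Kb {jF M, jdF M M dvd_rfl} :
      IntermediateField Kb (FN M)) ≤ D := by
    rw [IntermediateField.adjoin_le_iff]
    rintro y (rfl | rfl)
    · have hj : jF M = algebraMap (FN X) (FN M) (jF X) := (inclFN_jF X M h).symm
      rw [hj]
      exact (IntermediateField.adjoin (FN X) {jdF M M dvd_rfl} :
        IntermediateField (FN X) (FN M)).algebraMap_mem _
    · exact IntermediateField.subset_adjoin (FN X) _ (Set.mem_singleton _)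
  rw [eq_top_iff]
  intro x _
  have hx : x ∈ (IntermediateField.adjoin Kb {jF M, jdF M M dvd_rfl} :
      IntermediateField Kb (FN M)) := by
    rw [H44.adjoin_jF_jdF]
    exact IntermediateField.mem_top
  exact hD hx

end Fermat.Agent.Lib.HeckeComm

end
end
-- ==== END Fermat.Agent.Lib.HeckeComm.H44_GenJ

-- ==== BEGIN Fermat.Agent.R.H33_Chain
section

/-!
# Cluster R: the chain from the Tate piece to the statements S29, S30, S31, S42 (helper33)

Everything in cluster R that depends only on `S30.Stmt_TatePiece` (the single geometric input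
from cluster G), composed: as soon as `Stmt_TatePiece` is proved, the four final files are
one-liners.  This file checks that all the wirings are co-importable and fit together.
-/

set_option autoImplicit false

namespace Fermat.Agent.R.H33

open Fermat.Agent

/-- S30 from the Tate piece (Frobenius density is proved). -/
theorem s30_of_tatePiece (h : S30.Stmt_TatePiece) : R.Stmt_S30 :=
  S30.H29.stmt_S30_of h Lib.FrobDensity.stmt_FD

/-- S29 from the Tate piece. -/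
theorem s29_of_tatePiece (h : S30.Stmt_TatePiece) : S29.H33.Stmt_S29 :=
  S29.H33.stmt_S29_of_S30 (s30_of_tatePiece h)

/-- S42 from the Tate piece. -/
theorem s42_of_tatePiece (h : S30.Stmt_TatePiece) (P : FreyPackage) (M : ℕ) (hM : 0 < M) :
    P.EigenformResidualAttachmentAt M :=
  S42.H33.result_of_S30 (s30_of_tatePiece h) P M hM

end Fermat.Agent.R.H33

end
-- ==== END Fermat.Agent.R.H33_Chain
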