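-- GENERATED (merged mirror, NOTES/tools/trim/merge3_helper67.py): 6 modules of the originals, bodies verbatim.
import Fermat.Agent.Zm.S35_L08_000
import Fermat.Agent.Zm.S35_L09_002
import Fermat.Agent.Zm.S35_L09_003
import Fermat.Agent.Zm.S35_L05_005
import Fermat.Agent.Zm.S35_L08_004
import Fermat.Agent.Zm.S35_L09_001
import Fermat.Agent.Zm.S35_L02_001
import Fermat.Agent.RED.ES.H95_NormEmb
import Fermat.Agent.Zm.S35_L02_003
import Fermat.Agent.Zm.S35_L08_001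

-- ==== BEGIN Fermat.Agent.BAD.H28_Key
section

/-!
# Item 65, package ABS (helper28), part P5: the nodal key lemma `Stmt_KeyNodal`

Two-valuation version of helper17's `RedSetup.key`.
-/

set_option autoImplicit false
set_option linter.style.haveILetI false
set_option maxHeartbeats 1000000

noncomputable section

open AlgebraicCurve

attribute [local instance] Classical.propDecidable

namespace Fermat.Agent.BAD

open Fermat.Agent.RED.H17 Fermat.Agent.RED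

local notation "L" => riemannRochSpace

namespace H28

section Pole

variable {k F' : Type*} [Field k] [Field F'] [Algebra k F']

/-- `x` has at most a simple pole at `v`. -/
def PoleLe (v : Place k F') (x : F') : Prop := x = 0 ∨ -1 ≤ v.ord x

theorem PoleLe.add {v : Place k F'} {x y : F'} (hx : PoleLe v x) (hy : PoleLe v y) :
    PoleLe v (x + y) := le_ord_add v hx hy

theorem PoleLe.neg {v : Place k F'} {x : F'} (hx : PoleLe v x) : PoleLe v (-x) := by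
  rcases hx with rfl | h
  · left; simp
  · right
    have : -x = (-1 : F') * x := by ring
    by_cases hx0 : x = 0
    · subst hx0; simp
    rw [this, v.ord_mul (by norm_num) hx0]
    have h1 : v.ord (-1 : F') = 0 := by
      have h2 : v.ord ((-1 : F') * (-1)) = v.ord (-1 : F') + v.ord (-1 : F') :=
        v.ord_mul (by norm_num) (by norm_num)
      rw [show ((-1 : F') * (-1)) = 1 by ring, Place.ord_one] at h2
      omega
    omega

theorem PoleLe.sub {v : Place k F'} {x y : F'} (hx : PoleLe v x) (hy : PoleLe v y) :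
    PoleLe v (x - y) := by
  rw [sub_eq_add_neg]
  exact hx.add hy.neg

theorem PoleLe.of_regAt {v : Place k F'} {x : F'} (hx : RegAt v x) : PoleLe v x := by
  rcases (regAt_iff_ord v x).mp hx with h | h
  · exact Or.inl h
  · exact Or.inr (by omega)

theorem PoleLe.sum {ι : Type*} {v : Place k F'} (s : Finset ι) (f : ι → F')
    (hf : ∀ i ∈ s, PoleLe v (f i)) : PoleLe v (∑ i ∈ s, f i) := by
  induction s using Finset.induction_on with
  | empty => left; simp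
  | insert i s hi ih =>
    rw [Finset.sum_insert hi]
    exact (hf i (Finset.mem_insert_self i s)).add
      (ih fun j hj => hf j (Finset.mem_insert_of_mem hj))

theorem PoleLe.regAt_mul {v : Place k F'} {x y : F'} (hx : RegAt v x) (hy : PoleLe v y) :
    PoleLe v (x * y) := by
  rcases hy with rfl | hy
  · left; simp
  by_cases hx0 : x = 0
  · left; rw [hx0, zero_mul]
  by_cases hy0 : y = 0
  · left; rw [hy0, mul_zero]
  right
  rw [v.ord_mul hx0 hy0]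
  have := hx.ord_nonneg
  omega

/-- `b / t` has at most a simple pole if `ord t ≤ 1`. -/
theorem poleLe_const_div {v : Place k F'} (b : k) {t : F'} (ht : t ≠ 0) (hord : v.ord t ≤ 1) :
    PoleLe v (algebraMap k F' b / t) := by
  by_cases hb : b = 0
  · left; rw [hb, map_zero, zero_div]
  right
  have hbF : algebraMap k F' b ≠ 0 := (map_ne_zero_iff _ (algebraMap k F').injective).mpr hb
  rw [ord_div v hbF ht, ord_algebraMap]
  omega

/-- `b / t` is regular if `ord t = 0`. -/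
theorem regAt_const_div {v : Place k F'} (b : k) {t : F'} (hord : v.ord t = 0) :
    RegAt v (algebraMap k F' b / t) := by
  rw [div_eq_mul_inv]
  exact (regAt_algebraMap v b).mul (regAt_inv_of_ord_eq_zero hord)

/-- The pole estimate for `α - m ∑ b_i / t_i`. -/
theorem poleLe_formula {ι : Type*} (v : Place k F') (A : Finset ι) (t : ι → F')
    (ht : ∀ i ∈ A, t i ≠ 0) (hord : ∀ i ∈ A, v.ord (t i) ≤ 1) (b : ι → k) (m : ℕ) {αb : F'}
    (hα : RegAt v αb) :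
    PoleLe v (αb - (m : F') * ∑ i ∈ A, algebraMap k F' (b i) / t i) := by
  refine (PoleLe.of_regAt hα).sub (PoleLe.regAt_mul ?_ (PoleLe.sum A _ fun i hi =>
    poleLe_const_div (b i) (ht i hi) (hord i hi)))
  have : (m : F') = algebraMap k F' (m : k) := by simp
  rw [this]
  exact regAt_algebraMap v _

/-- The residue argument: if `α - m ∑ b_i / t_i = 0` with `α` regular at `v`, `t_{i₀}` a
uniformiser at `v` and the other `t_i` units at `v`, `m ≠ 0` in `k`, then `b_{i₀} = 0`. -/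
theorem residue_zero {ι : Type*} (v : Place k F') (A : Finset ι) (t : ι → F')
    {i₀ : ι} (hi₀ : i₀ ∈ A) (h1 : v.ord (t i₀) = 1)
    (h0 : ∀ i ∈ A, i ≠ i₀ → v.ord (t i) = 0) (ht₀ : t i₀ ≠ 0) (b : ι → k) (m : ℕ)
    (hm : (m : k) ≠ 0) {αb : F'} (hα : RegAt v αb)
    (h : αb - (m : F') * ∑ i ∈ A, algebraMap k F' (b i) / t i = 0) : b i₀ = 0 := by
  by_contra hb
  have hmF : (m : F') = algebraMap k F' (m : k) := by simp
  have hsplit : ∑ i ∈ A, algebraMap k F' (b i) / t i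
      = algebraMap k F' (b i₀) / t i₀ + ∑ i ∈ A.erase i₀, algebraMap k F' (b i) / t i := by
    exact (Finset.add_sum_erase A (fun i => algebraMap k F' (b i) / t i) hi₀).symm
  have hreg : RegAt v ((m : F') * ∑ i ∈ A.erase i₀, algebraMap k F' (b i) / t i) := by
    rw [hmF]
    refine (regAt_algebraMap v _).mul (RegAt.sum _ _ fun i hi => ?_)
    exact regAt_const_div (b i) (h0 i (Finset.mem_of_mem_erase hi) (Finset.ne_of_mem_erase hi))
  have heq : (m : F') * (algebraMap k F' (b i₀) / t i₀)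
      = αb - (m : F') * ∑ i ∈ A.erase i₀, algebraMap k F' (b i) / t i := by
    rw [hsplit] at h
    linear_combination -h
  have hreg2 : RegAt v ((m : F') * (algebraMap k F' (b i₀) / t i₀)) := by
    rw [heq]; exact hα.sub hreg
  have hne : (m : F') * (algebraMap k F' (b i₀) / t i₀) ≠ 0 := by
    rw [hmF]
    refine mul_ne_zero ((map_ne_zero_iff _ (algebraMap k F').injective).mpr hm)
      (div_ne_zero ((map_ne_zero_iff _ (algebraMap k F').injective).mpr hb) ht₀)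
  have hord : v.ord ((m : F') * (algebraMap k F' (b i₀) / t i₀)) = -1 := by
    have hmb : algebraMap k F' ((m : k) * b i₀) ≠ 0 :=
      (map_ne_zero_iff _ (algebraMap k F').injective).mpr (mul_ne_zero hm hb)
    have e : (m : F') * (algebraMap k F' (b i₀) / t i₀)
        = algebraMap k F' ((m : k) * b i₀) / t i₀ := by
      rw [hmF, map_mul, mul_div_assoc]
    rw [e, ord_div v hmb ht₀, ord_algebraMap, h1]
    rfl
  have := hreg2.ord_nonneg
  omega

end Pole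

section Main

variable {K F k F₁ F₂ : Type} [Field K] [Field F] [Algebra K F] [Field k] [Field F₁]
  [Algebra k F₁] [Field F₂] [Algebra k F₂]

/-- **The nodal key lemma.** -/
theorem keyNodal [Infinite k] (S : SSD K F k F₁ F₂) (H : FFHyp K F)
    (A₁ : Finset (Place k F₁)) (A₂ : Finset (Place k F₂))
    (hA₁ : Disjoint A₁ S.br₁) (hA₂ : Disjoint A₂ S.br₂) (hNS : S.IsNS A₁ A₂)
    (s₁ : Place k F₁ → F) (s₂ : Place k F₂ → F)
    (hs₁ : ∀ Q ∈ A₁, S.IsCoordA₁ A₁ A₂ (s₁ Q) Q) (hs₂ : ∀ Q ∈ A₂, S.IsCoordA₂ A₁ A₂ (s₂ Q) Q)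
    (n : ℕ) (hn : (n : k) ≠ 0)
    (f : F) (hf₁ : f ∈ S.c₁.V) (hf₂ : f ∈ S.c₂.V) (hrd₁ : S.c₁.rd f = 1) (hrd₂ : S.c₂.rd f = 1)
    (Pinf : Place K F) (Qinf : Place k F₁) (hQinfg : Qinf ∈ S.c₁.good) (hQinfA : Qinf ∉ A₁)
    (hPinf : S.c₁.r Pinf = some Qinf) (hfinf : VanAt Pinf (f - 1))
    (a₁ : Place k F₁ → K) (a₂ : Place k F₂ → K)
    (ha₁ : ∀ Q ∈ A₁, algebraMap K F (a₁ Q) ∈ S.c₁.V ∧ S.c₁.rd (algebraMap K F (a₁ Q)) = 0)
    (ha₂ : ∀ Q ∈ A₂, algebraMap K F (a₂ Q) ∈ S.c₂.V ∧ S.c₂.rd (algebraMap K F (a₂ Q)) = 0)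
    (hord0 : ∀ P, (∀ Q ∈ A₁, S.c₁.r P ≠ some Q) → (∀ Q ∈ A₂, S.c₂.r P ≠ some Q) →
      0 ≤ P.ord f)
    (hord₁ : ∀ Q ∈ A₁, ∀ P, S.c₁.r P = some Q →
      P.ord f = n * (P.ord (s₁ Q - algebraMap K F (a₁ Q)) - P.ord (s₁ Q)))
    (hord₂ : ∀ Q ∈ A₂, ∀ P, S.c₂.r P = some Q →
      P.ord f = n * (P.ord (s₂ Q - algebraMap K F (a₂ Q)) - P.ord (s₂ Q))) :
    f = 1 := by
  have hP := H.principal
  have hfGU₁ : S.c₁.IsGU f := ⟨hf₁, by rw [hrd₁]; exact one_ne_zero⟩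
  have hfGU₂ : S.c₂.IsGU f := ⟨hf₂, by rw [hrd₂]; exact one_ne_zero⟩
  have hgood₁ : ∀ Q ∈ A₁, Q ∈ S.c₁.good := fun Q hQ =>
    S.good₁_of_notMem (Finset.disjoint_left.mp hA₁ hQ)
  have hgood₂ : ∀ Q ∈ A₂, Q ∈ S.c₂.good := fun Q hQ =>
    S.good₂_of_notMem (Finset.disjoint_left.mp hA₂ hQ)
  -- the index set
  set A : Finset (Place k F₁ ⊕ Place k F₂) := A₁.disjSum A₂ with hAdef
  set s : Place k F₁ ⊕ Place k F₂ → F := Sum.elim s₁ s₂ with hsdef
  set a : Place k F₁ ⊕ Place k F₂ → K := Sum.elim a₁ a₂ with hadef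
  have hmemA : ∀ i, i ∈ A ↔ (∃ Q ∈ A₁, i = Sum.inl Q) ∨ ∃ Q ∈ A₂, i = Sum.inr Q := by
    intro i
    rw [hAdef, Finset.mem_disjSum]
    constructor
    · rintro (⟨Q, hQ, rfl⟩ | ⟨Q, hQ, rfl⟩)
      · exact Or.inl ⟨Q, hQ, rfl⟩
      · exact Or.inr ⟨Q, hQ, rfl⟩
    · rintro (⟨Q, hQ, rfl⟩ | ⟨Q, hQ, rfl⟩)
      · exact Or.inl ⟨Q, hQ, rfl⟩
      · exact Or.inr ⟨Q, hQ, rfl⟩
  have hinl : ∀ Q ∈ A₁, Sum.inl Q ∈ A := fun Q hQ => (hmemA _).mpr (Or.inl ⟨Q, hQ, rfl⟩)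
  have hinr : ∀ Q ∈ A₂, Sum.inr Q ∈ A := fun Q hQ => (hmemA _).mpr (Or.inr ⟨Q, hQ, rfl⟩)
  have hsGU₁ : ∀ i ∈ A, S.c₁.IsGU (s i) := by
    intro i hi
    rcases (hmemA i).mp hi with ⟨Q, hQ, rfl⟩ | ⟨Q, hQ, rfl⟩
    · exact (hs₁ Q hQ).1.isGU
    · exact (hs₂ Q hQ).2.1
  have hsGU₂ : ∀ i ∈ A, S.c₂.IsGU (s i) := by
    intro i hi
    rcases (hmemA i).mp hi with ⟨Q, hQ, rfl⟩ | ⟨Q, hQ, rfl⟩
    · exact (hs₁ Q hQ).2.1
    · exact (hs₂ Q hQ).1.isGU
  have haM₁ : ∀ i ∈ A, algebraMap K F (a i) ∈ S.c₁.V ∧ S.c₁.rd (algebraMap K F (a i)) = 0 := by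
    intro i hi
    rcases (hmemA i).mp hi with ⟨Q, hQ, rfl⟩ | ⟨Q, hQ, rfl⟩
    · exact ha₁ Q hQ
    · exact S.rd₁_const_zero (ha₂ Q hQ).1 (ha₂ Q hQ).2
  have haM₂ : ∀ i ∈ A, algebraMap K F (a i) ∈ S.c₂.V ∧ S.c₂.rd (algebraMap K F (a i)) = 0 := by
    intro i hi
    rcases (hmemA i).mp hi with ⟨Q, hQ, rfl⟩ | ⟨Q, hQ, rfl⟩
    · exact S.rd₂_const_zero (ha₁ Q hQ).1 (ha₁ Q hQ).2
    · exact ha₂ Q hQ
  -- regularity and units of the coordinates on the discs
  have hsreg₁ : ∀ i ∈ A, ∀ Q ∈ A₁, ∀ P, S.c₁.r P = some Q → 0 ≤ P.ord (s i) := by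
    intro i hi Q hQ P hPQ
    rcases (hmemA i).mp hi with ⟨Q', hQ', rfl⟩ | ⟨Q', hQ', rfl⟩
    · exact (hs₁ Q' hQ').2.2.2.2.1 P Q hQ hPQ
    · exact (hs₂ Q' hQ').2.2.2.2.1 P Q hQ hPQ
  have hsreg₂ : ∀ i ∈ A, ∀ Q ∈ A₂, ∀ P, S.c₂.r P = some Q → 0 ≤ P.ord (s i) := by
    intro i hi Q hQ P hPQ
    rcases (hmemA i).mp hi with ⟨Q', hQ', rfl⟩ | ⟨Q', hQ', rfl⟩
    · exact (hs₁ Q' hQ').2.2.2.2.2.1 P Q hQ hPQ
    · exact (hs₂ Q' hQ').2.2.2.2.2.1 P Q hQ hPQ
  have hs0₁ : ∀ i ∈ A, ∀ Q ∈ A₁, i ≠ Sum.inl Q → Q.ord (S.c₁.rd (s i)) = 0 := by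
    intro i hi Q hQ hne
    rcases (hmemA i).mp hi with ⟨Q', hQ', rfl⟩ | ⟨Q', hQ', rfl⟩
    · exact (hs₁ Q' hQ').2.2.1 Q hQ (fun h => hne (by rw [h]))
    · exact (hs₂ Q' hQ').2.2.2.1 Q hQ
  have hs0₂ : ∀ i ∈ A, ∀ Q ∈ A₂, i ≠ Sum.inr Q → Q.ord (S.c₂.rd (s i)) = 0 := by
    intro i hi Q hQ hne
    rcases (hmemA i).mp hi with ⟨Q', hQ', rfl⟩ | ⟨Q', hQ', rfl⟩
    · exact (hs₁ Q' hQ').2.2.2.1 Q hQ
    · exact (hs₂ Q' hQ').2.2.1 Q hQ (fun h => hne (by rw [h]))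
  -- the product
  set Hp : F := ∏ i ∈ A, (s i - algebraMap K F (a i)) / s i with hHp
  obtain ⟨hHGU₁, hHrd₁⟩ := S.c₁.isGU_prod_h A s a hsGU₁ haM₁
  obtain ⟨hHGU₂, hHrd₂⟩ := S.c₂.isGU_prod_h A s a hsGU₂ haM₂
  set f₂ : F := f / Hp ^ n with hf₂def
  have hf₂GU₁ : S.c₁.IsGU f₂ := hfGU₁.div (hHGU₁.pow n)
  have hf₂GU₂ : S.c₂.IsGU f₂ := hfGU₂.div (hHGU₂.pow n)
  have hf₂rd₁ : S.c₁.rd f₂ = 1 := by
    rw [hfGU₁.rd_div (hHGU₁.pow n), hrd₁, S.c₁.rd_pow hHGU₁.1, hHrd₁, one_pow, div_one]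
  have hf₂rd₂ : S.c₂.rd f₂ = 1 := by
    rw [hfGU₂.rd_div (hHGU₂.pow n), hrd₂, S.c₂.rd_pow hHGU₂.1, hHrd₂, one_pow, div_one]
  have hff₂ : f = f₂ * Hp ^ n := by
    rw [hf₂def, div_mul_cancel₀ _ (pow_ne_zero _ hHGU₁.ne_zero)]
  -- orders of `f₂` on the discs
  have hf₂ord₁ : ∀ Q ∈ A₁, ∀ P, S.c₁.r P = some Q → P.ord f₂ = 0 := by
    intro Q hQ P hPQ
    exact S.c₁.key_ord_gen hP A s a hsGU₁ haM₁ (hgood₁ Q hQ) (hinl Q hQ)
      (fun i hi _ P' hP' => hsreg₁ i hi Q hQ P' hP')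
      (fun i hi hne => hs0₁ i hi Q hQ hne) n f hfGU₁.ne_zero (hord₁ Q hQ) hPQ
  have hf₂ord₂ : ∀ Q ∈ A₂, ∀ P, S.c₂.r P = some Q → P.ord f₂ = 0 := by
    intro Q hQ P hPQ
    exact S.c₂.key_ord_gen hP A s a hsGU₂ haM₂ (hgood₂ Q hQ) (hinr Q hQ)
      (fun i hi _ P' hP' => hsreg₂ i hi Q hQ P' hP')
      (fun i hi hne => hs0₂ i hi Q hQ hne) n f hfGU₁.ne_zero (hord₂ Q hQ) hPQ
  -- the scale
  set I : Finset F := insert (f₂ - 1) (A.image fun i => algebraMap K F (a i)) with hI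
  have hImem : ∀ z ∈ I, (z ∈ S.c₁.V ∧ S.c₁.rd z = 0) ∧ (z ∈ S.c₂.V ∧ S.c₂.rd z = 0) := by
    intro z hz
    rcases Finset.mem_insert.mp hz with rfl | hz
    · exact ⟨⟨S.c₁.V.sub_mem hf₂GU₁.1 S.c₁.V.one_mem, by
        rw [S.c₁.rd_sub hf₂GU₁.1 S.c₁.V.one_mem, hf₂rd₁, S.c₁.rd_one, sub_self]⟩,
        ⟨S.c₂.V.sub_mem hf₂GU₂.1 S.c₂.V.one_mem, by
        rw [S.c₂.rd_sub hf₂GU₂.1 S.c₂.V.one_mem, hf₂rd₂, S.c₂.rd_one, sub_self]⟩⟩
    · obtain ⟨i, hi, rfl⟩ := Finset.mem_image.mp hz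
      exact ⟨haM₁ i hi, haM₂ i hi⟩
  by_cases hall : ∀ z ∈ I, z = 0
  · have e1 : f₂ = 1 := sub_eq_zero.mp (hall _ (Finset.mem_insert_self _ _))
    have e2 : ∀ i ∈ A, (s i - algebraMap K F (a i)) / s i = 1 := by
      intro i hi
      have : algebraMap K F (a i) = 0 :=
        hall _ (Finset.mem_insert_of_mem (Finset.mem_image_of_mem _ hi))
      rw [this, sub_zero]
      exact div_self (hsGU₁ i hi).ne_zero
    rw [hff₂, e1, hHp, Finset.prod_eq_one e2, one_pow, mul_one]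
  exfalso
  push Not at hall
  obtain ⟨c, hc, ⟨hdV₁, hdrd₁⟩, ⟨hdV₂, hdrd₂⟩, hcI, z₀, hz₀, hz₀GU⟩ :=
    S.exists_scale_max₂ I hImem hall
  set α : F := algebraMap K F c * (f₂ - 1) with hα
  have hαV₁ : α ∈ S.c₁.V := (hcI _ (Finset.mem_insert_self _ _)).1
  have hαV₂ : α ∈ S.c₂.V := (hcI _ (Finset.mem_insert_self _ _)).2
  have hβV₁ : ∀ i ∈ A, algebraMap K F (c * a i) ∈ S.c₁.V := fun i hi => by
    rw [map_mul]
    exact (hcI _ (Finset.mem_insert_of_mem (Finset.mem_image_of_mem _ hi))).1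
  have hβV₂ : ∀ i ∈ A, algebraMap K F (c * a i) ∈ S.c₂.V := fun i hi => by
    rw [map_mul]
    exact (hcI _ (Finset.mem_insert_of_mem (Finset.mem_image_of_mem _ hi))).2
  -- the constants `b`
  have hbex : ∀ i, ∃ b : k, i ∈ A →
      S.c₁.rd (algebraMap K F (c * a i)) = algebraMap k F₁ b := by
    intro i
    by_cases hi : i ∈ A
    · obtain ⟨b, hb⟩ := S.c₁.rd_const_eq (c * a i) (hβV₁ i hi)
      exact ⟨b, fun _ => hb⟩
    · exact ⟨0, fun h => absurd h hi⟩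
  choose b hb₁ using hbex
  have hb₂ : ∀ i ∈ A, S.c₂.rd (algebraMap K F (c * a i)) = algebraMap k F₂ (b i) :=
    fun i hi => (S.rd₂_const (hβV₁ i hi) (hb₁ i hi)).2
  -- the congruences
  obtain ⟨hφV₁, hφrd₁⟩ := S.c₁.cong_formula A s a hsGU₁ haM₁ n f c hc hdV₁ hdrd₁ hαV₁ hβV₁ b hb₁
  obtain ⟨hφV₂, hφrd₂⟩ := S.c₂.cong_formula A s a hsGU₂ haM₂ n f c hc hdV₂ hdrd₂ hαV₂ hβV₂ b hb₂
  set φ : F := algebraMap K F c * (f - 1) with hφ
  -- regularity of `φ` away from the discs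
  have hφreg : ∀ P, (∀ Q ∈ A₁, S.c₁.r P ≠ some Q) → (∀ Q ∈ A₂, S.c₂.r P ≠ some Q) →
      0 ≤ P.ord φ := by
    intro P h1 h2
    have hf : RegAt P f := regAt_of_ord_nonneg (hord0 P h1 h2)
    exact ((regAt_algebraMap P c).mul (hf.sub (regAt_one P))).ord_nonneg
  have hαreg₁ : ∀ Q ∈ A₁, RegAt Q (S.c₁.rd α) := by
    intro Q hQ
    apply S.c₁.regAt_rd hP hαV₁ (hgood₁ Q hQ)
    intro P hPQ
    have h1 : RegAt P f₂ := regAt_of_ord_nonneg (le_of_eq (hf₂ord₁ Q hQ P hPQ).symm)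
    exact ((regAt_algebraMap P c).mul (h1.sub (regAt_one P))).ord_nonneg
  have hαreg₂ : ∀ Q ∈ A₂, RegAt Q (S.c₂.rd α) := by
    intro Q hQ
    apply S.c₂.regAt_rd hP hαV₂ (hgood₂ Q hQ)
    intro P hPQ
    have h1 : RegAt P f₂ := regAt_of_ord_nonneg (le_of_eq (hf₂ord₂ Q hQ P hPQ).symm)
    exact ((regAt_algebraMap P c).mul (h1.sub (regAt_one P))).ord_nonneg
  -- gluing of `φ` at the nodes
  have hglue : ∀ t ∈ S.nodes, ∃ e : k, VanAt t.1 (S.c₁.rd φ - algebraMap k F₁ e) ∧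
      VanAt t.2 (S.c₂.rd φ - algebraMap k F₂ e) := by
    intro t ht
    have hreg : ∀ P, S.c₁.r P = some t.1 → 0 ≤ P.ord φ := by
      intro P hPt
      refine hφreg P (fun Q hQ h => ?_) (fun Q hQ h => ?_)
      · rw [hPt] at h
        exact S.not_good₁ ht (Option.some.inj h ▸ hgood₁ Q hQ)
      · rw [S.r₂_of_node ht hPt] at h
        exact S.not_good₂ ht (Option.some.inj h ▸ hgood₂ Q hQ)
    obtain ⟨e, he1, he2⟩ := S.glue t ht φ hφV₁ hφV₂ hreg
    rw [← S.c₁.rd_of_mem hφV₁] at he1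
    rw [← S.c₂.rd_of_mem hφV₂] at he2
    exact ⟨e, he1, he2⟩
  -- the reductions of `φ` lie in `L(A₁)`, `L(A₂)`
  have hφL₁ : S.c₁.rd φ ∈ L (ptsDiv A₁) := by
    rw [mem_L_iff_ord]
    intro v
    by_cases hv : v ∈ A₁
    · rw [ptsDiv_apply, if_pos hv]
      have := poleLe_formula v A (fun i => S.c₁.rd (s i)) (fun i hi => (hsGU₁ i hi).2)
        (fun i hi => by
          by_cases hiv : i = Sum.inl v
          · rw [hiv]; exact le_of_eq (hs₁ v hv).1.ord_one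
          · rw [hs0₁ i hi v hv hiv]; exact zero_le_one) b n (hαreg₁ v hv)
      rw [← hφrd₁] at this
      exact this
    · rw [ptsDiv_apply, if_neg hv, neg_zero]
      have hreg : RegAt v (S.c₁.rd φ) := by
        by_cases hvg : v ∈ S.c₁.good
        · apply S.c₁.regAt_rd hP hφV₁ hvg
          intro P hPv
          refine hφreg P (fun Q hQ h => ?_) (fun Q hQ h => ?_)
          · rw [hPv] at h
            exact hv (Option.some.inj h ▸ hQ)
          · rw [S.r₂_none_of_good₁ hvg hPv] at h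
            exact absurd h (by simp)
        · have : v ∈ S.br₁ := by
            by_contra hvb
            exact hvg (S.good₁_of_notMem hvb)
          obtain ⟨t, ht, rfl⟩ := Finset.mem_image.mp this
          obtain ⟨e, he, -⟩ := hglue t ht
          exact RegAt.of_vanAt_sub he
      exact (regAt_iff_ord v _).mp hreg
  have hφL₂ : S.c₂.rd φ ∈ L (ptsDiv A₂) := by
    rw [mem_L_iff_ord]
    intro v
    by_cases hv : v ∈ A₂
    · rw [ptsDiv_apply, if_pos hv]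
      have := poleLe_formula v A (fun i => S.c₂.rd (s i)) (fun i hi => (hsGU₂ i hi).2)
        (fun i hi => by
          by_cases hiv : i = Sum.inr v
          · rw [hiv]; exact le_of_eq (hs₂ v hv).1.ord_one
          · rw [hs0₂ i hi v hv hiv]; exact zero_le_one) b n (hαreg₂ v hv)
      rw [← hφrd₂] at this
      exact this
    · rw [ptsDiv_apply, if_neg hv, neg_zero]
      have hreg : RegAt v (S.c₂.rd φ) := by
        by_cases hvg : v ∈ S.c₂.good
        · apply S.c₂.regAt_rd hP hφV₂ hvg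
          intro P hPv
          refine hφreg P (fun Q hQ h => ?_) (fun Q hQ h => ?_)
          · rw [S.r₁_none_of_good₂ hvg hPv] at h
            exact absurd h (by simp)
          · rw [hPv] at h
            exact hv (Option.some.inj h ▸ hQ)
        · have : v ∈ S.br₂ := by
            by_contra hvb
            exact hvg (S.good₂_of_notMem hvb)
          obtain ⟨t, ht, rfl⟩ := Finset.mem_image.mp this
          obtain ⟨e, -, he⟩ := hglue t ht
          exact RegAt.of_vanAt_sub he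
      exact (regAt_iff_ord v _).mp hreg
  -- the reductions of `φ` are a constant, which vanishes at `Qinf`
  obtain ⟨e, he₁, he₂⟩ := hNS _ hφL₁ _ hφL₂ hglue
  have hφinf : VanAt Qinf (S.c₁.rd φ) := by
    refine S.c₁.vanAt_rd hP hφV₁ hQinfg ?_ hPinf ((regAt_algebraMap Pinf c).mul_vanAt hfinf)
    intro P hPQ
    refine hφreg P (fun Q hQ h => ?_) (fun Q hQ h => ?_)
    · rw [hPQ] at h
      exact hQinfA (Option.some.inj h ▸ hQ)
    · rw [S.r₂_none_of_good₁ hQinfg hPQ] at h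
      exact absurd h (by simp)
  have he0 : e = 0 := by
    rw [he₁] at hφinf
    exact const_eq_zero_of_vanAt hφinf
  have hφ0₁ : S.c₁.rd φ = 0 := by rw [he₁, he0, map_zero]
  have hφ0₂ : S.c₂.rd φ = 0 := by rw [he₂, he0, map_zero]
  -- the residues vanish
  have hb0 : ∀ i ∈ A, b i = 0 := by
    intro i hi
    rcases (hmemA i).mp hi with ⟨Q, hQ, rfl⟩ | ⟨Q, hQ, rfl⟩
    · refine residue_zero Q A (fun i => S.c₁.rd (s i)) hi (hs₁ Q hQ).1.ord_one
        (fun j hj hne => hs0₁ j hj Q hQ hne) (hsGU₁ _ hi).2 b n hn (hαreg₁ Q hQ) ?_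
      rw [← hφrd₁, hφ0₁]
    · refine residue_zero Q A (fun i => S.c₂.rd (s i)) hi (hs₂ Q hQ).1.ord_one
        (fun j hj hne => hs0₂ j hj Q hQ hne) (hsGU₂ _ hi).2 b n hn (hαreg₂ Q hQ) ?_
      rw [← hφrd₂, hφ0₂]
  have hsum₁ : ∑ i ∈ A, algebraMap k F₁ (b i) / S.c₁.rd (s i) = 0 :=
    Finset.sum_eq_zero fun i hi => by rw [hb0 i hi, map_zero, zero_div]
  have hsum₂ : ∑ i ∈ A, algebraMap k F₂ (b i) / S.c₂.rd (s i) = 0 :=
    Finset.sum_eq_zero fun i hi => by rw [hb0 i hi, map_zero, zero_div]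
  have hα0₁ : S.c₁.rd α = 0 := by
    have := hφrd₁
    rw [hφ0₁, hsum₁, mul_zero, sub_zero] at this
    exact this.symm
  have hα0₂ : S.c₂.rd α = 0 := by
    have := hφrd₂
    rw [hφ0₂, hsum₂, mul_zero, sub_zero] at this
    exact this.symm
  -- contradiction
  rcases Finset.mem_insert.mp hz₀ with rfl | hz
  · rcases hz₀GU with h | h
    · exact h.2 hα0₁
    · exact h.2 hα0₂
  · obtain ⟨i, hi, rfl⟩ := Finset.mem_image.mp hz
    rcases hz₀GU with h | h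
    · apply h.2
      rw [← map_mul, hb₁ i hi, hb0 i hi, map_zero]
    · apply h.2
      rw [← map_mul, hb₂ i hi, hb0 i hi, map_zero]

end Main

/-- `Stmt_KeyNodal`. -/
theorem stmt_KeyNodal : Stmt_KeyNodal := by
  intro K F k F₁ F₂ _ _ _ _ _ _ _ _ _ S H _ _ A₁ A₂ hA₁ hA₂ hNS s₁ s₂ hs₁ hs₂ n hn f hf₁ hf₂
    hrd₁ hrd₂ Pinf Qinf hQinfg hQinfA hPinf hfinf a₁ a₂ ha₁ ha₂ hord0 hord₁ hord₂
  exact keyNodal S H A₁ A₂ hA₁ hA₂ hNS s₁ s₂ hs₁ hs₂ n hn f hf₁ hf₂ hrd₁ hrd₂ Pinf Qinf hQinfg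
    hQinfA hPinf hfinf a₁ a₂ ha₁ ha₂ hord0 hord₁ hord₂

end H28

end Fermat.Agent.BAD

end
end
-- ==== END Fermat.Agent.BAD.H28_Key

-- ==== BEGIN Fermat.Agent.R.H99_SMO
section

/-!
# Cluster R: strong multiplicity one away from a finite set, from S30 (helper99)

`smo`: two normalised eigenforms `g` (level `M`) and `g'` (level `M'`, `M' ∣ M`) whose
eigenvalues `a_ℓ` agree for all primes `ℓ ∤ M` outside a finite set `S` have the same `a_ℓ` for
ALL primes `ℓ ∤ M`.  (Galois representations of both forms over a common complete discrete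
valuation ring, Frobenius density; the prime `lam` is varied to reach `ℓ = lam` and to pass
from congruences to equalities.)

Consequences for the prelude's `IsNewform`:
`IsNewform.not_exists_eigenform_of_dvd`, `IsNewform.eq_zero_of_eigenvector_away`.
-/

set_option autoImplicit false

open Polynomial IsLocalRing CuspForm ModularFormClass

namespace Fermat.Agent.R.H99

open Fermat.Agent.S58 Fermat.Agent.S58.H99

/-- An element of a commutative ring `R` with an injective map to `ℂ` which lies, for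
infinitely many primes `lam`, in a proper ideal containing `lam`, is zero. -/
theorem eq_zero_of_forall_prime_mem_ring (x : ℂ) (hx : IsIntegral ℤ x) (B : ℕ)
    (h : ∀ lam : ℕ, lam.Prime → B < lam →
      ∃ (R : Type) (_ : CommRing R) (j : R →+* ℂ) (P : Ideal R) (y : R),
        Function.Injective j ∧ j y = x ∧ P ≠ ⊤ ∧ (lam : R) ∈ P ∧ y ∈ P) : x = 0 := by
  apply eq_zero_of_forall_prime_mem x hx B
  intro lam hlam hB
  obtain ⟨R, _, j, P, y, hj, hjy, hPtop, hlamP, hyP⟩ := h lam hlam hB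
  -- transport along `j` to its range
  let e : R ≃+* j.range := RingEquiv.ofBijective j.rangeRestrict
    ⟨fun a b hab => hj (congrArg Subtype.val hab), j.rangeRestrict_surjective⟩
  refine ⟨j.range, P.map (e : R →+* j.range), ⟨y, hjy⟩, ?_, ?_, ?_⟩
  · intro htop
    apply hPtop
    have := congrArg (Ideal.comap (e : R →+* j.range)) htop
    rw [Ideal.comap_top] at this
    rw [← this]
    exact (Ideal.comap_map_of_bijective (e : R →+* j.range) e.bijective).symm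
  · have : (lam : j.range) = (e : R →+* j.range) (lam : R) := by rw [map_natCast]
    rw [this]
    exact Ideal.mem_map_of_mem _ hlamP
  · have : (⟨x, ⟨y, hjy⟩⟩ : j.range) = (e : R →+* j.range) y := by
      apply Subtype.ext
      exact hjy.symm
    rw [this]
    exact Ideal.mem_map_of_mem _ hyP

theorem mem_maximalIdeal_of_algebraMap_mem {O' O'' : Type*} [CommRing O'] [IsLocalRing O']
    [CommRing O''] [IsLocalRing O''] (φ : O' →+* O'') {x : O'}
    (h : φ x ∈ maximalIdeal O'') : x ∈ maximalIdeal O' := by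
  rw [mem_maximalIdeal, mem_nonunits_iff] at h ⊢
  exact fun hu => h (hu.map φ)

section SMO

variable {M M' : ℕ} [NeZero M] [NeZero M']

/-- **Strong multiplicity one away from a finite set, one prime `lam` at a time**: the
difference of the eigenvalues at `ℓ₀` lies in a maximal ideal over `lam`. -/
theorem smo_congr (hS30 : Fermat.Agent.R.Stmt_S30) (hM'M : M' ∣ M)
    {g : CuspForm (CongruenceSubgroup.Gamma0 M) 2} (hg : g.IsNormalizedEigenform)
    {g' : CuspForm (CongruenceSubgroup.Gamma0 M') 2} (hg' : g'.IsNormalizedEigenform)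
    (S : Finset ℕ)
    (h : ∀ ℓ : ℕ, ℓ.Prime → ℓ ∉ S → ¬ ℓ ∣ M → qCoeff g' ℓ = qCoeff g ℓ)
    (lam : ℕ) [hlamF : Fact lam.Prime] (ℓ₀ : ℕ) (hℓ₀ : ℓ₀.Prime) (hℓ₀M : ¬ ℓ₀ ∣ M)
    (hℓ₀lam : ℓ₀ ≠ lam) :
    ∃ (R : Type) (_ : CommRing R) (j : R →+* ℂ) (P : Ideal R) (y : R),
      Function.Injective j ∧ j y = qCoeff g ℓ₀ - qCoeff g' ℓ₀ ∧ P ≠ ⊤ ∧ (lam : R) ∈ P ∧ y ∈ P := by
  classical
  have hlam : lam.Prime := hlamF.out
  have hM0 : M ≠ 0 := NeZero.ne M
  have hM'0 : M' ≠ 0 := NeZero.ne M'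
  -- the sets of primes
  set S₁ : Finset ℕ := insert lam M.primeFactors with hS₁
  set S₂ : Finset ℕ := insert lam M'.primeFactors with hS₂
  have hlamS₁ : lam ∈ S₁ := Finset.mem_insert_self _ _
  have hlamS₂ : lam ∈ S₂ := Finset.mem_insert_self _ _
  have hMS₁ : ∀ q : ℕ, q.Prime → q ∣ M → q ∈ S₁ := fun q hq hqM =>
    Finset.mem_insert_of_mem (Nat.mem_primeFactors.mpr ⟨hq, hqM, hM0⟩)
  have hMS₂ : ∀ q : ℕ, q.Prime → q ∣ M' → q ∈ S₂ := fun q hq hqM =>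
    Finset.mem_insert_of_mem (Nat.mem_primeFactors.mpr ⟨hq, hqM, hM'0⟩)
  have hS₂S₁ : S₂ ⊆ S₁ := by
    intro q hq
    rw [hS₂, Finset.mem_insert] at hq
    rcases hq with rfl | hq
    · exact hlamS₁
    · exact hMS₁ q (Nat.prime_of_mem_primeFactors hq)
        ((Nat.dvd_of_mem_primeFactors hq).trans hM'M)
  have hnot₁ : ∀ ℓ : ℕ, ¬ ℓ ∣ M → ℓ ≠ lam → ℓ ∉ (↑S₁ : Set ℕ) := by
    intro ℓ hℓM hℓlam hmem
    rw [Finset.mem_coe, hS₁, Finset.mem_insert] at hmem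
    rcases hmem with h1 | h1
    · exact hℓlam h1
    · exact hℓM (Nat.dvd_of_mem_primeFactors h1)
  have hnot₂ : ∀ ℓ : ℕ, ℓ ∉ (↑S₁ : Set ℕ) → ℓ ∉ (↑S₂ : Set ℕ) := fun ℓ h1 h2 =>
    h1 (Finset.mem_coe.mpr (hS₂S₁ (Finset.mem_coe.mp h2)))
  -- the characters and the common coefficient ring
  set chig : heckeAlgebra M 2 (↑S₁ : Set ℕ) →+* ℂ := eigenCharC (↑S₁ : Set ℕ) hg with hchig
  set chig' : heckeAlgebra M' 2 (↑S₂ : Set ℕ) →+* ℂ := eigenCharC (↑S₂ : Set ℕ) hg' with hchig'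
  let A₁ : Subalgebra ℤ ℂ := chig.toIntAlgHom.range
  let A₂ : Subalgebra ℤ ℂ := chig'.toIntAlgHom.range
  have hfinT₁ : Module.Finite ℤ (heckeAlgebra M 2 (↑S₁ : Set ℕ)) := Fermat.Agent.S22.result M 2 _
  have hfinT₂ : Module.Finite ℤ (heckeAlgebra M' 2 (↑S₂ : Set ℕ)) :=
    Fermat.Agent.S22.result M' 2 _
  have hfin₁ : Module.Finite ℤ A₁ :=
    Module.Finite.of_surjective chig.toIntAlgHom.rangeRestrict.toLinearMap
      chig.toIntAlgHom.rangeRestrict_surjective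
  have hfin₂ : Module.Finite ℤ A₂ :=
    Module.Finite.of_surjective chig'.toIntAlgHom.rangeRestrict.toLinearMap
      chig'.toIntAlgHom.rangeRestrict_surjective
  have hfinB : Module.Finite ℤ ↥(A₁ ⊔ A₂) := Subalgebra.finite_sup A₁ A₂
  let R : Type := ↥(A₁ ⊔ A₂)
  let j : R →+* ℂ := (A₁ ⊔ A₂).val.toRingHom
  have hj : Function.Injective j := Subtype.val_injective
  have hCZ : CharZero R := ⟨fun a b hab => by
    have := congrArg j hab
    simpa using this⟩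
  let χ₁ : heckeAlgebra M 2 (↑S₁ : Set ℕ) →+* R :=
    (chig.toIntAlgHom.codRestrict (A₁ ⊔ A₂)
      (fun T => (le_sup_left : A₁ ≤ A₁ ⊔ A₂) ⟨T, rfl⟩)).toRingHom
  let χ₂ : heckeAlgebra M' 2 (↑S₂ : Set ℕ) →+* R :=
    (chig'.toIntAlgHom.codRestrict (A₁ ⊔ A₂)
      (fun T => (le_sup_right : A₂ ≤ A₁ ⊔ A₂) ⟨T, rfl⟩)).toRingHom
  have hχ₁ : ∀ T, j (χ₁ T) = chig T := fun T => rfl
  have hχ₂ : ∀ T, j (χ₂ T) = chig' T := fun T => rfl
  -- a maximal ideal over `lam` and the complete discrete valuation ring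
  have hnu : ¬ IsUnit (lam : R) := by
    intro hu
    have hu' : IsUnit (j (lam : R)) := hu.map j
    rw [map_natCast] at hu'
    have h1 : IsIntegral ℤ ((lam : ℂ)⁻¹) := by
      obtain ⟨u, hu⟩ := hu
      have hint : IsIntegral ℤ ((u⁻¹ : Rˣ) : R) := Algebra.IsIntegral.isIntegral _
      have hintC : IsIntegral ℤ (j ((u⁻¹ : Rˣ) : R)) := hint.map j.toIntAlgHom
      have h2 : (lam : ℂ) * j ((u⁻¹ : Rˣ) : R) = 1 := by
        have h3 : ((u : R) * ((u⁻¹ : Rˣ) : R)) = 1 := u.mul_inv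
        rw [hu] at h3
        have := congrArg j h3
        rwa [map_mul, map_natCast, map_one] at this
      have hlam0 : (lam : ℂ) ≠ 0 := by exact_mod_cast hlam.ne_zero
      have : j ((u⁻¹ : Rˣ) : R) = (lam : ℂ)⁻¹ := by
        field_simp
        linear_combination h2
      rwa [this] at hintC
    have hmap : (algebraMap ℚ ℂ) ((lam : ℚ)⁻¹) = (lam : ℂ)⁻¹ := by
      rw [eq_ratCast (algebraMap ℚ ℂ)]; push_cast; rfl
    rw [← hmap] at h1
    have hintQ : IsIntegral ℤ ((lam : ℚ)⁻¹) :=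
      (isIntegral_algebraMap_iff (algebraMap ℚ ℂ).injective).mp h1
    obtain ⟨m, hm⟩ := IsIntegrallyClosed.isIntegral_iff.mp hintQ
    rw [eq_intCast] at hm
    have hpQ : (lam : ℚ) ≠ 0 := by exact_mod_cast hlam.ne_zero
    have hmul : ((lam * m : ℤ) : ℚ) = ((1 : ℤ) : ℚ) := by
      push_cast; rw [hm]; field_simp
    have hdvd : (lam : ℤ) ∣ 1 := ⟨m, (Int.cast_injective hmul).symm⟩
    have hple : (lam : ℤ) ≤ 1 := Int.le_of_dvd one_pos hdvd
    have := hlam.two_le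
    omega
  have hne : Ideal.span {(lam : R)} ≠ ⊤ := fun htop =>
    hnu (Ideal.span_singleton_eq_top.mp htop)
  obtain ⟨P, hPmax, hPle⟩ := Ideal.exists_le_maximal _ hne
  have hlamP : (lam : R) ∈ P := hPle (Ideal.subset_span rfl)
  obtain ⟨O', i1, i2, i3, i4, i5, i6, ι, -, hιcomap⟩ := Fermat.Agent.R.H2.stmt_PDVR R P
  have hlamO' : (lam : O') ∈ maximalIdeal O' := by
    have : (lam : R) ∈ (maximalIdeal O').comap ι := hιcomap ▸ hlamP
    rw [Ideal.mem_comap, map_natCast] at this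
    exact this
  -- the two Galois representations
  obtain ⟨O₁, a1, a2, a3, a4, a5, a6, a7, a8, a9, -, ρ₁, hfrob₁, -⟩ :=
    hS30 lam M S₁ hlamS₁ hMS₁ O' hlamO' (ι.comp χ₁)
  obtain ⟨O₂, b1, b2, b3, b4, b5, b6, b7, b8, b9, -, ρ₂, hfrob₂, -⟩ :=
    hS30 lam M' S₂ hlamS₂ hMS₂ O' hlamO' (ι.comp χ₂)
  -- the common Frobenius traces
  let a : ℕ → O' := fun ℓ =>
    if hh : ℓ.Prime ∧ ¬ ℓ ∣ M ∧ ℓ ∉ (↑S₁ : Set ℕ) then
      (ι.comp χ₁) (heckeAlgebra.T hh.1 hh.2.1 hh.2.2) else 0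
  have ha : ∀ (ℓ : ℕ) (hℓ : ℓ.Prime) (hℓM : ¬ ℓ ∣ M) (hℓS : ℓ ∉ (↑S₁ : Set ℕ)),
      a ℓ = (ι.comp χ₁) (heckeAlgebra.T hℓ hℓM hℓS) := by
    intro ℓ hℓ hℓM hℓS
    simp only [a]
    rw [dif_pos ⟨hℓ, hℓM, hℓS⟩]
  have hV₁ : HasFrobVia (algebraMap O' O₁) ρ₁ a S₁ := by
    intro ℓ hℓ hℓS Q hQ σ hσ
    have hℓM : ¬ ℓ ∣ M := fun hd => hℓS (hMS₁ ℓ hℓ hd)
    have hℓS' : ℓ ∉ (↑S₁ : Set ℕ) := by simpa using hℓS
    rw [hfrob₁ ℓ hℓ hℓM hℓS' Q hQ σ hσ, ha ℓ hℓ hℓM hℓS']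
  have hV₂ : HasFrobVia (algebraMap O' O₂) ρ₂ a (S₁ ∪ S) := by
    intro ℓ hℓ hℓSS Q hQ σ hσ
    have hℓS₁ : ℓ ∉ S₁ := fun hh => hℓSS (Finset.mem_union_left _ hh)
    have hℓS : ℓ ∉ S := fun hh => hℓSS (Finset.mem_union_right _ hh)
    have hℓM : ¬ ℓ ∣ M := fun hd => hℓS₁ (hMS₁ ℓ hℓ hd)
    have hℓM' : ¬ ℓ ∣ M' := fun hd => hℓM (hd.trans hM'M)
    have hℓS₁' : ℓ ∉ (↑S₁ : Set ℕ) := by simpa using hℓS₁
    have hℓS₂' : ℓ ∉ (↑S₂ : Set ℕ) := hnot₂ ℓ hℓS₁'
    rw [hfrob₂ ℓ hℓ hℓM' hℓS₂' Q hQ σ hσ, ha ℓ hℓ hℓM hℓS₁']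
    have e : χ₂ (heckeAlgebra.T hℓ hℓM' hℓS₂') = χ₁ (heckeAlgebra.T hℓ hℓM hℓS₁') := by
      apply hj
      rw [hχ₁, hχ₂, hchig, hchig', eigenCharC_T, eigenCharC_T]
      exact h ℓ hℓ hℓS hℓM
    rw [RingHom.comp_apply, RingHom.comp_apply, e]
  -- compare at a Frobenius element at `ℓ₀`
  have hℓ₀M' : ¬ ℓ₀ ∣ M' := fun hd => hℓ₀M (hd.trans hM'M)
  have hℓ₀S₁ : ℓ₀ ∉ (↑S₁ : Set ℕ) := hnot₁ ℓ₀ hℓ₀M hℓ₀lam
  have hℓ₀S₂ : ℓ₀ ∉ (↑S₂ : Set ℕ) := hnot₂ ℓ₀ hℓ₀S₁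
  obtain ⟨Q, σ, hQ, hσ⟩ := Fermat.Agent.Lib.FrobExists.exists_place_and_frobenius ℓ₀ hℓ₀
  obtain ⟨t, d, ht₁, -, ht₂, -⟩ :=
    exists_approx (algebraMap O' O₁) (algebraMap O' O₂) ρ₁ ρ₂ a S₁ (S₁ ∪ S) hV₁ hV₂ 1 1 σ
  rw [pow_one] at ht₁ ht₂
  rw [(trace_det_of_charpoly_two ρ₁.finrank_eq _ (hfrob₁ ℓ₀ hℓ₀ hℓ₀M hℓ₀S₁ Q hQ σ hσ)).1,
    ← map_sub] at ht₁
  rw [(trace_det_of_charpoly_two ρ₂.finrank_eq _ (hfrob₂ ℓ₀ hℓ₀ hℓ₀M' hℓ₀S₂ Q hQ σ hσ)).1,
    ← map_sub] at ht₂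
  have k₁ := mem_maximalIdeal_of_algebraMap_mem (algebraMap O' O₁) ht₁
  have k₂ := mem_maximalIdeal_of_algebraMap_mem (algebraMap O' O₂) ht₂
  have k₃ := Ideal.sub_mem _ k₁ k₂
  have e3 : (ι.comp χ₁) (heckeAlgebra.T hℓ₀ hℓ₀M hℓ₀S₁) - t -
      ((ι.comp χ₂) (heckeAlgebra.T hℓ₀ hℓ₀M' hℓ₀S₂) - t) =
      ι (χ₁ (heckeAlgebra.T hℓ₀ hℓ₀M hℓ₀S₁) - χ₂ (heckeAlgebra.T hℓ₀ hℓ₀M' hℓ₀S₂)) := by
    rw [map_sub, RingHom.comp_apply, RingHom.comp_apply]
    ring
  rw [e3] at k₃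
  refine ⟨R, inferInstance, j, P,
    χ₁ (heckeAlgebra.T hℓ₀ hℓ₀M hℓ₀S₁) - χ₂ (heckeAlgebra.T hℓ₀ hℓ₀M' hℓ₀S₂), hj, ?_,
    hPmax.ne_top, hlamP, ?_⟩
  · rw [map_sub, hχ₁, hχ₂, hchig, hchig', eigenCharC_T, eigenCharC_T]
  · rw [← hιcomap]
    exact k₃

/-- **Strong multiplicity one away from a finite set** (from S30). -/
theorem smo (hS30 : Fermat.Agent.R.Stmt_S30) (hM'M : M' ∣ M)
    {g : CuspForm (CongruenceSubgroup.Gamma0 M) 2} (hg : g.IsNormalizedEigenform)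
    {g' : CuspForm (CongruenceSubgroup.Gamma0 M') 2} (hg' : g'.IsNormalizedEigenform)
    (S : Finset ℕ)
    (h : ∀ ℓ : ℕ, ℓ.Prime → ℓ ∉ S → ¬ ℓ ∣ M → qCoeff g' ℓ = qCoeff g ℓ) :
    ∀ ℓ : ℕ, ℓ.Prime → ¬ ℓ ∣ M → qCoeff g' ℓ = qCoeff g ℓ := by
  intro ℓ₀ hℓ₀ hℓ₀M
  have hℓ₀M' : ¬ ℓ₀ ∣ M' := fun hd => hℓ₀M (hd.trans hM'M)
  have hint : IsIntegral ℤ (qCoeff g ℓ₀ - qCoeff g' ℓ₀) := by
    have hℓS : ℓ₀ ∉ (∅ : Set ℕ) := Set.notMem_empty ℓ₀
    have h1 := isIntegral_apply (eigenCharC (∅ : Set ℕ) hg) (heckeAlgebra.T hℓ₀ hℓ₀M hℓS)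
    have h2 := isIntegral_apply (eigenCharC (∅ : Set ℕ) hg') (heckeAlgebra.T hℓ₀ hℓ₀M' hℓS)
    rw [eigenCharC_T] at h1 h2
    exact h1.sub h2
  have h0 := eq_zero_of_forall_prime_mem_ring _ hint ℓ₀ (fun lam hlam hB => by
    have : Fact lam.Prime := ⟨hlam⟩
    exact smo_congr hS30 hM'M hg hg' S h lam ℓ₀ hℓ₀ hℓ₀M (by omega))
  exact (sub_eq_zero.mp h0).symm

end SMO

/-- A newform (prelude sense) of level `M` has no companion of lower level `M' ∣ M`, even if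
the eigenvalues are only known to agree outside a finite set of primes. -/
theorem IsNewform.not_exists_eigenform_of_dvd (hS30 : Fermat.Agent.R.Stmt_S30) {M : ℕ}
    [NeZero M] {g : CuspForm (CongruenceSubgroup.Gamma0 M) 2} (hg : g.IsNewform)
    {M' : ℕ} (hM'M : M' ∣ M) (hne : M' ≠ M) (S : Finset ℕ)
    (g' : CuspForm (CongruenceSubgroup.Gamma0 M') 2) (hg' : g'.IsNormalizedEigenform)
    (h : ∀ ℓ : ℕ, ℓ.Prime → ℓ ∉ S → ¬ ℓ ∣ M → qCoeff g' ℓ = qCoeff g ℓ) : False := by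
  have hM'0 : M' ≠ 0 := fun h0 => NeZero.ne M (by
    rw [h0] at hM'M; exact Nat.eq_zero_of_zero_dvd hM'M)
  have : NeZero M' := ⟨hM'0⟩
  exact hg.2 M' hM'M hne ⟨g', hg', smo hS30 hM'M hg.1 hg' S h⟩

/-- Eigenvector form: a newform of level `M` has no nonzero eigenvector of lower level
`M' ∣ M` for the Hecke operators `T_ℓ`, `ℓ ∤ M`, `ℓ ∉ S`, with the eigenvalues of `g`. -/
theorem IsNewform.eq_zero_of_eigenvector_away (hS30 : Fermat.Agent.R.Stmt_S30) {M : ℕ}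
    [NeZero M] {g : CuspForm (CongruenceSubgroup.Gamma0 M) 2} (hg : g.IsNewform)
    {M' : ℕ} (hM'M : M' ∣ M) (hne : M' ≠ M) (S : Finset ℕ)
    (v : CuspForm (CongruenceSubgroup.Gamma0 M') 2)
    (hv : ∀ (ℓ : ℕ) (hℓ : ℓ.Prime) (hℓM' : ¬ ℓ ∣ M'), ¬ ℓ ∣ M → ℓ ∉ S →
      CuspForm.heckeTLin 2 hℓ hℓM' v = qCoeff g ℓ • v) : v = 0 := by
  by_contra hv0
  have hM'0 : M' ≠ 0 := fun h0 => NeZero.ne M (by
    rw [h0] at hM'M; exact Nat.eq_zero_of_zero_dvd hM'M)
  have : NeZero M' := ⟨hM'0⟩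
  obtain ⟨g', hg', hga⟩ := exists_normalizedEigenform_of_eigenvector
    ({ℓ | ℓ ∣ M} ∪ (↑S : Set ℕ)) (fun ℓ => qCoeff g ℓ) v hv0
    (fun ℓ hℓ hℓM' hℓS => hv ℓ hℓ hℓM' (fun hd => hℓS (Or.inl hd))
      (fun hS => hℓS (Or.inr (Finset.mem_coe.mpr hS))))
  refine IsNewform.not_exists_eigenform_of_dvd hS30 hg hM'M hne S g' hg' ?_
  intro ℓ hℓ hℓS hℓM
  refine hga ℓ hℓ (fun hd => hℓM (hd.trans hM'M)) ?_
  rintro (hd | hS)
  · exact hℓM hd
  · exact hℓS (Finset.mem_coe.mp hS)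

end Fermat.Agent.R.H99

end
-- ==== END Fermat.Agent.R.H99_SMO

-- ==== BEGIN Fermat.Agent.RED.ES.H95_HeckeEmb
section

/-!
# G-RED, package ES (helper95): the `ℓ + 1` embeddings of `F_{Nℓ}` over `β (F_N)`

`M = N ℓ`, `ℓ` prime, `ℓ ∤ N`, `L = LN M = Frac (Atil M)`, `u = exp (2 π i τ / M)`.
`K = F_N` acts on `F_M` through `β` and on `L` through `φ_M ∘ α`; `ρ : F_M → L` is `K`-linear.
The `K`-automorphisms `σ c = piN (cosetRep c)` (`c ∈ Option (Fin ℓ)`) restricted to `ρ (F_M)` are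
pairwise distinct and are all the `K`-embeddings of `F_M` into `L`.
-/

set_option autoImplicit false

noncomputable section

namespace Fermat.Agent.RED.H95

open Fermat.Agent.S24 ModularCurve Matrix ModularGroup CongruenceSubgroup UpperHalfPlane
open scoped MatrixGroups

/-- Two algebra homomorphisms between fields which agree on a generating set are equal. -/
theorem algHom_eq_of_adjoin_eq_top {K A B : Type*} [Field K] [Field A] [Field B] [Algebra K A]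
    [Algebra K B] (f g : A →ₐ[K] B) (S : Set A) (hS : IntermediateField.adjoin K S = ⊤)
    (h : ∀ x ∈ S, f x = g x) : f = g := by
  let E : IntermediateField K A :=
    { carrier := {x | f x = g x}
      mul_mem' := fun {a b} ha hb => by
        show f (a * b) = g (a * b)
        rw [map_mul, map_mul, ha, hb]
      one_mem' := by
        show f 1 = g 1
        rw [map_one, map_one]
      add_mem' := fun {a b} ha hb => by
        show f (a + b) = g (a + b)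
        rw [map_add, map_add, ha, hb]
      zero_mem' := by
        show f 0 = g 0
        rw [map_zero, map_zero]
      algebraMap_mem' := fun c => by
        show f (algebraMap K A c) = g (algebraMap K A c)
        rw [f.commutes, g.commutes]
      inv_mem' := fun a ha => by
        show f a⁻¹ = g a⁻¹
        rw [map_inv₀, map_inv₀, ha] }
  have hE : E = ⊤ := by
    rw [eq_top_iff, ← hS, IntermediateField.adjoin_le_iff]
    exact fun x hx => h x hx
  ext x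
  have : x ∈ E := by rw [hE]; exact IntermediateField.mem_top
  exact this

/-! ### The action of `T` on expansions, on the fraction field -/

section UL

variable (M : ℕ) [NeZero M]

/-- `piN γ` as a `Q̄`-algebra homomorphism. -/
def piK (γ : SL(2, ℤ)) : LN M →ₐ[Kbar] LN M :=
  ((piN M γ : LN M ≃ₐ[EN] LN M) : LN M →ₐ[EN] LN M).restrictScalars Kbar

theorem piK_apply (γ : SL(2, ℤ)) (y : LN M) : piK M γ y = piN M γ y := rfl

theorem piK_mul (γ γ' : SL(2, ℤ)) (y : LN M) : piK M (γ * γ') y = piK M γ (piK M γ' y) := by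
  rw [piK_apply, piK_apply, piK_apply, map_mul]
  rfl

theorem piK_algebraMap (γ : SL(2, ℤ)) (f : AT M) :
    piK M γ (algebraMap (AT M) (LN M) f) = algebraMap (AT M) (LN M) (γ • f) :=
  piN_algebraMap M γ f

theorem UL_piN_T (y : LN M) :
    UL M (piN M T y) = twist (zetaK M)⁻¹ (UL M y) := by
  have hz : (zetaK M)⁻¹ ≠ 0 := inv_ne_zero (zetaK_ne_zero M)
  have key : ∀ f : AT M, UL M (piN M T (algebraMap (AT M) (LN M) f))
      = twist (zetaK M)⁻¹ (UL M (algebraMap (AT M) (LN M) f)) := by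
    intro f
    rw [piN_algebraMap, UL_algebraMap, UL_algebraMap]
    exact uExp_T_smul M ((toAT M).symm f)
  obtain ⟨a, b, hb, rfl⟩ := IsFractionRing.div_surjective (A := AT M) y
  rw [map_div₀, map_div₀, key, key, map_div₀]
  exact (map_div₀ (twistHom (zetaK M)⁻¹ hz) _ _).symm

theorem UL_piN_T_pow (b : ℕ) (y : LN M) :
    UL M (piN M (T ^ b) y) = twist ((zetaK M)⁻¹ ^ b) (UL M y) := by
  induction b generalizing y with
  | zero => rw [pow_zero, map_one, pow_zero, twist_one_left]; rfl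
  | succ b ih =>
    rw [pow_succ, map_mul]
    show UL M (piN M (T ^ b) (piN M T y)) = _
    rw [ih, UL_piN_T, twist_twist, pow_succ]

end UL

end Fermat.Agent.RED.H95

end
end
-- ==== END Fermat.Agent.RED.ES.H95_HeckeEmb

-- ==== BEGIN Fermat.Agent.RED.H34_Chart
section

/-!
# G-RED package IG (helper34): the chart theorem

`stmt_chartNormal_of_notDvdDet : Stmt_notDvdDet → Stmt_chartNormal`.

Inputs: `H82.stmt_rootRed` (reduction of roots), `H82.h82_tameDiscr` (tame discriminant bound),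
`span_eq_of_discr_bound_order` (IG-core), `exists_good_basis`, `exists_discr_lift` (S6),
`exists_pow_eq_smul` (NIL), and (S5) = `Stmt_notDvdDet`.
-/

set_option autoImplicit false

noncomputable section

open Polynomial IntermediateField Module Matrix
open scoped IntermediateField.algebraAdjoinAdjoin nonZeroDivisors

namespace Fermat.Agent.RED.H34

variable {C F k Ft : Type} [Field C] [Field F] [Algebra C F] [Field k] [Field Ft] [Algebra k Ft]

section Abstract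

variable {x : F}

/-- Finitely many points lie over `x = ρ`. -/
theorem finite_ptsOver (hxC : Transcendental C x) {m : ℕ}
    (c : Module.Basis (Fin m) ↥(Algebra.adjoin C {x}) ↥(Bx (C := C) x)) (ρ : C) :
    (ptsOver x ρ).Finite := by
  classical
  have : IsPrincipalIdealRing ↥(Algebra.adjoin C {x}) := isPrincipalIdealRing_adjoin hxC
  by_contra hinf
  obtain ⟨t, ht, htc⟩ := Set.Infinite.exists_subset_card_eq hinf (m + 1)
  have h := H82.h82_count (R := ↥(Algebra.adjoin C {x})) (B := ↥(Bx (C := C) x)) c (piRho x ρ)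
    (prime_piRho hxC ρ) (∅ : Finset (Fin m)) (fun i hi => absurd hi (Finset.notMem_empty i)) t
    (fun P hP => (mem_ptsOver_iff x ρ P).1 (ht hP))
  rw [htc, Finset.card_empty, Fintype.card_fin] at h
  omega

theorem not_piRho_dvd_natCast [CharZero C] (hxC : Transcendental C x) (ρ : C) (n : ℕ)
    (hn : n ≠ 0) : ¬ piRho x ρ ∣ (n : ↥(Algebra.adjoin C {x})) := by
  rw [← evAt_eq_zero_iff hxC, map_natCast]
  exact_mod_cast hn

/-- The tame bound at `x = ρ`. -/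
theorem not_pow_dvd_discr [CharZero C] (hxC : Transcendental C x) [FiniteDimensional ↥C⟮x⟯ F]
    [Algebra.IsSeparable ↥C⟮x⟯ F] {m : ℕ}
    (c : Module.Basis (Fin m) ↥(Algebra.adjoin C {x}) ↥(Bx (C := C) x)) (ρ : C) :
    ¬ piRho x ρ ^ (m - (ptsOver x ρ).ncard + 1) ∣ Algebra.discr ↥(Algebra.adjoin C {x}) c := by
  have : IsPrincipalIdealRing ↥(Algebra.adjoin C {x}) := isPrincipalIdealRing_adjoin hxC
  have h := H82.h82_tameDiscr ↥(Algebra.adjoin C {x}) ↥C⟮x⟯ F (Fin m) c (piRho x ρ)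
    (prime_piRho hxC ρ) (not_piRho_dvd_natCast hxC ρ)
  have hset : {P : Ideal ↥(integralClosure ↥(Algebra.adjoin C {x}) F) |
      P.IsMaximal ∧ algebraMap ↥(Algebra.adjoin C {x}) ↥(integralClosure ↥(Algebra.adjoin C {x}) F)
        (piRho x ρ) ∈ P} = ptsOver x ρ := by
    ext P
    exact (mem_ptsOver_iff x ρ P).symm
  rw [hset, Fintype.card_fin] at h
  exact h

end Abstract

/-- (S5), to be supplied: the transition matrix from a basis of `B` to the lifted good basis has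
determinant prime to `x - ρ` for `ρ ∈ O`. -/
def Stmt_notDvdDet : Prop :=
  ∀ (C F k Ft : Type) [Field C] [Field F] [Algebra C F] [Field k] [Field Ft] [Algebra k Ft]
    [CharZero C] (S : RedSetting C F k Ft) (x : F) (hx : x ∈ S.V)
    (_ : Transcendental k (S.red ⟨x, hx⟩)) [FiniteDimensional ↥C⟮x⟯ F]
    (_ : Module.finrank ↥k⟮S.red ⟨x, hx⟩⟯ Ft = Module.finrank ↥C⟮x⟯ F)
    (m : ℕ) (bF : Module.Basis (Fin m) ↥C⟮x⟯ F) (hbV : ∀ i, bF i ∈ S.V)
    (hbB : ∀ i, IsIntegral ↥(Algebra.adjoin C {x}) (bF i))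
    (bt : Module.Basis (Fin m) ↥k⟮S.red ⟨x, hx⟩⟯ Ft) (_ : ∀ i, bt i = S.red ⟨bF i, hbV i⟩)
    (_ : ∀ y ∈ S.Bbar hx,
      y ∈ Submodule.span ↥(Algebra.adjoin k {S.red ⟨x, hx⟩}) (Set.range bt))
    (c : Module.Basis (Fin m) ↥(Algebra.adjoin C {x}) ↥(Bx (C := C) x))
    (P : Matrix (Fin m) (Fin m) ↥(Algebra.adjoin C {x}))
    (_ : ∀ i, (⟨bF i, hbB i⟩ : ↥(Bx (C := C) x)) = ∑ j, P i j • c j)
    (ρ : C) (_ : ρ ∈ S.O), ¬ piRho x ρ ∣ P.det

namespace RedSetting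

variable {S : RedSetting C F k Ft} {x : F} (hx : x ∈ S.V)

/-- The chart theorem, from (S5). -/
theorem chartNormal_aux [IsAlgClosed C] [CharZero C] [IsAlgClosed k] (hND : Stmt_notDvdDet)
    (hxt : Transcendental k (S.red ⟨x, hx⟩)) [FiniteDimensional ↥C⟮x⟯ F]
    (hdeg : Module.finrank ↥k⟮S.red ⟨x, hx⟩⟯ Ft = Module.finrank ↥C⟮x⟯ F)
    [Algebra.IsSeparable ↥k⟮S.red ⟨x, hx⟩⟯ Ft]
    (hD : ∀ ρ ρ' : ↥(S.V.comap (algebraMap C F)), IsBranchValue x (ρ : C) →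
      IsBranchValue x (ρ' : C) → S.resO ρ = S.resO ρ' → ρ = ρ')
    (y : Ft) (hy : IsIntegral ↥(Algebra.adjoin k {S.red ⟨x, hx⟩}) y) :
    ∃ f : ↥S.V, IsIntegral ↥(Algebra.adjoin C {x}) (f : F) ∧ S.red f = y := by
  classical
  have hxC := transcendental_x hx hxt
  have hfdt := finiteDimensional_red hx hdeg
  have hpidt : IsPrincipalIdealRing ↥(Algebra.adjoin k {S.red ⟨x, hx⟩}) :=
    isPrincipalIdealRing_adjoin hxt
  have hpid : IsPrincipalIdealRing ↥(Algebra.adjoin C {x}) := isPrincipalIdealRing_adjoin hxC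
  have hcz : CharZero ↥C⟮x⟯ := charZero_of_injective_algebraMap (algebraMap C ↥C⟮x⟯).injective
  have hsepC : Algebra.IsSeparable ↥C⟮x⟯ F := inferInstance
  obtain ⟨m, bF, hbV, bt, hbB, hbt, hspan⟩ := exists_good_basis hx hxt hdeg
  obtain ⟨c, P, hP, hdisc⟩ :=
    exists_transition (R := ↥(Algebra.adjoin C {x})) (K := ↥C⟮x⟯) (L := F) bF hbB
  obtain ⟨D₀, hD₀, hd, hD₀ne⟩ := exists_discr_lift hx hxt bF hbV bt hbt _ hdisc
  have hm : Module.finrank ↥C⟮x⟯ F = m := by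
    rw [Module.finrank_eq_card_basis bF, Fintype.card_fin]
  have hdet : ∀ ρ : ↥S.O, ¬ piRho x (ρ : C) ∣ P.det := fun ρ =>
    hND C F k Ft S x hx hxt hdeg m bF hbV hbB bt hbt hspan c P hP ρ ρ.2
  have hD₀0 : D₀ ≠ 0 := by
    rintro rfl
    exact hD₀ne (Polynomial.map_zero _)
  -- roots of `D₀` in `O` are branch values
  have hroot_dvd : ∀ (ρ : ↥S.O) (N : ℕ), (Polynomial.X - Polynomial.C ρ) ^ N ∣ D₀ →
      piRho x (ρ : C) ^ N ∣ Algebra.discr ↥(Algebra.adjoin C {x}) c := by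
    intro ρ N hN
    have h1 : piRho x (ρ : C) ^ N ∣ P.det ^ 2 * Algebra.discr ↥(Algebra.adjoin C {x}) c := by
      rw [← hD₀, psiR_eq, pow_dvd_polyEquiv_iff]
      have h2 := Polynomial.map_dvd S.O.subtype hN
      rwa [Polynomial.map_pow, Polynomial.map_sub, Polynomial.map_X, Polynomial.map_C] at h2
    refine (prime_piRho hxC (ρ : C)).pow_dvd_of_dvd_mul_left N ?_ h1
    intro h3
    exact hdet ρ ((prime_piRho hxC (ρ : C)).dvd_of_dvd_pow h3)
  have hbranch : ∀ ρ : ↥S.O, D₀.IsRoot ρ → IsBranchValue x (ρ : C) := by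
    intro ρ hρ
    have h1 := hroot_dvd ρ 1 (by rw [pow_one]; exact Polynomial.dvd_iff_isRoot.2 hρ)
    have h2 := not_pow_dvd_discr hxC c (ρ : C)
    unfold IsBranchValue
    rw [hm]
    by_contra hlt
    rw [not_lt] at hlt
    rw [Nat.sub_eq_zero_of_le hlt, zero_add] at h2
    exact h2 h1
  have hbtint : ∀ i, IsIntegral ↥(Algebra.adjoin k {S.red ⟨x, hx⟩}) (bt i) := by
    intro i
    rw [hbt i]
    exact red_isIntegral hx hxt hdeg _ (hbB i) (hbV i)
  -- the main claim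
  have hmain : ∀ y : Ft, IsIntegral ↥(Algebra.adjoin k {S.red ⟨x, hx⟩}) y →
      y ∈ Submodule.span ↥(Algebra.adjoin k {S.red ⟨x, hx⟩}) (Set.range bt) := by
    refine span_eq_of_discr_bound_order (R := ↥(Algebra.adjoin k {S.red ⟨x, hx⟩}))
      (K := ↥k⟮S.red ⟨x, hx⟩⟯) (L := Ft) bt hbtint (S.psiT hx D₀) hd ?_
    intro π hπ hπd
    obtain ⟨γ, a, ha, rfl⟩ := exists_eq_of_prime hxt π hπ
    have hdvdπ : piRho (S.red ⟨x, hx⟩) γ ∣
        algebraMap k ↥(Algebra.adjoin k {S.red ⟨x, hx⟩}) a * piRho (S.red ⟨x, hx⟩) γ :=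
      Dvd.intro_left _ rfl
    have hγroot : (D₀.map S.resO).IsRoot γ := by
      rw [← dvd_polyEquiv_iff hxt, ← psiT_eq hx hxt]
      exact hdvdπ.trans hπd
    obtain ⟨ρ₀, rfl, hρroot, hmult⟩ := H82.stmt_rootRed C k S.O S.resO S.resO_surj
      S.resO_eq_zero_iff D₀ hD₀ne γ hγroot
    have hmult' := hmult (fun ρ' hρ' hroot' =>
      hD ρ' ρ₀ (hbranch ρ' hroot') (hbranch ρ₀ hρroot) hρ')
    -- enumerate the points
    have hfin := finite_ptsOver hxC c (ρ₀ : C)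
    have : Finite ↥(ptsOver x (ρ₀ : C)) := hfin
    set r := (ptsOver x (ρ₀ : C)).ncard with hr
    have hcard : Nat.card ↥(ptsOver x (ρ₀ : C)) = r := Nat.card_coe_set_eq _
    let e : ↥(ptsOver x (ρ₀ : C)) ≃ Fin r := (Finite.equivFin _).trans (finCongr hcard)
    let pt : Fin r → Ideal ↥(Bx (C := C) x) := fun t => ((e.symm t : ↥(ptsOver x (ρ₀ : C))) : _)
    have hpt : ∀ t, pt t ∈ ptsOver x (ρ₀ : C) := fun t => (e.symm t).2
    have hall : ∀ Q ∈ ptsOver x (ρ₀ : C), ∃ t, pt t = Q := fun Q hQ =>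
      ⟨e ⟨Q, hQ⟩, by simp [pt]⟩
    let Λ : Matrix (Fin r) (Fin m) ↥(Algebra.adjoin k {S.red ⟨x, hx⟩}) :=
      Matrix.of fun t i => algebraMap k ↥(Algebra.adjoin k {S.red ⟨x, hx⟩})
        (S.resO ⟨evP (hpt t) ⟨bF i, hbB i⟩,
          evP_mem_O hx hxt hdeg ρ₀.2 (hpt t) ⟨bF i, hbB i⟩ (hbV i)⟩)
    refine ⟨r, Λ, ?_, ?_⟩
    · intro v hv
      obtain ⟨n, z, hz, hpow⟩ := exists_pow_eq_smul hx hxt hdeg (fun i => bF i) hbV hbB (ρ₀ : C)
        ρ₀.2 pt hpt hall v (fun t => hdvdπ.trans (hv t))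
      refine ⟨n, algebraMap k ↥(Algebra.adjoin k {S.red ⟨x, hx⟩}) a⁻¹ • z, hz.smul _, ?_⟩
      have h1 : (∑ i, v i • bt i) = ∑ i, v i • S.red ⟨bF i, hbV i⟩ :=
        Finset.sum_congr rfl fun i _ => by rw [hbt i]
      rw [h1, hpow, smul_smul]
      congr 1
      rw [mul_comm, ← mul_assoc, ← map_mul, inv_mul_cancel₀ ha, map_one, one_mul]
    · intro hpow
      rw [Fintype.card_fin] at hpow
      have h1 : piRho (S.red ⟨x, hx⟩) (S.resO ρ₀) ^ (m - r + 1) ∣ S.psiT hx D₀ :=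
        (pow_dvd_pow_of_dvd hdvdπ _).trans hpow
      rw [psiT_eq hx hxt, pow_dvd_polyEquiv_iff, ← Polynomial.le_rootMultiplicity_iff hD₀ne,
        hmult', Polynomial.le_rootMultiplicity_iff hD₀0] at h1
      exact not_pow_dvd_discr hxC c (ρ₀ : C) (hroot_dvd ρ₀ _ h1)
  -- conclusion
  have hle : Submodule.span ↥(Algebra.adjoin k {S.red ⟨x, hx⟩}) (Set.range bt) ≤ S.Bbar hx := by
    rw [Submodule.span_le]
    rintro _ ⟨i, rfl⟩
    exact (mem_Bbar hx _).2 ⟨bF i, hbV i, hbB i, (hbt i).symm⟩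
  obtain ⟨f, hf, hfi, hfr⟩ := (mem_Bbar hx y).1 (hle (hmain y hy))
  exact ⟨⟨f, hf⟩, hfi, hfr⟩

end RedSetting

/-- **Chart theorem** (modulo (S5)). -/
theorem stmt_chartNormal_of_notDvdDet (hND : Stmt_notDvdDet) : Stmt_chartNormal := by
  intro C F k Ft _ _ _ _ _ _ _ _ _ S x hx hxt hfin hdeg hsep hD y hy
  exact RedSetting.chartNormal_aux hx hND hxt hdeg hD y hy

end Fermat.Agent.RED.H34

end
end
-- ==== END Fermat.Agent.RED.H34_Chart

-- ==== BEGIN Fermat.Agent.RED.H36_FinAbs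
section
attribute [local instance 10000] SubalgebraClass.toAlgebra
attribute [local instance 10000] HahnSeries.powerSeriesAlgebra

/-!
# G-RED, FIN (helper36), abstract part: the reduction map on `Pic⁰`

Setting of `RED/Core.lean`.  For `r` with the conservation law `IsRed O h r`:
* `mapDomain_mem_principal` : `r_*` maps principal divisors to principal divisors;
* `redPic` : the induced map `Pic⁰(F) → Pic(F~)`, `[D] ↦ [r_* D]`;
* `redPic_eq_zero_of_TIcore` : injectivity on torsion prime to `ℓ`, from `TIcoreFor` and the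
  constancy of functions without zeros and poles on the reduced field.
-/

set_option autoImplicit false
set_option synthInstance.maxHeartbeats 400000
set_option maxHeartbeats 1000000

noncomputable section

open AlgebraicCurve ModularCurve Fermat.Agent.S28.H73 Fermat.Agent.RED.H73

namespace Fermat.Agent.RED.H36

variable {C : Type} [Field C] (O : ValuationSubring C)
variable {F : IntermediateField C (LaurentSeries C)} (h : HasScale O F)
variable {r : Place C ↥F → Place (kV O) ↥(redField O F h)}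

/-- Every nonzero function has the divisor of a Gauss unit. -/
theorem exists_unit_ord_eq (f : ↥F) (hf : f ≠ 0) :
    ∃ u : (↥(gaussValSub O F h))ˣ, ∀ P : Place C ↥F,
      P.ord ((u : ↥(gaussValSub O F h)) : ↥F) = P.ord f := by
  obtain ⟨c, u, hc, hfu⟩ := exists_unit_scale O h f hf
  refine ⟨u, fun P => ?_⟩
  rw [hfu, H17.ord_algebraMap_mul P hc]

theorem unit_coe_ne_zero (u : (↥(gaussValSub O F h))ˣ) :
    ((u : ↥(gaussValSub O F h)) : ↥F) ≠ 0 := by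
  intro h0
  have : (u : ↥(gaussValSub O F h)) = 0 := Subtype.ext h0
  exact u.ne_zero this

/-- `r_*` maps principal divisors to principal divisors. -/
theorem mapDomain_mem_principal (hr : IsRed O h r) {D : Divisor C ↥F}
    (hD : D ∈ Divisor.principal (K := C) (F := ↥F)) :
    Finsupp.mapDomain r D ∈ Divisor.principal (K := kV O) (F := ↥(redField O F h)) := by
  obtain ⟨f, hf, hDf⟩ := hD
  obtain ⟨u, hu⟩ := exists_unit_ord_eq O h f hf
  refine ⟨gaussResF' O h u, (H17.gaussResF'_ne_zero_iff_isUnit O h _).mpr u.isUnit, fun Q => ?_⟩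
  exact hr u u.isUnit D (fun P => by rw [hDf P, hu P]) Q

/-- The map `D ↦ [r_* D]` on divisors of degree `0`. -/
def redDegZero (r : Place C ↥F → Place (kV O) ↥(redField O F h)) :
    Divisor.degZero (K := C) (F := ↥F) →+ Pic (kV O) ↥(redField O F h) :=
  (QuotientAddGroup.mk' (Divisor.principal (K := kV O) (F := ↥(redField O F h)))).comp
    ((Finsupp.mapDomain.addMonoidHom r).comp
      (Divisor.degZero (K := C) (F := ↥F)).subtype)

/-- The reduction map `Pic⁰(F) → Pic(F~)`, `[D] ↦ [r_* D]`. -/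
def redPic (hr : IsRed O h r) : Pic0 C ↥F →+ Pic (kV O) ↥(redField O F h) :=
  QuotientAddGroup.lift _ (redDegZero O h r) (by
    rintro ⟨D, hD0⟩ hD
    rw [AddSubgroup.mem_addSubgroupOf] at hD
    show (QuotientAddGroup.mk' _) (Finsupp.mapDomain r D) = 0
    rw [QuotientAddGroup.mk'_apply, QuotientAddGroup.eq_zero_iff]
    exact mapDomain_mem_principal O h hr hD)

theorem redPic_mk (hr : IsRed O h r) (D : Divisor.degZero (K := C) (F := ↥F)) :
    redPic O h hr (Pic0.mk D)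
      = QuotientAddGroup.mk (Finsupp.mapDomain r (D : Divisor C ↥F)) := rfl

theorem redPic_mk_eq_zero_iff (hr : IsRed O h r) (D : Divisor.degZero (K := C) (F := ↥F)) :
    redPic O h hr (Pic0.mk D) = 0 ↔
      Finsupp.mapDomain r (D : Divisor C ↥F)
        ∈ Divisor.principal (K := kV O) (F := ↥(redField O F h)) := by
  rw [redPic_mk, QuotientAddGroup.eq_zero_iff]

/-- **Injectivity on torsion prime to `ℓ`**, from the Kummer form `TIcoreFor`. -/
theorem redPic_eq_zero_of_TIcore [IsAlgClosed (kV O)] (hr : IsRed O h r) {ℓ : ℕ}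
    (hTI : TIcoreFor O h ℓ)
    (hconst : ∀ g : ↥(redField O F h), g ≠ 0 →
      (∀ Q : Place (kV O) ↥(redField O F h), Q.ord g = 0) →
      ∃ c : kV O, g = algebraMap (kV O) ↥(redField O F h) c)
    (m : ℕ) (hm : ¬ ℓ ∣ m) (x : Pic0 C ↥F) (hmx : m • x = 0)
    (hx : redPic O h hr x = 0) : x = 0 := by
  obtain ⟨D, rfl⟩ := Pic0.mk_surjective x
  have hm0 : m ≠ 0 := by
    rintro rfl
    exact hm (dvd_zero ℓ)
  have hmpos : 0 < m := Nat.pos_of_ne_zero hm0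
  have hmZ : (m : ℤ) ≠ 0 := by exact_mod_cast hm0
  -- `m D` is principal
  have hmD : m • (D : Divisor C ↥F) ∈ Divisor.principal (K := C) (F := ↥F) := by
    have h1 : ((m • D : Divisor.degZero (K := C) (F := ↥F)) : Pic0 C ↥F) = 0 := hmx
    rw [QuotientAddGroup.eq_zero_iff, AddSubgroup.mem_addSubgroupOf] at h1
    exact h1
  obtain ⟨f, hf, hDf⟩ := hmD
  obtain ⟨u, hu⟩ := exists_unit_ord_eq O h f hf
  have hu0 := unit_coe_ne_zero O h u
  have hDu : ∀ P : Place C ↥F,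
      (m : ℤ) * (D : Divisor C ↥F) P = P.ord ((u : ↥(gaussValSub O F h)) : ↥F) := by
    intro P
    rw [hu P, ← hDf P, Finsupp.smul_apply, nsmul_eq_mul]
  -- the reduction of `D` is principal
  obtain ⟨y, hy, hDy⟩ := (redPic_mk_eq_zero_iff O h hr D).mp hx
  -- conservation law for `u`
  have hcons : ∀ Q : Place (kV O) ↥(redField O F h),
      Q.ord (gaussResF' O h u) = (m : ℤ) * Q.ord y := by
    intro Q
    have h1 := hr u u.isUnit (m • (D : Divisor C ↥F))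
      (fun P => by rw [Finsupp.smul_apply, nsmul_eq_mul, hDu P]) Q
    rw [← h1, Finsupp.mapDomain_smul, Finsupp.smul_apply, nsmul_eq_mul, hDy Q]
  have hru : gaussResF' O h u ≠ 0 := (H17.gaussResF'_ne_zero_iff_isUnit O h _).mpr u.isUnit
  -- `res u / y ^ m` is a constant
  have hg0 : gaussResF' O h u / y ^ m ≠ 0 := div_ne_zero hru (pow_ne_zero m hy)
  obtain ⟨c, hc⟩ := hconst _ hg0 (fun Q => by
    rw [H17.ord_div Q hru (pow_ne_zero m hy), H17.ord_pow, hcons Q, sub_self])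
  have hc0 : c ≠ 0 := by
    rintro rfl
    rw [map_zero] at hc
    exact hg0 hc
  obtain ⟨d, hd⟩ := IsAlgClosed.exists_pow_nat_eq c hmpos
  have hd0 : d ≠ 0 := by
    rintro rfl
    rw [zero_pow hm0] at hd
    exact hc0 hd.symm
  set y' : ↥(redField O F h) := algebraMap (kV O) ↥(redField O F h) d * y with hy'
  have hy'0 : y' ≠ 0 := mul_ne_zero ((map_ne_zero _).mpr hd0) hy
  have hres : gaussResF' O h u = y' ^ m := by
    rw [hy', mul_pow, ← map_pow, hd, ← hc, div_mul_cancel₀ _ (pow_ne_zero m hy)]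
  -- lift `y'`
  obtain ⟨w, hw⟩ := gaussResF'_surjective O h y'
  have hwu : IsUnit w := (H17.gaussResF'_ne_zero_iff_isUnit O h w).mp (by rw [hw]; exact hy'0)
  obtain ⟨w, rfl⟩ := hwu
  have hw0 := unit_coe_ne_zero O h w
  -- `u' = u / w ^ m` reduces to `1`
  have hres' : gaussResF' O h ((u * (w⁻¹) ^ m : (↥(gaussValSub O F h))ˣ) :
      ↥(gaussValSub O F h)) = 1 := by
    rw [Units.val_mul, Units.val_pow_eq_pow_val, map_mul, map_pow, hres]
    have h1 : gaussResF' O h ((w⁻¹ : (↥(gaussValSub O F h))ˣ) : ↥(gaussValSub O F h))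
        = y'⁻¹ := by
      rw [← hw]
      exact (eq_inv_of_mul_eq_one_left (by rw [← map_mul, Units.inv_mul, map_one]))
    rw [h1, ← mul_pow, mul_inv_cancel₀ hy'0, one_pow]
  have hcoe : (((u * (w⁻¹) ^ m : (↥(gaussValSub O F h))ˣ) : ↥(gaussValSub O F h)) : ↥F)
      = ((u : ↥(gaussValSub O F h)) : ↥F) / ((w : ↥(gaussValSub O F h)) : ↥F) ^ m := by
    rw [Units.val_mul, Units.val_pow_eq_pow_val]
    have h1 : (((w⁻¹ : (↥(gaussValSub O F h))ˣ) : ↥(gaussValSub O F h)) : ↥F)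
        = (((w : ↥(gaussValSub O F h)) : ↥F))⁻¹ := by
      refine eq_inv_of_mul_eq_one_left ?_
      have e1 : ((w⁻¹ : (↥(gaussValSub O F h))ˣ) : ↥(gaussValSub O F h))
          * (w : ↥(gaussValSub O F h)) = 1 := Units.inv_mul w
      exact congrArg (fun z : ↥(gaussValSub O F h) => (z : ↥F)) e1
    show ((u : ↥(gaussValSub O F h)) : ↥F)
        * (((w⁻¹ : (↥(gaussValSub O F h))ˣ) : ↥(gaussValSub O F h)) : ↥F) ^ m = _
    rw [h1, inv_pow, div_eq_mul_inv]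
  have hord : ∀ P : Place C ↥F,
      P.ord (((u * (w⁻¹) ^ m : (↥(gaussValSub O F h))ˣ) : ↥(gaussValSub O F h)) : ↥F)
        = (m : ℤ) * ((D : Divisor C ↥F) P - P.ord ((w : ↥(gaussValSub O F h)) : ↥F)) := by
    intro P
    rw [hcoe, H17.ord_div P hu0 (pow_ne_zero m hw0), H17.ord_pow, ← hDu P]
    ring
  obtain ⟨t, ht⟩ := hTI m hm _ hres' (fun P => ⟨_, hord P⟩)
  have ht0 : t ≠ 0 := by
    rintro rfl
    rw [zero_pow hm0] at ht
    exact unit_coe_ne_zero O h _ ht.symm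
  -- `D = div (t w)`
  have hmem : (D : Divisor C ↥F) ∈ Divisor.principal (K := C) (F := ↥F) := by
    refine ⟨t * ((w : ↥(gaussValSub O F h)) : ↥F), mul_ne_zero ht0 hw0, fun P => ?_⟩
    rw [Place.ord_mul P ht0 hw0]
    have h1 : (m : ℤ) * P.ord t
        = (m : ℤ) * ((D : Divisor C ↥F) P - P.ord ((w : ↥(gaussValSub O F h)) : ↥F)) := by
      rw [← hord P, ← ht, H17.ord_pow]
    have h2 := mul_left_cancel₀ hmZ h1
    omega
  show (QuotientAddGroup.mk D : Pic0 C ↥F) = 0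
  rw [QuotientAddGroup.eq_zero_iff, AddSubgroup.mem_addSubgroupOf]
  exact hmem

end Fermat.Agent.RED.H36

end
end
-- ==== END Fermat.Agent.RED.H36_FinAbs

-- ==== BEGIN Fermat.Agent.RED.H42_Gen5
section

/-!
# G-RED package GEN (helper42), part 5: existence of a lifted basis

`exists_isLift` : if the chart `x` is normal (conclusion of helper34's `Stmt_chartNormal`) and
`Ft / k(xt)` is separable of degree `[F : C(x)]`, there is a lifted basis.
`exists_chart_basis` : the chart `B ∩ V` is the free `O[x]`-module on a lifted basis.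
-/

set_option autoImplicit false

noncomputable section

open Polynomial IntermediateField Module
open scoped IntermediateField.algebraAdjoinAdjoin

namespace Fermat.Agent.RED.H42

open Fermat.Agent.RED.H34 Fermat.Agent.RED.H34.RedSetting

variable {C F k Ft : Type} [Field C] [Field F] [Algebra C F] [Field k] [Field Ft] [Algebra k Ft]
variable {S : RedSetting C F k Ft} {x : F} (hx : x ∈ S.V)

/-- A basis of the integral closure of `k[t]` in a finite separable extension of `k(t)`: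
linearly independent over `k(t)` and spanning the integral elements over `k[t]`. -/
theorem exists_intClosure_basis {k Ft : Type} [Field k] [Field Ft] [Algebra k Ft] {t : Ft}
    (ht : Transcendental k t) [FiniteDimensional ↥k⟮t⟯ Ft] [Algebra.IsSeparable ↥k⟮t⟯ Ft]
    {n : ℕ} (hn : Module.finrank ↥k⟮t⟯ Ft = n) :
    ∃ β : Fin n → Ft, (∀ i, IsIntegral ↥(Algebra.adjoin k {t}) (β i)) ∧
      LinearIndependent ↥k⟮t⟯ β ∧
      ∀ y : Ft, IsIntegral ↥(Algebra.adjoin k {t}) y →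
        ∃ c : Fin n → k[X], y = ∑ i, Polynomial.aeval t (c i) * β i := by
  classical
  have hpid : IsPrincipalIdealRing ↥(Algebra.adjoin k {t}) := isPrincipalIdealRing_adjoin ht
  have hinj : Function.Injective (algebraMap ↥(Algebra.adjoin k {t}) Ft) := Subtype.val_injective
  have htf : Module.IsTorsionFree ↥(Algebra.adjoin k {t}) Ft := by
    rw [Module.isTorsionFree_iff_algebraMap_injective]
    exact hinj
  have hfree : Module.Free ↥(Algebra.adjoin k {t}) ↥(integralClosure ↥(Algebra.adjoin k {t}) Ft) :=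
    IsIntegralClosure.module_free ↥(Algebra.adjoin k {t}) ↥k⟮t⟯ Ft
      ↥(integralClosure ↥(Algebra.adjoin k {t}) Ft)
  have hfin : Module.Finite ↥(Algebra.adjoin k {t})
      ↥(integralClosure ↥(Algebra.adjoin k {t}) Ft) :=
    IsIntegralClosure.finite ↥(Algebra.adjoin k {t}) ↥k⟮t⟯ Ft
      ↥(integralClosure ↥(Algebra.adjoin k {t}) Ft)
  have hrank : Module.finrank ↥(Algebra.adjoin k {t})
      ↥(integralClosure ↥(Algebra.adjoin k {t}) Ft) = n := by
    rw [← hn]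
    exact IsIntegralClosure.rank ↥(Algebra.adjoin k {t}) ↥k⟮t⟯ Ft
      ↥(integralClosure ↥(Algebra.adjoin k {t}) Ft)
  let bt : Module.Basis (Fin n) ↥(Algebra.adjoin k {t})
      ↥(integralClosure ↥(Algebra.adjoin k {t}) Ft) :=
    Module.finBasisOfFinrankEq _ _ hrank
  refine ⟨fun i => ((bt i : ↥(integralClosure ↥(Algebra.adjoin k {t}) Ft)) : Ft),
    fun i => (bt i).2, ?_, ?_⟩
  · rw [← LinearIndependent.iff_fractionRing ↥(Algebra.adjoin k {t}) ↥k⟮t⟯]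
    have h1 := bt.linearIndependent.map'
      ((integralClosure ↥(Algebra.adjoin k {t}) Ft).val.toLinearMap)
      (LinearMap.ker_eq_bot.2 Subtype.val_injective)
    exact h1
  · intro y hy
    have hrep := bt.sum_repr (⟨y, hy⟩ : ↥(integralClosure ↥(Algebra.adjoin k {t}) Ft))
    have hc : ∀ i, ∃ c : k[X], Polynomial.aeval t c =
        ((bt.repr (⟨y, hy⟩ : ↥(integralClosure ↥(Algebra.adjoin k {t}) Ft)) i :
          ↥(Algebra.adjoin k {t})) : Ft) := by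
      intro i
      have h1 : ((bt.repr (⟨y, hy⟩ : ↥(integralClosure ↥(Algebra.adjoin k {t}) Ft)) i :
          ↥(Algebra.adjoin k {t})) : Ft) ∈ (Polynomial.aeval t : k[X] →ₐ[k] Ft).range := by
        rw [← Algebra.adjoin_singleton_eq_range_aeval]
        exact Subtype.mem _
      exact h1
    choose c hc using hc
    refine ⟨c, ?_⟩
    have h2 := congrArg (fun b : ↥(integralClosure ↥(Algebra.adjoin k {t}) Ft) => (b : Ft)) hrep
    simp only [AddSubmonoidClass.coe_finsetSum] at h2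
    rw [← h2]
    refine Finset.sum_congr rfl fun i _ => ?_
    rw [hc]
    rfl

/-- **Existence of a lifted basis** from normality of the chart. -/
theorem exists_isLift (hxt : Transcendental k (S.red ⟨x, hx⟩)) [FiniteDimensional ↥C⟮x⟯ F]
    (hdeg : Module.finrank ↥k⟮S.red ⟨x, hx⟩⟯ Ft = Module.finrank ↥C⟮x⟯ F)
    [Algebra.IsSeparable ↥k⟮S.red ⟨x, hx⟩⟯ Ft]
    (hcn : ∀ y : Ft, IsIntegral ↥(Algebra.adjoin k {S.red ⟨x, hx⟩}) y →
      ∃ f : ↥S.V, IsIntegral ↥(Algebra.adjoin C {x}) (f : F) ∧ S.red f = y) :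
    ∃ e : Fin (Module.finrank ↥C⟮x⟯ F) → F, IsLift hx e := by
  have hpos : 0 < Module.finrank ↥C⟮x⟯ F := Module.finrank_pos
  have hfin : FiniteDimensional ↥k⟮S.red ⟨x, hx⟩⟯ Ft :=
    Module.finite_of_finrank_pos (hdeg ▸ hpos)
  obtain ⟨β, hβint, hβlin, hβspan⟩ := exists_intClosure_basis hxt hdeg
  choose f hfint hfred using fun i => hcn (β i) (hβint i)
  have hfun : (fun i => S.red ⟨((f i : ↥S.V) : F), (f i).2⟩) = β := by
    funext i
    exact hfred i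
  refine ⟨fun i => ((f i : ↥S.V) : F), fun i => (f i).2, hfint, ?_, ?_⟩
  · rw [hfun]
    exact hβlin
  · intro y hy
    obtain ⟨c, hc⟩ := hβspan y hy
    refine ⟨c, ?_⟩
    rw [hc]
    refine Finset.sum_congr rfl fun i _ => ?_
    rw [← hfred i]

/-- **The chart is free over `O[x]`**: there is a lifted basis `e` such that every element of
`B ∩ V` is an `O[x]`-combination of the `e i`. -/
theorem exists_chart_basis [IsAlgClosed C] [CharZero C]
    (hxt : Transcendental k (S.red ⟨x, hx⟩)) [FiniteDimensional ↥C⟮x⟯ F]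
    (hdeg : Module.finrank ↥k⟮S.red ⟨x, hx⟩⟯ Ft = Module.finrank ↥C⟮x⟯ F)
    [Algebra.IsSeparable ↥k⟮S.red ⟨x, hx⟩⟯ Ft]
    (hcn : ∀ y : Ft, IsIntegral ↥(Algebra.adjoin k {S.red ⟨x, hx⟩}) y →
      ∃ f : ↥S.V, IsIntegral ↥(Algebra.adjoin C {x}) (f : F) ∧ S.red f = y) :
    ∃ e : Fin (Module.finrank ↥C⟮x⟯ F) → F, IsLift hx e ∧
      ∀ f : F, f ∈ S.V → IsIntegral ↥(Algebra.adjoin C {x}) f →
        ∃ p : Fin (Module.finrank ↥C⟮x⟯ F) → (↥S.O)[X],
          f = ∑ i, ((psi hx (p i) : ↥S.V) : F) * e i := by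
  obtain ⟨e, he, hspan⟩ := exists_lift_gspan hx hxt hdeg (by simp)
    (exists_isLift hx hxt hdeg hcn)
  exact ⟨e, he, fun f hfV hf => exists_repr_psi hx hxt he f hfV (hspan f hf)⟩

end Fermat.Agent.RED.H42

end
end
-- ==== END Fermat.Agent.RED.H42_Gen5
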