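-- GENERATED (merged mirror, NOTES/tools/trim/merge3_helper67.py): 6 modules of the originals, bodies verbatim.
import Mathlib
import Mathlib.RingTheory.Valuation.Integral
import Mathlib.Algebra.Polynomial.Lifts
import Mathlib.FieldTheory.IsAlgClosed.Basic
import Fermat.Prelude.Def_CuspForm_HeckeAlgebra
import Fermat.Agent.Zm.S35_L09_003
import Fermat.Agent.Zm.S35_L09_000
import Fermat.Agent.Zm.S35_L09_002
import Fermat.Agent.Zm.S35_L06_003
import Fermat.Agent.Zm.S35_L09_001

-- ==== BEGIN Fermat.Agent.BAD.H41_TwSurj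
section

/-!
# Item 65, package ABS, leaf 5: `Stmt_TwSurj` (helper41)

Assembly: `Stmt_Contain → Stmt_Pivot → Stmt_LamCount → Stmt_TwSurj` (with `H41.stmt_Linearise`).

With `D = D_x + G`, `G₁ = r₁_* G`, `G₂ = r₂_* G + Δ`, `R = Rsub ϑ D`:
`deg G + 1 - g ≤ l(D) ≤ dim R ≤ dim Λ^λ(G₁, G₂) ≤ l₁(G₁ - ∑ s₁) + l₂(G₂ - ∑ s₂) + δ
  = deg G + 2 - g₁ - g₂ - δ ≤ deg G + 1 - g`,
hence `R = Λ^λ`.
-/

set_option autoImplicit false
set_option linter.style.haveILetI false

noncomputable section

open AlgebraicCurve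

attribute [local instance] Classical.propDecidable

namespace Fermat.Agent.BAD.H41

open Fermat.Agent.RED.H17 Fermat.Agent.RED Fermat.Agent.BAD

local notation "L" => riemannRochSpace

section Push

variable {K F k F' : Type} [Field K] [Field F] [Algebra K F] [Field k] [Field F']
  [Algebra k F']

/-- The degree of the push-forward along a partial map. -/
theorem degree_some_mapDomain (hdeg : ∀ v : Place k F', v.deg = 1)
    (r : Place K F → Option (Place k F')) (G : Divisor K F) :
    Divisor.degree ((Finsupp.mapDomain r G).some) =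
      G.sum (fun P m => if (r P).isSome then m else 0) := by
  induction G using Finsupp.induction_linear with
  | zero => simp
  | add D E hD hE =>
    rw [Finsupp.mapDomain_add, Finsupp.some_add, map_add, hD, hE,
      Finsupp.sum_add_index' (fun a => by simp) (fun a b c => by split_ifs <;> simp)]
  | single P m =>
    rw [Finsupp.mapDomain_single, Finsupp.sum_single_index (by simp)]
    cases h : r P with
    | none => simp [Finsupp.some_single_none]
    | some Q => simp [Finsupp.some_single_some, hdeg]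

/-- The push-forward vanishes at `Q` if no place of the support reduces to `Q`. -/
theorem some_mapDomain_eq_zero (r : Place K F → Option (Place k F')) (G : Divisor K F)
    (Q : Place k F') (h : ∀ P, G P ≠ 0 → r P ≠ some Q) :
    (Finsupp.mapDomain r G).some Q = 0 := by
  rw [Finsupp.some_apply, mapDomain_apply_eq_sum]
  refine Finset.sum_eq_zero fun P hP => ?_
  rw [if_neg (h P (Finsupp.mem_support_iff.mp hP))]

end Push

section Main

variable {K F k F₁ F₂ : Type} [Field K] [Field F] [Algebra K F] [Field k] [Field F₁]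
  [Algebra k F₁] [Field F₂] [Algebra k F₂] (S : SSD K F k F₁ F₂)

/-- In good position, the degrees of the two push-forwards add up to the degree. -/
theorem degree_push_add (H : FFHyp K F) (H₁ : FFHyp k F₁) (H₂ : FFHyp k F₂)
    (G : Divisor K F) (hG : S.GoodPos G) :
    Divisor.degree (S.push₁ G) + Divisor.degree (S.push₂ G) = Divisor.degree G := by
  unfold SSD.push₁ SSD.push₂
  rw [degree_some_mapDomain H₁.deg_one, degree_some_mapDomain H₂.deg_one,
    degree_eq_sum H.deg_one]
  unfold Finsupp.sum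
  rw [← Finset.sum_add_distrib]
  refine Finset.sum_congr rfl fun P hP => ?_
  have hP0 : G P ≠ 0 := Finsupp.mem_support_iff.mp hP
  have hnode := hG P hP0
  rcases S.r_cases P with ⟨Q, _, h1, h2⟩ | ⟨Q, _, h2, h1⟩ | ⟨s, hs, h1, _⟩
  · simp only [h1, h2]; simp
  · simp only [h1, h2]; simp
  · exact absurd ⟨s, hs, h1⟩ hnode

theorem push₁_node (G : Divisor K F) (hG : S.GoodPos G) {s : Place k F₁ × Place k F₂}
    (hs : s ∈ S.nodes) : S.push₁ G s.1 = 0 := by
  unfold SSD.push₁
  refine some_mapDomain_eq_zero _ _ _ fun P hP h => ?_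
  exact hG P hP ⟨s, hs, h⟩

theorem push₂_node (G : Divisor K F) (hG : S.GoodPos G) {s : Place k F₁ × Place k F₂}
    (hs : s ∈ S.nodes) : S.push₂ G s.2 = 0 := by
  unfold SSD.push₂
  refine some_mapDomain_eq_zero _ _ _ fun P hP h => ?_
  exact hG P hP (S.isNodeP_iff₂.mpr ⟨s, hs, h⟩)

theorem card_br₁ : S.br₁.card = S.nodes.card := by
  unfold SSD.br₁
  exact Finset.card_image_of_injOn fun s hs s' hs' h => S.inj₁ s hs s' hs' h

theorem card_br₂ : S.br₂.card = S.nodes.card := by
  unfold SSD.br₂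
  exact Finset.card_image_of_injOn fun s hs s' hs' h => S.inj₂ s hs s' hs' h

variable {S}

/-- `n • D_x = div f`. -/
theorem nsmul_Dx {n : ℕ} (x : S.Twist n) (hP : HasPrincipalDivisors K F) :
    (n : ℤ) • x.Dx hP = dv hP x.f := by
  ext P
  rw [Finsupp.smul_apply, SSD.Twist.Dx, Finsupp.mapRange_apply, dv_apply, smul_eq_mul]
  exact Int.mul_ediv_cancel' (x.hdiv P)

theorem degree_Dx {n : ℕ} (hn : n ≠ 0) (x : S.Twist n) (hP : HasPrincipalDivisors K F) :
    Divisor.degree (x.Dx hP) = 0 := by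
  have h := congrArg Divisor.degree (nsmul_Dx x hP)
  rw [map_zsmul, degree_dv, smul_eq_mul] at h
  rcases mul_eq_zero.mp h with h0 | h0
  · exact absurd (by exact_mod_cast h0) hn
  · exact h0

theorem γ_ne_zero {n : ℕ} (x : S.Twist n) : x.γ ≠ 0 := x.hf₂.rd_ne_zero

/-- All orders of `γ` are divisible by `n`. -/
theorem dvd_ord_γ {n : ℕ} (x : S.Twist n) (hP : HasPrincipalDivisors K F)
    (Q : Place k F₂) : (n : ℤ) ∣ Q.ord x.γ := by
  by_cases hQ : Q ∈ S.c₂.good
  · have h := S.c₂.ord_rd_eq_sum hP x.hf₂ Q hQ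
    unfold SSD.Twist.γ
    rw [h]
    refine Finset.dvd_sum fun P _ => ?_
    split_ifs
    · have hf0 : x.f ≠ 0 := by
        intro h0
        have := x.hf₂.ne_zero
        rw [h0, zero_div] at this
        exact this rfl
      rw [ord_div P hf0 (pow_ne_zero n x.hϑ), ord_pow]
      exact dvd_sub (x.hdiv P) (dvd_mul_right _ _)
    · exact dvd_zero _
  · rw [S.good₂] at hQ
    push Not at hQ
    obtain ⟨s, hs, rfl⟩ := hQ
    have := x.hγ s hs
    unfold SSD.Twist.γ
    rw [this]
    exact dvd_zero _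

theorem nsmul_Δ {n : ℕ} (x : S.Twist n) (hP : HasPrincipalDivisors K F)
    (hP₂ : HasPrincipalDivisors k F₂) : (n : ℤ) • x.Δ hP₂ = dv hP₂ x.γ := by
  ext Q
  rw [Finsupp.smul_apply, SSD.Twist.Δ, Finsupp.mapRange_apply, dv_apply, smul_eq_mul]
  exact Int.mul_ediv_cancel' (dvd_ord_γ x hP Q)

theorem degree_Δ {n : ℕ} (hn : n ≠ 0) (x : S.Twist n) (hP : HasPrincipalDivisors K F)
    (hP₂ : HasPrincipalDivisors k F₂) : Divisor.degree (x.Δ hP₂) = 0 := by
  have h := congrArg Divisor.degree (nsmul_Δ x hP hP₂)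
  rw [map_zsmul, degree_dv, smul_eq_mul] at h
  rcases mul_eq_zero.mp h with h0 | h0
  · exact absurd (by exact_mod_cast h0) hn
  · exact h0

theorem Δ_node {n : ℕ} (x : S.Twist n) (hP₂ : HasPrincipalDivisors k F₂)
    {s : Place k F₁ × Place k F₂} (hs : s ∈ S.nodes) : x.Δ hP₂ s.2 = 0 := by
  rw [SSD.Twist.Δ, Finsupp.mapRange_apply, dv_apply]
  have := x.hγ s hs
  unfold SSD.Twist.γ
  rw [this]
  simp

variable (S)

/-- `Λ^λ(G₁, G₂) ≤ L(G₁) × L(G₂)`. -/
theorem Lam_le_prod (lam : Place k F₁ × Place k F₂ → k) (G₁ : Divisor k F₁)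
    (G₂ : Divisor k F₂) : S.Lam lam G₁ G₂ ≤ (L G₁).prod (L G₂) := by
  intro ψ hψ
  exact ⟨hψ.1, hψ.2.1⟩

theorem finite_Lam (H₁ : FFHyp k F₁) (H₂ : FFHyp k F₂)
    (lam : Place k F₁ × Place k F₂ → k) (G₁ : Divisor k F₁) (G₂ : Divisor k F₂) :
    Module.Finite k (S.Lam lam G₁ G₂) := by
  haveI := H₁.finite G₁
  haveI := H₂.finite G₂
  have hfg : ((L G₁).prod (L G₂)).FG :=
    Submodule.FG.prod (Module.Finite.iff_fg.mp (H₁.finite G₁))
      (Module.Finite.iff_fg.mp (H₂.finite G₂))
  haveI : Module.Finite k ((L G₁).prod (L G₂)) := Module.Finite.iff_fg.mpr hfg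
  exact Submodule.finiteDimensional_of_le (Lam_le_prod S lam G₁ G₂)

end Main

/-- **P3, surjectivity of the twisted reduction** from the leaves `Contain`, `Pivot`,
`LamCount` (and `Linearise`). -/
theorem stmt_TwSurj_of (hC : Stmt_Contain) (hPiv : Stmt_Pivot) (hLC : Stmt_LamCount) :
    Stmt_TwSurj := by
  intro K F k F₁ F₂ _ _ _ _ _ _ _ _ _ S H H₁ H₂ g g₁ g₂ c c₁ c₂ hg hg₁ hg₂ hnum n hn x G hG
    hd₁ hd₂
  have hn0 : n ≠ 0 := by
    rintro rfl
    exact hn (by simp)
  -- linearisation of the gluing condition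
  have hcont := hC K F k F₁ F₂ S H H₁ H₂ n hn x G hG
  obtain ⟨lam, hlam, hlin⟩ := stmt_Linearise k F₁ F₂ H₁ H₂ S.nodes n hn x.γ (γ_ne_zero x)
    (fun s hs => x.hγ s hs) (S.Rsub x.ϑ (x.Dx H.principal + G))
    (fun ψ hψ s hs => (hcont ψ hψ).2.2 s hs)
  refine ⟨lam, hlam, ?_⟩
  set D : Divisor K F := x.Dx H.principal + G with hD
  set G₁ : Divisor k F₁ := S.push₁ G with hG₁
  set G₂ : Divisor k F₂ := S.push₂ G + x.Δ H₂.principal with hG₂
  have hle : S.Rsub x.ϑ D ≤ S.Lam lam G₁ G₂ := by
    intro ψ hψ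
    exact ⟨(hcont ψ hψ).1, (hcont ψ hψ).2.1, fun s hs => hlin ψ hψ s hs⟩
  haveI hfinLam : Module.Finite k (S.Lam lam G₁ G₂) := finite_Lam S H₁ H₂ lam G₁ G₂
  haveI hfinR : Module.Finite k (S.Rsub x.ϑ D) := Submodule.finiteDimensional_of_le hle
  -- the four inequalities
  have h1 : Divisor.degree D + 1 - g ≤ (Module.finrank K (L D) : ℤ) := (hg D).1
  have hdegD : Divisor.degree D = Divisor.degree G := by
    rw [hD, map_add, degree_Dx hn0 x H.principal, zero_add]
  have h2 : Module.finrank K (L D) ≤ Module.finrank k (S.Rsub x.ϑ D) :=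
    hPiv K F k F₁ F₂ S H H₁ H₂ x.ϑ x.hϑ D hfinR
  have h3 : Module.finrank k (S.Rsub x.ϑ D) ≤ Module.finrank k (S.Lam lam G₁ G₂) :=
    Submodule.finrank_mono hle
  have hG₁node : ∀ s ∈ S.nodes, G₁ s.1 = 0 := fun s hs => push₁_node S G hG hs
  have hG₂node : ∀ s ∈ S.nodes, G₂ s.2 = 0 := by
    intro s hs
    rw [hG₂, Finsupp.add_apply, push₂_node S G hG hs, Δ_node x H₂.principal hs, add_zero]
  have h4 := hLC K F k F₁ F₂ S H₁ H₂ lam hlam G₁ G₂ hG₁node hG₂node
  -- Riemann equality on the two components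
  have hdG₂ : Divisor.degree G₂ = Divisor.degree (S.push₂ G) := by
    rw [hG₂, map_add, degree_Δ hn0 x H.principal H₂.principal, add_zero]
  have e1 : (Module.finrank k (L (G₁ - ptsDiv S.br₁)) : ℤ) =
      Divisor.degree G₁ - S.nodes.card + 1 - g₁ := by
    have hdeg : Divisor.degree (G₁ - ptsDiv S.br₁) = Divisor.degree G₁ - S.nodes.card := by
      rw [map_sub, degree_ptsDiv H₁.deg_one, card_br₁]
    have := (hg₁ (G₁ - ptsDiv S.br₁)).2 (by rw [hdeg]; linarith)
    rw [this, hdeg]
  have e2 : (Module.finrank k (L (G₂ - ptsDiv S.br₂)) : ℤ) =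
      Divisor.degree G₂ - S.nodes.card + 1 - g₂ := by
    have hdeg : Divisor.degree (G₂ - ptsDiv S.br₂) = Divisor.degree G₂ - S.nodes.card := by
      rw [map_sub, degree_ptsDiv H₂.deg_one, card_br₂]
    have := (hg₂ (G₂ - ptsDiv S.br₂)).2 (by rw [hdeg, hdG₂]; linarith)
    rw [this, hdeg]
  have hsum := degree_push_add S H H₁ H₂ G hG
  have h2' : (Module.finrank K (L D) : ℤ) ≤ (Module.finrank k (S.Rsub x.ϑ D) : ℤ) := by
    exact_mod_cast h2
  have h3' : (Module.finrank k (S.Rsub x.ϑ D) : ℤ) ≤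
      (Module.finrank k (S.Lam lam G₁ G₂) : ℤ) := by exact_mod_cast h3
  have h4' : (Module.finrank k (S.Lam lam G₁ G₂) : ℤ) ≤
      (Module.finrank k (L (G₁ - ptsDiv S.br₁)) : ℤ) +
        (Module.finrank k (L (G₂ - ptsDiv S.br₂)) : ℤ) + S.nodes.card := by
    exact_mod_cast h4
  have hnum' : (g : ℤ) + 1 ≤ g₁ + g₂ + S.nodes.card := by exact_mod_cast hnum
  have hfr : (Module.finrank k (S.Lam lam G₁ G₂) : ℤ) =
      Divisor.degree G + 2 - g₁ - g₂ - S.nodes.card := by
    rw [e1, e2, hdG₂] at h4'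
    have hG₁' : Divisor.degree G₁ = Divisor.degree (S.push₁ G) := rfl
    rw [hG₁'] at h4'
    linarith
  have heq : Module.finrank k (S.Rsub x.ϑ D) = Module.finrank k (S.Lam lam G₁ G₂) := by
    have : (Module.finrank k (S.Rsub x.ϑ D) : ℤ) = (Module.finrank k (S.Lam lam G₁ G₂) : ℤ) := by
      linarith
    exact_mod_cast this
  exact ⟨Submodule.eq_of_le_of_finrank_eq hle heq, hfr⟩

end Fermat.Agent.BAD.H41

end
end
-- ==== END Fermat.Agent.BAD.H41_TwSurj

-- ==== BEGIN Fermat.Agent.RED.H51_NormStmt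
section

/-!
# FF-B (helper51): the norm formula `φ_* (div f) = div (N f)`

* `stmt_FFB_norm_of : H42.ZerosAll → Stmt_FFB_norm`;
* `norm_value_fiber` : the local norm formula for values, over function fields.
-/

set_option autoImplicit false
set_option linter.style.haveILetI false

noncomputable section

open AlgebraicCurve IntermediateField

namespace Fermat.Agent.RED.H51

section Main

variable {K F F' : Type*} [Field K] [Field F] [Field F'] [Algebra K F] [Algebra K F']
  [Algebra F F'] [IsScalarTower K F F'] [Module.Finite F F']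

open Fermat.Agent.S24 in
/-- The norm formula from the zeros theorem. -/
theorem pushforwardNormFormula_of_zeros [IsAlgClosed K] [HasPrincipalDivisors K F']
    (hzF : H59.ZerosStmt K F) (hzF' : H59.ZerosStmt K F')
    {x₀ : F} (hx₀ : Transcendental K x₀) [FiniteDimensional K⟮x₀⟯ F]
    {x₀' : F'} (hx₀' : Transcendental K x₀') [FiniteDimensional K⟮x₀'⟯ F'] :
    Divisor.PushforwardNormFormula K F F' := by
  classical
  intro f hf D hD v
  have hdegF : ∀ u : Place K F, u.deg = 1 := fun u => ff_deg_eq_one x₀ hx₀ u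
  have hdegF' : ∀ w : Place K F', w.deg = 1 := fun w => ff_deg_eq_one x₀' hx₀' w
  have hsum := sum_ramificationIndex_eq hzF hzF' hx₀ hx₀' v (v.fiber F')
    (fun w => Place.mem_fiber)
  rw [norm_ord v (v.fiber F') (fun w hw => Place.mem_fiber.mp hw) hsum hdegF' hf,
    Divisor.pushforward_apply]
  have hin : ∀ w : Place K F', w.inertiaDeg F = 1 := by
    intro w
    have h := w.deg_restrict_mul_inertiaDeg (F := F)
    rw [hdegF, hdegF', one_mul] at h
    exact h
  have h1 : ∑ w ∈ D.support, (if w.restrict F = v then D w * (w.inertiaDeg F : ℤ) else 0)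
      = ∑ w ∈ D.support.filter (fun w => w.restrict F = v), w.ord f := by
    rw [Finset.sum_filter]
    refine Finset.sum_congr rfl fun w _ => ?_
    rw [hin w, Nat.cast_one, mul_one, hD w]
  rw [h1]
  refine Finset.sum_subset ?_ ?_
  · intro w hw
    exact Place.mem_fiber.mpr (Finset.mem_filter.mp hw).2
  · intro w hw hnot
    have hw' : w.restrict F = v := Place.mem_fiber.mp hw
    have : w ∉ D.support := fun h' => hnot (Finset.mem_filter.mpr ⟨h', hw'⟩)
    rw [Finsupp.notMem_support_iff, hD w] at this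
    exact this

open Fermat.Agent.S24 in
/-- **Local norm formula for values** over function fields: if `h` has the value `c w` at every
place `w` over `v`, then `N(h)` has the value `∏_{w | v} (c w) ^ e(w | v)` at `v`. -/
theorem norm_value_fiber [IsAlgClosed K] [HasPrincipalDivisors K F']
    (hzF : H59.ZerosStmt K F) (hzF' : H59.ZerosStmt K F')
    {x₀ : F} (hx₀ : Transcendental K x₀) [FiniteDimensional K⟮x₀⟯ F]
    {x₀' : F'} (hx₀' : Transcendental K x₀') [FiniteDimensional K⟮x₀'⟯ F']
    (v : Place K F) (h : F') (c : Place K F' → K)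
    (hc : ∀ w : Place K F', w.restrict F = v → OrdGe w 1 (h - algebraMap K F' (c w))) :
    OrdGe v 1 (Algebra.norm F h
      - algebraMap K F (∏ w ∈ v.fiber F', c w ^ w.ramificationIndex F)) :=
  norm_value v (v.fiber F') (fun _ hw => Place.mem_fiber.mp hw)
    (sum_ramificationIndex_eq hzF hzF' hx₀ hx₀' v (v.fiber F') (fun _ => Place.mem_fiber))
    h c fun w hw => hc w (Place.mem_fiber.mp hw)

end Main

/-- `Stmt_FFB_norm` from the zeros theorem. -/
theorem stmt_FFB_norm_of (hz : Fermat.Agent.RED.H42.ZerosAll) :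
    Fermat.Agent.RED.Stmt_FFB_norm := by
  intro K F F' _ _ _ _ _ _ hFF hFF' φ hfin
  have hzF := hz K F hFF
  have hzF' := hz K F' hFF'
  haveI : HasPrincipalDivisors K F' := Fermat.Agent.RED.H42.stmt_FFB_principal_of hz K F' hFF'
  obtain ⟨x₀, hx₀, hfin₀⟩ := hFF
  obtain ⟨x₀', hx₀', hfin₀'⟩ := hFF'
  haveI : FiniteDimensional K⟮x₀⟯ F := hfin₀
  haveI : FiniteDimensional K⟮x₀'⟯ F' := hfin₀'
  unfold NormFormulaAlong
  letI := algebraAlong φ
  haveI := isScalarTower_along φ
  haveI : Module.Finite F F' := hfin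
  exact pushforwardNormFormula_of_zeros hzF hzF' hx₀ hx₀'

end Fermat.Agent.RED.H51

end
end
-- ==== END Fermat.Agent.RED.H51_NormStmt

-- ==== BEGIN Fermat.Agent.RED.H73_GAMainC
section

/-!
# G-RED package GA (helper73): `Stmt_GA` from the conjugate data over `ℚ̄`

`stmt_GA_of_CAL : Stmt_CAL → Stmt_GA`.
-/

set_option autoImplicit false

open Polynomial ModularCurve Fermat.Agent.S28 Fermat.Agent.S28.H73

noncomputable section

namespace Fermat.Agent.RED.H73

/-- The residue field of a valuation subring of an algebraically closed field is algebraically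
closed. -/
theorem isAlgClosed_kV {F : Type} [Field F] [IsAlgClosed F] (A : ValuationSubring F) :
    IsAlgClosed (kV A) := by
  apply IsAlgClosed.of_exists_root
  intro p hp hirr
  obtain ⟨q, hq, hqdeg, hqm⟩ := lifts_and_natDegree_eq_and_monic
    (mem_lifts_of_surjective (IsLocalRing.residue_surjective (R := A)) p) hp
  have hdeg : (q.map (algebraMap A F)).degree ≠ 0 := by
    rw [degree_map_eq_of_injective (FaithfulSMul.algebraMap_injective A F),
      degree_eq_natDegree hqm.ne_zero, hqdeg]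
    have := hirr.natDegree_pos
    exact_mod_cast this.ne'
  obtain ⟨x, hx⟩ := IsAlgClosed.exists_root (q.map (algebraMap A F)) hdeg
  have hxA : x ∈ A := by
    have hint : IsIntegral A x := ⟨q, hqm, by rw [eval₂_eq_eval_map]; exact hx⟩
    obtain ⟨a, ha⟩ := IsIntegrallyClosed.isIntegral_iff.mp hint
    rw [← ha]
    exact a.2
  refine ⟨IsLocalRing.residue A ⟨x, hxA⟩, ?_⟩
  have h1 : q.eval (⟨x, hxA⟩ : A) = 0 := by
    apply FaithfulSMul.algebraMap_injective A F
    rw [map_zero, ← hx, eval_map, ← eval₂_hom]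
    rfl
  rw [← hq, eval_map, eval₂_hom, h1, map_zero]

/-- **GA, main theorem**, for every algebraically closed `L` with conjugate data. -/
theorem redField_laurentBaseChange_eq {L : Type} [Field L] [IsAlgClosed L] [Algebra ℚ L]
    (A : ValuationSubring L) {N : ℕ} [NeZero N] (hN : ((N : L))⁻¹ ∈ A) (D : CADataL L N) :
    redField A (laurentBaseChange L (modularFunctionFieldFull N)) (hasScale_laurentBaseChange A N)
      = modularFunctionFieldFullC (kV A) N := by
  have : IsAlgClosed (kV A) := isAlgClosed_kV A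
  have : Infinite (kV A) := IsAlgClosed.instInfinite
  rw [redField_congr A (laurentBaseChange_full_eq N) (hasScale_laurentBaseChange A N)
    (hasScale_fullC A N)]
  exact redField_fullC_eq A hN D

/-- **`Stmt_GA` from the conjugate data over `ℚ̄`.** -/
theorem stmt_GA_of_CAL (h : Stmt_CAL) : Stmt_GA := by
  intro N ℓ _ hℓ hℓN A hA
  obtain ⟨D⟩ := h N
  exact redField_laurentBaseChange_eq A (inv_natCast_mem_of_liesOver A N hℓ hℓN hA) D

end Fermat.Agent.RED.H73

end
end
-- ==== END Fermat.Agent.RED.H73_GAMainC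

-- ==== BEGIN Fermat.Agent.RED.H79_ConsGlue
section

/-!
# G-RED package CONS, C7 (helper79): glueing of two charts

Charts `x` and `x'` with `x' * (x - c₀) = 1`, `c₀ ∈ O`.  Given reductions `r₁`, `r₂` on the two
charts (`RedTo`) with conservation on each chart (`ChartCons`), the map
`r P := if InChart S x P then r₁ P else r₂ P` satisfies the conservation law `IsRedAbs S r`.
No consistency on the overlap is needed.
-/

set_option autoImplicit false
set_option linter.style.haveILetI false

noncomputable section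

open AlgebraicCurve IsDedekindDomain WithZero IntermediateField

namespace Fermat.Agent.RED.H79

open Fermat.Agent.RED.H34 Fermat.Agent.RED.H51

open Classical in
theorem mapDomain_apply_eq_sum {α β : Type*} (r : α → β) (D : α →₀ ℤ) (Q : β) :
    Finsupp.mapDomain r D Q = ∑ P ∈ D.support, if r P = Q then D P else 0 := by
  classical
  rw [Finsupp.mapDomain, Finsupp.sum, Finsupp.finsetSum_apply]
  refine Finset.sum_congr rfl fun P _ => ?_
  rw [Finsupp.single_apply]

section Glue

variable {C F k Ft : Type} [Field C] [Field F] [Algebra C F] [Field k] [Field Ft] [Algebra k Ft]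
variable (S : RedSetting C F k Ft) {x x' : F} (hx : x ∈ S.V) (hx' : x' ∈ S.V) (c₀ : ↥S.O)

/-- (A) A place outside the chart `x` lies in the chart `x'`, with value in `m_O`. -/
theorem inChart_inv_of_not_inChart [IsAlgClosed C] (hxC : Transcendental C x)
    [FiniteDimensional C⟮x⟯ F] (hxx' : x' * (x - algebraMap C F (c₀ : C)) = 1)
    (P : Place C F) (hP : ¬ InChart S x P) :
    ∃ a' : ↥S.O, S.resO a' = 0 ∧ OrdGe P 1 (x' - algebraMap C F (a' : C)) := by
  have hx'inv : x' = (x - algebraMap C F (c₀ : C))⁻¹ := eq_inv_of_mul_eq_one_left hxx'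
  have hne : x - algebraMap C F (c₀ : C) ≠ 0 := by
    intro h
    rw [h, mul_zero] at hxx'
    exact zero_ne_one hxx'
  by_cases hxP : x ∈ P.toValuationSubring
  · have hdeg : P.deg = 1 := Fermat.Agent.S24.ff_deg_eq_one x hxC P
    obtain ⟨a, ha⟩ := exists_value P hdeg ((ordGe_zero_iff_mem P x).2 hxP)
    have haV : algebraMap C F a ∉ S.V := fun h => hP ⟨a, h, ha⟩
    have haV' : algebraMap C F (a - c₀) ∉ S.V := by
      intro h
      apply haV
      have : algebraMap C F a = algebraMap C F (a - c₀) + algebraMap C F (c₀ : C) := by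
        rw [← map_add, sub_add_cancel]
      rw [this]
      exact add_mem h c₀.2
    obtain ⟨b, hb, hb0⟩ := exists_inv_of_not_mem S haV'
    have hac : a - (c₀ : C) ≠ 0 := by
      intro h
      apply haV'
      rw [h, map_zero]
      exact zero_mem _
    have hacF : algebraMap C F (a - c₀) ≠ 0 := by
      rwa [ne_eq, map_eq_zero_iff _ (algebraMap C F).injective]
    refine ⟨b, hb0, ?_⟩
    -- `ord_P (x - c₀) = 0`
    have h0 : P.ord (x - algebraMap C F (c₀ : C)) = 0 := by
      have e : x - algebraMap C F (c₀ : C)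
          = algebraMap C F (a - c₀) + (x - algebraMap C F a) := by
        rw [map_sub]; ring
      rw [e, (ord_add_eq P hacF (by rw [ord_algebraMap]; simpa using ha)).2, ord_algebraMap]
    have h1 : OrdGe P 0 x' := by
      refine Or.inr ?_
      rw [hx'inv, P.ord_inv, h0]
      simp
    have e : x' - algebraMap C F (b : C)
        = (algebraMap C F (-(b : C)) * x') * (x - algebraMap C F a) := by
      have hb' : algebraMap C F (b : C) * algebraMap C F (a - c₀) = 1 := by
        rw [hb, ← map_mul, inv_mul_cancel₀ hac, map_one]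
      rw [map_sub] at hb'
      rw [map_neg]
      linear_combination (algebraMap C F (b : C)) * hxx' - x' * hb'
    rw [e]
    have := ((ordGe_algebraMap P (-(b : C))).mul h1).mul ha
    simpa using this
  · refine ⟨0, map_zero _, ?_⟩
    have h1 : x - algebraMap C F (c₀ : C) ∉ P.toValuationSubring := by
      intro h
      apply hxP
      have : x = (x - algebraMap C F (c₀ : C)) + algebraMap C F (c₀ : C) := by ring
      rw [this]
      exact add_mem h (P.algebraMap_mem' _)
    have h2 := (not_mem_iff_ord_neg P).1 h1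
    refine Or.inr ?_
    simp only [ZeroMemClass.coe_zero, map_zero, sub_zero]
    rw [hx'inv, P.ord_inv]
    omega

/-- `red x' * (xt - c₀~) = 1`. -/
theorem red_mul_eq_one (hxx' : x' * (x - algebraMap C F (c₀ : C)) = 1) :
    S.red ⟨x', hx'⟩ * (S.red ⟨x, hx⟩ - algebraMap k Ft (S.resO c₀)) = 1 := by
  have h : (⟨x', hx'⟩ : ↥S.V) * (⟨x, hx⟩ - S.inclO c₀) = 1 := Subtype.ext hxx'
  have := congrArg S.red h
  rwa [map_mul, map_sub, S.red_inclO, map_one] at this

/-- (C) If `Q` is not finite over `xt`, then `red x'` vanishes at `Q`. -/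
theorem ordGe_red_inv (hxx' : x' * (x - algebraMap C F (c₀ : C)) = 1) (Q : Place k Ft)
    (hQ : S.red ⟨x, hx⟩ ∉ Q.toValuationSubring) : OrdGe Q 1 (S.red ⟨x', hx'⟩) := by
  have h1 : S.red ⟨x, hx⟩ - algebraMap k Ft (S.resO c₀) ∉ Q.toValuationSubring := by
    intro h
    apply hQ
    have : S.red ⟨x, hx⟩ = (S.red ⟨x, hx⟩ - algebraMap k Ft (S.resO c₀))
        + algebraMap k Ft (S.resO c₀) := by ring
    rw [this]
    exact add_mem h (Q.algebraMap_mem' _)
  have h2 := (not_mem_iff_ord_neg Q).1 h1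
  have h3 : S.red ⟨x', hx'⟩ = (S.red ⟨x, hx⟩ - algebraMap k Ft (S.resO c₀))⁻¹ :=
    eq_inv_of_mul_eq_one_left (red_mul_eq_one S hx hx' c₀ hxx')
  refine Or.inr ?_
  rw [h3, Q.ord_inv]
  omega

/-- (B) If `red x'` vanishes at `Q`, then `Q` is not finite over `xt`. -/
theorem not_mem_of_ordGe_red_inv (hxx' : x' * (x - algebraMap C F (c₀ : C)) = 1)
    (Q : Place k Ft) (hQ : OrdGe Q 1 (S.red ⟨x', hx'⟩)) :
    S.red ⟨x, hx⟩ ∉ Q.toValuationSubring := by
  intro h
  have h1 : OrdGe Q 0 (S.red ⟨x, hx⟩ - algebraMap k Ft (S.resO c₀)) :=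
    ((ordGe_zero_iff_mem Q _).2 h).sub (ordGe_algebraMap Q _)
  have h2 := hQ.mul h1
  rw [red_mul_eq_one S hx hx' c₀ hxx'] at h2
  rcases h2 with h2 | h2
  · exact one_ne_zero h2
  · rw [Q.ord_one] at h2
    omega

/-- (B') The reduction on the chart `x'` of a place outside the chart `x` is not finite
over `xt`. -/
theorem not_mem_of_redTo [IsAlgClosed C] (hxC : Transcendental C x)
    [FiniteDimensional C⟮x⟯ F] (hxx' : x' * (x - algebraMap C F (c₀ : C)) = 1)
    (P : Place C F) (hP : ¬ InChart S x P) (Q : Place k Ft) (hPQ : RedTo S x' hx' P Q) :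
    S.red ⟨x, hx⟩ ∉ Q.toValuationSubring := by
  obtain ⟨a', ha'0, ha'⟩ := inChart_inv_of_not_inChart S c₀ hxC hxx' P hP
  have h1 := hPQ.2 ⟨x', hx'⟩ (isIntegral_gen x') a' ha'
  rw [ha'0, map_zero, sub_zero] at h1
  exact not_mem_of_ordGe_red_inv S hx hx' c₀ hxx' Q h1

/-- (D) A place in both charts does not reduce, on the chart `x'`, to a place which is not
finite over `xt`. -/
theorem mem_of_redTo_of_inChart (hxx' : x' * (x - algebraMap C F (c₀ : C)) = 1)
    (P : Place C F) (hP : InChart S x P) (hP' : InChart S x' P) (Q : Place k Ft)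
    (hPQ : RedTo S x' hx' P Q) : S.red ⟨x, hx⟩ ∈ Q.toValuationSubring := by
  by_contra hQ
  obtain ⟨a, haV, ha⟩ := hP
  obtain ⟨a', haV', ha'⟩ := hP'
  -- `a' (a - c₀) = 1`
  have h1 : OrdGe P 1 (algebraMap C F (1 - a' * (a - (c₀ : C)))) := by
    have e : algebraMap C F (1 - a' * (a - (c₀ : C)))
        = (x' - algebraMap C F a') * (x - algebraMap C F (c₀ : C))
          + algebraMap C F a' * (x - algebraMap C F a) := by
      rw [map_sub, map_one, map_mul, map_sub]
      linear_combination (-1 : F) * hxx'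
    rw [e]
    have hx0 : OrdGe P 0 (x - algebraMap C F (c₀ : C)) := by
      have h1 : OrdGe P 0 (x - algebraMap C F a) := ha.mono (by norm_num)
      have h2 : OrdGe P 0 (algebraMap C F (a - (c₀ : C))) := ordGe_algebraMap P _
      have := h1.add h2
      rw [map_sub] at this
      have e2 : x - algebraMap C F a + (algebraMap C F a - algebraMap C F (c₀ : C))
          = x - algebraMap C F (c₀ : C) := by ring
      rwa [e2] at this
    have t1 := ha'.mul hx0
    have t2 := (ordGe_algebraMap P a').mul ha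
    have := t1.add (t2.mono (by norm_num : (1 : ℤ) + 0 ≤ 0 + 1))
    simpa using this
  have h2 := const_eq_zero_of_ordGe_one P _ h1
  have h3 := hPQ.2 ⟨x', hx'⟩ (isIntegral_gen x') ⟨a', haV'⟩ ha'
  have h4 := ordGe_red_inv S hx hx' c₀ hxx' Q hQ
  have h5 : OrdGe Q 1 (algebraMap k Ft (S.resO ⟨a', haV'⟩)) := by
    have := h4.sub h3
    rwa [sub_sub_cancel] at this
  have h6 := const_eq_zero_of_ordGe_one Q _ h5
  have h7 : (⟨a', haV'⟩ : ↥S.O) * (⟨a, haV⟩ - c₀) = 1 := by
    apply Subtype.ext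
    show a' * (a - (c₀ : C)) = 1
    linear_combination -h2
  have h8 := congrArg S.resO h7
  rw [map_mul, h6, zero_mul, map_one] at h8
  exact zero_ne_one h8

open Classical in
/-- **C7**: glueing of the charts `x` and `x'`, `x' (x - c₀) = 1`. -/
theorem isRedAbs_glue [IsAlgClosed C] (hxC : Transcendental C x)
    [FiniteDimensional C⟮x⟯ F] (hxx' : x' * (x - algebraMap C F (c₀ : C)) = 1)
    (r₁ r₂ : Place C F → Place k Ft)
    (hr₁ : ∀ P, InChart S x P → RedTo S x hx P (r₁ P))
    (hr₂ : ∀ P, InChart S x' P → RedTo S x' hx' P (r₂ P))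
    (hc₁ : ChartCons S x hx r₁) (hc₂ : ChartCons S x' hx' r₂) :
    IsRedAbs S (fun P => if InChart S x P then r₁ P else r₂ P) := by
  intro f hfu D hD Q
  rw [mapDomain_apply_eq_sum, ← Finset.sum_filter]
  have hin2 : ∀ P, ¬ InChart S x P → InChart S x' P := by
    intro P hP
    obtain ⟨a', -, ha'⟩ := inChart_inv_of_not_inChart S c₀ hxC hxx' P hP
    exact ⟨a', a'.2, ha'⟩
  by_cases hQ : S.red ⟨x, hx⟩ ∈ Q.toValuationSubring
  · rw [← hc₁ f hfu D hD Q hQ]
    refine Finset.sum_congr ?_ fun _ _ => rfl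
    ext P
    simp only [Finset.mem_filter]
    constructor
    · rintro ⟨h1, h2⟩
      by_cases hP : InChart S x P
      · rw [if_pos hP] at h2
        exact ⟨h1, hP, h2⟩
      · rw [if_neg hP] at h2
        exfalso
        have := not_mem_of_redTo S hx hx' c₀ hxC hxx' P hP (r₂ P) (hr₂ P (hin2 P hP))
        rw [h2] at this
        exact this hQ
    · rintro ⟨h1, hP, h2⟩
      exact ⟨h1, by rw [if_pos hP]; exact h2⟩
  · have hQ' : S.red ⟨x', hx'⟩ ∈ Q.toValuationSubring :=
      (ordGe_zero_iff_mem Q _).1 ((ordGe_red_inv S hx hx' c₀ hxx' Q hQ).mono (by norm_num))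
    rw [← hc₂ f hfu D hD Q hQ']
    refine Finset.sum_congr ?_ fun _ _ => rfl
    ext P
    simp only [Finset.mem_filter]
    constructor
    · rintro ⟨h1, h2⟩
      by_cases hP : InChart S x P
      · rw [if_pos hP] at h2
        exfalso
        have := (hr₁ P hP).1
        rw [h2] at this
        exact hQ this
      · rw [if_neg hP] at h2
        exact ⟨h1, hin2 P hP, h2⟩
    · rintro ⟨h1, hP', h2⟩
      refine ⟨h1, ?_⟩
      by_cases hP : InChart S x P
      · exfalso
        have := mem_of_redTo_of_inChart S hx hx' c₀ hxx' P hP hP' (r₂ P) (hr₂ P hP')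
        rw [h2] at this
        exact hQ this
      · rw [if_neg hP]
        exact h2

end Glue

end Fermat.Agent.RED.H79

end
end
-- ==== END Fermat.Agent.RED.H79_ConsGlue

-- ==== BEGIN Fermat.Agent.S24.Closure.Final
section

/-!
# S24 construction, final layer: `modClosure N : ModClosure N`
-/

set_option autoImplicit false

noncomputable section

namespace Fermat.Agent.S24

open ModularCurve UpperHalfPlane WithZero
open scoped MatrixGroups Manifold

theorem tE_transcendental : Transcendental Kbar tE :=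
  (transcendental_algebraMap_iff (IsFractionRing.injective (Polynomial Kbar) EN)).mpr
    (Polynomial.transcendental_X Kbar)

/-- The Galois closure of `F_N / Q̄(j)` with its modular structure. -/
def modClosure (N : ℕ) [NeZero N] : ModClosure N where
  E := EN
  L := LN N
  t := tE
  t_transcendental := tE_transcendental
  t_map := tE_map_FN N
  t_gen := tE_gen
  π := piN N
  π_surjective := piN_surjective N
  π_comap := piN_comap N
  w := wN N
  w_algebraMap := wN_algebraMap N
  w_π := wN_piN N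
  w_j := wN_j N
  winf := winfN N
  winf_algebraMap := winfN_algebraMap N
  winf_π_T := winfN_piN_T N
  winf_j := winfN_j N

end Fermat.Agent.S24

end
end
-- ==== END Fermat.Agent.S24.Closure.Final

-- ==== BEGIN Fermat.Agent.S59.EigenOfPoint
section

/-!
# S59, layer 2, package (A) (helper53): a point of the Hecke algebra is an eigenform

* `exists_annihilated_of_ringHom` (pure algebra): `T` a commutative ring, finite as a `ℤ`-module,
  `χ : T →+* 𝒪` with `𝒪` a domain of characteristic `0`; then some `x ≠ 0` in `T` is killed by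
  `ker χ` (every element of `ker χ` is a zero divisor, prime avoidance, associated primes).
* `exists_eigenvector_of_point` : a ring homomorphism `χ` from the Hecke algebra (away from `S`)
  to a domain of characteristic `0` has a nonzero cusp form killed by `ker χ`.
* `exists_normalizedEigenform_of_point` : if moreover `χ (T_ℓ) = a ℓ ∈ ℤ` for all `ℓ ∤ N`, `ℓ ∉ S`,
  there is a normalised eigenform `g` of level `N` with `a_ℓ(g) = a ℓ` for these `ℓ`.
-/

set_option autoImplicit false

namespace Fermat.Agent.S59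

open Polynomial

/-- An element of the kernel of a ring homomorphism to a domain of characteristic `0`, in a ring
integral over `ℤ`, is a zero divisor. -/
theorem not_mem_nonZeroDivisors_of_mem_ker {T 𝒪 : Type*} [CommRing T] [CommRing 𝒪] [IsDomain 𝒪]
    [CharZero 𝒪] (χ : T →+* 𝒪) {g : T} (hint : IsIntegral ℤ g) (hg : χ g = 0) :
    g ∉ nonZeroDivisors T := by
  intro hnzd
  set P := minpoly ℤ g with hP
  have hmonic : P.Monic := minpoly.monic hint
  have haeval : aeval g P = 0 := minpoly.aeval ℤ g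
  -- apply `χ`: the constant coefficient vanishes
  have hχ : (P.map (Int.castRingHom 𝒪)).eval (χ g) = 0 := by
    have h1 : χ (aeval g P) = 0 := by rw [haeval, map_zero]
    rw [← h1, aeval_def, hom_eval₂, eval_map]
    congr 1
    exact RingHom.ext_int _ _
  rw [hg, ← coeff_zero_eq_eval_zero, coeff_map] at hχ
  have hc0 : P.coeff 0 = 0 := by
    have : ((P.coeff 0 : ℤ) : 𝒪) = 0 := by simpa using hχ
    exact_mod_cast this
  obtain ⟨Q, hQ⟩ := X_dvd_iff.mpr hc0
  have hQmonic : Q.Monic := by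
    have := hmonic
    rw [hQ] at this
    exact (Monic.of_mul_monic_left monic_X this)
  have hQ0 : aeval g Q = 0 := by
    have h1 : g * aeval g Q = 0 := by
      have := haeval
      rw [hQ, map_mul, aeval_X] at this
      exact this
    exact (mul_right_mem_nonZeroDivisors_eq_zero_iff hnzd).mp (by rwa [mul_comm] at h1)
  have hdeg := minpoly.min ℤ g hQmonic hQ0
  have hlt : Q.degree < P.degree := by
    have hQne : Q ≠ 0 := hQmonic.ne_zero
    rw [hQ, mul_comm]
    exact degree_lt_degree_mul_X hQne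
  exact absurd hdeg (not_le.mpr hlt)

/-- Pure algebra: the kernel of a ring homomorphism from a finite `ℤ`-algebra to a domain of
characteristic `0` kills a nonzero element. -/
theorem exists_annihilated_of_ringHom {T 𝒪 : Type*} [CommRing T] [Module.Finite ℤ T]
    [CommRing 𝒪] [IsDomain 𝒪] [CharZero 𝒪] (χ : T →+* 𝒪) :
    ∃ x : T, x ≠ 0 ∧ ∀ t ∈ RingHom.ker χ, t * x = 0 := by
  classical
  have : IsNoetherianRing T := IsNoetherianRing.of_finite ℤ T
  have hint : ∀ g : T, IsIntegral ℤ g := fun g => Algebra.IsIntegral.isIntegral g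
  have hsub : ((RingHom.ker χ : Ideal T) : Set T) ⊆
      ⋃ p ∈ ((associatedPrimes.finite T T).toFinset : Set (Ideal T)), (p : Set T) := by
    intro g hg
    have hz : g ∈ (nonZeroDivisors T : Set T)ᶜ :=
      not_mem_nonZeroDivisors_of_mem_ker χ (hint g) (RingHom.mem_ker.mp hg)
    rw [← biUnion_associatedPrimes_eq_compl_nonZeroDivisors T] at hz
    simpa using hz
  have hprime : ∀ i ∈ (associatedPrimes.finite T T).toFinset,
      i ≠ (⊥ : Ideal T) → i ≠ (⊥ : Ideal T) → Ideal.IsPrime (id i) := by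
    intro i hi _ _
    exact ((associatedPrimes.finite T T).mem_toFinset.mp hi).isPrime
  obtain ⟨𝔮, h𝔮, hle⟩ := (Ideal.subset_union_prime (f := id) ⊥ ⊥ hprime).mp hsub
  have hass : IsAssociatedPrime 𝔮 T := (associatedPrimes.finite T T).mem_toFinset.mp h𝔮
  obtain ⟨hq, x, hx⟩ := isAssociatedPrime_iff.mp hass
  refine ⟨x, ?_, fun t ht => ?_⟩
  · rintro rfl
    apply hq.ne_top
    rw [hx]
    ext r
    simp [Submodule.mem_colon_singleton]
  · have : t ∈ 𝔮 := hle ht
    rw [hx, Submodule.mem_colon_singleton] at this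
    simpa [smul_eq_mul] using this

open CuspForm CongruenceSubgroup ModularFormClass

variable {N : ℕ} [NeZero N]

/-- A point of the Hecke algebra with values in a domain of characteristic `0` has a nonzero
cusp form killed by its kernel. -/
theorem exists_eigenvector_of_point (S : Set ℕ) {𝒪 : Type*} [CommRing 𝒪] [IsDomain 𝒪]
    [CharZero 𝒪] (χ : heckeAlgebra N 2 S →+* 𝒪) :
    ∃ v : CuspForm (Gamma0 N) 2, v ≠ 0 ∧ ∀ t ∈ RingHom.ker χ,
      (t : Module.End ℂ (CuspForm (Gamma0 N) 2)) v = 0 := by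
  have : Module.Finite ℤ (heckeAlgebra N 2 S) := Fermat.Agent.S22.result N 2 S
  obtain ⟨x, hx0, hx⟩ := exists_annihilated_of_ringHom χ
  have hx0' : (x : Module.End ℂ (CuspForm (Gamma0 N) 2)) ≠ 0 := fun h => hx0 (Subtype.ext h)
  obtain ⟨w, hw⟩ : ∃ w, (x : Module.End ℂ (CuspForm (Gamma0 N) 2)) w ≠ 0 := by
    by_contra hcon
    push Not at hcon
    exact hx0' (LinearMap.ext hcon)
  refine ⟨(x : Module.End ℂ (CuspForm (Gamma0 N) 2)) w, hw, fun t ht => ?_⟩
  have h1 := hx t ht
  have h2 : ((t * x : heckeAlgebra N 2 S) : Module.End ℂ (CuspForm (Gamma0 N) 2)) = 0 := by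
    rw [h1]; rfl
  have h3 : ((t * x : heckeAlgebra N 2 S) : Module.End ℂ (CuspForm (Gamma0 N) 2))
      = (t : Module.End ℂ (CuspForm (Gamma0 N) 2)) * (x : Module.End ℂ (CuspForm (Gamma0 N) 2)) :=
    rfl
  rw [h3] at h2
  have := congrArg (fun f : Module.End ℂ (CuspForm (Gamma0 N) 2) => f w) h2
  simpa using this

/-- **Package (A)**: a point of the Hecke algebra away from `S` with integral values `a ℓ` on the
`T_ℓ` comes from a normalised eigenform of level `N`. -/
theorem exists_normalizedEigenform_of_point (S : Set ℕ) {𝒪 : Type*} [CommRing 𝒪] [IsDomain 𝒪]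
    [CharZero 𝒪] (χ : heckeAlgebra N 2 S →+* 𝒪) (a : ℕ → ℤ)
    (ha : ∀ (ℓ : ℕ) (hℓ : ℓ.Prime) (hℓN : ¬ ℓ ∣ N) (hℓS : ℓ ∉ S),
      χ (heckeAlgebra.T hℓ hℓN hℓS) = ((a ℓ : ℤ) : 𝒪)) :
    ∃ g : CuspForm (Gamma0 N) 2, g.IsNormalizedEigenform ∧
      ∀ ℓ : ℕ, ℓ.Prime → ¬ ℓ ∣ N → ℓ ∉ S → qCoeff ⇑g ℓ = (a ℓ : ℂ) := by
  obtain ⟨v, hv0, hv⟩ := exists_eigenvector_of_point S χ
  refine Fermat.Agent.R.H99.exists_normalizedEigenform_of_eigenvector S (fun ℓ => (a ℓ : ℂ))
    v hv0 ?_
  intro ℓ hℓ hℓN hℓS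
  -- `T_ℓ - a_ℓ ∈ ker χ`
  set t : heckeAlgebra N 2 S := heckeAlgebra.T hℓ hℓN hℓS - ((a ℓ : ℤ) : heckeAlgebra N 2 S)
    with ht
  have hker : t ∈ RingHom.ker χ := by
    rw [RingHom.mem_ker, ht, map_sub, ha ℓ hℓ hℓN hℓS, map_intCast, sub_self]
  have h1 := hv t hker
  have h2 : (t : Module.End ℂ (CuspForm (Gamma0 N) 2))
      = heckeTLin 2 hℓ hℓN - ((a ℓ : ℤ) : Module.End ℂ (CuspForm (Gamma0 N) 2)) := by
    rw [ht]
    push_cast
    rfl
  rw [h2, LinearMap.sub_apply, sub_eq_zero] at h1
  rw [h1]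
  simp [Int.cast_smul_eq_zsmul]

end Fermat.Agent.S59

end
-- ==== END Fermat.Agent.S59.EigenOfPoint
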