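-- GENERATED (merged mirror, NOTES/tools/trim/merge3_helper67.py): 11 modules of the originals, bodies verbatim.
import Mathlib
import Fermat.Agent.Zm.S35_L05_001
import Fermat.Agent.Zm.S35_L10_003
import Fermat.Agent.Zm.S35_L05_004
import Fermat.Agent.Zm.S35_L10_001
import Fermat.Agent.Zm.S35_L05_002
import Fermat.Agent.Zm.S35_L04_000
import Fermat.Agent.Zm.S35_L03_005
import Fermat.Agent.Zm.S35_L09_001
import Fermat.Agent.Zm.S35_L10_002
import Fermat.Agent.Zm.S35_L08_003
import Fermat.Agent.Zm.S35_L06_001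
import Fermat.Agent.Zm.S35_L04_003
import Fermat.Agent.RED.Defs
import Fermat.Agent.Zm.S35_L08_004
import Fermat.Agent.Zm.S35_L09_002
import Fermat.Agent.Zm.S35_L01_003
import Fermat.Agent.Zm.S35_L04_005

-- ==== BEGIN Fermat.Agent.GTor.H33_CurveQbar
section
attribute [local instance 10000] SubalgebraClass.toAlgebra
attribute [local instance 10000] HahnSeries.powerSeriesAlgebra

/-!
# Cluster G-TOR, package CURVE (helper33), the case `L = Q̄`

For `F = Q̄(X₀(N)) = modularFunctionFieldBar N`: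
* `hasPrincipalDivisors_FN : HasPrincipalDivisors Q̄ F`;
* `exists_algebraMap_eq_FN`: functions without zeros and poles are constant;
* `stmt_KUM_FN : Stmt_KUM Q̄ F n` for `n ≠ 0`, i.e. `Pic⁰(F)[n] ≃ U_n(F)`.
Wiring of the S24 layers (`modClosure N`, `asm_transcendental_jF`, `asm_finiteDimensional`).
-/

set_option autoImplicit false

noncomputable section

namespace Fermat.Agent.GTor.H33

open AlgebraicCurve IntermediateField ModularCurve Fermat.Agent.GTor Fermat.Agent.S24

variable (N : ℕ) [NeZero N]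

theorem hasPrincipalDivisors_FN :
    HasPrincipalDivisors (AlgebraicClosure ℚ) (modularFunctionFieldBar N) :=
  haveI : FiniteDimensional Kbar⟮jF N⟯ (FN N) := asm_finiteDimensional (modClosure N)
  hasPrincipalDivisors_of_finite (jF N) (asm_transcendental_jF (modClosure N))

theorem exists_algebraMap_eq_FN (f : modularFunctionFieldBar N) (hf : f ≠ 0)
    (h : ∀ v : Place (AlgebraicClosure ℚ) (modularFunctionFieldBar N), v.ord f = 0) :
    ∃ c : AlgebraicClosure ℚ, algebraMap (AlgebraicClosure ℚ) (modularFunctionFieldBar N) c = f :=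
  haveI : FiniteDimensional Kbar⟮jF N⟯ (FN N) := asm_finiteDimensional (modClosure N)
  exists_algebraMap_eq_of_forall_ord_eq_zero (jF N) (asm_transcendental_jF (modClosure N)) f hf h

/-- **KUM** for `Q̄(X₀(N))`: `Pic⁰[n] ≃ U_n`. -/
theorem stmt_KUM_FN {n : ℕ} (hn : n ≠ 0) :
    Stmt_KUM (AlgebraicClosure ℚ) (modularFunctionFieldBar N) n :=
  haveI : FiniteDimensional Kbar⟮jF N⟯ (FN N) := asm_finiteDimensional (modClosure N)
  stmt_KUM_of_finite (jF N) (asm_transcendental_jF (modClosure N)) hn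

end Fermat.Agent.GTor.H33

end
end
-- ==== END Fermat.Agent.GTor.H33_CurveQbar

-- ==== BEGIN Fermat.Agent.GTor.H81_Clauses
section

/-!
# G-TOR, T-X: clauses of the Tate pieces from torsion-level statements  (helper81)

`C : TateCoords N p S`, `L : TateLimit C 𝒪 hp`, `Pc : SubPiece L.ρL`.

* `limit_ES`, `limit_unram`, `limit_unip` : the Eichler–Shimura relation, unramifiedness and
  unipotence of inertia for the limit matrices `L.ρL σ`, from the torsion-level statements
  `Stmt_TorsES`, `Stmt_TorsUnram` and (UNIP).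
* `piece_ES`, `piece_unram`, `piece_unip` : the same on a piece.
* `exists_piece_eig` : the piece of an eigensystem `χ` (the `χ`-eigenspace).
-/

set_option autoImplicit false
set_option linter.unusedSectionVars false

noncomputable section

namespace Fermat.Agent.GTor.H81

open AlgebraicCurve ModularCurve Fermat.Agent.GTor Fermat.Agent.GTor.H58T1

section Clauses

variable {N p : ℕ} [NeZero N] [Fact p.Prime] {S : Set ℕ} {C : TateCoords N p S}
variable {𝒪 : Type} [CommRing 𝒪] [IsLocalRing 𝒪]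
  [IsAdicComplete (IsLocalRing.maximalIdeal 𝒪) 𝒪]
  {hp : (p : 𝒪) ∈ IsLocalRing.maximalIdeal 𝒪} (L : TateLimit C 𝒪 hp)

theorem pow_nsmul_coe' (k : ℕ) (x : Jtor N (p ^ k)) : ∃ n : ℕ, p ^ n • (x : JZero N) = 0 :=
  ⟨k, pow_nsmul_coe x⟩

/-! ### level `k` -/

theorem rho_ES (hES : Stmt_TorsES N p) {ℓ : ℕ} (hℓ : ℓ.Prime) (hℓN : ¬ ℓ ∣ N) (hℓp : ℓ ≠ p)
    (hℓS : ℓ ∉ S) (A : ValuationSubring (AlgebraicClosure ℚ)) (hA : A.LiesOverPrime ℓ) (σ : GQ)
    (hσ : A.IsFrobeniusAt σ ℓ) (k : ℕ) :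
    C.ρ k σ * C.ρ k σ - Mc (ZMod (p ^ k)) C.M (CuspForm.heckeAlgebra.T hℓ hℓN hℓS) * C.ρ k σ
      + ((ℓ : ℕ) : Matrix (Fin C.r) (Fin C.r) (ZMod (p ^ k))) = 0 := by
  have h0 : C.mat k (TateCoords.galEnd k σ * TateCoords.galEnd k σ
      - TateCoords.heckeEnd k (⟨ℓ, hℓ⟩ : Nat.Primes) * TateCoords.galEnd k σ
      + ((ℓ : ℕ) : AddMonoid.End (Jtor N (p ^ k)))) = 0 := by
    apply C.mat_eq_zero k
    intro x
    have key := hES ℓ hℓ hℓN hℓp A hA σ hσ (x : JZero N) (pow_nsmul_coe' k x)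
    exact key
  have hn : C.mat k ((ℓ : ℕ) : AddMonoid.End (Jtor N (p ^ k))) =
      ((ℓ : ℕ) : Matrix (Fin C.r) (Fin C.r) (ZMod (p ^ k))) := map_natCast (C.mat k) ℓ
  rw [map_add, map_sub, map_mul, map_mul, hn, C.mat_gal, C.mat_hecke k hℓ hℓN hℓS] at h0
  exact h0

theorem rho_unram (hU : Stmt_TorsUnram N p) {q : ℕ} (hq : q.Prime) (hqN : ¬ q ∣ N) (hqp : q ≠ p)
    (P : ValuationSubring (AlgebraicClosure ℚ)) (hP : P.LiesOverPrime q) (σ : GQ)
    (hσ : σ ∈ P.inertiaSubgroupIn ℚ) (k : ℕ) : C.ρ k σ = 1 := by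
  have h0 : C.mat k (TateCoords.galEnd k σ - 1) = 0 := by
    apply C.mat_eq_zero k
    intro x
    have key := hU q hq hqN hqp P hP σ hσ (x : JZero N) (pow_nsmul_coe' k x)
    show σ • (x : JZero N) - (x : JZero N) = 0
    rw [key, sub_self]
  rw [map_sub, map_one, C.mat_gal, sub_eq_zero] at h0
  exact h0

/-- (UNIP) at level `k`. -/
theorem rho_unip {σ τ : GQ}
    (h : ∀ x : JZero N, (∃ n : ℕ, p ^ n • x = 0) → σ • τ • x - σ • x - τ • x + x = 0) (k : ℕ) :
    (C.ρ k σ - 1) * (C.ρ k τ - 1) = 0 := by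
  have h0 : C.mat k (TateCoords.galEnd k σ * TateCoords.galEnd k τ - TateCoords.galEnd k σ
      - TateCoords.galEnd k τ + 1) = 0 := by
    apply C.mat_eq_zero k
    intro x
    exact h (x : JZero N) (pow_nsmul_coe' k x)
  rw [map_add, map_sub, map_sub, map_mul, map_one, C.mat_gal, C.mat_gal] at h0
  rw [← h0]
  noncomm_ring

/-! ### the limit -/

theorem limit_ES (hES : Stmt_TorsES N p) {ℓ : ℕ} (hℓ : ℓ.Prime) (hℓN : ¬ ℓ ∣ N) (hℓp : ℓ ≠ p)
    (hℓS : ℓ ∉ S) (A : ValuationSubring (AlgebraicClosure ℚ)) (hA : A.LiesOverPrime ℓ) (σ : GQ)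
    (hσ : A.IsFrobeniusAt σ ℓ) :
    L.ρL σ * L.ρL σ - Mc 𝒪 C.M (CuspForm.heckeAlgebra.T hℓ hℓN hℓS) * L.ρL σ
      + ((ℓ : ℕ) : Matrix (Fin C.r) (Fin C.r) 𝒪) = 0 :=
  ((((L.spec σ).mul (L.spec σ)).sub ((compat_Mc C.M _).mul (L.spec σ))).add
    (compat_natCast ℓ)).eq_zero (fun k => rho_ES hES hℓ hℓN hℓp hℓS A hA σ hσ k)

theorem limit_unram (hU : Stmt_TorsUnram N p) {q : ℕ} (hq : q.Prime) (hqN : ¬ q ∣ N)
    (hqp : q ≠ p) (P : ValuationSubring (AlgebraicClosure ℚ)) (hP : P.LiesOverPrime q) (σ : GQ)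
    (hσ : σ ∈ P.inertiaSubgroupIn ℚ) : L.ρL σ = 1 :=
  (L.spec σ).eq compat_one (fun k => rho_unram hU hq hqN hqp P hP σ hσ k)

theorem limit_unip {σ τ : GQ}
    (h : ∀ x : JZero N, (∃ n : ℕ, p ^ n • x = 0) → σ • τ • x - σ • x - τ • x + x = 0) :
    (L.ρL σ - 1) * (L.ρL τ - 1) = 0 :=
  (((L.spec σ).sub compat_one).mul ((L.spec τ).sub compat_one)).eq_zero
    (fun k => rho_unip h k)

/-! ### pieces -/

variable [IsDomain 𝒪] (Pc : SubPiece L.ρL)

theorem piece_ES (hES : Stmt_TorsES N p) {ℓ : ℕ} (hℓ : ℓ.Prime) (hℓN : ¬ ℓ ∣ N) (hℓp : ℓ ≠ p)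
    (hℓS : ℓ ∉ S) (a : 𝒪)
    (ha : Mc 𝒪 C.M (CuspForm.heckeAlgebra.T hℓ hℓN hℓS) * Pc.P = a • Pc.P)
    (A : ValuationSubring (AlgebraicClosure ℚ)) (hA : A.LiesOverPrime ℓ) (σ : GQ)
    (hσ : A.IsFrobeniusAt σ ℓ) :
    Pc.rep σ * Pc.rep σ - a • Pc.rep σ + (ℓ : 𝒪) • (1 : Matrix (Fin Pc.d) (Fin Pc.d) 𝒪) = 0 := by
  have h := limit_ES L hES hℓ hℓN hℓp hℓS A hA σ hσ
  rw [← natCast_smul_one] at h
  have hrel := ((((Pc.rel_rep σ).mul (Pc.rel_rep σ)).sub
    ((SubPiece.rel_of_eig ha).mul (Pc.rel_rep σ))).add (Pc.rel_one.smul (ℓ : 𝒪))).eq_zero' h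
  rw [Matrix.smul_mul, Matrix.one_mul] at hrel
  exact hrel

theorem piece_unram (hU : Stmt_TorsUnram N p) {q : ℕ} (hq : q.Prime) (hqN : ¬ q ∣ N)
    (hqp : q ≠ p) : S30.MatUnramAt Pc.rep q := by
  intro P hP σ hσ
  have h := limit_unram L hU hq hqN hqp P hP σ hσ
  rw [SubPiece.rep_apply, h, Matrix.mul_one, Pc.QP]

theorem piece_unip {σ τ : GQ}
    (h : ∀ x : JZero N, (∃ n : ℕ, p ^ n • x = 0) → σ • τ • x - σ • x - τ • x + x = 0) :
    (Pc.rep σ - 1) * (Pc.rep τ - 1) = 0 :=
  ((((Pc.rel_rep σ).sub Pc.rel_one).mul ((Pc.rel_rep τ).sub Pc.rel_one))).eq_zero'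
    (limit_unip L h)

end Clauses

/-! ## The piece of an eigensystem -/

section Eig

variable {N p : ℕ} [NeZero N] [Fact p.Prime] {S : Set ℕ} {C : TateCoords N p S}
variable {𝒪 : Type} [CommRing 𝒪] [IsLocalRing 𝒪] [IsDomain 𝒪]
  [IsAdicComplete (IsLocalRing.maximalIdeal 𝒪) 𝒪]
  {hp : (p : 𝒪) ∈ IsLocalRing.maximalIdeal 𝒪} (L : TateLimit C 𝒪 hp)

/-- the limit matrices over the fraction field commute with the Hecke matrices. -/
theorem matF_comm (σ : GQ) (t : CuspForm.heckeAlgebra N 2 S) :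
    matF (L.ρL σ) * Mc (FractionRing 𝒪) C.M t = Mc (FractionRing 𝒪) C.M t * matF (L.ρL σ) := by
  have h := congrArg (fun X : Matrix (Fin C.r) (Fin C.r) 𝒪 => matF X) (L.comm σ t)
  simp only [matF, Matrix.map_mul] at h
  rw [← matF_Mc C.M t]
  exact h

/-- the eigenspace of a character is stable under the limit representation. -/
theorem eigW_stable (χ : CuspForm.heckeAlgebra N 2 S →+* 𝒪) (σ : GQ)
    (w : Fin C.r → FractionRing 𝒪) (hw : w ∈ eigW C.M χ) :
    (matF (L.ρL σ)).mulVec w ∈ eigW C.M χ := by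
  intro t
  rw [Matrix.mulVec_mulVec, ← matF_comm L σ t, ← Matrix.mulVec_mulVec, hw t, Matrix.mulVec_smul]

/-- **The piece of an eigensystem.** -/
theorem exists_piece_eig [IsPrincipalIdealRing 𝒪] [CharZero 𝒪]
    (χ : CuspForm.heckeAlgebra N 2 S →+* 𝒪) :
    ∃ Pc : SubPiece L.ρL, ∀ t, Mc 𝒪 C.M t * Pc.P = χ t • Pc.P := by
  have : CharZero (FractionRing 𝒪) :=
    charZero_of_injective_algebraMap (IsFractionRing.injective 𝒪 (FractionRing 𝒪))
  obtain ⟨v, hv0, hv⟩ := Betti.H21.stmt_algEig (CuspForm.heckeAlgebra N 2 S) C.r C.M C.tate.inj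
    (FractionRing 𝒪) ((algebraMap 𝒪 (FractionRing 𝒪)).comp χ)
  have hW : eigW C.M χ ≠ ⊥ := by
    intro h
    have hvW : v ∈ eigW C.M χ := fun t => hv t
    rw [h] at hvW
    exact hv0 ((Submodule.mem_bot _).mp hvW)
  obtain ⟨Pc, hPc⟩ := exists_subPiece Fermat.Agent.S30.H56.stmt_lattice L.ρL (eigW C.M χ) hW
    (fun σ w hw => eigW_stable L χ σ w hw)
  exact ⟨Pc, mul_eq_of_mem_eigW C.M χ Pc.P hPc⟩

end Eig

end Fermat.Agent.GTor.H81

end
end
-- ==== END Fermat.Agent.GTor.H81_Clauses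

-- ==== BEGIN Fermat.Agent.Lib.HeckeComm.H2_Deg
section
attribute [local instance 10000] SubalgebraClass.toAlgebra
attribute [local instance 10000] HahnSeries.powerSeriesAlgebra

/-!
# COMM (helper2): package D — the degrees `[F_M : F_X] * ψ(X) = ψ(M)`, finiteness
-/

set_option autoImplicit false
set_option linter.style.haveILetI false
set_option linter.unusedSectionVars false

noncomputable section

namespace Fermat.Agent.Lib.HeckeComm

open AlgebraicCurve ModularCurve Fermat.Agent.S24 IntermediateField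

local notation "Kb" => AlgebraicClosure ℚ

/-- `Q̄(j)` inside the Laurent series. -/
def E0 : IntermediateField Kb (LaurentSeries Kb) := IntermediateField.adjoin Kb {jBar}

theorem E0_le (X : ℕ) [NeZero X] : E0 ≤ modularFunctionFieldBar X := by
  rw [E0, adjoin_le_iff]
  rintro _ rfl
  exact jBar_mem X

theorem map_adjoin_jF (X : ℕ) [NeZero X] :
    (Kb⟮jF X⟯).map (modularFunctionFieldBar X).val = E0 := by
  rw [adjoin_map, Set.image_singleton]
  rfl

theorem comap_E0 (X : ℕ) [NeZero X] : E0.comap (modularFunctionFieldBar X).val = Kb⟮jF X⟯ := by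
  ext x
  show (modularFunctionFieldBar X).val x ∈ E0 ↔ _
  constructor
  · intro hx
    rw [← map_adjoin_jF X] at hx
    obtain ⟨y, hy, hyx⟩ := hx
    have : y = x := Subtype.ext hyx
    rwa [← this]
  · intro hx
    rw [← map_adjoin_jF X]
    exact ⟨x, hx, rfl⟩

theorem relfinrank_E0 (X : ℕ) [NeZero X] :
    relfinrank E0 (modularFunctionFieldBar X) = dedekindPsi X := by
  have h := finrank_comap E0 (modularFunctionFieldBar X).val
  rw [fieldRange_val, comap_E0] at h
  rw [← h]
  exact asm_finrank (modClosure X)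

theorem relfinrank_FN (X M : ℕ) [NeZero X] [NeZero M] (h : X ∣ M) :
    relfinrank (modularFunctionFieldBar X) (modularFunctionFieldBar M)
      = (letI := (inclFN X M h).toRingHom.toAlgebra; Module.finrank (FN X) (FN M)) := by
  letI := (inclFN X M h).toRingHom.toAlgebra
  rw [relfinrank_eq_finrank_of_le (modularFunctionFieldBar_mono h)]
  let e : FN M ≃ₗ[FN X] ↥(extendScalars (modularFunctionFieldBar_mono h)) :=
    { toFun := fun y => ⟨y.1, y.2⟩
      invFun := fun y => ⟨y.1, y.2⟩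
      map_add' := fun _ _ => rfl
      map_smul' := fun a y => Subtype.ext rfl
      left_inv := fun _ => rfl
      right_inv := fun _ => rfl }
  exact e.finrank_eq.symm

theorem dedekindPsi_pos_h2 (N : ℕ) [NeZero N] : 0 < dedekindPsi N := by
  rw [← Fermat.Agent.S20.H19.G1]
  exact Nat.pos_of_ne_zero Subgroup.FiniteIndex.index_ne_zero

/-- **Package D**. -/
theorem stmt_Deg (X M : ℕ) [NeZero X] [NeZero M] (h : X ∣ M) : Stmt_Deg X M h := by
  unfold Stmt_Deg
  rw [← relfinrank_FN X M h, ← relfinrank_E0 X, ← relfinrank_E0 M, mul_comm]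
  exact relfinrank_mul_relfinrank (E0_le X) (modularFunctionFieldBar_mono h)

theorem finrank_FN_pos (X M : ℕ) [NeZero X] [NeZero M] (h : X ∣ M) :
    0 < (letI := (inclFN X M h).toRingHom.toAlgebra; Module.finrank (FN X) (FN M)) := by
  have h1 := stmt_Deg X M h
  unfold Stmt_Deg at h1
  have h2 := dedekindPsi_pos_h2 M
  rw [← h1] at h2
  exact Nat.pos_of_mul_pos_right h2

/-- Finiteness of `F_M / F_X`. -/
theorem stmt_Fin (X M : ℕ) [NeZero X] [NeZero M] (h : X ∣ M) : Stmt_Fin X M h := by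
  unfold Stmt_Fin
  letI := (inclFN X M h).toRingHom.toAlgebra
  exact Module.finite_of_finrank_pos (finrank_FN_pos X M h)

end Fermat.Agent.Lib.HeckeComm

end
end
-- ==== END Fermat.Agent.Lib.HeckeComm.H2_Deg

-- ==== BEGIN Fermat.Agent.RED.ES.H95_HeckeGal
section
attribute [local instance 10000] SubalgebraClass.toAlgebra
attribute [local instance 10000] HahnSeries.powerSeriesAlgebra

/-!
# G-RED, package ES (helper95): Galois action on `ρ (F_{Nℓ})` and on `φ (α F_N)`
-/

set_option autoImplicit false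

noncomputable section

namespace Fermat.Agent.RED.H95

open Fermat.Agent.S24 ModularCurve Matrix ModularGroup CongruenceSubgroup UpperHalfPlane
open scoped MatrixGroups

section

variable (M : ℕ) [NeZero M]

theorem piK_algebraMap_toAT (γ : SL(2, ℤ)) (a b : Atil M)
    (h : γ • (a : Hol) = (b : Hol)) :
    piK M γ (algebraMap (AT M) (LN M) (toAT M a)) = algebraMap (AT M) (LN M) (toAT M b) := by
  rw [piK_algebraMap]
  congr 1
  exact Subtype.ext h

end

variable (N : ℕ) [NeZero N] {ℓ : ℕ} [NeZero ℓ]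

theorem alpha_jdF (d : ℕ) [NeZero d] (hd : d ∣ N) :
    heckeAlphaBar Kbar N ℓ (jdF N d hd) = jdF (N * ℓ) d (dvd_mul_of_dvd_left hd ℓ) :=
  Subtype.ext rfl

theorem beta_jdF (d : ℕ) [NeZero d] (hd : d ∣ N) :
    heckeBetaBar Kbar N ℓ (jdF N d hd)
      = jdF (N * ℓ) (ℓ * d) (by rw [mul_comm ℓ d]; exact Nat.mul_dvd_mul_right hd ℓ) := by
  apply Subtype.ext
  rw [coe_heckeBetaBar, coe_jdF, coe_jdF, qExpand_qExpand]

/-- `φ_M ∘ α : F_N → LN M`. -/
def phiAlpha : FN N →ₐ[Kbar] LN (N * ℓ) := (phi (N * ℓ)).comp (heckeAlphaBar Kbar N ℓ)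

theorem phiAlpha_apply (g : FN N) :
    phiAlpha N (ℓ := ℓ) g = phi (N * ℓ) (heckeAlphaBar Kbar N ℓ g) := rfl

theorem phiAlpha_jdF (d : ℕ) [NeZero d] (hd : d ∣ N) :
    phiAlpha N (ℓ := ℓ) (jdF N d hd)
      = algebraMap (AT (N * ℓ)) (LN (N * ℓ)) (toAT (N * ℓ) (jdA (N * ℓ) d)) := by
  rw [phiAlpha_apply, alpha_jdF, phi_jdF]

/-- `Γ₀(N)` fixes `φ_M (α F_N)`. -/
theorem piK_phiAlpha_of_mem_Gamma0 (γ : SL(2, ℤ)) (hγ : γ ∈ Gamma0 N) :
    (piK (N * ℓ) γ).comp (phiAlpha N (ℓ := ℓ)) = phiAlpha N (ℓ := ℓ) := by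
  apply algHom_eq_of_adjoin_eq_top _ _ _ (adjoin_jdF N)
  rintro _ ⟨d, hd0, hd, rfl⟩
  rw [AlgHom.comp_apply, phiAlpha_jdF]
  apply piK_algebraMap_toAT
  have hdpos : 0 < d := NeZero.pos d
  rw [jdA_coe (N * ℓ) d hdpos (dvd_mul_of_dvd_left hd ℓ)]
  exact smul_JA_dg_one_of_mem_Gamma0 N (d : ℤ) (by exact_mod_cast hdpos)
    (Int.natCast_dvd_natCast.mpr hd) γ hγ

/-- If `piK γ` fixes `φ_M (α F_N)` then `γ ∈ Γ₀(N)`. -/
theorem mem_Gamma0_of_piK_phiAlpha (γ : SL(2, ℤ))
    (h : piK (N * ℓ) γ (phiAlpha N (ℓ := ℓ) (jdF N N dvd_rfl))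
      = phiAlpha N (ℓ := ℓ) (jdF N N dvd_rfl)) : γ ∈ Gamma0 N := by
  rw [phiAlpha_jdF, piK_algebraMap] at h
  have h2 := IsFractionRing.injective (AT (N * ℓ)) (LN (N * ℓ)) h
  have h3 : γ • (jdA (N * ℓ) N : Atil (N * ℓ)) = jdA (N * ℓ) N := h2
  have hNpos : 0 < N := NeZero.pos N
  have h4 : γ • ((jdA (N * ℓ) N : Atil (N * ℓ)) : Hol) = ((jdA (N * ℓ) N : Atil (N * ℓ)) : Hol) :=
    congrArg Subtype.val h3
  rw [jdA_coe (N * ℓ) N hNpos (dvd_mul_right N ℓ)] at h4
  apply mem_Gamma0_of_smul_jdA N γ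
  apply Subtype.ext
  rw [coe_smul_Atil, jdA_coe N N hNpos dvd_rfl]
  exact h4

variable {N}

/-- An element of `Γ₀(N) ∩ Γ⁰(ℓ)` fixes `ρ (F_M)`. -/
theorem piK_rho_of_fix (hℓ : ℓ.Prime) (η : SL(2, ℤ))
    (hb : (ℓ : ℤ) ∣ (η⁻¹ : SL(2, ℤ)).1 0 1) (hc : (N : ℤ) ∣ (η⁻¹ : SL(2, ℤ)).1 1 0) :
    (piK (N * ℓ) η).comp (rho N hℓ) = rho N hℓ := by
  apply algHom_eq_of_adjoin_eq_top _ _ _ (adjoin_jdF (N * ℓ))
  rintro _ ⟨d', hd0, hd', rfl⟩
  rw [AlgHom.comp_apply]
  have hℓpos : (0 : ℤ) < ℓ := by exact_mod_cast hℓ.pos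
  rcases dvd_mul_prime_cases hℓ hd' with hdN | ⟨d, hdN, rfl⟩
  · rw [rho_jdF_of_dvd N hℓ d' hdN]
    apply piK_algebraMap_toAT
    rw [xdA_coe]
    exact smul_JA_dg (d' : ℤ) ℓ (by exact_mod_cast NeZero.pos d') hℓpos η hb
      (dvd_trans (Int.natCast_dvd_natCast.mpr hdN) hc)
  · have : NeZero d := ⟨fun h0 => NeZero.ne (ℓ * d) (by rw [h0, mul_zero])⟩
    rw [rho_jdF_mul N hℓ d hdN]
    apply piK_algebraMap_toAT
    rw [jdA_coe (N * ℓ) d (NeZero.pos d) (dvd_mul_of_dvd_left hdN ℓ)]
    exact smul_JA_dg (d : ℤ) 1 (by exact_mod_cast NeZero.pos d) one_pos η (one_dvd _)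
      (dvd_trans (Int.natCast_dvd_natCast.mpr hdN) hc)

/-- `deltaInf` maps `ρ (α f)` to `φ_M (β f)`. -/
theorem piK_deltaInf_rho_alpha (hℓ : ℓ.Prime) (u v : ℤ) (h : u * ℓ + v * N = 1) :
    ((piK (N * ℓ) (deltaInf N ℓ u v h)).comp (rho N hℓ)).comp (heckeAlphaBar Kbar N ℓ)
      = (phi (N * ℓ)).comp (heckeBetaBar Kbar N ℓ) := by
  apply algHom_eq_of_adjoin_eq_top _ _ _ (adjoin_jdF N)
  rintro _ ⟨d, hd0, hd, rfl⟩
  rw [AlgHom.comp_apply, AlgHom.comp_apply, AlgHom.comp_apply, alpha_jdF, beta_jdF,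
    rho_jdF_of_dvd N hℓ d hd, phi_jdF]
  apply piK_algebraMap_toAT
  have hdpos : 0 < d := NeZero.pos d
  have hld : 0 < ℓ * d := Nat.mul_pos hℓ.pos hdpos
  rw [xdA_coe, jdA_coe (N * ℓ) (ℓ * d) hld
    (by rw [mul_comm ℓ d]; exact Nat.mul_dvd_mul_right hd ℓ)]
  rw [deltaInf_smul_JA N ℓ u v h (d : ℤ) (by exact_mod_cast hdpos) hℓ.pos
    (Int.natCast_dvd_natCast.mpr hd)]
  congr 1
  show dg ((d : ℤ) * (ℓ : ℤ)) 1 = !![((ℓ * d : ℕ) : ℤ), 0; 0, 1]
  rw [dg]
  push_cast
  rw [mul_comm]

end Fermat.Agent.RED.H95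

end
end
-- ==== END Fermat.Agent.RED.ES.H95_HeckeGal

-- ==== BEGIN Fermat.Agent.RED.H34_ChartFinal
section

/-!
# G-RED package IG (helper34 + helper82): the chart theorem, unconditional

`stmt_chartNormal : Stmt_chartNormal` — the reduction of the integral closure of `C[x]` in `F`
is the integral closure of `k[xt]` in `Ft`, when `[Ft : k(xt)] = [F : C(x)]`, `Ft / k(xt)` is
separable and the branch values of `x` lying in `O` are pairwise distinct modulo `m_O`.
-/

set_option autoImplicit false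

namespace Fermat.Agent.RED.H34

theorem stmt_notDvdDet : Stmt_notDvdDet := by
  intro C F k Ft _ _ _ _ _ _ _ S x hx hxt _ hdeg m bF hbV hbB bt hbt hspan c P hP ρ hρ
  exact H82.not_dvd_det hx hxt hdeg bF hbV hbB bt hbt hspan c P hP ρ hρ

/-- **Chart theorem.** -/
theorem stmt_chartNormal : Stmt_chartNormal :=
  stmt_chartNormal_of_notDvdDet stmt_notDvdDet

end Fermat.Agent.RED.H34

end
-- ==== END Fermat.Agent.RED.H34_ChartFinal

-- ==== BEGIN Fermat.Agent.RED.H42_Gen6
section

/-!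
# G-RED package GEN (helper42), part 6: scaling of integral equations

* `aeval_inv_reflect` : `p(x) * x⁻¹ ^ N = (reflect N p)(x⁻¹)` for `deg p ≤ N`.
* `exists_scale_isIntegral` : `f` integral over `C[x]`  ⟹  `x⁻¹ ^ m * f` integral over `C[x⁻¹]`
  for all large `m`.
-/

set_option autoImplicit false

noncomputable section

open Polynomial IntermediateField Module

namespace Fermat.Agent.RED.H42

open Fermat.Agent.RED.H34 Fermat.Agent.RED.H34.RedSetting

variable {C F : Type} [Field C] [Field F] [Algebra C F]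

theorem aeval_inv_reflect {x : F} (hx0 : x ≠ 0) (p : C[X]) (N : ℕ) (h : p.natDegree ≤ N) :
    Polynomial.aeval x⁻¹ (Polynomial.reflect N p) = Polynomial.aeval x p * x⁻¹ ^ N := by
  letI := invertibleOfNonzero hx0
  have h1 := Polynomial.eval₂_reflect_mul_pow (algebraMap C F) x N p h
  rw [invOf_eq_inv] at h1
  rw [Polynomial.aeval_def, Polynomial.aeval_def, ← h1, mul_assoc, ← mul_pow,
    mul_inv_cancel₀ hx0, one_pow, mul_one]

theorem aeval_mul_inv_pow_mem {x : F} (hx0 : x ≠ 0) (p : C[X]) (N : ℕ) (h : p.natDegree ≤ N) :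
    Polynomial.aeval x p * x⁻¹ ^ N ∈ Algebra.adjoin C {x⁻¹} := by
  rw [← aeval_inv_reflect hx0 p N h]
  exact Polynomial.aeval_mem_adjoin_singleton C _

theorem exists_aeval_eq {x : F} (r : ↥(Algebra.adjoin C {x})) :
    ∃ q : C[X], Polynomial.aeval x q = (r : F) := by
  have h1 : (r : F) ∈ (Polynomial.aeval x : C[X] →ₐ[C] F).range := by
    rw [← Algebra.adjoin_singleton_eq_range_aeval]
    exact r.2
  exact h1

/-- **Scaling**: an element integral over `C[x]` becomes integral over `C[x⁻¹]` after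
multiplication by a large power of `x⁻¹`. -/
theorem exists_scale_isIntegral {x : F} (hx0 : x ≠ 0) {f : F}
    (hf : IsIntegral ↥(Algebra.adjoin C {x}) f) :
    ∃ c : ℕ, ∀ m, c ≤ m → IsIntegral ↥(Algebra.adjoin C {x⁻¹}) (x⁻¹ ^ m * f) := by
  obtain ⟨P, hP, hroot⟩ := hf
  choose p hp using fun i => exists_aeval_eq (P.coeff i)
  refine ⟨(Finset.range P.natDegree).sup fun i => (p i).natDegree, fun m hm => ?_⟩
  have hPF : (P.map (algebraMap ↥(Algebra.adjoin C {x}) F)).Monic := hP.map _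
  have hdeg : (P.map (algebraMap ↥(Algebra.adjoin C {x}) F)).natDegree = P.natDegree :=
    hP.natDegree_map _
  have hQ : ((P.map (algebraMap ↥(Algebra.adjoin C {x}) F)).scaleRoots (x⁻¹ ^ m)).Monic :=
    (Polynomial.monic_scaleRoots_iff _).2 hPF
  have hroot' : Polynomial.eval (x⁻¹ ^ m * f)
      ((P.map (algebraMap ↥(Algebra.adjoin C {x}) F)).scaleRoots (x⁻¹ ^ m)) = 0 := by
    have h1 : Polynomial.eval₂ (RingHom.id F) f (P.map (algebraMap ↥(Algebra.adjoin C {x}) F))
        = 0 := by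
      rw [Polynomial.eval₂_map]
      exact hroot
    have h2 := Polynomial.scaleRoots_eval₂_eq_zero (RingHom.id F) (s := x⁻¹ ^ m) h1
    rw [Polynomial.eval₂_id] at h2
    exact h2
  have hlifts : (P.map (algebraMap ↥(Algebra.adjoin C {x}) F)).scaleRoots (x⁻¹ ^ m) ∈
      Polynomial.lifts (algebraMap ↥(Algebra.adjoin C {x⁻¹}) F) := by
    rw [Polynomial.lifts_iff_coeff_lifts]
    intro i
    rw [Polynomial.coeff_scaleRoots, hdeg, Polynomial.coeff_map]
    rcases lt_trichotomy i P.natDegree with hi | hi | hi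
    · have h1 : (p i).natDegree ≤ m * (P.natDegree - i) := by
        have h2 : (p i).natDegree ≤ (Finset.range P.natDegree).sup fun i => (p i).natDegree :=
          Finset.le_sup (f := fun i => (p i).natDegree) (Finset.mem_range.2 hi)
        have h3 : 1 ≤ P.natDegree - i := by omega
        calc (p i).natDegree ≤ m := h2.trans hm
          _ = m * 1 := (mul_one m).symm
          _ ≤ m * (P.natDegree - i) := Nat.mul_le_mul_left m h3
      have h4 := aeval_mul_inv_pow_mem (C := C) hx0 (p i) _ h1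
      rw [hp i, pow_mul] at h4
      exact ⟨⟨_, h4⟩, rfl⟩
    · rw [hi, Nat.sub_self, pow_zero, mul_one, Polynomial.coeff_natDegree, hP.leadingCoeff]
      exact ⟨1, by simp⟩
    · rw [Polynomial.coeff_eq_zero_of_natDegree_lt hi]
      exact ⟨0, by simp⟩
  obtain ⟨q, hq, -, hqm⟩ := Polynomial.lifts_and_degree_eq_and_monic hlifts hQ
  refine ⟨q, hqm, ?_⟩
  rw [← Polynomial.eval_map, hq]
  exact hroot'

end Fermat.Agent.RED.H42

end
end
-- ==== END Fermat.Agent.RED.H42_Gen6

-- ==== BEGIN Fermat.Agent.RED.H51_Final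
section

/-!
# FF-B (helper51): final assembly, unconditional

The zeros theorem in any characteristic (`zerosAll`, from helper12's existence of zeros, helper42's
`≥` half and the `≤` half `zerosLeAll`), and with it all six `Stmt_FFB_*`, the three `Stmt_FFR_*`
(helper42's proofs).  `Stmt_HKA` is in `H51_HKA.lean`.
-/

set_option autoImplicit false

noncomputable section

open AlgebraicCurve IntermediateField

namespace Fermat.Agent.RED.H51

/-- **The zeros theorem** for function fields over algebraically closed fields of any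
characteristic: a non-constant `x` has finitely many zeros and `∑ v(x) = [F : K(x)]`. -/
theorem zerosAll : Fermat.Agent.RED.H42.ZerosAll :=
  Fermat.Agent.RED.H42.zerosAll_of Fermat.Agent.RED.H12.existsZeroAll zerosLeAll

/-- Every nonzero function has a divisor, of degree `0`. -/
theorem stmt_FFB_principal : Fermat.Agent.RED.Stmt_FFB_principal :=
  Fermat.Agent.RED.H42.stmt_FFB_principal_of zerosAll

/-- The fundamental identity. -/
theorem stmt_FFB_fundamental : Fermat.Agent.RED.Stmt_FFB_fundamental :=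
  stmt_FFB_fundamental_of zerosAll

/-- The norm formula. -/
theorem stmt_FFB_norm : Fermat.Agent.RED.Stmt_FFB_norm :=
  stmt_FFB_norm_of zerosAll

/-- `L(D)` is finite dimensional. -/
theorem stmt_FFR_finite : Fermat.Agent.RED.Stmt_FFR_finite :=
  Fermat.Agent.RED.H42.stmt_FFR_finite_of zerosAll

/-- `l(D) ≤ deg D + 1`. -/
theorem stmt_FFR_le : Fermat.Agent.RED.Stmt_FFR_le :=
  Fermat.Agent.RED.H42.stmt_FFR_le_of zerosAll

/-- Riemann's theorem. -/
theorem stmt_FFR_riemann : Fermat.Agent.RED.Stmt_FFR_riemann :=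
  Fermat.Agent.RED.H42.stmt_FFR_riemann_of zerosAll

end Fermat.Agent.RED.H51

end
end
-- ==== END Fermat.Agent.RED.H51_Final

-- ==== BEGIN Fermat.Agent.RED.H73_GADegMod
section
attribute [local instance 10000] HahnSeries.powerSeriesAlgebra

/-!
# G-RED package GA (helper73): degrees of the modular function fields over `j`

For conjugate data `D : CADataL L N`, `L` algebraically closed, `N` invertible in `A`:
* `map_fullC_eq_coreField`   : `(q ↦ t^N)(F_N L) = L(u, J)`;
* `map_fullC_eq_coreRed`     : `(q ↦ t^N)(F_{N,k}) = k(u~, J~)`;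
* `relfinrank_fullC`         : `[F_N L : L(j)] = card Q`;
* `relfinrank_fullC_red`     : `[F_{N,k} : k(j~)] = card Q`;
* `isSeparable_fullC_red`    : `F_{N,k} / k(j~)` is separable;
* `stmt_GA_deg_of_CAL : Stmt_CAL → Stmt_GA_deg`.
-/

set_option autoImplicit false

open Polynomial ModularCurve Fermat.Agent.S28 Fermat.Agent.S28.H73
open IntermediateField

noncomputable section

namespace Fermat.Agent.RED.H73

/-! ### Field theory: separability and injective algebra maps -/

/-- Separability can be tested after an injective algebra map. -/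
theorem isSeparable_of_map {F E E' : Type*} [Field F] [Field E] [Field E'] [Algebra F E]
    [Algebra F E'] (φ : E →ₐ[F] E') (A₀ : IntermediateField F E) (x : E)
    (hsep : IsSeparable ↥(A₀.map φ) (φ x)) : IsSeparable ↥A₀ x := by
  unfold IsSeparable at hsep ⊢
  set ψ : ↥A₀ ≃ₐ[F] ↥(A₀.map φ) := A₀.equivMap φ with hψ
  set m := minpoly ↥(A₀.map φ) (φ x) with hm
  set m₀ : (↥A₀)[X] := m.map (ψ.symm : ↥(A₀.map φ) →+* ↥A₀) with hm₀
  have hsep₀ : m₀.Separable := hsep.map
  have hback : m₀.map (ψ : ↥A₀ →+* ↥(A₀.map φ)) = m := by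
    rw [hm₀, Polynomial.map_map]
    have : ((ψ : ↥A₀ →+* ↥(A₀.map φ)).comp (ψ.symm : ↥(A₀.map φ) →+* ↥A₀))
        = RingHom.id _ := by
      ext a
      simp
    rw [this, Polynomial.map_id]
  have hcomp : (φ : E →+* E').comp (algebraMap ↥A₀ E)
      = (algebraMap ↥(A₀.map φ) E').comp (ψ : ↥A₀ →+* ↥(A₀.map φ)) := by
    ext a
    rfl
  have hroot : aeval x m₀ = 0 := by
    apply φ.injective
    rw [map_zero, aeval_def]
    show (φ : E →+* E') (eval₂ (algebraMap (↥A₀) E) x m₀) = 0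
    rw [Polynomial.hom_eval₂, hcomp, ← Polynomial.eval₂_map, hback]
    exact minpoly.aeval _ _
  exact hsep₀.of_dvd (minpoly.dvd _ _ hroot)

section Data

variable {L : Type} [Field L] {N : ℕ} [NeZero N] (D : CADataL L N)

/-- The conjugate data satisfy `ConjHyp`. -/
theorem conjHyp_of_caDataL : ConjHyp D.q₀ (JL L N) D.U where
  J_order := by
    rw [JL_order]
    have h3 : (0 : ℤ) < (N : ℤ) := by exact_mod_cast Nat.pos_of_ne_zero (NeZero.ne N)
    omega
  U_order₀ := by
    rw [D.U_order₀]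
    have h2 := D.D_pos
    have h3 : (0 : ℤ) < (N : ℤ) := by exact_mod_cast Nat.pos_of_ne_zero (NeZero.ne N)
    have : (0 : ℤ) < (D.D : ℤ) * (N : ℤ) := by positivity
    omega
  U_ne := D.U_ne
  U_order_pos := D.U_order_pos
  sym := fun c => by
    have h := D.sym N dvd_rfl c 0
    have e : (∏ q, (HahnSeries.C c - D.U q - HahnSeries.C 0 * D.X N q))
        = ∏ q, (HahnSeries.C c - D.U q) :=
      Finset.prod_congr rfl fun q _ => by rw [map_zero, zero_mul, sub_zero]
    rw [e] at h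
    exact h

theorem caDataL_X_q₀_coeff : (D.X N D.q₀).coeff (-(N : ℤ) ^ 2) = 1 := by
  rw [D.X_q₀ N dvd_rfl]
  have e : (-(N : ℤ) ^ 2) = (N : ℤ) * ((N : ℤ) * (-1)) := by ring
  rw [e, qExpand_coeff_mul, qExpand_coeff_mul, coeff_jqModC_neg_one]

theorem caDataL_X_ne (q : D.Q) (hq : q ≠ D.q₀) : D.X N q ≠ D.X N D.q₀ := by
  intro h
  have h1 := D.X_top q hq
  rw [h, caDataL_X_q₀_coeff] at h1
  exact one_ne_zero h1

variable [Infinite L]

/-- **Lagrange with exchanged roles over `L`**: `u ∈ L(j(t^{N²}), J)`. -/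
theorem caDataL_U_mem :
    D.U D.q₀ ∈ IntermediateField.adjoin L ({D.X N D.q₀, JL L N} : Set (LaurentSeries L)) := by
  refine lagrange_swap (F := L) (L := LaurentSeries L) D.q₀
    (Algebra.adjoin L ({JL L N} : Set (LaurentSeries L))) _ ?_ D.U (D.X N) ?_
    (caDataL_X_ne D) ?_
  · intro a ha
    have hle : Algebra.adjoin L ({JL L N} : Set (LaurentSeries L))
        ≤ (IntermediateField.adjoin L ({D.X N D.q₀, JL L N} :
            Set (LaurentSeries L))).toSubalgebra := by
      refine Algebra.adjoin_le ?_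
      intro x hx
      rw [Set.mem_singleton_iff] at hx
      subst hx
      exact IntermediateField.subset_adjoin L _ (by simp)
    exact hle ha
  · exact IntermediateField.subset_adjoin L _ (by simp)
  · intro c s
    have := D.sym N dvd_rfl c s
    simp only [Fermat.Agent.S28.H92.hahnC_eq_algebraMap] at this
    exact this

theorem coreField_le_map_fullC :
    coreField D ≤ (modularFunctionFieldFullC L N).map (qExpandAlgHomC L N) := by
  have hJ : JL L N ∈ (modularFunctionFieldFullC L N).map (qExpandAlgHomC L N) :=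
    ⟨jqModC L, jqModC_mem_full L N, rfl⟩
  have hX : D.X N D.q₀ ∈ (modularFunctionFieldFullC L N).map (qExpandAlgHomC L N) := by
    rw [D.X_q₀ N dvd_rfl]
    exact ⟨qExpand L N (jqModC L), jqModCd_mem_full L N dvd_rfl, rfl⟩
  have hle : IntermediateField.adjoin L ({D.X N D.q₀, JL L N} : Set (LaurentSeries L))
      ≤ (modularFunctionFieldFullC L N).map (qExpandAlgHomC L N) := by
    rw [IntermediateField.adjoin_le_iff]
    rintro x (rfl | hx)
    · exact hX
    · rw [Set.mem_singleton_iff] at hx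
      subst hx
      exact hJ
  rw [coreField, IntermediateField.adjoin_le_iff]
  rintro x (rfl | hx)
  · exact hle (caDataL_U_mem D)
  · rw [Set.mem_singleton_iff] at hx
    subst hx
    exact hJ

end Data

section DataL

variable {L : Type} [Field L] [IsAlgClosed L] {N : ℕ} [NeZero N] (D : CADataL L N)

/-- `(q ↦ t^N)(F_N L) = L(u, J)`. -/
theorem map_fullC_eq_coreField :
    (modularFunctionFieldFullC L N).map (qExpandAlgHomC L N) = coreField D :=
  le_antisymm (map_fullC_le_coreField D) (coreField_le_map_fullC D)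

theorem map_adjoin_j (K : Type) [Field K] (N : ℕ) [NeZero N] :
    (IntermediateField.adjoin K ({jqModC K} : Set (LaurentSeries K))).map (qExpandAlgHomC K N)
      = IntermediateField.adjoin K ({JL K N} : Set (LaurentSeries K)) := by
  rw [IntermediateField.adjoin_map, Set.image_singleton]
  rfl

/-- **Degree over `L`**: `[F_N L : L(j)] = card Q`. -/
theorem relfinrank_fullC :
    (IntermediateField.adjoin L ({jqModC L} : Set (LaurentSeries L))).relfinrank
      (modularFunctionFieldFullC L N) = Fintype.card D.Q := by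
  rw [← relfinrank_map_map (f := qExpandAlgHomC L N), map_adjoin_j, map_fullC_eq_coreField D]
  exact (conjHyp_of_caDataL D).relfinrank_eq

end DataL

section DataK

variable {L : Type} [Field L] [IsAlgClosed L] (A : ValuationSubring L) [Infinite (kV A)]
  {N : ℕ} [NeZero N] (hN : ((N : L))⁻¹ ∈ A) (D : CADataL L N)

omit [Infinite (kV A)] in
include hN in
theorem map_fullC_le_coreRed :
    (modularFunctionFieldFullC (kV A) N).map (qExpandAlgHomC (kV A) N)
      ≤ IntermediateField.adjoin (kV A)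
        ({Ured (coreHyp_of_caDataL A hN D) D.q₀, Jred (coreHyp_of_caDataL A hN D)} :
          Set (LaurentSeries (kV A))) := by
  rw [modularFunctionFieldFullC, IntermediateField.adjoin_map, IntermediateField.adjoin_le_iff]
  rintro x ⟨y, ⟨d, hd0, hd, rfl⟩, rfl⟩
  have := hd0
  set h := coreHyp_of_caDataL A hN D with hh
  have hV : qExpand L d (jqModC L) ∈ gaussRingV A := qExpand_jqModC_mem_gaussRingV A d
  have hV' : qExpand L N (qExpand L d (jqModC L)) ∈ gaussRingV A :=
    qExpand_mem_gaussRingV A N hV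
  have hmem : qExpand L N (qExpand L d (jqModC L)) ∈ coreField D :=
    qExpand_jd_mem_coreField D hd
  have h1 : gaussRedV A ⟨qExpand L N (qExpand L d (jqModC L)), hV'⟩ ∈
      redField A (IntermediateField.adjoin L ({D.U D.q₀, JL L N} : Set (LaurentSeries L)))
        (hasScale_core h) :=
    ⟨⟨⟨qExpand L N (qExpand L d (jqModC L)), hmem⟩, hV'⟩, rfl⟩
  rw [redField_core h] at h1
  have h2 := gaussRedV_qExpand A N ⟨qExpand L d (jqModC L), hV⟩ hV'
  rw [gaussRedV_qExpand_jqModC A d hV] at h2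
  show qExpand (kV A) N (qExpand (kV A) d (jqModC (kV A))) ∈ _
  rw [← h2]
  exact h1

include hN in
/-- `(q ↦ t^N)(F_{N,k}) = k(u~, J~)`. -/
theorem map_fullC_eq_coreRed :
    (modularFunctionFieldFullC (kV A) N).map (qExpandAlgHomC (kV A) N)
      = IntermediateField.adjoin (kV A)
        ({Ured (coreHyp_of_caDataL A hN D) D.q₀, Jred (coreHyp_of_caDataL A hN D)} :
          Set (LaurentSeries (kV A))) :=
  le_antisymm (map_fullC_le_coreRed A hN D) (coreRed_le_map_fullC A hN D)

omit [IsAlgClosed L] [Infinite (kV A)] in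
include hN in
theorem map_adjoin_j_red :
    (IntermediateField.adjoin (kV A) ({jqModC (kV A)} : Set (LaurentSeries (kV A)))).map
        (qExpandAlgHomC (kV A) N)
      = IntermediateField.adjoin (kV A)
          ({Jred (coreHyp_of_caDataL A hN D)} : Set (LaurentSeries (kV A))) := by
  rw [map_adjoin_j, Jred_eq A hN D]
  rfl

include hN D in
/-- **Degree over the residue field**: `[F_{N,k} : k(j~)] = card Q`. -/
theorem relfinrank_fullC_red :
    (IntermediateField.adjoin (kV A) ({jqModC (kV A)} : Set (LaurentSeries (kV A)))).relfinrank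
      (modularFunctionFieldFullC (kV A) N) = Fintype.card D.Q := by
  rw [← relfinrank_map_map (f := qExpandAlgHomC (kV A) N), map_adjoin_j_red A hN D,
    map_fullC_eq_coreRed A hN D]
  exact (conjHyp_red (coreHyp_of_caDataL A hN D)).relfinrank_eq

include hN D in
/-- **Separability over the residue field**: `F_{N,k} / k(j~)` is separable. -/
theorem isSeparable_fullC_red {x : LaurentSeries (kV A)}
    (hx : x ∈ modularFunctionFieldFullC (kV A) N) :
    IsSeparable ↥(IntermediateField.adjoin (kV A)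
      ({jqModC (kV A)} : Set (LaurentSeries (kV A)))) x := by
  apply isSeparable_of_map (qExpandAlgHomC (kV A) N)
  have hmem : qExpandAlgHomC (kV A) N x ∈ IntermediateField.adjoin (kV A)
      ({Ured (coreHyp_of_caDataL A hN D) D.q₀, Jred (coreHyp_of_caDataL A hN D)} :
        Set (LaurentSeries (kV A))) := by
    rw [← map_fullC_eq_coreRed A hN D]
    exact ⟨x, hx, rfl⟩
  have hsep := (conjHyp_red (coreHyp_of_caDataL A hN D)).isSeparable_of_mem hmem
  rw [map_adjoin_j_red A hN D]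
  exact hsep

end DataK

/-- **`Stmt_GA_deg` from the conjugate data over `ℚ̄`.** -/
theorem stmt_GA_deg_of_CAL (h : Stmt_CAL) : Stmt_GA_deg := by
  intro N ℓ _ hℓ hℓN A hA
  obtain ⟨D⟩ := h N
  have : IsAlgClosed (kV A) := isAlgClosed_kV A
  have : Infinite (kV A) := IsAlgClosed.instInfinite
  have hN := inv_natCast_mem_of_liesOver A N hℓ hℓN hA
  refine ⟨?_, fun x hx => isSeparable_fullC_red A hN D hx⟩
  rw [relfinrank_fullC_red A hN D, relfinrank_fullC D]

end Fermat.Agent.RED.H73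

end
end
-- ==== END Fermat.Agent.RED.H73_GADegMod

-- ==== BEGIN Fermat.Agent.RED.H95_IsFF
section

/-!
# G-RED, package HK-A, first half: the modular function field is a function field

`stmt_HKA_isFF : Stmt_HKA_isFF`: for every `N ≠ 0` the field `F_N·Q̄` is finite over `Q̄(j)` and
`j` is transcendental over `Q̄`.  Pure wiring from the S24 closure layer (`modClosure N`) and the
S24 assembly layer (`asm_transcendental_jF`, `asm_finiteDimensional`).
-/

set_option autoImplicit false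

noncomputable section

namespace Fermat.Agent.RED.H95

open Fermat.Agent.S24 IntermediateField

/-- `j` is transcendental over `Q̄` and `F_N·Q̄` is finite over `Q̄(j)`. -/
theorem isFF_FN (N : ℕ) [NeZero N] : IsFF Kbar (FN N) :=
  ⟨jF N, asm_transcendental_jF (modClosure N), asm_finiteDimensional (modClosure N)⟩

/-- **HK-A, first half.** -/
theorem stmt_HKA_isFF : Stmt_HKA_isFF := fun N _ => isFF_FN N

end Fermat.Agent.RED.H95

end
end
-- ==== END Fermat.Agent.RED.H95_IsFF

-- ==== BEGIN Fermat.Agent.RED.KD.H22_Degree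
section
attribute [local instance 10000] SubalgebraClass.toAlgebra
attribute [local instance 10000] HahnSeries.powerSeriesAlgebra

/-!
# G-RED package KD (helper22), part 4: the field fixed by `rot ζ` at the cusp `0`

For `M = N c` with `ψ(M) < 2 c ψ(N)`: an element of `F_M` whose expansion at the cusp `0` is a
series in `u^c` lies in `F_N`.
-/

set_option autoImplicit false

noncomputable section

open HahnSeries ModularCurve IntermediateField

namespace Fermat.Agent.RED.KD.H22

open Fermat.Agent.S24 Fermat.Agent.RED.H10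
open scoped MatrixGroups

theorem bar_le {N M : ℕ} [NeZero N] [NeZero M] (h : N ∣ M) :
    modularFunctionFieldBar N ≤ modularFunctionFieldBar M :=
  IntermediateField.adjoin.mono _ _ _ (Set.image_mono (full_degeneracy_le h))

/-- The inclusion `F_N → F_M`. -/
def incl {N M : ℕ} [NeZero N] [NeZero M] (h : N ∣ M) : FN N →ₐ[Kbar] FN M :=
  IntermediateField.inclusion (bar_le h)

theorem incl_coe {N M : ℕ} [NeZero N] [NeZero M] (h : N ∣ M) (x : FN N) :
    ((incl h x : FN M) : LaurentSeries Kbar) = (x : LaurentSeries Kbar) :=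
  IntermediateField.coe_inclusion (bar_le h) x

theorem incl_jdF {N M : ℕ} [NeZero N] [NeZero M] (h : N ∣ M) (d : ℕ) [NeZero d] (hd : d ∣ N) :
    incl h (jdF N d hd) = jdF M d (hd.trans h) := by
  apply Subtype.ext
  rw [incl_coe]
  rfl

theorem incl_jF {N M : ℕ} [NeZero N] [NeZero M] (h : N ∣ M) : incl h (jF N) = jF M := by
  apply Subtype.ext
  rw [incl_coe]
  rfl

theorem mem_range_incl_iff {N M : ℕ} [NeZero N] [NeZero M] (h : N ∣ M) (x : FN M) :
    x ∈ (incl h).fieldRange ↔ (x : LaurentSeries Kbar) ∈ modularFunctionFieldBar N := by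
  constructor
  · rintro ⟨y, rfl⟩
    have := incl_coe h y
    exact (incl_coe h y).symm ▸ y.2
  · intro hx
    exact ⟨⟨_, hx⟩, Subtype.ext (incl_coe h _)⟩

/-- The subfield of `F_M` of the functions whose expansion at the cusp `0` is fixed by
`rot ζ`. -/
def fixF (M : ℕ) [NeZero M] (ζ : Kbarˣ) : IntermediateField Kbar (FN M) where
  carrier := {x | rot ζ (iota0 M x) = iota0 M x}
  mul_mem' := fun {a b} ha hb => by
    show rot ζ (iota0 M (a * b)) = iota0 M (a * b)
    rw [map_mul, map_mul, ha, hb]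
  one_mem' := by
    show rot ζ (iota0 M 1) = iota0 M 1
    rw [map_one, map_one]
  add_mem' := fun {a b} ha hb => by
    show rot ζ (iota0 M (a + b)) = iota0 M (a + b)
    rw [map_add, map_add, ha, hb]
  zero_mem' := by
    show rot ζ (iota0 M 0) = iota0 M 0
    rw [map_zero, map_zero]
  algebraMap_mem' := fun c => by
    show rot ζ (iota0 M (algebraMap Kbar (FN M) c)) = iota0 M (algebraMap Kbar (FN M) c)
    rw [iota0_algebraMap, rot_C]
  inv_mem' := fun a ha => by
    show rot ζ (iota0 M a⁻¹) = iota0 M a⁻¹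
    rw [map_inv₀, map_inv₀, ha]

theorem mem_fixF {M : ℕ} [NeZero M] {ζ : Kbarˣ} {x : FN M} :
    x ∈ fixF M ζ ↔ rot ζ (iota0 M x) = iota0 M x := Iff.rfl

theorem jdF_mem_fixF {N M c : ℕ} [NeZero N] [NeZero M] (hM : M = N * c) {ζ : Kbarˣ}
    (hζ : ζ ^ c = 1) (d : ℕ) [NeZero d] (hd : d ∣ N) :
    jdF M d (hd.trans (Dvd.intro c hM.symm)) ∈ fixF M ζ := by
  have hc0 : c ≠ 0 := by
    rintro rfl
    exact NeZero.ne M (by rw [hM, mul_zero])
  have : NeZero c := ⟨hc0⟩
  have hNd : 0 < N / d := Nat.div_pos (Nat.le_of_dvd (Nat.pos_of_ne_zero (NeZero.ne N)) hd)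
    (Nat.pos_of_ne_zero (NeZero.ne d))
  have : NeZero (N / d) := ⟨hNd.ne'⟩
  have hdM : d ∣ M := hd.trans (Dvd.intro c hM.symm)
  have hMd : 0 < M / d := Nat.div_pos (Nat.le_of_dvd (Nat.pos_of_ne_zero (NeZero.ne M)) hdM)
    (Nat.pos_of_ne_zero (NeZero.ne d))
  have : NeZero (M / d) := ⟨hMd.ne'⟩
  have : NeZero (c * (N / d)) := ⟨Nat.mul_ne_zero hc0 hNd.ne'⟩
  rw [mem_fixF, iota0_jdF M d hdM]
  have e : M / d = c * (N / d) := by
    rw [hM, mul_comm N c, Nat.mul_div_assoc c hd]
  rw [qExpand_congr e, ← qExpand_qExpand]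
  exact rot_qExpand c ζ hζ _

theorem mem_comap_iff' {K L L' : Type*} [Field K] [Field L] [Field L'] [Algebra K L]
    [Algebra K L'] (f : L →ₐ[K] L') (S : IntermediateField K L') (x : L) :
    x ∈ S.comap f ↔ f x ∈ S := Iff.rfl

theorem range_incl_le_fixF {N M c : ℕ} [NeZero N] [NeZero M] (hM : M = N * c) {ζ : Kbarˣ}
    (hζ : ζ ^ c = 1) : (incl (Dvd.intro c hM.symm : N ∣ M)).fieldRange ≤ fixF M ζ := by
  have h : N ∣ M := Dvd.intro c hM.symm
  have htop : (fixF M ζ).comap (incl h) = ⊤ := by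
    rw [eq_top_iff, ← adjoin_jdF N, IntermediateField.adjoin_le_iff]
    rintro _ ⟨d, hd0, hd, rfl⟩
    rw [SetLike.mem_coe, mem_comap_iff', incl_jdF]
    exact jdF_mem_fixF hM hζ d hd
  intro y hy
  rw [AlgHom.mem_fieldRange] at hy
  obtain ⟨x, rfl⟩ := hy
  have hx : x ∈ (fixF M ζ).comap (incl h) := by
    rw [htop]
    exact IntermediateField.mem_top
  exact (mem_comap_iff' _ _ _).mp hx

theorem relfinrank_J_top (M : ℕ) [NeZero M] :
    relfinrank Kbar⟮jF M⟯ (⊤ : IntermediateField Kbar (FN M)) = dedekindPsi M := by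
  rw [relfinrank_top_right]
  exact asm_finrank (modClosure M)

theorem relfinrank_J_range {N M : ℕ} [NeZero N] [NeZero M] (h : N ∣ M) :
    relfinrank Kbar⟮jF M⟯ (incl h).fieldRange = dedekindPsi N := by
  have h1 := relfinrank_map_map (A := Kbar⟮jF N⟯) (B := (⊤ : IntermediateField Kbar (FN N)))
    (incl h)
  rw [relfinrank_J_top N] at h1
  rw [← h1]
  congr 1
  · rw [IntermediateField.adjoin_map, Set.image_singleton, incl_jF]
  · rw [AlgHom.fieldRange_eq_map]

theorem J_le_range {N M : ℕ} [NeZero N] [NeZero M] (h : N ∣ M) :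
    Kbar⟮jF M⟯ ≤ (incl h).fieldRange := by
  rw [IntermediateField.adjoin_le_iff]
  rintro _ rfl
  exact ⟨jF N, incl_jF h⟩

theorem dedekindPsi_pos (N : ℕ) [NeZero N] : 0 < dedekindPsi N := by
  have h := asm_finrank (modClosure N)
  have : FiniteDimensional Kbar⟮jF N⟯ (FN N) := asm_finiteDimensional (modClosure N)
  rw [← h]
  exact Module.finrank_pos

theorem jBar_ne_zero : (jBar : LaurentSeries Kbar) ≠ 0 := by
  intro h
  have := asm_jBar_coeff_neg_one
  rw [h] at this
  exact zero_ne_one this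

theorem jBar_order : (jBar : LaurentSeries Kbar).order = -1 := by
  apply le_antisymm
  · exact HahnSeries.order_le_of_coeff_ne_zero (by rw [asm_jBar_coeff_neg_one]; exact one_ne_zero)
  · by_contra hcon
    rw [not_le] at hcon
    have h0 : ∀ k : ℤ, k < -1 → (jBar : LaurentSeries Kbar).coeff k = 0 := by
      intro k hk
      rw [jBar, coeffEmb_coeff, coeff_jq_of_lt hk, map_zero]
    have h1 : (jBar : LaurentSeries Kbar).coeff jBar.order = 0 := h0 _ hcon
    exact jBar_ne_zero (HahnSeries.coeff_order_eq_zero.mp h1)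

theorem iota0_jdF_self (M : ℕ) [NeZero M] : iota0 M (jdF M M dvd_rfl) = jBar := by
  have h := iota0_jdF M M dvd_rfl
  have hM : 0 < M := Nat.pos_of_ne_zero (NeZero.ne M)
  have : NeZero (M / M) := ⟨by rw [Nat.div_self hM]; exact one_ne_zero⟩
  rw [h, qExpand_congr (Nat.div_self hM), qExpand_one_apply]

theorem iota0_injective (M : ℕ) [NeZero M] : Function.Injective (iota0 M) :=
  (iota0 M).injective

/-- `[F_M : fixF] ≥ c`. -/
theorem le_finrank_fixF (M c : ℕ) [NeZero M] {ζ : Kbarˣ} (hζ : IsPrimitiveRoot ζ c)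
    [Module.Finite (fixF M ζ) (FN M)] : c ≤ Module.finrank (fixF M ζ) (FN M) := by
  have hli : LinearIndependent (fixF M ζ) (fun i : Fin c => (jdF M M dvd_rfl) ^ (i : ℕ)) := by
    rw [Fintype.linearIndependent_iff]
    intro g hg
    have hg' : ∑ i, iota0 M ((g i : FN M)) * (jBar : LaurentSeries Kbar) ^ (i : ℕ) = 0 := by
      have := congrArg (iota0 M) hg
      rw [map_sum, map_zero] at this
      rw [← this]
      refine Finset.sum_congr rfl fun i _ => ?_
      rw [IntermediateField.smul_def, smul_eq_mul, map_mul, map_pow, iota0_jdF_self]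
    have hz := eq_zero_of_sum_eq_zero hζ jBar jBar_ne_zero jBar_order
      (fun i => iota0 M ((g i : FN M))) (fun i => (g i).2) hg'
    intro i
    have h0 : ((g i : FN M)) = 0 := iota0_injective M (by rw [hz i, map_zero])
    exact Subtype.ext h0
  have := hli.fintype_card_le_finrank
  simpa using this

/-- **Core.**  For `M = N c` with `ψ(M) < 2 c ψ(N)`, an element of `F_M` whose expansion at
the cusp `0` is fixed by `rot ζ` (`ζ` a primitive `c`-th root of unity) lies in `F_N`. -/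
theorem mem_bar_of_fixed {N M c : ℕ} [NeZero N] [NeZero M] (hM : M = N * c)
    (hψ : dedekindPsi M < 2 * c * dedekindPsi N) {ζ : Kbarˣ} (hζ : IsPrimitiveRoot ζ c)
    (x : FN M) (hx : rot ζ (iota0 M x) = iota0 M x) :
    (x : LaurentSeries Kbar) ∈ modularFunctionFieldBar N := by
  have h : N ∣ M := Dvd.intro c hM.symm
  have hJA : Kbar⟮jF M⟯ ≤ (incl h).fieldRange := J_le_range h
  have hAF : (incl h).fieldRange ≤ fixF M ζ := range_incl_le_fixF hM hζ.pow_eq_one
  have h1 : relfinrank Kbar⟮jF M⟯ (incl h).fieldRange = dedekindPsi N := relfinrank_J_range h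
  have h2 := relfinrank_J_top M
  have h3 := relfinrank_mul_relfinrank hJA hAF
  have h4 := relfinrank_mul_relfinrank (hJA.trans hAF) (le_top : fixF M ζ ≤ ⊤)
  rw [h2, ← h3, h1, relfinrank_top_right] at h4
  have hMpos : 0 < dedekindPsi M := dedekindPsi_pos M
  have hb : 0 < Module.finrank (fixF M ζ) (FN M) := by
    rcases Nat.eq_zero_or_pos (Module.finrank (fixF M ζ) (FN M)) with h0 | h0
    · rw [h0, mul_zero] at h4
      omega
    · exact h0
  have : Module.Finite (fixF M ζ) (FN M) := FiniteDimensional.of_finrank_pos hb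
  have hc := le_finrank_fixF M c hζ
  have ha : relfinrank (incl h).fieldRange (fixF M ζ) = 1 := by
    set a := relfinrank (incl h).fieldRange (fixF M ζ) with ha
    set b := Module.finrank (fixF M ζ) (FN M) with hb'
    have ha0 : a ≠ 0 := by
      rintro h0
      rw [h0, mul_zero, zero_mul] at h4
      omega
    by_contra hne
    have ha2 : 2 ≤ a := by omega
    have : dedekindPsi N * 2 * c ≤ dedekindPsi N * a * b :=
      Nat.mul_le_mul (Nat.mul_le_mul_left _ ha2) hc
    rw [h4] at this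
    nlinarith
  have hle := relfinrank_eq_one_iff.mp ha
  exact (mem_range_incl_iff h x).mp (hle hx)

end Fermat.Agent.RED.KD.H22

end
end
-- ==== END Fermat.Agent.RED.KD.H22_Degree

-- ==== BEGIN Fermat.Agent.S15.H30_CuspGal
section
attribute [local instance 10000] SubalgebraClass.toAlgebra
attribute [local instance 10000] HahnSeries.powerSeriesAlgebra

/-!
# S15, package CUSP-gal (helper30): the cusps of `X₀(p)` are rational

For `p` prime, `[F_p : ℚ̄(j)] = p + 1` and the poles of `j` have orders summing to `p + 1`, so the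
two places of a cusp pair (`ord j = -1`, `ord j = -p`) are the only poles of `j`
(`pole_eq_of_isCuspPair`).  The Galois action fixes `j`, hence permutes the poles of `j`
preserving `ord j`; so it fixes both cusps.
-/

set_option autoImplicit false
set_option synthInstance.maxHeartbeats 400000

noncomputable section

open HahnSeries IntermediateField AlgebraicCurve ModularCurve

namespace Fermat.Agent.S15.H30

open Fermat.Agent.S24 (Kbar FN jF modClosure asm_finrank asm_finiteDimensional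
  asm_transcendental_jF h72_zerosStmt)

theorem jBar_eq_jF (p : ℕ) [NeZero p] : _root_.Fermat.Agent.S15.jBar p = jF p := rfl

/-- The two places of a cusp pair are different (`p ≥ 2`). -/
theorem isCuspPair_ne {p : ℕ} [NeZero p] (hp : 2 ≤ p) {Pinf P0 : PlaceBar p}
    (h : IsCuspPair p Pinf P0) : Pinf ≠ P0 := by
  intro e
  have h1 := h.ord_j_inf
  rw [e, h.ord_j_zero] at h1
  have : (2 : ℤ) ≤ (p : ℤ) := by exact_mod_cast hp
  omega

/-- For `p` prime, every pole of `j` on `X₀(p)` is one of the two cusps. -/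
theorem pole_eq_of_isCuspPair {p : ℕ} [NeZero p] (hp : p.Prime) {Pinf P0 : PlaceBar p}
    (h : IsCuspPair p Pinf P0) (P : PlaceBar p) (hP : P.ord (_root_.Fermat.Agent.S15.jBar p) < 0) :
    P = Pinf ∨ P = P0 := by
  classical
  have := asm_finiteDimensional (modClosure p)
  obtain ⟨S, hS, hsum, -⟩ := Fermat.Agent.S24.H85.poles (K := Kbar) (F := FN p) (jF p)
    (asm_transcendental_jF (modClosure p)) (fun y hy _ => h72_zerosStmt y hy)
  have hpsi : dedekindPsi p = p + 1 := by
    have := Fermat.Agent.S20.H19.dedekindPsi_prime_pow hp (n := 1) one_pos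
    simpa using this
  rw [asm_finrank (modClosure p), hpsi] at hsum
  by_contra hne
  rw [not_or] at hne
  have hp2 : (2 : ℤ) ≤ (p : ℤ) := by exact_mod_cast hp.two_le
  have hPinf : Pinf ∈ S := (hS Pinf).2 (by
    have := h.ord_j_inf; rw [jBar_eq_jF] at this; omega)
  have hP0 : P0 ∈ S := (hS P0).2 (by
    have := h.ord_j_zero; rw [jBar_eq_jF] at this; omega)
  have hPS : P ∈ S := (hS P).2 hP
  have hne' : Pinf ≠ P0 := isCuspPair_ne hp.two_le h
  -- the three distinct poles
  have hsub : ({P, Pinf, P0} : Finset (PlaceBar p)) ⊆ S := by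
    intro x hx
    simp only [Finset.mem_insert, Finset.mem_singleton] at hx
    rcases hx with rfl | rfl | rfl
    · exact hPS
    · exact hPinf
    · exact hP0
  have hle' : ∑ v ∈ ({P, Pinf, P0} : Finset (PlaceBar p)), (-(v.ord (jF p)))
      ≤ ∑ v ∈ S, (-(v.ord (jF p))) :=
    Finset.sum_le_sum_of_subset_of_nonneg hsub fun v hv _ => by
      have := (hS v).1 hv
      omega
  rw [Finset.sum_neg_distrib, Finset.sum_neg_distrib, neg_le_neg_iff] at hle'
  have hle : ∑ v ∈ S, v.ord (jF p) ≤ ∑ v ∈ ({P, Pinf, P0} : Finset (PlaceBar p)), v.ord (jF p) :=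
    hle'
  rw [Finset.sum_insert (by simp [hne.1, hne.2]), Finset.sum_insert (by simp [hne']),
    Finset.sum_singleton, hsum] at hle
  have h1 := h.ord_j_inf
  have h2 := h.ord_j_zero
  rw [jBar_eq_jF] at h1 h2 hP
  rw [h1, h2] at hle
  push_cast at hle
  omega

/-- The Galois action fixes `j`. -/
theorem gal_smul_jBar (p : ℕ) [NeZero p] (σ : GalQ) :
    arithmeticGalois (modularFunctionFieldFull p) σ • _root_.Fermat.Agent.S15.jBar p = _root_.Fermat.Agent.S15.jBar p := by
  apply Subtype.ext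
  rw [coe_arithmeticGalois_smul]
  exact coeffMap_coeffEmb σ jq

/-- The Galois action fixes `j(q^p)`. -/
theorem gal_smul_jBarN (p : ℕ) [NeZero p] (σ : GalQ) :
    arithmeticGalois (modularFunctionFieldFull p) σ • jBarN p = jBarN p := by
  apply Subtype.ext
  rw [coe_arithmeticGalois_smul]
  exact coeffMap_coeffEmb σ (qExpand ℚ p jq)

theorem ord_galPlace_jBar (p : ℕ) [NeZero p] (σ : GalQ) (P : PlaceBar p) :
    (galPlace p σ P).ord (_root_.Fermat.Agent.S15.jBar p) = P.ord (_root_.Fermat.Agent.S15.jBar p) := by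
  have h := SemilinearAut.ord_smul (arithmeticGalois (modularFunctionFieldFull p) σ) P (_root_.Fermat.Agent.S15.jBar p)
  rw [gal_smul_jBar] at h
  exact h

theorem ord_galPlace_jBarN (p : ℕ) [NeZero p] (σ : GalQ) (P : PlaceBar p) :
    (galPlace p σ P).ord (jBarN p) = P.ord (jBarN p) := by
  have h := SemilinearAut.ord_smul (arithmeticGalois (modularFunctionFieldFull p) σ) P (jBarN p)
  rw [gal_smul_jBarN] at h
  exact h

/-- A cusp pair is unique. -/
theorem isCuspPair_unique {p : ℕ} [NeZero p] (hp : p.Prime) {Pinf P0 Pinf' P0' : PlaceBar p}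
    (h : IsCuspPair p Pinf P0) (h' : IsCuspPair p Pinf' P0') : Pinf' = Pinf ∧ P0' = P0 := by
  have hp2 : (2 : ℤ) ≤ (p : ℤ) := by exact_mod_cast hp.two_le
  constructor
  · rcases pole_eq_of_isCuspPair hp h Pinf' (by rw [h'.ord_j_inf]; omega) with e | e
    · exact e
    · exfalso
      have h1 := h'.ord_j_inf
      rw [e, h.ord_j_zero] at h1
      omega
  · rcases pole_eq_of_isCuspPair hp h P0' (by rw [h'.ord_j_zero]; omega) with e | e
    · exfalso
      have h1 := h'.ord_j_zero
      rw [e, h.ord_j_inf] at h1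
      omega
    · exact e

/-- The Galois conjugate of a cusp pair is a cusp pair. -/
theorem isCuspPair_galPlace {p : ℕ} [NeZero p] {Pinf P0 : PlaceBar p}
    (h : IsCuspPair p Pinf P0) (σ : GalQ) :
    IsCuspPair p (galPlace p σ Pinf) (galPlace p σ P0) where
  ord_j_inf := by rw [ord_galPlace_jBar, h.ord_j_inf]
  ord_jN_inf := by rw [ord_galPlace_jBarN, h.ord_jN_inf]
  ord_j_zero := by rw [ord_galPlace_jBar, h.ord_j_zero]
  ord_jN_zero := by rw [ord_galPlace_jBarN, h.ord_jN_zero]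
  deg_inf := by
    rw [← h.deg_inf]
    exact SemilinearAut.deg_smul _ _
  deg_zero := by
    rw [← h.deg_zero]
    exact SemilinearAut.deg_smul _ _

/-- **CUSP-gal**: the cusps of `X₀(p)` are rational. -/
theorem stmt_cuspGal (p : ℕ) [NeZero p] (hp : p.Prime) : Stmt_cuspGal p :=
  fun _ _ h σ => isCuspPair_unique hp h (isCuspPair_galPlace h σ)

end Fermat.Agent.S15.H30

end
end
-- ==== END Fermat.Agent.S15.H30_CuspGal
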