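-- GENERATED (merged mirror, NOTES/tools/trim/merge3_helper67.py): 12 modules of the originals, bodies verbatim.
import Mathlib
import Fermat.Prelude.Def_EllipticCurve_FrobeniusTrace
import Fermat.Prelude.Def_FLTPrelim_Ramification
import Fermat.Prelude.Def_GaloisRep_CompletionBridge
import Fermat.Agent.Zm.S35_L04_002
import Fermat.Agent.Zm.S35_L02_001
import Fermat.Agent.Zm.S35_L03_001
import Fermat.Agent.Zm.S35_L03_002

-- ==== BEGIN Fermat.Agent.Lib.FrobDensity.H47_Bridge2
section

/-!
# Frobenius density, two-sided division form, for valuation subrings of `ℚ̄` (helper47)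

`R.Stmt_FD` only records `σ ^ j = g` on `L`.  For Taylor-Wiles primes one needs that the Frobenius
`σ` lies in the cyclic group generated by `g` (on `L`) as well: `g ^ j' = σ` on `L`.
This file proves the two-sided form `stmt_FD2`, unconditionally.
-/

set_option autoImplicit false

open NumberField
open scoped Pointwise

noncomputable section

namespace Fermat.Agent.Lib.FrobDensity.H47

open Fermat.Agent.Lib.FrobDensity Fermat.Agent.Lib.FrobDensity.H97

attribute [local instance] Fermat.Agent.Lib.FrobIntegers.qbar_isAlgebraic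
  Fermat.Agent.Lib.FrobIntegers.qbar_isAlgClosure Fermat.Agent.Lib.FrobIntegers.qbar_isGalois

/-- **Frobenius density, two-sided division form.**  For every finite set `S` of primes, every
finite extension `L` of `ℚ` inside `AlgebraicClosure ℚ` and every `g` in the absolute Galois
group there are a prime `ℓ ∉ S`, a valuation subring `A` over `ℓ`, a Frobenius element `σ` at `A`
and exponents `j`, `j'` such that `σ ^ j = g` and `g ^ j' = σ` on `L`. -/
def Stmt_FD2 : Prop :=
  ∀ (S : Finset ℕ) (L : IntermediateField ℚ (AlgebraicClosure ℚ)), FiniteDimensional ℚ L →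
    ∀ g : AlgebraicClosure ℚ ≃ₐ[ℚ] AlgebraicClosure ℚ,
      ∃ (ℓ : ℕ) (A : ValuationSubring (AlgebraicClosure ℚ))
        (σ : AlgebraicClosure ℚ ≃ₐ[ℚ] AlgebraicClosure ℚ) (j j' : ℕ),
        ℓ.Prime ∧ ℓ ∉ S ∧ A.LiesOverPrime ℓ ∧ A.IsFrobeniusAt σ ℓ ∧
          (∀ x ∈ L, (σ ^ j) x = g x) ∧ (∀ x ∈ L, (g ^ j') x = σ x)

section Galois

variable (L : IntermediateField ℚ (AlgebraicClosure ℚ)) [NumberField L] [IsGalois ℚ L]

omit [NumberField ↥L] in
theorem eqOn_of_restrictNormalHom_eq
    (σ τ : AlgebraicClosure ℚ ≃ₐ[ℚ] AlgebraicClosure ℚ)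
    (h : AlgEquiv.restrictNormalHom L σ = AlgEquiv.restrictNormalHom L τ) :
    ∀ x ∈ L, σ x = τ x := by
  intro x hx
  have h3 := AlgEquiv.restrictNormal_commutes σ L ⟨x, hx⟩
  have h4 := AlgEquiv.restrictNormal_commutes τ L ⟨x, hx⟩
  have h5 : σ.restrictNormal L = τ.restrictNormal L := h
  rw [h5] at h3
  exact h3.symm.trans h4

theorem stmt_FD2_galois (hNF : Stmt_FD_NF) (S : Finset ℕ)
    (g : AlgebraicClosure ℚ ≃ₐ[ℚ] AlgebraicClosure ℚ) :
    ∃ (ℓ : ℕ) (A : ValuationSubring (AlgebraicClosure ℚ))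
      (σ : AlgebraicClosure ℚ ≃ₐ[ℚ] AlgebraicClosure ℚ) (j j' : ℕ),
      ℓ.Prime ∧ ℓ ∉ S ∧ A.LiesOverPrime ℓ ∧ A.IsFrobeniusAt σ ℓ ∧
        (∀ x ∈ L, (σ ^ j) x = g x) ∧ (∀ x ∈ L, (g ^ j') x = σ x) := by
  obtain ⟨Q, φ, ℓ, hQ, hℓ, hℓS, hℓQ, hin, hφ, hzp⟩ := hNF L (AlgEquiv.restrictNormalHom L g) S
  have hQ0 : Q ≠ ⊥ := by
    intro h
    rw [h, Ideal.mem_bot] at hℓQ
    exact hℓ.ne_zero (Nat.cast_eq_zero.mp hℓQ)
  obtain ⟨B, hB⟩ := exists_valuationSubring_center L Q hQ0
  have hBℓ : B.LiesOverPrime ℓ := by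
    show (ℓ : AlgebraicClosure ℚ) ∈ B.nonunits
    rw [B.mem_nonunits_iff]
    have := (hB _).mp hℓQ
    rwa [map_natCast] at this
  obtain ⟨σ, hσ⟩ := Fermat.Agent.Lib.FrobExists.exists_isFrobeniusAt ℓ hℓ B hBℓ
  have hσ' := isArithFrobAt_restrict L Q ℓ hℓ hℓQ B hB σ hσ
  have heq : AlgEquiv.restrictNormalHom L σ = φ := by
    have h1 := IsArithFrobAt.mul_inv_mem_inertia hσ' hφ
    rw [hin, Subgroup.mem_bot] at h1
    exact mul_inv_eq_one.mp h1
  have hmem : AlgEquiv.restrictNormalHom L g ∈ Subgroup.zpowers φ := by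
    rw [hzp]
    exact Subgroup.mem_zpowers _
  have hmem' : φ ∈ Subgroup.zpowers (AlgEquiv.restrictNormalHom L g) := by
    rw [← hzp]
    exact Subgroup.mem_zpowers _
  obtain ⟨j, hj⟩ : ∃ j : ℕ, φ ^ j = AlgEquiv.restrictNormalHom L g := by
    have hfin : IsOfFinOrder φ := isOfFinOrder_of_finite φ
    rw [← hfin.mem_powers_iff_mem_zpowers] at hmem
    exact Submonoid.mem_powers_iff _ _ |>.mp hmem
  obtain ⟨j', hj'⟩ : ∃ j' : ℕ, (AlgEquiv.restrictNormalHom L g) ^ j' = φ := by
    have hfin : IsOfFinOrder (AlgEquiv.restrictNormalHom L g) := isOfFinOrder_of_finite _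
    rw [← hfin.mem_powers_iff_mem_zpowers] at hmem'
    exact Submonoid.mem_powers_iff _ _ |>.mp hmem'
  refine ⟨ℓ, B, σ, j, j', hℓ, hℓS, hBℓ, hσ, ?_, ?_⟩
  · exact _root_.Fermat.Agent.Lib.FrobDensity.H47.eqOn_of_restrictNormalHom_eq L _ _ (by rw [map_pow, heq, hj])
  · exact _root_.Fermat.Agent.Lib.FrobDensity.H47.eqOn_of_restrictNormalHom_eq L _ _ (by rw [map_pow, hj', heq])

end Galois

/-- **Frobenius density, two-sided division form** (unconditional). -/
theorem stmt_FD2 : _root_.Fermat.Agent.Lib.FrobDensity.H47.Stmt_FD2 := by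
  intro S L₀ hfd g
  have : FiniteDimensional ℚ L₀ := hfd
  set L : IntermediateField ℚ (AlgebraicClosure ℚ) :=
    IntermediateField.normalClosure ℚ L₀ (AlgebraicClosure ℚ) with hL
  have hfdL : FiniteDimensional ℚ L := inferInstance
  have hnQ : Normal ℚ (AlgebraicClosure ℚ) := IsGalois.to_normal
  have hnorm : Normal ℚ L := normalClosure.normal ℚ L₀ (AlgebraicClosure ℚ)
  have hnf : NumberField L := { to_charZero := inferInstance, to_finiteDimensional := hfdL }
  have hgal : IsGalois ℚ L := { to_isSeparable := inferInstance, to_normal := hnorm }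
  obtain ⟨ℓ, A, σ, j, j', h1, h2, h3, h4, h5, h6⟩ := _root_.Fermat.Agent.Lib.FrobDensity.H47.stmt_FD2_galois L stmt_FD_NF S g
  exact ⟨ℓ, A, σ, j, j', h1, h2, h3, h4, fun x hx => h5 x (L₀.le_normalClosure hx),
    fun x hx => h6 x (L₀.le_normalClosure hx)⟩

end Fermat.Agent.Lib.FrobDensity.H47

end

end
-- ==== END Fermat.Agent.Lib.FrobDensity.H47_Bridge2

-- ==== BEGIN Fermat.Agent.Lib.H25_DiffBound
section

/-!
# A crude bound for the different and the discriminant of a Galois number field (helper25)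

For a Galois number field `K` of degree `n` such that every nonzero prime of `𝓞 K` not
containing the natural number `B ≠ 0` is unramified over `ℤ`:

* `natCast_mem_differentIdeal` : `B * n ∈ 𝔇_{K/ℚ}`;
* `natAbs_discr_dvd` : `|discr K| ∣ (B * n) ^ n`.

Proof.  (A) `Tr (1 / m) = n / m`, so `(m) ∤ 𝔇` as soon as `m ∤ n`
(`not_span_dvd_differentIdeal`).  (B) `𝔇` is stable under `Gal(K/ℚ)`
(`smul_mem_differentIdeal`).  (C) If `P ^ (e k) ∣ 𝔇` for one prime `P` over `p` then, by (B) and
transitivity of the Galois action on the primes over `p`, `(p) ^ k ∣ 𝔇`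
(`span_pow_dvd_differentIdeal`).  With `k = v_p(n) + 1` (A) and (C) give `v_P(𝔇) ≤ e k`, i.e.
`v_P(𝔇) ≤ v_P(p ^ k) ≤ v_P(B n)` for the ramified primes.

This is the arithmetic input of the Hermite–Minkowski finiteness theorem
(`Fermat/Agent/Lib/H25_HermiteMinkowski.lean`).
-/

set_option autoImplicit false
set_option linter.style.haveILetI false
set_option linter.unusedSectionVars false

open NumberField UniqueFactorizationMonoid
open scoped Pointwise nonZeroDivisors

namespace Fermat.Agent.Lib.H25HM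

section Dedekind

variable {R : Type*} [CommRing R] [IsDedekindDomain R]

theorem pow_dvd_iff_le_count {P I : Ideal R} (hP : Irreducible P) (hI : I ≠ ⊥) (j : ℕ) :
    P ^ j ∣ I ↔ j ≤ (normalizedFactors I).count P := by
  rw [pow_dvd_iff_le_emultiplicity, emultiplicity_eq_count_normalizedFactors hP hI, normalize_eq]
  exact Nat.cast_le

theorem dvd_of_forall_prime_pow_dvd {I J : Ideal R} (hI : I ≠ ⊥) (hJ : J ≠ ⊥)
    (h : ∀ (P : Ideal R) (j : ℕ), P.IsPrime → P ≠ ⊥ → P ^ j ∣ I → P ^ j ∣ J) : I ∣ J := by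
  classical
  rw [dvd_iff_normalizedFactors_le_normalizedFactors hI hJ, Multiset.le_iff_count]
  intro P
  by_cases hP : P ∈ normalizedFactors I
  · have hirr : Irreducible P := irreducible_of_normalized_factor P hP
    have hprime : Prime P := prime_of_normalized_factor P hP
    have h1 := h P ((normalizedFactors I).count P) ((Ideal.prime_iff_isPrime hprime.ne_zero).1 hprime)
      hprime.ne_zero ((pow_dvd_iff_le_count hirr hI _).2 le_rfl)
    exact (pow_dvd_iff_le_count hirr hJ _).1 h1
  · rw [Multiset.count_eq_zero_of_notMem hP]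
    exact Nat.zero_le _

end Dedekind

section Different

variable (K : Type*) [Field K] [NumberField K]

/-- Claim A: if `m ∤ [K : ℚ]` then `(m) ∤ 𝔇`. -/
theorem not_span_dvd_differentIdeal (m : ℕ) (hm0 : m ≠ 0) (hm : ¬ m ∣ Module.finrank ℚ K) :
    ¬ Ideal.span {(m : 𝓞 K)} ∣ differentIdeal ℤ (𝓞 K) := by
  intro h
  rw [Ideal.dvd_iff_le] at h
  have hne : Ideal.span {(m : 𝓞 K)} ≠ ⊥ := by
    rw [Ne, Ideal.span_singleton_eq_bot]
    exact_mod_cast hm0
  rw [differentialIdeal_le_iff (K := ℚ) (L := K) hne] at h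
  have hmem : (algebraMap ℚ K ((m : ℚ)⁻¹)) ∈
      (((Ideal.span {(m : 𝓞 K)} : Ideal (𝓞 K)) : FractionalIdeal (𝓞 K)⁰ K)⁻¹ :
        FractionalIdeal (𝓞 K)⁰ K) := by
    rw [FractionalIdeal.coeIdeal_span_singleton, FractionalIdeal.spanSingleton_inv]
    rw [FractionalIdeal.mem_spanSingleton]
    refine ⟨1, ?_⟩
    rw [one_smul, map_natCast, map_inv₀, map_natCast]
  have h2 : (Algebra.trace ℚ K) (algebraMap ℚ K ((m : ℚ)⁻¹)) ∈ (1 : Submodule ℤ ℚ) := by
    apply h
    exact Submodule.mem_map_of_mem (f := (Algebra.trace ℚ K).restrictScalars ℤ) hmem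
  rw [Algebra.trace_algebraMap, Submodule.mem_one] at h2
  obtain ⟨z, hz⟩ := h2
  apply hm
  have hmq : (m : ℚ) ≠ 0 := by exact_mod_cast hm0
  have h3 : ((Module.finrank ℚ K : ℤ) : ℚ) = ((m : ℤ) * z : ℤ) := by
    push_cast
    rw [eq_intCast] at hz
    rw [hz, nsmul_eq_mul]
    field_simp
  have h4 : (Module.finrank ℚ K : ℤ) = (m : ℤ) * z := by exact_mod_cast h3
  exact Int.natCast_dvd_natCast.1 ⟨z, h4⟩

/-- Membership in the different ideal, elementwise. -/
theorem mem_differentIdeal_iff (x : 𝓞 K) :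
    x ∈ differentIdeal ℤ (𝓞 K) ↔
      ∀ y : K, (∀ a : 𝓞 K, Algebra.trace ℚ K (y * (a : K)) ∈ (algebraMap ℤ ℚ).range) →
        ∃ b : 𝓞 K, (b : K) = (x : K) * y := by
  have h := coeSubmodule_differentIdeal (A := ℤ) (K := ℚ) (L := K) (B := 𝓞 K)
  have h1 : x ∈ differentIdeal ℤ (𝓞 K) ↔
      (algebraMap (𝓞 K) K x) ∈ IsLocalization.coeSubmodule K (differentIdeal ℤ (𝓞 K)) := by
    rw [IsLocalization.mem_coeSubmodule]
    constructor
    · intro hx
      exact ⟨x, hx, rfl⟩
    · rintro ⟨z, hz, hzx⟩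
      have := FaithfulSMul.algebraMap_injective (𝓞 K) K hzx
      rwa [← this]
  rw [h1, h, Submodule.mem_div_iff_forall_mul_mem]
  constructor
  · intro hx y hy
    have hy' : y ∈ Submodule.traceDual ℤ ℚ (1 : Submodule (𝓞 K) K) := by
      rw [Submodule.mem_traceDual]
      intro a ha
      rw [Submodule.mem_one] at ha
      obtain ⟨a', rfl⟩ := ha
      rw [Algebra.traceForm_apply]
      exact hy a'
    have := hx y hy'
    rw [Submodule.mem_one] at this
    obtain ⟨b, hb⟩ := this
    exact ⟨b, hb⟩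
  · intro hx y hy
    rw [Submodule.mem_traceDual] at hy
    obtain ⟨b, hb⟩ := hx y (fun a => by
      have := hy (algebraMap (𝓞 K) K a) (Submodule.mem_one.2 ⟨a, rfl⟩)
      rwa [Algebra.traceForm_apply] at this)
    rw [Submodule.mem_one]
    exact ⟨b, hb⟩

/-- Claim B: the different is stable under automorphisms. -/
theorem smul_mem_differentIdeal (σ : K ≃ₐ[ℚ] K) (x : 𝓞 K) (hx : x ∈ differentIdeal ℤ (𝓞 K)) :
    σ • x ∈ differentIdeal ℤ (𝓞 K) := by
  rw [mem_differentIdeal_iff] at hx ⊢
  intro y hy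
  obtain ⟨b, hb⟩ := hx (σ.symm y) (fun a => by
    have h1 := hy (σ • a)
    have h2 : Algebra.trace ℚ K (σ.symm y * (a : K)) = Algebra.trace ℚ K (y * ((σ • a : 𝓞 K) : K)) := by
      rw [← Algebra.trace_eq_of_algEquiv σ (σ.symm y * (a : K)), map_mul, AlgEquiv.apply_symm_apply]
      rfl
    rw [h2]
    exact h1)
  refine ⟨σ • b, ?_⟩
  have h3 : ((σ • b : 𝓞 K) : K) = σ (b : K) := rfl
  have h4 : ((σ • x : 𝓞 K) : K) = σ (x : K) := rfl
  rw [h3, h4, hb, map_mul, AlgEquiv.apply_symm_apply]

theorem differentIdeal_le_smul (σ : K ≃ₐ[ℚ] K) (I : Ideal (𝓞 K))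
    (h : differentIdeal ℤ (𝓞 K) ≤ I) : differentIdeal ℤ (𝓞 K) ≤ σ • I := by
  intro x hx
  rw [Ideal.mem_pointwise_smul_iff_inv_smul_mem]
  exact h (smul_mem_differentIdeal K σ⁻¹ x hx)

/-- Claim C. -/
theorem span_pow_dvd_differentIdeal [IsGalois ℚ K] (P : Ideal (𝓞 K)) [P.IsPrime]
    (p : ℕ) (hp : p.Prime) (hpP : (p : 𝓞 K) ∈ P) (k : ℕ)
    (h : P ^ (P.ramificationIdx ℤ * k) ∣ differentIdeal ℤ (𝓞 K)) :
    Ideal.span {((p ^ k : ℕ) : 𝓞 K)} ∣ differentIdeal ℤ (𝓞 K) := by
  classical
  have hpZ : (Ideal.span {(p : ℤ)}).IsMaximal :=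
    (Ideal.span_singleton_prime (by exact_mod_cast hp.ne_zero)).2
      (Nat.prime_iff_prime_int.1 hp) |>.isMaximal (by
        rw [Ne, Ideal.span_singleton_eq_bot]; exact_mod_cast hp.ne_zero)
  have hp0 : (p : 𝓞 K) ≠ 0 := by exact_mod_cast hp.ne_zero
  have hmap : (Ideal.span {(p : ℤ)}).map (algebraMap ℤ (𝓞 K)) = Ideal.span {(p : 𝓞 K)} := by
    rw [Ideal.map_span, Set.image_singleton, map_natCast]
  have hIp0 : Ideal.span {(p : 𝓞 K)} ≠ ⊥ := by
    rw [Ne, Ideal.span_singleton_eq_bot]; exact hp0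
  have hD0 : differentIdeal ℤ (𝓞 K) ≠ ⊥ := differentIdeal_ne_bot
  have hspan : Ideal.span {((p ^ k : ℕ) : 𝓞 K)} = Ideal.span {(p : 𝓞 K)} ^ k := by
    rw [Ideal.span_singleton_pow, Nat.cast_pow]
  rw [hspan]
  have hover : ∀ Q : Ideal (𝓞 K), Q.IsPrime → (p : 𝓞 K) ∈ Q → Q.LiesOver (Ideal.span {(p : ℤ)}) := by
    intro Q hQ hpQ
    refine ⟨?_⟩
    have hle : Ideal.span {(p : ℤ)} ≤ Q.under ℤ := by
      rw [Ideal.span_singleton_le_iff_mem, Ideal.mem_comap, map_natCast]
      exact hpQ
    exact hpZ.eq_of_le (Ideal.IsPrime.ne_top inferInstance) hle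
  haveI := hover P inferInstance hpP
  refine dvd_of_forall_prime_pow_dvd (pow_ne_zero _ hIp0) hD0 ?_
  intro Q i hQ hQ0 hQi
  rcases Nat.eq_zero_or_pos i with rfl | hi
  · rw [pow_zero]; exact one_dvd _
  have hQirr : Irreducible Q := (Ideal.prime_of_isPrime hQ0 hQ).irreducible
  have hQp : (p : 𝓞 K) ∈ Q := by
    have h1 : Q ∣ Ideal.span {(p : 𝓞 K)} ^ k := dvd_trans (dvd_pow_self Q hi.ne') hQi
    have h2 : Q ∣ Ideal.span {(p : 𝓞 K)} := (Ideal.prime_of_isPrime hQ0 hQ).dvd_of_dvd_pow h1
    rw [Ideal.dvd_iff_le, Ideal.span_singleton_le_iff_mem] at h2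
    exact h2
  haveI := hover Q hQ hQp
  have hcount : i ≤ P.ramificationIdx ℤ * k := by
    have h1 := (pow_dvd_iff_le_count hQirr (pow_ne_zero _ hIp0) i).1 hQi
    rw [normalizedFactors_pow, Multiset.count_nsmul, ← hmap,
      ← Ideal.IsDedekindDomain.ramificationIdx_eq_normalizedFactors_count
        (p := Ideal.span {(p : ℤ)}) (q := Q) (by rw [hmap]; exact hIp0),
      Ideal.ramificationIdx_eq_of_isGaloisGroup (Ideal.span {(p : ℤ)}) Q P (K ≃ₐ[ℚ] K)] at h1
    rw [mul_comm]; exact h1
  obtain ⟨σ, hσ⟩ := Ideal.exists_smul_eq_of_isGaloisGroup (Ideal.span {(p : ℤ)}) P Q (K ≃ₐ[ℚ] K)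
  rw [Ideal.dvd_iff_le] at h ⊢
  have h3 := differentIdeal_le_smul K σ _ h
  rw [smul_pow', hσ] at h3
  exact h3.trans (Ideal.pow_le_pow_right hcount)

/-- A prime ideal of `𝓞 K` contains a rational prime. -/
theorem exists_prime_natCast_mem (P : Ideal (𝓞 K)) [P.IsPrime] (hP0 : P ≠ ⊥) :
    ∃ p : ℕ, p.Prime ∧ (p : 𝓞 K) ∈ P ∧ ∀ B : ℕ, (B : 𝓞 K) ∈ P → p ∣ B := by
  obtain ⟨q, hq : _ = Ideal.span _⟩ := IsPrincipalIdealRing.principal (P.under ℤ)
  have hq0 : q ≠ 0 := by
    rintro rfl
    apply hP0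
    apply Ideal.eq_bot_of_comap_eq_bot (R := ℤ)
    rw [← Ideal.under_def, hq]
    simp
  have hqprime : Prime q := by
    rw [← Ideal.span_singleton_prime hq0, ← hq]; infer_instance
  refine ⟨q.natAbs, Int.prime_iff_natAbs_prime.mp hqprime, ?_, ?_⟩
  · have h1 : (q.natAbs : ℤ) ∈ P.under ℤ := by
      rw [hq, ← Int.span_natAbs]
      exact Ideal.subset_span rfl
    rw [Ideal.under_def, Ideal.mem_comap, map_natCast] at h1
    exact h1
  · intro B hB
    have h1 : (B : ℤ) ∈ P.under ℤ := by
      rw [Ideal.under_def, Ideal.mem_comap, map_natCast]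
      exact hB
    rw [hq, Ideal.mem_span_singleton] at h1
    have h2 := Int.natAbs_dvd_natAbs.2 h1
    rwa [Int.natAbs_natCast] at h2

/-- **Crude bound for the different of a Galois number field**: if all primes not containing
`B` are unramified, then `B * [K : ℚ]` lies in the different. -/
theorem natCast_mem_differentIdeal [IsGalois ℚ K] (B : ℕ) (hB : B ≠ 0)
    (h : ∀ (P : Ideal (𝓞 K)) [P.IsPrime], P ≠ ⊥ → (B : 𝓞 K) ∉ P →
      Algebra.IsUnramifiedAt ℤ P) :
    ((B * Module.finrank ℚ K : ℕ) : 𝓞 K) ∈ differentIdeal ℤ (𝓞 K) := by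
  classical
  set n := Module.finrank ℚ K with hn
  have hn0 : n ≠ 0 := Module.finrank_pos.ne'
  have hm0 : ((B * n : ℕ) : 𝓞 K) ≠ 0 := by
    exact_mod_cast Nat.mul_ne_zero hB hn0
  have hD0 : differentIdeal ℤ (𝓞 K) ≠ ⊥ := differentIdeal_ne_bot
  have hJ0 : Ideal.span {((B * n : ℕ) : 𝓞 K)} ≠ ⊥ := by
    rw [Ne, Ideal.span_singleton_eq_bot]; exact hm0
  suffices hdvd : differentIdeal ℤ (𝓞 K) ∣ Ideal.span {((B * n : ℕ) : 𝓞 K)} by
    rw [Ideal.dvd_iff_le, Ideal.span_singleton_le_iff_mem] at hdvd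
    exact hdvd
  refine dvd_of_forall_prime_pow_dvd hD0 hJ0 ?_
  intro P j hP hP0 hPj
  rcases Nat.eq_zero_or_pos j with rfl | hj
  · rw [pow_zero]; exact one_dvd _
  have hPD : P ∣ differentIdeal ℤ (𝓞 K) := dvd_trans (dvd_pow_self P hj.ne') hPj
  have hram : ¬ Algebra.IsUnramifiedAt ℤ P := (dvd_differentIdeal_iff (A := ℤ)).1 hPD
  have hBP : (B : 𝓞 K) ∈ P := by
    by_contra hcon
    exact hram (h P hP0 hcon)
  obtain ⟨p, hp, hpP, hpdvd⟩ := exists_prime_natCast_mem K P hP0
  have hpB : p ∣ B := hpdvd B hBP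
  set k := n.factorization p + 1 with hk
  have hk1 : ¬ p ^ k ∣ n := Nat.pow_succ_factorization_not_dvd hn0 hp
  have hk2 : p ^ k ∣ B * n := by
    rw [hk, pow_succ, mul_comm]
    exact Nat.mul_dvd_mul hpB (Nat.ordProj_dvd n p)
  have hA := not_span_dvd_differentIdeal K (p ^ k) (pow_ne_zero _ hp.ne_zero) hk1
  have hle : j ≤ P.ramificationIdx ℤ * k := by
    by_contra hcon
    push Not at hcon
    apply hA
    apply span_pow_dvd_differentIdeal K P p hp hpP k
    exact dvd_trans (pow_dvd_pow P hcon.le) hPj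
  -- P ^ (e k) ∣ (p ^ k) ∣ (B n)
  have hpZ : (Ideal.span {(p : ℤ)}).IsMaximal :=
    (Ideal.span_singleton_prime (by exact_mod_cast hp.ne_zero)).2
      (Nat.prime_iff_prime_int.1 hp) |>.isMaximal (by
        rw [Ne, Ideal.span_singleton_eq_bot]; exact_mod_cast hp.ne_zero)
  have hp0 : (p : 𝓞 K) ≠ 0 := by exact_mod_cast hp.ne_zero
  have hmap : (Ideal.span {(p : ℤ)}).map (algebraMap ℤ (𝓞 K)) = Ideal.span {(p : 𝓞 K)} := by
    rw [Ideal.map_span, Set.image_singleton, map_natCast]
  have hIp0 : Ideal.span {(p : 𝓞 K)} ≠ ⊥ := by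
    rw [Ne, Ideal.span_singleton_eq_bot]; exact hp0
  have hover : P.LiesOver (Ideal.span {(p : ℤ)}) := by
    refine ⟨?_⟩
    have hle : Ideal.span {(p : ℤ)} ≤ P.under ℤ := by
      rw [Ideal.span_singleton_le_iff_mem, Ideal.mem_comap, map_natCast]
      exact hpP
    exact hpZ.eq_of_le (Ideal.IsPrime.ne_top inferInstance) hle
  have hPirr : Irreducible P := (Ideal.prime_of_isPrime hP0 hP).irreducible
  have h1 : P ^ (P.ramificationIdx ℤ * k) ∣ Ideal.span {(p : 𝓞 K)} ^ k := by
    rw [pow_dvd_iff_le_count hPirr (pow_ne_zero _ hIp0), normalizedFactors_pow,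
      Multiset.count_nsmul, ← hmap,
      ← Ideal.IsDedekindDomain.ramificationIdx_eq_normalizedFactors_count
        (p := Ideal.span {(p : ℤ)}) (q := P) (by rw [hmap]; exact hIp0), mul_comm]
  have h2 : Ideal.span {(p : 𝓞 K)} ^ k ∣ Ideal.span {((B * n : ℕ) : 𝓞 K)} := by
    rw [Ideal.span_singleton_pow, Ideal.dvd_iff_le, Ideal.span_singleton_le_span_singleton]
    obtain ⟨c, hc⟩ := hk2
    refine ⟨(c : 𝓞 K), ?_⟩
    rw [hc]
    push_cast
    rfl
  exact dvd_trans (pow_dvd_pow P hle) (dvd_trans h1 h2)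

/-- **Discriminant bound** for a Galois number field unramified outside `B`. -/
theorem natAbs_discr_dvd [IsGalois ℚ K] (B : ℕ) (hB : B ≠ 0)
    (h : ∀ (P : Ideal (𝓞 K)) [P.IsPrime], P ≠ ⊥ → (B : 𝓞 K) ∉ P →
      Algebra.IsUnramifiedAt ℤ P) :
    (discr K).natAbs ∣ (B * Module.finrank ℚ K) ^ Module.finrank ℚ K := by
  have hmem := natCast_mem_differentIdeal K B hB h
  have hle : Ideal.span {((B * Module.finrank ℚ K : ℕ) : 𝓞 K)} ≤ differentIdeal ℤ (𝓞 K) := by
    rw [Ideal.span_singleton_le_iff_mem]; exact hmem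
  have h1 := Ideal.absNorm_dvd_absNorm_of_le hle
  rw [absNorm_differentIdeal (K := K), Ideal.absNorm_span_singleton] at h1
  have h2 : (Algebra.norm ℤ ((B * Module.finrank ℚ K : ℕ) : 𝓞 K)).natAbs
      = (B * Module.finrank ℚ K) ^ Module.finrank ℚ K := by
    have h3 : ((B * Module.finrank ℚ K : ℕ) : 𝓞 K)
        = algebraMap ℤ (𝓞 K) ((B * Module.finrank ℚ K : ℕ) : ℤ) := by
      rw [map_natCast]
    rw [h3, Algebra.norm_algebraMap_of_basis (RingOfIntegers.basis K), Int.natAbs_pow,
      Int.natAbs_natCast, ← Module.finrank_eq_card_basis (RingOfIntegers.basis K),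
      RingOfIntegers.rank]
  rw [h2] at h1
  exact h1

end Different

end Fermat.Agent.Lib.H25HM

end
-- ==== END Fermat.Agent.Lib.H25_DiffBound

-- ==== BEGIN Fermat.Agent.Lib.InertiaLift
section

set_option autoImplicit false

open scoped Pointwise

noncomputable section

namespace Fermat.Agent.Lib.InertiaLift

local notation "L" => AlgebraicClosure ℚ
local notation "B" => integralClosure ℤ (AlgebraicClosure ℚ)

theorem qbar_isAlgebraic' : Algebra.IsAlgebraic ℚ (AlgebraicClosure ℚ) :=
  AlgebraicClosure.isAlgebraic ℚ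

attribute [local instance] qbar_isAlgebraic'

theorem qbar_isAlgClosure' : IsAlgClosure ℚ (AlgebraicClosure ℚ) :=
  ⟨inferInstance, inferInstance⟩

attribute [local instance] qbar_isAlgClosure'

theorem qbar_isGalois' : IsGalois ℚ (AlgebraicClosure ℚ) := inferInstance

attribute [local instance] qbar_isGalois'

variable (F : IntermediateField ℚ L)

/-- The algebraic integers lying in the intermediate field `F`, as a subalgebra of the ring
of all algebraic integers. -/
def intF : Subalgebra ℤ B where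
  carrier := {b | (b : L) ∈ F}
  mul_mem' := fun {a b} ha hb => by
    show ((a * b : B) : L) ∈ F
    rw [Subalgebra.coe_mul]; exact F.mul_mem ha hb
  add_mem' := fun {a b} ha hb => by
    show ((a + b : B) : L) ∈ F
    rw [Subalgebra.coe_add]; exact F.add_mem ha hb
  algebraMap_mem' := fun n => by
    show ((algebraMap ℤ B n : B) : L) ∈ F
    have : ((algebraMap ℤ B n : B) : L) = (n : L) := by simp
    rw [this]
    exact intCast_mem F n

theorem mem_intF (b : B) : b ∈ intF F ↔ (b : L) ∈ F := Iff.rfl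

theorem algEquiv_smul_coe (g : L ≃ₐ[F] L) (b : B) : ((g • b : B) : L) = g (b : L) := rfl

theorem smul_eq_of_mem_intF (g : L ≃ₐ[F] L) (a : B) (ha : a ∈ intF F) : g • a = a := by
  apply Subtype.ext
  rw [algEquiv_smul_coe]
  exact g.commutes ⟨(a : L), ha⟩

theorem intF_smulCommClass : SMulCommClass (L ≃ₐ[F] L) (intF F) B where
  smul_comm g a b := by
    show g • ((a : B) * b) = (a : B) * g • b
    rw [smul_mul', smul_eq_of_mem_intF F g a a.2]

attribute [local instance] intF_smulCommClass

theorem intF_isInvariant : Algebra.IsInvariant (intF F) B (L ≃ₐ[F] L) where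
  isInvariant b hb := by
    have h1 : (b : L) ∈ Set.range (algebraMap F L) := by
      rw [InfiniteGalois.mem_range_algebraMap_iff_fixed]
      intro g
      exact congrArg Subtype.val (hb g)
    obtain ⟨x, hx⟩ := h1
    refine ⟨⟨b, ?_⟩, rfl⟩
    rw [mem_intF, ← hx]
    exact x.2

attribute [local instance] intF_isInvariant

attribute [local instance] Fermat.Agent.Lib.FrobIntegers.zbarTopologicalSpace
attribute [local instance] Fermat.Agent.Lib.FrobIntegers.zbar_discreteTopology

theorem intF_continuousSMul : ContinuousSMul (L ≃ₐ[F] L) B := by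
  rw [continuousSMul_iff_stabilizer_isOpen]
  intro b
  have h := stabilizer_isOpen_of_isIntegral (K := F) (b : L)
  convert h using 1
  ext g
  simp only [SetLike.mem_coe, MulAction.mem_stabilizer_iff]
  constructor
  · intro hg
    exact congrArg Subtype.val hg
  · intro hg
    exact Subtype.ext hg

attribute [local instance] intF_continuousSMul

open Fermat.Agent.Lib.FrobExists in
/-- An automorphism which is congruent to the identity on all algebraic integers, modulo the
maximal ideal of a valuation subring `A` over `ℓ`, lies in the inertia group of `A`. -/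
theorem mem_inertiaSubgroupIn_of_integers (ℓ : ℕ) (hℓ : ℓ.Prime) (A : ValuationSubring L)
    (hA : A.LiesOverPrime ℓ) (σ : L ≃ₐ[ℚ] L)
    (hσ : ∀ b : L, IsIntegral ℤ b → σ b - b ∈ A.nonunits) :
    σ ∈ A.inertiaSubgroupIn ℚ := by
  have hA' : (ℓ : L) ∈ A.nonunits := hA
  have hσ' : ∀ b : L, IsIntegral ℤ b → A.valuation (σ b - b) < 1 := fun b hb =>
    A.mem_nonunits_iff.mp (hσ b hb)
  have hσinv : ∀ b : L, IsIntegral ℤ b → A.valuation (σ⁻¹ b - b) < 1 := by
    intro b hb
    have hb' : IsIntegral ℤ (σ⁻¹ b) := map_isIntegral_int σ⁻¹ hb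
    have := hσ' _ hb'
    have h2 : σ (σ⁻¹ b) = b := AlgEquiv.apply_symm_apply σ b
    rw [h2, Valuation.map_sub_swap] at this
    exact this
  -- units go to units
  have hunit : ∀ τ : L ≃ₐ[ℚ] L, (∀ b : L, IsIntegral ℤ b → A.valuation (τ b - b) < 1) →
      ∀ b : L, IsIntegral ℤ b → A.valuation b = 1 → A.valuation (τ b) = 1 := by
    intro τ hτ b hb hb1
    have h1 : τ b = b + (τ b - b) := by ring
    rw [h1, Valuation.map_add_eq_of_lt_left _ (by rw [hb1]; exact hτ b hb), hb1]
  have hmem : σ ∈ A.decompositionSubgroup ℚ := by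
    rw [MulAction.mem_stabilizer_iff]
    apply SetLike.ext
    intro x
    rw [ValuationSubring.mem_pointwise_smul_iff_inv_smul_mem]
    constructor
    · intro hx
      have := map_mem_of_units A ℓ hℓ hA' σ (hunit σ hσ') _ hx
      have h2 : σ (σ⁻¹ • x) = x := by
        rw [AlgEquiv.smul_def]
        exact AlgEquiv.apply_symm_apply σ x
      rwa [h2] at this
    · intro hx
      exact map_mem_of_units A ℓ hℓ hA' σ⁻¹ (hunit σ⁻¹ hσinv) x hx
  refine ⟨⟨σ, hmem⟩, ?_, rfl⟩
  rw [ValuationSubring.inertiaSubgroup]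
  show (⟨σ, hmem⟩ : A.decompositionSubgroup ℚ) ∈ MonoidHom.ker _
  rw [MonoidHom.mem_ker]
  ext x
  obtain ⟨a, rfl⟩ := IsLocalRing.residue_surjective x
  show (⟨σ, hmem⟩ : A.decompositionSubgroup ℚ) • (IsLocalRing.residue A a) = IsLocalRing.residue A a
  rw [← IsLocalRing.ResidueField.residue_smul]
  rw [← sub_eq_zero, ← map_sub, IsLocalRing.residue_eq_zero_iff,
    ← ValuationSubring.coe_mem_nonunits_iff]
  have hval : ((⟨σ, hmem⟩ : A.decompositionSubgroup ℚ) • a - a : A) =
      (σ (a : L) - (a : L) : L) := rfl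
  rw [hval, ValuationSubring.mem_nonunits_iff]
  obtain ⟨y, s, hy, hs, hvs, hays⟩ :=
    exists_integral_frac A ℓ hℓ hA' (a : L) a.2 (isAlgebraic_int_qbar _)
  have hvσs : A.valuation (σ s) = 1 := hunit σ hσ' s hs hvs
  have hva : A.valuation (a : L) ≤ 1 := A.valuation_le_one a
  have hkey2 : (σ (a : L) - (a : L)) * σ s = (σ y - y) - (a : L) * (σ s - s) := by
    rw [← hays, map_mul]
    ring
  have h3 : A.valuation ((σ (a : L) - (a : L)) * σ s) < 1 := by
    rw [hkey2]
    apply Valuation.map_sub_lt _ (hσ' y hy)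
    rw [map_mul]
    calc A.valuation (a : L) * A.valuation (σ s - s)
        ≤ 1 * A.valuation (σ s - s) := mul_le_mul_left hva _
      _ = A.valuation (σ s - s) := one_mul _
      _ < 1 := hσ' s hs
  rwa [map_mul, hvσs, mul_one] at h3

/-- Restriction of scalars from `F` to `ℚ`. -/
def toGal (g : L ≃ₐ[F] L) : L ≃ₐ[ℚ] L := g.restrictScalars ℚ

theorem toGal_apply (g : L ≃ₐ[F] L) (x : L) : toGal F g x = g x := rfl

theorem toGal_smul (g : L ≃ₐ[F] L) (b : B) : toGal F g • b = g • b := rfl

theorem toGal_inv_smul (g : L ≃ₐ[F] L) (b : B) : (toGal F g)⁻¹ • b = g⁻¹ • b := rfl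

theorem toGal_smul_ideal (g : L ≃ₐ[F] L) (I : Ideal B) : toGal F g • I = g • I := by
  ext b
  rw [Ideal.mem_pointwise_smul_iff_inv_smul_mem, Ideal.mem_pointwise_smul_iff_inv_smul_mem,
    toGal_inv_smul]

theorem map_mem_of_normal [Normal ℚ F] (τ : L ≃ₐ[ℚ] L) (x : L) (hx : x ∈ F) : τ x ∈ F := by
  have h1 := AlgEquiv.restrictNormal_commutes τ F ⟨x, hx⟩
  have h2 : τ x = algebraMap F L ((τ.restrictNormal F) ⟨x, hx⟩) := h1.symm
  rw [h2]
  exact (τ.restrictNormal F ⟨x, hx⟩).2

/-- The automorphism of the residue field `B ⧸ Q` induced by an element `σ₁` of the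
decomposition group which is congruent to the identity on the integers of `F`, as an
automorphism over the residue field of `F`. -/
def resAut (Q : Ideal B) [Q.IsPrime] (σ₁ : L ≃ₐ[ℚ] L) (hσ₁Q : σ₁ • Q = Q)
    (hcomm : ∀ a : intF F, σ₁ • (a : B) - (a : B) ∈ Q) :
    (B ⧸ Q) ≃ₐ[intF F ⧸ Q.under (intF F)] (B ⧸ Q) :=
  AlgEquiv.ofRingEquiv
    (f := (Ideal.Quotient.stabilizerHom Q (Q.under ℤ) (L ≃ₐ[ℚ] L) ⟨σ₁, hσ₁Q⟩).toRingEquiv) (by
      intro r
      obtain ⟨a, rfl⟩ := Ideal.Quotient.mk_surjective r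
      rw [Ideal.Quotient.algebraMap_mk_of_liesOver]
      show (Ideal.Quotient.stabilizerHom Q (Q.under ℤ) (L ≃ₐ[ℚ] L) ⟨σ₁, hσ₁Q⟩)
        (Ideal.Quotient.mk Q (a : B)) = _
      rw [Ideal.Quotient.stabilizerHom_apply, Ideal.Quotient.eq]
      exact hcomm a)

theorem resAut_mk (Q : Ideal B) [Q.IsPrime] (σ₁ : L ≃ₐ[ℚ] L) (hσ₁Q : σ₁ • Q = Q)
    (hcomm : ∀ a : intF F, σ₁ • (a : B) - (a : B) ∈ Q) (b : B) :
    resAut F Q σ₁ hσ₁Q hcomm (Ideal.Quotient.mk Q b) = Ideal.Quotient.mk Q (σ₁ • b) := rfl

open Fermat.Agent.Lib.FrobExists in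
/-- **Lifting inertia.** If `σ₀` is congruent to the identity modulo the maximal ideal of `A` on
all algebraic integers of a normal subfield `F`, then some element of the inertia group of `A`
in `Gal(ℚ̄/ℚ)` agrees with `σ₀` on `F`. -/
theorem exists_mem_inertiaSubgroupIn_eqOn
    (ℓ : ℕ) (hℓ : ℓ.Prime) (A : ValuationSubring (AlgebraicClosure ℚ)) (hA : A.LiesOverPrime ℓ)
    (F : IntermediateField ℚ (AlgebraicClosure ℚ)) [Normal ℚ F]
    (σ₀ : AlgebraicClosure ℚ ≃ₐ[ℚ] AlgebraicClosure ℚ)
    (h : ∀ x : AlgebraicClosure ℚ, x ∈ F → IsIntegral ℤ x → σ₀ x - x ∈ A.nonunits) :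
    ∃ σ ∈ A.inertiaSubgroupIn ℚ, ∀ x ∈ F, σ x = σ₀ x := by
  have hQprime : (primeUnder A).IsPrime := primeUnder_isPrime A
  have h' : ∀ x : L, x ∈ F → IsIntegral ℤ x → A.valuation (σ₀ x - x) < 1 := fun x hx hxi =>
    A.mem_nonunits_iff.mp (h x hx hxi)
  -- Step 1: the two primes have the same contraction
  have hunder : (σ₀ • primeUnder A).under (intF F) = (primeUnder A).under (intF F) := by
    ext a
    rw [Ideal.under_def, Ideal.under_def, Ideal.mem_comap, Ideal.mem_comap,
      Ideal.mem_pointwise_smul_iff_inv_smul_mem, mem_primeUnder, mem_primeUnder]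
    have ha : ((a : B) : L) ∈ F := a.2
    have hx : σ₀⁻¹ ((a : B) : L) ∈ F := map_mem_of_normal F σ₀⁻¹ _ ha
    have hxi : IsIntegral ℤ (σ₀⁻¹ ((a : B) : L)) := map_isIntegral_int σ₀⁻¹ (a : B).2
    have h1 := h' _ hx hxi
    have h2 : σ₀ (σ₀⁻¹ ((a : B) : L)) = ((a : B) : L) := AlgEquiv.apply_symm_apply σ₀ _
    rw [h2] at h1
    have hcoe : (((σ₀⁻¹ • (algebraMap (intF F) B a) : B)) : L) = σ₀⁻¹ ((a : B) : L) := rfl
    have hcoe2 : ((algebraMap (intF F) B a : B) : L) = ((a : B) : L) := rfl
    rw [hcoe, hcoe2]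
    constructor
    · intro hlt
      have : ((a : B) : L) = σ₀⁻¹ ((a : B) : L) + (((a : B) : L) - σ₀⁻¹ ((a : B) : L)) := by ring
      rw [this]
      exact Valuation.map_add_lt _ hlt h1
    · intro hlt
      have : σ₀⁻¹ ((a : B) : L) = ((a : B) : L) - (((a : B) : L) - σ₀⁻¹ ((a : B) : L)) := by ring
      rw [this]
      exact Valuation.map_sub_lt _ hlt h1
  -- Step 2: move `σ₀ • Q` back to `Q` by an element of `Gal(ℚ̄/F)`
  have hprime' : (σ₀ • primeUnder A).IsPrime := by
    rw [Ideal.pointwise_smul_eq_comap]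
    exact Ideal.comap_isPrime _ _
  obtain ⟨g, hg⟩ := Algebra.IsInvariant.exists_smul_of_under_eq_of_profinite
    (A := intF F) (G := L ≃ₐ[F] L) (σ₀ • primeUnder A) (primeUnder A) hunder
  set σ₁ : L ≃ₐ[ℚ] L := toGal F g * σ₀ with hσ₁
  have hσ₁Q : σ₁ • primeUnder A = primeUnder A := by
    rw [hσ₁, mul_smul, toGal_smul_ideal, ← hg]
  have hσ₁F : ∀ x ∈ F, σ₁ x = σ₀ x := by
    intro x hx
    show g (σ₀ x) = σ₀ x
    exact g.commutes ⟨σ₀ x, map_mem_of_normal F σ₀ x hx⟩
  -- Step 3: the automorphism of the residue field induced by `σ₁` is linear over the residue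
  -- field of `F`, so it is induced by an element of `Gal(ℚ̄/F)`
  have hcomm : ∀ a : intF F, σ₁ • (a : B) - (a : B) ∈ primeUnder A := by
    intro a
    rw [mem_primeUnder]
    have ha : ((a : B) : L) ∈ F := a.2
    have hcoe : ((σ₁ • (a : B) - (a : B) : B) : L) = σ₁ ((a : B) : L) - ((a : B) : L) := rfl
    rw [hcoe, hσ₁F _ ha]
    exact h' _ ha (a : B).2
  obtain ⟨⟨k, hk⟩, hkψ⟩ := Ideal.Quotient.stabilizerHom_surjective_of_profinite
    (G := L ≃ₐ[F] L) ((primeUnder A).under (intF F)) (primeUnder A)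
    (resAut F (primeUnder A) σ₁ hσ₁Q hcomm)
  have hkb : ∀ b : B, A.valuation (k (b : L) - σ₁ (b : L)) < 1 := by
    intro b
    have h2 := DFunLike.congr_fun hkψ (Ideal.Quotient.mk (primeUnder A) b)
    rw [Ideal.Quotient.stabilizerHom_apply, resAut_mk, Ideal.Quotient.eq, mem_primeUnder] at h2
    exact h2
  have hkQ : k • primeUnder A = primeUnder A := MulAction.mem_stabilizer_iff.mp hk
  -- Step 4: the corrected element
  refine ⟨(toGal F k)⁻¹ * σ₁, ?_, ?_⟩
  · apply mem_inertiaSubgroupIn_of_integers ℓ hℓ A hA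
    intro b hb
    rw [ValuationSubring.mem_nonunits_iff]
    have hmem : (k • (⟨b, hb⟩ : B) - σ₁ • (⟨b, hb⟩ : B)) ∈ primeUnder A := by
      rw [mem_primeUnder]
      exact hkb ⟨b, hb⟩
    rw [← hkQ, Ideal.mem_pointwise_smul_iff_inv_smul_mem, mem_primeUnder] at hmem
    have hcoe : ((k⁻¹ • (k • (⟨b, hb⟩ : B) - σ₁ • (⟨b, hb⟩ : B)) : B) : L) =
        k⁻¹ (k b - σ₁ b) := rfl
    rw [hcoe, map_sub] at hmem
    have h1 : k⁻¹ (k b) = b := AlgEquiv.symm_apply_apply k b
    rw [h1, Valuation.map_sub_swap] at hmem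
    exact hmem
  · intro x hx
    show k⁻¹ (σ₁ x) = σ₀ x
    rw [hσ₁F x hx]
    exact k⁻¹.commutes ⟨σ₀ x, map_mem_of_normal F σ₀ x hx⟩

end Fermat.Agent.Lib.InertiaLift

end
end
-- ==== END Fermat.Agent.Lib.InertiaLift

-- ==== BEGIN Fermat.Agent.Lib.LocalGlobalDense
section

/-!
# The image of the local Galois group is dense in the decomposition group (helper13)

`padicPlace q` is the valuation subring of `ℚ̄` cut out by the embedding `ℚ̄ → ℚ̄_q` of the
prelude, and `localGaloisToGlobal q : Gal(ℚ̄_q/ℚ_q) → Gal(ℚ̄/ℚ)` is the restriction map.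

* `norm_padicEmbedding_map`: every element of the decomposition group of `padicPlace q` is an
  isometry for the `q`-adic norm.
* `exists_local_lift`: for `s` in the decomposition group and `α ∈ ℚ̄` there is a local
  automorphism `τ` with `localGaloisToGlobal q τ α = s α`.
* `exists_local_lift_field`: the same on a finite-dimensional intermediate field.
-/

set_option autoImplicit false
set_option linter.unusedSectionVars false
set_option linter.style.haveILetI false
set_option linter.unusedVariables false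

namespace Fermat.Agent.Lib.LocalGlobalDense

open Fermat.Agent.Lib.InertiaBridge

variable (q : ℕ) [Fact q.Prime]

/-- The `q`-adic absolute value on `ℚ̄`. -/
noncomputable def absQ : AbsoluteValue (AlgebraicClosure ℚ) ℝ :=
  (IsAbsoluteValue.toAbsoluteValue (norm : PadicAlgCl q → ℝ)).comp
    (f := (padicEmbedding q).toRingHom) (padicEmbedding q).toRingHom.injective

theorem absQ_apply (x : AlgebraicClosure ℚ) : absQ q x = ‖padicEmbedding q x‖ := rfl

theorem absQ_le_one_iff (x : AlgebraicClosure ℚ) : absQ q x ≤ 1 ↔ x ∈ padicPlace q := by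
  rw [mem_padicPlace_iff, absQ_apply, ← coe_nnnorm]
  exact_mod_cast Iff.rfl

theorem absQ_natCast_self : absQ q (q : AlgebraicClosure ℚ) = (q : ℝ)⁻¹ := by
  rw [absQ_apply, map_natCast]
  have h1 : algebraMap ℚ_[q] (PadicAlgCl q) (q : ℚ_[q]) = (q : PadicAlgCl q) :=
    map_natCast _ _
  rw [← h1]
  have h2 := PadicAlgCl.norm_extends q (q : ℚ_[q])
  rw [h2, Padic.norm_p]

/-- Elements of the decomposition group are isometries. -/
theorem absQ_map (s : AlgebraicClosure ℚ ≃ₐ[ℚ] AlgebraicClosure ℚ)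
    (hs : s ∈ (padicPlace q).decompositionSubgroup ℚ) (x : AlgebraicClosure ℚ) :
    absQ q (s x) = absQ q x := by
  have hmem : ∀ a, s a ∈ padicPlace q ↔ a ∈ padicPlace q :=
    (mem_decompositionSubgroup_iff_forall _ s).mp hs
  let v₂ : AbsoluteValue (AlgebraicClosure ℚ) ℝ :=
    (absQ q).comp (f := (s : AlgebraicClosure ℚ →+* AlgebraicClosure ℚ)) s.injective
  have hv₂ : ∀ a, v₂ a = absQ q (s a) := fun a => rfl
  have hle : ∀ a, v₂ a ≤ 1 ↔ absQ q a ≤ 1 := fun a => by
    rw [hv₂, absQ_le_one_iff, absQ_le_one_iff]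
    exact hmem a
  have hlt : ∀ a, absQ q a < 1 ↔ v₂ a < 1 := by
    intro a
    by_cases ha : a = 0
    · subst ha
      simp
    · have h1 := hle a⁻¹
      rw [map_inv₀, map_inv₀] at h1
      have hpos1 : 0 < absQ q a := (absQ q).pos ha
      have hpos2 : 0 < v₂ a := v₂.pos ha
      rw [inv_le_one_iff₀, inv_le_one_iff₀] at h1
      constructor
      · intro h
        by_contra hcon
        push Not at hcon
        have := h1.mp (Or.inr hcon)
        rcases this with h0 | h1'
        · linarith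
        · linarith
      · intro h
        by_contra hcon
        push Not at hcon
        have := h1.mpr (Or.inr hcon)
        rcases this with h0 | h1'
        · linarith
        · linarith
  have heq : (absQ q).IsEquiv v₂ := AbsoluteValue.isEquiv_iff_lt_one_iff.mpr hlt
  obtain ⟨c, hc, hcv⟩ := AbsoluteValue.isEquiv_iff_exists_rpow_eq.mp heq
  have hq1 : (1 : ℝ) < q := by exact_mod_cast (Fact.out : q.Prime).one_lt
  have hval : v₂ (q : AlgebraicClosure ℚ) = (q : ℝ)⁻¹ := by
    rw [hv₂, map_natCast, absQ_natCast_self]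
  have hc1 : c = 1 := by
    have h1 : (absQ q (q : AlgebraicClosure ℚ)) ^ c = v₂ (q : AlgebraicClosure ℚ) :=
      congrFun hcv (q : AlgebraicClosure ℚ)
    rw [hval, absQ_natCast_self] at h1
    have hpos : (0 : ℝ) < (q : ℝ)⁻¹ := inv_pos.mpr (by linarith)
    have hne : ((q : ℝ)⁻¹) ≠ 1 := by
      intro h
      have : (q : ℝ) = 1 := by
        rw [← inv_inv (q : ℝ), h, inv_one]
      linarith
    have h2 : ((q : ℝ)⁻¹) ^ c = ((q : ℝ)⁻¹) ^ (1 : ℝ) := by rw [h1, Real.rpow_one]
    have hlog := congrArg Real.log h2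
    rw [Real.log_rpow hpos, Real.log_rpow hpos] at hlog
    have hlogne : Real.log ((q : ℝ)⁻¹) ≠ 0 := by
      rw [Real.log_ne_zero]
      refine ⟨hpos.ne', hne, ?_⟩
      linarith
    exact mul_right_cancel₀ hlogne hlog
  have h3 : (absQ q x) ^ c = v₂ x := congrFun hcv x
  rw [hc1, Real.rpow_one] at h3
  rw [← hv₂, ← h3]

/-- Elements of the decomposition group are isometries. -/
theorem norm_padicEmbedding_map (s : AlgebraicClosure ℚ ≃ₐ[ℚ] AlgebraicClosure ℚ)
    (hs : s ∈ (padicPlace q).decompositionSubgroup ℚ) (x : AlgebraicClosure ℚ) :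
    ‖padicEmbedding q (s x)‖ = ‖padicEmbedding q x‖ :=
  absQ_map q s hs x

section Approx

/-- Bound for the difference between a polynomial value and an approximating sum. -/
theorem norm_aeval_sub_le (g : Polynomial ℚ_[q]) (r : ℕ → ℚ) (δ : ℝ)
    (hr : ∀ i, ‖g.coeff i - (r i : ℚ_[q])‖ ≤ δ) (y : PadicAlgCl q) :
    ‖Polynomial.aeval y g - ∑ i ∈ Finset.range (g.natDegree + 1),
        algebraMap ℚ_[q] (PadicAlgCl q) (r i : ℚ_[q]) * y ^ i‖
      ≤ δ * ∑ i ∈ Finset.range (g.natDegree + 1), ‖y‖ ^ i := by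
  rw [Polynomial.aeval_eq_sum_range, ← Finset.sum_sub_distrib, Finset.mul_sum]
  refine (norm_sum_le _ _).trans (Finset.sum_le_sum fun i _ => ?_)
  have h1 : g.coeff i • y ^ i - algebraMap ℚ_[q] (PadicAlgCl q) (r i : ℚ_[q]) * y ^ i
      = (g.coeff i - (r i : ℚ_[q])) • y ^ i := by
    rw [sub_smul, Algebra.smul_def, Algebra.smul_def]
  rw [h1, norm_smul, norm_pow]
  exact mul_le_mul_of_nonneg_right (hr i) (pow_nonneg (norm_nonneg _) _)

theorem padicEmbedding_sum (r : ℕ → ℚ) (n : ℕ) (a : AlgebraicClosure ℚ) :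
    padicEmbedding q (∑ i ∈ Finset.range n, algebraMap ℚ (AlgebraicClosure ℚ) (r i) * a ^ i)
      = ∑ i ∈ Finset.range n,
          algebraMap ℚ_[q] (PadicAlgCl q) (r i : ℚ_[q]) * (padicEmbedding q a) ^ i := by
  rw [map_sum]
  refine Finset.sum_congr rfl fun i _ => ?_
  rw [map_mul, map_pow, AlgHom.commutes]
  congr 1

end Approx

/-- **Local lift.** For `s` in the decomposition group of `padicPlace q` and `α ∈ ℚ̄` there
is a local automorphism agreeing with `s` on `α`. -/
theorem exists_local_lift (s : AlgebraicClosure ℚ ≃ₐ[ℚ] AlgebraicClosure ℚ)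
    (hs : s ∈ (padicPlace q).decompositionSubgroup ℚ) (α : AlgebraicClosure ℚ) :
    ∃ τ : PadicAlgCl q ≃ₐ[ℚ_[q]] PadicAlgCl q, localGaloisToGlobal q τ α = s α := by
  obtain ⟨β, hβ⟩ : ∃ β, β = padicEmbedding q α := ⟨_, rfl⟩
  obtain ⟨β', hβ'⟩ : ∃ β', β' = padicEmbedding q (s α) := ⟨_, rfl⟩
  have halg : IsAlgebraic ℚ_[q] β := Algebra.IsAlgebraic.isAlgebraic β
  have hroot : Polynomial.aeval β' (minpoly ℚ_[q] β) = 0 := by
    obtain ⟨g, hg⟩ : ∃ g, g = minpoly ℚ_[q] β := ⟨_, rfl⟩
    rw [← hg]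
    have hgβ : Polynomial.aeval β g = 0 := by rw [hg]; exact minpoly.aeval _ _
    rw [← norm_eq_zero]
    obtain ⟨C, hCdef⟩ : ∃ C : ℝ, C = ∑ i ∈ Finset.range (g.natDegree + 1), ‖β‖ ^ i
        + ∑ i ∈ Finset.range (g.natDegree + 1), ‖β'‖ ^ i := ⟨_, rfl⟩
    have hC : 0 ≤ C := by
      rw [hCdef]
      exact add_nonneg (Finset.sum_nonneg fun i _ => pow_nonneg (norm_nonneg _) _)
        (Finset.sum_nonneg fun i _ => pow_nonneg (norm_nonneg _) _)
    apply le_antisymm _ (norm_nonneg _)
    apply le_of_forall_pos_le_add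
    intro ε hε
    rw [zero_add]
    obtain ⟨δ, hδdef⟩ : ∃ δ : ℝ, δ = ε / (C + 1) := ⟨_, rfl⟩
    have hδ : 0 < δ := by rw [hδdef]; positivity
    have hδC : δ * C ≤ ε := by
      rw [hδdef, div_mul_eq_mul_div, div_le_iff₀ (by positivity)]
      nlinarith
    have hex : ∀ i : ℕ, ∃ r : ℚ, ‖g.coeff i - (r : ℚ_[q])‖ < δ :=
      fun i => Padic.rat_dense q (g.coeff i) hδ
    choose r hr using hex
    have hr' : ∀ i, ‖g.coeff i - (r i : ℚ_[q])‖ ≤ δ := fun i => (hr i).le
    obtain ⟨e, he⟩ : ∃ e : AlgebraicClosure ℚ, e = ∑ i ∈ Finset.range (g.natDegree + 1),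
        algebraMap ℚ (AlgebraicClosure ℚ) (r i) * α ^ i := ⟨_, rfl⟩
    have h1 : padicEmbedding q e = ∑ i ∈ Finset.range (g.natDegree + 1),
        algebraMap ℚ_[q] (PadicAlgCl q) (r i : ℚ_[q]) * β ^ i := by
      rw [he, padicEmbedding_sum, hβ]
    have hse : s e = ∑ i ∈ Finset.range (g.natDegree + 1),
        algebraMap ℚ (AlgebraicClosure ℚ) (r i) * (s α) ^ i := by
      rw [he, map_sum]
      refine Finset.sum_congr rfl fun i _ => ?_
      rw [map_mul, map_pow, AlgEquiv.commutes]
    have h2 : padicEmbedding q (s e) = ∑ i ∈ Finset.range (g.natDegree + 1),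
        algebraMap ℚ_[q] (PadicAlgCl q) (r i : ℚ_[q]) * β' ^ i := by
      rw [hse, padicEmbedding_sum, hβ']
    have h3 : ‖padicEmbedding q (s e)‖ = ‖padicEmbedding q e‖ :=
      norm_padicEmbedding_map q s hs e
    have h4 := norm_aeval_sub_le q g r δ hr' β
    have h5 := norm_aeval_sub_le q g r δ hr' β'
    rw [hgβ, zero_sub, norm_neg, ← h1] at h4
    rw [← h2] at h5
    calc ‖Polynomial.aeval β' g‖
        = ‖(Polynomial.aeval β' g - padicEmbedding q (s e)) + padicEmbedding q (s e)‖ := by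
          rw [sub_add_cancel]
      _ ≤ ‖Polynomial.aeval β' g - padicEmbedding q (s e)‖ + ‖padicEmbedding q (s e)‖ :=
          norm_add_le _ _
      _ ≤ δ * ∑ i ∈ Finset.range (g.natDegree + 1), ‖β'‖ ^ i
          + δ * ∑ i ∈ Finset.range (g.natDegree + 1), ‖β‖ ^ i := by
          rw [h3]
          exact add_le_add h5 h4
      _ = δ * C := by rw [hCdef]; ring
      _ ≤ ε := hδC
  haveI : Normal ℚ_[q] (PadicAlgCl q) := IsAlgClosure.normal ℚ_[q] (PadicAlgCl q)
  obtain ⟨σ, hσ⟩ := minpoly.exists_algEquiv_of_root halg hroot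
  refine ⟨σ.symm, ?_⟩
  apply (padicEmbedding q).toRingHom.injective
  show padicEmbedding q (localGaloisToGlobal q σ.symm α) = padicEmbedding q (s α)
  rw [padicEmbedding_localGaloisToGlobal, ← hβ, ← hβ', ← hσ]
  exact σ.symm_apply_apply β'

/-- **Local lift on a finite extension.** -/
theorem exists_local_lift_field (s : AlgebraicClosure ℚ ≃ₐ[ℚ] AlgebraicClosure ℚ)
    (hs : s ∈ (padicPlace q).decompositionSubgroup ℚ)
    (L : IntermediateField ℚ (AlgebraicClosure ℚ)) [FiniteDimensional ℚ L] :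
    ∃ τ : PadicAlgCl q ≃ₐ[ℚ_[q]] PadicAlgCl q, ∀ x ∈ L, localGaloisToGlobal q τ x = s x := by
  obtain ⟨α, hα⟩ := Field.exists_primitive_element ℚ L
  obtain ⟨τ, hτ⟩ := exists_local_lift q s hs (α : AlgebraicClosure ℚ)
  refine ⟨τ, fun x hx => ?_⟩
  -- the two restrictions to `L` agree on the generator
  let f₁ : L →ₐ[ℚ] AlgebraicClosure ℚ :=
    ((localGaloisToGlobal q τ : AlgebraicClosure ℚ ≃ₐ[ℚ] AlgebraicClosure ℚ) :
      AlgebraicClosure ℚ →ₐ[ℚ] AlgebraicClosure ℚ).comp L.val
  let f₂ : L →ₐ[ℚ] AlgebraicClosure ℚ :=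
    ((s : AlgebraicClosure ℚ ≃ₐ[ℚ] AlgebraicClosure ℚ) :
      AlgebraicClosure ℚ →ₐ[ℚ] AlgebraicClosure ℚ).comp L.val
  have hf : f₁ = f₂ := by
    have h1 : Algebra.adjoin ℚ {α} = ⊤ := by
      have h2 := IntermediateField.adjoin_simple_toSubalgebra_of_isAlgebraic
        (Algebra.IsAlgebraic.isAlgebraic (R := ℚ) α)
      rw [hα, IntermediateField.top_toSubalgebra] at h2
      exact h2.symm
    refine AlgHom.ext_of_adjoin_eq_top h1 (fun y hy => ?_)
    rw [Set.mem_singleton_iff] at hy
    subst hy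
    exact hτ
  exact DFunLike.congr_fun hf ⟨x, hx⟩

end Fermat.Agent.Lib.LocalGlobalDense

end
-- ==== END Fermat.Agent.Lib.LocalGlobalDense

-- ==== BEGIN Fermat.Agent.Lib.LocalKummer.CocycleFinite
section

/-
Abstract finiteness of a set of crossed homomorphisms: if `U` has finite index in `G`, the
coefficient group `M` is finite, and the restrictions to `U` range over a finite set, then the
set is finite.  Also: functions into a finite-dimensional `ZMod ℓ`-space all of whose coordinates
lie in a finite set form a finite set.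
-/

set_option autoImplicit false
set_option linter.unusedSectionVars false
set_option linter.style.haveILetI false

namespace Fermat.Agent.Lib.LocalKummer

section abstract

variable {G M : Type*} [Group G] [AddCommGroup M] [Finite M]

theorem finite_of_restrict_finite (U : Subgroup G) [Finite (G ⧸ U)] (ρ : G → M → M)
    (S : Set (G → M))
    (hcoc : ∀ c ∈ S, ∀ g u : G, u ∈ U → c (g * u) = ρ g (c u) + c g)
    (Y : Set (↥U → M)) (hY : Y.Finite) (hres : ∀ c ∈ S, (fun u : U => c u) ∈ Y) :
    S.Finite := by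
  classical
  let Φ : (G → M) → (G ⧸ U → M) × (↥U → M) :=
    fun c => (fun x => c x.out, fun u => c u)
  have hmaps : Set.MapsTo Φ S (Set.univ ×ˢ Y) := by
    intro c hc
    exact ⟨Set.mem_univ _, hres c hc⟩
  have hinj : Set.InjOn Φ S := by
    intro c hc c' hc' h
    have h1 : ∀ x : G ⧸ U, c x.out = c' x.out := fun x => congrFun (congrArg Prod.fst h) x
    have h2 : ∀ u : U, c u = c' u := fun u => congrFun (congrArg Prod.snd h) u
    funext g
    have hu : ((g : G ⧸ U).out)⁻¹ * g ∈ U := by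
      apply QuotientGroup.eq.1
      exact QuotientGroup.out_eq' _
    have hg : g = (g : G ⧸ U).out * (((g : G ⧸ U).out)⁻¹ * g) := by
      rw [mul_inv_cancel_left]
    rw [hg, hcoc c hc _ _ hu, hcoc c' hc' _ _ hu, h1, h2 ⟨_, hu⟩]
  exact Set.Finite.of_injOn hmaps hinj (Set.finite_univ.prod hY)

end abstract

section coords

variable {V M ι X : Type*} [Finite ι]

/-- Functions all of whose coordinates (with respect to an injective coordinate map) lie in a
finite set form a finite set. -/
theorem finite_of_coords_finite (co : M → ι → X) (hco : Function.Injective co)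
    (A : Set (V → X)) (hA : A.Finite) :
    {φ : V → M | ∀ i, (fun v => co (φ v) i) ∈ A}.Finite := by
  classical
  let Ψ : (V → M) → (ι → (V → X)) := fun φ i v => co (φ v) i
  have hΨ : Function.Injective Ψ := by
    intro φ φ' h
    funext v
    apply hco
    funext i
    exact congrFun (congrFun h i) v
  have h1 : {f : ι → (V → X) | ∀ i, f i ∈ A}.Finite := Set.Finite.pi' (fun _ => hA)
  have h2 := h1.preimage (hΨ.injOn (s := Ψ ⁻¹' {f : ι → (V → X) | ∀ i, f i ∈ A}))
  refine h2.subset ?_
  intro φ hφ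
  show Ψ φ ∈ {f : ι → (V → X) | ∀ i, f i ∈ A}
  intro i
  exact hφ i

end coords

end Fermat.Agent.Lib.LocalKummer

end
-- ==== END Fermat.Agent.Lib.LocalKummer.CocycleFinite

-- ==== BEGIN Fermat.Agent.Lib.LocalKummer.Resolvent
section

/-
Hilbert 90 and Kummer theory (existence part) by Poincare series / Lagrange resolvents,
elementwise (no intermediate fields): a group `G` acts on a field `Ω`; `z : G → Ω` is a
multiplicative crossed homomorphism with nonzero values, trivial on a subgroup `U` of finite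
index which is the pointwise stabiliser of the image of a monoid `F`.  Then there is `γ ≠ 0`
in `Ω` with `g • γ = z g * γ` for all `g`.
-/

set_option autoImplicit false
set_option linter.unusedSectionVars false
set_option linter.style.haveILetI false

namespace Fermat.Agent.Lib.LocalKummer

section powZMod

variable {Ω : Type*} [Field Ω] {ℓ : ℕ} [NeZero ℓ]

/-- `ζ ^ a` for `a : ZMod ℓ`. -/
noncomputable def zpowZ (ζ : Ω) (a : ZMod ℓ) : Ω := ζ ^ a.val

lemma zpowZ_add {ζ : Ω} (hζ : ζ ^ ℓ = 1) (a b : ZMod ℓ) :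
    zpowZ ζ (a + b) = zpowZ ζ a * zpowZ ζ b := by
  unfold zpowZ
  rw [ZMod.val_add, ← pow_add, ← pow_eq_pow_mod _ hζ]

lemma zpowZ_zero (ζ : Ω) : zpowZ ζ (0 : ZMod ℓ) = 1 := by
  unfold zpowZ
  rw [ZMod.val_zero, pow_zero]

lemma zpowZ_ne_zero {ζ : Ω} (hζ : ζ ^ ℓ = 1) (a : ZMod ℓ) : zpowZ ζ a ≠ 0 := by
  have h0 : ζ ≠ 0 := by
    rintro rfl
    rw [zero_pow (NeZero.ne ℓ)] at hζ
    exact zero_ne_one hζ
  exact pow_ne_zero _ h0

lemma zpowZ_natCast {ζ : Ω} (hζ : ζ ^ ℓ = 1) (n : ℕ) : zpowZ ζ (n : ZMod ℓ) = ζ ^ n := by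
  unfold zpowZ
  rw [ZMod.val_natCast, ← pow_eq_pow_mod _ hζ]

lemma zpowZ_pow (ζ : Ω) (hζ : ζ ^ ℓ = 1) (a : ZMod ℓ) : zpowZ ζ a ^ ℓ = 1 := by
  unfold zpowZ
  rw [← pow_mul, mul_comm, pow_mul, hζ, one_pow]

lemma zpowZ_mul {ζ : Ω} (hζ : ζ ^ ℓ = 1) (a b : ZMod ℓ) :
    zpowZ ζ (a * b) = zpowZ ζ a ^ b.val := by
  unfold zpowZ
  rw [ZMod.val_mul, ← pow_mul, ← pow_eq_pow_mod _ hζ]

lemma zpowZ_eq_one_iff {ζ : Ω} (hζ : IsPrimitiveRoot ζ ℓ) (a : ZMod ℓ) :
    zpowZ ζ a = 1 ↔ a = 0 := by
  constructor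
  · intro h
    unfold zpowZ at h
    have h1 := (hζ.pow_eq_one_iff_dvd _).1 h
    have h2 : a.val = 0 := Nat.eq_zero_of_dvd_of_lt h1 (ZMod.val_lt a)
    exact (ZMod.val_eq_zero a).1 h2
  · rintro rfl
    exact zpowZ_zero ζ

lemma zpowZ_injective {ζ : Ω} (hζ : IsPrimitiveRoot ζ ℓ) :
    Function.Injective (zpowZ ζ : ZMod ℓ → Ω) := by
  intro a b h
  have h1 : zpowZ ζ (a - b) = 1 := by
    have h2 : zpowZ ζ (a - b) * zpowZ ζ b = zpowZ ζ a := by
      rw [← zpowZ_add hζ.pow_eq_one, sub_add_cancel]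
    rw [h] at h2
    exact mul_right_cancel₀ (zpowZ_ne_zero hζ.pow_eq_one b) (h2.trans (one_mul _).symm)
  exact sub_eq_zero.1 ((zpowZ_eq_one_iff hζ _).1 h1)

lemma zpowZ_zpow {ζ : Ω} (hζ : ζ ^ ℓ = 1) (a : ZMod ℓ) (i : ℤ) :
    zpowZ ζ a ^ i = zpowZ ζ (a * (i : ZMod ℓ)) := by
  rw [zpowZ_mul hζ]
  have h1 : (zpowZ ζ a) ^ (ℓ : ℤ) = 1 := by
    rw [zpow_natCast]
    exact zpowZ_pow ζ hζ a
  have h0 : zpowZ ζ a ≠ 0 := zpowZ_ne_zero hζ a
  have h2 : i = (ℓ : ℤ) * (i / ℓ) + i % ℓ := (Int.mul_ediv_add_emod i ℓ).symm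
  have h3 : zpowZ ζ a ^ i = zpowZ ζ a ^ (i % ℓ) := by
    conv_lhs => rw [h2]
    rw [zpow_add₀ h0, zpow_mul, h1, one_zpow, one_mul]
  rw [h3, ← ZMod.val_intCast, zpow_natCast]

lemma smul_zpowZ {G : Type*} [Monoid G] [MulSemiringAction G Ω] (g : G) (ζ : Ω) (a : ZMod ℓ) :
    g • zpowZ ζ a = zpowZ (g • ζ) a := by
  unfold zpowZ
  rw [smul_pow']

lemma zpowZ_zpowZ {ζ : Ω} (hζ : ζ ^ ℓ = 1) (a b : ZMod ℓ) :
    zpowZ (zpowZ ζ a) b = zpowZ ζ (a * b) := by
  rw [zpowZ_mul hζ]
  rfl

/-- Every `ℓ`-th root of unity is `ζ ^ a`. -/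
lemma exists_zpowZ_eq {ζ : Ω} (hζ : IsPrimitiveRoot ζ ℓ) {x : Ω} (hx : x ^ ℓ = 1) :
    ∃ a : ZMod ℓ, zpowZ ζ a = x := by
  obtain ⟨i, _, hi⟩ := hζ.eq_pow_of_pow_eq_one hx
  exact ⟨(i : ZMod ℓ), by rw [zpowZ_natCast hζ.pow_eq_one, hi]⟩

end powZMod

section hilbert90

variable {G Ω F : Type*} [Group G] [Field Ω] [MulSemiringAction G Ω] [Monoid F]

/-- **Hilbert 90** (Poincare series), for crossed homomorphisms trivial on a subgroup of finite
index which is a pointwise stabiliser. -/
theorem exists_hilbert90 (z : G → Ω) (hz : ∀ g h, z (g * h) = z g * g • z h)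
    (hz0 : ∀ g, z g ≠ 0)
    (U : Subgroup G) [Finite (G ⧸ U)] (hU : ∀ u ∈ U, z u = 1)
    (ι : F →* Ω) (hstab : ∀ g : G, (∀ x : F, g • ι x = ι x) → g ∈ U)
    (hstab' : ∀ u ∈ U, ∀ x : F, u • ι x = ι x) :
    ∃ γ : Ω, γ ≠ 0 ∧ ∀ g : G, g • γ = z g * γ := by
  classical
  haveI : Fintype (G ⧸ U) := Fintype.ofFinite _
  -- the monoid homs
  let f : G → (F →* Ω) := fun g =>
    { toFun := fun x => g • ι x
      map_one' := by rw [map_one, smul_one]
      map_mul' := fun x y => by rw [map_mul, smul_mul'] }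
  let v : G ⧸ U → (F → Ω) := fun x => (f x.out : F → Ω)
  have hinj : Function.Injective (fun x : G ⧸ U => f x.out) := by
    intro x y hxy
    have h1 : ∀ w : F, x.out • ι w = y.out • ι w := fun w => congrArg (fun φ : F →* Ω => φ w) hxy
    have h2 : x.out⁻¹ * y.out ∈ U := by
      apply hstab
      intro w
      rw [mul_smul, ← h1 w, inv_smul_smul]
    have h3 : ((x.out : G) : G ⧸ U) = ((y.out : G) : G ⧸ U) := QuotientGroup.eq.2 h2
    rwa [QuotientGroup.out_eq', QuotientGroup.out_eq'] at h3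
  have hli : LinearIndependent Ω v :=
    (linearIndependent_monoidHom F Ω).comp (fun x : G ⧸ U => f x.out) hinj
  let a : G ⧸ U → Ω := fun x => z x.out
  have hne : ∑ x, a x • v x ≠ 0 := by
    intro h0
    have h1 := (Fintype.linearIndependent_iff.1 hli) a h0 ((1 : G) : G ⧸ U)
    exact hz0 _ h1
  obtain ⟨y, hy⟩ : ∃ y : F, (∑ x, a x • v x) y ≠ 0 := by
    by_contra hcon
    apply hne
    funext y
    by_contra hy
    exact hcon ⟨y, hy⟩
  have hval : (∑ x, a x • v x) y = ∑ x : G ⧸ U, a x * (x.out • ι y) := by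
    rw [Finset.sum_apply]
    rfl
  rw [hval] at hy
  have hmain : ∀ g : G, z g * g • (∑ x : G ⧸ U, a x * (x.out • ι y)) =
      ∑ x : G ⧸ U, a x * (x.out • ι y) := by
    intro g
    -- key coset computation
    have hkey : ∀ x : G ⧸ U, ∃ u ∈ U, g * x.out = (g • x).out * u := by
      intro x
      refine ⟨((g • x).out)⁻¹ * (g * x.out), ?_, by rw [mul_inv_cancel_left]⟩
      apply QuotientGroup.eq.1
      rw [QuotientGroup.out_eq']
      have h1 : (g • x : G ⧸ U) = g • ((x.out : G) : G ⧸ U) := by rw [QuotientGroup.out_eq']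
      rw [h1]
      rfl
    have hterm : ∀ x : G ⧸ U, z g * g • (a x * (x.out • ι y)) =
        a (g • x) * ((g • x).out • ι y) := by
      intro x
      obtain ⟨u, hu, hgu⟩ := hkey x
      have h2 : g • (x.out • ι y) = (g • x).out • ι y := by
        rw [← mul_smul, hgu, mul_smul, hstab' u hu]
      have h3 : z g * g • a x = a (g • x) := by
        show z g * g • z x.out = z (g • x).out
        rw [← hz, hgu, hz, hU u hu, smul_one, mul_one]
      rw [smul_mul', h2, ← mul_assoc, h3]
    rw [Finset.smul_sum, Finset.mul_sum]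
    simp_rw [hterm]
    exact Equiv.sum_comp (MulAction.toPerm g : G ⧸ U ≃ G ⧸ U)
      (fun x => a x * (x.out • ι y))
  refine ⟨(∑ x : G ⧸ U, a x * (x.out • ι y))⁻¹, inv_ne_zero hy, fun g => ?_⟩
  have h1 := hmain g
  have h2 : g • (∑ x : G ⧸ U, a x * (x.out • ι y)) ≠ 0 := by
    intro h0
    rw [h0, mul_zero] at h1
    exact hy h1.symm
  rw [smul_inv'']
  field_simp
  rw [mul_comm]
  exact h1.symm

end hilbert90

section resolvent

variable {G Ω F : Type*} [Group G] [Field Ω] [MulSemiringAction G Ω] [Monoid F]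
  {ℓ : ℕ} [NeZero ℓ]

/-- **Lagrange resolvent** (Kummer theory, existence): an additive character trivial on a
pointwise stabiliser of finite index is a Kummer character. -/
theorem exists_resolvent (ζ : Ω) (hζ : ζ ^ ℓ = 1) (hfix : ∀ g : G, g • ζ = ζ)
    (ψ : G → ZMod ℓ) (hψ : ∀ g h, ψ (g * h) = ψ g + ψ h)
    (U : Subgroup G) [Finite (G ⧸ U)] (hU : ∀ u ∈ U, ψ u = 0)
    (ι : F →* Ω) (hstab : ∀ g : G, (∀ x : F, g • ι x = ι x) → g ∈ U)
    (hstab' : ∀ u ∈ U, ∀ x : F, u • ι x = ι x) :
    ∃ γ : Ω, γ ≠ 0 ∧ ∀ g : G, g • γ = zpowZ ζ (ψ g) * γ := by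
  refine exists_hilbert90 (fun g => zpowZ ζ (ψ g)) ?_ (fun g => zpowZ_ne_zero hζ _) U ?_ ι
    hstab hstab'
  · intro g h
    have h1 : g • zpowZ ζ (ψ h) = zpowZ ζ (ψ h) := by
      unfold zpowZ
      rw [smul_pow', hfix]
    show zpowZ ζ (ψ (g * h)) = zpowZ ζ (ψ g) * g • zpowZ ζ (ψ h)
    rw [h1, hψ, zpowZ_add hζ]
  · intro u hu
    show zpowZ ζ (ψ u) = 1
    rw [hU u hu, zpowZ_zero]

end resolvent

end Fermat.Agent.Lib.LocalKummer

end
-- ==== END Fermat.Agent.Lib.LocalKummer.Resolvent

-- ==== BEGIN Fermat.Agent.Lib.MinkowskiCore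
section

/-!
# Minkowski: a normal open subgroup of `Gal(ℚ̄/ℚ)` containing an inertia group at every prime
is everything (core argument, relative to an inertia lifting statement)

`minkowski_of_lift` : given the inertia lifting statement `LiftStmt` (proved in
`Fermat/Agent/Lib/InertiaLift.lean`), a normal subgroup `H` of `Gal(ℚ̄/ℚ)` that contains the
pointwise stabiliser of a finite set and, for every prime `ℓ`, the inertia group of SOME
valuation subring over `ℓ`, is all of `Gal(ℚ̄/ℚ)`.

Proof: the fixed field `L` of `H` is a finite Galois extension of `ℚ`.  If `L ≠ ℚ`, Mathlib's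
Minkowski theorem gives a prime `p` such that every prime of `𝓞 L` over `p` is ramified.  But the
prime `P` of `𝓞 L` cut out by the given valuation subring `A` over `p` has trivial inertia group
in `Gal(L/ℚ)`: an element `τ` of it lifts to `σ ∈ I_A ≤ H`, which fixes `L`, so `τ = 1`.
-/

set_option autoImplicit false

open scoped Pointwise NumberField

namespace Fermat.Agent.Lib.Minkowski

theorem qbar_isAlgebraic : Algebra.IsAlgebraic ℚ (AlgebraicClosure ℚ) :=
  AlgebraicClosure.isAlgebraic ℚ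

attribute [local instance] qbar_isAlgebraic

theorem qbar_isAlgClosure : IsAlgClosure ℚ (AlgebraicClosure ℚ) :=
  ⟨inferInstance, inferInstance⟩

attribute [local instance] qbar_isAlgClosure

theorem qbar_isGalois : IsGalois ℚ (AlgebraicClosure ℚ) := inferInstance

attribute [local instance] qbar_isGalois

theorem qbar_normal : Normal ℚ (AlgebraicClosure ℚ) := IsGalois.to_normal

attribute [local instance] qbar_normal

/-- The inertia lifting statement (interface; proved in `Lib/InertiaLift.lean`). -/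
def LiftStmt : Prop :=
  ∀ (ℓ : ℕ) (_ : ℓ.Prime) (A : ValuationSubring (AlgebraicClosure ℚ)) (_ : A.LiesOverPrime ℓ)
    (F : IntermediateField ℚ (AlgebraicClosure ℚ)) [Normal ℚ F]
    (σ₀ : AlgebraicClosure ℚ ≃ₐ[ℚ] AlgebraicClosure ℚ)
    (_ : ∀ x : AlgebraicClosure ℚ, x ∈ F → IsIntegral ℤ x → σ₀ x - x ∈ A.nonunits),
    ∃ σ ∈ A.inertiaSubgroupIn ℚ, ∀ x ∈ F, σ x = σ₀ x

/-- Algebraic integers lie in every valuation subring. -/
theorem val_le_one_of_isIntegral {K : Type*} [Field K] (A : ValuationSubring K) (x : K)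
    (hx : IsIntegral ℤ x) : A.valuation x ≤ 1 := by
  have h1 : IsIntegral A x := hx.tower_top
  exact (Valuation.Integers.isIntegral_iff_v_le_one
    (Valuation.valuationSubring.integers A.valuation) (x := x)).mp
    (by rw [A.valuationSubring_valuation]; exact h1) |>.trans_eq' rfl

section

variable (L : IntermediateField ℚ (AlgebraicClosure ℚ))

theorem val_algebraMap_le_one (A : ValuationSubring (AlgebraicClosure ℚ)) (c : 𝓞 L) :
    A.valuation (algebraMap (𝓞 L) (AlgebraicClosure ℚ) c) ≤ 1 := by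
  apply val_le_one_of_isIntegral
  have h := NumberField.RingOfIntegers.isIntegral_coe c
  have h2 := h.map (IsScalarTower.toAlgHom ℤ L (AlgebraicClosure ℚ))
  exact h2

/-- The prime of `𝓞 L` cut out by a valuation subring of `ℚ̄`. -/
def primeBelow (A : ValuationSubring (AlgebraicClosure ℚ)) : Ideal (𝓞 L) where
  carrier := {b | A.valuation (algebraMap (𝓞 L) (AlgebraicClosure ℚ) b) < 1}
  add_mem' := fun {x y} hx hy => by
    show A.valuation (algebraMap (𝓞 L) (AlgebraicClosure ℚ) (x + y)) < 1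
    rw [map_add]
    exact lt_of_le_of_lt (A.valuation.map_add _ _) (max_lt hx hy)
  zero_mem' := by
    show A.valuation (algebraMap (𝓞 L) (AlgebraicClosure ℚ) 0) < 1
    rw [map_zero, map_zero]
    exact zero_lt_one
  smul_mem' := fun c x hx => by
    show A.valuation (algebraMap (𝓞 L) (AlgebraicClosure ℚ) (c • x)) < 1
    rw [smul_eq_mul, map_mul, map_mul]
    have hc := val_algebraMap_le_one L A c
    calc A.valuation (algebraMap (𝓞 L) (AlgebraicClosure ℚ) c)
          * A.valuation (algebraMap (𝓞 L) (AlgebraicClosure ℚ) x)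
        ≤ 1 * A.valuation (algebraMap (𝓞 L) (AlgebraicClosure ℚ) x) := mul_le_mul_left hc _
      _ = A.valuation (algebraMap (𝓞 L) (AlgebraicClosure ℚ) x) := one_mul _
      _ < 1 := hx

theorem mem_primeBelow (A : ValuationSubring (AlgebraicClosure ℚ)) (b : 𝓞 L) :
    b ∈ primeBelow L A ↔ A.valuation (algebraMap (𝓞 L) (AlgebraicClosure ℚ) b) < 1 := Iff.rfl

theorem primeBelow_isPrime (A : ValuationSubring (AlgebraicClosure ℚ)) :
    (primeBelow L A).IsPrime := by
  refine ⟨?_, ?_⟩
  · intro h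
    have h1 : (1 : 𝓞 L) ∈ primeBelow L A := by
      rw [h]; exact Submodule.mem_top
    rw [mem_primeBelow, map_one, map_one] at h1
    exact lt_irrefl _ h1
  · intro x y hxy
    rw [mem_primeBelow, map_mul, map_mul] at hxy
    by_contra hcon
    rw [not_or] at hcon
    have hx : A.valuation (algebraMap (𝓞 L) (AlgebraicClosure ℚ) x) = 1 :=
      le_antisymm (val_algebraMap_le_one L A x) (not_lt.mp hcon.1)
    have hy : A.valuation (algebraMap (𝓞 L) (AlgebraicClosure ℚ) y) = 1 :=
      le_antisymm (val_algebraMap_le_one L A y) (not_lt.mp hcon.2)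
    rw [hx, hy, one_mul] at hxy
    exact lt_irrefl _ hxy

theorem natCast_mem_primeBelow (A : ValuationSubring (AlgebraicClosure ℚ)) (ℓ : ℕ)
    (hA : A.LiesOverPrime ℓ) : (ℓ : 𝓞 L) ∈ primeBelow L A := by
  rw [mem_primeBelow, map_natCast]
  exact A.mem_nonunits_iff.mp hA

/-- If every element of the inertia group of `A` fixes `L` pointwise, then the inertia group of
`primeBelow L A` in `Gal(L/ℚ)` is trivial. -/
theorem inertia_primeBelow_eq_bot (hlift : LiftStmt) [Normal ℚ L] (ℓ : ℕ) (hℓ : ℓ.Prime)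
    (A : ValuationSubring (AlgebraicClosure ℚ)) (hA : A.LiesOverPrime ℓ)
    (hfix : ∀ σ ∈ A.inertiaSubgroupIn ℚ, ∀ x ∈ L, σ x = x) :
    (primeBelow L A).inertia (L ≃ₐ[ℚ] L) = ⊥ := by
  rw [eq_bot_iff]
  intro τ hτ
  rw [Subgroup.mem_bot]
  obtain ⟨σ₀, hσ₀⟩ := AlgEquiv.restrictNormalHom_surjective (F := ℚ) (K₁ := L)
    (AlgebraicClosure ℚ) τ
  have hcomm : ∀ x : L, ((τ x : L) : AlgebraicClosure ℚ) = σ₀ (x : AlgebraicClosure ℚ) := by
    intro x
    rw [← hσ₀]
    exact AlgEquiv.restrictNormal_commutes σ₀ L x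
  have key : ∀ x : AlgebraicClosure ℚ, x ∈ L → IsIntegral ℤ x → σ₀ x - x ∈ A.nonunits := by
    intro x hxL hxint
    have hxint' : IsIntegral ℤ (⟨x, hxL⟩ : L) := by
      rw [← isIntegral_algebraMap_iff (FaithfulSMul.algebraMap_injective L (AlgebraicClosure ℚ))]
      exact hxint
    let b : 𝓞 L := ⟨⟨x, hxL⟩, hxint'⟩
    have h1 : τ • b - b ∈ primeBelow L A := hτ b
    rw [mem_primeBelow, map_sub] at h1
    have h2 : algebraMap (𝓞 L) (AlgebraicClosure ℚ) (τ • b) = σ₀ x := by
      have h3 : algebraMap (𝓞 L) (AlgebraicClosure ℚ) (τ • b)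
          = ((τ (⟨x, hxL⟩ : L) : L) : AlgebraicClosure ℚ) := rfl
      rw [h3, hcomm]
    have h4 : algebraMap (𝓞 L) (AlgebraicClosure ℚ) b = x := rfl
    rw [h2, h4] at h1
    exact A.mem_nonunits_iff.mpr h1
  obtain ⟨σ, hσ, hσeq⟩ := hlift ℓ hℓ A hA L σ₀ key
  ext x
  rw [hcomm, ← hσeq x x.2, hfix σ hσ x x.2]
  rfl

end

/-- Minkowski, relative to the inertia lifting statement. -/
theorem minkowski_of_lift (hlift : LiftStmt)
    (H : Subgroup (AlgebraicClosure ℚ ≃ₐ[ℚ] AlgebraicClosure ℚ)) (hHn : H.Normal)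
    (hS : ∃ S : Finset (AlgebraicClosure ℚ),
      ∀ σ : AlgebraicClosure ℚ ≃ₐ[ℚ] AlgebraicClosure ℚ, (∀ x ∈ S, σ x = x) → σ ∈ H)
    (hinert : ∀ ℓ : ℕ, ℓ.Prime → ∃ A : ValuationSubring (AlgebraicClosure ℚ),
      A.LiesOverPrime ℓ ∧ A.inertiaSubgroupIn ℚ ≤ H) :
    H = ⊤ := by
  obtain ⟨S, hS⟩ := hS
  -- Step 1: `H` contains the fixing subgroup of a finite extension, so it is open and closed.
  let F₀ : IntermediateField ℚ (AlgebraicClosure ℚ) :=
    IntermediateField.adjoin ℚ (S : Set (AlgebraicClosure ℚ))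
  have hF₀fin : FiniteDimensional ℚ F₀ :=
    IntermediateField.finiteDimensional_adjoin (fun x _ => Algebra.IsIntegral.isIntegral x)
  have hF₀H : F₀.fixingSubgroup ≤ H := by
    intro σ hσ
    apply hS
    intro x hx
    exact (IntermediateField.mem_fixingSubgroup_iff _ _).mp hσ x
      (IntermediateField.subset_adjoin ℚ _ hx)
  have hHopen : IsOpen (H : Set (AlgebraicClosure ℚ ≃ₐ[ℚ] AlgebraicClosure ℚ)) :=
    Subgroup.isOpen_mono hF₀H (IntermediateField.fixingSubgroup_isOpen F₀)
  have hHclosed : IsClosed (H : Set (AlgebraicClosure ℚ ≃ₐ[ℚ] AlgebraicClosure ℚ)) :=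
    Subgroup.isClosed_of_isOpen H hHopen
  -- Step 2: the fixed field.
  let L : IntermediateField ℚ (AlgebraicClosure ℚ) := IntermediateField.fixedField H
  have hLH : L.fixingSubgroup = H := InfiniteGalois.fixingSubgroup_fixedField ⟨H, hHclosed⟩
  have hLfin : FiniteDimensional ℚ L :=
    (InfiniteGalois.isOpen_iff_finite L).mp (by rw [hLH]; exact hHopen)
  have hLgal : IsGalois ℚ L :=
    (InfiniteGalois.normal_iff_isGalois L).mp (by rw [hLH]; exact hHn)
  have : NumberField L := ⟨⟩
  by_contra hne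
  have hrank : 1 < Module.finrank ℚ L := by
    have hpos : 0 < Module.finrank ℚ L := Module.finrank_pos
    have hne1 : Module.finrank ℚ L ≠ 1 := by
      intro h1
      have hbot : L = ⊥ := IntermediateField.finrank_eq_one_iff.mp h1
      apply hne
      rw [← hLH, hbot]
      exact IntermediateField.fixingSubgroup_bot
    omega
  obtain ⟨p, hp, hram⟩ :=
    NumberField.exists_not_isUnramifiedAt_int_of_isGalois (K := L) (𝒪 := 𝓞 L) hrank
  obtain ⟨A, hA, hAH⟩ := hinert p hp
  have := primeBelow_isPrime L A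
  have hmem : (p : 𝓞 L) ∈ primeBelow L A := natCast_mem_primeBelow L A p hA
  apply hram (primeBelow L A) inferInstance hmem
  have hI : (primeBelow L A).inertia (L ≃ₐ[ℚ] L) = ⊥ :=
    inertia_primeBelow_eq_bot L hlift p hp A hA (by
      intro σ hσ x hx
      have hσL : σ ∈ L.fixingSubgroup := by rw [hLH]; exact hAH hσ
      exact (IntermediateField.mem_fixingSubgroup_iff _ _).mp hσL x hx)
  rw [← Ideal.ramificationIdx_eq_one_iff,
    ← Ideal.ramificationIdxIn_eq_ramificationIdx ((primeBelow L A).under ℤ) _ (L ≃ₐ[ℚ] L),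
    ← Ideal.card_inertia_eq_ramificationIdxIn (G := L ≃ₐ[ℚ] L) ((primeBelow L A).under ℤ)
      (primeBelow L A), hI]
  simp

end Fermat.Agent.Lib.Minkowski

end
-- ==== END Fermat.Agent.Lib.MinkowskiCore

-- ==== BEGIN Fermat.Agent.R.Flat.H54_Descent
section

/-!
# Flat closure (cluster R, helper54): the descent lemma

Abstract setting: `R` a commutative ring, `K` a field which is an `R`-algebra, `G` a group
acting on `K` by ring automorphisms fixing the image of `R`, such that every `G`-fixed element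
of `K` is a fraction of elements of `R`.

* `descent_inj` : if `Q` is a free `R`-module with finite basis `b` and `F` is a `G`-stable,
  point-separating set of `R`-linear maps `Q → K`, then the `K`-linear extension
  `K ⊗ Q → (F → K)` is injective: `(∀ f ∈ F, ∑ i, c i * f (b i) = 0) → c = 0`.
* `tensor_sep` : the family `{f ⊗ f'}` separates the points of `Q ⊗[R] Q'`.
-/

set_option autoImplicit false

open scoped TensorProduct

namespace Fermat.Agent.R.H54

section Descent

variable {R K G : Type*} [CommRing R] [Field K] [Algebra R K] [Group G] [MulSemiringAction G K]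

/-- The hypotheses on `(R, K, G)` used throughout: `R → K` is injective, `G` fixes `R`, and the
fixed points of `G` are fractions of elements of `R`. -/
structure DescentData (R K G : Type*) [CommRing R] [Field K] [Algebra R K] [Group G]
    [MulSemiringAction G K] : Prop where
  inj : Function.Injective (algebraMap R K)
  fixR : ∀ (σ : G) (r : R), σ • algebraMap R K r = algebraMap R K r
  fixed : ∀ x : K, (∀ σ : G, σ • x = x) →
    ∃ a d : R, d ≠ 0 ∧ algebraMap R K d * x = algebraMap R K a

variable {ι : Type*} [Fintype ι] {Q : Type*} [AddCommGroup Q] [Module R Q]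

/-- A set of `R`-linear maps to `K` is `G`-stable. -/
def GStable (G : Type*) [Group G] [MulSemiringAction G K] (F : Set (Q →ₗ[R] K)) : Prop :=
  ∀ σ : G, ∀ f ∈ F, ∃ f' ∈ F, ∀ q, f' q = σ • f q

/-- A set of `R`-linear maps to `K` separates the points of `Q`. -/
def Separating (F : Set (Q →ₗ[R] K)) : Prop :=
  ∀ q : Q, (∀ f ∈ F, f q = 0) → q = 0

open scoped Classical in
private lemma descent_aux (hD : DescentData R K G) (b : Module.Basis ι R Q) (F : Set (Q →ₗ[R] K))
    (hstab : GStable G F) (hsep : Separating F) :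
    ∀ (n : ℕ) (c : ι → K), (Finset.univ.filter fun i => c i ≠ 0).card ≤ n →
      (∀ f ∈ F, ∑ i, c i * f (b i) = 0) → c = 0 := by
  intro n
  induction n with
  | zero =>
    intro c hc _
    funext i
    show c i = 0
    by_contra hi
    have : i ∈ Finset.univ.filter fun i => c i ≠ 0 := by simp [hi]
    have h0 : (Finset.univ.filter fun i => c i ≠ 0) = ∅ := Finset.card_eq_zero.mp (Nat.le_zero.mp hc)
    rw [h0] at this
    exact absurd this (Finset.notMem_empty _)
  | succ n ih =>
    intro c hc hrel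
    by_contra hne
    obtain ⟨i₀, hi₀⟩ : ∃ i, c i ≠ 0 := by
      by_contra h
      exact hne (funext fun i => by_contra fun hi => h ⟨i, hi⟩)
    -- normalise
    set μ : ι → K := fun i => c i / c i₀ with hμ
    have hμ0 : μ i₀ = 1 := by simp [hμ, hi₀]
    have hμrel : ∀ f ∈ F, ∑ i, μ i * f (b i) = 0 := by
      intro f hf
      have := hrel f hf
      have h2 : ∑ i, μ i * f (b i) = (∑ i, c i * f (b i)) / c i₀ := by
        rw [Finset.sum_div]
        refine Finset.sum_congr rfl fun i _ => ?_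
        simp only [hμ]; ring
      rw [h2, this, zero_div]
    have hsupp : ∀ i, μ i ≠ 0 → c i ≠ 0 := by
      intro i hi hci
      apply hi
      simp [hμ, hci]
    -- all coordinates of μ are fixed by G
    have hfix : ∀ (σ : G) (i : ι), σ • μ i = μ i := by
      intro σ
      set ν : ι → K := fun i => σ • μ i - μ i with hν
      have hνcard : (Finset.univ.filter fun i => ν i ≠ 0).card ≤ n := by
        have hsub : (Finset.univ.filter fun i => ν i ≠ 0) ⊆
            (Finset.univ.filter fun i => c i ≠ 0).erase i₀ := by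
          intro i hi
          simp only [Finset.mem_filter, Finset.mem_univ, true_and] at hi
          simp only [Finset.mem_erase, Finset.mem_filter, Finset.mem_univ, true_and]
          refine ⟨?_, ?_⟩
          · rintro rfl
            apply hi
            simp [hν, hμ0]
          · apply hsupp
            intro h0
            apply hi
            simp [hν, h0]
        have h1 : ((Finset.univ.filter fun i => c i ≠ 0).erase i₀).card + 1 =
            (Finset.univ.filter fun i => c i ≠ 0).card :=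
          Finset.card_erase_add_one (by simp [hi₀])
        have h2 := Finset.card_le_card hsub
        omega
      have hνrel : ∀ f ∈ F, ∑ i, ν i * f (b i) = 0 := by
        intro f hf
        obtain ⟨f', hf', hff'⟩ := hstab σ⁻¹ f hf
        have h1 : ∀ q, f q = σ • f' q := by
          intro q
          rw [hff' q, smul_inv_smul]
        have h2 : ∑ i, (σ • μ i) * f (b i) = σ • ∑ i, μ i * f' (b i) := by
          rw [Finset.smul_sum]
          refine Finset.sum_congr rfl fun i _ => ?_
          rw [smul_mul', h1]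
        have h3 : ∑ i, ν i * f (b i) = ∑ i, (σ • μ i) * f (b i) - ∑ i, μ i * f (b i) := by
          rw [← Finset.sum_sub_distrib]
          refine Finset.sum_congr rfl fun i _ => ?_
          simp only [hν]; ring
        rw [h3, h2, hμrel f' hf', hμrel f hf, smul_zero, sub_zero]
      have := ih ν hνcard hνrel
      intro i
      have hi := congrFun this i
      simp only [hν, Pi.zero_apply] at hi
      exact sub_eq_zero.mp hi
    -- so the coordinates are fractions
    have hfrac : ∀ i, ∃ a d : R, d ≠ 0 ∧ algebraMap R K d * μ i = algebraMap R K a :=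
      fun i => hD.fixed (μ i) (fun σ => hfix σ i)
    choose a d hd had using hfrac
    set D : R := ∏ i, d i with hDdef
    have hD0 : algebraMap R K D ≠ 0 := by
      rw [hDdef, map_prod]
      refine Finset.prod_ne_zero_iff.mpr fun i _ => ?_
      intro h
      exact hd i (hD.inj (by rw [h, map_zero]))
    -- r i := D * μ i as an element of R
    set r : ι → R := fun i => (∏ j ∈ Finset.univ.erase i, d j) * a i with hr
    have hri : ∀ i, algebraMap R K (r i) = algebraMap R K D * μ i := by
      intro i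
      have : D = (∏ j ∈ Finset.univ.erase i, d j) * d i := by
        rw [hDdef, Finset.prod_erase_mul _ _ (Finset.mem_univ i)]
      rw [hr]
      simp only [map_mul]
      rw [← had i, this, map_mul]
      ring
    have hz : (∑ i, r i • b i) = 0 := by
      apply hsep
      intro f hf
      rw [map_sum]
      have : ∀ i, f (r i • b i) = algebraMap R K D * (μ i * f (b i)) := by
        intro i
        rw [map_smul, Algebra.smul_def, hri]
        ring
      simp only [this]
      rw [← Finset.mul_sum, hμrel f hf, mul_zero]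
    have hr0 : ∀ i, r i = 0 := by
      intro i
      have := congrArg (fun q => b.repr q i) hz
      simp only [map_sum, map_smul, Module.Basis.repr_self, map_zero, Finsupp.coe_zero,
        Pi.zero_apply] at this
      simpa [Finsupp.single_apply, Finset.sum_ite_eq'] using this
    have : algebraMap R K D * μ i₀ = 0 := by rw [← hri, hr0, map_zero]
    rw [hμ0, mul_one] at this
    exact hD0 this

/-- **Descent lemma.** A `G`-stable separating family of `R`-linear maps `Q → K` on a finite free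
`R`-module stays separating after extending scalars to `K`. -/
theorem descent_inj (hD : DescentData R K G) (b : Module.Basis ι R Q) (F : Set (Q →ₗ[R] K))
    (hstab : GStable G F) (hsep : Separating F) (c : ι → K)
    (hc : ∀ f ∈ F, ∑ i, c i * f (b i) = 0) : c = 0 :=
  descent_aux hD b F hstab hsep _ c le_rfl hc

/-- The family `{f ⊗ f'}` separates the points of `Q ⊗[R] Q'` (only `F` needs to be `G`-stable). -/
theorem tensor_sep (hD : DescentData R K G) {ι' : Type*} [Fintype ι'] {Q' : Type*}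
    [AddCommGroup Q'] [Module R Q'] (b : Module.Basis ι R Q) (b' : Module.Basis ι' R Q')
    (F : Set (Q →ₗ[R] K)) (F' : Set (Q' →ₗ[R] K))
    (hstab : GStable G F) (hsep : Separating F) (hsep' : Separating F')
    (t : Q ⊗[R] Q')
    (ht : ∀ f ∈ F, ∀ f' ∈ F', LinearMap.mul' R K (TensorProduct.map f f' t) = 0) : t = 0 := by
  classical
  set B := b.tensorProduct b' with hB
  set c := B.repr t with hc
  have hsum : t = ∑ i, ∑ j, c (i, j) • (b i ⊗ₜ[R] b' j) := by
    conv_lhs => rw [← B.sum_repr t]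
    rw [Fintype.sum_prod_type]
    refine Finset.sum_congr rfl fun i _ => Finset.sum_congr rfl fun j _ => ?_
    rw [hB, Module.Basis.tensorProduct_apply]
  have hval : ∀ (f : Q →ₗ[R] K) (f' : Q' →ₗ[R] K),
      LinearMap.mul' R K (TensorProduct.map f f' t) =
        ∑ i, (∑ j, algebraMap R K (c (i, j)) * f' (b' j)) * f (b i) := by
    intro f f'
    rw [hsum]
    simp only [map_sum, map_smul, TensorProduct.map_tmul, LinearMap.mul'_apply]
    refine Finset.sum_congr rfl fun i _ => ?_
    rw [Finset.sum_mul]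
    refine Finset.sum_congr rfl fun j _ => ?_
    rw [Algebra.smul_def]
    ring
  have hzero : ∀ f' ∈ F', ∀ i, (∑ j, algebraMap R K (c (i, j)) * f' (b' j)) = 0 := by
    intro f' hf'
    have := descent_inj hD b F hstab hsep
      (fun i => ∑ j, algebraMap R K (c (i, j)) * f' (b' j))
      (fun f hf => by rw [← hval f f']; exact ht f hf f' hf')
    intro i
    exact congrFun this i
  have hc0 : ∀ i j, c (i, j) = 0 := by
    intro i
    have hz : (∑ j, c (i, j) • b' j) = 0 := by
      apply hsep'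
      intro f' hf'
      rw [map_sum, ← hzero f' hf' i]
      refine Finset.sum_congr rfl fun j _ => ?_
      rw [map_smul, Algebra.smul_def]
    intro j
    have := congrArg (fun q => b'.repr q j) hz
    simp only [map_sum, map_smul, Module.Basis.repr_self, map_zero, Finsupp.coe_zero,
      Pi.zero_apply] at this
    simpa [Finsupp.single_apply, Finset.sum_ite_eq'] using this
  rw [hsum]
  simp [hc0]

end Descent

end Fermat.Agent.R.H54

end
-- ==== END Fermat.Agent.R.Flat.H54_Descent

-- ==== BEGIN Fermat.Agent.R.Flat.H54_SubHopf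
section

/-!
# Flat closure (cluster R, helper54): sub-Hopf algebras

Let `H` be a commutative Hopf algebra over `R` and `j : A →ₐ[R] H` an injective homomorphism of
commutative `R`-algebras such that `j ⊗ j` and `j ⊗ (j ⊗ j)` are injective, the
comultiplication of `H` maps `j A` into `(j ⊗ j) (A ⊗ A)` and the antipode maps `j A` into
`j A`.  Then `A` carries a unique Hopf algebra structure for which `j` is compatible with
comultiplication, counit and antipode (`SubHopfData.hopfAlgebra`).
-/

set_option autoImplicit false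
set_option linter.unusedSectionVars false
set_option linter.style.haveILetI false

open scoped TensorProduct
open TensorProduct

namespace Fermat.Agent.R.H54

section SubHopf

variable {R H A : Type} [CommRing R] [CommRing H] [HopfAlgebra R H] [CommRing A] [Algebra R A]

/-- The hypotheses making `A` a sub-Hopf algebra of `H` via `j`. -/
structure SubHopfData (j : A →ₐ[R] H) : Prop where
  inj : Function.Injective j
  inj2 : Function.Injective (TensorProduct.map j.toLinearMap j.toLinearMap)
  inj3 : Function.Injective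
    (TensorProduct.map j.toLinearMap (TensorProduct.map j.toLinearMap j.toLinearMap))
  comul_mem : ∀ a : A, Coalgebra.comul (R := R) (j a) ∈
    LinearMap.range (TensorProduct.map j.toLinearMap j.toLinearMap)
  antipode_mem : ∀ a : A, HopfAlgebra.antipode R (j a) ∈ LinearMap.range j.toLinearMap

namespace SubHopfData

variable {j : A →ₐ[R] H} (d : SubHopfData j)

/-- The comultiplication of `A`. -/
noncomputable def comulA : A →ₗ[R] A ⊗[R] A :=
  (LinearEquiv.ofInjective (TensorProduct.map j.toLinearMap j.toLinearMap) d.inj2).symm.toLinearMap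
    ∘ₗ LinearMap.codRestrict _ (Coalgebra.comul ∘ₗ j.toLinearMap) d.comul_mem

lemma map_comulA (a : A) :
    TensorProduct.map j.toLinearMap j.toLinearMap (d.comulA a) = Coalgebra.comul (R := R) (j a) := by
  simp only [comulA, LinearMap.coe_comp, LinearEquiv.coe_coe, Function.comp_apply]
  rw [LinearEquiv.ofInjective_symm_apply]
  rfl

/-- The antipode of `A`. -/
noncomputable def antipodeA : A →ₗ[R] A :=
  (LinearEquiv.ofInjective j.toLinearMap d.inj).symm.toLinearMap
    ∘ₗ LinearMap.codRestrict _ (HopfAlgebra.antipode R ∘ₗ j.toLinearMap) d.antipode_mem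

lemma j_antipodeA (a : A) : j (d.antipodeA a) = HopfAlgebra.antipode R (j a) := by
  simp only [antipodeA, LinearMap.coe_comp, LinearEquiv.coe_coe, Function.comp_apply]
  have := LinearEquiv.ofInjective_symm_apply (f := j.toLinearMap) (h := d.inj)
    (LinearMap.codRestrict _ (HopfAlgebra.antipode R ∘ₗ j.toLinearMap) d.antipode_mem a)
  exact this

/-- The counit of `A`. -/
noncomputable def counitA (j : A →ₐ[R] H) : A →ₗ[R] R := Coalgebra.counit ∘ₗ j.toLinearMap

/-- The coalgebra structure (data) on `A`. -/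
@[reducible] noncomputable def coalgebraStruct : CoalgebraStruct R A where
  comul := d.comulA
  counit := counitA j

/-- The coalgebra structure on `A`. -/
@[reducible] noncomputable def coalgebra : Coalgebra R A :=
  { d.coalgebraStruct with
    coassoc := by
      apply LinearMap.ext
      intro a
      apply d.inj3
      show TensorProduct.map j.toLinearMap (TensorProduct.map j.toLinearMap j.toLinearMap)
          (TensorProduct.assoc R A A A ((d.comulA).rTensor A (d.comulA a))) =
        TensorProduct.map j.toLinearMap (TensorProduct.map j.toLinearMap j.toLinearMap)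
          ((d.comulA).lTensor A (d.comulA a))
      have h1 : ∀ t : A ⊗[R] A,
          TensorProduct.map j.toLinearMap (TensorProduct.map j.toLinearMap j.toLinearMap)
            (TensorProduct.assoc R A A A ((d.comulA).rTensor A t)) =
          TensorProduct.assoc R H H H ((Coalgebra.comul (R := R) (A := H)).rTensor H
            (TensorProduct.map j.toLinearMap j.toLinearMap t)) := by
        intro t
        rw [TensorProduct.map_map_assoc]
        congr 1
        induction t using TensorProduct.induction_on with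
        | zero => simp
        | tmul x y =>
          simp only [LinearMap.rTensor_tmul, TensorProduct.map_tmul, d.map_comulA]
          rfl
        | add x y hx hy => simp only [map_add, hx, hy]
      have h2 : ∀ t : A ⊗[R] A,
          TensorProduct.map j.toLinearMap (TensorProduct.map j.toLinearMap j.toLinearMap)
            ((d.comulA).lTensor A t) =
          (Coalgebra.comul (R := R) (A := H)).lTensor H
            (TensorProduct.map j.toLinearMap j.toLinearMap t) := by
        intro t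
        induction t using TensorProduct.induction_on with
        | zero => simp
        | tmul x y =>
          simp only [LinearMap.lTensor_tmul, TensorProduct.map_tmul, d.map_comulA]
          rfl
        | add x y hx hy => simp only [map_add, hx, hy]
      rw [h1, h2, d.map_comulA]
      exact LinearMap.congr_fun (Coalgebra.coassoc (R := R) (A := H)) (j a)
    rTensor_counit_comp_comul := by
      apply LinearMap.ext
      intro a
      have hinj : Function.Injective (LinearMap.lTensor R j.toLinearMap) :=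
        Module.Flat.lTensor_preserves_injective_linearMap _ d.inj
      apply hinj
      show LinearMap.lTensor R j.toLinearMap ((counitA j).rTensor A (d.comulA a)) =
        LinearMap.lTensor R j.toLinearMap ((1 : R) ⊗ₜ[R] a)
      have h1 : ∀ t : A ⊗[R] A, LinearMap.lTensor R j.toLinearMap ((counitA j).rTensor A t) =
          (Coalgebra.counit (R := R) (A := H)).rTensor H
            (TensorProduct.map j.toLinearMap j.toLinearMap t) := by
        intro t
        induction t using TensorProduct.induction_on with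
        | zero => simp
        | tmul x y => rfl
        | add x y hx hy => simp only [map_add, hx, hy]
      rw [h1, d.map_comulA]
      exact LinearMap.congr_fun (Coalgebra.rTensor_counit_comp_comul (R := R) (A := H)) (j a)
    lTensor_counit_comp_comul := by
      apply LinearMap.ext
      intro a
      have hinj : Function.Injective (LinearMap.rTensor R j.toLinearMap) :=
        Module.Flat.rTensor_preserves_injective_linearMap _ d.inj
      apply hinj
      show LinearMap.rTensor R j.toLinearMap ((counitA j).lTensor A (d.comulA a)) =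
        LinearMap.rTensor R j.toLinearMap (a ⊗ₜ[R] (1 : R))
      have h1 : ∀ t : A ⊗[R] A, LinearMap.rTensor R j.toLinearMap ((counitA j).lTensor A t) =
          (Coalgebra.counit (R := R) (A := H)).lTensor H
            (TensorProduct.map j.toLinearMap j.toLinearMap t) := by
        intro t
        induction t using TensorProduct.induction_on with
        | zero => simp
        | tmul x y => rfl
        | add x y hx hy => simp only [map_add, hx, hy]
      rw [h1, d.map_comulA]
      exact LinearMap.congr_fun (Coalgebra.lTensor_counit_comp_comul (R := R) (A := H)) (j a) }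

lemma map_one' : TensorProduct.map j.toLinearMap j.toLinearMap (1 : A ⊗[R] A) = 1 := by
  rw [Algebra.TensorProduct.one_def, TensorProduct.map_tmul]
  simp [Algebra.TensorProduct.one_def]

lemma map_mul' (s t : A ⊗[R] A) :
    TensorProduct.map j.toLinearMap j.toLinearMap (s * t) =
      TensorProduct.map j.toLinearMap j.toLinearMap s *
        TensorProduct.map j.toLinearMap j.toLinearMap t :=
  map_mul (Algebra.TensorProduct.map j j) s t

/-- The bialgebra structure on `A`. -/
@[reducible] noncomputable def bialgebra : Bialgebra R A :=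
  letI := d.coalgebra
  Bialgebra.mk' R A
    (by
      show Coalgebra.counit (R := R) (j 1) = 1
      rw [map_one, Bialgebra.counit_one])
    (by
      intro a b
      show Coalgebra.counit (R := R) (j (a * b)) =
        Coalgebra.counit (R := R) (j a) * Coalgebra.counit (R := R) (j b)
      rw [map_mul, Bialgebra.counit_mul])
    (by
      apply d.inj2
      show TensorProduct.map j.toLinearMap j.toLinearMap (d.comulA 1) = _
      rw [d.map_comulA, map_one, Bialgebra.comul_one, map_one'])
    (by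
      intro a b
      apply d.inj2
      show TensorProduct.map j.toLinearMap j.toLinearMap (d.comulA (a * b)) =
        TensorProduct.map j.toLinearMap j.toLinearMap (d.comulA a * d.comulA b)
      rw [d.map_comulA, map_mul, Bialgebra.comul_mul, map_mul', d.map_comulA, d.map_comulA])

/-- The Hopf algebra structure on `A`. -/
@[reducible] noncomputable def hopfAlgebra : HopfAlgebra R A :=
  { d.bialgebra with
    antipode := d.antipodeA
    mul_antipode_rTensor_comul := by
      apply LinearMap.ext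
      intro a
      apply d.inj
      show j (LinearMap.mul' R A ((d.antipodeA).rTensor A (d.comulA a))) =
        j (algebraMap R A (Coalgebra.counit (R := R) (j a)))
      have h1 : ∀ t : A ⊗[R] A, j (LinearMap.mul' R A ((d.antipodeA).rTensor A t)) =
          LinearMap.mul' R H ((HopfAlgebra.antipode R).rTensor H
            (TensorProduct.map j.toLinearMap j.toLinearMap t)) := by
        intro t
        induction t using TensorProduct.induction_on with
        | zero => simp
        | tmul x y =>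
          simp only [LinearMap.rTensor_tmul, LinearMap.mul'_apply, TensorProduct.map_tmul,
            map_mul, d.j_antipodeA]
          rfl
        | add x y hx hy => simp only [map_add, hx, hy]
      rw [h1, d.map_comulA, HopfAlgebra.mul_antipode_rTensor_comul_apply, j.commutes]
    mul_antipode_lTensor_comul := by
      apply LinearMap.ext
      intro a
      apply d.inj
      show j (LinearMap.mul' R A ((d.antipodeA).lTensor A (d.comulA a))) =
        j (algebraMap R A (Coalgebra.counit (R := R) (j a)))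
      have h1 : ∀ t : A ⊗[R] A, j (LinearMap.mul' R A ((d.antipodeA).lTensor A t)) =
          LinearMap.mul' R H ((HopfAlgebra.antipode R).lTensor H
            (TensorProduct.map j.toLinearMap j.toLinearMap t)) := by
        intro t
        induction t using TensorProduct.induction_on with
        | zero => simp
        | tmul x y =>
          simp only [LinearMap.lTensor_tmul, LinearMap.mul'_apply, TensorProduct.map_tmul,
            map_mul, d.j_antipodeA]
          rfl
        | add x y hx hy => simp only [map_add, hx, hy]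
      rw [h1, d.map_comulA, HopfAlgebra.mul_antipode_lTensor_comul_apply, j.commutes] }

/-- Cocommutativity passes to `A`. -/
lemma isCocomm [Coalgebra.IsCocomm R H] :
    letI := d.hopfAlgebra
    Coalgebra.IsCocomm R A := by
  letI := d.hopfAlgebra
  refine ⟨?_⟩
  apply LinearMap.ext
  intro a
  apply d.inj2
  show TensorProduct.map j.toLinearMap j.toLinearMap
      (TensorProduct.comm R A A (d.comulA a)) =
    TensorProduct.map j.toLinearMap j.toLinearMap (d.comulA a)
  have h1 : ∀ t : A ⊗[R] A, TensorProduct.map j.toLinearMap j.toLinearMap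
      (TensorProduct.comm R A A t) =
      TensorProduct.comm R H H (TensorProduct.map j.toLinearMap j.toLinearMap t) := by
    intro t
    induction t using TensorProduct.induction_on with
    | zero => simp
    | tmul x y => simp
    | add x y hx hy => simp only [map_add, hx, hy]
  rw [h1, d.map_comulA]
  exact LinearMap.congr_fun (Coalgebra.comm_comp_comul R H) (j a)

end SubHopfData

end SubHopf

end Fermat.Agent.R.H54

end
-- ==== END Fermat.Agent.R.Flat.H54_SubHopf

-- ==== BEGIN Fermat.Agent.R.H86_Defs3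
section

/-!
# Cluster R: further interfaces for the S32 wiring (helper86)

* `TPoint T`      : a local homomorphism from `T` to a complete discrete valuation ring of
  characteristic `0` with finite residue field.
* `Stmt_SepTc`    : finitely many points of the local Hecke algebra `T` of a datum separate `T`
  `p`-adically, with a uniform loss `c` (the analogue of `Stmt_Sep` for `T`).
* `Stmt_FlatPi`   : `IsFlatGaloisModule` is closed under finite products.
-/

set_option autoImplicit false

open Polynomial IsLocalRing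

namespace Fermat.Agent.R

/-- A point of `T`: a local homomorphism to a complete discrete valuation ring of
characteristic `0` with finite residue field. -/
structure TPoint (T : Type) [CommRing T] [IsLocalRing T] : Type 1 where
  /-- the coefficient ring -/
  O : Type
  [instCommRing : CommRing O]
  [instIsDomain : IsDomain O]
  [instDVR : IsDiscreteValuationRing O]
  [instComplete : IsAdicComplete (IsLocalRing.maximalIdeal O) O]
  [instFiniteResidue : Finite (IsLocalRing.ResidueField O)]
  [instCharZero : CharZero O]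
  /-- the homomorphism -/
  ψ : T →+* O
  isLocalHom : IsLocalHom ψ

attribute [instance] TPoint.instCommRing TPoint.instIsDomain TPoint.instDVR
  TPoint.instComplete TPoint.instFiniteResidue TPoint.instCharZero

/-- **`p`-adic separation of `T` by finitely many points, with uniform loss.** -/
def Stmt_SepTc : Prop :=
  ∀ (N : ℕ) [NeZero N] (S : Finset ℕ)
    (𝒪 : Type) [CommRing 𝒪] [IsDomain 𝒪] [IsDiscreteValuationRing 𝒪]
    [IsAdicComplete (maximalIdeal 𝒪) 𝒪] [Finite (ResidueField 𝒪)] [CharZero 𝒪]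
    (θ : CuspForm.heckeAlgebra N 2 (↑S : Set ℕ) →+* ResidueField 𝒪)
    (T : Type) [CommRing T] [IsLocalRing T] [IsNoetherianRing T]
    [IsAdicComplete (maximalIdeal T) T] [Algebra 𝒪 T] [IsLocalHom (algebraMap 𝒪 T)]
    [Module.Finite 𝒪 T] [Module.Free 𝒪 T],
    (∀ q : ℕ, q.Prime → q ∣ N → q ∈ S) →
    ∀ (_H : CuspForm.HeckeGaloisRepDatum N (↑S : Set ℕ) 𝒪 θ T) (p : ℕ), p.Prime →
      (p : 𝒪) ∈ maximalIdeal 𝒪 →
      ∃ (r : ℕ) (P : Fin r → TPoint T) (c : ℕ),
        ∀ (n : ℕ) (t : T), (∀ i, (P i).ψ t ∈ Ideal.span {((p : (P i).O)) ^ (n + c)}) →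
          t ∈ Ideal.span {((p : T)) ^ n}

/-- Flatness passes to finite products. -/
def Stmt_FlatPi : Prop :=
  ∀ (p : ℕ), p.Prime →
    ∀ (r : ℕ) (M : Fin r → Type) [∀ i, AddCommGroup (M i)]
      (act : ∀ i, (AlgebraicClosure ℚ ≃ₐ[ℚ] AlgebraicClosure ℚ) → M i → M i),
      (∀ i, IsFlatGaloisModule p (M i) (act i)) →
      IsFlatGaloisModule p (∀ i, M i) (fun σ x i => act i σ (x i))

end Fermat.Agent.R

end
-- ==== END Fermat.Agent.R.H86_Defs3

-- ==== BEGIN Fermat.Agent.S14.H62_Herbrand
section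

/-!
# S14 / WP A1 (helper62): Herbrand indices and their invariance under finite-index subgroups

For an additive commutative group `A` with two endomorphisms `f g` such that `f ∘ g = 0 = g ∘ f`
(e.g. `f = σ - 1`, `g = 1 + σ + ... + σ^(p-1)` for an automorphism `σ` of order `p`), and a
subgroup `S` stable under `f` and `g`, we put `hIdx f g S := [ker f ∩ S : g S]`.
The Herbrand quotient of `S` is `hIdx f g S / hIdx g f S`.  We prove, without the hexagon lemma,
that the Herbrand quotient of a finite-index stable subgroup `S` is that of `A` (`= ⊤`):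
`hIdx f g ⊤ * hIdx g f S = hIdx f g S * hIdx g f ⊤`.
-/

namespace Fermat.Agent.S14.H62

variable {A : Type*} [AddCommGroup A]

/-- The index `[ker f ∩ S : g S]` (0 if infinite). -/
noncomputable def hIdx (f g : A →+ A) (S : AddSubgroup A) : ℕ :=
  (S.map g).relIndex (f.ker ⊓ S)

theorem hIdx_top (f g : A →+ A) : hIdx f g ⊤ = g.range.relIndex f.ker := by
  rw [hIdx, inf_top_eq, AddMonoidHom.range_eq_map]

/-- index lemma: `[A : S] = [f A : f S] * [ker f : ker f ∩ S]`. -/
theorem index_eq_relIndex_map_mul (f : A →+ A) (S : AddSubgroup A) :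
    S.index = (S.map f).relIndex f.range * S.relIndex f.ker := by
  have h1 : (S.map f).relIndex f.range = (S ⊔ f.ker).index := by
    have := AddSubgroup.relIndex_map_map f S ⊤
    rw [← AddMonoidHom.range_eq_map] at this
    rw [this, top_sup_eq, AddSubgroup.relIndex_top_right]
  have h2 : S.relIndex f.ker = S.relIndex (S ⊔ f.ker) := by
    rw [AddSubgroup.relIndex_sup_left]
  rw [h1, h2, mul_comm]
  exact (AddSubgroup.relIndex_mul_index (le_sup_left : S ≤ S ⊔ f.ker)).symm

/-- One half of the comparison: `[gA : gS] * [ker f : gA] = [ker f ∩ S : gS] * [ker f : ker f ∩ S]`. -/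
theorem hIdx_chain (f g : A →+ A) (hfg : ∀ x, f (g x) = 0) (S : AddSubgroup A)
    (hgS : S.map g ≤ S) :
    (S.map g).relIndex g.range * hIdx f g ⊤ = hIdx f g S * S.relIndex f.ker := by
  have hle1 : S.map g ≤ g.range := AddSubgroup.map_le_range g S
  have hle2 : g.range ≤ f.ker := by
    rintro _ ⟨x, rfl⟩
    exact hfg x
  have hle3 : S.map g ≤ f.ker ⊓ S := le_inf (hle1.trans hle2) hgS
  have hle4 : f.ker ⊓ S ≤ f.ker := inf_le_left
  rw [hIdx_top, hIdx, AddSubgroup.relIndex_mul_relIndex _ _ _ hle1 hle2,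
    ← AddSubgroup.inf_relIndex_right S f.ker, inf_comm S f.ker,
    AddSubgroup.relIndex_mul_relIndex _ _ _ hle3 hle4]

/-- **Finite-index invariance of the Herbrand quotient** (cross-multiplied form). -/
theorem hIdx_mul_eq_of_finiteIndex (f g : A →+ A) (hfg : ∀ x, f (g x) = 0)
    (hgf : ∀ x, g (f x) = 0) (S : AddSubgroup A) (hfS : S.map f ≤ S) (hgS : S.map g ≤ S)
    (hS : S.index ≠ 0) :
    hIdx f g ⊤ * hIdx g f S = hIdx f g S * hIdx g f ⊤ := by
  have e1 := hIdx_chain f g hfg S hgS
  have e2 := hIdx_chain g f hgf S hfS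
  have i1 := index_eq_relIndex_map_mul f S
  have i2 := index_eq_relIndex_map_mul g S
  set α := (S.map f).relIndex f.range
  set β := S.relIndex f.ker
  set γ := (S.map g).relIndex g.range
  set δ := S.relIndex g.ker
  set n := S.index
  have hn : 0 < n := Nat.pos_of_ne_zero hS
  -- γ * h0 = h0' * β ,  α * h1 = h1' * δ ,  n = α β = γ δ
  have key : n * (hIdx f g ⊤ * hIdx g f S) = n * (hIdx f g S * hIdx g f ⊤) := by
    calc n * (hIdx f g ⊤ * hIdx g f S)
        = (γ * hIdx f g ⊤) * (hIdx g f S * δ) := by rw [i2]; ring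
      _ = (hIdx f g S * β) * (α * hIdx g f ⊤) := by rw [e1, e2]
      _ = n * (hIdx f g S * hIdx g f ⊤) := by rw [i1]; ring
  exact Nat.eq_of_mul_eq_mul_left hn key

/-- Finiteness transfers as well. -/
theorem hIdx_ne_zero_iff_of_finiteIndex (f g : A →+ A) (hfg : ∀ x, f (g x) = 0)
    (S : AddSubgroup A) (hgS : S.map g ≤ S) (hS : S.index ≠ 0) :
    hIdx f g ⊤ ≠ 0 ↔ hIdx f g S ≠ 0 := by
  have e1 := hIdx_chain f g hfg S hgS
  have i1 := index_eq_relIndex_map_mul f S
  have i2 := index_eq_relIndex_map_mul g S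
  have hβ : S.relIndex f.ker ≠ 0 := fun h => hS (by rw [i1, h, mul_zero])
  have hγ : (S.map g).relIndex g.range ≠ 0 := fun h => hS (by rw [i2, h, zero_mul])
  constructor
  · intro h h0
    rw [h0, zero_mul] at e1
    exact (mul_ne_zero hγ h) e1
  · intro h h0
    rw [h0, mul_zero] at e1
    exact (mul_ne_zero h hβ) e1.symm

end Fermat.Agent.S14.H62

end
-- ==== END Fermat.Agent.S14.H62_Herbrand

-- ==== BEGIN Fermat.Agent.S14.H62_RankCount
section

/-!
# S14 / WP A2 (helper62), abstract part: counting quotients of free `ℤ`-modules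

* `card_quot_range_eq_natAbs_det`: `|M / φ M| = |det φ|` for injective `φ` on a free finite `ℤ`-module.
* `card_quot_smul`: `|B / pB| = p ^ rank B`.
* `core_cyclotomic`: if `∑ i < p, τ ^ i = 0` on a free finite `ℤ`-module `C` then
  `|C / (τ - 1) C| ^ (p - 1) = p ^ rank C * k` with `k ≠ 0`.
-/

namespace Fermat.Agent.S14.H62

open Module Polynomial

section DetIndex

variable {M : Type*} [AddCommGroup M] [Module.Free ℤ M] [Module.Finite ℤ M]

theorem card_quot_range_eq_natAbs_det (φ : M →ₗ[ℤ] M) (hφ : Function.Injective φ) :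
    Nat.card (M ⧸ LinearMap.range φ) = (LinearMap.det φ).natAbs := by
  have h := Submodule.natAbs_det_equiv (LinearMap.range φ) (LinearEquiv.ofInjective φ hφ)
  rw [← h]
  congr 2

theorem det_ne_zero_of_injective (φ : M →ₗ[ℤ] M) (hφ : Function.Injective φ) :
    LinearMap.det φ ≠ 0 := by
  intro h
  rw [LinearMap.det_eq_zero_iff_ker_ne_bot] at h
  exact h (LinearMap.ker_eq_bot.mpr hφ)

theorem card_quot_range_ne_zero (φ : M →ₗ[ℤ] M) (hφ : Function.Injective φ) :
    Nat.card (M ⧸ LinearMap.range φ) ≠ 0 := by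
  rw [card_quot_range_eq_natAbs_det φ hφ]
  exact Int.natAbs_ne_zero.mpr (det_ne_zero_of_injective φ hφ)

end DetIndex

end Fermat.Agent.S14.H62

namespace Fermat.Agent.S14.H62

open Module Polynomial

section Poly

/-- `(X - 1) ^ (p - 1) = Φ_p + p * w` in `ℤ[X]`. -/
theorem exists_X_sub_one_pow_eq (p : ℕ) [hp : Fact p.Prime] :
    ∃ w : ℤ[X], (X - 1 : ℤ[X]) ^ (p - 1) = cyclotomic p ℤ + C (p : ℤ) * w := by
  have h0 : Polynomial.map (Int.castRingHom (ZMod p)) ((X - 1 : ℤ[X]) ^ (p - 1) - cyclotomic p ℤ) = 0 := by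
    rw [Polynomial.map_sub, Polynomial.map_pow, Polynomial.map_sub, Polynomial.map_X,
      Polynomial.map_one, map_cyclotomic]
    have h1 := cyclotomic_mul_prime_eq_pow_of_not_dvd (ZMod p) (p := p) (n := 1)
      (by simpa using hp.out.one_lt.ne')
    rw [one_mul, cyclotomic_one] at h1
    rw [h1, sub_self]
  have h2 : C (p : ℤ) ∣ ((X - 1 : ℤ[X]) ^ (p - 1) - cyclotomic p ℤ) := by
    rw [Polynomial.C_dvd_iff_dvd_coeff]
    intro i
    have := congrArg (fun q => q.coeff i) h0
    simp only [Polynomial.coeff_map, Polynomial.coeff_zero] at this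
    exact (ZMod.intCast_zmod_eq_zero_iff_dvd _ p).mp this
  obtain ⟨w, hw⟩ := h2
  exact ⟨w, by rw [← hw]; ring⟩

end Poly

section Core

variable {C : Type*} [AddCommGroup C] [Module.Free ℤ C] [Module.Finite ℤ C]

theorem sub_one_injective_of_sum_pow_eq_zero (p : ℕ) (hp : p ≠ 0) (τ : C →ₗ[ℤ] C)
    (hτ : ∑ i ∈ Finset.range p, τ ^ i = 0) : Function.Injective (τ - 1 : C →ₗ[ℤ] C) := by
  rw [← LinearMap.ker_eq_bot, LinearMap.ker_eq_bot']
  intro x hx
  have hx' : τ x = x := by
    have : τ x - x = 0 := by simpa using hx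
    exact sub_eq_zero.mp this
  have hpow : ∀ i : ℕ, (τ ^ i) x = x := by
    intro i
    induction i with
    | zero => simp
    | succ i ih => rw [pow_succ, Module.End.mul_apply, hx', ih]
  have h1 : (∑ i ∈ Finset.range p, τ ^ i) x = (p : ℤ) • x := by
    rw [LinearMap.sum_apply]
    simp [hpow]
  rw [hτ, LinearMap.zero_apply] at h1
  have := (smul_eq_zero.mp h1.symm)
  rcases this with h | h
  · exact absurd (by exact_mod_cast h) hp
  · exact h

/-- **Core count**: if `1 + τ + ... + τ^(p-1) = 0` on a free `ℤ`-module `C` of finite rank, then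
`|C / (τ - 1) C| ^ (p - 1) = p ^ rank C * k` with `k ≠ 0`. -/
theorem core_cyclotomic (p : ℕ) [hp : Fact p.Prime] (τ : C →ₗ[ℤ] C)
    (hτ : ∑ i ∈ Finset.range p, τ ^ i = 0) :
    ∃ k : ℕ, k ≠ 0 ∧
      Nat.card (C ⧸ LinearMap.range (τ - 1)) ^ (p - 1) = p ^ finrank ℤ C * k := by
  have hinj := sub_one_injective_of_sum_pow_eq_zero p hp.out.ne_zero τ hτ
  obtain ⟨w, hw⟩ := exists_X_sub_one_pow_eq p
  have h1 := congrArg (Polynomial.aeval τ) hw
  simp only [map_pow, map_sub, aeval_X, map_one, map_add, map_mul, aeval_C] at h1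
  rw [cyclotomic_prime, map_sum] at h1
  simp only [map_pow, aeval_X] at h1
  rw [hτ, zero_add] at h1
  have h2 : (τ - 1) ^ (p - 1) = (p : ℤ) • (Polynomial.aeval τ w) := by
    rw [h1]
    simp [Algebra.algebraMap_eq_smul_one]
  have h3 := congrArg LinearMap.det h2
  rw [map_pow, LinearMap.det_smul] at h3
  have hdet := det_ne_zero_of_injective (τ - 1) hinj
  refine ⟨(LinearMap.det (Polynomial.aeval τ w)).natAbs, ?_, ?_⟩
  · intro h0
    rw [Int.natAbs_eq_zero] at h0
    rw [h0, mul_zero] at h3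
    exact hdet (pow_eq_zero_iff (Nat.sub_ne_zero_of_lt hp.out.one_lt) |>.mp h3)
  · rw [card_quot_range_eq_natAbs_det _ hinj, ← Int.natAbs_pow, h3, Int.natAbs_mul,
      Int.natAbs_pow, Int.natAbs_natCast]

theorem card_quot_smul (B : Type*) [AddCommGroup B] [Module.Free ℤ B] [Module.Finite ℤ B]
    (p : ℕ) (hp : p ≠ 0) :
    Nat.card (B ⧸ LinearMap.range ((p : ℤ) • (LinearMap.id : B →ₗ[ℤ] B))) = p ^ finrank ℤ B := by
  have hinj : Function.Injective ((p : ℤ) • (LinearMap.id : B →ₗ[ℤ] B)) := by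
    intro x y hxy
    simp only [LinearMap.smul_apply, LinearMap.id_coe, id_eq] at hxy
    exact smul_right_injective B (by exact_mod_cast hp : (p : ℤ) ≠ 0) hxy
  rw [card_quot_range_eq_natAbs_det _ hinj, LinearMap.det_smul, LinearMap.det_id, mul_one,
    Int.natAbs_pow, Int.natAbs_natCast]

end Core

end Fermat.Agent.S14.H62

end
-- ==== END Fermat.Agent.S14.H62_RankCount
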