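-- GENERATED (merged mirror, NOTES/tools/trim/merge3_helper67.py): 9 modules of the originals, bodies verbatim.
import Fermat.Statements.S53
import Mathlib
import Fermat.Prelude.Def_GaloisRep_DeformationRingData
import Fermat.Prelude.Def_GaloisRep_DeformationCondition
import Fermat.Prelude.Thm_IsLocalRing_isAdicComplete_of_module_finite

-- ==== BEGIN Fermat.Agent.S53.Defs
section

set_option autoImplicit false

/-!
# S53: basic definitions (matrix form of deformations)

Shared interface of the S53 development. Everything lives in `Fermat.Agent.S53`.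
-/

namespace Fermat.Agent.S53

open IsLocalRing

/-- The absolute Galois group of `ℚ`. -/
abbrev GQ : Type := AlgebraicClosure ℚ ≃ₐ[ℚ] AlgebraicClosure ℚ

/-- `2 × 2` matrices. -/
abbrev M2 (A : Type) : Type := Matrix (Fin 2) (Fin 2) A

section Adic

variable {A : Type} [CommRing A] [IsLocalRing A]

/-- `r` is the matrix of `ρ` in some basis of `ρ.V`. -/
def IsMatOf (ρ : GaloisRepAdic A) (r : GQ → M2 A) : Prop :=
  ∃ b : Module.Basis (Fin 2) A ρ.V, ∀ σ : GQ, LinearMap.toMatrix b b (ρ.ρ σ) = r σ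

/-- Adic continuity of a matrix valued map on `GQ`. -/
def MatCont (r : GQ → M2 A) : Prop :=
  ∀ n : ℕ, ∃ L : IntermediateField ℚ (AlgebraicClosure ℚ), FiniteDimensional ℚ L ∧
    ∀ σ : GQ, (∀ x ∈ L, σ x = x) → ∀ i j, (r σ - 1) i j ∈ maximalIdeal A ^ n

theorem mem_smul_top_of_forall_mem (I : Ideal A) (v : Fin 2 → A) (hv : ∀ i, v i ∈ I) :
    v ∈ I • (⊤ : Submodule A (Fin 2 → A)) := by
  have h : v = ∑ i : Fin 2, v i • (Pi.single i (1 : A) : Fin 2 → A) := by
    funext j
    simp [Finset.sum_apply, Pi.single_apply]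
  rw [h]
  exact Submodule.sum_mem _ fun i _ => Submodule.smul_mem_smul (hv i) Submodule.mem_top

/-- The representation on `Fin 2 → A` given by a continuous matrix valued homomorphism. -/
noncomputable def ofMat (r : GQ →* M2 A) (h : MatCont r) : GaloisRepAdic A where
  V := Fin 2 → A
  finrank_eq := by simp
  ρ := (Matrix.toLinAlgEquiv' : M2 A ≃ₐ[A] _).toAlgHom.toRingHom.toMonoidHom.comp r
  isAdicContinuous := by
    intro n
    obtain ⟨L, hL, h1⟩ := h n
    refine ⟨L, hL, fun σ hσ v => ?_⟩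
    apply mem_smul_top_of_forall_mem
    intro i
    have : ((Matrix.toLinAlgEquiv' : M2 A ≃ₐ[A] _).toAlgHom.toRingHom.toMonoidHom.comp r) σ v - v
        = (r σ - 1).mulVec v := by
      simp [Matrix.sub_mulVec]
    rw [this]
    simp only [Matrix.mulVec, dotProduct]
    exact Ideal.sum_mem _ fun j _ => Ideal.mul_mem_right _ _ (h1 σ hσ i j)

end Adic

section Residual

variable {k : Type} [Field k]

/-- `r` is the matrix of the residual representation `ρ` in some basis of `ρ.V`. -/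
def IsMatOfRes (ρ : ResidualGaloisRep k) (r : GQ → M2 k) : Prop :=
  ∃ b : Module.Basis (Fin 2) k ρ.V, ∀ σ : GQ, LinearMap.toMatrix b b (ρ.ρ σ) = r σ

end Residual

section Cond

variable (𝒪 : Type) [CommRing 𝒪] [IsLocalRing 𝒪]
variable (𝒟 : ∀ ⦃A : Type⦄ [CommRing A] [IsLocalRing A] [Algebra 𝒪 A], GaloisRepAdic A → Prop)

/-- The matrix valued map `r` is the matrix of a representation of type `𝒟`. -/
def DMat {A : Type} [CommRing A] [IsLocalRing A] [Algebra 𝒪 A] (r : GQ → M2 A) : Prop :=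
  ∃ ρ : GaloisRepAdic A, IsMatOf ρ r ∧ 𝒟 ρ

/-- `r` is a strict lift of the residual matrix valued map `rbar`. -/
def IsLift (rbar : GQ → M2 (ResidueField 𝒪)) {A : Type} [CommRing A] [IsLocalRing A]
    [Algebra 𝒪 A] [IsLocalHom (algebraMap 𝒪 A)] (r : GQ → M2 A) : Prop :=
  ∀ σ : GQ, (r σ).map (residue A) = (rbar σ).map (ResidueField.map (algebraMap 𝒪 A))

end Cond

section Norm

variable (𝒪 : Type) [CommRing 𝒪] [IsLocalRing 𝒪]

/-- Rigidification data for `ρbar`: a matrix form `rbar` of `ρbar` together with two group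
elements `g1 g2` such that `rbar g1` maps `e₀` to `e₁` and such that the `(i0, j0)` entry of the
commutator of `rbar g1` and `rbar g2` is nonzero; `c0` is a lift of the `(i0, j0)` entry of
`rbar g2`. -/
structure NormData (ρbar : ResidualGaloisRep (ResidueField 𝒪)) where
  rbar : GQ →* M2 (ResidueField 𝒪)
  isMatOfRes : IsMatOfRes ρbar rbar
  g1 : GQ
  g2 : GQ
  i0 : Fin 2
  j0 : Fin 2
  c0 : 𝒪
  col : ∀ i : Fin 2, rbar g1 i 0 = if i = 1 then 1 else 0
  c0_spec : residue 𝒪 c0 = rbar g2 i0 j0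
  comm_ne : (rbar g1 * rbar g2 - rbar g2 * rbar g1) i0 j0 ≠ 0

variable {𝒪}

/-- `r` is a normalized lift of `N.rbar`: a strict lift such that `r g1` maps `e₀` to `e₁` and
the `(i0, j0)` entry of `r g2` is (the image of) `c0`. Every deformation class contains exactly
one normalized lift. -/
def IsNorm {ρbar : ResidualGaloisRep (ResidueField 𝒪)} (N : NormData 𝒪 ρbar)
    {A : Type} [CommRing A] [IsLocalRing A] [Algebra 𝒪 A] [IsLocalHom (algebraMap 𝒪 A)]
    (r : GQ → M2 A) : Prop :=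
  IsLift 𝒪 N.rbar r ∧ (∀ i : Fin 2, r N.g1 i 0 = if i = 1 then 1 else 0) ∧
    r N.g2 N.i0 N.j0 = algebraMap 𝒪 A N.c0

/-- The set of matrix entries of a matrix valued map. -/
def entries {A : Type} (r : GQ → M2 A) : Set A := {x | ∃ σ i j, r σ i j = x}

end Norm

end Fermat.Agent.S53

end
-- ==== END Fermat.Agent.S53.Defs

-- ==== BEGIN Fermat.Agent.S53.H50_Complete
section

/-!
# S53, step 7 (a)(b)(c): truncations of a complete noetherian local algebra (helper50)

For a complete noetherian local `𝒪`-algebra `A` with finite residue field: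
* `A ⧸ 𝔪 ^ (n+1)` is a finite local ring and an Artinian test algebra;
* compatible families of `𝒪`-algebra maps `R → A ⧸ 𝔪 ^ n` glue uniquely to `R → A`;
* compatible families of matrices over `A ⧸ 𝔪 ^ n` glue uniquely to a matrix over `A`.
-/

set_option autoImplicit false

namespace Fermat.Agent.S53.H50

open IsLocalRing

section Quotients

variable (A : Type) [CommRing A] [IsLocalRing A]

/-- The truncation `A ⧸ 𝔪 ^ (n+1)` is nontrivial. -/
instance nontrivial_quot (n : ℕ) : Nontrivial (A ⧸ maximalIdeal A ^ (n + 1)) :=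
  Ideal.Quotient.nontrivial_iff.mpr fun h =>
    (maximalIdeal.isMaximal A).ne_top (top_le_iff.mp (h ▸ Ideal.pow_le_self (Nat.succ_ne_zero n)))

/-- The truncation `A ⧸ 𝔪 ^ (n+1)` is local. -/
instance isLocalRing_quot (n : ℕ) : IsLocalRing (A ⧸ maximalIdeal A ^ (n + 1)) :=
  IsLocalRing.of_surjective' (Ideal.Quotient.mk _) Ideal.Quotient.mk_surjective

/-- The projection `A → A ⧸ 𝔪 ^ (n+1)` is a local homomorphism. -/
instance isLocalHom_mk (n : ℕ) : IsLocalHom (Ideal.Quotient.mk (maximalIdeal A ^ (n + 1))) := by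
  refine ⟨fun a ha => ?_⟩
  by_contra hna
  have hmem : a ∈ maximalIdeal A := (IsLocalRing.mem_maximalIdeal a).mpr hna
  have hnil : (Ideal.Quotient.mk (maximalIdeal A ^ (n + 1)) a) ^ (n + 1) = 0 := by
    rw [← map_pow, Ideal.Quotient.eq_zero_iff_mem]
    exact Ideal.pow_mem_pow hmem _
  exact (ha.pow (n + 1)).ne_zero hnil

theorem maximalIdeal_quot (n : ℕ) :
    maximalIdeal (A ⧸ maximalIdeal A ^ (n + 1)) =
      (maximalIdeal A).map (Ideal.Quotient.mk (maximalIdeal A ^ (n + 1))) := by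
  apply le_antisymm
  · intro x hx
    obtain ⟨a, rfl⟩ := Ideal.Quotient.mk_surjective x
    refine Ideal.mem_map_of_mem _ ?_
    rw [IsLocalRing.mem_maximalIdeal] at hx ⊢
    exact fun ha => hx (ha.map _)
  · rw [Ideal.map_le_iff_le_comap]
    intro a ha
    rw [Ideal.mem_comap, IsLocalRing.mem_maximalIdeal]
    rw [IsLocalRing.mem_maximalIdeal] at ha
    exact fun h => ha (isUnit_of_map_unit (Ideal.Quotient.mk (maximalIdeal A ^ (n + 1))) a h)

theorem maximalIdeal_quot_pow (n : ℕ) :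
    maximalIdeal (A ⧸ maximalIdeal A ^ (n + 1)) ^ (n + 1) = ⊥ := by
  rw [maximalIdeal_quot, ← Ideal.map_pow, Ideal.map_quotient_self]

theorem finite_quot [IsNoetherianRing A] [Finite (ResidueField A)] (n : ℕ) :
    Finite (A ⧸ maximalIdeal A ^ n) := by
  have : Finite (A ⧸ maximalIdeal A) := ‹Finite (ResidueField A)›
  exact Ideal.finite_quotient_pow (IsNoetherian.noetherian (maximalIdeal A)) n

theorem isArtinianRing_quot [IsNoetherianRing A] (n : ℕ) :
    IsArtinianRing (A ⧸ maximalIdeal A ^ (n + 1)) := by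
  have h : IsNilpotent (maximalIdeal (A ⧸ maximalIdeal A ^ (n + 1))) :=
    ⟨n + 1, by rw [_root_.Fermat.Agent.S53.H50.maximalIdeal_quot_pow]; rfl⟩
  exact (isArtinianRing_iff_isNilpotent_maximalIdeal _).mpr h

end Quotients

section TestAlgebra

variable (𝒪 : Type) [CommRing 𝒪] [IsLocalRing 𝒪]
variable (A : Type) [CommRing A] [IsLocalRing A] [Algebra 𝒪 A]

theorem finite_residueField_of_surjective [Finite (ResidueField 𝒪)]
    [IsLocalHom (algebraMap 𝒪 A)]
    (hres : Function.Surjective (IsLocalRing.residue A ∘ algebraMap 𝒪 A)) :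
    Finite (ResidueField A) := by
  have hsurj : Function.Surjective (ResidueField.map (algebraMap 𝒪 A)) := by
    intro x
    obtain ⟨a, rfl⟩ := hres x
    exact ⟨IsLocalRing.residue 𝒪 a, rfl⟩
  exact Finite.of_surjective _ hsurj

omit [IsLocalRing 𝒪] in
theorem isLocalHom_algebraMap_quot [IsLocalHom (algebraMap 𝒪 A)] (n : ℕ) :
    IsLocalHom (algebraMap 𝒪 (A ⧸ maximalIdeal A ^ (n + 1))) := by
  refine ⟨fun a ha => ?_⟩
  have h1 : IsUnit (algebraMap 𝒪 A a) :=
    isUnit_of_map_unit (Ideal.Quotient.mk (maximalIdeal A ^ (n + 1))) _ ha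
  exact isUnit_of_map_unit (algebraMap 𝒪 A) a h1

omit [IsLocalRing 𝒪] in
theorem residue_surjective_quot
    (hres : Function.Surjective (IsLocalRing.residue A ∘ algebraMap 𝒪 A)) (n : ℕ) :
    Function.Surjective (IsLocalRing.residue (A ⧸ maximalIdeal A ^ (n + 1)) ∘
      algebraMap 𝒪 (A ⧸ maximalIdeal A ^ (n + 1))) := by
  intro x
  obtain ⟨y, rfl⟩ := IsLocalRing.residue_surjective x
  obtain ⟨a, rfl⟩ := Ideal.Quotient.mk_surjective y
  obtain ⟨c, hc⟩ := hres (IsLocalRing.residue A a)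
  refine ⟨c, ?_⟩
  simp only [Function.comp_apply] at hc ⊢
  rw [← sub_eq_zero, ← map_sub, IsLocalRing.residue_eq_zero_iff] at hc ⊢
  have : algebraMap 𝒪 (A ⧸ maximalIdeal A ^ (n + 1)) c - Ideal.Quotient.mk _ a =
      Ideal.Quotient.mk (maximalIdeal A ^ (n + 1)) (algebraMap 𝒪 A c - a) := by
    rw [map_sub]; rfl
  rw [this, maximalIdeal_quot]
  exact Ideal.mem_map_of_mem _ hc

omit [IsLocalRing 𝒪] in
theorem isArtinianTestAlgebra_quot [IsNoetherianRing A] [IsLocalHom (algebraMap 𝒪 A)]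
    (hres : Function.Surjective (IsLocalRing.residue A ∘ algebraMap 𝒪 A)) (n : ℕ) :
    GaloisRep.IsArtinianTestAlgebra 𝒪 (A ⧸ maximalIdeal A ^ (n + 1)) where
  isLocalHom := isLocalHom_algebraMap_quot 𝒪 A n
  residue_surjective := residue_surjective_quot 𝒪 A hres n
  isArtinian := isArtinianRing_quot A n

end TestAlgebra

section Glue

variable {A : Type} [CommRing A] (I : Ideal A)

/-- Separation: two elements which agree modulo every `I ^ (n+1)` are equal. -/
theorem eq_of_forall_mk_eq [IsHausdorff I A] {x y : A}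
    (h : ∀ n : ℕ, Ideal.Quotient.mk (I ^ (n + 1)) x = Ideal.Quotient.mk (I ^ (n + 1)) y) :
    x = y := by
  rw [← sub_eq_zero]
  apply IsHausdorff.haus (I := I) ‹_›
  intro n
  rw [SModEq.zero, smul_eq_mul, Ideal.mul_top]
  have := h n
  rw [Ideal.Quotient.eq] at this
  exact Ideal.pow_le_pow_right (Nat.le_succ n) this

/-- Gluing elements: a compatible family of elements of `A ⧸ I ^ (n+1)` comes from a unique
element of `A`. -/
theorem exists_glue_elt [IsPrecomplete I A] (x : ∀ n : ℕ, A ⧸ I ^ (n + 1))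
    (hx : ∀ n, Ideal.Quotient.factor (Ideal.pow_le_pow_right (Nat.le_succ (n + 1))) (x (n + 1)) =
      x n) :
    ∃ a : A, ∀ n, Ideal.Quotient.mk (I ^ (n + 1)) a = x n := by
  choose y hy using fun n => Ideal.Quotient.mk_surjective (x n)
  -- compatibility of lifts
  have hstep : ∀ n, y (n + 1) - y n ∈ I ^ (n + 1) := by
    intro n
    rw [← Ideal.Quotient.eq, hy n, ← hx n, ← hy (n + 1), Ideal.Quotient.factor_mk]
  have hle : ∀ m n, m ≤ n → y n - y m ∈ I ^ (m + 1) := by
    intro m n hmn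
    induction n, hmn using Nat.le_induction with
    | base => simp
    | succ n hmn ih =>
      have h1 : y (n + 1) - y n ∈ I ^ (m + 1) :=
        Ideal.pow_le_pow_right (Nat.succ_le_succ hmn) (hstep n)
      have : y (n + 1) - y m = (y (n + 1) - y n) + (y n - y m) := by ring
      rw [this]
      exact Ideal.add_mem _ h1 ih
  obtain ⟨L, hL⟩ := IsPrecomplete.prec (I := I) ‹_› (f := fun n => y n) (by
    intro m n hmn
    rw [SModEq.sub_mem, smul_eq_mul, Ideal.mul_top]
    have := hle m n hmn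
    have h2 : y m - y n = -(y n - y m) := by ring
    rw [h2]
    exact Ideal.neg_mem_iff _ |>.mpr (Ideal.pow_le_pow_right (Nat.le_succ m) this))
  refine ⟨L, fun n => ?_⟩
  rw [← hy n, Ideal.Quotient.eq]
  have h1 := hL (n + 1)
  rw [SModEq.sub_mem, smul_eq_mul, Ideal.mul_top] at h1
  have h2 : L - y n = -(y (n + 1) - L) + (y (n + 1) - y n) := by ring
  rw [h2]
  exact Ideal.add_mem _ (Ideal.neg_mem_iff _ |>.mpr h1) (hstep n)

/-- Gluing matrices. -/
theorem exists_glue_matrix {ι : Type} [IsPrecomplete I A]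
    (g : ∀ n : ℕ, Matrix ι ι (A ⧸ I ^ (n + 1)))
    (hg : ∀ n, (g (n + 1)).map
      (Ideal.Quotient.factor (Ideal.pow_le_pow_right (Nat.le_succ (n + 1)))) = g n) :
    ∃ G : Matrix ι ι A, ∀ n, G.map (Ideal.Quotient.mk (I ^ (n + 1))) = g n := by
  have key : ∀ i j, ∃ a : A, ∀ n, Ideal.Quotient.mk (I ^ (n + 1)) a = g n i j := fun i j =>
    exists_glue_elt I (fun n => g n i j) fun n => by
      have := congrFun (congrFun (hg n) i) j
      simpa using this
  choose G hG using key
  exact ⟨Matrix.of G, fun n => by ext i j; exact hG i j n⟩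

/-- Separation for matrices. -/
theorem matrix_eq_of_forall_map_eq {ι : Type} [IsHausdorff I A] {G G' : Matrix ι ι A}
    (h : ∀ n : ℕ, G.map (Ideal.Quotient.mk (I ^ (n + 1))) =
      G'.map (Ideal.Quotient.mk (I ^ (n + 1)))) : G = G' := by
  ext i j
  exact eq_of_forall_mk_eq I fun n => congrFun (congrFun (h n) i) j

variable {𝒪 R : Type} [CommRing 𝒪] [CommRing R] [Algebra 𝒪 R] [Algebra 𝒪 A]

/-- Gluing algebra homomorphisms: a compatible family of `𝒪`-algebra maps
`R → A ⧸ I ^ (n+1)` comes from a unique `𝒪`-algebra map `R → A`. -/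
theorem exists_unique_glue_algHom [IsAdicComplete I A] (f : ∀ n : ℕ, R →ₐ[𝒪] A ⧸ I ^ (n + 1))
    (hf : ∀ n, (Ideal.Quotient.factorₐ 𝒪 (Ideal.pow_le_pow_right (Nat.le_succ (n + 1)))).comp
      (f (n + 1)) = f n) :
    ∃! φ : R →ₐ[𝒪] A, ∀ n, (Ideal.Quotient.mkₐ 𝒪 (I ^ (n + 1))).comp φ = f n := by
  -- the family indexed by all `n`
  let f' : ∀ n : ℕ, R →ₐ[𝒪] A ⧸ I ^ n := fun n =>
    (Ideal.Quotient.factorₐ 𝒪 (Ideal.pow_le_pow_right (Nat.le_succ n))).comp (f n)
  have hf1 : ∀ n x, Ideal.Quotient.factor (Ideal.pow_le_pow_right (Nat.le_succ (n + 1)))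
      (f (n + 1) x) = f n x := fun n x => congrArg (fun ψ => ψ x) (hf n)
  have hle : ∀ m n (hmn : m ≤ n) (x : R),
      Ideal.Quotient.factor (Ideal.pow_le_pow_right (Nat.succ_le_succ hmn)) (f n x) = f m x := by
    intro m n hmn x
    induction n, hmn using Nat.le_induction with
    | base => simp
    | succ n hmn ih =>
      rw [← ih, ← hf1 n x, Ideal.Quotient.factor_comp_apply]
  have hf' : ∀ {m n : ℕ} (hle : m ≤ n),
      (Ideal.Quotient.factorₐ 𝒪 (Ideal.pow_le_pow_right hle)).comp (f' n) = f' m := by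
    intro m n hmn
    ext x
    show Ideal.Quotient.factor (Ideal.pow_le_pow_right hmn)
        (Ideal.Quotient.factor (Ideal.pow_le_pow_right (Nat.le_succ n)) (f n x)) =
      Ideal.Quotient.factor (Ideal.pow_le_pow_right (Nat.le_succ m)) (f m x)
    rw [← hle m n hmn x, Ideal.Quotient.factor_comp_apply, Ideal.Quotient.factor_comp_apply]
  have hmk : ∀ n, (Ideal.Quotient.mkₐ 𝒪 (I ^ (n + 1))).comp
      (IsAdicComplete.liftAlgHom I f' hf') = f n := by
    intro n
    rw [IsAdicComplete.mkₐ_comp_liftAlgHom]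
    ext x
    exact hf1 n x
  refine ⟨IsAdicComplete.liftAlgHom I f' hf', hmk, fun ψ hψ => ?_⟩
  apply IsAdicComplete.algHom_ext I
  intro n
  ext x
  have h1 := congrArg (fun θ => θ x) (hψ n)
  have h2 := congrArg (fun θ => θ x) (hmk n)
  simp only [AlgHom.comp_apply, Ideal.Quotient.mkₐ_eq_mk] at h1 h2 ⊢
  have e1 : Ideal.Quotient.mk (I ^ n) (ψ x) =
      Ideal.Quotient.factor (Ideal.pow_le_pow_right (Nat.le_succ n))
        (Ideal.Quotient.mk (I ^ (n + 1)) (ψ x)) := by rw [Ideal.Quotient.factor_mk]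
  have e2 : Ideal.Quotient.mk (I ^ n) (IsAdicComplete.liftAlgHom I f' hf' x) =
      Ideal.Quotient.factor (Ideal.pow_le_pow_right (Nat.le_succ n))
        (Ideal.Quotient.mk (I ^ (n + 1)) (IsAdicComplete.liftAlgHom I f' hf' x)) := by
    rw [Ideal.Quotient.factor_mk]
  rw [e1, e2, h1, h2]

end Glue

end Fermat.Agent.S53.H50

end
-- ==== END Fermat.Agent.S53.H50_Complete

-- ==== BEGIN Fermat.Agent.S53.Limit
section

set_option autoImplicit false

open IsLocalRing

namespace Fermat.Agent.S53.Limit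

section OneVar

open PowerSeries

variable {A : Type*} [CommRing A] (I : Ideal A)

/-- The ideal `(I, X)` of `A⟦X⟧`. -/
noncomputable def idealJ : Ideal A⟦X⟧ := I.map (C : A →+* A⟦X⟧) ⊔ Ideal.span {X}

/-- The ideal of power series whose `i`-th coefficient lies in `I ^ (l - i)`. -/
noncomputable def idealF (l : ℕ) : Ideal A⟦X⟧ where
  carrier := {f | ∀ i, coeff i f ∈ I ^ (l - i)}
  add_mem' := fun {f g} hf hg i => by
    rw [map_add]; exact Ideal.add_mem _ (hf i) (hg i)
  zero_mem' := fun i => by rw [map_zero]; exact Ideal.zero_mem _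
  smul_mem' := fun c f hf i => by
    rw [smul_eq_mul, coeff_mul]
    refine Ideal.sum_mem _ fun p hp => ?_
    have hle : p.2 ≤ i := by
      have := Finset.HasAntidiagonal.mem_antidiagonal.mp hp; omega
    exact Ideal.mul_mem_left _ _ (Ideal.pow_le_pow_right (by omega) (hf p.2))

theorem mem_idealF {l : ℕ} {f : A⟦X⟧} : f ∈ idealF I l ↔ ∀ i, coeff i f ∈ I ^ (l - i) := Iff.rfl

theorem idealJ_le_comap : idealJ I ≤ Ideal.comap (constantCoeff : A⟦X⟧ →+* A) I := by
  unfold idealJ
  refine sup_le ?_ ?_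
  · rw [Ideal.map_le_iff_le_comap]
    intro a ha
    simpa using ha
  · rw [Ideal.span_le]
    intro x hx
    rw [Set.mem_singleton_iff] at hx
    subst hx
    simp

theorem idealF_mul_le (l : ℕ) : idealF I l * idealJ I ≤ idealF I (l + 1) := by
  rw [Ideal.mul_le]
  intro f hf g hg i
  have hg0 : coeff 0 g ∈ I := by
    have := idealJ_le_comap I hg
    rwa [Ideal.mem_comap, ← coeff_zero_eq_constantCoeff_apply] at this
  rw [coeff_mul]
  refine Ideal.sum_mem _ fun p hp => ?_
  have hpi : p.1 + p.2 = i := Finset.HasAntidiagonal.mem_antidiagonal.mp hp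
  by_cases h2 : p.2 = 0
  · rw [h2]
    have h1 : p.1 = i := by omega
    rw [h1]
    by_cases hli : i ≤ l
    · have : l + 1 - i = (l - i) + 1 := by omega
      rw [this, pow_succ]
      exact Ideal.mul_mem_mul (hf i) hg0
    · have : l + 1 - i = 0 := by omega
      rw [this, pow_zero, Ideal.one_eq_top]; exact Submodule.mem_top (R := A)
  · exact Ideal.mul_mem_right _ _ (Ideal.pow_le_pow_right (by omega) (hf p.1))

theorem pow_idealJ_le (l : ℕ) : idealJ I ^ l ≤ idealF I l := by
  induction l with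
  | zero =>
    intro f _ i
    simp
  | succ l ih =>
    rw [pow_succ]
    exact (Ideal.mul_mono_left ih).trans (idealF_mul_le I l)

theorem idealF_le_pow (l : ℕ) : idealF I l ≤ idealJ I ^ l := by
  induction l with
  | zero => simp
  | succ l ih =>
    intro f hf
    rw [f.eq_X_mul_shift_add_const]
    refine Ideal.add_mem _ ?_ ?_
    · rw [pow_succ']
      refine Ideal.mul_mem_mul ?_ (ih ?_)
      · exact Ideal.mem_sup_right (Ideal.subset_span rfl)
      · intro i
        rw [coeff_mk]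
        have := hf (i + 1)
        rwa [show l + 1 - (i + 1) = l - i by omega] at this
    · have h0 : constantCoeff f ∈ I ^ (l + 1) := by
        have := hf 0
        rwa [coeff_zero_eq_constantCoeff_apply] at this
      have : C (constantCoeff f) ∈ (I ^ (l + 1)).map (C : A →+* A⟦X⟧) := Ideal.mem_map_of_mem _ h0
      rw [Ideal.map_pow] at this
      exact Ideal.pow_right_mono le_sup_left _ this

theorem pow_idealJ_eq (l : ℕ) : idealJ I ^ l = idealF I l :=
  le_antisymm (pow_idealJ_le I l) (idealF_le_pow I l)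

theorem isPrecomplete_idealJ [IsPrecomplete I A] : IsPrecomplete (idealJ I) A⟦X⟧ := by
  refine ⟨fun {f} hf => ?_⟩
  have hf' : ∀ {m n : ℕ}, m ≤ n → f m - f n ∈ idealF I m := by
    intro m n hmn
    have := hf hmn
    rw [SModEq.sub_mem, smul_eq_mul, Ideal.mul_top, pow_idealJ_eq] at this
    exact this
  have key : ∀ i : ℕ, ∃ L : A, ∀ l : ℕ, coeff i (f (l + i)) ≡ L [SMOD (I ^ l • ⊤ : Submodule A A)] := by
    intro i
    refine IsPrecomplete.prec (I := I) (M := A) inferInstance (f := fun l => coeff i (f (l + i))) ?_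
    intro m n hmn
    rw [SModEq.sub_mem, smul_eq_mul, Ideal.mul_top, ← map_sub]
    have := hf' (show m + i ≤ n + i by omega) i
    rwa [show m + i - i = m by omega] at this
  choose L hL using key
  refine ⟨mk L, fun l => ?_⟩
  rw [SModEq.sub_mem, smul_eq_mul, Ideal.mul_top, pow_idealJ_eq]
  intro i
  rw [map_sub, coeff_mk]
  by_cases hil : i ≤ l
  · obtain ⟨l0, rfl⟩ : ∃ l0, l = l0 + i := ⟨l - i, by omega⟩
    have := hL i l0
    rw [SModEq.sub_mem, smul_eq_mul, Ideal.mul_top] at this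
    rwa [show l0 + i - i = l0 by omega]
  · rw [show l - i = 0 by omega, pow_zero, Ideal.one_eq_top]; exact Submodule.mem_top (R := A)

theorem maximalIdeal_powerSeries [IsLocalRing A] :
    maximalIdeal A⟦X⟧ = idealJ (maximalIdeal A) := by
  apply le_antisymm
  · intro f hf
    rw [mem_maximalIdeal, mem_nonunits_iff, isUnit_iff_constantCoeff] at hf
    rw [f.eq_X_mul_shift_add_const]
    refine Ideal.add_mem _ ?_ ?_
    · exact Ideal.mul_mem_right _ _ (Ideal.mem_sup_right (Ideal.subset_span rfl))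
    · exact Ideal.mem_sup_left (Ideal.mem_map_of_mem _ hf)
  · intro f hf
    have := idealJ_le_comap _ hf
    rw [Ideal.mem_comap] at this
    rw [mem_maximalIdeal, mem_nonunits_iff, isUnit_iff_constantCoeff]
    exact this

end OneVar

section MvComplete

theorem isAdicComplete_powerSeries (A : Type*) [CommRing A] [IsLocalRing A] [IsNoetherianRing A]
    [IsAdicComplete (maximalIdeal A) A] :
    IsAdicComplete (maximalIdeal (PowerSeries A)) (PowerSeries A) := by
  have : IsPrecomplete (maximalIdeal (PowerSeries A)) (PowerSeries A) := by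
    rw [maximalIdeal_powerSeries]; exact isPrecomplete_idealJ _
  exact ⟨⟩

theorem map_maximalIdeal_ringEquiv {R S : Type*} [CommRing R] [CommRing S] [IsLocalRing R]
    [IsLocalRing S] (e : R ≃+* S) : (maximalIdeal R).map e = maximalIdeal S := by
  ext x
  rw [Ideal.mem_map_iff_of_surjective e e.surjective]
  constructor
  · rintro ⟨y, hy, rfl⟩
    rw [mem_maximalIdeal, mem_nonunits_iff] at hy ⊢
    intro h
    apply hy
    have := h.map (e.symm : S →+* R)
    simpa using this
  · intro hx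
    refine ⟨e.symm x, ?_, by simp⟩
    rw [mem_maximalIdeal, mem_nonunits_iff] at hx ⊢
    intro h
    apply hx
    have := h.map (e : R →+* S)
    simpa using this

theorem isAdicComplete_of_ringEquiv {R S : Type*} [CommRing R] [CommRing S] [IsLocalRing R]
    [IsLocalRing S] (e : R ≃+* S) [h : IsAdicComplete (maximalIdeal R) R] :
    IsAdicComplete (maximalIdeal S) S := by
  rw [← map_maximalIdeal_ringEquiv e]
  exact (IsAdicComplete.congr_ringEquiv (maximalIdeal R) e).mpr h

theorem isAdicComplete_mvPowerSeries_fin (𝒪 : Type*) [CommRing 𝒪] [IsLocalRing 𝒪]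
    [IsNoetherianRing 𝒪] [IsAdicComplete (maximalIdeal 𝒪) 𝒪] (N : ℕ) :
    IsAdicComplete (maximalIdeal (MvPowerSeries (Fin N) 𝒪)) (MvPowerSeries (Fin N) 𝒪) := by
  induction N with
  | zero => exact isAdicComplete_of_ringEquiv (MvPowerSeries.isEmptyEquiv (Fin 0) 𝒪).symm.toRingEquiv
  | succ N ih =>
    have := ih
    have := isAdicComplete_powerSeries (MvPowerSeries (Fin N) 𝒪)
    exact isAdicComplete_of_ringEquiv (MvPowerSeries.finSuccEquiv 𝒪 N).symm.toRingEquiv

end MvComplete

section Eval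

variable {𝒪 : Type*} [CommRing 𝒪] {σ : Type*} [Finite σ] {B : Type*} [CommRing B] [Algebra 𝒪 B]

/-- Evaluation of a power series at a family `x` all of whose monomials of degree `≥ L` vanish. -/
noncomputable def evL (x : σ → B) (L : ℕ)
    (h : ∀ p ∈ MvPolynomial.idealOfVars σ 𝒪 ^ L, MvPolynomial.aeval (R := 𝒪) x p = 0) :
    MvPowerSeries σ 𝒪 →ₐ[𝒪] B :=
  { toRingHom := (Ideal.Quotient.lift (MvPolynomial.idealOfVars σ 𝒪 ^ L)
      (MvPolynomial.aeval (R := 𝒪) x : MvPolynomial σ 𝒪 →ₐ[𝒪] B).toRingHom h).comp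
      (MvPowerSeries.truncTotalAlgHom σ 𝒪 L).toRingHom
    commutes' := fun r => by
      have h1 : (algebraMap 𝒪 (MvPowerSeries σ 𝒪)) r =
          algebraMap (MvPolynomial σ 𝒪) (MvPowerSeries σ 𝒪) (MvPolynomial.C r) := by
        rw [MvPowerSeries.algebraMap_apply', MvPolynomial.coe_C, MvPowerSeries.map_C,
          MvPowerSeries.algebraMap_apply]
      simp only [AlgHom.toRingHom_eq_coe, RingHom.toMonoidHom_eq_coe, OneHom.toFun_eq_coe,
        MonoidHom.toOneHom_coe, MonoidHom.coe_coe, RingHom.coe_comp, RingHom.coe_coe,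
        Function.comp_apply]
      rw [h1, AlgHom.commutes]
      simp }

theorem evL_apply (x : σ → B) (L : ℕ)
    (h : ∀ p ∈ MvPolynomial.idealOfVars σ 𝒪 ^ L, MvPolynomial.aeval (R := 𝒪) x p = 0)
    (f : MvPowerSeries σ 𝒪) :
    evL x L h f = MvPolynomial.aeval x (MvPowerSeries.truncTotal L f) := rfl

theorem evL_coe (x : σ → B) (L : ℕ)
    (h : ∀ p ∈ MvPolynomial.idealOfVars σ 𝒪 ^ L, MvPolynomial.aeval (R := 𝒪) x p = 0)
    (p : MvPolynomial σ 𝒪) :
    evL x L h (p : MvPowerSeries σ 𝒪) = MvPolynomial.aeval x p := by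
  rw [evL_apply, ← sub_eq_zero, ← map_sub]
  apply h
  rw [MvPolynomial.mem_pow_idealOfVars_iff']
  intro d hd
  rw [MvPolynomial.coeff_sub, MvPowerSeries.coeff_truncTotal _ hd, MvPolynomial.coeff_coe, sub_self]

theorem evL_X (x : σ → B) (L : ℕ)
    (h : ∀ p ∈ MvPolynomial.idealOfVars σ 𝒪 ^ L, MvPolynomial.aeval (R := 𝒪) x p = 0) (i : σ) :
    evL x L h (MvPowerSeries.X i) = x i := by
  rw [← MvPolynomial.coe_X, evL_coe, MvPolynomial.aeval_X]

theorem evL_comp {B' : Type*} [CommRing B'] [Algebra 𝒪 B'] (φ : B →ₐ[𝒪] B')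
    (x : σ → B) (L : ℕ)
    (h : ∀ p ∈ MvPolynomial.idealOfVars σ 𝒪 ^ L, MvPolynomial.aeval (R := 𝒪) x p = 0)
    (x' : σ → B') (L' : ℕ)
    (h' : ∀ p ∈ MvPolynomial.idealOfVars σ 𝒪 ^ L', MvPolynomial.aeval (R := 𝒪) x' p = 0)
    (hx : ∀ i, φ (x i) = x' i) (hL : L' ≤ L) (f : MvPowerSeries σ 𝒪) :
    φ (evL x L h f) = evL x' L' h' f := by
  rw [evL_apply, evL_apply]
  have h1 : φ (MvPolynomial.aeval x (MvPowerSeries.truncTotal L f)) =
      MvPolynomial.aeval x' (MvPowerSeries.truncTotal L f) := by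
    have : (fun i => φ (x i)) = x' := funext hx
    rw [← this, ← MvPolynomial.comp_aeval_apply]
  rw [h1, ← sub_eq_zero, ← map_sub]
  apply h'
  exact MvPowerSeries.truncTotal_sub_truncTotal_mem_pow_idealOfVars hL le_rfl f

end Eval

section Gen

variable {𝒪 : Type*} [CommRing 𝒪] {D : Type*} [CommRing D] [IsLocalRing D] [Algebra 𝒪 D]

theorem exists_mem_sub_mem_pow_succ (E : Subalgebra 𝒪 D)
    (hE : ∀ z ∈ maximalIdeal D, ∃ e ∈ E, z - e ∈ maximalIdeal D ^ 2) (i : ℕ) :
    ∀ z ∈ maximalIdeal D ^ (i + 1), ∃ e ∈ E, z - e ∈ maximalIdeal D ^ (i + 2) := by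
  induction i with
  | zero =>
    intro z hz
    rw [zero_add, pow_one] at hz
    exact hE z hz
  | succ i ih =>
    intro z hz
    rw [pow_succ] at hz
    refine Submodule.mul_induction_on hz ?_ ?_
    · intro a ha b hb
      obtain ⟨ea, hea, ha'⟩ := ih a ha
      obtain ⟨eb, heb, hb'⟩ := hE b hb
      refine ⟨ea * eb, E.mul_mem hea heb, ?_⟩
      have hea' : ea ∈ maximalIdeal D ^ (i + 1) := by
        have : ea = a - (a - ea) := by ring
        rw [this]
        exact Ideal.sub_mem _ ha (Ideal.pow_le_pow_right (by omega) ha')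
      have : a * b - ea * eb = ea * (b - eb) + (a - ea) * b := by ring
      rw [this]
      refine Ideal.add_mem _ ?_ ?_
      · have := Ideal.mul_mem_mul hea' hb'
        rw [← pow_add] at this
        exact Ideal.pow_le_pow_right (by omega) this
      · have := Ideal.mul_mem_mul ha' hb
        rw [← pow_succ] at this
        exact Ideal.pow_le_pow_right (by omega) this
    · rintro x y ⟨ex, hex, hx⟩ ⟨ey, hey, hy⟩
      refine ⟨ex + ey, E.add_mem hex hey, ?_⟩
      have : x + y - (ex + ey) = (x - ex) + (y - ey) := by ring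
      rw [this]
      exact Ideal.add_mem _ hx hy

theorem subalgebra_eq_top
    (hres : Function.Surjective (residue D ∘ algebraMap 𝒪 D))
    (L : ℕ) (hL : maximalIdeal D ^ L = ⊥) (E : Subalgebra 𝒪 D)
    (hE : ∀ z ∈ maximalIdeal D, ∃ e ∈ E, z - e ∈ maximalIdeal D ^ 2) : E = ⊤ := by
  have step : ∀ i : ℕ, ∀ d : D, ∃ e ∈ E, d - e ∈ maximalIdeal D ^ (i + 1) := by
    intro i
    induction i with
    | zero =>
      intro d
      obtain ⟨a, ha⟩ := hres (residue D d)
      refine ⟨algebraMap 𝒪 D a, E.algebraMap_mem a, ?_⟩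
      rw [zero_add, pow_one, ← Ideal.Quotient.eq]
      exact ha.symm
    | succ i ih =>
      intro d
      obtain ⟨e, he, hd⟩ := ih d
      obtain ⟨e', he', hd'⟩ := exists_mem_sub_mem_pow_succ E hE i _ hd
      refine ⟨e + e', E.add_mem he he', ?_⟩
      have : d - (e + e') = d - e - e' := by ring
      rw [this]
      exact hd'
  rw [eq_top_iff]
  intro d _
  obtain ⟨e, he, hd⟩ := step L d
  have : d - e ∈ maximalIdeal D ^ L := Ideal.pow_le_pow_right (by omega) hd
  rw [hL, Ideal.mem_bot, sub_eq_zero] at this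
  rw [this]; exact he

end Gen

section Aux

variable {𝒪 : Type*} [CommRing 𝒪] {σ : Type*} [Finite σ] {B : Type*} [CommRing B] [Algebra 𝒪 B]
  [IsLocalRing B]

omit [Finite σ] in
theorem aeval_eq_zero_of_mem_pow (x : σ → B) (hx : ∀ i, x i ∈ maximalIdeal B) (L : ℕ)
    (hL : maximalIdeal B ^ L = ⊥) :
    ∀ p ∈ MvPolynomial.idealOfVars σ 𝒪 ^ L, MvPolynomial.aeval (R := 𝒪) x p = 0 := by
  intro p hp
  have h1 : (MvPolynomial.idealOfVars σ 𝒪).map
      (MvPolynomial.aeval (R := 𝒪) x : MvPolynomial σ 𝒪 →ₐ[𝒪] B) ≤ maximalIdeal B := by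
    rw [Ideal.map_span, Ideal.span_le]
    rintro _ ⟨_, ⟨i, rfl⟩, rfl⟩
    simpa using hx i
  have h2 : (MvPolynomial.idealOfVars σ 𝒪 ^ L).map
      (MvPolynomial.aeval (R := 𝒪) x : MvPolynomial σ 𝒪 →ₐ[𝒪] B) ≤ ⊥ := by
    rw [Ideal.map_pow, ← hL]
    exact Ideal.pow_right_mono h1 L
  have := h2 (Ideal.mem_map_of_mem _ hp)
  simpa using this

end Aux

section Cauchy

variable {P : Type*} [CommRing P] (n : Ideal P) [IsPrecomplete n P]

theorem exists_limit_of_cauchy (f : ℕ → P) (hf : ∀ l, f (l + 1) - f l ∈ n ^ (l + 1)) :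
    ∃ g, ∀ l, g - f l ∈ n ^ (l + 1) := by
  have hf' : ∀ l k, f (l + k) - f l ∈ n ^ (l + 1) := by
    intro l k
    induction k with
    | zero => simp
    | succ k ih =>
      have : f (l + (k + 1)) - f l = (f (l + k + 1) - f (l + k)) + (f (l + k) - f l) := by
        rw [← add_assoc]; ring
      rw [this]
      exact Ideal.add_mem _ (Ideal.pow_le_pow_right (by omega) (hf (l + k))) ih
  obtain ⟨g, hg⟩ := IsPrecomplete.prec (I := n) (M := P) inferInstance
    (f := fun l => f (l - 1)) (by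
      intro a b hab
      rw [SModEq.sub_mem, smul_eq_mul, Ideal.mul_top]
      rcases Nat.eq_zero_or_pos a with rfl | ha
      · rw [pow_zero, Ideal.one_eq_top]; exact Submodule.mem_top (R := P)
      · obtain ⟨k, hk⟩ : ∃ k, b - 1 = (a - 1) + k := ⟨b - a, by omega⟩
        have := hf' (a - 1) k
        rw [show a - 1 + 1 = a by omega, ← hk] at this
        have h2 : f (a - 1) - f (b - 1) = -(f (b - 1) - f (a - 1)) := by ring
        rw [h2]
        exact Ideal.neg_mem_iff _ |>.mpr this)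
  refine ⟨g, fun l => ?_⟩
  have := hg (l + 1)
  rw [SModEq.sub_mem, smul_eq_mul, Ideal.mul_top] at this
  simp only [Nat.add_sub_cancel] at this
  have h2 : g - f l = -(f l - g) := by ring
  rw [h2]
  exact Ideal.neg_mem_iff _ |>.mpr this

end Cauchy

section Seq

variable {P : Type*} [CommRing P] (n : Ideal P) [IsPrecomplete n P]

theorem exists_limit_of_cauchy_shift (c : ℕ) (f : ℕ → P)
    (hf : ∀ l, f (l + 1) - f l ∈ n ^ (c + l + 1)) :
    ∃ g, ∀ l, g - f l ∈ n ^ (c + l + 1) := by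
  obtain ⟨g, hg⟩ := exists_limit_of_cauchy n (fun l => f (l - c)) (by
    intro l
    by_cases hl : l < c
    · rw [show l + 1 - c = 0 by omega, show l - c = 0 by omega, sub_self]
      exact Ideal.zero_mem _
    · have := hf (l - c)
      rw [show l + 1 - c = l - c + 1 by omega]
      rwa [show c + (l - c) + 1 = l + 1 by omega] at this)
  refine ⟨g, fun l => ?_⟩
  have := hg (c + l)
  simpa using this

theorem exists_seq (c : ℕ) (Q : ℕ → P → Prop)
    (step : ∀ l a, Q l a → ∃ b, Q (l + 1) b ∧ b - a ∈ n ^ (c + l + 1))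
    (a0 : P) (h0 : Q 0 a0) :
    ∃ (g : P) (F : ℕ → P), F 0 = a0 ∧ (∀ l, Q l (F l)) ∧ ∀ l, g - F l ∈ n ^ (c + l + 1) := by
  let G : (l : ℕ) → {a : P // Q l a} := fun l =>
    Nat.rec (motive := fun l => {a : P // Q l a}) ⟨a0, h0⟩
      (fun l a => ⟨Classical.choose (step l a.1 a.2), (Classical.choose_spec (step l a.1 a.2)).1⟩) l
  have hG : ∀ l, (G (l + 1)).1 - (G l).1 ∈ n ^ (c + l + 1) := fun l =>
    (Classical.choose_spec (step l (G l).1 (G l).2)).2
  obtain ⟨g, hg⟩ := exists_limit_of_cauchy_shift n c (fun l => (G l).1) hG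
  exact ⟨g, fun l => (G l).1, rfl, fun l => (G l).2, hg⟩

end Seq

section Presentation

variable {𝒪 : Type} [CommRing 𝒪]
    (P : Type) [CommRing P] [IsLocalRing P] [IsNoetherianRing P]
    [IsAdicComplete (maximalIdeal P) P] [Algebra 𝒪 P]
    (D : ℕ → Type) [∀ j, CommRing (D j)] [∀ j, IsLocalRing (D j)] [∀ j, Algebra 𝒪 (D j)]
    (u : ∀ j, D (j + 1) →ₐ[𝒪] D j)
    (hker : ∀ j, RingHom.ker (u j : D (j + 1) →+* D j) = maximalIdeal (D (j + 1)) ^ (j + 1))
    (hlev : ∀ j, maximalIdeal (D j) ^ (j + 1) = ⊥)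
    (ev : ∀ j, P →ₐ[𝒪] D j) (hev : ∀ j, Function.Surjective (ev j))
    (hcompat : ∀ j f, u j (ev (j + 1) f) = ev j f)

omit [IsNoetherianRing P] [IsAdicComplete (maximalIdeal P) P] in
include hev in
theorem map_pow_ev (j l : ℕ) :
    (maximalIdeal P ^ l).map (ev j : P →+* D j) = maximalIdeal (D j) ^ l := by
  rw [Ideal.map_pow, IsLocalRing.map_maximalIdeal_of_surjective (ev j : P →+* D j) (hev j)]

omit [IsNoetherianRing P] [IsAdicComplete (maximalIdeal P) P] in
include hev hlev in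
theorem pow_le_ker_ev (j : ℕ) :
    maximalIdeal P ^ (j + 1) ≤ RingHom.ker (ev j : P →+* D j) := by
  intro f hf
  have := Ideal.mem_map_of_mem (ev j : P →+* D j) hf
  rw [map_pow_ev P D ev hev, hlev] at this
  simpa using this

omit [IsLocalRing P] [IsNoetherianRing P] [IsAdicComplete (maximalIdeal P) P]
  [∀ j, IsLocalRing (D j)] in
include hcompat in
theorem ker_ev_anti (j : ℕ) :
    RingHom.ker (ev (j + 1) : P →+* D (j + 1)) ≤ RingHom.ker (ev j : P →+* D j) := by
  intro f hf
  rw [RingHom.mem_ker, RingHom.coe_coe] at hf ⊢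
  rw [← hcompat j f, hf, map_zero]

omit [IsLocalRing P] [IsNoetherianRing P] [IsAdicComplete (maximalIdeal P) P]
  [∀ j, IsLocalRing (D j)] in
include hcompat in
theorem ker_ev_antitone : Antitone (fun j => RingHom.ker (ev j : P →+* D j)) :=
  antitone_nat_of_succ_le (ker_ev_anti P D u ev hcompat)

omit [IsNoetherianRing P] [IsAdicComplete (maximalIdeal P) P] in
include hev hker hcompat in
theorem ker_ev_le (j : ℕ) (f : P) (hf : f ∈ RingHom.ker (ev j : P →+* D j)) :
    ∃ g, g ∈ RingHom.ker (ev (j + 1) : P →+* D (j + 1)) ∧ g - f ∈ maximalIdeal P ^ (j + 1) := by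
  rw [RingHom.mem_ker, RingHom.coe_coe] at hf
  have h1 : (ev (j + 1) : P →+* D (j + 1)) f ∈ RingHom.ker (u j : D (j + 1) →+* D j) := by
    rw [RingHom.mem_ker, RingHom.coe_coe, RingHom.coe_coe, hcompat j f, hf]
  rw [hker, ← map_pow_ev P D ev hev] at h1
  obtain ⟨g, hg, hgf⟩ := (Ideal.mem_map_iff_of_surjective (ev (j + 1) : P →+* D (j + 1))
    (hev (j + 1))).mp h1
  refine ⟨f - g, ?_, ?_⟩
  · rw [RingHom.mem_ker, map_sub, hgf, sub_self]
  · have : f - g - f = -g := by ring
    rw [this]; exact Ideal.neg_mem_iff _ |>.mpr hg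

omit [IsNoetherianRing P] in
include hev hker hlev hcompat in
/-- Every element of `ker (ev j)` is congruent modulo `n ^ (j+1)` to an element of
`⨅ i, ker (ev i)`. -/
theorem exists_mem_iInf_ker (j : ℕ) (f : P) (hf : f ∈ RingHom.ker (ev j : P →+* D j)) :
    ∃ g, g ∈ ⨅ i, RingHom.ker (ev i : P →+* D i) ∧ g - f ∈ maximalIdeal P ^ (j + 1) := by
  obtain ⟨g, F, hF0, hFQ, hgF⟩ := exists_seq (maximalIdeal P) j
    (fun l a => a ∈ RingHom.ker (ev (j + l) : P →+* D (j + l)))
    (fun l a ha => ker_ev_le P D u hker ev hev hcompat (j + l) a ha) f hf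
  refine ⟨g, ?_, ?_⟩
  · rw [Ideal.mem_iInf]
    intro i
    have h1 : F i ∈ RingHom.ker (ev i : P →+* D i) :=
      ker_ev_antitone P D u ev hcompat (show i ≤ j + i by omega) (hFQ i)
    have h2 : g - F i ∈ RingHom.ker (ev i : P →+* D i) :=
      pow_le_ker_ev P D hlev ev hev i (Ideal.pow_le_pow_right (by omega) (hgF i))
    have : g = (g - F i) + F i := by ring
    rw [this]
    exact Ideal.add_mem _ h2 h1
  · have := hgF 0
    rwa [hF0] at this

omit [IsNoetherianRing P] in
include hev hker hlev hcompat in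
/-- Compatible families lift to `P`. -/
theorem exists_lift_compatible (x : ∀ j, D j) (hx : ∀ j, u j (x (j + 1)) = x j) :
    ∃ g : P, ∀ j, ev j g = x j := by
  obtain ⟨a0, ha0⟩ := hev 0 (x 0)
  obtain ⟨g, F, -, hFQ, hgF⟩ := exists_seq (maximalIdeal P) 0
    (fun l a => ev l a = x l)
    (fun l a ha => by
      obtain ⟨h, hh⟩ := hev (l + 1) (x (l + 1))
      have h1 : h - a ∈ RingHom.ker (ev l : P →+* D l) := by
        rw [RingHom.mem_ker, RingHom.coe_coe, map_sub, ← hcompat l h, hh, hx, ha, sub_self]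
      obtain ⟨k, hk, hka⟩ := ker_ev_le P D u hker ev hev hcompat l _ h1
      rw [RingHom.mem_ker, RingHom.coe_coe] at hk
      refine ⟨h - k, by rw [map_sub, hk, sub_zero, hh], ?_⟩
      have : h - k - a = -(k - (h - a)) := by ring
      rw [this, zero_add]
      exact Ideal.neg_mem_iff _ |>.mpr hka) a0 ha0
  refine ⟨g, fun j => ?_⟩
  have h2 : g - F j ∈ RingHom.ker (ev j : P →+* D j) :=
    pow_le_ker_ev P D hlev ev hev j (by simpa using hgF j)
  rw [RingHom.mem_ker, RingHom.coe_coe, map_sub, sub_eq_zero] at h2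
  rw [h2, hFQ]

end Presentation

section Assembly

theorem exists_limit_of_presentation {𝒪 : Type} [CommRing 𝒪]
    (P : Type) [CommRing P] [IsLocalRing P] [IsNoetherianRing P]
    [IsAdicComplete (maximalIdeal P) P] [Algebra 𝒪 P] [IsLocalHom (algebraMap 𝒪 P)]
    (hresP : Function.Surjective (residue P ∘ algebraMap 𝒪 P))
    (D : ℕ → Type) [∀ j, CommRing (D j)] [∀ j, IsLocalRing (D j)] [∀ j, Algebra 𝒪 (D j)]
    (u : ∀ j, D (j + 1) →ₐ[𝒪] D j)
    (hker : ∀ j, RingHom.ker (u j : D (j + 1) →+* D j) = maximalIdeal (D (j + 1)) ^ (j + 1))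
    (hlev : ∀ j, maximalIdeal (D j) ^ (j + 1) = ⊥)
    (ev : ∀ j, P →ₐ[𝒪] D j) (hev : ∀ j, Function.Surjective (ev j))
    (hcompat : ∀ j f, u j (ev (j + 1) f) = ev j f) :
    ∃ (R : Type) (_ : CommRing R) (_ : IsLocalRing R) (_ : IsNoetherianRing R)
      (_ : IsAdicComplete (maximalIdeal R) R) (_ : Algebra 𝒪 R)
      (_ : IsLocalHom (algebraMap 𝒪 R)) (π : ∀ j, R →ₐ[𝒪] D j),
      Function.Surjective (residue R ∘ algebraMap 𝒪 R) ∧
      (∀ j, Function.Surjective (π j)) ∧ (∀ j, (u j).comp (π (j + 1)) = π j) ∧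
      (∀ j, RingHom.ker (π j : R →+* D j) = maximalIdeal R ^ (j + 1)) ∧
      (∀ x : ∀ j, D j, (∀ j, u j (x (j + 1)) = x j) → ∃ r : R, ∀ j, π j r = x j) := by
  set K : Ideal P := ⨅ i, RingHom.ker (ev i : P →+* D i) with hK
  have hKle : ∀ j, K ≤ RingHom.ker (ev j : P →+* D j) := fun j => iInf_le _ j
  have hKne : K ≠ ⊤ := by
    intro h
    have h1 : (1 : P) ∈ RingHom.ker (ev 0 : P →+* D 0) := hKle 0 (h ▸ Submodule.mem_top)
    rw [RingHom.mem_ker, map_one] at h1
    exact one_ne_zero h1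
  have : Nontrivial (P ⧸ K) := Ideal.Quotient.nontrivial_iff.mpr hKne
  have : IsLocalRing (P ⧸ K) :=
    IsLocalRing.of_surjective' (Ideal.Quotient.mk K) Ideal.Quotient.mk_surjective
  have hlocmk : IsLocalHom (Ideal.Quotient.mk K) :=
    IsLocalHom.of_surjective (Ideal.Quotient.mk K) Ideal.Quotient.mk_surjective
  have hlocmk' : IsLocalHom (algebraMap P (P ⧸ K)) := hlocmk
  have : Module.Finite P (P ⧸ K) :=
    Module.Finite.of_surjective (Ideal.Quotient.mkₐ P K).toLinearMap
      (Ideal.Quotient.mkₐ_surjective P K)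
  have : IsAdicComplete (maximalIdeal (P ⧸ K)) (P ⧸ K) :=
    IsLocalRing.isAdicComplete_of_module_finite (𝒪 := P) (T := P ⧸ K)
  have : IsLocalHom (algebraMap 𝒪 (P ⧸ K)) := by
    have : algebraMap 𝒪 (P ⧸ K) = (Ideal.Quotient.mk K).comp (algebraMap 𝒪 P) := rfl
    rw [this]
    exact RingHom.isLocalHom_comp _ _
  let π : ∀ j, (P ⧸ K) →ₐ[𝒪] D j := fun j =>
    Ideal.Quotient.liftₐ K (ev j) (fun a ha => by
      have := hKle j ha
      rwa [RingHom.mem_ker] at this)
  have hπ : ∀ j f, π j (Ideal.Quotient.mk K f) = ev j f := fun j f => rfl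
  have hmaxR : maximalIdeal (P ⧸ K) = (maximalIdeal P).map (Ideal.Quotient.mk K) :=
    (IsLocalRing.map_maximalIdeal_of_surjective (Ideal.Quotient.mk K)
      Ideal.Quotient.mk_surjective).symm
  refine ⟨P ⧸ K, inferInstance, inferInstance, inferInstance, inferInstance, inferInstance,
    inferInstance, π, ?_, ?_, ?_, ?_, ?_⟩
  · -- residue surjective
    intro y
    obtain ⟨r, rfl⟩ := residue_surjective y
    obtain ⟨f, rfl⟩ := Ideal.Quotient.mk_surjective r
    obtain ⟨a, ha⟩ := hresP (residue P f)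
    refine ⟨a, ?_⟩
    simp only [Function.comp_apply] at ha ⊢
    have h1 : algebraMap 𝒪 P a - f ∈ maximalIdeal P := by
      rw [← Ideal.Quotient.eq]; exact ha
    have h2 : Ideal.Quotient.mk K (algebraMap 𝒪 P a - f) ∈ maximalIdeal (P ⧸ K) := by
      rw [hmaxR]; exact Ideal.mem_map_of_mem _ h1
    rw [map_sub] at h2
    have : algebraMap 𝒪 (P ⧸ K) a = Ideal.Quotient.mk K (algebraMap 𝒪 P a) := rfl
    rw [this]
    exact Ideal.Quotient.eq.mpr h2
  · intro j y
    obtain ⟨f, rfl⟩ := hev j y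
    exact ⟨Ideal.Quotient.mk K f, hπ j f⟩
  · intro j
    ext r
    obtain ⟨f, rfl⟩ := Ideal.Quotient.mk_surjective r
    simp only [AlgHom.comp_apply, hπ]
    exact hcompat j f
  · intro j
    ext r
    obtain ⟨f, rfl⟩ := Ideal.Quotient.mk_surjective r
    rw [RingHom.mem_ker, RingHom.coe_coe, hπ, hmaxR, ← Ideal.map_pow]
    constructor
    · intro hf
      obtain ⟨g, hg, hgf⟩ := exists_mem_iInf_ker P D u hker hlev ev hev hcompat j f
        (by rw [RingHom.mem_ker, RingHom.coe_coe]; exact hf)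
      have h1 : Ideal.Quotient.mk K f = Ideal.Quotient.mk K (f - g) := by
        rw [map_sub, Ideal.Quotient.eq_zero_iff_mem.mpr hg, sub_zero]
      rw [h1]
      refine Ideal.mem_map_of_mem _ ?_
      have : f - g = -(g - f) := by ring
      rw [this]; exact Ideal.neg_mem_iff _ |>.mpr hgf
    · intro hf
      obtain ⟨g, hg, hgf⟩ := (Ideal.mem_map_iff_of_surjective (Ideal.Quotient.mk K)
        Ideal.Quotient.mk_surjective).mp hf
      have h1 : ev j f = ev j g := by
        rw [← hπ, ← hπ, hgf]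
      rw [h1]
      have := pow_le_ker_ev P D hlev ev hev j hg
      rwa [RingHom.mem_ker, RingHom.coe_coe] at this
  · intro x hx
    obtain ⟨g, hg⟩ := exists_lift_compatible P D u hker hlev ev hev hcompat x hx
    exact ⟨Ideal.Quotient.mk K g, fun j => by rw [hπ, hg]⟩

end Assembly

section Gens

variable {𝒪 : Type} [CommRing 𝒪]
    {D : ℕ → Type} [∀ j, CommRing (D j)] [∀ j, IsLocalRing (D j)] [∀ j, Algebra 𝒪 (D j)]
    (u : ∀ j, D (j + 1) →ₐ[𝒪] D j) (hu : ∀ j, Function.Surjective (u j))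
    {N : ℕ} (e0 : Fin N → D 1)

/-- Compatible lifts of the generators `e0` to all levels `≥ 1`. -/
noncomputable def gen : (j : ℕ) → Fin N → D (j + 1)
  | 0 => e0
  | j + 1 => fun i => Classical.choose (hu (j + 1) (gen j i))

omit [∀ j, IsLocalRing (D j)] in
theorem gen_succ (j : ℕ) (i : Fin N) : u (j + 1) (gen u hu e0 (j + 1) i) = gen u hu e0 j i :=
  Classical.choose_spec (hu (j + 1) (gen u hu e0 j i))

/-- The generators at all levels. -/
noncomputable def xs : (j : ℕ) → Fin N → D j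
  | 0 => fun i => u 0 (e0 i)
  | j + 1 => gen u hu e0 j

theorem xs_compat (j : ℕ) (i : Fin N) : u j (xs u hu e0 (j + 1) i) = xs u hu e0 j i := by
  cases j with
  | zero => rfl
  | succ j => exact gen_succ u hu e0 j i

theorem gen_mem (he0 : ∀ i, e0 i ∈ maximalIdeal (D 1)) (j : ℕ) (i : Fin N) :
    gen u hu e0 j i ∈ maximalIdeal (D (j + 1)) := by
  induction j with
  | zero => exact he0 i
  | succ j ih =>
    rw [mem_maximalIdeal, mem_nonunits_iff] at ih ⊢
    intro h
    apply ih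
    rw [← gen_succ u hu e0 j i]
    exact h.map (u (j + 1))

theorem xs_mem (he0 : ∀ i, e0 i ∈ maximalIdeal (D 1))
    (hker0 : RingHom.ker (u 0 : D 1 →+* D 0) = maximalIdeal (D 1) ^ 1) (j : ℕ) (i : Fin N) :
    xs u hu e0 j i ∈ maximalIdeal (D j) := by
  cases j with
  | zero =>
    have : e0 i ∈ RingHom.ker (u 0 : D 1 →+* D 0) := by
      rw [hker0, pow_one]; exact he0 i
    rw [RingHom.mem_ker] at this
    show u 0 (e0 i) ∈ _
    rw [show u 0 (e0 i) = 0 from this]
    exact Ideal.zero_mem _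
  | succ j => exact gen_mem u hu e0 he0 j i

/-- Every element of the maximal ideal at level `j+1` is congruent to a generator mod `m^2`. -/
theorem exists_gen_sub_mem (he0 : ∀ z ∈ maximalIdeal (D 1), ∃ i, e0 i = z)
    (hker : ∀ j, RingHom.ker (u j : D (j + 1) →+* D j) = maximalIdeal (D (j + 1)) ^ (j + 1))
    (j : ℕ) :
    ∀ z ∈ maximalIdeal (D (j + 1)), ∃ i, z - gen u hu e0 j i ∈ maximalIdeal (D (j + 1)) ^ 2 := by
  induction j with
  | zero =>
    intro z hz
    obtain ⟨i, hi⟩ := he0 z hz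
    exact ⟨i, by rw [show gen u hu e0 0 i = e0 i from rfl, hi, sub_self]; exact Ideal.zero_mem _⟩
  | succ j ih =>
    intro z hz
    have hmap := IsLocalRing.map_maximalIdeal_of_surjective (u (j + 1) : D (j + 2) →+* D (j + 1))
      (hu (j + 1))
    have huz : u (j + 1) z ∈ maximalIdeal (D (j + 1)) := by
      rw [← hmap]; exact Ideal.mem_map_of_mem _ hz
    obtain ⟨i, hi⟩ := ih _ huz
    refine ⟨i, ?_⟩
    rw [← gen_succ u hu e0 j i, ← map_sub, ← hmap, ← Ideal.map_pow] at hi
    obtain ⟨w, hw, hwz⟩ := (Ideal.mem_map_iff_of_surjective (u (j + 1) : D (j + 2) →+* D (j + 1))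
      (hu (j + 1))).mp hi
    have h1 : z - gen u hu e0 (j + 1) i - w ∈ RingHom.ker (u (j + 1) : D (j + 2) →+* D (j + 1)) := by
      rw [RingHom.mem_ker, map_sub, hwz]
      exact sub_self _
    rw [hker] at h1
    have h2 : z - gen u hu e0 (j + 1) i - w ∈ maximalIdeal (D (j + 2)) ^ 2 :=
      Ideal.pow_le_pow_right (by omega) h1
    have : z - gen u hu e0 (j + 1) i = (z - gen u hu e0 (j + 1) i - w) + w := by ring
    rw [this]
    exact Ideal.add_mem _ h2 hw

end Gens

section Final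

theorem isLocalHom_algebraMap_mvPowerSeries (𝒪 : Type*) [CommRing 𝒪] (σ : Type*) :
    IsLocalHom (algebraMap 𝒪 (MvPowerSeries σ 𝒪)) := by
  refine ⟨fun a ha => ?_⟩
  have := ha.map (MvPowerSeries.constantCoeff (σ := σ) (R := 𝒪))
  rwa [MvPowerSeries.algebraMap_apply, Algebra.algebraMap_self, RingHom.id_apply,
    MvPowerSeries.constantCoeff_C] at this

theorem residue_surjective_mvPowerSeries (𝒪 : Type*) [CommRing 𝒪] [IsLocalRing 𝒪] (σ : Type*) :
    Function.Surjective (residue (MvPowerSeries σ 𝒪) ∘ algebraMap 𝒪 (MvPowerSeries σ 𝒪)) := by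
  intro y
  obtain ⟨f, rfl⟩ := residue_surjective y
  refine ⟨MvPowerSeries.constantCoeff f, ?_⟩
  simp only [Function.comp_apply]
  refine Ideal.Quotient.eq.mpr ?_
  rw [mem_maximalIdeal, mem_nonunits_iff, MvPowerSeries.isUnit_iff_constantCoeff]
  rw [map_sub, MvPowerSeries.algebraMap_apply, Algebra.algebraMap_self, RingHom.id_apply,
    MvPowerSeries.constantCoeff_C, sub_self]
  exact not_isUnit_zero

/-- **Step 6.** The inverse limit of a tower of finite local `𝒪`-algebras `D j` with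
`ker (D (j+1) → D j) = m ^ (j+1)` is a complete noetherian local `𝒪`-algebra `R`
with `R / m_R ^ (j+1) = D j`. -/
theorem exists_limit (𝒪 : Type) [CommRing 𝒪] [IsDomain 𝒪] [IsDiscreteValuationRing 𝒪]
    [IsAdicComplete (IsLocalRing.maximalIdeal 𝒪) 𝒪] [Finite (IsLocalRing.ResidueField 𝒪)]
    (D : ℕ → Type) [∀ j, CommRing (D j)] [∀ j, IsLocalRing (D j)] [∀ j, Algebra 𝒪 (D j)]
    [∀ j, Finite (D j)]
    (_hloc : ∀ j, IsLocalHom (algebraMap 𝒪 (D j)))
    (hres : ∀ j, Function.Surjective (IsLocalRing.residue (D j) ∘ algebraMap 𝒪 (D j)))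
    (u : ∀ j, D (j+1) →ₐ[𝒪] D j) (hu : ∀ j, Function.Surjective (u j))
    (hker : ∀ j, RingHom.ker (u j : D (j+1) →+* D j) = IsLocalRing.maximalIdeal (D (j+1)) ^ (j+1))
    (hlev : ∀ j, IsLocalRing.maximalIdeal (D j) ^ (j+1) = ⊥) :
    ∃ (R : Type) (_ : CommRing R) (_ : IsLocalRing R) (_ : IsNoetherianRing R)
      (_ : IsAdicComplete (IsLocalRing.maximalIdeal R) R) (_ : Algebra 𝒪 R)
      (_ : IsLocalHom (algebraMap 𝒪 R)) (π : ∀ j, R →ₐ[𝒪] D j),
      Function.Surjective (IsLocalRing.residue R ∘ algebraMap 𝒪 R) ∧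
      (∀ j, Function.Surjective (π j)) ∧ (∀ j, (u j).comp (π (j+1)) = π j) ∧
      (∀ j, RingHom.ker (π j : R →+* D j) = IsLocalRing.maximalIdeal R ^ (j+1)) ∧
      (∀ x : ∀ j, D j, (∀ j, u j (x (j+1)) = x j) → ∃ r : R, ∀ j, π j r = x j) := by
  classical
  have hfin : Finite (maximalIdeal (D 1)) := inferInstance
  obtain ⟨N, ⟨e⟩⟩ : ∃ N, Nonempty (Fin N ≃ maximalIdeal (D 1)) :=
    ⟨_, ⟨(Finite.equivFin _).symm⟩⟩
  let e0 : Fin N → D 1 := fun i => (e i : D 1)
  have he0 : ∀ i, e0 i ∈ maximalIdeal (D 1) := fun i => (e i).2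
  have he0' : ∀ z ∈ maximalIdeal (D 1), ∃ i, e0 i = z :=
    fun z hz => ⟨e.symm ⟨z, hz⟩, by simp [e0]⟩
  have hxm := xs_mem u hu e0 he0 (hker 0)
  have hnil : ∀ j, ∀ p ∈ MvPolynomial.idealOfVars (Fin N) 𝒪 ^ (j + 1),
      MvPolynomial.aeval (R := 𝒪) (xs u hu e0 j) p = 0 :=
    fun j => aeval_eq_zero_of_mem_pow _ (hxm j) (j + 1) (hlev j)
  let ev : ∀ j, MvPowerSeries (Fin N) 𝒪 →ₐ[𝒪] D j := fun j => evL (xs u hu e0 j) (j + 1) (hnil j)
  have hcompat : ∀ j f, u j (ev (j + 1) f) = ev j f := fun j f =>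
    evL_comp (u j) _ _ _ _ _ _ (xs_compat u hu e0 j) (Nat.le_succ _) f
  have hev : ∀ j, Function.Surjective (ev j) := by
    intro j
    have hrange : (ev j).range = ⊤ := by
      refine subalgebra_eq_top (hres j) (j + 1) (hlev j) _ ?_
      intro z hz
      cases j with
      | zero =>
        have h0 := hlev 0
        rw [zero_add, pow_one] at h0
        rw [h0, Ideal.mem_bot] at hz
        exact ⟨0, Subalgebra.zero_mem _, by rw [hz, sub_zero]; exact Ideal.zero_mem _⟩
      | succ j =>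
        obtain ⟨i, hi⟩ := exists_gen_sub_mem u hu e0 he0' hker j z hz
        exact ⟨_, ⟨MvPowerSeries.X i, evL_X _ _ _ i⟩, hi⟩
    intro y
    have : y ∈ (ev j).range := hrange ▸ Algebra.mem_top
    exact this
  have hcomp : IsAdicComplete (maximalIdeal (MvPowerSeries (Fin N) 𝒪)) (MvPowerSeries (Fin N) 𝒪) :=
    isAdicComplete_mvPowerSeries_fin 𝒪 N
  have hlocP := isLocalHom_algebraMap_mvPowerSeries 𝒪 (Fin N)
  exact exists_limit_of_presentation (MvPowerSeries (Fin N) 𝒪)
    (residue_surjective_mvPowerSeries 𝒪 (Fin N)) D u hker hlev ev hev hcompat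

end Final

end Fermat.Agent.S53.Limit

end
-- ==== END Fermat.Agent.S53.Limit

-- ==== BEGIN Fermat.Agent.S53.NormMat
section

set_option autoImplicit false
set_option linter.unusedSimpArgs false
set_option linter.unusedVariables false

/-!
# S53: normal forms of pairs of `2 × 2` matrices over a local ring (pure matrix algebra)

* `scalar_of_intertwines`: rigidity of normalized pairs.
* `exists_conj_normalized`: existence of the normal form over a Henselian local ring.
-/

namespace Fermat.Agent.S53.NormMat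

open Matrix IsLocalRing Polynomial

variable {A : Type*} [CommRing A]

/-- If `T X = X' T` where both `X` and `X'` send `e₁` to `e₂`, then `T = a + b X'`
with `a = T 0 0`, `b = T 1 0`. -/
theorem eq_add_smul_of_comm (X X' T : Matrix (Fin 2) (Fin 2) A)
    (hX0 : X 0 0 = 0) (hX1 : X 1 0 = 1) (hX0' : X' 0 0 = 0) (hX1' : X' 1 0 = 1)
    (h : T * X = X' * T) :
    T = T 0 0 • (1 : Matrix (Fin 2) (Fin 2) A) + T 1 0 • X' := by
  have h0 := congrFun (congrFun h 0) 0
  have h1 := congrFun (congrFun h 1) 0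
  simp only [Matrix.mul_apply, Fin.sum_univ_two, hX0, hX1, hX0', hX1'] at h0 h1
  ext i j
  fin_cases i <;> fin_cases j
  · simp [hX0']
  · simp; linear_combination h0
  · simp [hX1']
  · simp; linear_combination h1

variable [IsLocalRing A]

omit [IsLocalRing A] in
theorem isUnit_of_sub_mem_of_isUnit [IsLocalRing A] {x y : A} (h : x - y ∈ maximalIdeal A)
    (hy : IsUnit y) : IsUnit x := by
  by_contra hnu
  have hm : x ∈ maximalIdeal A := (mem_maximalIdeal _).mpr hnu
  have : y ∈ maximalIdeal A := by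
    have := sub_mem hm h
    simpa using this
  exact ((mem_maximalIdeal _).mp this) hy

/-- Rigidity: two normalised pairs `(X, Y)`, `(X', Y')` (with `X e₁ = e₂ = X' e₁`, `Y ≡ Y'` modulo
the maximal ideal, one common entry `Y i₀ j₀ = Y' i₀ j₀` at which the commutator `[Y', X']` is a
unit) can only be intertwined by a scalar matrix. -/
theorem scalar_of_intertwines (X X' Y Y' T : Matrix (Fin 2) (Fin 2) A)
    (hX0 : X 0 0 = 0) (hX1 : X 1 0 = 1) (hX0' : X' 0 0 = 0) (hX1' : X' 1 0 = 1)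
    (i₀ j₀ : Fin 2) (hY : ∀ i j, Y i j - Y' i j ∈ maximalIdeal A)
    (hN2 : Y i₀ j₀ = Y' i₀ j₀)
    (hu : IsUnit ((Y' * X' - X' * Y') i₀ j₀))
    (hTX : T * X = X' * T) (hTY : T * Y = Y' * T) :
    T = T 0 0 • (1 : Matrix (Fin 2) (Fin 2) A) := by
  have hT := eq_add_smul_of_comm X X' T hX0 hX1 hX0' hX1' hTX
  set a := T 0 0 with ha
  set b := T 1 0 with hb
  -- the key identity: a (Y - Y') = b (Y' X' - X' Y)
  have key : a • (Y - Y') = b • (Y' * X' - X' * Y) := by
    have h1 : T * Y - Y' * T = 0 := sub_eq_zero.mpr hTY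
    rw [hT] at h1
    have : (a • (1 : Matrix (Fin 2) (Fin 2) A) + b • X') * Y - Y' * (a • 1 + b • X')
        = a • (Y - Y') - b • (Y' * X' - X' * Y) := by
      simp only [add_mul, mul_add, smul_mul_assoc, mul_smul_comm, one_mul, mul_one, smul_sub]
      abel
    rw [this] at h1
    exact sub_eq_zero.mp h1
  have key00 := congrFun (congrFun key i₀) j₀
  simp only [Matrix.smul_apply, Matrix.sub_apply, smul_eq_mul, hN2, sub_self, mul_zero] at key00
  -- the entry `(Y' X' - X' Y) i₀ j₀` is a unit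
  have hunit : IsUnit ((Y' * X' - X' * Y) i₀ j₀) := by
    refine isUnit_of_sub_mem_of_isUnit ?_ hu
    have : (Y' * X' - X' * Y) i₀ j₀ - (Y' * X' - X' * Y') i₀ j₀
        = -(X' i₀ 0 * (Y 0 j₀ - Y' 0 j₀) + X' i₀ 1 * (Y 1 j₀ - Y' 1 j₀)) := by
      simp only [Matrix.sub_apply, Matrix.mul_apply, Fin.sum_univ_two]
      ring
    rw [this]
    exact neg_mem (add_mem (Ideal.mul_mem_left _ _ (hY 0 j₀)) (Ideal.mul_mem_left _ _ (hY 1 j₀)))
  have hb0 : b = 0 := by
    have h2 : b * (Y' * X' - X' * Y) i₀ j₀ = 0 := by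
      have := key00.symm
      simpa [Matrix.sub_apply] using this
    exact (hunit.mul_left_eq_zero).mp h2
  rw [hT, hb0, zero_smul, add_zero]

/-- Solving a quadratic equation with small constant term and invertible linear term in a
Henselian local ring. -/
theorem exists_root_quadratic [HenselianRing A (maximalIdeal A)] (p₀ p₁ p₂ : A)
    (h₀ : p₀ ∈ maximalIdeal A) (h₁ : IsUnit p₁) :
    ∃ b ∈ maximalIdeal A, p₀ + p₁ * b + p₂ * b ^ 2 = 0 := by
  obtain ⟨u, rfl⟩ := h₁
  set ε : A := p₂ * p₀ * (↑u⁻¹ : A) ^ 2 with hε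
  have hεm : ε ∈ maximalIdeal A := by
    rw [hε]
    have : p₂ * p₀ * (↑u⁻¹ : A) ^ 2 = (p₂ * (↑u⁻¹ : A) ^ 2) * p₀ := by ring
    rw [this]
    exact Ideal.mul_mem_left _ _ h₀
  -- the monic polynomial `w² - w + ε`
  let f : A[X] := X ^ 2 - X + C ε
  have hf : f.Monic := by
    have : f = X ^ 2 + (-(X : A[X]) + C ε) := by simp only [f]; ring
    rw [this]
    apply Polynomial.monic_X_pow_add
    have hdeg : (-(X : A[X]) + C ε).degree ≤ 1 := by
      refine (Polynomial.degree_add_le _ _).trans (max_le ?_ ?_)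
      · rw [Polynomial.degree_neg]; exact Polynomial.degree_X_le
      · exact (Polynomial.degree_C_le).trans (by norm_num)
    exact lt_of_le_of_lt hdeg (by norm_num)
  have hev : f.eval 1 ∈ maximalIdeal A := by
    simp only [f, eval_add, eval_sub, eval_pow, eval_X, eval_C]
    simpa using hεm
  have hder : IsUnit (Ideal.Quotient.mk (maximalIdeal A) (f.derivative.eval 1)) := by
    have : f.derivative.eval 1 = 1 := by
      simp only [f, derivative_add, derivative_sub, derivative_X_pow, derivative_X, derivative_C,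
        eval_add, eval_sub, eval_mul, eval_pow, eval_X, eval_C, eval_one]
      norm_num
    rw [this, map_one]
    exact isUnit_one
  obtain ⟨w, hw, hw1⟩ := HenselianRing.is_henselian f hf 1 hev hder
  have hwroot : w ^ 2 - w + ε = 0 := by
    have := hw
    simp only [f, IsRoot.def, eval_add, eval_sub, eval_pow, eval_X, eval_C] at this
    exact this
  have hwu : IsUnit w := isUnit_of_sub_mem_of_isUnit hw1 isUnit_one
  obtain ⟨v, rfl⟩ := hwu
  refine ⟨-(p₀ * (↑v⁻¹ : A) * (↑u⁻¹ : A)), ?_, ?_⟩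
  · apply neg_mem
    have : p₀ * (↑v⁻¹ : A) * (↑u⁻¹ : A) = ((↑v⁻¹ : A) * (↑u⁻¹ : A)) * p₀ := by ring
    rw [this]
    exact Ideal.mul_mem_left _ _ h₀
  · have hu1 : (u : A) * (↑u⁻¹ : A) = 1 := Units.mul_inv u
    have hv1 : (v : A) * (↑v⁻¹ : A) = 1 := Units.mul_inv v
    have e1 : (↑u : A) * (-(p₀ * (↑v⁻¹ : A) * (↑u⁻¹ : A))) = -(p₀ * (↑v⁻¹ : A)) := by
      linear_combination (-(p₀ * (↑v⁻¹ : A))) * hu1
    have e2 : p₂ * (-(p₀ * (↑v⁻¹ : A) * (↑u⁻¹ : A))) ^ 2 = p₀ * (↑v⁻¹ : A) ^ 2 * ε := by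
      rw [hε]; ring
    rw [e1, e2]
    -- p₀ - p₀ v⁻¹ + p₀ v⁻² ε = p₀ v⁻² (v² - v + ε)
    have : p₀ + -(p₀ * (↑v⁻¹ : A)) + p₀ * (↑v⁻¹ : A) ^ 2 * ε
        = p₀ * (↑v⁻¹ : A) ^ 2 * ((v : A) ^ 2 - v + ε)
          + p₀ * (1 - ((v : A) * (↑v⁻¹ : A)) ^ 2)
          + p₀ * (↑v⁻¹ : A) * ((v : A) * (↑v⁻¹ : A) - 1) := by ring
    rw [this, hwroot, hv1]
    ring


omit [IsLocalRing A] in
theorem mul_entries_mem_of_right (I : Ideal A) (M N : Matrix (Fin 2) (Fin 2) A)
    (hN : ∀ i j, N i j ∈ I) (i j : Fin 2) : (M * N) i j ∈ I := by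
  rw [Matrix.mul_apply]
  exact Ideal.sum_mem _ fun k _ => Ideal.mul_mem_left _ _ (hN k j)

omit [IsLocalRing A] in
theorem mul_entries_mem_of_left (I : Ideal A) (M N : Matrix (Fin 2) (Fin 2) A)
    (hM : ∀ i j, M i j ∈ I) (i j : Fin 2) : (M * N) i j ∈ I := by
  rw [Matrix.mul_apply]
  exact Ideal.sum_mem _ fun k _ => Ideal.mul_mem_right _ _ (hM i k)

omit [IsLocalRing A] in
/-- Conjugating by matrices congruent to `1` modulo `I` does not change a matrix modulo `I`. -/
theorem conj_sub_mem (I : Ideal A) (S S' M : Matrix (Fin 2) (Fin 2) A)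
    (hS : ∀ i j, (S - 1) i j ∈ I) (hS' : ∀ i j, (S' - 1) i j ∈ I) (i j : Fin 2) :
    (S' * M * S - M) i j ∈ I := by
  have : S' * M * S - M = (S' - 1) * (M * S) + M * (S - 1) := by
    simp only [sub_mul, mul_sub, one_mul, mul_one, Matrix.mul_assoc]
    abel
  rw [this, Matrix.add_apply]
  exact add_mem (mul_entries_mem_of_left I _ _ hS' i j) (mul_entries_mem_of_right I _ _ hS i j)

/-- Step 1 of the normalization: make the first column of `X` equal to `e₂`. -/
theorem exists_conj_col (X : Matrix (Fin 2) (Fin 2) A) (hX00 : X 0 0 ∈ maximalIdeal A)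
    (hX10 : X 1 0 - 1 ∈ maximalIdeal A) :
    ∃ S S' : Matrix (Fin 2) (Fin 2) A, S * S' = 1 ∧ S' * S = 1 ∧
      (∀ i j, (S - 1) i j ∈ maximalIdeal A) ∧ (∀ i j, (S' - 1) i j ∈ maximalIdeal A) ∧
      (S' * X * S) 0 0 = 0 ∧ (S' * X * S) 1 0 = 1 := by
  have hu : IsUnit (X 1 0) := isUnit_of_sub_mem_of_isUnit hX10 isUnit_one
  obtain ⟨u, hu'⟩ := hu
  have h1 : X 1 0 * (↑u⁻¹ : A) = 1 := by rw [← hu']; exact Units.mul_inv u
  have hinv : (↑u⁻¹ : A) - 1 ∈ maximalIdeal A := by
    have : (↑u⁻¹ : A) - 1 = -(↑u⁻¹ : A) * (X 1 0 - 1) := by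
      linear_combination (1 : A) * h1
    rw [this]
    exact Ideal.mul_mem_left _ _ hX10
  generalize (↑u⁻¹ : A) = v at h1 hinv
  refine ⟨!![1, X 0 0; 0, X 1 0], !![1, -(X 0 0 * v); 0, v], ?_, ?_, ?_, ?_, ?_, ?_⟩
  · ext i j
    fin_cases i <;> fin_cases j <;>
    simp only [Fin.zero_eta, Fin.mk_one, Fin.isValue, Matrix.mul_apply, Fin.sum_univ_two,
      Matrix.sub_apply, Matrix.add_apply, Matrix.smul_apply, smul_eq_mul, Matrix.of_apply,
      Matrix.cons_val', Matrix.cons_val_zero, Matrix.cons_val_one, Matrix.cons_val_fin_one,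
      Matrix.one_apply_eq, Matrix.one_apply_ne, ne_eq, zero_ne_one, one_ne_zero,
      not_false_eq_true, sub_zero]
    · ring
    · linear_combination (0 : A) * h1
    · ring
    · linear_combination h1
  · ext i j
    fin_cases i <;> fin_cases j <;>
    simp only [Fin.zero_eta, Fin.mk_one, Fin.isValue, Matrix.mul_apply, Fin.sum_univ_two,
      Matrix.sub_apply, Matrix.add_apply, Matrix.smul_apply, smul_eq_mul, Matrix.of_apply,
      Matrix.cons_val', Matrix.cons_val_zero, Matrix.cons_val_one, Matrix.cons_val_fin_one,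
      Matrix.one_apply_eq, Matrix.one_apply_ne, ne_eq, zero_ne_one, one_ne_zero,
      not_false_eq_true, sub_zero]
    · ring
    · linear_combination (-(X 0 0)) * h1
    · ring
    · linear_combination h1
  · intro i j
    fin_cases i <;> fin_cases j <;>
    simp only [Fin.zero_eta, Fin.mk_one, Fin.isValue, Matrix.mul_apply, Fin.sum_univ_two,
      Matrix.sub_apply, Matrix.add_apply, Matrix.smul_apply, smul_eq_mul, Matrix.of_apply,
      Matrix.cons_val', Matrix.cons_val_zero, Matrix.cons_val_one, Matrix.cons_val_fin_one,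
      Matrix.one_apply_eq, Matrix.one_apply_ne, ne_eq, zero_ne_one, one_ne_zero,
      not_false_eq_true, sub_zero]
    · simp
    · exact hX00
    · simp
    · exact hX10
  · intro i j
    fin_cases i <;> fin_cases j <;>
    simp only [Fin.zero_eta, Fin.mk_one, Fin.isValue, Matrix.mul_apply, Fin.sum_univ_two,
      Matrix.sub_apply, Matrix.add_apply, Matrix.smul_apply, smul_eq_mul, Matrix.of_apply,
      Matrix.cons_val', Matrix.cons_val_zero, Matrix.cons_val_one, Matrix.cons_val_fin_one,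
      Matrix.one_apply_eq, Matrix.one_apply_ne, ne_eq, zero_ne_one, one_ne_zero,
      not_false_eq_true, sub_zero]
    · simp
    · exact neg_mem (Ideal.mul_mem_right _ _ hX00)
    · simp
    · exact hinv
  · simp only [Fin.zero_eta, Fin.mk_one, Fin.isValue, Matrix.mul_apply, Fin.sum_univ_two,
      Matrix.sub_apply, Matrix.add_apply, Matrix.smul_apply, smul_eq_mul, Matrix.of_apply,
      Matrix.cons_val', Matrix.cons_val_zero, Matrix.cons_val_one, Matrix.cons_val_fin_one,
      Matrix.one_apply_eq, Matrix.one_apply_ne, ne_eq, zero_ne_one, one_ne_zero,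
      not_false_eq_true, sub_zero]
    linear_combination (-(X 0 0)) * h1
  · simp only [Fin.zero_eta, Fin.mk_one, Fin.isValue, Matrix.mul_apply, Fin.sum_univ_two,
      Matrix.sub_apply, Matrix.add_apply, Matrix.smul_apply, smul_eq_mul, Matrix.of_apply,
      Matrix.cons_val', Matrix.cons_val_zero, Matrix.cons_val_one, Matrix.cons_val_fin_one,
      Matrix.one_apply_eq, Matrix.one_apply_ne, ne_eq, zero_ne_one, one_ne_zero,
      not_false_eq_true, sub_zero]
    linear_combination h1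


/-- Step 2 of the normalization: if `X e₁ = e₂`, conjugate by `1 + b X` (which commutes with
`X`) to give the `(i₀, j₀)` entry of `Y` a prescribed value `c ≡ Y i₀ j₀`. -/
theorem exists_conj_entry [HenselianRing A (maximalIdeal A)] (X Y : Matrix (Fin 2) (Fin 2) A)
    (hX0 : X 0 0 = 0) (hX1 : X 1 0 = 1) (i₀ j₀ : Fin 2)
    (hu : IsUnit ((Y * X - X * Y) i₀ j₀)) (c : A) (hc : Y i₀ j₀ - c ∈ maximalIdeal A) :
    ∃ U U' : Matrix (Fin 2) (Fin 2) A, U * U' = 1 ∧ U' * U = 1 ∧
      (∀ i j, (U - 1) i j ∈ maximalIdeal A) ∧ (∀ i j, (U' - 1) i j ∈ maximalIdeal A) ∧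
      U' * X * U = X ∧ (U' * Y * U) i₀ j₀ = c := by
  -- coefficients of the quadratic equation for `b`
  set p₀ : A := Y i₀ j₀ - c with hp₀
  set p₁ : A := (adjugate X * Y + Y * X) i₀ j₀ - c * X.trace with hp₁
  set p₂ : A := (adjugate X * Y * X) i₀ j₀ - c * X.det with hp₂
  have hp₁u : IsUnit p₁ := by
    refine isUnit_of_sub_mem_of_isUnit ?_ hu
    have : p₁ - (Y * X - X * Y) i₀ j₀ = X.trace * (Y i₀ j₀ - c) := by
      rw [hp₁]
      fin_cases i₀ <;> fin_cases j₀ <;>
      simp only [Fin.zero_eta, Fin.mk_one, Fin.isValue, Matrix.mul_apply, Fin.sum_univ_two,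
      Matrix.sub_apply, Matrix.add_apply, Matrix.smul_apply, smul_eq_mul, Matrix.of_apply,
      Matrix.cons_val', Matrix.cons_val_zero, Matrix.cons_val_one, Matrix.cons_val_fin_one,
      Matrix.one_apply_eq, Matrix.one_apply_ne, ne_eq, zero_ne_one, one_ne_zero,
      not_false_eq_true, sub_zero, Matrix.adjugate_fin_two, Matrix.det_fin_two,
      Matrix.trace_fin_two, Matrix.neg_apply] <;> ring
    rw [this]
    exact Ideal.mul_mem_left _ _ hc
  obtain ⟨b, hb, hroot⟩ := exists_root_quadratic p₀ p₁ p₂ hc hp₁u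
  set U : Matrix (Fin 2) (Fin 2) A := 1 + b • X with hU
  have hdet : U.det = 1 + b * (X.trace + b * X.det) := by
    rw [hU]
    simp only [Fin.zero_eta, Fin.mk_one, Fin.isValue, Matrix.mul_apply, Fin.sum_univ_two,
      Matrix.sub_apply, Matrix.add_apply, Matrix.smul_apply, smul_eq_mul, Matrix.of_apply,
      Matrix.cons_val', Matrix.cons_val_zero, Matrix.cons_val_one, Matrix.cons_val_fin_one,
      Matrix.one_apply_eq, Matrix.one_apply_ne, ne_eq, zero_ne_one, one_ne_zero,
      not_false_eq_true, sub_zero, Matrix.adjugate_fin_two, Matrix.det_fin_two,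
      Matrix.trace_fin_two, Matrix.neg_apply]
    ring
  have hdetu : IsUnit U.det := by
    refine isUnit_of_sub_mem_of_isUnit (y := 1) ?_ isUnit_one
    rw [hdet]
    have : 1 + b * (X.trace + b * X.det) - 1 = (X.trace + b * X.det) * b := by ring
    rw [this]
    exact Ideal.mul_mem_left _ _ hb
  have hUm : ∀ i j, (U - 1) i j ∈ maximalIdeal A := by
    intro i j
    have : (U - 1) i j = X i j * b := by
      rw [hU]; simp [mul_comm]
    rw [this]
    exact Ideal.mul_mem_left _ _ hb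
  have hUU' : U * U⁻¹ = 1 := Matrix.mul_nonsing_inv U hdetu
  have hU'U : U⁻¹ * U = 1 := Matrix.nonsing_inv_mul U hdetu
  have hU'm : ∀ i j, (U⁻¹ - 1) i j ∈ maximalIdeal A := by
    intro i j
    have : U⁻¹ - 1 = U⁻¹ * (-(U - 1)) := by
      rw [mul_neg, mul_sub, hU'U, mul_one]; abel
    rw [this]
    exact mul_entries_mem_of_right _ _ _ (fun i j => by
      rw [Matrix.neg_apply]; exact neg_mem (hUm i j)) i j
  have hcomm : X * U = U * X := by
    rw [hU]; simp only [mul_add, add_mul, mul_one, one_mul, mul_smul_comm, smul_mul_assoc]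
  refine ⟨U, U⁻¹, hUU', hU'U, hUm, hU'm, ?_, ?_⟩
  · rw [Matrix.mul_assoc, hcomm, ← Matrix.mul_assoc, hU'U, one_mul]
  · -- the key polynomial identity
    have hpoly : (adjugate U * Y * U) i₀ j₀ - c * U.det = p₀ + p₁ * b + p₂ * b ^ 2 := by
      rw [hp₀, hp₁, hp₂, hU]
      fin_cases i₀ <;> fin_cases j₀ <;>
      simp only [Fin.zero_eta, Fin.mk_one, Fin.isValue, Matrix.mul_apply, Fin.sum_univ_two,
      Matrix.sub_apply, Matrix.add_apply, Matrix.smul_apply, smul_eq_mul, Matrix.of_apply,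
      Matrix.cons_val', Matrix.cons_val_zero, Matrix.cons_val_one, Matrix.cons_val_fin_one,
      Matrix.one_apply_eq, Matrix.one_apply_ne, ne_eq, zero_ne_one, one_ne_zero,
      not_false_eq_true, sub_zero, Matrix.adjugate_fin_two, Matrix.det_fin_two,
      Matrix.trace_fin_two, Matrix.neg_apply] <;> ring
    have hadj : (adjugate U * Y * U) i₀ j₀ = c * U.det := by
      have := hpoly
      rw [hroot] at this
      exact sub_eq_zero.mp this
    obtain ⟨d, hd⟩ := hdetu
    have hinv : U⁻¹ = (↑d⁻¹ : A) • adjugate U := by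
      rw [Matrix.inv_def, ← hd, Ring.inverse_unit]
    rw [hinv, Matrix.smul_mul, Matrix.smul_mul, Matrix.smul_apply, hadj, ← hd, smul_eq_mul]
    rw [mul_comm c, ← mul_assoc, Units.inv_mul, one_mul]


/-- Existence of the normal form: over a Henselian local ring, a pair `(X, Y)` with
`X e₁ ≡ e₂` and with commutator entry `[Y, X] i₀ j₀` a unit is conjugate, by a matrix congruent
to `1`, to a pair `(X', Y')` with `X' e₁ = e₂` and `Y' i₀ j₀ = c` (any `c ≡ Y i₀ j₀`). -/
theorem exists_conj_normalized [HenselianRing A (maximalIdeal A)]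
    (X Y : Matrix (Fin 2) (Fin 2) A)
    (hX00 : X 0 0 ∈ maximalIdeal A) (hX10 : X 1 0 - 1 ∈ maximalIdeal A) (i₀ j₀ : Fin 2)
    (hu : IsUnit ((Y * X - X * Y) i₀ j₀)) (c : A) (hc : Y i₀ j₀ - c ∈ maximalIdeal A) :
    ∃ T T' : Matrix (Fin 2) (Fin 2) A, T * T' = 1 ∧ T' * T = 1 ∧
      (∀ i j, (T - 1) i j ∈ maximalIdeal A) ∧
      (T * X * T') 0 0 = 0 ∧ (T * X * T') 1 0 = 1 ∧ (T * Y * T') i₀ j₀ = c := by
  obtain ⟨S, S', hSS', hS'S, hSm, hS'm, h00, h10⟩ := exists_conj_col X hX00 hX10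
  set X₁ := S' * X * S with hX₁
  set Y₁ := S' * Y * S with hY₁
  have hu₁ : IsUnit ((Y₁ * X₁ - X₁ * Y₁) i₀ j₀) := by
    refine isUnit_of_sub_mem_of_isUnit ?_ hu
    have : Y₁ * X₁ - X₁ * Y₁ = S' * (Y * X - X * Y) * S := by
      rw [hX₁, hY₁]
      have e1 : S' * Y * S * (S' * X * S) = S' * (Y * X) * S := by
        calc S' * Y * S * (S' * X * S) = S' * Y * (S * S') * X * S := by
              simp only [Matrix.mul_assoc]
          _ = S' * (Y * X) * S := by rw [hSS']; simp only [Matrix.mul_assoc, Matrix.mul_one]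
      have e2 : S' * X * S * (S' * Y * S) = S' * (X * Y) * S := by
        calc S' * X * S * (S' * Y * S) = S' * X * (S * S') * Y * S := by
              simp only [Matrix.mul_assoc]
          _ = S' * (X * Y) * S := by rw [hSS']; simp only [Matrix.mul_assoc, Matrix.mul_one]
      rw [e1, e2, Matrix.mul_sub, Matrix.sub_mul]
    rw [this]
    have := conj_sub_mem (maximalIdeal A) S S' (Y * X - X * Y) hSm hS'm i₀ j₀
    rwa [Matrix.sub_apply] at this
  have hc₁ : Y₁ i₀ j₀ - c ∈ maximalIdeal A := by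
    have h1 := conj_sub_mem (maximalIdeal A) S S' Y hSm hS'm i₀ j₀
    rw [Matrix.sub_apply] at h1
    have : Y₁ i₀ j₀ - c = (S' * Y * S) i₀ j₀ - Y i₀ j₀ + (Y i₀ j₀ - c) := by
      rw [hY₁]; ring
    rw [this]
    exact add_mem h1 hc
  obtain ⟨U, U', hUU', hU'U, hUm, hU'm, hUX, hUY⟩ :=
    exists_conj_entry X₁ Y₁ h00 h10 i₀ j₀ hu₁ c hc₁
  refine ⟨U' * S', S * U, ?_, ?_, ?_, ?_, ?_, ?_⟩
  · calc U' * S' * (S * U) = U' * (S' * S) * U := by simp only [Matrix.mul_assoc]
      _ = 1 := by rw [hS'S, Matrix.mul_one, hU'U]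
  · calc S * U * (U' * S') = S * (U * U') * S' := by simp only [Matrix.mul_assoc]
      _ = 1 := by rw [hUU', Matrix.mul_one, hSS']
  · intro i j
    have : U' * S' - 1 = (U' - 1) * S' + (S' - 1) := by
      rw [Matrix.sub_mul, Matrix.one_mul]; abel
    rw [this, Matrix.add_apply]
    exact add_mem (mul_entries_mem_of_left _ _ _ hU'm i j) (hS'm i j)
  · have : U' * S' * X * (S * U) = U' * X₁ * U := by
      rw [hX₁]; simp only [Matrix.mul_assoc]
    rw [this, hUX]; exact h00
  · have : U' * S' * X * (S * U) = U' * X₁ * U := by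
      rw [hX₁]; simp only [Matrix.mul_assoc]
    rw [this, hUX]; exact h10
  · have : U' * S' * Y * (S * U) = U' * Y₁ * U := by
      rw [hY₁]; simp only [Matrix.mul_assoc]
    rw [this]; exact hUY

end Fermat.Agent.S53.NormMat

end
-- ==== END Fermat.Agent.S53.NormMat

-- ==== BEGIN Fermat.Agent.S55.CFT.Defs
section

set_option autoImplicit false

open CategoryTheory groupCohomology

namespace Fermat.Agent.S55.CFT

/-! ### Island TN: Tate's theorem (pure algebra on Mathlib's `groupCohomology`) -/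

/-- Restriction of a representation to a subgroup. -/
noncomputable abbrev resSub {G : Type} [Group G] (A : Rep ℤ G) (H : Subgroup G) : Rep ℤ H :=
  Rep.res H.subtype A

/-- The restriction map `Hⁿ(G, A) → Hⁿ(H, A)`. -/
noncomputable abbrev resMap {G : Type} [Group G] (A : Rep ℤ G) (H : Subgroup G) (n : ℕ) :
    groupCohomology A n →ₗ[ℤ] groupCohomology (resSub A H) n :=
  (groupCohomology.map H.subtype (𝟙 (resSub A H)) n).hom

/-- **TN-1** (twin vanishing; Serre, Local Fields IX §5 Thm 8): if `H¹(H, A) = H²(H, A) = 0`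
for every subgroup `H` of the finite group `G`, then `Hⁿ(H, A) = 0` for all `n ≥ 1` and all `H`. -/
def Stmt_TwinVanishing : Prop :=
  ∀ (G : Type) [Group G] [Finite G] (A : Rep ℤ G),
    (∀ H : Subgroup G, Subsingleton (groupCohomology (resSub A H) 1)) →
    (∀ H : Subgroup G, Subsingleton (groupCohomology (resSub A H) 2)) →
    ∀ (H : Subgroup G) (n : ℕ), 0 < n → Subsingleton (groupCohomology (resSub A H) n)

/-- **TN-2** (Tate; Serre, Local Fields IX §8 Thm 13, degree 3 only): if `H¹(H, C) = 0` and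
`H²(H, C)` is cyclic of order `|H|`, generated by the restriction of a fixed class `γ`, for
every subgroup `H` of the finite group `G`, then `H³(H, C) = 0` for every `H`. -/
def Stmt_TateH3 : Prop :=
  ∀ (G : Type) [Group G] [Finite G] (C : Rep ℤ G) (γ : groupCohomology C 2),
    (∀ H : Subgroup G, Subsingleton (groupCohomology (resSub C H) 1)) →
    (∀ H : Subgroup G, Nat.card (groupCohomology (resSub C H) 2) = Nat.card H ∧
      ∀ x : groupCohomology (resSub C H) 2, ∃ n : ℤ, x = n • resMap C H 2 γ) →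
    ∀ H : Subgroup G, Subsingleton (groupCohomology (resSub C H) 3)

/-! ### Island LOC: local fields (finite extensions of `ℚ_q`, abstract) -/

/-- The subgroup of norms `N_{E/F}(Eˣ) ≤ Fˣ`. -/
noncomputable abbrev normSubgroup (F E : Type) [Field F] [Field E] [Algebra F E] : Subgroup Fˣ :=
  (Units.map (Algebra.norm F : E →* F)).range

/-- **LOC-3** (local norm index; Serre, Local Fields XIII §4 / Cassels–Fröhlich VI §1.4):
for a Galois extension `E/F` of prime degree `ℓ` of finite extensions of `ℚ_q`,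
`[Fˣ : N_{E/F} Eˣ] = ℓ`. -/
def Stmt_LocalNormIndex : Prop :=
  ∀ (q : ℕ) [Fact q.Prime] (F E : Type) [Field F] [Field E] [Algebra ℚ_[q] F]
    [FiniteDimensional ℚ_[q] F] [Algebra F E] [FiniteDimensional F E] [IsGalois F E] (ℓ : ℕ),
    ℓ.Prime → Module.finrank F E = ℓ → (normSubgroup F E).index = ℓ

/-- **LOC-1a** (finiteness of `Fˣ/Fˣⁿ`): for a finite extension `F` of `ℚ_q` and `n ≥ 1` the
subgroup of `n`-th powers has finite index. -/
def Stmt_LocalPowIndexFinite : Prop :=
  ∀ (q : ℕ) [Fact q.Prime] (F : Type) [Field F] [Algebra ℚ_[q] F] [FiniteDimensional ℚ_[q] F]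
    (n : ℕ), 0 < n → (powMonoidHom n : Fˣ →* Fˣ).range.index ≠ 0

/-- **LOC-1b** (size of `Fˣ/Fˣᵖ` when `μ_p ⊆ F`; Serre, Local Fields XIV §? / Neukirch II.5.8):
if `F` contains a primitive `p`-th root of unity, then `[Fˣ : Fˣᵖ] = p ^ (2 + [F : ℚ_q])` when
`q = p`, and `= p ^ 2` when `q ≠ p`. -/
def Stmt_LocalPowIndex : Prop :=
  ∀ (q : ℕ) [Fact q.Prime] (F : Type) [Field F] [Algebra ℚ_[q] F] [FiniteDimensional ℚ_[q] F]
    (p : ℕ), p.Prime → (∃ ζ : F, IsPrimitiveRoot ζ p) →
    (powMonoidHom p : Fˣ →* Fˣ).range.index =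
      if q = p then p ^ (2 + Module.finrank ℚ_[q] F) else p ^ 2

/-! ### Island GLB: S-units -/

open NumberField IsDedekindDomain in
/-- **GLB-1** (Dirichlet's S-unit theorem, in index form): for a number field `K` and a finite
set `S` of primes of `𝓞 K`, the group `U` of `S`-units is finitely generated and, for every
prime `p`, `[U : Uᵖ] = p ^ (r + #S + t)` with `r = NumberField.Units.rank K` and `t = 1` if `K`
contains a primitive `p`-th root of unity, `t = 0` otherwise. -/
def Stmt_SUnitRank : Prop :=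
  ∀ (K : Type) [Field K] [NumberField K] (S : Finset (HeightOneSpectrum (𝓞 K))),
    Group.FG ((S : Set (HeightOneSpectrum (𝓞 K))).unit K) ∧
    ∀ p : ℕ, p.Prime →
      ((∃ ζ : K, IsPrimitiveRoot ζ p) →
        (powMonoidHom p : ((S : Set (HeightOneSpectrum (𝓞 K))).unit K) →*
          ((S : Set (HeightOneSpectrum (𝓞 K))).unit K)).range.index =
        p ^ (NumberField.Units.rank K + S.card + 1)) ∧
      ((¬ ∃ ζ : K, IsPrimitiveRoot ζ p) →
        (powMonoidHom p : ((S : Set (HeightOneSpectrum (𝓞 K))).unit K) →*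
          ((S : Set (HeightOneSpectrum (𝓞 K))).unit K)).range.index =
        p ^ (NumberField.Units.rank K + S.card))

end Fermat.Agent.S55.CFT

end
-- ==== END Fermat.Agent.S55.CFT.Defs

-- ==== BEGIN Fermat.Agent.S55.CFT.H12_DescentNorm
section

set_option autoImplicit false

namespace Fermat.Agent.S55.CFT.H12

open Module

/-- Norm as product of conjugates, for a finite free algebra with a family of endomorphisms whose
conjugate matrix on a basis is invertible. -/
theorem algebraMap_norm_eq_prod_of_conj {A B G : Type*} [CommRing A] [CommRing B] [Algebra A B]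
    [Fintype G] [DecidableEq G] (β : Basis G A B) (φ : G → (B →+* B))
    (hφ : ∀ σ a, φ σ (algebraMap A B a) = algebraMap A B a)
    (hdet : IsUnit (Matrix.det (Matrix.of fun σ τ => φ σ (β τ)))) (y : B) :
    algebraMap A B (Algebra.norm A y) = ∏ σ, φ σ y := by
  set M : Matrix G G B := Matrix.of fun σ τ => φ σ (β τ) with hM
  set Y : Matrix G G A := Algebra.leftMulMatrix β y with hY
  set D : Matrix G G B := Matrix.diagonal fun σ => φ σ y with hD
  have hmul : D * M = M * Y.map (algebraMap A B) := by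
    ext σ j
    rw [hD, Matrix.diagonal_mul, Matrix.mul_apply]
    simp only [hM, Matrix.of_apply, Matrix.map_apply]
    rw [← map_mul]
    have h1 : y * β j = ∑ i, Y i j • β i := by
      rw [hY]
      simp_rw [Algebra.leftMulMatrix_eq_repr_mul]
      exact (β.sum_repr (y * β j)).symm
    rw [h1, map_sum]
    refine Finset.sum_congr rfl (fun i _ => ?_)
    rw [Algebra.smul_def, map_mul, hφ, mul_comm]
  have hdetmul := congrArg Matrix.det hmul
  rw [Matrix.det_mul, Matrix.det_mul, mul_comm] at hdetmul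
  have h2 : D.det = (Y.map (algebraMap A B)).det := hdet.mul_left_cancel hdetmul
  rw [Algebra.norm_eq_matrix_det β y, RingHom.map_det, ← hY]
  rw [show (algebraMap A B).mapMatrix Y = Y.map (algebraMap A B) from rfl, ← h2, hD,
    Matrix.det_diagonal]

/-- Dedekind: the conjugate matrix of a basis of a Galois extension is invertible. -/
theorem det_conj_ne_zero {K L : Type*} [Field K] [Field L] [Algebra K L] [FiniteDimensional K L]
    [DecidableEq (L ≃ₐ[K] L)] [Fintype (L ≃ₐ[K] L)]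
    (b : Basis (L ≃ₐ[K] L) K L) :
    Matrix.det (Matrix.of fun (σ τ : L ≃ₐ[K] L) => σ (b τ)) ≠ 0 := by
  intro h0
  obtain ⟨c, hc0, hc⟩ := Matrix.exists_vecMul_eq_zero_iff.mpr h0
  have hind : LinearIndependent L (fun (f : L ≃ₐ[K] L) => (f : L → L)) :=
    LinearIndependent.comp (ι' := L ≃ₐ[K] L)
      (linearIndependent_monoidHom L L) (fun f => f)
      (fun x y h => by ext; exact DFunLike.ext_iff.1 h _)
  have hsum : ∑ σ : L ≃ₐ[K] L, c σ • ((σ : L → L)) = 0 := by
    funext x
    simp only [Finset.sum_apply, Pi.smul_apply, smul_eq_mul, Pi.zero_apply]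
    rw [← b.sum_repr x]
    simp only [map_sum, map_smul, Finset.mul_sum]
    rw [Finset.sum_comm]
    refine Finset.sum_eq_zero (fun τ _ => ?_)
    have hτ := congrFun hc τ
    simp only [Matrix.vecMul, dotProduct, Matrix.of_apply, Pi.zero_apply] at hτ
    simp_rw [Algebra.smul_def, ← mul_assoc, mul_comm (c _) (algebraMap K L _), mul_assoc,
      ← Finset.mul_sum, hτ, mul_zero]
  have := Fintype.linearIndependent_iff.mp hind c hsum
  exact hc0 (funext this)

end Fermat.Agent.S55.CFT.H12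

end
-- ==== END Fermat.Agent.S55.CFT.H12_DescentNorm

-- ==== BEGIN Fermat.Agent.S55.CFT.H12_SIChar
section

set_option autoImplicit false

namespace Fermat.Agent.S55.CFT.H12

/-- In an abelian group of exponent `n`, an element outside a subgroup `N` is outside a subgroup
of finite index containing `N`. -/
theorem exists_finiteIndex_not_mem {J : Type*} [CommGroup J] (N : Subgroup J) (n : ℕ)
    (hn : 0 < n) (hexp : ∀ x : J, x ^ n ∈ N) (x : J) (hx : x ∉ N) :
    ∃ H : Subgroup J, N ≤ H ∧ H.index ≠ 0 ∧ x ∉ H := by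
  have hne : (Additive.ofMul (QuotientGroup.mk' N x) : Additive (J ⧸ N)) ≠ 0 := by
    intro h
    apply hx
    have h1 : QuotientGroup.mk' N x = 1 := h
    rwa [QuotientGroup.mk'_apply, QuotientGroup.eq_one_iff] at h1
  obtain ⟨χ, hχ⟩ := CharacterModule.exists_character_apply_ne_zero_of_ne_zero hne
  -- the homomorphism `J → ℚ/ℤ`
  let f : J →* Multiplicative (AddCircle (1 : ℚ)) :=
    (AddMonoidHom.toMultiplicative (χ : Additive (J ⧸ N) →+ AddCircle (1 : ℚ))).comp
      ((MulEquiv.multiplicativeAdditive (J ⧸ N)).symm.toMonoidHom.comp (QuotientGroup.mk' N))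
  have hf : ∀ y : J, f y = Multiplicative.ofAdd
      (χ (Additive.ofMul (QuotientGroup.mk' N y) : Additive (J ⧸ N))) := fun y => rfl
  refine ⟨f.ker, ?_, ?_, ?_⟩
  · intro y hy
    rw [MonoidHom.mem_ker, hf]
    have h1 : QuotientGroup.mk' N y = 1 := by
      rw [QuotientGroup.mk'_apply, QuotientGroup.eq_one_iff]; exact hy
    rw [h1]
    have : (Additive.ofMul (1 : J ⧸ N) : Additive (J ⧸ N)) = 0 := rfl
    rw [this, map_zero]
    rfl
  · rw [Subgroup.index_ker]
    have hfin : (f.range : Set (Multiplicative (AddCircle (1 : ℚ)))).Finite := by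
      have h1 := AddCircle.finite_torsion (1 : ℚ) hn
      refine (h1.image Multiplicative.ofAdd).subset ?_
      rintro _ ⟨y, rfl⟩
      refine ⟨χ (Additive.ofMul (QuotientGroup.mk' N y) : Additive (J ⧸ N)), ?_, (hf y).symm⟩
      rw [Set.mem_ofPred_eq, ← map_nsmul]
      have h2 : n • (Additive.ofMul (QuotientGroup.mk' N y) : Additive (J ⧸ N)) = 0 := by
        change Additive.ofMul ((QuotientGroup.mk' N y) ^ n) = 0
        rw [← map_pow]
        have h3 : QuotientGroup.mk' N (y ^ n) = 1 := by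
          rw [QuotientGroup.mk'_apply, QuotientGroup.eq_one_iff]; exact hexp y
        rw [h3]; rfl
      rw [h2, map_zero]
    have : Finite f.range := hfin
    exact Nat.card_pos.ne'
  · intro hmem
    rw [MonoidHom.mem_ker, hf] at hmem
    exact hχ hmem

/-- If every subgroup of finite index containing `N` has index `≤ n` and `J/N` has exponent `n`,
then `N` has finite index `≤ n`. -/
theorem index_le_of_overgroups {J : Type*} [CommGroup J] (N : Subgroup J) (n : ℕ) (hn : 0 < n)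
    (hexp : ∀ x : J, x ^ n ∈ N)
    (hq : ∀ H : Subgroup J, N ≤ H → H.index ≠ 0 → H.index ≤ n) :
    N.index ≠ 0 ∧ N.index ≤ n := by
  by_contra hcon
  -- `n + 1` elements, pairwise distinct modulo `N`
  have hemb : Nonempty (Fin (n + 1) ↪ (J ⧸ N)) := by
    by_cases hfin : Finite (J ⧸ N)
    · have hidx : N.index ≠ 0 := Subgroup.index_ne_zero_of_finite
      have hgt : n < N.index := by
        by_contra h
        exact hcon ⟨hidx, not_lt.mp h⟩
      have : Fintype (J ⧸ N) := Fintype.ofFinite _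
      apply Function.Embedding.nonempty_of_card_le
      rw [Fintype.card_fin, ← Nat.card_eq_fintype_card, ← Subgroup.index_eq_card]
      exact hgt
    · have : Infinite (J ⧸ N) := not_finite_iff_infinite.mp hfin
      exact ⟨(Fin.valEmbedding.trans (Infinite.natEmbedding (J ⧸ N)))⟩
  obtain ⟨e⟩ := hemb
  choose x hx using fun i => QuotientGroup.mk'_surjective N (e i)
  have hdist : ∀ i j : Fin (n + 1), i ≠ j → x i * (x j)⁻¹ ∉ N := by
    intro i j hij hmem
    apply hij
    apply e.injective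
    rw [← hx i, ← hx j, QuotientGroup.mk'_apply, QuotientGroup.mk'_apply, QuotientGroup.eq,
      ← inv_mem_iff (H := N)]
    simpa [mul_comm] using hmem
  -- separating subgroups
  have hsep : ∀ p : {p : Fin (n + 1) × Fin (n + 1) // p.1 ≠ p.2},
      ∃ H : Subgroup J, N ≤ H ∧ H.index ≠ 0 ∧ x p.1.1 * (x p.1.2)⁻¹ ∉ H :=
    fun p => exists_finiteIndex_not_mem N n hn hexp _ (hdist _ _ p.2)
  choose Hp hHN hHidx hHx using hsep
  set H : Subgroup J := ⨅ p, Hp p with hH
  have hNH : N ≤ H := le_iInf hHN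
  have hidx : H.index ≠ 0 := Subgroup.index_iInf_ne_zero hHidx
  have hle := hq H hNH hidx
  have hfinH : Finite (J ⧸ H) := by
    apply Nat.finite_of_card_ne_zero
    rw [← Subgroup.index_eq_card]
    exact hidx
  have hinj : Function.Injective (fun i : Fin (n + 1) => (QuotientGroup.mk' H (x i) : J ⧸ H)) := by
    intro i j hij
    by_contra hne
    have h1 : x i * (x j)⁻¹ ∈ H := by
      simp only [QuotientGroup.mk'_apply, QuotientGroup.eq] at hij
      have := inv_mem hij
      simpa [mul_comm] using this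
    have h2 : x i * (x j)⁻¹ ∈ Hp ⟨(i, j), hne⟩ := (iInf_le Hp ⟨(i, j), hne⟩) h1
    exact hHx ⟨(i, j), hne⟩ h2
  have hcard := Nat.card_le_card_of_injective _ hinj
  rw [Nat.card_eq_fintype_card, Fintype.card_fin, ← Subgroup.index_eq_card] at hcard
  omega

end Fermat.Agent.S55.CFT.H12

end
-- ==== END Fermat.Agent.S55.CFT.H12_SIChar

-- ==== BEGIN Fermat.Agent.S55.CFT.H13_FundCyc
section

/-!
# S55-E4 package FUND (helper13), part 1: the explicit 2-cocycles of a finite cyclic group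

`Δ` a group with a generator `σ` of order `n` and discrete logarithm `e : Δ → ℕ` (`DLog`).
For an invariant element `a` of `B : Rep ℤ Δ`, `cyc n e a (g, h) = ((e g + e h) / n) • a` is a
2-cocycle (`cyc_mem_cocycles₂`), and it is a coboundary iff `a` is a norm
`∑_{i < n} σ^i b` (`cyc_mem_coboundaries₂_iff`).
-/

set_option autoImplicit false
set_option linter.unusedSectionVars false
set_option linter.unusedVariables false
set_option linter.style.haveILetI false

noncomputable section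

namespace Fermat.Agent.S55.CFT.H13

open CategoryTheory groupCohomology

/-- `σ` generates `Δ`, has order `n`, and `e` is the discrete logarithm with values in
`[0, n)`. -/
structure DLog (Δ : Type) [Group Δ] (σ : Δ) (n : ℕ) (e : Δ → ℕ) : Prop where
  pos : 0 < n
  lt : ∀ g, e g < n
  pow : ∀ g, σ ^ e g = g
  pow_n : σ ^ n = 1
  inj : ∀ i, i < n → e (σ ^ i) = i

namespace DLog

variable {Δ : Type} [Group Δ] {σ : Δ} {n : ℕ} {e : Δ → ℕ} (h : DLog Δ σ n e)

include h

theorem pow_mod (x : ℕ) : σ ^ (x % n) = σ ^ x := by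
  conv_rhs => rw [← Nat.div_add_mod x n, pow_add, pow_mul, h.pow_n, one_pow, one_mul]

theorem e_pow (x : ℕ) : e (σ ^ x) = x % n := by
  rw [← h.pow_mod x]
  exact h.inj _ (Nat.mod_lt _ h.pos)

theorem e_mul (g g' : Δ) : e (g * g') = (e g + e g') % n := by
  conv_lhs => rw [← h.pow g, ← h.pow g', ← pow_add]
  exact h.e_pow _

theorem e_one : e (1 : Δ) = 0 := by
  have := h.inj 0 h.pos
  rwa [pow_zero] at this

end DLog

section Cyc

variable {Δ : Type} [Group Δ] (B : Rep.{0} ℤ Δ) {σ : Δ} (n : ℕ) (e : Δ → ℕ)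

/-- The 2-cochain `(g, h) ↦ ⌊(e g + e h) / n⌋ a`. -/
def cyc (a : B.V) : Δ × Δ → B.V := fun p => ((e p.1 + e p.2) / n) • a

theorem cyc_apply (a : B.V) (g g' : Δ) : cyc B n e a (g, g') = ((e g + e g') / n) • a := rfl

variable {n e}

theorem div_add_div (hn : 0 < n) (x z : ℕ) : (x % n + z) / n + x / n = (x + z) / n := by
  have h1 : x + z = n * (x / n) + (x % n + z) := by
    have := Nat.div_add_mod x n
    omega
  rw [h1, Nat.mul_add_div hn, add_comm]

theorem cyc_mem_cocycles₂ (h : DLog Δ σ n e) (a : B.V) (ha : ∀ g, B.ρ g a = a) :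
    cyc B n e a ∈ cocycles₂ B := by
  rw [mem_cocycles₂_iff]
  intro g g' j
  rw [cyc_apply, cyc_apply, cyc_apply, cyc_apply, map_nsmul, ha, ← add_nsmul, ← add_nsmul,
    h.e_mul g g', h.e_mul g' j]
  congr 1
  have e1 := div_add_div h.pos (e g + e g') (e j)
  have e2 := div_add_div h.pos (e g' + e j) (e g)
  have e3 : (e g' + e j) % n + e g = e g + (e g' + e j) % n := add_comm _ _
  have e4 : e g' + e j + e g = e g + e g' + e j := by ring
  rw [e3, e4] at e2
  omega

/-- The partial norms `F t = ∑_{k < t} σ^k b`. -/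
def pnorm (σ : Δ) (b : B.V) (t : ℕ) : B.V := ∑ k ∈ Finset.range t, B.ρ (σ ^ k) b

theorem pnorm_zero (σ : Δ) (b : B.V) : pnorm B σ b 0 = 0 := by
  simp [pnorm]

theorem pnorm_add (σ : Δ) (b : B.V) (s t : ℕ) :
    pnorm B σ b (s + t) = pnorm B σ b s + B.ρ (σ ^ s) (pnorm B σ b t) := by
  unfold pnorm
  rw [Finset.sum_range_add, map_sum]
  congr 1
  apply Finset.sum_congr rfl
  intro k _
  rw [pow_add, map_mul]
  rfl

theorem pnorm_mul (h : DLog Δ σ n e) (b : B.V) (q : ℕ) :
    pnorm B σ b (n * q) = q • pnorm B σ b n := by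
  induction q with
  | zero => rw [Nat.mul_zero, pnorm_zero, zero_smul]
  | succ q ih =>
    rw [Nat.mul_succ, pnorm_add, ih, pow_mul, h.pow_n, one_pow, map_one, succ_nsmul]
    rfl

theorem pnorm_div_mod (h : DLog Δ σ n e) (b : B.V) (x : ℕ) :
    pnorm B σ b x = (x / n) • pnorm B σ b n + pnorm B σ b (x % n) := by
  conv_lhs => rw [← Nat.div_add_mod x n, pnorm_add, pnorm_mul B h, pow_mul, h.pow_n, one_pow,
    map_one]
  rfl

/-- If `a` is a norm then `cyc a` is a coboundary. -/
theorem cyc_mem_coboundaries₂_of_norm (h : DLog Δ σ n e) (b : B.V) :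
    cyc B n e (pnorm B σ b n) ∈ coboundaries₂ B := by
  refine ⟨fun g => pnorm B σ b (e g), ?_⟩
  funext p
  obtain ⟨g, g'⟩ := p
  show B.ρ g (pnorm B σ b (e g')) - pnorm B σ b (e (g * g')) + pnorm B σ b (e g) =
    ((e g + e g') / n) • pnorm B σ b n
  have h1 : pnorm B σ b (e g + e g') = pnorm B σ b (e g) + B.ρ g (pnorm B σ b (e g')) := by
    rw [pnorm_add, h.pow g]
  have h2 := pnorm_div_mod B h b (e g + e g')
  rw [h.e_mul g g']
  rw [h1] at h2
  have h3 : B.ρ g (pnorm B σ b (e g')) =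
      ((e g + e g') / n) • pnorm B σ b n + pnorm B σ b ((e g + e g') % n) - pnorm B σ b (e g) := by
    rw [← h2]; abel
  rw [h3]
  abel

/-- If `cyc a` is a coboundary then `a` is a norm. -/
theorem norm_of_cyc_mem_coboundaries₂ (h : DLog Δ σ n e) (a : B.V)
    (hc : cyc B n e a ∈ coboundaries₂ B) : ∃ b : B.V, a = pnorm B σ b n := by
  obtain ⟨u, hu⟩ := hc
  have hu' : ∀ g g' : Δ, B.ρ g (u g') - u (g * g') + u g = ((e g + e g') / n) • a := by
    intro g g'
    exact congrFun hu (g, g')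
  by_cases hn1 : n = 1
  · -- trivial group
    refine ⟨a, ?_⟩
    subst hn1
    unfold pnorm
    rw [Finset.sum_range_one, pow_zero, map_one]
    rfl
  have hn2 : 2 ≤ n := by have := h.pos; omega
  refine ⟨u σ, ?_⟩
  have he1 : e σ = 1 := by
    have := h.inj 1 (by omega)
    rwa [pow_one] at this
  -- `u (σ^(i+1)) = u (σ^i) + σ^i (u σ) - [i = n - 1] a`
  have key : ∀ i, i < n → u (σ ^ (i + 1)) =
      u (σ ^ i) + B.ρ (σ ^ i) (u σ) - ((i + 1) / n) • a := by
    intro i hi
    have := hu' (σ ^ i) σ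
    rw [h.inj i hi, he1, ← pow_succ] at this
    rw [← this]
    abel
  -- telescoping
  have tel : ∀ t, t ≤ n → u (σ ^ t) = u 1 + pnorm B σ (u σ) t - (t / n) • a := by
    intro t
    induction t with
    | zero =>
      intro _
      rw [pow_zero, pnorm_zero, Nat.zero_div, zero_smul]
      abel
    | succ t ih =>
      intro ht
      have ht' : t < n := ht
      rw [key t ht', ih (le_of_lt ht'), Nat.div_eq_of_lt ht', zero_smul]
      have : pnorm B σ (u σ) (t + 1) = pnorm B σ (u σ) t + B.ρ (σ ^ t) (u σ) := by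
        unfold pnorm
        rw [Finset.sum_range_succ]
      rw [this]
      abel
  have := tel n le_rfl
  rw [h.pow_n, Nat.div_self h.pos, one_smul] at this
  have h5 : u 1 + 0 = u 1 + (pnorm B σ (u σ) n - a) := by
    rw [add_zero, ← add_sub_assoc]
    exact this
  have h6 := add_left_cancel h5
  exact (sub_eq_zero.mp h6.symm).symm

theorem cyc_nsmul (a : B.V) (k : ℕ) : cyc B n e (k • a) = k • cyc B n e a := by
  funext p
  show ((e p.1 + e p.2) / n) • (k • a) = k • (((e p.1 + e p.2) / n) • a)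
  rw [smul_comm]

end Cyc

section Exists

variable {Δ : Type} [Group Δ] [Finite Δ]

/-- A generator of a finite group has a discrete logarithm. -/
theorem exists_dlog (σ : Δ) (hσ : ∀ x, x ∈ Subgroup.zpowers σ) :
    ∃ e : Δ → ℕ, DLog Δ σ (Nat.card Δ) e := by
  classical
  have hord : orderOf σ = Nat.card Δ := orderOf_eq_card_of_forall_mem_zpowers hσ
  have hex : ∀ g : Δ, ∃ i, i < Nat.card Δ ∧ σ ^ i = g := by
    intro g
    have := (mem_zpowers_iff_mem_range_orderOf (x := σ) (y := g)).mp (hσ g)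
    rw [Finset.mem_image] at this
    obtain ⟨i, hi, hig⟩ := this
    rw [Finset.mem_range, hord] at hi
    exact ⟨i, hi, hig⟩
  choose e he using hex
  refine ⟨e, Nat.card_pos, fun g => (he g).1, fun g => (he g).2, ?_, ?_⟩
  · rw [← hord]
    exact pow_orderOf_eq_one σ
  · intro i hi
    have h1 := (he (σ ^ i)).2
    have h2 := (he (σ ^ i)).1
    apply pow_injOn_Iio_orderOf (x := σ)
    · rw [Set.mem_Iio, hord]; exact h2
    · rw [Set.mem_Iio, hord]; exact hi
    · exact h1

theorem DLog.sum_eq {σ : Δ} {n : ℕ} {e : Δ → ℕ} (h : DLog Δ σ n e) [Fintype Δ]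
    {M : Type} [AddCommMonoid M] (f : Δ → M) :
    ∑ i ∈ Finset.range n, f (σ ^ i) = ∑ x : Δ, f x := by
  refine Finset.sum_bij' (fun i _ => σ ^ i) (fun x _ => e x) ?_ ?_ ?_ ?_ ?_
  · intro i _; exact Finset.mem_univ _
  · intro x _; exact Finset.mem_range.mpr (h.lt x)
  · intro i hi; exact h.inj i (Finset.mem_range.mp hi)
  · intro x _; exact h.pow x
  · intro i _; rfl

theorem DLog.card_eq {σ : Δ} {n : ℕ} {e : Δ → ℕ} (h : DLog Δ σ n e) : Nat.card Δ = n := by
  classical
  letI : Fintype Δ := Fintype.ofFinite Δ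
  have := h.sum_eq (fun _ => (1 : ℕ))
  simp only [Finset.sum_const, Finset.card_range, smul_eq_mul, mul_one, Finset.card_univ] at this
  rw [Nat.card_eq_fintype_card]
  exact this.symm

theorem pnorm_eq_sum {B : Rep.{0} ℤ Δ} {σ : Δ} {n : ℕ} {e : Δ → ℕ} (h : DLog Δ σ n e)
    [Fintype Δ] (b : B.V) : pnorm B σ b n = ∑ x : Δ, B.ρ x b :=
  h.sum_eq (fun x => B.ρ x b)

end Exists

end Fermat.Agent.S55.CFT.H13

end
end
-- ==== END Fermat.Agent.S55.CFT.H13_FundCyc

-- ==== BEGIN Fermat.Agent.S55.CFT.H13_FundCyclo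
section

set_option autoImplicit false
set_option linter.style.haveILetI false

namespace Fermat.Agent.S55.CFT.H13

section PGroup
variable (L N : Type) [Field L] [Field N] [Algebra L N] (p M : ℕ) [NeZero (p ^ M)]
  [IsCyclotomicExtension {p ^ M} L N]

theorem autToPow_sub_one_dvd (hp : p.Prime) (hz : ∃ ζ : L, IsPrimitiveRoot ζ p)
    {ζ : N} (hζ : IsPrimitiveRoot ζ (p ^ M)) (σ : N ≃ₐ[L] N) :
    (p : ZMod (p ^ M)) ∣ ((hζ.autToPow L σ : (ZMod (p ^ M))ˣ) : ZMod (p ^ M)) - 1 := by
  rcases Nat.eq_zero_or_pos M with hM | hM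
  · subst hM
    have : Subsingleton (ZMod (p ^ 0)) := by
      rw [pow_zero]; infer_instance
    exact ⟨0, Subsingleton.elim _ _⟩
  obtain ⟨z, hzp⟩ := hz
  set t : N := algebraMap L N z with ht
  have htp : IsPrimitiveRoot t p := hzp.map_of_injective (algebraMap L N).injective
  have hσt : σ t = t := σ.commutes z
  have htpow : t ^ (p ^ M) = 1 := by
    have h1 : t ^ p = 1 := htp.pow_eq_one
    obtain ⟨k, hk⟩ : p ∣ p ^ M := dvd_pow_self p hM.ne'
    rw [hk, pow_mul, h1, one_pow]
  obtain ⟨i, -, hi⟩ := hζ.eq_pow_of_pow_eq_one htpow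
  set c : ZMod (p ^ M) := ((hζ.autToPow L σ : (ZMod (p ^ M))ˣ) : ZMod (p ^ M)) with hc
  have hspec : ζ ^ c.val = σ ζ := hζ.autToPow_spec L σ
  have h2 : t ^ c.val = t := by
    rw [← hi, ← pow_mul, mul_comm, pow_mul, hspec, ← map_pow, hi, hσt]
  have ht0 : t ≠ 0 := htp.ne_zero hp.ne_zero
  have h5 : (p : ℤ) ∣ (c.val : ℤ) - 1 := by
    rw [← htp.zpow_eq_one_iff_dvd, zpow_sub₀ ht0, zpow_natCast, h2, zpow_one, div_self ht0]
  have h6 : ((p : ℤ) : ZMod (p ^ M)) ∣ (((c.val : ℤ) - 1 : ℤ) : ZMod (p ^ M)) :=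
    (Int.castRingHom (ZMod (p ^ M))).map_dvd h5
  simpa using h6

theorem autToPow_pow_eq_one (hp : p.Prime) (hz : ∃ ζ : L, IsPrimitiveRoot ζ p)
    {ζ : N} (hζ : IsPrimitiveRoot ζ (p ^ M)) (σ : N ≃ₐ[L] N) :
    (hζ.autToPow L σ) ^ (p ^ M) = 1 := by
  apply Units.ext
  rw [Units.val_pow_eq_pow_val, Units.val_one]
  have h := dvd_sub_pow_of_dvd_sub (autToPow_sub_one_dvd L N p M hp hz hζ σ) M
  have h0 : ((p : ZMod (p ^ M)) ^ (M + 1)) = 0 := by
    rw [pow_succ]
    have : ((p : ZMod (p ^ M)) ^ M) = 0 := by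
      have := ZMod.natCast_self (p ^ M)
      rwa [Nat.cast_pow] at this
    rw [this, zero_mul]
  rw [h0, zero_dvd_iff, one_pow, sub_eq_zero] at h
  exact h

include M in
theorem isPGroup_gal_cyclotomic (hp : p.Prime) (hz : ∃ ζ : L, IsPrimitiveRoot ζ p) :
    IsPGroup p (N ≃ₐ[L] N) := by
  have hζ := IsCyclotomicExtension.zeta_spec (p ^ M) L N
  intro σ
  refine ⟨M, ?_⟩
  apply hζ.autToPow_injective L
  rw [map_pow, map_one]
  exact autToPow_pow_eq_one L N p M hp hz hζ σ

end PGroup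



theorem prime_pow_dvd_of_dvd_totient (p M m n d : ℕ) (hp : p.Prime)
    (hn : n ∣ (p ^ M).totient) (hdn : d ≤ n) (hmd : p ^ m ∣ d) (hd0 : d ≠ 0) : p ^ m ∣ n := by
  have hn0 : n ≠ 0 := by
    intro h; rw [h] at hdn; exact hd0 (Nat.le_zero.1 hdn)
  obtain ⟨b, c, hc, hnbc⟩ := Nat.exists_eq_pow_mul_and_not_dvd hn0 p hp.ne_one
  have hφ : (p ^ M).totient ∣ p ^ M * (p - 1) := by
    rcases Nat.eq_zero_or_pos M with hM | hM
    · subst hM; simp
    · rw [Nat.totient_prime_pow hp hM]
      exact Nat.mul_dvd_mul_right (pow_dvd_pow p (Nat.sub_le M 1)) _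
  have hc1 : c ∣ p ^ M * (p - 1) := by
    refine Dvd.dvd.trans ?_ (hn.trans hφ)
    rw [hnbc]; exact dvd_mul_left c _
  have hcop : Nat.Coprime c (p ^ M) :=
    Nat.Coprime.pow_right M ((Nat.Prime.coprime_iff_not_dvd hp).2 hc).symm
  have hc2 : c ∣ p - 1 := hcop.dvd_of_dvd_mul_left hc1
  have hp1 : 0 < p - 1 := Nat.sub_pos_of_lt hp.one_lt
  have hc3 : c < p := lt_of_le_of_lt (Nat.le_of_dvd hp1 hc2) (Nat.sub_lt hp.pos Nat.one_pos)
  have hpm : p ^ m ≤ d := Nat.le_of_dvd (Nat.pos_of_ne_zero hd0) hmd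
  by_contra hcon
  have hbm : b < m := by
    by_contra hb
    rw [not_lt] at hb
    apply hcon
    rw [hnbc]
    exact Dvd.dvd.mul_right (pow_dvd_pow p hb) c
  have h1 : n < p ^ (b + 1) := by
    rw [hnbc, pow_succ]
    exact Nat.mul_lt_mul_of_pos_left hc3 (pow_pos hp.pos b)
  have h2 : p ^ (b + 1) ≤ p ^ m := Nat.pow_le_pow_right hp.pos hbm
  omega

theorem exists_orderOf_eq_prime_pow (p M m : ℕ) (hp : p.Prime) (hodd : p ≠ 2) [NeZero (p ^ M)]
    {J : Type*} [Group J] (θ : J →* (ZMod (p ^ M))ˣ) (d : ℕ)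
    (hd : d ≤ Nat.card (Set.range θ)) (hmd : p ^ m ∣ d) (hd0 : d ≠ 0) :
    ∃ x : J, orderOf (θ x) = p ^ m := by
  classical
  haveI : IsCyclic (ZMod (p ^ M))ˣ := ZMod.isCyclic_units_of_prime_pow p hp hodd M
  have hcardU : Nat.card (ZMod (p ^ M))ˣ = (p ^ M).totient := by
    rw [Nat.card_eq_fintype_card, ZMod.card_units_eq_totient]
  have hn : Nat.card θ.range ∣ (p ^ M).totient := by
    rw [← hcardU]; exact Subgroup.card_subgroup_dvd_card _
  have hd' : d ≤ Nat.card θ.range := hd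
  have hdvd := prime_pow_dvd_of_dvd_totient p M m _ d hp hn hd' hmd hd0
  obtain ⟨g, hg⟩ := IsCyclic.exists_ofOrder_eq_natCard (α := θ.range)
  obtain ⟨x₀, hx₀⟩ := g.2
  have hg' : orderOf (θ x₀) = Nat.card θ.range := by
    rw [← hg, hx₀, Subgroup.orderOf_coe]
  obtain ⟨k, hk⟩ := hdvd
  have hk0 : k ≠ 0 := by
    rintro rfl
    rw [mul_zero] at hk
    rw [hk] at hd'
    exact hd0 (Nat.le_zero.1 hd')
  refine ⟨x₀ ^ k, ?_⟩
  rw [map_pow, orderOf_pow_of_dvd hk0 (by rw [hg', hk]; exact dvd_mul_left k _), hg', hk]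
  exact Nat.mul_div_cancel _ (Nat.pos_of_ne_zero hk0)

end Fermat.Agent.S55.CFT.H13

end
-- ==== END Fermat.Agent.S55.CFT.H13_FundCyclo
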