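-- GENERATED (merged mirror, NOTES/tools/trim/merge3_helper67.py): 8 modules of the originals, bodies verbatim.
import Mathlib
import Fermat.Agent.Zm.S56_L01_000
import Fermat.Agent.Zm.S35_L01_003
import Fermat.Agent.Zm.S35_L03_002
import Fermat.Agent.Zm.S56_L01_001

-- ==== BEGIN Fermat.Agent.Lib.LocalKummer.Finite
section

/-
Kummer theory, injectivity part, in counting form: if the fixed elements of `Ω` are represented
modulo `ℓ`-th powers of fixed elements by a finite set `T`, then there are only finitely many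
Kummer characters `G → ZMod ℓ`.
-/

set_option autoImplicit false
set_option linter.unusedSectionVars false
set_option linter.style.haveILetI false

namespace Fermat.Agent.Lib.LocalKummer

section finite

variable {G Ω : Type*} [Group G] [Field Ω] [MulSemiringAction G Ω] {ℓ : ℕ} [NeZero ℓ]

/-- `ψ` is the Kummer character of some nonzero `γ`. -/
def IsKummerChar (ζ : Ω) (ψ : G → ZMod ℓ) : Prop :=
  ∃ γ : Ω, γ ≠ 0 ∧ ∀ g : G, g • γ = zpowZ ζ (ψ g) * γ

theorem finite_kummerChar {ζ : Ω} (hζ : IsPrimitiveRoot ζ ℓ) (hfix : ∀ g : G, g • ζ = ζ)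
    (T : Set Ω) (hT : T.Finite)
    (hrep : ∀ a : Ω, a ≠ 0 → (∀ g : G, g • a = a) → ∃ t ∈ T, ∃ b : Ω, b ≠ 0 ∧
      (∀ g : G, g • b = b) ∧ a = t * b ^ ℓ) :
    {ψ : G → ZMod ℓ | IsKummerChar ζ ψ}.Finite := by
  classical
  have key : ∀ ψ : G → ZMod ℓ, IsKummerChar ζ ψ → ∃ t ∈ T, ∃ γ b : Ω, γ ≠ 0 ∧ b ≠ 0 ∧
      (∀ g : G, g • γ = zpowZ ζ (ψ g) * γ) ∧ (∀ g : G, g • b = b) ∧ γ ^ ℓ = t * b ^ ℓ := by
    rintro ψ ⟨γ, hγ0, hγ⟩
    have h1 : ∀ g : G, g • (γ ^ ℓ) = γ ^ ℓ := by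
      intro g
      rw [smul_pow', hγ g, mul_pow, zpowZ_pow ζ hζ.pow_eq_one, one_mul]
    obtain ⟨t, ht, b, hb0, hb, hab⟩ := hrep (γ ^ ℓ) (pow_ne_zero _ hγ0) h1
    exact ⟨t, ht, γ, b, hγ0, hb0, hγ, hb, hab⟩
  let f : (G → ZMod ℓ) → Ω := fun ψ =>
    if h : IsKummerChar ζ ψ then Classical.choose (key ψ h) else 0
  have hf : ∀ ψ (h : IsKummerChar ζ ψ), f ψ ∈ T ∧ ∃ γ b : Ω, γ ≠ 0 ∧ b ≠ 0 ∧
      (∀ g : G, g • γ = zpowZ ζ (ψ g) * γ) ∧ (∀ g : G, g • b = b) ∧ γ ^ ℓ = f ψ * b ^ ℓ := by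
    intro ψ h
    have := Classical.choose_spec (key ψ h)
    simp only [f, dif_pos h]
    exact this
  refine Set.Finite.of_injOn (f := f) (t := T) (fun ψ hψ => (hf ψ hψ).1) ?_ hT
  intro ψ hψ ψ' hψ' hff
  obtain ⟨-, γ, b, hγ0, hb0, hγ, hb, hab⟩ := hf ψ hψ
  obtain ⟨-, γ', b', hγ'0, hb'0, hγ', hb', hab'⟩ := hf ψ' hψ'
  rw [← hff] at hab'
  -- `(γ b' / (γ' b)) ^ ℓ = 1`
  have h1 : (γ * b' / (γ' * b)) ^ ℓ = 1 := by
    rw [div_pow, mul_pow, mul_pow, hab, hab']
    have hfψ : f ψ ≠ 0 := by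
      intro h0
      rw [h0, zero_mul] at hab
      exact pow_ne_zero _ hγ0 hab
    have hbℓ : b ^ ℓ ≠ 0 := pow_ne_zero _ hb0
    have hb'ℓ : b' ^ ℓ ≠ 0 := pow_ne_zero _ hb'0
    field_simp
  obtain ⟨e, he⟩ := exists_zpowZ_eq hζ h1
  have h2 : γ * b' = zpowZ ζ e * (γ' * b) := by
    rw [he]
    have : γ' * b ≠ 0 := mul_ne_zero hγ'0 hb0
    field_simp
  funext g
  have h3 := congrArg (fun z => g • z) h2
  simp only [smul_mul', hγ g, hb' g, hγ' g, hb g, smul_zpowZ, hfix g] at h3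
  have h4 : zpowZ ζ (ψ g) * (γ * b') = zpowZ ζ (ψ' g) * (γ * b') := by
    linear_combination h3 - zpowZ ζ (ψ' g) * h2
  exact zpowZ_injective hζ (mul_right_cancel₀ (mul_ne_zero hγ0 hb'0) h4)

end finite

end Fermat.Agent.Lib.LocalKummer

end
-- ==== END Fermat.Agent.Lib.LocalKummer.Finite

-- ==== BEGIN Fermat.Agent.Lib.LocalKummer.Roots
section

/-
Root extraction near `1` in an ultrametric algebraically closed normed field, with Galois
invariance: if `‖y - 1‖ < ‖1 - ζ‖ ^ ℓ` (`ζ` a primitive `ℓ`-th root of unity, `ℓ` prime) then `y`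
has an `ℓ`-th root `x` with `‖x - 1‖ < ‖1 - ζ‖`, and this root is fixed by every isometric
automorphism fixing `ζ` and `y`.
-/

set_option autoImplicit false
set_option linter.unusedSectionVars false
set_option linter.style.haveILetI false

namespace Fermat.Agent.Lib.LocalKummer

open Finset

section ultra

variable {Ω : Type*} [NormedField Ω] [IsUltrametricDist Ω]

lemma norm_eq_one_of_pow_eq_one' {ζ : Ω} {n : ℕ} (h : ζ ^ n = 1) (hn : n ≠ 0) : ‖ζ‖ = 1 := by
  have h1 : ‖ζ‖ ^ n = 1 := by rw [← norm_pow, h, norm_one]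
  exact (pow_eq_one_iff_of_nonneg (norm_nonneg ζ) hn).1 h1

lemma norm_sub_le_max' (x y : Ω) : ‖x - y‖ ≤ max ‖x‖ ‖y‖ := by
  rw [sub_eq_add_neg]
  have := IsUltrametricDist.norm_add_le_max x (-y)
  rwa [norm_neg] at this

lemma norm_geom_sum_le {ζ : Ω} (h : ‖ζ‖ = 1) (n : ℕ) : ‖∑ i ∈ range n, ζ ^ i‖ ≤ 1 := by
  apply IsUltrametricDist.norm_sum_le_of_forall_le_of_nonneg zero_le_one
  intro i _
  rw [norm_pow, h, one_pow]

lemma norm_one_sub_pow_le {ζ : Ω} (h : ‖ζ‖ = 1) (j : ℕ) : ‖1 - ζ ^ j‖ ≤ ‖1 - ζ‖ := by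
  have h1 : 1 - ζ ^ j = (∑ i ∈ range j, ζ ^ i) * (1 - ζ) := by
    have := geom_sum_mul ζ j
    linear_combination this
  rw [h1, norm_mul]
  exact mul_le_of_le_one_left (norm_nonneg _) (norm_geom_sum_le h j)

variable {ℓ : ℕ}

lemma norm_one_sub_pow_eq (hℓ : ℓ.Prime) {ζ : Ω} (hζ : IsPrimitiveRoot ζ ℓ) (j : ℕ)
    (hj : ¬ ℓ ∣ j) : ‖1 - ζ ^ j‖ = ‖1 - ζ‖ := by
  haveI : NeZero ℓ := ⟨hℓ.ne_zero⟩
  have h1 : ‖ζ‖ = 1 := norm_eq_one_of_pow_eq_one' hζ.pow_eq_one hℓ.ne_zero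
  apply le_antisymm (norm_one_sub_pow_le h1 j)
  have hcop : j.Coprime ℓ := (Nat.Prime.coprime_iff_not_dvd hℓ).2 hj |>.symm
  have hprim : IsPrimitiveRoot (ζ ^ j) ℓ := hζ.pow_of_coprime j hcop
  obtain ⟨i, _, hi⟩ := hprim.eq_pow_of_pow_eq_one hζ.pow_eq_one
  have h2 : ‖ζ ^ j‖ = 1 := by rw [norm_pow, h1, one_pow]
  have h3 := norm_one_sub_pow_le h2 i
  rwa [hi] at h3

lemma norm_one_sub_le_one {ζ : Ω} (h : ‖ζ‖ = 1) : ‖1 - ζ‖ ≤ 1 := by
  have := norm_sub_le_max' (1 : Ω) ζ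
  rwa [norm_one, h, max_self] at this

lemma norm_one_sub_pow_prime (hℓ : ℓ.Prime) {ζ : Ω} (hζ : IsPrimitiveRoot ζ ℓ) :
    ‖1 - ζ‖ ^ (ℓ - 1) = ‖(ℓ : Ω)‖ := by
  obtain ⟨n, rfl⟩ : ∃ n, ℓ = n + 1 := ⟨ℓ - 1, (Nat.succ_pred_eq_of_pos hℓ.pos).symm⟩
  have h1 := hζ.prod_one_sub_pow_eq_order
  have h2 : ‖∏ k ∈ range n, (1 - ζ ^ (k + 1))‖ = ‖((n + 1 : ℕ) : Ω)‖ := by
    rw [h1]
    push_cast
    rfl
  rw [norm_prod] at h2
  rw [← h2, Nat.add_sub_cancel]
  have h3 : ∀ k ∈ range n, ‖1 - ζ ^ (k + 1)‖ = ‖1 - ζ‖ := by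
    intro k hk
    apply norm_one_sub_pow_eq hℓ hζ
    intro hdvd
    have := Nat.le_of_dvd (Nat.succ_pos k) hdvd
    have := mem_range.1 hk
    omega
  rw [prod_congr rfl h3, prod_const, card_range]

lemma norm_one_sub_pos {ζ : Ω} (hζ : IsPrimitiveRoot ζ ℓ) (hℓ : 1 < ℓ) : 0 < ‖1 - ζ‖ := by
  rw [norm_pos_iff, sub_ne_zero]
  intro h
  exact hζ.ne_one hℓ h.symm

/-- Root selection: an element close to `1` has an `ℓ`-th root close to `1`. -/
theorem exists_root_near_one [IsAlgClosed Ω] (hℓ : ℓ.Prime) {ζ : Ω} (hζ : IsPrimitiveRoot ζ ℓ)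
    {y : Ω} (hy : ‖y - 1‖ < ‖1 - ζ‖ ^ ℓ) : ∃ x : Ω, x ^ ℓ = y ∧ ‖x - 1‖ < ‖1 - ζ‖ := by
  obtain ⟨x₀, hx₀⟩ := IsAlgClosed.exists_pow_nat_eq y hℓ.pos
  have h1 := hζ.pow_sub_pow_eq_prod_sub_mul 1 x₀ hℓ.pos
  rw [one_pow, hx₀] at h1
  by_contra hcon
  have hcon' : ∀ x : Ω, x ^ ℓ = y → ‖1 - ζ‖ ≤ ‖x - 1‖ := by
    intro x hx
    by_contra hlt
    exact hcon ⟨x, hx, not_le.1 hlt⟩
  have h2 : ‖1 - ζ‖ ^ ℓ ≤ ‖(1 : Ω) - y‖ := by
    rw [h1, norm_prod]
    have h3 : ∏ _ξ ∈ Polynomial.nthRootsFinset ℓ (1 : Ω), ‖1 - ζ‖ ≤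
        ∏ ξ ∈ Polynomial.nthRootsFinset ℓ (1 : Ω), ‖1 - ξ * x₀‖ := by
      apply Finset.prod_le_prod (fun _ _ => norm_nonneg _)
      intro ξ hξ
      have hξ' : ξ ^ ℓ = 1 := (Polynomial.mem_nthRootsFinset hℓ.pos 1).1 hξ
      have h4 := hcon' (ξ * x₀) (by rw [mul_pow, hξ', hx₀, one_mul])
      rwa [norm_sub_rev (ξ * x₀) 1] at h4
    rwa [Finset.prod_const, hζ.card_nthRootsFinset] at h3
  rw [norm_sub_rev 1 y] at h2
  exact absurd hy (not_lt.2 h2)

/-- The root selected by `exists_root_near_one` is fixed by isometric automorphisms. -/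
theorem root_near_one_fixed (hℓ : ℓ.Prime) {ζ : Ω} (hζ : IsPrimitiveRoot ζ ℓ)
    (σ : Ω →+* Ω) (hσ : ∀ x, ‖σ x‖ = ‖x‖) {x y : Ω} (hx : x ^ ℓ = y)
    (hσy : σ y = y) (hx1 : ‖x - 1‖ < ‖1 - ζ‖) : σ x = x := by
  haveI : NeZero ℓ := ⟨hℓ.ne_zero⟩
  have hζ1 : ‖ζ‖ = 1 := norm_eq_one_of_pow_eq_one' hζ.pow_eq_one hℓ.ne_zero
  have hδ : ‖1 - ζ‖ ≤ 1 := norm_one_sub_le_one hζ1
  -- `‖x‖ = 1`
  have hxn : ‖x‖ = 1 := by
    have h1 : ‖x - 1‖ < ‖(1 : Ω)‖ := by rw [norm_one]; exact lt_of_lt_of_le hx1 hδ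
    have h2 := IsUltrametricDist.norm_add_eq_max_of_norm_ne_norm (ne_of_lt h1)
    rw [sub_add_cancel, max_eq_right (le_of_lt h1), norm_one] at h2
    exact h2
  have hx0 : x ≠ 0 := by
    intro h
    rw [h, norm_zero] at hxn
    exact zero_ne_one hxn
  -- `σ x = ζ ^ i * x`
  have h1 : (σ x / x) ^ ℓ = 1 := by
    rw [div_pow, ← map_pow, hx, hσy]
    exact div_self (by rw [← hx]; exact pow_ne_zero _ hx0)
  obtain ⟨i, hi, hix⟩ := hζ.eq_pow_of_pow_eq_one h1
  have h2 : σ x = ζ ^ i * x := by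
    rw [hix]
    field_simp
  by_cases hdvd : ℓ ∣ i
  · obtain ⟨m, rfl⟩ := hdvd
    rw [h2, pow_mul, hζ.pow_eq_one, one_pow, one_mul]
  · exfalso
    have h3 : ‖σ x - 1‖ < ‖1 - ζ‖ := by
      have : σ x - 1 = σ (x - 1) := by rw [map_sub, map_one]
      rw [this, hσ]
      exact hx1
    have h4 : ‖σ x - x‖ < ‖1 - ζ‖ := by
      have h5 : σ x - x = (σ x - 1) - (x - 1) := by ring
      rw [h5]
      exact lt_of_le_of_lt (norm_sub_le_max' _ _) (max_lt h3 hx1)
    have h6 : ‖σ x - x‖ = ‖1 - ζ‖ := by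
      have h7 : σ x - x = -((1 - ζ ^ i) * x) := by rw [h2]; ring
      rw [h7, norm_neg, norm_mul, hxn, mul_one, norm_one_sub_pow_eq hℓ hζ i hdvd]
    rw [h6] at h4
    exact lt_irrefl _ h4

end ultra

end Fermat.Agent.Lib.LocalKummer

end
-- ==== END Fermat.Agent.Lib.LocalKummer.Roots

-- ==== BEGIN Fermat.Agent.Lib.Minkowski
section

/-!
# Minkowski for `Gal(ℚ̄/ℚ)` (S13 interface I8)

`stmt_minkowski : Fermat.Agent.S13.Stmt_minkowski` : a normal subgroup of `Gal(ℚ̄/ℚ)` that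
contains the pointwise stabiliser of a finite set and, for every prime `ℓ`, the inertia group of
SOME valuation subring over `ℓ`, is all of `Gal(ℚ̄/ℚ)`.

Also `hom_eq_one_of_unramified_everywhere` : a homomorphism from `Gal(ℚ̄/ℚ)` that is trivial on
the pointwise stabiliser of a finite set and on one inertia group at every prime is trivial.
-/

set_option autoImplicit false

namespace Fermat.Agent.Lib.Minkowski

/-- The inertia lifting statement holds (helper48, `Lib/InertiaLift.lean`). -/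
theorem liftStmt : LiftStmt := fun ℓ hℓ A hA F _ σ₀ h =>
  Fermat.Agent.Lib.InertiaLift.exists_mem_inertiaSubgroupIn_eqOn ℓ hℓ A hA F σ₀ h

/-- **Minkowski** (unconditional form of `minkowski_of_lift`). -/
theorem minkowski
    (H : Subgroup (AlgebraicClosure ℚ ≃ₐ[ℚ] AlgebraicClosure ℚ)) (hHn : H.Normal)
    (hS : ∃ S : Finset (AlgebraicClosure ℚ),
      ∀ σ : AlgebraicClosure ℚ ≃ₐ[ℚ] AlgebraicClosure ℚ, (∀ x ∈ S, σ x = x) → σ ∈ H)
    (hinert : ∀ ℓ : ℕ, ℓ.Prime → ∃ A : ValuationSubring (AlgebraicClosure ℚ),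
      A.LiesOverPrime ℓ ∧ A.inertiaSubgroupIn ℚ ≤ H) :
    H = ⊤ :=
  minkowski_of_lift liftStmt H hHn hS hinert

/-- S13 interface (I8). -/
theorem stmt_minkowski : Fermat.Agent.S13.Stmt_minkowski :=
  fun H hHn hS hinert => minkowski H hHn hS hinert

/-- A homomorphism out of `Gal(ℚ̄/ℚ)` which is trivial on the pointwise stabiliser of a finite
set and, for every prime, on the inertia group of some valuation subring over it, is trivial. -/
theorem hom_eq_one_of_unramified_everywhere {G : Type*} [Group G]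
    (χ : (AlgebraicClosure ℚ ≃ₐ[ℚ] AlgebraicClosure ℚ) →* G)
    (hS : ∃ S : Finset (AlgebraicClosure ℚ),
      ∀ σ : AlgebraicClosure ℚ ≃ₐ[ℚ] AlgebraicClosure ℚ, (∀ x ∈ S, σ x = x) → χ σ = 1)
    (hunr : ∀ ℓ : ℕ, ℓ.Prime → ∃ A : ValuationSubring (AlgebraicClosure ℚ),
      A.LiesOverPrime ℓ ∧ ∀ σ ∈ A.inertiaSubgroupIn ℚ, χ σ = 1) :
    ∀ σ, χ σ = 1 := by
  have hker : χ.ker = ⊤ := by
    refine minkowski χ.ker inferInstance ?_ ?_
    · obtain ⟨S, hS⟩ := hS
      exact ⟨S, fun σ hσ => MonoidHom.mem_ker.mpr (hS σ hσ)⟩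
    · intro ℓ hℓ
      obtain ⟨A, hA, hAχ⟩ := hunr ℓ hℓ
      exact ⟨A, hA, fun σ hσ => MonoidHom.mem_ker.mpr (hAχ σ hσ)⟩
  intro σ
  have hσ : σ ∈ χ.ker := by rw [hker]; exact Subgroup.mem_top σ
  exact MonoidHom.mem_ker.mp hσ

end Fermat.Agent.Lib.Minkowski

end
-- ==== END Fermat.Agent.Lib.Minkowski

-- ==== BEGIN Fermat.Agent.R.Flat.H54_Points
section

/-!
# Flat closure (cluster R, helper54): points of a Hopf algebra with values in `K`

`Pts R H K := WithConv (H →ₐ[R] K)` with the convolution product.  We collect: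
* `gconj σ f` : the conjugate point `h ↦ σ • f h`;
* `pinv f`    : the point `f ∘ antipode`, which is the convolution inverse of `f`;
* `convMul_apply'` : `(f * g) h = μ ((f ⊗ g) (Δ h))`;
* `IsGSubgroup X'` : `X'` is a `G`-stable subgroup of the points;
* finiteness of the set of points of a finite free algebra (Dedekind).
-/

set_option autoImplicit false

open scoped TensorProduct
open WithConv

namespace Fermat.Agent.R.H54

section Points

variable {R K G : Type} [CommRing R] [Field K] [Algebra R K] [Group G] [MulSemiringAction G K]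
variable {H : Type} [CommRing H] [HopfAlgebra R H]

/-- The points of `H` with values in `K`, with the convolution product. -/
abbrev Pts (R H K : Type) [CommRing R] [Field K] [Algebra R K] [CommRing H] [HopfAlgebra R H] :
    Type := WithConv (H →ₐ[R] K)

/-- The conjugate `h ↦ σ • f h` of an `R`-algebra homomorphism `f : A → K`. -/
def conjAlgHom (hD : DescentData R K G) {A : Type} [CommRing A] [Algebra R A] (σ : G)
    (f : A →ₐ[R] K) : A →ₐ[R] K :=
  { (MulSemiringAction.toRingHom G K σ).comp (f : A →+* K) with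
    commutes' := fun r => by
      show σ • f (algebraMap R A r) = algebraMap R K r
      rw [f.commutes, hD.fixR] }

@[simp] lemma conjAlgHom_apply (hD : DescentData R K G) {A : Type} [CommRing A] [Algebra R A]
    (σ : G) (f : A →ₐ[R] K) (a : A) : conjAlgHom hD σ f a = σ • f a := rfl

/-- The conjugate point. -/
def gconj (hD : DescentData R K G) (σ : G) (f : Pts R H K) : Pts R H K :=
  toConv (conjAlgHom hD σ f.ofConv)

@[simp] lemma gconj_apply (hD : DescentData R K G) (σ : G) (f : Pts R H K) (h : H) :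
    gconj hD σ f h = σ • f h := rfl

/-- The inverse point `f ∘ antipode`. -/
noncomputable def pinv (f : Pts R H K) : Pts R H K :=
  toConv (f.ofConv.comp (HopfAlgebra.antipodeAlgHom R H))

@[simp] lemma pinv_apply (f : Pts R H K) (h : H) :
    pinv f h = f (HopfAlgebra.antipode R h) := rfl

lemma convMul_apply' (f g : Pts R H K) (h : H) :
    (f * g) h = LinearMap.mul' R K
      (TensorProduct.map f.ofConv.toLinearMap g.ofConv.toLinearMap (Coalgebra.comul h)) := by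
  rw [AlgHom.convMul_apply]
  induction (Coalgebra.comul (R := R) h) using TensorProduct.induction_on with
  | zero => simp
  | tmul a b => simp
  | add x y hx hy => simp [hx, hy]

lemma pinv_mul (f : Pts R H K) : pinv f * f = 1 := by
  apply WithConv.ext
  apply AlgHom.ext
  intro h
  show (pinv f * f) h = (1 : Pts R H K) h
  rw [convMul_apply', AlgHom.convOne_apply]
  have key : ∀ t : H ⊗[R] H,
      LinearMap.mul' R K
        (TensorProduct.map (pinv f).ofConv.toLinearMap f.ofConv.toLinearMap t) =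
      f (LinearMap.mul' R H ((HopfAlgebra.antipode R).rTensor H t)) := by
    intro t
    induction t using TensorProduct.induction_on with
    | zero => simp
    | tmul a b =>
      simp only [TensorProduct.map_tmul, LinearMap.mul'_apply, LinearMap.rTensor_tmul,
        AlgHom.toLinearMap_apply]
      show f (HopfAlgebra.antipode R a) * f b = f (HopfAlgebra.antipode R a * b)
      rw [← map_mul]
    | add x y hx hy => simp only [map_add, hx, hy]
  rw [key, HopfAlgebra.mul_antipode_rTensor_comul_apply]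
  exact f.ofConv.commutes _

/-- A `G`-stable subgroup of the group of points. -/
structure IsGSubgroup (hD : DescentData R K G) (X' : Set (Pts R H K)) : Prop where
  one_mem : (1 : Pts R H K) ∈ X'
  mul_mem : ∀ f ∈ X', ∀ g ∈ X', f * g ∈ X'
  inv_mem : ∀ f ∈ X', pinv f ∈ X'
  stable : ∀ (σ : G), ∀ f ∈ X', gconj hD σ f ∈ X'

end Points

end Fermat.Agent.R.H54

end
-- ==== END Fermat.Agent.R.Flat.H54_Points

-- ==== BEGIN Fermat.Agent.R.H2_Cyc
section

/-!
# Cluster R (helper2): `Stmt_FrobCyc` and `Stmt_CycInertia`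

* `stmt_FrobCyc` : a Frobenius element at `ℓ` raises roots of unity of order prime to `ℓ` to the
  `ℓ`-th power.
* `stmt_CycInertia` : for `p` odd, the inertia group at `p` moves a `p`-th root of unity
  (`ℚ(ζ_p)` is totally ramified at `p`: every automorphism is congruent to the identity on
  `ℤ[ζ_p]` modulo the prime above `p`; then lift inertia, `Lib/InertiaLift.lean`).
-/

set_option autoImplicit false
set_option linter.style.haveILetI false
set_option linter.unusedSectionVars false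
set_option linter.dupNamespace false

namespace Fermat.Agent.R.H2

open Fermat.Agent.R.H89

section general

variable {L : Type*} [Field L]

/-- A natural number prime to the residue characteristic is a unit of the valuation subring. -/
theorem natCast_not_mem_nonunits_of_coprime (A : ValuationSubring L) {n ℓ : ℕ}
    (hcop : n.Coprime ℓ) (hℓ : (ℓ : L) ∈ A.nonunits) : (n : L) ∉ A.nonunits := by
  intro hn
  rw [A.mem_nonunits_iff] at hn hℓ
  have hc : IsCoprime (n : ℤ) (ℓ : ℤ) := Nat.isCoprime_iff_coprime.2 hcop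
  obtain ⟨a, b, hab⟩ := hc
  have h1 : (1 : L) = (a : L) * (n : L) + (b : L) * (ℓ : L) := by
    have := congrArg (fun z : ℤ => (z : L)) hab
    simp only [Int.cast_add, Int.cast_mul, Int.cast_natCast, Int.cast_one] at this
    exact this.symm
  have h2 : A.valuation ((a : L) * (n : L)) < 1 := by
    rw [map_mul]
    calc A.valuation (a : L) * A.valuation (n : L) ≤ 1 * A.valuation (n : L) :=
          mul_le_mul_left (h89_valuation_intCast_le_one A a) _
      _ < 1 := by rw [one_mul]; exact hn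
  have h3 : A.valuation ((b : L) * (ℓ : L)) < 1 := by
    rw [map_mul]
    calc A.valuation (b : L) * A.valuation (ℓ : L) ≤ 1 * A.valuation (ℓ : L) :=
          mul_le_mul_left (h89_valuation_intCast_le_one A b) _
      _ < 1 := by rw [one_mul]; exact hℓ
  have h4 : A.valuation (1 : L) < 1 := by
    rw [h1]
    exact Valuation.map_add_lt _ h2 h3
  rw [map_one] at h4
  exact lt_irrefl _ h4

/-- A `p`-th root of unity is congruent to `1` modulo a prime above `p`. -/
theorem sub_one_mem_nonunits_of_pow_eq_one (A : ValuationSubring L) (p : ℕ) [Fact p.Prime]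
    (hp : (p : L) ∈ A.nonunits) {w : L} (hw : w ^ p = 1) : w - 1 ∈ A.nonunits := by
  have hwA : w ∈ A := by
    rw [← A.valuation_le_one_iff,
      h89_valuation_eq_one_of_pow_eq_one A (Fact.out : p.Prime).ne_zero hw]
  haveI : CharP (IsLocalRing.ResidueField A) p := by
    apply (CharP.charP_iff_prime_eq_zero (Fact.out : p.Prime)).2
    have h1 : (((p : ℕ) : A) : L) ∈ A.nonunits := by
      rw [show (((p : ℕ) : A) : L) = (p : L) by simp]
      exact hp
    obtain ⟨ha, hmem⟩ := (A.mem_nonunits_iff_exists_mem_maximalIdeal).1 h1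
    rw [← map_natCast (IsLocalRing.residue A)]
    exact (IsLocalRing.residue_eq_zero_iff _).2 hmem
  have h3 : frobenius (IsLocalRing.ResidueField A) p (IsLocalRing.residue A ⟨w, hwA⟩) =
      frobenius (IsLocalRing.ResidueField A) p 1 := by
    rw [frobenius_def, frobenius_def, one_pow, ← map_pow]
    have : (⟨w, hwA⟩ : A) ^ p = 1 := Subtype.ext (by simpa using hw)
    rw [this, map_one]
  have h4 : IsLocalRing.residue A ⟨w, hwA⟩ = 1 :=
    frobenius_inj (IsLocalRing.ResidueField A) p h3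
  have h5 : ((⟨w, hwA⟩ : A) - 1) ∈ IsLocalRing.maximalIdeal A := by
    rw [← IsLocalRing.residue_eq_zero_iff, map_sub, h4, map_one, sub_self]
  exact (A.mem_nonunits_iff_exists_mem_maximalIdeal (a := w - 1)).2
    ⟨A.sub_mem hwA A.one_mem, h5⟩

/-- If `σ` is congruent to the identity at `ζ` modulo the maximal ideal of `A`, it is so on all
of `ℤ[ζ]`. -/
theorem sub_mem_nonunits_of_mem_adjoin (A : ValuationSubring L) (σ : L →+* L) {ζ : L}
    (hζA : ζ ∈ A) (hσζ : σ ζ - ζ ∈ A.nonunits) {x : L}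
    (hx : x ∈ Algebra.adjoin ℤ ({ζ} : Set L)) : x ∈ A ∧ σ x - x ∈ A.nonunits := by
  induction hx using Algebra.adjoin_induction with
  | mem y hy =>
    rw [Set.mem_singleton_iff] at hy
    subst hy
    exact ⟨hζA, hσζ⟩
  | algebraMap r =>
    refine ⟨?_, ?_⟩
    · rw [eq_intCast]; exact intCast_mem A r
    · rw [eq_intCast, map_intCast, sub_self, A.mem_nonunits_iff, map_zero]
      exact zero_lt_one
  | add y z _ _ hy hz =>
    refine ⟨add_mem hy.1 hz.1, ?_⟩
    have h1 : σ (y + z) - (y + z) = (σ y - y) + (σ z - z) := by rw [map_add]; ring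
    rw [h1, A.mem_nonunits_iff]
    exact Valuation.map_add_lt _ (A.mem_nonunits_iff.1 hy.2) (A.mem_nonunits_iff.1 hz.2)
  | mul y z _ _ hy hz =>
    refine ⟨mul_mem hy.1 hz.1, ?_⟩
    have hσy : σ y ∈ A := by
      have : σ y = (σ y - y) + y := by ring
      rw [this]
      exact add_mem (A.nonunits_subset hy.2) hy.1
    have h1 : σ (y * z) - y * z = σ y * (σ z - z) + (σ y - y) * z := by rw [map_mul]; ring
    rw [h1, A.mem_nonunits_iff]
    refine Valuation.map_add_lt _ ?_ ?_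
    · rw [map_mul]
      calc A.valuation (σ y) * A.valuation (σ z - z) ≤ 1 * A.valuation (σ z - z) :=
            mul_le_mul_left ((A.valuation_le_one_iff _).2 hσy) _
        _ < 1 := by rw [one_mul]; exact A.mem_nonunits_iff.1 hz.2
    · rw [map_mul]
      calc A.valuation (σ y - y) * A.valuation z ≤ A.valuation (σ y - y) * 1 :=
            mul_le_mul_right ((A.valuation_le_one_iff _).2 hz.1) _
        _ < 1 := by rw [mul_one]; exact A.mem_nonunits_iff.1 hy.2

end general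

/-- **`Stmt_FrobCyc`.** -/
theorem stmt_FrobCyc : Fermat.Agent.R.Stmt_FrobCyc := by
  intro ℓ hℓ A hA σ hσ n hn ζ hζ
  have hn0 : n ≠ 0 := by
    rintro rfl
    rw [Nat.coprime_zero_left] at hn
    exact hℓ.one_lt.ne' hn
  have hnA : (n : AlgebraicClosure ℚ) ∉ A.nonunits :=
    natCast_not_mem_nonunits_of_coprime A hn hA
  have hζA : ζ ∈ A := by
    rw [← A.valuation_le_one_iff, h89_valuation_eq_one_of_pow_eq_one A hn0 hζ]
  have h1 := h89_frob_sub_mem A hσ hζA
  refine h89_eq_of_sub_mem A n hn0 hnA (n := 1) ?_ ?_ h1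
  · rw [pow_one, ← map_pow, hζ, map_one]
  · rw [pow_one, ← pow_mul, mul_comm, pow_mul, hζ, one_pow]

/-- A primitive `p`-th root of unity (`p` an odd prime) in `ℚ̄` is moved by some automorphism. -/
theorem exists_algEquiv_ne_of_isPrimitiveRoot {p : ℕ} (hp : p.Prime) (hp2 : p ≠ 2)
    {ζ : AlgebraicClosure ℚ} (hζ : IsPrimitiveRoot ζ p) :
    ∃ σ₀ : AlgebraicClosure ℚ ≃ₐ[ℚ] AlgebraicClosure ℚ, σ₀ ζ ≠ ζ := by
  haveI : Algebra.IsAlgebraic ℚ (AlgebraicClosure ℚ) := AlgebraicClosure.isAlgebraic ℚ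
  haveI : IsAlgClosure ℚ (AlgebraicClosure ℚ) := ⟨inferInstance, inferInstance⟩
  haveI : IsGalois ℚ (AlgebraicClosure ℚ) := inferInstance
  by_contra hcon
  push Not at hcon
  have hmem : ζ ∈ (⊥ : IntermediateField ℚ (AlgebraicClosure ℚ)) :=
    (InfiniteGalois.mem_bot_iff_fixed ζ).2 hcon
  obtain ⟨q, hq⟩ := IntermediateField.mem_bot.1 hmem
  have hqp : q ^ p = 1 := by
    apply (algebraMap ℚ (AlgebraicClosure ℚ)).injective
    rw [map_pow, hq, map_one]
    exact hζ.pow_eq_one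
  have hodd : Odd p := hp.odd_of_ne_two hp2
  have hq1 : q = 1 := by
    have := hodd.strictMono_pow (R := ℚ)
    apply this.injective
    simp only [hqp, one_pow]
  have hζ1 : ζ = 1 := by rw [← hq, hq1, map_one]
  rw [hζ1] at hζ
  have := IsPrimitiveRoot.one_left_iff.1 hζ
  exact hp.one_lt.ne' this

/-- **`Stmt_CycInertia`.** -/
theorem stmt_CycInertia : Fermat.Agent.R.Stmt_CycInertia := by
  intro p hp hp2 P hP
  haveI : Fact p.Prime := ⟨hp⟩
  haveI : NeZero p := ⟨hp.ne_zero⟩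
  haveI : Algebra.IsAlgebraic ℚ (AlgebraicClosure ℚ) := AlgebraicClosure.isAlgebraic ℚ
  haveI : Algebra.IsIntegral ℚ (AlgebraicClosure ℚ) := inferInstance
  obtain ⟨ζ, hζ⟩ := HasEnoughRootsOfUnity.exists_primitiveRoot (AlgebraicClosure ℚ) p
  obtain ⟨σ₀, hσ₀⟩ := exists_algEquiv_ne_of_isPrimitiveRoot hp hp2 hζ
  have hpP : (p : AlgebraicClosure ℚ) ∈ P.nonunits := hP
  have hζp : ζ ^ p = 1 := hζ.pow_eq_one
  have hζA : ζ ∈ P := by
    rw [← P.valuation_le_one_iff, h89_valuation_eq_one_of_pow_eq_one P hp.ne_zero hζp]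
  have hσζp : (σ₀ ζ) ^ p = 1 := by rw [← map_pow, hζp, map_one]
  have hσζ : σ₀ ζ - ζ ∈ P.nonunits := by
    have h1 := sub_one_mem_nonunits_of_pow_eq_one P p hpP hσζp
    have h2 := sub_one_mem_nonunits_of_pow_eq_one P p hpP hζp
    have h3 : σ₀ ζ - ζ = (σ₀ ζ - 1) + -(ζ - 1) := by ring
    rw [h3, P.mem_nonunits_iff]
    refine Valuation.map_add_lt _ (P.mem_nonunits_iff.1 h1) ?_
    rw [Valuation.map_neg]
    exact P.mem_nonunits_iff.1 h2
  -- the cyclotomic field
  let F : IntermediateField ℚ (AlgebraicClosure ℚ) := IntermediateField.adjoin ℚ {ζ}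
  haveI hcyc : IsCyclotomicExtension {p} ℚ F :=
    hζ.intermediateField_adjoin_isCyclotomicExtension ℚ
  haveI : IsGalois ℚ F := IsCyclotomicExtension.isGalois {p} ℚ F
  haveI : Normal ℚ F := inferInstance
  let ζ' : F := ⟨ζ, IntermediateField.mem_adjoin_simple_self ℚ ζ⟩
  have hζ' : IsPrimitiveRoot ζ' p :=
    IsPrimitiveRoot.of_map_of_injective (f := algebraMap F (AlgebraicClosure ℚ))
      hζ (algebraMap F (AlgebraicClosure ℚ)).injective
  haveI hic : IsIntegralClosure (Algebra.adjoin ℤ ({ζ'} : Set F)) ℤ F :=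
    IsCyclotomicExtension.Rat.isIntegralClosure_adjoin_singleton_of_prime hζ'
  have hint : ∀ x : AlgebraicClosure ℚ, x ∈ F → IsIntegral ℤ x →
      σ₀ x - x ∈ P.nonunits := by
    intro x hxF hxi
    have hxi' : IsIntegral ℤ (⟨x, hxF⟩ : F) := by
      have h1 : IsIntegral ℤ (algebraMap F (AlgebraicClosure ℚ) ⟨x, hxF⟩) := hxi
      exact (isIntegral_algebraMap_iff (algebraMap F (AlgebraicClosure ℚ)).injective).1 h1
    obtain ⟨y, hy⟩ := (IsIntegralClosure.isIntegral_iff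
      (A := Algebra.adjoin ℤ ({ζ'} : Set F))).1 hxi'
    have hmem' : (⟨x, hxF⟩ : F) ∈ Algebra.adjoin ℤ ({ζ'} : Set F) := by
      rw [← hy]; exact y.2
    have hmem : x ∈ Algebra.adjoin ℤ ({ζ} : Set (AlgebraicClosure ℚ)) := by
      have h1 : (F.val.restrictScalars ℤ) ⟨x, hxF⟩ ∈
          (Algebra.adjoin ℤ ({ζ'} : Set F)).map (F.val.restrictScalars ℤ) :=
        ⟨_, hmem', rfl⟩
      rw [AlgHom.map_adjoin, Set.image_singleton] at h1
      exact h1
    exact (sub_mem_nonunits_of_mem_adjoin P (σ₀ : AlgebraicClosure ℚ →+* AlgebraicClosure ℚ)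
      hζA hσζ hmem).2
  obtain ⟨σ, hσI, hσF⟩ :=
    Fermat.Agent.Lib.InertiaLift.exists_mem_inertiaSubgroupIn_eqOn p hp P hP F σ₀ hint
  refine ⟨σ, hσI, ζ, hζp, ?_⟩
  rw [hσF ζ (IntermediateField.mem_adjoin_simple_self ℚ ζ)]
  exact hσ₀

end Fermat.Agent.R.H2

end
-- ==== END Fermat.Agent.R.H2_Cyc

-- ==== BEGIN Fermat.Agent.R.H86_Defs4
section

/-!
# Cluster R: interfaces for the split of S33 (`p ∥ N`, ordinary) into an old and a new case
(helper86)

`Stmt_OrdPoint` (S33 over a complete discrete valuation ring) splits according to whether the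
eigensystem `χ` of level `N = M p` already occurs at level `M = N / p`:

* **old case** (`χ` occurs at level `N / p`): `ρ` is flat at `p` by `Stmt_FlatPoint` at level
  `N / p`, and a flat, residually ordinary representation whose determinant is ramified at `p`
  is ordinary: `Stmt_FlatOrd` (pure algebra, from `Stmt_FlatInf`).
* **new case** (`χ` does not occur at level `N / p`): `Stmt_OrdNew` (geometric input: the toric
  part of `J₀(N)` at `p`).

Leaves:

* `Stmt_UnrFix`  : the field fixed by an inertia group at `ℓ` is unramified at `ℓ`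
  (non-normal form of `Fermat.Agent.Lib.UnramVal.valuation_eq_zpow`).
* `Stmt_FlatInf` : the points of a finite flat group scheme over `ℤ_(p)`, `p` odd, which reduce
  to the identity ("infinitesimal points") contain `(σ - 1) M` for `σ` in inertia, and an
  infinitesimal point of order `p` whose class modulo a decomposition-stable subgroup `N` is
  fixed by inertia lies in `N` (a connected finite flat group scheme over an unramified base, `p` odd,
  has no non-trivial unramified quotient).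
-/

set_option autoImplicit false

open Polynomial IsLocalRing

namespace Fermat.Agent.R

/-- Every non-zero element of `ℚ̄` fixed by the inertia group of `A` (over `ℓ`) has valuation an
integral power of the valuation of `ℓ`. -/
def Stmt_UnrFix : Prop :=
  ∀ (ℓ : ℕ), ℓ.Prime →
    ∀ A : ValuationSubring (AlgebraicClosure ℚ), A.LiesOverPrime ℓ →
      ∀ x : AlgebraicClosure ℚ, x ≠ 0 → (∀ σ ∈ A.inertiaSubgroupIn ℚ, σ x = x) →
        ∃ k : ℤ, A.valuation x = A.valuation (ℓ : AlgebraicClosure ℚ) ^ k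

/-- **Infinitesimal points of a flat Galois module**, `p` odd.  For every place `P` over `p`
there is a subgroup `Inf` of `M` (the points reducing to the identity at `P`) which contains
`(σ - 1) M` for all `σ` in the inertia group of `P`, and such that: if `N` is a subgroup stable
under the decomposition group of `P`, `x ∈ Inf`, `p • x ∈ N` and inertia fixes the class of `x`
modulo `N`, then `x ∈ N`. -/
def Stmt_FlatInf : Prop :=
  ∀ (p : ℕ), p.Prime → p ≠ 2 →
    ∀ (M : Type) [AddCommGroup M]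
      (act : (AlgebraicClosure ℚ ≃ₐ[ℚ] AlgebraicClosure ℚ) → M → M),
      IsFlatGaloisModule p M act →
      ∀ P : ValuationSubring (AlgebraicClosure ℚ), P.LiesOverPrime p →
        ∃ Inf : AddSubgroup M,
          (∀ σ ∈ P.inertiaSubgroupIn ℚ, ∀ x : M, act σ x - x ∈ Inf) ∧
          ∀ N : AddSubgroup M, (∀ σ ∈ P.decompositionSubgroup ℚ, ∀ x ∈ N, act σ x ∈ N) →
            ∀ x ∈ Inf, p • x ∈ N → (∀ σ ∈ P.inertiaSubgroupIn ℚ, act σ x - x ∈ N) → x ∈ N

/-- **Flat and residually ordinary implies ordinary** (when inertia at `p` acts non-trivially on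
the residual representation, e.g. when the determinant is cyclotomic), `p` odd. -/
def Stmt_FlatOrd : Prop :=
  ∀ (p : ℕ), p.Prime → p ≠ 2 →
    ∀ (𝒪 : Type) [CommRing 𝒪] [IsDomain 𝒪] [IsDiscreteValuationRing 𝒪]
      [Finite (ResidueField 𝒪)],
      (p : 𝒪) ∈ maximalIdeal 𝒪 →
      ∀ ρ : GaloisRepAdic 𝒪, ρ.IsFlatAt p →
        (∀ P : ValuationSubring (AlgebraicClosure ℚ), P.LiesOverPrime p →
          ∃ σ₀ ∈ P.inertiaSubgroupIn ℚ, ∃ v₀ : ρ.V,
            ρ.ρ σ₀ v₀ - v₀ ∉ maximalIdeal 𝒪 • (⊤ : Submodule 𝒪 ρ.V)) →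
        (GaloisRepAdic.ofResidualGaloisRep ρ.residual).IsOrdinaryAt p →
        ρ.IsOrdinaryAt p

/-- The eigensystem `χ` of level `N` (away from `S`) occurs at level `M`. -/
def OccursAtLevel {N : ℕ} [NeZero N] {S : Finset ℕ} {𝒪 : Type} [CommRing 𝒪]
    (χ : CuspForm.heckeAlgebra N 2 (↑S : Set ℕ) →+* 𝒪) (M : ℕ) [NeZero M] : Prop :=
  ∃ χ' : CuspForm.heckeAlgebra M 2 (↑S : Set ℕ) →+* 𝒪,
    ∀ (ℓ : ℕ) (hℓ : ℓ.Prime) (hℓN : ¬ ℓ ∣ N) (hℓM : ¬ ℓ ∣ M) (hℓS : ℓ ∉ (↑S : Set ℕ)),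
      χ' (CuspForm.heckeAlgebra.T hℓ hℓM hℓS) = χ (CuspForm.heckeAlgebra.T hℓ hℓN hℓS)

/-- **S33 over a complete discrete valuation ring, `p`-new case**: if the eigensystem does not
occur at level `N / p`, the representation is ordinary at `p` (no residual hypothesis on
ordinarity is needed). -/
def Stmt_OrdNew : Prop :=
  ∀ (p : ℕ) (N M : ℕ) [NeZero N] [NeZero M] (S : Finset ℕ)
    (𝒪 : Type) [CommRing 𝒪] [IsDomain 𝒪] [IsDiscreteValuationRing 𝒪]
    [IsAdicComplete (maximalIdeal 𝒪) 𝒪] [Finite (ResidueField 𝒪)] [CharZero 𝒪],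
    p.Prime → p ≠ 2 → (p : 𝒪) ∈ maximalIdeal 𝒪 → N = M * p → ¬ p ∣ M →
    (∀ q : ℕ, q.Prime → q ∣ N → q ∈ S) →
    ∀ (χ : CuspForm.heckeAlgebra N 2 (↑S : Set ℕ) →+* 𝒪) (ρ : GaloisRepAdic 𝒪),
      HasFrobCharpoly χ ρ → ρ.residual.IsAbsolutelyIrreducible →
      ¬ OccursAtLevel χ M →
      ρ.IsOrdinaryAt p

end Fermat.Agent.R

end
-- ==== END Fermat.Agent.R.H86_Defs4

-- ==== BEGIN Fermat.Agent.S14.H62_Abstract
section

/-!
# S14 / WP A2 (helper62), abstract part: Herbrand quotient of a f.g. `ℤ[σ]`-module, `σ ^ p = 1`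

`A` a finitely generated `ℤ`-module with an endomorphism `σ`, `σ ^ p = 1`, `N = ∑_{i<p} σ^i`,
`D = σ - 1`.  If `rank A = b + (p - 1) c` with `b = rank (ker D)`, then
`p ^ c * [ker D : N A] ≤ p ^ b * [ker N : D A]` and both indices are finite.
-/

namespace Fermat.Agent.S14.H62

open Module

section Basic

variable {A : Type*} [AddCommGroup A]
variable (p : ℕ) (σ : Module.End ℤ A)

/-- The norm element `1 + σ + ... + σ^(p-1)`. -/
noncomputable def nrmE : Module.End ℤ A := ∑ i ∈ Finset.range p, σ ^ i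

/-- `σ - 1`. -/
noncomputable def delE : Module.End ℤ A := σ - 1

variable {p σ}

theorem delE_mul_nrmE (hσ : σ ^ p = 1) : delE σ * nrmE p σ = 0 := by
  rw [delE, nrmE, mul_geom_sum, hσ, sub_self]

theorem nrmE_mul_delE (hσ : σ ^ p = 1) : nrmE p σ * delE σ = 0 := by
  rw [delE, nrmE, geom_sum_mul, hσ, sub_self]

theorem delE_nrmE_apply (hσ : σ ^ p = 1) (x : A) : delE σ (nrmE p σ x) = 0 := by
  rw [← Module.End.mul_apply, delE_mul_nrmE hσ, LinearMap.zero_apply]

theorem nrmE_delE_apply (hσ : σ ^ p = 1) (x : A) : nrmE p σ (delE σ x) = 0 := by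
  rw [← Module.End.mul_apply, nrmE_mul_delE hσ, LinearMap.zero_apply]

theorem delE_apply (x : A) : delE σ x = σ x - x := by
  simp [delE]

theorem pow_apply_of_delE_eq_zero {x : A} (hx : delE σ x = 0) (i : ℕ) : (σ ^ i) x = x := by
  have hx' : σ x = x := sub_eq_zero.mp (by rwa [delE_apply] at hx)
  induction i with
  | zero => simp
  | succ i ih => rw [pow_succ, Module.End.mul_apply, hx', ih]

theorem nrmE_apply_of_delE_eq_zero {x : A} (hx : delE σ x = 0) :
    nrmE p σ x = (p : ℤ) • x := by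
  rw [nrmE, LinearMap.sum_apply]
  simp [pow_apply_of_delE_eq_zero hx]

theorem nrmE_nrmE_apply (hσ : σ ^ p = 1) (x : A) :
    nrmE p σ (nrmE p σ x) = (p : ℤ) • nrmE p σ x :=
  nrmE_apply_of_delE_eq_zero (delE_nrmE_apply hσ x)

theorem nrmE_sub_apply (hσ : σ ^ p = 1) (x : A) :
    nrmE p σ ((p : ℤ) • x - nrmE p σ x) = 0 := by
  rw [map_sub, map_smul, nrmE_nrmE_apply hσ, sub_self]

theorem commute_sigma_nrmE : Commute σ (nrmE p σ) := by
  rw [nrmE]
  exact Commute.sum_right _ _ _ (fun i _ => (Commute.refl σ).pow_right i)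

theorem commute_sigma_delE : Commute σ (delE σ) := by
  rw [delE]
  exact (Commute.refl σ).sub_right (Commute.one_right σ)

end Basic

end Fermat.Agent.S14.H62

namespace Fermat.Agent.S14.H62

open Module

section Sub

variable {A : Type*} [AddCommGroup A]

/-- `B = ker D ∩ A₁`. -/
noncomputable def subB (σ : Module.End ℤ A) (A₁ : Submodule ℤ A) : Submodule ℤ A :=
  LinearMap.ker (delE σ) ⊓ A₁

/-- `C = ker N ∩ A₁`. -/
noncomputable def subC (p : ℕ) (σ : Module.End ℤ A) (A₁ : Submodule ℤ A) : Submodule ℤ A :=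
  LinearMap.ker (nrmE p σ) ⊓ A₁

/-- `A' = B + C`. -/
noncomputable def subA' (p : ℕ) (σ : Module.End ℤ A) (A₁ : Submodule ℤ A) : Submodule ℤ A :=
  subB σ A₁ ⊔ subC p σ A₁

variable {p : ℕ} {σ : Module.End ℤ A} {A₁ : Submodule ℤ A}

theorem pow_mem_of_stable (hst : ∀ x ∈ A₁, σ x ∈ A₁) (i : ℕ) {x : A} (hx : x ∈ A₁) :
    (σ ^ i) x ∈ A₁ := by
  induction i with
  | zero => simpa using hx
  | succ i ih => rw [pow_succ', Module.End.mul_apply]; exact hst _ ih

theorem nrmE_mem_of_stable (hst : ∀ x ∈ A₁, σ x ∈ A₁) {x : A} (hx : x ∈ A₁) :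
    nrmE p σ x ∈ A₁ := by
  rw [nrmE, LinearMap.sum_apply]
  exact Submodule.sum_mem _ (fun i _ => pow_mem_of_stable hst i hx)

theorem delE_mem_of_stable (hst : ∀ x ∈ A₁, σ x ∈ A₁) {x : A} (hx : x ∈ A₁) :
    delE σ x ∈ A₁ := by
  rw [delE_apply]
  exact Submodule.sub_mem _ (hst x hx) hx

theorem eq_zero_of_mem_ker_ker (hp : p ≠ 0)
    (htf : ∀ x ∈ A₁, ∀ n : ℤ, n ≠ 0 → n • x = 0 → x = 0) {x : A}
    (hD : delE σ x = 0) (hN : nrmE p σ x = 0) (hx : x ∈ A₁) : x = 0 := by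
  have h := nrmE_apply_of_delE_eq_zero (p := p) hD
  rw [hN] at h
  exact htf x hx (p : ℤ) (by exact_mod_cast hp) h.symm

theorem mem_subB {x : A} : x ∈ subB σ A₁ ↔ delE σ x = 0 ∧ x ∈ A₁ := by
  simp [subB]

theorem mem_subC {x : A} : x ∈ subC p σ A₁ ↔ nrmE p σ x = 0 ∧ x ∈ A₁ := by
  simp [subC]

theorem subB_le_subA' : subB σ A₁ ≤ subA' p σ A₁ := le_sup_left

theorem subC_le_subA' : subC p σ A₁ ≤ subA' p σ A₁ := le_sup_right

theorem subA'_le : subA' p σ A₁ ≤ A₁ :=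
  sup_le inf_le_right inf_le_right

theorem ker_delE_inf_subA' (hp : p ≠ 0)
    (htf : ∀ x ∈ A₁, ∀ n : ℤ, n ≠ 0 → n • x = 0 → x = 0) :
    LinearMap.ker (delE σ) ⊓ subA' p σ A₁ = subB σ A₁ := by
  apply le_antisymm
  · rintro x ⟨hxD, hxA⟩
    obtain ⟨b, hb, c, hc, rfl⟩ := Submodule.mem_sup.mp hxA
    rw [mem_subB] at hb
    rw [mem_subC] at hc
    have hcD : delE σ c = 0 := by
      have : delE σ (b + c) = 0 := hxD
      rw [map_add, hb.1, zero_add] at this
      exact this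
    have hc0 : c = 0 := eq_zero_of_mem_ker_ker hp htf hcD hc.1 hc.2
    rw [hc0, add_zero]
    exact mem_subB.mpr hb
  · exact le_inf inf_le_left subB_le_subA'

theorem ker_nrmE_inf_subA' (hp : p ≠ 0)
    (htf : ∀ x ∈ A₁, ∀ n : ℤ, n ≠ 0 → n • x = 0 → x = 0) :
    LinearMap.ker (nrmE p σ) ⊓ subA' p σ A₁ = subC p σ A₁ := by
  apply le_antisymm
  · rintro x ⟨hxN, hxA⟩
    obtain ⟨b, hb, c, hc, rfl⟩ := Submodule.mem_sup.mp hxA
    rw [mem_subB] at hb
    rw [mem_subC] at hc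
    have hbN : nrmE p σ b = 0 := by
      have : nrmE p σ (b + c) = 0 := hxN
      rw [map_add, hc.1, add_zero] at this
      exact this
    have hb0 : b = 0 := eq_zero_of_mem_ker_ker hp htf hb.1 hbN hb.2
    rw [hb0, zero_add]
    exact mem_subC.mpr hc
  · exact le_inf inf_le_left subC_le_subA'

theorem map_nrmE_subA' :
    (subA' p σ A₁).map (nrmE p σ) = (subB σ A₁).map ((p : ℤ) • (LinearMap.id : A →ₗ[ℤ] A)) := by
  apply le_antisymm
  · rintro _ ⟨x, hxA, rfl⟩
    obtain ⟨b, hb, c, hc, rfl⟩ := Submodule.mem_sup.mp hxA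
    refine ⟨b, hb, ?_⟩
    have hb' := mem_subB.mp hb
    have hc' := mem_subC.mp hc
    rw [map_add, hc'.1, add_zero, nrmE_apply_of_delE_eq_zero hb'.1]
    simp
  · rintro _ ⟨b, hb, rfl⟩
    refine ⟨b, subB_le_subA' hb, ?_⟩
    have hb' := mem_subB.mp hb
    rw [nrmE_apply_of_delE_eq_zero hb'.1]
    simp

theorem map_delE_subA' :
    (subA' p σ A₁).map (delE σ) = (subC p σ A₁).map (delE σ) := by
  apply le_antisymm
  · rintro _ ⟨x, hxA, rfl⟩
    obtain ⟨b, hb, c, hc, rfl⟩ := Submodule.mem_sup.mp hxA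
    refine ⟨c, hc, ?_⟩
    have hb' := mem_subB.mp hb
    rw [map_add, hb'.1, zero_add]
  · exact Submodule.map_mono subC_le_subA'

theorem delE_mem_subC (hσ : σ ^ p = 1) (hst : ∀ x ∈ A₁, σ x ∈ A₁) {x : A}
    (hx : x ∈ subC p σ A₁) : delE σ x ∈ subC p σ A₁ := by
  rw [mem_subC] at hx ⊢
  exact ⟨nrmE_delE_apply hσ x, delE_mem_of_stable hst hx.2⟩

theorem smul_mem_subB {x : A} (n : ℤ) (hx : x ∈ subB σ A₁) : n • x ∈ subB σ A₁ :=
  Submodule.smul_mem _ n hx

theorem map_delE_subA'_le (hσ : σ ^ p = 1) (hst : ∀ x ∈ A₁, σ x ∈ A₁) :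
    (subA' p σ A₁).map (delE σ) ≤ subA' p σ A₁ := by
  rw [map_delE_subA']
  rintro _ ⟨c, hc, rfl⟩
  exact subC_le_subA' (delE_mem_subC hσ hst hc)

theorem map_nrmE_subA'_le :
    (subA' p σ A₁).map (nrmE p σ) ≤ subA' p σ A₁ := by
  rw [map_nrmE_subA']
  rintro _ ⟨b, hb, rfl⟩
  refine subB_le_subA' ?_
  simpa using smul_mem_subB (p : ℤ) hb

theorem smul_mem_subA' (hσ : σ ^ p = 1) (hst : ∀ x ∈ A₁, σ x ∈ A₁) {t : ℤ}
    (ht : ∀ x : A, t • x ∈ A₁) (x : A) : ((p : ℤ) * t) • x ∈ subA' p σ A₁ := by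
  have hy := ht x
  set y := t • x with hy_def
  have : ((p : ℤ) * t) • x = nrmE p σ y + ((p : ℤ) • y - nrmE p σ y) := by
    rw [mul_smul]; abel
  rw [this]
  refine Submodule.add_mem _ (subB_le_subA' ?_) (subC_le_subA' ?_)
  · exact mem_subB.mpr ⟨delE_nrmE_apply hσ y, nrmE_mem_of_stable hst hy⟩
  · exact mem_subC.mpr ⟨nrmE_sub_apply hσ y,
      Submodule.sub_mem _ (Submodule.smul_mem _ _ hy) (nrmE_mem_of_stable hst hy)⟩

end Sub

end Fermat.Agent.S14.H62

namespace Fermat.Agent.S14.H62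

open Module

section Rank

variable {A : Type*} [AddCommGroup A] [Module.Finite ℤ A]

theorem finrank_range_add_finrank_ker_int {A' : Type*} [AddCommGroup A'] (φ : A →ₗ[ℤ] A') :
    finrank ℤ (LinearMap.range φ) + finrank ℤ (LinearMap.ker φ) = finrank ℤ A := by
  rw [← (LinearMap.quotKerEquivRange φ).finrank_eq]
  exact Submodule.finrank_quotient_add_finrank (LinearMap.ker φ)

theorem finrank_eq_zero_of_smul_eq_zero {T : Type*} [AddCommGroup T] {n : ℤ} (hn : n ≠ 0)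
    (h : ∀ x : T, n • x = 0) : finrank ℤ T = 0 := by
  apply Module.IsTorsion.finrank_eq_zero
  intro x
  exact ⟨⟨n, mem_nonZeroDivisors_of_ne_zero hn⟩, h x⟩

/-- sandwich lemma: `n T ⊆ S ⊆ T` implies `rank S = rank T`. -/
theorem finrank_eq_of_smul_le {S T : Submodule ℤ A} (hST : S ≤ T) {n : ℤ} (hn : n ≠ 0)
    (h : ∀ x ∈ T, n • x ∈ S) : finrank ℤ S = finrank ℤ T := by
  apply le_antisymm (Submodule.finrank_mono hST)
  -- the map `T → S`, `x ↦ n • x`
  let φ : T →ₗ[ℤ] S :=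
    { toFun := fun x => ⟨n • (x : A), h x x.2⟩
      map_add' := fun x y => by ext; simp
      map_smul' := fun m x => by ext; simp [smul_comm n m] }
  have h1 := finrank_range_add_finrank_ker_int φ
  have h2 : finrank ℤ (LinearMap.ker φ) = 0 := by
    apply finrank_eq_zero_of_smul_eq_zero hn
    rintro ⟨x, hx⟩
    ext
    have : φ x = 0 := hx
    have := congrArg (fun y : S => (y : A)) this
    simpa [φ] using this
  rw [h2, add_zero] at h1
  rw [← h1]
  exact Submodule.finrank_le _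

end Rank

end Fermat.Agent.S14.H62

namespace Fermat.Agent.S14.H62

open Module

section Idx

variable {A : Type*} [AddCommGroup A]

/-- relative index of `φ S` in `S` as the cardinality of the cokernel of `φ|S`. -/
theorem relIndex_map_eq_card (S : Submodule ℤ A) (φ : Module.End ℤ A)
    (hφ : ∀ x ∈ S, φ x ∈ S) :
    ((S.map φ).toAddSubgroup).relIndex S.toAddSubgroup =
      Nat.card (S ⧸ LinearMap.range (φ.restrict hφ)) := by
  rw [AddSubgroup.relIndex, AddSubgroup.index]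
  have : ((S.map φ).toAddSubgroup).addSubgroupOf S.toAddSubgroup
      = (LinearMap.range (φ.restrict hφ)).toAddSubgroup := by
    ext ⟨x, hx⟩
    simp only [AddSubgroup.mem_addSubgroupOf, Submodule.mem_toAddSubgroup, Submodule.mem_map,
      LinearMap.mem_range]
    constructor
    · rintro ⟨y, hy, hyx⟩
      exact ⟨⟨y, hy⟩, Subtype.ext hyx⟩
    · rintro ⟨⟨y, hy⟩, hyx⟩
      exact ⟨y, hy, congrArg Subtype.val hyx⟩
  rw [this]
  rfl

end Idx

end Fermat.Agent.S14.H62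

namespace Fermat.Agent.S14.H62

open Module

section Main

variable {A : Type*} [AddCommGroup A] [Module.Finite ℤ A]
variable {p : ℕ} {σ : Module.End ℤ A} {A₁ : Submodule ℤ A}

theorem finrank_subB {t : ℤ} (ht0 : t ≠ 0) (ht : ∀ x : A, t • x ∈ A₁) :
    finrank ℤ (subB σ A₁) = finrank ℤ (LinearMap.ker (delE σ)) := by
  apply finrank_eq_of_smul_le inf_le_left ht0
  intro x hx
  exact mem_subB.mpr ⟨by rw [map_smul, LinearMap.mem_ker.mp hx, smul_zero], ht x⟩

theorem finrank_subC {t : ℤ} (ht0 : t ≠ 0) (ht : ∀ x : A, t • x ∈ A₁) :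
    finrank ℤ (subC p σ A₁) = finrank ℤ (LinearMap.ker (nrmE p σ)) := by
  apply finrank_eq_of_smul_le inf_le_left ht0
  intro x hx
  exact mem_subC.mpr ⟨by rw [map_smul, LinearMap.mem_ker.mp hx, smul_zero], ht x⟩

theorem finrank_range_nrmE (hp : p ≠ 0) (hσ : σ ^ p = 1) :
    finrank ℤ (LinearMap.range (nrmE p σ)) = finrank ℤ (LinearMap.ker (delE σ)) := by
  have hle : LinearMap.range (nrmE p σ) ≤ LinearMap.ker (delE σ) := by
    rintro _ ⟨x, rfl⟩
    exact delE_nrmE_apply hσ x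
  apply finrank_eq_of_smul_le hle (n := (p : ℤ)) (by exact_mod_cast hp)
  intro x hx
  exact ⟨x, nrmE_apply_of_delE_eq_zero (LinearMap.mem_ker.mp hx)⟩

theorem finrank_ker_nrmE (hp : p ≠ 0) (hσ : σ ^ p = 1) :
    finrank ℤ (LinearMap.ker (nrmE p σ)) + finrank ℤ (LinearMap.ker (delE σ)) = finrank ℤ A := by
  rw [← finrank_range_nrmE hp hσ, add_comm]
  exact finrank_range_add_finrank_ker_int (nrmE p σ)

theorem index_subA'_ne_zero (hp : p ≠ 0) (hσ : σ ^ p = 1) (hst : ∀ x ∈ A₁, σ x ∈ A₁) {t : ℤ}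
    (ht0 : t ≠ 0) (ht : ∀ x : A, t • x ∈ A₁) :
    (subA' p σ A₁).toAddSubgroup.index ≠ 0 := by
  have htors : Module.IsTorsion ℤ (A ⧸ subA' p σ A₁) := by
    intro x
    refine ⟨⟨(p : ℤ) * t, mem_nonZeroDivisors_of_ne_zero
      (mul_ne_zero (by exact_mod_cast hp) ht0)⟩, ?_⟩
    induction x using Submodule.Quotient.induction_on with
    | H y =>
      change ((p : ℤ) * t) • (Submodule.Quotient.mk y : A ⧸ subA' p σ A₁) = 0
      rw [← Submodule.Quotient.mk_smul, Submodule.Quotient.mk_eq_zero]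
      exact smul_mem_subA' hσ hst ht y
  have hfin : Finite (A ⧸ subA' p σ A₁) := Module.finite_of_fg_torsion _ htors
  have : Finite (A ⧸ (subA' p σ A₁).toAddSubgroup) := hfin
  exact AddSubgroup.index_ne_zero_of_finite

end Main

end Fermat.Agent.S14.H62

namespace Fermat.Agent.S14.H62

open Module

section Main3

variable {A : Type*} [AddCommGroup A] [Module.Finite ℤ A]
variable {p : ℕ} {σ : Module.End ℤ A} {A₁ : Submodule ℤ A}

theorem hIdx_submodule (f g : Module.End ℤ A) (S : Submodule ℤ A) :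
    hIdx f.toAddMonoidHom g.toAddMonoidHom S.toAddSubgroup =
      ((S.map g).toAddSubgroup).relIndex ((LinearMap.ker f ⊓ S).toAddSubgroup) := by
  rw [hIdx]
  congr 1

theorem isTorsionFree_of_le {S : Submodule ℤ A} (hS : S ≤ A₁)
    (htf : ∀ x ∈ A₁, ∀ n : ℤ, n ≠ 0 → n • x = 0 → x = 0) : Module.IsTorsionFree ℤ S := by
  refine ⟨fun r hr x y hxy => ?_⟩
  have hr0 : r ≠ 0 := hr.ne_zero
  have h1 : r • ((x : A) - y) = 0 := by
    have := congrArg (fun z : S => (z : A)) hxy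
    simp only [Submodule.coe_smul] at this
    rw [smul_sub, this, sub_self]
  have h2 := htf _ (Submodule.sub_mem _ (hS x.2) (hS y.2)) r hr0 h1
  exact Subtype.ext (sub_eq_zero.mp h2)

theorem sigma_mem_subC (hst : ∀ x ∈ A₁, σ x ∈ A₁) {x : A} (hx : x ∈ subC p σ A₁) :
    σ x ∈ subC p σ A₁ := by
  have hx' := mem_subC.mp hx
  refine mem_subC.mpr ⟨?_, hst x hx'.2⟩
  have := (commute_sigma_nrmE (p := p) (σ := σ)).eq
  have h2 : nrmE p σ (σ x) = σ (nrmE p σ x) := by
    rw [← Module.End.mul_apply, ← Module.End.mul_apply, this]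
  rw [h2, hx'.1, map_zero]

theorem hIdx_nrmE_delE_subA' [hpp : Fact p.Prime] (hσ : σ ^ p = 1)
    (htf : ∀ x ∈ A₁, ∀ n : ℤ, n ≠ 0 → n • x = 0 → x = 0) (hst : ∀ x ∈ A₁, σ x ∈ A₁) :
    ∃ k : ℕ, k ≠ 0 ∧
    hIdx (nrmE p σ).toAddMonoidHom (delE σ).toAddMonoidHom (subA' p σ A₁).toAddSubgroup ^ (p - 1)
      = p ^ finrank ℤ (subC p σ A₁) * k := by
  rw [hIdx_submodule, map_delE_subA', ker_nrmE_inf_subA' hpp.out.ne_zero htf]
  have hD : ∀ x ∈ subC p σ A₁, delE σ x ∈ subC p σ A₁ := fun x hx => delE_mem_subC hσ hst hx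
  rw [relIndex_map_eq_card (subC p σ A₁) (delE σ) hD]
  have : Module.IsTorsionFree ℤ (subC p σ A₁) := isTorsionFree_of_le inf_le_right htf
  have hS : ∀ x ∈ subC p σ A₁, σ x ∈ subC p σ A₁ := fun x hx => sigma_mem_subC hst hx
  set τ : Module.End ℤ (subC p σ A₁) := σ.restrict hS with hτ_def
  have h1 : (delE σ).restrict hD = τ - 1 := by
    ext x
    simp [τ, delE_apply]
  have h2 : ∑ i ∈ Finset.range p, τ ^ i = 0 := by
    ext x
    rw [LinearMap.sum_apply]
    simp only [LinearMap.zero_apply, Submodule.coe_zero]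
    rw [AddSubmonoidClass.coe_finsetSum]
    have : ∀ i, (((τ ^ i) x : subC p σ A₁) : A) = (σ ^ i) (x : A) := by
      intro i
      rw [hτ_def, Module.End.pow_restrict]
      rfl
    simp only [this]
    have := (mem_subC.mp x.2).1
    rw [nrmE, LinearMap.sum_apply] at this
    exact this
  rw [h1]
  exact core_cyclotomic p τ h2

theorem hIdx_delE_nrmE_subA' (hp : p ≠ 0)
    (htf : ∀ x ∈ A₁, ∀ n : ℤ, n ≠ 0 → n • x = 0 → x = 0) :
    hIdx (delE σ).toAddMonoidHom (nrmE p σ).toAddMonoidHom (subA' p σ A₁).toAddSubgroup =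
      p ^ finrank ℤ (subB σ A₁) := by
  rw [hIdx_submodule, map_nrmE_subA', ker_delE_inf_subA' hp htf]
  have hst : ∀ x ∈ subB σ A₁, ((p : ℤ) • (LinearMap.id : A →ₗ[ℤ] A)) x ∈ subB σ A₁ := by
    intro x hx
    simpa using smul_mem_subB (p : ℤ) hx
  rw [relIndex_map_eq_card (subB σ A₁) ((p : ℤ) • (LinearMap.id : A →ₗ[ℤ] A)) hst]
  have : Module.IsTorsionFree ℤ (subB σ A₁) := isTorsionFree_of_le inf_le_right htf
  have : ((p : ℤ) • (LinearMap.id : A →ₗ[ℤ] A)).restrict hst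
      = (p : ℤ) • (LinearMap.id : subB σ A₁ →ₗ[ℤ] subB σ A₁) := by
    ext x
    simp
  rw [this, card_quot_smul _ p hp]


/-- **Abstract Herbrand inequality.**  `A` a f.g. `ℤ`-module, `σ ^ p = 1`, `A₁` a `σ`-stable
torsion-free submodule containing `t • A`.  If `rank (ker (σ - 1)) = b` and
`rank A = b + (p - 1) * c`, then `[ker D : N A]` and `[ker N : D A]` are finite and
`p ^ c * [ker D : N A] ≤ p ^ b * [ker N : D A]`. -/
theorem herbrand_abstract [hpp : Fact p.Prime] (hσ : σ ^ p = 1)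
    (htf : ∀ x ∈ A₁, ∀ n : ℤ, n ≠ 0 → n • x = 0 → x = 0) (hst : ∀ x ∈ A₁, σ x ∈ A₁)
    {t : ℤ} (ht0 : t ≠ 0) (ht : ∀ x : A, t • x ∈ A₁)
    (b c : ℕ) (hb : finrank ℤ (LinearMap.ker (delE σ)) = b)
    (ha : finrank ℤ A = b + (p - 1) * c) :
    hIdx (delE σ).toAddMonoidHom (nrmE p σ).toAddMonoidHom ⊤ ≠ 0 ∧
    hIdx (nrmE p σ).toAddMonoidHom (delE σ).toAddMonoidHom ⊤ ≠ 0 ∧
    p ^ c * hIdx (delE σ).toAddMonoidHom (nrmE p σ).toAddMonoidHom ⊤ ≤
      p ^ b * hIdx (nrmE p σ).toAddMonoidHom (delE σ).toAddMonoidHom ⊤ := by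
  have hp0 : p ≠ 0 := hpp.out.ne_zero
  have hp1 : p - 1 ≠ 0 := Nat.sub_ne_zero_of_lt hpp.out.one_lt
  set f := (delE σ).toAddMonoidHom with hf
  set g := (nrmE p σ).toAddMonoidHom with hg
  set S := (subA' p σ A₁).toAddSubgroup with hS
  have hfg : ∀ x, f (g x) = 0 := fun x => delE_nrmE_apply hσ x
  have hgf : ∀ x, g (f x) = 0 := fun x => nrmE_delE_apply hσ x
  have hfS : S.map f ≤ S := by
    have := map_delE_subA'_le (A₁ := A₁) hσ hst
    rintro _ ⟨x, hx, rfl⟩
    exact this ⟨x, hx, rfl⟩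
  have hgS : S.map g ≤ S := by
    have := map_nrmE_subA'_le (p := p) (σ := σ) (A₁ := A₁)
    rintro _ ⟨x, hx, rfl⟩
    exact this ⟨x, hx, rfl⟩
  have hSi : S.index ≠ 0 := index_subA'_ne_zero hp0 hσ hst ht0 ht
  have key := hIdx_mul_eq_of_finiteIndex f g hfg hgf S hfS hgS hSi
  have h0' : hIdx f g S = p ^ b := by
    rw [hf, hg, hS, hIdx_delE_nrmE_subA' hp0 htf, finrank_subB ht0 ht, hb]
  obtain ⟨k, hk0, hk⟩ := hIdx_nrmE_delE_subA' (p := p) (A₁ := A₁) hσ htf hst
  have hrC : finrank ℤ (subC p σ A₁) = (p - 1) * c := by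
    have h1 := finrank_ker_nrmE (A := A) hp0 hσ
    rw [finrank_subC ht0 ht]
    omega
  rw [hrC] at hk
  have h1'ge : p ^ c ≤ hIdx g f S := by
    have h2 : (p ^ c) ^ (p - 1) ≤ hIdx g f S ^ (p - 1) := by
      rw [hk, ← pow_mul, mul_comm c (p - 1)]
      exact Nat.le_mul_of_pos_right _ (Nat.pos_of_ne_zero hk0)
    exact (Nat.pow_le_pow_iff_left hp1).mp h2
  have h1'ne : hIdx g f S ≠ 0 := by
    intro h
    rw [h] at h1'ge
    exact absurd (Nat.le_zero.mp h1'ge) (pow_ne_zero _ hp0)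
  have h0ne : hIdx f g ⊤ ≠ 0 := by
    rw [hIdx_ne_zero_iff_of_finiteIndex f g hfg S hgS hSi, h0']
    exact pow_ne_zero _ hp0
  have h1ne : hIdx g f ⊤ ≠ 0 := by
    rw [hIdx_ne_zero_iff_of_finiteIndex g f hgf S hfS hSi]
    exact h1'ne
  refine ⟨h0ne, h1ne, ?_⟩
  calc p ^ c * hIdx f g ⊤ ≤ hIdx g f S * hIdx f g ⊤ := Nat.mul_le_mul_right _ h1'ge
    _ = hIdx f g ⊤ * hIdx g f S := mul_comm _ _
    _ = hIdx f g S * hIdx g f ⊤ := key
    _ = p ^ b * hIdx g f ⊤ := by rw [h0']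

end Main3

end Fermat.Agent.S14.H62

end
-- ==== END Fermat.Agent.S14.H62_Abstract

-- ==== BEGIN Fermat.Agent.S53.Dict
section

set_option autoImplicit false

/-!
# S53: dictionary between `GaloisRepAdic` / `ResidualGaloisRep` and matrix valued maps.
-/

namespace Fermat.Agent.S53

open IsLocalRing
open scoped TensorProduct

section General

variable {R : Type} [CommRing R] {V V' : Type} [AddCommGroup V] [Module R V]
  [AddCommGroup V'] [Module R V']

/-- The matrix valued homomorphism attached to a representation and a basis. -/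
noncomputable def matHom (b : Module.Basis (Fin 2) R V) (ρ : GQ →* Module.End R V) :
    GQ →* M2 R where
  toFun σ := LinearMap.toMatrix b b (ρ σ)
  map_one' := by rw [map_one]; exact LinearMap.toMatrix_one b
  map_mul' σ τ := by rw [map_mul]; exact LinearMap.toMatrix_mul b _ _

@[simp] theorem matHom_apply (b : Module.Basis (Fin 2) R V) (ρ : GQ →* Module.End R V) (σ : GQ) :
    matHom b ρ σ = LinearMap.toMatrix b b (ρ σ) := rfl

/-- Coordinates of elements of `I • ⊤` lie in `I`. -/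
theorem repr_mem_of_mem_smul_top (b : Module.Basis (Fin 2) R V) (I : Ideal R) {x : V}
    (hx : x ∈ I • (⊤ : Submodule R V)) (i : Fin 2) : b.repr x i ∈ I := by
  refine Submodule.smul_induction_on hx ?_ ?_
  · intro a ha v _
    rw [map_smul, Finsupp.smul_apply, smul_eq_mul]
    exact Ideal.mul_mem_right _ _ ha
  · intro x y hx hy
    rw [map_add, Finsupp.add_apply]
    exact Ideal.add_mem _ hx hy

/-- Equivalence of representations in terms of matrices. -/
theorem exists_equiv_iff_exists_conj (b : Module.Basis (Fin 2) R V)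
    (b' : Module.Basis (Fin 2) R V') (ρ : GQ → Module.End R V) (ρ' : GQ → Module.End R V') :
    (∃ e : V ≃ₗ[R] V', ∀ σ x, e (ρ σ x) = ρ' σ (e x)) ↔
      ∃ g : (M2 R)ˣ, ∀ σ, (g : M2 R) * LinearMap.toMatrix b b (ρ σ) =
        LinearMap.toMatrix b' b' (ρ' σ) * g := by
  constructor
  · rintro ⟨e, he⟩
    have h1 : LinearMap.toMatrix b b' (e : V →ₗ[R] V') *
        LinearMap.toMatrix b' b (e.symm : V' →ₗ[R] V) = 1 := by
      rw [← LinearMap.toMatrix_comp b' b b']
      simp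
    have h2 : LinearMap.toMatrix b' b (e.symm : V' →ₗ[R] V) *
        LinearMap.toMatrix b b' (e : V →ₗ[R] V') = 1 := by
      rw [← LinearMap.toMatrix_comp b b' b]
      simp
    refine ⟨⟨_, _, h1, h2⟩, fun σ => ?_⟩
    show LinearMap.toMatrix b b' (e : V →ₗ[R] V') * LinearMap.toMatrix b b (ρ σ) =
      LinearMap.toMatrix b' b' (ρ' σ) * LinearMap.toMatrix b b' (e : V →ₗ[R] V')
    rw [← LinearMap.toMatrix_comp b b b', ← LinearMap.toMatrix_comp b b' b']
    congr 1
    ext x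
    exact he σ x
  · rintro ⟨g, hg⟩
    have h1 : (Matrix.toLin b b' (g : M2 R)).comp (Matrix.toLin b' b ((g⁻¹ : (M2 R)ˣ) : M2 R)) =
        LinearMap.id := by
      rw [← Matrix.toLin_mul b' b b', Units.mul_inv, Matrix.toLin_one]
    have h2 : (Matrix.toLin b' b ((g⁻¹ : (M2 R)ˣ) : M2 R)).comp (Matrix.toLin b b' (g : M2 R)) =
        LinearMap.id := by
      rw [← Matrix.toLin_mul b b' b, Units.inv_mul, Matrix.toLin_one]
    refine ⟨LinearEquiv.ofLinearMap _ _ h1 h2, fun σ x => ?_⟩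
    show Matrix.toLin b b' (g : M2 R) (ρ σ x) = ρ' σ (Matrix.toLin b b' (g : M2 R) x)
    have e1 : (Matrix.toLin b b' (g : M2 R)).comp (ρ σ) = (ρ' σ).comp (Matrix.toLin b b' (g : M2 R)) := by
      apply (LinearMap.toMatrix b b').injective
      rw [LinearMap.toMatrix_comp b b b', LinearMap.toMatrix_comp b b' b', LinearMap.toMatrix_toLin]
      exact hg σ
    exact congrArg (fun f => f x) e1

/-- Conjugating the matrices of a representation is a change of basis. -/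
theorem exists_basis_conj (b : Module.Basis (Fin 2) R V) (g : (M2 R)ˣ) :
    ∃ b' : Module.Basis (Fin 2) R V, ∀ f : Module.End R V,
      LinearMap.toMatrix b' b' f = (g : M2 R) * LinearMap.toMatrix b b f * ((g⁻¹ : (M2 R)ˣ) : M2 R) := by
  have h1 : (Matrix.toLin b b (g : M2 R)).comp (Matrix.toLin b b ((g⁻¹ : (M2 R)ˣ) : M2 R)) =
      LinearMap.id := by
    rw [← Matrix.toLin_mul b b b, Units.mul_inv, Matrix.toLin_one]
  have h2 : (Matrix.toLin b b ((g⁻¹ : (M2 R)ˣ) : M2 R)).comp (Matrix.toLin b b (g : M2 R)) =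
      LinearMap.id := by
    rw [← Matrix.toLin_mul b b b, Units.inv_mul, Matrix.toLin_one]
  -- `e = g⁻¹` as a linear equivalence
  let e : V ≃ₗ[R] V := LinearEquiv.ofLinearMap _ _ h2 h1
  refine ⟨b.map e, fun f => ?_⟩
  have key : LinearMap.toMatrix (b.map e) (b.map e) f =
      LinearMap.toMatrix b b ((e.symm : V →ₗ[R] V).comp (f.comp (e : V →ₗ[R] V))) := by
    ext i j
    simp [LinearMap.toMatrix_apply]
  rw [key, LinearMap.toMatrix_comp b b b, LinearMap.toMatrix_comp b b b]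
  have he : LinearMap.toMatrix b b (e : V →ₗ[R] V) = ((g⁻¹ : (M2 R)ˣ) : M2 R) :=
    LinearMap.toMatrix_toLin b b _
  have he' : LinearMap.toMatrix b b (e.symm : V →ₗ[R] V) = (g : M2 R) :=
    LinearMap.toMatrix_toLin b b _
  rw [he, he', mul_assoc]

end General

section Adic

variable {A : Type} [CommRing A] [IsLocalRing A]

theorem exists_isMatOf (ρ : GaloisRepAdic A) : ∃ r : GQ →* M2 A, IsMatOf ρ r :=
  ⟨matHom (Module.finBasisOfFinrankEq A ρ.V ρ.finrank_eq) ρ.ρ,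
    Module.finBasisOfFinrankEq A ρ.V ρ.finrank_eq, fun _ => rfl⟩

theorem IsMatOf.matCont {ρ : GaloisRepAdic A} {r : GQ → M2 A} (h : IsMatOf ρ r) : MatCont r := by
  obtain ⟨b, hb⟩ := h
  intro n
  obtain ⟨L, hL, h1⟩ := ρ.isAdicContinuous n
  refine ⟨L, hL, fun σ hσ i j => ?_⟩
  have := repr_mem_of_mem_smul_top b _ (h1 σ hσ (b j)) i
  rw [← hb σ, Matrix.sub_apply, LinearMap.toMatrix_apply, Matrix.one_apply]
  rw [map_sub, Finsupp.sub_apply, Module.Basis.repr_self, Finsupp.single_apply] at this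
  simpa [eq_comm] using this

theorem isMatOf_ofMat (r : GQ →* M2 A) (h : MatCont r) : IsMatOf (ofMat r h) r := by
  refine ⟨Pi.basisFun A (Fin 2), fun σ => ?_⟩
  show LinearMap.toMatrix (Pi.basisFun A (Fin 2)) (Pi.basisFun A (Fin 2))
    (Matrix.toLinAlgEquiv' (r σ)) = r σ
  rw [LinearMap.toMatrix_eq_toMatrix']
  exact LinearMap.toMatrix'_toLin' (r σ)

theorem IsMatOf.baseChangeAlong {B : Type} [CommRing B] [IsLocalRing B] (φ : A →+* B)
    (hφ : IsLocalHom φ) {ρ : GaloisRepAdic A} {r : GQ → M2 A} (h : IsMatOf ρ r) :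
    IsMatOf (ρ.baseChangeAlong φ hφ) (fun σ => (r σ).map φ) := by
  obtain ⟨b, hb⟩ := h
  let _ : Algebra A B := φ.toAlgebra
  refine ⟨Algebra.TensorProduct.basis B b, fun σ => ?_⟩
  show LinearMap.toMatrix (Algebra.TensorProduct.basis B b) (Algebra.TensorProduct.basis B b)
    ((ρ.ρ σ).baseChange B) = (r σ).map φ
  rw [LinearMap.toMatrix_baseChange, hb σ]
  rfl

theorem IsMatOf.isEquiv_iff {ρ ρ' : GaloisRepAdic A} {r r' : GQ → M2 A}
    (h : IsMatOf ρ r) (h' : IsMatOf ρ' r') :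
    ρ.IsEquiv ρ' ↔ ∃ g : (M2 A)ˣ, ∀ σ, (g : M2 A) * r σ = r' σ * g := by
  obtain ⟨b, hb⟩ := h
  obtain ⟨b', hb'⟩ := h'
  have key := exists_equiv_iff_exists_conj b b' (fun σ => ρ.ρ σ) (fun σ => ρ'.ρ σ)
  simp only [hb, hb'] at key
  rw [← key]
  constructor
  · rintro ⟨e⟩
    exact ⟨e.toLinearEquiv, e.map_apply⟩
  · rintro ⟨e, he⟩
    exact ⟨⟨e, he⟩⟩

theorem IsMatOf.conj {ρ : GaloisRepAdic A} {r : GQ → M2 A} (h : IsMatOf ρ r) (g : (M2 A)ˣ) :
    IsMatOf ρ (fun σ => (g : M2 A) * r σ * ((g⁻¹ : (M2 A)ˣ) : M2 A)) := by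
  obtain ⟨b, hb⟩ := h
  obtain ⟨b', hb'⟩ := exists_basis_conj b g
  exact ⟨b', fun σ => by rw [hb', hb]⟩

theorem IsMatOf.residual {ρ : GaloisRepAdic A} {r : GQ → M2 A} (h : IsMatOf ρ r) :
    IsMatOfRes ρ.residual (fun σ => (r σ).map (residue A)) := by
  obtain ⟨b, hb⟩ := h
  refine ⟨Algebra.TensorProduct.basis (ResidueField A) b, fun σ => ?_⟩
  show LinearMap.toMatrix (Algebra.TensorProduct.basis (ResidueField A) b)
    (Algebra.TensorProduct.basis (ResidueField A) b)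
    ((ρ.ρ σ).baseChange (ResidueField A)) = (r σ).map (residue A)
  rw [LinearMap.toMatrix_baseChange, hb σ]
  rfl

end Adic

section Residual

variable {k : Type} [Field k]

theorem exists_isMatOfRes (ρ : ResidualGaloisRep k) : ∃ r : GQ →* M2 k, IsMatOfRes ρ r :=
  ⟨matHom (Module.finBasisOfFinrankEq k ρ.V ρ.finrank_eq) ρ.ρ,
    Module.finBasisOfFinrankEq k ρ.V ρ.finrank_eq, fun _ => rfl⟩

theorem IsMatOfRes.baseChange (k' : Type) [Field k'] [Algebra k k']
    {ρ : ResidualGaloisRep k} {r : GQ → M2 k} (h : IsMatOfRes ρ r) :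
    IsMatOfRes (ρ.baseChange k') (fun σ => (r σ).map (algebraMap k k')) := by
  obtain ⟨b, hb⟩ := h
  refine ⟨Algebra.TensorProduct.basis k' b, fun σ => ?_⟩
  show LinearMap.toMatrix (Algebra.TensorProduct.basis k' b) (Algebra.TensorProduct.basis k' b)
    ((ρ.ρ σ).baseChange k') = (r σ).map (algebraMap k k')
  rw [LinearMap.toMatrix_baseChange, hb σ]

theorem IsMatOfRes.baseChangeAlong {k' : Type} [Field k'] (ψ : k →+* k')
    {ρ : ResidualGaloisRep k} {r : GQ → M2 k} (h : IsMatOfRes ρ r) :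
    IsMatOfRes (ρ.baseChangeAlong ψ) (fun σ => (r σ).map ψ) := by
  let _ : Algebra k k' := ψ.toAlgebra
  exact IsMatOfRes.baseChange k' h

theorem IsMatOfRes.isEquiv_iff {ρ ρ' : ResidualGaloisRep k} {r r' : GQ → M2 k}
    (h : IsMatOfRes ρ r) (h' : IsMatOfRes ρ' r') :
    ρ.IsEquiv ρ' ↔ ∃ g : (M2 k)ˣ, ∀ σ, (g : M2 k) * r σ = r' σ * g := by
  obtain ⟨b, hb⟩ := h
  obtain ⟨b', hb'⟩ := h'
  have key := exists_equiv_iff_exists_conj b b' (fun σ => ρ.ρ σ) (fun σ => ρ'.ρ σ)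
  simp only [hb, hb'] at key
  rw [← key]
  constructor
  · rintro ⟨e⟩
    exact ⟨e.toLinearEquiv, e.map_apply⟩
  · rintro ⟨e, he⟩
    exact ⟨⟨e, he⟩⟩

end Residual

section Lift

variable {A : Type} [CommRing A] [IsLocalRing A]

/-- A matrix over a local ring whose reduction is invertible is invertible. -/
theorem isUnit_of_isUnit_map_residue (g : M2 A) (hg : IsUnit (g.map (residue A))) : IsUnit g := by
  rw [Matrix.isUnit_iff_isUnit_det] at hg ⊢
  have h : (g.map (residue A)).det = residue A g.det := by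
    rw [← RingHom.mapMatrix_apply, ← RingHom.map_det]
  rw [h] at hg
  exact isUnit_of_map_unit (residue A) _ hg

/-- Every matrix over the residue field lifts. -/
theorem exists_map_residue_eq (gbar : M2 (ResidueField A)) :
    ∃ g : M2 A, g.map (residue A) = gbar := by
  choose f hf using fun i j => IsLocalRing.residue_surjective (R := A) (gbar i j)
  exact ⟨Matrix.of f, by ext i j; exact hf i j⟩

/-- Conjugation of a matrix valued homomorphism by a unit. -/
noncomputable def conjHom (g : (M2 A)ˣ) (r : GQ →* M2 A) : GQ →* M2 A where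
  toFun σ := (g : M2 A) * r σ * ((g⁻¹ : (M2 A)ˣ) : M2 A)
  map_one' := by rw [map_one, mul_one, Units.mul_inv]
  map_mul' σ τ := by
    rw [map_mul]
    simp only [mul_assoc, Units.inv_mul_cancel_left]

omit [IsLocalRing A] in
@[simp] theorem conjHom_apply (g : (M2 A)ˣ) (r : GQ →* M2 A) (σ : GQ) :
    conjHom g r σ = (g : M2 A) * r σ * ((g⁻¹ : (M2 A)ˣ) : M2 A) := rfl

variable {𝒪 : Type} [CommRing 𝒪] [IsLocalRing 𝒪]
variable [Algebra 𝒪 A] [IsLocalHom (algebraMap 𝒪 A)]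

/-- A representation whose residual representation is equivalent to the base change of `ρbar`
has a matrix form which is a strict lift of a given matrix form `rbar` of `ρbar`. -/
theorem exists_isLift_of_residual_isEquiv {ρbar : ResidualGaloisRep (ResidueField 𝒪)}
    {rbar : GQ → M2 (ResidueField 𝒪)} (hbar : IsMatOfRes ρbar rbar) (ρ : GaloisRepAdic A)
    (h : ρ.residual.IsEquiv (ρbar.baseChangeAlong (ResidueField.map (algebraMap 𝒪 A)))) :
    ∃ r : GQ →* M2 A, IsMatOf ρ r ∧ IsLift 𝒪 rbar r := by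
  obtain ⟨r₀, hr₀⟩ := exists_isMatOf ρ
  obtain ⟨gbar, hgbar⟩ := (IsMatOfRes.isEquiv_iff hr₀.residual
    (hbar.baseChangeAlong (ResidueField.map (algebraMap 𝒪 A)))).mp h
  obtain ⟨g₀, hg₀⟩ := exists_map_residue_eq (gbar : M2 (ResidueField A))
  have hu : IsUnit g₀ := isUnit_of_isUnit_map_residue g₀ (hg₀ ▸ gbar.isUnit)
  obtain ⟨g, rfl⟩ := hu
  refine ⟨conjHom g r₀, hr₀.conj g, fun σ => ?_⟩
  have hinv : (gbar : M2 (ResidueField A)) * (((g⁻¹ : (M2 A)ˣ) : M2 A).map (residue A)) = 1 := by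
    rw [← hg₀, ← RingHom.mapMatrix_apply, ← RingHom.mapMatrix_apply, ← map_mul, Units.mul_inv,
      map_one]
  rw [conjHom_apply, ← RingHom.mapMatrix_apply, map_mul, map_mul, RingHom.mapMatrix_apply,
    RingHom.mapMatrix_apply, RingHom.mapMatrix_apply, hg₀, hgbar σ, mul_assoc, hinv, mul_one]

theorem residual_isEquiv_of_isLift {ρbar : ResidualGaloisRep (ResidueField 𝒪)}
    {rbar : GQ → M2 (ResidueField 𝒪)} (hbar : IsMatOfRes ρbar rbar) {ρ : GaloisRepAdic A}
    {r : GQ → M2 A} (h : IsMatOf ρ r) (hl : IsLift 𝒪 rbar r) :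
    ρ.residual.IsEquiv (ρbar.baseChangeAlong (ResidueField.map (algebraMap 𝒪 A))) := by
  refine (IsMatOfRes.isEquiv_iff h.residual
    (hbar.baseChangeAlong (ResidueField.map (algebraMap 𝒪 A)))).mpr ⟨1, fun σ => ?_⟩
  rw [Units.val_one, one_mul, mul_one]
  exact hl σ

end Lift

end Fermat.Agent.S53

end
-- ==== END Fermat.Agent.S53.Dict
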