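-- GENERATED (merged mirror, NOTES/tools/trim/merge3_helper67.py): 11 modules of the originals, bodies verbatim.
import Mathlib
import Fermat.Prelude.Def_GaloisRep_Flat
import Fermat.Agent.Zm.S35_L02_001

-- ==== BEGIN Fermat.Agent.S56.FL.H85_CCCount
section

set_option autoImplicit false
set_option linter.unusedSectionVars false
set_option linter.style.haveILetI false

/-!
# LOC-p-FL, package UNITS (helper85): the semilinear count

`k`, `κ` fields of characteristic `p`, `k` finite.  A family of operators `act g` of `κ` whose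
common fixed points are the prime field, multipliers `η g ∈ kˣ`.  The `𝔽_p`-linear maps
`Ψ : k → κ` with `Ψ (η g * x) = act g (Ψ x)` are "Galois fixed vectors" of the `κ`-space
`Hom_{𝔽_p}(k, κ)` (of dimension `[k : 𝔽_p]`), so (Galois descent) they form an `𝔽_p`-space of
dimension `≤ [k : 𝔽_p]`.  Hence a biadditive `B : k² × k → κ` with this equivariance in the second
variable has a nonzero `l` with `B l = 0`.
-/

noncomputable section

namespace Fermat.Agent.S56.FL.H85

open Module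

variable {p : ℕ} [Fact p.Prime]
variable {k κ : Type*} [Field k] [Field κ] [Algebra (ZMod p) k] [Algebra (ZMod p) κ]
variable {G : Type*}

/-- **Galois descent, injectivity.**  Fixed vectors which are independent over the prime field
are independent over `κ`. -/
theorem linearIndependent_of_fixed (η : G → k) (hη : ∀ g, η g ≠ 0) (act : G → κ →+* κ)
    (hfix : ∀ y : κ, (∀ g, act g y = y) → ∃ j : ZMod p, algebraMap (ZMod p) κ j = y)
    {ι : Type*} (v : ι → (k →ₗ[ZMod p] κ)) (hv : ∀ i g x, v i (η g * x) = act g (v i x))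
    (hind : LinearIndependent (ZMod p) v) : LinearIndependent κ v := by
  classical
  rw [linearIndependent_iff']
  intro s
  induction s using Finset.induction_on with
  | empty => intro a _ i hi; simp at hi
  | insert i₀ s hi₀ ih =>
    intro a ha
    -- twisting a relation
    have htw : ∀ (t : Finset ι) (b : ι → κ), ∑ i ∈ t, b i • v i = 0 →
        ∀ g, ∑ i ∈ t, (act g (b i)) • v i = 0 := by
      intro t b hb g
      apply LinearMap.ext
      intro y
      have hy : y = η g * ((η g)⁻¹ * y) := by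
        rw [← mul_assoc, mul_inv_cancel₀ (hη g), one_mul]
      have h1 := congrArg (fun Ψ : k →ₗ[ZMod p] κ => act g (Ψ ((η g)⁻¹ * y))) hb
      simp only [LinearMap.coe_sum, Finset.sum_apply, LinearMap.smul_apply, smul_eq_mul,
        map_sum, map_mul, LinearMap.zero_apply, map_zero] at h1
      rw [hy]
      simp only [LinearMap.coe_sum, Finset.sum_apply, LinearMap.smul_apply, smul_eq_mul,
        LinearMap.zero_apply, hv]
      exact h1
    by_cases h0 : a i₀ = 0
    · have ha' : ∑ i ∈ s, a i • v i = 0 := by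
        rw [Finset.sum_insert hi₀, h0, zero_smul, zero_add] at ha
        exact ha
      intro i hi
      rcases Finset.mem_insert.mp hi with rfl | hi
      · exact h0
      · exact ih a ha' i hi
    · exfalso
      -- normalise
      set b : ι → κ := fun i => (a i₀)⁻¹ * a i with hb
      have hb0 : b i₀ = 1 := inv_mul_cancel₀ h0
      have hrel : ∑ i ∈ insert i₀ s, b i • v i = 0 := by
        have : ∑ i ∈ insert i₀ s, b i • v i = (a i₀)⁻¹ • ∑ i ∈ insert i₀ s, a i • v i := by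
          rw [Finset.smul_sum]
          exact Finset.sum_congr rfl fun i _ => by rw [hb, mul_smul]
        rw [this, ha, smul_zero]
      -- the coefficients are fixed
      have hfixed : ∀ i ∈ s, ∀ g, act g (b i) = b i := by
        intro i hi g
        have h1 := htw _ b hrel g
        have h2 : ∑ i ∈ s, (act g (b i) - b i) • v i = 0 := by
          rw [Finset.sum_insert hi₀, hb0, map_one, one_smul] at h1
          have hrel' := hrel
          rw [Finset.sum_insert hi₀, hb0, one_smul] at hrel'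
          have : ∑ i ∈ s, (act g (b i) - b i) • v i
              = (v i₀ + ∑ i ∈ s, act g (b i) • v i) - (v i₀ + ∑ i ∈ s, b i • v i) := by
            have e1 : ∀ i ∈ s, (act g (b i) - b i) • v i = act g (b i) • v i - b i • v i :=
              fun i _ => sub_smul (act g (b i)) (b i) (v i)
            rw [Finset.sum_congr rfl e1, Finset.sum_sub_distrib]
            abel
          rw [this, h1, hrel', sub_zero]
        exact sub_eq_zero.mp (ih _ h2 i hi)
      -- hence in the prime field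
      have hex : ∀ i : ι, ∃ j : ZMod p, i ∈ insert i₀ s → algebraMap (ZMod p) κ j = b i := by
        intro i
        by_cases hi : i ∈ insert i₀ s
        · rcases Finset.mem_insert.mp hi with rfl | his
          · exact ⟨1, fun _ => by rw [map_one, hb0]⟩
          · obtain ⟨j, hj⟩ := hfix (b i) (hfixed i his)
            exact ⟨j, fun _ => hj⟩
        · exact ⟨0, fun h => absurd h hi⟩
      choose β hβ using hex
      have hrelF : ∑ i ∈ insert i₀ s, β i • v i = 0 := by
        rw [← hrel]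
        refine Finset.sum_congr rfl fun i hi => ?_
        rw [← hβ i hi, algebraMap_smul]
      have h1 := linearIndependent_iff'.mp hind _ β hrelF i₀ (Finset.mem_insert_self _ _)
      have h2 := hβ i₀ (Finset.mem_insert_self _ _)
      rw [h1, map_zero, hb0] at h2
      exact zero_ne_one h2

variable [Finite k]

/-- **The count.**  A biadditive `B : k² × k → κ`, equivariant in the second variable, vanishes
identically for some nonzero first argument. -/
theorem exists_ne_zero_of_fixed (η : G → k) (hη : ∀ g, η g ≠ 0) (act : G → κ →+* κ)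
    (hfix : ∀ y : κ, (∀ g, act g y = y) → ∃ j : ZMod p, algebraMap (ZMod p) κ j = y)
    (B : k × k → k → κ)
    (hBl : ∀ l l' x, B (l + l') x = B l x + B l' x)
    (hBx : ∀ l x x', B l (x + x') = B l x + B l x')
    (hBg : ∀ g l x, B l (η g * x) = act g (B l x)) :
    ∃ l : k × k, l ≠ 0 ∧ ∀ x, B l x = 0 := by
  classical
  -- the linear maps
  let Ψ : k × k → (k →ₗ[ZMod p] κ) := fun l =>
    (AddMonoidHom.mk' (B l) (hBx l)).toZModLinearMap p
  have hΨ : ∀ l x, Ψ l x = B l x := fun l x => rfl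
  let T : (k × k) →ₗ[ZMod p] (k →ₗ[ZMod p] κ) :=
    (AddMonoidHom.mk' Ψ (fun l l' => by
      apply LinearMap.ext; intro x
      rw [LinearMap.add_apply, hΨ, hΨ, hΨ, hBl])).toZModLinearMap p
  have hT : ∀ l x, T l x = B l x := fun l x => rfl
  by_contra hcon
  have hinj : LinearMap.ker T = ⊥ := by
    rw [LinearMap.ker_eq_bot']
    intro l hl
    by_contra hl0
    exact hcon ⟨l, hl0, fun x => by rw [← hT, hl, LinearMap.zero_apply]⟩
  haveI : Module.Finite (ZMod p) k := Module.Finite.of_finite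
  let b := Module.Free.chooseBasis (ZMod p) (k × k)
  have h1 : LinearIndependent (ZMod p) (fun i => T (b i)) := b.linearIndependent.map' T hinj
  have h2 : LinearIndependent κ (fun i => T (b i)) :=
    linearIndependent_of_fixed η hη act hfix _ (fun i g x => by rw [hT, hT, hBg]) h1
  have h3 := h2.fintype_card_le_finrank
  rw [Module.finrank_linearMap, Module.finrank_self, mul_one,
    ← Module.finrank_eq_card_chooseBasisIndex, Module.finrank_prod] at h3
  have h4 : 0 < finrank (ZMod p) k := Module.finrank_pos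
  omega

end Fermat.Agent.S56.FL.H85

end

end
-- ==== END Fermat.Agent.S56.FL.H85_CCCount

-- ==== BEGIN Fermat.Agent.S56.FL.LF.H15_HerbComb
section

set_option autoImplicit false

/-!
# Herbrand's theorem, combinatorial part (helper15)

`Γ` a group, `D : Γ → ℝ` an ultrametric "depth" (`D ≥ 0`, `D (g h) ≤ max (D g) (D h)`,
`D g⁻¹ = D g`), `N ≤ H` finite subgroups.  With `cosetProd N D g = ∏_{ν ∈ N} D (g ν)`:
if `σ₀` has minimal depth in its coset `σ₀ N`, then
`∏_{τ ∈ H} max (cosetProd σ₀) (cosetProd τ) = (∏_{τ ∈ H} max (D σ₀) (D τ)) ^ |N|`.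
(In additive notation: `Φ_{L/K'} = Φ_{M/K'} ∘ Φ_{L/M}` evaluated at `i(σ₀)`.)
-/

namespace Fermat.Agent.S56.FL.H15

open Finset

variable {Γ : Type*} [Group Γ]

/-- An ultrametric depth function on a group. -/
structure IsDepthFn (D : Γ → ℝ) : Prop where
  nonneg : ∀ g, 0 ≤ D g
  mul_le : ∀ g h, D (g * h) ≤ max (D g) (D h)
  inv : ∀ g, D g⁻¹ = D g

variable (N : Subgroup Γ) [Fintype N] (D : Γ → ℝ)

/-- The product of `D` over the coset `g N`. -/
noncomputable def cosetProd (g : Γ) : ℝ := ∏ ν : N, D (g * ν)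

variable {N D}

theorem cosetProd_nonneg (hD : IsDepthFn D) (g : Γ) : 0 ≤ cosetProd N D g :=
  Finset.prod_nonneg fun _ _ => hD.nonneg _

theorem prod_mul_left_subgroup (f : Γ → ℝ) (g : Γ) (ν₁ : N) :
    ∏ ν : N, f (g * ν₁ * ν) = ∏ ν : N, f (g * ν) := by
  refine Fintype.prod_equiv (Equiv.mulLeft ν₁) _ _ fun ν => ?_
  simp [mul_assoc]

theorem cosetProd_mul_right (g : Γ) (ν₁ : N) : cosetProd N D (g * ν₁) = cosetProd N D g :=
  prod_mul_left_subgroup D g ν₁

theorem exists_min_coset (D : Γ → ℝ) (g : Γ) : ∃ ν₀ : N, ∀ ν : N, D (g * ν₀) ≤ D (g * ν) := by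
  obtain ⟨ν₀, hν₀⟩ := Finite.exists_min (fun ν : N => D (g * ν))
  exact ⟨ν₀, hν₀⟩

omit [Fintype N] in
theorem eq_max_of_min (hD : IsDepthFn D) {g₀ : Γ} (hmin : ∀ ν : N, D g₀ ≤ D (g₀ * ν))
    (ν : N) : D (g₀ * ν) = max (D (ν : Γ)) (D g₀) := by
  apply le_antisymm
  · rw [max_comm]; exact hD.mul_le _ _
  · refine max_le ?_ (hmin ν)
    have h1 : (ν : Γ) = g₀⁻¹ * (g₀ * ν) := by group
    have h2 : D (ν : Γ) ≤ max (D g₀⁻¹) (D (g₀ * ν)) := by
      conv_lhs => rw [h1]
      exact hD.mul_le _ _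
    rw [hD.inv] at h2
    exact h2.trans (max_le (hmin ν) le_rfl)

theorem max_prod_max (hD : IsDepthFn D) (a b : ℝ) :
    max (∏ ν : N, max (D (ν : Γ)) a) (∏ ν : N, max (D (ν : Γ)) b)
      = ∏ ν : N, max (D (ν : Γ)) (max a b) := by
  have key : ∀ a b : ℝ, a ≤ b →
      max (∏ ν : N, max (D (ν : Γ)) a) (∏ ν : N, max (D (ν : Γ)) b)
        = ∏ ν : N, max (D (ν : Γ)) (max a b) := by
    intro a b hab
    rw [max_eq_right hab]
    apply max_eq_right
    refine Finset.prod_le_prod (fun ν _ => ?_) (fun ν _ => ?_)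
    · exact (hD.nonneg _).trans (le_max_left _ _)
    · exact max_le_max le_rfl hab
  rcases le_total a b with h | h
  · exact key a b h
  · rw [max_comm, max_comm a b]
    exact key b a h

theorem max_cosetProd (hD : IsDepthFn D) {σ₀ : Γ} (hσ : ∀ ν : N, D σ₀ ≤ D (σ₀ * ν)) (τ : Γ) :
    max (cosetProd N D σ₀) (cosetProd N D τ) = ∏ ν : N, max (D σ₀) (D (τ * ν)) := by
  obtain ⟨ν₁, hν₁⟩ := exists_min_coset (N := N) D τ
  have hτ₀ : ∀ ν : N, D (τ * ν₁) ≤ D (τ * ν₁ * ν) := by
    intro ν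
    have := hν₁ (ν₁ * ν)
    simpa [mul_assoc] using this
  have h1 : cosetProd N D σ₀ = ∏ ν : N, max (D (ν : Γ)) (D σ₀) :=
    Finset.prod_congr rfl fun ν _ => eq_max_of_min hD hσ ν
  have h2 : cosetProd N D τ = ∏ ν : N, max (D (ν : Γ)) (D (τ * ν₁)) := by
    rw [← cosetProd_mul_right τ ν₁]
    exact Finset.prod_congr rfl fun ν _ => eq_max_of_min hD hτ₀ ν
  rw [h1, h2, max_prod_max hD]
  rw [← prod_mul_left_subgroup (fun g => max (D σ₀) (D g)) τ ν₁]
  refine Finset.prod_congr rfl fun ν _ => ?_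
  rw [eq_max_of_min hD hτ₀ ν, max_left_comm]

/-- The combinatorial form of Herbrand's theorem. -/
theorem prod_max_cosetProd (hD : IsDepthFn D) (H : Subgroup Γ) [Fintype H] (hNH : N ≤ H)
    {σ₀ : Γ} (hσ : ∀ ν : N, D σ₀ ≤ D (σ₀ * ν)) :
    ∏ τ : H, max (cosetProd N D σ₀) (cosetProd N D (τ : Γ))
      = (∏ τ : H, max (D σ₀) (D (τ : Γ))) ^ Fintype.card N := by
  have h1 : ∀ τ : H, max (cosetProd N D σ₀) (cosetProd N D (τ : Γ))
      = ∏ ν : N, max (D σ₀) (D ((τ : Γ) * ν)) := fun τ => max_cosetProd hD hσ τ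
  simp_rw [h1]
  rw [Finset.prod_comm]
  have h2 : ∀ ν : N, ∏ τ : H, max (D σ₀) (D ((τ : Γ) * ν)) = ∏ τ : H, max (D σ₀) (D (τ : Γ)) := by
    intro ν
    refine Fintype.prod_equiv (Equiv.mulRight (⟨ν, hNH ν.2⟩ : H)) _ _ fun τ => ?_
    simp
  simp_rw [h2]
  rw [Finset.prod_const, Finset.card_univ]

end Fermat.Agent.S56.FL.H15

namespace Fermat.Agent.S56.FL.H15

open Finset

variable {Γ : Type*} [Group Γ] {N : Subgroup Γ} [Fintype N] {D : Γ → ℝ}

/-- The combinatorial form of Herbrand's theorem, `H = ⊤`. -/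
theorem prod_max_cosetProd_top [Fintype Γ] (hD : IsDepthFn D)
    {σ₀ : Γ} (hσ : ∀ ν : N, D σ₀ ≤ D (σ₀ * ν)) :
    ∏ τ : Γ, max (cosetProd N D σ₀) (cosetProd N D τ)
      = (∏ τ : Γ, max (D σ₀) (D τ)) ^ Fintype.card N := by
  have h1 : ∀ τ : Γ, max (cosetProd N D σ₀) (cosetProd N D τ)
      = ∏ ν : N, max (D σ₀) (D (τ * ν)) := fun τ => max_cosetProd hD hσ τ
  simp_rw [h1]
  rw [Finset.prod_comm]
  have h2 : ∀ ν : N, ∏ τ : Γ, max (D σ₀) (D (τ * ν)) = ∏ τ : Γ, max (D σ₀) (D τ) := by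
    intro ν
    refine Fintype.prod_equiv (Equiv.mulRight (ν : Γ)) _ _ fun τ => ?_
    simp
  simp_rw [h2]
  rw [Finset.prod_const, Finset.card_univ]

/-- Products over a group along a surjective homomorphism: every fibre has `|ker|` elements. -/
theorem prod_comp_hom {Γ' : Type*} [Group Γ'] [Fintype Γ] [Fintype Γ'] (r : Γ →* Γ')
    (hr : Function.Surjective r) [Fintype r.ker] (φ : Γ' → ℝ) :
    ∏ τ : Γ, φ (r τ) = (∏ τ' : Γ', φ τ') ^ Fintype.card r.ker := by
  classical
  rw [Finset.prod_comp (s := (Finset.univ : Finset Γ)) φ r]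
  have himg : (Finset.univ : Finset Γ).image r = Finset.univ := by
    ext b
    simp only [Finset.mem_image, Finset.mem_univ, true_and, iff_true]
    exact hr b
  rw [himg, ← Finset.prod_pow]
  refine Finset.prod_congr rfl fun b _ => ?_
  congr 1
  have h1 : #{a ∈ (Finset.univ : Finset Γ) | r a = b} = #{a ∈ (Finset.univ : Finset Γ) | r a = 1} :=
    MonoidHom.card_fiber_eq_of_mem_range r (hr b) (hr 1)
  rw [h1, ← Fintype.card_subtype]
  exact Fintype.card_congr (Equiv.subtypeEquivRight fun a => by simp [MonoidHom.mem_ker])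

end Fermat.Agent.S56.FL.H15

end
-- ==== END Fermat.Agent.S56.FL.LF.H15_HerbComb

-- ==== BEGIN Fermat.Agent.S56.FL.Local
section

set_option autoImplicit false

/-!
# LOC-p-FL (item 69): local vocabulary and the packages of the Fontaine side

Plan: `NOTES/plan/T-FL.md`.  Owner-planner: helper50.

Everything happens inside `K̄ = PadicAlgCl p` (algebraic closure of `ℚ_p`) with its norm
(`‖p‖ = p⁻¹`).  Finite extensions of `ℚ_p` are `IntermediateField ℚ_[p] (PadicAlgCl p)`.

* `intRing p F`      : the valuation ring `𝒪_F = {a ∈ F : ‖a‖ ≤ 1}` as a subring of `K̄`.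
* `ballIdeal p F c`  : the ideal `{a ∈ 𝒪_F : ‖a‖ ≤ c}` (`c : ℝ≥0`); valuation `≥ m` is `c = p^{-m}`.
* `depth p L σ`      : `sup {‖σ a - a‖ : a ∈ 𝒪_L}` (`= p^{-i(σ)}`, Fontaine's `i`).
* `IsBddField p L`   : the ramification of `L/ℚ_p` is bounded by `1/(p-1)` in Serre's upper
                       numbering, i.e. `Σ_τ min (i σ) (i τ) ≤ p/(p-1)` for all `σ ≠ 1`.
* `HasPM p L`        : Fontaine's property `(P_m)` for all `m > p/(p-1)`.
* `Stmt_LIFT_a`, `Stmt_LIFT_b`, `Stmt_PM`, `Stmt_CK`, `Stmt_FON`.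
-/

noncomputable section

namespace Fermat.Agent.S56.FL

open scoped NNReal

variable (p : ℕ) [Fact p.Prime]

/-- `ℤ_(p)` as in the prelude. -/
abbrev Zloc : Subring ℚ := GaloisRep.ratLocalizedAt p

/-- The valuation ring of an intermediate field `F ⊆ K̄`, as a subring of `K̄`. -/
def intRing (F : IntermediateField ℚ_[p] (PadicAlgCl p)) : Subring (PadicAlgCl p) where
  carrier := {a | a ∈ F ∧ ‖a‖ ≤ 1}
  mul_mem' {a b} ha hb := ⟨F.mul_mem ha.1 hb.1, by
    rw [norm_mul]; exact mul_le_one₀ ha.2 (norm_nonneg _) hb.2⟩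
  one_mem' := ⟨F.one_mem, by simp⟩
  add_mem' {a b} ha hb := ⟨F.add_mem ha.1 hb.1,
    (IsUltrametricDist.norm_add_le_max a b).trans (max_le ha.2 hb.2)⟩
  zero_mem' := ⟨F.zero_mem, by simp⟩
  neg_mem' {a} ha := ⟨F.neg_mem ha.1, by rw [norm_neg]; exact ha.2⟩

theorem mem_intRing {F : IntermediateField ℚ_[p] (PadicAlgCl p)} {a : PadicAlgCl p} :
    a ∈ intRing p F ↔ a ∈ F ∧ ‖a‖ ≤ 1 := Iff.rfl

/-- The ideal `{a ∈ 𝒪_F : ‖a‖ ≤ c}`. -/
def ballIdeal (F : IntermediateField ℚ_[p] (PadicAlgCl p)) (c : ℝ≥0) : Ideal (intRing p F) where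
  carrier := {a | ‖(a : PadicAlgCl p)‖ ≤ c}
  add_mem' {a b} ha hb := (IsUltrametricDist.norm_add_le_max (a : PadicAlgCl p) b).trans
    (max_le ha hb)
  zero_mem' := by simp
  smul_mem' r a ha := by
    change ‖((r * a : intRing p F) : PadicAlgCl p)‖ ≤ c
    rw [Subring.coe_mul, norm_mul]
    calc ‖(r : PadicAlgCl p)‖ * ‖(a : PadicAlgCl p)‖ ≤ 1 * ‖(a : PadicAlgCl p)‖ :=
          mul_le_mul_of_nonneg_right r.2.2 (norm_nonneg _)
      _ = ‖(a : PadicAlgCl p)‖ := one_mul _
      _ ≤ c := ha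

theorem mem_ballIdeal {F : IntermediateField ℚ_[p] (PadicAlgCl p)} {c : ℝ≥0}
    {a : intRing p F} : a ∈ ballIdeal p F c ↔ ‖(a : PadicAlgCl p)‖ ≤ c := Iff.rfl

/-- The depth of `σ ∈ Gal(L/ℚ_p)`: `sup ‖σ a - a‖` over the integers `a` of `L`. -/
def depth (L : IntermediateField ℚ_[p] (PadicAlgCl p)) (σ : L ≃ₐ[ℚ_[p]] L) : ℝ :=
  ⨆ a : {a : L // ‖(a : PadicAlgCl p)‖ ≤ 1},
    ‖((σ a.1 : L) : PadicAlgCl p) - ((a.1 : L) : PadicAlgCl p)‖

open Classical in
/-- The ramification of the finite extension `L/ℚ_p` is bounded by `1/(p-1)` (Serre's upper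
numbering), i.e. by `p/(p-1)` in Fontaine's numbering: for every `σ ≠ 1`,
`∏_τ max (depth σ) (depth τ) ≥ p^{-p/(p-1)}`. -/
def IsBddField (L : IntermediateField ℚ_[p] (PadicAlgCl p)) [FiniteDimensional ℚ_[p] L] : Prop :=
  ∀ σ : L ≃ₐ[ℚ_[p]] L, σ ≠ 1 →
    ((p : ℝ)⁻¹) ^ p ≤ (∏ τ : L ≃ₐ[ℚ_[p]] L, max (depth p L σ) (depth p L τ)) ^ (p - 1)

/-- Fontaine's property `(P_m)` for all `m > p/(p-1)`, i.e. for all radii `c` with
`0 < c`, `c^{p-1} < p^{-p}`: a ring homomorphism `𝒪_L → 𝒪_F / {‖·‖ ≤ c}` forces `L ⊆ F`. -/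
def HasPM (L : IntermediateField ℚ_[p] (PadicAlgCl p)) : Prop :=
  ∀ c : ℝ≥0, 0 < c → c ^ (p - 1) < ((p : ℝ≥0)⁻¹) ^ p →
    ∀ F : IntermediateField ℚ_[p] (PadicAlgCl p), FiniteDimensional ℚ_[p] F →
      Nonempty (intRing p L →+* (intRing p F ⧸ ballIdeal p F c)) → L ≤ F


/-! ## Packages of the Fontaine side (exact statements) -/

/-- **LIFT-a** (uniqueness of `p`-th roots of unity near `1`).  `C` a commutative algebra, finite
free over `𝒪_F`; `u^p = 1` and `u ≡ 1` modulo `{‖·‖ ≤ c}·C` with `c^{p-1} < p⁻¹` (valuation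
`> 1/(p-1)`) imply `u = 1`.
Proof: `z = u - 1`, `0 = (1+z)^p - 1 = p z + … + z^p`; with the sup-norm `|·|` of coordinates in a
basis (submultiplicative, `|p z| = p⁻¹ |z|`): `p⁻¹|z| ≤ max (p⁻¹|z|², |z|^p)`, so `z = 0` or
`|z|^{p-1} ≥ p⁻¹`. -/
def Stmt_LIFT_a : Prop :=
  ∀ (p : ℕ) [Fact p.Prime] (F : IntermediateField ℚ_[p] (PadicAlgCl p))
    (C : Type) [CommRing C] [Algebra (intRing p F) C] [Module.Free (intRing p F) C]
    [Module.Finite (intRing p F) C] (c : ℝ≥0), c ^ (p - 1) < (p : ℝ≥0)⁻¹ →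
    ∀ u : C, u ^ p = 1 →
      u - 1 ∈ Ideal.map (algebraMap (intRing p F) C) (ballIdeal p F c) → u = 1

/-- **LIFT-b** (existence of `p`-th roots near `1`).  `F/ℚ_p` finite (so `𝒪_F` is complete), `C`
finite free over `𝒪_F`, `y ∈ {‖·‖ ≤ c}·C` with `c^{p-1} < p^{-p}` (valuation `> p/(p-1)`).  Then
`1 + y = (1 + z)^p` with `z ∈ {‖·‖ ≤ p c}·C`.
Proof: the map `z ↦ (y - Σ_{j ≥ 2} (p choose j) z^j) / p` is a contraction of the ball
`|z| ≤ p |y|`. -/
def Stmt_LIFT_b : Prop :=
  ∀ (p : ℕ) [Fact p.Prime] (F : IntermediateField ℚ_[p] (PadicAlgCl p))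
    [FiniteDimensional ℚ_[p] F]
    (C : Type) [CommRing C] [Algebra (intRing p F) C] [Module.Free (intRing p F) C]
    [Module.Finite (intRing p F) C] (c : ℝ≥0), c ^ (p - 1) < ((p : ℝ≥0)⁻¹) ^ p →
    ∀ y ∈ Ideal.map (algebraMap (intRing p F) C) (ballIdeal p F c),
      ∃ z ∈ Ideal.map (algebraMap (intRing p F) C) (ballIdeal p F ((p : ℝ≥0) * c)),
        (1 + z) ^ p = 1 + y

/-- The field generated over `ℚ_p` by the `K̄`-points of `H`. -/
def pointField (H : Type) [CommRing H] [Algebra (Zloc p) H] :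
    IntermediateField ℚ_[p] (PadicAlgCl p) :=
  IntermediateField.adjoin ℚ_[p] {y | ∃ (x : H →ₐ[Zloc p] PadicAlgCl p) (h : H), y = x h}

/-- **PM** (Fontaine's lifting argument).  `H` a finite flat cocommutative Hopf algebra over `ℤ_(p)`
all of whose `K̄`-points are killed by `p` (`p` odd).  Then the field `L` generated by the points has
property `(P_m)` for every `m > p/(p-1)`. -/
def Stmt_PM : Prop :=
  ∀ (p : ℕ) [Fact p.Prime], p ≠ 2 →
    ∀ (H : Type) [CommRing H] [HopfAlgebra (Zloc p) H] [Module.Finite (Zloc p) H]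
      [Module.Flat (Zloc p) H] [Coalgebra.IsCocomm (Zloc p) H],
      (∀ x : WithConv (H →ₐ[Zloc p] PadicAlgCl p), x ^ p = 1) →
      HasPM p (pointField p H)

/-- **CK** (converse of Krasner's lemma, Fontaine Prop. 1.5 + removal of the defect).
`L/ℚ_p` finite Galois containing a primitive `p`-th root of unity, with `(P_m)` for all
`m > p/(p-1)`.  Then the ramification of `L` is bounded. -/
def Stmt_CK : Prop :=
  ∀ (p : ℕ) [Fact p.Prime], p ≠ 2 →
    ∀ (L : IntermediateField ℚ_[p] (PadicAlgCl p)) [FiniteDimensional ℚ_[p] L],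
      Normal ℚ_[p] L → (∃ ζ ∈ L, ζ ≠ 1 ∧ ζ ^ p = 1) → HasPM p L → IsBddField p L

/-- **FON** (Fontaine's ramification bound, Thm A of "Il n'y a pas de variété abélienne sur ℤ",
for group schemes killed by `p` over `ℤ_p`, `e = 1`). -/
def Stmt_FON : Prop :=
  ∀ (p : ℕ) [Fact p.Prime], p ≠ 2 →
    ∀ (H : Type) [CommRing H] [HopfAlgebra (Zloc p) H] [Module.Finite (Zloc p) H]
      [Module.Flat (Zloc p) H] [Coalgebra.IsCocomm (Zloc p) H],
      (∀ x : WithConv (H →ₐ[Zloc p] PadicAlgCl p), x ^ p = 1) →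
      ∀ [FiniteDimensional ℚ_[p] (pointField p H)],
        Normal ℚ_[p] (pointField p H) → (∃ ζ ∈ pointField p H, ζ ≠ 1 ∧ ζ ^ p = 1) →
        IsBddField p (pointField p H)

theorem stmt_FON_of (hPM : Stmt_PM) (hCK : Stmt_CK) : Stmt_FON := by
  intro p _ hp2 H _ _ _ _ _ hkill _ hN hζ
  exact hCK p hp2 _ hN hζ (hPM p hp2 H hkill)

/-! ## Packages of the ramification side (exact statements) -/

/-- **HERB** (Herbrand: the upper numbering passes to quotients).  If `L' ⊆ L` are finite Galois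
over `ℚ_p` and the ramification of `L` is bounded, so is that of `L'`. -/
def Stmt_HERB : Prop :=
  ∀ (p : ℕ) [Fact p.Prime] (L L' : IntermediateField ℚ_[p] (PadicAlgCl p))
    [FiniteDimensional ℚ_[p] L] [FiniteDimensional ℚ_[p] L'],
    Normal ℚ_[p] L → Normal ℚ_[p] L' → L' ≤ L → IsBddField p L → IsBddField p L'

/-- The value group of `K'` is contained in `p^{(1/n)ℤ}` with `p ∤ n`: `K'/ℚ_p` is tamely ramified. -/
def IsTameField (K' : IntermediateField ℚ_[p] (PadicAlgCl p)) : Prop :=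
  ∃ n : ℕ, 0 < n ∧ ¬ p ∣ n ∧ ∀ x ∈ K', x ≠ 0 → ∃ j : ℤ, ‖x‖ ^ n = (p : ℝ) ^ j

/-- **KUMBDD** (the only consequence of the ramification bound that the count uses).
`K' ⊆ L` finite Galois over `ℚ_p`, `K'` tamely ramified containing `μ_p`, `L` with bounded
ramification, `a ∈ K'` nonzero with a `p`-th root in `L`.  Then `a ≡ 1 mod p` up to `p`-th powers
of `K'`: there is `b ∈ K'ˣ` with `‖a b^p - 1‖ ≤ p⁻¹`.
(Break of `K'(a^{1/p})/K'` for `a ∈ U^{(i)}`, `p ∤ i < p e'/(p-1)`: `p e'/(p-1) - i`; bounded iff `i ≥ e'`.) -/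
def Stmt_KUMBDD : Prop :=
  ∀ (p : ℕ) [Fact p.Prime], p ≠ 2 →
    ∀ (L K' : IntermediateField ℚ_[p] (PadicAlgCl p))
      [FiniteDimensional ℚ_[p] L] [FiniteDimensional ℚ_[p] K'],
      Normal ℚ_[p] L → Normal ℚ_[p] K' → K' ≤ L → IsBddField p L → IsTameField p K' →
      (∃ ζ ∈ K', ζ ≠ 1 ∧ ζ ^ p = 1) →
      ∀ a ∈ K', a ≠ 0 → (∃ α ∈ L, α ^ p = a) →
        ∃ b ∈ K', b ≠ 0 ∧ ‖a * b ^ p - 1‖ ≤ (p : ℝ)⁻¹

end Fermat.Agent.S56.FL

end

end
-- ==== END Fermat.Agent.S56.FL.Local

-- ==== BEGIN Fermat.Agent.S56.GW.H9_PerfAbs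
section

/-!
# S56, package GW-PERF: the abstract tame duality argument (helper9)

Pure group theory and linear algebra.  `G` is a group with tame data at a level `U`
(`U ≤ P ≤ I`, `G = ⟨φ⟩ I`, `I = ⟨τ₀⟩ P`, `P / U` a `q`-group, `φ τ₀ φ⁻¹ ∈ τ₀ ^ m P`), acting on
`M`, `M'` trivially on `I`.

* `pairing_symm` : if `x ∪ y = d f` with `x`, `y`, `f` of level `U`, then
  `⟨x φ, y τ₀⟩ = ⟨x τ₀, y φ⟩`.
* `exists_unram_cocycle` : unramified cocycles with prescribed value at `φ'`.
* `perf_abstract` : if `x ∪ y` is a coboundary for enough cocycles `x` (the unramified ones and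
  the multiples of a ramified character), then `y` is a coboundary.
-/

set_option autoImplicit false
set_option linter.unusedSectionVars false
set_option linter.style.haveILetI false

namespace Fermat.Agent.S56.H9

section abs

variable {k : Type*} [Field k] {G : Type*} [Group G]
variable {M : Type*} [AddCommGroup M] [Module k M]
variable {M' : Type*} [AddCommGroup M'] [Module k M']

/-- Function-level 1-cocycles (convention of `IsLocZ1`). -/
def IsCoc (ρ : Representation k G M) (x : G → M) : Prop :=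
  ∀ g h : G, x (g * h) = ρ g (x h) + x g

namespace IsCoc

variable {ρ : Representation k G M} {x : G → M}

lemma map_one (hx : IsCoc ρ x) : x 1 = 0 := by
  have h := hx 1 1
  rw [mul_one, _root_.map_one] at h
  have h' : x 1 = x 1 + x 1 := h
  have h2 : x 1 + 0 = x 1 + x 1 := by rw [add_zero]; exact h'
  exact (add_left_cancel h2).symm

lemma mul_of_triv (hx : IsCoc ρ x) {g : G} (hg : ρ g = 1) (h : G) :
    x (g * h) = x h + x g := by
  rw [hx g h, hg]
  rfl

lemma pow_of_triv (hx : IsCoc ρ x) {g : G} (hg : ρ g = 1) (n : ℕ) :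
    x (g ^ n) = (n : k) • x g := by
  induction n with
  | zero => simp [hx.map_one]
  | succ n ih =>
    rw [pow_succ', hx.mul_of_triv hg, ih, Nat.cast_succ, add_smul, one_smul]

lemma inv (hx : IsCoc ρ x) (g : G) : ρ g (x g⁻¹) = - x g := by
  have h := hx g g⁻¹
  rw [mul_inv_cancel, hx.map_one] at h
  exact eq_neg_of_add_eq_zero_left h.symm

lemma conj (hx : IsCoc ρ x) {t : G} (ht : ρ t = 1) (φ : G) :
    x (φ * t * φ⁻¹) = ρ φ (x t) := by
  rw [mul_assoc, hx φ, hx.mul_of_triv ht, map_add, hx.inv]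
  abel

lemma pow_cob (hx : IsCoc ρ x) {g : G} {a : M} (h : x g = ρ g a - a) (n : ℕ) :
    x (g ^ n) = ρ (g ^ n) a - a := by
  induction n with
  | zero => simp [hx.map_one]
  | succ n ih =>
    rw [pow_succ', hx g, ih, h, map_sub, map_mul]
    simp only [Module.End.mul_apply]
    abel

end IsCoc

/-- Tame data at the level `U`. -/
structure TameData (U I P : Subgroup G) (φ τ₀ : G) (q m : ℕ) : Prop where
  hUP : U ≤ P
  hPI : P ≤ I
  hτ : τ₀ ∈ I
  hnorm : ∀ g : G, ∀ i ∈ I, g * i * g⁻¹ ∈ I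
  hgen : ∀ g : G, ∃ n : ℕ, ∃ i ∈ I, g = φ ^ n * i
  hcyc : ∀ i ∈ I, ∃ n : ℕ, ∃ x ∈ P, i = τ₀ ^ n * x
  hP : ∀ x ∈ P, ∃ e : ℕ, x ^ (q ^ e) ∈ U
  hconj : ∃ x ∈ P, φ * τ₀ * φ⁻¹ = τ₀ ^ m * x

section tame

variable {U I P : Subgroup G} {φ τ₀ : G} {q m : ℕ}
variable {ρ : Representation k G M} {x : G → M}

lemma IsCoc.eq_zero_of_mem_level (hx : IsCoc ρ x) (hxU : ∀ g, ∀ u ∈ U, x (g * u) = x g)
    {u : G} (hu : u ∈ U) : x u = 0 := by
  have h := hxU 1 u hu
  rwa [one_mul, hx.map_one] at h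

lemma IsCoc.eq_zero_of_mem_wild (hT : TameData U I P φ τ₀ q m) (hq : (q : k) ≠ 0)
    (hρ : ∀ i ∈ I, ρ i = 1) (hx : IsCoc ρ x) (hxU : ∀ g, ∀ u ∈ U, x (g * u) = x g)
    {a : G} (ha : a ∈ P) : x a = 0 := by
  obtain ⟨e, he⟩ := hT.hP a ha
  have h1 := hx.pow_of_triv (hρ a (hT.hPI ha)) (q ^ e)
  rw [hx.eq_zero_of_mem_level hxU he] at h1
  have hne : ((q ^ e : ℕ) : k) ≠ 0 := by
    rw [Nat.cast_pow]
    exact pow_ne_zero _ hq
  exact (smul_eq_zero.1 h1.symm).resolve_left hne

lemma IsCoc.apply_tame (hT : TameData U I P φ τ₀ q m) (hq : (q : k) ≠ 0)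
    (hρ : ∀ i ∈ I, ρ i = 1) (hx : IsCoc ρ x) (hxU : ∀ g, ∀ u ∈ U, x (g * u) = x g)
    (n : ℕ) {a : G} (ha : a ∈ P) : x (τ₀ ^ n * a) = (n : k) • x τ₀ := by
  have hτn : ρ (τ₀ ^ n) = 1 := by rw [map_pow, hρ τ₀ hT.hτ, one_pow]
  rw [hx.mul_of_triv hτn, hx.eq_zero_of_mem_wild hT hq hρ hxU ha, zero_add,
    hx.pow_of_triv (hρ τ₀ hT.hτ)]

lemma IsCoc.eq_zero_of_mem_inertia (hT : TameData U I P φ τ₀ q m) (hq : (q : k) ≠ 0)
    (hρ : ∀ i ∈ I, ρ i = 1) (hx : IsCoc ρ x) (hxU : ∀ g, ∀ u ∈ U, x (g * u) = x g)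
    (h0 : x τ₀ = 0) {i : G} (hi : i ∈ I) : x i = 0 := by
  obtain ⟨n, a, ha, rfl⟩ := hT.hcyc i hi
  rw [hx.apply_tame hT hq hρ hxU n ha, h0, smul_zero]

lemma IsCoc.frob_fix (hT : TameData U I P φ τ₀ q m) (hq : (q : k) ≠ 0) (hm : (m : k) = 1)
    (hρ : ∀ i ∈ I, ρ i = 1) (hx : IsCoc ρ x) (hxU : ∀ g, ∀ u ∈ U, x (g * u) = x g) :
    ρ φ (x τ₀) = x τ₀ := by
  obtain ⟨a, ha, hconj⟩ := hT.hconj
  rw [← hx.conj (hρ τ₀ hT.hτ) φ, hconj, hx.apply_tame hT hq hρ hxU m ha, hm, one_smul]

lemma apply_eq_of_fix (hT : TameData U I P φ τ₀ q m) (hρ : ∀ i ∈ I, ρ i = 1) {a : M}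
    (ha : ρ φ a = a) (g : G) : ρ g a = a := by
  obtain ⟨n, i, hi, rfl⟩ := hT.hgen g
  rw [map_mul, map_pow, hρ i hi, mul_one]
  induction n with
  | zero => simp
  | succ n ih => rw [pow_succ, Module.End.mul_apply, ha, ih]

/-- A cocycle of level `U` which vanishes at `τ₀` and is a coboundary at `φ` is a coboundary. -/
lemma IsCoc.eq_cob (hT : TameData U I P φ τ₀ q m) (hq : (q : k) ≠ 0)
    (hρ : ∀ i ∈ I, ρ i = 1) (hx : IsCoc ρ x) (hxU : ∀ g, ∀ u ∈ U, x (g * u) = x g)
    (h0 : x τ₀ = 0) {a : M} (ha : x φ = ρ φ a - a) (g : G) : x g = ρ g a - a := by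
  obtain ⟨n, i, hi, rfl⟩ := hT.hgen g
  rw [hx (φ ^ n) i, hx.eq_zero_of_mem_inertia hT hq hρ hxU h0 hi, map_zero, zero_add,
    hx.pow_cob ha n, map_mul, hρ i hi, mul_one]

end tame

section symm

variable {U I P : Subgroup G} {φ τ₀ : G} {q m : ℕ}

lemma sum_range_cast_eq_zero {m : ℕ} (hm : (m : k) = 1) (h2 : (2 : k) ≠ 0) :
    ((∑ i ∈ Finset.range m, i : ℕ) : k) = 0 := by
  have h := Finset.sum_range_id_mul_two m
  have h1 : (((∑ i ∈ Finset.range m, i) * 2 : ℕ) : k) = ((m * (m - 1) : ℕ) : k) := by rw [h]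
  have hm0 : m ≠ 0 := by
    rintro rfl
    rw [Nat.cast_zero] at hm
    exact zero_ne_one hm
  have hm1 : ((m - 1 : ℕ) : k) = 0 := by
    rw [Nat.cast_sub (Nat.one_le_iff_ne_zero.2 hm0), hm, Nat.cast_one, sub_self]
  rw [Nat.cast_mul, Nat.cast_mul, hm1, mul_zero, Nat.cast_two] at h1
  exact (mul_eq_zero.1 h1).resolve_right h2

/-- **The symmetry relation.** -/
theorem pairing_symm (hT : TameData U I P φ τ₀ q m) (hq : (q : k) ≠ 0) (hm : (m : k) = 1)
    (h2 : (2 : k) ≠ 0)
    (ρ : Representation k G M) (ρ' : Representation k G M') (B : M →ₗ[k] M' →ₗ[k] k)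
    (hρ : ∀ i ∈ I, ρ i = 1) (hρ' : ∀ i ∈ I, ρ' i = 1)
    {x : G → M} {y : G → M'} (hx : IsCoc ρ x) (hy : IsCoc ρ' y)
    (hxU : ∀ g, ∀ u ∈ U, x (g * u) = x g) (hyU : ∀ g, ∀ u ∈ U, y (g * u) = y g)
    {f : G → k} (hfU : ∀ g, ∀ u ∈ U, f (g * u) = f g)
    (hf : ∀ g h, B (x g) (ρ' g (y h)) = f h - f (g * h) + f g) :
    B (x φ) (y τ₀) = B (x τ₀) (y φ) := by
  -- the general product formula
  have hmul : ∀ g h, f (g * h) = f g + f h - B (x g) (ρ' g (y h)) := by
    intro g h
    rw [hf g h]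
    ring
  have hmulI : ∀ g ∈ I, ∀ h, f (g * h) = f g + f h - B (x g) (y h) := by
    intro g hg h
    rw [hmul g h, hρ' g hg]
    rfl
  have hf1 : f 1 = 0 := by
    have h := hmul 1 1
    rw [mul_one, hx.map_one, map_zero, LinearMap.zero_apply] at h
    linear_combination (-1 : k) * h
  have hfUz : ∀ u ∈ U, f u = 0 := by
    intro u hu
    have h := hfU 1 u hu
    rwa [one_mul, hf1] at h
  -- `f` vanishes on `P`
  have hxP : ∀ a ∈ P, x a = 0 := fun a ha => hx.eq_zero_of_mem_wild hT hq hρ hxU ha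
  have hyP : ∀ a ∈ P, y a = 0 := fun a ha => hy.eq_zero_of_mem_wild hT hq hρ' hyU ha
  have hfPmul : ∀ a ∈ P, ∀ h, f (a * h) = f a + f h := by
    intro a ha h
    rw [hmulI a (hT.hPI ha) h, hxP a ha, map_zero, LinearMap.zero_apply, sub_zero]
  have hfPpow : ∀ a ∈ P, ∀ n : ℕ, f (a ^ n) = (n : k) * f a := by
    intro a ha n
    induction n with
    | zero => simp [hf1]
    | succ n ih =>
      rw [pow_succ', hfPmul a ha, ih, Nat.cast_succ]
      ring
  have hfP : ∀ a ∈ P, f a = 0 := by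
    intro a ha
    obtain ⟨e, he⟩ := hT.hP a ha
    have h1 := hfPpow a ha (q ^ e)
    rw [hfUz _ he] at h1
    have hne : ((q ^ e : ℕ) : k) ≠ 0 := by
      rw [Nat.cast_pow]
      exact pow_ne_zero _ hq
    exact (mul_eq_zero.1 h1.symm).resolve_left hne
  -- `f` on the powers of `τ₀`
  have hτpow : ∀ n : ℕ, f (τ₀ ^ n) =
      (n : k) * f τ₀ - ((∑ i ∈ Finset.range n, i : ℕ) : k) * B (x τ₀) (y τ₀) := by
    intro n
    induction n with
    | zero => simp [hf1]
    | succ n ih =>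
      rw [pow_succ', hmulI τ₀ hT.hτ, ih, hy.pow_of_triv (hρ' τ₀ hT.hτ), map_smul,
        Finset.sum_range_succ, Nat.cast_add, Nat.cast_succ, smul_eq_mul]
      push_cast
      ring
  obtain ⟨a, ha, hconj⟩ := hT.hconj
  have hτm : f (τ₀ ^ m * a) = f τ₀ := by
    have hmem : τ₀ ^ m ∈ I := pow_mem hT.hτ m
    rw [hmulI _ hmem, hfP a ha, hyP a ha, map_zero, hτpow m, hm,
      sum_range_cast_eq_zero hm h2]
    ring
  -- compare the two computations of `f (φ * τ₀)`
  have e1 : f (φ * τ₀) = f φ + f τ₀ - B (x φ) (y τ₀) := by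
    rw [hmul φ τ₀, hy.frob_fix hT hq hm hρ' hyU]
  have e2 : f (φ * τ₀) = f τ₀ + f φ - B (x τ₀) (y φ) := by
    have h3 : φ * τ₀ = τ₀ ^ m * a * φ := by
      rw [← hconj]
      group
    have hmem : τ₀ ^ m * a ∈ I := mul_mem (pow_mem hT.hτ m) (hT.hPI ha)
    rw [h3, hmulI _ hmem, hτm, hx.apply_tame hT hq hρ hxU m ha, hm, one_smul]
  linear_combination e1 - e2

end symm

section unram

variable (ρ : Representation k G M) (I' : Subgroup G) (φ' : G)

/-- The norm sums `N_c m = ∑_{j < c} φ'^j m`. -/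
def normSum (m : M) (c : ℕ) : M := ∑ j ∈ Finset.range c, (ρ φ' ^ j) m

lemma normSum_zero (m : M) : normSum ρ φ' m 0 = 0 := by
  simp [normSum]

lemma normSum_add (m : M) (a b : ℕ) :
    normSum ρ φ' m (a + b) = normSum ρ φ' m a + (ρ φ' ^ a) (normSum ρ φ' m b) := by
  unfold normSum
  rw [Finset.sum_range_add, map_sum]
  congr 1
  refine Finset.sum_congr rfl fun j _ => ?_
  rw [pow_add]
  rfl

lemma normSum_one (m : M) : normSum ρ φ' m 1 = m := by
  simp [normSum]

lemma normSum_mul_of_pow_eq_one {e : ℕ} (he : ρ φ' ^ e = 1) (m : M) (u : ℕ) :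
    normSum ρ φ' m (e * u) = (u : k) • normSum ρ φ' m e := by
  induction u with
  | zero => simp [normSum_zero]
  | succ u ih =>
    rw [Nat.mul_succ, normSum_add, ih, pow_mul, he, one_pow, Nat.cast_succ, add_smul, one_smul]
    rfl

/-- If `φ'^e` acts trivially and `c` is a multiple of `e u` with `u = 0` in `k`, then
`N_c = 0`. -/
lemma normSum_eq_zero {e u c : ℕ} (he : ρ φ' ^ e = 1) (hu : (u : k) = 0) (hc : e * u ∣ c)
    (m : M) : normSum ρ φ' m c = 0 := by
  obtain ⟨v, rfl⟩ := hc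
  rw [mul_assoc, normSum_mul_of_pow_eq_one ρ φ' he, Nat.cast_mul, hu, zero_mul, zero_smul]

variable {ρ I' φ'}

/-- **Unramified cocycles.**  If `G = ⟨φ'⟩ I'`, `I'` is normal and acts trivially on `M`, and
`N_c m = 0` whenever `φ'^c ∈ I'`, there is a cocycle vanishing on `I'` with value `m` at
`φ'`. -/
theorem exists_unram_cocycle
    (hnorm' : ∀ g : G, ∀ i ∈ I', g * i * g⁻¹ ∈ I')
    (hgen' : ∀ g : G, ∃ n : ℕ, ∃ i ∈ I', g = φ' ^ n * i)
    (hρ : ∀ i ∈ I', ρ i = 1) (m : M)
    (hN : ∀ c : ℕ, φ' ^ c ∈ I' → normSum ρ φ' m c = 0) :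
    ∃ x : G → M, IsCoc ρ x ∧ (∀ i ∈ I', x i = 0) ∧ x φ' = m := by
  classical
  -- independence of the exponent
  have hwd : ∀ a b : ℕ, ∀ i ∈ I', ∀ j ∈ I', φ' ^ a * i = φ' ^ b * j →
      normSum ρ φ' m a = normSum ρ φ' m b := by
    have key : ∀ a b : ℕ, a ≤ b → ∀ i ∈ I', ∀ j ∈ I', φ' ^ a * i = φ' ^ b * j →
        normSum ρ φ' m a = normSum ρ φ' m b := by
      intro a b hab i hi j hj h
      obtain ⟨c, rfl⟩ := Nat.exists_eq_add_of_le hab
      have h1 : φ' ^ c = i * j⁻¹ := by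
        rw [pow_add, mul_assoc] at h
        have h2 := mul_left_cancel h
        rw [h2, mul_inv_cancel_right]
      have h3 : φ' ^ c ∈ I' := by
        rw [h1]
        exact mul_mem hi (inv_mem hj)
      rw [normSum_add, hN c h3, map_zero, add_zero]
    intro a b i hi j hj h
    rcases le_total a b with hab | hab
    · exact key a b hab i hi j hj h
    · exact (key b a hab j hj i hi h.symm).symm
  let ν : G → ℕ := fun g => (hgen' g).choose
  have hν : ∀ g, ∃ i ∈ I', g = φ' ^ (ν g) * i := fun g => (hgen' g).choose_spec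
  let x : G → M := fun g => normSum ρ φ' m (ν g)
  have hxval : ∀ (a : ℕ) (i : G), i ∈ I' → x (φ' ^ a * i) = normSum ρ φ' m a := by
    intro a i hi
    obtain ⟨j, hj, hg⟩ := hν (φ' ^ a * i)
    exact hwd _ _ j hj i hi hg.symm
  refine ⟨x, ?_, ?_, ?_⟩
  · intro g h
    obtain ⟨i, hi, hg⟩ := hν g
    obtain ⟨j, hj, hh⟩ := hν h
    have e1 : g * h = φ' ^ (ν g + ν h) * ((φ' ^ (ν h))⁻¹ * i * (φ' ^ (ν h))⁻¹⁻¹ * j) := by
      conv_lhs => rw [hg, hh]
      rw [pow_add]
      group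
    have hmem : (φ' ^ (ν h))⁻¹ * i * (φ' ^ (ν h))⁻¹⁻¹ * j ∈ I' :=
      mul_mem (hnorm' _ i hi) hj
    have hρg : ρ g = ρ φ' ^ (ν g) := by
      conv_lhs => rw [hg]
      rw [map_mul, map_pow, hρ i hi, mul_one]
    rw [e1, hxval _ _ hmem, normSum_add, hρg, add_comm]
  · intro i hi
    have h := hxval 0 i hi
    rw [pow_zero, one_mul] at h
    rw [h, normSum_zero]
  · have h := hxval 1 1 (one_mem _)
    rw [pow_one, mul_one] at h
    rw [h, normSum_one]

end unram

section main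

variable {U I P : Subgroup G} {φ τ₀ : G} {q m : ℕ}

/-- The exponent of `φ` relative to `φ'` is prime to `p`. -/
lemma not_dvd_exponent {p : ℕ} (hp : p.Prime) {I I' : Subgroup G} {φ φ' : G}
    (hII' : I ≤ I')
    (hnorm' : ∀ g : G, ∀ i ∈ I', g * i * g⁻¹ ∈ I')
    (hgen : ∀ g : G, ∃ n : ℕ, ∃ i ∈ I, g = φ ^ n * i)
    (hT' : ∀ c : ℕ, φ' ^ c ∈ I' → p ∣ c)
    {j : ℕ} {i' : G} (hi' : i' ∈ I') (hφ : φ = φ' ^ j * i') : ¬ p ∣ j := by
  intro hpj
  haveI : I'.Normal := ⟨fun i hi g => hnorm' g i hi⟩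
  obtain ⟨a, i₁, hi₁, h1⟩ := hgen φ'
  have e1 : (QuotientGroup.mk φ : G ⧸ I') = (QuotientGroup.mk φ' : G ⧸ I') ^ j := by
    rw [hφ, QuotientGroup.mk_mul, QuotientGroup.mk_pow, (QuotientGroup.eq_one_iff i').2 hi',
      mul_one]
  have e2 : (QuotientGroup.mk φ' : G ⧸ I') = (QuotientGroup.mk φ' : G ⧸ I') ^ (j * a) := by
    conv_lhs => rw [h1]
    rw [QuotientGroup.mk_mul, QuotientGroup.mk_pow, (QuotientGroup.eq_one_iff i₁).2 (hII' hi₁),
      mul_one, e1, pow_mul]
  rcases Nat.eq_zero_or_pos (j * a) with h0 | hpos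
  · rw [h0, pow_zero, QuotientGroup.eq_one_iff] at e2
    have := hT' 1 (by rwa [pow_one])
    exact hp.one_lt.ne' (Nat.dvd_one.1 this)
  · obtain ⟨c, hc⟩ : ∃ c, j * a = c + 1 := ⟨j * a - 1, by omega⟩
    rw [hc, pow_succ] at e2
    have e3 : (QuotientGroup.mk φ' : G ⧸ I') ^ c = 1 := by
      have := mul_right_cancel (a := (QuotientGroup.mk φ' : G ⧸ I') ^ c)
        (b := (QuotientGroup.mk φ' : G ⧸ I')) (c := 1) (by rw [one_mul]; exact e2.symm)
      exact this
    rw [← QuotientGroup.mk_pow, QuotientGroup.eq_one_iff] at e3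
    have h3 := hT' c e3
    have h4 : p ∣ c + 1 := by
      rw [← hc]
      exact Dvd.dvd.mul_right hpj a
    have h5 : p ∣ 1 := (Nat.dvd_add_right h3).1 h4
    exact hp.one_lt.ne' (Nat.dvd_one.1 h5)

/-- **Abstract tame duality.** -/
theorem perf_abstract (p : ℕ) [Fact p.Prime] [CharP k p] (hp2 : p ≠ 2)
    (hT : TameData U I P φ τ₀ q m) (hq : (q : k) ≠ 0) (hm : (m : k) = 1)
    (ρ : Representation k G M) (ρ' : Representation k G M') (B : M →ₗ[k] M' →ₗ[k] k)
    (hB : ∀ g a b, B (ρ g a) (ρ' g b) = B a b)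
    (hnd : ∀ l : M', l ≠ 0 → ∃ a : M, B a l ≠ 0)
    (hann : ∀ (ψ : G) (l : M'), (∀ a : M, ρ ψ a = a → B a l = 0) → ∃ b : M', l = ρ' ψ b - b)
    (hρ : ∀ i ∈ I, ρ i = 1) (hρ' : ∀ i ∈ I, ρ' i = 1)
    {y : G → M'} (hy : IsCoc ρ' y) (hyU : ∀ g, ∀ u ∈ U, y (g * u) = y g)
    -- the unramified family
    {I' : Subgroup G} {φ' : G} (hII' : I ≤ I')
    (hnorm' : ∀ g : G, ∀ i ∈ I', g * i * g⁻¹ ∈ I')
    (hgen' : ∀ g : G, ∃ n : ℕ, ∃ i ∈ I', g = φ' ^ n * i)
    (hT' : ∀ c : ℕ, φ' ^ c ∈ I' → p ∣ c)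
    (X₁ : M → G → M)
    (hX₁ : ∀ a, IsCoc ρ (X₁ a) ∧ (∀ i ∈ I', X₁ a i = 0) ∧ X₁ a φ' = a)
    (hf₁ : ∀ a, ∃ f : G → k, (∀ g, ∀ u ∈ U, f (g * u) = f g) ∧
      ∀ g h, B (X₁ a g) (ρ' g (y h)) = f h - f (g * h) + f g)
    -- the ramified family
    (κ : G → k) (hκ : ∀ g h, κ (g * h) = κ g + κ h) (hκU : ∀ u ∈ U, κ u = 0)
    (hκram : ∃ i ∈ I, κ i ≠ 0)
    (hf₂ : ∀ a : M, (∀ g, ρ g a = a) → ∃ f : G → k, (∀ g, ∀ u ∈ U, f (g * u) = f g) ∧
      ∀ g h, B (κ g • a) (ρ' g (y h)) = f h - f (g * h) + f g) :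
    ∃ b : M', ∀ g, y g = ρ' g b - b := by
  have hp : p.Prime := Fact.out
  have h2 : (2 : k) ≠ 0 := by
    intro h
    have h' : ((2 : ℕ) : k) = 0 := by exact_mod_cast h
    rw [CharP.cast_eq_zero_iff k p] at h'
    exact hp2 ((Nat.prime_dvd_prime_iff_eq hp Nat.prime_two).1 h')
  -- Step 1: `y τ₀ = 0`
  have hyτ : y τ₀ = 0 := by
    by_contra hne
    obtain ⟨a, ha⟩ := hnd _ hne
    obtain ⟨hxc, hxI, hxφ⟩ := hX₁ a
    obtain ⟨f, hfU, hf⟩ := hf₁ a
    have hxU : ∀ g, ∀ u ∈ U, X₁ a (g * u) = X₁ a g := by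
      intro g u hu
      rw [hxc g u, hxI u (hII' (hT.hPI (hT.hUP hu))), map_zero, zero_add]
    have hsym := pairing_symm hT hq hm h2 ρ ρ' B hρ hρ' hxc hy hxU hyU hfU hf
    rw [hxI τ₀ (hII' hT.hτ), map_zero, LinearMap.zero_apply] at hsym
    -- invariance of `y τ₀`
    have hfix : ∀ g, ρ' g (y τ₀) = y τ₀ :=
      apply_eq_of_fix hT hρ' (hy.frob_fix hT hq hm hρ' hyU)
    have hBinv : ∀ g b, B (ρ g b) (y τ₀) = B b (y τ₀) := by
      intro g b
      conv_lhs => rw [← hfix g]
      exact hB g b _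
    obtain ⟨j, i', hi', hφ⟩ := hgen' φ
    have hρI' : ∀ n : ℕ, B (X₁ a (φ' ^ n)) (y τ₀) = (n : k) * B a (y τ₀) := by
      intro n
      induction n with
      | zero => simp [hxc.map_one]
      | succ n ih =>
        rw [pow_succ', hxc φ', map_add, LinearMap.add_apply, hBinv, ih, hxφ, Nat.cast_succ]
        ring
    have hval : B (X₁ a φ) (y τ₀) = (j : k) * B a (y τ₀) := by
      conv_lhs => rw [hφ]
      rw [hxc (φ' ^ j) i', hxI i' hi', map_zero, zero_add, hρI']
    rw [hval] at hsym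
    have hj0 : (j : k) = 0 := (mul_eq_zero.1 hsym).resolve_right ha
    rw [CharP.cast_eq_zero_iff k p] at hj0
    exact not_dvd_exponent hp hII' hnorm' hT.hgen hT' hi' hφ hj0
  -- Step 2: `y φ` is a coboundary value
  have hκP : ∀ a ∈ P, κ a = 0 := by
    intro a ha
    obtain ⟨e, he⟩ := hT.hP a ha
    have hpow : ∀ n : ℕ, κ (a ^ n) = (n : k) * κ a := by
      intro n
      induction n with
      | zero =>
        have h1 := hκ 1 1
        rw [mul_one] at h1
        have : κ 1 = 0 := by linear_combination (-1 : k) * h1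
        simp [this]
      | succ n ih =>
        rw [pow_succ', hκ, ih, Nat.cast_succ]
        ring
    have h1 := hpow (q ^ e)
    rw [hκU _ he] at h1
    have hne : ((q ^ e : ℕ) : k) ≠ 0 := by
      rw [Nat.cast_pow]
      exact pow_ne_zero _ hq
    exact (mul_eq_zero.1 h1.symm).resolve_left hne
  have hκτ : κ τ₀ ≠ 0 := by
    obtain ⟨i, hi, hne⟩ := hκram
    obtain ⟨n, a, ha, rfl⟩ := hT.hcyc i hi
    intro h0
    apply hne
    have hpow : ∀ n : ℕ, κ (τ₀ ^ n) = 0 := by
      intro n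
      induction n with
      | zero =>
        have h1 := hκ 1 1
        rw [mul_one] at h1
        have : κ 1 = 0 := by linear_combination (-1 : k) * h1
        simpa using this
      | succ n ih => rw [pow_succ', hκ, ih, h0, add_zero]
    rw [hκ, hpow, hκP a ha, add_zero]
  have hkill : ∀ a : M, ρ φ a = a → B a (y φ) = 0 := by
    intro a ha
    have hainv : ∀ g, ρ g a = a := apply_eq_of_fix hT hρ ha
    obtain ⟨f, hfU, hf⟩ := hf₂ a hainv
    have hxc : IsCoc ρ (fun g => κ g • a) := by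
      intro g h
      show κ (g * h) • a = ρ g (κ h • a) + κ g • a
      rw [hκ, map_smul, hainv g, add_smul, add_comm]
    have hxU : ∀ g, ∀ u ∈ U, (fun g => κ g • a) (g * u) = (fun g => κ g • a) g := by
      intro g u hu
      show κ (g * u) • a = κ g • a
      rw [hκ, hκU u hu, add_zero]
    have hsym := pairing_symm hT hq hm h2 ρ ρ' B hρ hρ' hxc hy hxU hyU hfU hf
    rw [hyτ, map_zero] at hsym
    have h3 : κ τ₀ * B a (y φ) = 0 := by
      have : B (κ τ₀ • a) (y φ) = κ τ₀ * B a (y φ) := by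
        rw [map_smul, LinearMap.smul_apply, smul_eq_mul]
      rw [← this]
      exact hsym.symm
    exact (mul_eq_zero.1 h3).resolve_left hκτ
  obtain ⟨b, hb⟩ := hann φ (y φ) hkill
  exact ⟨b, fun g => hy.eq_cob hT hq hρ' hyU hyτ hb g⟩

end main

end abs

end Fermat.Agent.S56.H9

end
-- ==== END Fermat.Agent.S56.GW.H9_PerfAbs

-- ==== BEGIN Fermat.Agent.S56.GWC.H46_UR2Alg
section

/-!
# Cluster T / S56, package GW-CORE, INV plan: package UR2, algebraic part (helper46)

`G` a group, `U' ≤ U` subgroups (`U'` normal), `φ ∈ G` generating `G` modulo `U'`, of exact order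
`N'` modulo `U'`; `X` a module on which `U` acts trivially and which is killed by `p`; `z` a
2-cocycle of `G` with values in `X` which is constant on `U`-cosets.  If `φ ^ n ∈ U` and
`p * n ∣ N'`, then `z` is the coboundary of a 1-cochain which is constant on `U'`-cosets:
`g (φ ^ j u) = z (1, φ) - ∑_{i < j} z (φ ^ i, φ)`.
-/

set_option autoImplicit false

namespace Fermat.Agent.S56.GWC.H46

section CyclicCocycle

variable {k : Type*} [CommRing k] {G : Type*} [Group G] {X : Type*} [AddCommGroup X] [Module k X]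

/-- The potential `j ↦ z (1, φ) - ∑_{i < j} z (φ ^ i, φ)`. -/
def cycPot (z : G × G → X) (φ : G) : ℕ → X
  | 0 => z (1, φ)
  | j + 1 => cycPot z φ j - z (φ ^ j, φ)

theorem cycPot_zero (z : G × G → X) (φ : G) : cycPot z φ 0 = z (1, φ) := rfl

theorem cycPot_succ (z : G × G → X) (φ : G) (j : ℕ) :
    cycPot z φ (j + 1) = cycPot z φ j - z (φ ^ j, φ) := rfl

theorem cycPot_eq_sum (z : G × G → X) (φ : G) (j : ℕ) :
    cycPot z φ j = z (1, φ) - ∑ i ∈ Finset.range j, z (φ ^ i, φ) := by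
  induction j with
  | zero => rw [cycPot_zero, Finset.sum_range_zero, sub_zero]
  | succ j ih => rw [cycPot_succ, ih, Finset.sum_range_succ]; abel

/-- The key identity: the potential has coboundary `z` on the powers of `φ`. -/
theorem cycPot_key (ρ : Representation k G X) (z : G × G → X)
    (hcoc : ∀ a b c : G, ρ a (z (b, c)) - z (a * b, c) + z (a, b * c) - z (a, b) = 0)
    (φ : G) (a b : ℕ) :
    ρ (φ ^ a) (cycPot z φ b) - cycPot z φ (a + b) + cycPot z φ a = z (φ ^ a, φ ^ b) := by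
  induction b with
  | zero =>
    have h := hcoc (φ ^ a) 1 φ
    rw [mul_one, one_mul] at h
    rw [cycPot_zero, add_zero, pow_zero, sub_add_cancel]
    have h2 : ρ (φ ^ a) (z (1, φ)) - z (φ ^ a, 1) = 0 := by
      rw [← h]; abel
    exact sub_eq_zero.mp h2
  | succ b ih =>
    have h := hcoc (φ ^ a) (φ ^ b) φ
    rw [← pow_add, ← pow_succ] at h
    rw [cycPot_succ, ← add_assoc, cycPot_succ, map_sub]
    have h3 : z (φ ^ a, φ ^ (b + 1)) =
        z (φ ^ a, φ ^ b) + z (φ ^ (a + b), φ) - ρ (φ ^ a) (z (φ ^ b, φ)) := by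
      have : z (φ ^ a, φ ^ (b + 1)) - (z (φ ^ a, φ ^ b) + z (φ ^ (a + b), φ)
          - ρ (φ ^ a) (z (φ ^ b, φ))) = 0 := by
        rw [← h]; abel
      exact sub_eq_zero.mp this
    rw [h3, ← ih]
    abel

/-- Sums of a periodic function over a multiple of the period. -/
theorem sum_range_mul_periodic (w : ℕ → X) (n : ℕ) (hw : ∀ i, w (i + n) = w i) (j s : ℕ) :
    ∑ i ∈ Finset.range (n * s), w (j + i) = s • ∑ i ∈ Finset.range n, w (j + i) := by
  induction s with
  | zero => simp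
  | succ s ih =>
    rw [Nat.mul_succ, Finset.sum_range_add, ih, succ_nsmul]
    congr 1
    apply Finset.sum_congr rfl
    intro i _
    have hper : ∀ (t : ℕ) (i : ℕ), w (i + n * t) = w i := by
      intro t
      induction t with
      | zero => intro i; simp
      | succ t iht =>
        intro i
        rw [Nat.mul_succ, ← add_assoc, hw, iht]
    rw [show j + (n * s + i) = (j + i) + n * s by ring, hper]

/-- Periodicity of the potential. -/
theorem cycPot_periodic (z : G × G → X) (φ : G) (n p N' : ℕ)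
    (hw : ∀ i, z (φ ^ (i + n), φ) = z (φ ^ i, φ)) (hp : ∀ x : X, p • x = 0)
    (hdiv : p * n ∣ N') (j : ℕ) : cycPot z φ (j + N') = cycPot z φ j := by
  obtain ⟨t, rfl⟩ := hdiv
  rw [cycPot_eq_sum, cycPot_eq_sum, Finset.sum_range_add]
  have h1 : ∑ i ∈ Finset.range (p * n * t), z (φ ^ (j + i), φ) = 0 := by
    have h2 := sum_range_mul_periodic (fun i => z (φ ^ i, φ)) n hw j (p * t)
    have h3 : p * n * t = n * (p * t) := by ring
    rw [h3, h2, mul_smul, hp]
  rw [h1, add_zero]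

theorem cycPot_periodic_mul (z : G × G → X) (φ : G) (n p N' : ℕ)
    (hw : ∀ i, z (φ ^ (i + n), φ) = z (φ ^ i, φ)) (hp : ∀ x : X, p • x = 0)
    (hdiv : p * n ∣ N') (j t : ℕ) : cycPot z φ (j + N' * t) = cycPot z φ j := by
  induction t with
  | zero => simp
  | succ t ih => rw [Nat.mul_succ, ← add_assoc, cycPot_periodic z φ n p N' hw hp hdiv, ih]

/-- **UR2, algebraic core.** -/
theorem exists_cochain_of_cyclic
    (ρ : Representation k G X) (z : G × G → X)
    (hcoc : ∀ a b c : G, ρ a (z (b, c)) - z (a * b, c) + z (a, b * c) - z (a, b) = 0)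
    (U U' : Subgroup G) [hnorm : U'.Normal] (hUU : U' ≤ U)
    (hρ : ∀ s ∈ U, ρ s = 1)
    (hz : ∀ g g' s s', s ∈ U → s' ∈ U → z (g * s, g' * s') = z (g, g'))
    (φ : G) (hgen : ∀ h : G, ∃ j : ℕ, (φ ^ j)⁻¹ * h ∈ U')
    (N' : ℕ) (hN' : ∀ j : ℕ, φ ^ j ∈ U' → N' ∣ j)
    (p n : ℕ) (hp : ∀ x : X, p • x = 0) (hn : φ ^ n ∈ U) (hdiv : p * n ∣ N') :
    ∃ g : G → X, (∀ h s, s ∈ U' → g (h * s) = g h) ∧
      ∀ x y : G, ρ x (g y) - g (x * y) + g x = z (x, y) := by
  have hw : ∀ i, z (φ ^ (i + n), φ) = z (φ ^ i, φ) := by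
    intro i
    have := hz (φ ^ i) φ (φ ^ n) 1 hn (one_mem U)
    rw [mul_one, ← pow_add] at this
    exact this
  -- independence of the exponent
  have hwd : ∀ (h : G) (j j' : ℕ), (φ ^ j)⁻¹ * h ∈ U' → (φ ^ j')⁻¹ * h ∈ U' →
      cycPot z φ j = cycPot z φ j' := by
    have haux : ∀ (h : G) (j j' : ℕ), j ≤ j' → (φ ^ j)⁻¹ * h ∈ U' → (φ ^ j')⁻¹ * h ∈ U' →
        cycPot z φ j = cycPot z φ j' := by
      intro h j j' hjj h1 h2
      obtain ⟨d, rfl⟩ := Nat.exists_eq_add_of_le hjj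
      have h3 : φ ^ d ∈ U' := by
        have h4 : φ ^ d = ((φ ^ j)⁻¹ * h) * ((φ ^ (j + d))⁻¹ * h)⁻¹ := by
          rw [pow_add]; group
        rw [h4]
        exact U'.mul_mem h1 (U'.inv_mem h2)
      obtain ⟨t, rfl⟩ := hN' d h3
      exact (cycPot_periodic_mul z φ n p N' hw hp hdiv j t).symm
    intro h j j' h1 h2
    rcases le_total j j' with hjj | hjj
    · exact haux h j j' hjj h1 h2
    · exact (haux h j' j hjj h2 h1).symm
  choose e he using hgen
  have hg : ∀ (h : G) (j : ℕ), (φ ^ j)⁻¹ * h ∈ U' → cycPot z φ (e h) = cycPot z φ j :=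
    fun h j hj => hwd h (e h) j (he h) hj
  refine ⟨fun h => cycPot z φ (e h), ?_, ?_⟩
  · intro h s hs
    show cycPot z φ (e (h * s)) = cycPot z φ (e h)
    have h1 : (φ ^ e (h * s))⁻¹ * h ∈ U' := by
      have h2 : (φ ^ e (h * s))⁻¹ * h = ((φ ^ e (h * s))⁻¹ * (h * s)) * s⁻¹ := by group
      rw [h2]
      exact U'.mul_mem (he (h * s)) (U'.inv_mem hs)
    exact (hg h _ h1).symm
  · intro x y
    show ρ x (cycPot z φ (e y)) - cycPot z φ (e (x * y)) + cycPot z φ (e x) = z (x, y)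
    obtain ⟨a, ha⟩ : ∃ a, a = e x := ⟨_, rfl⟩
    obtain ⟨b, hb⟩ : ∃ b, b = e y := ⟨_, rfl⟩
    have hea : (φ ^ a)⁻¹ * x ∈ U' := ha ▸ he x
    have heb : (φ ^ b)⁻¹ * y ∈ U' := hb ▸ he y
    rw [← ha, ← hb]
    have h1 : ρ x = ρ (φ ^ a) := by
      have : ρ (φ ^ a * ((φ ^ a)⁻¹ * x)) = ρ (φ ^ a) := by
        rw [map_mul, hρ _ (hUU hea), mul_one]
      rwa [mul_inv_cancel_left] at this
    have h2 : cycPot z φ (e (x * y)) = cycPot z φ (a + b) := by
      apply hg
      have h3 : (φ ^ (a + b))⁻¹ * (x * y) =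
          ((φ ^ b)⁻¹ * ((φ ^ a)⁻¹ * x) * (φ ^ b)) * ((φ ^ b)⁻¹ * y) := by
        rw [pow_add]; group
      rw [h3]
      refine U'.mul_mem ?_ heb
      have := hnorm.conj_mem _ hea (φ ^ b)⁻¹
      rw [inv_inv] at this
      exact this
    have h4 : z (x, y) = z (φ ^ a, φ ^ b) := by
      have := hz (φ ^ a) (φ ^ b) _ _ (hUU hea) (hUU heb)
      rwa [mul_inv_cancel_left, mul_inv_cancel_left] at this
    rw [h1, h2, h4]
    exact cycPot_key ρ z hcoc φ a b

end CyclicCocycle

/-- `q ^ M - 1 ∣ q ^ N - 1` forces `M ∣ N`. -/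
theorem dvd_of_pow_sub_one_dvd (q M N : ℕ) (hq : 2 ≤ q) (hM : 0 < M)
    (h : q ^ M - 1 ∣ q ^ N - 1) : M ∣ N := by
  have hq0 : 0 < q := by omega
  have hpos : ∀ j, 1 ≤ q ^ j := fun j => Nat.one_le_pow _ _ hq0
  -- `q ^ (M * a) ≡ 1`
  have h1 : ∀ a : ℕ, q ^ M - 1 ∣ q ^ (M * a) - 1 := by
    intro a
    rw [pow_mul]
    simpa using Nat.sub_dvd_pow_sub_pow (q ^ M) 1 a
  have hdecomp : q ^ N - 1 = q ^ (N % M) * (q ^ (M * (N / M)) - 1) + (q ^ (N % M) - 1) := by
    have h2 : q ^ N = q ^ (N % M) * q ^ (M * (N / M)) := by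
      rw [← pow_add, Nat.mod_add_div]
    have h3 := hpos (N % M)
    have h4 := hpos (M * (N / M))
    rw [h2, Nat.mul_sub, mul_one]
    have h5 : q ^ (N % M) ≤ q ^ (N % M) * q ^ (M * (N / M)) := Nat.le_mul_of_pos_right _ h4
    omega
  have h6 : q ^ M - 1 ∣ q ^ (N % M) - 1 := by
    rw [hdecomp] at h
    exact (Nat.dvd_add_right (Dvd.dvd.mul_left (h1 (N / M)) _)).mp h
  have hlt : q ^ (N % M) < q ^ M := Nat.pow_lt_pow_right hq (Nat.mod_lt N hM)
  have h7 : q ^ (N % M) - 1 = 0 := by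
    by_contra hne
    have := Nat.le_of_dvd (Nat.pos_of_ne_zero hne) h6
    have := hpos (N % M)
    omega
  have h8 : q ^ (N % M) = 1 := by
    have := hpos (N % M)
    omega
  have h9 : N % M = 0 := by
    by_contra hne
    have : 1 < q ^ (N % M) := Nat.one_lt_pow hne hq
    omega
  exact Nat.dvd_of_mod_eq_zero h9

end Fermat.Agent.S56.GWC.H46

end
-- ==== END Fermat.Agent.S56.GWC.H46_UR2Alg

-- ==== BEGIN Fermat.Agent.S56.H57_Abstract
section

/-!
# S56, leaf LOC-p-SO, abstract part (helper57)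

`G` a group acting on a finite-dimensional `k`-vector space `M`, `n₀ ∈ M` an eigenvector for the
character `ω`, and `h ∈ M`, not a multiple of `n₀`, with `g h - h ∈ k n₀` for all `g`.
Suppose that the crossed homomorphisms `G → k(ω)` of a class `Z` are spanned, modulo
coboundaries, by two crossed homomorphisms `u₁`, `u₂`.  Then the classes of the cocycles
`g ↦ c g • n₀` with `c` of class `Z` span a subspace of `H¹(G, M)` of dimension at most
`dim M^G + 1`.
-/

set_option autoImplicit false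

namespace Fermat.Agent.S56.H57

open CategoryTheory groupCohomology Module

universe u

section linalg

variable {k V : Type*} [Field k] [AddCommGroup V] [Module k V]

theorem finrank_span_pair_le (x y : V) :
    Module.Finite k (Submodule.span k ({x, y} : Set V)) ∧
      finrank k (Submodule.span k ({x, y} : Set V)) ≤ 2 := by
  classical
  have h1 : ({x, y} : Set V) = (({x, y} : Finset V) : Set V) := by simp
  refine ⟨?_, ?_⟩
  · rw [h1]
    exact FiniteDimensional.span_finset k _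
  · rw [h1]
    exact (finrank_span_finset_le_card (R := k) ({x, y} : Finset V)).trans Finset.card_le_two

theorem finrank_span_singleton_le_one (x : V) :
    finrank k (Submodule.span k ({x} : Set V)) ≤ 1 := by
  classical
  have h1 : ({x} : Set V) = (({x} : Finset V) : Set V) := by simp
  rw [h1]
  exact (finrank_span_finset_le_card (R := k) ({x} : Finset V)).trans (by simp)

/-- If `a x + b y = 0` with `(a, b) ≠ 0`, the span of `x` and `y` has dimension at most one. -/
theorem finrank_span_pair_le_one (x y : V) (a b : k) (hab : a ≠ 0 ∨ b ≠ 0)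
    (h : a • x + b • y = 0) : finrank k (Submodule.span k ({x, y} : Set V)) ≤ 1 := by
  have := (finrank_span_pair_le (k := k) x y).1
  rcases hab with ha | hb
  · have hx : x = (-(a⁻¹ * b)) • y := by
      have h1 : a • x = -(b • y) := eq_neg_of_add_eq_zero_left h
      have h2 : x = a⁻¹ • (a • x) := by rw [smul_smul, inv_mul_cancel₀ ha, one_smul]
      rw [h2, h1, smul_neg, smul_smul, neg_smul]
    have hle : Submodule.span k ({x, y} : Set V) ≤ Submodule.span k ({y} : Set V) := by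
      rw [Submodule.span_le]
      rintro z (rfl | rfl)
      · rw [hx]
        exact Submodule.smul_mem _ _ (Submodule.mem_span_singleton_self _)
      · exact Submodule.mem_span_singleton_self _
    exact (Submodule.finrank_mono hle).trans (finrank_span_singleton_le_one y)
  · have hy : y = (-(b⁻¹ * a)) • x := by
      have h1 : b • y = -(a • x) := eq_neg_of_add_eq_zero_right h
      have h2 : y = b⁻¹ • (b • y) := by rw [smul_smul, inv_mul_cancel₀ hb, one_smul]
      rw [h2, h1, smul_neg, smul_smul, neg_smul]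
    have hle : Submodule.span k ({x, y} : Set V) ≤ Submodule.span k ({x} : Set V) := by
      rw [Submodule.span_le]
      rintro z (rfl | rfl)
      · exact Submodule.mem_span_singleton_self _
      · rw [hy]
        exact Submodule.smul_mem _ _ (Submodule.mem_span_singleton_self _)
    exact (Submodule.finrank_mono hle).trans (finrank_span_singleton_le_one x)

end linalg

section bound

variable {k G : Type u} [Field k] [Group G] (M : Rep k G)

/-- The cocycle `g ↦ u g • n₀` attached to a crossed homomorphism `u : G → k(ω)` and an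
eigenvector `n₀` for `ω`. -/
def lineCocycle (n₀ : M) (ω u : G → k) (hω : ∀ s, M.ρ s n₀ = ω s • n₀)
    (hu : ∀ s t, u (s * t) = u s + ω s * u t) : cocycles₁ M :=
  ⟨fun s => u s • n₀, by
    rw [mem_cocycles₁_iff]
    intro g h
    rw [hu, map_smul, hω, smul_smul, add_smul, add_comm, mul_comm]⟩

@[simp] theorem lineCocycle_apply (n₀ : M) (ω u : G → k) (hω : ∀ s, M.ρ s n₀ = ω s • n₀)
    (hu : ∀ s t, u (s * t) = u s + ω s * u t) (s : G) :
    (lineCocycle M n₀ ω u hω hu : G → M) s = u s • n₀ := rfl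

variable {M}

/-- A cocycle which is pointwise `a u₁ + b u₂ + d (ω - 1)` times `n₀` has class
`a [U₁] + b [U₂]`. -/
theorem H1π_eq_of_decomp (n₀ : M) (ω u₁ u₂ : G → k) (hω : ∀ s, M.ρ s n₀ = ω s • n₀)
    (hu₁ : ∀ s t, u₁ (s * t) = u₁ s + ω s * u₁ t)
    (hu₂ : ∀ s t, u₂ (s * t) = u₂ s + ω s * u₂ t)
    (C : cocycles₁ M) (a b d : k)
    (hC : ∀ s, (C : G → M) s = (a * u₁ s + b * u₂ s + d * (ω s - 1)) • n₀) :
    (H1π M).hom C = a • (H1π M).hom (lineCocycle M n₀ ω u₁ hω hu₁)
      + b • (H1π M).hom (lineCocycle M n₀ ω u₂ hω hu₂) := by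
  have h1 : (H1π M).hom C = (H1π M).hom (a • lineCocycle M n₀ ω u₁ hω hu₁
      + b • lineCocycle M n₀ ω u₂ hω hu₂) := by
    have := (H1π_eq_iff C (a • lineCocycle M n₀ ω u₁ hω hu₁
      + b • lineCocycle M n₀ ω u₂ hω hu₂)).2 ?_
    · exact this
    · refine ⟨d • n₀, ?_⟩
      funext s
      rw [d₀₁_hom_apply]
      have e1 : ((a • lineCocycle M n₀ ω u₁ hω hu₁ + b • lineCocycle M n₀ ω u₂ hω hu₂ :
          cocycles₁ M) : G → M) s = a • (u₁ s • n₀) + b • (u₂ s • n₀) := rfl
      show M.ρ s (d • n₀) - d • n₀ = (C : G → M) s - _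
      rw [e1, hC s, map_smul, hω, smul_smul, smul_smul, smul_smul, ← add_smul, ← sub_smul,
        ← sub_smul]
      congr 1
      ring
  rw [h1, map_add, map_smul, map_smul]

/-- **Abstract bound.** -/
theorem finrank_map_le_of_line [FiniteDimensional k M] (n₀ h : M) (ω ch u₁ u₂ : G → k)
    (hω : ∀ s, M.ρ s n₀ = ω s • n₀)
    (hh : ∀ s, M.ρ s h - h = ch s • n₀)
    (hind : ∀ d : k, h ≠ d • n₀)
    (Z : (G → k) → Prop)
    (hu₁ : ∀ s t, u₁ (s * t) = u₁ s + ω s * u₁ t)
    (hu₂ : ∀ s t, u₂ (s * t) = u₂ s + ω s * u₂ t)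
    (hZ : ∀ c, Z c → ∃ a b d : k, ∀ s, c s = a * u₁ s + b * u₂ s + d * (ω s - 1))
    (hch : Z ch)
    (𝒞 : Submodule k (cocycles₁ M))
    (h𝒞 : ∀ C ∈ 𝒞, ∃ c : G → k, Z c ∧ ∀ s, (C : G → M) s = c s • n₀) :
    Module.Finite k (𝒞.map (H1π M).hom) ∧
      finrank k (𝒞.map (H1π M).hom) ≤ finrank k M.ρ.invariants + 1 := by
  set x₁ : H1 M := (H1π M).hom (lineCocycle M n₀ ω u₁ hω hu₁) with hx₁
  set x₂ : H1 M := (H1π M).hom (lineCocycle M n₀ ω u₂ hω hu₂) with hx₂
  have hle : 𝒞.map (H1π M).hom ≤ Submodule.span k ({x₁, x₂} : Set (H1 M)) := by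
    rintro _ ⟨C, hC, rfl⟩
    obtain ⟨c, hc, hCc⟩ := h𝒞 C hC
    obtain ⟨a, b, d, hd⟩ := hZ c hc
    have := H1π_eq_of_decomp n₀ ω u₁ u₂ hω hu₁ hu₂ C a b d (fun s => by rw [hCc s, hd s])
    rw [this]
    exact Submodule.add_mem _
      (Submodule.smul_mem _ _ (Submodule.subset_span (Or.inl rfl)))
      (Submodule.smul_mem _ _ (Submodule.subset_span (Or.inr rfl)))
  have hfin := (finrank_span_pair_le (k := k) x₁ x₂).1
  have h2 := (finrank_span_pair_le (k := k) x₁ x₂).2
  refine ⟨Submodule.finiteDimensional_of_le hle, ?_⟩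
  refine (Submodule.finrank_mono hle).trans ?_
  by_cases hinv : finrank k M.ρ.invariants = 0
  · -- no invariants: the two classes are dependent
    rw [hinv, zero_add]
    obtain ⟨a, b, d, hd⟩ := hZ ch hch
    have hab : a ≠ 0 ∨ b ≠ 0 := by
      by_contra hcon
      rw [not_or, not_not, not_not] at hcon
      obtain ⟨ha, hb⟩ := hcon
      have hfix : h - d • n₀ ∈ M.ρ.invariants := by
        intro s
        have e1 := hh s
        rw [hd s, ha, hb, zero_mul, zero_mul, zero_add, zero_add] at e1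
        rw [map_sub, map_smul, hω, smul_smul]
        have e2 : M.ρ s h = h + (d * (ω s - 1)) • n₀ := by
          rw [← e1]; abel
        rw [e2, mul_sub, mul_one, sub_smul]
        abel
      have hbot : M.ρ.invariants = ⊥ := Submodule.finrank_eq_zero.1 hinv
      rw [hbot, Submodule.mem_bot, sub_eq_zero] at hfix
      exact hind d hfix
    apply finrank_span_pair_le_one x₁ x₂ a b hab
    -- `a x₁ + b x₂` is the class of the coboundary of `h - d n₀`
    have hcoc : (fun s => ch s • n₀) ∈ cocycles₁ M := by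
      have : (fun s => ch s • n₀) = (d₀₁ M).hom h := by
        funext s
        rw [d₀₁_hom_apply, hh s]
      rw [this]
      exact d₀₁_apply_mem_cocycles₁ h
    have key := H1π_eq_of_decomp n₀ ω u₁ u₂ hω hu₁ hu₂ ⟨_, hcoc⟩ a b d
      (fun s => by rw [cocycles₁.coe_mk, hd s])
    rw [← hx₁, ← hx₂] at key
    rw [← key]
    refine (H1π_eq_zero_iff _).2 ⟨h, ?_⟩
    funext s
    rw [d₀₁_hom_apply, hh s]
    rfl
  · have : 1 ≤ finrank k M.ρ.invariants := Nat.one_le_iff_ne_zero.2 hinv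
    omega

end bound

end Fermat.Agent.S56.H57

end
-- ==== END Fermat.Agent.S56.H57_Abstract

-- ==== BEGIN Fermat.Agent.S56.H9_Frob
section

/-!
# S56, leaf LOC-TW, part (ii): the decomposition group modulo inertia is cyclic

`B` a ring with an action of `Γ`, `𝔓` a maximal ideal with finite residue field of
characteristic `q`, `D'` a finite subgroup of `Γ` stabilising `𝔓`.  Then there is `φ ∈ D'` acting
on the residue field as `x ↦ x ^ (q ^ a)` such that every element of `D'` is a power of `φ`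
modulo inertia.
-/

set_option autoImplicit false
set_option linter.unusedSectionVars false
set_option linter.style.haveILetI false

namespace Fermat.Agent.S56.H9

section frob

variable {B : Type*} [CommRing B] {Γ : Type*} [Group Γ] [MulSemiringAction Γ B]
  (𝔓 : Ideal B) [h𝔓 : 𝔓.IsMaximal] (q : ℕ) [hq : Fact q.Prime] [hchar : CharP (B ⧸ 𝔓) q]
  [hfin : Finite (B ⧸ 𝔓)]

/-- The automorphism of the residue field induced by an element stabilising `𝔓`. -/
noncomputable def resRingEquiv (σ : Γ) (hσ : ∀ x, σ • x ∈ 𝔓 ↔ x ∈ 𝔓) :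
    (B ⧸ 𝔓) ≃+* (B ⧸ 𝔓) :=
  Ideal.quotientEquiv 𝔓 𝔓 (MulSemiringAction.toRingEquiv Γ B σ) (by
    ext x
    constructor
    · intro hx
      have : x = (MulSemiringAction.toRingEquiv Γ B σ) (σ⁻¹ • x) := by
        simp
      rw [this]
      refine Ideal.mem_map_of_mem _ ?_
      rw [← hσ, smul_inv_smul]
      exact hx
    · intro hx
      rw [Ideal.map_coe] at hx
      have h2 : Ideal.map (MulSemiringAction.toRingEquiv Γ B σ) 𝔓 ≤ 𝔓 := by
        rw [Ideal.map_le_iff_le_comap]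
        intro y hy
        exact (hσ y).2 hy
      exact h2 hx)

@[simp]
lemma resRingEquiv_mk (σ : Γ) (hσ : ∀ x, σ • x ∈ 𝔓 ↔ x ∈ 𝔓) (x : B) :
    resRingEquiv 𝔓 σ hσ (Ideal.Quotient.mk 𝔓 x) = Ideal.Quotient.mk 𝔓 (σ • x) := rfl

attribute [local instance] ZMod.algebra

/-- The same as an algebra automorphism over the prime field. -/
noncomputable def resAlgEquiv (σ : Γ) (hσ : ∀ x, σ • x ∈ 𝔓 ↔ x ∈ 𝔓) :
    (B ⧸ 𝔓) ≃ₐ[ZMod q] (B ⧸ 𝔓) :=
  AlgEquiv.ofRingEquiv (f := resRingEquiv 𝔓 σ hσ) (fun z => by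
    have h : ((resRingEquiv 𝔓 σ hσ : (B ⧸ 𝔓) →+* (B ⧸ 𝔓))).comp (algebraMap (ZMod q) (B ⧸ 𝔓))
        = algebraMap (ZMod q) (B ⧸ 𝔓) := Subsingleton.elim _ _
    exact congrArg (fun f : ZMod q →+* (B ⧸ 𝔓) => f z) h)

lemma resAlgEquiv_mk (σ : Γ) (hσ : ∀ x, σ • x ∈ 𝔓 ↔ x ∈ 𝔓) (x : B) :
    resAlgEquiv 𝔓 q σ hσ (Ideal.Quotient.mk 𝔓 x) = Ideal.Quotient.mk 𝔓 (σ • x) := rfl

/-- The action of a subgroup of the stabiliser on the residue field. -/
noncomputable def resHom (D' : Subgroup Γ) (hD' : ∀ σ ∈ D', ∀ x, σ • x ∈ 𝔓 ↔ x ∈ 𝔓) :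
    D' →* ((B ⧸ 𝔓) ≃ₐ[ZMod q] (B ⧸ 𝔓)) where
  toFun σ := resAlgEquiv 𝔓 q (σ : Γ) (hD' σ σ.2)
  map_one' := by
    ext y
    obtain ⟨x, rfl⟩ := Ideal.Quotient.mk_surjective y
    rw [resAlgEquiv_mk]
    simp
  map_mul' σ τ := by
    ext y
    obtain ⟨x, rfl⟩ := Ideal.Quotient.mk_surjective y
    rw [resAlgEquiv_mk, AlgEquiv.mul_apply, resAlgEquiv_mk, resAlgEquiv_mk]
    simp [mul_smul]

lemma resHom_mk (D' : Subgroup Γ) (hD' : ∀ σ ∈ D', ∀ x, σ • x ∈ 𝔓 ↔ x ∈ 𝔓) (σ : D') (x : B) :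
    resHom 𝔓 q D' hD' σ (Ideal.Quotient.mk 𝔓 x) = Ideal.Quotient.mk 𝔓 ((σ : Γ) • x) := rfl

/-- The decomposition group modulo inertia is cyclic, generated by a power of Frobenius. -/
theorem exists_frob_generator (D' : Subgroup Γ) [Finite D']
    (hD' : ∀ σ ∈ D', ∀ x, σ • x ∈ 𝔓 ↔ x ∈ 𝔓) :
    ∃ φ ∈ D', ∃ a : ℕ, (∀ x, φ • x - x ^ (q ^ a) ∈ 𝔓) ∧
      ∀ g ∈ D', ∃ n : ℕ, (φ ^ n)⁻¹ * g ∈ 𝔓.inertia Γ := by
  letI : Field (B ⧸ 𝔓) := Ideal.Quotient.field 𝔓
  set Ψ := resHom 𝔓 q D' hD' with hΨ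
  have hcyc : IsCyclic (D' ⧸ Ψ.ker) :=
    isCyclic_of_injective (QuotientGroup.kerLift Ψ) (QuotientGroup.kerLift_injective Ψ)
  obtain ⟨g₀, hg₀⟩ := hcyc.exists_generator
  obtain ⟨φ, rfl⟩ := QuotientGroup.mk_surjective g₀
  obtain ⟨a, ha⟩ := (FiniteField.bijective_frobeniusAlgEquivOfAlgebraic_pow (ZMod q)
    (B ⧸ 𝔓)).2 (Ψ φ)
  refine ⟨φ, φ.2, a, ?_, ?_⟩
  · intro x
    rw [← Ideal.Quotient.eq, map_pow, ← resHom_mk 𝔓 q D' hD' φ x, ← hΨ, ← ha]
    simp only [AlgEquiv.coe_pow, FiniteField.coe_frobeniusAlgEquivOfAlgebraic_iterate,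
      ZMod.card]
  · intro g hg
    have hmem := hg₀ (QuotientGroup.mk ⟨g, hg⟩)
    obtain ⟨n, hn⟩ := (mem_powers_iff_mem_zpowers).2 hmem
    refine ⟨n, ?_⟩
    have hn' : (QuotientGroup.mk (φ ^ n) : D' ⧸ Ψ.ker) = QuotientGroup.mk ⟨g, hg⟩ := hn
    rw [QuotientGroup.eq] at hn'
    have h1 : Ψ ((φ ^ n)⁻¹ * ⟨g, hg⟩) = 1 := hn'
    intro x
    have h2 := congrArg (fun f : (B ⧸ 𝔓) ≃ₐ[ZMod q] (B ⧸ 𝔓) => f (Ideal.Quotient.mk 𝔓 x)) h1
    simp only [hΨ, resHom_mk, AlgEquiv.one_apply] at h2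
    rw [Ideal.Quotient.eq] at h2
    exact h2

end frob

end Fermat.Agent.S56.H9

end
-- ==== END Fermat.Agent.S56.H9_Frob

-- ==== BEGIN Fermat.Agent.S56.H9_H1Bound
section

/-!
# S56, leaf LOC-TW, part (i): an abstract bound for `H¹`

`G` a group acting on a finite-dimensional `k`-vector space `M`; `U ≤ P ≤ I` subgroups,
`I` acting trivially, `G = ⟨φ⟩ I`, `I = ⟨τ₀⟩ P`, `P / U` a `q`-group with `q` invertible in `k`,
`φ τ₀ φ⁻¹ ∈ τ₀ ^ m P` with `m = 1` in `k`.  Then the classes of the cocycles which are constant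
on the cosets of `U` span a space of dimension at most `2 dim M^G`.
-/

set_option autoImplicit false

namespace Fermat.Agent.S56.H9

open CategoryTheory groupCohomology

universe u

section linalg

variable {k V W X : Type*} [Field k] [AddCommGroup V] [Module k V] [AddCommGroup W] [Module k W]
  [AddCommGroup X] [Module k X]

/-- If `ker g ≤ ker f` and the target of `g` is finite-dimensional, then the range of `f` is
finite-dimensional of dimension at most that of the target of `g`. -/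
theorem finrank_range_le_of_ker_le [FiniteDimensional k X] (f : V →ₗ[k] W) (g : V →ₗ[k] X)
    (h : LinearMap.ker g ≤ LinearMap.ker f) :
    Module.Finite k (LinearMap.range f) ∧
      Module.finrank k (LinearMap.range f) ≤ Module.finrank k X := by
  have e : (V ⧸ LinearMap.ker g) ≃ₗ[k] LinearMap.range g := g.quotKerEquivRange
  have hfin : Module.Finite k (V ⧸ LinearMap.ker g) := Module.Finite.equiv e.symm
  set F : (V ⧸ LinearMap.ker g) →ₗ[k] W := (LinearMap.ker g).liftQ f h with hF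
  have hrange : LinearMap.range F = LinearMap.range f := by
    rw [hF, Submodule.range_liftQ]
  refine ⟨?_, ?_⟩
  · rw [← hrange]
    infer_instance
  · rw [← hrange]
    calc Module.finrank k (LinearMap.range F)
        ≤ Module.finrank k (V ⧸ LinearMap.ker g) := LinearMap.finrank_range_le F
      _ = Module.finrank k (LinearMap.range g) := e.finrank_eq
      _ ≤ Module.finrank k X := Submodule.finrank_le _

/-- For an endomorphism of a finite-dimensional space, `dim coker = dim ker`. -/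
theorem finrank_quot_range_eq_finrank_ker [FiniteDimensional k V] (f : V →ₗ[k] V) :
    Module.finrank k (V ⧸ LinearMap.range f) = Module.finrank k (LinearMap.ker f) := by
  have h1 := LinearMap.finrank_range_add_finrank_ker f
  have h2 := Submodule.finrank_quotient_add_finrank (LinearMap.range f)
  omega

end linalg

section cocycles

variable {k G : Type u} [Field k] [Group G] (M : Rep k G)

/-- The cocycles which are constant on the left cosets `g U`. -/
def cosetCocycles (U : Subgroup G) : Submodule k (cocycles₁ M) where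
  carrier := {c | ∀ g : G, ∀ s ∈ U, c (g * s) = c g}
  add_mem' := by
    intro a b ha hb g s hs
    show (a + b : cocycles₁ M) (g * s) = (a + b : cocycles₁ M) g
    have e : ∀ x : G, (a + b : cocycles₁ M) x = a x + b x := fun _ => rfl
    rw [e, e, ha g s hs, hb g s hs]
  zero_mem' := by
    intro g s _
    rfl
  smul_mem' := by
    intro r a ha g s hs
    have e : ∀ x : G, (r • a : cocycles₁ M) x = r • a x := fun _ => rfl
    show (r • a : cocycles₁ M) (g * s) = (r • a : cocycles₁ M) g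
    rw [e, e, ha g s hs]

lemma mem_cosetCocycles {U : Subgroup G} {c : cocycles₁ M} :
    c ∈ cosetCocycles M U ↔ ∀ g : G, ∀ s ∈ U, c (g * s) = c g := Iff.rfl

variable {M}

lemma cocycle_mul (c : cocycles₁ M) (g h : G) : c (g * h) = M.ρ g (c h) + c g :=
  (mem_cocycles₁_iff c).1 c.2 g h

lemma cocycle_mul_of_trivial (c : cocycles₁ M) {g : G} (hg : M.ρ g = 1) (h : G) :
    c (g * h) = c h + c g := by
  rw [cocycle_mul, hg]
  rfl

lemma cocycle_pow_of_trivial (c : cocycles₁ M) {g : G} (hg : M.ρ g = 1) (n : ℕ) :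
    c (g ^ n) = (n : k) • c g := by
  induction n with
  | zero => simp
  | succ n ih =>
    rw [pow_succ', cocycle_mul_of_trivial c hg, ih, Nat.cast_succ, add_smul, one_smul]

lemma cocycle_pow (c : cocycles₁ M) (g : G) (a : M) (h : c g = M.ρ g a - a) (n : ℕ) :
    c (g ^ n) = M.ρ (g ^ n) a - a := by
  induction n with
  | zero => simp
  | succ n ih =>
    rw [pow_succ', cocycle_mul, ih, h, map_sub, map_mul]
    simp only [Module.End.mul_apply]
    abel

end cocycles

section bound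

variable {k G : Type u} [Field k] [Group G] (M : Rep k G)

/-- The hypotheses on the level `U`. -/
structure TameLevel (U : Subgroup G) : Prop where
  ex : ∃ (I P : Subgroup G) (φ τ₀ : G) (q m : ℕ),
    U ≤ P ∧ P ≤ I ∧ τ₀ ∈ I ∧ (∀ i ∈ I, M.ρ i = 1) ∧
    (∀ g : G, ∃ n : ℕ, ∃ i ∈ I, g = φ ^ n * i) ∧
    (∀ i ∈ I, ∃ n : ℕ, ∃ x ∈ P, i = τ₀ ^ n * x) ∧
    (∀ x ∈ P, ∃ e : ℕ, x ^ (q ^ e) ∈ U) ∧
    (q : k) ≠ 0 ∧ (m : k) = 1 ∧ (∃ x ∈ P, φ * τ₀ * φ⁻¹ = τ₀ ^ m * x)

variable {M}

/-- Evaluation of cocycles at a group element. -/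
def evalCocycle (g : G) : cocycles₁ M →ₗ[k] M where
  toFun c := c g
  map_add' _ _ := rfl
  map_smul' _ _ := rfl

@[simp] lemma evalCocycle_apply (g : G) (c : cocycles₁ M) : evalCocycle g c = c g := rfl

lemma cocycle_eq_zero_of_mem {U : Subgroup G} {c : cocycles₁ M} (hc : c ∈ cosetCocycles M U)
    {s : G} (hs : s ∈ U) : c s = 0 := by
  have := hc 1 s hs
  rwa [one_mul, cocycles₁_map_one] at this

lemma cocycle_eq_zero_of_pow_mem {U : Subgroup G} {c : cocycles₁ M}
    (hc : c ∈ cosetCocycles M U) {x : G} (hx : M.ρ x = 1) {N : ℕ} (hN : (N : k) ≠ 0)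
    (hxN : x ^ N ∈ U) : c x = 0 := by
  have h1 := cocycle_pow_of_trivial c hx N
  rw [cocycle_eq_zero_of_mem hc hxN] at h1
  exact (smul_eq_zero.1 h1.symm).resolve_left hN

lemma cocycle_conj (c : cocycles₁ M) {t : G} (ht : M.ρ t = 1) (φ : G) :
    c (φ * t * φ⁻¹) = M.ρ φ (c t) := by
  rw [mul_assoc, cocycle_mul, cocycle_mul_of_trivial c ht, map_add, cocycles₁_map_inv]
  abel

lemma apply_pow_eq_self {a : M} {φ : G} (ha : M.ρ φ a = a) (n : ℕ) : (M.ρ φ ^ n) a = a := by
  induction n with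
  | zero => simp
  | succ n ih => rw [pow_succ, Module.End.mul_apply, ha, ih]

/-- the main computation: a coset cocycle killed by `Λ` is a coboundary -/
lemma cocycle_mem_coboundaries {I : Subgroup G} {φ : G} {c : cocycles₁ M}
    (hI : ∀ i ∈ I, M.ρ i = 1)
    (hgen : ∀ g : G, ∃ n : ℕ, ∃ i ∈ I, g = φ ^ n * i)
    (hcI : ∀ i ∈ I, c i = 0) (a : M) (ha : c φ = M.ρ φ a - a) :
    (c : G → M) ∈ coboundaries₁ M := by
  refine ⟨a, ?_⟩
  funext g
  obtain ⟨n, i, hi, rfl⟩ := hgen g
  rw [d₀₁_hom_apply]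
  have e1 : c (φ ^ n * i) = M.ρ (φ ^ n) a - a := by
    rw [cocycle_mul, hcI i hi, map_zero, zero_add, cocycle_pow _ φ a ha]
  have e2 : M.ρ (φ ^ n * i) a = M.ρ (φ ^ n) a := by
    rw [map_mul, hI i hi, mul_one]
  rw [e2]
  exact e1.symm

/-- **Abstract bound.** -/
theorem finrank_map_cosetCocycles_le [FiniteDimensional k M] {U : Subgroup G}
    (h : TameLevel M U) :
    Module.Finite k ((cosetCocycles M U).map (H1π M).hom) ∧
      Module.finrank k ((cosetCocycles M U).map (H1π M).hom)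
        ≤ 2 * Module.finrank k M.ρ.invariants := by
  obtain ⟨I, P, φ, τ₀, q, m, hUP, hPI, hτ, hI, hgen, hcyc, hP, hq, hm, x₀, hx₀, hconj⟩ := h.ex
  have hP0 : ∀ c ∈ cosetCocycles M U, ∀ x ∈ P, (c : cocycles₁ M) x = 0 := by
    intro c hc x hx
    obtain ⟨e, he⟩ := hP x hx
    have hne : ((q ^ e : ℕ) : k) ≠ 0 := by
      rw [Nat.cast_pow]
      exact pow_ne_zero _ hq
    exact cocycle_eq_zero_of_pow_mem hc (hI x (hPI hx)) hne he
  have hIτ : ∀ c ∈ cosetCocycles M U, (c : cocycles₁ M) τ₀ = 0 →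
      ∀ i ∈ I, (c : cocycles₁ M) i = 0 := by
    intro c hc h0 i hi
    obtain ⟨n, x, hx, rfl⟩ := hcyc i hi
    have hτn : M.ρ (τ₀ ^ n) = 1 := by rw [map_pow, hI τ₀ hτ, one_pow]
    rw [cocycle_mul_of_trivial c hτn, hP0 c hc x hx, cocycle_pow_of_trivial c (hI τ₀ hτ), h0,
      smul_zero, add_zero]
  have hinv : ∀ a : M, M.ρ φ a = a → a ∈ M.ρ.invariants := by
    intro a ha g
    obtain ⟨n, i, hi, rfl⟩ := hgen g
    rw [map_mul, map_pow, hI i hi, mul_one]
    exact apply_pow_eq_self ha n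
  have hτinv : ∀ c ∈ cosetCocycles M U, (c : cocycles₁ M) τ₀ ∈ M.ρ.invariants := by
    intro c hc
    apply hinv
    have hτm : M.ρ (τ₀ ^ m) = 1 := by rw [map_pow, hI τ₀ hτ, one_pow]
    have e1 : (c : cocycles₁ M) (φ * τ₀ * φ⁻¹) = (c : cocycles₁ M) τ₀ := by
      rw [hconj, cocycle_mul_of_trivial c hτm, hP0 c hc x₀ hx₀,
        cocycle_pow_of_trivial c (hI τ₀ hτ), hm, one_smul, zero_add]
    rw [← cocycle_conj c (hI τ₀ hτ) φ, e1]
  -- the two linear maps
  let D : M →ₗ[k] M := M.ρ φ - 1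
  let Λ₁ : cosetCocycles M U →ₗ[k] (M ⧸ LinearMap.range D) :=
    ((LinearMap.range D).mkQ.comp (evalCocycle φ)).comp (cosetCocycles M U).subtype
  let Λ₂ : cosetCocycles M U →ₗ[k] M.ρ.invariants :=
    LinearMap.codRestrict M.ρ.invariants ((evalCocycle τ₀).comp (cosetCocycles M U).subtype)
      (fun c => hτinv c c.2)
  let Λ : cosetCocycles M U →ₗ[k] (M ⧸ LinearMap.range D) × M.ρ.invariants := Λ₁.prod Λ₂
  let Φ : cosetCocycles M U →ₗ[k] H1 M := (H1π M).hom.comp (cosetCocycles M U).subtype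
  have hker : LinearMap.ker Λ ≤ LinearMap.ker Φ := by
    intro c hc
    rw [LinearMap.mem_ker] at hc ⊢
    have h1 : Λ₁ c = 0 := congrArg Prod.fst hc
    have h2' : Λ₂ c = 0 := congrArg Prod.snd hc
    have h2 : (c : cocycles₁ M) τ₀ = 0 := congrArg Subtype.val h2'
    have h1' : (LinearMap.range D).mkQ ((c : cocycles₁ M) φ) = 0 := h1
    rw [Submodule.mkQ_apply, Submodule.Quotient.mk_eq_zero] at h1'
    obtain ⟨a, ha⟩ := h1'
    have ha' : (c : cocycles₁ M) φ = M.ρ φ a - a := ha.symm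
    show (H1π M).hom (c : cocycles₁ M) = 0
    exact (H1π_eq_zero_iff _).2 (cocycle_mem_coboundaries hI hgen (hIτ c c.2 h2) a ha')
  have hfinX : FiniteDimensional k ((M ⧸ LinearMap.range D) × M.ρ.invariants) :=
    Module.Finite.prod
  have key := finrank_range_le_of_ker_le (k := k) (V := cosetCocycles M U) (W := H1 M)
    (X := (M ⧸ LinearMap.range D) × M.ρ.invariants) Φ Λ hker
  have hrange : LinearMap.range Φ = (cosetCocycles M U).map (H1π M).hom :=
    (LinearMap.range_comp _ _).trans (by rw [Submodule.range_subtype])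
  have hdim : Module.finrank k ((M ⧸ LinearMap.range D) × M.ρ.invariants)
      ≤ 2 * Module.finrank k M.ρ.invariants := by
    rw [Module.finrank_prod, finrank_quot_range_eq_finrank_ker]
    have hle : LinearMap.ker D ≤ M.ρ.invariants := by
      intro a ha
      apply hinv
      have ha' : M.ρ φ a - a = 0 := ha
      exact sub_eq_zero.1 ha'
    have := Submodule.finrank_mono hle
    omega
  rw [hrange] at key
  exact ⟨key.1, key.2.trans hdim⟩

end bound

end Fermat.Agent.S56.H9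

end
-- ==== END Fermat.Agent.S56.H9_H1Bound

-- ==== BEGIN Fermat.Agent.S56.H9_Place
section

/-!
# S56, leaf LOC-TW, part (iii-a): the prime of a number field cut out by a place of `ℚ̄`
-/

set_option autoImplicit false
set_option linter.unusedSectionVars false
set_option linter.style.haveILetI false

namespace Fermat.Agent.S56.H9

open NumberField

local notation "Qbar" => AlgebraicClosure ℚ

section primeAt

variable (A : ValuationSubring Qbar) (F : IntermediateField ℚ Qbar) [NumberField F]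

/-- The inclusion of the integers of `F` into `ℚ̄`. -/
noncomputable def intIncl : 𝓞 F →+* Qbar :=
  (algebraMap F Qbar).comp (algebraMap (𝓞 F) F)

lemma intIncl_apply (x : 𝓞 F) : intIncl F x = (((x : F)) : Qbar) := rfl

lemma intIncl_injective : Function.Injective (intIncl F) :=
  (algebraMap F Qbar).injective.comp RingOfIntegers.coe_injective

lemma isIntegral_intIncl (x : 𝓞 F) : IsIntegral ℤ (intIncl F x) := by
  have h : IsIntegral ℤ (x : F) := x.2
  exact h.map (IsScalarTower.toAlgHom ℤ F Qbar)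

lemma valuation_intIncl_le_one (x : 𝓞 F) : A.valuation (intIncl F x) ≤ 1 :=
  Fermat.Agent.Lib.FrobExists.valuation_le_one_of_isIntegral A _ (isIntegral_intIncl F x)

/-- The prime of `𝓞 F` cut out by the valuation subring `A` of `ℚ̄`. -/
def primeAt : Ideal (𝓞 F) where
  carrier := {x | A.valuation (intIncl F x) < 1}
  add_mem' := fun {x y} hx hy => by
    show A.valuation (intIncl F (x + y)) < 1
    rw [map_add]
    exact lt_of_le_of_lt (A.valuation.map_add _ _) (max_lt hx hy)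
  zero_mem' := by
    show A.valuation (intIncl F 0) < 1
    rw [map_zero, map_zero]
    exact zero_lt_one
  smul_mem' := fun c x hx => by
    show A.valuation (intIncl F (c • x)) < 1
    rw [smul_eq_mul, map_mul, map_mul]
    calc A.valuation (intIncl F c) * A.valuation (intIncl F x)
        ≤ 1 * A.valuation (intIncl F x) := mul_le_mul_left (valuation_intIncl_le_one A F c) _
      _ = A.valuation (intIncl F x) := one_mul _
      _ < 1 := hx

lemma mem_primeAt (x : 𝓞 F) : x ∈ primeAt A F ↔ A.valuation (intIncl F x) < 1 := Iff.rfl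

instance primeAt_isPrime : (primeAt A F).IsPrime := by
  refine ⟨?_, ?_⟩
  · intro h
    have h1 : (1 : 𝓞 F) ∈ primeAt A F := by
      rw [h]; exact Submodule.mem_top
    rw [mem_primeAt, map_one, map_one] at h1
    exact lt_irrefl _ h1
  · intro x y hxy
    rw [mem_primeAt, map_mul, map_mul] at hxy
    by_contra hcon
    rw [not_or] at hcon
    have hx : A.valuation (intIncl F x) = 1 :=
      le_antisymm (valuation_intIncl_le_one A F x) (not_lt.mp hcon.1)
    have hy : A.valuation (intIncl F y) = 1 :=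
      le_antisymm (valuation_intIncl_le_one A F y) (not_lt.mp hcon.2)
    rw [hx, hy, one_mul] at hxy
    exact lt_irrefl _ hxy

lemma natCast_mem_primeAt {q : ℕ} (hA : (q : Qbar) ∈ A.nonunits) : (q : 𝓞 F) ∈ primeAt A F := by
  rw [mem_primeAt, map_natCast]
  exact A.mem_nonunits_iff.mp hA

lemma primeAt_ne_bot {q : ℕ} (hq : q ≠ 0) (hA : (q : Qbar) ∈ A.nonunits) : primeAt A F ≠ ⊥ := by
  intro h
  have h1 := natCast_mem_primeAt A F hA
  rw [h, Ideal.mem_bot] at h1
  exact hq (Nat.cast_eq_zero.1 h1)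

lemma primeAt_isMaximal {q : ℕ} (hq : q ≠ 0) (hA : (q : Qbar) ∈ A.nonunits) :
    (primeAt A F).IsMaximal :=
  Ideal.IsPrime.isMaximal inferInstance (primeAt_ne_bot A F hq hA)

lemma finite_quotient_primeAt {q : ℕ} (hq : q ≠ 0) (hA : (q : Qbar) ∈ A.nonunits) :
    Finite (𝓞 F ⧸ primeAt A F) :=
  Ideal.finiteQuotientOfFreeOfNeBot _ (primeAt_ne_bot A F hq hA)

lemma charP_quotient_primeAt {q : ℕ} (hq : q.Prime) (hA : (q : Qbar) ∈ A.nonunits) :
    CharP (𝓞 F ⧸ primeAt A F) q := by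
  haveI : Nontrivial (𝓞 F ⧸ primeAt A F) :=
    Ideal.Quotient.nontrivial_iff.2 (Ideal.IsPrime.ne_top inferInstance)
  have h0 : ((q : ℕ) : 𝓞 F ⧸ primeAt A F) = 0 := by
    rw [← map_natCast (Ideal.Quotient.mk (primeAt A F)), Ideal.Quotient.eq_zero_iff_mem]
    exact natCast_mem_primeAt A F hA
  exact (CharP.charP_iff_prime_eq_zero hq).2 h0

end primeAt

end Fermat.Agent.S56.H9

end
-- ==== END Fermat.Agent.S56.H9_Place

-- ==== BEGIN Fermat.Agent.S56.H9_Tame
section

/-!
# S56, leaf LOC-TW, part (ii): tame ramification at a prime of a Dedekind domain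

`B` a Dedekind domain with an action of a group `Γ` by ring automorphisms, `𝔓` a nonzero prime.
* `wild 𝔓 Γ`: the elements of the inertia group acting trivially on `𝔓 / 𝔓 ^ 2`;
* an element of `wild` of order prime to the residue characteristic acts trivially;
* the inertia group modulo `wild` embeds into `(B ⧸ 𝔓)ˣ` (tame character), hence finite
  subgroups are cyclic modulo `wild`;
* conjugation by an element acting as `x ↦ x ^ m` on the residue field is the `m`-th power
  modulo `wild`.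
-/

set_option autoImplicit false

namespace Fermat.Agent.S56.H9

section basic

variable {B : Type*} [CommRing B] {Γ : Type*} [Group Γ] [MulSemiringAction Γ B] (𝔓 : Ideal B)

lemma smul_mem_pow_of_forall {σ : Γ} (h : ∀ x ∈ 𝔓, σ • x ∈ 𝔓) :
    ∀ (j : ℕ), ∀ x ∈ 𝔓 ^ j, σ • x ∈ 𝔓 ^ j := by
  intro j
  induction j with
  | zero =>
    intro x _
    simp
  | succ j ih =>
    intro x hx
    rw [pow_succ] at hx ⊢
    refine Submodule.mul_induction_on hx ?_ ?_
    · intro b hb a ha
      rw [smul_mul']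
      exact Ideal.mul_mem_mul (ih b hb) (h a ha)
    · intro a b ha hb
      rw [smul_add]
      exact Ideal.add_mem _ ha hb

lemma smul_mem_of_mem_inertia {σ : Γ} (hσ : σ ∈ 𝔓.inertia Γ) : ∀ x ∈ 𝔓, σ • x ∈ 𝔓 := by
  intro x hx
  have := Ideal.add_mem _ (hσ x) hx
  simpa using this

/-- The wild inertia group: trivial action on `B ⧸ 𝔓` and on `𝔓 ⧸ 𝔓 ^ 2`. -/
def wild (Γ : Type*) [Group Γ] [MulSemiringAction Γ B] : Subgroup Γ where
  carrier := {σ | σ ∈ 𝔓.inertia Γ ∧ ∀ x ∈ 𝔓, σ • x - x ∈ 𝔓 ^ 2}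
  mul_mem' := by
    rintro a b ⟨ha, ha2⟩ ⟨hb, hb2⟩
    refine ⟨mul_mem ha hb, fun x hx => ?_⟩
    have e : (a * b) • x - x = a • (b • x - x) + (a • x - x) := by
      rw [mul_smul, smul_sub]; ring
    rw [e]
    exact Ideal.add_mem _
      (smul_mem_pow_of_forall 𝔓 (smul_mem_of_mem_inertia 𝔓 ha) 2 _ (hb2 x hx)) (ha2 x hx)
  one_mem' := ⟨one_mem _, fun x _ => by simp⟩
  inv_mem' := by
    rintro a ⟨ha, ha2⟩
    have hainv : a⁻¹ ∈ 𝔓.inertia Γ := inv_mem ha
    refine ⟨hainv, fun x hx => ?_⟩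
    have hx' : a⁻¹ • x ∈ 𝔓 := smul_mem_of_mem_inertia 𝔓 hainv x hx
    have := ha2 _ hx'
    rw [smul_inv_smul] at this
    have e : a⁻¹ • x - x = -(x - a⁻¹ • x) := by ring
    rw [e]
    exact Ideal.neg_mem_iff _ |>.2 this

lemma mem_wild {σ : Γ} :
    σ ∈ wild 𝔓 Γ ↔ σ ∈ 𝔓.inertia Γ ∧ ∀ x ∈ 𝔓, σ • x - x ∈ 𝔓 ^ 2 := Iff.rfl

lemma wild_le_inertia : wild 𝔓 Γ ≤ 𝔓.inertia Γ := fun _ h => h.1

/-- An element of the wild inertia group acts trivially on `𝔓 ^ j / 𝔓 ^ (j + 1)`. -/
lemma sub_mem_pow_succ_of_mem_wild {σ : Γ} (hσ : σ ∈ wild 𝔓 Γ) :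
    ∀ (j : ℕ), ∀ y ∈ 𝔓 ^ j, σ • y - y ∈ 𝔓 ^ (j + 1) := by
  intro j
  induction j with
  | zero =>
    intro y _
    rw [zero_add, pow_one]
    exact hσ.1 y
  | succ j ih =>
    intro y hy
    rw [pow_succ] at hy
    refine Submodule.mul_induction_on hy ?_ ?_
    · intro b hb a ha
      have e : σ • (b * a) - b * a = (σ • b - b) * (σ • a) + b * (σ • a - a) := by
        rw [smul_mul']; ring
      rw [e]
      refine Ideal.add_mem _ ?_ ?_
      · rw [pow_succ (n := j + 1)]
        exact Ideal.mul_mem_mul (ih b hb) (smul_mem_of_mem_inertia 𝔓 hσ.1 a ha)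
      · have : 𝔓 ^ (j + 1 + 1) = 𝔓 ^ j * 𝔓 ^ 2 := by rw [← pow_add]
        rw [this]
        exact Ideal.mul_mem_mul hb (hσ.2 a ha)
    · intro a b ha hb
      have e : σ • (a + b) - (a + b) = (σ • a - a) + (σ • b - b) := by
        rw [smul_add]; ring
      rw [e]
      exact Ideal.add_mem _ ha hb

lemma pow_smul_sub_mem_of_mem_wild {σ : Γ} (hσ : σ ∈ wild 𝔓 Γ) (j : ℕ) {y : B}
    (hy : y ∈ 𝔓 ^ j) (i : ℕ) : (σ ^ i) • y - y ∈ 𝔓 ^ (j + 1) :=
  sub_mem_pow_succ_of_mem_wild 𝔓 (pow_mem hσ i) j y hy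

end basic

section wildOrder

variable {B : Type*} [CommRing B] [IsDomain B] [IsNoetherianRing B] {Γ : Type*} [Group Γ]
  [MulSemiringAction Γ B] (𝔓 : Ideal B)

/-- A wild element of order prime to the residue characteristic acts trivially. -/
theorem smul_eq_of_mem_wild_of_coprime (h𝔓 : 𝔓 ≠ ⊤) {q : ℕ} (hq : (q : B) ∈ 𝔓) {σ : Γ}
    (hσ : σ ∈ wild 𝔓 Γ) {n : ℕ} (hn : n.Coprime q) (hσn : ∀ x : B, (σ ^ n) • x = x) (x : B) :
    σ • x = x := by
  have key : ∀ j : ℕ, ∀ x : B, σ • x - x ∈ 𝔓 ^ (j + 1) := by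
    intro j
    induction j with
    | zero =>
      intro x
      rw [zero_add, pow_one]
      exact hσ.1 x
    | succ j ih =>
      intro x
      set y := σ • x - x with hy
      have hyj : y ∈ 𝔓 ^ (j + 1) := ih x
      -- `∑_{i<n} σ^i y = σ^n x - x = 0`
      have hsum : ∑ i ∈ Finset.range n, (σ ^ i) • y = 0 := by
        have : ∀ N : ℕ, ∑ i ∈ Finset.range N, (σ ^ i) • y = (σ ^ N) • x - x := by
          intro N
          induction N with
          | zero => simp
          | succ N ihN =>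
            rw [Finset.sum_range_succ, ihN, hy, smul_sub, ← mul_smul, ← pow_succ]
            ring
        rw [this, hσn, sub_self]
      have hny : (n : B) * y ∈ 𝔓 ^ (j + 1 + 1) := by
        have e : (n : B) * y = -(∑ i ∈ Finset.range n, ((σ ^ i) • y - y)) := by
          rw [Finset.sum_sub_distrib, hsum, Finset.sum_const, Finset.card_range, nsmul_eq_mul]
          ring
        rw [e]
        refine (Ideal.neg_mem_iff _).2 (Ideal.sum_mem _ fun i _ => ?_)
        exact pow_smul_sub_mem_of_mem_wild 𝔓 hσ (j + 1) hyj i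
      -- `n` is invertible modulo `𝔓 ^ (j + 2)`
      have hcop : Nat.Coprime n (q ^ (j + 1 + 1)) := Nat.Coprime.pow_right _ hn
      have hbez : ((n : ℤ).gcd ((q ^ (j + 1 + 1) : ℕ) : ℤ)) = 1 := by
        rw [Int.gcd_natCast_natCast]; exact hcop
      have hb := Int.gcd_eq_gcd_ab (n : ℤ) ((q ^ (j + 1 + 1) : ℕ) : ℤ)
      rw [hbez] at hb
      set a := Int.gcdA (n : ℤ) ((q ^ (j + 1 + 1) : ℕ) : ℤ)
      set b := Int.gcdB (n : ℤ) ((q ^ (j + 1 + 1) : ℕ) : ℤ)
      have hb' : (1 : B) = (n : B) * (a : B) + (q : B) ^ (j + 1 + 1) * (b : B) := by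
        have := congrArg (fun z : ℤ => (z : B)) hb
        simpa using this
      have e : y = (a : B) * ((n : B) * y) + ((b : B) * y) * (q : B) ^ (j + 1 + 1) := by
        linear_combination y * hb'
      rw [e]
      refine Ideal.add_mem _ (Ideal.mul_mem_left _ _ hny) (Ideal.mul_mem_left _ _ ?_)
      exact Ideal.pow_mem_pow hq _
  have h0 : σ • x - x ∈ (⨅ i : ℕ, 𝔓 ^ i : Ideal B) := by
    rw [Ideal.mem_iInf]
    intro i
    cases i with
    | zero => simp
    | succ i => exact key i x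
  rw [Ideal.iInf_pow_eq_bot_of_isDomain 𝔓 h𝔓, Ideal.mem_bot, sub_eq_zero] at h0
  exact h0

end wildOrder

end Fermat.Agent.S56.H9

end
-- ==== END Fermat.Agent.S56.H9_Tame

-- ==== BEGIN Fermat.Agent.S56.IND.Defs
section

set_option autoImplicit false

/-!
# Cluster T / S56, GW-CORE, package IND (owner-planner helper74): modular Artin induction

`Stmt_IND`: `k` a finite field of characteristic `p`, `G` a finite group.  An additive,
isomorphism-invariant `ℤ`-valued function on finite-dimensional `k[G]`-modules which vanishes on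
every module induced from a cyclic subgroup of order prime to `p` is zero.
(No hypothesis "`k` large" is needed; modules are induced from arbitrary modules of the subgroup.)

Route (Brauer characters with values in the Witt vectors of the algebraic closure):
* `Stmt_JH`   every f.d. module has a list of simple "composition factors" seen by all additive
              functions;
* `Stmt_BR`   the Brauer character `brauerFn` is additive, reduces to the trace, and is invariant
              under `g ↦ g ^ #k`;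
* `Stmt_TR`   the traces of pairwise non-isomorphic simple modules are linearly independent;
* `Stmt_BN`   (Brauer-Nesbitt) an integral relation between Brauer characters gives the same
              relation for all additive functions                     [from JH, BR, TR];
* `Stmt_PERM` the Brauer character of a permutation module at a `p`-regular element is the number
              of fixed points;
* `Stmt_ART`  Artin's formula `∑_B a_B #Fix(x, G/B) = #G` for `p`-regular `x`, `B` cyclic `p'`;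
* `Stmt_TENS` `W ↦ f (V ⊗ W)` is additive, `V ⊗ k[G/B]` is induced from `B`, `V ⊗ k ≅ V`.
Assembly: `IND/Asm.lean`.
-/

noncomputable section

namespace Fermat.Agent.S56.IND

open Polynomial

/-- The Witt vectors of the algebraic closure of `k`: the value ring of Brauer characters. -/
abbrev WK (p : ℕ) (k : Type) [Field k] : Type := WittVector p (AlgebraicClosure k)

section Defs

variable (k : Type) [Field k] (G : Type) [Group G]

/-- Additive, isomorphism-invariant functions on finite-dimensional representations. -/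
structure IsAdditiveFn {A : Type} [AddCommGroup A] (f : Rep.{0} k G → A) : Prop where
  iso : ∀ {V W : Type} [AddCommGroup V] [Module k V] [AddCommGroup W] [Module k W]
    [FiniteDimensional k V] (ρ : Representation k G V) (σ : Representation k G W)
    (e : V ≃ₗ[k] W), (∀ g v, e (ρ g v) = σ g (e v)) → f (Rep.of ρ) = f (Rep.of σ)
  add : ∀ {V : Type} [AddCommGroup V] [Module k V] [FiniteDimensional k V]
    (ρ : Representation k G V) (W : Submodule k V) (hW : ∀ g, W ≤ W.comap (ρ g)),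
    f (Rep.of ρ) = f (Rep.of (ρ.subrepresentation W hW)) + f (Rep.of (ρ.quotient W hW))

variable {k G}

/-- `ρ` is induced from the `B`-stable subspace `W`: the translates of `W` span `V` and
`dim V = [G : B] dim W`. -/
def IsInducedFrom {V : Type} [AddCommGroup V] [Module k V] (ρ : Representation k G V)
    (B : Subgroup G) (W : Submodule k V) : Prop :=
  (∀ b ∈ B, ∀ w ∈ W, ρ b w ∈ W) ∧ (⨆ g : G, W.map (ρ g)) = ⊤ ∧
    Module.finrank k V = B.index * Module.finrank k W

/-- A simple representation: nonzero, without proper nonzero stable subspaces. -/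
def IsSimpleRep {V : Type} [AddCommGroup V] [Module k V] (ρ : Representation k G V) : Prop :=
  Nontrivial V ∧ ∀ W : Submodule k V, (∀ g, W ≤ W.comap (ρ g)) → W = ⊥ ∨ W = ⊤

/-- Isomorphic representations. -/
def RepIso {V W : Type} [AddCommGroup V] [Module k V] [AddCommGroup W] [Module k W]
    (ρ : Representation k G V) (σ : Representation k G W) : Prop :=
  ∃ e : V ≃ₗ[k] W, ∀ g v, e (ρ g v) = σ g (e v)

variable (k G)

/-- The permutation representation on `X → k`: `(g • φ) x = φ (g⁻¹ • x)`, so that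
`g • e_y = e_{g • y}`. -/
def permRep (X : Type) [MulAction G X] : Representation k G (X → k) where
  toFun g :=
    { toFun := fun φ x => φ (g⁻¹ • x)
      map_add' := fun _ _ => rfl
      map_smul' := fun _ _ => rfl }
  map_one' := by
    ext φ x
    simp
  map_mul' g h := by
    ext φ x
    simp [mul_smul]

@[simp] theorem permRep_apply (X : Type) [MulAction G X] (g : G) (φ : X → k) (x : X) :
    permRep k G X g φ x = φ (g⁻¹ • x) := rfl

variable {k G}

/-- The Brauer character of a finite-dimensional representation: the sum of the Teichmüller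
lifts of the eigenvalues (in the algebraic closure, with multiplicity). -/
def brauer (p : ℕ) [Fact p.Prime] {V : Type} [AddCommGroup V] [Module k V]
    [FiniteDimensional k V] (ρ : Representation k G V) (g : G) : WK p k :=
  (((LinearMap.charpoly (ρ g)).aroots (AlgebraicClosure k)).map (WittVector.teichmuller p)).sum

open Classical in
/-- The Brauer character as a function on `Rep` (zero on infinite-dimensional ones). -/
def brauerFn (p : ℕ) [Fact p.Prime] (V : Rep.{0} k G) : G → WK p k :=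
  if h : FiniteDimensional k V then (haveI := h; brauer p V.ρ) else 0

theorem brauerFn_of (p : ℕ) [Fact p.Prime] {V : Type} [AddCommGroup V] [Module k V]
    [FiniteDimensional k V] (ρ : Representation k G V) :
    brauerFn p (Rep.of ρ) = brauer p ρ := by
  unfold brauerFn
  rw [dif_pos (show FiniteDimensional k (Rep.of ρ) from ‹FiniteDimensional k V›)]

end Defs

/-! ### The statements -/

/-- **IND** (modular Artin induction). -/
def Stmt_IND : Prop :=
  ∀ (p : ℕ) [Fact p.Prime] (k : Type) [Field k] [Finite k] [CharP k p]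
    (G : Type) [Group G] [Finite G] (f : Rep.{0} k G → ℤ), IsAdditiveFn k G f →
    (∀ (V : Type) [AddCommGroup V] [Module k V] [FiniteDimensional k V]
      (ρ : Representation k G V) (B : Subgroup G) (W : Submodule k V),
      IsCyclic B → ¬ p ∣ Nat.card B → IsInducedFrom ρ B W → f (Rep.of ρ) = 0) →
    ∀ (V : Type) [AddCommGroup V] [Module k V] [FiniteDimensional k V]
      (ρ : Representation k G V), f (Rep.of ρ) = 0

/-- **IND-1 = JH.** Composition factors, as seen by additive functions. -/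
def Stmt_JH : Prop :=
  ∀ (k : Type) [Field k] (G : Type) [Group G]
    (V : Type) [AddCommGroup V] [Module k V] [FiniteDimensional k V]
    (ρ : Representation k G V),
    ∃ (n : ℕ) (S : Fin n → Rep.{0} k G), (∀ i, FiniteDimensional k (S i)) ∧
      (∀ i, IsSimpleRep (S i).ρ) ∧
      ∀ (A : Type) [AddCommGroup A] (F : Rep.{0} k G → A), IsAdditiveFn k G F →
        F (Rep.of ρ) = ∑ i, F (S i)

/-- **IND-2 = BR.** The Brauer character is additive, reduces to the trace, and is invariant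
under `g ↦ g ^ #k`. -/
def Stmt_BR : Prop :=
  ∀ (p : ℕ) [Fact p.Prime] (k : Type) [Field k] [Finite k] [CharP k p]
    (G : Type) [Group G],
    IsAdditiveFn k G (brauerFn (k := k) (G := G) p) ∧
    (∀ (V : Type) [AddCommGroup V] [Module k V] [FiniteDimensional k V]
      (ρ : Representation k G V) (g : G),
      WittVector.constantCoeff (brauer p ρ g) =
        algebraMap k (AlgebraicClosure k) (LinearMap.trace k V (ρ g))) ∧
    (∀ (V : Type) [AddCommGroup V] [Module k V] [FiniteDimensional k V]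
      (ρ : Representation k G V) (g : G), brauer p ρ (g ^ Nat.card k) = brauer p ρ g)

/-- **IND-3 = TR.** The traces of pairwise non-isomorphic simple representations are linearly
independent. -/
def Stmt_TR : Prop :=
  ∀ (k : Type) [Field k] [Finite k] (G : Type) [Group G] [Finite G]
    (ι : Type) [Fintype ι] (S : ι → Rep.{0} k G), (∀ i, FiniteDimensional k (S i)) →
    (∀ i, IsSimpleRep (S i).ρ) → (∀ i j, i ≠ j → ¬ RepIso (S i).ρ (S j).ρ) →
    ∀ c : ι → k, (∀ g : G, ∑ i, c i * LinearMap.trace k (S i) ((S i).ρ g) = 0) → ∀ i, c i = 0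

/-- **IND-4 = BN** (Brauer-Nesbitt).  An integral linear relation between Brauer characters of
finite-dimensional representations holds for every additive function. -/
def Stmt_BN : Prop :=
  ∀ (p : ℕ) [Fact p.Prime] (k : Type) [Field k] [Finite k] [CharP k p]
    (G : Type) [Group G] [Finite G]
    (ι : Type) [Fintype ι] (V : ι → Rep.{0} k G), (∀ i, FiniteDimensional k (V i)) →
    ∀ c : ι → ℤ, (∀ g : G, ∑ i, c i • brauerFn p (V i) g = 0) →
    ∀ F : Rep.{0} k G → ℤ, IsAdditiveFn k G F → ∑ i, c i * F (V i) = 0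

/-- **IND-5 = PERM.** The Brauer character of a permutation representation at an element of
order prime to `p` is the number of fixed points. -/
def Stmt_PERM : Prop :=
  ∀ (p : ℕ) [Fact p.Prime] (k : Type) [Field k] [Finite k] [CharP k p]
    (G : Type) [Group G] [Finite G] (X : Type) [Finite X] [MulAction G X] (g : G),
    ¬ p ∣ orderOf g →
    brauer p (permRep k G X) g = (Nat.card {x : X // g • x = x} : WK p k)

open Classical in
/-- **IND-6 = ART** (Artin's formula for permutation characters).  There are integers `a B`,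
supported on the cyclic subgroups of order prime to `p`, such that
`∑_B a B * #Fix(x, G/B) = #G` for every `x` of order prime to `p`. -/
def Stmt_ART : Prop :=
  ∀ (p : ℕ) (G : Type) [Group G] [Fintype G],
    ∃ a : Subgroup G → ℤ, (∀ B, a B ≠ 0 → IsCyclic B ∧ ¬ p ∣ Nat.card B) ∧
      ∀ x : G, ¬ p ∣ orderOf x →
        ∑ B : Subgroup G, a B * (Nat.card {q : G ⧸ B // x • q = q} : ℤ) = Nat.card G

/-- **IND-7 = TENS.** Tensoring with a fixed finite-dimensional representation: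
`W ↦ f (V ⊗ W)` is additive; `V ⊗ k[G/B]` is induced from `B`; `V ⊗ k[pt] ≅ V`. -/
def Stmt_TENS : Prop :=
  ∀ (k : Type) [Field k] (G : Type) [Group G] [Finite G]
    (V : Type) [AddCommGroup V] [Module k V] [FiniteDimensional k V]
    (ρ : Representation k G V),
    (∀ f : Rep.{0} k G → ℤ, IsAdditiveFn k G f →
      IsAdditiveFn k G (fun W : Rep.{0} k G => f (Rep.of (ρ.tprod W.ρ)))) ∧
    (∀ B : Subgroup G, ∃ W : Submodule k (TensorProduct k V (G ⧸ B → k)),
      IsInducedFrom (ρ.tprod (permRep k G (G ⧸ B))) B W) ∧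
    RepIso (ρ.tprod (permRep k G PUnit)) ρ

end Fermat.Agent.S56.IND

end

end
-- ==== END Fermat.Agent.S56.IND.Defs
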