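-- GENERATED (merged mirror, NOTES/tools/trim/merge3_helper67.py): 7 modules of the originals, bodies verbatim.
import Mathlib

-- ==== BEGIN Fermat.Agent.S56.EC.H92_Snake
section

set_option autoImplicit false
set_option linter.style.haveILetI false

/-!
# Abstract long exact sequence (six terms) and the dimension count

Pure linear algebra over a field `k`.  For a complex `W →u X →d Y` put
`Hmid u d = ker d ⧸ range u`.  Given three complexes `W →u X →d Y →e Z` (indices `A`, `B`, `C`)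
and a degreewise short exact sequence `A → B → C` between them, there is the six-term exact
sequence
`H^X(A) → H^X(B) → H^X(C) →δ H^Y(A) → H^Y(B) → H^Y(C)`.
We prove exactness at the four inner terms and deduce the dimension count
`dim H^X(B) + dim H^Y(A) + rk(β_Y) = rk(α_X) + dim H^X(C) + dim H^Y(B)`.
-/

noncomputable section

namespace Fermat.Agent.S56.H92.Snake

open LinearMap

variable {k : Type*} [Field k]

section Hmid

variable {W X Y : Type*} [AddCommGroup W] [Module k W] [AddCommGroup X] [Module k X]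
  [AddCommGroup Y] [Module k Y]

/-- The cohomology of `W →u X →d Y` at `X`: `ker d ⧸ range u`. -/
abbrev Hmid (u : W →ₗ[k] X) (d : X →ₗ[k] Y) : Type _ :=
  ↥(LinearMap.ker d) ⧸ (LinearMap.range u).comap (LinearMap.ker d).subtype

/-- The class of a cocycle. -/
def Hmid.mk (u : W →ₗ[k] X) (d : X →ₗ[k] Y) : ↥(LinearMap.ker d) →ₗ[k] Hmid u d :=
  Submodule.mkQ _

theorem Hmid.mk_surjective (u : W →ₗ[k] X) (d : X →ₗ[k] Y) :
    Function.Surjective (Hmid.mk u d) :=
  Submodule.mkQ_surjective _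

theorem Hmid.mk_eq_zero_iff (u : W →ₗ[k] X) (d : X →ₗ[k] Y) (z : ↥(LinearMap.ker d)) :
    Hmid.mk u d z = 0 ↔ ∃ w : W, u w = (z : X) := by
  unfold Hmid.mk
  rw [Submodule.mkQ_apply, Submodule.Quotient.mk_eq_zero, Submodule.mem_comap]
  exact LinearMap.mem_range

theorem Hmid.mk_eq_mk_iff (u : W →ₗ[k] X) (d : X →ₗ[k] Y) (z z' : ↥(LinearMap.ker d)) :
    Hmid.mk u d z = Hmid.mk u d z' ↔ ∃ w : W, u w = (z : X) - (z' : X) := by
  rw [← sub_eq_zero, ← map_sub, Hmid.mk_eq_zero_iff]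
  rfl

end Hmid

section map

variable {W X Y W' X' Y' : Type*} [AddCommGroup W] [Module k W] [AddCommGroup X] [Module k X]
  [AddCommGroup Y] [Module k Y] [AddCommGroup W'] [Module k W'] [AddCommGroup X'] [Module k X']
  [AddCommGroup Y'] [Module k Y']

/-- Functoriality of `Hmid`. -/
def Hmid.map {u : W →ₗ[k] X} {d : X →ₗ[k] Y} {u' : W' →ₗ[k] X'} {d' : X' →ₗ[k] Y'}
    (fW : W →ₗ[k] W') (fX : X →ₗ[k] X') (fY : Y →ₗ[k] Y')
    (hu : ∀ w, fX (u w) = u' (fW w)) (hd : ∀ x, fY (d x) = d' (fX x)) :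
    Hmid u d →ₗ[k] Hmid u' d' :=
  Submodule.mapQ _ _
    (fX.restrict (p := LinearMap.ker d) (q := LinearMap.ker d') (fun x hx => by
      rw [LinearMap.mem_ker] at hx ⊢
      rw [← hd, hx, map_zero]))
    (fun z hz => by
      rw [Submodule.mem_comap] at hz
      obtain ⟨w, hw⟩ := hz
      rw [Submodule.mem_comap, Submodule.mem_comap]
      exact ⟨fW w, by rw [← hu, hw]; rfl⟩)

theorem Hmid.map_mk {u : W →ₗ[k] X} {d : X →ₗ[k] Y} {u' : W' →ₗ[k] X'} {d' : X' →ₗ[k] Y'}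
    (fW : W →ₗ[k] W') (fX : X →ₗ[k] X') (fY : Y →ₗ[k] Y')
    (hu : ∀ w, fX (u w) = u' (fW w)) (hd : ∀ x, fY (d x) = d' (fX x))
    (z : ↥(LinearMap.ker d)) (z' : ↥(LinearMap.ker d')) (h : (z' : X') = fX z) :
    Hmid.map fW fX fY hu hd (Hmid.mk u d z) = Hmid.mk u' d' z' := by
  unfold Hmid.map Hmid.mk
  rw [Submodule.mkQ_apply, Submodule.mapQ_apply, Submodule.mkQ_apply]
  congr 1
  exact Subtype.ext h.symm

end map

section six

variable {WA XA YA ZA WB XB YB ZB WC XC YC ZC : Type*}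
  [AddCommGroup WA] [Module k WA] [AddCommGroup XA] [Module k XA]
  [AddCommGroup YA] [Module k YA] [AddCommGroup ZA] [Module k ZA]
  [AddCommGroup WB] [Module k WB] [AddCommGroup XB] [Module k XB]
  [AddCommGroup YB] [Module k YB] [AddCommGroup ZB] [Module k ZB]
  [AddCommGroup WC] [Module k WC] [AddCommGroup XC] [Module k XC]
  [AddCommGroup YC] [Module k YC] [AddCommGroup ZC] [Module k ZC]
  (uA : WA →ₗ[k] XA) (dA : XA →ₗ[k] YA) (eA : YA →ₗ[k] ZA)
  (uB : WB →ₗ[k] XB) (dB : XB →ₗ[k] YB) (eB : YB →ₗ[k] ZB)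
  (uC : WC →ₗ[k] XC) (dC : XC →ₗ[k] YC) (eC : YC →ₗ[k] ZC)
  (iW : WA →ₗ[k] WB) (iX : XA →ₗ[k] XB) (iY : YA →ₗ[k] YB) (iZ : ZA →ₗ[k] ZB)
  (pW : WB →ₗ[k] WC) (pX : XB →ₗ[k] XC) (pY : YB →ₗ[k] YC) (pZ : ZB →ₗ[k] ZC)

/-- The hypotheses of the six-term exact sequence: three complexes `W → X → Y → Z` and a
degreewise (partially) short exact sequence between them. -/
structure SixHyp : Prop where
  dB_uB : ∀ w, dB (uB w) = 0
  eB_dB : ∀ x, eB (dB x) = 0
  iX_uA : ∀ w, iX (uA w) = uB (iW w)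
  iY_dA : ∀ x, iY (dA x) = dB (iX x)
  iZ_eA : ∀ y, iZ (eA y) = eB (iY y)
  pX_uB : ∀ w, pX (uB w) = uC (pW w)
  pY_dB : ∀ x, pY (dB x) = dC (pX x)
  pZ_eB : ∀ y, pZ (eB y) = eC (pY y)
  pW_surj : Function.Surjective pW
  pX_surj : Function.Surjective pX
  exX : ∀ x, pX x = 0 ↔ ∃ a, iX a = x
  iY_inj : Function.Injective iY
  exY : ∀ y, pY y = 0 ↔ ∃ a, iY a = y
  iZ_inj : Function.Injective iZ

variable {uA dA eA uB dB eB uC dC eC iW iX iY iZ pW pX pY pZ}
variable (h : SixHyp uA dA eA uB dB eB uC dC eC iW iX iY iZ pW pX pY pZ)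

include h

/-- `H^X(A) → H^X(B)`. -/
def SixHyp.αX : Hmid uA dA →ₗ[k] Hmid uB dB := Hmid.map iW iX iY h.iX_uA h.iY_dA

/-- `H^X(B) → H^X(C)`. -/
def SixHyp.βX : Hmid uB dB →ₗ[k] Hmid uC dC := Hmid.map pW pX pY h.pX_uB h.pY_dB

/-- `H^Y(A) → H^Y(B)`. -/
def SixHyp.αY : Hmid dA eA →ₗ[k] Hmid dB eB := Hmid.map iX iY iZ h.iY_dA h.iZ_eA

/-- `H^Y(B) → H^Y(C)`. -/
def SixHyp.βY : Hmid dB eB →ₗ[k] Hmid dC eC := Hmid.map pX pY pZ h.pY_dB h.pZ_eB

/-- A linear section of `pX`. -/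
def SixHyp.sec : XC →ₗ[k] XB :=
  Classical.choose (LinearMap.exists_rightInverse_of_surjective pX
    (LinearMap.range_eq_top.2 h.pX_surj))

theorem SixHyp.pX_sec (x : XC) : pX (h.sec x) = x := by
  have := Classical.choose_spec (LinearMap.exists_rightInverse_of_surjective pX
    (LinearMap.range_eq_top.2 h.pX_surj))
  exact LinearMap.congr_fun this x

/-- A linear retraction of `iY`. -/
def SixHyp.ret : YB →ₗ[k] YA :=
  Classical.choose (LinearMap.exists_leftInverse_of_injective iY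
    (LinearMap.ker_eq_bot.2 h.iY_inj))

theorem SixHyp.ret_iY (y : YA) : h.ret (iY y) = y := by
  have := Classical.choose_spec (LinearMap.exists_leftInverse_of_injective iY
    (LinearMap.ker_eq_bot.2 h.iY_inj))
  exact LinearMap.congr_fun this y

/-- If `x` lifts a cocycle of `C`, then `d x` comes from a cocycle of `A`. -/
theorem SixHyp.exists_of_lift (x : XB) (hx : dC (pX x) = 0) :
    ∃ y : YA, iY y = dB x ∧ eA y = 0 := by
  have h1 : pY (dB x) = 0 := by rw [h.pY_dB, hx]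
  obtain ⟨y, hy⟩ := (h.exY _).1 h1
  refine ⟨y, hy, h.iZ_inj ?_⟩
  rw [h.iZ_eA, hy, h.eB_dB, map_zero]

/-- The connecting map on cocycles. -/
def SixHyp.δ₀ : ↥(LinearMap.ker dC) →ₗ[k] ↥(LinearMap.ker eA) :=
  LinearMap.codRestrict (LinearMap.ker eA)
    (h.ret.comp (dB.comp (h.sec.comp (LinearMap.ker dC).subtype)))
    (fun z => by
      have hz : dC (pX (h.sec (z : XC))) = 0 := by
        rw [h.pX_sec]; exact z.2
      obtain ⟨y, hy, hy0⟩ := h.exists_of_lift (h.sec (z : XC)) hz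
      rw [LinearMap.mem_ker]
      show eA (h.ret (dB (h.sec (z : XC)))) = 0
      rw [← hy, h.ret_iY, hy0])

theorem SixHyp.iY_δ₀ (z : ↥(LinearMap.ker dC)) :
    iY ((h.δ₀ z : ↥(LinearMap.ker eA)) : YA) = dB (h.sec (z : XC)) := by
  have hz : dC (pX (h.sec (z : XC))) = 0 := by
    rw [h.pX_sec]; exact z.2
  obtain ⟨y, hy, -⟩ := h.exists_of_lift (h.sec (z : XC)) hz
  show iY (h.ret (dB (h.sec (z : XC)))) = _
  rw [← hy, h.ret_iY]

/-- The connecting homomorphism `H^X(C) → H^Y(A)`. -/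
def SixHyp.δ : Hmid uC dC →ₗ[k] Hmid dA eA :=
  Submodule.liftQ _ ((Hmid.mk dA eA).comp h.δ₀) (fun z hz => by
    rw [Submodule.mem_comap] at hz
    obtain ⟨w, hw⟩ := hz
    rw [LinearMap.mem_ker, LinearMap.comp_apply, Hmid.mk_eq_zero_iff]
    obtain ⟨wB, hwB⟩ := h.pW_surj w
    have h1 : pX (h.sec (z : XC) - uB wB) = 0 := by
      rw [map_sub, h.pX_sec, h.pX_uB, hwB]
      exact sub_eq_zero.2 hw.symm
    obtain ⟨a, ha⟩ := (h.exX _).1 h1
    refine ⟨a, h.iY_inj ?_⟩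
    rw [h.iY_dA, ha, map_sub, h.dB_uB, sub_zero, h.iY_δ₀])

theorem SixHyp.δ_mk (z : ↥(LinearMap.ker dC)) :
    h.δ (Hmid.mk uC dC z) = Hmid.mk dA eA (h.δ₀ z) := rfl

/-- The connecting homomorphism, computed with any lift. -/
theorem SixHyp.δ_spec (z : ↥(LinearMap.ker dC)) (x : XB) (hx : pX x = (z : XC))
    (y : ↥(LinearMap.ker eA)) (hy : iY (y : YA) = dB x) :
    h.δ (Hmid.mk uC dC z) = Hmid.mk dA eA y := by
  rw [h.δ_mk, Hmid.mk_eq_mk_iff]
  have h1 : pX (h.sec (z : XC) - x) = 0 := by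
    rw [map_sub, h.pX_sec, hx, sub_self]
  obtain ⟨a, ha⟩ := (h.exX _).1 h1
  refine ⟨a, h.iY_inj ?_⟩
  rw [h.iY_dA, ha, map_sub, map_sub, h.iY_δ₀, hy]

/-- Exactness at `H^X(B)`. -/
theorem SixHyp.exact_XB (b : Hmid uB dB) : h.βX b = 0 ↔ ∃ a, h.αX a = b := by
  obtain ⟨z, rfl⟩ := Hmid.mk_surjective uB dB b
  have hz0 : dB (z : XB) = 0 := z.2
  constructor
  · intro hb
    have hpz : pX (z : XB) ∈ LinearMap.ker dC := by
      rw [LinearMap.mem_ker, ← h.pY_dB, hz0, map_zero]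
    have e1 : h.βX (Hmid.mk uB dB z) = Hmid.mk uC dC ⟨pX (z : XB), hpz⟩ :=
      Hmid.map_mk pW pX pY h.pX_uB h.pY_dB z _ rfl
    rw [e1, Hmid.mk_eq_zero_iff] at hb
    obtain ⟨w, hw⟩ := hb
    obtain ⟨wB, hwB⟩ := h.pW_surj w
    have h1 : pX ((z : XB) - uB wB) = 0 := by
      rw [map_sub, h.pX_uB, hwB, hw]
      exact sub_self _
    obtain ⟨a, ha⟩ := (h.exX _).1 h1
    have ha0 : a ∈ LinearMap.ker dA := by
      rw [LinearMap.mem_ker]
      apply h.iY_inj
      rw [h.iY_dA, ha, map_sub, hz0, h.dB_uB, sub_zero, map_zero]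
    refine ⟨Hmid.mk uA dA ⟨a, ha0⟩, ?_⟩
    have e2 : h.αX (Hmid.mk uA dA ⟨a, ha0⟩) = Hmid.mk uB dB ⟨iX a, by
        rw [LinearMap.mem_ker, ← h.iY_dA, LinearMap.mem_ker.1 ha0, map_zero]⟩ :=
      Hmid.map_mk iW iX iY h.iX_uA h.iY_dA _ _ rfl
    rw [e2, Hmid.mk_eq_mk_iff]
    refine ⟨-wB, ?_⟩
    show uB (-wB) = iX a - (z : XB)
    rw [ha, map_neg]
    abel
  · rintro ⟨a, ha⟩
    obtain ⟨za, rfl⟩ := Hmid.mk_surjective uA dA a
    have hiz : iX (za : XA) ∈ LinearMap.ker dB := by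
      rw [LinearMap.mem_ker, ← h.iY_dA, LinearMap.mem_ker.1 za.2, map_zero]
    have e2 : h.αX (Hmid.mk uA dA za) = Hmid.mk uB dB ⟨iX (za : XA), hiz⟩ :=
      Hmid.map_mk iW iX iY h.iX_uA h.iY_dA _ _ rfl
    rw [← ha, e2]
    have hpz : pX (iX (za : XA)) ∈ LinearMap.ker dC := by
      rw [LinearMap.mem_ker, ← h.pY_dB, LinearMap.mem_ker.1 hiz, map_zero]
    have e1 : h.βX (Hmid.mk uB dB ⟨iX (za : XA), hiz⟩) =
        Hmid.mk uC dC ⟨pX (iX (za : XA)), hpz⟩ :=
      Hmid.map_mk pW pX pY h.pX_uB h.pY_dB _ _ rfl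
    rw [e1, Hmid.mk_eq_zero_iff]
    refine ⟨0, ?_⟩
    rw [map_zero]
    exact ((h.exX _).2 ⟨_, rfl⟩).symm

/-- Exactness at `H^X(C)`. -/
theorem SixHyp.exact_XC (c : Hmid uC dC) : h.δ c = 0 ↔ ∃ b, h.βX b = c := by
  obtain ⟨z, rfl⟩ := Hmid.mk_surjective uC dC c
  constructor
  · intro hc
    rw [h.δ_mk, Hmid.mk_eq_zero_iff] at hc
    obtain ⟨a, ha⟩ := hc
    have hx : h.sec (z : XC) - iX a ∈ LinearMap.ker dB := by
      rw [LinearMap.mem_ker, map_sub, ← h.iY_dA, ha, h.iY_δ₀, sub_self]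
    refine ⟨Hmid.mk uB dB ⟨_, hx⟩, ?_⟩
    refine Hmid.map_mk pW pX pY h.pX_uB h.pY_dB _ _ ?_
    show (z : XC) = pX (h.sec (z : XC) - iX a)
    rw [map_sub, h.pX_sec, (h.exX _).2 ⟨a, rfl⟩, sub_zero]
  · rintro ⟨b, hb⟩
    obtain ⟨zb, rfl⟩ := Hmid.mk_surjective uB dB b
    have hpz : pX (zb : XB) ∈ LinearMap.ker dC := by
      rw [LinearMap.mem_ker, ← h.pY_dB, LinearMap.mem_ker.1 zb.2, map_zero]
    have e1 : h.βX (Hmid.mk uB dB zb) = Hmid.mk uC dC ⟨pX (zb : XB), hpz⟩ :=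
      Hmid.map_mk pW pX pY h.pX_uB h.pY_dB _ _ rfl
    rw [← hb, e1]
    have := h.δ_spec ⟨pX (zb : XB), hpz⟩ (zb : XB) rfl (0 : ↥(LinearMap.ker eA)) (by
      show iY 0 = dB (zb : XB)
      rw [map_zero, LinearMap.mem_ker.1 zb.2])
    rw [this, map_zero]

/-- Exactness at `H^Y(A)`. -/
theorem SixHyp.exact_YA (a : Hmid dA eA) : h.αY a = 0 ↔ ∃ c, h.δ c = a := by
  obtain ⟨y, rfl⟩ := Hmid.mk_surjective dA eA a
  have hiy : iY (y : YA) ∈ LinearMap.ker eB := by
    rw [LinearMap.mem_ker, ← h.iZ_eA, LinearMap.mem_ker.1 y.2, map_zero]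
  have e1 : h.αY (Hmid.mk dA eA y) = Hmid.mk dB eB ⟨iY (y : YA), hiy⟩ :=
    Hmid.map_mk iX iY iZ h.iY_dA h.iZ_eA _ _ rfl
  constructor
  · intro ha
    rw [e1, Hmid.mk_eq_zero_iff] at ha
    obtain ⟨x, hx⟩ := ha
    have hx' : dB x = iY (y : YA) := hx
    have hpx : pX x ∈ LinearMap.ker dC := by
      rw [LinearMap.mem_ker, ← h.pY_dB, hx']
      exact (h.exY _).2 ⟨_, rfl⟩
    refine ⟨Hmid.mk uC dC ⟨pX x, hpx⟩, ?_⟩
    exact h.δ_spec ⟨pX x, hpx⟩ x rfl y hx'.symm
  · rintro ⟨c, hc⟩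
    obtain ⟨z, rfl⟩ := Hmid.mk_surjective uC dC c
    rw [h.δ_mk] at hc
    rw [← hc]
    have hiy' : iY ((h.δ₀ z : ↥(LinearMap.ker eA)) : YA) ∈ LinearMap.ker eB := by
      rw [LinearMap.mem_ker, ← h.iZ_eA, LinearMap.mem_ker.1 (h.δ₀ z).2, map_zero]
    have e2 : h.αY (Hmid.mk dA eA (h.δ₀ z)) = Hmid.mk dB eB ⟨_, hiy'⟩ :=
      Hmid.map_mk iX iY iZ h.iY_dA h.iZ_eA _ _ rfl
    rw [e2, Hmid.mk_eq_zero_iff]
    exact ⟨h.sec (z : XC), (h.iY_δ₀ z).symm⟩

/-- Exactness at `H^Y(B)`. -/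
theorem SixHyp.exact_YB (b : Hmid dB eB) : h.βY b = 0 ↔ ∃ a, h.αY a = b := by
  obtain ⟨y, rfl⟩ := Hmid.mk_surjective dB eB b
  have hy0 : eB (y : YB) = 0 := y.2
  constructor
  · intro hb
    have hpy : pY (y : YB) ∈ LinearMap.ker eC := by
      rw [LinearMap.mem_ker, ← h.pZ_eB, hy0, map_zero]
    have e1 : h.βY (Hmid.mk dB eB y) = Hmid.mk dC eC ⟨pY (y : YB), hpy⟩ :=
      Hmid.map_mk pX pY pZ h.pY_dB h.pZ_eB _ _ rfl
    rw [e1, Hmid.mk_eq_zero_iff] at hb
    obtain ⟨x, hx⟩ := hb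
    obtain ⟨xB, hxB⟩ := h.pX_surj x
    have h1 : pY ((y : YB) - dB xB) = 0 := by
      rw [map_sub, h.pY_dB, hxB, hx]
      exact sub_self _
    obtain ⟨a, ha⟩ := (h.exY _).1 h1
    have ha0 : a ∈ LinearMap.ker eA := by
      rw [LinearMap.mem_ker]
      apply h.iZ_inj
      rw [h.iZ_eA, ha, map_sub, hy0, h.eB_dB, sub_zero, map_zero]
    refine ⟨Hmid.mk dA eA ⟨a, ha0⟩, ?_⟩
    have e2 : h.αY (Hmid.mk dA eA ⟨a, ha0⟩) = Hmid.mk dB eB ⟨iY a, by
        rw [LinearMap.mem_ker, ← h.iZ_eA, LinearMap.mem_ker.1 ha0, map_zero]⟩ :=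
      Hmid.map_mk iX iY iZ h.iY_dA h.iZ_eA _ _ rfl
    rw [e2, Hmid.mk_eq_mk_iff]
    refine ⟨-xB, ?_⟩
    show dB (-xB) = iY a - (y : YB)
    rw [ha, map_neg]
    abel
  · rintro ⟨a, ha⟩
    obtain ⟨za, rfl⟩ := Hmid.mk_surjective dA eA a
    have hiz : iY (za : YA) ∈ LinearMap.ker eB := by
      rw [LinearMap.mem_ker, ← h.iZ_eA, LinearMap.mem_ker.1 za.2, map_zero]
    have e2 : h.αY (Hmid.mk dA eA za) = Hmid.mk dB eB ⟨iY (za : YA), hiz⟩ :=
      Hmid.map_mk iX iY iZ h.iY_dA h.iZ_eA _ _ rfl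
    rw [← ha, e2]
    have hpz : pY (iY (za : YA)) ∈ LinearMap.ker eC := by
      rw [LinearMap.mem_ker, ← h.pZ_eB, LinearMap.mem_ker.1 hiz, map_zero]
    have e1 : h.βY (Hmid.mk dB eB ⟨iY (za : YA), hiz⟩) =
        Hmid.mk dC eC ⟨pY (iY (za : YA)), hpz⟩ :=
      Hmid.map_mk pX pY pZ h.pY_dB h.pZ_eB _ _ rfl
    rw [e1, Hmid.mk_eq_zero_iff]
    refine ⟨0, ?_⟩
    rw [map_zero]
    exact ((h.exY _).2 ⟨_, rfl⟩).symm

end six

section count

/-- Rank-nullity at an exact spot `U →f V →g T`. -/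
theorem finrank_eq_of_exact {U V T : Type*} [AddCommGroup U] [Module k U]
    [AddCommGroup V] [Module k V] [AddCommGroup T] [Module k T] [Module.Finite k V]
    (f : U →ₗ[k] V) (g : V →ₗ[k] T) (hex : ∀ v, g v = 0 ↔ ∃ u, f u = v) :
    Module.finrank k V =
      Module.finrank k (LinearMap.range f) + Module.finrank k (LinearMap.range g) := by
  have h1 := LinearMap.finrank_range_add_finrank_ker g
  have h2 : LinearMap.ker g = LinearMap.range f := by
    ext v
    rw [LinearMap.mem_ker, LinearMap.mem_range]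
    exact hex v
  rw [h2] at h1
  omega

/-- Rank of an injective map. -/
theorem finrank_range_of_injective {U V : Type*} [AddCommGroup U] [Module k U]
    [AddCommGroup V] [Module k V] (f : U →ₗ[k] V) (hf : Function.Injective f) :
    Module.finrank k (LinearMap.range f) = Module.finrank k U :=
  LinearMap.finrank_range_of_inj hf

variable {WA XA YA ZA WB XB YB ZB WC XC YC ZC : Type*}
  [AddCommGroup WA] [Module k WA] [AddCommGroup XA] [Module k XA]
  [AddCommGroup YA] [Module k YA] [AddCommGroup ZA] [Module k ZA]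
  [AddCommGroup WB] [Module k WB] [AddCommGroup XB] [Module k XB]
  [AddCommGroup YB] [Module k YB] [AddCommGroup ZB] [Module k ZB]
  [AddCommGroup WC] [Module k WC] [AddCommGroup XC] [Module k XC]
  [AddCommGroup YC] [Module k YC] [AddCommGroup ZC] [Module k ZC]
  {uA : WA →ₗ[k] XA} {dA : XA →ₗ[k] YA} {eA : YA →ₗ[k] ZA}
  {uB : WB →ₗ[k] XB} {dB : XB →ₗ[k] YB} {eB : YB →ₗ[k] ZB}
  {uC : WC →ₗ[k] XC} {dC : XC →ₗ[k] YC} {eC : YC →ₗ[k] ZC}
  {iW : WA →ₗ[k] WB} {iX : XA →ₗ[k] XB} {iY : YA →ₗ[k] YB} {iZ : ZA →ₗ[k] ZB}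
  {pW : WB →ₗ[k] WC} {pX : XB →ₗ[k] XC} {pY : YB →ₗ[k] YC} {pZ : ZB →ₗ[k] ZC}
  (h : SixHyp uA dA eA uB dB eB uC dC eC iW iX iY iZ pW pX pY pZ)

include h

/-- `dim H^X(B) = rk α_X + rk β_X`. -/
theorem SixHyp.finrank_XB [Module.Finite k (Hmid uB dB)] :
    Module.finrank k (Hmid uB dB) =
      Module.finrank k (LinearMap.range h.αX) + Module.finrank k (LinearMap.range h.βX) :=
  finrank_eq_of_exact h.αX h.βX h.exact_XB

/-- `dim H^Y(B) = rk α_Y + rk β_Y`. -/
theorem SixHyp.finrank_YB [Module.Finite k (Hmid dB eB)] :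
    Module.finrank k (Hmid dB eB) =
      Module.finrank k (LinearMap.range h.αY) + Module.finrank k (LinearMap.range h.βY) :=
  finrank_eq_of_exact h.αY h.βY h.exact_YB

/-- The dimension count of the six-term exact sequence. -/
theorem SixHyp.count [Module.Finite k (Hmid uB dB)] [Module.Finite k (Hmid uC dC)]
    [Module.Finite k (Hmid dA eA)] [Module.Finite k (Hmid dB eB)] :
    Module.finrank k (Hmid uB dB) + Module.finrank k (Hmid dA eA) +
        Module.finrank k (LinearMap.range h.βY) =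
      Module.finrank k (LinearMap.range h.αX) + Module.finrank k (Hmid uC dC) +
        Module.finrank k (Hmid dB eB) := by
  have h1 := h.finrank_XB
  have h2 := finrank_eq_of_exact h.βX h.δ h.exact_XC
  have h3 := finrank_eq_of_exact h.δ h.αY h.exact_YA
  have h4 := h.finrank_YB
  omega

end count

section nine

variable {X0A X1A X2A X3A X0B X1B X2B X3B X0C X1C X2C X3C : Type*}
  [AddCommGroup X0A] [Module k X0A] [AddCommGroup X1A] [Module k X1A]
  [AddCommGroup X2A] [Module k X2A] [AddCommGroup X3A] [Module k X3A]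
  [AddCommGroup X0B] [Module k X0B] [AddCommGroup X1B] [Module k X1B]
  [AddCommGroup X2B] [Module k X2B] [AddCommGroup X3B] [Module k X3B]
  [AddCommGroup X0C] [Module k X0C] [AddCommGroup X1C] [Module k X1C]
  [AddCommGroup X2C] [Module k X2C] [AddCommGroup X3C] [Module k X3C]
  (d0A : X0A →ₗ[k] X1A) (d1A : X1A →ₗ[k] X2A) (d2A : X2A →ₗ[k] X3A)
  (d0B : X0B →ₗ[k] X1B) (d1B : X1B →ₗ[k] X2B) (d2B : X2B →ₗ[k] X3B)
  (d0C : X0C →ₗ[k] X1C) (d1C : X1C →ₗ[k] X2C) (d2C : X2C →ₗ[k] X3C)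
  (i0 : X0A →ₗ[k] X0B) (i1 : X1A →ₗ[k] X1B) (i2 : X2A →ₗ[k] X2B) (i3 : X3A →ₗ[k] X3B)
  (p0 : X0B →ₗ[k] X0C) (p1 : X1B →ₗ[k] X1C) (p2 : X2B →ₗ[k] X2C) (p3 : X3B →ₗ[k] X3C)

/-- The hypotheses of the nine-term exact sequence `H⁰(A) → … → H²(C)`: three complexes
`X0 → X1 → X2 → X3` and a degreewise short exact sequence `A → B → C` (no surjectivity needed in
degrees `2`, `3`, no exactness in degree `3`). -/
structure NineHyp : Prop where
  d1B_d0B : ∀ x, d1B (d0B x) = 0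
  d2B_d1B : ∀ x, d2B (d1B x) = 0
  i1_d0A : ∀ x, i1 (d0A x) = d0B (i0 x)
  i2_d1A : ∀ x, i2 (d1A x) = d1B (i1 x)
  i3_d2A : ∀ x, i3 (d2A x) = d2B (i2 x)
  p1_d0B : ∀ x, p1 (d0B x) = d0C (p0 x)
  p2_d1B : ∀ x, p2 (d1B x) = d1C (p1 x)
  p3_d2B : ∀ x, p3 (d2B x) = d2C (p2 x)
  i0_inj : Function.Injective i0
  ex0 : ∀ x, p0 x = 0 ↔ ∃ a, i0 a = x
  p0_surj : Function.Surjective p0
  i1_inj : Function.Injective i1
  ex1 : ∀ x, p1 x = 0 ↔ ∃ a, i1 a = x
  p1_surj : Function.Surjective p1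
  i2_inj : Function.Injective i2
  ex2 : ∀ x, p2 x = 0 ↔ ∃ a, i2 a = x
  i3_inj : Function.Injective i3

variable {d0A d1A d2A d0B d1B d2B d0C d1C d2C i0 i1 i2 i3 p0 p1 p2 p3}
variable (h : NineHyp d0A d1A d2A d0B d1B d2B d0C d1C d2C i0 i1 i2 i3 p0 p1 p2 p3)

include h

/-- The six-term hypotheses in degrees `0, 1` (with `W = 0`). -/
theorem NineHyp.six0 :
    SixHyp (0 : PUnit.{1} →ₗ[k] X0A) d0A d1A (0 : PUnit.{1} →ₗ[k] X0B) d0B d1B
      (0 : PUnit.{1} →ₗ[k] X0C) d0C d1C (LinearMap.id : PUnit.{1} →ₗ[k] PUnit.{1}) i0 i1 i2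
      (LinearMap.id : PUnit.{1} →ₗ[k] PUnit.{1}) p0 p1 p2 where
  dB_uB := fun _ => by simp
  eB_dB := h.d1B_d0B
  iX_uA := fun _ => by simp
  iY_dA := h.i1_d0A
  iZ_eA := h.i2_d1A
  pX_uB := fun _ => by simp
  pY_dB := h.p1_d0B
  pZ_eB := h.p2_d1B
  pW_surj := fun w => ⟨w, rfl⟩
  pX_surj := h.p0_surj
  exX := h.ex0
  iY_inj := h.i1_inj
  exY := h.ex1
  iZ_inj := h.i2_inj

/-- The six-term hypotheses in degrees `1, 2`. -/
theorem NineHyp.six1 :
    SixHyp d0A d1A d2A d0B d1B d2B d0C d1C d2C i0 i1 i2 i3 p0 p1 p2 p3 where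
  dB_uB := h.d1B_d0B
  eB_dB := h.d2B_d1B
  iX_uA := h.i1_d0A
  iY_dA := h.i2_d1A
  iZ_eA := h.i3_d2A
  pX_uB := h.p1_d0B
  pY_dB := h.p2_d1B
  pZ_eB := h.p3_d2B
  pW_surj := h.p0_surj
  pX_surj := h.p1_surj
  exX := h.ex1
  iY_inj := h.i2_inj
  exY := h.ex2
  iZ_inj := h.i3_inj

end nine

section H0

variable {X Y : Type*} [AddCommGroup X] [Module k X] [AddCommGroup Y] [Module k Y]

/-- `Hmid 0 d` is `ker d`. -/
def hmidZeroEquiv (d : X →ₗ[k] Y) :
    Hmid (0 : PUnit.{1} →ₗ[k] X) d ≃ₗ[k] ↥(LinearMap.ker d) :=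
  Submodule.quotEquivOfEqBot _ (by
    rw [LinearMap.range_zero, eq_bot_iff]
    intro x hx
    rw [Submodule.mem_comap, Submodule.mem_bot] at hx
    rw [Submodule.mem_bot]
    exact Subtype.ext hx)

theorem finrank_hmidZero (d : X →ₗ[k] Y) :
    Module.finrank k (Hmid (0 : PUnit.{1} →ₗ[k] X) d) = Module.finrank k ↥(LinearMap.ker d) :=
  (hmidZeroEquiv d).finrank_eq

theorem finite_hmidZero (d : X →ₗ[k] Y) [Module.Finite k ↥(LinearMap.ker d)] :
    Module.Finite k (Hmid (0 : PUnit.{1} →ₗ[k] X) d) :=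
  Module.Finite.equiv (hmidZeroEquiv d).symm

end H0

section nineCount

variable {X0A X1A X2A X3A X0B X1B X2B X3B X0C X1C X2C X3C : Type*}
  [AddCommGroup X0A] [Module k X0A] [AddCommGroup X1A] [Module k X1A]
  [AddCommGroup X2A] [Module k X2A] [AddCommGroup X3A] [Module k X3A]
  [AddCommGroup X0B] [Module k X0B] [AddCommGroup X1B] [Module k X1B]
  [AddCommGroup X2B] [Module k X2B] [AddCommGroup X3B] [Module k X3B]
  [AddCommGroup X0C] [Module k X0C] [AddCommGroup X1C] [Module k X1C]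
  [AddCommGroup X2C] [Module k X2C] [AddCommGroup X3C] [Module k X3C]
  {d0A : X0A →ₗ[k] X1A} {d1A : X1A →ₗ[k] X2A} {d2A : X2A →ₗ[k] X3A}
  {d0B : X0B →ₗ[k] X1B} {d1B : X1B →ₗ[k] X2B} {d2B : X2B →ₗ[k] X3B}
  {d0C : X0C →ₗ[k] X1C} {d1C : X1C →ₗ[k] X2C} {d2C : X2C →ₗ[k] X3C}
  {i0 : X0A →ₗ[k] X0B} {i1 : X1A →ₗ[k] X1B} {i2 : X2A →ₗ[k] X2B} {i3 : X3A →ₗ[k] X3B}
  {p0 : X0B →ₗ[k] X0C} {p1 : X1B →ₗ[k] X1C} {p2 : X2B →ₗ[k] X2C} {p3 : X3B →ₗ[k] X3C}
  (h : NineHyp d0A d1A d2A d0B d1B d2B d0C d1C d2C i0 i1 i2 i3 p0 p1 p2 p3)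

include h

/-- The map `H²(B) → H²(C)`. -/
def NineHyp.β2 : Hmid d1B d2B →ₗ[k] Hmid d1C d2C := h.six1.βY

/-- `H⁰(A) → H⁰(B)` is injective. -/
theorem NineHyp.α0_injective : Function.Injective h.six0.αX := by
  rw [← LinearMap.ker_eq_bot, eq_bot_iff]
  intro a ha
  rw [LinearMap.mem_ker] at ha
  obtain ⟨z, rfl⟩ := Hmid.mk_surjective (0 : PUnit.{1} →ₗ[k] X0A) d0A a
  have hiz : i0 (z : X0A) ∈ LinearMap.ker d0B := by
    rw [LinearMap.mem_ker, ← h.i1_d0A, LinearMap.mem_ker.1 z.2, map_zero]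
  have e : h.six0.αX (Hmid.mk (0 : PUnit.{1} →ₗ[k] X0A) d0A z) =
      Hmid.mk (0 : PUnit.{1} →ₗ[k] X0B) d0B ⟨i0 (z : X0A), hiz⟩ :=
    Hmid.map_mk _ i0 i1 _ _ _ _ rfl
  rw [e, Hmid.mk_eq_zero_iff] at ha
  obtain ⟨w, hw⟩ := ha
  rw [Submodule.mem_bot, Hmid.mk_eq_zero_iff]
  refine ⟨w, ?_⟩
  apply h.i0_inj
  rw [LinearMap.zero_apply, map_zero]
  rw [LinearMap.zero_apply] at hw
  exact hw

/-- **The dimension count of the nine-term exact sequence.** -/
theorem NineHyp.count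
    [Module.Finite k ↥(LinearMap.ker d0B)] [Module.Finite k ↥(LinearMap.ker d0C)]
    [Module.Finite k (Hmid d0A d1A)] [Module.Finite k (Hmid d0B d1B)]
    [Module.Finite k (Hmid d0C d1C)] [Module.Finite k (Hmid d1A d2A)]
    [Module.Finite k (Hmid d1B d2B)] :
    Module.finrank k ↥(LinearMap.ker d0A) + Module.finrank k ↥(LinearMap.ker d0C) +
        Module.finrank k (Hmid d0B d1B) + Module.finrank k (Hmid d1A d2A) +
        Module.finrank k (LinearMap.range h.β2) =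
      Module.finrank k ↥(LinearMap.ker d0B) + Module.finrank k (Hmid d0A d1A) +
        Module.finrank k (Hmid d0C d1C) + Module.finrank k (Hmid d1B d2B) := by
  haveI := finite_hmidZero (k := k) d0B
  haveI := finite_hmidZero (k := k) d0C
  have c0 := h.six0.count
  have c1 := h.six1.count
  have e1 := h.six0.finrank_YB
  have r0 : Module.finrank k (LinearMap.range h.six0.αX) =
      Module.finrank k (Hmid (0 : PUnit.{1} →ₗ[k] X0A) d0A) :=
    LinearMap.finrank_range_of_inj h.α0_injective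
  have eq1 : Module.finrank k (LinearMap.range h.six0.αY) =
      Module.finrank k (LinearMap.range h.six1.αX) := rfl
  have eq2 : Module.finrank k (LinearMap.range h.six1.βY) =
      Module.finrank k (LinearMap.range h.β2) := rfl
  rw [finrank_hmidZero] at r0
  rw [finrank_hmidZero, finrank_hmidZero] at c0
  omega

/-- **Superadditivity** of `h¹ - h⁰ - h²` (the Euler characteristic inequality). -/
theorem NineHyp.superadd
    [Module.Finite k ↥(LinearMap.ker d0B)] [Module.Finite k ↥(LinearMap.ker d0C)]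
    [Module.Finite k (Hmid d0A d1A)] [Module.Finite k (Hmid d0B d1B)]
    [Module.Finite k (Hmid d0C d1C)] [Module.Finite k (Hmid d1A d2A)]
    [Module.Finite k (Hmid d1B d2B)] [Module.Finite k (Hmid d1C d2C)] :
    Module.finrank k ↥(LinearMap.ker d0B) + Module.finrank k (Hmid d0A d1A) +
        Module.finrank k (Hmid d0C d1C) + Module.finrank k (Hmid d1B d2B) ≤
      Module.finrank k ↥(LinearMap.ker d0A) + Module.finrank k ↥(LinearMap.ker d0C) +
        Module.finrank k (Hmid d0B d1B) + Module.finrank k (Hmid d1A d2A) +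
        Module.finrank k (Hmid d1C d2C) := by
  have c := h.count
  have hle : Module.finrank k (LinearMap.range h.β2) ≤ Module.finrank k (Hmid d1C d2C) :=
    Submodule.finrank_le _
  omega

/-- **Additivity** when `H²(B) → H²(C)` is onto. -/
theorem NineHyp.add_of_surjective
    [Module.Finite k ↥(LinearMap.ker d0B)] [Module.Finite k ↥(LinearMap.ker d0C)]
    [Module.Finite k (Hmid d0A d1A)] [Module.Finite k (Hmid d0B d1B)]
    [Module.Finite k (Hmid d0C d1C)] [Module.Finite k (Hmid d1A d2A)]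
    [Module.Finite k (Hmid d1B d2B)] (hs : Function.Surjective h.β2) :
    Module.finrank k ↥(LinearMap.ker d0B) + Module.finrank k (Hmid d0A d1A) +
        Module.finrank k (Hmid d0C d1C) + Module.finrank k (Hmid d1B d2B) =
      Module.finrank k ↥(LinearMap.ker d0A) + Module.finrank k ↥(LinearMap.ker d0C) +
        Module.finrank k (Hmid d0B d1B) + Module.finrank k (Hmid d1A d2A) +
        Module.finrank k (Hmid d1C d2C) := by
  have c := h.count
  have hr : Module.finrank k (LinearMap.range h.β2) = Module.finrank k (Hmid d1C d2C) := by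
    rw [LinearMap.range_eq_top.2 hs, finrank_top]
  omega

/-- `H²(B)` is finite-dimensional if `H²(A)` and `H²(C)` are. -/
theorem NineHyp.finite_H2B [Module.Finite k (Hmid d1A d2A)] [Module.Finite k (Hmid d1C d2C)] :
    Module.Finite k (Hmid d1B d2B) := by
  have hker : LinearMap.ker h.six1.βY = LinearMap.range h.six1.αY := by
    ext v
    rw [LinearMap.mem_ker, LinearMap.mem_range]
    exact h.six1.exact_YB v
  haveI : Module.Finite k ↥(LinearMap.ker h.six1.βY) := by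
    rw [hker]
    infer_instance
  haveI : Module.Finite k ↥(LinearMap.range h.six1.βY) := inferInstance
  haveI : Module.Finite k (Hmid d1B d2B ⧸ LinearMap.ker h.six1.βY) :=
    Module.Finite.equiv (h.six1.βY.quotKerEquivRange).symm
  exact Module.Finite.of_submodule_quotient (LinearMap.ker h.six1.βY)

end nineCount

end Fermat.Agent.S56.H92.Snake

end

end
-- ==== END Fermat.Agent.S56.EC.H92_Snake

-- ==== BEGIN Fermat.Agent.S56.FL.H50_CohSSa
section

set_option autoImplicit false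

/-!
# LOC-p-FL, package COH-SS (helper50), part a: the abstract count in `2 × 2` matrices

`G` a group, `R : G →* M₂(k)` a representation, `C : G → M₂(k)` a cocycle for the adjoint action
(`C (σ τ) = C σ + R σ · C τ · R σ⁻¹`), `G₂ ≤ G` a subgroup of index `2` on which `R` is diagonal,
`g ∉ G₂` with `R g` antidiagonal.

* `IsCocM.coboundary_of_vanish`  : a cocycle vanishing on `G₂` is a coboundary (char `≠ 2`);
* `IsCocM.coboundary_of_upper_zero` : a trace-zero cocycle whose first row vanishes on `G₂` is a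
  coboundary;
* `IsCocM.dependent` : two trace-zero cocycles with zero `(0,0)`-entry on `G₂` whose `(0,1)`-entries
  are dependent modulo coboundaries on `G₂`, are dependent modulo coboundaries.
-/

noncomputable section

namespace Fermat.Agent.S56.FL.H50.SS

open Matrix

variable {k : Type*} [Field k] {G : Type*} [Group G]

/-- `C` is a cocycle for the adjoint action of `R`. -/
def IsCocM (R : G →* Matrix (Fin 2) (Fin 2) k) (C : G → Matrix (Fin 2) (Fin 2) k) : Prop :=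
  ∀ σ τ, C (σ * τ) = C σ + R σ * C τ * R σ⁻¹

/-- The coboundary of `m`. -/
def cobM (R : G →* Matrix (Fin 2) (Fin 2) k) (m : Matrix (Fin 2) (Fin 2) k) (σ : G) :
    Matrix (Fin 2) (Fin 2) k :=
  R σ * m * R σ⁻¹ - m

variable {R : G →* Matrix (Fin 2) (Fin 2) k} {C : G → Matrix (Fin 2) (Fin 2) k}

theorem R_mul_inv (R : G →* Matrix (Fin 2) (Fin 2) k) (σ : G) : R σ * R σ⁻¹ = 1 := by
  rw [← map_mul, mul_inv_cancel, map_one]

theorem R_inv_mul (R : G →* Matrix (Fin 2) (Fin 2) k) (σ : G) : R σ⁻¹ * R σ = 1 := by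
  rw [← map_mul, inv_mul_cancel, map_one]

theorem isCocM_cobM (R : G →* Matrix (Fin 2) (Fin 2) k) (m : Matrix (Fin 2) (Fin 2) k) :
    IsCocM R (cobM R m) := by
  intro σ τ
  unfold cobM
  rw [map_mul, _root_.mul_inv_rev, map_mul]
  calc R σ * R τ * m * (R τ⁻¹ * R σ⁻¹) - m
      = R σ * (R τ * m * R τ⁻¹) * R σ⁻¹ - R σ * m * R σ⁻¹ + (R σ * m * R σ⁻¹ - m) := by
        simp only [Matrix.mul_assoc]; abel
    _ = R σ * m * R σ⁻¹ - m + R σ * (R τ * m * R τ⁻¹ - m) * R σ⁻¹ := by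
        rw [Matrix.mul_sub, Matrix.sub_mul]; abel

theorem IsCocM.add {C₁ C₂ : G → Matrix (Fin 2) (Fin 2) k} (h₁ : IsCocM R C₁) (h₂ : IsCocM R C₂) :
    IsCocM R (fun σ => C₁ σ + C₂ σ) := by
  intro σ τ
  simp only [h₁ σ τ, h₂ σ τ, Matrix.mul_add, Matrix.add_mul]
  abel

theorem IsCocM.sub {C₁ C₂ : G → Matrix (Fin 2) (Fin 2) k} (h₁ : IsCocM R C₁) (h₂ : IsCocM R C₂) :
    IsCocM R (fun σ => C₁ σ - C₂ σ) := by
  intro σ τ
  simp only [h₁ σ τ, h₂ σ τ, Matrix.mul_sub, Matrix.sub_mul]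
  abel

theorem IsCocM.smul (l : k) (h : IsCocM R C) : IsCocM R (fun σ => l • C σ) := by
  intro σ τ
  simp only [h σ τ, smul_add, Matrix.mul_smul, Matrix.smul_mul]

theorem IsCocM.one (h : IsCocM R C) : C 1 = 0 := by
  have := h 1 1
  simp only [mul_one, map_one, inv_one, one_mul] at this
  exact left_eq_add.mp this

/-- **(A)** A cocycle vanishing on a normal subgroup `G₂` with `G = G₂ ∪ g G₂`, `g² ∈ G₂`, is a
coboundary (`2 ≠ 0`). -/
theorem IsCocM.coboundary_of_vanish (h2 : (2 : k) ≠ 0) (hC : IsCocM R C) (G₂ : Subgroup G) (g : G)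
    (hcover : ∀ σ, σ ∈ G₂ ∨ g⁻¹ * σ ∈ G₂) (hg2 : g * g ∈ G₂)
    (hnorm : ∀ τ ∈ G₂, g⁻¹ * τ * g ∈ G₂) (hv : ∀ τ ∈ G₂, C τ = 0) :
    ∀ σ, C σ = cobM R (-((2 : k)⁻¹ • C g)) σ := by
  set y := C g with hy
  -- `C (g τ) = y`
  have h1 : ∀ τ ∈ G₂, C (g * τ) = y := by
    intro τ hτ
    rw [hC g τ, hv τ hτ, Matrix.mul_zero, Matrix.zero_mul, add_zero]
  -- `R τ y R τ⁻¹ = y`
  have h3 : ∀ τ ∈ G₂, R τ * y * R τ⁻¹ = y := by
    intro τ hτ
    have e : τ * g = g * (g⁻¹ * τ * g) := by group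
    have h4 := hC τ g
    rw [e, h1 _ (hnorm τ hτ), hv τ hτ, zero_add] at h4
    exact h4.symm
  -- `R g y R g⁻¹ = - y`
  have h5 : R g * y * R g⁻¹ = -y := by
    have h6 := hC g g
    rw [hv _ hg2] at h6
    exact (neg_eq_of_add_eq_zero_right h6.symm).symm ▸ rfl
  have hhalf : (2 : k)⁻¹ + (2 : k)⁻¹ = 1 := by field_simp; norm_num
  intro σ
  unfold cobM
  rcases hcover σ with hσ | hσ
  · rw [hv σ hσ, Matrix.mul_neg, Matrix.neg_mul, Matrix.mul_smul, Matrix.smul_mul, h3 σ hσ]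
    simp
  · obtain ⟨τ, hτ, rfl⟩ : ∃ τ ∈ G₂, σ = g * τ := ⟨g⁻¹ * σ, hσ, by group⟩
    have h7 : C (g * τ) = y := h1 _ hτ
    have h8 : R (g * τ) * y * R (g * τ)⁻¹ = -y := by
      rw [_root_.mul_inv_rev, map_mul, map_mul]
      calc R g * R τ * y * (R τ⁻¹ * R g⁻¹)
          = R g * (R τ * y * R τ⁻¹) * R g⁻¹ := by
            simp only [Matrix.mul_assoc]
        _ = -y := by rw [h3 _ hτ, h5]
    rw [h7, Matrix.mul_neg, Matrix.neg_mul, Matrix.mul_smul, Matrix.smul_mul, h8]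
    rw [smul_neg, neg_neg, sub_neg_eq_add, ← add_smul, hhalf, one_smul]

/-! ## Diagonal and antidiagonal matrices -/

/-- A diagonal `2 × 2` matrix. -/
def IsDiagM (A : Matrix (Fin 2) (Fin 2) k) : Prop := A 0 1 = 0 ∧ A 1 0 = 0

/-- An antidiagonal `2 × 2` matrix. -/
def IsAntiM (A : Matrix (Fin 2) (Fin 2) k) : Prop := A 0 0 = 0 ∧ A 1 1 = 0

theorem mul3_apply (A X B : Matrix (Fin 2) (Fin 2) k) (i j : Fin 2) :
    (A * X * B) i j = (A i 0 * X 0 0 + A i 1 * X 1 0) * B 0 j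
      + (A i 0 * X 0 1 + A i 1 * X 1 1) * B 1 j := by
  simp [Matrix.mul_apply, Fin.sum_univ_two]

theorem mul2_apply (A B : Matrix (Fin 2) (Fin 2) k) (i j : Fin 2) :
    (A * B) i j = A i 0 * B 0 j + A i 1 * B 1 j := by
  simp [Matrix.mul_apply, Fin.sum_univ_two]

section Diag

variable {D D' : Matrix (Fin 2) (Fin 2) k}

theorem diag_inv_00 (hD : IsDiagM D) (h : D * D' = 1) : D 0 0 * D' 0 0 = 1 := by
  have := congrFun (congrFun h 0) 0
  rw [mul2_apply, hD.1] at this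
  simpa using this

theorem diag_inv_11 (hD : IsDiagM D) (h : D * D' = 1) : D 1 1 * D' 1 1 = 1 := by
  have := congrFun (congrFun h 1) 1
  rw [mul2_apply, hD.2] at this
  simpa using this

theorem diag_conj_00 (hD : IsDiagM D) (hD' : IsDiagM D') (h : D * D' = 1)
    (X : Matrix (Fin 2) (Fin 2) k) : (D * X * D') 0 0 = X 0 0 := by
  rw [mul3_apply, hD.1, hD'.2]
  have := diag_inv_00 hD h
  linear_combination X 0 0 * this

theorem diag_conj_11 (hD : IsDiagM D) (hD' : IsDiagM D') (h : D * D' = 1)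
    (X : Matrix (Fin 2) (Fin 2) k) : (D * X * D') 1 1 = X 1 1 := by
  rw [mul3_apply, hD.2, hD'.1]
  have := diag_inv_11 hD h
  linear_combination X 1 1 * this

theorem diag_conj_01 (hD : IsDiagM D) (hD' : IsDiagM D')
    (X : Matrix (Fin 2) (Fin 2) k) : (D * X * D') 0 1 = D 0 0 * D' 1 1 * X 0 1 := by
  rw [mul3_apply, hD.1, hD'.1]
  ring

theorem diag_conj_10 (hD : IsDiagM D) (hD' : IsDiagM D')
    (X : Matrix (Fin 2) (Fin 2) k) : (D * X * D') 1 0 = D 1 1 * D' 0 0 * X 1 0 := by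
  rw [mul3_apply, hD.2, hD'.2]
  ring

end Diag

section Anti

variable {A A' : Matrix (Fin 2) (Fin 2) k}

theorem anti_inv_01 (hA : IsAntiM A) (h : A * A' = 1) : A 0 1 * A' 1 0 = 1 := by
  have := congrFun (congrFun h 0) 0
  rw [mul2_apply, hA.1] at this
  simpa using this

theorem anti_inv_10 (hA : IsAntiM A) (h : A * A' = 1) : A 1 0 * A' 0 1 = 1 := by
  have := congrFun (congrFun h 1) 1
  rw [mul2_apply, hA.2] at this
  simpa using this

theorem anti_inv (hA : IsAntiM A) (h : A * A' = 1) : IsAntiM A' := by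
  have h01 := anti_inv_01 hA h
  have h10 := anti_inv_10 hA h
  have e1 := congrFun (congrFun h 0) 1
  have e2 := congrFun (congrFun h 1) 0
  rw [mul2_apply, hA.1] at e1
  rw [mul2_apply, hA.2] at e2
  simp only [zero_mul, zero_add, add_zero, Matrix.one_apply] at e1 e2
  have hne1 : A 0 1 ≠ 0 := left_ne_zero_of_mul_eq_one h01
  have hne2 : A 1 0 ≠ 0 := left_ne_zero_of_mul_eq_one h10
  constructor
  · have : A 1 0 * A' 0 0 = 0 := by simpa using e2
    exact (mul_eq_zero.mp this).resolve_left hne2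
  · have : A 0 1 * A' 1 1 = 0 := by simpa using e1
    exact (mul_eq_zero.mp this).resolve_left hne1

theorem anti_conj_00 (hA : IsAntiM A) (hA' : IsAntiM A') (h : A * A' = 1)
    (X : Matrix (Fin 2) (Fin 2) k) : (A * X * A') 0 0 = X 1 1 := by
  rw [mul3_apply, hA.1, hA'.1]
  have := anti_inv_01 hA h
  linear_combination X 1 1 * this

theorem anti_conj_11 (hA : IsAntiM A) (hA' : IsAntiM A') (h : A * A' = 1)
    (X : Matrix (Fin 2) (Fin 2) k) : (A * X * A') 1 1 = X 0 0 := by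
  rw [mul3_apply, hA.2, hA'.2]
  have := anti_inv_10 hA h
  linear_combination X 0 0 * this

theorem anti_conj_10 (hA : IsAntiM A) (hA' : IsAntiM A')
    (X : Matrix (Fin 2) (Fin 2) k) : (A * X * A') 1 0 = A 1 0 * A' 1 0 * X 0 1 := by
  rw [mul3_apply, hA.2, hA'.1]
  ring

theorem anti_conj_01 (hA : IsAntiM A) (hA' : IsAntiM A')
    (X : Matrix (Fin 2) (Fin 2) k) : (A * X * A') 0 1 = A 0 1 * A' 0 1 * X 1 0 := by
  rw [mul3_apply, hA.1, hA'.2]
  ring

end Anti

/-- The matrix unit `E₁₀`. -/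
def E10 : Matrix (Fin 2) (Fin 2) k := !![0, 0; 1, 0]

/-- The matrix unit `E₀₁`. -/
def E01 : Matrix (Fin 2) (Fin 2) k := !![0, 1; 0, 0]

@[simp] theorem E10_00 : (E10 : Matrix (Fin 2) (Fin 2) k) 0 0 = 0 := rfl
@[simp] theorem E10_01 : (E10 : Matrix (Fin 2) (Fin 2) k) 0 1 = 0 := rfl
@[simp] theorem E10_10 : (E10 : Matrix (Fin 2) (Fin 2) k) 1 0 = 1 := rfl
@[simp] theorem E10_11 : (E10 : Matrix (Fin 2) (Fin 2) k) 1 1 = 0 := rfl
@[simp] theorem E01_00 : (E01 : Matrix (Fin 2) (Fin 2) k) 0 0 = 0 := rfl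
@[simp] theorem E01_01 : (E01 : Matrix (Fin 2) (Fin 2) k) 0 1 = 1 := rfl
@[simp] theorem E01_10 : (E01 : Matrix (Fin 2) (Fin 2) k) 1 0 = 0 := rfl
@[simp] theorem E01_11 : (E01 : Matrix (Fin 2) (Fin 2) k) 1 1 = 0 := rfl

theorem cobM_add (R : G →* Matrix (Fin 2) (Fin 2) k) (m₁ m₂ : Matrix (Fin 2) (Fin 2) k) (σ : G) :
    cobM R (m₁ + m₂) σ = cobM R m₁ σ + cobM R m₂ σ := by
  unfold cobM
  rw [Matrix.mul_add, Matrix.add_mul]
  abel

theorem cobM_sub (R : G →* Matrix (Fin 2) (Fin 2) k) (m₁ m₂ : Matrix (Fin 2) (Fin 2) k) (σ : G) :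
    cobM R (m₁ - m₂) σ = cobM R m₁ σ - cobM R m₂ σ := by
  unfold cobM
  rw [Matrix.mul_sub, Matrix.sub_mul]
  abel

/-- The coboundary of `t E₁₀` at a diagonal element. -/
theorem cobM_E10_diag {σ : G} (hD : IsDiagM (R σ)) (hD' : IsDiagM (R σ⁻¹)) (t : k) :
    cobM R (t • E10) σ = (t * (R σ 1 1 * R σ⁻¹ 0 0 - 1)) • E10 := by
  unfold cobM
  ext i j
  rw [Matrix.sub_apply, mul3_apply]
  fin_cases i <;> fin_cases j <;>
    simp only [Fin.zero_eta, Fin.mk_one, Matrix.smul_apply, smul_eq_mul, E10_00, E10_01, E10_10,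
      E10_11, hD.1, hD.2, hD'.1, hD'.2] <;> ring

/-- The coboundary of `t E₀₁` at a diagonal element. -/
theorem cobM_E01_diag {σ : G} (hD : IsDiagM (R σ)) (hD' : IsDiagM (R σ⁻¹)) (t : k) :
    cobM R (t • E01) σ = (t * (R σ 0 0 * R σ⁻¹ 1 1 - 1)) • E01 := by
  unfold cobM
  ext i j
  rw [Matrix.sub_apply, mul3_apply]
  fin_cases i <;> fin_cases j <;>
    simp only [Fin.zero_eta, Fin.mk_one, Matrix.smul_apply, smul_eq_mul, E01_00, E01_01, E01_10,
      E01_11, hD.1, hD.2, hD'.1, hD'.2] <;> ring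

/-- The trace of a coboundary at an antidiagonal element is zero. -/
theorem cobM_trace_anti {g : G} (hA : IsAntiM (R g)) (m : Matrix (Fin 2) (Fin 2) k) :
    cobM R m g 0 0 + cobM R m g 1 1 = 0 := by
  have hA' : IsAntiM (R g⁻¹) := anti_inv hA (R_mul_inv R g)
  unfold cobM
  rw [Matrix.sub_apply, Matrix.sub_apply, anti_conj_00 hA hA' (R_mul_inv R g),
    anti_conj_11 hA hA' (R_mul_inv R g)]
  ring

/-- **(B)** A trace-zero cocycle whose first row vanishes on `G₂` is a coboundary. -/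
theorem IsCocM.coboundary_of_upper_zero (h2 : (2 : k) ≠ 0) (hC : IsCocM R C) (G₂ : Subgroup G)
    (g : G) (hcover : ∀ σ, σ ∈ G₂ ∨ g⁻¹ * σ ∈ G₂) (hg2 : g * g ∈ G₂)
    (hnorm : ∀ τ ∈ G₂, g⁻¹ * τ * g ∈ G₂)
    (hD : ∀ τ ∈ G₂, IsDiagM (R τ)) (hA : IsAntiM (R g))
    (htr : ∀ σ, C σ 0 0 + C σ 1 1 = 0)
    (h00 : ∀ τ ∈ G₂, C τ 0 0 = 0) (h01 : ∀ τ ∈ G₂, C τ 0 1 = 0) :
    ∃ m : Matrix (Fin 2) (Fin 2) k, m 0 0 + m 1 1 = 0 ∧ ∀ σ, C σ = cobM R m σ := by
  have hA' : IsAntiM (R g⁻¹) := anti_inv hA (R_mul_inv R g)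
  set t := C g 1 0 with ht
  set C' : G → Matrix (Fin 2) (Fin 2) k := fun σ => C σ + cobM R (t • E10) σ with hC'
  have hcoc : IsCocM R C' := hC.add (isCocM_cobM R _)
  -- `C'` vanishes on `G₂`
  have hv : ∀ τ ∈ G₂, C' τ = 0 := by
    intro τ hτ
    have hDτ := hD τ hτ
    have hDτ' := hD τ⁻¹ (inv_mem hτ)
    have hσ := hnorm τ hτ
    -- the `(1,0)`-entry of `C τ`
    have e : τ * g = g * (g⁻¹ * τ * g) := by group
    have h1 := hC τ g
    rw [e, hC g (g⁻¹ * τ * g)] at h1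
    have h10 := congrFun (congrFun h1 1) 0
    rw [Matrix.add_apply, Matrix.add_apply, anti_conj_10 hA hA', h01 _ hσ,
      diag_conj_10 hDτ hDτ'] at h10
    have h11 : C τ 1 1 = 0 := by
      have := htr τ
      rw [h00 τ hτ, zero_add] at this
      exact this
    show C τ + cobM R (t • E10) τ = 0
    rw [cobM_E10_diag hDτ hDτ']
    ext i j
    fin_cases i <;> fin_cases j <;>
      simp only [Fin.zero_eta, Fin.mk_one, Matrix.add_apply, Matrix.smul_apply, smul_eq_mul,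
        Matrix.zero_apply, E10_00, E10_01, E10_10, E10_11, h00 τ hτ, h01 τ hτ, h11, mul_zero,
        add_zero, mul_one]
    linear_combination (-1 : k) * h10
  have hfin := hcoc.coboundary_of_vanish h2 G₂ g hcover hg2 hnorm hv
  refine ⟨-((2 : k)⁻¹ • C' g) - t • E10, ?_, fun σ => ?_⟩
  · have htr' : C' g 0 0 + C' g 1 1 = 0 := by
      show (C g + cobM R (t • E10) g) 0 0 + (C g + cobM R (t • E10) g) 1 1 = 0
      rw [Matrix.add_apply, Matrix.add_apply]
      have := cobM_trace_anti hA (t • E10)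
      linear_combination htr g + this
    simp only [Matrix.sub_apply, Matrix.neg_apply, Matrix.smul_apply, smul_eq_mul, E10_00,
      E10_11, mul_zero, sub_zero]
    linear_combination (-(2 : k)⁻¹) * htr'
  · rw [cobM_sub, ← hfin σ]
    simp [hC']

/-- **(D)** Two trace-zero cocycles with zero `(0,0)`-entry on `G₂`, whose `(0,1)`-entries are
dependent modulo coboundaries on `G₂`, are dependent modulo coboundaries. -/
theorem IsCocM.dependent (h2 : (2 : k) ≠ 0) {C₁ C₂ : G → Matrix (Fin 2) (Fin 2) k}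
    (hC₁ : IsCocM R C₁) (hC₂ : IsCocM R C₂) (G₂ : Subgroup G)
    (g : G) (hcover : ∀ σ, σ ∈ G₂ ∨ g⁻¹ * σ ∈ G₂) (hg2 : g * g ∈ G₂)
    (hnorm : ∀ τ ∈ G₂, g⁻¹ * τ * g ∈ G₂)
    (hD : ∀ τ ∈ G₂, IsDiagM (R τ)) (hA : IsAntiM (R g))
    (htr₁ : ∀ σ, C₁ σ 0 0 + C₁ σ 1 1 = 0) (htr₂ : ∀ σ, C₂ σ 0 0 + C₂ σ 1 1 = 0)
    (h00₁ : ∀ τ ∈ G₂, C₁ τ 0 0 = 0) (h00₂ : ∀ τ ∈ G₂, C₂ τ 0 0 = 0)
    (l₁ l₂ a : k)
    (hdep : ∀ τ ∈ G₂, l₁ * C₁ τ 0 1 + l₂ * C₂ τ 0 1 = (R τ 0 0 * R τ⁻¹ 1 1 - 1) * a) :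
    ∃ m : Matrix (Fin 2) (Fin 2) k, m 0 0 + m 1 1 = 0 ∧
      ∀ σ, l₁ • C₁ σ + l₂ • C₂ σ = cobM R m σ := by
  set C : G → Matrix (Fin 2) (Fin 2) k :=
    fun σ => (l₁ • C₁ σ + l₂ • C₂ σ) - cobM R (a • E01) σ with hCdef
  have hcoc : IsCocM R C := ((hC₁.smul l₁).add (hC₂.smul l₂)).sub (isCocM_cobM R _)
  have htr : ∀ σ, C σ 0 0 + C σ 1 1 = 0 := by
    intro σ
    have h3 : cobM R (a • E01) σ 0 0 + cobM R (a • E01) σ 1 1 = 0 := by
      unfold cobM
      have := Matrix.trace_mul_comm (R σ * (a • E01)) (R σ⁻¹)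
      rw [← Matrix.mul_assoc, R_inv_mul, Matrix.one_mul] at this
      simp only [Matrix.trace, Fin.sum_univ_two, Matrix.diag_apply] at this
      rw [Matrix.sub_apply, Matrix.sub_apply]
      linear_combination this
    show (l₁ • C₁ σ + l₂ • C₂ σ - cobM R (a • E01) σ) 0 0
      + (l₁ • C₁ σ + l₂ • C₂ σ - cobM R (a • E01) σ) 1 1 = 0
    simp only [Matrix.sub_apply, Matrix.add_apply, Matrix.smul_apply, smul_eq_mul]
    linear_combination l₁ * htr₁ σ + l₂ * htr₂ σ - h3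
  have h00 : ∀ τ ∈ G₂, C τ 0 0 = 0 := by
    intro τ hτ
    show (l₁ • C₁ τ + l₂ • C₂ τ - cobM R (a • E01) τ) 0 0 = 0
    rw [cobM_E01_diag (hD τ hτ) (hD τ⁻¹ (inv_mem hτ))]
    simp only [Matrix.sub_apply, Matrix.add_apply, Matrix.smul_apply, smul_eq_mul, E01_00,
      h00₁ τ hτ, h00₂ τ hτ, mul_zero, add_zero, sub_zero]
  have h01 : ∀ τ ∈ G₂, C τ 0 1 = 0 := by
    intro τ hτ
    show (l₁ • C₁ τ + l₂ • C₂ τ - cobM R (a • E01) τ) 0 1 = 0
    rw [cobM_E01_diag (hD τ hτ) (hD τ⁻¹ (inv_mem hτ))]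
    simp only [Matrix.sub_apply, Matrix.add_apply, Matrix.smul_apply, smul_eq_mul, E01_01,
      mul_one]
    linear_combination hdep τ hτ
  obtain ⟨m, hm, hm'⟩ := hcoc.coboundary_of_upper_zero h2 G₂ g hcover hg2 hnorm hD hA htr h00 h01
  refine ⟨m + a • E01, ?_, fun σ => ?_⟩
  · simp only [Matrix.add_apply, Matrix.smul_apply, smul_eq_mul, E01_00, E01_11, mul_zero,
      add_zero]
    exact hm
  · rw [cobM_add, ← hm' σ]
    simp [hCdef]

end Fermat.Agent.S56.FL.H50.SS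

end

end
-- ==== END Fermat.Agent.S56.FL.H50_CohSSa

-- ==== BEGIN Fermat.Agent.S56.FL.H54_PMConv
section

/-!
# LOC-p-FL, package PM (helper54): convolution rings

Generic facts about the convolution ring `WithConv (H →ₗ[R₀] A)` of a bialgebra `H` over `R₀`
with values in a commutative `R₀`-algebra `A`:

* `isUnit_of_sub_one_mem` : Nakayama, an element `≡ 1` modulo the maximal ideal of a local ring
  in a finite algebra is a unit;
* `preC`, `postC` : the ring homomorphisms given by composition with a coalgebra homomorphism on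
  the right / an algebra homomorphism on the left;
* `mem_map_iff` : membership in the extension of an ideal of `A` is checked on values.
-/

set_option autoImplicit false
set_option linter.unusedSectionVars false

open scoped TensorProduct
open WithConv

namespace Fermat.Agent.S56.FL.H54

section Nakayama

/-- **Nakayama.** In a finite algebra over a local ring, an element congruent to `1` modulo the
maximal ideal is a unit. -/
theorem isUnit_of_sub_one_mem {R C : Type} [CommRing R] [IsLocalRing R] [CommRing C]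
    [Algebra R C] [Module.Finite R C] (u : C)
    (hu : u - 1 ∈ Ideal.map (algebraMap R C) (IsLocalRing.maximalIdeal R)) : IsUnit u := by
  set N : Submodule R C := (Ideal.span {u}).restrictScalars R with hN
  have hle : (⊤ : Submodule R C) ≤ N ⊔ (IsLocalRing.maximalIdeal R) • (⊤ : Submodule R C) := by
    intro c _
    have h1 : c = u * c + (-(u - 1) * c) := by ring
    rw [h1]
    refine Submodule.add_mem_sup ?_ ?_
    · show u * c ∈ Ideal.span {u}
      exact Ideal.mul_mem_right _ _ (Ideal.subset_span rfl)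
    · rw [Ideal.smul_top_eq_map]
      show -(u - 1) * c ∈ Ideal.map (algebraMap R C) (IsLocalRing.maximalIdeal R)
      exact Ideal.mul_mem_right _ _ (neg_mem hu)
  have hjac : IsLocalRing.maximalIdeal R ≤ Ideal.jacobson ⊥ := by
    rw [IsLocalRing.jacobson_eq_maximalIdeal ⊥ bot_ne_top]
  have htop : (⊤ : Submodule R C) ≤ N :=
    Submodule.le_of_le_smul_of_le_jacobson_bot (Module.finite_def.mp inferInstance) hjac hle
  have h1 : (1 : C) ∈ Ideal.span {u} := htop (Submodule.mem_top (x := (1 : C)))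
  obtain ⟨v, hv⟩ := Ideal.mem_span_singleton'.mp h1
  exact IsUnit.of_mul_eq_one v (by rw [mul_comm]; exact hv)

end Nakayama

section Conv

variable {R₀ : Type} [CommRing R₀] {H : Type} [CommRing H] [Bialgebra R₀ H]
  [Coalgebra.IsCocomm R₀ H]
variable {A A' : Type} [CommRing A] [Algebra R₀ A] [CommRing A'] [Algebra R₀ A']

/-- Composition with a coalgebra homomorphism on the right is a ring homomorphism of convolution
rings. -/
noncomputable def preC {B : Type} [AddCommGroup B] [Module R₀ B] [Coalgebra R₀ B]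
    (h : B →ₗc[R₀] H) : WithConv (H →ₗ[R₀] A) →+* WithConv (B →ₗ[R₀] A) where
  toFun f := toConv (f.ofConv.comp h.toLinearMap)
  map_one' := by
    apply WithConv.ext
    apply LinearMap.ext
    intro x
    show algebraMap R₀ A (Coalgebra.counit (R := R₀) (h x)) =
      algebraMap R₀ A (Coalgebra.counit (R := R₀) x)
    rw [CoalgHomClass.counit_comp_apply]
  map_mul' f g := by
    apply WithConv.ext
    exact LinearMap.convMul_comp_coalgHom_distrib f g h
  map_zero' := by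
    apply WithConv.ext
    apply LinearMap.ext
    intro x
    rfl
  map_add' f g := by
    apply WithConv.ext
    apply LinearMap.ext
    intro x
    rfl

@[simp] lemma preC_apply {B : Type} [AddCommGroup B] [Module R₀ B] [Coalgebra R₀ B]
    (h : B →ₗc[R₀] H) (f : WithConv (H →ₗ[R₀] A)) (x : B) :
    (preC h f) x = f (h x) := rfl

/-- Composition with an algebra homomorphism on the left is a ring homomorphism of convolution
rings. -/
noncomputable def postC (φ : A →ₐ[R₀] A') : WithConv (H →ₗ[R₀] A) →+* WithConv (H →ₗ[R₀] A') where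
  toFun f := toConv (φ.toLinearMap.comp f.ofConv)
  map_one' := by
    apply WithConv.ext
    apply LinearMap.ext
    intro x
    show φ (algebraMap R₀ A (Coalgebra.counit (R := R₀) x)) =
      algebraMap R₀ A' (Coalgebra.counit (R := R₀) x)
    rw [φ.commutes]
  map_mul' f g := by
    apply WithConv.ext
    exact LinearMap.algHom_comp_convMul_distrib φ f g
  map_zero' := by
    apply WithConv.ext
    apply LinearMap.ext
    intro x
    show φ 0 = 0
    rw [map_zero]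
  map_add' f g := by
    apply WithConv.ext
    apply LinearMap.ext
    intro x
    show φ (f x + g x) = φ (f x) + φ (g x)
    rw [map_add]

@[simp] lemma postC_apply (φ : A →ₐ[R₀] A') (f : WithConv (H →ₗ[R₀] A)) (x : H) :
    (postC φ f) x = φ (f x) := rfl

/-- The values of an element of the extension of an ideal `I` lie in `I`. -/
theorem apply_mem_of_mem_map (I : Ideal A) (f : WithConv (H →ₗ[R₀] A))
    (hf : f ∈ Ideal.map (algebraMap A (WithConv (H →ₗ[R₀] A))) I) (x : H) : f x ∈ I := by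
  rw [Ideal.map, Ideal.span] at hf
  induction hf using Submodule.span_induction generalizing x with
  | mem g hg =>
    obtain ⟨a, ha, rfl⟩ := hg
    show a • algebraMap R₀ A (Coalgebra.counit (R := R₀) x) ∈ I
    rw [smul_eq_mul]
    exact Ideal.mul_mem_right _ _ ha
  | zero => exact I.zero_mem
  | add g g' _ _ hg hg' => exact I.add_mem (hg x) (hg' x)
  | smul a g _ hg =>
    rw [smul_eq_mul, (Coalgebra.Repr.arbitrary R₀ x).convMul_apply]
    exact Ideal.sum_mem _ fun i _ => Ideal.mul_mem_left _ _ (hg _)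

/-- An element all of whose values lie in `I` belongs to the extension of `I`. -/
theorem mem_map_of_apply_mem [Module.Free R₀ H] [Module.Finite R₀ H] (I : Ideal A)
    (f : WithConv (H →ₗ[R₀] A)) (hf : ∀ x : H, f x ∈ I) :
    f ∈ Ideal.map (algebraMap A (WithConv (H →ₗ[R₀] A))) I := by
  classical
  set b := Module.Free.chooseBasis R₀ H
  have key : f = ∑ i, algebraMap A (WithConv (H →ₗ[R₀] A)) (f (b i)) *
      toConv ((Algebra.linearMap R₀ A).comp (b.coord i)) := by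
    apply WithConv.ext
    apply b.ext
    intro j
    rw [WithConv.ofConv_sum, LinearMap.sum_apply]
    have h1 : ∀ i, (algebraMap A (WithConv (H →ₗ[R₀] A)) (f (b i)) *
        toConv ((Algebra.linearMap R₀ A).comp (b.coord i))).ofConv (b j) =
        if i = j then f (b i) else 0 := by
      intro i
      rw [← Algebra.smul_def]
      show f (b i) • algebraMap R₀ A (b.coord i (b j)) = _
      rw [Module.Basis.coord_apply, Module.Basis.repr_self, Finsupp.single_apply]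
      by_cases hij : j = i
      · rw [if_pos hij, if_pos hij.symm, map_one, smul_eq_mul, mul_one]
      · rw [if_neg hij, if_neg (Ne.symm hij), map_zero, smul_zero]
    simp only [h1]
    rw [Finset.sum_ite_eq' Finset.univ j]
    simp
  rw [key]
  exact Ideal.sum_mem _ fun i _ => Ideal.mul_mem_right _ _ (Ideal.mem_map_of_mem _ (hf _))

theorem mem_map_iff [Module.Free R₀ H] [Module.Finite R₀ H] (I : Ideal A)
    (f : WithConv (H →ₗ[R₀] A)) :
    f ∈ Ideal.map (algebraMap A (WithConv (H →ₗ[R₀] A))) I ↔ ∀ x : H, f x ∈ I :=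
  ⟨apply_mem_of_mem_map I f, mem_map_of_apply_mem I f⟩

end Conv

end Fermat.Agent.S56.FL.H54

end
-- ==== END Fermat.Agent.S56.FL.H54_PMConv

-- ==== BEGIN Fermat.Agent.S56.FL.H57_CohLin
section

/-!
# LOC-p-FL, package COH (helper57): linear algebra

* `finrank_le_one_of_dependent`, `finrank_le_succ_of_dependent_mod` : dimension bounds from
  pairwise dependence.
* `ent b f i j` : the matrix entries of an endomorphism of a plane in a basis `b`;
  `conj_upper`, `conj_anti` : conjugation by an upper triangular / antidiagonal endomorphism.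
-/

set_option autoImplicit false

noncomputable section

namespace Fermat.Agent.S56.FL.H57

open Module

section linalg

variable {k H : Type*} [Field k] [AddCommGroup H] [Module k H]

/-- A subspace in which any two vectors are dependent has dimension at most one. -/
theorem finrank_le_one_of_dependent (Y : Submodule k H)
    (h : ∀ y₁ ∈ Y, ∀ y₂ ∈ Y, ∃ l₁ l₂ : k, (l₁ ≠ 0 ∨ l₂ ≠ 0) ∧ l₁ • y₁ + l₂ • y₂ = 0) :
    Module.Finite k Y ∧ finrank k Y ≤ 1 := by
  by_cases hY : ∃ y₀ ∈ Y, y₀ ≠ 0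
  · obtain ⟨y₀, hy₀, hne⟩ := hY
    have hle : Y ≤ Submodule.span k ({y₀} : Set H) := by
      intro y hy
      obtain ⟨l₁, l₂, hl, e⟩ := h y₀ hy₀ y hy
      have hl₂ : l₂ ≠ 0 := by
        rintro rfl
        rw [zero_smul, add_zero] at e
        rcases hl with hl | hl
        · exact hne ((smul_eq_zero.1 e).resolve_left hl)
        · exact hl rfl
      have hy' : y = (-(l₂⁻¹ * l₁)) • y₀ := by
        have h1 : l₂ • y = -(l₁ • y₀) := eq_neg_of_add_eq_zero_right e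
        have h2 : y = l₂⁻¹ • (l₂ • y) := by rw [smul_smul, inv_mul_cancel₀ hl₂, one_smul]
        rw [h2, h1, smul_neg, smul_smul, neg_smul]
      rw [hy']
      exact Submodule.smul_mem _ _ (Submodule.mem_span_singleton_self _)
    have hfin : Module.Finite k (Submodule.span k ({y₀} : Set H)) :=
      FiniteDimensional.span_singleton k y₀
    refine ⟨Submodule.finiteDimensional_of_le hle, (Submodule.finrank_mono hle).trans ?_⟩
    exact (finrank_span_le_card ({y₀} : Set H)).trans (by simp)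
  · have hbot : Y = ⊥ := by
      rw [eq_bot_iff]
      intro y hy
      by_contra hne
      exact hY ⟨y, hy, hne⟩
    subst hbot
    exact ⟨inferInstance, by simp⟩

/-- If any two vectors of `Y` are dependent modulo `K`, then `dim Y ≤ dim K + 1`. -/
theorem finrank_le_succ_of_dependent_mod (Y K : Submodule k H) [Module.Finite k K] (n : ℕ)
    (hK : finrank k K ≤ n)
    (h : ∀ y₁ ∈ Y, ∀ y₂ ∈ Y, ∃ l₁ l₂ : k, (l₁ ≠ 0 ∨ l₂ ≠ 0) ∧ l₁ • y₁ + l₂ • y₂ ∈ K) :
    Module.Finite k Y ∧ finrank k Y ≤ n + 1 := by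
  by_cases hY : ∃ y₀ ∈ Y, y₀ ∉ K
  · obtain ⟨y₀, hy₀, hne⟩ := hY
    have hle : Y ≤ K ⊔ Submodule.span k ({y₀} : Set H) := by
      intro y hy
      obtain ⟨l₁, l₂, hl, e⟩ := h y₀ hy₀ y hy
      have hl₂ : l₂ ≠ 0 := by
        rintro rfl
        rw [zero_smul, add_zero] at e
        rcases hl with hl | hl
        · apply hne
          have := K.smul_mem l₁⁻¹ e
          rwa [smul_smul, inv_mul_cancel₀ hl, one_smul] at this
        · exact hl rfl
      have hy' : y = l₂⁻¹ • (l₁ • y₀ + l₂ • y) + (-(l₂⁻¹ * l₁)) • y₀ := by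
        rw [smul_add, smul_smul, smul_smul, inv_mul_cancel₀ hl₂, one_smul, neg_smul]
        abel
      rw [hy']
      exact Submodule.add_mem _ (Submodule.mem_sup_left (K.smul_mem _ e))
        (Submodule.mem_sup_right (Submodule.smul_mem _ _ (Submodule.mem_span_singleton_self _)))
    have hfin : Module.Finite k (Submodule.span k ({y₀} : Set H)) :=
      FiniteDimensional.span_singleton k y₀
    have hfin' : Module.Finite k (K ⊔ Submodule.span k ({y₀} : Set H) : Submodule k H) :=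
      inferInstance
    refine ⟨Submodule.finiteDimensional_of_le hle, (Submodule.finrank_mono hle).trans ?_⟩
    refine (Submodule.finrank_add_le_finrank_add_finrank _ _).trans ?_
    have h1 : finrank k (Submodule.span k ({y₀} : Set H)) ≤ 1 :=
      (finrank_span_le_card ({y₀} : Set H)).trans (by simp)
    omega
  · have hle : Y ≤ K := by
      intro y hy
      by_contra hne
      exact hY ⟨y, hy, hne⟩
    exact ⟨Submodule.finiteDimensional_of_le hle, (Submodule.finrank_mono hle).trans (by omega)⟩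

end linalg

section coords

variable {k V : Type*} [Field k] [AddCommGroup V] [Module k V] (b : Basis (Fin 2) k V)

/-- The matrix entry `(i, j)` of an endomorphism in the basis `b`. -/
def ent (f : Module.End k V) (i j : Fin 2) : k := b.coord i (f (b j))

theorem ent_add (f g : Module.End k V) (i j : Fin 2) : ent b (f + g) i j = ent b f i j + ent b g i j := by
  simp [ent]

theorem ent_sub (f g : Module.End k V) (i j : Fin 2) : ent b (f - g) i j = ent b f i j - ent b g i j := by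
  simp [ent]

theorem ent_smul (a : k) (f : Module.End k V) (i j : Fin 2) : ent b (a • f) i j = a * ent b f i j := by
  simp [ent]

theorem ent_zero (i j : Fin 2) : ent b (0 : Module.End k V) i j = 0 := by
  simp [ent]

theorem basis_decomp (v : V) : v = b.coord 0 v • b 0 + b.coord 1 v • b 1 := by
  conv_lhs => rw [← b.sum_repr v]
  rw [Fin.sum_univ_two]
  rfl

theorem apply_b (f : Module.End k V) (j : Fin 2) :
    f (b j) = ent b f 0 j • b 0 + ent b f 1 j • b 1 := basis_decomp b (f (b j))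

theorem end_ext {f g : Module.End k V} (h : ∀ i j, ent b f i j = ent b g i j) : f = g := by
  apply b.ext
  intro j
  rw [apply_b b f j, apply_b b g j, h 0 j, h 1 j]

theorem trace_eq_ent (f : Module.End k V) :
    LinearMap.trace k V f = ent b f 0 0 + ent b f 1 1 := by
  rw [LinearMap.trace_eq_matrix_trace k b, Matrix.trace_fin_two]
  simp [LinearMap.toMatrix_apply, ent]

/-- Conjugation by an upper triangular endomorphism, in coordinates. -/
theorem conj_upper {R f g : Module.End k V} {x₁ x₂ u : k} (hR0 : R (b 0) = x₁ • b 0)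
    (hR1 : R (b 1) = u • b 0 + x₂ • b 1) (hg : g * R = R * f) :
    x₁ * ent b g 1 0 = x₂ * ent b f 1 0 ∧
    x₁ * ent b g 0 0 = x₁ * ent b f 0 0 + u * ent b f 1 0 ∧
    x₂ * ent b g 1 1 + u * ent b g 1 0 = x₂ * ent b f 1 1 ∧
    x₂ * ent b g 0 1 + u * ent b g 0 0 = x₁ * ent b f 0 1 + u * ent b f 1 1 := by
  have e0 : g (R (b 0)) = R (f (b 0)) := LinearMap.congr_fun hg (b 0)
  have e1 : g (R (b 1)) = R (f (b 1)) := LinearMap.congr_fun hg (b 1)
  rw [hR0, map_smul, apply_b b f 0, map_add, map_smul, map_smul, hR0, hR1, apply_b b g 0] at e0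
  rw [hR1, map_add, map_smul, map_smul, apply_b b f 1, map_add, map_smul, map_smul, hR0, hR1,
    apply_b b g 0, apply_b b g 1] at e1
  have a0 := congrArg (b.coord 0) e0
  have a1 := congrArg (b.coord 1) e0
  have c0 := congrArg (b.coord 0) e1
  have c1 := congrArg (b.coord 1) e1
  simp only [map_add, map_smul, Basis.coord_apply, Basis.repr_self, smul_eq_mul,
    Finsupp.single_apply] at a0 a1 c0 c1
  simp at a0 a1 c0 c1
  refine ⟨?_, ?_, ?_, ?_⟩
  · linear_combination a1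
  · linear_combination a0
  · linear_combination c1
  · linear_combination c0

/-- Conjugation by an antidiagonal endomorphism, in coordinates. -/
theorem conj_anti {R f g : Module.End k V} {r r' : k} (hR0 : R (b 0) = r' • b 1)
    (hR1 : R (b 1) = r • b 0) (hg : g * R = R * f) :
    r' * ent b g 1 1 = r' * ent b f 0 0 ∧
    r' * ent b g 0 1 = r * ent b f 1 0 ∧
    r * ent b g 1 0 = r' * ent b f 0 1 ∧
    r * ent b g 0 0 = r * ent b f 1 1 := by
  have e0 : g (R (b 0)) = R (f (b 0)) := LinearMap.congr_fun hg (b 0)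
  have e1 : g (R (b 1)) = R (f (b 1)) := LinearMap.congr_fun hg (b 1)
  rw [hR0, map_smul, apply_b b f 0, map_add, map_smul, map_smul, hR0, hR1, apply_b b g 1] at e0
  rw [hR1, map_smul, apply_b b f 1, map_add, map_smul, map_smul, hR0, hR1, apply_b b g 0] at e1
  have a0 := congrArg (b.coord 0) e0
  have a1 := congrArg (b.coord 1) e0
  have c0 := congrArg (b.coord 0) e1
  have c1 := congrArg (b.coord 1) e1
  simp only [map_add, map_smul, Basis.coord_apply, Basis.repr_self, smul_eq_mul,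
    Finsupp.single_apply] at a0 a1 c0 c1
  simp at a0 a1 c0 c1
  refine ⟨?_, ?_, ?_, ?_⟩
  · linear_combination a1
  · linear_combination a0
  · linear_combination c1
  · linear_combination c0

end coords

end Fermat.Agent.S56.FL.H57

end

end
-- ==== END Fermat.Agent.S56.FL.H57_CohLin

-- ==== BEGIN Fermat.Agent.S56.FL.H59_KumAlg
section

set_option autoImplicit false

/-!
# LOC-p-FL, package KUM (helper59), part 1: Lagrange resolvents

Pure algebra.  `E` a field, `H` a group of automorphisms of `E`, `ζ ∈ E` a primitive `p`-th root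
of unity fixed by `H`, `α ∈ Eˣ` with `h α ∈ μ_p · α` for all `h ∈ H`, and `σ ∈ H` with
`σ α = ζ α`.  Then every `x ∈ E` that is fixed by the stabiliser of `α` in `H` is
`∑_{j<p} c_j α^j` with `c_j` fixed by `H`.
-/

noncomputable section

namespace Fermat.Agent.S56.FL.H59

open Finset

section Periodic

variable {M : Type*} [AddCommGroup M]

/-- Sum of a `p`-periodic function over a shifted period. -/
theorem sum_range_shift_of_periodic (f : ℕ → M) (p : ℕ) (hf : ∀ i, f (i + p) = f i) (k : ℕ) :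
    ∑ i ∈ range p, f (i + k) = ∑ i ∈ range p, f i := by
  induction k with
  | zero => simp
  | succ k ih =>
    rw [← ih]
    have h1 : ∑ i ∈ range p, f (i + (k + 1)) + f (0 + k) = ∑ i ∈ range (p + 1), f (i + k) := by
      rw [Finset.sum_range_succ']
      refine congrArg₂ _ (Finset.sum_congr rfl fun i _ => ?_) rfl
      congr 1; ring
    have h2 : ∑ i ∈ range (p + 1), f (i + k) = ∑ i ∈ range p, f (i + k) + f (p + k) :=
      Finset.sum_range_succ _ _
    have h3 : f (p + k) = f (0 + k) := by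
      rw [show p + k = (0 + k) + p by ring]; exact hf _
    rw [h2, h3] at h1
    exact add_right_cancel h1

end Periodic

variable {k E : Type*} [Field k] [Field E] [Algebra k E]

/-- Orthogonality of characters of `ℤ/p`. -/
theorem sum_inv_pow_mul {p : ℕ} (hp : p.Prime) {ζ : E} (hζ : IsPrimitiveRoot ζ p) {i : ℕ}
    (hi : i < p) : ∑ j ∈ range p, (ζ⁻¹) ^ (i * j) = if i = 0 then (p : E) else 0 := by
  split_ifs with h0
  · subst h0; simp
  · have hcop : Nat.Coprime i p := by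
      rw [Nat.coprime_comm]
      exact (Nat.Prime.coprime_iff_not_dvd hp).mpr fun hd =>
        h0 (Nat.eq_zero_of_dvd_of_lt hd hi)
    have h1 : IsPrimitiveRoot ((ζ⁻¹) ^ i) p := (hζ.inv).pow_of_coprime i hcop
    have := h1.geom_sum_eq_zero hp.one_lt
    simpa [pow_mul] using this

variable (H : Subgroup (E ≃ₐ[k] E))

/-- The Lagrange resolvent decomposition. -/
theorem exists_resolvent_expansion {p : ℕ} (hp : p.Prime) (hpE : (p : E) ≠ 0)
    {ζ : E} (hζ : IsPrimitiveRoot ζ p) (hζH : ∀ h ∈ H, h ζ = ζ)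
    {α : E} (hα0 : α ≠ 0) (hαp : ∀ h ∈ H, h (α ^ p) = α ^ p)
    {σ : E ≃ₐ[k] E} (hσH : σ ∈ H) (hσα : σ α = ζ * α)
    {x : E} (hx : ∀ ν ∈ H, ν α = α → ν x = x) :
    ∃ c : ℕ → E, (∀ j, ∀ h ∈ H, h (c j) = c j) ∧ x = ∑ j ∈ range p, c j * α ^ j := by
  classical
  have hζ0 : ζ ≠ 0 := hζ.ne_zero hp.ne_zero
  have hζp : ζ ^ p = 1 := hζ.pow_eq_one
  -- powers of `σ` on `α` and `ζ`
  have hσζ : ∀ i : ℕ, (σ ^ i) ζ = ζ := fun i => hζH _ (H.pow_mem hσH i)
  have hσpow : ∀ i : ℕ, (σ ^ i) α = ζ ^ i * α := by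
    intro i
    induction i with
    | zero => simp
    | succ i ih =>
      rw [pow_succ', AlgEquiv.mul_apply, ih, map_mul, map_pow, hζH σ hσH, hσα]
      ring
  -- every `h ∈ H` multiplies `α` by a power of `ζ`
  have hexp : ∀ h ∈ H, ∃ m : ℕ, h α = ζ ^ m * α := by
    intro h hh
    have h1 : (h α / α) ^ p = 1 := by
      rw [div_pow, ← map_pow, hαp h hh, div_self (pow_ne_zero _ hα0)]
    haveI : NeZero p := ⟨hp.ne_zero⟩
    obtain ⟨m, -, hm⟩ := hζ.eq_pow_of_pow_eq_one h1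
    refine ⟨m, ?_⟩
    rw [hm]; field_simp
  -- the key relation
  have hkey : ∀ h ∈ H, ∀ m : ℕ, h α = ζ ^ m * α → ∀ i : ℕ, h ((σ ^ i) x) = (σ ^ (i + m)) x := by
    intro h hh m hm i
    have hν : ((σ ^ (i + m))⁻¹ * h * σ ^ i) ∈ H :=
      H.mul_mem (H.mul_mem (H.inv_mem (H.pow_mem hσH _)) hh) (H.pow_mem hσH _)
    have hνα : ((σ ^ (i + m))⁻¹ * h * σ ^ i) α = α := by
      rw [AlgEquiv.mul_apply, AlgEquiv.mul_apply, hσpow i, map_mul, map_pow, hζH h hh, hm]
      have h2 : ζ ^ i * (ζ ^ m * α) = (σ ^ (i + m)) α := by rw [hσpow (i + m)]; ring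
      rw [h2]
      exact (σ ^ (i + m)).symm_apply_apply α
    have := hx _ hν hνα
    rw [AlgEquiv.mul_apply, AlgEquiv.mul_apply] at this
    have h3 := congrArg (σ ^ (i + m)) this
    rw [show (σ ^ (i + m)) ((σ ^ (i + m))⁻¹ (h ((σ ^ i) x))) = h ((σ ^ i) x) from
      (σ ^ (i + m)).apply_symm_apply _] at h3
    exact h3
  -- periodicity
  have hper : ∀ i : ℕ, (σ ^ (i + p)) x = (σ ^ i) x := by
    intro i
    have h1 : (1 : E ≃ₐ[k] E) α = ζ ^ p * α := by rw [hζp, one_mul]; rfl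
    have := hkey 1 H.one_mem p h1 i
    rw [← this]; rfl
  -- the resolvents
  set X : ℕ → E := fun j => (p : E)⁻¹ * ∑ i ∈ range p, (ζ⁻¹) ^ (i * j) * (σ ^ i) x with hX
  have hsum : ∑ j ∈ range p, X j = x := by
    simp only [hX]
    rw [← Finset.mul_sum, Finset.sum_comm]
    have h1 : ∀ i ∈ range p, ∑ j ∈ range p, (ζ⁻¹) ^ (i * j) * (σ ^ i) x
        = (if i = 0 then (p : E) else 0) * (σ ^ i) x := by
      intro i hi
      rw [← Finset.sum_mul, sum_inv_pow_mul hp hζ (Finset.mem_range.mp hi)]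
    rw [Finset.sum_congr rfl h1]
    have h2 : ∑ i ∈ range p, (if i = 0 then (p : E) else 0) * (σ ^ i) x = (p : E) * x := by
      rw [Finset.sum_eq_single 0]
      · simp
      · intro i _ hi; simp [hi]
      · intro h; exact absurd (Finset.mem_range.mpr hp.pos) h
    rw [h2, ← mul_assoc, inv_mul_cancel₀ hpE, one_mul]
  have hact : ∀ h ∈ H, ∀ m : ℕ, h α = ζ ^ m * α → ∀ j : ℕ, h (X j) = ζ ^ (m * j) * X j := by
    intro h hh m hm j
    simp only [hX]
    rw [map_mul, map_inv₀, map_natCast, map_sum]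
    have h1 : ∀ i ∈ range p, h ((ζ⁻¹) ^ (i * j) * (σ ^ i) x)
        = ζ ^ (m * j) * ((ζ⁻¹) ^ ((i + m) * j) * (σ ^ (i + m)) x) := by
      intro i _
      rw [map_mul, map_pow, map_inv₀, hζH h hh, hkey h hh m hm i, ← mul_assoc]
      congr 1
      rw [add_mul, pow_add, inv_pow, inv_pow]
      have hz : ζ ^ (m * j) ≠ 0 := pow_ne_zero _ hζ0
      field_simp
    rw [Finset.sum_congr rfl h1, ← Finset.mul_sum]
    have h2 : ∑ i ∈ range p, (ζ⁻¹) ^ ((i + m) * j) * (σ ^ (i + m)) x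
        = ∑ i ∈ range p, (ζ⁻¹) ^ (i * j) * (σ ^ i) x := by
      refine sum_range_shift_of_periodic (fun i => (ζ⁻¹) ^ (i * j) * (σ ^ i) x) p ?_ m
      intro i
      rw [hper i, add_mul, pow_add]
      have : (ζ⁻¹) ^ (p * j) = 1 := by rw [pow_mul, inv_pow, hζp, inv_one, one_pow]
      rw [this, mul_one]
    rw [h2]; ring
  refine ⟨fun j => X j / α ^ j, ?_, ?_⟩
  · intro j h hh
    obtain ⟨m, hm⟩ := hexp h hh
    rw [map_div₀, map_pow, hact h hh m hm j, hm, mul_pow, ← pow_mul]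
    have : ζ ^ (m * j) ≠ 0 := pow_ne_zero _ hζ0
    field_simp
  · rw [← hsum]
    refine Finset.sum_congr rfl fun j _ => ?_
    field_simp

end Fermat.Agent.S56.FL.H59

end

end
-- ==== END Fermat.Agent.S56.FL.H59_KumAlg

-- ==== BEGIN Fermat.Agent.S56.FL.H59_KumNorm
section

set_option autoImplicit false
set_option linter.unusedSectionVars false

/-!
# LOC-p-FL, package KUM (helper59), part 3: ultrametric estimates

Generic lemmas in an ultrametric normed field `F` with a subfield `S`: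

* `norm_pow_succ_sub_le`, `norm_term_le_norm_sum`, `norm_one_add_pow_sub_le`;
* `InV S t` : `t` is the norm of a nonzero element of `S`; `InV.of_pow_of_pow` (Bézout);
* `kummer_estimate` : if `‖y‖ ∉ ‖Sˣ‖`, `‖y‖^p ∈ ‖Sˣ‖` and `τ` is an isometric endomorphism fixing
  `S` with `‖τ y - y‖ ≤ θ ‖α‖`, `δ ‖α‖^p ≤ ‖y‖^p`, then for `x = ∑_{j<p} c_j y^j` (`c_j ∈ S`) of norm
  `≤ 1`: `δ ‖τ x - x‖^p ≤ θ^p ϖ`, where `ϖ` bounds the norms `< 1` of the elements of `S`.
-/

noncomputable section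

namespace Fermat.Agent.S56.FL.H59

open Finset

variable {F : Type*} [NormedField F] [IsUltrametricDist F]

theorem norm_pow_succ_sub_le {u v : F} {r : ℝ} (hu : ‖u‖ ≤ r) (hv : ‖v‖ ≤ r) (j : ℕ) :
    ‖u ^ (j + 1) - v ^ (j + 1)‖ ≤ ‖u - v‖ * r ^ j := by
  have hr : 0 ≤ r := (norm_nonneg u).trans hu
  induction j with
  | zero => simp
  | succ j ih =>
    have h : u ^ (j + 1 + 1) - v ^ (j + 1 + 1)
        = u * (u ^ (j + 1) - v ^ (j + 1)) + (u - v) * v ^ (j + 1) := by ring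
    rw [h]
    refine (IsUltrametricDist.norm_add_le_max _ _).trans (max_le ?_ ?_)
    · rw [norm_mul]
      calc ‖u‖ * ‖u ^ (j + 1) - v ^ (j + 1)‖ ≤ r * (‖u - v‖ * r ^ j) :=
            mul_le_mul hu ih (norm_nonneg _) hr
        _ = ‖u - v‖ * r ^ (j + 1) := by ring
    · rw [norm_mul, norm_pow]
      exact mul_le_mul_of_nonneg_left (pow_le_pow_left₀ (norm_nonneg _) hv _) (norm_nonneg _)

/-- In a finite sum whose nonzero terms have pairwise distinct norms, every term has norm at most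
the norm of the sum. -/
theorem norm_term_le_norm_sum (s : Finset ℕ) (f : ℕ → F)
    (hf : ∀ i ∈ s, ∀ j ∈ s, i ≠ j → f i ≠ 0 → ‖f i‖ ≠ ‖f j‖) :
    ∀ i ∈ s, ‖f i‖ ≤ ‖∑ j ∈ s, f j‖ := by
  classical
  intro i hi
  obtain ⟨j₀, hj₀, hmax⟩ := Finset.exists_max_image s (fun j => ‖f j‖) ⟨i, hi⟩
  by_cases h0 : f j₀ = 0
  · have : ‖f i‖ ≤ 0 := by
      have := hmax i hi
      rwa [h0, norm_zero] at this
    exact this.trans (norm_nonneg _)
  have hrest : ‖∑ j ∈ s.erase j₀, f j‖ < ‖f j₀‖ := by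
    obtain ⟨i₁, hi₁, hle⟩ := IsUltrametricDist.exists_norm_finsetSum_le (s.erase j₀) f
    by_cases hne : (s.erase j₀).Nonempty
    · have hi₁' := hi₁ hne
      have hi₁s : i₁ ∈ s := Finset.mem_of_mem_erase hi₁'
      have hi₁ne : i₁ ≠ j₀ := Finset.ne_of_mem_erase hi₁'
      have h1 : ‖f i₁‖ ≤ ‖f j₀‖ := hmax i₁ hi₁s
      have h2 : ‖f j₀‖ ≠ ‖f i₁‖ := hf j₀ hj₀ i₁ hi₁s (Ne.symm hi₁ne) h0
      exact hle.trans_lt (lt_of_le_of_ne h1 (Ne.symm h2))
    · rw [Finset.not_nonempty_iff_eq_empty.mp hne, Finset.sum_empty, norm_zero]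
      exact norm_pos_iff.mpr h0
  have hsum : ∑ j ∈ s, f j = f j₀ + ∑ j ∈ s.erase j₀, f j :=
    (Finset.add_sum_erase s f hj₀).symm
  have hnorm : ‖∑ j ∈ s, f j‖ = ‖f j₀‖ := by
    rw [hsum, IsUltrametricDist.norm_add_eq_max_of_norm_ne_norm (ne_of_gt hrest)]
    exact max_eq_left hrest.le
  rw [hnorm]
  exact hmax i hi

/-- `‖(1 + z)^p - 1 - z^p‖ ≤ ‖p‖ ‖z‖` for `‖z‖ ≤ 1`. -/
theorem norm_one_add_pow_sub_le {p : ℕ} (hp : p.Prime) {z : F} (hz : ‖z‖ ≤ 1) :
    ‖(1 + z) ^ p - 1 - z ^ p‖ ≤ ‖(p : F)‖ * ‖z‖ := by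
  have hp1 : 1 ≤ p := hp.one_lt.le
  have h : (1 + z) ^ p - 1 - z ^ p = ∑ m ∈ Finset.Ico 1 p, (p.choose m : F) * z ^ m := by
    rw [add_comm 1 z, add_pow, Finset.range_eq_Ico,
      Finset.sum_eq_sum_Ico_succ_bot (by omega : 0 < p + 1),
      Finset.sum_Ico_succ_top (by omega : 0 + 1 ≤ p)]
    simp only [one_pow, mul_one, pow_zero, Nat.choose_zero_right, Nat.cast_one, zero_add,
      Nat.choose_self, Nat.sub_self]
    have : ∑ m ∈ Finset.Ico 1 p, z ^ m * (p.choose m : F)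
        = ∑ m ∈ Finset.Ico 1 p, (p.choose m : F) * z ^ m :=
      Finset.sum_congr rfl fun m _ => mul_comm _ _
    rw [this]; ring
  rw [h]
  refine IsUltrametricDist.norm_sum_le_of_forall_le_of_nonneg
    (mul_nonneg (norm_nonneg _) (norm_nonneg _)) ?_
  intro m hm
  obtain ⟨hm1, hm2⟩ := Finset.mem_Ico.mp hm
  obtain ⟨k, hk⟩ := hp.dvd_choose_self (by omega) hm2
  rw [hk, Nat.cast_mul, norm_mul, norm_mul, norm_pow, mul_assoc]
  refine mul_le_mul_of_nonneg_left ?_ (norm_nonneg _)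
  calc ‖(k : F)‖ * ‖z‖ ^ m ≤ 1 * ‖z‖ ^ m :=
        mul_le_mul_of_nonneg_right (IsUltrametricDist.norm_natCast_le_one F k)
          (pow_nonneg (norm_nonneg _) _)
    _ = ‖z‖ ^ m := one_mul _
    _ ≤ ‖z‖ ^ 1 := pow_le_pow_of_le_one (norm_nonneg _) hz hm1
    _ = ‖z‖ := pow_one _

/-! ### The value group of a subfield -/

/-- `t` is the norm of a nonzero element of `S`. -/
def InV (S : Subfield F) (t : ℝ) : Prop := ∃ c ∈ S, c ≠ 0 ∧ ‖c‖ = t

namespace InV

variable {S : Subfield F} {s t : ℝ}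

theorem pos (h : InV S t) : 0 < t := by
  obtain ⟨c, -, hc0, rfl⟩ := h
  exact norm_pos_iff.mpr hc0

theorem one : InV S 1 := ⟨1, S.one_mem, one_ne_zero, norm_one⟩

theorem mul (hs : InV S s) (ht : InV S t) : InV S (s * t) := by
  obtain ⟨c, hc, hc0, rfl⟩ := hs
  obtain ⟨d, hd, hd0, rfl⟩ := ht
  exact ⟨c * d, S.mul_mem hc hd, mul_ne_zero hc0 hd0, norm_mul _ _⟩

theorem inv (hs : InV S s) : InV S s⁻¹ := by
  obtain ⟨c, hc, hc0, rfl⟩ := hs
  exact ⟨c⁻¹, S.inv_mem hc, inv_ne_zero hc0, norm_inv _⟩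

theorem pow (hs : InV S s) (n : ℕ) : InV S (s ^ n) := by
  obtain ⟨c, hc, hc0, rfl⟩ := hs
  exact ⟨c ^ n, S.pow_mem hc n, pow_ne_zero _ hc0, norm_pow _ _⟩

theorem zpow (hs : InV S s) (n : ℤ) : InV S (s ^ n) := by
  obtain ⟨c, hc, hc0, rfl⟩ := hs
  exact ⟨c ^ n, S.zpow_mem hc n, zpow_ne_zero _ hc0, norm_zpow _ _⟩

/-- Bézout: if `t^p` and `t^m` (`0 < m < p`, `p` prime) are norms of `S`, so is `t`. -/
theorem of_pow_of_pow {p : ℕ} (hp : p.Prime) {m : ℕ} (hm0 : 0 < m) (hmp : m < p)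
    (ht0 : 0 < t) (h1 : InV S (t ^ p)) (h2 : InV S (t ^ m)) : InV S t := by
  have hcop : IsCoprime (m : ℤ) (p : ℤ) := by
    rw [Int.isCoprime_iff_gcd_eq_one]
    have : Nat.Coprime m p := by
      rw [Nat.coprime_comm]
      exact (Nat.Prime.coprime_iff_not_dvd hp).mpr fun hd =>
        absurd (Nat.le_of_dvd hm0 hd) (not_le.mpr hmp)
    simpa [Int.gcd_natCast_natCast] using this
  obtain ⟨a, b, hab⟩ := hcop
  have h3 := (h2.zpow a).mul (h1.zpow b)
  have h4 : (t ^ m) ^ a * (t ^ p) ^ b = t := by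
    rw [← zpow_natCast t m, ← zpow_natCast t p, ← zpow_mul, ← zpow_mul,
      ← zpow_add₀ ht0.ne']
    have : (m : ℤ) * a + (p : ℤ) * b = 1 := by rw [← hab]; ring
    rw [this, zpow_one]
  rwa [h4] at h3

/-- If `t^p` is a norm of `S` but `t` is not, then `t^m` is not a norm of `S` for `0 < m < p`. -/
theorem not_pow {p : ℕ} (hp : p.Prime) {m : ℕ} (hm0 : 0 < m) (hmp : m < p)
    (ht0 : 0 < t) (h1 : InV S (t ^ p)) (h2 : ¬ InV S t) : ¬ InV S (t ^ m) :=
  fun h => h2 (of_pow_of_pow hp hm0 hmp ht0 h1 h)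

end InV

/-- **The Kummer estimate.** -/
theorem kummer_estimate {p : ℕ} (hp : p.Prime) (S : Subfield F) (τ : F →+* F)
    (hτn : ∀ a, ‖τ a‖ = ‖a‖) (hτS : ∀ c ∈ S, τ c = c)
    {y α : F} {θ δ ϖ : ℝ} (hθ : 0 ≤ θ) (hδ : 0 < δ)
    (hϖ : ∀ c ∈ S, ‖c‖ < 1 → ‖c‖ ≤ ϖ)
    (hy0 : y ≠ 0) (hyp : InV S (‖y‖ ^ p)) (hyn : ¬ InV S ‖y‖)
    (hτy : ‖τ y - y‖ ≤ θ * ‖α‖) (hα : δ * ‖α‖ ^ p ≤ ‖y‖ ^ p)
    (c : ℕ → F) (hc : ∀ j, c j ∈ S) (hx1 : ‖∑ j ∈ range p, c j * y ^ j‖ ≤ 1) :
    δ * ‖τ (∑ j ∈ range p, c j * y ^ j) - ∑ j ∈ range p, c j * y ^ j‖ ^ p ≤ θ ^ p * ϖ := by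
  classical
  have hp0 : p ≠ 0 := hp.ne_zero
  have hyt : 0 < ‖y‖ := norm_pos_iff.mpr hy0
  set x := ∑ j ∈ range p, c j * y ^ j with hx
  -- distinct norms
  have hdist : ∀ i ∈ range p, ∀ j ∈ range p, i ≠ j → c i * y ^ i ≠ 0 →
      ‖c i * y ^ i‖ ≠ ‖c j * y ^ j‖ := by
    intro i hi j hj hij hne heq
    have hci : c i ≠ 0 := left_ne_zero_of_mul hne
    have hcj : c j ≠ 0 := by
      intro h0
      rw [h0, zero_mul, norm_zero] at heq
      exact hne (norm_eq_zero.mp heq)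
    rw [norm_mul, norm_mul, norm_pow, norm_pow] at heq
    have hi' := Finset.mem_range.mp hi
    have hj' := Finset.mem_range.mp hj
    have hci' : InV S ‖c i‖ := ⟨c i, hc i, hci, rfl⟩
    have hcj' : InV S ‖c j‖ := ⟨c j, hc j, hcj, rfl⟩
    rcases Nat.lt_or_gt_of_ne hij with hlt | hlt
    · -- `‖y‖^(j-i) = ‖c i‖ / ‖c j‖`
      have h1 : ‖y‖ ^ (j - i) = ‖c i‖ * ‖c j‖⁻¹ := by
        have hpow : ‖y‖ ^ j = ‖y‖ ^ (j - i) * ‖y‖ ^ i := by
          rw [← pow_add]; congr 1; omega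
        rw [hpow] at heq
        have hyi : ‖y‖ ^ i ≠ 0 := pow_ne_zero _ hyt.ne'
        have hcjn : ‖c j‖ ≠ 0 := norm_ne_zero_iff.mpr hcj
        field_simp
        have := mul_right_cancel₀ hyi (by rw [mul_assoc]; exact heq.symm :
          ‖c j‖ * ‖y‖ ^ (j - i) * ‖y‖ ^ i = ‖c i‖ * ‖y‖ ^ i)
        rw [mul_comm] at this
        exact this
      exact InV.not_pow hp (by omega) (by omega) hyt hyp hyn (h1 ▸ hci'.mul hcj'.inv)
    · have h1 : ‖y‖ ^ (i - j) = ‖c j‖ * ‖c i‖⁻¹ := by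
        have hpow : ‖y‖ ^ i = ‖y‖ ^ (i - j) * ‖y‖ ^ j := by
          rw [← pow_add]; congr 1; omega
        rw [hpow] at heq
        have hyj : ‖y‖ ^ j ≠ 0 := pow_ne_zero _ hyt.ne'
        have hcin : ‖c i‖ ≠ 0 := norm_ne_zero_iff.mpr hci
        field_simp
        have := mul_right_cancel₀ hyj (by rw [mul_assoc]; exact heq :
          ‖c i‖ * ‖y‖ ^ (i - j) * ‖y‖ ^ j = ‖c j‖ * ‖y‖ ^ j)
        rw [mul_comm] at this
        exact this
      exact InV.not_pow hp (by omega) (by omega) hyt hyp hyn (h1 ▸ hcj'.mul hci'.inv)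
  have hterm : ∀ j ∈ range p, ‖c j * y ^ j‖ ≤ 1 := fun j hj =>
    (norm_term_le_norm_sum (range p) (fun j => c j * y ^ j) hdist j hj).trans hx1
  -- terms with `j ≥ 1`
  have hterm' : ∀ j, j + 1 < p → ‖c (j + 1) * y ^ (j + 1)‖ ^ p ≤ ϖ := by
    intro j hj
    by_cases hc0 : c (j + 1) = 0
    · rw [hc0, zero_mul, norm_zero, zero_pow hp0]
      obtain ⟨d, hd, hd0, hdn⟩ := hyp
      -- `ϖ ≥ 0`
      have := hϖ 0 S.zero_mem (by simp)
      simpa using this
    have hcv : InV S ‖c (j + 1)‖ := ⟨c (j + 1), hc _, hc0, rfl⟩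
    have hle := hterm (j + 1) (Finset.mem_range.mpr hj)
    have hne1 : ‖c (j + 1) * y ^ (j + 1)‖ ≠ 1 := by
      intro h1
      rw [norm_mul, norm_pow] at h1
      have h2 : ‖y‖ ^ (j + 1) = ‖c (j + 1)‖⁻¹ := by
        have hcn : ‖c (j + 1)‖ ≠ 0 := norm_ne_zero_iff.mpr hc0
        field_simp
        rw [mul_comm]; exact h1
      exact InV.not_pow hp (by omega) hj hyt hyp hyn (h2 ▸ hcv.inv)
    have hlt : ‖c (j + 1) * y ^ (j + 1)‖ < 1 := lt_of_le_of_ne hle hne1
    obtain ⟨d, hd, hd0, hdn⟩ := hyp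
    have h3 : ‖c (j + 1) * y ^ (j + 1)‖ ^ p = ‖c (j + 1) ^ p * d ^ (j + 1)‖ := by
      rw [norm_mul, norm_mul, norm_pow, norm_pow, norm_pow, hdn, mul_pow, ← pow_mul, ← pow_mul,
        mul_comm (j + 1) p]
    rw [h3]
    refine hϖ _ (S.mul_mem (S.pow_mem (hc _) _) (S.pow_mem hd _)) ?_
    rw [← h3]
    exact pow_lt_one₀ (norm_nonneg _) hlt hp0
  -- the difference
  have hτx : τ x - x = ∑ j ∈ range p, c j * ((τ y) ^ j - y ^ j) := by
    rw [hx, map_sum, ← Finset.sum_sub_distrib]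
    refine Finset.sum_congr rfl fun j _ => ?_
    rw [map_mul, map_pow, hτS _ (hc j)]; ring
  have hϖ0 : 0 ≤ ϖ := by
    have := hϖ 0 S.zero_mem (by simp)
    simpa using this
  have hB : 0 ≤ θ ^ p * ϖ := mul_nonneg (pow_nonneg hθ _) hϖ0
  -- bound each term
  have hbound : ∀ j ∈ range p, δ * ‖c j * ((τ y) ^ j - y ^ j)‖ ^ p ≤ θ ^ p * ϖ := by
    intro j hj
    rcases Nat.eq_zero_or_pos j with h0 | hpos
    · subst h0
      simpa [zero_pow hp0] using hB
    obtain ⟨i, rfl⟩ : ∃ i, j = i + 1 := ⟨j - 1, by omega⟩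
    have hj' := Finset.mem_range.mp hj
    have h1 : ‖(τ y) ^ (i + 1) - y ^ (i + 1)‖ ≤ ‖τ y - y‖ * ‖y‖ ^ i :=
      norm_pow_succ_sub_le (hτn y).le le_rfl i
    have h2 : ‖c (i + 1) * ((τ y) ^ (i + 1) - y ^ (i + 1))‖
        ≤ ‖c (i + 1)‖ * (θ * ‖α‖ * ‖y‖ ^ i) := by
      rw [norm_mul]
      refine mul_le_mul_of_nonneg_left (h1.trans ?_) (norm_nonneg _)
      exact mul_le_mul_of_nonneg_right hτy (pow_nonneg (norm_nonneg _) _)
    have h3 : ‖c (i + 1) * ((τ y) ^ (i + 1) - y ^ (i + 1))‖ ^ p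
        ≤ (‖c (i + 1)‖ * (θ * ‖α‖ * ‖y‖ ^ i)) ^ p :=
      pow_le_pow_left₀ (norm_nonneg _) h2 p
    have h4 : δ * (‖c (i + 1)‖ * (θ * ‖α‖ * ‖y‖ ^ i)) ^ p
        = θ ^ p * (‖c (i + 1)‖ ^ p * (‖y‖ ^ i) ^ p * (δ * ‖α‖ ^ p)) := by ring
    have h5 : ‖c (i + 1)‖ ^ p * (‖y‖ ^ i) ^ p * (δ * ‖α‖ ^ p)
        ≤ ‖c (i + 1) * y ^ (i + 1)‖ ^ p := by
      have e : ‖c (i + 1) * y ^ (i + 1)‖ ^ p = ‖c (i + 1)‖ ^ p * (‖y‖ ^ i) ^ p * ‖y‖ ^ p := by
        rw [norm_mul, norm_pow, mul_pow, pow_succ, mul_pow, ← mul_assoc]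
      rw [e]
      exact mul_le_mul_of_nonneg_left hα
        (mul_nonneg (pow_nonneg (norm_nonneg _) _) (pow_nonneg (pow_nonneg (norm_nonneg _) _) _))
    calc δ * ‖c (i + 1) * ((τ y) ^ (i + 1) - y ^ (i + 1))‖ ^ p
        ≤ δ * (‖c (i + 1)‖ * (θ * ‖α‖ * ‖y‖ ^ i)) ^ p := mul_le_mul_of_nonneg_left h3 hδ.le
      _ = θ ^ p * (‖c (i + 1)‖ ^ p * (‖y‖ ^ i) ^ p * (δ * ‖α‖ ^ p)) := h4
      _ ≤ θ ^ p * ‖c (i + 1) * y ^ (i + 1)‖ ^ p :=
          mul_le_mul_of_nonneg_left h5 (pow_nonneg hθ _)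
      _ ≤ θ ^ p * ϖ := mul_le_mul_of_nonneg_left (hterm' i hj') (pow_nonneg hθ _)
  rw [hτx]
  obtain ⟨j₁, hj₁, hle⟩ := IsUltrametricDist.exists_norm_finsetSum_le (range p)
    (fun j => c j * ((τ y) ^ j - y ^ j))
  have hj₁' := hj₁ ⟨0, Finset.mem_range.mpr hp.pos⟩
  calc δ * ‖∑ j ∈ range p, c j * ((τ y) ^ j - y ^ j)‖ ^ p
      ≤ δ * ‖c j₁ * ((τ y) ^ j₁ - y ^ j₁)‖ ^ p :=
        mul_le_mul_of_nonneg_left (pow_le_pow_left₀ (norm_nonneg _) hle p) hδ.le
    _ ≤ θ ^ p * ϖ := hbound j₁ hj₁'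

end Fermat.Agent.S56.FL.H59

end

end
-- ==== END Fermat.Agent.S56.FL.H59_KumNorm

-- ==== BEGIN Fermat.Agent.S56.FL.H61_CntCore
section

/-!
# LOC-p-FL, package CC2z, leaf CNT (helper61): the semilinear count

`stmt_CNT : H15.Stmt_CNT`.  `k`, `κ` fields of characteristic `p`, `k` finite.  The additive maps
`g : k → κ` with `g (y x) = z g x` and `g (w x) = t (g x)^{p²}` (`IsSemi`) take their values in the
root set `R` of one additive polynomial of degree `p^{2m}`, `m = [E(w) : E]`, `E = 𝔽_p(y)`, and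
vanish on a line `E(w) x` as soon as they vanish at `x`.  Evaluating at an `E(w)`-basis of `k`
and counting (`#R^d ≤ #E(w)^d = #k < #k²`) gives a linear dependency.
-/

set_option autoImplicit false
set_option linter.style.haveILetI false

noncomputable section

namespace Fermat.Agent.S56.FL.H61

open Polynomial IntermediateField

section Semi

variable (p : ℕ) [hp : Fact p.Prime] {k κ : Type} [Field k] [Field κ] [CharP k p] [CharP κ p]

/-- The semilinear additive maps. -/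
structure IsSemi (y w : k) (z t : κ) (g : k →+ κ) : Prop where
  hy : ∀ x, g (y * x) = z * g x
  hw : ∀ x, g (w * x) = t * g x ^ (p ^ 2)

/-- The combination `x ↦ f₁ (l₁ x) + f₂ (l₂ x)`. -/
def comb (f₁ f₂ : k →+ κ) (l₁ l₂ : k) : k →+ κ :=
  f₁.comp (AddMonoidHom.mulLeft l₁) + f₂.comp (AddMonoidHom.mulLeft l₂)

omit [CharP k p] [CharP κ p] in
@[simp] theorem comb_apply (f₁ f₂ : k →+ κ) (l₁ l₂ x : k) :
    comb f₁ f₂ l₁ l₂ x = f₁ (l₁ * x) + f₂ (l₂ * x) := rfl

omit [CharP k p] in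
theorem isSemi_comb {y w : k} {z t : κ} {f₁ f₂ : k →+ κ} (h₁ : IsSemi p y w z t f₁)
    (h₂ : IsSemi p y w z t f₂) (l₁ l₂ : k) : IsSemi p y w z t (comb f₁ f₂ l₁ l₂) where
  hy x := by
    rw [comb_apply, comb_apply, mul_left_comm l₁, mul_left_comm l₂, h₁.hy, h₂.hy, mul_add]
  hw x := by
    rw [comb_apply, comb_apply, mul_left_comm l₁, mul_left_comm l₂, h₁.hw, h₂.hw,
      add_pow_char_pow, mul_add]

/-- The iterated twists: `t_0 = 1`, `t_{j+1} = t * t_j^{p²}`. -/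
def tw (t : κ) : ℕ → κ
  | 0 => 1
  | j + 1 => t * tw t j ^ (p ^ 2)

omit [CharP κ p] hp in
theorem tw_ne_zero {t : κ} (ht : t ≠ 0) (j : ℕ) : tw p t j ≠ 0 := by
  induction j with
  | zero => exact one_ne_zero
  | succ j ih => exact mul_ne_zero ht (pow_ne_zero _ ih)

omit [CharP k p] [CharP κ p] hp in
theorem IsSemi.map_pow_mul {y w : k} {z t : κ} {g : k →+ κ} (h : IsSemi p y w z t g) (j : ℕ)
    (x : k) : g (w ^ j * x) = tw p t j * g x ^ (p ^ (2 * j)) := by
  induction j with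
  | zero => simp [tw]
  | succ j ih =>
    rw [pow_succ', mul_assoc, h.hw, ih, tw, mul_pow, ← pow_mul, mul_assoc]
    congr 2
    rw [← pow_add]
    congr 1

omit [CharP k p] [CharP κ p] hp in
theorem IsSemi.map_natCast_mul {y w : k} {z t : κ} {g : k →+ κ} (_h : IsSemi p y w z t g)
    (n : ℕ) (x : k) : g ((n : k) * x) = (n : κ) * g x := by
  rw [← nsmul_eq_mul, map_nsmul, nsmul_eq_mul]

end Semi

section Alg

variable (p : ℕ) [hp : Fact p.Prime] {k κ : Type} [Field k] [Field κ]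
  [Algebra (ZMod p) k] [Algebra (ZMod p) κ]

theorem algebraMap_zmod_eq_natCast (A : Type) [Field A] [Algebra (ZMod p) A] [NeZero p]
    (a : ZMod p) : algebraMap (ZMod p) A a = ((a.val : ℕ) : A) := by
  conv_lhs => rw [← ZMod.natCast_zmod_val a]
  rw [map_natCast]

/-- semilinearity with respect to polynomials in `y` over `𝔽_p`. -/
theorem IsSemi.map_aeval_mul {y w : k} {z t : κ} {g : k →+ κ} (h : IsSemi p y w z t g)
    (P : (ZMod p)[X]) (x : k) : g (aeval y P * x) = aeval z P * g x := by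
  haveI : NeZero p := ⟨hp.out.ne_zero⟩
  induction P using Polynomial.induction_on generalizing x with
  | C a =>
    rw [aeval_C, aeval_C, algebraMap_zmod_eq_natCast, algebraMap_zmod_eq_natCast,
      h.map_natCast_mul]
  | add P Q hP hQ =>
    rw [map_add, map_add, add_mul, add_mul, map_add, hP, hQ]
  | monomial n a ih =>
    have e1 : aeval y (C a * X ^ (n + 1)) = aeval y (C a * X ^ n) * y := by
      rw [pow_succ, ← mul_assoc, _root_.map_mul (aeval y), aeval_X]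
    have e2 : aeval z (C a * X ^ (n + 1)) = aeval z (C a * X ^ n) * z := by
      rw [pow_succ, ← mul_assoc, _root_.map_mul (aeval z), aeval_X]
    rw [e1, e2, mul_assoc, ih, h.hy, mul_assoc]

end Alg

section Core

variable (p : ℕ) [hp : Fact p.Prime] {k κ : Type} [Field k] [Finite k] [Field κ]
  [Algebra (ZMod p) k] [Algebra (ZMod p) κ]

/-- The field `E = 𝔽_p(y)`. -/
abbrev fE (y : k) : IntermediateField (ZMod p) k := (ZMod p)⟮y⟯

/-- The field `E(w)`. -/
abbrev fK (y w : k) : IntermediateField (fE p y) k := (fE p y)⟮w⟯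

/-- The elements of `E` are polynomials in `y`. -/
theorem exists_aeval_eq (y : k) (e : fE p y) : ∃ P : (ZMod p)[X], (e : k) = aeval y P := by
  have hy : IsAlgebraic (ZMod p) y := (IsIntegral.of_finite (ZMod p) y).isAlgebraic
  have h1 := IntermediateField.adjoin_simple_toSubalgebra_of_isAlgebraic hy
  have he : (e : k) ∈ ((ZMod p)⟮y⟯).toSubalgebra := e.2
  rw [h1, Algebra.adjoin_singleton_eq_range_aeval] at he
  obtain ⟨P, hP⟩ := he
  exact ⟨P, hP.symm⟩

/-- Semilinearity along `E`. -/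
theorem exists_scalar (y w : k) (z t : κ) (e : fE p y) :
    ∃ c : κ, ∀ g : k →+ κ, IsSemi p y w z t g → ∀ x, g ((e : k) * x) = c * g x := by
  obtain ⟨P, hP⟩ := exists_aeval_eq p y e
  exact ⟨aeval z P, fun g hg x => by rw [hP, hg.map_aeval_mul]⟩

/-- Vanishing propagates along the lines `E[w] x`. -/
theorem IsSemi.map_mul_eq_zero_aux {y w : k} {z t : κ} {g : k →+ κ} (h : IsSemi p y w z t g)
    {c : k} (hc : c ∈ Algebra.adjoin (fE p y) {w}) : ∀ x : k, g x = 0 → g (c * x) = 0 := by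
  induction hc using Algebra.adjoin_induction with
  | mem c hc =>
    intro x hx
    rw [Set.mem_singleton_iff] at hc
    rw [hc, h.hw, hx, zero_pow (pow_ne_zero 2 hp.out.ne_zero), mul_zero]
  | algebraMap e =>
    intro x hx
    obtain ⟨c, hc⟩ := exists_scalar p y w z t e
    have := hc g h x
    rw [hx, mul_zero] at this
    exact this
  | add a b _ _ ha hb =>
    intro x hx
    rw [add_mul, map_add, ha x hx, hb x hx, add_zero]
  | mul a b _ _ ha hb =>
    intro x hx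
    rw [mul_assoc]
    exact ha _ (hb x hx)

/-- Vanishing propagates along the lines `E(w) x`. -/
theorem IsSemi.map_mul_eq_zero {y w : k} {z t : κ} {g : k →+ κ} (h : IsSemi p y w z t g)
    {c : k} (hc : c ∈ fK p y w) {x : k} (hx : g x = 0) : g (c * x) = 0 := by
  have hw : IsAlgebraic (fE p y) w := (IsIntegral.of_finite (fE p y) w).isAlgebraic
  have h1 := IntermediateField.adjoin_simple_toSubalgebra_of_isAlgebraic hw
  have hc' : c ∈ ((fE p y)⟮w⟯).toSubalgebra := hc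
  rw [h1] at hc'
  exact h.map_mul_eq_zero_aux p hc' x hx

/-- The values of the semilinear maps lie in a set with at most `p^{2m}` elements. -/
theorem exists_root_set (y w : k) (z t : κ) (ht : t ≠ 0) :
    ∃ R : Finset κ, R.card ≤ p ^ (2 * (minpoly (fE p y) w).natDegree) ∧
      ∀ g : k →+ κ, IsSemi p y w z t g → ∀ x, g x ∈ R := by
  classical
  have hw : IsIntegral (fE p y) w := IsIntegral.of_finite _ _
  have hmonic : (minpoly (fE p y) w).Monic := minpoly.monic hw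
  choose c hc using fun j : ℕ => exists_scalar p y w z t ((minpoly (fE p y) w).coeff j)
  generalize hm : (minpoly (fE p y) w).natDegree = m at *
  let A : κ[X] := C (tw p t m) * X ^ (p ^ (2 * m)) +
    ∑ j ∈ Finset.range m, C (c j * tw p t j) * X ^ (p ^ (2 * j))
  have hA_coeff : A.coeff (p ^ (2 * m)) = tw p t m := by
    simp only [A, coeff_add, coeff_C_mul, coeff_X_pow, if_true, mul_one, finsetSum_coeff]
    rw [Finset.sum_eq_zero, add_zero]
    intro j hj
    rw [Finset.mem_range] at hj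
    have hne : p ^ (2 * m) ≠ p ^ (2 * j) := by
      intro h
      have := Nat.pow_right_injective hp.out.two_le h
      omega
    rw [if_neg hne, mul_zero]
  have hA0 : A ≠ 0 := by
    intro h
    rw [h, coeff_zero] at hA_coeff
    exact tw_ne_zero p ht m hA_coeff.symm
  have hAdeg : A.natDegree ≤ p ^ (2 * m) := by
    refine (natDegree_add_le _ _).trans (max_le (natDegree_C_mul_X_pow_le _ _) ?_)
    refine natDegree_sum_le_of_forall_le _ _ ?_
    intro j hj
    rw [Finset.mem_range] at hj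
    refine (natDegree_C_mul_X_pow_le _ _).trans ?_
    exact Nat.pow_le_pow_right hp.out.pos (by omega)
  refine ⟨A.roots.toFinset, ?_, fun g hg x => ?_⟩
  · exact (Multiset.toFinset_card_le _).trans ((card_roots' A).trans hAdeg)
  · rw [Multiset.mem_toFinset, mem_roots hA0, IsRoot.def]
    have hQw : aeval w (minpoly (fE p y) w) = 0 := minpoly.aeval _ _
    have hsum : w ^ m +
        ∑ j ∈ Finset.range m, (((minpoly (fE p y) w).coeff j : fE p y) : k) * w ^ j = 0 := by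
      rw [← hQw, aeval_eq_sum_range, hm, Finset.sum_range_succ, ← hm, hmonic.coeff_natDegree,
        one_smul, add_comm]
      congr 1
    simp only [A, eval_add, eval_mul, eval_C, eval_pow, eval_X, eval_finsetSum]
    have e1 : tw p t m * g x ^ (p ^ (2 * m)) = g (w ^ m * x) := (hg.map_pow_mul p m x).symm
    have e2 : ∀ j, c j * tw p t j * g x ^ (p ^ (2 * j))
        = g ((((minpoly (fE p y) w).coeff j : fE p y) : k) * (w ^ j * x)) := by
      intro j
      rw [hc j g hg, hg.map_pow_mul, mul_assoc]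
    rw [e1, Finset.sum_congr rfl (fun j _ => e2 j), ← map_sum, ← map_add]
    have h0 : w ^ m * x + ∑ j ∈ Finset.range m,
        (((minpoly (fE p y) w).coeff j : fE p y) : k) * (w ^ j * x) = 0 := by
      have := congrArg (· * x) hsum
      simp only [add_mul, Finset.sum_mul, zero_mul, mul_assoc] at this
      exact this
    rw [h0, map_zero]

/-- `#E ≥ p²` if `y ∉ 𝔽_p`. -/
theorem sq_le_card_fE (y : k) (hy : y ∉ Set.range (algebraMap (ZMod p) k)) :
    p ^ 2 ≤ Nat.card (fE p y) := by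
  have h1 : Nat.card (fE p y) = Nat.card (ZMod p) ^ Module.finrank (ZMod p) (fE p y) :=
    Module.natCard_eq_pow_finrank
  rw [h1, Nat.card_zmod]
  refine Nat.pow_le_pow_right hp.out.pos ?_
  have hpos : 0 < Module.finrank (ZMod p) (fE p y) := Module.finrank_pos
  have hne1 : Module.finrank (ZMod p) (fE p y) ≠ 1 := by
    intro h
    rw [IntermediateField.finrank_adjoin_simple_eq_one_iff] at h
    exact hy (IntermediateField.mem_bot.1 h)
  omega

/-- **The semilinear count.** -/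
theorem cnt_core [CharP κ p] (y w : k) (z t : κ) (ht : t ≠ 0) (hz : z ^ p ≠ z)
    (f₁ f₂ : k →+ κ) (h₁ : IsSemi p y w z t f₁) (h₂ : IsSemi p y w z t f₂) :
    ∃ l₁ l₂ : k, (l₁ ≠ 0 ∨ l₂ ≠ 0) ∧ ∀ x, f₁ (l₁ * x) + f₂ (l₂ * x) = 0 := by
  classical
  by_cases hf : f₁ = 0
  · exact ⟨1, 0, Or.inl one_ne_zero, fun x => by simp [hf]⟩
  obtain ⟨x₀, hx₀⟩ : ∃ x₀, f₁ x₀ ≠ 0 := by
    by_contra hcon
    simp only [not_exists, not_not] at hcon
    exact hf (AddMonoidHom.ext hcon)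
  -- `y ∉ 𝔽_p`
  have hy : y ∉ Set.range (algebraMap (ZMod p) k) := by
    rintro ⟨a, rfl⟩
    have e := h₁.map_aeval_mul p (C a) x₀
    rw [aeval_C, aeval_C] at e
    have e' := h₁.hy x₀
    rw [e] at e'
    have hza : z = algebraMap (ZMod p) κ a := (mul_right_cancel₀ hx₀ e').symm
    apply hz
    rw [hza, ← map_pow, ZMod.pow_card]
  obtain ⟨R, hRcard, hR⟩ := exists_root_set p y w z t ht
  -- cardinalities
  have hK : Nat.card (fK p y w) = Nat.card (fE p y) ^ (minpoly (fE p y) w).natDegree := by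
    rw [Module.natCard_eq_pow_finrank (K := fE p y) (V := fK p y w),
      IntermediateField.adjoin.finrank (IsIntegral.of_finite _ _)]
  have hRK : R.card ≤ Nat.card (fK p y w) := by
    rw [hK]
    calc R.card ≤ p ^ (2 * (minpoly (fE p y) w).natDegree) := hRcard
      _ = (p ^ 2) ^ (minpoly (fE p y) w).natDegree := by rw [pow_mul]
      _ ≤ _ := Nat.pow_le_pow_left (sq_le_card_fE p y hy) _
  have hk : Nat.card k = Nat.card (fK p y w) ^ Module.finrank (fK p y w) k :=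
    Module.natCard_eq_pow_finrank
  let b := Module.finBasis (fK p y w) k
  -- the evaluation map
  let ev : k × k → (Fin (Module.finrank (fK p y w) k) → R) := fun l i =>
    ⟨comb f₁ f₂ l.1 l.2 (b i), hR _ (isSemi_comb p h₁ h₂ l.1 l.2) _⟩
  have hlt : Nat.card (Fin (Module.finrank (fK p y w) k) → R) < Nat.card (k × k) := by
    rw [Nat.card_fun, Nat.card_prod, Nat.card_eq_fintype_card (α := Fin _), Fintype.card_fin,
      Nat.card_eq_fintype_card (α := R), Fintype.card_coe]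
    calc R.card ^ Module.finrank (fK p y w) k
        ≤ Nat.card (fK p y w) ^ Module.finrank (fK p y w) k := Nat.pow_le_pow_left hRK _
      _ = Nat.card k := hk.symm
      _ < Nat.card k * Nat.card k := by
          have : 1 < Nat.card k := Finite.one_lt_card
          nlinarith
  obtain ⟨l, l', hne, heq⟩ : ∃ l l', l ≠ l' ∧ ev l = ev l' := by
    haveI := Fintype.ofFinite k
    exact Fintype.exists_ne_map_eq_of_card_lt ev
      (by rwa [← Nat.card_eq_fintype_card, ← Nat.card_eq_fintype_card])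
  refine ⟨l.1 - l'.1, l.2 - l'.2, ?_, ?_⟩
  · by_contra hcon
    simp only [not_or, not_not, sub_eq_zero] at hcon
    exact hne (Prod.ext hcon.1 hcon.2)
  · have hg : IsSemi p y w z t (comb f₁ f₂ (l.1 - l'.1) (l.2 - l'.2)) :=
      isSemi_comb p h₁ h₂ _ _
    have hb : ∀ i, comb f₁ f₂ (l.1 - l'.1) (l.2 - l'.2) (b i) = 0 := by
      intro i
      have := congrArg (fun φ => (φ i : κ)) heq
      simp only [ev, comb_apply] at this
      rw [comb_apply, sub_mul, sub_mul, map_sub, map_sub]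
      linear_combination this
    intro x
    rw [← comb_apply, ← b.sum_repr x, map_sum]
    refine Finset.sum_eq_zero fun i _ => ?_
    exact hg.map_mul_eq_zero p (b.repr x i).2 (hb i)

end Core

end Fermat.Agent.S56.FL.H61

end
end
-- ==== END Fermat.Agent.S56.FL.H61_CntCore
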