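-- GENERATED (merged mirror, NOTES/tools/trim/merge3_helper67.py): 9 modules of the originals, bodies verbatim.
import Mathlib
import Fermat.Agent.Zm.S56_L01_005
import Fermat.Agent.Zm.S56_L01_004

-- ==== BEGIN Fermat.Agent.S56.FL.H50_LiftA
section

set_option autoImplicit false

/-!
# LOC-p-FL, package LIFT-a: uniqueness of `p`-th roots of unity near `1`

Also provides the coordinate sup-norm `cnorm` on a finite free `𝒪_F`-algebra (reusable for LIFT-b,
PM, CONN): ultrametric, submultiplicative, `cnorm (r • z) = ‖r‖₊ * cnorm z`.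
-/

noncomputable section

namespace Fermat.Agent.S56.FL.H50

open scoped NNReal
open Fermat.Agent.S56.FL

variable {p : ℕ} [Fact p.Prime] {F : IntermediateField ℚ_[p] (PadicAlgCl p)}
variable {C : Type} [CommRing C] [Algebra (intRing p F) C]
variable {ι : Type} [Fintype ι] (b : Module.Basis ι (intRing p F) C)

/-- The sup-norm of the coordinates of `z` in the basis `b`. -/
def cnorm (z : C) : ℝ≥0 := Finset.univ.sup fun i => ‖((b.repr z i : intRing p F) : PadicAlgCl p)‖₊

theorem cnorm_le_iff {z : C} {B : ℝ≥0} :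
    cnorm b z ≤ B ↔ ∀ i, ‖((b.repr z i : intRing p F) : PadicAlgCl p)‖₊ ≤ B := by
  simp [cnorm, Finset.sup_le_iff]

theorem coord_le_cnorm (z : C) (i : ι) :
    ‖((b.repr z i : intRing p F) : PadicAlgCl p)‖₊ ≤ cnorm b z :=
  Finset.le_sup (f := fun i => ‖((b.repr z i : intRing p F) : PadicAlgCl p)‖₊) (Finset.mem_univ i)

theorem nnnorm_intRing_le_one (r : intRing p F) : ‖(r : PadicAlgCl p)‖₊ ≤ 1 := r.2.2

theorem cnorm_le_one (z : C) : cnorm b z ≤ 1 :=
  (cnorm_le_iff b).2 fun _ => nnnorm_intRing_le_one _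

theorem cnorm_zero : cnorm b (0 : C) = 0 := by
  apply le_antisymm _ bot_le
  rw [cnorm_le_iff]; intro i; simp

theorem cnorm_add_le (z w : C) : cnorm b (z + w) ≤ max (cnorm b z) (cnorm b w) := by
  rw [cnorm_le_iff]
  intro i
  rw [map_add, Finsupp.add_apply, Subring.coe_add]
  have h := IsUltrametricDist.norm_add_le_max ((b.repr z i : intRing p F) : PadicAlgCl p)
    ((b.repr w i : intRing p F) : PadicAlgCl p)
  have h' : ‖((b.repr z i : intRing p F) : PadicAlgCl p) + ((b.repr w i : intRing p F) : PadicAlgCl p)‖₊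
      ≤ max ‖((b.repr z i : intRing p F) : PadicAlgCl p)‖₊
        ‖((b.repr w i : intRing p F) : PadicAlgCl p)‖₊ := by
    exact_mod_cast h
  exact h'.trans (max_le_max (coord_le_cnorm b z i) (coord_le_cnorm b w i))

theorem cnorm_neg (z : C) : cnorm b (-z) = cnorm b z := by
  simp [cnorm]

theorem cnorm_sum_le {α : Type} (s : Finset α) (f : α → C) (B : ℝ≥0)
    (h : ∀ a ∈ s, cnorm b (f a) ≤ B) : cnorm b (∑ a ∈ s, f a) ≤ B := by
  classical
  induction s using Finset.induction_on with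
  | empty => simp [cnorm_zero]
  | insert a s ha ih =>
    rw [Finset.sum_insert ha]
    exact (cnorm_add_le b _ _).trans (max_le (h a (Finset.mem_insert_self a s))
      (ih fun x hx => h x (Finset.mem_insert_of_mem hx)))

theorem cnorm_smul (r : intRing p F) (z : C) :
    cnorm b (r • z) = ‖(r : PadicAlgCl p)‖₊ * cnorm b z := by
  simp only [cnorm, map_smul, Finsupp.smul_apply, smul_eq_mul, Subring.coe_mul, nnnorm_mul]
  rw [NNReal.mul_finset_sup]

theorem cnorm_eq_zero {z : C} (h : cnorm b z = 0) : z = 0 := by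
  have h1 : ∀ i, b.repr z i = 0 := fun i => by
    have := coord_le_cnorm b z i
    rw [h] at this
    have h2 : ‖((b.repr z i : intRing p F) : PadicAlgCl p)‖₊ = 0 := le_antisymm this bot_le
    rw [nnnorm_eq_zero] at h2
    exact Subtype.ext h2
  apply b.repr.injective
  ext i
  simpa using h1 i

theorem cnorm_mul_le (z w : C) : cnorm b (z * w) ≤ cnorm b z * cnorm b w := by
  have hz : z = ∑ i, b.repr z i • b i := (b.sum_repr z).symm
  have hw : w = ∑ j, b.repr w j • b j := (b.sum_repr w).symm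
  have : z * w = ∑ i, ∑ j, (b.repr z i * b.repr w j) • (b i * b j) := by
    conv_lhs => rw [hz, hw]
    rw [Finset.sum_mul]
    refine Finset.sum_congr rfl fun i _ => ?_
    rw [Finset.mul_sum]
    refine Finset.sum_congr rfl fun j _ => ?_
    rw [smul_mul_smul_comm]
  rw [this]
  refine cnorm_sum_le b _ _ _ fun i _ => cnorm_sum_le b _ _ _ fun j _ => ?_
  rw [cnorm_smul, Subring.coe_mul, nnnorm_mul]
  calc ‖((b.repr z i : intRing p F) : PadicAlgCl p)‖₊ * ‖((b.repr w j : intRing p F) : PadicAlgCl p)‖₊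
        * cnorm b (b i * b j)
      ≤ cnorm b z * cnorm b w * 1 :=
        mul_le_mul' (mul_le_mul' (coord_le_cnorm b z i) (coord_le_cnorm b w j)) (cnorm_le_one b _)
    _ = cnorm b z * cnorm b w := mul_one _

theorem cnorm_pow_le (z : C) (n : ℕ) (hn : n ≠ 0) : cnorm b (z ^ n) ≤ cnorm b z ^ n := by
  induction n with
  | zero => exact absurd rfl hn
  | succ m ih =>
    rcases Nat.eq_zero_or_pos m with rfl | hm
    · simp
    · rw [pow_succ, pow_succ]
      exact (cnorm_mul_le b _ _).trans (mul_le_mul' (ih hm.ne') le_rfl)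

theorem cnorm_le_of_mem_map {c : ℝ≥0} {z : C}
    (hz : z ∈ Ideal.map (algebraMap (intRing p F) C) (ballIdeal p F c)) : cnorm b z ≤ c := by
  rw [Ideal.map, Ideal.span] at hz
  induction hz using Submodule.span_induction with
  | mem x hx =>
    obtain ⟨r, hr, rfl⟩ := hx
    rw [Algebra.algebraMap_eq_smul_one, cnorm_smul]
    have hr' : ‖(r : PadicAlgCl p)‖₊ ≤ c := by
      have := (mem_ballIdeal p).1 hr
      exact_mod_cast this
    calc ‖(r : PadicAlgCl p)‖₊ * cnorm b (1 : C) ≤ c * 1 := mul_le_mul' hr' (cnorm_le_one b _)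
      _ = c := mul_one _
  | zero => simp [cnorm_zero]
  | add x y _ _ hx hy => exact (cnorm_add_le b x y).trans (max_le hx hy)
  | smul a x _ hx =>
    rw [smul_eq_mul]
    calc cnorm b (a * x) ≤ cnorm b a * cnorm b x := cnorm_mul_le b _ _
      _ ≤ 1 * c := mul_le_mul' (cnorm_le_one b _) hx
      _ = c := one_mul _

/-- `n • z` for a natural number `n`: the norm is multiplied by `‖n‖₊`. -/
theorem cnorm_natCast_mul (n : ℕ) (z : C) :
    cnorm b ((n : C) * z) = ‖(n : PadicAlgCl p)‖₊ * cnorm b z := by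
  have : (n : C) * z = ((n : intRing p F)) • z := by
    rw [Algebra.smul_def, map_natCast]
  rw [this, cnorm_smul]
  simp

theorem nnnorm_natCast_le_one (n : ℕ) : ‖(n : PadicAlgCl p)‖₊ ≤ 1 := by
  have h : ((n : intRing p (⊥ : IntermediateField ℚ_[p] (PadicAlgCl p))) : PadicAlgCl p)
      = (n : PadicAlgCl p) := by simp
  rw [← h]
  exact nnnorm_intRing_le_one (p := p) (F := ⊥) _

theorem nnnorm_p : ‖(p : PadicAlgCl p)‖₊ = (p : ℝ≥0)⁻¹ := by
  have := PadicAlgCl.valuation_p p
  rw [PadicAlgCl.valuation_def] at this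
  rw [this, one_div]


theorem nnnorm_choose_le {m : ℕ} (hm0 : m ≠ 0) (hmp : m < p) :
    ‖((p.choose m : ℕ) : PadicAlgCl p)‖₊ ≤ (p : ℝ≥0)⁻¹ := by
  obtain ⟨q, hq⟩ := Nat.Prime.dvd_choose_self (Fact.out : p.Prime) hm0 hmp
  rw [hq, Nat.cast_mul, nnnorm_mul, nnnorm_p]
  calc (p : ℝ≥0)⁻¹ * ‖(q : PadicAlgCl p)‖₊ ≤ (p : ℝ≥0)⁻¹ * 1 :=
        mul_le_mul' le_rfl (nnnorm_natCast_le_one q)
    _ = (p : ℝ≥0)⁻¹ := mul_one _

/-- The binomial expansion of `(1 + z)^p` with the terms `m = 0, 1, p` split off. -/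
theorem one_add_pow_prime (z : C) :
    (1 + z) ^ p = 1 + (p : C) * z + (∑ m ∈ Finset.Ico 2 p, (p.choose m : C) * z ^ m) + z ^ p := by
  have hp2 : 2 ≤ p := (Fact.out : p.Prime).two_le
  rw [add_comm 1 z, add_pow, Finset.range_eq_Ico,
    Finset.sum_eq_sum_Ico_succ_bot (by omega : 0 < p + 1),
    Finset.sum_eq_sum_Ico_succ_bot (by omega : 0 + 1 < p + 1),
    Finset.sum_Ico_succ_top (by omega : 0 + 1 + 1 ≤ p)]
  simp only [one_pow, mul_one, pow_zero, Nat.choose_zero_right, Nat.cast_one, zero_add, pow_one,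
    Nat.choose_one_right, Nat.choose_self]
  have : (∑ m ∈ Finset.Ico (1 + 1) p, z ^ m * (p.choose m : C))
      = ∑ m ∈ Finset.Ico 2 p, (p.choose m : C) * z ^ m :=
    Finset.sum_congr rfl fun m _ => mul_comm _ _
  rw [this]
  ring

theorem lift_a_core {c : ℝ≥0} (hc : c ^ (p - 1) < (p : ℝ≥0)⁻¹) (z : C) (hz : cnorm b z ≤ c)
    (h : (1 + z) ^ p = 1) : z = 0 := by
  have hp : p.Prime := Fact.out
  have hp2 : 2 ≤ p := hp.two_le
  set t := cnorm b z with ht
  by_contra hne
  have ht0 : t ≠ 0 := fun h0 => hne (cnorm_eq_zero b h0)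
  have htpos : 0 < t := pos_iff_ne_zero.2 ht0
  have hppos : (0 : ℝ≥0) < (p : ℝ≥0)⁻¹ := by
    rw [inv_pos]; exact_mod_cast hp.pos
  have hplt : (p : ℝ≥0)⁻¹ < 1 := by
    rw [inv_lt_one₀ (by exact_mod_cast hp.pos)]; exact_mod_cast hp.one_lt
  have hc1 : c < 1 := by
    by_contra hcon
    have hcon' : (1 : ℝ≥0) ≤ c := not_lt.1 hcon
    have : (1 : ℝ≥0) ≤ c ^ (p - 1) := one_le_pow₀ hcon'
    exact absurd (this.trans_lt hc) (not_lt.2 hplt.le)
  have ht1 : t < 1 := hz.trans_lt hc1
  -- the equation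
  have heq : (p : C) * z = -((∑ m ∈ Finset.Ico 2 p, (p.choose m : C) * z ^ m) + z ^ p) := by
    have := one_add_pow_prime (p := p) z
    rw [h] at this
    have h2 : (p : C) * z + ((∑ m ∈ Finset.Ico 2 p, (p.choose m : C) * z ^ m) + z ^ p) = 0 := by
      have h3 : (1 : C) + ((p : C) * z + ((∑ m ∈ Finset.Ico 2 p, (p.choose m : C) * z ^ m) + z ^ p))
          = 1 + 0 := by
        rw [add_zero]
        calc (1 : C) + ((p : C) * z + ((∑ m ∈ Finset.Ico 2 p, (p.choose m : C) * z ^ m) + z ^ p))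
            = 1 + (p : C) * z + (∑ m ∈ Finset.Ico 2 p, (p.choose m : C) * z ^ m) + z ^ p := by
              simp only [add_assoc]
          _ = 1 := this.symm
      exact add_left_cancel h3
    exact eq_neg_of_add_eq_zero_left h2
  have hL : cnorm b ((p : C) * z) = (p : ℝ≥0)⁻¹ * t := by
    rw [cnorm_natCast_mul, nnnorm_p]
  have hS : cnorm b (∑ m ∈ Finset.Ico 2 p, (p.choose m : C) * z ^ m) ≤ (p : ℝ≥0)⁻¹ * t ^ 2 := by
    refine cnorm_sum_le b _ _ _ fun m hm => ?_
    rw [Finset.mem_Ico] at hm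
    rw [cnorm_natCast_mul]
    refine mul_le_mul' (nnnorm_choose_le (by omega) hm.2) ?_
    refine (cnorm_pow_le b z m (by omega)).trans ?_
    exact pow_le_pow_of_le_one bot_le ht1.le hm.1
  have hP : cnorm b (z ^ p) ≤ t ^ p := cnorm_pow_le b z p hp.ne_zero
  have hR : (p : ℝ≥0)⁻¹ * t ≤ max ((p : ℝ≥0)⁻¹ * t ^ 2) (t ^ p) := by
    rw [← hL, heq, cnorm_neg]
    exact (cnorm_add_le b _ _).trans (max_le_max hS hP)
  rcases le_max_iff.1 hR with hA | hB
  · -- t ≤ t^2, impossible
    have h1 : t ≤ t ^ 2 := by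
      have := (mul_le_mul_iff_right₀ hppos).1 hA
      exact this
    have h2 : t ^ 2 < t := by
      calc t ^ 2 = t * t := sq t
        _ < 1 * t := mul_lt_mul_of_pos_right ht1 htpos
        _ = t := one_mul t
    exact absurd h1 (not_le.2 h2)
  · -- p⁻¹ ≤ t^(p-1) ≤ c^(p-1)
    have h1 : t ^ p = t ^ (p - 1) * t := by
      rw [← pow_succ]; congr 1; omega
    rw [h1] at hB
    have h2 : (p : ℝ≥0)⁻¹ ≤ t ^ (p - 1) := (mul_le_mul_iff_left₀ htpos).1 hB
    have h3 : t ^ (p - 1) ≤ c ^ (p - 1) := pow_le_pow_left₀ bot_le hz _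
    exact absurd (h2.trans h3) (not_le.2 hc)

/-- **LIFT-a.** -/
theorem stmt_LIFT_a : Stmt_LIFT_a := by
  intro p _ F C _ _ _ _ c hc u hu hmem
  let b := Module.Free.chooseBasis (intRing p F) C
  have hz : cnorm b (u - 1) ≤ c := cnorm_le_of_mem_map b hmem
  have h : (1 + (u - 1)) ^ p = 1 := by rw [add_sub_cancel]; exact hu
  have := lift_a_core b hc (u - 1) hz h
  exact sub_eq_zero.1 this

end Fermat.Agent.S56.FL.H50

end

end
-- ==== END Fermat.Agent.S56.FL.H50_LiftA

-- ==== BEGIN Fermat.Agent.S56.FL.H54_PMPsi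
section

/-!
# LOC-p-FL, package PM (helper54): the multiplicative map `f ↦ (a ⊗ b ↦ f a * f b)`

`psiHom : WithConv (H →ₗ A) →* WithConv (H ⊗ H →ₗ A)` and
`muHom : WithConv (H →ₗ A) →+* WithConv (H ⊗ H →ₗ A)`, `f ↦ (a ⊗ b ↦ f (a * b))`.
An element `f` with `psiHom f = muHom f` and `f 1 = 1` is an algebra homomorphism.
-/

set_option autoImplicit false
set_option linter.unusedSectionVars false

open scoped TensorProduct
open WithConv

namespace Fermat.Agent.S56.FL.H54

section Psi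

variable {R₀ : Type} [CommRing R₀] {H : Type} [CommRing H] [Bialgebra R₀ H]
  [Coalgebra.IsCocomm R₀ H]
variable {A : Type} [CommRing A] [Algebra R₀ A]

/-- `f ↦ (a ⊗ b ↦ f a * f b)`, a multiplicative map of convolution rings. -/
noncomputable def psiHom : WithConv (H →ₗ[R₀] A) →* WithConv ((H ⊗[R₀] H) →ₗ[R₀] A) where
  toFun f := toConv ((LinearMap.mul' R₀ A).comp (TensorProduct.map f.ofConv f.ofConv))
  map_one' := by
    apply WithConv.ext
    apply TensorProduct.ext'
    intro a b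
    show algebraMap R₀ A (Coalgebra.counit (R := R₀) a) *
        algebraMap R₀ A (Coalgebra.counit (R := R₀) b) =
      algebraMap R₀ A (Coalgebra.counit (R := R₀) (a ⊗ₜ[R₀] b))
    rw [← map_mul]
    congr 1
    simp [mul_comm]
  map_mul' f g := by
    have h1 := TensorProduct.map_convMul_map (R := R₀) (f := f) (h := g) (g := f) (k := g)
    have h2 := congrArg (postC (Algebra.TensorProduct.lmul' R₀ (S := A))) h1
    rw [map_mul] at h2
    exact h2.symm

@[simp] lemma psiHom_tmul (f : WithConv (H →ₗ[R₀] A)) (a b : H) :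
    psiHom f (a ⊗ₜ[R₀] b) = f a * f b := rfl

/-- `f ↦ (a ⊗ b ↦ f (a * b))`, a ring homomorphism of convolution rings. -/
noncomputable def muHom : WithConv (H →ₗ[R₀] A) →+* WithConv ((H ⊗[R₀] H) →ₗ[R₀] A) :=
  preC (Bialgebra.mulCoalgHom R₀ H)

@[simp] lemma muHom_tmul (f : WithConv (H →ₗ[R₀] A)) (a b : H) :
    muHom f (a ⊗ₜ[R₀] b) = f (a * b) := rfl

/-- An element `f` of the convolution ring with `f 1 = 1` and `psiHom f = muHom f` is an algebra
homomorphism. -/
noncomputable def algHomOfPsi (f : WithConv (H →ₗ[R₀] A)) (h1 : f 1 = 1)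
    (hmul : muHom f = psiHom f) : H →ₐ[R₀] A :=
  AlgHom.ofLinearMap f.ofConv h1 (fun a b => by
    have := congrArg (fun g : WithConv ((H ⊗[R₀] H) →ₗ[R₀] A) => g (a ⊗ₜ[R₀] b)) hmul
    exact this)

@[simp] lemma algHomOfPsi_apply (f : WithConv (H →ₗ[R₀] A)) (h1 : f 1 = 1)
    (hmul : muHom f = psiHom f) (x : H) : algHomOfPsi f h1 hmul x = f x := rfl

end Psi

end Fermat.Agent.S56.FL.H54

end
-- ==== END Fermat.Agent.S56.FL.H54_PMPsi

-- ==== BEGIN Fermat.Agent.S56.FL.LF.H15_Depth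
section

set_option autoImplicit false

/-!
# LOC-p-FL, LF basics (helper15), part 1: isometry of automorphisms, API for `depth`,
discreteness of the value group and existence of a uniformizer.

Setting of `Fermat/Agent/S56/FL/Local.lean`: `K̄ = PadicAlgCl p`, `L` an intermediate field of
`K̄/ℚ_p`.  All norms are taken in `K̄`.
-/

noncomputable section

namespace Fermat.Agent.S56.FL.H15

open scoped NNReal
open Fermat.Agent.S56.FL

variable (p : ℕ) [Fact p.Prime]

/-- The norm of `K̄` only depends on the minimal polynomial over `ℚ_p`. -/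
theorem norm_eq_of_minpoly_eq {x y : PadicAlgCl p}
    (h : minpoly ℚ_[p] x = minpoly ℚ_[p] y) : ‖x‖ = ‖y‖ := by
  rw [← PadicAlgCl.spectralNorm_eq, ← PadicAlgCl.spectralNorm_eq]
  simp only [spectralNorm, h]

variable {p}

/-- A `ℚ_p`-algebra homomorphism from an intermediate field to `K̄` preserves the norm. -/
theorem norm_algHom {L : IntermediateField ℚ_[p] (PadicAlgCl p)}
    (f : L →ₐ[ℚ_[p]] PadicAlgCl p) (a : L) : ‖f a‖ = ‖(a : PadicAlgCl p)‖ := by
  apply norm_eq_of_minpoly_eq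
  rw [minpoly.algHom_eq f f.injective a]
  exact (minpoly.algebraMap_eq (algebraMap L (PadicAlgCl p)).injective a).symm

/-- Automorphisms of `L/ℚ_p` are isometries. -/
theorem norm_algEquiv {L : IntermediateField ℚ_[p] (PadicAlgCl p)}
    (σ : L ≃ₐ[ℚ_[p]] L) (a : L) : ‖((σ a : L) : PadicAlgCl p)‖ = ‖(a : PadicAlgCl p)‖ :=
  norm_algHom (L.val.comp (σ : L →ₐ[ℚ_[p]] L)) a

theorem norm_algEquiv_sub {L : IntermediateField ℚ_[p] (PadicAlgCl p)}
    (σ : L ≃ₐ[ℚ_[p]] L) (a b : L) :
    ‖((σ a : L) : PadicAlgCl p) - ((σ b : L) : PadicAlgCl p)‖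
      = ‖(a : PadicAlgCl p) - (b : PadicAlgCl p)‖ := by
  have := norm_algEquiv σ (a - b)
  simpa using this

/-! ### API for `depth` -/

theorem norm_sub_le_one {L : IntermediateField ℚ_[p] (PadicAlgCl p)}
    (σ : L ≃ₐ[ℚ_[p]] L) {a : L} (ha : ‖(a : PadicAlgCl p)‖ ≤ 1) :
    ‖((σ a : L) : PadicAlgCl p) - (a : PadicAlgCl p)‖ ≤ 1 := by
  rw [sub_eq_add_neg]
  refine (IsUltrametricDist.norm_add_le_max _ _).trans (max_le ?_ ?_)
  · rw [norm_algEquiv]; exact ha
  · rw [norm_neg]; exact ha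

theorem depth_bddAbove (L : IntermediateField ℚ_[p] (PadicAlgCl p)) (σ : L ≃ₐ[ℚ_[p]] L) :
    BddAbove (Set.range fun a : {a : L // ‖(a : PadicAlgCl p)‖ ≤ 1} =>
      ‖((σ a.1 : L) : PadicAlgCl p) - ((a.1 : L) : PadicAlgCl p)‖) := by
  refine ⟨1, ?_⟩
  rintro _ ⟨a, rfl⟩
  exact norm_sub_le_one σ a.2

theorem norm_sub_le_depth {L : IntermediateField ℚ_[p] (PadicAlgCl p)}
    (σ : L ≃ₐ[ℚ_[p]] L) {a : L} (ha : ‖(a : PadicAlgCl p)‖ ≤ 1) :
    ‖((σ a : L) : PadicAlgCl p) - (a : PadicAlgCl p)‖ ≤ depth p L σ :=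
  le_ciSup (depth_bddAbove L σ) (⟨a, ha⟩ : {a : L // ‖(a : PadicAlgCl p)‖ ≤ 1})

theorem depth_le {L : IntermediateField ℚ_[p] (PadicAlgCl p)}
    (σ : L ≃ₐ[ℚ_[p]] L) {C : ℝ}
    (hC : ∀ a : L, ‖(a : PadicAlgCl p)‖ ≤ 1 →
      ‖((σ a : L) : PadicAlgCl p) - (a : PadicAlgCl p)‖ ≤ C) :
    depth p L σ ≤ C := by
  have : Nonempty {a : L // ‖(a : PadicAlgCl p)‖ ≤ 1} := ⟨⟨0, by simp⟩⟩
  exact ciSup_le fun a => hC a.1 a.2

theorem depth_nonneg (L : IntermediateField ℚ_[p] (PadicAlgCl p)) (σ : L ≃ₐ[ℚ_[p]] L) :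
    0 ≤ depth p L σ :=
  (norm_nonneg _).trans (norm_sub_le_depth σ (a := 0) (by simp))

theorem depth_le_one (L : IntermediateField ℚ_[p] (PadicAlgCl p)) (σ : L ≃ₐ[ℚ_[p]] L) :
    depth p L σ ≤ 1 :=
  depth_le σ fun _ ha => norm_sub_le_one σ ha

theorem depth_one (L : IntermediateField ℚ_[p] (PadicAlgCl p)) :
    depth p L (1 : L ≃ₐ[ℚ_[p]] L) = 0 := by
  refine le_antisymm (depth_le _ fun a _ => ?_) (depth_nonneg L 1)
  simp

/-- `depth σ = 0` only for `σ = 1`. -/
theorem eq_one_of_depth_eq_zero {L : IntermediateField ℚ_[p] (PadicAlgCl p)}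
    {σ : L ≃ₐ[ℚ_[p]] L} (h : depth p L σ = 0) : σ = 1 := by
  have key : ∀ a : L, ‖(a : PadicAlgCl p)‖ ≤ 1 → σ a = a := by
    intro a ha
    have h1 := norm_sub_le_depth σ ha
    rw [h] at h1
    have h2 : ((σ a : L) : PadicAlgCl p) - (a : PadicAlgCl p) = 0 :=
      norm_le_zero_iff.mp h1
    exact Subtype.ext (sub_eq_zero.mp h2)
  ext a
  by_cases ha : ‖(a : PadicAlgCl p)‖ ≤ 1
  · simpa using congrArg (fun z : L => (z : PadicAlgCl p)) (key a ha)
  · have ha0 : a ≠ 0 := by
      rintro rfl; simp at ha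
    have hinv : ‖((a⁻¹ : L) : PadicAlgCl p)‖ ≤ 1 := by
      push_cast
      rw [norm_inv]
      exact inv_le_one_of_one_le₀ (le_of_lt (not_le.mp ha))
    have h3 := key a⁻¹ hinv
    rw [map_inv₀] at h3
    have h4 : σ a = a := inv_injective h3
    simpa using congrArg (fun z : L => (z : PadicAlgCl p)) h4

theorem depth_mul_le (L : IntermediateField ℚ_[p] (PadicAlgCl p)) (σ τ : L ≃ₐ[ℚ_[p]] L) :
    depth p L (σ * τ) ≤ max (depth p L σ) (depth p L τ) := by
  refine depth_le _ fun a ha => ?_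
  have h1 : (((σ * τ) a : L) : PadicAlgCl p) - (a : PadicAlgCl p)
      = (((σ (τ a) : L) : PadicAlgCl p) - ((τ a : L) : PadicAlgCl p))
        + (((τ a : L) : PadicAlgCl p) - (a : PadicAlgCl p)) := by
    simp [AlgEquiv.mul_apply]
  rw [h1]
  refine (IsUltrametricDist.norm_add_le_max _ _).trans (max_le_max ?_ ?_)
  · exact norm_sub_le_depth σ (by rw [norm_algEquiv]; exact ha)
  · exact norm_sub_le_depth τ ha

theorem depth_inv (L : IntermediateField ℚ_[p] (PadicAlgCl p)) (σ : L ≃ₐ[ℚ_[p]] L) :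
    depth p L σ⁻¹ = depth p L σ := by
  have key : ∀ τ : L ≃ₐ[ℚ_[p]] L, depth p L τ⁻¹ ≤ depth p L τ := by
    intro τ
    refine depth_le _ fun a ha => ?_
    have h0 : τ (τ⁻¹ a) = a := by
      rw [← AlgEquiv.mul_apply, mul_inv_cancel, AlgEquiv.one_apply]
    have h1 : ‖((τ⁻¹ a : L) : PadicAlgCl p) - (a : PadicAlgCl p)‖
        = ‖((τ (τ⁻¹ a) : L) : PadicAlgCl p) - ((τ⁻¹ a : L) : PadicAlgCl p)‖ := by
      rw [h0, norm_sub_rev]
    rw [h1]
    exact norm_sub_le_depth τ (by rw [norm_algEquiv]; exact ha)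
  refine le_antisymm (key σ) ?_
  have := key σ⁻¹
  rwa [inv_inv] at this

end Fermat.Agent.S56.FL.H15

end

end
-- ==== END Fermat.Agent.S56.FL.LF.H15_Depth

-- ==== BEGIN Fermat.Agent.S56.H9_TameChar
section

/-!
# S56, leaf LOC-TW, part (ii): the tame character

`θ : I → B ⧸ 𝔓`, `σ ↦ (σ π / π mod 𝔓)`; kernel `wild`; cyclicity modulo `wild`; conjugation.
-/

set_option autoImplicit false

namespace Fermat.Agent.S56.H9

section tameRel

variable {B : Type*} [CommRing B] {Γ : Type*} [Group Γ] [MulSemiringAction Γ B] (𝔓 : Ideal B)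

/-- `σ` acts on `𝔓 / 𝔓 ^ 2` as multiplication by `d`. -/
def TameRel (σ : Γ) (d : B) : Prop := ∀ x ∈ 𝔓, σ • x - d * x ∈ 𝔓 ^ 2

variable {𝔓}

lemma tameRel_one : TameRel 𝔓 (1 : Γ) 1 := by
  intro x _
  simp

lemma tameRel_one_right_iff {σ : Γ} : TameRel 𝔓 σ 1 ↔ ∀ x ∈ 𝔓, σ • x - x ∈ 𝔓 ^ 2 := by
  unfold TameRel
  simp

lemma TameRel.congr {σ : Γ} {d d' : B} (h : TameRel 𝔓 σ d) (hd : d - d' ∈ 𝔓) :
    TameRel 𝔓 σ d' := by
  intro x hx
  have e : σ • x - d' * x = (σ • x - d * x) + (d - d') * x := by ring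
  rw [e]
  refine Ideal.add_mem _ (h x hx) ?_
  rw [pow_two]
  exact Ideal.mul_mem_mul hd hx

lemma TameRel.mul {σ τ : Γ} {d d' : B} (hσ : σ ∈ 𝔓.inertia Γ) (h : TameRel 𝔓 σ d)
    (h' : TameRel 𝔓 τ d') : TameRel 𝔓 (σ * τ) (d * d') := by
  intro x hx
  have e : (σ * τ) • x - d * d' * x
      = σ • (τ • x - d' * x) + ((σ • d' - d') * (σ • x) + d' * (σ • x - d * x)) := by
    rw [mul_smul, smul_sub, smul_mul']
    ring
  rw [e]
  have hσ𝔓 := smul_mem_of_mem_inertia 𝔓 hσ
  refine Ideal.add_mem _ (smul_mem_pow_of_forall 𝔓 hσ𝔓 2 _ (h' x hx)) (Ideal.add_mem _ ?_ ?_)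
  · rw [pow_two]
    exact Ideal.mul_mem_mul (hσ d') (hσ𝔓 x hx)
  · exact Ideal.mul_mem_left _ _ (h x hx)

lemma TameRel.pow {σ : Γ} {d : B} (hσ : σ ∈ 𝔓.inertia Γ) (h : TameRel 𝔓 σ d) (m : ℕ) :
    TameRel 𝔓 (σ ^ m) (d ^ m) := by
  induction m with
  | zero => simpa using tameRel_one
  | succ m ih =>
    rw [pow_succ', pow_succ']
    exact TameRel.mul hσ h ih

/-- Conjugation: if `τ` acts by `d` then `σ τ σ⁻¹` acts by `σ d`. -/
lemma TameRel.conj {σ τ : Γ} {d : B} (hσ : ∀ x, σ • x ∈ 𝔓 ↔ x ∈ 𝔓) (h : TameRel 𝔓 τ d) :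
    TameRel 𝔓 (σ * τ * σ⁻¹) (σ • d) := by
  intro x hx
  have hx' : σ⁻¹ • x ∈ 𝔓 := by
    rw [← hσ, smul_inv_smul]; exact hx
  have e : (σ * τ * σ⁻¹) • x - σ • d * x = σ • (τ • (σ⁻¹ • x) - d * (σ⁻¹ • x)) := by
    rw [smul_sub, smul_mul', smul_inv_smul, mul_smul, mul_smul]
  rw [e]
  exact smul_mem_pow_of_forall 𝔓 (fun y hy => (hσ y).2 hy) 2 _ (h _ hx')

lemma conj_mem_inertia {σ τ : Γ} (hσ : ∀ x, σ • x ∈ 𝔓 ↔ x ∈ 𝔓) (hτ : τ ∈ 𝔓.inertia Γ) :
    σ * τ * σ⁻¹ ∈ 𝔓.inertia Γ := by
  intro x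
  have e : (σ * τ * σ⁻¹) • x - x = σ • (τ • (σ⁻¹ • x) - σ⁻¹ • x) := by
    rw [smul_sub, smul_inv_smul, mul_smul, mul_smul]
  rw [e]
  exact (hσ _).2 (hτ _)

end tameRel

section dedekind

variable {B : Type*} [CommRing B] [IsDedekindDomain B] {Γ : Type*} [Group Γ]
  [MulSemiringAction Γ B] {𝔓 : Ideal B} [h𝔓p : 𝔓.IsPrime]

lemma exists_uniformizer (h𝔓 : 𝔓 ≠ ⊥) : ∃ π ∈ 𝔓, π ∉ 𝔓 ^ 2 := by
  have hlt : 𝔓 ^ (1 + 1) < 𝔓 ^ 1 := Ideal.pow_succ_lt_pow h𝔓 1
  rw [pow_one] at hlt
  obtain ⟨π, hπ, hπ2⟩ := SetLike.exists_of_lt hlt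
  exact ⟨π, hπ, hπ2⟩

lemma TameRel.unique (h𝔓 : 𝔓 ≠ ⊥) {σ : Γ} {d d' : B} (h : TameRel 𝔓 σ d)
    (h' : TameRel 𝔓 σ d') : d - d' ∈ 𝔓 := by
  obtain ⟨π, hπ, hπ2⟩ := exists_uniformizer h𝔓
  have e : π * (d - d') = (σ • π - d' * π) - (σ • π - d * π) := by ring
  have hmem : π * (d - d') ∈ 𝔓 ^ (1 + 1) := by
    rw [e]
    exact Ideal.sub_mem _ (h' π hπ) (h π hπ)
  exact Ideal.mem_prime_of_mul_mem_pow h𝔓 hπ2 hmem

lemma exists_tameRel (h𝔓 : 𝔓 ≠ ⊥) {σ : Γ} (hσ : σ ∈ 𝔓.inertia Γ) : ∃ d : B, TameRel 𝔓 σ d := by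
  obtain ⟨π, hπ, hπ2⟩ := exists_uniformizer h𝔓
  have hσ𝔓 := smul_mem_of_mem_inertia 𝔓 hσ
  have hπ1 : π ∈ 𝔓 ^ 1 := by rwa [pow_one]
  obtain ⟨d, e, he, hde⟩ := Ideal.exists_mul_add_mem_pow_succ h𝔓 π (σ • π) hπ1 hπ2
    (by rw [pow_one]; exact hσ𝔓 π hπ)
  refine ⟨d, fun x hx => ?_⟩
  obtain ⟨u, e', he', hue⟩ := Ideal.exists_mul_add_mem_pow_succ h𝔓 π x hπ1 hπ2
    (by rwa [pow_one])
  have key : σ • x - d * x
      = (π * d) * (σ • u - u) + e * (σ • u) + (σ • e' - d * e') := by
    rw [← hue, smul_add, smul_mul', ← hde]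
    ring
  rw [key]
  refine Ideal.add_mem _ (Ideal.add_mem _ ?_ ?_) (Ideal.sub_mem _ ?_ ?_)
  · rw [pow_two]
    exact Ideal.mul_mem_mul (Ideal.mul_mem_right _ _ hπ) (hσ u)
  · exact Ideal.mul_mem_right _ _ he
  · exact smul_mem_pow_of_forall 𝔓 hσ𝔓 2 _ he'
  · exact Ideal.mul_mem_left _ _ he'

/-- The tame character. -/
noncomputable def tameChar (h𝔓 : 𝔓 ≠ ⊥) : 𝔓.inertia Γ →* (B ⧸ 𝔓) where
  toFun σ := Ideal.Quotient.mk 𝔓 (exists_tameRel h𝔓 σ.2).choose
  map_one' := by
    rw [← map_one (Ideal.Quotient.mk 𝔓), Ideal.Quotient.eq]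
    exact TameRel.unique h𝔓 (exists_tameRel h𝔓 (1 : 𝔓.inertia Γ).2).choose_spec tameRel_one
  map_mul' σ τ := by
    rw [← map_mul (Ideal.Quotient.mk 𝔓), Ideal.Quotient.eq]
    exact TameRel.unique h𝔓 (exists_tameRel h𝔓 (σ * τ).2).choose_spec
      (TameRel.mul σ.2 (exists_tameRel h𝔓 σ.2).choose_spec
        (exists_tameRel h𝔓 τ.2).choose_spec)

lemma tameChar_eq (h𝔓 : 𝔓 ≠ ⊥) (σ : 𝔓.inertia Γ) {d : B} (h : TameRel 𝔓 (σ : Γ) d) :
    tameChar h𝔓 σ = Ideal.Quotient.mk 𝔓 d := by
  show Ideal.Quotient.mk 𝔓 _ = _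
  rw [Ideal.Quotient.eq]
  exact TameRel.unique h𝔓 (exists_tameRel h𝔓 σ.2).choose_spec h

lemma tameRel_of_tameChar_eq (h𝔓 : 𝔓 ≠ ⊥) (σ : 𝔓.inertia Γ) {d : B}
    (h : tameChar h𝔓 σ = Ideal.Quotient.mk 𝔓 d) : TameRel 𝔓 (σ : Γ) d := by
  have h1 : Ideal.Quotient.mk 𝔓 (exists_tameRel h𝔓 σ.2).choose = Ideal.Quotient.mk 𝔓 d := h
  rw [Ideal.Quotient.eq] at h1
  exact TameRel.congr (exists_tameRel h𝔓 σ.2).choose_spec h1

lemma tameChar_eq_one_iff (h𝔓 : 𝔓 ≠ ⊥) (σ : 𝔓.inertia Γ) :
    tameChar h𝔓 σ = 1 ↔ (σ : Γ) ∈ wild 𝔓 Γ := by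
  constructor
  · intro h
    have h1 : tameChar h𝔓 σ = Ideal.Quotient.mk 𝔓 1 := by rw [h, map_one]
    exact ⟨σ.2, tameRel_one_right_iff.1 (tameRel_of_tameChar_eq h𝔓 σ h1)⟩
  · intro h
    rw [tameChar_eq h𝔓 σ (tameRel_one_right_iff.2 h.2), map_one]

/-- Two inertia elements with the same tame character agree modulo `wild`. -/
lemma inv_mul_mem_wild (h𝔓 : 𝔓 ≠ ⊥) {α β : Γ} (hα : α ∈ 𝔓.inertia Γ) (hβ : β ∈ 𝔓.inertia Γ)
    {c : B} (h1 : TameRel 𝔓 α c) (h2 : TameRel 𝔓 β c) : β⁻¹ * α ∈ wild 𝔓 Γ := by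
  have e1 := tameChar_eq h𝔓 ⟨α, hα⟩ h1
  have e2 := tameChar_eq h𝔓 ⟨β, hβ⟩ h2
  have hmul : tameChar h𝔓 (⟨β, hβ⟩ * (⟨β, hβ⟩⁻¹ * ⟨α, hα⟩)) = tameChar h𝔓 ⟨α, hα⟩ := by
    rw [mul_inv_cancel_left]
  rw [map_mul, e1, e2] at hmul
  -- cancel `mk c`, which is nonzero
  have hc : Ideal.Quotient.mk 𝔓 c ≠ 0 := by
    intro h0
    rw [Ideal.Quotient.eq_zero_iff_mem] at h0
    obtain ⟨π, hπ, hπ2⟩ := exists_uniformizer h𝔓
    have hαinv : α⁻¹ ∈ 𝔓.inertia Γ := inv_mem hα
    -- `α π ∈ 𝔓 ^ 2`, hence `π ∈ 𝔓 ^ 2`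
    have h3 : α • π ∈ 𝔓 ^ 2 := by
      have := Ideal.add_mem _ (h1 π hπ) (show c * π ∈ 𝔓 ^ 2 by
        rw [pow_two]; exact Ideal.mul_mem_mul h0 hπ)
      simpa using this
    have h4 := smul_mem_pow_of_forall 𝔓 (smul_mem_of_mem_inertia 𝔓 hαinv) 2 _ h3
    rw [inv_smul_smul] at h4
    exact hπ2 h4
  have hone : tameChar h𝔓 (⟨β, hβ⟩⁻¹ * ⟨α, hα⟩) = 1 := by
    have heq : Ideal.Quotient.mk 𝔓 c * tameChar h𝔓 (⟨β, hβ⟩⁻¹ * ⟨α, hα⟩)
        = Ideal.Quotient.mk 𝔓 c * 1 := by rw [hmul, mul_one]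
    have hdom : IsDomain (B ⧸ 𝔓) := Ideal.Quotient.isDomain 𝔓
    exact mul_left_cancel₀ hc heq
  exact (tameChar_eq_one_iff h𝔓 _).1 hone

/-- Conjugation by an element acting as `x ↦ x ^ m` on the residue field. -/
theorem conj_mem_wild (h𝔓 : 𝔓 ≠ ⊥) {σ τ : Γ} (hσ : ∀ x, σ • x ∈ 𝔓 ↔ x ∈ 𝔓) {m : ℕ}
    (hm : ∀ x, σ • x - x ^ m ∈ 𝔓) (hτ : τ ∈ 𝔓.inertia Γ) :
    (τ ^ m)⁻¹ * (σ * τ * σ⁻¹) ∈ wild 𝔓 Γ := by
  obtain ⟨d, hd⟩ := exists_tameRel h𝔓 hτ
  have h1 : TameRel 𝔓 (σ * τ * σ⁻¹) (d ^ m) := (TameRel.conj hσ hd).congr (hm d)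
  have h2 : TameRel 𝔓 (τ ^ m) (d ^ m) := TameRel.pow hτ hd m
  exact inv_mul_mem_wild h𝔓 (conj_mem_inertia hσ hτ) (pow_mem hτ m) h1 h2

/-- A finite subgroup of the inertia group is cyclic modulo `wild`. -/
theorem exists_generator_mod_wild (h𝔓 : 𝔓 ≠ ⊥) (J : Subgroup Γ) [Finite J]
    (hJ : J ≤ 𝔓.inertia Γ) :
    ∃ τ₀ ∈ J, ∀ τ ∈ J, ∃ n : ℕ, (τ₀ ^ n)⁻¹ * τ ∈ wild 𝔓 Γ := by
  have hdom : IsDomain (B ⧸ 𝔓) := Ideal.Quotient.isDomain 𝔓
  let f : J →* (B ⧸ 𝔓)ˣ := ((tameChar h𝔓).comp (Subgroup.inclusion hJ)).toHomUnits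
  have hcyc : IsCyclic (J ⧸ f.ker) :=
    isCyclic_of_injective_ringHom ((Units.coeHom (B ⧸ 𝔓)).comp (QuotientGroup.kerLift f))
      (Units.val_injective.comp (QuotientGroup.kerLift_injective f))
  obtain ⟨g₀, hg₀⟩ := hcyc.exists_generator
  obtain ⟨τ₀, rfl⟩ := QuotientGroup.mk_surjective g₀
  refine ⟨τ₀, τ₀.2, fun τ hτ => ?_⟩
  have hmem := hg₀ (QuotientGroup.mk ⟨τ, hτ⟩)
  obtain ⟨n, hn⟩ := (mem_powers_iff_mem_zpowers).2 hmem
  refine ⟨n, ?_⟩
  have hn' : (QuotientGroup.mk (τ₀ ^ n) : J ⧸ f.ker) = QuotientGroup.mk ⟨τ, hτ⟩ := hn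
  rw [QuotientGroup.eq] at hn'
  have h1 : f ((τ₀ ^ n)⁻¹ * ⟨τ, hτ⟩) = 1 := hn'
  have h2 : tameChar h𝔓 (Subgroup.inclusion hJ ((τ₀ ^ n)⁻¹ * ⟨τ, hτ⟩)) = 1 := by
    have h3 := congrArg (fun u : (B ⧸ 𝔓)ˣ => (u : B ⧸ 𝔓)) h1
    exact h3
  exact (tameChar_eq_one_iff h𝔓 _).1 h2

end dedekind

end Fermat.Agent.S56.H9

end
-- ==== END Fermat.Agent.S56.H9_TameChar

-- ==== BEGIN Fermat.Agent.S56.IND.Asm
section

set_option autoImplicit false

/-!
# Package IND: assembly (helper74)

`stmt_IND_of : Stmt_BR → Stmt_BN → Stmt_PERM → Stmt_ART → Stmt_TENS → Stmt_IND`.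
-/

noncomputable section

namespace Fermat.Agent.S56.IND

open Polynomial

/-- Iterating the invariance under `g ↦ g ^ #k`. -/
theorem brauer_pow_card_pow (hBR : Stmt_BR) (p : ℕ) [Fact p.Prime] (k : Type) [Field k]
    [Finite k] [CharP k p] (G : Type) [Group G]
    (V : Type) [AddCommGroup V] [Module k V] [FiniteDimensional k V]
    (ρ : Representation k G V) (g : G) (j : ℕ) :
    brauer p ρ (g ^ (Nat.card k) ^ j) = brauer p ρ g := by
  induction j with
  | zero => simp
  | succ j ih =>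
    rw [pow_succ, pow_mul, (hBR p k G).2.2 V ρ (g ^ Nat.card k ^ j), ih]

/-- For every element `g` of a finite group there is `j` such that `g ^ (#k) ^ j` has order
prime to `p`. -/
theorem exists_pow_regular (p : ℕ) [Fact p.Prime] (k : Type) [Field k] [Finite k] [CharP k p]
    (G : Type) [Group G] [Finite G] (g : G) :
    ∃ j : ℕ, ¬ p ∣ orderOf (g ^ (Nat.card k) ^ j) := by
  have hp : p.Prime := Fact.out
  haveI : Fintype k := Fintype.ofFinite k
  obtain ⟨n, hn⟩ := FiniteField.card k p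
  have hcard : Nat.card k = p ^ (n : ℕ) := by
    rw [Nat.card_eq_fintype_card, hn.2]
  have hn0 : 0 < (n : ℕ) := n.pos
  have ho : 0 < orderOf g := orderOf_pos g
  -- write `orderOf g = p ^ a * m` with `p ∤ m`
  obtain ⟨a, m, hm, hfact⟩ := Nat.exists_eq_pow_mul_and_not_dvd ho.ne' p hp.ne_one
  refine ⟨a, ?_⟩
  rw [orderOf_pow, hcard, ← pow_mul, hfact]
  have hg : Nat.gcd (p ^ a * m) (p ^ ((n : ℕ) * a)) = p ^ a := by
    have h1 : p ^ ((n : ℕ) * a) = p ^ a * p ^ ((n : ℕ) * a - a) := by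
      rw [← pow_add]
      congr 1
      have : a ≤ (n : ℕ) * a := Nat.le_mul_of_pos_left a hn0
      omega
    rw [h1, Nat.gcd_mul_left]
    have hc : Nat.Coprime m (p ^ ((n : ℕ) * a - a)) :=
      Nat.Coprime.pow_right _ ((Nat.Prime.coprime_iff_not_dvd hp).mpr hm).symm
    rw [hc.gcd_eq_one, mul_one]
  rw [hg, Nat.mul_div_cancel_left m (pow_pos hp.pos a)]
  exact hm

/-- **IND** from its packages. -/
theorem stmt_IND_of (hBR : Stmt_BR) (hBN : Stmt_BN) (hPERM : Stmt_PERM) (hART : Stmt_ART)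
    (hTENS : Stmt_TENS) : Stmt_IND := by
  classical
  intro p _ k _ _ _ G _ _ f hf hind V _ _ _ ρ
  haveI : Fintype G := Fintype.ofFinite G
  obtain ⟨hT1, hT2, hT3⟩ := hTENS k G V ρ
  obtain ⟨a, ha, hart⟩ := hART p G
  have hF := hT1 f hf
  -- the family of permutation modules
  let Vf : Option (Subgroup G) → Rep.{0} k G := fun o =>
    match o with
    | none => Rep.of (permRep k G PUnit)
    | some B => Rep.of (permRep k G (G ⧸ B))
  let cf : Option (Subgroup G) → ℤ := fun o =>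
    match o with
    | none => Nat.card G
    | some B => - a B
  have hfd : ∀ o, FiniteDimensional k (Vf o) := by
    intro o
    cases o with
    | none => exact (inferInstance : FiniteDimensional k (PUnit → k))
    | some B => exact (inferInstance : FiniteDimensional k (G ⧸ B → k))
  -- the relation between Brauer characters at elements of order prime to `p`
  have hreg : ∀ x : G, ¬ p ∣ orderOf x → ∑ o, cf o • brauerFn p (Vf o) x = 0 := by
    intro x hx
    rw [Fintype.sum_option]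
    have h0 : brauerFn p (Vf none) x = 1 := by
      show brauerFn p (Rep.of (permRep k G PUnit)) x = 1
      rw [brauerFn_of, hPERM p k G PUnit x hx]
      have : Nat.card {y : PUnit // x • y = y} = 1 := by
        rw [Nat.card_eq_one_iff_unique]
        exact ⟨⟨fun a b => Subtype.ext (Subsingleton.elim _ _)⟩, ⟨⟨PUnit.unit, rfl⟩⟩⟩
      rw [this, Nat.cast_one]
    have h1 : ∀ B : Subgroup G, brauerFn p (Vf (some B)) x =
        (Nat.card {q : G ⧸ B // x • q = q} : WK p k) := by
      intro B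
      show brauerFn p (Rep.of (permRep k G (G ⧸ B))) x = _
      rw [brauerFn_of, hPERM p k G (G ⧸ B) x hx]
    rw [h0]
    simp only [h1]
    have hz := hart x hx
    have hz' : ((Nat.card G : ℤ) : WK p k) -
        ∑ B : Subgroup G, ((a B * (Nat.card {q : G ⧸ B // x • q = q} : ℤ) : ℤ) : WK p k) = 0 := by
      rw [← Int.cast_sum, hz, sub_self]
    show (Nat.card G : ℤ) • (1 : WK p k) +
      ∑ B : Subgroup G, (- a B) • (Nat.card {q : G ⧸ B // x • q = q} : WK p k) = 0
    rw [zsmul_eq_mul, mul_one]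
    have e : ∀ B : Subgroup G, (- a B) • (Nat.card {q : G ⧸ B // x • q = q} : WK p k) =
        - ((a B * (Nat.card {q : G ⧸ B // x • q = q} : ℤ) : ℤ) : WK p k) := by
      intro B
      rw [zsmul_eq_mul]
      push_cast
      ring
    simp only [e]
    rw [Finset.sum_neg_distrib, ← sub_eq_add_neg]
    exact hz'
  -- the relation at all elements
  have hall : ∀ g : G, ∑ o, cf o • brauerFn p (Vf o) g = 0 := by
    intro g
    obtain ⟨j, hj⟩ := exists_pow_regular p k G g
    have e : ∀ o, brauerFn p (Vf o) g = brauerFn p (Vf o) (g ^ (Nat.card k) ^ j) := by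
      intro o
      cases o with
      | none =>
        show brauerFn p (Rep.of (permRep k G PUnit)) g = brauerFn p (Rep.of (permRep k G PUnit)) _
        rw [brauerFn_of, brauer_pow_card_pow hBR]
      | some B =>
        show brauerFn p (Rep.of (permRep k G (G ⧸ B))) g =
          brauerFn p (Rep.of (permRep k G (G ⧸ B))) _
        rw [brauerFn_of, brauer_pow_card_pow hBR]
    simp only [e]
    exact hreg _ hj
  -- Brauer-Nesbitt
  have key := hBN p k G (Option (Subgroup G)) Vf hfd cf hall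
    (fun W : Rep.{0} k G => f (Rep.of (ρ.tprod W.ρ))) hF
  rw [Fintype.sum_option] at key
  -- the induced terms vanish
  have hzero : ∀ B : Subgroup G,
      cf (some B) * (fun W : Rep.{0} k G => f (Rep.of (ρ.tprod W.ρ))) (Vf (some B)) = 0 := by
    intro B
    by_cases hB : a B = 0
    · show (- a B) * _ = 0
      rw [hB, neg_zero, zero_mul]
    · obtain ⟨hcyc, hpB⟩ := ha B hB
      obtain ⟨W, hW⟩ := hT2 B
      have h0 : f (Rep.of (ρ.tprod (permRep k G (G ⧸ B)))) = 0 :=
        hind _ (ρ.tprod (permRep k G (G ⧸ B))) B W hcyc hpB hW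
      show (- a B) * f (Rep.of (ρ.tprod (Rep.of (permRep k G (G ⧸ B))).ρ)) = 0
      rw [Rep.of_ρ, h0, mul_zero]
  rw [Finset.sum_eq_zero (fun B _ => hzero B), add_zero] at key
  -- the trivial term
  have hpt : f (Rep.of (ρ.tprod (Rep.of (permRep k G PUnit)).ρ)) = f (Rep.of ρ) := by
    rw [Rep.of_ρ]
    obtain ⟨e, he⟩ := hT3
    exact hf.iso _ _ e he
  have hG : (Nat.card G : ℤ) ≠ 0 := by
    exact_mod_cast Nat.card_pos.ne'
  have key' : (Nat.card G : ℤ) * f (Rep.of (ρ.tprod (Rep.of (permRep k G PUnit)).ρ)) = 0 := key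
  rw [hpt] at key'
  exact (mul_eq_zero.mp key').resolve_left hG

end Fermat.Agent.S56.IND

end

end
-- ==== END Fermat.Agent.S56.IND.Asm

-- ==== BEGIN Fermat.Agent.S56.IND.H01_ART
section

/-!
# S56 / GW-CORE / IND, leaf IND-6 = ART (helper1): `Stmt_ART`

Artin's formula for permutation characters: there are integers `a B`, supported on the cyclic
subgroups of order prime to `p`, with `∑_B a B · #Fix(x, G/B) = #G` for every `x` of order prime
to `p`.

Proof.  `#B · #Fix(x, G/B) = #{t : t⁻¹ x t ∈ B}` (`card_mul_card_fixed`).  By downward induction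
on the order there is `b`, supported on the cyclic `p'`-subgroups, with `∑_{B ≥ Y} b B = 1` for
every cyclic `p'`-subgroup `Y` (`exists_moebius`).  With `a B = b B · #B`:
`∑_B a B #Fix(x, G/B) = ∑_t ∑_{B ∋ t⁻¹ x t} b B = ∑_t 1 = #G`.
-/

set_option autoImplicit false

noncomputable section

namespace Fermat.Agent.S56.IND.H01

open Classical

variable {G : Type} [Group G]

/-- Cyclic of order prime to `p`. -/
def IsCP (p : ℕ) (B : Subgroup G) : Prop := IsCyclic B ∧ ¬ p ∣ Nat.card B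

theorem isCP_zpowers {p : ℕ} {x : G} (hx : ¬ p ∣ orderOf x) (t : G) :
    IsCP p (Subgroup.zpowers (t⁻¹ * x * t)) := by
  refine ⟨inferInstance, ?_⟩
  rw [Nat.card_zpowers]
  have : t⁻¹ * x * t = MulAut.conj t⁻¹ x := by
    rw [MulAut.conj_apply, inv_inv]
  rw [this, MulEquiv.orderOf_eq]
  exact hx

/-- `x` fixes the coset `t B` iff `t⁻¹ x t ∈ B`. -/
theorem smul_mk_eq_iff (B : Subgroup G) (x t : G) :
    x • (t : G ⧸ B) = (t : G ⧸ B) ↔ t⁻¹ * x * t ∈ B := by
  rw [MulAction.Quotient.smul_coe, smul_eq_mul, QuotientGroup.eq]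
  have e : t⁻¹ * x * t = ((x * t)⁻¹ * t)⁻¹ := by group
  rw [e, inv_mem_iff]

/-- `#B · #Fix(x, G/B) = #{t : t⁻¹ x t ∈ B}`. -/
theorem card_mul_card_fixed [Finite G] (B : Subgroup G) (x : G) :
    Nat.card B * Nat.card {q : G ⧸ B // x • q = q} = Nat.card {t : G // t⁻¹ * x * t ∈ B} := by
  have e := QuotientGroup.preimageMkEquivSubgroupProdSet B {q : G ⧸ B | x • q = q}
  have h1 : Nat.card ↥(QuotientGroup.mk ⁻¹' {q : G ⧸ B | x • q = q})
      = Nat.card B * Nat.card {q : G ⧸ B // x • q = q} := by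
    rw [Nat.card_congr e, Nat.card_prod]
    rfl
  rw [← h1]
  refine Nat.card_congr (Equiv.subtypeEquivRight fun t => ?_)
  rw [Set.mem_preimage, Set.mem_ofPred_eq]
  exact smul_mk_eq_iff B x t

/-- The Möbius-type function of the poset of cyclic `p'`-subgroups. -/
theorem exists_moebius [Finite G] [Fintype (Subgroup G)] (p : ℕ) :
    ∃ b : Subgroup G → ℤ, (∀ B, b B ≠ 0 → IsCP p B) ∧
      ∀ Y : Subgroup G, IsCP p Y → ∑ B : Subgroup G, (if Y ≤ B then b B else 0) = 1 := by
  have key : ∀ j : ℕ, ∃ b : Subgroup G → ℤ,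
      (∀ B, b B ≠ 0 → IsCP p B ∧ Nat.card G + 1 ≤ Nat.card B + j) ∧
      ∀ Y : Subgroup G, IsCP p Y → Nat.card G + 1 ≤ Nat.card Y + j →
        ∑ B : Subgroup G, (if Y ≤ B then b B else 0) = 1 := by
    intro j
    induction j with
    | zero =>
      refine ⟨fun _ => 0, fun B hB => absurd rfl hB, fun Y _ hY => ?_⟩
      have := Subgroup.card_le_card_group Y
      omega
    | succ j ih =>
      obtain ⟨b, hb, hsum⟩ := ih
      -- the new values, on the subgroups of order `#G - j`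
      set b' : Subgroup G → ℤ := fun B =>
        if Nat.card B + (j + 1) = Nat.card G + 1 ∧ IsCP p B then
          1 - ∑ B' : Subgroup G, (if B < B' then b B' else 0)
        else b B with hb'
      have hlt : ∀ {Y B : Subgroup G}, Y < B → Nat.card Y < Nat.card B := by
        intro Y B hYB
        by_contra hcon
        push Not at hcon
        exact (ne_of_lt hYB) (Subgroup.eq_of_le_of_card_ge hYB.le hcon)
      have hb'eq : ∀ B : Subgroup G, Nat.card G + 1 ≤ Nat.card B + j → b' B = b B := by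
        intro B hB
        simp only [hb']
        rw [if_neg]
        rintro ⟨h, -⟩
        omega
      refine ⟨b', ?_, ?_⟩
      · intro B hB
        by_cases hc : Nat.card B + (j + 1) = Nat.card G + 1 ∧ IsCP p B
        · exact ⟨hc.2, by omega⟩
        · simp only [hb'] at hB
          rw [if_neg hc] at hB
          obtain ⟨h1, h2⟩ := hb B hB
          exact ⟨h1, by omega⟩
      · intro Y hY hcard
        by_cases hc : Nat.card Y + (j + 1) = Nat.card G + 1
        · -- the new layer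
          have e1 : ∀ B : Subgroup G, (if Y ≤ B then b' B else 0)
              = (if B = Y then b' Y else 0) + (if Y < B then b B else 0) := by
            intro B
            by_cases hYB : Y < B
            · have hne : B ≠ Y := (ne_of_lt hYB).symm
              rw [if_pos hYB.le, if_neg hne, if_pos hYB, zero_add]
              exact hb'eq B (by have := hlt hYB; omega)
            · by_cases hBY : B = Y
              · subst hBY
                rw [if_pos le_rfl, if_pos rfl, if_neg hYB, add_zero]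
              · have : ¬ Y ≤ B := fun hle => hYB (lt_of_le_of_ne hle (Ne.symm hBY))
                rw [if_neg this, if_neg hBY, if_neg hYB, add_zero]
          rw [Finset.sum_congr rfl fun B _ => e1 B, Finset.sum_add_distrib,
            Finset.sum_ite_eq' Finset.univ Y, if_pos (Finset.mem_univ Y)]
          have : b' Y = 1 - ∑ B' : Subgroup G, (if Y < B' then b B' else 0) := by
            simp only [hb']
            rw [if_pos ⟨hc, hY⟩]
          rw [this]
          ring
        · -- the old layers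
          have hY' : Nat.card G + 1 ≤ Nat.card Y + j := by omega
          rw [← hsum Y hY hY']
          refine Finset.sum_congr rfl fun B _ => ?_
          by_cases hYB : Y ≤ B
          · rw [if_pos hYB, if_pos hYB]
            exact hb'eq B (by have := Subgroup.card_le_of_le hYB; omega)
          · rw [if_neg hYB, if_neg hYB]
  obtain ⟨b, hb, hsum⟩ := key (Nat.card G + 1)
  exact ⟨b, fun B hB => (hb B hB).1, fun Y hY => hsum Y hY (by omega)⟩

/-- Artin's formula, for any `Fintype` structure on the set of subgroups. -/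
theorem artin [Fintype G] [Fintype (Subgroup G)] (p : ℕ) :
    ∃ a : Subgroup G → ℤ, (∀ B, a B ≠ 0 → IsCyclic B ∧ ¬ p ∣ Nat.card B) ∧
      ∀ x : G, ¬ p ∣ orderOf x →
        ∑ B : Subgroup G, a B * (Nat.card {q : G ⧸ B // x • q = q} : ℤ) = Nat.card G := by
  obtain ⟨b, hb, hsum⟩ := exists_moebius (G := G) p
  refine ⟨fun B => b B * Nat.card B, ?_, ?_⟩
  · intro B hB
    exact hb B fun h0 => hB (by show b B * _ = 0; rw [h0, zero_mul])
  · intro x hx
    have e1 : ∀ B : Subgroup G,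
        b B * (Nat.card B : ℤ) * (Nat.card {q : G ⧸ B // x • q = q} : ℤ)
          = ∑ t : G, (if Subgroup.zpowers (t⁻¹ * x * t) ≤ B then b B else 0) := by
      intro B
      rw [mul_assoc, ← Nat.cast_mul, card_mul_card_fixed B x, Nat.card_eq_fintype_card,
        Fintype.card_subtype, Finset.card_filter, Nat.cast_sum, Finset.mul_sum]
      refine Finset.sum_congr rfl fun t _ => ?_
      rw [Subgroup.zpowers_le]
      split_ifs <;> simp
    rw [Finset.sum_congr rfl fun B _ => e1 B, Finset.sum_comm,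
      Finset.sum_congr rfl fun t _ => hsum _ (isCP_zpowers hx t)]
    simp [Nat.card_eq_fintype_card]

/-- **IND-6 = ART.** -/
theorem stmt_ART : Stmt_ART := by
  intro p G _ _
  exact artin p

end Fermat.Agent.S56.IND.H01

end

end
-- ==== END Fermat.Agent.S56.IND.H01_ART

-- ==== BEGIN Fermat.Agent.S56.IND.H54_Tens
section

/-!
# Package IND-7 = TENS (helper54): tensoring with a fixed representation

* `tens_additive` : `W ↦ f (V ⊗ W)` is additive and isomorphism-invariant if `f` is;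
* `tens_induced`  : `V ⊗ k[G/B]` is induced from `B` (from the subspace `V ⊗ e_B`);
* `tens_punit`    : `V ⊗ k[pt] ≅ V`;
* `stmt_TENS : Stmt_TENS`.
-/

set_option autoImplicit false
set_option linter.unusedSectionVars false
set_option linter.style.haveILetI false

noncomputable section

namespace Fermat.Agent.S56.IND.H54

open scoped TensorProduct
open Fermat.Agent.S56.IND

variable {k : Type} [Field k] {G : Type} [Group G]
variable {V : Type} [AddCommGroup V] [Module k V] [FiniteDimensional k V]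
  (ρ : Representation k G V)

/-! ### Additivity -/

theorem tens_iso {V₁ W₁ : Type} [AddCommGroup V₁] [Module k V₁] [AddCommGroup W₁] [Module k W₁]
    [FiniteDimensional k V₁] (f : Rep.{0} k G → ℤ) (hf : IsAdditiveFn k G f)
    (ρ₁ : Representation k G V₁) (σ : Representation k G W₁) (e : V₁ ≃ₗ[k] W₁)
    (he : ∀ g v, e (ρ₁ g v) = σ g (e v)) :
    f (Rep.of (ρ.tprod ρ₁)) = f (Rep.of (ρ.tprod σ)) := by
  refine hf.iso (ρ.tprod ρ₁) (ρ.tprod σ) (TensorProduct.congr (LinearEquiv.refl k V) e) ?_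
  intro g x
  induction x using TensorProduct.induction_on with
  | zero => simp
  | tmul v w =>
    simp only [Representation.tprod_apply, TensorProduct.map_tmul, TensorProduct.congr_tmul,
      LinearEquiv.refl_apply, he]
  | add x y hx hy => simp only [map_add, hx, hy]

theorem tens_add {V₁ : Type} [AddCommGroup V₁] [Module k V₁] [FiniteDimensional k V₁]
    (f : Rep.{0} k G → ℤ) (hf : IsAdditiveFn k G f)
    (ρ₁ : Representation k G V₁) (W : Submodule k V₁) (hW : ∀ g, W ≤ W.comap (ρ₁ g)) :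
    f (Rep.of (ρ.tprod ρ₁)) = f (Rep.of (ρ.tprod (ρ₁.subrepresentation W hW))) +
      f (Rep.of (ρ.tprod (ρ₁.quotient W hW))) := by
  set T : Submodule k (V ⊗[k] V₁) :=
    LinearMap.range (TensorProduct.map (LinearMap.id : V →ₗ[k] V) W.subtype) with hTdef
  have hcomm : ∀ (g : G) (x : V ⊗[k] W),
      TensorProduct.map (LinearMap.id : V →ₗ[k] V) W.subtype
        ((ρ.tprod (ρ₁.subrepresentation W hW)) g x) =
      (ρ.tprod ρ₁) g (TensorProduct.map (LinearMap.id : V →ₗ[k] V) W.subtype x) := by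
    intro g x
    induction x using TensorProduct.induction_on with
    | zero => simp
    | tmul v w =>
      simp only [Representation.tprod_apply, TensorProduct.map_tmul, LinearMap.id_coe, id_eq,
        Submodule.subtype_apply]
      rfl
    | add x y hx hy => simp only [map_add, hx, hy]
  have hT : ∀ g, T ≤ T.comap ((ρ.tprod ρ₁) g) := by
    rintro g _ ⟨x, rfl⟩
    rw [Submodule.mem_comap, ← hcomm]
    exact ⟨_, rfl⟩
  have hinj : Function.Injective (TensorProduct.map (LinearMap.id : V →ₗ[k] V) W.subtype) :=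
    Module.Flat.lTensor_preserves_injective_linearMap (M := V) W.subtype
      (Submodule.injective_subtype W)
  rw [hf.add (ρ.tprod ρ₁) T hT]
  congr 1
  · symm
    refine hf.iso (ρ.tprod (ρ₁.subrepresentation W hW)) ((ρ.tprod ρ₁).subrepresentation T hT)
      (LinearEquiv.ofInjective _ hinj) ?_
    intro g x
    apply Subtype.ext
    exact hcomm g x
  · symm
    refine hf.iso (ρ.tprod (ρ₁.quotient W hW)) ((ρ.tprod ρ₁).quotient T hT)
      (TensorProduct.tensorQuotientEquiv V W) ?_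
    intro g x
    induction x using TensorProduct.induction_on with
    | zero => simp
    | tmul v w =>
      obtain ⟨w, rfl⟩ := Submodule.Quotient.mk_surjective W w
      rfl
    | add x y hx hy => simp only [map_add, hx, hy]

theorem tens_additive (f : Rep.{0} k G → ℤ) (hf : IsAdditiveFn k G f) :
    IsAdditiveFn k G (fun W : Rep.{0} k G => f (Rep.of (ρ.tprod W.ρ))) := by
  constructor
  · intro V₁ W₁ _ _ _ _ _ ρ₁ σ e he
    exact tens_iso ρ f hf ρ₁ σ e he
  · intro V₁ _ _ _ ρ₁ W hW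
    exact tens_add ρ f hf ρ₁ W hW

/-! ### `V ⊗ k[pt] ≅ V` -/

theorem tens_punit : RepIso (ρ.tprod (permRep k G PUnit)) ρ := by
  refine ⟨(TensorProduct.congr (LinearEquiv.refl k V) (LinearEquiv.funUnique PUnit k k)) ≪≫ₗ
    TensorProduct.rid k V, ?_⟩
  intro g x
  induction x using TensorProduct.induction_on with
  | zero => simp
  | tmul v φ =>
    simp only [Representation.tprod_apply, TensorProduct.map_tmul, LinearEquiv.trans_apply,
      TensorProduct.congr_tmul, LinearEquiv.refl_apply, TensorProduct.rid_tmul,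
      LinearEquiv.funUnique_apply, Function.eval, map_smul]
    rfl
  | add x y hx hy => simp only [map_add, hx, hy]

/-! ### `V ⊗ k[G/B]` is induced from `B` -/

section Induced

variable [Finite G] (B : Subgroup G)

open Classical in
/-- The indicator function of the coset `q`. -/
def eCoset (k : Type) [Field k] {G : Type} [Group G] (B : Subgroup G) (q : G ⧸ B) :
    G ⧸ B → k := Pi.single q 1

theorem permRep_eCoset (g : G) (q : G ⧸ B) :
    permRep k G (G ⧸ B) g (eCoset k B q) = eCoset k B (g • q) := by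
  classical
  funext x
  rw [permRep_apply]
  unfold eCoset
  by_cases h : x = g • q
  · subst h
    rw [inv_smul_smul, Pi.single_eq_same, Pi.single_eq_same]
  · have h' : g⁻¹ • x ≠ q := by
      intro h2
      apply h
      rw [← h2, smul_inv_smul]
    rw [Pi.single_eq_of_ne h, Pi.single_eq_of_ne h']

/-- The map `v ↦ v ⊗ e_B`. -/
def tensE : V →ₗ[k] V ⊗[k] (G ⧸ B → k) :=
  (TensorProduct.mk k V (G ⧸ B → k)).flip (eCoset k B ((1 : G) : G ⧸ B))

@[simp] theorem tensE_apply (v : V) :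
    tensE (k := k) B v = v ⊗ₜ[k] eCoset k B ((1 : G) : G ⧸ B) := rfl

theorem tensE_injective : Function.Injective (tensE (k := k) (V := V) B) := by
  classical
  let ev : (G ⧸ B → k) →ₗ[k] k := LinearMap.proj ((1 : G) : G ⧸ B)
  have hleft : ∀ v : V, TensorProduct.rid k V (LinearMap.lTensor V ev (tensE B v)) = v := by
    intro v
    rw [tensE_apply, LinearMap.lTensor_tmul, TensorProduct.rid_tmul]
    have : ev (eCoset k B ((1 : G) : G ⧸ B)) = 1 := by
      show eCoset k B ((1 : G) : G ⧸ B) ((1 : G) : G ⧸ B) = 1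
      unfold eCoset
      rw [Pi.single_eq_same]
    rw [this, one_smul]
  intro v w hvw
  rw [← hleft v, ← hleft w, hvw]

theorem tens_induced :
    IsInducedFrom (ρ.tprod (permRep k G (G ⧸ B))) B (LinearMap.range (tensE (k := k) (V := V) B)) := by
  classical
  haveI : Fintype (G ⧸ B) := Fintype.ofFinite _
  refine ⟨?_, ?_, ?_⟩
  · rintro b hb _ ⟨v, rfl⟩
    refine ⟨ρ b v, ?_⟩
    rw [tensE_apply, tensE_apply, Representation.tprod_apply, TensorProduct.map_tmul,
      permRep_eCoset]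
    congr 2
    symm
    show ((b * 1 : G) : G ⧸ B) = ((1 : G) : G ⧸ B)
    rw [mul_one]
    exact QuotientGroup.eq.mpr (by simpa using B.inv_mem hb)
  · rw [eq_top_iff]
    intro x _
    have hpure : ∀ (v : V) (q : G ⧸ B), v ⊗ₜ[k] eCoset k B q ∈
        ⨆ g : G, (LinearMap.range (tensE (k := k) (V := V) B)).map
          ((ρ.tprod (permRep k G (G ⧸ B))) g) := by
      intro v q
      obtain ⟨g, rfl⟩ := QuotientGroup.mk_surjective q
      apply Submodule.mem_iSup_of_mem g
      refine ⟨tensE B (ρ g⁻¹ v), ⟨_, rfl⟩, ?_⟩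
      rw [tensE_apply, Representation.tprod_apply, TensorProduct.map_tmul, permRep_eCoset]
      have h1 : ρ g (ρ g⁻¹ v) = v := by
        rw [← Module.End.mul_apply, ← map_mul, mul_inv_cancel, map_one, Module.End.one_apply]
      rw [h1]
      congr 2
      show ((g * 1 : G) : G ⧸ B) = (g : G ⧸ B)
      rw [mul_one]
    induction x using TensorProduct.induction_on with
    | zero => exact zero_mem _
    | tmul v φ =>
      have hφ : φ = ∑ q : G ⧸ B, φ q • eCoset k B q := by
        funext x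
        rw [Finset.sum_apply]
        unfold eCoset
        simp [Pi.single_apply]
      rw [hφ, TensorProduct.tmul_sum]
      refine Submodule.sum_mem _ fun q _ => ?_
      rw [TensorProduct.tmul_smul]
      exact Submodule.smul_mem _ _ (hpure v q)
    | add x y hx hy => exact add_mem (hx trivial) (hy trivial)
  · rw [LinearMap.finrank_range_of_inj (tensE_injective B), Module.finrank_tensorProduct,
      Module.finrank_fintype_fun_eq_card, Subgroup.index, Nat.card_eq_fintype_card, mul_comm]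

end Induced

/-- **IND-7 = TENS.** -/
theorem stmt_TENS : Stmt_TENS := by
  intro k _ G _ _ V _ _ _ ρ
  exact ⟨fun f hf => tens_additive ρ f hf, fun B => ⟨_, tens_induced ρ B⟩, tens_punit ρ⟩

end Fermat.Agent.S56.IND.H54

end

end
-- ==== END Fermat.Agent.S56.IND.H54_Tens

-- ==== BEGIN Fermat.Agent.S56.IND.H74_BR
section

set_option autoImplicit false
set_option linter.style.haveILetI false

/-!
# Package IND-2 = BR (helper74): the Brauer character

`stmt_BR : Stmt_BR`: the Brauer character is additive and isomorphism-invariant, reduces to the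
trace, and is invariant under `g ↦ g ^ #k`.
-/

noncomputable section

namespace Fermat.Agent.S56.IND.H74

open Polynomial Module

section Charpoly

variable {R V : Type*} [CommRing R] [AddCommGroup V] [Module R V]
  [Module.Finite R V] [Module.Free R V]
  (W : Submodule R V) [Module.Free R W] [Module.Finite R W] [Module.Free R (V ⧸ W)]

open Module.Basis in
/-- The characteristic polynomial is multiplicative for a stable submodule and its quotient
(adapted from `LinearMap.det_eq_det_mul_det`). -/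
theorem charpoly_eq_restrict_mul_mapQ (e : V →ₗ[R] V) (he : W ≤ W.comap e) :
    e.charpoly = (e.restrict he).charpoly * (W.mapQ W e he).charpoly := by
  classical
  let m := Module.Free.ChooseBasisIndex R W
  let bW : Basis m R W := Module.Free.chooseBasis R W
  let n := Module.Free.ChooseBasisIndex R (V ⧸ W)
  let bQ : Basis n R (V ⧸ W) := Module.Free.chooseBasis R (V ⧸ W)
  let b := sumQuot bW bQ
  let A : Matrix m m R := LinearMap.toMatrix bW bW (e.restrict he)
  let B : Matrix m n R := Matrix.of fun i l ↦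
    ((sumQuot bW bQ).repr (e ((sumQuot bW bQ) (Sum.inr l)))) (Sum.inl i)
  let D : Matrix n n R := LinearMap.toMatrix bQ bQ (W.mapQ W e he)
  suffices LinearMap.toMatrix b b e = Matrix.fromBlocks A B 0 D by
    rw [← LinearMap.charpoly_toMatrix e b, this, ← LinearMap.charpoly_toMatrix (e.restrict he) bW,
      ← LinearMap.charpoly_toMatrix (W.mapQ W e he) bQ, Matrix.charpoly_fromBlocks_zero₂₁]
  ext u v
  cases u with
  | inl i =>
    cases v with
    | inl k =>
      simp only [b, sumQuot_inl, Matrix.fromBlocks_apply₁₁, A, LinearMap.toMatrix_apply]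
      apply sumQuot_repr_inl_of_mem
    | inr l => simp [b, LinearMap.toMatrix_apply, Matrix.fromBlocks_apply₁₂, B]
  | inr j =>
    cases v with
    | inl k =>
      suffices W.mkQ (e (bW k)) = 0 by simp [LinearMap.toMatrix_apply, b, this]
      rw [← LinearMap.mem_ker, Submodule.ker_mkQ]
      exact he (Submodule.coe_mem (bW k))
    | inr l =>
      simp only [LinearMap.toMatrix_apply, sumQuot_repr_inr,
        Matrix.fromBlocks_apply₂₂, b, D]
      rw [← sumQuot_inr bW bQ l, W.mapQ_apply]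
      simp

end Charpoly

section Brauer

variable {k : Type} [Field k] {G : Type} [Group G] (p : ℕ) [Fact p.Prime]

/-- Additivity of the Brauer character. -/
theorem brauer_add {V : Type} [AddCommGroup V] [Module k V] [FiniteDimensional k V]
    (ρ : Representation k G V) (W : Submodule k V) (hW : ∀ g, W ≤ W.comap (ρ g)) (g : G) :
    brauer p ρ g = brauer p (ρ.subrepresentation W hW) g + brauer p (ρ.quotient W hW) g := by
  unfold brauer
  have h1 : (ρ.subrepresentation W hW) g = (ρ g).restrict (hW g) := rfl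
  have h2 : (ρ.quotient W hW) g = W.mapQ W (ρ g) (hW g) := rfl
  rw [h1, h2, charpoly_eq_restrict_mul_mapQ W (ρ g) (hW g), aroots_mul, Multiset.map_add,
    Multiset.sum_add]
  exact mul_ne_zero (LinearMap.charpoly_monic _).ne_zero (LinearMap.charpoly_monic _).ne_zero

/-- Isomorphism invariance of the Brauer character. -/
theorem brauer_iso {V W : Type} [AddCommGroup V] [Module k V] [AddCommGroup W] [Module k W]
    [FiniteDimensional k V] [FiniteDimensional k W] (ρ : Representation k G V)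
    (σ : Representation k G W) (e : V ≃ₗ[k] W) (he : ∀ g v, e (ρ g v) = σ g (e v)) (g : G) :
    brauer p ρ g = brauer p σ g := by
  unfold brauer
  have h : e.conj (ρ g) = σ g := by
    ext w
    rw [LinearEquiv.conj_apply_apply, he, LinearEquiv.apply_symm_apply]
  rw [← h, LinearEquiv.charpoly_conj]

/-- The Brauer character reduces to the trace. -/
theorem constantCoeff_brauer [CharP k p] {V : Type} [AddCommGroup V] [Module k V]
    [FiniteDimensional k V] (ρ : Representation k G V) (g : G) :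
    WittVector.constantCoeff (brauer p ρ g) =
      algebraMap k (AlgebraicClosure k) (LinearMap.trace k V (ρ g)) := by
  unfold brauer
  rw [map_multiset_sum, Multiset.map_map]
  have e : (WittVector.constantCoeff ∘ (WittVector.teichmuller p :
      AlgebraicClosure k →* WittVector p (AlgebraicClosure k))) = id := by
    funext x
    exact WittVector.teichmuller_coeff_zero p x
  have e' : (fun x : AlgebraicClosure k =>
      WittVector.constantCoeff ((WittVector.teichmuller p :
        AlgebraicClosure k →* WittVector p (AlgebraicClosure k)) x)) = id := e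
  rw [show (⇑(WittVector.constantCoeff (p := p) (R := AlgebraicClosure k)) ∘
      ⇑(WittVector.teichmuller p : AlgebraicClosure k →* WittVector p (AlgebraicClosure k))) = id
      from e, Multiset.map_id]
  have hmon : ((ρ g).charpoly.map (algebraMap k (AlgebraicClosure k))).Monic :=
    (LinearMap.charpoly_monic _).map _
  have hs := (IsAlgClosed.splits
    ((ρ g).charpoly.map (algebraMap k (AlgebraicClosure k)))).nextCoeff_eq_neg_sum_roots_of_monic
    hmon
  have hs' : ((ρ g).charpoly.map (algebraMap k (AlgebraicClosure k))).roots.sum =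
      - ((ρ g).charpoly.map (algebraMap k (AlgebraicClosure k))).nextCoeff := by
    rw [hs, neg_neg]
  rw [aroots_def, hs',
    Polynomial.nextCoeff_map (algebraMap k (AlgebraicClosure k)).injective]
  rw [← map_neg]
  congr 1
  rw [LinearMap.trace_eq_matrix_trace k (Module.Free.chooseBasis k V),
    Matrix.trace_eq_neg_charpoly_nextCoeff, LinearMap.charpoly_toMatrix]

/-- Invariance under `g ↦ g ^ #k`. -/
theorem brauer_pow_card [Finite k] {V : Type} [AddCommGroup V] [Module k V]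
    [FiniteDimensional k V] (ρ : Representation k G V) (g : G) :
    brauer p ρ (g ^ Nat.card k) = brauer p ρ g := by
  classical
  haveI : Fintype k := Fintype.ofFinite k
  unfold brauer
  have h : (ρ (g ^ Nat.card k)).charpoly = (ρ g).charpoly := by
    rw [map_pow, ← LinearMap.charpoly_toMatrix _ (Module.Free.chooseBasis k V),
      ← LinearMap.toMatrix_pow, Nat.card_eq_fintype_card, FiniteField.Matrix.charpoly_pow_card,
      LinearMap.charpoly_toMatrix]
  rw [h]

/-- **BR.** -/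
theorem stmt_BR : Stmt_BR := by
  intro p _ k _ _ _ G _
  refine ⟨⟨?_, ?_⟩, ?_, ?_⟩
  · intro V W _ _ _ _ _ ρ σ e he
    haveI : FiniteDimensional k W := LinearEquiv.finiteDimensional e
    funext g
    rw [brauerFn_of, brauerFn_of]
    exact brauer_iso p ρ σ e he g
  · intro V _ _ _ ρ W hW
    funext g
    rw [brauerFn_of, brauerFn_of, brauerFn_of, Pi.add_apply]
    exact brauer_add p ρ W hW g
  · intro V _ _ _ ρ g
    exact constantCoeff_brauer p ρ g
  · intro V _ _ _ ρ g
    exact brauer_pow_card p ρ g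

end Brauer

end Fermat.Agent.S56.IND.H74

end

end
-- ==== END Fermat.Agent.S56.IND.H74_BR

-- ==== BEGIN Fermat.Agent.S56.IND.H74_JH
section

set_option autoImplicit false
set_option linter.style.haveILetI false
set_option linter.unusedSectionVars false

/-!
# Package IND-1 = JH (helper74): composition factors as seen by additive functions
-/

noncomputable section

namespace Fermat.Agent.S56.IND.H74

open Module

variable {k : Type} [Field k] {G : Type} [Group G]

/-- An additive function vanishes on zero modules. -/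
theorem IsAdditiveFn.zero_of_subsingleton {A : Type} [AddCommGroup A] {F : Rep.{0} k G → A}
    (hF : IsAdditiveFn k G F) {V : Type} [AddCommGroup V] [Module k V] [FiniteDimensional k V]
    [Subsingleton V] (ρ : Representation k G V) : F (Rep.of ρ) = 0 := by
  have hW : ∀ g, (⊥ : Submodule k V) ≤ (⊥ : Submodule k V).comap (ρ g) := by
    intro g v hv
    rw [Submodule.mem_bot] at hv
    rw [Submodule.mem_comap, hv, map_zero]
    exact Submodule.zero_mem _
  have h := hF.add ρ ⊥ hW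
  have e1 : F (Rep.of ρ) = F (Rep.of (ρ.subrepresentation ⊥ hW)) := by
    refine hF.iso ρ _ (LinearEquiv.ofSubsingleton V (⊥ : Submodule k V)) ?_
    intro g v
    exact Subsingleton.elim _ _
  have e2 : F (Rep.of ρ) = F (Rep.of (ρ.quotient ⊥ hW)) := by
    haveI : Subsingleton (V ⧸ (⊥ : Submodule k V)) := by
      refine ⟨fun a b => ?_⟩
      obtain ⟨a', rfl⟩ := Submodule.Quotient.mk_surjective _ a
      obtain ⟨b', rfl⟩ := Submodule.Quotient.mk_surjective _ b
      rw [Subsingleton.elim a' b']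
    refine hF.iso ρ _ (LinearEquiv.ofSubsingleton V (V ⧸ (⊥ : Submodule k V))) ?_
    intro g v
    exact Subsingleton.elim _ _
  rw [← e1, ← e2] at h
  have : F (Rep.of ρ) + 0 = F (Rep.of ρ) + F (Rep.of ρ) := by rw [add_zero]; exact h
  exact (add_left_cancel this).symm

/-- A nonzero finite-dimensional representation has a simple subrepresentation. -/
theorem exists_simple_sub {V : Type} [AddCommGroup V] [Module k V] [FiniteDimensional k V]
    [Nontrivial V] (ρ : Representation k G V) :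
    ∃ (W : Submodule k V) (hW : ∀ g, W ≤ W.comap (ρ g)), W ≠ ⊥ ∧
      IsSimpleRep (ρ.subrepresentation W hW) := by
  classical
  -- the minimal dimension of a nonzero stable subspace
  have hex : ∃ d : ℕ, ∃ W : Submodule k V, (∀ g, W ≤ W.comap (ρ g)) ∧ W ≠ ⊥ ∧ finrank k W = d :=
    ⟨finrank k (⊤ : Submodule k V), ⊤, fun g => le_top, top_ne_bot, rfl⟩
  obtain ⟨W, hW, hW0, hd⟩ := Nat.find_spec hex
  have hmin : ∀ U : Submodule k V, (∀ g, U ≤ U.comap (ρ g)) → U ≠ ⊥ →
      Nat.find hex ≤ finrank k U := fun U hU hU0 =>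
    Nat.find_min' hex ⟨U, hU, hU0, rfl⟩
  refine ⟨W, hW, hW0, ?_, ?_⟩
  · exact Submodule.nontrivial_iff_ne_bot.mpr hW0
  · intro U hU
    by_cases hU0 : U = ⊥
    · exact Or.inl hU0
    · right
      -- the image of `U` in `V`
      have hU' : ∀ g, U.map W.subtype ≤ (U.map W.subtype).comap (ρ g) := by
        intro g v hv
        obtain ⟨u, hu, rfl⟩ := Submodule.mem_map.mp hv
        rw [Submodule.mem_comap]
        refine Submodule.mem_map.mpr ⟨(ρ.subrepresentation W hW) g u, hU g hu, ?_⟩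
        rfl
      have hU'0 : U.map W.subtype ≠ ⊥ := by
        intro h
        apply hU0
        rw [Submodule.eq_bot_iff]
        intro u hu
        have h1 : W.subtype u ∈ U.map W.subtype := Submodule.mem_map_of_mem hu
        rw [h, Submodule.mem_bot] at h1
        exact W.subtype_injective (h1.trans (map_zero _).symm)
      have h1 := hmin _ hU' hU'0
      have h2 : finrank k (U.map W.subtype) = finrank k U :=
        LinearEquiv.finrank_eq (Submodule.equivMapOfInjective W.subtype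
          W.subtype_injective U).symm
      have h3 : finrank k W ≤ finrank k U := by
        rw [← h2, hd]
        exact h1
      exact Submodule.eq_top_of_finrank_eq (le_antisymm (Submodule.finrank_le U) h3)

theorem jh_aux : ∀ (d : ℕ) (V : Type) [AddCommGroup V] [Module k V] [FiniteDimensional k V]
    (ρ : Representation k G V), finrank k V = d →
    ∃ (n : ℕ) (S : Fin n → Rep.{0} k G), (∀ i, FiniteDimensional k (S i)) ∧
      (∀ i, IsSimpleRep (S i).ρ) ∧
      ∀ (A : Type) [AddCommGroup A] (F : Rep.{0} k G → A), IsAdditiveFn k G F →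
        F (Rep.of ρ) = ∑ i, F (S i) := by
  intro d
  induction d using Nat.strong_induction_on with
  | _ d ih =>
    intro V _ _ _ ρ hd
    by_cases hV : Subsingleton V
    · refine ⟨0, Fin.elim0, fun i => i.elim0, fun i => i.elim0, ?_⟩
      intro A _ F hF
      rw [Finset.univ_eq_empty, Finset.sum_empty]
      exact IsAdditiveFn.zero_of_subsingleton hF ρ
    · haveI : Nontrivial V := not_subsingleton_iff_nontrivial.mp hV
      obtain ⟨W, hW, hW0, hsimple⟩ := exists_simple_sub ρ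
      have hlt : finrank k (V ⧸ W) < d := by
        have h1 := Submodule.finrank_quotient_add_finrank W
        have h2 : 0 < finrank k W := by
          rw [Module.finrank_pos_iff]
          exact Submodule.nontrivial_iff_ne_bot.mpr hW0
        omega
      obtain ⟨n, S, hfd, hS, hsum⟩ := ih _ hlt (V ⧸ W) (ρ.quotient W hW) rfl
      refine ⟨n + 1, Fin.cons (Rep.of (ρ.subrepresentation W hW)) S, ?_, ?_, ?_⟩
      · intro i
        refine Fin.cases ?_ (fun j => ?_) i
        · rw [Fin.cons_zero]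
          exact (inferInstance : FiniteDimensional k W)
        · rw [Fin.cons_succ]
          exact hfd j
      · intro i
        refine Fin.cases ?_ (fun j => ?_) i
        · rw [Fin.cons_zero]
          exact hsimple
        · rw [Fin.cons_succ]
          exact hS j
      · intro A _ F hF
        rw [Fin.sum_univ_succ, hF.add ρ W hW, hsum A F hF]
        simp only [Fin.cons_zero, Fin.cons_succ]

/-- **JH.** -/
theorem stmt_JH : Stmt_JH := by
  intro k _ G _ V _ _ _ ρ
  exact jh_aux (finrank k V) V ρ rfl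

end Fermat.Agent.S56.IND.H74

end

end
-- ==== END Fermat.Agent.S56.IND.H74_JH
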