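-- GENERATED (merged mirror, NOTES/tools/trim/merge3_helper67.py): 2 modules of the originals, bodies verbatim.
import Mathlib
import Fermat.Prelude.Def_GaloisRep_Adic
import Fermat.Prelude.Def_GaloisRep_LocalConditions
import Fermat.Prelude.Def_EllipticCurve_FrobeniusTrace
import Fermat.Prelude.Def_FLTPrelim_Ramification

-- ==== BEGIN Fermat.Agent.S56.TWS.H74_Coc
section

set_option autoImplicit false

/-!
# TW-SELECT, package TWS-A (helper74): twisted cocycles with values in `2 × 2` matrices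

`R : G →* M₂(k)`, `χ : G →* kˣ` with `det R = χ`, and `c : G → M₂(k)` with trace zero and
`c (g h) = c g + χ g • (R g * c h * R g⁻¹)`, vanishing on `ker R`.
`τ g = tr (c g * R g)`.  This file: basic identities, the trace identity, vanishing of `τ` on
elements with distinct eigenvalues.
-/

namespace Fermat.Agent.S56.TWS.H74

open Matrix

variable {k : Type} [Field k] {G : Type} [Group G]

/-- Twisted cocycle data. -/
structure TwCoc (R : G →* Matrix (Fin 2) (Fin 2) k) (χ : G →* kˣ)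
    (c : G → Matrix (Fin 2) (Fin 2) k) : Prop where
  det : ∀ g, (R g).det = χ g
  tr : ∀ g, (c g).trace = 0
  mul : ∀ g h, c (g * h) = c g + (χ g : k) • (R g * c h * R g⁻¹)
  ker : ∀ s, R s = 1 → c s = 0

/-- The coboundary of `m`. -/
def cobd (R : G →* Matrix (Fin 2) (Fin 2) k) (χ : G →* kˣ) (m : Matrix (Fin 2) (Fin 2) k)
    (g : G) : Matrix (Fin 2) (Fin 2) k :=
  (χ g : k) • (R g * m * R g⁻¹) - m

/-- `τ g = tr (c g * R g)`. -/
def tau (R : G →* Matrix (Fin 2) (Fin 2) k) (c : G → Matrix (Fin 2) (Fin 2) k) (g : G) : k :=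
  (c g * R g).trace

section Basic

variable {R : G →* Matrix (Fin 2) (Fin 2) k} {χ : G →* kˣ}

theorem R_mul_inv (R : G →* Matrix (Fin 2) (Fin 2) k) (g : G) : R g * R g⁻¹ = 1 := by
  rw [← map_mul, mul_inv_cancel, map_one]

theorem R_inv_mul (R : G →* Matrix (Fin 2) (Fin 2) k) (g : G) : R g⁻¹ * R g = 1 := by
  rw [← map_mul, inv_mul_cancel, map_one]

/-- Cayley-Hamilton for `2 × 2` matrices. -/
theorem cayley (A : Matrix (Fin 2) (Fin 2) k) : A * A = A.trace • A - A.det • 1 := by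
  ext i j
  fin_cases i <;> fin_cases j <;>
    simp [Matrix.mul_apply, Fin.sum_univ_two, Matrix.trace, Matrix.det_fin_two] <;> ring

/-- The inverse of a matrix of determinant one. -/
theorem inv_of_det_one {A B : Matrix (Fin 2) (Fin 2) k} (hA : A.det = 1) (hBA : B * A = 1) :
    B = A.trace • 1 - A := by
  have h1 : A * (A.trace • 1 - A) = 1 := by
    rw [mul_sub, cayley A, hA, one_smul]
    simp
  calc B = B * (A * (A.trace • 1 - A)) := by rw [h1, mul_one]
    _ = (B * A) * (A.trace • 1 - A) := by rw [mul_assoc]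
    _ = A.trace • 1 - A := by rw [hBA, one_mul]

/-- The core of the trace identity. -/
theorem trace_core (X Y c : Matrix (Fin 2) (Fin 2) k) (hc : c.trace = 0) :
    (X * c * Y).trace + (X * Y * c).trace - Y.trace * (X * c).trace = X.trace * (c * Y).trace := by
  have hc' : c 0 0 + c 1 1 = 0 := by simpa [Matrix.trace, Fin.sum_univ_two] using hc
  simp only [Matrix.trace, Matrix.diag, Matrix.mul_apply, Fin.sum_univ_two]
  linear_combination (X 0 1 * Y 1 0 + X 1 0 * Y 0 1 - X 0 0 * Y 1 1 - X 1 1 * Y 0 0) * hc'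

end Basic

section Coc

variable {R : G →* Matrix (Fin 2) (Fin 2) k} {χ : G →* kˣ}
  {c : G → Matrix (Fin 2) (Fin 2) k}

theorem TwCoc.c_one (h : TwCoc R χ c) : c 1 = 0 := h.ker 1 (map_one R)

theorem TwCoc.det_one (h : TwCoc R χ c) {g : G} (hg : χ g = 1) : (R g).det = 1 := by
  rw [h.det, hg, Units.val_one]

theorem TwCoc.mul_of_one (h : TwCoc R χ c) {g : G} (hg : χ g = 1) (x : G) :
    c (g * x) = c g + R g * c x * R g⁻¹ := by
  rw [h.mul, hg, Units.val_one, one_smul]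

theorem TwCoc.c_inv (h : TwCoc R χ c) {g : G} (hg : χ g = 1) :
    c g⁻¹ = - (R g⁻¹ * c g * R g) := by
  have hg' : χ g⁻¹ = 1 := by rw [map_inv, hg, inv_one]
  have h1 := h.mul_of_one hg' g
  rw [inv_mul_cancel, h.c_one, inv_inv] at h1
  exact eq_neg_of_add_eq_zero_left h1.symm

theorem TwCoc.c_congr (h : TwCoc R χ c) {a b : G} (hab : R a = R b) : c a = c b := by
  have h1 : R (b⁻¹ * a) = 1 := by rw [map_mul, hab, R_inv_mul]
  have h2 := h.mul b (b⁻¹ * a)
  rw [h.ker _ h1, mul_inv_cancel_left] at h2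
  simpa using h2

theorem chi_pow {χ : G →* kˣ} {g : G} (hg : χ g = 1) (n : ℕ) : χ (g ^ n) = 1 := by
  rw [map_pow, hg, one_pow]

/-- Lemma P: for `X` commuting with `R g`, `tr (c (g ^ n) X) = n tr (c g X)`. -/
theorem TwCoc.trace_pow (h : TwCoc R χ c) {g : G} (hg : χ g = 1)
    (X : Matrix (Fin 2) (Fin 2) k) (hX : Commute X (R g)) (n : ℕ) :
    (c (g ^ n) * X).trace = n * (c g * X).trace := by
  induction n with
  | zero => simp [h.c_one]
  | succ n ih =>
    rw [pow_succ, h.mul_of_one (chi_pow hg n), add_mul, Matrix.trace_add, ih]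
    have hXn : Commute X (R (g ^ n)) := by rw [map_pow]; exact hX.pow_right n
    have e : (R (g ^ n) * c g * R (g ^ n)⁻¹ * X).trace = (c g * X).trace := by
      calc (R (g ^ n) * c g * R (g ^ n)⁻¹ * X).trace
          = (R (g ^ n) * (c g * R (g ^ n)⁻¹ * X)).trace := by
            rw [mul_assoc, mul_assoc, mul_assoc]
        _ = ((c g * R (g ^ n)⁻¹ * X) * R (g ^ n)).trace := Matrix.trace_mul_comm _ _
        _ = (c g * (R (g ^ n)⁻¹ * (X * R (g ^ n)))).trace := by
            rw [mul_assoc, mul_assoc]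
        _ = (c g * (R (g ^ n)⁻¹ * (R (g ^ n) * X))).trace := by rw [hXn.eq]
        _ = (c g * X).trace := by rw [← mul_assoc (R (g ^ n)⁻¹), R_inv_mul, one_mul]
    rw [e]
    push_cast
    ring

/-- `τ` vanishes on elements of order prime to the characteristic. -/
theorem TwCoc.tau_eq_zero_of_pow (h : TwCoc R χ c) {g : G} (hg : χ g = 1) (n : ℕ)
    (hn : R g ^ n = 1) (hn0 : (n : k) ≠ 0) : tau R c g = 0 := by
  have h1 := h.trace_pow hg (R g) (Commute.refl _) n
  have h2 : c (g ^ n) = 0 := h.ker _ (by rw [map_pow, hn])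
  rw [h2, zero_mul, Matrix.trace_zero] at h1
  rcases mul_eq_zero.mp h1.symm with h3 | h3
  · exact absurd h3 hn0
  · exact h3

/-- The twisted conjugation invariance of `τ`. -/
theorem TwCoc.tau_conj (h : TwCoc R χ c) {g : G} (hg : χ g = 1) (x : G) :
    tau R c (x * g * x⁻¹) = (χ x : k) * tau R c g := by
  unfold tau
  have hx : (χ x : k) ≠ 0 := (χ x).ne_zero
  have hxinv : ((χ x⁻¹ : kˣ) : k) = (χ x : k)⁻¹ := by rw [map_inv, Units.val_inv_eq_inv_val]
  -- c (x⁻¹) in terms of c x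
  have h1 := h.mul x⁻¹ x
  rw [inv_mul_cancel, h.c_one, inv_inv, hxinv] at h1
  have h1' : c x⁻¹ = - ((χ x : k)⁻¹ • (R x⁻¹ * c x * R x)) := eq_neg_of_add_eq_zero_left h1.symm
  have h2 : c (x * g * x⁻¹) = c x + (χ x : k) • (R x * (c g + R g * c x⁻¹ * R g⁻¹) * R x⁻¹) := by
    rw [mul_assoc, h.mul x (g * x⁻¹), h.mul_of_one hg]
  rw [h2, h1', map_mul, map_mul]
  simp only [mul_add, add_mul, Matrix.mul_neg, Matrix.neg_mul, Matrix.mul_smul, Matrix.smul_mul,
    smul_add, smul_neg, smul_smul, mul_inv_cancel₀ hx, one_smul, Matrix.trace_add,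
    Matrix.trace_neg, Matrix.trace_smul, smul_eq_mul]
  have e1 : (R x * c g * R x⁻¹ * (R x * R g * R x⁻¹)).trace = (c g * R g).trace := by
    calc (R x * c g * R x⁻¹ * (R x * R g * R x⁻¹)).trace
        = (R x * (c g * (R x⁻¹ * R x) * R g * R x⁻¹)).trace := by
          simp only [mul_assoc]
      _ = ((c g * (R x⁻¹ * R x) * R g * R x⁻¹) * R x).trace := Matrix.trace_mul_comm _ _
      _ = (c g * R g).trace := by
          rw [R_inv_mul, mul_one, mul_assoc, R_inv_mul, mul_one]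
  have e2 : (R x * (R g * (R x⁻¹ * c x * R x) * R g⁻¹) * R x⁻¹ * (R x * R g * R x⁻¹)).trace
      = (c x * (R x * R g * R x⁻¹)).trace := by
    calc (R x * (R g * (R x⁻¹ * c x * R x) * R g⁻¹) * R x⁻¹ * (R x * R g * R x⁻¹)).trace
        = ((R x * R g * R x⁻¹) * (c x * (R x * (R g⁻¹ * (R x⁻¹ * R x) * R g) * R x⁻¹))).trace := by
          simp only [mul_assoc]
      _ = ((R x * R g * R x⁻¹) * c x).trace := by
          rw [R_inv_mul, mul_one, R_inv_mul, mul_one, R_mul_inv, mul_one]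
      _ = (c x * (R x * R g * R x⁻¹)).trace := Matrix.trace_mul_comm _ _
  rw [e1, e2]
  ring

/-- The trace identity. -/
theorem TwCoc.tau_mul (h : TwCoc R χ c) {g x : G} (hg : χ g = 1) (hx : χ x = 1) :
    tau R c (g * x) + tau R c (g * x⁻¹) =
      tau R c g * (R x).trace + (R g).trace * tau R c x := by
  unfold tau
  have hinv : R x⁻¹ = (R x).trace • 1 - R x := inv_of_det_one (h.det_one hx) (R_inv_mul R x)
  rw [h.mul_of_one hg x, h.mul_of_one hg x⁻¹, h.c_inv hx, map_mul, map_mul]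
  have e1 : ((c g + R g * c x * R g⁻¹) * (R g * R x)).trace =
      (c g * R g * R x).trace + (R g * c x * R x).trace := by
    rw [add_mul, Matrix.trace_add]
    congr 1
    · rw [mul_assoc]
    · rw [mul_assoc (R g * c x), ← mul_assoc (R g⁻¹), R_inv_mul, one_mul]
  have e2 : ((c g + R g * -(R x⁻¹ * c x * R x) * R g⁻¹) * (R g * R x⁻¹)).trace =
      (c g * R g * R x⁻¹).trace - (R g * R x⁻¹ * c x).trace := by
    rw [add_mul, Matrix.trace_add, sub_eq_add_neg]
    congr 1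
    · rw [mul_assoc]
    · rw [Matrix.mul_neg, Matrix.neg_mul, Matrix.neg_mul, Matrix.trace_neg]
      congr 1
      rw [mul_assoc (R g * (R x⁻¹ * c x * R x)), ← mul_assoc (R g⁻¹), R_inv_mul, one_mul,
        mul_assoc (R g), mul_assoc (R x⁻¹ * c x), R_mul_inv, mul_one, ← mul_assoc]
  rw [e1, e2]
  have e3 : (c g * R g * R x⁻¹).trace = (R x).trace * (c g * R g).trace - (c g * R g * R x).trace := by
    rw [hinv, mul_sub, Matrix.trace_sub, Matrix.mul_smul, Matrix.trace_smul, mul_one, smul_eq_mul]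
  have e4 : (R g * R x⁻¹ * c x).trace = (R x).trace * (R g * c x).trace - (R g * R x * c x).trace := by
    rw [hinv, mul_sub, sub_mul, Matrix.trace_sub, Matrix.mul_smul, Matrix.smul_mul,
      Matrix.trace_smul, mul_one, smul_eq_mul]
  rw [e3, e4]
  have key := trace_core (R g) (R x) (c x) (h.tr x)
  linear_combination key

end Coc

section Eig

/-- A matrix with two distinct eigenvalues `α`, `β` with `α ^ n = β ^ n = 1` has `A ^ n = 1`. -/
theorem pow_eq_one_of_eig {A : Matrix (Fin 2) (Fin 2) k} {α β : k} (htr : A.trace = α + β)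
    (hdet : A.det = α * β) (hne : α ≠ β) (n : ℕ) (hα : α ^ n = 1) (hβ : β ^ n = 1) :
    A ^ n = 1 := by
  have hab : α - β ≠ 0 := sub_ne_zero.mpr hne
  have hCH : A * A = (α + β) • A - (α * β) • 1 := by rw [cayley A, htr, hdet]
  have key : ∀ m : ℕ, (α - β) • A ^ m = α ^ m • (A - β • 1) - β ^ m • (A - α • 1) := by
    intro m
    induction m with
    | zero =>
      simp only [pow_zero, one_smul]
      rw [sub_sub_sub_cancel_left, ← sub_smul]
    | succ m ih =>
      rw [pow_succ', ← Matrix.mul_smul, ih, mul_sub, Matrix.mul_smul, Matrix.mul_smul, mul_sub,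
        mul_sub, Matrix.mul_smul, Matrix.mul_smul, mul_one, hCH]
      simp only [smul_sub, smul_smul, pow_succ]
      module
  have h1 := key n
  rw [hα, hβ, one_smul, one_smul, sub_sub_sub_cancel_left, ← sub_smul] at h1
  have h2 : (α - β)⁻¹ • ((α - β) • A ^ n) = (α - β)⁻¹ • ((α - β) • (1 : Matrix (Fin 2) (Fin 2) k)) := by
    rw [h1]
  rwa [smul_smul, smul_smul, inv_mul_cancel₀ hab, one_smul, one_smul] at h2

variable {R : G →* Matrix (Fin 2) (Fin 2) k} {χ : G →* kˣ}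
  {c : G → Matrix (Fin 2) (Fin 2) k}

/-- `τ` vanishes on elements of `ker χ` whose trace is not `± 2` (`k` finite, eigenvalues in
`k`). -/
theorem TwCoc.tau_eq_zero_of_sq_ne [Fintype k] (h : TwCoc R χ c)
    (hsplit : ∀ g, ∃ α β : k, (R g).trace = α + β ∧ (R g).det = α * β) {g : G} (hg : χ g = 1)
    (hne : (R g).trace ^ 2 ≠ 4) : tau R c g = 0 := by
  obtain ⟨α, β, htr, hdet⟩ := hsplit g
  have hd1 : α * β = 1 := by rw [← hdet, h.det_one hg]
  have hα0 : α ≠ 0 := left_ne_zero_of_mul_eq_one hd1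
  have hβ0 : β ≠ 0 := right_ne_zero_of_mul_eq_one hd1
  have hab : α ≠ β := by
    intro hab
    apply hne
    rw [htr, hab]
    rw [hab] at hd1
    linear_combination 4 * hd1
  have hq : 1 ≤ Fintype.card k := Fintype.card_pos
  have hn0 : ((Fintype.card k - 1 : ℕ) : k) ≠ 0 := by
    rw [Nat.cast_sub hq, FiniteField.cast_card_eq_zero, Nat.cast_one, zero_sub]
    exact neg_ne_zero.mpr one_ne_zero
  exact h.tau_eq_zero_of_pow hg (Fintype.card k - 1)
    (pow_eq_one_of_eig htr hdet hab _ (FiniteField.pow_card_sub_one_eq_one α hα0)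
      (FiniteField.pow_card_sub_one_eq_one β hβ0)) hn0

end Eig

end Fermat.Agent.S56.TWS.H74

end
-- ==== END Fermat.Agent.S56.TWS.H74_Coc

-- ==== BEGIN Fermat.Agent.S59.TWGal.Defs
section

set_option autoImplicit false

open Polynomial IsLocalRing

namespace Fermat.Agent.S59.TWGal

/-- `Q̄`. -/
abbrev Qb : Type := AlgebraicClosure ℚ

/-- The absolute Galois group of `ℚ`. -/
abbrev GQ : Type := Qb ≃ₐ[ℚ] Qb

/-! ### Matrix lemmas -/

/-- **MatUnip**: `1 + M₂(I)` has no prime-to-`p` torsion modulo `I ^ N` (`p ∈ I`). -/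
def Stmt_MatUnip : Prop :=
  ∀ (A : Type) [CommRing A] (I : Ideal A) (p m N : ℕ), (p : A) ∈ I → m.Coprime p →
  ∀ (Y : Matrix (Fin 2) (Fin 2) A), (∀ i j, (Y - 1) i j ∈ I) →
    (∀ i j, (Y ^ m - 1) i j ∈ I ^ N) → ∀ i j, (Y - 1) i j ∈ I ^ N

/-- **MatDiag**: the tame relation `F Y F⁻¹ = Y ^ q` forces `Y ≡ 1 mod I` to be diagonal in an
eigenbasis of `F` (eigenvalues `a`, `b` with `a - q b`, `b - q a` units). -/
def Stmt_MatDiag : Prop :=
  ∀ (A : Type) [CommRing A] (I : Ideal A) (N q : ℕ) (a b : A),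
    IsUnit (a - (q : A) * b) → IsUnit (b - (q : A) * a) →
  ∀ (Y : Matrix (Fin 2) (Fin 2) A), (∀ i j, (Y - 1) i j ∈ I) →
    (∀ i j, (Matrix.diagonal ![a, b] * Y - Y ^ q * Matrix.diagonal ![a, b]) i j ∈ I ^ N) →
    Y 0 1 ∈ I ^ N ∧ Y 1 0 ∈ I ^ N

/-! ### Hensel -/

/-- **EIG**: eigenbasis from distinct residual eigenvalues. -/
def Stmt_EIG : Prop :=
  ∀ (A : Type) [CommRing A] [IsLocalRing A] [HenselianLocalRing A]
    (V : Type) [AddCommGroup V] [Module A V] [Module.Free A V] [Module.Finite A V],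
    Module.finrank A V = 2 →
  ∀ (f : Module.End A V) (α β : ResidueField A), α ≠ β →
    (LinearMap.charpoly f).map (residue A) = (X - C α) * (X - C β) →
    ∃ (b : Module.Basis (Fin 2) A V) (a₁ a₂ : A),
      residue A a₁ = α ∧ residue A a₂ = β ∧ f (b 0) = a₁ • b 0 ∧ f (b 1) = a₂ • b 1

/-! ### Tame inertia at finite level -/

/-- **TAME**: for a finite extension `F/ℚ` (inside `Q̄`), a place `P` over `q` and a Frobenius
`φ` at `P`: there is `τ₀ ∈ I_P` such that, modulo the subgroup fixing `F`,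
every `σ ∈ I_P` is a power of `τ₀` up to an element of `q`-power order, `φ τ₀ φ⁻¹ = τ₀ ^ q` up to
an element of `q`-power order, and every element of `D_P` is `φ ^ n σ`, `σ ∈ I_P`. -/
def Stmt_TAME : Prop :=
  ∀ (q : ℕ), q.Prime → ∀ (P : ValuationSubring Qb), P.LiesOverPrime q →
  ∀ (φ : GQ), P.IsFrobeniusAt φ q →
  ∀ (F : IntermediateField ℚ Qb), FiniteDimensional ℚ F →
    ∃ τ₀ ∈ P.inertiaSubgroupIn ℚ,
      (∀ σ ∈ P.inertiaSubgroupIn ℚ, ∃ j e : ℕ,
        ((τ₀ ^ j)⁻¹ * σ) ^ (q ^ e) ∈ F.fixingSubgroup) ∧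
      (∃ e : ℕ, ((τ₀ ^ q)⁻¹ * (φ * τ₀ * φ⁻¹)) ^ (q ^ e) ∈ F.fixingSubgroup) ∧
      (∀ g ∈ P.decompositionSubgroup ℚ, ∃ (n : ℕ) (σ : GQ),
        σ ∈ P.inertiaSubgroupIn ℚ ∧ (φ ^ n * σ)⁻¹ * g ∈ F.fixingSubgroup)

/-! ### The splitting -/

/-- **G1** (splitting at a Taylor–Wiles prime), hypotheses in terms of `ρ.ρ`:
inertia at `P` acts trivially modulo `𝔪`, the characteristic polynomial of `ρ(φ)` is
`(X - α)(X - β)` modulo `𝔪` with `α ≠ β`, `q ≡ 1` and `p ≡ 0` modulo `𝔪`.  Then `ρ` restricted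
to the decomposition group `D_P` is diagonal in an eigenbasis of `ρ(φ)`. -/
def Stmt_G1 : Prop :=
  ∀ (A : Type) [CommRing A] [IsLocalRing A] [IsNoetherianRing A]
    [IsAdicComplete (maximalIdeal A) A] (p : ℕ), p.Prime → (p : A) ∈ maximalIdeal A →
  ∀ (ρ : GaloisRepAdic A) (q : ℕ), q.Prime → (q : A) - 1 ∈ maximalIdeal A →
  ∀ (P : ValuationSubring Qb), P.LiesOverPrime q →
    (∀ σ ∈ P.inertiaSubgroupIn ℚ, ∀ v : ρ.V,
      ρ.ρ σ v - v ∈ maximalIdeal A • (⊤ : Submodule A ρ.V)) →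
  ∀ (φ : GQ), P.IsFrobeniusAt φ q →
  ∀ (α β : ResidueField A), α ≠ β →
    (LinearMap.charpoly (ρ.ρ φ)).map (residue A) = (X - C α) * (X - C β) →
    ∃ (b : Module.Basis (Fin 2) A ρ.V) (a₁ a₂ : A),
      residue A a₁ = α ∧ residue A a₂ = β ∧
      ρ.ρ φ (b 0) = a₁ • b 0 ∧ ρ.ρ φ (b 1) = a₂ • b 1 ∧
      ∀ g ∈ P.decompositionSubgroup ℚ, ∃ x y : A,
        ρ.ρ g (b 0) = x • b 0 ∧ ρ.ρ g (b 1) = y • b 1

end Fermat.Agent.S59.TWGal

end
-- ==== END Fermat.Agent.S59.TWGal.Defs
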