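-- GENERATED (merged mirror, NOTES/tools/trim/merge3_helper67.py): 11 modules of the originals, bodies verbatim.
import Mathlib
import Fermat.Prelude.Thm_Algebra_finite_maximalSpectrum_and_bijective_localization_of_module_finite

-- ==== BEGIN Fermat.Agent.S55.CFT.H19_CochN
section

set_option autoImplicit false
set_option linter.unusedSectionVars false
set_option linter.unusedVariables false

noncomputable section

namespace Fermat.Agent.S55.CFT.H19

open CategoryTheory groupCohomology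

variable {k G : Type} [CommRing k] [Group G]

section api

variable (A B : Rep.{0} k G) (n : ℕ)

/-- The class of an `(n+1)`-cocycle vanishes iff the cocycle is a coboundary. -/
theorem pi_eq_zero_iff (z : cocycles A (n + 1)) :
    π A (n + 1) z = 0 ↔
      ∃ u : (Fin n → G) → A.V, inhomogeneousCochains.d A n u = iCocycles A (n + 1) z := by
  have hex : (ShortComplex.mk ((inhomogeneousCochains A).toCycles n (n + 1))
      ((inhomogeneousCochains A).homologyπ (n + 1)) (by simp)).Exact :=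
    ShortComplex.exact_of_g_is_cokernel _
      ((inhomogeneousCochains A).homologyIsCokernel n (n + 1) (by simp))
  rw [ShortComplex.moduleCat_exact_iff] at hex
  have hi : ∀ u : (Fin n → G) → A.V,
      iCocycles A (n + 1) ((inhomogeneousCochains A).toCycles n (n + 1) u) =
        inhomogeneousCochains.d A n u := by
    intro u
    have h1 := congrArg (fun f => f.hom u) ((inhomogeneousCochains A).toCycles_i n (n + 1))
    have h2 := congrArg (fun f => f.hom u) (inhomogeneousCochains.d_def A n)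
    exact h1.trans h2
  have hinj : Function.Injective (iCocycles A (n + 1)) :=
    (ModuleCat.mono_iff_injective _).1 inferInstance
  constructor
  · intro h
    obtain ⟨u, hu⟩ := hex z h
    refine ⟨u, ?_⟩
    rw [← hi u]
    exact congrArg _ hu
  · rintro ⟨u, hu⟩
    have h1 : (inhomogeneousCochains A).toCycles n (n + 1) u = z := by
      apply hinj
      rw [hi u, hu]
    rw [← h1]
    exact congrArg (fun f => f.hom u)
      ((inhomogeneousCochains A).toCycles_comp_homologyπ n (n + 1))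

variable {A B}

theorem d_natural (φ : A ⟶ B) (u : (Fin n → G) → A.V) :
    inhomogeneousCochains.d B n (fun g => φ.hom (u g)) =
      fun g => φ.hom (inhomogeneousCochains.d A n u g) := by
  have h := (cochainsMap (MonoidHom.id G) φ).comm n (n + 1)
  have h1 := congrArg (fun f => f.hom u) h
  rw [inhomogeneousCochains.d_def, inhomogeneousCochains.d_def] at h1
  exact h1

theorem iCocycles_cocyclesMap (φ : A ⟶ B) (z : cocycles A n) :
    iCocycles B n (cocyclesMap (MonoidHom.id G) φ n z) =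
      fun g => φ.hom (iCocycles A n z g) := by
  have h := HomologicalComplex.cyclesMap_i (cochainsMap (MonoidHom.id G) φ) n
  exact congrArg (fun f => f.hom z) h

theorem map_pi (φ : A ⟶ B) (z : cocycles A n) :
    (map (MonoidHom.id G) φ n).hom (π A n z) =
      π B n (cocyclesMap (MonoidHom.id G) φ n z) :=
  congrArg (fun f => f.hom z) (π_map (MonoidHom.id G) φ n)

end api

section glue

/-- **Gluing**: a class all of whose components vanish is zero, when `A` is the direct sum of the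
`B i` (presented by the projections `r i`) and `G` is finite. -/
theorem eq_zero_of_components [Finite G] (A : Rep.{0} k G) {I : Type} (B : I → Rep.{0} k G)
    (r : ∀ i, A ⟶ B i)
    (hinj : ∀ a : A.V, (∀ i, (r i).hom a = 0) → a = 0)
    (hfin : ∀ a : A.V, {i | (r i).hom a ≠ 0}.Finite)
    (hglue : ∀ b : ∀ i, (B i).V, {i | b i ≠ 0}.Finite → ∃ a : A.V, ∀ i, (r i).hom a = b i)
    (n : ℕ) (y : groupCohomology A (n + 1))
    (hy : ∀ i, (map (MonoidHom.id G) (r i) (n + 1)).hom y = 0) : y = 0 := by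
  classical
  induction y using groupCohomology_induction_on with
  | h z =>
    -- the components are coboundaries
    have h1 : ∀ i, ∃ u : (Fin n → G) → (B i).V,
        inhomogeneousCochains.d (B i) n u = fun g => (r i).hom (iCocycles A (n + 1) z g) := by
      intro i
      have h2 := hy i
      rw [map_pi, pi_eq_zero_iff] at h2
      obtain ⟨u, hu⟩ := h2
      exact ⟨u, hu.trans (iCocycles_cocyclesMap (n + 1) (r i) z)⟩
    choose u' hu' using h1
    -- the finite set of indices where the cocycle lives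
    set I₀ : Set I := ⋃ g : Fin (n + 1) → G, {i | (r i).hom (iCocycles A (n + 1) z g) ≠ 0}
      with hI₀
    have hI₀fin : I₀.Finite := Set.finite_iUnion (fun g => hfin _)
    have hout : ∀ i, i ∉ I₀ → ∀ g, (r i).hom (iCocycles A (n + 1) z g) = 0 := by
      intro i hi g
      by_contra hne
      exact hi (Set.mem_iUnion.2 ⟨g, hne⟩)
    set u'' : ∀ i, (Fin n → G) → (B i).V := fun i => if i ∈ I₀ then u' i else 0 with hu''
    have hu''d : ∀ i, inhomogeneousCochains.d (B i) n (u'' i) =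
        fun g => (r i).hom (iCocycles A (n + 1) z g) := by
      intro i
      by_cases hi : i ∈ I₀
      · have : u'' i = u' i := if_pos hi
        rw [this]
        exact hu' i
      · have : u'' i = 0 := if_neg hi
        rw [this, map_zero]
        funext g
        exact (hout i hi g).symm
    have hsupp : ∀ g : Fin n → G, {i | u'' i g ≠ 0}.Finite := by
      intro g
      apply hI₀fin.subset
      intro i hi
      by_contra hni
      apply hi
      have : u'' i = 0 := if_neg hni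
      rw [this]
      rfl
    have h3 : ∀ g : Fin n → G, ∃ a : A.V, ∀ i, (r i).hom a = u'' i g :=
      fun g => hglue (fun i => u'' i g) (hsupp g)
    choose u hu using h3
    rw [pi_eq_zero_iff]
    refine ⟨u, ?_⟩
    funext g
    rw [← sub_eq_zero]
    apply hinj
    intro i
    rw [map_sub, sub_eq_zero]
    have h4 := congrFun (d_natural n (r i) u) g
    have h5 : (fun g => (r i).hom (u g)) = u'' i := funext (fun g => hu g i)
    rw [h5, hu''d i] at h4
    exact h4.symm

end glue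

end Fermat.Agent.S55.CFT.H19

end
end
-- ==== END Fermat.Agent.S55.CFT.H19_CochN

-- ==== BEGIN Fermat.Agent.S55.CFT.H19_Hexagon
section

set_option autoImplicit false

namespace Fermat.Agent.S55.CFT.H19

section Core

variable {J : Type*} [AddCommGroup J]

/-- The hexagon count inside `J`, for a subgroup `S` stable under `D` and `N`. -/
theorem hexagon_core (D N : J →+ J) (hDN : ∀ x, D (N x) = 0) (hND : ∀ x, N (D x) = 0)
    (hJ : N.ker ≤ D.range) (S : AddSubgroup J) (hDS : S.map D ≤ S) (hNS : S.map N ≤ S) :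
    (N.range ⊔ S).relIndex (S.comap D) * (S.map N).relIndex (D.ker ⊓ S)
      = (S.map D).relIndex (N.ker ⊓ S) * N.range.relIndex D.ker
        * (D.range ⊔ S).relIndex (S.comap N) := by
  have hNr : N.range ≤ D.ker := by
    rintro _ ⟨x, rfl⟩
    exact hDN x
  have hDr : D.range ≤ N.ker := by
    rintro _ ⟨x, rfl⟩
    exact hND x
  have hkN : N.ker = D.range := le_antisymm hJ hDr
  have hS_D : S ≤ S.comap D := fun x hx => hDS ⟨x, hx, rfl⟩
  have hS_N : S ≤ S.comap N := fun x hx => hNS ⟨x, hx, rfl⟩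
  have hkD_le : D.ker ≤ S.comap D := fun x hx => by
    rw [AddSubgroup.mem_comap, AddMonoidHom.mem_ker.mp hx]
    exact S.zero_mem
  have hkN_le : N.ker ≤ S.comap N := fun x hx => by
    rw [AddSubgroup.mem_comap, AddMonoidHom.mem_ker.mp hx]
    exact S.zero_mem
  -- (i)
  have bC : (D.range ⊔ S).relIndex (S.comap N) = (S.map N).relIndex (N.range ⊓ S) := by
    have h := AddSubgroup.relIndex_map_map N S (S.comap N)
    rw [AddSubgroup.map_comap_eq, sup_of_le_left hkN_le, hkN, sup_comm] at h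
    exact h.symm
  -- (ii)
  have bE : (D.ker ⊔ S).relIndex (S.comap D) = (S.map D).relIndex (N.ker ⊓ S) := by
    have h := AddSubgroup.relIndex_map_map D S (S.comap D)
    rw [AddSubgroup.map_comap_eq, sup_of_le_left hkD_le, ← hkN, sup_comm] at h
    exact h.symm
  -- (iii)
  have c1 : (N.range ⊔ S).relIndex (S.comap D)
      = (N.range ⊔ S).relIndex (D.ker ⊔ S) * (D.ker ⊔ S).relIndex (S.comap D) :=
    (AddSubgroup.relIndex_mul_relIndex _ _ _ (sup_le_sup_right hNr S) (sup_le hkD_le hS_D)).symm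
  -- (iv)
  have c2 : (N.range ⊔ S).relIndex (D.ker ⊔ S) = (N.range ⊔ S ⊓ D.ker).relIndex D.ker := by
    have e : D.ker ⊔ S = D.ker ⊔ (N.range ⊔ S) := by
      rw [← sup_assoc, sup_of_le_left hNr]
    rw [e, AddSubgroup.relIndex_sup_right, ← AddSubgroup.inf_relIndex_right,
      sup_inf_assoc_of_le S hNr]
  -- (v)
  have c3 : N.range.relIndex D.ker
      = N.range.relIndex (N.range ⊔ S ⊓ D.ker) * (N.range ⊔ S ⊓ D.ker).relIndex D.ker :=
    (AddSubgroup.relIndex_mul_relIndex _ _ _ le_sup_left (sup_le hNr inf_le_right)).symm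
  have c4 : N.range.relIndex (N.range ⊔ S ⊓ D.ker) = (N.range ⊓ S).relIndex (D.ker ⊓ S) := by
    rw [AddSubgroup.relIndex_sup_left, ← AddSubgroup.inf_relIndex_right]
    have e : N.range ⊓ (S ⊓ D.ker) = N.range ⊓ S := by
      rw [← inf_assoc]
      exact inf_of_le_left (inf_le_left.trans hNr)
    rw [e, inf_comm S]
  -- (vi)
  have c5 : (S.map N).relIndex (D.ker ⊓ S)
      = (S.map N).relIndex (N.range ⊓ S) * (N.range ⊓ S).relIndex (D.ker ⊓ S) := by
    refine (AddSubgroup.relIndex_mul_relIndex _ _ _ (le_inf ?_ hNS) (inf_le_inf_right S hNr)).symm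
    rintro _ ⟨x, -, rfl⟩
    exact ⟨x, rfl⟩
  rw [c1, c2, c5, bE, bC, c3, c4]
  ring

/-- `[ker N_C : D C]` divides `[ker D_E : N E]` (the connecting map `Ĥ¹(C) → Ĥ⁰(E)` is
injective). -/
theorem hexagon_core_dvd (D N : J →+ J) (hDN : ∀ x, D (N x) = 0) (hND : ∀ x, N (D x) = 0)
    (hJ : N.ker ≤ D.range) (S : AddSubgroup J) (hNS : S.map N ≤ S) :
    (D.range ⊔ S).relIndex (S.comap N) ∣ (S.map N).relIndex (D.ker ⊓ S) := by
  have hNr : N.range ≤ D.ker := by
    rintro _ ⟨x, rfl⟩
    exact hDN x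
  have hDr : D.range ≤ N.ker := by
    rintro _ ⟨x, rfl⟩
    exact hND x
  have hkN : N.ker = D.range := le_antisymm hJ hDr
  have hkN_le : N.ker ≤ S.comap N := fun x hx => by
    rw [AddSubgroup.mem_comap, AddMonoidHom.mem_ker.mp hx]
    exact S.zero_mem
  have bC : (D.range ⊔ S).relIndex (S.comap N) = (S.map N).relIndex (N.range ⊓ S) := by
    have h := AddSubgroup.relIndex_map_map N S (S.comap N)
    rw [AddSubgroup.map_comap_eq, sup_of_le_left hkN_le, hkN, sup_comm] at h
    exact h.symm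
  have c5 : (S.map N).relIndex (D.ker ⊓ S)
      = (S.map N).relIndex (N.range ⊓ S) * (N.range ⊓ S).relIndex (D.ker ⊓ S) := by
    refine (AddSubgroup.relIndex_mul_relIndex _ _ _ (le_inf ?_ hNS) (inf_le_inf_right S hNr)).symm
    rintro _ ⟨x, -, rfl⟩
    exact ⟨x, rfl⟩
  rw [bC, c5]
  exact dvd_mul_right _ _

end Core

section Three

variable {E J C : Type*} [AddCommGroup E] [AddCommGroup J] [AddCommGroup C]

/-- **The Herbrand hexagon, counting form.**  `0 → E → J → C → 0` exact, `(D, N)` compatible,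
`D_J N_J = N_J D_J = 0`, `ker N_J ≤ range D_J`. -/
theorem hexagon (f : E →+ J) (π : J →+ C) (hf : Function.Injective f)
    (hπ : Function.Surjective π) (hex : ∀ y, π y = 0 ↔ ∃ x, f x = y)
    (DE NE : E →+ E) (DJ NJ : J →+ J) (DC NC : C →+ C)
    (hfD : ∀ x, f (DE x) = DJ (f x)) (hfN : ∀ x, f (NE x) = NJ (f x))
    (hπD : ∀ y, π (DJ y) = DC (π y)) (hπN : ∀ y, π (NJ y) = NC (π y))
    (hDN : ∀ y, DJ (NJ y) = 0) (hND : ∀ y, NJ (DJ y) = 0) (hJ : NJ.ker ≤ DJ.range) :
    NC.range.relIndex DC.ker * NE.range.relIndex DE.ker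
      = DE.range.relIndex NE.ker * NJ.range.relIndex DJ.ker * DC.range.relIndex NC.ker := by
  set S : AddSubgroup J := f.range with hS
  have hDS : S.map DJ ≤ S := by
    rintro _ ⟨_, ⟨x, rfl⟩, rfl⟩
    exact ⟨DE x, hfD x⟩
  have hNS : S.map NJ ≤ S := by
    rintro _ ⟨_, ⟨x, rfl⟩, rfl⟩
    exact ⟨NE x, hfN x⟩
  have hker : π.ker = S := by
    ext y
    rw [AddMonoidHom.mem_ker, hex y]
    rfl
  -- `E`-side
  have mapRange : ∀ (φE : E →+ E) (φJ : J →+ J), (∀ x, f (φE x) = φJ (f x)) →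
      φE.range.map f = S.map φJ := by
    intro φE φJ h
    ext y
    constructor
    · rintro ⟨_, ⟨x, rfl⟩, rfl⟩
      exact ⟨f x, ⟨x, rfl⟩, (h x).symm⟩
    · rintro ⟨_, ⟨x, rfl⟩, rfl⟩
      exact ⟨φE x, ⟨x, rfl⟩, h x⟩
  have mapKer : ∀ (φE : E →+ E) (φJ : J →+ J), (∀ x, f (φE x) = φJ (f x)) →
      φE.ker.map f = φJ.ker ⊓ S := by
    intro φE φJ h
    ext y
    rw [AddSubgroup.mem_map, AddSubgroup.mem_inf]
    constructor
    · rintro ⟨x, hx, rfl⟩
      refine ⟨?_, ⟨x, rfl⟩⟩
      rw [AddMonoidHom.mem_ker] at hx ⊢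
      rw [← h x, hx, map_zero]
    · rintro ⟨hy, ⟨x, rfl⟩⟩
      refine ⟨x, ?_, rfl⟩
      rw [AddMonoidHom.mem_ker] at hy ⊢
      apply hf
      rw [h x, hy, map_zero]
  have aE : NE.range.relIndex DE.ker = (S.map NJ).relIndex (DJ.ker ⊓ S) := by
    rw [← AddSubgroup.relIndex_map_map_of_injective _ _ hf, mapRange NE NJ hfN, mapKer DE DJ hfD]
  have bE : DE.range.relIndex NE.ker = (S.map DJ).relIndex (NJ.ker ⊓ S) := by
    rw [← AddSubgroup.relIndex_map_map_of_injective _ _ hf, mapRange DE DJ hfD, mapKer NE NJ hfN]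
  -- `C`-side
  have comapRange : ∀ (φJ : J →+ J) (φC : C →+ C), (∀ y, π (φJ y) = φC (π y)) →
      φC.range.comap π = φJ.range ⊔ S := by
    intro φJ φC h
    ext y
    rw [AddSubgroup.mem_comap, AddSubgroup.mem_sup]
    constructor
    · rintro ⟨c, hc⟩
      obtain ⟨j, rfl⟩ := hπ c
      refine ⟨φJ j, ⟨j, rfl⟩, y - φJ j, ?_, by abel⟩
      rw [← hker, AddMonoidHom.mem_ker, map_sub, h j, hc, sub_self]
    · rintro ⟨_, ⟨j, rfl⟩, s, hs, rfl⟩
      rw [← hker, AddMonoidHom.mem_ker] at hs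
      exact ⟨π j, by rw [map_add, hs, add_zero, h j]⟩
  have comapKer : ∀ (φJ : J →+ J) (φC : C →+ C), (∀ y, π (φJ y) = φC (π y)) →
      φC.ker.comap π = S.comap φJ := by
    intro φJ φC h
    ext y
    rw [AddSubgroup.mem_comap, AddSubgroup.mem_comap, AddMonoidHom.mem_ker, ← h y, ← hker,
      AddMonoidHom.mem_ker]
  have relC : ∀ (H K : AddSubgroup C), H.relIndex K = (H.comap π).relIndex (K.comap π) := by
    intro H K
    rw [AddSubgroup.relIndex_comap, AddSubgroup.map_comap_eq_self_of_surjective hπ]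
  have aC : NC.range.relIndex DC.ker = (NJ.range ⊔ S).relIndex (S.comap DJ) := by
    rw [relC, comapRange NJ NC hπN, comapKer DJ DC hπD]
  have bC : DC.range.relIndex NC.ker = (DJ.range ⊔ S).relIndex (S.comap NJ) := by
    rw [relC, comapRange DJ DC hπD, comapKer NJ NC hπN]
  rw [aE, bE, aC, bC]
  exact hexagon_core DJ NJ hDN hND hJ S hDS hNS

/-- `[ker N_C : D C]` divides `[ker D_E : N E]`. -/
theorem hexagon_dvd (f : E →+ J) (π : J →+ C) (hf : Function.Injective f)
    (hπ : Function.Surjective π) (hex : ∀ y, π y = 0 ↔ ∃ x, f x = y)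
    (DE NE : E →+ E) (DJ NJ : J →+ J) (DC NC : C →+ C)
    (hfD : ∀ x, f (DE x) = DJ (f x)) (hfN : ∀ x, f (NE x) = NJ (f x))
    (hπD : ∀ y, π (DJ y) = DC (π y)) (hπN : ∀ y, π (NJ y) = NC (π y))
    (hDN : ∀ y, DJ (NJ y) = 0) (hND : ∀ y, NJ (DJ y) = 0) (hJ : NJ.ker ≤ DJ.range) :
    DC.range.relIndex NC.ker ∣ NE.range.relIndex DE.ker := by
  set S : AddSubgroup J := f.range with hS
  have hNS : S.map NJ ≤ S := by
    rintro _ ⟨_, ⟨x, rfl⟩, rfl⟩
    exact ⟨NE x, hfN x⟩
  have hker : π.ker = S := by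
    ext y
    rw [AddMonoidHom.mem_ker, hex y]
    rfl
  have aE : NE.range.relIndex DE.ker = (S.map NJ).relIndex (DJ.ker ⊓ S) := by
    rw [← AddSubgroup.relIndex_map_map_of_injective _ _ hf]
    congr 1
    · ext y
      constructor
      · rintro ⟨_, ⟨x, rfl⟩, rfl⟩
        exact ⟨f x, ⟨x, rfl⟩, (hfN x).symm⟩
      · rintro ⟨_, ⟨x, rfl⟩, rfl⟩
        exact ⟨NE x, ⟨x, rfl⟩, hfN x⟩
    · ext y
      rw [AddSubgroup.mem_map, AddSubgroup.mem_inf]
      constructor
      · rintro ⟨x, hx, rfl⟩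
        refine ⟨?_, ⟨x, rfl⟩⟩
        rw [AddMonoidHom.mem_ker] at hx ⊢
        rw [← hfD x, hx, map_zero]
      · rintro ⟨hy, ⟨x, rfl⟩⟩
        refine ⟨x, ?_, rfl⟩
        rw [AddMonoidHom.mem_ker] at hy ⊢
        apply hf
        rw [hfD x, hy, map_zero]
  have bC : DC.range.relIndex NC.ker = (DJ.range ⊔ S).relIndex (S.comap NJ) := by
    rw [← AddSubgroup.map_comap_eq_self_of_surjective hπ NC.ker, ← AddSubgroup.relIndex_comap]
    congr 1
    · ext y
      rw [AddSubgroup.mem_comap, AddSubgroup.mem_sup]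
      constructor
      · rintro ⟨c, hc⟩
        obtain ⟨j, rfl⟩ := hπ c
        refine ⟨DJ j, ⟨j, rfl⟩, y - DJ j, ?_, by abel⟩
        rw [← hker, AddMonoidHom.mem_ker, map_sub, hπD j, hc, sub_self]
      · rintro ⟨_, ⟨j, rfl⟩, s, hs, rfl⟩
        rw [← hker, AddMonoidHom.mem_ker] at hs
        exact ⟨π j, by rw [map_add, hs, add_zero, hπD j]⟩
    · ext y
      rw [AddSubgroup.mem_comap, AddSubgroup.mem_comap, AddMonoidHom.mem_ker, ← hπN y, ← hker,
        AddMonoidHom.mem_ker]
  rw [aE, bC]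
  exact hexagon_core_dvd DJ NJ hDN hND hJ S hNS

end Three

end Fermat.Agent.S55.CFT.H19

end
-- ==== END Fermat.Agent.S55.CFT.H19_Hexagon

-- ==== BEGIN Fermat.Agent.S55.CFT.H58_H90
section

/-!
# CFT package SHL-inf (helper58), part 2: Hilbert 90 for semi-local rings

Let a group `G` act on a commutative `ℚ`-algebra `B` with finitely many maximal ideals, `H` a
finite subgroup of `G` whose elements are pairwise distinct modulo every maximal ideal of `B`.
Then every 1-cocycle `H → Bˣ` is a coboundary.  (Poincaré series `∑ f(h) h(z)`; Dedekind's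
independence of characters modulo each maximal ideal; a `ℚ`-vector space is not a finite union
of proper subspaces.)
-/

set_option autoImplicit false
set_option linter.unusedSectionVars false

noncomputable section

namespace Fermat.Agent.S55.CFT.H58

section H90

variable {G : Type} [Group G] {B : Type} [CommRing B] [MulSemiringAction G B]
  (H : Subgroup G) [Finite H]

/-- The Poincaré series `z ↦ ∑_{h ∈ H} f(h) h(z)`. -/
def poincare [Fintype H] (f : G → B) : B →+ B :=
  ∑ h : H, (AddMonoidHom.mulLeft (f (h : G))).comp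
    (MulSemiringAction.toRingHom G B (h : G) : B →+* B).toAddMonoidHom

lemma poincare_apply [Fintype H] (f : G → B) (z : B) :
    poincare H f z = ∑ h : H, f (h : G) * ((h : G) • z) := by
  simp [poincare]

/-- Dedekind: the Poincaré series is not zero modulo a maximal ideal. -/
lemma exists_poincare_notMem [Fintype H] (f : G → B) (hu : ∀ h : H, IsUnit (f (h : G)))
    (P : Ideal B) (hP : P.IsMaximal)
    (hfaith : ∀ s t : H, (∀ c : B, (s : G) • c - (t : G) • c ∈ P) → s = t) :
    ∃ z : B, poincare H f z ∉ P := by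
  classical
  by_contra hcon
  rw [not_exists] at hcon
  have hcon : ∀ z : B, poincare H f z ∈ P := fun z => not_not.1 (hcon z)
  let _ : Field (B ⧸ P) := Ideal.Quotient.field P
  let χ : H → (B →* (B ⧸ P)) := fun h =>
    ((Ideal.Quotient.mk P).comp (MulSemiringAction.toRingHom G B (h : G)) : B →+* B ⧸ P)
  have hχ : Function.Injective χ := by
    intro s t hst
    apply hfaith
    intro c
    have h1 : χ s c = χ t c := by rw [hst]
    have h2 : Ideal.Quotient.mk P ((s : G) • c) = Ideal.Quotient.mk P ((t : G) • c) := h1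
    exact Ideal.Quotient.eq.1 h2
  have hli : LinearIndependent (B ⧸ P) (fun h : H => (χ h : B → B ⧸ P)) :=
    LinearIndependent.comp (linearIndependent_monoidHom B (B ⧸ P)) χ hχ
  have h0 := Fintype.linearIndependent_iff.1 hli
    (fun h => Ideal.Quotient.mk P (f (h : G))) (by
      funext z
      have h1 := hcon z
      rw [poincare_apply, ← Ideal.Quotient.eq_zero_iff_mem, map_sum] at h1
      simp only [Finset.sum_apply, Pi.smul_apply, smul_eq_mul, Pi.zero_apply]
      rw [← h1]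
      refine Finset.sum_congr rfl (fun h _ => ?_)
      rw [map_mul]
      rfl) 1
  have h1 : IsUnit (Ideal.Quotient.mk P (f ((1 : H) : G))) := (hu 1).map _
  exact h1.ne_zero h0

variable [Algebra ℚ B] [Finite (MaximalSpectrum B)]

/-- The Poincaré series takes a unit value. -/
lemma exists_isUnit_poincare [Fintype H] (f : G → B) (hu : ∀ h : H, IsUnit (f (h : G)))
    (hfaith : ∀ P : Ideal B, P.IsMaximal →
      ∀ s t : H, (∀ c : B, (s : G) • c - (t : G) • c ∈ P) → s = t) :
    ∃ z : B, IsUnit (poincare H f z) := by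
  classical
  let W : MaximalSpectrum B → Submodule ℚ B := fun P =>
    (P.asIdeal.restrictScalars ℚ).comap (poincare H f).toRatLinearMap
  have hW : ∀ P, W P ≠ ⊤ := by
    intro P hP
    obtain ⟨z, hz⟩ := exists_poincare_notMem H f hu P.asIdeal P.isMaximal
      (hfaith P.asIdeal P.isMaximal)
    have : z ∈ W P := by rw [hP]; trivial
    exact hz this
  have hne : ⋃ P, (W P : Set B) ≠ Set.univ := by
    intro hcov
    obtain ⟨P, hP⟩ := Subspace.exists_eq_top_of_iUnion_eq_univ hcov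
    exact hW P hP
  obtain ⟨z, hz⟩ := (Set.ne_univ_iff_exists_notMem _).1 hne
  refine ⟨z, ?_⟩
  by_contra hnu
  obtain ⟨I, hI, hmem⟩ := exists_max_ideal_of_mem_nonunits hnu
  apply hz
  rw [Set.mem_iUnion]
  exact ⟨⟨I, hI⟩, hmem⟩

/-- **Hilbert 90 for semi-local rings**: a 1-cocycle on `H` with values in `Bˣ` is a
coboundary. -/
theorem hilbert90_semilocal (f : G → Bˣ)
    (hf : ∀ s t : G, s ∈ H → t ∈ H → ((f (s * t) : Bˣ) : B) = s • ((f t : Bˣ) : B) * (f s : B))
    (hfaith : ∀ P : Ideal B, P.IsMaximal →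
      ∀ s t : H, (∀ c : B, (s : G) • c - (t : G) • c ∈ P) → s = t) :
    ∃ β : Bˣ, ∀ s : G, s ∈ H → s • (β : B) = (f s : B) * (β : B) := by
  classical
  let _ : Fintype H := Fintype.ofFinite H
  obtain ⟨z, hz⟩ := exists_isUnit_poincare H (fun g => ((f g : Bˣ) : B)) (fun h => (f h).isUnit)
    hfaith
  obtain ⟨b, hb⟩ := hz
  have key : ∀ s : G, s ∈ H → (f s : B) * (s • (b : B)) = (b : B) := by
    intro s hs
    rw [hb, poincare_apply, Finset.smul_sum, Finset.mul_sum]
    have e : ∀ h : H, (f s : B) * s • ((f (h : G) : B) * ((h : G) • z)) =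
        (f (s * (h : G)) : B) * ((s * (h : G)) • z) := by
      intro h
      rw [smul_mul', hf s h hs h.2, mul_smul]
      ring
    rw [Finset.sum_congr rfl (fun h _ => e h)]
    exact Fintype.sum_bijective (fun h : H => (⟨s, hs⟩ : H) * h)
      (Group.mulLeft_bijective _) _ _ (fun h => rfl)
  refine ⟨b⁻¹, fun s hs => ?_⟩
  have h1 := key s hs
  -- `s • b⁻¹ = (s • b)⁻¹`
  have h2 : s • ((b⁻¹ : Bˣ) : B) * (s • (b : B)) = 1 := by
    rw [← smul_mul', Units.inv_mul, smul_one]
  have h3 : IsUnit (s • (b : B)) := IsUnit.of_mul_eq_one _ (by rw [mul_comm]; exact h2)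
  apply h3.mul_right_cancel
  rw [h2, mul_assoc, mul_comm ((b⁻¹ : Bˣ) : B), ← mul_assoc, h1, Units.mul_inv]

end H90

end Fermat.Agent.S55.CFT.H58

end
end
-- ==== END Fermat.Agent.S55.CFT.H58_H90

-- ==== BEGIN Fermat.Agent.S55.CFT.H58_InfInj
section

/-!
# CFT package SHL-inf (helper58), part 1: injectivity of inflation on `H²`, on cocycles

For a surjection `π : Γ ↠ Q`, `R : Rep ℤ Γ`, `A : Rep ℤ Q` and an equivariant embedding
`ι : A ↪ R` whose image is the group of `ker π`-invariants: if `H¹(ker π, R) = 0` (in terms of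
functions), then a 2-cocycle of `Q` in `A` whose inflation is a coboundary is a coboundary.
-/

set_option autoImplicit false
set_option linter.unusedSectionVars false

noncomputable section

namespace Fermat.Agent.S55.CFT.H58

open CategoryTheory groupCohomology Rep

theorem infInj_rep {Γ Q : Type} [Group Γ] [Group Q] (R : Rep.{0} ℤ Γ) (A : Rep.{0} ℤ Q)
    (π : Γ →* Q) (ι : A →+ R)
    (surj : Function.Surjective π) (inj : Function.Injective ι)
    (equiv : ∀ (g : Γ) (b : A), ι (A.ρ (π g) b) = R.ρ g (ι b))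
    (image : ∀ a : R, (∀ n : Γ, π n = 1 → R.ρ n a = a) → ∃ b : A, ι b = a)
    (h1 : ∀ f : Γ → R, (∀ n n' : Γ, π n = 1 → π n' = 1 → f (n * n') = R.ρ n (f n') + f n) →
      ∃ a : R, ∀ n : Γ, π n = 1 → R.ρ n a - a = f n)
    (c : Q × Q → A)
    (hc : ∀ g h j : Q, c (g * h, j) + c (g, h) = A.ρ g (c (h, j)) + c (g, h * j))
    (x : Γ → R)
    (hx : ∀ g h : Γ, ι (c (π g, π h)) = R.ρ g (x h) - x (g * h) + x g) :
    ∃ y : Q → A, ∀ q r : Q, c (q, r) = A.ρ q (y r) - y (q * r) + y q := by
  classical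
  -- consequences of the cocycle identity
  have hc1 : ∀ q : Q, c (q, 1) = A.ρ q (c (1, 1)) := by
    intro q
    have h := hc q 1 1
    rw [mul_one, mul_one] at h
    exact add_left_cancel (a := c (q, 1)) (by rw [h, add_comm])
  have hc2 : ∀ r : Q, c (1, r) = c (1, 1) := by
    intro r
    have h := hc 1 1 r
    rw [mul_one, one_mul, map_one] at h
    exact (add_left_cancel h).symm
  set a₀ : A := c (1, 1) with ha₀
  have hρa₀ : ∀ n : Γ, π n = 1 → R.ρ n (ι a₀) = ι a₀ := by
    intro n hn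
    rw [← equiv, hn, map_one]
    rfl
  -- `x₁ = x - ι a₀` is a cocycle on `ker π`
  obtain ⟨r, hr⟩ := h1 (fun g => x g - ι a₀) (by
    intro n n' hn hn'
    have h := hx n n'
    rw [hn, hn'] at h
    show x (n * n') - ι a₀ = R.ρ n (x n' - ι a₀) + (x n - ι a₀)
    rw [map_sub, hρa₀ n hn]
    have h' : ι a₀ = R.ρ n (x n') - x (n * n') + x n := h
    have e : x (n * n') = R.ρ n (x n') + x n - ι a₀ := by
      rw [h']; abel
    rw [e]; abel)
  -- `x₂ = x₁ - d⁰ r`
  set x₂ : Γ → R := fun g => x g - ι a₀ - (R.ρ g r - r) with hx₂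
  have hx₂ker : ∀ n : Γ, π n = 1 → x₂ n = 0 := by
    intro n hn
    show x n - ι a₀ - (R.ρ n r - r) = 0
    rw [hr n hn]
    exact sub_self _
  have hstar : ∀ g h : Γ, R.ρ g (x₂ h) - x₂ (g * h) + x₂ g =
      ι (c (π g, π h)) - R.ρ g (ι a₀) := by
    intro g h
    rw [hx g h]
    show R.ρ g (x h - ι a₀ - (R.ρ h r - r)) - (x (g * h) - ι a₀ - (R.ρ (g * h) r - r)) +
      (x g - ι a₀ - (R.ρ g r - r)) = _
    rw [map_mul]
    simp only [map_sub, Module.End.mul_apply]
    abel
  have hright : ∀ g n : Γ, π n = 1 → x₂ (g * n) = x₂ g := by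
    intro g n hn
    have h := hstar g n
    rw [hx₂ker n hn, map_zero, hn, hc1, equiv, sub_self, zero_sub] at h
    have h' : x₂ g - x₂ (g * n) = 0 := by rw [← h]; abel
    exact (sub_eq_zero.1 h').symm
  have hleft : ∀ n h : Γ, π n = 1 → R.ρ n (x₂ h) = x₂ h := by
    intro n h hn
    have h' := hstar n h
    rw [hx₂ker n hn, add_zero, hn, hc2, hρa₀ n hn, sub_self] at h'
    have e1 : R.ρ n (x₂ h) = x₂ (n * h) := sub_eq_zero.1 h'
    have e2 : n * h = h * (h⁻¹ * n * h) := by group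
    have e3 : π (h⁻¹ * n * h) = 1 := by
      rw [map_mul, map_mul, hn, mul_one, map_inv, inv_mul_cancel]
    rw [e1, e2, hright h _ e3]
  choose y₀ hy₀ using fun h : Γ => image (x₂ h) (fun n hn => hleft n h hn)
  let s : Q → Γ := Function.surjInv surj
  have hs : ∀ q, π (s q) = q := Function.surjInv_eq surj
  have hy : ∀ g : Γ, ι (y₀ (s (π g))) = x₂ g := by
    intro g
    rw [hy₀]
    have e1 : s (π g) = g * (g⁻¹ * s (π g)) := by group
    have e2 : π (g⁻¹ * s (π g)) = 1 := by
      rw [map_mul, map_inv, hs, inv_mul_cancel]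
    rw [e1, hright g _ e2]
  refine ⟨fun q => y₀ (s q) + a₀, fun q r => ?_⟩
  obtain ⟨g, rfl⟩ := surj q
  obtain ⟨g', rfl⟩ := surj r
  apply inj
  have h := hstar g g'
  rw [← hy g, ← hy g', ← hy (g * g'), map_mul π g g', ← equiv, ← equiv] at h
  have h2 : ι (c (π g, π g')) =
      ι (A.ρ (π g) (y₀ (s (π g')))) - ι (y₀ (s (π g * π g'))) + ι (y₀ (s (π g))) +
        ι (A.ρ (π g) a₀) := by
    rw [← sub_eq_iff_eq_add]
    exact h.symm
  rw [h2]
  simp only [map_add, map_sub]
  abel

end Fermat.Agent.S55.CFT.H58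

end
end
-- ==== END Fermat.Agent.S55.CFT.H58_InfInj

-- ==== BEGIN Fermat.Agent.S55.CFT.H58_SHLAbs
section

/-!
# CFT package SHL (helper58), part 1: abstract Shapiro for the units of a `G`-ring

Let a finite group `G` act on a commutative ring `B` by ring automorphisms, `M` an ideal of `B`
such that `⋂_g g⁻¹ M = 0` and the `g⁻¹ M` are maximal (so `B` is the product of the fields
`B / g⁻¹ M`, permuted transitively by `G`), `D` the stabiliser of `M`.  Then
`Bˣ ≅ Coind_D^G (B / M)ˣ` as `G`-modules (`unitsCoindIso`), hence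
`Hⁿ(G, Bˣ) ≅ Hⁿ(D, (B / M)ˣ)` (`unitsShapiro`).
-/

set_option autoImplicit false
set_option linter.unusedSectionVars false

noncomputable section

namespace Fermat.Agent.S55.CFT.H58

open CategoryTheory groupCohomology Rep

/-! ## The units of a `Γ`-ring as a representation -/

section UnitsRep

variable (Γ : Type) [Group Γ] (R : Type) [CommRing R] [MulSemiringAction Γ R]

/-- The automorphism of `Rˣ` induced by `g`. -/
def unitsSmul (g : Γ) : Rˣ →* Rˣ :=
  Units.map (MulSemiringAction.toRingHom Γ R g : R →* R)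

@[simp] lemma unitsSmul_coe (g : Γ) (u : Rˣ) : ((unitsSmul Γ R g u : Rˣ) : R) = g • (u : R) := rfl

/-- The representation of `Γ` on `Rˣ` (written additively). -/
def unitsRho : Representation ℤ Γ (Additive Rˣ) where
  toFun g :=
    { toFun := fun a => Additive.ofMul (unitsSmul Γ R g a.toMul)
      map_add' := fun a b => by
        show Additive.ofMul (unitsSmul Γ R g (a.toMul * b.toMul)) = _
        rw [map_mul]
        rfl
      map_smul' := fun n a => by
        show Additive.ofMul (unitsSmul Γ R g (a.toMul ^ n)) = _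
        rw [map_zpow]
        rfl }
  map_one' := by
    ext a
    exact one_smul Γ ((a.toMul : Rˣ) : R)
  map_mul' g h := by
    ext a
    exact mul_smul g h ((a.toMul : Rˣ) : R)

@[simp] lemma unitsRho_apply (g : Γ) (a : Additive Rˣ) :
    unitsRho Γ R g a = Additive.ofMul (unitsSmul Γ R g a.toMul) := rfl

/-- The units of `R` as an object of `Rep ℤ Γ`. -/
abbrev unitsRepOf : Rep.{0} ℤ Γ := Rep.of (unitsRho Γ R)

end UnitsRep

/-! ## The decomposition group and its action on the residue ring -/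

section Decomp

variable (G : Type) [Group G] {B : Type} [CommRing B] [MulSemiringAction G B] (M : Ideal B)

/-- The stabiliser of the ideal `M`. -/
def decomp : Subgroup G where
  carrier := {g | ∀ b : B, g • b ∈ M ↔ b ∈ M}
  one_mem' := fun b => by rw [one_smul]
  mul_mem' := fun {g h} hg hh b => by rw [mul_smul, hg, hh]
  inv_mem' := fun {g} hg b => by
    have := hg (g⁻¹ • b)
    rw [smul_inv_smul] at this
    exact this.symm

lemma mem_decomp (g : G) : g ∈ decomp G M ↔ ∀ b : B, g • b ∈ M ↔ b ∈ M := Iff.rfl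

/-- The ring endomorphism of `B ⧸ M` induced by an element of the stabiliser. -/
def quotRingHom (d : decomp G M) : B ⧸ M →+* B ⧸ M :=
  Ideal.quotientMap M (MulSemiringAction.toRingHom G B (d : G))
    (fun b hb => (d.2 b).2 hb)

@[simp] lemma quotRingHom_mk (d : decomp G M) (b : B) :
    quotRingHom G M d (Ideal.Quotient.mk M b) = Ideal.Quotient.mk M ((d : G) • b) := rfl

/-- The action of the stabiliser of `M` on `B ⧸ M`. -/
instance quotAction : MulSemiringAction (decomp G M) (B ⧸ M) where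
  smul d x := quotRingHom G M d x
  one_smul x := by
    obtain ⟨y, rfl⟩ := Ideal.Quotient.mk_surjective x
    show quotRingHom G M 1 _ = _
    rw [quotRingHom_mk, Subgroup.coe_one, one_smul]
  mul_smul d e x := by
    obtain ⟨y, rfl⟩ := Ideal.Quotient.mk_surjective x
    show quotRingHom G M (d * e) _ = quotRingHom G M d (quotRingHom G M e _)
    rw [quotRingHom_mk, quotRingHom_mk, quotRingHom_mk, Subgroup.coe_mul, mul_smul]
  smul_zero d := map_zero (quotRingHom G M d)
  smul_add d x y := map_add (quotRingHom G M d) x y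
  smul_one d := map_one (quotRingHom G M d)
  smul_mul d x y := map_mul (quotRingHom G M d) x y

lemma quot_smul_mk (d : decomp G M) (b : B) :
    d • (Ideal.Quotient.mk M b) = Ideal.Quotient.mk M ((d : G) • b) := rfl

/-- The reduction `Bˣ → (B ⧸ M)ˣ`. -/
def redUnits : Bˣ →* (B ⧸ M)ˣ := Units.map (Ideal.Quotient.mk M : B →* B ⧸ M)

@[simp] lemma redUnits_coe (u : Bˣ) : ((redUnits M u : (B ⧸ M)ˣ) : B ⧸ M) =
    Ideal.Quotient.mk M (u : B) := rfl

lemma redUnits_smul (d : decomp G M) (u : Bˣ) :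
    redUnits M (unitsSmul G B (d : G) u) = unitsSmul (decomp G M) (B ⧸ M) d (redUnits M u) := by
  apply Units.ext
  rfl

/-- The comparison map `Bˣ → Coind_D^G (B ⧸ M)ˣ`, `u ↦ (g ↦ [g u])`. -/
def toCoindUnits : (unitsRho G B).IntertwiningMap
    (Representation.coind (decomp G M).subtype (unitsRho (decomp G M) (B ⧸ M))) where
  toLinearMap :=
    { toFun := fun a => ⟨fun g => Additive.ofMul (redUnits M (unitsSmul G B g a.toMul)),
        fun d g => by
          show Additive.ofMul (redUnits M (unitsSmul G B ((d : G) * g) a.toMul)) =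
            Additive.ofMul (unitsSmul (decomp G M) (B ⧸ M) d
              (redUnits M (unitsSmul G B g a.toMul)))
          rw [← redUnits_smul]
          apply congrArg Additive.ofMul
          apply congrArg (redUnits M)
          apply Units.ext
          exact mul_smul (d : G) g _⟩
      map_add' := fun a b => by
        apply Subtype.ext
        funext g
        show Additive.ofMul (redUnits M (unitsSmul G B g (a.toMul * b.toMul))) = _
        rw [map_mul, map_mul]
        rfl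
      map_smul' := fun n a => by
        apply Subtype.ext
        funext g
        show Additive.ofMul (redUnits M (unitsSmul G B g (a.toMul ^ n))) = _
        rw [map_zpow, map_zpow]
        rfl }
  isIntertwining' h := by
    ext a g
    show Ideal.Quotient.mk M (g • (h • ((a.toMul : Bˣ) : B))) =
      Ideal.Quotient.mk M ((g * h) • ((a.toMul : Bˣ) : B))
    rw [mul_smul]

lemma toCoindUnits_apply (a : Additive Bˣ) (g : G) :
    (toCoindUnits G M a).1 g = Additive.ofMul (redUnits M (unitsSmul G B g a.toMul)) := rfl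

/-- The ideal `g⁻¹ M = {b | g b ∈ M}`. -/
def conjIdeal (g : G) : Ideal B := M.comap (MulSemiringAction.toRingEquiv G B g)

lemma mem_conjIdeal (g : G) (b : B) : b ∈ conjIdeal G M g ↔ g • b ∈ M := Iff.rfl

lemma conjIdeal_isMaximal [hM : M.IsMaximal] (g : G) : (conjIdeal G M g).IsMaximal :=
  Ideal.comap_isMaximal_of_equiv (MulSemiringAction.toRingEquiv G B g)

lemma conjIdeal_mul_of_mem (d : decomp G M) (g : G) :
    conjIdeal G M ((d : G) * g) = conjIdeal G M g := by
  ext b
  rw [mem_conjIdeal, mem_conjIdeal, mul_smul]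
  exact d.2 _

lemma mul_inv_mem_decomp_of_conjIdeal_eq {g h : G} (e : conjIdeal G M g = conjIdeal G M h) :
    h * g⁻¹ ∈ decomp G M := by
  intro b
  rw [mul_smul, ← mem_conjIdeal, ← e, mem_conjIdeal, smul_inv_smul]

/-- The hypothesis of Shapiro for units: `⋂_g g⁻¹ M = 0`. -/
def OrbitSeparates : Prop := ∀ b : B, (∀ g : G, g • b ∈ M) → b = 0

variable {G M}

lemma toCoindUnits_injective (hJ : OrbitSeparates G M) :
    Function.Injective (toCoindUnits G M) := by
  intro a a' h
  have h1 : ∀ g : G, g • (((a.toMul : Bˣ) : B) - ((a'.toMul : Bˣ) : B)) ∈ M := by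
    intro g
    have h2 := congrFun (congrArg Subtype.val h) g
    have h3 : Ideal.Quotient.mk M (g • ((a.toMul : Bˣ) : B)) =
        Ideal.Quotient.mk M (g • ((a'.toMul : Bˣ) : B)) :=
      congrArg (fun x : Additive (B ⧸ M)ˣ => ((x.toMul : (B ⧸ M)ˣ) : B ⧸ M)) h2
    rw [smul_sub]
    exact Ideal.Quotient.eq.mp h3
  have h4 := hJ _ h1
  have h5 : a.toMul = a'.toMul := Units.ext (sub_eq_zero.mp h4)
  exact h5

lemma exists_forall_smul_sub_mem [Finite G] [hM : M.IsMaximal] (T : Set G)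
    (hT : Subgroup.IsComplement (decomp G M : Set G) T) (x : T → B) :
    ∃ u : B, ∀ t : T, (t : G) • u - x t ∈ M := by
  have hcop : Pairwise (Function.onFun IsCoprime (fun t : T => conjIdeal G M (t : G))) := by
    intro t t' hne
    show IsCoprime (conjIdeal G M (t : G)) (conjIdeal G M (t' : G))
    rw [Ideal.isCoprime_iff_sup_eq]
    apply Ideal.IsMaximal.coprime_of_ne (conjIdeal_isMaximal G M _) (conjIdeal_isMaximal G M _)
    intro e
    have hd := mul_inv_mem_decomp_of_conjIdeal_eq G M e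
    apply hne
    have h2 := hT.1 (a₁ := (⟨(t' : G) * (t : G)⁻¹, hd⟩, t))
      (a₂ := (⟨1, (decomp G M).one_mem⟩, t')) (by simp)
    exact (congrArg Prod.snd h2)
  obtain ⟨u, hu⟩ := Ideal.exists_forall_sub_mem_ideal hcop (fun t => (t : G)⁻¹ • x t)
  refine ⟨u, fun t => ?_⟩
  have h1 := hu t
  rw [mem_conjIdeal, smul_sub, smul_inv_smul] at h1
  exact h1

lemma toCoindUnits_surjective [Finite G] [hM : M.IsMaximal] (hJ : OrbitSeparates G M) :
    Function.Surjective (toCoindUnits G M) := by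
  intro f
  obtain ⟨T, hT, -⟩ := Subgroup.exists_isComplement_right (decomp G M) (1 : G)
  have hlift : ∀ t : T, ∃ b : B,
      Ideal.Quotient.mk M b = (((f.1 (t : G)).toMul : (B ⧸ M)ˣ) : B ⧸ M) :=
    fun t => Ideal.Quotient.mk_surjective _
  have hlift' : ∀ t : T, ∃ c : B,
      Ideal.Quotient.mk M c = (((((f.1 (t : G)).toMul : (B ⧸ M)ˣ))⁻¹ : (B ⧸ M)ˣ) : B ⧸ M) :=
    fun t => Ideal.Quotient.mk_surjective _
  choose b hb using hlift
  choose c hc using hlift'
  obtain ⟨u, hu⟩ := exists_forall_smul_sub_mem T hT b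
  obtain ⟨w, hw⟩ := exists_forall_smul_sub_mem T hT c
  have hut : ∀ t : T, Ideal.Quotient.mk M ((t : G) • u) =
      (((f.1 (t : G)).toMul : (B ⧸ M)ˣ) : B ⧸ M) := fun t => by
    rw [← hb t]
    exact Ideal.Quotient.eq.mpr (hu t)
  have hwt : ∀ t : T, Ideal.Quotient.mk M ((t : G) • w) =
      (((((f.1 (t : G)).toMul : (B ⧸ M)ˣ))⁻¹ : (B ⧸ M)ˣ) : B ⧸ M) := fun t => by
    rw [← hc t]
    exact Ideal.Quotient.eq.mpr (hw t)
  have hdt : ∀ g : G, ∃ (d : decomp G M) (t : T), g = (d : G) * (t : G) := fun g =>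
    ⟨(hT.equiv g).1, (hT.equiv g).2, (hT.equiv_fst_mul_equiv_snd g).symm⟩
  have huw : u * w = 1 := by
    have h0 : u * w - 1 = 0 := hJ _ (fun g => by
      obtain ⟨d, t, rfl⟩ := hdt g
      rw [mul_smul]
      refine (d.2 _).2 ?_
      rw [← Ideal.Quotient.eq_zero_iff_mem, smul_sub, smul_mul', smul_one, map_sub, map_mul,
        map_one, hut, hwt, Units.mul_inv, sub_self])
    exact sub_eq_zero.mp h0
  let U : Bˣ := ⟨u, w, huw, (mul_comm w u).trans huw⟩
  refine ⟨Additive.ofMul U, ?_⟩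
  apply Subtype.ext
  funext g
  obtain ⟨d, t, rfl⟩ := hdt g
  have hf : f.1 ((d : G) * (t : G)) =
      Additive.ofMul (unitsSmul (decomp G M) (B ⧸ M) d (f.1 (t : G)).toMul) := f.2 d (t : G)
  rw [hf, toCoindUnits_apply]
  apply congrArg Additive.ofMul
  apply Units.ext
  show Ideal.Quotient.mk M (((d : G) * (t : G)) • u) =
    d • (((f.1 (t : G)).toMul : (B ⧸ M)ˣ) : B ⧸ M)
  rw [mul_smul, ← hut t]
  rfl

lemma toCoindUnits_bijective [Finite G] [hM : M.IsMaximal] (hJ : OrbitSeparates G M) :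
    Function.Bijective (toCoindUnits G M) :=
  ⟨toCoindUnits_injective hJ, toCoindUnits_surjective hJ⟩

/-- **Shapiro for units**, on modules: `Bˣ ≅ Coind_D^G (B ⧸ M)ˣ`. -/
def unitsCoindIso [Finite G] [hM : M.IsMaximal] (hJ : OrbitSeparates G M) :
    unitsRepOf G B ≅ coind (decomp G M).subtype (unitsRepOf (decomp G M) (B ⧸ M)) :=
  Rep.mkIso ((toCoindUnits G M).ofBijective (toCoindUnits_bijective hJ))

/-- **Shapiro for units**, on cohomology: `Hⁿ(G, Bˣ) ≅ Hⁿ(D, (B ⧸ M)ˣ)`. -/
def unitsShapiro [Finite G] [hM : M.IsMaximal] (hJ : OrbitSeparates G M) (n : ℕ) :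
    groupCohomology (unitsRepOf G B) n ≅
      groupCohomology (unitsRepOf (decomp G M) (B ⧸ M)) n :=
  (functor ℤ G n).mapIso (unitsCoindIso hJ) ≪≫ coindIso _ n

/-! ## Counting the maximal ideals -/

lemma exists_conjIdeal_eq [Finite G] [hM : M.IsMaximal] (hJ : OrbitSeparates G M)
    (P : Ideal B) [hP : P.IsMaximal] : ∃ g : G, conjIdeal G M g = P := by
  classical
  let _ : Fintype G := Fintype.ofFinite G
  have h1 : (Finset.univ : Finset G).inf (conjIdeal G M) ≤ P := by
    intro b hb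
    have h2 : ∀ g : G, g • b ∈ M := fun g => by
      have h3 : b ∈ conjIdeal G M g := by
        have := (Finset.inf_le (f := conjIdeal G M) (Finset.mem_univ g)) hb
        exact this
      exact h3
    rw [hJ b h2]
    exact P.zero_mem
  obtain ⟨g, -, hg⟩ := (Ideal.IsPrime.inf_le' hP.isPrime).1 h1
  exact ⟨g, (conjIdeal_isMaximal G M g).eq_of_le hP.ne_top hg⟩

/-- `#MaxSpec B · #D = #G`. -/
theorem card_maximalSpectrum_mul [Finite G] [hM : M.IsMaximal] (hJ : OrbitSeparates G M) :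
    Nat.card (MaximalSpectrum B) * Nat.card (decomp G M) = Nat.card G := by
  obtain ⟨T, hT, -⟩ := Subgroup.exists_isComplement_right (decomp G M) (1 : G)
  have hbij : Function.Bijective
      (fun t : T => (⟨conjIdeal G M (t : G), conjIdeal_isMaximal G M _⟩ : MaximalSpectrum B)) := by
    constructor
    · intro t t' h
      have e : conjIdeal G M (t : G) = conjIdeal G M (t' : G) := congrArg MaximalSpectrum.asIdeal h
      have hd := mul_inv_mem_decomp_of_conjIdeal_eq G M e
      have h2 := hT.1 (a₁ := (⟨(t' : G) * (t : G)⁻¹, hd⟩, t))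
        (a₂ := (⟨1, (decomp G M).one_mem⟩, t')) (by simp)
      exact (congrArg Prod.snd h2)
    · intro P
      obtain ⟨g, hg⟩ := exists_conjIdeal_eq hJ P.asIdeal
      refine ⟨(hT.equiv g).2, ?_⟩
      apply MaximalSpectrum.ext
      show conjIdeal G M ((hT.equiv g).2 : G) = P.asIdeal
      rw [← hg]
      conv_rhs => rw [← hT.equiv_fst_mul_equiv_snd g]
      exact (conjIdeal_mul_of_mem G M (hT.equiv g).1 _).symm
  rw [← Nat.card_congr (Equiv.ofBijective _ hbij), mul_comm]
  exact hT.card_mul_card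

end Decomp

end Fermat.Agent.S55.CFT.H58

end
end
-- ==== END Fermat.Agent.S55.CFT.H58_SHLAbs

-- ==== BEGIN Fermat.Agent.S55.CFT.H58_TwinBase
section

/-!
# CFT package TN-1 (twin vanishing), part 1 (helper58): basic tools

* `shortExact_of_concrete`, `isZero_add_two` : long exact sequence steps;
* `funRep A X` : the representation of `G` on `X → A` for a `G`-set `X`, with the constant map
  `iotaF` and the sum map `tauF`;
* `funObjShapiro` : `Hⁿ(G, Fun(G ⧸ S, A)) ≅ Hⁿ(S, A)` (Shapiro);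
* `exists_telescope` : telescoping on a finite cyclic group.

Everything is stated for a generic commutative ring `k` (for `k = ℤ` instance search would pick
the canonical `ℤ`-module structure instead of the one bundled in `Rep`).
-/

set_option autoImplicit false

noncomputable section

namespace Fermat.Agent.S55.CFT.H58

open CategoryTheory CategoryTheory.Limits groupCohomology Rep

variable {k : Type} [CommRing k] {G : Type} [Group G]

/-- A short complex in `Rep k G` is short exact if it is so on underlying modules. -/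
lemma shortExact_of_concrete {A B C : Rep.{0} k G} (f : A ⟶ B) (g : B ⟶ C) (w : f ≫ g = 0)
    (hf : Function.Injective f.hom) (hg : Function.Surjective g.hom)
    (hfg : ∀ b : B, g.hom b = 0 → ∃ a : A, f.hom a = b) :
    (ShortComplex.mk f g w).ShortExact := by
  have hex : (ShortComplex.mk f g w).Exact := by
    rw [← ShortComplex.exact_map_iff_of_faithful _ (forget₂ (Rep.{0} k G) (ModuleCat.{0} k))]
    rw [ShortComplex.moduleCat_exact_iff]
    intro x hx
    obtain ⟨a, ha⟩ := hfg x hx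
    exact ⟨a, ha⟩
  exact { exact := hex
          mono_f := (Rep.mono_iff_injective f).2 hf
          epi_g := (Rep.epi_iff_surjective g).2 hg }

/-- One step of the long exact sequence: if `Hⁿ⁺¹(X₂) = 0` and `Hⁿ(X₃) = 0` then
`Hⁿ⁺¹(X₁) = 0`. -/
lemma isZero_succ_of_shortExact {X : ShortComplex (Rep.{0} k G)} (hX : X.ShortExact) (n : ℕ)
    (h2 : IsZero (groupCohomology X.X₂ (n + 1))) (h3 : IsZero (groupCohomology X.X₃ n)) :
    IsZero (groupCohomology X.X₁ (n + 1)) := by
  have := epi_δ_of_isZero hX n h2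
  exact IsZero.of_epi (δ hX n (n + 1) rfl) h3

/-- The periodicity step: from `0 → A → B → Z → 0` and `0 → Z → B → A → 0` with `B` acyclic
in degrees `n + 1`, `n + 2`: `Hⁿ(A) = 0 → Hⁿ⁺²(A) = 0`. -/
lemma isZero_add_two {A B Z : Rep.{0} k G} {f₁ : A ⟶ B} {g₁ : B ⟶ Z} {w₁ : f₁ ≫ g₁ = 0}
    {f₂ : Z ⟶ B} {g₂ : B ⟶ A} {w₂ : f₂ ≫ g₂ = 0}
    (h₁ : (ShortComplex.mk f₁ g₁ w₁).ShortExact) (h₂ : (ShortComplex.mk f₂ g₂ w₂).ShortExact)
    (n : ℕ) (hB1 : IsZero (groupCohomology B (n + 1)))
    (hB2 : IsZero (groupCohomology B (n + 2)))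
    (hA : IsZero (groupCohomology A n)) : IsZero (groupCohomology A (n + 2)) := by
  have hZ : IsZero (groupCohomology Z (n + 1)) := isZero_succ_of_shortExact h₂ n hB1 hA
  exact isZero_succ_of_shortExact h₁ (n + 1) hB2 hZ

/-! ## The representation on functions `X → A` for a `G`-set `X` -/

section FunRep

variable (A : Rep.{0} k G) (X : Type) [MulAction G X]

/-- The representation of `G` on `X → A`: `(h • φ) x = ρ h (φ (h⁻¹ • x))`. -/
def funRep : Representation k G (X → A.V) where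
  toFun h :=
    { toFun := fun φ x => A.ρ h (φ (h⁻¹ • x))
      map_add' := fun φ ψ => by ext x; simp
      map_smul' := fun r φ => by ext x; simp }
  map_one' := by ext φ x; simp
  map_mul' := fun g h => by
    ext φ x
    simp [mul_smul]

@[simp] lemma funRep_apply (h : G) (φ : X → A.V) (x : X) :
    funRep A X h φ x = A.ρ h (φ (h⁻¹ • x)) := rfl

/-- The object of `Rep k G` of functions `X → A`. -/
abbrev FunObj : Rep.{0} k G := Rep.of (funRep A X)

/-- The constant functions `A → (X → A)`. -/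
def iotaF : A ⟶ FunObj A X :=
  Rep.ofHom (ρ := A.ρ) (σ := funRep A X)
    ⟨{ toFun := fun a _ => a
       map_add' := fun _ _ => rfl
       map_smul' := fun _ _ => rfl }, fun h => by ext a x; simp⟩

@[simp] lemma iotaF_apply (a : A.V) (x : X) : (iotaF A X).hom a x = a := rfl

variable [Fintype X]

/-- The sum map `(X → A) → A`. -/
def tauF : FunObj A X ⟶ A :=
  Rep.ofHom (ρ := funRep A X) (σ := A.ρ)
    ⟨{ toFun := fun φ => ∑ x, φ x
       map_add' := fun φ ψ => by simp [Finset.sum_add_distrib]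
       map_smul' := fun r φ => by simp [Finset.smul_sum] }, fun h => by
      ext φ
      simp only [LinearMap.coe_comp, LinearMap.coe_mk, AddHom.coe_mk, Function.comp_apply,
        funRep_apply, map_sum]
      exact Equiv.sum_comp (MulAction.toPerm h⁻¹) (fun x => A.ρ h (φ x))⟩

@[simp] lemma tauF_apply (φ : X → A.V) : (tauF A X).hom φ = ∑ x, φ x := rfl

lemma tauF_iotaF (a : A.V) : (tauF A X).hom ((iotaF A X).hom a) = Fintype.card X • a := by
  show ∑ _x : X, a = Fintype.card X • a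
  rw [Finset.sum_const, Finset.card_univ]

end FunRep

section Shapiro

variable (A : Rep.{0} k G) (S : Subgroup G)

/-- The comparison map `(G ⧸ S → A) → Coind_S^G A`, `φ ↦ (g ↦ ρ g (φ (g⁻¹ S)))`. -/
def toCoindLin : (G ⧸ S → A.V) →ₗ[k] (res S.subtype A).ρ.coindV S.subtype where
  toFun φ := ⟨fun g => A.ρ g (φ ((g⁻¹ : G) : G ⧸ S)), fun s h => by
    have h1 : (((S.subtype s * h)⁻¹ : G) : G ⧸ S) = ((h⁻¹ : G) : G ⧸ S) := by
      rw [mul_inv_rev]
      exact QuotientGroup.mk_mul_of_mem _ (S.inv_mem s.2)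
    simp only [h1, map_mul]
    rfl⟩
  map_add' φ ψ := by
    apply Subtype.ext
    funext g
    simp
  map_smul' r φ := by
    apply Subtype.ext
    funext g
    simp

@[simp] lemma toCoindLin_apply (φ : G ⧸ S → A.V) (g : G) :
    (toCoindLin A S φ).1 g = A.ρ g (φ ((g⁻¹ : G) : G ⧸ S)) := rfl

/-- The comparison map as an intertwining map. -/
def toCoind : (funRep A (G ⧸ S)).IntertwiningMap
    (Representation.coind S.subtype (res S.subtype A).ρ) where
  toLinearMap := toCoindLin A S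
  isIntertwining' h := by
    ext φ g
    show A.ρ g (A.ρ h (φ (h⁻¹ • ((g⁻¹ : G) : G ⧸ S)))) =
      A.ρ (g * h) (φ (((g * h)⁻¹ : G) : G ⧸ S))
    rw [map_mul, Module.End.mul_apply, mul_inv_rev]
    rfl

lemma toCoind_bijective : Function.Bijective (toCoind A S) := by
  constructor
  · intro φ ψ h
    funext x
    induction x using QuotientGroup.induction_on with
    | H g =>
      have h1 := congrFun (congrArg Subtype.val h) g⁻¹
      have h2 : A.ρ g⁻¹ (φ ((g : G) : G ⧸ S)) = A.ρ g⁻¹ (ψ ((g : G) : G ⧸ S)) := by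
        have h1' : A.ρ g⁻¹ (φ (((g⁻¹)⁻¹ : G) : G ⧸ S)) = A.ρ g⁻¹ (ψ (((g⁻¹)⁻¹ : G) : G ⧸ S)) := h1
        rwa [inv_inv] at h1'
      have h3 := congrArg (A.ρ g) h2
      simpa [← Module.End.mul_apply, ← map_mul] using h3
  · intro f
    refine ⟨fun x => A.ρ x.out (f.1 (x.out)⁻¹), ?_⟩
    apply Subtype.ext
    funext g
    show A.ρ g (A.ρ (((g⁻¹ : G) : G ⧸ S)).out (f.1 ((((g⁻¹ : G) : G ⧸ S)).out)⁻¹)) = f.1 g
    set y : G := (((g⁻¹ : G) : G ⧸ S)).out with hy
    have hmem : g * y ∈ S := by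
      have h1 : ((y : G) : G ⧸ S) = ((g⁻¹ : G) : G ⧸ S) := QuotientGroup.out_eq' _
      have h2 := QuotientGroup.eq.mp h1.symm
      simpa using h2
    have h3 : f.1 y⁻¹ = A.ρ (g * y)⁻¹ (f.1 g) := by
      have := f.2 ⟨(g * y)⁻¹, S.inv_mem hmem⟩ g
      simpa [mul_assoc] using this
    rw [h3, ← Module.End.mul_apply, ← Module.End.mul_apply, ← map_mul, ← map_mul]
    simp

/-- `Fun(G ⧸ S, A) ≅ Coind_S^G (Res A)`. -/
def funObjIso : FunObj A (G ⧸ S) ≅ coind S.subtype (res S.subtype A) :=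
  Rep.mkIso ((toCoind A S).ofBijective (toCoind_bijective A S))

/-- Shapiro: `Hⁿ(G, Fun(G ⧸ S, A)) ≅ Hⁿ(S, A)`. -/
def funObjShapiro (n : ℕ) :
    groupCohomology (FunObj A (G ⧸ S)) n ≅ groupCohomology (res S.subtype A) n :=
  (functor k G n).mapIso (funObjIso A S) ≪≫ coindIso (res S.subtype A) n

lemma isZero_funObj (n : ℕ) (h : IsZero (groupCohomology (res S.subtype A) n)) :
    IsZero (groupCohomology (FunObj A (G ⧸ S)) n) :=
  h.of_iso (funObjShapiro A S n)

end Shapiro

section Telescoping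

variable {C : Type} [Group C] [Fintype C] {M : Type} [AddCommGroup M]
set_option linter.unusedSectionVars false

lemma exists_nat_pow_eq (c : C) (hc : ∀ x, x ∈ Subgroup.zpowers c) (x : C) :
    ∃ i, i < orderOf c ∧ c ^ i = x := by
  have hx := hc x
  rw [← mem_powers_iff_mem_zpowers] at hx
  obtain ⟨n, rfl⟩ := hx
  exact ⟨n % orderOf c, Nat.mod_lt _ (orderOf_pos c), pow_mod_orderOf c n⟩

lemma sum_univ_eq_sum_range (c : C) (hc : ∀ x, x ∈ Subgroup.zpowers c) (ψ : C → M) :
    ∑ x, ψ x = ∑ j ∈ Finset.range (orderOf c), ψ (c ^ j) := by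
  symm
  apply Finset.sum_bij (fun j _ => c ^ j)
  · intros; exact Finset.mem_univ _
  · intro a ha b hb h
    exact pow_injOn_Iio_orderOf (by simpa using ha) (by simpa using hb) h
  · intro x _
    obtain ⟨i, hi, rfl⟩ := exists_nat_pow_eq c hc x
    exact ⟨i, Finset.mem_range.2 hi, rfl⟩
  · intros; rfl

/-- Telescoping on a finite cyclic group: a function of sum zero is a difference. -/
lemma exists_telescope (c : C) (hc : ∀ x, x ∈ Subgroup.zpowers c) (ψ : C → M)
    (hψ : ∑ x, ψ x = 0) : ∃ φ : C → M, ∀ x, φ (x * c) - φ x = ψ x := by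
  classical
  choose ℓ hℓ1 hℓ2 using exists_nat_pow_eq c hc
  have huniq : ∀ (x : C) (i : ℕ), i < orderOf c → c ^ i = x → ℓ x = i := by
    intro x i hi hx
    exact pow_injOn_Iio_orderOf (hℓ1 x) hi ((hℓ2 x).trans hx.symm)
  refine ⟨fun x => ∑ j ∈ Finset.range (ℓ x), ψ (c ^ j), fun x => ?_⟩
  have hx := hℓ2 x
  have hi := hℓ1 x
  by_cases h : ℓ x + 1 < orderOf c
  · have h1 : ℓ (x * c) = ℓ x + 1 := huniq _ _ h (by rw [pow_succ, hx])
    simp only [h1, Finset.sum_range_succ, hx]
    abel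
  · have hm : ℓ x + 1 = orderOf c := by omega
    have h1 : ℓ (x * c) = 0 := by
      apply huniq _ _ (orderOf_pos c)
      rw [pow_zero, ← hx, ← pow_succ, hm, pow_orderOf_eq_one]
    have h2 := sum_univ_eq_sum_range c hc ψ
    rw [hψ, ← hm, Finset.sum_range_succ, hx] at h2
    simp only [h1, Finset.range_zero, Finset.sum_empty]
    rw [zero_sub, eq_comm, ← add_eq_zero_iff_eq_neg, add_comm]
    exact h2.symm

/-- A function invariant under translation by a generator is constant. -/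
lemma eq_const_of_mul_gen (c : C) (hc : ∀ x, x ∈ Subgroup.zpowers c) (φ : C → M)
    (h : ∀ x, φ (x * c) = φ x) (x : C) : φ x = φ 1 := by
  obtain ⟨i, -, rfl⟩ := exists_nat_pow_eq c hc x
  induction i with
  | zero => rw [pow_zero]
  | succ n ih => rw [pow_succ, h, ih]

end Telescoping

end Fermat.Agent.S55.CFT.H58

end
end
-- ==== END Fermat.Agent.S55.CFT.H58_TwinBase

-- ==== BEGIN Fermat.Agent.S55.CFT.H72_THLCount
section

set_option autoImplicit false
set_option linter.style.haveILetI false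

namespace Fermat.Agent.S55.CFT.H72

/-- In a finite cyclic group, an element killed by `d` is a power of any element of order `d`. -/
theorem mem_zpowers_of_pow_eq_one {C : Type*} [CommGroup C] [Finite C] [IsCyclic C]
    (t₀ t : C) (d : ℕ) (hd : 0 < d) (h₀ : orderOf t₀ = d) (ht : t ^ d = 1) :
    t ∈ Subgroup.zpowers t₀ := by
  classical
  letI : Fintype C := Fintype.ofFinite C
  have hle : Subgroup.zpowers t₀ ≤ (powMonoidHom d : C →* C).ker := by
    rw [Subgroup.zpowers_le, MonoidHom.mem_ker, powMonoidHom_apply, ← h₀, pow_orderOf_eq_one]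
  have hcard : Nat.card (powMonoidHom d : C →* C).ker ≤ Nat.card (Subgroup.zpowers t₀) := by
    rw [Nat.card_zpowers, h₀, Nat.card_eq_fintype_card, Fintype.card_subtype]
    refine le_trans (le_of_eq ?_) (IsCyclic.card_pow_eq_one_le (α := C) hd)
    congr 1
    ext x
    simp [MonoidHom.mem_ker, powMonoidHom_apply]
  have heq := Subgroup.eq_of_le_of_card_ge hle hcard
  rw [heq, MonoidHom.mem_ker, powMonoidHom_apply]
  exact ht

/-- The counting argument: `c : G ↠ H` with kernel `N`, `#H = d`, `θ` trivial on `N` with a value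
of order at least `d`.  Then `ker θ = N` and the image of `θ` is the `d`-torsion of the cyclic
group `C`. -/
theorem thl_counting {G H C : Type*} [CommGroup G] [AddCommGroup H] [Finite H] [CommGroup C]
    [Finite C] [IsCyclic C]
    (c : G → H) (hc_mul : ∀ a b, c (a * b) = c a + c b)
    (N : G → Prop) (hN : ∀ β, c β = 0 ↔ N β)
    (θ : G →* C) (hθ : ∀ β, N β → θ β = 1) (d : ℕ) (hd : Nat.card H = d) (β₀ : G)
    (h₀ : d ≤ orderOf (θ β₀)) :
    (∀ β, θ β = 1 → N β) ∧ (∀ t : C, t ^ d = 1 → ∃ β, θ β = t) := by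
  classical
  let cH : G →* Multiplicative H :=
    MonoidHom.mk' (fun g => Multiplicative.ofAdd (c g)) (fun a b => by
      show Multiplicative.ofAdd (c (a * b)) = Multiplicative.ofAdd (c a) * Multiplicative.ofAdd (c b)
      rw [hc_mul]; rfl)
  have hcz : ∀ (g : G) (k : ℤ), c (g ^ k) = k • c g := fun g k => by
    have h := map_zpow cH g k
    exact congrArg Multiplicative.toAdd h
  have hcn : ∀ (g : G) (k : ℕ), c (g ^ k) = k • c g := fun g k => by
    have h := map_pow cH g k
    exact congrArg Multiplicative.toAdd h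
  have hdpos : 0 < d := hd ▸ Nat.card_pos
  have hn₀d : addOrderOf (c β₀) ∣ d := hd ▸ addOrderOf_dvd_natCard (c β₀)
  have hθn₀ : orderOf (θ β₀) ∣ addOrderOf (c β₀) := by
    apply orderOf_dvd_of_pow_eq_one
    rw [← map_pow]
    apply hθ
    rw [← hN, hcn, addOrderOf_nsmul_eq_zero]
  have hn₀pos : 0 < addOrderOf (c β₀) := Nat.pos_of_dvd_of_pos hn₀d hdpos
  have hle1 : orderOf (θ β₀) ≤ addOrderOf (c β₀) := Nat.le_of_dvd hn₀pos hθn₀
  have hle2 : addOrderOf (c β₀) ≤ d := Nat.le_of_dvd hdpos hn₀d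
  have hn₀ : addOrderOf (c β₀) = d := le_antisymm hle2 (h₀.trans hle1)
  have hord : orderOf (θ β₀) = d := le_antisymm (hle1.trans hle2) h₀
  have hgen : ∀ h : H, ∃ k : ℤ, k • c β₀ = h := by
    have htop : AddSubgroup.zmultiples (c β₀) = ⊤ := by
      apply AddSubgroup.eq_top_of_card_eq
      rw [Nat.card_zmultiples, hd, hn₀]
    intro h
    have hmem : h ∈ AddSubgroup.zmultiples (c β₀) := htop ▸ AddSubgroup.mem_top h
    exact AddSubgroup.mem_zmultiples_iff.mp hmem
  constructor
  · intro β hβ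
    obtain ⟨k, hk⟩ := hgen (c β)
    have h1 : N (β * (β₀ ^ k)⁻¹) := by
      rw [← hN, hc_mul, ← zpow_neg, hcz, neg_smul, hk, add_neg_cancel]
    have h2 := hθ _ h1
    rw [map_mul, hβ, one_mul, map_inv, inv_eq_one, map_zpow] at h2
    have h3 : (d : ℤ) ∣ k := by
      rw [← hord]
      exact orderOf_dvd_iff_zpow_eq_one.mpr h2
    rw [← hN, ← hk]
    obtain ⟨j, rfl⟩ := h3
    rw [mul_comm, mul_smul, natCast_zsmul, ← hn₀, addOrderOf_nsmul_eq_zero, smul_zero]
  · intro t ht
    have hmem := mem_zpowers_of_pow_eq_one (θ β₀) t d hdpos hord ht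
    obtain ⟨k, hk⟩ := Subgroup.mem_zpowers_iff.mp hmem
    exact ⟨β₀ ^ k, by rw [map_zpow, hk]⟩

end Fermat.Agent.S55.CFT.H72

end
-- ==== END Fermat.Agent.S55.CFT.H72_THLCount

-- ==== BEGIN Fermat.Agent.S55.CFT.H72_THLNormIdem
section

set_option autoImplicit false

namespace Fermat.Agent.S55.CFT.H72

section idem

variable {R A : Type*} [Field R] [CommRing A] [Algebra R A]

/-- The map `A → A/I × A/(e)`. -/
def idemSplit (I : Ideal A) (e : A) : A →ₗ[R] (A ⧸ I) × (A ⧸ Ideal.span {e}) :=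
  LinearMap.prod ((Ideal.Quotient.mkₐ R I).toLinearMap)
    ((Ideal.Quotient.mkₐ R (Ideal.span {e})).toLinearMap)

lemma idemSplit_apply (I : Ideal A) (e : A) (a : A) :
    idemSplit (R := R) I e a = (Ideal.Quotient.mk I a, Ideal.Quotient.mk (Ideal.span {e}) a) :=
  rfl

lemma idem_of_mem (I : Ideal A) (e : A) (he1 : 1 - e ∈ I) (he0 : ∀ i ∈ I, i * e = 0) :
    e * e = e := by
  have h := he0 _ he1
  rw [sub_mul, one_mul, sub_eq_zero] at h
  exact h.symm

lemma idemSplit_bijective (I : Ideal A) (e : A) (he1 : 1 - e ∈ I) (he0 : ∀ i ∈ I, i * e = 0) :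
    Function.Bijective (idemSplit (R := R) I e) := by
  have hee := idem_of_mem I e he1 he0
  constructor
  · rw [← LinearMap.ker_eq_bot, LinearMap.ker_eq_bot']
    intro a ha
    rw [idemSplit_apply, Prod.mk_eq_zero, Ideal.Quotient.eq_zero_iff_mem,
      Ideal.Quotient.eq_zero_iff_mem, Ideal.mem_span_singleton'] at ha
    obtain ⟨haI, b, hb⟩ := ha
    have h1 := he0 a haI
    rw [← hb, mul_assoc, hee, hb] at h1
    exact h1
  · rintro ⟨a, b⟩
    obtain ⟨a, rfl⟩ := Ideal.Quotient.mk_surjective a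
    obtain ⟨b, rfl⟩ := Ideal.Quotient.mk_surjective b
    refine ⟨a * e + b * (1 - e), ?_⟩
    rw [idemSplit_apply, Prod.mk.injEq]
    constructor
    · rw [Ideal.Quotient.eq]
      have : a * e + b * (1 - e) - a = (b - a) * (1 - e) := by ring
      rw [this]
      exact I.mul_mem_left _ he1
    · rw [Ideal.Quotient.eq, Ideal.mem_span_singleton']
      exact ⟨a - b, by ring⟩

/-- `A ≃ A/I × A/(e)`. -/
noncomputable def idemEquiv (I : Ideal A) (e : A) (he1 : 1 - e ∈ I)
    (he0 : ∀ i ∈ I, i * e = 0) : A ≃ₗ[R] (A ⧸ I) × (A ⧸ Ideal.span {e}) :=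
  LinearEquiv.ofBijective (idemSplit (R := R) I e) (idemSplit_bijective I e he1 he0)

/-- The norm of an element which is `1` away from the factor `A/I`. -/
theorem norm_eq_norm_quot [Module.Finite R A] (I : Ideal A) (e : A) (he1 : 1 - e ∈ I)
    (he0 : ∀ i ∈ I, i * e = 0) (x : A) (hx : (x - 1) * (1 - e) = 0) :
    Algebra.norm R x = Algebra.norm R (Ideal.Quotient.mk I x) := by
  classical
  have hxJ : Ideal.Quotient.mk (Ideal.span {e}) x = 1 := by
    rw [← map_one (Ideal.Quotient.mk (Ideal.span {e})), Ideal.Quotient.eq,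
      Ideal.mem_span_singleton']
    refine ⟨x - 1, ?_⟩
    have : (x - 1) * e = (x - 1) - (x - 1) * (1 - e) := by ring
    rw [this, hx, sub_zero]
  set φ := idemEquiv (R := R) I e he1 he0 with hφ
  have hconj : (φ : A →ₗ[R] (A ⧸ I) × (A ⧸ Ideal.span {e})) ∘ₗ (Algebra.lmul R A x) ∘ₗ
      (φ.symm : ((A ⧸ I) × (A ⧸ Ideal.span {e})) →ₗ[R] A) =
      LinearMap.prodMap (Algebra.lmul R (A ⧸ I) (Ideal.Quotient.mk I x))
        (LinearMap.id : (A ⧸ Ideal.span {e}) →ₗ[R] (A ⧸ Ideal.span {e})) := by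
    apply LinearMap.ext
    intro y
    obtain ⟨a, rfl⟩ := φ.surjective y
    simp only [LinearMap.comp_apply, LinearEquiv.coe_coe, LinearEquiv.symm_apply_apply]
    show idemSplit (R := R) I e (x * a) = _
    rw [idemSplit_apply, map_mul, map_mul, hxJ, one_mul]
    rfl
  rw [Algebra.norm_apply, Algebra.norm_apply, ← LinearMap.det_conj (Algebra.lmul R A x) φ, hconj,
    LinearMap.det_prodMap, LinearMap.det_id, mul_one]

end idem

end Fermat.Agent.S55.CFT.H72

end
-- ==== END Fermat.Agent.S55.CFT.H72_THLNormIdem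

-- ==== BEGIN Fermat.Agent.S55.CFT.H80_JCycAlg
section

set_option autoImplicit false

namespace Fermat.Agent.S55.CFT.H80

open Finset

section Split

variable {G C : Type*} [Group G] [CommRing C] [MulSemiringAction G C]

/-- The translates `g ^ i • e`, `i < p`, are orthogonal with sum `1`. -/
structure SplitIdem (g : G) (p : ℕ) (e : C) : Prop where
  orth : ∀ i j, i < p → j < p → i ≠ j → (g ^ i • e) * (g ^ j • e) = 0
  sum : ∑ i ∈ range p, g ^ i • e = 1

variable {g : G} {p : ℕ} {e : C}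

lemma SplitIdem.idem (h : SplitIdem g p e) (i : ℕ) (hi : i < p) :
    (g ^ i • e) * (g ^ i • e) = g ^ i • e := by
  have h1 := congrArg (fun x => (g ^ i • e) * x) h.sum
  simp only [Finset.mul_sum, mul_one] at h1
  rw [Finset.sum_eq_single_of_mem i (Finset.mem_range.mpr hi)
    (fun j hj hji => h.orth i j hi (Finset.mem_range.mp hj) (Ne.symm hji))] at h1
  exact h1

lemma SplitIdem.idem_zero (h : SplitIdem g p e) (hp : 0 < p) : e * e = e := by
  have := h.idem 0 hp
  simpa using this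

lemma smul_pow_fixed (u : C) (hu : g • u = u) (i : ℕ) : g ^ i • u = u := by
  induction i with
  | zero => simp
  | succ i ih => rw [pow_succ, mul_smul, hu, ih]

/-- In the split case every invariant unit is a norm. -/
theorem SplitIdem.norm_surj (h : SplitIdem g p e) (hp : 0 < p) (u : Cˣ)
    (hu : g • (u : C) = u) : ∃ y : Cˣ, ∏ i ∈ range p, g ^ i • (y : C) = u := by
  have he := h.idem_zero hp
  have hy : (1 + ((u : C) - 1) * e) * (1 + (((u⁻¹ : Cˣ) : C) - 1) * e) = 1 := by
    have huu : (u : C) * ((u⁻¹ : Cˣ) : C) = 1 := Units.mul_inv u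
    have : (1 + ((u : C) - 1) * e) * (1 + (((u⁻¹ : Cˣ) : C) - 1) * e) =
        1 + (((u : C) - 1) + ((((u⁻¹ : Cˣ) : C)) - 1)) * e +
          ((u : C) - 1) * ((((u⁻¹ : Cˣ) : C)) - 1) * (e * e) := by ring
    rw [this, he]
    have h2 : ((u : C) - 1) * ((((u⁻¹ : Cˣ) : C)) - 1) =
        (u : C) * ((u⁻¹ : Cˣ) : C) - (u : C) - ((u⁻¹ : Cˣ) : C) + 1 := by ring
    rw [h2, huu]
    ring
  refine ⟨⟨1 + ((u : C) - 1) * e, 1 + (((u⁻¹ : Cˣ) : C) - 1) * e, hy, by rw [mul_comm]; exact hy⟩,
    ?_⟩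
  change ∏ i ∈ range p, g ^ i • (1 + ((u : C) - 1) * e) = u
  have hterm : ∀ i, g ^ i • (1 + ((u : C) - 1) * e) = 1 + ((u : C) - 1) * (g ^ i • e) := by
    intro i
    rw [smul_add, smul_one, smul_mul', smul_sub, smul_one, smul_pow_fixed (u : C) hu i]
  simp only [hterm]
  have hind : ∀ n, n ≤ p → ∏ i ∈ range n, (1 + ((u : C) - 1) * (g ^ i • e)) =
      1 + ((u : C) - 1) * ∑ i ∈ range n, g ^ i • e := by
    intro n
    induction n with
    | zero => intro _; simp
    | succ n ih =>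
      intro hn
      rw [Finset.prod_range_succ, Finset.sum_range_succ, ih (Nat.le_of_succ_le hn)]
      have hz : (∑ i ∈ range n, g ^ i • e) * (g ^ n • e) = 0 := by
        rw [Finset.sum_mul]
        apply Finset.sum_eq_zero
        intro i hi
        have hin : i < n := Finset.mem_range.mp hi
        exact h.orth i n (lt_of_lt_of_le hin (Nat.le_of_succ_le hn)) hn (Nat.ne_of_lt hin)
      have : (1 + ((u : C) - 1) * ∑ i ∈ range n, g ^ i • e) * (1 + ((u : C) - 1) * (g ^ n • e)) =
          1 + ((u : C) - 1) * (∑ i ∈ range n, g ^ i • e + g ^ n • e) +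
            ((u : C) - 1) * ((u : C) - 1) * ((∑ i ∈ range n, g ^ i • e) * (g ^ n • e)) := by ring
      rw [this, hz]
      ring
  rw [hind p le_rfl, h.sum]
  ring

/-- Hilbert 90 in the split case. -/
theorem SplitIdem.h90 (h : SplitIdem g p e) (hg : g ^ p = 1) (u : Cˣ)
    (hu : ∏ i ∈ range p, g ^ i • (u : C) = 1) : ∃ w : Cˣ, (u : C) * g • (w : C) = w := by
  set a : ℕ → C := fun i => ∏ j ∈ range i, g ^ j • (u : C) with ha
  set a' : ℕ → C := fun i => ∏ j ∈ range i, g ^ j • ((u⁻¹ : Cˣ) : C) with ha'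
  have haa' : ∀ i, a i * a' i = 1 := by
    intro i
    simp only [ha, ha']
    rw [← Finset.prod_mul_distrib]
    apply Finset.prod_eq_one
    intro j _
    rw [← smul_mul', Units.mul_inv, smul_one]
  have hasucc : ∀ i, a (i + 1) = (u : C) * g • a i := by
    intro i
    simp only [ha]
    rw [Finset.prod_range_succ', pow_zero, one_smul, mul_comm, Finset.smul_prod']
    congr 1
    apply Finset.prod_congr rfl
    intro j _
    rw [pow_succ', mul_smul]
  have hap : a p = 1 := hu
  have ha0 : a 0 = 1 := by simp [ha]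
  have hsumcross : ∀ (x y : ℕ → C), (∑ i ∈ range p, x i * (g ^ i • e)) *
      (∑ i ∈ range p, y i * (g ^ i • e)) = ∑ i ∈ range p, (x i * y i) * (g ^ i • e) := by
    intro x y
    rw [Finset.sum_mul]
    apply Finset.sum_congr rfl
    intro i hi
    rw [Finset.mul_sum, Finset.sum_eq_single_of_mem i hi]
    · have := h.idem i (Finset.mem_range.mp hi)
      calc x i * (g ^ i • e) * (y i * (g ^ i • e))
          = (x i * y i) * ((g ^ i • e) * (g ^ i • e)) := by ring
        _ = _ := by rw [this]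
    · intro j hj hji
      have := h.orth i j (Finset.mem_range.mp hi) (Finset.mem_range.mp hj) (Ne.symm hji)
      calc x i * (g ^ i • e) * (y j * (g ^ j • e))
          = (x i * y j) * ((g ^ i • e) * (g ^ j • e)) := by ring
        _ = 0 := by rw [this, mul_zero]
  have hww' : (∑ i ∈ range p, a i * (g ^ i • e)) * (∑ i ∈ range p, a' i * (g ^ i • e)) = 1 := by
    rw [hsumcross]
    simp only [haa', one_mul]
    exact h.sum
  refine ⟨⟨∑ i ∈ range p, a i * (g ^ i • e), ∑ i ∈ range p, a' i * (g ^ i • e), hww',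
    by rw [mul_comm]; exact hww'⟩, ?_⟩
  change (u : C) * g • (∑ i ∈ range p, a i * (g ^ i • e)) = ∑ i ∈ range p, a i * (g ^ i • e)
  rw [Finset.smul_sum, Finset.mul_sum]
  have hstep : ∀ i, (u : C) * g • (a i * (g ^ i • e)) = a (i + 1) * (g ^ (i + 1) • e) := by
    intro i
    rw [smul_mul', hasucc, ← mul_smul, ← pow_succ', mul_assoc]
  simp only [hstep]
  have h1 := Finset.sum_range_succ (fun i => a i * (g ^ i • e)) p
  have h2 := Finset.sum_range_succ' (fun i => a i * (g ^ i • e)) p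
  rw [h1] at h2
  simp only [hap, ha0, hg, pow_zero, one_smul, one_mul] at h2
  exact (add_right_cancel h2).symm

end Split

section Dichotomy

variable {G C : Type*} [Group G] [CommRing C] [MulSemiringAction G C]

/-- Primitive idempotents. -/
def IsPrimIdem (e : C) : Prop :=
  IsIdempotentElem e ∧ e ≠ 0 ∧ ∀ f : C, IsIdempotentElem f → e * f = 0 ∨ e * f = e

lemma IsPrimIdem.smul {e : C} (h : IsPrimIdem e) (σ : G) : IsPrimIdem (σ • e) := by
  obtain ⟨h1, h2, h3⟩ := h
  refine ⟨?_, ?_, ?_⟩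
  · change σ • e * σ • e = σ • e
    rw [← smul_mul', h1.eq]
  · intro h0
    apply h2
    have := congrArg (fun x => σ⁻¹ • x) h0
    simpa using this
  · intro f hf
    have hf' : IsIdempotentElem (σ⁻¹ • f) := by
      change σ⁻¹ • f * σ⁻¹ • f = σ⁻¹ • f
      rw [← smul_mul', hf.eq]
    have hef : σ • e * f = σ • (e * σ⁻¹ • f) := by
      rw [smul_mul', smul_inv_smul]
    rcases h3 _ hf' with h | h
    · left
      rw [hef, h, smul_zero]
    · right
      rw [hef, h]

lemma IsPrimIdem.mul_eq_zero {e f : C} (he : IsPrimIdem e) (hf : IsPrimIdem f) (hne : e ≠ f) :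
    e * f = 0 := by
  rcases he.2.2 f hf.1 with h | h
  · exact h
  · rcases hf.2.2 e he.1 with h' | h'
    · rw [mul_comm] at h'
      exact h'
    · exfalso
      apply hne
      rw [← h, mul_comm, h']

theorem exists_primIdem (C : Type*) [CommRing C] [Nontrivial C] [IsArtinianRing C]
    [IsReduced C] : ∃ e : C, IsPrimIdem e ∧ (e = 1 → IsField C) := by
  classical
  obtain ⟨I, hI⟩ := Ideal.exists_maximal C
  set 𝔐₀ : MaximalSpectrum C := ⟨I, hI⟩ with h𝔐₀
  set e : C := (IsArtinianRing.equivPi C).symm (Pi.single 𝔐₀ 1) with he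
  have hee : IsArtinianRing.equivPi C e = Pi.single 𝔐₀ 1 :=
    (IsArtinianRing.equivPi C).apply_symm_apply _
  have hne1 : (1 : C ⧸ 𝔐₀.asIdeal) ≠ 0 := by
    have : Nontrivial (C ⧸ 𝔐₀.asIdeal) := Ideal.Quotient.nontrivial_iff.mpr hI.ne_top
    exact one_ne_zero
  refine ⟨e, ⟨?_, ?_, ?_⟩, ?_⟩
  · apply (IsArtinianRing.equivPi C).injective
    rw [map_mul, hee, ← Pi.single_mul, mul_one]
  · intro h0
    rw [h0, map_zero] at hee
    have := congrFun hee 𝔐₀
    rw [Pi.single_eq_same] at this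
    exact hne1 this.symm
  · intro f hf
    have hfm : IsIdempotentElem (Ideal.Quotient.mk 𝔐₀.asIdeal f) := by
      change _ * _ = _
      rw [← map_mul, hf.eq]
    have : IsDomain (C ⧸ 𝔐₀.asIdeal) := Ideal.Quotient.isDomain _
    have hef : IsArtinianRing.equivPi C (e * f) =
        Pi.single 𝔐₀ (Ideal.Quotient.mk 𝔐₀.asIdeal f) := by
      rw [map_mul, hee]
      funext 𝔐
      by_cases h𝔐 : 𝔐 = 𝔐₀
      · subst h𝔐
        simp
      · simp [h𝔐]
    rcases IsIdempotentElem.iff_eq_zero_or_one.mp hfm with h | h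
    · left
      apply (IsArtinianRing.equivPi C).injective
      rw [hef, h, Pi.single_zero, map_zero]
    · right
      apply (IsArtinianRing.equivPi C).injective
      rw [hef, h, hee]
  · intro h1
    rw [h1, map_one] at hee
    have huniq : ∀ J : Ideal C, J.IsMaximal → J = I := by
      intro J hJ
      by_contra hne
      have hJne : (⟨J, hJ⟩ : MaximalSpectrum C) ≠ 𝔐₀ := by
        intro h
        exact hne (congrArg MaximalSpectrum.asIdeal h)
      have h10 := congrFun hee ⟨J, hJ⟩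
      rw [Pi.single_eq_of_ne hJne] at h10
      have : Nontrivial (C ⧸ J) := Ideal.Quotient.nontrivial_iff.mpr hJ.ne_top
      exact one_ne_zero h10
    have : IsLocalRing C := IsLocalRing.of_unique_max_ideal ⟨I, hI, huniq⟩
    exact IsArtinianRing.isField_of_isReduced_of_isLocalRing C

/-- A nontrivial reduced Artinian ring with an automorphism `g` of prime order dividing `p`,
without nontrivial invariant idempotents, is a field or "induced". -/
theorem field_or_split [Nontrivial C] [IsArtinianRing C] [IsReduced C] (g : G) (p : ℕ)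
    (hp : p.Prime) (hg : g ^ p = 1)
    (hinv : ∀ c : C, IsIdempotentElem c → g • c = c → c = 0 ∨ c = 1) :
    IsField C ∨ ∃ e : C, SplitIdem g p e := by
  obtain ⟨e, he, hfield⟩ := exists_primIdem C
  by_cases hge : g • e = e
  · left
    rcases hinv e he.1 hge with h | h
    · exact absurd h he.2.1
    · exact hfield h
  · right
    have hpow_fix : ∀ k, 0 < k → k < p → g ^ k • e ≠ e := by
      intro k hk0 hkp hk
      apply hge
      have hcop : Nat.Coprime k p :=
        Nat.coprime_comm.mp ((Nat.Prime.coprime_iff_not_dvd hp).mpr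
          (Nat.not_dvd_of_pos_of_lt hk0 hkp))
      obtain ⟨m, -, hm⟩ := Nat.exists_mul_mod_eq_one_of_coprime hcop hp.one_lt
      have h1 : g ^ (k * m) = g := by
        rw [pow_eq_pow_mod (k * m) hg, hm, pow_one]
      have h2 : ∀ m : ℕ, (g ^ k) ^ m • e = e := fun m => smul_pow_fixed e hk m
      rw [← h1, pow_mul]
      exact h2 m
    have hdist : ∀ i j, i < p → j < p → i < j → g ^ i • e ≠ g ^ j • e := by
      intro i j _ hj hij h
      apply hpow_fix (j - i) (Nat.sub_pos_of_lt hij) (lt_of_le_of_lt (Nat.sub_le j i) hj)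
      have h3 : g ^ j = g ^ i * g ^ (j - i) := by
        rw [← pow_add, Nat.add_sub_cancel' hij.le]
      rw [h3, mul_smul] at h
      have := congrArg (fun x => (g ^ i)⁻¹ • x) h
      simp only [inv_smul_smul] at this
      exact this.symm
    have horth : ∀ i j, i < p → j < p → i ≠ j → (g ^ i • e) * (g ^ j • e) = 0 := by
      intro i j hi hj hij
      apply IsPrimIdem.mul_eq_zero (he.smul _) (he.smul _)
      rcases Nat.lt_or_gt_of_ne hij with h | h
      · exact hdist i j hi hj h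
      · exact (hdist j i hj hi h).symm
    refine ⟨e, horth, ?_⟩
    set s := ∑ i ∈ range p, g ^ i • e with hs
    have hidem : ∀ i, (g ^ i • e) * (g ^ i • e) = g ^ i • e := fun i => (he.smul (g ^ i)).1.eq
    have hs_idem : IsIdempotentElem s := by
      change s * s = s
      rw [hs, Finset.sum_mul]
      apply Finset.sum_congr rfl
      intro i hi
      rw [Finset.mul_sum, Finset.sum_eq_single_of_mem i hi, hidem]
      intro j hj hji
      exact horth i j (Finset.mem_range.mp hi) (Finset.mem_range.mp hj) (Ne.symm hji)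
    have hs_inv : g • s = s := by
      rw [hs, Finset.smul_sum]
      have h1 := Finset.sum_range_succ (fun i => g ^ i • e) p
      have h2 := Finset.sum_range_succ' (fun i => g ^ i • e) p
      rw [h1] at h2
      simp only [hg, pow_zero] at h2
      have h3 := add_right_cancel h2
      rw [h3]
      apply Finset.sum_congr rfl
      intro i _
      rw [← mul_smul, ← pow_succ']
    have hs_ne : s ≠ 0 := by
      intro h0
      have h1 : s * e = e := by
        rw [hs, Finset.sum_mul, Finset.sum_eq_single_of_mem 0 (Finset.mem_range.mpr hp.pos)]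
        · simpa using he.1.eq
        · intro j hj hj0
          have := horth j 0 (Finset.mem_range.mp hj) hp.pos hj0
          simpa using this
      rw [h0, zero_mul] at h1
      exact he.2.1 h1.symm
    rcases hinv s hs_idem hs_inv with h | h
    · exact absurd h hs_ne
    · exact h

end Dichotomy

end Fermat.Agent.S55.CFT.H80

end
-- ==== END Fermat.Agent.S55.CFT.H80_JCycAlg

-- ==== BEGIN Fermat.Agent.S55.CFT.H80_PlacesAbs
section

set_option autoImplicit false

namespace Fermat.Agent.S55.CFT.H80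

open IsLocalRing

/-- A domain which is module-finite over a complete Noetherian local ring has at most one maximal
ideal. -/
theorem maximal_unique_of_finite_domain {O : Type} [CommRing O] [IsLocalRing O]
    [IsNoetherianRing O] [IsAdicComplete (maximalIdeal O) O] (D : Type) [CommRing D] [IsDomain D]
    [Algebra O D] [Module.Finite O D] (𝔫₁ 𝔫₂ : Ideal D) (h₁ : 𝔫₁.IsMaximal) (h₂ : 𝔫₂.IsMaximal) :
    𝔫₁ = 𝔫₂ := by
  classical
  obtain ⟨-, hbij, -, -⟩ :=
    Algebra.finite_maximalSpectrum_and_bijective_localization_of_module_finite (𝒪 := O) D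
  by_contra hne
  set M₁ : MaximalSpectrum D := ⟨𝔫₁, h₁⟩ with hM₁
  set M₂ : MaximalSpectrum D := ⟨𝔫₂, h₂⟩ with hM₂
  have hM : M₁ ≠ M₂ := fun h => hne (congrArg MaximalSpectrum.asIdeal h)
  obtain ⟨a, ha⟩ := hbij.2 (Pi.single M₁ 1)
  obtain ⟨b, hb⟩ := hbij.2 (Pi.single M₂ 1)
  have hab : a * b = 0 := by
    apply hbij.1
    rw [map_mul, ha, hb, map_zero]
    funext I
    by_cases hI : I = M₁
    · subst hI
      simp [hM]
    · simp [hI]
  rcases mul_eq_zero.mp hab with h | h
  · have := congrFun ha M₁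
    rw [h, map_zero] at this
    simp at this
  · have := congrFun hb M₂
    rw [h, map_zero] at this
    simp at this


/-- In a Noetherian ring, if the prime `𝔪` is principal up to an element `s ∉ 𝔪`, then every prime
strictly below `𝔪` is the kernel of the localization map at `𝔪`. -/
theorem prime_below_eq_ker {R : Type*} [CommRing R] [IsNoetherianRing R] (𝔪 : Ideal R)
    [h𝔪 : 𝔪.IsPrime] (π s : R) (hs : s ∉ 𝔪) (hπ : π ∈ 𝔪)
    (h : ∀ x ∈ 𝔪, s * x ∈ Ideal.span {π}) (P : Ideal R) [hP : P.IsPrime] (hle : P ≤ 𝔪)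
    (hne : P ≠ 𝔪) : P = RingHom.ker (algebraMap R (Localization.AtPrime 𝔪)) := by
  have hdisj : Disjoint (𝔪.primeCompl : Set R) (P : Set R) := by
    rw [Set.disjoint_left]
    intro x hx hxP
    exact hx (hle hxP)
  have hπP : π ∉ P := by
    intro hπP
    apply hne
    apply le_antisymm hle
    intro x hx
    have h1 : s * x ∈ P := (Ideal.span_singleton_le_iff_mem (I := P)).mpr hπP (h x hx)
    exact (hP.mem_or_mem h1).resolve_left (fun hsP => hs (hle hsP))
  set P' := P.map (algebraMap R (Localization.AtPrime 𝔪)) with hP'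
  have hcomap : P'.comap (algebraMap R (Localization.AtPrime 𝔪)) = P :=
    IsLocalization.under_map_of_isPrime_disjoint 𝔪.primeCompl (Localization.AtPrime 𝔪) hP hdisj
  have hP'bot : P' = ⊥ := by
    apply Submodule.eq_bot_of_le_smul_of_le_jacobson_bot
      (maximalIdeal (Localization.AtPrime 𝔪)) P' (IsNoetherian.noetherian P') ?_
      (IsLocalRing.maximalIdeal_le_jacobson ⊥)
    rw [Ideal.smul_eq_mul]
    apply Ideal.map_le_iff_le_comap.mpr
    intro x hx
    obtain ⟨y, hy⟩ := Ideal.mem_span_singleton'.mp (h x (hle hx))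
    have hyP : y ∈ P := by
      have h2 : y * π ∈ P := by
        rw [hy]
        exact P.mul_mem_left s hx
      exact (hP.mem_or_mem h2).resolve_right hπP
    have hsu : IsUnit (algebraMap R (Localization.AtPrime 𝔪) s) :=
      IsLocalization.map_units (Localization.AtPrime 𝔪) (⟨s, hs⟩ : 𝔪.primeCompl)
    obtain ⟨u, hu⟩ := hsu
    have hx' : algebraMap R (Localization.AtPrime 𝔪) x =
        algebraMap R (Localization.AtPrime 𝔪) π *
          (↑u⁻¹ * algebraMap R (Localization.AtPrime 𝔪) y) := by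
      have h3 := congrArg (algebraMap R (Localization.AtPrime 𝔪)) hy
      rw [map_mul, map_mul, ← hu] at h3
      calc algebraMap R (Localization.AtPrime 𝔪) x
          = ↑u⁻¹ * (↑u * algebraMap R (Localization.AtPrime 𝔪) x) := by
            rw [← mul_assoc, Units.inv_mul, one_mul]
        _ = ↑u⁻¹ * (algebraMap R (Localization.AtPrime 𝔪) y *
              algebraMap R (Localization.AtPrime 𝔪) π) := by rw [h3]
        _ = _ := by ring
    rw [Ideal.mem_comap, hx']
    refine Ideal.mul_mem_mul ?_ (Ideal.mul_mem_left _ _ (Ideal.mem_map_of_mem _ hyP))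
    rw [← Localization.AtPrime.map_eq_maximalIdeal]
    exact Ideal.mem_map_of_mem _ hπ
  rw [← hcomap, hP'bot]
  rfl

/-- Uniqueness of the prime strictly below a "locally principal" prime `𝔪`. -/
theorem prime_unique_below {R : Type*} [CommRing R] [IsNoetherianRing R] (𝔪 : Ideal R)
    [h𝔪 : 𝔪.IsPrime] (π s : R) (hs : s ∉ 𝔪) (hπ : π ∈ 𝔪)
    (h : ∀ x ∈ 𝔪, s * x ∈ Ideal.span {π}) (P₁ P₂ : Ideal R) [hP₁ : P₁.IsPrime]
    [hP₂ : P₂.IsPrime] (hle₁ : P₁ ≤ 𝔪) (hne₁ : P₁ ≠ 𝔪) (hle₂ : P₂ ≤ 𝔪) (hne₂ : P₂ ≠ 𝔪) :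
    P₁ = P₂ :=
  (prime_below_eq_ker 𝔪 π s hs hπ h P₁ hle₁ hne₁).trans
    (prime_below_eq_ker 𝔪 π s hs hπ h P₂ hle₂ hne₂).symm

/-- Existence of a prime below a given prime avoiding a given non-zero-divisor. -/
theorem exists_prime_below {R : Type*} [CommRing R] (𝔪 : Ideal R) [h𝔪 : 𝔪.IsPrime] (ϖ : R)
    (hϖ : ∀ x : R, ϖ * x = 0 → x = 0) : ∃ P : Ideal R, P.IsPrime ∧ P ≤ 𝔪 ∧ ϖ ∉ P := by
  have hpow : ∀ (n : ℕ) (x : R), ϖ ^ n * x = 0 → x = 0 := by
    intro n
    induction n with
    | zero => intro x hx; simpa using hx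
    | succ n ih =>
      intro x hx
      apply ih
      apply hϖ
      rw [← mul_assoc, ← pow_succ']
      exact hx
  have hdisj : Disjoint (((⊥ : Ideal R) : Set R)) (𝔪.primeCompl ⊔ Submonoid.powers ϖ : Submonoid R) := by
    rw [Set.disjoint_left]
    intro x hx hxS
    have hx0 : x = 0 := by simpa using hx
    subst hx0
    obtain ⟨y, hy, z, hz, hyz⟩ := Submonoid.mem_sup.mp hxS
    obtain ⟨n, rfl⟩ := Submonoid.mem_powers_iff _ _ |>.mp hz
    have hy0 : y = 0 := hpow n y (by rw [mul_comm]; exact hyz)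
    exact hy (hy0 ▸ 𝔪.zero_mem)
  obtain ⟨P, hP, -, hPd⟩ := Ideal.exists_le_prime_disjoint ⊥ _ hdisj
  refine ⟨P, hP, ?_, ?_⟩
  · intro x hx
    by_contra hxm
    exact Set.disjoint_left.mp hPd hx (Submonoid.mem_sup_left (show x ∈ 𝔪.primeCompl from hxm))
  · intro hϖP
    exact Set.disjoint_left.mp hPd hϖP (Submonoid.mem_sup_right (Submonoid.mem_powers ϖ))

section Corr

variable {S R : Type*} [CommRing S] [CommRing R] (φ : S →+* R) (q : S)

/-- If `S/q → R/q` is bijective (`h4` injectivity, `h5` surjectivity), an ideal `v ∋ q` of `S` is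
recovered from the ideal it generates in `R`. -/
theorem comap_map_of_mem (h4 : ∀ x : S, φ x ∈ Ideal.span {φ q} → x ∈ Ideal.span {q})
    (h5 : ∀ r : R, ∃ y : S, r - φ y ∈ Ideal.span {φ q}) (v : Ideal S) (hq : q ∈ v) :
    (v.map φ).comap φ = v := by
  apply le_antisymm _ Ideal.le_comap_map
  have key : ∀ r ∈ v.map φ, ∃ y ∈ v, r - φ y ∈ Ideal.span {φ q} := by
    intro r hr
    refine Submodule.span_induction (p := fun r _ => ∃ y ∈ v, r - φ y ∈ Ideal.span {φ q})
      ?_ ?_ ?_ ?_ hr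
    · rintro _ ⟨g, hg, rfl⟩
      exact ⟨g, hg, by simp⟩
    · exact ⟨0, v.zero_mem, by simp⟩
    · rintro a b - - ⟨y, hy, hya⟩ ⟨z, hz, hzb⟩
      refine ⟨y + z, v.add_mem hy hz, ?_⟩
      have : a + b - φ (y + z) = (a - φ y) + (b - φ z) := by rw [map_add]; ring
      rw [this]
      exact Ideal.add_mem _ hya hzb
    · rintro a b - ⟨y, hy, hyb⟩
      obtain ⟨a', ha'⟩ := h5 a
      refine ⟨a' * y, v.mul_mem_left a' hy, ?_⟩
      have : a • b - φ (a' * y) = a * (b - φ y) + (a - φ a') * φ y := by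
        rw [map_mul, smul_eq_mul]; ring
      rw [this]
      exact Ideal.add_mem _ (Ideal.mul_mem_left _ _ hyb) (Ideal.mul_mem_right _ _ ha')
  intro x hx
  obtain ⟨y, hy, hxy⟩ := key (φ x) hx
  rw [← map_sub] at hxy
  have h1 : x - y ∈ v := (Ideal.span_singleton_le_iff_mem (I := v)).mpr hq (h4 _ hxy)
  have : x = (x - y) + y := by ring
  rw [this]
  exact v.add_mem h1 hy

theorem map_comap_of_mem (h5 : ∀ r : R, ∃ y : S, r - φ y ∈ Ideal.span {φ q}) (𝔪 : Ideal R)
    (hq : φ q ∈ 𝔪) : (𝔪.comap φ).map φ = 𝔪 := by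
  apply le_antisymm Ideal.map_comap_le
  intro r hr
  obtain ⟨y, hy⟩ := h5 r
  have hspan : Ideal.span {φ q} ≤ 𝔪 := (Ideal.span_singleton_le_iff_mem (I := 𝔪)).mpr hq
  have hy𝔪 : φ y ∈ 𝔪 := by
    have : φ y = r - (r - φ y) := by ring
    rw [this]
    exact 𝔪.sub_mem hr (hspan hy)
  have hspan' : Ideal.span {φ q} ≤ (𝔪.comap φ).map φ :=
    (Ideal.span_singleton_le_iff_mem (I := (𝔪.comap φ).map φ)).mpr
      (Ideal.mem_map_of_mem φ (show q ∈ 𝔪.comap φ from hq))
  have : r = φ y + (r - φ y) := by ring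
  rw [this]
  exact Ideal.add_mem _ (Ideal.mem_map_of_mem φ (show y ∈ 𝔪.comap φ from hy𝔪)) (hspan' hy)

/-- The ideal generated by a maximal ideal `v ∋ q` is maximal. -/
theorem map_isMaximal_of_mem (h4 : ∀ x : S, φ x ∈ Ideal.span {φ q} → x ∈ Ideal.span {q})
    (h5 : ∀ r : R, ∃ y : S, r - φ y ∈ Ideal.span {φ q})
    (hmax : ∀ 𝔪 : Ideal R, 𝔪.IsMaximal → φ q ∈ 𝔪) (v : Ideal S) (hv : v.IsMaximal)
    (hq : q ∈ v) : (v.map φ).IsMaximal := by
  have hne : v.map φ ≠ ⊤ := by
    intro htop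
    have h1 := comap_map_of_mem φ q h4 h5 v hq
    rw [htop, Ideal.comap_top] at h1
    exact hv.ne_top h1.symm
  obtain ⟨𝔪, h𝔪, hle⟩ := Ideal.exists_le_maximal _ hne
  have h2 : v ≤ 𝔪.comap φ := Ideal.map_le_iff_le_comap.mp hle
  have h3 : v = 𝔪.comap φ := hv.eq_of_le (Ideal.comap_ne_top φ h𝔪.ne_top) h2
  have h4' : v.map φ = 𝔪 := by
    rw [h3]
    exact map_comap_of_mem φ q h5 𝔪 (hmax 𝔪 h𝔪)
  rw [h4']
  exact h𝔪

end Corr

/-- In a Dedekind domain, a nonzero prime is principal up to an element outside it. -/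
theorem exists_uniformizer_mul {S : Type*} [CommRing S] [IsDedekindDomain S] (v : Ideal S)
    [hv : v.IsPrime] (hv0 : v ≠ ⊥) :
    ∃ π ∈ v, ∃ s, s ∉ v ∧ ∀ g ∈ v, s * g ∈ Ideal.span {π} := by
  obtain ⟨π, hπ1, hπ2⟩ := Ideal.exists_mem_pow_notMem_pow_succ v hv0 hv.ne_top 1
  rw [pow_one] at hπ1
  have hle : Ideal.span {π} ≤ v := (Ideal.span_singleton_le_iff_mem (I := v)).mpr hπ1
  obtain ⟨J, hJ⟩ := Ideal.dvd_iff_le.mpr hle
  have hJv : ¬ J ≤ v := by
    intro h
    apply hπ2
    have h1 : π ∈ v * J := hJ ▸ Ideal.mem_span_singleton_self π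
    have h2 : v * J ≤ v ^ (1 + 1) := by
      rw [pow_succ, pow_one]
      exact Ideal.mul_mono_right h
    exact h2 h1
  obtain ⟨s, hsJ, hsv⟩ := SetLike.not_le_iff_exists.mp hJv
  refine ⟨π, hπ1, s, hsv, fun g hg => ?_⟩
  have h3 : g * s ∈ v * J := Ideal.mul_mem_mul hg hsJ
  rw [hJ, mul_comm s g]
  exact h3

section Assembly

/-- Every maximal ideal of a module-finite algebra over a local ring contains the image of the
maximal ideal. -/
theorem algebraMap_mem_of_isMaximal {O : Type} [CommRing O] [IsLocalRing O]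
    {R : Type} [CommRing R] [Algebra O R] [Module.Finite O R] (ϖ : O) (hϖ : ϖ ∈ maximalIdeal O) (𝔫 : Ideal R)
    (h𝔫 : 𝔫.IsMaximal) : algebraMap O R ϖ ∈ 𝔫 := by
  have h1 : (𝔫.comap (algebraMap O R)).IsMaximal :=
    Ideal.isMaximal_comap_of_isIntegral_of_isMaximal 𝔫
  have h2 := IsLocalRing.eq_maximalIdeal h1
  have : ϖ ∈ 𝔫.comap (algebraMap O R) := h2 ▸ hϖ
  exact this

/-- Over a complete local ring, a prime of a module-finite algebra lies in a unique maximal
ideal. -/
theorem maximal_unique_over (O : Type) [CommRing O] [IsLocalRing O] [IsNoetherianRing O]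
    [IsAdicComplete (maximalIdeal O) O]
    {R : Type} [CommRing R] [Algebra O R] [Module.Finite O R] (P : Ideal R) [hP : P.IsPrime] (𝔫₁ 𝔫₂ : Ideal R)
    (h₁ : 𝔫₁.IsMaximal) (h₂ : 𝔫₂.IsMaximal) (hle₁ : P ≤ 𝔫₁) (hle₂ : P ≤ 𝔫₂) : 𝔫₁ = 𝔫₂ := by
  have : Module.Finite O (R ⧸ P) :=
    Module.Finite.of_surjective (Ideal.Quotient.mkₐ O P).toLinearMap
      (Ideal.Quotient.mkₐ_surjective O P)
  have hsurj : Function.Surjective (Ideal.Quotient.mk P) := Ideal.Quotient.mk_surjective
  have hk₁ : RingHom.ker (Ideal.Quotient.mk P) ≤ 𝔫₁ := by rwa [Ideal.mk_ker]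
  have hk₂ : RingHom.ker (Ideal.Quotient.mk P) ≤ 𝔫₂ := by rwa [Ideal.mk_ker]
  have hm₁ := Ideal.IsMaximal.map_of_surjective_of_ker_le hsurj hk₁
  have hm₂ := Ideal.IsMaximal.map_of_surjective_of_ker_le hsurj hk₂
  have heq := maximal_unique_of_finite_domain (O := O) (R ⧸ P) _ _ hm₁ hm₂
  have h3 := congrArg (Ideal.comap (Ideal.Quotient.mk P)) heq
  rw [Ideal.comap_map_of_surjective _ hsurj, Ideal.comap_map_of_surjective _ hsurj] at h3
  have hb : Ideal.comap (Ideal.Quotient.mk P) ⊥ = P := by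
    rw [← RingHom.ker_eq_comap_bot, Ideal.mk_ker]
  rw [hb, sup_eq_left.mpr hle₁, sup_eq_left.mpr hle₂] at h3
  exact h3

theorem eq_jacobson_of_le (O : Type) [CommRing O] [IsLocalRing O] [IsNoetherianRing O]
    [IsAdicComplete (maximalIdeal O) O]
    {R : Type} [CommRing R] [Algebra O R] [Module.Finite O R] (P : Ideal R) [hP : P.IsPrime] (𝔫 : Ideal R) (h𝔫 : 𝔫.IsMaximal)
    (hle : P ≤ 𝔫) : 𝔫 = P.jacobson := by
  apply le_antisymm
  · unfold Ideal.jacobson
    apply le_sInf
    rintro J ⟨hPJ, hJ⟩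
    exact (maximal_unique_over O P 𝔫 J h𝔫 hJ hle hPJ).le
  · exact sInf_le ⟨hle, h𝔫⟩

theorem jacobson_isMaximal_of_isPrime (O : Type) [CommRing O] [IsLocalRing O]
    [IsNoetherianRing O] [IsAdicComplete (maximalIdeal O) O]
    {R : Type} [CommRing R] [Algebra O R] [Module.Finite O R] (P : Ideal R) [hP : P.IsPrime] : P.jacobson.IsMaximal := by
  obtain ⟨𝔫, h𝔫, hle⟩ := Ideal.exists_le_maximal P hP.ne_top
  rw [← eq_jacobson_of_le O P 𝔫 h𝔫 hle]
  exact h𝔫

/-- The place of `S` attached to an ideal of `A`: the trace on `S` of the (unique) maximal ideal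
of `R` containing the trace of `𝔐` on `R`. -/
def placeIdeal {R A S : Type} [CommRing R] [CommRing A] [Algebra R A] [CommRing S]
    (φ : S →+* R) (𝔐 : Ideal A) : Ideal S :=
  ((𝔐.comap (algebraMap R A)).jacobson).comap φ

/-- The hypotheses of the abstract place correspondence. -/
structure PlaceHyp {O R : Type} [CommRing O] [IsLocalRing O] [CommRing R] [Algebra O R]
    (ϖ : O) (A : Type) [CommRing A] [Algebra R A] {S : Type} [CommRing S] (φ : S →+* R)
    (q : S) : Prop where
  mem_max : ϖ ∈ maximalIdeal O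
  loc : IsLocalization.Away (algebraMap O R ϖ) A
  inj : Function.Injective (algebraMap R A)
  q_ne : q ≠ 0
  map_q : φ q = algebraMap O R ϖ
  h4 : ∀ x : S, φ x ∈ Ideal.span {φ q} → x ∈ Ideal.span {q}
  h5 : ∀ r : R, ∃ y : S, r - φ y ∈ Ideal.span {φ q}

variable {O : Type} [CommRing O] [IsLocalRing O] [IsNoetherianRing O]
  [IsAdicComplete (maximalIdeal O) O]
  {R : Type} [CommRing R] [Algebra O R] [Module.Finite O R]
  {A : Type} [CommRing A] [Algebra R A] {S : Type} [CommRing S]
  {ϖ : O} {φ : S →+* R} {q : S}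

omit [IsNoetherianRing O] [IsAdicComplete (maximalIdeal O) O] in
theorem PlaceHyp.mem_of_isMaximal (H : PlaceHyp ϖ A φ q) (𝔫 : Ideal R) (h𝔫 : 𝔫.IsMaximal) :
    φ q ∈ 𝔫 := by
  rw [H.map_q]
  exact algebraMap_mem_of_isMaximal ϖ H.mem_max 𝔫 h𝔫

omit [IsLocalRing O] [IsNoetherianRing O] [IsAdicComplete (maximalIdeal O) O]
  [Module.Finite O R] in
theorem PlaceHyp.not_mem_comap [IsLocalRing O] (H : PlaceHyp ϖ A φ q) (𝔐 : Ideal A)
    (h𝔐 : 𝔐 ≠ ⊤) : φ q ∉ 𝔐.comap (algebraMap R A) := by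
  intro h
  have := H.loc
  have hu : IsUnit (algebraMap R A (algebraMap O R ϖ)) :=
    IsLocalization.Away.algebraMap_isUnit (algebraMap O R ϖ)
  rw [H.map_q] at h
  exact h𝔐 (Ideal.eq_top_of_isUnit_mem _ h hu)

theorem PlaceHyp.placeIdeal_isPrime (_H : PlaceHyp ϖ A φ q) (𝔐 : Ideal A) [h𝔐 : 𝔐.IsPrime] :
    (_root_.Fermat.Agent.S55.CFT.H80.placeIdeal φ 𝔐).IsPrime := by
  have := jacobson_isMaximal_of_isPrime O (𝔐.comap (algebraMap R A))
  unfold _root_.Fermat.Agent.S55.CFT.H80.placeIdeal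
  infer_instance

theorem PlaceHyp.mem_placeIdeal (H : PlaceHyp ϖ A φ q) (𝔐 : Ideal A) [h𝔐 : 𝔐.IsPrime] :
    q ∈ _root_.Fermat.Agent.S55.CFT.H80.placeIdeal φ 𝔐 :=
  H.mem_of_isMaximal _ (jacobson_isMaximal_of_isPrime O (𝔐.comap (algebraMap R A)))

theorem PlaceHyp.placeIdeal_injective [IsDedekindDomain S] (H : PlaceHyp ϖ A φ q)
    (𝔐₁ 𝔐₂ : Ideal A) [h₁ : 𝔐₁.IsPrime] [h₂ : 𝔐₂.IsPrime]
    (h : _root_.Fermat.Agent.S55.CFT.H80.placeIdeal φ 𝔐₁ = _root_.Fermat.Agent.S55.CFT.H80.placeIdeal φ 𝔐₂) : 𝔐₁ = 𝔐₂ := by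
  have : IsNoetherianRing R := IsNoetherianRing.of_finite O R
  set P₁ := 𝔐₁.comap (algebraMap R A) with hP₁
  set P₂ := 𝔐₂.comap (algebraMap R A) with hP₂
  have hm₁ := jacobson_isMaximal_of_isPrime O P₁
  have hm₂ := jacobson_isMaximal_of_isPrime O P₂
  have hq₁ := H.mem_of_isMaximal _ hm₁
  have hq₂ := H.mem_of_isMaximal _ hm₂
  have h𝔫 : P₁.jacobson = P₂.jacobson := by
    rw [← map_comap_of_mem φ q H.h5 _ hq₁, ← map_comap_of_mem φ q H.h5 _ hq₂]
    exact congrArg (Ideal.map φ) h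
  set v := _root_.Fermat.Agent.S55.CFT.H80.placeIdeal φ 𝔐₁ with hv
  have hvp : v.IsPrime := H.placeIdeal_isPrime 𝔐₁
  have hqv : q ∈ v := H.mem_placeIdeal 𝔐₁
  have hv0 : v ≠ ⊥ := by
    intro h0
    rw [h0] at hqv
    exact H.q_ne (by simpa using hqv)
  obtain ⟨π, hπ, s, hs, hsπ⟩ := exists_uniformizer_mul v hv0
  have h𝔫v : P₁.jacobson = v.map φ := (map_comap_of_mem φ q H.h5 _ hq₁).symm
  have hkey : ∀ x ∈ P₁.jacobson, φ s * x ∈ Ideal.span {φ π} := by
    intro x hx
    have h1 : φ s * x ∈ Ideal.span {φ s} * v.map φ :=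
      Ideal.mul_mem_mul (Ideal.mem_span_singleton_self _) (h𝔫v ▸ hx)
    have h2 : Ideal.span {φ s} * v.map φ ≤ Ideal.span {φ π} := by
      have e1 : Ideal.span {φ s} = (Ideal.span {s}).map φ := by
        rw [Ideal.map_span, Set.image_singleton]
      have e2 : Ideal.span {φ π} = (Ideal.span {π}).map φ := by
        rw [Ideal.map_span, Set.image_singleton]
      rw [e1, e2, ← Ideal.map_mul]
      apply Ideal.map_mono
      rw [Ideal.span_singleton_mul_le_iff]
      intro g hg
      exact hsπ g hg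
    exact h2 h1
  have hne₁ : P₁ ≠ P₁.jacobson := fun he => H.not_mem_comap 𝔐₁ h₁.ne_top (by rw [← hP₁, he]; exact hq₁)
  have hne₂ : P₂ ≠ P₁.jacobson := fun he => H.not_mem_comap 𝔐₂ h₂.ne_top (by rw [← hP₂, he]; exact hq₁)
  have hPP : P₁ = P₂ :=
    prime_unique_below (P₁.jacobson) (h𝔪 := hm₁.isPrime) (φ π) (φ s) hs hπ hkey P₁ P₂
      Ideal.le_jacobson hne₁ (h𝔫 ▸ Ideal.le_jacobson) hne₂
  have := H.loc
  rw [← IsLocalization.map_under (Submonoid.powers (algebraMap O R ϖ)) A 𝔐₁,
    ← IsLocalization.map_under (Submonoid.powers (algebraMap O R ϖ)) A 𝔐₂]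
  exact congrArg (Ideal.map (algebraMap R A)) hPP

theorem PlaceHyp.placeIdeal_surjective [IsDedekindDomain S] (H : PlaceHyp ϖ A φ q)
    (v : Ideal S) [hv : v.IsPrime] (hq : q ∈ v) :
    ∃ 𝔐 : Ideal A, 𝔐.IsPrime ∧ _root_.Fermat.Agent.S55.CFT.H80.placeIdeal φ 𝔐 = v := by
  have hv0 : v ≠ ⊥ := by
    intro h0
    rw [h0] at hq
    exact H.q_ne (by simpa using hq)
  have hvm : v.IsMaximal := Ideal.IsPrime.isMaximal hv hv0
  have h𝔫 : (v.map φ).IsMaximal :=
    map_isMaximal_of_mem φ q H.h4 H.h5 (fun 𝔪 h𝔪 => H.mem_of_isMaximal 𝔪 h𝔪) v hvm hq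
  have hnzd : ∀ x : R, algebraMap O R ϖ * x = 0 → x = 0 := by
    intro x hx
    have := H.loc
    have hu : IsUnit (algebraMap R A (algebraMap O R ϖ)) :=
      IsLocalization.Away.algebraMap_isUnit (algebraMap O R ϖ)
    apply H.inj
    rw [map_zero]
    have h1 := congrArg (algebraMap R A) hx
    rw [map_mul, map_zero] at h1
    exact (hu.mul_right_eq_zero).mp h1
  obtain ⟨P, hP, hle, hϖP⟩ := exists_prime_below (v.map φ) (h𝔪 := h𝔫.isPrime)
    (algebraMap O R ϖ) hnzd
  have hdisj : Disjoint ((Submonoid.powers (algebraMap O R ϖ) : Submonoid R) : Set R)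
      (P : Set R) := by
    rw [Set.disjoint_left]
    rintro x ⟨n, rfl⟩ hxP
    exact hϖP (hP.mem_of_pow_mem n hxP)
  have := H.loc
  refine ⟨P.map (algebraMap R A), IsLocalization.isPrime_of_isPrime_disjoint
    (Submonoid.powers (algebraMap O R ϖ)) A P hP hdisj, ?_⟩
  unfold _root_.Fermat.Agent.S55.CFT.H80.placeIdeal
  have h1 : (P.map (algebraMap R A)).comap (algebraMap R A) = P :=
    IsLocalization.under_map_of_isPrime_disjoint (Submonoid.powers (algebraMap O R ϖ)) A hP hdisj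
  rw [h1, ← eq_jacobson_of_le O P (v.map φ) h𝔫 hle]
  exact comap_map_of_mem φ q H.h4 H.h5 v hq

/-- Functoriality of the place map. -/
theorem placeIdeal_comap {R₂ A₂ S₂ : Type} [CommRing R₂] [Algebra O R₂] [Module.Finite O R₂]
    [CommRing A₂] [Algebra R₂ A₂] [CommRing S₂] (φ₂ : S₂ →+* R₂)
    (ψ : R →+* R₂) (hψ : ψ.IsIntegral) (α : A →+* A₂) (ι : S →+* S₂)
    (hα : α.comp (algebraMap R A) = (algebraMap R₂ A₂).comp ψ)
    (hι : ψ.comp φ = φ₂.comp ι) (𝔐 : Ideal A₂) [h𝔐 : 𝔐.IsPrime] :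
    _root_.Fermat.Agent.S55.CFT.H80.placeIdeal φ (𝔐.comap α) = (_root_.Fermat.Agent.S55.CFT.H80.placeIdeal φ₂ 𝔐).comap ι := by
  unfold _root_.Fermat.Agent.S55.CFT.H80.placeIdeal
  set P₂ := 𝔐.comap (algebraMap R₂ A₂) with hP₂
  have hm₂ := jacobson_isMaximal_of_isPrime O P₂
  have hP₁ : (𝔐.comap α).comap (algebraMap R A) = P₂.comap ψ := by
    rw [Ideal.comap_comap, hα, ← Ideal.comap_comap]
  rw [hP₁]
  have hmax : (P₂.jacobson.comap ψ).IsMaximal :=
    Ideal.isMaximal_comap_of_isIntegral_of_isMaximal' ψ hψ P₂.jacobson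
  have hle : P₂.comap ψ ≤ P₂.jacobson.comap ψ := Ideal.comap_mono Ideal.le_jacobson
  rw [← eq_jacobson_of_le O (P₂.comap ψ) _ hmax hle, Ideal.comap_comap, Ideal.comap_comap, hι]

end Assembly

end Fermat.Agent.S55.CFT.H80

end
-- ==== END Fermat.Agent.S55.CFT.H80_PlacesAbs

-- ==== BEGIN Fermat.Agent.S55.CFT.H96_DegElem
section

set_option autoImplicit false

namespace Fermat.Agent.S55.CFT.H96

/-- `(1 + t) ^ n = 1 + n t + t² g` (integers). -/
theorem exists_one_add_pow_int (t : ℤ) (n : ℕ) :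
    ∃ g : ℤ, (1 + t) ^ n = 1 + n * t + t ^ 2 * g := by
  induction n with
  | zero => exact ⟨0, by simp⟩
  | succ n ih =>
    obtain ⟨g, hg⟩ := ih
    refine ⟨n + g + t * g, ?_⟩
    rw [pow_succ, hg]
    push_cast
    ring

/-- `x ≡ 1 mod p` implies `x ^ (p ^ j) ≡ 1 mod p ^ (j + 1)`. -/
theorem pow_prime_pow_modEq_one (p : ℕ) (x : ℤ) (hx : (p : ℤ) ∣ x - 1) (j : ℕ) :
    ((p : ℤ) ^ (j + 1)) ∣ x ^ (p ^ j) - 1 := by
  induction j with
  | zero => simpa using hx
  | succ j ih =>
    obtain ⟨t, ht⟩ := ih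
    have hxt : x ^ (p ^ j) = 1 + (p : ℤ) ^ (j + 1) * t := by linarith
    obtain ⟨g, hg⟩ := exists_one_add_pow_int ((p : ℤ) ^ (j + 1) * t) p
    have e1 : x ^ (p ^ (j + 1)) = (x ^ (p ^ j)) ^ p := by
      rw [← pow_mul, pow_succ]
    rw [e1, hxt, hg]
    refine ⟨t + (p : ℤ) ^ j * t ^ 2 * g, ?_⟩
    ring

/-- The same in `ZMod (p ^ (j + 1))`. -/
theorem zmod_pow_prime_pow_eq_one (p : ℕ) (j : ℕ) (a : ℕ) (ha : a ≡ 1 [MOD p]) :
    ((a : ZMod (p ^ (j + 1))) ^ (p ^ j)) = 1 := by
  have h1 : (p : ℤ) ∣ (a : ℤ) - 1 := by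
    have := (Nat.modEq_iff_dvd.mp ha.symm)
    simpa using this
  have h2 := pow_prime_pow_modEq_one p (a : ℤ) h1 j
  have h3 : (((a : ℤ) ^ (p ^ j) - 1 : ℤ) : ZMod (p ^ (j + 1))) = 0 := by
    rw [ZMod.intCast_zmod_eq_zero_iff_dvd]
    exact_mod_cast h2
  push_cast at h3
  exact sub_eq_zero.mp h3

/-- If `q ^ N ≤ m` (and `2 ≤ q`, `q` prime to `m`), the order of `q` modulo `m` is at least `N`. -/
theorem le_orderOf_of_pow_le (q m N : ℕ) (hq : 2 ≤ q) (hcop : Nat.Coprime q m)
    (h : q ^ N ≤ m) : N ≤ orderOf (q : ZMod m) := by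
  have hm : 0 < m := lt_of_lt_of_le (pow_pos (by omega) N) h
  have : NeZero m := ⟨hm.ne'⟩
  have ho : orderOf (q : ZMod m) = orderOf (ZMod.unitOfCoprime q hcop) := by
    rw [← orderOf_units, ZMod.coe_unitOfCoprime]
  have hpos : 0 < orderOf (q : ZMod m) := by
    rw [ho]
    exact orderOf_pos _
  by_contra hlt
  push Not at hlt
  have h1 : ((q : ZMod m)) ^ orderOf (q : ZMod m) = 1 := pow_orderOf_eq_one _
  have h2 : ((q ^ orderOf (q : ZMod m) : ℕ) : ZMod m) = ((1 : ℕ) : ZMod m) := by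
    push_cast
    exact h1
  rw [ZMod.natCast_eq_natCast_iff] at h2
  have h3 : m ∣ q ^ orderOf (q : ZMod m) - 1 := (Nat.modEq_iff_dvd' (Nat.one_le_pow _ _ (by omega))).mp h2.symm
  have h4 : 1 < q ^ orderOf (q : ZMod m) := Nat.one_lt_pow hpos.ne' (by omega)
  have h5 : m ≤ q ^ orderOf (q : ZMod m) - 1 := Nat.le_of_dvd (by omega) h3
  have h6 : q ^ orderOf (q : ZMod m) < q ^ N := Nat.pow_lt_pow_right (by omega) hlt
  omega

end Fermat.Agent.S55.CFT.H96

end
-- ==== END Fermat.Agent.S55.CFT.H96_DegElem
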