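-- GENERATED (merged mirror, NOTES/tools/trim/merge3_helper67.py): 15 modules of the originals, bodies verbatim.
import Mathlib
import Fermat.Prelude.Def_GroupCohomology_ContinuousUnramified
import Fermat.Prelude.Def_GaloisRep_DeformationRingData
import Fermat.Prelude.Def_GaloisRep_LocalConditions
import Fermat.Prelude.Def_GaloisRep_StrictOrdinary
import Fermat.Prelude.Def_GaloisRep_Flat
import Fermat.Prelude.Def_GaloisRep_Residual
import Fermat.Agent.S55.CFT.H96_Newton

-- ==== BEGIN Fermat.Agent.S55.CFT.H96_UnnHensel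
section

set_option autoImplicit false
set_option linter.unusedSectionVars false

open Polynomial

namespace Fermat.Agent.S55.CFT.H96

/-- Completeness passes to an ideal with the same topology. -/
theorem isAdicComplete_of_le_of_pow_le {R : Type*} [CommRing R] (I J : Ideal R)
    [hI : IsAdicComplete I R] (hIJ : I ≤ J) (m : ℕ) (hJ : J ^ m ≤ I) : IsAdicComplete J R := by
  have hJ' : J ^ (m + 1) ≤ I := (Ideal.pow_le_pow_right (Nat.le_succ m)).trans hJ
  have hpow : ∀ n : ℕ, J ^ ((m + 1) * n) ≤ I ^ n := by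
    intro n
    rw [pow_mul]
    exact Ideal.pow_right_mono hJ' n
  have hle : ∀ n : ℕ, n ≤ (m + 1) * n := fun n => Nat.le_mul_of_pos_left n (Nat.succ_pos m)
  refine { haus' := fun x hx => ?_, prec' := fun f hf => ?_ }
  · refine IsHausdorff.haus' (I := I) x (fun n => ?_)
    have := hx ((m + 1) * n)
    rw [SModEq.zero, ← Ideal.one_eq_top, Ideal.smul_eq_mul, mul_one] at this ⊢
    exact hpow n this
  · have hf' : ∀ {a b : ℕ}, a ≤ b → f a - f b ∈ J ^ a := by
      intro a b hab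
      have := hf hab
      rw [SModEq.sub_mem, ← Ideal.one_eq_top, Ideal.smul_eq_mul, mul_one] at this
      exact this
    obtain ⟨L, hL⟩ := IsPrecomplete.prec' (I := I) (fun n => f ((m + 1) * n)) (by
      intro a b hab
      rw [SModEq.sub_mem, ← Ideal.one_eq_top, Ideal.smul_eq_mul, mul_one]
      exact hpow a (hf' (Nat.mul_le_mul_left _ hab)))
    refine ⟨L, fun n => ?_⟩
    have h1 := hL n
    rw [SModEq.sub_mem, ← Ideal.one_eq_top, Ideal.smul_eq_mul, mul_one] at h1 ⊢
    have h2 : f n - L = (f n - f ((m + 1) * n)) + (f ((m + 1) * n) - L) := by ring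
    rw [h2]
    exact Ideal.add_mem _ (hf' (hle n)) (Ideal.pow_right_mono hIJ n h1)

section poly

variable {A B : Type*} [CommRing A] [CommRing B] [Algebra A B]
  {G : Type*} [Group G] [Fintype G] [MulSemiringAction G B] [SMulCommClass G A B]

/-- The value at `0` of `∏ σ, (1 + c σ X)`. -/
theorem eval_zero_prod_one_add {S : Type*} [CommRing S] {ι : Type*} (s : Finset ι) (c : ι → S) :
    (∏ i ∈ s, (1 + C (c i) * X : S[X])).eval 0 = 1 := by
  rw [eval_prod]
  exact Finset.prod_eq_one (fun i _ => by simp)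

/-- The derivative at `0` of `∏ σ, (1 + c σ X)`. -/
theorem eval_zero_derivative_prod_one_add {S : Type*} [CommRing S] {ι : Type*} [DecidableEq ι]
    (s : Finset ι) (c : ι → S) :
    (derivative (∏ i ∈ s, (1 + C (c i) * X : S[X]))).eval 0 = ∑ i ∈ s, c i := by
  rw [derivative_prod_finset, eval_finsetSum]
  refine Finset.sum_congr rfl (fun i _ => ?_)
  rw [eval_mul, eval_zero_prod_one_add, one_mul, derivative_add, derivative_one, zero_add,
    derivative_C_mul, derivative_X, mul_one, eval_C]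

variable [Algebra.IsInvariant A B G]

variable (A G) in
/-- `∏ σ, (1 + σ(t) X)` has coefficients in `A`. -/
theorem exists_poly_one_add (t : B) :
    ∃ g : A[X], g.map (algebraMap A B) = ∏ σ : G, (1 + C (σ • t) * X) := by
  have h1 : (∏ σ : G, (1 + C (σ • t) * X) : B[X]) = ∏ σ : G, σ • (1 + C t * X : B[X]) := by
    refine Finset.prod_congr rfl (fun σ _ => ?_)
    rw [smul_add, smul_one, smul_mul', smul_C, smul_X]
  have h2 : (∏ σ : G, (1 + C (σ • t) * X) : B[X]) ∈ Polynomial.lifts (algebraMap A B) := by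
    rw [Polynomial.lifts_iff_coeff_lifts]
    intro n
    refine Algebra.IsInvariant.isInvariant (A := A) (G := G) _ (fun g => ?_)
    rw [← coeff_smul, h1, Finset.smul_prod_perm]
  obtain ⟨g, hg⟩ := (Polynomial.mem_lifts _).mp h2
  exact ⟨g, hg⟩

end poly

section hensel

variable {R S : Type*} [CommRing R] [CommRing S] (φ : R →+* S)
  {G : Type*} [Group G] [Fintype G] [MulSemiringAction G S]

/-- **Principal units are norms.** -/
theorem exists_prod_smul_one_add (hφ : ∀ (σ : G) (r : R), σ • φ r = φ r) (J : Ideal R)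
    [IsAdicComplete J R] (t : S) (g : R[X])
    (hg : g.map φ = ∏ σ : G, (1 + C (σ • t) * X)) (hg0 : g.eval 0 = 1)
    (hg1 : g.derivative.eval 0 - 1 ∈ J) (u : R) (hu : u - 1 ∈ J) :
    ∃ x : R, x ∈ J ∧ ∏ σ : G, σ • (1 + φ x * t) = φ u := by
  have h1 : (g - C u).eval 0 ∈ J := by
    rw [eval_sub, eval_C, hg0]
    have : (1 : R) - u = -(u - 1) := by ring
    rw [this]
    exact J.neg_mem hu
  have h2 : IsUnit (Ideal.Quotient.mk J ((g - C u).derivative.eval 0)) := by
    rw [derivative_sub, derivative_C, sub_zero]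
    have : Ideal.Quotient.mk J (g.derivative.eval 0) = 1 := by
      rw [← map_one (Ideal.Quotient.mk J), Ideal.Quotient.eq]
      exact hg1
    rw [this]
    exact isUnit_one
  obtain ⟨x, hx, hxJ⟩ := exists_root_of_adicComplete J (g - C u) 0 h1 h2
  rw [sub_zero] at hxJ
  refine ⟨x, hxJ, ?_⟩
  have hx' : g.eval x = u := by
    have := hx.eq_zero
    rw [eval_sub, eval_C, sub_eq_zero] at this
    exact this
  have h3 : ∏ σ : G, σ • (1 + φ x * t) = (∏ σ : G, (1 + C (σ • t) * X : S[X])).eval (φ x) := by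
    rw [eval_prod]
    refine Finset.prod_congr rfl (fun σ _ => ?_)
    rw [smul_add, smul_one, smul_mul', hφ, eval_add, eval_one, eval_mul, eval_C, eval_X,
      mul_comm]
  rw [h3, ← hg, eval_map, eval₂_at_apply, hx']

end hensel

end Fermat.Agent.S55.CFT.H96

end
-- ==== END Fermat.Agent.S55.CFT.H96_UnnHensel

-- ==== BEGIN Fermat.Agent.S55.CFT.H96_UnnResidue
section

set_option autoImplicit false
set_option linter.unusedSectionVars false
set_option linter.style.haveILetI false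

open scoped Pointwise

namespace Fermat.Agent.S55.CFT.H96

section stable

variable {B : Type*} [CommRing B] {G : Type*} [Group G] [Fintype G] [MulSemiringAction G B]

/-- The product of the conjugates modulo a stable ideal. -/
theorem prod_smul_sub_mem (𝔮 : Ideal B) (h𝔮 : ∀ (g : G) (x : B), x ∈ 𝔮 → g • x ∈ 𝔮) {y y' : B}
    (h : y - y' ∈ 𝔮) : (∏ g : G, g • y) - ∏ g : G, g • y' ∈ 𝔮 := by
  rw [← Ideal.Quotient.eq, map_prod, map_prod]
  refine Finset.prod_congr rfl (fun g _ => ?_)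
  rw [Ideal.Quotient.eq, ← smul_sub]
  exact h𝔮 g _ h

/-- An element which is `1` modulo the maximal ideal `Q` and lies in `P ⊄ Q`. -/
theorem exists_sub_one_mem_of_not_le {R : Type*} [CommRing R] (Q : Ideal R) [hQ : Q.IsMaximal]
    (P : Ideal R) (h1 : ¬ P ≤ Q) : ∃ j : R, j - 1 ∈ Q ∧ j ∈ P := by
  have h2 : Q ⊔ P = ⊤ := by
    refine hQ.1.2 _ (lt_of_le_of_ne le_sup_left ?_)
    intro h
    exact h1 (h ▸ le_sup_right)
  have h3 : (1 : R) ∈ Q ⊔ P := by rw [h2]; trivial
  obtain ⟨a, ha, j, hj, haj⟩ := Submodule.mem_sup.mp h3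
  refine ⟨j, ?_, hj⟩
  have : j - 1 = -a := by rw [← haj]; ring
  rw [this]
  exact Q.neg_mem ha

/-- An element which is `1` modulo `Q` and `0` modulo the other conjugates of `Q`. -/
theorem exists_crt_elt (Q : Ideal B) [hQ : Q.IsMaximal] :
    ∃ j : B, j - 1 ∈ Q ∧ ∀ g : G, g • Q ≠ Q → j ∈ g • Q := by
  classical
  let P := Finset.inf {g : G | g • Q ≠ Q} (fun g ↦ g • Q)
  have h1 : ¬ P ≤ Q := by
    rw [Ideal.IsPrime.inf_le' inferInstance]
    rintro ⟨g, hg1, hg2⟩
    exact (Finset.mem_filter.mp hg1).2 (smul_eq_of_smul_le hg2)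
  obtain ⟨j, hj1, hj⟩ := exists_sub_one_mem_of_not_le Q P h1
  exact ⟨j, hj1, fun g hg =>
    (Finset.inf_le (Finset.mem_filter.mpr ⟨Finset.mem_univ g, hg⟩) : P ≤ g • Q) hj⟩

/-- An element which is `1` modulo `𝔭'` and `0` modulo the maximal ideals `𝔭 ∈ s`, `𝔭' ∉ s`. -/
theorem exists_crt_elt_finset {R : Type*} [CommRing R] (s : Finset (Ideal R))
    (hs : ∀ 𝔭 ∈ s, 𝔭.IsMaximal) (𝔭' : Ideal R) [h𝔭' : 𝔭'.IsMaximal] (h : 𝔭' ∉ s) :
    ∃ c : R, c - 1 ∈ 𝔭' ∧ ∀ 𝔭 ∈ s, c ∈ 𝔭 := by
  have h1 : ¬ s.inf id ≤ 𝔭' := by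
    rw [Ideal.IsPrime.inf_le' inferInstance]
    rintro ⟨𝔭, h𝔭, hle⟩
    exact h (((hs 𝔭 h𝔭).eq_of_le h𝔭'.ne_top hle) ▸ h𝔭)
  obtain ⟨c, hc1, hc⟩ := exists_sub_one_mem_of_not_le 𝔭' (s.inf id) h1
  exact ⟨c, hc1, fun 𝔭 h𝔭 => (Finset.inf_le h𝔭 : s.inf id ≤ id 𝔭) hc⟩

end stable

section residue

variable {A B : Type*} [CommRing A] [CommRing B] [Algebra A B]
  {G : Type*} [Group G] [Fintype G] [MulSemiringAction G B] [SMulCommClass G A B]
  [Algebra.IsInvariant A B G]
  (P : Ideal A) [P.IsMaximal] (Q : Ideal B) [Q.IsMaximal] [Q.LiesOver P] [Finite (B ⧸ Q)]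

/-- With trivial inertia the decomposition group is the Galois group of the residue fields. -/
theorem stabilizerHom_bijective (hI : Q.inertia G = ⊥) :
    Function.Bijective (Ideal.Quotient.stabilizerHom Q P G) := by
  refine ⟨?_, Ideal.Quotient.stabilizerHom_surjective G P Q⟩
  rw [← MonoidHom.ker_eq_bot_iff, Ideal.Quotient.ker_stabilizerHom, eq_bot_iff]
  intro σ hσ
  have h1 : (σ : G) ∈ Q.inertia G := Ideal.coe_mem_inertia.mpr hσ
  rw [hI, Subgroup.mem_bot] at h1
  rw [Subgroup.mem_bot]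
  exact Subtype.ext h1

/-- The residues of the conjugates of `t`: outside the decomposition group they vanish. -/
theorem mk_smul_of_not_stab (t : B) (h0 : ∀ g : G, g • Q ≠ Q → t ∈ g • Q) (g : G)
    (hg : g • Q ≠ Q) : Ideal.Quotient.mk Q (g • t) = 0 := by
  rw [Ideal.Quotient.eq_zero_iff_mem, ← Ideal.mem_inv_pointwise_smul_iff]
  refine h0 g⁻¹ (fun h => hg ?_)
  calc g • Q = g • (g⁻¹ • Q) := by rw [h]
    _ = Q := smul_inv_smul g Q

/-- The sum of the residues of the conjugates of `t ≡ z mod Q`, `t ≡ 0` modulo the other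
conjugates of `Q`, is the trace of `z`. -/
theorem mk_sum_smul (hI : Q.inertia G = ⊥) (t : B) (h0 : ∀ g : G, g • Q ≠ Q → t ∈ g • Q) :
    letI := Ideal.Quotient.field Q
    letI := Ideal.Quotient.field P
    Ideal.Quotient.mk Q (∑ g : G, g • t) =
      ∑ τ : (B ⧸ Q) ≃ₐ[A ⧸ P] (B ⧸ Q), τ (Ideal.Quotient.mk Q t) := by
  classical
  letI := Ideal.Quotient.field Q
  letI := Ideal.Quotient.field P
  rw [map_sum, ← (stabilizerHom_bijective P Q hI).sum_comp
    (fun τ : (B ⧸ Q) ≃ₐ[A ⧸ P] (B ⧸ Q) => τ (Ideal.Quotient.mk Q t))]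
  have h1 : ∑ g : G, Ideal.Quotient.mk Q (g • t) =
      ∑ g ∈ Finset.univ.filter (fun g : G => g ∈ MulAction.stabilizer G Q),
        Ideal.Quotient.mk Q (g • t) := by
    symm
    refine Finset.sum_subset (Finset.filter_subset _ _) (fun g _ hg => ?_)
    refine mk_smul_of_not_stab Q t h0 g (fun h => hg ?_)
    exact Finset.mem_filter.mpr ⟨Finset.mem_univ g, MulAction.mem_stabilizer_iff.mpr h⟩
  rw [h1, Finset.sum_subtype (p := fun g : G => g ∈ MulAction.stabilizer G Q) _
    (fun g => by simp) (fun g => Ideal.Quotient.mk Q (g • t))]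
  rfl

/-- The product of the residues of the conjugates of `y ≡ z mod Q`, `y ≡ 1` modulo the other
conjugates of `Q`, is the norm of `z`. -/
theorem mk_prod_smul (hI : Q.inertia G = ⊥) (y : B) (h0 : ∀ g : G, g • Q ≠ Q → y - 1 ∈ g • Q) :
    letI := Ideal.Quotient.field Q
    letI := Ideal.Quotient.field P
    Ideal.Quotient.mk Q (∏ g : G, g • y) =
      ∏ τ : (B ⧸ Q) ≃ₐ[A ⧸ P] (B ⧸ Q), τ (Ideal.Quotient.mk Q y) := by
  classical
  letI := Ideal.Quotient.field Q
  letI := Ideal.Quotient.field P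
  rw [map_prod, ← (stabilizerHom_bijective P Q hI).prod_comp
    (fun τ : (B ⧸ Q) ≃ₐ[A ⧸ P] (B ⧸ Q) => τ (Ideal.Quotient.mk Q y))]
  have h1 : ∏ g : G, Ideal.Quotient.mk Q (g • y) =
      ∏ g ∈ Finset.univ.filter (fun g : G => g ∈ MulAction.stabilizer G Q),
        Ideal.Quotient.mk Q (g • y) := by
    symm
    refine Finset.prod_subset (Finset.filter_subset _ _) (fun g _ hg => ?_)
    have h2 : Ideal.Quotient.mk Q (g • (y - 1)) = 0 :=
      mk_smul_of_not_stab Q (y - 1) h0 g (fun h => hg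
        (Finset.mem_filter.mpr ⟨Finset.mem_univ g, MulAction.mem_stabilizer_iff.mpr h⟩))
    rw [smul_sub, smul_one, map_sub, map_one, sub_eq_zero] at h2
    exact h2
  rw [h1, Finset.prod_subtype (p := fun g : G => g ∈ MulAction.stabilizer G Q) _
    (fun g => by simp) (fun g => Ideal.Quotient.mk Q (g • y))]
  rfl

/-- **Trace**: there is `t` whose trace is not in `Q`. -/
theorem exists_sum_smul_notMem (P : Ideal A) [P.IsMaximal] (Q : Ideal B) [Q.IsMaximal]
    [Q.LiesOver P] [Finite (B ⧸ Q)] (hI : Q.inertia G = ⊥) : ∃ t : B, ∑ g : G, g • t ∉ Q := by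
  classical
  letI := Ideal.Quotient.field Q
  letI := Ideal.Quotient.field P
  obtain ⟨z, hz⟩ := Algebra.trace_surjective (A ⧸ P) (B ⧸ Q) 1
  obtain ⟨z₀, rfl⟩ := Ideal.Quotient.mk_surjective z
  obtain ⟨j, hj1, hj⟩ := exists_crt_elt (G := G) Q
  refine ⟨z₀ * j, fun hmem => ?_⟩
  have h1 := mk_sum_smul P Q hI (z₀ * j) (fun g hg => Ideal.mul_mem_left _ _ (hj g hg))
  have h2 : Ideal.Quotient.mk Q (z₀ * j) = Ideal.Quotient.mk Q z₀ := by
    rw [Ideal.Quotient.eq]
    have : z₀ * j - z₀ = z₀ * (j - 1) := by ring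
    rw [this]
    exact Ideal.mul_mem_left _ _ hj1
  rw [h2, ← trace_eq_sum_automorphisms, hz, map_one, Ideal.Quotient.eq_zero_iff_mem.mpr hmem] at h1
  exact zero_ne_one h1

/-- **Norm**: every `a ∈ A` is, modulo `Q`, the norm of some `y`. -/
theorem exists_prod_smul_sub_mem (P : Ideal A) [P.IsMaximal] (Q : Ideal B) [Q.IsMaximal]
    [Q.LiesOver P] [Finite (B ⧸ Q)] (hI : Q.inertia G = ⊥) (a : A) :
    ∃ y : B, (∏ g : G, g • y) - algebraMap A B a ∈ Q := by
  classical
  letI := Ideal.Quotient.field Q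
  letI := Ideal.Quotient.field P
  obtain ⟨z, hz⟩ := FiniteField.norm_surjective (A ⧸ P) (B ⧸ Q) (Ideal.Quotient.mk P a)
  obtain ⟨z₀, rfl⟩ := Ideal.Quotient.mk_surjective z
  obtain ⟨j, hj1, hj⟩ := exists_crt_elt (G := G) Q
  refine ⟨z₀ * j + (1 - j), ?_⟩
  have h1 := mk_prod_smul P Q hI (z₀ * j + (1 - j)) (fun g hg => by
    have : z₀ * j + (1 - j) - 1 = (z₀ - 1) * j := by ring
    rw [this]
    exact Ideal.mul_mem_left _ _ (hj g hg))
  have h2 : Ideal.Quotient.mk Q (z₀ * j + (1 - j)) = Ideal.Quotient.mk Q z₀ := by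
    rw [Ideal.Quotient.eq]
    have : z₀ * j + (1 - j) - z₀ = (z₀ - 1) * (j - 1) := by ring
    rw [this]
    exact Ideal.mul_mem_left _ _ hj1
  rw [h2, ← Algebra.norm_eq_prod_automorphisms, hz,
    Ideal.Quotient.algebraMap_mk_of_liesOver] at h1
  exact Ideal.Quotient.eq.mp h1

end residue

section glue

variable {A B : Type*} [CommRing A] [CommRing B] [Algebra A B]
  {G : Type*} [Group G] [Fintype G] [MulSemiringAction G B] [SMulCommClass G A B]

/-- Extended ideals are stable. -/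
theorem smul_mem_map (𝔭 : Ideal A) (g : G) (x : B) (hx : x ∈ 𝔭.map (algebraMap A B)) :
    g • x ∈ 𝔭.map (algebraMap A B) := by
  have h : 𝔭.map (algebraMap A B) ≤
      (𝔭.map (algebraMap A B)).comap (MulSemiringAction.toRingHom G B g) := by
    rw [Ideal.map_le_iff_le_comap]
    intro a ha
    rw [Ideal.mem_comap, Ideal.mem_comap, MulSemiringAction.toRingHom_apply,
      smul_algebraMap]
    exact Ideal.mem_map_of_mem _ ha
  exact h hx

theorem smul_sum_smul (t : B) (g : G) : g • ∑ h : G, h • t = ∑ h : G, h • t := by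
  rw [Finset.smul_sum]
  simp only [smul_smul]
  exact (Group.mulLeft_bijective g).sum_comp (fun h => h • t)

variable [Algebra.IsInvariant A B G]

variable (A G) in
/-- The norm comes from `A`. -/
theorem exists_algebraMap_eq_prod_smul (y : B) : ∃ n : A, algebraMap A B n = ∏ g : G, g • y :=
  Algebra.IsInvariant.isInvariant (A := A) (G := G) _ (Finset.smul_prod_perm y)

variable (A G) in
/-- The trace comes from `A`. -/
theorem exists_algebraMap_eq_sum_smul (t : B) : ∃ τ : A, algebraMap A B τ = ∑ g : G, g • t :=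
  Algebra.IsInvariant.isInvariant (A := A) (G := G) _ (smul_sum_smul t)

/-- **Norm, glued**: if every `𝔭 ∈ s` has a norm congruent to `a`, there is a norm congruent to
`a` modulo all `𝔭 ∈ s`. -/
theorem exists_norm_glue (s : Finset (Ideal A)) (hs : ∀ 𝔭 ∈ s, 𝔭.IsMaximal)
    (hmap : ∀ 𝔭 ∈ s, ∀ x : A, algebraMap A B x ∈ 𝔭.map (algebraMap A B) → x ∈ 𝔭) (a : A)
    (h1 : ∀ 𝔭 ∈ s, ∃ y : B, ∃ n : A, algebraMap A B n = ∏ g : G, g • y ∧ n - a ∈ 𝔭) :
    ∃ y : B, ∃ n : A, algebraMap A B n = ∏ g : G, g • y ∧ ∀ 𝔭 ∈ s, n - a ∈ 𝔭 := by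
  classical
  induction s using Finset.induction_on with
  | empty =>
    refine ⟨1, 1, ?_, fun 𝔭 h => absurd h (Finset.notMem_empty _)⟩
    simp
  | insert 𝔭' s hns ih =>
    obtain ⟨ys, ns, hys, hns'⟩ := ih (fun 𝔭 h => hs 𝔭 (Finset.mem_insert_of_mem h))
      (fun 𝔭 h => hmap 𝔭 (Finset.mem_insert_of_mem h))
      (fun 𝔭 h => h1 𝔭 (Finset.mem_insert_of_mem h))
    obtain ⟨y', n', hy', hn'⟩ := h1 𝔭' (Finset.mem_insert_self _ _)
    have : 𝔭'.IsMaximal := hs 𝔭' (Finset.mem_insert_self _ _)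
    obtain ⟨c, hc1, hc⟩ := exists_crt_elt_finset s
      (fun 𝔭 h => hs 𝔭 (Finset.mem_insert_of_mem h)) 𝔭' hns
    set y : B := algebraMap A B c * y' + (1 - algebraMap A B c) * ys with hy
    obtain ⟨n, hn⟩ := exists_algebraMap_eq_prod_smul A G y
    refine ⟨y, n, hn, fun 𝔭 h𝔭 => ?_⟩
    rcases Finset.mem_insert.mp h𝔭 with rfl | h𝔭s
    · have e1 : y - y' ∈ Ideal.map (algebraMap A B) 𝔭 := by
        have : y - y' = algebraMap A B (c - 1) * (y' - ys) := by rw [hy, map_sub, map_one]; ring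
        rw [this]
        exact Ideal.mul_mem_right _ _ (Ideal.mem_map_of_mem _ hc1)
      have e2 := prod_smul_sub_mem (G := G) _ (smul_mem_map 𝔭) e1
      rw [← hn, ← hy', ← map_sub] at e2
      have e3 := hmap 𝔭 (Finset.mem_insert_self _ _) _ e2
      have : n - a = (n - n') + (n' - a) := by ring
      rw [this]
      exact Ideal.add_mem _ e3 hn'
    · have e1 : y - ys ∈ Ideal.map (algebraMap A B) 𝔭 := by
        have : y - ys = algebraMap A B c * (y' - ys) := by rw [hy]; ring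
        rw [this]
        exact Ideal.mul_mem_right _ _ (Ideal.mem_map_of_mem _ (hc 𝔭 h𝔭s))
      have e2 := prod_smul_sub_mem (G := G) _ (smul_mem_map 𝔭) e1
      rw [← hn, ← hys, ← map_sub] at e2
      have e3 := hmap 𝔭 (Finset.mem_insert_of_mem h𝔭s) _ e2
      have : n - a = (n - ns) + (ns - a) := by ring
      rw [this]
      exact Ideal.add_mem _ e3 (hns' 𝔭 h𝔭s)

/-- **Trace, glued**: if for every maximal ideal `M ⊇ I` there is a trace outside `M`, there is
a trace congruent to `1` modulo `I`. -/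
theorem exists_trace_glue (I : Ideal A)
    (h1 : ∀ M : Ideal A, M.IsMaximal → I ≤ M →
      ∃ t : B, ∃ τ : A, algebraMap A B τ = ∑ g : G, g • t ∧ τ ∉ M) :
    ∃ t : B, ∃ τ : A, algebraMap A B τ = ∑ g : G, g • t ∧ τ - 1 ∈ I := by
  let T : Ideal A :=
    { carrier := {τ | ∃ t : B, algebraMap A B τ = ∑ g : G, g • t}
      add_mem' := by
        rintro τ τ' ⟨t, ht⟩ ⟨t', ht'⟩
        exact ⟨t + t', by rw [map_add, ht, ht', ← Finset.sum_add_distrib]; simp [smul_add]⟩
      zero_mem' := ⟨0, by simp⟩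
      smul_mem' := by
        rintro c τ ⟨t, ht⟩
        refine ⟨c • t, ?_⟩
        rw [smul_eq_mul, map_mul, ht, Finset.mul_sum]
        refine Finset.sum_congr rfl (fun g _ => ?_)
        rw [smul_comm, Algebra.smul_def] }
  have hT : T ⊔ I = ⊤ := by
    by_contra hne
    obtain ⟨M, hM, hle⟩ := Ideal.exists_le_maximal _ hne
    obtain ⟨t, τ, hτ, hτM⟩ := h1 M hM (le_sup_right.trans hle)
    exact hτM (hle (Ideal.mem_sup_left ⟨t, hτ⟩))
  have h3 : (1 : A) ∈ T ⊔ I := by rw [hT]; trivial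
  obtain ⟨τ, ⟨t, ht⟩, i, hi, hτi⟩ := Submodule.mem_sup.mp h3
  refine ⟨t, τ, ht, ?_⟩
  have : τ - 1 = -i := by rw [← hτi]; ring
  rw [this]
  exact I.neg_mem hi

end glue

end Fermat.Agent.S55.CFT.H96

end
-- ==== END Fermat.Agent.S55.CFT.H96_UnnResidue

-- ==== BEGIN Fermat.Agent.S55.CFT.LOC.H25_LTO_Carry
section

set_option autoImplicit false
set_option linter.unusedSectionVars false

namespace Fermat.Agent.S55.CFT.LOC.H25

open groupCohomology

section carry

variable {Γ A : Type} [Group Γ] [AddCommGroup A] [DistribMulAction Γ A]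

/-- `ℓ : Γ → ℤ` is additive modulo `n`. -/
def IsAddMod (n : ℤ) (ℓ : Γ → ℤ) : Prop := ∀ g h : Γ, n ∣ ℓ g + ℓ h - ℓ (g * h)

/-- The carry cocycle. -/
def carryC (n : ℤ) (ℓ : Γ → ℤ) (a : A) : Γ × Γ → A :=
  fun gh => ((ℓ gh.1 + ℓ gh.2 - ℓ (gh.1 * gh.2)) / n) • a

theorem IsAddMod.add {n : ℤ} {ℓ ℓ' : Γ → ℤ} (h : IsAddMod n ℓ) (h' : IsAddMod n ℓ') :
    IsAddMod n (ℓ + ℓ') := by
  intro g k
  have e : (ℓ + ℓ') g + (ℓ + ℓ') k - (ℓ + ℓ') (g * k) =
      (ℓ g + ℓ k - ℓ (g * k)) + (ℓ' g + ℓ' k - ℓ' (g * k)) := by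
    simp only [Pi.add_apply]
    ring
  rw [e]
  exact dvd_add (h g k) (h' g k)

theorem IsAddMod.zsmul {n : ℤ} {ℓ : Γ → ℤ} (h : IsAddMod n ℓ) (k : ℤ) :
    IsAddMod n (k • ℓ) := by
  intro g j
  have e : (k • ℓ) g + (k • ℓ) j - (k • ℓ) (g * j) = k * (ℓ g + ℓ j - ℓ (g * j)) := by
    simp only [Pi.smul_apply, smul_eq_mul]
    ring
  rw [e]
  exact Dvd.dvd.mul_left (h g j) k

theorem carryC_add {n : ℤ} {ℓ ℓ' : Γ → ℤ} (h : IsAddMod n ℓ) (_h' : IsAddMod n ℓ') (a : A) :
    carryC n (ℓ + ℓ') a = carryC n ℓ a + carryC n ℓ' a := by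
  funext gh
  simp only [carryC, Pi.add_apply]
  rw [← add_smul, ← Int.add_ediv_of_dvd_left (h gh.1 gh.2)]
  congr 2
  ring

theorem carryC_zsmul {n : ℤ} {ℓ : Γ → ℤ} (h : IsAddMod n ℓ) (k : ℤ) (a : A) :
    carryC n (k • ℓ) a = k • carryC n ℓ a := by
  funext gh
  simp only [carryC, Pi.smul_apply, smul_eq_mul]
  rw [smul_smul, ← Int.mul_ediv_assoc k (h gh.1 gh.2)]
  congr 2
  ring

/-- Coboundaries form a subgroup. -/
theorem isCoboundary₂_zero : IsCoboundary₂ (0 : Γ × Γ → A) :=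
  ⟨0, fun g h => by simp⟩

theorem isCoboundary₂_add {f f' : Γ × Γ → A} (h : IsCoboundary₂ f) (h' : IsCoboundary₂ f') :
    IsCoboundary₂ (f + f') := by
  obtain ⟨x, hx⟩ := h
  obtain ⟨x', hx'⟩ := h'
  refine ⟨x + x', fun g k => ?_⟩
  simp only [Pi.add_apply, smul_add]
  rw [← hx g k, ← hx' g k]
  abel

theorem isCoboundary₂_neg {f : Γ × Γ → A} (h : IsCoboundary₂ f) : IsCoboundary₂ (-f) := by
  obtain ⟨x, hx⟩ := h
  refine ⟨-x, fun g k => ?_⟩
  simp only [Pi.neg_apply, smul_neg]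
  rw [← hx g k]
  abel

theorem isCoboundary₂_sub {f f' : Γ × Γ → A} (h : IsCoboundary₂ f) (h' : IsCoboundary₂ f') :
    IsCoboundary₂ (f - f') := by
  rw [sub_eq_add_neg]
  exact isCoboundary₂_add h (isCoboundary₂_neg h')

theorem isCoboundary₂_nsmul {f : Γ × Γ → A} (h : IsCoboundary₂ f) (k : ℕ) :
    IsCoboundary₂ (k • f) := by
  induction k with
  | zero => rw [zero_smul]; exact isCoboundary₂_zero
  | succ k ih => rw [succ_nsmul]; exact isCoboundary₂_add ih h

theorem isCoboundary₂_zsmul {f : Γ × Γ → A} (h : IsCoboundary₂ f) (k : ℤ) :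
    IsCoboundary₂ (k • f) := by
  cases k with
  | ofNat k =>
    rw [Int.ofNat_eq_natCast, natCast_zsmul]
    exact isCoboundary₂_nsmul h k
  | negSucc k =>
    rw [negSucc_zsmul]
    exact isCoboundary₂_neg (isCoboundary₂_nsmul h (k + 1))

/-- The class of the carry cocycle only depends on `ℓ` modulo `n`. -/
theorem isCoboundary₂_carryC_sub {n : ℤ} {ℓ ℓ' : Γ → ℤ} (h : IsAddMod n ℓ)
    (h' : IsAddMod n ℓ') (hc : ∀ g, n ∣ ℓ g - ℓ' g) (a : A) (ha : ∀ g : Γ, g • a = a) :
    IsCoboundary₂ (carryC n ℓ a - carryC n ℓ' a) := by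
  refine ⟨fun g => ((ℓ g - ℓ' g) / n) • a, fun g k => ?_⟩
  simp only [carryC, Pi.sub_apply]
  rw [smul_comm g, ha g, ← sub_smul, ← sub_smul, ← add_smul]
  congr 1
  obtain ⟨u, hu⟩ := h g k
  obtain ⟨u', hu'⟩ := h' g k
  obtain ⟨v1, hv1⟩ := hc g
  obtain ⟨v2, hv2⟩ := hc k
  obtain ⟨v3, hv3⟩ := hc (g * k)
  rcases eq_or_ne n 0 with hn | hn
  · subst hn
    simp
  rw [hu, hu', hv1, hv2, hv3, Int.mul_ediv_cancel_left _ hn, Int.mul_ediv_cancel_left _ hn,
    Int.mul_ediv_cancel_left _ hn, Int.mul_ediv_cancel_left _ hn,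
    Int.mul_ediv_cancel_left _ hn]
  have : n * (v2 - v3 + v1) = n * (u - u') := by
    rw [mul_sub, ← hu, ← hu', mul_add, mul_sub, ← hv1, ← hv2, ← hv3]
    ring
  exact mul_left_cancel₀ hn this

/-- If `ℓ₃ ≡ i ℓ₁ + j ℓ₂` modulo `n`, then the carry cocycle of `ℓ₃` is cohomologous to
`i c₁ + j c₂`. -/
theorem isCoboundary₂_carryC_comb {n : ℤ} {ℓ₁ ℓ₂ ℓ₃ : Γ → ℤ} (h₁ : IsAddMod n ℓ₁)
    (h₂ : IsAddMod n ℓ₂) (h₃ : IsAddMod n ℓ₃) (i j : ℤ)
    (hc : ∀ g, n ∣ ℓ₃ g - (i * ℓ₁ g + j * ℓ₂ g)) (a : A) (ha : ∀ g : Γ, g • a = a) :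
    IsCoboundary₂ (carryC n ℓ₃ a - (i • carryC n ℓ₁ a + j • carryC n ℓ₂ a)) := by
  have h := isCoboundary₂_carryC_sub h₃ ((h₁.zsmul i).add (h₂.zsmul j))
    (fun g => by simpa using hc g) a ha
  rwa [carryC_add (h₁.zsmul i) (h₂.zsmul j), carryC_zsmul h₁, carryC_zsmul h₂] at h

/-- If `ℓ ≡ 0` modulo `n`, the carry cocycle is a coboundary. -/
theorem isCoboundary₂_carryC_of_dvd {n : ℤ} {ℓ : Γ → ℤ} (h : IsAddMod n ℓ)
    (hc : ∀ g, n ∣ ℓ g) (a : A) (ha : ∀ g : Γ, g • a = a) :
    IsCoboundary₂ (carryC n ℓ a) := by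
  have h0 : IsAddMod n (0 : Γ → ℤ) := fun g k => by simp
  have h1 := isCoboundary₂_carryC_sub h h0 (fun g => by simpa using hc g) a ha
  have h2 : carryC n (0 : Γ → ℤ) a = 0 := by
    funext gh
    simp [carryC]
  rwa [h2, sub_zero] at h1

end carry

end Fermat.Agent.S55.CFT.LOC.H25

end
-- ==== END Fermat.Agent.S55.CFT.LOC.H25_LTO_Carry

-- ==== BEGIN Fermat.Agent.S55.CFT.LOC.H58_H2LeField
section

/-!
# CFT LOC-4b (helper58), part 1: field theory

For a finite Galois extension `E/F` with group `G`, a normal subgroup `N` and `M = E^N`: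
* `exists_invFun_of_norm` : the norm `N_{M/F} m` of a unit of `M` is the product over `G ⧸ N` of
  the `G`-invariant function `g N ↦ g m`;
* `exists_unit_of_fixed` : the `G`-invariant units of `E` come from `F`.
-/

set_option autoImplicit false
set_option linter.unusedSectionVars false

noncomputable section

namespace Fermat.Agent.S55.CFT.LOC.H58

open IntermediateField

variable {F E : Type} [Field F] [Field E] [Algebra F E] [FiniteDimensional F E] [IsGalois F E]

lemma smul_quot_eq_mul (N : Subgroup (E ≃ₐ[F] E)) [N.Normal] (g : E ≃ₐ[F] E)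
    (x : (E ≃ₐ[F] E) ⧸ N) : g • x = (g : (E ≃ₐ[F] E) ⧸ N) * x := by
  induction x using QuotientGroup.induction_on with
  | H a => rfl

/-- The norm from `M = E^N` to `F` as a product of a `G`-invariant function on `G ⧸ N`. -/
lemma exists_invFun_of_norm (N : Subgroup (E ≃ₐ[F] E)) [N.Normal]
    [Fintype ((E ≃ₐ[F] E) ⧸ N)] (m : (fixedField N)ˣ) :
    ∃ f : (E ≃ₐ[F] E) ⧸ N → Eˣ,
      (∀ (g : E ≃ₐ[F] E) (x : (E ≃ₐ[F] E) ⧸ N), Units.map (g : E →* E) (f (g⁻¹ • x)) = f x) ∧
      ∏ x, f x = Units.map (algebraMap F E : F →* E)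
        (Units.map (Algebra.norm F : (fixedField N) →* F) m) := by
  classical
  let e := IsGalois.normalAutEquivQuotient N
  refine ⟨fun x => Units.map (algebraMap (fixedField N) E : (fixedField N) →* E)
    (Units.map ((e x : (fixedField N) ≃ₐ[F] (fixedField N)) : (fixedField N) →* (fixedField N)) m),
    ?_, ?_⟩
  · intro g x
    apply Units.ext
    simp only [Units.coe_map, MonoidHom.coe_coe]
    rw [smul_quot_eq_mul, map_mul]
    have h1 : e ((g⁻¹ : E ≃ₐ[F] E) : (E ≃ₐ[F] E) ⧸ N) =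
        (AlgEquiv.restrictNormalHom (fixedField N) g)⁻¹ := by
      rw [IsGalois.normalAutEquivQuotient_apply, map_inv]
    rw [h1, AlgEquiv.mul_apply]
    have h2 := AlgEquiv.restrictNormal_commutes g (fixedField N)
      ((AlgEquiv.restrictNormalHom (fixedField N) g)⁻¹ ((e x) (m : fixedField N)))
    rw [← h2]
    congr 1
    show (AlgEquiv.restrictNormalHom (fixedField N) g)
      ((AlgEquiv.restrictNormalHom (fixedField N) g)⁻¹ ((e x) (m : fixedField N))) = _
    rw [← AlgEquiv.mul_apply, mul_inv_cancel, AlgEquiv.one_apply]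
  · apply Units.ext
    rw [Units.coe_prod]
    simp only [Units.coe_map, MonoidHom.coe_coe]
    rw [IsScalarTower.algebraMap_apply F (fixedField N) E, Algebra.norm_eq_prod_automorphisms,
      map_prod]
    exact Fintype.prod_equiv e.toEquiv _ _ (fun x => rfl)

/-- The `Gal(E/F)`-invariant units of `E` come from `F`. -/
lemma exists_unit_of_fixed (u : Eˣ) (hu : ∀ g : E ≃ₐ[F] E, Units.map (g : E →* E) u = u) :
    ∃ v : Fˣ, Units.map (algebraMap F E : F →* E) v = u := by
  have h : (u : E) ∈ Set.range (algebraMap F E) := by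
    rw [IsGalois.mem_range_algebraMap_iff_fixed]
    intro g
    have := congrArg Units.val (hu g)
    simpa using this
  obtain ⟨x, hx⟩ := h
  have hx0 : x ≠ 0 := by
    rintro rfl
    rw [map_zero] at hx
    exact u.ne_zero hx.symm
  exact ⟨Units.mk0 x hx0, Units.ext hx⟩

end Fermat.Agent.S55.CFT.LOC.H58

end
end
-- ==== END Fermat.Agent.S55.CFT.LOC.H58_H2LeField

-- ==== BEGIN Fermat.Agent.S55.CFT.LOC.H68_CycCocycle
section

set_option autoImplicit false
set_option linter.unusedSectionVars false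

namespace Fermat.Agent.S55.CFT.LOC.H68

open groupCohomology

section cyclic

variable {C M : Type} [Group C] [Finite C] [AddCommGroup M] [DistribMulAction C M]

theorem exists_lt_pow_eq (φ : C) (hφ : ∀ σ : C, σ ∈ Subgroup.zpowers φ) (σ : C) :
    ∃ i, i < orderOf φ ∧ φ ^ i = σ := by
  classical
  have h1 : σ ∈ Submonoid.powers φ := mem_powers_iff_mem_zpowers.mpr (hφ σ)
  rw [mem_powers_iff_mem_range_orderOf] at h1
  obtain ⟨i, hi, hiσ⟩ := Finset.mem_image.mp h1
  exact ⟨i, Finset.mem_range.mp hi, hiσ⟩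

/-- the lift `ℓ : C → {0, …, n-1}` of a finite cyclic group with generator `φ` -/
noncomputable def cycLift (φ : C) (hφ : ∀ σ : C, σ ∈ Subgroup.zpowers φ) (σ : C) : ℕ :=
  (exists_lt_pow_eq φ hφ σ).choose

variable (φ : C) (hφ : ∀ σ : C, σ ∈ Subgroup.zpowers φ)

theorem cycLift_lt (σ : C) : cycLift φ hφ σ < orderOf φ :=
  (exists_lt_pow_eq φ hφ σ).choose_spec.1

theorem pow_cycLift (σ : C) : φ ^ cycLift φ hφ σ = σ :=
  (exists_lt_pow_eq φ hφ σ).choose_spec.2

theorem cycLift_eq_of {σ : C} {i : ℕ} (hi : i < orderOf φ) (h : φ ^ i = σ) :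
    cycLift φ hφ σ = i :=
  pow_injOn_Iio_orderOf (x := φ) (cycLift_lt φ hφ σ) hi ((pow_cycLift φ hφ σ).trans h.symm)

theorem cycLift_pow {i : ℕ} (hi : i < orderOf φ) : cycLift φ hφ (φ ^ i) = i :=
  cycLift_eq_of φ hφ hi rfl

theorem orderOf_pos_gen : 0 < orderOf φ := orderOf_pos φ

theorem cycLift_mul (σ τ : C) :
    cycLift φ hφ (σ * τ) = (cycLift φ hφ σ + cycLift φ hφ τ) % orderOf φ := by
  apply cycLift_eq_of φ hφ (Nat.mod_lt _ (orderOf_pos φ))
  rw [pow_mod_orderOf, pow_add, pow_cycLift, pow_cycLift]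

theorem cycLift_one : cycLift φ hφ 1 = 0 :=
  cycLift_eq_of φ hφ (orderOf_pos φ) (pow_zero φ)

/-- the carry -/
noncomputable def cycCarry (σ τ : C) : ℕ := (cycLift φ hφ σ + cycLift φ hφ τ) / orderOf φ

/-- the cyclic 2-cocycle attached to an invariant element `a` -/
noncomputable def cycCocycle (a : M) : C × C → M := fun p => cycCarry φ hφ p.1 p.2 • a

theorem cycCarry_cocycle (σ τ ρ : C) :
    cycCarry φ hφ (σ * τ) ρ + cycCarry φ hφ σ τ =
      cycCarry φ hφ τ ρ + cycCarry φ hφ σ (τ * ρ) := by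
  unfold cycCarry
  rw [cycLift_mul, cycLift_mul]
  set n := orderOf φ with hn
  have hnpos : 0 < n := orderOf_pos φ
  set x := cycLift φ hφ σ
  set y := cycLift φ hφ τ
  set z := cycLift φ hφ ρ
  have h1 : ((x + y) % n + z) / n + (x + y) / n = (x + y + z) / n := by
    conv_rhs => rw [← Nat.div_add_mod (x + y) n]
    rw [add_assoc, Nat.mul_add_div hnpos]
    ring
  have h2 : (y + z) / n + (x + (y + z) % n) / n = (x + y + z) / n := by
    have e : x + y + z = n * ((y + z) / n) + (x + (y + z) % n) := by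
      have := Nat.div_add_mod (y + z) n
      omega
    rw [e, Nat.mul_add_div hnpos]
  rw [h1, h2]

theorem isCocycle₂_cycCocycle (a : M) (ha : ∀ σ : C, σ • a = a) :
    IsCocycle₂ (cycCocycle φ hφ a) := by
  intro σ τ ρ
  simp only [cycCocycle]
  rw [smul_comm σ, ha σ, ← add_smul, ← add_smul, cycCarry_cocycle]

/-- partial sums of the orbit -/
noncomputable def cycPart (y : M) (m : ℕ) : M := ∑ j ∈ Finset.range m, φ ^ j • y

theorem cycPart_add (y : M) (m k : ℕ) :
    cycPart φ y (m + k) = cycPart φ y m + φ ^ m • cycPart φ y k := by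
  unfold cycPart
  rw [Finset.sum_range_add, Finset.smul_sum]
  congr 1
  refine Finset.sum_congr rfl (fun j _ => ?_)
  rw [← mul_smul, pow_add]

include hφ in
theorem smul_cycPart_orderOf (y : M) (σ : C) :
    σ • cycPart φ y (orderOf φ) = cycPart φ y (orderOf φ) := by
  -- it suffices to treat σ = φ
  have hφfix : φ • cycPart φ y (orderOf φ) = cycPart φ y (orderOf φ) := by
    have h1 := cycPart_add φ y 1 (orderOf φ)
    have h2 := cycPart_add φ y (orderOf φ) 1
    rw [add_comm 1 (orderOf φ)] at h1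
    rw [h1] at h2
    simp only [cycPart, Finset.sum_range_one, pow_zero, one_smul, pow_one, pow_orderOf_eq_one]
      at h2
    simp only [cycPart]
    linear_combination (norm := abel) h2
  obtain ⟨i, -, rfl⟩ := exists_lt_pow_eq φ hφ σ
  induction i with
  | zero => simp
  | succ i ih => rw [pow_succ, mul_smul, hφfix, ih]

theorem cycPart_eq (y : M) (m : ℕ) :
    cycPart φ y m = cycPart φ y (m % orderOf φ) + (m / orderOf φ) • cycPart φ y (orderOf φ) := by
  set n := orderOf φ with hn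
  induction' h : m / n with k ih generalizing m
  · have hlt : m < n := by
      rcases Nat.div_eq_zero_iff.mp h with h0 | h0
      · exact absurd h0 (orderOf_pos φ).ne'
      · exact h0
    rw [Nat.mod_eq_of_lt hlt, zero_smul, add_zero]
  · have hge : n ≤ m := by
      by_contra hlt
      rw [Nat.div_eq_of_lt (not_le.mp hlt)] at h
      exact absurd h (by omega)
    have hm : m = n + (m - n) := by omega
    have hdiv : (m - n) / n = k := by
      have h3 : (n + (m - n)) / n = (m - n) / n + 1 := Nat.add_div_left (m - n) (orderOf_pos φ)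
      rw [← hm, h] at h3
      omega
    have hmod : (m - n) % n = m % n := by
      conv_rhs => rw [hm, Nat.add_mod_left]
    have ih' := ih (m - n) hdiv
    rw [hm, cycPart_add, pow_orderOf_eq_one, one_smul, ih', ← hm, hmod, succ_nsmul]
    abel

/-- if `a` is a norm, the cyclic cocycle is a coboundary -/
theorem isCoboundary₂_cycCocycle_of_norm (y : M) :
    IsCoboundary₂ (cycCocycle φ hφ (cycPart φ y (orderOf φ))) := by
  refine ⟨fun σ => cycPart φ y (cycLift φ hφ σ), fun σ τ => ?_⟩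
  simp only [cycCocycle, cycCarry]
  have h1 := cycPart_add φ y (cycLift φ hφ σ) (cycLift φ hφ τ)
  rw [pow_cycLift] at h1
  have h2 := cycPart_eq φ y (cycLift φ hφ σ + cycLift φ hφ τ)
  rw [← cycLift_mul] at h2
  rw [h1] at h2
  linear_combination (norm := abel) h2

end cyclic


section cyclic2

variable {C M : Type} [Group C] [Fintype C] [AddCommGroup M] [DistribMulAction C M]
  (φ : C) (hφ : ∀ σ : C, σ ∈ Subgroup.zpowers φ)

include hφ in
theorem sum_univ_eq_sum_range_gen {X : Type} [AddCommMonoid X] (f : C → X) :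
    ∑ σ : C, f σ = ∑ j ∈ Finset.range (orderOf φ), f (φ ^ j) := by
  symm
  refine Finset.sum_bij (fun j _ => φ ^ j) (fun _ _ => Finset.mem_univ _) ?_ ?_ (fun _ _ => rfl)
  · intro i hi j hj h
    exact pow_injOn_Iio_orderOf (x := φ) (Finset.mem_range.mp hi) (Finset.mem_range.mp hj) h
  · intro τ _
    obtain ⟨i, hi, hiτ⟩ := exists_lt_pow_eq φ hφ τ
    exact ⟨i, Finset.mem_range.mpr hi, hiτ⟩

include hφ in
theorem cycPart_orderOf_eq_sum (y : M) : cycPart φ y (orderOf φ) = ∑ σ : C, σ • y := by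
  rw [sum_univ_eq_sum_range_gen φ hφ (fun σ => σ • y)]
  rfl

/-- if the cyclic cocycle of an invariant `a` is a coboundary then `a` is a norm -/
theorem exists_norm_of_isCoboundary₂ (a : M)
    (h : IsCoboundary₂ (cycCocycle φ hφ a)) : ∃ y : M, ∑ σ : C, σ • y = a := by
  classical
  obtain ⟨b, hb⟩ := h
  set n := orderOf φ with hn
  have hnpos : 0 < n := orderOf_pos φ
  rcases Nat.lt_or_ge 1 n with h1 | h1
  · -- n ≥ 2
    refine ⟨b φ, ?_⟩
    rw [sum_univ_eq_sum_range_gen φ hφ (fun σ => σ • b φ)]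
    have hlφ : cycLift φ hφ φ = 1 := cycLift_eq_of φ hφ h1 (pow_one φ)
    have key : ∀ i, i < n → φ ^ i • b φ - b (φ ^ (i + 1)) + b (φ ^ i) =
        (if i + 1 = n then a else 0) := by
      intro i hi
      have := hb (φ ^ i) φ
      rw [← pow_succ] at this
      rw [this]
      simp only [cycCocycle, cycCarry, cycLift_pow φ hφ hi, hlφ]
      split_ifs with hin
      · rw [hin, Nat.div_self hnpos, one_smul]
      · have : (i + 1) / n = 0 := Nat.div_eq_of_lt (by omega)
        rw [this, zero_smul]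
    obtain ⟨m, hm⟩ : ∃ m, n = m + 1 := ⟨n - 1, by omega⟩
    have hsum : ∑ i ∈ Finset.range n, (φ ^ i • b φ - b (φ ^ (i + 1)) + b (φ ^ i)) = a := by
      rw [Finset.sum_congr rfl (fun i hi => key i (Finset.mem_range.mp hi))]
      rw [hm, Finset.sum_range_succ, if_pos rfl]
      have : ∑ x ∈ Finset.range m, (if x + 1 = m + 1 then a else 0) = 0 := by
        apply Finset.sum_eq_zero
        intro i hi
        have := Finset.mem_range.mp hi
        rw [if_neg (by omega)]
      rw [this, zero_add]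
    have htel : ∑ i ∈ Finset.range n, b (φ ^ (i + 1)) = ∑ i ∈ Finset.range n, b (φ ^ i) := by
      rw [hm, Finset.sum_range_succ, Finset.sum_range_succ' (fun i => b (φ ^ i)), ← hm, hn,
        pow_orderOf_eq_one, pow_zero]
    rw [Finset.sum_add_distrib, Finset.sum_sub_distrib, htel] at hsum
    linear_combination (norm := abel) hsum
  · -- n = 1
    have hn1 : n = 1 := by omega
    refine ⟨a, ?_⟩
    rw [sum_univ_eq_sum_range_gen φ hφ (fun σ => σ • a), ← hn, hn1]
    simp

end cyclic2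


section cyclic3

variable {C M : Type} [Group C] [Finite C] [AddCommGroup M] [DistribMulAction C M]
  (φ : C) (hφ : ∀ σ : C, σ ∈ Subgroup.zpowers φ)

theorem cycCocycle_add (a b : M) :
    cycCocycle φ hφ (a + b) = cycCocycle φ hφ a + cycCocycle φ hφ b := by
  funext p
  simp [cycCocycle, smul_add]

theorem cycCocycle_zsmul (k : ℤ) (a : M) :
    cycCocycle φ hφ (k • a) = k • cycCocycle φ hφ a := by
  funext p
  simp only [cycCocycle, Pi.smul_apply]
  rw [smul_comm]

/-- compatibility of the cyclic cocycles with a homomorphism `ρ : D → C` of cyclic groups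
sending the generator `ψ` to `φ ^ (n / m)` (`n, m` the orders of `φ, ψ`). -/
theorem cycCarry_comp {D : Type} [Group D] [Finite D] (ψ : D)
    (hψ : ∀ σ : D, σ ∈ Subgroup.zpowers ψ) (ρ : D →* C)
    (hdvd : orderOf ψ ∣ orderOf φ) (hρ : ρ ψ = φ ^ (orderOf φ / orderOf ψ)) (σ τ : D) :
    cycCarry φ hφ (ρ σ) (ρ τ) = cycCarry ψ hψ σ τ := by
  set n := orderOf φ with hn
  set m := orderOf ψ with hm
  have hmpos : 0 < m := orderOf_pos ψ
  have hnpos : 0 < n := orderOf_pos φ
  obtain ⟨t, ht⟩ := hdvd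
  have htpos : 0 < t := by
    rcases Nat.eq_zero_or_pos t with h0 | h0
    · rw [h0, mul_zero] at ht; omega
    · exact h0
  have hdiv : n / m = t := by rw [ht, Nat.mul_div_cancel_left _ hmpos]
  have hlift : ∀ σ : D, cycLift φ hφ (ρ σ) = t * cycLift ψ hψ σ := by
    intro σ
    apply cycLift_eq_of φ hφ
    · have := cycLift_lt ψ hψ σ
      rw [← hn, ht, mul_comm m t]
      exact Nat.mul_lt_mul_of_pos_left this htpos
    · rw [pow_mul, ← hdiv, ← hρ, ← map_pow, pow_cycLift]
  unfold cycCarry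
  rw [hlift, hlift, ← hn, ← hm, ← mul_add, ht, mul_comm m t, Nat.mul_div_mul_left _ _ htpos]

end cyclic3

end Fermat.Agent.S55.CFT.LOC.H68

end
-- ==== END Fermat.Agent.S55.CFT.LOC.H68_CycCocycle

-- ==== BEGIN Fermat.Agent.S55.CFT.LOC.H68_FL
section

set_option autoImplicit false
set_option linter.unusedSectionVars false
set_option linter.style.haveILetI false
set_option linter.unusedVariables false

namespace Fermat.Agent.S55.CFT.LOC.H68

section FL

variable {k Ω : Type} [Field k] [Field Ω] [Algebra k Ω] [IsGalois k Ω]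
variable (F : IntermediateField k Ω)

/-- restriction of `Γ = Gal(Ω/F)` to a normal intermediate field `L` of `Ω/F` -/
noncomputable def resΓ (L : IntermediateField ↥F Ω) [Normal ↥F ↥L] :
    ↥F.fixingSubgroup →* (↥L ≃ₐ[↥F] ↥L) :=
  (AlgEquiv.restrictNormalHom (F := ↥F) (K₁ := Ω) ↥L).comp
    (IntermediateField.fixingSubgroupEquiv F).toMonoidHom

theorem resΓ_apply (L : IntermediateField ↥F Ω) [Normal ↥F ↥L] (g : ↥F.fixingSubgroup)
    (x : ↥L) : ((resΓ F L g x : ↥L) : Ω) = (g : Ω ≃ₐ[k] Ω) (x : Ω) := by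
  have h := AlgEquiv.restrictNormal_commutes (IntermediateField.fixingSubgroupEquiv F g) ↥L x
  exact h

theorem resΓ_surjective (L : IntermediateField ↥F Ω) [Normal ↥F ↥L] :
    Function.Surjective (resΓ F L) := by
  intro σ
  obtain ⟨τ, hτ⟩ := AlgEquiv.restrictNormalHom_surjective (F := ↥F) (K₁ := ↥L) Ω σ
  refine ⟨(IntermediateField.fixingSubgroupEquiv F).symm τ, ?_⟩
  show (AlgEquiv.restrictNormalHom (F := ↥F) (K₁ := Ω) ↥L)
    ((IntermediateField.fixingSubgroupEquiv F) ((IntermediateField.fixingSubgroupEquiv F).symm τ))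
      = σ
  rw [MulEquiv.apply_symm_apply]
  exact hτ

theorem resΓ_eq_iff (L : IntermediateField ↥F Ω) [Normal ↥F ↥L] (g g' : ↥F.fixingSubgroup) :
    resΓ F L g = resΓ F L g' ↔ ∀ x ∈ L, (g : Ω ≃ₐ[k] Ω) x = (g' : Ω ≃ₐ[k] Ω) x := by
  constructor
  · intro h x hx
    have h1 := resΓ_apply F L g ⟨x, hx⟩
    have h2 := resΓ_apply F L g' ⟨x, hx⟩
    rw [h] at h1
    exact h1.symm.trans h2
  · intro h
    ext x
    rw [resΓ_apply, resΓ_apply]
    exact h x x.2

theorem resΓ_eq_one_iff (L : IntermediateField ↥F Ω) [Normal ↥F ↥L] (g : ↥F.fixingSubgroup) :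
    resΓ F L g = 1 ↔ ∀ x ∈ L, (g : Ω ≃ₐ[k] Ω) x = x := by
  rw [← map_one (resΓ F L), resΓ_eq_iff]
  rfl

/-- every finite extension `E/k` inside `Ω` lies in a finite Galois extension `L/F` -/
theorem exists_finLevel (E : IntermediateField k Ω) [FiniteDimensional k ↥E] :
    ∃ L : IntermediateField ↥F Ω, FiniteDimensional ↥F ↥L ∧ IsGalois ↥F ↥L ∧
      ∀ x ∈ E, x ∈ L := by
  classical
  haveI : Algebra.IsSeparable k ↥E := Algebra.isSeparable_tower_bot_of_isSeparable k ↥E Ω
  obtain ⟨α, hα⟩ := Field.exists_primitive_element k ↥E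
  have hint : IsIntegral ↥F (α : Ω) := Algebra.IsIntegral.isIntegral (R := ↥F) (α : Ω)
  let M : IntermediateField ↥F Ω := IntermediateField.adjoin ↥F {(α : Ω)}
  haveI : FiniteDimensional ↥F ↥M := IntermediateField.adjoin.finiteDimensional hint
  let L : IntermediateField ↥F Ω := IntermediateField.normalClosure ↥F ↥M Ω
  haveI : FiniteDimensional ↥F ↥L := normalClosure.is_finiteDimensional ↥F ↥M Ω
  haveI : Normal ↥F ↥L := normalClosure.normal ↥F ↥M Ω
  haveI : Algebra.IsSeparable ↥F ↥L := Algebra.isSeparable_tower_bot_of_isSeparable ↥F ↥L Ω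
  refine ⟨L, inferInstance, ⟨⟩, ?_⟩
  -- `E = k(α) ⊆ F(α) ⊆ L`
  have hML : M ≤ L := IntermediateField.le_normalClosure M
  have hαM : (α : Ω) ∈ M := IntermediateField.mem_adjoin_simple_self ↥F (α : Ω)
  have hEle : E ≤ (L.restrictScalars k) := by
    have h1 : E = IntermediateField.adjoin k {(α : Ω)} := by
      have h2 : IntermediateField.map E.val (IntermediateField.adjoin k {α}) =
          IntermediateField.adjoin k {(α : Ω)} := by
        rw [IntermediateField.adjoin_map]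
        simp
      rw [hα] at h2
      rw [← h2]
      ext x
      simp [IntermediateField.mem_map]
    rw [h1, IntermediateField.adjoin_le_iff]
    intro x hx
    rw [Set.mem_singleton_iff] at hx
    subst hx
    exact hML hαM
  intro x hx
  exact hEle hx

/-- functions constant modulo `E.fixingSubgroup` factor through a finite level `L ⊇ E` -/
theorem exists_factor₁ (L : IntermediateField ↥F Ω) [Normal ↥F ↥L] (E : IntermediateField k Ω)
    (hEL : ∀ x ∈ E, x ∈ L) {X : Type*} (f : ↥F.fixingSubgroup → X)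
    (hf : ∀ g s : ↥F.fixingSubgroup, (s : Ω ≃ₐ[k] Ω) ∈ E.fixingSubgroup → f (g * s) = f g) :
    ∃ f' : (↥L ≃ₐ[↥F] ↥L) → X, ∀ g : ↥F.fixingSubgroup, f g = f' (resΓ F L g) := by
  classical
  have hwd : ∀ g g' : ↥F.fixingSubgroup, resΓ F L g = resΓ F L g' → f g = f g' := by
    intro g g' h
    have hs : ((g⁻¹ * g' : ↥F.fixingSubgroup) : Ω ≃ₐ[k] Ω) ∈ E.fixingSubgroup := by
      rw [IntermediateField.mem_fixingSubgroup_iff]
      intro x hx
      have h1 := (resΓ_eq_iff F L g g').1 h x (hEL x hx)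
      rw [Subgroup.coe_mul, Subgroup.coe_inv, AlgEquiv.mul_apply, ← h1]
      exact AlgEquiv.symm_apply_apply (g : Ω ≃ₐ[k] Ω) x
    have := hf g (g⁻¹ * g') hs
    rw [mul_inv_cancel_left] at this
    exact this.symm
  refine ⟨fun σ => f (Function.surjInv (resΓ_surjective F L) σ), fun g => ?_⟩
  exact hwd _ _ (Function.surjInv_eq (resΓ_surjective F L) (resΓ F L g)).symm

theorem exists_factor₂ (L : IntermediateField ↥F Ω) [Normal ↥F ↥L] (E : IntermediateField k Ω)
    (hEL : ∀ x ∈ E, x ∈ L) {X : Type*} (f : ↥F.fixingSubgroup × ↥F.fixingSubgroup → X)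
    (hf : ∀ g g' s s' : ↥F.fixingSubgroup, (s : Ω ≃ₐ[k] Ω) ∈ E.fixingSubgroup →
      (s' : Ω ≃ₐ[k] Ω) ∈ E.fixingSubgroup → f (g * s, g' * s') = f (g, g')) :
    ∃ f' : (↥L ≃ₐ[↥F] ↥L) × (↥L ≃ₐ[↥F] ↥L) → X,
      ∀ g h : ↥F.fixingSubgroup, f (g, h) = f' (resΓ F L g, resΓ F L h) := by
  classical
  have hmem : ∀ g g' : ↥F.fixingSubgroup, resΓ F L g = resΓ F L g' →
      ((g⁻¹ * g' : ↥F.fixingSubgroup) : Ω ≃ₐ[k] Ω) ∈ E.fixingSubgroup := by
    intro g g' h
    rw [IntermediateField.mem_fixingSubgroup_iff]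
    intro x hx
    have h1 := (resΓ_eq_iff F L g g').1 h x (hEL x hx)
    rw [Subgroup.coe_mul, Subgroup.coe_inv, AlgEquiv.mul_apply, ← h1]
    exact AlgEquiv.symm_apply_apply (g : Ω ≃ₐ[k] Ω) x
  have hwd : ∀ g g' h h' : ↥F.fixingSubgroup, resΓ F L g = resΓ F L g' →
      resΓ F L h = resΓ F L h' → f (g, h) = f (g', h') := by
    intro g g' h h' e1 e2
    have := hf g h (g⁻¹ * g') (h⁻¹ * h') (hmem g g' e1) (hmem h h' e2)
    rw [mul_inv_cancel_left, mul_inv_cancel_left] at this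
    exact this.symm
  refine ⟨fun σ => f (Function.surjInv (resΓ_surjective F L) σ.1,
    Function.surjInv (resΓ_surjective F L) σ.2), fun g h => ?_⟩
  exact hwd _ _ _ _ (Function.surjInv_eq (resΓ_surjective F L) (resΓ F L g)).symm
    (Function.surjInv_eq (resΓ_surjective F L) (resΓ F L h)).symm

end FL

end Fermat.Agent.S55.CFT.LOC.H68

end
-- ==== END Fermat.Agent.S55.CFT.LOC.H68_FL

-- ==== BEGIN Fermat.Agent.S55.CFT.LOC.H68_Herbrand
section

set_option autoImplicit false

namespace Fermat.Agent.S55.CFT.LOC.H68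

section herbrand

variable {A : Type*} [CommGroup A]

/-- The index `[ker f ∩ S : g S]` (0 if infinite). -/
noncomputable def mhIdx (f g : A →* A) (S : Subgroup A) : ℕ :=
  (S.map g).relIndex (f.ker ⊓ S)

theorem mhIdx_top (f g : A →* A) : mhIdx f g ⊤ = g.range.relIndex f.ker := by
  rw [mhIdx, inf_top_eq, MonoidHom.range_eq_map]

theorem mh_index_eq_relIndex_map_mul (f : A →* A) (S : Subgroup A) :
    S.index = (S.map f).relIndex f.range * S.relIndex f.ker := by
  have h1 : (S.map f).relIndex f.range = (S ⊔ f.ker).index := by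
    have := Subgroup.relIndex_map_map f S ⊤
    rw [← MonoidHom.range_eq_map] at this
    rw [this, top_sup_eq, Subgroup.relIndex_top_right]
  have h2 : S.relIndex f.ker = S.relIndex (S ⊔ f.ker) := by
    rw [Subgroup.relIndex_sup_left]
  rw [h1, h2, mul_comm]
  exact (Subgroup.relIndex_mul_index (le_sup_left : S ≤ S ⊔ f.ker)).symm

theorem mhIdx_chain (f g : A →* A) (hfg : ∀ x, f (g x) = 1) (S : Subgroup A)
    (hgS : S.map g ≤ S) :
    (S.map g).relIndex g.range * mhIdx f g ⊤ = mhIdx f g S * S.relIndex f.ker := by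
  have hle1 : S.map g ≤ g.range := Subgroup.map_le_range g S
  have hle2 : g.range ≤ f.ker := by
    rintro _ ⟨x, rfl⟩
    exact hfg x
  have hle3 : S.map g ≤ f.ker ⊓ S := le_inf (hle1.trans hle2) hgS
  have hle4 : f.ker ⊓ S ≤ f.ker := inf_le_left
  rw [mhIdx_top, mhIdx, Subgroup.relIndex_mul_relIndex _ _ _ hle1 hle2,
    ← Subgroup.inf_relIndex_right S f.ker, inf_comm S f.ker,
    Subgroup.relIndex_mul_relIndex _ _ _ hle3 hle4]

/-- **Finite-index invariance of the Herbrand quotient** (cross-multiplied form). -/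
theorem mhIdx_mul_eq_of_finiteIndex (f g : A →* A) (hfg : ∀ x, f (g x) = 1)
    (hgf : ∀ x, g (f x) = 1) (S : Subgroup A) (hfS : S.map f ≤ S) (hgS : S.map g ≤ S)
    (hS : S.index ≠ 0) :
    mhIdx f g ⊤ * mhIdx g f S = mhIdx f g S * mhIdx g f ⊤ := by
  have e1 := mhIdx_chain f g hfg S hgS
  have e2 := mhIdx_chain g f hgf S hfS
  have i1 := mh_index_eq_relIndex_map_mul f S
  have i2 := mh_index_eq_relIndex_map_mul g S
  set α := (S.map f).relIndex f.range
  set β := S.relIndex f.ker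
  set γ := (S.map g).relIndex g.range
  set δ := S.relIndex g.ker
  set n := S.index
  have hn : 0 < n := Nat.pos_of_ne_zero hS
  have key : n * (mhIdx f g ⊤ * mhIdx g f S) = n * (mhIdx f g S * mhIdx g f ⊤) := by
    calc n * (mhIdx f g ⊤ * mhIdx g f S)
        = (γ * mhIdx f g ⊤) * (mhIdx g f S * δ) := by rw [i2]; ring
      _ = (mhIdx f g S * β) * (α * mhIdx g f ⊤) := by rw [e1, e2]
      _ = n * (mhIdx f g S * mhIdx g f ⊤) := by rw [i1]; ring
  exact Nat.eq_of_mul_eq_mul_left hn key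

end herbrand


section cyclicIndex

variable {A : Type*} [CommGroup A]

/-- If `K = H · π^ℤ` and `π^k ∈ H ↔ n ∣ k`, then `[K : H] = n`. -/
theorem relIndex_eq_of_cyclic (H K : Subgroup A) (hHK : H ≤ K) (π : A) (hπ : π ∈ K) (n : ℕ)
    (h1 : ∀ x ∈ K, ∃ k : ℤ, x / π ^ k ∈ H) (h2 : ∀ k : ℤ, π ^ k ∈ H ↔ (n : ℤ) ∣ k) :
    H.relIndex K = n := by
  have hK : K = H ⊔ Subgroup.zpowers π := by
    apply le_antisymm
    · intro x hx
      obtain ⟨k, hk⟩ := h1 x hx
      have : x = (x / π ^ k) * π ^ k := by rw [div_mul_cancel]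
      rw [this]
      exact Subgroup.mul_mem_sup hk (Subgroup.zpow_mem_zpowers π k)
    · exact sup_le hHK ((Subgroup.zpowers_le).mpr hπ)
  rw [hK, Subgroup.relIndex_sup_left]
  have hrange : Subgroup.zpowers π = Subgroup.map (zpowersHom A π) ⊤ := by
    rw [← MonoidHom.range_eq_map]
    ext x
    simp only [Subgroup.mem_zpowers_iff, MonoidHom.mem_range]
    constructor
    · rintro ⟨k, rfl⟩
      exact ⟨Multiplicative.ofAdd k, by simp⟩
    · rintro ⟨k, rfl⟩
      exact ⟨Multiplicative.toAdd k, by simp [zpowersHom_apply]⟩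
  rw [hrange, ← Subgroup.relIndex_comap, Subgroup.relIndex_top_right]
  have hcomap : Subgroup.comap (zpowersHom A π) H =
      AddSubgroup.toSubgroup (AddSubgroup.zmultiples (n : ℤ)) := by
    ext k
    rw [Subgroup.mem_comap]
    have : (zpowersHom A π) k = π ^ (Multiplicative.toAdd k) := by simp [zpowersHom_apply]
    rw [this, h2]
    change _ ↔ Multiplicative.toAdd k ∈ AddSubgroup.zmultiples (n : ℤ)
    rw [Int.mem_zmultiples_iff]
  rw [hcomap, AddSubgroup.index_toSubgroup, Int.index_zmultiples, Int.natAbs_natCast]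

end cyclicIndex

end Fermat.Agent.S55.CFT.LOC.H68

end
-- ==== END Fermat.Agent.S55.CFT.LOC.H68_Herbrand

-- ==== BEGIN Fermat.Agent.S55.CFT.LOC.H68_InfRes
section

set_option autoImplicit false

namespace Fermat.Agent.S55.CFT.LOC.H68

open groupCohomology

section infres

variable {Γ Q A B : Type} [Group Γ] [Group Q] [AddCommGroup A] [AddCommGroup B]
  [DistribMulAction Γ A] [DistribMulAction Q B]

/-- The data of an inflation situation: `π : Γ ↠ Q` with kernel `N`, `ι : B ↪ A` equivariant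
with image `A^N`, and `H¹(N, A) = 0`. -/
structure InfData (π : Γ →* Q) (ι : B →+ A) : Prop where
  surj : Function.Surjective π
  inj : Function.Injective ι
  equiv : ∀ (g : Γ) (b : B), ι (π g • b) = g • ι b
  image : ∀ a : A, (∀ n : Γ, π n = 1 → n • a = a) → ∃ b : B, ι b = a
  h1 : ∀ f : Γ → A, (∀ n n' : Γ, π n = 1 → π n' = 1 → f (n * n') = n • f n' + f n) →
    ∃ a : A, ∀ n : Γ, π n = 1 → n • a - a = f n

variable {π : Γ →* Q} {ι : B →+ A}

theorem InfData.fixed (D : InfData π ι) (b : B) {n : Γ} (hn : π n = 1) : n • ι b = ι b := by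
  rw [← D.equiv, hn, one_smul]

/-- cocycle identities at the identity -/
theorem cocycle_one_left {G M : Type} [Group G] [AddCommGroup M] [DistribMulAction G M]
    {c : G × G → M} (hc : IsCocycle₂ c) (j : G) : c (1, j) = c (1, 1) := by
  have := hc 1 1 j
  simp only [one_mul, one_smul] at this
  -- c(1,j) + c(1,1) = c(1,j) + c(1,j)
  linear_combination (norm := abel) -this

theorem cocycle_one_right {G M : Type} [Group G] [AddCommGroup M] [DistribMulAction G M]
    {c : G × G → M} (hc : IsCocycle₂ c) (g : G) : c (g, 1) = g • c (1, 1) := by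
  have := hc g 1 1
  simp only [mul_one] at this
  linear_combination (norm := abel) this

/-- **Inflation is injective on `H²`** (when `H¹(N, A) = 0`). -/
theorem inf_injective (D : InfData π ι) (c : Q × Q → B) (hc : IsCocycle₂ c)
    (x : Γ → A) (hx : ∀ g h : Γ, g • x h - x (g * h) + x g = ι (c (π g, π h))) :
    IsCoboundary₂ c := by
  classical
  set c₀ := c (1, 1) with hc₀
  -- x' = x - ι c₀ is a 1-cocycle on N
  obtain ⟨a, ha⟩ := D.h1 (fun g => x g - ι c₀) (by
    intro n n' hn hn'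
    have h := hx n n'
    rw [hn, hn'] at h
    have hfix := D.fixed (ι := ι) c₀ hn
    simp only [smul_sub, hfix]
    linear_combination (norm := abel) -h)
  -- x'' g = x g - (g • a - a)
  set x'' : Γ → A := fun g => x g - (g • a - a) with hx''
  have hx''d : ∀ g h : Γ, g • x'' h - x'' (g * h) + x'' g = ι (c (π g, π h)) := by
    intro g h
    simp only [hx'', smul_sub, mul_smul]
    linear_combination (norm := abel) hx g h
  have hx''N : ∀ n : Γ, π n = 1 → x'' n = ι c₀ := by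
    intro n hn
    simp only [hx'']
    linear_combination (norm := abel) -ha n hn
  -- x'' (g n) = x'' g
  have hright : ∀ (g n : Γ), π n = 1 → x'' (g * n) = x'' g := by
    intro g n hn
    have h := hx''d g n
    rw [hn, cocycle_one_right hc, D.equiv, hx''N n hn] at h
    linear_combination (norm := abel) -h
  -- x'' g is N-fixed
  have hfixed : ∀ (g n : Γ), π n = 1 → n • x'' g = x'' g := by
    intro g n hn
    have h := hx''d n g
    rw [hn, cocycle_one_left hc, hx''N n hn] at h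
    have hconj : π (g⁻¹ * n * g) = 1 := by
      rw [map_mul, map_mul, hn, mul_one, map_inv, inv_mul_cancel]
    have h2 := hright g (g⁻¹ * n * g) hconj
    have e : g * (g⁻¹ * n * g) = n * g := by group
    rw [e] at h2
    rw [h2] at h
    linear_combination (norm := abel) h
  -- descend
  choose y hy using fun g : Γ => D.image (x'' g) (fun n hn => hfixed g n hn)
  let s : Q → Γ := Function.surjInv D.surj
  have hs : ∀ q, π (s q) = q := Function.surjInv_eq D.surj
  have hxs : ∀ g : Γ, x'' (s (π g)) = x'' g := by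
    intro g
    have hk : π ((s (π g))⁻¹ * g) = 1 := by
      rw [map_mul, map_inv, hs, inv_mul_cancel]
    have := hright (s (π g)) ((s (π g))⁻¹ * g) hk
    rw [mul_inv_cancel_left] at this
    exact this.symm
  refine ⟨fun q => y (s q), fun q r => ?_⟩
  apply D.inj
  have h := hx''d (s q) (s r)
  rw [hs, hs] at h
  rw [← h, map_add, map_sub, hy, hy, ← hs q, D.equiv, hy, hs q]
  have e : x'' (s (q * r)) = x'' (s q * s r) := by
    have := hxs (s q * s r)
    rw [map_mul, hs, hs] at this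
    exact this
  rw [e]

end infres

end Fermat.Agent.S55.CFT.LOC.H68

end
-- ==== END Fermat.Agent.S55.CFT.LOC.H68_InfRes

-- ==== BEGIN Fermat.Agent.S55.CFT.LOC.H72_IntClosureCard
section

set_option autoImplicit false
set_option linter.style.haveILetI false

namespace Fermat.Agent.S55.CFT.LOC.H72

open Module

set_option synthInstance.maxHeartbeats 400000 in
/-- The cardinality of `C / 𝔪 C`, `C` the integral closure of a local principal domain. -/
theorem card_intClosure_quot (A K L : Type*) [CommRing A] [IsDomain A] [IsLocalRing A]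
    [IsPrincipalIdealRing A] [Field K] [Field L] [Algebra A K] [IsFractionRing A K]
    [Algebra K L] [Algebra A L] [IsScalarTower A K L] [FiniteDimensional K L]
    [Algebra.IsSeparable K L] :
    Nat.card (integralClosure A L ⧸
        (IsLocalRing.maximalIdeal A).map (algebraMap A (integralClosure A L)))
      = Nat.card (A ⧸ IsLocalRing.maximalIdeal A) ^ finrank K L := by
  haveI : IsTorsionFree A L := by
    have : FaithfulSMul A L := by
      rw [faithfulSMul_iff_algebraMap_injective, IsScalarTower.algebraMap_eq A K L]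
      exact (algebraMap K L).injective.comp (IsFractionRing.injective A K)
    infer_instance
  haveI : Module.Finite A (integralClosure A L) :=
    IsIntegralClosure.finite A K L (integralClosure A L)
  haveI : Module.Free A (integralClosure A L) :=
    IsIntegralClosure.module_free A K L (integralClosure A L)
  have hrank : finrank A (integralClosure A L) = finrank K L :=
    IsIntegralClosure.rank A K L (integralClosure A L)
  letI := Ideal.Quotient.field (IsLocalRing.maximalIdeal A)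
  have h1 := IsLocalRing.finrank_quotient_map (R := A) (S := integralClosure A L)
  haveI : Module.Finite (A ⧸ IsLocalRing.maximalIdeal A) (integralClosure A L ⧸
        (IsLocalRing.maximalIdeal A).map (algebraMap A (integralClosure A L))) :=
    Module.Finite.of_restrictScalars_finite A _ _
  rw [Module.natCard_eq_pow_finrank (K := A ⧸ IsLocalRing.maximalIdeal A), h1, hrank]

end Fermat.Agent.S55.CFT.LOC.H72

end
-- ==== END Fermat.Agent.S55.CFT.LOC.H72_IntClosureCard

-- ==== BEGIN Fermat.Agent.S55.Defs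
section

set_option autoImplicit false

open CategoryTheory Module groupCohomology ExtCitation

namespace Fermat.Agent.S55

/-- `G = Gal(Q̄/ℚ)`. -/
abbrev GQ : Type := AlgebraicClosure ℚ ≃ₐ[ℚ] AlgebraicClosure ℚ

/-- The hypotheses of S55 on `(p, S, M)`, bundled. -/
structure Hyp (p : ℕ) [Fact p.Prime] (S : Finset Nat.Primes) (M : Rep (ZMod p) GQ) : Prop where
  hp2 : p ≠ 2
  hpS : pPrime p ∈ S
  fin : FiniteDimensional (ZMod p) M
  hsm : ∀ m : M, ∃ F : IntermediateField ℚ (AlgebraicClosure ℚ), FiniteDimensional ℚ F ∧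
      ∀ s ∈ F.fixingSubgroup, M.ρ s m = m
  hMur : ∀ q : Nat.Primes, q ∉ S → ∀ A : ValuationSubring (AlgebraicClosure ℚ),
      A.LiesOverPrime (q : ℕ) → ∀ g ∈ A.inertiaSubgroupIn ℚ, M.ρ g = 1

/-- (F1) `Ш¹_S(M')` is finite-dimensional. -/
def Stmt_sha1_finite : Prop :=
  ∀ (p : ℕ) [Fact p.Prime] (S : Finset Nat.Primes) (M : Rep (ZMod p) GQ), Hyp p S M →
    Module.Finite (ZMod p) (sha₁ S (M.dualTwist (cycloChar p)))

/-- (F2) `Ш²_S(M)` is finite-dimensional. -/
def Stmt_sha2_finite : Prop :=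
  ∀ (p : ℕ) [Fact p.Prime] (S : Finset Nat.Primes) (M : Rep (ZMod p) GQ), Hyp p S M →
    Module.Finite (ZMod p) (sha₂ S M)

/-- (PT) `dim Ш¹_S(M') = dim Ш²_S(M)`. -/
def Stmt_sha_finrank_eq : Prop :=
  ∀ (p : ℕ) [Fact p.Prime] (S : Finset Nat.Primes) (M : Rep (ZMod p) GQ), Hyp p S M →
    Module.finrank (ZMod p) (sha₁ S (M.dualTwist (cycloChar p))) =
      Module.finrank (ZMod p) (sha₂ S M)

/-- (PT') an injective linear map `Ш²_S(M) → (Ш¹_S(M'))^*` (half of Poitou–Tate). -/
def Stmt_sha2_inj_dual : Prop :=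
  ∀ (p : ℕ) [Fact p.Prime] (S : Finset Nat.Primes) (M : Rep (ZMod p) GQ), Hyp p S M →
    ∃ f : sha₂ S M →ₗ[ZMod p] Module.Dual (ZMod p) (sha₁ S (M.dualTwist (cycloChar p))),
      Function.Injective f

/-- (PT'') an injective linear map `Ш¹_S(M') → (Ш²_S(M))^*` (other half of Poitou–Tate). -/
def Stmt_sha1_inj_dual : Prop :=
  ∀ (p : ℕ) [Fact p.Prime] (S : Finset Nat.Primes) (M : Rep (ZMod p) GQ), Hyp p S M →
    ∃ f : sha₁ S (M.dualTwist (cycloChar p)) →ₗ[ZMod p] Module.Dual (ZMod p) (sha₂ S M),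
      Function.Injective f

end Fermat.Agent.S55

end
-- ==== END Fermat.Agent.S55.Defs

-- ==== BEGIN Fermat.Agent.S55.Top.ShapiroCore
section

set_option autoImplicit false
set_option linter.unusedSectionVars false
set_option linter.unusedSimpArgs false

namespace Fermat.Agent.S55.Top

/-- Orbit data for the action of `Γ` on `X`: representatives indexed by `R` and transporters. -/
structure OrbitData (Γ : Type) [Group Γ] (X : Type) [MulAction Γ X] (R : Type) where
  /-- the representatives -/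
  rep : R → X
  /-- the orbit of a point -/
  o : X → R
  /-- the transporter from the representative -/
  t : X → Γ
  t_smul : ∀ x, t x • rep (o x) = x
  o_smul : ∀ (γ : Γ) (x : X), o (γ • x) = o x
  o_rep : ∀ r, o (rep r) = r
  t_rep : ∀ r, t (rep r) = 1

namespace OrbitData

variable {k : Type} [CommRing k] {Γ : Type} [Group Γ] {X : Type} [MulAction Γ X] {R : Type}
  (D : OrbitData Γ X R)

/-- The cocycle of the induced module: `c(γ, x) = t(x)⁻¹ γ t(γ⁻¹ x)`. -/
def cc (γ : Γ) (x : X) : Γ := (D.t x)⁻¹ * γ * D.t (γ⁻¹ • x)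

lemma cc_inv_smul (γ : Γ) (x : X) : (D.cc γ x)⁻¹ • D.rep (D.o x) = D.rep (D.o x) := by
  unfold cc
  rw [mul_inv_rev, mul_inv_rev, inv_inv, mul_smul, mul_smul, D.t_smul, inv_smul_eq_iff]
  have := D.t_smul (γ⁻¹ • x)
  rw [D.o_smul] at this
  exact this.symm

lemma cc_smul (γ : Γ) (x : X) : D.cc γ x • D.rep (D.o x) = D.rep (D.o x) := by
  have := D.cc_inv_smul γ x
  rwa [inv_smul_eq_iff, eq_comm] at this

lemma cc_mul (γ γ' : Γ) (x : X) : D.cc γ x * D.cc γ' (γ⁻¹ • x) = D.cc (γ * γ') x := by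
  unfold cc
  rw [mul_inv_rev, mul_smul]
  group

lemma cc_mul_t_inv (γ : Γ) (x : X) : D.cc γ x * (D.t (γ⁻¹ • x))⁻¹ = (D.t x)⁻¹ * γ := by
  unfold cc
  group

lemma cc_one (x : X) : D.cc 1 x = 1 := by
  unfold cc
  simp

lemma cc_of_stab (r : R) (γ : Γ) (hγ : γ • D.rep r = D.rep r) : D.cc γ (D.rep r) = γ := by
  have h : γ⁻¹ • D.rep r = D.rep r := by rw [inv_smul_eq_iff, hγ]
  unfold cc
  rw [h, D.t_rep]
  simp

lemma cc_t_inv (x : X) : D.cc (D.t x)⁻¹ (D.rep (D.o x)) = 1 := by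
  unfold cc
  rw [inv_inv, D.t_smul, D.t_rep]
  simp

/-! ### Differentials in coordinates -/

/-- `d⁰` in coordinates. -/
def d0 (m : X → k) : Γ → X → k := fun g x => m (g⁻¹ • x) - m x

/-- `d¹` in coordinates. -/
def d1 (f : Γ → X → k) : Γ × Γ → X → k :=
  fun t x => f t.2 (t.1⁻¹ • x) - f (t.1 * t.2) x + f t.1 x

/-- `d²` in coordinates. -/
def d2 (f : Γ × Γ → X → k) : Γ × Γ × Γ → X → k :=
  fun t x => f (t.2.1, t.2.2) (t.1⁻¹ • x) - f (t.1 * t.2.1, t.2.2) x
    + f (t.1, t.2.1 * t.2.2) x - f (t.1, t.2.1) x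

/-- `d³` in coordinates. -/
def d3 (f : Γ × Γ × Γ → X → k) : Γ × Γ × Γ × Γ → X → k :=
  fun t x => f (t.2.1, t.2.2.1, t.2.2.2) (t.1⁻¹ • x) - f (t.1 * t.2.1, t.2.2.1, t.2.2.2) x
    + f (t.1, t.2.1 * t.2.2.1, t.2.2.2) x - f (t.1, t.2.1, t.2.2.1 * t.2.2.2) x
    + f (t.1, t.2.1, t.2.2.1) x

/-! ### Differentials of pure cochains (trivial action) -/

/-- pure `d¹`. -/
def e1 (f : R → Γ → k) : R → Γ × Γ → k :=
  fun r t => f r t.2 - f r (t.1 * t.2) + f r t.1

/-- pure `d²`. -/
def e2 (f : R → Γ × Γ → k) : R → Γ × Γ × Γ → k :=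
  fun r t => f r (t.2.1, t.2.2) - f r (t.1 * t.2.1, t.2.2) + f r (t.1, t.2.1 * t.2.2)
    - f r (t.1, t.2.1)

/-- pure `d³`. -/
def e3 (f : R → Γ × Γ × Γ → k) : R → Γ × Γ × Γ × Γ → k :=
  fun r t => f r (t.2.1, t.2.2.1, t.2.2.2) - f r (t.1 * t.2.1, t.2.2.1, t.2.2.2)
    + f r (t.1, t.2.1 * t.2.2.1, t.2.2.2) - f r (t.1, t.2.1, t.2.2.1 * t.2.2.2)
    + f r (t.1, t.2.1, t.2.2.1)

/-! ### Induction -/

/-- induction in degree 0. -/
def ind0 (m : R → k) : X → k := fun x => m (D.o x)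

/-- induction in degree 1. -/
def ind1 (f : R → Γ → k) : Γ → X → k := fun g x => f (D.o x) (D.cc g x)

/-- induction in degree 2. -/
def ind2 (f : R → Γ × Γ → k) : Γ × Γ → X → k :=
  fun t x => f (D.o x) (D.cc t.1 x, D.cc t.2 (t.1⁻¹ • x))

/-- induction in degree 3. -/
def ind3 (f : R → Γ × Γ × Γ → k) : Γ × Γ × Γ → X → k :=
  fun t x => f (D.o x) (D.cc t.1 x, D.cc t.2.1 (t.1⁻¹ • x), D.cc t.2.2 (t.2.1⁻¹ • t.1⁻¹ • x))

/-- induction in degree 4. -/
def ind4 (f : R → Γ × Γ × Γ × Γ → k) : Γ × Γ × Γ × Γ → X → k :=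
  fun t x => f (D.o x) (D.cc t.1 x, D.cc t.2.1 (t.1⁻¹ • x), D.cc t.2.2.1 (t.2.1⁻¹ • t.1⁻¹ • x),
    D.cc t.2.2.2 (t.2.2.1⁻¹ • t.2.1⁻¹ • t.1⁻¹ • x))

lemma d0_ind0 (m : R → k) : d0 (D.ind0 m) = fun (_ : Γ) (_ : X) => (0 : k) := by
  funext g x
  simp [d0, ind0, D.o_smul]

lemma d1_ind1 (f : R → Γ → k) : d1 (D.ind1 f) = D.ind2 (e1 f) := by
  funext t x
  simp only [d1, ind1, ind2, e1, D.o_smul, D.cc_mul]

lemma d2_ind2 (f : R → Γ × Γ → k) : d2 (D.ind2 f) = D.ind3 (e2 f) := by
  funext t x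
  simp only [d2, ind2, ind3, e2, D.o_smul, D.cc_mul, mul_inv_rev, mul_smul]

lemma d3_ind3 (f : R → Γ × Γ × Γ → k) : d3 (D.ind3 f) = D.ind4 (e3 f) := by
  funext t x
  simp only [d3, ind3, ind4, e3, D.o_smul, D.cc_mul, mul_inv_rev, mul_smul]

/-! ### Evaluation at the representatives -/

/-- Shapiro's map in degree 0. -/
def sh0 (m : X → k) : R → k := fun r => m (D.rep r)

/-- Shapiro's map in degree 1. -/
def sh1 (f : Γ → X → k) : R → Γ → k := fun r g => f g (D.rep r)

/-- Shapiro's map in degree 2. -/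
def sh2 (f : Γ × Γ → X → k) : R → Γ × Γ → k := fun r t => f t (D.rep r)

/-- Shapiro's map in degree 3. -/
def sh3 (f : Γ × Γ × Γ → X → k) : R → Γ × Γ × Γ → k := fun r t => f t (D.rep r)

lemma sh1_d0 (m : X → k) (r : R) (g : Γ) (hg : g • D.rep r = D.rep r) :
    D.sh1 (d0 m) r g = 0 := by
  have h : g⁻¹ • D.rep r = D.rep r := by rw [inv_smul_eq_iff, hg]
  simp [sh1, d0, h]

lemma sh2_d1 (f : Γ → X → k) (r : R) (t : Γ × Γ) (h1 : t.1 • D.rep r = D.rep r) :
    D.sh2 (d1 f) r t = e1 (D.sh1 f) r t := by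
  have h : t.1⁻¹ • D.rep r = D.rep r := by rw [inv_smul_eq_iff, h1]
  simp [sh2, d1, e1, sh1, h]

lemma sh3_d2 (f : Γ × Γ → X → k) (r : R) (t : Γ × Γ × Γ) (h1 : t.1 • D.rep r = D.rep r) :
    D.sh3 (d2 f) r t = e2 (D.sh2 f) r t := by
  have h : t.1⁻¹ • D.rep r = D.rep r := by rw [inv_smul_eq_iff, h1]
  simp [sh3, d2, e2, sh2, h]

lemma sh0_ind0 (m : R → k) : D.sh0 (D.ind0 m) = m := by
  funext r
  simp [sh0, ind0, D.o_rep]

lemma sh1_ind1 (f : R → Γ → k) (r : R) (g : Γ) (hg : g • D.rep r = D.rep r) :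
    D.sh1 (D.ind1 f) r g = f r g := by
  simp [sh1, ind1, D.o_rep, D.cc_of_stab r g hg]

lemma sh2_ind2 (f : R → Γ × Γ → k) (r : R) (t : Γ × Γ) (h1 : t.1 • D.rep r = D.rep r)
    (h2 : t.2 • D.rep r = D.rep r) : D.sh2 (D.ind2 f) r t = f r t := by
  have h : t.1⁻¹ • D.rep r = D.rep r := by rw [inv_smul_eq_iff, h1]
  simp [sh2, ind2, D.o_rep, h, D.cc_of_stab r _ h1, D.cc_of_stab r _ h2]

lemma sh3_ind3 (f : R → Γ × Γ × Γ → k) (r : R) (t : Γ × Γ × Γ) (h1 : t.1 • D.rep r = D.rep r)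
    (h2 : t.2.1 • D.rep r = D.rep r) (h3 : t.2.2 • D.rep r = D.rep r) :
    D.sh3 (D.ind3 f) r t = f r t := by
  have h : t.1⁻¹ • D.rep r = D.rep r := by rw [inv_smul_eq_iff, h1]
  have h' : t.2.1⁻¹ • D.rep r = D.rep r := by rw [inv_smul_eq_iff, h2]
  simp [sh3, ind3, D.o_rep, h, h', D.cc_of_stab r _ h1, D.cc_of_stab r _ h2,
    D.cc_of_stab r _ h3]

/-! ### The homotopy -/

/-- homotopy `C¹ → C⁰`. -/
def hty1 (f : Γ → X → k) : X → k := fun x => f (D.t x)⁻¹ (D.rep (D.o x))

/-- homotopy `C² → C¹`. -/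
def hty2 (f : Γ × Γ → X → k) : Γ → X → k :=
  fun g x => f ((D.t x)⁻¹, g) (D.rep (D.o x))
    - f (D.cc g x, (D.t (g⁻¹ • x))⁻¹) (D.rep (D.o x))

/-- homotopy `C³ → C²`. -/
def hty3 (f : Γ × Γ × Γ → X → k) : Γ × Γ → X → k :=
  fun t x => f ((D.t x)⁻¹, t.1, t.2) (D.rep (D.o x))
    - f (D.cc t.1 x, (D.t (t.1⁻¹ • x))⁻¹, t.2) (D.rep (D.o x))
    + f (D.cc t.1 x, D.cc t.2 (t.1⁻¹ • x), (D.t (t.2⁻¹ • t.1⁻¹ • x))⁻¹) (D.rep (D.o x))

/-- homotopy `C⁴ → C³`. -/
def hty4 (f : Γ × Γ × Γ × Γ → X → k) : Γ × Γ × Γ → X → k :=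
  fun t x => f ((D.t x)⁻¹, t.1, t.2.1, t.2.2) (D.rep (D.o x))
    - f (D.cc t.1 x, (D.t (t.1⁻¹ • x))⁻¹, t.2.1, t.2.2) (D.rep (D.o x))
    + f (D.cc t.1 x, D.cc t.2.1 (t.1⁻¹ • x), (D.t (t.2.1⁻¹ • t.1⁻¹ • x))⁻¹, t.2.2)
        (D.rep (D.o x))
    - f (D.cc t.1 x, D.cc t.2.1 (t.1⁻¹ • x), D.cc t.2.2 (t.2.1⁻¹ • t.1⁻¹ • x),
        (D.t (t.2.2⁻¹ • t.2.1⁻¹ • t.1⁻¹ • x))⁻¹) (D.rep (D.o x))

theorem hty_zero (m : X → k) (x : X) :
    m x - D.ind0 (D.sh0 m) x = D.hty1 (d0 m) x := by
  simp [ind0, sh0, hty1, d0, D.t_smul]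

theorem hty_one (f : Γ → X → k) (g : Γ) (x : X) :
    f g x - D.ind1 (D.sh1 f) g x = d0 (D.hty1 f) g x + D.hty2 (d1 f) g x := by
  simp only [ind1, sh1, d0, hty1, hty2, d1, inv_inv, D.cc_inv_smul, D.t_smul, D.cc_mul_t_inv,
    D.o_smul]
  ring

theorem hty_two (f : Γ × Γ → X → k) (t : Γ × Γ) (x : X) :
    f t x - D.ind2 (D.sh2 f) t x = d1 (D.hty2 f) t x + D.hty3 (d2 f) t x := by
  obtain ⟨g₁, g₂⟩ := t
  have h1 := D.cc_mul_t_inv g₂ (g₁⁻¹ • x)
  have h2 := D.cc_inv_smul g₂ (g₁⁻¹ • x)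
  rw [D.o_smul] at h2
  simp only [ind2, sh2, d1, hty2, hty3, d2, inv_inv, D.cc_inv_smul, D.t_smul, D.cc_mul_t_inv,
    D.o_smul, D.cc_mul, mul_inv_rev, mul_smul, h1, h2]
  ring

theorem hty_three (f : Γ × Γ × Γ → X → k) (t : Γ × Γ × Γ) (x : X) :
    f t x - D.ind3 (D.sh3 f) t x = d2 (D.hty3 f) t x + D.hty4 (d3 f) t x := by
  obtain ⟨g₁, g₂, g₃⟩ := t
  have h1 := D.cc_mul_t_inv g₂ (g₁⁻¹ • x)
  have h2 := D.cc_inv_smul g₂ (g₁⁻¹ • x)
  rw [D.o_smul] at h2
  have h3 := D.cc_mul_t_inv g₃ (g₂⁻¹ • g₁⁻¹ • x)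
  have h4 := D.cc_inv_smul g₃ (g₂⁻¹ • g₁⁻¹ • x)
  rw [D.o_smul, D.o_smul] at h4
  have h5 := D.cc_mul g₂ g₃ (g₁⁻¹ • x)
  simp only [ind3, sh3, d2, hty3, hty4, d3, inv_inv, D.cc_inv_smul, D.t_smul, D.cc_mul_t_inv,
    D.o_smul, D.cc_mul, mul_inv_rev, mul_smul, h1, h2, h3, h4, h5]
  ring

end OrbitData

end Fermat.Agent.S55.Top

end
-- ==== END Fermat.Agent.S55.Top.ShapiroCore

-- ==== BEGIN Fermat.Agent.S56.Defs
section

set_option autoImplicit false

/-!
# Cluster T / S56 (Taylor-Wiles primes): basic definitions and interfaces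

Coordinator: helper47.  Plan: `NOTES/plan/T.md`.

* `GQ`            : the absolute Galois group of `ℚ`.
* `adRepr`, `ad0` : the adjoint representation of a residual representation and its trace-zero part,
                    as a `Rep k GQ`.
* `cycloK`        : the mod `p` cyclotomic character with values in `kˣ` (`k` of characteristic `p`).
* `IsTWFamily`    : the Taylor-Wiles conditions of the frozen statement.
* `condSO`, `condFl` : the two deformation conditions of the frozen statement.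
-/

noncomputable section

namespace Fermat.Agent.S56

open Polynomial IsLocalRing CategoryTheory groupCohomology ExtCitation

/-- The absolute Galois group of `ℚ`. -/
abbrev GQ : Type := AlgebraicClosure ℚ ≃ₐ[ℚ] AlgebraicClosure ℚ

section Adjoint

variable {k : Type} [Field k] (ρbar : ResidualGaloisRep k)

/-- The residual representation as a `Representation`. -/
def reprOf : Representation k GQ ρbar.V := ρbar.ρ

/-- The adjoint representation on `End_k(V)`: `g • f = ρ(g) ∘ f ∘ ρ(g)⁻¹`. -/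
def adRepr : Representation k GQ (Module.End k ρbar.V) :=
  Representation.linHom (reprOf ρbar) (reprOf ρbar)

theorem adRepr_apply (g : GQ) (f : Module.End k ρbar.V) :
    adRepr ρbar g f = ρbar.ρ g ∘ₗ f ∘ₗ ρbar.ρ g⁻¹ := rfl

/-- The trace-zero endomorphisms. -/
noncomputable def ad0Sub : Submodule k (Module.End k ρbar.V) :=
  LinearMap.ker (LinearMap.trace k ρbar.V)

theorem ad0Sub_le_comap (g : GQ) : ad0Sub ρbar ≤ (ad0Sub ρbar).comap (adRepr ρbar g) := by
  intro f hf
  simp only [ad0Sub, LinearMap.mem_ker, Submodule.mem_comap] at hf ⊢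
  rw [adRepr_apply, LinearMap.trace_comp_comm']
  have h1 : (f ∘ₗ ρbar.ρ g⁻¹) ∘ₗ ρbar.ρ g = f := by
    rw [LinearMap.comp_assoc]
    have : ρbar.ρ g⁻¹ ∘ₗ ρbar.ρ g = LinearMap.id := by
      rw [← Module.End.mul_eq_comp, ← map_mul, inv_mul_cancel, map_one]; rfl
    rw [this, LinearMap.comp_id]
  rw [h1]; exact hf

/-- The adjoint representation on trace-zero endomorphisms. -/
noncomputable def ad0Repr : Representation k GQ (ad0Sub ρbar) :=
  (adRepr ρbar).subrepresentation (ad0Sub ρbar) (ad0Sub_le_comap ρbar)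

/-- `ad⁰ ρbar` as an object of `Rep k GQ`. -/
noncomputable def ad0 : Rep k GQ := Rep.of (ad0Repr ρbar)

/-- `ad ρbar` as an object of `Rep k GQ`. -/
noncomputable def ad : Rep k GQ := Rep.of (adRepr ρbar)

end Adjoint

/-- The mod `p` cyclotomic character with values in a field of characteristic `p`. -/
noncomputable def cycloK (p : ℕ) [Fact p.Prime] (k : Type) [Field k] [CharP k p] : GQ →* kˣ :=
  (Units.map ((ZMod.castHom (dvd_refl p) k : ZMod p →+* k) : ZMod p →* k)).comp (cycloChar p)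

/-- The Taylor-Wiles conditions on a family of primes, verbatim from the frozen statement S56. -/
def IsTWFamily {k : Type} [Field k] (ρbar : ResidualGaloisRep k) (p n : ℕ) (S : Finset ℕ)
    {r : ℕ} (qv : Fin r → ℕ) : Prop :=
  Function.Injective qv ∧
    (∀ i, (qv i).Prime ∧ qv i ∉ S ∧ p ^ (n + 1) ∣ qv i - 1) ∧
    (∀ i, ∀ P : ValuationSubring (AlgebraicClosure ℚ), P.LiesOverPrime (qv i) →
      ∀ φ : AlgebraicClosure ℚ ≃ₐ[ℚ] AlgebraicClosure ℚ, P.IsFrobeniusAt φ (qv i) →
        ∃ α β : k, α ≠ β ∧ LinearMap.charpoly (ρbar.ρ φ) = (X - C α) * (X - C β))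

/-- The strict-ordinary deformation condition of S56 with auxiliary set `T`. -/
def condSO (𝒪 : Type) [CommRing 𝒪] (p : ℕ) (Smin T : Finset ℕ) :
    ∀ ⦃A : Type⦄ [CommRing A] [IsLocalRing A] [Algebra 𝒪 A], GaloisRepAdic A → Prop :=
  fun _A _ _ _ ρ => GaloisRep.strictOrdinaryCondition 𝒪 p (Smin ∪ T) ρ ∧
    ∀ q ∈ Smin, q.Prime → q ≠ p → ρ.IsUnipotentOnInertiaAt q

/-- The flat deformation condition of S56 with auxiliary set `T`. -/
def condFl (𝒪 : Type) [CommRing 𝒪] (p : ℕ) (Smin T : Finset ℕ) :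
    ∀ ⦃A : Type⦄ [CommRing A] [IsLocalRing A] [Algebra 𝒪 A], GaloisRepAdic A → Prop :=
  fun _A _ _ _ ρ => GaloisRep.flatCondition 𝒪 p (Smin ∪ T) ρ ∧
    ∀ q ∈ Smin, q.Prime → q ≠ p → ρ.IsUnipotentOnInertiaAt q

end Fermat.Agent.S56

end

end
-- ==== END Fermat.Agent.S56.Defs

-- ==== BEGIN Fermat.Agent.S56.EC.H15_TrLeaves
section

set_option autoImplicit false
set_option linter.unusedSectionVars false
set_option linter.style.haveILetI false
set_option linter.unusedVariables false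

noncomputable section

namespace Fermat.Agent.S56.EC.H15

open NumberField IsDedekindDomain

section plc

variable (K : Type) [Field K] [NumberField K]

/-- The place `w ∘ σ`. -/
def placeComap (σ : K ≃ₐ[ℚ] K) (w : HeightOneSpectrum (𝓞 K)) : HeightOneSpectrum (𝓞 K) where
  asIdeal := w.asIdeal.comap (NumberField.RingOfIntegers.mapRingEquiv (σ : K ≃+* K))
  isPrime := Ideal.comap_isPrime _ _
  ne_bot := by
    intro h
    apply w.ne_bot
    rw [eq_bot_iff]
    intro x hx
    have h1 : (NumberField.RingOfIntegers.mapRingEquiv (σ : K ≃+* K)).symm x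
        ∈ w.asIdeal.comap (NumberField.RingOfIntegers.mapRingEquiv (σ : K ≃+* K)) := by
      rw [Ideal.mem_comap, RingEquiv.apply_symm_apply]
      exact hx
    rw [h, Ideal.mem_bot] at h1
    rw [Ideal.mem_bot]
    have h2 := congrArg (NumberField.RingOfIntegers.mapRingEquiv (σ : K ≃+* K)) h1
    rw [RingEquiv.apply_symm_apply, map_zero] at h2
    exact h2

theorem placeComap_asIdeal (σ : K ≃ₐ[ℚ] K) (w : HeightOneSpectrum (𝓞 K)) :
    (placeComap K σ w).asIdeal
      = w.asIdeal.comap (NumberField.RingOfIntegers.mapRingEquiv (σ : K ≃+* K)) := rfl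

theorem mem_placeComap_pow (σ : K ≃ₐ[ℚ] K) (w : HeightOneSpectrum (𝓞 K)) (n : ℕ) (r : 𝓞 K) :
    r ∈ (placeComap K σ w).asIdeal ^ n ↔
      NumberField.RingOfIntegers.mapRingEquiv (σ : K ≃+* K) r ∈ w.asIdeal ^ n := by
  rw [placeComap_asIdeal, ← Ideal.map_symm, ← Ideal.map_pow, Ideal.map_symm, Ideal.mem_comap]

theorem intValuation_placeComap (σ : K ≃ₐ[ℚ] K) (w : HeightOneSpectrum (𝓞 K)) (r : 𝓞 K) :
    (placeComap K σ w).intValuation r
      = w.intValuation (NumberField.RingOfIntegers.mapRingEquiv (σ : K ≃+* K) r) := by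
  set e := NumberField.RingOfIntegers.mapRingEquiv (σ : K ≃+* K) with he
  by_cases hr : r = 0
  · rw [hr, map_zero, map_zero, map_zero]
  have her : e r ≠ 0 := fun h => hr ((map_eq_zero_iff e e.injective).1 h)
  have key : ∀ n : ℕ, (placeComap K σ w).intValuation r ≤ WithZero.exp (-(n : ℤ)) ↔
      w.intValuation (e r) ≤ WithZero.exp (-(n : ℤ)) := by
    intro n
    rw [HeightOneSpectrum.intValuation_le_pow_iff_mem,
      HeightOneSpectrum.intValuation_le_pow_iff_mem, mem_placeComap_pow]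
  have h1 := (placeComap K σ w).intValuation_if_neg hr
  have h2 := w.intValuation_if_neg her
  rw [h1, h2] at key ⊢
  set k := (Associates.mk (placeComap K σ w).asIdeal).count
    (Associates.mk (Ideal.span {r} : Ideal (𝓞 K))).factors with hk
  set m := (Associates.mk w.asIdeal).count
    (Associates.mk (Ideal.span {e r} : Ideal (𝓞 K))).factors with hm
  have h3 := (key k).1 le_rfl
  have h4 := (key m).2 le_rfl
  rw [WithZero.exp_le_exp, neg_le_neg_iff, Int.ofNat_le] at h3 h4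
  rw [le_antisymm h4 h3]

/-- **PLC**: the Galois action on the finite places is compatible with the valuations. -/
theorem stmt_PLC (K : Type) [Field K] [NumberField K] (σ : K ≃ₐ[ℚ] K)
    (w : HeightOneSpectrum (𝓞 K)) :
    ∃ w' : HeightOneSpectrum (𝓞 K), ∀ x : K, w'.valuation K x = w.valuation K (σ x) := by
  refine ⟨placeComap K σ w, fun x => ?_⟩
  obtain ⟨r, s, hs, rfl⟩ := IsFractionRing.div_surjective (A := 𝓞 K) x
  have hs0 : (algebraMap (𝓞 K) K s) ≠ 0 := by
    intro h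
    have := (map_eq_zero_iff (algebraMap (𝓞 K) K) (IsFractionRing.injective (𝓞 K) K)).1 h
    exact (nonZeroDivisors.ne_zero hs) this
  have e1 : ∀ t : 𝓞 K, σ (algebraMap (𝓞 K) K t)
      = algebraMap (𝓞 K) K (NumberField.RingOfIntegers.mapRingEquiv (σ : K ≃+* K) t) :=
    fun t => rfl
  rw [map_div₀, map_div₀, map_div₀, e1, e1, HeightOneSpectrum.valuation_of_algebraMap,
    HeightOneSpectrum.valuation_of_algebraMap, HeightOneSpectrum.valuation_of_algebraMap,
    HeightOneSpectrum.valuation_of_algebraMap, intValuation_placeComap, intValuation_placeComap]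

end plc

section logspan

open NumberField.Units NumberField.Units.dirichletUnitTheorem NumberField.InfinitePlace

variable (K : Type) [Field K] [NumberField K]

/-- The full logarithmic embedding. -/
def logFull (u : (𝓞 K)ˣ) : InfinitePlace K → ℝ :=
  fun w => (InfinitePlace.mult w : ℝ) * Real.log (w (u : K))

/-- Restriction to the places `≠ w₀`. -/
def prLog : (InfinitePlace K → ℝ) →ₗ[ℝ] logSpace K where
  toFun y := fun w => y w.1
  map_add' _ _ := rfl
  map_smul' _ _ := rfl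

/-- The sum functional. -/
def sumLog : (InfinitePlace K → ℝ) →ₗ[ℝ] ℝ where
  toFun y := ∑ w, y w
  map_add' y z := by
    show ∑ w, (y w + z w) = _
    rw [Finset.sum_add_distrib]
  map_smul' c y := by
    show ∑ w, c * y w = c * ∑ w, y w
    rw [Finset.mul_sum]

theorem prLog_logFull (u : (𝓞 K)ˣ) :
    prLog K (logFull K u) = logEmbedding K (Additive.ofMul u) := rfl

theorem sumLog_logFull (u : (𝓞 K)ˣ) : sumLog K (logFull K u) = 0 :=
  NumberField.Units.sum_mult_mul_log u

theorem sumLog_eq_zero_of_mem {z : InfinitePlace K → ℝ}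
    (hz : z ∈ Submodule.span ℝ (Set.range (logFull K))) : sumLog K z = 0 := by
  have : Submodule.span ℝ (Set.range (logFull K)) ≤ LinearMap.ker (sumLog K) := by
    rw [Submodule.span_le]
    rintro _ ⟨u, rfl⟩
    exact sumLog_logFull K u
  exact this hz

theorem map_prLog_span :
    (Submodule.span ℝ (Set.range (logFull K))).map (prLog K) = ⊤ := by
  rw [eq_top_iff, ← unitLattice_span_eq_top K, Submodule.span_le]
  rintro x hx
  obtain ⟨a, -, rfl⟩ := hx
  refine ⟨logFull K (Additive.toMul a), Submodule.subset_span ⟨_, rfl⟩, ?_⟩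
  rw [prLog_logFull]
  rfl

/-- **LOGSPAN**: the full logarithmic embedding of the units spans the hyperplane `∑ = 0`. -/
theorem stmt_LOGSPAN (K : Type) [Field K] [NumberField K] (y : InfinitePlace K → ℝ)
    (hy : ∑ w, y w = 0) :
    y ∈ Submodule.span ℝ (Set.range fun u : (𝓞 K)ˣ => fun w : InfinitePlace K =>
      (InfinitePlace.mult w : ℝ) * Real.log (w (u : K))) := by
  classical
  have h1 : prLog K y ∈ (Submodule.span ℝ (Set.range (logFull K))).map (prLog K) := by
    rw [map_prLog_span]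
    exact Submodule.mem_top
  obtain ⟨z, hz, hzy⟩ := h1
  have h2 : sumLog K z = 0 := sumLog_eq_zero_of_mem K hz
  have h3 : ∀ w : InfinitePlace K, w ≠ w₀ → z w = y w := fun w hw =>
    congrFun hzy ⟨w, hw⟩
  have h4 : z = y := by
    funext w
    by_cases hw : w = w₀
    · have e1 : ∑ w, z w = 0 := h2
      rw [Fintype.sum_eq_add_sum_subtype_ne _ w₀] at e1 hy
      have e2 : ∑ i : {i : InfinitePlace K // i ≠ w₀}, z i.1
          = ∑ i : {i : InfinitePlace K // i ≠ w₀}, y i.1 :=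
        Finset.sum_congr rfl fun i _ => h3 i.1 i.2
      rw [e2] at e1
      rw [hw]
      linarith
    · exact h3 w hw
  rw [← h4]
  exact hz

end logspan

end Fermat.Agent.S56.EC.H15

end

end
-- ==== END Fermat.Agent.S56.EC.H15_TrLeaves

-- ==== BEGIN Fermat.Agent.S56.EC.H27_TrAlg
section

set_option autoImplicit false

/-!
# EC / UBR / TR (helper27): linear algebra

* `trace_funLeft`  : the trace of `f ↦ f ∘ t` on `X → R` is the number of fixed points of `t`;
* `trace_realize`  : a `ℤ`-lattice with basis `e`, realised in a vector space `V` so that the images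
                     of the basis together with one fixed vector `v₀` span `V` and
                     `#basis + 1 = dim V`:  `tr_V(π) = tr_Λ(β) + 1`.
-/

noncomputable section

namespace Fermat.Agent.S56.EC.H27

open Module

/-- The trace of `f ↦ f ∘ t` on `X → R` is the number of fixed points of `t`. -/
theorem trace_funLeft (R : Type*) [CommRing R] {X : Type*} [Fintype X] [DecidableEq X]
    (t : X → X) :
    LinearMap.trace R (X → R) (LinearMap.funLeft R R t) =
      ((Finset.univ.filter fun x => t x = x).card : R) := by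
  rw [LinearMap.trace_eq_matrix_trace R (Pi.basisFun R X), Matrix.trace]
  simp only [Matrix.diag_apply, LinearMap.toMatrix_apply, Pi.basisFun_apply, Pi.basisFun_repr,
    LinearMap.funLeft_apply]
  rw [Finset.card_filter, Nat.cast_sum]
  refine Finset.sum_congr rfl fun x _ => ?_
  by_cases h : t x = x
  · rw [if_pos h, Nat.cast_one, h, Pi.single_eq_same]
  · rw [Pi.single_eq_of_ne h, if_neg h, Nat.cast_zero]

/-- Realisation lemma. -/
theorem trace_realize {M : Type*} [AddCommGroup M] {I : Type*} [Fintype I] [DecidableEq I]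
    (e : Basis I ℤ M) (β : M →ₗ[ℤ] M) {F : Type*} [Field F] {V : Type*} [AddCommGroup V]
    [Module F V] [FiniteDimensional F V] (π : V →ₗ[F] V) (Φ : M →+ V)
    (hΦ : ∀ m, Φ (β m) = π (Φ m)) (v₀ : V) (hv₀ : π v₀ = v₀)
    (hspan : ⊤ ≤ Submodule.span F (Set.range (fun j : Option I => j.elim v₀ (fun i => Φ (e i)))))
    (hcard : Fintype.card (Option I) = finrank F V) :
    LinearMap.trace F V π = ((LinearMap.trace ℤ M β : ℤ) : F) + 1 := by
  classical
  set f : Option I → V := fun j => j.elim v₀ (fun i => Φ (e i)) with hf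
  set 𝔅 : Basis (Option I) F V := basisOfTopLeSpanOfCardEqFinrank f hspan hcard with h𝔅
  have h𝔅f : ∀ j, 𝔅 j = f j := fun j => by
    rw [h𝔅, coe_basisOfTopLeSpanOfCardEqFinrank]
  rw [LinearMap.trace_eq_matrix_trace F 𝔅, Matrix.trace,
    LinearMap.trace_eq_matrix_trace ℤ e, Matrix.trace, Fintype.sum_option]
  simp only [Matrix.diag_apply, LinearMap.toMatrix_apply]
  have hnone : 𝔅.repr (π (𝔅 none)) none = 1 := by
    have : π (𝔅 none) = 𝔅 none := by
      rw [h𝔅f]
      exact hv₀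
    rw [this, Basis.repr_self, Finsupp.single_eq_same]
  have hsome : ∀ i : I, 𝔅.repr (π (𝔅 (some i))) (some i) = ((e.repr (β (e i)) i : ℤ) : F) := by
    intro i
    have h1 : 𝔅 (some i) = Φ (e i) := (h𝔅f (some i)).trans rfl
    have h2 : π (Φ (e i)) = ∑ k, ((e.repr (β (e i)) k : ℤ) : F) • 𝔅 (some k) := by
      rw [← hΦ]
      conv_lhs => rw [← e.sum_repr (β (e i))]
      rw [map_sum]
      refine Finset.sum_congr rfl fun k _ => ?_
      rw [map_zsmul, h𝔅f]
      show _ = ((e.repr (β (e i)) k : ℤ) : F) • Φ (e k)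
      rw [Int.cast_smul_eq_zsmul]
    rw [h1, h2, map_sum, Finsupp.finsetSum_apply]
    rw [Finset.sum_eq_single i]
    · rw [map_smul, Basis.repr_self, Finsupp.smul_apply, Finsupp.single_eq_same, smul_eq_mul,
        mul_one]
    · intro k _ hk
      rw [map_smul, Basis.repr_self, Finsupp.smul_apply, Finsupp.single_eq_of_ne, smul_zero]
      exact fun h => hk (Option.some_injective _ h).symm
    · intro h
      exact absurd (Finset.mem_univ i) h
  rw [hnone, Int.cast_sum, add_comm]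
  congr 1
  exact Finset.sum_congr rfl fun i _ => hsome i

end Fermat.Agent.S56.EC.H27

end

end
-- ==== END Fermat.Agent.S56.EC.H27_TrAlg

-- ==== BEGIN Fermat.Agent.S56.EC.H31_BridgeAbs
section

/-!
# S56 / EC / UBR, leaf BRIDGE: the abstract counting lemmas (helper31)

* `card_fixed_eq` : if `Ψ : G → X` is onto with fibres the left cosets of `D`, and `C (Ψ x)` holds
  iff `x⁻¹ b x ∈ D`, then the fixed points of `b` on `G ⧸ D` are as many as the `w : X` with `C w`.
* `card_fixed_of_stabilizer` : for a transitive action of `G` on `X` and `D` the stabilizer of a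
  point, the fixed points of `b` on `G ⧸ D` are as many as the fixed points of `b` on `X`.
-/

set_option autoImplicit false

namespace Fermat.Agent.S56.EC.H31

theorem card_fixed_eq {G X : Type} [Group G] (D : Subgroup G) (Ψ : G → X) (C : X → Prop) (b : G)
    (hΨ : ∀ x x', Ψ x = Ψ x' ↔ x⁻¹ * x' ∈ D)
    (hsurj : Function.Surjective Ψ)
    (hC : ∀ x, C (Ψ x) ↔ x⁻¹ * b * x ∈ D) :
    Nat.card {c : G ⧸ D // b • c = c} = Nat.card {w : X // C w} := by
  let Φ : G ⧸ D → X := fun c => Quotient.liftOn' c Ψ (fun x x' h => by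
    rw [QuotientGroup.leftRel_apply] at h
    exact (hΨ x x').mpr h)
  have hΦ : ∀ x : G, Φ (x : G ⧸ D) = Ψ x := fun x => rfl
  have hinj : Function.Injective Φ := by
    intro c c' h
    induction c using QuotientGroup.induction_on with
    | H x =>
      induction c' using QuotientGroup.induction_on with
      | H x' =>
        rw [hΦ, hΦ] at h
        exact QuotientGroup.eq.mpr ((hΨ x x').mp h)
  have hsur : Function.Surjective Φ := by
    intro w
    obtain ⟨x, hx⟩ := hsurj w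
    exact ⟨(x : G ⧸ D), hx⟩
  have hfix : ∀ c : G ⧸ D, b • c = c ↔ C (Φ c) := by
    intro c
    induction c using QuotientGroup.induction_on with
    | H x =>
      rw [hΦ, hC, MulAction.Quotient.smul_mk, QuotientGroup.eq, smul_eq_mul, mul_inv_rev]
      constructor
      · intro h
        have := D.inv_mem h
        simpa [mul_assoc] using this
      · intro h
        have := D.inv_mem h
        simpa [mul_assoc] using this
  exact Nat.card_congr ((Equiv.ofBijective Φ ⟨hinj, hsur⟩).subtypeEquiv hfix)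

theorem card_fixed_of_stabilizer {G X : Type} [Group G] [MulAction G X]
    [MulAction.IsPretransitive G X] (x₀ : X) (D : Subgroup G)
    (hD : D = MulAction.stabilizer G x₀) (b : G) :
    Nat.card {c : G ⧸ D // b • c = c} = Nat.card {x : X // b • x = x} := by
  refine card_fixed_eq D (fun g => g • x₀) (fun x => b • x = x) b ?_ ?_ ?_
  · intro x x'
    rw [hD, MulAction.mem_stabilizer_iff, mul_smul, inv_smul_eq_iff]
    exact eq_comm
  · intro x
    exact MulAction.exists_smul_eq G x₀ x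
  · intro x
    rw [hD, MulAction.mem_stabilizer_iff, mul_smul, mul_smul, inv_smul_eq_iff]

end Fermat.Agent.S56.EC.H31

end
-- ==== END Fermat.Agent.S56.EC.H31_BridgeAbs
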