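-- GENERATED (merged mirror, NOTES/tools/trim/merge3_helper67.py): 8 modules of the originals, bodies verbatim.
import Fermat.Prelude.Def_GaloisRep_CompletionBridge
import Mathlib
import Fermat.Agent.Zm.S56_L01_002
import Fermat.Agent.Zm.S56_L01_003
import Fermat.Agent.Zm.S56_L01_005
import Fermat.Agent.Zm.S56_L01_004

-- ==== BEGIN Fermat.Agent.S55.CFT.H96_DegBound
section

set_option autoImplicit false

open NumberField

namespace Fermat.Agent.S55.CFT.H96

/-- `e f ≤ n`. -/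
theorem ef_le_finrank (K : Type) [Field K] [NumberField K] (q : ℕ) [Fact q.Prime]
    (𝔭 : Ideal (𝓞 K)) [h1 : 𝔭.IsPrime] [h2 : 𝔭.LiesOver (Ideal.span {(q : ℤ)})] :
    𝔭.ramificationIdx ℤ * 𝔭.inertiaDeg ℤ ≤ Module.finrank ℚ K := by
  classical
  have hq : (Ideal.span {(q : ℤ)}).IsPrime :=
    (Int.ideal_span_isMaximal_of_prime q).isPrime
  have hfin : Fintype ((Ideal.span {(q : ℤ)}).primesOver (𝓞 K)) :=
    (Algebra.QuasiFinite.finite_primesOver (Ideal.span {(q : ℤ)})).fintype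
  have hsum := Ideal.sum_ramification_inertia_eq_finrank (Ideal.span {(q : ℤ)}) (𝓞 K)
  rw [RingOfIntegers.rank] at hsum
  rw [← hsum]
  exact Finset.single_le_sum
    (f := fun P : (Ideal.span {(q : ℤ)}).primesOver (𝓞 K) =>
      P.1.ramificationIdx ℤ * P.1.inertiaDeg ℤ)
    (fun _ _ => Nat.zero_le _) (Finset.mem_univ ⟨𝔭, h1, h2⟩)

/-- A lower bound for `e f` in a number field containing a primitive `p ^ (M + 1)`-th root of
unity. -/
theorem le_ef_of_primitiveRoot (p M q N : ℕ) (hp : p.Prime) [hq : Fact q.Prime]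
    (L : Type) [Field L] [NumberField L] {ζ : L} (hζ : IsPrimitiveRoot ζ (p ^ (M + 1)))
    (hM : q * N + N ≤ M)
    (𝔓 : Ideal (𝓞 L)) [h1 : 𝔓.IsPrime] [h2 : 𝔓.LiesOver (Ideal.span {(q : ℤ)})] :
    N ≤ 𝔓.ramificationIdx ℤ * 𝔓.inertiaDeg ℤ := by
  have hne : NeZero (p ^ (M + 1)) := ⟨(pow_pos hp.pos _).ne'⟩
  have hC : IsCyclotomicExtension {p ^ (M + 1)} ℚ (IntermediateField.adjoin ℚ {ζ}) :=
    hζ.intermediateField_adjoin_isCyclotomicExtension ℚ
  set C := IntermediateField.adjoin ℚ {ζ} with hCdef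
  set 𝔮 : Ideal (𝓞 C) := 𝔓.under (𝓞 C) with h𝔮
  have h𝔮p : 𝔮.IsPrime := Ideal.IsPrime.under (𝓞 C) 𝔓
  have h𝔓𝔮 : 𝔓.LiesOver 𝔮 := Ideal.over_under 𝔓
  have h𝔮q : 𝔮.LiesOver (Ideal.span {(q : ℤ)}) := Ideal.LiesOver.tower_bot 𝔓 𝔮 _
  have te : 𝔓.ramificationIdx ℤ = 𝔮.ramificationIdx ℤ * 𝔓.ramificationIdx (𝓞 C) :=
    Ideal.ramificationIdx_tower 𝔮 𝔓
  have tf : 𝔓.inertiaDeg ℤ = 𝔮.inertiaDeg ℤ * 𝔓.inertiaDeg (𝓞 C) :=
    Ideal.inertiaDeg_tower 𝔮 𝔓
  have pe : 0 < 𝔓.ramificationIdx (𝓞 C) := 𝔓.ramificationIdx_pos (𝓞 C)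
  have pf : 0 < 𝔓.inertiaDeg (𝓞 C) := 𝔓.inertiaDeg_pos (𝓞 C)
  have pe' : 0 < 𝔮.ramificationIdx ℤ := 𝔮.ramificationIdx_pos ℤ
  have pf' : 0 < 𝔮.inertiaDeg ℤ := 𝔮.inertiaDeg_pos ℤ
  have key : N ≤ 𝔮.ramificationIdx ℤ * 𝔮.inertiaDeg ℤ := by
    by_cases hqp : q = p
    · subst hqp
      have he := IsCyclotomicExtension.Rat.ramificationIdx_eq_of_prime_pow q M C 𝔮
      have h3 : N < 2 ^ M := lt_of_le_of_lt (by nlinarith) (Nat.lt_two_pow_self (n := M))
      have h4 : 2 ^ M ≤ q ^ M := Nat.pow_le_pow_left hp.two_le M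
      have h5 : q ^ M ≤ q ^ M * (q - 1) := Nat.le_mul_of_pos_right _ (by have := hp.two_le; omega)
      calc N ≤ 𝔮.ramificationIdx ℤ := by rw [he]; omega
        _ ≤ 𝔮.ramificationIdx ℤ * 𝔮.inertiaDeg ℤ := Nat.le_mul_of_pos_right _ pf'
    · have hndvd : ¬ q ∣ p ^ (M + 1) := by
        intro hd
        exact hqp ((Nat.prime_dvd_prime_iff_eq hq.out hp).mp (hq.out.dvd_of_dvd_pow hd))
      have hf := IsCyclotomicExtension.Rat.inertiaDeg_eq_of_not_dvd q C 𝔮 hndvd
      have hcop : Nat.Coprime q (p ^ (M + 1)) :=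
        (Nat.Prime.coprime_iff_not_dvd hq.out).mpr hndvd
      have hpow : q ^ N ≤ p ^ (M + 1) := by
        calc q ^ N ≤ (2 ^ q) ^ N := Nat.pow_le_pow_left (Nat.lt_two_pow_self).le N
          _ = 2 ^ (q * N) := by rw [← pow_mul]
          _ ≤ p ^ (q * N) := Nat.pow_le_pow_left hp.two_le _
          _ ≤ p ^ (M + 1) := Nat.pow_le_pow_right hp.pos (by omega)
      have ho := le_orderOf_of_pow_le q (p ^ (M + 1)) N hq.out.two_le hcop hpow
      calc N ≤ 𝔮.inertiaDeg ℤ := by rw [hf]; exact ho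
        _ ≤ 𝔮.ramificationIdx ℤ * 𝔮.inertiaDeg ℤ := Nat.le_mul_of_pos_left _ pe'
  rw [te, tf]
  calc N ≤ 𝔮.ramificationIdx ℤ * 𝔮.inertiaDeg ℤ := key
    _ ≤ (𝔮.ramificationIdx ℤ * 𝔮.inertiaDeg ℤ) * (𝔓.ramificationIdx (𝓞 C) * 𝔓.inertiaDeg (𝓞 C)) :=
        Nat.le_mul_of_pos_right _ (Nat.mul_pos pe pf)
    _ = _ := by ring

end Fermat.Agent.S55.CFT.H96

end
-- ==== END Fermat.Agent.S55.CFT.H96_DegBound

-- ==== BEGIN Fermat.Agent.S55.CFT.H96_DegPGroup
section

set_option autoImplicit false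

namespace Fermat.Agent.S55.CFT.H96

/-- If `K` contains a primitive `p`-th root of unity and `L = K(ζ_{p^(M+1)})`, every automorphism of
`L/K` is killed by `p ^ M`. -/
theorem aut_pow_eq_one (p M : ℕ) (hp : p.Prime) (K L : Type) [Field K] [Field L] [Algebra K L]
    [IsCyclotomicExtension {p ^ (M + 1)} K L] (hζK : ∃ ζ : K, IsPrimitiveRoot ζ p)
    [NeZero (p ^ (M + 1))] {ζ : L} (hζ : IsPrimitiveRoot ζ (p ^ (M + 1)))
    (σ : L ≃ₐ[K] L) : σ ^ (p ^ M) = 1 := by
  obtain ⟨ζK, hζK⟩ := hζK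
  have hnp : NeZero p := ⟨hp.ne_zero⟩
  have hζ' : IsPrimitiveRoot (ζ ^ (p ^ M)) p :=
    hζ.pow (pow_pos hp.pos _) (pow_succ p M)
  have hζK' : IsPrimitiveRoot (algebraMap K L ζK) p :=
    hζK.map_of_injective (algebraMap K L).injective
  obtain ⟨i, -, hi⟩ := hζK'.eq_pow_of_pow_eq_one hζ'.pow_eq_one
  have hfix : σ (ζ ^ (p ^ M)) = ζ ^ (p ^ M) := by
    rw [← hi, map_pow, AlgEquiv.commutes]
  have hspec := hζ.autToPow_spec K σ
  set a : ℕ := ((hζ.autToPow K σ : (ZMod (p ^ (M + 1)))ˣ) : ZMod (p ^ (M + 1))).val with ha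
  have h1 : (ζ ^ (p ^ M)) ^ a = ζ ^ (p ^ M) := by
    rw [← pow_mul, mul_comm, pow_mul, hspec, ← map_pow, hfix]
  have hne1 : ζ ^ (p ^ M) ≠ 1 := hζ'.ne_one hp.one_lt
  have ha0 : a ≠ 0 := by
    intro h0
    rw [h0, pow_zero] at h1
    exact hne1 h1.symm
  have h2 : (ζ ^ (p ^ M)) ^ (a - 1) = 1 := by
    have h3 : (ζ ^ (p ^ M)) ^ (a - 1) * ζ ^ (p ^ M) = 1 * ζ ^ (p ^ M) := by
      rw [← pow_succ, Nat.sub_add_cancel (Nat.one_le_iff_ne_zero.mpr ha0), one_mul]
      exact h1
    exact mul_right_cancel₀ (hζ'.ne_zero hp.ne_zero) h3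
  have h4 : p ∣ a - 1 := (hζ'.pow_eq_one_iff_dvd _).mp h2
  have h5 : a ≡ 1 [MOD p] := ((Nat.modEq_iff_dvd' (Nat.one_le_iff_ne_zero.mpr ha0)).mpr h4).symm
  have h6 := zmod_pow_prime_pow_eq_one p M a h5
  have h7 : (hζ.autToPow K σ) ^ (p ^ M) = 1 := by
    apply Units.ext
    rw [Units.val_pow_eq_pow_val, Units.val_one, ← h6, ha, ZMod.natCast_zmod_val]
  apply hζ.autToPow_injective K
  rw [map_pow, map_one]
  exact h7

/-- If `K` contains a primitive `p`-th root of unity, the degree of `K(ζ_{p^(M+1)})/K` is a power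
of `p`. -/
theorem finrank_eq_prime_pow (p M : ℕ) (hp : p.Prime) (K L : Type) [Field K] [Field L]
    [CharZero K] [Algebra K L] [IsCyclotomicExtension {p ^ (M + 1)} K L]
    (hζK : ∃ ζ : K, IsPrimitiveRoot ζ p) : ∃ a : ℕ, Module.finrank K L = p ^ a := by
  have hne : NeZero (p ^ (M + 1)) := ⟨(pow_pos hp.pos _).ne'⟩
  have hgal : IsGalois K L := IsCyclotomicExtension.isGalois {p ^ (M + 1)} K L
  have hfd : FiniteDimensional K L := IsCyclotomicExtension.finiteDimensional {p ^ (M + 1)} K L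
  have hζ := IsCyclotomicExtension.zeta_spec (p ^ (M + 1)) K L
  have hpg : IsPGroup p (L ≃ₐ[K] L) := fun σ => ⟨M, aut_pow_eq_one p M hp K L hζK hζ σ⟩
  have : Fact p.Prime := ⟨hp⟩
  obtain ⟨a, ha⟩ := (IsPGroup.iff_card).mp hpg
  exact ⟨a, by rw [← ha, IsGalois.card_aut_eq_finrank]⟩

end Fermat.Agent.S55.CFT.H96

end
-- ==== END Fermat.Agent.S55.CFT.H96_DegPGroup

-- ==== BEGIN Fermat.Agent.S55.Coh.Defs
section

set_option autoImplicit false

open CategoryTheory Module groupCohomology ExtCitation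

noncomputable section

namespace Fermat.Agent.S55

variable {k : Type} [Field k]

/-- The local Galois group at `q`. -/
abbrev Gl (q : Nat.Primes) : Type := primeLocalGaloisGroup q

/-- The map `Gal(Q̄_q/ℚ_q) → Gal(Q̄/ℚ)`. -/
abbrev rl (q : Nat.Primes) : Gl q →* GQ := primeLocalToGlobal q

/-! ### Differentials, written out -/

section diff

variable (M : Rep.{0} k GQ)

/-- `d⁰ : M → (G → M)`. -/
def dZero (m : M) : GQ → M := fun g => M.ρ g m - m

/-- `d¹ : (G → M) → (G × G → M)`. -/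
def dOne (f : GQ → M) : GQ × GQ → M := fun x => M.ρ x.1 (f x.2) - f (x.1 * x.2) + f x.1

/-- `d² : (G × G → M) → (G × G × G → M)`. -/
def dTwo (f : GQ × GQ → M) : GQ × GQ × GQ → M := fun x =>
  M.ρ x.1 (f (x.2.1, x.2.2)) - f (x.1 * x.2.1, x.2.2) + f (x.1, x.2.1 * x.2.2) - f (x.1, x.2.1)

/-- `d³ : (G × G × G → M) → (G × G × G × G → M)`. -/
def dThree (f : GQ × GQ × GQ → M) : GQ × GQ × GQ × GQ → M := fun x =>
  M.ρ x.1 (f (x.2.1, x.2.2.1, x.2.2.2)) - f (x.1 * x.2.1, x.2.2.1, x.2.2.2)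
    + f (x.1, x.2.1 * x.2.2.1, x.2.2.2) - f (x.1, x.2.1, x.2.2.1 * x.2.2.2)
    + f (x.1, x.2.1, x.2.2.1)

/-- Local `d⁰` at `q` (the local group acts through `rl q`). -/
def dZeroL (q : Nat.Primes) (m : M) : Gl q → M := fun h => M.ρ (rl q h) m - m

/-- Local `d¹` at `q`. -/
def dOneL (q : Nat.Primes) (f : Gl q → M) : Gl q × Gl q → M :=
  fun x => M.ρ (rl q x.1) (f x.2) - f (x.1 * x.2) + f x.1

/-- Local `d²` at `q`. -/
def dTwoL (q : Nat.Primes) (f : Gl q × Gl q → M) : Gl q × Gl q × Gl q → M := fun x =>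
  M.ρ (rl q x.1) (f (x.2.1, x.2.2)) - f (x.1 * x.2.1, x.2.2) + f (x.1, x.2.1 * x.2.2)
    - f (x.1, x.2.1)

end diff

/-! ### Level conditions -/

/-- Level-`S` constancy for functions of three variables. -/
def IsLevS₃ (S : Finset Nat.Primes) {X : Type*} (f : GQ × GQ × GQ → X) : Prop :=
  ∃ F : IntermediateField ℚ (AlgebraicClosure ℚ), F.IsUnramifiedOutside S ∧
    ∀ g₁ g₂ g₃ s₁ s₂ s₃ : GQ, s₁ ∈ F.fixingSubgroup → s₂ ∈ F.fixingSubgroup →
      s₃ ∈ F.fixingSubgroup → f (g₁ * s₁, g₂ * s₂, g₃ * s₃) = f (g₁, g₂, g₃)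

/-- Restriction of a global function of one variable to the local group at `q`. -/
def resOne (q : Nat.Primes) {X : Type*} (f : GQ → X) : Gl q → X := fun h => f (rl q h)

/-- Restriction of a global function of two variables to the local group at `q`. -/
def resTwo (q : Nat.Primes) {X : Type*} (f : GQ × GQ → X) : Gl q × Gl q → X :=
  fun x => f (rl q x.1, rl q x.2)

/-- Restriction of a global function of three variables to the local group at `q`. -/
def resThree (q : Nat.Primes) {X : Type*} (f : GQ × GQ × GQ → X) : Gl q × Gl q × Gl q → X :=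
  fun x => f (rl q x.1, rl q x.2.1, rl q x.2.2)

/-! ### Global cocycles and coboundaries of level `S` -/

section globalCocycles

variable (S : Finset Nat.Primes) (M : Rep.{0} k GQ)

/-- Level-`S` 1-cocycles. -/
def IsZ1S (b : GQ → M) : Prop := dOne M b = 0 ∧ IsLevelConstantS₁ S b

/-- Level-`S` 2-cocycles. -/
def IsZ2S (a : GQ × GQ → M) : Prop := dTwo M a = 0 ∧ IsLevelConstantS₂ S a

/-- Level-`S` 2-coboundaries. -/
def IsB2S (a : GQ × GQ → M) : Prop := ∃ f : GQ → M, IsLevelConstantS₁ S f ∧ dOne M f = a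

end globalCocycles

/-! ### Cone cochains -/

section cone

variable (S : Finset Nat.Primes) (M : Rep.{0} k GQ)

/-- Cone 1-cochains: a global 1-cochain and a local 0-cochain at each `q ∈ S`. -/
abbrev C1c : Type := (GQ → M) × (∀ _ : ↥S, M)

/-- Cone 2-cochains. -/
abbrev C2c : Type := (GQ × GQ → M) × (∀ q : ↥S, Gl q.1 → M)

/-- Cone 3-cochains. -/
abbrev C3c : Type := (GQ × GQ × GQ → M) × (∀ q : ↥S, Gl q.1 × Gl q.1 → M)

/-- Cone 1-cocycles: `d f = 0`, `f` of level `S`, `res_q f = d m_q`. -/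
def IsZ1c (y : C1c S M) : Prop :=
  IsZ1S S M y.1 ∧ ∀ q : ↥S, resOne q.1 y.1 = dZeroL M q.1 (y.2 q)

/-- Cone 1-coboundaries: `(d m, (m)_q)`. -/
def IsB1c (y : C1c S M) : Prop :=
  ∃ m : M, y.1 = dZero M m ∧ ∀ q : ↥S, y.2 q = m

/-- Cone 2-cocycles: `d f = 0`, `f` of level `S`, `g_q` level constant, `res_q f = d g_q`. -/
def IsZ2c (x : C2c S M) : Prop :=
  IsZ2S S M x.1 ∧ ∀ q : ↥S, IsLevelConstant₁ (rl q.1) (x.2 q) ∧
    resTwo q.1 x.1 = dOneL M q.1 (x.2 q)

/-- Cone 2-coboundaries: `(d f, (res_q f - d m_q)_q)`, `f` of level `S`. -/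
def IsB2c (x : C2c S M) : Prop :=
  ∃ (f : GQ → M) (m : ∀ _ : ↥S, M), IsLevelConstantS₁ S f ∧ x.1 = dOne M f ∧
    ∀ q : ↥S, x.2 q = resOne q.1 f - dZeroL M q.1 (m q)

/-- Cone 3-cocycles. -/
def IsZ3c (x : C3c S M) : Prop :=
  (dThree M x.1 = 0 ∧ IsLevS₃ S x.1) ∧ ∀ q : ↥S, IsLevelConstant₂ (rl q.1) (x.2 q) ∧
    resThree q.1 x.1 = dTwoL M q.1 (x.2 q)

/-- Cone 3-coboundaries: `(d f, (res_q f - d g_q)_q)`, `f` of level `S`, `g_q` level constant. -/
def IsB3c (x : C3c S M) : Prop :=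
  ∃ (f : GQ × GQ → M) (g : ∀ q : ↥S, Gl q.1 → M), IsLevelConstantS₂ S f ∧
    (∀ q : ↥S, IsLevelConstant₁ (rl q.1) (g q)) ∧ x.1 = dTwo M f ∧
    ∀ q : ↥S, x.2 q = resTwo q.1 f - dOneL M q.1 (g q)

end cone

/-! ### The pairing `M × M' → k(χ)` and the cup products into cone 3-cochains of `k(χ)` -/

section cup

variable (S : Finset Nat.Primes) (χ : GQ →* kˣ) (M : Rep.{0} k GQ)

/-- The twisted dual `M' = Hom(M, k)(χ)`. -/
abbrev Md : Rep k GQ := M.dualTwist χ

/-- The coefficient module `k(χ)`. -/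
abbrev kχ : Rep k GQ := ofChar χ

/-- Evaluation `M × M' → k`. -/
def ev (m : M) (φ : Md χ M) : k := (show Module.Dual k M from φ) m

/-- Cone on the left, degrees `(2, 1)`: `(f, g) ∪ b = (f ∪ b, g ∪ res b)`. -/
def cupA2 (x : C2c S M) (b : GQ → Md χ M) : C3c S (kχ χ) :=
  (fun t => ev χ M (x.1 (t.1, t.2.1)) ((Md χ M).ρ (t.1 * t.2.1) (b t.2.2)),
   fun q t => ev χ M (x.2 q t.1) ((Md χ M).ρ (rl q.1 t.1) (b (rl q.1 t.2))))

/-- Cone on the left, degrees `(3, 0)`: `(f, h) ∪ m' = (f ∪ m', h ∪ m')`. -/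
def cupA3 (x : C3c S M) (m' : Md χ M) : C3c S (kχ χ) :=
  (fun t => ev χ M (x.1 t) ((Md χ M).ρ (t.1 * t.2.1 * t.2.2) m'),
   fun q t => ev χ M (x.2 q t) ((Md χ M).ρ (rl q.1 (t.1 * t.2)) m'))

/-- Cone on the right, degrees `(2, 1)`: `a ∪ (f', m') = (a ∪ f', res a ∪ m')`. -/
def cupB1 (a : GQ × GQ → M) (y : C1c S (Md χ M)) : C3c S (kχ χ) :=
  (fun t => ev χ M (a (t.1, t.2.1)) ((Md χ M).ρ (t.1 * t.2.1) (y.1 t.2.2)),
   fun q t => ev χ M (a (rl q.1 t.1, rl q.1 t.2)) ((Md χ M).ρ (rl q.1 (t.1 * t.2)) (y.2 q)))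

/-- Cone on the right, degrees `(1, 2)`: `a ∪ (f', g') = (a ∪ f', - res a ∪ g')`. -/
def cupB2 (a : GQ → M) (y : C2c S (Md χ M)) : C3c S (kχ χ) :=
  (fun t => ev χ M (a t.1) ((Md χ M).ρ t.1 (y.1 (t.2.1, t.2.2))),
   fun q t => - ev χ M (a (rl q.1 t.1)) ((Md χ M).ρ (rl q.1 t.1) (y.2 q t.2)))

end cup

/-! ### Traces and the four duality properties -/

section props

variable (S : Finset Nat.Primes) (χ : GQ →* kˣ)

/-- A trace: a linear functional on cone 3-cochains of `k(χ)` which kills the cone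
3-coboundaries.  (Only its values on cone 3-cocycles matter.) -/
structure Trace where
  /-- the functional -/
  toFun : C3c S (kχ χ) →ₗ[k] k
  /-- it kills coboundaries -/
  zero_of_isB3c : ∀ x : C3c S (kχ χ), IsB3c S (kχ χ) x → toFun x = 0

variable {S χ} (tr : Trace S χ) (M : Rep.{0} k GQ)

/-- `α²` is onto: every functional on `H¹_S(M')` is `b ↦ tr (x ∪ b)` for a cone 2-cocycle `x`
of `M`. -/
def AlphaTwoEpi : Prop :=
  ∀ φ : (GQ → Md χ M) →ₗ[k] k, (∀ m' : Md χ M, φ (dZero (Md χ M) m') = 0) →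
    ∃ x : C2c S M, IsZ2c S M x ∧
      ∀ b : GQ → Md χ M, IsZ1S S (Md χ M) b → tr.toFun (cupA2 S χ M x b) = φ b

/-- `α³` is injective: a cone 3-cocycle of `M` which pairs to zero with all invariants of `M'`
is a cone 3-coboundary. -/
def AlphaThreeMono : Prop :=
  ∀ x : C3c S M, IsZ3c S M x →
    (∀ m' : Md χ M, (∀ g : GQ, (Md χ M).ρ g m' = m') → tr.toFun (cupA3 S χ M x m') = 0) →
    IsB3c S M x

/-- `β¹` is onto: every functional on `H²_S(M)` is `a ↦ tr (a ∪ y)` for a cone 1-cocycle `y`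
of `M'`. -/
def BetaOneEpi : Prop :=
  ∀ φ : (GQ × GQ → M) →ₗ[k] k, (∀ a : GQ × GQ → M, IsB2S S M a → φ a = 0) →
    ∃ y : C1c S (Md χ M), IsZ1c S (Md χ M) y ∧
      ∀ a : GQ × GQ → M, IsZ2S S M a → tr.toFun (cupB1 S χ M a y) = φ a

/-- `β²` is injective: a cone 2-cocycle of `M'` which pairs to zero with all level-`S`
1-cocycles of `M` is a cone 2-coboundary. -/
def BetaTwoMono : Prop :=
  ∀ y : C2c S (Md χ M), IsZ2c S (Md χ M) y →
    (∀ a : GQ → M, IsZ1S S M a → tr.toFun (cupB2 S χ M a y) = 0) →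
    IsB2c S (Md χ M) y

end props

/-! ### Admissibility, short exact sequences, permutation modules, dévissage classes -/

section classes

variable (S : Finset Nat.Primes)

/-- `M` has level `S`: some finite extension of `ℚ` unramified outside `S` acts trivially. -/
def Lev (M : Rep.{0} k GQ) : Prop :=
  ∃ F : IntermediateField ℚ (AlgebraicClosure ℚ), F.IsUnramifiedOutside S ∧
    ∀ s ∈ F.fixingSubgroup, ∀ m : M, M.ρ s m = m

/-- The character `χ` has level `S`. -/
def LevChar (χ : GQ →* kˣ) : Prop :=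
  ∃ F : IntermediateField ℚ (AlgebraicClosure ℚ), F.IsUnramifiedOutside S ∧
    ∀ s ∈ F.fixingSubgroup, χ s = 1

/-- A short exact sequence `0 → M₁ → M → M₂ → 0` of representations. -/
def IsSES {M₁ M M₂ : Rep.{0} k GQ} (i : M₁ ⟶ M) (π : M ⟶ M₂) : Prop :=
  Function.Injective i.hom ∧ Function.Surjective π.hom ∧
    ∀ m : M, π.hom m = 0 ↔ ∃ m₁ : M₁, i.hom m₁ = m

/-- `M` is a retract of `N`. -/
def IsRetract (M N : Rep.{0} k GQ) : Prop :=
  ∃ (i : M ⟶ N) (r : N ⟶ M), ∀ m : M, r.hom (i.hom m) = m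

/-- The permutation module `k[G_ℚ/G_K]`. -/
abbrev permRep (k : Type) [Field k] (K : IntermediateField ℚ (AlgebraicClosure ℚ)) :
    Rep.{0} k GQ :=
  Rep.ofMulAction k GQ (GQ ⧸ K.fixingSubgroup)

/-- Modules built from `0` by successive extensions with SUBmodule `≅ k[G/G_K]`. -/
inductive DevL (k : Type) [Field k] (S : Finset Nat.Primes)
    (K : IntermediateField ℚ (AlgebraicClosure ℚ)) : Rep.{0} k GQ → Prop
  | zero (M : Rep.{0} k GQ) : Subsingleton M → DevL k S K M
  | ext (M₁ M M₂ : Rep.{0} k GQ) (i : M₁ ⟶ M) (π : M ⟶ M₂) : IsSES i π →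
      Nonempty (M₁ ≅ permRep k K) → Lev S M₁ → Lev S M → Lev S M₂ →
      DevL k S K M₂ → DevL k S K M

/-- Modules built from `0` by successive extensions with QUOTIENT `≅ k[G/G_K]`. -/
inductive DevR (k : Type) [Field k] (S : Finset Nat.Primes)
    (K : IntermediateField ℚ (AlgebraicClosure ℚ)) : Rep.{0} k GQ → Prop
  | zero (M : Rep.{0} k GQ) : Subsingleton M → DevR k S K M
  | ext (M₁ M M₂ : Rep.{0} k GQ) (i : M₁ ⟶ M) (π : M ⟶ M₂) : IsSES i π →
      Nonempty (M₂ ≅ permRep k K) → Lev S M₁ → Lev S M → Lev S M₂ →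
      DevR k S K M₁ → DevR k S K M

/-- The base fields: finite, unramified outside `S`, containing a primitive `p`-th root of
unity. -/
def IsBaseField (p : ℕ) (K : IntermediateField ℚ (AlgebraicClosure ℚ)) : Prop :=
  K.IsUnramifiedOutside S ∧ ∃ ζ : AlgebraicClosure ℚ, ζ ∈ K ∧ IsPrimitiveRoot ζ p

end classes

end Fermat.Agent.S55

end

end
-- ==== END Fermat.Agent.S55.Coh.Defs

-- ==== BEGIN Fermat.Agent.S55.Top.ShapiroCup
section

set_option autoImplicit false
set_option linter.unusedSectionVars false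
set_option linter.unusedSimpArgs false

namespace Fermat.Agent.S55.Top

namespace OrbitData

variable {k : Type} [CommRing k] {Γ : Type} [Group Γ] {X : Type} [MulAction Γ X] {R : Type}
  (D : OrbitData Γ X R)

/-! ### Cup products of coordinate cochains -/

/-- degrees `(1, 0)`. -/
def cup10 (A : Γ → X → k) (m : X → k) : Γ → X → k := fun g x => A g x * m (g⁻¹ • x)

/-- degrees `(2, 0)`. -/
def cup20 (A : Γ × Γ → X → k) (m : X → k) : Γ × Γ → X → k :=
  fun t x => A t x * m (t.2⁻¹ • t.1⁻¹ • x)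

/-- degrees `(3, 0)`. -/
def cup30 (A : Γ × Γ × Γ → X → k) (m : X → k) : Γ × Γ × Γ → X → k :=
  fun t x => A t x * m (t.2.2⁻¹ • t.2.1⁻¹ • t.1⁻¹ • x)

/-- degrees `(0, 1)`. -/
def cup01 (m : X → k) (A : Γ → X → k) : Γ → X → k := fun g x => m x * A g x

/-- degrees `(0, 2)`. -/
def cup02 (m : X → k) (A : Γ × Γ → X → k) : Γ × Γ → X → k := fun t x => m x * A t x

/-- degrees `(1, 1)`. -/
def cup11 (A B : Γ → X → k) : Γ × Γ → X → k := fun t x => A t.1 x * B t.2 (t.1⁻¹ • x)

/-- degrees `(2, 1)`. -/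
def cup21 (A : Γ × Γ → X → k) (B : Γ → X → k) : Γ × Γ × Γ → X → k :=
  fun t x => A (t.1, t.2.1) x * B t.2.2 (t.2.1⁻¹ • t.1⁻¹ • x)

/-- degrees `(1, 2)`. -/
def cup12 (A : Γ → X → k) (B : Γ × Γ → X → k) : Γ × Γ × Γ → X → k :=
  fun t x => A t.1 x * B (t.2.1, t.2.2) (t.1⁻¹ • x)

/-! ### Cup products of pure cochains -/

/-- pure, degrees `(2, 0)`. -/
def pc20 (a : R → Γ × Γ → k) (m : R → k) : R → Γ × Γ → k := fun r t => a r t * m r

/-- pure, degrees `(1, 1)`. -/
def pc11 (a b : R → Γ → k) : R → Γ × Γ → k := fun r t => a r t.1 * b r t.2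

/-- pure, degrees `(2, 1)`. -/
def pc21 (a : R → Γ × Γ → k) (b : R → Γ → k) : R → Γ × Γ × Γ → k :=
  fun r t => a r (t.1, t.2.1) * b r t.2.2

/-- pure, degrees `(1, 2)`. -/
def pc12 (a : R → Γ → k) (b : R → Γ × Γ → k) : R → Γ × Γ × Γ → k :=
  fun r t => a r t.1 * b r (t.2.1, t.2.2)

/-! ### Induction is multiplicative -/

lemma ind2_pc20 (a : R → Γ × Γ → k) (m : R → k) :
    D.ind2 (pc20 a m) = cup20 (D.ind2 a) (D.ind0 m) := by
  funext t x
  simp only [ind2, pc20, cup20, ind0, D.o_smul]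

lemma ind2_pc11 (a b : R → Γ → k) : D.ind2 (pc11 a b) = cup11 (D.ind1 a) (D.ind1 b) := by
  funext t x
  simp only [ind2, pc11, cup11, ind1, D.o_smul]

lemma ind3_pc21 (a : R → Γ × Γ → k) (b : R → Γ → k) :
    D.ind3 (pc21 a b) = cup21 (D.ind2 a) (D.ind1 b) := by
  funext t x
  simp only [ind3, pc21, cup21, ind2, ind1, D.o_smul]

lemma ind3_pc12 (a : R → Γ → k) (b : R → Γ × Γ → k) :
    D.ind3 (pc12 a b) = cup12 (D.ind1 a) (D.ind2 b) := by
  funext t x
  simp only [ind3, pc12, cup12, ind2, ind1, D.o_smul]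

/-! ### The Leibniz rule -/

lemma d1_cup10 (V : Γ → X → k) (β : X → k) :
    d1 (cup10 V β) = cup20 (d1 V) β - cup11 V (d0 β) := by
  funext t x
  simp only [d1, cup10, cup20, cup11, d0, Pi.sub_apply, mul_inv_rev, mul_smul]
  ring

lemma d2_cup20 (A : Γ × Γ → X → k) (β : X → k) :
    d2 (cup20 A β) = cup30 (d2 A) β + cup21 A (d0 β) := by
  funext t x
  simp only [d2, cup20, cup30, cup21, d0, Pi.add_apply, mul_inv_rev, mul_smul]
  ring

lemma d1_cup01 (α : X → k) (V : Γ → X → k) :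
    d1 (cup01 α V) = cup11 (d0 α) V + cup02 α (d1 V) := by
  funext t x
  simp only [d1, cup01, cup02, cup11, d0, Pi.add_apply]
  ring

/-- degrees `(0, 3)`. -/
def cup03 (m : X → k) (A : Γ × Γ × Γ → X → k) : Γ × Γ × Γ → X → k := fun t x => m x * A t x

lemma d2_cup02 (α : X → k) (B : Γ × Γ → X → k) :
    d2 (cup02 α B) = cup12 (d0 α) B + cup03 α (d2 B) := by
  funext t x
  simp only [d2, cup02, cup03, cup12, d0, Pi.add_apply]
  ring

lemma cup30_zero (β : X → k) : cup30 (fun (_ : Γ × Γ × Γ) (_ : X) => (0 : k)) β = 0 := by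
  funext t x
  simp [cup30]

lemma cup03_zero (α : X → k) : cup03 α (fun (_ : Γ × Γ × Γ) (_ : X) => (0 : k)) = 0 := by
  funext t x
  simp [cup03]

/-! ### The homotopy and cup products with induced cochains -/

lemma hty3_cup21_ind (A : Γ × Γ → X → k) (c : R → Γ → k) (hc : ∀ r, c r 1 = 0) :
    D.hty3 (cup21 A (D.ind1 c)) = cup11 (D.hty2 A) (D.ind1 c) := by
  funext t x
  obtain ⟨g₁, g₂⟩ := t
  have h1 := D.cc_inv_smul g₁ x
  have h2 := D.t_smul (g₁⁻¹ • x)
  rw [D.o_smul] at h2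
  have h3 := D.cc_inv_smul g₂ (g₁⁻¹ • x)
  rw [D.o_smul] at h3
  have h4 := D.cc_t_inv (g₂⁻¹ • g₁⁻¹ • x)
  rw [D.o_smul, D.o_smul] at h4
  simp only [hty3, cup21, cup11, hty2, ind1, inv_inv, D.t_smul, D.o_rep, D.o_smul, h1, h2, h3,
    h4, hc, mul_zero, add_zero]
  ring

lemma hty3_cup12_ind (c : R → Γ → k) (B : Γ × Γ → X → k) (hc : ∀ r, c r 1 = 0) :
    D.hty3 (cup12 (D.ind1 c) B) = - cup11 (D.ind1 c) (D.hty2 B) := by
  funext t x
  obtain ⟨g₁, g₂⟩ := t
  have h1 := D.cc_inv_smul g₁ x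
  have h2 := D.cc_t_inv x
  have h3 := D.cc_of_stab (D.o x) (D.cc g₁ x) (D.cc_smul g₁ x)
  simp only [hty3, cup12, cup11, hty2, ind1, inv_inv, D.t_smul, D.o_rep, D.o_smul, h1, h2, h3,
    hc, zero_mul, zero_sub, Pi.neg_apply]
  ring

/-! ### Values at the representatives -/

lemma hty1_rep (B : Γ → X → k) (r : R) : D.hty1 B (D.rep r) = B 1 (D.rep r) := by
  simp [hty1, D.t_rep, D.o_rep]

lemma ind2_sh2_cup20 (A : Γ × Γ → X → k) (β : X → k) (hβ : ∀ r, β (D.rep r) = 0) :
    D.ind2 (D.sh2 (cup20 A β)) = 0 := by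
  funext t x
  have h1 := D.cc_inv_smul t.1 x
  have h2 := D.cc_inv_smul t.2 (t.1⁻¹ • x)
  rw [D.o_smul] at h2
  simp [ind2, sh2, cup20, h1, h2, hβ]

lemma ind2_sh2_cup02 (α : X → k) (B : Γ × Γ → X → k) (hα : ∀ r, α (D.rep r) = 0) :
    D.ind2 (D.sh2 (cup02 α B)) = 0 := by
  funext t x
  simp [ind2, sh2, cup02, hα]

end OrbitData

end Fermat.Agent.S55.Top

end
-- ==== END Fermat.Agent.S55.Top.ShapiroCup

-- ==== BEGIN Fermat.Agent.S56.EC.H47_IndProj
section

set_option autoImplicit false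
set_option linter.style.haveILetI false
set_option linter.unusedSectionVars false

/-!
# Cluster T / S56, GW-CORE, package EC: the projector of an induced module (helper47)

Pure algebra, generic field `k` and finite group `G`.  For `V = Ind_B^G W` in the sense of
`IND.IsInducedFrom ρ B W` (`W` is `B`-stable, the translates of `W` span `V`,
`dim V = [G : B] dim W`) the module `V` is the direct sum of the translates `ρ(g) W`, `g ∈ G/B`.
`indProj h : V →ₗ[k] V` is the projector onto `W` along the other translates: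

* `indProj_of_mem`     : `e w = w` for `w ∈ W`;
* `indProj_rho_of_not_mem` : `e (ρ g w) = 0` for `g ∉ B`, `w ∈ W`;
* `indProj_mem`        : `e v ∈ W`;
* `indProj_comm`       : `e (ρ b v) = ρ b (e v)` for `b ∈ B`;
* `sum_conj_indProj`   : `∑ g, ρ g (e (ρ g⁻¹ v)) = #B • v`.

Summary: `exists_indProj`, `exists_relProj` (if `#B` is invertible in `k`, then
`s₀ = (#B)⁻¹ e` satisfies `∑ g, ρ g ∘ s₀ ∘ ρ g⁻¹ = id`: `V` is a projective `k[G]`-module).
Used by SHAPlb and KDALG.
-/

noncomputable section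

namespace Fermat.Agent.S56.EC.H47

open Fermat.Agent.S56 Module
open scoped Classical

section IndProj

variable {k : Type} [Field k] {G : Type} [Group G] [Fintype G]
variable {V : Type} [AddCommGroup V] [Module k V]

section defs

variable (ρ : Representation k G V) (B : Subgroup G) (W : Submodule k V)

/-- `(w_c) ↦ ∑ c, ρ (out c) (w c)`, `Fun(G/B, W) → V`. -/
def cosetSum : ((G ⧸ B) → W) →ₗ[k] V :=
  ∑ c : G ⧸ B, (ρ (Quotient.out c) ∘ₗ W.subtype) ∘ₗ LinearMap.proj c

lemma cosetSum_apply (w : (G ⧸ B) → W) :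
    cosetSum ρ B W w = ∑ c : G ⧸ B, ρ (Quotient.out c) (w c : V) := by
  simp [cosetSum]

lemma cosetSum_single (c : G ⧸ B) (w : W) :
    cosetSum ρ B W (Pi.single c w) = ρ (Quotient.out c) (w : V) := by
  rw [cosetSum_apply, Finset.sum_eq_single c]
  · rw [Pi.single_eq_same]
  · intro x _ hx
    rw [Pi.single_eq_of_ne hx]
    simp
  · intro h
    exact absurd (Finset.mem_univ c) h

lemma out_inv_mul_mem (g : G) : (Quotient.out (g : G ⧸ B))⁻¹ * g ∈ B := by
  rw [← QuotientGroup.eq]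
  exact QuotientGroup.out_eq' _

lemma out_one_mem : Quotient.out ((1 : G) : G ⧸ B) ∈ B := by
  have h := out_inv_mul_mem B (1 : G)
  rw [mul_one] at h
  exact (Subgroup.inv_mem_iff B).1 h

end defs

variable {ρ : Representation k G V} {B : Subgroup G} {W : Submodule k V}

/-- The translate `ρ g w` as a value of `cosetSum`. -/
lemma rho_eq_cosetSum (hB : ∀ b ∈ B, ∀ w ∈ W, ρ b w ∈ W) (g : G) (w : W) :
    ρ g (w : V) = cosetSum ρ B W (Pi.single (g : G ⧸ B)
      ⟨ρ ((Quotient.out (g : G ⧸ B))⁻¹ * g) w, hB _ (out_inv_mul_mem B g) _ w.2⟩) := by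
  rw [cosetSum_single]
  show ρ g (w : V) = ρ (Quotient.out (g : G ⧸ B)) (ρ ((Quotient.out (g : G ⧸ B))⁻¹ * g) w)
  rw [← Module.End.mul_apply, ← map_mul, mul_inv_cancel_left]

/-- Two linear maps which agree on the translates of `W` are equal. -/
lemma ext_of_induced (h : IND.IsInducedFrom ρ B W) {X : Type} [AddCommGroup X] [Module k X]
    (f f' : V →ₗ[k] X) (hff : ∀ (g : G) (w : W), f (ρ g w) = f' (ρ g w)) : f = f' := by
  have h1 : (⊤ : Submodule k V) ≤ LinearMap.eqLocus f f' := by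
    rw [← h.2.1]
    refine iSup_le fun g => ?_
    rintro _ ⟨w, hw, rfl⟩
    exact hff g ⟨w, hw⟩
  exact LinearMap.ext fun v => h1 Submodule.mem_top

lemma cosetSum_surjective (h : IND.IsInducedFrom ρ B W) :
    Function.Surjective (cosetSum ρ B W) := by
  rw [← LinearMap.range_eq_top, eq_top_iff, ← h.2.1]
  refine iSup_le fun g => ?_
  rintro _ ⟨w, hw, rfl⟩
  exact ⟨_, (rho_eq_cosetSum h.1 g ⟨w, hw⟩).symm⟩

variable [FiniteDimensional k V]

lemma cosetSum_injective (h : IND.IsInducedFrom ρ B W) :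
    Function.Injective (cosetSum ρ B W) := by
  have hdim : finrank k ((G ⧸ B) → W) = finrank k V := by
    rw [Module.finrank_pi_fintype, Finset.sum_const, Finset.card_univ, smul_eq_mul, h.2.2,
      Subgroup.index_eq_card, Nat.card_eq_fintype_card]
  exact (LinearMap.injective_iff_surjective_of_finrank_eq_finrank hdim).2
    (cosetSum_surjective h)

/-- The equivalence `Fun(G/B, W) ≃ V`. -/
def cosetEquiv (h : IND.IsInducedFrom ρ B W) : ((G ⧸ B) → W) ≃ₗ[k] V :=
  LinearEquiv.ofBijective (cosetSum ρ B W) ⟨cosetSum_injective h, cosetSum_surjective h⟩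

lemma cosetEquiv_apply (h : IND.IsInducedFrom ρ B W) (w : (G ⧸ B) → W) :
    cosetEquiv h w = cosetSum ρ B W w := rfl

/-- The projector onto `W` along the other translates of `W`. -/
def indProj (h : IND.IsInducedFrom ρ B W) : V →ₗ[k] V :=
  ((ρ (Quotient.out ((1 : G) : G ⧸ B)) ∘ₗ W.subtype) ∘ₗ
    LinearMap.proj ((1 : G) : G ⧸ B)) ∘ₗ (cosetEquiv h).symm.toLinearMap

lemma indProj_apply (h : IND.IsInducedFrom ρ B W) (v : V) :
    indProj h v = ρ (Quotient.out ((1 : G) : G ⧸ B))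
      (((cosetEquiv h).symm v ((1 : G) : G ⧸ B) : W) : V) := rfl

/-- The projector on a translate. -/
theorem indProj_rho (h : IND.IsInducedFrom ρ B W) (g : G) (w : W) :
    indProj h (ρ g (w : V)) = if g ∈ B then ρ g (w : V) else 0 := by
  have h1 : (cosetEquiv h).symm (ρ g (w : V)) = Pi.single (g : G ⧸ B)
      ⟨ρ ((Quotient.out (g : G ⧸ B))⁻¹ * g) w, h.1 _ (out_inv_mul_mem B g) _ w.2⟩ := by
    rw [LinearEquiv.symm_apply_eq, cosetEquiv_apply]
    exact rho_eq_cosetSum h.1 g w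
  rw [indProj_apply, h1]
  by_cases hg : g ∈ B
  · rw [if_pos hg]
    have h2 : ((g : G) : G ⧸ B) = ((1 : G) : G ⧸ B) := by
      rw [QuotientGroup.eq]
      simpa using B.inv_mem hg
    rw [← h2, Pi.single_eq_same]
    show ρ (Quotient.out (g : G ⧸ B)) (ρ ((Quotient.out (g : G ⧸ B))⁻¹ * g) w) = ρ g (w : V)
    rw [← Module.End.mul_apply, ← map_mul, mul_inv_cancel_left]
  · rw [if_neg hg]
    have h2 : ((1 : G) : G ⧸ B) ≠ ((g : G) : G ⧸ B) := by
      intro h3
      rw [QuotientGroup.eq] at h3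
      apply hg
      simpa using h3
    rw [Pi.single_eq_of_ne h2]
    simp

theorem indProj_of_mem (h : IND.IsInducedFrom ρ B W) {w : V} (hw : w ∈ W) :
    indProj h w = w := by
  have h1 := indProj_rho h (1 : G) ⟨w, hw⟩
  rw [if_pos B.one_mem, map_one] at h1
  exact h1

theorem indProj_rho_of_not_mem (h : IND.IsInducedFrom ρ B W) {g : G} (hg : g ∉ B) {w : V}
    (hw : w ∈ W) : indProj h (ρ g w) = 0 := by
  have h1 := indProj_rho h g ⟨w, hw⟩
  rw [if_neg hg] at h1
  exact h1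

theorem indProj_mem (h : IND.IsInducedFrom ρ B W) (v : V) : indProj h v ∈ W := by
  rw [indProj_apply]
  exact h.1 _ (out_one_mem B) _ (Subtype.property _)

theorem indProj_comm (h : IND.IsInducedFrom ρ B W) {b : G} (hb : b ∈ B) (v : V) :
    indProj h (ρ b v) = ρ b (indProj h v) := by
  have h1 : indProj h ∘ₗ ρ b = ρ b ∘ₗ indProj h := by
    refine ext_of_induced h _ _ (fun g w => ?_)
    show indProj h (ρ b (ρ g (w : V))) = ρ b (indProj h (ρ g (w : V)))
    have h2 : ρ b (ρ g (w : V)) = ρ (b * g) (w : V) := by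
      rw [map_mul, Module.End.mul_apply]
    rw [h2, indProj_rho h (b * g) w, indProj_rho h g w]
    by_cases hg : g ∈ B
    · rw [if_pos hg, if_pos (B.mul_mem hb hg), h2]
    · have hbg : b * g ∉ B := fun h3 => hg (by
        have := B.mul_mem (B.inv_mem hb) h3
        simpa using this)
      rw [if_neg hg, if_neg hbg, map_zero]
  exact LinearMap.congr_fun h1 v

/-- The relative trace of the projector is multiplication by `#B`. -/
theorem sum_conj_indProj (h : IND.IsInducedFrom ρ B W) (v : V) :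
    ∑ g : G, ρ g (indProj h (ρ g⁻¹ v)) = (Nat.card B : k) • v := by
  have h1 : (∑ g : G, (ρ g ∘ₗ indProj h) ∘ₗ ρ g⁻¹) = (Nat.card B : k) • LinearMap.id := by
    refine ext_of_induced h _ _ (fun x w => ?_)
    rw [LinearMap.sum_apply, LinearMap.smul_apply, LinearMap.id_apply]
    have h2 : ∀ g : G, ((ρ g ∘ₗ indProj h) ∘ₗ ρ g⁻¹) (ρ x (w : V)) =
        if g⁻¹ * x ∈ B then ρ x (w : V) else 0 := by
      intro g
      show ρ g (indProj h (ρ g⁻¹ (ρ x (w : V)))) = _
      have h3 : ρ g⁻¹ (ρ x (w : V)) = ρ (g⁻¹ * x) (w : V) := by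
        rw [map_mul, Module.End.mul_apply]
      rw [h3, indProj_rho h (g⁻¹ * x) w]
      by_cases hg : g⁻¹ * x ∈ B
      · rw [if_pos hg, if_pos hg, ← Module.End.mul_apply, ← map_mul, mul_inv_cancel_left]
      · rw [if_neg hg, if_neg hg, map_zero]
    rw [Finset.sum_congr rfl (fun g _ => h2 g)]
    have h4 : ∑ g : G, (if g⁻¹ * x ∈ B then ρ x (w : V) else 0) =
        ∑ y : G, (if y ∈ B then ρ x (w : V) else 0) :=
      Fintype.sum_equiv ((Equiv.inv G).trans (Equiv.mulRight x)) _ _ (fun g => rfl)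
    rw [h4, Finset.sum_ite, Finset.sum_const_zero, add_zero, Finset.sum_const,
      ← Nat.cast_smul_eq_nsmul k]
    congr 2
    rw [Nat.card_eq_fintype_card, Fintype.card_subtype]
  have h5 := LinearMap.congr_fun h1 v
  rw [LinearMap.sum_apply, LinearMap.smul_apply, LinearMap.id_apply] at h5
  exact h5

end IndProj

/-- **Projector of an induced module**, summary. -/
theorem exists_indProj {k : Type} [Field k] {G : Type} [Group G] [Finite G]
    {V : Type} [AddCommGroup V] [Module k V] [FiniteDimensional k V]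
    (ρ : Representation k G V) (B : Subgroup G) (W : Submodule k V)
    (h : IND.IsInducedFrom ρ B W) :
    ∃ e : V →ₗ[k] V, (∀ w ∈ W, e w = w) ∧ (∀ g : G, g ∉ B → ∀ w ∈ W, e (ρ g w) = 0) ∧
      (∀ v, e v ∈ W) ∧ (∀ b ∈ B, ∀ v, e (ρ b v) = ρ b (e v)) ∧
      ∀ [Fintype G], ∀ v, ∑ g : G, ρ g (e (ρ g⁻¹ v)) = (Nat.card B : k) • v := by
  letI inst0 : Fintype G := Fintype.ofFinite G
  refine ⟨indProj h, fun w hw => indProj_of_mem h hw, fun g hg w hw =>
    indProj_rho_of_not_mem h hg hw, indProj_mem h, fun b hb v => indProj_comm h hb v, ?_⟩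
  intro inst v
  have h0 : inst = inst0 := Subsingleton.elim _ _
  rw [h0]
  exact @sum_conj_indProj k _ G _ inst0 V _ _ ρ B W _ h v

/-- **Relative projectivity**: a module induced from a subgroup of order invertible in `k`
carries an endomorphism `s₀` whose trace over `G` is the identity. -/
theorem exists_relProj {k : Type} [Field k] {G : Type} [Group G] [Finite G]
    {V : Type} [AddCommGroup V] [Module k V] [FiniteDimensional k V]
    (ρ : Representation k G V) (B : Subgroup G) (W : Submodule k V)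
    (h : IND.IsInducedFrom ρ B W) (hB : ((Nat.card B : ℕ) : k) ≠ 0) :
    ∃ s₀ : V →ₗ[k] V, ∀ [Fintype G], ∀ v, ∑ g : G, ρ g (s₀ (ρ g⁻¹ v)) = v := by
  obtain ⟨e, -, -, -, -, he⟩ := exists_indProj ρ B W h
  refine ⟨((Nat.card B : ℕ) : k)⁻¹ • e, ?_⟩
  intro inst v
  have h1 := he v
  simp only [LinearMap.smul_apply, map_smul]
  rw [← Finset.smul_sum, h1, smul_smul, inv_mul_cancel₀ hB, one_smul]

end Fermat.Agent.S56.EC.H47

end

end
-- ==== END Fermat.Agent.S56.EC.H47_IndProj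

-- ==== BEGIN Fermat.Agent.S56.EC.H4_ComplAux
section

set_option autoImplicit false

noncomputable section

namespace Fermat.Agent.S56.EC.H4

open Fermat.Agent.S56.IND Module

variable {k : Type} [Field k] {G : Type} [Group G]

/-! ### Generalities on additive functions -/

section additive

variable {f : Rep.{0} k G → ℤ} (hf : IsAdditiveFn k G f)

include hf

/-- An additive function vanishes on the zero representations. -/
lemma f_eq_zero_of_subsingleton {V : Type} [AddCommGroup V] [Module k V] [Subsingleton V]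
    (ρ : Representation k G V) : f (Rep.of ρ) = 0 := by
  have hst : ∀ g, (⊥ : Submodule k V) ≤ (⊥ : Submodule k V).comap (ρ g) := fun g => bot_le
  have h1 := hf.add ρ ⊥ hst
  have h2 : f (Rep.of ρ) = f (Rep.of (ρ.subrepresentation ⊥ hst)) := by
    refine hf.iso ρ (ρ.subrepresentation ⊥ hst) ⟨⟨⟨fun _ => 0, ?_⟩, ?_⟩, fun _ => 0, ?_, ?_⟩ ?_
    · intro x y; simp
    · intro c x; simp
    · intro x; exact Subsingleton.elim _ _
    · intro x; exact Subsingleton.elim _ _
    · intro g v; exact Subsingleton.elim _ _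
  have h3 : f (Rep.of ρ) = f (Rep.of (ρ.quotient ⊥ hst)) := by
    refine hf.iso ρ (ρ.quotient ⊥ hst) ⟨⟨⟨fun _ => 0, ?_⟩, ?_⟩, fun _ => 0, ?_, ?_⟩ ?_
    · intro x y; simp
    · intro c x; simp
    · intro x; exact Subsingleton.elim _ _
    · intro x; exact Subsingleton.elim _ _
    · intro g v; exact Subsingleton.elim _ _
  rw [← h2, ← h3] at h1
  linarith

/-- Additivity on short exact sequences. -/
lemma f_ses {V₁ V V₂ : Type} [AddCommGroup V₁] [Module k V₁] [AddCommGroup V] [Module k V]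
    [AddCommGroup V₂] [Module k V₂] [FiniteDimensional k V]
    (ρ₁ : Representation k G V₁) (ρ : Representation k G V) (ρ₂ : Representation k G V₂)
    (i : V₁ →ₗ[k] V) (π : V →ₗ[k] V₂) (hi : Function.Injective i) (hπ : Function.Surjective π)
    (hex : LinearMap.range i = LinearMap.ker π)
    (hic : ∀ g v, i (ρ₁ g v) = ρ g (i v)) (hπc : ∀ g v, π (ρ g v) = ρ₂ g (π v)) :
    f (Rep.of ρ) = f (Rep.of ρ₁) + f (Rep.of ρ₂) := by
  have hst : ∀ g, LinearMap.ker π ≤ (LinearMap.ker π).comap (ρ g) := by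
    intro g v hv
    rw [Submodule.mem_comap, LinearMap.mem_ker, hπc, LinearMap.mem_ker.1 hv, map_zero]
  have h1 := hf.add ρ (LinearMap.ker π) hst
  have h2 : f (Rep.of (ρ.subrepresentation (LinearMap.ker π) hst)) = f (Rep.of ρ₁) := by
    let e : V₁ ≃ₗ[k] LinearMap.ker π :=
      (LinearEquiv.ofInjective i hi).trans (LinearEquiv.ofEq _ _ hex)
    have he : ∀ v, ((e v : LinearMap.ker π) : V) = i v := fun v => rfl
    refine hf.iso _ _ e.symm ?_
    intro g w
    apply hi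
    rw [hic, ← he, ← he, LinearEquiv.apply_symm_apply, LinearEquiv.apply_symm_apply]
    rfl
  have h3 : f (Rep.of (ρ.quotient (LinearMap.ker π) hst)) = f (Rep.of ρ₂) := by
    refine hf.iso _ _ (π.quotKerEquivOfSurjective hπ) ?_
    intro g v
    obtain ⟨v, rfl⟩ := Submodule.Quotient.mk_surjective _ v
    exact hπc g v
  rw [h1, h2, h3]

end additive

/-! ### The representation on functions `G → U` -/

/-- The representation of `G` on the functions `G → U`: `(g • φ) x = φ (g⁻¹ * x)`. -/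
def funRep (k : Type) [Field k] (G : Type) [Group G] (U : Type) [AddCommGroup U] [Module k U] :
    Representation k G (G → U) where
  toFun g :=
    { toFun := fun φ x => φ (g⁻¹ * x)
      map_add' := fun _ _ => rfl
      map_smul' := fun _ _ => rfl }
  map_one' := by
    ext φ x
    simp
  map_mul' g h := by
    ext φ x
    simp [mul_assoc]

@[simp] lemma funRep_apply {U : Type} [AddCommGroup U] [Module k U] (g : G) (φ : G → U) (x : G) :
    funRep k G U g φ x = φ (g⁻¹ * x) := rfl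

section funRep

variable [Finite G] {f : Rep.{0} k G → ℤ} (hf : IsAdditiveFn k G f)

include hf

/-- `f (Fun(G, U)) = dim U · f (k[G])`. -/
lemma f_funRep : ∀ (n : ℕ) (U : Type) [AddCommGroup U] [Module k U] [FiniteDimensional k U],
    finrank k U = n →
    f (Rep.of (funRep k G U)) = n * f (Rep.of (permRep k G G)) := by
  intro n
  induction n with
  | zero =>
    intro U _ _ _ hU
    have : Subsingleton U := Module.finrank_zero_iff.1 hU
    rw [f_eq_zero_of_subsingleton hf]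
    simp
  | succ n ih =>
    intro U _ _ _ hU
    have hpos : 0 < finrank k U := by omega
    obtain ⟨u, hu⟩ := Module.finrank_pos_iff_exists_ne_zero.1 hpos
    -- the exact sequence `0 → Fun(G, k) → Fun(G, U) → Fun(G, U / k u) → 0`
    let L : Submodule k U := k ∙ u
    let i : (G → k) →ₗ[k] (G → U) := (LinearMap.toSpanSingleton k U u).compLeft G
    let π : (G → U) →ₗ[k] (G → U ⧸ L) := (L.mkQ).compLeft G
    have hi : Function.Injective i := by
      intro a b hab
      funext x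
      have := congrFun hab x
      simp only [i, LinearMap.compLeft_apply, Function.comp_apply,
        LinearMap.toSpanSingleton_apply] at this
      exact smul_left_injective k hu this
    have hπ : Function.Surjective π := by
      intro ψ
      refine ⟨fun x => (Submodule.Quotient.mk_surjective L (ψ x)).choose, ?_⟩
      funext x
      exact (Submodule.Quotient.mk_surjective L (ψ x)).choose_spec
    have hex : LinearMap.range i = LinearMap.ker π := by
      ext φ
      simp only [LinearMap.mem_range, LinearMap.mem_ker]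
      constructor
      · rintro ⟨a, rfl⟩
        funext x
        simp only [π, i, LinearMap.compLeft_apply, Function.comp_apply,
          LinearMap.toSpanSingleton_apply, Submodule.mkQ_apply, Pi.zero_apply,
          Submodule.Quotient.mk_eq_zero]
        exact Submodule.smul_mem _ _ (Submodule.mem_span_singleton_self u)
      · intro h
        have h' : ∀ x, φ x ∈ L := by
          intro x
          have := congrFun h x
          simpa [π] using this
        refine ⟨fun x => (Submodule.mem_span_singleton.1 (h' x)).choose, ?_⟩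
        funext x
        exact (Submodule.mem_span_singleton.1 (h' x)).choose_spec
    have hdim : finrank k (U ⧸ L) = n := by
      have h1 := Submodule.finrank_quotient_add_finrank L
      have h2 : finrank k L = 1 := finrank_span_singleton hu
      omega
    have h1 := f_ses hf (funRep k G k) (funRep k G U) (funRep k G (U ⧸ L)) i π hi hπ hex
      (fun g v => rfl) (fun g v => rfl)
    have h2 := ih (U ⧸ L) hdim
    have h3 : f (Rep.of (funRep k G k)) = f (Rep.of (permRep k G G)) :=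
      hf.iso _ _ (LinearEquiv.refl k (G → k)) (fun g v => rfl)
    rw [h1, h2, h3]
    push_cast
    ring

end funRep

end Fermat.Agent.S56.EC.H4

end
end
-- ==== END Fermat.Agent.S56.EC.H4_ComplAux

-- ==== BEGIN Fermat.Agent.S56.FL.Coh
section

set_option autoImplicit false

/-!
# LOC-p-FL (item 69): interface of the counting side (characters) and of CONN

Plan: `NOTES/plan/T-FL.md`.  All statements are about the local Galois group
`Gp p = Gal(K̄/ℚ_p)`, `K̄ = PadicAlgCl p`.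

* `inertiaP p`          : the inertia subgroup of `Gp p`.
* `IsBddCocycle G₁ χ c` : `c : G₁ → k` is a `χ`-cocycle (`c (σ τ) = c σ + χ σ * c τ`) and `χ`, `c` are
                          trivial on `Gal(K̄/L)` for a finite Galois `L/ℚ_p` of bounded ramification.
* `DimLeOne G₁ χ`       : any two bounded `χ`-cocycles are linearly dependent modulo coboundaries
                          (i.e. `dim_k H¹_bdd(G₁, k(χ)) ≤ 1`).
* `Stmt_CC0`, `Stmt_CC1`, `Stmt_CC2` : the three counts that are needed (package UNITS).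
* `pointAct`, `Stmt_SUBQ` : reduction is injective on unramified subquotients (package CONN).
-/

noncomputable section

namespace Fermat.Agent.S56.FL

open scoped NNReal

variable (p : ℕ) [Fact p.Prime]

/-- The local Galois group `Gal(K̄/ℚ_p)`. -/
abbrev Gp : Type := PadicAlgCl p ≃ₐ[ℚ_[p]] PadicAlgCl p

/-- Galois acts by isometries on `K̄` (prelude `nnnorm_padicAlgCl_algEquiv`). -/
theorem norm_gal (σ : Gp p) (a : PadicAlgCl p) : ‖σ a‖ = ‖a‖ :=
  congrArg NNReal.toReal (nnnorm_padicAlgCl_algEquiv p σ a)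

/-- The inertia subgroup of `Gal(K̄/ℚ_p)`: `σ a ≡ a` modulo the maximal ideal for all integers `a`. -/
def inertiaP : Subgroup (Gp p) where
  carrier := {σ | ∀ a : PadicAlgCl p, ‖a‖ ≤ 1 → ‖σ a - a‖ < 1}
  one_mem' := fun a _ => by simp
  mul_mem' := by
    intro σ τ hσ hτ a ha
    have h1 : (σ * τ) a - a = (σ (τ a) - τ a) + (τ a - a) := by
      simp [AlgEquiv.mul_apply]
    rw [h1]
    refine (IsUltrametricDist.norm_add_le_max _ _).trans_lt (max_lt (hσ (τ a) ?_) (hτ a ha))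
    rw [norm_gal]; exact ha
  inv_mem' := by
    intro σ hσ a ha
    have h1 : ‖σ⁻¹ a - a‖ = ‖σ (σ⁻¹ a) - σ⁻¹ a‖ := by
      have : σ (σ⁻¹ a) = a := AlgEquiv.apply_symm_apply σ a
      rw [this, ← norm_neg, neg_sub]
    rw [h1]
    refine hσ _ ?_
    rw [show σ⁻¹ a = (σ⁻¹ : Gp p) a from rfl, norm_gal]; exact ha

variable {p}

section Characters

variable {k : Type} [Field k]

/-- A bounded `χ`-cocycle on the subgroup `G₁` of the local Galois group. -/
def IsBddCocycle (G₁ : Subgroup (Gp p)) (χ : G₁ →* kˣ) (c : G₁ → k) : Prop :=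
  (∀ σ τ : G₁, c (σ * τ) = c σ + (χ σ : k) * c τ) ∧
    ∃ (L : IntermediateField ℚ_[p] (PadicAlgCl p)) (_ : FiniteDimensional ℚ_[p] L),
      Normal ℚ_[p] L ∧ IsBddField p L ∧
        ∀ σ : G₁, (σ : Gp p) ∈ L.fixingSubgroup → χ σ = 1 ∧ c σ = 0

/-- `dim_k H¹_bdd(G₁, k(χ)) ≤ 1`. -/
def DimLeOne (G₁ : Subgroup (Gp p)) (χ : G₁ →* kˣ) : Prop :=
  ∀ c₁ c₂ : G₁ → k, IsBddCocycle G₁ χ c₁ → IsBddCocycle G₁ χ c₂ →
    ∃ l₁ l₂ a : k, (l₁ ≠ 0 ∨ l₂ ≠ 0) ∧ ∀ σ : G₁, l₁ * c₁ σ + l₂ * c₂ σ = ((χ σ : k) - 1) * a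

/-- `χ σ = ω(σ)` (the mod `p` cyclotomic character). -/
def IsCycloAt (x : k) (σ : Gp p) : Prop :=
  ∃ n : ℕ, (n : k) = x ∧ ∀ ζ : PadicAlgCl p, ζ ^ p = 1 → σ ζ = ζ ^ n

end Characters

/-- **CC0.** A bounded homomorphism `G₁ → k` (`G₁ ⊇` inertia) is unramified.
(Proof: else `ker` cuts out a totally ramified cyclic extension of degree `p` of an unramified field;
for such an extension `Σ_τ min (i σ) (i τ) = p · i(σ) ≥ 2 > p/(p-1)`; HERB.) -/
def Stmt_CC0 : Prop :=
  ∀ (p : ℕ) [Fact p.Prime], p ≠ 2 →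
    ∀ (k : Type) [Field k] [CharP k p] (G₁ : Subgroup (Gp p)), inertiaP p ≤ G₁ →
      ∀ c : G₁ → k, IsBddCocycle G₁ (1 : G₁ →* kˣ) c →
        ∀ σ : G₁, (σ : Gp p) ∈ inertiaP p → c σ = 0

/-- **CC1.** `χ : G_{ℚ_p} → kˣ` equal to the cyclotomic character on inertia:
`dim H¹_bdd(G_p, k(χ)) ≤ 1` (only the peu ramifié classes are bounded). -/
def Stmt_CC1 : Prop :=
  ∀ (p : ℕ) [Fact p.Prime], p ≠ 2 →
    ∀ (k : Type) [Field k] [Finite k] [CharP k p] (χ : (⊤ : Subgroup (Gp p)) →* kˣ),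
      (∀ σ : (⊤ : Subgroup (Gp p)), (σ : Gp p) ∈ inertiaP p → IsCycloAt (χ σ : k) (σ : Gp p)) →
      DimLeOne (⊤ : Subgroup (Gp p)) χ

/-- **CC2.** `G₂` of index `2` containing inertia (the Galois group of the unramified quadratic
extension), `χ : G₂ → kˣ` with `χ = ψ^{1-p}` on inertia where `ψ^{p+1}` is the cyclotomic character
on inertia (`ψ` = a fundamental character of level 2 to a power `≡ 1 mod p-1`):
`dim H¹_bdd(G₂, k(χ)) ≤ 1`. -/
def Stmt_CC2 : Prop :=
  ∀ (p : ℕ) [Fact p.Prime], p ≠ 2 →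
    ∀ (k : Type) [Field k] [Finite k] [CharP k p] (G₂ : Subgroup (Gp p)), inertiaP p ≤ G₂ →
      G₂.index = 2 →
      ∀ (χ : G₂ →* kˣ) (ψ : inertiaP p →* kˣ),
        (∀ σ : inertiaP p, IsCycloAt ((ψ σ : k) ^ (p + 1)) (σ : Gp p)) →
        (∀ (σ : G₂) (hσ : (σ : Gp p) ∈ inertiaP p),
          (χ σ : k) * (ψ ⟨σ, hσ⟩ : k) ^ p = (ψ ⟨σ, hσ⟩ : k)) →
        DimLeOne G₂ χ

/-! ## CONN -/

/-- The action of `Gal(K̄/ℚ_p)` on the `K̄`-points of `H`. -/
def pointAct {H : Type} [CommRing H] [HopfAlgebra (Zloc p) H] (σ : Gp p)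
    (x : WithConv (H →ₐ[Zloc p] PadicAlgCl p)) : WithConv (H →ₐ[Zloc p] PadicAlgCl p) :=
  WithConv.toConv (((σ : PadicAlgCl p →ₐ[ℚ_[p]] PadicAlgCl p).restrictScalars (Zloc p)).comp
    x.ofConv)

/-- **SUBQ** (package CONN).  `E` = the group of `K̄`-points of a finite flat cocommutative Hopf
algebra over `ℤ_(p)`, killed by `p` (`p` odd); `E₁ ≤ E₂` Galois-stable subgroups such that inertia
acts trivially on `E₂/E₁` (submonoids of the finite group `E`, so subgroups).  Then a point of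
`E₂` which reduces to the identity
(`‖x h - ε h‖ < 1` for all `h`) lies in `E₁`. -/
def Stmt_SUBQ : Prop :=
  ∀ (p : ℕ) [Fact p.Prime], p ≠ 2 →
    ∀ (H : Type) [CommRing H] [HopfAlgebra (Zloc p) H] [Module.Finite (Zloc p) H]
      [Module.Flat (Zloc p) H] [Coalgebra.IsCocomm (Zloc p) H],
      (∀ x : WithConv (H →ₐ[Zloc p] PadicAlgCl p), x ^ p = 1) →
      ∀ E₁ E₂ : Submonoid (WithConv (H →ₐ[Zloc p] PadicAlgCl p)), E₁ ≤ E₂ →
        (∀ (σ : Gp p), ∀ x ∈ E₁, pointAct σ x ∈ E₁) →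
        (∀ (σ : Gp p), ∀ x ∈ E₂, pointAct σ x ∈ E₂) →
        (∀ σ ∈ inertiaP p, ∀ x ∈ E₂, ∃ y ∈ E₁, pointAct σ x = x * y) →
        ∀ x ∈ E₂, (∀ h : H, ‖x.ofConv h - algebraMap (Zloc p) (PadicAlgCl p) (Coalgebra.counit h)‖ < 1) →
          x ∈ E₁

end Fermat.Agent.S56.FL

end

end
-- ==== END Fermat.Agent.S56.FL.Coh

-- ==== BEGIN Fermat.Agent.S56.FL.H50_CohSSb
section

set_option autoImplicit false
set_option linter.style.haveILetI false

/-!
# LOC-p-FL, package COH-SS (helper50), part b: a plane without stable line, tame structure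

`G` a group, `ρ : G →* End_k(V)`, `dim V = 2`, no `G`-stable line.
* `trivial_of_pgroup` : a normal subgroup acting through a `p`-group acts trivially (`char k = p`);
* `exists_basis_SS`   : with a tame structure `(I, P, φ, s)`: a basis `(v, v')` of eigenvectors of
  `ρ s` for `α ≠ α^p`, with `ρ φ v' = v`.
-/

noncomputable section

namespace Fermat.Agent.S56.FL.H50.SS

open Module Polynomial

variable {p : ℕ} [Fact p.Prime] {k : Type*} [Field k] {V : Type*} [AddCommGroup V] [Module k V]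
  {G : Type*} [Group G]

/-- `ρ` has no stable line. -/
def NoLine (ρ : G →* Module.End k V) : Prop :=
  ¬ ∃ ℓ : Submodule k V, finrank k ℓ = 1 ∧ ∀ σ, ∀ v ∈ ℓ, ρ σ v ∈ ℓ

theorem rho_inv_apply (ρ : G →* Module.End k V) (σ : G) (v : V) : ρ σ⁻¹ (ρ σ v) = v := by
  rw [← Module.End.mul_apply, ← map_mul, inv_mul_cancel, map_one, Module.End.one_apply]

theorem rho_apply_inv (ρ : G →* Module.End k V) (σ : G) (v : V) : ρ σ (ρ σ⁻¹ v) = v := by
  rw [← Module.End.mul_apply, ← map_mul, mul_inv_cancel, map_one, Module.End.one_apply]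

theorem rho_injective (ρ : G →* Module.End k V) (σ : G) : Function.Injective (ρ σ) := by
  intro x y h
  have := congrArg (ρ σ⁻¹) h
  rwa [rho_inv_apply, rho_inv_apply] at this

/-- A common eigenvector spans a stable line. -/
theorem not_noLine_of_eigen (ρ : G →* Module.End k V) {v : V} (hv : v ≠ 0)
    (h : ∀ σ, ∃ a : k, ρ σ v = a • v) : ¬ NoLine ρ := by
  intro hns
  apply hns
  refine ⟨Submodule.span k {v}, finrank_span_singleton hv, fun σ x hx => ?_⟩
  obtain ⟨c, rfl⟩ := Submodule.mem_span_singleton.mp hx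
  obtain ⟨a, ha⟩ := h σ
  rw [map_smul, ha, smul_smul]
  exact Submodule.smul_mem _ _ (Submodule.mem_span_singleton_self v)

/-- The invariants of a subgroup. -/
def fixedSub (ρ : G →* Module.End k V) (P : Subgroup G) : Submodule k V where
  carrier := {v | ∀ w ∈ P, ρ w v = v}
  add_mem' := by
    intro a b ha hb w hw
    rw [map_add, ha w hw, hb w hw]
  zero_mem' := fun w _ => map_zero _
  smul_mem' := by
    intro c a ha w hw
    rw [map_smul, ha w hw]

theorem fixedSub_stable (ρ : G →* Module.End k V) (P : Subgroup G) (hP : P.Normal) (σ : G)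
    {v : V} (hv : v ∈ fixedSub ρ P) : ρ σ v ∈ fixedSub ρ P := by
  intro w hw
  have h1 : σ⁻¹ * w * σ ∈ P := by
    have := hP.conj_mem w hw σ⁻¹
    rwa [inv_inv] at this
  have h2 := hv _ h1
  rw [map_mul, map_mul, Module.End.mul_apply, Module.End.mul_apply] at h2
  have h3 := congrArg (ρ σ) h2
  rwa [rho_apply_inv] at h3

/-- A normal subgroup acting through a `p`-group on a plane without stable line over a finite
field of characteristic `p` acts trivially. -/
theorem trivial_of_pgroup [Finite k] [CharP k p] (hV : finrank k V = 2)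
    (ρ : G →* Module.End k V) (P : Subgroup G) (hPn : P.Normal)
    (hP : ∀ w ∈ P, ∃ N : ℕ, ρ (w ^ (p ^ N)) = 1) (hns : NoLine ρ) :
    ∀ w ∈ P, ρ w = 1 := by
  have hp : p.Prime := Fact.out
  haveI : Module.Finite k V := Module.finite_of_finrank_eq_succ hV
  haveI : Finite V := Module.finite_of_finite k
  -- the image of `P` in the units
  set Q : Subgroup (Module.End k V)ˣ := P.map ρ.toHomUnits with hQ
  have hpQ : IsPGroup p Q := by
    rintro ⟨q, hq⟩
    obtain ⟨w, hw, rfl⟩ := Subgroup.mem_map.mp hq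
    obtain ⟨N, hN⟩ := hP w hw
    refine ⟨N, ?_⟩
    apply Subtype.ext
    apply Units.ext
    simp only [SubgroupClass.coe_pow, Units.val_pow_eq_pow_val, MonoidHom.coe_toHomUnits,
      Subgroup.coe_one, Units.val_one]
    rw [← map_pow, hN]
  -- `p` divides the cardinality of `V`
  have hcard : p ∣ Nat.card V := by
    haveI := Fintype.ofFinite k
    haveI := Fintype.ofFinite V
    rw [Nat.card_eq_fintype_card, Module.card_eq_pow_finrank (K := k) (V := V), hV]
    have h1 : p ∣ Fintype.card k := by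
      obtain ⟨n, hn⟩ := FiniteField.card k p
      rw [hn.2]
      exact dvd_pow_self p (PNat.ne_zero n)
    exact dvd_pow h1 (by norm_num)
  have h0 : (0 : V) ∈ MulAction.fixedPoints Q V := by
    intro q
    show (q : (Module.End k V)ˣ) • (0 : V) = 0
    rw [smul_zero]
  obtain ⟨b, hb, hb0⟩ := hpQ.exists_fixed_point_of_prime_dvd_card_of_fixed_point V hcard h0
  have hbfix : b ∈ fixedSub ρ P := by
    intro w hw
    have := hb ⟨ρ.toHomUnits w, Subgroup.mem_map_of_mem _ hw⟩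
    exact this
  -- the invariants are everything
  have hne : fixedSub ρ P ≠ ⊥ := by
    intro h
    rw [h, Submodule.mem_bot] at hbfix
    exact hb0 hbfix.symm
  have hpos : 0 < finrank k (fixedSub ρ P) := by
    rw [Module.finrank_pos_iff_exists_ne_zero]
    exact ⟨⟨b, hbfix⟩, fun h => hb0 (congrArg Subtype.val h).symm⟩
  have hle : finrank k (fixedSub ρ P) ≤ 2 := hV ▸ Submodule.finrank_le _
  have h2 : finrank k (fixedSub ρ P) = 2 := by
    by_contra hne2
    have h1 : finrank k (fixedSub ρ P) = 1 := by omega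
    exact hns ⟨fixedSub ρ P, h1, fun σ v hv => fixedSub_stable ρ P hPn σ hv⟩
  have htop : fixedSub ρ P = ⊤ := Submodule.eq_top_of_finrank_eq (h2.trans hV.symm)
  intro w hw
  ext v
  have : v ∈ fixedSub ρ P := by rw [htop]; exact Submodule.mem_top
  exact this w hw

theorem pow_apply_eigen {f : Module.End k V} {u : V} {a : k} (h : f u = a • u) (m : ℕ) :
    (f ^ m) u = a ^ m • u := by
  induction m with
  | zero => simp
  | succ m ih => rw [pow_succ, Module.End.mul_apply, h, map_smul, ih, smul_smul, pow_succ']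

omit [Fact (Nat.Prime p)] in
/-- The tame structure of a plane without stable line: eigenvectors `v, v'` of `ρ s` for the
eigenvalues `α ≠ α ^ p`, with `ρ φ v' = v`. -/
theorem exists_basis_SS [Module.Finite k V] (hV : finrank k V = 2) (ρ : G →* Module.End k V)
    (I P : Subgroup G) (φ s : G)
    (hP1 : ∀ w ∈ P, ρ w = 1)
    (hgen : ∀ σ : G, ∃ n : ℕ, ∃ ι ∈ I, ∃ τ : G, ρ τ = 1 ∧ σ = φ ^ n * ι * τ)
    (htame : ∀ ι ∈ I, ∃ n : ℕ, ∃ w ∈ P, ι = s ^ n * w)
    (hconj : ∃ w ∈ P, φ * s * φ⁻¹ = s ^ p * w)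
    (heig : ∀ σ, ∃ α β : k, LinearMap.charpoly (ρ σ) = (X - C α) * (X - C β))
    (hns : NoLine ρ) :
    ∃ (b : Basis (Fin 2) k V) (α : k), α ^ p ≠ α ∧ ρ s (b 0) = α • b 0 ∧
      ρ s (b 1) = α ^ p • b 1 ∧ ρ φ (b 1) = b 0 := by
  -- every element acts as `Φ^n S^m`
  have hall : ∀ σ, ∃ n m : ℕ, ρ σ = ρ φ ^ n * ρ s ^ m := by
    intro σ
    obtain ⟨n, ι, hι, τ, hτ, rfl⟩ := hgen σ
    obtain ⟨m, w, hw, rfl⟩ := htame ι hι
    refine ⟨n, m, ?_⟩
    rw [map_mul, map_mul, map_mul, map_pow, map_pow, hP1 w hw, hτ, mul_one, mul_one]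
  -- `Φ S = S^p Φ`
  have hΦS : ρ φ * ρ s = ρ s ^ p * ρ φ := by
    obtain ⟨w, hw, h⟩ := hconj
    have h1 := congrArg ρ h
    rw [map_mul, map_mul, map_mul, map_pow, hP1 w hw, mul_one] at h1
    have h2 : ρ φ * ρ s * ρ φ⁻¹ * ρ φ = ρ s ^ p * ρ φ := by rw [h1]
    have h3 : ρ φ⁻¹ * ρ φ = 1 := by rw [← map_mul, inv_mul_cancel, map_one]
    rw [mul_assoc (ρ φ * ρ s), h3, mul_one] at h2
    exact h2
  -- existence of eigenvectors
  have heigv : ∀ σ, ∃ (a : k) (u : V), u ≠ 0 ∧ ρ σ u = a • u := by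
    intro σ
    obtain ⟨a, c, hac⟩ := heig σ
    have hroot : (LinearMap.charpoly (ρ σ)).IsRoot a := by
      rw [hac, IsRoot.def, eval_mul, eval_sub, eval_X, eval_C, sub_self, zero_mul]
    have := (Module.End.hasEigenvalue_iff_isRoot_charpoly (ρ σ) a).mpr hroot
    obtain ⟨u, hu⟩ := this.exists_hasEigenvector
    exact ⟨a, u, hu.2, hu.apply_eq_smul⟩
  -- `S` is not a scalar
  have hnotscalar : ∀ a : k, ¬ ∀ x : V, ρ s x = a • x := by
    intro a ha
    obtain ⟨c, u, hu0, hu⟩ := heigv φ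
    refine not_noLine_of_eigen ρ hu0 (fun σ => ?_) hns
    obtain ⟨n, m, hnm⟩ := hall σ
    refine ⟨c ^ n * a ^ m, ?_⟩
    rw [hnm, Module.End.mul_apply, pow_apply_eigen (ha u), map_smul, pow_apply_eigen hu,
      smul_smul, mul_comm]
  obtain ⟨α, v, hv0, hv⟩ := heigv s
  set v' : V := ρ φ⁻¹ v with hv'
  have hΦv' : ρ φ v' = v := rho_apply_inv ρ φ v
  have hv'0 : v' ≠ 0 := by
    intro h
    rw [h, map_zero] at hΦv'
    exact hv0 hΦv'.symm
  have hSp : ∀ m : ℕ, (ρ s ^ m) v = α ^ m • v := pow_apply_eigen hv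
  have hSv' : ρ s v' = α ^ p • v' := by
    apply rho_injective ρ φ
    have h1 := LinearMap.congr_fun hΦS v'
    rw [Module.End.mul_apply, Module.End.mul_apply, hΦv', hSp] at h1
    rw [h1, map_smul, hΦv']
  -- `v'` is not a multiple of `v`
  have hnot : ∀ a : k, a • v' ≠ v := by
    intro a ha
    have ha0 : a ≠ 0 := by
      rintro rfl
      rw [zero_smul] at ha
      exact hv0 ha.symm
    -- `Φ v = a • v`
    have hΦv : ρ φ v = a • v := by
      have h1 := congrArg (ρ φ) ha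
      rw [map_smul, hΦv'] at h1
      exact h1.symm
    refine not_noLine_of_eigen ρ hv0 (fun σ => ?_) hns
    obtain ⟨n, m, hnm⟩ := hall σ
    refine ⟨a ^ n * α ^ m, ?_⟩
    rw [hnm, Module.End.mul_apply, hSp, map_smul, pow_apply_eigen hΦv, smul_smul, mul_comm]
  have hli : LinearIndependent k ![v, v'] := by
    rw [LinearIndependent.pair_iff' hv0]
    intro a ha
    have ha0 : a ≠ 0 := by
      rintro rfl
      rw [zero_smul] at ha
      exact hv'0 ha.symm
    apply hnot a⁻¹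
    rw [← ha, smul_smul, inv_mul_cancel₀ ha0, one_smul]
  set b : Basis (Fin 2) k V := basisOfLinearIndependentOfCardEqFinrank hli
    (by rw [hV]; rfl) with hb
  have hb0 : b 0 = v := by
    rw [hb, coe_basisOfLinearIndependentOfCardEqFinrank]; rfl
  have hb1 : b 1 = v' := by
    rw [hb, coe_basisOfLinearIndependentOfCardEqFinrank]; rfl
  refine ⟨b, α, ?_, ?_, ?_, ?_⟩
  · intro hαp
    apply hnotscalar α
    intro x
    have : ρ s = α • (LinearMap.id : V →ₗ[k] V) := by
      apply b.ext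
      intro i
      fin_cases i
      · show ρ s (b 0) = α • b 0
        rw [hb0, hv]
      · show ρ s (b 1) = α • b 1
        rw [hb1, hSv', hαp]
    rw [this]
    rfl
  · rw [hb0, hv]
  · rw [hb1, hSv']
  · rw [hb1, hb0, hΦv']

/-! ## Matrix form -/

section Mat

variable (b : Basis (Fin 2) k V) (ρ : G →* Module.End k V)

/-- `ρ` in the basis `b`. -/
def matRep : G →* Matrix (Fin 2) (Fin 2) k :=
  ((LinearMap.toMatrixAlgEquiv b : Module.End k V ≃ₐ[k] Matrix (Fin 2) (Fin 2) k) :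
    Module.End k V →* Matrix (Fin 2) (Fin 2) k).comp ρ

/-- The matrix of an endomorphism in the basis `b`. -/
def matOf (f : Module.End k V) : Matrix (Fin 2) (Fin 2) k := LinearMap.toMatrixAlgEquiv b f

theorem matRep_eq (σ : G) : matRep b ρ σ = matOf b (ρ σ) := rfl

theorem matOf_apply (f : Module.End k V) (i j : Fin 2) : matOf b f i j = b.repr (f (b j)) i :=
  LinearMap.toMatrixAlgEquiv_apply b f i j

theorem matOf_mul (f g : Module.End k V) : matOf b (f * g) = matOf b f * matOf b g :=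
  map_mul (LinearMap.toMatrixAlgEquiv b) f g

theorem matOf_add (f g : Module.End k V) : matOf b (f + g) = matOf b f + matOf b g :=
  map_add (LinearMap.toMatrixAlgEquiv b) f g

theorem matOf_sub (f g : Module.End k V) : matOf b (f - g) = matOf b f - matOf b g :=
  map_sub (LinearMap.toMatrixAlgEquiv b) f g

theorem matOf_smul (a : k) (f : Module.End k V) : matOf b (a • f) = a • matOf b f :=
  map_smul (LinearMap.toMatrixAlgEquiv b) a f

theorem matOf_zero : matOf b (0 : Module.End k V) = 0 :=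
  map_zero (LinearMap.toMatrixAlgEquiv b)

theorem matOf_one : matOf b (1 : Module.End k V) = 1 :=
  map_one (LinearMap.toMatrixAlgEquiv b)

theorem matOf_injective : Function.Injective (matOf b : Module.End k V → _) :=
  (LinearMap.toMatrixAlgEquiv b).injective

theorem matOf_surjective : Function.Surjective (matOf b : Module.End k V → _) :=
  (LinearMap.toMatrixAlgEquiv b).surjective

theorem trace_matOf (f : Module.End k V) :
    LinearMap.trace k V f = matOf b f 0 0 + matOf b f 1 1 := by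
  rw [LinearMap.trace_eq_matrix_trace k b, Matrix.trace_fin_two]
  rfl

theorem det_matOf (f : Module.End k V) :
    LinearMap.det f = matOf b f 0 0 * matOf b f 1 1 - matOf b f 0 1 * matOf b f 1 0 := by
  rw [← LinearMap.det_toMatrix b, Matrix.det_fin_two]
  rfl

/-- The column `j` of the matrix of `f` when `f (b j) = c • b i₀`. -/
theorem matOf_of_eigen {f : Module.End k V} {j i₀ : Fin 2} {c : k} (h : f (b j) = c • b i₀)
    (i : Fin 2) : matOf b f i j = if i = i₀ then c else 0 := by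
  rw [matOf_apply, h, map_smul, Basis.repr_self, Finsupp.smul_apply, Finsupp.single_apply,
    smul_eq_mul]
  split_ifs with h1 h2 h2
  · rw [mul_one]
  · exact absurd h1.symm h2
  · exact absurd h2.symm h1
  · rw [mul_zero]

variable {b ρ}

/-- A matrix intertwining two diagonal matrices, the first one with distinct entries, has a zero
in each column. -/
theorem col_zero_of_intertwine {D D' X : Matrix (Fin 2) (Fin 2) k} (hD : IsDiagM D)
    (hD' : IsDiagM D') (hne : D 0 0 ≠ D 1 1) (h : D * X = X * D') (j : Fin 2) :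
    X 0 j = 0 ∨ X 1 j = 0 := by
  have e0 := congrFun (congrFun h 0) j
  have e1 := congrFun (congrFun h 1) j
  rw [mul2_apply, mul2_apply, hD.1] at e0
  rw [mul2_apply, mul2_apply, hD.2] at e1
  by_contra hcon
  rw [not_or] at hcon
  apply hne
  fin_cases j
  · simp only [Fin.zero_eta] at e0 e1 hcon
    rw [hD'.2] at e0 e1
    have h0 : D 0 0 = D' 0 0 := by
      have : X 0 0 * (D 0 0 - D' 0 0) = 0 := by linear_combination e0
      rcases mul_eq_zero.mp this with h | h
      · exact absurd h hcon.1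
      · exact sub_eq_zero.mp h
    have h1 : D 1 1 = D' 0 0 := by
      have : X 1 0 * (D 1 1 - D' 0 0) = 0 := by linear_combination e1
      rcases mul_eq_zero.mp this with h | h
      · exact absurd h hcon.2
      · exact sub_eq_zero.mp h
    rw [h0, h1]
  · simp only [Fin.mk_one] at e0 e1 hcon
    rw [hD'.1] at e0 e1
    have h0 : D 0 0 = D' 1 1 := by
      have : X 0 1 * (D 0 0 - D' 1 1) = 0 := by linear_combination e0
      rcases mul_eq_zero.mp this with h | h
      · exact absurd h hcon.1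
      · exact sub_eq_zero.mp h
    have h1 : D 1 1 = D' 1 1 := by
      have : X 1 1 * (D 1 1 - D' 1 1) = 0 := by linear_combination e1
      rcases mul_eq_zero.mp this with h | h
      · exact absurd h hcon.2
      · exact sub_eq_zero.mp h
    rw [h0, h1]

/-- An invertible matrix with a zero in each column is diagonal or antidiagonal. -/
theorem diag_or_anti_of_col_zero {X X' : Matrix (Fin 2) (Fin 2) k} (hinv : X * X' = 1)
    (h : ∀ j, X 0 j = 0 ∨ X 1 j = 0) : IsDiagM X ∨ IsAntiM X := by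
  have e00 := congrFun (congrFun hinv 0) 0
  have e11 := congrFun (congrFun hinv 1) 1
  rw [mul2_apply] at e00 e11
  simp only [Matrix.one_apply_eq] at e00 e11
  rcases h 0 with h0 | h0 <;> rcases h 1 with h1 | h1
  · rw [h0, h1] at e00
    simp at e00
  · exact Or.inr ⟨h0, h1⟩
  · exact Or.inl ⟨h1, h0⟩
  · rw [h0, h1] at e11
    simp at e11

theorem isDiagM_mul {A B : Matrix (Fin 2) (Fin 2) k} (hA : IsDiagM A) (hB : IsDiagM B) :
    IsDiagM (A * B) := by
  constructor
  · rw [mul2_apply, hA.1, hB.1]; ring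
  · rw [mul2_apply, hA.2, hB.2]; ring

theorem isDiagM_one : IsDiagM (1 : Matrix (Fin 2) (Fin 2) k) := by
  constructor <;> simp

theorem isDiagM_anti_mul {A B : Matrix (Fin 2) (Fin 2) k} (hA : IsAntiM A) (hB : IsAntiM B) :
    IsDiagM (A * B) := by
  constructor
  · rw [mul2_apply, hA.1, hB.2]; ring
  · rw [mul2_apply, hA.2, hB.1]; ring

theorem isAntiM_mul_diag {A B : Matrix (Fin 2) (Fin 2) k} (hA : IsAntiM A) (hB : IsDiagM B) :
    IsAntiM (A * B) := by
  constructor
  · rw [mul2_apply, hA.1, hB.2]; ring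
  · rw [mul2_apply, hA.2, hB.1]; ring

theorem isAntiM_diag_mul {A B : Matrix (Fin 2) (Fin 2) k} (hA : IsDiagM A) (hB : IsAntiM B) :
    IsAntiM (A * B) := by
  constructor
  · rw [mul2_apply, hA.1, hB.1]; ring
  · rw [mul2_apply, hA.2, hB.2]; ring

theorem isDiagM_pow {A : Matrix (Fin 2) (Fin 2) k} (hA : IsDiagM A) (n : ℕ) :
    IsDiagM (A ^ n) ∧ (A ^ n) 0 0 = A 0 0 ^ n ∧ (A ^ n) 1 1 = A 1 1 ^ n := by
  induction n with
  | zero => exact ⟨by rw [pow_zero]; exact isDiagM_one, by simp, by simp⟩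
  | succ n ih =>
    refine ⟨by rw [pow_succ]; exact isDiagM_mul ih.1 hA, ?_, ?_⟩
    · rw [pow_succ, mul2_apply, ih.2.1, hA.2, pow_succ]; ring
    · rw [pow_succ, mul2_apply, ih.2.2, ih.1.2, pow_succ]; ring

/-- An invertible matrix is not both diagonal and antidiagonal. -/
theorem not_diag_and_anti {X X' : Matrix (Fin 2) (Fin 2) k} (hinv : X * X' = 1)
    (hD : IsDiagM X) (hA : IsAntiM X) : False := by
  have e00 := congrFun (congrFun hinv 0) 0
  rw [mul2_apply, hD.1, hA.1] at e00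
  simp at e00

end Mat

omit [Fact (Nat.Prime p)] in
/-- **Structure of a plane without stable line** (tame structure `(I, P, φ, s)`): in a suitable
basis every element acts by a diagonal or an antidiagonal matrix, `φ` acts by an antidiagonal
one, and the elements `ι` of `I` act by `diag(a, a ^ p)`. -/
theorem SS_struct [Module.Finite k V] (hV : finrank k V = 2) (ρ : G →* Module.End k V)
    (I P : Subgroup G) (φ s : G) (hIn : I.Normal) (hs : s ∈ I)
    (hP1 : ∀ w ∈ P, ρ w = 1)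
    (hgen : ∀ σ : G, ∃ n : ℕ, ∃ ι ∈ I, ∃ τ : G, ρ τ = 1 ∧ σ = φ ^ n * ι * τ)
    (htame : ∀ ι ∈ I, ∃ n : ℕ, ∃ w ∈ P, ι = s ^ n * w)
    (hconj : ∃ w ∈ P, φ * s * φ⁻¹ = s ^ p * w)
    (heig : ∀ σ, ∃ α β : k, LinearMap.charpoly (ρ σ) = (X - C α) * (X - C β))
    (hns : NoLine ρ) :
    ∃ b : Basis (Fin 2) k V,
      (∀ σ, IsDiagM (matRep b ρ σ) ∨ IsAntiM (matRep b ρ σ)) ∧
      IsAntiM (matRep b ρ φ) ∧
      ∀ ι ∈ I, IsDiagM (matRep b ρ ι) ∧ matRep b ρ ι 1 1 = (matRep b ρ ι 0 0) ^ p := by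
  obtain ⟨b, α, hα, hs0, hs1, hφ1⟩ :=
    exists_basis_SS hV ρ I P φ s hP1 hgen htame hconj heig hns
  refine ⟨b, ?_⟩
  set R := matRep b ρ with hR
  have hRsD : IsDiagM (R s) := by
    constructor
    · show matOf b (ρ s) 0 1 = 0
      rw [matOf_of_eigen b hs1]; simp
    · show matOf b (ρ s) 1 0 = 0
      rw [matOf_of_eigen b hs0]; simp
  have hRs0 : R s 0 0 = α := by
    show matOf b (ρ s) 0 0 = α
    rw [matOf_of_eigen b hs0]; simp
  have hRs1 : R s 1 1 = α ^ p := by
    show matOf b (ρ s) 1 1 = α ^ p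
    rw [matOf_of_eigen b hs1]; simp
  have hRP : ∀ w ∈ P, R w = 1 := by
    intro w hw
    show matOf b (ρ w) = 1
    rw [hP1 w hw, matOf_one]
  have hI : ∀ ι ∈ I, IsDiagM (R ι) ∧ R ι 1 1 = (R ι 0 0) ^ p := by
    intro ι hι
    obtain ⟨m, w, hw, rfl⟩ := htame ι hι
    have e : R (s ^ m * w) = R s ^ m := by rw [map_mul, map_pow, hRP w hw, mul_one]
    rw [e]
    obtain ⟨h1, h2, h3⟩ := isDiagM_pow hRsD m
    refine ⟨h1, ?_⟩
    rw [h2, h3, hRs0, hRs1, ← pow_mul, ← pow_mul, mul_comm]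
  have hM1 : ∀ σ, IsDiagM (R σ) ∨ IsAntiM (R σ) := by
    intro σ
    have hmem : σ⁻¹ * s * σ ∈ I := by
      have := hIn.conj_mem s hs σ⁻¹
      rwa [inv_inv] at this
    have hD' := (hI _ hmem).1
    have hint : R s * R σ = R σ * R (σ⁻¹ * s * σ) := by
      rw [← map_mul, ← map_mul]
      congr 1
      group
    have hne : R s 0 0 ≠ R s 1 1 := by
      rw [hRs0, hRs1]
      exact fun h => hα h.symm
    exact diag_or_anti_of_col_zero (R_mul_inv R σ) (col_zero_of_intertwine hRsD hD' hne hint)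
  refine ⟨hM1, ?_, hI⟩
  rcases hM1 φ with h | h
  · exfalso
    have h1 : R φ 0 1 = 1 := by
      show matOf b (ρ φ) 0 1 = 1
      have hφ1' : ρ φ (b 1) = (1 : k) • b 0 := by rw [one_smul, hφ1]
      rw [matOf_of_eigen b hφ1']; simp
    rw [h.1] at h1
    exact zero_ne_one h1
  · exact h

end Fermat.Agent.S56.FL.H50.SS

end

end
-- ==== END Fermat.Agent.S56.FL.H50_CohSSb
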