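-- GENERATED (merged mirror, NOTES/tools/trim/merge3_helper67.py): 5 modules of the originals, bodies verbatim.
import Fermat.Agent.Zm.S56_L01_005
import Fermat.Agent.Zm.S56_L01_003
import Fermat.Agent.Zm.S56_L01_006

-- ==== BEGIN Fermat.Agent.S56.IND.H74_PERM
section

set_option autoImplicit false
set_option linter.style.haveILetI false
set_option linter.unusedSectionVars false
set_option linter.unusedVariables false

/-!
# Package IND-5 = PERM (helper74): the Brauer character of a permutation representation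

Lift lemma: for a matrix `P` over a domain `R` with `P ^ m = 1`, a ring homomorphism
`red : R → K` to a field with a multiplicative section `τ` and a primitive `m`-th root of unity
in `K`: the sum of the `τ`-lifts of the roots of `charpoly (red P)` is the trace of `P`.
-/

noncomputable section

namespace Fermat.Agent.S56.IND.H74

open Polynomial Matrix

section Lift

variable {R : Type*} [CommRing R] [IsDomain R] {K : Type*} [Field K]
  (red : R →+* K) (τ : K →* R) (hτ : ∀ x, red (τ x) = x)
  {ν : Type*} [Fintype ν] [DecidableEq ν]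

include hτ in
theorem tau_injective : Function.Injective τ := fun x y h => by
  rw [← hτ x, ← hτ y, h]

/-- A root of the characteristic polynomial of a matrix of order dividing `m` is an `m`-th root
of unity. -/
theorem pow_eq_one_of_isRoot_charpoly {F : Type*} [Field F] (A : Matrix ν ν F) (m : ℕ)
    (hA : A ^ m = 1) (μ : F) (hμ : A.charpoly.IsRoot μ) : μ ^ m = 1 := by
  have h1 : (Matrix.toLin' A).charpoly.IsRoot μ := by
    rw [Matrix.charpoly_toLin']
    exact hμ
  rw [← Module.End.hasEigenvalue_iff_isRoot_charpoly] at h1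
  obtain ⟨v, hv⟩ := h1.exists_hasEigenvector
  have h2 : ∀ j : ℕ, (Matrix.toLin' A ^ j) v = μ ^ j • v := by
    intro j
    induction j with
    | zero => simp
    | succ j ih =>
      rw [pow_succ, Module.End.mul_apply, hv.apply_eq_smul, map_smul, ih, smul_smul, pow_succ,
        mul_comm]
  have h3 := h2 m
  rw [← Matrix.toLin'_pow, hA, Matrix.toLin'_one, LinearMap.id_apply] at h3
  have h4 : (μ ^ m - 1) • v = 0 := by
    rw [sub_smul, one_smul, ← h3, sub_self]
  rcases smul_eq_zero.mp h4 with h5 | h5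
  · exact sub_eq_zero.mp h5
  · exact absurd h5 hv.2

include hτ in
/-- **Lift lemma.** -/
theorem lift_trace (P : Matrix ν ν R) (m : ℕ) [NeZero m] (hP : P ^ m = 1) (ζ₀ : K)
    (hζ₀ : IsPrimitiveRoot ζ₀ m) :
    (((P.map red).charpoly.roots).map τ).sum = P.trace := by
  classical
  let L := AlgebraicClosure (FractionRing R)
  let ι : R →+* L := (algebraMap (FractionRing R) L).comp (algebraMap R (FractionRing R))
  have hι : Function.Injective ι :=
    (algebraMap (FractionRing R) L).injective.comp (IsFractionRing.injective R (FractionRing R))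
  have hτinj := tau_injective red τ hτ
  -- a primitive root of unity in `L`
  have hz : IsPrimitiveRoot (ι (τ ζ₀)) m :=
    (hζ₀.map_of_injective hτinj).map_of_injective hι
  -- the roots of the characteristic polynomial over `L`
  let Q := P.charpoly
  have hQmon : Q.Monic := Matrix.charpoly_monic P
  have hQL : Q.map ι = (P.map ι).charpoly := (Matrix.charpoly_map P ι).symm
  have hPL : (P.map ι) ^ m = 1 := by
    have h := congrArg (RingHom.mapMatrix (m := ν) ι) hP
    rw [map_pow, map_one] at h
    exact h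
  have hroot : ∀ μ ∈ (Q.map ι).roots, ∃ ζ : K, ι (τ ζ) = μ := by
    intro μ hμ
    have h1 : (P.map ι).charpoly.IsRoot μ := by
      rw [← hQL]
      exact (Polynomial.mem_roots'.mp hμ).2
    have h2 := pow_eq_one_of_isRoot_charpoly (P.map ι) m hPL μ h1
    obtain ⟨i, -, hi⟩ := hz.eq_pow_of_pow_eq_one h2
    exact ⟨ζ₀ ^ i, by rw [map_pow, map_pow, hi]⟩
  -- lift the roots to `K`
  let inv : L → K := fun μ => if h : ∃ ζ : K, ι (τ ζ) = μ then h.choose else 0
  have hinv : ∀ μ ∈ (Q.map ι).roots, ι (τ (inv μ)) = μ := by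
    intro μ hμ
    have h := hroot μ hμ
    show ι (τ (if h : ∃ ζ : K, ι (τ ζ) = μ then h.choose else 0)) = μ
    rw [dif_pos h]
    exact h.choose_spec
  obtain ⟨t, ht⟩ : ∃ t : Multiset K, (Q.map ι).roots = (t.map τ).map ι := by
    refine ⟨(Q.map ι).roots.map inv, ?_⟩
    rw [Multiset.map_map, Multiset.map_map]
    conv_lhs => rw [← Multiset.map_id (Q.map ι).roots]
    exact Multiset.map_congr rfl fun μ hμ => (hinv μ hμ).symm
  -- factorisation over `R`
  have hsplit : (Q.map ι).Splits := IsAlgClosed.splits _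
  have hfact : Q.map ι = (((t.map τ).map fun a => X - C a).prod).map ι := by
    conv_lhs => rw [hsplit.eq_prod_roots_of_monic (hQmon.map ι), ht]
    rw [Polynomial.map_multiset_prod, Multiset.map_map, Multiset.map_map, Multiset.map_map,
      Multiset.map_map]
    congr 1
    refine Multiset.map_congr rfl fun a _ => ?_
    simp
  have hQ : Q = ((t.map τ).map fun a => X - C a).prod :=
    Polynomial.map_injective ι hι hfact
  -- reduction
  have hred : (P.map red).charpoly = (t.map fun a => X - C a).prod := by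
    rw [Matrix.charpoly_map, show P.charpoly = Q from rfl, hQ, Polynomial.map_multiset_prod,
      Multiset.map_map, Multiset.map_map]
    congr 1
    refine Multiset.map_congr rfl fun a _ => ?_
    simp [hτ]
  rw [hred, Polynomial.roots_multiset_prod_X_sub_C, Matrix.trace_eq_neg_charpoly_nextCoeff,
    show P.charpoly = Q from rfl, hQ, Polynomial.multiset_prod_X_sub_C_nextCoeff, neg_neg]

end Lift

section Perm

variable (p : ℕ) [Fact p.Prime] (k : Type) [Field k] [CharP k p]
  (G : Type) [Group G] (X : Type) [Fintype X] [DecidableEq X] [MulAction G X]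

/-- The matrix of `permRep g` in the standard basis is the permutation matrix of `g⁻¹`. -/
theorem toMatrix_permRep (g : G) :
    LinearMap.toMatrix (Pi.basisFun k X) (Pi.basisFun k X) (permRep k G X g) =
      (MulAction.toPerm g⁻¹ : Equiv.Perm X).permMatrix k := by
  ext i j
  rw [LinearMap.toMatrix_apply, Pi.basisFun_repr, Pi.basisFun_apply, permRep_apply]
  show _ = (MulAction.toPerm g⁻¹ : Equiv.Perm X).toPEquiv.toMatrix i j
  rw [PEquiv.toMatrix_apply]
  simp only [Equiv.toPEquiv_apply, MulAction.toPerm_apply, Option.mem_def, Option.some.injEq]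
  by_cases h : g⁻¹ • i = j
  · rw [if_pos h, h, Pi.single_eq_same]
  · rw [if_neg h, Pi.single_eq_of_ne h]

theorem permMatrix_map {R S : Type*} [Semiring R] [Semiring S] (f : R →+* S)
    (σ : Equiv.Perm X) : (σ.permMatrix R).map f = σ.permMatrix S := by
  ext i j
  show f (σ.toPEquiv.toMatrix i j) = σ.toPEquiv.toMatrix i j
  rw [PEquiv.toMatrix_apply, PEquiv.toMatrix_apply]
  split_ifs <;> simp

theorem permMatrix_pow_orderOf [Finite G] (R : Type*) [CommRing R] (g : G) :
    ((MulAction.toPerm g⁻¹ : Equiv.Perm X).permMatrix R) ^ orderOf g = 1 := by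
  have e : (MulAction.toPerm g⁻¹ : Equiv.Perm X).permMatrix R =
      Matrix.permMatrixHom (R := R) (MulAction.toPermHom G X g) := by
    rw [Matrix.permMatrixHom_apply]
    congr 1
    rw [← map_inv]
    rfl
  rw [e, ← map_pow, ← map_pow, pow_orderOf_eq_one, map_one, map_one]

theorem card_fixed_inv (g : G) :
    (Function.fixedPoints (MulAction.toPerm g⁻¹ : Equiv.Perm X)).ncard =
      Nat.card {x : X // g • x = x} := by
  rw [← Nat.card_coe_set_eq]
  refine Nat.card_congr (Equiv.subtypeEquivRight fun x => ?_)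
  show g⁻¹ • x = x ↔ g • x = x
  constructor
  · intro h
    calc g • x = g • (g⁻¹ • x) := by rw [h]
      _ = x := smul_inv_smul g x
  · intro h
    calc g⁻¹ • x = g⁻¹ • (g • x) := by rw [h]
      _ = x := inv_smul_smul g x

theorem brauer_permRep [Finite G] (g : G) (hg : ¬ p ∣ orderOf g) :
    brauer p (permRep k G X) g = (Nat.card {x : X // g • x = x} : WK p k) := by
  have hp : p.Prime := Fact.out
  haveI : NeZero (orderOf g) := ⟨(orderOf_pos g).ne'⟩
  haveI : NeZero ((orderOf g : ℕ) : k) := ⟨by
    intro h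
    exact hg ((CharP.cast_eq_zero_iff k p (orderOf g)).mp h)⟩
  obtain ⟨ζ₀, hζ₀⟩ := HasEnoughRootsOfUnity.exists_primitiveRoot (AlgebraicClosure k) (orderOf g)
  have key := lift_trace (WittVector.constantCoeff (p := p) (R := AlgebraicClosure k))
    (WittVector.teichmuller p) (fun x => WittVector.teichmuller_coeff_zero p x)
    ((MulAction.toPerm g⁻¹ : Equiv.Perm X).permMatrix (WK p k)) (orderOf g)
    (permMatrix_pow_orderOf G X (WK p k) g) ζ₀ hζ₀
  rw [Matrix.trace_permutation, card_fixed_inv] at key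
  rw [← key]
  unfold brauer
  congr 2
  rw [Polynomial.aroots_def, ← LinearMap.charpoly_toMatrix _ (Pi.basisFun k X),
    toMatrix_permRep, ← Matrix.charpoly_map, permMatrix_map, permMatrix_map]

end Perm

/-- **PERM.** -/
theorem stmt_PERM : Stmt_PERM := by
  classical
  intro p _ k _ _ _ G _ _ X _ _ g hg
  haveI : Fintype X := Fintype.ofFinite X
  exact brauer_permRep p k G X g hg

end Fermat.Agent.S56.IND.H74

end

end
-- ==== END Fermat.Agent.S56.IND.H74_PERM

-- ==== BEGIN Fermat.Agent.S56.IND.H74_TR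
section

set_option autoImplicit false
set_option linter.style.haveILetI false
set_option linter.unusedSectionVars false

/-!
# Package IND-3 = TR (helper74): traces of non-isomorphic simple representations are independent

Route: Jacobson density (`jacobson_density`) for the semisimple module `Π i, S i`, the little
Wedderburn theorem for `End_G(S)` and the non-vanishing of the trace of a finite extension of
finite fields.
-/

noncomputable section

namespace Fermat.Agent.S56.IND.H74

open Module

/-! ### A linear endomorphism over an extension field with nonzero trace over the base -/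

/-- For a finite separable extension `D / k` and a nonzero `D`-vector space `M` there is a
`D`-linear endomorphism of `M` whose `k`-trace is nonzero. -/
theorem exists_trace_ne_zero (k : Type*) [Field k] (D : Type*) [Field D] [Algebra k D]
    [FiniteDimensional k D] [Algebra.IsSeparable k D] (M : Type*) [AddCommGroup M]
    [Module k M] [Module D M] [IsScalarTower k D M] [FiniteDimensional k M] [Nontrivial M] :
    ∃ f : M →ₗ[D] M, LinearMap.trace k M (f.restrictScalars k) ≠ 0 := by
  obtain ⟨v, hv⟩ := exists_ne (0 : M)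
  obtain ⟨π, hπ⟩ := Module.Projective.exists_dual_eq_one D hv
  have hne := Algebra.trace_ne_zero k D
  obtain ⟨d, hd⟩ : ∃ d : D, Algebra.trace k D d ≠ 0 := by
    by_contra h
    push Not at h
    exact hne (LinearMap.ext fun x => by simpa using h x)
  -- `f m = (π m * d) • v`
  let ι : D →ₗ[D] M := LinearMap.toSpanSingleton D M v
  let μ : D →ₗ[D] D := LinearMap.mulLeft D d
  refine ⟨ι ∘ₗ μ ∘ₗ π, ?_⟩
  have e : (ι ∘ₗ μ ∘ₗ π).restrictScalars k =
      (ι.restrictScalars k) ∘ₗ ((μ ∘ₗ π).restrictScalars k) := rfl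
  rw [e, LinearMap.trace_comp_comm']
  have e2 : ((μ ∘ₗ π).restrictScalars k) ∘ₗ (ι.restrictScalars k) = Algebra.lmul k D d := by
    ext x
    show d * π (x • v) = d * x
    rw [map_smul, hπ, smul_eq_mul, mul_one]
  rw [e2, ← Algebra.trace_apply]
  exact hd

/-! ### Simple modules over an algebra over a finite field -/

section Simple

variable (k : Type*) [Field k] (A : Type*) [Ring A] [Algebra k A]

/-- The `k`-linear endomorphism given by the action of `a`. -/
def actL (M : Type*) [AddCommGroup M] [Module k M] [Module A M] [IsScalarTower k A M] (a : A) :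
    M →ₗ[k] M where
  toFun m := a • m
  map_add' := smul_add a
  map_smul' c m := by
    show a • c • m = c • a • m
    rw [← algebraMap_smul A c m, ← algebraMap_smul A c (a • m), smul_smul, smul_smul,
      Algebra.commutes]

@[simp] theorem actL_apply (M : Type*) [AddCommGroup M] [Module k M] [Module A M]
    [IsScalarTower k A M] (a : A) (m : M) : actL k A M a m = a • m := rfl

/-- A simple module over an algebra over a finite field has an element acting with nonzero
trace. -/
theorem exists_actL_trace_ne_zero [Finite k] (M : Type*) [AddCommGroup M] [Module k M]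
    [Module A M] [IsScalarTower k A M] [FiniteDimensional k M] [IsSimpleModule A M] :
    ∃ a : A, LinearMap.trace k M (actL k A M a) ≠ 0 := by
  classical
  haveI : Finite M := Module.finite_of_finite k
  haveI : Fintype M := Fintype.ofFinite M
  haveI : Finite (Module.End A M) :=
    Finite.of_injective (fun f : Module.End A M => (f : M → M)) DFunLike.coe_injective
  haveI : SMulCommClass A k M := ⟨fun a c m => by
    rw [← algebraMap_smul A c m, ← algebraMap_smul A c (a • m), smul_smul, smul_smul,
      Algebra.commutes]⟩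
  haveI : Nontrivial M := IsSimpleModule.nontrivial A M
  haveI : FiniteDimensional k (Module.End A M) := Module.Finite.of_finite
  obtain ⟨f, hf⟩ := exists_trace_ne_zero k (Module.End A M) M
  obtain ⟨a, ha⟩ := jacobson_density (R := A) (M := M) f Finset.univ
  refine ⟨a, ?_⟩
  have e : actL k A M a = f.restrictScalars k := by
    ext m
    exact (ha m (Finset.mem_univ m)).symm
  rw [e]
  exact hf

end Simple

/-! ### Separation of non-isomorphic simple modules -/

section Sep

variable (A : Type*) [Ring A] {ι : Type*} [Fintype ι] [DecidableEq ι] (M : ι → Type*)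
  [∀ i, AddCommGroup (M i)] [∀ i, Module A (M i)]

theorem apply_single_eq_zero (hne : ∀ i j, i ≠ j → ∀ f : M i →ₗ[A] M j, f = 0)
    (ψ : (∀ i, M i) →ₗ[A] (∀ i, M i)) {i j : ι} (hij : i ≠ j) (x : M i) :
    ψ (Pi.single i x) j = 0 := by
  have h := hne i j hij ((LinearMap.proj j) ∘ₗ ψ ∘ₗ (LinearMap.single A M i))
  have h2 := congrArg (fun f : M i →ₗ[A] M j => f x) h
  simpa using h2

theorem apply_eq_apply_single (hne : ∀ i j, i ≠ j → ∀ f : M i →ₗ[A] M j, f = 0)
    (ψ : (∀ i, M i) →ₗ[A] (∀ i, M i)) (m : ∀ i, M i) (i₀ : ι) :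
    ψ m i₀ = ψ (Pi.single i₀ (m i₀)) i₀ := by
  conv_lhs => rw [← Finset.univ_sum_single m]
  rw [map_sum, Finset.sum_apply]
  rw [Finset.sum_eq_single i₀]
  · intro j _ hj
    exact apply_single_eq_zero A M hne ψ hj (m j)
  · intro h
    exact absurd (Finset.mem_univ i₀) h

/-- Separation: an element acting on `M i₀` like `a₀` and on the other `M j` by zero. -/
theorem exists_separating [∀ i, IsSimpleModule A (M i)] [∀ i, Finite (M i)]
    (hne : ∀ i j, i ≠ j → ∀ f : M i →ₗ[A] M j, f = 0) (i₀ : ι) (a₀ : A) :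
    ∃ a : A, (∀ m : M i₀, a • m = a₀ • m) ∧ ∀ j, j ≠ i₀ → ∀ m : M j, a • m = 0 := by
  classical
  haveI : Fintype (∀ i, M i) := Fintype.ofFinite _
  let Φ : Module.End (Module.End A (∀ i, M i)) (∀ i, M i) :=
    { toFun := fun m => Pi.single i₀ (a₀ • m i₀)
      map_add' := fun m m' => by
        rw [Pi.add_apply, smul_add, Pi.single_add]
      map_smul' := fun ψ m => by
        show Pi.single i₀ (a₀ • (ψ m) i₀) = ψ (Pi.single i₀ (a₀ • m i₀))
        rw [apply_eq_apply_single A M hne ψ m i₀]
        have e : (Pi.single i₀ (a₀ • m i₀) : ∀ i, M i) = a₀ • Pi.single i₀ (m i₀) := by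
          rw [← Pi.single_smul]
        rw [e, map_smul]
        funext j
        by_cases hj : j = i₀
        · subst hj
          rw [Pi.single_eq_same, Pi.smul_apply]
        · rw [Pi.single_eq_of_ne hj, Pi.smul_apply,
            apply_single_eq_zero A M hne ψ (Ne.symm hj), smul_zero] }
  obtain ⟨a, ha⟩ := jacobson_density (R := A) (M := ∀ i, M i) Φ Finset.univ
  refine ⟨a, fun m => ?_, fun j hj m => ?_⟩
  · have h := ha (Pi.single i₀ m) (Finset.mem_univ _)
    have h2 := congrFun h i₀
    have h3 : Φ (Pi.single i₀ m) = Pi.single i₀ (a₀ • (Pi.single i₀ m : ∀ i, M i) i₀) := rfl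
    rw [h3, Pi.single_eq_same, Pi.single_eq_same, Pi.smul_apply, Pi.single_eq_same] at h2
    exact h2.symm
  · have h := ha (Pi.single j m) (Finset.mem_univ _)
    have h2 := congrFun h j
    have h3 : Φ (Pi.single j m) = Pi.single i₀ (a₀ • (Pi.single j m : ∀ i, M i) i₀) := rfl
    rw [h3, Pi.single_eq_of_ne hj, Pi.smul_apply, Pi.single_eq_same] at h2
    exact h2.symm

end Sep

/-! ### Independence of traces, abstract form -/

section Abs

variable (k : Type*) [Field k] [Finite k] (A : Type*) [Ring A] [Algebra k A]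
  {ι : Type*} [Fintype ι] (M : ι → Type*)
  [∀ i, AddCommGroup (M i)] [∀ i, Module k (M i)] [∀ i, Module A (M i)]
  [∀ i, IsScalarTower k A (M i)] [∀ i, FiniteDimensional k (M i)] [∀ i, IsSimpleModule A (M i)]

theorem trace_indep_abs (hne : ∀ i j, i ≠ j → ∀ f : M i →ₗ[A] M j, f = 0) (c : ι → k)
    (hc : ∀ a : A, ∑ i, c i * LinearMap.trace k (M i) (actL k A (M i) a) = 0) :
    ∀ i, c i = 0 := by
  classical
  intro i₀
  haveI : ∀ i, Finite (M i) := fun i => Module.finite_of_finite k
  obtain ⟨a₀, ha₀⟩ := exists_actL_trace_ne_zero k A (M i₀)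
  obtain ⟨a, ha1, ha2⟩ := exists_separating A M hne i₀ a₀
  have h := hc a
  rw [Finset.sum_eq_single i₀] at h
  · have e : actL k A (M i₀) a = actL k A (M i₀) a₀ := by
      ext m
      exact ha1 m
    rw [e] at h
    exact (mul_eq_zero.mp h).resolve_right ha₀
  · intro j _ hj
    have e : actL k A (M j) a = 0 := by
      ext m
      exact ha2 j hj m
    rw [e, map_zero, mul_zero]
  · intro h'
    exact absurd (Finset.mem_univ i₀) h'

end Abs

/-! ### Representations -/

section Rep

open Representation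

variable {k : Type} [Field k] {G : Type} [Group G]

theorem isSimpleModule_of_isSimpleRep {V : Type} [AddCommGroup V] [Module k V]
    (ρ : Representation k G V) (h : IsSimpleRep ρ) :
    IsSimpleModule (MonoidAlgebra k G) ρ.asModule := by
  rw [← irreducible_iff_isSimpleModule_asModule]
  obtain ⟨hnt, hs⟩ := h
  refine @IsSimpleOrder.mk _ _ _ ⟨⟨⊥, ⊤, ?_⟩⟩ ?_
  · intro hbt
    have h2 : (⊥ : Submodule k V) = ⊤ := congrArg Subrepresentation.toSubmodule hbt
    exact bot_ne_top h2
  · intro σ
    rcases hs σ.toSubmodule (fun g v hv => σ.apply_mem_toSubmodule g hv) with h1 | h1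
    · left
      exact Subrepresentation.toSubmodule_injective h1
    · right
      exact Subrepresentation.toSubmodule_injective h1

theorem of_smul_asModule {V : Type} [AddCommGroup V] [Module k V]
    (ρ : Representation k G V) (g : G) (v : ρ.asModule) :
    (MonoidAlgebra.of k G g) • v = ρ.asModuleEquiv.symm (ρ g (ρ.asModuleEquiv v)) := by
  rw [asModuleEquiv_symm_map_rho, LinearEquiv.symm_apply_apply]

theorem actL_add (A : Type*) [Ring A] [Algebra k A] (M : Type*) [AddCommGroup M] [Module k M]
    [Module A M] [IsScalarTower k A M] (a b : A) :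
    actL k A M (a + b) = actL k A M a + actL k A M b := by
  ext m
  exact add_smul a b m

theorem actL_smul (A : Type*) [Ring A] [Algebra k A] (M : Type*) [AddCommGroup M] [Module k M]
    [Module A M] [IsScalarTower k A M] (c : k) (a : A) :
    actL k A M (c • a) = c • actL k A M a := by
  ext m
  exact smul_assoc c a m

theorem actL_zero (A : Type*) [Ring A] [Algebra k A] (M : Type*) [AddCommGroup M] [Module k M]
    [Module A M] [IsScalarTower k A M] :
    actL k A M (0 : A) = 0 := by
  ext m
  exact zero_smul A m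

theorem trace_actL_of {V : Type} [AddCommGroup V] [Module k V] [FiniteDimensional k V]
    (ρ : Representation k G V) (g : G) :
    LinearMap.trace k ρ.asModule (actL k (MonoidAlgebra k G) ρ.asModule (MonoidAlgebra.of k G g)) =
      LinearMap.trace k V (ρ g) := by
  have e : ρ g = ρ.asModuleEquiv.conj
      (actL k (MonoidAlgebra k G) ρ.asModule (MonoidAlgebra.of k G g)) := by
    ext v
    rw [LinearEquiv.conj_apply_apply, actL_apply, of_smul_asModule, LinearEquiv.apply_symm_apply,
      LinearEquiv.apply_symm_apply]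
  rw [e, LinearMap.trace_conj']

/-- **TR.** -/
theorem stmt_TR : Stmt_TR := by
  intro k _ _ G _ _ ι _ S hfd hsimple hniso c hc
  haveI : ∀ i, FiniteDimensional k (S i).ρ.asModule := fun i =>
    (inferInstance : Module.Finite k (S i).ρ.asModule)
  haveI : ∀ i, IsSimpleModule (MonoidAlgebra k G) (S i).ρ.asModule := fun i =>
    isSimpleModule_of_isSimpleRep (S i).ρ (hsimple i)
  refine trace_indep_abs k (MonoidAlgebra k G) (fun i => (S i).ρ.asModule) ?_ c ?_
  · intro i j hij f
    rcases LinearMap.bijective_or_eq_zero f with hb | h0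
    · exfalso
      apply hniso i j hij
      let e0 : (S i).ρ.asModule ≃ₗ[MonoidAlgebra k G] (S j).ρ.asModule :=
        LinearEquiv.ofBijective f hb
      refine ⟨(S i).ρ.asModuleEquiv.symm ≪≫ₗ (e0.restrictScalars k) ≪≫ₗ (S j).ρ.asModuleEquiv,
        fun g v => ?_⟩
      show (S j).ρ.asModuleEquiv (f ((S i).ρ.asModuleEquiv.symm ((S i).ρ g v))) =
        (S j).ρ g ((S j).ρ.asModuleEquiv (f ((S i).ρ.asModuleEquiv.symm v)))
      rw [asModuleEquiv_symm_map_rho, map_smul, of_smul_asModule, LinearEquiv.apply_symm_apply]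
    · exact h0
  · intro a
    induction a using MonoidAlgebra.induction_linear with
    | zero => simp [actL_zero]
    | add x y hx hy =>
      simp only [actL_add, map_add, mul_add, Finset.sum_add_distrib, hx, hy, add_zero]
    | single g r =>
      have e : (MonoidAlgebra.single g r : MonoidAlgebra k G) = r • MonoidAlgebra.of k G g := by
        rw [MonoidAlgebra.of_apply, MonoidAlgebra.smul_single, smul_eq_mul, mul_one]
      rw [e]
      simp only [actL_smul, map_smul, smul_eq_mul, trace_actL_of]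
      have h := hc g
      calc ∑ i, c i * (r * LinearMap.trace k (S i) ((S i).ρ g))
          = r * ∑ i, c i * LinearMap.trace k (S i) ((S i).ρ g) := by
            rw [Finset.mul_sum]
            refine Finset.sum_congr rfl fun i _ => ?_
            ring
        _ = 0 := by rw [h, mul_zero]

end Rep

end Fermat.Agent.S56.IND.H74

end

end
-- ==== END Fermat.Agent.S56.IND.H74_TR

-- ==== BEGIN Fermat.Agent.S56.LeavesLocal
section

set_option autoImplicit false

/-!
# Cluster T / S56: local leaves (exact statements, to be proved in files `Fermat/Agent/S56/H<seat>_*.lean`)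

Each `Stmt_*` is a `Prop`; a leaf is DONE when `theorem ... : Stmt_* := ...` is landed sorry-free.
-/

noncomputable section

namespace Fermat.Agent.S56

open Polynomial IsLocalRing CategoryTheory groupCohomology ExtCitation

/-- Smoothness of a representation of `G_ℚ`: every vector is fixed by an open subgroup. -/
def IsSmoothRep {k : Type} [Field k] (M : Rep k GQ) : Prop :=
  ∀ m : M, ∃ F : IntermediateField ℚ (AlgebraicClosure ℚ), FiniteDimensional ℚ F ∧
    ∀ s ∈ F.fixingSubgroup, M.ρ s m = m

/-- `M` is unramified at the prime `q`. -/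
def IsUnramifiedRepAt {k : Type} [Field k] (M : Rep k GQ) (q : ℕ) : Prop :=
  ∀ A : ValuationSubring (AlgebraicClosure ℚ), A.LiesOverPrime q →
    ∀ g ∈ A.inertiaSubgroupIn ℚ, M.ρ g = 1

/-- The local representation at the prime `q` (restriction along `G_{ℚ_q} → G_ℚ`). -/
abbrev locRep {k : Type} [Field k] (M : Rep k GQ) (q : Nat.Primes) :
    Rep k (primeLocalGaloisGroup q) :=
  Rep.res (primeLocalToGlobal q) M

/-- The continuous local cohomology `H¹(ℚ_q, M)` inside the abstract `H¹`. -/
abbrev locH1 {k : Type} [Field k] (M : Rep k GQ) (q : Nat.Primes) :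
    Submodule k (H1 (locRep M q)) :=
  continuousH1 (primeLocalToGlobal q) (locRep M q)

/-- **Leaf LOC-TW** (local `H¹` at a Taylor-Wiles prime).
`k` finite of characteristic `p`, `q ≡ 1 mod p` a prime, `M` a finite-dimensional smooth
`k`-representation of `G_ℚ` unramified at `q`.  Then `H¹(ℚ_q, M)` (continuous classes) is
finite-dimensional of dimension `≤ 2 · dim H⁰(ℚ_q, M)`.
(Proof: inflation-restriction for inertia; `H¹(Ẑ, M) = M/(F-1)`; a continuous homomorphism from
inertia at `q` to the `p`-group `M` factors through tame inertia, which is procyclic with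
Frobenius acting by `q ≡ 1`.) -/
def Stmt_loc_TW : Prop :=
  ∀ (p : ℕ) [Fact p.Prime] (q : Nat.Primes) (_hq1 : (q : ℕ) % p = 1)
    (k : Type) [Field k] [Finite k] [CharP k p]
    (M : Rep k GQ) [FiniteDimensional k M] (_hsm : IsSmoothRep M)
    (_hur : IsUnramifiedRepAt M (q : ℕ)),
    Module.Finite k (locH1 M q) ∧
      Module.finrank k (locH1 M q) ≤ 2 * Module.finrank k (locRep M q).ρ.invariants

end Fermat.Agent.S56

end

end
-- ==== END Fermat.Agent.S56.LeavesLocal

-- ==== BEGIN Fermat.Agent.S56.LocMin.H85_Abstract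
section

/-!
# S56, leaf LOC-min, part A (helper85): an abstract bound for unramified classes

`G` a group acting on a finite-dimensional `k`-vector space `M`, `I` a normal subgroup,
`G = ⟨φ⟩ I`.  The classes of the cocycles vanishing on `I` span a space of dimension at most
`dim M^G`.  (Inflation from the cyclic quotient `G / I`: `H¹(G/I, M^I) = M^I / (φ - 1) M^I`.)

Also: a directed family of finite-dimensional subspaces of bounded dimension has a
finite-dimensional supremum of the same bound.
-/

set_option autoImplicit false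

namespace Fermat.Agent.S56.LocMin

open CategoryTheory groupCohomology Fermat.Agent.S56.H9

universe u

section linalg

variable {k Z W N : Type*} [Field k] [AddCommGroup Z] [Module k Z] [AddCommGroup W]
  [Module k W] [AddCommGroup N] [Module k N]

/-- If `π c = 0` whenever `ev c` lies in the range of the endomorphism `D` of the
finite-dimensional space `N`, then the range of `π` has dimension at most `dim ker D`. -/
theorem finrank_range_le_finrank_ker_of [FiniteDimensional k N] (π : Z →ₗ[k] W)
    (ev : Z →ₗ[k] N) (D : N →ₗ[k] N)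
    (h : ∀ c, ev c ∈ LinearMap.range D → π c = 0) :
    Module.Finite k (LinearMap.range π) ∧
      Module.finrank k (LinearMap.range π) ≤ Module.finrank k (LinearMap.ker D) := by
  have hker : LinearMap.ker ((LinearMap.range D).mkQ.comp ev) ≤ LinearMap.ker π := by
    intro c hc
    rw [LinearMap.mem_ker] at hc ⊢
    apply h
    have h1 : (LinearMap.range D).mkQ (ev c) = 0 := hc
    rwa [Submodule.mkQ_apply, Submodule.Quotient.mk_eq_zero] at h1
  have key := finrank_range_le_of_ker_le π ((LinearMap.range D).mkQ.comp ev) hker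
  rw [finrank_quot_range_eq_finrank_ker] at key
  exact key

end linalg

section abstract

variable {k G : Type u} [Field k] [Group G] (M : Rep k G)

/-- The cocycles vanishing on the subgroup `I`. -/
def unrCocycles (I : Subgroup G) : Submodule k (cocycles₁ M) where
  carrier := {c | ∀ i ∈ I, c i = 0}
  add_mem' := by
    intro a b ha hb i hi
    have e : (a + b : cocycles₁ M) i = a i + b i := rfl
    rw [e, ha i hi, hb i hi, add_zero]
  zero_mem' := by
    intro i _
    rfl
  smul_mem' := by
    intro r a ha i hi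
    have e : (r • a : cocycles₁ M) i = r • a i := rfl
    rw [e, ha i hi, smul_zero]

lemma mem_unrCocycles {I : Subgroup G} {c : cocycles₁ M} :
    c ∈ unrCocycles M I ↔ ∀ i ∈ I, c i = 0 := Iff.rfl

/-- Antitonicity in `I`. -/
lemma unrCocycles_anti {I J : Subgroup G} (h : I ≤ J) : unrCocycles M J ≤ unrCocycles M I :=
  fun _ hc i hi => hc i (h hi)

/-- The vectors fixed by `I`. -/
def fixedBy (I : Subgroup G) : Submodule k M where
  carrier := {a | ∀ i ∈ I, M.ρ i a = a}
  add_mem' := by
    intro a b ha hb i hi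
    rw [map_add, ha i hi, hb i hi]
  zero_mem' := by
    intro i _
    rw [map_zero]
  smul_mem' := by
    intro r a ha i hi
    rw [map_smul, ha i hi]

lemma mem_fixedBy {I : Subgroup G} {a : M} : a ∈ fixedBy M I ↔ ∀ i ∈ I, M.ρ i a = a := Iff.rfl

variable {M}

/-- `M^I` is stable under `G` when `I` is normal. -/
lemma rho_mem_fixedBy {I : Subgroup G} (hI : I.Normal) (g : G) {a : M} (ha : a ∈ fixedBy M I) :
    M.ρ g a ∈ fixedBy M I := by
  intro i hi
  have h1 : g⁻¹ * i * g ∈ I := by
    have := hI.conj_mem i hi g⁻¹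
    rwa [inv_inv] at this
  have h2 : i * g = g * (g⁻¹ * i * g) := by group
  have h3 : M.ρ i (M.ρ g a) = M.ρ (i * g) a := by rw [map_mul]; rfl
  rw [h3, h2, map_mul]
  show M.ρ g (M.ρ (g⁻¹ * i * g) a) = M.ρ g a
  rw [ha _ h1]

/-- A cocycle vanishing on the normal subgroup `I` has values in `M^I`. -/
lemma unrCocycle_mem_fixedBy {I : Subgroup G} (hI : I.Normal) {c : cocycles₁ M}
    (hc : c ∈ unrCocycles M I) (g : G) : c g ∈ fixedBy M I := by
  intro i hi
  have h1 : g⁻¹ * i * g ∈ I := by
    have := hI.conj_mem i hi g⁻¹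
    rwa [inv_inv] at this
  have h2 : i * g = g * (g⁻¹ * i * g) := by group
  have e1 : c (i * g) = M.ρ i (c g) := by
    rw [cocycle_mul, hc i hi, add_zero]
  have e2 : c (i * g) = c g := by
    rw [h2, cocycle_mul, hc _ h1, map_zero, zero_add]
  rw [← e1, e2]

variable (M) in
/-- The endomorphism `φ - 1` of `M^I`. -/
noncomputable def fixedDiff {I : Subgroup G} (hI : I.Normal) (φ : G) :
    fixedBy M I →ₗ[k] fixedBy M I :=
  LinearMap.restrict (M.ρ φ - 1 : M →ₗ[k] M) (fun _ ha =>
    (fixedBy M I).sub_mem (rho_mem_fixedBy hI φ ha) ha)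

lemma fixedDiff_coe {I : Subgroup G} (hI : I.Normal) (φ : G) (a : fixedBy M I) :
    ((fixedDiff M hI φ a : fixedBy M I) : M) = M.ρ φ (a : M) - (a : M) := rfl

variable (M) in
/-- Evaluation at `φ` of the cocycles vanishing on `I`, with values in `M^I`. -/
noncomputable def evalFixed {I : Subgroup G} (hI : I.Normal) (φ : G) :
    unrCocycles M I →ₗ[k] fixedBy M I :=
  LinearMap.codRestrict (fixedBy M I) ((evalCocycle φ).comp (unrCocycles M I).subtype)
    (fun c => unrCocycle_mem_fixedBy hI c.2 φ)

lemma evalFixed_coe {I : Subgroup G} (hI : I.Normal) (φ : G) (c : unrCocycles M I) :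
    ((evalFixed M hI φ c : fixedBy M I) : M) = (c : cocycles₁ M) φ := rfl

/-- A cocycle vanishing on `I` whose value at `φ` is `φ a - a`, `a ∈ M^I`, is the coboundary of
`a`. -/
lemma unrCocycle_mem_coboundaries {I : Subgroup G} {φ : G}
    (hgen : ∀ g : G, ∃ n : ℕ, ∃ i ∈ I, g = φ ^ n * i) {c : cocycles₁ M}
    (hc : c ∈ unrCocycles M I) {a : M} (ha : a ∈ fixedBy M I) (hφ : c φ = M.ρ φ a - a) :
    (c : G → M) ∈ coboundaries₁ M := by
  refine ⟨a, ?_⟩
  funext g
  obtain ⟨n, i, hi, rfl⟩ := hgen g
  rw [d₀₁_hom_apply]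
  have e1 : c (φ ^ n * i) = M.ρ (φ ^ n) a - a := by
    rw [cocycle_mul, hc i hi, map_zero, zero_add, cocycle_pow _ φ a hφ]
  have e2 : M.ρ (φ ^ n * i) a = M.ρ (φ ^ n) a := by
    rw [map_mul]
    show M.ρ (φ ^ n) (M.ρ i a) = _
    rw [ha i hi]
  rw [e2]
  exact e1.symm

/-- A vector of `M^I` fixed by `φ` is invariant. -/
lemma mem_invariants_of_fixed {I : Subgroup G} {φ : G}
    (hgen : ∀ g : G, ∃ n : ℕ, ∃ i ∈ I, g = φ ^ n * i) {a : M} (ha : a ∈ fixedBy M I)
    (hφ : M.ρ φ a = a) : a ∈ M.ρ.invariants := by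
  intro g
  obtain ⟨n, i, hi, rfl⟩ := hgen g
  rw [map_mul]
  show M.ρ (φ ^ n) (M.ρ i a) = _
  rw [ha i hi, map_pow]
  exact apply_pow_eq_self hφ n

lemma finrank_ker_fixedDiff_le [FiniteDimensional k M] {I : Subgroup G} (hI : I.Normal)
    (φ : G) (hgen : ∀ g : G, ∃ n : ℕ, ∃ i ∈ I, g = φ ^ n * i) :
    Module.finrank k (LinearMap.ker (fixedDiff M hI φ)) ≤ Module.finrank k M.ρ.invariants := by
  have hmem : ∀ a : LinearMap.ker (fixedDiff M hI φ),
      (((a : fixedBy M I) : M)) ∈ M.ρ.invariants := by
    intro a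
    refine mem_invariants_of_fixed hgen (a : fixedBy M I).2 ?_
    have h0 : fixedDiff M hI φ (a : fixedBy M I) = 0 := a.2
    have h1 := congrArg (fun z : fixedBy M I => (z : M)) h0
    simp only [fixedDiff_coe] at h1
    exact sub_eq_zero.1 h1
  let ι : LinearMap.ker (fixedDiff M hI φ) →ₗ[k] M.ρ.invariants :=
    LinearMap.codRestrict M.ρ.invariants
      ((fixedBy M I).subtype.comp (LinearMap.ker (fixedDiff M hI φ)).subtype) hmem
  have hι : Function.Injective ι := by
    intro a b hab
    have h1 := congrArg (fun z : M.ρ.invariants => (z : M)) hab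
    exact Subtype.ext (Subtype.ext h1)
  exact LinearMap.finrank_le_finrank_of_injective hι

lemma range_comp_subtype_unr (I : Subgroup G) :
    LinearMap.range ((H1π M).hom.comp (unrCocycles M I).subtype)
      = (unrCocycles M I).map (H1π M).hom :=
  (LinearMap.range_comp _ _).trans (by rw [Submodule.range_subtype])

lemma unr_class_eq_zero [FiniteDimensional k M] {I : Subgroup G} (hI : I.Normal)
    (φ : G) (hgen : ∀ g : G, ∃ n : ℕ, ∃ i ∈ I, g = φ ^ n * i) (c : unrCocycles M I)
    (hc : evalFixed M hI φ c ∈ LinearMap.range (fixedDiff M hI φ)) :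
    ((H1π M).hom.comp (unrCocycles M I).subtype) c = 0 := by
  obtain ⟨a, ha⟩ := hc
  have ha' : (c : cocycles₁ M) φ = M.ρ φ (a : M) - (a : M) := by
    rw [← evalFixed_coe hI, ← ha, fixedDiff_coe]
  show (H1π M).hom (c : cocycles₁ M) = 0
  rw [H1π_eq_zero_iff]
  exact unrCocycle_mem_coboundaries hgen c.2 a.2 ha'

/-- **Abstract bound for unramified classes.** -/
theorem finrank_map_unrCocycles_le [FiniteDimensional k M] {I : Subgroup G} (hI : I.Normal)
    (φ : G) (hgen : ∀ g : G, ∃ n : ℕ, ∃ i ∈ I, g = φ ^ n * i) :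
    Module.Finite k ((unrCocycles M I).map (H1π M).hom) ∧
      Module.finrank k ((unrCocycles M I).map (H1π M).hom)
        ≤ Module.finrank k M.ρ.invariants := by
  have key := finrank_range_le_finrank_ker_of (k := k) (Z := unrCocycles M I) (W := H1 M)
    (N := fixedBy M I)
    ((H1π M).hom.comp (unrCocycles M I).subtype : unrCocycles M I →ₗ[k] H1 M)
    (evalFixed M hI φ) (fixedDiff M hI φ)
    (unr_class_eq_zero (M := M) hI φ hgen)
  rw [range_comp_subtype_unr] at key
  exact ⟨key.1, key.2.trans (finrank_ker_fixedDiff_le hI φ hgen)⟩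

end abstract

section directed

variable {k V : Type*} [Field k] [AddCommGroup V] [Module k V]

/-- A directed family of finite-dimensional subspaces of dimension `≤ n` has a
finite-dimensional supremum of dimension `≤ n`. -/
theorem finrank_iSup_le_of_directed {ι : Type*} [Nonempty ι] (W : ι → Submodule k V)
    (hdir : Directed (· ≤ ·) W) (n : ℕ)
    (h : ∀ i, Module.Finite k (W i) ∧ Module.finrank k (W i) ≤ n) :
    Module.Finite k (⨆ i, W i : Submodule k V) ∧
      Module.finrank k (⨆ i, W i : Submodule k V) ≤ n := by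
  classical
  -- an index of maximal dimension
  have hbdd : ∃ i₀, ∀ i, Module.finrank k (W i) ≤ Module.finrank k (W i₀) := by
    by_contra hcon
    push Not at hcon
    have : ∀ m : ℕ, ∃ i, m ≤ Module.finrank k (W i) := by
      intro m
      induction m with
      | zero => exact ⟨Classical.arbitrary ι, Nat.zero_le _⟩
      | succ m ih =>
        obtain ⟨i, hi⟩ := ih
        obtain ⟨j, hj⟩ := hcon i
        exact ⟨j, by omega⟩
    obtain ⟨i, hi⟩ := this (n + 1)
    have := (h i).2
    omega
  obtain ⟨i₀, hi₀⟩ := hbdd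
  have hle : ∀ i, W i ≤ W i₀ := by
    intro i
    obtain ⟨j, hij, hi₀j⟩ := hdir i i₀
    have := (h j).1
    have := (h i₀).1
    have heq : W i₀ = W j := by
      apply Submodule.eq_of_le_of_finrank_le hi₀j
      exact hi₀ j
    rw [heq]
    exact hij
  have hsup : (⨆ i, W i : Submodule k V) = W i₀ :=
    le_antisymm (iSup_le hle) (le_iSup W i₀)
  rw [hsup]
  exact h i₀

end directed

end Fermat.Agent.S56.LocMin

end
-- ==== END Fermat.Agent.S56.LocMin.H85_Abstract

-- ==== BEGIN Fermat.Agent.S56.TWS.H74_Unip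
section

set_option autoImplicit false

/-!
# TW-SELECT, package TWS-A (helper74): `τ` vanishes on unipotent elements

Normalised coordinates: `R u = !![1, 1; 0, 1]`.
-/

namespace Fermat.Agent.S56.TWS.H74

open Matrix

variable {k : Type} [Field k] {G : Type} [Group G]
variable {R : G →* Matrix (Fin 2) (Fin 2) k} {χ : G →* kˣ}
  {c : G → Matrix (Fin 2) (Fin 2) k}

/-- `(1 + N) ^ n = 1 + n N` for `N ^ 2 = 0`. -/
theorem one_add_pow_of_sq {N : Matrix (Fin 2) (Fin 2) k} (hN : N * N = 0) (n : ℕ) :
    (1 + N) ^ n = 1 + (n : k) • N := by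
  induction n with
  | zero => simp
  | succ n ih =>
    rw [pow_succ, ih, add_mul, mul_add, mul_add, one_mul, mul_one, Matrix.smul_mul, hN,
      smul_zero, add_zero, one_mul]
    push_cast
    module

/-- `τ (v ^ b) = b² τ v` for `R v = 1 + N`, `N ^ 2 = 0`. -/
theorem TwCoc.tau_pow_unip (h : TwCoc R χ c) {v : G} (hv : χ v = 1)
    {N : Matrix (Fin 2) (Fin 2) k} (hN : R v = 1 + N) (hNN : N * N = 0) (b : ℕ) :
    tau R c (v ^ b) = (b : k) ^ 2 * tau R c v := by
  unfold tau
  have hcomm : Commute N (R v) := by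
    rw [hN]
    exact (Commute.one_right N).add_right (Commute.refl N)
  have h1 := h.trace_pow hv N hcomm b
  rw [map_pow, hN, one_add_pow_of_sq hNN, mul_add, mul_one, Matrix.trace_add, h.tr,
    Matrix.mul_smul, Matrix.trace_smul, h1, mul_add, mul_one, Matrix.trace_add, h.tr]
  simp only [smul_eq_mul]
  ring

/-- The trace of `(1 + N) (1 + N')` for trace-zero `N`, `N'`. -/
theorem trace_one_add_mul {N N' : Matrix (Fin 2) (Fin 2) k} (hN : N.trace = 0)
    (hN' : N'.trace = 0) : ((1 + N) * (1 + N')).trace = 2 + (N * N').trace := by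
  rw [add_mul, mul_add, mul_add, one_mul, one_mul, mul_one, Matrix.trace_add, Matrix.trace_add,
    Matrix.trace_add, hN, hN', Matrix.trace_one]
  simp

/-- The relation between two unipotent elements `v`, `w` of `ker χ`. -/
theorem TwCoc.pair_rel (h : TwCoc R χ c)
    (hV : ∀ g, χ g = 1 → (R g).trace ^ 2 ≠ 4 → tau R c g = 0)
    {v w : G} (hv : χ v = 1) (hw : χ w = 1) {N N' : Matrix (Fin 2) (Fin 2) k}
    (hN : R v = 1 + N) (hNN : N * N = 0) (hNt : N.trace = 0)
    (hN' : R w = 1 + N') (hNN' : N' * N' = 0) (hNt' : N'.trace = 0)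
    (h2 : (2 : k) ≠ 0) (a b : ℕ)
    (hy0 : (a : k) * b * (N * N').trace ≠ 0) (hy : ((a : k) * b * (N * N').trace) ^ 2 ≠ 16) :
    (a : k) ^ 2 * tau R c v + (b : k) ^ 2 * tau R c w = 0 := by
  set y : k := (a : k) * b * (N * N').trace with hydef
  have hva : χ (v ^ a) = 1 := chi_pow hv a
  have hwb : χ (w ^ b) = 1 := chi_pow hw b
  have hRa : R (v ^ a) = 1 + (a : k) • N := by rw [map_pow, hN, one_add_pow_of_sq hNN]
  have hRb : R (w ^ b) = 1 + (b : k) • N' := by rw [map_pow, hN', one_add_pow_of_sq hNN']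
  have hRbinv : R (w ^ b)⁻¹ = 1 + (-(b : k)) • N' := by
    have h1 : (1 + (-(b : k)) • N') * R (w ^ b) = 1 := by
      rw [hRb, add_mul, mul_add, mul_add, one_mul, one_mul, mul_one, Matrix.smul_mul,
        Matrix.mul_smul, hNN', smul_zero, smul_zero, add_zero]
      rw [neg_smul]
      abel
    calc R (w ^ b)⁻¹ = (1 + (-(b : k)) • N') * R (w ^ b) * R (w ^ b)⁻¹ := by rw [h1, one_mul]
      _ = 1 + (-(b : k)) • N' := by rw [mul_assoc, R_mul_inv, mul_one]
  have hta : ((a : k) • N).trace = 0 := by rw [Matrix.trace_smul, hNt, smul_zero]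
  have htb : ((b : k) • N').trace = 0 := by rw [Matrix.trace_smul, hNt', smul_zero]
  have htb' : ((-(b : k)) • N').trace = 0 := by rw [Matrix.trace_smul, hNt', smul_zero]
  have htr1 : (R (v ^ a * w ^ b)).trace = 2 + y := by
    rw [map_mul, hRa, hRb, trace_one_add_mul hta htb, Matrix.smul_mul, Matrix.mul_smul,
      Matrix.trace_smul, Matrix.trace_smul, hydef]
    simp only [smul_eq_mul]
    ring
  have htr2 : (R (v ^ a * (w ^ b)⁻¹)).trace = 2 - y := by
    rw [map_mul, hRa, hRbinv, trace_one_add_mul hta htb', Matrix.smul_mul, Matrix.mul_smul,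
      Matrix.trace_smul, Matrix.trace_smul, hydef]
    simp only [smul_eq_mul]
    ring
  have hz1 : tau R c (v ^ a * w ^ b) = 0 := by
    apply hV _ (by rw [map_mul, hva, hwb, one_mul])
    rw [htr1]
    intro hc
    have : y * (y + 4) = 0 := by linear_combination hc
    rcases mul_eq_zero.mp this with h0 | h0
    · exact hy0 h0
    · apply hy
      have : y = -4 := by linear_combination h0
      rw [this]; norm_num
  have hz2 : tau R c (v ^ a * (w ^ b)⁻¹) = 0 := by
    apply hV _ (by rw [map_mul, map_inv, hva, hwb, inv_one, one_mul])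
    rw [htr2]
    intro hc
    have : y * (y - 4) = 0 := by linear_combination hc
    rcases mul_eq_zero.mp this with h0 | h0
    · exact hy0 h0
    · apply hy
      have : y = 4 := by linear_combination h0
      rw [this]; norm_num
  have hmul := h.tau_mul hva hwb
  rw [hz1, hz2, h.tau_pow_unip hv hN hNN, h.tau_pow_unip hw hN' hNN', hRa, hRb,
    Matrix.trace_add, Matrix.trace_add, hta, htb, Matrix.trace_one] at hmul
  simp only [Fintype.card_fin, Nat.cast_ofNat, add_zero] at hmul
  have h3 : (2 : k) * ((a : k) ^ 2 * tau R c v + (b : k) ^ 2 * tau R c w) = 0 := by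
    linear_combination -hmul
  rcases mul_eq_zero.mp h3 with h4 | h4
  · exact absurd h4 h2
  · exact h4

/-! ### Field lemmas -/

theorem field_K (s χ₀ t : k) (hs : s ≠ 0) (h2 : (2 : k) ≠ 0) (h3 : (3 : k) ≠ 0)
    (h5 : (5 : k) ≠ 0)
    (H : ∀ a b : ℕ, (a : k) * b * s ≠ 0 → ((a : k) * b * s) ^ 2 ≠ 16 →
      ((a : k) ^ 2 + χ₀ * (b : k) ^ 2) * t = 0) : t = 0 := by
  by_contra ht
  have H' : ∀ a b : ℕ, (a : k) * b * s ≠ 0 → ((a : k) * b * s) ^ 2 ≠ 16 →
      (a : k) ^ 2 + χ₀ * (b : k) ^ 2 = 0 := fun a b h0 h1 =>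
    (mul_eq_zero.mp (H a b h0 h1)).resolve_right ht
  have e1 := H' 1 1
  have e2 := H' 2 1
  have e3 := H' 3 1
  simp only [Nat.cast_one, Nat.cast_ofNat, mul_one, one_mul, one_pow] at e1 e2 e3
  have n2 : (2 : k) * s ≠ 0 := mul_ne_zero h2 hs
  have n3 : (3 : k) * s ≠ 0 := mul_ne_zero h3 hs
  have h4 : (4 : k) ≠ 0 := by
    have : (4 : k) = 2 * 2 := by norm_num
    rw [this]; exact mul_ne_zero h2 h2
  have h8 : (8 : k) ≠ 0 := by
    have : (8 : k) = 2 * 4 := by norm_num
    rw [this]; exact mul_ne_zero h2 h4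
  by_cases c1 : s ^ 2 = 16
  · have c2 : ((2 : k) * s) ^ 2 ≠ 16 := by
      intro hc
      have : (16 : k) * 3 = 0 := by linear_combination hc - 4 * c1
      rcases mul_eq_zero.mp this with h | h
      · have : (16 : k) = 4 * 4 := by norm_num
        rw [this] at h
        exact mul_ne_zero h4 h4 h
      · exact h3 h
    have c3 : ((3 : k) * s) ^ 2 ≠ 16 := by
      intro hc
      have : (16 : k) * 8 = 0 := by linear_combination hc - 9 * c1
      rcases mul_eq_zero.mp this with h | h
      · have : (16 : k) = 4 * 4 := by norm_num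
        rw [this] at h
        exact mul_ne_zero h4 h4 h
      · exact h8 h
    have f2 := e2 n2 c2
    have f3 := e3 n3 c3
    apply h5
    linear_combination f3 - f2
  · have f1 := e1 hs c1
    by_cases c2 : ((2 : k) * s) ^ 2 = 16
    · have c3 : ((3 : k) * s) ^ 2 ≠ 16 := by
        intro hc
        have : (4 : k) * 5 * 4 = 0 := by linear_combination 4 * hc - 9 * c2
        rcases mul_eq_zero.mp this with h | h
        · exact mul_ne_zero h4 h5 h
        · exact h4 h
      have f3 := e3 n3 c3
      apply h8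
      linear_combination f3 - f1
    · have f2 := e2 n2 c2
      apply h3
      linear_combination f2 - f1

theorem field_K5 (s χ₀ t : k) (hs : s ≠ 0) (h2 : (2 : k) ≠ 0) (h3 : (3 : k) ≠ 0)
    (h5 : (5 : k) = 0)
    (H : ∀ a b : ℕ, (a : k) * b * s ≠ 0 → ((a : k) * b * s) ^ 2 ≠ 16 →
      ((a : k) ^ 2 + χ₀ * (b : k) ^ 2) * t = 0) (ht : t ≠ 0) : χ₀ ^ 2 = 1 := by
  have H' : ∀ a b : ℕ, (a : k) * b * s ≠ 0 → ((a : k) * b * s) ^ 2 ≠ 16 →
      (a : k) ^ 2 + χ₀ * (b : k) ^ 2 = 0 := fun a b h0 h1 =>
    (mul_eq_zero.mp (H a b h0 h1)).resolve_right ht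
  have e1 := H' 1 1
  have e2 := H' 2 1
  simp only [Nat.cast_one, Nat.cast_ofNat, mul_one, one_mul, one_pow] at e1 e2
  have n2 : (2 : k) * s ≠ 0 := mul_ne_zero h2 hs
  by_cases c1 : s ^ 2 = 16
  · have c2 : ((2 : k) * s) ^ 2 ≠ 16 := by
      intro hc
      have : (3 : k) = 0 := by linear_combination hc - 4 * c1 - 9 * h5
      exact h3 this
    have f2 := e2 n2 c2
    have : χ₀ = -4 := by linear_combination f2
    rw [this]
    linear_combination 3 * h5
  · have f1 := e1 hs c1
    have : χ₀ = -1 := by linear_combination f1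
    rw [this]
    ring

/-! ### Normalised coordinates -/

/-- The standard unipotent matrix. -/
def Umat : Matrix (Fin 2) (Fin 2) k := !![1, 1; 0, 1]

/-- The standard nilpotent matrix. -/
def Emat : Matrix (Fin 2) (Fin 2) k := !![0, 1; 0, 0]

/-- The inverse of the standard unipotent matrix. -/
def Vmat : Matrix (Fin 2) (Fin 2) k := !![1, -1; 0, 1]

@[simp] theorem Umat_00 : (Umat : Matrix (Fin 2) (Fin 2) k) 0 0 = 1 := rfl
@[simp] theorem Umat_01 : (Umat : Matrix (Fin 2) (Fin 2) k) 0 1 = 1 := rfl
@[simp] theorem Umat_10 : (Umat : Matrix (Fin 2) (Fin 2) k) 1 0 = 0 := rfl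
@[simp] theorem Umat_11 : (Umat : Matrix (Fin 2) (Fin 2) k) 1 1 = 1 := rfl
@[simp] theorem Emat_00 : (Emat : Matrix (Fin 2) (Fin 2) k) 0 0 = 0 := rfl
@[simp] theorem Emat_01 : (Emat : Matrix (Fin 2) (Fin 2) k) 0 1 = 1 := rfl
@[simp] theorem Emat_10 : (Emat : Matrix (Fin 2) (Fin 2) k) 1 0 = 0 := rfl
@[simp] theorem Emat_11 : (Emat : Matrix (Fin 2) (Fin 2) k) 1 1 = 0 := rfl
@[simp] theorem Vmat_00 : (Vmat : Matrix (Fin 2) (Fin 2) k) 0 0 = 1 := rfl
@[simp] theorem Vmat_01 : (Vmat : Matrix (Fin 2) (Fin 2) k) 0 1 = -1 := rfl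
@[simp] theorem Vmat_10 : (Vmat : Matrix (Fin 2) (Fin 2) k) 1 0 = 0 := rfl
@[simp] theorem Vmat_11 : (Vmat : Matrix (Fin 2) (Fin 2) k) 1 1 = 1 := rfl

omit [Field k] in
/-- Equality of `2 × 2` matrices, entrywise. -/
theorem ext2 {A B : Matrix (Fin 2) (Fin 2) k} (h00 : A 0 0 = B 0 0) (h01 : A 0 1 = B 0 1)
    (h10 : A 1 0 = B 1 0) (h11 : A 1 1 = B 1 1) : A = B := by
  ext i j
  fin_cases i <;> fin_cases j
  · exact h00
  · exact h01
  · exact h10
  · exact h11

theorem trace2 (A : Matrix (Fin 2) (Fin 2) k) : A.trace = A 0 0 + A 1 1 := by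
  simp [Matrix.trace, Fin.sum_univ_two]

theorem Umat_eq : (Umat : Matrix (Fin 2) (Fin 2) k) = 1 + Emat := by
  apply ext2 <;> simp

theorem Emat_sq : (Emat : Matrix (Fin 2) (Fin 2) k) * Emat = 0 := by
  apply ext2 <;> simp [Matrix.mul_apply, Fin.sum_univ_two]

theorem Emat_trace : (Emat : Matrix (Fin 2) (Fin 2) k).trace = 0 := by
  simp [trace2]

theorem Emat_mul_mul (A : Matrix (Fin 2) (Fin 2) k) : Emat * A * Emat = A 1 0 • Emat := by
  apply ext2 <;> simp [Matrix.mul_apply, Fin.sum_univ_two]

theorem chi_eq_one_of_det (h : TwCoc R χ c) {u : G} (hu : (R u).det = 1) : χ u = 1 := by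
  apply Units.ext
  rw [← h.det, hu, Units.val_one]

theorem chi_of_Umat (h : TwCoc R χ c) {u : G} (hu : R u = Umat) : χ u = 1 := by
  apply chi_eq_one_of_det h
  rw [hu, Matrix.det_fin_two]
  simp

/-- The `(1,0)` entry of the inverse. -/
theorem inv_apply_10 {A B : Matrix (Fin 2) (Fin 2) k} (hBA : B * A = 1) :
    B 1 0 * A.det = - A 1 0 := by
  have e1 : (B * A) 1 0 = 0 := by rw [hBA]; simp
  have e2 : (B * A) 1 1 = 1 := by rw [hBA]; simp
  simp only [Matrix.mul_apply, Fin.sum_univ_two] at e1 e2
  rw [Matrix.det_fin_two]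
  linear_combination A 1 1 * e1 - A 1 0 * e2

/-- The conjugate of the standard unipotent by `x`. -/
theorem conj_data (h : TwCoc R χ c) {u : G} (hu : R u = Umat) (x : G) :
    R (x * u * x⁻¹) = 1 + R x * Emat * R x⁻¹ ∧
      (R x * Emat * R x⁻¹) * (R x * Emat * R x⁻¹) = 0 ∧ (R x * Emat * R x⁻¹).trace = 0 ∧
      (Emat * (R x * Emat * R x⁻¹)).trace * (χ x : k) = - (R x 1 0) ^ 2 := by
  refine ⟨?_, ?_, ?_, ?_⟩
  · rw [map_mul, map_mul, hu, Umat_eq, mul_add, add_mul, mul_one, R_mul_inv]
  · calc (R x * Emat * R x⁻¹) * (R x * Emat * R x⁻¹)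
        = R x * (Emat * (R x⁻¹ * R x) * Emat) * R x⁻¹ := by simp only [mul_assoc]
      _ = 0 := by rw [R_inv_mul, mul_one, Emat_sq, mul_zero, zero_mul]
  · rw [mul_assoc, Matrix.trace_mul_comm, mul_assoc, R_inv_mul, mul_one, Emat_trace]
  · have e : (Emat * (R x * Emat * R x⁻¹)).trace = R x 1 0 * R x⁻¹ 1 0 := by
      rw [← mul_assoc, ← mul_assoc, Emat_mul_mul, Matrix.smul_mul, Matrix.trace_smul, trace2]
      simp [Matrix.mul_apply, Fin.sum_univ_two]
    rw [e, ← h.det x]
    linear_combination R x 1 0 * inv_apply_10 (R_inv_mul R x)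

/-- The basic relation in normalised coordinates. -/
theorem TwCoc.rel_normalised (h : TwCoc R χ c)
    (hV : ∀ g, χ g = 1 → (R g).trace ^ 2 ≠ 4 → tau R c g = 0) (h2 : (2 : k) ≠ 0)
    {u : G} (hu : R u = Umat) (x : G) (a b : ℕ)
    (hy0 : (a : k) * b * (Emat * (R x * Emat * R x⁻¹)).trace ≠ 0)
    (hy : ((a : k) * b * (Emat * (R x * Emat * R x⁻¹)).trace) ^ 2 ≠ 16) :
    ((a : k) ^ 2 + (χ x : k) * (b : k) ^ 2) * tau R c u = 0 := by
  obtain ⟨hRw, hNN', hNt', -⟩ := conj_data h hu x
  have hχu := chi_of_Umat h hu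
  have hχw : χ (x * u * x⁻¹) = 1 := by
    rw [map_mul, map_mul, hχu, mul_one, map_inv, mul_inv_cancel]
  have key := h.pair_rel hV hχu hχw (hu.trans Umat_eq) Emat_sq Emat_trace hRw hNN' hNt' h2 a b
    hy0 hy
  rw [h.tau_conj hχu x] at key
  linear_combination key

/-- Characteristic `3`: `τ` vanishes on the standard unipotent. -/
theorem TwCoc.tau_unip_three (h : TwCoc R χ c) (h3 : (3 : k) = 0) {u : G} (hu : R u = Umat) :
    tau R c u = 0 := by
  have hχu := chi_of_Umat h hu
  have hinv : R u⁻¹ = Vmat := by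
    rw [inv_of_det_one (h.det_one hχu) (R_inv_mul R u), hu]
    apply ext2 <;> simp [trace2]
  have hR3 : R (u * (u * u)) = 1 := by
    rw [map_mul, map_mul, hu]
    apply ext2 <;> simp [Matrix.mul_apply, Fin.sum_univ_two]
    linear_combination h3
  have hc3 := h.ker _ hR3
  rw [h.mul_of_one hχu, h.mul_of_one hχu, hu, hinv] at hc3
  have htr : c u 0 0 + c u 1 1 = 0 := by
    rw [← trace2]; exact h.tr u
  have e := congrFun (congrFun hc3 0) 1
  simp [Matrix.mul_apply, Fin.sum_univ_two, Matrix.add_apply] at e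
  unfold tau
  rw [hu, trace2]
  simp [Matrix.mul_apply, Fin.sum_univ_two]
  linear_combination e + (2 * c u 1 0 - c u 0 1 - c u 1 1 + c u 0 0) * h3 + htr

theorem natCast_ne_zero_of_prime (p : ℕ) [Fact p.Prime] [CharP k p] {n : ℕ} (hn : n.Prime)
    (hpn : p ≠ n) : ((n : ℕ) : k) ≠ 0 := by
  intro h0
  rw [CharP.cast_eq_zero_iff k p] at h0
  exact hpn ((Nat.prime_dvd_prime_iff_eq Fact.out hn).mp h0)

/-- `τ` vanishes on the standard unipotent (all odd characteristics). -/
theorem TwCoc.tau_unip_normalised (h : TwCoc R χ c) (p : ℕ) [Fact p.Prime] [CharP k p]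
    (hp2 : p ≠ 2)
    (hV : ∀ g, χ g = 1 → (R g).trace ^ 2 ≠ 4 → tau R c g = 0)
    (h5 : p = 5 → ∃ γ : G, (χ γ : k) ^ 2 ≠ 1)
    {u : G} (hu : R u = Umat) {x₀ : G} (hx₀ : R x₀ 1 0 ≠ 0) : tau R c u = 0 := by
  have h2 : (2 : k) ≠ 0 := by
    have := natCast_ne_zero_of_prime (k := k) p Nat.prime_two hp2
    simpa using this
  by_cases hp3 : p = 3
  · apply h.tau_unip_three _ hu
    have : ((3 : ℕ) : k) = 0 := by
      rw [CharP.cast_eq_zero_iff k p, hp3]
    simpa using this
  have h3 : (3 : k) ≠ 0 := by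
    have := natCast_ne_zero_of_prime (k := k) p Nat.prime_three hp3
    simpa using this
  have hs : ∀ x : G, R x 1 0 ≠ 0 → (Emat * (R x * Emat * R x⁻¹)).trace ≠ 0 := by
    intro x hx hs0
    have e := (conj_data h hu x).2.2.2
    rw [hs0, zero_mul] at e
    have : R x 1 0 ^ 2 = 0 := by linear_combination e
    exact hx (pow_eq_zero_iff (two_ne_zero) |>.mp this)
  by_cases hp5 : p = 5
  · by_contra ht
    have h50 : (5 : k) = 0 := by
      have : ((5 : ℕ) : k) = 0 := by rw [CharP.cast_eq_zero_iff k p, hp5]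
      simpa using this
    have K5 : ∀ x : G, R x 1 0 ≠ 0 → (χ x : k) ^ 2 = 1 := fun x hx =>
      field_K5 _ _ _ (hs x hx) h2 h3 h50 (fun a b h0 h1 => h.rel_normalised hV h2 hu x a b h0 h1) ht
    obtain ⟨γ, hγ⟩ := h5 hp5
    have hγ0 : R γ 1 0 = 0 := by
      by_contra hne
      exact hγ (K5 γ hne)
    have hx2 := K5 x₀ hx₀
    have hxγ : R (x₀ * γ) 1 0 = 0 := by
      by_contra hne
      have := K5 (x₀ * γ) hne
      rw [map_mul, Units.val_mul, mul_pow, hx2, one_mul] at this
      exact hγ this
    rw [map_mul, Matrix.mul_apply, Fin.sum_univ_two, hγ0, mul_zero, add_zero] at hxγ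
    have hγ00 : R γ 0 0 = 0 := (mul_eq_zero.mp hxγ).resolve_left hx₀
    have hdet := h.det γ
    rw [Matrix.det_fin_two, hγ00, hγ0, zero_mul, mul_zero, sub_zero] at hdet
    exact (χ γ).ne_zero hdet.symm
  · have h5' : (5 : k) ≠ 0 := by
      have := natCast_ne_zero_of_prime (k := k) p (by norm_num : Nat.Prime 5) hp5
      simpa using this
    exact field_K _ _ _ (hs x₀ hx₀) h2 h3 h5'
      (fun a b h0 h1 => h.rel_normalised hV h2 hu x₀ a b h0 h1)

end Fermat.Agent.S56.TWS.H74

end
-- ==== END Fermat.Agent.S56.TWS.H74_Unip
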