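-- GENERATED (merged mirror, NOTES/tools/trim/merge3_helper67.py): 7 modules of the originals, bodies verbatim.
import Mathlib
import Fermat.Agent.Zm.S56_L02_003
import Fermat.Agent.Zm.S56_L02_004
import Fermat.Agent.Zm.S56_L01_005
import Fermat.Agent.Zm.S56_L02_005
import Fermat.Agent.Zm.S56_L01_006
import Fermat.Agent.Zm.S56_L01_000
import Fermat.Agent.Zm.S35_L03_001

-- ==== BEGIN Fermat.Agent.S56.FL.H54_UnramCyc
section

/-!
# LOC-p-FL (helper54): the fields `ℚ_p(ζ)`, `ζ` a root of unity of order prime to `p`, are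
unramified

* `norm_sub_eq_one_of_roots` : distinct roots of unity of order prime to `p` are incongruent;
* `norm_det_le_one`, `norm_le_of_mulVec` : Cramer's rule for matrices with integral entries and
  unit determinant;
* `norm_le_inv_of_mem_adjoin_root` : an element of `ℚ_p(ζ)` of norm `< 1` has norm `≤ 1/p`.
-/

set_option autoImplicit false
set_option linter.unusedSectionVars false
set_option linter.style.haveILetI false

noncomputable section

namespace Fermat.Agent.S56.FL.H54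

open scoped NNReal IntermediateField
open Fermat.Agent.S56.FL Polynomial

variable {p : ℕ} [Fact p.Prime]

theorem norm_eq_one_of_pow_eq_one {N : ℕ} (hN : 0 < N) {z : PadicAlgCl p} (hz : z ^ N = 1) :
    ‖z‖ = 1 := by
  have h1 : ‖z‖ ^ N = 1 := by rw [← norm_pow, hz, norm_one]
  exact (pow_eq_one_iff_of_nonneg (norm_nonneg z) hN.ne').mp h1

theorem norm_natCast_eq_one {N : ℕ} (hpN : ¬ p ∣ N) : ‖(N : PadicAlgCl p)‖ = 1 := by
  have h : (N : PadicAlgCl p) = algebraMap ℚ_[p] (PadicAlgCl p) (N : ℚ_[p]) := by simp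
  rw [h, PadicAlgCl.norm_extends, Padic.norm_natCast_eq_one_iff]
  exact (Nat.Prime.coprime_iff_not_dvd (Fact.out : p.Prime)).mpr hpN

theorem norm_pow_sub_one_le {u : PadicAlgCl p} (hu : ‖u‖ ≤ 1) (j : ℕ) :
    ‖u ^ j - 1‖ ≤ ‖u - 1‖ := by
  induction j with
  | zero => simp
  | succ j ih =>
    have h1 : u ^ (j + 1) - 1 = u * (u ^ j - 1) + (u - 1) := by ring
    rw [h1]
    refine (IsUltrametricDist.norm_add_le_max _ _).trans (max_le ?_ le_rfl)
    rw [norm_mul]
    calc ‖u‖ * ‖u ^ j - 1‖ ≤ 1 * ‖u - 1‖ :=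
          mul_le_mul hu ih (norm_nonneg _) zero_le_one
      _ = ‖u - 1‖ := one_mul _

/-- Distinct roots of unity of order prime to `p` are incongruent modulo the maximal ideal. -/
theorem norm_sub_eq_one_of_roots {N : ℕ} (hN : 0 < N) (hpN : ¬ p ∣ N) {z w : PadicAlgCl p}
    (hz : z ^ N = 1) (hw : w ^ N = 1) (hzw : z ≠ w) : ‖z - w‖ = 1 := by
  have hz1 := norm_eq_one_of_pow_eq_one hN hz
  have hw1 := norm_eq_one_of_pow_eq_one hN hw
  have hw0 : w ≠ 0 := by
    intro h
    rw [h, norm_zero] at hw1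
    exact zero_ne_one hw1
  have hle : ‖z - w‖ ≤ 1 := by
    rw [sub_eq_add_neg]
    refine (IsUltrametricDist.norm_add_le_max z (-w)).trans (max_le hz1.le ?_)
    rw [norm_neg]
    exact hw1.le
  by_contra hne
  have hlt : ‖z - w‖ < 1 := lt_of_le_of_ne hle hne
  set u := z / w with hu
  have hu1 : ‖u‖ = 1 := by rw [hu, norm_div, hz1, hw1, div_one]
  have huN : u ^ N = 1 := by rw [hu, div_pow, hz, hw, div_one]
  have hune : u ≠ 1 := by
    intro h
    apply hzw
    rw [hu, div_eq_one_iff_eq hw0] at h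
    exact h
  have hu_sub : ‖u - 1‖ < 1 := by
    have : u - 1 = (z - w) / w := by
      rw [hu]
      field_simp
    rw [this, norm_div, hw1, div_one]
    exact hlt
  have hgeom : ∑ i ∈ Finset.range N, u ^ i = 0 := by
    have h1 := geom_sum_mul u N
    rw [huN, sub_self] at h1
    rcases mul_eq_zero.mp h1 with h | h
    · exact h
    · exact absurd (sub_eq_zero.mp h) hune
  have hsum : ‖∑ i ∈ Finset.range N, (u ^ i - 1)‖ < 1 := by
    refine lt_of_le_of_lt (IsUltrametricDist.norm_sum_le_of_forall_le_of_nonneg (norm_nonneg _)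
      (fun i _ => norm_pow_sub_one_le hu1.le i)) hu_sub
  rw [Finset.sum_sub_distrib, hgeom, zero_sub, norm_neg] at hsum
  simp only [Finset.sum_const, Finset.card_range, nsmul_eq_mul, mul_one] at hsum
  rw [norm_natCast_eq_one hpN] at hsum
  exact lt_irrefl _ hsum

/-- The determinant of a matrix with integral entries is integral. -/
theorem norm_det_le_one {n : ℕ} (M : Matrix (Fin n) (Fin n) (PadicAlgCl p))
    (hM : ∀ i j, ‖M i j‖ ≤ 1) : ‖M.det‖ ≤ 1 := by
  rw [Matrix.det_apply]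
  refine IsUltrametricDist.norm_sum_le_of_forall_le_of_nonneg zero_le_one fun σ _ => ?_
  have h1 : ‖∏ i, M (σ i) i‖ ≤ 1 := by
    rw [norm_prod]
    exact Finset.prod_le_one (fun i _ => norm_nonneg _) (fun i _ => hM _ _)
  rcases Int.units_eq_one_or (Equiv.Perm.sign σ) with h | h
  · rw [h, one_smul]
    exact h1
  · rw [h, Units.neg_smul, one_smul, norm_neg]
    exact h1

/-- Cramer's rule: a matrix with integral entries and unit determinant does not decrease norms. -/
theorem norm_le_of_mulVec {n : ℕ} (V : Matrix (Fin n) (Fin n) (PadicAlgCl p))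
    (hV : ∀ i j, ‖V i j‖ ≤ 1) (hdet : ‖V.det‖ = 1) (a : Fin n → PadicAlgCl p) (B : ℝ)
    (hB : 0 ≤ B) (hc : ∀ j, ‖V.mulVec a j‖ ≤ B) (i : Fin n) : ‖a i‖ ≤ B := by
  classical
  have h1 : V.adjugate.mulVec (V.mulVec a) = V.det • a := by
    rw [Matrix.mulVec_mulVec, Matrix.adjugate_mul, Matrix.smul_mulVec, Matrix.one_mulVec]
  have h2 : V.det * a i = ∑ j, V.adjugate i j * V.mulVec a j := by
    have := congrFun h1 i
    rw [Pi.smul_apply, smul_eq_mul] at this
    rw [← this]
    rfl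
  have h3 : ‖V.det * a i‖ ≤ B := by
    rw [h2]
    refine IsUltrametricDist.norm_sum_le_of_forall_le_of_nonneg hB fun j _ => ?_
    rw [norm_mul]
    have hadj : ‖V.adjugate i j‖ ≤ 1 := by
      rw [Matrix.adjugate_apply]
      apply norm_det_le_one
      intro k l
      rw [Matrix.updateRow_apply]
      split_ifs with hk
      · rw [Pi.single_apply]
        split_ifs
        · rw [norm_one]
        · rw [norm_zero]; exact zero_le_one
      · exact hV k l
    calc ‖V.adjugate i j‖ * ‖V.mulVec a j‖ ≤ 1 * B :=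
          mul_le_mul hadj (hc j) (norm_nonneg _) zero_le_one
      _ = B := one_mul B
  rwa [norm_mul, hdet, one_mul] at h3

theorem padic_norm_le_inv_of_lt_one (x : ℚ_[p]) (hx : ‖x‖ < 1) : ‖x‖ ≤ (p : ℝ)⁻¹ := by
  have h := (Padic.norm_le_pow_iff_norm_lt_pow_add_one x (-1)).mpr (by simpa using hx)
  simpa using h

/-- **`ℚ_p(ζ)` is unramified**: an element of norm `< 1` has norm `≤ 1/p`. -/
theorem norm_le_inv_of_mem_adjoin_root {N : ℕ} (hN : 0 < N) (hpN : ¬ p ∣ N)
    {ζ : PadicAlgCl p} (hζ : ζ ^ N = 1) {c : PadicAlgCl p} (hc : c ∈ ℚ_[p]⟮ζ⟯)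
    (hc1 : ‖c‖ < 1) : ‖c‖ ≤ (p : ℝ)⁻¹ := by
  classical
  have halg : IsAlgebraic ℚ_[p] ζ := Algebra.IsAlgebraic.isAlgebraic ζ
  have hint : IsIntegral ℚ_[p] ζ := halg.isIntegral
  set P := minpoly ℚ_[p] ζ with hP
  have hPmonic : P.Monic := minpoly.monic hint
  have hPirr : Irreducible P := minpoly.irreducible hint
  have hPne1 : P ≠ 1 := fun h => by
    have := hPirr.not_isUnit
    rw [h] at this
    exact this isUnit_one
  set d := P.natDegree with hd
  -- the coefficients of `c`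
  have hc' : c ∈ (ℚ_[p]⟮ζ⟯).toSubalgebra := hc
  rw [IntermediateField.adjoin_simple_toSubalgebra_of_isAlgebraic halg,
    Algebra.adjoin_singleton_eq_range_aeval] at hc'
  obtain ⟨R, hR⟩ := hc'
  have hR' : aeval ζ (R %ₘ P) = c := by
    rw [aeval_modByMonic_eq_self_of_root (minpoly.aeval ℚ_[p] ζ)]
    exact hR
  have hdeg : (R %ₘ P).natDegree < d := natDegree_modByMonic_lt R hPmonic hPne1
  set a : Fin d → ℚ_[p] := fun i => (R %ₘ P).coeff i with ha
  have hexp : ∀ x : PadicAlgCl p, aeval x (R %ₘ P) =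
      ∑ i : Fin d, algebraMap ℚ_[p] (PadicAlgCl p) (a i) * x ^ (i : ℕ) := by
    intro x
    rw [aeval_eq_sum_range' hdeg, Finset.sum_range]
    refine Finset.sum_congr rfl fun i _ => ?_
    rw [Algebra.smul_def]
  -- the roots of `P`
  have hsplit : (P.map (algebraMap ℚ_[p] (PadicAlgCl p))).Splits := IsAlgClosed.splits _
  have hcard : Fintype.card (P.rootSet (PadicAlgCl p)) = d :=
    card_rootSet_eq_natDegree hPirr.separable hsplit
  let e : Fin d ≃ P.rootSet (PadicAlgCl p) := (Fintype.equivFinOfCardEq hcard).symm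
  set v : Fin d → PadicAlgCl p := fun j => (e j : PadicAlgCl p) with hv
  have hv_inj : Function.Injective v := fun i j hij => e.injective (Subtype.ext hij)
  have hv_root : ∀ j, aeval (v j) P = 0 := fun j => (mem_rootSet.mp (e j).2).2
  have hdvd : P ∣ (X ^ N - 1 : ℚ_[p][X]) := by
    apply minpoly.dvd
    simp [hζ]
  have hv_pow : ∀ j, v j ^ N = 1 := by
    intro j
    obtain ⟨Q, hQ⟩ := hdvd
    have := congrArg (aeval (v j)) hQ
    rw [map_mul, hv_root j, zero_mul] at this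
    simpa [sub_eq_zero] using this
  have hv_norm : ∀ j, ‖v j‖ = 1 := fun j => norm_eq_one_of_pow_eq_one hN (hv_pow j)
  -- the conjugates of `c`
  haveI : Algebra.IsAlgebraic ℚ_[p] (PadicAlgCl p) := AlgebraicClosure.isAlgebraic ℚ_[p]
  haveI : IsAlgClosure ℚ_[p] (PadicAlgCl p) := ⟨inferInstance, inferInstance⟩
  haveI : Normal ℚ_[p] (PadicAlgCl p) := inferInstance
  have hconj : ∀ j, ‖aeval (v j) (R %ₘ P)‖ = ‖c‖ := by
    intro j
    obtain ⟨σ, hσ⟩ := minpoly.exists_algEquiv_of_root' halg (hv_root j)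
    have h1 : aeval (v j) (R %ₘ P) = σ c := by
      rw [← hR', ← hσ]
      exact (Polynomial.aeval_algHom_apply (σ : PadicAlgCl p →ₐ[ℚ_[p]] PadicAlgCl p) ζ
        (R %ₘ P))
    rw [h1]
    exact norm_gal p σ c
  -- the Vandermonde matrix
  set V := Matrix.vandermonde v with hVdef
  have hVent : ∀ i j, ‖V i j‖ ≤ 1 := by
    intro i j
    rw [hVdef, Matrix.vandermonde_apply, norm_pow, hv_norm, one_pow]
  have hVdet : ‖V.det‖ = 1 := by
    rw [hVdef, Matrix.det_vandermonde, norm_prod]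
    refine Finset.prod_eq_one fun i _ => ?_
    rw [norm_prod]
    refine Finset.prod_eq_one fun j hj => ?_
    refine norm_sub_eq_one_of_roots hN hpN (hv_pow j) (hv_pow i) ?_
    intro h
    have := hv_inj h
    rw [Finset.mem_Ioi] at hj
    exact (ne_of_gt hj) this
  have hmul : ∀ j, V.mulVec (fun i => algebraMap ℚ_[p] (PadicAlgCl p) (a i)) j =
      aeval (v j) (R %ₘ P) := by
    intro j
    rw [hexp]
    show ∑ i, V j i * algebraMap ℚ_[p] (PadicAlgCl p) (a i) = _
    refine Finset.sum_congr rfl fun i _ => ?_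
    rw [hVdef, Matrix.vandermonde_apply, mul_comm]
  have hcoef : ∀ i, ‖a i‖ ≤ (p : ℝ)⁻¹ := by
    intro i
    have h1 := norm_le_of_mulVec V hVent hVdet
      (fun i => algebraMap ℚ_[p] (PadicAlgCl p) (a i)) ‖c‖ (norm_nonneg _)
      (fun j => by rw [hmul, hconj]) i
    rw [PadicAlgCl.norm_extends] at h1
    exact padic_norm_le_inv_of_lt_one _ (lt_of_le_of_lt h1 hc1)
  rw [← hR', hexp]
  refine IsUltrametricDist.norm_sum_le_of_forall_le_of_nonneg (by positivity) fun i _ => ?_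
  rw [norm_mul, norm_pow, norm_eq_one_of_pow_eq_one hN hζ, one_pow, mul_one,
    PadicAlgCl.norm_extends]
  exact hcoef i

end Fermat.Agent.S56.FL.H54

end

end
-- ==== END Fermat.Agent.S56.FL.H54_UnramCyc

-- ==== BEGIN Fermat.Agent.S56.FL.H85_CCDefs
section

set_option autoImplicit false

/-!
# LOC-p-FL, package UNITS (helper85): the counts `CC1`, `CC2`, `CC3` with `μ_p` in the bounded field

In the cohomological glue the bounded field `L` of a cocycle trivialises `ρbar|G_p`, hence its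
determinant, the cyclotomic character; so `μ_p ⊆ L`.  Kummer theory (and `Stmt_KUMBDD`) needs
exactly this.  The statements below are `Stmt_CC1`, `Stmt_CC2`, `Stmt_CC3` of `FL/Coh.lean`,
`FL/Count.lean` for bounded cocycles whose bounded field contains `μ_p`.

* `IsBddCocycleZ G₁ χ c` : as `IsBddCocycle`, and the bounded field contains `μ_p`.
* `DimLeOneZ G₁ χ`       : any two such cocycles are dependent modulo coboundaries.
* `Stmt_CC1z`, `Stmt_CC2z`, `Stmt_CC3z`.
-/

noncomputable section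

namespace Fermat.Agent.S56.FL

open scoped NNReal

variable {p : ℕ} [Fact p.Prime] {k : Type} [Field k]

/-- A bounded `χ`-cocycle on the subgroup `G₁` of the local Galois group, the bounded field
containing the `p`-th roots of unity. -/
def IsBddCocycleZ (G₁ : Subgroup (Gp p)) (χ : G₁ →* kˣ) (c : G₁ → k) : Prop :=
  (∀ σ τ : G₁, c (σ * τ) = c σ + (χ σ : k) * c τ) ∧
    ∃ (L : IntermediateField ℚ_[p] (PadicAlgCl p)) (_ : FiniteDimensional ℚ_[p] L),
      Normal ℚ_[p] L ∧ IsBddField p L ∧ (∀ ζ : PadicAlgCl p, ζ ^ p = 1 → ζ ∈ L) ∧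
        ∀ σ : G₁, (σ : Gp p) ∈ L.fixingSubgroup → χ σ = 1 ∧ c σ = 0

theorem IsBddCocycleZ.isBddCocycle {G₁ : Subgroup (Gp p)} {χ : G₁ →* kˣ} {c : G₁ → k}
    (h : IsBddCocycleZ G₁ χ c) : IsBddCocycle G₁ χ c := by
  obtain ⟨h1, L, hfd, hN, hB, -, h2⟩ := h
  exact ⟨h1, L, hfd, hN, hB, h2⟩

/-- `dim_k H¹_bdd(G₁, k(χ)) ≤ 1` (bounded fields containing `μ_p`). -/
def DimLeOneZ (G₁ : Subgroup (Gp p)) (χ : G₁ →* kˣ) : Prop :=
  ∀ c₁ c₂ : G₁ → k, IsBddCocycleZ G₁ χ c₁ → IsBddCocycleZ G₁ χ c₂ →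
    ∃ l₁ l₂ a : k, (l₁ ≠ 0 ∨ l₂ ≠ 0) ∧ ∀ σ : G₁, l₁ * c₁ σ + l₂ * c₂ σ = ((χ σ : k) - 1) * a

/-- **CC1z.** `χ : G_{ℚ_p} → kˣ` equal to the cyclotomic character on inertia:
`dim H¹_bdd(G_p, k(χ)) ≤ 1`. -/
def Stmt_CC1z : Prop :=
  ∀ (p : ℕ) [Fact p.Prime], p ≠ 2 →
    ∀ (k : Type) [Field k] [Finite k] [CharP k p] (χ : (⊤ : Subgroup (Gp p)) →* kˣ),
      (∀ σ : (⊤ : Subgroup (Gp p)), (σ : Gp p) ∈ inertiaP p → IsCycloAt (χ σ : k) (σ : Gp p)) →
      DimLeOneZ (⊤ : Subgroup (Gp p)) χ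

/-- **CC2z.** As `Stmt_CC2`, for bounded fields containing `μ_p`. -/
def Stmt_CC2z : Prop :=
  ∀ (p : ℕ) [Fact p.Prime], p ≠ 2 →
    ∀ (k : Type) [Field k] [Finite k] [CharP k p] (G₂ : Subgroup (Gp p)), inertiaP p ≤ G₂ →
      G₂.index = 2 →
      ∀ (χ : G₂ →* kˣ) (ψ : inertiaP p →* kˣ),
        (∀ σ : inertiaP p, IsCycloAt ((ψ σ : k) ^ (p + 1)) (σ : Gp p)) →
        (∀ (σ : G₂) (hσ : (σ : Gp p) ∈ inertiaP p),
          (χ σ : k) * (ψ ⟨σ, hσ⟩ : k) ^ p = (ψ ⟨σ, hσ⟩ : k)) →
        DimLeOneZ G₂ χ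

/-- **CC3z.** `χ : G_{ℚ_p} → kˣ` whose restriction to inertia is neither trivial nor the
cyclotomic character: every bounded `χ`-cocycle (bounded field containing `μ_p`) is a
coboundary. -/
def Stmt_CC3z : Prop :=
  ∀ (p : ℕ) [Fact p.Prime], p ≠ 2 →
    ∀ (k : Type) [Field k] [Finite k] [CharP k p] (χ : (⊤ : Subgroup (Gp p)) →* kˣ),
      (∃ σ : (⊤ : Subgroup (Gp p)), (σ : Gp p) ∈ inertiaP p ∧ χ σ ≠ 1) →
      (∃ σ : (⊤ : Subgroup (Gp p)), (σ : Gp p) ∈ inertiaP p ∧ ¬ IsCycloAt (χ σ : k) (σ : Gp p)) →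
      ∀ c : (⊤ : Subgroup (Gp p)) → k, IsBddCocycleZ (⊤ : Subgroup (Gp p)) χ c →
        ∃ a : k, ∀ σ : (⊤ : Subgroup (Gp p)), c σ = ((χ σ : k) - 1) * a

end Fermat.Agent.S56.FL

end

end
-- ==== END Fermat.Agent.S56.FL.H85_CCDefs

-- ==== BEGIN Fermat.Agent.S56.FL.LF.H15_Unif
section

set_option autoImplicit false

/-!
# LOC-p-FL, LF basics (helper15), part 2: discreteness of the value group, uniformizer,
finitely many residue classes.
-/

noncomputable section

namespace Fermat.Agent.S56.FL.H15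

open scoped NNReal
open Fermat.Agent.S56.FL Module

variable {p : ℕ} [Fact p.Prime]

theorem one_lt_p_real : (1 : ℝ) < (p : ℝ) := by
  exact_mod_cast (Fact.out : p.Prime).one_lt

theorem p_pos_real : (0 : ℝ) < (p : ℝ) := by
  exact_mod_cast (Fact.out : p.Prime).pos

theorem norm_p_algCl : ‖(p : PadicAlgCl p)‖ = (p : ℝ)⁻¹ := by
  have h : (p : PadicAlgCl p) = algebraMap ℚ_[p] (PadicAlgCl p) (p : ℚ_[p]) := by simp
  rw [h, PadicAlgCl.norm_extends, Padic.norm_p]

theorem norm_natCast_le_one (n : ℕ) : ‖(n : PadicAlgCl p)‖ ≤ 1 := by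
  have h : (n : PadicAlgCl p) = algebraMap ℚ_[p] (PadicAlgCl p) (n : ℚ_[p]) := by simp
  rw [h, PadicAlgCl.norm_extends]
  have := Padic.norm_int_le_one (p := p) (n : ℤ)
  simpa using this

theorem norm_intCast_le_one (n : ℤ) : ‖(n : PadicAlgCl p)‖ ≤ 1 := by
  have h : (n : PadicAlgCl p) = algebraMap ℚ_[p] (PadicAlgCl p) (n : ℚ_[p]) := by simp
  rw [h, PadicAlgCl.norm_extends]
  exact Padic.norm_int_le_one n

/-- The `d`-th power of the norm of `y ≠ 0` is a power of `p`, `d` the degree of `y`. -/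
theorem norm_pow_natDegree (y : PadicAlgCl p) (hy : y ≠ 0) :
    ∃ k : ℤ, ‖y‖ ^ (minpoly ℚ_[p] y).natDegree = (p : ℝ) ^ k := by
  have hint : IsIntegral ℚ_[p] y := (Algebra.IsAlgebraic.isAlgebraic y).isIntegral
  have hd : (minpoly ℚ_[p] y).natDegree ≠ 0 := (minpoly.natDegree_pos hint).ne'
  have h0 : (minpoly ℚ_[p] y).coeff 0 ≠ 0 := minpoly.coeff_zero_ne_zero hint hy
  refine ⟨-((minpoly ℚ_[p] y).coeff 0).valuation, ?_⟩
  rw [← Padic.norm_eq_zpow_neg_valuation h0, ← PadicAlgCl.spectralNorm_eq,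
    spectralNorm.spectralNorm_eq_norm_coeff_zero_rpow, one_div]
  exact Real.rpow_inv_natCast_pow (norm_nonneg _) hd

variable (L : IntermediateField ℚ_[p] (PadicAlgCl p))

/-- Discreteness: the `n`-th power of the norm of `y ∈ L`, `y ≠ 0`, `n = [L : ℚ_p]`, is a power
of `p`. -/
theorem norm_pow_finrank (y : L) (hy : y ≠ 0) :
    ∃ k : ℤ, ‖(y : PadicAlgCl p)‖ ^ (finrank ℚ_[p] L) = (p : ℝ) ^ k := by
  have hy' : (y : PadicAlgCl p) ≠ 0 := by
    intro h; exact hy (Subtype.ext h)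
  obtain ⟨k, hk⟩ := norm_pow_natDegree (y : PadicAlgCl p) hy'
  have hmin : minpoly ℚ_[p] (y : PadicAlgCl p) = minpoly ℚ_[p] y :=
    (minpoly.algebraMap_eq (algebraMap L (PadicAlgCl p)).injective y)
  have hint : IsIntegral ℚ_[p] y := (Algebra.IsAlgebraic.isAlgebraic y).isIntegral
  obtain ⟨m, hm⟩ := minpoly.degree_dvd hint
  refine ⟨k * m, ?_⟩
  rw [hm, pow_mul, ← hmin, hk, zpow_mul, zpow_natCast]

variable [FiniteDimensional ℚ_[p] L]

/-- There is a uniformizer. -/
theorem exists_uniformizer :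
    ∃ π : L, 0 < ‖(π : PadicAlgCl p)‖ ∧ ‖(π : PadicAlgCl p)‖ < 1 ∧
      ∀ a : L, ‖(a : PadicAlgCl p)‖ < 1 → ‖(a : PadicAlgCl p)‖ ≤ ‖(π : PadicAlgCl p)‖ := by
  classical
  set n := finrank ℚ_[p] L with hn
  have hnpos : 0 < n := finrank_pos
  -- the set of exponents of elements of norm < 1
  let S : Set ℤ := {k | ∃ y : L, y ≠ 0 ∧ ‖(y : PadicAlgCl p)‖ < 1 ∧
    ‖(y : PadicAlgCl p)‖ ^ n = (p : ℝ) ^ k}
  have hp1 : (1 : ℝ) < p := one_lt_p_real
  have hSbdd : ∀ k ∈ S, k ≤ -1 := by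
    rintro k ⟨y, -, hy1, hyk⟩
    by_contra hk
    have hk0 : 0 ≤ k := by omega
    have h1 : (1 : ℝ) ≤ (p : ℝ) ^ k := one_le_zpow₀ hp1.le hk0
    have h2 : ‖(y : PadicAlgCl p)‖ ^ n < 1 := pow_lt_one₀ (norm_nonneg _) hy1 hnpos.ne'
    rw [hyk] at h2
    exact absurd h1 (not_le.mpr h2)
  have hSne : ∃ k, k ∈ S := by
    have hpL : (p : L) ≠ 0 := by exact_mod_cast (Fact.out : p.Prime).ne_zero
    obtain ⟨k, hk⟩ := norm_pow_finrank L (p : L) hpL
    refine ⟨k, (p : L), hpL, ?_, hk⟩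
    push_cast
    rw [norm_p_algCl]
    exact inv_lt_one_of_one_lt₀ hp1
  obtain ⟨k₀, hk₀S, hk₀max⟩ := Int.exists_greatest_of_bdd ⟨-1, hSbdd⟩ hSne
  obtain ⟨π, hπ0, hπ1, hπk⟩ := hk₀S
  have hπ' : (π : PadicAlgCl p) ≠ 0 := fun h => hπ0 (Subtype.ext h)
  refine ⟨π, norm_pos_iff.mpr hπ', hπ1, ?_⟩
  intro a ha
  by_cases ha0 : a = 0
  · subst ha0; simp
  obtain ⟨k, hk⟩ := norm_pow_finrank L a ha0
  have hkS : k ∈ S := ⟨a, ha0, ha, hk⟩
  have hle : k ≤ k₀ := hk₀max k hkS
  have hpow : ‖(a : PadicAlgCl p)‖ ^ n ≤ ‖(π : PadicAlgCl p)‖ ^ n := by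
    rw [hk, hπk]
    exact zpow_le_zpow_right₀ hp1.le hle
  exact le_of_pow_le_pow_left₀ hnpos.ne' (norm_nonneg _) hpow

/-- Finitely many residue classes: a finite set of integers of `L` meeting every residue class
modulo the maximal ideal. -/
theorem exists_finite_residue_reps :
    ∃ T : Finset L, (∀ t ∈ T, ‖(t : PadicAlgCl p)‖ ≤ 1) ∧
      ∀ a : L, ‖(a : PadicAlgCl p)‖ ≤ 1 → ∃ t ∈ T, ‖(a : PadicAlgCl p) - (t : PadicAlgCl p)‖ < 1 := by
  classical
  have : ProperSpace L := FiniteDimensional.proper ℚ_[p] L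
  have hcomp : IsCompact (Metric.closedBall (0 : L) 1) := isCompact_closedBall 0 1
  obtain ⟨t, hts, htfin, hcov⟩ := finite_cover_balls_of_compact hcomp (e := 1) one_pos
  refine ⟨htfin.toFinset, ?_, ?_⟩
  · intro x hx
    have hx' : x ∈ Metric.closedBall (0 : L) 1 := hts (htfin.mem_toFinset.mp hx)
    have : ‖x‖ ≤ 1 := by simpa using hx'
    exact this
  · intro a ha
    have ha' : a ∈ Metric.closedBall (0 : L) 1 := by
      simp only [Metric.mem_closedBall, dist_zero_right]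
      exact ha
    have := hcov ha'
    simp only [Set.mem_iUnion, Metric.mem_ball, exists_prop] at this
    obtain ⟨x, hxt, hx⟩ := this
    refine ⟨x, htfin.mem_toFinset.mpr hxt, ?_⟩
    rw [dist_eq_norm] at hx
    exact hx

end Fermat.Agent.S56.FL.H15

end

end
-- ==== END Fermat.Agent.S56.FL.LF.H15_Unif

-- ==== BEGIN Fermat.Agent.S56.H9_Level
section

/-!
# S56, leaf LOC-TW: the bound at a finite level

`G` acts on `M` through `r̃ : G → Γ`, `Γ` a finite group acting faithfully on a Dedekind domain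
`B`, the image of `r̃` stabilising a nonzero prime `𝔓` with finite residue field of
characteristic `q`; the elements mapping to the inertia group act trivially on `M`.  Then
`ker r̃` is a tame level for `M`.
-/

set_option autoImplicit false
set_option linter.unusedSectionVars false
set_option linter.style.haveILetI false

namespace Fermat.Agent.S56.H9

open CategoryTheory groupCohomology

universe u

theorem tameLevel_ker {k G : Type u} [Field k] [Group G] (M : Rep k G)
    {B : Type*} [CommRing B] [IsDedekindDomain B] {Γ : Type*} [Group Γ] [Finite Γ]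
    [MulSemiringAction Γ B] [FaithfulSMul Γ B]
    (𝔓 : Ideal B) [𝔓.IsMaximal] (h𝔓 : 𝔓 ≠ ⊥) (q : ℕ) [Fact q.Prime] [CharP (B ⧸ 𝔓) q]
    [Finite (B ⧸ 𝔓)] (hqk : (q : k) = 1)
    (rt : G →* Γ) (hstab : ∀ g : G, ∀ x : B, rt g • x ∈ 𝔓 ↔ x ∈ 𝔓)
    (hI : ∀ g : G, rt g ∈ 𝔓.inertia Γ → M.ρ g = 1) :
    TameLevel M rt.ker := by
  classical
  have hq𝔓 : (q : B) ∈ 𝔓 := by
    rw [← Ideal.Quotient.eq_zero_iff_mem, map_natCast]
    exact CharP.cast_eq_zero (B ⧸ 𝔓) q
  have h𝔓top : 𝔓 ≠ ⊤ := Ideal.IsPrime.ne_top inferInstance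
  -- Frobenius generator
  have hD' : ∀ σ ∈ rt.range, ∀ x, σ • x ∈ 𝔓 ↔ x ∈ 𝔓 := by
    rintro _ ⟨g, rfl⟩ x
    exact hstab g x
  obtain ⟨φ', hφ', a, hφa, hgen'⟩ := exists_frob_generator 𝔓 q rt.range hD'
  obtain ⟨φ, rfl⟩ := hφ'
  -- generator of tame inertia
  have hJ : rt.range ⊓ 𝔓.inertia Γ ≤ 𝔓.inertia Γ := inf_le_right
  obtain ⟨τ₀', hτ₀', hcyc'⟩ := exists_generator_mod_wild h𝔓 (rt.range ⊓ 𝔓.inertia Γ) hJ
  obtain ⟨⟨τ₀, rfl⟩, hτ₀I⟩ := hτ₀'
  refine ⟨(𝔓.inertia Γ).comap rt, (wild 𝔓 Γ).comap rt, φ, τ₀, q, q ^ a, ?_, ?_, hτ₀I, ?_, ?_, ?_,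
    ?_, ?_, ?_, ?_⟩
  · -- U ≤ P
    intro g hg
    rw [Subgroup.mem_comap, MonoidHom.mem_ker.1 hg]
    exact one_mem _
  · -- P ≤ I
    intro g hg
    exact wild_le_inertia 𝔓 hg
  · -- I acts trivially
    intro i hi
    exact hI i hi
  · -- G = ⟨φ⟩ I
    intro g
    obtain ⟨n, hn⟩ := hgen' (rt g) ⟨g, rfl⟩
    refine ⟨n, (φ ^ n)⁻¹ * g, ?_, ?_⟩
    · rw [Subgroup.mem_comap, map_mul, map_inv, map_pow]
      exact hn
    · rw [mul_inv_cancel_left]
  · -- I = ⟨τ₀⟩ P
    intro i hi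
    obtain ⟨n, hn⟩ := hcyc' (rt i) ⟨⟨i, rfl⟩, hi⟩
    refine ⟨n, (τ₀ ^ n)⁻¹ * i, ?_, ?_⟩
    · rw [Subgroup.mem_comap, map_mul, map_inv, map_pow]
      exact hn
    · rw [mul_inv_cancel_left]
  · -- P / U is a q-group
    intro x hx
    have hσ : rt x ∈ wild 𝔓 Γ := hx
    have hord : orderOf (rt x) ≠ 0 := (orderOf_pos (rt x)).ne'
    obtain ⟨e, n, hn, hen⟩ := Nat.exists_eq_pow_mul_and_not_dvd hord q
      (Fact.out : q.Prime).ne_one
    refine ⟨e, ?_⟩
    rw [MonoidHom.mem_ker, map_pow]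
    have hcop : n.Coprime q :=
      (Nat.Coprime.symm ((Nat.Prime.coprime_iff_not_dvd (Fact.out : q.Prime)).2 hn))
    have hpow : ∀ y : B, ((rt x ^ q ^ e) ^ n) • y = y := by
      intro y
      rw [← pow_mul, ← hen, pow_orderOf_eq_one, one_smul]
    have htriv := smul_eq_of_mem_wild_of_coprime 𝔓 h𝔓top hq𝔓 (pow_mem hσ (q ^ e)) hcop hpow
    apply FaithfulSMul.eq_of_smul_eq_smul (α := B)
    intro y
    rw [htriv y, one_smul]
  · -- q invertible in k
    rw [hqk]
    exact one_ne_zero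
  · -- m = 1 in k
    rw [Nat.cast_pow, hqk, one_pow]
  · -- conjugation
    refine ⟨(τ₀ ^ q ^ a)⁻¹ * (φ * τ₀ * φ⁻¹), ?_, ?_⟩
    · rw [Subgroup.mem_comap]
      simp only [map_mul, map_inv, map_pow]
      exact conj_mem_wild h𝔓 (hstab φ) hφa hτ₀I
    · rw [mul_inv_cancel_left]

end Fermat.Agent.S56.H9

end
-- ==== END Fermat.Agent.S56.H9_Level

-- ==== BEGIN Fermat.Agent.S56.IND.H74_BN
section

set_option autoImplicit false
set_option linter.style.haveILetI false
set_option linter.unusedSectionVars false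
set_option linter.unusedVariables false

/-!
# Package IND-4 = BN (helper74): Brauer-Nesbitt

An integral linear relation between Brauer characters of finite-dimensional representations
holds for every additive function.
-/

noncomputable section

namespace Fermat.Agent.S56.IND.H74

open Module

variable {k : Type} [Field k] {G : Type} [Group G]

/-! ### `RepIso` is an equivalence relation -/

theorem RepIso.refl {V : Type} [AddCommGroup V] [Module k V] (ρ : Representation k G V) :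
    RepIso ρ ρ := ⟨LinearEquiv.refl k V, fun _ _ => rfl⟩

theorem RepIso.symm {V W : Type} [AddCommGroup V] [Module k V] [AddCommGroup W] [Module k W]
    {ρ : Representation k G V} {σ : Representation k G W} (h : RepIso ρ σ) : RepIso σ ρ := by
  obtain ⟨e, he⟩ := h
  refine ⟨e.symm, fun g w => ?_⟩
  apply e.injective
  rw [he, LinearEquiv.apply_symm_apply, LinearEquiv.apply_symm_apply]

theorem RepIso.trans {V W U : Type} [AddCommGroup V] [Module k V] [AddCommGroup W] [Module k W]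
    [AddCommGroup U] [Module k U]
    {ρ : Representation k G V} {σ : Representation k G W} {τ : Representation k G U}
    (h : RepIso ρ σ) (h' : RepIso σ τ) : RepIso ρ τ := by
  obtain ⟨e, he⟩ := h
  obtain ⟨e', he'⟩ := h'
  refine ⟨e.trans e', fun g v => ?_⟩
  show e' (e (ρ g v)) = τ g (e' (e v))
  rw [he, he']

/-- The setoid of isomorphism on a family of representations. -/
def isoSetoid {κ : Type} (T : κ → Rep.{0} k G) : Setoid κ where
  r l l' := RepIso (T l).ρ (T l').ρ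
  iseqv := ⟨fun l => RepIso.refl _, fun h => RepIso.symm h, fun h h' => RepIso.trans h h'⟩

/-! ### Independence of the Brauer characters of non-isomorphic simple representations -/

section Indep

variable (p : ℕ) [Fact p.Prime] [Finite k] [CharP k p] [Finite G]

theorem brauerFn_eq {V : Rep.{0} k G} [FiniteDimensional k V] :
    brauerFn p V = brauer p V.ρ := brauerFn_of p V.ρ

/-- If `∑ d_l β(T_l) = 0` for pairwise non-isomorphic simple `T_l` then `p ∣ d_l` for all `l`. -/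
theorem dvd_of_relation {κ : Type} [Fintype κ] (T : κ → Rep.{0} k G)
    (hfd : ∀ l, FiniteDimensional k (T l)) (hs : ∀ l, IsSimpleRep (T l).ρ)
    (hni : ∀ l l', l ≠ l' → ¬ RepIso (T l).ρ (T l').ρ) (d : κ → ℤ)
    (hd : ∀ g : G, ∑ l, d l • brauerFn p (T l) g = 0) : ∀ l, (p : ℤ) ∣ d l := by
  have key : ∀ l, ((d l : ℤ) : k) = 0 := by
    refine stmt_TR k G κ T hfd hs hni (fun l => ((d l : ℤ) : k)) ?_
    intro g
    have h := congrArg (WittVector.constantCoeff (p := p) (R := AlgebraicClosure k)) (hd g)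
    rw [map_sum, map_zero] at h
    apply (algebraMap k (AlgebraicClosure k)).injective
    rw [map_sum, map_zero, ← h]
    refine Finset.sum_congr rfl fun l _ => ?_
    haveI := hfd l
    rw [brauerFn_eq, zsmul_eq_mul, map_mul, map_intCast, map_mul, map_intCast,
      constantCoeff_brauer]
  intro l
  exact (CharP.intCast_eq_zero_iff k p (d l)).mp (key l)

/-- The Brauer characters of pairwise non-isomorphic simple representations are linearly
independent over `ℤ`. -/
theorem indep_of_relation {κ : Type} [Fintype κ] (T : κ → Rep.{0} k G)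
    (hfd : ∀ l, FiniteDimensional k (T l)) (hs : ∀ l, IsSimpleRep (T l).ρ)
    (hni : ∀ l l', l ≠ l' → ¬ RepIso (T l).ρ (T l').ρ) :
    ∀ (N : ℕ) (d : κ → ℤ), (∑ l, (d l).natAbs = N) →
      (∀ g : G, ∑ l, d l • brauerFn p (T l) g = 0) → ∀ l, d l = 0 := by
  have hp : p.Prime := Fact.out
  intro N
  induction N using Nat.strong_induction_on with
  | _ N ih =>
    intro d hN hd
    have hdvd := dvd_of_relation p T hfd hs hni d hd
    choose d' hd' using hdvd
    -- the relation for `d'`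
    have hrel : ∀ g : G, ∑ l, d' l • brauerFn p (T l) g = 0 := by
      intro g
      have h := hd g
      have e : ∑ l, d l • brauerFn p (T l) g =
          (p : WK p k) * ∑ l, d' l • brauerFn p (T l) g := by
        rw [Finset.mul_sum]
        refine Finset.sum_congr rfl fun l _ => ?_
        rw [hd' l, zsmul_eq_mul, zsmul_eq_mul]
        push_cast
        ring
      rw [e] at h
      exact (mul_eq_zero.mp h).resolve_left (WittVector.p_nonzero p _)
    by_cases hN0 : N = 0
    · intro l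
      subst hN0
      have := (Finset.sum_eq_zero_iff.mp hN) l (Finset.mem_univ l)
      exact Int.natAbs_eq_zero.mp this
    · -- the sum for `d'` is smaller
      have hlt : ∑ l, (d' l).natAbs < N := by
        have hsum : ∑ l, (d l).natAbs = p * ∑ l, (d' l).natAbs := by
          rw [Finset.mul_sum]
          refine Finset.sum_congr rfl fun l _ => ?_
          rw [hd' l, Int.natAbs_mul, Int.natAbs_natCast]
        rw [hN] at hsum
        have hpos : 0 < ∑ l, (d' l).natAbs := by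
          rcases Nat.eq_zero_or_pos (∑ l, (d' l).natAbs) with h0 | h0
          · rw [h0, mul_zero] at hsum
            exact absurd hsum hN0
          · exact h0
        have h2 : 2 ≤ p := hp.two_le
        nlinarith
      have hz := ih _ hlt d' rfl hrel
      intro l
      rw [hd' l, hz l, mul_zero]

end Indep

/-! ### Relations between simple representations -/

section Simple

variable (p : ℕ) [Fact p.Prime] [Finite k] [CharP k p] [Finite G]

/-- Brauer-Nesbitt for families of simple representations. -/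
theorem bn_simple {κ : Type} [Fintype κ] (T : κ → Rep.{0} k G)
    (hfd : ∀ l, FiniteDimensional k (T l)) (hs : ∀ l, IsSimpleRep (T l).ρ) (d : κ → ℤ)
    (hd : ∀ g : G, ∑ l, d l • brauerFn p (T l) g = 0)
    (F : Rep.{0} k G → ℤ) (hF : IsAdditiveFn k G F) : ∑ l, d l * F (T l) = 0 := by
  classical
  let s : Setoid κ := isoSetoid T
  let Q := Quotient s
  let rep : Q → κ := fun q => Quotient.out q
  have hrep : ∀ l : κ, RepIso (T l).ρ (T (rep (Quotient.mk s l))).ρ := by
    intro l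
    have h : s.r (rep (Quotient.mk s l)) l := Quotient.exact (Quotient.out_eq (Quotient.mk s l))
    exact RepIso.symm h
  -- invariance of the Brauer character and of `F` under isomorphism
  have hβ : ∀ l : κ, brauerFn p (T l) = brauerFn p (T (rep (Quotient.mk s l))) := by
    intro l
    obtain ⟨e, he⟩ := hrep l
    haveI := hfd l
    exact (stmt_BR p k G).1.iso (T l).ρ (T (rep (Quotient.mk s l))).ρ e he
  have hFi : ∀ l : κ, F (T l) = F (T (rep (Quotient.mk s l))) := by
    intro l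
    obtain ⟨e, he⟩ := hrep l
    haveI := hfd l
    exact hF.iso (T l).ρ (T (rep (Quotient.mk s l))).ρ e he
  -- the coefficients on the quotient
  let D : Q → ℤ := fun q => ∑ l ∈ Finset.univ.filter (fun l => Quotient.mk s l = q), d l
  have hD : ∀ g : G, ∑ q, D q • brauerFn p (T (rep q)) g = 0 := by
    intro g
    rw [← hd g, ← Finset.sum_fiberwise Finset.univ (fun l => Quotient.mk s l)
      (fun l => d l • brauerFn p (T l) g)]
    refine Finset.sum_congr rfl fun q _ => ?_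
    show (∑ l ∈ Finset.univ.filter (fun l => Quotient.mk s l = q), d l) • _ = _
    rw [Finset.sum_smul]
    refine Finset.sum_congr rfl fun l hl => ?_
    rw [Finset.mem_filter] at hl
    rw [hβ l, hl.2]
  have hni : ∀ q q' : Q, q ≠ q' → ¬ RepIso (T (rep q)).ρ (T (rep q')).ρ := by
    intro q q' hqq h
    apply hqq
    have h2 : Quotient.mk s (rep q) = Quotient.mk s (rep q') := Quotient.sound h
    rw [Quotient.out_eq, Quotient.out_eq] at h2
    exact h2
  have hz := indep_of_relation p (fun q => T (rep q)) (fun q => hfd _) (fun q => hs _) hni _ D rfl hD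
  rw [← Finset.sum_fiberwise Finset.univ (fun l => Quotient.mk s l) (fun l => d l * F (T l))]
  refine Finset.sum_eq_zero fun q _ => ?_
  have e : ∑ l ∈ Finset.univ.filter (fun l => Quotient.mk s l = q), d l * F (T l) =
      D q * F (T (rep q)) := by
    show _ = (∑ l ∈ Finset.univ.filter (fun l => Quotient.mk s l = q), d l) * _
    rw [Finset.sum_mul]
    refine Finset.sum_congr rfl fun l hl => ?_
    rw [Finset.mem_filter] at hl
    rw [hFi l, hl.2]
  rw [e, hz q, zero_mul]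

end Simple

/-- **BN.** -/
theorem stmt_BN : Stmt_BN := by
  classical
  intro p _ k _ _ _ G _ _ ι _ V hfd c hc F hF
  -- composition factors
  have hJH : ∀ i, ∃ (n : ℕ) (S : Fin n → Rep.{0} k G), (∀ j, FiniteDimensional k (S j)) ∧
      (∀ j, IsSimpleRep (S j).ρ) ∧
      ∀ (A : Type) [AddCommGroup A] (F : Rep.{0} k G → A), IsAdditiveFn k G F →
        F (V i) = ∑ j, F (S j) := by
    intro i
    haveI := hfd i
    exact stmt_JH k G (V i) (V i).ρ
  choose n S hSfd hSs hSsum using hJH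
  let T : (Σ i, Fin (n i)) → Rep.{0} k G := fun x => S x.1 x.2
  let d : (Σ i, Fin (n i)) → ℤ := fun x => c x.1
  have hβ := (stmt_BR p k G).1
  have hd : ∀ g : G, ∑ x, d x • brauerFn p (T x) g = 0 := by
    intro g
    rw [← hc g, Fintype.sum_sigma]
    refine Finset.sum_congr rfl fun i _ => ?_
    show ∑ j, c i • brauerFn p (S i j) g = _
    rw [← Finset.smul_sum]
    congr 1
    have h := hSsum i (G → WK p k) (brauerFn p) hβ
    rw [h, Finset.sum_apply]
  have key := bn_simple p T (fun x => hSfd x.1 x.2) (fun x => hSs x.1 x.2) d hd F hF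
  rw [Fintype.sum_sigma] at key
  rw [← key]
  refine Finset.sum_congr rfl fun i _ => ?_
  show c i * F (V i) = ∑ j, c i * F (S i j)
  rw [← Finset.mul_sum, hSsum i ℤ F hF]

end Fermat.Agent.S56.IND.H74

end

end
-- ==== END Fermat.Agent.S56.IND.H74_BN

-- ==== BEGIN Fermat.Agent.S56.TWS.H74_Tau
section

set_option autoImplicit false

/-!
# TW-SELECT, package TWS-A (helper74): `τ = 0` on `ker χ`

Conjugation of the data, normalisation of a nilpotent matrix, and the vanishing of `τ`.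
-/

namespace Fermat.Agent.S56.TWS.H74

open Matrix

variable {k : Type} [Field k] {G : Type} [Group G]
variable {R : G →* Matrix (Fin 2) (Fin 2) k} {χ : G →* kˣ}
  {c : G → Matrix (Fin 2) (Fin 2) k}

/-- The conjugate of `R` by `P`. -/
def conjHom (P P' : Matrix (Fin 2) (Fin 2) k) (hP : P' * P = 1) (hP' : P * P' = 1)
    (R : G →* Matrix (Fin 2) (Fin 2) k) : G →* Matrix (Fin 2) (Fin 2) k where
  toFun g := P' * R g * P
  map_one' := by rw [map_one, mul_one, hP]
  map_mul' a b := by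
    rw [map_mul]
    calc P' * (R a * R b) * P = P' * R a * 1 * (R b * P) := by simp only [mul_one, mul_assoc]
      _ = P' * R a * P * (P' * R b * P) := by rw [← hP']; simp only [mul_assoc]

theorem conjHom_apply (P P' : Matrix (Fin 2) (Fin 2) k) (hP : P' * P = 1) (hP' : P * P' = 1)
    (R : G →* Matrix (Fin 2) (Fin 2) k) (g : G) : conjHom P P' hP hP' R g = P' * R g * P := rfl

theorem conj_trace (P P' : Matrix (Fin 2) (Fin 2) k) (hP' : P * P' = 1)
    (A : Matrix (Fin 2) (Fin 2) k) : (P' * A * P).trace = A.trace := by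
  rw [mul_assoc, Matrix.trace_mul_comm, mul_assoc, hP', mul_one]

theorem conj_mul (P P' : Matrix (Fin 2) (Fin 2) k) (hP' : P * P' = 1)
    (A B : Matrix (Fin 2) (Fin 2) k) : P' * A * P * (P' * B * P) = P' * (A * B) * P := by
  calc P' * A * P * (P' * B * P) = P' * A * (P * P') * B * P := by simp only [mul_assoc]
    _ = P' * (A * B) * P := by rw [hP', mul_one]; simp only [mul_assoc]

theorem conj_eq_zero (P P' : Matrix (Fin 2) (Fin 2) k) (hP' : P * P' = 1)
    {A : Matrix (Fin 2) (Fin 2) k} (h : P' * A * P = 0) : A = 0 := by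
  calc A = (P * P') * A * (P * P') := by rw [hP', one_mul, mul_one]
    _ = P * (P' * A * P) * P' := by simp only [mul_assoc]
    _ = 0 := by rw [h, mul_zero, zero_mul]

theorem TwCoc.conj (h : TwCoc R χ c) (P P' : Matrix (Fin 2) (Fin 2) k) (hP : P' * P = 1)
    (hP' : P * P' = 1) : TwCoc (conjHom P P' hP hP' R) χ (fun g => P' * c g * P) where
  det g := by
    rw [conjHom_apply, Matrix.det_mul, Matrix.det_mul, mul_right_comm, ← Matrix.det_mul, hP,
      Matrix.det_one, one_mul, h.det]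
  tr g := by rw [conj_trace P P' hP', h.tr]
  mul g x := by
    simp only [conjHom_apply]
    rw [h.mul, conj_mul P P' hP', conj_mul P P' hP', mul_add, add_mul, Matrix.mul_smul,
      Matrix.smul_mul]
  ker s hs := by
    rw [conjHom_apply] at hs
    have : R s = 1 := by
      calc R s = (P * P') * R s * (P * P') := by rw [hP', one_mul, mul_one]
        _ = P * (P' * R s * P) * P' := by simp only [mul_assoc]
        _ = 1 := by rw [hs, mul_one, hP']
    rw [h.ker s this, mul_zero, zero_mul]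

theorem tau_conjHom (P P' : Matrix (Fin 2) (Fin 2) k) (hP : P' * P = 1) (hP' : P * P' = 1)
    (g : G) : tau (conjHom P P' hP hP' R) (fun g => P' * c g * P) g = tau R c g := by
  unfold tau
  rw [conjHom_apply, conj_mul P P' hP', conj_trace P P' hP']

theorem cobd_conjHom (P P' : Matrix (Fin 2) (Fin 2) k) (hP : P' * P = 1) (hP' : P * P' = 1)
    (m : Matrix (Fin 2) (Fin 2) k) (g : G) :
    P * cobd (conjHom P P' hP hP' R) χ m g * P' = cobd R χ (P * m * P') g := by
  unfold cobd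
  simp only [conjHom_apply]
  rw [mul_sub, sub_mul, Matrix.mul_smul, Matrix.smul_mul]
  congr 2
  calc P * (P' * R g * P * m * (P' * R g⁻¹ * P)) * P'
      = (P * P') * R g * (P * m * P') * R g⁻¹ * (P * P') := by simp only [mul_assoc]
    _ = R g * (P * m * P') * R g⁻¹ := by rw [hP', one_mul, mul_one]

/-- A `2 × 2` matrix from its entries (opaque to `simp`). -/
def mk2 (a b c d : k) : Matrix (Fin 2) (Fin 2) k := !![a, b; c, d]

omit [Field k] in
@[simp] theorem mk2_00 (a b c d : k) : mk2 a b c d 0 0 = a := rfl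
omit [Field k] in
@[simp] theorem mk2_01 (a b c d : k) : mk2 a b c d 0 1 = b := rfl
omit [Field k] in
@[simp] theorem mk2_10 (a b c d : k) : mk2 a b c d 1 0 = c := rfl
omit [Field k] in
@[simp] theorem mk2_11 (a b c d : k) : mk2 a b c d 1 1 = d := rfl

theorem mul_apply2 (A B : Matrix (Fin 2) (Fin 2) k) (i j : Fin 2) :
    (A * B) i j = A i 0 * B 0 j + A i 1 * B 1 j := by
  rw [Matrix.mul_apply, Fin.sum_univ_two]

/-- A nonzero nilpotent matrix is conjugate to the standard one. -/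
theorem exists_normalise {N : Matrix (Fin 2) (Fin 2) k} (hN0 : N ≠ 0) (hNN : N * N = 0) :
    ∃ P P' : Matrix (Fin 2) (Fin 2) k, P' * P = 1 ∧ P * P' = 1 ∧ P' * N * P = Emat := by
  have e00 := congrFun (congrFun hNN 0) 0
  have e01 := congrFun (congrFun hNN 0) 1
  have e10 := congrFun (congrFun hNN 1) 0
  have e11 := congrFun (congrFun hNN 1) 1
  simp only [mul_apply2, Matrix.zero_apply] at e00 e01 e10 e11
  by_cases hb : N 0 1 = 0
  · have ha : N 0 0 = 0 := by
      rw [hb, zero_mul, add_zero] at e00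
      exact mul_self_eq_zero.mp e00
    have hd : N 1 1 = 0 := by
      rw [hb, mul_zero, zero_add] at e11
      exact mul_self_eq_zero.mp e11
    have hc : N 1 0 ≠ 0 := by
      intro hc
      apply hN0
      apply ext2 <;> simp [ha, hb, hc, hd]
    refine ⟨mk2 0 1 (N 1 0) 0, mk2 0 (N 1 0)⁻¹ 1 0, ?_, ?_, ?_⟩
    · apply ext2 <;> simp [mul_apply2, hc]
    · apply ext2 <;> simp [mul_apply2, hc]
    · apply ext2 <;> simp [mul_apply2, hc, ha, hb, hd]
  · have htr : N 0 0 + N 1 1 = 0 := by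
      have : N 0 1 * (N 0 0 + N 1 1) = 0 := by linear_combination e01
      exact (mul_eq_zero.mp this).resolve_left hb
    refine ⟨mk2 (N 0 1) 0 (N 1 1) 1, mk2 (N 0 1)⁻¹ 0 (-(N 1 1) * (N 0 1)⁻¹) 1, ?_, ?_, ?_⟩
    · apply ext2 <;> simp [mul_apply2, hb]
    · apply ext2 <;> simp [mul_apply2, hb]
    · apply ext2
      · simp only [mul_apply2, mk2_00, mk2_01, mk2_10, Emat_00]
        field_simp
        linear_combination htr
      · simp only [mul_apply2, mk2_00, mk2_01, mk2_11, Emat_01]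
        field_simp
        ring
      · simp only [mul_apply2, mk2_00, mk2_10, mk2_11, Emat_10]
        field_simp
        linear_combination e00 - N 0 0 * htr
      · simp only [mul_apply2, mk2_01, mk2_10, mk2_11, Emat_11]
        field_simp
        ring

/-- Irreducibility, in the form used here: no nilpotent line is stable. -/
def Irr (R : G →* Matrix (Fin 2) (Fin 2) k) : Prop :=
  ∀ N : Matrix (Fin 2) (Fin 2) k, N ≠ 0 → N * N = 0 → ∃ x : G, N * R x * N ≠ 0

/-- `τ` vanishes on every unipotent element of `ker χ`. -/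
theorem TwCoc.tau_unip (h : TwCoc R χ c) (p : ℕ) [Fact p.Prime] [CharP k p] (hp2 : p ≠ 2)
    (hV : ∀ g, χ g = 1 → (R g).trace ^ 2 ≠ 4 → tau R c g = 0)
    (h5 : p = 5 → ∃ γ : G, (χ γ : k) ^ 2 ≠ 1) (hirr : Irr R)
    {u : G} {N : Matrix (Fin 2) (Fin 2) k} (hN : R u = 1 + N) (hN0 : N ≠ 0)
    (hNN : N * N = 0) : tau R c u = 0 := by
  obtain ⟨P, P', hP, hP', hE⟩ := exists_normalise hN0 hNN
  obtain ⟨x, hx⟩ := hirr N hN0 hNN
  have h' := h.conj P P' hP hP'
  rw [← tau_conjHom P P' hP hP' u]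
  refine h'.tau_unip_normalised p hp2 ?_ h5 (u := u) (x₀ := x) ?_ ?_
  · intro g hg hne
    rw [tau_conjHom]
    apply hV g hg
    rwa [conjHom_apply, conj_trace P P' hP'] at hne
  · rw [conjHom_apply, hN, mul_add, add_mul, mul_one, hP, hE, Umat_eq]
  · intro h0
    apply hx
    have e : Emat * conjHom P P' hP hP' R x * Emat = 0 := by
      rw [Emat_mul_mul, h0, zero_smul]
    rw [conjHom_apply, ← hE, conj_mul P P' hP', conj_mul P P' hP'] at e
    exact conj_eq_zero P P' hP' e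

/-- `τ` vanishes on `ker χ`. -/
theorem TwCoc.tau_all [Fintype k] (h : TwCoc R χ c) (p : ℕ) [Fact p.Prime] [CharP k p]
    (hp2 : p ≠ 2)
    (hsplit : ∀ g, ∃ α β : k, (R g).trace = α + β ∧ (R g).det = α * β)
    (h5 : p = 5 → ∃ γ : G, (χ γ : k) ^ 2 ≠ 1) (hirr : Irr R) :
    ∀ g, χ g = 1 → tau R c g = 0 := by
  have hV : ∀ g, χ g = 1 → (R g).trace ^ 2 ≠ 4 → tau R c g = 0 := fun g hg hne =>
    h.tau_eq_zero_of_sq_ne hsplit hg hne
  have h2 : (2 : k) ≠ 0 := by
    have := natCast_ne_zero_of_prime (k := k) p Nat.prime_two hp2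
    simpa using this
  have hU : ∀ u, χ u = 1 → (R u).trace = 2 → tau R c u = 0 := by
    intro u hu htr
    have hNN : (R u - 1) * (R u - 1) = 0 := by
      rw [sub_mul, mul_sub, mul_sub, mul_one, one_mul, mul_one, cayley, htr, h.det_one hu]
      simp only [one_smul]
      module
    by_cases hN0 : R u - 1 = 0
    · have h1 : R u = 1 := sub_eq_zero.mp hN0
      unfold tau
      rw [h.ker u h1, zero_mul, Matrix.trace_zero]
    · exact h.tau_unip p hp2 hV h5 hirr (N := R u - 1) (by abel) hN0 hNN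
  intro g hg
  by_cases hne : (R g).trace ^ 2 ≠ 4
  · exact hV g hg hne
  · push Not at hne
    have hmul := h.tau_mul hg hg
    have ht1 : tau R c (g * g⁻¹) = 0 := by
      unfold tau
      rw [mul_inv_cancel, h.c_one, zero_mul, Matrix.trace_zero]
    have hgg : χ (g * g) = 1 := by rw [map_mul, hg, one_mul]
    have htr2 : (R (g * g)).trace = 2 := by
      rw [map_mul, cayley, Matrix.trace_sub, Matrix.trace_smul, Matrix.trace_smul,
        h.det_one hg, Matrix.trace_one]
      simp only [smul_eq_mul, Fintype.card_fin, Nat.cast_ofNat, one_mul]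
      linear_combination hne
    rw [hU (g * g) hgg htr2, ht1] at hmul
    have htr0 : (R g).trace ≠ 0 := by
      intro h0
      rw [h0] at hne
      have h4 : (4 : k) = 0 := by linear_combination -hne
      have : (4 : k) = 2 * 2 := by norm_num
      rw [this] at h4
      exact mul_ne_zero h2 h2 h4
    have h3 : (2 : k) * (R g).trace * tau R c g = 0 := by linear_combination -hmul
    exact (mul_eq_zero.mp h3).resolve_left (mul_ne_zero h2 htr0)

end Fermat.Agent.S56.TWS.H74

end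
-- ==== END Fermat.Agent.S56.TWS.H74_Tau

-- ==== BEGIN Fermat.Agent.S59.TWGal.H59_Tame
section

/-!
# S59, package TW-GAL, leaf TAME (helper59): `Stmt_TAME`

Tame inertia at finite level.  `F'` = normal closure of `F`, `Γ = Gal(F'/ℚ)` acting on
`B = 𝓞 F'`, `𝔓 = primeAt P F'`; helper9's toolkit (`exists_generator_mod_wild`, `conj_mem_wild`,
`smul_eq_of_mem_wild_of_coprime`) and the lifting of inertia
(`Lib.InertiaLift.exists_mem_inertiaSubgroupIn_eqOn`).
-/

set_option autoImplicit false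
set_option linter.unusedSectionVars false
set_option linter.style.haveILetI false

namespace Fermat.Agent.S59.TWGal.H59

open NumberField Fermat.Agent.S56.H9 Fermat.Agent.S59.TWGal

section galois

variable (F : IntermediateField ℚ Qb) [NumberField F]

instance faithful_gal_int' : FaithfulSMul (F ≃ₐ[ℚ] F) (𝓞 F) := by
  refine ⟨fun {σ τ} h => ?_⟩
  apply AlgEquiv.ext
  intro y
  obtain ⟨a, b, hb, rfl⟩ := IsFractionRing.div_surjective (A := 𝓞 F) y
  have ha := congrArg (fun z : 𝓞 F => (z : F)) (h a)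
  have hb' := congrArg (fun z : 𝓞 F => (z : F)) (h b)
  have e1 : σ (algebraMap (𝓞 F) F a) = τ (algebraMap (𝓞 F) F a) := ha
  have e2 : σ (algebraMap (𝓞 F) F b) = τ (algebraMap (𝓞 F) F b) := hb'
  rw [map_div₀, map_div₀, e1, e2]

variable [Normal ℚ F]

lemma intIncl_restrict_smul (τ : GQ) (x : 𝓞 F) :
    intIncl F ((AlgEquiv.restrictNormalHom F τ) • x) = τ (intIncl F x) :=
  AlgEquiv.restrictNormal_commutes τ F (x : F)

end galois

/-- The Frobenius condition in terms of the valuation. -/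
theorem valuation_frob_lt_one (P : ValuationSubring Qb) {φ : GQ} {q : ℕ}
    (hφ : P.IsFrobeniusAt φ q) (a : Qb) (ha : a ∈ P) : P.valuation (φ a - a ^ q) < 1 := by
  obtain ⟨hdec, h⟩ := hφ
  have h1 := h (IsLocalRing.residue P ⟨a, ha⟩)
  rw [← IsLocalRing.ResidueField.residue_smul, ← map_pow, ← sub_eq_zero, ← map_sub,
    IsLocalRing.residue_eq_zero_iff, ← ValuationSubring.coe_mem_nonunits_iff,
    P.mem_nonunits_iff] at h1
  exact h1

/-- **TAME**: `Stmt_TAME` of `Fermat/Agent/S59/TWGal/Defs.lean`. -/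
theorem stmt_TAME : Stmt_TAME := by
  intro q hq P hP φ hφ F hFfd
  classical
  haveI := hFfd
  haveI : Fact q.Prime := ⟨hq⟩
  haveI hnQ : Normal ℚ Qb := (Fermat.Agent.Lib.InertiaLift.qbar_isGalois').to_normal
  -- the normal closure
  set F' : IntermediateField ℚ Qb := IntermediateField.normalClosure ℚ F Qb with hF'
  haveI hfd' : FiniteDimensional ℚ F' := inferInstance
  haveI hn' : Normal ℚ F' := normalClosure.normal ℚ F Qb
  have hFF' : F ≤ F' := F.le_normalClosure
  haveI : NumberField F' :=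
    { to_charZero := inferInstance, to_finiteDimensional := inferInstance }
  have hq0 : q ≠ 0 := hq.ne_zero
  set 𝔓 : Ideal (𝓞 F') := primeAt P F' with h𝔓def
  haveI : 𝔓.IsMaximal := primeAt_isMaximal _ _ hq0 hP
  haveI : Finite (𝓞 F' ⧸ 𝔓) := finite_quotient_primeAt _ _ hq0 hP
  haveI : CharP (𝓞 F' ⧸ 𝔓) q := charP_quotient_primeAt _ _ hq hP
  have h𝔓 : 𝔓 ≠ ⊥ := primeAt_ne_bot _ _ hq0 hP
  have h𝔓top : 𝔓 ≠ ⊤ := Ideal.IsPrime.ne_top inferInstance
  have hq𝔓 : (q : 𝓞 F') ∈ 𝔓 := natCast_mem_primeAt P F' hP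
  set r : GQ →* (F' ≃ₐ[ℚ] F') := AlgEquiv.restrictNormalHom F' with hr
  -- the kernel
  have hker : ∀ g : GQ, r g = 1 → g ∈ F.fixingSubgroup := by
    intro g hg
    have h1 : g ∈ F'.fixingSubgroup := by
      have := (Subgroup.ext_iff.1 (@IntermediateField.restrictNormalHom_ker ℚ Qb _ _ _ F' hn') g)
      exact this.1 (MonoidHom.mem_ker.mpr hg)
    exact IntermediateField.fixingSubgroup_antitone hFF' h1
  -- stabiliser
  have hstab : ∀ g ∈ P.decompositionSubgroup ℚ, ∀ x : 𝓞 F', r g • x ∈ 𝔓 ↔ x ∈ 𝔓 := by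
    intro g hg x
    rw [h𝔓def, mem_primeAt, mem_primeAt, intIncl_restrict_smul]
    exact Fermat.Agent.Lib.InertiaBridge.valuation_map_lt_one_iff _ _ hg _
  have hint : ∀ x : 𝓞 F', intIncl F' x ∈ P := fun x =>
    (P.valuation_le_one_iff _).mp (valuation_intIncl_le_one P F' x)
  -- inertia
  have hinert : ∀ σ ∈ P.inertiaSubgroupIn ℚ, r σ ∈ 𝔓.inertia (F' ≃ₐ[ℚ] F') := by
    intro σ hσ x
    have h1 := ((Fermat.Agent.Lib.InertiaBridge.mem_inertiaSubgroupIn_iff_forall P σ).mp hσ).2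
      (intIncl F' x) (hint x)
    show r σ • x - x ∈ primeAt P F'
    rw [mem_primeAt, map_sub, intIncl_restrict_smul]
    exact h1
  have hIdec : ∀ σ ∈ P.inertiaSubgroupIn ℚ, σ ∈ P.decompositionSubgroup ℚ := fun σ hσ =>
    ((Fermat.Agent.Lib.InertiaBridge.mem_inertiaSubgroupIn_iff_forall P σ).mp hσ).1
  have hφdec : φ ∈ P.decompositionSubgroup ℚ := hφ.mem_decompositionSubgroup
  -- Frobenius
  have hfrob : ∀ x : 𝓞 F', r φ • x - x ^ q ∈ 𝔓 := by
    intro x
    rw [h𝔓def, mem_primeAt, map_sub, intIncl_restrict_smul, map_pow]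
    exact valuation_frob_lt_one P hφ _ (hint x)
  -- wild elements have `q`-power order
  have hwild : ∀ γ ∈ wild 𝔓 (F' ≃ₐ[ℚ] F'), ∃ e : ℕ, γ ^ (q ^ e) = 1 := by
    intro γ hγ
    have hord : orderOf γ ≠ 0 := (orderOf_pos γ).ne'
    obtain ⟨e, n, hn, hen⟩ := Nat.exists_eq_pow_mul_and_not_dvd hord q hq.ne_one
    refine ⟨e, ?_⟩
    have hcop : n.Coprime q := (Nat.Coprime.symm ((Nat.Prime.coprime_iff_not_dvd hq).2 hn))
    have hpow : ∀ y : 𝓞 F', ((γ ^ q ^ e) ^ n) • y = y := by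
      intro y
      rw [← pow_mul, ← hen, pow_orderOf_eq_one, one_smul]
    have htriv := smul_eq_of_mem_wild_of_coprime 𝔓 h𝔓top hq𝔓 (pow_mem hγ (q ^ e)) hcop hpow
    apply FaithfulSMul.eq_of_smul_eq_smul (α := 𝓞 F')
    intro y
    rw [htriv y, one_smul]
  -- the generator of tame inertia
  set J : Subgroup (F' ≃ₐ[ℚ] F') := (P.inertiaSubgroupIn ℚ).map r with hJ
  have hJle : J ≤ 𝔓.inertia (F' ≃ₐ[ℚ] F') := by
    rintro _ ⟨σ, hσ, rfl⟩
    exact hinert σ hσ
  obtain ⟨τ₀', hτ₀', hcyc⟩ := exists_generator_mod_wild h𝔓 J hJle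
  obtain ⟨τ₀, hτ₀, rfl⟩ := hτ₀'
  refine ⟨τ₀, hτ₀, ?_, ?_, ?_⟩
  · -- (a)
    intro σ hσ
    obtain ⟨j, hj⟩ := hcyc (r σ) ⟨σ, hσ, rfl⟩
    obtain ⟨e, he⟩ := hwild _ hj
    refine ⟨j, e, hker _ ?_⟩
    rw [map_pow, map_mul, map_inv, map_pow]
    exact he
  · -- (b)
    have hconj := conj_mem_wild h𝔓 (hstab φ hφdec) hfrob (hinert τ₀ hτ₀)
    obtain ⟨e, he⟩ := hwild _ hconj
    refine ⟨e, hker _ ?_⟩
    rw [map_pow, map_mul, map_inv, map_pow, map_mul, map_mul, map_inv]
    exact he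
  · -- (c)
    intro g hg
    letI : Field (𝓞 F' ⧸ 𝔓) := Ideal.Quotient.field 𝔓
    letI := ZMod.algebra (𝓞 F' ⧸ 𝔓) q
    obtain ⟨a, ha⟩ := (FiniteField.bijective_frobeniusAlgEquivOfAlgebraic_pow (ZMod q)
      (𝓞 F' ⧸ 𝔓)).2 (resAlgEquiv 𝔓 q (r g) (hstab g hg))
    set n : ℕ := (a : ℕ) with hn
    have hgn : ∀ x : 𝓞 F', r g • x - x ^ (q ^ n) ∈ 𝔓 := by
      intro x
      rw [← Ideal.Quotient.eq, map_pow, ← resAlgEquiv_mk 𝔓 q (r g) (hstab g hg) x, ← ha]
      simp only [AlgEquiv.coe_pow, FiniteField.coe_frobeniusAlgEquivOfAlgebraic_iterate,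
        ZMod.card]
      rfl
    have hφn : ∀ m : ℕ, ∀ x : 𝓞 F', (r φ ^ m) • x - x ^ (q ^ m) ∈ 𝔓 := by
      intro m
      induction m with
      | zero => intro x; simp
      | succ m ih =>
        intro x
        have e1 : (r φ ^ (m + 1)) • x - x ^ (q ^ (m + 1))
            = r φ • ((r φ ^ m) • x - x ^ (q ^ m)) + (r φ • (x ^ (q ^ m)) - (x ^ (q ^ m)) ^ q) := by
          rw [pow_succ', mul_smul, smul_sub, ← pow_mul, ← pow_succ]
          ring
        rw [e1]
        exact Ideal.add_mem _ ((hstab φ hφdec _).mpr (ih x)) (hfrob _)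
    set g' : GQ := (φ ^ n)⁻¹ * g with hg'
    have hφndec : φ ^ n ∈ P.decompositionSubgroup ℚ := pow_mem hφdec n
    have hg'I : ∀ x : 𝓞 F', r g' • x - x ∈ 𝔓 := by
      intro x
      have e1 : r g' • x - x = (r (φ ^ n))⁻¹ • (r g • x - r (φ ^ n) • x) := by
        rw [hg', map_mul, map_inv, mul_smul, smul_sub, inv_smul_smul]
      rw [e1]
      have h2 : r g • x - r (φ ^ n) • x ∈ 𝔓 := by
        have : r g • x - r (φ ^ n) • x
            = (r g • x - x ^ (q ^ n)) - ((r φ ^ n) • x - x ^ (q ^ n)) := by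
          rw [map_pow]; ring
        rw [this]
        exact Ideal.sub_mem _ (hgn x) (hφn n x)
      have h3 := (hstab ((φ ^ n)⁻¹) (inv_mem hφndec) (r g • x - r (φ ^ n) • x)).mpr h2
      rwa [map_inv] at h3
    have hlift : ∀ x : Qb, x ∈ F' → IsIntegral ℤ x → g' x - x ∈ P.nonunits := by
      intro x hx hxi
      have hxi' : IsIntegral ℤ (⟨x, hx⟩ : F') := by
        refine (isIntegral_algebraMap_iff (B := Qb) ?_).1 hxi
        exact (algebraMap F' Qb).injective
      obtain ⟨y, hy⟩ : ∃ y : 𝓞 F', intIncl F' y = x := ⟨⟨⟨x, hx⟩, hxi'⟩, rfl⟩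
      have h1 := hg'I y
      rw [h𝔓def, mem_primeAt, map_sub, intIncl_restrict_smul, hy] at h1
      exact (ValuationSubring.mem_nonunits_iff _).2 h1
    obtain ⟨σ, hσ, hσF⟩ := Fermat.Agent.Lib.InertiaLift.exists_mem_inertiaSubgroupIn_eqOn
      q hq P hP F' g' hlift
    refine ⟨n, σ, hσ, ?_⟩
    have h2 : σ⁻¹ * g' ∈ F'.fixingSubgroup := by
      rw [IntermediateField.mem_fixingSubgroup_iff]
      intro x hx
      show σ⁻¹ (g' x) = x
      rw [← hσF x hx]
      exact σ.symm_apply_apply x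
    have h3 : (φ ^ n * σ)⁻¹ * g = σ⁻¹ * g' := by
      rw [hg']; group
    rw [h3]
    exact IntermediateField.fixingSubgroup_antitone hFF' h2

end Fermat.Agent.S59.TWGal.H59

end
-- ==== END Fermat.Agent.S59.TWGal.H59_Tame
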