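-- GENERATED (merged mirror, NOTES/tools/trim/merge3_helper67.py): 6 modules of the originals, bodies verbatim.
import Mathlib
import Fermat.Agent.Zm.S56_L01_001

-- ==== BEGIN Fermat.Agent.S53.Norm
section

set_option autoImplicit false
set_option linter.unusedSimpArgs false
set_option linter.unusedVariables false
set_option linter.unusedSectionVars false

/-!
# S53: rigidification — every deformation class contains exactly one normalized lift

* `exists_normData`: rigidification data exist for an absolutely irreducible `ρbar`.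
* `IsNorm.eq_of_conj`: two conjugate normalized lifts are equal.
* `exists_isNorm_conj_of_henselian` (and its corollaries for finite / complete local rings):
  every strict lift is conjugate to a normalized one.
-/

namespace Fermat.Agent.S53

open IsLocalRing

section NoncommPair

variable {k : Type} [Field k]

/-- An absolutely irreducible two-dimensional representation has non-commutative image. -/
theorem exists_not_commute_of_absIrr (ρbar : ResidualGaloisRep k)
    (habs : ρbar.IsAbsolutelyIrreducible) :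
    ∃ g h : GQ, ρbar.ρ g * ρbar.ρ h ≠ ρbar.ρ h * ρbar.ρ g := by
  by_contra hcon
  push Not at hcon
  let K := AlgebraicClosure k
  let ρ' : ResidualGaloisRep K := ρbar.baseChange K
  have hirr : ρ'.IsIrreducible := habs
  have hfin : Module.finrank K ρ'.V = 2 := ρ'.finrank_eq
  have : Module.Finite K ρ'.V := inferInstance
  have : Nontrivial ρ'.V := Module.nontrivial_of_finrank_pos (R := K) (by omega)
  have hρ' : ∀ g, ρ'.ρ g = (ρbar.ρ g).baseChange K := fun g => rfl
  have hcomm' : ∀ g h, ρ'.ρ g * ρ'.ρ h = ρ'.ρ h * ρ'.ρ g := by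
    intro g h
    rw [hρ', hρ', ← LinearMap.baseChange_mul, ← LinearMap.baseChange_mul, hcon g h]
  -- every `ρ' g` is a scalar
  have hscal : ∀ g, ∃ μ : K, ∀ x, ρ'.ρ g x = μ • x := by
    intro g
    obtain ⟨μ, hμ⟩ := Module.End.exists_eigenvalue (ρ'.ρ g)
    obtain ⟨v, hv⟩ := hμ.exists_hasEigenvector
    have hstable : ∀ σ : GQ, ∀ x ∈ Module.End.eigenspace (ρ'.ρ g) μ,
        ρ'.ρ σ x ∈ Module.End.eigenspace (ρ'.ρ g) μ := by
      intro σ x hx
      rw [Module.End.mem_eigenspace_iff] at hx ⊢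
      have h1 : ρ'.ρ g (ρ'.ρ σ x) = (ρ'.ρ g * ρ'.ρ σ) x := rfl
      rw [h1, hcomm' g σ]
      show ρ'.ρ σ (ρ'.ρ g x) = _
      rw [hx, map_smul]
    rcases hirr _ hstable with h | h
    · exfalso
      have hv1 : v ∈ Module.End.eigenspace (ρ'.ρ g) μ := hv.1
      rw [h, Submodule.mem_bot] at hv1
      exact hv.2 hv1
    · refine ⟨μ, fun x => ?_⟩
      have hx : x ∈ Module.End.eigenspace (ρ'.ρ g) μ := by rw [h]; exact Submodule.mem_top
      exact Module.End.mem_eigenspace_iff.mp hx
  obtain ⟨v, hv⟩ := exists_ne (0 : ρ'.V)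
  have hstable : ∀ σ : GQ, ∀ x ∈ Submodule.span K {v}, ρ'.ρ σ x ∈ Submodule.span K {v} := by
    intro σ x hx
    obtain ⟨μ, hμ⟩ := hscal σ
    rw [hμ]
    exact Submodule.smul_mem _ _ hx
  rcases hirr _ hstable with h | h
  · have : v ∈ Submodule.span K {v} := Submodule.mem_span_singleton_self v
    rw [h, Submodule.mem_bot] at this
    exact hv this
  · have h1 : Module.finrank K (Submodule.span K {v}) = 1 := finrank_span_singleton hv
    rw [h, finrank_top, hfin] at h1
    omega

end NoncommPair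

variable {𝒪 : Type} [CommRing 𝒪] [IsLocalRing 𝒪] {ρbar : ResidualGaloisRep (ResidueField 𝒪)}

/-- rigidification data exist -/
theorem exists_normData (habs : ρbar.IsAbsolutelyIrreducible) : Nonempty (NormData 𝒪 ρbar) := by
  obtain ⟨g, h, hgh⟩ := exists_not_commute_of_absIrr ρbar habs
  have : Module.Free (ResidueField 𝒪) ρbar.V := Module.Free.of_divisionRing _ _
  -- `ρbar g` is not a scalar, so there is a cyclic vector
  have hns : ¬ ∃ a : ResidueField 𝒪, ρbar.ρ g = a • 1 := by
    rintro ⟨a, ha⟩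
    apply hgh
    rw [ha]
    ext x
    simp
  have hex : ∃ v : ρbar.V, LinearIndependent (ResidueField 𝒪) ![v, ρbar.ρ g v] := by
    by_contra hcon
    push Not at hcon
    exact hns (LinearMap.exists_eq_smul_id_of_forall_notLinearIndependent hcon)
  obtain ⟨v, hv⟩ := hex
  let b : Module.Basis (Fin 2) (ResidueField 𝒪) ρbar.V :=
    basisOfLinearIndependentOfCardEqFinrank hv (by simp [ρbar.finrank_eq])
  have hb : ∀ i, b i = ![v, ρbar.ρ g v] i := fun i => by
    simp [b, coe_basisOfLinearIndependentOfCardEqFinrank]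
  have hb0 : b 0 = v := by simpa using hb 0
  have hb1 : b 1 = ρbar.ρ g v := by simpa using hb 1
  let rbar : GQ →* M2 (ResidueField 𝒪) :=
    ((LinearMap.toMatrixAlgEquiv b).toAlgHom.toRingHom.toMonoidHom).comp ρbar.ρ
  have hrbar : ∀ σ, rbar σ = LinearMap.toMatrix b b (ρbar.ρ σ) := fun σ => rfl
  have hne : rbar g * rbar h - rbar h * rbar g ≠ 0 := by
    intro h0
    apply hgh
    have h1 : rbar g * rbar h = rbar h * rbar g := sub_eq_zero.mp h0
    rw [← map_mul, ← map_mul] at h1
    have h2 : LinearMap.toMatrix b b (ρbar.ρ (g * h)) = LinearMap.toMatrix b b (ρbar.ρ (h * g)) := h1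
    have h3 := (LinearMap.toMatrix b b).injective h2
    rw [← map_mul, ← map_mul]
    exact h3
  have hij : ∃ i j, (rbar g * rbar h - rbar h * rbar g) i j ≠ 0 := by
    by_contra hcon
    push Not at hcon
    exact hne (Matrix.ext hcon)
  obtain ⟨i0, j0, hij⟩ := hij
  obtain ⟨c0, hc0⟩ := IsLocalRing.residue_surjective (rbar h i0 j0)
  refine ⟨{ rbar := rbar, isMatOfRes := ⟨b, fun σ => (hrbar σ).symm⟩, g1 := g, g2 := h,
            i0 := i0, j0 := j0, c0 := c0, col := ?_, c0_spec := hc0, comm_ne := hij }⟩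
  intro i
  rw [hrbar, LinearMap.toMatrix_apply, hb0, ← hb1, Module.Basis.repr_self_apply]
  simp only [eq_comm]

section
variable (N : NormData 𝒪 ρbar) {A : Type} [CommRing A] [IsLocalRing A] [Algebra 𝒪 A]
  [IsLocalHom (algebraMap 𝒪 A)]

omit [IsLocalHom (algebraMap 𝒪 A)] in
theorem residue_entry_of_isLift [IsLocalHom (algebraMap 𝒪 A)] {r : GQ → M2 A}
    (h : IsLift 𝒪 N.rbar r) (σ : GQ) (i j : Fin 2) :
    residue A (r σ i j) = ResidueField.map (algebraMap 𝒪 A) (N.rbar σ i j) := by
  have := congrFun (congrFun (h σ) i) j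
  simpa [Matrix.map_apply] using this

omit [IsLocalHom (algebraMap 𝒪 A)] in
theorem sub_mem_of_isLift [IsLocalHom (algebraMap 𝒪 A)] {r r' : GQ → M2 A}
    (h : IsLift 𝒪 N.rbar r) (h' : IsLift 𝒪 N.rbar r') (σ : GQ) (i j : Fin 2) :
    r σ i j - r' σ i j ∈ maximalIdeal A := by
  rw [← residue_eq_zero_iff, map_sub, residue_entry_of_isLift N h, residue_entry_of_isLift N h',
    sub_self]

omit [IsLocalHom (algebraMap 𝒪 A)] in
/-- The commutator entry of a strict lift is a unit. -/
theorem isUnit_comm_entry_of_isLift [IsLocalHom (algebraMap 𝒪 A)] {r : GQ → M2 A}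
    (h : IsLift 𝒪 N.rbar r) :
    IsUnit ((r N.g2 * r N.g1 - r N.g1 * r N.g2) N.i0 N.j0) := by
  have hres : residue A ((r N.g2 * r N.g1 - r N.g1 * r N.g2) N.i0 N.j0)
      = ResidueField.map (algebraMap 𝒪 A)
          (-((N.rbar N.g1 * N.rbar N.g2 - N.rbar N.g2 * N.rbar N.g1) N.i0 N.j0)) := by
    simp only [Matrix.sub_apply, Matrix.mul_apply, Fin.sum_univ_two, map_sub, map_add, map_mul,
      map_neg, residue_entry_of_isLift N h]
    ring
  by_contra hnu
  have hm : (r N.g2 * r N.g1 - r N.g1 * r N.g2) N.i0 N.j0 ∈ maximalIdeal A :=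
    (mem_maximalIdeal _).mpr hnu
  rw [← residue_eq_zero_iff, hres, map_neg, neg_eq_zero, map_eq_zero] at hm
  exact N.comm_ne hm

/-- (!) two conjugate normalized lifts are equal (any local `A`). -/
theorem IsNorm.eq_of_conj {r r' : GQ →* M2 A} (h : IsNorm N r) (h' : IsNorm N r')
    (T : (M2 A)ˣ) (hT : ∀ σ, (T : M2 A) * r σ = r' σ * T) : r = r' := by
  obtain ⟨hl, hcol, hent⟩ := h
  obtain ⟨hl', hcol', hent'⟩ := h'
  have hX0 : r N.g1 0 0 = 0 := by simpa using hcol 0
  have hX1 : r N.g1 1 0 = 1 := by simpa using hcol 1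
  have hX0' : r' N.g1 0 0 = 0 := by simpa using hcol' 0
  have hX1' : r' N.g1 1 0 = 1 := by simpa using hcol' 1
  have hsc := NormMat.scalar_of_intertwines (r N.g1) (r' N.g1) (r N.g2) (r' N.g2) (T : M2 A)
    hX0 hX1 hX0' hX1' N.i0 N.j0 (fun i j => sub_mem_of_isLift N hl hl' N.g2 i j)
    (by rw [hent, hent']) (isUnit_comm_entry_of_isLift N hl') (hT N.g1) (hT N.g2)
  set a : A := (T : M2 A) 0 0 with ha
  -- `a` is a unit
  have hau : IsUnit a := by
    have h1 : (T : M2 A) * ((T⁻¹ : (M2 A)ˣ) : M2 A) = 1 := Units.mul_inv T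
    rw [hsc] at h1
    have h2 := congrFun (congrFun h1 0) 0
    simp only [Matrix.smul_mul, Matrix.one_mul, Matrix.smul_apply, smul_eq_mul,
      Matrix.one_apply_eq] at h2
    exact IsUnit.of_mul_eq_one _ h2
  obtain ⟨u, hu⟩ := hau
  ext σ i j
  have h1 := hT σ
  rw [hsc] at h1
  have h2 := congrFun (congrFun h1 i) j
  simp only [Matrix.smul_mul, Matrix.one_mul, Matrix.mul_smul, Matrix.mul_one,
    Matrix.smul_apply, smul_eq_mul] at h2
  rw [← hu] at h2
  exact u.isUnit.mul_left_cancel h2

/-- (∃) over a Henselian local ring every strict lift is conjugate to a normalized one. -/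
theorem exists_isNorm_conj_of_henselian [HenselianRing A (maximalIdeal A)] (r : GQ →* M2 A)
    (h : IsLift 𝒪 N.rbar r) :
    ∃ (T : (M2 A)ˣ) (r' : GQ →* M2 A), IsNorm N r' ∧ ∀ σ, (T : M2 A) * r σ = r' σ * T := by
  have hX00 : r N.g1 0 0 ∈ maximalIdeal A := by
    rw [← residue_eq_zero_iff, residue_entry_of_isLift N h, N.col 0]
    simp
  have hX10 : r N.g1 1 0 - 1 ∈ maximalIdeal A := by
    rw [← residue_eq_zero_iff, map_sub, residue_entry_of_isLift N h, N.col 1]
    simp
  have hc : r N.g2 N.i0 N.j0 - algebraMap 𝒪 A N.c0 ∈ maximalIdeal A := by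
    rw [← residue_eq_zero_iff, map_sub, residue_entry_of_isLift N h, ← N.c0_spec,
      ResidueField.map_residue, sub_self]
  obtain ⟨T, T', hTT', hT'T, hTm, h00, h10, hent⟩ :=
    NormMat.exists_conj_normalized (r N.g1) (r N.g2) hX00 hX10 N.i0 N.j0
      (isUnit_comm_entry_of_isLift N h) (algebraMap 𝒪 A N.c0) hc
  let r' : GQ →* M2 A :=
    { toFun := fun σ => T * r σ * T'
      map_one' := by rw [map_one, Matrix.mul_one, hTT']
      map_mul' := fun σ τ => by
        rw [map_mul]
        calc T * (r σ * r τ) * T' = T * r σ * (1 : M2 A) * r τ * T' := by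
              simp only [Matrix.mul_assoc, Matrix.one_mul]
          _ = T * r σ * T' * (T * r τ * T') := by
              rw [← hT'T]; simp only [Matrix.mul_assoc] }
  have hr' : ∀ σ, r' σ = T * r σ * T' := fun σ => rfl
  -- `T'` is congruent to `1`
  have hT'm : ∀ i j, (T' - 1) i j ∈ maximalIdeal A := by
    intro i j
    have : T' - 1 = -((T - 1) * T') := by
      rw [Matrix.sub_mul, hTT', Matrix.one_mul]; abel
    rw [this, Matrix.neg_apply]
    exact neg_mem (NormMat.mul_entries_mem_of_left _ _ _ hTm i j)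
  refine ⟨⟨T, T', hTT', hT'T⟩, r', ⟨?_, ?_, ?_⟩, ?_⟩
  · -- strict lift
    intro σ
    rw [← h σ]
    ext i j
    rw [Matrix.map_apply, Matrix.map_apply, ← sub_eq_zero, ← map_sub, residue_eq_zero_iff, hr']
    have h1 := NormMat.conj_sub_mem (maximalIdeal A) T' T (r σ) hT'm hTm i j
    rwa [Matrix.sub_apply] at h1
  · intro i
    fin_cases i
    · simpa [hr'] using h00
    · simpa [hr'] using h10
  · rw [hr']; exact hent
  · intro σ
    show T * r σ = T * r σ * T' * T
    rw [Matrix.mul_assoc (T * r σ), hT'T, Matrix.mul_one]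

/-- (∃) over a finite local ring every strict lift is conjugate to a normalized one. -/
theorem exists_isNorm_conj_of_finite [Finite A] (r : GQ →* M2 A) (h : IsLift 𝒪 N.rbar r) :
    ∃ (T : (M2 A)ˣ) (r' : GQ →* M2 A), IsNorm N r' ∧ ∀ σ, (T : M2 A) * r σ = r' σ * T :=
  exists_isNorm_conj_of_henselian N r h

/-- (∃) over a complete noetherian local ring every strict lift is conjugate to a normalized
one. -/
theorem exists_isNorm_conj_of_complete [IsNoetherianRing A]
    [IsAdicComplete (maximalIdeal A) A] (r : GQ →* M2 A) (h : IsLift 𝒪 N.rbar r) :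
    ∃ (T : (M2 A)ˣ) (r' : GQ →* M2 A), IsNorm N r' ∧ ∀ σ, (T : M2 A) * r σ = r' σ * T :=
  exists_isNorm_conj_of_henselian N r h

end

end Fermat.Agent.S53

end
-- ==== END Fermat.Agent.S53.Norm

-- ==== BEGIN Fermat.Agent.S53.TestAlg
section

set_option autoImplicit false

/-!
# S53: basic facts on test algebras (finite local `𝒪`-algebras with residue field `k`).

A "test algebra" is given by instances
`[CommRing A] [IsLocalRing A] [Algebra 𝒪 A] [IsLocalHom (algebraMap 𝒪 A)] [Finite A]`
plus `hres : Function.Surjective (residue A ∘ algebraMap 𝒪 A)`.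

All statements of the interface are proved (helper90). Extra helper lemmas:
`finite_of_isFiniteLength`, `isNilpotent_of_not_isUnit`, `map_maximalIdeal_le`,
`isUnit_of_sub_mem`, `isUnit_of_mem_fibre_of_isUnit_fst/snd`, `isLocalHom_mk_quot_pow`.
-/

namespace Fermat.Agent.S53

open IsLocalRing

variable {𝒪 : Type} [CommRing 𝒪] [IsLocalRing 𝒪]

section Basic

variable {A : Type} [CommRing A] [IsLocalRing A] [Algebra 𝒪 A]

/-- a module of finite length over a local ring with finite residue field is finite -/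
theorem finite_of_isFiniteLength {A : Type} [CommRing A] [IsLocalRing A] [Finite (ResidueField A)]
    {M : Type} [AddCommGroup M] [Module A M] (h : IsFiniteLength A M) : Finite M := by
  induction h with
  | of_subsingleton => infer_instance
  | @of_simple_quotient M _ _ N hs _ ih =>
    obtain ⟨I, hI, ⟨e⟩⟩ := isSimpleModule_iff_quot_maximal.mp hs
    have hI' : I = maximalIdeal A := IsLocalRing.eq_maximalIdeal hI
    subst hI'
    have : Finite (A ⧸ maximalIdeal A) := ‹Finite (ResidueField A)›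
    have : Finite (M ⧸ N) := Finite.of_equiv _ e.symm.toEquiv
    have : Finite N := ih
    have : Finite (M ⧸ N.toAddSubgroup) := ‹Finite (M ⧸ N)›
    have : Finite N.toAddSubgroup := ‹Finite N›
    exact Finite.of_equiv _ (AddSubgroup.addGroupEquivQuotientProdAddSubgroup (s := N.toAddSubgroup)).symm

theorem finite_of_isArtinianTestAlgebra [Finite (ResidueField 𝒪)]
    (hA : GaloisRep.IsArtinianTestAlgebra 𝒪 A) : Finite A := by
  have := hA.isLocalHom
  have := hA.isArtinian
  have hsurj : Function.Surjective (ResidueField.map (algebraMap 𝒪 A)) := by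
    intro x
    obtain ⟨c, hc⟩ := hA.residue_surjective x
    exact ⟨residue 𝒪 c, by rw [ResidueField.map_residue]; exact hc⟩
  have : Finite (ResidueField A) := Finite.of_surjective _ hsurj
  have hfl : IsFiniteLength A A :=
    isFiniteLength_iff_isNoetherian_isArtinian.mpr ⟨inferInstance, inferInstance⟩
  exact finite_of_isFiniteLength hfl

theorem isArtinianTestAlgebra_of_finite [IsLocalHom (algebraMap 𝒪 A)] [Finite A]
    (hres : Function.Surjective (residue A ∘ algebraMap 𝒪 A)) :
    GaloisRep.IsArtinianTestAlgebra 𝒪 A :=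
  ⟨inferInstance, hres, isArtinian_of_finite⟩

theorem exists_sub_mem_maximalIdeal (hres : Function.Surjective (residue A ∘ algebraMap 𝒪 A))
    (a : A) : ∃ c : 𝒪, a - algebraMap 𝒪 A c ∈ maximalIdeal A := by
  obtain ⟨c, hc⟩ := hres (residue A a)
  refine ⟨c, ?_⟩
  rw [← residue_eq_zero_iff, map_sub, sub_eq_zero]
  exact hc.symm

theorem exists_pow_maximalIdeal_eq_bot [Finite A] : ∃ n : ℕ, maximalIdeal A ^ n = ⊥ := by
  have : IsArtinianRing A := isArtinian_of_finite
  have h := IsArtinianRing.isNilpotent_jacobson_bot (R := A)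
  rw [IsLocalRing.jacobson_eq_maximalIdeal ⊥ bot_ne_top] at h
  obtain ⟨n, hn⟩ := h
  exact ⟨n, hn⟩

/-- in a finite local ring the nonunits are nilpotent -/
theorem isNilpotent_of_not_isUnit [Finite A] {a : A} (ha : ¬ IsUnit a) : IsNilpotent a := by
  obtain ⟨n, hn⟩ := exists_pow_maximalIdeal_eq_bot (A := A)
  refine ⟨n, ?_⟩
  have : a ^ n ∈ maximalIdeal A ^ n := Ideal.pow_mem_pow ((mem_maximalIdeal a).mpr ha) n
  rw [hn] at this
  exact (Submodule.mem_bot A).mp this

theorem isLocalHom_of_finite [Finite A] {B : Type} [CommRing B] [IsLocalRing B] [Algebra 𝒪 B]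
    (φ : A →ₐ[𝒪] B) : IsLocalHom (φ : A →+* B) := by
  refine ⟨fun a ha => ?_⟩
  by_contra hna
  obtain ⟨n, hn⟩ := isNilpotent_of_not_isUnit hna
  have h1 : ((φ : A →+* B) a) ^ n = 0 := by rw [← map_pow, hn, map_zero]
  have h2 : IsUnit (((φ : A →+* B) a) ^ n) := ha.pow n
  rw [h1] at h2
  exact not_isUnit_zero h2

end Basic

section Sub

theorem isLocalHom_subalgebra_val {P : Type} [CommRing P] [Algebra 𝒪 P] [Finite P]
    (E : Subalgebra 𝒪 P) : IsLocalHom (E.val : E →+* P) := by
  refine ⟨fun x hx => ?_⟩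
  obtain ⟨u, hu⟩ := hx
  have hpos : 0 < orderOf u := orderOf_pos u
  have hpow : u ^ orderOf u = 1 := pow_orderOf_eq_one u
  have hx1 : (x : P) ^ orderOf u = 1 := by
    have := congrArg (fun v : Pˣ => (v : P)) hpow
    simp only [Units.val_pow_eq_pow_val, Units.val_one] at this
    rw [hu] at this
    exact this
  refine IsUnit.of_mul_eq_one (x ^ (orderOf u - 1)) ?_
  apply Subtype.ext
  rw [← pow_succ', Nat.sub_add_cancel hpos]
  simpa using hx1

variable {E A : Type} [CommRing E] [IsLocalRing E] [Algebra 𝒪 E]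
  [CommRing A] [IsLocalRing A] [Algebra 𝒪 A]

theorem isLocalHom_algebraMap_of_isLocalHom [IsLocalHom (algebraMap 𝒪 A)] (f : E →ₐ[𝒪] A) :
    IsLocalHom (algebraMap 𝒪 E) := by
  refine ⟨fun c hc => ?_⟩
  have h1 : IsUnit (f (algebraMap 𝒪 E c)) := hc.map f
  rw [AlgHom.commutes] at h1
  exact isUnit_of_map_unit (algebraMap 𝒪 A) c h1

theorem res_surj_of_isLocalHom (f : E →ₐ[𝒪] A) (hf : IsLocalHom (f : E →+* A))
    (hres : Function.Surjective (residue A ∘ algebraMap 𝒪 A)) :
    Function.Surjective (residue E ∘ algebraMap 𝒪 E) := by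
  intro x
  obtain ⟨e, rfl⟩ := residue_surjective x
  obtain ⟨c, hc⟩ := exists_sub_mem_maximalIdeal hres (f e)
  refine ⟨c, ?_⟩
  simp only [Function.comp_apply]
  rw [← sub_eq_zero, ← map_sub, residue_eq_zero_iff, mem_maximalIdeal, mem_nonunits_iff]
  intro hu
  have h1 : IsUnit (f (algebraMap 𝒪 E c - e)) := hu.map f
  rw [map_sub, AlgHom.commutes] at h1
  have h2 : f e - algebraMap 𝒪 A c = -(algebraMap 𝒪 A c - f e) := by ring
  rw [h2] at hc
  exact (mem_maximalIdeal _).mp hc h1.neg

theorem map_maximalIdeal_le {R S : Type} [CommRing R] [IsLocalRing R] [CommRing S] [IsLocalRing S]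
    (f : R →+* S) (hf : IsLocalHom f) : (maximalIdeal R).map f ≤ maximalIdeal S := by
  rw [Ideal.map_le_iff_le_comap]
  intro x hx
  rw [Ideal.mem_comap, mem_maximalIdeal, mem_nonunits_iff]
  intro hu
  exact (mem_maximalIdeal x).mp hx (hf.map_nonunit x hu)

theorem pow_eq_bot_of_injective_prod {B : Type} [CommRing B] [IsLocalRing B] [Algebra 𝒪 B]
    (f : E →ₐ[𝒪] A) (g : E →ₐ[𝒪] B) (hf : IsLocalHom (f : E →+* A))
    (hg : IsLocalHom (g : E →+* B)) (hinj : Function.Injective fun x => (f x, g x)) (n : ℕ)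
    (hA : maximalIdeal A ^ n = ⊥) (hB : maximalIdeal B ^ n = ⊥) : maximalIdeal E ^ n = ⊥ := by
  rw [eq_bot_iff]
  intro x hx
  have h1 : (f : E →+* A) x ∈ maximalIdeal A ^ n := by
    have : (f : E →+* A) x ∈ (maximalIdeal E ^ n).map (f : E →+* A) := Ideal.mem_map_of_mem _ hx
    rw [Ideal.map_pow] at this
    exact Ideal.pow_right_mono (map_maximalIdeal_le _ hf) n this
  have h2 : (g : E →+* B) x ∈ maximalIdeal B ^ n := by
    have : (g : E →+* B) x ∈ (maximalIdeal E ^ n).map (g : E →+* B) := Ideal.mem_map_of_mem _ hx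
    rw [Ideal.map_pow] at this
    exact Ideal.pow_right_mono (map_maximalIdeal_le _ hg) n this
  rw [hA] at h1
  rw [hB] at h2
  have h1' : f x = 0 := (Submodule.mem_bot A).mp h1
  have h2' : g x = 0 := (Submodule.mem_bot B).mp h2
  have : (fun x => (f x, g x)) x = (fun x => (f x, g x)) 0 := by
    simp only [h1', h2', map_zero]
  exact (Submodule.mem_bot E).mpr (hinj this)

end Sub

section Fibre

variable (𝒪)
variable (A B : Type) [CommRing A] [IsLocalRing A] [Algebra 𝒪 A]
  [CommRing B] [IsLocalRing B] [Algebra 𝒪 B]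

/-- The fibre product `A ×_k B` as a subalgebra of `A × B`. -/
def fibre : Subalgebra 𝒪 (A × B) where
  carrier := {x | ∃ c : 𝒪, x.1 - algebraMap 𝒪 A c ∈ maximalIdeal A ∧
    x.2 - algebraMap 𝒪 B c ∈ maximalIdeal B}
  mul_mem' := by
    rintro x y ⟨c, hc1, hc2⟩ ⟨d, hd1, hd2⟩
    refine ⟨c * d, ?_, ?_⟩
    · have : (x * y).1 - algebraMap 𝒪 A (c * d) =
          (x.1 - algebraMap 𝒪 A c) * y.1 + algebraMap 𝒪 A c * (y.1 - algebraMap 𝒪 A d) := by
        rw [map_mul, Prod.fst_mul]; ring
      rw [this]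
      exact Ideal.add_mem _ (Ideal.mul_mem_right _ _ hc1) (Ideal.mul_mem_left _ _ hd1)
    · have : (x * y).2 - algebraMap 𝒪 B (c * d) =
          (x.2 - algebraMap 𝒪 B c) * y.2 + algebraMap 𝒪 B c * (y.2 - algebraMap 𝒪 B d) := by
        rw [map_mul, Prod.snd_mul]; ring
      rw [this]
      exact Ideal.add_mem _ (Ideal.mul_mem_right _ _ hc2) (Ideal.mul_mem_left _ _ hd2)
  add_mem' := by
    rintro x y ⟨c, hc1, hc2⟩ ⟨d, hd1, hd2⟩
    refine ⟨c + d, ?_, ?_⟩
    · have : (x + y).1 - algebraMap 𝒪 A (c + d) =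
          (x.1 - algebraMap 𝒪 A c) + (y.1 - algebraMap 𝒪 A d) := by
        rw [map_add, Prod.fst_add]; ring
      rw [this]
      exact Ideal.add_mem _ hc1 hd1
    · have : (x + y).2 - algebraMap 𝒪 B (c + d) =
          (x.2 - algebraMap 𝒪 B c) + (y.2 - algebraMap 𝒪 B d) := by
        rw [map_add, Prod.snd_add]; ring
      rw [this]
      exact Ideal.add_mem _ hc2 hd2
  algebraMap_mem' := by
    intro c
    refine ⟨c, ?_, ?_⟩
    · have : (algebraMap 𝒪 (A × B) c).1 - algebraMap 𝒪 A c = 0 := by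
        rw [Prod.algebraMap_apply]; simp
      rw [this]
      exact Ideal.zero_mem _
    · have : (algebraMap 𝒪 (A × B) c).2 - algebraMap 𝒪 B c = 0 := by
        rw [Prod.algebraMap_apply]; simp
      rw [this]
      exact Ideal.zero_mem _

variable {𝒪 A B}

theorem mem_fibre (x : A × B) : x ∈ fibre 𝒪 A B ↔ ∃ c : 𝒪,
    x.1 - algebraMap 𝒪 A c ∈ maximalIdeal A ∧ x.2 - algebraMap 𝒪 B c ∈ maximalIdeal B :=
  Iff.rfl

/-- in a local ring, an element congruent to a unit modulo the maximal ideal is a unit -/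
theorem isUnit_of_sub_mem {R : Type} [CommRing R] [IsLocalRing R] {a b : R}
    (hab : a - b ∈ maximalIdeal R) (ha : IsUnit a) : IsUnit b := by
  by_contra hb
  have hb' : b ∈ maximalIdeal R := (mem_maximalIdeal b).mpr hb
  have : a ∈ maximalIdeal R := by
    have h := Ideal.add_mem _ hab hb'
    rwa [sub_add_cancel] at h
  exact (mem_maximalIdeal a).mp this ha

variable [IsLocalHom (algebraMap 𝒪 A)] [IsLocalHom (algebraMap 𝒪 B)] [Finite A] [Finite B]

theorem isUnit_of_mem_fibre_of_isUnit_fst {x : A × B} (hx : x ∈ fibre 𝒪 A B)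
    (h1 : IsUnit x.1) : IsUnit x := by
  obtain ⟨c, hc1, hc2⟩ := hx
  have hcA : IsUnit (algebraMap 𝒪 A c) := isUnit_of_sub_mem hc1 h1
  have hc : IsUnit c := isUnit_of_map_unit (algebraMap 𝒪 A) c hcA
  have hcB : IsUnit (algebraMap 𝒪 B c) := hc.map (algebraMap 𝒪 B)
  have h2 : IsUnit x.2 := by
    have h : algebraMap 𝒪 B c - x.2 ∈ maximalIdeal B := by
      have := Ideal.neg_mem_iff (maximalIdeal B) |>.mpr hc2
      rwa [neg_sub] at this
    exact isUnit_of_sub_mem h hcB
  exact Prod.isUnit_iff.mpr ⟨h1, h2⟩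

theorem isUnit_of_mem_fibre_of_isUnit_snd {x : A × B} (hx : x ∈ fibre 𝒪 A B)
    (h2 : IsUnit x.2) : IsUnit x := by
  obtain ⟨c, hc1, hc2⟩ := hx
  have hcB : IsUnit (algebraMap 𝒪 B c) := isUnit_of_sub_mem hc2 h2
  have hc : IsUnit c := isUnit_of_map_unit (algebraMap 𝒪 B) c hcB
  have hcA : IsUnit (algebraMap 𝒪 A c) := hc.map (algebraMap 𝒪 A)
  have h1 : IsUnit x.1 := by
    have h : algebraMap 𝒪 A c - x.1 ∈ maximalIdeal A := by
      have := Ideal.neg_mem_iff (maximalIdeal A) |>.mpr hc1
      rwa [neg_sub] at this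
    exact isUnit_of_sub_mem h hcA
  exact Prod.isUnit_iff.mpr ⟨h1, h2⟩

theorem isLocalHom_fst_of_le_fibre (E : Subalgebra 𝒪 (A × B)) (hE : E ≤ fibre 𝒪 A B) :
    IsLocalHom (((AlgHom.fst 𝒪 A B).comp E.val : E →ₐ[𝒪] A) : E →+* A) := by
  refine ⟨fun x hx => ?_⟩
  have h1 : IsUnit (x : A × B).1 := hx
  have h : IsUnit (x : A × B) := isUnit_of_mem_fibre_of_isUnit_fst (hE x.2) h1
  exact (isLocalHom_subalgebra_val E).map_nonunit x h

theorem isLocalHom_snd_of_le_fibre (E : Subalgebra 𝒪 (A × B)) (hE : E ≤ fibre 𝒪 A B) :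
    IsLocalHom (((AlgHom.snd 𝒪 A B).comp E.val : E →ₐ[𝒪] B) : E →+* B) := by
  refine ⟨fun x hx => ?_⟩
  have h2 : IsUnit (x : A × B).2 := hx
  have h : IsUnit (x : A × B) := isUnit_of_mem_fibre_of_isUnit_snd (hE x.2) h2
  exact (isLocalHom_subalgebra_val E).map_nonunit x h

end Fibre

section ToK

variable (𝒪)
variable (A : Type) [CommRing A] [IsLocalRing A] [Algebra 𝒪 A] [IsLocalHom (algebraMap 𝒪 A)]

/-- The canonical map from a test algebra to `k = ResidueField 𝒪`. -/
theorem exists_toK (hres : Function.Surjective (residue A ∘ algebraMap 𝒪 A)) :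
    ∃ f : A →ₐ[𝒪] ResidueField 𝒪, Function.Surjective f ∧
      (∀ a : A, f a = 0 ↔ a ∈ maximalIdeal A) ∧
      ∀ (a : A) (c : 𝒪), f a = residue 𝒪 c ↔ a - algebraMap 𝒪 A c ∈ maximalIdeal A := by
  have hbij : Function.Bijective (ResidueField.map (algebraMap 𝒪 A)) := by
    refine ⟨(ResidueField.map (algebraMap 𝒪 A)).injective, fun x => ?_⟩
    obtain ⟨c, hc⟩ := hres x
    exact ⟨residue 𝒪 c, by rw [ResidueField.map_residue]; exact hc⟩
  let e : ResidueField 𝒪 ≃+* ResidueField A := RingEquiv.ofBijective _ hbij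
  have he : ∀ x, e x = ResidueField.map (algebraMap 𝒪 A) x := fun _ => rfl
  let f0 : A →+* ResidueField 𝒪 := (e.symm : ResidueField A →+* ResidueField 𝒪).comp (residue A)
  have hf0 : ∀ a, f0 a = e.symm (residue A a) := fun _ => rfl
  have hcomm : ∀ c : 𝒪, f0 (algebraMap 𝒪 A c) = algebraMap 𝒪 (ResidueField 𝒪) c := by
    intro c
    rw [hf0, RingEquiv.symm_apply_eq, he]
    exact (ResidueField.map_residue (algebraMap 𝒪 A) c).symm
  let f : A →ₐ[𝒪] ResidueField 𝒪 := { f0 with commutes' := hcomm }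
  have hf : ∀ a, f a = e.symm (residue A a) := fun _ => rfl
  refine ⟨f, ?_, ?_, ?_⟩
  · intro x
    obtain ⟨a, ha⟩ := residue_surjective (e x)
    exact ⟨a, by rw [hf, ha, RingEquiv.symm_apply_apply]⟩
  · intro a
    rw [hf, map_eq_zero_iff _ e.symm.injective, residue_eq_zero_iff]
  · intro a c
    rw [hf, RingEquiv.symm_apply_eq, he, ResidueField.map_residue, ← sub_eq_zero, ← map_sub,
      residue_eq_zero_iff]

end ToK

section Quot

variable {A : Type} [CommRing A] [IsLocalRing A] [Algebra 𝒪 A]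

theorem nontrivial_quot_pow (n : ℕ) : Nontrivial (A ⧸ maximalIdeal A ^ (n + 1)) := by
  rw [Ideal.Quotient.nontrivial_iff]
  intro h
  have h1 : maximalIdeal A ^ (n + 1) ≤ maximalIdeal A := Ideal.pow_le_self (Nat.succ_ne_zero n)
  rw [h] at h1
  exact (maximalIdeal.isMaximal A).ne_top (top_le_iff.mp h1)

instance instIsLocalRingQuotPow (n : ℕ) : IsLocalRing (A ⧸ maximalIdeal A ^ (n + 1)) :=
  haveI := nontrivial_quot_pow (A := A) n
  IsLocalRing.of_surjective' (Ideal.Quotient.mk _) Ideal.Quotient.mk_surjective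

theorem isLocalHom_mk_quot_pow (n : ℕ) :
    IsLocalHom (Ideal.Quotient.mk (maximalIdeal A ^ (n + 1))) :=
  IsLocalHom.of_surjective _ Ideal.Quotient.mk_surjective

theorem isLocalHom_algebraMap_quot_pow [IsLocalHom (algebraMap 𝒪 A)] (n : ℕ) :
    IsLocalHom (algebraMap 𝒪 (A ⧸ maximalIdeal A ^ (n + 1))) := by
  have h : algebraMap 𝒪 (A ⧸ maximalIdeal A ^ (n + 1)) =
      (Ideal.Quotient.mk (maximalIdeal A ^ (n + 1))).comp (algebraMap 𝒪 A) := rfl
  rw [h]
  haveI := isLocalHom_mk_quot_pow (A := A) n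
  exact RingHom.isLocalHom_comp _ _

theorem maximalIdeal_quot_pow (n : ℕ) :
    maximalIdeal (A ⧸ maximalIdeal A ^ (n + 1)) =
      (maximalIdeal A).map (Ideal.Quotient.mk (maximalIdeal A ^ (n + 1))) := by
  apply le_antisymm
  · intro x hx
    obtain ⟨a, rfl⟩ := Ideal.Quotient.mk_surjective x
    apply Ideal.mem_map_of_mem
    rw [mem_maximalIdeal, mem_nonunits_iff] at hx ⊢
    intro ha
    exact hx (ha.map _)
  · rw [Ideal.map_le_iff_le_comap]
    intro a ha
    rw [Ideal.mem_comap, mem_maximalIdeal, mem_nonunits_iff]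
    intro hu
    exact (mem_maximalIdeal a).mp ha ((isLocalHom_mk_quot_pow (A := A) n).map_nonunit a hu)

theorem maximalIdeal_quot_pow_pow (n : ℕ) :
    maximalIdeal (A ⧸ maximalIdeal A ^ (n + 1)) ^ (n + 1) = ⊥ := by
  rw [maximalIdeal_quot_pow, ← Ideal.map_pow, Ideal.map_quotient_self]

theorem res_surj_quot_pow (hres : Function.Surjective (residue A ∘ algebraMap 𝒪 A)) (n : ℕ) :
    Function.Surjective (residue (A ⧸ maximalIdeal A ^ (n + 1)) ∘
      algebraMap 𝒪 (A ⧸ maximalIdeal A ^ (n + 1))) := by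
  intro x
  obtain ⟨y, rfl⟩ := residue_surjective x
  obtain ⟨a, rfl⟩ := Ideal.Quotient.mk_surjective y
  obtain ⟨c, hc⟩ := exists_sub_mem_maximalIdeal hres a
  refine ⟨c, ?_⟩
  simp only [Function.comp_apply]
  rw [← sub_eq_zero, ← map_sub, residue_eq_zero_iff, maximalIdeal_quot_pow]
  have h : algebraMap 𝒪 (A ⧸ maximalIdeal A ^ (n + 1)) c - Ideal.Quotient.mk _ a =
      Ideal.Quotient.mk (maximalIdeal A ^ (n + 1)) (-(a - algebraMap 𝒪 A c)) := by
    rw [map_neg, map_sub, neg_sub]
    rfl
  rw [h]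
  exact Ideal.mem_map_of_mem _ (Ideal.neg_mem_iff _ |>.mpr hc)

end Quot

section ResidueFieldTest

variable (𝒪)

theorem isLocalHom_algebraMap_residueField : IsLocalHom (algebraMap 𝒪 (ResidueField 𝒪)) := by
  have h : algebraMap 𝒪 (ResidueField 𝒪) = residue 𝒪 := rfl
  rw [h]
  infer_instance

theorem maximalIdeal_residueField : maximalIdeal (ResidueField 𝒪) = ⊥ :=
  IsLocalRing.maximalIdeal_eq_bot

theorem res_surj_residueField :
    Function.Surjective (residue (ResidueField 𝒪) ∘ algebraMap 𝒪 (ResidueField 𝒪)) := by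
  intro x
  obtain ⟨y, rfl⟩ := residue_surjective x
  obtain ⟨c, rfl⟩ := residue_surjective y
  exact ⟨c, rfl⟩

/-- `ResidueField.map (algebraMap 𝒪 k)` is the residue map of the field `k`. -/
theorem residueField_map_algebraMap_residueField
    [IsLocalHom (algebraMap 𝒪 (ResidueField 𝒪))] (x : ResidueField 𝒪) :
    ResidueField.map (algebraMap 𝒪 (ResidueField 𝒪)) x = residue (ResidueField 𝒪) x := by
  obtain ⟨c, rfl⟩ := residue_surjective x
  rw [ResidueField.map_residue]
  rfl

end ResidueFieldTest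

section DualNumberTest

variable (𝒪)

/-- The `𝒪`-algebra structure on `k[ε]` used in `GaloisRep.TangentFinite`. -/
@[reducible] noncomputable def dualNumberAlgebra : Algebra 𝒪 (DualNumber (ResidueField 𝒪)) :=
  ((algebraMap (ResidueField 𝒪) (DualNumber (ResidueField 𝒪))).comp
    (algebraMap 𝒪 (ResidueField 𝒪))).toAlgebra

theorem finite_dualNumber [Finite (ResidueField 𝒪)] : Finite (DualNumber (ResidueField 𝒪)) :=
  inferInstanceAs (Finite (ResidueField 𝒪 × ResidueField 𝒪))

theorem isLocalHom_algebraMap_dualNumber :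
    letI := dualNumberAlgebra 𝒪
    IsLocalHom (algebraMap 𝒪 (DualNumber (ResidueField 𝒪))) := by
  letI := dualNumberAlgebra 𝒪
  refine ⟨fun c hc => ?_⟩
  have h : algebraMap 𝒪 (DualNumber (ResidueField 𝒪)) c =
      TrivSqZeroExt.inl (residue 𝒪 c) := rfl
  rw [h, TrivSqZeroExt.isUnit_iff_isUnit_fst, TrivSqZeroExt.fst_inl] at hc
  exact isUnit_of_map_unit (residue 𝒪) c hc

theorem res_surj_dualNumber :
    letI := dualNumberAlgebra 𝒪
    Function.Surjective (residue (DualNumber (ResidueField 𝒪)) ∘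
      algebraMap 𝒪 (DualNumber (ResidueField 𝒪))) := by
  letI := dualNumberAlgebra 𝒪
  intro x
  obtain ⟨y, rfl⟩ := residue_surjective x
  obtain ⟨c, hc⟩ := residue_surjective (R := 𝒪) y.fst
  refine ⟨c, ?_⟩
  simp only [Function.comp_apply]
  rw [← sub_eq_zero, ← map_sub, residue_eq_zero_iff, mem_maximalIdeal, mem_nonunits_iff,
    TrivSqZeroExt.isUnit_iff_isUnit_fst]
  have h : algebraMap 𝒪 (DualNumber (ResidueField 𝒪)) c =
      TrivSqZeroExt.inl (residue 𝒪 c) := rfl
  rw [h, TrivSqZeroExt.fst_sub, TrivSqZeroExt.fst_inl, hc, sub_self]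
  exact not_isUnit_zero

end DualNumberTest

end Fermat.Agent.S53

end
-- ==== END Fermat.Agent.S53.TestAlg

-- ==== BEGIN Fermat.Agent.S53.Tower
section

set_option autoImplicit false

/-!
# S53: the interface between the construction of the level-wise universal pairs
(`exists_univTower`) and the final assembly (`nonempty_of_univTower`).

Rigidified version: all lifts are normalized (`IsNorm`), so pairs are compared by equality of
matrices and maps out of `D j` are determined by the images of the entries of `s j`.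
-/

namespace Fermat.Agent.S53

open IsLocalRing

/-- A tower of level-wise universal normalized pairs: `D j` is a finite local `𝒪`-algebra with
`m ^ (j+1) = 0`, generated by the entries of a normalized lift `s j` of type `𝒟`, which is
universal among normalized lifts of type `𝒟` to test algebras `A` with `m_A ^ (j+1) = 0`. -/
structure UnivTower (𝒪 : Type) [CommRing 𝒪] [IsLocalRing 𝒪]
    (𝒟 : ∀ ⦃A : Type⦄ [CommRing A] [IsLocalRing A] [Algebra 𝒪 A], GaloisRepAdic A → Prop)
    {ρbar : ResidualGaloisRep (ResidueField 𝒪)} (N : NormData 𝒪 ρbar) : Type 1 where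
  D : ℕ → Type
  [instCommRing : ∀ j, CommRing (D j)]
  [instIsLocalRing : ∀ j, IsLocalRing (D j)]
  [instAlgebra : ∀ j, Algebra 𝒪 (D j)]
  [instIsLocalHom : ∀ j, IsLocalHom (algebraMap 𝒪 (D j))]
  [instFinite : ∀ j, Finite (D j)]
  res_surj : ∀ j, Function.Surjective (residue (D j) ∘ algebraMap 𝒪 (D j))
  lev : ∀ j, maximalIdeal (D j) ^ (j + 1) = ⊥
  u : ∀ j, D (j + 1) →ₐ[𝒪] D j
  u_surj : ∀ j, Function.Surjective (u j)
  ker_u : ∀ j, RingHom.ker (u j : D (j + 1) →+* D j) = maximalIdeal (D (j + 1)) ^ (j + 1)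
  s : ∀ j, GQ →* M2 (D j)
  s_compat : ∀ j σ, (s (j + 1) σ).map (u j) = s j σ
  s_norm : ∀ j, IsNorm N (s j)
  s_type : ∀ j, DMat 𝒪 𝒟 (s j)
  s_gen : ∀ j, Algebra.adjoin 𝒪 (entries (s j)) = ⊤
  exists_map : ∀ (j : ℕ) (A : Type) [CommRing A] [IsLocalRing A] [Algebra 𝒪 A]
      [IsLocalHom (algebraMap 𝒪 A)],
      GaloisRep.IsArtinianTestAlgebra 𝒪 A → maximalIdeal A ^ (j + 1) = ⊥ →
      ∀ r : GQ →* M2 A, IsNorm N r → DMat 𝒪 𝒟 r →
        ∃ φ : D j →ₐ[𝒪] A, ∀ σ, (s j σ).map φ = r σ

attribute [instance] UnivTower.instCommRing UnivTower.instIsLocalRing UnivTower.instAlgebra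
  UnivTower.instIsLocalHom UnivTower.instFinite

end Fermat.Agent.S53

end
-- ==== END Fermat.Agent.S53.Tower

-- ==== BEGIN Fermat.Agent.S55.CFT.Defs_LOC
section

set_option autoImplicit false

open CategoryTheory groupCohomology

namespace Fermat.Agent.S55.CFT.LOC

/-- The `q`-adic absolute value of a finite extension `F` of `ℚ_q` (the spectral norm). -/
noncomputable def nrm (q : ℕ) [Fact q.Prime] (F : Type) [Field F] [Algebra ℚ_[q] F] (x : F) : ℝ :=
  spectralNorm ℚ_[q] F x

/-- `E/F` is unramified: `E` and `F` have the same value group. -/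
def IsUnram (q : ℕ) [Fact q.Prime] (F E : Type) [Field F] [Field E] [Algebra ℚ_[q] F]
    [Algebra ℚ_[q] E] : Prop :=
  ∀ y : E, ∃ x : F, nrm q E y = nrm q F x

/-! ### LOC-1: basic structure -/

/-- **LOC-1c** (discreteness): there is a uniformiser. -/
def Stmt_Uniformizer : Prop :=
  ∀ (q : ℕ) [Fact q.Prime] (F : Type) [Field F] [Algebra ℚ_[q] F] [FiniteDimensional ℚ_[q] F],
    ∃ π : F, 0 < nrm q F π ∧ nrm q F π < 1 ∧
      ∀ x : F, x ≠ 0 → ∃ n : ℤ, nrm q F x = nrm q F π ^ n

/-- **LOC-1d** (finite residue rings): the integers modulo a ball are finite: for every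
`r > 0` there is a finite set of integers such that every integer is `r`-close to one of them. -/
def Stmt_FiniteResidue : Prop :=
  ∀ (q : ℕ) [Fact q.Prime] (F : Type) [Field F] [Algebra ℚ_[q] F] [FiniteDimensional ℚ_[q] F]
    (r : ℝ), 0 < r →
    ∃ T : Finset F, (∀ t ∈ T, nrm q F t ≤ 1) ∧
      ∀ x : F, nrm q F x ≤ 1 → ∃ t ∈ T, nrm q F (x - t) ≤ r

/-- **LOC-1e** (completeness, in the form of successive approximation): a sequence whose
consecutive differences tend to `0` geometrically has a limit, with the same error bound. -/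
def Stmt_SuccApprox : Prop :=
  ∀ (q : ℕ) [Fact q.Prime] (F : Type) [Field F] [Algebra ℚ_[q] F] [FiniteDimensional ℚ_[q] F]
    (x : ℕ → F) (c ρ : ℝ), 0 ≤ c → 0 ≤ ρ → ρ < 1 →
    (∀ n, nrm q F (x (n + 1) - x n) ≤ c * ρ ^ n) →
    ∃ y : F, ∀ n, nrm q F (y - x n) ≤ c * ρ ^ n

/-- **LOC-1f** (equivalence of norms on a normal basis): the coordinates of `y` with respect to
an `F`-basis of `E` are bounded by a constant times the absolute value of `y`. -/
def Stmt_CoordBound : Prop :=
  ∀ (q : ℕ) [Fact q.Prime] (F E : Type) [Field F] [Field E] [Algebra ℚ_[q] F]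
    [FiniteDimensional ℚ_[q] F] [Algebra ℚ_[q] E] [Algebra F E] [IsScalarTower ℚ_[q] F E]
    [FiniteDimensional F E] (ι : Type) [Fintype ι] (b : Module.Basis ι F E),
    ∃ C : ℝ, 0 < C ∧ ∀ (y : E) (i : ι), nrm q F (b.repr y i) ≤ C * nrm q E y

/-! ### LOC-2: unramified extensions -/

/-- **LOC-2a** (existence of unramified extensions): for every `n ≥ 1` there is, inside the
algebraic closure, an unramified cyclic Galois extension of `F` of degree `n`. -/
def Stmt_UnramExists : Prop :=
  ∀ (q : ℕ) [Fact q.Prime] (F : Type) [Field F] [Algebra ℚ_[q] F] [FiniteDimensional ℚ_[q] F]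
    (n : ℕ), 0 < n →
    ∃ E : IntermediateField F (AlgebraicClosure F),
      FiniteDimensional F E ∧ IsGalois F E ∧ Module.finrank F E = n ∧ IsCyclic (E ≃ₐ[F] E) ∧
      IsUnram q F E

/-- **LOC-2b** (units are norms in unramified cyclic extensions). -/
def Stmt_UnramNormUnits : Prop :=
  ∀ (q : ℕ) [Fact q.Prime] (F E : Type) [Field F] [Field E] [Algebra ℚ_[q] F]
    [FiniteDimensional ℚ_[q] F] [Algebra ℚ_[q] E] [Algebra F E] [IsScalarTower ℚ_[q] F E]
    [FiniteDimensional F E] [IsGalois F E],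
    IsCyclic (E ≃ₐ[F] E) → IsUnram q F E →
    ∀ u : F, nrm q F u = 1 → ∃ w : E, nrm q E w = 1 ∧ Algebra.norm F w = u

/-- **LOC-1g** (`n`-th powers are open; Hensel): units close to `1` are `n`-th powers. -/
def Stmt_PowOpen : Prop :=
  ∀ (q : ℕ) [Fact q.Prime] (F : Type) [Field F] [Algebra ℚ_[q] F] [FiniteDimensional ℚ_[q] F]
    (n : ℕ), 0 < n → ∃ r : ℝ, 0 < r ∧ ∀ u : F, nrm q F (u - 1) ≤ r → ∃ w : F, w ^ n = u

/-! ### LOC-3: the local norm index -/

/-- **LOC-3** (local norm index, cyclic extensions of any degree; Serre, Local Fields XIII §4,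
Cassels–Fröhlich VI §1.4): `[Fˣ : N_{E/F} Eˣ] = [E : F]` for `E/F` cyclic.
(Implies `Stmt_LocalNormIndex` of `CFT/Defs.lean`.) -/
def Stmt_LocalNormIndexCyclic : Prop :=
  ∀ (q : ℕ) [Fact q.Prime] (F E : Type) [Field F] [Field E] [Algebra ℚ_[q] F]
    [FiniteDimensional ℚ_[q] F] [Algebra F E] [FiniteDimensional F E] [IsGalois F E],
    IsCyclic (E ≃ₐ[F] E) → (normSubgroup F E).index = Module.finrank F E

/-- **LOC-3a** (the cohomologically trivial open subgroup; the heart of LOC-3).  For `E/F`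
cyclic with generator `σ` there is `r > 0`, and a set `V` of units of `E` (`= 1 + Λ`, `Λ` a small
multiple of a normal basis lattice), which is a `σ`-stable subgroup containing all `u` with
`|u - 1| ≤ r`, all of whose elements are units (`|u| = 1`), such that
* every element of `V` fixed by `σ` is the norm of an element of `V` (`Ĥ⁰(V) = 0`),
* every element of `V` of norm `1` is `σ w / w` with `w ∈ V` (`H¹(V) = 0`). -/
def Stmt_TrivialUnits : Prop :=
  ∀ (q : ℕ) [Fact q.Prime] (F E : Type) [Field F] [Field E] [Algebra ℚ_[q] F]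
    [FiniteDimensional ℚ_[q] F] [Algebra ℚ_[q] E] [Algebra F E] [IsScalarTower ℚ_[q] F E]
    [FiniteDimensional F E] [IsGalois F E] (σ : E ≃ₐ[F] E),
    (∀ τ : E ≃ₐ[F] E, τ ∈ Subgroup.zpowers σ) →
    ∃ (r : ℝ) (V : Subgroup Eˣ), 0 < r ∧
      (∀ u : Eˣ, nrm q E ((u : E) - 1) ≤ r → u ∈ V) ∧
      (∀ u ∈ V, nrm q E (u : E) = 1) ∧
      (∀ u ∈ V, Units.map (σ : E →* E) u ∈ V) ∧
      (∀ u ∈ V, σ (u : E) = u → ∃ w ∈ V, algebraMap F E (Algebra.norm F (w : E)) = u) ∧
      (∀ u ∈ V, Algebra.norm F (u : E) = 1 → ∃ w ∈ V, (u : E) = σ (w : E) / w)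

/-! ### LOC-4: the local class formation on `p`-extensions -/

/-- The units of `E` as a `Gal(E/F)`-module. -/
noncomputable abbrev unitsRep (F E : Type) [Field F] [Field E] [Algebra F E] :
    Rep ℤ (E ≃ₐ[F] E) :=
  Rep.ofAlgebraAutOnUnits F E

/-- **LOC-4a** (cyclic case): `#H²(Gal(E/F), Eˣ) = [E : F]` for `E/F` cyclic.
(Mathlib `FiniteCyclic` + LOC-3.) -/
def Stmt_LocalH2Cyclic : Prop :=
  ∀ (q : ℕ) [Fact q.Prime] (F E : Type) [Field F] [Field E] [Algebra ℚ_[q] F]
    [FiniteDimensional ℚ_[q] F] [Algebra F E] [FiniteDimensional F E] [IsGalois F E],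
    IsCyclic (E ≃ₐ[F] E) →
    Nat.card (groupCohomology (unitsRep F E) 2) = Module.finrank F E

/-- **LOC-4b** (second inequality for `p`-extensions): `#H²(Gal(E/F), Eˣ) ≤ [E : F]` (finite and
at most the degree) when `Gal(E/F)` is a `p`-group.  (Induction, inflation–restriction in
degree 2 = package ALG-2, Hilbert 90, LOC-4a.) -/
def Stmt_LocalH2Le : Prop :=
  ∀ (q : ℕ) [Fact q.Prime] (p : ℕ) [Fact p.Prime] (F E : Type) [Field F] [Field E]
    [Algebra ℚ_[q] F] [FiniteDimensional ℚ_[q] F] [Algebra F E] [FiniteDimensional F E]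
    [IsGalois F E],
    IsPGroup p (E ≃ₐ[F] E) →
    Finite (groupCohomology (unitsRep F E) 2) ∧
      Nat.card (groupCohomology (unitsRep F E) 2) ≤ Module.finrank F E

/-- **LOC-4** (local class formation on `p`-extensions = hypothesis of Tate's theorem TN-2):
for `E/F` Galois with `p`-group `G`, there is a class `γ ∈ H²(G, Eˣ)` such that for every
subgroup `H ≤ G`, `H²(H, Eˣ)` has order `|H|` and is generated by the restriction of `γ`. -/
def Stmt_LocalFundClass : Prop :=
  ∀ (q : ℕ) [Fact q.Prime] (p : ℕ) [Fact p.Prime] (F E : Type) [Field F] [Field E]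
    [Algebra ℚ_[q] F] [FiniteDimensional ℚ_[q] F] [Algebra F E] [FiniteDimensional F E]
    [IsGalois F E],
    IsPGroup p (E ≃ₐ[F] E) →
    ∃ γ : groupCohomology (unitsRep F E) 2, ∀ H : Subgroup (E ≃ₐ[F] E),
      Nat.card (groupCohomology (resSub (unitsRep F E) H) 2) = Nat.card H ∧
      ∀ x : groupCohomology (resSub (unitsRep F E) H) 2,
        ∃ n : ℤ, x = n • resMap (unitsRep F E) H 2 γ

/-- **LOC-4'** (consequence, with TN-2): `H³(Gal(E/F), Eˣ) = 0` for `p`-extensions. -/
def Stmt_LocalH3 : Prop :=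
  ∀ (q : ℕ) [Fact q.Prime] (p : ℕ) [Fact p.Prime] (F E : Type) [Field F] [Field E]
    [Algebra ℚ_[q] F] [FiniteDimensional ℚ_[q] F] [Algebra F E] [FiniteDimensional F E]
    [IsGalois F E],
    IsPGroup p (E ≃ₐ[F] E) → Subsingleton (groupCohomology (unitsRep F E) 3)

end Fermat.Agent.S55.CFT.LOC

end
-- ==== END Fermat.Agent.S55.CFT.Defs_LOC

-- ==== BEGIN Fermat.Agent.S55.CFT.Global
section

set_option autoImplicit false

open NumberField TensorProduct CategoryTheory

noncomputable section
namespace Fermat.Agent.S55.CFT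

theorem fact_primes (q : Nat.Primes) : Fact (q : ℕ).Prime := ⟨q.2⟩

abbrev Qp (q : Nat.Primes) : Type :=
  haveI := fact_primes q
  ℚ_[(q : ℕ)]

instance instFieldQp (q : Nat.Primes) : Field (Qp q) := by unfold Qp; infer_instance

variable (K L : Type) [Field K] [Field L] [NumberField K] [NumberField L] [Algebra K L]

/-- The semilocal algebra `ℚ_q ⊗_ℚ L` (`= ∏_{w ∣ q} L_w`), a finite-dimensional `ℚ_q`-algebra. -/
abbrev SemiLocal (q : Nat.Primes) : Type := Qp q ⊗[ℚ] L

/-- The automorphism of `ℚ_q ⊗ L` induced by `σ ∈ Gal(L/K)`, a `ℚ_q`-algebra automorphism. -/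
def semiLocalEquiv (q : Nat.Primes) (σ : L ≃ₐ[K] L) : SemiLocal L q ≃ₐ[Qp q] SemiLocal L q :=
  Algebra.TensorProduct.congr AlgEquiv.refl (σ.restrictScalars ℚ)

@[simp] lemma semiLocalEquiv_tmul (q : Nat.Primes) (σ : L ≃ₐ[K] L) (a : Qp q) (b : L) :
    semiLocalEquiv K L q σ (a ⊗ₜ[ℚ] b) = a ⊗ₜ[ℚ] σ b := by
  simp [semiLocalEquiv]

lemma semiLocalEquiv_one (q : Nat.Primes) (x : SemiLocal L q) : semiLocalEquiv K L q 1 x = x := by
  induction x using TensorProduct.induction_on with
  | zero => simp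
  | tmul a b => simp
  | add a b ha hb => simp [map_add, ha, hb]

lemma semiLocalEquiv_mul (q : Nat.Primes) (σ τ : L ≃ₐ[K] L) (x : SemiLocal L q) :
    semiLocalEquiv K L q (σ * τ) x = semiLocalEquiv K L q σ (semiLocalEquiv K L q τ x) := by
  induction x using TensorProduct.induction_on with
  | zero => simp
  | tmul a b => simp
  | add a b ha hb => simp [map_add, ha, hb]

/-- The action of `Gal(L/K)` on `ℚ_q ⊗ L` (through the second factor), by `ℚ_q`-algebra
automorphisms. -/
instance semiLocalAction (q : Nat.Primes) : MulSemiringAction (L ≃ₐ[K] L) (SemiLocal L q) where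
  smul σ x := semiLocalEquiv K L q σ x
  one_smul x := semiLocalEquiv_one K L q x
  mul_smul σ τ x := semiLocalEquiv_mul K L q σ τ x
  smul_zero σ := map_zero (semiLocalEquiv K L q σ)
  smul_add σ x y := map_add (semiLocalEquiv K L q σ) x y
  smul_one σ := map_one (semiLocalEquiv K L q σ)
  smul_mul σ x y := map_mul (semiLocalEquiv K L q σ) x y

lemma semiLocal_smul_eq (q : Nat.Primes) (σ : L ≃ₐ[K] L) (x : SemiLocal L q) :
    σ • x = semiLocalEquiv K L q σ x := rfl

@[simp] lemma semiLocal_smul_tmul (q : Nat.Primes) (σ : L ≃ₐ[K] L) (a : Qp q) (b : L) :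
    σ • (a ⊗ₜ[ℚ] b : SemiLocal L q) = a ⊗ₜ[ℚ] σ b :=
  semiLocalEquiv_tmul K L q σ a b

/-- The action of `Gal(L/K)` on the units of `ℚ_q ⊗ L`. -/
instance semiLocalUnitsAction (q : Nat.Primes) :
    MulDistribMulAction (L ≃ₐ[K] L) (SemiLocal L q)ˣ where
  smul σ u := Units.map ((semiLocalEquiv K L q σ : SemiLocal L q →ₐ[Qp q] SemiLocal L q) :
    SemiLocal L q →* SemiLocal L q) u
  one_smul u := Units.ext (semiLocalEquiv_one K L q u)
  mul_smul σ τ u := Units.ext (semiLocalEquiv_mul K L q σ τ u)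
  smul_mul σ u v := map_mul _ u v
  smul_one σ := map_one _

lemma semiLocalUnits_smul_val (q : Nat.Primes) (σ : L ≃ₐ[K] L) (u : (SemiLocal L q)ˣ) :
    ((σ • u : (SemiLocal L q)ˣ) : SemiLocal L q) = σ • (u : SemiLocal L q) := rfl

/-- The `T`-ideles `J_{L,T} = ∏_{q ∈ T} (ℚ_q ⊗ L)ˣ`. -/
abbrev IdeleT (T : Finset Nat.Primes) : Type := ∀ q : T, (SemiLocal L q.1)ˣ

example (T : Finset Nat.Primes) : MulDistribMulAction (L ≃ₐ[K] L) (IdeleT L T) := inferInstance

abbrev repJ (T : Finset Nat.Primes) : Rep ℤ (L ≃ₐ[K] L) :=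
  Rep.ofMulDistribMulAction (L ≃ₐ[K] L) (IdeleT L T)

def prodT (T : Finset Nat.Primes) : ℕ := ∏ q ∈ T, (q : ℕ)

def TUnits (T : Finset Nat.Primes) : Subgroup Lˣ where
  carrier := {x | ∃ n : ℕ, IsIntegral ℤ ((prodT T : L) ^ n * (x : L)) ∧
    IsIntegral ℤ ((prodT T : L) ^ n * ((x⁻¹ : Lˣ) : L))}
  one_mem' := ⟨0, by simpa using isIntegral_one, by simpa using isIntegral_one⟩
  mul_mem' := by
    rintro x y ⟨n, h1, h2⟩ ⟨m, h3, h4⟩
    refine ⟨n + m, ?_, ?_⟩
    · have := h1.mul h3
      rw [pow_add, Units.val_mul, mul_mul_mul_comm]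
      exact this
    · have := h2.mul h4
      rw [pow_add, mul_inv, Units.val_mul, mul_mul_mul_comm]
      exact this
  inv_mem' := by
    rintro x ⟨n, h1, h2⟩
    exact ⟨n, h2, by simpa using h1⟩

omit [NumberField K] [NumberField L] in
lemma smul_mem_TUnits (T : Finset Nat.Primes) (σ : L ≃ₐ[K] L) {x : Lˣ} (hx : x ∈ TUnits L T) :
    σ • x ∈ TUnits L T := by
  obtain ⟨n, h1, h2⟩ := hx
  refine ⟨n, ?_, ?_⟩
  · have := h1.map (σ : L →ₐ[K] L).toRingHom.toIntAlgHom
    simpa using this
  · have := h2.map (σ : L →ₐ[K] L).toRingHom.toIntAlgHom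
    simpa using this


instance tUnitsAction (T : Finset Nat.Primes) :
    MulDistribMulAction (L ≃ₐ[K] L) (TUnits L T) where
  smul σ x := ⟨σ • (x : Lˣ), smul_mem_TUnits K L T σ x.2⟩
  one_smul x := Subtype.ext (one_smul _ (x : Lˣ))
  mul_smul σ τ x := Subtype.ext (mul_smul σ τ (x : Lˣ))
  smul_mul σ x y := Subtype.ext (smul_mul' σ (x : Lˣ) (y : Lˣ))
  smul_one σ := Subtype.ext (smul_one σ)

/-- The `T`-units `O_{L,T}ˣ` as a representation of `Gal(L/K)`. -/
abbrev repE (T : Finset Nat.Primes) : Rep ℤ (L ≃ₐ[K] L) :=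
  Rep.ofMulDistribMulAction (L ≃ₐ[K] L) (TUnits L T)

/-- The diagonal embedding `Lˣ → J_{L,T}`, `x ↦ (1 ⊗ x)_q`. -/
def diagIdele (T : Finset Nat.Primes) : Lˣ →* IdeleT L T where
  toFun x := fun q => Units.map
    ((Algebra.TensorProduct.includeRight : L →ₐ[ℚ] SemiLocal L q.1) : L →* SemiLocal L q.1) x
  map_one' := by funext q; simp
  map_mul' x y := by funext q; simp

lemma diagIdele_smul (T : Finset Nat.Primes) (σ : L ≃ₐ[K] L) (x : Lˣ) :
    diagIdele L T (σ • x) = σ • diagIdele L T x := by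
  funext q
  apply Units.ext
  change (1 : Qp q.1) ⊗ₜ[ℚ] (σ x : L) = semiLocalEquiv K L q.1 σ ((1 : Qp q.1) ⊗ₜ[ℚ] (x : L))
  simp

/-- The diagonal embedding of the `T`-units into the `T`-ideles, as a morphism of
representations. -/
def diagRep (T : Finset Nat.Primes) : repE K L T ⟶ repJ K L T :=
  Rep.ofHom (LinearMap.intertwiningMap_of_isIntertwiningMap _ _
    (((diagIdele L T).comp (TUnits L T).subtype).toAdditive.toIntLinearMap)
    (fun σ x => congrArg Additive.ofMul (diagIdele_smul K L T σ (Additive.toMul x : TUnits L T))))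

/-- The `T`-idele class module `C_{L,T} = J_{L,T} / O_{L,T}ˣ`. -/
abbrev repC (T : Finset Nat.Primes) : Rep ℤ (L ≃ₐ[K] L) := Limits.cokernel (diagRep K L T)


/-! ### Admissibility and the statements of the GLOBAL island -/

/-- The nonzero primes of `𝓞 K` above the primes in `T`. -/
def primesOverT (T : Finset Nat.Primes) : Set (Ideal (𝓞 K)) :=
  {v | v.IsPrime ∧ v ≠ ⊥ ∧ ∃ q ∈ T, (((q : ℕ) : ℤ) : 𝓞 K) ∈ v}

/-- `Cl_T(L) = 1`: every nonzero ideal of `𝓞 L` is, up to principal ideals, supported on the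
primes above `T`. -/
def ClTrivial (T : Finset Nat.Primes) : Prop :=
  ∀ I : Ideal (𝓞 L), I ≠ ⊥ → ∃ (a b : 𝓞 L) (J : Ideal (𝓞 L)) (n : ℕ), a ≠ 0 ∧ b ≠ 0 ∧
    J ∣ Ideal.span {((prodT T : ℤ) : 𝓞 L)} ^ n ∧ Ideal.span {a} * I = Ideal.span {b} * J

/-- `L/K` is unramified outside `T`. -/
def UnramifiedOutsideT (T : Finset Nat.Primes) : Prop :=
  ∀ P : Ideal (𝓞 L), P.IsPrime → P ≠ ⊥ → (∀ q ∈ T, (((q : ℕ) : ℤ) : 𝓞 L) ∉ P) →
    P.inertia (L ≃ₐ[K] L) = ⊥

/-- The standing hypotheses of the GLOBAL island on `(K, L, T, p)`: `L/K` finite Galois,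
`K` totally complex, `p ∈ T`, `L/K` unramified outside `T`, and `Cl_T(F) = 1` for every
intermediate field `F` of `L/K` (in particular for `K` and `L`). -/
structure Admissible (T : Finset Nat.Primes) (p : ℕ) : Prop where
  gal : IsGalois K L
  cplx : IsTotallyComplex K
  pmem : ∃ q ∈ T, (q : ℕ) = p
  unr : UnramifiedOutsideT K L T
  cl : ∀ (F : Type) [Field F] [NumberField F] [Algebra K F] [Algebra F L] [IsScalarTower K F L],
    ClTrivial F T

/-- The base change `ℚ_q ⊗ K → ℚ_q ⊗ L`, a `ℚ_q`-algebra map. -/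
def semiLocalMap (q : Nat.Primes) : SemiLocal K q →ₐ[Qp q] SemiLocal L q :=
  Algebra.TensorProduct.map (AlgHom.id (Qp q) (Qp q)) (algebraMap K L).toRatAlgHom

/-- The number of places of `K` above `T` which do not split in `L`, counted on the local side:
pairs `(q, 𝔪)`, `q ∈ T`, `𝔪` a maximal ideal of `ℚ_q ⊗ K`, with exactly one maximal ideal of
`ℚ_q ⊗ L` above `𝔪`. -/
def nonsplitCountLoc (T : Finset Nat.Primes) : ℕ :=
  Nat.card {x : (q : T) × MaximalSpectrum (SemiLocal K q.1) //
    ∃! 𝔐 : MaximalSpectrum (SemiLocal L x.1.1),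
      𝔐.asIdeal.comap (semiLocalMap K L x.1.1) = x.2.asIdeal}

/-- The number of primes of `K` above `T` which do not split in `L` (exactly one prime of `L`
above them). -/
def nonsplitCount (T : Finset Nat.Primes) : ℕ :=
  Nat.card {v : Ideal (𝓞 K) // v ∈ primesOverT K T ∧ (v.primesOver (𝓞 L)).ncard = 1}

/-- **GLB-0** (admissible sets exist): every finite set of primes can be enlarged to an
admissible one (finitely many intermediate fields, finite class groups, finitely many ramified
primes). -/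
def Stmt_AdmissibleExists : Prop :=
  ∀ (p : ℕ) (K L : Type) [Field K] [Field L] [NumberField K] [NumberField L] [Algebra K L]
    (T₀ : Finset Nat.Primes), p.Prime → IsGalois K L → IsTotallyComplex K →
    ∃ T : Finset Nat.Primes, T₀ ⊆ T ∧ Admissible K L T p

/-- **PL** (places): the maximal ideals of `ℚ_q ⊗ K` correspond to the primes of `𝓞 K` above `q`,
compatibly with `K ⊆ L`; here only the resulting equality of the two counts of nonsplit places. -/
def Stmt_Places : Prop :=
  ∀ (K L : Type) [Field K] [Field L] [NumberField K] [NumberField L] [Algebra K L]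
    (T : Finset Nat.Primes), nonsplitCountLoc K L T = nonsplitCount K L T

/-- **GLB-3a** (Shapiro + Hilbert 90 + local norm index LOC-3): for `L/K` cyclic of prime degree
`p`, `H¹(G, J_{L,T}) = 0` and `#H²(G, J_{L,T}) = p ^ #{places above T, nonsplit}` (local count).
No hypothesis on `T`. -/
def Stmt_JCyclic : Prop :=
  ∀ (p : ℕ) (K L : Type) [Field K] [Field L] [NumberField K] [NumberField L] [Algebra K L]
    (T : Finset Nat.Primes), p.Prime → Module.finrank K L = p → IsGalois K L →
    Subsingleton (groupCohomology (repJ K L T) 1) ∧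
      Nat.card (groupCohomology (repJ K L T) 2) = p ^ nonsplitCountLoc K L T

/-- **GLB-2** (Herbrand quotient of the `T`-units): for `L/K` cyclic of prime degree `p`, `K`
totally complex, `H¹` and `H²` of `O_{L,T}ˣ` are finite and
`p · #H²(G, O_{L,T}ˣ) = p ^ #{v ∣ T nonsplit} · #H¹(G, O_{L,T}ˣ)` (count on prime ideals).
No hypothesis on `T`. -/
def Stmt_EHerbrand : Prop :=
  ∀ (p : ℕ) (K L : Type) [Field K] [Field L] [NumberField K] [NumberField L] [Algebra K L]
    (T : Finset Nat.Primes), p.Prime → Module.finrank K L = p → IsGalois K L →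
    IsTotallyComplex K →
    Finite (groupCohomology (repE K L T) 1) ∧ Finite (groupCohomology (repE K L T) 2) ∧
      p * Nat.card (groupCohomology (repE K L T) 2) =
        p ^ nonsplitCount K L T * Nat.card (groupCohomology (repE K L T) 1)

/-- **FI** (first inequality): for `L/K` cyclic of prime degree `p`, `H¹` and `H²` of `C_{L,T}`
are finite and `#H²(G, C_{L,T}) = p · #H¹(G, C_{L,T})`. -/
def Stmt_FI : Prop :=
  ∀ (p : ℕ) (K L : Type) [Field K] [Field L] [NumberField K] [NumberField L] [Algebra K L]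
    (T : Finset Nat.Primes), p.Prime → Module.finrank K L = p → Admissible K L T p →
    Finite (groupCohomology (repC K L T) 1) ∧ Finite (groupCohomology (repC K L T) 2) ∧
      Nat.card (groupCohomology (repC K L T) 2) = p * Nat.card (groupCohomology (repC K L T) 1)

/-- **SI'** (second inequality, idelic form): for `L/K` cyclic of prime degree `p`,
`#H²(G, C_{L,T}) ≤ p` (`H² = Ĥ⁰ = C_K / N C_L`). -/
def Stmt_SIidelic : Prop :=
  ∀ (p : ℕ) (K L : Type) [Field K] [Field L] [NumberField K] [NumberField L] [Algebra K L]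
    (T : Finset Nat.Primes), p.Prime → Module.finrank K L = p → Admissible K L T p →
    Finite (groupCohomology (repC K L T) 2) ∧ Nat.card (groupCohomology (repC K L T) 2) ≤ p

/-- **CF-cyc**: for `L/K` cyclic of prime degree `p`: `H¹(G, C_{L,T}) = 0`, `#H²(G, C_{L,T}) = p`. -/
def Stmt_CFcyc : Prop :=
  ∀ (p : ℕ) (K L : Type) [Field K] [Field L] [NumberField K] [NumberField L] [Algebra K L]
    (T : Finset Nat.Primes), p.Prime → Module.finrank K L = p → Admissible K L T p →
    Subsingleton (groupCohomology (repC K L T) 1) ∧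
      Nat.card (groupCohomology (repC K L T) 2) = p

/-- **CF-G** (class formation on `p`-extensions = hypothesis of Tate's theorem `Stmt_TateH3`):
for `L/K` Galois of degree `p ^ m` there is a fundamental class `γ ∈ H²(G, C_{L,T})` such that
for every subgroup `H`: `H¹(H, C) = 0`, `#H²(H, C) = #H`, and `H²(H, C)` is generated by
`res γ`. -/
def Stmt_CFp : Prop :=
  ∀ (p m : ℕ) (K L : Type) [Field K] [Field L] [NumberField K] [NumberField L] [Algebra K L]
    (T : Finset Nat.Primes), p.Prime → Module.finrank K L = p ^ m → Admissible K L T p →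
    ∃ γ : groupCohomology (repC K L T) 2,
      (∀ H : Subgroup (L ≃ₐ[K] L), Subsingleton (groupCohomology (resSub (repC K L T) H) 1)) ∧
      ∀ H : Subgroup (L ≃ₐ[K] L),
        Nat.card (groupCohomology (resSub (repC K L T) H) 2) = Nat.card H ∧
        ∀ x : groupCohomology (resSub (repC K L T) H) 2,
          ∃ n : ℤ, x = n • resMap (repC K L T) H 2 γ

end Fermat.Agent.S55.CFT

end
end
-- ==== END Fermat.Agent.S55.CFT.Global

-- ==== BEGIN Fermat.Agent.S55.CFT.H12_SUnit
section

set_option autoImplicit false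

namespace Fermat.Agent.S55.CFT.H12

/-- Index of `p`-th powers is multiplicative along a short exact sequence
`1 → A → G → Q → 1` whose cokernel `Q` has no `p`-torsion. -/
theorem index_range_pow_of_exact {A G Q : Type*} [CommGroup A] [CommGroup G] [CommGroup Q]
    (j : A →* G) (f : G →* Q) (hj : Function.Injective j) (hjf : j.range = f.ker)
    (hf : Function.Surjective f) (p : ℕ) (hQ : ∀ q : Q, q ^ p = 1 → q = 1) :
    (powMonoidHom p : G →* G).range.index =
      (powMonoidHom p : A →* A).range.index * (powMonoidHom p : Q →* Q).range.index := by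
  set P : Subgroup G := (powMonoidHom p : G →* G).range with hP
  set H : Subgroup G := (powMonoidHom p : Q →* Q).range.comap f with hH
  have hPH : P ≤ H := by
    rintro x ⟨g, rfl⟩
    exact ⟨f g, by simp⟩
  have h1 : P.relIndex H * H.index = P.index := Subgroup.relIndex_mul_index hPH
  have h2 : H.index = (powMonoidHom p : Q →* Q).range.index :=
    Subgroup.index_comap_of_surjective _ hf
  have h3 : H = j.range ⊔ P := by
    apply le_antisymm
    · rintro x ⟨q, hq⟩
      obtain ⟨g, rfl⟩ := hf q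
      have hx : x = (x * (g ^ p)⁻¹) * g ^ p := by simp
      rw [hx]
      refine Subgroup.mul_mem _ (Subgroup.mem_sup_left ?_) (Subgroup.mem_sup_right ⟨g, rfl⟩)
      rw [hjf, MonoidHom.mem_ker, map_mul, map_inv, map_pow]
      simp only [powMonoidHom_apply] at hq
      rw [← hq]; simp
    · refine sup_le ?_ hPH
      intro x hx
      rw [hjf, MonoidHom.mem_ker] at hx
      exact ⟨1, by simp [hx]⟩
  have h4 : P.relIndex H = P.relIndex j.range := by
    rw [h3]; exact Subgroup.relIndex_sup_right (H := j.range) (K := P)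
  have h5 : P.relIndex j.range = (powMonoidHom p : A →* A).range.index := by
    rw [MonoidHom.range_eq_map, ← Subgroup.relIndex_comap, Subgroup.relIndex_top_right]
    congr 1
    ext x
    constructor
    · rintro ⟨g, hg⟩
      have hgk : g ∈ j.range := by
        rw [hjf, MonoidHom.mem_ker]
        apply hQ
        rw [← map_pow]
        have : g ^ p = j x := hg
        rw [this, ← MonoidHom.mem_ker, ← hjf]
        exact ⟨x, rfl⟩
      obtain ⟨a, rfl⟩ := hgk
      refine ⟨a, hj ?_⟩
      simpa using hg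
    · rintro ⟨g, rfl⟩
      exact ⟨j g, by simp⟩
  rw [← h1, h4, h5, h2]

/-- Additive version of `index_range_pow_of_exact`. -/
theorem index_range_nsmul_of_exact {A G Q : Type*} [AddCommGroup A] [AddCommGroup G]
    [AddCommGroup Q]
    (j : A →+ G) (f : G →+ Q) (hj : Function.Injective j) (hjf : j.range = f.ker)
    (hf : Function.Surjective f) (p : ℕ) (hQ : ∀ q : Q, p • q = 0 → q = 0) :
    (nsmulAddMonoidHom p : G →+ G).range.index =
      (nsmulAddMonoidHom p : A →+ A).range.index * (nsmulAddMonoidHom p : Q →+ Q).range.index := by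
  set P : AddSubgroup G := (nsmulAddMonoidHom p : G →+ G).range with hP
  set H : AddSubgroup G := (nsmulAddMonoidHom p : Q →+ Q).range.comap f with hH
  have hPH : P ≤ H := by
    rintro x ⟨g, rfl⟩
    exact ⟨f g, by simp⟩
  have h1 : P.relIndex H * H.index = P.index := AddSubgroup.relIndex_mul_index hPH
  have h2 : H.index = (nsmulAddMonoidHom p : Q →+ Q).range.index :=
    AddSubgroup.index_comap_of_surjective _ hf
  have h3 : H = j.range ⊔ P := by
    apply le_antisymm
    · rintro x ⟨q, hq⟩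
      obtain ⟨g, rfl⟩ := hf q
      have hx : x = (x + -(p • g)) + p • g := by simp
      rw [hx]
      refine AddSubgroup.add_mem _ (AddSubgroup.mem_sup_left ?_)
        (AddSubgroup.mem_sup_right ⟨g, rfl⟩)
      rw [hjf, AddMonoidHom.mem_ker, map_add, map_neg, map_nsmul]
      simp only [nsmulAddMonoidHom_apply] at hq
      rw [← hq]; simp
    · refine sup_le ?_ hPH
      intro x hx
      rw [hjf, AddMonoidHom.mem_ker] at hx
      exact ⟨0, by simp [hx]⟩
  have h4 : P.relIndex H = P.relIndex j.range := by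
    rw [h3]; exact AddSubgroup.relIndex_sup_right (H := j.range) (K := P)
  have h5 : P.relIndex j.range = (nsmulAddMonoidHom p : A →+ A).range.index := by
    rw [AddMonoidHom.range_eq_map, ← AddSubgroup.relIndex_comap, AddSubgroup.relIndex_top_right]
    congr 1
    ext x
    constructor
    · rintro ⟨g, hg⟩
      have hgk : g ∈ j.range := by
        rw [hjf, AddMonoidHom.mem_ker]
        apply hQ
        rw [← map_nsmul]
        have : p • g = j x := hg
        rw [this, ← AddMonoidHom.mem_ker, ← hjf]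
        exact ⟨x, rfl⟩
      obtain ⟨a, rfl⟩ := hgk
      refine ⟨a, hj ?_⟩
      simpa using hg
    · rintro ⟨g, rfl⟩
      exact ⟨j g, by simp⟩
  rw [← h1, h4, h5, h2]

/-- The index of `p`-th powers, multiplicatively and additively. -/
theorem index_range_pow_eq_nsmul (G : Type*) [CommGroup G] (p : ℕ) :
    (powMonoidHom p : G →* G).range.index =
      (nsmulAddMonoidHom p : Additive G →+ Additive G).range.index := by
  rw [← Subgroup.index_toAddSubgroup]
  congr 1

open NumberField IsDedekindDomain Module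

/-- A free `ℤ`-module has no `p`-torsion. -/
theorem eq_zero_of_nsmul_eq_zero_of_free (M : Type*) [AddCommGroup M] [Module.Free ℤ M] (p : ℕ)
    (hp : p ≠ 0) (x : M) (h : p • x = 0) : x = 0 := by
  have : (p : ℤ) • x = 0 := by simpa using h
  rcases smul_eq_zero.mp this with h | h
  · exact absurd (by exact_mod_cast h) hp
  · exact h

section units

variable (K : Type) [Field K] [NumberField K]

/-- `[E : E^p]` for the unit group `E` of a number field. -/
theorem index_range_pow_units (p : ℕ) (hp : p ≠ 0) :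
    (powMonoidHom p : (𝓞 K)ˣ →* (𝓞 K)ˣ).range.index =
      (Units.torsionOrder K).gcd p * p ^ Units.rank K := by
  have hQ : ∀ q : (𝓞 K)ˣ ⧸ Units.torsion K, q ^ p = 1 → q = 1 := by
    intro q hq
    have h0 : p • Additive.ofMul q = 0 := by
      rw [← ofMul_pow, hq]; rfl
    have h1 : Additive.ofMul q = 0 :=
      eq_zero_of_nsmul_eq_zero_of_free (Additive ((𝓞 K)ˣ ⧸ Units.torsion K)) p hp _ h0
    exact Additive.ofMul.injective h1
  have hex : (Units.torsion K).subtype.range = (QuotientGroup.mk' (Units.torsion K)).ker := by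
    rw [Subgroup.range_subtype, QuotientGroup.ker_mk']
  rw [index_range_pow_of_exact (A := Units.torsion K) (G := (𝓞 K)ˣ)
    (Q := (𝓞 K)ˣ ⧸ Units.torsion K) (Units.torsion K).subtype
    (QuotientGroup.mk' (Units.torsion K))
    (Subgroup.subtype_injective _) hex (QuotientGroup.mk'_surjective _) p hQ]
  have h2 := AddSubgroup.index_range_nsmul (Additive ((𝓞 K)ˣ ⧸ Units.torsion K)) p
  rw [Units.finrank_modTorsion] at h2
  rw [IsCyclic.index_powMonoidHom_range, index_range_pow_eq_nsmul]
  erw [h2]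
  rfl

end units

section sunits

variable (K : Type) [Field K] [NumberField K]

/-- Every prime of `𝓞 K` has a power which is principal: there is a nonzero element lying in
`v` and in no other prime. -/
theorem exists_mem_only (v : HeightOneSpectrum (𝓞 K)) :
    ∃ a : 𝓞 K, a ≠ 0 ∧ a ∈ v.asIdeal ∧ ∀ w : HeightOneSpectrum (𝓞 K), w ≠ v → a ∉ w.asIdeal := by
  classical
  have hv0 : v.asIdeal ∈ nonZeroDivisors (Ideal (𝓞 K)) :=
    mem_nonZeroDivisors_of_ne_zero v.ne_bot
  set h : ℕ := Nat.card (ClassGroup (𝓞 K)) with hh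
  have hpos : 0 < h := Nat.card_pos
  have h1 : (ClassGroup.mk0 (⟨v.asIdeal, hv0⟩ : nonZeroDivisors (Ideal (𝓞 K)))) ^ h = 1 :=
    pow_card_eq_one'
  rw [← map_pow] at h1
  have h2 : ((⟨v.asIdeal, hv0⟩ : nonZeroDivisors (Ideal (𝓞 K))) ^ h) =
      ⟨v.asIdeal ^ h, pow_mem hv0 h⟩ := by
    ext; simp
  rw [h2, ClassGroup.mk0_eq_one_iff] at h1
  obtain ⟨a, ha⟩ := h1
  have ha' : v.asIdeal ^ h = Ideal.span {a} := ha
  have hane : a ≠ 0 := by
    rintro rfl
    have : v.asIdeal ^ h = ⊥ := by rw [ha']; simp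
    exact v.ne_bot (pow_eq_zero_iff hpos.ne' |>.mp this)
  have hamem : a ∈ v.asIdeal ^ h := by
    rw [ha']; exact Ideal.mem_span_singleton_self a
  refine ⟨a, hane, Ideal.pow_le_self hpos.ne' hamem, ?_⟩
  intro w hwv haw
  apply hwv
  have hle : v.asIdeal ^ h ≤ w.asIdeal := by
    rw [ha', Ideal.span_singleton_le_iff_mem]; exact haw
  have hle' : v.asIdeal ≤ w.asIdeal := w.isPrime.le_of_pow_le hle
  have := v.isMaximal.eq_of_le w.isPrime.ne_top hle'
  exact (HeightOneSpectrum.ext this).symm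

/-- An element of `Kˣ` all of whose valuations are trivial is a unit of `𝓞 K`. -/
theorem exists_unit_of_valuation_eq_one (x : Kˣ)
    (hx : ∀ v : HeightOneSpectrum (𝓞 K), v.valuation K (x : K) = 1) :
    ∃ u : (𝓞 K)ˣ, Units.map (algebraMap (𝓞 K) K : 𝓞 K →* K) u = x := by
  obtain ⟨r, hr⟩ := HeightOneSpectrum.mem_integers_of_valuation_le_one K (x : K)
    (fun v => (hx v).le)
  obtain ⟨r', hr'⟩ := HeightOneSpectrum.mem_integers_of_valuation_le_one K ((x⁻¹ : Kˣ) : K)
    (fun v => by
      have := hx v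
      rw [Units.val_inv_eq_inv_val, map_inv₀, this, inv_one])
  have hinj : Function.Injective (algebraMap (𝓞 K) K) := IsFractionRing.injective _ _
  have h1 : r * r' = 1 := by
    apply hinj
    rw [map_mul, hr, hr', map_one]
    simp
  have h2 : r' * r = 1 := by rw [mul_comm]; exact h1
  refine ⟨⟨r, r', h1, h2⟩, ?_⟩
  ext
  simpa using hr

end sunits

section main

variable (K : Type) [Field K] [NumberField K] (S : Finset (HeightOneSpectrum (𝓞 K)))

/-- The valuation map on `S`-units, additively. -/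
noncomputable def valAdd :
    Additive ((S : Set (HeightOneSpectrum (𝓞 K))).unit K) →ₗ[ℤ] (S → ℤ) :=
  (AddMonoidHom.mk' (fun x v => Multiplicative.toAdd
      (v.1.valuationOfNeZero ((Additive.toMul x : (S : Set (HeightOneSpectrum (𝓞 K))).unit K) : Kˣ)))
    (by intro x y; ext v; simp)).toIntLinearMap

theorem valAdd_apply (x : Additive ((S : Set (HeightOneSpectrum (𝓞 K))).unit K)) (v : S) :
    valAdd K S x v = Multiplicative.toAdd
      (v.1.valuationOfNeZero ((Additive.toMul x : (S : Set (HeightOneSpectrum (𝓞 K))).unit K) : Kˣ)) :=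
  rfl

/-- The inclusion of the units into the `S`-units. -/
noncomputable def unitIncl : (𝓞 K)ˣ →* (S : Set (HeightOneSpectrum (𝓞 K))).unit K where
  toFun u := ⟨Units.map (algebraMap (𝓞 K) K : 𝓞 K →* K) u, fun v _ => by
    have := v.valuation_of_unit_eq (K := K) u
    rw [← WithZero.coe_inj, HeightOneSpectrum.valuationOfNeZero_eq] at this
    simpa using this⟩
  map_one' := by ext; simp
  map_mul' x y := by ext; simp

theorem unitIncl_injective : Function.Injective (unitIncl K S) := by
  intro x y h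
  have h1 : ((unitIncl K S x : Kˣ) : K) = ((unitIncl K S y : Kˣ) : K) := by rw [h]
  have hinj : Function.Injective (algebraMap (𝓞 K) K) := IsFractionRing.injective _ _
  ext
  exact congrArg _ (hinj (by simpa [unitIncl] using h1))

/-- The additive version of the inclusion of the units. -/
noncomputable def unitInclAdd :
    Additive (𝓞 K)ˣ →ₗ[ℤ] Additive ((S : Set (HeightOneSpectrum (𝓞 K))).unit K) :=
  (MonoidHom.toAdditive (unitIncl K S)).toIntLinearMap

theorem unitInclAdd_injective : Function.Injective (unitInclAdd K S) :=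
  unitIncl_injective K S

theorem range_unitInclAdd : LinearMap.range (unitInclAdd K S) = LinearMap.ker (valAdd K S) := by
  ext x
  constructor
  · rintro ⟨u, rfl⟩
    rw [LinearMap.mem_ker]
    ext v
    rw [valAdd_apply]
    have := v.1.valuation_of_unit_eq (K := K) (Additive.toMul u)
    simp only [unitInclAdd, unitIncl]
    simpa using this
  · intro hx
    rw [LinearMap.mem_ker] at hx
    have hall : ∀ v : HeightOneSpectrum (𝓞 K),
        v.valuation K (((Additive.toMul x : (S : Set (HeightOneSpectrum (𝓞 K))).unit K) : Kˣ) : K)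
          = 1 := by
      intro v
      by_cases hv : v ∈ S
      · have := congrFun hx ⟨v, hv⟩
        rw [valAdd_apply] at this
        rw [← HeightOneSpectrum.valuationOfNeZero_eq]
        have h1 : v.valuationOfNeZero
            ((Additive.toMul x : (S : Set (HeightOneSpectrum (𝓞 K))).unit K) : Kˣ) = 1 := by
          simpa using this
        rw [h1]; rfl
      · exact (Additive.toMul x).2 v (by simpa using hv)
    obtain ⟨u, hu⟩ := exists_unit_of_valuation_eq_one K _ hall
    refine ⟨Additive.ofMul u, ?_⟩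
    apply Additive.toMul.injective
    apply Subtype.ext
    simpa [unitInclAdd, unitIncl] using hu

end main


section rank

variable (K : Type) [Field K] [NumberField K] (S : Finset (HeightOneSpectrum (𝓞 K)))

open Classical in
/-- For every `v ∈ S` there is an `S`-unit whose valuation vector is a nonzero multiple of
the basis vector at `v`. -/
theorem exists_sunit_single (v : S) :
    ∃ (a : Additive ((S : Set (HeightOneSpectrum (𝓞 K))).unit K)) (c : ℤ), c ≠ 0 ∧
      valAdd K S a = Pi.single v c := by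
  obtain ⟨a, ha0, hav, haw⟩ := exists_mem_only K v.1
  have hinj : Function.Injective (algebraMap (𝓞 K) K) := IsFractionRing.injective _ _
  have ha0' : algebraMap (𝓞 K) K a ≠ 0 := fun h => ha0 (hinj (by rw [h, map_zero]))
  have hval : ∀ w : HeightOneSpectrum (𝓞 K), w ≠ v.1 →
      w.valuation K (algebraMap (𝓞 K) K a) = 1 := by
    intro w hw
    apply le_antisymm (w.valuation_le_one a)
    rw [← not_lt]
    intro hlt
    exact haw w hw ((w.valuation_lt_one_iff_mem a).mp hlt)
  have hmem : Units.mk0 (algebraMap (𝓞 K) K a) ha0' ∈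
      (S : Set (HeightOneSpectrum (𝓞 K))).unit K := by
    intro w hw
    apply hval
    rintro rfl
    exact hw (by simpa using v.2)
  refine ⟨Additive.ofMul ⟨_, hmem⟩,
    Multiplicative.toAdd (v.1.valuationOfNeZero (Units.mk0 (algebraMap (𝓞 K) K a) ha0')), ?_, ?_⟩
  · intro h0
    have h1 : v.1.valuationOfNeZero (Units.mk0 (algebraMap (𝓞 K) K a) ha0') = 1 := by
      apply Multiplicative.toAdd.injective
      simpa using h0
    have h2 := v.1.valuationOfNeZero_eq (K := K) (Units.mk0 (algebraMap (𝓞 K) K a) ha0')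
    rw [h1] at h2
    have h3 : v.1.valuation K (algebraMap (𝓞 K) K a) < 1 :=
      (v.1.valuation_lt_one_iff_mem a).mpr hav
    rw [Units.val_mk0] at h2
    rw [← h2] at h3
    exact lt_irrefl _ h3
  · ext w
    rw [valAdd_apply]
    by_cases hw : w = v
    · subst hw
      simp
    · rw [Pi.single_eq_of_ne hw]
      have hw' : w.1 ≠ v.1 := fun h => hw (Subtype.ext h)
      have h2 := w.1.valuationOfNeZero_eq (K := K) (Units.mk0 (algebraMap (𝓞 K) K a) ha0')
      rw [Units.val_mk0, hval w.1 hw'] at h2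
      have h3 : w.1.valuationOfNeZero (Units.mk0 (algebraMap (𝓞 K) K a) ha0') = 1 := by
        exact_mod_cast h2
      simp [h3]

theorem finrank_range_valAdd :
    finrank ℤ (LinearMap.range (valAdd K S)) = S.card := by
  classical
  apply le_antisymm
  · have := Submodule.finrank_le (LinearMap.range (valAdd K S))
    simpa using this
  · choose a c hc hac using exists_sunit_single K S
    -- the diagonal map
    let g : (S → ℤ) →ₗ[ℤ] (S → ℤ) :=
      { toFun := fun x v => x v * c v
        map_add' := fun x y => by ext v; simp [add_mul]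
        map_smul' := fun n x => by ext v; simp [mul_assoc] }
    have hg : ∀ x, g x ∈ LinearMap.range (valAdd K S) := by
      intro x
      have : g x = ∑ v, x v • valAdd K S (a v) := by
        ext w
        simp only [g, LinearMap.coe_mk, AddHom.coe_mk, Finset.sum_apply, Pi.smul_apply, hac,
          smul_eq_mul]
        rw [Finset.sum_eq_single w]
        · simp
        · intro b _ hb
          rw [Pi.single_eq_of_ne (Ne.symm hb)]
          simp
        · simp
      rw [this]
      exact Submodule.sum_mem _ (fun v _ => Submodule.smul_mem _ _ ⟨a v, rfl⟩)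
    let g' : (S → ℤ) →ₗ[ℤ] LinearMap.range (valAdd K S) := g.codRestrict _ hg
    have hinj : Function.Injective g' := by
      intro x y hxy
      have h1 : g x = g y := congrArg Subtype.val hxy
      ext v
      have h2 := congrFun h1 v
      simp only [g, LinearMap.coe_mk, AddHom.coe_mk] at h2
      exact mul_right_cancel₀ (hc v) h2
    have := LinearMap.finrank_le_finrank_of_injective hinj
    simpa using this

end rank


section final

variable (K : Type) [Field K] [NumberField K] (S : Finset (HeightOneSpectrum (𝓞 K)))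

theorem index_range_pow_sunit (p : ℕ) (hp : p ≠ 0) :
    (powMonoidHom p : ((S : Set (HeightOneSpectrum (𝓞 K))).unit K) →*
        ((S : Set (HeightOneSpectrum (𝓞 K))).unit K)).range.index =
      (Units.torsionOrder K).gcd p * p ^ (Units.rank K + S.card) := by
  have hQ : ∀ q : LinearMap.range (valAdd K S), p • q = 0 → q = 0 := by
    intro q hq
    have : (p : ℤ) • q = 0 := by simpa using hq
    rcases smul_eq_zero.mp this with h | h
    · exact absurd (by exact_mod_cast h) hp
    · exact h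
  have hjf : (unitInclAdd K S).toAddMonoidHom.range =
      (valAdd K S).rangeRestrict.toAddMonoidHom.ker := by
    ext x
    have := range_unitInclAdd K S
    have h1 : x ∈ LinearMap.range (unitInclAdd K S) ↔ x ∈ LinearMap.ker (valAdd K S) := by
      rw [this]
    rw [AddMonoidHom.mem_ker]
    rw [LinearMap.mem_ker] at h1
    constructor
    · rintro ⟨u, rfl⟩
      apply Subtype.ext
      exact h1.mp ⟨u, rfl⟩
    · intro hx
      have hx' : valAdd K S x = 0 := congrArg Subtype.val hx
      obtain ⟨u, hu⟩ := h1.mpr hx'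
      exact ⟨u, hu⟩
  have hf : Function.Surjective (valAdd K S).rangeRestrict.toAddMonoidHom := by
    rintro ⟨y, x, rfl⟩
    exact ⟨x, rfl⟩
  rw [index_range_pow_eq_nsmul,
    index_range_nsmul_of_exact (unitInclAdd K S).toAddMonoidHom
      (valAdd K S).rangeRestrict.toAddMonoidHom (unitInclAdd_injective K S) hjf hf p hQ,
    ← index_range_pow_eq_nsmul, index_range_pow_units K p hp,
    AddSubgroup.index_range_nsmul, finrank_range_valAdd, pow_add, mul_assoc]

end final


section fg

variable (K : Type) [Field K] [NumberField K] (S : Finset (HeightOneSpectrum (𝓞 K)))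

theorem finite_sunit : Module.Finite ℤ (Additive ((S : Set (HeightOneSpectrum (𝓞 K))).unit K)) := by
  rw [Module.finite_def]
  refine Submodule.fg_of_fg_map_of_fg_inf_ker (valAdd K S) ?_ ?_
  · exact IsNoetherian.noetherian _
  · rw [inf_of_le_right le_top, ← range_unitInclAdd, LinearMap.range_eq_map]
    exact Submodule.FG.map _ Module.Finite.fg_top

theorem fg_sunit : Group.FG ((S : Set (HeightOneSpectrum (𝓞 K))).unit K) := by
  have := finite_sunit K S
  rw [Module.Finite.iff_addGroup_fg] at this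
  exact GroupFG.iff_add_fg.mpr this

theorem dvd_torsionOrder_iff (p : ℕ) (hp : p.Prime) :
    p ∣ Units.torsionOrder K ↔ ∃ ζ : K, IsPrimitiveRoot ζ p := by
  constructor
  · intro h
    have : Fact p.Prime := ⟨hp⟩
    obtain ⟨x, hx⟩ := exists_prime_orderOf_dvd_card' (G := Units.torsion K) p h
    refine ⟨(((x : (𝓞 K)ˣ) : 𝓞 K) : K), ?_⟩
    have hinj : Function.Injective (fun y : Units.torsion K => (((y : (𝓞 K)ˣ) : 𝓞 K) : K)) := by
      intro y z hyz
      apply Subtype.ext
      apply Units.ext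
      exact RingOfIntegers.coe_injective hyz
    have h1 : orderOf ((((x : (𝓞 K)ˣ) : 𝓞 K) : K)) = p := by
      rw [← hx]
      let φ : Units.torsion K →* K :=
        ((algebraMap (𝓞 K) K : 𝓞 K →* K).comp (Units.coeHom (𝓞 K))).comp (Units.torsion K).subtype
      exact orderOf_injective φ hinj x
    rw [← h1]
    exact IsPrimitiveRoot.orderOf _
  · rintro ⟨ζ, hζ⟩
    have : NeZero p := ⟨hp.ne_zero⟩
    exact Units.dvd_torsionOrder_of_isPrimitiveRoot hζ

end fg


/-- **GLB-1**: Dirichlet's `S`-unit theorem in index form. -/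
theorem stmt_SUnitRank : Stmt_SUnitRank := by
  intro K _ _ S
  refine ⟨fg_sunit K S, ?_⟩
  intro p hp
  have hidx := index_range_pow_sunit K S p hp.ne_zero
  constructor
  · intro hζ
    have hdvd : p ∣ Units.torsionOrder K := (dvd_torsionOrder_iff K p hp).mpr hζ
    rw [hidx, Nat.gcd_eq_right hdvd]
    ring
  · intro hζ
    have hdvd : ¬ p ∣ Units.torsionOrder K := fun h => hζ ((dvd_torsionOrder_iff K p hp).mp h)
    have hcop : (Units.torsionOrder K).gcd p = 1 := by
      rw [Nat.gcd_comm]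
      exact (Nat.Prime.coprime_iff_not_dvd hp).mpr hdvd
    rw [hidx, hcop, one_mul]

end Fermat.Agent.S55.CFT.H12

end
-- ==== END Fermat.Agent.S55.CFT.H12_SUnit
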