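-- GENERATED (merged mirror, NOTES/tools/trim/merge3_helper67.py): 11 modules of the originals, bodies verbatim.
import Mathlib
import Fermat.Agent.Zm.S56_L01_001
import Fermat.Agent.S55.CFT.H24_InfRes2
import Fermat.Agent.Zm.S56_L01_002

-- ==== BEGIN Fermat.Agent.S55.CFT.H12_SplitModule
section

set_option autoImplicit false
set_option linter.unusedSectionVars false

namespace Fermat.Agent.S55.CFT.H12

open CategoryTheory groupCohomology

section perm

variable (G : Type) [Group G] [Fintype G]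

/-- The permutation representation of `G` on functions `G → ℤ`: `(σ • x) g = x (σ⁻¹ g)`. -/
noncomputable def funRep : Representation ℤ G (G → ℤ) where
  toFun σ := LinearMap.funLeft ℤ ℤ (fun g => σ⁻¹ * g)
  map_one' := by ext x g; simp [LinearMap.funLeft]
  map_mul' σ τ := by ext x g; simp [LinearMap.funLeft, mul_assoc]

@[simp] theorem funRep_apply (σ : G) (x : G → ℤ) (g : G) : funRep G σ x g = x (σ⁻¹ * g) := rfl

/-- The augmentation `(G → ℤ) → ℤ`. -/
noncomputable def aug : (G → ℤ) →ₗ[ℤ] ℤ where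
  toFun x := ∑ g, x g
  map_add' x y := by simp [Finset.sum_add_distrib]
  map_smul' n x := by simp [Finset.mul_sum]

theorem aug_apply (x : G → ℤ) : aug G x = ∑ g, x g := rfl

theorem aug_funRep (σ : G) (x : G → ℤ) : aug G (funRep G σ x) = aug G x := by
  simp only [aug_apply, funRep_apply]
  exact Fintype.sum_equiv (Equiv.mulLeft σ⁻¹) _ _ (fun g => rfl)

/-- The augmentation ideal. -/
noncomputable def augI : Submodule ℤ (G → ℤ) := LinearMap.ker (aug G)

theorem mem_augI (x : G → ℤ) : x ∈ augI G ↔ ∑ g, x g = 0 := by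
  simp [augI, LinearMap.mem_ker, aug_apply]

/-- The representation of `G` on the augmentation ideal. -/
noncomputable def augRep : Representation ℤ G (augI G) where
  toFun σ := (funRep G σ).restrict (p := augI G) (q := augI G) (fun x hx => by
    rw [augI, LinearMap.mem_ker] at hx ⊢
    rw [aug_funRep, hx])
  map_one' := by ext x g; simp [LinearMap.restrict_apply]
  map_mul' σ τ := by ext x g; simp [LinearMap.restrict_apply]

@[simp] theorem augRep_apply_coe (σ : G) (x : augI G) :
    ((augRep G σ x : augI G) : G → ℤ) = funRep G σ x := rfl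

end perm


section split

variable {G : Type} [Group G] [Fintype G] (C : Rep.{0} ℤ G) (γ : cocycles₂ C)

/-- The linear map `φ_σ : (G → ℤ) → C`, `x ↦ ∑ τ, x τ • γ (σ, τ)`. -/
noncomputable def phi (σ : G) : (G → ℤ) →ₗ[ℤ] C.V where
  toFun x := ∑ τ, x τ • γ (σ, τ)
  map_add' x y := by simp [add_smul, Finset.sum_add_distrib]
  map_smul' n x := by simp [Finset.smul_sum, mul_smul]

theorem phi_apply (σ : G) (x : G → ℤ) : phi C γ σ x = ∑ τ, x τ • γ (σ, τ) := rfl

/-- The key identity: `ρ φ_σ(x) + φ_ρ(σ x) = φ_{ρσ}(x) + ε(x) γ(ρ, σ)`. -/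
theorem phi_mul (ρ σ : G) (x : G → ℤ) :
    C.ρ ρ (phi C γ σ x) + phi C γ ρ (funRep G σ x) =
      phi C γ (ρ * σ) x + aug G x • γ (ρ, σ) := by
  have h2 : phi C γ ρ (funRep G σ x) = ∑ τ, x τ • γ (ρ, σ * τ) := by
    simp only [phi_apply, funRep_apply]
    exact Fintype.sum_equiv (Equiv.mulLeft σ⁻¹) _ _ (fun g => by simp)
  rw [h2]
  simp only [phi_apply, map_sum, aug_apply, Finset.sum_smul, map_zsmul]
  rw [← Finset.sum_add_distrib, ← Finset.sum_add_distrib]
  refine Finset.sum_congr rfl (fun τ _ => ?_)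
  have := (mem_cocycles₂_iff γ).1 γ.2 ρ σ τ
  rw [← smul_add, ← smul_add]
  congr 1
  rw [← this]

theorem phi_one (x : G → ℤ) : phi C γ 1 x = aug G x • γ (1, 1) := by
  simp only [phi_apply, aug_apply, Finset.sum_smul]
  refine Finset.sum_congr rfl (fun τ _ => ?_)
  rw [cocycles₂_map_one_fst]

/-- The splitting module `C(γ) = C × I_G` with the twisted action. -/
noncomputable def splitRep : Representation ℤ G (C.V × augI G) where
  toFun σ :=
    { toFun := fun p => (C.ρ σ p.1 + phi C γ σ p.2, augRep G σ p.2)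
      map_add' := fun p q => by
        ext
        · simp only [Prod.fst_add, Prod.snd_add, map_add, Submodule.coe_add]; abel
        · simp
      map_smul' := fun n p => by
        ext
        · simp only [Prod.smul_fst, Prod.smul_snd, map_smul, Submodule.coe_smul, smul_add,
            RingHom.id_apply]
          rw [map_zsmul (C.ρ σ) n p.1]
        · simp }
  map_one' := by
    apply LinearMap.ext
    intro p
    have h0 : aug G (p.2 : G → ℤ) = 0 := p.2.2
    ext
    · simp only [LinearMap.coe_mk, AddHom.coe_mk, map_one, Module.End.one_apply, phi_one, h0,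
        zero_smul, add_zero]
    · simp
  map_mul' ρ σ := by
    apply LinearMap.ext
    intro p
    have h0 : aug G (p.2 : G → ℤ) = 0 := p.2.2
    have := phi_mul C γ ρ σ (p.2 : G → ℤ)
    rw [h0, zero_smul, add_zero] at this
    ext
    · simp only [LinearMap.coe_mk, AddHom.coe_mk, map_mul, Module.End.mul_apply, map_add,
        augRep_apply_coe]
      rw [← this]; abel
    · simp

@[simp] theorem splitRep_apply_fst (σ : G) (p : C.V × augI G) :
    (splitRep C γ σ p).1 = C.ρ σ p.1 + phi C γ σ p.2 := rfl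

@[simp] theorem splitRep_apply_snd (σ : G) (p : C.V × augI G) :
    (splitRep C γ σ p).2 = augRep G σ p.2 := rfl

end split

end Fermat.Agent.S55.CFT.H12

end
-- ==== END Fermat.Agent.S55.CFT.H12_SplitModule

-- ==== BEGIN Fermat.Agent.S55.CFT.H13_FundSub
section

/-!
# S55-E4 package FUND (helper13), part 2: a group embedded in a finite cyclic group

If `π : S →* Δ'` is injective and `Δ'` is cyclic with generator `σ` and discrete logarithm `e'`,
then `S` is cyclic with a generator `τ` mapping to `σ ^ d`, `d = #Δ' / #S`, and the discrete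
logarithms are related by `e' (π s) = d * e'' s`.
-/

set_option autoImplicit false
set_option linter.unusedSectionVars false
set_option linter.unusedVariables false
set_option linter.style.haveILetI false

noncomputable section

namespace Fermat.Agent.S55.CFT.H13

variable {Δ' : Type} [Group Δ'] [Finite Δ'] {S : Type} [Group S] [Finite S]

theorem DLog.orderOf_eq {σ : Δ'} {n' : ℕ} {e' : Δ' → ℕ} (h : DLog Δ' σ n' e') :
    orderOf σ = n' := by
  rw [← h.card_eq]
  apply orderOf_eq_card_of_forall_mem_zpowers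
  intro x
  exact ⟨(e' x : ℤ), by simpa using h.pow x⟩

theorem DLog.isCyclic {σ : Δ'} {n' : ℕ} {e' : Δ' → ℕ} (h : DLog Δ' σ n' e') : IsCyclic Δ' :=
  ⟨⟨σ, fun x => ⟨(e' x : ℤ), by simpa using h.pow x⟩⟩⟩

/-- In a finite cyclic group, an element killed by the order of a subgroup lies in it. -/
theorem mem_range_of_pow_eq_one {σ : Δ'} {n' : ℕ} {e' : Δ' → ℕ} (h : DLog Δ' σ n' e')
    (π : S →* Δ') (hπ : Function.Injective π) (x : Δ') (hx : x ^ Nat.card S = 1) :
    ∃ s : S, π s = x := by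
  classical
  letI : Fintype Δ' := Fintype.ofFinite Δ'
  letI : Fintype S := Fintype.ofFinite S
  haveI : IsCyclic Δ' := h.isCyclic
  have hpos : 0 < Nat.card S := Nat.card_pos
  have h1 := IsCyclic.card_pow_eq_one_le (α := Δ') hpos
  have h2 : (Finset.univ.image π) ⊆ Finset.univ.filter (fun a : Δ' => a ^ Nat.card S = 1) := by
    intro y hy
    rw [Finset.mem_image] at hy
    obtain ⟨s, -, rfl⟩ := hy
    rw [Finset.mem_filter]
    refine ⟨Finset.mem_univ _, ?_⟩
    rw [← map_pow, pow_card_eq_one', map_one]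
  have h3 : (Finset.univ.image π).card = Nat.card S := by
    rw [Finset.card_image_of_injective _ hπ, Finset.card_univ, Nat.card_eq_fintype_card]
  have h4 := Finset.eq_of_subset_of_card_le h2 (by rw [h3]; exact h1)
  have h5 : x ∈ Finset.univ.filter (fun a : Δ' => a ^ Nat.card S = 1) := by
    rw [Finset.mem_filter]
    exact ⟨Finset.mem_univ _, hx⟩
  rw [← h4, Finset.mem_image] at h5
  obtain ⟨s, -, hs⟩ := h5
  exact ⟨s, hs⟩

/-- The cyclic structure induced on a group embedded in a finite cyclic group. -/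
theorem exists_dlog_sub {σ : Δ'} {n' : ℕ} {e' : Δ' → ℕ} (h : DLog Δ' σ n' e')
    (π : S →* Δ') (hπ : Function.Injective π) :
    ∃ (τ : S) (e'' : S → ℕ) (d : ℕ), DLog S τ (Nat.card S) e'' ∧ n' = d * Nat.card S ∧
      ∀ s, e' (π s) = d * e'' s := by
  classical
  have hcard : Nat.card S ∣ n' := by
    have h1 : Nat.card π.range = Nat.card S :=
      Nat.card_congr (MonoidHom.ofInjective hπ).symm.toEquiv
    rw [← h1, ← h.card_eq]
    exact Subgroup.card_subgroup_dvd_card _
  obtain ⟨d, hd⟩ := hcard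
  have hpos : 0 < Nat.card S := Nat.card_pos
  have hd' : n' = d * Nat.card S := by rw [hd, mul_comm]
  have hd0 : d ≠ 0 := by
    rintro rfl
    rw [zero_mul] at hd'
    exact absurd hd' h.pos.ne'
  -- `σ ^ d` is in the image
  obtain ⟨τ, hτ⟩ := mem_range_of_pow_eq_one h π hπ (σ ^ d) (by
    rw [← pow_mul, ← hd', h.pow_n])
  -- the order of `τ`
  have hord : orderOf τ = Nat.card S := by
    rw [← orderOf_injective π hπ τ, hτ,
      orderOf_pow_of_dvd hd0 (by rw [h.orderOf_eq]; exact ⟨_, hd'⟩), h.orderOf_eq, hd']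
    exact Nat.mul_div_cancel_left _ (Nat.pos_of_ne_zero hd0)
  have hgen : ∀ s : S, s ∈ Subgroup.zpowers τ := by
    have : Subgroup.zpowers τ = ⊤ := by
      apply Subgroup.eq_top_of_card_eq
      rw [Nat.card_zpowers, hord]
    intro s
    rw [this]
    exact Subgroup.mem_top s
  obtain ⟨e'', he''⟩ := exists_dlog τ hgen
  refine ⟨τ, e'', d, he'', hd', fun s => ?_⟩
  have h1 : π s = σ ^ (d * e'' s) := by
    conv_lhs => rw [← he''.pow s, map_pow, hτ, ← pow_mul]
  rw [h1]
  apply h.inj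
  rw [hd']
  exact Nat.mul_lt_mul_of_pos_left (he''.lt s) (Nat.pos_of_ne_zero hd0)

end Fermat.Agent.S55.CFT.H13

end
end
-- ==== END Fermat.Agent.S55.CFT.H13_FundSub

-- ==== BEGIN Fermat.Agent.S55.CFT.H19_CycAbs
section

set_option autoImplicit false
set_option linter.unusedSectionVars false
set_option linter.unusedVariables false

noncomputable section

namespace Fermat.Agent.S55.CFT.H19

open CategoryTheory groupCohomology Fermat.Agent.S55.CFT.H13

section Abs

variable {Δ : Type} [Group Δ] (B : Rep.{0} ℤ Δ) {σ : Δ} {n : ℕ} {e : Δ → ℕ}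

/-- The partial sums `S_t = ∑_{j < t} f (σ^j, σ)`. -/
def psum (f : Δ × Δ → B.V) (σ : Δ) (t : ℕ) : B.V := ∑ j ∈ Finset.range t, f (σ ^ j, σ)

theorem psum_zero (f : Δ × Δ → B.V) (σ : Δ) : psum B f σ 0 = 0 := by
  simp [psum]

theorem psum_succ (f : Δ × Δ → B.V) (σ : Δ) (t : ℕ) :
    psum B f σ (t + 1) = psum B f σ t + f (σ ^ t, σ) := by
  unfold psum
  rw [Finset.sum_range_succ]

theorem psum_n_add (h : DLog Δ σ n e) (f : Δ × Δ → B.V) (t : ℕ) :
    psum B f σ (n + t) = psum B f σ n + psum B f σ t := by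
  unfold psum
  rw [Finset.sum_range_add]
  congr 1
  apply Finset.sum_congr rfl
  intro j _
  rw [pow_add, h.pow_n, one_mul]

theorem psum_mul_add (h : DLog Δ σ n e) (f : Δ × Δ → B.V) (q r : ℕ) :
    psum B f σ (n * q + r) = q • psum B f σ n + psum B f σ r := by
  induction q with
  | zero => simp
  | succ q ih =>
    rw [Nat.mul_succ, add_comm (n * q) n, add_assoc, psum_n_add B h, ih, succ_nsmul]
    abel

theorem psum_div_mod (h : DLog Δ σ n e) (f : Δ × Δ → B.V) (x : ℕ) :
    psum B f σ x = (x / n) • psum B f σ n + psum B f σ (x % n) := by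
  conv_lhs => rw [← Nat.div_add_mod x n]
  exact psum_mul_add B h f _ _

/-- The basic identity: a 2-cocycle on powers of `σ`. -/
theorem cocycle_pow_pow (f : cocycles₂ B) (σ : Δ) (i m : ℕ) :
    f (σ ^ i, σ ^ m) = B.ρ (σ ^ i) (f (1, 1) - psum B f σ m) - (f (1, 1) - psum B f σ (i + m)) +
      (f (1, 1) - psum B f σ i) := by
  induction m with
  | zero =>
    rw [pow_zero, cocycles₂_map_one_snd, psum_zero, sub_zero, add_zero]
    abel
  | succ m ih =>
    have hc := (mem_cocycles₂_iff f).1 f.2 (σ ^ i) (σ ^ m) σ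
    rw [← pow_add, ← pow_succ] at hc
    have e1 : f (σ ^ i, σ ^ (m + 1)) =
        f (σ ^ (i + m), σ) + f (σ ^ i, σ ^ m) - B.ρ (σ ^ i) (f (σ ^ m, σ)) := by
      rw [hc]; abel
    rw [e1, ih, ← add_assoc i m 1, psum_succ B f σ (i + m), psum_succ B f σ m]
    simp only [map_sub, map_add]
    abel

/-- The invariant element attached to a cocycle. -/
theorem psum_invariant (h : DLog Δ σ n e) (f : cocycles₂ B) (g : Δ) :
    B.ρ g (psum B f σ n) = psum B f σ n := by
  have h1 : B.ρ σ (psum B f σ n) = psum B f σ n := by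
    have h2 := cocycle_pow_pow B f σ 1 n
    rw [h.pow_n, pow_one, cocycles₂_map_one_snd, add_comm 1 n, psum_succ, h.pow_n,
      psum_succ, psum_zero, pow_zero, zero_add] at h2
    simp only [map_sub] at h2
    have h3 : B.ρ σ (psum B f σ n) - psum B f σ n = 0 := by
      have := sub_eq_zero.2 h2
      rw [← this]
      abel
    exact sub_eq_zero.1 h3
  have h2 : ∀ k : ℕ, B.ρ (σ ^ k) (psum B f σ n) = psum B f σ n := by
    intro k
    induction k with
    | zero => rw [pow_zero, map_one]; rfl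
    | succ k ih =>
      rw [pow_succ, map_mul]
      show B.ρ (σ ^ k) (B.ρ σ (psum B f σ n)) = _
      rw [h1, ih]
  rw [← h.pow g]
  exact h2 _

/-- The class of the cyclic cocycle of an invariant element. -/
def cycCl (h : DLog Δ σ n e) (a : B.V) (ha : ∀ g, B.ρ g a = a) : groupCohomology B 2 :=
  H2π B ⟨cyc B n e a, cyc_mem_cocycles₂ B h a ha⟩

/-- Every class of `H²` of a cyclic group is the class of a cyclic cocycle. -/
theorem exists_cycCl (h : DLog Δ σ n e) (x : groupCohomology B 2) :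
    ∃ (a : B.V) (ha : ∀ g, B.ρ g a = a), x = cycCl B h a ha := by
  induction x using H2_induction_on with
  | h f =>
    refine ⟨psum B f σ n, psum_invariant B h f, ?_⟩
    unfold cycCl
    rw [H2π_eq_iff]
    refine ⟨fun g => f (1, 1) - psum B f σ (e g), ?_⟩
    funext p
    obtain ⟨g, g'⟩ := p
    show B.ρ g (f (1, 1) - psum B f σ (e g')) - (f (1, 1) - psum B f σ (e (g * g'))) +
      (f (1, 1) - psum B f σ (e g)) = f (g, g') - ((e g + e g') / n) • psum B f σ n
    have h1 := cocycle_pow_pow B f σ (e g) (e g')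
    rw [h.pow g, h.pow g'] at h1
    rw [h1, h.e_mul g g', psum_div_mod B h f (e g + e g')]
    abel

theorem cyc_add (a b : B.V) : cyc B n e (a + b) = cyc B n e a + cyc B n e b := by
  funext p
  show ((e p.1 + e p.2) / n) • (a + b) = ((e p.1 + e p.2) / n) • a + ((e p.1 + e p.2) / n) • b
  rw [smul_add]

theorem cycCl_add (h : DLog Δ σ n e) (a b : B.V) (ha : ∀ g, B.ρ g a = a)
    (hb : ∀ g, B.ρ g b = b) (hab : ∀ g, B.ρ g (a + b) = a + b) :
    cycCl B h (a + b) hab = cycCl B h a ha + cycCl B h b hb := by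
  unfold cycCl
  rw [← map_add]
  congr 1
  apply Subtype.ext
  exact cyc_add B a b

theorem cycCl_congr (h : DLog Δ σ n e) (a b : B.V) (ha : ∀ g, B.ρ g a = a)
    (hb : ∀ g, B.ρ g b = b) (hab : a = b) : cycCl B h a ha = cycCl B h b hb := by
  subst hab
  rfl

theorem cycCl_eq_zero_iff [Fintype Δ] (h : DLog Δ σ n e) (a : B.V) (ha : ∀ g, B.ρ g a = a) :
    cycCl B h a ha = 0 ↔ ∃ b : B.V, a = ∑ x : Δ, B.ρ x b := by
  have : Finite Δ := Finite.of_fintype Δ
  unfold cycCl
  rw [H2π_eq_zero_iff]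
  constructor
  · intro hc
    obtain ⟨b, hb⟩ := norm_of_cyc_mem_coboundaries₂ B h a hc
    exact ⟨b, by rw [hb, pnorm_eq_sum h]⟩
  · rintro ⟨b, hb⟩
    have := cyc_mem_coboundaries₂_of_norm B h b
    rw [pnorm_eq_sum h, ← hb] at this
    exact this

/-- Naturality of the cyclic classes. -/
theorem map_cycCl (A : Rep.{0} ℤ Δ) (φ : A ⟶ B) (h : DLog Δ σ n e) (a : A.V)
    (ha : ∀ g, A.ρ g a = a) (ha' : ∀ g, B.ρ g (φ.hom a) = φ.hom a) :
    (groupCohomology.map (MonoidHom.id Δ) φ 2).hom (cycCl A h a ha) = cycCl B h (φ.hom a) ha' := by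
  unfold cycCl
  have := H2π_comp_map_apply (MonoidHom.id Δ) φ ⟨cyc A n e a, cyc_mem_cocycles₂ A h a ha⟩
  refine this.trans ?_
  congr 1
  apply Subtype.ext
  funext p
  show φ.hom (((e p.1 + e p.2) / n) • a) = ((e p.1 + e p.2) / n) • φ.hom a
  rw [map_nsmul]

end Abs

end Fermat.Agent.S55.CFT.H19

end
end
-- ==== END Fermat.Agent.S55.CFT.H19_CycAbs

-- ==== BEGIN Fermat.Agent.S55.CFT.H24_InfRes2Z
section

/-!
# S55-E4 package ALG-2 (helper24): inflation–restriction in degree 2, in the notation of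
`Fermat/Agent/S55/CFT/Defs.lean` (`resSub`, `resMap`, coefficients `ℤ`)

`Stmt_ALG2`: for a group `G`, a normal subgroup `N`, and `A : Rep ℤ G` with `H¹(N, A) = 0`:
* inflation `H²(G ⧸ N, A^N) → H²(G, A)` is injective,
* a class of `H²(G, A)` restricts to `0` on `N` iff it is inflated from `G ⧸ N`,
* if `H²(G ⧸ N, A^N)` and `H²(N, A)` are finite, so is `H²(G, A)`, and
  `#H²(G, A) ≤ #H²(G ⧸ N, A^N) * #H²(N, A)`.
-/

set_option autoImplicit false

open CategoryTheory groupCohomology

namespace Fermat.Agent.S55.CFT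

/-- The inflation map `H²(G ⧸ N, A^N) → H²(G, A)`. -/
noncomputable abbrev infMap₂ {G : Type} [Group G] (A : Rep ℤ G) (N : Subgroup G) [N.Normal] :
    groupCohomology (A.quotientToInvariants N) 2 →ₗ[ℤ] groupCohomology A 2 :=
  (H24.inf₂ A N).hom

/-- **ALG-2** (inflation–restriction in degree 2). -/
def Stmt_ALG2 : Prop :=
  ∀ (G : Type) [Group G] (A : Rep ℤ G) (N : Subgroup G) [N.Normal],
    Subsingleton (groupCohomology (resSub A N) 1) →
    Function.Injective (infMap₂ A N) ∧
    (∀ x : groupCohomology A 2, resMap A N 2 x = 0 ↔ ∃ y, infMap₂ A N y = x) ∧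
    (Finite (groupCohomology (A.quotientToInvariants N) 2) →
      Finite (groupCohomology (resSub A N) 2) →
      Finite (groupCohomology A 2) ∧
        Nat.card (groupCohomology A 2) ≤
          Nat.card (groupCohomology (A.quotientToInvariants N) 2) *
            Nat.card (groupCohomology (resSub A N) 2))

namespace H24

theorem stmt_ALG2 : Stmt_ALG2 := by
  intro G _ A N _ h
  refine ⟨inf₂_injective A N h, fun x => res₂_eq_zero_iff A N h x, fun h1 h2 => ?_⟩
  exact card_H2_le A N h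

end H24

end Fermat.Agent.S55.CFT

end
-- ==== END Fermat.Agent.S55.CFT.H24_InfRes2Z

-- ==== BEGIN Fermat.Agent.S55.CFT.H45_ValCAbs
section

set_option autoImplicit false
set_option linter.unusedSectionVars false
set_option linter.style.haveILetI false

noncomputable section

namespace Fermat.Agent.S55.CFT.H45

open CategoryTheory groupCohomology Rep

/-! ### `H²` of a finite cyclic group -/

section cyclic

variable {D : Type} [Group D] [Finite D]

set_option backward.isDefEq.respectTransparency false in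
attribute [local instance] IsCyclic.commGroup in
theorem h2_subsingleton_of_cyclic [IsCyclic D] {V : Type} [AddCommGroup V]
    (ρ : Representation ℤ D V) (g : D) (hg : ∀ x : D, x ∈ Subgroup.zpowers g)
    (h : ∀ a : V, ρ g a = a → ∃ b : V, (∑ᶠ d : D, ρ d b) = a) :
    Subsingleton (groupCohomology (Rep.of ρ) 2) := by
  classical
  letI : Fintype D := Fintype.ofFinite D
  set A : Rep.{0} ℤ D := Rep.of ρ with hA
  let π := Rep.FiniteCyclicGroup.groupCohomologyπEven A g hg 2 even_two
  have hsurj : Function.Surjective π.hom := by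
    rw [← ModuleCat.epi_iff_surjective]
    infer_instance
  refine ⟨fun x y => ?_⟩
  obtain ⟨x', rfl⟩ := hsurj x
  obtain ⟨y', rfl⟩ := hsurj y
  have key : ∀ z, π.hom z = 0 := by
    intro z
    refine (Rep.FiniteCyclicGroup.groupCohomologyπEven_eq_zero_iff A g hg 2 even_two z).2 ?_
    have hz : ρ g z.1 = z.1 := by
      have h2 : ρ g z.1 - z.1 = 0 := z.2
      exact sub_eq_zero.1 h2
    obtain ⟨b, hb⟩ := h _ hz
    refine ⟨b, ?_⟩
    have h3 : (∑ d : D, ρ d) b = z.1 := by
      rw [← hb, finsum_eq_sum_of_fintype]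
      exact LinearMap.sum_apply _ _ _
    exact h3
  rw [key x', key y']

end cyclic

/-! ### A stable subgroup of the residue units -/

section abs

open H58

variable {G : Type} [Group G] {B : Type} [CommRing B] [MulSemiringAction G B]
  (M : Ideal B) (O : Subgroup (B ⧸ M)ˣ)
  (hO : ∀ (d : decomp G M) (u : (B ⧸ M)ˣ), u ∈ O → unitsSmul (decomp G M) (B ⧸ M) d u ∈ O)

/-- The action of an element of the stabiliser on `O`. -/
def subSmul (d : decomp G M) : O →* O where
  toFun u := ⟨unitsSmul (decomp G M) (B ⧸ M) d u.1, hO d u.1 u.2⟩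
  map_one' := Subtype.ext (map_one _)
  map_mul' _ _ := Subtype.ext (map_mul _ _ _)

@[simp] lemma subSmul_coe (d : decomp G M) (u : O) :
    ((subSmul M O hO d u : O) : (B ⧸ M)ˣ) = unitsSmul (decomp G M) (B ⧸ M) d u.1 := rfl

/-- `O` as a representation of the stabiliser. -/
def subRho : Representation ℤ (decomp G M) (Additive O) where
  toFun d := (subSmul M O hO d).toAdditive.toIntLinearMap
  map_one' := by
    ext a
    exact one_smul (decomp G M) (((a.toMul : O) : (B ⧸ M)ˣ) : B ⧸ M)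
  map_mul' d e := by
    ext a
    exact mul_smul d e (((a.toMul : O) : (B ⧸ M)ˣ) : B ⧸ M)

lemma subRho_apply (d : decomp G M) (a : Additive O) :
    subRho M O hO d a = Additive.ofMul (subSmul M O hO d a.toMul) := rfl

/-- The inclusion `O → (B ⧸ M)ˣ` as an intertwining map. -/
def subIncl : (subRho M O hO).IntertwiningMap (unitsRho (decomp G M) (B ⧸ M)) where
  toLinearMap := (O.subtype).toAdditive.toIntLinearMap
  isIntertwining' d := by
    ext a
    rfl

lemma subIncl_apply (a : Additive O) :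
    subIncl M O hO a = Additive.ofMul ((a.toMul : O) : (B ⧸ M)ˣ) := rfl

variable {VA : Type} [AddCommGroup VA] {ρA : Representation ℤ G VA}
  (f : ρA.IntertwiningMap (unitsRho G B))

lemma intertwining_apply (g : G) (a : VA) :
    f (ρA g a) = Additive.ofMul (unitsSmul G B g (f a).toMul) := by
  have h := congrArg (fun l : VA →ₗ[ℤ] Additive Bˣ => l a) (f.isIntertwining' g)
  exact h

variable (hf : ∀ a : VA, redUnits M (f a).toMul ∈ O)

/-- The comparison map `A → Coind_D^G O`, `a ↦ (g ↦ [f (g a)])`. -/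
def toCoindSub : ρA.IntertwiningMap
    (Representation.coind (decomp G M).subtype (subRho M O hO)) where
  toLinearMap :=
    { toFun := fun a => ⟨fun g => Additive.ofMul ⟨redUnits M (f (ρA g a)).toMul, hf _⟩,
        fun d g => by
          show Additive.ofMul (⟨redUnits M (f (ρA ((d : G) * g) a)).toMul, hf _⟩ : O) =
            Additive.ofMul (subSmul M O hO d ⟨redUnits M (f (ρA g a)).toMul, hf _⟩)
          apply congrArg Additive.ofMul
          apply Subtype.ext
          show redUnits M (f (ρA ((d : G) * g) a)).toMul =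
            unitsSmul (decomp G M) (B ⧸ M) d (redUnits M (f (ρA g a)).toMul)
          rw [← redUnits_smul, map_mul, Module.End.mul_apply, intertwining_apply]
          rfl⟩
      map_add' := fun a b => by
        apply Subtype.ext
        funext g
        show Additive.ofMul (⟨redUnits M (f (ρA g (a + b))).toMul, hf _⟩ : O) =
          Additive.ofMul (⟨redUnits M (f (ρA g a)).toMul, hf _⟩ : O) +
            Additive.ofMul (⟨redUnits M (f (ρA g b)).toMul, hf _⟩ : O)
        rw [← ofMul_mul]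
        apply congrArg Additive.ofMul
        apply Subtype.ext
        show redUnits M (f (ρA g (a + b))).toMul =
          redUnits M (f (ρA g a)).toMul * redUnits M (f (ρA g b)).toMul
        rw [map_add, map_add, toMul_add, map_mul]
      map_smul' := fun n a => by
        apply Subtype.ext
        funext g
        show Additive.ofMul (⟨redUnits M (f (ρA g (n • a))).toMul, hf _⟩ : O) =
          n • Additive.ofMul (⟨redUnits M (f (ρA g a)).toMul, hf _⟩ : O)
        rw [← ofMul_zpow]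
        apply congrArg Additive.ofMul
        apply Subtype.ext
        show redUnits M (f (ρA g (n • a))).toMul = (redUnits M (f (ρA g a)).toMul) ^ n
        rw [map_zsmul, map_zsmul, toMul_zsmul, map_zpow] }
  isIntertwining' h := by
    ext a g
    have h1 : ρA g (ρA h a) = ρA (g * h) a := by rw [map_mul, Module.End.mul_apply]
    show ((redUnits M (f (ρA g (ρA h a))).toMul : (B ⧸ M)ˣ) : B ⧸ M) =
      ((redUnits M (f (ρA (g * h) a)).toMul : (B ⧸ M)ˣ) : B ⧸ M)
    rw [h1]

lemma toCoindSub_apply (a : VA) (g : G) :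
    (toCoindSub M O hO f hf a).1 g = Additive.ofMul ⟨redUnits M (f (ρA g a)).toMul, hf _⟩ := rfl

/-- The comparison map factors the Shapiro comparison map of `Bˣ`. -/
theorem coindMap_comp_toCoindSub :
    (Representation.coindMap (decomp G M).subtype (subIncl M O hO)).comp
        (toCoindSub M O hO f hf) = (toCoindUnits G M).comp f := by
  apply Representation.IntertwiningMap.ext
  ext a g
  have h1 : (((Representation.coindMap (decomp G M).subtype (subIncl M O hO))
      (toCoindSub M O hO f hf a)).1 g) = ((toCoindUnits G M (f a)).1 g) := by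
    rw [Representation.coindMap_coe_apply_apply, toCoindSub_apply, subIncl_apply,
      toCoindUnits_apply]
    show Additive.ofMul (redUnits M (f (ρA g a)).toMul) = _
    rw [intertwining_apply]
    rfl
  exact congrArg (fun x : Additive (B ⧸ M)ˣ => ((x.toMul : (B ⧸ M)ˣ) : B ⧸ M)) h1

/-- **The abstract vanishing theorem.**  If `H²(D, O) = 0`, every morphism `A ⟶ Bˣ` whose values
reduce into `O` induces `0` on `H²(G, -)`. -/
theorem map_eq_zero_of_factors [Finite G] [hM : M.IsMaximal] (hJ : OrbitSeparates G M)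
    (hf : ∀ a : VA, redUnits M (f a).toMul ∈ O)
    (hH2 : Subsingleton (groupCohomology (Rep.of (subRho M O hO)) 2))
    (x : groupCohomology (Rep.of ρA) 2) :
    ((groupCohomology.functor ℤ G 2).map (Rep.ofHom f : Rep.of ρA ⟶ unitsRepOf G B)).hom x
      = 0 := by
  have e1 : (Rep.ofHom f : Rep.of ρA ⟶ unitsRepOf G B) ≫ (unitsCoindIso hJ).hom =
      (Rep.ofHom (toCoindSub M O hO f hf) : Rep.of ρA ⟶
        Rep.coind (decomp G M).subtype (Rep.of (subRho M O hO))) ≫
      Rep.coindMap (decomp G M).subtype (Rep.ofHom (subIncl M O hO)) := by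
    apply Rep.hom_ext
    exact (coindMap_comp_toCoindSub M O hO f hf).symm
  have hsub : Subsingleton (groupCohomology
      (Rep.coind (decomp G M).subtype (Rep.of (subRho M O hO))) 2) :=
    (groupCohomology.coindIso (Rep.of (subRho M O hO)) 2).toLinearEquiv.toEquiv.subsingleton
  have e2 := congrArg (fun φ => ((groupCohomology.functor ℤ G 2).map φ).hom x) e1
  simp only [Functor.map_comp, ModuleCat.hom_comp] at e2
  have e3 : ((groupCohomology.functor ℤ G 2).map
      (Rep.ofHom (toCoindSub M O hO f hf) : Rep.of ρA ⟶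
        Rep.coind (decomp G M).subtype (Rep.of (subRho M O hO)))).hom x = 0 :=
    hsub.elim _ _
  have e4 : ((groupCohomology.functor ℤ G 2).map (unitsCoindIso hJ).hom).hom
      (((groupCohomology.functor ℤ G 2).map
        (Rep.ofHom f : Rep.of ρA ⟶ unitsRepOf G B)).hom x) =
      ((groupCohomology.functor ℤ G 2).map
        (Rep.coindMap (decomp G M).subtype (Rep.ofHom (subIncl M O hO)))).hom
      (((groupCohomology.functor ℤ G 2).map
        (Rep.ofHom (toCoindSub M O hO f hf) : Rep.of ρA ⟶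
          Rep.coind (decomp G M).subtype (Rep.of (subRho M O hO)))).hom x) := e2
  rw [e3, map_zero] at e4
  have hinj : Function.Injective
      ((groupCohomology.functor ℤ G 2).map (unitsCoindIso hJ).hom).hom :=
    ((groupCohomology.functor ℤ G 2).mapIso (unitsCoindIso hJ)).toLinearEquiv.injective
  apply hinj
  rw [e4, map_zero]

end abs

end Fermat.Agent.S55.CFT.H45

end
end
-- ==== END Fermat.Agent.S55.CFT.H45_ValCAbs

-- ==== BEGIN Fermat.Agent.S55.CFT.H58_CorBase
section

/-!
# CFT package COR (helper58), part 1: restriction and connecting maps; acyclic modules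

* `resH A S n : Hⁿ(G, A) ⟶ Hⁿ(S, A)` : restriction; `resH_naturality`, `delta_resH` (restriction
  commutes with the connecting maps);
* `isZero_of_coindLike` : a module of the form `Fun(Γ, W)` with translation action is acyclic;
* `isZero_funObj_self`, `isZero_res_funObj_self` : `Fun(G, A)` is acyclic for `G` and for every
  subgroup.
-/

set_option autoImplicit false
set_option linter.unusedSectionVars false

noncomputable section

namespace Fermat.Agent.S55.CFT.H58

open CategoryTheory CategoryTheory.Limits groupCohomology Rep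

variable {k : Type} [CommRing k] {G : Type} [Group G]

/-! ## Restriction -/

/-- The restriction map `Hⁿ(G, A) ⟶ Hⁿ(S, A)`. -/
abbrev resH (A : Rep.{0} k G) (S : Subgroup G) (n : ℕ) :
    groupCohomology A n ⟶ groupCohomology (res S.subtype A) n :=
  groupCohomology.map S.subtype (𝟙 (res S.subtype A)) n

lemma resH_naturality {A A' : Rep.{0} k G} (u : A ⟶ A') (S : Subgroup G) (n : ℕ) :
    groupCohomology.map (MonoidHom.id G) u n ≫ resH A' S n =
      resH A S n ≫ groupCohomology.map (MonoidHom.id S) ((resFunctor S.subtype).map u) n := by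
  show HomologicalComplex.homologyMap _ n ≫ HomologicalComplex.homologyMap _ n =
    HomologicalComplex.homologyMap _ n ≫ HomologicalComplex.homologyMap _ n
  rw [← HomologicalComplex.homologyMap_comp, ← HomologicalComplex.homologyMap_comp]
  rfl

/-- The morphism of short complexes of cochain complexes given by restriction. -/
def resShortComplexHom (X : ShortComplex (Rep.{0} k G)) (S : Subgroup G) :
    X.map (cochainsFunctor k G) ⟶ (X.map (resFunctor S.subtype)).map (cochainsFunctor k S) where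
  τ₁ := cochainsMap S.subtype (𝟙 (res S.subtype X.X₁))
  τ₂ := cochainsMap S.subtype (𝟙 (res S.subtype X.X₂))
  τ₃ := cochainsMap S.subtype (𝟙 (res S.subtype X.X₃))
  comm₁₂ := rfl
  comm₂₃ := rfl

/-- Restriction commutes with the connecting maps. -/
lemma delta_resH {X : ShortComplex (Rep.{0} k G)} (hX : X.ShortExact) (S : Subgroup G)
    (hX' : (X.map (resFunctor S.subtype)).ShortExact) (i j : ℕ) (hij : i + 1 = j) :
    δ hX i j hij ≫ resH X.X₁ S j = resH X.X₃ S i ≫ δ hX' i j hij :=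
  HomologicalComplex.HomologySequence.δ_naturality (resShortComplexHom X S)
    (map_cochainsFunctor_shortExact hX) (map_cochainsFunctor_shortExact hX') i j hij

/-! ## Acyclic modules -/

section CoindLike

variable {Γ : Type} [Group Γ] (B : Rep.{0} k Γ) (W : Type) [AddCommGroup W] [Module k W]

/-- The trivial module `W` of the trivial subgroup of `Γ`. -/
abbrev botTriv (Γ : Type) [Group Γ] (W : Type) [AddCommGroup W] [Module k W] :
    Rep.{0} k (⊥ : Subgroup Γ) :=
  Rep.trivial k (⊥ : Subgroup Γ) W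

variable {W}

/-- The comparison map with the module coinduced from the trivial subgroup. -/
def coindLikeMap (Θ : B.V ≃ₗ[k] (Γ → W))
    (hΘ : ∀ (h : Γ) (b : B.V) (γ : Γ), Θ (B.ρ h b) γ = Θ b (γ * h)) :
    B.ρ.IntertwiningMap
      (Representation.coind (⊥ : Subgroup Γ).subtype (botTriv (k := k) Γ W).ρ) where
  toLinearMap :=
    { toFun := fun b => ⟨Θ b, fun s h => by
        have hs : (s : Γ) = 1 := Subgroup.mem_bot.mp s.2
        show Θ b ((⊥ : Subgroup Γ).subtype s * h) = Θ b h
        rw [Subgroup.subtype_apply, hs, one_mul]⟩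
      map_add' := fun a b => Subtype.ext (map_add Θ a b)
      map_smul' := fun r a => Subtype.ext (map_smul Θ r a) }
  isIntertwining' h := by
    ext b γ
    exact hΘ h b γ

lemma coindLikeMap_bijective (Θ : B.V ≃ₗ[k] (Γ → W))
    (hΘ : ∀ (h : Γ) (b : B.V) (γ : Γ), Θ (B.ρ h b) γ = Θ b (γ * h)) :
    Function.Bijective (coindLikeMap B Θ hΘ) := by
  constructor
  · intro a b h
    exact Θ.injective (congrArg Subtype.val h)
  · intro f
    exact ⟨Θ.symm f.1, Subtype.ext (Θ.apply_symm_apply f.1)⟩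

/-- A representation of the form `Fun(Γ, W)` with the translation action is acyclic. -/
lemma isZero_of_coindLike (Θ : B.V ≃ₗ[k] (Γ → W))
    (hΘ : ∀ (h : Γ) (b : B.V) (γ : Γ), Θ (B.ρ h b) γ = Θ b (γ * h)) (n : ℕ) :
    IsZero (groupCohomology B (n + 1)) := by
  have e : B ≅ coind (⊥ : Subgroup Γ).subtype (botTriv (k := k) Γ W) :=
    Rep.mkIso ((coindLikeMap B Θ hΘ).ofBijective (coindLikeMap_bijective B Θ hΘ))
  have h0 : IsZero (groupCohomology (botTriv (k := k) Γ W) (n + 1)) :=
    isZero_groupCohomology_succ_of_subsingleton _ n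
  have h1 : IsZero (groupCohomology (coind (⊥ : Subgroup Γ).subtype (botTriv (k := k) Γ W))
      (n + 1)) := h0.of_iso (coindIso _ (n + 1))
  exact h1.of_iso ((functor k Γ (n + 1)).mapIso e)

end CoindLike

section Regular

variable (A : Rep.{0} k G)

/-- The untwisting map on `Fun(G, A)`: `φ ↦ (γ ↦ ρ γ (φ γ⁻¹))`. -/
def thetaSelf : (G → A.V) ≃ₗ[k] (G → A.V) where
  toFun φ γ := A.ρ γ (φ γ⁻¹)
  invFun F x := A.ρ x (F x⁻¹)
  map_add' φ ψ := by funext γ; simp
  map_smul' r φ := by funext γ; simp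
  left_inv φ := by
    funext x
    show A.ρ x (A.ρ x⁻¹ (φ (x⁻¹)⁻¹)) = φ x
    rw [← Module.End.mul_apply, ← map_mul, mul_inv_cancel, map_one, inv_inv]
    rfl
  right_inv F := by
    funext x
    show A.ρ x (A.ρ x⁻¹ (F (x⁻¹)⁻¹)) = F x
    rw [← Module.End.mul_apply, ← map_mul, mul_inv_cancel, map_one, inv_inv]
    rfl

/-- `Fun(G, A)` is acyclic for `G`. -/
lemma isZero_funObj_self (n : ℕ) : IsZero (groupCohomology (FunObj A G) (n + 1)) := by
  refine isZero_of_coindLike (FunObj A G) (W := A.V) (thetaSelf A) (fun h b γ => ?_) n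
  show A.ρ γ (A.ρ h (b (h⁻¹ • γ⁻¹))) = A.ρ (γ * h) (b (γ * h)⁻¹)
  rw [map_mul, Module.End.mul_apply, mul_inv_rev]
  rfl

variable (S : Subgroup G) (T : Set G)

/-- The untwisting map on `Fun(G, A)` for a subgroup `S` with right transversal `T`:
`φ ↦ (σ ↦ t ↦ ρ σ (φ (σ⁻¹ t)))`. -/
def thetaSub (hT : Subgroup.IsComplement (S : Set G) T) : (G → A.V) ≃ₗ[k] (S → (T → A.V)) where
  toFun φ σ t := A.ρ (σ : G) (φ ((σ : G)⁻¹ * (t : G)))
  invFun F g := A.ρ ((hT.equiv g).1 : G) (F ((hT.equiv g).1)⁻¹ (hT.equiv g).2)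
  map_add' φ ψ := by funext σ t; simp
  map_smul' r φ := by funext σ t; simp
  left_inv φ := by
    funext g
    show A.ρ ((hT.equiv g).1 : G) (A.ρ ((((hT.equiv g).1)⁻¹ : S) : G)
      (φ (((((hT.equiv g).1)⁻¹ : S) : G)⁻¹ * ((hT.equiv g).2 : G)))) = φ g
    rw [← Module.End.mul_apply, ← map_mul, Subgroup.coe_inv, mul_inv_cancel, map_one, inv_inv]
    have := hT.equiv_fst_mul_equiv_snd g
    rw [this]
    rfl
  right_inv F := by
    funext σ t
    have h1 : hT.equiv ((σ : G)⁻¹ * (t : G)) = (σ⁻¹, t) := by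
      rw [← Equiv.eq_symm_apply]
      rfl
    show A.ρ (σ : G) (A.ρ ((hT.equiv ((σ : G)⁻¹ * (t : G))).1 : G)
      (F ((hT.equiv ((σ : G)⁻¹ * (t : G))).1)⁻¹ (hT.equiv ((σ : G)⁻¹ * (t : G))).2)) = F σ t
    rw [h1]
    show A.ρ (σ : G) (A.ρ ((σ⁻¹ : S) : G) (F (σ⁻¹)⁻¹ t)) = F σ t
    rw [← Module.End.mul_apply, ← map_mul, Subgroup.coe_inv, mul_inv_cancel, map_one, inv_inv]
    rfl

/-- `Fun(G, A)` is acyclic for every subgroup of `G`. -/
lemma isZero_res_funObj_self (n : ℕ) :
    IsZero (groupCohomology (res S.subtype (FunObj A G)) (n + 1)) := by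
  obtain ⟨T, hT, -⟩ := Subgroup.exists_isComplement_right S (1 : G)
  refine isZero_of_coindLike (res S.subtype (FunObj A G)) (W := T → A.V) (thetaSub A S T hT)
    (fun h b γ => ?_) n
  funext t
  show A.ρ (γ : G) (A.ρ (h : G) (b ((h : G)⁻¹ • ((γ : G)⁻¹ * (t : G))))) =
    A.ρ ((γ * h : S) : G) (b (((γ * h : S) : G)⁻¹ * (t : G)))
  rw [Subgroup.coe_mul, map_mul, Module.End.mul_apply, mul_inv_rev, smul_eq_mul, mul_assoc]

end Regular

end Fermat.Agent.S55.CFT.H58

end
end
-- ==== END Fermat.Agent.S55.CFT.H58_CorBase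

-- ==== BEGIN Fermat.Agent.S55.CFT.H58_SHLField
section

/-!
# CFT package SHL (helper58), part 2: the field part

For a finite group `D` acting faithfully on a field `E`, with fixed field `F' = E^D`:
`Hⁿ(D, Eˣ) ≅ Hⁿ(Gal(E/F'), Eˣ)` (`fixedIso`), and `F'` is a finite extension of a base field
`k₀` if `E` is a finite `k₀`-algebra on which `D` acts `k₀`-linearly.
-/

set_option autoImplicit false
set_option linter.unusedSectionVars false

noncomputable section

namespace Fermat.Agent.S55.CFT.H58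

open CategoryTheory groupCohomology Rep

section Field

variable (D : Type) [Group D] [Finite D] (E : Type) [Field E] [MulSemiringAction D E]
  [FaithfulSMul D E]

/-- `Hⁿ(D, Eˣ) ≅ Hⁿ(Gal(E/E^D), Eˣ)`. -/
def fixedIso (n : ℕ) :
    groupCohomology (unitsRepOf D E) n ≅
      groupCohomology (Rep.ofAlgebraAutOnUnits (FixedPoints.subfield D E) E) n :=
  mapIso (B := unitsRepOf D E) (A := Rep.ofAlgebraAutOnUnits (FixedPoints.subfield D E) E)
    (FixedPoints.toAlgAutMulEquiv D E) (LinearEquiv.refl ℤ (Additive Eˣ)) (fun g => by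
      ext a
      rfl) n

lemma card_aut_fixed : Nat.card (E ≃ₐ[FixedPoints.subfield D E] E) = Nat.card D :=
  (Nat.card_congr (FixedPoints.toAlgAutMulEquiv D E).toEquiv).symm

lemma isPGroup_aut_fixed (p : ℕ) (hD : IsPGroup p D) :
    IsPGroup p (E ≃ₐ[FixedPoints.subfield D E] E) :=
  hD.of_equiv (FixedPoints.toAlgAutMulEquiv D E)

variable (k₀ : Type) [Field k₀] [Algebra k₀ E]

/-- The fixed field as an algebra over a base field on which `D` acts trivially. -/
abbrev fixedAlgebra (hk : ∀ (d : D) (c : k₀), d • algebraMap k₀ E c = algebraMap k₀ E c) :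
    Algebra k₀ (FixedPoints.subfield D E) :=
  RingHom.toAlgebra ((algebraMap k₀ E).codRestrict (FixedPoints.subfield D E)
    (fun c d => hk d c))

lemma fixed_finiteDimensional [FiniteDimensional k₀ E]
    (hk : ∀ (d : D) (c : k₀), d • algebraMap k₀ E c = algebraMap k₀ E c) :
    letI := fixedAlgebra D E k₀ hk
    FiniteDimensional k₀ (FixedPoints.subfield D E) := by
  let _ := fixedAlgebra D E k₀ hk
  have : IsScalarTower k₀ (FixedPoints.subfield D E) E :=
    IsScalarTower.of_algebraMap_eq (fun _ => rfl)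
  exact FiniteDimensional.left k₀ (FixedPoints.subfield D E) E

end Field

end Fermat.Agent.S55.CFT.H58

end
end
-- ==== END Fermat.Agent.S55.CFT.H58_SHLField

-- ==== BEGIN Fermat.Agent.S55.CFT.H58_SHLSep
section

/-!
# CFT package SHL (helper58), part 3: orbit separation from norms

For a finite group `G` acting on a reduced Artinian commutative ring `B` and a maximal ideal `M`:
if every element of every maximal ideal has a conjugate in `M` (e.g. because its norm vanishes),
then the conjugates of `M` are all the maximal ideals and their intersection is `0`.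
-/

set_option autoImplicit false
set_option linter.unusedSectionVars false

noncomputable section

namespace Fermat.Agent.S55.CFT.H58

section Sep

variable {G : Type} [Group G] {B : Type} [CommRing B] [MulSemiringAction G B] {M : Ideal B}

lemma conjIdeal_isPrime [hM : M.IsPrime] (g : G) : (conjIdeal G M g).IsPrime :=
  Ideal.comap_isPrime _ M

/-- If every element of the maximal ideal `P` has a conjugate in `M`, then `P` is a conjugate
of `M`. -/
lemma exists_conjIdeal_eq_of_forall [Finite G] [hM : M.IsMaximal] (P : Ideal B) (hP : P.IsMaximal)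
    (h : ∀ b ∈ P, ∃ g : G, g • b ∈ M) : ∃ g : G, P = conjIdeal G M g := by
  classical
  let _ : Fintype G := Fintype.ofFinite G
  have hsub : (P : Set B) ⊆ ⋃ g ∈ ((Finset.univ : Finset G) : Set G), (conjIdeal G M g : Set B) := by
    intro b hb
    obtain ⟨g, hg⟩ := h b hb
    exact Set.mem_biUnion (Finset.mem_coe.2 (Finset.mem_univ g)) hg
  have hpr : ∀ g ∈ (Finset.univ : Finset G), g ≠ 1 → g ≠ 1 → (conjIdeal G M g).IsPrime :=
    fun g _ _ _ => conjIdeal_isPrime (hM := hM.isPrime) g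
  obtain ⟨g, -, hg⟩ := (Ideal.subset_union_prime (s := (Finset.univ : Finset G))
    (f := conjIdeal G M) 1 1 hpr).1 hsub
  exact ⟨g, hP.eq_of_le (conjIdeal_isMaximal G M g).ne_top hg⟩

/-- Orbit separation for a reduced Artinian ring on whose maximal ideals `G` acts transitively. -/
theorem orbitSeparates_of_forall [Finite G] [IsArtinianRing B] [IsReduced B] [hM : M.IsMaximal]
    (h : ∀ P : Ideal B, P.IsMaximal → ∀ b ∈ P, ∃ g : G, g • b ∈ M) : OrbitSeparates G M := by
  intro b hb
  have h1 : b ∈ (⊥ : Ideal B).jacobson := by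
    rw [Ideal.jacobson, Ideal.mem_sInf]
    rintro P ⟨-, hP⟩
    obtain ⟨g, rfl⟩ := exists_conjIdeal_eq_of_forall P hP (h P hP)
    exact hb g
  rw [IsArtinianRing.jacobson_eq_radical] at h1
  have h2 : IsNilpotent b := by
    rw [← mem_nilradical, nilradical]
    exact h1
  exact h2.eq_zero

end Sep

end Fermat.Agent.S55.CFT.H58

end
end
-- ==== END Fermat.Agent.S55.CFT.H58_SHLSep

-- ==== BEGIN Fermat.Agent.S55.CFT.H58_THLWAbs
section

/-!
# CFT leaf THL-W (helper58), part 1: the abstract counting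

`G` a finite group acting on a commutative ring `B`, `Mx` a maximal ideal, `D` its stabiliser,
`F → B` a `G`-invariant field, `E = B ⧸ Mx`.  If every `F`-automorphism of `E` acts on a primitive
`n`-th root of unity `ζ` by a power of `t = θ(β)` and the elements of `G` are separated by their
values on a lift of `ζ`, then `#D ≤ orderOf t`.
-/

set_option autoImplicit false
set_option linter.unusedSectionVars false

noncomputable section

namespace Fermat.Agent.S55.CFT.H58

section THLW

variable {G : Type} [Group G] [Finite G] {B : Type} [CommRing B] [MulSemiringAction G B]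
  (Mx : Ideal B) [hM : Mx.IsMaximal] {F : Type} [Field F] (φ : F →+* B)
  (k₀ : Type) [Field k₀] [Algebra k₀ F] [Algebra k₀ B] [Module.Finite k₀ B]
  (n : ℕ) [NeZero n] (θ : Fˣ → (ZMod n)ˣ)

theorem card_decomp_le_orderOf (hφ : ∀ (g : G) (x : F), g • φ x = φ x)
    (hk : ∀ c : k₀, φ (algebraMap k₀ F c) = algebraMap k₀ B c)
    (hgen : ∀ (E : Type) [Field E] [Algebra F E] [FiniteDimensional F E] (ζ : E),
      IsPrimitiveRoot ζ n →
        ∃ β : Fˣ, ∀ σ : E ≃ₐ[F] E, ∃ j : ℕ,
          σ ζ = ζ ^ (((θ β) ^ j : (ZMod n)ˣ) : ZMod n).val)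
    (ζB : B) (hζ : IsPrimitiveRoot (Ideal.Quotient.mk Mx ζB) n)
    (hdet : ∀ g g' : G, g • ζB - g' • ζB ∈ Mx → g = g') :
    ∃ β : Fˣ, Nat.card (decomp G Mx) ≤ orderOf (θ β) := by
  classical
  let _ : Field (B ⧸ Mx) := Ideal.Quotient.field Mx
  let _ : Algebra F (B ⧸ Mx) := ((Ideal.Quotient.mk Mx).comp φ).toAlgebra
  have halg : ∀ x : F, algebraMap F (B ⧸ Mx) x = Ideal.Quotient.mk Mx (φ x) := fun _ => rfl
  have : IsScalarTower k₀ F (B ⧸ Mx) := IsScalarTower.of_algebraMap_eq (fun c => by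
    rw [halg, hk]
    rfl)
  have : Module.Finite k₀ (B ⧸ Mx) := inferInstance
  have : FiniteDimensional F (B ⧸ Mx) := Module.Finite.right k₀ F (B ⧸ Mx)
  obtain ⟨β, hβ⟩ := hgen (B ⧸ Mx) (Ideal.Quotient.mk Mx ζB) hζ
  refine ⟨β, ?_⟩
  let σ : decomp G Mx → ((B ⧸ Mx) ≃ₐ[F] (B ⧸ Mx)) := fun d =>
    AlgEquiv.ofRingEquiv (f := MulSemiringAction.toRingEquiv (decomp G Mx) (B ⧸ Mx) d)
      (fun x => by
        rw [halg]
        show d • Ideal.Quotient.mk Mx (φ x) = _
        rw [quot_smul_mk, hφ])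
  have hσ : ∀ (d : decomp G Mx) (b : B),
      σ d (Ideal.Quotient.mk Mx b) = Ideal.Quotient.mk Mx ((d : G) • b) := fun _ _ => rfl
  choose j hj using fun d => hβ (σ d)
  have hinj : Function.Injective (fun d : decomp G Mx =>
      (⟨(θ β) ^ (j d), Subgroup.npow_mem_zpowers _ _⟩ : Subgroup.zpowers (θ β))) := by
    intro d d' h
    have h0 : (θ β) ^ (j d) = (θ β) ^ (j d') := congrArg Subtype.val h
    have h1 : σ d (Ideal.Quotient.mk Mx ζB) = σ d' (Ideal.Quotient.mk Mx ζB) := by
      rw [hj d, hj d', h0]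
    rw [hσ, hσ] at h1
    exact Subtype.ext (hdet _ _ (Ideal.Quotient.eq.1 h1))
  calc Nat.card (decomp G Mx) ≤ Nat.card (Subgroup.zpowers (θ β)) :=
        Nat.card_le_card_of_injective _ hinj
    _ = orderOf (θ β) := Nat.card_zpowers _

end THLW

end Fermat.Agent.S55.CFT.H58

end
end
-- ==== END Fermat.Agent.S55.CFT.H58_THLWAbs

-- ==== BEGIN Fermat.Agent.S55.CFT.H58_TwinCyclic
section

/-!
# CFT package TN-1 (twin vanishing), part 2 (helper58): periodicity for a cyclic quotient

For a normal subgroup `N` of `G` with cyclic quotient generated by `c`, the four-term exact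
sequence `0 → A → Fun(G ⧸ N, A) → Fun(G ⧸ N, A) → A → 0` (constants, difference operator
`φ ↦ φ (· * c) - φ`, sum) and Shapiro's lemma give: if `Hʲ(N, A) = 0` for `j = n + 1, n + 2`
then `Hⁿ(G, A) = 0 → Hⁿ⁺²(G, A) = 0` (`isZero_add_two_of_cyclic`).
-/

set_option autoImplicit false
set_option linter.unusedSectionVars false

noncomputable section

namespace Fermat.Agent.S55.CFT.H58

open CategoryTheory CategoryTheory.Limits groupCohomology Rep

variable {k : Type} [CommRing k] {G : Type} [Group G]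

/-! ## The four-term sequence for a normal subgroup with cyclic quotient -/

section Cyclic

variable (A : Rep.{0} k G) (N : Subgroup G) [N.Normal]

lemma smul_mul_quot (g : G) (x y : G ⧸ N) : g • (x * y) = (g • x) * y := by
  induction x using QuotientGroup.induction_on with
  | H a =>
    induction y using QuotientGroup.induction_on with
    | H b =>
      show ((g * (a * b) : G) : G ⧸ N) = ((g * a : G) : G ⧸ N) * ((b : G) : G ⧸ N)
      rw [← QuotientGroup.mk_mul, mul_assoc]

/-- The difference operator `φ ↦ (x ↦ φ (x * c) - φ x)`. -/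
def diffF (c : G ⧸ N) : FunObj A (G ⧸ N) ⟶ FunObj A (G ⧸ N) :=
  Rep.ofHom (ρ := funRep A (G ⧸ N)) (σ := funRep A (G ⧸ N))
    ⟨{ toFun := fun φ x => φ (x * c) - φ x
       map_add' := fun φ ψ => by ext x; simp; abel
       map_smul' := fun r φ => by ext x; simp [smul_sub] }, fun h => by
      ext φ x
      simp only [LinearMap.coe_comp, LinearMap.coe_mk, AddHom.coe_mk, Function.comp_apply,
        funRep_apply, map_sub, smul_mul_quot]⟩

@[simp] lemma diffF_apply (c : G ⧸ N) (φ : G ⧸ N → A.V) (x : G ⧸ N) :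
    (diffF A N c).hom φ x = φ (x * c) - φ x := rfl

variable [Fintype (G ⧸ N)]

lemma tauF_diffF (c : G ⧸ N) (φ : G ⧸ N → A.V) :
    (tauF A (G ⧸ N)).hom ((diffF A N c).hom φ) = 0 := by
  show ∑ x : G ⧸ N, (φ (x * c) - φ x) = 0
  rw [Finset.sum_sub_distrib, sub_eq_zero]
  exact Equiv.sum_comp (Equiv.mulRight c) φ

/-- The kernel of the sum map, as a submodule. -/
def kerTau : Submodule k (G ⧸ N → A.V) := LinearMap.ker (tauF A (G ⧸ N)).hom.toLinearMap

lemma mem_kerTau (φ : G ⧸ N → A.V) : φ ∈ kerTau A N ↔ ∑ x, φ x = 0 := Iff.rfl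

lemma kerTau_le_comap (g : G) :
    kerTau A N ≤ (kerTau A N).comap ((FunObj A (G ⧸ N)).ρ g) := by
  intro φ hφ
  rw [Submodule.mem_comap]
  show (tauF A (G ⧸ N)).hom ((FunObj A (G ⧸ N)).ρ g φ) = 0
  rw [hom_comm_apply]
  have : (tauF A (G ⧸ N)).hom φ = 0 := hφ
  rw [this, map_zero]

/-- The kernel of the sum map, as a representation. -/
abbrev KerObj : Rep.{0} k G :=
  Rep.subrepresentation (FunObj A (G ⧸ N)) (kerTau A N) (kerTau_le_comap A N)

/-- The difference operator, with values in the kernel of the sum map. -/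
def diffK (c : G ⧸ N) : FunObj A (G ⧸ N) ⟶ KerObj A N :=
  Rep.ofHom (ρ := funRep A (G ⧸ N))
    (σ := (FunObj A (G ⧸ N)).ρ.subrepresentation (kerTau A N) (kerTau_le_comap A N))
    ⟨LinearMap.codRestrict (kerTau A N) (diffF A N c).hom.toLinearMap
      (fun φ => tauF_diffF A N c φ), fun h => by
      ext φ x
      have := hom_comm_apply (diffF A N c) h φ
      exact congrFun this x⟩

lemma diffK_apply_coe (c : G ⧸ N) (φ : G ⧸ N → A.V) :
    ((diffK A N c).hom φ : G ⧸ N → A.V) = (diffF A N c).hom φ := rfl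

/-- The inclusion of the kernel. -/
abbrev inclK : KerObj A N ⟶ FunObj A (G ⧸ N) :=
  Rep.subtype (FunObj A (G ⧸ N)) (kerTau A N) (kerTau_le_comap A N)

lemma iotaF_diffK (c : G ⧸ N) : iotaF A (G ⧸ N) ≫ diffK A N c = 0 := by
  ext a x
  show a - a = 0
  exact sub_self a

lemma inclK_tauF : inclK A N ≫ tauF A (G ⧸ N) = 0 := by
  ext φ
  exact φ.2

/-- The first short exact sequence `0 → A → Fun(G ⧸ N, A) → Ker → 0`. -/
lemma shortExact_one (c : G ⧸ N) (hc : ∀ x, x ∈ Subgroup.zpowers c) :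
    (ShortComplex.mk (iotaF A (G ⧸ N)) (diffK A N c) (iotaF_diffK A N c)).ShortExact := by
  apply shortExact_of_concrete
  · intro a b h
    exact congrFun h 1
  · intro ψ
    obtain ⟨φ, hφ⟩ := exists_telescope c hc ψ.1 ψ.2
    refine ⟨φ, Subtype.ext ?_⟩
    funext x
    exact hφ x
  · intro φ hφ
    refine ⟨φ 1, ?_⟩
    funext x
    have h1 : ∀ y, φ (y * c) = φ y := by
      intro y
      have := congrFun (congrArg Subtype.val hφ) y
      exact sub_eq_zero.mp this
    exact (eq_const_of_mul_gen c hc φ h1 x).symm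

/-- The second short exact sequence `0 → Ker → Fun(G ⧸ N, A) → A → 0`. -/
lemma shortExact_two :
    (ShortComplex.mk (inclK A N) (tauF A (G ⧸ N)) (inclK_tauF A N)).ShortExact := by
  classical
  apply shortExact_of_concrete
  · intro a b h
    exact Subtype.ext h
  · intro a
    refine ⟨Pi.single 1 a, ?_⟩
    show ∑ x : G ⧸ N, (Pi.single 1 a : G ⧸ N → A.V) x = a
    rw [Finset.sum_pi_single']
    simp
  · intro φ hφ
    exact ⟨⟨φ, hφ⟩, rfl⟩

/-- **Periodicity**: if `N` is normal with cyclic quotient and `Hʲ(N, A) = 0` for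
`j = n + 1, n + 2`, then `Hⁿ(G, A) = 0` implies `Hⁿ⁺²(G, A) = 0`. -/
theorem isZero_add_two_of_cyclic (c : G ⧸ N) (hc : ∀ x, x ∈ Subgroup.zpowers c) (n : ℕ)
    (h1 : IsZero (groupCohomology (res N.subtype A) (n + 1)))
    (h2 : IsZero (groupCohomology (res N.subtype A) (n + 2)))
    (hA : IsZero (groupCohomology A n)) : IsZero (groupCohomology A (n + 2)) :=
  isZero_add_two (shortExact_one A N c hc) (shortExact_two A N) n
    (isZero_funObj A N _ h1) (isZero_funObj A N _ h2) hA

end Cyclic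

end Fermat.Agent.S55.CFT.H58

end
end
-- ==== END Fermat.Agent.S55.CFT.H58_TwinCyclic

-- ==== BEGIN Fermat.Agent.S55.CFT.H80_PlacesInt
section

set_option autoImplicit false

open NumberField TensorProduct Module

noncomputable section

namespace Fermat.Agent.S55.CFT.H80

variable (p : ℕ) [hp : Fact p.Prime] (K : Type) [Field K] [NumberField K]

/-- The map `𝓞 K → ℚ_p ⊗ K`, `x ↦ 1 ⊗ x`. -/
def incl : 𝓞 K →+* ℚ_[p] ⊗[ℚ] K :=
  (Algebra.TensorProduct.includeRight : K →ₐ[ℚ] ℚ_[p] ⊗[ℚ] K).toRingHom.comp (algebraMap (𝓞 K) K)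

lemma incl_apply (x : 𝓞 K) : incl p K x = (1 : ℚ_[p]) ⊗ₜ[ℚ] (x : K) := rfl

/-- The `ℤ_p`-subalgebra of `ℚ_p ⊗ K` generated by `𝓞 K`. -/
def intSub : Subalgebra ℤ_[p] (ℚ_[p] ⊗[ℚ] K) :=
  Algebra.adjoin ℤ_[p] (Set.range (incl p K))

/-- The `ℚ_p`-basis `1 ⊗ b_i` of `ℚ_p ⊗ K`, `b_i` an integral basis. -/
def tBasis : Basis (Free.ChooseBasisIndex ℤ (𝓞 K)) ℚ_[p] (ℚ_[p] ⊗[ℚ] K) :=
  Algebra.TensorProduct.basis ℚ_[p] (integralBasis K)

lemma tBasis_apply (i : Free.ChooseBasisIndex ℤ (𝓞 K)) :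
    tBasis p K i = incl p K (RingOfIntegers.basis K i) := by
  rw [tBasis, Algebra.TensorProduct.basis_apply, integralBasis_apply, incl_apply]

lemma tBasis_repr_incl (x : 𝓞 K) (i : Free.ChooseBasisIndex ℤ (𝓞 K)) :
    (tBasis p K).repr (incl p K x) i = (((RingOfIntegers.basis K).repr x i : ℤ) : ℚ_[p]) := by
  rw [tBasis, incl_apply, Algebra.TensorProduct.basis_repr_tmul]
  simp [integralBasis_repr_apply]

lemma intSub_toSubmodule :
    Subalgebra.toSubmodule (intSub p K) = Submodule.span ℤ_[p] (Set.range (incl p K)) := by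
  rw [intSub, Algebra.adjoin_eq_span]
  congr 1
  have h : Set.range (incl p K) =
      (MonoidHom.mrange (incl p K : 𝓞 K →* ℚ_[p] ⊗[ℚ] K) : Set _) := by
    ext x
    simp
  rw [h, Submonoid.closure_eq]

lemma incl_mem (x : 𝓞 K) : incl p K x ∈ intSub p K :=
  Algebra.subset_adjoin ⟨x, rfl⟩

lemma coe_smul_eq (c : ℤ_[p]) (a : ℚ_[p] ⊗[ℚ] K) : c • a = (c : ℚ_[p]) • a := rfl

/-- Membership in `intSub` in terms of coordinates: all coordinates are `p`-adic integers. -/
theorem mem_intSub_iff (a : ℚ_[p] ⊗[ℚ] K) :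
    a ∈ intSub p K ↔ ∀ i, ‖(tBasis p K).repr a i‖ ≤ 1 := by
  constructor
  · intro ha
    have ha' : a ∈ Submodule.span ℤ_[p] (Set.range (incl p K)) := by
      rw [← intSub_toSubmodule]
      exact ha
    refine Submodule.span_induction (p := fun a _ => ∀ i, ‖(tBasis p K).repr a i‖ ≤ 1)
      ?_ ?_ ?_ ?_ ha'
    · rintro _ ⟨x, rfl⟩ i
      rw [tBasis_repr_incl]
      exact Padic.norm_int_le_one _
    · intro i
      simp
    · intro a b _ _ ha hb i
      rw [map_add, Finsupp.add_apply]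
      exact (Padic.nonarchimedean _ _).trans (max_le (ha i) (hb i))
    · intro c a _ ha i
      rw [coe_smul_eq, map_smul, Finsupp.smul_apply, smul_eq_mul, norm_mul]
      exact mul_le_one₀ (PadicInt.norm_le_one c) (norm_nonneg _) (ha i)
  · intro h
    rw [← (tBasis p K).sum_repr a]
    apply Subalgebra.sum_mem
    intro i _
    let c : ℤ_[p] := ⟨(tBasis p K).repr a i, h i⟩
    have : (tBasis p K).repr a i • tBasis p K i = c • tBasis p K i := rfl
    rw [this]
    apply Subalgebra.smul_mem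
    rw [tBasis_apply]
    exact incl_mem p K _


lemma one_lt_p_real : (1 : ℝ) < (p : ℝ) := by exact_mod_cast hp.1.one_lt

lemma p_ne_zero_padic : (p : ℚ_[p]) ≠ 0 := by exact_mod_cast hp.1.ne_zero

/-- Every element of `ℚ_p ⊗ K` is `p^{-N}` times an element of `intSub`. -/
theorem exists_pow_smul_mem (a : ℚ_[p] ⊗[ℚ] K) : ∃ N : ℕ, (p : ℚ_[p]) ^ N • a ∈ intSub p K := by
  obtain ⟨N, hN⟩ := pow_unbounded_of_one_lt (∑ i, ‖(tBasis p K).repr a i‖) (one_lt_p_real p)
  refine ⟨N, ?_⟩
  rw [mem_intSub_iff]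
  intro i
  rw [map_smul, Finsupp.smul_apply, smul_eq_mul, norm_mul, Padic.norm_p_pow]
  have h1 : ‖(tBasis p K).repr a i‖ ≤ (p : ℝ) ^ N :=
    (Finset.single_le_sum (f := fun i => ‖(tBasis p K).repr a i‖)
      (fun j _ => norm_nonneg _) (Finset.mem_univ i)).trans hN.le
  have hpos : (0 : ℝ) < (p : ℝ) ^ N := pow_pos (by linarith [one_lt_p_real p]) N
  rw [zpow_neg, zpow_natCast, inv_mul_le_iff₀ hpos, mul_one]
  exact h1

/-- Surjectivity of `𝓞 K / p → intSub / p`. -/
theorem exists_sub_incl_eq (r : ℚ_[p] ⊗[ℚ] K) (hr : r ∈ intSub p K) :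
    ∃ y : 𝓞 K, ∃ r' ∈ intSub p K, r - incl p K y = (p : ℚ_[p]) • r' := by
  classical
  rw [mem_intSub_iff] at hr
  have hex : ∀ i, ∃ n : ℕ, ∃ d : ℤ_[p], (tBasis p K).repr r i - (n : ℚ_[p]) = p * (d : ℚ_[p]) := by
    intro i
    let c : ℤ_[p] := ⟨(tBasis p K).repr r i, hr i⟩
    have hc : (c : ℚ_[p]) = (tBasis p K).repr r i := rfl
    obtain ⟨n, -, hn⟩ := PadicInt.exists_mem_range (p := p) (x := c)
    rw [PadicInt.maximalIdeal_eq_span_p, Ideal.mem_span_singleton'] at hn
    obtain ⟨d, hd⟩ := hn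
    refine ⟨n, d, ?_⟩
    rw [← hc]
    have h1 : ((d * (p : ℤ_[p]) : ℤ_[p]) : ℚ_[p]) = ((c - (n : ℤ_[p]) : ℤ_[p]) : ℚ_[p]) := by
      rw [hd]
    push_cast at h1
    rw [← h1, mul_comm]
  choose n d hnd using hex
  set y : 𝓞 K := ∑ i, (n i : ℤ) • RingOfIntegers.basis K i with hy
  have hyrepr : ∀ i, (tBasis p K).repr (incl p K y) i = (n i : ℚ_[p]) := by
    intro i
    rw [tBasis_repr_incl, hy, Basis.repr_sum_self]
    simp
  refine ⟨y, (p : ℚ_[p])⁻¹ • (r - incl p K y), ?_, ?_⟩
  · rw [mem_intSub_iff]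
    intro i
    rw [map_smul, map_sub, Finsupp.smul_apply, Finsupp.sub_apply, hyrepr, hnd, smul_eq_mul,
      ← mul_assoc, inv_mul_cancel₀ (p_ne_zero_padic p), one_mul]
    exact PadicInt.norm_le_one _
  · rw [smul_smul, mul_inv_cancel₀ (p_ne_zero_padic p), one_smul]

/-- Injectivity of `𝓞 K / p → intSub / p`. -/
theorem dvd_of_incl_eq (x : 𝓞 K) (r' : ℚ_[p] ⊗[ℚ] K) (hr' : r' ∈ intSub p K)
    (h : incl p K x = (p : ℚ_[p]) • r') : ∃ y : 𝓞 K, x = (p : 𝓞 K) * y := by
  classical
  rw [mem_intSub_iff] at hr'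
  have hdvd : ∀ i, (p : ℤ) ∣ (RingOfIntegers.basis K).repr x i := by
    intro i
    have h1 := congrArg (fun z => (tBasis p K).repr z i) h
    simp only [tBasis_repr_incl, map_smul, Finsupp.smul_apply, smul_eq_mul] at h1
    have h2 : ‖(((RingOfIntegers.basis K).repr x i : ℤ) : ℚ_[p])‖ ≤ (p : ℝ) ^ (-(1 : ℕ) : ℤ) := by
      rw [h1, norm_mul, Padic.norm_p]
      have : (p : ℝ) ^ (-(1 : ℕ) : ℤ) = (p : ℝ)⁻¹ := by simp
      rw [this]
      have hpos : (0 : ℝ) ≤ (p : ℝ)⁻¹ := inv_nonneg.mpr (by linarith [one_lt_p_real p])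
      calc (p : ℝ)⁻¹ * ‖(tBasis p K).repr r' i‖ ≤ (p : ℝ)⁻¹ * 1 :=
            mul_le_mul_of_nonneg_left (hr' i) hpos
        _ = (p : ℝ)⁻¹ := mul_one _
    have h3 := (Padic.norm_int_le_pow_iff_dvd _ 1).mp h2
    simpa using h3
  choose k hk using hdvd
  refine ⟨∑ i, k i • RingOfIntegers.basis K i, ?_⟩
  conv_lhs => rw [← (RingOfIntegers.basis K).sum_repr x]
  rw [Finset.mul_sum]
  apply Finset.sum_congr rfl
  intro i _
  rw [hk i, mul_smul, zsmul_eq_mul]
  simp


/-- The map `𝓞 K → intSub`. -/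
def intMap : 𝓞 K →+* intSub p K := (incl p K).codRestrict (intSub p K) (incl_mem p K)

lemma intMap_coe (x : 𝓞 K) : ((intMap p K x : intSub p K) : ℚ_[p] ⊗[ℚ] K) = incl p K x := rfl

lemma intSub_toSubmodule_eq_span :
    Subalgebra.toSubmodule (intSub p K) = Submodule.span ℤ_[p] (Set.range (tBasis p K)) := by
  apply le_antisymm
  · intro a ha
    have h := (mem_intSub_iff p K a).mp ha
    rw [← (tBasis p K).sum_repr a]
    apply Submodule.sum_mem
    intro i _
    let c : ℤ_[p] := ⟨(tBasis p K).repr a i, h i⟩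
    have : (tBasis p K).repr a i • tBasis p K i = c • tBasis p K i := rfl
    rw [this]
    exact Submodule.smul_mem _ _ (Submodule.subset_span ⟨i, rfl⟩)
  · rw [Submodule.span_le]
    rintro _ ⟨i, rfl⟩
    rw [tBasis_apply]
    exact incl_mem p K _

instance intSub_finite : Module.Finite ℤ_[p] (intSub p K) := by
  have h : (Subalgebra.toSubmodule (intSub p K)).FG := by
    rw [intSub_toSubmodule_eq_span]
    exact Submodule.fg_span (Set.finite_range _)
  exact Module.Finite.iff_fg.mpr h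

lemma algebraMap_intSub_p :
    ((algebraMap ℤ_[p] (intSub p K) (p : ℤ_[p]) : intSub p K) : ℚ_[p] ⊗[ℚ] K) =
      (p : ℚ_[p]) • (1 : ℚ_[p] ⊗[ℚ] K) := by
  rw [map_natCast]
  simp [Algebra.smul_def]

theorem intSub_isLocalization :
    IsLocalization.Away (algebraMap ℤ_[p] (intSub p K) (p : ℤ_[p])) (ℚ_[p] ⊗[ℚ] K) := by
  have hunit : IsUnit ((p : ℚ_[p]) • (1 : ℚ_[p] ⊗[ℚ] K)) := by
    rw [← Algebra.algebraMap_eq_smul_one]
    exact (IsUnit.mk0 _ (p_ne_zero_padic p)).map (algebraMap ℚ_[p] (ℚ_[p] ⊗[ℚ] K))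
  rw [IsLocalization.Away, isLocalization_iff]
  refine ⟨?_, ?_, ?_⟩
  · rintro ⟨_, n, rfl⟩
    rw [map_pow]
    apply IsUnit.pow
    change IsUnit ((algebraMap ℤ_[p] (intSub p K) (p : ℤ_[p]) : intSub p K) : ℚ_[p] ⊗[ℚ] K)
    rw [algebraMap_intSub_p]
    exact hunit
  · intro a
    obtain ⟨N, hN⟩ := exists_pow_smul_mem p K a
    refine ⟨(⟨_, hN⟩, ⟨_, N, rfl⟩), ?_⟩
    change a * ((algebraMap ℤ_[p] (intSub p K) (p : ℤ_[p]) ^ N : intSub p K) : ℚ_[p] ⊗[ℚ] K) =
      (p : ℚ_[p]) ^ N • a
    rw [Subalgebra.coe_pow, algebraMap_intSub_p, smul_pow, one_pow, mul_smul_comm, mul_one]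
  · intro x y hxy
    refine ⟨1, ?_⟩
    have : x = y := Subtype.ext hxy
    rw [this]

theorem placeHyp : PlaceHyp (p : ℤ_[p]) (ℚ_[p] ⊗[ℚ] K) (intMap p K) (p : 𝓞 K) where
  mem_max := by
    rw [PadicInt.maximalIdeal_eq_span_p]
    exact Ideal.mem_span_singleton_self _
  loc := intSub_isLocalization p K
  inj := Subtype.val_injective
  q_ne := by exact_mod_cast hp.1.ne_zero
  map_q := by rw [map_natCast, map_natCast]
  h4 := by
    intro x hx
    rw [Ideal.mem_span_singleton'] at hx
    obtain ⟨r', hr'⟩ := hx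
    have h1 : incl p K x = (p : ℚ_[p]) • (r' : ℚ_[p] ⊗[ℚ] K) := by
      have h2 := congrArg (fun z : intSub p K => (z : ℚ_[p] ⊗[ℚ] K)) hr'
      simp only [Subalgebra.coe_mul, intMap_coe] at h2
      rw [← h2, map_natCast, Algebra.smul_def, map_natCast, mul_comm]
    obtain ⟨y, hy⟩ := dvd_of_incl_eq p K x r' r'.2 h1
    rw [Ideal.mem_span_singleton']
    exact ⟨y, by rw [hy, mul_comm]⟩
  h5 := by
    intro r
    obtain ⟨y, r', hr', h⟩ := exists_sub_incl_eq p K r r.2
    refine ⟨y, ?_⟩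
    rw [Ideal.mem_span_singleton']
    refine ⟨⟨r', hr'⟩, ?_⟩
    apply Subtype.ext
    simp only [Subalgebra.coe_mul, Subalgebra.coe_sub, intMap_coe]
    rw [h, map_natCast, Algebra.smul_def, map_natCast, mul_comm]


/-! ### The place of `𝓞 K` attached to a prime of `ℚ_p ⊗ K` -/

/-- The place of `K` (a prime of `𝓞 K` above `p`) attached to an ideal of `ℚ_p ⊗ K`. -/
def placeOf (𝔐 : Ideal (ℚ_[p] ⊗[ℚ] K)) : Ideal (𝓞 K) := _root_.Fermat.Agent.S55.CFT.H80.placeIdeal (intMap p K) 𝔐

theorem placeOf_isPrime (𝔐 : Ideal (ℚ_[p] ⊗[ℚ] K)) [𝔐.IsPrime] : (placeOf p K 𝔐).IsPrime :=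
  (placeHyp p K).placeIdeal_isPrime 𝔐

theorem mem_placeOf (𝔐 : Ideal (ℚ_[p] ⊗[ℚ] K)) [𝔐.IsPrime] : (p : 𝓞 K) ∈ placeOf p K 𝔐 :=
  (placeHyp p K).mem_placeIdeal 𝔐

theorem placeOf_injective (𝔐₁ 𝔐₂ : Ideal (ℚ_[p] ⊗[ℚ] K)) [𝔐₁.IsPrime] [𝔐₂.IsPrime]
    (h : placeOf p K 𝔐₁ = placeOf p K 𝔐₂) : 𝔐₁ = 𝔐₂ :=
  (placeHyp p K).placeIdeal_injective 𝔐₁ 𝔐₂ h

instance semiLocal_isArtinianRing : IsArtinianRing (ℚ_[p] ⊗[ℚ] K) :=
  IsArtinianRing.of_finite ℚ_[p] _

theorem placeOf_surjective (v : Ideal (𝓞 K)) [v.IsPrime] (hv : (p : 𝓞 K) ∈ v) :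
    ∃ 𝔐 : Ideal (ℚ_[p] ⊗[ℚ] K), 𝔐.IsMaximal ∧ placeOf p K 𝔐 = v := by
  obtain ⟨𝔐, h𝔐, h⟩ := (placeHyp p K).placeIdeal_surjective v hv
  exact ⟨𝔐, IsArtinianRing.isMaximal_of_isPrime 𝔐, h⟩

/-! ### Functoriality in `K ⊆ L` -/

variable (L : Type) [Field L] [NumberField L] [Algebra K L]

/-- The base change `ℚ_p ⊗ K → ℚ_p ⊗ L`. -/
def baseMap : ℚ_[p] ⊗[ℚ] K →ₐ[ℚ_[p]] ℚ_[p] ⊗[ℚ] L :=
  Algebra.TensorProduct.map (AlgHom.id ℚ_[p] ℚ_[p]) (algebraMap K L).toRatAlgHom

lemma baseMap_incl (x : 𝓞 K) :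
    baseMap p K L (incl p K x) = incl p L (algebraMap (𝓞 K) (𝓞 L) x) := by
  rw [incl_apply, incl_apply, baseMap, Algebra.TensorProduct.map_tmul]
  rfl

lemma baseMap_mem (r : ℚ_[p] ⊗[ℚ] K) (hr : r ∈ intSub p K) : baseMap p K L r ∈ intSub p L := by
  have hr' : r ∈ Submodule.span ℤ_[p] (Set.range (incl p K)) := by
    rw [← intSub_toSubmodule]
    exact hr
  refine Submodule.span_induction (p := fun r _ => baseMap p K L r ∈ intSub p L)
    ?_ ?_ ?_ ?_ hr'
  · rintro _ ⟨x, rfl⟩
    rw [baseMap_incl]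
    exact incl_mem p L _
  · rw [map_zero]
    exact Subalgebra.zero_mem _
  · intro a b _ _ ha hb
    rw [map_add]
    exact Subalgebra.add_mem _ ha hb
  · intro c a _ ha
    rw [coe_smul_eq, map_smul, ← coe_smul_eq]
    exact Subalgebra.smul_mem _ ha c

/-- The restriction `intSub p K → intSub p L` of the base change map. -/
def intBase : intSub p K →+* intSub p L :=
  ((baseMap p K L).toRingHom.comp (intSub p K).val.toRingHom).codRestrict (intSub p L)
    (fun r => baseMap_mem p K L r r.2)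

lemma intBase_coe (r : intSub p K) :
    ((intBase p K L r : intSub p L) : ℚ_[p] ⊗[ℚ] L) = baseMap p K L r := rfl

lemma intBase_isIntegral : (intBase p K L).IsIntegral := by
  apply RingHom.IsIntegral.tower_top (algebraMap ℤ_[p] (intSub p K)) (intBase p K L)
  have h : (intBase p K L).comp (algebraMap ℤ_[p] (intSub p K)) =
      algebraMap ℤ_[p] (intSub p L) := by
    ext c
    rw [RingHom.comp_apply, intBase_coe]
    change baseMap p K L (algebraMap ℤ_[p] (ℚ_[p] ⊗[ℚ] K) c) = algebraMap ℤ_[p] (ℚ_[p] ⊗[ℚ] L) c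
    rw [IsScalarTower.algebraMap_apply ℤ_[p] ℚ_[p] (ℚ_[p] ⊗[ℚ] K),
      IsScalarTower.algebraMap_apply ℤ_[p] ℚ_[p] (ℚ_[p] ⊗[ℚ] L), AlgHom.commutes]
  rw [h]
  exact algebraMap_isIntegral_iff.mpr inferInstance

/-- Functoriality of the place map: the place of `comap 𝔐` is the trace on `𝓞 K` of the place
of `𝔐`. -/
theorem placeOf_comap (𝔐 : Ideal (ℚ_[p] ⊗[ℚ] L)) [𝔐.IsPrime] :
    placeOf p K (𝔐.comap (baseMap p K L)) =
      (placeOf p L 𝔐).comap (algebraMap (𝓞 K) (𝓞 L)) := by
  have h := placeIdeal_comap (O := ℤ_[p]) (φ := intMap p K) (intMap p L) (intBase p K L)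
    (intBase_isIntegral p K L) (baseMap p K L).toRingHom (algebraMap (𝓞 K) (𝓞 L))
    (by ext r; rfl)
    (by
      ext x
      change baseMap p K L (incl p K x) = incl p L (algebraMap (𝓞 K) (𝓞 L) x)
      exact baseMap_incl p K L x) 𝔐
  exact h

end Fermat.Agent.S55.CFT.H80

end
end
-- ==== END Fermat.Agent.S55.CFT.H80_PlacesInt
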