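-- GENERATED (merged mirror, NOTES/tools/trim/merge3_helper67.py): 9 modules of the originals, bodies verbatim.
import Mathlib
import Fermat.Agent.Zm.S56_L02_002
import Fermat.Agent.Zm.S56_L02_001
import Fermat.Agent.Zm.S56_L02_003

-- ==== BEGIN Fermat.Agent.S55.CFT.H58_Layer
section

/-!
# CFT (helper58): the layer lemma

For a normal subgroup `N` of `G` with finite cyclic quotient and a `G`-module `A` with
`H¹(N, A) = 0`:
`#H²(G, A)` divides `[A^G : N_{G/N} A^N] · #H²(N, A)` (`card_H2_dvd`).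

The index is given in a flexible form: an additive map `ψ : P → A` with image `A^G` and an
additive map `π : P → Q` to a finite group `Q` such that `ψ (ker π)` consists of "norms", i.e.
of sums `∑ x, f x` of `G`-invariant functions `f : G ⧸ N → A` (such an `f` is `g N ↦ g a` for an
`N`-invariant `a`).

Everything is stated for a generic commutative ring `k`.
-/

set_option autoImplicit false
set_option linter.unusedSectionVars false

noncomputable section

namespace Fermat.Agent.S55.CFT.H58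

open CategoryTheory CategoryTheory.Limits groupCohomology Rep

/-! ## Counting lemmas -/

section Counting

variable {X₁ X₂ X₃ : Type*} [AddCommGroup X₁] [AddCommGroup X₂] [AddCommGroup X₃]

/-- If `X₁ → X₂ → X₃` is exact at `X₂` with `X₁`, `X₃` finite, then `X₂` is finite and its
cardinality divides `#X₁ · #X₃`. -/
lemma card_dvd_of_exact_add (f : X₁ →+ X₂) (g : X₂ →+ X₃)
    (h : ∀ x, g x = 0 → ∃ y, f y = x) [Finite X₁] [Finite X₃] :
    Finite X₂ ∧ Nat.card X₂ ∣ Nat.card X₁ * Nat.card X₃ := by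
  have hle : g.ker ≤ f.range := fun x hx => h x hx
  have hfin1 : Finite g.ker := by
    have : Finite f.range := Finite.of_surjective f.rangeRestrict f.rangeRestrict_surjective
    exact Finite.of_injective (AddSubgroup.inclusion hle) (AddSubgroup.inclusion_injective hle)
  have e : (X₂ ⧸ g.ker) ≃+ g.range := QuotientAddGroup.quotientKerEquivRange g
  have hfin2 : Finite (X₂ ⧸ g.ker) := Finite.of_equiv _ e.symm.toEquiv
  have hfin : Finite X₂ := Finite.of_addSubgroup_quotient g.ker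
  refine ⟨hfin, ?_⟩
  rw [AddSubgroup.card_eq_card_quotient_mul_card_addSubgroup g.ker, mul_comm]
  apply Nat.mul_dvd_mul
  · exact (AddSubgroup.card_dvd_of_le hle).trans (AddSubgroup.card_range_dvd f)
  · rw [Nat.card_congr e.toEquiv]
    exact AddSubgroup.card_addSubgroup_dvd_card g.range

variable {M H Q : Type*} [AddCommGroup M] [AddCommGroup H] [AddCommGroup Q]

/-- If `Φ : M → H` is onto and `ker π ≤ ker Φ` for `π : M → Q` with `Q` finite, then `H` is
finite and `#H` divides `#Q`. -/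
lemma card_dvd_of_surjective_of_ker_le (Φ : M →+ H) (π : M →+ Q) (hΦ : Function.Surjective Φ)
    (hker : ∀ a, π a = 0 → Φ a = 0) [Finite Q] :
    Finite H ∧ Nat.card H ∣ Nat.card Q := by
  have hle : π.ker ≤ Φ.ker := fun a ha => hker a ha
  let Ψ : M ⧸ π.ker →+ H := QuotientAddGroup.lift π.ker Φ hle
  have hΨ : Function.Surjective Ψ := by
    intro y
    obtain ⟨a, rfl⟩ := hΦ y
    exact ⟨(a : M ⧸ π.ker), rfl⟩
  have e : (M ⧸ π.ker) ≃+ π.range := QuotientAddGroup.quotientKerEquivRange π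
  have hfin2 : Finite (M ⧸ π.ker) := Finite.of_equiv _ e.symm.toEquiv
  have hfin : Finite H := Finite.of_surjective Ψ hΨ
  refine ⟨hfin, ?_⟩
  have h1 : Nat.card H ∣ Nat.card (M ⧸ π.ker) := AddSubgroup.card_dvd_of_surjective Ψ hΨ
  refine h1.trans ?_
  rw [Nat.card_congr e.toEquiv]
  exact AddSubgroup.card_addSubgroup_dvd_card π.range

end Counting

/-! ## The layer lemma -/

section Layer

variable {k : Type} [CommRing k] {G : Type} [Group G]
variable (A : Rep.{0} k G) (N : Subgroup G) [N.Normal] [Fintype (G ⧸ N)]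

/-- The connecting map of `0 → Ker → Fun(G ⧸ N, A) → A → 0` kills the sums of invariant
functions. -/
lemma delta_sum_eq_zero (a : A.ρ.invariants) (f : G ⧸ N → A.V)
    (hf : ∀ g, funRep A (G ⧸ N) g f = f) (ha : (a : A.V) = ∑ x, f x) :
    (δ (shortExact_two A N) 0 1 rfl).hom ((H0Iso A).inv.hom a) = 0 := by
  have h0 : (ShortComplex.mk (inclK A N) (tauF A (G ⧸ N)) (inclK_tauF A N)).f.hom ∘
      (0 : G → (KerObj A N).V) = d₀₁ (FunObj A (G ⧸ N)) f := by
    funext g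
    show (0 : G ⧸ N → A.V) = funRep A (G ⧸ N) g f - f
    rw [hf g, sub_self]
  have := δ₀_apply (shortExact_two A N) a f (by rw [ha]; rfl) 0 h0
  refine this.trans ?_
  have h1 : (⟨0, mem_cocycles₁_of_comp_eq_d₀₁ (shortExact_two A N) h0⟩ :
      cocycles₁ (KerObj A N)) = 0 := rfl
  rw [h1, map_zero]

/-- The map `A^G → H¹(G, Ker)` (connecting map), as an additive map. -/
def deltaInv : A.ρ.invariants →+ groupCohomology (KerObj A N) 1 :=
  (δ (shortExact_two A N) 0 1 rfl).hom.toAddMonoidHom.comp (H0Iso A).inv.hom.toAddMonoidHom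

lemma deltaInv_surjective (h1 : IsZero (groupCohomology (res N.subtype A) 1)) :
    Function.Surjective (deltaInv A N) := by
  have hepi : Epi (δ (shortExact_two A N) 0 1 rfl) :=
    epi_δ_of_isZero (shortExact_two A N) 0 (isZero_funObj A N 1 h1)
  have hsurj : Function.Surjective (δ (shortExact_two A N) 0 1 rfl).hom :=
    (ModuleCat.epi_iff_surjective _).1 hepi
  intro y
  obtain ⟨x, rfl⟩ := hsurj y
  refine ⟨(H0Iso A).hom.hom x, ?_⟩
  show (δ (shortExact_two A N) 0 1 rfl).hom ((H0Iso A).inv.hom ((H0Iso A).hom.hom x)) = _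
  have : (H0Iso A).inv.hom ((H0Iso A).hom.hom x) = x := by
    have := congrArg (fun φ => φ.hom x) (H0Iso A).hom_inv_id
    simp
  rw [this]

/-- `H¹(G, Ker)` is a quotient of `A^G` modulo norms: if `ψ : P → A` parametrises the invariants
and `π : P → Q` is a map to a finite group whose kernel maps to norms, then `#H¹(G, Ker)`
divides `#Q`. -/
theorem card_H1_kerObj_dvd (h1 : IsZero (groupCohomology (res N.subtype A) 1))
    (P : Type) [AddCommGroup P] (ψ : P →+ A.V) (hψ : ∀ u g, A.ρ g (ψ u) = ψ u)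
    (hψs : ∀ a : A.V, (∀ g, A.ρ g a = a) → ∃ u, ψ u = a)
    (Q : Type) [AddCommGroup Q] [Finite Q] (π : P →+ Q)
    (hπ : ∀ u : P, π u = 0 →
      ∃ f : G ⧸ N → A.V, (∀ g, funRep A (G ⧸ N) g f = f) ∧ ψ u = ∑ x, f x) :
    Finite (groupCohomology (KerObj A N) 1) ∧
      Nat.card (groupCohomology (KerObj A N) 1) ∣ Nat.card Q := by
  let ψ' : P →+ A.ρ.invariants :=
    { toFun := fun u => ⟨ψ u, fun g => hψ u g⟩
      map_zero' := Subtype.ext (map_zero ψ)
      map_add' := fun u v => Subtype.ext (map_add ψ u v) }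
  have hψ' : Function.Surjective ψ' := by
    intro a
    obtain ⟨u, hu⟩ := hψs a.1 (fun g => a.2 g)
    exact ⟨u, Subtype.ext hu⟩
  refine card_dvd_of_surjective_of_ker_le ((deltaInv A N).comp ψ') π
    ((deltaInv_surjective A N h1).comp hψ') ?_
  intro u hu
  obtain ⟨f, hf, hfa⟩ := hπ u hu
  exact delta_sum_eq_zero A N (ψ' u) f hf hfa

/-- **Layer lemma**: for `N` normal in `G` with finite cyclic quotient and `H¹(N, A) = 0`,
`#H²(G, A)` divides `#Q · #H²(N, A)`, where `Q` is a finite quotient of (a group `P` mapping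
onto) `A^G` by a subgroup of norms from `N`-invariants. -/
theorem card_H2_dvd (c : G ⧸ N) (hc : ∀ x, x ∈ Subgroup.zpowers c)
    (h1 : IsZero (groupCohomology (res N.subtype A) 1))
    [Finite (groupCohomology (res N.subtype A) 2)]
    (P : Type) [AddCommGroup P] (ψ : P →+ A.V) (hψ : ∀ u g, A.ρ g (ψ u) = ψ u)
    (hψs : ∀ a : A.V, (∀ g, A.ρ g a = a) → ∃ u, ψ u = a)
    (Q : Type) [AddCommGroup Q] [Finite Q] (π : P →+ Q)
    (hπ : ∀ u : P, π u = 0 →
      ∃ f : G ⧸ N → A.V, (∀ g, funRep A (G ⧸ N) g f = f) ∧ ψ u = ∑ x, f x) :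
    Finite (groupCohomology A 2) ∧
      Nat.card (groupCohomology A 2) ∣
        Nat.card Q * Nat.card (groupCohomology (res N.subtype A) 2) := by
  obtain ⟨hfinZ, hcardZ⟩ := card_H1_kerObj_dvd A N h1 P ψ hψ hψs Q π hπ
  have e : groupCohomology (FunObj A (G ⧸ N)) 2 ≃ₗ[k] groupCohomology (res N.subtype A) 2 :=
    (funObjShapiro A N 2).toLinearEquiv
  have hfinB : Finite (groupCohomology (FunObj A (G ⧸ N)) 2) := Finite.of_equiv _ e.symm.toEquiv
  have hex := mapShortComplex₁_exact (shortExact_one A N c hc) (i := 1) (j := 2) rfl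
  rw [ShortComplex.moduleCat_exact_iff] at hex
  have hX1 : Finite (mapShortComplex₁ (shortExact_one A N c hc) (i := 1) (j := 2) rfl).X₁ := hfinZ
  have hX3 : Finite (mapShortComplex₁ (shortExact_one A N c hc) (i := 1) (j := 2) rfl).X₃ := hfinB
  obtain ⟨hfin, hcard⟩ := card_dvd_of_exact_add
    (mapShortComplex₁ (shortExact_one A N c hc) (i := 1) (j := 2) rfl).f.hom.toAddMonoidHom
    (mapShortComplex₁ (shortExact_one A N c hc) (i := 1) (j := 2) rfl).g.hom.toAddMonoidHom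
    (fun x hx => hex x hx)
  refine ⟨hfin, hcard.trans ?_⟩
  have hB : Nat.card (groupCohomology (FunObj A (G ⧸ N)) 2) =
      Nat.card (groupCohomology (res N.subtype A) 2) := Nat.card_congr e.toEquiv
  exact Nat.mul_dvd_mul hcardZ (dvd_of_eq hB)

end Layer

end Fermat.Agent.S55.CFT.H58

end
end
-- ==== END Fermat.Agent.S55.CFT.H58_Layer

-- ==== BEGIN Fermat.Agent.S55.CFT.H58_TwinInd
section

/-!
# CFT package TN-1 (twin vanishing), part 3 (helper58): induction

* `index_smul_eq_zero` : if `Hⁿ(S, A) = 0` then `Hⁿ(G, A)` is killed by the index of `S`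
  (Shapiro + the maps `A → Fun(G ⧸ S, A) → A` whose composite is the index);
* `isZero_of_twinHyp_pgroup` : twin vanishing for finite `p`-groups (induction on the order,
  a normal subgroup of index `p`, periodicity);
* `isZero_of_twinHyp`, `twinVanishing_generic` : twin vanishing for finite groups.
-/

set_option autoImplicit false
set_option linter.unusedSectionVars false

noncomputable section

namespace Fermat.Agent.S55.CFT.H58

open CategoryTheory CategoryTheory.Limits groupCohomology Rep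

variable {k : Type} [CommRing k] {G : Type} [Group G]

/-! ## The index kills cohomology -/

lemma iotaF_tauF (A : Rep.{0} k G) (X : Type) [MulAction G X] [Fintype X] :
    iotaF A X ≫ tauF A X = Fintype.card X • 𝟙 A := by
  ext a
  exact tauF_iotaF A X a

lemma functor_map_nsmul (n : ℕ) {A B : Rep.{0} k G} (f : A ⟶ B) (m : ℕ) :
    (functor k G n).map (m • f) = m • (functor k G n).map f := by
  show (HomologicalComplex.homologyFunctor _ _ n).map ((cochainsFunctor k G).map (m • f)) =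
    m • (HomologicalComplex.homologyFunctor _ _ n).map ((cochainsFunctor k G).map f)
  rw [Functor.map_nsmul, Functor.map_nsmul]

/-- If `Hⁿ(S, A) = 0` then `Hⁿ(G, A)` is killed by the index of `S`. -/
lemma card_smul_eq_zero (A : Rep.{0} k G) (S : Subgroup G) [Fintype (G ⧸ S)] (n : ℕ)
    (h : IsZero (groupCohomology (res S.subtype A) n)) (x : groupCohomology A n) :
    Fintype.card (G ⧸ S) • x = 0 := by
  have h0 : IsZero (groupCohomology (FunObj A (G ⧸ S)) n) := isZero_funObj A S n h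
  have h1 : (functor k G n).map (iotaF A (G ⧸ S)) ≫ (functor k G n).map (tauF A (G ⧸ S)) =
      Fintype.card (G ⧸ S) • 𝟙 _ := by
    rw [← Functor.map_comp, iotaF_tauF, functor_map_nsmul, CategoryTheory.Functor.map_id]
  have h2 : (functor k G n).map (iotaF A (G ⧸ S)) = 0 := h0.eq_of_tgt _ _
  rw [h2, zero_comp] at h1
  have h3 := congrArg (fun f => f.hom x) h1
  exact h3.symm

lemma index_smul_eq_zero [Finite G] (A : Rep.{0} k G) (S : Subgroup G) (n : ℕ)
    (h : IsZero (groupCohomology (res S.subtype A) n)) (x : groupCohomology A n) :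
    S.index • x = 0 := by
  let _ : Fintype (G ⧸ S) := Fintype.ofFinite _
  have := card_smul_eq_zero A S n h x
  rwa [← Nat.card_eq_fintype_card, ← Subgroup.index_eq_card] at this

/-! ## The twin hypothesis -/

/-- The twin hypothesis, in homomorphism form: `H¹` and `H²` vanish on every group mapping
injectively to `G`. -/
def TwinHyp (A : Rep.{0} k G) : Prop :=
  ∀ (K : Type) [Group K] (φ : K →* G), Function.Injective φ →
    IsZero (groupCohomology (_root_.Rep.res φ A) 1) ∧ IsZero (groupCohomology (_root_.Rep.res φ A) 2)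

lemma TwinHyp.res {A : Rep.{0} k G} (h : TwinHyp A) {K : Type} [Group K] (φ : K →* G)
    (hφ : Function.Injective φ) : TwinHyp (_root_.Rep.res φ A) :=
  fun L _ ψ hψ => h L (φ.comp ψ) (hφ.comp hψ)

/-! ## `p`-groups -/

/-- Twin vanishing for finite `p`-groups. -/
theorem isZero_of_twinHyp_pgroup (p : ℕ) [Fact p.Prime] :
    ∀ (m : ℕ) (P : Type) [Group P] [Finite P], Nat.card P = m → IsPGroup p P →
      ∀ A : Rep.{0} k P, TwinHyp A → ∀ n, IsZero (groupCohomology A (n + 1)) := by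
  intro m
  induction m using Nat.strong_induction_on with
  | _ m ih =>
    intro P _ _ hcard hP A hA
    have hp : p.Prime := Fact.out
    obtain ⟨e, he⟩ := (IsPGroup.iff_card (p := p) (G := P)).mp hP
    rcases Nat.eq_zero_or_pos e with rfl | hepos
    · -- trivial group
      have : Subsingleton P := by
        rw [pow_zero] at he
        exact (Nat.card_eq_one_iff_unique.mp he).1
      intro n
      exact isZero_groupCohomology_succ_of_subsingleton A n
    · obtain ⟨e', rfl⟩ : ∃ e', e = e' + 1 := ⟨e - 1, by omega⟩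
      -- a subgroup of index `p`
      obtain ⟨N, hN⟩ := Sylow.exists_subgroup_card_pow_prime (G := P) p (n := e')
        (by rw [he]; exact pow_dvd_pow p (Nat.le_succ e'))
      have hidx : N.index = p := by
        have h1 := N.card_mul_index
        rw [hN, he, pow_succ] at h1
        exact Nat.eq_of_mul_eq_mul_left (pow_pos hp.pos e') h1
      have hnorm : N.Normal := by
        apply Subgroup.normal_of_index_eq_minFac_card
        rw [hidx, he, hp.pow_minFac (Nat.succ_ne_zero e')]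
      have hcardQ : Nat.card (P ⧸ N) = p := by rw [← Subgroup.index_eq_card, hidx]
      have hcyc : IsCyclic (P ⧸ N) := isCyclic_of_prime_card hcardQ
      obtain ⟨c, hc⟩ := hcyc.exists_generator
      let _ : Fintype (P ⧸ N) := Fintype.ofFinite _
      -- induction hypothesis for `N`
      have hNzero : ∀ j, IsZero (groupCohomology (Rep.res N.subtype A) (j + 1)) := by
        apply ih (p ^ e') (by rw [← hcard, he]; exact Nat.pow_lt_pow_right hp.one_lt (Nat.lt_succ_self e'))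
          N hN (hP.to_subgroup N) (Rep.res N.subtype A)
        exact hA.res N.subtype N.subtype_injective
      have h12 := hA P (MonoidHom.id P) Function.injective_id
      -- two-step induction
      have key : ∀ n, IsZero (groupCohomology A (n + 1)) ∧ IsZero (groupCohomology A (n + 2)) := by
        intro n
        induction n with
        | zero => exact h12
        | succ n ihn =>
          refine ⟨ihn.2, ?_⟩
          exact isZero_add_two_of_cyclic A N c hc (n + 1) (hNzero (n + 1)) (hNzero (n + 2)) ihn.1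
      exact fun n => (key n).1

/-! ## General finite groups -/

/-- **Twin vanishing** (homomorphism form). -/
theorem isZero_of_twinHyp [Finite G] (A : Rep.{0} k G) (hA : TwinHyp A) (n : ℕ) :
    IsZero (groupCohomology A (n + 1)) := by
  have hx : ∀ x : groupCohomology A (n + 1), x = 0 := by
    intro x
    by_contra hne
    have hord : addOrderOf x ≠ 1 := fun h => hne (AddMonoid.addOrderOf_eq_one_iff.mp h)
    obtain ⟨p, hp, hpd⟩ := Nat.exists_prime_and_dvd hord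
    have : Fact p.Prime := ⟨hp⟩
    let P : Sylow p G := default
    have hPzero : IsZero (groupCohomology (Rep.res (P : Subgroup G).subtype A) (n + 1)) :=
      isZero_of_twinHyp_pgroup p _ ↥(P : Subgroup G) rfl P.isPGroup' _
        (hA.res _ (Subgroup.subtype_injective _)) n
    have h1 := index_smul_eq_zero A (P : Subgroup G) (n + 1) hPzero x
    have h2 : addOrderOf x ∣ (P : Subgroup G).index := addOrderOf_dvd_of_nsmul_eq_zero h1
    exact P.not_dvd_index (hpd.trans h2)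
  have : Subsingleton (groupCohomology A (n + 1)) := ⟨fun a b => (hx a).trans (hx b).symm⟩
  exact ModuleCat.isZero_of_subsingleton _

/-! ## From subgroups to injective homomorphisms -/

lemma isZero_res_of_range {K : Type} [Group K] (A : Rep.{0} k G) (ψ : K →* G)
    (hψ : Function.Injective ψ) (n : ℕ)
    (h : IsZero (groupCohomology (Rep.res ψ.range.subtype A) n)) :
    IsZero (groupCohomology (Rep.res ψ A) n) := by
  refine h.of_iso (mapIso (A := Rep.res ψ.range.subtype A) (B := Rep.res ψ A)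
    (MonoidHom.ofInjective hψ) (LinearEquiv.refl k A.V) (fun g => ?_) n)
  ext a
  show (Rep.res ψ A).ρ g a = (Rep.res ψ.range.subtype A).ρ (MonoidHom.ofInjective hψ g) a
  rfl

/-- The twin hypothesis in subgroup form implies the homomorphism form. -/
lemma twinHyp_of_subgroups (A : Rep.{0} k G)
    (h1 : ∀ H : Subgroup G, Subsingleton (groupCohomology (Rep.res H.subtype A) 1))
    (h2 : ∀ H : Subgroup G, Subsingleton (groupCohomology (Rep.res H.subtype A) 2)) :
    TwinHyp A := by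
  intro K _ φ hφ
  have := h1 φ.range
  have := h2 φ.range
  exact ⟨isZero_res_of_range A φ hφ 1 (ModuleCat.isZero_of_subsingleton _),
    isZero_res_of_range A φ hφ 2 (ModuleCat.isZero_of_subsingleton _)⟩

/-- **Twin vanishing**, subgroup form, for a generic coefficient ring. -/
theorem twinVanishing_generic [Finite G] (A : Rep.{0} k G)
    (h1 : ∀ H : Subgroup G, Subsingleton (groupCohomology (Rep.res H.subtype A) 1))
    (h2 : ∀ H : Subgroup G, Subsingleton (groupCohomology (Rep.res H.subtype A) 2))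
    (H : Subgroup G) (n : ℕ) (hn : 0 < n) :
    Subsingleton (groupCohomology (Rep.res H.subtype A) n) := by
  obtain ⟨m, rfl⟩ : ∃ m, n = m + 1 := ⟨n - 1, by omega⟩
  have hA := twinHyp_of_subgroups A h1 h2
  exact ModuleCat.subsingleton_of_isZero
    (isZero_of_twinHyp (Rep.res H.subtype A) (hA.res H.subtype H.subtype_injective) m)

end Fermat.Agent.S55.CFT.H58

end
end
-- ==== END Fermat.Agent.S55.CFT.H58_TwinInd

-- ==== BEGIN Fermat.Agent.S55.CFT.H80_LVInt
section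

set_option autoImplicit false

open NumberField TensorProduct Module

noncomputable section

namespace Fermat.Agent.S55.CFT.H80

variable (p : ℕ) [hp : Fact p.Prime] (K : Type) [Field K] [NumberField K]

/-- The units of the order `ℤ_p · 𝓞_K` of `ℚ_p ⊗ K`. -/
def unitSub : Subgroup (ℚ_[p] ⊗[ℚ] K)ˣ where
  carrier := {u | (u : ℚ_[p] ⊗[ℚ] K) ∈ intSub p K ∧
    ((u⁻¹ : (ℚ_[p] ⊗[ℚ] K)ˣ) : ℚ_[p] ⊗[ℚ] K) ∈ intSub p K}
  one_mem' := ⟨by simp, by simp⟩
  mul_mem' := fun {a b} ha hb =>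
    ⟨by rw [Units.val_mul]; exact mul_mem ha.1 hb.1,
      by rw [mul_inv_rev, Units.val_mul]; exact mul_mem hb.2 ha.2⟩
  inv_mem' := fun {a} ha => ⟨ha.2, by rw [inv_inv]; exact ha.1⟩

lemma mem_unitSub (u : (ℚ_[p] ⊗[ℚ] K)ˣ) : u ∈ unitSub p K ↔
    (u : ℚ_[p] ⊗[ℚ] K) ∈ intSub p K ∧
      ((u⁻¹ : (ℚ_[p] ⊗[ℚ] K)ˣ) : ℚ_[p] ⊗[ℚ] K) ∈ intSub p K := Iff.rfl

theorem isUnit_one_add (ρ : intSub p K) :
    IsUnit (algebraMap ℤ_[p] (intSub p K) (p : ℤ_[p]) * ρ + 1) := by
  have hmem : algebraMap ℤ_[p] (intSub p K) (p : ℤ_[p]) ∈ (⊥ : Ideal (intSub p K)).jacobson := by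
    unfold Ideal.jacobson
    rw [Ideal.mem_sInf]
    rintro J ⟨-, hJ⟩
    apply algebraMap_mem_of_isMaximal (p : ℤ_[p]) _ J hJ
    rw [PadicInt.maximalIdeal_eq_span_p]
    exact Ideal.subset_span rfl
  exact Ideal.mem_jacobson_bot.mp hmem ρ

theorem exists_unit_one_add (r : ℚ_[p] ⊗[ℚ] K) (hr : r ∈ intSub p K) :
    ∃ v ∈ unitSub p K, (v : ℚ_[p] ⊗[ℚ] K) = 1 + (p : ℚ_[p]) • r := by
  obtain ⟨w, hw⟩ := isUnit_one_add p K ⟨r, hr⟩
  refine ⟨Units.map ((intSub p K).val : intSub p K →* ℚ_[p] ⊗[ℚ] K) w, ⟨?_, ?_⟩, ?_⟩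
  · exact (w : intSub p K).2
  · rw [← map_inv]
    exact ((w⁻¹ : (intSub p K)ˣ) : intSub p K).2
  · change (((w : intSub p K)) : ℚ_[p] ⊗[ℚ] K) = _
    rw [hw]
    change ((algebraMap ℤ_[p] (intSub p K) (p : ℤ_[p]) : intSub p K) : ℚ_[p] ⊗[ℚ] K) * r + 1 = _
    rw [algebraMap_intSub_p, smul_mul_assoc, one_mul, add_comm]

lemma one_tmul_rat_smul (s : ℚ) (x : K) :
    (1 : ℚ_[p]) ⊗ₜ[ℚ] (s • x) = ((s : ℚ) : ℚ_[p]) • ((1 : ℚ_[p]) ⊗ₜ[ℚ] x) := by
  rw [TensorProduct.tmul_smul, TensorProduct.smul_tmul', TensorProduct.smul_tmul', smul_eq_mul,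
    mul_one]
  congr 1
  rw [Algebra.smul_def, mul_one, eq_ratCast]

/-- `K` is dense in `ℚ_p ⊗ K`. -/
theorem exists_approx (x : ℚ_[p] ⊗[ℚ] K) (N : ℕ) :
    ∃ y : K, ∃ r ∈ intSub p K, (1 : ℚ_[p]) ⊗ₜ[ℚ] y - x = (p : ℚ_[p]) ^ N • r := by
  classical
  have hε : (0 : ℝ) < (p : ℝ) ^ (-(N : ℤ)) := zpow_pos (by exact_mod_cast hp.1.pos) _
  choose s hs using fun i => Padic.rat_dense p ((tBasis p K).repr x i) hε
  refine ⟨∑ i, s i • integralBasis K i,
    ∑ i, ((((s i : ℚ) : ℚ_[p]) - (tBasis p K).repr x i) / (p : ℚ_[p]) ^ N) • tBasis p K i, ?_, ?_⟩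
  · rw [mem_intSub_iff]
    intro i
    rw [Basis.repr_sum_self, norm_div, Padic.norm_p_pow, norm_sub_rev]
    rw [div_le_one hε]
    exact (hs i).le
  · rw [Finset.smul_sum, TensorProduct.tmul_sum]
    conv_lhs => rw [← (tBasis p K).sum_repr x]
    rw [← Finset.sum_sub_distrib]
    apply Finset.sum_congr rfl
    intro i _
    rw [one_tmul_rat_smul, smul_smul, mul_div_cancel₀ _ (pow_ne_zero N (p_ne_zero_padic p)),
      sub_smul]
    congr 2
    rw [tBasis, Algebra.TensorProduct.basis_apply]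

/-- The diagonal embedding `Kˣ → (ℚ_p ⊗ K)ˣ`. -/
def diagP : Kˣ →* (ℚ_[p] ⊗[ℚ] K)ˣ :=
  Units.map ((Algebra.TensorProduct.includeRight : K →ₐ[ℚ] ℚ_[p] ⊗[ℚ] K) : K →* ℚ_[p] ⊗[ℚ] K)

lemma diagP_val (y : Kˣ) :
    ((diagP p K y : (ℚ_[p] ⊗[ℚ] K)ˣ) : ℚ_[p] ⊗[ℚ] K) = (1 : ℚ_[p]) ⊗ₜ[ℚ] (y : K) := rfl

instance semiLocal_nontrivial : Nontrivial (ℚ_[p] ⊗[ℚ] K) :=
  (tBasis p K).repr.toEquiv.nontrivial

/-- `(ℚ_p ⊗ K)ˣ = Kˣ · U`. -/
theorem exists_div_mem_unitSub (u : (ℚ_[p] ⊗[ℚ] K)ˣ) :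
    ∃ y : Kˣ, u / diagP p K y ∈ unitSub p K := by
  obtain ⟨N, hN⟩ := exists_pow_smul_mem p K ((u⁻¹ : (ℚ_[p] ⊗[ℚ] K)ˣ) : ℚ_[p] ⊗[ℚ] K)
  obtain ⟨y, r, hr, hyr⟩ := exists_approx p K (u : ℚ_[p] ⊗[ℚ] K) (N + 1)
  obtain ⟨v, hv, hv1⟩ := exists_unit_one_add p K
    (((p : ℚ_[p]) ^ N • ((u⁻¹ : (ℚ_[p] ⊗[ℚ] K)ˣ) : ℚ_[p] ⊗[ℚ] K)) * r) (mul_mem hN hr)
  have hy1 : (1 : ℚ_[p]) ⊗ₜ[ℚ] y = ((u * v : (ℚ_[p] ⊗[ℚ] K)ˣ) : ℚ_[p] ⊗[ℚ] K) := by
    rw [Units.val_mul, hv1, mul_add, mul_one, ← sub_eq_iff_eq_add', hyr, pow_succ, mul_smul,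
      smul_mul_assoc, mul_smul_comm, mul_smul_comm, ← mul_assoc, Units.mul_inv, one_mul,
      smul_comm]
  have hy0 : y ≠ 0 := by
    intro h0
    rw [h0, TensorProduct.tmul_zero] at hy1
    exact (u * v).ne_zero hy1.symm
  refine ⟨Units.mk0 y hy0, ?_⟩
  have h2 : diagP p K (Units.mk0 y hy0) = u * v := by
    apply Units.ext
    rw [diagP_val]
    exact hy1
  rw [h2, div_mul_cancel_left]
  exact inv_mem hv

end Fermat.Agent.S55.CFT.H80

end
end
-- ==== END Fermat.Agent.S55.CFT.H80_LVInt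

-- ==== BEGIN Fermat.Agent.S55.CFT.H80_Places
section

set_option autoImplicit false

open NumberField TensorProduct Module

noncomputable section

namespace Fermat.Agent.S55.CFT.H80

section Generic

variable (p : ℕ) [hp : Fact p.Prime] (K L : Type) [Field K] [NumberField K] [Field L]
  [NumberField L] [Algebra K L]

omit [NumberField K] [NumberField L] in
lemma algebraMap_natCast_mem (v : Ideal (𝓞 K)) (w : Ideal (𝓞 L)) [hw : w.LiesOver v] (n : ℕ) :
    (n : 𝓞 K) ∈ v ↔ (n : 𝓞 L) ∈ w := by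
  rw [Ideal.mem_of_liesOver w v, map_natCast]

/-- The place of `𝔐` lies over the place of `comap 𝔐`. -/
lemma placeOf_liesOver (𝔪 : Ideal (ℚ_[p] ⊗[ℚ] K)) (𝔐 : Ideal (ℚ_[p] ⊗[ℚ] L)) [𝔐.IsPrime]
    (h : 𝔐.comap (baseMap p K L) = 𝔪) : (placeOf p L 𝔐).LiesOver (placeOf p K 𝔪) := by
  constructor
  rw [← h, placeOf_comap]

/-- Every prime of `𝓞 L` over the place of `𝔪` is the place of a maximal ideal over `𝔪`. -/
lemma exists_over_of_liesOver (𝔪 : Ideal (ℚ_[p] ⊗[ℚ] K)) [𝔪.IsPrime] (w : Ideal (𝓞 L))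
    [hw : w.IsPrime] [hwv : w.LiesOver (placeOf p K 𝔪)] :
    ∃ 𝔐 : Ideal (ℚ_[p] ⊗[ℚ] L), 𝔐.IsMaximal ∧ 𝔐.comap (baseMap p K L) = 𝔪 ∧
      placeOf p L 𝔐 = w := by
  have hpw : (p : 𝓞 L) ∈ w :=
    (algebraMap_natCast_mem K L (placeOf p K 𝔪) w p).mp (mem_placeOf p K 𝔪)
  obtain ⟨𝔐, h𝔐, h⟩ := placeOf_surjective p L w hpw
  refine ⟨𝔐, h𝔐, ?_, h⟩
  have := h𝔐.isPrime
  apply placeOf_injective p K
  rw [placeOf_comap, h]
  exact (hwv.over).symm

theorem existsUnique_iff_ncard (𝔪 : MaximalSpectrum (ℚ_[p] ⊗[ℚ] K)) :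
    (∃! 𝔐 : MaximalSpectrum (ℚ_[p] ⊗[ℚ] L),
      𝔐.asIdeal.comap (baseMap p K L) = 𝔪.asIdeal) ↔
      ((placeOf p K 𝔪.asIdeal).primesOver (𝓞 L)).ncard = 1 := by
  have := 𝔪.isMaximal.isPrime
  rw [Set.ncard_eq_one]
  constructor
  · rintro ⟨𝔐₀, h₀, huniq⟩
    have := 𝔐₀.isMaximal.isPrime
    refine ⟨placeOf p L 𝔐₀.asIdeal, ?_⟩
    ext w
    simp only [Set.mem_singleton_iff]
    constructor
    · rintro ⟨hw, hwv⟩
      obtain ⟨𝔐, h𝔐, hc, hpl⟩ := exists_over_of_liesOver p K L 𝔪.asIdeal w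
      have := huniq ⟨𝔐, h𝔐⟩ hc
      rw [← hpl, ← this]
    · rintro rfl
      exact ⟨placeOf_isPrime p L _, placeOf_liesOver p K L _ _ h₀⟩
  · rintro ⟨w₀, hw₀⟩
    have hmem : w₀ ∈ (placeOf p K 𝔪.asIdeal).primesOver (𝓞 L) := by
      rw [hw₀]
      exact Set.mem_singleton _
    obtain ⟨hw, hwv⟩ := hmem
    obtain ⟨𝔐₀, h𝔐₀, hc₀, hpl₀⟩ := exists_over_of_liesOver p K L 𝔪.asIdeal w₀
    refine ⟨⟨𝔐₀, h𝔐₀⟩, hc₀, ?_⟩
    intro 𝔐 hc
    have := 𝔐.isMaximal.isPrime
    have := h𝔐₀.isPrime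
    have h1 : placeOf p L 𝔐.asIdeal ∈ (placeOf p K 𝔪.asIdeal).primesOver (𝓞 L) :=
      ⟨placeOf_isPrime p L _, placeOf_liesOver p K L _ _ hc⟩
    rw [hw₀, Set.mem_singleton_iff] at h1
    apply MaximalSpectrum.ext
    apply placeOf_injective p L
    rw [h1, hpl₀]

end Generic

section Primes

variable (K L : Type) [Field K] [NumberField K] [Field L] [NumberField L] [Algebra K L]

/-- The place of `K` attached to a maximal ideal of `ℚ_q ⊗ K`. -/
def placeQ (q : Nat.Primes) (𝔪 : MaximalSpectrum (SemiLocal K q)) : Ideal (𝓞 K) :=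
  haveI := fact_primes q
  placeOf (q : ℕ) K 𝔪.asIdeal

lemma placeQ_isPrime (q : Nat.Primes) (𝔪 : MaximalSpectrum (SemiLocal K q)) :
    (placeQ K q 𝔪).IsPrime := by
  have := fact_primes q
  have : Ideal.IsPrime (𝔪.asIdeal : Ideal (ℚ_[(q : ℕ)] ⊗[ℚ] K)) := 𝔪.isMaximal.isPrime
  exact placeOf_isPrime (q : ℕ) K 𝔪.asIdeal

lemma placeQ_mem (q : Nat.Primes) (𝔪 : MaximalSpectrum (SemiLocal K q)) :
    ((q : ℕ) : 𝓞 K) ∈ placeQ K q 𝔪 := by
  have := fact_primes q
  have : Ideal.IsPrime (𝔪.asIdeal : Ideal (ℚ_[(q : ℕ)] ⊗[ℚ] K)) := 𝔪.isMaximal.isPrime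
  exact mem_placeOf (q : ℕ) K 𝔪.asIdeal

lemma placeQ_ne_bot (q : Nat.Primes) (𝔪 : MaximalSpectrum (SemiLocal K q)) :
    placeQ K q 𝔪 ≠ ⊥ := by
  intro h
  have h1 := placeQ_mem K q 𝔪
  rw [h, Ideal.mem_bot] at h1
  exact q.2.ne_zero (by exact_mod_cast h1)

lemma placeQ_injective (q : Nat.Primes) (𝔪 𝔪' : MaximalSpectrum (SemiLocal K q))
    (h : placeQ K q 𝔪 = placeQ K q 𝔪') : 𝔪 = 𝔪' := by
  have := fact_primes q
  have : Ideal.IsPrime (𝔪.asIdeal : Ideal (ℚ_[(q : ℕ)] ⊗[ℚ] K)) := 𝔪.isMaximal.isPrime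
  have : Ideal.IsPrime (𝔪'.asIdeal : Ideal (ℚ_[(q : ℕ)] ⊗[ℚ] K)) := 𝔪'.isMaximal.isPrime
  apply MaximalSpectrum.ext
  exact placeOf_injective (q : ℕ) K 𝔪.asIdeal 𝔪'.asIdeal h

lemma placeQ_surjective (q : Nat.Primes) (v : Ideal (𝓞 K)) (hv : v.IsPrime)
    (hq : ((q : ℕ) : 𝓞 K) ∈ v) : ∃ 𝔪 : MaximalSpectrum (SemiLocal K q), placeQ K q 𝔪 = v := by
  have := fact_primes q
  obtain ⟨𝔐, h𝔐, h⟩ := placeOf_surjective (q : ℕ) K v hq
  exact ⟨⟨𝔐, h𝔐⟩, h⟩

lemma placeQ_nonsplit (q : Nat.Primes) (𝔪 : MaximalSpectrum (SemiLocal K q)) :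
    (∃! 𝔐 : MaximalSpectrum (SemiLocal L q),
      𝔐.asIdeal.comap (semiLocalMap K L q) = 𝔪.asIdeal) ↔
      ((placeQ K q 𝔪).primesOver (𝓞 L)).ncard = 1 := by
  have := fact_primes q
  exact existsUnique_iff_ncard (q : ℕ) K L 𝔪

omit [NumberField K] in
lemma prime_unique_of_mem (v : Ideal (𝓞 K)) (hv : v.IsPrime) (q q' : Nat.Primes)
    (h : ((q : ℕ) : 𝓞 K) ∈ v) (h' : ((q' : ℕ) : 𝓞 K) ∈ v) : q = q' := by
  by_contra hne
  have hcop : Nat.Coprime q q' :=
    (Nat.coprime_primes q.2 q'.2).mpr (fun h => hne (Subtype.ext h))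
  obtain ⟨a, b, hab⟩ := Nat.Coprime.isCoprime hcop
  have h1 := congrArg (Int.cast : ℤ → 𝓞 K) hab
  push_cast at h1
  have h2 : (1 : 𝓞 K) ∈ v := by
    rw [← h1]
    exact v.add_mem (v.mul_mem_left _ h) (v.mul_mem_left _ h')
  exact hv.ne_top ((Ideal.eq_top_iff_one v).mpr h2)

end Primes

/-- **PL** (places): the local and the global counts of nonsplit places above `T` agree. -/
theorem stmt_Places : Stmt_Places := by
  intro K L _ _ _ _ _ T
  unfold nonsplitCountLoc nonsplitCount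
  let f : {x : (q : T) × MaximalSpectrum (SemiLocal K q.1) //
      ∃! 𝔐 : MaximalSpectrum (SemiLocal L x.1.1),
        𝔐.asIdeal.comap (semiLocalMap K L x.1.1) = x.2.asIdeal} →
      {v : Ideal (𝓞 K) // v ∈ primesOverT K T ∧ (v.primesOver (𝓞 L)).ncard = 1} :=
    fun x => ⟨placeQ K x.1.1.1 x.1.2,
      ⟨placeQ_isPrime K _ _, placeQ_ne_bot K _ _, x.1.1.1, x.1.1.2, by
        have := placeQ_mem K x.1.1.1 x.1.2
        simpa using this⟩,
      (placeQ_nonsplit K L _ _).mp x.2⟩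
  refine Nat.card_eq_of_bijective f ⟨?_, ?_⟩
  · rintro ⟨⟨⟨q, hq⟩, 𝔪⟩, h⟩ ⟨⟨⟨q', hq'⟩, 𝔪'⟩, h'⟩ hff
    have hv : placeQ K q 𝔪 = placeQ K q' 𝔪' := congrArg Subtype.val hff
    have hqq : q = q' :=
      prime_unique_of_mem K (placeQ K q 𝔪) (placeQ_isPrime K q 𝔪) q q' (placeQ_mem K q 𝔪)
        (hv ▸ placeQ_mem K q' 𝔪')
    subst hqq
    have h𝔪 : 𝔪 = 𝔪' := placeQ_injective K q 𝔪 𝔪' hv
    subst h𝔪
    rfl
  · rintro ⟨v, ⟨hvp, hv0, q, hqT, hqv⟩, hn⟩
    have hqv' : ((q : ℕ) : 𝓞 K) ∈ v := by simpa using hqv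
    obtain ⟨𝔪, h𝔪⟩ := placeQ_surjective K q v hvp hqv'
    refine ⟨⟨⟨⟨q, hqT⟩, 𝔪⟩, (placeQ_nonsplit K L q 𝔪).mpr (by rw [h𝔪]; exact hn)⟩, ?_⟩
    exact Subtype.ext h𝔪

end Fermat.Agent.S55.CFT.H80

end
end
-- ==== END Fermat.Agent.S55.CFT.H80_Places

-- ==== BEGIN Fermat.Agent.S55.CFT.LOC.Basic
section

set_option autoImplicit false
set_option linter.unusedSectionVars false

namespace Fermat.Agent.S55.CFT.LOC

section basic

variable (q : ℕ) [Fact q.Prime] (F : Type) [Field F] [Algebra ℚ_[q] F]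
  [FiniteDimensional ℚ_[q] F]

theorem nrm_def (x : F) : nrm q F x = spectralNorm ℚ_[q] F x := rfl

theorem nrm_nonneg (x : F) : 0 ≤ nrm q F x := spectralNorm_nonneg x

@[simp] theorem nrm_zero : nrm q F 0 = 0 := spectralNorm_zero

@[simp] theorem nrm_one : nrm q F 1 = 1 := spectralNorm_one

theorem nrm_mul (x y : F) : nrm q F (x * y) = nrm q F x * nrm q F y :=
  spectralAlgNorm_mul x y

theorem nrm_eq_zero_iff {x : F} : nrm q F x = 0 ↔ x = 0 := by
  constructor
  · intro h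
    exact eq_zero_of_map_spectralNorm_eq_zero h (Algebra.IsAlgebraic.isAlgebraic x)
  · rintro rfl
    exact nrm_zero q F

theorem nrm_pos {x : F} (hx : x ≠ 0) : 0 < nrm q F x :=
  lt_of_le_of_ne (nrm_nonneg q F x) (fun h => hx ((nrm_eq_zero_iff q F).mp h.symm))

theorem nrm_neg (x : F) : nrm q F (-x) = nrm q F x :=
  spectralNorm_neg (Algebra.IsAlgebraic.isAlgebraic x)

theorem nrm_add_le_max (x y : F) : nrm q F (x + y) ≤ max (nrm q F x) (nrm q F y) :=
  isNonarchimedean_spectralNorm x y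

theorem nrm_sub_le_max (x y : F) : nrm q F (x - y) ≤ max (nrm q F x) (nrm q F y) := by
  rw [sub_eq_add_neg]
  have := nrm_add_le_max q F x (-y)
  rwa [nrm_neg] at this

theorem nrm_sub_comm (x y : F) : nrm q F (x - y) = nrm q F (y - x) := by
  rw [← nrm_neg, neg_sub]

theorem nrm_pow (x : F) (n : ℕ) : nrm q F (x ^ n) = nrm q F x ^ n := by
  induction n with
  | zero => simp
  | succ n ih => rw [pow_succ, nrm_mul, ih, pow_succ]

theorem nrm_inv (x : F) : nrm q F x⁻¹ = (nrm q F x)⁻¹ := by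
  by_cases hx : x = 0
  · subst hx; simp
  · have h := nrm_mul q F x x⁻¹
    rw [mul_inv_cancel₀ hx, nrm_one] at h
    exact eq_inv_of_mul_eq_one_right h.symm

theorem nrm_div (x y : F) : nrm q F (x / y) = nrm q F x / nrm q F y := by
  rw [div_eq_mul_inv, nrm_mul, nrm_inv, div_eq_mul_inv]

theorem nrm_zpow (x : F) (n : ℤ) : nrm q F (x ^ n) = nrm q F x ^ n := by
  cases n with
  | ofNat n => simp [nrm_pow]
  | negSucc n => simp [zpow_negSucc, nrm_inv, nrm_pow]

theorem nrm_algebraMap_padic (a : ℚ_[q]) : nrm q F (algebraMap ℚ_[q] F a) = ‖a‖ :=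
  spectralNorm_extends a

theorem nrm_natCast_q : nrm q F (q : F) = (q : ℝ)⁻¹ := by
  have h : (q : F) = algebraMap ℚ_[q] F (q : ℚ_[q]) := by simp
  rw [h, nrm_algebraMap_padic, Padic.norm_p]

/-- ultrametric: if the absolute values differ, the absolute value of the sum is the max. -/
theorem nrm_add_eq_max_of_ne {x y : F} (h : nrm q F x ≠ nrm q F y) :
    nrm q F (x + y) = max (nrm q F x) (nrm q F y) := by
  wlog hlt : nrm q F x < nrm q F y generalizing x y
  · have hlt' : nrm q F y < nrm q F x := lt_of_le_of_ne (not_lt.mp hlt) (Ne.symm h)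
    rw [add_comm, max_comm]
    exact this (Ne.symm h) hlt'
  rw [max_eq_right hlt.le]
  refine le_antisymm ((nrm_add_le_max q F x y).trans (by rw [max_eq_right hlt.le])) ?_
  have h1 : nrm q F y ≤ max (nrm q F (x + y)) (nrm q F x) := by
    have := nrm_sub_le_max q F (x + y) x
    rwa [add_sub_cancel_left] at this
  rcases le_max_iff.mp h1 with h2 | h2
  · exact h2
  · exact absurd h2 (not_le.mpr hlt)

theorem nrm_one_add_of_lt {x : F} (h : nrm q F x < 1) : nrm q F (1 + x) = 1 := by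
  have := nrm_add_eq_max_of_ne q F (x := 1) (y := x) (by rw [nrm_one]; exact h.ne')
  rw [this, nrm_one, max_eq_left h.le]

end basic

section tower

variable (q : ℕ) [Fact q.Prime] (F E : Type) [Field F] [Field E] [Algebra ℚ_[q] F]
  [Algebra ℚ_[q] E] [Algebra F E] [IsScalarTower ℚ_[q] F E]

theorem nrm_algebraMap (x : F) : nrm q E (algebraMap F E x) = nrm q F x :=
  (spectralNorm.eq_of_tower x).symm

theorem nrm_algEquiv (σ : E ≃ₐ[F] E) (y : E) : nrm q E (σ y) = nrm q E y :=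
  (spectralNorm_eq_of_equiv (σ.restrictScalars ℚ_[q]) y).symm

variable [FiniteDimensional ℚ_[q] F] [FiniteDimensional ℚ_[q] E] [FiniteDimensional F E]
  [IsGalois F E]

/-- The absolute value of the norm. -/
theorem nrm_norm (y : E) :
    nrm q F (Algebra.norm F y) = nrm q E y ^ Module.finrank F E := by
  classical
  rw [← nrm_algebraMap q F E, Algebra.norm_eq_prod_automorphisms]
  have hprod : ∀ s : Finset (E ≃ₐ[F] E),
      nrm q E (∏ σ ∈ s, σ y) = nrm q E y ^ s.card := by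
    intro s
    induction s using Finset.induction_on with
    | empty => simp
    | insert a s ha ih =>
      rw [Finset.prod_insert ha, nrm_mul, ih, nrm_algEquiv, Finset.card_insert_of_notMem ha,
        pow_succ, mul_comm]
  rw [hprod, Finset.card_univ, ← Nat.card_eq_fintype_card, IsGalois.card_aut_eq_finrank]

end tower

end Fermat.Agent.S55.CFT.LOC

end
-- ==== END Fermat.Agent.S55.CFT.LOC.Basic

-- ==== BEGIN Fermat.Agent.S55.CFT.LOC.Defs_TQL
section

set_option autoImplicit false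

noncomputable section

namespace Fermat.Agent.S55.CFT.LOC

/-- **TQL-V** (valuations): `F₀/ℚ_p` finite of degree `< p`, `E₁/ℚ_p` unramified Galois of
degree `p`, `L/F₀` finite containing `E₁`.  Then `p` is not a norm from `L` to `F₀`.
(Route: `N_{F₀/ℚ_p}(N_{L/F₀} y) = N_{E₁/ℚ_p}(N_{L/E₁} y)` (`Algebra.norm_norm`, twice);
left side `= p^d`, `d = [F₀:ℚ_p]`; `|N_{E₁/ℚ_p} z| = |z|^p` (`H20.stmt_NrmNormGen`) and
`|z| = |x|`, `x ∈ ℚ_p` (`IsUnram`), `|x| = p^m`; so `p^{-d} = p^{p m}`, `p ∣ d`, `0 < d < p`.) -/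
def Stmt_TQL_Val : Prop :=
  ∀ (p : ℕ) [Fact p.Prime] (F₀ E₁ : IntermediateField ℚ_[p] (PadicAlgCl p))
    (L : IntermediateField ↥F₀ (PadicAlgCl p)),
    FiniteDimensional ℚ_[p] ↥F₀ → Module.finrank ℚ_[p] ↥F₀ < p →
    FiniteDimensional ℚ_[p] ↥E₁ → IsGalois ℚ_[p] ↥E₁ → Module.finrank ℚ_[p] ↥E₁ = p →
    IsUnram p ℚ_[p] ↥E₁ → FiniteDimensional ↥F₀ ↥L →
    (∀ x : PadicAlgCl p, x ∈ E₁ → x ∈ L) →
    ∀ y : ↥L, Algebra.norm ↥F₀ y ≠ algebraMap ℚ_[p] ↥F₀ (p : ℚ_[p])

/-- **TQL-U** (the unramified character of degree `p` on `Gal(ℚ̄_p/ℚ_p)`): there are an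
unramified Galois extension `E₁/ℚ_p` of degree `p` inside `PadicAlgCl p` and a character
`u : Gal(Ω/ℚ_p) → ℤ/p` with kernel `Gal(Ω/E₁)`.
(`H25.stmt_UnramExists` with `F = ℚ_p`, `n = p` (`PadicAlgCl p = AlgebraicClosure ℚ_[p]`);
`Gal(E₁/ℚ_p)` is cyclic of order `p`, so `≅ ℤ/p`; compose with `AlgEquiv.restrictNormalHom E₁`,
whose kernel is `E₁.fixingSubgroup`;  cf. `H41.stmt_CharKer` for the finite-level analogue.) -/
def Stmt_TQL_Unr : Prop :=
  ∀ (p : ℕ) [Fact p.Prime],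
    ∃ (E₁ : IntermediateField ℚ_[p] (PadicAlgCl p))
      (u : (PadicAlgCl p ≃ₐ[ℚ_[p]] PadicAlgCl p) →* Multiplicative (ZMod p)),
      FiniteDimensional ℚ_[p] ↥E₁ ∧ IsGalois ℚ_[p] ↥E₁ ∧ Module.finrank ℚ_[p] ↥E₁ = p ∧
      IsUnram p ℚ_[p] ↥E₁ ∧ u.ker = E₁.fixingSubgroup

end Fermat.Agent.S55.CFT.LOC

end

end
-- ==== END Fermat.Agent.S55.CFT.LOC.Defs_TQL

-- ==== BEGIN Fermat.Agent.S55.CFT.LOC.H72_H2DimA
section

/-!
# S55/E4 island LOC, package L5-H2b (helper72), part A: the finite level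

For a finite Galois extension `L/F` with a primitive `p`-th root of unity `ζ ∈ F` and two
2-cocycles `cb`, `cb'` of `G = Gal(L/F)` with values in `𝔽_p` (trivial action): if the `p`-torsion
of `H²(G, Lˣ)` is cyclic (`BrauerProp`), there are `a`, `b ∈ ℤ`, not both divisible by `p`,
`U : G → Lˣ` and `v ∈ Lˣ` with `d U = ζ ^ (a • cb + b • cb')` and `U(g) ^ p = g v / v`.
-/

set_option autoImplicit false
set_option linter.unusedSectionVars false
set_option linter.style.haveILetI false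

noncomputable section

namespace Fermat.Agent.S55.CFT.LOC.H72

open groupCohomology

section finlevel

variable (F L : Type) [Field F] [Field L] [Algebra F L]
variable {p : ℕ} [Fact p.Prime]

/-- The `p`-torsion of `H²(Gal(L/F), Lˣ)` is cyclic. -/
def BrauerProp (p : ℕ) : Prop :=
  ∀ x y : groupCohomology (unitsRep F L) 2, (p : ℤ) • x = 0 → (p : ℤ) • y = 0 →
    ∃ a b : ℤ, (¬ (p : ℤ) ∣ a ∨ ¬ (p : ℤ) ∣ b) ∧ a • x + b • y = 0

variable {F}

/-- `ζ ^ j` as a unit of `L`. -/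
def zU (ζ : F) (hζ0 : ζ ≠ 0) (j : ZMod p) : Lˣ :=
  Units.mk0 (algebraMap F L ζ ^ j.val)
    (pow_ne_zero _ (fun h => hζ0 ((map_eq_zero_iff _ (algebraMap F L).injective).1 h)))

lemma coe_zU (ζ : F) (hζ0 : ζ ≠ 0) (j : ZMod p) :
    ((zU L ζ hζ0 j : Lˣ) : L) = algebraMap F L ζ ^ j.val := rfl

lemma zU_add {ζ : F} (hζ : IsPrimitiveRoot ζ p) (hζ0 : ζ ≠ 0) (i j : ZMod p) :
    zU L ζ hζ0 (i + j) = zU L ζ hζ0 i * zU L ζ hζ0 j := by
  apply Units.ext
  show algebraMap F L ζ ^ (i + j).val = algebraMap F L ζ ^ i.val * algebraMap F L ζ ^ j.val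
  rw [← pow_add, ← map_pow, ← map_pow, ZMod.val_add]
  congr 1
  have h : ζ ^ ((i.val + j.val) % p) = ζ ^ ((i.val + j.val) % orderOf ζ) := by
    rw [← hζ.eq_orderOf]
  rw [h, pow_mod_orderOf]

lemma zU_zero (ζ : F) (hζ0 : ζ ≠ 0) : zU L ζ hζ0 (0 : ZMod p) = 1 := by
  apply Units.ext
  show algebraMap F L ζ ^ (0 : ZMod p).val = 1
  rw [ZMod.val_zero, pow_zero]

lemma zU_pow {ζ : F} (hζ : IsPrimitiveRoot ζ p) (hζ0 : ζ ≠ 0) (j : ZMod p) :
    zU L ζ hζ0 j ^ p = 1 := by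
  apply Units.ext
  show (algebraMap F L ζ ^ j.val) ^ p = 1
  rw [← pow_mul, mul_comm, pow_mul, ← map_pow, hζ.pow_eq_one, map_one, one_pow]

lemma smul_zU (ζ : F) (hζ0 : ζ ≠ 0) (g : L ≃ₐ[F] L) (j : ZMod p) :
    g • zU L ζ hζ0 j = zU L ζ hζ0 j := by
  apply Units.ext
  show g (algebraMap F L ζ ^ j.val) = algebraMap F L ζ ^ j.val
  rw [map_pow, g.commutes]

/-- `j ↦ ζ ^ j` as an additive map. -/
def zUadd {ζ : F} (hζ : IsPrimitiveRoot ζ p) (hζ0 : ζ ≠ 0) : ZMod p →+ Additive Lˣ where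
  toFun j := Additive.ofMul (zU L ζ hζ0 j)
  map_zero' := congrArg Additive.ofMul (zU_zero L ζ hζ0)
  map_add' i j := congrArg Additive.ofMul (zU_add L hζ hζ0 i j)

lemma zU_zsmul {ζ : F} (hζ : IsPrimitiveRoot ζ p) (hζ0 : ζ ≠ 0) (a : ℤ) (j : ZMod p) :
    zU L ζ hζ0 (a • j) = zU L ζ hζ0 j ^ a :=
  congrArg Additive.toMul (map_zsmul (zUadd L hζ hζ0) a j)

/-- The multiplicative 2-cocycle `ζ ^ cb`. -/
lemma isMulCocycle₂_zU {ζ : F} (hζ : IsPrimitiveRoot ζ p) (hζ0 : ζ ≠ 0)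
    (cb : (L ≃ₐ[F] L) × (L ≃ₐ[F] L) → ZMod p)
    (hcb : ∀ g h j : L ≃ₐ[F] L, cb (g * h, j) + cb (g, h) = cb (h, j) + cb (g, h * j)) :
    IsMulCocycle₂ (fun t => zU L ζ hζ0 (cb t)) := by
  intro g h j
  show zU L ζ hζ0 (cb (g * h, j)) * zU L ζ hζ0 (cb (g, h)) =
    g • zU L ζ hζ0 (cb (h, j)) * zU L ζ hζ0 (cb (g, h * j))
  rw [smul_zU, ← zU_add L hζ, ← zU_add L hζ, hcb]

/-- The additive cocycle `ζ ^ cb` as an element of `Z²(G, Lˣ)`. -/
def zCoc {ζ : F} (hζ0 : ζ ≠ 0) (cb : (L ≃ₐ[F] L) × (L ≃ₐ[F] L) → ZMod p)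
    (he : IsMulCocycle₂ (fun t => zU L ζ hζ0 (cb t))) : cocycles₂ (unitsRep F L) :=
  ⟨fun t => Additive.ofMul (zU L ζ hζ0 (cb t)), (cocyclesOfIsMulCocycle₂ he).2⟩

/-- The class of the cocycle `ζ ^ cb` is killed by `p`. -/
lemma zsmul_H2π_zU {ζ : F} (hζ : IsPrimitiveRoot ζ p) (hζ0 : ζ ≠ 0)
    (cb : (L ≃ₐ[F] L) × (L ≃ₐ[F] L) → ZMod p)
    (he : IsMulCocycle₂ (fun t => zU L ζ hζ0 (cb t))) :
    (p : ℤ) • H2π (unitsRep F L) (zCoc L hζ0 cb he) = 0 := by
  have h0 : (p : ℤ) • zCoc L hζ0 cb he = 0 := by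
    apply Subtype.ext
    funext t
    show (p : ℤ) • Additive.ofMul (zU L ζ hζ0 (cb t)) = 0
    rw [← ofMul_zpow, zpow_natCast, zU_pow L hζ hζ0]
    rfl
  have h1 : H2π (unitsRep F L) ((p : ℤ) • zCoc L hζ0 cb he) = 0 := by
    rw [h0, map_zero]
  rw [map_zsmul] at h1
  exact h1

theorem exists_cochain_of_brauer [FiniteDimensional F L] {ζ : F} (hζ : IsPrimitiveRoot ζ p)
    (hζ0 : ζ ≠ 0) (hB : BrauerProp F L p)
    (cb cb' : (L ≃ₐ[F] L) × (L ≃ₐ[F] L) → ZMod p)
    (hcb : ∀ g h j : L ≃ₐ[F] L, cb (g * h, j) + cb (g, h) = cb (h, j) + cb (g, h * j))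
    (hcb' : ∀ g h j : L ≃ₐ[F] L, cb' (g * h, j) + cb' (g, h) = cb' (h, j) + cb' (g, h * j)) :
    ∃ (a b : ℤ) (U : (L ≃ₐ[F] L) → Lˣ) (v : Lˣ), (¬ (p : ℤ) ∣ a ∨ ¬ (p : ℤ) ∣ b) ∧
      (∀ g h : L ≃ₐ[F] L,
        g • U h / U (g * h) * U g = zU L ζ hζ0 (a • cb (g, h) + b • cb' (g, h))) ∧
      ∀ g : L ≃ₐ[F] L, g • v / v = U g ^ p := by
  classical
  have he := isMulCocycle₂_zU L hζ hζ0 cb hcb
  have he' := isMulCocycle₂_zU L hζ hζ0 cb' hcb'
  obtain ⟨a, b, hab, hxy⟩ := hB _ _ (zsmul_H2π_zU L hζ hζ0 cb he)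
    (zsmul_H2π_zU L hζ hζ0 cb' he')
  have h0 : H2π (unitsRep F L) (a • zCoc L hζ0 cb he + b • zCoc L hζ0 cb' he') = 0 := by
    rw [map_add, map_zsmul, map_zsmul]
    exact hxy
  rw [H2π_eq_zero_iff] at h0
  obtain ⟨u, hu⟩ := h0
  let U : (L ≃ₐ[F] L) → Lˣ := fun g => Additive.toMul (α := Lˣ) (u g)
  have hU : ∀ g h : L ≃ₐ[F] L,
      g • U h / U (g * h) * U g = zU L ζ hζ0 (a • cb (g, h) + b • cb' (g, h)) := by
    intro g h
    have h1 := congrFun hu (g, h)
    have h2 : g • U h / U (g * h) * U g =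
        zU L ζ hζ0 (cb (g, h)) ^ a * zU L ζ hζ0 (cb' (g, h)) ^ b :=
      congrArg (Additive.toMul (α := Lˣ)) h1
    rw [h2, zU_add L hζ, zU_zsmul L hζ, zU_zsmul L hζ]
  -- `U ^ p` is a 1-cocycle
  have hcoc : IsMulCocycle₁ (fun g => U g ^ p) := by
    intro g h
    show U (g * h) ^ p = g • (U h ^ p) * U g ^ p
    have h1 := hU g h
    have h2 : (g • U h / U (g * h) * U g) ^ p = 1 := by
      rw [h1, zU_pow L hζ]
    rw [smul_pow']
    rw [mul_pow, div_pow] at h2
    rw [div_mul_eq_mul_div, div_eq_one] at h2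
    exact h2.symm
  obtain ⟨v, hv⟩ := isMulCoboundary₁_of_isMulCocycle₁_of_aut_to_units _ hcoc
  exact ⟨a, b, U, v, hab, hU, hv⟩

/-- The same, with all identities in the field `L`. -/
theorem exists_cochain_of_brauer' [FiniteDimensional F L] {ζ : F} (hζ : IsPrimitiveRoot ζ p)
    (hζ0 : ζ ≠ 0) (hB : BrauerProp F L p)
    (cb cb' : (L ≃ₐ[F] L) × (L ≃ₐ[F] L) → ZMod p)
    (hcb : ∀ g h j : L ≃ₐ[F] L, cb (g * h, j) + cb (g, h) = cb (h, j) + cb (g, h * j))
    (hcb' : ∀ g h j : L ≃ₐ[F] L, cb' (g * h, j) + cb' (g, h) = cb' (h, j) + cb' (g, h * j)) :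
    ∃ (a b : ℤ) (U : (L ≃ₐ[F] L) → L) (v : L), (¬ (p : ℤ) ∣ a ∨ ¬ (p : ℤ) ∣ b) ∧
      (∀ g, U g ≠ 0) ∧ v ≠ 0 ∧
      (∀ g h : L ≃ₐ[F] L,
        g (U h) / U (g * h) * U g =
          algebraMap F L ζ ^ (a • cb (g, h) + b • cb' (g, h)).val) ∧
      ∀ g : L ≃ₐ[F] L, g v / v = U g ^ p := by
  obtain ⟨a, b, U, v, hab, hU, hv⟩ := exists_cochain_of_brauer L hζ hζ0 hB cb cb' hcb hcb'
  refine ⟨a, b, fun g => ((U g : Lˣ) : L), (v : L), hab, fun g => (U g).ne_zero, v.ne_zero,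
    fun g h => ?_, fun g => ?_⟩
  · have h1 := congrArg Units.val (hU g h)
    rw [coe_zU] at h1
    rw [← h1]
    simp only [Units.val_mul, Units.val_div_eq_div_val]
    rfl
  · have h1 := congrArg Units.val (hv g)
    rw [Units.val_pow_eq_pow_val] at h1
    rw [← h1]
    simp only [Units.val_div_eq_div_val]
    rfl

end finlevel

end Fermat.Agent.S55.CFT.LOC.H72

end
end
-- ==== END Fermat.Agent.S55.CFT.LOC.H72_H2DimA

-- ==== BEGIN Fermat.Agent.S55.Coh.Basic
section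

set_option autoImplicit false

open CategoryTheory Module groupCohomology ExtCitation

noncomputable section

namespace Fermat.Agent.S55

variable {k : Type} [Field k]

/-! ### The evaluation pairing -/

section evLemmas

variable (χ : GQ →* kˣ) (M : Rep.{0} k GQ)

@[simp] lemma ev_zero_left (φ : Md χ M) : ev χ M 0 φ = 0 := by simp [ev]

@[simp] lemma ev_zero_right (m : M) : ev χ M m 0 = 0 := rfl

lemma ev_add_left (m₁ m₂ : M) (φ : Md χ M) :
    ev χ M (m₁ + m₂) φ = ev χ M m₁ φ + ev χ M m₂ φ := by simp [ev]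

lemma ev_sub_left (m₁ m₂ : M) (φ : Md χ M) :
    ev χ M (m₁ - m₂) φ = ev χ M m₁ φ - ev χ M m₂ φ := by simp [ev]

lemma ev_neg_left (m : M) (φ : Md χ M) : ev χ M (-m) φ = - ev χ M m φ := by simp [ev]

lemma ev_smul_left (c : k) (m : M) (φ : Md χ M) : ev χ M (c • m) φ = c * ev χ M m φ := by
  simp [ev]

lemma ev_add_right (m : M) (φ₁ φ₂ : Md χ M) :
    ev χ M m (φ₁ + φ₂) = ev χ M m φ₁ + ev χ M m φ₂ := rfl

lemma ev_sub_right (m : M) (φ₁ φ₂ : Md χ M) :
    ev χ M m (φ₁ - φ₂) = ev χ M m φ₁ - ev χ M m φ₂ := rfl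

lemma ev_neg_right (m : M) (φ : Md χ M) : ev χ M m (-φ) = - ev χ M m φ := rfl

lemma ev_smul_right (c : k) (m : M) (φ : Md χ M) : ev χ M m (c • φ) = c * ev χ M m φ := rfl

/-- The action of `g` on `M' = Hom(M, k)(χ)`. -/
lemma Md_rho_apply (g : GQ) (φ : Md χ M) (m : M) :
    ev χ M m ((Md χ M).ρ g φ) = (χ g : k) * ev χ M (M.ρ g⁻¹ m) φ := by
  change ((M.ρ.dual.twist χ) g φ) m = _
  rw [Representation.twist_apply_apply]
  simp [ev, Representation.dual_apply, Dual.transpose_apply]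

/-- Equivariance of the pairing: `⟨g m, g φ⟩ = χ(g) ⟨m, φ⟩`. -/
lemma ev_rho (g : GQ) (m : M) (φ : Md χ M) :
    ev χ M (M.ρ g m) ((Md χ M).ρ g φ) = (χ g : k) * ev χ M m φ := by
  rw [Md_rho_apply]
  simp

/-- The action of `g` on `k(χ)`. -/
lemma kχ_rho (g : GQ) (c : kχ χ) : (kχ χ).ρ g c = ((χ g : k) * (show k from c) : k) := rfl

/-- `M'` is separated by evaluation. -/
lemma Md_ext {φ ψ : Md χ M} (h : ∀ m : M, ev χ M m φ = ev χ M m ψ) : φ = ψ :=
  LinearMap.ext h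

end evLemmas

/-! ### Dual maps -/

section dualMap

variable (χ : GQ →* kˣ) {A B : Rep.{0} k GQ}

/-- The map `B' → A'` dual to a morphism `u : A ⟶ B`, as a linear map. -/
def dMap (u : A ⟶ B) : Md χ B →ₗ[k] Md χ A where
  toFun φ := (show Module.Dual k B from φ).comp u.hom.toLinearMap
  map_add' _ _ := rfl
  map_smul' _ _ := rfl

lemma ev_dMap (u : A ⟶ B) (a : A) (φ : Md χ B) :
    ev χ A a (dMap χ u φ) = ev χ B (u.hom a) φ := rfl

/-- The dual map is equivariant. -/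
lemma dMap_rho (u : A ⟶ B) (g : GQ) (φ : Md χ B) :
    dMap χ u ((Md χ B).ρ g φ) = (Md χ A).ρ g (dMap χ u φ) := by
  apply Md_ext
  intro a
  rw [ev_dMap, Md_rho_apply, Md_rho_apply, ev_dMap, Rep.hom_comm_apply]

/-- If `u` is injective, the dual map is surjective. -/
lemma dMap_surjective (u : A ⟶ B) (hu : Function.Injective u.hom) :
    Function.Surjective (dMap χ u) := by
  intro ψ
  obtain ⟨r, hr⟩ := LinearMap.exists_leftInverse_of_injective u.hom.toLinearMap
    (LinearMap.ker_eq_bot.2 hu)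
  refine ⟨(show Module.Dual k A from ψ).comp r, ?_⟩
  apply Md_ext
  intro a
  rw [ev_dMap]
  change (show Module.Dual k A from ψ) (r (u.hom a)) = _
  have : r (u.hom a) = a := congrArg (fun f : A →ₗ[k] A => f a) hr
  rw [this]
  rfl

/-- If `u` is surjective, the dual map is injective. -/
lemma dMap_injective (u : A ⟶ B) (hu : Function.Surjective u.hom) :
    Function.Injective (dMap χ u) := by
  intro φ ψ h
  apply Md_ext
  intro b
  obtain ⟨a, rfl⟩ := hu b
  rw [← ev_dMap, ← ev_dMap, h]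

/-- Exactness of the dual sequence in the middle. -/
lemma dMap_exact {M₁ M M₂ : Rep.{0} k GQ} (i : M₁ ⟶ M) (π : M ⟶ M₂) (h : IsSES i π)
    (φ : Md χ M) (hφ : dMap χ i φ = 0) : ∃ φ₂ : Md χ M₂, dMap χ π φ₂ = φ := by
  obtain ⟨_, hπ, hex⟩ := h
  obtain ⟨s, hs⟩ := LinearMap.exists_rightInverse_of_surjective π.hom.toLinearMap
    (LinearMap.range_eq_top.2 hπ)
  refine ⟨(show Module.Dual k M from φ).comp s, ?_⟩
  apply Md_ext
  intro m
  rw [ev_dMap]
  change (show Module.Dual k M from φ) (s (π.hom m)) = (show Module.Dual k M from φ) m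
  have h1 : π.hom (s (π.hom m) - m) = 0 := by
    have : π.hom (s (π.hom m)) = π.hom m := congrArg (fun f : M₂ →ₗ[k] M₂ => f (π.hom m)) hs
    rw [map_sub, this, sub_self]
  obtain ⟨m₁, hm₁⟩ := (hex _).1 h1
  have h2 : (show Module.Dual k M from φ) (i.hom m₁) = 0 := by
    have := congrArg (fun ψ : Md χ M₁ => ev χ M₁ m₁ ψ) hφ
    exact this
  rw [hm₁, map_sub, sub_eq_zero] at h2
  exact h2

lemma dMap_comp_eq_zero {M₁ M M₂ : Rep.{0} k GQ} (i : M₁ ⟶ M) (π : M ⟶ M₂) (h : IsSES i π)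
    (φ₂ : Md χ M₂) : dMap χ i (dMap χ π φ₂) = 0 := by
  apply Md_ext
  intro m₁
  rw [ev_dMap, ev_dMap, ev_zero_right]
  have : π.hom (i.hom m₁) = 0 := (h.2.2 _).2 ⟨m₁, rfl⟩
  rw [this, ev_zero_left]

end dualMap

/-! ### Differentials: additivity, `d ∘ d = 0`, restriction, naturality -/

section diffLemmas

variable (M : Rep.{0} k GQ)

lemma dZero_add (m m' : M) : dZero M (m + m') = dZero M m + dZero M m' := by
  funext g; simp only [dZero, Pi.add_apply, map_add]; abel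

lemma dZero_sub (m m' : M) : dZero M (m - m') = dZero M m - dZero M m' := by
  funext g; simp only [dZero, Pi.sub_apply, map_sub]; abel

lemma dZero_smul (c : k) (m : M) : dZero M (c • m) = c • dZero M m := by
  funext g; simp only [dZero, Pi.smul_apply, map_smul, smul_sub]

@[simp] lemma dZero_zero : dZero M 0 = 0 := by
  funext g; simp [dZero]

lemma dOne_add (f f' : GQ → M) : dOne M (f + f') = dOne M f + dOne M f' := by
  funext x; simp only [dOne, Pi.add_apply, map_add]; abel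

lemma dOne_sub (f f' : GQ → M) : dOne M (f - f') = dOne M f - dOne M f' := by
  funext x; simp only [dOne, Pi.sub_apply, map_sub]; abel

lemma dOne_smul (c : k) (f : GQ → M) : dOne M (c • f) = c • dOne M f := by
  funext x; simp only [dOne, Pi.smul_apply, map_smul, smul_sub, smul_add]

@[simp] lemma dOne_zero : dOne M 0 = 0 := by
  funext x; simp [dOne]

lemma dTwo_add (f f' : GQ × GQ → M) : dTwo M (f + f') = dTwo M f + dTwo M f' := by
  funext x; simp only [dTwo, Pi.add_apply, map_add]; abel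

lemma dTwo_sub (f f' : GQ × GQ → M) : dTwo M (f - f') = dTwo M f - dTwo M f' := by
  funext x; simp only [dTwo, Pi.sub_apply, map_sub]; abel

@[simp] lemma dTwo_zero : dTwo M 0 = 0 := by
  funext x; simp [dTwo]

@[simp] lemma dThree_zero : dThree M 0 = 0 := by
  funext x; simp [dThree]

lemma dOne_dZero (m : M) : dOne M (dZero M m) = 0 := by
  funext x
  simp only [dOne, dZero, Pi.zero_apply, map_sub, map_mul, Module.End.mul_apply]
  abel

lemma dTwo_dOne (f : GQ → M) : dTwo M (dOne M f) = 0 := by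
  funext x
  simp only [dTwo, dOne, Pi.zero_apply, map_sub, map_add, map_mul, Module.End.mul_apply,
    mul_assoc]
  abel

lemma dThree_dTwo (f : GQ × GQ → M) : dThree M (dTwo M f) = 0 := by
  funext x
  simp only [dThree, dTwo, Pi.zero_apply, map_sub, map_add, map_mul, Module.End.mul_apply,
    mul_assoc]
  abel

variable (q : Nat.Primes)

lemma dZeroL_add (m m' : M) : dZeroL M q (m + m') = dZeroL M q m + dZeroL M q m' := by
  funext g; simp only [dZeroL, Pi.add_apply, map_add]; abel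

lemma dZeroL_sub (m m' : M) : dZeroL M q (m - m') = dZeroL M q m - dZeroL M q m' := by
  funext g; simp only [dZeroL, Pi.sub_apply, map_sub]; abel

@[simp] lemma dZeroL_zero : dZeroL M q 0 = 0 := by
  funext g; simp [dZeroL]

lemma dOneL_add (f f' : Gl q → M) : dOneL M q (f + f') = dOneL M q f + dOneL M q f' := by
  funext x; simp only [dOneL, Pi.add_apply, map_add]; abel

lemma dOneL_sub (f f' : Gl q → M) : dOneL M q (f - f') = dOneL M q f - dOneL M q f' := by
  funext x; simp only [dOneL, Pi.sub_apply, map_sub]; abel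

@[simp] lemma dOneL_zero : dOneL M q 0 = 0 := by
  funext x; simp [dOneL]

lemma dTwoL_add (f f' : Gl q × Gl q → M) :
    dTwoL M q (f + f') = dTwoL M q f + dTwoL M q f' := by
  funext x; simp only [dTwoL, Pi.add_apply, map_add]; abel

lemma dTwoL_sub (f f' : Gl q × Gl q → M) :
    dTwoL M q (f - f') = dTwoL M q f - dTwoL M q f' := by
  funext x; simp only [dTwoL, Pi.sub_apply, map_sub]; abel

@[simp] lemma dTwoL_zero : dTwoL M q 0 = 0 := by
  funext x; simp [dTwoL]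

lemma dOneL_dZeroL (m : M) : dOneL M q (dZeroL M q m) = 0 := by
  funext x
  simp only [dOneL, dZeroL, Pi.zero_apply, map_sub, map_mul, Module.End.mul_apply]
  abel

lemma dTwoL_dOneL (f : Gl q → M) : dTwoL M q (dOneL M q f) = 0 := by
  funext x
  simp only [dTwoL, dOneL, Pi.zero_apply, map_sub, map_add, map_mul, Module.End.mul_apply,
    mul_assoc]
  abel

/-! restriction commutes with the differentials -/

lemma resOne_dZero (m : M) : resOne q (dZero M m) = dZeroL M q m := rfl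

lemma resTwo_dOne (f : GQ → M) : resTwo q (dOne M f) = dOneL M q (resOne q f) := by
  funext x; simp only [resTwo, dOne, dOneL, resOne, map_mul]

lemma resThree_dTwo (f : GQ × GQ → M) : resThree q (dTwo M f) = dTwoL M q (resTwo q f) := by
  funext x; simp only [resThree, dTwo, dTwoL, resTwo, map_mul]

lemma resOne_add {X : Type} [Add X] (f f' : GQ → X) :
    resOne q (f + f') = resOne q f + resOne q f' := rfl

lemma resOne_sub {X : Type} [Sub X] (f f' : GQ → X) :
    resOne q (f - f') = resOne q f - resOne q f' := rfl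

lemma resTwo_add {X : Type} [Add X] (f f' : GQ × GQ → X) :
    resTwo q (f + f') = resTwo q f + resTwo q f' := rfl

lemma resTwo_sub {X : Type} [Sub X] (f f' : GQ × GQ → X) :
    resTwo q (f - f') = resTwo q f - resTwo q f' := rfl

end diffLemmas

section naturality

variable {A B : Rep.{0} k GQ} (u : A ⟶ B)

lemma dZero_comp (a : A) : dZero B (u.hom a) = fun g => u.hom (dZero A a g) := by
  funext g; simp only [dZero, map_sub, Rep.hom_comm_apply]

lemma dOne_comp (f : GQ → A) :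
    dOne B (fun g => u.hom (f g)) = fun x => u.hom (dOne A f x) := by
  funext x; simp only [dOne, map_sub, map_add, Rep.hom_comm_apply]

lemma dTwo_comp (f : GQ × GQ → A) :
    dTwo B (fun x => u.hom (f x)) = fun x => u.hom (dTwo A f x) := by
  funext x; simp only [dTwo, map_sub, map_add, Rep.hom_comm_apply]

lemma dThree_comp (f : GQ × GQ × GQ → A) :
    dThree B (fun x => u.hom (f x)) = fun x => u.hom (dThree A f x) := by
  funext x; simp only [dThree, map_sub, map_add, Rep.hom_comm_apply]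

lemma dZeroL_comp (q : Nat.Primes) (a : A) :
    dZeroL B q (u.hom a) = fun g => u.hom (dZeroL A q a g) := by
  funext g; simp only [dZeroL, map_sub, Rep.hom_comm_apply]

lemma dOneL_comp (q : Nat.Primes) (f : Gl q → A) :
    dOneL B q (fun g => u.hom (f g)) = fun x => u.hom (dOneL A q f x) := by
  funext x; simp only [dOneL, map_sub, map_add, Rep.hom_comm_apply]

lemma dTwoL_comp (q : Nat.Primes) (f : Gl q × Gl q → A) :
    dTwoL B q (fun x => u.hom (f x)) = fun x => u.hom (dTwoL A q f x) := by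
  funext x; simp only [dTwoL, map_sub, map_add, Rep.hom_comm_apply]

end naturality

end Fermat.Agent.S55

end

end
-- ==== END Fermat.Agent.S55.Coh.Basic

-- ==== BEGIN Fermat.Agent.S55.Coh.Stmts
section

set_option autoImplicit false

open CategoryTheory Module groupCohomology ExtCitation

namespace Fermat.Agent.S55

/-- **E1α** (four-lemma step, cone on the left).  For a short exact sequence
`0 → M₁ → M → M₂ → 0` of modules of level `S` and ANY trace:
`α²epi(M₁) ∧ α³mono(M₁) ∧ α²epi(M₂) ⟹ α²epi(M)`. -/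
def Stmt_E1A : Prop :=
  ∀ (k : Type) [Field k] (S : Finset Nat.Primes) (χ : GQ →* kˣ) (tr : Trace S χ),
    LevChar S χ →
    ∀ (M₁ M M₂ : Rep.{0} k GQ) (i : M₁ ⟶ M) (π : M ⟶ M₂), IsSES i π →
      Lev S M₁ → Lev S M → Lev S M₂ →
      AlphaTwoEpi tr M₁ → AlphaThreeMono tr M₁ → AlphaTwoEpi tr M₂ → AlphaTwoEpi tr M

/-- **E1β** (four-lemma step, cone on the right).
`β¹epi(M₁) ∧ β¹epi(M₂) ∧ β²mono(M₂) ⟹ β¹epi(M)`. -/
def Stmt_E1B : Prop :=
  ∀ (k : Type) [Field k] (S : Finset Nat.Primes) (χ : GQ →* kˣ) (tr : Trace S χ),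
    LevChar S χ →
    ∀ (M₁ M M₂ : Rep.{0} k GQ) (i : M₁ ⟶ M) (π : M ⟶ M₂), IsSES i π →
      Lev S M₁ → Lev S M → Lev S M₂ →
      BetaOneEpi tr M₁ → BetaOneEpi tr M₂ → BetaTwoMono tr M₂ → BetaOneEpi tr M

/-- **E2** (naturality): the four properties pass to retracts. -/
def Stmt_E2 : Prop :=
  ∀ (k : Type) [Field k] (S : Finset Nat.Primes) (χ : GQ →* kˣ) (tr : Trace S χ)
    (M N : Rep.{0} k GQ), IsRetract M N →
      (AlphaTwoEpi tr N → AlphaTwoEpi tr M) ∧ (AlphaThreeMono tr N → AlphaThreeMono tr M) ∧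
      (BetaOneEpi tr N → BetaOneEpi tr M) ∧ (BetaTwoMono tr N → BetaTwoMono tr M)

/-- **E3** (representation theory).  In characteristic `p`, a finite-dimensional module of
level `S ∋ p` is a retract of a module which is built (from both sides) out of copies of one
permutation module `k[G_ℚ/G_K]`, `K` a base field (`K = L^P`, `L = ℚ(M, μ_p)`, `P` a `p`-Sylow
subgroup of `Gal(L/ℚ)`; the module is `Ind_K^ℚ Res M`). -/
def Stmt_E3 : Prop :=
  ∀ (p : ℕ) [Fact p.Prime] (k : Type) [Field k] [CharP k p] (S : Finset Nat.Primes)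
    (M : Rep.{0} k GQ) [FiniteDimensional k M], pPrime p ∈ S → Lev S M →
    ∃ K : IntermediateField ℚ (AlgebraicClosure ℚ), IsBaseField S p K ∧
      ∃ N : Rep.{0} k GQ, IsRetract M N ∧ DevL k S K N ∧ DevR k S K N

/-- **E4** (BASE = class field theory of exponent `p` over the base fields).  For every base
field `K` there is a trace for which the permutation module `𝔽_p[G_ℚ/G_K]` has the four
properties.  (The natural trace, `Σ_q inv_q` on the image of the local `H²`, works for all `K`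
at once; only this weaker form is used.) -/
def Stmt_E4 : Prop :=
  ∀ (p : ℕ) [Fact p.Prime], p ≠ 2 → ∀ S : Finset Nat.Primes, pPrime p ∈ S →
    ∀ K : IntermediateField ℚ (AlgebraicClosure ℚ), IsBaseField S p K →
      ∃ tr : Trace S (cycloChar p),
        AlphaTwoEpi tr (permRep (ZMod p) K) ∧ AlphaThreeMono tr (permRep (ZMod p) K) ∧
        BetaOneEpi tr (permRep (ZMod p) K) ∧ BetaTwoMono tr (permRep (ZMod p) K)

/-- **E5** (cone sequence + adjointness + bridge to the prelude's `sha₁`, `sha₂`).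
For ANY trace: `α²epi(M) ∧ β¹epi(M)` give the perfect pairing of the frozen statement. -/
def Stmt_E5 : Prop :=
  ∀ (p : ℕ) [Fact p.Prime] (S : Finset Nat.Primes) (M : Rep.{0} (ZMod p) GQ), Hyp p S M →
    ∀ tr : Trace S (cycloChar p), AlphaTwoEpi tr M → BetaOneEpi tr M →
    ∃ B : sha₁ S (M.dualTwist (cycloChar p)) →ₗ[ZMod p] sha₂ S M →ₗ[ZMod p] ZMod p,
      (∀ y, (∀ x, B y x = 0) → y = 0) ∧ (∀ x, (∀ y, B y x = 0) → x = 0)

/-- **BR1** (bridge): the hypotheses of the frozen statement give level `S`. -/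
def Stmt_lev : Prop :=
  ∀ (p : ℕ) [Fact p.Prime] (S : Finset Nat.Primes) (M : Rep.{0} (ZMod p) GQ), Hyp p S M →
    Lev S M

/-- **BR2** (bridge): the mod `p` cyclotomic character has level `S` when `p ∈ S`. -/
def Stmt_levChar : Prop :=
  ∀ (p : ℕ) [Fact p.Prime] (S : Finset Nat.Primes), pPrime p ∈ S → LevChar S (cycloChar p)

end Fermat.Agent.S55

end
-- ==== END Fermat.Agent.S55.Coh.Stmts
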