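-- GENERATED (merged mirror, NOTES/tools/trim/merge3_helper67.py): 5 modules of the originals, bodies verbatim.
import Fermat.Agent.Zm.S56_L02_003
import Fermat.Agent.Zm.S56_L02_005
import Fermat.Agent.Zm.S56_L02_004

-- ==== BEGIN Fermat.Agent.S55.Top.ShapiroLev
section

set_option autoImplicit false
set_option linter.unusedSectionVars false
set_option linter.unusedSimpArgs false

namespace Fermat.Agent.S55.Top

namespace OrbitData

variable {k : Type} [CommRing k] {Γ : Type} [Group Γ] {X : Type} [MulAction Γ X] {R : Type}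
  (D : OrbitData Γ X R)

/-! ### Agreement on the stabilisers -/

/-- two pure 1-cochains agree on the stabilisers. -/
def Agree₁ (f f' : R → Γ → k) : Prop :=
  ∀ r g, g • D.rep r = D.rep r → f r g = f' r g

/-- two pure 2-cochains agree on the stabilisers. -/
def Agree₂ (f f' : R → Γ × Γ → k) : Prop :=
  ∀ r (t : Γ × Γ), t.1 • D.rep r = D.rep r → t.2 • D.rep r = D.rep r → f r t = f' r t

/-- two pure 3-cochains agree on the stabilisers. -/
def Agree₃ (f f' : R → Γ × Γ × Γ → k) : Prop :=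
  ∀ r (t : Γ × Γ × Γ), t.1 • D.rep r = D.rep r → t.2.1 • D.rep r = D.rep r →
    t.2.2 • D.rep r = D.rep r → f r t = f' r t

variable {D}

lemma Agree₁.symm {f f' : R → Γ → k} (h : D.Agree₁ f f') : D.Agree₁ f' f :=
  fun r g hg => (h r g hg).symm

lemma Agree₂.symm {f f' : R → Γ × Γ → k} (h : D.Agree₂ f f') : D.Agree₂ f' f :=
  fun r t h1 h2 => (h r t h1 h2).symm

lemma Agree₃.symm {f f' : R → Γ × Γ × Γ → k} (h : D.Agree₃ f f') : D.Agree₃ f' f :=
  fun r t h1 h2 h3 => (h r t h1 h2 h3).symm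

lemma Agree₁.trans {f f' f'' : R → Γ → k} (h : D.Agree₁ f f') (h' : D.Agree₁ f' f'') :
    D.Agree₁ f f'' :=
  fun r g hg => (h r g hg).trans (h' r g hg)

lemma Agree₂.trans {f f' f'' : R → Γ × Γ → k} (h : D.Agree₂ f f') (h' : D.Agree₂ f' f'') :
    D.Agree₂ f f'' :=
  fun r t h1 h2 => (h r t h1 h2).trans (h' r t h1 h2)

lemma Agree₃.trans {f f' f'' : R → Γ × Γ × Γ → k} (h : D.Agree₃ f f')
    (h' : D.Agree₃ f' f'') : D.Agree₃ f f'' :=
  fun r t h1 h2 h3 => (h r t h1 h2 h3).trans (h' r t h1 h2 h3)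

lemma Agree₁.sub {f f' g g' : R → Γ → k} (h : D.Agree₁ f f') (h' : D.Agree₁ g g') :
    D.Agree₁ (f - g) (f' - g') :=
  fun r t ht => by simp only [Pi.sub_apply, h r t ht, h' r t ht]

lemma Agree₂.sub {f f' g g' : R → Γ × Γ → k} (h : D.Agree₂ f f') (h' : D.Agree₂ g g') :
    D.Agree₂ (f - g) (f' - g') :=
  fun r t h1 h2 => by simp only [Pi.sub_apply, h r t h1 h2, h' r t h1 h2]

variable (D)

lemma cc_smul' (g : Γ) (x : X) (y : X) (hy : D.o y = D.o x) :
    D.cc g y • D.rep (D.o x) = D.rep (D.o x) := by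
  rw [← hy]
  exact D.cc_smul g y

lemma ind1_congr {f f' : R → Γ → k} (h : D.Agree₁ f f') : D.ind1 f = D.ind1 f' := by
  funext g x
  exact h _ _ (D.cc_smul g x)

lemma ind2_congr {f f' : R → Γ × Γ → k} (h : D.Agree₂ f f') : D.ind2 f = D.ind2 f' := by
  funext t x
  exact h _ _ (D.cc_smul t.1 x) (D.cc_smul' t.2 x _ (D.o_smul _ _))

lemma ind3_congr {f f' : R → Γ × Γ × Γ → k} (h : D.Agree₃ f f') : D.ind3 f = D.ind3 f' := by
  funext t x
  refine h _ _ (D.cc_smul t.1 x) (D.cc_smul' t.2.1 x _ (D.o_smul _ _))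
    (D.cc_smul' t.2.2 x _ ?_)
  rw [D.o_smul, D.o_smul]

lemma agree_sh2_d1 (f : Γ → X → k) : D.Agree₂ (D.sh2 (d1 f)) (e1 (D.sh1 f)) :=
  fun r t h1 _ => D.sh2_d1 f r t h1

lemma agree_sh3_d2 (f : Γ × Γ → X → k) : D.Agree₃ (D.sh3 (d2 f)) (e2 (D.sh2 f)) :=
  fun r t h1 _ _ => D.sh3_d2 f r t h1

lemma agree_sh1_ind1 (f : R → Γ → k) : D.Agree₁ (D.sh1 (D.ind1 f)) f :=
  fun r g hg => D.sh1_ind1 f r g hg

lemma agree_sh2_ind2 (f : R → Γ × Γ → k) : D.Agree₂ (D.sh2 (D.ind2 f)) f :=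
  fun r t h1 h2 => D.sh2_ind2 f r t h1 h2

lemma agree_sh3_ind3 (f : R → Γ × Γ × Γ → k) : D.Agree₃ (D.sh3 (D.ind3 f)) f :=
  fun r t h1 h2 h3 => D.sh3_ind3 f r t h1 h2 h3

/-! ### Linearity -/

lemma ind1_sub (f f' : R → Γ → k) : D.ind1 (f - f') = D.ind1 f - D.ind1 f' := rfl

lemma ind2_sub (f f' : R → Γ × Γ → k) : D.ind2 (f - f') = D.ind2 f - D.ind2 f' := rfl

lemma ind3_sub (f f' : R → Γ × Γ × Γ → k) : D.ind3 (f - f') = D.ind3 f - D.ind3 f' := rfl

lemma ind1_zero : D.ind1 (0 : R → Γ → k) = 0 := rfl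

lemma ind2_zero : D.ind2 (0 : R → Γ × Γ → k) = 0 := rfl

lemma ind3_zero : D.ind3 (0 : R → Γ × Γ × Γ → k) = 0 := rfl

lemma hty1_zero : D.hty1 (0 : Γ → X → k) = 0 := rfl

lemma hty2_zero : D.hty2 (0 : Γ × Γ → X → k) = 0 := by
  funext g x; simp [hty2]

lemma hty3_zero : D.hty3 (0 : Γ × Γ × Γ → X → k) = 0 := by
  funext g x; simp [hty3]

lemma hty4_zero : D.hty4 (0 : Γ × Γ × Γ × Γ → X → k) = 0 := by
  funext g x; simp [hty4]

lemma hty2_sub (f f' : Γ × Γ → X → k) : D.hty2 (f - f') = D.hty2 f - D.hty2 f' := by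
  funext g x; simp only [hty2, Pi.sub_apply]; ring

lemma hty3_sub (f f' : Γ × Γ × Γ → X → k) : D.hty3 (f - f') = D.hty3 f - D.hty3 f' := by
  funext g x; simp only [hty3, Pi.sub_apply]; ring

lemma d0_sub (f f' : X → k) : d0 (Γ := Γ) (f - f') = d0 f - d0 f' := by
  funext g x; simp only [d0, Pi.sub_apply]; ring

lemma d1_sub (f f' : Γ → X → k) : d1 (f - f') = d1 f - d1 f' := by
  funext g x; simp only [d1, Pi.sub_apply]; ring

lemma d2_sub (f f' : Γ × Γ → X → k) : d2 (f - f') = d2 f - d2 f' := by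
  funext g x; simp only [d2, Pi.sub_apply]; ring

lemma d1_add (f f' : Γ → X → k) : d1 (f + f') = d1 f + d1 f' := by
  funext g x; simp only [d1, Pi.add_apply]; ring

lemma d0_add (f f' : X → k) : d0 (Γ := Γ) (f + f') = d0 f + d0 f' := by
  funext g x; simp only [d0, Pi.add_apply]; ring

lemma d0_neg (f : X → k) : d0 (Γ := Γ) (-f) = - d0 f := by
  funext g x; simp only [d0, Pi.neg_apply]; ring

lemma d1_neg (f : Γ → X → k) : d1 (-f) = - d1 f := by
  funext g x; simp only [d1, Pi.neg_apply]; ring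

lemma d1_zero : d1 (0 : Γ → X → k) = 0 := by
  funext g x; simp [d1]

lemma d2_zero : d2 (0 : Γ × Γ → X → k) = 0 := by
  funext g x; simp [d2]

/-- the homotopy identities as equalities of functions -/
lemma hty_one' (f : Γ → X → k) :
    f - D.ind1 (D.sh1 f) = d0 (D.hty1 f) + D.hty2 (d1 f) := by
  funext g x
  exact D.hty_one f g x

lemma hty_two' (f : Γ × Γ → X → k) :
    f - D.ind2 (D.sh2 f) = d1 (D.hty2 f) + D.hty3 (d2 f) := by
  funext t x
  exact D.hty_two f t x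

lemma hty_three' (f : Γ × Γ × Γ → X → k) :
    f - D.ind3 (D.sh3 f) = d2 (D.hty3 f) + D.hty4 (d3 f) := by
  funext t x
  exact D.hty_three f t x

/-! ### Invariance under a normal subgroup acting trivially -/

section inv

variable (N : Subgroup Γ) (hN : N.Normal) (htriv : ∀ s ∈ N, ∀ x : X, s • x = x)

include hN htriv

lemma inv_smul_of_triv (g s : Γ) (hs : s ∈ N) (x : X) : (g * s)⁻¹ • x = g⁻¹ • x := by
  rw [mul_inv_rev, mul_smul]
  have h1 : s⁻¹ • (g⁻¹ • x) = g⁻¹ • x := htriv _ (N.inv_mem hs) _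
  -- `s⁻¹ g⁻¹ x = g⁻¹ (g s⁻¹ g⁻¹) x`
  have h2 : g * s⁻¹ * g⁻¹ ∈ N := hN.conj_mem _ (N.inv_mem hs) g
  have h3 := htriv _ h2 x
  calc s⁻¹ • g⁻¹ • x = g⁻¹ • (g * s⁻¹ * g⁻¹) • x := by
        rw [← mul_smul, ← mul_smul]; congr 1; group
    _ = g⁻¹ • x := by rw [h3]

lemma cc_mul_right (g s : Γ) (hs : s ∈ N) (x : X) :
    ∃ s' ∈ N, D.cc (g * s) x = D.cc g x * s' := by
  refine ⟨(D.t (g⁻¹ • x))⁻¹ * s * D.t (g⁻¹ • x), ?_, ?_⟩
  · have := hN.conj_mem s hs (D.t (g⁻¹ • x))⁻¹
    simpa using this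
  · unfold cc
    rw [inv_smul_of_triv N hN htriv g s hs x]
    group

lemma inv_ind1 {f : R → Γ → k} (hf : ∀ r g s, s ∈ N → f r (g * s) = f r g)
    (g s : Γ) (hs : s ∈ N) : D.ind1 f (g * s) = D.ind1 f g := by
  funext x
  obtain ⟨s', hs', h⟩ := D.cc_mul_right N hN htriv g s hs x
  simp only [ind1, h, hf _ _ _ hs']

lemma inv_ind2 {f : R → Γ × Γ → k}
    (hf : ∀ r g₁ g₂ s₁ s₂, s₁ ∈ N → s₂ ∈ N → f r (g₁ * s₁, g₂ * s₂) = f r (g₁, g₂))
    (g₁ g₂ s₁ s₂ : Γ) (h₁ : s₁ ∈ N) (h₂ : s₂ ∈ N) :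
    D.ind2 f (g₁ * s₁, g₂ * s₂) = D.ind2 f (g₁, g₂) := by
  funext x
  obtain ⟨s₁', hs₁', e₁⟩ := D.cc_mul_right N hN htriv g₁ s₁ h₁ x
  obtain ⟨s₂', hs₂', e₂⟩ := D.cc_mul_right N hN htriv g₂ s₂ h₂ (g₁⁻¹ • x)
  simp only [ind2, e₁, e₂, inv_smul_of_triv N hN htriv g₁ s₁ h₁ x, hf _ _ _ _ _ hs₁' hs₂']

lemma inv_hty2 {B : Γ × Γ → X → k}
    (hB : ∀ g₁ g₂ s₁ s₂, s₁ ∈ N → s₂ ∈ N → B (g₁ * s₁, g₂ * s₂) = B (g₁, g₂))
    (g s : Γ) (hs : s ∈ N) : D.hty2 B (g * s) = D.hty2 B g := by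
  funext x
  obtain ⟨s', hs', e⟩ := D.cc_mul_right N hN htriv g s hs x
  have h1 := hB (D.t x)⁻¹ g 1 s N.one_mem hs
  rw [mul_one] at h1
  have h2 := hB (D.cc g x) (D.t (g⁻¹ • x))⁻¹ s' 1 hs' N.one_mem
  rw [mul_one] at h2
  simp only [hty2, e, inv_smul_of_triv N hN htriv g s hs x, h1, h2]

lemma inv_hty3 {A : Γ × Γ × Γ → X → k}
    (hA : ∀ g₁ g₂ g₃ s₁ s₂ s₃, s₁ ∈ N → s₂ ∈ N → s₃ ∈ N →
      A (g₁ * s₁, g₂ * s₂, g₃ * s₃) = A (g₁, g₂, g₃))
    (g₁ g₂ s₁ s₂ : Γ) (h₁ : s₁ ∈ N) (h₂ : s₂ ∈ N) :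
    D.hty3 A (g₁ * s₁, g₂ * s₂) = D.hty3 A (g₁, g₂) := by
  funext x
  obtain ⟨s₁', hs₁', e₁⟩ := D.cc_mul_right N hN htriv g₁ s₁ h₁ x
  obtain ⟨s₂', hs₂', e₂⟩ := D.cc_mul_right N hN htriv g₂ s₂ h₂ (g₁⁻¹ • x)
  have i₁ := inv_smul_of_triv N hN htriv g₁ s₁ h₁ x
  have i₂ := inv_smul_of_triv N hN htriv g₂ s₂ h₂ (g₁⁻¹ • x)
  have a1 := hA (D.t x)⁻¹ g₁ g₂ 1 s₁ s₂ N.one_mem h₁ h₂
  rw [mul_one] at a1
  have a2 := hA (D.cc g₁ x) (D.t (g₁⁻¹ • x))⁻¹ g₂ s₁' 1 s₂ hs₁' N.one_mem h₂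
  rw [mul_one] at a2
  have a3 := hA (D.cc g₁ x) (D.cc g₂ (g₁⁻¹ • x)) (D.t (g₂⁻¹ • g₁⁻¹ • x))⁻¹ s₁' s₂' 1 hs₁' hs₂'
    N.one_mem
  rw [mul_one] at a3
  simp only [hty3, e₁, e₂, i₁, i₂, a1, a2, a3]

lemma inv_cup10 {V : Γ → X → k} (hV : ∀ g s, s ∈ N → V (g * s) = V g) (β : X → k)
    (g s : Γ) (hs : s ∈ N) : cup10 V β (g * s) = cup10 V β g := by
  funext x
  simp only [cup10, hV g s hs, inv_smul_of_triv N hN htriv g s hs x]

lemma inv_cup20 {A : Γ × Γ → X → k}
    (hA : ∀ g₁ g₂ s₁ s₂, s₁ ∈ N → s₂ ∈ N → A (g₁ * s₁, g₂ * s₂) = A (g₁, g₂)) (β : X → k)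
    (g₁ g₂ s₁ s₂ : Γ) (h₁ : s₁ ∈ N) (h₂ : s₂ ∈ N) :
    cup20 A β (g₁ * s₁, g₂ * s₂) = cup20 A β (g₁, g₂) := by
  funext x
  simp only [cup20, hA g₁ g₂ s₁ s₂ h₁ h₂, inv_smul_of_triv N hN htriv g₁ s₁ h₁ x,
    inv_smul_of_triv N hN htriv g₂ s₂ h₂ (g₁⁻¹ • x)]

end inv

end OrbitData

end Fermat.Agent.S55.Top

end
-- ==== END Fermat.Agent.S55.Top.ShapiroLev

-- ==== BEGIN Fermat.Agent.S56.EC.H4_ComplMain
section

set_option autoImplicit false
set_option linter.unusedSectionVars false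

noncomputable section

namespace Fermat.Agent.S56.EC.H4

open Fermat.Agent.S56.IND Module
open scoped Classical

variable {k : Type} [Field k] {G : Type} [Group G] [Fintype G]
variable {V : Type} [AddCommGroup V] [Module k V]

/-- `φ ↦ ∑ x, ρ x (φ x)`, `Fun(G, W) → V`. -/
def sumMap (ρ : Representation k G V) (W : Submodule k V) : (G → W) →ₗ[k] V :=
  ∑ x : G, (ρ x ∘ₗ W.subtype) ∘ₗ LinearMap.proj x

lemma sumMap_apply (ρ : Representation k G V) (W : Submodule k V) (φ : G → W) :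
    sumMap ρ W φ = ∑ x : G, ρ x (φ x : V) := by
  simp [sumMap]

lemma sumMap_funRep (ρ : Representation k G V) (W : Submodule k V) (g : G) (φ : G → W) :
    sumMap ρ W (funRep k G W g φ) = ρ g (sumMap ρ W φ) := by
  rw [sumMap_apply, sumMap_apply, map_sum]
  refine Fintype.sum_equiv (Equiv.mulLeft g⁻¹) _ _ fun x => ?_
  simp only [funRep_apply, Equiv.coe_mulLeft]
  rw [← Module.End.mul_apply, ← map_mul, mul_inv_cancel_left]

lemma sumMap_single (ρ : Representation k G V) (W : Submodule k V) (g : G)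
    (w : W) : sumMap ρ W (Pi.single g w) = ρ g (w : V) := by
  rw [sumMap_apply, Finset.sum_eq_single g]
  · rw [Pi.single_eq_same]
  · intro x _ hx
    rw [Pi.single_eq_of_ne hx]
    simp
  · intro h
    exact absurd (Finset.mem_univ g) h

section induced

variable {ρ : Representation k G V} {B : Subgroup G} {W : Submodule k V}
  (h : IsInducedFrom ρ B W)

include h

lemma sumMap_surjective : Function.Surjective (sumMap ρ W) := by
  classical
  rw [← LinearMap.range_eq_top, eq_top_iff, ← h.2.1]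
  refine iSup_le fun g => ?_
  rintro _ ⟨w, hw, rfl⟩
  exact ⟨Pi.single g ⟨w, hw⟩, sumMap_single ρ W g ⟨w, hw⟩⟩

/-- The functions supported on `B`. -/
def XB (B : Subgroup G) (W : Submodule k V) : Submodule k (G → W) where
  carrier := {φ | ∀ x, x ∉ B → φ x = 0}
  add_mem' := fun {a b} ha hb x hx => by rw [Pi.add_apply, ha x hx, hb x hx, add_zero]
  zero_mem' := fun _ _ => rfl
  smul_mem' := fun c a ha x hx => by rw [Pi.smul_apply, ha x hx, smul_zero]

omit h in
lemma mem_XB {φ : G → W} : φ ∈ XB B W ↔ ∀ x, x ∉ B → φ x = 0 := Iff.rfl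

/-- On the functions supported on `B`, `sumMap` takes values in `W`. -/
lemma sumMap_mem_of_mem_XB {φ : G → W} (hφ : φ ∈ XB B W) : sumMap ρ W φ ∈ W := by
  rw [sumMap_apply]
  refine Submodule.sum_mem _ fun x _ => ?_
  by_cases hx : x ∈ B
  · exact h.1 x hx _ (φ x).2
  · rw [hφ x hx]
    simp

/-- The map `(w_c) ↦ ∑ c, ρ (out c) (w c)`, `Fun(G/B, W) → V`. -/
def cosetMap (ρ : Representation k G V) (B : Subgroup G) (W : Submodule k V) :
    ((G ⧸ B) → W) →ₗ[k] V :=
  ∑ c : G ⧸ B, (ρ (Quotient.out c) ∘ₗ W.subtype) ∘ₗ LinearMap.proj c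

omit h in
lemma cosetMap_apply (w : (G ⧸ B) → W) :
    cosetMap ρ B W w = ∑ c : G ⧸ B, ρ (Quotient.out c) (w c : V) := by
  simp [cosetMap]

lemma cosetMap_surjective : Function.Surjective (cosetMap ρ B W) := by
  classical
  rw [← LinearMap.range_eq_top, eq_top_iff, ← h.2.1]
  refine iSup_le fun g => ?_
  rintro _ ⟨w, hw, rfl⟩
  -- `g = out c * b`
  set c : G ⧸ B := (g : G ⧸ B) with hc
  have hb : (Quotient.out c)⁻¹ * g ∈ B := by
    rw [← QuotientGroup.eq, hc]
    exact QuotientGroup.out_eq' _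
  refine ⟨Pi.single c ⟨ρ ((Quotient.out c)⁻¹ * g) w, h.1 _ hb _ hw⟩, ?_⟩
  rw [cosetMap_apply, Finset.sum_eq_single c]
  · rw [Pi.single_eq_same]
    show ρ (Quotient.out c) (ρ ((Quotient.out c)⁻¹ * g) w) = ρ g w
    rw [← Module.End.mul_apply, ← map_mul, mul_inv_cancel_left]
  · intro x _ hx
    rw [Pi.single_eq_of_ne hx]
    simp
  · intro h'
    exact absurd (Finset.mem_univ c) h'

lemma cosetMap_injective [FiniteDimensional k V] : Function.Injective (cosetMap ρ B W) := by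
  classical
  have hdim : finrank k ((G ⧸ B) → W) = finrank k V := by
    rw [Module.finrank_pi_fintype, Finset.sum_const, Finset.card_univ, smul_eq_mul, h.2.2,
      Subgroup.index_eq_card, Nat.card_eq_fintype_card]
  exact (LinearMap.injective_iff_surjective_of_finrank_eq_finrank hdim).2
    (cosetMap_surjective h)

/-- The part of `φ` on the coset `c`, moved to `B`. -/
def piece (B : Subgroup G) (W : Submodule k V) (φ : G → W) (c : G ⧸ B) : G → W :=
  fun y => if y ∈ B then φ (Quotient.out c * y) else 0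

omit h in
lemma piece_mem_XB (φ : G → W) (c : G ⧸ B) : piece B W φ c ∈ XB B W := by
  intro x hx
  simp [piece, hx]

omit h in
lemma out_inv_mul_mem_iff (c : G ⧸ B) (x : G) : (Quotient.out c)⁻¹ * x ∈ B ↔ c = (x : G ⧸ B) := by
  rw [← QuotientGroup.eq]
  constructor
  · intro h'
    rw [← h']
    exact (QuotientGroup.out_eq' c).symm
  · intro h'
    rw [← h']
    exact QuotientGroup.out_eq' c

omit h in
lemma funRep_piece (φ : G → W) (c : G ⧸ B) (x : G) :
    funRep k G W (Quotient.out c) (piece B W φ c) x = if c = (x : G ⧸ B) then φ x else 0 := by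
  simp only [funRep_apply, piece, out_inv_mul_mem_iff, mul_inv_cancel_left]

omit h in
/-- The decomposition of a function according to the cosets of `B`. -/
lemma sum_funRep_piece (φ : G → W) :
    ∑ c : G ⧸ B, funRep k G W (Quotient.out c) (piece B W φ c) = φ := by
  funext x
  rw [Finset.sum_apply]
  simp only [funRep_piece]
  rw [Finset.sum_ite_eq' Finset.univ (x : G ⧸ B) (fun _ => φ x)]
  simp

/-- The pieces of an element of the kernel of `sumMap` lie in the kernel. -/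
lemma sumMap_piece_eq_zero [FiniteDimensional k V] {φ : G → W} (hφ : sumMap ρ W φ = 0)
    (c : G ⧸ B) : sumMap ρ W (piece B W φ c) = 0 := by
  let w : (G ⧸ B) → W := fun c => ⟨sumMap ρ W (piece B W φ c),
    sumMap_mem_of_mem_XB h (piece_mem_XB φ c)⟩
  have h0 : cosetMap ρ B W w = 0 := by
    rw [cosetMap_apply]
    have : ∀ c : G ⧸ B, ρ (Quotient.out c) (w c : V)
        = sumMap ρ W (funRep k G W (Quotient.out c) (piece B W φ c)) := fun c =>
      (sumMap_funRep ρ W _ _).symm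
    simp only [this]
    rw [← map_sum, sum_funRep_piece, hφ]
  have h1 : w = 0 := cosetMap_injective h (by rw [h0, map_zero])
  have := congrFun h1 c
  exact congrArg Subtype.val this

/-- The kernel of `sumMap` on the functions supported on `B`. -/
def KB (ρ : Representation k G V) (B : Subgroup G) (W : Submodule k V) : Submodule k (G → W) :=
  LinearMap.ker (sumMap ρ W) ⊓ XB B W

/-- `(ψ_c) ↦ ∑ c, out c • ψ_c`. -/
def glue (ρ : Representation k G V) (B : Subgroup G) (W : Submodule k V) :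
    ((G ⧸ B) → KB ρ B W) →ₗ[k] (G → W) :=
  ∑ c : G ⧸ B, ((funRep k G W (Quotient.out c)) ∘ₗ (KB ρ B W).subtype) ∘ₗ LinearMap.proj c

omit h in
lemma glue_apply (ψ : (G ⧸ B) → KB ρ B W) :
    glue ρ B W ψ = ∑ c : G ⧸ B, funRep k G W (Quotient.out c) (ψ c : G → W) := by
  simp [glue]

omit h in
lemma glue_apply_apply (ψ : (G ⧸ B) → KB ρ B W) (x : G) :
    glue ρ B W ψ x = (ψ (x : G ⧸ B) : G → W) ((Quotient.out (x : G ⧸ B))⁻¹ * x) := by
  rw [glue_apply, Finset.sum_apply, Finset.sum_eq_single (x : G ⧸ B)]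
  · rfl
  · intro c _ hc
    rw [funRep_apply]
    refine (ψ c).2.2 _ ?_
    rw [out_inv_mul_mem_iff]
    exact hc
  · intro h'
    exact absurd (Finset.mem_univ _) h'

omit h in
lemma mk_out_mul (c : G ⧸ B) {y : G} (hy : y ∈ B) : ((Quotient.out c * y : G) : G ⧸ B) = c := by
  rw [QuotientGroup.mk_mul_of_mem _ hy]
  exact QuotientGroup.out_eq' c

omit h in
lemma glue_apply_out_mul (ψ : (G ⧸ B) → KB ρ B W) (c : G ⧸ B) {y : G} (hy : y ∈ B) :
    glue ρ B W ψ (Quotient.out c * y) = (ψ c : G → W) y := by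
  rw [glue_apply, Finset.sum_apply, Finset.sum_eq_single c]
  · rw [funRep_apply, inv_mul_cancel_left]
  · intro c' _ hc'
    rw [funRep_apply]
    refine (ψ c').2.2 _ ?_
    rw [out_inv_mul_mem_iff, mk_out_mul c hy]
    exact hc'
  · intro h'
    exact absurd (Finset.mem_univ _) h'

omit h in
lemma glue_injective : Function.Injective (glue ρ B W) := by
  rw [injective_iff_map_eq_zero]
  intro ψ hψ
  funext c
  apply Subtype.ext
  funext y
  show (ψ c : G → W) y = 0
  by_cases hy : y ∈ B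
  · rw [← glue_apply_out_mul ψ c hy, hψ]
    rfl
  · exact (ψ c).2.2 y hy

omit h in
lemma range_glue_le : LinearMap.range (glue ρ B W) ≤ LinearMap.ker (sumMap ρ W) := by
  rintro _ ⟨ψ, rfl⟩
  rw [LinearMap.mem_ker, glue_apply, map_sum]
  refine Finset.sum_eq_zero fun c _ => ?_
  rw [sumMap_funRep, LinearMap.mem_ker.1 (ψ c).2.1, map_zero]

lemma range_glue [FiniteDimensional k V] :
    LinearMap.range (glue ρ B W) = LinearMap.ker (sumMap ρ W) := by
  refine le_antisymm range_glue_le ?_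
  intro φ hφ
  rw [LinearMap.mem_ker] at hφ
  refine ⟨fun c => ⟨piece B W φ c, ?_, piece_mem_XB φ c⟩, ?_⟩
  · exact LinearMap.mem_ker.2 (sumMap_piece_eq_zero h hφ c)
  · rw [glue_apply]
    exact sum_funRep_piece φ

lemma finrank_ker_sumMap [FiniteDimensional k V] :
    finrank k (LinearMap.ker (sumMap ρ W)) = B.index * finrank k (KB ρ B W) := by
  rw [← range_glue h, LinearMap.finrank_range_of_inj glue_injective, Module.finrank_pi_fintype,
    Finset.sum_const, Finset.card_univ, smul_eq_mul, Subgroup.index_eq_card,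
    Nat.card_eq_fintype_card]

omit h in
lemma ker_stable (ρ : Representation k G V) (W : Submodule k V) (g : G) :
    LinearMap.ker (sumMap ρ W) ≤ (LinearMap.ker (sumMap ρ W)).comap (funRep k G W g) := by
  intro φ hφ
  rw [Submodule.mem_comap, LinearMap.mem_ker, sumMap_funRep, LinearMap.mem_ker.1 hφ, map_zero]

/-- The kernel of `sumMap` is induced from `B`. -/
lemma isInducedFrom_ker [FiniteDimensional k V] :
    IsInducedFrom ((funRep k G W).subrepresentation (LinearMap.ker (sumMap ρ W)) (ker_stable ρ W))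
      B ((KB ρ B W).comap (LinearMap.ker (sumMap ρ W)).subtype) := by
  refine ⟨?_, ?_, ?_⟩
  · intro b hb w hw
    rw [Submodule.mem_comap] at hw ⊢
    refine ⟨(ker_stable ρ W b) hw.1, ?_⟩
    intro x hx
    show (w : G → W) (b⁻¹ * x) = 0
    refine hw.2 _ fun hbx => hx ?_
    have := B.mul_mem hb hbx
    rwa [mul_inv_cancel_left] at this
  · rw [eq_top_iff]
    rintro ⟨φ, hφ⟩ -
    have hφ0 : sumMap ρ W φ = 0 := LinearMap.mem_ker.1 hφ
    have hpiece : ∀ c : G ⧸ B, piece B W φ c ∈ LinearMap.ker (sumMap ρ W) := fun c =>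
      LinearMap.mem_ker.2 (sumMap_piece_eq_zero h hφ0 c)
    have hsum : (⟨φ, hφ⟩ : LinearMap.ker (sumMap ρ W)) = ∑ c : G ⧸ B,
        ((funRep k G W).subrepresentation (LinearMap.ker (sumMap ρ W)) (ker_stable ρ W))
          (Quotient.out c) ⟨piece B W φ c, hpiece c⟩ := by
      apply Subtype.ext
      rw [Submodule.coe_sum]
      exact (sum_funRep_piece φ).symm
    rw [hsum]
    refine Submodule.sum_mem _ fun c _ => ?_
    refine Submodule.mem_iSup_of_mem (Quotient.out c) ?_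
    refine Submodule.mem_map_of_mem ?_
    rw [Submodule.mem_comap]
    exact ⟨hpiece c, piece_mem_XB φ c⟩
  · rw [finrank_ker_sumMap h]
    congr 1
    exact (LinearEquiv.finrank_eq
      (Submodule.comapSubtypeEquivOfLe (inf_le_left : KB ρ B W ≤ _))).symm

end induced

/-- **COMPL**, main form. -/
theorem compl_main {k : Type} [Field k] {G : Type} [Group G] [Finite G]
    {f : Rep.{0} k G → ℤ} (hf : IsAdditiveFn k G f) (B : Subgroup G)
    (hperm : f (Rep.of (permRep k G G)) ≤ 0)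
    (hpos : ∀ (V : Type) [AddCommGroup V] [Module k V] [FiniteDimensional k V]
      (ρ : Representation k G V) (W : Submodule k V), IsInducedFrom ρ B W → 0 ≤ f (Rep.of ρ))
    (V : Type) [AddCommGroup V] [Module k V] [FiniteDimensional k V]
    (ρ : Representation k G V) (W : Submodule k V) (h : IsInducedFrom ρ B W) :
    f (Rep.of ρ) = 0 := by
  cases nonempty_fintype G
  have h1 := hf.add (funRep k G W) (LinearMap.ker (sumMap ρ W)) (ker_stable ρ W)
  have h2 : f (Rep.of ((funRep k G W).quotient (LinearMap.ker (sumMap ρ W)) (ker_stable ρ W)))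
      = f (Rep.of ρ) := by
    refine hf.iso _ _ ((sumMap ρ W).quotKerEquivOfSurjective (sumMap_surjective h)) ?_
    intro g v
    obtain ⟨v, rfl⟩ := Submodule.Quotient.mk_surjective _ v
    exact sumMap_funRep ρ W g v
  have h3 : f (Rep.of (funRep k G W)) = (finrank k W : ℕ) * f (Rep.of (permRep k G G)) :=
    f_funRep hf _ W rfl
  have h4 := hpos _ _ _ (isInducedFrom_ker h)
  have h5 := hpos V ρ W h
  have h6 : ((finrank k W : ℕ) : ℤ) * f (Rep.of (permRep k G G)) ≤ 0 :=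
    mul_nonpos_of_nonneg_of_nonpos (Int.natCast_nonneg _) hperm
  rw [h2] at h1
  linarith

end Fermat.Agent.S56.EC.H4

end
end
-- ==== END Fermat.Agent.S56.EC.H4_ComplMain

-- ==== BEGIN Fermat.Agent.S56.EC.H9_RedAbs
section

set_option autoImplicit false
set_option linter.unusedSectionVars false
set_option linter.style.haveILetI false
set_option linter.unusedVariables false

noncomputable section

namespace Fermat.Agent.S56.EC.H9

open Polynomial Module

section fin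

variable (p : ℕ) [Fact p.Prime] {E : Type} [AddCommGroup E] [Module.Finite ℤ E]
  (P : AddSubgroup E) [Module (ZMod p) (E ⧸ P)]

/-- `E / P` is finite-dimensional over `𝔽_p`. -/
theorem finiteDimensional_quot : FiniteDimensional (ZMod p) (E ⧸ P) := by
  haveI : Module.Finite ℤ (E ⧸ P) :=
    Module.Finite.of_surjective (QuotientAddGroup.mk' P).toIntLinearMap
      (QuotientAddGroup.mk'_surjective P)
  exact Module.Finite.of_restrictScalars_finite ℤ (ZMod p) (E ⧸ P)

end fin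

section scalar

variable {k : Type} [Field k] {W : Type} [AddCommGroup W] [Module k W]

/-- The characteristic polynomial of a scalar on a line. -/
theorem charpoly_smul_id_of_finrank_one (h : Module.finrank k W = 1) (c : k)
    (ψ : W →ₗ[k] W) (hψ : ∀ w, ψ w = c • w) :
    haveI : FiniteDimensional k W := Module.finite_of_finrank_eq_succ h
    ψ.charpoly = X - C c := by
  haveI : FiniteDimensional k W := Module.finite_of_finrank_eq_succ h
  let b : Basis (Fin 1) k W := Module.finBasisOfFinrankEq k W h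
  have h1 : LinearMap.toMatrix b b ψ = Matrix.diagonal (fun _ : Fin 1 => c) := by
    ext i j
    rw [LinearMap.toMatrix_apply, hψ, map_smul]
    have hi : i = 0 := Subsingleton.elim _ _
    have hj : j = 0 := Subsingleton.elim _ _
    subst hi hj
    simp
  rw [← LinearMap.charpoly_toMatrix ψ b, h1, Matrix.charpoly_diagonal]
  simp

end scalar


section main

variable (p : ℕ) [Fact p.Prime] {E : Type} [AddCommGroup E] [Module.Finite ℤ E]
  (P : AddSubgroup E) [Module (ZMod p) (E ⧸ P)] [FiniteDimensional (ZMod p) (E ⧸ P)]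

/-- The reduction of the coordinates of `E / torsion` modulo `p`. -/
def coordRed {ι : Type} (b : Basis ι ℤ (E ⧸ Submodule.torsion ℤ E)) : E →+ (ι → ZMod p) where
  toFun u := fun i => ((b.repr (Submodule.Quotient.mk u) i : ℤ) : ZMod p)
  map_zero' := by
    funext i
    simp
  map_add' u v := by
    funext i
    simp

theorem coordRed_apply {ι : Type} (b : Basis ι ℤ (E ⧸ Submodule.torsion ℤ E)) (u : E) (i : ι) :
    coordRed p b u i = ((b.repr (Submodule.Quotient.mk u) i : ℤ) : ZMod p) := rfl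

theorem coordRed_nsmul {ι : Type} (b : Basis ι ℤ (E ⧸ Submodule.torsion ℤ E)) (v : E) :
    coordRed p b (p • v) = 0 := by
  rw [map_nsmul]
  funext i
  simp

theorem coordRed_torsion {ι : Type} (b : Basis ι ℤ (E ⧸ Submodule.torsion ℤ E)) (t : E)
    (ht : t ∈ Submodule.torsion ℤ E) : coordRed p b t = 0 := by
  funext i
  rw [coordRed_apply, (Submodule.Quotient.mk_eq_zero _).2 ht]
  simp

theorem coordRed_surjective {ι : Type} [Fintype ι]
    (b : Basis ι ℤ (E ⧸ Submodule.torsion ℤ E)) :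
    Function.Surjective (coordRed p (E := E) b) := by
  intro c
  haveI : NeZero p := ⟨(Fact.out : p.Prime).ne_zero⟩
  obtain ⟨u, hu⟩ := Submodule.Quotient.mk_surjective (Submodule.torsion ℤ E)
    (b.equivFun.symm (fun i => ((c i).val : ℤ)))
  refine ⟨u, ?_⟩
  funext i
  have h3 : (b.repr (b.equivFun.symm (fun i => ((c i).val : ℤ)))) i = ((c i).val : ℤ) := by
    rw [← b.equivFun_apply, LinearEquiv.apply_symm_apply]
  rw [coordRed_apply, hu, h3]
  simp

theorem coordRed_eq_zero {ι : Type} [Fintype ι]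
    (b : Basis ι ℤ (E ⧸ Submodule.torsion ℤ E)) (u : E) (hu : coordRed p b u = 0) :
    ∃ v : E, u - p • v ∈ Submodule.torsion ℤ E := by
  have h1 : ∀ i, ∃ n : ℤ, b.repr (Submodule.Quotient.mk u) i = (p : ℤ) * n := by
    intro i
    have h2 := congrFun hu i
    rw [coordRed_apply, Pi.zero_apply, ZMod.intCast_zmod_eq_zero_iff_dvd] at h2
    exact h2
  choose n hn using h1
  obtain ⟨v, hv⟩ := Submodule.Quotient.mk_surjective (Submodule.torsion ℤ E)
    (b.equivFun.symm n)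
  refine ⟨v, ?_⟩
  rw [← Submodule.Quotient.mk_eq_zero, Submodule.Quotient.mk_sub, sub_eq_zero]
  apply b.repr.injective
  ext i
  have h3 : (b.repr (b.equivFun.symm n)) i = n i := by
    rw [← b.equivFun_apply, LinearEquiv.apply_symm_apply]
  rw [hn i, ← natCast_zsmul, Submodule.Quotient.mk_smul, hv, map_smul, Finsupp.smul_apply, h3,
    smul_eq_mul]

/-- **Abstract RED.** -/
theorem brauer_lattice
    (hP : ∀ u : E, u ∈ P ↔ ∃ v : E, p • v = u)
    (f : E →ₗ[ℤ] E) (hf : Submodule.torsion ℤ E ≤ (Submodule.torsion ℤ E).comap f)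
    (φ : (E ⧸ P) →ₗ[ZMod p] (E ⧸ P))
    (hφ : ∀ u : E, φ (QuotientAddGroup.mk u) = QuotientAddGroup.mk (f u))
    (m : ℕ) (hm : 0 < m) (hpm : ¬ p ∣ m) (hfm : f ^ m = 1)
    (z : E) (hz : z ∈ Submodule.torsion ℤ E)
    (hgen : ∀ t ∈ Submodule.torsion ℤ E, ∃ n : ℤ, t = n • z)
    (hzP : z ∉ P) (a : ℤ) (ha : f z = a • z) :
    (((LinearMap.charpoly φ).aroots (AlgebraicClosure (ZMod p))).map
        (WittVector.teichmuller p)).sum
      = WittVector.teichmuller p (algebraMap (ZMod p) (AlgebraicClosure (ZMod p)) (a : ZMod p))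
        + ((LinearMap.trace ℤ (E ⧸ Submodule.torsion ℤ E)
            ((Submodule.torsion ℤ E).mapQ (Submodule.torsion ℤ E) f hf) : ℤ) :
              IND.WK p (ZMod p)) := by
  classical
  have hp : p.Prime := Fact.out
  -- the lattice
  let ι := Module.Free.ChooseBasisIndex ℤ (E ⧸ Submodule.torsion ℤ E)
  let bΛ : Basis ι ℤ (E ⧸ Submodule.torsion ℤ E) :=
    Module.Free.chooseBasis ℤ (E ⧸ Submodule.torsion ℤ E)
  set fΛ : (E ⧸ Submodule.torsion ℤ E) →ₗ[ℤ] (E ⧸ Submodule.torsion ℤ E) :=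
    (Submodule.torsion ℤ E).mapQ (Submodule.torsion ℤ E) f hf with hfΛ
  set A : Matrix ι ι ℤ := LinearMap.toMatrix bΛ bΛ fΛ with hAdef
  have hfΛm : fΛ ^ m = 1 := by
    rw [hfΛ, ← Submodule.mapQ_pow]
    apply LinearMap.ext
    intro x
    induction x using Submodule.Quotient.induction_on with
    | H u =>
      rw [Submodule.mapQ_apply, hfm]
      rfl
  have hA : A ^ m = 1 := by
    have h1 := LinearMap.toMatrix_pow bΛ fΛ m
    rw [hfΛm, LinearMap.toMatrix_one] at h1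
    exact h1
  have htr : LinearMap.trace ℤ (E ⧸ Submodule.torsion ℤ E) fΛ = A.trace :=
    LinearMap.trace_eq_matrix_trace ℤ bΛ fΛ
  -- the line `W` spanned by the class of `z`
  set w₀ : E ⧸ P := QuotientAddGroup.mk z with hw₀def
  have hw₀ : w₀ ≠ 0 := fun h => hzP ((QuotientAddGroup.eq_zero_iff z).1 h)
  have hφw₀ : φ w₀ = (a : ZMod p) • w₀ := by
    rw [hw₀def, hφ, ha, QuotientAddGroup.mk_zsmul, Int.cast_smul_eq_zsmul]
  set W : Submodule (ZMod p) (E ⧸ P) := Submodule.span (ZMod p) {w₀} with hWdef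
  have hφW : ∀ w ∈ W, φ w = (a : ZMod p) • w := by
    intro w hw
    obtain ⟨c, rfl⟩ := Submodule.mem_span_singleton.1 hw
    rw [map_smul, hφw₀, smul_comm]
  have hW : W ≤ W.comap φ := by
    intro w hw
    rw [Submodule.mem_comap, hφW w hw]
    exact W.smul_mem _ hw
  have hfinW : Module.finrank (ZMod p) W = 1 := finrank_span_singleton hw₀
  have hch1 : (φ.restrict hW).charpoly = X - C (a : ZMod p) := by
    refine charpoly_smul_id_of_finrank_one hfinW (a : ZMod p) (φ.restrict hW) (fun w => ?_)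
    apply Subtype.ext
    rw [LinearMap.coe_restrict_apply, hφW w.1 w.2]
    rfl
  -- the quotient `U / W`
  let ψ₀ : (E ⧸ P) →+ (ι → ZMod p) := QuotientAddGroup.lift P (coordRed p bΛ) (by
    intro u hu
    obtain ⟨v, rfl⟩ := (hP u).1 hu
    exact coordRed_nsmul p bΛ v)
  have hψ₀ : ∀ u : E, ψ₀ (QuotientAddGroup.mk u) = coordRed p bΛ u := fun u => rfl
  let ψ₀L : (E ⧸ P) →ₗ[ZMod p] (ι → ZMod p) := ψ₀.toZModLinearMap p
  have hψ₀L : ∀ x, ψ₀L x = ψ₀ x := fun x => rfl
  have hWker : W ≤ LinearMap.ker ψ₀L := by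
    rw [hWdef, Submodule.span_le]
    intro w hw
    rw [Set.mem_singleton_iff] at hw
    subst hw
    show ψ₀L w₀ = 0
    rw [hψ₀L, hw₀def, hψ₀]
    exact coordRed_torsion p bΛ z hz
  let ψ : ((E ⧸ P) ⧸ W) →ₗ[ZMod p] (ι → ZMod p) := W.liftQ ψ₀L hWker
  have hψ : ∀ u : E, ψ (Submodule.Quotient.mk (QuotientAddGroup.mk u)) = coordRed p bΛ u :=
    fun u => rfl
  have hψinj : Function.Injective ψ := by
    rw [← LinearMap.ker_eq_bot, eq_bot_iff]
    intro x hx
    induction x using Submodule.Quotient.induction_on with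
    | H y =>
      induction y using QuotientAddGroup.induction_on with
      | H u =>
        rw [LinearMap.mem_ker, hψ] at hx
        obtain ⟨v, hv⟩ := coordRed_eq_zero p bΛ u hx
        obtain ⟨n, hn⟩ := hgen _ hv
        rw [Submodule.mem_bot, Submodule.Quotient.mk_eq_zero]
        have h1 : (QuotientAddGroup.mk u : E ⧸ P) = (n : ZMod p) • w₀ := by
          have h2 : u = n • z + p • v := by
            rw [← hn]
            abel
          rw [h2, QuotientAddGroup.mk_add, hw₀def, QuotientAddGroup.mk_zsmul,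
            Int.cast_smul_eq_zsmul,
            (QuotientAddGroup.eq_zero_iff (p • v)).2 ((hP _).2 ⟨v, rfl⟩), add_zero]
        rw [h1]
        exact W.smul_mem _ (Submodule.mem_span_singleton_self w₀)
  have hψsurj : Function.Surjective ψ := by
    intro c
    obtain ⟨u, hu⟩ := coordRed_surjective p bΛ c
    exact ⟨Submodule.Quotient.mk (QuotientAddGroup.mk u), by rw [hψ, hu]⟩
  let e : ((E ⧸ P) ⧸ W) ≃ₗ[ZMod p] (ι → ZMod p) := LinearEquiv.ofBijective ψ ⟨hψinj, hψsurj⟩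
  have he : ∀ x, e x = ψ x := fun x => rfl
  set Ā : Matrix ι ι (ZMod p) := A.map (Int.castRingHom (ZMod p)) with hĀ
  have hconj : e.conj (W.mapQ W φ hW) = Matrix.toLin' Ā := by
    apply LinearMap.ext
    intro y
    obtain ⟨x, rfl⟩ := e.surjective y
    rw [LinearEquiv.conj_apply_apply, LinearEquiv.symm_apply_apply]
    induction x using Submodule.Quotient.induction_on with
    | H y =>
      induction y using QuotientAddGroup.induction_on with
      | H u =>
        rw [Submodule.mapQ_apply, hφ, he, he, hψ, hψ]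
        funext i
        rw [Matrix.toLin'_apply, coordRed_apply]
        have h1 : Submodule.Quotient.mk (f u) = fΛ (Submodule.Quotient.mk u) := rfl
        rw [h1, ← LinearMap.toMatrix_mulVec_repr bΛ bΛ fΛ]
        have h2 := RingHom.map_mulVec (Int.castRingHom (ZMod p)) A
          (bΛ.repr (Submodule.Quotient.mk u)) i
        exact h2
  have hch2 : (W.mapQ W φ hW).charpoly = Ā.charpoly := by
    rw [← LinearEquiv.charpoly_conj e, hconj, Matrix.charpoly_toLin']
  -- the characteristic polynomial of `φ`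
  have hch : φ.charpoly = (X - C (a : ZMod p)) * Ā.charpoly := by
    rw [IND.H74.charpoly_eq_restrict_mul_mapQ W φ hW, hch1, hch2]
  -- the roots
  haveI : NeZero m := ⟨hm.ne'⟩
  haveI : NeZero ((m : ℕ) : ZMod p) := ⟨by
    intro h
    exact hpm ((CharP.cast_eq_zero_iff (ZMod p) p m).mp h)⟩
  obtain ⟨ζ₀, hζ₀⟩ :=
    HasEnoughRootsOfUnity.exists_primitiveRoot (AlgebraicClosure (ZMod p)) m
  have hPm : (A.map (Int.castRingHom (IND.WK p (ZMod p)))) ^ m = 1 := by
    have h := congrArg (RingHom.mapMatrix (m := ι) (Int.castRingHom (IND.WK p (ZMod p)))) hA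
    rw [map_pow, map_one] at h
    exact h
  have key := IND.H74.lift_trace
    (WittVector.constantCoeff (p := p) (R := AlgebraicClosure (ZMod p)))
    (WittVector.teichmuller p) (fun x => WittVector.teichmuller_coeff_zero p x)
    (A.map (Int.castRingHom (IND.WK p (ZMod p)))) m hPm ζ₀ hζ₀
  have hmap : (A.map (Int.castRingHom (IND.WK p (ZMod p)))).map
      (WittVector.constantCoeff (p := p) (R := AlgebraicClosure (ZMod p))) =
      Ā.map (algebraMap (ZMod p) (AlgebraicClosure (ZMod p))) := by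
    ext i j
    simp [hĀ]
  have htrP : (A.map (Int.castRingHom (IND.WK p (ZMod p)))).trace =
      ((A.trace : ℤ) : IND.WK p (ZMod p)) := by
    exact (AddMonoidHom.map_trace (Int.castRingHom (IND.WK p (ZMod p))) A).symm
  have hne : (X - C (a : ZMod p)) * Ā.charpoly ≠ 0 :=
    mul_ne_zero (X_sub_C_ne_zero (a : ZMod p)) (Matrix.charpoly_monic Ā).ne_zero
  have hroots : Ā.charpoly.aroots (AlgebraicClosure (ZMod p)) =
      (Ā.map (algebraMap (ZMod p) (AlgebraicClosure (ZMod p)))).charpoly.roots := by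
    rw [Polynomial.aroots_def, Matrix.charpoly_map Ā (algebraMap (ZMod p) _)]
  rw [hch, aroots_mul hne, Multiset.map_add, Multiset.sum_add, aroots_X_sub_C,
    Multiset.map_singleton, Multiset.sum_singleton, htr, ← htrP, ← key, hmap, hroots]

end main

end Fermat.Agent.S56.EC.H9

end

end
-- ==== END Fermat.Agent.S56.EC.H9_RedAbs

-- ==== BEGIN Fermat.Agent.S56.FL.H50_CohSSc
section

set_option autoImplicit false

/-!
# LOC-p-FL, package COH-SS (helper50), part c: the diagonal subgroup and its characters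

`R : G →* M₂(k)` with every `R σ` diagonal or antidiagonal.
* `diagSub R h`   : the subgroup `G₂` of the `σ` with `R σ` diagonal; index `2` if some `R g` is
                    antidiagonal;
* `diagChar0/1`   : the two diagonal characters `G₂ →* kˣ`;
* `IsCocM.entry00_zero` : the `(0,0)`-entry of a trace-zero cocycle vanishes on `G₂` if it
                    vanishes on a subgroup `I ≤ G₂` with `G = ⟨φ'⟩ · I · K`, `C = 0` on `K`.
-/

noncomputable section

namespace Fermat.Agent.S56.FL.H50.SS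

open Matrix

variable {k : Type*} [Field k] {G : Type*} [Group G] (R : G →* Matrix (Fin 2) (Fin 2) k)
  (hM1 : ∀ σ, IsDiagM (R σ) ∨ IsAntiM (R σ))

/-- The subgroup of the elements acting by diagonal matrices. -/
def diagSub : Subgroup G where
  carrier := {σ | IsDiagM (R σ)}
  mul_mem' := by
    intro a b ha hb
    show IsDiagM (R (a * b))
    rw [map_mul]
    exact isDiagM_mul ha hb
  one_mem' := by
    show IsDiagM (R 1)
    rw [map_one]
    exact isDiagM_one
  inv_mem' := by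
    intro a ha
    show IsDiagM (R a⁻¹)
    rcases hM1 a⁻¹ with h | h
    · exact h
    · exfalso
      have h1 : IsAntiM (R a * R a⁻¹) := isAntiM_diag_mul ha h
      rw [R_mul_inv] at h1
      exact not_diag_and_anti (one_mul (1 : Matrix (Fin 2) (Fin 2) k)) isDiagM_one h1

variable {R}

theorem mem_diagSub {σ : G} : σ ∈ diagSub R hM1 ↔ IsDiagM (R σ) := Iff.rfl

theorem not_mem_diagSub_of_anti {g : G} (hg : IsAntiM (R g)) : g ∉ diagSub R hM1 :=
  fun h => not_diag_and_anti (R_mul_inv R g) h hg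

theorem anti_of_not_mem {g : G} (hg : g ∉ diagSub R hM1) : IsAntiM (R g) :=
  (hM1 g).resolve_left hg

theorem diagSub_cover {g : G} (hg : IsAntiM (R g)) (σ : G) :
    σ ∈ diagSub R hM1 ∨ g⁻¹ * σ ∈ diagSub R hM1 := by
  rcases hM1 σ with h | h
  · exact Or.inl h
  · right
    show IsDiagM (R (g⁻¹ * σ))
    rw [map_mul]
    exact isDiagM_anti_mul (anti_inv hg (R_mul_inv R g)) h

theorem diagSub_sq {g : G} (hg : IsAntiM (R g)) : g * g ∈ diagSub R hM1 := by
  show IsDiagM (R (g * g))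
  rw [map_mul]
  exact isDiagM_anti_mul hg hg

theorem diagSub_conj {g : G} (hg : IsAntiM (R g)) {τ : G} (hτ : τ ∈ diagSub R hM1) :
    g⁻¹ * τ * g ∈ diagSub R hM1 := by
  show IsDiagM (R (g⁻¹ * τ * g))
  rw [map_mul, map_mul]
  exact isDiagM_anti_mul (isAntiM_mul_diag (anti_inv hg (R_mul_inv R g)) hτ) hg

theorem diagSub_index {g : G} (hg : IsAntiM (R g)) : (diagSub R hM1).index = 2 := by
  rw [Subgroup.index_eq_two_iff]
  refine ⟨g, fun b => ?_⟩
  rcases hM1 b with h | h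
  · refine Or.inr ⟨h, ?_⟩
    intro h1
    have h2 : IsAntiM (R (b * g)) := by rw [map_mul]; exact isAntiM_diag_mul h hg
    exact not_diag_and_anti (R_mul_inv R (b * g)) h1 h2
  · refine Or.inl ⟨?_, fun h1 => not_diag_and_anti (R_mul_inv R b) h1 h⟩
    show IsDiagM (R (b * g))
    rw [map_mul]
    exact isDiagM_anti_mul h hg

/-- Powers of an antidiagonal element. -/
theorem anti_pow_odd {g : G} (hg : IsAntiM (R g)) (m : ℕ) : IsAntiM (R (g ^ (2 * m + 1))) := by
  induction m with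
  | zero => simpa using hg
  | succ m ih =>
    have e : g ^ (2 * (m + 1) + 1) = g ^ (2 * m + 1) * (g * g) := by
      rw [show 2 * (m + 1) + 1 = (2 * m + 1) + 2 by ring, pow_add, pow_two]
    rw [e, map_mul, map_mul]
    exact isAntiM_mul_diag ih (isDiagM_anti_mul hg hg)

/-! ## The diagonal characters -/

/-- The character `σ ↦ (R σ) 0 0` of the diagonal subgroup. -/
def diagChar0 : diagSub R hM1 →* kˣ where
  toFun σ := ⟨R σ 0 0, R (σ : G)⁻¹ 0 0, diag_inv_00 σ.2 (R_mul_inv R σ),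
    by rw [mul_comm]; exact diag_inv_00 σ.2 (R_mul_inv R σ)⟩
  map_one' := by
    apply Units.ext
    show R ((1 : diagSub R hM1) : G) 0 0 = 1
    rw [Subgroup.coe_one, map_one]
    simp
  map_mul' := by
    intro σ τ
    apply Units.ext
    show R ((σ * τ : diagSub R hM1) : G) 0 0 = R σ 0 0 * R τ 0 0
    rw [Subgroup.coe_mul, map_mul, mul2_apply, σ.2.1]
    ring

/-- The character `σ ↦ (R σ) 1 1` of the diagonal subgroup. -/
def diagChar1 : diagSub R hM1 →* kˣ where
  toFun σ := ⟨R σ 1 1, R (σ : G)⁻¹ 1 1, diag_inv_11 σ.2 (R_mul_inv R σ),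
    by rw [mul_comm]; exact diag_inv_11 σ.2 (R_mul_inv R σ)⟩
  map_one' := by
    apply Units.ext
    show R ((1 : diagSub R hM1) : G) 1 1 = 1
    rw [Subgroup.coe_one, map_one]
    simp
  map_mul' := by
    intro σ τ
    apply Units.ext
    show R ((σ * τ : diagSub R hM1) : G) 1 1 = R σ 1 1 * R τ 1 1
    rw [Subgroup.coe_mul, map_mul, mul2_apply, σ.2.2]
    ring

@[simp] theorem diagChar0_val (σ : diagSub R hM1) : ((diagChar0 hM1 σ : kˣ) : k) = R σ 0 0 := rfl

@[simp] theorem diagChar1_val (σ : diagSub R hM1) : ((diagChar1 hM1 σ : kˣ) : k) = R σ 1 1 := rfl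

theorem diagChar1_inv_val (σ : diagSub R hM1) :
    (((diagChar1 hM1 σ)⁻¹ : kˣ) : k) = R (σ : G)⁻¹ 1 1 := rfl

/-- The character `χ = χ₀ / χ₁`. -/
def diagChi : diagSub R hM1 →* kˣ := diagChar0 hM1 / diagChar1 hM1

theorem diagChi_val (σ : diagSub R hM1) :
    ((diagChi hM1 σ : kˣ) : k) = R σ 0 0 * R (σ : G)⁻¹ 1 1 := by
  show ((diagChar0 hM1 σ / diagChar1 hM1 σ : kˣ) : k) = _
  rw [div_eq_mul_inv, Units.val_mul, diagChar0_val, diagChar1_inv_val]

/-! ## Cocycles on the diagonal subgroup -/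

variable {C : G → Matrix (Fin 2) (Fin 2) k}

theorem IsCocM.entry00_add (hC : IsCocM R C) {σ : G} (hσ : σ ∈ diagSub R hM1) (τ : G) :
    C (σ * τ) 0 0 = C σ 0 0 + C τ 0 0 := by
  rw [hC σ τ, Matrix.add_apply,
    diag_conj_00 hσ ((diagSub R hM1).inv_mem hσ) (R_mul_inv R σ)]

theorem IsCocM.entry01_add (hC : IsCocM R C) {σ : G} (hσ : σ ∈ diagSub R hM1) (τ : G) :
    C (σ * τ) 0 1 = C σ 0 1 + (R σ 0 0 * R σ⁻¹ 1 1) * C τ 0 1 := by
  rw [hC σ τ, Matrix.add_apply, diag_conj_01 hσ ((diagSub R hM1).inv_mem hσ)]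

/-- The `(0,0)`-entry of a trace-zero cocycle at the square of an antidiagonal element. -/
theorem IsCocM.entry00_sq (hC : IsCocM R C) (htr : ∀ σ, C σ 0 0 + C σ 1 1 = 0) {g : G}
    (hg : IsAntiM (R g)) : C (g * g) 0 0 = 0 := by
  rw [hC g g, Matrix.add_apply, anti_conj_00 hg (anti_inv hg (R_mul_inv R g)) (R_mul_inv R g)]
  exact htr g

/-- **(C)** The `(0,0)`-entry of a trace-zero cocycle vanishes on the diagonal subgroup, if it
vanishes on a subgroup `I` of the diagonal subgroup such that `G = ⟨φ'⟩ · I · K`, where the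
cocycle vanishes on `K` and `R` is trivial on `K`. -/
theorem IsCocM.entry00_zero (hC : IsCocM R C) (htr : ∀ σ, C σ 0 0 + C σ 1 1 = 0)
    {g : G} (hg : IsAntiM (R g)) (I : Subgroup G) (hI : I ≤ diagSub R hM1)
    (hCI : ∀ ι ∈ I, C ι 0 0 = 0) (φ' : G)
    (hgen : ∀ σ : G, ∃ n : ℕ, ∃ ι ∈ I, ∃ τ : G, (R τ = 1 ∧ C τ = 0) ∧ σ = φ' ^ n * ι * τ) :
    ∀ σ ∈ diagSub R hM1, C σ 0 0 = 0 := by
  have hK : ∀ τ : G, R τ = 1 → τ ∈ diagSub R hM1 := by
    intro τ hτ
    show IsDiagM (R τ)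
    rw [hτ]
    exact isDiagM_one
  -- `φ'` is antidiagonal
  have hφ' : IsAntiM (R φ') := by
    apply anti_of_not_mem hM1
    intro hmem
    apply not_mem_diagSub_of_anti hM1 hg
    obtain ⟨n, ι, hι, τ, hτ, rfl⟩ := hgen g
    exact mul_mem (mul_mem (pow_mem hmem n) (hI hι)) (hK τ hτ.1)
  have hsq : φ' * φ' ∈ diagSub R hM1 := diagSub_sq hM1 hφ'
  have hpow : ∀ m : ℕ, C ((φ' * φ') ^ m) 0 0 = 0 := by
    intro m
    induction m with
    | zero =>
      rw [pow_zero, hC.one]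
      rfl
    | succ m ih =>
      rw [pow_succ', hC.entry00_add hM1 hsq, ih, hC.entry00_sq htr hφ', add_zero]
  intro σ hσ
  obtain ⟨n, ι, hι, τ, hτ, rfl⟩ := hgen σ
  have hιτ : ι * τ ∈ diagSub R hM1 := mul_mem (hI hι) (hK τ hτ.1)
  have hn : φ' ^ n ∈ diagSub R hM1 := by
    have e : φ' ^ n = (φ' ^ n * ι * τ) * (ι * τ)⁻¹ := by group
    rw [e]
    exact mul_mem hσ (inv_mem hιτ)
  -- `n` is even
  obtain ⟨m, rfl | rfl⟩ := Nat.even_or_odd' n
  · have e : φ' ^ (2 * m) = (φ' * φ') ^ m := by rw [← pow_two, ← pow_mul]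
    rw [mul_assoc, hC.entry00_add hM1 hn, e, hpow m, hC.entry00_add hM1 (hI hι), hCI ι hι,
      hτ.2]
    simp
  · exact absurd hn (not_mem_diagSub_of_anti hM1 (anti_pow_odd hφ' m))

end Fermat.Agent.S56.FL.H50.SS

end

end
-- ==== END Fermat.Agent.S56.FL.H50_CohSSc

-- ==== BEGIN Fermat.Agent.S56.FL.H50_LiftB
section

set_option autoImplicit false

/-!
# LOC-p-FL, package LIFT-b: `p`-th roots of `1 + y` in a finite free `𝒪_F`-algebra
-/

noncomputable section

namespace Fermat.Agent.S56.FL.H50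

open scoped NNReal
open Fermat.Agent.S56.FL

variable {p : ℕ} [Fact p.Prime] {F : IntermediateField ℚ_[p] (PadicAlgCl p)}
variable {C : Type} [CommRing C] [Algebra (intRing p F) C]
variable {ι : Type} [Fintype ι] (b : Module.Basis ι (intRing p F) C)

theorem mem_map_of_cnorm_le {c : ℝ≥0} {z : C} (hz : cnorm b z ≤ c) :
    z ∈ Ideal.map (algebraMap (intRing p F) C) (ballIdeal p F c) := by
  rw [← b.sum_repr z]
  refine Ideal.sum_mem _ fun i _ => ?_
  rw [Algebra.smul_def]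
  refine Ideal.mul_mem_right _ _ (Ideal.mem_map_of_mem _ ?_)
  rw [mem_ballIdeal]
  exact_mod_cast (coord_le_cnorm b z i).trans hz

theorem cnorm_sub_le (z w : C) : cnorm b (z - w) ≤ max (cnorm b z) (cnorm b w) := by
  rw [sub_eq_add_neg]
  exact (cnorm_add_le b z (-w)).trans (by rw [cnorm_neg])

theorem cnorm_sub_comm (z w : C) : cnorm b (z - w) = cnorm b (w - z) := by
  rw [← cnorm_neg, neg_sub]

theorem p_pos_nn : (0 : ℝ≥0) < (p : ℝ≥0) := by
  exact_mod_cast (Fact.out : p.Prime).pos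

/-- Division by `p` of an element of small norm. -/
theorem exists_p_mul_eq {a : C} (ha : cnorm b a ≤ (p : ℝ≥0)⁻¹) : ∃ a' : C, (p : C) * a' = a := by
  have hp0 : (p : PadicAlgCl p) ≠ 0 := by
    exact_mod_cast (Fact.out : p.Prime).ne_zero
  have hcoord : ∀ i, ∃ r : intRing p F, (p : intRing p F) * r = b.repr a i := by
    intro i
    have h1 : ‖((b.repr a i : intRing p F) : PadicAlgCl p)‖₊ ≤ (p : ℝ≥0)⁻¹ :=
      (coord_le_cnorm b a i).trans ha
    have hmem : ((b.repr a i : intRing p F) : PadicAlgCl p) / (p : PadicAlgCl p) ∈ intRing p F := by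
      refine ⟨F.div_mem (b.repr a i).2.1 (by simpa using F.natCast_mem p), ?_⟩
      have h2 : ‖((b.repr a i : intRing p F) : PadicAlgCl p) / (p : PadicAlgCl p)‖₊ ≤ 1 := by
        rw [nnnorm_div, nnnorm_p, div_eq_mul_inv, inv_inv]
        calc ‖((b.repr a i : intRing p F) : PadicAlgCl p)‖₊ * (p : ℝ≥0)
            ≤ (p : ℝ≥0)⁻¹ * (p : ℝ≥0) := mul_le_mul' h1 le_rfl
          _ = 1 := inv_mul_cancel₀ p_pos_nn.ne'
      exact_mod_cast h2
    refine ⟨⟨_, hmem⟩, Subtype.ext ?_⟩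
    simp only [Subring.coe_mul, Subring.coe_natCast]
    field_simp
  choose r hr using hcoord
  refine ⟨∑ i, r i • b i, ?_⟩
  rw [Finset.mul_sum]
  conv_rhs => rw [← b.sum_repr a]
  refine Finset.sum_congr rfl fun i _ => ?_
  rw [← hr i, mul_smul, Algebra.smul_def (p : intRing p F), map_natCast]

/-- A chosen quotient by `p` (junk value `0` if there is none). -/
def divp (a : C) : C := by
  classical
  exact if h : ∃ a' : C, (p : C) * a' = a then h.choose else 0

omit [Fintype ι] in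
theorem p_mul_divp {a : C} (h : ∃ a' : C, (p : C) * a' = a) : (p : C) * divp (p := p) a = a := by
  classical
  rw [divp, dif_pos h]
  exact h.choose_spec

theorem cnorm_divp {a : C} (h : ∃ a' : C, (p : C) * a' = a) :
    cnorm b (divp (p := p) a) = (p : ℝ≥0) * cnorm b a := by
  have h1 := congrArg (cnorm b) (p_mul_divp (p := p) h)
  rw [cnorm_natCast_mul, nnnorm_p] at h1
  rw [← h1, ← mul_assoc, mul_inv_cancel₀ p_pos_nn.ne', one_mul]

/-- General binomial expansion with the terms `m = 0, 1, p` split off. -/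
theorem add_pow_prime' (w x : C) :
    (w + x) ^ p = w ^ p + (p : C) * x * w ^ (p - 1)
      + (∑ m ∈ Finset.Ico 2 p, (p.choose m : C) * x ^ m * w ^ (p - m)) + x ^ p := by
  have hp2 : 2 ≤ p := (Fact.out : p.Prime).two_le
  rw [add_comm w x, add_pow, Finset.range_eq_Ico,
    Finset.sum_eq_sum_Ico_succ_bot (by omega : 0 < p + 1),
    Finset.sum_eq_sum_Ico_succ_bot (by omega : 0 + 1 < p + 1),
    Finset.sum_Ico_succ_top (by omega : 0 + 1 + 1 ≤ p)]
  simp only [pow_zero, Nat.choose_zero_right, Nat.cast_one, zero_add, pow_one,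
    Nat.choose_one_right, Nat.choose_self, Nat.sub_zero, Nat.sub_self, one_mul, mul_one]
  have : (∑ m ∈ Finset.Ico (1 + 1) p, x ^ m * w ^ (p - m) * (p.choose m : C))
      = ∑ m ∈ Finset.Ico 2 p, (p.choose m : C) * x ^ m * w ^ (p - m) :=
    Finset.sum_congr rfl fun m _ => by ring
  rw [this]
  ring

theorem cnorm_pow_sub_one_le (z : C) (k : ℕ) : cnorm b ((1 + z) ^ k - 1) ≤ cnorm b z := by
  have h : (1 + z) ^ k - 1 = z * ∑ i ∈ Finset.range k, (1 + z) ^ i := by
    have := mul_geom_sum (1 + z) k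
    rw [add_sub_cancel_left] at this
    exact this.symm
  rw [h]
  calc cnorm b (z * ∑ i ∈ Finset.range k, (1 + z) ^ i)
      ≤ cnorm b z * cnorm b (∑ i ∈ Finset.range k, (1 + z) ^ i) := cnorm_mul_le b _ _
    _ ≤ cnorm b z * 1 := mul_le_mul' le_rfl (cnorm_le_one b _)
    _ = cnorm b z := mul_one _

theorem cnorm_pow_sub_pow_le (x w : C) (k : ℕ) : cnorm b (x ^ k - w ^ k) ≤ cnorm b (x - w) := by
  have h : x ^ k - w ^ k = (x - w) * ∑ i ∈ Finset.range k, x ^ i * w ^ (k - 1 - i) :=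
    ((Commute.all x w).mul_geom_sum₂ k).symm
  rw [h]
  calc cnorm b ((x - w) * ∑ i ∈ Finset.range k, x ^ i * w ^ (k - 1 - i))
      ≤ cnorm b (x - w) * cnorm b (∑ i ∈ Finset.range k, x ^ i * w ^ (k - 1 - i)) :=
        cnorm_mul_le b _ _
    _ ≤ cnorm b (x - w) * 1 := mul_le_mul' le_rfl (cnorm_le_one b _)
    _ = cnorm b (x - w) := mul_one _


/-! ### Completeness -/

/-- Coordinatewise limits: a sequence in `C` whose consecutive differences are geometrically small
converges coordinatewise to some `l : C` (here `F/ℚ_p` is finite, so `F` is complete). -/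
theorem exists_limit [FiniteDimensional ℚ_[p] F] (z : ℕ → C) (A κ : ℝ≥0) (hκ : κ < 1)
    (hz : ∀ n, cnorm b (z (n + 1) - z n) ≤ A * κ ^ n) :
    ∃ l : C, ∀ i, Filter.Tendsto (fun n => ((b.repr (z n) i : intRing p F) : PadicAlgCl p))
      Filter.atTop (nhds ((b.repr l i : intRing p F) : PadicAlgCl p)) := by
  have hFc : IsComplete ((F.toSubalgebra.toSubmodule : Submodule ℚ_[p] (PadicAlgCl p)) :
      Set (PadicAlgCl p)) := by
    have : FiniteDimensional ℚ_[p] (F.toSubalgebra.toSubmodule : Submodule ℚ_[p] (PadicAlgCl p)) :=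
      inferInstanceAs (FiniteDimensional ℚ_[p] F)
    exact Submodule.complete_of_finiteDimensional _
  have hlim : ∀ i, ∃ l : PadicAlgCl p, l ∈ F ∧ ‖l‖ ≤ 1 ∧
      Filter.Tendsto (fun n => ((b.repr (z n) i : intRing p F) : PadicAlgCl p)) Filter.atTop
        (nhds l) := by
    intro i
    have hC : CauchySeq (fun n => ((b.repr (z n) i : intRing p F) : PadicAlgCl p)) := by
      refine cauchySeq_of_le_geometric (κ : ℝ) (A : ℝ) (by exact_mod_cast hκ) fun n => ?_
      rw [dist_comm, dist_eq_norm]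
      have h1 := (coord_le_cnorm b (z (n + 1) - z n) i).trans (hz n)
      rw [map_sub, Finsupp.sub_apply, AddSubgroupClass.coe_sub] at h1
      exact_mod_cast h1
    obtain ⟨l, hl, hten⟩ := cauchySeq_tendsto_of_isComplete hFc
      (fun n => (b.repr (z n) i).2.1) hC
    refine ⟨l, hl, ?_, hten⟩
    refine le_of_tendsto' ((continuous_norm.tendsto l).comp hten) fun n => ?_
    exact (b.repr (z n) i).2.2
  choose l hlF hl1 hlt using hlim
  refine ⟨∑ i, (⟨l i, hlF i, hl1 i⟩ : intRing p F) • b i, fun i => ?_⟩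
  have : b.repr (∑ j, (⟨l j, hlF j, hl1 j⟩ : intRing p F) • b j) i = ⟨l i, hlF i, hl1 i⟩ := by
    rw [b.repr_sum_self]
  rw [this]
  exact hlt i

theorem cnorm_le_of_tendsto {z : ℕ → C} {l : C} {B : ℝ≥0}
    (hl : ∀ i, Filter.Tendsto (fun n => ((b.repr (z n) i : intRing p F) : PadicAlgCl p))
      Filter.atTop (nhds ((b.repr l i : intRing p F) : PadicAlgCl p)))
    (hB : ∀ n, cnorm b (z n) ≤ B) : cnorm b l ≤ B := by
  rw [cnorm_le_iff]
  intro i
  have : ‖((b.repr l i : intRing p F) : PadicAlgCl p)‖ ≤ B := by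
    refine le_of_tendsto' ((continuous_norm.tendsto _).comp (hl i)) fun n => ?_
    have := (coord_le_cnorm b (z n) i).trans (hB n)
    exact_mod_cast this
  exact_mod_cast this

theorem exists_cnorm_sub_le {z : ℕ → C} {l : C}
    (hl : ∀ i, Filter.Tendsto (fun n => ((b.repr (z n) i : intRing p F) : PadicAlgCl p))
      Filter.atTop (nhds ((b.repr l i : intRing p F) : PadicAlgCl p)))
    {η : ℝ≥0} (hη : 0 < η) : ∀ᶠ n in Filter.atTop, cnorm b (z n - l) ≤ η := by
  have h1 : ∀ i, ∀ᶠ n in Filter.atTop,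
      ‖((b.repr (z n - l) i : intRing p F) : PadicAlgCl p)‖₊ ≤ η := by
    intro i
    have h2 := (hl i).sub_const ((b.repr l i : intRing p F) : PadicAlgCl p)
    rw [sub_self] at h2
    have h3 := (tendsto_zero_iff_norm_tendsto_zero.1 h2).eventually
      (ge_mem_nhds (show (0 : ℝ) < η by exact_mod_cast hη))
    filter_upwards [h3] with n hn
    rw [map_sub, Finsupp.sub_apply, AddSubgroupClass.coe_sub]
    exact_mod_cast hn
  filter_upwards [Filter.eventually_all.2 h1] with n hn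
  exact (cnorm_le_iff b).2 hn


/-! ### The iteration -/

/-- The error `1 + y - (1 + z)^p`. -/
def errB (y z : C) : C := 1 + y - (1 + z) ^ p

/-- One correction step. -/
def stepB (y z : C) : C := z + divp (p := p) (errB (p := p) y z)

/-- The numerical facts on the radius `c` with `c^{p-1} < p^{-p}`. -/
theorem radius_facts {c : ℝ≥0} (hc : c ^ (p - 1) < ((p : ℝ≥0)⁻¹) ^ p) :
    (p : ℝ≥0) * c < 1 ∧ (p : ℝ≥0) ^ p * c ^ (p - 1) < 1 ∧ c ≤ (p : ℝ≥0)⁻¹ := by
  have hp : p.Prime := Fact.out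
  have hpp : (0 : ℝ≥0) < (p : ℝ≥0) := p_pos_nn
  have h2 : (p : ℝ≥0) ^ p * c ^ (p - 1) < 1 := by
    calc (p : ℝ≥0) ^ p * c ^ (p - 1) < (p : ℝ≥0) ^ p * ((p : ℝ≥0)⁻¹) ^ p :=
          mul_lt_mul_of_pos_left hc (pow_pos hpp p)
      _ = 1 := by rw [← mul_pow, mul_inv_cancel₀ hpp.ne', one_pow]
  have h1 : (p : ℝ≥0) * c < 1 := by
    by_contra hcon
    have hcon' : 1 ≤ (p : ℝ≥0) * c := not_lt.1 hcon
    have h3 : (1 : ℝ≥0) ≤ ((p : ℝ≥0) * c) ^ (p - 1) := one_le_pow₀ hcon'
    have h4 : ((p : ℝ≥0) * c) ^ (p - 1) * (p : ℝ≥0) = (p : ℝ≥0) ^ p * c ^ (p - 1) := by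
      rw [mul_pow, mul_right_comm, ← pow_succ, Nat.sub_add_cancel hp.one_le]
    have h5 : (1 : ℝ≥0) ≤ (p : ℝ≥0) := by exact_mod_cast hp.one_le
    have h6 : (1 : ℝ≥0) ≤ ((p : ℝ≥0) * c) ^ (p - 1) * (p : ℝ≥0) := by
      calc (1 : ℝ≥0) = 1 * 1 := (one_mul 1).symm
        _ ≤ ((p : ℝ≥0) * c) ^ (p - 1) * (p : ℝ≥0) := mul_le_mul' h3 h5
    rw [h4] at h6
    exact absurd h2 (not_lt.2 h6)
  refine ⟨h1, h2, ?_⟩
  calc c = (p : ℝ≥0)⁻¹ * ((p : ℝ≥0) * c) := by
        rw [← mul_assoc, inv_mul_cancel₀ hpp.ne', one_mul]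
    _ ≤ (p : ℝ≥0)⁻¹ * 1 := mul_le_mul' le_rfl h1.le
    _ = (p : ℝ≥0)⁻¹ := mul_one _

theorem step_spec {c : ℝ≥0} (hc : c ^ (p - 1) < ((p : ℝ≥0)⁻¹) ^ p) (y z : C) (ε : ℝ≥0)
    (hz : cnorm b z ≤ (p : ℝ≥0) * c) (he : cnorm b (errB (p := p) y z) ≤ ε) (hεc : ε ≤ c) :
    cnorm b (stepB (p := p) y z) ≤ (p : ℝ≥0) * c ∧
    cnorm b (stepB (p := p) y z - z) ≤ (p : ℝ≥0) * ε ∧
    cnorm b (errB (p := p) y (stepB (p := p) y z))
      ≤ max ((p : ℝ≥0) * c) ((p : ℝ≥0) ^ p * c ^ (p - 1)) * ε := by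
  have hp : p.Prime := Fact.out
  obtain ⟨hρ1, hκ2, hcp⟩ := radius_facts hc
  set e := errB (p := p) y z with he_def
  have hdiv : ∃ a' : C, (p : C) * a' = e := exists_p_mul_eq b ((he.trans hεc).trans hcp)
  set δ := divp (p := p) e with hδ_def
  have hpδ : (p : C) * δ = e := p_mul_divp hdiv
  have hδn : cnorm b δ = (p : ℝ≥0) * cnorm b e := cnorm_divp b hdiv
  have hδε : cnorm b δ ≤ (p : ℝ≥0) * ε := by rw [hδn]; exact mul_le_mul' le_rfl he
  have hδρ : cnorm b δ ≤ (p : ℝ≥0) * c := hδε.trans (mul_le_mul' le_rfl hεc)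
  have hδ1 : cnorm b δ ≤ 1 := hδρ.trans hρ1.le
  have hstep : stepB (p := p) y z = z + δ := rfl
  refine ⟨?_, ?_, ?_⟩
  · rw [hstep]; exact (cnorm_add_le b z δ).trans (max_le hz hδρ)
  · rw [hstep, add_sub_cancel_left]; exact hδε
  · -- the new error
    set κ := max ((p : ℝ≥0) * c) ((p : ℝ≥0) ^ p * c ^ (p - 1)) with hκ
    have hexp : errB (p := p) y (z + δ) = -(e * ((1 + z) ^ (p - 1) - 1))
        - (∑ m ∈ Finset.Ico 2 p, (p.choose m : C) * δ ^ m * (1 + z) ^ (p - m)) - δ ^ p := by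
      have h1 : errB (p := p) y (z + δ) = 1 + y - ((1 + z) + δ) ^ p := by
        rw [errB, add_assoc]
      rw [h1, add_pow_prime' (1 + z) δ]
      have h2 : (p : C) * δ * (1 + z) ^ (p - 1) = e * (1 + z) ^ (p - 1) := by rw [hpδ]
      rw [h2]
      have h3 : e = 1 + y - (1 + z) ^ p := rfl
      have h4 : (1 : C) + y = e + (1 + z) ^ p := by rw [h3]; ring
      rw [h4]
      ring
    rw [hstep, hexp]
    have hA : cnorm b (-(e * ((1 + z) ^ (p - 1) - 1))) ≤ κ * ε := by
      rw [cnorm_neg]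
      calc cnorm b (e * ((1 + z) ^ (p - 1) - 1))
          ≤ cnorm b e * cnorm b ((1 + z) ^ (p - 1) - 1) := cnorm_mul_le b _ _
        _ ≤ ε * ((p : ℝ≥0) * c) := mul_le_mul' he ((cnorm_pow_sub_one_le b z _).trans hz)
        _ = (p : ℝ≥0) * c * ε := mul_comm _ _
        _ ≤ κ * ε := mul_le_mul' (le_max_left _ _) le_rfl
    have hB : cnorm b (∑ m ∈ Finset.Ico 2 p, (p.choose m : C) * δ ^ m * (1 + z) ^ (p - m))
        ≤ κ * ε := by
      refine cnorm_sum_le b _ _ _ fun m hm => ?_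
      rw [Finset.mem_Ico] at hm
      rw [mul_assoc, cnorm_natCast_mul]
      have h1 : cnorm b (δ ^ m * (1 + z) ^ (p - m)) ≤ cnorm b δ ^ 2 := by
        calc cnorm b (δ ^ m * (1 + z) ^ (p - m))
            ≤ cnorm b (δ ^ m) * cnorm b ((1 + z) ^ (p - m)) := cnorm_mul_le b _ _
          _ ≤ cnorm b δ ^ m * 1 :=
              mul_le_mul' (cnorm_pow_le b δ m (by omega)) (cnorm_le_one b _)
          _ = cnorm b δ ^ m := mul_one _
          _ ≤ cnorm b δ ^ 2 := pow_le_pow_of_le_one bot_le hδ1 hm.1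
      calc ‖((p.choose m : ℕ) : PadicAlgCl p)‖₊ * cnorm b (δ ^ m * (1 + z) ^ (p - m))
          ≤ (p : ℝ≥0)⁻¹ * cnorm b δ ^ 2 := mul_le_mul' (nnnorm_choose_le (by omega) hm.2) h1
        _ ≤ (p : ℝ≥0)⁻¹ * (((p : ℝ≥0) * ε) * ((p : ℝ≥0) * c)) := by
            rw [sq]; exact mul_le_mul' le_rfl (mul_le_mul' hδε hδρ)
        _ = (p : ℝ≥0) * c * ε := by
            have h5 : (p : ℝ≥0)⁻¹ * (((p : ℝ≥0) * ε) * ((p : ℝ≥0) * c))
                = ((p : ℝ≥0)⁻¹ * (p : ℝ≥0)) * ((p : ℝ≥0) * c * ε) := by ring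
            rw [h5, inv_mul_cancel₀ p_pos_nn.ne', one_mul]
        _ ≤ κ * ε := mul_le_mul' (le_max_left _ _) le_rfl
    have hC : cnorm b (δ ^ p) ≤ κ * ε := by
      calc cnorm b (δ ^ p) ≤ cnorm b δ ^ p := cnorm_pow_le b δ p hp.ne_zero
        _ ≤ ((p : ℝ≥0) * ε) ^ p := pow_le_pow_left₀ bot_le hδε _
        _ = (p : ℝ≥0) ^ p * (ε ^ (p - 1) * ε) := by
            rw [mul_pow, ← pow_succ, Nat.sub_add_cancel hp.one_le]
        _ ≤ (p : ℝ≥0) ^ p * (c ^ (p - 1) * ε) :=
            mul_le_mul' le_rfl (mul_le_mul' (pow_le_pow_left₀ bot_le hεc _) le_rfl)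
        _ = (p : ℝ≥0) ^ p * c ^ (p - 1) * ε := (mul_assoc _ _ _).symm
        _ ≤ κ * ε := mul_le_mul' (le_max_right _ _) le_rfl
    exact (cnorm_sub_le b _ _).trans (max_le ((cnorm_sub_le b _ _).trans (max_le hA hB)) hC)

/-- **LIFT-b.** -/
theorem stmt_LIFT_b : Stmt_LIFT_b := by
  intro p _ F _ C _ _ _ _ c hc y hy
  let b := Module.Free.chooseBasis (intRing p F) C
  obtain ⟨hρ1, hκ2, hcp⟩ := radius_facts hc
  set κ : ℝ≥0 := max ((p : ℝ≥0) * c) ((p : ℝ≥0) ^ p * c ^ (p - 1)) with hκ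
  have hκ1 : κ < 1 := max_lt hρ1 hκ2
  have hyc : cnorm b y ≤ c := cnorm_le_of_mem_map b hy
  let z : ℕ → C := fun n => (stepB (p := p) y)^[n] 0
  have hzs : ∀ n, z (n + 1) = stepB (p := p) y (z n) := fun n =>
    Function.iterate_succ_apply' _ _ _
  have hind : ∀ n, cnorm b (z n) ≤ (p : ℝ≥0) * c ∧
      cnorm b (errB (p := p) y (z n)) ≤ c * κ ^ n := by
    intro n
    induction n with
    | zero =>
      refine ⟨by simp [z, cnorm_zero], ?_⟩
      have : errB (p := p) y (z 0) = y := by simp [z, errB]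
      rw [this, pow_zero, mul_one]; exact hyc
    | succ n ih =>
      have hε : c * κ ^ n ≤ c := by
        calc c * κ ^ n ≤ c * 1 := mul_le_mul' le_rfl (pow_le_one₀ bot_le hκ1.le)
          _ = c := mul_one c
      obtain ⟨h1, -, h3⟩ := step_spec b hc y (z n) (c * κ ^ n) ih.1 ih.2 hε
      rw [hzs]
      refine ⟨h1, h3.trans (le_of_eq ?_)⟩
      rw [pow_succ]; ring
  have hdiff : ∀ n, cnorm b (z (n + 1) - z n) ≤ (p : ℝ≥0) * c * κ ^ n := by
    intro n
    have hε : c * κ ^ n ≤ c := by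
      calc c * κ ^ n ≤ c * 1 := mul_le_mul' le_rfl (pow_le_one₀ bot_le hκ1.le)
        _ = c := mul_one c
    obtain ⟨-, h2, -⟩ := step_spec b hc y (z n) (c * κ ^ n) (hind n).1 (hind n).2 hε
    rw [hzs]
    exact h2.trans (le_of_eq (by ring))
  obtain ⟨l, hl⟩ := exists_limit b z ((p : ℝ≥0) * c) κ hκ1 hdiff
  have hlρ : cnorm b l ≤ (p : ℝ≥0) * c := cnorm_le_of_tendsto b hl fun n => (hind n).1
  refine ⟨l, mem_map_of_cnorm_le b hlρ, ?_⟩
  -- the error of the limit is zero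
  have herr0 : cnorm b (errB (p := p) y l) = 0 := by
    by_contra hne
    have hpos : 0 < cnorm b (errB (p := p) y l) := pos_iff_ne_zero.2 hne
    set η := cnorm b (errB (p := p) y l) / 2 with hη
    have hη0 : 0 < η := by rw [hη]; exact div_pos hpos (by norm_num)
    have hηlt : η < cnorm b (errB (p := p) y l) := by
      rw [hη]; exact NNReal.half_lt_self hne
    have h1 := exists_cnorm_sub_le b hl hη0
    have h2 : ∀ᶠ n in Filter.atTop, c * κ ^ n ≤ η := by
      have hten : Filter.Tendsto (fun n => c * κ ^ n) Filter.atTop (nhds (c * 0)) :=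
        (NNReal.tendsto_pow_atTop_nhds_zero_of_lt_one hκ1).const_mul c
      rw [mul_zero] at hten
      exact hten.eventually (ge_mem_nhds hη0)
    obtain ⟨n, hn1, hn2⟩ := (h1.and h2).exists
    have hsplit : errB (p := p) y l = errB (p := p) y (z n) + ((1 + z n) ^ p - (1 + l) ^ p) := by
      simp only [errB]; ring
    have h3 : cnorm b ((1 + z n) ^ p - (1 + l) ^ p) ≤ η := by
      refine (cnorm_pow_sub_pow_le b _ _ p).trans ?_
      rw [add_sub_add_left_eq_sub]; exact hn1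
    have h4 : cnorm b (errB (p := p) y l) ≤ η := by
      rw [hsplit]
      exact (cnorm_add_le b _ _).trans (max_le ((hind n).2.trans hn2) h3)
    exact absurd h4 (not_le.2 hηlt)
  have := cnorm_eq_zero b herr0
  rw [errB, sub_eq_zero] at this
  exact this.symm

end Fermat.Agent.S56.FL.H50

end

end
-- ==== END Fermat.Agent.S56.FL.H50_LiftB
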