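-- GENERATED (merged mirror, NOTES/tools/trim/merge3_helper67.py): 11 modules of the originals, bodies verbatim.
import Mathlib
import Fermat.Agent.Zm.S56_L03_003
import Fermat.Agent.Zm.S56_L01_003
import Fermat.Agent.Zm.S56_L03_004
import Fermat.Agent.Zm.S56_L03_005
import Fermat.Agent.Zm.S56_L01_004
import Fermat.Agent.Zm.S56_L01_005
import Fermat.Agent.Zm.S56_L02_005
import Fermat.Agent.Zm.S56_L01_000
import Fermat.Agent.Zm.S35_L03_001
import Fermat.Agent.Zm.S56_L02_004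

-- ==== BEGIN Fermat.Agent.S55.Top.Defs
section

set_option autoImplicit false

open CategoryTheory Module groupCohomology ExtCitation

noncomputable section

namespace Fermat.Agent.S55.Top

open Fermat.Agent.S55

/-! ### Groups and places -/

/-- The coset space `G_ℚ / G_K`. -/
abbrev XK (K : IntermediateField ℚ (AlgebraicClosure ℚ)) : Type := GQ ⧸ K.fixingSubgroup

/-- The base coset. -/
abbrev x0 (K : IntermediateField ℚ (AlgebraicClosure ℚ)) : XK K :=
  ((1 : GQ) : GQ ⧸ K.fixingSubgroup)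

/-- The action of the local group at `q` on `G_ℚ / G_K` (through `rl q`). -/
@[reducible] def locAct (K : IntermediateField ℚ (AlgebraicClosure ℚ)) (q : Nat.Primes) :
    MulAction (Gl q) (XK K) :=
  MulAction.compHom (XK K) (rl q)

attribute [local instance] locAct

lemma locAct_smul (K : IntermediateField ℚ (AlgebraicClosure ℚ)) (q : Nat.Primes) (h : Gl q)
    (x : XK K) : h • x = rl q h • x := rfl

/-- A system of places of `K` over `S`. -/
structure PlaceSys (S : Finset Nat.Primes) (K : IntermediateField ℚ (AlgebraicClosure ℚ)) where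
  /-- coset representatives of `G_ℚ / G_K` -/
  glob : OrbitData GQ (XK K) Unit
  glob_rep : glob.rep () = x0 K
  /-- the places of `K` above `q` -/
  W : ↥S → Type
  /-- there are finitely many places -/
  fin : ∀ q : ↥S, Fintype (W q)
  /-- representatives of the orbits of the local group on `G_ℚ / G_K` -/
  loc : ∀ q : ↥S, @OrbitData (Gl q.1) _ (XK K) (locAct K q.1) (W q)

section places

variable {S : Finset Nat.Primes} {K : IntermediateField ℚ (AlgebraicClosure ℚ)}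
  (𝔓 : PlaceSys S K)

/-- The representative `σ_w ∈ G_ℚ` of the place `w` (the embedding of `K` into `ℚ̄_q` is
`x ↦ ι_q (σ_w x)`). -/
def PlaceSys.σ (q : ↥S) (w : 𝔓.W q) : GQ := 𝔓.glob.t ((𝔓.loc q).rep w)

/-- The local group at the place `w`: the stabiliser of `σ_w G_K` in `Gl q`. -/
def PlaceSys.Γw (q : ↥S) (w : 𝔓.W q) : Subgroup (Gl q.1) :=
  (MulAction.stabilizer GQ ((𝔓.loc q).rep w)).comap (rl q.1)

lemma PlaceSys.σ_smul (q : ↥S) (w : 𝔓.W q) : 𝔓.σ q w • x0 K = (𝔓.loc q).rep w := by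
  have h := 𝔓.glob.t_smul ((𝔓.loc q).rep w)
  rw [𝔓.glob_rep] at h
  exact h

lemma PlaceSys.mem_Γw (q : ↥S) (w : 𝔓.W q) (h : Gl q.1) :
    h ∈ 𝔓.Γw q w ↔ rl q.1 h • (𝔓.loc q).rep w = (𝔓.loc q).rep w := Iff.rfl

lemma PlaceSys.conj_mem (q : ↥S) (w : 𝔓.W q) (h : 𝔓.Γw q w) :
    (𝔓.σ q w)⁻¹ * rl q.1 h.1 * 𝔓.σ q w ∈ K.fixingSubgroup := by
  have h1 : rl q.1 h.1 • (𝔓.loc q).rep w = (𝔓.loc q).rep w := h.2
  have h2 : ((𝔓.σ q w)⁻¹ * rl q.1 h.1 * 𝔓.σ q w) • x0 K = x0 K := by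
    rw [mul_smul, mul_smul, 𝔓.σ_smul, h1, ← 𝔓.σ_smul, inv_smul_smul]
  have h3 : (((𝔓.σ q w)⁻¹ * rl q.1 h.1 * 𝔓.σ q w : GQ) : GQ ⧸ K.fixingSubgroup) =
      ((1 : GQ) : GQ ⧸ K.fixingSubgroup) := by
    have := h2
    simpa [x0, MulAction.Quotient.smul_mk] using this
  have h4 := QuotientGroup.eq.1 h3
  simpa using K.fixingSubgroup.inv_mem h4

/-- The map `Γw → G_K`, `h ↦ σ_w⁻¹ (rl q h) σ_w`. -/
def PlaceSys.ρw (q : ↥S) (w : 𝔓.W q) : 𝔓.Γw q w →* ↥K.fixingSubgroup where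
  toFun h := ⟨(𝔓.σ q w)⁻¹ * rl q.1 h.1 * 𝔓.σ q w, 𝔓.conj_mem q w h⟩
  map_one' := by
    apply Subtype.ext
    simp
  map_mul' a b := by
    apply Subtype.ext
    simp only [Subgroup.coe_mul, map_mul]
    group

/-- The map `Γw → G_ℚ` used for the level condition of local cochains. -/
def PlaceSys.rw (q : ↥S) (w : 𝔓.W q) : 𝔓.Γw q w →* GQ := (rl q.1).comp (𝔓.Γw q w).subtype

end places

/-! ### Differentials with trivial coefficients, for any group -/

section triv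

variable {k : Type} [Field k] {Δ : Type} [Group Δ]

/-- `d¹` with trivial coefficients. -/
def tOne (f : Δ → k) : Δ × Δ → k := fun t => f t.2 - f (t.1 * t.2) + f t.1

/-- `d²` with trivial coefficients. -/
def tTwo (f : Δ × Δ → k) : Δ × Δ × Δ → k :=
  fun t => f (t.2.1, t.2.2) - f (t.1 * t.2.1, t.2.2) + f (t.1, t.2.1 * t.2.2) - f (t.1, t.2.1)

/-- `d³` with trivial coefficients. -/
def tThree (f : Δ × Δ × Δ → k) : Δ × Δ × Δ × Δ → k :=
  fun t => f (t.2.1, t.2.2.1, t.2.2.2) - f (t.1 * t.2.1, t.2.2.1, t.2.2.2)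
    + f (t.1, t.2.1 * t.2.2.1, t.2.2.2) - f (t.1, t.2.1, t.2.2.1 * t.2.2.2)
    + f (t.1, t.2.1, t.2.2.1)

end triv

/-! ### Level conditions on `G_K` -/

section level

variable (S : Finset Nat.Primes) (K : IntermediateField ℚ (AlgebraicClosure ℚ))

/-- Level-`S` constancy for functions on `G_K`. -/
def IsLevK₁ {X : Type*} (f : ↥K.fixingSubgroup → X) : Prop :=
  ∃ F : IntermediateField ℚ (AlgebraicClosure ℚ), F.IsUnramifiedOutside S ∧
    ∀ g s : ↥K.fixingSubgroup, (s : GQ) ∈ F.fixingSubgroup → f (g * s) = f g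

/-- Level-`S` constancy for functions on `G_K × G_K`. -/
def IsLevK₂ {X : Type*} (f : ↥K.fixingSubgroup × ↥K.fixingSubgroup → X) : Prop :=
  ∃ F : IntermediateField ℚ (AlgebraicClosure ℚ), F.IsUnramifiedOutside S ∧
    ∀ g₁ g₂ s₁ s₂ : ↥K.fixingSubgroup, (s₁ : GQ) ∈ F.fixingSubgroup →
      (s₂ : GQ) ∈ F.fixingSubgroup → f (g₁ * s₁, g₂ * s₂) = f (g₁, g₂)

/-- Level-`S` constancy for functions on `G_K × G_K × G_K`. -/
def IsLevK₃ {X : Type*}
    (f : ↥K.fixingSubgroup × ↥K.fixingSubgroup × ↥K.fixingSubgroup → X) : Prop :=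
  ∃ F : IntermediateField ℚ (AlgebraicClosure ℚ), F.IsUnramifiedOutside S ∧
    ∀ g₁ g₂ g₃ s₁ s₂ s₃ : ↥K.fixingSubgroup, (s₁ : GQ) ∈ F.fixingSubgroup →
      (s₂ : GQ) ∈ F.fixingSubgroup → (s₃ : GQ) ∈ F.fixingSubgroup →
      f (g₁ * s₁, g₂ * s₂, g₃ * s₃) = f (g₁, g₂, g₃)

end level

/-! ### `K`-level cocycles, cone, cups, traces -/

section cone

variable {k : Type} [Field k] {S : Finset Nat.Primes}
  {K : IntermediateField ℚ (AlgebraicClosure ℚ)} (𝔓 : PlaceSys S K)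

/-- Restriction of a function on `G_K` to the local group at `w`. -/
def PlaceSys.res₁ {X : Type*} (q : ↥S) (w : 𝔓.W q) (f : ↥K.fixingSubgroup → X) :
    𝔓.Γw q w → X := fun h => f (𝔓.ρw q w h)

/-- Restriction of a function on `G_K × G_K` to the local group at `w`. -/
def PlaceSys.res₂ {X : Type*} (q : ↥S) (w : 𝔓.W q)
    (f : ↥K.fixingSubgroup × ↥K.fixingSubgroup → X) : 𝔓.Γw q w × 𝔓.Γw q w → X :=
  fun t => f (𝔓.ρw q w t.1, 𝔓.ρw q w t.2)

/-- Restriction of a function on `G_K × G_K × G_K` to the local group at `w`. -/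
def PlaceSys.res₃ {X : Type*} (q : ↥S) (w : 𝔓.W q)
    (f : ↥K.fixingSubgroup × ↥K.fixingSubgroup × ↥K.fixingSubgroup → X) :
    𝔓.Γw q w × 𝔓.Γw q w × 𝔓.Γw q w → X :=
  fun t => f (𝔓.ρw q w t.1, 𝔓.ρw q w t.2.1, 𝔓.ρw q w t.2.2)

variable (S K) in
/-- `K`-level 1-cocycles: level-`S` homomorphisms `G_K → k`. -/
def IsZ1K (b : ↥K.fixingSubgroup → k) : Prop := tOne b = 0 ∧ IsLevK₁ S K b

variable (S K) in
/-- `K`-level 2-cocycles. -/
def IsZ2K (a : ↥K.fixingSubgroup × ↥K.fixingSubgroup → k) : Prop :=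
  tTwo a = 0 ∧ IsLevK₂ S K a

variable (S K) in
/-- `K`-level 2-coboundaries. -/
def IsB2K (a : ↥K.fixingSubgroup × ↥K.fixingSubgroup → k) : Prop :=
  ∃ f : ↥K.fixingSubgroup → k, IsLevK₁ S K f ∧ tOne f = a

/-- `K`-level cone 1-cochains. -/
abbrev PlaceSys.C1 (k : Type) : Type := (↥K.fixingSubgroup → k) × (∀ q : ↥S, 𝔓.W q → k)

/-- `K`-level cone 2-cochains. -/
abbrev PlaceSys.C2 (k : Type) : Type :=
  (↥K.fixingSubgroup × ↥K.fixingSubgroup → k) × (∀ (q : ↥S) (w : 𝔓.W q), 𝔓.Γw q w → k)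

/-- `K`-level cone 3-cochains. -/
abbrev PlaceSys.C3 (k : Type) : Type :=
  (↥K.fixingSubgroup × ↥K.fixingSubgroup × ↥K.fixingSubgroup → k) ×
    (∀ (q : ↥S) (w : 𝔓.W q), 𝔓.Γw q w × 𝔓.Γw q w → k)

/-- `K`-level cone 1-cocycles: `d f = 0`, `f` of level `S`, `res_w f = d m_w = 0`. -/
def IsZ1cK (y : 𝔓.C1 k) : Prop :=
  IsZ1K S K y.1 ∧ ∀ (q : ↥S) (w : 𝔓.W q), 𝔓.res₁ q w y.1 = 0

/-- `K`-level cone 1-coboundaries: `(0, (m)_w)`. -/
def IsB1cK (y : 𝔓.C1 k) : Prop :=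
  ∃ m : k, y.1 = 0 ∧ ∀ (q : ↥S) (w : 𝔓.W q), y.2 q w = m

/-- `K`-level cone 2-cocycles. -/
def IsZ2cK (x : 𝔓.C2 k) : Prop :=
  IsZ2K S K x.1 ∧ ∀ (q : ↥S) (w : 𝔓.W q), IsLevelConstant₁ (𝔓.rw q w) (x.2 q w) ∧
    𝔓.res₂ q w x.1 = tOne (x.2 q w)

/-- `K`-level cone 2-coboundaries: `(d f, (res_w f)_w)` (the local `d⁰` vanishes). -/
def IsB2cK (x : 𝔓.C2 k) : Prop :=
  ∃ f : ↥K.fixingSubgroup → k, IsLevK₁ S K f ∧ x.1 = tOne f ∧
    ∀ (q : ↥S) (w : 𝔓.W q), x.2 q w = 𝔓.res₁ q w f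

/-- `K`-level cone 3-cocycles. -/
def IsZ3cK (x : 𝔓.C3 k) : Prop :=
  (tThree x.1 = 0 ∧ IsLevK₃ S K x.1) ∧ ∀ (q : ↥S) (w : 𝔓.W q),
    IsLevelConstant₂ (𝔓.rw q w) (x.2 q w) ∧ 𝔓.res₃ q w x.1 = tTwo (x.2 q w)

/-- `K`-level cone 3-coboundaries. -/
def IsB3cK (x : 𝔓.C3 k) : Prop :=
  ∃ (f : ↥K.fixingSubgroup × ↥K.fixingSubgroup → k)
    (g : ∀ (q : ↥S) (w : 𝔓.W q), 𝔓.Γw q w → k), IsLevK₂ S K f ∧
    (∀ (q : ↥S) (w : 𝔓.W q), IsLevelConstant₁ (𝔓.rw q w) (g q w)) ∧ x.1 = tTwo f ∧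
    ∀ (q : ↥S) (w : 𝔓.W q), x.2 q w = 𝔓.res₂ q w f - tOne (g q w)

/-- Cone on the left, degrees `(2, 1)`. -/
def cupA2K (x : 𝔓.C2 k) (b : ↥K.fixingSubgroup → k) : 𝔓.C3 k :=
  (fun t => x.1 (t.1, t.2.1) * b t.2.2,
   fun q w t => x.2 q w t.1 * b (𝔓.ρw q w t.2))

/-- Cone on the left, degrees `(3, 0)`. -/
def cupA3K (x : 𝔓.C3 k) (m : k) : 𝔓.C3 k :=
  (fun t => x.1 t * m, fun q w t => x.2 q w t * m)

/-- Cone on the right, degrees `(2, 1)`. -/
def cupB1K (a : ↥K.fixingSubgroup × ↥K.fixingSubgroup → k) (y : 𝔓.C1 k) : 𝔓.C3 k :=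
  (fun t => a (t.1, t.2.1) * y.1 t.2.2,
   fun q w t => a (𝔓.ρw q w t.1, 𝔓.ρw q w t.2) * y.2 q w)

/-- Cone on the right, degrees `(1, 2)` (local sign `-1`). -/
def cupB2K (a : ↥K.fixingSubgroup → k) (y : 𝔓.C2 k) : 𝔓.C3 k :=
  (fun t => a t.1 * y.1 (t.2.1, t.2.2),
   fun q w t => - (a (𝔓.ρw q w t.1) * y.2 q w t.2))

/-- A `K`-level trace: a linear functional on `K`-level cone 3-cochains which kills the cone
3-coboundaries. -/
structure TraceK (k : Type) [Field k] where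
  /-- the functional -/
  toFun : 𝔓.C3 k →ₗ[k] k
  /-- it kills coboundaries -/
  zero_of_isB3cK : ∀ x : 𝔓.C3 k, IsB3cK 𝔓 x → toFun x = 0

variable {𝔓} (tr : TraceK 𝔓 k)

/-- `K`-level `α²epi`. -/
def AlphaTwoEpiK : Prop :=
  ∀ φ : (↥K.fixingSubgroup → k) →ₗ[k] k,
    ∃ x : 𝔓.C2 k, IsZ2cK 𝔓 x ∧
      ∀ b : ↥K.fixingSubgroup → k, IsZ1K S K b → tr.toFun (cupA2K 𝔓 x b) = φ b

/-- `K`-level `α³mono`. -/
def AlphaThreeMonoK : Prop :=
  ∀ x : 𝔓.C3 k, IsZ3cK 𝔓 x → (∀ m : k, tr.toFun (cupA3K 𝔓 x m) = 0) → IsB3cK 𝔓 x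

/-- `K`-level `β¹epi`. -/
def BetaOneEpiK : Prop :=
  ∀ φ : (↥K.fixingSubgroup × ↥K.fixingSubgroup → k) →ₗ[k] k,
    (∀ a : ↥K.fixingSubgroup × ↥K.fixingSubgroup → k, IsB2K S K a → φ a = 0) →
    ∃ y : 𝔓.C1 k, IsZ1cK 𝔓 y ∧
      ∀ a : ↥K.fixingSubgroup × ↥K.fixingSubgroup → k, IsZ2K S K a →
        tr.toFun (cupB1K 𝔓 a y) = φ a

/-- `K`-level `β²mono`. -/
def BetaTwoMonoK : Prop :=
  ∀ y : 𝔓.C2 k, IsZ2cK 𝔓 y →
    (∀ a : ↥K.fixingSubgroup → k, IsZ1K S K a → tr.toFun (cupB2K 𝔓 a y) = 0) →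
    IsB2cK 𝔓 y

end cone

/-! ### The interface of E4 -/

/-- **TopK**: Poitou–Tate for the trivial module over every base field `K`, for every place
system and every nonzero `K`-level trace. -/
def Stmt_TopK : Prop :=
  ∀ (p : ℕ) [Fact p.Prime], p ≠ 2 → ∀ (S : Finset Nat.Primes), pPrime p ∈ S →
    ∀ K : IntermediateField ℚ (AlgebraicClosure ℚ), IsBaseField S p K →
    ∀ (𝔓 : PlaceSys S K) (tr : TraceK 𝔓 (ZMod p)),
      (∃ x : 𝔓.C3 (ZMod p), IsZ3cK 𝔓 x ∧ tr.toFun x ≠ 0) →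
      AlphaTwoEpiK tr ∧ AlphaThreeMonoK tr ∧ BetaOneEpiK tr ∧ BetaTwoMonoK tr

/-- **TopQ**: for every base field `K` there is a trace over `ℚ` whose pairing
`H³_c(P_K) × H⁰(P_K') → k` is not identically zero. -/
def Stmt_TopQ : Prop :=
  ∀ (p : ℕ) [Fact p.Prime], p ≠ 2 → ∀ (S : Finset Nat.Primes), pPrime p ∈ S →
    ∀ K : IntermediateField ℚ (AlgebraicClosure ℚ), IsBaseField S p K →
    ∃ tr : Trace S (cycloChar p),
      ∃ (x : C3c S (permRep (ZMod p) K)) (m' : Md (cycloChar p) (permRep (ZMod p) K)),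
        IsZ3c S (permRep (ZMod p) K) x ∧
        (∀ g : GQ, (Md (cycloChar p) (permRep (ZMod p) K)).ρ g m' = m') ∧
        tr.toFun (cupA3 S (cycloChar p) (permRep (ZMod p) K) x m') ≠ 0

end Fermat.Agent.S55.Top

end

end
-- ==== END Fermat.Agent.S55.Top.Defs

-- ==== BEGIN Fermat.Agent.S55.Top.ShapiroAdj
section

set_option autoImplicit false
set_option linter.unusedSectionVars false
set_option linter.unusedSimpArgs false

namespace Fermat.Agent.S55.Top

namespace OrbitData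

variable {k : Type} [CommRing k] {Γ : Type} [Group Γ] {X : Type} [MulAction Γ X] {R : Type}
  (D : OrbitData Γ X R)

/-! ### Bilinearity -/

lemma cup11_add_left (A A' B : Γ → X → k) : cup11 (A + A') B = cup11 A B + cup11 A' B := by
  funext t x; simp only [cup11, Pi.add_apply]; ring

lemma cup11_add_right (A B B' : Γ → X → k) : cup11 A (B + B') = cup11 A B + cup11 A B' := by
  funext t x; simp only [cup11, Pi.add_apply]; ring

lemma cup21_add_right (A : Γ × Γ → X → k) (B B' : Γ → X → k) :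
    cup21 A (B + B') = cup21 A B + cup21 A B' := by
  funext t x; simp only [cup21, Pi.add_apply]; ring

lemma cup12_add_left (A A' : Γ → X → k) (B : Γ × Γ → X → k) :
    cup12 (A + A') B = cup12 A B + cup12 A' B := by
  funext t x; simp only [cup12, Pi.add_apply]; ring

lemma cup20_add_right (A : Γ × Γ → X → k) (m m' : X → k) :
    cup20 A (m + m') = cup20 A m + cup20 A m' := by
  funext t x; simp only [cup20, Pi.add_apply]; ring

lemma cup20_sub_left (A A' : Γ × Γ → X → k) (m : X → k) :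
    cup20 (A - A') m = cup20 A m - cup20 A' m := by
  funext t x; simp only [cup20, Pi.sub_apply]; ring

lemma hty3_add (f f' : Γ × Γ × Γ → X → k) : D.hty3 (f + f') = D.hty3 f + D.hty3 f' := by
  funext g x; simp only [hty3, Pi.add_apply]; ring

lemma hty2_add (f f' : Γ × Γ → X → k) : D.hty2 (f + f') = D.hty2 f + D.hty2 f' := by
  funext g x; simp only [hty2, Pi.add_apply]; ring

lemma d1_cocycle_one {B : Γ → X → k} (hB : d1 B = 0) (x : X) : B 1 x = 0 := by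
  have h := congrFun (congrFun hB (1, 1)) x
  simpa [d1] using h

/-- a `1`-cocycle is induced up to the coboundary of `hty1`. -/
lemma cocycle_eq_ind_add {B : Γ → X → k} (hB : d1 B = 0) :
    B = D.ind1 (D.sh1 B) + d0 (D.hty1 B) := by
  have h := D.hty_one' B
  rw [hB, hty2_zero, add_zero] at h
  rw [← h]
  abel

lemma hty1_rep_cocycle {B : Γ → X → k} (hB : d1 B = 0) (r : R) : D.hty1 B (D.rep r) = 0 := by
  rw [D.hty1_rep, d1_cocycle_one hB]

lemma sh1_one_cocycle {B : Γ → X → k} (hB : d1 B = 0) (r : R) : D.sh1 B r 1 = 0 :=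
  d1_cocycle_one hB _

/-! ### The three multiplicativity identities -/

/-- cone on the left, degrees `(2, 1)`. -/
theorem adjA2 (A : Γ × Γ → X → k) (V : Γ → X → k) (ζ : R → Γ → k) (B : Γ → X → k)
    (hA : d2 A = 0) (hV : d1 V = A) (hVζ : V = D.ind1 ζ + D.hty2 A) (hB : d1 B = 0) :
    cup11 (D.ind1 ζ) (D.ind1 (D.sh1 B)) + D.hty3 (cup21 A B) - cup11 V B =
      d1 (cup10 V (D.hty1 B) - D.hty2 (cup20 A (D.hty1 B))) := by
  have hc : ∀ r, D.sh1 B r 1 = 0 := D.sh1_one_cocycle hB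
  have hβ : ∀ r, D.hty1 B (D.rep r) = 0 := D.hty1_rep_cocycle hB
  have e1 : cup21 A B = cup21 A (D.ind1 (D.sh1 B)) + cup21 A (d0 (D.hty1 B)) := by
    rw [← cup21_add_right, ← D.cocycle_eq_ind_add hB]
  have e2 : cup11 V B = cup11 V (D.ind1 (D.sh1 B)) + cup11 V (d0 (D.hty1 B)) := by
    rw [← cup11_add_right, ← D.cocycle_eq_ind_add hB]
  have e3 := D.hty3_cup21_ind A (D.sh1 B) hc
  have e4 : cup21 A (d0 (D.hty1 B)) = d2 (cup20 A (D.hty1 B)) := by
    rw [d2_cup20, hA]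
    have : cup30 (0 : Γ × Γ × Γ → X → k) (D.hty1 B) = 0 := cup30_zero _
    rw [this, zero_add]
  have e5 := D.hty_two' (cup20 A (D.hty1 B))
  rw [D.ind2_sh2_cup20 A _ hβ, sub_zero] at e5
  have e6 : cup11 V (D.ind1 (D.sh1 B)) =
      cup11 (D.ind1 ζ) (D.ind1 (D.sh1 B)) + cup11 (D.hty2 A) (D.ind1 (D.sh1 B)) := by
    rw [← cup11_add_left, ← hVζ]
  have e7 := d1_cup10 V (D.hty1 B)
  rw [hV] at e7
  rw [e1, hty3_add, e3, e4, e2, e6, d1_sub, e7]
  linear_combination (exp := 1) -e5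

/-- cone on the right, degrees `(2, 1)`. -/
theorem adjB1 (A : Γ × Γ → X → k) (B : Γ → X → k) (m : R → k)
    (hA : d2 A = 0) (hB : d1 B = 0) (hB0 : D.ind1 (D.sh1 B) = 0) :
    cup20 (D.ind2 (D.sh2 A)) (D.ind0 m) + D.hty3 (cup21 A B)
        - cup20 A (D.ind0 m + D.hty1 B) =
      - d1 (cup10 (D.hty2 A) (D.ind0 m) + D.hty2 (cup20 A (D.hty1 B))) := by
  have hβ : ∀ r, D.hty1 B (D.rep r) = 0 := D.hty1_rep_cocycle hB
  have e1 : cup21 A B = cup21 A (d0 (D.hty1 B)) := by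
    have := D.cocycle_eq_ind_add hB
    rw [hB0, zero_add] at this
    rw [← this]
  have e4 : cup21 A (d0 (D.hty1 B)) = d2 (cup20 A (D.hty1 B)) := by
    rw [d2_cup20, hA]
    have : cup30 (0 : Γ × Γ × Γ → X → k) (D.hty1 B) = 0 := cup30_zero _
    rw [this, zero_add]
  have e5 := D.hty_two' (cup20 A (D.hty1 B))
  rw [D.ind2_sh2_cup20 A _ hβ, sub_zero] at e5
  have e6 := D.hty_two' A
  rw [hA, hty3_zero, add_zero] at e6
  have e7 := d1_cup10 (D.hty2 A) (D.ind0 m)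
  rw [d0_ind0] at e7
  have h0 : cup11 (D.hty2 A) (fun (_ : Γ) (_ : X) => (0 : k)) = 0 := by
    funext t x; simp [cup11]
  rw [h0, sub_zero] at e7
  have e8 : cup20 (D.ind2 (D.sh2 A)) (D.ind0 m) =
      cup20 A (D.ind0 m) - cup20 (d1 (D.hty2 A)) (D.ind0 m) := by
    rw [← cup20_sub_left, ← e6, sub_sub_cancel]
  rw [e1, e4, e8, cup20_add_right, d1_add, e7]
  linear_combination (exp := 1) -e5

/-- cone on the right, degrees `(1, 2)`. -/
theorem adjB2 (A : Γ → X → k) (B : Γ × Γ → X → k) (V : Γ → X → k) (ζ : R → Γ → k)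
    (hA : d1 A = 0) (hB : d2 B = 0) (hV : d1 V = B) (hVζ : V = D.ind1 ζ + D.hty2 B) :
    - cup11 (D.ind1 (D.sh1 A)) (D.ind1 ζ) + D.hty3 (cup12 A B) + cup11 A V =
      d1 (cup01 (D.hty1 A) V - D.hty2 (cup02 (D.hty1 A) B)) := by
  have hc : ∀ r, D.sh1 A r 1 = 0 := D.sh1_one_cocycle hA
  have hα : ∀ r, D.hty1 A (D.rep r) = 0 := D.hty1_rep_cocycle hA
  have e1 : cup12 A B = cup12 (D.ind1 (D.sh1 A)) B + cup12 (d0 (D.hty1 A)) B := by
    rw [← cup12_add_left, ← D.cocycle_eq_ind_add hA]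
  have e2 : cup11 A V = cup11 (D.ind1 (D.sh1 A)) V + cup11 (d0 (D.hty1 A)) V := by
    rw [← cup11_add_left, ← D.cocycle_eq_ind_add hA]
  have e3 := D.hty3_cup12_ind (D.sh1 A) B hc
  have e4 : cup12 (d0 (D.hty1 A)) B = d2 (cup02 (D.hty1 A) B) := by
    rw [d2_cup02, hB]
    have : cup03 (D.hty1 A) (0 : Γ × Γ × Γ → X → k) = 0 := cup03_zero _
    rw [this, add_zero]
  have e5 := D.hty_two' (cup02 (D.hty1 A) B)
  rw [D.ind2_sh2_cup02 _ B hα, sub_zero] at e5
  have e6 : cup11 (D.ind1 (D.sh1 A)) V =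
      cup11 (D.ind1 (D.sh1 A)) (D.ind1 ζ) + cup11 (D.ind1 (D.sh1 A)) (D.hty2 B) := by
    rw [← cup11_add_right, ← hVζ]
  have e7 := d1_cup01 (D.hty1 A) V
  rw [hV] at e7
  rw [e1, hty3_add, e3, e4, e2, e6, d1_sub, e7]
  linear_combination (exp := 1) -e5

end OrbitData

end Fermat.Agent.S55.Top

end
-- ==== END Fermat.Agent.S55.Top.ShapiroAdj

-- ==== BEGIN Fermat.Agent.S56.EC.H4_Sha0Alg
section

set_option autoImplicit false
set_option linter.unusedSectionVars false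

noncomputable section

namespace Fermat.Agent.S56.EC.H4

open Fermat.Agent.S56.IND Module
open scoped Classical

variable {k : Type} [Field k] {G : Type} [Group G] [Fintype G]
variable {V : Type} [AddCommGroup V] [Module k V] [FiniteDimensional k V]

section induced

variable {ρ : Representation k G V} {B : Subgroup G} {W : Submodule k V}
  (h : IsInducedFrom ρ B W)

/-- `Fun(G/B, W) ≃ V`. -/
def cosetEquiv : ((G ⧸ B) → W) ≃ₗ[k] V :=
  LinearEquiv.ofBijective (cosetMap ρ B W) ⟨cosetMap_injective h, cosetMap_surjective h⟩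

lemma cosetEquiv_apply (w : (G ⧸ B) → W) : cosetEquiv h w = cosetMap ρ B W w := rfl

lemma out_one_mem (B : Subgroup G) : Quotient.out ((1 : G) : G ⧸ B) ∈ B := by
  have h1 := (out_inv_mul_mem_iff (B := B) ((1 : G) : G ⧸ B) 1).2 rfl
  rw [mul_one] at h1
  exact (Subgroup.inv_mem_iff B).1 h1

/-- The action of `b ∈ B` on `W`. -/
def actB (b : G) (hb : b ∈ B) : W →ₗ[k] W :=
  (ρ b).restrict (fun w hw => h.1 b hb w hw)

lemma actB_coe (b : G) (hb : b ∈ B) (w : W) : ((actB h b hb w : W) : V) = ρ b (w : V) := rfl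

/-- The projection `V → W` along the other translates of `W`. -/
def prW : V →ₗ[k] W :=
  actB h _ (out_one_mem B) ∘ₗ LinearMap.proj ((1 : G) : G ⧸ B) ∘ₗ (cosetEquiv h).symm.toLinearMap

lemma rho_eq_cosetEquiv_single (y : G) (w : W) :
    ρ y (w : V) = cosetEquiv h (Pi.single ((y : G) : G ⧸ B)
      (actB h ((Quotient.out ((y : G) : G ⧸ B))⁻¹ * y)
        ((out_inv_mul_mem_iff _ _).2 rfl) w)) := by
  rw [cosetEquiv_apply, cosetMap_apply, Finset.sum_eq_single ((y : G) : G ⧸ B)]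
  · rw [Pi.single_eq_same, actB_coe, ← Module.End.mul_apply, ← map_mul, mul_inv_cancel_left]
  · intro x _ hx
    rw [Pi.single_eq_of_ne hx]
    simp
  · intro h'
    exact absurd (Finset.mem_univ _) h'

lemma prW_rho_of_mem {y : G} (hy : y ∈ B) (w : W) : ((prW h (ρ y (w : V)) : W) : V) = ρ y w := by
  have hc : ((y : G) : G ⧸ B) = ((1 : G) : G ⧸ B) := by
    rw [QuotientGroup.eq]
    simpa using hy
  have h1 : (cosetEquiv h).symm (ρ y (w : V)) = Pi.single ((y : G) : G ⧸ B)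
      (actB h ((Quotient.out ((y : G) : G ⧸ B))⁻¹ * y) ((out_inv_mul_mem_iff _ _).2 rfl) w) := by
    rw [rho_eq_cosetEquiv_single h y w, LinearEquiv.symm_apply_apply]
  have h2 : prW h (ρ y (w : V)) = actB h _ (out_one_mem B)
      ((cosetEquiv h).symm (ρ y (w : V)) ((1 : G) : G ⧸ B)) := rfl
  rw [h2, h1, actB_coe, ← hc, Pi.single_eq_same, actB_coe, ← Module.End.mul_apply, ← map_mul,
    mul_inv_cancel_left]

lemma prW_rho_of_not_mem {y : G} (hy : y ∉ B) (w : W) : prW h (ρ y (w : V)) = 0 := by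
  have hc : ((1 : G) : G ⧸ B) ≠ ((y : G) : G ⧸ B) := by
    intro hc
    apply hy
    have := QuotientGroup.eq.1 hc
    simpa using this
  have h1 : (cosetEquiv h).symm (ρ y (w : V)) = Pi.single ((y : G) : G ⧸ B)
      (actB h ((Quotient.out ((y : G) : G ⧸ B))⁻¹ * y) ((out_inv_mul_mem_iff _ _).2 rfl) w) := by
    rw [rho_eq_cosetEquiv_single h y w, LinearEquiv.symm_apply_apply]
  have h2 : prW h (ρ y (w : V)) = actB h _ (out_one_mem B)
      ((cosetEquiv h).symm (ρ y (w : V)) ((1 : G) : G ⧸ B)) := rfl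
  rw [h2, h1, Pi.single_eq_of_ne hc, map_zero]

/-- The averaging operator `v ↦ ∑ x, ρ x (pr_W (ρ x⁻¹ v))`. -/
def avgOp : V →ₗ[k] V :=
  ∑ x : G, ρ x ∘ₗ W.subtype ∘ₗ prW h ∘ₗ ρ x⁻¹

lemma avgOp_apply (v : V) : avgOp h v = ∑ x : G, ρ x ((prW h (ρ x⁻¹ v) : W) : V) := by
  simp [avgOp]

lemma card_filter_mem (B : Subgroup G) :
    (Finset.univ.filter (fun y : G => y ∈ B)).card = Nat.card B := by
  rw [Nat.card_eq_fintype_card, Fintype.card_subtype]

lemma avgOp_rho (g : G) (w : W) : avgOp h (ρ g (w : V)) = (Nat.card B : k) • ρ g (w : V) := by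
  rw [avgOp_apply]
  have h1 : ∀ x : G, ρ x ((prW h (ρ x⁻¹ (ρ g (w : V))) : W) : V)
      = if x⁻¹ * g ∈ B then ρ g (w : V) else 0 := by
    intro x
    rw [← Module.End.mul_apply, ← map_mul]
    by_cases hx : x⁻¹ * g ∈ B
    · rw [if_pos hx, prW_rho_of_mem h hx, ← Module.End.mul_apply, ← map_mul,
        mul_inv_cancel_left]
    · rw [if_neg hx, prW_rho_of_not_mem h hx]
      simp
  rw [Finset.sum_congr rfl (fun x _ => h1 x)]
  have h2 : ∑ x : G, (if x⁻¹ * g ∈ B then ρ g (w : V) else 0)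
      = ∑ y : G, (if y ∈ B then ρ g (w : V) else 0) :=
    Fintype.sum_equiv ((Equiv.inv G).trans (Equiv.mulRight g)) _ _ (fun x => by simp)
  rw [h2, ← Finset.sum_filter, Finset.sum_const, card_filter_mem, Nat.cast_smul_eq_nsmul]

lemma avgOp_eq : avgOp h = (Nat.card B : k) • LinearMap.id := by
  have htop : (⊤ : Submodule k V) ≤ LinearMap.eqLocus (avgOp h)
      ((Nat.card B : k) • LinearMap.id) := by
    rw [← h.2.1]
    refine iSup_le fun g => ?_
    rintro _ ⟨w, hw, rfl⟩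
    exact avgOp_rho h g ⟨w, hw⟩
  exact LinearMap.ext fun v => htop (Submodule.mem_top (x := v))

variable {ι : Type} [Fintype ι] (bW : Basis ι k W)

/-- `ψ ↦ ∑ x, ψ x • ρ x w_j`. -/
def aMap (ρ : Representation k G V) {W : Submodule k V} (bW : Basis ι k W) (j : ι) :
    (G → k) →ₗ[k] V :=
  ∑ x : G, (LinearMap.proj x : (G → k) →ₗ[k] k).smulRight (ρ x (bW j : V))

omit [FiniteDimensional k V] in
lemma aMap_apply (j : ι) (ψ : G → k) : aMap ρ bW j ψ = ∑ x : G, ψ x • ρ x (bW j : V) := by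
  simp [aMap]

omit [FiniteDimensional k V] in
lemma aMap_perm (j : ι) (g : G) (ψ : G → k) :
    aMap ρ bW j (permRep k G G g ψ) = ρ g (aMap ρ bW j ψ) := by
  rw [aMap_apply, aMap_apply, map_sum]
  refine Fintype.sum_equiv (Equiv.mulLeft g⁻¹) _ _ fun x => ?_
  simp only [permRep_apply, Equiv.coe_mulLeft, smul_eq_mul, map_smul]
  rw [← Module.End.mul_apply, ← map_mul, mul_inv_cancel_left]

/-- `v ↦ (x ↦ #B⁻¹ w_j^* (pr_W (ρ x⁻¹ v)))`. -/
def bMap (j : ι) : V →ₗ[k] (G → k) :=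
  LinearMap.pi fun x => ((Nat.card B : k)⁻¹) • (bW.coord j ∘ₗ prW h ∘ₗ ρ x⁻¹)

lemma bMap_apply (j : ι) (v : V) (x : G) :
    bMap h bW j v x = (Nat.card B : k)⁻¹ * bW.coord j (prW h (ρ x⁻¹ v)) := rfl

lemma bMap_rho (j : ι) (g : G) (v : V) :
    bMap h bW j (ρ g v) = permRep k G G g (bMap h bW j v) := by
  funext x
  rw [permRep_apply, bMap_apply, bMap_apply, ← Module.End.mul_apply, ← map_mul, smul_eq_mul,
    mul_inv_rev, inv_inv]

theorem sum_aMap_bMap (hB : ((Nat.card B : ℕ) : k) ≠ 0) (v : V) :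
    ∑ j : ι, aMap ρ bW j (bMap h bW j v) = v := by
  have h1 : ∀ j : ι, aMap ρ bW j (bMap h bW j v)
      = ∑ x : G, (Nat.card B : k)⁻¹ • ρ x ((bW.coord j (prW h (ρ x⁻¹ v))) • (bW j : V)) := by
    intro j
    rw [aMap_apply]
    refine Finset.sum_congr rfl fun x _ => ?_
    rw [bMap_apply, map_smul, mul_smul]
  rw [Finset.sum_congr rfl (fun j _ => h1 j), Finset.sum_comm]
  have h2 : ∀ x : G, ∑ j : ι, (Nat.card B : k)⁻¹ •
      ρ x ((bW.coord j (prW h (ρ x⁻¹ v))) • (bW j : V))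
      = (Nat.card B : k)⁻¹ • ρ x ((prW h (ρ x⁻¹ v) : W) : V) := by
    intro x
    rw [← Finset.smul_sum, ← map_sum]
    congr 2
    have h3 := bW.sum_repr (prW h (ρ x⁻¹ v))
    have h4 := congrArg (W.subtype) h3
    rw [map_sum] at h4
    simpa using h4
  rw [Finset.sum_congr rfl (fun x _ => h2 x), ← Finset.smul_sum, ← avgOp_apply, avgOp_eq,
    LinearMap.smul_apply, LinearMap.id_apply, smul_smul, inv_mul_cancel₀ hB, one_smul]

end induced

end Fermat.Agent.S56.EC.H4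

end
end
-- ==== END Fermat.Agent.S56.EC.H4_Sha0Alg

-- ==== BEGIN Fermat.Agent.S56.FL.H15_CC2Defs
section

set_option autoImplicit false

/-!
# LOC-p-FL, package UNITS / CC2 (helper15): self-contained sub-leaves

`Stmt_CC2z` is proved in `FL/H15_CC2*.lean` from `H59.stmt_KUMBDD` and the leaves below.

* `Stmt_CNT`  : the semilinear count (pure algebra over finite fields).
* `Stmt_FROB` : a Frobenius element for a finite Galois extension of `ℚ_p`.
-/

noncomputable section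

namespace Fermat.Agent.S56.FL.H15

open Fermat.Agent.S56.FL

/-- **CNT** (semilinear count).  `k`, `κ` fields of characteristic `p`, `k` finite; `z ∈ κ` of
degree `2` over `𝔽_p` (`z^p ≠ z`, `z^{p²} = z`).  The additive maps `f : k → κ` with
`f (y x) = z f x` and `f (w x) = t (f x)^{p²}` form a `k`-vector space (`(l • f) x = f (l x)`) with
at most `#k` elements, so two of them are `k`-linearly dependent.

Proof: if `f ≠ 0` then `y` and `z` have the same minimal polynomial over `𝔽_p`, of degree `2`, so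
`E = 𝔽_p[y] ≅ 𝔽_{p²}`, `ι : E → κ`, `y ↦ z`, and `f (c x) = ι c * f x` for `c ∈ E`.  Let
`k₀ = E[w]`, `Q = Σ_{j ≤ m} q_j T^j` the minimal polynomial of `w` over `E`.  With
`t_0 = 1`, `t_{j+1} = t * t_j^{p²}`: `f (w^j x) = t_j (f x)^{p^{2j}}`, so every value `v = f x` is a
root of `A = Σ_j ι(q_j) t_j V^{p^{2j}}` (degree `p^{2m} = #k₀`, leading coefficient `t_m ≠ 0`), and
`f` is determined by its values on a `k₀`-basis of `k`: at most `(#k₀)^{[k:k₀]} = #k` maps.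
Pigeonhole on `(l₁, l₂) ↦ l₁ • f₁ + l₂ • f₂` (`#k² > #k`). -/
def Stmt_CNT : Prop :=
  ∀ (p : ℕ) [Fact p.Prime] (k κ : Type) [Field k] [Finite k] [CharP k p] [Field κ] [CharP κ p]
    (y w : k) (z t : κ), w ≠ 0 → t ≠ 0 → z ^ p ≠ z → z ^ (p ^ 2) = z →
    ∀ f₁ f₂ : k →+ κ,
      (∀ x, f₁ (y * x) = z * f₁ x) → (∀ x, f₁ (w * x) = t * f₁ x ^ (p ^ 2)) →
      (∀ x, f₂ (y * x) = z * f₂ x) → (∀ x, f₂ (w * x) = t * f₂ x ^ (p ^ 2)) →
      ∃ l₁ l₂ : k, (l₁ ≠ 0 ∨ l₂ ≠ 0) ∧ ∀ x, f₁ (l₁ * x) + f₂ (l₂ * x) = 0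

/-- **FROB** (Frobenius element).  For `M/ℚ_p` finite Galois there is `φ ∈ Gal(K̄/ℚ_p)` acting as
`a ↦ a^p` on the residue field of `M`.

Proof: `x` a generator of the integers of `M` (`H15.exists_poly_eq`), `P ∈ ℤ_p[X]` its minimal
polynomial (`H15.IsMinZ`): `P(x^p) ≡ P(x)^p = 0 mod p`, and `P(x^p) = ∏_τ (x^p - τ x)`, so
`‖x^p - τ x‖ < 1` for some `τ ∈ Gal(M/ℚ_p)`; for `a = g(x)`, `g ∈ ℤ_p[X]`:
`τ a = g(τ x) ≡ g(x^p) ≡ g(x)^p`.  Lift `τ` (`H38.resL_surjective`). -/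
def Stmt_FROB : Prop :=
  ∀ (p : ℕ) [Fact p.Prime] (M : IntermediateField ℚ_[p] (PadicAlgCl p))
    [FiniteDimensional ℚ_[p] M], Normal ℚ_[p] M →
    ∃ φ : Gp p, ∀ a ∈ M, ‖a‖ ≤ 1 → ‖φ a - a ^ p‖ < 1

end Fermat.Agent.S56.FL.H15

end

end
-- ==== END Fermat.Agent.S56.FL.H15_CC2Defs

-- ==== BEGIN Fermat.Agent.S56.FL.H15_CC2Defs2
section

set_option autoImplicit false

/-!
# LOC-p-FL, package UNITS / CC2 (helper15): sub-leaf INERT

* `Stmt_INERT` : the tame character of a tamely ramified finite Galois extension `K/ℚ_p` has exact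
  order `e(K/ℚ_p)` on the inertia group.
-/

noncomputable section

namespace Fermat.Agent.S56.FL.H15

open Fermat.Agent.S56.FL

/-- **INERT.**  `K/ℚ_p` finite Galois of degree prime to `p`, `ϖ` a uniformizer of `K`,
`‖ϖ‖^e = p⁻¹`.  There is `σ` in the inertia group of `K̄/ℚ_p` such that the unit `θ = σ ϖ / ϖ` has
exact order `e` in the residue field: `θ^n ≡ 1 ⟺ e ∣ n`.

Proof.  `Γ = Gal(K/ℚ_p)`, `J = resL K (inertiaP p) ≤ Γ`.
1. `#J ≤ e`: `J ⊆ {τ | depth τ < 1}` (`depth_eq_of_goodGen`), `H15.card_inertia_le`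
   (`H15.exists_goodGen_q`, `H15.exists_isMinZ`; the uniformizer of the good generator has the same
   norm as `ϖ`).
2. `#J ≥ e`: `a = ∏_{τ ∈ J} τ ϖ` is fixed by `inertiaP p`, `‖a‖ = ‖ϖ‖^{#J} < 1`, so
   `‖a‖ ≤ p⁻¹ = ‖ϖ‖^e` (`H38.norm_le_inv_of_fixed`).
3. `Θ : J →* κ = OL K ⧸ mL K`, `τ ↦ [τ ϖ / ϖ]` is a homomorphism (`τ ∈ J` acts trivially on `κ`) and
   is injective: `Θ τ = 1` ⟹ `‖τ ϖ - ϖ‖ < ‖ϖ‖` ⟹ `depth τ < ‖ϖ‖` (for a good generator `x`:
   `depth τ = ‖τ x - x‖ = ‖τ (x^q - x) - (x^q - x)‖` by `H15.norm_w_sub`, and `x^q - x = u ϖ`, `u` a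
   unit) ⟹ `τ = 1` (`H15.dvd_orderOf_of_depth_lt`, `orderOf τ ∣ #Γ = [K:ℚ_p]`).
4. `J` is cyclic (`isCyclic_of_injective_ringHom`); `τ₁ = resL K σ` a generator (`σ ∈ inertiaP p`):
   `Θ(τ₁)^n = 1 ⟺ τ₁^n = 1 ⟺ #J ∣ n`. -/
def Stmt_INERT : Prop :=
  ∀ (p : ℕ) [Fact p.Prime] (K : IntermediateField ℚ_[p] (PadicAlgCl p))
    [FiniteDimensional ℚ_[p] K], Normal ℚ_[p] K → ¬ p ∣ Module.finrank ℚ_[p] K →
    ∀ ϖ ∈ K, 0 < ‖ϖ‖ → ‖ϖ‖ < 1 → (∀ a ∈ K, ‖a‖ < 1 → ‖a‖ ≤ ‖ϖ‖) →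
    ∀ e : ℕ, ‖ϖ‖ ^ e = (p : ℝ)⁻¹ →
      ∃ σ ∈ inertiaP p, ∀ n : ℕ, ‖(σ ϖ / ϖ) ^ n - 1‖ < 1 ↔ e ∣ n

end Fermat.Agent.S56.FL.H15

end

end
-- ==== END Fermat.Agent.S56.FL.H15_CC2Defs2

-- ==== BEGIN Fermat.Agent.S56.FL.H15_CC2Defs3
section

set_option autoImplicit false

/-!
# LOC-p-FL, package UNITS / CC2 (helper15): sub-leaf LEADCNT

* `Stmt_LEADCNT` : the semilinear count `H61.stmt_CNT` for "leading coefficient relations" with
  values in the integers of a finite extension `K/ℚ_p` modulo the maximal ideal.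
-/

noncomputable section

namespace Fermat.Agent.S56.FL.H15

open Fermat.Agent.S56.FL

/-- **LEADCNT.**  `K/ℚ_p` finite, `k` a finite field of characteristic `p`.  `Lead₁`, `Lead₂` are
relations between `x ∈ k` and integers `u` of `K` (`Lead x u`: "`u` is a leading coefficient of
`x`") which are total, single-valued modulo the maximal ideal, additive, and semilinear:
`Lead x u → Lead (y x) (θ u)`, `Lead x u → Lead (w x) (t u^{p²})`, where `θ, t` are units of `K`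
and `θ` is not congruent to an element of `𝔽_p` (`¬ ‖θ^p - θ‖ < 1`).  Then there is
`(l₁, l₂) ≠ 0` in `k²` such that the leading coefficients of `l₁ x` (for `Lead₁`) and of `l₂ x`
(for `Lead₂`) cancel modulo the maximal ideal, for all `x`.

Proof: `κ = H15.OL K ⧸ H15.mL K` (a field of characteristic `p`, `H15.mL_isMaximal`),
`f_j x = [u]` for any `u` with `Lead_j x u`; `f_j : k →+ κ`, `f_j (y x) = [θ] f_j x`,
`f_j (w x) = [t] (f_j x)^{p²}`, `[θ]^p ≠ [θ]`, `[t] ≠ 0`; apply `H61.cnt_core`. -/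
def Stmt_LEADCNT : Prop :=
  ∀ (p : ℕ) [Fact p.Prime] (k : Type) [Field k] [Finite k] [CharP k p]
    (K : IntermediateField ℚ_[p] (PadicAlgCl p)) [FiniteDimensional ℚ_[p] K]
    (Lead₁ Lead₂ : k → PadicAlgCl p → Prop) (y w : k) (θ t : PadicAlgCl p),
    θ ∈ K → ‖θ‖ = 1 → t ∈ K → ‖t‖ = 1 → ¬ ‖θ ^ p - θ‖ < 1 →
    (∀ x u, Lead₁ x u → u ∈ K ∧ ‖u‖ ≤ 1) →
    (∀ x, ∃ u, Lead₁ x u) →
    (∀ x u u', Lead₁ x u → Lead₁ x u' → ‖u - u'‖ < 1) →
    (∀ x x' u u', Lead₁ x u → Lead₁ x' u' → Lead₁ (x + x') (u + u')) →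
    (∀ x u, Lead₁ x u → Lead₁ (y * x) (θ * u)) →
    (∀ x u, Lead₁ x u → Lead₁ (w * x) (t * u ^ (p ^ 2))) →
    (∀ x u, Lead₂ x u → u ∈ K ∧ ‖u‖ ≤ 1) →
    (∀ x, ∃ u, Lead₂ x u) →
    (∀ x u u', Lead₂ x u → Lead₂ x u' → ‖u - u'‖ < 1) →
    (∀ x x' u u', Lead₂ x u → Lead₂ x' u' → Lead₂ (x + x') (u + u')) →
    (∀ x u, Lead₂ x u → Lead₂ (y * x) (θ * u)) →
    (∀ x u, Lead₂ x u → Lead₂ (w * x) (t * u ^ (p ^ 2))) →
    ∃ l₁ l₂ : k, (l₁ ≠ 0 ∨ l₂ ≠ 0) ∧
      ∀ x u₁ u₂, Lead₁ (l₁ * x) u₁ → Lead₂ (l₂ * x) u₂ → ‖u₁ + u₂‖ < 1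

end Fermat.Agent.S56.FL.H15

end

end
-- ==== END Fermat.Agent.S56.FL.H15_CC2Defs3

-- ==== BEGIN Fermat.Agent.S56.FL.H54_PMBase
section

/-!
# LOC-p-FL, package PM (helper54): basics on the rings `𝒪_F = intRing p F`

* `norm_algebraMap_zloc_le_one` : elements of `ℤ_(p)` have norm `≤ 1` in `K̄`;
* `norm_le_one_of_monic` : roots of monic polynomials with integral coefficients are integral;
* `algZlocIntRing` : `𝒪_F` is a `ℤ_(p)`-algebra; `inclAlg` : the inclusion `𝒪_F → K̄`;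
* `intRing_isLocalRing`, `ballIdeal_le_maximalIdeal`.
-/

set_option autoImplicit false
set_option linter.unusedSectionVars false

noncomputable section

namespace Fermat.Agent.S56.FL.H54

open scoped NNReal
open Fermat.Agent.S56.FL

variable {p : ℕ} [Fact p.Prime]

theorem algebraMap_zloc_eq (r : Zloc p) :
    algebraMap (Zloc p) (PadicAlgCl p) r =
      algebraMap ℚ_[p] (PadicAlgCl p) (((r : ℚ) : ℚ_[p])) := by
  have h1 : algebraMap (Zloc p) (PadicAlgCl p) r =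
      algebraMap ℚ_[p] (PadicAlgCl p) (algebraMap (Zloc p) ℚ_[p] r) := rfl
  rw [h1]
  congr 1

theorem norm_algebraMap_zloc_le_one (r : Zloc p) :
    ‖algebraMap (Zloc p) (PadicAlgCl p) r‖ ≤ 1 := by
  rw [algebraMap_zloc_eq, PadicAlgCl.norm_extends]
  apply Padic.norm_rat_le_one
  have h : (r : ℚ).den.Coprime p := r.2
  intro hdvd
  have h2 := Nat.Coprime.eq_one_of_dvd h.symm hdvd
  exact (Fact.out : p.Prime).one_lt.ne' h2

theorem algebraMap_zloc_mem (F : IntermediateField ℚ_[p] (PadicAlgCl p)) (r : Zloc p) :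
    algebraMap (Zloc p) (PadicAlgCl p) r ∈ F := by
  rw [algebraMap_zloc_eq]
  exact F.algebraMap_mem _

/-- A root of a monic polynomial with coefficients of norm `≤ 1` has norm `≤ 1`. -/
theorem norm_le_one_of_monic (a : PadicAlgCl p) (P : Polynomial (PadicAlgCl p)) (hP : P.Monic)
    (hc : ∀ i, ‖P.coeff i‖ ≤ 1) (ha : P.eval a = 0) : ‖a‖ ≤ 1 := by
  by_contra hcon
  have h1 : 1 < ‖a‖ := not_le.mp hcon
  set n := P.natDegree with hn
  have hn0 : n ≠ 0 := by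
    intro h0
    have : P = 1 := Polynomial.eq_one_of_monic_natDegree_zero hP (hn ▸ h0)
    rw [this, Polynomial.eval_one] at ha
    exact one_ne_zero ha
  rw [Polynomial.eval_eq_sum_range, Finset.sum_range_succ, ← hn, hP.coeff_natDegree, one_mul]
    at ha
  have h2 : a ^ n = -∑ i ∈ Finset.range n, P.coeff i * a ^ i := eq_neg_of_add_eq_zero_right ha
  have h3 : ‖∑ i ∈ Finset.range n, P.coeff i * a ^ i‖ ≤ ‖a‖ ^ (n - 1) := by
    refine IsUltrametricDist.norm_sum_le_of_forall_le_of_nonneg (by positivity) fun i hi => ?_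
    rw [norm_mul, norm_pow]
    have hi' : i ≤ n - 1 := by
      have := Finset.mem_range.mp hi
      omega
    calc ‖P.coeff i‖ * ‖a‖ ^ i ≤ 1 * ‖a‖ ^ (n - 1) :=
          mul_le_mul (hc i) (pow_le_pow_right₀ h1.le hi') (by positivity) zero_le_one
      _ = ‖a‖ ^ (n - 1) := one_mul _
  have h4 : ‖a‖ ^ n ≤ ‖a‖ ^ (n - 1) := by
    rw [← norm_pow, h2, norm_neg]
    exact h3
  have h5 : ‖a‖ ^ (n - 1) < ‖a‖ ^ n := pow_lt_pow_right₀ h1 (by omega)
  exact absurd h4 (not_le.mpr h5)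

/-- The values of an algebra homomorphism from a finite `ℤ_(p)`-algebra are integral. -/
theorem norm_point_le_one {H : Type} [CommRing H] [Algebra (Zloc p) H] [Module.Finite (Zloc p) H]
    (x : H →ₐ[Zloc p] PadicAlgCl p) (h : H) : ‖x h‖ ≤ 1 := by
  have hint : IsIntegral (Zloc p) h := Algebra.IsIntegral.isIntegral h
  obtain ⟨P, hP, hPh⟩ := hint
  refine norm_le_one_of_monic (x h) (P.map (algebraMap (Zloc p) (PadicAlgCl p)))
    (hP.map _) (fun i => ?_) ?_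
  · rw [Polynomial.coeff_map]
    exact norm_algebraMap_zloc_le_one _
  · rw [Polynomial.eval_map, ← Polynomial.aeval_def, Polynomial.aeval_algHom_apply,
      Polynomial.aeval_def, hPh, map_zero]

variable (F : IntermediateField ℚ_[p] (PadicAlgCl p))

/-- The structure map `ℤ_(p) → 𝒪_F`. -/
def zlocToInt : Zloc p →+* intRing p F where
  toFun r := ⟨algebraMap (Zloc p) (PadicAlgCl p) r, algebraMap_zloc_mem F r,
    norm_algebraMap_zloc_le_one r⟩
  map_one' := Subtype.ext (map_one _)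
  map_mul' a b := Subtype.ext (map_mul _ a b)
  map_zero' := Subtype.ext (map_zero _)
  map_add' a b := Subtype.ext (map_add _ a b)

/-- `𝒪_F` as a `ℤ_(p)`-algebra. -/
instance algZlocIntRing : Algebra (Zloc p) (intRing p F) := (zlocToInt F).toAlgebra

@[simp] theorem coe_algebraMap_zloc (r : Zloc p) :
    ((algebraMap (Zloc p) (intRing p F) r : intRing p F) : PadicAlgCl p) =
      algebraMap (Zloc p) (PadicAlgCl p) r := rfl

/-- The inclusion `𝒪_F → K̄` as a homomorphism of `ℤ_(p)`-algebras. -/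
def inclAlg : intRing p F →ₐ[Zloc p] PadicAlgCl p where
  toRingHom := (intRing p F).subtype
  commutes' _ := rfl

@[simp] theorem inclAlg_apply (a : intRing p F) : inclAlg F a = (a : PadicAlgCl p) := rfl

theorem inclAlg_injective : Function.Injective (inclAlg F) := Subtype.val_injective

variable {F}

theorem isUnit_intRing_iff {a : intRing p F} : IsUnit a ↔ ‖(a : PadicAlgCl p)‖ = 1 := by
  constructor
  · rintro ⟨u, rfl⟩
    have h1 : ‖((u : intRing p F) : PadicAlgCl p)‖ ≤ 1 := (u : intRing p F).2.2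
    have h2 : ‖(((u⁻¹ : (intRing p F)ˣ) : intRing p F) : PadicAlgCl p)‖ ≤ 1 :=
      ((u⁻¹ : (intRing p F)ˣ) : intRing p F).2.2
    have h3 : ((u : intRing p F) : PadicAlgCl p) *
        (((u⁻¹ : (intRing p F)ˣ) : intRing p F) : PadicAlgCl p) = 1 := by
      rw [← Subring.coe_mul, Units.mul_inv, Subring.coe_one]
    have h4 := congrArg norm h3
    rw [norm_mul, norm_one] at h4
    by_contra hne
    have hlt : ‖((u : intRing p F) : PadicAlgCl p)‖ < 1 := lt_of_le_of_ne h1 hne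
    have : ‖((u : intRing p F) : PadicAlgCl p)‖ *
        ‖(((u⁻¹ : (intRing p F)ˣ) : intRing p F) : PadicAlgCl p)‖ < 1 := by
      calc _ ≤ ‖((u : intRing p F) : PadicAlgCl p)‖ * 1 :=
            mul_le_mul_of_nonneg_left h2 (norm_nonneg _)
        _ < 1 := by rw [mul_one]; exact hlt
    exact absurd h4 this.ne
  · intro h
    have ha0 : (a : PadicAlgCl p) ≠ 0 := by
      intro h0
      rw [h0, norm_zero] at h
      exact zero_ne_one h
    refine IsUnit.of_mul_eq_one (⟨(a : PadicAlgCl p)⁻¹, F.inv_mem a.2.1, ?_⟩ : intRing p F) ?_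
    · rw [norm_inv, h, inv_one]
    · apply Subtype.ext
      show (a : PadicAlgCl p) * (a : PadicAlgCl p)⁻¹ = 1
      exact mul_inv_cancel₀ ha0

theorem not_isUnit_intRing_iff {a : intRing p F} : ¬ IsUnit a ↔ ‖(a : PadicAlgCl p)‖ < 1 := by
  rw [isUnit_intRing_iff]
  constructor
  · intro h
    exact lt_of_le_of_ne a.2.2 h
  · intro h
    exact h.ne

instance intRing_isLocalRing : IsLocalRing (intRing p F) := by
  refine IsLocalRing.of_nonunits_add ?_
  intro a b ha hb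
  rw [mem_nonunits_iff, not_isUnit_intRing_iff] at ha hb ⊢
  rw [Subring.coe_add]
  exact (IsUltrametricDist.norm_add_le_max _ _).trans_lt (max_lt ha hb)

theorem ballIdeal_le_maximalIdeal {c : ℝ≥0} (hc : c < 1) :
    ballIdeal p F c ≤ IsLocalRing.maximalIdeal (intRing p F) := by
  intro a ha
  rw [IsLocalRing.mem_maximalIdeal, mem_nonunits_iff, not_isUnit_intRing_iff]
  have h1 : ‖(a : PadicAlgCl p)‖ ≤ c := (mem_ballIdeal p).mp ha
  exact lt_of_le_of_lt h1 (by exact_mod_cast hc)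

theorem ballIdeal_mono {c c' : ℝ≥0} (h : c ≤ c') : ballIdeal p F c ≤ ballIdeal p F c' := by
  intro a ha
  rw [mem_ballIdeal] at ha ⊢
  exact ha.trans (by exact_mod_cast h)

end Fermat.Agent.S56.FL.H54

end

end
-- ==== END Fermat.Agent.S56.FL.H54_PMBase

-- ==== BEGIN Fermat.Agent.S56.FL.H59_CC3Defs
section

set_option autoImplicit false

/-!
# LOC-p-FL, package UNITS / CC3z (helper59): self-contained sub-leaves

`Stmt_CC3z` is proved in `FL/H59_CC3*.lean` from `H85.kumbdd_core`, `H50.tame_char_omg` and the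
leaves below.  They are statements on the field `S = ℚ_p^{ur}(ζ_p)`, given as the predicate
`InS p x`: "`x` is fixed by every element of inertia which fixes `μ_p`".  Write `θ = ‖ζ_p - 1‖`,
`θ^{p-1} = p⁻¹`; a bound `‖x‖ ≤ θ^j` is written `‖x‖^{p-1} ≤ p^{-j}`.

* `Stmt_N2`      : `S` has ramification index `p - 1`: `‖x‖ < 1 → ‖x‖ ≤ θ`.
* `Stmt_LevC`    : inertia acts trivially on `U^{(p-1)}/U^{(p)}`.
* `Stmt_LevD`    : inertia acts through `ω` on `U^{(p)}/U^{(p+1)}`.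
* `Stmt_HenselF` : `U^{(>p)}` consists of `p`-th powers (field form of `Stmt_LIFT_b`).
-/

noncomputable section

namespace Fermat.Agent.S56.FL.H59

open Fermat.Agent.S56.FL

/-- `x ∈ ℚ_p^{ur}(ζ_p)`: fixed by the elements of inertia fixing `μ_p`. -/
def InS (p : ℕ) [Fact p.Prime] (x : PadicAlgCl p) : Prop :=
  ∀ τ ∈ inertiaP p, (∀ ζ : PadicAlgCl p, ζ ^ p = 1 → τ ζ = ζ) → τ x = x

/-- **N2.**  Proof: choose `τ_u ∈ I` with `ω(τ_u) = u` for `u ∈ (ℤ/p)ˣ` (`H50.stmt_CycSurj`);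
`y = ∏_u τ_u x` is fixed by inertia (`τ τ_u x = τ_{ω(τ) u} x`), so `‖x‖^{p-1} = ‖y‖ ≤ p⁻¹`
(`H38.norm_le_inv_of_fixed`). -/
def Stmt_N2 : Prop :=
  ∀ (p : ℕ) [Fact p.Prime] (x : PadicAlgCl p), InS p x → ‖x‖ < 1 →
    ‖x‖ ^ (p - 1) ≤ (p : ℝ)⁻¹

/-- **LevC.**  Proof: `a - 1 = p y`, `y ∈ S` integral, `g a - a = p (g y - y)`,
`‖g y - y‖ < 1`, `g y - y ∈ S` (inertia ∩ ker ω is normal), so `‖g y - y‖ ≤ θ` by `N2`. -/
def Stmt_LevC : Prop :=
  ∀ (p : ℕ) [Fact p.Prime] (a : PadicAlgCl p), InS p a → ‖a - 1‖ ≤ (p : ℝ)⁻¹ →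
    ∀ g ∈ inertiaP p, ‖g a / a - 1‖ ^ (p - 1) ≤ ((p : ℝ)⁻¹) ^ p

/-- **LevD.**  Proof: `π = ζ - 1`, `a - 1 = π^p y`, `y ∈ S` integral; `g π = (1+π)^n - 1`,
`‖g π - n π‖ ≤ θ²`, `‖(g π)^p - n π^p‖ ≤ θ^{p+1}` (`n^p ≡ n mod p`), `‖g y - y‖ ≤ θ` (`N2`), so
`‖g a - 1 - n π^p y‖ ≤ θ^{p+1}`; and `‖a^n - 1 - n π^p y‖ ≤ θ^{2p}`. -/
def Stmt_LevD : Prop :=
  ∀ (p : ℕ) [Fact p.Prime], p ≠ 2 → ∀ (a : PadicAlgCl p), InS p a →
    ‖a - 1‖ ^ (p - 1) ≤ ((p : ℝ)⁻¹) ^ p →
    ∀ g ∈ inertiaP p, ∀ n : ℕ, (∀ ζ : PadicAlgCl p, ζ ^ p = 1 → g ζ = ζ ^ n) →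
      ‖g a / a ^ n - 1‖ ^ (p - 1) ≤ ((p : ℝ)⁻¹) ^ (p + 1)

/-- **HenselF.**  `Stmt_LIFT_b` for `C = 𝒪_F`. -/
def Stmt_HenselF : Prop :=
  ∀ (p : ℕ) [Fact p.Prime] (F : IntermediateField ℚ_[p] (PadicAlgCl p))
    [FiniteDimensional ℚ_[p] F] (y : PadicAlgCl p), y ∈ F →
    ‖y‖ ^ (p - 1) < ((p : ℝ)⁻¹) ^ p → ∃ z ∈ F, (1 + z) ^ p = 1 + y

end Fermat.Agent.S56.FL.H59

end

end
-- ==== END Fermat.Agent.S56.FL.H59_CC3Defs

-- ==== BEGIN Fermat.Agent.S56.FL.LF.H15_Residue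
section

set_option autoImplicit false
set_option linter.style.haveILetI false

/-!
# LOC-p-FL, LF basics (helper15), part 3: the residue field of a finite extension `L/ℚ_p` is a
finite field; a multiplicative generator; existence of `x` with
`depth σ = ‖σ x - x‖` for all `σ` (a generator of `𝒪_L` over `ℤ_p`, Serre III §6 Prop. 12).
-/

noncomputable section

namespace Fermat.Agent.S56.FL.H15

open scoped NNReal
open Fermat.Agent.S56.FL Module

variable {p : ℕ} [Fact p.Prime]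

variable (L : IntermediateField ℚ_[p] (PadicAlgCl p))

/-- The ring of integers of `L`, as a subring of `L`. -/
def OL : Subring L where
  carrier := {a | ‖(a : PadicAlgCl p)‖ ≤ 1}
  mul_mem' {a b} ha hb := by
    change ‖((a * b : L) : PadicAlgCl p)‖ ≤ 1
    push_cast
    rw [norm_mul]
    exact mul_le_one₀ ha (norm_nonneg _) hb
  one_mem' := by
    change ‖((1 : L) : PadicAlgCl p)‖ ≤ 1
    simp
  add_mem' {a b} ha hb := by
    change ‖((a + b : L) : PadicAlgCl p)‖ ≤ 1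
    push_cast
    exact (IsUltrametricDist.norm_add_le_max _ _).trans (max_le ha hb)
  zero_mem' := by
    change ‖((0 : L) : PadicAlgCl p)‖ ≤ 1
    simp
  neg_mem' {a} ha := by
    change ‖((-a : L) : PadicAlgCl p)‖ ≤ 1
    push_cast
    rw [norm_neg]
    exact ha

theorem mem_OL {a : L} : a ∈ OL L ↔ ‖(a : PadicAlgCl p)‖ ≤ 1 := Iff.rfl

/-- The maximal ideal of `𝒪_L`. -/
def mL : Ideal (OL L) where
  carrier := {a | ‖((a : L) : PadicAlgCl p)‖ < 1}
  add_mem' {a b} ha hb := by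
    change ‖(((a + b : OL L) : L) : PadicAlgCl p)‖ < 1
    push_cast
    exact (IsUltrametricDist.norm_add_le_max _ _).trans_lt (max_lt ha hb)
  zero_mem' := by
    change ‖(((0 : OL L) : L) : PadicAlgCl p)‖ < 1
    simp
  smul_mem' r a ha := by
    change ‖(((r * a : OL L) : L) : PadicAlgCl p)‖ < 1
    push_cast
    rw [norm_mul]
    calc ‖((r : L) : PadicAlgCl p)‖ * ‖((a : L) : PadicAlgCl p)‖
        ≤ 1 * ‖((a : L) : PadicAlgCl p)‖ :=
          mul_le_mul_of_nonneg_right r.2 (norm_nonneg _)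
      _ = ‖((a : L) : PadicAlgCl p)‖ := one_mul _
      _ < 1 := ha

theorem mem_mL {a : OL L} : a ∈ mL L ↔ ‖((a : L) : PadicAlgCl p)‖ < 1 := Iff.rfl

theorem mL_isMaximal : (mL L).IsMaximal := by
  rw [Ideal.isMaximal_iff]
  refine ⟨?_, fun J x _ hx hxJ => ?_⟩
  · intro h
    have : ‖(((1 : OL L) : L) : PadicAlgCl p)‖ < 1 := h
    simp at this
  · have hx1 : ‖((x : L) : PadicAlgCl p)‖ = 1 :=
      le_antisymm x.2 (not_lt.mp hx)
    have hx0 : (x : L) ≠ 0 := by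
      intro h
      rw [h] at hx1
      simp at hx1
    have hinv : ((x : L)⁻¹) ∈ OL L := by
      change ‖(((x : L)⁻¹ : L) : PadicAlgCl p)‖ ≤ 1
      push_cast
      rw [norm_inv, hx1, inv_one]
    have h1 : (⟨(x : L)⁻¹, hinv⟩ : OL L) * x = 1 := by
      apply Subtype.ext
      push_cast
      exact inv_mul_cancel₀ hx0
    rw [← h1]
    exact J.mul_mem_left _ hxJ

variable [FiniteDimensional ℚ_[p] L]

theorem finite_residue : Finite (OL L ⧸ mL L) := by
  classical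
  obtain ⟨T, hT1, hT2⟩ := exists_finite_residue_reps L
  let f : {t // t ∈ T} → OL L ⧸ mL L :=
    fun t => Ideal.Quotient.mk (mL L) ⟨t.1, hT1 t.1 t.2⟩
  apply Finite.of_surjective f
  intro y
  obtain ⟨a, rfl⟩ := Ideal.Quotient.mk_surjective y
  obtain ⟨t, ht, hat⟩ := hT2 a.1 a.2
  refine ⟨⟨t, ht⟩, ?_⟩
  change Ideal.Quotient.mk (mL L) ⟨t, hT1 t ht⟩ = Ideal.Quotient.mk (mL L) a
  rw [Ideal.Quotient.eq, mem_mL]
  push_cast
  rw [norm_sub_rev]
  exact hat

/-- A multiplicative generator of the residue field, and the cardinality `q` of the residue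
field. -/
theorem exists_residue_generator :
    ∃ (ζ : L) (q : ℕ), ‖(ζ : PadicAlgCl p)‖ ≤ 1 ∧ 0 < q ∧ ‖(q : PadicAlgCl p)‖ < 1 ∧
      (∀ a : L, ‖(a : PadicAlgCl p)‖ ≤ 1 →
        ‖(a : PadicAlgCl p) ^ q - (a : PadicAlgCl p)‖ < 1) ∧
      (∀ a : L, ‖(a : PadicAlgCl p)‖ = 1 →
        ∃ m : ℕ, ‖(a : PadicAlgCl p) - (ζ : PadicAlgCl p) ^ m‖ < 1) := by
  classical
  haveI hmax : (mL L).IsMaximal := mL_isMaximal L
  letI : Field (OL L ⧸ mL L) := Ideal.Quotient.field (mL L)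
  haveI : Finite (OL L ⧸ mL L) := finite_residue L
  letI : Fintype (OL L ⧸ mL L) := Fintype.ofFinite _
  obtain ⟨g, hg⟩ := IsCyclic.exists_generator (α := (OL L ⧸ mL L)ˣ)
  obtain ⟨ζ, hζ⟩ := Ideal.Quotient.mk_surjective (g : OL L ⧸ mL L)
  refine ⟨(ζ : L), Fintype.card (OL L ⧸ mL L), ζ.2, Fintype.card_pos, ?_, ?_, ?_⟩
  · have h0 : ((Fintype.card (OL L ⧸ mL L) : ℕ) : OL L ⧸ mL L) = 0 :=
      Nat.cast_card_eq_zero _
    have h1 : Ideal.Quotient.mk (mL L) ((Fintype.card (OL L ⧸ mL L) : ℕ) : OL L) = 0 := by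
      rw [map_natCast]; exact h0
    rw [Ideal.Quotient.eq_zero_iff_mem, mem_mL] at h1
    simpa using h1
  · intro a ha
    have h0 : (Ideal.Quotient.mk (mL L) ⟨a, ha⟩) ^ Fintype.card (OL L ⧸ mL L)
        = Ideal.Quotient.mk (mL L) ⟨a, ha⟩ := FiniteField.pow_card _
    rw [← map_pow, Ideal.Quotient.eq, mem_mL] at h0
    simpa using h0
  · intro a ha
    have hne : Ideal.Quotient.mk (mL L) ⟨a, ha.le⟩ ≠ 0 := by
      intro h
      rw [Ideal.Quotient.eq_zero_iff_mem, mem_mL] at h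
      simp only at h
      rw [ha] at h
      exact lt_irrefl _ h
    have hu := hg (Units.mk0 _ hne)
    rw [← mem_powers_iff_mem_zpowers, Submonoid.mem_powers_iff] at hu
    obtain ⟨m, hm⟩ := hu
    refine ⟨m, ?_⟩
    have hm' : (g : OL L ⧸ mL L) ^ m = Ideal.Quotient.mk (mL L) ⟨a, ha.le⟩ := by
      have := congrArg (fun u : (OL L ⧸ mL L)ˣ => (u : OL L ⧸ mL L)) hm
      simpa using this
    rw [← hζ, ← map_pow, Ideal.Quotient.eq, mem_mL] at hm'
    rw [norm_sub_rev]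
    simpa using hm'

end Fermat.Agent.S56.FL.H15

end

end
-- ==== END Fermat.Agent.S56.FL.LF.H15_Residue

-- ==== BEGIN Fermat.Agent.S56.H9_LocTW
section

/-
Leaf LOC-TW of cluster T (S56): the continuous local H¹ at a Taylor-Wiles prime is
finite-dimensional of dimension at most twice the dimension of the local invariants.
-/

set_option autoImplicit false
set_option linter.unusedSectionVars false
set_option linter.style.haveILetI false

namespace Fermat.Agent.S56.H9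

open NumberField CategoryTheory groupCohomology ExtCitation

local notation "Qbar" => AlgebraicClosure ℚ

section galois

variable (F : IntermediateField ℚ Qbar) [NumberField F]

lemma intIncl_smul (σ : F ≃ₐ[ℚ] F) (x : 𝓞 F) :
    intIncl F (σ • x) = algebraMap F Qbar (σ (x : F)) := rfl

instance faithful_gal_int : FaithfulSMul (F ≃ₐ[ℚ] F) (𝓞 F) := by
  refine ⟨fun {σ τ} h => ?_⟩
  apply AlgEquiv.ext
  intro y
  obtain ⟨a, b, hb, rfl⟩ := IsFractionRing.div_surjective (A := 𝓞 F) y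
  have ha := congrArg (fun z : 𝓞 F => (z : F)) (h a)
  have hb' := congrArg (fun z : 𝓞 F => (z : F)) (h b)
  have e1 : σ (algebraMap (𝓞 F) F a) = τ (algebraMap (𝓞 F) F a) := ha
  have e2 : σ (algebraMap (𝓞 F) F b) = τ (algebraMap (𝓞 F) F b) := hb'
  rw [map_div₀, map_div₀, e1, e2]

variable [Normal ℚ F]

lemma intIncl_restrictNormal_smul (τ : Qbar ≃ₐ[ℚ] Qbar) (x : 𝓞 F) :
    intIncl F ((AlgEquiv.restrictNormalHom F τ) • x) = τ (intIncl F x) := by
  rw [intIncl_smul]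
  exact AlgEquiv.restrictNormal_commutes τ F (x : F)

end galois

section localGlobal

variable (q : Nat.Primes)

/-- The place `A` lies over `q`. -/
lemma primeLocalPlace_liesOver : (primeLocalPlace q).LiesOverPrime (q : ℕ) := by
  haveI : Fact (q : ℕ).Prime := ⟨q.2⟩
  show ((q : ℕ) : Qbar) ∈ (padicPlace (q : ℕ)).nonunits
  rw [ValuationSubring.mem_nonunits_iff_or]
  right
  intro h
  rw [mem_padicPlace_iff, map_inv₀, map_natCast, nnnorm_inv] at h
  have h1 := PadicAlgCl.valuation_p (q : ℕ)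
  rw [PadicAlgCl.valuation_def] at h1
  rw [h1, one_div, inv_inv] at h
  have h2 : (1 : NNReal) < (q : ℕ) := by exact_mod_cast q.2.one_lt
  exact absurd h (not_le.2 h2)

lemma primeLocalToGlobal_mem_decomposition (g : primeLocalGaloisGroup q) :
    primeLocalToGlobal q g ∈ (primeLocalPlace q).decompositionSubgroup ℚ := by
  haveI : Fact (q : ℕ).Prime := ⟨q.2⟩
  exact localGaloisToGlobal_mem_decompositionSubgroup (q : ℕ) g

/-- The open subgroup of the local Galois group cut out by the field `F`. -/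
noncomputable def levelSubgroup (F : IntermediateField ℚ Qbar) : Subgroup (primeLocalGaloisGroup q) :=
  F.fixingSubgroup.comap (primeLocalToGlobal q)

lemma mem_levelSubgroup {F : IntermediateField ℚ Qbar} {g : primeLocalGaloisGroup q} :
    g ∈ levelSubgroup q F ↔ primeLocalToGlobal q g ∈ F.fixingSubgroup := Iff.rfl

lemma levelSubgroup_anti {F F' : IntermediateField ℚ Qbar} (h : F ≤ F') :
    levelSubgroup q F' ≤ levelSubgroup q F := fun _ hg =>
  IntermediateField.fixingSubgroup_antitone h hg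

lemma levelSubgroup_eq_ker (F : IntermediateField ℚ Qbar) [Normal ℚ F] :
    levelSubgroup q F = ((AlgEquiv.restrictNormalHom F).comp (primeLocalToGlobal q)).ker := by
  ext g
  rw [mem_levelSubgroup, MonoidHom.mem_ker, MonoidHom.comp_apply, ← MonoidHom.mem_ker]
  exact (Subgroup.ext_iff.1 (@IntermediateField.restrictNormalHom_ker ℚ Qbar _ _ _ F ‹_›) _).symm

end localGlobal

section level

variable {k : Type} [Field k] (M : Rep k GQ) (q : Nat.Primes)

lemma locRep_ρ_apply (g : primeLocalGaloisGroup q) :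
    (locRep M q).ρ g = M.ρ (primeLocalToGlobal q g) := rfl

theorem tameLevel_levelSubgroup (p : ℕ) [CharP k p] (hq1 : (q : ℕ) % p = 1)
    (hur : IsUnramifiedRepAt M (q : ℕ))
    (F : IntermediateField ℚ Qbar) [FiniteDimensional ℚ F] [Normal ℚ F]
    (hF : ∀ s ∈ F.fixingSubgroup, M.ρ s = 1) :
    TameLevel (locRep M q) (levelSubgroup q F) := by
  haveI : NumberField F :=
    { to_charZero := inferInstance, to_finiteDimensional := inferInstance }
  haveI : Fact (q : ℕ).Prime := ⟨q.2⟩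
  have hA : ((q : ℕ) : Qbar) ∈ (primeLocalPlace q).nonunits := primeLocalPlace_liesOver q
  have hq0 : (q : ℕ) ≠ 0 := q.2.ne_zero
  haveI : (primeAt (primeLocalPlace q) F).IsMaximal := primeAt_isMaximal _ _ hq0 hA
  haveI : Finite (𝓞 F ⧸ primeAt (primeLocalPlace q) F) := finite_quotient_primeAt _ _ hq0 hA
  haveI : CharP (𝓞 F ⧸ primeAt (primeLocalPlace q) F) (q : ℕ) :=
    charP_quotient_primeAt _ _ q.2 hA
  have hqk : (((q : ℕ)) : k) = 1 := by
    rw [CharP.cast_eq_mod k p, hq1, Nat.cast_one]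
  rw [levelSubgroup_eq_ker]
  refine tameLevel_ker (locRep M q) (primeAt (primeLocalPlace q) F)
    (primeAt_ne_bot _ _ hq0 hA) (q : ℕ) hqk
    ((AlgEquiv.restrictNormalHom F).comp (primeLocalToGlobal q)) ?_ ?_
  · intro g x
    rw [mem_primeAt, mem_primeAt, MonoidHom.comp_apply, intIncl_restrictNormal_smul]
    exact Fermat.Agent.Lib.InertiaBridge.valuation_map_lt_one_iff _ _
      (primeLocalToGlobal_mem_decomposition q g) _
  · intro g hg
    rw [locRep_ρ_apply]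
    have h : ∀ x : Qbar, x ∈ F → IsIntegral ℤ x →
        (primeLocalToGlobal q g) x - x ∈ (primeLocalPlace q).nonunits := by
      intro x hx hxi
      have hxi' : IsIntegral ℤ (⟨x, hx⟩ : F) := by
        refine (isIntegral_algebraMap_iff (B := Qbar) ?_).1 hxi
        exact (algebraMap F Qbar).injective
      obtain ⟨y, hy⟩ : ∃ y : 𝓞 F, intIncl F y = x := ⟨⟨⟨x, hx⟩, hxi'⟩, rfl⟩
      have h1 : ((AlgEquiv.restrictNormalHom F).comp (primeLocalToGlobal q)) g • y - y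
          ∈ primeAt (primeLocalPlace q) F := hg y
      rw [mem_primeAt, map_sub, MonoidHom.comp_apply, intIncl_restrictNormal_smul, hy] at h1
      exact (ValuationSubring.mem_nonunits_iff _).2 h1
    obtain ⟨σ, hσ, hσF⟩ := Fermat.Agent.Lib.InertiaLift.exists_mem_inertiaSubgroupIn_eqOn
      (q : ℕ) q.2 (primeLocalPlace q) (primeLocalPlace_liesOver q) F (primeLocalToGlobal q g) h
    have h2 : σ⁻¹ * primeLocalToGlobal q g ∈ F.fixingSubgroup := by
      rw [IntermediateField.mem_fixingSubgroup_iff]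
      intro x hx
      show σ⁻¹ (primeLocalToGlobal q g x) = x
      rw [← hσF x hx]
      exact σ.symm_apply_apply x
    have h3 := hF _ h2
    have h4 := hur _ (primeLocalPlace_liesOver q) σ hσ
    have h5 : M.ρ (primeLocalToGlobal q g) = M.ρ σ * M.ρ (σ⁻¹ * primeLocalToGlobal q g) := by
      rw [← map_mul, mul_inv_cancel_left]
    rw [h5, h3, h4, one_mul]

end level

section union

variable {k : Type} [Field k] (M : Rep k GQ) (q : Nat.Primes)

/-- A smooth finite-dimensional representation is trivial on an open normal subgroup. -/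
theorem exists_field_trivial [FiniteDimensional k M] (hsm : IsSmoothRep M) :
    ∃ F : IntermediateField ℚ Qbar, FiniteDimensional ℚ F ∧ Normal ℚ F ∧
      ∀ s ∈ F.fixingSubgroup, M.ρ s = 1 := by
  classical
  let b := Module.finBasis k M
  choose E hEfd hE using fun i => hsm (b i)
  haveI : ∀ i, FiniteDimensional ℚ (E i) := hEfd
  let F0 : IntermediateField ℚ Qbar := ⨆ i, E i
  haveI hF0 : FiniteDimensional ℚ F0 := IntermediateField.finiteDimensional_iSup_of_finite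
  let F : IntermediateField ℚ Qbar := IntermediateField.normalClosure ℚ F0 Qbar
  have hfd : FiniteDimensional ℚ F := inferInstance
  haveI hnQ : Normal ℚ Qbar :=
    (Fermat.Agent.Lib.InertiaLift.qbar_isGalois').to_normal
  have hn : Normal ℚ F := normalClosure.normal ℚ F0 Qbar
  refine ⟨F, hfd, hn, fun s hs => ?_⟩
  apply b.ext
  intro i
  have h1 : E i ≤ F := (le_iSup E i).trans F0.le_normalClosure
  exact hE i s (IntermediateField.fixingSubgroup_antitone h1 hs)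

/-- The classes of cocycles of level `F`. -/
noncomputable def levelH1 (F : IntermediateField ℚ Qbar) : Submodule k (H1 (locRep M q)) :=
  (cosetCocycles (locRep M q) (levelSubgroup q F)).map (H1π (locRep M q)).hom

lemma levelH1_mono {F F' : IntermediateField ℚ Qbar} (h : F ≤ F') :
    levelH1 M q F ≤ levelH1 M q F' := by
  apply Submodule.map_mono
  intro c hc g s hs
  exact hc g s (levelSubgroup_anti q h hs)

lemma locH1_le_iSup (x : H1 (locRep M q)) (hx : x ∈ locH1 M q)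
    (F0 : IntermediateField ℚ Qbar) [FiniteDimensional ℚ F0] :
    ∃ F : IntermediateField ℚ Qbar, FiniteDimensional ℚ F ∧ Normal ℚ F ∧ F0 ≤ F ∧
      x ∈ levelH1 M q F := by
  obtain ⟨c, ⟨E, hEfd, hc⟩, rfl⟩ := (mem_continuousH1_iff _ _ x).1 hx
  haveI := hEfd
  let F1 : IntermediateField ℚ Qbar := E ⊔ F0
  haveI : FiniteDimensional ℚ F1 := IntermediateField.finiteDimensional_sup E F0
  let F : IntermediateField ℚ Qbar := IntermediateField.normalClosure ℚ F1 Qbar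
  have hfd : FiniteDimensional ℚ F := inferInstance
  haveI hnQ : Normal ℚ Qbar :=
    (Fermat.Agent.Lib.InertiaLift.qbar_isGalois').to_normal
  have hn : Normal ℚ F := normalClosure.normal ℚ F1 Qbar
  have h1 : F1 ≤ F := F1.le_normalClosure
  refine ⟨F, hfd, hn, le_sup_right.trans h1, ?_⟩
  refine Submodule.mem_map_of_mem ?_
  intro g s hs
  exact hc g s (IntermediateField.fixingSubgroup_antitone (le_sup_left.trans h1) hs)

theorem stmt_loc_TW : Stmt_loc_TW := by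
  intro p _ q hq1 k _ _ _ M _ hsm hur
  classical
  obtain ⟨F0, hF0fd, hF0n, hF0⟩ := exists_field_trivial M hsm
  have hV : ∀ F : IntermediateField ℚ Qbar, FiniteDimensional ℚ F → Normal ℚ F → F0 ≤ F →
      Module.Finite k (levelH1 M q F) ∧ Module.finrank k (levelH1 M q F)
        ≤ 2 * Module.finrank k (locRep M q).ρ.invariants := by
    intro F hfd hn h0
    haveI := hfd
    haveI := hn
    exact finrank_map_cosetCocycles_le (tameLevel_levelSubgroup M q p hq1 hur F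
      (fun s hs => hF0 s (IntermediateField.fixingSubgroup_antitone h0 hs)))
  let P : ℕ → Prop := fun n => ∃ F : IntermediateField ℚ Qbar, FiniteDimensional ℚ F ∧
    Normal ℚ F ∧ F0 ≤ F ∧ Module.finrank k (levelH1 M q F) = n
  have hP0 : P (Module.finrank k (levelH1 M q F0)) := ⟨F0, hF0fd, hF0n, le_rfl, rfl⟩
  obtain ⟨F1, hF1fd, hF1n, hF1, hF1r⟩ : P (Nat.findGreatest P _) :=
    Nat.findGreatest_spec (hV F0 hF0fd hF0n le_rfl).2 hP0
  have hmax : ∀ F : IntermediateField ℚ Qbar, FiniteDimensional ℚ F → Normal ℚ F → F0 ≤ F →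
      Module.finrank k (levelH1 M q F) ≤ Module.finrank k (levelH1 M q F1) := by
    intro F hfd hn h0
    rw [hF1r]
    exact Nat.le_findGreatest (hV F hfd hn h0).2 ⟨F, hfd, hn, h0, rfl⟩
  have hsub : ∀ F : IntermediateField ℚ Qbar, FiniteDimensional ℚ F → Normal ℚ F → F0 ≤ F →
      levelH1 M q F ≤ levelH1 M q F1 := by
    intro F hfd hn h0
    haveI := hfd
    haveI := hn
    haveI := hF1fd
    haveI := hF1n
    have hfd' : FiniteDimensional ℚ (F ⊔ F1 : IntermediateField ℚ Qbar) :=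
      IntermediateField.finiteDimensional_sup F F1
    have hn' : Normal ℚ (F ⊔ F1 : IntermediateField ℚ Qbar) :=
      @IntermediateField.normal_sup ℚ Qbar _ _ _ F F1 hn hF1n
    have h0' : F0 ≤ F ⊔ F1 := h0.trans le_sup_left
    have h1 := hmax (F ⊔ F1) hfd' hn' h0'
    haveI := (hV (F ⊔ F1) hfd' hn' h0').1
    have h2 : levelH1 M q F1 = levelH1 M q (F ⊔ F1) :=
      Submodule.eq_of_le_of_finrank_le (levelH1_mono M q le_sup_right) h1
    rw [h2]
    exact levelH1_mono M q le_sup_left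
  have hloc : locH1 M q ≤ levelH1 M q F1 := by
    intro x hx
    haveI := hF0fd
    obtain ⟨F, hfd, hn, h0, hxF⟩ := locH1_le_iSup M q x hx F0
    exact hsub F hfd hn h0 hxF
  haveI := (hV F1 hF1fd hF1n hF1).1
  exact ⟨Submodule.finiteDimensional_of_le hloc,
    (Submodule.finrank_mono hloc).trans (hV F1 hF1fd hF1n hF1).2⟩

end union

end Fermat.Agent.S56.H9

end
-- ==== END Fermat.Agent.S56.H9_LocTW

-- ==== BEGIN Fermat.Agent.S56.IND.FinalOf
section

set_option autoImplicit false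

/-!
# Package IND: `Stmt_IND` from `Stmt_ART` and `Stmt_TENS` (helper74)
-/

namespace Fermat.Agent.S56.IND

/-- **IND** from ART and TENS (everything else is proved). -/
theorem stmt_IND_of_art_tens (hART : Stmt_ART) (hTENS : Stmt_TENS) : Stmt_IND :=
  stmt_IND_of H74.stmt_BR H74.stmt_BN H74.stmt_PERM hART hTENS

end Fermat.Agent.S56.IND

end
-- ==== END Fermat.Agent.S56.IND.FinalOf
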