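-- GENERATED (merged mirror, NOTES/tools/trim/merge3_helper67.py): 7 modules of the originals, bodies verbatim.
import Fermat.Agent.Zm.S56_L02_000
import Fermat.Agent.Zm.S56_L02_001
import Fermat.Agent.Zm.S56_L02_002

-- ==== BEGIN Fermat.Agent.S55.CFT.H12_HerbrandExact
section

set_option autoImplicit false

namespace Fermat.Agent.S55.CFT.H12

open Module Polynomial Fermat.Agent.S14.H62

section Poly

/-- `∏_{1 ≤ i < p} (1 - X^i) ≡ p` modulo `Φ_p`. -/
theorem cyclotomic_dvd_prod_sub (p : ℕ) [hp : Fact p.Prime] :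
    cyclotomic p ℤ ∣ (∏ k ∈ Finset.range (p - 1), (1 - X ^ (k + 1) : ℤ[X])) - C (p : ℤ) := by
  have hpos : 0 < p := hp.out.pos
  have hζ : IsPrimitiveRoot (Complex.exp (2 * Real.pi * Complex.I / p)) p :=
    Complex.isPrimitiveRoot_exp p hpos.ne'
  rw [cyclotomic_eq_minpoly hζ hpos]
  apply minpoly.isIntegrallyClosed_dvd (hζ.isIntegral hpos)
  have hp1 : p - 1 + 1 = p := Nat.sub_add_cancel hp.out.one_le
  have hζ' : IsPrimitiveRoot (Complex.exp (2 * Real.pi * Complex.I / p)) (p - 1 + 1) := by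
    rw [hp1]; exact hζ
  have := hζ'.prod_one_sub_pow_eq_order
  simp only [map_sub, map_prod, map_one, map_pow, aeval_X, aeval_C]
  rw [this]
  have : ((p - 1 : ℕ) : ℂ) + 1 = (p : ℂ) := by
    have := congrArg (Nat.cast (R := ℂ)) hp1
    push_cast at this ⊢
    simpa using this
  rw [this]
  simp

/-- `p = (X - 1)^(p-1) U + Φ_p V` in `ℤ[X]`. -/
theorem exists_unit_poly (p : ℕ) [hp : Fact p.Prime] :
    ∃ U V : ℤ[X], C (p : ℤ) = (X - 1) ^ (p - 1) * U + cyclotomic p ℤ * V := by
  obtain ⟨V, hV⟩ := cyclotomic_dvd_prod_sub p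
  -- each factor `1 - X^(k+1) = (X - 1) * (- ∑_{j ≤ k} X^j)`
  have hfac : ∀ k : ℕ, (1 - X ^ (k + 1) : ℤ[X]) =
      (X - 1) * (- ∑ j ∈ Finset.range (k + 1), X ^ j) := by
    intro k
    have := mul_geom_sum (X : ℤ[X]) (k + 1)
    rw [mul_neg, this]; ring
  refine ⟨∏ k ∈ Finset.range (p - 1), (- ∑ j ∈ Finset.range (k + 1), (X : ℤ[X]) ^ j), -V, ?_⟩
  have h1 : (∏ k ∈ Finset.range (p - 1), (1 - X ^ (k + 1) : ℤ[X])) =
      (X - 1) ^ (p - 1) *
        ∏ k ∈ Finset.range (p - 1), (- ∑ j ∈ Finset.range (k + 1), (X : ℤ[X]) ^ j) := by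
    rw [Finset.prod_congr rfl (fun k _ => hfac k), Finset.prod_mul_distrib, Finset.prod_const,
      Finset.card_range]
  rw [← h1]
  linear_combination -hV

end Poly

section Core

variable {M : Type*} [AddCommGroup M] [Module.Free ℤ M] [Module.Finite ℤ M]

/-- **Exact core count**: if `1 + τ + ... + τ^(p-1) = 0` on a free `ℤ`-module `M` of finite
rank, then `|M / (τ - 1) M| ^ (p - 1) = p ^ rank M`. -/
theorem core_cyclotomic_exact (p : ℕ) [hp : Fact p.Prime] (τ : M →ₗ[ℤ] M)
    (hτ : ∑ i ∈ Finset.range p, τ ^ i = 0) :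
    Nat.card (M ⧸ LinearMap.range (τ - 1)) ^ (p - 1) = p ^ finrank ℤ M := by
  have hinj := sub_one_injective_of_sum_pow_eq_zero p hp.out.ne_zero τ hτ
  obtain ⟨w, hw⟩ := exists_X_sub_one_pow_eq p
  obtain ⟨U, V, hUV⟩ := exists_unit_poly p
  have hcyc : Polynomial.aeval τ (cyclotomic p ℤ) = 0 := by
    rw [cyclotomic_prime, map_sum]
    simpa using hτ
  have h1 := congrArg (Polynomial.aeval τ) hw
  simp only [map_pow, map_sub, aeval_X, map_one, map_add, map_mul, aeval_C, hcyc, zero_add] at h1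
  have h2 := congrArg (Polynomial.aeval τ) hUV
  simp only [map_pow, map_sub, aeval_X, map_one, map_add, map_mul, aeval_C, hcyc, zero_mul,
    add_zero] at h2
  -- `p = p * (w(τ) * U(τ))`
  have h3 : (algebraMap ℤ (Module.End ℤ M) (p : ℤ)) * (Polynomial.aeval τ w * Polynomial.aeval τ U)
      = algebraMap ℤ (Module.End ℤ M) (p : ℤ) := by
    rw [← mul_assoc, ← h1, ← h2]
  have h4 := congrArg LinearMap.det h3
  have hp0 : (p : ℤ) ≠ 0 := by exact_mod_cast hp.out.ne_zero
  have hdetp : LinearMap.det (algebraMap ℤ (Module.End ℤ M) (p : ℤ)) ≠ 0 := by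
    rw [Algebra.algebraMap_eq_smul_one, LinearMap.det_smul]
    exact mul_ne_zero (pow_ne_zero _ hp0) (by simp)
  rw [map_mul, map_mul] at h4
  have h5 : LinearMap.det (Polynomial.aeval τ w) * LinearMap.det (Polynomial.aeval τ U) = 1 := by
    have := mul_left_cancel₀ hdetp (h4.trans (mul_one _).symm)
    exact this
  have h6 : (LinearMap.det (Polynomial.aeval τ w)).natAbs = 1 :=
    Int.isUnit_iff_natAbs_eq.mp (IsUnit.of_mul_eq_one _ h5)
  have h7 : (τ - 1) ^ (p - 1) = (p : ℤ) • (Polynomial.aeval τ w) := by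
    rw [h1]
    simp
  have h8 := congrArg LinearMap.det h7
  rw [map_pow, LinearMap.det_smul] at h8
  rw [card_quot_range_eq_natAbs_det _ hinj, ← Int.natAbs_pow, h8, Int.natAbs_mul,
    Int.natAbs_pow, Int.natAbs_natCast, h6, mul_one]

end Core


section Main

variable {A : Type*} [AddCommGroup A] [Module.Finite ℤ A]
variable {p : ℕ} {σ : Module.End ℤ A} {A₁ : Submodule ℤ A}

theorem hIdx_nrmE_delE_subA'_exact [hpp : Fact p.Prime] (hσ : σ ^ p = 1)
    (htf : ∀ x ∈ A₁, ∀ n : ℤ, n ≠ 0 → n • x = 0 → x = 0) (hst : ∀ x ∈ A₁, σ x ∈ A₁) :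
    hIdx (nrmE p σ).toAddMonoidHom (delE σ).toAddMonoidHom (subA' p σ A₁).toAddSubgroup ^ (p - 1)
      = p ^ finrank ℤ (subC p σ A₁) := by
  rw [hIdx_submodule, map_delE_subA', ker_nrmE_inf_subA' hpp.out.ne_zero htf]
  have hD : ∀ x ∈ subC p σ A₁, delE σ x ∈ subC p σ A₁ := fun x hx => delE_mem_subC hσ hst hx
  rw [relIndex_map_eq_card (subC p σ A₁) (delE σ) hD]
  have : Module.IsTorsionFree ℤ (subC p σ A₁) := isTorsionFree_of_le inf_le_right htf
  have hS : ∀ x ∈ subC p σ A₁, σ x ∈ subC p σ A₁ := fun x hx => sigma_mem_subC hst hx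
  set τ : Module.End ℤ (subC p σ A₁) := σ.restrict hS with hτ_def
  have h1 : (delE σ).restrict hD = τ - 1 := by
    ext x
    simp [τ, delE_apply]
  have h2 : ∑ i ∈ Finset.range p, τ ^ i = 0 := by
    ext x
    rw [LinearMap.sum_apply]
    simp only [LinearMap.zero_apply, Submodule.coe_zero]
    rw [AddSubmonoidClass.coe_finsetSum]
    have : ∀ i, (((τ ^ i) x : subC p σ A₁) : A) = (σ ^ i) (x : A) := by
      intro i
      rw [hτ_def, Module.End.pow_restrict]
      rfl
    simp only [this]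
    have := (mem_subC.mp x.2).1
    rw [nrmE, LinearMap.sum_apply] at this
    exact this
  rw [h1]
  exact core_cyclotomic_exact p τ h2

/-- **Abstract Herbrand quotient (exact form).**  `A` a f.g. `ℤ`-module, `σ ^ p = 1`, `A₁` a
`σ`-stable torsion-free submodule containing `t • A`.  If `rank (ker (σ - 1)) = b` and
`rank A = b + (p - 1) * c`, then `[ker D : N A]` and `[ker N : D A]` are finite and
`p ^ c * [ker D : N A] = p ^ b * [ker N : D A]`. -/
theorem herbrand_exact [hpp : Fact p.Prime] (hσ : σ ^ p = 1)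
    (htf : ∀ x ∈ A₁, ∀ n : ℤ, n ≠ 0 → n • x = 0 → x = 0) (hst : ∀ x ∈ A₁, σ x ∈ A₁)
    {t : ℤ} (ht0 : t ≠ 0) (ht : ∀ x : A, t • x ∈ A₁)
    (b c : ℕ) (hb : finrank ℤ (LinearMap.ker (delE σ)) = b)
    (ha : finrank ℤ A = b + (p - 1) * c) :
    hIdx (delE σ).toAddMonoidHom (nrmE p σ).toAddMonoidHom ⊤ ≠ 0 ∧
    hIdx (nrmE p σ).toAddMonoidHom (delE σ).toAddMonoidHom ⊤ ≠ 0 ∧
    p ^ c * hIdx (delE σ).toAddMonoidHom (nrmE p σ).toAddMonoidHom ⊤ =
      p ^ b * hIdx (nrmE p σ).toAddMonoidHom (delE σ).toAddMonoidHom ⊤ := by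
  have hp0 : p ≠ 0 := hpp.out.ne_zero
  have hp1 : p - 1 ≠ 0 := Nat.sub_ne_zero_of_lt hpp.out.one_lt
  set f := (delE σ).toAddMonoidHom with hf
  set g := (nrmE p σ).toAddMonoidHom with hg
  set S := (subA' p σ A₁).toAddSubgroup with hS
  have hfg : ∀ x, f (g x) = 0 := fun x => delE_nrmE_apply hσ x
  have hgf : ∀ x, g (f x) = 0 := fun x => nrmE_delE_apply hσ x
  have hfS : S.map f ≤ S := by
    have := map_delE_subA'_le (A₁ := A₁) hσ hst
    rintro _ ⟨x, hx, rfl⟩
    exact this ⟨x, hx, rfl⟩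
  have hgS : S.map g ≤ S := by
    have := map_nrmE_subA'_le (p := p) (σ := σ) (A₁ := A₁)
    rintro _ ⟨x, hx, rfl⟩
    exact this ⟨x, hx, rfl⟩
  have hSi : S.index ≠ 0 := index_subA'_ne_zero hp0 hσ hst ht0 ht
  have key := hIdx_mul_eq_of_finiteIndex f g hfg hgf S hfS hgS hSi
  have h0' : hIdx f g S = p ^ b := by
    rw [hf, hg, hS, hIdx_delE_nrmE_subA' hp0 htf, finrank_subB ht0 ht, hb]
  have hk := hIdx_nrmE_delE_subA'_exact (p := p) (A₁ := A₁) hσ htf hst
  have hrC : finrank ℤ (subC p σ A₁) = (p - 1) * c := by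
    have h1 := finrank_ker_nrmE (A := A) hp0 hσ
    rw [finrank_subC ht0 ht]
    omega
  rw [hrC] at hk
  have h1' : hIdx g f S = p ^ c := by
    have h2 : hIdx g f S ^ (p - 1) = (p ^ c) ^ (p - 1) := by
      rw [hk, ← pow_mul, mul_comm c (p - 1)]
    exact Nat.pow_left_injective hp1 h2
  have h0ne : hIdx f g ⊤ ≠ 0 := by
    rw [hIdx_ne_zero_iff_of_finiteIndex f g hfg S hgS hSi, h0']
    exact pow_ne_zero _ hp0
  have h1ne : hIdx g f ⊤ ≠ 0 := by
    rw [hIdx_ne_zero_iff_of_finiteIndex g f hgf S hfS hSi, h1']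
    exact pow_ne_zero _ hp0
  refine ⟨h0ne, h1ne, ?_⟩
  calc p ^ c * hIdx f g ⊤ = hIdx f g ⊤ * hIdx g f S := by rw [h1', mul_comm]
    _ = hIdx f g S * hIdx g f ⊤ := key
    _ = p ^ b * hIdx g f ⊤ := by rw [h0']

end Main

end Fermat.Agent.S55.CFT.H12

end
-- ==== END Fermat.Agent.S55.CFT.H12_HerbrandExact

-- ==== BEGIN Fermat.Agent.S55.CFT.H12_SIDefs
section

set_option autoImplicit false

open NumberField TensorProduct

noncomputable section

namespace Fermat.Agent.S55.CFT.H12

/-- The norm of `ℚ_q`, for `q : Nat.Primes`. -/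
def qNorm (q : Nat.Primes) (c : Qp q) : ℝ :=
  haveI := fact_primes q
  ‖(c : ℚ_[(q : ℕ)])‖

variable (K : Type) [Field K] [NumberField K]

/-- The lattice `R_q = ` image of `ℤ_q ⊗ 𝓞 K` in `ℚ_q ⊗ K`, as a subring. -/
def semiLocalInt (q : Nat.Primes) : Subring (SemiLocal K q) :=
  Subring.closure {y | ∃ (c : Qp q) (x : 𝓞 K), qNorm q c ≤ 1 ∧ y = c ⊗ₜ[ℚ] (x : K)}

/-- `q ^ m · R_q`. -/
def semiLocalBall (q : Nat.Primes) (m : ℕ) : Set (SemiLocal K q) :=
  {y | ∃ r ∈ semiLocalInt K q, y = ((q : ℕ) : SemiLocal K q) ^ m * r}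

/-- **SI-a** (`n`-th powers are open in `ℚ_q ⊗ K`). -/
def Stmt_SemiLocalPow : Prop :=
  ∀ (K : Type) [Field K] [NumberField K] (q : Nat.Primes) (n : ℕ), 0 < n →
    ∃ m : ℕ, ∀ u : SemiLocal K q, u - 1 ∈ semiLocalBall K q m → ∃ w : SemiLocal K q, w ^ n = u

/-- **SI-b** (weak approximation: `𝓞 K [1 / T]` is dense in `∏_{q ∈ T} ℚ_q ⊗ K`). -/
def Stmt_WeakApprox : Prop :=
  ∀ (K : Type) [Field K] [NumberField K] (T : Finset Nat.Primes)
    (x : ∀ q : T, SemiLocal K q.1) (m : ℕ),
    ∃ (a₀ : 𝓞 K) (k : ℕ), a₀ ≠ 0 ∧ ∀ q : T,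
      (1 : Qp q.1) ⊗ₜ[ℚ] ((a₀ : K) / (prodT T : K) ^ k) - x q ∈ semiLocalBall K q.1 m

end Fermat.Agent.S55.CFT.H12

end
end
-- ==== END Fermat.Agent.S55.CFT.H12_SIDefs

-- ==== BEGIN Fermat.Agent.S55.CFT.H12_TUnits
section

set_option autoImplicit false
set_option linter.unusedSectionVars false

namespace Fermat.Agent.S55.CFT.H12

open NumberField IsDedekindDomain Module

section rank

variable (K : Type) [Field K] [NumberField K] (S : Finset (HeightOneSpectrum (𝓞 K)))

/-- The rank of the group of `S`-units is `rank K + #S`. -/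
theorem finrank_sunit :
    finrank ℤ (Additive ((S : Set (HeightOneSpectrum (𝓞 K))).unit K)) =
      Units.rank K + S.card := by
  have := finite_sunit K S
  have h1 := Fermat.Agent.S14.H62.finrank_range_add_finrank_ker_int (valAdd K S)
  rw [finrank_range_valAdd, ← range_unitInclAdd,
    LinearMap.finrank_range_of_inj (unitInclAdd_injective K S), Units.finrank_eq] at h1
  omega

end rank

section primesT

variable (L : Type) [Field L] [NumberField L] (T : Finset Nat.Primes)

theorem prodT_ne_zero : prodT T ≠ 0 := by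
  unfold prodT
  exact Finset.prod_ne_zero_iff.mpr (fun q _ => q.2.ne_zero)

theorem prodT_pos : 0 < prodT T := Nat.pos_of_ne_zero (prodT_ne_zero T)

/-- The finite set of primes of `𝓞 L` above `T`. -/
noncomputable def primesT : Finset (HeightOneSpectrum (𝓞 L)) :=
  (Ideal.finite_factors (R := 𝓞 L) (I := Ideal.span {((prodT T : ℕ) : 𝓞 L)})
    (by
      rw [Ne, Ideal.zero_eq_bot, Ideal.span_singleton_eq_bot]
      exact_mod_cast prodT_ne_zero T)).toFinset

theorem mem_primesT (v : HeightOneSpectrum (𝓞 L)) :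
    v ∈ primesT L T ↔ ((prodT T : ℕ) : 𝓞 L) ∈ v.asIdeal := by
  unfold primesT
  rw [Set.Finite.mem_toFinset, Set.mem_ofPred_eq, Ideal.dvd_span_singleton]

theorem mem_primesT_iff_exists (v : HeightOneSpectrum (𝓞 L)) :
    v ∈ primesT L T ↔ ∃ q ∈ T, (((q : ℕ) : ℤ) : 𝓞 L) ∈ v.asIdeal := by
  rw [mem_primesT]
  unfold prodT
  rw [Nat.cast_prod, v.isPrime.prod_mem_iff]
  constructor
  · rintro ⟨q, hq, h⟩
    exact ⟨q, hq, by simpa using h⟩
  · rintro ⟨q, hq, h⟩
    exact ⟨q, hq, by simpa using h⟩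

end primesT


section tunits

variable (L : Type) [Field L] [NumberField L] (T : Finset Nat.Primes)

theorem isIntegral_iff_valuation_le_one (y : L) :
    IsIntegral ℤ y ↔ ∀ v : HeightOneSpectrum (𝓞 L), v.valuation L y ≤ 1 := by
  constructor
  · intro h v
    exact v.valuation_le_one (K := L) (⟨y, h⟩ : 𝓞 L)
  · intro h
    obtain ⟨r, hr⟩ := HeightOneSpectrum.mem_integers_of_valuation_le_one L y h
    rw [← hr]
    exact RingOfIntegers.isIntegral_coe r

theorem valuation_prodT_le_one (v : HeightOneSpectrum (𝓞 L)) :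
    v.valuation L ((prodT T : ℕ) : L) ≤ 1 := by
  have := v.valuation_le_one (K := L) (((prodT T : ℕ) : 𝓞 L))
  simpa using this

theorem valuation_prodT_lt_one {v : HeightOneSpectrum (𝓞 L)} (hv : v ∈ primesT L T) :
    v.valuation L ((prodT T : ℕ) : L) < 1 := by
  have := (v.valuation_lt_one_iff_mem (K := L) (((prodT T : ℕ) : 𝓞 L))).mpr
    ((mem_primesT L T v).mp hv)
  simpa using this

theorem valuation_prodT_eq_one {v : HeightOneSpectrum (𝓞 L)} (hv : v ∉ primesT L T) :
    v.valuation L ((prodT T : ℕ) : L) = 1 := by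
  apply le_antisymm (valuation_prodT_le_one L T v)
  rw [← not_lt]
  intro hlt
  apply hv
  rw [mem_primesT]
  have := (v.valuation_lt_one_iff_mem (K := L) (((prodT T : ℕ) : 𝓞 L))).mp (by simpa using hlt)
  exact this

theorem prodT_cast_ne_zero : ((prodT T : ℕ) : L) ≠ 0 := by
  exact_mod_cast prodT_ne_zero T

/-- Archimedean property in `ℤᵐ⁰`. -/
theorem pow_mul_le_one_of_lt_one {a b : WithZero (Multiplicative ℤ)} (ha : a < 1) (hb : b ≠ 0)
    (n : ℕ) (hn : WithZero.log b ≤ n) : a ^ n * b ≤ 1 := by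
  by_cases ha0 : a = 0
  · subst ha0
    rcases Nat.eq_zero_or_pos n with h | h
    · subst h
      simp only [pow_zero, one_mul]
      have : WithZero.log b ≤ 0 := by simpa using hn
      rw [← WithZero.exp_zero (M := ℤ)]
      exact WithZero.le_exp_of_log_le this
    · rw [zero_pow h.ne', zero_mul]
      exact zero_le_one
  · have hab : a ^ n * b ≠ 0 := mul_ne_zero (pow_ne_zero _ ha0) hb
    rw [← WithZero.exp_zero (M := ℤ), ← WithZero.log_le_iff_le_exp hab,
      WithZero.log_mul (pow_ne_zero _ ha0) hb, WithZero.log_pow]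
    have h1 : WithZero.log a < 0 := by
      rw [WithZero.log_lt_iff_lt_exp ha0]
      simpa using ha
    have h2 : (n : ℤ) * WithZero.log a ≤ -n := by nlinarith
    simp only [nsmul_eq_mul]
    linarith

theorem tUnits_eq : TUnits L T = (primesT L T : Set (HeightOneSpectrum (𝓞 L))).unit L := by
  ext x
  constructor
  · rintro ⟨n, h1, h2⟩ v hv
    have hv' : v ∉ primesT L T := by simpa using hv
    rw [isIntegral_iff_valuation_le_one] at h1 h2
    have e1 := h1 v
    have e2 := h2 v
    rw [map_mul, map_pow, valuation_prodT_eq_one L T hv', one_pow, one_mul] at e1 e2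
    rw [Units.val_inv_eq_inv_val, map_inv₀] at e2
    have hx0 : v.valuation L (x : L) ≠ 0 := by
      rw [Valuation.ne_zero_iff]; exact x.ne_zero
    apply le_antisymm e1
    exact (inv_le_one₀ (zero_lt_iff.mpr hx0)).mp e2
  · intro hx
    have hx' : ∀ v : HeightOneSpectrum (𝓞 L), v ∉ primesT L T → v.valuation L (x : L) = 1 :=
      fun v hv => hx v (by simpa using hv)
    have hx0 : ∀ v : HeightOneSpectrum (𝓞 L), v.valuation L (x : L) ≠ 0 := fun v => by
      rw [Valuation.ne_zero_iff]; exact x.ne_zero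
    set n : ℕ := ∑ v ∈ primesT L T, (WithZero.log (v.valuation L (x : L))).natAbs with hn
    have hnv : ∀ v ∈ primesT L T, (WithZero.log (v.valuation L (x : L))).natAbs ≤ n := by
      intro v hv
      exact Finset.single_le_sum (f := fun v => (WithZero.log (v.valuation L (x : L))).natAbs)
        (fun _ _ => Nat.zero_le _) hv
    refine ⟨n, ?_, ?_⟩
    · rw [isIntegral_iff_valuation_le_one]
      intro v
      rw [map_mul, map_pow]
      by_cases hv : v ∈ primesT L T
      · apply pow_mul_le_one_of_lt_one (valuation_prodT_lt_one L T hv) (hx0 v)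
        have := hnv v hv
        have h2 := Int.le_natAbs (a := WithZero.log (v.valuation L (x : L)))
        omega
      · rw [hx' v hv, mul_one]
        exact pow_le_one₀ zero_le (valuation_prodT_le_one L T v)
    · rw [isIntegral_iff_valuation_le_one]
      intro v
      rw [map_mul, map_pow, Units.val_inv_eq_inv_val, map_inv₀]
      by_cases hv : v ∈ primesT L T
      · apply pow_mul_le_one_of_lt_one (valuation_prodT_lt_one L T hv) (inv_ne_zero (hx0 v))
        have := hnv v hv
        rw [WithZero.log_inv]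
        have h2 := neg_le_abs (WithZero.log (v.valuation L (x : L)))
        have h3 := Int.natCast_natAbs (WithZero.log (v.valuation L (x : L)))
        omega
      · rw [hx' v hv, inv_one, mul_one]
        exact pow_le_one₀ zero_le (valuation_prodT_le_one L T v)

end tunits


section count

variable (K L : Type) [Field K] [Field L] [NumberField K] [NumberField L] [Algebra K L]
  (T : Finset Nat.Primes)

theorem mem_primesT_iff_under (w : HeightOneSpectrum (𝓞 L)) :
    w ∈ primesT L T ↔ w.under (𝓞 K) ∈ primesT K T := by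
  rw [mem_primesT, mem_primesT]
  change _ ↔ ((prodT T : ℕ) : 𝓞 K) ∈ Ideal.comap (algebraMap (𝓞 K) (𝓞 L)) w.asIdeal
  rw [Ideal.mem_comap, map_natCast]

open Classical in
theorem card_fibre_primesT (v : HeightOneSpectrum (𝓞 K)) (hv : v ∈ primesT K T) :
    ((primesT L T).filter (fun w => w.under (𝓞 K) = v)).card =
      (v.asIdeal.primesOver (𝓞 L)).ncard := by
  have hinj : Function.Injective (HeightOneSpectrum.asIdeal (R := 𝓞 L)) :=
    fun a b h => HeightOneSpectrum.ext h
  rw [← Finset.card_image_of_injective _ hinj, ← Set.ncard_coe_finset]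
  congr 1
  ext P
  simp only [Finset.coe_image, Finset.coe_filter, Set.mem_image, Set.mem_ofPred_eq]
  constructor
  · rintro ⟨w, ⟨_, hwv⟩, rfl⟩
    refine ⟨w.isPrime, ?_⟩
    rw [Ideal.liesOver_iff, ← hwv]
    rfl
  · rintro ⟨hP, hPv⟩
    have hPne : P ≠ ⊥ := Ideal.ne_bot_of_mem_primesOver v.ne_bot ⟨hP, hPv⟩
    refine ⟨⟨P, hP, hPne⟩, ⟨?_, ?_⟩, rfl⟩
    · rw [mem_primesT_iff_under K L T]
      have : (⟨P, hP, hPne⟩ : HeightOneSpectrum (𝓞 L)).under (𝓞 K) = v := by
        apply HeightOneSpectrum.ext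
        exact ((Ideal.liesOver_iff _ _).mp hPv).symm
      rw [this]; exact hv
    · apply HeightOneSpectrum.ext
      exact ((Ideal.liesOver_iff _ _).mp hPv).symm

theorem card_primesT_eq_sum :
    (primesT L T).card = ∑ v ∈ primesT K T, (v.asIdeal.primesOver (𝓞 L)).ncard := by
  classical
  rw [Finset.card_eq_sum_card_fiberwise (f := fun w => w.under (𝓞 K)) (s := primesT L T)
    (t := primesT K T) (fun w hw => (mem_primesT_iff_under K L T w).mp hw)]
  exact Finset.sum_congr rfl (fun v hv => card_fibre_primesT K L T v hv)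

theorem ncard_primesOver_eq_one_or [IsGalois K L] {p : ℕ} (hp : p.Prime)
    (hdeg : Module.finrank K L = p) (v : HeightOneSpectrum (𝓞 K)) :
    (v.asIdeal.primesOver (𝓞 L)).ncard = 1 ∨ (v.asIdeal.primesOver (𝓞 L)).ncard = p := by
  have h := Ideal.ncard_primesOver_mul_ramificationIdxIn_mul_inertiaDegIn v.asIdeal (𝓞 L)
    (L ≃ₐ[K] L)
  rw [IsGalois.card_aut_eq_finrank, hdeg] at h
  exact (Nat.dvd_prime hp).mp ⟨_, h.symm⟩

open Classical in
theorem nonsplitCount_eq :
    nonsplitCount K L T =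
      ((primesT K T).filter (fun v => (v.asIdeal.primesOver (𝓞 L)).ncard = 1)).card := by
  have hinj : Function.Injective (HeightOneSpectrum.asIdeal (R := 𝓞 K)) :=
    fun a b h => HeightOneSpectrum.ext h
  rw [← Finset.card_image_of_injective _ hinj, ← Set.ncard_coe_finset, nonsplitCount]
  change Nat.card ↥({v : Ideal (𝓞 K) | v ∈ primesOverT K T ∧ (v.primesOver (𝓞 L)).ncard = 1}) = _
  rw [Nat.card_coe_set_eq]
  congr 1
  ext P
  simp only [Finset.coe_image, Finset.coe_filter, Set.mem_image, Set.mem_ofPred_eq, primesOverT]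
  constructor
  · rintro ⟨⟨hP, hPne, q, hq, hqP⟩, hcard⟩
    refine ⟨⟨P, hP, hPne⟩, ⟨?_, hcard⟩, rfl⟩
    rw [mem_primesT_iff_exists]
    exact ⟨q, hq, hqP⟩
  · rintro ⟨v, ⟨hv, hcard⟩, rfl⟩
    rw [mem_primesT_iff_exists] at hv
    obtain ⟨q, hq, hqP⟩ := hv
    exact ⟨⟨v.isPrime, v.ne_bot, q, hq, hqP⟩, hcard⟩

/-- The counts of primes above `T`: `#S_K = n + s` and `#S_L = n + p s`. -/
theorem exists_card_primesT [IsGalois K L] {p : ℕ} (hp : p.Prime)
    (hdeg : Module.finrank K L = p) :
    ∃ s : ℕ, (primesT K T).card = nonsplitCount K L T + s ∧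
      (primesT L T).card = nonsplitCount K L T + p * s := by
  classical
  refine ⟨((primesT K T).filter (fun v => ¬ (v.asIdeal.primesOver (𝓞 L)).ncard = 1)).card, ?_, ?_⟩
  · rw [nonsplitCount_eq]
    exact (Finset.card_filter_add_card_filter_not _).symm
  · rw [nonsplitCount_eq, card_primesT_eq_sum K L T,
      ← Finset.sum_filter_add_sum_filter_not (primesT K T)
        (fun v => (v.asIdeal.primesOver (𝓞 L)).ncard = 1)]
    congr 1
    · rw [Finset.card_eq_sum_ones]
      exact Finset.sum_congr rfl (fun v hv => (Finset.mem_filter.mp hv).2)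
    · rw [mul_comm, ← smul_eq_mul, ← Finset.sum_const]
      refine Finset.sum_congr rfl (fun v hv => ?_)
      rcases ncard_primesOver_eq_one_or K L hp hdeg v with h | h
      · exact absurd h (Finset.mem_filter.mp hv).2
      · exact h

end count

end Fermat.Agent.S55.CFT.H12

end
-- ==== END Fermat.Agent.S55.CFT.H12_TUnits

-- ==== BEGIN Fermat.Agent.S55.CFT.H13_FundAlg
section

/-!
# S55-E4 package FUND (helper13), part 3: Tate's argument, abstract form

`Γ` a finite group, `A : Rep ℤ Γ`, `S`, `S'` normal subgroups with `S ⊓ S' = ⊥`, `Γ ⧸ S'` cyclic,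
`H¹(S, A) = H¹(S', A) = 0`.  If `a ∈ A^Γ` is a norm from `S` and has order divisible by `P` modulo
the norms from `Γ ⧸ S'` on `A^{S'}`, then `H²(Γ ⧸ S, A^S)` contains a class of order divisible by
`P` (`fund_abstract`).
-/

set_option autoImplicit false
set_option linter.unusedSectionVars false
set_option linter.unusedVariables false
set_option linter.style.haveILetI false

noncomputable section

namespace Fermat.Agent.S55.CFT.H13

open CategoryTheory groupCohomology Fermat.Agent.S55.CFT

section Generic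

universe u

variable {k G : Type u} [CommRing k] [Group G] (A : Rep k G) (S S' : Subgroup G) [S'.Normal]

/-- The restriction to `S` of the inflation of a class of `G ⧸ S'`, on cocycles. -/
theorem res_inf_cocycle (c : cocycles₂ (A.quotientToInvariants S')) :
    ∃ f : cocycles₂ (Rep.res S.subtype A),
      (H24.res₂ A S).hom ((H24.inf₂ A S').hom (H2π (A.quotientToInvariants S') c)) =
        H2π (Rep.res S.subtype A) f ∧
      ∀ s t : S, f (s, t) = ((c (QuotientGroup.mk (s : G), QuotientGroup.mk (t : G)) :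
        (A.quotientToInvariants S')) : A.V) := by
  refine ⟨mapCocycles₂ S.subtype (𝟙 (Rep.res S.subtype A)) (mapCocycles₂ (QuotientGroup.mk' S')
        (Rep.ofHom <| A.ρ.quotientToInvariants_lift S') c), ?_, fun s t => rfl⟩
  have e1 : (H24.inf₂ A S').hom (H2π (A.quotientToInvariants S') c) =
      H2π A (mapCocycles₂ (QuotientGroup.mk' S')
        (Rep.ofHom <| A.ρ.quotientToInvariants_lift S') c) :=
    H2π_comp_map_apply _ _ c
  rw [e1]
  exact H2π_comp_map_apply _ _ _

end Generic

variable {Γ : Type} [Group Γ] [Finite Γ] (A : Rep.{0} ℤ Γ) (S S' : Subgroup Γ)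
  [S.Normal] [S'.Normal]

theorem fund_abstract (hcyc : IsCyclic (Γ ⧸ S')) (hint : S ⊓ S' = ⊥)
    (hS : Subsingleton (groupCohomology (resSub A S) 1))
    (hS' : Subsingleton (groupCohomology (resSub A S') 1))
    (a : A.V) (ha : ∀ g : Γ, A.ρ g a = a) (P : ℕ)
    [Fintype (Γ ⧸ S')] [Fintype S]
    (h1 : ∀ k : ℕ, (∃ b : (A.quotientToInvariants S').V,
        k • a = ((∑ x : Γ ⧸ S', (A.quotientToInvariants S').ρ x b :
          (A.quotientToInvariants S').V) : A.V)) → P ∣ k)
    (h2 : ∃ b : A.V, a = ∑ s : S, A.ρ (s : Γ) b) :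
    ∃ γ : groupCohomology (A.quotientToInvariants S) 2, ∀ k : ℕ, k • γ = 0 → P ∣ k := by
  classical
  obtain ⟨σ, hσ⟩ := IsCyclic.exists_generator (α := Γ ⧸ S')
  obtain ⟨e', he'⟩ := exists_dlog σ hσ
  obtain ⟨n', hn'⟩ : ∃ n', n' = Nat.card (Γ ⧸ S') := ⟨_, rfl⟩
  rw [← hn'] at he'
  obtain ⟨B', hB'⟩ : ∃ B' : Rep.{0} ℤ (Γ ⧸ S'), B' = A.quotientToInvariants S' := ⟨_, rfl⟩
  subst hB'
  obtain ⟨a', ha'def⟩ : ∃ a' : (A.quotientToInvariants S').V, (a' : A.V) = a :=
    ⟨⟨a, fun s => ha s⟩, rfl⟩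
  have ha' : ∀ x : Γ ⧸ S', (A.quotientToInvariants S').ρ x a' = a' := by
    intro x
    induction x using QuotientGroup.induction_on with
    | H g =>
      apply Subtype.ext
      show A.ρ g (a' : A.V) = (a' : A.V)
      rw [ha'def]
      exact ha g
  obtain ⟨c', hc'⟩ : ∃ c' : cocycles₂ (A.quotientToInvariants S'),
      (c' : (Γ ⧸ S') × (Γ ⧸ S') → (A.quotientToInvariants S').V) =
        cyc (A.quotientToInvariants S') n' e' a' :=
    ⟨⟨_, cyc_mem_cocycles₂ (A.quotientToInvariants S') he' a' ha'⟩, rfl⟩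
  obtain ⟨y, hy⟩ : ∃ y : groupCohomology (A.quotientToInvariants S') 2,
      y = H2π (A.quotientToInvariants S') c' := ⟨_, rfl⟩
  obtain ⟨x, hx⟩ : ∃ x : groupCohomology A 2, x = (H24.inf₂ A S').hom y := ⟨_, rfl⟩
  -- Step B: the restriction of `x` to `S` vanishes
  have hres : (H24.res₂ A S).hom x = 0 := by
    obtain ⟨f, hf1, hf2⟩ := res_inf_cocycle A S S' c'
    rw [hx, hy, hf1]
    refine (H2π_eq_zero_iff _).mpr ?_
    -- the cyclic structure on `S`
    obtain ⟨π, hπdef⟩ : ∃ π : S →* Γ ⧸ S', π = (QuotientGroup.mk' S').comp S.subtype :=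
      ⟨_, rfl⟩
    have hπ : Function.Injective π := by
      rw [injective_iff_map_eq_one]
      intro s hs
      rw [hπdef] at hs
      have h1 : (s : Γ) ∈ S' := (QuotientGroup.eq_one_iff (s : Γ)).mp hs
      have h2 : (s : Γ) ∈ S ⊓ S' := ⟨s.2, h1⟩
      rw [hint, Subgroup.mem_bot] at h2
      exact Subtype.ext h2
    obtain ⟨τ, e'', d, he'', hd, hrel⟩ := exists_dlog_sub he' π hπ
    have hd0 : 0 < d := by
      rcases Nat.eq_zero_or_pos d with h0 | h0
      · rw [h0, zero_mul] at hd
        exact absurd hd he'.pos.ne'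
      · exact h0
    obtain ⟨b₀, hb₀⟩ := h2
    have hnorm : a = pnorm (Rep.res S.subtype A) τ b₀ (Nat.card S) := by
      rw [pnorm_eq_sum (B := Rep.res S.subtype A) he'' b₀]
      exact hb₀
    have hcob := cyc_mem_coboundaries₂_of_norm (Rep.res S.subtype A) he'' b₀
    rw [← hnorm] at hcob
    have hfun : (f : S × S → A.V) = cyc (Rep.res S.subtype A) (Nat.card S) e'' a := by
      funext q
      obtain ⟨s, t⟩ := q
      rw [hf2 s t]
      have h4 : c' (QuotientGroup.mk (s : Γ), QuotientGroup.mk (t : Γ)) =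
          cyc (A.quotientToInvariants S') n' e' a'
            (QuotientGroup.mk (s : Γ), QuotientGroup.mk (t : Γ)) := congrFun hc' _
      rw [h4, cyc_apply, cyc_apply]
      have h5 : e' (QuotientGroup.mk (s : Γ)) = d * e'' s := by
        have := hrel s
        rw [hπdef] at this
        exact this
      have h6 : e' (QuotientGroup.mk (t : Γ)) = d * e'' t := by
        have := hrel t
        rw [hπdef] at this
        exact this
      rw [h5, h6, hd, ← Nat.mul_add, Nat.mul_div_mul_left _ _ hd0]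
      rw [Submodule.coe_smul_of_tower, ha'def]
    rw [hfun]
    exact hcob
  -- Step C: `x` is inflated from `Γ ⧸ S`
  obtain ⟨γ, hγ⟩ := (H24.res₂_eq_zero_iff A S hS x).mp hres
  refine ⟨γ, fun k hk => ?_⟩
  -- Step D: the order
  have hkx : k • x = 0 := by
    have : (H24.inf₂ A S).hom (k • γ) = k • (H24.inf₂ A S).hom γ := map_nsmul _ _ _
    rw [hk, map_zero] at this
    rw [← hγ]
    exact this.symm
  have hky : k • y = 0 := by
    apply H24.inf₂_injective A S' hS'
    have : (H24.inf₂ A S').hom (k • y) = k • (H24.inf₂ A S').hom y := map_nsmul _ _ _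
    rw [← hx, hkx] at this
    rw [map_zero]
    exact this
  have hkc : H2π (A.quotientToInvariants S') (k • c') = 0 := by
    have e : (H2π (A.quotientToInvariants S')).hom (k • c') =
        k • (H2π (A.quotientToInvariants S')).hom c' := map_nsmul _ _ _
    have e2 : k • (H2π (A.quotientToInvariants S')).hom c' = 0 := by
      have e3 : (H2π (A.quotientToInvariants S')).hom c' = y := hy.symm
      rw [e3]
      exact hky
    exact e.trans e2
  rw [H2π_eq_zero_iff] at hkc
  have hkc' : cyc (A.quotientToInvariants S') n' e' (k • a') ∈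
      coboundaries₂ (A.quotientToInvariants S') := by
    rw [cyc_nsmul, ← hc']
    exact hkc
  obtain ⟨b', hb'⟩ := norm_of_cyc_mem_coboundaries₂ (A.quotientToInvariants S') he' (k • a') hkc'
  apply h1 k
  refine ⟨b', ?_⟩
  rw [← pnorm_eq_sum he' b', ← hb', Submodule.coe_smul_of_tower, ha'def]

end Fermat.Agent.S55.CFT.H13

end
end
-- ==== END Fermat.Agent.S55.CFT.H13_FundAlg

-- ==== BEGIN Fermat.Agent.S55.CFT.H13_TateSeq
section

/-!
# S55-E4 package TN-2 (Tate's theorem, degree 3), helper13: the two short exact sequences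

`0 → C → C(γ) → I_G → 0` and `0 → I_G → Fun(G, ℤ) → ℤ → 0`, restricted to a subgroup `H`.
-/

set_option autoImplicit false
set_option linter.unusedSectionVars false
set_option linter.unusedVariables false
set_option linter.style.haveILetI false

noncomputable section

namespace Fermat.Agent.S55.CFT.H13

open CategoryTheory groupCohomology Limits Fermat.Agent.S55.CFT Fermat.Agent.S55.CFT.H12

attribute [local instance 1100] Rep.hV2

section General

variable {Γ : Type} [Group Γ]

/-- An equivariant additive map is a morphism of `Rep ℤ Γ` (whatever the `ℤ`-module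
structures are). -/
def mkHomZ {A B : Rep.{0} ℤ Γ} (f : A.V →+ B.V)
    (hf : ∀ (g : Γ) (x : A.V), f (A.ρ g x) = B.ρ g (f x)) : A ⟶ B :=
  Rep.ofHom ⟨{ toFun := f
               map_add' := f.map_add
               map_smul' := fun n x => by
                 have h := map_intCast_smul f ℤ ℤ n x
                 rw [Int.cast_id] at h
                 exact h },
    fun g => by
      apply LinearMap.ext
      intro x
      exact hf g x⟩

theorem mkHomZ_apply {A B : Rep.{0} ℤ Γ} (f : A.V →+ B.V)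
    (hf : ∀ (g : Γ) (x : A.V), f (A.ρ g x) = B.ρ g (f x)) (x : A.V) :
    (mkHomZ f hf).hom x = f x := rfl

end General

variable (G : Type) [Group G] [Fintype G]

/-- `Fun(G, ℤ)` as an object of `Rep ℤ G`. -/
abbrev funR : Rep.{0} ℤ G := Rep.of (funRep G)

/-- The augmentation ideal as an object of `Rep ℤ G`. -/
abbrev augR : Rep.{0} ℤ G := Rep.of (augRep G)

/-- The trivial representation `ℤ`. -/
abbrev trivZ (Γ : Type) [Group Γ] : Rep.{0} ℤ Γ := Rep.trivial ℤ Γ ℤ

variable {G} (C : Rep.{0} ℤ G) (γ : cocycles₂ C)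

/-- The splitting module as an object of `Rep ℤ G`. -/
abbrev splitR : Rep.{0} ℤ G := Rep.of (splitRep C γ)

variable (H : Subgroup G)

/-- The inclusion `C → C(γ)`, over `H`. -/
def splitInl : resSub C H ⟶ resSub (splitR C γ) H :=
  mkHomZ (A := resSub C H) (B := resSub (splitR C γ) H)
    (AddMonoidHom.inl C.V (augI G)) (fun g c => by
      refine Prod.ext ?_ ?_
      · show C.ρ (g : G) c = C.ρ (g : G) c + phi C γ (g : G) ((0 : augI G) : G → ℤ)
        rw [Submodule.coe_zero, map_zero, add_zero]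
      · show (0 : augI G) = augRep G (g : G) 0
        rw [map_zero])

/-- The projection `C(γ) → I_G`, over `H`. -/
def splitSnd : resSub (splitR C γ) H ⟶ resSub (augR G) H :=
  mkHomZ (A := resSub (splitR C γ) H) (B := resSub (augR G) H)
    (AddMonoidHom.snd C.V (augI G)) (fun g x => rfl)

theorem splitInl_apply (c : C.V) : (splitInl C γ H).hom c = (c, 0) := rfl

theorem splitSnd_apply (x : C.V × augI G) : (splitSnd C γ H).hom x = x.2 := rfl

/-- The sequence `0 → C → C(γ) → I_G → 0` over `H`. -/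
def seqA : ShortComplex (Rep.{0} ℤ H) where
  X₁ := resSub C H
  X₂ := resSub (splitR C γ) H
  X₃ := resSub (augR G) H
  f := splitInl C γ H
  g := splitSnd C γ H
  zero := by
    apply Rep.hom_ext
    apply Representation.IntertwiningMap.ext
    apply LinearMap.ext
    intro c
    rfl

theorem seqA_shortExact : (seqA C γ H).ShortExact where
  exact := (forget₂ (Rep.{0} ℤ H) (ModuleCat ℤ)).reflects_exact_of_faithful _ <|
    (ShortComplex.moduleCat_exact_iff _).2 fun x hx => by
      refine ⟨(x : C.V × augI G).1, ?_⟩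
      have h2 : (x : C.V × augI G).2 = 0 := hx
      exact Prod.ext rfl h2.symm
  mono_f := (Rep.mono_iff_injective _).2 fun a b h => congrArg Prod.fst h
  epi_g := (Rep.epi_iff_surjective _).2 fun x => ⟨((0 : C.V), x), rfl⟩

variable (G)

/-- The inclusion `I_G → Fun(G, ℤ)`, over `H`. -/
def augIncl : resSub (augR G) H ⟶ resSub (funR G) H :=
  mkHomZ (A := resSub (augR G) H) (B := resSub (funR G) H)
    (augI G).subtype.toAddMonoidHom (fun g x => rfl)

/-- The augmentation `Fun(G, ℤ) → ℤ`, over `H`. -/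
def augMap : resSub (funR G) H ⟶ trivZ H :=
  mkHomZ (A := resSub (funR G) H) (B := trivZ H)
    (aug G).toAddMonoidHom (fun g x => aug_funRep G (g : G) x)

theorem augIncl_apply (x : augI G) : (augIncl G H).hom x = (x : G → ℤ) := rfl

theorem augMap_apply (x : G → ℤ) : (augMap G H).hom x = aug G x := rfl

/-- The sequence `0 → I_G → Fun(G, ℤ) → ℤ → 0` over `H`. -/
def seqB : ShortComplex (Rep.{0} ℤ H) where
  X₁ := resSub (augR G) H
  X₂ := resSub (funR G) H
  X₃ := trivZ H
  f := augIncl G H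
  g := augMap G H
  zero := by
    apply Rep.hom_ext
    apply Representation.IntertwiningMap.ext
    apply LinearMap.ext
    intro x
    exact x.2

theorem aug_single (g : G) [DecidableEq G] : aug G (Pi.single g (1 : ℤ)) = 1 := by
  rw [aug_apply, Finset.sum_pi_single']
  simp

theorem seqB_shortExact : (seqB G H).ShortExact where
  exact := (forget₂ (Rep.{0} ℤ H) (ModuleCat ℤ)).reflects_exact_of_faithful _ <|
    (ShortComplex.moduleCat_exact_iff _).2 fun x hx => ⟨(⟨x, hx⟩ : augI G), rfl⟩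
  mono_f := (Rep.mono_iff_injective _).2 fun a b h => Subtype.ext h
  epi_g := (Rep.epi_iff_surjective _).2 (by
    classical
    intro (n : ℤ)
    refine ⟨(n • (Pi.single (1 : G) (1 : ℤ) : G → ℤ) : G → ℤ), ?_⟩
    show aug G (n • (Pi.single (1 : G) (1 : ℤ) : G → ℤ)) = n
    rw [map_smul, aug_single]
    exact mul_one _)

end Fermat.Agent.S55.CFT.H13

end
end
-- ==== END Fermat.Agent.S55.CFT.H13_TateSeq

-- ==== BEGIN Fermat.Agent.S55.CFT.H56_Admissible
section

/-!
# S55 / E4 (CFT lane), package GLB-0 (helper56): admissible sets of primes exist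

`stmt_AdmissibleExists : Stmt_AdmissibleExists`: for `L/K` Galois, `K` totally complex, every
finite set `T₀` of primes is contained in an admissible `T`:

* `p ∈ T`;
* `L/K` unramified outside `T`: for `σ ≠ 1` pick `x ∈ 𝓞 L` with `σ x ≠ x` and put the prime factors
  of `N(σ x - x)` into `T`;
* `Cl_T(F) = 1` for every intermediate field: put the prime factors of the norms of representatives
  of all ideal classes of all `F' : IntermediateField K L` into `T`, and transport along `F ≅ F'`.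
-/

set_option autoImplicit false
set_option linter.style.haveILetI false
set_option linter.unusedSectionVars false

open NumberField
open scoped nonZeroDivisors

noncomputable section
namespace Fermat.Agent.S55.CFT.H56

/-! ### Arithmetic of natural numbers and prime ideals -/

/-- The set of prime factors of `n`, as a finite set of `Nat.Primes`. -/
def primesOf (n : ℕ) : Finset Nat.Primes := Finset.subtype Nat.Prime n.primeFactors

lemma mem_primesOf_iff {n : ℕ} {q : Nat.Primes} :
    q ∈ primesOf n ↔ (q : ℕ) ∈ n.primeFactors :=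
  Finset.mem_subtype (p := Nat.Prime) (s := n.primeFactors) (a := q)

lemma mem_primesOf {n : ℕ} (hn : n ≠ 0) {q : ℕ} (hq : q.Prime) (hqn : q ∣ n) :
    (⟨q, hq⟩ : Nat.Primes) ∈ primesOf n :=
  mem_primesOf_iff.mpr (Nat.mem_primeFactors.mpr ⟨hq, hqn, hn⟩)

/-- A natural number `n ≠ 0` lying in a prime ideal has a prime factor lying in it. -/
lemma exists_prime_mem_of_natCast_mem {R : Type*} [CommRing R] (P : Ideal R) (hP : P.IsPrime) :
    ∀ n : ℕ, n ≠ 0 → (n : R) ∈ P → ∃ q : ℕ, q.Prime ∧ q ∣ n ∧ (q : R) ∈ P := by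
  intro n
  induction n using Nat.strong_induction_on with
  | _ n ih =>
    intro hn hmem
    by_cases h1 : n = 1
    · subst h1
      exfalso
      apply hP.ne_top
      rw [Ideal.eq_top_iff_one]
      simpa using hmem
    · obtain ⟨q, hq, hqn⟩ := Nat.exists_prime_and_dvd h1
      obtain ⟨m, rfl⟩ := hqn
      rw [Nat.cast_mul] at hmem
      rcases hP.mem_or_mem hmem with h | h
      · exact ⟨q, hq, dvd_mul_right _ _, h⟩
      · have hm0 : m ≠ 0 := by
          rintro rfl
          simp at hn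
        have hlt : m < q * m := by
          have := hq.two_le
          have := Nat.pos_of_ne_zero hm0
          nlinarith
        obtain ⟨q', hq', hq'm, hq'P⟩ := ih m hlt hm0 h
        exact ⟨q', hq', dvd_mul_of_dvd_right hq'm _, hq'P⟩

lemma prime_dvd_prodT {T : Finset Nat.Primes} {q : Nat.Primes} (hq : q ∈ T) :
    (q : ℕ) ∣ prodT T :=
  Finset.dvd_prod_of_mem (fun q : Nat.Primes => (q : ℕ)) hq

/-- A number all of whose prime factors are in `T` divides a power of `prodT T`. -/
lemma dvd_prodT_pow (T : Finset Nat.Primes) :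
    ∀ n : ℕ, n ≠ 0 → primesOf n ⊆ T → ∃ e : ℕ, n ∣ prodT T ^ e := by
  intro n
  induction n using Nat.strong_induction_on with
  | _ n ih =>
    intro hn hsub
    by_cases h1 : n = 1
    · exact ⟨0, by rw [h1]; exact one_dvd _⟩
    · obtain ⟨q, hq, hqn⟩ := Nat.exists_prime_and_dvd h1
      have hqT : (⟨q, hq⟩ : Nat.Primes) ∈ T := hsub (mem_primesOf hn hq hqn)
      obtain ⟨m, rfl⟩ := hqn
      have hm0 : m ≠ 0 := by
        rintro rfl
        simp at hn
      have hlt : m < q * m := by
        have := hq.two_le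
        have := Nat.pos_of_ne_zero hm0
        nlinarith
      have hsub' : primesOf m ⊆ T := by
        intro r hr
        apply hsub
        rw [mem_primesOf_iff, Nat.mem_primeFactors] at hr ⊢
        exact ⟨hr.1, dvd_mul_of_dvd_right hr.2.1 _, hn⟩
      obtain ⟨e, he⟩ := ih m hlt hm0 hsub'
      refine ⟨e + 1, ?_⟩
      rw [pow_succ, mul_comm (prodT T ^ e)]
      exact mul_dvd_mul (prime_dvd_prodT hqT) he

/-! ### Unramified outside `T` -/

section Ram

variable (K L : Type) [Field K] [Field L] [NumberField K] [NumberField L] [Algebra K L]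

lemma exists_smul_ne (σ : L ≃ₐ[K] L) (hσ : σ ≠ 1) : ∃ x : 𝓞 L, σ • x ≠ x := by
  by_contra hcon
  have hall : ∀ x : 𝓞 L, σ (x : L) = (x : L) := by
    intro x
    by_contra hx
    exact hcon ⟨x, fun h => hx (congrArg (fun z : 𝓞 L => (z : L)) h)⟩
  apply hσ
  ext y
  obtain ⟨a, b, -, rfl⟩ := IsFractionRing.div_surjective (𝓞 L) y
  rw [map_div₀]
  show σ (a : L) / σ (b : L) = _
  rw [hall a, hall b]
  rfl

/-- For `σ ≠ 1` the norm of some `σ x - x ≠ 0`. -/
def ramNum (σ : L ≃ₐ[K] L) : ℕ := by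
  classical
  exact if h : σ = 1 then 1 else
    Ideal.absNorm (Ideal.span {σ • (exists_smul_ne K L σ h).choose - (exists_smul_ne K L σ h).choose})

lemma ramNum_ne_zero (σ : L ≃ₐ[K] L) : ramNum K L σ ≠ 0 := by
  classical
  unfold ramNum
  split_ifs with h
  · exact one_ne_zero
  · rw [Ne, Ideal.absNorm_eq_zero_iff, Ideal.span_singleton_eq_bot, sub_eq_zero]
    exact (exists_smul_ne K L σ h).choose_spec

lemma ramNum_mem (σ : L ≃ₐ[K] L) (hσ : σ ≠ 1) (P : Ideal (𝓞 L))
    (h : σ ∈ P.inertia (L ≃ₐ[K] L)) : ((ramNum K L σ : ℕ) : 𝓞 L) ∈ P := by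
  classical
  unfold ramNum
  rw [dif_neg hσ]
  have h1 := h (exists_smul_ne K L σ hσ).choose
  have h2 : Ideal.span {σ • (exists_smul_ne K L σ hσ).choose - (exists_smul_ne K L σ hσ).choose}
      ≤ P := (Ideal.span_singleton_le_iff_mem P).mpr h1
  exact h2 (Ideal.absNorm_mem _)

open scoped Classical in
/-- The primes which may ramify. -/
def ramSet : Finset Nat.Primes :=
  (Finset.univ : Finset (L ≃ₐ[K] L)).biUnion fun σ => primesOf (ramNum K L σ)

open scoped Classical in
lemma mem_ramSet {q : Nat.Primes} (σ : L ≃ₐ[K] L) (h : q ∈ primesOf (ramNum K L σ)) :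
    q ∈ ramSet K L :=
  Finset.mem_biUnion.mpr ⟨σ, Finset.mem_univ _, h⟩

theorem unramifiedOutsideT_of_ramSet_subset (T : Finset Nat.Primes) (hT : ramSet K L ⊆ T) :
    UnramifiedOutsideT K L T := by
  classical
  intro P hP _ hPT
  rw [Subgroup.eq_bot_iff_forall]
  intro σ hσ
  by_contra hne
  have hmem := ramNum_mem K L σ hne P hσ
  obtain ⟨q, hq, hqn, hqP⟩ := exists_prime_mem_of_natCast_mem P hP _ (ramNum_ne_zero K L σ) hmem
  have hqT : (⟨q, hq⟩ : Nat.Primes) ∈ T :=
    hT (mem_ramSet K L σ (mem_primesOf (ramNum_ne_zero K L σ) hq hqn))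
  apply hPT ⟨q, hq⟩ hqT
  simpa using hqP

end Ram

/-! ### Trivial `T`-class group -/

section Cl

variable (F : Type) [Field F] [NumberField F]

/-- A representative of an ideal class. -/
def classRep (c : ClassGroup (𝓞 F)) : (Ideal (𝓞 F))⁰ :=
  (ClassGroup.mk0_surjective c).choose

lemma mk0_classRep (c : ClassGroup (𝓞 F)) : ClassGroup.mk0 (classRep F c) = c :=
  (ClassGroup.mk0_surjective c).choose_spec

lemma absNorm_classRep_ne_zero (c : ClassGroup (𝓞 F)) :
    Ideal.absNorm (classRep F c : Ideal (𝓞 F)) ≠ 0 := by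
  rw [Ne, Ideal.absNorm_eq_zero_iff]
  exact nonZeroDivisors.coe_ne_zero _

open scoped Classical in
/-- The primes dividing the norms of the chosen representatives of the ideal classes. -/
def clSet : Finset Nat.Primes :=
  (Finset.univ : Finset (ClassGroup (𝓞 F))).biUnion fun c =>
    primesOf (Ideal.absNorm (classRep F c : Ideal (𝓞 F)))

open scoped Classical in
lemma mem_clSet {q : Nat.Primes} (c : ClassGroup (𝓞 F))
    (h : q ∈ primesOf (Ideal.absNorm (classRep F c : Ideal (𝓞 F)))) : q ∈ clSet F :=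
  Finset.mem_biUnion.mpr ⟨c, Finset.mem_univ _, h⟩

theorem clTrivial_of_clSet_subset (T : Finset Nat.Primes) (hT : clSet F ⊆ T) :
    ClTrivial F T := by
  classical
  intro I hI
  have hI0 : I ∈ (Ideal (𝓞 F))⁰ := mem_nonZeroDivisors_of_ne_zero hI
  set c : ClassGroup (𝓞 F) := ClassGroup.mk0 ⟨I, hI0⟩ with hc
  have hrep : ClassGroup.mk0 ⟨I, hI0⟩ = ClassGroup.mk0 (classRep F c) := (mk0_classRep F c).symm
  obtain ⟨a, b, ha, hb, hab⟩ := ClassGroup.mk0_eq_mk0_iff.mp hrep
  have hsub : primesOf (Ideal.absNorm (classRep F c : Ideal (𝓞 F))) ⊆ T := by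
    intro q hq
    exact hT (mem_clSet F c hq)
  obtain ⟨e, he⟩ := dvd_prodT_pow T _ (absNorm_classRep_ne_zero F c) hsub
  refine ⟨a, b, (classRep F c : Ideal (𝓞 F)), e, ha, hb, ?_, hab⟩
  rw [Ideal.span_singleton_pow, Ideal.dvd_span_singleton]
  obtain ⟨m, hm⟩ := he
  have h1 : (((prodT T : ℕ) : ℤ) : 𝓞 F) ^ e
      = ((Ideal.absNorm (classRep F c : Ideal (𝓞 F)) : ℕ) : 𝓞 F) * ((m : ℕ) : 𝓞 F) := by
    have := congrArg (fun z : ℕ => (z : 𝓞 F)) hm
    simpa using this
  rw [h1]
  exact Ideal.mul_mem_right _ _ (Ideal.absNorm_mem _)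

end Cl


/-! ### Transport along an isomorphism of fields -/

section Transport

variable {F F' : Type} [Field F] [NumberField F] [Field F'] [NumberField F']

theorem clTrivial_of_ringEquiv (e : F ≃+* F') (T : Finset Nat.Primes) (h : ClTrivial F' T) :
    ClTrivial F T := by
  classical
  set e' : 𝓞 F ≃+* 𝓞 F' := RingOfIntegers.mapRingEquiv e with he'
  intro I hI
  have hI' : I.map (e' : 𝓞 F →+* 𝓞 F') ≠ ⊥ := fun h0 =>
    hI ((Ideal.map_eq_bot_iff_of_injective (f := (e' : 𝓞 F →+* 𝓞 F')) e'.injective).mp h0)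
  obtain ⟨a', b', J', n, ha', hb', hJ', hrel⟩ := h _ hI'
  have hback : ∀ X : Ideal (𝓞 F), (X.map (e' : 𝓞 F →+* 𝓞 F')).map (e'.symm : 𝓞 F' →+* 𝓞 F) = X :=
    fun X => Ideal.map_of_equiv e'
  have hspan : ∀ x : 𝓞 F', (Ideal.span {x}).map (e'.symm : 𝓞 F' →+* 𝓞 F)
      = Ideal.span {e'.symm x} := by
    intro x
    rw [Ideal.map_span, Set.image_singleton]
    rfl
  refine ⟨e'.symm a', e'.symm b', J'.map (e'.symm : 𝓞 F' →+* 𝓞 F), n, ?_, ?_, ?_, ?_⟩
  · exact fun h0 => ha' ((map_eq_zero_iff _ e'.symm.injective).mp h0)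
  · exact fun h0 => hb' ((map_eq_zero_iff _ e'.symm.injective).mp h0)
  · obtain ⟨Y', hY'⟩ := hJ'
    refine ⟨Y'.map (e'.symm : 𝓞 F' →+* 𝓞 F), ?_⟩
    rw [← Ideal.map_mul, ← hY', Ideal.map_pow, hspan]
    congr 2
    simp
  · have := congrArg (Ideal.map (e'.symm : 𝓞 F' →+* 𝓞 F)) hrel
    rw [Ideal.map_mul, Ideal.map_mul, hspan, hspan, hback] at this
    exact this

end Transport

/-! ### The theorem -/

open scoped Classical in
/-- **GLB-0**: admissible sets of primes exist. -/
theorem stmt_AdmissibleExists : Stmt_AdmissibleExists := by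
  intro p K L _ _ _ _ _ T₀ hp hgal hcplx
  haveI : Finite (IntermediateField K L) :=
    Field.finite_intermediateField_of_exists_primitive_element K L
      (Field.exists_primitive_element K L)
  haveI : Fintype (IntermediateField K L) := Fintype.ofFinite _
  set Tcl : Finset Nat.Primes :=
    (Finset.univ : Finset (IntermediateField K L)).biUnion fun F' => clSet ↥F' with hTcl
  set T : Finset Nat.Primes := T₀ ∪ {⟨p, hp⟩} ∪ ramSet K L ∪ Tcl with hT
  have h0 : T₀ ⊆ T := fun q hq =>
    Finset.mem_union_left _ (Finset.mem_union_left _ (Finset.mem_union_left _ hq))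
  have hpT : (⟨p, hp⟩ : Nat.Primes) ∈ T :=
    Finset.mem_union_left _ (Finset.mem_union_left _
      (Finset.mem_union_right _ (Finset.mem_singleton_self _)))
  have hram : ramSet K L ⊆ T := fun q hq =>
    Finset.mem_union_left _ (Finset.mem_union_right _ hq)
  have hcl : ∀ F' : IntermediateField K L, clSet ↥F' ⊆ T := fun F' q hq =>
    Finset.mem_union_right _ (Finset.mem_biUnion.mpr ⟨F', Finset.mem_univ _, hq⟩)
  refine ⟨T, h0, ⟨hgal, hcplx, ⟨⟨p, hp⟩, hpT, rfl⟩,
    unramifiedOutsideT_of_ramSet_subset K L T hram, ?_⟩⟩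
  intro F _ _ _ _ _
  let φ : F →ₐ[K] L := IsScalarTower.toAlgHom K F L
  let e : F ≃ₐ[K] φ.fieldRange := AlgEquiv.ofInjectiveField φ
  exact clTrivial_of_ringEquiv e.toRingEquiv T
    (clTrivial_of_clSet_subset ↥φ.fieldRange T (hcl φ.fieldRange))

end Fermat.Agent.S55.CFT.H56

end
end
-- ==== END Fermat.Agent.S55.CFT.H56_Admissible

-- ==== BEGIN Fermat.Agent.S55.CFT.H58_Cor
section

/-!
# CFT package COR (helper58), part 2: corestriction

For a subgroup `S` of finite index of `G` and a `G`-module `A` there are maps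
`cor : Hⁿ(S, A) ⟶ Hⁿ(G, A)` with `res ≫ cor = [G : S]` (`exists_cor`), by dimension shifting
along `0 → A → Fun(G, A) → Q → 0` from the trace `A^S → A^G` in degree `0`.
-/

set_option autoImplicit false
set_option linter.unusedSectionVars false

noncomputable section

namespace Fermat.Agent.S55.CFT.H58

open CategoryTheory CategoryTheory.Limits groupCohomology Rep

variable {k : Type} [CommRing k] {G : Type} [Group G]

/-! ## Degree `0`: the trace -/

section Degree0

variable (A : Rep.{0} k G) (S : Subgroup G)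

/-- For `a ∈ A^S`, the function `g S ↦ g a`. -/
def orbitFun (a : A.V) : G ⧸ S → A.V := fun x => A.ρ x.out a

lemma orbitFun_mk (a : A.V) (ha : ∀ s : S, A.ρ (s : G) a = a) (g : G) :
    orbitFun A S a (g : G ⧸ S) = A.ρ g a := by
  obtain ⟨s, hs⟩ := QuotientGroup.mk_out_eq_mul S g
  show A.ρ ((g : G ⧸ S)).out a = A.ρ g a
  rw [hs, map_mul, Module.End.mul_apply, ha s]

lemma smul_orbitFun (a : A.V) (ha : ∀ s : S, A.ρ (s : G) a = a) (g : G) (x : G ⧸ S) :
    A.ρ g (orbitFun A S a x) = orbitFun A S a (g • x) := by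
  induction x using QuotientGroup.induction_on with
  | H g' =>
    rw [orbitFun_mk A S a ha]
    show _ = orbitFun A S a ((g * g' : G) : G ⧸ S)
    rw [orbitFun_mk A S a ha, map_mul]
    rfl

variable [Fintype (G ⧸ S)]

/-- The trace `A^S → A^G`, `a ↦ ∑_{g S} g a`. -/
def traceInv : (res S.subtype A).ρ.invariants →ₗ[k] A.ρ.invariants where
  toFun a := ⟨∑ x : G ⧸ S, orbitFun A S a.1 x, fun g => by
    rw [map_sum]
    simp_rw [smul_orbitFun A S a.1 (fun s => a.2 s) g]
    exact Equiv.sum_comp (MulAction.toPerm g) (orbitFun A S a.1)⟩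
  map_add' a b := by
    apply Subtype.ext
    show ∑ x : G ⧸ S, A.ρ x.out (a.1 + b.1) = ∑ x : G ⧸ S, A.ρ x.out a.1 + ∑ x : G ⧸ S, A.ρ x.out b.1
    simp [Finset.sum_add_distrib]
  map_smul' r a := by
    apply Subtype.ext
    show ∑ x : G ⧸ S, A.ρ x.out (r • a.1) = r • ∑ x : G ⧸ S, A.ρ x.out a.1
    simp [Finset.smul_sum]

lemma traceInv_coe (a : (res S.subtype A).ρ.invariants) :
    ((traceInv A S a : A.ρ.invariants) : A.V) = ∑ x : G ⧸ S, A.ρ x.out a.1 := rfl

/-- Corestriction in degree `0`. -/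
def cor0 : groupCohomology (res S.subtype A) 0 ⟶ groupCohomology A 0 :=
  (H0Iso (res S.subtype A)).hom ≫ ModuleCat.ofHom (traceInv A S) ≫ (H0Iso A).inv

/-- Restriction in degree `0` is the inclusion `A^G ⊆ A^S`. -/
lemma H0Iso_resH_coe (x : groupCohomology A 0) :
    (((H0Iso (res S.subtype A)).hom.hom ((resH A S 0).hom x) :
      (res S.subtype A).ρ.invariants) : A.V) = (((H0Iso A).hom.hom x : A.ρ.invariants) : A.V) := by
  have h := map_H0Iso_hom_f (A := A) (B := res S.subtype A) S.subtype (𝟙 (res S.subtype A))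
  have h2 := congrArg (fun f => f.hom x) h
  exact h2

lemma resH_cor0 : resH A S 0 ≫ cor0 A S = Fintype.card (G ⧸ S) • 𝟙 (groupCohomology A 0) := by
  apply ModuleCat.hom_ext
  apply LinearMap.ext
  intro x
  show (H0Iso A).inv.hom (traceInv A S ((H0Iso (res S.subtype A)).hom.hom ((resH A S 0).hom x))) =
    Fintype.card (G ⧸ S) • x
  have h1 : traceInv A S ((H0Iso (res S.subtype A)).hom.hom ((resH A S 0).hom x)) =
      Fintype.card (G ⧸ S) • (H0Iso A).hom.hom x := by
    apply Subtype.ext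
    rw [traceInv_coe, H0Iso_resH_coe]
    have h3 : ∀ y : G ⧸ S, A.ρ y.out (((H0Iso A).hom.hom x : A.ρ.invariants) : A.V) =
        (((H0Iso A).hom.hom x : A.ρ.invariants) : A.V) :=
      fun y => ((H0Iso A).hom.hom x).2 y.out
    rw [Finset.sum_congr rfl (fun y _ => h3 y), Finset.sum_const, Finset.card_univ]
    rfl
  rw [h1, map_nsmul]
  have h4 : (H0Iso A).inv.hom ((H0Iso A).hom.hom x) = x := by
    have := congrArg (fun φ => φ.hom x) (H0Iso A).hom_inv_id
    simp
  rw [h4]

/-- Naturality of the corestriction in degree `0`. -/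
lemma cor0_naturality {A A' : Rep.{0} k G} (u : A ⟶ A') (S : Subgroup G) [Fintype (G ⧸ S)] :
    groupCohomology.map (MonoidHom.id S) ((resFunctor S.subtype).map u) 0 ≫ cor0 A' S =
      cor0 A S ≫ groupCohomology.map (MonoidHom.id G) u 0 := by
  have h1 := map_id_comp_H0Iso_hom ((resFunctor S.subtype).map u)
  have h2 := map_id_comp_H0Iso_hom u
  have h3 : (H0Iso A).inv ≫ groupCohomology.map (MonoidHom.id G) u 0 =
      (invariantsFunctor k G).map u ≫ (H0Iso A').inv := by
    rw [Iso.inv_comp_eq, ← Category.assoc, ← h2, Category.assoc, Iso.hom_inv_id, Category.comp_id]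
  have h4 : (invariantsFunctor k S).map ((resFunctor S.subtype).map u) ≫
      ModuleCat.ofHom (traceInv A' S) =
      ModuleCat.ofHom (traceInv A S) ≫ (invariantsFunctor k G).map u := by
    apply ModuleCat.hom_ext
    apply LinearMap.ext
    intro a
    apply Subtype.ext
    show ∑ x : G ⧸ S, A'.ρ x.out (u.hom a.1) = u.hom (∑ x : G ⧸ S, A.ρ x.out a.1)
    rw [map_sum]
    exact Finset.sum_congr rfl (fun x _ => (hom_comm_apply u x.out a.1).symm)
  unfold cor0
  rw [← Category.assoc, h1, Category.assoc, ← Category.assoc _ _ (H0Iso A').inv, h4,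
    Category.assoc, Category.assoc, Category.assoc, h3]

end Degree0

/-! ## Dimension shifting -/

section Shift

variable (A : Rep.{0} k G) (S : Subgroup G)

/-- The short exact sequence `0 → A → Fun(G, A) → Q → 0`. -/
abbrev shiftSeq : ShortComplex (Rep.{0} k G) := ShortComplex.cokernelSequence (iotaF A G)

lemma shiftSeq_shortExact : (shiftSeq A).ShortExact := by
  have hmono : Mono (iotaF A G) :=
    (Rep.mono_iff_injective _).2 (fun a b h => congrFun h 1)
  exact
    { exact := ShortComplex.cokernelSequence_exact _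
      mono_f := hmono
      epi_g := inferInstance }

/-- The quotient `Q = Fun(G, A) / A`. -/
abbrev shiftObj : Rep.{0} k G := (shiftSeq A).X₃

lemma shiftSeq_res_shortExact : ((shiftSeq A).map (resFunctor S.subtype)).ShortExact :=
  (Rep.shortExact_res S.subtype).2 (shiftSeq_shortExact A)

/-- The projection `Fun(G, A) → Q`. -/
abbrev shiftProj : FunObj A G ⟶ shiftObj A := (shiftSeq A).g

/-- The connecting map `Hⁿ(G, Q) ⟶ Hⁿ⁺¹(G, A)`. -/
def shiftDelta (n : ℕ) : groupCohomology (shiftObj A) n ⟶ groupCohomology A (n + 1) :=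
  δ (shiftSeq_shortExact A) n (n + 1) rfl

/-- The connecting map `Hⁿ(S, Q) ⟶ Hⁿ⁺¹(S, A)`. -/
def shiftDeltaRes (n : ℕ) :
    groupCohomology (res S.subtype (shiftObj A)) n ⟶ groupCohomology (res S.subtype A) (n + 1) :=
  δ (shiftSeq_res_shortExact A S) n (n + 1) rfl

lemma epi_shiftDelta (n : ℕ) : Epi (shiftDelta A n) :=
  epi_δ_of_isZero (shiftSeq_shortExact A) n (isZero_funObj_self A n)

lemma shiftDelta_resH (n : ℕ) :
    shiftDelta A n ≫ resH A S (n + 1) = resH (shiftObj A) S n ≫ shiftDeltaRes A S n :=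
  delta_resH (shiftSeq_shortExact A) S (shiftSeq_res_shortExact A S) n (n + 1) rfl

lemma map_shiftProj_shiftDelta (n : ℕ) :
    groupCohomology.map (A := FunObj A G) (B := shiftObj A) (MonoidHom.id G) (shiftProj A) n ≫
      shiftDelta A n = 0 :=
  (mapShortComplex₃ (shiftSeq_shortExact A) (i := n) (j := n + 1) rfl).zero

/-- The restriction of the projection, on cohomology. -/
def shiftProjRes (n : ℕ) :
    groupCohomology (res S.subtype (FunObj A G)) n ⟶
      groupCohomology (res S.subtype (shiftObj A)) n :=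
  groupCohomology.map (A := res S.subtype (FunObj A G)) (B := res S.subtype (shiftObj A))
    (MonoidHom.id S) ((resFunctor S.subtype).map (shiftProj A)) n

lemma exists_desc_shiftDeltaRes (n : ℕ) {Z : ModuleCat.{0} k}
    (φ : groupCohomology (res S.subtype (shiftObj A)) n ⟶ Z)
    (hφ : shiftProjRes A S n ≫ φ = 0) :
    ∃ ψ : groupCohomology (res S.subtype A) (n + 1) ⟶ Z, shiftDeltaRes A S n ≫ ψ = φ := by
  have hepiS : Epi (δ (shiftSeq_res_shortExact A S) n (n + 1) rfl) :=
    epi_δ_of_isZero (shiftSeq_res_shortExact A S) n (isZero_res_funObj_self A S n)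
  have hex := mapShortComplex₃_exact (shiftSeq_res_shortExact A S) (i := n) (j := n + 1) rfl
  have hepi' : Epi (mapShortComplex₃ (shiftSeq_res_shortExact A S) (i := n) (j := n + 1) rfl).g :=
    hepiS
  exact hex.desc' φ hφ

/-- The step of the dimension shifting. -/
lemma exists_cor_succ (m : ℕ) (n : ℕ)
    (corQ : groupCohomology (res S.subtype (shiftObj A)) n ⟶ groupCohomology (shiftObj A) n)
    (hres : resH (shiftObj A) S n ≫ corQ = m • 𝟙 _)
    (hzero : shiftProjRes A S n ≫ corQ ≫ shiftDelta A n = 0) :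
    ∃ cor : groupCohomology (res S.subtype A) (n + 1) ⟶ groupCohomology A (n + 1),
      resH A S (n + 1) ≫ cor = m • 𝟙 _ := by
  have hepiG := epi_shiftDelta A n
  obtain ⟨cor, hcor⟩ := exists_desc_shiftDeltaRes A S n (corQ ≫ shiftDelta A n) hzero
  refine ⟨cor, ?_⟩
  rw [← cancel_epi (shiftDelta A n), ← Category.assoc, shiftDelta_resH, Category.assoc, hcor,
    ← Category.assoc, hres]
  rw [Preadditive.nsmul_comp, Preadditive.comp_nsmul, Category.id_comp, Category.comp_id]

end Shift

/-! ## Corestriction -/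

/-- **Corestriction**: for a subgroup `S` of finite index there are maps
`cor : Hⁿ(S, A) ⟶ Hⁿ(G, A)` with `res ≫ cor = [G : S]`. -/
theorem exists_cor (S : Subgroup G) [Fintype (G ⧸ S)] (n : ℕ) :
    ∀ A : Rep.{0} k G,
      ∃ cor : groupCohomology (res S.subtype A) n ⟶ groupCohomology A n,
        resH A S n ≫ cor = Fintype.card (G ⧸ S) • 𝟙 _ := by
  rcases n with _ | n
  · intro A
    exact ⟨cor0 A S, resH_cor0 A S⟩
  · induction n with
    | zero =>
      intro A
      refine exists_cor_succ A S _ 0 (cor0 (shiftObj A) S) (resH_cor0 (shiftObj A) S) ?_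
      have h1 : shiftProjRes A S 0 ≫ cor0 (shiftObj A) S =
          cor0 (FunObj A G) S ≫ groupCohomology.map (A := FunObj A G) (B := shiftObj A)
            (MonoidHom.id G) (shiftProj A) 0 :=
        cor0_naturality (shiftProj A) S
      rw [← Category.assoc, h1, Category.assoc, map_shiftProj_shiftDelta, comp_zero]
    | succ n ih =>
      intro A
      obtain ⟨corQ, hQ⟩ := ih (shiftObj A)
      refine exists_cor_succ A S _ (n + 1) corQ hQ ?_
      exact (isZero_res_funObj_self A S n).eq_of_src _ _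

end Fermat.Agent.S55.CFT.H58

end
end
-- ==== END Fermat.Agent.S55.CFT.H58_Cor
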