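-- GENERATED (merged mirror, NOTES/tools/trim/merge3_helper67.py): 5 modules of the originals, bodies verbatim.
import Mathlib
import Fermat.Agent.Zm.S56_L02_001
import Fermat.Agent.Zm.S56_L01_001
import Fermat.Agent.Zm.S56_L02_000
import Fermat.Agent.Zm.S56_L02_002

-- ==== BEGIN Fermat.Agent.S53.GenBound
section

set_option autoImplicit false
set_option linter.unusedSectionVars false
set_option linter.style.haveILetI false

/-!
# S53: a finite local `𝒪`-algebra with few tangent vectors and bounded level has bounded size.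
-/

namespace Fermat.Agent.S53

open IsLocalRing

namespace H55

section Aug

variable {𝒪 : Type} [CommRing 𝒪] [IsLocalRing 𝒪]
variable {D : Type} [CommRing D] [IsLocalRing D] [Algebra 𝒪 D]

/-- Every element of a test algebra is congruent to a scalar modulo the maximal ideal. -/
theorem exists_scalar_sub_mem (hres : Function.Surjective (residue D ∘ algebraMap 𝒪 D)) (d : D) :
    ∃ c : 𝒪, d - algebraMap 𝒪 D c ∈ maximalIdeal D := by
  obtain ⟨c, hc⟩ := hres (residue D d)
  refine ⟨c, ?_⟩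
  rw [← residue_eq_zero_iff, map_sub, sub_eq_zero]
  exact hc.symm

variable [IsLocalHom (algebraMap 𝒪 D)]

theorem residueFieldMap_bijective (hres : Function.Surjective (residue D ∘ algebraMap 𝒪 D)) :
    Function.Bijective (ResidueField.map (algebraMap 𝒪 D)) := by
  refine ⟨(ResidueField.map (algebraMap 𝒪 D)).injective, fun y => ?_⟩
  obtain ⟨d, rfl⟩ := residue_surjective y
  obtain ⟨c, hc⟩ := hres (residue D d)
  exact ⟨residue 𝒪 c, by rw [ResidueField.map_residue]; exact hc⟩

/-- The augmentation `D → k` of a test algebra. -/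
noncomputable def aug (hres : Function.Surjective (residue D ∘ algebraMap 𝒪 D)) :
    D →+* ResidueField 𝒪 :=
  ((RingEquiv.ofBijective (ResidueField.map (algebraMap 𝒪 D))
    (residueFieldMap_bijective hres)).symm : ResidueField D →+* ResidueField 𝒪).comp (residue D)

theorem aug_algebraMap (hres : Function.Surjective (residue D ∘ algebraMap 𝒪 D)) (c : 𝒪) :
    aug hres (algebraMap 𝒪 D c) = residue 𝒪 c := by
  simp only [aug, RingHom.comp_apply, RingHom.coe_coe]
  rw [RingEquiv.symm_apply_eq]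
  simp [ResidueField.map_residue]

theorem aug_eq_zero_iff (hres : Function.Surjective (residue D ∘ algebraMap 𝒪 D)) (d : D) :
    aug hres d = 0 ↔ d ∈ maximalIdeal D := by
  simp only [aug, RingHom.comp_apply, RingHom.coe_coe]
  rw [map_eq_zero_iff _ (RingEquiv.injective _), residue_eq_zero_iff]

theorem aug_eq_residue_of_sub_mem (hres : Function.Surjective (residue D ∘ algebraMap 𝒪 D))
    {d : D} {c : 𝒪} (h : d - algebraMap 𝒪 D c ∈ maximalIdeal D) :
    aug hres d = residue 𝒪 c := by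
  have := (aug_eq_zero_iff hres _).2 h
  rw [map_sub, sub_eq_zero, aug_algebraMap] at this
  exact this

end Aug

section Cot

variable (𝒪 : Type) [CommRing 𝒪] [IsLocalRing 𝒪]
variable (D : Type) [CommRing D] [IsLocalRing D] [Algebra 𝒪 D]

/-- `W = m_D ^ 2 + 𝒪 · 1`, as an `𝒪`-submodule of `D`. -/
def relSub : Submodule 𝒪 D :=
  (maximalIdeal D ^ 2).restrictScalars 𝒪 ⊔ LinearMap.range (Algebra.linearMap 𝒪 D)

/-- The relative cotangent space `D / (m_D ^ 2 + 𝒪 · 1) ≅ m_D / (m_D ^ 2 + m_𝒪 D)`. -/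
abbrev RelCot : Type := D ⧸ relSub 𝒪 D

variable {𝒪 D}

theorem sq_le_relSub {d : D} (h : d ∈ maximalIdeal D ^ 2) : d ∈ relSub 𝒪 D :=
  Submodule.mem_sup_left (S := (maximalIdeal D ^ 2).restrictScalars 𝒪) h

theorem algebraMap_mem_relSub (c : 𝒪) : algebraMap 𝒪 D c ∈ relSub 𝒪 D :=
  Submodule.mem_sup_right ⟨c, rfl⟩

theorem mem_relSub_iff {d : D} :
    d ∈ relSub 𝒪 D ↔ ∃ s ∈ maximalIdeal D ^ 2, ∃ c : 𝒪, s + algebraMap 𝒪 D c = d := by
  constructor
  · intro h
    obtain ⟨s, hs, b, ⟨c, rfl⟩, rfl⟩ := Submodule.mem_sup.1 h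
    exact ⟨s, hs, c, rfl⟩
  · rintro ⟨s, hs, c, rfl⟩
    exact add_mem (sq_le_relSub hs) (algebraMap_mem_relSub c)

theorem mul_sub_mem_relSub {d d' : D} {c c' : 𝒪} (h : d - algebraMap 𝒪 D c ∈ maximalIdeal D)
    (h' : d' - algebraMap 𝒪 D c' ∈ maximalIdeal D) :
    d * d' - (c • d' + c' • d) ∈ relSub 𝒪 D := by
  have h1 : (d - algebraMap 𝒪 D c) * (d' - algebraMap 𝒪 D c') ∈ maximalIdeal D ^ 2 := by
    rw [pow_two]; exact Ideal.mul_mem_mul h h'
  have h2 : d * d' - (c • d' + c' • d) =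
      (d - algebraMap 𝒪 D c) * (d' - algebraMap 𝒪 D c') - algebraMap 𝒪 D (c * c') := by
    rw [Algebra.smul_def, Algebra.smul_def, map_mul]; ring
  rw [h2]
  exact sub_mem (sq_le_relSub h1) (algebraMap_mem_relSub _)

variable [IsLocalHom (algebraMap 𝒪 D)]

theorem algebraMap_mem_maximalIdeal {c : 𝒪} (hc : c ∈ maximalIdeal 𝒪) :
    algebraMap 𝒪 D c ∈ maximalIdeal D := by
  rw [mem_maximalIdeal, mem_nonunits_iff] at hc ⊢
  exact fun h => hc (isUnit_of_map_unit (algebraMap 𝒪 D) c h)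

theorem relCot_isTorsionBySet (hres : Function.Surjective (residue D ∘ algebraMap 𝒪 D)) :
    Module.IsTorsionBySet 𝒪 (RelCot 𝒪 D) (maximalIdeal 𝒪 : Set 𝒪) := by
  intro v a
  obtain ⟨d, rfl⟩ := Submodule.Quotient.mk_surjective _ v
  rw [← Submodule.Quotient.mk_smul, Submodule.Quotient.mk_eq_zero]
  obtain ⟨c, hc⟩ := exists_scalar_sub_mem hres d
  have h1 : algebraMap 𝒪 D (a : 𝒪) * (d - algebraMap 𝒪 D c) ∈ maximalIdeal D ^ 2 := by
    rw [pow_two]; exact Ideal.mul_mem_mul (algebraMap_mem_maximalIdeal a.2) hc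
  have h2 : (a : 𝒪) • d =
      algebraMap 𝒪 D (a : 𝒪) * (d - algebraMap 𝒪 D c) + algebraMap 𝒪 D ((a : 𝒪) * c) := by
    rw [Algebra.smul_def, map_mul]; ring
  rw [h2]
  exact add_mem (sq_le_relSub h1) (algebraMap_mem_relSub _)

/-- The `k`-vector space structure on the relative cotangent space. -/
@[reducible] noncomputable def relCotModule
    (hres : Function.Surjective (residue D ∘ algebraMap 𝒪 D)) :
    Module (ResidueField 𝒪) (RelCot 𝒪 D) :=
  (relCot_isTorsionBySet hres).module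

theorem residue_smul_mk (hres : Function.Surjective (residue D ∘ algebraMap 𝒪 D)) (c : 𝒪)
    (d : D) :
    letI := relCotModule hres
    (residue 𝒪 c) • (Submodule.Quotient.mk d : RelCot 𝒪 D) =
      (Submodule.Quotient.mk (c • d) : RelCot 𝒪 D) :=
  rfl

theorem mk_mul (hres : Function.Surjective (residue D ∘ algebraMap 𝒪 D)) (d d' : D) :
    letI := relCotModule hres
    (Submodule.Quotient.mk (d * d') : RelCot 𝒪 D) =
      aug hres d • (Submodule.Quotient.mk d' : RelCot 𝒪 D) +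
        aug hres d' • (Submodule.Quotient.mk d : RelCot 𝒪 D) := by
  letI := relCotModule hres
  obtain ⟨c, hc⟩ := exists_scalar_sub_mem hres d
  obtain ⟨c', hc'⟩ := exists_scalar_sub_mem hres d'
  rw [aug_eq_residue_of_sub_mem hres hc, aug_eq_residue_of_sub_mem hres hc',
    residue_smul_mk, residue_smul_mk, ← Submodule.Quotient.mk_add, Submodule.Quotient.eq]
  exact mul_sub_mem_relSub hc hc'

end Cot

section Hom

variable {𝒪 : Type} [CommRing 𝒪] [IsLocalRing 𝒪]
variable {D : Type} [CommRing D] [IsLocalRing D] [Algebra 𝒪 D] [IsLocalHom (algebraMap 𝒪 D)]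

theorem mk_one_eq_zero : (Submodule.Quotient.mk (1 : D) : RelCot 𝒪 D) = 0 := by
  rw [Submodule.Quotient.mk_eq_zero]
  simpa using algebraMap_mem_relSub (𝒪 := 𝒪) (D := D) 1

theorem mk_algebraMap_eq_zero (c : 𝒪) :
    (Submodule.Quotient.mk (algebraMap 𝒪 D c) : RelCot 𝒪 D) = 0 := by
  rw [Submodule.Quotient.mk_eq_zero]
  exact algebraMap_mem_relSub c

/-- The `𝒪`-algebra homomorphism `D → k[ε]` attached to a functional on the relative cotangent
space. -/
noncomputable def tangentHom (hres : Function.Surjective (residue D ∘ algebraMap 𝒪 D))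
    (μ : letI := relCotModule hres; Module.Dual (ResidueField 𝒪) (RelCot 𝒪 D)) :
    letI := dualNumberAlgebra 𝒪
    D →ₐ[𝒪] DualNumber (ResidueField 𝒪) :=
  letI := dualNumberAlgebra 𝒪
  letI := relCotModule hres
  { toFun := fun d =>
      TrivSqZeroExt.inl (aug hres d) + TrivSqZeroExt.inr (μ (Submodule.Quotient.mk d))
    map_one' := by
      simp [mk_one_eq_zero]
    map_mul' := by
      intro d d'
      rw [mk_mul hres d d']
      ext <;> simp
      ring
    map_zero' := by
      simp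
    map_add' := by
      intro d d'
      ext <;> simp
    commutes' := by
      intro c
      rw [mk_algebraMap_eq_zero, aug_algebraMap]
      simp
      rfl }

theorem tangentHom_snd (hres : Function.Surjective (residue D ∘ algebraMap 𝒪 D))
    (μ : letI := relCotModule hres; Module.Dual (ResidueField 𝒪) (RelCot 𝒪 D)) (d : D) :
    (tangentHom hres μ d).snd = μ (Submodule.Quotient.mk d) := by
  simp [tangentHom]

theorem tangentHom_injective (hres : Function.Surjective (residue D ∘ algebraMap 𝒪 D)) :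
    Function.Injective (tangentHom (𝒪 := 𝒪) (D := D) hres) := by
  letI := relCotModule hres
  intro μ μ' h
  refine LinearMap.ext fun v => ?_
  obtain ⟨d, rfl⟩ := Submodule.Quotient.mk_surjective _ v
  rw [← tangentHom_snd hres μ d, ← tangentHom_snd hres μ' d, h]

theorem finite_dualNumber_residueField [Finite (ResidueField 𝒪)] :
    Finite (DualNumber (ResidueField 𝒪)) :=
  inferInstanceAs (Finite (ResidueField 𝒪 × ResidueField 𝒪))

theorem card_relCot_le [Finite (ResidueField 𝒪)] [Finite D]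
    (hres : Function.Surjective (residue D ∘ algebraMap 𝒪 D)) :
    letI := dualNumberAlgebra 𝒪
    Nat.card (RelCot 𝒪 D) ≤ Nat.card (D →ₐ[𝒪] DualNumber (ResidueField 𝒪)) := by
  letI := dualNumberAlgebra 𝒪
  letI := relCotModule hres
  haveI : Finite (RelCot 𝒪 D) := Finite.of_surjective _ (Submodule.Quotient.mk_surjective _)
  haveI := finite_dualNumber_residueField (𝒪 := 𝒪)
  haveI : Finite (D →ₐ[𝒪] DualNumber (ResidueField 𝒪)) :=
    Finite.of_injective (fun f => (f : D → DualNumber (ResidueField 𝒪))) DFunLike.coe_injective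
  have b := Module.finBasis (ResidueField 𝒪) (RelCot 𝒪 D)
  rw [Nat.card_congr b.toDualEquiv.toEquiv]
  exact Nat.card_le_card_of_injective _ (tangentHom_injective hres)

end Hom

section Gen

variable {𝒪 : Type} [CommRing 𝒪] [IsLocalRing 𝒪]
variable {D : Type} [CommRing D] [IsLocalRing D] [Algebra 𝒪 D] [IsLocalHom (algebraMap 𝒪 D)]

theorem exists_fin_surjective {V : Type} [Finite V] [Nonempty V] (N : ℕ) (hN : Nat.card V ≤ N) :
    ∃ g : Fin N → V, Function.Surjective g := by
  classical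
  let e := Finite.equivFin V
  let v₀ : V := Classical.arbitrary V
  refine ⟨fun i => if h : i.val < Nat.card V then e.symm ⟨i.val, h⟩ else v₀, fun v => ?_⟩
  refine ⟨⟨(e v).val, lt_of_lt_of_le (e v).isLt hN⟩, ?_⟩
  simp

/-- Lifts to `m_D` of a family covering the relative cotangent space. -/
theorem exists_gens [Finite D] (hres : Function.Surjective (residue D ∘ algebraMap 𝒪 D)) (N : ℕ)
    (hN : Nat.card (RelCot 𝒪 D) ≤ N) :
    ∃ x : Fin N → D, (∀ i, x i ∈ maximalIdeal D) ∧
      ∀ d : D, ∃ i, ∃ c : 𝒪, d - (x i + algebraMap 𝒪 D c) ∈ maximalIdeal D ^ 2 := by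
  haveI : Finite (RelCot 𝒪 D) := Finite.of_surjective _ (Submodule.Quotient.mk_surjective _)
  obtain ⟨g, hg⟩ := exists_fin_surjective (V := RelCot 𝒪 D) N hN
  have h1 : ∀ i, ∃ y : D, y ∈ maximalIdeal D ∧ (Submodule.Quotient.mk y : RelCot 𝒪 D) = g i := by
    intro i
    obtain ⟨d, hd⟩ := Submodule.Quotient.mk_surjective _ (g i)
    obtain ⟨c, hc⟩ := exists_scalar_sub_mem hres d
    refine ⟨d - algebraMap 𝒪 D c, hc, ?_⟩
    rw [Submodule.Quotient.mk_sub, mk_algebraMap_eq_zero, sub_zero, hd]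
  choose x hx1 hx2 using h1
  refine ⟨x, hx1, fun d => ?_⟩
  obtain ⟨i, hi⟩ := hg (Submodule.Quotient.mk d)
  have h2 : d - x i ∈ relSub 𝒪 D := by
    rw [← Submodule.Quotient.mk_eq_zero, Submodule.Quotient.mk_sub, hx2, hi, sub_self]
  obtain ⟨s, hs, c, hsc⟩ := mem_relSub_iff.1 h2
  refine ⟨i, c, ?_⟩
  have : d - (x i + algebraMap 𝒪 D c) = s := by
    rw [← sub_sub, ← hsc]; ring
  rw [this]; exact hs

theorem aeval_surjective (hres : Function.Surjective (residue D ∘ algebraMap 𝒪 D)) (j : ℕ)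
    (hj : maximalIdeal D ^ (j + 1) = ⊥) {N : ℕ} (x : Fin N → D)
    (hx : ∀ d : D, ∃ i, ∃ c : 𝒪, d - (x i + algebraMap 𝒪 D c) ∈ maximalIdeal D ^ 2) :
    Function.Surjective (MvPolynomial.aeval x : MvPolynomial (Fin N) 𝒪 →ₐ[𝒪] D) := by
  set ψ : MvPolynomial (Fin N) 𝒪 →ₐ[𝒪] D := MvPolynomial.aeval x with hψ
  have hS1 : ∀ d : D, ∃ n ∈ ψ.range, d - n ∈ maximalIdeal D ^ 2 := by
    intro d
    obtain ⟨i, c, h⟩ := hx d
    refine ⟨x i + algebraMap 𝒪 D c, add_mem ⟨MvPolynomial.X i, ?_⟩ (Subalgebra.algebraMap_mem _ c), h⟩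
    simp [hψ]
  have hP : ∀ i : ℕ, ∀ u ∈ maximalIdeal D ^ i, ∃ u' ∈ ψ.range, u - u' ∈ maximalIdeal D ^ (i + 1) := by
    intro i
    induction i with
    | zero =>
      intro u _
      obtain ⟨c, hc⟩ := exists_scalar_sub_mem hres u
      exact ⟨algebraMap 𝒪 D c, Subalgebra.algebraMap_mem _ c, by simpa using hc⟩
    | succ i ih =>
      intro u hu
      rw [pow_succ, ← Ideal.smul_eq_mul] at hu
      refine Submodule.smul_induction_on hu ?_ ?_
      · intro r hr n hn
        obtain ⟨r', hr'S, hr'⟩ := ih r hr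
        obtain ⟨n', hn'S, hn'⟩ := hS1 n
        refine ⟨r' * n', mul_mem hr'S hn'S, ?_⟩
        have hr'mem : r' ∈ maximalIdeal D ^ i := by
          have := sub_mem hr (Ideal.pow_le_pow_right (Nat.le_succ i) hr')
          simpa using this
        have e1 : r • n - r' * n' = (r - r') * n + r' * (n - n') := by
          rw [smul_eq_mul]; ring
        rw [e1]
        refine add_mem ?_ ?_
        · rw [pow_succ (maximalIdeal D) (i + 1)]
          exact Ideal.mul_mem_mul hr' hn
        · rw [show i + 1 + 1 = i + 2 from rfl, pow_add]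
          exact Ideal.mul_mem_mul hr'mem hn'
      · rintro a b ⟨a', ha'S, ha'⟩ ⟨b', hb'S, hb'⟩
        refine ⟨a' + b', add_mem ha'S hb'S, ?_⟩
        have : a + b - (a' + b') = (a - a') + (b - b') := by ring
        rw [this]
        exact add_mem ha' hb'
  have hQ : ∀ l i : ℕ, i + l = j + 1 → ∀ u ∈ maximalIdeal D ^ i, u ∈ ψ.range := by
    intro l
    induction l with
    | zero =>
      intro i hi u hu
      rw [add_zero] at hi
      rw [hi, hj, Ideal.mem_bot] at hu
      rw [hu]; exact zero_mem _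
    | succ l ih =>
      intro i hi u hu
      obtain ⟨u', hu'S, hu'⟩ := hP i u hu
      have := ih (i + 1) (by omega) _ hu'
      have e : u = u' + (u - u') := by ring
      rw [e]
      exact add_mem hu'S this
  intro d
  have := hQ (j + 1) 0 (by omega) d (by simp)
  exact this

end Gen

section Poly

variable (𝒪 : Type) [CommRing 𝒪] [IsLocalRing 𝒪]

/-- The augmentation `𝒪[X₁, …, X_N] → k`, `X_i ↦ 0`. -/
noncomputable def polyAug (N : ℕ) : MvPolynomial (Fin N) 𝒪 →+* ResidueField 𝒪 :=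
  (residue 𝒪).comp MvPolynomial.constantCoeff

variable {𝒪}
variable {D : Type} [CommRing D] [IsLocalRing D] [Algebra 𝒪 D] [IsLocalHom (algebraMap 𝒪 D)]

theorem aug_aeval (hres : Function.Surjective (residue D ∘ algebraMap 𝒪 D)) {N : ℕ}
    (x : Fin N → D) (hx : ∀ i, x i ∈ maximalIdeal D) (r : MvPolynomial (Fin N) 𝒪) :
    aug hres (MvPolynomial.aeval x r) = polyAug 𝒪 N r := by
  have h : (aug hres).comp (MvPolynomial.aeval x : MvPolynomial (Fin N) 𝒪 →ₐ[𝒪] D).toRingHom =
      polyAug 𝒪 N := by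
    apply MvPolynomial.ringHom_ext
    · intro c
      simp [polyAug, aug_algebraMap]
    · intro i
      simp [polyAug, (aug_eq_zero_iff hres _).2 (hx i)]
  exact RingHom.congr_fun h r

theorem ker_pow_le_ker (hres : Function.Surjective (residue D ∘ algebraMap 𝒪 D)) (j : ℕ)
    (hj : maximalIdeal D ^ (j + 1) = ⊥) {N : ℕ} (x : Fin N → D)
    (hx : ∀ i, x i ∈ maximalIdeal D) :
    RingHom.ker (polyAug 𝒪 N) ^ (j + 1) ≤
      RingHom.ker (MvPolynomial.aeval x : MvPolynomial (Fin N) 𝒪 →ₐ[𝒪] D).toRingHom := by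
  have h1 : RingHom.ker (polyAug 𝒪 N) ≤
      (maximalIdeal D).comap (MvPolynomial.aeval x : MvPolynomial (Fin N) 𝒪 →ₐ[𝒪] D).toRingHom := by
    intro r hr
    rw [RingHom.mem_ker] at hr
    rw [Ideal.mem_comap]
    have := aug_aeval hres x hx r
    rw [hr] at this
    exact (aug_eq_zero_iff hres _).1 this
  refine (Ideal.pow_right_mono h1 (j + 1)).trans ?_
  refine (Ideal.le_comap_pow _ (j + 1)).trans ?_
  rw [hj]
  exact le_of_eq rfl

end Poly

end H55

/-- If `D` is a finite local `𝒪`-algebra with residue field `k`, `m_D ^ (j+1) = 0` and at most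
`N` `𝒪`-algebra homomorphisms to `k[ε]`, then `|D| ≤ B`, where `B` only depends on `N` and `j`.
(Proof: `Hom(D, k[ε]) ≅ Hom_k(m_D/(m_D^2 + m_𝒪 D), k)`, so the relative cotangent space has at
most `N` elements; lifts of them generate `D` as an `𝒪`-algebra, so `D` is a quotient of
`MvPolynomial (Fin N) 𝒪 ⧸ (m_𝒪, X) ^ (j+1)`, which is finite by `Ideal.finite_quotient_pow`.) -/
theorem exists_card_bound (𝒪 : Type) [CommRing 𝒪] [IsDomain 𝒪] [IsDiscreteValuationRing 𝒪]
    [Finite (ResidueField 𝒪)] (N j : ℕ) :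
    ∃ B : ℕ, ∀ (D : Type) [CommRing D] [IsLocalRing D] [Algebra 𝒪 D]
      [IsLocalHom (algebraMap 𝒪 D)] [Finite D],
      Function.Surjective (residue D ∘ algebraMap 𝒪 D) → maximalIdeal D ^ (j + 1) = ⊥ →
      (letI := dualNumberAlgebra 𝒪
       Nat.card (D →ₐ[𝒪] DualNumber (ResidueField 𝒪)) ≤ N) → Nat.card D ≤ B := by
  classical
  haveI : Finite (MvPolynomial (Fin N) 𝒪 ⧸ RingHom.ker (H55.polyAug 𝒪 N)) :=
    Finite.of_injective _ (RingHom.kerLift_injective (H55.polyAug 𝒪 N))
  have hFG : (RingHom.ker (H55.polyAug 𝒪 N)).FG := IsNoetherian.noetherian _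
  haveI : Finite (MvPolynomial (Fin N) 𝒪 ⧸ RingHom.ker (H55.polyAug 𝒪 N) ^ (j + 1)) :=
    Ideal.finite_quotient_pow hFG (j + 1)
  refine ⟨Nat.card (MvPolynomial (Fin N) 𝒪 ⧸ RingHom.ker (H55.polyAug 𝒪 N) ^ (j + 1)), ?_⟩
  intro D _ _ _ _ _ hres hj hN
  have h1 : Nat.card (H55.RelCot 𝒪 D) ≤ N := le_trans (H55.card_relCot_le hres) hN
  obtain ⟨x, hx1, hx2⟩ := H55.exists_gens hres N h1
  have hsurj := H55.aeval_surjective hres j hj x hx2
  have hker := H55.ker_pow_le_ker hres j hj x hx1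
  have hs : Function.Surjective (Ideal.Quotient.lift (RingHom.ker (H55.polyAug 𝒪 N) ^ (j + 1))
      (MvPolynomial.aeval x : MvPolynomial (Fin N) 𝒪 →ₐ[𝒪] D).toRingHom
      (fun a ha => hker ha)) :=
    Ideal.Quotient.lift_surjective_of_surjective _ _ hsurj
  exact Nat.card_le_card_of_surjective _ hs

end Fermat.Agent.S53

end
-- ==== END Fermat.Agent.S53.GenBound

-- ==== BEGIN Fermat.Agent.S53.Univ
section

set_option autoImplicit false

/-!
# S53, step 7 (helper33): from a tower of level-wise universal normalized pairs to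
`DeformationRingData`.
-/

namespace Fermat.Agent.S53

open IsLocalRing

namespace Univ

section Generalities

/-- Factor an algebra map through a surjection whose kernel it kills. -/
theorem exists_algHom_factor {𝒪 A B C : Type} [CommRing 𝒪] [CommRing A] [CommRing B] [CommRing C]
    [Algebra 𝒪 A] [Algebra 𝒪 B] [Algebra 𝒪 C] (f : A →ₐ[𝒪] B) (hf : Function.Surjective f)
    (g : A →ₐ[𝒪] C) (h : ∀ a, f a = 0 → g a = 0) :
    ∃ g' : B →ₐ[𝒪] C, ∀ a, g' (f a) = g a := by
  have hker : ∀ a a', f a = f a' → g a = g a' := by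
    intro a a' haa'
    have := h (a - a') (by rw [map_sub, haa', sub_self])
    rwa [map_sub, sub_eq_zero] at this
  have hs : ∀ b, f (Function.surjInv hf b) = b := Function.surjInv_eq hf
  refine ⟨{ toFun := fun b => g (Function.surjInv hf b)
            map_one' := ?_, map_mul' := ?_, map_zero' := ?_, map_add' := ?_, commutes' := ?_ }, ?_⟩
  · rw [← map_one g]; exact hker _ _ (by rw [hs, map_one])
  · intro x y; rw [← map_mul g]; exact hker _ _ (by rw [hs, map_mul, hs, hs])
  · rw [← map_zero g]; exact hker _ _ (by rw [hs, map_zero])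
  · intro x y; rw [← map_add g]; exact hker _ _ (by rw [hs, map_add, hs, hs])
  · intro c; rw [← AlgHom.commutes g]; exact hker _ _ (by rw [hs, AlgHom.commutes])
  · intro a; exact hker _ _ (hs _)

variable {𝒪 : Type} [CommRing 𝒪] [IsLocalRing 𝒪]

/-- An `𝒪`-algebra homomorphism from a local ring to a local ring with residue field `k` is
local. -/
theorem isLocalHom_of_res_surj {A B : Type} [CommRing A] [IsLocalRing A] [Algebra 𝒪 A]
    [CommRing B] [IsLocalRing B] [Algebra 𝒪 B]
    (hres : Function.Surjective (residue B ∘ algebraMap 𝒪 B)) (φ : A →ₐ[𝒪] B) :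
    IsLocalHom (φ : A →+* B) := by
  refine ⟨fun a ha => ?_⟩
  by_contra hna
  have ha' : IsUnit (φ a) := ha
  obtain ⟨u, hu⟩ := ha'
  obtain ⟨c, hc⟩ := hres (residue B (-(↑u⁻¹ : B)))
  have hmem : a ∈ maximalIdeal A := (mem_maximalIdeal a).2 hna
  have h1 : IsUnit (1 + algebraMap 𝒪 A c * a) := by
    by_contra h
    have h2 : 1 + algebraMap 𝒪 A c * a ∈ maximalIdeal A := (mem_maximalIdeal _).2 h
    have h3 : (1 : A) ∈ maximalIdeal A := by
      have := (maximalIdeal A).sub_mem h2 ((maximalIdeal A).mul_mem_left (algebraMap 𝒪 A c) hmem)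
      simp at this
    exact (Ideal.ne_top_iff_one _).1 (maximalIdeal.isMaximal A).ne_top h3
  have h4 : IsUnit (φ (1 + algebraMap 𝒪 A c * a)) := h1.map φ
  rw [map_add, map_one, map_mul, AlgHom.commutes, ← hu] at h4
  have h5 : residue B (1 + algebraMap 𝒪 B c * (u : B)) = 0 := by
    rw [map_add, map_one, map_mul]
    have : residue B (algebraMap 𝒪 B c) = residue B (-(↑u⁻¹ : B)) := hc
    rw [this, ← map_mul, ← map_one (residue B), ← map_add]
    simp
  exact ((residue_eq_zero_iff _).1 h5) h4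

/-- Strict lifts are preserved by local algebra homomorphisms. -/
theorem IsLift.map {rbar : GQ → M2 (ResidueField 𝒪)} {A B : Type} [CommRing A] [IsLocalRing A]
    [Algebra 𝒪 A] [IsLocalHom (algebraMap 𝒪 A)] [CommRing B] [IsLocalRing B] [Algebra 𝒪 B]
    [IsLocalHom (algebraMap 𝒪 B)] (φ : A →ₐ[𝒪] B) (hφ : IsLocalHom (φ : A →+* B))
    {r : GQ → M2 A} (h : IsLift 𝒪 rbar r) : IsLift 𝒪 rbar (fun σ => (r σ).map φ) := by
  intro σ
  ext a b
  have h1 := congrFun (congrFun (h σ) a) b
  simp only [Matrix.map_apply] at h1 ⊢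
  obtain ⟨y, hy⟩ := residue_surjective (rbar σ a b)
  rw [← hy, ResidueField.map_residue] at h1 ⊢
  have h2 : r σ a b - algebraMap 𝒪 A y ∈ maximalIdeal A := by
    rw [← Ideal.Quotient.eq]
    exact h1
  have h3 : φ (r σ a b - algebraMap 𝒪 A y) ∈ maximalIdeal B := by
    rw [mem_maximalIdeal, mem_nonunits_iff] at h2 ⊢
    intro hu
    exact h2 (hφ.map_nonunit _ hu)
  rw [map_sub, AlgHom.commutes] at h3
  exact (Ideal.Quotient.eq).2 h3

/-- Strict lifts are reflected by algebra homomorphisms. -/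
theorem IsLift.of_map {rbar : GQ → M2 (ResidueField 𝒪)} {A B : Type} [CommRing A] [IsLocalRing A]
    [Algebra 𝒪 A] [IsLocalHom (algebraMap 𝒪 A)] [CommRing B] [IsLocalRing B] [Algebra 𝒪 B]
    [IsLocalHom (algebraMap 𝒪 B)] (φ : A →ₐ[𝒪] B)
    {r : GQ → M2 A} (h : IsLift 𝒪 rbar (fun σ => (r σ).map φ)) : IsLift 𝒪 rbar r := by
  intro σ
  ext a b
  have h1 := congrFun (congrFun (h σ) a) b
  simp only [Matrix.map_apply] at h1 ⊢
  obtain ⟨y, hy⟩ := residue_surjective (rbar σ a b)
  rw [← hy, ResidueField.map_residue] at h1 ⊢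
  have h3 : φ (r σ a b - algebraMap 𝒪 A y) ∈ maximalIdeal B := by
    rw [map_sub, AlgHom.commutes]
    exact (Ideal.Quotient.eq).1 h1
  have h2 : r σ a b - algebraMap 𝒪 A y ∈ maximalIdeal A := by
    rw [mem_maximalIdeal, mem_nonunits_iff] at h3 ⊢
    intro hu
    exact h3 (hu.map φ)
  exact (Ideal.Quotient.eq).2 h2

theorem eq_zero_of_forall_mem_pow {A : Type} [CommRing A] (I : Ideal A) [IsHausdorff I A]
    (x : A) (h : ∀ n, x ∈ I ^ n) : x = 0 := by
  apply IsHausdorff.haus ‹_› x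
  intro n
  rw [SModEq.zero]
  simpa using h n

end Generalities

section Limit

variable {𝒪 : Type} [CommRing 𝒪] [IsLocalRing 𝒪]
  {𝒟 : ∀ ⦃A : Type⦄ [CommRing A] [IsLocalRing A] [Algebra 𝒪 A], GaloisRepAdic A → Prop}
  {ρbar : ResidualGaloisRep (ResidueField 𝒪)} {N : NormData 𝒪 ρbar} (T : UnivTower 𝒪 𝒟 N)
  {R : Type} [CommRing R] [IsLocalRing R] [IsNoetherianRing R]
  [IsAdicComplete (maximalIdeal R) R] [Algebra 𝒪 R] [IsLocalHom (algebraMap 𝒪 R)]
  (π : ∀ j, R →ₐ[𝒪] T.D j)

include T in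
theorem eq_of_forall_π (hπk : ∀ j, RingHom.ker (π j : R →+* T.D j) = maximalIdeal R ^ (j + 1))
    {x y : R} (h : ∀ j, π j x = π j y) : x = y := by
  rw [← sub_eq_zero]
  apply eq_zero_of_forall_mem_pow (maximalIdeal R)
  intro n
  have h1 : x - y ∈ maximalIdeal R ^ (n + 1) := by
    rw [← hπk n, RingHom.mem_ker]
    change π n (x - y) = 0
    rw [map_sub, h n, sub_self]
  exact Ideal.pow_le_pow_right (Nat.le_succ n) h1

/-- The universal matrix valued representation over the limit ring. -/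
theorem exists_runiv
    (hπk : ∀ j, RingHom.ker (π j : R →+* T.D j) = maximalIdeal R ^ (j + 1))
    (hπl : ∀ x : ∀ j, T.D j, (∀ j, T.u j (x (j + 1)) = x j) → ∃ r : R, ∀ j, π j r = x j) :
    ∃ r : GQ →* M2 R, ∀ j σ, (r σ).map (π j) = T.s j σ := by
  have hex : ∀ (σ : GQ) (a b : Fin 2), ∃ x : R, ∀ j, π j x = T.s j σ a b := by
    intro σ a b
    apply hπl (fun j => T.s j σ a b)
    intro j
    have := congrFun (congrFun (T.s_compat j σ) a) b
    simpa using this
  choose x hx using hex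
  have hmap : ∀ j σ, (Matrix.of (x σ) : M2 R).map (π j) = T.s j σ := by
    intro j σ
    ext a b
    simp [hx]
  have hinj : ∀ {X Y : M2 R}, (∀ j, X.map (π j) = Y.map (π j)) → X = Y := by
    intro X Y h
    ext a b
    apply eq_of_forall_π T π hπk
    intro j
    have := congrFun (congrFun (h j) a) b
    simpa using this
  refine ⟨{ toFun := fun σ => Matrix.of (x σ), map_one' := ?_, map_mul' := ?_ }, hmap⟩
  · apply hinj
    intro j
    rw [hmap, map_one]
    simp [Matrix.map_one]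
  · intro σ τ
    apply hinj
    intro j
    rw [hmap, map_mul, Matrix.map_mul, hmap, hmap]

include T in
theorem isNorm_runiv (hπk : ∀ j, RingHom.ker (π j : R →+* T.D j) = maximalIdeal R ^ (j + 1))
    (r : GQ →* M2 R) (hr : ∀ j σ, (r σ).map (π j) = T.s j σ) : IsNorm N r := by
  have hentry : ∀ j σ a b, π j (r σ a b) = T.s j σ a b := fun j σ a b => by
    rw [← hr j σ]; rfl
  refine ⟨?_, ?_, ?_⟩
  · apply _root_.Fermat.Agent.S53.Univ.IsLift.of_map (π 0)
    have : (fun σ => (r σ).map (π 0)) = fun σ => T.s 0 σ := funext fun σ => hr 0 σ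
    rw [this]
    exact (T.s_norm 0).1
  · intro i
    apply eq_of_forall_π T π hπk
    intro j
    rw [hentry, (T.s_norm j).2.1 i]
    split_ifs <;> simp
  · apply eq_of_forall_π T π hπk
    intro j
    rw [hentry, (T.s_norm j).2.2, AlgHom.commutes]

include T in
theorem matCont_runiv (hπk : ∀ j, RingHom.ker (π j : R →+* T.D j) = maximalIdeal R ^ (j + 1))
    (r : GQ →* M2 R) (hr : ∀ j σ, (r σ).map (π j) = T.s j σ) : MatCont r := by
  intro n
  obtain ⟨ρ, hρ, -⟩ := T.s_type n
  obtain ⟨L, hL, h1⟩ := hρ.matCont (n + 1)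
  refine ⟨L, hL, fun σ hσ a b => ?_⟩
  have h2 := h1 σ hσ a b
  rw [T.lev n, Ideal.mem_bot] at h2
  have h3 : (r σ - 1) a b ∈ maximalIdeal R ^ (n + 1) := by
    rw [← hπk n, RingHom.mem_ker]
    change π n ((r σ - 1) a b) = 0
    rw [← h2]
    have : T.s n σ a b = π n (r σ a b) := by rw [← hr n σ]; rfl
    rw [Matrix.sub_apply, Matrix.sub_apply, map_sub, this]
    congr 1
    by_cases hab : a = b
    · subst hab; simp
    · simp [Matrix.one_apply_ne hab]
  exact Ideal.pow_le_pow_right (Nat.le_succ n) h3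

end Limit

section Norm

variable {𝒪 : Type} [CommRing 𝒪] [IsLocalRing 𝒪]
  {ρbar : ResidualGaloisRep (ResidueField 𝒪)} {N : NormData 𝒪 ρbar}

theorem IsNorm.map {A B : Type} [CommRing A] [IsLocalRing A]
    [Algebra 𝒪 A] [IsLocalHom (algebraMap 𝒪 A)] [CommRing B] [IsLocalRing B] [Algebra 𝒪 B]
    [IsLocalHom (algebraMap 𝒪 B)] (φ : A →ₐ[𝒪] B) (hφ : IsLocalHom (φ : A →+* B))
    {r : GQ → M2 A} (h : IsNorm N r) : IsNorm N (fun σ => (r σ).map φ) := by
  refine ⟨_root_.Fermat.Agent.S53.Univ.IsLift.map φ hφ h.1, ?_, ?_⟩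
  · intro i
    simp only [Matrix.map_apply, h.2.1 i]
    split_ifs <;> simp
  · simp only [Matrix.map_apply, h.2.2, AlgHom.commutes]

end Norm

section Key

variable {𝒪 : Type} [CommRing 𝒪] [IsLocalRing 𝒪]
  {𝒟 : ∀ ⦃A : Type⦄ [CommRing A] [IsLocalRing A] [Algebra 𝒪 A], GaloisRepAdic A → Prop}
  {ρbar : ResidualGaloisRep (ResidueField 𝒪)} {N : NormData 𝒪 ρbar} (T : UnivTower 𝒪 𝒟 N)
  {R : Type} [CommRing R] [IsLocalRing R] [IsNoetherianRing R]
  [IsAdicComplete (maximalIdeal R) R] [Algebra 𝒪 R] [IsLocalHom (algebraMap 𝒪 R)]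
  (π : ∀ j, R →ₐ[𝒪] T.D j)

theorem map_maximalIdeal_pow_le {A B : Type} [CommRing A] [IsLocalRing A] [CommRing B]
    [IsLocalRing B] (f : A →+* B) (hf : IsLocalHom f) (n : ℕ) {x : A}
    (hx : x ∈ maximalIdeal A ^ n) : f x ∈ maximalIdeal B ^ n := by
  have h1 : (maximalIdeal A).map f ≤ maximalIdeal B := by
    rw [Ideal.map_le_iff_le_comap]
    intro a ha
    rw [Ideal.mem_comap, mem_maximalIdeal, mem_nonunits_iff]
    intro hu
    exact ((mem_maximalIdeal a).1 ha) (hf.map_nonunit a hu)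
  have h2 : f x ∈ (maximalIdeal A ^ n).map f := Ideal.mem_map_of_mem f hx
  rw [Ideal.map_pow] at h2
  exact Ideal.pow_right_mono h1 n h2

include T in
/-- Two algebra maps from `R` to a local algebra of bounded level which agree on the entries of
the universal matrices are equal. -/
theorem algHom_eq_of_entries
    (hπs : ∀ j, Function.Surjective (π j))
    (hπk : ∀ j, RingHom.ker (π j : R →+* T.D j) = maximalIdeal R ^ (j + 1))
    (r : GQ →* M2 R) (hr : ∀ j σ, (r σ).map (π j) = T.s j σ)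
    {B : Type} [CommRing B] [IsLocalRing B] [Algebra 𝒪 B]
    (hresB : Function.Surjective (residue B ∘ algebraMap 𝒪 B)) (m : ℕ)
    (hlev : maximalIdeal B ^ (m + 1) = ⊥) (g₁ g₂ : R →ₐ[𝒪] B)
    (h : ∀ σ a b, g₁ (r σ a b) = g₂ (r σ a b)) : g₁ = g₂ := by
  have hkill : ∀ g : R →ₐ[𝒪] B, ∀ x, π m x = 0 → g x = 0 := by
    intro g x hx
    have hx' : x ∈ maximalIdeal R ^ (m + 1) := by
      rw [← hπk m, RingHom.mem_ker]; exact hx
    have := map_maximalIdeal_pow_le (g : R →+* B) (isLocalHom_of_res_surj hresB g) (m + 1) hx'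
    rw [hlev, Ideal.mem_bot] at this
    exact this
  obtain ⟨g₁', hg₁⟩ := exists_algHom_factor (π m) (hπs m) g₁ (hkill g₁)
  obtain ⟨g₂', hg₂⟩ := exists_algHom_factor (π m) (hπs m) g₂ (hkill g₂)
  have heq : g₁' = g₂' := by
    apply AlgHom.ext_of_adjoin_eq_top (T.s_gen m)
    rintro x ⟨σ, a, b, rfl⟩
    have : T.s m σ a b = π m (r σ a b) := by rw [← hr m σ]; rfl
    rw [this, hg₁, hg₂, h]
  ext x
  rw [← hg₁, ← hg₂, heq]

include T in
/-- The universal representation is of type `𝒟`. -/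
theorem type_runiv [Finite (ResidueField 𝒪)] (h𝒟 : GaloisRep.IsDeformationCondition 𝒪 𝒟)
    (hπs : ∀ j, Function.Surjective (π j))
    (hπk : ∀ j, RingHom.ker (π j : R →+* T.D j) = maximalIdeal R ^ (j + 1))
    (hresR : Function.Surjective (residue R ∘ algebraMap 𝒪 R))
    (r : GQ →* M2 R) (hr : ∀ j σ, (r σ).map (π j) = T.s j σ) (hc : MatCont r) :
    𝒟 (ofMat r hc) := by
  rw [h𝒟.iff_forall_surjective inferInstance hresR]
  intro B _ _ _ hB q hq _
  have := hB.isArtinian
  obtain ⟨n, hn⟩ := (isArtinianRing_iff_isNilpotent_maximalIdeal B).1 hB.isArtinian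
  have hlev : maximalIdeal B ^ (n + 1) = ⊥ := by
    rw [pow_succ, hn]; simp
  have hkill : ∀ x, π n x = 0 → q x = 0 := by
    intro x hx
    have hx' : x ∈ maximalIdeal R ^ (n + 1) := by
      rw [← hπk n, RingHom.mem_ker]; exact hx
    have := map_maximalIdeal_pow_le (q : R →+* B) hq (n + 1) hx'
    rw [hlev, Ideal.mem_bot] at this
    exact this
  obtain ⟨q', hq'⟩ := exists_algHom_factor (π n) (hπs n) q hkill
  have hq'loc : IsLocalHom (q' : T.D n →+* B) := isLocalHom_of_res_surj hB.residue_surjective q'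
  obtain ⟨ρn, hρn, hDn⟩ := T.s_type n
  have hDtest : GaloisRep.IsArtinianTestAlgebra 𝒪 (T.D n) :=
    { isLocalHom := inferInstance
      residue_surjective := T.res_surj n
      isArtinian := inferInstance }
  have hDn' := h𝒟.baseChangeAlong hDtest hB q' hq'loc hDn
  have e : (ρn.baseChangeAlong (q' : T.D n →+* B) hq'loc).IsEquiv
      ((ofMat r hc).baseChangeAlong (q : R →+* B) hq) := by
    rw [IsMatOf.isEquiv_iff (hρn.baseChangeAlong (q' : T.D n →+* B) hq'loc)
      ((isMatOf_ofMat r hc).baseChangeAlong (q : R →+* B) hq)]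
    refine ⟨1, fun σ => ?_⟩
    simp only [Units.val_one, one_mul, mul_one]
    ext a b
    simp only [Matrix.map_apply]
    have : T.s n σ a b = π n (r σ a b) := by rw [← hr n σ]; rfl
    rw [this]
    exact hq' _
  exact h𝒟.of_isEquiv hB e hDn'

end Key

section Universal

variable {𝒪 : Type} [CommRing 𝒪] [IsLocalRing 𝒪]
  {𝒟 : ∀ ⦃A : Type⦄ [CommRing A] [IsLocalRing A] [Algebra 𝒪 A], GaloisRepAdic A → Prop}
  {ρbar : ResidualGaloisRep (ResidueField 𝒪)} {N : NormData 𝒪 ρbar} (T : UnivTower 𝒪 𝒟 N)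
  {R : Type} [CommRing R] [IsLocalRing R] [IsNoetherianRing R]
  [IsAdicComplete (maximalIdeal R) R] [Algebra 𝒪 R] [IsLocalHom (algebraMap 𝒪 R)]
  (π : ∀ j, R →ₐ[𝒪] T.D j)
  {A : Type} [CommRing A] [IsLocalRing A] [IsNoetherianRing A]
  [IsAdicComplete (maximalIdeal A) A] [Algebra 𝒪 A] [IsLocalHom (algebraMap 𝒪 A)]

/-- Entrywise image of a matrix valued homomorphism, as a monoid homomorphism. -/
noncomputable def mapHom {A B : Type} [CommRing A] [CommRing B] (φ : A →+* B) (r : GQ →* M2 A) : GQ →* M2 B :=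
  (RingHom.mapMatrix φ).toMonoidHom.comp r

@[simp] theorem mapHom_apply {A B : Type} [CommRing A] [CommRing B] (φ : A →+* B)
    (r : GQ →* M2 A) (σ : GQ) : _root_.Fermat.Agent.S53.Univ.mapHom φ r σ = (r σ).map φ := rfl

theorem isArtinianTestAlgebra_quot_pow
    (hresA : Function.Surjective (residue A ∘ algebraMap 𝒪 A)) (n : ℕ) :
    GaloisRep.IsArtinianTestAlgebra 𝒪 (A ⧸ maximalIdeal A ^ (n + 1)) where
  isLocalHom := H50.isLocalHom_algebraMap_quot 𝒪 A n
  residue_surjective := H50.residue_surjective_quot 𝒪 A hresA n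
  isArtinian := H50.isArtinianRing_quot A n

theorem isLocalHom_mk (n : ℕ) :
    IsLocalHom ((Ideal.Quotient.mkₐ 𝒪 (maximalIdeal A ^ (n + 1)) :
      A →ₐ[𝒪] A ⧸ maximalIdeal A ^ (n + 1)) : A →+* A ⧸ maximalIdeal A ^ (n + 1)) :=
  IsLocalHom.of_surjective _ Ideal.Quotient.mk_surjective

include T in
/-- Existence of the classifying map of a normalized lift of type `𝒟`. -/
theorem exists_map_of_isNorm [Finite (ResidueField 𝒪)]
    (h𝒟 : GaloisRep.IsDeformationCondition 𝒪 𝒟)
    (hπs : ∀ j, Function.Surjective (π j))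
    (hπk : ∀ j, RingHom.ker (π j : R →+* T.D j) = maximalIdeal R ^ (j + 1))
    (r : GQ →* M2 R) (hr : ∀ j σ, (r σ).map (π j) = T.s j σ)
    (hresA : Function.Surjective (residue A ∘ algebraMap 𝒪 A))
    (ρA : GaloisRepAdic A) (hD : 𝒟 ρA) (rA : GQ →* M2 A) (hMat : IsMatOf ρA rA)
    (hNorm : IsNorm N rA) :
    ∃ φ : R →ₐ[𝒪] A, ∀ σ, (r σ).map φ = rA σ := by
  have hentry : ∀ j σ a b, π j (r σ a b) = T.s j σ a b := fun j σ a b => by
    rw [← hr j σ]; rfl
  -- level-wise maps
  have hlevel : ∀ n : ℕ, ∃ φn : T.D n →ₐ[𝒪] A ⧸ maximalIdeal A ^ (n + 1),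
      ∀ σ a b, φn (T.s n σ a b) = Ideal.Quotient.mk _ (rA σ a b) := by
    intro n
    have : IsLocalHom (algebraMap 𝒪 (A ⧸ maximalIdeal A ^ (n + 1))) :=
      H50.isLocalHom_algebraMap_quot 𝒪 A n
    have hTest := isArtinianTestAlgebra_quot_pow (𝒪 := 𝒪) (A := A) hresA n
    have hN : IsNorm N (_root_.Fermat.Agent.S53.Univ.mapHom (Ideal.Quotient.mkₐ 𝒪 (maximalIdeal A ^ (n + 1)) :
        A →+* A ⧸ maximalIdeal A ^ (n + 1)) rA) :=
      _root_.Fermat.Agent.S53.Univ.IsNorm.map (Ideal.Quotient.mkₐ 𝒪 (maximalIdeal A ^ (n + 1))) (isLocalHom_mk n) hNorm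
    have hDM : DMat 𝒪 𝒟 (_root_.Fermat.Agent.S53.Univ.mapHom (Ideal.Quotient.mkₐ 𝒪 (maximalIdeal A ^ (n + 1)) :
        A →+* A ⧸ maximalIdeal A ^ (n + 1)) rA) :=
      ⟨ρA.baseChangeAlong _ (isLocalHom_mk n), hMat.baseChangeAlong _ (isLocalHom_mk n),
        (h𝒟.iff_forall_surjective inferInstance hresA ρA).1 hD hTest
          (Ideal.Quotient.mkₐ 𝒪 (maximalIdeal A ^ (n + 1))) (isLocalHom_mk n)
          Ideal.Quotient.mk_surjective⟩
    obtain ⟨φn, hφn⟩ := T.exists_map n (A ⧸ maximalIdeal A ^ (n + 1)) hTest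
      (H50.maximalIdeal_quot_pow A n) _ hN hDM
    refine ⟨φn, fun σ a b => ?_⟩
    have := congrFun (congrFun (hφn σ) a) b
    simpa using this
  choose φn hφn using hlevel
  -- the maps to `A ⧸ m ^ n`
  let f : (n : ℕ) → R →ₐ[𝒪] A ⧸ maximalIdeal A ^ n := fun n =>
    (Ideal.Quotient.factorₐ 𝒪 (Ideal.pow_le_pow_right (Nat.le_succ n))).comp
      ((φn n).comp (π n))
  have hfe : ∀ n σ a b, f n (r σ a b) = Ideal.Quotient.mk _ (rA σ a b) := by
    intro n σ a b
    simp only [f, AlgHom.comp_apply, hentry, hφn]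
    rfl
  have hf : ∀ {m n : ℕ} (hle : m ≤ n),
      (Ideal.Quotient.factorₐ 𝒪 (Ideal.pow_le_pow_right hle)).comp (f n) = f m := by
    intro m n hle
    cases m with
    | zero =>
      ext x
      have : Subsingleton (A ⧸ maximalIdeal A ^ 0) := by
        rw [pow_zero, Ideal.one_eq_top]
        exact Ideal.Quotient.subsingleton_iff.2 rfl
      exact Subsingleton.elim _ _
    | succ m =>
      apply algHom_eq_of_entries T π hπs hπk r hr (H50.residue_surjective_quot 𝒪 A hresA m) m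
        (H50.maximalIdeal_quot_pow A m)
      intro σ a b
      rw [AlgHom.comp_apply, hfe, hfe]
      rfl
  refine ⟨IsAdicComplete.liftAlgHom (maximalIdeal A) f hf, fun σ => ?_⟩
  ext a b
  simp only [Matrix.map_apply]
  rw [← sub_eq_zero]
  apply eq_zero_of_forall_mem_pow (maximalIdeal A)
  intro n
  rw [← Ideal.Quotient.eq, IsAdicComplete.mk_liftAlgHom, hfe]

include T in
/-- Uniqueness of the classifying map. -/
theorem map_unique
    (hπs : ∀ j, Function.Surjective (π j))
    (hπk : ∀ j, RingHom.ker (π j : R →+* T.D j) = maximalIdeal R ^ (j + 1))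
    (r : GQ →* M2 R) (hr : ∀ j σ, (r σ).map (π j) = T.s j σ)
    (hresA : Function.Surjective (residue A ∘ algebraMap 𝒪 A))
    (φ φ' : R →ₐ[𝒪] A) (h : ∀ σ, (r σ).map φ = (r σ).map φ') : φ = φ' := by
  apply IsAdicComplete.algHom_ext (maximalIdeal A)
  intro n
  cases n with
  | zero =>
    ext x
    have : Subsingleton (A ⧸ maximalIdeal A ^ 0) := by
      rw [pow_zero, Ideal.one_eq_top]
      exact Ideal.Quotient.subsingleton_iff.2 rfl
    exact Subsingleton.elim _ _
  | succ m =>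
    apply algHom_eq_of_entries T π hπs hπk r hr (H50.residue_surjective_quot 𝒪 A hresA m) m
      (H50.maximalIdeal_quot_pow A m)
    intro σ a b
    have := congrFun (congrFun (h σ) a) b
    simp only [Matrix.map_apply] at this
    rw [AlgHom.comp_apply, AlgHom.comp_apply, this]

include T in
/-- The universal property of the limit ring. -/
theorem universal_runiv [Finite (ResidueField 𝒪)]
    (h𝒟 : GaloisRep.IsDeformationCondition 𝒪 𝒟)
    (hπs : ∀ j, Function.Surjective (π j))
    (hπk : ∀ j, RingHom.ker (π j : R →+* T.D j) = maximalIdeal R ^ (j + 1))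
    (r : GQ →* M2 R) (hr : ∀ j σ, (r σ).map (π j) = T.s j σ) (hc : MatCont r)
    (hresA : Function.Surjective (residue A ∘ algebraMap 𝒪 A))
    (ρA : GaloisRepAdic A) (hD : 𝒟 ρA)
    (hres : ρA.residual.IsEquiv
      (ρbar.baseChangeAlong (ResidueField.map (algebraMap 𝒪 A)))) :
    ∃! φ : R →ₐ[𝒪] A, ∃ hφ : IsLocalHom (φ : R →+* A),
      ((ofMat r hc).baseChangeAlong (φ : R →+* A) hφ).IsEquiv ρA := by
  obtain ⟨r₀, hr₀, hl₀⟩ := exists_isLift_of_residual_isEquiv N.isMatOfRes ρA hres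
  obtain ⟨Tm, rA, hNorm, hconj⟩ := exists_isNorm_conj_of_complete N r₀ hl₀
  have hMat : IsMatOf ρA rA := by
    have h1 := hr₀.conj Tm
    have h2 : (fun σ => (Tm : M2 A) * r₀ σ * ((Tm⁻¹ : (M2 A)ˣ) : M2 A)) = fun σ => rA σ := by
      funext σ
      rw [hconj σ, mul_assoc, Units.mul_inv, mul_one]
    rwa [h2] at h1
  obtain ⟨φ, hφ⟩ := exists_map_of_isNorm T π h𝒟 hπs hπk r hr hresA ρA hD rA hMat hNorm
  have hloc : ∀ ψ : R →ₐ[𝒪] A, IsLocalHom (ψ : R →+* A) := isLocalHom_of_res_surj hresA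
  refine ⟨φ, ⟨hloc φ, ?_⟩, ?_⟩
  · rw [IsMatOf.isEquiv_iff ((isMatOf_ofMat r hc).baseChangeAlong (φ : R →+* A) (hloc φ)) hMat]
    refine ⟨1, fun σ => ?_⟩
    simp only [Units.val_one, one_mul, mul_one]
    exact hφ σ
  · rintro φ' ⟨hφ', he⟩
    rw [IsMatOf.isEquiv_iff ((isMatOf_ofMat r hc).baseChangeAlong (φ' : R →+* A) hφ') hMat] at he
    obtain ⟨g, hg⟩ := he
    have hN' : IsNorm N (_root_.Fermat.Agent.S53.Univ.mapHom (φ' : R →+* A) r) :=
      _root_.Fermat.Agent.S53.Univ.IsNorm.map φ' hφ' (isNorm_runiv T π hπk r hr)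
    have heq : _root_.Fermat.Agent.S53.Univ.mapHom (φ' : R →+* A) r = rA := IsNorm.eq_of_conj N hN' hNorm g hg
    apply map_unique T π hπs hπk r hr hresA
    intro σ
    rw [hφ σ, ← heq]
    rfl

/-- Final assembly, given the limit ring. -/
theorem nonempty_of_limit (𝒪 : Type) [CommRing 𝒪] [IsDomain 𝒪] [IsDiscreteValuationRing 𝒪]
    [IsAdicComplete (IsLocalRing.maximalIdeal 𝒪) 𝒪] [Finite (IsLocalRing.ResidueField 𝒪)]
    (ρbar : ResidualGaloisRep (IsLocalRing.ResidueField 𝒪))
    (𝒟 : ∀ ⦃A : Type⦄ [CommRing A] [IsLocalRing A] [Algebra 𝒪 A], GaloisRepAdic A → Prop)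
    (h𝒟 : GaloisRep.IsDeformationCondition 𝒪 𝒟) (habs : ρbar.IsAbsolutelyIrreducible)
    (N : NormData 𝒪 ρbar) (T : UnivTower 𝒪 𝒟 N)
    (R : Type) [CommRing R] [IsLocalRing R] [IsNoetherianRing R]
    [IsAdicComplete (maximalIdeal R) R] [Algebra 𝒪 R] [IsLocalHom (algebraMap 𝒪 R)]
    (π : ∀ j, R →ₐ[𝒪] T.D j)
    (hresR : Function.Surjective (residue R ∘ algebraMap 𝒪 R))
    (hπs : ∀ j, Function.Surjective (π j))
    (hπk : ∀ j, RingHom.ker (π j : R →+* T.D j) = maximalIdeal R ^ (j + 1))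
    (hπl : ∀ x : ∀ j, T.D j, (∀ j, T.u j (x (j + 1)) = x j) → ∃ r : R, ∀ j, π j r = x j) :
    Nonempty (GaloisRep.DeformationRingData 𝒪 ρbar 𝒟) := by
  obtain ⟨r, hr⟩ := exists_runiv T π hπk hπl
  have hc : MatCont r := matCont_runiv T π hπk r hr
  have hN : IsNorm N r := isNorm_runiv T π hπk r hr
  exact ⟨{ R := R
           residue_surjective := hresR
           absIrr := habs
           ρ := ofMat r hc
           isOfType := type_runiv T π h𝒟 hπs hπk hresR r hr hc
           residual_isEquiv := residual_isEquiv_of_isLift N.isMatOfRes (isMatOf_ofMat r hc) hN.1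
           universal := fun A _ _ _ _ _ _ hresA ρA hD hres =>
             universal_runiv T π h𝒟 hπs hπk r hr hc hresA ρA hD hres }⟩

end Universal

end Univ

end Fermat.Agent.S53

end
-- ==== END Fermat.Agent.S53.Univ

-- ==== BEGIN Fermat.Agent.S55.CFT.Defs_CF
section

set_option autoImplicit false

open NumberField TensorProduct CategoryTheory

noncomputable section

namespace Fermat.Agent.S55.CFT

variable (K L : Type) [Field K] [Field L] [NumberField K] [NumberField L] [Algebra K L]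

/-! ### Base change and norm on `T`-ideles -/

/-- The base change `J_{K,T} → J_{L,T}`. -/
def baseIdele (T : Finset Nat.Primes) : IdeleT K T →* IdeleT L T where
  toFun x := fun q => Units.map ((semiLocalMap K L q.1 : SemiLocal K q.1 →* SemiLocal L q.1)) (x q)
  map_one' := by funext q; simp
  map_mul' x y := by funext q; simp

/-- The norm `N_{L/K} : J_{L,T} → J_{L,T}`, `y ↦ ∏_{σ ∈ Gal(L/K)} σ y` (its values are
`Gal(L/K)`-invariant, i.e. lie in the image of `J_{K,T}` when `L/K` is Galois). -/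
def normIdele (T : Finset Nat.Primes) [Fintype (L ≃ₐ[K] L)] : IdeleT L T →* IdeleT L T where
  toFun y := ∏ σ : L ≃ₐ[K] L, σ • y
  map_one' := by simp
  map_mul' x y := by simp [smul_mul', Finset.prod_mul_distrib]

/-- The norm `N_{L/K} : J_{L,T} → J_{K,T}`, componentwise the norm of the `ℚ_q ⊗ K`-algebra
`ℚ_q ⊗ L` (free of rank `[L : K]`). -/
def normLK (T : Finset Nat.Primes) : IdeleT L T →* IdeleT K T where
  toFun y := fun q =>
    letI : Algebra (SemiLocal K q.1) (SemiLocal L q.1) := (semiLocalMap K L q.1).toRingHom.toAlgebra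
    Units.map (Algebra.norm (SemiLocal K q.1) : SemiLocal L q.1 →* SemiLocal K q.1) (y q)
  map_one' := by funext q; simp
  map_mul' x y := by funext q; simp

/-- The image of the `T`-units in the `T`-ideles. -/
def unitsInIdeles (T : Finset Nat.Primes) : Subgroup (IdeleT K T) :=
  (TUnits K T).map (diagIdele K T)

/-- The norm group `E_{K,T} · N_{L/K} J_{L,T} ≤ J_{K,T}`. -/
def normGroup (T : Finset Nat.Primes) : Subgroup (IdeleT K T) :=
  unitsInIdeles K T ⊔ (normLK K L T).range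

/-! ### The cyclotomic symbol -/

/-- The norm `J_{K,T} → J_{ℚ,T} = ∏_{q ∈ T} ℚ_qˣ`. -/
def normToQ (T : Finset Nat.Primes) : IdeleT K T →* (∀ q : T, (Qp q.1)ˣ) where
  toFun x := fun q => Units.map (Algebra.norm (Qp q.1) : SemiLocal K q.1 →* Qp q.1) (x q)
  map_one' := by funext q; simp
  map_mul' x y := by funext q; simp

/-- `q ≠ p`: the class of `q` in `(ℤ/p^M)ˣ`. -/
def primeUnit (p q : Nat.Primes) (M : ℕ) (h : q ≠ p) : (ZMod ((p : ℕ) ^ M))ˣ :=
  ZMod.unitOfCoprime (q : ℕ) (Nat.Coprime.pow_right M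
    ((Nat.coprime_primes q.2 p.2).2 (fun e => h (Subtype.ext e))))

/-- The valuation `ℚ_qˣ → ℤ` as a homomorphism to `Multiplicative ℤ`. -/
def valHom (q : Nat.Primes) : (Qp q)ˣ →* Multiplicative ℤ :=
  haveI := fact_primes q
  { toFun := fun x => Multiplicative.ofAdd (Padic.valuation (x : Qp q))
    map_one' := by simp
    map_mul' := fun x y => by
      simp only [Units.val_mul]
      rw [Padic.valuation_mul x.ne_zero y.ne_zero]
      rfl }

/-- The unit part `x ↦ x / p ^ v_p(x) ∈ ℤ_pˣ` of `x ∈ ℚ_pˣ`. -/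
def unitPart (p : Nat.Primes) (x : (Qp p)ˣ) :
    haveI := fact_primes p
    ℤ_[(p : ℕ)]ˣ :=
  haveI := fact_primes p
  PadicInt.mkUnits (u := (x : Qp p) * ((p : ℕ) : Qp p) ^ (-(Padic.valuation (x : Qp p)))) (by
    have hx : (x : Qp p) ≠ 0 := x.ne_zero
    have hp0 : ((p : ℕ) : ℝ) ≠ 0 := by exact_mod_cast p.2.ne_zero
    rw [norm_mul, norm_zpow, Padic.norm_p, Padic.norm_eq_zpow_neg_valuation hx, inv_zpow',
      neg_neg, ← zpow_add₀ hp0]
    simp)

/-- The local cyclotomic symbol at `q` on `ℚ_qˣ`, with values in `(ℤ/p^M)ˣ`: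
`x ↦ q ^ v_q(x)` for `q ≠ p`, and `x ↦ (x / p ^ v_p(x))⁻¹ mod p^M` for `q = p`. -/
def thetaLoc (p : Nat.Primes) (M : ℕ) (q : Nat.Primes) (x : (Qp q)ˣ) : (ZMod ((p : ℕ) ^ M))ˣ :=
  haveI := fact_primes p
  if h : q = p then
    (Units.map (PadicInt.toZModPow M : ℤ_[(p : ℕ)] →+* ZMod ((p : ℕ) ^ M)).toMonoidHom
      (unitPart p (h ▸ x)))⁻¹
  else
    haveI := fact_primes q
    primeUnit p q M h ^ (Padic.valuation (x : Qp q))

/-- The cyclotomic symbol on `ℚ`-ideles. -/
def thetaQ (p : Nat.Primes) (M : ℕ) (T : Finset Nat.Primes) (x : ∀ q : T, (Qp q.1)ˣ) :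
    (ZMod ((p : ℕ) ^ M))ˣ :=
  ∏ q : T, thetaLoc p M q.1 (x q)

/-- The cyclotomic symbol on `T`-ideles of `K`: `θ_K = θ_ℚ ∘ N_{K/ℚ}`.  For `ζ_p ∈ K` this is the
Artin symbol of `K(ζ_{p^M})/K` (Frobenius at `v ∤ p` is `N v`). -/
def cycloTheta (p : Nat.Primes) (M : ℕ) (T : Finset Nat.Primes) (x : IdeleT K T) :
    (ZMod ((p : ℕ) ^ M))ˣ :=
  thetaQ p M T (normToQ K T x)


/-! ### Admissibility for the cyclotomic auxiliary field -/

/-- `T` is admissible for `L(ζ_{p^M})/K` (model: `CyclotomicField (p ^ M) L`). -/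
def AdmissibleCyc (T : Finset Nat.Primes) (p M : ℕ) [NeZero (p ^ M)] : Prop :=
  Admissible K (CyclotomicField (p ^ M) L) T p

/-- The standing hypotheses of wave 2 on `(K, L, T, p, m, M)`: `p` odd, `ζ_p ∈ K`,
`[L : K] = p ^ m`, `[K(ζ_{p^M}) : K]` is divisible by `p ^ m`, and `T` is admissible for `L/K`,
for `L(ζ_{p^M})/K` and for `K(ζ_{p^M})/K`.  (Admissibility is monotone in `T`, so consumers get
all three from `Stmt_AdmissibleExists` applied three times.) -/
structure Hyp2 (T : Finset Nat.Primes) (p m M : ℕ) [NeZero (p ^ M)] : Prop where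
  prime : p.Prime
  odd : p ≠ 2
  zeta : ∃ ζ : K, IsPrimitiveRoot ζ p
  deg : Module.finrank K L = p ^ m
  big : p ^ m ∣ Module.finrank K (CyclotomicField (p ^ M) K)
  adm : Admissible K L T p
  admCyc : AdmissibleCyc K L T p M
  admCycK : Admissible K (CyclotomicField (p ^ M) K) T p

/-- **ADM-MONO** (admissibility is monotone in `T`). -/
def Stmt_AdmissibleMono : Prop :=
  ∀ (p : ℕ) (K L : Type) [Field K] [Field L] [NumberField K] [NumberField L] [Algebra K L]
    (T T' : Finset Nat.Primes), T ⊆ T' → Admissible K L T p → Admissible K L T' p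

/-- **HYP2-EX** (the standing hypotheses can always be arranged): for a Galois extension `L/K` of
degree `p ^ m`, `p` odd, `ζ_p ∈ K`, every finite set `T₀` of primes and every `M₀` there are
`M ≥ M₀` and `T ⊇ T₀` with `Hyp2 K L T p m M`.
(`K` is totally complex because `ζ_p ∈ K`; `[K(ζ_{p^M}) : K]` is a power of `p` which tends to
infinity; `Stmt_AdmissibleExists` three times and `Stmt_AdmissibleMono`.) -/
def Stmt_Hyp2Exists : Prop :=
  ∀ (p m : ℕ) (K L : Type) [Field K] [Field L] [NumberField K] [NumberField L] [Algebra K L]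
    (T₀ : Finset Nat.Primes) (M₀ : ℕ), p.Prime → p ≠ 2 → (∃ ζ : K, IsPrimitiveRoot ζ p) →
    IsGalois K L → Module.finrank K L = p ^ m →
    ∃ (M : ℕ) (_ : NeZero (p ^ M)) (T : Finset Nat.Primes),
      M₀ ≤ M ∧ T₀ ⊆ T ∧ Hyp2 K L T p m M

/-! ### Statements: descent, units, norm index -/

/-- **DESC** (Galois descent for `T`-ideles): for `L/K` Galois, `J_{K,T} → J_{L,T}` is injective
with image the `Gal(L/K)`-invariants, and `N_{L/K}` composed with it is `∏_σ σ`. -/
def Stmt_Descent : Prop :=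
  ∀ (K L : Type) [Field K] [Field L] [NumberField K] [NumberField L] [Algebra K L]
    (T : Finset Nat.Primes), IsGalois K L →
    Function.Injective (baseIdele K L T) ∧
    (∀ y : IdeleT L T, (∀ σ : L ≃ₐ[K] L, σ • y = y) → ∃ x, baseIdele K L T x = y) ∧
    ∀ y : IdeleT L T, ∃ _ : Fintype (L ≃ₐ[K] L),
      baseIdele K L T (normLK K L T y) = normIdele K L T y

/-- **NT** (transitivity of norms): `N_{K/ℚ} ∘ N_{L/K} = N_{L/ℚ}` on `T`-ideles. -/
def Stmt_NormTrans : Prop :=
  ∀ (K L : Type) [Field K] [Field L] [NumberField K] [NumberField L] [Algebra K L]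
    (T : Finset Nat.Primes) (y : IdeleT L T), normToQ K T (normLK K L T y) = normToQ L T y

/-- **H1E** (`H¹` of the `T`-units vanishes): for admissible `(K, L, T)`,
`H¹(Gal(L/K), O_{L,T}ˣ) = 0`.  (`1 → E → Lˣ → I_T → 1`, Hilbert 90, `I_T^G = I_{K,T}` since `L/K`
is unramified outside `T`, `Kˣ → I_{K,T}` onto since `Cl_T(K) = 1`.) -/
def Stmt_H1Units : Prop :=
  ∀ (p : ℕ) (K L : Type) [Field K] [Field L] [NumberField K] [NumberField L] [Algebra K L]
    (T : Finset Nat.Primes), Admissible K L T p →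
    Subsingleton (groupCohomology (repE K L T) 1)

/-- **H2I** (`H²` of the class module is the norm index): for `L/K` cyclic, admissible,
`#H²(G, C_{L,T}) = [J_{K,T} : E_{K,T} N J_{L,T}]`.
(Cyclic: `H² ≅ C^G/N C`, helper12's `H12.card_even`; `C^G = J_K/E_K` by DESC + H1E.) -/
def Stmt_H2Index : Prop :=
  ∀ (p : ℕ) (K L : Type) [Field K] [Field L] [NumberField K] [NumberField L] [Algebra K L]
    (T : Finset Nat.Primes), Admissible K L T p → IsCyclic (L ≃ₐ[K] L) →
    Nat.card (groupCohomology (repC K L T) 2) = (normGroup K L T).index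

/-- **SI''** (second inequality, index form, any degree): for `L/K` Galois, admissible, the norm
group has finite index `≤ [L : K]`.  (From helper31's `Stmt_T2m`; see `Stmt_SIidelic`.) -/
def Stmt_SIindex : Prop :=
  ∀ (p : ℕ) (K L : Type) [Field K] [Field L] [NumberField K] [NumberField L] [Algebra K L]
    (T : Finset Nat.Primes), Admissible K L T p →
    (normGroup K L T).index ≠ 0 ∧ (normGroup K L T).index ≤ Module.finrank K L

/-! ### Statements: the cyclotomic symbol -/

/-- **TH-1** (product formula): `θ_K` is trivial on the `T`-units, for `p ∈ T` and `K` totally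
complex (the norm of a `T`-unit is a positive `T`-unit of `ℚ`). -/
def Stmt_ThetaUnits : Prop :=
  ∀ (p : Nat.Primes) (M : ℕ) (K : Type) [Field K] [NumberField K] (T : Finset Nat.Primes),
    p ∈ T → IsTotallyComplex K →
    ∀ e ∈ TUnits K T, cycloTheta K p M T (diagIdele K T e) = 1

/-- **TH-2** (norms from a field containing `ζ_{p^M}`): if `L` contains a primitive `p^M`-th root
of unity, `p` odd, then `θ_L = 1`.  (Local: for `q ≠ p` the valuation of a norm from
`ℚ_q ⊗ ℚ(ζ_{p^M})` is divisible by the order of `q` mod `p^M`; for `q = p` the unit part of a norm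
from `ℚ_p(ζ_{p^M})` is `≡ 1 mod p^M`.) -/
def Stmt_ThetaNorm : Prop :=
  ∀ (p : Nat.Primes) (M : ℕ) (L : Type) [Field L] [NumberField L] (T : Finset Nat.Primes),
    (p : ℕ) ≠ 2 → (∃ ζ : L, IsPrimitiveRoot ζ ((p : ℕ) ^ M)) →
    ∀ y : IdeleT L T, cycloTheta L p M T y = 1

/-- **TH-3** (the symbol is onto the Galois group): for `L = K(ζ_{p^M})`, `T` admissible, the
image of `θ_K` on `J_{K,T}` has at least `[L : K]` elements.
(`Cl_T(K) = 1` and TH-1 for `T ∪ {q}`: `N v ∈ θ(J_{K,T})` for every prime `v ∉ T`; every element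
of `Gal(L/K)` is a Frobenius, helper31's `stmt_FD_rel`.) -/
def Stmt_ThetaOnto : Prop :=
  ∀ (p : Nat.Primes) (M : ℕ) (K L : Type) [Field K] [Field L] [NumberField K] [NumberField L]
    [Algebra K L] (T : Finset Nat.Primes), (p : ℕ) ≠ 2 →
    IsCyclotomicExtension {(p : ℕ) ^ M} K L → Admissible K L T p →
    Module.finrank K L ≤ Nat.card (Set.range (cycloTheta K p M T))

/-- **CYC** (reciprocity for `K(ζ_{p^M})/K`): for `L = K(ζ_{p^M})`, `T` admissible, an idele of
`K` is in the norm group iff its cyclotomic symbol is trivial.  Hence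
`J_{K,T}/E_{K,T} N J_{L,T} ↪ (ℤ/p^M)ˣ` is cyclic of order `[L : K]`.
(`⟸` of the iff: TH-1, TH-2, NT; `⟹`: SI'' and TH-3, counting.) -/
def Stmt_CycRec : Prop :=
  ∀ (p : Nat.Primes) (M : ℕ) (K L : Type) [Field K] [Field L] [NumberField K] [NumberField L]
    [Algebra K L] (T : Finset Nat.Primes), (p : ℕ) ≠ 2 →
    IsCyclotomicExtension {(p : ℕ) ^ M} K L → Admissible K L T p →
    ∀ x : IdeleT K T, x ∈ normGroup K L T ↔ cycloTheta K p M T x = 1

/-! ### Statements: the class formation -/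

/-- **CF-ind** (induction from the cyclic layers): for an admissible `p`-extension and every
subgroup `H`: `H¹(H, C) = 0` and `#H²(H, C)` divides `#H`.
(`Stmt_CFcyc`, inflation–restriction in degrees 1 and 2, `C^N = C_{L^N,T}` by DESC + H1E.) -/
def Stmt_CFind : Prop :=
  ∀ (p m : ℕ) (K L : Type) [Field K] [Field L] [NumberField K] [NumberField L] [Algebra K L]
    (T : Finset Nat.Primes), p.Prime → Module.finrank K L = p ^ m → Admissible K L T p →
    ∀ H : Subgroup (L ≃ₐ[K] L),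
      Subsingleton (groupCohomology (resSub (repC K L T) H) 1) ∧
      Finite (groupCohomology (resSub (repC K L T) H) 2) ∧
      Nat.card (groupCohomology (resSub (repC K L T) H) 2) ∣ Nat.card H

/-- **FUND** (a class of full order): under `Hyp2`, `H²(G, C_{L,T})` contains an element of order
`[L : K]`.  (Tate's argument: `L' = K(ζ_{p^M})`, `N = L L'`; a class `c'` of order `[L : K]` in
`H²(L'/K, C) = C_K/N C_{L'}` (CYC); its inflation to `N/K` restricts to `0` on `N/L` because
`θ_L(a) = θ_K(a)^{[L:K]}` for `a ∈ C_K` and CYC for `N/L`; inflation–restriction.) -/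
def Stmt_FundExists : Prop :=
  ∀ (p m M : ℕ) [NeZero (p ^ M)] (K L : Type) [Field K] [Field L] [NumberField K] [NumberField L]
    [Algebra K L] (T : Finset Nat.Primes), Hyp2 K L T p m M →
    ∃ γ : groupCohomology (repC K L T) 2, ∀ k : ℕ, k • γ = 0 → p ^ m ∣ k

/-- **COR** (corestriction): for a subgroup `H` of a finite group `G` there is
`cor : Hⁿ(H, A) → Hⁿ(G, A)` with `cor ∘ res = [G : H]`. -/
def Stmt_CorRes : Prop :=
  ∀ (G : Type) [Group G] [Finite G] (A : Rep ℤ G) (H : Subgroup G) (n : ℕ),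
    ∃ cor : groupCohomology (resSub A H) n →ₗ[ℤ] groupCohomology A n,
      ∀ x : groupCohomology A n, cor (resMap A H n x) = H.index • x

/-- **CF-G'** (class formation on `p`-extensions, the form that is used): under `Hyp2` there is
a fundamental class `γ` as in `Stmt_CFp`.  (CF-ind + FUND + COR.)  With `Stmt_TateH3` this gives
`H³(H, C_{L,T}) = 0` for all `H`. -/
def Stmt_CFp' : Prop :=
  ∀ (p m M : ℕ) [NeZero (p ^ M)] (K L : Type) [Field K] [Field L] [NumberField K] [NumberField L]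
    [Algebra K L] (T : Finset Nat.Primes), Hyp2 K L T p m M →
    ∃ γ : groupCohomology (repC K L T) 2,
      (∀ H : Subgroup (L ≃ₐ[K] L), Subsingleton (groupCohomology (resSub (repC K L T) H) 1)) ∧
      ∀ H : Subgroup (L ≃ₐ[K] L),
        Nat.card (groupCohomology (resSub (repC K L T) H) 2) = Nat.card H ∧
        ∀ x : groupCohomology (resSub (repC K L T) H) 2,
          ∃ n : ℤ, x = n • resMap (repC K L T) H 2 γ

end Fermat.Agent.S55.CFT

end
end
-- ==== END Fermat.Agent.S55.CFT.Defs_CF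

-- ==== BEGIN Fermat.Agent.S55.CFT.GS.H56_CycInf
section

set_option autoImplicit false
set_option linter.unusedSectionVars false
set_option linter.unusedVariables false

noncomputable section

namespace Fermat.Agent.S55.CFT.GS.H56

open CategoryTheory groupCohomology Fermat.Agent.S55.CFT.H13 Fermat.Agent.S55.CFT.H19

variable {Δ Δ' : Type} [Group Δ] [Group Δ'] (A : Rep.{0} ℤ Δ') (B : Rep.{0} ℤ Δ)
  {σ : Δ} {n : ℕ} {e : Δ → ℕ} {σ' : Δ'} {n' : ℕ} {e' : Δ' → ℕ}

lemma dlog_map (h : DLog Δ σ n e) (h' : DLog Δ' σ' n' e') (f : Δ →* Δ') (hf : f σ = σ')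
    (g : Δ) : e' (f g) = e g % n' := by
  conv_lhs => rw [← h.pow g, map_pow, hf]
  exact h'.e_pow _

/-- The arithmetic of the two floor functions. -/
lemma floor_identity (n n' d : ℕ) (hn' : 0 < n') (hd : n = d * n') (i j : ℕ) :
    (i % n' + j % n') / n' + i / n' + j / n' = d * ((i + j) / n) + ((i + j) % n) / n' := by
  have h1 : (i + j) / n' = (i / n' + j / n') + (i % n' + j % n') / n' := by
    have e3 : i + j = n' * (i / n' + j / n') + (i % n' + j % n') := by
      have e1 := Nat.div_add_mod i n'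
      have e2 := Nat.div_add_mod j n'
      rw [Nat.mul_add]
      omega
    conv_lhs => rw [e3]
    exact Nat.mul_add_div hn' _ _
  have h2 : (i + j) / n' = d * ((i + j) / n) + ((i + j) % n) / n' := by
    have e3 : i + j = n' * (d * ((i + j) / n)) + (i + j) % n := by
      have e1 := Nat.div_add_mod (i + j) n
      calc i + j = n * ((i + j) / n) + (i + j) % n := e1.symm
        _ = n' * (d * ((i + j) / n)) + (i + j) % n := by rw [hd]; ring
    conv_lhs => rw [e3]
    exact Nat.mul_add_div hn' _ _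
  rw [← h2, h1]
  ring

/-- **The inflation formula**: `inf [cyc_{Δ'} a] = d • [cyc_Δ (φ a)]`. -/
theorem inf_cycCl (h : DLog Δ σ n e) (h' : DLog Δ' σ' n' e') (f : Δ →* Δ') (hf : f σ = σ')
    (d : ℕ) (hd : n = d * n') (φ : Rep.res f A ⟶ B) (a : A.V) (ha : ∀ g, A.ρ g a = a)
    (ha' : ∀ g, B.ρ g (φ.hom a) = φ.hom a) :
    (groupCohomology.map f φ 2).hom (cycCl A h' a ha) = d • cycCl B h (φ.hom a) ha' := by
  unfold cycCl
  have e1 := H2π_comp_map_apply f φ ⟨cyc A n' e' a, cyc_mem_cocycles₂ A h' a ha⟩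
  rw [e1, ← map_nsmul, H2π_eq_iff]
  refine ⟨fun g => -((e g / n') • φ.hom a), ?_⟩
  funext p
  obtain ⟨g, g'⟩ := p
  show B.ρ g (-((e g' / n') • φ.hom a)) - -((e (g * g') / n') • φ.hom a) +
      -((e g / n') • φ.hom a) =
    φ.hom (((e' (f g) + e' (f g')) / n') • a) - d • (((e g + e g') / n) • φ.hom a)
  rw [map_neg, map_nsmul, ha', map_nsmul, dlog_map h h' f hf g, dlog_map h h' f hf g',
    h.e_mul g g']
  have key := floor_identity n n' d h'.pos hd (e g) (e g')
  have key2 : ((e g % n' + e g' % n') / n') • φ.hom a + (e g / n') • φ.hom a +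
      (e g' / n') • φ.hom a =
      d • (((e g + e g') / n) • φ.hom a) + (((e g + e g') % n) / n') • φ.hom a := by
    rw [← add_nsmul, ← add_nsmul, key, add_nsmul, mul_nsmul']
  have key3 : ((e g % n' + e g' % n') / n') • φ.hom a =
      d • (((e g + e g') / n) • φ.hom a) + (((e g + e g') % n) / n') • φ.hom a -
        (e g / n') • φ.hom a - (e g' / n') • φ.hom a := by
    rw [← key2]
    abel
  rw [key3]
  abel

end Fermat.Agent.S55.CFT.GS.H56

end
end
-- ==== END Fermat.Agent.S55.CFT.GS.H56_CycInf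

-- ==== BEGIN Fermat.Agent.S55.CFT.H12_CyclicBridge
section

set_option autoImplicit false

namespace Fermat.Agent.S55.CFT.H12

open CategoryTheory groupCohomology

section general

variable {k : Type} [CommRing k]

/-- The cardinality of the homology of a short complex of modules as a relative index. -/
theorem card_moduleCat_homology (S : ShortComplex (ModuleCat.{0} k)) :
    Nat.card S.homology =
      (LinearMap.range S.f.hom).toAddSubgroup.relIndex (LinearMap.ker S.g.hom).toAddSubgroup := by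
  rw [Nat.card_congr S.moduleCatHomologyIso.toLinearEquiv.toEquiv]
  rw [AddSubgroup.relIndex, AddSubgroup.index]
  have : ((LinearMap.range S.f.hom).toAddSubgroup).addSubgroupOf
      (LinearMap.ker S.g.hom).toAddSubgroup
      = (LinearMap.range S.moduleCatToCycles).toAddSubgroup := by
    ext ⟨x, hx⟩
    simp only [AddSubgroup.mem_addSubgroupOf, Submodule.mem_toAddSubgroup, LinearMap.mem_range]
    constructor
    · rintro ⟨y, hy⟩
      exact ⟨y, Subtype.ext hy⟩
    · rintro ⟨y, hy⟩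
      exact ⟨y, congrArg Subtype.val hy⟩
  rw [this]
  rfl

end general

section comm

variable {k G : Type} [CommRing k] [CommGroup G] [Fintype G] (A : Rep.{0} k G) (g : G)
  (hg : ∀ x, x ∈ Subgroup.zpowers g)

include hg

/-- `#Hⁱ(G, A) = [ker (ρ g - 1) : range N]` for even `i > 0`. -/
theorem card_even_comm (i : ℕ) [NeZero i] (hi : Even i) :
    Nat.card (groupCohomology A i) =
      (LinearMap.range A.ρ.norm).toAddSubgroup.relIndex
        (LinearMap.ker (A.ρ g - 1)).toAddSubgroup := by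
  rw [Nat.card_congr (Rep.FiniteCyclicGroup.groupCohomologyIsoEven A g hg i hi).toLinearEquiv.toEquiv,
    card_moduleCat_homology]
  rfl

/-- `#Hⁱ(G, A) = [ker N : range (ρ g - 1)]` for odd `i`. -/
theorem card_odd_comm (i : ℕ) (hi : Odd i) :
    Nat.card (groupCohomology A i) =
      (LinearMap.range (A.ρ g - 1)).toAddSubgroup.relIndex
        (LinearMap.ker A.ρ.norm).toAddSubgroup := by
  rw [Nat.card_congr (Rep.FiniteCyclicGroup.groupCohomologyIsoOdd A g hg i hi).toLinearEquiv.toEquiv,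
    card_moduleCat_homology]
  rfl

end comm

section cyclic

variable {k G : Type} [CommRing k] [Group G] [Fintype G] (A : Rep.{0} k G) (g : G)
  (hg : ∀ x, x ∈ Subgroup.zpowers g)

include hg

/-- `#Hⁱ(G, A) = [ker (ρ g - 1) : range N]` for even `i > 0`, `G` cyclic generated by `g`. -/
theorem card_even (i : ℕ) [NeZero i] (hi : Even i) :
    Nat.card (groupCohomology A i) =
      (LinearMap.range A.ρ.norm).toAddSubgroup.relIndex
        (LinearMap.ker (A.ρ g - 1)).toAddSubgroup := by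
  have : IsCyclic G := ⟨g, hg⟩
  let _ : CommGroup G := IsCyclic.commGroup
  exact card_even_comm A g hg i hi

/-- `#Hⁱ(G, A) = [ker N : range (ρ g - 1)]` for odd `i`, `G` cyclic generated by `g`. -/
theorem card_odd (i : ℕ) (hi : Odd i) :
    Nat.card (groupCohomology A i) =
      (LinearMap.range (A.ρ g - 1)).toAddSubgroup.relIndex
        (LinearMap.ker A.ρ.norm).toAddSubgroup := by
  have : IsCyclic G := ⟨g, hg⟩
  let _ : CommGroup G := IsCyclic.commGroup
  exact card_odd_comm A g hg i hi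

end cyclic

section herbrand

open Fermat.Agent.S14.H62

variable {k G : Type} [CommRing k] [Group G] [Fintype G] (A : Rep.{0} k G) (g : G)
  (hg : ∀ x, x ∈ Subgroup.zpowers g)

include hg

/-- For `G` cyclic of order `p` generated by `g`: the norm is `∑ i < p, (ρ g)^i`. -/
theorem norm_eq_sum_pow (p : ℕ) (hp : Nat.card G = p) :
    A.ρ.norm = ∑ i ∈ Finset.range p, (A.ρ g) ^ i := by
  classical
  have hord : orderOf g = p := by
    rw [orderOf_eq_card_of_forall_mem_zpowers hg, hp]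
  unfold Representation.norm
  rw [← IsCyclic.image_range_orderOf hg, hord, Finset.sum_image]
  · refine Finset.sum_congr rfl (fun i _ => ?_)
    rw [map_pow]
  · intro i hi j hj hij
    rw [← hord] at hi hj
    exact pow_injOn_Iio_orderOf (by simpa using hi) (by simpa using hj) hij

end herbrand

end Fermat.Agent.S55.CFT.H12

end
-- ==== END Fermat.Agent.S55.CFT.H12_CyclicBridge
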