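-- GENERATED (merged mirror, NOTES/tools/trim/merge3_helper67.py): 12 modules of the originals, bodies verbatim.
import Mathlib
import Fermat.Agent.Zm.S56_L03_001
import Fermat.Agent.Zm.S56_L03_002
import Fermat.Agent.Zm.S56_L01_001
import Fermat.Agent.Zm.S56_L03_003
import Fermat.Agent.Zm.S56_L01_003

-- ==== BEGIN Fermat.Agent.S55.CFT.H56_AdmSub
section

set_option autoImplicit false
set_option linter.style.haveILetI false

open NumberField TensorProduct

noncomputable section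
namespace Fermat.Agent.S55.CFT.H56

open Fermat.Agent.S55.CFT

/-- Trivial inertia in `Gal(N/K)` at `Q` gives trivial inertia in `Gal(F/K)` at `Q ∩ 𝓞 F`. -/
lemma inertia_under_eq_bot (K F N : Type) [Field K] [Field F] [Field N] [NumberField K]
    [NumberField F] [NumberField N] [Algebra K F] [Algebra F N] [Algebra K N]
    [IsScalarTower K F N] [IsGalois K F] [IsGalois K N] (Q : Ideal (𝓞 N)) [hQ : Q.IsPrime]
    (hin : Q.inertia (N ≃ₐ[K] N) = ⊥) :
    (Q.under (𝓞 F)).inertia (F ≃ₐ[K] F) = ⊥ := by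
  set P : Ideal (𝓞 F) := Q.under (𝓞 F) with hP
  haveI : Q.LiesOver P := ⟨rfl⟩
  haveI : P.LiesOver (P.under (𝓞 K)) := ⟨rfl⟩
  haveI : Q.LiesOver (P.under (𝓞 K)) := Ideal.LiesOver.trans Q P (P.under (𝓞 K))
  have hGN : IsGaloisGroup (N ≃ₐ[K] N) (𝓞 K) (𝓞 N) := IsGaloisGroup.of_isFractionRing _ _ _ K N
  have hGF : IsGaloisGroup (F ≃ₐ[K] F) (𝓞 K) (𝓞 F) := IsGaloisGroup.of_isFractionRing _ _ _ K F
  have key := Ideal.card_inertia_eq_ramificationIdxIn (G := N ≃ₐ[K] N) (P.under (𝓞 K)) Q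
  rw [hin, Subgroup.card_bot,
    Ideal.ramificationIdxIn_eq_ramificationIdx (P.under (𝓞 K)) Q (N ≃ₐ[K] N)] at key
  have h1 : P.ramificationIdx (𝓞 K) ∣ Q.ramificationIdx (𝓞 K) :=
    Ideal.ramificationIdx_below_dvd (R := 𝓞 K) (S := 𝓞 F) (T := 𝓞 N) P Q
  rw [← key, Nat.dvd_one] at h1
  have key2 := Ideal.card_inertia_eq_ramificationIdxIn (G := F ≃ₐ[K] F) (P.under (𝓞 K)) P
  rw [Ideal.ramificationIdxIn_eq_ramificationIdx (P.under (𝓞 K)) P (F ≃ₐ[K] F), h1] at key2
  exact Subgroup.card_eq_one.mp key2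

/-- **T6 / ADM-SUB** (helper13): admissibility passes from `N/K` to `F/K` for an intermediate
field `F`, Galois over `K`. -/
theorem admissible_sub (K F N : Type) [Field K] [Field F] [Field N] [NumberField K]
    [NumberField F] [NumberField N] [Algebra K F] [Algebra F N] [Algebra K N]
    [IsScalarTower K F N] (T : Finset Nat.Primes) (p : ℕ) [IsGalois K F]
    (h : Admissible K N T p) : Admissible K F T p := by
  haveI := h.gal
  refine ⟨inferInstance, h.cplx, h.pmem, ?_, ?_⟩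
  · intro P hP hP0 hT
    -- a prime of `N` above `P`
    obtain ⟨Q, -, hQp, hQP⟩ := Ideal.exists_ideal_over_prime_of_isIntegral P (⊥ : Ideal (𝓞 N))
      (by simp)
    have hQu : Q.under (𝓞 F) = P := hQP
    have hQ0 : Q ≠ ⊥ := by
      rintro rfl
      apply hP0
      rw [← hQu]
      exact Ideal.under_bot (𝓞 F) (𝓞 N)
    have hQT : ∀ q ∈ T, (((q : ℕ) : ℤ) : 𝓞 N) ∉ Q := by
      intro q hq hmem
      apply hT q hq
      rw [← hQu, Ideal.under_def, Ideal.mem_comap]
      simpa using hmem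
    have := inertia_under_eq_bot K F N Q (h.unr Q hQp hQ0 hQT)
    rwa [hQu] at this
  · intro F' _ _ _ _ _
    letI : Algebra F' N := ((algebraMap F N).comp (algebraMap F' F)).toAlgebra
    haveI : IsScalarTower K F' N := IsScalarTower.of_algebraMap_eq (fun x => by
      rw [RingHom.algebraMap_toAlgebra, RingHom.comp_apply,
        ← IsScalarTower.algebraMap_apply K F' F, ← IsScalarTower.algebraMap_apply K F N])
    exact h.cl F'

end Fermat.Agent.S55.CFT.H56

end
end
-- ==== END Fermat.Agent.S55.CFT.H56_AdmSub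

-- ==== BEGIN Fermat.Agent.S55.CFT.H56_Hyp2
section

set_option autoImplicit false
set_option linter.style.haveILetI false

open NumberField TensorProduct

noncomputable section
namespace Fermat.Agent.S55.CFT.H56

open Fermat.Agent.S55.CFT

/-! ### Monotonicity -/

lemma prodT_dvd_of_subset {T T' : Finset Nat.Primes} (h : T ⊆ T') : prodT T ∣ prodT T' :=
  Finset.prod_dvd_prod_of_subset _ _ _ h

lemma clTrivial_mono (F : Type) [Field F] [NumberField F] {T T' : Finset Nat.Primes}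
    (hTT : T ⊆ T') (h : ClTrivial F T) : ClTrivial F T' := by
  intro I hI
  obtain ⟨a, b, J, n, ha, hb, hJ, hab⟩ := h I hI
  refine ⟨a, b, J, n, ha, hb, hJ.trans ?_, hab⟩
  apply pow_dvd_pow_of_dvd
  obtain ⟨c, hc⟩ := prodT_dvd_of_subset hTT
  refine ⟨Ideal.span {((c : ℤ) : 𝓞 F)}, ?_⟩
  rw [Ideal.span_singleton_mul_span_singleton, hc]
  push_cast
  rfl

/-- **ADM-MONO**. -/
theorem stmt_AdmissibleMono : Stmt_AdmissibleMono := by
  intro p K L _ _ _ _ _ T T' hTT h
  refine ⟨h.gal, h.cplx, ?_, ?_, ?_⟩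
  · obtain ⟨q, hq, hqp⟩ := h.pmem
    exact ⟨q, hTT hq, hqp⟩
  · intro P hP hP0 hT
    exact h.unr P hP hP0 (fun q hq => hT q (hTT hq))
  · intro F _ _ _ _ _
    exact clTrivial_mono F hTT (h.cl F)

/-! ### The degree of `K(ζ_{p^M})/K` -/

/-- The kernel of `(ℤ/p^M)ˣ → (ℤ/p)ˣ` has `p^(M-1)` elements. -/
lemma card_ker_unitsMap (p : ℕ) (hp : p.Prime) (M : ℕ) (hM : 0 < M) :
    Nat.card (ZMod.unitsMap (dvd_pow_self p hM.ne') : (ZMod (p ^ M))ˣ →* (ZMod p)ˣ).ker =
      p ^ (M - 1) := by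
  haveI : NeZero (p ^ M) := ⟨pow_ne_zero _ hp.ne_zero⟩
  haveI : NeZero p := ⟨hp.ne_zero⟩
  set f := (ZMod.unitsMap (dvd_pow_self p hM.ne') : (ZMod (p ^ M))ˣ →* (ZMod p)ˣ)
  have hsurj : Function.Surjective f := ZMod.unitsMap_surjective _
  have h1 : Nat.card f.ker * f.ker.index = Nat.card (ZMod (p ^ M))ˣ := Subgroup.card_mul_index _
  have h2 : f.ker.index = Nat.card (ZMod p)ˣ := by
    rw [Subgroup.index_ker, MonoidHom.range_eq_top.2 hsurj]
    exact Nat.card_congr Subgroup.topEquiv.toEquiv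
  have h3 : Nat.card (ZMod p)ˣ = p - 1 := by
    rw [Nat.card_eq_fintype_card, ZMod.card_units_eq_totient, Nat.totient_prime hp]
  have h4 : Nat.card (ZMod (p ^ M))ˣ = p ^ (M - 1) * (p - 1) := by
    rw [Nat.card_eq_fintype_card, ZMod.card_units_eq_totient, Nat.totient_prime_pow hp hM]
  rw [h2, h3, h4] at h1
  have hp1 : 0 < p - 1 := Nat.sub_pos_of_lt hp.one_lt
  exact Nat.eq_of_mul_eq_mul_right hp1 h1


/-- If `ζ_p ∈ K` then `[K(ζ_{p^M}) : K]` divides `p^(M-1)`. -/
lemma finrank_cyclo_dvd (p : ℕ) (hp : p.Prime) (M : ℕ) (hM : 0 < M) (K N : Type) [Field K]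
    [Field N] [NumberField K] [Algebra K N] [hcyc : IsCyclotomicExtension {p ^ M} K N]
    (hζ : ∃ ζ : K, IsPrimitiveRoot ζ p) : Module.finrank K N ∣ p ^ (M - 1) := by
  classical
  haveI : NeZero (p ^ M) := ⟨pow_ne_zero _ hp.ne_zero⟩
  haveI : NeZero p := ⟨hp.ne_zero⟩
  haveI : IsGalois K N := IsCyclotomicExtension.isGalois {p ^ M} K N
  haveI : FiniteDimensional K N := IsCyclotomicExtension.finiteDimensional {p ^ M} K N
  obtain ⟨ζ0, hζ0⟩ := hζ
  obtain ⟨ζ, hζ⟩ := IsCyclotomicExtension.exists_isPrimitiveRoot K N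
    (Set.mem_singleton (p ^ M)) (NeZero.ne _)
  set f := (ZMod.unitsMap (dvd_pow_self p hM.ne') : (ZMod (p ^ M))ˣ →* (ZMod p)ˣ) with hf
  -- the character lands in the kernel
  have hker : ∀ σ : N ≃ₐ[K] N, hζ.autToPow K σ ∈ f.ker := by
    intro σ
    set a : ℕ := ((hζ.autToPow K σ : (ZMod (p ^ M))ˣ) : ZMod (p ^ M)).val with ha
    have hspec : ζ ^ a = σ ζ := hζ.autToPow_spec K σ
    have hpM : p ^ M = p ^ (M - 1) * p := by
      rw [← pow_succ, Nat.sub_add_cancel hM]
    have hη : IsPrimitiveRoot (ζ ^ (p ^ (M - 1))) p :=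
      hζ.pow (Nat.pos_of_ne_zero (NeZero.ne _)) hpM
    -- `η` comes from `K`
    have hη0 : IsPrimitiveRoot (algebraMap K N ζ0) p :=
      hζ0.map_of_injective (algebraMap K N).injective
    obtain ⟨i, -, hi⟩ := hη0.eq_pow_of_pow_eq_one hη.pow_eq_one
    have hfix : σ (ζ ^ (p ^ (M - 1))) = ζ ^ (p ^ (M - 1)) := by
      rw [← hi, map_pow, σ.commutes]
    rw [map_pow, ← hspec, ← pow_mul, mul_comm, pow_mul] at hfix
    -- `η ^ a = η`, so `a ≡ 1 mod p`
    have hmod : a ≡ 1 [MOD p] := by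
      have h1 : (ζ ^ (p ^ (M - 1))) ^ a = (ζ ^ (p ^ (M - 1))) ^ 1 := by rw [hfix, pow_one]
      obtain ⟨u, hu⟩ := hη.isUnit hp.ne_zero
      have hupow : u ^ a = u ^ 1 := Units.ext (by simp [hu, hfix])
      have hord : orderOf u = p := by
        rw [← orderOf_units, hu]
        exact hη.eq_orderOf.symm
      have := pow_eq_pow_iff_modEq.1 hupow
      rwa [hord] at this
    rw [MonoidHom.mem_ker]
    apply Units.ext
    rw [hf, ZMod.unitsMap_val, Units.val_one]
    have h2 : ((hζ.autToPow K σ : (ZMod (p ^ M))ˣ) : ZMod (p ^ M)) = (a : ZMod (p ^ M)) := by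
      rw [ha, ZMod.natCast_val, ZMod.cast_id', id]
    rw [h2, ZMod.cast_natCast (dvd_pow_self p hM.ne')]
    have := (ZMod.natCast_eq_natCast_iff a 1 p).2 hmod
    simpa using this
  let g : (N ≃ₐ[K] N) →* f.ker := (hζ.autToPow K).codRestrict f.ker hker
  have hg : Function.Injective g := by
    intro σ τ h
    apply IsPrimitiveRoot.autToPow_injective K hζ
    exact congrArg (fun z : f.ker => (z : (ZMod (p ^ M))ˣ)) h
  have := Subgroup.card_dvd_of_injective g hg
  rwa [card_ker_unitsMap p hp M hM, IsGalois.card_aut_eq_finrank] at this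


/-- `φ(n) ≤ [N : ℚ]` if `N` contains a primitive `n`-th root of unity. -/
lemma totient_le_finrank (n : ℕ) [NeZero n] (K N : Type) [Field K] [Field N] [NumberField K]
    [NumberField N] [Algebra K N] {ζ : N} (hζ : IsPrimitiveRoot ζ n) :
    n.totient ≤ Module.finrank ℚ K * Module.finrank K N := by
  have h1 : (minpoly ℚ ζ).natDegree = n.totient := by
    rw [← Polynomial.cyclotomic_eq_minpoly_rat hζ (Nat.pos_of_ne_zero (NeZero.ne n)),
      Polynomial.natDegree_cyclotomic]
  have h2 : (minpoly ℚ ζ).natDegree ≤ Module.finrank ℚ N := minpoly.natDegree_le ζ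
  rw [h1, ← Module.finrank_mul_finrank ℚ K N] at h2
  exact h2

/-- For `M` large, `p ^ m` divides `[K(ζ_{p^M}) : K]` (if `ζ_p ∈ K`). -/
lemma pow_dvd_finrank_cyclo (p : ℕ) (hp : p.Prime) (m M : ℕ) (K : Type) [Field K]
    [NumberField K] (hζ : ∃ ζ : K, IsPrimitiveRoot ζ p)
    (hM : m + Module.finrank ℚ K + 1 ≤ M) :
    p ^ m ∣ Module.finrank K (CyclotomicField (p ^ M) K) := by
  haveI : NeZero (p ^ M) := ⟨pow_ne_zero _ hp.ne_zero⟩
  have hM0 : 0 < M := by omega
  set d := Module.finrank ℚ K with hd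
  set D := Module.finrank K (CyclotomicField (p ^ M) K) with hD
  have hdvd : D ∣ p ^ (M - 1) := finrank_cyclo_dvd p hp M hM0 K (CyclotomicField (p ^ M) K) hζ
  obtain ⟨j, hj, hDj⟩ := (Nat.dvd_prime_pow hp).1 hdvd
  obtain ⟨ζ, hζ'⟩ := IsCyclotomicExtension.exists_isPrimitiveRoot K (CyclotomicField (p ^ M) K)
    (Set.mem_singleton (p ^ M)) (NeZero.ne _)
  have hlow := totient_le_finrank (p ^ M) K (CyclotomicField (p ^ M) K) hζ'
  rw [Nat.totient_prime_pow hp hM0, ← hD, hDj] at hlow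
  rw [hDj]
  apply pow_dvd_pow
  by_contra hjm
  rw [not_le] at hjm
  have hp2 : 2 ≤ p := hp.two_le
  have h1 : p ^ (m + d) ≤ p ^ (M - 1) := Nat.pow_le_pow_right hp.pos (by omega)
  have h2 : p ^ (M - 1) ≤ p ^ (M - 1) * (p - 1) := Nat.le_mul_of_pos_right _ (by omega)
  have h3 : d < p ^ d := Nat.lt_pow_self hp2
  have h5 : d * p ^ j < p ^ d * p ^ m := by
    have hpj : 0 < p ^ j := pow_pos hp.pos j
    calc d * p ^ j < p ^ d * p ^ j := Nat.mul_lt_mul_of_pos_right h3 hpj
      _ ≤ p ^ d * p ^ m := Nat.mul_le_mul_left _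
          (Nat.pow_le_pow_right hp.pos hjm.le)
  have h6 : p ^ (m + d) = p ^ d * p ^ m := by rw [pow_add, mul_comm]
  have h7 : p ^ (m + d) ≤ d * p ^ j := h1.trans (h2.trans hlow)
  rw [h6] at h7
  exact absurd (h7.trans_lt h5) (lt_irrefl _)


/-! ### `L(ζ_n)/K` is Galois -/

open Polynomial in
/-- If `L/K` is Galois then so is `L(ζ_n)/K`. -/
lemma isGalois_cyclo (K L : Type) [Field K] [Field L] [NumberField K] [NumberField L]
    [Algebra K L] [IsGalois K L] (n : ℕ) [NeZero n] : IsGalois K (CyclotomicField n L) := by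
  classical
  obtain ⟨f, hf⟩ := Normal.exists_isSplittingField K L
  -- we may assume `f ≠ 0`
  obtain ⟨f, hf0, hf⟩ : ∃ f : K[X], f ≠ 0 ∧ IsSplittingField K L f := by
    by_cases h0 : f = 0
    · subst h0
      refine ⟨1, one_ne_zero, ⟨by simp, ?_⟩⟩
      have := hf.adjoin_rootSet
      simpa [Polynomial.rootSet] using this
    · exact ⟨f, h0, hf⟩
  have hg0 : (X ^ n - 1 : K[X]) ≠ 0 := by
    have := Polynomial.X_pow_sub_C_ne_zero (NeZero.pos n) (1 : K)
    simpa using this
  haveI : IsSplittingField L (CyclotomicField n L) ((X ^ n - 1 : K[X]).map (algebraMap K L)) := by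
    have := IsCyclotomicExtension.isSplittingField_X_pow_sub_one n L (CyclotomicField n L)
    simpa using this
  haveI := hf
  have hsp : IsSplittingField K (CyclotomicField n L) (f * (X ^ n - 1)) :=
    IsSplittingField.mul (F := K) (K := L) (L := CyclotomicField n L) f (X ^ n - 1) hf0 hg0
  haveI : Normal K (CyclotomicField n L) := Normal.of_isSplittingField (f * (X ^ n - 1))
  exact ⟨⟩


/-! ### HYP2-EX -/

/-- A number field containing a primitive `p`-th root of unity, `p` an odd prime, is totally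
complex. -/
lemma isTotallyComplex_of_primitiveRoot (p : ℕ) (hp : p.Prime) (hp2 : p ≠ 2) (K : Type)
    [Field K] [NumberField K] (hζ : ∃ ζ : K, IsPrimitiveRoot ζ p) : IsTotallyComplex K := by
  obtain ⟨ζ, hζ⟩ := hζ
  have h3 : 2 < p := lt_of_le_of_ne hp.two_le (Ne.symm hp2)
  exact nrRealPlaces_eq_zero_iff.mp
    (NumberField.InfinitePlace.IsPrimitiveRoot.nrRealPlaces_eq_zero_of_two_lt h3 hζ)

/-- **HYP2-EX**. -/
theorem stmt_Hyp2Exists : Stmt_Hyp2Exists := by
  intro p m K L _ _ _ _ _ T₀ M₀ hp hp2 hζ hgal hdeg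
  haveI := hgal
  set M := M₀ + (m + Module.finrank ℚ K + 1) with hM
  haveI hne : NeZero (p ^ M) := ⟨pow_ne_zero _ hp.ne_zero⟩
  have hcplx : IsTotallyComplex K := isTotallyComplex_of_primitiveRoot p hp hp2 K hζ
  haveI hgalN : IsGalois K (CyclotomicField (p ^ M) L) := isGalois_cyclo K L (p ^ M)
  haveI hgalK : IsGalois K (CyclotomicField (p ^ M) K) :=
    IsCyclotomicExtension.isGalois {p ^ M} K (CyclotomicField (p ^ M) K)
  obtain ⟨T1, hT1, hadm1⟩ := stmt_AdmissibleExists p K L T₀ hp hgal hcplx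
  obtain ⟨T2, hT2, hadm2⟩ :=
    stmt_AdmissibleExists p K (CyclotomicField (p ^ M) L) T1 hp hgalN hcplx
  obtain ⟨T3, hT3, hadm3⟩ :=
    stmt_AdmissibleExists p K (CyclotomicField (p ^ M) K) T2 hp hgalK hcplx
  refine ⟨M, hne, T3, Nat.le_add_right _ _, hT1.trans (hT2.trans hT3), ?_⟩
  exact
    { prime := hp
      odd := hp2
      zeta := hζ
      deg := hdeg
      big := pow_dvd_finrank_cyclo p hp m M K hζ (Nat.le_add_left _ _)
      adm := stmt_AdmissibleMono p K L T1 T3 (hT2.trans hT3) hadm1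
      admCyc := stmt_AdmissibleMono p K (CyclotomicField (p ^ M) L) T2 T3 hT3 hadm2
      admCycK := hadm3 }

end Fermat.Agent.S55.CFT.H56

end
end
-- ==== END Fermat.Agent.S55.CFT.H56_Hyp2

-- ==== BEGIN Fermat.Agent.S55.CFT.H56_NormTrans
section

set_option autoImplicit false
set_option linter.style.haveILetI false

open NumberField TensorProduct

noncomputable section
namespace Fermat.Agent.S55.CFT.H56

open Fermat.Agent.S55.CFT

variable (K L : Type) [Field K] [Field L] [NumberField K] [NumberField L] [Algebra K L]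

/-- The `ℚ_q`-linear equivalence `ℚ_q ⊗ L ≃ (ι → ℚ_q ⊗ K)` attached to a `K`-basis of `L`. -/
def semiLocalCoord (q : Nat.Primes) {ι : Type} [Fintype ι] [DecidableEq ι]
    (b : Module.Basis ι K L) : SemiLocal L q ≃ₗ[Qp q] (ι → SemiLocal K q) :=
  (TensorProduct.AlgebraTensorModule.congr (LinearEquiv.refl (Qp q) (Qp q))
    (b.equivFun.restrictScalars ℚ)).trans
    (TensorProduct.piRight ℚ (Qp q) (Qp q) (fun _ : ι => K))

lemma semiLocalCoord_tmul (q : Nat.Primes) {ι : Type} [Fintype ι] [DecidableEq ι]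
    (b : Module.Basis ι K L) (y : Qp q) (l : L) (i : ι) :
    semiLocalCoord K L q b (y ⊗ₜ[ℚ] l) i = y ⊗ₜ[ℚ] (b.repr l i) := by
  simp [semiLocalCoord]

lemma semiLocalCoord_mul (q : Nat.Primes) {ι : Type} [Fintype ι] [DecidableEq ι]
    (b : Module.Basis ι K L) (s : SemiLocal K q) (a : SemiLocal L q) (i : ι) :
    semiLocalCoord K L q b (semiLocalMap K L q s * a) i = s * semiLocalCoord K L q b a i := by
  induction s using TensorProduct.induction_on with
  | zero => simp
  | add s t hs ht => simp only [map_add, add_mul, Pi.add_apply, hs, ht]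
  | tmul x k =>
    induction a using TensorProduct.induction_on with
    | zero => simp
    | add a c ha hc => simp only [map_add, mul_add, Pi.add_apply, ha, hc]
    | tmul y l =>
      have h1 : semiLocalMap K L q (x ⊗ₜ[ℚ] k) = x ⊗ₜ[ℚ] (algebraMap K L k) := by
        simp [semiLocalMap]
      rw [h1, Algebra.TensorProduct.tmul_mul_tmul, semiLocalCoord_tmul, semiLocalCoord_tmul,
        Algebra.TensorProduct.tmul_mul_tmul, ← Algebra.smul_def, map_smul]
      simp

/-- `ℚ_q ⊗ L` is free over `ℚ_q ⊗ K` (for the algebra structure given by `semiLocalMap`). -/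
lemma semiLocal_free (q : Nat.Primes) :
    letI : Algebra (SemiLocal K q) (SemiLocal L q) := (semiLocalMap K L q).toRingHom.toAlgebra
    Module.Free (SemiLocal K q) (SemiLocal L q) := by
  classical
  letI : Algebra (SemiLocal K q) (SemiLocal L q) := (semiLocalMap K L q).toRingHom.toAlgebra
  let b := Module.Free.chooseBasis K L
  let e : SemiLocal L q ≃ₗ[SemiLocal K q] (Module.Free.ChooseBasisIndex K L → SemiLocal K q) :=
    { (semiLocalCoord K L q b) with
      map_smul' := fun s a => by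
        funext i
        have := semiLocalCoord_mul K L q b s a i
        simpa [Algebra.smul_def, RingHom.algebraMap_toAlgebra] using this }
  exact Module.Free.of_equiv e.symm

/-- The tower `ℚ_q → ℚ_q ⊗ K → ℚ_q ⊗ L`. -/
lemma semiLocal_tower (q : Nat.Primes) :
    letI : Algebra (SemiLocal K q) (SemiLocal L q) := (semiLocalMap K L q).toRingHom.toAlgebra
    IsScalarTower (Qp q) (SemiLocal K q) (SemiLocal L q) := by
  letI : Algebra (SemiLocal K q) (SemiLocal L q) := (semiLocalMap K L q).toRingHom.toAlgebra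
  refine IsScalarTower.of_algebraMap_eq (fun x => ?_)
  exact ((semiLocalMap K L q).commutes x).symm

/-- Componentwise form of NT: `N_{(ℚ_q⊗K)/ℚ_q} (N_{(ℚ_q⊗L)/(ℚ_q⊗K)} a) = N_{(ℚ_q⊗L)/ℚ_q} a`. -/
lemma semiLocal_norm_norm (q : Nat.Primes) (a : SemiLocal L q) :
    letI : Algebra (SemiLocal K q) (SemiLocal L q) := (semiLocalMap K L q).toRingHom.toAlgebra
    Algebra.norm (Qp q) (Algebra.norm (SemiLocal K q) a) = Algebra.norm (Qp q) a := by
  letI : Algebra (SemiLocal K q) (SemiLocal L q) := (semiLocalMap K L q).toRingHom.toAlgebra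
  haveI := semiLocal_free K L q
  haveI := semiLocal_tower K L q
  exact Algebra.norm_norm

/-- **NT**: transitivity of norms on `T`-ideles. -/
theorem stmt_NormTrans : Stmt_NormTrans := by
  intro K L _ _ _ _ _ T y
  funext q
  apply Units.ext
  exact semiLocal_norm_norm K L q.1 (y q : SemiLocal L q.1)

end Fermat.Agent.S55.CFT.H56

end
end
-- ==== END Fermat.Agent.S55.CFT.H56_NormTrans

-- ==== BEGIN Fermat.Agent.S55.CFT.H56_ThetaUnits
section

set_option autoImplicit false
set_option linter.style.haveILetI false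

open NumberField TensorProduct

noncomputable section
namespace Fermat.Agent.S55.CFT.H56

open Fermat.Agent.S55.CFT

/-! ### The local symbols are homomorphisms -/

lemma unitPart_val (p : Nat.Primes) (x : (Qp p)ˣ) :
    haveI := fact_primes p
    (((unitPart p x : ℤ_[(p : ℕ)]ˣ) : ℤ_[(p : ℕ)]) : ℚ_[(p : ℕ)]) =
      (x : Qp p) * ((p : ℕ) : Qp p) ^ (-(Padic.valuation (x : Qp p))) := rfl

lemma unitPart_mul (p : Nat.Primes) (x y : (Qp p)ˣ) :
    unitPart p (x * y) = unitPart p x * unitPart p y := by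
  haveI := fact_primes p
  apply Units.ext
  apply Subtype.ext
  have hp0 : (((p : ℕ) : Qp p)) ≠ 0 := by exact_mod_cast p.2.ne_zero
  change (((unitPart p (x * y) : ℤ_[(p : ℕ)]ˣ) : ℤ_[(p : ℕ)]) : ℚ_[(p : ℕ)]) =
    (((unitPart p x : ℤ_[(p : ℕ)]ˣ) : ℤ_[(p : ℕ)]) : ℚ_[(p : ℕ)]) *
    (((unitPart p y : ℤ_[(p : ℕ)]ˣ) : ℤ_[(p : ℕ)]) : ℚ_[(p : ℕ)])
  rw [unitPart_val, unitPart_val, unitPart_val, Units.val_mul,
    Padic.valuation_mul x.ne_zero y.ne_zero, neg_add, zpow_add₀ hp0]
  ring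

lemma thetaLoc_self (p : Nat.Primes) (M : ℕ) (x : (Qp p)ˣ) :
    haveI := fact_primes p
    thetaLoc p M p x =
      (Units.map (PadicInt.toZModPow M : ℤ_[(p : ℕ)] →+* ZMod ((p : ℕ) ^ M)).toMonoidHom
        (unitPart p x))⁻¹ := by
  simp [thetaLoc]

lemma thetaLoc_ne (p : Nat.Primes) (M : ℕ) (q : Nat.Primes) (h : q ≠ p) (x : (Qp q)ˣ) :
    haveI := fact_primes q
    thetaLoc p M q x = primeUnit p q M h ^ (Padic.valuation (x : Qp q)) := by
  simp [thetaLoc, h]

lemma thetaLoc_mul (p : Nat.Primes) (M : ℕ) (q : Nat.Primes) (x y : (Qp q)ˣ) :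
    thetaLoc p M q (x * y) = thetaLoc p M q x * thetaLoc p M q y := by
  haveI := fact_primes q
  by_cases h : q = p
  · subst h
    rw [thetaLoc_self, thetaLoc_self, thetaLoc_self, unitPart_mul, map_mul, mul_inv]
  · rw [thetaLoc_ne p M q h, thetaLoc_ne p M q h, thetaLoc_ne p M q h, Units.val_mul,
      Padic.valuation_mul x.ne_zero y.ne_zero, zpow_add]

/-- The local symbol as a homomorphism. -/
def thetaLocHom (p : Nat.Primes) (M : ℕ) (q : Nat.Primes) : (Qp q)ˣ →* (ZMod ((p : ℕ) ^ M))ˣ where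
  toFun := thetaLoc p M q
  map_one' := by
    have h := thetaLoc_mul p M q 1 1
    rw [mul_one] at h
    exact (left_eq_mul.mp h)
  map_mul' := thetaLoc_mul p M q

/-! ### The symbol on rational numbers -/

/-- `ℚˣ → ℚ_qˣ`. -/
def ratU (q : Nat.Primes) : ℚˣ →* (Qp q)ˣ := Units.map (algebraMap ℚ (Qp q)).toMonoidHom

@[simp] lemma ratU_val (q : Nat.Primes) (r : ℚˣ) : ((ratU q r : (Qp q)ˣ) : Qp q) = ((r : ℚ) : Qp q) :=
  rfl

/-- A prime number as a unit of `ℚ`. -/
def primeQ (l : Nat.Primes) : ℚˣ := Units.mk0 ((l : ℕ) : ℚ) (by exact_mod_cast l.2.ne_zero)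

@[simp] lemma primeQ_val (l : Nat.Primes) : ((primeQ l : ℚˣ) : ℚ) = ((l : ℕ) : ℚ) := rfl

/-- The symbol of `ℚ` for the set `T`, as a homomorphism `ℚˣ → (ℤ/p^M)ˣ`. -/
def thetaRat (p : Nat.Primes) (M : ℕ) (T : Finset Nat.Primes) : ℚˣ →* (ZMod ((p : ℕ) ^ M))ˣ :=
  ∏ q ∈ T, (thetaLocHom p M q).comp (ratU q)

lemma thetaRat_apply (p : Nat.Primes) (M : ℕ) (T : Finset Nat.Primes) (r : ℚˣ) :
    thetaRat p M T r = ∏ q ∈ T, thetaLoc p M q (ratU q r) := by
  simp [thetaRat, thetaLocHom]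

lemma thetaLoc_primeQ_ne (p : Nat.Primes) (M : ℕ) (q l : Nat.Primes) (h : q ≠ p) :
    thetaLoc p M q (ratU q (primeQ l)) = if q = l then primeUnit p q M h else 1 := by
  haveI := fact_primes q
  rw [thetaLoc_ne p M q h, ratU_val, primeQ_val, Rat.cast_natCast, Padic.valuation_natCast]
  split_ifs with hql
  · subst hql
    rw [padicValNat_self]
    simp
  · have : padicValNat (q : ℕ) (l : ℕ) = 0 := by
      apply padicValNat.eq_zero_of_not_dvd
      intro hd
      exact hql (Subtype.ext ((Nat.prime_dvd_prime_iff_eq q.2 l.2).1 hd))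
    rw [this]
    simp

lemma thetaLoc_primeQ_self (p : Nat.Primes) (M : ℕ) (l : Nat.Primes) :
    thetaLoc p M p (ratU p (primeQ l)) =
      if h : l = p then 1 else (primeUnit p l M h)⁻¹ := by
  haveI := fact_primes p
  rw [thetaLoc_self]
  split_ifs with hl
  · subst hl
    rw [inv_eq_one]
    apply Units.ext
    have : (unitPart l (ratU l (primeQ l)) : ℤ_[(l : ℕ)]ˣ) = 1 := by
      apply Units.ext
      apply Subtype.ext
      change (((unitPart l (ratU l (primeQ l)) : ℤ_[(l : ℕ)]ˣ) : ℤ_[(l : ℕ)]) : ℚ_[(l : ℕ)]) = 1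
      have hp0 : (((l : ℕ) : Qp l)) ≠ 0 := by exact_mod_cast l.2.ne_zero
      rw [unitPart_val, ratU_val, primeQ_val, Rat.cast_natCast, Padic.valuation_p, zpow_neg,
        zpow_one, mul_inv_cancel₀ hp0]
    rw [this]
    simp
  · rw [inv_inj]
    apply Units.ext
    have : ((unitPart p (ratU p (primeQ l)) : ℤ_[(p : ℕ)]ˣ) : ℤ_[(p : ℕ)]) = ((l : ℕ) : ℤ_[(p : ℕ)]) := by
      apply Subtype.ext
      have hv : padicValNat (p : ℕ) (l : ℕ) = 0 := by
        apply padicValNat.eq_zero_of_not_dvd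
        intro hd
        exact hl (Subtype.ext ((Nat.prime_dvd_prime_iff_eq p.2 l.2).1 hd)).symm
      rw [unitPart_val, ratU_val, primeQ_val, Rat.cast_natCast, Padic.valuation_natCast, hv]
      simp
    change (PadicInt.toZModPow M) ((unitPart p (ratU p (primeQ l)) : ℤ_[(p : ℕ)]ˣ) : ℤ_[(p : ℕ)]) = _
    rw [this, map_natCast]
    rfl

/-! ### Positivity of the norm for totally complex fields -/

open ComplexConjugate in
lemma prod_conj_nonneg {ι : Type*} [DecidableEq ι] (c : ι → ι) (hc : ∀ i, c (c i) = i)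
    (hne : ∀ i, c i ≠ i) (f : ι → ℂ) (hf : ∀ i, f (c i) = conj (f i)) :
    ∀ S : Finset ι, (∀ i ∈ S, c i ∈ S) → ∃ t : ℝ, 0 ≤ t ∧ ∏ i ∈ S, f i = (t : ℂ) := by
  intro S
  induction S using Finset.strongInduction with
  | H S ih =>
    intro hS
    rcases S.eq_empty_or_nonempty with rfl | ⟨i, hi⟩
    · exact ⟨1, zero_le_one, by simp⟩
    · have hci : c i ∈ S.erase i := Finset.mem_erase.2 ⟨hne i, hS i hi⟩
      have hsub : (S.erase i).erase (c i) ⊂ S :=
        lt_of_le_of_lt (Finset.erase_subset _ _) (Finset.erase_ssubset hi)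
      obtain ⟨t, ht, hprod⟩ := ih _ hsub (by
        intro j hj
        rw [Finset.mem_erase, Finset.mem_erase] at hj ⊢
        obtain ⟨h1, h2, h3⟩ := hj
        refine ⟨?_, ?_, hS j h3⟩
        · intro h
          exact h2 (by rw [← hc j, ← hc i, h])
        · intro h
          exact h1 (by rw [← hc j, h]))
      refine ⟨Complex.normSq (f i) * t, mul_nonneg (Complex.normSq_nonneg _) ht, ?_⟩
      rw [← Finset.mul_prod_erase S f hi, ← Finset.mul_prod_erase _ f hci, hprod, hf,
        ← mul_assoc, Complex.mul_conj]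
      push_cast
      rfl

lemma norm_nonneg_of_totallyComplex (K : Type) [Field K] [NumberField K] [IsTotallyComplex K]
    (x : K) : 0 ≤ Algebra.norm ℚ x := by
  classical
  have h := Algebra.norm_eq_prod_embeddings ℚ ℂ x
  let cj : ℂ →ₐ[ℚ] ℂ := (Complex.conjAe.restrictScalars ℚ : ℂ ≃ₐ[ℚ] ℂ)
  have hcj : ∀ z : ℂ, cj z = (starRingEnd ℂ) z := fun z => rfl
  obtain ⟨t, ht, hprod⟩ := prod_conj_nonneg (ι := K →ₐ[ℚ] ℂ) (fun σ => cj.comp σ)
    (fun σ => by
      ext y
      simp [hcj])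
    (fun σ hσ => by
      have hreal : ComplexEmbedding.IsReal (σ : K →+* ℂ) := by
        rw [ComplexEmbedding.isReal_iff]
        ext y
        have := DFunLike.congr_fun hσ y
        simpa [hcj] using this
      exact IsTotallyComplex.complexEmbedding_not_isReal _ hreal)
    (fun σ => σ x) (fun σ => by simp [hcj]) Finset.univ (fun _ _ => Finset.mem_univ _)
  rw [hprod] at h
  have h2 : ((Algebra.norm ℚ x : ℚ) : ℝ) = t := by
    have : ((((Algebra.norm ℚ x : ℚ) : ℝ)) : ℂ) = (t : ℂ) := by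
      rw [← h]
      simp
    exact_mod_cast this
  have h3 : (0 : ℝ) ≤ ((Algebra.norm ℚ x : ℚ) : ℝ) := h2 ▸ ht
  exact_mod_cast h3

/-- The norm of `1 ⊗ x ∈ ℚ_q ⊗ K` over `ℚ_q` is the image of `N_{K/ℚ} x`. -/
lemma norm_one_tmul (K : Type) [Field K] [NumberField K] (q : Nat.Primes) (x : K) :
    Algebra.norm (Qp q) ((1 : Qp q) ⊗ₜ[ℚ] x : SemiLocal K q) =
      algebraMap ℚ (Qp q) (Algebra.norm ℚ x) := by
  rw [Algebra.norm_apply, Algebra.norm_apply, ← Algebra.baseChange_lmul, LinearMap.det_baseChange]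

/-- An integral rational number is an integer. -/
lemma exists_int_of_isIntegral {r : ℚ} (h : IsIntegral ℤ r) : ∃ z : ℤ, (z : ℚ) = r := by
  obtain ⟨z, hz⟩ := IsIntegrallyClosed.isIntegral_iff.1 h
  exact ⟨z, by simpa using hz⟩

/-- The norm of a `T`-unit: `P ^ N * N(e)` and `P ^ N * N(e)⁻¹` are integers. -/
lemma norm_TUnit (K : Type) [Field K] [NumberField K] (T : Finset Nat.Primes) (e : Kˣ)
    (he : e ∈ TUnits K T) :
    ∃ (N : ℕ) (A B : ℤ), ((prodT T : ℕ) : ℚ) ^ N * Algebra.norm ℚ (e : K) = A ∧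
      ((prodT T : ℕ) : ℚ) ^ N * (Algebra.norm ℚ (e : K))⁻¹ = B := by
  obtain ⟨n, h1, h2⟩ := he
  have hP : ((prodT T : ℕ) : K) = algebraMap ℚ K ((prodT T : ℕ) : ℚ) := by simp
  have key : ∀ y : K, IsIntegral ℤ (((prodT T : ℕ) : K) ^ n * y) →
      ∃ A : ℤ, ((prodT T : ℕ) : ℚ) ^ (n * Module.finrank ℚ K) * Algebra.norm ℚ y = A := by
    intro y hy
    obtain ⟨A, hA⟩ := exists_int_of_isIntegral (Algebra.isIntegral_norm ℚ hy)
    refine ⟨A, ?_⟩
    rw [hA, map_mul, map_pow, hP, Algebra.norm_algebraMap, ← pow_mul, mul_comm n]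
  obtain ⟨A, hA⟩ := key _ h1
  obtain ⟨B, hB⟩ := key _ h2
  refine ⟨n * Module.finrank ℚ K, A, B, hA, ?_⟩
  rw [← hB]
  congr 1
  symm
  apply eq_inv_of_mul_eq_one_left
  rw [← map_mul, ← Units.val_mul, inv_mul_cancel, Units.val_one, map_one]


/-! ### The product formula on `ℚ` -/

lemma thetaRat_primeQ (p : Nat.Primes) (M : ℕ) (T : Finset Nat.Primes) (hp : p ∈ T)
    (l : Nat.Primes) (hl : l ∈ T) : thetaRat p M T (primeQ l) = 1 := by
  classical
  rw [thetaRat_apply]
  by_cases h : l = p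
  · subst h
    apply Finset.prod_eq_one
    intro q _
    by_cases hq' : q = l
    · subst hq'
      rw [thetaLoc_primeQ_self]
      simp
    · rw [thetaLoc_primeQ_ne l M q l hq']
      simp [hq']
  · rw [Finset.prod_eq_mul l p h]
    · rw [thetaLoc_primeQ_ne p M l l h, thetaLoc_primeQ_self, if_pos rfl, dif_neg h,
        mul_inv_cancel]
    · intro q _ hq
      rw [thetaLoc_primeQ_ne p M q l hq.2, if_neg hq.1]
    · intro h'
      exact absurd hl h'
    · intro h'
      exact absurd hp h'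

/-- A nonzero natural number as a unit of `ℚ`. -/
def natQ (a : ℕ) (ha : a ≠ 0) : ℚˣ := Units.mk0 (a : ℚ) (by exact_mod_cast ha)

@[simp] lemma natQ_val (a : ℕ) (ha : a ≠ 0) : ((natQ a ha : ℚˣ) : ℚ) = (a : ℚ) := rfl

lemma natQ_prime_mul (l : Nat.Primes) (b : ℕ) (hb : b ≠ 0) (ha : (l : ℕ) * b ≠ 0) :
    natQ ((l : ℕ) * b) ha = primeQ l * natQ b hb := by
  apply Units.ext
  rw [Units.val_mul, natQ_val, natQ_val, primeQ_val]
  push_cast
  rfl

lemma thetaRat_natQ (p : Nat.Primes) (M : ℕ) (T : Finset Nat.Primes) (hp : p ∈ T) :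
    ∀ (a : ℕ) (ha : a ≠ 0), (∀ l : Nat.Primes, (l : ℕ) ∣ a → l ∈ T) →
      thetaRat p M T (natQ a ha) = 1 := by
  intro a
  induction a using Nat.strong_induction_on with
  | _ a ih =>
    intro ha hT
    by_cases h1 : a = 1
    · subst h1
      have : natQ 1 ha = 1 := Units.ext (by simp)
      rw [this, map_one]
    · obtain ⟨l, hl, b, rfl⟩ := Nat.exists_prime_and_dvd h1
      have hb : b ≠ 0 := fun h => ha (by rw [h, mul_zero])
      have hlt : b < l * b := by
        have := hl.one_lt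
        nlinarith [Nat.pos_of_ne_zero hb]
      have hmul := natQ_prime_mul (⟨l, hl⟩ : Nat.Primes) b hb ha
      rw [hmul, map_mul, thetaRat_primeQ p M T hp (⟨l, hl⟩ : Nat.Primes)
        (hT (⟨l, hl⟩ : Nat.Primes) (dvd_mul_right _ _)),
        ih b hlt hb (fun l' hl' => hT l' (Dvd.dvd.mul_left hl' _)), mul_one]

lemma prime_mem_of_dvd_prodT_pow (T : Finset Nat.Primes) (N : ℕ) (l : Nat.Primes)
    (h : (l : ℕ) ∣ prodT T ^ N) : l ∈ T := by
  have h1 : (l : ℕ) ∣ prodT T := l.2.dvd_of_dvd_pow h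
  rw [prodT, l.2.prime.dvd_finsetProd_iff] at h1
  obtain ⟨q, hq, hd⟩ := h1
  have : l = q := Subtype.ext ((Nat.prime_dvd_prime_iff_eq l.2 q.2).1 hd)
  rw [this]
  exact hq

lemma prodT_ne_zero (T : Finset Nat.Primes) : prodT T ≠ 0 := by
  rw [prodT]
  exact Finset.prod_ne_zero_iff.2 (fun q _ => q.2.ne_zero)

/-- The symbol of `ℚ` is trivial on positive `T`-units. -/
lemma thetaRat_TUnit (p : Nat.Primes) (M : ℕ) (T : Finset Nat.Primes) (hp : p ∈ T) (r : ℚˣ)
    (hr : 0 < (r : ℚ)) (N : ℕ) (A B : ℤ) (hA : ((prodT T : ℕ) : ℚ) ^ N * (r : ℚ) = A)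
    (hB : ((prodT T : ℕ) : ℚ) ^ N * (r : ℚ)⁻¹ = B) : thetaRat p M T r = 1 := by
  have hP0 : (0 : ℚ) < ((prodT T : ℕ) : ℚ) ^ N :=
    pow_pos (by exact_mod_cast Nat.pos_of_ne_zero (prodT_ne_zero T)) N
  have hApos : 0 < A := by
    have : (0 : ℚ) < (A : ℚ) := hA ▸ mul_pos hP0 hr
    exact_mod_cast this
  have hBpos : 0 < B := by
    have : (0 : ℚ) < (B : ℚ) := hB ▸ mul_pos hP0 (inv_pos.2 hr)
    exact_mod_cast this
  have hAB : A * B = ((prodT T : ℕ) : ℤ) ^ (2 * N) := by
    have : ((A * B : ℤ) : ℚ) = (((prodT T : ℕ) : ℤ) ^ (2 * N) : ℤ) := by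
      push_cast
      rw [← hA, ← hB]
      field_simp
      ring
    exact_mod_cast this
  obtain ⟨a, rfl⟩ := Int.eq_ofNat_of_zero_le hApos.le
  obtain ⟨b, rfl⟩ := Int.eq_ofNat_of_zero_le hBpos.le
  have hab : a * b = prodT T ^ (2 * N) := by exact_mod_cast hAB
  have ha0 : a ≠ 0 := by
    rintro rfl
    simp at hApos
  have hPN0 : prodT T ^ N ≠ 0 := pow_ne_zero _ (prodT_ne_zero T)
  have h1 : thetaRat p M T (natQ a ha0) = 1 :=
    thetaRat_natQ p M T hp a ha0 (fun l hl =>
      prime_mem_of_dvd_prodT_pow T (2 * N) l (hab ▸ Dvd.dvd.mul_right hl b))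
  have h2 : thetaRat p M T (natQ (prodT T ^ N) hPN0) = 1 :=
    thetaRat_natQ p M T hp _ hPN0 (fun l hl => prime_mem_of_dvd_prodT_pow T N l hl)
  have hmul : natQ (prodT T ^ N) hPN0 * r = natQ a ha0 := by
    apply Units.ext
    rw [Units.val_mul, natQ_val, natQ_val]
    push_cast
    rw [hA]
    simp
  have := congrArg (thetaRat p M T) hmul
  rw [map_mul, h1, h2, one_mul] at this
  exact this

/-! ### TH-1 -/

lemma normToQ_diag (K : Type) [Field K] [NumberField K] (T : Finset Nat.Primes) (e : Kˣ)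
    (q : T) :
    normToQ K T (diagIdele K T e) q = ratU q.1 (Units.map (Algebra.norm ℚ : K →* ℚ) e) := by
  apply Units.ext
  exact norm_one_tmul K q.1 (e : K)

/-- **TH-1** (product formula): the cyclotomic symbol is trivial on the `T`-units. -/
theorem stmt_ThetaUnits : Stmt_ThetaUnits := by
  intro p M K _ _ T hp hK e he
  haveI := hK
  obtain ⟨N, A, B, hA, hB⟩ := norm_TUnit K T e he
  have hr : 0 < Algebra.norm ℚ (e : K) :=
    lt_of_le_of_ne (norm_nonneg_of_totallyComplex K _)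
      (Ne.symm (Algebra.norm_ne_zero_iff.2 e.ne_zero))
  have key := thetaRat_TUnit p M T hp (Units.map (Algebra.norm ℚ : K →* ℚ) e) hr N A B hA hB
  rw [thetaRat_apply] at key
  rw [cycloTheta, thetaQ]
  rw [← key, ← Finset.prod_coe_sort T]
  refine Finset.prod_congr rfl (fun q _ => ?_)
  rw [normToQ_diag]

end Fermat.Agent.S55.CFT.H56

end
end
-- ==== END Fermat.Agent.S55.CFT.H56_ThetaUnits

-- ==== BEGIN Fermat.Agent.S55.CFT.H58_CorRes
section

/-!
# CFT package COR (helper58): `Stmt_CorRes`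

Corestriction `cor : Hⁿ(H, A) → Hⁿ(G, A)` with `cor ∘ res = [G : H]`, for a subgroup `H` of a
finite group `G`.
-/

set_option autoImplicit false

noncomputable section

namespace Fermat.Agent.S55.CFT.H58

open CategoryTheory groupCohomology

/-- **COR**: corestriction with `cor ∘ res = [G : H]`. -/
theorem stmt_CorRes : Stmt_CorRes := by
  intro G _ _ A H n
  let _ : Fintype (G ⧸ H) := Fintype.ofFinite _
  obtain ⟨cor, hcor⟩ := exists_cor (k := ℤ) H n A
  refine ⟨cor.hom, fun x => ?_⟩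
  have h := congrArg (fun f => f.hom x) hcor
  rw [← Nat.card_eq_fintype_card, ← Subgroup.index_eq_card] at h
  exact h

end Fermat.Agent.S55.CFT.H58


end
end
-- ==== END Fermat.Agent.S55.CFT.H58_CorRes

-- ==== BEGIN Fermat.Agent.S55.CFT.H58_Twin
section

/-!
# CFT package TN-1 (helper58): `Stmt_TwinVanishing`

If `H¹(H, A) = H²(H, A) = 0` for every subgroup `H` of the finite group `G`, then
`Hⁿ(H, A) = 0` for all `n ≥ 1` and all `H`.

Route (no inflation, no Tate cohomology): Sylow reduction by Shapiro and the index, then for a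
`p`-group a normal subgroup `N` of index `p`; the exact sequence
`0 → A → Fun(G ⧸ N, A) → Fun(G ⧸ N, A) → A → 0` and Shapiro give `Hⁿ(G, A) = 0 → Hⁿ⁺²(G, A) = 0`
once `H^j(N, A) = 0` for all `j ≥ 1` (induction on the order).
-/

set_option autoImplicit false

namespace Fermat.Agent.S55.CFT.H58

/-- **TN-1**: twin vanishing. -/
theorem stmt_TwinVanishing : Stmt_TwinVanishing := by
  intro G _ _ A h1 h2 H n hn
  exact twinVanishing_generic (k := ℤ) A h1 h2 H n hn

end Fermat.Agent.S55.CFT.H58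

end
-- ==== END Fermat.Agent.S55.CFT.H58_Twin

-- ==== BEGIN Fermat.Agent.S55.CFT.H80_JCycCoh
section

set_option autoImplicit false

open CategoryTheory groupCohomology

namespace Fermat.Agent.S55.CFT.H80

section Dict

variable {G M : Type} [Group G] [CommGroup M] [MulDistribMulAction G M]

/-- The norm `u ↦ ∏_{i<p} gⁱ • u`. -/
def nmHom (g : G) (p : ℕ) : M →* M where
  toFun u := ∏ i ∈ Finset.range p, g ^ i • u
  map_one' := by simp
  map_mul' u v := by simp [smul_mul', Finset.prod_mul_distrib]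

lemma nmHom_apply (g : G) (p : ℕ) (u : M) : nmHom g p u = ∏ i ∈ Finset.range p, g ^ i • u := rfl

/-- The `g`-invariants. -/
def invSub (g : G) : Subgroup M where
  carrier := {u | g • u = u}
  one_mem' := smul_one g
  mul_mem' := by
    intro a b ha hb
    change g • (a * b) = a * b
    rw [smul_mul', ha, hb]
  inv_mem' := by
    intro a ha
    change g • a⁻¹ = a⁻¹
    rw [smul_inv', ha]

lemma mem_invSub (g : G) (u : M) : u ∈ invSub (M := M) g ↔ g • u = u := Iff.rfl

/-- The element of `M` underlying an element of the representation. -/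
def toM (x : Rep.ofMulDistribMulAction G M) : M := Additive.toMul (Rep.toAdditive x)

/-- An element of `M` as an element of the representation. -/
def ofM (u : M) : Rep.ofMulDistribMulAction G M := Rep.toAdditive.symm (Additive.ofMul u)

lemma toM_ofM (u : M) : toM (G := G) (ofM u) = u := rfl

lemma ofM_toM (x : Rep.ofMulDistribMulAction G M) : ofM (toM x) = x := rfl

lemma toM_injective : Function.Injective (toM (G := G) (M := M)) := fun _ _ h => h

lemma toM_zero : toM (0 : Rep.ofMulDistribMulAction G M) = 1 := rfl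

lemma toM_sub (x y : Rep.ofMulDistribMulAction G M) : toM (x - y) = toM x / toM y := rfl

lemma toM_add (x y : Rep.ofMulDistribMulAction G M) : toM (x + y) = toM x * toM y := rfl

lemma toM_sum {ι : Type} (s : Finset ι) (f : ι → Rep.ofMulDistribMulAction G M) :
    toM (∑ i ∈ s, f i) = ∏ i ∈ s, toM (f i) := by
  classical
  induction s using Finset.induction_on with
  | empty => simp [toM_zero]
  | insert a s ha ih => rw [Finset.sum_insert ha, Finset.prod_insert ha, toM_add, ih]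

lemma toM_rho (g : G) (x : Rep.ofMulDistribMulAction G M) :
    toM ((Rep.ofMulDistribMulAction G M).ρ g x) = g • toM x := rfl

variable [Fintype G] (g : G) (hg : ∀ x, x ∈ Subgroup.zpowers g) (p : ℕ) (hp : Nat.card G = p)

include hg hp

lemma toM_norm (x : Rep.ofMulDistribMulAction G M) :
    toM ((Rep.ofMulDistribMulAction G M).ρ.norm x) = nmHom g p (toM x) := by
  rw [H12.norm_eq_sum_pow (Rep.ofMulDistribMulAction G M) g hg p hp]
  rw [LinearMap.sum_apply, nmHom_apply]
  rw [toM_sum]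
  refine Finset.prod_congr rfl (fun i _ => ?_)
  rw [← map_pow]
  rfl

/-- Hilbert 90 for `M` implies `H¹(G, M) = 0`. -/
theorem h1_subsingleton
    (h90 : ∀ u : M, nmHom g p u = 1 → ∃ w : M, u * g • w = w) :
    Subsingleton (groupCohomology (Rep.ofMulDistribMulAction G M) 1) := by
  have hcard := H12.card_odd (Rep.ofMulDistribMulAction G M) g hg 1 (by decide)
  have hle : (LinearMap.ker (Rep.ofMulDistribMulAction G M).ρ.norm).toAddSubgroup ≤
      (LinearMap.range ((Rep.ofMulDistribMulAction G M).ρ g - 1)).toAddSubgroup := by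
    intro x hx
    have hx' : (Rep.ofMulDistribMulAction G M).ρ.norm x = 0 := hx
    have hx'' := congrArg toM hx'
    rw [toM_norm g hg p hp, toM_zero] at hx''
    obtain ⟨w, hw⟩ := h90 (toM x) hx''
    refine ⟨ofM w⁻¹, ?_⟩
    apply toM_injective
    rw [LinearMap.sub_apply, toM_sub, toM_rho, Module.End.one_apply, toM_ofM]
    rw [smul_inv', inv_div_inv, div_eq_iff_eq_mul]
    exact hw.symm
  rw [AddSubgroup.relIndex_eq_one.mpr hle] at hcard
  exact (Nat.card_eq_one_iff_unique.mp hcard).1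

/-- `#H²(G, M) = [M^g : N M]`. -/
theorem card_h2 :
    Nat.card (groupCohomology (Rep.ofMulDistribMulAction G M) 2) =
      (nmHom (M := M) g p).range.relIndex (invSub g) := by
  have hcard := H12.card_even (Rep.ofMulDistribMulAction G M) g hg 2 (by decide)
  rw [hcard, ← Subgroup.relIndex_toAddSubgroup]
  congr 1
  · ext x
    constructor
    · rintro ⟨y, rfl⟩
      refine ⟨toM y, ?_⟩
      rw [← toM_norm g hg p hp]
      rfl
    · rintro ⟨y, hy⟩
      refine ⟨ofM y, ?_⟩
      apply toM_injective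
      rw [toM_norm g hg p hp, toM_ofM]
      exact hy
  · ext x
    change ((Rep.ofMulDistribMulAction G M).ρ g - 1) x = 0 ↔ g • toM x = toM x
    rw [LinearMap.sub_apply, sub_eq_zero, Module.End.one_apply, ← toM_rho]
    exact ⟨fun h => congrArg toM h, fun h => toM_injective h⟩

/-- If every invariant is a norm, `H²(G, M)` has one element. -/
theorem card_h2_eq_one (hN : ∀ u : M, g • u = u → ∃ y : M, nmHom g p y = u) :
    Nat.card (groupCohomology (Rep.ofMulDistribMulAction G M) 2) = 1 := by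
  rw [card_h2 g hg p hp, Subgroup.relIndex_eq_one]
  intro u hu
  obtain ⟨y, hy⟩ := hN u hu
  exact ⟨y, hy⟩

end Dict

end Fermat.Agent.S55.CFT.H80

end
-- ==== END Fermat.Agent.S55.CFT.H80_JCycCoh

-- ==== BEGIN Fermat.Agent.S55.CFT.H96_SemiLocalInt
section

set_option autoImplicit false

open NumberField TensorProduct

noncomputable section

namespace Fermat.Agent.S55.CFT.H96

open Fermat.Agent.S55.CFT Fermat.Agent.S55.CFT.H12

attribute [local instance] Fermat.Agent.S55.CFT.fact_primes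

variable (K : Type) [Field K] [NumberField K] (q : Nat.Primes)

/-- The index set of an integral basis. -/
abbrev Idx : Type := Module.Free.ChooseBasisIndex ℤ (𝓞 K)

/-- The `ℚ_q`-basis `1 ⊗ b_i` of `ℚ_q ⊗ K`. -/
def slBasis : Module.Basis (Idx K) (Qp q) (SemiLocal K q) :=
  Algebra.TensorProduct.basis (Qp q) (integralBasis K)

theorem slBasis_apply (i : Idx K) :
    slBasis K q i = (1 : Qp q) ⊗ₜ[ℚ] (integralBasis K i) := by
  unfold slBasis
  rw [Algebra.TensorProduct.basis_apply]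

theorem slBasis_repr_tmul (c : Qp q) (x : K) (i : Idx K) :
    (slBasis K q).repr (c ⊗ₜ[ℚ] x) i = c * algebraMap ℚ (Qp q) ((integralBasis K).repr x i) := by
  unfold slBasis
  rw [Algebra.TensorProduct.basis_repr_tmul]
  simp
  rfl

/-- The coordinates of `c ⊗ x`, `x` integral. -/
theorem slBasis_repr_tmul_int (c : Qp q) (x : 𝓞 K) (i : Idx K) :
    (slBasis K q).repr (c ⊗ₜ[ℚ] (x : K)) i
      = c * (((RingOfIntegers.basis K).repr x i : ℤ) : Qp q) := by
  rw [slBasis_repr_tmul]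
  have h := integralBasis_repr_apply K x i
  rw [h]
  simp

/-- The set of elements with coordinates in `ℤ_q`. -/
def intSet : Set (SemiLocal K q) := {x | ∀ i, ‖(slBasis K q).repr x i‖ ≤ 1}

variable {K q}

theorem zero_mem_intSet : (0 : SemiLocal K q) ∈ intSet K q := by
  intro i
  simp

theorem add_mem_intSet {x y : SemiLocal K q} (hx : x ∈ intSet K q) (hy : y ∈ intSet K q) :
    x + y ∈ intSet K q := by
  intro i
  rw [map_add, Finsupp.add_apply]
  exact (Padic.nonarchimedean _ _).trans (max_le (hx i) (hy i))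

theorem neg_mem_intSet {x : SemiLocal K q} (hx : x ∈ intSet K q) : -x ∈ intSet K q := by
  intro i
  rw [map_neg, Finsupp.neg_apply, norm_neg]
  exact hx i

theorem smul_mem_intSet {c : Qp q} (hc : ‖c‖ ≤ 1) {x : SemiLocal K q} (hx : x ∈ intSet K q) :
    c • x ∈ intSet K q := by
  intro i
  rw [map_smul, Finsupp.smul_apply, smul_eq_mul, norm_mul]
  exact mul_le_one₀ hc (norm_nonneg _) (hx i)

theorem tmul_mem_intSet {c : Qp q} (hc : ‖c‖ ≤ 1) (x : 𝓞 K) :
    c ⊗ₜ[ℚ] (x : K) ∈ intSet K q := by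
  intro i
  rw [slBasis_repr_tmul_int, norm_mul]
  exact mul_le_one₀ hc (norm_nonneg _) (Padic.norm_int_le_one _)

theorem sum_mem_intSet {α : Type*} (s : Finset α) (f : α → SemiLocal K q)
    (hf : ∀ a ∈ s, f a ∈ intSet K q) : ∑ a ∈ s, f a ∈ intSet K q := by
  classical
  induction s using Finset.induction_on with
  | empty => simpa using zero_mem_intSet
  | insert a s ha ih =>
    rw [Finset.sum_insert ha]
    exact add_mem_intSet (hf a (Finset.mem_insert_self a s))
      (ih (fun b hb => hf b (Finset.mem_insert_of_mem hb)))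

theorem basis_mul_basis_mem (i j : Idx K) : slBasis K q i * slBasis K q j ∈ intSet K q := by
  rw [slBasis_apply, slBasis_apply, Algebra.TensorProduct.tmul_mul_tmul, one_mul]
  have h : integralBasis K i * integralBasis K j
      = ((RingOfIntegers.basis K i * RingOfIntegers.basis K j : 𝓞 K) : K) := by
    rw [integralBasis_apply, integralBasis_apply]
    simp
  rw [h]
  exact tmul_mem_intSet (by simp) _

theorem mul_mem_intSet {x y : SemiLocal K q} (hx : x ∈ intSet K q) (hy : y ∈ intSet K q) :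
    x * y ∈ intSet K q := by
  have ex := (slBasis K q).sum_repr x
  have ey := (slBasis K q).sum_repr y
  rw [← ex, ← ey, Finset.sum_mul_sum]
  refine sum_mem_intSet _ _ (fun i _ => sum_mem_intSet _ _ (fun j _ => ?_))
  rw [smul_mul_smul_comm]
  exact smul_mem_intSet (by rw [norm_mul]; exact mul_le_one₀ (hx i) (norm_nonneg _) (hy j))
    (basis_mul_basis_mem i j)

theorem one_mem_intSet : (1 : SemiLocal K q) ∈ intSet K q := by
  have h : (1 : SemiLocal K q) = (1 : Qp q) ⊗ₜ[ℚ] (((1 : 𝓞 K)) : K) := by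
    rw [Algebra.TensorProduct.one_def]
    simp
  rw [h]
  exact tmul_mem_intSet (by simp) _

variable (K q)

/-- The subring of the elements of `ℚ_q ⊗ K` with coordinates in `ℤ_q`. -/
def intSub : Subring (SemiLocal K q) where
  carrier := intSet K q
  mul_mem' := mul_mem_intSet
  one_mem' := one_mem_intSet
  add_mem' := add_mem_intSet
  zero_mem' := zero_mem_intSet
  neg_mem' := neg_mem_intSet

variable {K q}

theorem mem_intSub {x : SemiLocal K q} :
    x ∈ intSub K q ↔ ∀ i, ‖(slBasis K q).repr x i‖ ≤ 1 := Iff.rfl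

theorem semiLocalInt_le : semiLocalInt K q ≤ intSub K q := by
  unfold semiLocalInt
  rw [Subring.closure_le]
  rintro y ⟨c, x, hc, rfl⟩
  exact tmul_mem_intSet hc x

end Fermat.Agent.S55.CFT.H96

end
end
-- ==== END Fermat.Agent.S55.CFT.H96_SemiLocalInt

-- ==== BEGIN Fermat.Agent.S55.CFT.LOC.Defs_FC
section

set_option autoImplicit false

open CategoryTheory groupCohomology

namespace Fermat.Agent.S55.CFT.LOC

/-- **LOC-2c** (arithmetic input of the splitting step).  For a finite Galois extension `E/F`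
of local fields there are a finite Galois extension `L/F` containing `E`, and an intermediate
field `E'` of `L/F`, unramified cyclic over `F` of degree `[E:F]·k`, with `L = E·E'`, `L/E`
cyclic, such that `x^k` is a norm from `L` to `E` for every `x ∈ Fˣ`.
(Take `E' = F(ζ)`, `ζ` of order `N^(n') − 1`, `N = #k_F`, `n' = n·a` with `#k_E = q^a`; then
`L = E(ζ)` is unramified over `E`, `L/E'` is totally ramified of degree `e = e(E/F)`, so
`[L:E] = e·k`, and `N_{L/E} Lˣ = {y : v_E(y) ∈ [L:E]·ℤ}`, while `v_E(x^k) = e·k·v_F(x)`.) -/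
def Stmt_UnramCompositum : Prop :=
  ∀ (q : ℕ) [Fact q.Prime] (F E : Type) [Field F] [Field E] [Algebra ℚ_[q] F]
    [FiniteDimensional ℚ_[q] F] [Algebra ℚ_[q] E] [Algebra F E] [IsScalarTower ℚ_[q] F E]
    [FiniteDimensional F E] [IsGalois F E],
    ∃ (L : Type) (_ : Field L) (_ : Algebra ℚ_[q] L) (_ : Algebra F L) (_ : Algebra E L)
      (_ : IsScalarTower ℚ_[q] F L) (_ : IsScalarTower F E L) (_ : FiniteDimensional F L)
      (_ : IsGalois F L) (E' : IntermediateField F L) (k : ℕ),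
      0 < k ∧ IsGalois F E' ∧ IsCyclic (E' ≃ₐ[F] E') ∧
      Module.finrank F E' = Module.finrank F E * k ∧ IsUnram q F E' ∧
      E' ⊔ (IsScalarTower.toAlgHom F E L).fieldRange = ⊤ ∧
      IsCyclic (L ≃ₐ[E] L) ∧
      ∀ x : F, x ≠ 0 → ∃ y : L, Algebra.norm E y = algebraMap F E x ^ k

/-- **LOC-4c'** (exactness of inflation–restriction at `H²(Γ, A)`, shape `InfData`): a
2-cocycle of `Γ` whose restriction to `N = ker π` is a coboundary is cohomologous to an
inflated cocycle. -/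
def Stmt_InfResExact : Prop :=
  ∀ (Γ Q A B : Type) [Group Γ] [Group Q] [AddCommGroup A] [AddCommGroup B]
    [DistribMulAction Γ A] [DistribMulAction Q B] (π : Γ →* Q) (ι : B →+ A),
    H68.InfData π ι →
    ∀ c' : Γ × Γ → A, IsCocycle₂ c' →
      (∃ z : Γ → A, ∀ n n' : Γ, π n = 1 → π n' = 1 → n • z n' - z (n * n') + z n = c' (n, n')) →
      ∃ c : Q × Q → B, IsCocycle₂ c ∧
        ∃ x : Γ → A, ∀ g h : Γ, c' (g, h) = ι (c (π g, π h)) + (g • x h - x (g * h) + x g)

/-- **LOC-4f** (lower bound): `H²(Gal(E/F), Eˣ)` contains a class of order `[E:F]`, for every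
finite Galois extension of local fields. -/
def Stmt_LocalH2Order : Prop :=
  ∀ (q : ℕ) [Fact q.Prime] (F E : Type) [Field F] [Field E] [Algebra ℚ_[q] F]
    [FiniteDimensional ℚ_[q] F] [Algebra F E] [FiniteDimensional F E] [IsGalois F E],
    ∃ γ : groupCohomology (unitsRep F E) 2,
      ∀ k : ℤ, k • γ = 0 → (Module.finrank F E : ℤ) ∣ k

/-- **LOC-4f'** (`p`-extensions): `H²(Gal(E/F), Eˣ)` is cyclic of order `[E:F]`. -/
def Stmt_LocalH2CyclicP : Prop :=
  ∀ (q : ℕ) [Fact q.Prime] (p : ℕ) [Fact p.Prime] (F E : Type) [Field F] [Field E]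
    [Algebra ℚ_[q] F] [FiniteDimensional ℚ_[q] F] [Algebra F E] [FiniteDimensional F E]
    [IsGalois F E],
    IsPGroup p (E ≃ₐ[F] E) →
    Nat.card (groupCohomology (unitsRep F E) 2) = Module.finrank F E ∧
    ∃ γ : groupCohomology (unitsRep F E) 2, ∀ x : groupCohomology (unitsRep F E) 2,
      ∃ n : ℤ, x = n • γ

end Fermat.Agent.S55.CFT.LOC

end
-- ==== END Fermat.Agent.S55.CFT.LOC.Defs_FC

-- ==== BEGIN Fermat.Agent.S55.CFT.LOC.Defs_LTO
section

set_option autoImplicit false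

namespace Fermat.Agent.S55.CFT.LOC

open Fermat.Agent.S55.CFT

/-- **LTO-N** (the absolute value of a norm, any finite extension, not necessarily Galois):
`|N_{E/F} y|_F = |y|_E ^ [E : F]`.
(Galois case: `LOC.nrm_norm`.  Route: `Algebra.norm_eq_prod_embeddings` into a normal closure,
and `nrm` is invariant under `ℚ_q`-embeddings because it only depends on the minimal polynomial
over `ℚ_q`; or `Algebra.norm_eq_norm_adjoin` + `spectralNorm_eq_norm_coeff_zero_rpow`.) -/
def Stmt_NrmNormGen : Prop :=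
  ∀ (q : ℕ) [Fact q.Prime] (F E : Type) [Field F] [Field E] [Algebra ℚ_[q] F] [Algebra ℚ_[q] E]
    [Algebra F E] [IsScalarTower ℚ_[q] F E] [FiniteDimensional ℚ_[q] F]
    [FiniteDimensional ℚ_[q] E] (y : E),
    nrm q F (Algebra.norm F y) = nrm q E y ^ Module.finrank F E

/-- **LTO-S** (the local symbol at `p` is onto): `thetaLoc p M p : ℚ_pˣ → (ℤ/p^M)ˣ` is
surjective.  (The unit part of a natural number `a` prime to `p` is `a`.) -/
def Stmt_ThetaLocSurj : Prop :=
  ∀ (p : Nat.Primes) (M : ℕ), Function.Surjective (thetaLoc p M p)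

/-- **LTO-C1** (a unit of `ℚ_p(ζ_{p^c})` whose norm is not `≡ 1 mod p^(c+1)`): for `p` odd,
`c ≥ 1` and a finite extension `E` of `ℚ_p` generated by a primitive `p^c`-th root of unity,
there is `x ∈ Eˣ` with `|x| = 1` and `θ_{c+1}(N_{E/ℚ_p} x) ≠ 1`.
(`E/ℚ_p` is cyclic of degree `φ(p^c)` (`H25.finrank_adjoin_zeta`), so the norm group has index
`φ(p^c)` (`H68.stmt_LocalNormIndexCyclic`), while `ker θ_{c+1}` has index `φ(p^(c+1))` (LTO-S):
some norm `N y` has `θ_{c+1}(N y) ≠ 1`; `x := y / (ζ - 1)^v` with `N(ζ - 1) = p`,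
`θ_{c+1}(p) = 1`.) -/
def Stmt_CycUnitTheta : Prop :=
  ∀ (p : Nat.Primes) (c : ℕ) (E : Type) [Field E] [Algebra (Qp p) E]
    [FiniteDimensional (Qp p) E] (ζ : E), (p : ℕ) ≠ 2 → 1 ≤ c →
    IsPrimitiveRoot ζ ((p : ℕ) ^ c) → IntermediateField.adjoin (Qp p) {ζ} = ⊤ →
    ∃ x : Eˣ, (haveI := fact_primes p; nrm (p : ℕ) E (x : E) = 1) ∧
      thetaLoc p (c + 1) p (Units.map (Algebra.norm (Qp p) : E →* Qp p) x) ≠ 1

end Fermat.Agent.S55.CFT.LOC

end
-- ==== END Fermat.Agent.S55.CFT.LOC.Defs_LTO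

-- ==== BEGIN Fermat.Agent.S55.CFT.LOC.Defs_Lattice
section

set_option autoImplicit false

namespace Fermat.Agent.S55.CFT.LOC

/-- A cohomologically trivial multiplicative filtration of `E` (see the file header). -/
structure NLat (F E : Type) [Field F] [Field E] [Algebra F E] [FiniteDimensional F E] where
  /-- the lattices -/
  M : ℕ → AddSubgroup E
  anti : ∀ k, M (k + 1) ≤ M k
  mul_mem : ∀ (j k : ℕ) (x y : E), x ∈ M j → y ∈ M k → x * y ∈ M (j + k + 1)
  sep : ∀ x : E, (∀ k, x ∈ M k) → x = 0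
  complete : ∀ x : ℕ → E, (∀ k, x (k + 1) - x k ∈ M k) → ∃ y : E, ∀ k, y - x k ∈ M k
  galois : ∀ (τ : E ≃ₐ[F] E) (k : ℕ) (x : E), x ∈ M k → τ x ∈ M k
  h0 : ∀ (k : ℕ) (x : E), x ∈ M k → (∀ τ : E ≃ₐ[F] E, τ x = x) →
    ∃ y ∈ M k, ∑ τ : E ≃ₐ[F] E, τ y = x
  h1 : ∀ (σ : E ≃ₐ[F] E), (∀ τ : E ≃ₐ[F] E, τ ∈ Subgroup.zpowers σ) →
    ∀ (k l : ℕ) (x : E), x ∈ M k → ∑ τ : E ≃ₐ[F] E, τ x ∈ M l →
      ∃ y ∈ M k, σ y - y - x ∈ M l

/-- **LOC-3a-II** (concrete): a finite Galois extension of local fields has an `NLat` whose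
first term contains a ball around `0` and is contained in the open unit ball. -/
def Stmt_LatticeExists : Prop :=
  ∀ (q : ℕ) [Fact q.Prime] (F E : Type) [Field F] [Field E] [Algebra ℚ_[q] F]
    [FiniteDimensional ℚ_[q] F] [Algebra ℚ_[q] E] [Algebra F E] [IsScalarTower ℚ_[q] F E]
    [FiniteDimensional F E] [IsGalois F E],
    ∃ (L : NLat F E) (r : ℝ), 0 < r ∧ (∀ x : E, nrm q E x ≤ r → x ∈ L.M 0) ∧
      ∀ x ∈ L.M 0, nrm q E x < 1

/-- **LOC-3a-I** (abstract): the group `V = 1 + M 0` of an `NLat` is a `σ`-stable subgroup of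
`Eˣ` on which `Ĥ⁰` and `H¹` vanish. -/
def Stmt_TrivialOfLattice : Prop :=
  ∀ (F E : Type) [Field F] [Field E] [Algebra F E] [FiniteDimensional F E] [IsGalois F E]
    (L : NLat F E) (σ : E ≃ₐ[F] E), (∀ τ : E ≃ₐ[F] E, τ ∈ Subgroup.zpowers σ) →
    ∃ V : Subgroup Eˣ, (∀ u : Eˣ, u ∈ V ↔ (u : E) - 1 ∈ L.M 0) ∧
      (∀ x ∈ L.M 0, 1 + x ≠ 0) ∧
      (∀ u ∈ V, Units.map (σ : E →* E) u ∈ V) ∧
      (∀ u ∈ V, σ (u : E) = u → ∃ w ∈ V, algebraMap F E (Algebra.norm F (w : E)) = u) ∧
      (∀ u ∈ V, Algebra.norm F (u : E) = 1 → ∃ w ∈ V, (u : E) = σ (w : E) / w)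

end Fermat.Agent.S55.CFT.LOC

end
-- ==== END Fermat.Agent.S55.CFT.LOC.Defs_Lattice

-- ==== BEGIN Fermat.Agent.S55.CFT.LOC.H68_LOC1
section

set_option autoImplicit false
set_option linter.unusedSectionVars false
set_option linter.style.haveILetI false

namespace Fermat.Agent.S55.CFT.LOC.H68

open Fermat.Agent.S55.CFT.LOC

section unif

variable (q : ℕ) [Fact q.Prime] (F : Type) [Field F] [Algebra ℚ_[q] F]
  [FiniteDimensional ℚ_[q] F]
theorem finrank_pos_padic : 0 < Module.finrank ℚ_[q] F := Module.finrank_pos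

/-- `|x|^[F:ℚ_q]` is an integral power of `q`. -/
theorem exists_zpow_nrm_pow {x : F} (hx : x ≠ 0) :
    ∃ m : ℤ, nrm q F x ^ (Module.finrank ℚ_[q] F) = (q : ℝ) ^ m := by
  have hint : IsIntegral ℚ_[q] x := Algebra.IsIntegral.isIntegral x
  set d := (minpoly ℚ_[q] x).natDegree with hd
  have hdpos : 0 < d := minpoly.natDegree_pos hint
  obtain ⟨k, hk⟩ : d ∣ Module.finrank ℚ_[q] F := minpoly.degree_dvd hint
  have ha0 : (minpoly ℚ_[q] x).coeff 0 ≠ 0 := minpoly.coeff_zero_ne_zero hint hx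
  have h1 : nrm q F x ^ d = ‖(minpoly ℚ_[q] x).coeff 0‖ := by
    rw [nrm_def, spectralNorm.spectralNorm_eq_norm_coeff_zero_rpow, ← Real.rpow_natCast,
      ← Real.rpow_mul (norm_nonneg _), one_div, inv_mul_cancel₀ (by exact_mod_cast hdpos.ne'),
      Real.rpow_one]
  refine ⟨-((minpoly ℚ_[q] x).coeff 0).valuation * k, ?_⟩
  rw [hk, pow_mul, h1, Padic.norm_eq_zpow_neg_valuation ha0, zpow_mul, zpow_natCast]

theorem pow_left_inj_pos {a b : ℝ} (ha : 0 ≤ a) (hb : 0 ≤ b) {n : ℕ} (hn : n ≠ 0)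
    (h : a ^ n = b ^ n) : a = b :=
  (pow_left_inj₀ ha hb hn).mp h

end unif

theorem stmt_Uniformizer : Stmt_Uniformizer := by
  intro q _ F _ _ _
  classical
  set n := Module.finrank ℚ_[q] F with hn
  have hnpos : 0 < n := Module.finrank_pos
  have hq1 : (1 : ℝ) < q := by exact_mod_cast (Fact.out : q.Prime).one_lt
  have hq0 : (0 : ℝ) < q := by linarith
  -- the subgroup of exponents
  let A : AddSubgroup ℤ :=
    { carrier := {m | ∃ x : F, x ≠ 0 ∧ nrm q F x ^ n = (q : ℝ) ^ m}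
      zero_mem' := ⟨1, one_ne_zero, by simp⟩
      add_mem' := by
        rintro a b ⟨x, hx, hxa⟩ ⟨y, hy, hyb⟩
        refine ⟨x * y, mul_ne_zero hx hy, ?_⟩
        rw [nrm_mul, mul_pow, hxa, hyb, zpow_add₀ hq0.ne']
      neg_mem' := by
        rintro a ⟨x, hx, hxa⟩
        refine ⟨x⁻¹, inv_ne_zero hx, ?_⟩
        rw [nrm_inv, inv_pow, hxa, zpow_neg] }
  obtain ⟨a, ha⟩ := Int.subgroup_cyclic A
  have hmemA : ∀ m, m ∈ A ↔ ∃ x : F, x ≠ 0 ∧ nrm q F x ^ n = (q : ℝ) ^ m := fun m => Iff.rfl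
  have hqF : (q : F) ≠ 0 := by
    intro h
    have := nrm_natCast_q q F
    rw [h, nrm_zero] at this
    have : (q : ℝ) = 0 := by
      have h2 : ((q : ℝ)⁻¹) = 0 := this.symm
      exact inv_eq_zero.mp h2
    linarith
  have hnA : (-(n : ℤ)) ∈ A := by
    refine ⟨(q : F), hqF, ?_⟩
    rw [nrm_natCast_q, inv_pow, zpow_neg, zpow_natCast]
  have ha0 : a ≠ 0 := by
    rintro rfl
    rw [ha] at hnA
    simp only [AddSubgroup.closure_singleton_zero, AddSubgroup.mem_bot, neg_eq_zero,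
      Nat.cast_eq_zero] at hnA
    omega
  -- a generator with negative exponent
  have habs : (-|a|) ∈ A := by
    have haA : a ∈ A := by rw [ha]; exact AddSubgroup.subset_closure rfl
    rcases abs_choice a with h | h
    · rw [h]; exact A.neg_mem haA
    · rw [h, neg_neg]; exact haA
  obtain ⟨π, hπ0, hπ⟩ := habs
  have habspos : 0 < |a| := abs_pos.mpr ha0
  refine ⟨π, nrm_pos q F hπ0, ?_, ?_⟩
  · by_contra hge
    rw [not_lt] at hge
    have h1 : (1 : ℝ) ≤ nrm q F π ^ n := one_le_pow₀ hge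
    rw [hπ] at h1
    have h2 : (q : ℝ) ^ (-|a|) < 1 := zpow_lt_one_of_neg₀ hq1 (by omega)
    linarith
  · intro x hx
    obtain ⟨m, hm⟩ := exists_zpow_nrm_pow q F hx
    have hmA : m ∈ A := ⟨x, hx, hm⟩
    rw [ha, AddSubgroup.mem_closure_singleton] at hmA
    obtain ⟨k, hk⟩ := hmA
    -- m = k • a = ± k' * |a|
    obtain ⟨k', hk'⟩ : ∃ k' : ℤ, m = k' * (-|a|) := by
      rcases abs_choice a with h | h
      · exact ⟨-k, by rw [h, ← hk]; simp⟩
      · exact ⟨k, by rw [h, ← hk]; simp⟩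
    refine ⟨k', ?_⟩
    have hpos : 0 < nrm q F π := nrm_pos q F hπ0
    have h3 : nrm q F x ^ n = (nrm q F π ^ k') ^ n := by
      have e1 : (nrm q F π ^ k') ^ n = (nrm q F π ^ n) ^ k' := by
        rw [← zpow_natCast (nrm q F π ^ k'), ← zpow_mul, mul_comm, zpow_mul, zpow_natCast]
      rw [e1, hπ, hm, hk', ← zpow_mul, mul_comm]
    exact pow_left_inj_pos (nrm_nonneg q F x) (zpow_nonneg hpos.le _) hnpos.ne' h3

theorem stmt_FiniteResidue : Stmt_FiniteResidue := by
  intro q _ F _ _ _ r hr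
  classical
  letI : NontriviallyNormedField F := spectralNorm.nontriviallyNormedField ℚ_[q] F
  letI : NormedSpace ℚ_[q] F := spectralNorm.normedSpace ℚ_[q] F
  haveI : ProperSpace F := FiniteDimensional.proper ℚ_[q] F
  have hnorm : ∀ x : F, ‖x‖ = nrm q F x := fun x => rfl
  have hc : IsCompact (Metric.closedBall (0 : F) 1) := isCompact_closedBall 0 1
  obtain ⟨t, hts, htfin, hcover⟩ := finite_cover_balls_of_compact hc hr
  refine ⟨htfin.toFinset, ?_, ?_⟩
  · intro x hx
    have hx' : x ∈ t := by simpa using hx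
    have := hts hx'
    rw [Metric.mem_closedBall, dist_zero_right, hnorm] at this
    exact this
  · intro x hx
    have hxb : x ∈ Metric.closedBall (0 : F) 1 := by
      rw [Metric.mem_closedBall, dist_zero_right, hnorm]; exact hx
    have := hcover hxb
    simp only [Set.mem_iUnion, Metric.mem_ball, exists_prop] at this
    obtain ⟨y, hyt, hy⟩ := this
    refine ⟨y, by simpa using hyt, ?_⟩
    rw [dist_eq_norm, hnorm] at hy
    exact hy.le

theorem stmt_SuccApprox : Stmt_SuccApprox := by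
  intro q _ F _ _ _ x c ρ hc hρ0 hρ1 hx
  classical
  letI : NontriviallyNormedField F := spectralNorm.nontriviallyNormedField ℚ_[q] F
  haveI : CompleteSpace F := spectralNorm.completeSpace ℚ_[q] F
  have hnorm : ∀ x : F, ‖x‖ = nrm q F x := fun x => rfl
  have hcau : CauchySeq x := by
    refine cauchySeq_of_le_geometric ρ c hρ1 (fun n => ?_)
    rw [dist_comm, dist_eq_norm, hnorm]
    exact hx n
  obtain ⟨y, hy⟩ := cauchySeq_tendsto_of_complete hcau
  refine ⟨y, fun n => ?_⟩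
  -- bound on x m - x n for m ≥ n
  have hb : ∀ k : ℕ, nrm q F (x (n + k) - x n) ≤ c * ρ ^ n := by
    intro k
    induction k with
    | zero => simp only [Nat.add_zero, sub_self, nrm_zero]; positivity
    | succ k ih =>
      have e : x (n + (k + 1)) - x n = (x (n + k + 1) - x (n + k)) + (x (n + k) - x n) := by
        rw [← add_assoc]; ring
      rw [e]
      refine (nrm_add_le_max q F _ _).trans (max_le ?_ ih)
      refine (hx (n + k)).trans ?_
      apply mul_le_mul_of_nonneg_left _ hc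
      exact pow_le_pow_of_le_one hρ0 hρ1.le (Nat.le_add_right n k)
  have hlim : Filter.Tendsto (fun k => ‖x (n + k) - x n‖) Filter.atTop (nhds ‖y - x n‖) := by
    have h1 : Filter.Tendsto (fun k => x (n + k)) Filter.atTop (nhds y) := by
      have := hy.comp (Filter.tendsto_add_atTop_nat n)
      refine this.congr (fun k => ?_)
      simp [add_comm]
    exact ((h1.sub tendsto_const_nhds).norm)
  rw [← hnorm]
  exact le_of_tendsto hlim (Filter.Eventually.of_forall (fun k => by rw [hnorm]; exact hb k))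

theorem stmt_CoordBound : Stmt_CoordBound := by
  intro q _ F E _ _ _ _ _ _ _ _ ι _ b
  classical
  haveI : FiniteDimensional ℚ_[q] E := FiniteDimensional.trans ℚ_[q] F E
  letI : NontriviallyNormedField F := spectralNorm.nontriviallyNormedField ℚ_[q] F
  haveI : CompleteSpace F := spectralNorm.completeSpace ℚ_[q] F
  letI : NormedAddCommGroup E := spectralNorm.normedAddCommGroup ℚ_[q] E
  have hnormF : ∀ x : F, ‖x‖ = nrm q F x := fun x => rfl
  have hnormE : ∀ x : E, ‖x‖ = nrm q E x := fun x => rfl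
  letI : NormedSpace F E :=
    { norm_smul_le := fun a y => by
        rw [hnormE, hnormF, hnormE, Algebra.smul_def, nrm_mul, nrm_algebraMap] }
  let f : ι → (E →L[F] F) := fun i => LinearMap.toContinuousLinearMap (b.coord i)
  refine ⟨1 + ∑ i, ‖f i‖, by positivity, fun y i => ?_⟩
  have h1 : ‖f i y‖ ≤ ‖f i‖ * ‖y‖ := (f i).le_opNorm y
  have h2 : f i y = b.repr y i := rfl
  rw [h2, hnormF, hnormE] at h1
  refine h1.trans ?_
  apply mul_le_mul_of_nonneg_right _ (nrm_nonneg q E y)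
  have h3 : ‖f i‖ ≤ ∑ j, ‖f j‖ :=
    Finset.single_le_sum (f := fun j => ‖f j‖) (fun j _ => norm_nonneg _) (Finset.mem_univ i)
  linarith

end Fermat.Agent.S55.CFT.LOC.H68

end
-- ==== END Fermat.Agent.S55.CFT.LOC.H68_LOC1
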