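-- GENERATED (merged mirror, NOTES/tools/trim/merge3_helper67.py): 6 modules of the originals, bodies verbatim.
import Fermat.Agent.S55.CFT.H24_InfRes2
import Fermat.Agent.Zm.S56_L03_003
import Fermat.Agent.S05.H95_Inertia

-- ==== BEGIN Fermat.Agent.S55.CFT.LOC.H72_FundResAbs
section

/-!
# S55/E4 island LOC, package LOC-4g (helper72), abstract part

For a finite `p`-group `G` and `A : Rep ℤ G` such that, on every group `K` mapping injectively to
`G`, `H¹(K, A) = 0` and `H²(K, A)` is cyclic of order `#K` (`FundHyp A`), every restriction map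
`H²(G, A) → H²(K, A)` is surjective (`res_surjective_of_fundHyp`).

Route (no corestriction): for `N` normal in `G`, a class `x` with `res x = 0` is inflated from
`G ⧸ N` (helper24, `H24.res₂_eq_zero_iff`), hence killed by `[G : N]` (the order of a finite
group kills its cohomology: helper58, `H58.index_smul_eq_zero`); in the cyclic group `H²(G, A)`
at most `[G : N]` elements are killed by `[G : N]`, so the image of `res` has at least
`#G / [G : N] = #N = #H²(N, A)` elements.  Then induction along a chain of index-`p` normal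
subgroups.
-/

set_option autoImplicit false
set_option linter.unusedSectionVars false

noncomputable section

namespace Fermat.Agent.S55.CFT.LOC.H72

open CategoryTheory CategoryTheory.Limits groupCohomology Rep

/-- The order of a finite group kills its cohomology in degree 2. -/
theorem card_nsmul_H2 {Q : Type} [Group Q] [Finite Q] (B : Rep.{0} ℤ Q)
    (y : groupCohomology B 2) : Nat.card Q • y = 0 := by
  have h := Fermat.Agent.S55.CFT.H58.index_smul_eq_zero B (⊥ : Subgroup Q) 2
    (isZero_groupCohomology_succ_of_subsingleton _ 1) y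
  rwa [Subgroup.index_bot] at h

/-- A class in `H²(G, A)` whose restriction to the normal subgroup `S` (of finite index, with
`H¹(S, A) = 0`) vanishes is killed by the index of `S`. -/
theorem index_nsmul_eq_zero_of_res {G : Type} [Group G] [Finite G] (A : Rep.{0} ℤ G)
    (S : Subgroup G) [S.Normal]
    (h1 : Subsingleton (groupCohomology (res S.subtype A) 1)) (x : groupCohomology A 2)
    (hx : Fermat.Agent.S55.CFT.H24.res₂ A S x = 0) : S.index • x = 0 := by
  obtain ⟨y, rfl⟩ := (Fermat.Agent.S55.CFT.H24.res₂_eq_zero_iff A S h1 x).1 hx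
  have hy := card_nsmul_H2 (A.quotientToInvariants S) y
  rw [← Subgroup.index_eq_card] at hy
  rw [← map_nsmul, hy, map_zero]

/-- In a finite cyclic additive group at most `d` elements are killed by `d > 0`. -/
theorem card_le_of_forall_nsmul_eq_zero {X : Type} [AddCommGroup X] [Finite X]
    (hcyc : ∃ γ : X, ∀ x : X, ∃ n : ℤ, x = n • γ) (K : AddSubgroup X) (d : ℕ) (hd : 0 < d)
    (hK : ∀ x ∈ K, d • x = 0) : Nat.card K ≤ d := by
  classical
  let _ : Fintype X := Fintype.ofFinite X
  have : IsAddCyclic X := by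
    obtain ⟨γ, hγ⟩ := hcyc
    exact ⟨⟨γ, fun x => by
      obtain ⟨n, rfl⟩ := hγ x
      exact ⟨n, rfl⟩⟩⟩
  have h1 := IsAddCyclic.card_nsmul_eq_zero_le (α := X) hd
  have h2 : Nat.card K ≤ (Finset.univ.filter (fun a : X => d • a = 0)).card := by
    rw [Nat.card_eq_fintype_card, ← Finset.card_univ]
    apply Finset.card_le_card_of_injOn (fun k : K => (k : X))
    · intro k _
      rw [Finset.mem_coe, Finset.mem_filter]
      exact ⟨Finset.mem_univ _, hK k k.2⟩
    · intro a _ b _ hab
      exact Subtype.ext hab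
  exact h2.trans h1

/-- **Normal step.**  If `S` is normal in the finite group `G`, `H¹(S, A) = 0`, `H²(G, A)` is
cyclic of order `#G` and `H²(S, A)` has order `#S`, then restriction
`H²(G, A) → H²(S, A)` is surjective. -/
theorem res_surjective_of_normal {G : Type} [Group G] [Finite G] (A : Rep.{0} ℤ G)
    (S : Subgroup G) [S.Normal]
    (h1 : Subsingleton (groupCohomology (res S.subtype A) 1))
    (hG : Nat.card (groupCohomology A 2) = Nat.card G)
    (hcyc : ∃ γ : groupCohomology A 2, ∀ x : groupCohomology A 2, ∃ n : ℤ, x = n • γ)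
    (hS : Nat.card (groupCohomology (res S.subtype A) 2) = Nat.card S) :
    Function.Surjective (Fermat.Agent.S55.CFT.H24.res₂ A S) := by
  classical
  have hfinX : Finite (groupCohomology A 2) :=
    Nat.finite_of_card_ne_zero (by rw [hG]; exact Nat.card_pos.ne')
  have hfinY : Finite (groupCohomology (res S.subtype A) 2) :=
    Nat.finite_of_card_ne_zero (by rw [hS]; exact Nat.card_pos.ne')
  set f : groupCohomology A 2 →+ groupCohomology (res S.subtype A) 2 :=
    (Fermat.Agent.S55.CFT.H24.res₂ A S).hom.toAddMonoidHom with hf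
  have hidx : 0 < S.index := Nat.pos_of_ne_zero Subgroup.index_ne_zero_of_finite
  have hker : Nat.card f.ker ≤ S.index := by
    apply card_le_of_forall_nsmul_eq_zero hcyc f.ker S.index hidx
    intro x hx
    exact index_nsmul_eq_zero_of_res A S h1 x (AddMonoidHom.mem_ker.1 hx)
  have hmul : Nat.card f.ker * Nat.card f.range = Nat.card (groupCohomology A 2) := by
    rw [← AddSubgroup.index_ker]
    exact AddSubgroup.card_mul_index _
  have hle : Nat.card S ≤ Nat.card f.range := by
    have h2 : Nat.card S * S.index = Nat.card G := S.card_mul_index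
    have h3 : Nat.card S * S.index ≤ S.index * Nat.card f.range := by
      rw [h2, ← hG, ← hmul]
      exact Nat.mul_le_mul_right _ hker
    rw [mul_comm] at h3
    exact Nat.le_of_mul_le_mul_left h3 hidx
  have htop : f.range = ⊤ := AddSubgroup.eq_top_of_le_card _ (by rw [hS]; exact hle)
  intro y
  have hy : y ∈ f.range := by rw [htop]; exact AddSubgroup.mem_top y
  obtain ⟨x, hx⟩ := hy
  exact ⟨x, hx⟩

/-! ### Transport along a bijective homomorphism -/

/-- Restriction along a bijective homomorphism is bijective on cohomology. -/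
theorem map_bijective_of_bijective {G K : Type} [Group G] [Group K] (A : Rep.{0} ℤ G)
    (φ : K →* G) (hφ : Function.Bijective φ) (n : ℕ) :
    Function.Bijective (map φ (𝟙 (res φ A)) n) := by
  let e : K ≃* G := MulEquiv.ofBijective φ hφ
  let I := mapIso (B := res φ A) (A := A) e (@LinearEquiv.refl ℤ A.V _ _ A.hV2)
    (fun _ => rfl) n
  have hI : I.inv = map φ (𝟙 (res φ A)) n := by
    apply groupCohomology.map_congr
    · ext k
      rfl
    · rfl
  rw [← hI]
  exact I.symm.toLinearEquiv.bijective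

/-- Restriction along a bijective homomorphism is surjective on cohomology. -/
theorem map_surjective_of_bijective {G K : Type} [Group G] [Group K] (A : Rep.{0} ℤ G)
    (φ : K →* G) (hφ : Function.Bijective φ) (n : ℕ) :
    Function.Surjective (map φ (𝟙 (res φ A)) n) :=
  (map_bijective_of_bijective A φ hφ n).2

/-- Transport of cohomology from a group `K` embedded in `G` to its image. -/
def rangeIso {G K : Type} [Group G] [Group K] (A : Rep.{0} ℤ G) (φ : K →* G)
    (hφ : Function.Injective φ) (n : ℕ) :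
    groupCohomology (res φ A) n ≅ groupCohomology (res φ.range.subtype A) n :=
  mapIso (B := res φ A) (A := res φ.range.subtype A) (MonoidHom.ofInjective hφ)
    (@LinearEquiv.refl ℤ A.V _ _ A.hV2) (fun _ => rfl) n

/-! ### The hypothesis and the induction -/

/-- The hypothesis of the fundamental class theorem, in homomorphism form: on every group
mapping injectively to `G`, `H¹` vanishes and `H²` is cyclic of the order of the group. -/
def FundHyp {G : Type} [Group G] (A : Rep.{0} ℤ G) : Prop :=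
  ∀ (K : Type) [Group K] (φ : K →* G), Function.Injective φ →
    Subsingleton (groupCohomology (_root_.Rep.res φ A) 1) ∧
    Nat.card (groupCohomology (_root_.Rep.res φ A) 2) = Nat.card K ∧
    ∃ γ : groupCohomology (_root_.Rep.res φ A) 2, ∀ x : groupCohomology (_root_.Rep.res φ A) 2, ∃ n : ℤ, x = n • γ

theorem FundHyp.res {G : Type} [Group G] {A : Rep.{0} ℤ G} (h : FundHyp A) {K : Type}
    [Group K] (φ : K →* G) (hφ : Function.Injective φ) : FundHyp (_root_.Rep.res φ A) :=
  fun L _ ψ hψ => h L (φ.comp ψ) (hφ.comp hψ)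

/-- **LOC-4g, abstract form**: under `FundHyp`, restriction to any subgroup is surjective on
`H²`, for finite `p`-groups. -/
theorem res_surjective_of_fundHyp (p : ℕ) [Fact p.Prime] :
    ∀ (m : ℕ) (G : Type) [Group G] [Finite G], Nat.card G = m → IsPGroup p G →
      ∀ A : Rep.{0} ℤ G, FundHyp A → ∀ (K : Type) [Group K] (φ : K →* G),
        Function.Injective φ → Function.Surjective (map φ (𝟙 (res φ A)) 2) := by
  intro m
  induction m using Nat.strong_induction_on with
  | _ m ih =>
    intro G _ _ hcard hP A hA K _ φ hφ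
    have hp : p.Prime := Fact.out
    by_cases hsurj : Function.Surjective φ
    · exact map_surjective_of_bijective A φ ⟨hφ, hsurj⟩ 2
    · -- the image is a proper subgroup
      obtain ⟨e, he⟩ := (IsPGroup.iff_card (p := p) (G := G)).mp hP
      have hPH : IsPGroup p φ.range := hP.to_subgroup _
      obtain ⟨n, hn⟩ := (IsPGroup.iff_card (p := p) (G := φ.range)).mp hPH
      have hne : φ.range ≠ ⊤ := fun h => hsurj (MonoidHom.range_eq_top.1 h)
      have hlt : n < e := by
        by_contra hcon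
        rw [not_lt] at hcon
        apply hne
        apply Subgroup.eq_top_of_le_card
        rw [hn, he]
        exact Nat.pow_le_pow_right hp.pos hcon
      obtain ⟨e', rfl⟩ : ∃ e', e = e' + 1 := ⟨e - 1, by omega⟩
      obtain ⟨N, hN, hHN⟩ := Sylow.exists_subgroup_card_pow_prime_le (G := G) p (m := e')
        (by rw [he]; exact pow_dvd_pow p (Nat.le_succ e')) φ.range hn (by omega)
      have hidx : N.index = p := by
        have h1 := N.card_mul_index
        rw [hN, he, pow_succ] at h1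
        exact Nat.eq_of_mul_eq_mul_left (pow_pos hp.pos e') h1
      have hnorm : N.Normal := by
        apply Subgroup.normal_of_index_eq_minFac_card
        rw [hidx, he, hp.pow_minFac (Nat.succ_ne_zero e')]
      -- factor `φ` through `N`
      let φ' : K →* N := φ.codRestrict N (fun k => hHN ⟨k, rfl⟩)
      have hφ' : Function.Injective φ' := by
        intro a b hab
        exact hφ (congrArg Subtype.val hab)
      -- the two steps
      have hstep1 : Function.Surjective (map N.subtype (𝟙 (res N.subtype A)) 2) := by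
        obtain ⟨-, hG2, hG3⟩ := hA G (MonoidHom.id G) Function.injective_id
        obtain ⟨hN1, hN2, -⟩ := hA N N.subtype N.subtype_injective
        exact res_surjective_of_normal A N hN1 hG2 hG3 hN2
      have hstep2 : Function.Surjective
          (map φ' (𝟙 (res φ' (res N.subtype A))) 2) :=
        ih (p ^ e') (by rw [← hcard, he]; exact Nat.pow_lt_pow_right hp.one_lt (Nat.lt_succ_self e'))
          N hN (hP.to_subgroup N) (res N.subtype A) (hA.res N.subtype N.subtype_injective)
          K φ' hφ'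
      have hcomp : map φ (𝟙 (res φ A)) 2 =
          map N.subtype (𝟙 (res N.subtype A)) 2 ≫ map φ' (𝟙 (res φ' (res N.subtype A))) 2 := by
        rw [← map_comp]
        apply groupCohomology.map_congr
        · rfl
        · rfl
      rw [hcomp]
      intro y
      obtain ⟨x, hx⟩ := hstep2 y
      obtain ⟨w, hw⟩ := hstep1 x
      refine ⟨w, ?_⟩
      have h3 : (map N.subtype (𝟙 (res N.subtype A)) 2 ≫
          map φ' (𝟙 (res φ' (res N.subtype A))) 2) w =
          (map φ' (𝟙 (res φ' (res N.subtype A))) 2)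
            ((map N.subtype (𝟙 (res N.subtype A)) 2) w) := rfl
      exact h3.trans ((congrArg _ hw).trans hx)

end Fermat.Agent.S55.CFT.LOC.H72

end
end
-- ==== END Fermat.Agent.S55.CFT.LOC.H72_FundResAbs

-- ==== BEGIN Fermat.Agent.S55.CFT.LOC.H9_TQLVal
section

set_option autoImplicit false
set_option linter.style.haveILetI false
set_option linter.unusedSectionVars false

noncomputable section

namespace Fermat.Agent.S55.CFT.LOC.H9

open IntermediateField

/-- The `p`-adic norm of a nonzero `p`-adic number is an integral power of `p`. -/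
theorem padic_norm_pow_eq (p : ℕ) [Fact p.Prime] (x : ℚ_[p]) (d : ℕ)
    (h : ‖x‖ ^ p = ((p : ℝ)⁻¹) ^ d) : p ∣ d := by
  have hp : p.Prime := Fact.out
  have hp1 : (1 : ℝ) < p := by exact_mod_cast hp.one_lt
  have hp0 : (0 : ℝ) < p := by positivity
  have hx : x ≠ 0 := by
    rintro rfl
    rw [norm_zero, zero_pow hp.ne_zero] at h
    exact (pow_pos (inv_pos.mpr hp0) d).ne h
  rw [Padic.norm_eq_zpow_neg_valuation hx, ← zpow_natCast, ← zpow_mul, ← zpow_natCast,
    inv_zpow', ] at h
  have h2 := zpow_right_injective₀ hp0 hp1.ne' h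
  have h3 : (d : ℤ) = x.valuation * p := by linarith
  have h4 : (p : ℤ) ∣ (d : ℤ) := ⟨x.valuation, by rw [h3]; ring⟩
  exact_mod_cast h4

/-- Abstract form of TQL-V. -/
theorem not_norm_eq_p (p : ℕ) [Fact p.Prime] (F₀ E₁ L : Type) [Field F₀] [Field E₁] [Field L]
    [Algebra ℚ_[p] F₀] [Algebra ℚ_[p] E₁] [Algebra ℚ_[p] L] [Algebra F₀ L] [Algebra E₁ L]
    [IsScalarTower ℚ_[p] F₀ L] [IsScalarTower ℚ_[p] E₁ L]
    [FiniteDimensional ℚ_[p] F₀] [FiniteDimensional ℚ_[p] E₁] [IsGalois ℚ_[p] E₁]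
    (hd : Module.finrank ℚ_[p] F₀ < p) (hE : Module.finrank ℚ_[p] E₁ = p)
    (hunr : IsUnram p ℚ_[p] E₁) (y : L) :
    Algebra.norm F₀ y ≠ algebraMap ℚ_[p] F₀ (p : ℚ_[p]) := by
  intro hy
  have hp : p.Prime := Fact.out
  set d := Module.finrank ℚ_[p] F₀ with hddef
  have hdpos : 0 < d := Module.finrank_pos
  have h1 : Algebra.norm ℚ_[p] (Algebra.norm F₀ y) = (p : ℚ_[p]) ^ d := by
    rw [hy, Algebra.norm_algebraMap]
  have h2 : Algebra.norm ℚ_[p] (Algebra.norm F₀ y) = Algebra.norm ℚ_[p] (Algebra.norm E₁ y) := by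
    rw [Algebra.norm_norm, Algebra.norm_norm]
  have h3 := nrm_norm p ℚ_[p] E₁ (Algebra.norm E₁ y)
  rw [← h2, h1, hE] at h3
  obtain ⟨x, hx⟩ := hunr (Algebra.norm E₁ y)
  rw [hx] at h3
  have e1 : ∀ a : ℚ_[p], nrm p ℚ_[p] a = ‖a‖ := fun a => nrm_algebraMap_padic p ℚ_[p] a
  rw [e1, e1, norm_pow, Padic.norm_p] at h3
  have := padic_norm_pow_eq p x d h3.symm
  exact absurd (Nat.le_of_dvd hdpos this) (not_le.mpr hd)

/-- **TQL-V**. -/
theorem stmt_TQL_Val : Stmt_TQL_Val := by
  intro p _ F₀ E₁ L hF₀ hd hE₁ hgal hE hunr hL hEL y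
  haveI := hF₀
  haveI := hE₁
  haveI := hgal
  haveI := hL
  letI iEL : Algebra ↥E₁ ↥L :=
    RingHom.toAlgebra
      { toFun := fun x => ⟨x.1, hEL x.1 x.2⟩
        map_one' := rfl
        map_mul' := fun _ _ => rfl
        map_zero' := rfl
        map_add' := fun _ _ => rfl }
  haveI : IsScalarTower ℚ_[p] ↥E₁ ↥L := by
    refine IsScalarTower.of_algebraMap_eq fun x => ?_
    apply Subtype.ext
    rfl
  exact not_norm_eq_p p ↥F₀ ↥E₁ ↥L hd hE hunr y

end Fermat.Agent.S55.CFT.LOC.H9

end

end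
-- ==== END Fermat.Agent.S55.CFT.LOC.H9_TQLVal

-- ==== BEGIN Fermat.Agent.S55.Coh.Level
section

set_option autoImplicit false

open CategoryTheory Module groupCohomology ExtCitation

noncomputable section

namespace Fermat.Agent.S55

variable {k : Type} [Field k]

/-- **NC**: every level-`S` field is contained in a level-`S` field with normal fixing
subgroup. -/
def NC (S : Finset Nat.Primes) : Prop :=
  ∀ F : IntermediateField ℚ (AlgebraicClosure ℚ), F.IsUnramifiedOutside S →
    ∃ F' : IntermediateField ℚ (AlgebraicClosure ℚ), F ≤ F' ∧ F'.IsUnramifiedOutside S ∧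
      F'.fixingSubgroup.Normal

/-- **NCfin**: every finite extension is contained in a finite one with normal fixing
subgroup. -/
def NCfin : Prop :=
  ∀ F : IntermediateField ℚ (AlgebraicClosure ℚ), FiniteDimensional ℚ F →
    ∃ F' : IntermediateField ℚ (AlgebraicClosure ℚ), F ≤ F' ∧ FiniteDimensional ℚ F' ∧
      F'.fixingSubgroup.Normal

section ncfin

/-- local instance: `Q̄/ℚ` is algebraic. -/
theorem h49_qbar_isAlgebraic : Algebra.IsAlgebraic ℚ (AlgebraicClosure ℚ) :=
  AlgebraicClosure.isAlgebraic ℚ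

attribute [local instance] h49_qbar_isAlgebraic

/-- local instance: `Q̄` is an algebraic closure of `ℚ`. -/
theorem h49_qbar_isAlgClosure : IsAlgClosure ℚ (AlgebraicClosure ℚ) :=
  ⟨inferInstance, inferInstance⟩

attribute [local instance] h49_qbar_isAlgClosure

/-- local instance: `Q̄/ℚ` is normal. -/
theorem h49_qbar_normal : Normal ℚ (AlgebraicClosure ℚ) :=
  IsAlgClosure.normal ℚ (AlgebraicClosure ℚ)

attribute [local instance] h49_qbar_normal

/-- local instance: `Q̄/ℚ` is Galois. -/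
theorem h49_qbar_isGalois : IsGalois ℚ (AlgebraicClosure ℚ) := ⟨⟩

attribute [local instance] h49_qbar_isGalois

/-- **NCfin** holds: the normal closure of a finite extension. -/
theorem ncfin : NCfin := by
  intro F hF
  haveI := hF
  haveI : Normal ℚ (IntermediateField.normalClosure ℚ F (AlgebraicClosure ℚ)) :=
    normalClosure.normal ℚ F _
  haveI : FiniteDimensional ℚ (IntermediateField.normalClosure ℚ F (AlgebraicClosure ℚ)) :=
    normalClosure.is_finiteDimensional ℚ F _
  refine ⟨IntermediateField.normalClosure ℚ F (AlgebraicClosure ℚ),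
    IntermediateField.le_normalClosure F, inferInstance, ?_⟩
  rw [InfiniteGalois.normal_iff_isGalois]
  exact ⟨⟩

end ncfin

section global

variable {S : Finset Nat.Primes}

lemma mem_fix_of_le {F F' : IntermediateField ℚ (AlgebraicClosure ℚ)} (h : F ≤ F') {s : GQ}
    (hs : s ∈ F'.fixingSubgroup) : s ∈ F.fixingSubgroup :=
  IntermediateField.fixingSubgroup_antitone h hs

lemma conj_mem_fix {F : IntermediateField ℚ (AlgebraicClosure ℚ)} (hn : F.fixingSubgroup.Normal)
    (g : GQ) {s : GQ} (hs : s ∈ F.fixingSubgroup) : g⁻¹ * s * g ∈ F.fixingSubgroup := by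
  have := hn.conj_mem s hs g⁻¹
  simpa using this

/-- Two level fields have a common normal level field. -/
lemma exists_common_level (hNC : NC S) {F₁ F₂ : IntermediateField ℚ (AlgebraicClosure ℚ)}
    (h₁ : F₁.IsUnramifiedOutside S) (h₂ : F₂.IsUnramifiedOutside S) :
    ∃ F : IntermediateField ℚ (AlgebraicClosure ℚ), F₁ ≤ F ∧ F₂ ≤ F ∧
      F.IsUnramifiedOutside S ∧ F.fixingSubgroup.Normal := by
  obtain ⟨F, hle, hF, hn⟩ := hNC (F₁ ⊔ F₂) (h₁.sup h₂)
  exact ⟨F, le_sup_left.trans hle, le_sup_right.trans hle, hF, hn⟩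

lemma levS₁_neg {X : Type} [Neg X] {f : GQ → X} (hf : IsLevelConstantS₁ S f) :
    IsLevelConstantS₁ S (-f) := hf.comp (fun x => -x)

lemma levS₁_sub {X : Type} [AddGroup X] {f f' : GQ → X}
    (hf : IsLevelConstantS₁ S f) (hf' : IsLevelConstantS₁ S f') :
    IsLevelConstantS₁ S (f - f') := by
  rw [sub_eq_add_neg]; exact hf.add (levS₁_neg hf')

lemma levS₂_neg {X : Type} [Neg X] {f : GQ × GQ → X}
    (hf : IsLevelConstantS₂ S f) : IsLevelConstantS₂ S (-f) := hf.comp (fun x => -x)

lemma levS₂_sub {X : Type} [AddGroup X] {f f' : GQ × GQ → X}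
    (hf : IsLevelConstantS₂ S f) (hf' : IsLevelConstantS₂ S f') :
    IsLevelConstantS₂ S (f - f') := by
  rw [sub_eq_add_neg]; exact hf.add (levS₂_neg hf')

lemma levS₃_comp {X Y : Type} {f : GQ × GQ × GQ → X} (hf : IsLevS₃ S f) (φ : X → Y) :
    IsLevS₃ S (fun x => φ (f x)) := by
  obtain ⟨F, hF, h⟩ := hf
  exact ⟨F, hF, fun g₁ g₂ g₃ s₁ s₂ s₃ h₁ h₂ h₃ => by simp only [h g₁ g₂ g₃ s₁ s₂ s₃ h₁ h₂ h₃]⟩

lemma levS₁_comp {X Y : Type} {f : GQ → X} (hf : IsLevelConstantS₁ S f)
    (φ : X → Y) : IsLevelConstantS₁ S (fun x => φ (f x)) := hf.comp φ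

lemma levS₂_comp {X Y : Type} {f : GQ × GQ → X} (hf : IsLevelConstantS₂ S f)
    (φ : X → Y) : IsLevelConstantS₂ S (fun x => φ (f x)) := hf.comp φ

variable (M : Rep.{0} k GQ)

/-- `d⁰ m` is of level `S`. -/
lemma isLevelConstantS₁_dZero (hM : Lev S M) (m : M) : IsLevelConstantS₁ S (dZero M m) := by
  obtain ⟨F, hF, h⟩ := hM
  refine ⟨F, hF, fun g s hs => ?_⟩
  simp only [dZero, map_mul, Module.End.mul_apply, h s hs m]

/-- `d¹` preserves level `S`. -/
lemma isLevelConstantS₂_dOne (hNC : NC S) (hM : Lev S M) {f : GQ → M}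
    (hf : IsLevelConstantS₁ S f) : IsLevelConstantS₂ S (dOne M f) := by
  obtain ⟨F₁, hF₁, h₁⟩ := hf
  obtain ⟨F₂, hF₂, h₂⟩ := hM
  obtain ⟨F, hle₁, hle₂, hF, hn⟩ := exists_common_level hNC hF₁ hF₂
  refine ⟨F, hF, fun g g' s s' hs hs' => ?_⟩
  have e1 : g * s * (g' * s') = g * g' * ((g'⁻¹ * s * g') * s') := by group
  have hc : (g'⁻¹ * s * g') * s' ∈ F.fixingSubgroup :=
    F.fixingSubgroup.mul_mem (conj_mem_fix hn g' hs) hs'
  simp only [dOne, map_mul, Module.End.mul_apply]
  rw [h₁ g' s' (mem_fix_of_le hle₁ hs'), h₂ s (mem_fix_of_le hle₂ hs), e1,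
    h₁ (g * g') _ (mem_fix_of_le hle₁ hc), h₁ g s (mem_fix_of_le hle₁ hs)]

/-- `d²` preserves level `S`. -/
lemma isLevS₃_dTwo (hNC : NC S) (hM : Lev S M) {f : GQ × GQ → M}
    (hf : IsLevelConstantS₂ S f) : IsLevS₃ S (dTwo M f) := by
  obtain ⟨F₁, hF₁, h₁⟩ := hf
  obtain ⟨F₂, hF₂, h₂⟩ := hM
  obtain ⟨F, hle₁, hle₂, hF, hn⟩ := exists_common_level hNC hF₁ hF₂
  refine ⟨F, hF, fun g₁ g₂ g₃ s₁ s₂ s₃ hs₁ hs₂ hs₃ => ?_⟩
  have e1 : g₁ * s₁ * (g₂ * s₂) = g₁ * g₂ * ((g₂⁻¹ * s₁ * g₂) * s₂) := by group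
  have hc1 : (g₂⁻¹ * s₁ * g₂) * s₂ ∈ F.fixingSubgroup :=
    F.fixingSubgroup.mul_mem (conj_mem_fix hn g₂ hs₁) hs₂
  have e2 : g₂ * s₂ * (g₃ * s₃) = g₂ * g₃ * ((g₃⁻¹ * s₂ * g₃) * s₃) := by group
  have hc2 : (g₃⁻¹ * s₂ * g₃) * s₃ ∈ F.fixingSubgroup :=
    F.fixingSubgroup.mul_mem (conj_mem_fix hn g₃ hs₂) hs₃
  have h₁' : ∀ a b t t', t ∈ F.fixingSubgroup → t' ∈ F.fixingSubgroup →
      f (a * t, b * t') = f (a, b) := fun a b t t' ht ht' =>
    h₁ a b t t' (mem_fix_of_le hle₁ ht) (mem_fix_of_le hle₁ ht')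
  simp only [dTwo, map_mul, Module.End.mul_apply]
  rw [h₁' g₂ g₃ s₂ s₃ hs₂ hs₃, h₂ s₁ (mem_fix_of_le hle₂ hs₁), e1,
    h₁' (g₁ * g₂) g₃ _ s₃ hc1 hs₃, e2, h₁' g₁ (g₂ * g₃) s₁ _ hs₁ hc2,
    h₁' g₁ g₂ s₁ s₂ hs₁ hs₂]

/-- The twisted dual of a module of level `S` has level `S`. -/
lemma lev_Md {χ : GQ →* kˣ} (hχ : LevChar S χ) (hM : Lev S M) : Lev S (Md χ M) := by
  obtain ⟨F₁, hF₁, h₁⟩ := hχ
  obtain ⟨F₂, hF₂, h₂⟩ := hM
  refine ⟨F₁ ⊔ F₂, hF₁.sup hF₂, fun s hs φ => ?_⟩
  have hs₁ : s ∈ F₁.fixingSubgroup := mem_fix_of_le le_sup_left hs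
  have hs₂ : s⁻¹ ∈ F₂.fixingSubgroup := F₂.fixingSubgroup.inv_mem (mem_fix_of_le le_sup_right hs)
  apply Md_ext
  intro m
  rw [Md_rho_apply, h₁ s hs₁, h₂ s⁻¹ hs₂ m]
  simp

end global

/-! ### Local levels -/

section localLevel

variable {S : Finset Nat.Primes} (q : Nat.Primes)

lemma levL₁_neg {X : Type} [Neg X] {f : Gl q → X} (hf : IsLevelConstant₁ (rl q) f) :
    IsLevelConstant₁ (rl q) (-f) := hf.comp (fun x => -x)

lemma levL₁_sub {X : Type} [AddGroup X] {f f' : Gl q → X}
    (hf : IsLevelConstant₁ (rl q) f) (hf' : IsLevelConstant₁ (rl q) f') :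
    IsLevelConstant₁ (rl q) (f - f') := by
  rw [sub_eq_add_neg]; exact hf.add (levL₁_neg q hf')

lemma levL₂_neg {X : Type} [Neg X] {f : Gl q × Gl q → X} (hf : IsLevelConstant₂ (rl q) f) :
    IsLevelConstant₂ (rl q) (-f) := hf.comp (fun x => -x)

lemma levL₂_sub {X : Type} [AddGroup X] {f f' : Gl q × Gl q → X}
    (hf : IsLevelConstant₂ (rl q) f) (hf' : IsLevelConstant₂ (rl q) f') :
    IsLevelConstant₂ (rl q) (f - f') := by
  rw [sub_eq_add_neg]; exact hf.add (levL₂_neg q hf')

lemma levL₁_comp {X Y : Type} {f : Gl q → X} (hf : IsLevelConstant₁ (rl q) f)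
    (φ : X → Y) : IsLevelConstant₁ (rl q) (fun x => φ (f x)) := hf.comp φ

lemma levL₂_comp {X Y : Type} {f : Gl q × Gl q → X} (hf : IsLevelConstant₂ (rl q) f)
    (φ : X → Y) : IsLevelConstant₂ (rl q) (fun x => φ (f x)) := hf.comp φ

/-- The restriction of a level-`S` cochain is level constant. -/
lemma levL₁_resOne {X : Type} {f : GQ → X} (hf : IsLevelConstantS₁ S f) :
    IsLevelConstant₁ (rl q) (resOne q f) := by
  obtain ⟨F, hF, h⟩ := hf
  refine ⟨F, hF.1, fun g s hs => ?_⟩
  simp only [resOne, map_mul]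
  exact h _ _ hs

/-- The restriction of a level-`S` cochain is level constant. -/
lemma levL₂_resTwo {X : Type} {f : GQ × GQ → X} (hf : IsLevelConstantS₂ S f) :
    IsLevelConstant₂ (rl q) (resTwo q f) := by
  obtain ⟨F, hF, h⟩ := hf
  refine ⟨F, hF.1, fun g g' s s' hs hs' => ?_⟩
  simp only [resTwo, map_mul]
  exact h _ _ _ _ hs hs'

variable (M : Rep.{0} k GQ)

/-- The local `d⁰ m` is level constant. -/
lemma levL₁_dZeroL (hM : Lev S M) (m : M) : IsLevelConstant₁ (rl q) (dZeroL M q m) :=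
  levL₁_resOne q (isLevelConstantS₁_dZero M hM m)

/-- The local `d¹` preserves level constancy. -/
lemma levL₂_dOneL (hM : Lev S M) {f : Gl q → M}
    (hf : IsLevelConstant₁ (rl q) f) : IsLevelConstant₂ (rl q) (dOneL M q f) := by
  obtain ⟨F₁, hF₁, h₁⟩ := hf
  obtain ⟨F₂, hF₂, h₂⟩ := hM
  haveI := hF₁
  haveI := hF₂.1
  obtain ⟨F, hle, hF, hn⟩ := ncfin (F₁ ⊔ F₂) (IntermediateField.finiteDimensional_sup F₁ F₂)
  have hle₁ : F₁ ≤ F := le_sup_left.trans hle
  have hle₂ : F₂ ≤ F := le_sup_right.trans hle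
  refine ⟨F, hF, fun g g' s s' hs hs' => ?_⟩
  have e1 : g * s * (g' * s') = g * g' * ((g'⁻¹ * s * g') * s') := by group
  have hc : rl q ((g'⁻¹ * s * g') * s') ∈ F.fixingSubgroup := by
    rw [map_mul, map_mul, map_mul, map_inv]
    exact F.fixingSubgroup.mul_mem (conj_mem_fix hn (rl q g') hs) hs'
  simp only [dOneL, map_mul, Module.End.mul_apply]
  rw [h₁ g' s' (mem_fix_of_le hle₁ hs'), h₂ _ (mem_fix_of_le hle₂ hs), e1,
    h₁ (g * g') _ (mem_fix_of_le hle₁ hc), h₁ g s (mem_fix_of_le hle₁ hs)]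

end localLevel

end Fermat.Agent.S55

end

end
-- ==== END Fermat.Agent.S55.Coh.Level

-- ==== BEGIN Fermat.Agent.S55.Coh.Wiring
section

set_option autoImplicit false

open CategoryTheory Module groupCohomology ExtCitation

namespace Fermat.Agent.S55

section zero

variable {k : Type} [Field k] {S : Finset Nat.Primes} {χ : GQ →* kˣ}

lemma isLevelConstantS₂_zero (S : Finset Nat.Primes) {X : Type} [Zero X] :
    IsLevelConstantS₂ S (0 : GQ × GQ → X) :=
  isLevelConstantS₂_const S (0 : X)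

lemma isLevelConstantS₁_zero (S : Finset Nat.Primes) {X : Type} [Zero X] :
    IsLevelConstantS₁ S (0 : GQ → X) :=
  isLevelConstantS₁_const S (0 : X)

lemma isZ2c_zero (M : Rep.{0} k GQ) : IsZ2c S M (0 : C2c S M) := by
  refine ⟨⟨?_, isLevelConstantS₂_zero S⟩, fun q => ⟨isLevelConstant₁_const (rl q.1) (0 : M), ?_⟩⟩
  · funext x; simp [dTwo]
  · funext x; simp [resTwo, dOneL]

lemma isZ1c_zero (M : Rep.{0} k GQ) : IsZ1c S M (0 : C1c S M) := by
  refine ⟨⟨?_, isLevelConstantS₁_zero S⟩, fun q => ?_⟩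
  · funext x; simp [dOne]
  · funext x; simp [resOne, dZeroL]

/-- `α²epi` for the zero module. -/
lemma alphaTwoEpi_of_subsingleton (tr : Trace S χ) (M : Rep.{0} k GQ) [Subsingleton M] :
    AlphaTwoEpi tr M := by
  intro φ _
  refine ⟨0, isZ2c_zero M, fun b _ => ?_⟩
  have hM : ∀ m' : Md χ M, m' = 0 := fun m' => by
    apply LinearMap.ext
    intro m
    rw [Subsingleton.elim m 0]
    simp
  have hb : b = 0 := funext fun g => hM (b g)
  have hc : cupA2 S χ M (0 : C2c S M) b = 0 := by
    subst hb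
    refine Prod.ext (funext fun t => ?_) (funext fun q => funext fun t => ?_)
    · simp [cupA2, ev]
    · simp [cupA2, ev]
  rw [hc, hb, map_zero, map_zero]

/-- `β¹epi` for the zero module. -/
lemma betaOneEpi_of_subsingleton (tr : Trace S χ) (M : Rep.{0} k GQ) [Subsingleton M] :
    BetaOneEpi tr M := by
  intro φ _
  refine ⟨0, isZ1c_zero (Md χ M), fun a _ => ?_⟩
  have ha : a = 0 := funext fun g => Subsingleton.elim _ _
  have hc : cupB1 S χ M a (0 : C1c S (Md χ M)) = 0 := by
    subst ha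
    refine Prod.ext (funext fun t => ?_) (funext fun q => funext fun t => ?_)
    · simp [cupB1, ev]
    · simp [cupB1, ev]
  rw [hc, ha, map_zero, map_zero]

end zero

lemma isRetract_of_iso {k : Type} [Field k] {M N : Rep.{0} k GQ} (e : M ≅ N) : IsRetract M N :=
  ⟨e.hom, e.inv, fun m => by simp⟩

/-- Dévissage, cone on the left. -/
theorem alphaTwoEpi_of_devL (h1a : Stmt_E1A) (h2 : Stmt_E2)
    {k : Type} [Field k] {S : Finset Nat.Primes} {χ : GQ →* kˣ} (tr : Trace S χ)
    (hχ : LevChar S χ) (K : IntermediateField ℚ (AlgebraicClosure ℚ))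
    (hK : AlphaTwoEpi tr (permRep k K) ∧ AlphaThreeMono tr (permRep k K))
    (N : Rep.{0} k GQ) (hN : DevL k S K N) : AlphaTwoEpi tr N := by
  induction hN with
  | zero M hM => exact alphaTwoEpi_of_subsingleton tr M
  | ext M₁ M M₂ i π hses hiso h₁ h h₂ _ ih =>
    obtain ⟨e⟩ := hiso
    have hr := h2 k S χ tr M₁ (permRep k K) (isRetract_of_iso e)
    exact h1a k S χ tr hχ M₁ M M₂ i π hses h₁ h h₂ (hr.1 hK.1) (hr.2.1 hK.2) ih

/-- Dévissage, cone on the right. -/
theorem betaOneEpi_of_devR (h1b : Stmt_E1B) (h2 : Stmt_E2)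
    {k : Type} [Field k] {S : Finset Nat.Primes} {χ : GQ →* kˣ} (tr : Trace S χ)
    (hχ : LevChar S χ) (K : IntermediateField ℚ (AlgebraicClosure ℚ))
    (hK : BetaOneEpi tr (permRep k K) ∧ BetaTwoMono tr (permRep k K))
    (N : Rep.{0} k GQ) (hN : DevR k S K N) : BetaOneEpi tr N := by
  induction hN with
  | zero M hM => exact betaOneEpi_of_subsingleton tr M
  | ext M₁ M M₂ i π hses hiso h₁ h h₂ _ ih =>
    obtain ⟨e⟩ := hiso
    have hr := h2 k S χ tr M₂ (permRep k K) (isRetract_of_iso e)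
    exact h1b k S χ tr hχ M₁ M M₂ i π hses h₁ h h₂ ih (hr.2.2.1 hK.1) (hr.2.2.2 hK.2)

set_option maxHeartbeats 2000000 in
/-- **Level-1 wiring**: the packages E1–E5 and the two bridges give the frozen statement S55. -/
theorem result_of_E (h1a : Stmt_E1A) (h1b : Stmt_E1B) (h2 : Stmt_E2) (h3 : Stmt_E3)
    (h4 : Stmt_E4) (h5 : Stmt_E5) (hl : Stmt_lev) (hc : Stmt_levChar)
    {p : ℕ} [Fact p.Prime] (hp2 : p ≠ 2) (S : Finset Nat.Primes) (hpS : pPrime p ∈ S)
    (M : Rep.{0} (ZMod p) (AlgebraicClosure ℚ ≃ₐ[ℚ] AlgebraicClosure ℚ))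
    [FiniteDimensional (ZMod p) M]
    (hsm : ∀ m : M, ∃ F : IntermediateField ℚ (AlgebraicClosure ℚ), FiniteDimensional ℚ F ∧
      ∀ s ∈ F.fixingSubgroup, M.ρ s m = m)
    (hMur : ∀ q : Nat.Primes, q ∉ S → ∀ A : ValuationSubring (AlgebraicClosure ℚ),
      A.LiesOverPrime (q : ℕ) → ∀ g ∈ A.inertiaSubgroupIn ℚ, M.ρ g = 1) :
    ∃ B : sha₁ S (M.dualTwist (cycloChar p)) →ₗ[ZMod p] sha₂ S M →ₗ[ZMod p] ZMod p,
      (∀ y, (∀ x, B y x = 0) → y = 0) ∧ (∀ x, (∀ y, B y x = 0) → x = 0) := by
  have hyp : Hyp p S M := ⟨hp2, hpS, inferInstance, hsm, hMur⟩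
  have hlev : Lev S M := hl p S M hyp
  have hχ : LevChar S (cycloChar p) := hc p S hpS
  obtain ⟨K, hK, N, hret, hL, hR⟩ := h3 p (ZMod p) S M hpS hlev
  obtain ⟨tr, hA2, hA3, hB1, hB2⟩ := h4 p hp2 S hpS K hK
  have hαN : AlphaTwoEpi tr N := alphaTwoEpi_of_devL h1a h2 tr hχ K ⟨hA2, hA3⟩ N hL
  have hβN : BetaOneEpi tr N := betaOneEpi_of_devR h1b h2 tr hχ K ⟨hB1, hB2⟩ N hR
  have hr := h2 (ZMod p) S (cycloChar p) tr M N hret
  exact h5 p S M hyp tr (hr.1 hαN) (hr.2.2.1 hβN)

end Fermat.Agent.S55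

end
-- ==== END Fermat.Agent.S55.Coh.Wiring

-- ==== BEGIN Fermat.Agent.S55.H13_E3Ind
section

/-!
# S55 (Poitou–Tate), package E3, part 1 (helper13): coinduction and dévissage

* `Ind H V`: the coinduced module of a representation `V` of a subgroup `H ≤ G_ℚ`
  (Mathlib's `Rep.coind`), exactness (`indMap_isSES`), level (`lev_ind`);
* `isRetract_ind`: `M` is a retract of `Ind H (Res M)` when `[G_ℚ : H]` is invertible in `k`;
* `ind_iso_perm`: `Ind H V ≅ k[G_ℚ/H]` for `V` one-dimensional with trivial action;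
* `exists_fixed_vector`, `exists_fixed_functional`: a group acting through a finite `p`-group on
  a nonzero vector space in characteristic `p` fixes a nonzero vector (functional);
* `dev_ind`: the coinduction of a module on which `H` acts through a finite `p`-group is built
  from copies of `k[G_ℚ/H]` (from both sides).
-/

set_option autoImplicit false
set_option linter.style.haveILetI false
set_option linter.unusedSectionVars false
set_option linter.unusedVariables false

noncomputable section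

namespace Fermat.Agent.S55.H13

open CategoryTheory Module groupCohomology ExtCitation Fermat.Agent.S55

section Fixed

variable {p : ℕ} [Fact p.Prime] {k : Type} [Field k] {G : Type} [Group G]
  {V : Type} [AddCommGroup V] [Module k V]

theorem orbit_finite (ρ : Representation k G V) (U : Subgroup G) [U.FiniteIndex]
    (hU : ∀ u ∈ U, ρ u = 1) (v : V) : (Set.range fun g : G => ρ g v).Finite := by
  haveI : Finite (G ⧸ U) := Subgroup.finite_quotient_of_finiteIndex
  let φ : G ⧸ U → V := Quotient.lift (fun g : G => ρ g v) (by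
    intro a b hab
    have hab' : a⁻¹ * b ∈ U := QuotientGroup.leftRel_apply.mp hab
    show ρ a v = ρ b v
    have : b = a * (a⁻¹ * b) := by group
    rw [this, map_mul, hU _ hab', mul_one])
  have : (Set.range fun g : G => ρ g v) ⊆ Set.range φ := by
    rintro _ ⟨g, rfl⟩
    exact ⟨QuotientGroup.mk g, rfl⟩
  exact (Set.finite_range φ).subset this

theorem exists_fixed_vector_aux [Module (ZMod p) V] (ρ : Representation k G V) [Nontrivial V]
    (U : Subgroup G) [U.FiniteIndex] (hU : ∀ u ∈ U, ρ u = 1)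
    (hp : ∀ g : G, ∃ n : ℕ, g ^ (p ^ n) ∈ U) :
    ∃ v : V, v ≠ 0 ∧ ∀ g, ρ g v = v := by
  have hpprime : p.Prime := Fact.out
  obtain ⟨v₀, hv₀⟩ := exists_ne (0 : V)
  have hpV : ∀ x : V, p • x = 0 := by
    intro x
    have : (p : ZMod p) • x = 0 := by rw [ZMod.natCast_self, zero_smul]
    rwa [Nat.cast_smul_eq_nsmul] at this
  have hO := orbit_finite ρ U hU v₀
  obtain ⟨W, hWdef⟩ : ∃ W : Submodule (ZMod p) V,
      W = Submodule.span (ZMod p) (Set.range fun g : G => ρ g v₀) := ⟨_, rfl⟩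
  haveI : Module.Finite (ZMod p) W := by
    rw [hWdef]; exact Module.Finite.span_of_finite (ZMod p) hO
  haveI : Finite W := Module.finite_of_finite (ZMod p)
  have hv₀W : v₀ ∈ W := by
    rw [hWdef]; exact Submodule.subset_span ⟨1, by simp⟩
  have hstab : ∀ g : G, ∀ x ∈ W, ρ g x ∈ W := by
    intro g x hx
    rw [hWdef] at hx ⊢
    induction hx using Submodule.span_induction with
    | mem y hy =>
      obtain ⟨g', rfl⟩ := hy
      apply Submodule.subset_span
      exact ⟨g * g', by simp [map_mul]⟩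
    | zero => rw [map_zero]; exact Submodule.zero_mem _
    | add x y _ _ hx hy => rw [map_add]; exact Submodule.add_mem _ hx hy
    | smul c x _ hx =>
      rw [ZMod.map_smul (ρ g) c x]
      exact Submodule.smul_mem _ c hx
  letI : MulAction G W :=
    { smul := fun g w => ⟨ρ g w.1, hstab g w.1 w.2⟩
      one_smul := fun w => Subtype.ext (by show ρ 1 w.1 = w.1; rw [map_one]; rfl)
      mul_smul := fun g g' w => Subtype.ext (by
        show ρ (g * g') w.1 = ρ g (ρ g' w.1); rw [map_mul]; rfl) }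
  have hsmul : ∀ (g : G) (w : W), ((g • w : W) : V) = ρ g w.1 := fun g w => rfl
  let P : Subgroup (Equiv.Perm W) := (MulAction.toPermHom G W).range
  have hP : IsPGroup p P := by
    rintro ⟨x, g, rfl⟩
    obtain ⟨n, hn⟩ := hp g
    refine ⟨n, Subtype.ext ?_⟩
    show (MulAction.toPermHom G W g) ^ (p ^ n) = 1
    rw [← map_pow]
    ext w
    show ((g ^ p ^ n • w : W) : V) = w
    rw [hsmul, hU _ hn]
    rfl
  have hcard : p ∣ Nat.card W := by
    have h1 : addOrderOf (⟨v₀, hv₀W⟩ : W) = p := by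
      apply addOrderOf_eq_prime
      · apply Subtype.ext
        show p • v₀ = 0
        exact hpV v₀
      · intro h
        exact hv₀ (congrArg Subtype.val h)
    have h2 := addOrderOf_dvd_natCard (⟨v₀, hv₀W⟩ : W)
    rwa [h1] at h2
  have h0 : (0 : W) ∈ MulAction.fixedPoints P W := by
    rintro ⟨x, g, rfl⟩
    show (MulAction.toPermHom G W g) (0 : W) = 0
    apply Subtype.ext
    show ρ g 0 = 0
    exact map_zero _
  obtain ⟨b, hb, hb0⟩ := hP.exists_fixed_point_of_prime_dvd_card_of_fixed_point W hcard h0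
  refine ⟨b.1, fun h => hb0 (Subtype.ext h.symm), fun g => ?_⟩
  have := hb ⟨MulAction.toPermHom G W g, g, rfl⟩
  exact congrArg Subtype.val this

theorem exists_fixed_vector [CharP k p] (ρ : Representation k G V) [Nontrivial V] (U : Subgroup G)
    [U.FiniteIndex] (hU : ∀ u ∈ U, ρ u = 1) (hp : ∀ g : G, ∃ n : ℕ, g ^ (p ^ n) ∈ U) :
    ∃ v : V, v ≠ 0 ∧ ∀ g, ρ g v = v := by
  have hpV : ∀ x : V, p • x = 0 := by
    intro x
    rw [← Nat.cast_smul_eq_nsmul k, CharP.cast_eq_zero k p, zero_smul]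
  letI : Module (ZMod p) V := AddCommGroup.zmodModule hpV
  exact exists_fixed_vector_aux (p := p) ρ U hU hp

theorem exists_fixed_functional [CharP k p] (ρ : Representation k G V) [Nontrivial V]
    [FiniteDimensional k V] (U : Subgroup G)
    [U.FiniteIndex] (hU : ∀ u ∈ U, ρ u = 1) (hp : ∀ g : G, ∃ n : ℕ, g ^ (p ^ n) ∈ U) :
    ∃ l : V →ₗ[k] k, l ≠ 0 ∧ ∀ g v, l (ρ g v) = l v := by
  haveI : Nontrivial (Module.Dual k V) := inferInstance
  obtain ⟨l, hl0, hl⟩ := exists_fixed_vector (p := p) ρ.dual U (fun u hu => by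
    ext f v
    rw [Representation.dual_apply]
    show f (ρ u⁻¹ v) = f v
    rw [hU _ (U.inv_mem hu)]
    rfl) hp
  refine ⟨l, hl0, fun g v => ?_⟩
  have := congrArg (fun f : Module.Dual k V => f v) (hl g⁻¹)
  rw [Representation.dual_apply, inv_inv] at this
  exact this

end Fixed

variable {k : Type} [Field k] (H : Subgroup GQ)

/-- Coinduction from `H` to `G_ℚ`. -/
abbrev Ind (V : Rep.{0} k H) : Rep.{0} k GQ := Rep.coind H.subtype V

theorem ind_apply (V : Rep.{0} k H) (f : Ind H V) (g x : GQ) :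
    (((Ind H V).ρ g f : Ind H V) : GQ → V) x = (f : GQ → V) (x * g) := rfl

theorem ind_mem (V : Rep.{0} k H) (f : Ind H V) (h : H) (x : GQ) :
    (f : GQ → V) ((h : GQ) * x) = V.ρ h ((f : GQ → V) x) := f.2 h x

/-- the map induced on coinductions -/
abbrev indMap {V W : Rep.{0} k H} (φ : V ⟶ W) : Ind H V ⟶ Ind H W := Rep.coindMap H.subtype φ

theorem indMap_apply {V W : Rep.{0} k H} (φ : V ⟶ W) (f : Ind H V) (x : GQ) :
    (((indMap H φ).hom f : Ind H W) : GQ → W) x = φ.hom ((f : GQ → V) x) := rfl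

theorem indMap_injective {V W : Rep.{0} k H} (φ : V ⟶ W) (hφ : Function.Injective φ.hom) :
    Function.Injective (indMap H φ).hom := by
  intro f f' hff
  apply Subtype.ext
  funext x
  apply hφ
  have := congrArg (fun u : Ind H W => (u : GQ → W) x) hff
  exact this

theorem indMap_surjective {V W : Rep.{0} k H} (φ : V ⟶ W) (hφ : Function.Surjective φ.hom) :
    Function.Surjective (indMap H φ).hom := by
  haveI : Epi φ := (Rep.epi_iff_surjective φ).2 hφ
  have : Epi ((Rep.coindFunctor k H.subtype).map φ) := inferInstance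
  exact (Rep.epi_iff_surjective _).1 this

/-- `Ind` is exact. -/
theorem indMap_isSES {V₁ V V₂ : Rep.{0} k H} (i : V₁ ⟶ V) (π : V ⟶ V₂)
    (hi : Function.Injective i.hom) (hπ : Function.Surjective π.hom)
    (hex : ∀ v : V, π.hom v = 0 ↔ ∃ v₁ : V₁, i.hom v₁ = v) :
    IsSES (indMap H i) (indMap H π) := by
  refine ⟨indMap_injective H i hi, indMap_surjective H π hπ, fun f => ⟨fun hf => ?_, ?_⟩⟩
  · have hf' : ∀ x : GQ, ∃ v₁ : V₁, i.hom v₁ = (f : GQ → V) x := by
      intro x
      rw [← hex]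
      have := congrArg (fun u : Ind H V₂ => (u : GQ → V₂) x) hf
      exact this
    choose f₁ hf₁ using hf'
    refine ⟨⟨f₁, ?_⟩, ?_⟩
    · intro h x
      apply hi
      rw [hf₁, Rep.hom_comm_apply, hf₁]
      exact ind_mem H V f h x
    · apply Subtype.ext
      funext x
      exact hf₁ x
  · rintro ⟨f₁, rfl⟩
    apply Subtype.ext
    funext x
    show π.hom (i.hom ((f₁ : GQ → V₁) x)) = 0
    rw [hex]
    exact ⟨_, rfl⟩

/-- Level of a coinduced module. -/
theorem lev_ind (S : Finset Nat.Primes) (V : Rep.{0} k H)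
    (L : IntermediateField ℚ (AlgebraicClosure ℚ)) (hL : L.IsUnramifiedOutside S)
    (hnorm : L.fixingSubgroup.Normal) (hLH : L.fixingSubgroup ≤ H)
    (htriv : ∀ h : H, (h : GQ) ∈ L.fixingSubgroup → V.ρ h = 1) :
    Lev S (Ind H V) := by
  refine ⟨L, hL, fun s hs f => ?_⟩
  apply Subtype.ext
  funext x
  rw [ind_apply]
  have hc : x * s * x⁻¹ ∈ L.fixingSubgroup := hnorm.conj_mem s hs x
  have h1 := ind_mem H V f ⟨x * s * x⁻¹, hLH hc⟩ x
  rw [htriv _ hc] at h1
  simp only [inv_mul_cancel_right] at h1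
  exact h1


section Retract

variable (M : Rep.{0} k GQ)

/-- the unit `M → Ind Res M`, `m ↦ (g ↦ g m)` -/
def unitLin : M →ₗ[k] Ind H (Rep.res H.subtype M) where
  toFun m := ⟨fun g => M.ρ g m, fun h x => by
    show M.ρ ((h : GQ) * x) m = M.ρ (h : GQ) (M.ρ x m)
    rw [map_mul]; rfl⟩
  map_add' a b := by
    apply Subtype.ext; funext g
    exact map_add (M.ρ g) a b
  map_smul' c a := by
    apply Subtype.ext; funext g
    exact map_smul (M.ρ g) c a

theorem unitLin_apply (m : M) (g : GQ) :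
    ((unitLin H M m : Ind H (Rep.res H.subtype M)) : GQ → M) g = M.ρ g m := rfl

def unitHom : M ⟶ Ind H (Rep.res H.subtype M) :=
  Rep.ofHom ⟨unitLin H M, fun g => by
    apply LinearMap.ext
    intro m
    apply Subtype.ext
    funext x
    show M.ρ x (M.ρ g m) = M.ρ (x * g) m
    rw [map_mul]; rfl⟩

/-- the function `g ↦ g f(g⁻¹)` on `G / H` -/
def avgFun (f : Ind H (Rep.res H.subtype M)) : GQ ⧸ H → M :=
  Quotient.lift (fun g : GQ => M.ρ g ((f : GQ → M) g⁻¹)) (by
    intro a b hab
    have hab' : a⁻¹ * b ∈ H := QuotientGroup.leftRel_apply.mp hab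
    show M.ρ a ((f : GQ → M) a⁻¹) = M.ρ b ((f : GQ → M) b⁻¹)
    have h1 := ind_mem H (Rep.res H.subtype M) f ⟨a⁻¹ * b, hab'⟩ b⁻¹
    have h2 : (a⁻¹ * b) * b⁻¹ = a⁻¹ := by group
    rw [show ((⟨a⁻¹ * b, hab'⟩ : H) : GQ) * b⁻¹ = a⁻¹ from h2] at h1
    rw [h1]
    show M.ρ a (M.ρ (a⁻¹ * b) ((f : GQ → M) b⁻¹)) = _
    rw [← Module.End.mul_apply, ← map_mul, mul_inv_cancel_left])

theorem avgFun_mk (f : Ind H (Rep.res H.subtype M)) (g : GQ) :
    avgFun H M f (QuotientGroup.mk g) = M.ρ g ((f : GQ → M) g⁻¹) := rfl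

variable [Fintype (GQ ⧸ H)]

def avgLin : Ind H (Rep.res H.subtype M) →ₗ[k] M where
  toFun f := ((Fintype.card (GQ ⧸ H) : k))⁻¹ • ∑ x : GQ ⧸ H, avgFun H M f x
  map_add' a b := by
    rw [← smul_add, ← Finset.sum_add_distrib]
    congr 1
    apply Finset.sum_congr rfl
    intro x _
    induction x using QuotientGroup.induction_on with
    | H g =>
      rw [avgFun_mk, avgFun_mk, avgFun_mk, ← map_add]
      rfl
  map_smul' c a := by
    rw [RingHom.id_apply, smul_comm c, Finset.smul_sum (r := c)]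
    congr 1
    apply Finset.sum_congr rfl
    intro x _
    induction x using QuotientGroup.induction_on with
    | H g =>
      rw [avgFun_mk, avgFun_mk, ← map_smul]
      rfl

theorem avgFun_ρ (f : Ind H (Rep.res H.subtype M)) (g : GQ) (x : GQ ⧸ H) :
    avgFun H M ((Ind H (Rep.res H.subtype M)).ρ g f) x = M.ρ g (avgFun H M f (g⁻¹ • x)) := by
  induction x using QuotientGroup.induction_on with
  | H y =>
    show avgFun H M _ (QuotientGroup.mk y) = M.ρ g (avgFun H M f (QuotientGroup.mk (g⁻¹ * y)))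
    rw [avgFun_mk, avgFun_mk, ind_apply, ← Module.End.mul_apply, ← map_mul, mul_inv_cancel_left,
      mul_inv_rev, inv_inv]

def avgHom : Ind H (Rep.res H.subtype M) ⟶ M :=
  Rep.ofHom ⟨avgLin H M, fun g => by
    apply LinearMap.ext
    intro f
    show ((Fintype.card (GQ ⧸ H) : k))⁻¹ • ∑ x : GQ ⧸ H,
        avgFun H M ((Ind H (Rep.res H.subtype M)).ρ g f) x =
      M.ρ g (((Fintype.card (GQ ⧸ H) : k))⁻¹ • ∑ x : GQ ⧸ H, avgFun H M f x)
    rw [map_smul, map_sum]
    congr 1
    exact Fintype.sum_equiv (MulAction.toPerm g⁻¹) _ _ (fun x => avgFun_ρ H M f g x)⟩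

theorem isRetract_ind (hn : (Fintype.card (GQ ⧸ H) : k) ≠ 0) :
    IsRetract M (Ind H (Rep.res H.subtype M)) := by
  refine ⟨unitHom H M, avgHom H M, fun m => ?_⟩
  show ((Fintype.card (GQ ⧸ H) : k))⁻¹ • ∑ x : GQ ⧸ H, avgFun H M (unitLin H M m) x = m
  have h1 : ∀ x : GQ ⧸ H, avgFun H M (unitLin H M m) x = m := by
    intro x
    induction x using QuotientGroup.induction_on with
    | H y =>
      rw [avgFun_mk, unitLin_apply, ← Module.End.mul_apply, ← map_mul, mul_inv_cancel, map_one]
      rfl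
  simp only [h1, Finset.sum_const, Finset.card_univ]
  rw [← Nat.cast_smul_eq_nsmul k, smul_smul, inv_mul_cancel₀ hn, one_smul]

end Retract

section Perm

/-- The permutation module on `G/H`. -/
abbrev permH (k : Type) [Field k] (H : Subgroup GQ) : Rep.{0} k GQ :=
  Rep.ofMulAction k GQ (GQ ⧸ H)

theorem permH_coeff (g : GQ) (x : permH k H) (y : GQ ⧸ H) :
    (((permH k H).ρ g x : permH k H) : MonoidAlgebra k (GQ ⧸ H)).coeff y =
      (x : MonoidAlgebra k (GQ ⧸ H)).coeff (g⁻¹ • y) := by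
  show ((Representation.ofMulAction k GQ (GQ ⧸ H)) g x).coeff y = _
  rw [Representation.ofMulAction_def]
  show (Finsupp.mapDomain (g • ·) (x : MonoidAlgebra k (GQ ⧸ H)).coeff) y = _
  have hinj : Function.Injective (fun z : GQ ⧸ H => g • z) := MulAction.injective g
  have := Finsupp.mapDomain_apply hinj (x : MonoidAlgebra k (GQ ⧸ H)).coeff (g⁻¹ • y)
  rw [smul_inv_smul] at this
  exact this

variable (V : Rep.{0} k H) (e : V) (he : ∀ h : H, V.ρ h e = e)

/-- `x ↦ (g ↦ x[g⁻¹H] • e)` -/
def permToInd (V : Rep.{0} k H) (e : V) (he : ∀ h : H, V.ρ h e = e) : permH k H →ₗ[k] Ind H V where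
  toFun x := ⟨fun g => (x : MonoidAlgebra k (GQ ⧸ H)).coeff (QuotientGroup.mk g⁻¹) • e, by
    intro h g
    show (x : MonoidAlgebra k (GQ ⧸ H)).coeff (QuotientGroup.mk ((h : GQ) * g)⁻¹) • e =
      V.ρ h ((x : MonoidAlgebra k (GQ ⧸ H)).coeff (QuotientGroup.mk g⁻¹) • e)
    rw [map_smul, he h, mul_inv_rev]
    congr 2
    rw [QuotientGroup.eq]
    simp⟩
  map_add' a b := by
    apply Subtype.ext; funext g
    show (a + b : MonoidAlgebra k (GQ ⧸ H)).coeff _ • e = _ • e + _ • e
    rw [MonoidAlgebra.coeff_add, Finsupp.add_apply, add_smul]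
  map_smul' c a := by
    apply Subtype.ext; funext g
    show (c • a : MonoidAlgebra k (GQ ⧸ H)).coeff _ • e = c • (_ • e)
    rw [MonoidAlgebra.coeff_smul_apply, smul_eq_mul, mul_smul]

theorem permToInd_apply (x : permH k H) (g : GQ) :
    ((permToInd H V e he x : Ind H V) : GQ → V) g =
      (x : MonoidAlgebra k (GQ ⧸ H)).coeff (QuotientGroup.mk g⁻¹) • e := rfl

theorem permToInd_equivariant (g : GQ) (x : permH k H) :
    permToInd H V e he ((permH k H).ρ g x) = (Ind H V).ρ g (permToInd H V e he x) := by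
  apply Subtype.ext
  funext y
  rw [ind_apply, permToInd_apply, permToInd_apply, permH_coeff, mul_inv_rev]
  rfl

theorem permToInd_injective (he0 : e ≠ 0) : Function.Injective (permToInd H V e he) := by
  rw [← LinearMap.ker_eq_bot, LinearMap.ker_eq_bot']
  intro x hx
  rw [← MonoidAlgebra.coeff_eq_zero]
  ext y
  induction y using QuotientGroup.induction_on with
  | H g =>
    have h1 := congrArg (fun u : Ind H V => (u : GQ → V) g⁻¹) hx
    have h2 : (x : MonoidAlgebra k (GQ ⧸ H)).coeff (QuotientGroup.mk g⁻¹⁻¹) • e = 0 := h1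
    rw [inv_inv] at h2
    rcases smul_eq_zero.mp h2 with h3 | h3
    · exact h3
    · exact absurd h3 he0

theorem permToInd_surjective [Finite (GQ ⧸ H)] (hspan : ∀ w : V, ∃ c : k, c • e = w) :
    Function.Surjective (permToInd H V e he) := by
  intro f
  choose c hc using hspan
  have hinv : ∀ (g : GQ) (h : H), (f : GQ → V) ((h : GQ) * g) = (f : GQ → V) g := by
    intro g h
    rw [ind_mem, ← hc ((f : GQ → V) g), map_smul, he]
  let φ : GQ ⧸ H → k := fun y => c ((f : GQ → V) (y.out)⁻¹)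
  refine ⟨MonoidAlgebra.ofCoeff (Finsupp.equivFunOnFinite.symm φ), ?_⟩
  apply Subtype.ext
  funext g
  rw [permToInd_apply]
  show φ (QuotientGroup.mk g⁻¹) • e = _
  show c ((f : GQ → V) ((QuotientGroup.mk g⁻¹ : GQ ⧸ H).out)⁻¹) • e = _
  rw [hc]
  obtain ⟨h, hh⟩ := QuotientGroup.mk_out_eq_mul H g⁻¹
  rw [hh, mul_inv_rev, inv_inv]
  exact hinv g h⁻¹


theorem ind_iso_perm [Finite (GQ ⧸ H)] (V : Rep.{0} k H) (e : V) (he : ∀ h : H, V.ρ h e = e)
    (he0 : e ≠ 0) (hspan : ∀ w : V, ∃ c : k, c • e = w) :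
    Nonempty (Ind H V ≅ permH k H) := by
  have hbij : Function.Bijective (permToInd H V e he) :=
    ⟨permToInd_injective H V e he he0, permToInd_surjective H V e he hspan⟩
  refine ⟨(Rep.mkIso (Representation.Equiv.mk
    (LinearEquiv.ofBijective (permToInd H V e he) hbij) (fun g => ?_))).symm⟩
  apply LinearMap.ext
  intro x
  exact permToInd_equivariant H V e he g x

end Perm

section Dev

variable (K L : IntermediateField ℚ (AlgebraicClosure ℚ))

/-- the condition on `V`: the fixing subgroup of `L` acts trivially -/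
def TrivOn (V : Rep.{0} k K.fixingSubgroup) : Prop :=
  ∀ h : K.fixingSubgroup, (h : GQ) ∈ L.fixingSubgroup → V.ρ h = 1

theorem trivOn_sub (V : Rep.{0} k K.fixingSubgroup) (hV : TrivOn K L V) (W : Submodule k V)
    (hW : ∀ g, W ≤ W.comap (V.ρ g)) : TrivOn K L (Rep.subrepresentation V W hW) := by
  intro h hh
  apply LinearMap.ext
  intro w
  apply Subtype.ext
  show V.ρ h w.1 = w.1
  rw [hV h hh]
  rfl

theorem trivOn_quot (V : Rep.{0} k K.fixingSubgroup) (hV : TrivOn K L V) (W : Submodule k V)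
    (hW : ∀ g, W ≤ W.comap (V.ρ g)) : TrivOn K L (Rep.quotient V W hW) := by
  intro h hh
  apply LinearMap.ext
  intro w
  induction w using Submodule.Quotient.induction_on with
  | H x =>
    show Submodule.Quotient.mk (V.ρ h x) = Submodule.Quotient.mk x
    rw [hV h hh]
    rfl

theorem subquot_ses (V : Rep.{0} k K.fixingSubgroup) (W : Submodule k V)
    (hW : ∀ g, W ≤ W.comap (V.ρ g)) :
    IsSES (indMap K.fixingSubgroup (Rep.subtype V W hW))
      (indMap K.fixingSubgroup (Rep.mkQ V W hW)) := by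
  apply indMap_isSES
  · exact Subtype.val_injective
  · exact Submodule.Quotient.mk_surjective W
  · intro v
    show Submodule.Quotient.mk v = 0 ↔ _
    rw [Submodule.Quotient.mk_eq_zero]
    constructor
    · intro hv
      exact ⟨⟨v, hv⟩, rfl⟩
    · rintro ⟨v₁, rfl⟩
      exact v₁.2

theorem dev_ind (p : ℕ) [Fact p.Prime] [CharP k p] (S : Finset Nat.Primes)
    (K L : IntermediateField ℚ (AlgebraicClosure ℚ))
    [Finite (GQ ⧸ K.fixingSubgroup)]
    (hL : L.IsUnramifiedOutside S) (hnorm : L.fixingSubgroup.Normal)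
    (hLK : L.fixingSubgroup ≤ K.fixingSubgroup)
    [(L.fixingSubgroup.subgroupOf K.fixingSubgroup).FiniteIndex]
    (hp : ∀ h : K.fixingSubgroup, ∃ n : ℕ,
      h ^ (p ^ n) ∈ L.fixingSubgroup.subgroupOf K.fixingSubgroup)
    (n : ℕ) : ∀ (V : Rep.{0} k K.fixingSubgroup) [FiniteDimensional k V],
    finrank k V = n → TrivOn K L V →
    DevL k S K (Ind K.fixingSubgroup V) ∧ DevR k S K (Ind K.fixingSubgroup V) := by
  induction n with
  | zero =>
    intro V _ hV0 _
    haveI : Subsingleton V := Module.finrank_zero_iff.mp hV0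
    have hsub : Subsingleton (Ind K.fixingSubgroup V) :=
      ⟨fun a b => Subtype.ext (funext fun g => Subsingleton.elim _ _)⟩
    exact ⟨DevL.zero _ hsub, DevR.zero _ hsub⟩
  | succ n ih =>
    intro V _ hVn hV
    haveI : Nontrivial V := Module.nontrivial_of_finrank_pos (R := k) (by rw [hVn]; omega)
    have hUtriv : ∀ u ∈ L.fixingSubgroup.subgroupOf K.fixingSubgroup, V.ρ u = 1 :=
      fun u hu => hV u hu
    have hlev : ∀ V' : Rep.{0} k K.fixingSubgroup, TrivOn K L V' →
        Lev S (Ind K.fixingSubgroup V') :=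
      fun V' hV' => lev_ind K.fixingSubgroup S V' L hL hnorm hLK hV'
    constructor
    · -- DevL
      obtain ⟨v, hv0, hv⟩ := exists_fixed_vector (p := p) V.ρ
        (L.fixingSubgroup.subgroupOf K.fixingSubgroup) hUtriv hp
      obtain ⟨W, hWdef⟩ : ∃ W : Submodule k V, W = Submodule.span k {v} := ⟨_, rfl⟩
      have hvW : v ∈ W := by rw [hWdef]; exact Submodule.mem_span_singleton_self v
      have hW : ∀ g, W ≤ W.comap (V.ρ g) := by
        intro g w hw
        rw [hWdef] at hw ⊢
        obtain ⟨c, rfl⟩ := Submodule.mem_span_singleton.mp hw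
        rw [Submodule.mem_comap, map_smul, hv g]
        exact Submodule.smul_mem _ c (Submodule.mem_span_singleton_self v)
      have hfrW : finrank k W = 1 := by rw [hWdef]; exact finrank_span_singleton hv0
      have hfrQ : finrank k (V ⧸ W) = n := by
        have := Submodule.finrank_quotient_add_finrank W
        rw [hVn, hfrW] at this
        omega
      haveI : FiniteDimensional k (Rep.quotient V W hW) :=
        inferInstanceAs (FiniteDimensional k (V ⧸ W))
      have ihQ := (ih (Rep.quotient V W hW) hfrQ (trivOn_quot K L V hV W hW)).1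
      have hiso : Nonempty (Ind K.fixingSubgroup (Rep.subrepresentation V W hW) ≅ permRep k K) := by
        refine ind_iso_perm K.fixingSubgroup (Rep.subrepresentation V W hW) ⟨v, hvW⟩ ?_ ?_ ?_
        · intro h
          apply Subtype.ext
          exact hv h
        · intro h
          exact hv0 (congrArg Subtype.val h)
        · rintro ⟨w, hw⟩
          rw [hWdef] at hw
          obtain ⟨c, rfl⟩ := Submodule.mem_span_singleton.mp hw
          exact ⟨c, rfl⟩
      exact DevL.ext _ _ _ _ _ (subquot_ses K V W hW) hiso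
        (hlev _ (trivOn_sub K L V hV W hW)) (hlev _ hV) (hlev _ (trivOn_quot K L V hV W hW)) ihQ
    · -- DevR
      obtain ⟨l, hl0, hl⟩ := exists_fixed_functional (p := p) V.ρ
        (L.fixingSubgroup.subgroupOf K.fixingSubgroup) hUtriv hp
      obtain ⟨W, hWdef⟩ : ∃ W : Submodule k V, W = LinearMap.ker l := ⟨_, rfl⟩
      have hW : ∀ g, W ≤ W.comap (V.ρ g) := by
        intro g w hw
        rw [hWdef] at hw ⊢
        rw [Submodule.mem_comap, LinearMap.mem_ker, hl g w]
        exact hw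
      obtain ⟨x, hx⟩ : ∃ x, l x ≠ 0 := by
        by_contra hcon
        push Not at hcon
        exact hl0 (LinearMap.ext hcon)
      have hsurj : Function.Surjective l := by
        intro c
        exact ⟨(c * (l x)⁻¹) • x, by rw [map_smul, smul_eq_mul, mul_assoc, inv_mul_cancel₀ hx,
          mul_one]⟩
      have hfrW : finrank k W = n := by
        have h1 := LinearMap.finrank_range_add_finrank_ker l
        rw [LinearMap.range_eq_top.mpr hsurj, finrank_top, Module.finrank_self, hVn,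
          ← hWdef] at h1
        omega
      haveI : FiniteDimensional k (Rep.subrepresentation V W hW) :=
        inferInstanceAs (FiniteDimensional k W)
      have ihW := (ih (Rep.subrepresentation V W hW) hfrW (trivOn_sub K L V hV W hW)).2
      obtain ⟨v₁, hv₁⟩ := hsurj 1
      have hiso : Nonempty (Ind K.fixingSubgroup (Rep.quotient V W hW) ≅ permRep k K) := by
        refine ind_iso_perm K.fixingSubgroup (Rep.quotient V W hW)
          (Submodule.Quotient.mk v₁) ?_ ?_ ?_
        · intro h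
          show Submodule.Quotient.mk (V.ρ h v₁) = Submodule.Quotient.mk v₁
          rw [Submodule.Quotient.eq, hWdef, LinearMap.mem_ker, map_sub, hl h v₁, sub_self]
        · intro h
          rw [Submodule.Quotient.mk_eq_zero, hWdef, LinearMap.mem_ker, hv₁] at h
          exact one_ne_zero h
        · intro w
          induction w using Submodule.Quotient.induction_on with
          | H y =>
            refine ⟨l y, ?_⟩
            rw [← Submodule.Quotient.mk_smul, Submodule.Quotient.eq, hWdef, LinearMap.mem_ker,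
              map_sub, map_smul, hv₁, smul_eq_mul, mul_one, sub_self]
      exact DevR.ext _ _ _ _ _ (subquot_ses K V W hW) hiso
        (hlev _ (trivOn_sub K L V hV W hW)) (hlev _ hV) (hlev _ (trivOn_quot K L V hV W hW)) ihW

end Dev

end Fermat.Agent.S55.H13

end
end
-- ==== END Fermat.Agent.S55.H13_E3Ind

-- ==== BEGIN Fermat.Agent.S55.H48_Lev
section

set_option autoImplicit false

open CategoryTheory Module groupCohomology ExtCitation

namespace Fermat.Agent.S55.H48

theorem qbar_isAlgebraic : Algebra.IsAlgebraic ℚ (AlgebraicClosure ℚ) :=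
  AlgebraicClosure.isAlgebraic ℚ

theorem qbar_isAlgClosure : IsAlgClosure ℚ (AlgebraicClosure ℚ) :=
  letI := qbar_isAlgebraic
  ⟨inferInstance, inferInstance⟩

theorem qbar_isGalois : IsGalois ℚ (AlgebraicClosure ℚ) :=
  letI := qbar_isAlgebraic
  letI := qbar_isAlgClosure
  inferInstance

/-! ### BR1 -/

/-- **BR1**: the hypotheses of the frozen statement give level `S`. -/
theorem stmt_lev : Stmt_lev := by
  intro p _ S M hM
  haveI := hM.fin
  haveI := qbar_isGalois
  -- a finite extension fixing a basis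
  choose F hF hFfix using hM.hsm
  let b := Module.finBasis (ZMod p) M
  let F₀ : IntermediateField ℚ (AlgebraicClosure ℚ) := ⨆ i, F (b i)
  haveI : ∀ i, FiniteDimensional ℚ (F (b i)) := fun i => hF (b i)
  haveI : FiniteDimensional ℚ F₀ := IntermediateField.finiteDimensional_iSup_of_finite
  have hker : ∀ s ∈ F₀.fixingSubgroup, M.ρ s = 1 := by
    intro s hs
    apply b.ext
    intro i
    have hsi : s ∈ (F (b i)).fixingSubgroup :=
      IntermediateField.fixingSubgroup_antitone (le_iSup (fun i => F (b i)) i) hs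
    exact hFfix (b i) s hsi
  -- the kernel of `ρ` is an open, hence closed, subgroup
  let H : Subgroup GQ := M.ρ.ker
  have hle : F₀.fixingSubgroup ≤ H := fun s hs => MonoidHom.mem_ker.mpr (hker s hs)
  have hopen : IsOpen (H : Set GQ) := Subgroup.isOpen_mono hle F₀.fixingSubgroup_isOpen
  have hclosed : IsClosed (H : Set GQ) := (⟨H, hopen⟩ : OpenSubgroup GQ).isClosed
  let Hc : ClosedSubgroup GQ := ⟨H, hclosed⟩
  have hfix : (IntermediateField.fixedField H).fixingSubgroup = H :=
    InfiniteGalois.fixingSubgroup_fixedField Hc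
  refine ⟨IntermediateField.fixedField H, ⟨?_, ?_⟩, ?_⟩
  · rw [← InfiniteGalois.isOpen_iff_finite, hfix]
    exact hopen
  · intro q hq A hA g hg
    rw [hfix]
    exact MonoidHom.mem_ker.mpr (hM.hMur q hq A hA g hg)
  · intro s hs m
    rw [hfix] at hs
    have h1 : M.ρ s = 1 := MonoidHom.mem_ker.mp hs
    rw [h1]
    rfl

/-! ### BR2 -/

/-- There is a primitive `p`-th root of unity in `ℚ̄`. -/
theorem exists_primitiveRoot (p : ℕ) [Fact p.Prime] :
    ∃ ζ₀ : AlgebraicClosure ℚ, IsPrimitiveRoot ζ₀ p := by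
  haveI : NeZero p := ⟨(Fact.out : p.Prime).ne_zero⟩
  haveI : NeZero (p : AlgebraicClosure ℚ) := ⟨Nat.cast_ne_zero.mpr (NeZero.ne p)⟩
  exact HasEnoughRootsOfUnity.exists_primitiveRoot (AlgebraicClosure ℚ) p

/-- An automorphism fixing all `p`-th roots of unity has trivial cyclotomic character.
(Same proof as helper47's `S56.H47.cycloChar_eq_one_of_fix`, repeated here to keep the import
closure of S55 small.) -/
theorem cycloChar_eq_one_of_fix (p : ℕ) [Fact p.Prime] (σ : GQ)
    (h : ∀ t : AlgebraicClosure ℚ, t ^ p = 1 → σ t = t) : cycloChar p σ = 1 := by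
  haveI : NeZero p := ⟨(Fact.out : p.Prime).ne_zero⟩
  haveI : Fact (1 < p) := ⟨(Fact.out : p.Prime).one_lt⟩
  have h1 := modularCyclotomicCharacter.unique (L := AlgebraicClosure ℚ)
    (card_rootsOfUnity_eq_self p) (σ : AlgebraicClosure ℚ ≃+* AlgebraicClosure ℚ)
    (c := (1 : ZMod p)) (fun t ht => by
      rw [ZMod.val_one, pow_one]
      have ht' : (t : AlgebraicClosure ℚ) ^ p = 1 := by
        have := (mem_rootsOfUnity p t).1 ht
        rw [← Units.val_pow_eq_pow_val, this, Units.val_one]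
      exact h t ht')
  refine Units.ext ?_
  rw [Units.val_one]
  exact h1.symm

/-- Inertia at `q ≠ p` fixes the `p`-th roots of unity.
(Same proof as helper47's `S56.H47.inertia_fix_root`.) -/
theorem inertia_fix_root {p q : ℕ} (hp : p.Prime) (hq : q.Prime) (hpq : q ≠ p)
    (A : ValuationSubring (AlgebraicClosure ℚ)) (hA : A.LiesOverPrime q) (σ : GQ)
    (hσ : σ ∈ A.inertiaSubgroupIn ℚ) (t : AlgebraicClosure ℚ) (ht : t ^ p = 1) : σ t = t := by
  by_contra hne
  have hvt : A.valuation t = 1 := by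
    have h1 : A.valuation t ^ p = 1 := by rw [← map_pow, ht, map_one]
    exact (pow_eq_one_iff_of_nonneg zero_le hp.ne_zero).1 h1
  have htA : t ∈ A := (A.valuation_le_one_iff t).1 hvt.le
  have ht0 : t ≠ 0 := by
    rintro rfl
    rw [zero_pow hp.ne_zero] at ht
    exact zero_ne_one ht
  have h1 : σ t - t ∈ A.nonunits := S05.H95.sub_mem_nonunits_of_mem_inertia A hσ htA
  have hz : (σ t * t⁻¹) ^ p = 1 := by
    rw [mul_pow, ← map_pow, ht, map_one, inv_pow, ht, inv_one, mul_one]
  have hz1 : σ t * t⁻¹ ≠ 1 := by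
    intro h
    apply hne
    have := congrArg (· * t) h
    simpa [ht0] using this
  have hzprim : IsPrimitiveRoot (σ t * t⁻¹) p := by
    haveI : Fact p.Prime := ⟨hp⟩
    have ho : orderOf (σ t * t⁻¹) = p := orderOf_eq_prime hz hz1
    rw [← ho]
    exact IsPrimitiveRoot.orderOf _
  have hsum : ∑ i ∈ Finset.range p, (σ t * t⁻¹) ^ i = 0 := hzprim.geom_sum_eq_zero hp.one_lt
  have hv : A.valuation (σ t * t⁻¹ - 1) < 1 := by
    have h2 : σ t * t⁻¹ - 1 = (σ t - t) * t⁻¹ := by
      field_simp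
    rw [h2, map_mul, map_inv₀, hvt, inv_one, mul_one]
    exact (A.mem_nonunits_iff).1 h1
  have hzA : σ t * t⁻¹ ∈ A := by
    have : σ t * t⁻¹ = (σ t * t⁻¹ - 1) + 1 := by ring
    rw [this]
    exact A.add_mem _ _ ((A.valuation_le_one_iff _).1 hv.le) A.one_mem
  have hvi : ∀ i : ℕ, A.valuation ((σ t * t⁻¹) ^ i - 1) < 1 := by
    intro i
    have h3 : (σ t * t⁻¹) ^ i - 1 = (σ t * t⁻¹ - 1) * ∑ j ∈ Finset.range i, (σ t * t⁻¹) ^ j :=
      (mul_geom_sum _ _).symm
    rw [h3, map_mul]
    have h4 : A.valuation (∑ j ∈ Finset.range i, (σ t * t⁻¹) ^ j) ≤ 1 :=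
      (A.valuation_le_one_iff _).2 (A.sum_mem fun j _ => A.pow_mem hzA j)
    calc A.valuation (σ t * t⁻¹ - 1) * A.valuation (∑ j ∈ Finset.range i, (σ t * t⁻¹) ^ j)
        ≤ A.valuation (σ t * t⁻¹ - 1) := mul_le_of_le_one_right' h4
      _ < 1 := hv
  have hvp : A.valuation ((p : ℕ) : AlgebraicClosure ℚ) < 1 := by
    have h5 : ((p : ℕ) : AlgebraicClosure ℚ) =
        - ∑ i ∈ Finset.range p, ((σ t * t⁻¹) ^ i - 1) := by
      rw [Finset.sum_sub_distrib, hsum]
      simp
    rw [h5, Valuation.map_neg]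
    exact Valuation.map_sum_lt _ one_ne_zero (fun i _ => hvi i)
  have hvq : A.valuation ((q : ℕ) : AlgebraicClosure ℚ) < 1 := (A.mem_nonunits_iff).1 hA
  have hcop : Nat.Coprime p q := (Nat.coprime_primes hp hq).2 (Ne.symm hpq)
  have hbez : (p : ℤ) * Int.gcdA p q + (q : ℤ) * Int.gcdB p q = 1 := by
    have := Int.gcd_eq_gcd_ab p q
    rw [← this]
    exact_mod_cast hcop
  have hint : ∀ a : ℤ, A.valuation ((a : ℤ) : AlgebraicClosure ℚ) ≤ 1 := fun a =>
    (A.valuation_le_one_iff _).2 (intCast_mem A a)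
  have h6 : (1 : AlgebraicClosure ℚ) =
      ((p : ℕ) : AlgebraicClosure ℚ) * ((Int.gcdA p q : ℤ) : AlgebraicClosure ℚ) +
        ((q : ℕ) : AlgebraicClosure ℚ) * ((Int.gcdB p q : ℤ) : AlgebraicClosure ℚ) := by
    exact_mod_cast hbez.symm
  have h7 : A.valuation (1 : AlgebraicClosure ℚ) < 1 := by
    rw [h6]
    refine lt_of_le_of_lt (Valuation.map_add _ _ _) (max_lt ?_ ?_)
    · rw [map_mul]
      exact lt_of_le_of_lt (mul_le_of_le_one_right' (hint _)) hvp
    · rw [map_mul]
      exact lt_of_le_of_lt (mul_le_of_le_one_right' (hint _)) hvq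
  rw [map_one] at h7
  exact lt_irrefl _ h7

/-- An automorphism fixing `ζ` fixes `ℚ(ζ)` pointwise. -/
theorem fixes_adjoin (g : GQ) (ζ : AlgebraicClosure ℚ) (h : g ζ = ζ) :
    ∀ x ∈ IntermediateField.adjoin ℚ ({ζ} : Set (AlgebraicClosure ℚ)), g x = x := by
  intro x hx
  induction hx using IntermediateField.adjoin_induction with
  | mem y hy =>
    rw [Set.mem_singleton_iff] at hy
    rw [hy, h]
  | algebraMap r => exact g.commutes r
  | add x y _ _ hx hy => rw [map_add, hx, hy]
  | inv x _ hx => rw [map_inv₀, hx]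
  | mul x y _ _ hx hy => rw [map_mul, hx, hy]

/-- **BR2**: the mod `p` cyclotomic character has level `S` when `p ∈ S`. -/
theorem stmt_levChar : Stmt_levChar := by
  intro p _ S hpS
  have hp : p.Prime := Fact.out
  haveI := qbar_isAlgebraic
  obtain ⟨ζ, hζ⟩ := exists_primitiveRoot p
  refine ⟨IntermediateField.adjoin ℚ ({ζ} : Set (AlgebraicClosure ℚ)), ⟨?_, ?_⟩, ?_⟩
  · exact IntermediateField.adjoin.finiteDimensional
      (Algebra.IsIntegral.isIntegral (R := ℚ) ζ)
  · intro q hq A hA g hg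
    have hqp : (q : ℕ) ≠ p := by
      intro h
      apply hq
      have : q = pPrime p := Subtype.ext h
      rw [this]
      exact hpS
    have hfix : g ζ = ζ := inertia_fix_root hp q.2 hqp A hA g hg ζ hζ.pow_eq_one
    rw [IntermediateField.mem_fixingSubgroup_iff]
    exact fixes_adjoin g ζ hfix
  · intro s hs
    rw [IntermediateField.mem_fixingSubgroup_iff] at hs
    have hsζ : s ζ = ζ := hs ζ (IntermediateField.mem_adjoin_simple_self ℚ ζ)
    apply cycloChar_eq_one_of_fix
    intro t ht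
    haveI : NeZero p := ⟨hp.ne_zero⟩
    obtain ⟨j, -, rfl⟩ := hζ.eq_pow_of_pow_eq_one ht
    rw [map_pow, hsζ]

end Fermat.Agent.S55.H48

end
-- ==== END Fermat.Agent.S55.H48_Lev
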