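-- GENERATED (merged mirror, NOTES/tools/trim/merge3_helper67.py): 6 modules of the originals, bodies verbatim.
import Mathlib
import Fermat.Agent.Zm.S56_L02_000
import Fermat.Agent.Zm.S35_L03_001
import Fermat.Agent.Zm.S56_L01_000
import Fermat.Agent.S17.WeakMW
import Fermat.Agent.Zm.S56_L02_001

-- ==== BEGIN Fermat.Agent.Lib.H25_HermiteMinkowski
section

/-!
# Hermite–Minkowski: finitely many number fields of bounded degree unramified outside a
finite set of primes (S17 leaf W5; shared with the finiteness of `H¹(G_{ℚ,S}, M)`)  (helper25)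

`stmt_HM : Fermat.Agent.S17.Stmt_HM` : for `B ≠ 0` and `d`, the set of subfields `F ⊂ ℚ̄`, finite
over `ℚ` of degree `≤ d`, such that the inertia group of every valuation subring of `ℚ̄` over
every prime `ℓ ∤ B` fixes `F`, is finite.

Route.
* `unrOutside_normalClosure` : the normal closure `L` of `F` is unramified outside `B`, too
  (inertia groups of conjugate valuation subrings are conjugate: `conj_mem_inertiaSubgroupIn`).
* `finrank_normalClosure_le` : `[L : ℚ] ≤ [F : ℚ] ^ [F : ℚ]`.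
* `isUnramifiedAt_of_unrOutside` : bridge to `Algebra.IsUnramifiedAt ℤ P` for the primes `P` of
  `𝓞 L` not containing `B` (`Lib/MinkowskiCore.inertia_primeBelow_eq_bot`).
* `Lib/H25_DiffBound.natAbs_discr_dvd` : `|discr L| ∣ (B n) ^ n`, `n = [L : ℚ]`.
* Mathlib `NumberField.discr_dvd_discr` and Hermite's theorem `NumberField.finite_of_discr_bdd`.
-/

set_option autoImplicit false
set_option linter.style.haveILetI false
set_option linter.unusedSectionVars false

open NumberField IntermediateField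
open scoped Pointwise

namespace Fermat.Agent.Lib.H25HM

open Fermat.Agent.Lib.InertiaBridge Fermat.Agent.Lib.Minkowski

attribute [local instance] qbar_isAlgebraic qbar_isAlgClosure qbar_isGalois qbar_normal

local notation "Qbar" => AlgebraicClosure ℚ
local notation "GQ" => (AlgebraicClosure ℚ ≃ₐ[ℚ] AlgebraicClosure ℚ)

/-- nonunits of a conjugate valuation subring -/
theorem smul_mem_nonunits_smul_iff {K L : Type*} [Field K] [Field L] [Algebra K L]
    (A : ValuationSubring L) (τ : L ≃ₐ[K] L) (x : L) :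
    τ x ∈ (τ • A).nonunits ↔ x ∈ A.nonunits := by
  rw [ValuationSubring.mem_nonunits_iff_or, ValuationSubring.mem_nonunits_iff_or]
  have h1 : τ x = 0 ↔ x = 0 := by
    constructor
    · intro h
      have := congrArg τ.symm h
      simpa using this
    · intro h
      rw [h, map_zero]
  have h2 : (τ x)⁻¹ ∈ τ • A ↔ x⁻¹ ∈ A := by
    rw [← map_inv₀]
    exact ValuationSubring.smul_mem_pointwise_smul_iff (g := τ) (S := A) (x := x⁻¹)
  rw [h1, h2]

theorem liesOverPrime_smul (A : ValuationSubring Qbar) (τ : GQ) (ℓ : ℕ)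
    (hA : A.LiesOverPrime ℓ) : (τ • A).LiesOverPrime ℓ := by
  unfold ValuationSubring.LiesOverPrime at hA ⊢
  have := (smul_mem_nonunits_smul_iff A τ (ℓ : Qbar)).2 hA
  rwa [map_natCast] at this

/-- Conjugation of inertia groups. -/
theorem conj_mem_inertiaSubgroupIn {K L : Type*} [Field K] [Field L] [Algebra K L]
    (A : ValuationSubring L) (τ σ : L ≃ₐ[K] L) (hσ : σ ∈ A.inertiaSubgroupIn K) :
    τ * σ * τ⁻¹ ∈ (τ • A).inertiaSubgroupIn K := by
  rw [mem_inertiaSubgroupIn_iff_forall] at hσ ⊢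
  obtain ⟨hdec, hin⟩ := hσ
  refine ⟨?_, ?_⟩
  · rw [ValuationSubring.decompositionSubgroup, MulAction.mem_stabilizer_iff] at hdec ⊢
    rw [mul_smul, mul_smul, inv_smul_smul, hdec]
  · intro a ha
    rw [ValuationSubring.mem_pointwise_smul_iff_inv_smul_mem] at ha
    have h1 := hin (τ⁻¹ • a) ha
    rw [← ValuationSubring.mem_nonunits_iff] at h1 ⊢
    have h2 := (smul_mem_nonunits_smul_iff A τ _).2 h1
    have h3 : τ (σ (τ⁻¹ • a) - τ⁻¹ • a) = (τ * σ * τ⁻¹) a - a := by
      rw [map_sub]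
      have e1 : τ (τ⁻¹ • a) = a := by
        show τ (τ⁻¹ a) = a
        exact AlgEquiv.apply_symm_apply τ a
      rw [e1]
      rfl
    rwa [h3] at h2

/-- "unramified outside `B`" in the prelude's sense -/
def UnrOutside (B : ℕ) (F : IntermediateField ℚ Qbar) : Prop :=
  ∀ ℓ : ℕ, ℓ.Prime → ¬ ℓ ∣ B → ∀ A : ValuationSubring Qbar,
    A.LiesOverPrime ℓ → A.inertiaSubgroupIn ℚ ≤ F.fixingSubgroup

theorem unrOutside_normalClosure (B : ℕ) (F : IntermediateField ℚ Qbar) (h : UnrOutside B F) :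
    UnrOutside B (normalClosure ℚ F Qbar) := by
  intro ℓ hℓ hℓB A hA σ hσ
  rw [IntermediateField.mem_fixingSubgroup_iff]
  -- the fixed field of σ
  let E : IntermediateField ℚ Qbar := IntermediateField.fixedField (Subgroup.zpowers σ)
  have hE : ∀ x, x ∈ E ↔ σ x = x := by
    intro x
    constructor
    · intro hx
      exact hx ⟨σ, Subgroup.mem_zpowers σ⟩
    · intro hx
      rintro ⟨g, hg⟩
      obtain ⟨n, rfl⟩ := Subgroup.mem_zpowers_iff.1 hg
      show (σ ^ n) • x = x
      have hfix : σ ∈ MulAction.stabilizer GQ x := hx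
      exact (MulAction.stabilizer GQ x).zpow_mem hfix n
  suffices hle : normalClosure ℚ F Qbar ≤ E from fun x hx => (hE x).1 (hle hx)
  refine le_trans (le_of_eq (IntermediateField.normalClosure_def'' F)) ?_
  rw [iSup_le_iff]
  intro τ x hx
  rw [IntermediateField.mem_map] at hx
  obtain ⟨y, hy, rfl⟩ := hx
  rw [hE]
  have h1 := conj_mem_inertiaSubgroupIn A τ⁻¹ σ hσ
  have h2 := h ℓ hℓ hℓB (τ⁻¹ • A) (liesOverPrime_smul A τ⁻¹ ℓ hA) h1
  rw [IntermediateField.mem_fixingSubgroup_iff] at h2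
  have h3 := h2 y hy
  rw [inv_inv] at h3
  have h4 : (τ⁻¹ * σ * τ) y = τ⁻¹ (σ (τ y)) := rfl
  rw [h4] at h3
  have h5 := congrArg τ h3
  have e1 : τ (τ⁻¹ (σ (τ y))) = σ (τ y) := AlgEquiv.apply_symm_apply τ _
  rw [e1] at h5
  exact h5

section Degree

variable {F L : Type*} [Field F] [Field L] [Algebra F L]

theorem finrank_congr {X Y : IntermediateField F L} (h : X = Y) :
    Module.finrank F ↥X = Module.finrank F ↥Y := by
  subst h; rfl

theorem finrank_biSup_le {ι : Type*} (E : ι → IntermediateField F L) (s : Finset ι) :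
    Module.finrank F ↥(⨆ i ∈ s, E i) ≤ ∏ i ∈ s, Module.finrank F ↥(E i) := by
  classical
  induction s using Finset.induction_on with
  | empty =>
    have h : (⨆ i ∈ (∅ : Finset ι), E i) = ⊥ := by simp
    rw [finrank_congr h, IntermediateField.finrank_bot, Finset.prod_empty]
  | insert a s ha ih =>
    have h : (⨆ i ∈ insert a s, E i) = E a ⊔ ⨆ i ∈ s, E i := Finset.iSup_insert a s E
    rw [finrank_congr h, Finset.prod_insert ha]
    exact (IntermediateField.finrank_sup_le _ _).trans (Nat.mul_le_mul_left _ ih)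

theorem finrank_iSup_le {ι : Type*} [Fintype ι] (E : ι → IntermediateField F L) :
    Module.finrank F ↥(⨆ i, E i) ≤ ∏ i, Module.finrank F ↥(E i) := by
  have h := finrank_biSup_le E Finset.univ
  have h2 : (⨆ i ∈ (Finset.univ : Finset ι), E i) = ⨆ i, E i := by simp
  rwa [finrank_congr h2] at h

/-- The degree of the normal closure of an extension of degree `n` is at most `n ^ n`. -/
theorem finrank_normalClosure_le (K : Type*) [Field K] [Algebra F K] [FiniteDimensional F K]
    [Algebra.IsSeparable F K] [IsAlgClosed L] :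
    Module.finrank F ↥(normalClosure F K L) ≤ Module.finrank F K ^ Module.finrank F K := by
  classical
  rw [finrank_congr (normalClosure_def F K L)]
  refine (finrank_iSup_le _).trans ?_
  have h1 : ∀ f : K →ₐ[F] L, Module.finrank F ↥f.fieldRange = Module.finrank F K := fun f =>
    (LinearEquiv.finrank_eq (AlgEquiv.ofInjectiveField f).toLinearEquiv).symm
  simp only [h1, Finset.prod_const, Finset.card_univ]
  rw [AlgHom.card]

end Degree

theorem liesOver_span_of_mem {K : Type*} [Field K] [NumberField K] (p : ℕ) (hp : p.Prime)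
    (Q : Ideal (𝓞 K)) [Q.IsPrime] (hpQ : (p : 𝓞 K) ∈ Q) :
    Q.LiesOver (Ideal.span {(p : ℤ)}) := by
  have hpZ : (Ideal.span {(p : ℤ)}).IsMaximal :=
    (Ideal.span_singleton_prime (by exact_mod_cast hp.ne_zero)).2
      (Nat.prime_iff_prime_int.1 hp) |>.isMaximal (by
        rw [Ne, Ideal.span_singleton_eq_bot]; exact_mod_cast hp.ne_zero)
  refine ⟨?_⟩
  have hle : Ideal.span {(p : ℤ)} ≤ Q.under ℤ := by
    rw [Ideal.span_singleton_le_iff_mem, Ideal.mem_comap, map_natCast]
    exact hpQ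
  exact hpZ.eq_of_le (Ideal.IsPrime.ne_top inferInstance) hle

/-- Bridge: for a finite normal `L`, unramified outside `B` in the prelude's sense implies that
every nonzero prime of `𝓞 L` not containing `B` is unramified over `ℤ`. -/
theorem isUnramifiedAt_of_unrOutside (B : ℕ) (L : IntermediateField ℚ Qbar)
    [FiniteDimensional ℚ L] [Normal ℚ L] (h : UnrOutside B L)
    (P : Ideal (𝓞 L)) [P.IsPrime] (hP0 : P ≠ ⊥) (hB : (B : 𝓞 L) ∉ P) :
    Algebra.IsUnramifiedAt ℤ P := by
  haveI : NumberField L := ⟨⟩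
  haveI : IsGalois ℚ L := ⟨⟩
  obtain ⟨p, hp, hpP, hpdvd⟩ := exists_prime_natCast_mem L P hP0
  have hpB : ¬ p ∣ B := by
    rintro ⟨c, rfl⟩
    apply hB
    rw [Nat.cast_mul]
    exact Ideal.mul_mem_right _ _ hpP
  obtain ⟨A, hA⟩ := Fermat.Agent.Lib.FrobExists.exists_liesOverPrime p hp
  haveI := primeBelow_isPrime L A
  have hmem : (p : 𝓞 L) ∈ primeBelow L A := natCast_mem_primeBelow L A p hA
  have hI : (primeBelow L A).inertia (L ≃ₐ[ℚ] L) = ⊥ :=
    inertia_primeBelow_eq_bot L liftStmt p hp A hA (by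
      intro σ hσ x hx
      exact (IntermediateField.mem_fixingSubgroup_iff _ _).mp (h p hp hpB A hA hσ) x hx)
  haveI h1 := liesOver_span_of_mem p hp P hpP
  haveI h2 := liesOver_span_of_mem p hp (primeBelow L A) hmem
  haveI hpZ : (Ideal.span {(p : ℤ)}).IsPrime :=
    (Ideal.span_singleton_prime (by exact_mod_cast hp.ne_zero)).2 (Nat.prime_iff_prime_int.1 hp)
  rw [← Ideal.ramificationIdx_eq_one_iff,
    ← Ideal.ramificationIdxIn_eq_ramificationIdx (Ideal.span {(p : ℤ)}) P (L ≃ₐ[ℚ] L),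
    ← Ideal.card_inertia_eq_ramificationIdxIn (G := L ≃ₐ[ℚ] L) (Ideal.span {(p : ℤ)})
      (primeBelow L A), hI]
  simp

/-- Discriminant bound for a finite normal `L ⊂ ℚ̄` unramified outside `B`. -/
theorem natAbs_discr_le_of_normal (B : ℕ) (hB : B ≠ 0) (L : IntermediateField ℚ Qbar)
    [FiniteDimensional ℚ L] [Normal ℚ L] (h : UnrOutside B L) :
    haveI : NumberField L := ⟨⟩
    (discr L).natAbs ≤ (B * Module.finrank ℚ L) ^ Module.finrank ℚ L := by
  haveI : NumberField L := ⟨⟩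
  haveI : IsGalois ℚ L := ⟨⟩
  have hdvd := natAbs_discr_dvd L B hB (fun P _ hP0 hBP =>
    isUnramifiedAt_of_unrOutside B L h P hP0 hBP)
  refine Nat.le_of_dvd (pow_pos (Nat.mul_pos (Nat.pos_of_ne_zero hB) Module.finrank_pos) _) hdvd

/-- Discriminant bound for a finite `F ⊂ ℚ̄` of degree `≤ d` unramified outside `B`. -/
theorem natAbs_discr_le (B d : ℕ) (hB : B ≠ 0) (F : IntermediateField ℚ Qbar)
    [FiniteDimensional ℚ F] (hd : Module.finrank ℚ F ≤ d) (h : UnrOutside B F) :
    haveI : NumberField F := ⟨⟩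
    (discr F).natAbs ≤ (B * d ^ d) ^ (d ^ d) := by
  haveI : NumberField F := ⟨⟩
  set L : IntermediateField ℚ Qbar := normalClosure ℚ F Qbar with hL
  haveI : FiniteDimensional ℚ L := normalClosure.is_finiteDimensional ℚ F Qbar
  haveI : Normal ℚ L := normalClosure.normal ℚ F Qbar
  haveI : NumberField L := ⟨⟩
  have hunr : UnrOutside B L := unrOutside_normalClosure B F h
  have h1 := natAbs_discr_le_of_normal B hB L hunr
  have hn : Module.finrank ℚ L ≤ d ^ d := by
    have h2 := finrank_normalClosure_le (F := ℚ) (L := Qbar) F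
    have hpos : 0 < Module.finrank ℚ F := Module.finrank_pos
    calc Module.finrank ℚ L ≤ Module.finrank ℚ F ^ Module.finrank ℚ F := h2
      _ ≤ d ^ Module.finrank ℚ F := Nat.pow_le_pow_left hd _
      _ ≤ d ^ d := Nat.pow_le_pow_right (by omega) hd
  have hFL : F ≤ L := IntermediateField.le_normalClosure F
  letI : Algebra F L := (IntermediateField.inclusion hFL).toRingHom.toAlgebra
  have h3 : discr F ∣ discr L := discr_dvd_discr F L
  have h4 : (discr F).natAbs ≤ (discr L).natAbs :=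
    Nat.le_of_dvd (Int.natAbs_pos.2 (discr_ne_zero L)) (Int.natAbs_dvd_natAbs.2 h3)
  calc (discr F).natAbs ≤ (discr L).natAbs := h4
    _ ≤ (B * Module.finrank ℚ L) ^ Module.finrank ℚ L := h1
    _ ≤ (B * d ^ d) ^ Module.finrank ℚ L := Nat.pow_le_pow_left (Nat.mul_le_mul_left _ hn) _
    _ ≤ (B * d ^ d) ^ (d ^ d) := Nat.pow_le_pow_right
        (Nat.mul_pos (Nat.pos_of_ne_zero hB) (Nat.pos_of_ne_zero (by
          have hpos : 0 < Module.finrank ℚ F := Module.finrank_pos
          have : d ≠ 0 := by omega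
          exact pow_ne_zero _ this))) hn

/-- **Hermite–Minkowski** (S17 W5). -/
theorem stmt_HM : Fermat.Agent.S17.Stmt_HM := by
  intro B d hB
  have hfin := NumberField.finite_of_discr_bdd Qbar (N := (B * d ^ d) ^ (d ^ d))
  refine Set.Finite.subset (hfin.image Subtype.val) ?_
  rintro F ⟨hFfd, hFd, hFunr⟩
  refine ⟨⟨F, hFfd⟩, ?_, rfl⟩
  haveI := hFfd
  haveI : NumberField F := ⟨⟩
  have h := natAbs_discr_le B d hB F hFd hFunr
  show |discr F| ≤ _
  rw [Int.abs_eq_natAbs]
  exact_mod_cast h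

end Fermat.Agent.Lib.H25HM

end
-- ==== END Fermat.Agent.Lib.H25_HermiteMinkowski

-- ==== BEGIN Fermat.Agent.Lib.LocalKummer.QpUnits
section

/-
The group `ℚ_pˣ` modulo `p`-th powers (`p` odd) is generated by `p` and `1 + p`:
every nonzero `a : ℚ_[p]` is `p ^ i * (1 + p) ^ j * b ^ p`.
-/

set_option autoImplicit false
set_option linter.unusedSectionVars false
set_option linter.style.haveILetI false

namespace Fermat.Agent.Lib.LocalKummer

open Finset

section qp

variable (p : ℕ) [Fact p.Prime]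

local notation "Ω" => PadicAlgCl p

lemma norm_algEquiv (σ : Ω ≃ₐ[ℚ_[p]] Ω) (x : Ω) : ‖σ x‖ = ‖x‖ :=
  (spectralNorm_eq_of_equiv σ x).symm

lemma norm_natCast_p : ‖(p : Ω)‖ = (p : ℝ)⁻¹ := by
  have h := PadicAlgCl.norm_extends p (p : ℚ_[p])
  rw [map_natCast, Padic.norm_p] at h
  exact h

lemma exists_primitiveRoot_padicAlgCl (n : ℕ) [NeZero n] : ∃ ζ : Ω, IsPrimitiveRoot ζ n := by
  haveI : NeZero (n : Ω) := ⟨by exact_mod_cast (NeZero.ne n)⟩
  exact HasEnoughRootsOfUnity.exists_primitiveRoot Ω n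

/-- The sharp threshold: `p⁻² < ‖1 - ζ‖ ^ p` for `p` odd. -/
lemma lt_norm_one_sub_zeta_pow (hp2 : p ≠ 2) {ζ : Ω} (hζ : IsPrimitiveRoot ζ p) :
    ((p : ℝ)⁻¹) ^ 2 < ‖1 - ζ‖ ^ p := by
  have hp : p.Prime := Fact.out
  have hp3 : 3 ≤ p := by
    have := hp.two_le
    omega
  have h1 : ‖1 - ζ‖ ^ (p - 1) = (p : ℝ)⁻¹ := by
    rw [norm_one_sub_pow_prime hp hζ, norm_natCast_p]
  have hζ1 : ‖ζ‖ = 1 := norm_eq_one_of_pow_eq_one' hζ.pow_eq_one hp.ne_zero
  have hle : ‖1 - ζ‖ ≤ 1 := norm_one_sub_le_one hζ1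
  have h0 : 0 ≤ ‖1 - ζ‖ := norm_nonneg _
  have hpinv : 0 < (p : ℝ)⁻¹ := by
    have : (0 : ℝ) < p := by exact_mod_cast hp.pos
    positivity
  have hpinv1 : (p : ℝ)⁻¹ < 1 := by
    have : (1 : ℝ) < p := by exact_mod_cast hp.one_lt
    exact inv_lt_one_of_one_lt₀ this
  -- `p⁻¹ < ‖1 - ζ‖`
  have h2 : (p : ℝ)⁻¹ < ‖1 - ζ‖ := by
    by_contra hcon
    have hcon' : ‖1 - ζ‖ ≤ (p : ℝ)⁻¹ := not_lt.1 hcon
    have h3 : ‖1 - ζ‖ ^ (p - 1) ≤ ((p : ℝ)⁻¹) ^ (p - 1) := pow_le_pow_left₀ h0 hcon' _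
    have h4 : ((p : ℝ)⁻¹) ^ (p - 1) ≤ ((p : ℝ)⁻¹) ^ 2 :=
      pow_le_pow_of_le_one hpinv.le hpinv1.le (by omega)
    have h5 : ((p : ℝ)⁻¹) ^ 2 < (p : ℝ)⁻¹ := by
      have : ((p : ℝ)⁻¹) ^ 2 = (p : ℝ)⁻¹ * (p : ℝ)⁻¹ := sq _
      rw [this]
      exact mul_lt_of_lt_one_right hpinv hpinv1
    rw [h1] at h3
    linarith
  have h6 : ‖1 - ζ‖ ^ p = ‖1 - ζ‖ ^ (p - 1) * ‖1 - ζ‖ := by
    rw [← pow_succ]
    congr 1
    omega
  rw [h6, h1, sq]
  exact mul_lt_mul_of_pos_left h2 hpinv

/-- Elements of `1 + p² ℤ_p` are `p`-th powers (`p` odd). -/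
theorem exists_pow_eq_of_norm_sub_one_le (hp2 : p ≠ 2) (y : ℚ_[p])
    (hy : ‖y - 1‖ ≤ ((p : ℝ)⁻¹) ^ 2) : ∃ x : ℚ_[p], x ^ p = y := by
  have hp : p.Prime := Fact.out
  haveI : NeZero p := ⟨hp.ne_zero⟩
  obtain ⟨ζ, hζ⟩ := exists_primitiveRoot_padicAlgCl p p
  have h1 : ‖algebraMap ℚ_[p] Ω y - 1‖ < ‖1 - ζ‖ ^ p := by
    have : algebraMap ℚ_[p] Ω y - 1 = algebraMap ℚ_[p] Ω (y - 1) := by
      rw [map_sub, map_one]
    rw [this, PadicAlgCl.norm_extends]
    exact lt_of_le_of_lt hy (lt_norm_one_sub_zeta_pow p hp2 hζ)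
  obtain ⟨x, hx, hx1⟩ := exists_root_near_one hp hζ h1
  have hfix : ∀ σ : Ω ≃ₐ[ℚ_[p]] Ω, σ x = x := by
    intro σ
    exact root_near_one_fixed hp hζ (σ : Ω →+* Ω) (fun z => norm_algEquiv p σ z) hx
      (σ.commutes y) hx1
  obtain ⟨x', hx'⟩ := (InfiniteGalois.mem_range_algebraMap_iff_fixed x).2 hfix
  refine ⟨x', ?_⟩
  apply (algebraMap ℚ_[p] Ω).injective
  rw [map_pow, hx', hx]

lemma one_add_pow_expand {R : Type*} [CommRing R] (x : R) (j : ℕ) :
    ∃ c : R, (1 + x) ^ j = 1 + j * x + x ^ 2 * c := by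
  induction j with
  | zero => exact ⟨0, by simp⟩
  | succ j ih =>
    obtain ⟨c, hc⟩ := ih
    refine ⟨j + c + c * x, ?_⟩
    rw [pow_succ, hc]
    push_cast
    ring

/-- `ℚ_pˣ` is generated by `p`, `1 + p` and `p`-th powers (`p` odd). -/
theorem exists_decomp (hp2 : p ≠ 2) (a : ℚ_[p]) (ha : a ≠ 0) :
    ∃ (i j : ℤ) (b : ℚ_[p]), b ≠ 0 ∧ a = (p : ℚ_[p]) ^ i * (1 + (p : ℚ_[p])) ^ j * b ^ p := by
  have hp : p.Prime := Fact.out
  have hp0 : (p : ℚ_[p]) ≠ 0 := by exact_mod_cast hp.ne_zero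
  have hpR : (0 : ℝ) < p := by exact_mod_cast hp.pos
  -- the unit part
  set n : ℤ := a.valuation with hn
  set u : ℚ_[p] := a * (p : ℚ_[p]) ^ (-n) with hu
  have hun : ‖u‖ = 1 := by
    rw [hu, norm_mul, Padic.norm_p_zpow, Padic.norm_eq_zpow_neg_valuation ha, neg_neg,
      ← zpow_add₀ hpR.ne', neg_add_cancel, zpow_zero]
  have hu0 : u ≠ 0 := by
    intro h
    rw [h, norm_zero] at hun
    exact zero_ne_one hun
  have hau : a = (p : ℚ_[p]) ^ n * u := by
    rw [hu, mul_comm a, ← mul_assoc, ← zpow_add₀ hp0, add_neg_cancel, zpow_zero, one_mul]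
  let u' : ℤ_[p] := ⟨u, le_of_eq hun⟩
  have hu'unit : IsUnit u' := PadicInt.isUnit_iff.2 hun
  -- Fermat's little theorem
  have h1 : PadicInt.toZMod (u' ^ (p - 1) - 1) = 0 := by
    rw [map_sub, map_pow, map_one, sub_eq_zero]
    apply ZMod.pow_card_sub_one_eq_one
    intro h0
    have h2 : u' ∈ RingHom.ker (PadicInt.toZMod (p := p)) := h0
    rw [PadicInt.ker_toZMod] at h2
    exact (IsLocalRing.mem_maximalIdeal _).1 h2 hu'unit
  have h2 : u' ^ (p - 1) - 1 ∈ Ideal.span {(p : ℤ_[p])} := by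
    rw [← PadicInt.maximalIdeal_eq_span_p, ← PadicInt.ker_toZMod]
    exact h1
  obtain ⟨t, ht⟩ := Ideal.mem_span_singleton'.1 h2
  have h3 : t - (t.zmodRepr : ℤ_[p]) ∈ Ideal.span {(p : ℤ_[p])} := by
    rw [← PadicInt.maximalIdeal_eq_span_p]
    exact PadicInt.sub_zmodRepr_mem t
  obtain ⟨s, hs⟩ := Ideal.mem_span_singleton'.1 h3
  set j : ℕ := t.zmodRepr with hj
  obtain ⟨c, hc⟩ := one_add_pow_expand (p : ℤ_[p]) j
  -- `w = (1 + p) ^ j` is a unit
  have hw1 : ‖(1 + (p : ℤ_[p]))‖ = 1 := by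
    have h4 : ‖(p : ℤ_[p])‖ < ‖(1 : ℤ_[p])‖ := by
      rw [norm_one, PadicInt.norm_p]
      exact inv_lt_one_of_one_lt₀ (by exact_mod_cast hp.one_lt)
    have h5 := IsUltrametricDist.norm_add_eq_max_of_norm_ne_norm (ne_of_lt h4)
    rw [max_eq_right (le_of_lt h4), norm_one, add_comm] at h5
    exact h5
  have hwunit : IsUnit ((1 + (p : ℤ_[p])) ^ j) := (PadicInt.isUnit_iff.2 hw1).pow j
  obtain ⟨W, hW⟩ := hwunit
  -- `y = v / w` is close to `1`
  have hv : u' ^ (p - 1) = 1 + (j : ℤ_[p]) * p + (p : ℤ_[p]) ^ 2 * s := by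
    have e1 : u' ^ (p - 1) = 1 + t * p := by rw [ht]; ring
    have e2 : t = j + s * p := by rw [hs]; ring
    rw [e1, e2]
    ring
  have hy : u' ^ (p - 1) * (↑W⁻¹ : ℤ_[p]) - 1 = (p : ℤ_[p]) ^ 2 * ((s - c) * (↑W⁻¹ : ℤ_[p])) := by
    have e3 : (1 : ℤ_[p]) = (1 + (p : ℤ_[p])) ^ j * (↑W⁻¹ : ℤ_[p]) := by
      rw [← hW, Units.mul_inv]
    conv_lhs => rw [e3, hv, hc]
    ring
  have hynorm : ‖((u' ^ (p - 1) * (↑W⁻¹ : ℤ_[p]) : ℤ_[p]) : ℚ_[p]) - 1‖ ≤ ((p : ℝ)⁻¹) ^ 2 := by
    have e4 : ((u' ^ (p - 1) * (↑W⁻¹ : ℤ_[p]) : ℤ_[p]) : ℚ_[p]) - 1 =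
        ((u' ^ (p - 1) * (↑W⁻¹ : ℤ_[p]) - 1 : ℤ_[p]) : ℚ_[p]) := by
      push_cast
      rfl
    rw [e4, hy, PadicInt.padic_norm_e_of_padicInt, norm_mul, norm_pow, PadicInt.norm_p]
    exact mul_le_of_le_one_right (by positivity) (PadicInt.norm_le_one _)
  obtain ⟨x, hx⟩ := exists_pow_eq_of_norm_sub_one_le p hp2 _ hynorm
  have hx0 : x ≠ 0 := by
    intro h
    rw [h, zero_pow hp.ne_zero] at hx
    have h6 : (u' ^ (p - 1) * (↑W⁻¹ : ℤ_[p]) : ℤ_[p]) = 0 :=
      Subtype.ext (by rw [PadicInt.coe_zero]; exact hx.symm)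
    have h7 : IsUnit (u' ^ (p - 1) * (↑W⁻¹ : ℤ_[p])) := (hu'unit.pow _).mul W⁻¹.isUnit
    exact h7.ne_zero h6
  -- assemble
  have hWq : ((↑W : ℤ_[p]) : ℚ_[p]) = (1 + (p : ℚ_[p])) ^ j := by
    rw [hW]
    push_cast
    rfl
  have hWinv : ((↑W⁻¹ : ℤ_[p]) : ℚ_[p]) = ((1 + (p : ℚ_[p])) ^ j)⁻¹ := by
    rw [← hWq]
    have : ((↑W : ℤ_[p]) : ℚ_[p]) * ((↑W⁻¹ : ℤ_[p]) : ℚ_[p]) = 1 := by
      rw [← PadicInt.coe_mul, Units.mul_inv, PadicInt.coe_one]
    exact eq_inv_of_mul_eq_one_right this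
  have hx' : x ^ p = u ^ (p - 1) * ((1 + (p : ℚ_[p])) ^ j)⁻¹ := by
    rw [hx]
    push_cast
    rw [hWinv]
  have h1p : (1 + (p : ℚ_[p])) ≠ 0 := by
    intro h
    have : ((1 + (p : ℤ_[p]) : ℤ_[p]) : ℚ_[p]) = 0 := by push_cast; exact h
    have h8 : (1 + (p : ℤ_[p])) = 0 := Subtype.ext (by rw [PadicInt.coe_zero]; exact this)
    rw [h8, norm_zero] at hw1
    exact zero_ne_one hw1
  refine ⟨n, -(j : ℤ), u / x, div_ne_zero hu0 hx0, ?_⟩
  rw [hau, div_pow, hx', zpow_neg, zpow_natCast]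
  have hup : u ^ p = u ^ (p - 1) * u := by
    rw [← pow_succ]
    congr 1
    have := hp.pos
    omega
  rw [hup]
  have hu1 : u ^ (p - 1) ≠ 0 := pow_ne_zero _ hu0
  have hw0 : (1 + (p : ℚ_[p])) ^ j ≠ 0 := pow_ne_zero _ h1p
  field_simp

end qp

end Fermat.Agent.Lib.LocalKummer

end
-- ==== END Fermat.Agent.Lib.LocalKummer.QpUnits

-- ==== BEGIN Fermat.Agent.Lib.UnramVal
section

/-!
# Valuations of elements of an inertia-fixed normal number field (shared library, helper6)

`A` a valuation subring of `ℚ̄` over the prime `ℓ`, `K ⊆ ℚ̄` a finite normal extension of `ℚ`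
which is fixed pointwise by the inertia group of `A`.  Then `K` is unramified at the prime cut out
by `A`, hence every nonzero `x ∈ K` has `|x|_A = |ℓ|_A ^ k` for some integer `k`.

* `valuation_eq_zpow` : the statement above.
* `valuation_eq_zpow_of_finset` : the same for the elements of a finite Galois-stable set of
  elements fixed by inertia.
-/

set_option autoImplicit false

open scoped Pointwise NumberField

namespace Fermat.Agent.Lib.UnramVal

open Fermat.Agent.Lib.Minkowski IsDedekindDomain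

attribute [local instance] qbar_isAlgebraic qbar_isAlgClosure qbar_isGalois qbar_normal

section

variable (K : IntermediateField ℚ (AlgebraicClosure ℚ))

/-- Elements of `𝓞 K` outside the prime cut out by `A` are units of `A`. -/
theorem val_eq_one_of_notMem (A : ValuationSubring (AlgebraicClosure ℚ)) (b : 𝓞 K)
    (hb : b ∉ primeBelow K A) : A.valuation (algebraMap (𝓞 K) (AlgebraicClosure ℚ) b) = 1 :=
  le_antisymm (val_algebraMap_le_one K A b) (not_lt.mp hb)

theorem unramified_of_fix [FiniteDimensional ℚ K] [Normal ℚ K] (ℓ : ℕ) (hℓ : ℓ.Prime)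
    (A : ValuationSubring (AlgebraicClosure ℚ)) (hA : A.LiesOverPrime ℓ)
    (hfix : ∀ σ ∈ A.inertiaSubgroupIn ℚ, ∀ x ∈ K, σ x = x) :
    haveI : NumberField K := ⟨⟩
    ¬ ((ℓ : 𝓞 K) ∈ (primeBelow K A) ^ 2) := by
  have : NumberField K := ⟨⟩
  have : IsGalois ℚ K := ⟨⟩
  have := primeBelow_isPrime K A
  have hI : (primeBelow K A).inertia (K ≃ₐ[ℚ] K) = ⊥ :=
    inertia_primeBelow_eq_bot K liftStmt ℓ hℓ A hA hfix
  have hmem : (ℓ : 𝓞 K) ∈ primeBelow K A := natCast_mem_primeBelow K A ℓ hA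
  have he : (primeBelow K A).ramificationIdx ℤ = 1 := by
    rw [← Ideal.ramificationIdxIn_eq_ramificationIdx ((primeBelow K A).under ℤ) _ (K ≃ₐ[ℚ] K),
      ← Ideal.card_inertia_eq_ramificationIdxIn (G := K ≃ₐ[ℚ] K) ((primeBelow K A).under ℤ)
        (primeBelow K A), hI]
    simp
  have hP0 : primeBelow K A ≠ ⊥ := by
    intro h
    rw [h, Ideal.mem_bot] at hmem
    exact hℓ.ne_zero (by exact_mod_cast hmem)
  have hlies : (primeBelow K A).LiesOver (Ideal.span {(ℓ : ℤ)}) := by
    constructor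
    have hmax : (Ideal.span {(ℓ : ℤ)}).IsMaximal :=
      PrincipalIdealRing.isMaximal_of_irreducible
        (Nat.prime_iff_prime_int.mp hℓ).irreducible
    refine hmax.eq_of_le ?_ ?_
    · exact (Ideal.IsPrime.under ℤ (primeBelow K A)).ne_top
    · rw [Ideal.span_le]
      rintro _ rfl
      show algebraMap ℤ (𝓞 K) (ℓ : ℤ) ∈ primeBelow K A
      simpa using hmem
  have hspan : (Ideal.span {(ℓ : ℤ)}) ≠ ⊥ := by
    simp [hℓ.ne_zero]
  have he' : (Ideal.span {(ℓ : ℤ)}).ramificationIdx' (primeBelow K A) = 1 := by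
    rw [Ideal.ramificationIdx'_eq_ramificationIdx _ _ hspan, he]
  intro h2
  have hle : (Ideal.span {(ℓ : ℤ)}).map (algebraMap ℤ (𝓞 K)) ≤ primeBelow K A := by
    rw [Ideal.map_span, Ideal.span_le]
    rintro _ ⟨_, rfl, rfl⟩
    simpa using hmem
  have := (Ideal.ramificationIdx'_ne_one_iff hle).mpr (by
    rw [Ideal.map_span, Ideal.span_le]
    rintro _ ⟨_, rfl, rfl⟩
    simpa using h2)
  exact this he'

/-- The height one prime of `𝓞 K` cut out by `A`. -/
noncomputable def vBelow [FiniteDimensional ℚ K] (ℓ : ℕ) (hℓ : ℓ.Prime)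
    (A : ValuationSubring (AlgebraicClosure ℚ)) (hA : A.LiesOverPrime ℓ) :
    haveI : NumberField K := ⟨⟩
    HeightOneSpectrum (𝓞 K) :=
  haveI : NumberField K := ⟨⟩
  ⟨primeBelow K A, primeBelow_isPrime K A, by
    intro h
    have hmem : (ℓ : 𝓞 K) ∈ primeBelow K A := natCast_mem_primeBelow K A ℓ hA
    rw [h, Ideal.mem_bot] at hmem
    exact hℓ.ne_zero (by exact_mod_cast hmem)⟩

/-- An element of `K` which is a unit for the `P`-adic valuation is a unit of `A`. -/
theorem val_eq_one_of_valuation_eq_one [FiniteDimensional ℚ K] (ℓ : ℕ) (hℓ : ℓ.Prime)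
    (A : ValuationSubring (AlgebraicClosure ℚ)) (hA : A.LiesOverPrime ℓ) (y : K)
    (hy : haveI : NumberField K := ⟨⟩; (vBelow K ℓ hℓ A hA).valuation K y = 1) :
    A.valuation (y : AlgebraicClosure ℚ) = 1 := by
  have : NumberField K := ⟨⟩
  set v := vBelow K ℓ hℓ A hA with hv
  have hcast : ∀ b : 𝓞 K, algebraMap (𝓞 K) (AlgebraicClosure ℚ) b
      = ((algebraMap (𝓞 K) K b : K) : AlgebraicClosure ℚ) := fun b => rfl
  have hunit : ∀ b : 𝓞 K, v.valuation K (algebraMap (𝓞 K) K b) = 1 →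
      A.valuation ((algebraMap (𝓞 K) K b : K) : AlgebraicClosure ℚ) = 1 := by
    intro b hb
    rw [HeightOneSpectrum.valuation_eq_one_iff_notMem] at hb
    rw [← hcast]
    exact val_eq_one_of_notMem K A b hb
  obtain ⟨n, d, h | h⟩ := HeightOneSpectrum.exists_primeCompl_mul_eq_or_mul_eq (K := K) v y
  · have hd : v.valuation K (algebraMap (𝓞 K) K d) = 1 :=
      (HeightOneSpectrum.valuation_eq_one_iff_notMem (v := v)).mpr d.2
    have hn : v.valuation K (algebraMap (𝓞 K) K n) = 1 := by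
      rw [← h, map_mul, hy, hd, one_mul]
    have h1 := hunit d hd
    have h2 := hunit n hn
    have h3 : (y : AlgebraicClosure ℚ) * ((algebraMap (𝓞 K) K d : K) : AlgebraicClosure ℚ)
        = ((algebraMap (𝓞 K) K n : K) : AlgebraicClosure ℚ) := by
      rw [← h]; rfl
    have h4 := congrArg A.valuation h3
    rw [map_mul, h1, h2, mul_one] at h4
    exact h4
  · have hd : v.valuation K (algebraMap (𝓞 K) K d) = 1 :=
      (HeightOneSpectrum.valuation_eq_one_iff_notMem (v := v)).mpr d.2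
    have hn : v.valuation K (algebraMap (𝓞 K) K n) = 1 := by
      have := congrArg (v.valuation K) h
      rw [map_mul, hy, hd, one_mul] at this
      exact this
    have h1 := hunit d hd
    have h2 := hunit n hn
    have h3 : (y : AlgebraicClosure ℚ) * ((algebraMap (𝓞 K) K n : K) : AlgebraicClosure ℚ)
        = ((algebraMap (𝓞 K) K d : K) : AlgebraicClosure ℚ) := by
      rw [← h]; rfl
    have h4 := congrArg A.valuation h3
    rw [map_mul, h1, h2, mul_one] at h4
    exact h4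

/-- `ℓ` is a uniformizer of the prime cut out by `A` if inertia fixes `K`. -/
theorem valuation_prime_eq [FiniteDimensional ℚ K] [Normal ℚ K] (ℓ : ℕ) (hℓ : ℓ.Prime)
    (A : ValuationSubring (AlgebraicClosure ℚ)) (hA : A.LiesOverPrime ℓ)
    (hfix : ∀ σ ∈ A.inertiaSubgroupIn ℚ, ∀ x ∈ K, σ x = x) :
    haveI : NumberField K := ⟨⟩
    (vBelow K ℓ hℓ A hA).valuation K (ℓ : K) = WithZero.exp (-1 : ℤ) := by
  have : NumberField K := ⟨⟩
  set v := vBelow K ℓ hℓ A hA with hv
  have hnot := unramified_of_fix K ℓ hℓ A hA hfix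
  have hmem : (ℓ : 𝓞 K) ∈ primeBelow K A := natCast_mem_primeBelow K A ℓ hA
  have h0 : v.intValuation (ℓ : 𝓞 K) ≠ 0 := by
    apply HeightOneSpectrum.intValuation_ne_zero
    exact_mod_cast hℓ.ne_zero
  have h1 : v.intValuation (ℓ : 𝓞 K) ≤ WithZero.exp (-((1 : ℕ) : ℤ)) := by
    rw [HeightOneSpectrum.intValuation_le_pow_iff_mem, pow_one]
    exact hmem
  have h2 : ¬ v.intValuation (ℓ : 𝓞 K) ≤ WithZero.exp (-((2 : ℕ) : ℤ)) := by
    rw [HeightOneSpectrum.intValuation_le_pow_iff_mem]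
    exact hnot
  have hcast : ((ℓ : K)) = algebraMap (𝓞 K) K (ℓ : 𝓞 K) := by simp
  rw [hcast, HeightOneSpectrum.valuation_of_algebraMap]
  rw [← WithZero.exp_log h0] at h1 h2 ⊢
  rw [WithZero.exp_le_exp] at h1 h2
  congr 1
  push_cast at h1 h2
  omega

/-- **Main statement**: if the inertia group of `A` fixes the finite normal extension `K` of `ℚ`
pointwise, every nonzero element of `K` has valuation an integral power of `|ℓ|`. -/
theorem valuation_eq_zpow [FiniteDimensional ℚ K] [Normal ℚ K] (ℓ : ℕ) (hℓ : ℓ.Prime)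
    (A : ValuationSubring (AlgebraicClosure ℚ)) (hA : A.LiesOverPrime ℓ)
    (hfix : ∀ σ ∈ A.inertiaSubgroupIn ℚ, ∀ x ∈ K, σ x = x)
    (x : AlgebraicClosure ℚ) (hx : x ∈ K) (hx0 : x ≠ 0) :
    ∃ k : ℤ, A.valuation x = A.valuation (ℓ : AlgebraicClosure ℚ) ^ k := by
  have : NumberField K := ⟨⟩
  set v := vBelow K ℓ hℓ A hA with hv
  have hℓv := valuation_prime_eq K ℓ hℓ A hA hfix
  have hx0' : (⟨x, hx⟩ : K) ≠ 0 := by
    intro h
    exact hx0 (congrArg Subtype.val h)
  have hvx : v.valuation K (⟨x, hx⟩ : K) ≠ 0 := (Valuation.ne_zero_iff _).mpr hx0'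
  set k : ℤ := WithZero.log (v.valuation K (⟨x, hx⟩ : K)) with hk
  have hℓ0 : (ℓ : K) ≠ 0 := by exact_mod_cast hℓ.ne_zero
  have hy : v.valuation K ((⟨x, hx⟩ : K) * (ℓ : K) ^ k) = 1 := by
    rw [map_mul, map_zpow₀, hℓv, ← WithZero.exp_log hvx, ← hk, ← WithZero.exp_zsmul,
      ← WithZero.exp_add]
    simp
  have h1 := val_eq_one_of_valuation_eq_one K ℓ hℓ A hA _ hy
  have hℓ0' : A.valuation (ℓ : AlgebraicClosure ℚ) ≠ 0 :=
    (Valuation.ne_zero_iff _).mpr (by exact_mod_cast hℓ.ne_zero)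
  refine ⟨-k, ?_⟩
  have h2 : (((⟨x, hx⟩ : K) * (ℓ : K) ^ k : K) : AlgebraicClosure ℚ)
      = x * (ℓ : AlgebraicClosure ℚ) ^ k := by
    push_cast
    rfl
  rw [h2, map_mul, map_zpow₀] at h1
  rw [zpow_neg]
  exact eq_inv_of_mul_eq_one_left h1

end

/-- The same for the elements of a finite Galois-stable set of elements fixed by inertia. -/
theorem valuation_eq_zpow_of_finite (ℓ : ℕ) (hℓ : ℓ.Prime)
    (A : ValuationSubring (AlgebraicClosure ℚ)) (hA : A.LiesOverPrime ℓ)
    (S : Set (AlgebraicClosure ℚ)) (hSfin : S.Finite)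
    (hstab : ∀ σ : AlgebraicClosure ℚ ≃ₐ[ℚ] AlgebraicClosure ℚ, ∀ x ∈ S, σ x ∈ S)
    (hfix : ∀ σ ∈ A.inertiaSubgroupIn ℚ, ∀ x ∈ S, σ x = x)
    (x : AlgebraicClosure ℚ) (hx : x ∈ S) (hx0 : x ≠ 0) :
    ∃ k : ℤ, A.valuation x = A.valuation (ℓ : AlgebraicClosure ℚ) ^ k := by
  let K : IntermediateField ℚ (AlgebraicClosure ℚ) := IntermediateField.adjoin ℚ S
  have hfin : FiniteDimensional ℚ K := by
    have : Finite S := hSfin
    exact IntermediateField.finiteDimensional_adjoin
      (fun x _ => Algebra.IsIntegral.isIntegral x)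
  have hnorm' : @Normal ℚ K _ _ (IntermediateField.algebra' K) := by
    rw [IntermediateField.normal_iff_forall_map_le']
    intro σ
    rw [IntermediateField.adjoin_map, IntermediateField.adjoin_le_iff]
    rintro _ ⟨y, hy, rfl⟩
    exact IntermediateField.subset_adjoin ℚ S (hstab σ y hy)
  have hnorm : Normal ℚ K := by
    convert hnorm'
    exact Subsingleton.elim _ _
  have hfixK : ∀ σ ∈ A.inertiaSubgroupIn ℚ, ∀ y ∈ K, σ y = y := by
    intro σ hσ y hy
    have hle : K ≤ IntermediateField.fixedField (Subgroup.zpowers σ) := by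
      rw [IntermediateField.adjoin_le_iff]
      intro z hz
      rw [SetLike.mem_coe, IntermediateField.mem_fixedField_iff]
      rintro τ ⟨n, rfl⟩
      show (σ ^ n) z = z
      have h1 : σ z = z := hfix σ hσ z hz
      have h2 : ∀ m : ℕ, (σ ^ m) z = z := by
        intro m
        induction m with
        | zero => rfl
        | succ m ih => rw [pow_succ, AlgEquiv.mul_apply, h1, ih]
      have h3 : σ⁻¹ z = z := by
        show σ.symm z = z
        rw [AlgEquiv.symm_apply_eq]
        exact h1.symm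
      have h4 : ∀ m : ℕ, (σ⁻¹ ^ m) z = z := by
        intro m
        induction m with
        | zero => rfl
        | succ m ih => rw [pow_succ, AlgEquiv.mul_apply, h3, ih]
      rcases Int.eq_nat_or_neg n with ⟨m, rfl | rfl⟩
      · rw [zpow_natCast]; exact h2 m
      · rw [zpow_neg, zpow_natCast, ← inv_pow]; exact h4 m
    have := hle hy
    rw [IntermediateField.mem_fixedField_iff] at this
    exact this σ (Subgroup.mem_zpowers σ)
  exact valuation_eq_zpow K ℓ hℓ A hA hfixK x (IntermediateField.subset_adjoin ℚ S hx) hx0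

end Fermat.Agent.Lib.UnramVal

end
-- ==== END Fermat.Agent.Lib.UnramVal

-- ==== BEGIN Fermat.Agent.R.Flat.H54_Inv
section

/-!
# Flat closure (cluster R, helper54): general lemmas for invariants

* `exists_common_denominator` : finitely many `G`-fixed elements of `K` have a common
  denominator in `R`.
* `pts_eq_of_separating` : a `G`-stable separating set of points of a finite free algebra is
  the set of all points.
* `inv_tensor_left`, `inv_tensor_right` : an element of `Q₁ ⊗ Q₂` which is "invariant in one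
  variable" lies in the image of `A ⊗ Q₂` (resp. `Q₁ ⊗ A`), `A` the submodule of invariants.
-/

set_option autoImplicit false
set_option linter.unusedSectionVars false
set_option linter.style.haveILetI false

open scoped TensorProduct
open WithConv

namespace Fermat.Agent.R.H54

section General

variable {R K G : Type} [CommRing R] [Field K] [Algebra R K] [Group G] [MulSemiringAction G K]

/-- Finitely many `G`-fixed elements of `K` have a common denominator in `R`. -/
theorem exists_common_denominator (hD : DescentData R K G) {ι : Type} [Fintype ι] (x : ι → K)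
    (hx : ∀ i (σ : G), σ • x i = x i) :
    ∃ (D : R) (r : ι → R), algebraMap R K D ≠ 0 ∧
      ∀ i, algebraMap R K (r i) = algebraMap R K D * x i := by
  classical
  have hfrac : ∀ i, ∃ a d : R, d ≠ 0 ∧ algebraMap R K d * x i = algebraMap R K a :=
    fun i => hD.fixed (x i) (hx i)
  choose a d hd had using hfrac
  refine ⟨∏ i, d i, fun i => (∏ j ∈ Finset.univ.erase i, d j) * a i, ?_, ?_⟩
  · rw [map_prod]
    refine Finset.prod_ne_zero_iff.mpr fun i _ => ?_
    intro h
    exact hd i (hD.inj (by rw [h, map_zero]))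
  · intro i
    have : (∏ i, d i) = (∏ j ∈ Finset.univ.erase i, d j) * d i := by
      rw [Finset.prod_erase_mul _ _ (Finset.mem_univ i)]
    simp only [map_mul]
    rw [← had i, this, map_mul]
    ring

/-- A `G`-stable separating set of points of a finite free `R`-algebra is the set of all
points. -/
theorem pts_eq_of_separating (hD : DescentData R K G) {A : Type} [CommRing A] [Algebra R A]
    [Module.Free R A] [Module.Finite R A] (F : Set (A →ₐ[R] K))
    (hstab : ∀ (σ : G), ∀ f ∈ F, conjAlgHom hD σ f ∈ F)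
    (hsep : ∀ a : A, (∀ f ∈ F, f a = 0) → a = 0) :
    F = Set.univ ∧ Finite (A →ₐ[R] K) := by
  classical
  set b := Module.Free.chooseBasis R A with hb
  set ι₀ := Module.Free.ChooseBasisIndex R A
  have e := b.constr (M' := K) K
  haveI : Module.Finite K (A →ₗ[R] K) := Module.Finite.equiv e
  have hfr : Module.finrank K (A →ₗ[R] K) = Fintype.card ι₀ := by
    rw [← LinearEquiv.finrank_eq e, Module.finrank_fintype_fun_eq_card]
  have hli := linearIndependent_algHom_toLinearMap R A K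
  haveI hfin : Finite (A →ₐ[R] K) := hli.finite
  haveI : Fintype (A →ₐ[R] K) := Fintype.ofFinite _
  have h1 : Fintype.card (A →ₐ[R] K) ≤ Fintype.card ι₀ := by
    rw [← hfr]
    exact hli.fintype_card_le_finrank
  haveI : Fintype F := Fintype.ofFinite _
  set Flin : Set (A →ₗ[R] K) := {φ | ∃ f ∈ F, φ = (f : A →ₐ[R] K).toLinearMap} with hFlin
  have hFstab : GStable G Flin := by
    rintro σ _ ⟨f, hf, rfl⟩
    exact ⟨(conjAlgHom hD σ f).toLinearMap, ⟨_, hstab σ f hf, rfl⟩, fun _ => rfl⟩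
  have hFsep : Separating Flin := by
    intro a ha
    exact hsep a (fun f hf => ha _ ⟨f, hf, rfl⟩)
  let ev : (ι₀ → K) →ₗ[K] (F → K) :=
    { toFun := fun c f => ∑ i, c i * (f : A →ₐ[R] K) (b i)
      map_add' := fun c c' => by
        funext f
        simp only [Pi.add_apply, add_mul, Finset.sum_add_distrib]
      map_smul' := fun a c => by
        funext f
        simp only [Pi.smul_apply, smul_eq_mul, RingHom.id_apply, Finset.mul_sum, mul_assoc] }
  have hev : Function.Injective ev := by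
    rw [← LinearMap.ker_eq_bot, LinearMap.ker_eq_bot']
    intro c hc
    apply descent_inj hD b Flin hFstab hFsep c
    rintro _ ⟨f, hf, rfl⟩
    exact congrFun hc ⟨f, hf⟩
  have h2 : Fintype.card ι₀ ≤ Fintype.card F := by
    have := LinearMap.finrank_le_finrank_of_injective hev
    rwa [Module.finrank_fintype_fun_eq_card, Module.finrank_fintype_fun_eq_card] at this
  refine ⟨?_, hfin⟩
  have h3 : (Set.univ : Set (A →ₐ[R] K)).ncard ≤ F.ncard := by
    rw [Set.ncard_univ, ← Nat.card_coe_set_eq, Nat.card_eq_fintype_card,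
      Nat.card_eq_fintype_card]
    exact h1.trans h2
  exact Set.eq_of_subset_of_ncard_le (Set.subset_univ F) h3 (Set.toFinite _)

variable {Q₁ Q₂ : Type} [AddCommGroup Q₁] [Module R Q₁] [AddCommGroup Q₂] [Module R Q₂]

/-- The submodule of elements on which all pairs of `P` agree. -/
def eqSub (P : Set ((Q₁ →ₗ[R] K) × (Q₁ →ₗ[R] K))) : Submodule R Q₁ where
  carrier := {q | ∀ uv ∈ P, uv.1 q = uv.2 q}
  add_mem' := fun ha hb uv huv => by rw [map_add, map_add, ha uv huv, hb uv huv]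
  zero_mem' := fun uv _ => by rw [map_zero, map_zero]
  smul_mem' := fun r q hq uv huv => by rw [map_smul, map_smul, hq uv huv]

lemma mem_eqSub {P : Set ((Q₁ →ₗ[R] K) × (Q₁ →ₗ[R] K))} {q : Q₁} :
    q ∈ eqSub P ↔ ∀ uv ∈ P, uv.1 q = uv.2 q := Iff.rfl

/-- An element of `Q₁ ⊗ Q₂` which is invariant in the first variable lies in the image of
`A ⊗ Q₂`, where `A` is the submodule of invariants of `Q₁`. -/
theorem inv_tensor_left (hD : DescentData R K G) {κ : Type} [Fintype κ]
    (c : Module.Basis κ R Q₂) (F₂ : Set (Q₂ →ₗ[R] K)) (hstab : GStable G F₂)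
    (hsep : Separating F₂) (P : Set ((Q₁ →ₗ[R] K) × (Q₁ →ₗ[R] K))) (t : Q₁ ⊗[R] Q₂)
    (ht : ∀ uv ∈ P, ∀ g ∈ F₂, LinearMap.mul' R K (TensorProduct.map uv.1 g t) =
      LinearMap.mul' R K (TensorProduct.map uv.2 g t)) :
    t ∈ LinearMap.range (LinearMap.rTensor Q₂ (eqSub P).subtype) := by
  classical
  obtain ⟨b, rfl⟩ := TensorProduct.eq_repr_basis_right c t
  rw [Finsupp.sum_fintype _ _ (fun i => by simp)] at ht ⊢
  have hmem : ∀ i, b i ∈ eqSub P := by
    intro i uv huv
    have := descent_inj hD c F₂ hstab hsep (fun i => uv.1 (b i) - uv.2 (b i)) (by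
      intro g hg
      have h := ht uv huv g hg
      simp only [map_sum, TensorProduct.map_tmul, LinearMap.mul'_apply] at h
      simp only [sub_mul, Finset.sum_sub_distrib]
      exact sub_eq_zero.mpr h)
    exact sub_eq_zero.mp (congrFun this i)
  refine ⟨∑ i, (⟨b i, hmem i⟩ : eqSub P) ⊗ₜ[R] c i, ?_⟩
  simp only [map_sum, LinearMap.rTensor_tmul, Submodule.subtype_apply]

/-- An element of `Q₁ ⊗ Q₂` which is invariant in the second variable lies in the image of
`Q₁ ⊗ A`, where `A` is the submodule of invariants of `Q₂`. -/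
theorem inv_tensor_right (hD : DescentData R K G) {κ : Type} [Fintype κ]
    (c : Module.Basis κ R Q₁) (F₁ : Set (Q₁ →ₗ[R] K)) (hstab : GStable G F₁)
    (hsep : Separating F₁) (P : Set ((Q₂ →ₗ[R] K) × (Q₂ →ₗ[R] K))) (t : Q₁ ⊗[R] Q₂)
    (ht : ∀ uv ∈ P, ∀ g ∈ F₁, LinearMap.mul' R K (TensorProduct.map g uv.1 t) =
      LinearMap.mul' R K (TensorProduct.map g uv.2 t)) :
    t ∈ LinearMap.range (LinearMap.lTensor Q₁ (eqSub P).subtype) := by
  classical
  obtain ⟨b, rfl⟩ := TensorProduct.eq_repr_basis_left c t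
  rw [Finsupp.sum_fintype _ _ (fun i => by simp)] at ht ⊢
  have hmem : ∀ i, b i ∈ eqSub P := by
    intro i uv huv
    have := descent_inj hD c F₁ hstab hsep (fun i => uv.1 (b i) - uv.2 (b i)) (by
      intro g hg
      have h := ht uv huv g hg
      simp only [map_sum, TensorProduct.map_tmul, LinearMap.mul'_apply] at h
      simp only [sub_mul, Finset.sum_sub_distrib]
      rw [sub_eq_zero]
      simpa only [mul_comm] using h)
    exact sub_eq_zero.mp (congrFun this i)
  refine ⟨∑ i, c i ⊗ₜ[R] (⟨b i, hmem i⟩ : eqSub P), ?_⟩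
  simp only [map_sum, LinearMap.lTensor_tmul, Submodule.subtype_apply]

/-- Existential form of `inv_tensor_left` (no subtypes). -/
theorem inv_tensor_left' (hD : DescentData R K G) {κ : Type} [Fintype κ]
    (c : Module.Basis κ R Q₂) (F₂ : Set (Q₂ →ₗ[R] K)) (hstab : GStable G F₂)
    (hsep : Separating F₂) (P : Set ((Q₁ →ₗ[R] K) × (Q₁ →ₗ[R] K))) (t : Q₁ ⊗[R] Q₂)
    (ht : ∀ uv ∈ P, ∀ g ∈ F₂, LinearMap.mul' R K (TensorProduct.map uv.1 g t) =
      LinearMap.mul' R K (TensorProduct.map uv.2 g t)) :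
    ∃ q : κ → Q₁, (∀ i, ∀ uv ∈ P, uv.1 (q i) = uv.2 (q i)) ∧ t = ∑ i, q i ⊗ₜ[R] c i := by
  classical
  obtain ⟨b, rfl⟩ := TensorProduct.eq_repr_basis_right c t
  rw [Finsupp.sum_fintype _ _ (fun i => by simp)] at ht ⊢
  refine ⟨fun i => b i, ?_, rfl⟩
  intro i uv huv
  have := descent_inj hD c F₂ hstab hsep (fun i => uv.1 (b i) - uv.2 (b i)) (by
    intro g hg
    have h := ht uv huv g hg
    simp only [map_sum, TensorProduct.map_tmul, LinearMap.mul'_apply] at h
    simp only [sub_mul, Finset.sum_sub_distrib]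
    exact sub_eq_zero.mpr h)
  exact sub_eq_zero.mp (congrFun this i)

/-- Existential form of `inv_tensor_right` (no subtypes). -/
theorem inv_tensor_right' (hD : DescentData R K G) {κ : Type} [Fintype κ]
    (c : Module.Basis κ R Q₁) (F₁ : Set (Q₁ →ₗ[R] K)) (hstab : GStable G F₁)
    (hsep : Separating F₁) (P : Set ((Q₂ →ₗ[R] K) × (Q₂ →ₗ[R] K))) (t : Q₁ ⊗[R] Q₂)
    (ht : ∀ uv ∈ P, ∀ g ∈ F₁, LinearMap.mul' R K (TensorProduct.map g uv.1 t) =
      LinearMap.mul' R K (TensorProduct.map g uv.2 t)) :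
    ∃ q : κ → Q₂, (∀ i, ∀ uv ∈ P, uv.1 (q i) = uv.2 (q i)) ∧ t = ∑ i, c i ⊗ₜ[R] q i := by
  classical
  obtain ⟨b, rfl⟩ := TensorProduct.eq_repr_basis_left c t
  rw [Finsupp.sum_fintype _ _ (fun i => by simp)] at ht ⊢
  refine ⟨fun i => b i, ?_, rfl⟩
  intro i uv huv
  have := descent_inj hD c F₁ hstab hsep (fun i => uv.1 (b i) - uv.2 (b i)) (by
    intro g hg
    have h := ht uv huv g hg
    simp only [map_sum, TensorProduct.map_tmul, LinearMap.mul'_apply] at h
    simp only [sub_mul, Finset.sum_sub_distrib]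
    rw [sub_eq_zero]
    simpa only [mul_comm] using h)
  exact sub_eq_zero.mp (congrFun this i)

end General

end Fermat.Agent.R.H54

end
-- ==== END Fermat.Agent.R.Flat.H54_Inv

-- ==== BEGIN Fermat.Agent.R.Flat.H54_Sub
section

/-!
# Flat closure (cluster R, helper54): closed subgroups (scheme-theoretic closure)

For a `G`-stable subgroup `X'` of the points of a finite Hopf algebra `H` over a principal ideal
domain `R`, the ideal `vanIdeal X'` of functions vanishing on `X'` is a Hopf ideal, the quotient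
is finite free, and its points are exactly `X'`.
-/

set_option autoImplicit false
set_option linter.unusedSectionVars false
set_option linter.style.haveILetI false

open scoped TensorProduct
open WithConv

namespace Fermat.Agent.R.H54

section Sub

variable {R K G : Type} [CommRing R] [IsDomain R] [IsPrincipalIdealRing R] [Field K] [Algebra R K]
  [Group G] [MulSemiringAction G K]
variable {H : Type} [CommRing H] [HopfAlgebra R H] [Module.Finite R H]

/-- The ideal of functions vanishing on `X'`. -/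
def vanIdeal (X' : Set (Pts R H K)) : Ideal H :=
  ⨅ f : X', RingHom.ker ((f : Pts R H K).ofConv : H →+* K)

lemma mem_vanIdeal {X' : Set (Pts R H K)} {x : H} :
    x ∈ vanIdeal X' ↔ ∀ f ∈ X', (f : Pts R H K) x = 0 := by
  simp only [vanIdeal, Ideal.mem_iInf, RingHom.mem_ker, Subtype.forall]
  rfl

/-- The linear map induced by `f ∈ X'` on the quotient module. -/
def barLin (X' : Set (Pts R H K)) (f : Pts R H K) (hf : f ∈ X') :
    (H ⧸ (vanIdeal X').restrictScalars R) →ₗ[R] K :=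
  ((vanIdeal X').restrictScalars R).liftQ f.ofConv.toLinearMap (fun x hx => by
    rw [LinearMap.mem_ker]
    exact mem_vanIdeal.mp hx f hf)

@[simp] lemma barLin_mk (X' : Set (Pts R H K)) (f : Pts R H K) (hf : f ∈ X') (x : H) :
    barLin X' f hf (Submodule.Quotient.mk x) = f x := rfl

lemma barLin_comp_mkQ (X' : Set (Pts R H K)) (f : Pts R H K) (hf : f ∈ X') :
    barLin X' f hf ∘ₗ ((vanIdeal X').restrictScalars R).mkQ = f.ofConv.toLinearMap := rfl

/-- The family of the `barLin f`, `f ∈ X'`. -/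
def barFam (X' : Set (Pts R H K)) : Set ((H ⧸ (vanIdeal X').restrictScalars R) →ₗ[R] K) :=
  {φ | ∃ (f : Pts R H K) (hf : f ∈ X'), φ = barLin X' f hf}

lemma barFam_separating (X' : Set (Pts R H K)) : Separating (barFam X') := by
  intro q hq
  obtain ⟨x, rfl⟩ := Submodule.Quotient.mk_surjective _ q
  rw [Submodule.Quotient.mk_eq_zero]
  show x ∈ vanIdeal X'
  rw [mem_vanIdeal]
  intro f hf
  exact hq _ ⟨f, hf, rfl⟩

lemma barFam_gstable (hD : DescentData R K G) {X' : Set (Pts R H K)} (hX : IsGSubgroup hD X') :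
    GStable G (barFam X') := by
  rintro σ _ ⟨f, hf, rfl⟩
  refine ⟨barLin X' (gconj hD σ f) (hX.stable σ f hf), ⟨_, hX.stable σ f hf, rfl⟩, ?_⟩
  intro q
  obtain ⟨x, rfl⟩ := Submodule.Quotient.mk_surjective _ q
  rfl

lemma quot_torsionFree (hD : DescentData R K G) (X' : Set (Pts R H K)) :
    Module.IsTorsionFree R (H ⧸ (vanIdeal X').restrictScalars R) := by
  refine ⟨fun r hr => ?_⟩
  have hr0 : algebraMap R K r ≠ 0 := by
    intro h
    have : r = 0 := hD.inj (by rw [h, map_zero])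
    exact hr.ne_zero this
  intro q₁ q₂ h
  have h' : r • (q₁ - q₂) = 0 := by
    simp only [smul_sub]
    exact sub_eq_zero.mpr h
  have : q₁ - q₂ = 0 := by
    apply barFam_separating X'
    rintro _ ⟨f, hf, rfl⟩
    have := congrArg (barLin X' f hf) h'
    rw [map_smul, map_zero, Algebra.smul_def] at this
    rcases mul_eq_zero.mp this with h1 | h1
    · exact absurd h1 hr0
    · exact h1
  exact sub_eq_zero.mp this

lemma quot_free (hD : DescentData R K G) (X' : Set (Pts R H K)) :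
    Module.Free R (H ⧸ (vanIdeal X').restrictScalars R) := by
  haveI := quot_torsionFree hD X'
  exact Module.free_of_finite_type_torsion_free'

/-- The vanishing ideal of a `G`-stable subgroup is a coideal. -/
theorem vanIdeal_isCoideal (hD : DescentData R K G) {X' : Set (Pts R H K)}
    (hX : IsGSubgroup hD X') : ((vanIdeal X').restrictScalars R).IsCoideal := by
  haveI := quot_free hD X'
  refine ⟨fun x hx => ?_, fun x hx => ?_⟩
  · have h1 := mem_vanIdeal.mp hx 1 hX.one_mem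
    rw [AlgHom.convOne_apply] at h1
    exact hD.inj (by rw [h1, map_zero])
  · set b := Module.Free.chooseBasis R (H ⧸ (vanIdeal X').restrictScalars R)
    refine tensor_sep hD b b (barFam X') (barFam X') (barFam_gstable hD hX)
      (barFam_separating X') (barFam_separating X') _ ?_
    rintro _ ⟨f, hf, rfl⟩ _ ⟨g, hg, rfl⟩
    rw [← LinearMap.comp_apply (TensorProduct.map _ _), ← TensorProduct.map_comp,
      barLin_comp_mkQ, barLin_comp_mkQ, ← convMul_apply']
    exact mem_vanIdeal.mp hx _ (hX.mul_mem f hf g hg)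

/-- The vanishing ideal of a `G`-stable subgroup is a Hopf ideal. -/
theorem vanIdeal_isHopfIdeal (hD : DescentData R K G) {X' : Set (Pts R H K)}
    (hX : IsGSubgroup hD X') : (vanIdeal X').IsHopfIdeal R :=
  { vanIdeal_isCoideal hD hX with
    antipode_mem := fun x hx => by
      rw [mem_vanIdeal]
      intro f hf
      exact mem_vanIdeal.mp hx _ (hX.inv_mem f hf) }

/-- The points of `H` which vanish on the vanishing ideal of `X'`. -/
def closurePts (X' : Set (Pts R H K)) : Set (Pts R H K) :=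
  {f | ∀ x ∈ vanIdeal X', (f : Pts R H K) x = 0}

lemma subset_closurePts (X' : Set (Pts R H K)) : X' ⊆ closurePts X' :=
  fun f hf x hx => mem_vanIdeal.mp hx f hf

/-- The linear map induced on the quotient module by a point of the closure. -/
def barLin' (X' : Set (Pts R H K)) (f : Pts R H K) (hf : f ∈ closurePts X') :
    (H ⧸ (vanIdeal X').restrictScalars R) →ₗ[R] K :=
  ((vanIdeal X').restrictScalars R).liftQ f.ofConv.toLinearMap (fun x hx => by
    rw [LinearMap.mem_ker]
    exact hf x hx)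

lemma linInd_closure (X' : Set (Pts R H K)) :
    LinearIndependent K (fun f : closurePts X' => barLin' X' f.1 f.2) := by
  apply LinearIndependent.of_comp
    (LinearMap.lcomp K K ((vanIdeal X').restrictScalars R).mkQ)
  have h1 : (⇑(LinearMap.lcomp K K ((vanIdeal X').restrictScalars R).mkQ) ∘
      fun f : closurePts X' => barLin' X' f.1 f.2) =
      (AlgHom.toLinearMap : (H →ₐ[R] K) → H →ₗ[R] K) ∘
        (fun f : closurePts X' => (f.1 : Pts R H K).ofConv) := by
    funext f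
    rfl
  rw [h1]
  refine (linearIndependent_algHom_toLinearMap R H K).comp _ ?_
  intro f g hfg
  exact Subtype.ext (WithConv.ext hfg)

/-- **Closure theorem.** A `G`-stable subgroup `X'` of the points of `H` is closed: every point
which vanishes on the vanishing ideal of `X'` belongs to `X'`. -/
theorem closurePts_eq (hD : DescentData R K G) {X' : Set (Pts R H K)} (hX : IsGSubgroup hD X') :
    closurePts X' = X' ∧ X'.Finite := by
  classical
  haveI := quot_free hD X'
  set b := Module.Free.chooseBasis R (H ⧸ (vanIdeal X').restrictScalars R) with hb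
  set ι₀ := Module.Free.ChooseBasisIndex R (H ⧸ (vanIdeal X').restrictScalars R)
  -- the dual space is finite dimensional of dimension `card ι₀`
  have e := b.constr (M' := K) K
  haveI : Module.Finite K ((H ⧸ (vanIdeal X').restrictScalars R) →ₗ[R] K) :=
    Module.Finite.equiv e
  have hfr : Module.finrank K ((H ⧸ (vanIdeal X').restrictScalars R) →ₗ[R] K) =
      Fintype.card ι₀ := by
    rw [← LinearEquiv.finrank_eq e, Module.finrank_fintype_fun_eq_card]
  have hli := linInd_closure (R := R) (K := K) X'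
  haveI hfin : Finite (closurePts X') := hli.finite
  have hcfin : (closurePts X').Finite := Set.toFinite _
  have hXfin : X'.Finite := hcfin.subset (subset_closurePts X')
  haveI : Fintype (closurePts X') := Fintype.ofFinite _
  have h1 : Fintype.card (closurePts X') ≤ Fintype.card ι₀ := by
    rw [← hfr]
    exact hli.fintype_card_le_finrank
  -- descent: `card ι₀ ≤ card X'`
  haveI : Fintype X' := hXfin.fintype
  let ev : (ι₀ → K) →ₗ[K] (X' → K) :=
    { toFun := fun c f => ∑ i, c i * barLin X' f.1 f.2 (b i)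
      map_add' := fun c c' => by
        funext f
        simp only [Pi.add_apply, add_mul, Finset.sum_add_distrib]
      map_smul' := fun a c => by
        funext f
        simp only [Pi.smul_apply, smul_eq_mul, RingHom.id_apply, Finset.mul_sum, mul_assoc] }
  have hev : Function.Injective ev := by
    rw [← LinearMap.ker_eq_bot, LinearMap.ker_eq_bot']
    intro c hc
    apply descent_inj hD b (barFam X') (barFam_gstable hD hX) (barFam_separating X') c
    rintro _ ⟨f, hf, rfl⟩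
    exact congrFun hc ⟨f, hf⟩
  have h2 : Fintype.card ι₀ ≤ Fintype.card X' := by
    have := LinearMap.finrank_le_finrank_of_injective hev
    rwa [Module.finrank_fintype_fun_eq_card, Module.finrank_fintype_fun_eq_card] at this
  have h3 : (closurePts X').ncard ≤ X'.ncard := by
    rw [← Nat.card_coe_set_eq, ← Nat.card_coe_set_eq, Nat.card_eq_fintype_card,
      Nat.card_eq_fintype_card]
    exact h1.trans h2
  exact ⟨(Set.eq_of_subset_of_ncard_le (subset_closurePts X') h3 hcfin).symm, hXfin⟩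

end Sub

end Fermat.Agent.R.H54

end
-- ==== END Fermat.Agent.R.Flat.H54_Sub

-- ==== BEGIN Fermat.Agent.S53.Calc
section

set_option autoImplicit false
set_option linter.unusedSectionVars false

/-!
# S53: calculus of matrix valued maps (lifts, normalized lifts, type `𝒟`).
-/

namespace Fermat.Agent.S53

open IsLocalRing

section MapHom

variable {A B : Type} [CommRing A] [CommRing B]

/-- Push a matrix valued homomorphism forward along a ring homomorphism. -/
noncomputable def mapHom (φ : A →+* B) (r : GQ →* M2 A) : GQ →* M2 B :=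
  (φ.mapMatrix : M2 A →+* M2 B).toMonoidHom.comp r

@[simp] theorem mapHom_apply (φ : A →+* B) (r : GQ →* M2 A) (σ : GQ) :
    mapHom φ r σ = (r σ).map φ := rfl

theorem mapHom_apply_apply (φ : A →+* B) (r : GQ →* M2 A) (σ : GQ) (i j : Fin 2) :
    mapHom φ r σ i j = φ (r σ i j) := rfl

/-- Two ring homomorphisms agreeing on the entries of `r` push `r` to the same map. -/
theorem mapHom_injective_of_injective (φ : A →+* B) (hφ : Function.Injective φ)
    {r r' : GQ →* M2 A} (h : mapHom φ r = mapHom φ r') : r = r' := by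
  ext σ i j
  apply hφ
  have := congrArg (fun t : GQ →* M2 B => t σ i j) h
  exact this

end MapHom

section FinLevel

variable {A : Type} [CommRing A] [IsLocalRing A]

/-- `r` is trivial on an open subgroup. -/
def FinLevel (r : GQ → M2 A) : Prop :=
  ∃ L : IntermediateField ℚ (AlgebraicClosure ℚ), FiniteDimensional ℚ L ∧
    ∀ σ : GQ, (∀ x ∈ L, σ x = x) → r σ = 1

theorem FinLevel.matCont {r : GQ → M2 A} (h : FinLevel r) : MatCont r := by
  intro n
  obtain ⟨L, hL, h1⟩ := h
  refine ⟨L, hL, fun σ hσ i j => ?_⟩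
  rw [h1 σ hσ, sub_self]
  exact Ideal.zero_mem _

theorem MatCont.finLevel {r : GQ → M2 A} (h : MatCont r) {n : ℕ}
    (hn : maximalIdeal A ^ n = ⊥) : FinLevel r := by
  obtain ⟨L, hL, h1⟩ := h n
  refine ⟨L, hL, fun σ hσ => ?_⟩
  ext i j
  have := h1 σ hσ i j
  rw [hn, Ideal.mem_bot] at this
  have h2 : r σ i j - (1 : M2 A) i j = 0 := this
  exact sub_eq_zero.mp h2

theorem FinLevel.map {B : Type} [CommRing B] [IsLocalRing B] (φ : A →+* B) {r : GQ → M2 A}
    (h : FinLevel r) : FinLevel (fun σ => (r σ).map φ) := by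
  obtain ⟨L, hL, h1⟩ := h
  refine ⟨L, hL, fun σ hσ => ?_⟩
  show (r σ).map φ = 1
  rw [h1 σ hσ]
  exact (φ.mapMatrix : M2 A →+* M2 B).map_one

theorem FinLevel.of_map {B : Type} [CommRing B] [IsLocalRing B] (φ : A →+* B)
    (hφ : Function.Injective φ) {r : GQ → M2 A}
    (h : FinLevel (fun σ => (r σ).map φ)) : FinLevel r := by
  obtain ⟨L, hL, h1⟩ := h
  refine ⟨L, hL, fun σ hσ => ?_⟩
  have h2 : (r σ).map φ = (1 : M2 A).map φ := by
    have h3 : (r σ).map φ = 1 := h1 σ hσ
    rw [h3]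
    exact ((φ.mapMatrix : M2 A →+* M2 B).map_one).symm
  ext i j
  apply hφ
  have := congrArg (fun M : M2 B => M i j) h2
  exact this

theorem FinLevel.inf {B : Type} [CommRing B] [IsLocalRing B] {r : GQ → M2 A} {r' : GQ → M2 B}
    (h : FinLevel r) (h' : FinLevel r') :
    ∃ L : IntermediateField ℚ (AlgebraicClosure ℚ), FiniteDimensional ℚ L ∧
      ∀ σ : GQ, (∀ x ∈ L, σ x = x) → r σ = 1 ∧ r' σ = 1 := by
  obtain ⟨L, hL, h1⟩ := h
  obtain ⟨L', hL', h1'⟩ := h'
  refine ⟨L ⊔ L', IntermediateField.finiteDimensional_sup L L', fun σ hσ => ⟨?_, ?_⟩⟩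
  · exact h1 σ fun x hx => hσ x ((le_sup_left : L ≤ L ⊔ L') hx)
  · exact h1' σ fun x hx => hσ x ((le_sup_right : L' ≤ L ⊔ L') hx)

end FinLevel

section Lift

variable {𝒪 : Type} [CommRing 𝒪] [IsLocalRing 𝒪]
variable {A : Type} [CommRing A] [IsLocalRing A] [Algebra 𝒪 A] [IsLocalHom (algebraMap 𝒪 A)]

theorem isLift_iff (rbar : GQ → M2 (ResidueField 𝒪)) (r : GQ → M2 A) :
    IsLift 𝒪 rbar r ↔ ∀ (σ : GQ) (i j : Fin 2) (c : 𝒪), residue 𝒪 c = rbar σ i j →
      r σ i j - algebraMap 𝒪 A c ∈ maximalIdeal A := by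
  constructor
  · intro h σ i j c hc
    have h1 := congrArg (fun M : M2 (ResidueField A) => M i j) (h σ)
    simp only [Matrix.map_apply] at h1
    rw [← hc, ResidueField.map_residue] at h1
    rw [← Ideal.Quotient.eq_zero_iff_mem]
    have : residue A (r σ i j - algebraMap 𝒪 A c) = 0 := by
      rw [map_sub, h1, sub_self]
    exact this
  · intro h σ
    ext i j
    simp only [Matrix.map_apply]
    obtain ⟨c, hc⟩ := residue_surjective (rbar σ i j)
    have h1 := h σ i j c hc
    rw [← hc, ResidueField.map_residue]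
    have : residue A (r σ i j - algebraMap 𝒪 A c) = 0 :=
      (residue_eq_zero_iff _).mpr h1
    rw [map_sub, sub_eq_zero] at this
    exact this

variable {B : Type} [CommRing B] [IsLocalRing B] [Algebra 𝒪 B] [IsLocalHom (algebraMap 𝒪 B)]

theorem IsLift.map {rbar : GQ → M2 (ResidueField 𝒪)} {r : GQ → M2 A} (h : IsLift 𝒪 rbar r)
    (φ : A →ₐ[𝒪] B) (hφ : IsLocalHom (φ : A →+* B)) :
    IsLift 𝒪 rbar (fun σ => (r σ).map φ) := by
  rw [isLift_iff] at h ⊢
  intro σ i j c hc
  have h1 := h σ i j c hc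
  have h2 : φ (r σ i j - algebraMap 𝒪 A c) ∈ maximalIdeal B := by
    rw [mem_maximalIdeal, mem_nonunits_iff] at h1 ⊢
    intro hu
    exact h1 (hφ.map_nonunit _ hu)
  simpa using h2

theorem IsLift.of_map {rbar : GQ → M2 (ResidueField 𝒪)} {r : GQ → M2 A} (φ : A →ₐ[𝒪] B)
    (h : IsLift 𝒪 rbar (fun σ => (r σ).map φ)) : IsLift 𝒪 rbar r := by
  rw [isLift_iff] at h ⊢
  intro σ i j c hc
  have h1 := h σ i j c hc
  rw [mem_maximalIdeal, mem_nonunits_iff] at h1 ⊢
  intro hu
  apply h1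
  have := hu.map φ
  simpa using this

end Lift

section Norm

variable {𝒪 : Type} [CommRing 𝒪] [IsLocalRing 𝒪] {ρbar : ResidualGaloisRep (ResidueField 𝒪)}
variable {A : Type} [CommRing A] [IsLocalRing A] [Algebra 𝒪 A] [IsLocalHom (algebraMap 𝒪 A)]
variable {B : Type} [CommRing B] [IsLocalRing B] [Algebra 𝒪 B] [IsLocalHom (algebraMap 𝒪 B)]

theorem IsNorm.map {N : NormData 𝒪 ρbar} {r : GQ → M2 A} (h : IsNorm N r)
    (φ : A →ₐ[𝒪] B) (hφ : IsLocalHom (φ : A →+* B)) :
    IsNorm N (fun σ => (r σ).map φ) := by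
  obtain ⟨h1, h2, h3⟩ := h
  refine ⟨h1.map φ hφ, fun i => ?_, ?_⟩
  · show φ (r N.g1 i 0) = _
    rw [h2 i]
    split_ifs <;> simp
  · show φ (r N.g2 N.i0 N.j0) = _
    rw [h3, AlgHom.commutes]

theorem IsNorm.of_map {N : NormData 𝒪 ρbar} {r : GQ → M2 A}
    (φ : A →ₐ[𝒪] B) (hinj : Function.Injective φ)
    (h : IsNorm N (fun σ => (r σ).map φ)) : IsNorm N r := by
  obtain ⟨h1, h2, h3⟩ := h
  refine ⟨IsLift.of_map φ h1, fun i => ?_, ?_⟩
  · apply hinj
    have := h2 i
    simp only [Matrix.map_apply] at this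
    rw [this]
    split_ifs <;> simp
  · apply hinj
    have := h3
    simp only [Matrix.map_apply] at this
    rw [this, AlgHom.commutes]

end Norm

section Restrict

variable {E P : Type} [CommRing E] [CommRing P]

theorem matrix_map_injective (ι : E →+* P) (hι : Function.Injective ι) :
    Function.Injective (fun M : M2 E => M.map ι) := by
  intro M M' h
  ext i j
  apply hι
  exact congrArg (fun X : M2 P => X i j) h

/-- A function `t'` into matrices over `E` whose push forward along an injective ring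
homomorphism is a homomorphism is itself a homomorphism. -/
noncomputable def liftHom (ι : E →+* P) (hι : Function.Injective ι) (t : GQ →* M2 P)
    (t' : GQ → M2 E) (h : ∀ σ, (t' σ).map ι = t σ) : GQ →* M2 E where
  toFun := t'
  map_one' := by
    apply matrix_map_injective ι hι
    show (t' 1).map ι = (1 : M2 E).map ι
    rw [h, map_one]
    exact ((ι.mapMatrix : M2 E →+* M2 P).map_one).symm
  map_mul' σ τ := by
    apply matrix_map_injective ι hι
    show (t' (σ * τ)).map ι = (t' σ * t' τ).map ι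
    rw [h, map_mul, Matrix.map_mul, h, h]

@[simp] theorem liftHom_apply (ι : E →+* P) (hι : Function.Injective ι) (t : GQ →* M2 P)
    (t' : GQ → M2 E) (h : ∀ σ, (t' σ).map ι = t σ) (σ : GQ) :
    liftHom ι hι t t' h σ = t' σ := rfl

variable {𝒪 : Type} [CommRing 𝒪] [Algebra 𝒪 P]

/-- Restriction of a matrix valued homomorphism to a subalgebra containing its entries. -/
noncomputable def restrictHom (S : Subalgebra 𝒪 P) (t : GQ →* M2 P)
    (h : ∀ σ i j, t σ i j ∈ S) : GQ →* M2 S :=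
  liftHom (S.val : S →+* P) Subtype.val_injective t
    (fun σ => Matrix.of fun i j => ⟨t σ i j, h σ i j⟩) (fun σ => by ext i j; rfl)

@[simp] theorem restrictHom_apply_coe (S : Subalgebra 𝒪 P) (t : GQ →* M2 P)
    (h : ∀ σ i j, t σ i j ∈ S) (σ : GQ) (i j : Fin 2) :
    ((restrictHom S t h σ i j : S) : P) = t σ i j := rfl

theorem restrictHom_map_val (S : Subalgebra 𝒪 P) (t : GQ →* M2 P)
    (h : ∀ σ i j, t σ i j ∈ S) (σ : GQ) :
    (restrictHom S t h σ).map S.val = t σ := by
  ext i j; rfl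

end Restrict

section Prod

variable {A B : Type} [CommRing A] [CommRing B]

/-- The product of two matrix valued homomorphisms. -/
noncomputable def prodHom (r : GQ →* M2 A) (r' : GQ →* M2 B) : GQ →* M2 (A × B) where
  toFun σ := Matrix.of fun i j => (r σ i j, r' σ i j)
  map_one' := by
    ext i j
    · simp [Matrix.one_apply]; split_ifs <;> rfl
    · simp [Matrix.one_apply]; split_ifs <;> rfl
  map_mul' σ τ := by
    ext i j
    · simp [Matrix.mul_apply]
    · simp [Matrix.mul_apply]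

@[simp] theorem prodHom_apply (r : GQ →* M2 A) (r' : GQ →* M2 B) (σ : GQ) (i j : Fin 2) :
    prodHom r r' σ i j = (r σ i j, r' σ i j) := rfl

end Prod

section DMatCalc

variable {𝒪 : Type} [CommRing 𝒪] [IsLocalRing 𝒪]
variable {𝒟 : ∀ ⦃A : Type⦄ [CommRing A] [IsLocalRing A] [Algebra 𝒪 A], GaloisRepAdic A → Prop}
variable {A : Type} [CommRing A] [IsLocalRing A] [Algebra 𝒪 A]
variable {B : Type} [CommRing B] [IsLocalRing B] [Algebra 𝒪 B]

theorem exists_pow_eq_bot_of_isArtinian (hA : GaloisRep.IsArtinianTestAlgebra 𝒪 A) :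
    ∃ n : ℕ, maximalIdeal A ^ n = ⊥ := by
  haveI := hA.isArtinian
  have h := IsArtinianRing.isNilpotent_jacobson_bot (R := A)
  rw [IsLocalRing.jacobson_eq_maximalIdeal ⊥ bot_ne_top] at h
  obtain ⟨n, hn⟩ := h
  exact ⟨n, hn⟩

theorem DMat.matCont {r : GQ → M2 A} (h : DMat 𝒪 𝒟 r) : MatCont r := by
  obtain ⟨ρ, h1, -⟩ := h
  exact h1.matCont

theorem DMat.finLevel (hA : GaloisRep.IsArtinianTestAlgebra 𝒪 A) {r : GQ → M2 A}
    (h : DMat 𝒪 𝒟 r) : FinLevel r := by
  obtain ⟨n, hn⟩ := exists_pow_eq_bot_of_isArtinian hA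
  exact h.matCont.finLevel hn

/-- On artinian test algebras, type `𝒟` only depends on the matrix form. -/
theorem DMat.of_isMatOf (h𝒟 : GaloisRep.IsDeformationCondition 𝒪 𝒟)
    (hA : GaloisRep.IsArtinianTestAlgebra 𝒪 A) {r : GQ → M2 A} (h : DMat 𝒪 𝒟 r)
    {ρ : GaloisRepAdic A} (hρ : IsMatOf ρ r) : 𝒟 ρ := by
  obtain ⟨ρ', h1, h2⟩ := h
  refine h𝒟.of_isEquiv hA ?_ h2
  rw [IsMatOf.isEquiv_iff h1 hρ]
  exact ⟨1, fun σ => by simp⟩

theorem DMat.map (h𝒟 : GaloisRep.IsDeformationCondition 𝒪 𝒟)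
    (hA : GaloisRep.IsArtinianTestAlgebra 𝒪 A) (hB : GaloisRep.IsArtinianTestAlgebra 𝒪 B)
    (φ : A →ₐ[𝒪] B) (hφ : IsLocalHom (φ : A →+* B)) {r : GQ → M2 A} (h : DMat 𝒪 𝒟 r) :
    DMat 𝒪 𝒟 (fun σ => (r σ).map φ) := by
  obtain ⟨ρ, h1, h2⟩ := h
  exact ⟨ρ.baseChangeAlong (φ : A →+* B) hφ, h1.baseChangeAlong (φ : A →+* B) hφ,
    h𝒟.baseChangeAlong hA hB φ hφ h2⟩

theorem DMat.of_map_injective (h𝒟 : GaloisRep.IsDeformationCondition 𝒪 𝒟)
    (hA : GaloisRep.IsArtinianTestAlgebra 𝒪 A) (hB : GaloisRep.IsArtinianTestAlgebra 𝒪 B)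
    (φ : A →ₐ[𝒪] B) (hφ : IsLocalHom (φ : A →+* B)) (hinj : Function.Injective φ)
    (r : GQ →* M2 A) (h : DMat 𝒪 𝒟 (fun σ => (r σ).map φ)) : DMat 𝒪 𝒟 r := by
  have hfin : FinLevel (fun σ => (r σ).map (φ : A →+* B)) := h.finLevel hB
  have hcont : MatCont r := (FinLevel.of_map (φ : A →+* B) hinj hfin).matCont
  refine ⟨ofMat r hcont, isMatOf_ofMat r hcont, ?_⟩
  refine h𝒟.of_baseChangeAlong_injective hA hB φ hφ hinj ?_
  exact h.of_isMatOf h𝒟 hB ((isMatOf_ofMat r hcont).baseChangeAlong (φ : A →+* B) hφ)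

/-- Type `𝒟` for a lift to a fibre product over `k`. -/
theorem DMat.of_fibreProduct (h𝒟 : GaloisRep.IsDeformationCondition 𝒪 𝒟)
    {P : Type} [CommRing P] [IsLocalRing P] [Algebra 𝒪 P]
    (hP : GaloisRep.IsArtinianTestAlgebra 𝒪 P)
    (hA : GaloisRep.IsArtinianTestAlgebra 𝒪 A) (hB : GaloisRep.IsArtinianTestAlgebra 𝒪 B)
    (hk : GaloisRep.IsArtinianTestAlgebra 𝒪 (ResidueField 𝒪))
    (pA : P →ₐ[𝒪] A) (pB : P →ₐ[𝒪] B) (hpA : IsLocalHom (pA : P →+* A))
    (hpB : IsLocalHom (pB : P →+* B))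
    (hinj : Function.Injective fun x => (pA x, pB x))
    (hsurj : ∀ (a : A) (b : B) (c : 𝒪), a - algebraMap 𝒪 A c ∈ maximalIdeal A →
      b - algebraMap 𝒪 B c ∈ maximalIdeal B → ∃ x, pA x = a ∧ pB x = b)
    (t : GQ →* M2 P) (htA : DMat 𝒪 𝒟 (fun σ => (t σ).map pA))
    (htB : DMat 𝒪 𝒟 (fun σ => (t σ).map pB)) : DMat 𝒪 𝒟 t := by
  haveI := hA.isLocalHom
  haveI := hB.isLocalHom
  obtain ⟨f, -, -, hf⟩ := exists_toK 𝒪 A hA.residue_surjective
  obtain ⟨g, -, -, hg⟩ := exists_toK 𝒪 B hB.residue_surjective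
  -- continuity
  obtain ⟨L, hL, h1⟩ := (htA.finLevel hA).inf (htB.finLevel hB)
  have hfin : FinLevel t := by
    refine ⟨L, hL, fun σ hσ => ?_⟩
    obtain ⟨h2, h3⟩ := h1 σ hσ
    ext i j
    apply hinj
    have e2 := congrArg (fun M : M2 A => M i j) h2
    have e3 := congrArg (fun M : M2 B => M i j) h3
    simp only [Matrix.map_apply] at e2 e3
    show (pA (t σ i j), pB (t σ i j)) = (pA ((1 : M2 P) i j), pB ((1 : M2 P) i j))
    rw [e2, e3]
    by_cases hij : i = j
    · subst hij; simp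
    · simp [Matrix.one_apply_ne hij]
  have hcont : MatCont t := hfin.matCont
  refine ⟨ofMat t hcont, isMatOf_ofMat t hcont, ?_⟩
  have hcomp : f.comp pA = g.comp pB := by
    ext x
    obtain ⟨c, hc⟩ := exists_sub_mem_maximalIdeal hP.residue_surjective x
    have hcA : pA x - algebraMap 𝒪 A c ∈ maximalIdeal A := by
      have : pA (x - algebraMap 𝒪 P c) ∈ maximalIdeal A := by
        rw [mem_maximalIdeal, mem_nonunits_iff] at hc ⊢
        exact fun hu => hc (hpA.map_nonunit _ hu)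
      simpa using this
    have hcB : pB x - algebraMap 𝒪 B c ∈ maximalIdeal B := by
      have : pB (x - algebraMap 𝒪 P c) ∈ maximalIdeal B := by
        rw [mem_maximalIdeal, mem_nonunits_iff] at hc ⊢
        exact fun hu => hc (hpB.map_nonunit _ hu)
      simpa using this
    show f (pA x) = g (pB x)
    rw [(hf _ c).mpr hcA, (hg _ c).mpr hcB]
  refine h𝒟.of_fibreProduct hA hB hk hP f g pA pB hpA hpB hcomp hinj ?_ ?_ ?_
  · intro a b hab
    obtain ⟨c, hc⟩ := residue_surjective (f a)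
    exact hsurj a b c ((hf a c).mp hc.symm) ((hg b c).mp (hab ▸ hc.symm))
  · exact htA.of_isMatOf h𝒟 hA ((isMatOf_ofMat t hcont).baseChangeAlong (pA : P →+* A) hpA)
  · exact htB.of_isMatOf h𝒟 hB ((isMatOf_ofMat t hcont).baseChangeAlong (pB : P →+* B) hpB)

end DMatCalc

end Fermat.Agent.S53

end
-- ==== END Fermat.Agent.S53.Calc
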