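-- GENERATED (merged mirror, NOTES/tools/trim/merge3_helper67.py): 7 modules of the originals, bodies verbatim.
import Mathlib
import Fermat.Agent.Zm.S56_L03_000
import Fermat.Agent.Zm.S56_L02_000
import Fermat.Agent.Zm.S56_L02_001
import Fermat.Agent.Zm.S56_L03_001
import Fermat.Agent.Zm.S56_L01_001

-- ==== BEGIN Fermat.Agent.Lib.LocalKummer.Cover
section

/-
Finiteness of `Eˣ / (Eˣ) ^ ℓ` for a finite extension `E` of `ℚ_q` inside `PadicAlgCl q`, in the
form: there is a finite set `T` such that every nonzero `a ∈ E` is `t * b ^ ℓ` with `t ∈ T` and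
`b ≠ 0` fixed by the Galois group of `E`.  (Compactness of the unit ball of `E` + root selection.)
-/

set_option autoImplicit false
set_option linter.unusedSectionVars false
set_option linter.style.haveILetI false

namespace Fermat.Agent.Lib.LocalKummer

section cover

variable (q : ℕ) [Fact q.Prime]

local notation "Ω" => PadicAlgCl q

lemma isCompact_unitBall (E : IntermediateField ℚ_[q] Ω) [FiniteDimensional ℚ_[q] E] :
    IsCompact {x : Ω | x ∈ E ∧ ‖x‖ ≤ 1} := by
  let S : Submodule ℚ_[q] Ω := E.toSubalgebra.toSubmodule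
  haveI : FiniteDimensional ℚ_[q] S := inferInstanceAs (FiniteDimensional ℚ_[q] E)
  haveI : ProperSpace S := FiniteDimensional.proper ℚ_[q] S
  have h1 : IsCompact (Metric.closedBall (0 : S) 1) := isCompact_closedBall 0 1
  have h2 := h1.image (continuous_subtype_val)
  convert h2 using 1
  ext x
  constructor
  · rintro ⟨hx, hx1⟩
    refine ⟨⟨x, hx⟩, ?_, rfl⟩
    rw [Metric.mem_closedBall, dist_zero_right]
    exact hx1
  · rintro ⟨y, hy, rfl⟩
    rw [Metric.mem_closedBall, dist_zero_right] at hy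
    exact ⟨y.2, hy⟩

lemma isCompact_annulus (E : IntermediateField ℚ_[q] Ω) [FiniteDimensional ℚ_[q] E] (c : ℝ) :
    IsCompact {x : Ω | x ∈ E ∧ c ≤ ‖x‖ ∧ ‖x‖ ≤ 1} := by
  have h1 := (isCompact_unitBall q E).inter_right
    (isClosed_le continuous_const continuous_norm : IsClosed {x : Ω | c ≤ ‖x‖})
  convert h1 using 1
  ext x
  constructor
  · rintro ⟨hx, hc, h1⟩
    exact ⟨⟨hx, h1⟩, hc⟩
  · rintro ⟨⟨hx, h1⟩, hc⟩
    exact ⟨hx, hc, h1⟩

lemma natCast_q_mem (E : IntermediateField ℚ_[q] Ω) : (q : Ω) ∈ E := by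
  have : (q : Ω) = algebraMap ℚ_[q] Ω (q : ℚ_[q]) := (map_natCast _ q).symm
  rw [this]
  exact E.algebraMap_mem _

/-- Scaling into the annulus by a power of `q ^ m`. -/
lemma exists_zpow_scale (m : ℕ) (hm : m ≠ 0) {a : Ω} (ha : a ≠ 0) :
    ∃ n : ℤ, ‖(q : Ω)‖ ^ m ≤ ‖a * ((q : Ω) ^ m) ^ n‖ ∧ ‖a * ((q : Ω) ^ m) ^ n‖ ≤ 1 := by
  have hq : q.Prime := Fact.out
  have hqn : ‖(q : Ω)‖ = (q : ℝ)⁻¹ := norm_natCast_p q
  have hqR : (1 : ℝ) < q := by exact_mod_cast hq.one_lt
  have hb : (1 : ℝ) < (q : ℝ) ^ m := one_lt_pow₀ hqR hm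
  have ha' : 0 < ‖a‖ := norm_pos_iff.2 ha
  obtain ⟨n, hn1, hn2⟩ := exists_mem_Ioc_zpow ha' hb
  refine ⟨n + 1, ?_, ?_⟩
  · rw [norm_mul, norm_zpow, norm_pow, hqn, inv_pow, inv_zpow, ← zpow_neg]
    have h0 : (0 : ℝ) < (q : ℝ) ^ m := by positivity
    rw [neg_add, zpow_add₀ h0.ne', zpow_neg_one, ← mul_assoc]
    have h1 : 1 ≤ ‖a‖ * ((q : ℝ) ^ m) ^ (-n) := by
      rw [zpow_neg, ← div_eq_mul_inv, le_div_iff₀ (zpow_pos h0 n), one_mul]
      exact hn1.le
    calc ((q : ℝ) ^ m)⁻¹ = 1 * ((q : ℝ) ^ m)⁻¹ := (one_mul _).symm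
      _ ≤ ‖a‖ * ((q : ℝ) ^ m) ^ (-n) * ((q : ℝ) ^ m)⁻¹ :=
        mul_le_mul_of_nonneg_right h1 (by positivity)
  · rw [norm_mul, norm_zpow, norm_pow, hqn, inv_pow, inv_zpow, ← div_eq_mul_inv]
    have h0 : (0 : ℝ) < (q : ℝ) ^ m := by positivity
    rw [div_le_one (zpow_pos h0 _)]
    exact hn2

/-- **Finiteness of `Eˣ` modulo `ℓ`-th powers.** -/
theorem exists_finite_reps (ℓ : ℕ) (hℓ : ℓ.Prime) (E : IntermediateField ℚ_[q] Ω)
    [FiniteDimensional ℚ_[q] E] :
    ∃ T : Set Ω, T.Finite ∧ ∀ a ∈ E, a ≠ 0 → ∃ t ∈ T, ∃ b : Ω, b ≠ 0 ∧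
      (∀ σ ∈ E.fixingSubgroup, σ b = b) ∧ a = t * b ^ ℓ := by
  have hq : q.Prime := Fact.out
  haveI : NeZero ℓ := ⟨hℓ.ne_zero⟩
  obtain ⟨ζ, hζ⟩ := exists_primitiveRoot_padicAlgCl q ℓ
  have hε₀ : 0 < ‖1 - ζ‖ ^ ℓ := pow_pos (norm_one_sub_pos hζ hℓ.one_lt) _
  have hq0 : (q : Ω) ≠ 0 := by exact_mod_cast hq.ne_zero
  have hc : 0 < ‖(q : Ω)‖ ^ ℓ := pow_pos (norm_pos_iff.2 hq0) _
  obtain ⟨T, hTA, hTfin, hcov⟩ := finite_cover_balls_of_compact
    (isCompact_annulus q E (‖(q : Ω)‖ ^ ℓ)) (mul_pos hc hε₀)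
  refine ⟨T, hTfin, fun a haE ha0 => ?_⟩
  obtain ⟨n, hn1, hn2⟩ := exists_zpow_scale q ℓ hℓ.ne_zero ha0
  set a' : Ω := a * ((q : Ω) ^ ℓ) ^ n with ha'
  have hqE : ((q : Ω) ^ ℓ) ^ n ∈ E := zpow_mem (pow_mem (natCast_q_mem q E) ℓ) n
  have ha'E : a' ∈ E := mul_mem haE hqE
  have ha'A : a' ∈ {x : Ω | x ∈ E ∧ ‖(q : Ω)‖ ^ ℓ ≤ ‖x‖ ∧ ‖x‖ ≤ 1} := ⟨ha'E, hn1, hn2⟩
  obtain ⟨t, htT, hat⟩ := Set.mem_iUnion₂.1 (hcov ha'A)
  have htA := hTA htT
  have htE : t ∈ E := htA.1
  have htn : ‖(q : Ω)‖ ^ ℓ ≤ ‖t‖ := htA.2.1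
  have ht0 : t ≠ 0 := norm_pos_iff.1 (lt_of_lt_of_le hc htn)
  rw [Metric.mem_ball, dist_eq_norm] at hat
  set y : Ω := a' / t with hy
  have hyE : y ∈ E := div_mem ha'E htE
  have hy1 : ‖y - 1‖ < ‖1 - ζ‖ ^ ℓ := by
    have e1 : y - 1 = (a' - t) / t := by
      rw [hy]
      field_simp
    rw [e1, norm_div, div_lt_iff₀ (norm_pos_iff.2 ht0)]
    calc ‖a' - t‖ < ‖(q : Ω)‖ ^ ℓ * ‖1 - ζ‖ ^ ℓ := hat
      _ = ‖1 - ζ‖ ^ ℓ * ‖(q : Ω)‖ ^ ℓ := mul_comm _ _
      _ ≤ ‖1 - ζ‖ ^ ℓ * ‖t‖ := mul_le_mul_of_nonneg_left htn hε₀.le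
  obtain ⟨x, hx, hx1⟩ := exists_root_near_one hℓ hζ hy1
  have hx0 : x ≠ 0 := by
    intro h
    rw [h, zero_pow hℓ.ne_zero] at hx
    have : a' = 0 := by
      have h2 : a' = y * t := by rw [hy]; field_simp
      rw [h2, ← hx, zero_mul]
    have h3 : ‖a'‖ = 0 := by rw [this, norm_zero]
    rw [h3] at hn1
    exact absurd hn1 (not_le.2 hc)
  refine ⟨t, htT, x * ((q : Ω) ^ n)⁻¹, mul_ne_zero hx0 (inv_ne_zero (zpow_ne_zero _ hq0)), ?_, ?_⟩
  · intro σ hσ
    have hσy : σ y = y := (IntermediateField.mem_fixingSubgroup_iff _ _).1 hσ y hyE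
    have hσx : σ x = x :=
      root_near_one_fixed hℓ hζ (σ : Ω →+* Ω) (fun z => norm_algEquiv q σ z) hx hσy hx1
    rw [map_mul, hσx, map_inv₀, map_zpow₀, map_natCast]
  · have h2 : a' = t * x ^ ℓ := by
      rw [hx, hy]
      field_simp
    have h3 : a = a' * (((q : Ω) ^ ℓ) ^ n)⁻¹ := by
      rw [ha', mul_assoc, mul_inv_cancel₀ (zpow_ne_zero _ (pow_ne_zero _ hq0)), mul_one]
    rw [h3, h2, mul_pow, inv_pow, ← zpow_natCast ((q : Ω) ^ n), ← zpow_mul, mul_comm n,
      zpow_mul, zpow_natCast]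
    ring

end cover

end Fermat.Agent.Lib.LocalKummer

end
-- ==== END Fermat.Agent.Lib.LocalKummer.Cover

-- ==== BEGIN Fermat.Agent.R.Flat.H54_SubMain
section

/-!
# Flat closure (cluster R, helper54): flatness passes to Galois-stable subgroups

Abstract form (`AbsFlat`, `AbsFlatSep`) over `(R, K, G)` with `R` a principal ideal domain.
-/

set_option autoImplicit false
set_option linter.unusedSectionVars false
set_option linter.style.haveILetI false

open scoped TensorProduct
open WithConv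

namespace Fermat.Agent.R.H54

section Main

variable (R K G : Type) [CommRing R] [Field K] [Algebra R K] [Group G] [MulSemiringAction G K]

/-- `M` with the action `act` of `G` is the group of `K`-points of a finite flat commutative
cocommutative Hopf algebra over `R`. -/
def AbsFlat (M : Type) [AddCommGroup M] (act : G → M → M) : Prop :=
  ∃ (H : Type) (_ : CommRing H) (_ : HopfAlgebra R H),
    Module.Finite R H ∧ Module.Flat R H ∧ Coalgebra.IsCocomm R H ∧
    ∃ e : Pts R H K ≃ M, (∀ f g : Pts R H K, e (f * g) = e f + e g) ∧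
      ∀ (σ : G) (f g : Pts R H K), (∀ h : H, g h = σ • f h) → e g = act σ (e f)

/-- The same with a Hopf algebra whose points separate its elements. -/
def AbsFlatSep (M : Type) [AddCommGroup M] (act : G → M → M) : Prop :=
  ∃ (H : Type) (_ : CommRing H) (_ : HopfAlgebra R H),
    Module.Finite R H ∧ Module.Flat R H ∧ Coalgebra.IsCocomm R H ∧
    (∀ h : H, (∀ f : Pts R H K, f h = 0) → h = 0) ∧
    ∃ e : Pts R H K ≃ M, (∀ f g : Pts R H K, e (f * g) = e f + e g) ∧
      ∀ (σ : G) (f g : Pts R H K), (∀ h : H, g h = σ • f h) → e g = act σ (e f)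

variable {R K G}

lemma AbsFlatSep.absFlat {M : Type} [AddCommGroup M] {act : G → M → M}
    (h : AbsFlatSep R K G M act) : AbsFlat R K G M act := by
  obtain ⟨H, i1, i2, h1, h2, h3, _, h4⟩ := h
  exact ⟨H, i1, i2, h1, h2, h3, h4⟩

end Main

section Quot

variable {R K : Type} [CommRing R] [Field K] [Algebra R K]
variable {H : Type} [CommRing H] [HopfAlgebra R H]

/-- Cocommutativity passes to the quotient by a Hopf ideal. -/
lemma isCocomm_quotient [Coalgebra.IsCocomm R H] (J : Ideal H) [J.IsHopfIdeal R] :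
    Coalgebra.IsCocomm R (H ⧸ J) := by
  refine ⟨?_⟩
  apply LinearMap.ext
  intro a
  obtain ⟨x, rfl⟩ := Ideal.Quotient.mk_surjective a
  simp only [LinearMap.coe_comp, LinearEquiv.coe_coe, Function.comp_apply,
    Bialgebra.Quotient.comul_mk]
  have key : ∀ t : H ⊗[R] H, (TensorProduct.comm R (H ⧸ J) (H ⧸ J))
      (TensorProduct.map (Ideal.Quotient.mkₐ R J).toLinearMap
        (Ideal.Quotient.mkₐ R J).toLinearMap t) =
      TensorProduct.map (Ideal.Quotient.mkₐ R J).toLinearMap
        (Ideal.Quotient.mkₐ R J).toLinearMap (TensorProduct.comm R H H t) := by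
    intro t
    induction t using TensorProduct.induction_on with
    | zero => simp
    | tmul a b => simp
    | add x y hx hy => simp only [map_add, hx, hy]
  rw [key]
  congr 1
  exact LinearMap.congr_fun (Coalgebra.comm_comp_comul R H) x

end Quot

section SubMain

variable {R K G : Type} [CommRing R] [IsDomain R] [IsPrincipalIdealRing R] [Field K] [Algebra R K]
  [Group G] [MulSemiringAction G K]

/-- The unit point is sent to `0` by a multiplicative-to-additive bijection. -/
lemma map_one_eq_zero {H : Type} [CommRing H] [HopfAlgebra R H] {M : Type} [AddCommGroup M]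
    (e : Pts R H K ≃ M) (he : ∀ f g : Pts R H K, e (f * g) = e f + e g) : e 1 = 0 := by
  have := he 1 1
  rw [mul_one] at this
  exact left_eq_add.mp this

/-- The quotient by the vanishing ideal of a `G`-stable subgroup `X'`: a finite flat
cocommutative Hopf algebra whose points are exactly `X'`, compatibly with products and
conjugation. -/
theorem exists_quotient_model (hD : DescentData R K G)
    {H : Type} [CommRing H] [HopfAlgebra R H] [Module.Finite R H] [Coalgebra.IsCocomm R H]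
    {X' : Set (Pts R H K)} (hX : IsGSubgroup hD X') :
    ∃ (H' : Type) (_ : CommRing H') (_ : HopfAlgebra R H'),
      Module.Finite R H' ∧ Module.Flat R H' ∧ Coalgebra.IsCocomm R H' ∧
      (∀ h : H', (∀ f : Pts R H' K, f h = 0) → h = 0) ∧
      ∃ r : Pts R H' K ≃ X', (∀ f g : Pts R H' K, ((r (f * g) : X') : Pts R H K) = r f * r g) ∧
        ∀ (σ : G) (f g : Pts R H' K), (∀ h : H', g h = σ • f h) →
          ((r g : X') : Pts R H K) = gconj hD σ (r f) := by
  classical
  haveI := vanIdeal_isHopfIdeal hD hX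
  obtain ⟨hcl, -⟩ := closurePts_eq hD hX
  set J := vanIdeal X' with hJ
  haveI hfree0 := quot_free hD X'
  haveI hfree : Module.Free R (H ⧸ J) :=
    Module.Free.of_equiv (Submodule.Quotient.restrictScalarsEquiv R J)
  -- restriction of points
  let restr : Pts R (H ⧸ J) K → Pts R H K :=
    fun g => toConv (g.ofConv.comp (Ideal.Quotient.mkₐ R J))
  have hrestr_mem : ∀ g, restr g ∈ X' := by
    intro g
    rw [← hcl]
    intro x hx
    show g (Ideal.Quotient.mk J x) = 0
    rw [Ideal.Quotient.eq_zero_iff_mem.mpr hx, map_zero]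
  have hrestr_inj : Function.Injective restr := by
    intro g₁ g₂ h
    apply WithConv.ext
    apply AlgHom.ext
    intro a
    obtain ⟨x, rfl⟩ := Ideal.Quotient.mk_surjective a
    have := congrArg (fun f : Pts R H K => f x) h
    exact this
  have hrestr_surj : ∀ f ∈ X', ∃ g, restr g = f := by
    intro f hf
    refine ⟨toConv (Ideal.Quotient.liftₐ J f.ofConv (fun x hx => mem_vanIdeal.mp hx f hf)), ?_⟩
    apply WithConv.ext
    apply AlgHom.ext
    intro x
    rfl
  let r : Pts R (H ⧸ J) K ≃ X' :=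
    Equiv.ofBijective (fun g => ⟨restr g, hrestr_mem g⟩)
      ⟨fun g₁ g₂ h => hrestr_inj (congrArg Subtype.val h),
       fun f => by
        obtain ⟨g, hg⟩ := hrestr_surj f.1 f.2
        exact ⟨g, Subtype.ext hg⟩⟩
  refine ⟨H ⧸ J, inferInstance, inferInstance, ?_, ?_, ?_, ?_, r, ?_, ?_⟩
  · exact Module.Finite.of_surjective (Ideal.Quotient.mkₐ R J).toLinearMap
      (Ideal.Quotient.mkₐ_surjective R J)
  · exact Module.Flat.of_free
  · exact isCocomm_quotient J
  · intro a ha
    obtain ⟨x, rfl⟩ := Ideal.Quotient.mk_surjective a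
    rw [Ideal.Quotient.eq_zero_iff_mem, hJ, mem_vanIdeal]
    intro f hf
    obtain ⟨g, rfl⟩ := hrestr_surj f hf
    exact ha g
  · intro f g
    show restr (f * g) = restr f * restr g
    apply WithConv.ext
    have := AlgHom.convMul_comp_bialgHom_distrib f g (Bialgebra.Quotient.mkBialgHom (R := R) J)
    exact this
  · intro σ f g hfg
    show restr g = gconj hD σ (restr f)
    apply WithConv.ext
    apply AlgHom.ext
    intro x
    exact hfg _

/-- **Flatness passes to `G`-stable subgroups** (abstract form, with a separated model). -/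
theorem absFlat_sub (hD : DescentData R K G) {M M' : Type} [AddCommGroup M] [AddCommGroup M']
    (act : G → M → M) (act' : G → M' → M') (ι : M' →+ M) (hι : Function.Injective ι)
    (heq : ∀ σ x, ι (act' σ x) = act σ (ι x)) (h : AbsFlat R K G M act) :
    AbsFlatSep R K G M' act' := by
  classical
  obtain ⟨H, _, _, hfin, -, hcoc, e, he_mul, he_gal⟩ := h
  have he1 : e 1 = 0 := map_one_eq_zero e he_mul
  set X' : Set (Pts R H K) := {f | e f ∈ Set.range ι} with hX'
  have hX : IsGSubgroup hD X' := by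
    refine ⟨?_, ?_, ?_, ?_⟩
    · exact ⟨0, by rw [map_zero, he1]⟩
    · rintro f ⟨m, hm⟩ g ⟨m', hm'⟩
      exact ⟨m + m', by rw [map_add, hm, hm', he_mul]⟩
    · rintro f ⟨m, hm⟩
      refine ⟨-m, ?_⟩
      have h1 := he_mul (pinv f) f
      rw [pinv_mul, he1] at h1
      rw [map_neg, hm]
      exact (eq_neg_of_add_eq_zero_left h1.symm).symm
    · rintro σ f ⟨m, hm⟩
      refine ⟨act' σ m, ?_⟩
      rw [heq, hm]
      exact (he_gal σ f (gconj hD σ f) (fun _ => rfl)).symm
  obtain ⟨H', i1, i2, h1, h2, h3, h4, r, hr_mul, hr_gal⟩ := exists_quotient_model hD hX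
  have hspec : ∀ f : Pts R H' K, ∃ m', ι m' = e (r f).1 := fun f => (r f).2
  choose e' he' using hspec
  have he'_inj : Function.Injective e' := by
    intro f g hfg
    have : e (r f).1 = e (r g).1 := by rw [← he', ← he', hfg]
    exact r.injective (Subtype.ext (e.injective this))
  have he'_surj : Function.Surjective e' := by
    intro m'
    have hx : e.symm (ι m') ∈ X' := ⟨m', by simp⟩
    refine ⟨r.symm ⟨_, hx⟩, ?_⟩
    apply hι
    rw [he']
    simp
  refine ⟨H', i1, i2, h1, h2, h3, h4, Equiv.ofBijective e' ⟨he'_inj, he'_surj⟩, ?_, ?_⟩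
  · intro f g
    apply hι
    show ι (e' (f * g)) = ι (e' f + e' g)
    rw [map_add, he', he', he', hr_mul, he_mul]
  · intro σ f g hfg
    apply hι
    show ι (e' g) = ι (act' σ (e' f))
    rw [he', heq, he', hr_gal σ f g hfg]
    exact he_gal σ _ _ (fun _ => rfl)

/-- Every flat model can be replaced by a separated one. -/
theorem AbsFlat.sep (hD : DescentData R K G) {M : Type} [AddCommGroup M] {act : G → M → M}
    (h : AbsFlat R K G M act) : AbsFlatSep R K G M act :=
  absFlat_sub hD act act (AddMonoidHom.id M) Function.injective_id (fun _ _ => rfl) h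

end SubMain

end Fermat.Agent.R.H54

end
-- ==== END Fermat.Agent.R.Flat.H54_SubMain

-- ==== BEGIN Fermat.Agent.R.H6_UnrFix
section

/-!
# Cluster R leaf UNR (helper6): the field fixed by an inertia group is unramified

`stmt_UnrFix : Fermat.Agent.R.Stmt_UnrFix` : every non-zero element of `ℚ̄` fixed by the inertia
group of a valuation subring `V` over `ℓ` has valuation an integral power of the valuation of `ℓ`.

Route: `L` = a finite normal extension of `ℚ` containing `x`, `P` = the prime of `𝓞 L` cut out by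
`V`, `E = L^I` the inertia field of `P`.  Then `e(P ∩ E | ℓ) = 1` (Hilbert theory, the inertia
analogue of Mathlib's `IsDecompositionField.ramificationIdx_eq`), so `ℓ` is a uniformizer at
`P ∩ E`, and `x ∈ E` by the inertia lifting statement.
-/

set_option autoImplicit false

open scoped Pointwise NumberField

namespace Fermat.Agent.R.H6

open MulAction Ideal

section inertiaField

variable (A K L : Type*) {B : Type*} [Field K] [Field L] [Algebra K L] [CommRing A] [CommRing B]
  [Algebra A B] {p : Ideal A} (P : Ideal B) [P.LiesOver p]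
  [Algebra A K] [IsFractionRing A K] [Algebra A L] [IsScalarTower A K L] [Algebra B L]
  [IsScalarTower A B L] [IsFractionRing B L] [MulSemiringAction Gal(L/K) B]
  [SMulDistribClass Gal(L/K) B L]
  (E 𝓞E : Type*) [Field E] [Algebra E L] [IsInertiaField K L P E] [CommRing 𝓞E]
  [Algebra 𝓞E E] [IsFractionRing 𝓞E E] [Algebra 𝓞E B] [Algebra 𝓞E L] [IsScalarTower 𝓞E E L]
  [IsScalarTower 𝓞E B L] (𝓟E : Ideal 𝓞E) [hE : P.LiesOver 𝓟E]
  [IsGalois K L] [IsDedekindDomain A] [IsDedekindDomain B] [Module.Finite A B]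
  [Module.IsTorsionFree A B] [Algebra A 𝓞E] [Module.Finite A 𝓞E] [IsScalarTower A 𝓞E B]
  [IsDedekindDomain 𝓞E] [𝓟E.LiesOver p]

omit [P.LiesOver p] hE in
include K L E P in
theorem inertiaField_instances (hp : p ≠ ⊥) :
    Module.Finite 𝓞E B ∧ Module.IsTorsionFree 𝓞E B ∧ Module.IsTorsionFree A 𝓞E ∧
      IsGaloisGroup Gal(L/K) A B ∧ IsGaloisGroup (inertia Gal(L/K) P) 𝓞E B ∧ 𝓟E ≠ ⊥ := by
  have inst₁ : Module.Finite 𝓞E B := Module.Finite.right A 𝓞E B
  have inst₂ : Module.IsTorsionFree 𝓞E B := by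
    rw [Module.isTorsionFree_iff_faithfulSMul]
    apply Algebra.IsAlgebraic.faithfulSMul_tower_top A
  have inst₃ : Module.IsTorsionFree A 𝓞E := Module.IsTorsionFree.of_faithfulSMul _ _ B
  have inst₄ : IsGaloisGroup Gal(L/K) A B := .of_isFractionRing _ _ _ K L
  have inst₅ : IsGaloisGroup (inertia Gal(L/K) P) 𝓞E B := .of_isFractionRing _ _ _ E L
  exact ⟨inst₁, inst₂, inst₃, inst₄, inst₅, Ideal.ne_bot_of_liesOver_of_ne_bot hp 𝓟E⟩

variable [FiniteDimensional K L] [Ring.HasFiniteQuotients A] [𝓟E.IsMaximal] [P.IsMaximal]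

include K L E P in
/-- The ramification index of `P` over the prime of the inertia field below it is the whole
ramification index. -/
theorem inertiaField_ramificationIdxIn_eq (hp : p ≠ ⊥) [PerfectField 𝓟E.ResidueField] :
    ramificationIdxIn 𝓟E B = p.ramificationIdxIn B := by
  obtain ⟨_, _, _, _, _, h𝓟⟩ := inertiaField_instances A K L P E 𝓞E 𝓟E hp
  have : p.IsMaximal := over_def P p ▸ Ideal.IsMaximal.under A P
  have : Finite (A ⧸ p) := Ring.HasFiniteQuotients.finiteQuotient hp
  rw [← card_inertia_eq_ramificationIdxIn (G := inertia Gal(L/K) P) 𝓟E P,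
    ← card_inertia_eq_ramificationIdxIn (G := Gal(L/K)) p P]
  have htop : inertia (inertia Gal(L/K) P) P = ⊤ := by
    rw [eq_top_iff]
    intro σ _ x
    exact σ.2 x
  rw [htop, Subgroup.card_top]

include K L E P in
/-- The prime of the inertia field below `P` is unramified over the base. -/
theorem inertiaField_ramificationIdx_eq (hp : p ≠ ⊥) [PerfectField 𝓟E.ResidueField] :
    𝓟E.ramificationIdx A = 1 := by
  obtain ⟨_, _, _, _, _, h𝓟⟩ := inertiaField_instances A K L P E 𝓞E 𝓟E hp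
  have := ramificationIdx_tower (R := A) 𝓟E P
  rwa [← ramificationIdxIn_eq_ramificationIdx 𝓟E P (inertia Gal(L/K) P),
    inertiaField_ramificationIdxIn_eq A K L P E 𝓞E 𝓟E hp,
    ramificationIdxIn_eq_ramificationIdx p P Gal(L/K),
    right_eq_mul₀ <| (ramificationIdx_pos P A).ne'] at this

end inertiaField

open IsDedekindDomain in
/-- Abstract form: `R` Dedekind with fraction field `F`, `v` a height one prime, `π ∈ v \ v²`,
`w` a valuation on a field `M ⊇ F` for which the elements of `R` outside `v` are units.  Then the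
`w`-valuation of every nonzero element of `F` is an integral power of that of `π`. -/
theorem exists_zpow_of_uniformizer {R F M Γ : Type*} [CommRing R] [IsDedekindDomain R] [Field F]
    [Algebra R F] [IsFractionRing R F] [Field M] [LinearOrderedCommGroupWithZero Γ]
    (φ : F →+* M) (w : Valuation M Γ) (v : HeightOneSpectrum R)
    (hunit : ∀ b : R, b ∉ v.asIdeal → w (φ (algebraMap R F b)) = 1)
    (π : R) (hπ0 : π ≠ 0) (hπ : π ∈ v.asIdeal) (hπ2 : π ∉ v.asIdeal ^ 2)
    (y : F) (hy : y ≠ 0) : ∃ k : ℤ, w (φ y) = w (φ (algebraMap R F π)) ^ k := by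
  have hπv : v.valuation F (algebraMap R F π) = WithZero.exp (-1 : ℤ) := by
    have h0 : v.intValuation π ≠ 0 := HeightOneSpectrum.intValuation_ne_zero _ _ hπ0
    have h1 : v.intValuation π ≤ WithZero.exp (-((1 : ℕ) : ℤ)) := by
      rw [HeightOneSpectrum.intValuation_le_pow_iff_mem, pow_one]; exact hπ
    have h2 : ¬ v.intValuation π ≤ WithZero.exp (-((2 : ℕ) : ℤ)) := by
      rw [HeightOneSpectrum.intValuation_le_pow_iff_mem]; exact hπ2
    rw [HeightOneSpectrum.valuation_of_algebraMap]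
    rw [← WithZero.exp_log h0] at h1 h2 ⊢
    rw [WithZero.exp_le_exp] at h1 h2
    congr 1
    push_cast at h1 h2
    omega
  have hu : ∀ b : R, v.valuation F (algebraMap R F b) = 1 → w (φ (algebraMap R F b)) = 1 := by
    intro b hb
    rw [HeightOneSpectrum.valuation_eq_one_iff_notMem] at hb
    exact hunit b hb
  have hval1 : ∀ z : F, v.valuation F z = 1 → w (φ z) = 1 := by
    intro z hz
    obtain ⟨n, d, h | h⟩ := HeightOneSpectrum.exists_primeCompl_mul_eq_or_mul_eq (K := F) v z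
    · have hd : v.valuation F (algebraMap R F d) = 1 :=
        (HeightOneSpectrum.valuation_eq_one_iff_notMem (v := v)).mpr d.2
      have hn : v.valuation F (algebraMap R F n) = 1 := by
        rw [← h, map_mul, hz, hd, one_mul]
      have h4 := congrArg (fun t => w (φ t)) h
      simp only [map_mul] at h4
      rw [hu d hd, hu n hn, mul_one] at h4
      exact h4
    · have hd : v.valuation F (algebraMap R F d) = 1 :=
        (HeightOneSpectrum.valuation_eq_one_iff_notMem (v := v)).mpr d.2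
      have hn : v.valuation F (algebraMap R F n) = 1 := by
        have := congrArg (v.valuation F) h
        rw [map_mul, hz, hd, one_mul] at this
        exact this
      have h4 := congrArg (fun t => w (φ t)) h
      simp only [map_mul] at h4
      rw [hu d hd, hu n hn, mul_one] at h4
      exact h4
  have hvy : v.valuation F y ≠ 0 := (Valuation.ne_zero_iff _).mpr hy
  set k : ℤ := WithZero.log (v.valuation F y) with hk
  have hπF : algebraMap R F π ≠ 0 := by
    intro h
    exact hπ0 ((FaithfulSMul.algebraMap_eq_zero_iff R F).mp h)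
  have h1 : v.valuation F (y * (algebraMap R F π) ^ k) = 1 := by
    rw [map_mul, map_zpow₀, hπv, ← WithZero.exp_log hvy, ← hk, ← WithZero.exp_zsmul,
      ← WithZero.exp_add]
    simp
  have h2 := hval1 _ h1
  rw [map_mul, map_zpow₀, map_mul, map_zpow₀] at h2
  refine ⟨-k, ?_⟩
  rw [zpow_neg]
  exact eq_inv_of_mul_eq_one_left h2

open Fermat.Agent.Lib.Minkowski Fermat.Agent.Lib.UnramVal IsDedekindDomain

attribute [local instance] qbar_isAlgebraic qbar_isAlgClosure qbar_isGalois qbar_normal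

section concrete

variable (L : IntermediateField ℚ (AlgebraicClosure ℚ))
  (V : ValuationSubring (AlgebraicClosure ℚ))

/-- Every element of the inertia group of the prime cut out by `V` in `Gal(L/ℚ)` is the
restriction of an element of the inertia group of `V`. -/
theorem exists_inertia_lift [Normal ℚ L] (ℓ : ℕ) (hℓ : ℓ.Prime) (hV : V.LiesOverPrime ℓ)
    (τ : L ≃ₐ[ℚ] L) (hτ : τ ∈ (primeBelow L V).inertia (L ≃ₐ[ℚ] L)) :
    ∃ σ ∈ V.inertiaSubgroupIn ℚ, ∀ x : L, σ (x : AlgebraicClosure ℚ) = ((τ x : L) :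
      AlgebraicClosure ℚ) := by
  obtain ⟨σ₀, hσ₀⟩ := AlgEquiv.restrictNormalHom_surjective (F := ℚ) (K₁ := L)
    (AlgebraicClosure ℚ) τ
  have hcomm : ∀ x : L, ((τ x : L) : AlgebraicClosure ℚ) = σ₀ (x : AlgebraicClosure ℚ) := by
    intro x
    rw [← hσ₀]
    exact AlgEquiv.restrictNormal_commutes σ₀ L x
  have key : ∀ x : AlgebraicClosure ℚ, x ∈ L → IsIntegral ℤ x → σ₀ x - x ∈ V.nonunits := by
    intro x hxL hxint
    have hxint' : IsIntegral ℤ (⟨x, hxL⟩ : L) := by
      rw [← isIntegral_algebraMap_iff (FaithfulSMul.algebraMap_injective L (AlgebraicClosure ℚ))]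
      exact hxint
    let b : 𝓞 L := ⟨⟨x, hxL⟩, hxint'⟩
    have h1 : τ • b - b ∈ primeBelow L V := hτ b
    rw [mem_primeBelow, map_sub] at h1
    have h2 : algebraMap (𝓞 L) (AlgebraicClosure ℚ) (τ • b) = σ₀ x := by
      have h3 : algebraMap (𝓞 L) (AlgebraicClosure ℚ) (τ • b)
          = ((τ (⟨x, hxL⟩ : L) : L) : AlgebraicClosure ℚ) := rfl
      rw [h3, hcomm]
    have h4 : algebraMap (𝓞 L) (AlgebraicClosure ℚ) b = x := rfl
    rw [h2, h4] at h1
    exact V.mem_nonunits_iff.mpr h1
  obtain ⟨σ, hσ, hσeq⟩ := liftStmt ℓ hℓ V hV L σ₀ key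
  exact ⟨σ, hσ, fun x => by rw [hcomm, hσeq x x.2]⟩

theorem numberField_of_finite [FiniteDimensional ℚ L] : NumberField L := ⟨⟩

theorem isGalois_of_normal [Normal ℚ L] : IsGalois ℚ L := ⟨⟩

attribute [local instance] numberField_of_finite isGalois_of_normal

variable [FiniteDimensional ℚ L] [Normal ℚ L]

/-- The inertia field of the prime of `L` cut out by `V`. -/
noncomputable abbrev inF : IntermediateField ℚ L :=
  FixedPoints.intermediateField (inertia Gal(L/ℚ) (primeBelow L V))

/-- The prime of the inertia field cut out by `V`. -/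
noncomputable abbrev inP : Ideal (𝓞 (inF L V)) := (primeBelow L V).under (𝓞 (inF L V))

variable (ℓ : ℕ) (hℓ : ℓ.Prime) (hV : V.LiesOverPrime ℓ)

omit [FiniteDimensional ℚ L] [Normal ℚ L] in
include hℓ hV in
theorem primeBelow_liesOver : (primeBelow L V).LiesOver (Ideal.span {(ℓ : ℤ)}) := by
  have := primeBelow_isPrime L V
  have hmem : (ℓ : 𝓞 L) ∈ primeBelow L V := natCast_mem_primeBelow L V ℓ hV
  constructor
  have hmax : (Ideal.span {(ℓ : ℤ)}).IsMaximal :=
    PrincipalIdealRing.isMaximal_of_irreducible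
      (Nat.prime_iff_prime_int.mp hℓ).irreducible
  refine hmax.eq_of_le ?_ ?_
  · exact (Ideal.IsPrime.under ℤ (primeBelow L V)).ne_top
  · rw [Ideal.span_le]
    rintro _ rfl
    show algebraMap ℤ (𝓞 L) (ℓ : ℤ) ∈ primeBelow L V
    simpa using hmem

omit [FiniteDimensional ℚ L] [Normal ℚ L] in
include hℓ hV in
theorem primeBelow_ne_bot : primeBelow L V ≠ ⊥ := by
  intro h
  have hmem : (ℓ : 𝓞 L) ∈ primeBelow L V := natCast_mem_primeBelow L V ℓ hV
  rw [h, Ideal.mem_bot] at hmem
  exact hℓ.ne_zero (by exact_mod_cast hmem)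

omit [Normal ℚ L] in
include hℓ hV in
theorem primeBelow_isMaximal : (primeBelow L V).IsMaximal := by
  have := primeBelow_isPrime L V
  exact Ring.DimensionLEOne.maximalOfPrime (primeBelow_ne_bot L V ℓ hℓ hV) inferInstance

omit [FiniteDimensional ℚ L] [Normal ℚ L] in
include hV in
theorem natCast_mem_inP : (ℓ : 𝓞 (inF L V)) ∈ inP L V := by
  show algebraMap (𝓞 (inF L V)) (𝓞 L) (ℓ : 𝓞 (inF L V)) ∈ primeBelow L V
  rw [map_natCast]
  exact natCast_mem_primeBelow L V ℓ hV

include hℓ hV in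
theorem inP_unramified : (ℓ : 𝓞 (inF L V)) ∉ (inP L V) ^ 2 := by
  have hPprime := primeBelow_isPrime L V
  have hPmax := primeBelow_isMaximal L V ℓ hℓ hV
  have hPover := primeBelow_liesOver L V ℓ hℓ hV
  have hspan : (Ideal.span {(ℓ : ℤ)}) ≠ ⊥ := by simp [hℓ.ne_zero]
  have h𝓟over : (inP L V).LiesOver (Ideal.span {(ℓ : ℤ)}) := by
    constructor
    rw [hPover.over, inP, Ideal.under_under]
  have h𝓟max : (inP L V).IsMaximal := Ideal.IsMaximal.under (𝓞 (inF L V)) (primeBelow L V)
  have h𝓟0 : inP L V ≠ ⊥ := Ideal.ne_bot_of_liesOver_of_ne_bot hspan (inP L V)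
  have hfinq : Finite (𝓞 (inF L V) ⧸ inP L V) := Ring.HasFiniteQuotients.finiteQuotient h𝓟0
  have he : (inP L V).ramificationIdx ℤ = 1 :=
    inertiaField_ramificationIdx_eq ℤ ℚ L (primeBelow L V) (inF L V) (𝓞 (inF L V)) (inP L V)
      (p := Ideal.span {(ℓ : ℤ)}) hspan
  have hmem : (ℓ : 𝓞 (inF L V)) ∈ inP L V := natCast_mem_inP L V ℓ hV
  have he' : (Ideal.span {(ℓ : ℤ)}).ramificationIdx' (inP L V) = 1 := by
    rw [Ideal.ramificationIdx'_eq_ramificationIdx _ _ hspan, he]
  intro h2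
  have hle : (Ideal.span {(ℓ : ℤ)}).map (algebraMap ℤ (𝓞 (inF L V))) ≤ inP L V := by
    rw [Ideal.map_span, Ideal.span_le]
    rintro _ ⟨_, rfl, rfl⟩
    simpa using hmem
  have := (Ideal.ramificationIdx'_ne_one_iff hle).mpr (by
    rw [Ideal.map_span, Ideal.span_le]
    rintro _ ⟨_, rfl, rfl⟩
    simpa using h2)
  exact this he'

include hℓ hV in
/-- The statement for the elements of a finite normal extension `L` of `ℚ`. -/
theorem valuation_eq_zpow_of_mem (x : AlgebraicClosure ℚ) (hxL : x ∈ L) (hx0 : x ≠ 0)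
    (hfix : ∀ σ ∈ V.inertiaSubgroupIn ℚ, σ x = x) :
    ∃ k : ℤ, V.valuation x = V.valuation (ℓ : AlgebraicClosure ℚ) ^ k := by
  have hPprime := primeBelow_isPrime L V
  have hPover := primeBelow_liesOver L V ℓ hℓ hV
  have hspan : (Ideal.span {(ℓ : ℤ)}) ≠ ⊥ := by simp [hℓ.ne_zero]
  have h𝓟over : (inP L V).LiesOver (Ideal.span {(ℓ : ℤ)}) := by
    constructor
    rw [hPover.over, inP, Ideal.under_under]
  have h𝓟0 : inP L V ≠ ⊥ := Ideal.ne_bot_of_liesOver_of_ne_bot hspan (inP L V)
  have hxE : (⟨x, hxL⟩ : L) ∈ inF L V := by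
    intro τ
    obtain ⟨σ, hσ, hσeq⟩ := exists_inertia_lift L V ℓ hℓ hV τ.1 τ.2
    apply Subtype.ext
    have h1 := hσeq ⟨x, hxL⟩
    rw [hfix σ hσ] at h1
    exact h1.symm
  let v : HeightOneSpectrum (𝓞 (inF L V)) := ⟨inP L V, inferInstance, h𝓟0⟩
  let φ : inF L V →+* AlgebraicClosure ℚ :=
    (algebraMap L (AlgebraicClosure ℚ)).comp (algebraMap (inF L V) L)
  have hunit : ∀ b : 𝓞 (inF L V), b ∉ v.asIdeal →
      V.valuation (φ (algebraMap (𝓞 (inF L V)) (inF L V) b)) = 1 := by
    intro b hb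
    have hb' : algebraMap (𝓞 (inF L V)) (𝓞 L) b ∉ primeBelow L V := fun h => hb h
    exact val_eq_one_of_notMem L V _ hb'
  have hℓ0 : (ℓ : 𝓞 (inF L V)) ≠ 0 := by exact_mod_cast hℓ.ne_zero
  have hxE0 : (⟨⟨x, hxL⟩, hxE⟩ : inF L V) ≠ 0 := by
    intro h
    exact hx0 (congrArg (fun t : inF L V => ((t : L) : AlgebraicClosure ℚ)) h)
  obtain ⟨k, hk⟩ := exists_zpow_of_uniformizer φ V.valuation v hunit (ℓ : 𝓞 (inF L V)) hℓ0
    (natCast_mem_inP L V ℓ hV) (inP_unramified L V ℓ hℓ hV) ⟨⟨x, hxL⟩, hxE⟩ hxE0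
  refine ⟨k, ?_⟩
  have h1 : φ (⟨⟨x, hxL⟩, hxE⟩ : inF L V) = x := rfl
  have h2 : φ (algebraMap (𝓞 (inF L V)) (inF L V) (ℓ : 𝓞 (inF L V)))
      = (ℓ : AlgebraicClosure ℚ) := by
    rw [map_natCast, map_natCast]
  rw [h1, h2] at hk
  exact hk

end concrete

/-- **UNR** (`Stmt_UnrFix`): every non-zero element of `ℚ̄` fixed by the inertia group of a
valuation subring over `ℓ` has valuation an integral power of the valuation of `ℓ`. -/
theorem stmt_UnrFix : Fermat.Agent.R.Stmt_UnrFix := by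
  intro ℓ hℓ V hV x hx0 hfix
  let L : IntermediateField ℚ (AlgebraicClosure ℚ) :=
    IntermediateField.adjoin ℚ ((minpoly ℚ x).rootSet (AlgebraicClosure ℚ))
  have hsplit : ((minpoly ℚ x).map (algebraMap ℚ (AlgebraicClosure ℚ))).Splits :=
    IsAlgClosed.splits _
  have hsf : (minpoly ℚ x).IsSplittingField ℚ L :=
    IntermediateField.adjoin_rootSet_isSplittingField hsplit
  have hfin : FiniteDimensional ℚ L := Polynomial.IsSplittingField.finiteDimensional L (minpoly ℚ x)
  have hnorm : Normal ℚ L := Normal.of_isSplittingField (minpoly ℚ x)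
  have hxL : x ∈ L := by
    apply IntermediateField.subset_adjoin
    rw [Polynomial.mem_rootSet]
    exact ⟨minpoly.ne_zero (Algebra.IsIntegral.isIntegral x), minpoly.aeval ℚ x⟩
  exact valuation_eq_zpow_of_mem L V ℓ hℓ hV x hxL hx0 hfix

end Fermat.Agent.R.H6

end
-- ==== END Fermat.Agent.R.H6_UnrFix

-- ==== BEGIN Fermat.Agent.S53.Pairs
section

set_option autoImplicit false
set_option linter.unusedSectionVars false
set_option linter.style.haveILetI false

/-!
# S53: normalized pairs, the tangent bound, pairs of maximal cardinality.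
-/

namespace Fermat.Agent.S53

open IsLocalRing

/-- A normalized pair: a finite local `𝒪`-algebra `A` with residue field `k`, generated by the
entries of a normalized lift `r` of type `𝒟`. -/
structure NPair (𝒪 : Type) [CommRing 𝒪] [IsLocalRing 𝒪]
    (𝒟 : ∀ ⦃A : Type⦄ [CommRing A] [IsLocalRing A] [Algebra 𝒪 A], GaloisRepAdic A → Prop)
    {ρbar : ResidualGaloisRep (ResidueField 𝒪)} (N : NormData 𝒪 ρbar) : Type 1 where
  A : Type
  [instCommRing : CommRing A]
  [instIsLocalRing : IsLocalRing A]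
  [instAlgebra : Algebra 𝒪 A]
  [instIsLocalHom : IsLocalHom (algebraMap 𝒪 A)]
  [instFinite : Finite A]
  res_surj : Function.Surjective (residue A ∘ algebraMap 𝒪 A)
  r : GQ →* M2 A
  norm : IsNorm N r
  type : DMat 𝒪 𝒟 r
  gen : Algebra.adjoin 𝒪 (entries r) = ⊤

attribute [instance] NPair.instCommRing NPair.instIsLocalRing NPair.instAlgebra
  NPair.instIsLocalHom NPair.instFinite

section

variable {𝒪 : Type} [CommRing 𝒪] [IsLocalRing 𝒪]
variable {𝒟 : ∀ ⦃A : Type⦄ [CommRing A] [IsLocalRing A] [Algebra 𝒪 A], GaloisRepAdic A → Prop}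
variable {ρbar : ResidualGaloisRep (ResidueField 𝒪)} {N : NormData 𝒪 ρbar}

/-- The level of a pair. -/
def NPair.Level (p : NPair 𝒪 𝒟 N) (j : ℕ) : Prop := maximalIdeal p.A ^ (j + 1) = ⊥

theorem NPair.test (p : NPair 𝒪 𝒟 N) : GaloisRep.IsArtinianTestAlgebra 𝒪 p.A :=
  isArtinianTestAlgebra_of_finite p.res_surj

/-- Homomorphisms out of a pair are determined by the image of the lift. -/
theorem NPair.hom_ext (p : NPair 𝒪 𝒟 N) {B : Type} [CommRing B] [Algebra 𝒪 B]
    {φ ψ : p.A →ₐ[𝒪] B} (h : ∀ σ, (p.r σ).map φ = (p.r σ).map ψ) : φ = ψ := by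
  apply AlgHom.ext_of_adjoin_eq_top p.gen
  rintro x ⟨σ, i, j, rfl⟩
  exact congrArg (fun M : M2 B => M i j) (h σ)

/-- A homomorphism from any algebra hitting the lift of a pair is surjective. -/
theorem NPair.surjective_of_map (p : NPair 𝒪 𝒟 N) {B : Type} [CommRing B] [Algebra 𝒪 B]
    (f : B →ₐ[𝒪] p.A) (t : GQ → M2 B) (h : ∀ σ, (t σ).map f = p.r σ) :
    Function.Surjective f := by
  have : f.range = ⊤ := by
    rw [eq_top_iff, ← p.gen]
    apply Algebra.adjoin_le
    rintro x ⟨σ, i, j, rfl⟩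
    exact ⟨t σ i j, congrArg (fun M : M2 p.A => M i j) (h σ)⟩
  intro x
  have hx : x ∈ f.range := this ▸ Algebra.mem_top
  exact hx

end

section Base

variable {𝒪 : Type} [CommRing 𝒪] [IsLocalRing 𝒪] [Finite (ResidueField 𝒪)]
variable {𝒟 : ∀ ⦃A : Type⦄ [CommRing A] [IsLocalRing A] [Algebra 𝒪 A], GaloisRepAdic A → Prop}
variable {ρbar : ResidualGaloisRep (ResidueField 𝒪)} (N : NormData 𝒪 ρbar)

/-- The base pair `(k, rbar)`. -/
noncomputable def basePair (hbar : 𝒟 (GaloisRepAdic.ofResidualGaloisRep ρbar)) :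
    NPair 𝒪 𝒟 N :=
  haveI := isLocalHom_algebraMap_residueField 𝒪
  { A := ResidueField 𝒪
    res_surj := res_surj_residueField 𝒪
    r := N.rbar
    norm := by
      refine ⟨fun σ => ?_, N.col, ?_⟩
      · ext i j
        simp only [Matrix.map_apply]
        exact (residueField_map_algebraMap_residueField 𝒪 _).symm
      · exact N.c0_spec.symm
    type := ⟨GaloisRepAdic.ofResidualGaloisRep ρbar, N.isMatOfRes, hbar⟩
    gen := by
      rw [eq_top_iff]
      intro x _
      obtain ⟨c, rfl⟩ := residue_surjective x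
      exact Subalgebra.algebraMap_mem _ c }

theorem basePair_level (hbar : 𝒟 (GaloisRepAdic.ofResidualGaloisRep ρbar)) (j : ℕ) :
    (basePair N hbar).Level j := by
  show maximalIdeal (ResidueField 𝒪) ^ (j + 1) = ⊥
  rw [maximalIdeal_residueField]
  exact Ideal.bot_pow (Nat.succ_ne_zero j) |>.trans rfl

end Base

end Fermat.Agent.S53

end
-- ==== END Fermat.Agent.S53.Pairs

-- ==== BEGIN Fermat.Agent.S55.CFT.Defs_BR
section

set_option autoImplicit false

open NumberField TensorProduct CategoryTheory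

noncomputable section

namespace Fermat.Agent.S55.CFT

variable (K L : Type) [Field K] [Field L] [NumberField K] [NumberField L] [Algebra K L]

/-- A finite place of `K`: a rational prime `q` and a maximal ideal of `ℚ_q ⊗ K`. -/
abbrev Place : Type := (q : Nat.Primes) × MaximalSpectrum (SemiLocal K q)

/-- The ideal of `ℚ_q ⊗ L` generated by the maximal ideal `𝔪_v` of `ℚ_q ⊗ K`. -/
def placeIdeal (v : Place K) : Ideal (SemiLocal L v.1) :=
  v.2.asIdeal.map (semiLocalMap K L v.1)

/-- `(ℚ_q ⊗ L)/𝔪_v (ℚ_q ⊗ L) = K_v ⊗_K L = ∏_{w ∣ v} L_w`. -/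
abbrev LocAlg (v : Place K) : Type := SemiLocal L v.1 ⧸ placeIdeal K L v

lemma semiLocalEquiv_semiLocalMap (q : Nat.Primes) (σ : L ≃ₐ[K] L) (x : SemiLocal K q) :
    semiLocalEquiv K L q σ (semiLocalMap K L q x) = semiLocalMap K L q x := by
  induction x using TensorProduct.induction_on with
  | zero => simp
  | tmul a b => simp [semiLocalMap]
  | add a b ha hb => simp [map_add, ha, hb]

lemma placeIdeal_le_comap (v : Place K) (σ : L ≃ₐ[K] L) :
    placeIdeal K L v ≤ (placeIdeal K L v).comap (semiLocalEquiv K L v.1 σ : SemiLocal L v.1 →+*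
      SemiLocal L v.1) := by
  rw [placeIdeal, Ideal.map_le_iff_le_comap]
  intro x hx
  rw [Ideal.mem_comap, Ideal.mem_comap]
  change semiLocalEquiv K L v.1 σ (semiLocalMap K L v.1 x) ∈ _
  rw [semiLocalEquiv_semiLocalMap]
  exact Ideal.mem_map_of_mem _ hx

/-- The automorphism of `LocAlg K L v` induced by `σ ∈ Gal(L/K)`. -/
def locAlgMap (v : Place K) (σ : L ≃ₐ[K] L) : LocAlg K L v →+* LocAlg K L v :=
  Ideal.quotientMap (placeIdeal K L v)
    (semiLocalEquiv K L v.1 σ : SemiLocal L v.1 →+* SemiLocal L v.1) (placeIdeal_le_comap K L v σ)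

lemma locAlgMap_mk (v : Place K) (σ : L ≃ₐ[K] L) (x : SemiLocal L v.1) :
    locAlgMap K L v σ (Ideal.Quotient.mk _ x) = Ideal.Quotient.mk _ (semiLocalEquiv K L v.1 σ x) :=
  rfl

instance locAlgAction (v : Place K) : MulSemiringAction (L ≃ₐ[K] L) (LocAlg K L v) where
  smul σ x := locAlgMap K L v σ x
  one_smul x := by
    obtain ⟨y, rfl⟩ := Ideal.Quotient.mk_surjective x
    change locAlgMap K L v 1 _ = _
    rw [locAlgMap_mk, semiLocalEquiv_one]
  mul_smul σ τ x := by
    obtain ⟨y, rfl⟩ := Ideal.Quotient.mk_surjective x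
    change locAlgMap K L v (σ * τ) _ = locAlgMap K L v σ (locAlgMap K L v τ _)
    rw [locAlgMap_mk, locAlgMap_mk, locAlgMap_mk, semiLocalEquiv_mul]
  smul_zero σ := map_zero (locAlgMap K L v σ)
  smul_add σ x y := map_add (locAlgMap K L v σ) x y
  smul_one σ := map_one (locAlgMap K L v σ)
  smul_mul σ x y := map_mul (locAlgMap K L v σ) x y

instance locAlgUnitsAction (v : Place K) :
    MulDistribMulAction (L ≃ₐ[K] L) (LocAlg K L v)ˣ where
  smul σ u := Units.map (locAlgMap K L v σ : LocAlg K L v →* LocAlg K L v) u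
  one_smul u := Units.ext (one_smul (L ≃ₐ[K] L) (u : LocAlg K L v))
  mul_smul σ τ u := Units.ext (mul_smul σ τ (u : LocAlg K L v))
  smul_mul σ u w := map_mul _ u w
  smul_one σ := map_one _

/-- The local component `∏_{w ∣ v} L_wˣ` at the place `v` of `K`, as a `Gal(L/K)`-module. -/
abbrev repJv (v : Place K) : Rep ℤ (L ≃ₐ[K] L) :=
  Rep.ofMulDistribMulAction (L ≃ₐ[K] L) (LocAlg K L v)ˣ

/-- `Lˣ` as a `Gal(L/K)`-module. -/
abbrev repL : Rep ℤ (L ≃ₐ[K] L) :=
  Rep.ofMulDistribMulAction (L ≃ₐ[K] L) Lˣ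

/-- `Lˣ → (K_v ⊗_K L)ˣ`. -/
def locHom (v : Place K) : Lˣ →* (LocAlg K L v)ˣ :=
  Units.map (((Ideal.Quotient.mk (placeIdeal K L v)).comp
    ((Algebra.TensorProduct.includeRight : L →ₐ[ℚ] SemiLocal L v.1) : L →+* SemiLocal L v.1) :
      L →+* LocAlg K L v) : L →* LocAlg K L v)

lemma locHom_smul (v : Place K) (σ : L ≃ₐ[K] L) (x : Lˣ) :
    locHom K L v (σ • x) = σ • locHom K L v x := by
  apply Units.ext
  change Ideal.Quotient.mk _ ((1 : Qp v.1) ⊗ₜ[ℚ] (σ x : L)) =
    locAlgMap K L v σ (Ideal.Quotient.mk _ ((1 : Qp v.1) ⊗ₜ[ℚ] (x : L)))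
  rw [locAlgMap_mk, semiLocalEquiv_tmul]

/-- The localisation `Lˣ → (K_v ⊗_K L)ˣ` as a morphism of `Gal(L/K)`-modules. -/
def locRep (v : Place K) : repL K L ⟶ repJv K L v :=
  Rep.ofHom (LinearMap.intertwiningMap_of_isIntertwiningMap _ _
    ((locHom K L v).toAdditive.toIntLinearMap)
    (fun σ x => congrArg Additive.ofMul (locHom_smul K L v σ (Additive.toMul x : Lˣ))))

/-- The local component map `Hⁿ(G, Lˣ) → Hⁿ(G, (K_v ⊗_K L)ˣ)`. -/
def locMap (v : Place K) (n : ℕ) :
    groupCohomology (repL K L) n →ₗ[ℤ] groupCohomology (repJv K L v) n :=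
  ((groupCohomology.functor ℤ (L ≃ₐ[K] L) n).map (locRep K L v)).hom


/-! ### Inflation in a tower `K ⊆ L ⊆ N` -/

section tower

variable (N : Type) [Field N] [NumberField N] [Algebra K N] [Algebra L N] [IsScalarTower K L N]

lemma semiLocalMap_comp (q : Nat.Primes) (x : SemiLocal K q) :
    semiLocalMap L N q (semiLocalMap K L q x) = semiLocalMap K N q x := by
  induction x using TensorProduct.induction_on with
  | zero => simp
  | tmul a b => simp [semiLocalMap, ← IsScalarTower.algebraMap_apply]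
  | add a b ha hb => simp [map_add, ha, hb]

lemma placeIdeal_le_comap_tower (v : Place K) :
    placeIdeal K L v ≤ (placeIdeal K N v).comap (semiLocalMap L N v.1 : SemiLocal L v.1 →+*
      SemiLocal N v.1) := by
  rw [placeIdeal, Ideal.map_le_iff_le_comap]
  intro x hx
  rw [Ideal.mem_comap, Ideal.mem_comap]
  change semiLocalMap L N v.1 (semiLocalMap K L v.1 x) ∈ _
  rw [semiLocalMap_comp]
  exact Ideal.mem_map_of_mem _ hx

/-- `K_v ⊗_K L → K_v ⊗_K N`. -/
def locAlgTower (v : Place K) : LocAlg K L v →+* LocAlg K N v :=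
  Ideal.quotientMap (placeIdeal K N v)
    (semiLocalMap L N v.1 : SemiLocal L v.1 →+* SemiLocal N v.1) (placeIdeal_le_comap_tower K L N v)

variable [Normal K L]

omit [NumberField K] [NumberField L] [NumberField N] in
lemma algebraMap_units_smul (τ : N ≃ₐ[K] N) (x : Lˣ) :
    Units.map (algebraMap L N : L →* N) ((AlgEquiv.restrictNormalHom L τ) • x) =
      τ • Units.map (algebraMap L N : L →* N) x := by
  apply Units.ext
  exact AlgEquiv.restrictNormal_commutes τ L (x : L)

/-- Inflation `Lˣ → Nˣ` as a morphism of `Gal(N/K)`-modules. -/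
def infRepL : Rep.res (AlgEquiv.restrictNormalHom (F := K) (K₁ := N) L) (repL K L) ⟶ repL K N :=
  Rep.ofHom (LinearMap.intertwiningMap_of_isIntertwiningMap _ _
    ((Units.map (algebraMap L N : L →* N)).toAdditive.toIntLinearMap)
    (fun τ x => congrArg Additive.ofMul
      (algebraMap_units_smul K L N τ (Additive.toMul x : Lˣ))))

/-- Inflation `Hⁿ(Gal(L/K), Lˣ) → Hⁿ(Gal(N/K), Nˣ)`. -/
def infL (n : ℕ) : groupCohomology (repL K L) n →ₗ[ℤ] groupCohomology (repL K N) n :=
  (groupCohomology.map (AlgEquiv.restrictNormalHom (F := K) (K₁ := N) L) (infRepL K L N) n).hom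

lemma locAlgTower_smul (v : Place K) (τ : N ≃ₐ[K] N) (x : LocAlg K L v) :
    locAlgTower K L N v ((AlgEquiv.restrictNormalHom L τ) • x) = τ • locAlgTower K L N v x := by
  obtain ⟨y, rfl⟩ := Ideal.Quotient.mk_surjective x
  change Ideal.Quotient.mk _ (semiLocalMap L N v.1 (semiLocalEquiv K L v.1 _ y)) =
    Ideal.Quotient.mk _ (semiLocalEquiv K N v.1 τ (semiLocalMap L N v.1 y))
  congr 1
  induction y using TensorProduct.induction_on with
  | zero => simp
  | tmul a b =>
    simp only [semiLocalEquiv_tmul, semiLocalMap, Algebra.TensorProduct.map_tmul, AlgHom.coe_id,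
      id_eq, RingHom.toRatAlgHom_apply]
    congr 1
    exact AlgEquiv.restrictNormal_commutes τ L b
  | add a b ha hb => simp only [map_add, ha, hb]

/-- Inflation of the local components as a morphism of `Gal(N/K)`-modules. -/
def infRepJv (v : Place K) :
    Rep.res (AlgEquiv.restrictNormalHom (F := K) (K₁ := N) L) (repJv K L v) ⟶ repJv K N v :=
  Rep.ofHom (LinearMap.intertwiningMap_of_isIntertwiningMap _ _
    ((Units.map (locAlgTower K L N v : LocAlg K L v →* LocAlg K N v)).toAdditive.toIntLinearMap)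
    (fun τ x => congrArg Additive.ofMul (Units.ext
      (locAlgTower_smul K L N v τ ((Additive.toMul x : (LocAlg K L v)ˣ) : LocAlg K L v)))))

/-- Inflation `Hⁿ(Gal(L/K), (K_v ⊗ L)ˣ) → Hⁿ(Gal(N/K), (K_v ⊗ N)ˣ)`. -/
def infJv (v : Place K) (n : ℕ) :
    groupCohomology (repJv K L v) n →ₗ[ℤ] groupCohomology (repJv K N v) n :=
  (groupCohomology.map (AlgEquiv.restrictNormalHom (F := K) (K₁ := N) L) (infRepJv K L N v) n).hom

end tower

/-- Inflation to the cyclotomic extension `L(ζ_{p^M})` (model `CyclotomicField (p ^ M) L`, with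
Mathlib's instances `Algebra K (CyclotomicField n L)`, `IsScalarTower K L (CyclotomicField n L)`). -/
def infLCyc (p M : ℕ) [NeZero (p ^ M)] [Normal K L] (n : ℕ) :
    groupCohomology (repL K L) n →ₗ[ℤ] groupCohomology (repL K (CyclotomicField (p ^ M) L)) n :=
  infL K L (CyclotomicField (p ^ M) L) n

/-- Inflation of the local components to `L(ζ_{p^M})`. -/
def infJvCyc (p M : ℕ) [NeZero (p ^ M)] [Normal K L] (v : Place K) (n : ℕ) :
    groupCohomology (repJv K L v) n →ₗ[ℤ]
      groupCohomology (repJv K (CyclotomicField (p ^ M) L) v) n :=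
  infJv K L (CyclotomicField (p ^ M) L) v n

/-! ### The exports -/

/-- The standing hypotheses of the exports: `p` odd, `ζ_p ∈ K`, `L/K` Galois of degree `p ^ m`. -/
structure Hyp3 (p m : ℕ) : Prop where
  prime : p.Prime
  odd : p ≠ 2
  zeta : ∃ ζ : K, IsPrimitiveRoot ζ p
  gal : IsGalois K L
  deg : Module.finrank K L = p ^ m

/-- **BR-Hasse** (Hasse principle for `H²(Gal(L/K), Lˣ)`): a class which is locally trivial at
all finite places is trivial.  (`H¹(G, C_{L,T}) = 0` for an admissible `T`; outside `T` the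
valuation.) -/
def Stmt_BrHasse : Prop :=
  ∀ (p m : ℕ) (K L : Type) [Field K] [Field L] [NumberField K] [NumberField L] [Algebra K L],
    Hyp3 K L p m → ∀ x : groupCohomology (repL K L) 2,
      (∀ v : Place K, locMap K L v 2 x = 0) → x = 0

/-- **BR-One** (no class with exactly one nonzero local component). -/
def Stmt_BrOne : Prop :=
  ∀ (p m : ℕ) (K L : Type) [Field K] [Field L] [NumberField K] [NumberField L] [Algebra K L],
    Hyp3 K L p m → ∀ (x : groupCohomology (repL K L) 2) (v₀ : Place K),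
      (∀ v : Place K, v ≠ v₀ → locMap K L v 2 x = 0) → locMap K L v₀ 2 x = 0

/-- **BR-Two** (existence): for two places `v₁ ≠ v₂` and a local class `b` at `v₁` there is, over
`L(ζ_{p^M})` for a suitable `M`, a global class with `v₁`-component `inf b` and trivial components
outside `{v₁, v₂}`. -/
def Stmt_BrTwo : Prop :=
  ∀ (p m : ℕ) (K L : Type) [Field K] [Field L] [NumberField K] [NumberField L] [Algebra K L]
    (h : Hyp3 K L p m) (v₁ v₂ : Place K), v₁ ≠ v₂ → ∀ b : groupCohomology (repJv K L v₁) 2,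
    haveI : Normal K L := h.gal.to_normal
    ∃ (M : ℕ) (_ : NeZero (p ^ M)),
      ∃ x : groupCohomology (repL K (CyclotomicField (p ^ M) L)) 2,
        locMap K (CyclotomicField (p ^ M) L) v₁ 2 x = infJvCyc K L p M v₁ 2 b ∧
        ∀ v : Place K, v ≠ v₁ → v ≠ v₂ → locMap K (CyclotomicField (p ^ M) L) v 2 x = 0

/-- **BR-H3** (`H³` dies in the cyclotomic tower): for every `L` there is `M` such that the
inflation `H³(Gal(L/K), Lˣ) → H³(Gal(L(ζ_{p^M})/K), L(ζ_{p^M})ˣ)` is zero. -/
def Stmt_BrH3 : Prop :=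
  ∀ (p m : ℕ) (K L : Type) [Field K] [Field L] [NumberField K] [NumberField L] [Algebra K L]
    (h : Hyp3 K L p m),
    haveI : Normal K L := h.gal.to_normal
    ∃ (M : ℕ) (_ : NeZero (p ^ M)), ∀ x : groupCohomology (repL K L) 3, infLCyc K L p M 3 x = 0

end Fermat.Agent.S55.CFT

end
end
-- ==== END Fermat.Agent.S55.CFT.Defs_BR

-- ==== BEGIN Fermat.Agent.S55.CFT.H12_Cokernel
section

set_option autoImplicit false
set_option linter.unusedSectionVars false

namespace Fermat.Agent.S55.CFT.H12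

open CategoryTheory CategoryTheory.Limits

section cokernel

variable {k G : Type} [CommRing k] [Group G] {E J : Rep.{0} k G} (f : E ⟶ J)

theorem cokernel_π_surjective : Function.Surjective (cokernel.π f).hom :=
  (Rep.epi_iff_surjective _).mp inferInstance

theorem cokernel_π_comp_apply (x : E) : (cokernel.π f).hom (f.hom x) = 0 := by
  have h1 : (cokernel.π f).hom (f.hom x) = (f ≫ cokernel.π f).hom x := rfl
  rw [h1, cokernel.condition]
  rfl

theorem cokernel_π_eq_zero_iff (y : J) :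
    (cokernel.π f).hom y = 0 ↔ ∃ x : E, f.hom x = y := by
  constructor
  · intro hy
    have hex : (ShortComplex.mk f (cokernel.π f) (cokernel.condition f)).Exact :=
      ShortComplex.exact_cokernel f
    have hex2 := hex.map (forget₂ (Rep.{0} k G) (ModuleCat.{0} k))
    rw [ShortComplex.moduleCat_exact_iff] at hex2
    exact hex2 y hy
  · rintro ⟨x, rfl⟩
    exact cokernel_π_comp_apply f x

theorem cokernel_π_ρ (σ : G) (y : J) :
    (cokernel.π f).hom (J.ρ σ y) = (cokernel f).ρ σ ((cokernel.π f).hom y) :=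
  Rep.hom_comm_apply _ _ _

theorem rep_norm_apply [Fintype G] (A : Rep.{0} k G) (x : A) :
    A.ρ.norm x = ∑ σ, A.ρ σ x := by
  simp only [Representation.norm, LinearMap.sum_apply]

theorem cokernel_π_norm [Fintype G] (y : J) :
    (cokernel.π f).hom (J.ρ.norm y) = (cokernel f).ρ.norm ((cokernel.π f).hom y) := by
  simp only [Representation.norm, LinearMap.sum_apply, map_sum]
  exact Finset.sum_congr rfl (fun σ _ => cokernel_π_ρ f σ y)

/-- The projection to the cokernel, as an additive map. -/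
noncomputable def cokerAdd : J.V →+ (cokernel f).V :=
  (cokernel.π f).hom.toLinearMap.toAddMonoidHom

theorem cokerAdd_apply (y : J) : cokerAdd f y = (cokernel.π f).hom y := rfl

/-- An element fixed by a generator is fixed by the whole group. -/
theorem ρ_eq_of_generator (A : Rep.{0} k G) (g : G) (hg : ∀ x, x ∈ Subgroup.zpowers g)
    (c : A) (hc : A.ρ g c = c) (σ : G) : A.ρ σ c = c := by
  let S : Subgroup G :=
    { carrier := {τ | A.ρ τ c = c}
      mul_mem' := fun {a b} ha hb => by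
        change A.ρ (a * b) c = c
        rw [map_mul, Module.End.mul_apply, hb, ha]
      one_mem' := by
        change A.ρ 1 c = c
        rw [map_one, Module.End.one_apply]
      inv_mem' := fun {a} ha => by
        change A.ρ a⁻¹ c = c
        have h : A.ρ a⁻¹ (A.ρ a c) = c := by
          rw [← Module.End.mul_apply, ← map_mul, inv_mul_cancel, map_one, Module.End.one_apply]
        rw [ha] at h
        exact h }
  have hS : Subgroup.zpowers g ≤ S := by
    rw [Subgroup.zpowers_le]
    exact hc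
  exact hS (hg σ)

/-- **Abstract H2I**: `#H²(G, coker f)` as an index, for `G` finite cyclic. -/
theorem card_H2_cokernel [Fintype G] (g : G) (hg : ∀ x, x ∈ Subgroup.zpowers g)
    {A : Type} [AddCommGroup A] (Ψ : A →+ J.V) (N : AddSubgroup A)
    (h1 : ∀ a σ, J.ρ σ (Ψ a) = Ψ a)
    (h2 : ∀ j : J, (∀ σ, (cokernel.π f).hom (J.ρ σ j) = (cokernel.π f).hom j) →
      ∃ a, (cokernel.π f).hom (Ψ a) = (cokernel.π f).hom j)
    (h3 : ∀ a, a ∈ N ↔ ∃ j : J, (cokernel.π f).hom (Ψ a) = (cokernel.π f).hom (J.ρ.norm j)) :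
    Nat.card (groupCohomology (cokernel f) 2) = N.index := by
  rw [card_even (cokernel f) g hg 2 (by decide)]
  set Φ : A →+ (cokernel f).V := (cokerAdd f).comp Ψ with hΦ
  have hrange : Φ.range = (LinearMap.ker ((cokernel f).ρ g - 1)).toAddSubgroup := by
    ext c
    constructor
    · rintro ⟨a, rfl⟩
      change (cokernel.π f).hom (Ψ a) ∈ LinearMap.ker ((cokernel f).ρ g - 1)
      rw [LinearMap.mem_ker, LinearMap.sub_apply, Module.End.one_apply, sub_eq_zero,
        ← cokernel_π_ρ, h1]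
    · intro hc
      change c ∈ LinearMap.ker ((cokernel f).ρ g - 1) at hc
      rw [LinearMap.mem_ker, LinearMap.sub_apply, Module.End.one_apply, sub_eq_zero] at hc
      obtain ⟨j, rfl⟩ := cokernel_π_surjective f c
      obtain ⟨a, ha⟩ := h2 j (fun σ => by
        rw [cokernel_π_ρ]
        exact ρ_eq_of_generator (cokernel f) g hg _ hc σ)
      exact ⟨a, ha⟩
  have hcomap : (LinearMap.range (cokernel f).ρ.norm).toAddSubgroup.comap Φ = N := by
    ext a
    rw [AddSubgroup.mem_comap, h3]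
    change (cokernel.π f).hom (Ψ a) ∈ LinearMap.range (cokernel f).ρ.norm ↔ _
    rw [LinearMap.mem_range]
    constructor
    · rintro ⟨c, hc⟩
      obtain ⟨j, rfl⟩ := cokernel_π_surjective f c
      exact ⟨j, by rw [cokernel_π_norm, hc]⟩
    · rintro ⟨j, hj⟩
      exact ⟨(cokernel.π f).hom j, by rw [← cokernel_π_norm, hj]⟩
  rw [← hrange, ← AddSubgroup.index_comap, hcomap]

end cokernel

end Fermat.Agent.S55.CFT.H12

end
-- ==== END Fermat.Agent.S55.CFT.H12_Cokernel

-- ==== BEGIN Fermat.Agent.S55.CFT.H12_Descent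
section

set_option autoImplicit false
set_option linter.unusedSectionVars false

namespace Fermat.Agent.S55.CFT.H12

open NumberField Module TensorProduct

section semilocal1

variable (K L : Type) [Field K] [Field L] [NumberField K] [NumberField L] [Algebra K L]
  (q : Nat.Primes)

theorem semiLocalMap_tmul (c : Qp q) (k : K) :
    semiLocalMap K L q (c ⊗ₜ[ℚ] k) = c ⊗ₜ[ℚ] (algebraMap K L k) := by
  simp [semiLocalMap]

theorem semiLocalMap_eq_lTensor (x : SemiLocal K q) :
    semiLocalMap K L q x =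
      LinearMap.lTensor (Qp q) ((Algebra.linearMap K L).restrictScalars ℚ) x := by
  induction x using TensorProduct.induction_on with
  | zero => simp
  | tmul c k => simp [semiLocalMap_tmul]
  | add a b ha hb => simp only [map_add, ha, hb]

theorem semiLocalMap_injective : Function.Injective (semiLocalMap K L q) := by
  have h : Function.Injective
      (LinearMap.lTensor (Qp q) ((Algebra.linearMap K L).restrictScalars ℚ)) :=
    Module.Flat.lTensor_preserves_injective_linearMap _ (algebraMap K L).injective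
  intro x y hxy
  apply h
  rw [← semiLocalMap_eq_lTensor, ← semiLocalMap_eq_lTensor, hxy]

/-- The trace `ℚ_q ⊗ L → ℚ_q ⊗ K`. -/
noncomputable def semiLocalTrace : SemiLocal L q →ₗ[ℚ] SemiLocal K q :=
  LinearMap.lTensor (Qp q) ((Algebra.trace K L).restrictScalars ℚ)

theorem semiLocalTrace_tmul (c : Qp q) (l : L) :
    semiLocalTrace K L q (c ⊗ₜ[ℚ] l) = c ⊗ₜ[ℚ] (Algebra.trace K L l) := by
  simp [semiLocalTrace]

theorem semiLocalMap_trace [IsGalois K L] (y : SemiLocal L q) :
    semiLocalMap K L q (semiLocalTrace K L q y) = ∑ σ : L ≃ₐ[K] L, σ • y := by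
  induction y using TensorProduct.induction_on with
  | zero => simp
  | tmul c l =>
    rw [semiLocalTrace_tmul, semiLocalMap_tmul, trace_eq_sum_automorphisms, TensorProduct.tmul_sum]
    refine Finset.sum_congr rfl (fun σ _ => ?_)
    rw [semiLocal_smul_tmul]
  | add a b ha hb =>
    simp only [map_add, ha, hb, smul_add, Finset.sum_add_distrib]

theorem exists_of_invariant [IsGalois K L] (y : SemiLocal L q)
    (hy : ∀ σ : L ≃ₐ[K] L, σ • y = y) : ∃ x : SemiLocal K q, semiLocalMap K L q x = y := by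
  classical
  have hn : (Module.finrank K L : ℚ) ≠ 0 := by
    exact_mod_cast (Module.finrank_pos (R := K) (M := L)).ne'
  refine ⟨(Module.finrank K L : ℚ)⁻¹ • semiLocalTrace K L q y, ?_⟩
  have h1 : semiLocalMap K L q ((Module.finrank K L : ℚ)⁻¹ • semiLocalTrace K L q y) =
      (Module.finrank K L : ℚ)⁻¹ • semiLocalMap K L q (semiLocalTrace K L q y) := by
    rw [semiLocalMap_eq_lTensor, semiLocalMap_eq_lTensor, map_smul]
  rw [h1, semiLocalMap_trace, Finset.sum_congr rfl (fun σ _ => hy σ), Finset.sum_const,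
    Finset.card_univ, ← Nat.card_eq_fintype_card, IsGalois.card_aut_eq_finrank,
    ← Nat.cast_smul_eq_nsmul ℚ, smul_smul, inv_mul_cancel₀ hn, one_smul]

end semilocal1

section semilocal2

variable (K L : Type) [Field K] [Field L] [NumberField K] [NumberField L] [Algebra K L]
  (q : Nat.Primes)

/-- The algebra structure of `ℚ_q ⊗ L` over `ℚ_q ⊗ K` (the one used in `normLK`). -/
@[reducible] noncomputable def semiLocalAlgebra : Algebra (SemiLocal K q) (SemiLocal L q) :=
  (semiLocalMap K L q).toRingHom.toAlgebra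

attribute [local instance] semiLocalAlgebra

theorem semiLocal_algebraMap_apply (a : SemiLocal K q) :
    algebraMap (SemiLocal K q) (SemiLocal L q) a = semiLocalMap K L q a := rfl

theorem semiLocal_smul_def (a : SemiLocal K q) (y : SemiLocal L q) :
    a • y = semiLocalMap K L q a * y := rfl

variable {K L} {ι : Type} [Fintype ι] [DecidableEq ι] (b : Basis ι K L)

/-- The coordinate maps of `ℚ_q ⊗ L` over `ℚ_q ⊗ K` attached to a basis of `L/K`. -/
noncomputable def semiLocalCoord (τ : ι) : SemiLocal L q →ₗ[ℚ] SemiLocal K q :=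
  LinearMap.lTensor (Qp q) ((b.coord τ).restrictScalars ℚ)

theorem semiLocalCoord_tmul (τ : ι) (c : Qp q) (l : L) :
    semiLocalCoord q b τ (c ⊗ₜ[ℚ] l) = c ⊗ₜ[ℚ] (b.coord τ l) := by
  simp [semiLocalCoord]

theorem semiLocalCoord_mul (τ : ι) (a : SemiLocal K q) (y : SemiLocal L q) :
    semiLocalCoord q b τ (semiLocalMap K L q a * y) = a * semiLocalCoord q b τ y := by
  induction a using TensorProduct.induction_on with
  | zero => simp
  | tmul c k =>
    induction y using TensorProduct.induction_on with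
    | zero => simp
    | tmul c' l =>
      rw [semiLocalMap_tmul, Algebra.TensorProduct.tmul_mul_tmul, semiLocalCoord_tmul,
        semiLocalCoord_tmul, Algebra.TensorProduct.tmul_mul_tmul, ← Algebra.smul_def, map_smul,
        smul_eq_mul]
    | add y₁ y₂ h₁ h₂ => rw [mul_add, map_add, h₁, h₂, map_add, mul_add]
  | add a₁ a₂ h₁ h₂ => rw [map_add, add_mul, map_add, h₁, h₂, add_mul]

theorem semiLocal_sum_coord (y : SemiLocal L q) :
    ∑ τ, semiLocalMap K L q (semiLocalCoord q b τ y) * ((1 : Qp q) ⊗ₜ[ℚ] b τ) = y := by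
  induction y using TensorProduct.induction_on with
  | zero => simp
  | tmul c l =>
    simp_rw [semiLocalCoord_tmul, semiLocalMap_tmul, Algebra.TensorProduct.tmul_mul_tmul, mul_one,
      ← Algebra.smul_def, ← TensorProduct.tmul_sum]
    congr 1
    exact b.sum_repr l
  | add y₁ y₂ h₁ h₂ =>
    simp_rw [map_add, add_mul, Finset.sum_add_distrib, h₁, h₂]

theorem semiLocalCoord_basis (τ τ' : ι) :
    semiLocalCoord q b τ ((1 : Qp q) ⊗ₜ[ℚ] b τ') = if τ = τ' then 1 else 0 := by
  rw [semiLocalCoord_tmul, Basis.coord_apply, Basis.repr_self, Finsupp.single_apply]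
  by_cases h : τ = τ'
  · rw [if_pos h, if_pos h.symm]; rfl
  · rw [if_neg h, if_neg (Ne.symm h), TensorProduct.tmul_zero]

/-- `ℚ_q ⊗ L` is free over `ℚ_q ⊗ K` with basis `1 ⊗ b τ`. -/
noncomputable def semiLocalEquivFun : SemiLocal L q ≃ₗ[SemiLocal K q] (ι → SemiLocal K q) where
  toFun y τ := semiLocalCoord q b τ y
  map_add' y₁ y₂ := by funext τ; simp
  map_smul' a y := by
    funext τ
    simp only [RingHom.id_apply, Pi.smul_apply, smul_eq_mul]
    rw [semiLocal_smul_def, semiLocalCoord_mul]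
  invFun a := ∑ τ, semiLocalMap K L q (a τ) * ((1 : Qp q) ⊗ₜ[ℚ] b τ)
  left_inv y := semiLocal_sum_coord q b y
  right_inv a := by
    funext τ
    simp only
    rw [map_sum]
    simp_rw [semiLocalCoord_mul, semiLocalCoord_basis]
    simp

/-- The basis `1 ⊗ b τ` of `ℚ_q ⊗ L` over `ℚ_q ⊗ K`. -/
noncomputable def semiLocalBasis : Basis ι (SemiLocal K q) (SemiLocal L q) :=
  Basis.ofEquivFun (semiLocalEquivFun q b)

theorem semiLocalBasis_apply (τ : ι) :
    semiLocalBasis q b τ = (1 : Qp q) ⊗ₜ[ℚ] b τ := by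
  rw [semiLocalBasis, Basis.coe_ofEquivFun]
  change ∑ τ', semiLocalMap K L q ((Pi.single τ (1 : SemiLocal K q) : ι → SemiLocal K q) τ') *
    ((1 : Qp q) ⊗ₜ[ℚ] b τ') = _
  rw [Finset.sum_eq_single τ]
  · simp
  · intro τ' _ h
    rw [Pi.single_eq_of_ne h, map_zero, zero_mul]
  · intro h
    exact absurd (Finset.mem_univ τ) h

variable (K L)

theorem semiLocalEquiv_semiLocalMap (σ : L ≃ₐ[K] L) (a : SemiLocal K q) :
    semiLocalEquiv K L q σ (semiLocalMap K L q a) = semiLocalMap K L q a := by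
  induction a using TensorProduct.induction_on with
  | zero => simp
  | tmul c k => rw [semiLocalMap_tmul, semiLocalEquiv_tmul, AlgEquiv.commutes]
  | add a₁ a₂ h₁ h₂ => rw [map_add, map_add, h₁, h₂]

/-- A basis of `L/K` indexed by the Galois group. -/
theorem exists_basis_gal [IsGalois K L] : Nonempty (Basis (L ≃ₐ[K] L) K L) := by
  classical
  have hcard : Fintype.card (Fin (finrank K L)) = Fintype.card (L ≃ₐ[K] L) := by
    rw [Fintype.card_fin, ← Nat.card_eq_fintype_card, IsGalois.card_aut_eq_finrank]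
  exact ⟨(Module.finBasis K L).reindex (Fintype.equivOfCardEq hcard)⟩

/-- **DESC (c)**, semilocal form: the norm of `ℚ_q ⊗ L` over `ℚ_q ⊗ K` is the product of the
Galois conjugates. -/
theorem semiLocalMap_norm [IsGalois K L] (y : SemiLocal L q) :
    semiLocalMap K L q (Algebra.norm (SemiLocal K q) y) =
      ∏ σ : L ≃ₐ[K] L, semiLocalEquiv K L q σ y := by
  classical
  obtain ⟨b⟩ := exists_basis_gal K L
  have hdet : IsUnit (Matrix.det (Matrix.of fun (σ τ : L ≃ₐ[K] L) =>
      ((semiLocalEquiv K L q σ : SemiLocal L q →+* SemiLocal L q)) (semiLocalBasis q b τ))) := by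
    have h1 : (Matrix.of fun (σ τ : L ≃ₐ[K] L) =>
        ((semiLocalEquiv K L q σ : SemiLocal L q →+* SemiLocal L q)) (semiLocalBasis q b τ)) =
        (Algebra.TensorProduct.includeRight : L →ₐ[ℚ] SemiLocal L q).toRingHom.mapMatrix
          (Matrix.of fun (σ τ : L ≃ₐ[K] L) => σ (b τ)) := by
      ext σ τ
      simp only [Matrix.of_apply, RingHom.mapMatrix_apply, Matrix.map_apply]
      rw [semiLocalBasis_apply]
      change semiLocalEquiv K L q σ ((1 : Qp q) ⊗ₜ[ℚ] b τ) = (1 : Qp q) ⊗ₜ[ℚ] σ (b τ)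
      rw [semiLocalEquiv_tmul]
    rw [h1, ← RingHom.map_det]
    exact (IsUnit.mk0 _ (det_conj_ne_zero b)).map _
  exact algebraMap_norm_eq_prod_of_conj (semiLocalBasis q b)
    (fun σ => (semiLocalEquiv K L q σ : SemiLocal L q →+* SemiLocal L q))
    (fun σ a => _root_.Fermat.Agent.S55.CFT.H12.semiLocalEquiv_semiLocalMap K L q σ a) hdet y


/-- Invariant units of `ℚ_q ⊗ L` come from units of `ℚ_q ⊗ K`. -/
theorem exists_unit_of_invariant [IsGalois K L] (y : (SemiLocal L q)ˣ)
    (hy : ∀ σ : L ≃ₐ[K] L, σ • y = y) :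
    ∃ x : (SemiLocal K q)ˣ,
      Units.map ((semiLocalMap K L q : SemiLocal K q →* SemiLocal L q)) x = y := by
  have h1 : ∀ σ : L ≃ₐ[K] L, σ • (y : SemiLocal L q) = (y : SemiLocal L q) := by
    intro σ
    rw [← semiLocalUnits_smul_val, hy σ]
  have h2 : ∀ σ : L ≃ₐ[K] L, σ • ((y⁻¹ : (SemiLocal L q)ˣ) : SemiLocal L q) =
      ((y⁻¹ : (SemiLocal L q)ˣ) : SemiLocal L q) := by
    intro σ
    rw [← semiLocalUnits_smul_val, smul_inv', hy σ]
  obtain ⟨x, hx⟩ := exists_of_invariant K L q _ h1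
  obtain ⟨x', hx'⟩ := exists_of_invariant K L q _ h2
  have hxx' : x * x' = 1 := by
    apply semiLocalMap_injective K L q
    rw [map_mul, hx, hx', map_one, Units.mul_inv]
  refine ⟨⟨x, x', hxx', by rw [mul_comm]; exact hxx'⟩, ?_⟩
  apply Units.ext
  exact hx

end semilocal2

/-- **DESC** (Galois descent for `T`-ideles). -/
theorem stmt_Descent : Stmt_Descent := by
  intro K L _ _ _ _ _ T hgal
  refine ⟨?_, ?_, ?_⟩
  · intro x x' h
    funext q
    have hq := congrFun h q
    exact Units.map_injective (f := ((semiLocalMap K L q.1 : SemiLocal K q.1 →* SemiLocal L q.1)))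
      (semiLocalMap_injective K L q.1) hq
  · intro y hy
    have hex : ∀ q : T, ∃ x : (SemiLocal K q.1)ˣ,
        Units.map ((semiLocalMap K L q.1 : SemiLocal K q.1 →* SemiLocal L q.1)) x = y q := by
      intro q
      exact exists_unit_of_invariant K L q.1 (y q) (fun σ => congrFun (hy σ) q)
    choose x hx using hex
    exact ⟨x, funext hx⟩
  · intro y
    refine ⟨inferInstance, ?_⟩
    funext q
    apply Units.ext
    have h := semiLocalMap_norm K L q.1 ((y q : (SemiLocal L q.1)ˣ) : SemiLocal L q.1)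
    have h3 : ((normIdele K L T y q : (SemiLocal L q.1)ˣ) : SemiLocal L q.1) =
        ∏ σ : L ≃ₐ[K] L, semiLocalEquiv K L q.1 σ ((y q : (SemiLocal L q.1)ˣ) : SemiLocal L q.1) := by
      change (((∏ σ : L ≃ₐ[K] L, σ • y) q : (SemiLocal L q.1)ˣ) : SemiLocal L q.1) = _
      rw [Finset.prod_apply, Units.coe_prod]
      rfl
    rw [h3, ← h]
    rfl

end Fermat.Agent.S55.CFT.H12

end
-- ==== END Fermat.Agent.S55.CFT.H12_Descent
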