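-- GENERATED (merged mirror, NOTES/tools/trim/merge3_helper67.py): 7 modules of the originals, bodies verbatim.
import Fermat.Agent.Zm.S56_L03_002
import Fermat.Agent.Zm.S56_L03_001
import Fermat.Agent.Zm.S56_L01_002
import Fermat.Agent.Lib.SecondIneq.Defs

-- ==== BEGIN Fermat.Agent.S55.CFT.H12_EHerbrandIndex
section

set_option autoImplicit false
set_option linter.unusedSectionVars false

namespace Fermat.Agent.S55.CFT.H12

open NumberField IsDedekindDomain Module Fermat.Agent.S14.H62

section rankT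

variable (L : Type) [Field L] [NumberField L] (T : Finset Nat.Primes)

/-- `Additive (TUnits L T) ≃ Additive (S-units)`. -/
noncomputable def tUnitsEquiv :
    Additive (TUnits L T) ≃ₗ[ℤ]
      Additive ((primesT L T : Set (HeightOneSpectrum (𝓞 L))).unit L) :=
  (MulEquiv.toAdditive (MulEquiv.subgroupCongr (tUnits_eq L T))).toIntLinearEquiv

theorem finite_tUnits : Module.Finite ℤ (Additive (TUnits L T)) := by
  have := finite_sunit L (primesT L T)
  exact Module.Finite.equiv (tUnitsEquiv L T).symm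

theorem finrank_tUnits :
    finrank ℤ (Additive (TUnits L T)) = Units.rank L + (primesT L T).card := by
  rw [(tUnitsEquiv L T).finrank_eq, finrank_sunit]

end rankT

section galois

variable (K L : Type) [Field K] [Field L] [NumberField K] [NumberField L] [Algebra K L]
  (T : Finset Nat.Primes)

/-- The representation of `Gal(L/K)` on the `T`-units, as a plain `Representation`. -/
noncomputable abbrev rhoE : Representation ℤ (L ≃ₐ[K] L) (Additive (TUnits L T)) :=
  Representation.ofMulDistribMulAction (L ≃ₐ[K] L) (TUnits L T)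

theorem rhoE_apply (σ : L ≃ₐ[K] L) (x : Additive (TUnits L T)) :
    (((Additive.toMul (rhoE K L T σ x) : TUnits L T) : Lˣ) : L) =
      σ (((Additive.toMul x : TUnits L T) : Lˣ) : L) := rfl

/-- The inclusion `TUnits K T → TUnits L T`. -/
noncomputable def iotaT : TUnits K T →* TUnits L T where
  toFun x := ⟨Units.map (algebraMap K L : K →* L) (x : Kˣ), by
    obtain ⟨n, h1, h2⟩ := x.2
    refine ⟨n, ?_, ?_⟩
    · have := h1.map (algebraMap K L).toIntAlgHom
      simpa using this
    · have := h2.map (algebraMap K L).toIntAlgHom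
      simpa using this⟩
  map_one' := by ext; simp
  map_mul' x y := by ext; simp

theorem coe_iotaT (x : TUnits K T) :
    (((iotaT K L T x : TUnits L T) : Lˣ) : L) = algebraMap K L ((x : Kˣ) : K) := rfl

theorem iotaT_injective : Function.Injective (iotaT K L T) := by
  intro x y h
  have h1 := congrArg (fun z : TUnits L T => ((z : Lˣ) : L)) h
  simp only [coe_iotaT] at h1
  exact Subtype.ext (Units.ext ((algebraMap K L).injective h1))

/-- The inclusion, additively. -/
noncomputable def iotaTA : Additive (TUnits K T) →ₗ[ℤ] Additive (TUnits L T) :=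
  (MonoidHom.toAdditive (iotaT K L T)).toIntLinearMap

theorem iotaTA_injective : Function.Injective (iotaTA K L T) := by
  intro x y h
  exact Additive.toMul.injective (iotaT_injective K L T (congrArg Additive.toMul h))

theorem ker_delE_rhoE [IsGalois K L] (g : L ≃ₐ[K] L)
    (hg : ∀ τ : L ≃ₐ[K] L, τ ∈ Subgroup.zpowers g) :
    LinearMap.ker (delE (rhoE K L T g)) = LinearMap.range (iotaTA K L T) := by
  ext x
  rw [LinearMap.mem_ker, delE_apply, sub_eq_zero, LinearMap.mem_range]
  constructor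
  · intro hx
    -- `g` fixes the underlying element
    have h1 : g (((Additive.toMul x : TUnits L T) : Lˣ) : L) =
        (((Additive.toMul x : TUnits L T) : Lˣ) : L) := by
      rw [← rhoE_apply, hx]
    have hfix : ∀ τ : L ≃ₐ[K] L, τ (((Additive.toMul x : TUnits L T) : Lˣ) : L) =
        (((Additive.toMul x : TUnits L T) : Lˣ) : L) := by
      intro τ
      let S : Subgroup (L ≃ₐ[K] L) :=
        { carrier := {τ | τ (((Additive.toMul x : TUnits L T) : Lˣ) : L) =
            (((Additive.toMul x : TUnits L T) : Lˣ) : L)}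
          mul_mem' := fun {a b} ha hb => by
            change (a * b) _ = _
            rw [AlgEquiv.mul_apply, hb, ha]
          one_mem' := rfl
          inv_mem' := fun {a} ha => by
            change a⁻¹ _ = _
            have : a⁻¹ (a (((Additive.toMul x : TUnits L T) : Lˣ) : L)) =
                (((Additive.toMul x : TUnits L T) : Lˣ) : L) := by
              rw [← AlgEquiv.mul_apply, inv_mul_cancel, AlgEquiv.one_apply]
            rw [ha] at this
            exact this }
      have hS : Subgroup.zpowers g ≤ S := by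
        rw [Subgroup.zpowers_le]
        exact h1
      exact hS (hg τ)
    obtain ⟨k, hk⟩ := (IsGalois.mem_range_algebraMap_iff_fixed (F := K) (E := L) _).mpr hfix
    have hk0 : k ≠ 0 := by
      rintro rfl
      rw [map_zero] at hk
      exact (Additive.toMul x : TUnits L T).1.ne_zero hk.symm
    have hmem : Units.mk0 k hk0 ∈ TUnits K T := by
      obtain ⟨n, e1, e2⟩ := (Additive.toMul x : TUnits L T).2
      refine ⟨n, ?_, ?_⟩
      · rw [← isIntegral_algebraMap_iff (algebraMap K L).injective (R := ℤ), map_mul, map_pow,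
          map_natCast, Units.val_mk0, hk]
        exact e1
      · rw [← isIntegral_algebraMap_iff (algebraMap K L).injective (R := ℤ), map_mul, map_pow,
          map_natCast, Units.val_inv_eq_inv_val, Units.val_mk0, map_inv₀, hk,
          ← Units.val_inv_eq_inv_val]
        exact e2
    refine ⟨Additive.ofMul ⟨Units.mk0 k hk0, hmem⟩, ?_⟩
    apply Additive.toMul.injective
    apply Subtype.ext
    apply Units.ext
    exact hk
  · rintro ⟨y, rfl⟩
    apply Additive.toMul.injective
    apply Subtype.ext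
    apply Units.ext
    change g (algebraMap K L _) = algebraMap K L _
    exact g.commutes _

theorem finrank_ker_delE_rhoE [IsGalois K L] (g : L ≃ₐ[K] L)
    (hg : ∀ τ : L ≃ₐ[K] L, τ ∈ Subgroup.zpowers g) :
    finrank ℤ (LinearMap.ker (delE (rhoE K L T g))) = Units.rank K + (primesT K T).card := by
  rw [ker_delE_rhoE K L T g hg, LinearMap.finrank_range_of_inj (iotaTA_injective K L T),
    finrank_tUnits]

end galois


section torsionfree

/-- In a finitely generated `ℤ`-module, a nonzero multiple `t • A` is torsion-free. -/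
theorem exists_torsionFree_multiple (A : Type*) [AddCommGroup A] [Module.Finite ℤ A] :
    ∃ t : ℤ, t ≠ 0 ∧ ∀ y : A, ∀ n : ℤ, n ≠ 0 → n • (t • y) = 0 → t • y = 0 := by
  have hfin : Finite (Submodule.torsion ℤ A) := by
    have hfg : Module.Finite ℤ (Submodule.torsion ℤ A) := inferInstance
    exact Module.finite_of_fg_torsion _ (Submodule.torsion_isTorsion (R := ℤ) (M := A))
  refine ⟨(Nat.card (Submodule.torsion ℤ A) : ℤ), ?_, ?_⟩
  · exact_mod_cast (Nat.card_pos (α := Submodule.torsion ℤ A)).ne'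
  · intro y n hn h
    have hy : y ∈ Submodule.torsion ℤ A := by
      rw [Submodule.mem_torsion_iff]
      have hne : n * (Nat.card (Submodule.torsion ℤ A) : ℤ) ≠ 0 :=
        mul_ne_zero hn (by exact_mod_cast (Nat.card_pos (α := Submodule.torsion ℤ A)).ne')
      refine ⟨⟨_, mem_nonZeroDivisors_of_ne_zero hne⟩, ?_⟩
      change (n * (Nat.card (Submodule.torsion ℤ A) : ℤ)) • y = 0
      rw [mul_smul]; exact h
    have h1 : Nat.card (Submodule.torsion ℤ A) • (⟨y, hy⟩ : Submodule.torsion ℤ A) = 0 :=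
      card_nsmul_eq_zero'
    have h2 := congrArg (fun z : Submodule.torsion ℤ A => (z : A)) h1
    simpa using h2

end torsionfree

section infinite

variable (K L : Type) [Field K] [Field L] [NumberField K] [NumberField L] [Algebra K L]

theorem isUnramifiedAtInfinitePlaces_of_isTotallyComplex [IsTotallyComplex K] :
    IsUnramifiedAtInfinitePlaces K L where
  isUnramified w := by
    rw [InfinitePlace.isUnramified_iff]
    exact Or.inr (IsTotallyComplex.isComplex _)

theorem card_infinitePlace_of_isTotallyComplex [IsGalois K L] [IsTotallyComplex K] :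
    Fintype.card (InfinitePlace L) = Fintype.card (InfinitePlace K) * finrank K L := by
  have := isUnramifiedAtInfinitePlaces_of_isTotallyComplex K L
  exact IsUnramifiedAtInfinitePlaces.card_infinitePlace K L

end infinite


section assembly

variable (K L : Type) [Field K] [Field L] [NumberField K] [NumberField L] [Algebra K L]
  (T : Finset Nat.Primes)

theorem rhoE_pow_eq_one [IsGalois K L] {p : ℕ} (hdeg : finrank K L = p) (g : L ≃ₐ[K] L) :
    (rhoE K L T g) ^ p = 1 := by
  rw [← map_pow]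
  have : g ^ p = 1 := by
    rw [← hdeg, ← IsGalois.card_aut_eq_finrank]
    exact pow_card_eq_one'
  rw [this, map_one]

theorem rank_arith (p m n s : ℕ) (hp : 2 ≤ p) (hm : 1 ≤ m) :
    (m * p - 1) + (n + p * s) = (m - 1 + (n + s)) + (p - 1) * (m + s) := by
  obtain ⟨q, rfl⟩ : ∃ q, p = q + 2 := ⟨p - 2, by omega⟩
  obtain ⟨r, rfl⟩ : ∃ r, m = r + 1 := ⟨m - 1, by omega⟩
  have h1 : (r + 1) * (q + 2) - 1 = r * q + 2 * r + q + 1 := by
    have : (r + 1) * (q + 2) = r * q + 2 * r + q + 2 := by ring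
    omega
  have h2 : q + 2 - 1 = q + 1 := by omega
  have h3 : r + 1 - 1 = r := by omega
  rw [h1, h2, h3]
  ring

/-- **GLB-2 in index form.** -/
theorem eherbrand_index [IsGalois K L] [IsTotallyComplex K] {p : ℕ} [hpp : Fact p.Prime]
    (hdeg : finrank K L = p) (g : L ≃ₐ[K] L)
    (hg : ∀ τ : L ≃ₐ[K] L, τ ∈ Subgroup.zpowers g) :
    hIdx (delE (rhoE K L T g)).toAddMonoidHom (nrmE p (rhoE K L T g)).toAddMonoidHom ⊤ ≠ 0 ∧
    hIdx (nrmE p (rhoE K L T g)).toAddMonoidHom (delE (rhoE K L T g)).toAddMonoidHom ⊤ ≠ 0 ∧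
    p * hIdx (delE (rhoE K L T g)).toAddMonoidHom (nrmE p (rhoE K L T g)).toAddMonoidHom ⊤ =
      p ^ nonsplitCount K L T *
        hIdx (nrmE p (rhoE K L T g)).toAddMonoidHom (delE (rhoE K L T g)).toAddMonoidHom ⊤ := by
  have hp := hpp.out
  have hfin := finite_tUnits L T
  obtain ⟨t, ht0, ht⟩ := exists_torsionFree_multiple (Additive (TUnits L T))
  set A₁ : Submodule ℤ (Additive (TUnits L T)) :=
    LinearMap.range (t • (LinearMap.id : Additive (TUnits L T) →ₗ[ℤ] _)) with hA₁
  have htf : ∀ x ∈ A₁, ∀ n : ℤ, n ≠ 0 → n • x = 0 → x = 0 := by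
    rintro _ ⟨y, rfl⟩ n hn h
    simp only [LinearMap.smul_apply, LinearMap.id_coe, id_eq] at h ⊢
    exact ht y n hn h
  have hst : ∀ x ∈ A₁, rhoE K L T g x ∈ A₁ := by
    rintro _ ⟨y, rfl⟩
    refine ⟨rhoE K L T g y, ?_⟩
    simp only [LinearMap.smul_apply, LinearMap.id_coe, id_eq, map_smul]
  have htA : ∀ x : Additive (TUnits L T), t • x ∈ A₁ := fun x => ⟨x, rfl⟩
  obtain ⟨s, hsK, hsL⟩ := exists_card_primesT K L T hp hdeg
  have hm : 1 ≤ Fintype.card (InfinitePlace K) := Fintype.card_pos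
  have hcardL := card_infinitePlace_of_isTotallyComplex K L
  rw [hdeg] at hcardL
  have hb := finrank_ker_delE_rhoE K L T g hg
  have ha : finrank ℤ (Additive (TUnits L T)) =
      (Units.rank K + (primesT K T).card) +
        (p - 1) * (Fintype.card (InfinitePlace K) + s) := by
    rw [finrank_tUnits, Units.rank, Units.rank, hcardL, hsK, hsL]
    exact rank_arith p _ _ s hp.two_le hm
  obtain ⟨h0, h1, heq⟩ := herbrand_exact (p := p) (σ := rhoE K L T g) (A₁ := A₁)
    (rhoE_pow_eq_one K L T hdeg g) htf hst ht0 htA _ _ hb ha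
  refine ⟨h0, h1, ?_⟩
  have hbc : Units.rank K + (primesT K T).card + 1 =
      (Fintype.card (InfinitePlace K) + s) + nonsplitCount K L T := by
    rw [Units.rank, hsK]
    omega
  have hpos : 0 < p ^ (Fintype.card (InfinitePlace K) + s) := pow_pos hp.pos _
  apply Nat.eq_of_mul_eq_mul_left hpos
  calc p ^ (Fintype.card (InfinitePlace K) + s) * (p * hIdx _ _ ⊤)
      = p * (p ^ (Fintype.card (InfinitePlace K) + s) * hIdx _ _ ⊤) := by ring
    _ = p * (p ^ (Units.rank K + (primesT K T).card) * hIdx _ _ ⊤) := by rw [heq]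
    _ = p ^ (Units.rank K + (primesT K T).card + 1) * hIdx _ _ ⊤ := by rw [pow_succ]; ring
    _ = p ^ (Fintype.card (InfinitePlace K) + s) * (p ^ nonsplitCount K L T * hIdx _ _ ⊤) := by
        rw [hbc, pow_add]; ring

end assembly

end Fermat.Agent.S55.CFT.H12

end
-- ==== END Fermat.Agent.S55.CFT.H12_EHerbrandIndex

-- ==== BEGIN Fermat.Agent.S55.CFT.H12_H1Units
section

set_option autoImplicit false
set_option linter.unusedSectionVars false

namespace Fermat.Agent.S55.CFT.H12

open NumberField IsDedekindDomain Module WithZero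

section unram1

variable (K L : Type) [Field K] [Field L] [NumberField K] [NumberField L] [Algebra K L]
  (T : Finset Nat.Primes)

/-- Outside `T` the ramification index is one. -/
theorem ramificationIdx'_eq_one_of_unramified [IsGalois K L] (hunr : UnramifiedOutsideT K L T)
    (w : HeightOneSpectrum (𝓞 L)) (hw : w ∉ primesT L T) :
    (w.under (𝓞 K)).asIdeal.ramificationIdx' w.asIdeal = 1 := by
  have hin : w.asIdeal.inertia (L ≃ₐ[K] L) = ⊥ := by
    apply hunr w.asIdeal w.isPrime w.ne_bot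
    intro q hq hmem
    exact hw ((mem_primesT_iff_exists L T w).mpr ⟨q, hq, hmem⟩)
  have hlies : w.asIdeal.LiesOver (w.under (𝓞 K)).asIdeal := ⟨rfl⟩
  have hprime : (w.under (𝓞 K)).asIdeal.IsPrime := (w.under (𝓞 K)).isPrime
  have h1 := Ideal.card_inertia_eq_ramificationIdxIn (G := L ≃ₐ[K] L)
    (w.under (𝓞 K)).asIdeal w.asIdeal
  rw [hin, Subgroup.card_bot] at h1
  rw [Ideal.ramificationIdx'_eq_ramificationIdx _ _ (w.under (𝓞 K)).ne_bot,
    ← Ideal.ramificationIdxIn_eq_ramificationIdx (w.under (𝓞 K)).asIdeal w.asIdeal (L ≃ₐ[K] L)]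
  exact h1.symm

theorem valuation_algebraMap_of_unramified [IsGalois K L] (hunr : UnramifiedOutsideT K L T)
    (w : HeightOneSpectrum (𝓞 L)) (hw : w ∉ primesT L T) (y : K) :
    w.valuation L (algebraMap K L y) = (w.under (𝓞 K)).valuation K y := by
  have hlies : w.asIdeal.LiesOver (w.under (𝓞 K)).asIdeal := ⟨rfl⟩
  rw [← HeightOneSpectrum.valuation_liesOver L (w.under (𝓞 K)) w y,
    ramificationIdx'_eq_one_of_unramified K L T hunr w hw, pow_one]

end unram1

section cl

variable (K : Type) [Field K] [NumberField K] (T : Finset Nat.Primes)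

/-- The count of a prime in an ideal dividing a power of `prodT` vanishes outside `T`. -/
theorem count_eq_zero_of_dvd_prodT (v : HeightOneSpectrum (𝓞 K)) (hv : v ∉ primesT K T)
    {J : Ideal (𝓞 K)} {n : ℕ} (hJ : J ∣ Ideal.span {((prodT T : ℤ) : 𝓞 K)} ^ n) (hJ0 : J ≠ ⊥) :
    (Associates.mk v.asIdeal).count (Associates.mk J).factors = 0 := by
  by_contra hne
  have hdvd : v.asIdeal ∣ J :=
    (Associates.count_ne_zero_iff_dvd hJ0 v.irreducible).mp hne
  have h1 : v.asIdeal ∣ Ideal.span {((prodT T : ℤ) : 𝓞 K)} ^ n := hdvd.trans hJ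
  have h2 : v.asIdeal ∣ Ideal.span {((prodT T : ℤ) : 𝓞 K)} := v.prime.dvd_of_dvd_pow h1
  rw [Ideal.dvd_span_singleton] at h2
  apply hv
  rw [mem_primesT]
  simpa using h2

open Classical in
/-- If `Cl_T(K) = 1`, every prime outside `T` has a generator up to `T`. -/
theorem exists_uniformizer_of_clTrivial (hcl : ClTrivial K T) (v : HeightOneSpectrum (𝓞 K)) :
    ∃ π : Kˣ, ∀ v' : HeightOneSpectrum (𝓞 K), v' ∉ primesT K T →
      v'.valuation K (π : K) = if v' = v then exp (-1 : ℤ) else 1 := by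
  classical
  obtain ⟨a, b, J, n, ha, hb, hJ, hab⟩ := hcl v.asIdeal v.ne_bot
  have hJ0 : J ≠ ⊥ := by
    rintro rfl
    have h0 : Ideal.span {a} * v.asIdeal ≠ ⊥ :=
      mul_ne_zero (by simpa using ha) v.ne_bot
    rw [hab] at h0
    simp at h0
  have hane : (algebraMap (𝓞 K) K a) ≠ 0 := by
    simpa using ha
  have hbne : (algebraMap (𝓞 K) K b) ≠ 0 := by
    simpa using hb
  refine ⟨Units.mk0 (algebraMap (𝓞 K) K b / algebraMap (𝓞 K) K a) (div_ne_zero hbne hane), ?_⟩
  intro v' hv'
  rw [Units.val_mk0, map_div₀, HeightOneSpectrum.valuation_of_algebraMap,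
    HeightOneSpectrum.valuation_of_algebraMap, v'.intValuation_if_neg ha,
    v'.intValuation_if_neg hb]
  have hsa : (Associates.mk (Ideal.span {a} : Ideal (𝓞 K))) ≠ 0 := by
    rw [Associates.mk_ne_zero]; simpa using ha
  have hsb : (Associates.mk (Ideal.span {b} : Ideal (𝓞 K))) ≠ 0 := by
    rw [Associates.mk_ne_zero]; simpa using hb
  have hsv : (Associates.mk v.asIdeal) ≠ 0 := by
    rw [Associates.mk_ne_zero]; exact v.ne_bot
  have hsJ : (Associates.mk J) ≠ 0 := by
    rw [Associates.mk_ne_zero]; exact hJ0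
  have hirr : Irreducible (Associates.mk v'.asIdeal) := v'.associates_irreducible
  have hcount := congrArg (fun I => (Associates.mk v'.asIdeal).count (Associates.mk I).factors) hab
  simp only [← Associates.mk_mul_mk] at hcount
  rw [Associates.count_mul hsa hsv hirr, Associates.count_mul hsb hsJ hirr,
    count_eq_zero_of_dvd_prodT K T v' hv' hJ hJ0, add_zero] at hcount
  by_cases hvv : v' = v
  · subst hvv
    rw [Associates.count_self hirr] at hcount
    rw [if_pos rfl, ← hcount, ← exp_sub]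
    congr 1
    push_cast
    ring
  · rw [if_neg hvv]
    have h0 : (Associates.mk v'.asIdeal).count (Associates.mk v.asIdeal).factors = 0 := by
      apply Associates.count_eq_zero_of_ne hirr v.associates_irreducible
      intro h
      apply hvv
      apply HeightOneSpectrum.ext
      have := Associates.mk_eq_mk_iff_associated.mp h
      exact associated_iff_eq.mp this
    rw [h0, add_zero] at hcount
    rw [hcount, div_self]
    exact exp_ne_zero

open Classical in
/-- If `Cl_T(K) = 1`, every finitely supported valuation vector outside `T` is realised. -/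
theorem exists_of_valuations (hcl : ClTrivial K T) (S : Finset (HeightOneSpectrum (𝓞 K)))
    (n : HeightOneSpectrum (𝓞 K) → ℤ) :
    ∃ y : Kˣ, ∀ v : HeightOneSpectrum (𝓞 K), v ∉ primesT K T →
      v.valuation K (y : K) = if v ∈ S then exp (n v) else 1 := by
  induction S using Finset.induction_on with
  | empty =>
    exact ⟨1, fun v _ => by simp⟩
  | insert v S hvS ih =>
    obtain ⟨y', hy'⟩ := ih
    obtain ⟨π, hπ⟩ := exists_uniformizer_of_clTrivial K T hcl v
    refine ⟨y' * π ^ (-(n v)), ?_⟩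
    intro v' hv'
    rw [Units.val_mul, Units.val_zpow_eq_zpow_val, map_mul, map_zpow₀, hy' v' hv', hπ v' hv']
    by_cases hvv : v' = v
    · subst hvv
      rw [if_neg hvS, if_pos rfl, if_pos (Finset.mem_insert_self _ _), one_mul, ← exp_zsmul]
      congr 1
      simp
    · rw [if_neg hvv, one_zpow, mul_one]
      by_cases hS : v' ∈ S
      · rw [if_pos hS, if_pos (Finset.mem_insert_of_mem hS)]
      · rw [if_neg hS, if_neg]
        rw [Finset.mem_insert]
        tauto

theorem finite_valuation_ne_one (z : Kˣ) :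
    {v : HeightOneSpectrum (𝓞 K) | v.valuation K (z : K) ≠ 1}.Finite := by
  have h1 := HeightOneSpectrum.Support.finite (𝓞 K) (z : K)
  have h2 := HeightOneSpectrum.Support.finite (𝓞 K) ((z⁻¹ : Kˣ) : K)
  apply (h1.union h2).subset
  intro v hv
  rw [Set.mem_ofPred_eq] at hv
  rcases lt_or_gt_of_ne hv with h | h
  · right
    change 1 < v.valuation K ((z⁻¹ : Kˣ) : K)
    rw [Units.val_inv_eq_inv_val, map_inv₀]
    exact (one_lt_inv₀ (by simp [zero_lt_iff])).mpr h
  · left
    exact h

end cl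

section unram2

variable (K L : Type) [Field K] [Field L] [NumberField K] [NumberField L] [Algebra K L]
  (T : Finset Nat.Primes)

/-- Every prime of `K` has a prime of `L` above it. -/
theorem exists_over (v : HeightOneSpectrum (𝓞 K)) :
    ∃ w : HeightOneSpectrum (𝓞 L), w.under (𝓞 K) = v := by
  have hv := v.isPrime
  obtain ⟨⟨Q, hQ, hQv⟩⟩ := Ideal.nonempty_primesOver (S := 𝓞 L) v.asIdeal
  have hQne : Q ≠ ⊥ := Ideal.ne_bot_of_mem_primesOver v.ne_bot ⟨hQ, hQv⟩
  have hQv' : Q.comap (algebraMap (𝓞 K) (𝓞 L)) = v.asIdeal :=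
    ((Ideal.liesOver_iff _ _).mp hQv).symm
  exact ⟨⟨Q, hQ, hQne⟩, HeightOneSpectrum.ext hQv'⟩

theorem valuation_norm_of_invariant [IsGalois K L] (β : Lˣ)
    (w : HeightOneSpectrum (𝓞 L))
    (hβ : ∀ σ : L ≃ₐ[K] L, w.valuation L (σ (β : L)) = w.valuation L (β : L)) :
    w.valuation L (algebraMap K L (Algebra.norm K (β : L))) =
      w.valuation L (β : L) ^ finrank K L := by
  classical
  rw [Algebra.norm_eq_prod_automorphisms, map_prod, Finset.prod_congr rfl (fun σ _ => hβ σ),
    Finset.prod_const, Finset.card_univ, ← Nat.card_eq_fintype_card, IsGalois.card_aut_eq_finrank]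

open Classical in
theorem exists_base_of_invariant [IsGalois K L] (hunr : UnramifiedOutsideT K L T)
    (hcl : ClTrivial K T) (β : Lˣ)
    (hβ : ∀ σ : L ≃ₐ[K] L, ∀ w : HeightOneSpectrum (𝓞 L), w ∉ primesT L T →
      w.valuation L (σ (β : L)) = w.valuation L (β : L)) :
    ∃ y : Kˣ, ∀ w : HeightOneSpectrum (𝓞 L), w ∉ primesT L T →
      w.valuation L (algebraMap K L (y : K)) = w.valuation L (β : L) := by
  have hn : finrank K L ≠ 0 := Module.finrank_pos.ne'
  have hz0 : Algebra.norm K (β : L) ≠ 0 := by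
    rw [Ne, Algebra.norm_eq_zero_iff]
    exact β.ne_zero
  set z : Kˣ := Units.mk0 _ hz0 with hz
  -- the key relation
  have key : ∀ w : HeightOneSpectrum (𝓞 L), w ∉ primesT L T →
      (w.under (𝓞 K)).valuation K (z : K) = w.valuation L (β : L) ^ finrank K L := by
    intro w hw
    rw [← valuation_algebraMap_of_unramified K L T hunr w hw, hz, Units.val_mk0]
    exact valuation_norm_of_invariant K L β w (fun σ => hβ σ w hw)
  choose wOf hwOf using exists_over K L
  obtain ⟨y, hy⟩ := exists_of_valuations K T hcl (finite_valuation_ne_one K z).toFinset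
    (fun v => log ((wOf v).valuation L (β : L)))
  refine ⟨y, ?_⟩
  intro w hw
  have hwK : w.under (𝓞 K) ∉ primesT K T := fun h => hw ((mem_primesT_iff_under K L T w).mpr h)
  rw [valuation_algebraMap_of_unramified K L T hunr w hw, hy _ hwK]
  have hβ0 : w.valuation L (β : L) ≠ 0 := by
    rw [Ne, Valuation.zero_iff]; exact β.ne_zero
  by_cases hS : w.under (𝓞 K) ∈ (finite_valuation_ne_one K z).toFinset
  · rw [if_pos hS]
    have hw' : wOf (w.under (𝓞 K)) ∉ primesT L T := by
      rw [mem_primesT_iff_under K L T, hwOf]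
      exact hwK
    have h1 := key _ hw'
    rw [hwOf, key w hw] at h1
    have h2 : w.valuation L (β : L) = (wOf (w.under (𝓞 K))).valuation L (β : L) :=
      (pow_left_inj₀ zero_le zero_le hn).mp h1
    rw [← h2, exp_log hβ0]
  · rw [if_neg hS]
    rw [Set.Finite.mem_toFinset, Set.mem_ofPred_eq, not_not, key w hw] at hS
    exact ((pow_eq_one_iff_of_nonneg zero_le hn).mp hS).symm

theorem mem_tUnits_iff (x : Lˣ) :
    x ∈ TUnits L T ↔ ∀ w : HeightOneSpectrum (𝓞 L), w ∉ primesT L T →
      w.valuation L (x : L) = 1 := by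
  rw [tUnits_eq]
  constructor
  · intro h w hw
    exact h w (by simpa using hw)
  · intro h w hw
    exact h w (by simpa using hw)

/-- **H1E**, multiplicative form: every 1-cocycle of `Gal(L/K)` in the `T`-units is a
coboundary, if `L/K` is unramified outside `T` and `Cl_T(K) = 1`. -/
theorem isMulCoboundary₁_tUnits [IsGalois K L] (hunr : UnramifiedOutsideT K L T)
    (hcl : ClTrivial K T) (f : (L ≃ₐ[K] L) → TUnits L T) (hf : groupCohomology.IsMulCocycle₁ f) :
    groupCohomology.IsMulCoboundary₁ f := by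
  have hf' : groupCohomology.IsMulCocycle₁ (fun g => ((f g : TUnits L T) : Lˣ)) := by
    intro g h
    have := congrArg (fun u : TUnits L T => (u : Lˣ)) (hf g h)
    exact this
  obtain ⟨β, hβ0⟩ := groupCohomology.isMulCoboundary₁_of_isMulCocycle₁_of_aut_to_units _ hf'
  have hβ : ∀ g : L ≃ₐ[K] L, g • β / β = (f g : Lˣ) := hβ0
  have hinv : ∀ σ : L ≃ₐ[K] L, ∀ w : HeightOneSpectrum (𝓞 L), w ∉ primesT L T →
      w.valuation L (σ (β : L)) = w.valuation L (β : L) := by
    intro σ w hw
    have h1 := (mem_tUnits_iff L T _).mp (f σ).2 w hw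
    rw [← hβ σ] at h1
    have h2 : ((σ • β / β : Lˣ) : L) = σ (β : L) / (β : L) := by
      rw [Units.val_div_eq_div_val]
      rfl
    rw [h2, map_div₀, div_eq_one_iff_eq] at h1
    · exact h1
    · rw [Ne, Valuation.zero_iff]; exact β.ne_zero
  obtain ⟨y, hy⟩ := exists_base_of_invariant K L T hunr hcl β hinv
  set y' : Lˣ := Units.map (algebraMap K L : K →* L) y with hy'
  have hy'val : ((y' : Lˣ) : L) = algebraMap K L (y : K) := rfl
  have hfix : ∀ σ : L ≃ₐ[K] L, σ • y' = y' := by
    intro σ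
    apply Units.ext
    change σ (algebraMap K L (y : K)) = algebraMap K L (y : K)
    exact σ.commutes _
  have he : β / y' ∈ TUnits L T := by
    rw [mem_tUnits_iff]
    intro w hw
    rw [Units.val_div_eq_div_val, map_div₀, hy'val, hy w hw, div_self]
    rw [Ne, Valuation.zero_iff]; exact β.ne_zero
  refine ⟨⟨β / y', he⟩, ?_⟩
  intro g
  apply Subtype.ext
  change g • (β / y') / (β / y') = (f g : Lˣ)
  rw [← hβ g, smul_div', hfix g]
  rw [div_div_div_cancel_right]

theorem stmt_H1Units : Stmt_H1Units := by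
  intro p K L _ _ _ _ _ T hadm
  have hgal := hadm.gal
  have hcl : ClTrivial K T := hadm.cl K
  have hunr := hadm.unr
  suffices h : ∀ a : groupCohomology.H1 (repE K L T), a = 0 from
    ⟨fun a b => by rw [h a, h b]⟩
  intro a
  refine groupCohomology.H1_induction_on a fun x => (groupCohomology.H1π_eq_zero_iff _).2 ?_
  refine (groupCohomology.coboundariesOfIsMulCoboundary₁ ?_).2
  exact isMulCoboundary₁_tUnits K L T hunr hcl _
    (groupCohomology.isMulCocycle₁_of_mem_cocycles₁ _ x.2)

end unram2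

end Fermat.Agent.S55.CFT.H12

end
-- ==== END Fermat.Agent.S55.CFT.H12_H1Units

-- ==== BEGIN Fermat.Agent.S55.CFT.H13_H3UFund
section

set_option autoImplicit false
set_option linter.unusedSectionVars false
set_option linter.unusedVariables false
set_option linter.style.haveILetI false

noncomputable section

namespace Fermat.Agent.S55.CFT.H13

open CategoryTheory groupCohomology Fermat.Agent.S55.CFT

section Generic

universe u

variable {k G : Type u} [CommRing k] [Group G] (A B : Rep k G) (π : B ⟶ A) (S' : Subgroup G)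
  [S'.Normal]

/-- Inflation from `G ⧸ S'` commutes with a morphism of coefficients, on cocycles. -/
theorem inf_map_cocycle (c : cocycles₂ (A.quotientToInvariants S'))
    (d : cocycles₂ (B.quotientToInvariants S'))
    (h : ∀ g h : G, ((c (QuotientGroup.mk g, QuotientGroup.mk h) :
        (A.quotientToInvariants S')) : A.V) =
      π.hom ((d (QuotientGroup.mk g, QuotientGroup.mk h) : (B.quotientToInvariants S')) : B.V)) :
    (H24.inf₂ A S').hom (H2π (A.quotientToInvariants S') c) =
      (groupCohomology.map (MonoidHom.id G) π 2).hom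
        ((H24.inf₂ B S').hom (H2π (B.quotientToInvariants S') d)) := by
  have e1 : (H24.inf₂ A S').hom (H2π (A.quotientToInvariants S') c) =
      H2π A (mapCocycles₂ (QuotientGroup.mk' S')
        (Rep.ofHom <| A.ρ.quotientToInvariants_lift S') c) :=
    H2π_comp_map_apply _ _ c
  have e2 : (H24.inf₂ B S').hom (H2π (B.quotientToInvariants S') d) =
      H2π B (mapCocycles₂ (QuotientGroup.mk' S')
        (Rep.ofHom <| B.ρ.quotientToInvariants_lift S') d) :=
    H2π_comp_map_apply _ _ d
  have e3 : (groupCohomology.map (MonoidHom.id G) π 2).hom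
      (H2π B (mapCocycles₂ (QuotientGroup.mk' S')
        (Rep.ofHom <| B.ρ.quotientToInvariants_lift S') d)) =
      H2π A (mapCocycles₂ (MonoidHom.id G) π (mapCocycles₂ (QuotientGroup.mk' S')
        (Rep.ofHom <| B.ρ.quotientToInvariants_lift S') d)) :=
    H2π_comp_map_apply _ _ _
  rw [e1, e2, e3]
  congr 1
  apply Subtype.ext
  funext q
  obtain ⟨g, h'⟩ := q
  exact h g h'

end Generic

variable {Γ : Type} [Group Γ] [Finite Γ] (A : Rep.{0} ℤ Γ) (S S' : Subgroup Γ)
  [S.Normal] [S'.Normal]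

/-- The inflation from `Γ ⧸ S'` of the cyclic cocycle with value `π b` is the image under `π` of
the inflation of the cyclic cocycle with value `b`. -/
theorem inf_cyc_lift (B : Rep.{0} ℤ Γ) (π : B ⟶ A) {σ : Γ ⧸ S'} {n' : ℕ} {e' : Γ ⧸ S' → ℕ}
    (he' : DLog (Γ ⧸ S') σ n' e')
    (b' : (B.quotientToInvariants S').V) (hb' : ∀ x, (B.quotientToInvariants S').ρ x b' = b')
    (a' : (A.quotientToInvariants S').V) (ha' : ∀ x, (A.quotientToInvariants S').ρ x a' = a')
    (hab : π.hom (b' : B.V) = (a' : A.V))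
    (c' : cocycles₂ (A.quotientToInvariants S'))
    (hc' : (c' : (Γ ⧸ S') × (Γ ⧸ S') → (A.quotientToInvariants S').V) =
        cyc (A.quotientToInvariants S') n' e' a') :
    ∃ y : groupCohomology B 2,
      (H24.inf₂ A S').hom (H2π (A.quotientToInvariants S') c') =
        (groupCohomology.map (MonoidHom.id Γ) π 2).hom y := by
  obtain ⟨d', hd'⟩ : ∃ d' : cocycles₂ (B.quotientToInvariants S'),
      (d' : (Γ ⧸ S') × (Γ ⧸ S') → (B.quotientToInvariants S').V) =
        cyc (B.quotientToInvariants S') n' e' b' :=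
    ⟨⟨_, cyc_mem_cocycles₂ (B.quotientToInvariants S') he' b' hb'⟩, rfl⟩
  refine ⟨(H24.inf₂ B S').hom (H2π (B.quotientToInvariants S') d'), ?_⟩
  apply inf_map_cocycle A B π S' c' d'
  intro g h
  have h4 : c' (QuotientGroup.mk g, QuotientGroup.mk h) =
      cyc (A.quotientToInvariants S') n' e' a' (QuotientGroup.mk g, QuotientGroup.mk h) :=
    congrFun hc' _
  have h5 : d' (QuotientGroup.mk g, QuotientGroup.mk h) =
      cyc (B.quotientToInvariants S') n' e' b' (QuotientGroup.mk g, QuotientGroup.mk h) :=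
    congrFun hd' _
  rw [h4, h5, cyc_apply, cyc_apply, Submodule.coe_smul_of_tower, Submodule.coe_smul_of_tower,
    map_nsmul, hab]

theorem fund_abstract_lift (B : Rep.{0} ℤ Γ) (π : B ⟶ A)
    (hcyc : IsCyclic (Γ ⧸ S')) (hint : S ⊓ S' = ⊥)
    (hS : Subsingleton (groupCohomology (resSub A S) 1))
    (hS' : Subsingleton (groupCohomology (resSub A S') 1))
    (b : B.V) (hb : ∀ g : Γ, B.ρ g b = b) (P : ℕ)
    [Fintype (Γ ⧸ S')] [Fintype S]
    (h1 : ∀ k : ℕ, (∃ c : (A.quotientToInvariants S').V,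
        k • π.hom b = ((∑ x : Γ ⧸ S', (A.quotientToInvariants S').ρ x c :
          (A.quotientToInvariants S').V) : A.V)) → P ∣ k)
    (h2 : ∃ c : A.V, π.hom b = ∑ s : S, A.ρ (s : Γ) c) :
    ∃ γ : groupCohomology (A.quotientToInvariants S) 2, (∀ k : ℕ, k • γ = 0 → P ∣ k) ∧
      ∃ y : groupCohomology B 2,
        (H24.inf₂ A S).hom γ = (groupCohomology.map (MonoidHom.id Γ) π 2).hom y := by
  classical
  obtain ⟨a, hadef⟩ : ∃ a : A.V, a = π.hom b := ⟨_, rfl⟩
  rw [← hadef] at h1 h2
  have ha : ∀ g : Γ, A.ρ g a = a := by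
    intro g
    rw [hadef, ← Rep.hom_comm_apply, hb g]
  obtain ⟨σ, hσ⟩ := IsCyclic.exists_generator (α := Γ ⧸ S')
  obtain ⟨e', he'⟩ := exists_dlog σ hσ
  obtain ⟨n', hn'⟩ : ∃ n', n' = Nat.card (Γ ⧸ S') := ⟨_, rfl⟩
  rw [← hn'] at he'
  obtain ⟨a', ha'def⟩ : ∃ a' : (A.quotientToInvariants S').V, (a' : A.V) = a :=
    ⟨⟨a, fun s => ha s⟩, rfl⟩
  have ha' : ∀ x : Γ ⧸ S', (A.quotientToInvariants S').ρ x a' = a' := by
    intro x
    induction x using QuotientGroup.induction_on with
    | H g =>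
      apply Subtype.ext
      show A.ρ g (a' : A.V) = (a' : A.V)
      rw [ha'def]
      exact ha g
  obtain ⟨b', hb'def⟩ : ∃ b' : (B.quotientToInvariants S').V, (b' : B.V) = b :=
    ⟨⟨b, fun s => hb s⟩, rfl⟩
  have hb' : ∀ x : Γ ⧸ S', (B.quotientToInvariants S').ρ x b' = b' := by
    intro x
    induction x using QuotientGroup.induction_on with
    | H g =>
      apply Subtype.ext
      show B.ρ g (b' : B.V) = (b' : B.V)
      rw [hb'def]
      exact hb g
  obtain ⟨c', hc'⟩ : ∃ c' : cocycles₂ (A.quotientToInvariants S'),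
      (c' : (Γ ⧸ S') × (Γ ⧸ S') → (A.quotientToInvariants S').V) =
        cyc (A.quotientToInvariants S') n' e' a' :=
    ⟨⟨_, cyc_mem_cocycles₂ (A.quotientToInvariants S') he' a' ha'⟩, rfl⟩
  obtain ⟨y₀, hy₀⟩ := inf_cyc_lift A S' B π he' b' hb' a' ha'
    (by rw [hb'def, ha'def, hadef]) c' hc'
  obtain ⟨y, hy⟩ : ∃ y : groupCohomology (A.quotientToInvariants S') 2,
      y = H2π (A.quotientToInvariants S') c' := ⟨_, rfl⟩
  obtain ⟨x, hx⟩ : ∃ x : groupCohomology A 2, x = (H24.inf₂ A S').hom y := ⟨_, rfl⟩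
  -- Step B: the restriction of `x` to `S` vanishes
  have hres : (H24.res₂ A S).hom x = 0 := by
    obtain ⟨f, hf1, hf2⟩ := res_inf_cocycle A S S' c'
    rw [hx, hy, hf1]
    refine (H2π_eq_zero_iff _).mpr ?_
    -- the cyclic structure on `S`
    obtain ⟨π', hπdef⟩ : ∃ π' : S →* Γ ⧸ S', π' = (QuotientGroup.mk' S').comp S.subtype :=
      ⟨_, rfl⟩
    have hπ : Function.Injective π' := by
      rw [injective_iff_map_eq_one]
      intro s hs
      rw [hπdef] at hs
      have h1 : (s : Γ) ∈ S' := (QuotientGroup.eq_one_iff (s : Γ)).mp hs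
      have h2 : (s : Γ) ∈ S ⊓ S' := ⟨s.2, h1⟩
      rw [hint, Subgroup.mem_bot] at h2
      exact Subtype.ext h2
    obtain ⟨τ, e'', d, he'', hd, hrel⟩ := exists_dlog_sub he' π' hπ
    have hd0 : 0 < d := by
      rcases Nat.eq_zero_or_pos d with h0 | h0
      · rw [h0, zero_mul] at hd
        exact absurd hd he'.pos.ne'
      · exact h0
    obtain ⟨b₀, hb₀⟩ := h2
    have hnorm : a = pnorm (Rep.res S.subtype A) τ b₀ (Nat.card S) := by
      rw [pnorm_eq_sum (B := Rep.res S.subtype A) he'' b₀]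
      exact hb₀
    have hcob := cyc_mem_coboundaries₂_of_norm (Rep.res S.subtype A) he'' b₀
    rw [← hnorm] at hcob
    have hfun : (f : S × S → A.V) = cyc (Rep.res S.subtype A) (Nat.card S) e'' a := by
      funext q
      obtain ⟨s, t⟩ := q
      rw [hf2 s t]
      have h4 : c' (QuotientGroup.mk (s : Γ), QuotientGroup.mk (t : Γ)) =
          cyc (A.quotientToInvariants S') n' e' a'
            (QuotientGroup.mk (s : Γ), QuotientGroup.mk (t : Γ)) := congrFun hc' _
      rw [h4, cyc_apply, cyc_apply]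
      have h5 : e' (QuotientGroup.mk (s : Γ)) = d * e'' s := by
        have := hrel s
        rw [hπdef] at this
        exact this
      have h6 : e' (QuotientGroup.mk (t : Γ)) = d * e'' t := by
        have := hrel t
        rw [hπdef] at this
        exact this
      rw [h5, h6, hd, ← Nat.mul_add, Nat.mul_div_mul_left _ _ hd0]
      rw [Submodule.coe_smul_of_tower, ha'def]
    rw [hfun]
    exact hcob
  -- Step C: `x` is inflated from `Γ ⧸ S`
  obtain ⟨γ, hγ⟩ := (H24.res₂_eq_zero_iff A S hS x).mp hres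
  refine ⟨γ, fun k hk => ?_, y₀, ?_⟩
  · -- Step D: the order
    have hkx : k • x = 0 := by
      have : (H24.inf₂ A S).hom (k • γ) = k • (H24.inf₂ A S).hom γ := map_nsmul _ _ _
      rw [hk, map_zero] at this
      rw [← hγ]
      exact this.symm
    have hky : k • y = 0 := by
      apply H24.inf₂_injective A S' hS'
      have : (H24.inf₂ A S').hom (k • y) = k • (H24.inf₂ A S').hom y := map_nsmul _ _ _
      rw [← hx, hkx] at this
      rw [map_zero]
      exact this
    have hkc : H2π (A.quotientToInvariants S') (k • c') = 0 := by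
      have e : (H2π (A.quotientToInvariants S')).hom (k • c') =
          k • (H2π (A.quotientToInvariants S')).hom c' := map_nsmul _ _ _
      have e2 : k • (H2π (A.quotientToInvariants S')).hom c' = 0 := by
        have e3 : (H2π (A.quotientToInvariants S')).hom c' = y := hy.symm
        rw [e3]
        exact hky
      exact e.trans e2
    rw [H2π_eq_zero_iff] at hkc
    have hkc' : cyc (A.quotientToInvariants S') n' e' (k • a') ∈
        coboundaries₂ (A.quotientToInvariants S') := by
      rw [cyc_nsmul, ← hc']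
      exact hkc
    obtain ⟨b'', hb''⟩ :=
      norm_of_cyc_mem_coboundaries₂ (A.quotientToInvariants S') he' (k • a') hkc'
    apply h1 k
    refine ⟨b'', ?_⟩
    rw [← pnorm_eq_sum he' b'', ← hb'', Submodule.coe_smul_of_tower, ha'def]
  · have h3 : (H24.inf₂ A S).hom γ = x := hγ
    rw [h3, hx, hy]
    exact hy₀

end Fermat.Agent.S55.CFT.H13

end
end
-- ==== END Fermat.Agent.S55.CFT.H13_H3UFund

-- ==== BEGIN Fermat.Agent.S55.CFT.H13_TateFun
section

/-!
# S55-E4 package TN-2, helper13: `Hⁿ(H, Fun(G, ℤ)) = 0` for `n ≥ 1`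

`Fun(G, ℤ)` restricted to `H` is coinduced from the trivial subgroup (choose a transversal), so
Shapiro's lemma (Mathlib) applies.  Also `H¹(H, ℤ) = 0` for finite `H`.
-/

set_option autoImplicit false
set_option linter.unusedSectionVars false
set_option linter.unusedVariables false
set_option linter.style.haveILetI false

noncomputable section

namespace Fermat.Agent.S55.CFT.H13

open CategoryTheory groupCohomology Limits Fermat.Agent.S55.CFT Fermat.Agent.S55.CFT.H12

section Fun

variable {G : Type} [Group G] [Fintype G] (H : Subgroup G) (T : Set G)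

/-- The trivial module `Fun(T, ℤ)` of the trivial subgroup of `H`. -/
abbrev botMod : Rep.{0} ℤ (⊥ : Subgroup H) := Rep.trivial ℤ (⊥ : Subgroup H) (T → ℤ)

/-- `x ↦ (h ↦ t ↦ x (h⁻¹ t))`. -/
def funToCoind :
    (G → ℤ) →ₗ[ℤ] Representation.coindV (⊥ : Subgroup H).subtype (botMod H T).ρ where
  toFun x := ⟨fun h t => x ((h : G)⁻¹ * (t : G)), by
    rw [Representation.mem_coindV]
    intro s h
    have hs : (s : H) = 1 := Subgroup.mem_bot.mp s.2
    show (fun t : T => x ((((⊥ : Subgroup H).subtype s * h : H) : G)⁻¹ * (t : G))) =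
      fun t : T => x ((h : G)⁻¹ * (t : G))
    rw [Subgroup.subtype_apply, hs, one_mul]⟩
  map_add' a b := rfl
  map_smul' c a := rfl

theorem funToCoind_apply (x : G → ℤ) (h : H) (t : T) :
    ((funToCoind H T x : Representation.coindV (⊥ : Subgroup H).subtype (botMod H T).ρ) :
      H → T → ℤ) h t = x ((h : G)⁻¹ * (t : G)) := rfl

variable {H T}

theorem funToCoind_bijective (hT : Subgroup.IsComplement (H : Set G) T) :
    Function.Bijective (funToCoind H T) := by
  constructor
  · rw [← LinearMap.ker_eq_bot, LinearMap.ker_eq_bot']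
    intro x hx
    funext g
    obtain ⟨⟨h, t⟩, hht, -⟩ := hT.existsUnique g
    have h1 := congrArg (fun u : Representation.coindV (⊥ : Subgroup H).subtype (botMod H T).ρ =>
      (u : H → T → ℤ) h⁻¹ t) hx
    have h2 : x (((h⁻¹ : H) : G)⁻¹ * (t : G)) = 0 := h1
    rw [Subgroup.coe_inv, inv_inv] at h2
    have h3 : (h : G) * (t : G) = g := hht
    rw [h3] at h2
    exact h2
  · intro f
    refine ⟨fun g => (f : H → T → ℤ) ((hT.equiv g).1)⁻¹ (hT.equiv g).2, ?_⟩
    apply Subtype.ext
    funext h t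
    rw [funToCoind_apply]
    have h1 : hT.equiv ((h : G)⁻¹ * (t : G)) = (h⁻¹, t) := by
      rw [← Equiv.eq_symm_apply]
      rfl
    show (f : H → T → ℤ) ((hT.equiv ((h : G)⁻¹ * (t : G))).1)⁻¹ (hT.equiv ((h : G)⁻¹ * (t : G))).2
      = (f : H → T → ℤ) h t
    rw [h1, inv_inv]

/-- `Fun(G, ℤ)` restricted to `H` is coinduced from the trivial subgroup. -/
theorem fun_iso_coind (hT : Subgroup.IsComplement (H : Set G) T) :
    Nonempty (resSub (funR G) H ≅ Rep.coind (⊥ : Subgroup H).subtype (botMod H T)) := by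
  refine ⟨Rep.mkIso (Representation.Equiv.mk
    (LinearEquiv.ofBijective (funToCoind H T) (funToCoind_bijective hT)) (fun g => ?_))⟩
  apply LinearMap.ext
  intro x
  apply Subtype.ext
  funext h t
  show (funRep G (g : G) x) ((h : G)⁻¹ * (t : G)) = x (((h * g : H) : G)⁻¹ * (t : G))
  rw [funRep_apply, Subgroup.coe_mul, mul_inv_rev, mul_assoc]

variable (H)

/-- `Hⁿ⁺¹(H, Fun(G, ℤ)) = 0`. -/
theorem isZero_fun (n : ℕ) : IsZero (groupCohomology (resSub (funR G) H) (n + 1)) := by
  obtain ⟨T, hT, -⟩ := Subgroup.exists_isComplement_right H (1 : G)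
  obtain ⟨e⟩ := fun_iso_coind hT
  have h0 : IsZero (groupCohomology (botMod H T) (n + 1)) :=
    isZero_groupCohomology_succ_of_subsingleton (botMod H T) n
  have h1 : IsZero (groupCohomology (Rep.coind (⊥ : Subgroup H).subtype (botMod H T)) (n + 1)) :=
    h0.of_iso (coindIso (botMod H T) (n + 1))
  exact h1.of_iso ((groupCohomology.functor ℤ H (n + 1)).mapIso e)

end Fun

end Fermat.Agent.S55.CFT.H13

end
end
-- ==== END Fermat.Agent.S55.CFT.H13_TateFun

-- ==== BEGIN Fermat.Agent.S55.CFT.H19_PermCoh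
section

set_option autoImplicit false
set_option linter.unusedSectionVars false
set_option linter.unusedVariables false

noncomputable section

namespace Fermat.Agent.S55.CFT.H19

open CategoryTheory CategoryTheory.Limits groupCohomology Fermat.Agent.S55.CFT.H58

variable (k G : Type) [CommRing k] [Group G]

/-! ### Permutation modules -/

section perm

variable (X : Type) [MulAction G X]

/-- The permutation representation on `X →₀ k`: `(g • f) x = f (g⁻¹ • x)`. -/
def permRep : Representation k G (X →₀ k) where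
  toFun g := (Finsupp.domLCongr (MulAction.toPerm g)).toLinearMap
  map_one' := by
    ext x y
    simp [Finsupp.domLCongr_apply, Finsupp.domCongr_apply, Finsupp.equivMapDomain_apply]
  map_mul' g h := by
    ext x y
    simp [Finsupp.domLCongr_apply, Finsupp.domCongr_apply, Finsupp.equivMapDomain_apply, mul_smul]

variable {k G X}

@[simp] lemma permRep_apply (g : G) (f : X →₀ k) (x : X) :
    _root_.Fermat.Agent.S55.CFT.H19.permRep k G X g f x = f (g⁻¹ • x) := rfl

variable (k G X)

/-- The permutation module `X →₀ k` as an object of `Rep k G`. -/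
abbrev PermObj : Rep.{0} k G := Rep.of (_root_.Fermat.Agent.S55.CFT.H19.permRep k G X)

/-- Restriction of a finitely supported function to an orbit. -/
def resOrb (ω : MulAction.orbitRel.Quotient G X) :
    PermObj k G X ⟶ FunObj (Rep.trivial k G k) ω.orbit :=
  Rep.ofHom (ρ := _root_.Fermat.Agent.S55.CFT.H19.permRep k G X) (σ := funRep (Rep.trivial k G k) ω.orbit)
    ⟨{ toFun := fun f y => f (y : X)
       map_add' := fun _ _ => rfl
       map_smul' := fun _ _ => rfl }, fun h => by
      ext f y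
      rfl⟩

variable {k G X}

@[simp] lemma resOrb_apply (ω : MulAction.orbitRel.Quotient G X) (f : X →₀ k) (y : ω.orbit) :
    (resOrb k G X ω).hom f y = f (y : X) := rfl

end perm

/-! ### Odd cohomology of a cyclic group with trivial action -/

section cyclic

variable {k}

theorem isZero_odd_of_trivial {D : Type} [Group D] [Fintype D] (A : Rep.{0} k D) (g : D)
    (hg : ∀ x, x ∈ Subgroup.zpowers g) (hρ : ∀ (d : D) (a : A.V), A.ρ d a = a)
    (htf : ∀ a : A.V, Fintype.card D • a = 0 → a = 0) (i : ℕ) (hi : Odd i) :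
    IsZero (groupCohomology A i) := by
  have h1 := H12.card_odd A g hg i hi
  have hker : LinearMap.ker A.ρ.norm = ⊥ := by
    rw [LinearMap.ker_eq_bot']
    intro a ha
    apply htf
    rw [← ha]
    simp [Representation.norm, hρ]
  have h2 : Nat.card (groupCohomology A i) = 1 := by
    rw [h1, hker]
    exact AddSubgroup.relIndex_bot_right _
  have h3 := (Nat.card_eq_one_iff_unique.1 h2).1
  exact ModuleCat.isZero_of_subsingleton _

end cyclic

/-! ### Functions on a transitive `G`-set -/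

section transitive

variable {k G}

/-- Transport of `Fun(X, A)` along an equivariant bijection. -/
def funObjCongr (A : Rep.{0} k G) {X Y : Type} [MulAction G X] [MulAction G Y] (e : X ≃ Y)
    (he : ∀ (g : G) (x : X), e (g • x) = g • e x) : FunObj A Y ≅ FunObj A X :=
  Rep.mkIso (Representation.Equiv.mk (LinearEquiv.funCongrLeft k A.V e) (fun g => by
    ext φ x
    show A.ρ g (φ (g⁻¹ • e x)) = A.ρ g (φ (e (g⁻¹ • x)))
    rw [he]))

theorem isZero_funObj_of_pretransitive [Finite G] (hk : ∀ (m : ℕ) (a : k), m ≠ 0 → m • a = 0 → a = 0)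
    (Y : Type) [MulAction G Y] [MulAction.IsPretransitive G Y] (y₀ : Y)
    (hcyc : IsCyclic (MulAction.stabilizer G y₀)) (i : ℕ) (hi : Odd i) :
    IsZero (groupCohomology (FunObj (Rep.trivial k G k) Y) i) := by
  classical
  set S : Subgroup G := MulAction.stabilizer G y₀ with hS
  let _ : Fintype S := Fintype.ofFinite _
  obtain ⟨g, hg⟩ := hcyc.exists_generator
  have h1 : IsZero (groupCohomology (Rep.res S.subtype (Rep.trivial k G k)) i) := by
    refine isZero_odd_of_trivial _ g hg (fun d a => rfl) (fun a ha => ?_) i hi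
    exact hk _ a Fintype.card_ne_zero ha
  have h2 := isZero_funObj (Rep.trivial k G k) S i h1
  -- the equivariant bijection `G ⧸ S ≃ Y`
  have hbij : Function.Bijective (MulAction.ofQuotientStabilizer G y₀) := by
    refine ⟨MulAction.injective_ofQuotientStabilizer G y₀, fun y => ?_⟩
    obtain ⟨g, hg⟩ := MulAction.exists_smul_eq G y₀ y
    exact ⟨QuotientGroup.mk g, hg⟩
  let e : G ⧸ S ≃ Y := Equiv.ofBijective _ hbij
  have he : ∀ (g : G) (x : G ⧸ S), e (g • x) = g • e x :=
    fun g x => MulAction.ofQuotientStabilizer_smul G y₀ g x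
  exact h2.of_iso ((functor k G i).mapIso (funObjCongr (Rep.trivial k G k) e he))

end transitive

/-! ### Permutation modules with cyclic stabilizers -/

section main

variable {k G}

theorem resOrb_jointly_injective (X : Type) [MulAction G X] (f : X →₀ k)
    (hf : ∀ ω : MulAction.orbitRel.Quotient G X, (resOrb k G X ω).hom f = 0) : f = 0 := by
  ext x
  have h := congrFun (hf (Quotient.mk'' x)) ⟨x, MulAction.orbitRel.Quotient.mem_orbit.2 rfl⟩
  exact h

theorem resOrb_finite_support (X : Type) [MulAction G X] (f : X →₀ k) :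
    {ω : MulAction.orbitRel.Quotient G X | (resOrb k G X ω).hom f ≠ 0}.Finite := by
  classical
  apply (f.support.image (Quotient.mk'' : X → MulAction.orbitRel.Quotient G X)).finite_toSet.subset
  intro ω hω
  have h1 : ∃ y : MulAction.orbitRel.Quotient.orbit ω, f (y : X) ≠ 0 := by
    by_contra hcon
    apply hω
    funext y
    by_contra hy
    exact hcon ⟨y, hy⟩
  obtain ⟨y, hy⟩ := h1
  rw [Finset.mem_coe, Finset.mem_image]
  exact ⟨(y : X), Finsupp.mem_support_iff.2 hy, MulAction.orbitRel.Quotient.mem_orbit.1 y.2⟩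

theorem resOrb_glue [Finite G] (X : Type) [MulAction G X]
    (b : ∀ ω : MulAction.orbitRel.Quotient G X, (ω.orbit → k))
    (hb : {ω | b ω ≠ 0}.Finite) :
    ∃ f : X →₀ k, ∀ ω, (resOrb k G X ω).hom f = b ω := by
  classical
  let F : X → k := fun x => b (Quotient.mk'' x) ⟨x, MulAction.orbitRel.Quotient.mem_orbit.2 rfl⟩
  have hfin : (Function.support F).Finite := by
    have h1 : (⋃ ω ∈ {ω | b ω ≠ 0}, (MulAction.orbitRel.Quotient.orbit ω : Set X)).Finite := by
      refine hb.biUnion (fun ω _ => ?_)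
      induction ω using Quotient.inductionOn' with
      | h x =>
        rw [MulAction.orbitRel.Quotient.orbit_mk]
        exact Set.finite_range _
    apply h1.subset
    intro x hx
    rw [Function.mem_support] at hx
    refine Set.mem_biUnion (x := Quotient.mk'' x) ?_ (MulAction.orbitRel.Quotient.mem_orbit.2 rfl)
    intro h0
    apply hx
    show b (Quotient.mk'' x) _ = 0
    rw [h0]
    rfl
  refine ⟨Finsupp.ofSupportFinite F hfin, fun ω => ?_⟩
  funext y
  show F (y : X) = b ω y
  have haux : ∀ (ω ω' : MulAction.orbitRel.Quotient G X) (h : ω = ω') (z : X)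
      (hz : z ∈ MulAction.orbitRel.Quotient.orbit ω)
      (hz' : z ∈ MulAction.orbitRel.Quotient.orbit ω'), b ω ⟨z, hz⟩ = b ω' ⟨z, hz'⟩ := by
    intro ω ω' h
    subst h
    intro z hz hz'
    rfl
  exact haux _ _ (MulAction.orbitRel.Quotient.mem_orbit.1 y.2) (y : X) _ y.2

/-- **Odd cohomology of a permutation module with cyclic stabilizers vanishes.** -/
theorem isZero_permObj_odd [Finite G] (hk : ∀ (m : ℕ) (a : k), m ≠ 0 → m • a = 0 → a = 0)
    (X : Type) [MulAction G X] (hcyc : ∀ x : X, IsCyclic (MulAction.stabilizer G x))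
    (i : ℕ) (hi : Odd i) : IsZero (groupCohomology (PermObj k G X) i) := by
  obtain ⟨n, rfl⟩ : ∃ n, i = n + 1 := by
    obtain ⟨m, rfl⟩ := hi
    exact ⟨2 * m, rfl⟩
  have hz : ∀ ω : MulAction.orbitRel.Quotient G X,
      IsZero (groupCohomology (FunObj (Rep.trivial k G k) ω.orbit) (n + 1)) := by
    intro ω
    induction ω using Quotient.inductionOn' with
    | h x =>
      let y₀ : MulAction.orbitRel.Quotient.orbit (Quotient.mk'' x :
          MulAction.orbitRel.Quotient G X) :=
        ⟨x, MulAction.orbitRel.Quotient.mem_orbit.2 rfl⟩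
      have hst : MulAction.stabilizer G y₀ = MulAction.stabilizer G x := by
        ext g
        rw [MulAction.mem_stabilizer_iff, MulAction.mem_stabilizer_iff]
        constructor
        · intro h
          exact congrArg Subtype.val h
        · intro h
          exact Subtype.ext h
      have hc : IsCyclic (MulAction.stabilizer G y₀) := by
        rw [hst]
        exact hcyc x
      exact isZero_funObj_of_pretransitive hk _ y₀ hc (n + 1) hi
  rw [ModuleCat.isZero_iff_subsingleton]
  refine ⟨fun a b => ?_⟩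
  have h0 : ∀ y : groupCohomology (PermObj k G X) (n + 1), y = 0 := by
    intro y
    refine eq_zero_of_components (PermObj k G X)
      (fun ω => FunObj (Rep.trivial k G k) (MulAction.orbitRel.Quotient.orbit ω))
      (resOrb k G X) (resOrb_jointly_injective X) (resOrb_finite_support X)
      (fun b hb => resOrb_glue X b hb) n y (fun ω => ?_)
    exact (ModuleCat.isZero_iff_subsingleton.1 (hz ω)).elim _ _
  rw [h0 a, h0 b]

end main

end Fermat.Agent.S55.CFT.H19

end
end
-- ==== END Fermat.Agent.S55.CFT.H19_PermCoh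

-- ==== BEGIN Fermat.Agent.S55.CFT.H20_Ball
section

/-!
# S55 / E4 / CFT, leaves SI-a, SI-b (helper20): basic facts on the balls `q ^ m · R_q`

`R_q = semiLocalInt K q ⊆ ℚ_q ⊗ K`, `semiLocalBall K q m = q ^ m · R_q`.
* `tmul_mem_ball` : `‖c‖ ≤ q ^ (-m)`, `z ∈ 𝓞 K` ⟹ `c ⊗ z ∈ q ^ m · R_q`;
* the balls are additive subgroups, stable under multiplication by `R_q`.
-/

set_option autoImplicit false

open NumberField TensorProduct

noncomputable section

namespace Fermat.Agent.S55.CFT.H20

open Fermat.Agent.S55.CFT Fermat.Agent.S55.CFT.H12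

variable {K : Type} [Field K] [NumberField K] (q : Nat.Primes)

instance instFactPrimes : Fact ((q : ℕ).Prime) := fact_primes q

theorem qNorm_def (c : Qp q) : qNorm q c = ‖(c : ℚ_[(q : ℕ)])‖ := rfl

theorem natCast_semiLocal (n : ℕ) :
    ((n : ℕ) : SemiLocal K q) = ((n : ℕ) : Qp q) ⊗ₜ[ℚ] (1 : K) := by
  rw [← map_natCast (algebraMap (Qp q) (SemiLocal K q))]
  rfl

theorem natCast_pow_semiLocal (n m : ℕ) :
    ((n : ℕ) : SemiLocal K q) ^ m = (((n : ℕ) : Qp q) ^ m) ⊗ₜ[ℚ] (1 : K) := by
  rw [natCast_semiLocal, Algebra.TensorProduct.tmul_pow, one_pow]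

theorem tmul_mem_semiLocalInt {c : Qp q} (hc : qNorm q c ≤ 1) (z : 𝓞 K) :
    c ⊗ₜ[ℚ] (z : K) ∈ semiLocalInt K q :=
  Subring.subset_closure ⟨c, z, hc, rfl⟩

theorem qNorm_q : qNorm q ((q : ℕ) : Qp q) = ((q : ℕ) : ℝ)⁻¹ := Padic.norm_p

theorem q_pos : (0 : ℝ) < ((q : ℕ) : ℝ) := by exact_mod_cast q.2.pos

theorem q_ne_zero : ((q : ℕ) : Qp q) ≠ 0 := by
  intro h
  have := qNorm_q q
  rw [h, qNorm_def, norm_zero] at this
  exact (inv_pos.mpr (q_pos q)).ne this

/-- `‖c‖ ≤ q ^ (-m)`, `z ∈ 𝓞 K` ⟹ `c ⊗ z ∈ q ^ m · R_q`. -/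
theorem tmul_mem_ball {c : Qp q} {m : ℕ} (hc : qNorm q c ≤ ((q : ℕ) : ℝ) ^ (-(m : ℤ)))
    (z : 𝓞 K) : c ⊗ₜ[ℚ] (z : K) ∈ semiLocalBall K q m := by
  have hq0 := q_ne_zero q
  have hqm : (((q : ℕ) : Qp q) ^ m) ≠ 0 := pow_ne_zero _ hq0
  refine ⟨(c / ((q : ℕ) : Qp q) ^ m) ⊗ₜ[ℚ] (z : K), tmul_mem_semiLocalInt q ?_ z, ?_⟩
  · rw [qNorm_def, norm_div, norm_pow]
    have h1 : ‖(((q : ℕ) : Qp q) : ℚ_[(q : ℕ)])‖ = ((q : ℕ) : ℝ)⁻¹ := Padic.norm_p
    rw [h1, inv_pow, div_inv_eq_mul]
    have h2 : ((q : ℕ) : ℝ) ^ (-(m : ℤ)) * ((q : ℕ) : ℝ) ^ m = 1 := by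
      rw [zpow_neg, zpow_natCast, inv_mul_cancel₀ (pow_ne_zero _ (q_pos q).ne')]
    calc ‖(c : ℚ_[(q : ℕ)])‖ * ((q : ℕ) : ℝ) ^ m
        ≤ ((q : ℕ) : ℝ) ^ (-(m : ℤ)) * ((q : ℕ) : ℝ) ^ m :=
          mul_le_mul_of_nonneg_right hc (pow_nonneg (q_pos q).le _)
      _ = 1 := h2
  · rw [natCast_pow_semiLocal, Algebra.TensorProduct.tmul_mul_tmul, one_mul,
      mul_div_cancel₀ _ hqm]

theorem zero_mem_ball (m : ℕ) : (0 : SemiLocal K q) ∈ semiLocalBall K q m :=
  ⟨0, Subring.zero_mem _, by simp⟩

theorem add_mem_ball {m : ℕ} {x y : SemiLocal K q} (hx : x ∈ semiLocalBall K q m)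
    (hy : y ∈ semiLocalBall K q m) : x + y ∈ semiLocalBall K q m := by
  obtain ⟨r, hr, rfl⟩ := hx
  obtain ⟨s, hs, rfl⟩ := hy
  exact ⟨r + s, Subring.add_mem _ hr hs, by ring⟩

theorem neg_mem_ball {m : ℕ} {x : SemiLocal K q} (hx : x ∈ semiLocalBall K q m) :
    -x ∈ semiLocalBall K q m := by
  obtain ⟨r, hr, rfl⟩ := hx
  exact ⟨-r, Subring.neg_mem _ hr, by ring⟩

theorem sub_mem_ball {m : ℕ} {x y : SemiLocal K q} (hx : x ∈ semiLocalBall K q m)
    (hy : y ∈ semiLocalBall K q m) : x - y ∈ semiLocalBall K q m := by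
  rw [sub_eq_add_neg]
  exact add_mem_ball q hx (neg_mem_ball q hy)

theorem mul_mem_ball {m : ℕ} {x r : SemiLocal K q} (hx : x ∈ semiLocalBall K q m)
    (hr : r ∈ semiLocalInt K q) : x * r ∈ semiLocalBall K q m := by
  obtain ⟨s, hs, rfl⟩ := hx
  exact ⟨s * r, Subring.mul_mem _ hs hr, by ring⟩

theorem ball_mul_ball {m n : ℕ} {x y : SemiLocal K q} (hx : x ∈ semiLocalBall K q m)
    (hy : y ∈ semiLocalBall K q n) : x * y ∈ semiLocalBall K q (m + n) := by
  obtain ⟨r, hr, rfl⟩ := hx
  obtain ⟨s, hs, rfl⟩ := hy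
  exact ⟨r * s, Subring.mul_mem _ hr hs, by ring⟩

theorem ball_mono {m n : ℕ} (h : m ≤ n) {x : SemiLocal K q} (hx : x ∈ semiLocalBall K q n) :
    x ∈ semiLocalBall K q m := by
  obtain ⟨r, hr, rfl⟩ := hx
  obtain ⟨d, rfl⟩ := Nat.exists_eq_add_of_le h
  refine ⟨((q : ℕ) : SemiLocal K q) ^ d * r, Subring.mul_mem _ ?_ hr, by ring⟩
  exact Subring.pow_mem _ (natCast_mem _ _) _

theorem mem_ball_zero_iff {x : SemiLocal K q} : x ∈ semiLocalBall K q 0 ↔ x ∈ semiLocalInt K q := by
  constructor
  · rintro ⟨r, hr, rfl⟩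
    simpa using hr
  · intro h
    exact ⟨x, h, by simp⟩

end Fermat.Agent.S55.CFT.H20

end
end
-- ==== END Fermat.Agent.S55.CFT.H20_Ball

-- ==== BEGIN Fermat.Agent.S55.CFT.H31_SIRay
section

/-!
# S55/E4, package SI'' (helper31): the ray map attached to a homomorphism `d : Kˣ → G`

`K` a number field with `Cl_T(K) = 1`, `d : Kˣ →* G` trivial on the `T`-units.  Every nonzero ideal
`I` of `𝓞 K` is `(b/a) J` with `J` supported on `T`; `rayVal I := d (b/a)` is well defined and
multiplicative.  If `d` is trivial on the integers `≡ 1 mod (∏ T)^N` and every element of `G` is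
`d b` for some nonzero integer `b`, then `rayVal` is a ray class map mod `(∏ T)^N`
(`Fermat.Agent.Lib.SecondIneq.IsRayMap`).
-/

set_option autoImplicit false
set_option linter.unusedSectionVars false

open NumberField Ideal

noncomputable section

namespace Fermat.Agent.S55.CFT.H31

open Fermat.Agent.S55.CFT Fermat.Agent.Lib.SecondIneq

/-- Every nonzero ideal is the product of an ideal prime to `m` and an ideal dividing a power of
`m`. -/
theorem exists_coprime_mul_dvd_pow {R : Type*} [CommRing R] [IsDedekindDomain R]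
    (𝔪 : Ideal R) (𝔞 : Ideal R) (h𝔞 : 𝔞 ≠ ⊥) :
    ∃ (I J : Ideal R) (n : ℕ), 𝔞 = I * J ∧ IsCoprime I 𝔪 ∧ J ∣ 𝔪 ^ n := by
  induction 𝔞 using UniqueFactorizationMonoid.induction_on_prime with
  | h₁ => exact absurd rfl h𝔞
  | h₂ x hx =>
    have hx' : x = ⊤ := by
      rwa [Ideal.isUnit_iff] at hx
    subst hx'
    exact ⟨⊤, ⊤, 0, by simp, by rw [Ideal.isCoprime_iff_sup_eq]; simp, by simp⟩
  | h₃ a p ha0 hp ih =>
    obtain ⟨I, J, n, hIJ, hI, hJ⟩ := ih ha0
    by_cases hpm : p ∣ 𝔪
    · refine ⟨I, p * J, n + 1, ?_, hI, ?_⟩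
      · rw [hIJ]; ring
      · have := mul_dvd_mul hpm hJ
        rwa [← pow_succ'] at this
    · refine ⟨p * I, J, n, ?_, ?_, hJ⟩
      · rw [hIJ]; ring
      · refine IsCoprime.mul_left ?_ hI
        have hp' : p.IsPrime := Ideal.isPrime_of_prime hp
        have hpmax : p.IsMaximal := hp'.isMaximal hp.ne_zero
        rw [Ideal.isCoprime_iff_sup_eq]
        by_contra htop
        have h := hpmax.eq_of_le htop le_sup_left
        apply hpm
        rw [Ideal.dvd_iff_le, h]
        exact le_sup_right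

variable (K : Type) [Field K] [NumberField K] (T : Finset Nat.Primes)

/-- The ideal generated by `∏ T`. -/
abbrev idealT : Ideal (𝓞 K) := Ideal.span {((prodT T : ℤ) : 𝓞 K)}

/-- The unit `b / a` of `K`. -/
def fracUnit (a b : 𝓞 K) (ha : a ≠ 0) (hb : b ≠ 0) : Kˣ :=
  Units.mk0 ((b : K) / (a : K))
    (div_ne_zero (by simpa using hb) (by simpa using ha))

@[simp] lemma fracUnit_val (a b : 𝓞 K) (ha : a ≠ 0) (hb : b ≠ 0) :
    ((fracUnit K a b ha hb : Kˣ) : K) = (b : K) / (a : K) := rfl

lemma prodT_mem_of_dvd {J : Ideal (𝓞 K)} {n : ℕ} (hJ : J ∣ idealT K T ^ n) :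
    (((prodT T : ℤ) : 𝓞 K)) ^ n ∈ J := by
  have h1 : idealT K T ^ n ≤ J := Ideal.le_of_dvd hJ
  apply h1
  rw [idealT, Ideal.span_singleton_pow]
  exact Ideal.mem_span_singleton_self _

/-- Half of the comparison of two representations. -/
lemma isIntegral_of_rep {a b a' b' : 𝓞 K} {J J' : Ideal (𝓞 K)} {n : ℕ}
    (ha : a ≠ 0) (hb' : b' ≠ 0) (hJ : J ∣ idealT K T ^ n)
    (h : Ideal.span {a' * b} * J = Ideal.span {a * b'} * J') :
    IsIntegral ℤ (((prodT T : ℕ) : K) ^ n * (((b : K) / (a : K)) / ((b' : K) / (a' : K)))) := by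
  have hmem : a' * b * (((prodT T : ℤ) : 𝓞 K)) ^ n ∈ Ideal.span {a' * b} * J :=
    Ideal.mul_mem_mul (Ideal.mem_span_singleton_self _) (prodT_mem_of_dvd K T hJ)
  rw [h] at hmem
  have hmem' : a' * b * (((prodT T : ℤ) : 𝓞 K)) ^ n ∈ Ideal.span {a * b'} :=
    (Ideal.mul_le_left (I := Ideal.span {a * b'}) (J := J')) hmem
  obtain ⟨c, hc⟩ := Ideal.mem_span_singleton'.mp hmem'
  have haK : (a : K) ≠ 0 := by simpa using ha
  have hbK : (b' : K) ≠ 0 := by simpa using hb'
  have hcK : (c : K) * ((a : K) * (b' : K)) = (a' : K) * (b : K) * ((prodT T : ℕ) : K) ^ n := by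
    have := congrArg (fun z : 𝓞 K => (z : K)) hc
    simpa using this
  have heq : ((prodT T : ℕ) : K) ^ n * (((b : K) / (a : K)) / ((b' : K) / (a' : K))) = (c : K) := by
    rw [div_div_div_eq, ← mul_div_assoc, div_eq_iff (mul_ne_zero haK hbK), hcK]
    ring
  rw [heq]
  exact c.isIntegral_coe

/-- Two representations `(a) I = (b) J`, `(a') I = (b') J'` differ by a `T`-unit. -/
lemma fracUnit_div_mem_TUnits {I : Ideal (𝓞 K)} {a b a' b' : 𝓞 K}
    {J J' : Ideal (𝓞 K)} {n n' : ℕ}
    (ha : a ≠ 0) (hb : b ≠ 0) (ha' : a' ≠ 0) (hb' : b' ≠ 0)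
    (hJ : J ∣ idealT K T ^ n) (hJ' : J' ∣ idealT K T ^ n')
    (h : Ideal.span {a} * I = Ideal.span {b} * J)
    (h' : Ideal.span {a'} * I = Ideal.span {b'} * J') :
    fracUnit K a b ha hb / fracUnit K a' b' ha' hb' ∈ TUnits K T := by
  have hkey : Ideal.span {a' * b} * J = Ideal.span {a * b'} * J' := by
    rw [← Ideal.span_singleton_mul_span_singleton, ← Ideal.span_singleton_mul_span_singleton,
      mul_assoc, ← h, mul_assoc, ← h']
    ring
  have h1 := isIntegral_of_rep K T ha hb' hJ hkey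
  have h2 := isIntegral_of_rep K T ha' hb hJ' (a := a') (b := b') (a' := a) (b' := b) hkey.symm
  have hP : IsIntegral ℤ (((prodT T : ℕ) : K)) := by
    have h := isIntegral_algebraMap (R := ℤ) (A := K) (x := (prodT T : ℤ))
    simpa using h
  have hx : ((fracUnit K a b ha hb / fracUnit K a' b' ha' hb' : Kˣ) : K) =
      ((b : K) / (a : K)) / ((b' : K) / (a' : K)) := by
    rw [Units.val_div_eq_div_val]
    rfl
  have hx' : (((fracUnit K a b ha hb / fracUnit K a' b' ha' hb')⁻¹ : Kˣ) : K) =
      ((b' : K) / (a' : K)) / ((b : K) / (a : K)) := by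
    rw [inv_div, Units.val_div_eq_div_val]
    rfl
  refine ⟨n + n', ?_, ?_⟩
  · rw [hx, pow_add, mul_comm (((prodT T : ℕ) : K) ^ n), mul_assoc]
    exact (hP.pow n').mul h1
  · rw [hx', pow_add, mul_assoc]
    exact (hP.pow n).mul h2

/-- A representation `(a) I = (b) J` with `J` supported on `T`. -/
structure IdRep (I : Ideal (𝓞 K)) where
  /-- denominator -/
  a : 𝓞 K
  /-- numerator -/
  b : 𝓞 K
  /-- the part supported on `T` -/
  J : Ideal (𝓞 K)
  /-- exponent -/
  n : ℕ
  ha : a ≠ 0
  hb : b ≠ 0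
  hJ : J ∣ idealT K T ^ n
  h : Ideal.span {a} * I = Ideal.span {b} * J

variable {K T}

/-- The element `b / a` of a representation. -/
def IdRep.val {I : Ideal (𝓞 K)} (r : IdRep K T I) : Kˣ := fracUnit K r.a r.b r.ha r.hb

lemma nonempty_idRep (hcl : ClTrivial K T) {I : Ideal (𝓞 K)} (hI : I ≠ ⊥) :
    Nonempty (IdRep K T I) := by
  obtain ⟨a, b, J, n, ha, hb, hJ, h⟩ := hcl I hI
  exact ⟨⟨a, b, J, n, ha, hb, hJ, h⟩⟩

lemma IdRep.val_div_mem {I : Ideal (𝓞 K)} (r r' : IdRep K T I) :
    r.val / r'.val ∈ TUnits K T :=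
  fracUnit_div_mem_TUnits K T r.ha r.hb r'.ha r'.hb r.hJ r'.hJ r.h r'.h

/-- The unit of `K` attached to a nonzero integer. -/
def intUnit (a : 𝓞 K) (ha : a ≠ 0) : Kˣ := Units.mk0 (a : K) (by simpa using ha)

/-- The product of two representations. -/
def IdRep.mul {I I' : Ideal (𝓞 K)} (r : IdRep K T I) (r' : IdRep K T I') :
    IdRep K T (I * I') where
  a := r.a * r'.a
  b := r.b * r'.b
  J := r.J * r'.J
  n := r.n + r'.n
  ha := mul_ne_zero r.ha r'.ha
  hb := mul_ne_zero r.hb r'.hb
  hJ := by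
    rw [pow_add]
    exact mul_dvd_mul r.hJ r'.hJ
  h := by
    rw [← Ideal.span_singleton_mul_span_singleton, ← Ideal.span_singleton_mul_span_singleton,
      mul_mul_mul_comm, r.h, r'.h, mul_mul_mul_comm]

lemma IdRep.mul_val {I I' : Ideal (𝓞 K)} (r : IdRep K T I) (r' : IdRep K T I') :
    (r.mul r').val = r.val * r'.val := by
  apply Units.ext
  simp only [IdRep.val, IdRep.mul, fracUnit_val, Units.val_mul, map_mul]
  rw [mul_div_mul_comm]

/-- The representation of a principal ideal. -/
def IdRep.principal (c : 𝓞 K) (hc : c ≠ 0) : IdRep K T (Ideal.span {c}) where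
  a := 1
  b := c
  J := ⊤
  n := 0
  ha := one_ne_zero
  hb := hc
  hJ := by simp
  h := by simp

lemma IdRep.principal_val (c : 𝓞 K) (hc : c ≠ 0) :
    (IdRep.principal (T := T) c hc).val = intUnit c hc := by
  apply Units.ext
  simp [IdRep.val, IdRep.principal, intUnit]

/-- The representation of an ideal supported on `T`. -/
def IdRep.ofDvd {J : Ideal (𝓞 K)} {n : ℕ} (hJ : J ∣ idealT K T ^ n) : IdRep K T J where
  a := 1
  b := 1
  J := J
  n := n
  ha := one_ne_zero
  hb := one_ne_zero
  hJ := hJ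
  h := rfl

lemma IdRep.ofDvd_val {J : Ideal (𝓞 K)} {n : ℕ} (hJ : J ∣ idealT K T ^ n) :
    (IdRep.ofDvd hJ).val = 1 := by
  apply Units.ext
  simp [IdRep.val, IdRep.ofDvd]

section rayVal

variable {G : Type} [CommGroup G] (hcl : ClTrivial K T) (d : Kˣ →* G)

open Classical in
/-- The ray map attached to `d`. -/
def rayVal (I : Ideal (𝓞 K)) : G :=
  if h : I ≠ ⊥ then d (Classical.choice (nonempty_idRep hcl h)).val else 1

variable {d} (hd1 : ∀ e ∈ TUnits K T, d e = 1)

include hd1

lemma rayVal_eq {I : Ideal (𝓞 K)} (hI : I ≠ ⊥) (r : IdRep K T I) :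
    rayVal hcl d I = d r.val := by
  rw [rayVal, dif_pos hI]
  have h := hd1 _ ((Classical.choice (nonempty_idRep hcl hI)).val_div_mem r)
  rw [map_div, div_eq_one] at h
  exact h

lemma rayVal_mul {I I' : Ideal (𝓞 K)} (hI : I ≠ ⊥) (hI' : I' ≠ ⊥) :
    rayVal hcl d (I * I') = rayVal hcl d I * rayVal hcl d I' := by
  obtain ⟨r⟩ := nonempty_idRep hcl hI
  obtain ⟨r'⟩ := nonempty_idRep hcl hI'
  rw [rayVal_eq hcl hd1 (mul_ne_zero hI hI') (r.mul r'), rayVal_eq hcl hd1 hI r,
    rayVal_eq hcl hd1 hI' r', IdRep.mul_val, map_mul]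

lemma rayVal_span (c : 𝓞 K) (hc : c ≠ 0) :
    rayVal hcl d (Ideal.span {c}) = d (intUnit c hc) := by
  have h0 : Ideal.span {c} ≠ (⊥ : Ideal (𝓞 K)) := by
    simpa [Ideal.span_singleton_eq_bot] using hc
  rw [rayVal_eq hcl hd1 h0 (IdRep.principal c hc), IdRep.principal_val]

lemma rayVal_of_dvd {J : Ideal (𝓞 K)} {n : ℕ} (hJ0 : J ≠ ⊥) (hJ : J ∣ idealT K T ^ n) :
    rayVal hcl d J = 1 := by
  rw [rayVal_eq hcl hd1 hJ0 (IdRep.ofDvd hJ), IdRep.ofDvd_val, map_one]

/-- `rayVal` is a ray class map mod `(∏ T)^N`. -/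
theorem isRayMap_rayVal (N : ℕ)
    (hd2 : ∀ (a : 𝓞 K) (ha : a ≠ 0), a - 1 ∈ idealT K T ^ N → d (intUnit a ha) = 1)
    (hd3 : ∀ g : G, ∃ (b : 𝓞 K) (hb : b ≠ 0), d (intUnit b hb) = g) :
    IsRayMap (idealT K T ^ N) (rayVal hcl d) where
  map_mul := fun 𝔞 𝔟 h𝔞 h𝔟 _ _ => rayVal_mul hcl hd1 h𝔞 h𝔟
  map_ray := fun a ha ha1 => by
    rw [rayVal_span hcl hd1 a ha]
    exact hd2 a ha ha1
  surj := fun g => by
    obtain ⟨b, hb, hbg⟩ := hd3 g
    have h0 : Ideal.span {b} ≠ (⊥ : Ideal (𝓞 K)) := by
      simpa [Ideal.span_singleton_eq_bot] using hb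
    obtain ⟨I, J, n, hIJ, hI, hJ⟩ := exists_coprime_mul_dvd_pow (idealT K T) (Ideal.span {b}) h0
    have hI0 : I ≠ ⊥ := by
      rintro rfl
      apply h0
      rw [hIJ]
      simp
    have hJ0 : J ≠ ⊥ := by
      rintro rfl
      apply h0
      rw [hIJ]
      simp
    refine ⟨I, hI0, hI.pow_right, ?_⟩
    have h1 := rayVal_span hcl hd1 b hb
    rw [hIJ, rayVal_mul hcl hd1 hI0 hJ0, rayVal_of_dvd hcl hd1 hJ0 hJ, mul_one] at h1
    rw [h1, hbg]

end rayVal

end Fermat.Agent.S55.CFT.H31

end
end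
-- ==== END Fermat.Agent.S55.CFT.H31_SIRay
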