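-- GENERATED (merged mirror, NOTES/tools/trim/merge3_helper67.py): 10 modules of the originals, bodies verbatim.
import Fermat.Prelude.Def_GaloisRep_Flat
import Fermat.Agent.Zm.S56_L04_000
import Fermat.Agent.Zm.S56_L03_000
import Fermat.Agent.Zm.S56_L01_000
import Fermat.Agent.Zm.S56_L01_002
import Fermat.Agent.Zm.S56_L04_001

-- ==== BEGIN Fermat.Agent.R.Flat.H54_Concrete
section

/-!
# Flat closure (cluster R, helper54): the concrete triple `(ℤ_(p), ℚ̄, G_ℚ)`

* `ratLocalizedAt_isPrincipalIdealRing` : `ℤ_(p)` is a principal ideal ring.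
* `descentData_rat` : `DescentData ℤ_(p) ℚ̄ G_ℚ`.
-/

set_option autoImplicit false
set_option linter.unusedSectionVars false
set_option linter.style.haveILetI false

namespace Fermat.Agent.R.H54

open GaloisRep

/-- An integer as an element of `ℤ_(p)`. -/
lemma intCast_val (p : ℕ) (n : ℤ) : (((n : ratLocalizedAt p) : ℚ)) = (n : ℚ) := by
  simp

/-- `ℤ_(p)` is a principal ideal ring. -/
theorem ratLocalizedAt_isPrincipalIdealRing (p : ℕ) : IsPrincipalIdealRing (ratLocalizedAt p) := by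
  refine ⟨fun I => ?_⟩
  -- the ideal of integers lying in `I`
  set S : Ideal ℤ := I.comap (Int.castRingHom (ratLocalizedAt p)) with hS
  obtain ⟨g, hg⟩ := (IsPrincipalIdealRing.principal S).principal
  refine ⟨⟨(g : ratLocalizedAt p), ?_⟩⟩
  apply le_antisymm
  · intro x hx
    -- `den * x = num ∈ I`
    have hden : (((x : ℚ).den : ℤ) : ratLocalizedAt p) * x = (((x : ℚ).num : ℤ) : ratLocalizedAt p) := by
      apply Subtype.ext
      push_cast
      rw [mul_comm]
      exact_mod_cast Rat.mul_den_eq_num (x : ℚ)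
    have hnum : (x : ℚ).num ∈ S := by
      rw [hS, Ideal.mem_comap]
      show (((x : ℚ).num : ℤ) : ratLocalizedAt p) ∈ I
      rw [← hden]
      exact I.mul_mem_left _ hx
    rw [hg] at hnum
    obtain ⟨m, hm⟩ := Ideal.mem_span_singleton'.mp hnum
    -- the element `m / den` of `ℤ_(p)`
    have hmem : ((m : ℚ) / ((x : ℚ).den : ℚ)) ∈ ratLocalizedAt p := by
      show ((m : ℚ) / ((x : ℚ).den : ℚ)).den.Coprime p
      have hdvd : ((m : ℚ) / ((x : ℚ).den : ℚ)).den ∣ (x : ℚ).den := by
        have := Rat.den_dvd m ((x : ℚ).den : ℤ)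
        rw [Rat.divInt_eq_div] at this
        exact_mod_cast this
      exact Nat.Coprime.coprime_dvd_left hdvd x.2
    rw [Ideal.mem_span_singleton']
    refine ⟨⟨_, hmem⟩, ?_⟩
    apply Subtype.ext
    show ((m : ℚ) / ((x : ℚ).den : ℚ)) * (((g : ratLocalizedAt p)) : ℚ) = (x : ℚ)
    rw [intCast_val]
    have h1 : (m : ℚ) * (g : ℚ) = ((x : ℚ).num : ℚ) := by exact_mod_cast hm
    have h2 : ((x : ℚ).den : ℚ) ≠ 0 := by exact_mod_cast (x : ℚ).den_ne_zero
    rw [div_mul_eq_mul_div, h1]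
    exact Rat.num_div_den (x : ℚ)
  · rw [Ideal.span_le, Set.singleton_subset_iff]
    have : g ∈ S := by rw [hg]; exact Submodule.mem_span_singleton_self g
    exact this

/-- The absolute Galois group of `ℚ`. -/
abbrev GalQ : Type := AlgebraicClosure ℚ ≃ₐ[ℚ] AlgebraicClosure ℚ

lemma algebraMap_rat_apply (p : ℕ) (r : ratLocalizedAt p) :
    algebraMap (ratLocalizedAt p) (AlgebraicClosure ℚ) r =
      algebraMap ℚ (AlgebraicClosure ℚ) (r : ℚ) := rfl

/-- The descent data of the triple `(ℤ_(p), ℚ̄, G_ℚ)`. -/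
theorem descentData_rat (p : ℕ) :
    DescentData (ratLocalizedAt p) (AlgebraicClosure ℚ) GalQ := by
  refine ⟨?_, ?_, ?_⟩
  · intro a b hab
    rw [algebraMap_rat_apply, algebraMap_rat_apply] at hab
    exact Subtype.ext ((algebraMap ℚ (AlgebraicClosure ℚ)).injective hab)
  · intro σ r
    rw [algebraMap_rat_apply]
    exact σ.commutes _
  · intro x hx
    haveI : Algebra.IsAlgebraic ℚ (AlgebraicClosure ℚ) := AlgebraicClosure.isAlgebraic ℚ
    haveI : IsAlgClosure ℚ (AlgebraicClosure ℚ) := ⟨inferInstance, inferInstance⟩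
    haveI : IsGalois ℚ (AlgebraicClosure ℚ) := inferInstance
    have hbot : x ∈ (⊥ : IntermediateField ℚ (AlgebraicClosure ℚ)) :=
      (InfiniteGalois.mem_bot_iff_fixed x).mpr hx
    obtain ⟨q, rfl⟩ := IntermediateField.mem_bot.mp hbot
    refine ⟨(q.num : ratLocalizedAt p), (q.den : ratLocalizedAt p), ?_, ?_⟩
    · intro h
      have := congrArg (fun r : ratLocalizedAt p => (r : ℚ)) h
      simp only [Subring.coe_natCast, Subring.coe_zero] at this
      exact q.den_ne_zero (by exact_mod_cast this)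
    · rw [algebraMap_rat_apply, algebraMap_rat_apply, ← map_mul]
      congr 1
      push_cast
      rw [mul_comm]
      exact Rat.mul_den_eq_num q

end Fermat.Agent.R.H54

end
-- ==== END Fermat.Agent.R.Flat.H54_Concrete

-- ==== BEGIN Fermat.Agent.R.Flat.H54_Prod
section

/-!
# Flat closure (cluster R, helper54): products

The tensor product of two finite flat cocommutative Hopf algebras has the product of the groups
of points as its group of points.
-/

set_option autoImplicit false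
set_option linter.unusedSectionVars false
set_option linter.style.haveILetI false

open scoped TensorProduct
open WithConv

namespace Fermat.Agent.R.H54

section Prod

variable {R K G : Type} [CommRing R] [Field K] [Algebra R K] [Group G] [MulSemiringAction G K]
variable {H H' : Type} [CommRing H] [HopfAlgebra R H] [CommRing H'] [HopfAlgebra R H']

/-- The point of `H ⊗ H'` attached to a pair of points. -/
noncomputable def prodPt (f : Pts R H K) (g : Pts R H' K) : Pts R (H ⊗[R] H') K :=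
  toConv (Algebra.TensorProduct.lift f.ofConv g.ofConv (fun _ _ => Commute.all _ _))

@[simp] lemma prodPt_tmul (f : Pts R H K) (g : Pts R H' K) (a : H) (b : H') :
    prodPt f g (a ⊗ₜ[R] b) = f a * g b := by
  simp [prodPt]

/-- The first component of a point of `H ⊗ H'`. -/
noncomputable def fstPt (φ : Pts R (H ⊗[R] H') K) : Pts R H K :=
  toConv (φ.ofConv.comp Algebra.TensorProduct.includeLeft)

/-- The second component of a point of `H ⊗ H'`. -/
noncomputable def sndPt (φ : Pts R (H ⊗[R] H') K) : Pts R H' K :=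
  toConv (φ.ofConv.comp Algebra.TensorProduct.includeRight)

@[simp] lemma fstPt_apply (φ : Pts R (H ⊗[R] H') K) (a : H) : fstPt φ a = φ (a ⊗ₜ[R] 1) := rfl

@[simp] lemma sndPt_apply (φ : Pts R (H ⊗[R] H') K) (b : H') : sndPt φ b = φ (1 ⊗ₜ[R] b) := rfl

lemma fstPt_prodPt (f : Pts R H K) (g : Pts R H' K) : fstPt (prodPt f g) = f := by
  apply WithConv.ext
  apply AlgHom.ext
  intro a
  show prodPt f g (a ⊗ₜ[R] 1) = f a
  rw [prodPt_tmul]
  have : g (1 : H') = 1 := map_one g.ofConv
  rw [this, mul_one]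

lemma sndPt_prodPt (f : Pts R H K) (g : Pts R H' K) : sndPt (prodPt f g) = g := by
  apply WithConv.ext
  apply AlgHom.ext
  intro b
  show prodPt f g (1 ⊗ₜ[R] b) = g b
  rw [prodPt_tmul]
  have : f (1 : H) = 1 := map_one f.ofConv
  rw [this, one_mul]

lemma prodPt_fst_snd (φ : Pts R (H ⊗[R] H') K) : prodPt (fstPt φ) (sndPt φ) = φ := by
  apply WithConv.ext
  apply Algebra.TensorProduct.ext'
  intro a b
  show prodPt (fstPt φ) (sndPt φ) (a ⊗ₜ[R] b) = φ (a ⊗ₜ[R] b)
  rw [prodPt_tmul, fstPt_apply, sndPt_apply]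
  have : φ (a ⊗ₜ[R] 1) * φ (1 ⊗ₜ[R] b) = φ ((a ⊗ₜ[R] 1) * (1 ⊗ₜ[R] b)) :=
    (map_mul φ.ofConv _ _).symm
  rw [this, Algebra.TensorProduct.tmul_mul_tmul, mul_one, one_mul]

/-- The points of `H ⊗ H'` are the pairs of points. -/
noncomputable def prodPtEquiv : Pts R (H ⊗[R] H') K ≃ Pts R H K × Pts R H' K where
  toFun φ := (fstPt φ, sndPt φ)
  invFun fg := prodPt fg.1 fg.2
  left_inv φ := prodPt_fst_snd φ
  right_inv fg := Prod.ext (fstPt_prodPt fg.1 fg.2) (sndPt_prodPt fg.1 fg.2)

private lemma prod_key (f f' : Pts R H K) (g g' : Pts R H' K) (s : H ⊗[R] H) (t : H' ⊗[R] H') :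
    LinearMap.mul' R K (TensorProduct.map (prodPt f g).ofConv.toLinearMap
        (prodPt f' g').ofConv.toLinearMap
        (TensorProduct.AlgebraTensorModule.tensorTensorTensorComm R R R R H H H' H' (s ⊗ₜ t))) =
      LinearMap.mul' R K (TensorProduct.map f.ofConv.toLinearMap f'.ofConv.toLinearMap s) *
        LinearMap.mul' R K (TensorProduct.map g.ofConv.toLinearMap g'.ofConv.toLinearMap t) := by
  induction s using TensorProduct.induction_on with
  | zero => simp
  | add x y hx hy => simp only [TensorProduct.add_tmul, map_add, hx, hy, add_mul]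
  | tmul a₁ a₂ =>
    induction t using TensorProduct.induction_on with
    | zero => simp
    | add x y hx hy => simp only [TensorProduct.tmul_add, map_add, hx, hy, mul_add]
    | tmul b₁ b₂ =>
      simp only [TensorProduct.AlgebraTensorModule.tensorTensorTensorComm_tmul,
        TensorProduct.map_tmul, LinearMap.mul'_apply, AlgHom.toLinearMap_apply]
      show prodPt f g (a₁ ⊗ₜ[R] b₁) * prodPt f' g' (a₂ ⊗ₜ[R] b₂) = _
      rw [prodPt_tmul, prodPt_tmul]
      ring

lemma prodPt_mul (f f' : Pts R H K) (g g' : Pts R H' K) :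
    prodPt (f * f') (g * g') = prodPt f g * prodPt f' g' := by
  apply WithConv.ext
  apply Algebra.TensorProduct.ext'
  intro a b
  show prodPt (f * f') (g * g') (a ⊗ₜ[R] b) = (prodPt f g * prodPt f' g') (a ⊗ₜ[R] b)
  rw [prodPt_tmul, convMul_apply', convMul_apply', convMul_apply', ← prod_key]
  rfl

/-- **Flatness passes to products** (abstract form). -/
theorem absFlat_prod {M M' : Type} [AddCommGroup M] [AddCommGroup M']
    (act : G → M → M) (act' : G → M' → M')
    (h : AbsFlat R K G M act) (h' : AbsFlat R K G M' act') :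
    AbsFlat R K G (M × M') (fun σ x => (act σ x.1, act' σ x.2)) := by
  obtain ⟨H, _, _, hfin, hflat, hcoc, e, he_mul, he_gal⟩ := h
  obtain ⟨H', _, _, hfin', hflat', hcoc', e', he'_mul, he'_gal⟩ := h'
  refine ⟨H ⊗[R] H', inferInstance, inferInstance, inferInstance, inferInstance, inferInstance,
    prodPtEquiv.trans (e.prodCongr e'), ?_, ?_⟩
  · intro φ ψ
    have hφ := prodPt_fst_snd φ
    have hψ := prodPt_fst_snd ψ
    have : fstPt (φ * ψ) = fstPt φ * fstPt ψ ∧ sndPt (φ * ψ) = sndPt φ * sndPt ψ := by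
      rw [← hφ, ← hψ, ← prodPt_mul, fstPt_prodPt, sndPt_prodPt, fstPt_prodPt, sndPt_prodPt,
        fstPt_prodPt, sndPt_prodPt]
      exact ⟨rfl, rfl⟩
    apply Prod.ext
    · show e (fstPt (φ * ψ)) = e (fstPt φ) + e (fstPt ψ)
      rw [this.1, he_mul]
    · show e' (sndPt (φ * ψ)) = e' (sndPt φ) + e' (sndPt ψ)
      rw [this.2, he'_mul]
  · intro σ φ ψ hφψ
    apply Prod.ext
    · exact he_gal σ (fstPt φ) (fstPt ψ) (fun a => hφψ _)
    · exact he'_gal σ (sndPt φ) (sndPt ψ) (fun b => hφψ _)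

end Prod

end Fermat.Agent.R.H54

end
-- ==== END Fermat.Agent.R.Flat.H54_Prod

-- ==== BEGIN Fermat.Agent.R.Flat.H54_Quot
section

/-!
# Flat closure (cluster R, helper54): quotients

For a `G`-stable subgroup `N` of the points of a separated finite flat cocommutative Hopf algebra
`H` over a principal ideal domain `R`, the subalgebra `invSub N` of functions invariant under
translation by `N` is a sub-Hopf algebra.
-/

set_option autoImplicit false
set_option linter.unusedSectionVars false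
set_option linter.style.haveILetI false

open scoped TensorProduct
open WithConv

namespace Fermat.Agent.R.H54

section Quot

variable {R K G : Type} [CommRing R] [IsDomain R] [IsPrincipalIdealRing R] [Field K] [Algebra R K]
  [Group G] [MulSemiringAction G K]
variable {H : Type} [CommRing H] [HopfAlgebra R H] [Module.Finite R H] [Module.Flat R H]
  [Coalgebra.IsCocomm R H]

/-- A point as a linear map. -/
def ptLin (f : Pts R H K) : H →ₗ[R] K := f.ofConv.toLinearMap

@[simp] lemma ptLin_apply (f : Pts R H K) (h : H) : ptLin f h = f h := rfl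

lemma convMul_apply'' (f g : Pts R H K) (h : H) :
    (f * g) h = LinearMap.mul' R K (TensorProduct.map (ptLin f) (ptLin g) (Coalgebra.comul h)) :=
  convMul_apply' f g h

/-- The subalgebra of functions invariant under translation by `N`. -/
def invSub (N : Set (Pts R H K)) : Subalgebra R H where
  carrier := {h | ∀ f : Pts R H K, ∀ k ∈ N, (f * k) h = f h}
  mul_mem' := fun {a b} ha hb f k hk => by
    have h1 : (f * k) (a * b) = (f * k) a * (f * k) b := map_mul (f * k).ofConv a b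
    have h2 : f (a * b) = f a * f b := map_mul f.ofConv a b
    rw [h1, h2, ha f k hk, hb f k hk]
  add_mem' := fun {a b} ha hb f k hk => by
    have h1 : (f * k) (a + b) = (f * k) a + (f * k) b := map_add (f * k).ofConv a b
    have h2 : f (a + b) = f a + f b := map_add f.ofConv a b
    rw [h1, h2, ha f k hk, hb f k hk]
  algebraMap_mem' := fun r f k _ => by
    have h1 : (f * k) (algebraMap R H r) = algebraMap R K r := (f * k).ofConv.commutes r
    have h2 : f (algebraMap R H r) = algebraMap R K r := f.ofConv.commutes r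
    rw [h1, h2]

lemma mem_invSub {N : Set (Pts R H K)} {h : H} :
    h ∈ invSub N ↔ ∀ f : Pts R H K, ∀ k ∈ N, (f * k) h = f h := Iff.rfl

/-- The pairs of linear maps cutting out `invSub N`. -/
def pairsN (N : Set (Pts R H K)) : Set ((H →ₗ[R] K) × (H →ₗ[R] K)) :=
  {uv | ∃ (f : Pts R H K) (k : Pts R H K), k ∈ N ∧ uv = (ptLin (f * k), ptLin f)}

lemma mem_invSub_of_pairs {N : Set (Pts R H K)} {h : H}
    (hh : ∀ uv ∈ pairsN N, uv.1 h = uv.2 h) : h ∈ invSub N :=
  fun f k hk => hh _ ⟨f, k, hk, rfl⟩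

/-- The family of all points of `H`, as linear maps. -/
def famH (R H K : Type) [CommRing R] [Field K] [Algebra R K] [CommRing H] [HopfAlgebra R H] :
    Set (H →ₗ[R] K) := Set.range ptLin

lemma famH_gstable (hD : DescentData R K G) : GStable G (famH R H K) := by
  rintro σ _ ⟨f, rfl⟩
  exact ⟨ptLin (gconj hD σ f), ⟨_, rfl⟩, fun _ => rfl⟩

/-- The family of the restrictions to `invSub N` of all points of `H`. -/
def famA (N : Set (Pts R H K)) : Set ((invSub N) →ₗ[R] K) :=
  Set.range fun f : Pts R H K => ptLin f ∘ₗ (invSub N).val.toLinearMap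

lemma famA_gstable (hD : DescentData R K G) (N : Set (Pts R H K)) : GStable G (famA N) := by
  rintro σ _ ⟨f, rfl⟩
  exact ⟨ptLin (gconj hD σ f) ∘ₗ (invSub N).val.toLinearMap, ⟨_, rfl⟩, fun _ => rfl⟩

lemma famA_separating (hsep : ∀ h : H, (∀ f : Pts R H K, f h = 0) → h = 0)
    (N : Set (Pts R H K)) : Separating (famA N) := by
  intro a ha
  apply Subtype.ext
  apply hsep
  intro f
  exact ha _ ⟨f, rfl⟩

lemma famH_separating (hsep : ∀ h : H, (∀ f : Pts R H K, f h = 0) → h = 0) :
    Separating (famH R H K) := by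
  intro h hh
  apply hsep
  intro f
  exact hh _ ⟨f, rfl⟩

lemma free_H : Module.Free R H := by
  haveI : Module.IsTorsionFree R H := Module.Flat.isTorsionFree
  exact Module.free_of_finite_type_torsion_free'

lemma finite_inv (N : Set (Pts R H K)) : Module.Finite R (invSub N) :=
  inferInstanceAs (Module.Finite R (Subalgebra.toSubmodule (invSub N)))

lemma free_inv (N : Set (Pts R H K)) : Module.Free R (invSub N) := by
  haveI := free_H (R := R) (H := H)
  exact inferInstanceAs (Module.Free R (Subalgebra.toSubmodule (invSub N)))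

/-- The comultiplication maps invariants to `invariants ⊗ invariants`. -/
theorem comul_mem_inv (hD : DescentData R K G)
    (hsep : ∀ h : H, (∀ f : Pts R H K, f h = 0) → h = 0)
    (N : Set (Pts R H K)) (a : invSub N) :
    Coalgebra.comul (R := R) ((invSub N).val a) ∈
      LinearMap.range (TensorProduct.map (invSub N).val.toLinearMap
        (invSub N).val.toLinearMap) := by
  classical
  haveI := free_H (R := R) (H := H)
  haveI := finite_inv (R := R) (K := K) (H := H) N
  haveI := free_inv (R := R) (K := K) (H := H) N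
  set bH := Module.Free.chooseBasis R H
  set bA := Module.Free.chooseBasis R (invSub N)
  set t := Coalgebra.comul (R := R) ((invSub N).val a) with ht
  -- step 1: invariance in the first variable
  obtain ⟨q, hq, hqt⟩ := inv_tensor_left' hD bH (famH R H K) (famH_gstable hD)
    (famH_separating hsep) (pairsN N) t (by
      rintro _ ⟨f, k, hk, rfl⟩ _ ⟨g, rfl⟩
      show LinearMap.mul' R K (TensorProduct.map (ptLin (f * k)) (ptLin g) t) =
        LinearMap.mul' R K (TensorProduct.map (ptLin f) (ptLin g) t)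
      rw [ht, ← convMul_apply'', ← convMul_apply'', mul_right_comm]
      exact a.2 (f * g) k hk)
  have hqA : ∀ i, q i ∈ invSub N := fun i => mem_invSub_of_pairs (hq i)
  set t₁ : (invSub N) ⊗[R] H := ∑ i, (⟨q i, hqA i⟩ : invSub N) ⊗ₜ[R] bH i with ht₁
  have ht₁t : LinearMap.rTensor H (invSub N).val.toLinearMap t₁ = t := by
    rw [ht₁, hqt, map_sum]
    rfl
  -- step 2: invariance in the second variable
  obtain ⟨q', hq', hq't⟩ := inv_tensor_right' hD bA (famA N) (famA_gstable hD N)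
    (famA_separating hsep N) (pairsN N) t₁ (by
      rintro _ ⟨g, k, hk, rfl⟩ _ ⟨f, rfl⟩
      show LinearMap.mul' R K (TensorProduct.map (ptLin f ∘ₗ (invSub N).val.toLinearMap)
          (ptLin (g * k)) t₁) =
        LinearMap.mul' R K (TensorProduct.map (ptLin f ∘ₗ (invSub N).val.toLinearMap)
          (ptLin g) t₁)
      have key : ∀ (u : H →ₗ[R] K), TensorProduct.map (ptLin f ∘ₗ (invSub N).val.toLinearMap) u t₁
          = TensorProduct.map (ptLin f) u t := by
        intro u
        rw [← ht₁t, ← LinearMap.comp_apply, LinearMap.rTensor, ← TensorProduct.map_comp,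
          LinearMap.comp_id]
      rw [key, key, ht, ← convMul_apply'', ← convMul_apply'', ← mul_assoc]
      exact a.2 (f * g) k hk)
  have hq'A : ∀ i, q' i ∈ invSub N := fun i => mem_invSub_of_pairs (hq' i)
  refine ⟨∑ i, bA i ⊗ₜ[R] (⟨q' i, hq'A i⟩ : invSub N), ?_⟩
  rw [← ht₁t, hq't, map_sum, map_sum]
  rfl

lemma mul_pinv (f : Pts R H K) : f * pinv f = 1 := by
  rw [mul_comm, pinv_mul]

lemma pinv_mul_distrib (f k : Pts R H K) : pinv (f * k) = pinv f * pinv k := by
  apply left_inv_eq_right_inv (pinv_mul (f * k))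
  rw [mul_mul_mul_comm, mul_pinv, mul_pinv, mul_one]

/-- The antipode preserves the invariants. -/
theorem antipode_mem_inv (hD : DescentData R K G) {N : Set (Pts R H K)}
    (hN : IsGSubgroup hD N) (a : invSub N) :
    HopfAlgebra.antipode R ((invSub N).val a) ∈ invSub N := by
  intro f k hk
  show pinv (f * k) (a : H) = pinv f (a : H)
  rw [pinv_mul_distrib]
  exact a.2 (pinv f) (pinv k) (hN.inv_mem k hk)

/-- The invariants form a sub-Hopf algebra. -/
theorem subHopfData_inv (hD : DescentData R K G)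
    (hsep : ∀ h : H, (∀ f : Pts R H K, f h = 0) → h = 0)
    {N : Set (Pts R H K)} (hN : IsGSubgroup hD N) : SubHopfData (invSub N).val := by
  haveI := finite_inv (R := R) (K := K) (H := H) N
  haveI := free_inv (R := R) (K := K) (H := H) N
  have hinj : Function.Injective (invSub N).val.toLinearMap := Subtype.val_injective
  refine ⟨Subtype.val_injective, ?_, ?_, comul_mem_inv hD hsep N, ?_⟩
  · exact TensorProduct.map_injective_of_flat_flat _ _ hinj hinj
  · exact TensorProduct.map_injective_of_flat_flat _ _ hinj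
      (TensorProduct.map_injective_of_flat_flat _ _ hinj hinj)
  · intro a
    exact ⟨⟨_, antipode_mem_inv hD hN a⟩, rfl⟩

/-- Two finite sets of indices of a linearly independent family with the same sum are equal. -/
lemma finset_eq_of_sum_eq {ι V : Type} [AddCommGroup V] [Module K V] {v : ι → V}
    (hv : LinearIndependent K v) (s t : Finset ι) (h : ∑ i ∈ s, v i = ∑ i ∈ t, v i) : s = t := by
  classical
  have hinj := linearIndependent_iff_injective_finsuppLinearCombination.mp hv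
  have h1 : ∀ u : Finset ι, Finsupp.linearCombination K v (∑ i ∈ u, Finsupp.single i (1 : K)) =
      ∑ i ∈ u, v i := by
    intro u
    rw [map_sum]
    refine Finset.sum_congr rfl fun i _ => ?_
    rw [Finsupp.linearCombination_single, one_smul]
  have h2 : (∑ i ∈ s, Finsupp.single i (1 : K)) = ∑ i ∈ t, Finsupp.single i (1 : K) :=
    hinj (by rw [h1, h1, h])
  have h3 : ∀ (u : Finset ι) (j : ι), (∑ i ∈ u, Finsupp.single i (1 : K)) j =
      if j ∈ u then 1 else 0 := by
    intro u j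
    rw [Finsupp.finsetSum_apply]
    simp only [Finsupp.single_apply]
    rw [Finset.sum_ite_eq' u j]
  ext j
  have := congrArg (fun a : ι →₀ K => a j) h2
  simp only [h3] at this
  by_cases hs : j ∈ s <;> by_cases ht : j ∈ t <;> simp_all

/-- The sum of the points of a finite set, as a linear map. -/
noncomputable def sumLin (S : Finset (Pts R H K)) : H →ₗ[R] K := ∑ k ∈ S, ptLin k

lemma sumLin_apply (S : Finset (Pts R H K)) (h : H) : sumLin S h = ∑ k ∈ S, k h := by
  simp [sumLin, LinearMap.sum_apply]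

lemma gconj_inv_gconj (hD : DescentData R K G) (σ : G) (k : Pts R H K) :
    gconj hD σ⁻¹ (gconj hD σ k) = k := by
  apply WithConv.ext
  apply AlgHom.ext
  intro h
  show σ⁻¹ • σ • k h = k h
  rw [inv_smul_smul]

lemma gconj_gconj_inv (hD : DescentData R K G) (σ : G) (k : Pts R H K) :
    gconj hD σ (gconj hD σ⁻¹ k) = k := by
  apply WithConv.ext
  apply AlgHom.ext
  intro h
  show σ • σ⁻¹ • k h = k h
  rw [smul_inv_smul]

lemma smul_sumLin (hD : DescentData R K G) (S : Finset (Pts R H K))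
    (hS : ∀ (σ : G), ∀ k ∈ S, gconj hD σ k ∈ S) (σ : G) (h : H) :
    σ • sumLin S h = sumLin S h := by
  rw [sumLin_apply, Finset.smul_sum]
  refine Finset.sum_bij' (fun k _ => gconj hD σ k) (fun k _ => gconj hD σ⁻¹ k)
    (fun k hk => hS σ k hk) (fun k hk => hS σ⁻¹ k hk)
    (fun k _ => gconj_inv_gconj hD σ k) (fun k _ => gconj_gconj_inv hD σ k) (fun k _ => rfl)

/-- The trace over `N`, up to a non-zero constant `D`. -/
theorem exists_trace (hD : DescentData R K G) {N : Set (Pts R H K)} (hN : IsGSubgroup hD N)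
    (hNfin : N.Finite) :
    ∃ (D : K) (Tr : H →ₗ[R] H), D ≠ 0 ∧
      ∀ (f : Pts R H K) (h : H), f (Tr h) = D * ∑ k ∈ hNfin.toFinset, (f * k) h := by
  classical
  haveI := free_H (R := R) (H := H)
  set bH := Module.Free.chooseBasis R H
  set S := hNfin.toFinset with hS
  have hSstab : ∀ (σ : G), ∀ k ∈ S, gconj hD σ k ∈ S := by
    intro σ k hk
    rw [hS, Set.Finite.mem_toFinset] at hk ⊢
    exact hN.stable σ k hk
  obtain ⟨D₀, r, hD₀, hr⟩ := exists_common_denominator hD (fun i => sumLin S (bH i))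
    (fun i σ => smul_sumLin hD S hSstab σ (bH i))
  set θ : H →ₗ[R] R := bH.constr R r with hθdef
  have hθ : ∀ h, algebraMap R K (θ h) = algebraMap R K D₀ * sumLin S h := by
    have : (Algebra.linearMap R K) ∘ₗ θ = (algebraMap R K D₀) • sumLin S := by
      apply bH.ext
      intro i
      simp only [LinearMap.coe_comp, Function.comp_apply, Algebra.linearMap_apply,
        LinearMap.smul_apply, smul_eq_mul]
      rw [hθdef, Module.Basis.constr_basis, hr]
    intro h
    exact LinearMap.congr_fun this h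
  refine ⟨algebraMap R K D₀,
    (TensorProduct.rid R H).toLinearMap ∘ₗ (LinearMap.lTensor H θ) ∘ₗ Coalgebra.comul, hD₀, ?_⟩
  intro f h
  have key : ∀ t : H ⊗[R] H, f (TensorProduct.rid R H (LinearMap.lTensor H θ t)) =
      algebraMap R K D₀ * ∑ k ∈ S, LinearMap.mul' R K (TensorProduct.map (ptLin f) (ptLin k) t) := by
    intro t
    induction t using TensorProduct.induction_on with
    | zero => simp
    | tmul x y =>
      simp only [LinearMap.lTensor_tmul, TensorProduct.rid_tmul, TensorProduct.map_tmul,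
        LinearMap.mul'_apply, ptLin_apply]
      have h1 : f (θ y • x) = algebraMap R K (θ y) * f x := by
        show f.ofConv (θ y • x) = algebraMap R K (θ y) * f.ofConv x
        rw [Algebra.smul_def, map_mul, AlgHom.commutes]
      rw [h1, hθ, sumLin_apply, ← Finset.mul_sum]
      ring
    | add x y hx hy =>
      simp only [map_add, hx, hy, Finset.sum_add_distrib, mul_add]
  show f (TensorProduct.rid R H (LinearMap.lTensor H θ (Coalgebra.comul h))) = _
  rw [key]
  simp only [convMul_apply'']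

end Quot

end Fermat.Agent.R.H54

end
-- ==== END Fermat.Agent.R.Flat.H54_Quot

-- ==== BEGIN Fermat.Agent.S53.Tangent
section

set_option autoImplicit false
set_option linter.unusedSectionVars false
set_option linter.style.haveILetI false

/-!
# S53: the tangent bound: homomorphisms from a normalized pair to `k[ε]` inject into the finite
set of `GaloisRep.TangentFinite`.
-/

namespace Fermat.Agent.S53

open IsLocalRing

section

variable (𝒪 : Type) [CommRing 𝒪] [IsLocalRing 𝒪]
variable (ρbar : ResidualGaloisRep (ResidueField 𝒪))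
variable (𝒟 : ∀ ⦃A : Type⦄ [CommRing A] [IsLocalRing A] [Algebra 𝒪 A], GaloisRepAdic A → Prop)

/-- The `k`-algebra structure on the residue field of `k[ε]` used in `TangentFinite`. -/
@[reducible] noncomputable def resDualNumberAlgebra :
    Algebra (ResidueField 𝒪) (ResidueField (DualNumber (ResidueField 𝒪))) :=
  ((IsLocalRing.residue (DualNumber (ResidueField 𝒪))).comp
      (algebraMap (ResidueField 𝒪) (DualNumber (ResidueField 𝒪)))).toAlgebra

/-- The type of first order deformations of type `𝒟`. -/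
def TSub : Type 1 :=
  letI := dualNumberAlgebra 𝒪
  letI := resDualNumberAlgebra 𝒪
  {ρ : GaloisRepAdic (DualNumber (ResidueField 𝒪)) //
      𝒟 ρ ∧ ρ.residual.IsEquiv (ρbar.baseChange (ResidueField (DualNumber (ResidueField 𝒪)))) }

/-- Equivalence of first order deformations. -/
def TSetoid : Setoid (TSub 𝒪 ρbar 𝒟) :=
  ⟨fun ρ ρ' => ρ.1.IsEquiv ρ'.1, ⟨fun ρ => ⟨GaloisRepAdic.Equiv.refl ρ.1⟩,
        fun ⟨e⟩ => ⟨e.symm⟩, fun ⟨e⟩ ⟨e'⟩ => ⟨e.trans e'⟩⟩⟩

theorem tangentFinite_iff :
    GaloisRep.TangentFinite 𝒪 ρbar 𝒟 ↔ Finite (Quotient (TSetoid 𝒪 ρbar 𝒟)) := Iff.rfl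

end

section

variable {𝒪 : Type} [CommRing 𝒪] [IsLocalRing 𝒪] [Finite (ResidueField 𝒪)]
variable {ρbar : ResidualGaloisRep (ResidueField 𝒪)}
variable {𝒟 : ∀ ⦃A : Type⦄ [CommRing A] [IsLocalRing A] [Algebra 𝒪 A], GaloisRepAdic A → Prop}

theorem exists_tsub_of_hom (h𝒟 : GaloisRep.IsDeformationCondition 𝒪 𝒟) (N : NormData 𝒪 ρbar)
    (p : NPair 𝒪 𝒟 N)
    (φ : letI := dualNumberAlgebra 𝒪; p.A →ₐ[𝒪] DualNumber (ResidueField 𝒪)) :
    ∃ x : TSub 𝒪 ρbar 𝒟, IsMatOf x.1 (fun σ => (p.r σ).map φ) := by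
  letI := dualNumberAlgebra 𝒪
  letI := resDualNumberAlgebra 𝒪
  haveI := isLocalHom_algebraMap_dualNumber 𝒪
  haveI := finite_dualNumber 𝒪
  have hkε : GaloisRep.IsArtinianTestAlgebra 𝒪 (DualNumber (ResidueField 𝒪)) :=
    isArtinianTestAlgebra_of_finite (res_surj_dualNumber 𝒪)
  have hφ : IsLocalHom (φ : p.A →+* DualNumber (ResidueField 𝒪)) := isLocalHom_of_finite φ
  have hD : DMat 𝒪 𝒟 (fun σ => (p.r σ).map φ) := p.type.map h𝒟 p.test hkε φ hφ
  have hcont : MatCont (mapHom (φ : p.A →+* DualNumber (ResidueField 𝒪)) p.r) := hD.matCont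
  have hmat := isMatOf_ofMat (mapHom (φ : p.A →+* DualNumber (ResidueField 𝒪)) p.r) hcont
  have hnorm : IsNorm N (fun σ => (p.r σ).map φ) := p.norm.map φ hφ
  refine ⟨⟨ofMat (mapHom (φ : p.A →+* DualNumber (ResidueField 𝒪)) p.r) hcont,
    hD.of_isMatOf h𝒟 hkε hmat, ?_⟩, hmat⟩
  rw [IsMatOfRes.isEquiv_iff hmat.residual
    (IsMatOfRes.baseChange (ResidueField (DualNumber (ResidueField 𝒪))) N.isMatOfRes)]
  refine ⟨1, fun σ => ?_⟩
  rw [Units.val_one, one_mul, mul_one]
  ext i j
  simp only [Matrix.map_apply]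
  obtain ⟨c, hc⟩ := residue_surjective (N.rbar σ i j)
  have h1 := (isLift_iff N.rbar _).mp hnorm.1 σ i j c hc
  have h2 : residue _ ((p.r σ).map φ i j - algebraMap 𝒪 (DualNumber (ResidueField 𝒪)) c) = 0 :=
    (residue_eq_zero_iff _).mpr h1
  rw [map_sub, sub_eq_zero] at h2
  simp only [Matrix.map_apply] at h2
  refine (h2.trans ?_)
  rw [← hc]
  rfl

/-- The number of homomorphisms from a normalized pair to `k[ε]` is bounded independently of
the pair. -/
theorem exists_card_hom_bound (h𝒟 : GaloisRep.IsDeformationCondition 𝒪 𝒟)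
    (hfin : GaloisRep.TangentFinite 𝒪 ρbar 𝒟) (N : NormData 𝒪 ρbar) :
    ∃ Nb : ℕ, ∀ p : NPair 𝒪 𝒟 N,
      (letI := dualNumberAlgebra 𝒪
       Nat.card (p.A →ₐ[𝒪] DualNumber (ResidueField 𝒪)) ≤ Nb) := by
  rw [tangentFinite_iff] at hfin
  refine ⟨Nat.card (Quotient (TSetoid 𝒪 ρbar 𝒟)), fun p => ?_⟩
  letI := dualNumberAlgebra 𝒪
  haveI := isLocalHom_algebraMap_dualNumber 𝒪
  haveI := finite_dualNumber 𝒪
  choose F hF using exists_tsub_of_hom (ρbar := ρbar) h𝒟 N p
  apply Nat.card_le_card_of_injective (fun φ => Quotient.mk (TSetoid 𝒪 ρbar 𝒟) (F φ))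
  intro φ ψ h
  have h1 : (F φ).1.IsEquiv (F ψ).1 := Quotient.exact h
  rw [IsMatOf.isEquiv_iff (hF φ) (hF ψ)] at h1
  obtain ⟨g, hg⟩ := h1
  have hφ : IsLocalHom (φ : p.A →+* DualNumber (ResidueField 𝒪)) := isLocalHom_of_finite φ
  have hψ : IsLocalHom (ψ : p.A →+* DualNumber (ResidueField 𝒪)) := isLocalHom_of_finite ψ
  have := IsNorm.eq_of_conj N (r := mapHom (φ : p.A →+* DualNumber (ResidueField 𝒪)) p.r)
    (r' := mapHom (ψ : p.A →+* DualNumber (ResidueField 𝒪)) p.r) (p.norm.map φ hφ)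
    (p.norm.map ψ hψ) g hg
  exact p.hom_ext (fun σ => congrArg (fun t : GQ →* M2 _ => t σ) this)

end

end Fermat.Agent.S53

end
-- ==== END Fermat.Agent.S53.Tangent

-- ==== BEGIN Fermat.Agent.S55.CFT.Defs_BR2
section

set_option autoImplicit false

open NumberField TensorProduct CategoryTheory

noncomputable section

namespace Fermat.Agent.S55.CFT

variable (K L : Type) [Field K] [Field L] [NumberField K] [NumberField L] [Algebra K L]

/-! ### Components of `T`-ideles, the class module, the units -/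

/-- The component at the place `v ∣ q` of a `T`-idele of `L`:
`∏_{q ∈ T} (ℚ_q ⊗ L)ˣ → (ℚ_q ⊗ L)ˣ → ((ℚ_q ⊗ L)/𝔪_v)ˣ`. -/
def projIdele (T : Finset Nat.Primes) (q : T) (v : MaximalSpectrum (SemiLocal K q.1)) :
    IdeleT L T →* (LocAlg K L ⟨q.1, v⟩)ˣ :=
  (Units.map ((Ideal.Quotient.mk (placeIdeal K L ⟨q.1, v⟩) :
      SemiLocal L q.1 →+* LocAlg K L ⟨q.1, v⟩) : SemiLocal L q.1 →* LocAlg K L ⟨q.1, v⟩)).comp
    (Pi.evalMonoidHom (fun q : T => (SemiLocal L q.1)ˣ) q)

lemma projIdele_smul (T : Finset Nat.Primes) (q : T) (v : MaximalSpectrum (SemiLocal K q.1))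
    (σ : L ≃ₐ[K] L) (x : IdeleT L T) :
    projIdele K L T q v (σ • x) =
      Units.map (locAlgMap K L ⟨q.1, v⟩ σ : LocAlg K L ⟨q.1, v⟩ →* LocAlg K L ⟨q.1, v⟩)
        (projIdele K L T q v x) := by
  apply Units.ext
  rfl

/-- The component at `v` as a morphism of `Gal(L/K)`-modules. -/
def projRep (T : Finset Nat.Primes) (q : T) (v : MaximalSpectrum (SemiLocal K q.1)) :
    repJ K L T ⟶ repJv K L ⟨q.1, v⟩ :=
  Rep.ofHom (LinearMap.intertwiningMap_of_isIntertwiningMap _ _
    ((projIdele K L T q v).toAdditive.toIntLinearMap)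
    (fun σ x => congrArg Additive.ofMul
      (projIdele_smul K L T q v σ (Additive.toMul x : IdeleT L T))))

/-- The component map `Hⁿ(G, J_{L,T}) → Hⁿ(G, (K_v ⊗_K L)ˣ)`. -/
def projMap (T : Finset Nat.Primes) (q : T) (v : MaximalSpectrum (SemiLocal K q.1)) (n : ℕ) :
    groupCohomology (repJ K L T) n →ₗ[ℤ] groupCohomology (repJv K L ⟨q.1, v⟩) n :=
  ((groupCohomology.functor ℤ (L ≃ₐ[K] L) n).map (projRep K L T q v)).hom

/-- The projection `J_{L,T} → C_{L,T}`. -/
def toC (T : Finset Nat.Primes) : repJ K L T ⟶ repC K L T :=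
  Limits.cokernel.π (diagRep K L T)

/-- `Hⁿ(G, J_{L,T}) → Hⁿ(G, C_{L,T})`. -/
def toCMap (T : Finset Nat.Primes) (n : ℕ) :
    groupCohomology (repJ K L T) n →ₗ[ℤ] groupCohomology (repC K L T) n :=
  ((groupCohomology.functor ℤ (L ≃ₐ[K] L) n).map (toC K L T)).hom

/-- `Hⁿ(G, O_{L,T}ˣ) → Hⁿ(G, J_{L,T})`. -/
def diagMap (T : Finset Nat.Primes) (n : ℕ) :
    groupCohomology (repE K L T) n →ₗ[ℤ] groupCohomology (repJ K L T) n :=
  ((groupCohomology.functor ℤ (L ≃ₐ[K] L) n).map (diagRep K L T)).hom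

/-- The inclusion `O_{L,T}ˣ → Lˣ` as a morphism of `Gal(L/K)`-modules. -/
def unitsToL (T : Finset Nat.Primes) : repE K L T ⟶ repL K L :=
  Rep.ofHom (LinearMap.intertwiningMap_of_isIntertwiningMap _ _
    (((TUnits L T).subtype).toAdditive.toIntLinearMap)
    (fun _ _ => rfl))

/-- `Hⁿ(G, O_{L,T}ˣ) → Hⁿ(G, Lˣ)`. -/
def unitsMap (T : Finset Nat.Primes) (n : ℕ) :
    groupCohomology (repE K L T) n →ₗ[ℤ] groupCohomology (repL K L) n :=
  ((groupCohomology.functor ℤ (L ≃ₐ[K] L) n).map (unitsToL K L T)).hom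

/-! ### The two properties of `(K, L, T)` that the exports use -/

/-- The conclusion of `Stmt_CFp'`: `H¹(H, C) = 0` and `H²(H, C)` is cyclic of order `#H`,
generated by the restriction of one class `γ`, for every subgroup `H` of `Gal(L/K)`. -/
def IsClassFormation (T : Finset Nat.Primes) : Prop :=
  ∃ γ : groupCohomology (repC K L T) 2,
    (∀ H : Subgroup (L ≃ₐ[K] L), Subsingleton (groupCohomology (resSub (repC K L T) H) 1)) ∧
    ∀ H : Subgroup (L ≃ₐ[K] L),
      Nat.card (groupCohomology (resSub (repC K L T) H) 2) = Nat.card H ∧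
      ∀ x : groupCohomology (resSub (repC K L T) H) 2,
        ∃ n : ℤ, x = n • resMap (repC K L T) H 2 γ

/-- Local–global injectivity for `(K, L, T)`: a class of `H²(G, J_{L,T})` which dies in
`H²(G, C_{L,T})` and has at most one nonzero local component is locally trivial. -/
def InjAt (T : Finset Nat.Primes) : Prop :=
  ∀ x : groupCohomology (repJ K L T) 2, toCMap K L T 2 x = 0 →
    ∀ (q₀ : T) (v₀ : MaximalSpectrum (SemiLocal K q₀.1)),
      (∀ (q : T) (v : MaximalSpectrum (SemiLocal K q.1)),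
        (⟨q, v⟩ : (q : T) × MaximalSpectrum (SemiLocal K q.1)) ≠ ⟨q₀, v₀⟩ →
          projMap K L T q v 2 x = 0) →
      projMap K L T q₀ v₀ 2 x = 0

/-! ### Statements -/

/-- **SLD** (semi-local decomposition): `Hⁿ(G, J_{L,T}) = ∏_{v ∣ T} Hⁿ(G, (K_v ⊗_K L)ˣ)`; here:
the family of components is injective, and every single local class is the only nonzero
component of some class.  (`ℚ_q ⊗ L = ∏_{v ∣ q} (ℚ_q ⊗ L)/𝔪_v`, a `G`-equivariant decomposition:
`ℚ_q ⊗ K` is a finite product of fields.) -/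
def Stmt_SLD : Prop :=
  ∀ (K L : Type) [Field K] [Field L] [NumberField K] [NumberField L] [Algebra K L]
    (T : Finset Nat.Primes) (n : ℕ),
    (∀ x : groupCohomology (repJ K L T) n,
      (∀ (q : T) (v : MaximalSpectrum (SemiLocal K q.1)), projMap K L T q v n x = 0) → x = 0) ∧
    ∀ (q₀ : T) (v₀ : MaximalSpectrum (SemiLocal K q₀.1))
      (b : groupCohomology (repJv K L ⟨q₀.1, v₀⟩) n),
      ∃ x : groupCohomology (repJ K L T) n, projMap K L T q₀ v₀ n x = b ∧
        ∀ (q : T) (v : MaximalSpectrum (SemiLocal K q.1)),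
          (⟨q, v⟩ : (q : T) × MaximalSpectrum (SemiLocal K q.1)) ≠ ⟨q₀, v₀⟩ →
            projMap K L T q v n x = 0

/-- **VAL-b** (functoriality): the local component at `v ∣ T` of the image in `Hⁿ(G, Lˣ)` of a
class of `Hⁿ(G, O_{L,T}ˣ)` is the `v`-component of its image in `Hⁿ(G, J_{L,T})`. -/
def Stmt_LocUnits : Prop :=
  ∀ (K L : Type) [Field K] [Field L] [NumberField K] [NumberField L] [Algebra K L]
    (T : Finset Nat.Primes) (n : ℕ) (q : T) (v : MaximalSpectrum (SemiLocal K q.1))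
    (e : groupCohomology (repE K L T) n),
    locMap K L ⟨q.1, v⟩ n (unitsMap K L T n e) = projMap K L T q v n (diagMap K L T n e)

/-- **VAL-a** (valuation sequence, exactness): for admissible `T`, a class of `H²(G, Lˣ)` which
is locally trivial at all places outside `T` comes from `H²(G, O_{L,T}ˣ)`.
(`1 → O_{L,T}ˣ → Lˣ → I^T → 1`, `I^T` the divisors outside `T`, onto since `Cl_T(L) = 1`;
`H²(G, I^T) = ⊕_{v ∉ T} H²(G, ⊕_{w ∣ v} ℤ)` and the valuation `Lˣ → ⊕_{w ∣ v} ℤ` factors through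
`(K_v ⊗_K L)ˣ`.) -/
def Stmt_ValExact : Prop :=
  ∀ (p : ℕ) (K L : Type) [Field K] [Field L] [NumberField K] [NumberField L] [Algebra K L]
    (T : Finset Nat.Primes), Admissible K L T p →
    ∀ x : groupCohomology (repL K L) 2,
      (∀ v : Place K, v.1 ∉ T → locMap K L v 2 x = 0) →
      ∃ e : groupCohomology (repE K L T) 2, unitsMap K L T 2 e = x

/-- **VAL-c** (units at unramified places): for admissible `T`, the image of
`H²(G, O_{L,T}ˣ)` in `H²(G, Lˣ)` is locally trivial at all places outside `T`.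
(`H²(G_w, O_wˣ) = 0` for unramified `L_w/K_v`: the decomposition group is cyclic, units are
norms by LOC-2b.) -/
def Stmt_UnitsUnram : Prop :=
  ∀ (p : ℕ) (K L : Type) [Field K] [Field L] [NumberField K] [NumberField L] [Algebra K L]
    (T : Finset Nat.Primes), Admissible K L T p →
    ∀ (e : groupCohomology (repE K L T) 2) (v : Place K), v.1 ∉ T →
      locMap K L v 2 (unitsMap K L T 2 e) = 0

/-- **VAL-d** (`H³`): for admissible `T`, `H³(G, O_{L,T}ˣ) → H³(G, Lˣ)` is onto.
(`H³(G, I^T) = ⊕ H³(G_w, ℤ) = 0` because the decomposition groups outside `T` are cyclic.) -/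
def Stmt_ValH3 : Prop :=
  ∀ (p : ℕ) (K L : Type) [Field K] [Field L] [NumberField K] [NumberField L] [Algebra K L]
    (T : Finset Nat.Primes), Admissible K L T p →
    ∀ x : groupCohomology (repL K L) 3, ∃ e : groupCohomology (repE K L T) 3,
      unitsMap K L T 3 e = x

/-- **SHL** (Shapiro + local class field theory in semi-local form): for a Galois `p`-extension
`L/K` (`ζ_p ∈ K`) and every finite place `v` of `K`:
`H¹(G, (K_v ⊗_K L)ˣ) = 0`, `H²(G, (K_v ⊗_K L)ˣ)` is finite cyclic of order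
`[L : K] / #{places of L above v}` (the local degree), and `H³(G, (K_v ⊗_K L)ˣ) = 0`.
(`(K_v ⊗_K L)ˣ = Ind_{D_w}^G L_wˣ`; Hilbert 90; LOC-4; TN-2.) -/
def Stmt_SHL : Prop :=
  ∀ (p m : ℕ) (K L : Type) [Field K] [Field L] [NumberField K] [NumberField L] [Algebra K L],
    Hyp3 K L p m → ∀ v : Place K,
      Subsingleton (groupCohomology (repJv K L v) 1) ∧
      Finite (groupCohomology (repJv K L v) 2) ∧
      Nat.card (groupCohomology (repJv K L v) 2) * Nat.card (MaximalSpectrum (LocAlg K L v)) =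
        Module.finrank K L ∧
      (∃ g : groupCohomology (repJv K L v) 2,
        ∀ x : groupCohomology (repJv K L v) 2, ∃ n : ℤ, x = n • g) ∧
      Subsingleton (groupCohomology (repJv K L v) 3)

/-- **SHL-inf** (local inflation is injective in degree 2, Hilbert 90): for a tower
`K ⊆ L ⊆ N` of finite Galois extensions and every place `v` of `K`. -/
def Stmt_InfJvInj : Prop :=
  ∀ (K L N : Type) [Field K] [Field L] [Field N] [NumberField K] [NumberField L] [NumberField N]
    [Algebra K L] [Algebra K N] [Algebra L N] [IsScalarTower K L N] [Normal K L],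
    IsGalois K L → IsGalois K N → ∀ v : Place K,
      Function.Injective (infJv K L N v 2)

/-- **GoodT** (= INJ + CF-G' in the form that is used by the exports): for a Galois
`p`-extension `L/K` (`p` odd, `ζ_p ∈ K`), every finite set `T₀` of primes and every `M₀` there are
`M ≥ M₀` and `T ⊇ T₀` such that, with `N = L(ζ_{p^M})`: `Hyp2 K L T p m M`, and both `(K, L, T)`
and `(K, N, T)` are class formations with local–global injectivity.
(Route: NOTES/plan/S55_BR.md §2; the places above `p` need `Stmt_LocalThetaOnto`.) -/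
def Stmt_GoodT : Prop :=
  ∀ (p m : ℕ) (K L : Type) [Field K] [Field L] [NumberField K] [NumberField L] [Algebra K L]
    (_ : Hyp3 K L p m) (T₀ : Finset Nat.Primes) (M₀ : ℕ),
    ∃ (M : ℕ) (_ : NeZero (p ^ M)) (T : Finset Nat.Primes),
      M₀ ≤ M ∧ T₀ ⊆ T ∧ Hyp2 K L T p m M ∧
      IsClassFormation K L T ∧ InjAt K L T ∧
      IsClassFormation K (CyclotomicField (p ^ M) L) T ∧ InjAt K (CyclotomicField (p ^ M) L) T

/-- **The local input at the places above `p`** (island LOC): let `F` be a finite extension of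
`ℚ_p`, `p` odd, with `ζ_{p^c} ∈ F`, `c ≥ 1`, and `ζ_{p^{c+1}} ∉ F`.  Then the unit part of some norm
`N_{F/ℚ_p}(b)` is `≢ 1 mod p^{c+1}`.  (Equivalently: `N_{F/F₁} Fˣ ⊄ N_{E₀/F₁} E₀ˣ` for
`F₁ = ℚ_p(ζ_{p^c})`, `E₀ = F₁(ζ_{p^{c+1}})`: norm limitation.  Routes: NOTES/plan/S55_BR.md §3.) -/
def Stmt_LocalThetaOnto : Prop :=
  ∀ (p : Nat.Primes) (c : ℕ) (F : Type) [Field F] [Algebra (Qp p) F]
    [FiniteDimensional (Qp p) F], (p : ℕ) ≠ 2 → 1 ≤ c →
    (∃ ζ : F, IsPrimitiveRoot ζ ((p : ℕ) ^ c)) →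
    (¬ ∃ ζ : F, IsPrimitiveRoot ζ ((p : ℕ) ^ (c + 1))) →
    ∃ b : Fˣ, thetaLoc p (c + 1) p (Units.map (Algebra.norm (Qp p) : F →* Qp p) b) ≠ 1

end Fermat.Agent.S55.CFT

end
end
-- ==== END Fermat.Agent.S55.CFT.Defs_BR2

-- ==== BEGIN Fermat.Agent.S55.CFT.GS.H68_LocS_Defs
section

set_option autoImplicit false

open CategoryTheory groupCohomology

noncomputable section

namespace Fermat.Agent.S55.CFT.GS

open Fermat.Agent.S55.CFT

/-- **LOCS-SH2** (Shapiro in degree 2, by hand).  `G` finite acting on the commutative ring `B`,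
`M` a maximal ideal with `⋂_g g⁻¹ M = 0`, `D` the stabiliser of `M`.  If the multiplicative
2-cocycle `c : G × G → Bˣ` satisfies `c(d₁, d₂) ≡ d₁ b(d₂) · b(d₁ d₂)⁻¹ · b(d₁)  mod M` on `D`,
then `c = d β` for some `β : G → Bˣ`.
(Homogeneous form: `Φ(x₀,x₁,x₂) = [x₀ c(x₀⁻¹x₁, x₁⁻¹x₂)] ∈ (B/M)ˣ` is `D`-equivariant and a
cocycle; `ρ : G → D` a `D`-equivariant retraction (coset representatives); `ψ(y₀,y₁) = y₀ b(y₀⁻¹y₁)`;
`θ(x₀,x₁) = ψ(ρx₀,ρx₁) · Φ(x₀,ρx₀,ρx₁)⁻¹ · Φ(x₀,x₁,ρx₁)` satisfies `dθ = Φ` (three instances of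
the cocycle identity: `(x₀,ρx₀,ρx₁,ρx₂)`, `(x₀,x₁,ρx₁,ρx₂)`, `(x₀,x₁,x₂,ρx₂)`);
`β(σ)` := the unit of `B` with `[x β(σ)] = θ(x, xσ)` for all `x`
(`H58.toCoindUnits_surjective`); `c = dβ` by `H58.toCoindUnits_injective`.) -/
def Stmt_LocS_Shapiro2 : Prop :=
  ∀ (G : Type) [Group G] [Finite G] (B : Type) [CommRing B] [MulSemiringAction G B]
    (M : Ideal B) [M.IsMaximal], H58.OrbitSeparates G M →
    ∀ c : G × G → Bˣ,
      (∀ σ τ υ : G, H58.unitsSmul G B σ (c (τ, υ)) * c (σ, τ * υ) = c (σ * τ, υ) * c (σ, τ)) →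
      ∀ b : H58.decomp G M → (B ⧸ M)ˣ,
        (∀ d₁ d₂ : H58.decomp G M, H58.redUnits M (c ((d₁ : G), (d₂ : G))) =
          H58.unitsSmul (H58.decomp G M) (B ⧸ M) d₁ (b d₂) * (b (d₁ * d₂))⁻¹ * b d₁) →
        ∃ β : G → Bˣ, ∀ σ τ : G,
          c (σ, τ) = H58.unitsSmul G B σ (β τ) * (β (σ * τ))⁻¹ * β σ

/-- **LOCS-H2Z** (the class of a cocycle has zero local component iff the localised cocycle is a
coboundary).  (`groupCohomology.H2π_comp_map`, `H2π_eq_zero_iff`, `coboundariesOfIsMulCoboundary₂`,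
`isMulCoboundary₂_of_mem_coboundaries₂`.) -/
def Stmt_LocS_H2Zero : Prop :=
  ∀ (K L : Type) [Field K] [Field L] [NumberField K] [NumberField L] [Algebra K L]
    (v : Place K) (f : (L ≃ₐ[K] L) × (L ≃ₐ[K] L) → Lˣ) (hf : IsMulCocycle₂ f),
    locMap K L v 2 (H2π (repL K L) (cocyclesOfIsMulCocycle₂ hf)) = 0 ↔
      ∃ β : (L ≃ₐ[K] L) → (LocAlg K L v)ˣ, ∀ σ τ : L ≃ₐ[K] L,
        locHom K L v (f (σ, τ)) = σ • β τ * (β (σ * τ))⁻¹ * β σ

end Fermat.Agent.S55.CFT.GS

end

end
-- ==== END Fermat.Agent.S55.CFT.GS.H68_LocS_Defs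

-- ==== BEGIN Fermat.Agent.S55.CFT.H12_EHerbrand
section

set_option autoImplicit false

namespace Fermat.Agent.S55.CFT.H12

open NumberField IsDedekindDomain Module Fermat.Agent.S14.H62

/-- **GLB-2** (Herbrand quotient of the `T`-units). -/
theorem stmt_EHerbrand : Stmt_EHerbrand := by
  intro p K L _ _ _ _ _ T hp hdeg hgal hcplx
  have hpp : Fact p.Prime := ⟨hp⟩
  classical
  have hcard : Nat.card (L ≃ₐ[K] L) = p := by
    rw [IsGalois.card_aut_eq_finrank, hdeg]
  have hcyc : IsCyclic (L ≃ₐ[K] L) := isCyclic_of_prime_card hcard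
  obtain ⟨g, hg⟩ := hcyc.exists_generator
  have hfinG : Finite (L ≃ₐ[K] L) := inferInstance
  let _ : Fintype (L ≃ₐ[K] L) := Fintype.ofFinite _
  obtain ⟨h0, h1, heq⟩ := eherbrand_index K L T hdeg g hg
  have hnorm := norm_eq_sum_pow (repE K L T) g hg p hcard
  have e2 := card_even (repE K L T) g hg 2 (by decide)
  have e1 := card_odd (repE K L T) g hg 1 (by decide)
  rw [hIdx_top] at h0 h1 heq
  rw [hIdx_top] at heq
  rw [hnorm] at e1 e2
  have e2' : Nat.card (groupCohomology (repE K L T) 2) =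
      (nrmE p (rhoE K L T g)).toAddMonoidHom.range.relIndex
        (delE (rhoE K L T g)).toAddMonoidHom.ker := e2
  have e1' : Nat.card (groupCohomology (repE K L T) 1) =
      (delE (rhoE K L T g)).toAddMonoidHom.range.relIndex
        (nrmE p (rhoE K L T g)).toAddMonoidHom.ker := e1
  refine ⟨?_, ?_, ?_⟩
  · exact Nat.finite_of_card_ne_zero (by rw [e1']; exact h1)
  · exact Nat.finite_of_card_ne_zero (by rw [e2']; exact h0)
  · rw [e1', e2']
    exact heq

end Fermat.Agent.S55.CFT.H12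

end
-- ==== END Fermat.Agent.S55.CFT.H12_EHerbrand

-- ==== BEGIN Fermat.Agent.S55.CFT.H12_IdeleBase
section

set_option autoImplicit false
set_option linter.unusedSectionVars false

namespace Fermat.Agent.S55.CFT.H12

open NumberField Module TensorProduct

section base

variable (K L : Type) [Field K] [Field L] [NumberField K] [NumberField L] [Algebra K L]
  (T : Finset Nat.Primes)

/-- `x ↦ 1 ⊗ x`, `L → ℚ_q ⊗ L`, is injective. -/
theorem includeRight_semiLocal_injective (q : Nat.Primes) :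
    Function.Injective (Algebra.TensorProduct.includeRight : L →ₐ[ℚ] SemiLocal L q) :=
  Algebra.TensorProduct.includeRight_injective (algebraMap ℚ (Qp q)).injective

/-- **T5a**: the diagonal embedding `Lˣ → J_{L,T}` is injective if `T ≠ ∅`. -/
theorem diagIdele_injective (hT : T.Nonempty) : Function.Injective (diagIdele L T) := by
  obtain ⟨q, hq⟩ := hT
  intro x y h
  have h1 := congrArg (fun j : IdeleT L T => ((j ⟨q, hq⟩ : (SemiLocal L q)ˣ) : SemiLocal L q)) h
  apply Units.ext
  exact includeRight_semiLocal_injective L q h1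

theorem diagIdele_apply_val (x : Lˣ) (q : T) :
    ((diagIdele L T x q : (SemiLocal L q.1)ˣ) : SemiLocal L q.1) = (1 : Qp q.1) ⊗ₜ[ℚ] (x : L) :=
  rfl

theorem baseIdele_apply_val (x : IdeleT K T) (q : T) :
    ((baseIdele K L T x q : (SemiLocal L q.1)ˣ) : SemiLocal L q.1) =
      semiLocalMap K L q.1 ((x q : (SemiLocal K q.1)ˣ) : SemiLocal K q.1) := rfl

theorem smul_idele_apply_val (σ : L ≃ₐ[K] L) (y : IdeleT L T) (q : T) :
    (((σ • y) q : (SemiLocal L q.1)ˣ) : SemiLocal L q.1) =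
      semiLocalEquiv K L q.1 σ ((y q : (SemiLocal L q.1)ˣ) : SemiLocal L q.1) := rfl

/-- `base ∘ diag_K = diag_L ∘ (Kˣ → Lˣ)`. -/
theorem baseIdele_diagIdele (x : Kˣ) :
    baseIdele K L T (diagIdele K T x) =
      diagIdele L T (Units.map (algebraMap K L : K →* L) x) := by
  funext q
  apply Units.ext
  rw [baseIdele_apply_val, diagIdele_apply_val, diagIdele_apply_val, semiLocalMap_tmul]
  rfl

/-- **T3b**: the base change of an idele of `K` is Galois invariant. -/
theorem smul_baseIdele (σ : L ≃ₐ[K] L) (x : IdeleT K T) :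
    σ • baseIdele K L T x = baseIdele K L T x := by
  funext q
  apply Units.ext
  rw [smul_idele_apply_val, baseIdele_apply_val, _root_.Fermat.Agent.S55.CFT.H12.semiLocalEquiv_semiLocalMap]

theorem baseIdele_injective : Function.Injective (baseIdele K L T) := by
  intro x x' h
  funext q
  have hq := congrFun h q
  exact Units.map_injective (f := ((semiLocalMap K L q.1 : SemiLocal K q.1 →* SemiLocal L q.1)))
    (semiLocalMap_injective K L q.1) hq

theorem exists_baseIdele_of_invariant [IsGalois K L] (y : IdeleT L T)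
    (hy : ∀ σ : L ≃ₐ[K] L, σ • y = y) : ∃ x : IdeleT K T, baseIdele K L T x = y := by
  have hex : ∀ q : T, ∃ x : (SemiLocal K q.1)ˣ,
      Units.map ((semiLocalMap K L q.1 : SemiLocal K q.1 →* SemiLocal L q.1)) x = y q := by
    intro q
    exact exists_unit_of_invariant K L q.1 (y q) (fun σ => congrFun (hy σ) q)
  choose x hx using hex
  exact ⟨x, funext hx⟩

theorem baseIdele_normLK [IsGalois K L] (y : IdeleT L T) :
    baseIdele K L T (normLK K L T y) = ∏ σ : L ≃ₐ[K] L, σ • y := by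
  funext q
  apply Units.ext
  have h := semiLocalMap_norm K L q.1 ((y q : (SemiLocal L q.1)ˣ) : SemiLocal L q.1)
  have h3 : (((∏ σ : L ≃ₐ[K] L, σ • y) q : (SemiLocal L q.1)ˣ) : SemiLocal L q.1) =
      ∏ σ : L ≃ₐ[K] L, semiLocalEquiv K L q.1 σ ((y q : (SemiLocal L q.1)ˣ) : SemiLocal L q.1) := by
    rw [Finset.prod_apply, Units.coe_prod]
    rfl
  rw [h3, ← h]
  rfl

/-- **T5b**: the Galois invariant `T`-units of `L` are the `T`-units of `K`. -/
theorem exists_iotaT_of_invariant [IsGalois K L] (e : TUnits L T)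
    (he : ∀ σ : L ≃ₐ[K] L, σ • e = e) : ∃ e' : TUnits K T, iotaT K L T e' = e := by
  have hfix : ∀ σ : L ≃ₐ[K] L, σ ((e : Lˣ) : L) = ((e : Lˣ) : L) := by
    intro σ
    have := congrArg (fun u : TUnits L T => ((u : Lˣ) : L)) (he σ)
    exact this
  obtain ⟨k, hk⟩ := (IsGalois.mem_range_algebraMap_iff_fixed (F := K) (E := L) _).mpr hfix
  have hk0 : k ≠ 0 := by
    rintro rfl
    rw [map_zero] at hk
    exact e.1.ne_zero hk.symm
  have hmem : Units.mk0 k hk0 ∈ TUnits K T := by
    obtain ⟨n, e1, e2⟩ := e.2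
    refine ⟨n, ?_, ?_⟩
    · rw [← isIntegral_algebraMap_iff (algebraMap K L).injective (R := ℤ), map_mul, map_pow,
        map_natCast, Units.val_mk0, hk]
      exact e1
    · rw [← isIntegral_algebraMap_iff (algebraMap K L).injective (R := ℤ), map_mul, map_pow,
        map_natCast, Units.val_inv_eq_inv_val, Units.val_mk0, map_inv₀, hk,
        ← Units.val_inv_eq_inv_val]
      exact e2
  refine ⟨⟨Units.mk0 k hk0, hmem⟩, ?_⟩
  apply Subtype.ext
  apply Units.ext
  exact hk

theorem iotaT_val (e : TUnits K T) :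
    ((iotaT K L T e : TUnits L T) : Lˣ) = Units.map (algebraMap K L : K →* L) (e : Kˣ) := rfl

end base

end Fermat.Agent.S55.CFT.H12

end
-- ==== END Fermat.Agent.S55.CFT.H12_IdeleBase

-- ==== BEGIN Fermat.Agent.S55.CFT.H13_TateLES
section

/-!
# S55-E4 package TN-2, helper13: the long exact sequences

* `isZero_H1_trivZ`: `H¹(H, ℤ) = 0` for finite `H`;
* `isZero_H2_aug`: `H²(H, I_G) = 0`;
* `H1_aug_gen`: `H¹(H, I_G)` is generated by the class `u` of `h ↦ δ_h - δ_1`, and `|H| u = 0`;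
* `delta_u`: `δ u = res γ` for `0 → C → C(γ) → I_G → 0`.
-/

set_option autoImplicit false
set_option linter.unusedSectionVars false
set_option linter.unusedVariables false
set_option linter.style.haveILetI false

noncomputable section

namespace Fermat.Agent.S55.CFT.H13

open CategoryTheory groupCohomology Limits Fermat.Agent.S55.CFT Fermat.Agent.S55.CFT.H12

attribute [local instance 1100] Rep.hV2

section Triv

variable (Γ : Type) [Group Γ] [Finite Γ]

theorem cocycle_trivZ_eq_zero (x : cocycles₁ (trivZ Γ)) (g : Γ) : x g = 0 := by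
  have hpow : ∀ n : ℕ, x (g ^ n) = n • x g := by
    intro n
    induction n with
    | zero => rw [pow_zero, cocycles₁_map_one, zero_smul]
    | succ n ih =>
      rw [pow_succ, cocycles₁_map_mul_of_isTrivial, ih, succ_nsmul]
  have h1 := hpow (Nat.card Γ)
  rw [pow_card_eq_one', cocycles₁_map_one] at h1
  have h2 : (Nat.card Γ : ℤ) * x g = 0 := by
    rw [← nsmul_eq_mul]
    exact h1.symm
  rcases mul_eq_zero.mp h2 with h3 | h3
  · exact absurd (Nat.cast_eq_zero.mp h3) Nat.card_pos.ne'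
  · exact h3

theorem isZero_H1_trivZ : IsZero (groupCohomology (trivZ Γ) 1) := by
  rw [ModuleCat.isZero_iff_subsingleton]
  have key : ∀ a : groupCohomology (trivZ Γ) 1, a = 0 := by
    intro a
    induction a using H1_induction_on with
    | h x =>
      rw [H1π_eq_zero_iff]
      have hx : (x : Γ → ℤ) = 0 := by
        funext g
        exact cocycle_trivZ_eq_zero Γ x g
      rw [hx]
      exact Submodule.zero_mem _
  exact ⟨fun a b => by rw [key a, key b]⟩

end Triv

section Aug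

variable (G : Type) [Group G] [Fintype G] (H : Subgroup G)

/-- `H²(H, I_G) = 0`. -/
theorem isZero_H2_aug : IsZero (groupCohomology (resSub (augR G) H) 2) := by
  have hB := seqB_shortExact G H
  have hex := mapShortComplex₁_exact hB (i := 1) (j := 2) rfl
  exact hex.isZero_of_both_isZero (isZero_H1_trivZ H) (isZero_fun H 1)

end Aug

section Gen

variable (G : Type) [Group G] [Fintype G] (H : Subgroup G)

open Classical in
/-- The indicator of the identity. -/
def dOne : G → ℤ := Pi.single 1 1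

theorem aug_dOne : aug G (_root_.Fermat.Agent.S55.CFT.H13.dOne G) = 1 := by
  classical
  unfold _root_.Fermat.Agent.S55.CFT.H13.dOne
  convert aug_single G (1 : G)

open Classical in
theorem funRep_dOne_apply (σ g : G) : funRep G σ (_root_.Fermat.Agent.S55.CFT.H13.dOne G) g = if g = σ then 1 else 0 := by
  rw [funRep_apply]
  unfold _root_.Fermat.Agent.S55.CFT.H13.dOne
  rw [Pi.single_apply]
  by_cases h : g = σ
  · rw [if_pos h, if_pos (by rw [h, inv_mul_cancel])]
  · rw [if_neg h, if_neg (fun h' => h (by rw [inv_mul_eq_one] at h'; exact h'.symm))]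

/-- The element `h δ - δ` of the augmentation ideal. -/
def zOneFun (h : H) : augI G := ⟨funRep G (h : G) (_root_.Fermat.Agent.S55.CFT.H13.dOne G) - _root_.Fermat.Agent.S55.CFT.H13.dOne G, by
  show aug G _ = 0
  rw [map_sub, aug_funRep, sub_self]⟩

theorem zOneFun_coe (h : H) :
    ((zOneFun G H h : augI G) : G → ℤ) = funRep G (h : G) (_root_.Fermat.Agent.S55.CFT.H13.dOne G) - _root_.Fermat.Agent.S55.CFT.H13.dOne G := rfl

/-- The cocycle `h ↦ h δ - δ` of `I_G`. -/
def zOne : cocycles₁ (resSub (augR G) H) := ⟨zOneFun G H, by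
  rw [mem_cocycles₁_iff]
  intro g h
  apply Subtype.ext
  show funRep G ((g * h : H) : G) (_root_.Fermat.Agent.S55.CFT.H13.dOne G) - _root_.Fermat.Agent.S55.CFT.H13.dOne G =
    funRep G (g : G) (funRep G (h : G) (_root_.Fermat.Agent.S55.CFT.H13.dOne G) - _root_.Fermat.Agent.S55.CFT.H13.dOne G) + (funRep G (g : G) (_root_.Fermat.Agent.S55.CFT.H13.dOne G) - _root_.Fermat.Agent.S55.CFT.H13.dOne G)
  rw [Subgroup.coe_mul, map_mul, map_sub, Module.End.mul_apply]
  abel⟩

theorem zOne_apply (h : H) : (zOne G H) h = zOneFun G H h := rfl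

/-- The class `u` of `zOne`. -/
def uClass : groupCohomology (resSub (augR G) H) 1 := H1π (resSub (augR G) H) (zOne G H)

/-- `H¹(H, I_G)` is generated by `u`. -/
theorem H1_aug_gen (a : groupCohomology (resSub (augR G) H) 1) :
    ∃ n : ℤ, a = n • uClass G H := by
  induction a using H1_induction_on with
  | h z =>
    -- `z` as a cocycle of `Fun(G, ℤ)`
    obtain ⟨zF, hzF⟩ : ∃ zF : cocycles₁ (resSub (funR G) H),
        ∀ h : H, zF h = ((z h : augI G) : G → ℤ) := by
      refine ⟨⟨fun h => ((z h : augI G) : G → ℤ), ?_⟩, fun h => rfl⟩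
      rw [mem_cocycles₁_iff]
      intro g h
      have := (mem_cocycles₁_iff (A := resSub (augR G) H) z).1 z.2 g h
      exact congrArg (fun w : augI G => (w : G → ℤ)) this
    have h0 : H1π (resSub (funR G) H) zF = 0 :=
      (ModuleCat.isZero_iff_subsingleton.mp (isZero_fun H 0)).elim _ _
    rw [H1π_eq_zero_iff] at h0
    obtain ⟨y, hy⟩ := h0
    have hy' : ∀ h : H, funRep G (h : G) y - y = ((z h : augI G) : G → ℤ) := by
      intro h
      rw [← hzF h]
      exact congrFun hy h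
    refine ⟨aug G y, ?_⟩
    show H1π _ z = aug G y • H1π _ (zOne G H)
    rw [← map_zsmul, H1π_eq_iff]
    refine ⟨(⟨y - aug G y • _root_.Fermat.Agent.S55.CFT.H13.dOne G, ?_⟩ : augI G), ?_⟩
    · show aug G _ = 0
      rw [map_sub, map_smul, aug_dOne, smul_eq_mul, mul_one, sub_self]
    · funext h
      apply Subtype.ext
      show funRep G (h : G) (y - aug G y • _root_.Fermat.Agent.S55.CFT.H13.dOne G) - (y - aug G y • _root_.Fermat.Agent.S55.CFT.H13.dOne G) =
        ((z h : augI G) : G → ℤ) - aug G y • (funRep G (h : G) (_root_.Fermat.Agent.S55.CFT.H13.dOne G) - _root_.Fermat.Agent.S55.CFT.H13.dOne G)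
      rw [← hy' h, map_sub, map_smul]
      simp only [smul_sub]
      abel

end Gen

section Card

variable (G : Type) [Group G] [Fintype G] (H : Subgroup G)

open Classical in
/-- The indicator function of `H`. -/
def indH : G → ℤ := fun g => if g ∈ H then 1 else 0

theorem funRep_indH (h : H) : funRep G (h : G) (indH G H) = indH G H := by
  classical
  funext g
  rw [funRep_apply]
  unfold indH
  have : (h : G)⁻¹ * g ∈ H ↔ g ∈ H := H.mul_mem_cancel_left (H.inv_mem h.2)
  simp only [this]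

theorem aug_indH : aug G (indH G H) = (Nat.card H : ℤ) := by
  classical
  rw [aug_apply]
  unfold indH
  rw [Finset.sum_boole, Nat.card_eq_fintype_card, Fintype.card_subtype]

/-- `|H| u = 0`. -/
theorem card_smul_uClass : (Nat.card H : ℤ) • uClass G H = 0 := by
  unfold uClass
  rw [← map_zsmul, H1π_eq_zero_iff]
  refine ⟨(⟨(Nat.card H : ℤ) • _root_.Fermat.Agent.S55.CFT.H13.dOne G - indH G H, ?_⟩ : augI G), ?_⟩
  · show aug G _ = 0
    rw [map_sub, map_smul, aug_dOne, aug_indH, smul_eq_mul, mul_one, sub_self]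
  · funext h
    apply Subtype.ext
    show funRep G (h : G) ((Nat.card H : ℤ) • _root_.Fermat.Agent.S55.CFT.H13.dOne G - indH G H) -
        ((Nat.card H : ℤ) • _root_.Fermat.Agent.S55.CFT.H13.dOne G - indH G H) =
      (Nat.card H : ℤ) • (funRep G (h : G) (_root_.Fermat.Agent.S55.CFT.H13.dOne G) - _root_.Fermat.Agent.S55.CFT.H13.dOne G)
    rw [map_sub, map_smul, funRep_indH]
    simp only [smul_sub]
    abel

end Card

section Delta

variable {G : Type} [Group G] [Fintype G] (C : Rep.{0} ℤ G) (γ : cocycles₂ C) (H : Subgroup G)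

theorem phi_funRep_dOne (g h : G) : phi C γ g (funRep G h (_root_.Fermat.Agent.S55.CFT.H13.dOne G)) = γ (g, h) := by
  classical
  rw [phi_apply]
  rw [Finset.sum_eq_single h]
  · rw [funRep_dOne_apply, if_pos rfl, one_smul]
  · intro τ _ hτ
    rw [funRep_dOne_apply, if_neg hτ, zero_smul]
  · intro hh
    exact absurd (Finset.mem_univ h) hh

theorem phi_dOne (g : G) : phi C γ g (_root_.Fermat.Agent.S55.CFT.H13.dOne G) = γ (g, 1) := by
  have h := phi_funRep_dOne C γ g 1
  rw [map_one] at h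
  exact h

theorem phi_zOne (g : G) (h : H) :
    phi C γ g ((zOneFun G H h : augI G) : G → ℤ) = γ (g, (h : G)) - γ (g, 1) := by
  rw [zOneFun_coe, map_sub, phi_funRep_dOne, phi_dOne]

/-- The lift `h ↦ (0, h δ - δ)` of `zOne` to the splitting module. -/
def yLift : H → (C.V × augI G) := fun h => (0, zOneFun G H h)

/-- The 2-cochain `(g, h) ↦ γ (g, h) - γ (g, 1)`. -/
def xCoch : H × H → C.V := fun p => γ ((p.1 : G), (p.2 : G)) - γ ((p.1 : G), 1)

theorem xCoch_eq :
    (seqA C γ H).f.hom ∘ xCoch C γ H = d₁₂ (seqA C γ H).X₂ (yLift C H) := by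
  funext p
  obtain ⟨g, h⟩ := p
  show ((xCoch C γ H (g, h), (0 : augI G)) : C.V × augI G) =
    splitRep C γ (g : G) (yLift C H h) - yLift C H (g * h) + yLift C H g
  refine Prod.ext ?_ ?_
  · show xCoch C γ H (g, h) =
      (C.ρ (g : G) (0 : C.V) + phi C γ (g : G) ((zOneFun G H h : augI G) : G → ℤ)) - 0 + 0
    rw [map_zero, zero_add, sub_zero, add_zero, phi_zOne]
    rfl
  · show (0 : augI G) =
      augRep G (g : G) (zOneFun G H h) - zOneFun G H (g * h) + zOneFun G H g
    have := (mem_cocycles₁_iff (A := resSub (augR G) H) (zOne G H)).1 (zOne G H).2 g h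
    have h2 : zOneFun G H (g * h) = augRep G (g : G) (zOneFun G H h) + zOneFun G H g := this
    rw [h2]
    abel

/-- `δ u` is the class of `xCoch`. -/
theorem delta_uClass_aux :
    δ (seqA_shortExact C γ H) 1 2 rfl (uClass G H) =
      H2π (resSub C H) ⟨xCoch C γ H,
        mem_cocycles₂_of_comp_eq_d₁₂ (seqA_shortExact C γ H) (xCoch_eq C γ H)⟩ :=
  δ₁_apply (seqA_shortExact C γ H) (zOne G H) (yLift C H) rfl (xCoch C γ H) (xCoch_eq C γ H)

/-- `δ u = res γ`. -/
theorem delta_uClass :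
    δ (seqA_shortExact C γ H) 1 2 rfl (uClass G H) = resMap C H 2 (H2π C γ) := by
  rw [delta_uClass_aux]
  have h1 : resMap C H 2 (H2π C γ) =
      H2π (resSub C H) (mapCocycles₂ H.subtype (𝟙 (resSub C H)) γ) :=
    H2π_comp_map_apply H.subtype (𝟙 (resSub C H)) γ
  rw [h1]
  refine (H2π_eq_iff (A := resSub C H) _ _).mpr ⟨fun _ => - γ (1, 1), ?_⟩
  funext p
  obtain ⟨g, h⟩ := p
  show C.ρ (g : G) (- γ (1, 1)) - (- γ (1, 1)) + (- γ (1, 1)) =
    (γ ((g : G), (h : G)) - γ ((g : G), 1)) - γ ((g : G), (h : G))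
  rw [cocycles₂_map_one_snd γ (g : G), map_neg]
  abel

end Delta

end Fermat.Agent.S55.CFT.H13

end
end
-- ==== END Fermat.Agent.S55.CFT.H13_TateLES

-- ==== BEGIN Fermat.Agent.S55.CFT.H20_RatApprox
section

/-!
# S55 / E4 / CFT, leaf SI-b (helper20): rational approximation

`exists_rat_approx`: for `q0 ∈ T`, `c ∈ ℚ_{q0}`, `m`, there are `b : ℤ`, `k` with
`|b / P ^ k - c|_{q0} ≤ q0 ^ (-m)` and `|b / P ^ k|_q ≤ q ^ (-m)` for the other `q ∈ T`
(`P = prodT T`).
-/

set_option autoImplicit false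

open NumberField TensorProduct

noncomputable section

namespace Fermat.Agent.S55.CFT.H20

open Fermat.Agent.S55.CFT Fermat.Agent.S55.CFT.H12

/-- Integer approximation of a `p`-adic integer, with a divisibility condition prime to `p`. -/
theorem exists_int_approx (p : ℕ) [hp : Fact p.Prime] (Q : ℕ) (hQ : Nat.Coprime p Q) (c : ℚ_[p])
    (hc : ‖c‖ ≤ 1) (M : ℕ) :
    ∃ b : ℤ, ‖(b : ℚ_[p]) - c‖ ≤ (p : ℝ) ^ (-(M : ℤ)) ∧ ((Q : ℤ) ^ M) ∣ b := by
  set c1 : ℤ_[p] := ⟨c, hc⟩ with hc1
  set n : ℕ := PadicInt.appr c1 M with hn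
  have h1 : ‖c1 - (n : ℤ_[p])‖ ≤ (p : ℝ) ^ (-(M : ℤ)) :=
    (PadicInt.norm_le_pow_iff_mem_span_pow _ _).mpr (PadicInt.appr_spec M c1)
  have h1' : ‖c - (n : ℚ_[p])‖ ≤ (p : ℝ) ^ (-(M : ℤ)) := by
    have : ((c1 - (n : ℤ_[p]) : ℤ_[p]) : ℚ_[p]) = c - (n : ℚ_[p]) := by
      rw [PadicInt.coe_sub, PadicInt.coe_natCast]
    rw [← this]
    exact h1
  have hcop : IsCoprime ((p : ℤ) ^ M) ((Q : ℤ) ^ M) :=
    IsCoprime.pow (Nat.isCoprime_iff_coprime.mpr hQ)
  obtain ⟨u, v, huv⟩ := hcop
  refine ⟨n * (v * (Q : ℤ) ^ M), ?_, ⟨n * v, by ring⟩⟩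
  have he : v * (Q : ℤ) ^ M = 1 - u * (p : ℤ) ^ M := by linarith
  rw [he]
  have h2 : ‖(((n : ℤ) * u * (p : ℤ) ^ M : ℤ) : ℚ_[p])‖ ≤ (p : ℝ) ^ (-(M : ℤ)) :=
    (Padic.norm_int_le_pow_iff_dvd _ _).mpr (Dvd.intro_left _ rfl)
  have h3 : (((n : ℤ) * (1 - u * (p : ℤ) ^ M) : ℤ) : ℚ_[p]) - c
      = -(c - (n : ℚ_[p])) + -(((n : ℤ) * u * (p : ℤ) ^ M : ℤ) : ℚ_[p]) := by
    push_cast
    ring
  rw [h3]
  refine (Padic.nonarchimedean _ _).trans (max_le ?_ ?_)
  · rwa [norm_neg]
  · rwa [norm_neg]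

/-- The product of the primes of `T` other than `q`. -/
def prodErase (T : Finset Nat.Primes) (q : Nat.Primes) : ℕ := ∏ q' ∈ T.erase q, (q' : ℕ)

theorem prodT_eq_mul {T : Finset Nat.Primes} {q : Nat.Primes} (hq : q ∈ T) :
    prodT T = (q : ℕ) * prodErase T q := by
  unfold prodT prodErase
  exact (Finset.mul_prod_erase T (fun q' : Nat.Primes => (q' : ℕ)) hq).symm

theorem coprime_prodErase (T : Finset Nat.Primes) (q : Nat.Primes) :
    Nat.Coprime (q : ℕ) (prodErase T q) := by
  unfold prodErase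
  refine Nat.Coprime.prod_right fun q' hq' => ?_
  refine (Nat.coprime_primes q.2 q'.2).mpr fun h => ?_
  exact (Finset.ne_of_mem_erase hq') (Subtype.ext h.symm)

theorem dvd_prodErase {T : Finset Nat.Primes} {q q' : Nat.Primes} (hq' : q' ∈ T) (hne : q' ≠ q) :
    (q' : ℕ) ∣ prodErase T q := by
  unfold prodErase
  exact Finset.dvd_prod_of_mem (fun q' : Nat.Primes => (q' : ℕ)) (Finset.mem_erase.mpr ⟨hne, hq'⟩)

theorem prodT_pos (T : Finset Nat.Primes) : 0 < prodT T := by
  unfold prodT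
  exact Finset.prod_pos fun q _ => q.2.pos

theorem norm_prodT {T : Finset Nat.Primes} {q : Nat.Primes} (hq : q ∈ T) :
    ‖((prodT T : ℕ) : ℚ_[(q : ℕ)])‖ = ((q : ℕ) : ℝ)⁻¹ := by
  rw [prodT_eq_mul hq, Nat.cast_mul, norm_mul, Padic.norm_p,
    Padic.norm_natCast_eq_one_iff.mpr (coprime_prodErase T q), mul_one]

theorem norm_prodT_pow {T : Finset Nat.Primes} {q : Nat.Primes} (hq : q ∈ T) (k : ℕ) :
    ‖(((prodT T : ℕ) : ℚ_[(q : ℕ)]) ^ k)‖ = ((q : ℕ) : ℝ) ^ (-(k : ℤ)) := by
  rw [norm_pow, norm_prodT hq, inv_pow, zpow_neg, zpow_natCast]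

/-- Rational approximation: a `T`-integer close to `c` at `q0` and close to `0` at the other
primes of `T`. -/
theorem exists_rat_approx (T : Finset Nat.Primes) {q0 : Nat.Primes} (hq0 : q0 ∈ T) (c : Qp q0)
    (m : ℕ) :
    ∃ (b : ℤ) (k : ℕ),
      qNorm q0 ((b : Qp q0) / ((prodT T : ℕ) : Qp q0) ^ k - c) ≤ ((q0 : ℕ) : ℝ) ^ (-(m : ℤ)) ∧
      ∀ q ∈ T, q ≠ q0 →
        qNorm q ((b : Qp q) / ((prodT T : ℕ) : Qp q) ^ k) ≤ ((q : ℕ) : ℝ) ^ (-(m : ℤ)) := by
  have hq1 : (1 : ℝ) < ((q0 : ℕ) : ℝ) := by exact_mod_cast q0.2.one_lt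
  obtain ⟨k, hk⟩ := pow_unbounded_of_one_lt ‖(c : ℚ_[(q0 : ℕ)])‖ hq1
  have hPk : ‖(((prodT T : ℕ) : ℚ_[(q0 : ℕ)]) ^ k)‖ = ((q0 : ℕ) : ℝ) ^ (-(k : ℤ)) :=
    norm_prodT_pow hq0 k
  have hPk0 : (((prodT T : ℕ) : ℚ_[(q0 : ℕ)]) ^ k) ≠ 0 := by
    intro h
    rw [h, norm_zero] at hPk
    exact (zpow_pos (q_pos q0) _).ne hPk
  have hc1 : ‖((prodT T : ℕ) : ℚ_[(q0 : ℕ)]) ^ k * c‖ ≤ 1 := by
    rw [norm_mul, hPk, zpow_neg, zpow_natCast]
    rw [inv_mul_le_iff₀ (pow_pos (q_pos q0) _), mul_one]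
    exact hk.le
  obtain ⟨b, hb1, hb2⟩ := exists_int_approx (q0 : ℕ) (prodErase T q0) (coprime_prodErase T q0)
    (((prodT T : ℕ) : ℚ_[(q0 : ℕ)]) ^ k * c) hc1 (m + k)
  refine ⟨b, k, ?_, ?_⟩
  · rw [qNorm_def]
    have h1 : (b : ℚ_[(q0 : ℕ)]) / ((prodT T : ℕ) : ℚ_[(q0 : ℕ)]) ^ k - c
        = ((b : ℚ_[(q0 : ℕ)]) - ((prodT T : ℕ) : ℚ_[(q0 : ℕ)]) ^ k * c)
          / ((prodT T : ℕ) : ℚ_[(q0 : ℕ)]) ^ k := by
      field_simp
    rw [h1, norm_div, hPk, div_le_iff₀ (zpow_pos (q_pos q0) _)]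
    refine hb1.trans (le_of_eq ?_)
    rw [← zpow_add₀ (q_pos q0).ne']
    congr 1
    push_cast
    ring
  · intro q hq hne
    rw [qNorm_def, norm_div, norm_prodT_pow hq, div_le_iff₀ (zpow_pos (q_pos q) _)]
    have hdvd : ((q : ℕ) : ℤ) ^ (m + k) ∣ b := by
      refine dvd_trans (pow_dvd_pow_of_dvd ?_ _) hb2
      exact_mod_cast dvd_prodErase hq hne
    have := (Padic.norm_int_le_pow_iff_dvd (p := (q : ℕ)) b (m + k)).mpr hdvd
    refine this.trans (le_of_eq ?_)
    rw [← zpow_add₀ (q_pos q).ne']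
    congr 1
    push_cast
    ring

end Fermat.Agent.S55.CFT.H20

end
end
-- ==== END Fermat.Agent.S55.CFT.H20_RatApprox
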