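-- GENERATED (merged mirror, NOTES/tools/trim/merge3_helper67.py): 6 modules of the originals, bodies verbatim.
import Fermat.Agent.Zm.S56_L04_003
import Fermat.Agent.Zm.S56_L03_003
import Fermat.Agent.Zm.S35_L03_001
import Fermat.Agent.Zm.S56_L04_004

-- ==== BEGIN Fermat.Agent.S55.Coh.Cone
section

set_option autoImplicit false

open CategoryTheory Module groupCohomology ExtCitation

noncomputable section

namespace Fermat.Agent.S55

variable {k : Type} [Field k] (S : Finset Nat.Primes)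

/-! ### The dual map as a morphism of representations -/

section dHom

variable (χ : GQ →* kˣ) {A B : Rep.{0} k GQ}

/-- The dual map `B' ⟶ A'` of a morphism `u : A ⟶ B`, as a morphism of representations. -/
def dHom (u : A ⟶ B) : Md χ B ⟶ Md χ A :=
  Rep.ofHom ⟨dMap χ u, fun g => LinearMap.ext fun φ => dMap_rho χ u g φ⟩

lemma dHom_hom_apply (u : A ⟶ B) (φ : Md χ B) : (dHom χ u).hom φ = dMap χ u φ := rfl

end dHom

/-! ### Cone differentials and push-forward -/

section coneDiff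

variable (M : Rep.{0} k GQ)

/-- The cone differential `C¹_c → C²_c`: `d (f, m) = (d f, res f - d m)`. -/
def dCone1 (y : C1c S M) : C2c S M :=
  (dOne M y.1, fun q => resOne q.1 y.1 - dZeroL M q.1 (y.2 q))

/-- The cone differential `C²_c → C³_c`: `d (f, g) = (d f, res f - d g)`. -/
def dCone2 (x : C2c S M) : C3c S M :=
  (dTwo M x.1, fun q => resTwo q.1 x.1 - dOneL M q.1 (x.2 q))

variable {S M}

lemma dCone2_add (x x' : C2c S M) : dCone2 S M (x + x') = dCone2 S M x + dCone2 S M x' := by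
  refine Prod.ext (dTwo_add M _ _) (funext fun q => ?_)
  simp only [dCone2, Prod.snd_add, Prod.fst_add, Pi.add_apply, resTwo_add, dOneL_add]
  abel

lemma dCone2_sub (x x' : C2c S M) : dCone2 S M (x - x') = dCone2 S M x - dCone2 S M x' := by
  refine Prod.ext (dTwo_sub M _ _) (funext fun q => ?_)
  simp only [dCone2, Prod.snd_sub, Prod.fst_sub, Pi.sub_apply, resTwo_sub, dOneL_sub]
  abel

lemma dCone1_add (y y' : C1c S M) : dCone1 S M (y + y') = dCone1 S M y + dCone1 S M y' := by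
  refine Prod.ext (dOne_add M _ _) (funext fun q => ?_)
  simp only [dCone1, Prod.snd_add, Prod.fst_add, Pi.add_apply, resOne_add, dZeroL_add]
  abel

lemma dCone1_sub (y y' : C1c S M) : dCone1 S M (y - y') = dCone1 S M y - dCone1 S M y' := by
  refine Prod.ext (dOne_sub M _ _) (funext fun q => ?_)
  simp only [dCone1, Prod.snd_sub, Prod.fst_sub, Pi.sub_apply, resOne_sub, dZeroL_sub]
  abel

/-- A cone 2-cochain with level components is a cocycle iff its cone differential vanishes. -/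
lemma isZ2c_iff (x : C2c S M) :
    IsZ2c S M x ↔ (IsLevelConstantS₂ S x.1 ∧ ∀ q : ↥S, IsLevelConstant₁ (rl q.1) (x.2 q)) ∧
      dCone2 S M x = 0 := by
  constructor
  · rintro ⟨⟨hd, hl⟩, h⟩
    refine ⟨⟨hl, fun q => (h q).1⟩, Prod.ext hd (funext fun q => ?_)⟩
    simp only [dCone2, (h q).2, sub_self, Prod.snd_zero, Pi.zero_apply]
  · rintro ⟨⟨hl, hl'⟩, h⟩
    have h1 : dTwo M x.1 = 0 := congrArg Prod.fst h
    have h2 : ∀ q : ↥S, resTwo q.1 x.1 - dOneL M q.1 (x.2 q) = 0 := fun q =>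
      congrFun (congrArg Prod.snd h) q
    exact ⟨⟨h1, hl⟩, fun q => ⟨hl' q, sub_eq_zero.1 (h2 q)⟩⟩

/-- A cone 1-cochain with level global component is a cocycle iff its cone differential
vanishes. -/
lemma isZ1c_iff (y : C1c S M) :
    IsZ1c S M y ↔ IsLevelConstantS₁ S y.1 ∧ dCone1 S M y = 0 := by
  constructor
  · rintro ⟨⟨hd, hl⟩, h⟩
    refine ⟨hl, Prod.ext hd (funext fun q => ?_)⟩
    simp only [dCone1, h q, sub_self, Prod.snd_zero, Pi.zero_apply]
  · rintro ⟨hl, h⟩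
    have h1 : dOne M y.1 = 0 := congrArg Prod.fst h
    have h2 : ∀ q : ↥S, resOne q.1 y.1 - dZeroL M q.1 (y.2 q) = 0 := fun q =>
      congrFun (congrArg Prod.snd h) q
    exact ⟨⟨h1, hl⟩, fun q => sub_eq_zero.1 (h2 q)⟩

/-- The cone differential of a level cone 2-cochain is a cone 3-coboundary. -/
lemma isB3c_dCone2 {x : C2c S M} (hl : IsLevelConstantS₂ S x.1)
    (hl' : ∀ q : ↥S, IsLevelConstant₁ (rl q.1) (x.2 q)) : IsB3c S M (dCone2 S M x) :=
  ⟨x.1, x.2, hl, hl', rfl, fun _ => rfl⟩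

lemma isB3c_iff (z : C3c S M) :
    IsB3c S M z ↔ ∃ x : C2c S M, IsLevelConstantS₂ S x.1 ∧
      (∀ q : ↥S, IsLevelConstant₁ (rl q.1) (x.2 q)) ∧ z = dCone2 S M x := by
  constructor
  · rintro ⟨f, g, hf, hg, h1, h2⟩
    exact ⟨(f, g), hf, hg, Prod.ext h1 (funext h2)⟩
  · rintro ⟨x, hl, hl', rfl⟩
    exact isB3c_dCone2 hl hl'

lemma isB2c_iff (z : C2c S M) :
    IsB2c S M z ↔ ∃ y : C1c S M, IsLevelConstantS₁ S y.1 ∧ z = dCone1 S M y := by
  constructor
  · rintro ⟨f, m, hf, h1, h2⟩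
    exact ⟨(f, m), hf, Prod.ext h1 (funext h2)⟩
  · rintro ⟨y, hl, rfl⟩
    exact ⟨y.1, y.2, hl, rfl, fun _ => rfl⟩

end coneDiff

section push

variable {S} {A B : Rep.{0} k GQ}

/-- Push-forward of cone 1-cochains along a map of the coefficients. -/
def mapC1 (u : A → B) (y : C1c S A) : C1c S B := (fun g => u (y.1 g), fun q => u (y.2 q))

/-- Push-forward of cone 2-cochains along a map of the coefficients. -/
def mapC2 (u : A → B) (x : C2c S A) : C2c S B := (fun t => u (x.1 t), fun q h => u (x.2 q h))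

/-- Push-forward of cone 3-cochains along a map of the coefficients. -/
def mapC3 (u : A → B) (x : C3c S A) : C3c S B := (fun t => u (x.1 t), fun q h => u (x.2 q h))

lemma dCone2_mapC2 (u : A ⟶ B) (x : C2c S A) :
    dCone2 S B (mapC2 u.hom x) = mapC3 u.hom (dCone2 S A x) := by
  refine Prod.ext (dTwo_comp u x.1) (funext fun q => funext fun t => ?_)
  have := congrFun (dOneL_comp u q.1 (x.2 q)) t
  simp only [dCone2, mapC2, mapC3, Pi.sub_apply, resTwo, map_sub] at this ⊢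
  rw [this]

lemma dCone1_mapC1 (u : A ⟶ B) (y : C1c S A) :
    dCone1 S B (mapC1 u.hom y) = mapC2 u.hom (dCone1 S A y) := by
  refine Prod.ext (dOne_comp u y.1) (funext fun q => funext fun t => ?_)
  have := congrFun (dZeroL_comp u q.1 (y.2 q)) t
  simp only [dCone1, mapC1, mapC2, Pi.sub_apply, resOne, map_sub] at this ⊢
  rw [this]

lemma mapC2_add (u : A →ₗ[k] B) (x x' : C2c S A) :
    mapC2 u (x + x') = mapC2 u x + mapC2 u x' := by
  refine Prod.ext (funext fun t => ?_) (funext fun q => funext fun t => ?_) <;>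
    simp [mapC2]

lemma mapC2_sub (u : A →ₗ[k] B) (x x' : C2c S A) :
    mapC2 u (x - x') = mapC2 u x - mapC2 u x' := by
  refine Prod.ext (funext fun t => ?_) (funext fun q => funext fun t => ?_) <;>
    simp [mapC2]

end push

/-! ### Cup products with cone on the left: linearity, naturality, Leibniz -/

section cupLeft

variable {S} (χ : GQ →* kˣ) (M : Rep.{0} k GQ)

/-- Cone on the left, degrees `(2, 0)`: `(f, g) ∪ m' = (f ∪ m', g ∪ m')`, a cone 2-cochain of
`k(χ)`. -/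
def cupA20 (x : C2c S M) (m' : Md χ M) : C2c S (kχ χ) :=
  (fun t => ev χ M (x.1 t) ((Md χ M).ρ (t.1 * t.2) m'),
   fun q h => ev χ M (x.2 q h) ((Md χ M).ρ (rl q.1 h) m'))

/-- `ev_rho` in simp-normal form. -/
lemma ev_rho' (g : GQ) (m : M) (φ : Md χ M) :
    ev χ M (M.ρ g m) ((M.ρ.dual.twist χ) g φ) = (χ g : k) * ev χ M m φ :=
  ev_rho χ M g m φ

/-- `kχ_rho` in simp-normal form. -/
lemma kχ_rho' (g : GQ) (c : k) :
    ((Representation.trivial k GQ k).twist χ) g c = (χ g : k) * c := rfl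

/-- **Leibniz rule**, degrees `(2, 0)`:
`d_cone (x ∪ m') = (d_cone x) ∪ m' + x ∪ d m'`. -/
lemma dCone2_cupA20 (x : C2c S M) (m' : Md χ M) :
    dCone2 S (kχ χ) (cupA20 χ M x m') =
      cupA3 S χ M (dCone2 S M x) m' + cupA2 S χ M x (dZero (Md χ M) m') := by
  refine Prod.ext (funext fun t => ?_) (funext fun q => funext fun t => ?_)
  · obtain ⟨g₁, g₂, g₃⟩ := t
    simp only [dCone2, cupA20, cupA3, cupA2, dTwo, dZero, Prod.fst_add, Pi.add_apply,
      ev_sub_left, ev_add_left, map_sub, map_mul, Module.End.mul_apply,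
      ev_rho', kχ_rho']
    erw [ev_sub_right]
    ring
  · obtain ⟨h₁, h₂⟩ := t
    simp only [dCone2, cupA20, cupA3, cupA2, dOneL, dZero, resTwo, Prod.snd_add, Pi.add_apply,
      Pi.sub_apply, ev_sub_left, ev_add_left, map_sub, map_mul,
      Module.End.mul_apply, ev_rho', kχ_rho']
    erw [ev_sub_right]
    ring

variable {M}

lemma cupA2_add_left (x x' : C2c S M) (b : GQ → Md χ M) :
    cupA2 S χ M (x + x') b = cupA2 S χ M x b + cupA2 S χ M x' b := by
  refine Prod.ext (funext fun t => ?_) (funext fun q => funext fun t => ?_) <;>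
    simp [cupA2, ev_add_left]

lemma cupA2_sub_left (x x' : C2c S M) (b : GQ → Md χ M) :
    cupA2 S χ M (x - x') b = cupA2 S χ M x b - cupA2 S χ M x' b := by
  refine Prod.ext (funext fun t => ?_) (funext fun q => funext fun t => ?_) <;>
    simp [cupA2, ev_sub_left]

lemma cupA3_zero_left (m' : Md χ M) : cupA3 S χ M (0 : C3c S M) m' = 0 := by
  refine Prod.ext (funext fun t => ?_) (funext fun q => funext fun t => ?_) <;>
    simp [cupA3]

variable (S M) in
/-- `b ↦ x ∪ b` as a linear map. -/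
def cupA2ₗ (x : C2c S M) : (GQ → Md χ M) →ₗ[k] C3c S (kχ χ) where
  toFun b := cupA2 S χ M x b
  map_add' b b' := by
    refine Prod.ext (funext fun t => ?_) (funext fun q => funext fun t => ?_)
    · simp only [cupA2, Pi.add_apply, map_add, Prod.fst_add]; rfl
    · simp only [cupA2, Pi.add_apply, map_add, Prod.snd_add]; rfl
  map_smul' c b := by
    refine Prod.ext (funext fun t => ?_) (funext fun q => funext fun t => ?_)
    · simp only [cupA2, Pi.smul_apply, map_smul, Prod.smul_fst, RingHom.id_apply]; rfl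
    · simp only [cupA2, Pi.smul_apply, map_smul, Prod.smul_snd, RingHom.id_apply]; rfl

@[simp] lemma cupA2ₗ_apply (x : C2c S M) (b : GQ → Md χ M) :
    cupA2ₗ S χ M x b = cupA2 S χ M x b := rfl

variable {A B : Rep.{0} k GQ}

/-- Naturality of `cupA2`. -/
lemma cupA2_mapC2 (u : A ⟶ B) (x : C2c S A) (b : GQ → Md χ B) :
    cupA2 S χ B (mapC2 u.hom x) b = cupA2 S χ A x (fun g => dMap χ u (b g)) := by
  refine Prod.ext (funext fun t => ?_) (funext fun q => funext fun t => ?_)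
  · simp only [cupA2, mapC2, ← ev_dMap]
    exact congrArg _ (dMap_rho χ u _ _)
  · simp only [cupA2, mapC2, ← ev_dMap]
    exact congrArg _ (dMap_rho χ u _ _)

/-- Naturality of `cupA3`. -/
lemma cupA3_mapC3 (u : A ⟶ B) (x : C3c S A) (m' : Md χ B) :
    cupA3 S χ B (mapC3 u.hom x) m' = cupA3 S χ A x (dMap χ u m') := by
  refine Prod.ext (funext fun t => ?_) (funext fun q => funext fun t => ?_)
  · simp only [cupA3, mapC3, ← ev_dMap]
    exact congrArg _ (dMap_rho χ u _ _)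
  · simp only [cupA3, mapC3, ← ev_dMap]
    exact congrArg _ (dMap_rho χ u _ _)

end cupLeft

/-! ### Levels of cup products -/

section cupLevel

variable {S}

lemma levS₂_pair {X Y : Type} {f : GQ × GQ → X} {f' : GQ × GQ → Y}
    (hf : IsLevelConstantS₂ S f) (hf' : IsLevelConstantS₂ S f') :
    IsLevelConstantS₂ S (fun t => (f t, f' t)) := by
  obtain ⟨F, hF, h⟩ := hf
  obtain ⟨F', hF', h'⟩ := hf'
  refine ⟨F ⊔ F', hF.sup hF', fun g g' s s' hs hs' => ?_⟩
  show (f _, f' _) = (f _, f' _)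
  rw [h g g' s s' (mem_fix_of_le le_sup_left hs) (mem_fix_of_le le_sup_left hs'),
    h' g g' s s' (mem_fix_of_le le_sup_right hs) (mem_fix_of_le le_sup_right hs')]

lemma levS₁_pair {X Y : Type} {f : GQ → X} {f' : GQ → Y}
    (hf : IsLevelConstantS₁ S f) (hf' : IsLevelConstantS₁ S f') :
    IsLevelConstantS₁ S (fun t => (f t, f' t)) := by
  obtain ⟨F, hF, h⟩ := hf
  obtain ⟨F', hF', h'⟩ := hf'
  refine ⟨F ⊔ F', hF.sup hF', fun g s hs => ?_⟩
  show (f _, f' _) = (f _, f' _)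
  rw [h g s (mem_fix_of_le le_sup_left hs), h' g s (mem_fix_of_le le_sup_right hs)]

lemma levL₁_pair (q : Nat.Primes) {X Y : Type} {f : Gl q → X} {f' : Gl q → Y}
    (hf : IsLevelConstant₁ (rl q) f) (hf' : IsLevelConstant₁ (rl q) f') :
    IsLevelConstant₁ (rl q) (fun t => (f t, f' t)) := by
  obtain ⟨F, hF, h⟩ := hf
  obtain ⟨F', hF', h'⟩ := hf'
  haveI := hF
  haveI := hF'
  refine ⟨F ⊔ F', IntermediateField.finiteDimensional_sup F F', fun g s hs => ?_⟩
  show (f _, f' _) = (f _, f' _)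
  rw [h g s (mem_fix_of_le le_sup_left hs), h' g s (mem_fix_of_le le_sup_right hs)]

lemma levL₂_pair (q : Nat.Primes) {X Y : Type} {f : Gl q × Gl q → X} {f' : Gl q × Gl q → Y}
    (hf : IsLevelConstant₂ (rl q) f) (hf' : IsLevelConstant₂ (rl q) f') :
    IsLevelConstant₂ (rl q) (fun t => (f t, f' t)) := by
  obtain ⟨F, hF, h⟩ := hf
  obtain ⟨F', hF', h'⟩ := hf'
  haveI := hF
  haveI := hF'
  refine ⟨F ⊔ F', IntermediateField.finiteDimensional_sup F F', fun g g' s s' hs hs' => ?_⟩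
  show (f _, f' _) = (f _, f' _)
  rw [h g g' s s' (mem_fix_of_le le_sup_left hs) (mem_fix_of_le le_sup_left hs'),
    h' g g' s s' (mem_fix_of_le le_sup_right hs) (mem_fix_of_le le_sup_right hs')]

variable (N : Rep.{0} k GQ)

/-- `g ↦ g • n` is of level `S`. -/
lemma levS₁_rho (hN : Lev S N) (n : N) : IsLevelConstantS₁ S (fun g : GQ => N.ρ g n) := by
  obtain ⟨F, hF, h⟩ := hN
  refine ⟨F, hF, fun g s hs => ?_⟩
  simp only [map_mul, Module.End.mul_apply, h s hs n]

/-- `(g₁, g₂) ↦ (g₁ g₂) • n` is of level `S`. -/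
lemma levS₂_rho_mul (hNC : NC S) (hN : Lev S N) (n : N) :
    IsLevelConstantS₂ S (fun t : GQ × GQ => N.ρ (t.1 * t.2) n) := by
  obtain ⟨F₀, hF₀, h⟩ := hN
  obtain ⟨F, hle, hF, hn⟩ := hNC F₀ hF₀
  refine ⟨F, hF, fun g g' s s' hs hs' => ?_⟩
  have e1 : g * s * (g' * s') = g * g' * ((g'⁻¹ * s * g') * s') := by group
  have hc : (g'⁻¹ * s * g') * s' ∈ F.fixingSubgroup :=
    F.fixingSubgroup.mul_mem (conj_mem_fix hn g' hs) hs'
  show N.ρ (g * s * (g' * s')) n = N.ρ (g * g') n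
  rw [e1, map_mul, Module.End.mul_apply, h _ (mem_fix_of_le hle hc) n]

/-- `h ↦ r(h) • n` is level constant on the local group. -/
lemma levL₁_rho (q : Nat.Primes) (hN : Lev S N) (n : N) :
    IsLevelConstant₁ (rl q) (fun h : Gl q => N.ρ (rl q h) n) :=
  levL₁_resOne q (levS₁_rho N hN n)

/-- `(h₁, h₂) ↦ r(h₁ h₂) • n` is level constant on the local group. -/
lemma levL₂_rho_mul (q : Nat.Primes) (hNC : NC S) (hN : Lev S N) (n : N) :
    IsLevelConstant₂ (rl q) (fun t : Gl q × Gl q => N.ρ (rl q (t.1 * t.2)) n) := by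
  have h := levL₂_resTwo q (levS₂_rho_mul N hNC hN n)
  have e : (fun t : Gl q × Gl q => N.ρ (rl q (t.1 * t.2)) n) =
      resTwo q (fun t : GQ × GQ => N.ρ (t.1 * t.2) n) := by
    funext t
    simp only [resTwo, map_mul]
  rw [e]
  exact h

variable (χ : GQ →* kˣ) (M : Rep.{0} k GQ)

/-- The components of `x ∪ m'` are level constant. -/
lemma lev_cupA20 (hNC : NC S) (hχ : LevChar S χ) (hM : Lev S M) {x : C2c S M}
    (hl : IsLevelConstantS₂ S x.1) (hl' : ∀ q : ↥S, IsLevelConstant₁ (rl q.1) (x.2 q))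
    (m' : Md χ M) :
    IsLevelConstantS₂ S (cupA20 χ M x m').1 ∧
      ∀ q : ↥S, IsLevelConstant₁ (rl q.1) ((cupA20 χ M x m').2 q) := by
  have hM' : Lev S (Md χ M) := lev_Md M hχ hM
  refine ⟨?_, fun q => ?_⟩
  · exact levS₂_comp (levS₂_pair hl (levS₂_rho_mul (Md χ M) hNC hM' m'))
      (fun p => ev χ M p.1 p.2)
  · exact levL₁_comp q.1 (levL₁_pair q.1 (hl' q) (levL₁_rho (Md χ M) q.1 hM' m'))
      (fun p => ev χ M p.1 p.2)

end cupLevel

end Fermat.Agent.S55

end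

end
-- ==== END Fermat.Agent.S55.Coh.Cone

-- ==== BEGIN Fermat.Agent.S55.H13_E3
section

/-!
# S55 (Poitou–Tate), package E3 (helper13): `Stmt_E3`

`M` a finite-dimensional module of level `S ∋ p` in characteristic `p`.
`N = ker ρ_M ∩ ker χ_p` (open, normal), `L` its fixed field, `P` a `p`-Sylow subgroup of
`G_ℚ/N`, `H₀` its preimage, `K` the fixed field of `H₀`.  Then `K` is a base field,
`[G_ℚ : H₀]` is prime to `p`, so `M` is a retract of `Ind_K^ℚ Res M`, and `H₀` acts on `M`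
through the `p`-group `P`, so `Ind_K^ℚ Res M` is built from copies of `k[G_ℚ/G_K]`.
-/

set_option autoImplicit false
set_option linter.style.haveILetI false
set_option linter.unusedSectionVars false
set_option linter.unusedVariables false

noncomputable section

namespace Fermat.Agent.S55.H13

open CategoryTheory Module groupCohomology ExtCitation Fermat.Agent.S55

/-- A subgroup containing the fixing subgroup of a finite extension is the fixing subgroup of its
fixed field, this field is contained in the extension, and the subgroup has finite index. -/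
theorem fixedField_of_le (F : IntermediateField ℚ (AlgebraicClosure ℚ)) [FiniteDimensional ℚ F]
    (N : Subgroup GQ) (hle : F.fixingSubgroup ≤ N) :
    (IntermediateField.fixedField N).fixingSubgroup = N ∧ IntermediateField.fixedField N ≤ F ∧
      Finite (GQ ⧸ N) := by
  haveI := H48.qbar_isGalois
  have hopen : IsOpen (N : Set GQ) := Subgroup.isOpen_mono hle F.fixingSubgroup_isOpen
  have hclosed : IsClosed (N : Set GQ) := (⟨N, hopen⟩ : OpenSubgroup GQ).isClosed
  refine ⟨InfiniteGalois.fixingSubgroup_fixedField ⟨N, hclosed⟩, ?_, ?_⟩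
  · intro x hx
    rw [← InfiniteGalois.fixedField_fixingSubgroup F]
    rw [IntermediateField.mem_fixedField_iff] at hx ⊢
    intro s hs
    exact hx s (hle hs)
  · exact Subgroup.quotient_finite_of_isOpen N hopen

/-- An automorphism with trivial cyclotomic character fixes the `p`-th roots of unity. -/
theorem fix_of_cycloChar_eq_one (p : ℕ) [Fact p.Prime] (σ : GQ) (h : cycloChar p σ = 1)
    (ζ : AlgebraicClosure ℚ) (hζ : ζ ^ p = 1) : σ ζ = ζ := by
  haveI : NeZero p := ⟨(Fact.out : p.Prime).ne_zero⟩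
  haveI : Fact (1 < p) := ⟨(Fact.out : p.Prime).one_lt⟩
  have hζu : IsUnit ζ := IsUnit.of_pow_eq_one hζ (NeZero.ne p)
  obtain ⟨t, rfl⟩ := hζu
  have ht : t ∈ rootsOfUnity p (AlgebraicClosure ℚ) := by
    rw [mem_rootsOfUnity]
    exact Units.ext (by rw [Units.val_pow_eq_pow_val, hζ, Units.val_one])
  have h1 := modularCyclotomicCharacter.spec (L := AlgebraicClosure ℚ)
    (card_rootsOfUnity_eq_self p) (σ : AlgebraicClosure ℚ ≃+* AlgebraicClosure ℚ) ht
  have h2 : ((modularCyclotomicCharacter (AlgebraicClosure ℚ) (card_rootsOfUnity_eq_self p)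
      (σ : AlgebraicClosure ℚ ≃+* AlgebraicClosure ℚ) : (ZMod p)ˣ) : ZMod p) = 1 := by
    have := congrArg (fun u : (ZMod p)ˣ => (u : ZMod p)) h
    exact this
  rw [h2, ZMod.val_one, pow_one] at h1
  exact h1

/-- **E3.** -/
theorem stmt_E3 : Stmt_E3 := by
  intro p _ k _ _ S M _ hpS hLev
  have hp : p.Prime := Fact.out
  haveI := H48.qbar_isGalois
  obtain ⟨F, hF, hFM⟩ := hLev
  obtain ⟨F', hF', hχ⟩ := H48.stmt_levChar p S hpS
  haveI := hF.1
  haveI := hF'.1
  haveI : FiniteDimensional ℚ (F ⊔ F' : IntermediateField ℚ (AlgebraicClosure ℚ)) :=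
    IntermediateField.finiteDimensional_sup F F'
  -- the normal subgroup `N`
  obtain ⟨N, hNdef⟩ : ∃ N : Subgroup GQ, N = M.ρ.ker ⊓ (cycloChar p).ker := ⟨_, rfl⟩
  haveI hNnorm : N.Normal := by rw [hNdef]; infer_instance
  have hNM : ∀ s ∈ N, M.ρ s = 1 := by
    intro s hs
    rw [hNdef] at hs
    exact MonoidHom.mem_ker.mp hs.1
  have hNχ : ∀ s ∈ N, cycloChar p s = 1 := by
    intro s hs
    rw [hNdef] at hs
    exact MonoidHom.mem_ker.mp hs.2
  have hle : (F ⊔ F').fixingSubgroup ≤ N := by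
    intro s hs
    rw [IntermediateField.fixingSubgroup_sup] at hs
    rw [hNdef]
    refine ⟨MonoidHom.mem_ker.mpr ?_, MonoidHom.mem_ker.mpr (hχ s hs.2)⟩
    apply LinearMap.ext
    intro m
    exact hFM s hs.1 m
  obtain ⟨hLfix, hLle, hfinN⟩ := fixedField_of_le (F ⊔ F') N hle
  obtain ⟨L, hLdef⟩ : ∃ L : IntermediateField ℚ (AlgebraicClosure ℚ),
      L = IntermediateField.fixedField N := ⟨_, rfl⟩
  rw [← hLdef] at hLfix hLle
  have hLS : L.IsUnramifiedOutside S := (hF.sup hF').of_le hLle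
  -- a Sylow subgroup and its preimage
  haveI : Finite (GQ ⧸ N) := hfinN
  obtain ⟨P⟩ : Nonempty (Sylow p (GQ ⧸ N)) := inferInstance
  obtain ⟨H₀, hH₀def⟩ : ∃ H₀ : Subgroup GQ,
      H₀ = (P : Subgroup (GQ ⧸ N)).comap (QuotientGroup.mk' N) := ⟨_, rfl⟩
  have hNH : N ≤ H₀ := by
    intro s hs
    rw [hH₀def, Subgroup.mem_comap, QuotientGroup.mk'_apply, (QuotientGroup.eq_one_iff s).mpr hs]
    exact one_mem _
  obtain ⟨hKfix, hKle, hfinH⟩ := fixedField_of_le (F ⊔ F') H₀ (hle.trans hNH)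
  obtain ⟨K, hKdef⟩ : ∃ K : IntermediateField ℚ (AlgebraicClosure ℚ),
      K = IntermediateField.fixedField H₀ := ⟨_, rfl⟩
  rw [← hKdef] at hKfix hKle
  have hKS : K.IsUnramifiedOutside S := (hF.sup hF').of_le hKle
  -- `H₀` acts through a `p`-group
  have hpow : ∀ h ∈ H₀, ∃ n : ℕ, h ^ (p ^ n) ∈ N := by
    intro h hh
    rw [hH₀def, Subgroup.mem_comap] at hh
    obtain ⟨n, hn⟩ := P.isPGroup' ⟨QuotientGroup.mk' N h, hh⟩
    refine ⟨n, ?_⟩
    have h1 := congrArg Subtype.val hn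
    rw [Subgroup.coe_pow, Subgroup.coe_one] at h1
    rw [← QuotientGroup.eq_one_iff]
    exact h1
  -- the root of unity
  obtain ⟨ζ, hζ⟩ := H48.exists_primitiveRoot p
  have hχH : ∀ h ∈ H₀, cycloChar p h = 1 := by
    intro h hh
    obtain ⟨n, hn⟩ := hpow h hh
    have h1 : cycloChar p h ^ (p ^ n) = 1 := by rw [← map_pow]; exact hNχ _ hn
    have h2 : cycloChar p h ^ (p - 1) = 1 := by
      have := ZMod.units_pow_card_sub_one_eq_one p (cycloChar p h)
      exact this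
    have hcop : Nat.Coprime (p ^ n) (p - 1) := by
      apply Nat.Coprime.pow_left
      have h2le := hp.two_le
      exact Nat.coprime_of_lt_prime (by omega) (by omega) hp
    have h3 := orderOf_dvd_of_pow_eq_one h1
    have h4 := orderOf_dvd_of_pow_eq_one h2
    have h5 : orderOf (cycloChar p h) ∣ 1 := by
      rw [← Nat.Coprime.gcd_eq_one hcop]
      exact Nat.dvd_gcd h3 h4
    exact orderOf_eq_one_iff.mp (Nat.dvd_one.mp h5)
  have hζK : ζ ∈ K := by
    rw [hKdef, IntermediateField.mem_fixedField_iff]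
    intro h hh
    exact fix_of_cycloChar_eq_one p h (hχH h hh) ζ hζ.pow_eq_one
  -- index prime to `p`
  haveI : (P : Subgroup (GQ ⧸ N)).FiniteIndex := inferInstance
  have hidx : ¬ p ∣ H₀.index := by
    rw [hH₀def, Subgroup.index_comap_of_surjective _ (QuotientGroup.mk'_surjective N)]
    exact P.not_dvd_index
  -- transport to `K.fixingSubgroup`
  haveI hfinK : Finite (GQ ⧸ K.fixingSubgroup) := by rw [hKfix]; exact hfinH
  letI : Fintype (GQ ⧸ K.fixingSubgroup) := Fintype.ofFinite _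
  have hcard : (Fintype.card (GQ ⧸ K.fixingSubgroup) : k) ≠ 0 := by
    rw [← Nat.card_eq_fintype_card, ← Subgroup.index_eq_card, hKfix]
    intro h0
    exact hidx ((CharP.cast_eq_zero_iff k p _).mp h0)
  have hnormL : L.fixingSubgroup.Normal := by rw [hLfix]; exact hNnorm
  have hLK : L.fixingSubgroup ≤ K.fixingSubgroup := by rw [hLfix, hKfix]; exact hNH
  haveI : L.fixingSubgroup.FiniteIndex := by
    rw [hLfix]
    exact Subgroup.finiteIndex_of_finite_quotient
  haveI : (L.fixingSubgroup.subgroupOf K.fixingSubgroup).FiniteIndex := inferInstance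
  have hpK : ∀ h : K.fixingSubgroup, ∃ n : ℕ,
      h ^ (p ^ n) ∈ L.fixingSubgroup.subgroupOf K.fixingSubgroup := by
    intro h
    have hh : (h : GQ) ∈ H₀ := by rw [← hKfix]; exact h.2
    obtain ⟨n, hn⟩ := hpow h hh
    refine ⟨n, ?_⟩
    rw [Subgroup.mem_subgroupOf, hLfix]
    exact hn
  have htriv : TrivOn K L (Rep.res K.fixingSubgroup.subtype M) := by
    intro h hh
    rw [hLfix] at hh
    exact hNM _ hh
  haveI : FiniteDimensional k (Rep.res K.fixingSubgroup.subtype M) :=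
    inferInstanceAs (FiniteDimensional k M)
  have hdev := dev_ind p S K L hLS hnormL hLK hpK _ (Rep.res K.fixingSubgroup.subtype M) rfl htriv
  exact ⟨K, ⟨hKS, ζ, hζK, hζ⟩, Ind K.fixingSubgroup (Rep.res K.fixingSubgroup.subtype M),
    isRetract_ind K.fixingSubgroup M hcard, hdev.1, hdev.2⟩

end Fermat.Agent.S55.H13

end
end
-- ==== END Fermat.Agent.S55.H13_E3

-- ==== BEGIN Fermat.Agent.S55.H48_E5Bridge
section

set_option autoImplicit false

open CategoryTheory Module groupCohomology ExtCitation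

noncomputable section

namespace Fermat.Agent.S55.H48

open Fermat.Agent.S55

variable {k : Type} [Field k] (S : Finset Nat.Primes)

/-! ### Dictionary for the differentials -/

section dict

variable (A : Rep.{0} k GQ)

lemma d01_eq (m : A) : (d₀₁ A).hom m = dZero A m := rfl

lemma d12_eq (f : GQ → A) : (d₁₂ A).hom f = dOne A f := rfl

lemma d23_eq (f : GQ × GQ → A) : (d₂₃ A).hom f = dTwo A f := rfl

lemma mem_cocycles₁_iff_dOne (f : GQ → A) : f ∈ cocycles₁ A ↔ dOne A f = 0 :=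
  LinearMap.mem_ker

lemma mem_cocycles₂_iff_dTwo (f : GQ × GQ → A) : f ∈ cocycles₂ A ↔ dTwo A f = 0 :=
  LinearMap.mem_ker

end dict

/-! ### Restriction of classes in `H¹` -/

section resH1

variable (A : Rep.{0} k GQ) {H : Type} [Group H] (r : H →* GQ)

/-- The restriction of the class of a cocycle vanishes iff the restricted cocycle is a
coboundary. -/
theorem res_H1π_eq_zero_iff (c : cocycles₁ A) :
    (groupCohomology.map r (𝟙 (Rep.res r A)) 1).hom ((H1π A).hom c) = 0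
      ↔ ∃ m : A, ∀ h : H, (c : GQ → A) (r h) = A.ρ (r h) m - m := by
  have h := H1π_comp_map (A := A) (B := Rep.res r A) r (𝟙 (Rep.res r A))
  have h2 : (groupCohomology.map r (𝟙 (Rep.res r A)) 1).hom ((H1π A).hom c) =
      (H1π (Rep.res r A)).hom ((mapCocycles₁ r (𝟙 (Rep.res r A))).hom c) :=
    congrArg (fun f => f.hom c) h
  rw [h2]
  refine (H1π_eq_zero_iff _).trans ?_
  constructor
  · rintro ⟨m, hm⟩
    refine ⟨m, fun h => ?_⟩
    have := congrFun hm h
    rw [d₀₁_hom_apply] at this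
    exact this.symm
  · rintro ⟨m, hm⟩
    refine ⟨m, funext fun h => ?_⟩
    rw [d₀₁_hom_apply]
    exact (hm h).symm

end resH1

/-! ### The archimedean place -/

section arch

/-- The decomposition group at infinity has at most two elements. -/
theorem mem_arch_cases (h : ↥archimedeanDecomposition) :
    archimedeanLoc h = 1 ∨ archimedeanLoc h = complexConjugation := by
  obtain ⟨g, hg⟩ := h
  obtain ⟨n, rfl⟩ := Subgroup.mem_zpowers_iff.1 hg
  show complexConjugation ^ n = 1 ∨ complexConjugation ^ n = complexConjugation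
  have h2 : complexConjugation ^ (2 : ℤ) = 1 := by
    rw [zpow_ofNat]; exact complexConjugation_sq
  have hn : n = 2 * (n / 2) + n % 2 := (Int.mul_ediv_add_emod n 2).symm
  have e : complexConjugation ^ n = complexConjugation ^ (n % 2) := by
    conv_lhs => rw [hn, zpow_add, zpow_mul, h2, one_zpow, one_mul]
  rcases Int.emod_two_eq_zero_or_one n with h0 | h1
  · left; rw [e, h0, zpow_zero]
  · right; rw [e, h1, zpow_one]

variable (A : Rep.{0} k GQ)

/-- A 1-cocycle is a coboundary on the decomposition group at infinity when `2` is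
invertible. -/
theorem arch_H1_trivial (h2 : (2 : k) ≠ 0) {b : GQ → A} (hb : dOne A b = 0) :
    ∃ m : A, ∀ h : ↥archimedeanDecomposition,
      b (archimedeanLoc h) = A.ρ (archimedeanLoc h) m - m := by
  have hc : ∀ g h : GQ, b (g * h) = A.ρ g (b h) + b g := by
    intro g h
    have := congrFun hb (g, h)
    simp only [dOne, Pi.zero_apply] at this
    have e : b (g * h) = A.ρ g (b h) + b g - (A.ρ g (b h) - b (g * h) + b g) := by abel
    rw [e, this, sub_zero]
  have h1 : b 1 = 0 := by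
    have := hc 1 1
    rw [mul_one, map_one, Module.End.one_apply] at this
    exact left_eq_add.1 this |>.symm ▸ rfl
  have hσ : A.ρ complexConjugation (b complexConjugation) = - b complexConjugation := by
    have := hc complexConjugation complexConjugation
    rw [complexConjugation_mul_self, h1] at this
    exact eq_neg_of_add_eq_zero_left this.symm
  refine ⟨-((2 : k)⁻¹ • b complexConjugation), fun h => ?_⟩
  rcases mem_arch_cases h with e | e
  · rw [e, h1, map_one, Module.End.one_apply, sub_self]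
  · rw [e, map_neg, map_smul, hσ, smul_neg, neg_neg, sub_neg_eq_add, ← add_smul,
      ← two_mul, mul_inv_cancel₀ h2, one_smul]

/-- A level 2-cocycle is a level coboundary on the decomposition group at infinity when `2`
is invertible. -/
theorem arch_H2_trivial (h2 : (2 : k) ≠ 0) {a : GQ × GQ → A} (ha : dTwo A a = 0)
    (hl : IsLevelConstantS₂ S a) :
    ∃ x : ↥archimedeanDecomposition → A, IsLevelConstant₁ archimedeanLoc x ∧
      ∀ h₁ h₂ : ↥archimedeanDecomposition,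
        a (archimedeanLoc h₁, archimedeanLoc h₂) =
          A.ρ (archimedeanLoc h₁) (x h₂) - x (h₁ * h₂) + x h₁ := by
  have hc : ∀ g h j : GQ,
      A.ρ g (a (h, j)) - a (g * h, j) + a (g, h * j) - a (g, h) = 0 := by
    intro g h j
    have := congrFun ha (g, h, j)
    simpa only [dTwo, Pi.zero_apply] using this
  set σ : GQ := complexConjugation with hσdef
  have hσσ : σ * σ = 1 := complexConjugation_mul_self
  let X : GQ → A := fun g => (2 : k)⁻¹ • (a (g, 1) + a (g, σ))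
  have hX2 : ∀ g : GQ, a (g, 1) + a (g, σ) = (2 : k) • X g := by
    intro g
    show _ = (2 : k) • ((2 : k)⁻¹ • _)
    rw [smul_smul, mul_inv_cancel₀ h2, one_smul]
  have key : ∀ g h : GQ, (h = 1 ∨ h = σ) →
      a (g, h) = A.ρ g (X h) - X (g * h) + X g := by
    intro g h hh
    have e1 := hc g h 1
    have e2 := hc g h σ
    rw [mul_one] at e1
    have hsum : (2 : k) • (A.ρ g (X h) - X (g * h) + X g) = (2 : k) • a (g, h) := by
      rw [smul_add, smul_sub, ← map_smul, ← hX2 h, ← hX2 (g * h), ← hX2 g, map_add, two_smul]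
      rcases hh with rfl | rfl
      · simp only [one_mul, mul_one] at e1 e2 ⊢
        have : A.ρ g (a (1, 1)) + A.ρ g (a (1, σ)) - (a (g, 1) + a (g, σ)) + (a (g, 1) + a (g, σ))
            - (a (g, 1) + a (g, 1)) =
            (A.ρ g (a (1, 1)) - a (g, 1) + a (g, 1) - a (g, 1)) +
              (A.ρ g (a (1, σ)) - a (g, σ) + a (g, σ) - a (g, 1)) := by abel
        rw [← sub_eq_zero, this, e1, e2, add_zero]
      · rw [hσσ] at e2
        have : A.ρ g (a (σ, 1)) + A.ρ g (a (σ, σ)) - (a (g * σ, 1) + a (g * σ, σ))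
            + (a (g, 1) + a (g, σ)) - (a (g, σ) + a (g, σ)) =
            (A.ρ g (a (σ, 1)) - a (g * σ, 1) + a (g, σ) - a (g, σ)) +
              (A.ρ g (a (σ, σ)) - a (g * σ, σ) + a (g, 1) - a (g, σ)) := by abel
        rw [← sub_eq_zero, this, e1, e2, add_zero]
    have := congrArg (fun v => (2 : k)⁻¹ • v) hsum
    simp only [smul_smul, inv_mul_cancel₀ h2, one_smul] at this
    exact this.symm
  refine ⟨fun h => X (archimedeanLoc h), ?_, fun h₁ h₂ => ?_⟩
  · obtain ⟨F, hF, hlev⟩ := hl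
    refine ⟨F, hF.1, fun g s hs => ?_⟩
    show X (archimedeanLoc (g * s)) = X (archimedeanLoc g)
    rw [map_mul]
    show (2 : k)⁻¹ • _ = (2 : k)⁻¹ • _
    have e1 := hlev (archimedeanLoc g) 1 (archimedeanLoc s) 1 hs (Subgroup.one_mem _)
    have e2 := hlev (archimedeanLoc g) σ (archimedeanLoc s) 1 hs (Subgroup.one_mem _)
    rw [mul_one] at e1 e2
    rw [e1, e2]
  · show _ = A.ρ _ (X _) - X (archimedeanLoc (h₁ * h₂)) + X _
    rw [map_mul]
    exact key _ _ (mem_arch_cases h₂)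

end arch

/-! ### `sha₁` in terms of cocycles -/

section sha1

variable (A : Rep.{0} k GQ)

/-- Locally trivial level-`S` 1-cocycles (explicit form). -/
def IsSha1 (b : GQ → A) : Prop :=
  IsZ1S S A b ∧ ∀ q : ↥S, ∃ m : A, resOne q.1 b = dZeroL A q.1 m

/-- The level-`S` cocycles whose class lies in `sha₁`. -/
def shaZ1 : Submodule k (cocycles₁ A) :=
  levelCocyclesS₁ S A ⊓ (sha₁ S A).comap (H1π A).hom

/-- The projection onto `sha₁`. -/
def shaπ1 : ↥(shaZ1 S A) →ₗ[k] ↥(sha₁ S A) :=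
  ((H1π A).hom.comp (shaZ1 S A).subtype).codRestrict (sha₁ S A) (fun c => c.2.2)

lemma shaπ1_coe (c : ↥(shaZ1 S A)) : ((shaπ1 S A c : ↥(sha₁ S A)) : H1 A) = (H1π A).hom c.1 :=
  rfl

theorem shaπ1_surjective : Function.Surjective (shaπ1 S A) := by
  rintro ⟨β, hβ⟩
  obtain ⟨c, hc, rfl⟩ := (mem_continuousH1S_iff S A β).1 hβ.1
  exact ⟨⟨c, hc, hβ⟩, Subtype.ext rfl⟩

theorem shaπ1_eq_zero_iff (c : ↥(shaZ1 S A)) :
    shaπ1 S A c = 0 ↔ ∃ m : A, ((c.1 : cocycles₁ A) : GQ → A) = dZero A m := by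
  rw [← Subtype.coe_inj, shaπ1_coe]
  refine (H1π_eq_zero_iff _).trans ?_
  constructor
  · rintro ⟨m, hm⟩
    exact ⟨m, hm.symm⟩
  · rintro ⟨m, hm⟩
    exact ⟨m, hm.symm⟩

/-- Elements of `shaZ1` are locally trivial level-`S` cocycles. -/
theorem isSha1_of_mem (c : ↥(shaZ1 S A)) : IsSha1 S A ((c.1 : cocycles₁ A) : GQ → A) := by
  obtain ⟨c, hl, hc⟩ := c
  refine ⟨⟨(mem_cocycles₁_iff_dOne A _).1 c.2, hl⟩, fun q => ?_⟩
  have h0 : locTotal (extArithLoc S) A ((H1π A).hom c) = 0 := hc.2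
  have h1 : (locRes (extArithLoc S) A (Sum.inr q)).hom ((H1π A).hom c) = 0 :=
    congrFun h0 (Sum.inr q)
  obtain ⟨m, hm⟩ := (res_H1π_eq_zero_iff A (extArithLoc S (Sum.inr q)) c).1 h1
  exact ⟨m, funext fun h => hm h⟩

/-- Conversely, a locally trivial level-`S` cocycle gives an element of `shaZ1`, if `2` is
invertible. -/
theorem exists_mem_of_isSha1 (h2 : (2 : k) ≠ 0) {b : GQ → A} (hb : IsSha1 S A b) :
    ∃ c : ↥(shaZ1 S A), ((c.1 : cocycles₁ A) : GQ → A) = b := by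
  obtain ⟨⟨hd, hl⟩, hloc⟩ := hb
  let c : cocycles₁ A := ⟨b, (mem_cocycles₁_iff_dOne A b).2 hd⟩
  have hc1 : c ∈ levelCocyclesS₁ S A := hl
  have hc2 : (H1π A).hom c ∈ sha₁ S A := by
    refine ⟨(mem_continuousH1S_iff S A _).2 ⟨c, hl, rfl⟩, ?_⟩
    show locTotal (extArithLoc S) A ((H1π A).hom c) = 0
    funext v
    show (locRes (extArithLoc S) A v).hom ((H1π A).hom c) = 0
    rw [res_H1π_eq_zero_iff A (extArithLoc S v) c]
    rcases v with v | q
    · exact arch_H1_trivial A h2 hd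
    · obtain ⟨m, hm⟩ := hloc q
      exact ⟨m, fun h => congrFun hm h⟩
  exact ⟨⟨c, hc1, hc2⟩, rfl⟩

end sha1

/-! ### `sha₂` in terms of cocycles -/

section sha2

variable (M : Rep.{0} k GQ)

/-- Locally trivial level-`S` 2-cocycles (explicit form). -/
def IsSha2 (a : GQ × GQ → M) : Prop :=
  IsZ2S S M a ∧ ∀ q : ↥S, ∃ g : Gl q.1 → M, IsLevelConstant₁ (rl q.1) g ∧
    resTwo q.1 a = dOneL M q.1 g

/-- The level-`S` 2-cocycles whose class lies in `sha₂`. -/
def shaZ2 : Submodule k ↥(levelCocyclesS₂ S M) :=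
  (sha₂ S M).comap (continuousH2Sπ S M)

/-- The projection onto `sha₂`. -/
def shaπ2 : ↥(shaZ2 S M) →ₗ[k] ↥(sha₂ S M) :=
  ((continuousH2Sπ S M).comp (shaZ2 S M).subtype).codRestrict (sha₂ S M) (fun a => a.2)

lemma shaπ2_coe (a : ↥(shaZ2 S M)) :
    ((shaπ2 S M a : ↥(sha₂ S M)) : continuousH2S S M) = continuousH2Sπ S M a.1 := rfl

theorem shaπ2_surjective : Function.Surjective (shaπ2 S M) := by
  rintro ⟨α, hα⟩
  obtain ⟨a, rfl⟩ := Submodule.mkQ_surjective _ α
  exact ⟨⟨a, hα⟩, Subtype.ext rfl⟩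

theorem shaπ2_eq_zero_iff (a : ↥(shaZ2 S M)) :
    shaπ2 S M a = 0 ↔ IsB2S S M (a.1.1 : GQ × GQ → M) := by
  rw [← Subtype.coe_inj, shaπ2_coe]
  refine (continuousH2Sπ_eq_zero_iff S M a.1).trans ?_
  rw [mem_levelCoboundariesS₂_iff]
  constructor
  · rintro ⟨x, hx, h⟩
    exact ⟨x, hx, h⟩
  · rintro ⟨x, hx, h⟩
    exact ⟨x, hx, h⟩

/-- The restriction of the class of a level-`S` 2-cocycle vanishes iff the restricted cocycle
is the coboundary of a level-constant cochain. -/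
theorem locRes₂S_eq_zero_iff {H : Type} [Group H] (r : H →* GQ)
    (a : ↥(levelCocyclesS₂ S M)) :
    locRes₂S S M r (continuousH2Sπ S M a) = 0 ↔
      ∃ x : H → M, IsLevelConstant₁ r x ∧ ∀ h₁ h₂ : H,
        (a.1 : GQ × GQ → M) (r h₁, r h₂) = M.ρ (r h₁) (x h₂) - x (h₁ * h₂) + x h₁ := by
  have e : locRes₂S S M r (continuousH2Sπ S M a) =
      continuousH2π r (Rep.res r M)
        (levelCocycles₂Map (rH := MonoidHom.id _) (rG := r) r (fun _ => rfl)
          (LinearMap.id : M →ₗ[k] Rep.res r M) (fun _ _ => rfl)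
          (levelCocyclesS₂ToLevelCocycles₂ S M a)) := rfl
  rw [e, continuousH2π_eq_zero_iff, mem_levelCoboundaries₂_iff]
  constructor
  · rintro ⟨x, hx, h⟩
    refine ⟨x, hx, fun h₁ h₂ => ?_⟩
    have := congrFun h (h₁, h₂)
    rw [d₁₂_hom_apply] at this
    exact this.symm
  · rintro ⟨x, hx, h⟩
    refine ⟨x, hx, funext fun t => ?_⟩
    rw [d₁₂_hom_apply]
    exact (h t.1 t.2).symm

/-- Elements of `shaZ2` are locally trivial level-`S` 2-cocycles. -/
theorem isSha2_of_mem (a : ↥(shaZ2 S M)) : IsSha2 S M (a.1.1 : GQ × GQ → M) := by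
  obtain ⟨a, ha⟩ := a
  refine ⟨⟨(mem_cocycles₂_iff_dTwo M _).1 a.2.1, a.2.2⟩, fun q => ?_⟩
  have h0 : locTotal₂S S M (continuousH2Sπ S M a) = 0 := ha
  have h1 : locRes₂S S M (extArithLoc S (Sum.inr q)) (continuousH2Sπ S M a) = 0 :=
    congrFun h0 (Sum.inr q)
  obtain ⟨x, hx, h⟩ := (locRes₂S_eq_zero_iff S M (extArithLoc S (Sum.inr q)) a).1 h1
  exact ⟨x, hx, funext fun t => h t.1 t.2⟩

/-- Conversely, a locally trivial level-`S` 2-cocycle gives an element of `shaZ2`, if `2` is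
invertible. -/
theorem exists_mem_of_isSha2 (h2 : (2 : k) ≠ 0) {a : GQ × GQ → M} (ha : IsSha2 S M a) :
    ∃ c : ↥(shaZ2 S M), (c.1.1 : GQ × GQ → M) = a := by
  obtain ⟨⟨hd, hl⟩, hloc⟩ := ha
  let c : ↥(levelCocyclesS₂ S M) := ⟨a, (mem_cocycles₂_iff_dTwo M a).2 hd, hl⟩
  have hc : continuousH2Sπ S M c ∈ sha₂ S M := by
    show locTotal₂S S M (continuousH2Sπ S M c) = 0
    funext v
    show locRes₂S S M (extArithLoc S v) (continuousH2Sπ S M c) = 0
    rw [locRes₂S_eq_zero_iff S M (extArithLoc S v) c]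
    rcases v with v | q
    · exact arch_H2_trivial S M h2 hd hl
    · obtain ⟨g, hg, h⟩ := hloc q
      exact ⟨g, hg, fun h₁ h₂ => congrFun h (h₁, h₂)⟩
  exact ⟨⟨c, hc⟩, rfl⟩

end sha2

end Fermat.Agent.S55.H48

end

end
-- ==== END Fermat.Agent.S55.H48_E5Bridge

-- ==== BEGIN Fermat.Agent.S55.H48_NC
section

set_option autoImplicit false

open scoped Pointwise

namespace Fermat.Agent.S55.H48

open Fermat.Agent.Lib.InertiaBridge

section conj

variable {K L : Type*} [Field K] [Field L] [Algebra K L]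

theorem mem_inv_smul_iff (A : ValuationSubring L) (σ : L ≃ₐ[K] L) (x : L) :
    x ∈ σ⁻¹ • A ↔ σ x ∈ A := by
  rw [ValuationSubring.mem_pointwise_smul_iff_inv_smul_mem, inv_inv]
  rfl

theorem mem_nonunits_inv_smul_iff (A : ValuationSubring L) (σ : L ≃ₐ[K] L) (x : L) :
    x ∈ (σ⁻¹ • A).nonunits ↔ σ x ∈ A.nonunits := by
  rw [ValuationSubring.mem_nonunits_iff_or, ValuationSubring.mem_nonunits_iff_or,
    mem_inv_smul_iff, map_inv₀]
  have h1 : σ x = 0 ↔ x = 0 := by
    constructor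
    · intro hx
      have := congrArg σ.symm hx
      simpa using this
    · intro hx
      rw [hx, map_zero]
  rw [h1]

/-- Conjugating an element of the inertia group of `A` by `σ` gives an element of the inertia
group of `σ⁻¹ A`. -/
theorem conj_mem_inertia (A : ValuationSubring L) (σ g : L ≃ₐ[K] L)
    (hg : g ∈ A.inertiaSubgroupIn K) : σ⁻¹ * g * σ ∈ (σ⁻¹ • A).inertiaSubgroupIn K := by
  rw [mem_inertiaSubgroupIn_iff_forall] at hg ⊢
  obtain ⟨hdec, hval⟩ := hg
  have hdec' := (mem_decompositionSubgroup_iff_forall A g).mp hdec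
  have key : ∀ a : L, σ ((σ⁻¹ * g * σ) a) = g (σ a) := by
    intro a
    show σ (σ⁻¹ (g (σ a))) = g (σ a)
    exact AlgEquiv.apply_symm_apply σ _
  refine ⟨?_, fun a ha => ?_⟩
  · rw [mem_decompositionSubgroup_iff_forall]
    intro a
    rw [mem_inv_smul_iff, mem_inv_smul_iff, key]
    exact hdec' (σ a)
  · rw [← ValuationSubring.mem_nonunits_iff, mem_nonunits_inv_smul_iff, map_sub, key,
      ValuationSubring.mem_nonunits_iff]
    exact hval (σ a) ((mem_inv_smul_iff A σ a).mp ha)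

theorem liesOverPrime_inv_smul (A : ValuationSubring L) (σ : L ≃ₐ[K] L) (q : ℕ)
    (hA : A.LiesOverPrime q) : (σ⁻¹ • A).LiesOverPrime q := by
  show (q : L) ∈ (σ⁻¹ • A).nonunits
  rw [mem_nonunits_inv_smul_iff, map_natCast]
  exact hA

end conj

/-- **NC**: the normal closure of a field unramified outside `S` is unramified outside `S`. -/
theorem exists_normal_level (S : Finset Nat.Primes)
    (F : IntermediateField ℚ (AlgebraicClosure ℚ)) (hF : F.IsUnramifiedOutside S) :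
    ∃ F' : IntermediateField ℚ (AlgebraicClosure ℚ),
      F ≤ F' ∧ F'.IsUnramifiedOutside S ∧ F'.fixingSubgroup.Normal := by
  haveI := qbar_isAlgebraic
  haveI := qbar_isGalois
  haveI : Normal ℚ (AlgebraicClosure ℚ) := IsGalois.to_normal
  have hdef := IntermediateField.normalClosure_def'' (F := ℚ) (L := AlgebraicClosure ℚ) F
  haveI hFfin : FiniteDimensional ℚ F := hF.1
  have hfd : FiniteDimensional ℚ ↥(⨆ f : AlgebraicClosure ℚ ≃ₐ[ℚ] AlgebraicClosure ℚ,
      F.map (f : AlgebraicClosure ℚ →ₐ[ℚ] AlgebraicClosure ℚ)) := by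
    rw [← hdef]
    infer_instance
  -- the compositum of the conjugates is stable under the Galois group
  have hstab : ∀ τ : AlgebraicClosure ℚ ≃ₐ[ℚ] AlgebraicClosure ℚ,
      (⨆ f : AlgebraicClosure ℚ ≃ₐ[ℚ] AlgebraicClosure ℚ,
        F.map (f : AlgebraicClosure ℚ →ₐ[ℚ] AlgebraicClosure ℚ)).map
          (τ : AlgebraicClosure ℚ →ₐ[ℚ] AlgebraicClosure ℚ) ≤
      ⨆ f : AlgebraicClosure ℚ ≃ₐ[ℚ] AlgebraicClosure ℚ,
        F.map (f : AlgebraicClosure ℚ →ₐ[ℚ] AlgebraicClosure ℚ) := by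
    intro τ
    rw [IntermediateField.map_iSup]
    refine iSup_le fun σ => ?_
    rw [IntermediateField.map_map]
    exact le_iSup (fun f : AlgebraicClosure ℚ ≃ₐ[ℚ] AlgebraicClosure ℚ =>
      F.map (f : AlgebraicClosure ℚ →ₐ[ℚ] AlgebraicClosure ℚ)) (τ * σ)
  refine ⟨⨆ f : AlgebraicClosure ℚ ≃ₐ[ℚ] AlgebraicClosure ℚ,
      F.map (f : AlgebraicClosure ℚ →ₐ[ℚ] AlgebraicClosure ℚ), ?_, ⟨?_, ?_⟩, ?_⟩
  · rw [← hdef]
    exact IntermediateField.le_normalClosure F
  · exact hfd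
  · intro q hq A hA g hg
    rw [IntermediateField.mem_fixingSubgroup_iff]
    -- it suffices to fix each conjugate of `F`
    have hle : (⨆ f : AlgebraicClosure ℚ ≃ₐ[ℚ] AlgebraicClosure ℚ,
        F.map (f : AlgebraicClosure ℚ →ₐ[ℚ] AlgebraicClosure ℚ)) ≤
        IntermediateField.fixedField (Subgroup.zpowers g) := by
      refine iSup_le fun σ => ?_
      rintro _ ⟨x, hx, rfl⟩
      -- `σ⁻¹ g σ` lies in the inertia group of `σ⁻¹ A`, hence fixes `F`
      have h1 : σ⁻¹ * g * σ ∈ (σ⁻¹ • A).inertiaSubgroupIn ℚ := conj_mem_inertia A σ g hg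
      have h2 : σ⁻¹ * g * σ ∈ F.fixingSubgroup :=
        hF.2 q hq (σ⁻¹ • A) (liesOverPrime_inv_smul A σ q hA) h1
      have h3 : (σ⁻¹ * g * σ) x = x := (IntermediateField.mem_fixingSubgroup_iff F _).mp h2 x hx
      have h4 : g (σ x) = σ x := by
        have : σ ((σ⁻¹ * g * σ) x) = g (σ x) := by
          show σ (σ⁻¹ (g (σ x))) = g (σ x)
          exact AlgEquiv.apply_symm_apply σ _
        rw [← this, h3]
      -- every power of `g` fixes `σ x`
      rintro ⟨h, n, rfl⟩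
      show (g ^ n) (σ x) = σ x
      have hmem : g ∈ MulAction.stabilizer (AlgebraicClosure ℚ ≃ₐ[ℚ] AlgebraicClosure ℚ) (σ x) :=
        h4
      exact zpow_mem hmem n
    intro x hx
    exact hle hx ⟨g, Subgroup.mem_zpowers g⟩
  · refine ⟨fun n hn g => ?_⟩
    rw [IntermediateField.mem_fixingSubgroup_iff] at hn ⊢
    intro x hx
    have hx' : g⁻¹ x ∈ ⨆ f : AlgebraicClosure ℚ ≃ₐ[ℚ] AlgebraicClosure ℚ,
        F.map (f : AlgebraicClosure ℚ →ₐ[ℚ] AlgebraicClosure ℚ) :=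
      hstab g⁻¹ ⟨x, hx, rfl⟩
    have h1 := hn (g⁻¹ x) hx'
    show g (n (g⁻¹ x)) = x
    rw [h1]
    exact AlgEquiv.apply_symm_apply g x

end Fermat.Agent.S55.H48

end
-- ==== END Fermat.Agent.S55.H48_NC

-- ==== BEGIN Fermat.Agent.S55.Top.DefsP
section

set_option autoImplicit false

open CategoryTheory Module groupCohomology ExtCitation

noncomputable section

namespace Fermat.Agent.S55.Top

open Fermat.Agent.S55

/-- **E4'**: `Stmt_E4` for the base fields of degree prime to `p`. -/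
def Stmt_E4P : Prop :=
  ∀ (p : ℕ) [Fact p.Prime], p ≠ 2 → ∀ S : Finset Nat.Primes, pPrime p ∈ S →
    ∀ K : IntermediateField ℚ (AlgebraicClosure ℚ), IsBaseField S p K →
      ¬ p ∣ K.fixingSubgroup.index →
      ∃ tr : Trace S (cycloChar p),
        AlphaTwoEpi tr (permRep (ZMod p) K) ∧ AlphaThreeMono tr (permRep (ZMod p) K) ∧
        BetaOneEpi tr (permRep (ZMod p) K) ∧ BetaTwoMono tr (permRep (ZMod p) K)

/-- **TopQ0**: `H³_c(ℚ, μ_p) ≠ 0` (cone cohomology of level `S`). -/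
def Stmt_TopQ0 : Prop :=
  ∀ (p : ℕ) [Fact p.Prime], p ≠ 2 → ∀ S : Finset Nat.Primes, pPrime p ∈ S →
    ∃ z : C3c S (kχ (cycloChar p)),
      IsZ3c S (kχ (cycloChar p)) z ∧ ¬ IsB3c S (kχ (cycloChar p)) z

end Fermat.Agent.S55.Top

end

end
-- ==== END Fermat.Agent.S55.Top.DefsP

-- ==== BEGIN Fermat.Agent.S55.Top.Defs_PT
section

set_option autoImplicit false

open CategoryTheory Module groupCohomology ExtCitation

noncomputable section

namespace Fermat.Agent.S55.Top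

open Fermat.Agent.S55

/-! ### Linearity of the differentials with trivial coefficients -/

section trivLin

variable {k : Type} [Field k] {Δ : Type} [Group Δ]

lemma tOne_add (f f' : Δ → k) : tOne (f + f') = tOne f + tOne f' := by
  funext t; simp only [tOne, Pi.add_apply]; ring

lemma tOne_smul (c : k) (f : Δ → k) : tOne (c • f) = c • tOne f := by
  funext t; simp only [tOne, Pi.smul_apply, smul_eq_mul]; ring

lemma tOne_zero : tOne (0 : Δ → k) = 0 := by
  funext t; simp [tOne]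

lemma tTwo_add (f f' : Δ × Δ → k) : tTwo (f + f') = tTwo f + tTwo f' := by
  funext t; simp only [tTwo, Pi.add_apply]; ring

lemma tTwo_smul (c : k) (f : Δ × Δ → k) : tTwo (c • f) = c • tTwo f := by
  funext t; simp only [tTwo, Pi.smul_apply, smul_eq_mul]; ring

lemma tTwo_zero : tTwo (0 : Δ × Δ → k) = 0 := by
  funext t; simp [tTwo]

lemma tThree_add (f f' : Δ × Δ × Δ → k) : tThree (f + f') = tThree f + tThree f' := by
  funext t; simp only [tThree, Pi.add_apply]; ring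

lemma tThree_smul (c : k) (f : Δ × Δ × Δ → k) : tThree (c • f) = c • tThree f := by
  funext t; simp only [tThree, Pi.smul_apply, smul_eq_mul]; ring

lemma tThree_zero : tThree (0 : Δ × Δ × Δ → k) = 0 := by
  funext t; simp [tThree]

end trivLin

/-! ### Level conditions on `G_K`: closure properties -/

section levK

variable {S : Finset Nat.Primes} {K : IntermediateField ℚ (AlgebraicClosure ℚ)}

lemma isLevK₁_const {X : Type*} (x : X) : IsLevK₁ S K (fun _ : ↥K.fixingSubgroup => x) :=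
  ⟨⊥, IntermediateField.isUnramifiedOutside_bot S, fun _ _ _ => rfl⟩

lemma isLevK₂_const {X : Type*} (x : X) :
    IsLevK₂ S K (fun _ : ↥K.fixingSubgroup × ↥K.fixingSubgroup => x) :=
  ⟨⊥, IntermediateField.isUnramifiedOutside_bot S, fun _ _ _ _ _ _ => rfl⟩

lemma isLevK₃_const {X : Type*} (x : X) :
    IsLevK₃ S K (fun _ : ↥K.fixingSubgroup × ↥K.fixingSubgroup × ↥K.fixingSubgroup => x) :=
  ⟨⊥, IntermediateField.isUnramifiedOutside_bot S, fun _ _ _ _ _ _ _ _ _ => rfl⟩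

lemma IsLevK₁.comp {X Y : Type*} {f : ↥K.fixingSubgroup → X} (hf : IsLevK₁ S K f)
    (φ : X → Y) : IsLevK₁ S K (fun g => φ (f g)) := by
  obtain ⟨F, hF, h⟩ := hf
  exact ⟨F, hF, fun g s hs => by simp only [h g s hs]⟩

lemma IsLevK₂.comp {X Y : Type*} {f : ↥K.fixingSubgroup × ↥K.fixingSubgroup → X}
    (hf : IsLevK₂ S K f) (φ : X → Y) : IsLevK₂ S K (fun t => φ (f t)) := by
  obtain ⟨F, hF, h⟩ := hf
  exact ⟨F, hF, fun g₁ g₂ s₁ s₂ h₁ h₂ => by simp only [h g₁ g₂ s₁ s₂ h₁ h₂]⟩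

lemma IsLevK₃.comp {X Y : Type*}
    {f : ↥K.fixingSubgroup × ↥K.fixingSubgroup × ↥K.fixingSubgroup → X}
    (hf : IsLevK₃ S K f) (φ : X → Y) : IsLevK₃ S K (fun t => φ (f t)) := by
  obtain ⟨F, hF, h⟩ := hf
  exact ⟨F, hF, fun g₁ g₂ g₃ s₁ s₂ s₃ h₁ h₂ h₃ => by simp only [h g₁ g₂ g₃ s₁ s₂ s₃ h₁ h₂ h₃]⟩

lemma IsLevK₁.pair {X Y : Type*} {f : ↥K.fixingSubgroup → X} {f' : ↥K.fixingSubgroup → Y}
    (hf : IsLevK₁ S K f) (hf' : IsLevK₁ S K f') : IsLevK₁ S K (fun g => (f g, f' g)) := by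
  obtain ⟨F, hF, h⟩ := hf
  obtain ⟨F', hF', h'⟩ := hf'
  refine ⟨F ⊔ F', hF.sup hF', fun g s hs => ?_⟩
  show (f _, f' _) = (f _, f' _)
  rw [h g s (IntermediateField.fixingSubgroup_antitone le_sup_left hs),
    h' g s (IntermediateField.fixingSubgroup_antitone le_sup_right hs)]

lemma IsLevK₂.pair {X Y : Type*} {f : ↥K.fixingSubgroup × ↥K.fixingSubgroup → X}
    {f' : ↥K.fixingSubgroup × ↥K.fixingSubgroup → Y}
    (hf : IsLevK₂ S K f) (hf' : IsLevK₂ S K f') : IsLevK₂ S K (fun t => (f t, f' t)) := by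
  obtain ⟨F, hF, h⟩ := hf
  obtain ⟨F', hF', h'⟩ := hf'
  refine ⟨F ⊔ F', hF.sup hF', fun g₁ g₂ s₁ s₂ h₁ h₂ => ?_⟩
  show (f _, f' _) = (f _, f' _)
  rw [h g₁ g₂ s₁ s₂ (IntermediateField.fixingSubgroup_antitone le_sup_left h₁)
      (IntermediateField.fixingSubgroup_antitone le_sup_left h₂),
    h' g₁ g₂ s₁ s₂ (IntermediateField.fixingSubgroup_antitone le_sup_right h₁)
      (IntermediateField.fixingSubgroup_antitone le_sup_right h₂)]

lemma IsLevK₃.pair {X Y : Type*}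
    {f : ↥K.fixingSubgroup × ↥K.fixingSubgroup × ↥K.fixingSubgroup → X}
    {f' : ↥K.fixingSubgroup × ↥K.fixingSubgroup × ↥K.fixingSubgroup → Y}
    (hf : IsLevK₃ S K f) (hf' : IsLevK₃ S K f') : IsLevK₃ S K (fun t => (f t, f' t)) := by
  obtain ⟨F, hF, h⟩ := hf
  obtain ⟨F', hF', h'⟩ := hf'
  refine ⟨F ⊔ F', hF.sup hF', fun g₁ g₂ g₃ s₁ s₂ s₃ h₁ h₂ h₃ => ?_⟩
  show (f _, f' _) = (f _, f' _)
  rw [h g₁ g₂ g₃ s₁ s₂ s₃ (IntermediateField.fixingSubgroup_antitone le_sup_left h₁)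
      (IntermediateField.fixingSubgroup_antitone le_sup_left h₂)
      (IntermediateField.fixingSubgroup_antitone le_sup_left h₃),
    h' g₁ g₂ g₃ s₁ s₂ s₃ (IntermediateField.fixingSubgroup_antitone le_sup_right h₁)
      (IntermediateField.fixingSubgroup_antitone le_sup_right h₂)
      (IntermediateField.fixingSubgroup_antitone le_sup_right h₃)]

lemma IsLevK₁.add {X : Type*} [Add X] {f f' : ↥K.fixingSubgroup → X}
    (hf : IsLevK₁ S K f) (hf' : IsLevK₁ S K f') : IsLevK₁ S K (f + f') :=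
  (hf.pair hf').comp (fun p => p.1 + p.2)

lemma IsLevK₂.add {X : Type*} [Add X] {f f' : ↥K.fixingSubgroup × ↥K.fixingSubgroup → X}
    (hf : IsLevK₂ S K f) (hf' : IsLevK₂ S K f') : IsLevK₂ S K (f + f') :=
  (hf.pair hf').comp (fun p => p.1 + p.2)

lemma IsLevK₃.add {X : Type*} [Add X]
    {f f' : ↥K.fixingSubgroup × ↥K.fixingSubgroup × ↥K.fixingSubgroup → X}
    (hf : IsLevK₃ S K f) (hf' : IsLevK₃ S K f') : IsLevK₃ S K (f + f') :=
  (hf.pair hf').comp (fun p => p.1 + p.2)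

end levK

/-! ### The `K`-level cohomology groups as vector spaces -/

section spaces

variable (k : Type) [Field k] (S : Finset Nat.Primes)
  (K : IntermediateField ℚ (AlgebraicClosure ℚ))

/-- `Z¹_S(G_K, k) = H¹_S(G_K, k)`: the level-`S` homomorphisms `G_K → k`. -/
def Z1K : Submodule k (↥K.fixingSubgroup → k) where
  carrier := {b | IsZ1K S K b}
  add_mem' := by
    intro b b' hb hb'
    exact ⟨by rw [tOne_add, hb.1, hb'.1, add_zero], hb.2.add hb'.2⟩
  zero_mem' := ⟨tOne_zero, isLevK₁_const (0 : k)⟩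
  smul_mem' := by
    intro c b hb
    exact ⟨by rw [tOne_smul, hb.1, smul_zero], hb.2.comp (c • ·)⟩

/-- `Z²_S(G_K, k)`. -/
def Z2K : Submodule k (↥K.fixingSubgroup × ↥K.fixingSubgroup → k) where
  carrier := {a | IsZ2K S K a}
  add_mem' := by
    intro a a' ha ha'
    exact ⟨by rw [tTwo_add, ha.1, ha'.1, add_zero], ha.2.add ha'.2⟩
  zero_mem' := ⟨tTwo_zero, isLevK₂_const (0 : k)⟩
  smul_mem' := by
    intro c a ha
    exact ⟨by rw [tTwo_smul, ha.1, smul_zero], ha.2.comp (c • ·)⟩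

/-- `B²_S(G_K, k)`. -/
def B2K : Submodule k (↥K.fixingSubgroup × ↥K.fixingSubgroup → k) where
  carrier := {a | IsB2K S K a}
  add_mem' := by
    rintro a a' ⟨f, hf, rfl⟩ ⟨f', hf', rfl⟩
    exact ⟨f + f', hf.add hf', tOne_add f f'⟩
  zero_mem' := ⟨0, isLevK₁_const (0 : k), tOne_zero⟩
  smul_mem' := by
    rintro c a ⟨f, hf, rfl⟩
    exact ⟨c • f, hf.comp (c • ·), tOne_smul c f⟩

/-- `H²_S(G_K, k) = Z² / B²`. -/
abbrev H2K : Type := ↥(Z2K k S K) ⧸ (B2K k S K).comap (Z2K k S K).subtype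

variable {S K} (𝔓 : PlaceSys S K) (q : ↥S) (w : 𝔓.W q)

/-- `Z¹(Γ_w, k) = H¹(K_w, k)`: the level-constant homomorphisms `Γ_w → k`. -/
def Z1w : Submodule k (𝔓.Γw q w → k) where
  carrier := {b | tOne b = 0 ∧ IsLevelConstant₁ (𝔓.rw q w) b}
  add_mem' := by
    intro b b' hb hb'
    exact ⟨by rw [tOne_add, hb.1, hb'.1, add_zero], hb.2.add hb'.2⟩
  zero_mem' := ⟨tOne_zero, isLevelConstant₁_const (𝔓.rw q w) (0 : k)⟩
  smul_mem' := by
    intro c b hb
    exact ⟨by rw [tOne_smul, hb.1, smul_zero], hb.2.comp (c • ·)⟩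

/-- `Z²(Γ_w, k)`: the level-constant 2-cocycles. -/
def Z2w : Submodule k (𝔓.Γw q w × 𝔓.Γw q w → k) where
  carrier := {c | tTwo c = 0 ∧ IsLevelConstant₂ (𝔓.rw q w) c}
  add_mem' := by
    intro c c' hc hc'
    exact ⟨by rw [tTwo_add, hc.1, hc'.1, add_zero], hc.2.add hc'.2⟩
  zero_mem' := ⟨tTwo_zero, isLevelConstant₂_const (𝔓.rw q w) (0 : k)⟩
  smul_mem' := by
    intro a c hc
    exact ⟨by rw [tTwo_smul, hc.1, smul_zero], hc.2.comp (a • ·)⟩

/-- `B²(Γ_w, k)`: the coboundaries of level-constant 1-cochains. -/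
def B2w : Submodule k (𝔓.Γw q w × 𝔓.Γw q w → k) where
  carrier := {c | ∃ g : 𝔓.Γw q w → k, IsLevelConstant₁ (𝔓.rw q w) g ∧ tOne g = c}
  add_mem' := by
    rintro c c' ⟨g, hg, rfl⟩ ⟨g', hg', rfl⟩
    exact ⟨g + g', hg.add hg', tOne_add g g'⟩
  zero_mem' := ⟨0, isLevelConstant₁_const (𝔓.rw q w) (0 : k), tOne_zero⟩
  smul_mem' := by
    rintro a c ⟨g, hg, rfl⟩
    exact ⟨a • g, hg.comp (a • ·), tOne_smul a g⟩

/-- `H²(K_w, k) = Z² / B²`. -/
abbrev H2w : Type := ↥(Z2w k 𝔓 q w) ⧸ (B2w k 𝔓 q w).comap (Z2w k 𝔓 q w).subtype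

/-- The number of places of `K` over `S`. -/
def nPl : ℕ := ∑ q : ↥S, @Fintype.card (𝔓.W q) (𝔓.fin q)

/-- `Σ_w dim H¹(K_w, k)`. -/
def sumH1w : ℕ :=
  ∑ q : ↥S, @Finset.sum (𝔓.W q) ℕ _ (@Finset.univ _ (𝔓.fin q))
    (fun w => Module.finrank k ↥(Z1w k 𝔓 q w))

end spaces

/-! ### The inputs of PT-LIN -/

/-- **I1** (local, LOC-5): `H¹(K_w, 𝔽_p)` is finite, `dim H²(K_w, 𝔽_p) = 1`, the cup product
`H¹ × H¹ → H²` is nondegenerate, and `Σ_w dim H¹(K_w, 𝔽_p) = 2 #V + [K : ℚ]`. -/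
def Stmt_I1 : Prop :=
  ∀ (p : ℕ) [Fact p.Prime], p ≠ 2 → ∀ (S : Finset Nat.Primes), pPrime p ∈ S →
    ∀ K : IntermediateField ℚ (AlgebraicClosure ℚ), IsBaseField S p K →
    ∀ 𝔓 : PlaceSys S K,
      (∀ (q : ↥S) (w : 𝔓.W q), Module.Finite (ZMod p) ↥(Z1w (ZMod p) 𝔓 q w)) ∧
      (∀ (q : ↥S) (w : 𝔓.W q), Module.finrank (ZMod p) (H2w (ZMod p) 𝔓 q w) = 1) ∧
      (∀ (q : ↥S) (w : 𝔓.W q) (g : 𝔓.Γw q w → ZMod p), g ∈ Z1w (ZMod p) 𝔓 q w → g ≠ 0 →
        ∃ b : 𝔓.Γw q w → ZMod p, b ∈ Z1w (ZMod p) 𝔓 q w ∧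
          (fun t : 𝔓.Γw q w × 𝔓.Γw q w => g t.1 * b t.2) ∉ B2w (ZMod p) 𝔓 q w) ∧
      sumH1w (ZMod p) 𝔓 = 2 * nPl 𝔓 + Module.finrank ℚ ↥K

/-- **I2** (global, GS): `H³_S(G_K, 𝔽_p) = 0`. -/
def Stmt_I2 : Prop :=
  ∀ (p : ℕ) [Fact p.Prime], p ≠ 2 → ∀ (S : Finset Nat.Primes), pPrime p ∈ S →
    ∀ K : IntermediateField ℚ (AlgebraicClosure ℚ), IsBaseField S p K →
    ∀ F : ↥K.fixingSubgroup × ↥K.fixingSubgroup × ↥K.fixingSubgroup → ZMod p,
      tThree F = 0 → IsLevK₃ S K F →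
      ∃ f : ↥K.fixingSubgroup × ↥K.fixingSubgroup → ZMod p, IsLevK₂ S K f ∧ tTwo f = F

/-- **I3** (global, GS): `H¹_S(G_K, 𝔽_p)` and `H²_S(G_K, 𝔽_p)` are finite and
`2 h² + [K : ℚ] + 2 ≤ 2 h¹`  (i.e. `h¹ - h² ≥ r₂ + 1`). -/
def Stmt_I3 : Prop :=
  ∀ (p : ℕ) [Fact p.Prime], p ≠ 2 → ∀ (S : Finset Nat.Primes), pPrime p ∈ S →
    ∀ K : IntermediateField ℚ (AlgebraicClosure ℚ), IsBaseField S p K →
      Module.Finite (ZMod p) ↥(Z1K (ZMod p) S K) ∧
      Module.Finite (ZMod p) (H2K (ZMod p) S K) ∧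
      2 * Module.finrank (ZMod p) (H2K (ZMod p) S K) + Module.finrank ℚ ↥K + 2 ≤
        2 * Module.finrank (ZMod p) ↥(Z1K (ZMod p) S K)

/-- **I4** (global, GS).  For families `c = (c_w)` of local 2-cocycles, `(0, c)` is a `K`-level
cone 3-coboundary iff `c` is, up to local coboundaries, the restriction of a global level-`S`
2-cocycle.
(a) the cokernel of `H²_S(G_K) → ⊕_w H²(K_w)` has dimension `≤ 1`: of two families of local
cocycles some nontrivial combination is global;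
(b) a global family with at most one nonzero component is locally trivial. -/
def Stmt_I4 : Prop :=
  ∀ (p : ℕ) [Fact p.Prime], p ≠ 2 → ∀ (S : Finset Nat.Primes), pPrime p ∈ S →
    ∀ K : IntermediateField ℚ (AlgebraicClosure ℚ), IsBaseField S p K →
    ∀ 𝔓 : PlaceSys S K,
      (∀ c c' : ∀ (q : ↥S) (w : 𝔓.W q), 𝔓.Γw q w × 𝔓.Γw q w → ZMod p,
        (∀ q w, c q w ∈ Z2w (ZMod p) 𝔓 q w) → (∀ q w, c' q w ∈ Z2w (ZMod p) 𝔓 q w) →
        ∃ α β : ZMod p, (α ≠ 0 ∨ β ≠ 0) ∧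
          IsB3cK 𝔓 ((0, fun q w => α • c q w + β • c' q w) : 𝔓.C3 (ZMod p))) ∧
      (∀ c : ∀ (q : ↥S) (w : 𝔓.W q), 𝔓.Γw q w × 𝔓.Γw q w → ZMod p,
        (∀ q w, c q w ∈ Z2w (ZMod p) 𝔓 q w) →
        IsB3cK 𝔓 ((0, c) : 𝔓.C3 (ZMod p)) →
        ∀ (q₀ : ↥S) (w₀ : 𝔓.W q₀),
          (∀ (q : ↥S) (w : 𝔓.W q), (⟨q, w⟩ : Σ q : ↥S, 𝔓.W q) ≠ ⟨q₀, w₀⟩ → c q w = 0) →
          c q₀ w₀ ∈ B2w (ZMod p) 𝔓 q₀ w₀)

/-- **G1K**: a nonzero locally trivial level-`S` homomorphism `b : G_K → 𝔽_p` pairs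
nontrivially with some `K`-level cone 2-cocycle. -/
def Stmt_G1K : Prop :=
  ∀ (p : ℕ) [Fact p.Prime], p ≠ 2 → ∀ (S : Finset Nat.Primes), pPrime p ∈ S →
    ∀ K : IntermediateField ℚ (AlgebraicClosure ℚ), IsBaseField S p K →
    ∀ (𝔓 : PlaceSys S K) (tr : TraceK 𝔓 (ZMod p)),
      (∃ x : 𝔓.C3 (ZMod p), IsZ3cK 𝔓 x ∧ tr.toFun x ≠ 0) →
      ∀ b : ↥K.fixingSubgroup → ZMod p, IsZ1K S K b →
        (∀ (q : ↥S) (w : 𝔓.W q), 𝔓.res₁ q w b = 0) → b ≠ 0 →
        ∃ x : 𝔓.C2 (ZMod p), IsZ2cK 𝔓 x ∧ tr.toFun (cupA2K 𝔓 x b) ≠ 0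

end Fermat.Agent.S55.Top

end

end
-- ==== END Fermat.Agent.S55.Top.Defs_PT
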