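-- GENERATED (merged mirror, NOTES/tools/trim/merge3_helper67.py): 10 modules of the originals, bodies verbatim.
import Fermat.Agent.Zm.S56_L05_000
import Fermat.Agent.Zm.S35_L03_002
import Fermat.Agent.Zm.S56_L05_003
import Fermat.Agent.Zm.S56_L04_001
import Fermat.Agent.Zm.S56_L04_000
import Fermat.Agent.Zm.S56_L03_002

-- ==== BEGIN Fermat.Agent.R.Flat.H54_ClosureSub
section

/-!
# Flat closure (cluster R, helper54): `Stmt_FlatSub`

Finite flat group schemes over `ℤ_(p)` (Hopf algebra form of the prelude) are closed under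
Galois-stable subgroups.
-/

set_option autoImplicit false

namespace Fermat.Agent.R.H54

open GaloisRep

theorem isFlatGaloisModule_iff_absFlat (p : ℕ) (M : Type) [AddCommGroup M]
    (act : GalQ → M → M) :
    IsFlatGaloisModule p M act ↔ AbsFlat (ratLocalizedAt p) (AlgebraicClosure ℚ) GalQ M act :=
  Iff.rfl

/-- **Flatness passes to Galois-stable subgroups.** -/
theorem stmt_FlatSub : Stmt_FlatSub := by
  intro p _ M M' _ _ act act' ι hι heq h
  haveI := ratLocalizedAt_isPrincipalIdealRing p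
  exact (absFlat_sub (descentData_rat p) act act' ι hι heq h).absFlat

end Fermat.Agent.R.H54

end
-- ==== END Fermat.Agent.R.Flat.H54_ClosureSub

-- ==== BEGIN Fermat.Agent.R.Flat.H54_QuotMain
section

/-!
# Flat closure (cluster R, helper54): flatness passes to Galois-equivariant quotients

For a `G`-stable subgroup `N` of the points of a separated finite flat cocommutative Hopf algebra
`H` over a principal ideal domain `R`, the points of the sub-Hopf algebra `invSub N` are the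
quotient of the points of `H` by `N`.
-/

set_option autoImplicit false
set_option linter.unusedSectionVars false
set_option linter.style.haveILetI false

open scoped TensorProduct
open WithConv

namespace Fermat.Agent.R.H54

section QuotMain

variable {R K G : Type} [CommRing R] [IsDomain R] [IsPrincipalIdealRing R] [Field K] [Algebra R K]
  [Group G] [MulSemiringAction G K]
variable {H : Type} [CommRing H] [HopfAlgebra R H] [Module.Finite R H] [Module.Flat R H]
  [Coalgebra.IsCocomm R H]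

/-- The trace takes values in the invariants. -/
theorem trace_mem_inv (hD : DescentData R K G) {N : Set (Pts R H K)} (hN : IsGSubgroup hD N)
    (hNfin : N.Finite) (D : K) (Tr : H →ₗ[R] H)
    (hTr : ∀ (f : Pts R H K) (h : H), f (Tr h) = D * ∑ k ∈ hNfin.toFinset, (f * k) h) (h : H) :
    Tr h ∈ invSub N := by
  intro f k₀ hk₀
  rw [hTr, hTr]
  congr 1
  refine Finset.sum_bij' (fun k _ => k₀ * k) (fun k _ => pinv k₀ * k) ?_ ?_ ?_ ?_ ?_
  · intro k hk
    rw [Set.Finite.mem_toFinset] at hk ⊢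
    exact hN.mul_mem _ hk₀ _ hk
  · intro k hk
    rw [Set.Finite.mem_toFinset] at hk ⊢
    exact hN.mul_mem _ (hN.inv_mem _ hk₀) _ hk
  · intro k _
    show pinv k₀ * (k₀ * k) = k
    rw [← mul_assoc, pinv_mul, one_mul]
  · intro k _
    show k₀ * (pinv k₀ * k) = k
    rw [← mul_assoc, mul_pinv, one_mul]
  · intro k _
    show (f * k₀ * k) h = (f * (k₀ * k)) h
    rw [mul_assoc]

/-- Two points agreeing on the invariants differ by an element of `N`. -/
theorem sep_cosets (hD : DescentData R K G) {N : Set (Pts R H K)} (hN : IsGSubgroup hD N)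
    (hNfin : N.Finite) (f g : Pts R H K) (hfg : ∀ a ∈ invSub N, f a = g a) :
    ∃ k ∈ N, g = f * k := by
  classical
  obtain ⟨D, Tr, hD0, hTr⟩ := exists_trace hD hN hNfin
  set S := hNfin.toFinset with hS
  have h1 : ∀ h : H, ∑ k ∈ S, (f * k) h = ∑ k ∈ S, (g * k) h := by
    intro h
    have := hfg (Tr h) (trace_mem_inv hD hN hNfin D Tr hTr h)
    rw [hTr, hTr] at this
    exact mul_left_cancel₀ hD0 this
  have hli := linearIndependent_algHom_toLinearMap R H K
  have hinj : ∀ u : Pts R H K, Function.Injective (fun k : Pts R H K => (u * k).ofConv) := by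
    intro u k k' hkk
    have h2 : u * k = u * k' := WithConv.ext hkk
    calc k = pinv u * (u * k) := by rw [← mul_assoc, pinv_mul, one_mul]
      _ = pinv u * (u * k') := by rw [h2]
      _ = k' := by rw [← mul_assoc, pinv_mul, one_mul]
  have h2 : ∑ φ ∈ S.image (fun k => (f * k).ofConv), AlgHom.toLinearMap φ =
      ∑ φ ∈ S.image (fun k => (g * k).ofConv), AlgHom.toLinearMap φ := by
    rw [Finset.sum_image (fun a _ b _ h => hinj f h),
      Finset.sum_image (fun a _ b _ h => hinj g h)]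
    apply LinearMap.ext
    intro h
    rw [LinearMap.sum_apply, LinearMap.sum_apply]
    exact h1 h
  have h3 := finset_eq_of_sum_eq hli _ _ h2
  have h4 : g.ofConv ∈ S.image (fun k => (g * k).ofConv) := by
    refine Finset.mem_image.mpr ⟨1, ?_, by rw [mul_one]⟩
    rw [hS, Set.Finite.mem_toFinset]
    exact hN.one_mem
  rw [← h3] at h4
  obtain ⟨k, hk, hkg⟩ := Finset.mem_image.mp h4
  refine ⟨k, ?_, ?_⟩
  · rw [hS, Set.Finite.mem_toFinset] at hk
    exact hk
  · exact (WithConv.ext hkg).symm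

/-- Restriction of points along an algebra homomorphism. -/
def resPt {A : Type} [CommRing A] [HopfAlgebra R A] (j : A →ₐ[R] H) (f : Pts R H K) :
    Pts R A K :=
  toConv (f.ofConv.comp j)

lemma resPt_apply {A : Type} [CommRing A] [HopfAlgebra R A] (j : A →ₐ[R] H) (f : Pts R H K)
    (a : A) : resPt j f a = f (j a) := rfl

lemma resPt_mul {A : Type} [CommRing A] [HopfAlgebra R A] (j : A →ₐ[R] H)
    (hj : ∀ a, TensorProduct.map j.toLinearMap j.toLinearMap (Coalgebra.comul (R := R) a) =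
      Coalgebra.comul (R := R) (j a))
    (f g : Pts R H K) : resPt j (f * g) = resPt j f * resPt j g := by
  apply WithConv.ext
  apply AlgHom.ext
  intro a
  show (f * g) (j a) = (resPt j f * resPt j g) a
  have key : ∀ t : A ⊗[R] A,
      LinearMap.mul' R K (TensorProduct.map f.ofConv.toLinearMap g.ofConv.toLinearMap
        (TensorProduct.map j.toLinearMap j.toLinearMap t)) =
      LinearMap.mul' R K (TensorProduct.map (resPt j f).ofConv.toLinearMap
        (resPt j g).ofConv.toLinearMap t) := by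
    intro t
    induction t using TensorProduct.induction_on with
    | zero => simp
    | tmul x y => rfl
    | add x y hx hy => simp only [map_add, hx, hy]
  rw [convMul_apply', convMul_apply', ← hj, key]

/-- **Flatness passes to `G`-equivariant quotients** (abstract form). -/
theorem absFlat_quot (hD : DescentData R K G) {M M' : Type} [AddCommGroup M] [AddCommGroup M']
    (act : G → M → M) (act' : G → M' → M') (π : M →+ M') (hπ : Function.Surjective π)
    (heq : ∀ σ x, π (act σ x) = act' σ (π x)) (h : AbsFlat R K G M act) :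
    AbsFlat R K G M' act' := by
  classical
  obtain ⟨H, _, _, hfin, hflat, hcoc, hsep, e, he_mul, he_gal⟩ := h.sep hD
  have he1 : e 1 = 0 := map_one_eq_zero e he_mul
  have he_inv : ∀ f, e (pinv f) = - e f := by
    intro f
    have h1 := he_mul (pinv f) f
    rw [pinv_mul, he1] at h1
    exact eq_neg_of_add_eq_zero_left h1.symm
  have hgc1 : ∀ σ : G, gconj hD σ (1 : Pts R H K) = 1 := by
    intro σ
    apply WithConv.ext
    apply AlgHom.ext
    intro x
    show σ • ((1 : Pts R H K) x) = (1 : Pts R H K) x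
    rw [AlgHom.convOne_apply]
    exact hD.fixR σ _
  have hact0 : ∀ σ, act σ 0 = 0 := by
    intro σ
    have := he_gal σ 1 (gconj hD σ 1) (fun _ => rfl)
    rw [hgc1, he1] at this
    exact this.symm
  set E : Pts R H K → M' := fun f => π (e f) with hE
  have hE_one : E 1 = 0 := by simp only [hE, he1, map_zero]
  have hE_mul : ∀ f g, E (f * g) = E f + E g := by
    intro f g
    simp only [hE, he_mul, map_add]
  have hE_inv : ∀ f, E (pinv f) = - E f := by
    intro f
    simp only [hE, he_inv, map_neg]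
  have hE_gal : ∀ σ f, E (gconj hD σ f) = act' σ (E f) := by
    intro σ f
    simp only [hE]
    rw [he_gal σ f (gconj hD σ f) (fun _ => rfl), heq]
  have hact'0 : ∀ σ, act' σ 0 = 0 := by
    intro σ
    have := heq σ 0
    rw [hact0, map_zero] at this
    exact this.symm
  set N : Set (Pts R H K) := {f | E f = 0} with hNdef
  have hN : IsGSubgroup hD N := by
    refine ⟨hE_one, ?_, ?_, ?_⟩
    · intro f hf g hg
      have hf' : E f = 0 := hf
      have hg' : E g = 0 := hg
      show E (f * g) = 0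
      rw [hE_mul, hf', hg', add_zero]
    · intro f hf
      have hf' : E f = 0 := hf
      show E (pinv f) = 0
      rw [hE_inv, hf', neg_zero]
    · intro σ f hf
      have hf' : E f = 0 := hf
      show E (gconj hD σ f) = 0
      rw [hE_gal, hf', hact'0]
  obtain ⟨-, hNfin⟩ := closurePts_eq hD hN
  have d := subHopfData_inv hD hsep hN
  letI : HopfAlgebra R (invSub N) := d.hopfAlgebra
  haveI hfinA := finite_inv (R := R) (K := K) (H := H) N
  haveI hfreeA := free_inv (R := R) (K := K) (H := H) N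
  have hcocA : Coalgebra.IsCocomm R (invSub N) := d.isCocomm
  -- restriction of points
  set res : Pts R H K → Pts R (invSub N) K := resPt (invSub N).val with hres
  have hres_mul : ∀ f g, res (f * g) = res f * res g := resPt_mul _ d.map_comulA
  have hres_surj : Function.Surjective res := by
    have key := (pts_eq_of_separating hD (A := invSub N)
      (Set.range fun f : Pts R H K => (res f).ofConv) (by
        rintro σ _ ⟨f, rfl⟩
        exact ⟨gconj hD σ f, rfl⟩) (by
        intro a ha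
        apply Subtype.ext
        apply hsep
        intro f
        exact ha _ ⟨f, rfl⟩)).1
    intro φ
    have : φ.ofConv ∈ Set.range fun f : Pts R H K => (res f).ofConv := by
      rw [key]
      exact Set.mem_univ _
    obtain ⟨f, hf⟩ := this
    exact ⟨f, WithConv.ext hf⟩
  have hres_eq : ∀ f g, res f = res g ↔ E f = E g := by
    intro f g
    constructor
    · intro hfg
      obtain ⟨k, hk, rfl⟩ := sep_cosets hD hN hNfin f g (by
        intro a ha
        have := congrArg (fun φ : Pts R (invSub N) K => φ ⟨a, ha⟩) hfg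
        exact this)
      have hk' : E k = 0 := hk
      rw [hE_mul, hk', add_zero]
    · intro hfg
      have hk : pinv f * g ∈ N := by
        show E (pinv f * g) = 0
        rw [hE_mul, hE_inv, hfg, neg_add_cancel]
      have hg : g = f * (pinv f * g) := by
        rw [← mul_assoc, mul_pinv, one_mul]
      rw [hg]
      apply WithConv.ext
      apply AlgHom.ext
      intro a
      exact (a.2 f _ hk).symm
  set e' : Pts R (invSub N) K → M' := fun φ => E (Function.surjInv hres_surj φ) with he'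
  have he'_res : ∀ f, e' (res f) = E f := fun f =>
    (hres_eq _ _).mp (Function.surjInv_eq hres_surj (res f))
  have he'_inj : Function.Injective e' := by
    intro φ ψ hφψ
    obtain ⟨f, rfl⟩ := hres_surj φ
    obtain ⟨g, rfl⟩ := hres_surj ψ
    rw [he'_res, he'_res] at hφψ
    exact (hres_eq _ _).mpr hφψ
  have he'_surj : Function.Surjective e' := by
    intro m'
    obtain ⟨m, rfl⟩ := hπ m'
    obtain ⟨f, rfl⟩ := e.surjective m
    exact ⟨res f, he'_res f⟩
  refine ⟨invSub N, inferInstance, d.hopfAlgebra, hfinA, Module.Flat.of_free, hcocA,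
    Equiv.ofBijective e' ⟨he'_inj, he'_surj⟩, ?_, ?_⟩
  · intro φ ψ
    obtain ⟨f, rfl⟩ := hres_surj φ
    obtain ⟨g, rfl⟩ := hres_surj ψ
    show e' (res f * res g) = e' (res f) + e' (res g)
    rw [← hres_mul, he'_res, he'_res, he'_res, hE_mul]
  · intro σ φ ψ hφψ
    obtain ⟨f, rfl⟩ := hres_surj φ
    have hψ : ψ = res (gconj hD σ f) := by
      apply WithConv.ext
      apply AlgHom.ext
      intro a
      exact hφψ a
    show e' ψ = act' σ (e' (res f))
    rw [hψ, he'_res, he'_res, hE_gal]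

end QuotMain

end Fermat.Agent.R.H54

end
-- ==== END Fermat.Agent.R.Flat.H54_QuotMain

-- ==== BEGIN Fermat.Agent.S55.CFT.Defs_BR3
section

set_option autoImplicit false

open NumberField TensorProduct CategoryTheory

noncomputable section

namespace Fermat.Agent.S55.CFT

/-! ### Restriction to `Gal(N/L)` and inflation of the units -/

section tower

variable (K L N : Type) [Field K] [Field L] [Field N] [NumberField K] [NumberField L]
  [NumberField N] [Algebra K L] [Algebra K N] [Algebra L N] [IsScalarTower K L N]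

/-- The inclusion `Gal(N/L) → Gal(N/K)`. -/
abbrev galRes : (N ≃ₐ[L] N) →* (N ≃ₐ[K] N) := AlgEquiv.restrictScalarsHom K

/-- The identity of `Nˣ` as a morphism from the restriction of the `Gal(N/K)`-module `Nˣ` to the
`Gal(N/L)`-module `Nˣ`. -/
def resRepL : Rep.res (galRes K L N) (repL K N) ⟶ repL L N :=
  Rep.ofHom (LinearMap.intertwiningMap_of_isIntertwiningMap _ _
    ((MonoidHom.id Nˣ).toAdditive.toIntLinearMap)
    (fun _ _ => rfl))

/-- Restriction `Hⁿ(Gal(N/K), Nˣ) → Hⁿ(Gal(N/L), Nˣ)`. -/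
def resL (n : ℕ) : groupCohomology (repL K N) n →ₗ[ℤ] groupCohomology (repL L N) n :=
  (groupCohomology.map (galRes K L N) (resRepL K L N) n).hom

end tower

variable (K L : Type) [Field K] [Field L] [NumberField K] [NumberField L] [Algebra K L]

/-- `β ∈ K_vˣ` is a local norm from `K_v ⊗_K L`: its image in `(K_v ⊗_K L)ˣ` is `∏_{σ ∈ G} σ y`.
(`K_v = (ℚ_q ⊗ K)/𝔪_v = LocAlg K K v`.) -/
def IsLocNorm (v : Place K) (β : (LocAlg K K v)ˣ) : Prop :=
  ∃ y : (LocAlg K L v)ˣ, ∏ᶠ σ : L ≃ₐ[K] L, σ • y =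
    Units.map (locAlgTower K K L v : LocAlg K K v →* LocAlg K L v) β

/-! ### Statements -/

/-- **INF-RES** (inflation–restriction for `Nˣ`, Hilbert 90): for a tower `K ⊆ L ⊆ N` of finite
Galois extensions, a class of `H²(Gal(N/K), Nˣ)` which dies in `H²(Gal(N/L), Nˣ)` is inflated from
`H²(Gal(L/K), Lˣ)`.  (helper24's `H24_InfRes2`, Mathlib `groupCohomology.H1ofAutOnUnitsUnique`.) -/
def Stmt_InfResL : Prop :=
  ∀ (K L N : Type) [Field K] [Field L] [Field N] [NumberField K] [NumberField L] [NumberField N]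
    [Algebra K L] [Algebra K N] [Algebra L N] [IsScalarTower K L N] [Normal K L],
    IsGalois K L → IsGalois K N →
    ∀ x : groupCohomology (repL K N) 2, resL K L N 2 x = 0 →
      ∃ x' : groupCohomology (repL K L) 2, infL K L N 2 x' = x

/-- **LOC-SPLIT** (a local class of order `p` is split by a local degree divisible by `p`): for a
tower `K ⊆ L ⊆ N`, `N/K` a Galois `p`-extension (`ζ_p ∈ K`), `L/K` Galois, `v` a place of `K` at
which the local degree of `L/K` is divisible by `p`, and `u` a place of `L` above `v`: if the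
`v`-component of `x ∈ H²(Gal(N/K), Nˣ)` is killed by `p`, then the `u`-component of the
restriction of `x` to `Gal(N/L)` is zero.
(Local inflation–restriction; `H²` of the local extension is cyclic: `Stmt_SHL`.) -/
def Stmt_LocSplit : Prop :=
  ∀ (p m : ℕ) (K L N : Type) [Field K] [Field L] [Field N] [NumberField K] [NumberField L]
    [NumberField N] [Algebra K L] [Algebra K N] [Algebra L N] [IsScalarTower K L N],
    Hyp3 K N p m → IsGalois K L →
    ∀ (q : Nat.Primes) (v : MaximalSpectrum (SemiLocal K q)) (u : MaximalSpectrum (SemiLocal L q)),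
      u.asIdeal.comap (semiLocalMap K L q) = v.asIdeal →
      p * Nat.card (MaximalSpectrum (LocAlg K L ⟨q, v⟩)) ∣ Module.finrank K L →
      ∀ x : groupCohomology (repL K N) 2, p • locMap K N ⟨q, v⟩ 2 x = 0 →
        locMap L N ⟨q, u⟩ 2 (resL K L N 2 x) = 0

/-- **CYC-CLASS** (cyclic classes): for `L/K` Galois with cyclic group there are multiplicative
surjections `cyc : Kˣ → H²(G, Lˣ)` and `cycv v : K_vˣ → H²(G, (K_v ⊗_K L)ˣ)` (classes of the cyclic
cocycles `c_a(σ^i, σ^j) = a^{⌊(i+j)/n⌋}`), compatible with localisation, and `cycv v β = 0` iff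
`β` is a local norm.  (helper68 LOC-4d / helper13 `H13_FundCyc`; `(K_v ⊗_K L)^G = K_v`.) -/
def Stmt_CycClass : Prop :=
  ∀ (K L : Type) [Field K] [Field L] [NumberField K] [NumberField L] [Algebra K L],
    IsGalois K L → IsCyclic (L ≃ₐ[K] L) →
    ∃ (cyc : Kˣ → groupCohomology (repL K L) 2)
      (cycv : ∀ v : Place K, (LocAlg K K v)ˣ → groupCohomology (repJv K L v) 2),
      (∀ a b, cyc (a * b) = cyc a + cyc b) ∧ Function.Surjective cyc ∧
      (∀ v : Place K, (∀ α β, cycv v (α * β) = cycv v α + cycv v β) ∧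
        Function.Surjective (cycv v) ∧ ∀ β, cycv v β = 0 ↔ IsLocNorm K L v β) ∧
      ∀ (v : Place K) (a : Kˣ), locMap K L v 2 (cyc a) = cycv v (locHom K K v a)

/-- **THL** (the local cyclotomic symbol): `L = K(ζ_{p^M})`, `p` odd, `ζ_p ∈ K`, `v₀` a place of `K`
over `q₀ ∈ T`.  For ideles `x` of `K` supported at `v₀`:
(ker) `θ(x) = 1` implies that the `v₀`-component of `x` is a local norm from `K_{v₀} ⊗_K L`;
(im)  every `t ∈ (ℤ/p^M)ˣ` with `t ^ d = 1`, `d` the local degree of `L/K` at `v₀`, is `θ(x)` for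
some `x` supported at `v₀`.
(`v₀ ∤ p`: `θ(x) = (N v₀)^{v₀(x)}`, elementary; `v₀ ∣ p`: `Stmt_LocalThetaOnto`; local norms are in
the kernel by TH-2 + NT; the local norm index is `d` by LOC-3 / `Stmt_SHL`.) -/
def Stmt_THL : Prop :=
  ∀ (p : Nat.Primes) (M : ℕ) (K L : Type) [Field K] [Field L] [NumberField K] [NumberField L]
    [Algebra K L] (T : Finset Nat.Primes), (p : ℕ) ≠ 2 → (∃ ζ : K, IsPrimitiveRoot ζ (p : ℕ)) →
    IsCyclotomicExtension {(p : ℕ) ^ M} K L →
    ∀ (q₀ : T) (v₀ : MaximalSpectrum (SemiLocal K q₀.1)),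
      (∀ x : IdeleT K T,
        (∀ (q : T) (v : MaximalSpectrum (SemiLocal K q.1)),
          (⟨q, v⟩ : (q : T) × MaximalSpectrum (SemiLocal K q.1)) ≠ ⟨q₀, v₀⟩ →
            projIdele K K T q v x = 1) →
        cycloTheta K p M T x = 1 → IsLocNorm K L ⟨q₀.1, v₀⟩ (projIdele K K T q₀ v₀ x)) ∧
      ∀ (d : ℕ) (t : (ZMod ((p : ℕ) ^ M))ˣ),
        d * Nat.card (MaximalSpectrum (LocAlg K L ⟨q₀.1, v₀⟩)) = Module.finrank K L →
        t ^ d = 1 →
        ∃ x : IdeleT K T,
          (∀ (q : T) (v : MaximalSpectrum (SemiLocal K q.1)),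
            (⟨q, v⟩ : (q : T) × MaximalSpectrum (SemiLocal K q.1)) ≠ ⟨q₀, v₀⟩ →
              projIdele K K T q v x = 1) ∧
          cycloTheta K p M T x = t

/-- **DEG-GROW** (local degrees grow in the cyclotomic tower): for a place `v` of `K`
(`ζ_p ∈ K`) and every `k` there is `M₀` such that for `M ≥ M₀` the local degree of `K(ζ_{p^M})/K`
at `v` is divisible by `p ^ k`. -/
def Stmt_DegGrow : Prop :=
  ∀ (p k : ℕ) (K : Type) [Field K] [NumberField K], p.Prime →
    (∃ ζ : K, IsPrimitiveRoot ζ p) → ∀ v : Place K, ∃ M₀ : ℕ, ∀ M : ℕ, M₀ ≤ M →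
      ∀ (L : Type) [Field L] [NumberField L] [Algebra K L], IsCyclotomicExtension {p ^ M} K L →
        p ^ k * Nat.card (MaximalSpectrum (LocAlg K L v)) ∣ Module.finrank K L

/-- **LOC-INF-IMAGE**: `K ⊆ L ⊆ N` and `K ⊆ L' ⊆ N` towers of Galois `p`-extensions (`ζ_p ∈ K`);
if `[L : K]` divides the local degree of `L'/K` at `v`, every local class of `L/K` at `v` becomes
in `N` the inflation of a local class of `L'/K`.  (`H²` of the local extension of `N/K` is cyclic
and local inflation is injective: `Stmt_SHL`, `Stmt_InfJvInj`.) -/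
def Stmt_LocInfImage : Prop :=
  ∀ (p m : ℕ) (K L L' N : Type) [Field K] [Field L] [Field L'] [Field N] [NumberField K]
    [NumberField L] [NumberField L'] [NumberField N] [Algebra K L] [Algebra K L'] [Algebra K N]
    [Algebra L N] [Algebra L' N] [IsScalarTower K L N] [IsScalarTower K L' N] [Normal K L]
    [Normal K L'],
    Hyp3 K N p m → IsGalois K L → IsGalois K L' → ∀ v : Place K,
      Module.finrank K L * Nat.card (MaximalSpectrum (LocAlg K L' v)) ∣ Module.finrank K L' →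
      ∀ b : groupCohomology (repJv K L v) 2, ∃ b' : groupCohomology (repJv K L' v) 2,
        infJv K L N v 2 b = infJv K L' N v 2 b'

/-- **UNR-NORM** (units are norms at unramified places): for admissible `T`, a `T`-unit of `K` is a
local norm from `L` at every place outside `T`.  (LOC-2b.) -/
def Stmt_UnrNorm : Prop :=
  ∀ (p : ℕ) (K L : Type) [Field K] [Field L] [NumberField K] [NumberField L] [Algebra K L]
    (T : Finset Nat.Primes), Admissible K L T p →
    ∀ e : Kˣ, e ∈ TUnits K T → ∀ v : Place K, v.1 ∉ T → IsLocNorm K L v (locHom K K v e)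

/-! ### `H³` of the units -/

section towerE

variable (N : Type) [Field N] [NumberField N] [Algebra K N] [Algebra L N] [IsScalarTower K L N]

omit [NumberField K] [NumberField L] [NumberField N] [Algebra K L] [Algebra K N]
  [IsScalarTower K L N] in
lemma algebraMap_mem_TUnits (T : Finset Nat.Primes) {x : Lˣ} (hx : x ∈ TUnits L T) :
    Units.map (algebraMap L N : L →* N) x ∈ TUnits N T := by
  obtain ⟨n, h1, h2⟩ := hx
  refine ⟨n, ?_, ?_⟩
  · have := h1.map (Algebra.ofId L N).toRingHom.toIntAlgHom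
    simpa using this
  · have := h2.map (Algebra.ofId L N).toRingHom.toIntAlgHom
    simpa using this

/-- `O_{L,T}ˣ → O_{N,T}ˣ`. -/
def tUnitsMap (T : Finset Nat.Primes) : TUnits L T →* TUnits N T where
  toFun x := ⟨Units.map (algebraMap L N : L →* N) x, algebraMap_mem_TUnits L N T x.2⟩
  map_one' := by
    apply Subtype.ext
    simp
  map_mul' x y := by
    apply Subtype.ext
    simp

variable [Normal K L]

/-- Inflation `O_{L,T}ˣ → O_{N,T}ˣ` as a morphism of `Gal(N/K)`-modules. -/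
def infRepE (T : Finset Nat.Primes) :
    Rep.res (AlgEquiv.restrictNormalHom (F := K) (K₁ := N) L) (repE K L T) ⟶ repE K N T :=
  Rep.ofHom (LinearMap.intertwiningMap_of_isIntertwiningMap _ _
    ((tUnitsMap L N T).toAdditive.toIntLinearMap)
    (fun τ x => congrArg Additive.ofMul (Subtype.ext
      (algebraMap_units_smul K L N τ ((Additive.toMul x : TUnits L T) : Lˣ)))))

/-- Inflation `Hⁿ(Gal(L/K), O_{L,T}ˣ) → Hⁿ(Gal(N/K), O_{N,T}ˣ)`. -/
def infE (T : Finset Nat.Primes) (n : ℕ) :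
    groupCohomology (repE K L T) n →ₗ[ℤ] groupCohomology (repE K N T) n :=
  (groupCohomology.map (AlgEquiv.restrictNormalHom (F := K) (K₁ := N) L) (infRepE K L N T) n).hom

end towerE

/-- **H3-UNITS** (`H³` of the `T`-units dies in the cyclotomic tower): under `Hyp2 K L T p m M`,
inflation `H³(Gal(L/K), O_{L,T}ˣ) → H³(Gal(L(ζ_{p^M})/K), O_{L(ζ),T}ˣ)` is zero.
(`H³(G, J) = 0` (`Stmt_SHL`, `Stmt_SLD`), so every class is `δ c`, `c ∈ H²(G, C_L)`;
`c = n γ` (`Stmt_CFp'`); by the construction of `γ` in FUND, `inf γ` is the image of a cyclic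
cocycle with values in `J_N`, so `δ (inf γ) = 0`; naturality of `δ`.) -/
def Stmt_H3Units : Prop :=
  ∀ (p m M : ℕ) [NeZero (p ^ M)] (K L : Type) [Field K] [Field L] [NumberField K] [NumberField L]
    [Algebra K L] (T : Finset Nat.Primes) (h : Hyp2 K L T p m M),
    haveI : Normal K L := h.adm.gal.to_normal
    ∀ e : groupCohomology (repE K L T) 3, infE K L (CyclotomicField (p ^ M) L) T 3 e = 0

end Fermat.Agent.S55.CFT

end
end
-- ==== END Fermat.Agent.S55.CFT.Defs_BR3

-- ==== BEGIN Fermat.Agent.S55.CFT.Defs_GS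
section

set_option autoImplicit false

open CategoryTheory Module groupCohomology ExtCitation

noncomputable section

namespace Fermat.Agent.S55.CFT.GS

open Fermat.Agent.S55 Fermat.Agent.S55.Top

local notation "Qb" => AlgebraicClosure ℚ

/-! ### Coefficients -/

/-- `x ∈ Ω = K_S`: `x` lies in a finite extension of `ℚ` unramified outside `S`. -/
def InOm (S : Finset Nat.Primes) (x : Qb) : Prop :=
  ∃ F : IntermediateField ℚ Qb, F.IsUnramifiedOutside S ∧ x ∈ F

/-- `u ∈ U = O_Sˣ(Ω)`: `u ∈ Ω` and `u` is a unit at every place of `ℚ̄` over a prime outside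
`S`. -/
def IsSUnit (S : Finset Nat.Primes) (u : Qbˣ) : Prop :=
  InOm S (u : Qb) ∧ ∀ q : Nat.Primes, q ∉ S → ∀ A : ValuationSubring Qb,
    A.LiesOverPrime (q : ℕ) → A.valuation (u : Qb) = 1

/-- `x ∈ W = (Ωˣ)ᵖ`. -/
def InW (S : Finset Nat.Primes) (p : ℕ) (x : Qbˣ) : Prop :=
  ∃ t : Qbˣ, InOm S (t : Qb) ∧ t ^ p = x

/-! ### Multiplicative differentials -/

section mult

variable {Δ : Type} [Group Δ] {X : Type} [CommGroup X] [MulDistribMulAction Δ X]

/-- `d¹` (multiplicative): `(d b)(g, h) = g b(h) · b(g h)⁻¹ · b(g)`. -/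
def mOne (b : Δ → X) : Δ × Δ → X := fun t => t.1 • b t.2 / b (t.1 * t.2) * b t.1

/-- `d²` (multiplicative):
`(d a)(g, h, k) = g a(h, k) · a(g h, k)⁻¹ · a(g, h k) · a(g, h)⁻¹`. -/
def mTwo (a : Δ × Δ → X) : Δ × Δ × Δ → X :=
  fun t => t.1 • a (t.2.1, t.2.2) / a (t.1 * t.2.1, t.2.2) * a (t.1, t.2.1 * t.2.2) /
    a (t.1, t.2.1)

end mult

/-! ### Subgroups of `ℚ̄ˣ` attached to a base field `K` -/

section groups

variable (S : Finset Nat.Primes) (p : ℕ) (K : IntermediateField ℚ Qb)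

/-- `Kˣ` inside `ℚ̄ˣ`. -/
def Kx : Set Qbˣ := {a | (a : Qb) ∈ K}

/-- `U_K = O_{K,S}ˣ`: the `S`-units of `K`. -/
def UK : Set Qbˣ := {u | (u : Qb) ∈ K ∧ IsSUnit S u}

/-- `V_S = Kˣ ∩ W`: the elements of `Kˣ` with a `p`-th root in `Ω`. -/
def VS : Set Qbˣ := {a | (a : Qb) ∈ K ∧ InW S p a}

/-- `U_K · Kˣᵖ`. -/
def UKP : Set Qbˣ := {a | ∃ u b : Qbˣ, u ∈ UK S K ∧ (b : Qb) ∈ K ∧ a = u * b ^ p}

/-- `T = {t ∈ Ωˣ : g t / t ∈ W for all g ∈ G_K}` (the elements whose class in `Ωˣ/W` is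
`G_K`-invariant). -/
def TK : Set Qbˣ := {t | InOm S (t : Qb) ∧ ∀ g : ↥K.fixingSubgroup, InW S p (g • t / t)}

/-- `Kˣ · W`. -/
def KW : Set Qbˣ := {x | ∃ c s : Qbˣ, (c : Qb) ∈ K ∧ InOm S (s : Qb) ∧ x = c * s ^ p}

end groups

/-! ### The leaves -/

/-- **GS-H90** (Hilbert 90 at level `S`): a level-`S` 1-cocycle of `G_K` with values in `Ωˣ` is
`g ↦ g t / t` with `t ∈ Ωˣ`.  (Mathlib's Hilbert 90 for the finite Galois extension cut out by
the level and the values.) -/
def Stmt_GS_H90 : Prop :=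
  ∀ (S : Finset Nat.Primes) (K : IntermediateField ℚ Qb), K.IsUnramifiedOutside S →
    ∀ b : ↥K.fixingSubgroup → Qbˣ, IsLevK₁ S K b → (∀ g, InOm S (b g : Qb)) → mOne b = 1 →
      ∃ t : Qbˣ, InOm S (t : Qb) ∧ ∀ g, b g = g • t / t

/-- **GS-Hasse** (Hasse principle for `μ_p`-classes): a level-`S` 2-cocycle `a` of `G_K` with
values in `𝔽_p` which is locally a coboundary at every place of `K` over `S` becomes, as the
`μ_p`-valued cocycle `ζ^a`, the coboundary of a level-`S` 1-cochain with values in `Ωˣ`.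
(BR-Hasse + Sylow; the local components outside `S` vanish because `ζ^a` is unit valued and the
level is unramified there.) -/
def Stmt_GS_Hasse : Prop :=
  ∀ (p : ℕ) [Fact p.Prime], p ≠ 2 → ∀ (S : Finset Nat.Primes), pPrime p ∈ S →
    ∀ K : IntermediateField ℚ Qb, IsBaseField S p K → ∀ 𝔓 : PlaceSys S K,
    ∀ ζ : Qbˣ, (ζ : Qb) ∈ K → IsPrimitiveRoot ζ p →
    ∀ a : ↥K.fixingSubgroup × ↥K.fixingSubgroup → ZMod p, IsZ2K S K a →
      (∀ (q : ↥S) (w : 𝔓.W q), 𝔓.res₂ q w a ∈ B2w (ZMod p) 𝔓 q w) →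
      ∃ b : ↥K.fixingSubgroup → Qbˣ, IsLevK₁ S K b ∧ (∀ g, InOm S (b g : Qb)) ∧
        ∀ g h, ζ ^ (a (g, h)).val = mOne b (g, h)

/-- **GS-One** (reciprocity, weak form): a level-`S` 2-cocycle of `G_K` with values in `𝔽_p`
which is locally a coboundary at all places of `K` over `S` but one, is locally a coboundary at
that place too.  (BR-One for cyclic `p`-extensions + splitting by a cyclotomic extension +
BR-Hasse.) -/
def Stmt_GS_One : Prop :=
  ∀ (p : ℕ) [Fact p.Prime], p ≠ 2 → ∀ (S : Finset Nat.Primes), pPrime p ∈ S →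
    ∀ K : IntermediateField ℚ Qb, IsBaseField S p K → ∀ 𝔓 : PlaceSys S K,
    ∀ a : ↥K.fixingSubgroup × ↥K.fixingSubgroup → ZMod p, IsZ2K S K a →
    ∀ (q₀ : ↥S) (w₀ : 𝔓.W q₀),
      (∀ (q : ↥S) (w : 𝔓.W q), (⟨q, w⟩ : Σ q : ↥S, 𝔓.W q) ≠ ⟨q₀, w₀⟩ →
        𝔓.res₂ q w a ∈ B2w (ZMod p) 𝔓 q w) →
      𝔓.res₂ q₀ w₀ a ∈ B2w (ZMod p) 𝔓 q₀ w₀

/-- **GS-Two** (existence): for two different places `w₁ ≠ w₂` of `K` over `S` there is a
level-`S` 2-cocycle of `G_K` with values in `𝔽_p` which is not a coboundary at `w₁` and is a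
coboundary at every place over `S` different from `w₁`, `w₂`.
(BR-Two + lifting of `p`-torsion classes of `H²(G_S, Ωˣ)` unramified outside `S` to `μ_p`.) -/
def Stmt_GS_Two : Prop :=
  ∀ (p : ℕ) [Fact p.Prime], p ≠ 2 → ∀ (S : Finset Nat.Primes), pPrime p ∈ S →
    ∀ K : IntermediateField ℚ Qb, IsBaseField S p K → ∀ 𝔓 : PlaceSys S K,
    ∀ (q₁ : ↥S) (w₁ : 𝔓.W q₁) (q₂ : ↥S) (w₂ : 𝔓.W q₂),
      (⟨q₁, w₁⟩ : Σ q : ↥S, 𝔓.W q) ≠ ⟨q₂, w₂⟩ →
      ∃ a : ↥K.fixingSubgroup × ↥K.fixingSubgroup → ZMod p, IsZ2K S K a ∧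
        𝔓.res₂ q₁ w₁ a ∉ B2w (ZMod p) 𝔓 q₁ w₁ ∧
        ∀ (q : ↥S) (w : 𝔓.W q), (⟨q, w⟩ : Σ q : ↥S, 𝔓.W q) ≠ ⟨q₁, w₁⟩ →
          (⟨q, w⟩ : Σ q : ↥S, 𝔓.W q) ≠ ⟨q₂, w₂⟩ → 𝔓.res₂ q w a ∈ B2w (ZMod p) 𝔓 q w

/-- **GS-UnitRank** (Dirichlet): `[U_K : U_Kᵖ] = p ^ n` with `2 n = [K : ℚ] + 2 #V`
(`K` is totally complex, `ζ_p ∈ K`; `#V = nPl 𝔓` = number of places of `K` over `S`;
`n = r₂ + #V = (rank of the units) + #V + 1`).
Stated with a subgroup `H` of `ℚ̄ˣ` with underlying set `U_K`.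
(helper12's `H12.stmt_SUnitRank` + places.) -/
def Stmt_GS_UnitRank : Prop :=
  ∀ (p : ℕ) [Fact p.Prime], p ≠ 2 → ∀ (S : Finset Nat.Primes), pPrime p ∈ S →
    ∀ K : IntermediateField ℚ Qb, IsBaseField S p K → ∀ 𝔓 : PlaceSys S K,
    ∃ (H : Subgroup Qbˣ) (n : ℕ), (H : Set Qbˣ) = UK S K ∧
      (powMonoidHom p : ↥H →* ↥H).range.index = p ^ n ∧
      2 * n = Module.finrank ℚ ↥K + 2 * nPl 𝔓

/-- **GS-ClassDim** (finiteness of the class group, in Kummer form):
`[T : Kˣ W] ≤ [V_S : U_K Kˣᵖ] < ∞`.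
(`V_S / U_K Kˣᵖ ≅ Cl_S(K)[p]` and `T / Kˣ W ↪ Cl_S(K)/p`, via the divisor map and the Kummer
criterion: `x ∈ Ωˣ` is a `p`-th power in `Ω` iff `p ∣ ord_A(x)` for all places `A` outside `S`.)
Stated with subgroups `V T` of `ℚ̄ˣ` with the given underlying sets. -/
def Stmt_GS_ClassDim : Prop :=
  ∀ (p : ℕ) [Fact p.Prime], p ≠ 2 → ∀ (S : Finset Nat.Primes), pPrime p ∈ S →
    ∀ K : IntermediateField ℚ Qb, IsBaseField S p K →
    ∃ V V' T T' : Subgroup Qbˣ,
      (V : Set Qbˣ) = VS S p K ∧ (V' : Set Qbˣ) = UKP S p K ∧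
      (T : Set Qbˣ) = TK S p K ∧ (T' : Set Qbˣ) = KW S p K ∧
      V'.relIndex V ≠ 0 ∧ T'.relIndex T ≠ 0 ∧ T'.relIndex T ≤ V'.relIndex V

/-- **GS-H3** (`H³` with values in `Ωˣ` dies): a level-`S` 3-cocycle of `G_K` with values in
`𝔽_p` becomes, as the `μ_p`-valued cocycle `ζ^x`, the coboundary of a level-`S` 2-cochain with
values in `Ωˣ`.  (BR-H3 + Sylow.) -/
def Stmt_GS_H3 : Prop :=
  ∀ (p : ℕ) [Fact p.Prime], p ≠ 2 → ∀ (S : Finset Nat.Primes), pPrime p ∈ S →
    ∀ K : IntermediateField ℚ Qb, IsBaseField S p K →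
    ∀ ζ : Qbˣ, (ζ : Qb) ∈ K → IsPrimitiveRoot ζ p →
    ∀ x : ↥K.fixingSubgroup × ↥K.fixingSubgroup × ↥K.fixingSubgroup → ZMod p,
      tThree x = 0 → IsLevK₃ S K x →
      ∃ y : ↥K.fixingSubgroup × ↥K.fixingSubgroup → Qbˣ, IsLevK₂ S K y ∧
        (∀ t, InOm S (y t : Qb)) ∧ ∀ t, ζ ^ (x t).val = mTwo y t

/-- **GS-DivBr** (`H²(G_S, Ωˣ)` is `p`-divisible): every level-`S` 2-cocycle `c` of `G_K` with
values in `Ωˣ` is `zᵖ · d b` with `z` a level-`S` 2-cocycle and `b` a level-`S` 1-cochain, both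
with values in `Ωˣ`.
(The prime-to-`p` part is trivially `p`-divisible; the `p`-part is split by a cyclic cyclotomic
`p`-extension, and there BR-One, BR-Two, BR-Hasse and local divisibility apply.) -/
def Stmt_GS_DivBr : Prop :=
  ∀ (p : ℕ) [Fact p.Prime], p ≠ 2 → ∀ (S : Finset Nat.Primes), pPrime p ∈ S →
    ∀ K : IntermediateField ℚ Qb, IsBaseField S p K →
    ∀ c : ↥K.fixingSubgroup × ↥K.fixingSubgroup → Qbˣ, IsLevK₂ S K c →
      (∀ t, InOm S (c t : Qb)) → mTwo c = 1 →
      ∃ (z : ↥K.fixingSubgroup × ↥K.fixingSubgroup → Qbˣ) (b : ↥K.fixingSubgroup → Qbˣ),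
        IsLevK₂ S K z ∧ (∀ t, InOm S (z t : Qb)) ∧ mTwo z = 1 ∧
        IsLevK₁ S K b ∧ (∀ g, InOm S (b g : Qb)) ∧
        ∀ t, c t = z t ^ p * mOne b t

/-- **GS-ResOnto** (the residue map `H²(G_S, Ωˣ)[p] → H¹(G_S, Ωˣ/W)` is onto): for every
level-`S` 1-cochain `b` with values in `Ωˣ` whose coboundary has values in `W` there are a
level-`S` 2-cocycle `z'` with values in `Ωˣ`, a level-`S` 1-cochain `b''` with values in `Ωˣ` and
`t ∈ Ωˣ` such that `z'ᵖ = d b''` and `b(g) / (b''(g) · g t / t) ∈ W` for all `g`.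
(`H¹(G_S, Ωˣ/W) = ⊕_{v ∉ S} Hom(G_v, 𝔽_p)` by the divisor map (Shapiro by hand + capitulation);
BR-Two with `v₁ ∉ S`, `v₂ ∣ S` realises every residue.) -/
def Stmt_GS_ResOnto : Prop :=
  ∀ (p : ℕ) [Fact p.Prime], p ≠ 2 → ∀ (S : Finset Nat.Primes), pPrime p ∈ S →
    ∀ K : IntermediateField ℚ Qb, IsBaseField S p K →
    ∀ b : ↥K.fixingSubgroup → Qbˣ, IsLevK₁ S K b → (∀ g, InOm S (b g : Qb)) →
      (∀ t, InW S p (mOne b t)) →
      ∃ (z' : ↥K.fixingSubgroup × ↥K.fixingSubgroup → Qbˣ) (b'' : ↥K.fixingSubgroup → Qbˣ)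
        (t : Qbˣ),
        IsLevK₂ S K z' ∧ (∀ u, InOm S (z' u : Qb)) ∧ mTwo z' = 1 ∧
        IsLevK₁ S K b'' ∧ (∀ g, InOm S (b'' g : Qb)) ∧ InOm S (t : Qb) ∧
        (∀ u, z' u ^ p = mOne b'' u) ∧
        ∀ g, InW S p (b g / (b'' g * (g • t / t)))

/-- **GS-Lift2** (`H²(G_S, Ωˣ) → H²(G_S, W)`, `x ↦ xᵖ`, is onto): every level-`S` 2-cocycle
with values in `W = (Ωˣ)ᵖ` is `zᵖ · d b` with `z` a level-`S` 2-cocycle with values in `Ωˣ` and
`b` a level-`S` 1-cochain with values in `W`.  (Formal from `DivBr` and `ResOnto`.) -/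
def Stmt_GS_Lift2 : Prop :=
  ∀ (p : ℕ) [Fact p.Prime], p ≠ 2 → ∀ (S : Finset Nat.Primes), pPrime p ∈ S →
    ∀ K : IntermediateField ℚ Qb, IsBaseField S p K →
    ∀ w : ↥K.fixingSubgroup × ↥K.fixingSubgroup → Qbˣ, IsLevK₂ S K w →
      (∀ t, InW S p (w t)) → mTwo w = 1 →
      ∃ (z : ↥K.fixingSubgroup × ↥K.fixingSubgroup → Qbˣ) (b : ↥K.fixingSubgroup → Qbˣ),
        IsLevK₂ S K z ∧ (∀ t, InOm S (z t : Qb)) ∧ mTwo z = 1 ∧
        IsLevK₁ S K b ∧ (∀ g, InW S p (b g)) ∧
        ∀ t, w t = z t ^ p * mOne b t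

/-! ### The assemblies -/

/-- **GS-AsmLift2**: `Lift2` from `DivBr` and `ResOnto` (cochain algebra). -/
def Stmt_GS_AsmLift2 : Prop := Stmt_GS_DivBr → Stmt_GS_ResOnto → Stmt_GS_Lift2

/-- **GS-AsmI2**: `I2` from `H3` and `Lift2` (cochain algebra). -/
def Stmt_GS_AsmI2 : Prop := Stmt_GS_H3 → Stmt_GS_Lift2 → Stmt_I2

/-- **GS-AsmI3**: `I3` from the Kummer sequence. -/
def Stmt_GS_AsmI3 : Prop :=
  Stmt_GS_H90 → Stmt_GS_Hasse → Stmt_GS_One → Stmt_GS_UnitRank → Stmt_GS_ClassDim → Stmt_I1 →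
    Stmt_I3

/-- **GS-AsmI4**: `I4` from `One`, `Two` and `dim H²(K_w) = 1`. -/
def Stmt_GS_AsmI4 : Prop := Stmt_GS_One → Stmt_GS_Two → Stmt_I1 → Stmt_I4

end Fermat.Agent.S55.CFT.GS

end

end
-- ==== END Fermat.Agent.S55.CFT.Defs_GS

-- ==== BEGIN Fermat.Agent.S55.CFT.GS.H5_H2Zero
section

set_option autoImplicit false

open CategoryTheory groupCohomology

noncomputable section

namespace Fermat.Agent.S55.CFT.GS.H5

open Fermat.Agent.S55.CFT Fermat.Agent.S55.CFT.GS

/-- **LOCS-H2Z**. -/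
theorem stmt_LocS_H2Zero : Stmt_LocS_H2Zero := by
  intro K L _ _ _ _ _ v f hf
  have e : locMap K L v 2 (H2π (repL K L) (cocyclesOfIsMulCocycle₂ hf)) =
      H2π (repJv K L v) (mapCocycles₂ (MonoidHom.id (L ≃ₐ[K] L)) (locRep K L v)
        (cocyclesOfIsMulCocycle₂ hf)) :=
    H2π_comp_map_apply (A := repL K L) (B := repJv K L v) (MonoidHom.id (L ≃ₐ[K] L))
      (locRep K L v) (cocyclesOfIsMulCocycle₂ hf)
  rw [e, H2π_eq_zero_iff]
  constructor
  · rintro ⟨y, hy⟩
    refine ⟨fun σ => Additive.toMul (y σ), fun σ τ => ?_⟩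
    have h1 := congrFun hy (σ, τ)
    have h2 : (repJv K L v).ρ σ (y τ) - y (σ * τ) + y σ =
        (Additive.ofMul (locHom K L v (f (σ, τ))) : repJv K L v) := h1
    have h3 : σ • (Additive.toMul (y τ) : (LocAlg K L v)ˣ) /
        (Additive.toMul (y (σ * τ)) : (LocAlg K L v)ˣ) * (Additive.toMul (y σ) : (LocAlg K L v)ˣ) =
        locHom K L v (f (σ, τ)) := h2
    rw [← h3, div_eq_mul_inv]
  · rintro ⟨β, hβ⟩
    refine ⟨fun σ => Additive.ofMul (β σ), funext fun ⟨σ, τ⟩ => ?_⟩
    have h3 : σ • β τ / β (σ * τ) * β σ = locHom K L v (f (σ, τ)) := by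
      rw [hβ σ τ, div_eq_mul_inv]
    exact h3

end Fermat.Agent.S55.CFT.GS.H5

end
end
-- ==== END Fermat.Agent.S55.CFT.GS.H5_H2Zero

-- ==== BEGIN Fermat.Agent.S55.CFT.GS.H9_LocSShapiro2
section

set_option autoImplicit false
set_option linter.unusedSectionVars false
set_option linter.style.haveILetI false

noncomputable section

namespace Fermat.Agent.S55.CFT.GS.H9

open Fermat.Agent.S55.CFT

/-- The prism identity, additive form. -/
theorem prism_add {A : Type} [AddCommGroup A] (a b c d e f g h i j k l m : A)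
    (hψ : a = b + -c + d) (hA : a + e = f + g) (hB : h + i = f + j) (hC : k + i = l + m) :
    (b + -h + k) + -(c + -e + l) + (d + -g + j) = m := by
  linear_combination (norm := abel) -hψ + hA - hB + hC

/-- The prism identity, multiplicative form. -/
theorem prism_mul {A : Type} [CommGroup A] (a b c d e f g h i j k l m : A)
    (hψ : a = b * c⁻¹ * d) (hA : a * e = f * g) (hB : h * i = f * j) (hC : k * i = l * m) :
    (b * h⁻¹ * k) * (c * e⁻¹ * l)⁻¹ * (d * g⁻¹ * j) = m :=
  prism_add (A := Additive A) (Additive.ofMul a) (Additive.ofMul b) (Additive.ofMul c)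
    (Additive.ofMul d) (Additive.ofMul e) (Additive.ofMul f) (Additive.ofMul g)
    (Additive.ofMul h) (Additive.ofMul i) (Additive.ofMul j) (Additive.ofMul k)
    (Additive.ofMul l) (Additive.ofMul m) hψ hA hB hC

/-- The homogeneous prism: a homogeneous 2-cocycle `Φ` whose restriction along `r`
is the coboundary of `ψ` is the coboundary of `θ`. -/
theorem prism {X A : Type} [CommGroup A] (Φ : X → X → X → A) (r : X → X) (ψ : X → X → A)
    (hΦ : ∀ x₀ x₁ x₂ x₃, Φ x₁ x₂ x₃ * Φ x₀ x₁ x₃ = Φ x₀ x₂ x₃ * Φ x₀ x₁ x₂)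
    (hψ : ∀ x₀ x₁ x₂,
      Φ (r x₀) (r x₁) (r x₂) = ψ x₁ x₂ * (ψ x₀ x₂)⁻¹ * ψ x₀ x₁)
    (x₀ x₁ x₂ : X) :
    (ψ x₁ x₂ * (Φ x₁ (r x₁) (r x₂))⁻¹ * Φ x₁ x₂ (r x₂)) *
      (ψ x₀ x₂ * (Φ x₀ (r x₀) (r x₂))⁻¹ * Φ x₀ x₂ (r x₂))⁻¹ *
      (ψ x₀ x₁ * (Φ x₀ (r x₀) (r x₁))⁻¹ * Φ x₀ x₁ (r x₁)) = Φ x₀ x₁ x₂ :=
  prism_mul _ _ _ _ _ _ _ _ _ _ _ _ _ (hψ x₀ x₁ x₂) (hΦ x₀ (r x₀) (r x₁) (r x₂))
    (hΦ x₀ x₁ (r x₁) (r x₂)) (hΦ x₀ x₁ x₂ (r x₂))

section

variable {G : Type} [Group G] {B : Type} [CommRing B] [MulSemiringAction G B]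
  (M : Ideal B)

/-- The class of `g u` modulo `M`. -/
def ev (g : G) (u : Bˣ) : (B ⧸ M)ˣ := H58.redUnits M (H58.unitsSmul G B g u)

lemma ev_mul (g : G) (u v : Bˣ) : _root_.Fermat.Agent.S55.CFT.GS.H9.ev M g (u * v) = _root_.Fermat.Agent.S55.CFT.GS.H9.ev M g u * _root_.Fermat.Agent.S55.CFT.GS.H9.ev M g v := by
  unfold _root_.Fermat.Agent.S55.CFT.GS.H9.ev
  rw [map_mul, map_mul]

lemma ev_inv (g : G) (u : Bˣ) : _root_.Fermat.Agent.S55.CFT.GS.H9.ev M g u⁻¹ = (_root_.Fermat.Agent.S55.CFT.GS.H9.ev M g u)⁻¹ := by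
  unfold _root_.Fermat.Agent.S55.CFT.GS.H9.ev
  rw [map_inv, map_inv]

lemma ev_smul (g h : G) (u : Bˣ) : _root_.Fermat.Agent.S55.CFT.GS.H9.ev M g (H58.unitsSmul G B h u) = _root_.Fermat.Agent.S55.CFT.GS.H9.ev M (g * h) u := by
  unfold _root_.Fermat.Agent.S55.CFT.GS.H9.ev
  apply congrArg (H58.redUnits M)
  apply Units.ext
  exact (mul_smul g h _).symm

lemma ev_decomp_mul (d : H58.decomp G M) (g : G) (u : Bˣ) :
    _root_.Fermat.Agent.S55.CFT.GS.H9.ev M ((d : G) * g) u = H58.unitsSmul (H58.decomp G M) (B ⧸ M) d (_root_.Fermat.Agent.S55.CFT.GS.H9.ev M g u) := by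
  unfold _root_.Fermat.Agent.S55.CFT.GS.H9.ev
  rw [← H58.redUnits_smul]
  apply congrArg (H58.redUnits M)
  apply Units.ext
  exact mul_smul (d : G) g _

lemma ev_decomp (d : H58.decomp G M) (u : Bˣ) :
    _root_.Fermat.Agent.S55.CFT.GS.H9.ev M (d : G) u = H58.unitsSmul (H58.decomp G M) (B ⧸ M) d (H58.redUnits M u) := by
  unfold _root_.Fermat.Agent.S55.CFT.GS.H9.ev
  rw [← H58.redUnits_smul]

variable {M}

theorem unit_ext (hJ : H58.OrbitSeparates G M) (u u' : Bˣ)
    (h : ∀ g : G, _root_.Fermat.Agent.S55.CFT.GS.H9.ev M g u = _root_.Fermat.Agent.S55.CFT.GS.H9.ev M g u') : u = u' := by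
  have h1 : H58.toCoindUnits G M (Additive.ofMul u) = H58.toCoindUnits G M (Additive.ofMul u') := by
    apply Subtype.ext
    funext g
    rw [H58.toCoindUnits_apply, H58.toCoindUnits_apply]
    exact congrArg Additive.ofMul (h g)
  exact Additive.ofMul.injective (H58.toCoindUnits_injective hJ h1)

theorem exists_unit [Finite G] [M.IsMaximal] (hJ : H58.OrbitSeparates G M)
    (f : G → (B ⧸ M)ˣ)
    (hf : ∀ (d : H58.decomp G M) (g : G),
      f ((d : G) * g) = H58.unitsSmul (H58.decomp G M) (B ⧸ M) d (f g)) :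
    ∃ u : Bˣ, ∀ g : G, _root_.Fermat.Agent.S55.CFT.GS.H9.ev M g u = f g := by
  obtain ⟨a, ha⟩ := H58.toCoindUnits_surjective hJ
    ⟨fun g => Additive.ofMul (f g), fun d g => congrArg Additive.ofMul (hf d g)⟩
  refine ⟨a.toMul, fun g => ?_⟩
  have h1 := congrFun (congrArg Subtype.val ha) g
  rw [H58.toCoindUnits_apply] at h1
  exact Additive.ofMul.injective h1

end

/-- **LOCS-SH2**: Shapiro's lemma in degree 2 for the units of a `G`-ring. -/
theorem stmt_LocS_Shapiro2 : Stmt_LocS_Shapiro2 := by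
  intro G _ _ B _ _ M _ hJ c hc b hb
  classical
  -- the homogeneous cocycle
  set Φ : G → G → G → (B ⧸ M)ˣ := fun x₀ x₁ x₂ => _root_.Fermat.Agent.S55.CFT.GS.H9.ev M x₀ (c (x₀⁻¹ * x₁, x₁⁻¹ * x₂)) with hΦdef
  have hΦ : ∀ x₀ x₁ x₂ x₃, Φ x₁ x₂ x₃ * Φ x₀ x₁ x₃ = Φ x₀ x₂ x₃ * Φ x₀ x₁ x₂ := by
    intro x₀ x₁ x₂ x₃
    have h1 := congrArg (_root_.Fermat.Agent.S55.CFT.GS.H9.ev M x₀) (hc (x₀⁻¹ * x₁) (x₁⁻¹ * x₂) (x₂⁻¹ * x₃))
    rw [ev_mul, ev_mul, ev_smul] at h1
    have e1 : x₀ * (x₀⁻¹ * x₁) = x₁ := by group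
    have e2 : x₁⁻¹ * x₂ * (x₂⁻¹ * x₃) = x₁⁻¹ * x₃ := by group
    have e3 : x₀⁻¹ * x₁ * (x₁⁻¹ * x₂) = x₀⁻¹ * x₂ := by group
    rw [e1, e2, e3] at h1
    exact h1
  have hΦeq : ∀ (d : H58.decomp G M) (x₀ x₁ x₂ : G),
      Φ ((d : G) * x₀) ((d : G) * x₁) ((d : G) * x₂) =
        H58.unitsSmul (H58.decomp G M) (B ⧸ M) d (Φ x₀ x₁ x₂) := by
    intro d x₀ x₁ x₂
    have e1 : ((d : G) * x₀)⁻¹ * ((d : G) * x₁) = x₀⁻¹ * x₁ := by group
    have e2 : ((d : G) * x₁)⁻¹ * ((d : G) * x₂) = x₁⁻¹ * x₂ := by group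
    show _root_.Fermat.Agent.S55.CFT.GS.H9.ev M ((d : G) * x₀) (c (((d : G) * x₀)⁻¹ * ((d : G) * x₁),
      ((d : G) * x₁)⁻¹ * ((d : G) * x₂))) = _
    rw [e1, e2, ev_decomp_mul]
  -- the retraction
  obtain ⟨T, hT, -⟩ := Subgroup.exists_isComplement_right (H58.decomp G M) (1 : G)
  set ρ : G → H58.decomp G M := fun g => (hT.equiv g).1 with hρdef
  have hρ : ∀ (d : H58.decomp G M) (g : G), ρ ((d : G) * g) = d * ρ g := by
    intro d g
    show (hT.equiv ((d : G) * g)).1 = d * (hT.equiv g).1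
    rw [hT.equiv_mul_left d g]
  set r : G → G := fun g => (ρ g : G) with hrdef
  have hr : ∀ (d : H58.decomp G M) (g : G), r ((d : G) * g) = (d : G) * r g := by
    intro d g
    show ((ρ ((d : G) * g) : H58.decomp G M) : G) = (d : G) * (ρ g : G)
    rw [hρ d g]
    rfl
  -- the coboundary on `D`
  set ψ₀ : H58.decomp G M → H58.decomp G M → (B ⧸ M)ˣ := fun y₀ y₁ =>
    H58.unitsSmul (H58.decomp G M) (B ⧸ M) y₀ (b (y₀⁻¹ * y₁)) with hψ₀def
  have hsm : ∀ (d e : H58.decomp G M) (a : (B ⧸ M)ˣ),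
      H58.unitsSmul (H58.decomp G M) (B ⧸ M) d (H58.unitsSmul (H58.decomp G M) (B ⧸ M) e a) =
        H58.unitsSmul (H58.decomp G M) (B ⧸ M) (d * e) a := by
    intro d e a
    apply Units.ext
    exact (mul_smul d e (a : B ⧸ M)).symm
  have hψ₀ : ∀ y₀ y₁ y₂ : H58.decomp G M,
      Φ (y₀ : G) (y₁ : G) (y₂ : G) = ψ₀ y₁ y₂ * (ψ₀ y₀ y₂)⁻¹ * ψ₀ y₀ y₁ := by
    intro y₀ y₁ y₂
    have h1 := congrArg (H58.unitsSmul (H58.decomp G M) (B ⧸ M) y₀) (hb (y₀⁻¹ * y₁) (y₁⁻¹ * y₂))
    rw [map_mul, map_mul, map_inv, hsm, ← ev_decomp] at h1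
    have e1 : y₀ * (y₀⁻¹ * y₁) = y₁ := by group
    have e2 : y₀⁻¹ * y₁ * (y₁⁻¹ * y₂) = y₀⁻¹ * y₂ := by group
    rw [e1, e2] at h1
    exact h1
  have hψ₀eq : ∀ d y₀ y₁ : H58.decomp G M,
      ψ₀ (d * y₀) (d * y₁) = H58.unitsSmul (H58.decomp G M) (B ⧸ M) d (ψ₀ y₀ y₁) := by
    intro d y₀ y₁
    have e1 : (d * y₀)⁻¹ * (d * y₁) = y₀⁻¹ * y₁ := by group
    show H58.unitsSmul (H58.decomp G M) (B ⧸ M) (d * y₀) (b ((d * y₀)⁻¹ * (d * y₁))) = _
    rw [e1, hsm]
  -- `ψ` on `G` through the retraction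
  set ψ : G → G → (B ⧸ M)ˣ := fun x₀ x₁ => ψ₀ (ρ x₀) (ρ x₁) with hψdef
  have hψ : ∀ x₀ x₁ x₂ : G,
      Φ (r x₀) (r x₁) (r x₂) = ψ x₁ x₂ * (ψ x₀ x₂)⁻¹ * ψ x₀ x₁ :=
    fun x₀ x₁ x₂ => hψ₀ (ρ x₀) (ρ x₁) (ρ x₂)
  have hψeq : ∀ (d : H58.decomp G M) (x₀ x₁ : G),
      ψ ((d : G) * x₀) ((d : G) * x₁) =
        H58.unitsSmul (H58.decomp G M) (B ⧸ M) d (ψ x₀ x₁) := by
    intro d x₀ x₁
    show ψ₀ (ρ ((d : G) * x₀)) (ρ ((d : G) * x₁)) = _
    rw [hρ, hρ, hψ₀eq]
  -- the homogeneous 1-cochain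
  set θ : G → G → (B ⧸ M)ˣ := fun x₀ x₁ =>
    ψ x₀ x₁ * (Φ x₀ (r x₀) (r x₁))⁻¹ * Φ x₀ x₁ (r x₁) with hθdef
  have hθ : ∀ x₀ x₁ x₂ : G, θ x₁ x₂ * (θ x₀ x₂)⁻¹ * θ x₀ x₁ = Φ x₀ x₁ x₂ :=
    fun x₀ x₁ x₂ => prism Φ r ψ hΦ hψ x₀ x₁ x₂
  have hθeq : ∀ (d : H58.decomp G M) (x₀ x₁ : G),
      θ ((d : G) * x₀) ((d : G) * x₁) =
        H58.unitsSmul (H58.decomp G M) (B ⧸ M) d (θ x₀ x₁) := by
    intro d x₀ x₁
    show ψ ((d : G) * x₀) ((d : G) * x₁) *
      (Φ ((d : G) * x₀) (r ((d : G) * x₀)) (r ((d : G) * x₁)))⁻¹ *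
      Φ ((d : G) * x₀) ((d : G) * x₁) (r ((d : G) * x₁)) =
      H58.unitsSmul (H58.decomp G M) (B ⧸ M) d
        (ψ x₀ x₁ * (Φ x₀ (r x₀) (r x₁))⁻¹ * Φ x₀ x₁ (r x₁))
    rw [hr, hr, hψeq, hΦeq, hΦeq, map_mul, map_mul, map_inv]
  -- the inhomogeneous 1-cochain with values in `Bˣ`
  have hex : ∀ σ : G, ∃ u : Bˣ, ∀ g : G, _root_.Fermat.Agent.S55.CFT.GS.H9.ev M g u = θ g (g * σ) := by
    intro σ
    refine exists_unit hJ (fun g => θ g (g * σ)) (fun d g => ?_)
    show θ ((d : G) * g) ((d : G) * g * σ) = _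
    rw [mul_assoc, hθeq]
  choose β hβ using hex
  refine ⟨β, fun σ τ => unit_ext hJ _ _ (fun g => ?_)⟩
  rw [ev_mul, ev_mul, ev_inv, ev_smul, hβ, hβ, hβ, ← mul_assoc g σ τ, hθ]
  show _root_.Fermat.Agent.S55.CFT.GS.H9.ev M g (c (σ, τ)) = _root_.Fermat.Agent.S55.CFT.GS.H9.ev M g (c (g⁻¹ * (g * σ), (g * σ)⁻¹ * (g * σ * τ)))
  have e1 : g⁻¹ * (g * σ) = σ := by group
  have e2 : (g * σ)⁻¹ * (g * σ * τ) = τ := by group
  rw [e1, e2]

end Fermat.Agent.S55.CFT.GS.H9

end

end
-- ==== END Fermat.Agent.S55.CFT.GS.H9_LocSShapiro2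

-- ==== BEGIN Fermat.Agent.S55.CFT.H12_H2Index
section

set_option autoImplicit false
set_option linter.unusedSectionVars false

namespace Fermat.Agent.S55.CFT.H12

open NumberField Module TensorProduct CategoryTheory CategoryTheory.Limits

section classmap

variable (K L : Type) [Field K] [Field L] [NumberField K] [NumberField L] [Algebra K L]
  (T : Finset Nat.Primes)

/-- The class of an idele of `L` in `C_{L,T}`. -/
noncomputable def idClass (j : IdeleT L T) : (repC K L T).V :=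
  (cokernel.π (diagRep K L T)).hom (Additive.ofMul j : Additive (IdeleT L T))

theorem idClass_mul (j j' : IdeleT L T) :
    idClass K L T (j * j') = idClass K L T j + idClass K L T j' := by
  unfold idClass
  rw [ofMul_mul]
  exact map_add _ _ _

theorem idClass_div (j j' : IdeleT L T) :
    idClass K L T (j / j') = idClass K L T j - idClass K L T j' := by
  unfold idClass
  rw [ofMul_div]
  exact map_sub _ _ _

theorem idClass_diag (e : TUnits L T) : idClass K L T (diagIdele L T (e : Lˣ)) = 0 :=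
  cokernel_π_comp_apply (diagRep K L T) (Additive.ofMul e : Additive (TUnits L T))

theorem idClass_eq_zero (j : IdeleT L T) (hj : idClass K L T j = 0) :
    ∃ e : TUnits L T, diagIdele L T (e : Lˣ) = j := by
  obtain ⟨x, hx⟩ := (cokernel_π_eq_zero_iff (diagRep K L T) _).mp hj
  exact ⟨Additive.toMul x, congrArg Additive.toMul hx⟩

theorem idClass_eq_iff (j j' : IdeleT L T) :
    idClass K L T j = idClass K L T j' ↔ ∃ e : TUnits L T, j = j' * diagIdele L T (e : Lˣ) := by
  constructor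
  · intro h
    have h0 : idClass K L T (j / j') = 0 := by rw [idClass_div, h, sub_self]
    obtain ⟨e, he⟩ := idClass_eq_zero K L T _ h0
    exact ⟨e, by rw [he, mul_div_cancel]⟩
  · rintro ⟨e, rfl⟩
    rw [idClass_mul, idClass_diag, add_zero]

theorem idClass_smul (σ : L ≃ₐ[K] L) (j : IdeleT L T) :
    idClass K L T (σ • j) = (repC K L T).ρ σ (idClass K L T j) :=
  cokernel_π_ρ (diagRep K L T) σ _

theorem idClass_surjective (c : (repC K L T).V) : ∃ j : IdeleT L T, idClass K L T j = c := by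
  obtain ⟨y, hy⟩ := cokernel_π_surjective (diagRep K L T) c
  exact ⟨Additive.toMul y, hy⟩

theorem repJ_norm_apply [Fintype (L ≃ₐ[K] L)] (j : IdeleT L T) :
    (repJ K L T).ρ.norm (Additive.ofMul j : Additive (IdeleT L T)) =
      (Additive.ofMul (∏ σ : L ≃ₐ[K] L, σ • j) : Additive (IdeleT L T)) := by
  refine (rep_norm_apply (repJ K L T) _).trans ?_
  exact (ofMul_prod Finset.univ (fun σ : L ≃ₐ[K] L => σ • j)).symm

/-- **(C_L)^G = image of J_K**: an idele of `L` whose class is Galois invariant has the class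
of an idele of `K` (`H¹(G, E_L) = 0` and descent). -/
theorem exists_base_of_idClass_invariant [IsGalois K L] (hunr : UnramifiedOutsideT K L T)
    (hcl : ClTrivial K T) (hT : T.Nonempty) (j : IdeleT L T)
    (hj : ∀ σ : L ≃ₐ[K] L, idClass K L T (σ • j) = idClass K L T j) :
    ∃ x : IdeleT K T, idClass K L T (baseIdele K L T x) = idClass K L T j := by
  have hex : ∀ σ : L ≃ₐ[K] L, ∃ e : TUnits L T, σ • j = j * diagIdele L T (e : Lˣ) :=
    fun σ => (idClass_eq_iff K L T _ _).mp (hj σ)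
  choose f hf using hex
  have hinj := diagIdele_injective L T hT
  have hcoc : groupCohomology.IsMulCocycle₁ f := by
    intro σ τ
    apply Subtype.ext
    apply hinj
    have h1 : (σ * τ) • j = j * diagIdele L T ((f (σ * τ) : TUnits L T) : Lˣ) := hf (σ * τ)
    have h2 : (σ * τ) • j = j * (diagIdele L T (σ • ((f τ : TUnits L T) : Lˣ)) *
        diagIdele L T ((f σ : TUnits L T) : Lˣ)) := by
      rw [mul_smul, hf τ, smul_mul', hf σ, diagIdele_smul K L T]
      rw [mul_assoc, mul_comm (diagIdele L T _) (σ • diagIdele L T _)]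
    have h3 := h1.symm.trans h2
    have h4 := mul_left_cancel h3
    rw [h4, ← map_mul]
    rfl
  obtain ⟨e, he⟩ := isMulCoboundary₁_tUnits K L T hunr hcl f hcoc
  have hinv : ∀ σ : L ≃ₐ[K] L, σ • (j / diagIdele L T (e : Lˣ)) = j / diagIdele L T (e : Lˣ) := by
    intro σ
    have he' : σ • (e : Lˣ) = (e : Lˣ) * ((f σ : TUnits L T) : Lˣ) := by
      have h := congrArg (fun u : TUnits L T => (u : Lˣ)) (he σ)
      have h' : σ • (e : Lˣ) / (e : Lˣ) = ((f σ : TUnits L T) : Lˣ) := h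
      rw [← h', mul_div_cancel]
    rw [smul_div', hf σ, ← diagIdele_smul K L T, he', map_mul, mul_div_mul_right_eq_div]
  obtain ⟨x, hx⟩ := exists_baseIdele_of_invariant K L T _ hinv
  refine ⟨x, ?_⟩
  rw [hx, idClass_div, idClass_diag, sub_zero]

/-- The norm group is the set of ideles of `K` whose class in `C_L` is a norm. -/
theorem mem_normGroup_iff [IsGalois K L] (hT : T.Nonempty) (a : IdeleT K T) :
    a ∈ normGroup K L T ↔
      ∃ j : IdeleT L T, idClass K L T (baseIdele K L T a) =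
        idClass K L T (∏ σ : L ≃ₐ[K] L, σ • j) := by
  constructor
  · intro ha
    rw [normGroup, Subgroup.mem_sup] at ha
    obtain ⟨u, hu, n, hn, rfl⟩ := ha
    obtain ⟨e, he, rfl⟩ := hu
    obtain ⟨y, rfl⟩ := hn
    refine ⟨y, ?_⟩
    rw [map_mul, idClass_mul, baseIdele_normLK, baseIdele_diagIdele]
    have h0 : idClass K L T (diagIdele L T (Units.map (algebraMap K L : K →* L) e)) = 0 :=
      idClass_diag K L T (iotaT K L T ⟨e, he⟩)
    rw [h0, zero_add]
  · rintro ⟨j, hj⟩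
    rw [← baseIdele_normLK, idClass_eq_iff] at hj
    obtain ⟨e, he⟩ := hj
    have hinj := diagIdele_injective L T hT
    have hbase : baseIdele K L T (a / normLK K L T j) = diagIdele L T (e : Lˣ) := by
      rw [map_div, he, mul_div_cancel_left]
    have hinv : ∀ σ : L ≃ₐ[K] L, σ • e = e := by
      intro σ
      apply Subtype.ext
      apply hinj
      change diagIdele L T (σ • (e : Lˣ)) = diagIdele L T (e : Lˣ)
      rw [diagIdele_smul K L T, ← hbase, smul_baseIdele]
    obtain ⟨e', he'⟩ := exists_iotaT_of_invariant K L T e hinv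
    have h1 : baseIdele K L T (a / normLK K L T j) =
        baseIdele K L T (diagIdele K T (e' : Kˣ)) := by
      rw [hbase, baseIdele_diagIdele, ← he']
      rfl
    have h2 := baseIdele_injective K L T h1
    rw [normGroup, Subgroup.mem_sup]
    refine ⟨diagIdele K T (e' : Kˣ), ⟨e', e'.2, rfl⟩, normLK K L T j, ⟨j, rfl⟩, ?_⟩
    rw [← h2, div_mul_cancel]

/-- The base change of ideles, additively, with values in the representation `repJ`. -/
noncomputable def baseAdd : Additive (IdeleT K T) →+ (repJ K L T).V :=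
  (MonoidHom.toAdditive (baseIdele K L T) : Additive (IdeleT K T) →+ Additive (IdeleT L T))

theorem baseAdd_apply (a : Additive (IdeleT K T)) :
    baseAdd K L T a =
      (Additive.ofMul (baseIdele K L T (Additive.toMul a)) : Additive (IdeleT L T)) := rfl

end classmap

/-- **H2I**: for `L/K` cyclic, admissible, `#H²(G, C_{L,T}) = [J_{K,T} : E_{K,T} N J_{L,T}]`. -/
theorem stmt_H2Index : Stmt_H2Index := by
  intro p K L _ _ _ _ _ T hadm hcyc
  have hgal := hadm.gal
  have hcl : ClTrivial K T := hadm.cl K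
  have hunr := hadm.unr
  have hT : T.Nonempty := by
    obtain ⟨q, hq, _⟩ := hadm.pmem
    exact ⟨q, hq⟩
  obtain ⟨g, hg⟩ := hcyc.exists_generator
  rw [← Subgroup.index_toAddSubgroup]
  refine card_H2_cokernel (diagRep K L T) g hg (A := Additive (IdeleT K T))
    (baseAdd K L T) (Subgroup.toAddSubgroup (normGroup K L T))
    ?_ ?_ ?_
  · intro a σ
    exact congrArg Additive.ofMul (smul_baseIdele K L T σ (Additive.toMul a))
  · intro j hj
    obtain ⟨x, hx⟩ := exists_base_of_idClass_invariant K L T hunr hcl hT (Additive.toMul j)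
      (fun σ => hj σ)
    exact ⟨Additive.ofMul x, hx⟩
  · intro a
    have h := mem_normGroup_iff K L T hT (Additive.toMul a)
    constructor
    · intro ha
      obtain ⟨j, hj⟩ := h.mp ha
      refine ⟨(Additive.ofMul j : Additive (IdeleT L T)), ?_⟩
      rw [repJ_norm_apply]
      exact hj
    · rintro ⟨j, hj⟩
      apply h.mpr
      refine ⟨Additive.toMul j, ?_⟩
      have hj' := hj
      have hn := repJ_norm_apply K L T (Additive.toMul j)
      exact hj'.trans (congrArg (cokernel.π (diagRep K L T)).hom hn)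

end Fermat.Agent.S55.CFT.H12

end
-- ==== END Fermat.Agent.S55.CFT.H12_H2Index

-- ==== BEGIN Fermat.Agent.S55.CFT.H12_ValDefs
section

set_option autoImplicit false

open NumberField TensorProduct IsDedekindDomain

noncomputable section

namespace Fermat.Agent.S55.CFT.H12

variable (K L : Type) [Field K] [Field L] [NumberField K] [NumberField L] [Algebra K L]

/-- `Lˣ → (ℚ_q ⊗ L)ˣ`, `y ↦ 1 ⊗ y`. -/
def diagQ (q : Nat.Primes) : Lˣ →* (SemiLocal L q)ˣ :=
  Units.map ((Algebra.TensorProduct.includeRight : L →ₐ[ℚ] SemiLocal L q) : L →* SemiLocal L q)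

@[simp] lemma diagQ_val (q : Nat.Primes) (y : Lˣ) :
    ((diagQ L q y : (SemiLocal L q)ˣ) : SemiLocal L q) = (1 : Qp q) ⊗ₜ[ℚ] (y : L) := rfl

/-- **LV** (local unit groups): a `Gal(L/K)`-stable subgroup `U ⊆ (ℚ_q ⊗ L)ˣ` with
`(ℚ_q ⊗ L)ˣ = diag(Lˣ) · U` and `diag⁻¹(U) = ` the elements of `Lˣ` which are units at all primes
above `q`.  (`U = (ℤ_q ⊗ 𝓞_L)ˣ`; weak approximation; coordinates in an integral basis.) -/
def Stmt_LocUnitGroup : Prop :=
  ∀ (K L : Type) [Field K] [Field L] [NumberField K] [NumberField L] [Algebra K L]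
    (q : Nat.Primes),
    ∃ U : Subgroup (SemiLocal L q)ˣ,
      (∀ (σ : L ≃ₐ[K] L) (u : (SemiLocal L q)ˣ), u ∈ U → σ • u ∈ U) ∧
      (∀ u : (SemiLocal L q)ˣ, ∃ y : Lˣ, u / diagQ L q y ∈ U) ∧
      (∀ y : Lˣ, diagQ L q y ∈ U ↔
        ∀ w : HeightOneSpectrum (𝓞 L), ((q : ℕ) : 𝓞 L) ∈ w.asIdeal → w.valuation L (y : L) = 1)

end Fermat.Agent.S55.CFT.H12

end
end
-- ==== END Fermat.Agent.S55.CFT.H12_ValDefs

-- ==== BEGIN Fermat.Agent.S55.CFT.H13_Tate
section

/-!
# S55-E4 package TN-2 (helper13): Tate's theorem in degree 3 from twin vanishing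

`stmt_TateH3_of : Stmt_TwinVanishing → Stmt_TateH3`, by the splitting module `C(γ)`
(`H12_SplitModule.lean`, helper12).
-/

set_option autoImplicit false
set_option linter.unusedSectionVars false
set_option linter.unusedVariables false
set_option linter.style.haveILetI false

noncomputable section

namespace Fermat.Agent.S55.CFT.H13

open CategoryTheory groupCohomology Limits Fermat.Agent.S55.CFT Fermat.Agent.S55.CFT.H12

section Cyclic

variable {M : Type} [AddCommGroup M]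

/-- In a finite group of order `c` generated by `r`, `n r = 0` only if `c ∣ n`. -/
theorem dvd_of_zsmul_eq_zero_of_gen (r : M) (c : ℕ) (hc : Nat.card M = c)
    (hgen : ∀ x : M, ∃ n : ℤ, x = n • r) (n : ℤ) (hn : n • r = 0) : (c : ℤ) ∣ n := by
  have h1 : addOrderOf r = Nat.card M := by
    apply addOrderOf_eq_card_of_forall_mem_zmultiples
    intro x
    obtain ⟨k, hk⟩ := hgen x
    exact AddSubgroup.mem_zmultiples_iff.mpr ⟨k, hk.symm⟩
  rw [← hc, ← h1]
  exact addOrderOf_dvd_iff_zsmul_eq_zero.mpr hn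

end Cyclic

section Main

variable {G : Type} [Group G] [Fintype G] (C : Rep.{0} ℤ G) (γ : cocycles₂ C) (H : Subgroup G)

/-- The connecting map `H¹(H, I_G) → H²(H, C)`, with explicit source and target. -/
def dlt : groupCohomology (resSub (augR G) H) 1 →ₗ[ℤ] groupCohomology (resSub C H) 2 :=
  (δ (seqA_shortExact C γ H) 1 2 rfl).hom

theorem dlt_uClass : dlt C γ H (uClass G H) = resMap C H 2 (H2π C γ) :=
  delta_uClass C γ H

/-- The connecting map `H¹(H, I_G) → H²(H, C)` is injective when `H²(H, C)` is cyclic of order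
`|H|`, generated by `res γ`. -/
theorem dlt_injective
    (hcard : Nat.card (groupCohomology (resSub C H) 2) = Nat.card H)
    (hgen : ∀ x : groupCohomology (resSub C H) 2, ∃ n : ℤ, x = n • resMap C H 2 (H2π C γ))
    (a : groupCohomology (resSub (augR G) H) 1)
    (ha : dlt C γ H a = 0) : a = 0 := by
  obtain ⟨n, rfl⟩ := H1_aug_gen G H a
  have h1 : n • resMap C H 2 (H2π C γ) = 0 := by
    have e1 : dlt C γ H (n • uClass G H) = n • dlt C γ H (uClass G H) :=
      map_zsmul (dlt C γ H) n (uClass G H)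
    rw [← dlt_uClass C γ H, ← e1]
    exact ha
  obtain ⟨m, rfl⟩ := dvd_of_zsmul_eq_zero_of_gen _ _ hcard hgen n h1
  rw [mul_comm, mul_smul, card_smul_uClass]
  exact zsmul_zero m

theorem dlt_surjective
    (hgen : ∀ x : groupCohomology (resSub C H) 2, ∃ n : ℤ, x = n • resMap C H 2 (H2π C γ))
    (x : groupCohomology (resSub C H) 2) :
    ∃ a : groupCohomology (resSub (augR G) H) 1, dlt C γ H a = x := by
  obtain ⟨n, rfl⟩ := hgen x
  refine ⟨n • uClass G H, ?_⟩
  have e1 : dlt C γ H (n • uClass G H) = n • dlt C γ H (uClass G H) :=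
    map_zsmul (dlt C γ H) n (uClass G H)
  rw [e1, dlt_uClass]

end Main

section Vanish

variable {G : Type} [Group G] [Fintype G] (C : Rep.{0} ℤ G) (γ : cocycles₂ C) (H : Subgroup G)

/-- `H¹(H, C(γ)) = 0`. -/
theorem subsingleton_H1_split
    (h1 : Subsingleton (groupCohomology (resSub C H) 1))
    (hcard : Nat.card (groupCohomology (resSub C H) 2) = Nat.card H)
    (hgen : ∀ x : groupCohomology (resSub C H) 2, ∃ n : ℤ, x = n • resMap C H 2 (H2π C γ)) :
    Subsingleton (groupCohomology (resSub (splitR C γ) H) 1) := by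
  have hA := seqA_shortExact C γ H
  have key : ∀ a : groupCohomology (resSub (splitR C γ) H) 1, a = 0 := by
    intro a
    -- the image `b` of `a` in `H¹(I_G)` is killed by `δ`, hence zero
    have hz := (mapShortComplex₃ hA (i := 1) (j := 2) rfl).zero
    have hb : dlt C γ H ((mapShortComplex₂ (seqA C γ H) 1).g a) = 0 := by
      have := congrArg (fun f => f a) (congrArg (fun f => (ModuleCat.Hom.hom f : _ → _)) hz)
      exact this
    have hb0 := dlt_injective C γ H hcard hgen _ hb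
    -- exactness at `H¹(C(γ))`
    have hex := mapShortComplex₂_exact hA 1
    rw [ShortComplex.moduleCat_exact_iff] at hex
    obtain ⟨c, hc⟩ := hex a hb0
    have hc0 : c = 0 := h1.elim _ _
    rw [← hc, hc0, map_zero]
    rfl
  exact ⟨fun a b => by rw [key a, key b]⟩

/-- `H²(H, C(γ)) = 0`. -/
theorem subsingleton_H2_split
    (hgen : ∀ x : groupCohomology (resSub C H) 2, ∃ n : ℤ, x = n • resMap C H 2 (H2π C γ)) :
    Subsingleton (groupCohomology (resSub (splitR C γ) H) 2) := by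
  have hA := seqA_shortExact C γ H
  have key : ∀ a : groupCohomology (resSub (splitR C γ) H) 2, a = 0 := by
    intro a
    -- the image of `a` in `H²(I_G) = 0` vanishes
    have ha : (mapShortComplex₂ (seqA C γ H) 2).g a = 0 :=
      (ModuleCat.isZero_iff_subsingleton.mp (isZero_H2_aug G H)).elim _ _
    have hex := mapShortComplex₂_exact hA 2
    rw [ShortComplex.moduleCat_exact_iff] at hex
    obtain ⟨c, hc⟩ := hex a ha
    -- `c = δ b`, and the composite `H¹(I_G) → H²(C) → H²(C(γ))` is zero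
    obtain ⟨b, hb⟩ := dlt_surjective C γ H hgen c
    have hz := (mapShortComplex₁ hA (i := 1) (j := 2) rfl).zero
    have hz' : (mapShortComplex₂ (seqA C γ H) 2).f (dlt C γ H b) = 0 := by
      have := congrArg (fun f => f b) (congrArg (fun f => (ModuleCat.Hom.hom f : _ → _)) hz)
      exact this
    rw [← hc, ← hb]
    exact hz'
  exact ⟨fun a b => by rw [key a, key b]⟩

/-- `H³(H, C) = 0` once `H³(H, C(γ)) = 0`. -/
theorem subsingleton_H3
    (h3 : Subsingleton (groupCohomology (resSub (splitR C γ) H) 3)) :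
    Subsingleton (groupCohomology (resSub C H) 3) := by
  have hA := seqA_shortExact C γ H
  have hex := mapShortComplex₁_exact hA (i := 2) (j := 3) rfl
  have hz : IsZero (groupCohomology (resSub C H) 3) :=
    hex.isZero_of_both_isZero (isZero_H2_aug G H) (ModuleCat.isZero_iff_subsingleton.mpr h3)
  exact ModuleCat.subsingleton_of_isZero hz

end Vanish

/-- **TN-2** from **TN-1**. -/
theorem stmt_TateH3_of (htv : Stmt_TwinVanishing) : Stmt_TateH3 := by
  intro G _ _ C γ h1 h2 H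
  letI : Fintype G := Fintype.ofFinite G
  obtain ⟨γ₀, rfl⟩ : ∃ γ₀ : cocycles₂ C, H2π C γ₀ = γ :=
    (ModuleCat.epi_iff_surjective (H2π C)).1 inferInstance γ
  have hS1 : ∀ H' : Subgroup G, Subsingleton (groupCohomology (resSub (splitR C γ₀) H') 1) :=
    fun H' => subsingleton_H1_split C γ₀ H' (h1 H') (h2 H').1 (h2 H').2
  have hS2 : ∀ H' : Subgroup G, Subsingleton (groupCohomology (resSub (splitR C γ₀) H') 2) :=
    fun H' => subsingleton_H2_split C γ₀ H' (h2 H').2
  have hS3 := htv G (splitR C γ₀) hS1 hS2 H 3 (by norm_num)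
  exact subsingleton_H3 C γ₀ H hS3

end Fermat.Agent.S55.CFT.H13

end
end
-- ==== END Fermat.Agent.S55.CFT.H13_Tate

-- ==== BEGIN Fermat.Agent.S55.CFT.H19_ValSeq
section

set_option autoImplicit false
set_option linter.unusedSectionVars false
set_option linter.unusedVariables false
set_option linter.style.haveILetI false

open NumberField IsDedekindDomain WithZero CategoryTheory
open scoped Pointwise

noncomputable section

namespace Fermat.Agent.S55.CFT.H19

open Fermat.Agent.S55.CFT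

variable (K L : Type) [Field K] [Field L] [NumberField K] [NumberField L] [Algebra K L]
  (T : Finset Nat.Primes)

/-! ### The Galois action on the primes -/

/-- The image of a prime of `𝓞 L` under `σ ∈ Gal(L/K)`. -/
def hosSmul (σ : L ≃ₐ[K] L) (w : HeightOneSpectrum (𝓞 L)) : HeightOneSpectrum (𝓞 L) where
  asIdeal := σ • w.asIdeal
  isPrime := Ideal.IsPrime.smul σ
  ne_bot := by
    intro h
    apply w.ne_bot
    rw [eq_bot_iff]
    intro x hx
    have h1 : σ • x ∈ σ • w.asIdeal := Ideal.smul_mem_pointwise_smul σ x _ hx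
    rw [h] at h1
    have h2 : σ • x = 0 := h1
    have h3 : σ⁻¹ • (σ • x) = 0 := by rw [h2, smul_zero]
    rw [inv_smul_smul] at h3
    exact h3

@[simp] lemma hosSmul_asIdeal (σ : L ≃ₐ[K] L) (w : HeightOneSpectrum (𝓞 L)) :
    (hosSmul K L σ w).asIdeal = σ • w.asIdeal := rfl

lemma hosSmul_one (w : HeightOneSpectrum (𝓞 L)) : hosSmul K L 1 w = w :=
  HeightOneSpectrum.ext (one_smul _ _)

lemma hosSmul_mul (σ τ : L ≃ₐ[K] L) (w : HeightOneSpectrum (𝓞 L)) :
    hosSmul K L (σ * τ) w = hosSmul K L σ (hosSmul K L τ w) :=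
  HeightOneSpectrum.ext (mul_smul _ _ _)

lemma smul_natCast_int (σ : L ≃ₐ[K] L) (n : ℕ) : σ • ((n : ℕ) : 𝓞 L) = ((n : ℕ) : 𝓞 L) := by
  apply Subtype.ext
  show σ ((n : 𝓞 L) : L) = ((n : 𝓞 L) : L)
  simp

lemma hosSmul_mem_primesT (σ : L ≃ₐ[K] L) (w : HeightOneSpectrum (𝓞 L)) :
    hosSmul K L σ w ∈ H12.primesT L T ↔ w ∈ H12.primesT L T := by
  rw [H12.mem_primesT, H12.mem_primesT, hosSmul_asIdeal]
  rw [← smul_natCast_int K L σ (prodT T), Ideal.smul_mem_pointwise_smul_iff,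
    smul_natCast_int K L σ (prodT T)]

/-- The primes of `𝓞 L` outside `T`. -/
@[ext] structure PrimeOut : Type where
  /-- the prime -/
  val : HeightOneSpectrum (𝓞 L)
  /-- it is not above `T` -/
  not_mem : val ∉ H12.primesT L T

instance primeOutAction : MulAction (L ≃ₐ[K] L) (PrimeOut L T) where
  smul σ w := ⟨hosSmul K L σ w.1, fun h => w.2 ((hosSmul_mem_primesT K L T σ w.1).1 h)⟩
  one_smul w := PrimeOut.ext (hosSmul_one K L w.1)
  mul_smul σ τ w := PrimeOut.ext (hosSmul_mul K L σ τ w.1)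

lemma primeOut_smul_val (σ : L ≃ₐ[K] L) (w : PrimeOut L T) :
    ((σ • w : PrimeOut L T)).1 = hosSmul K L σ w.1 := rfl

/-! ### Valuations and the Galois action -/

lemma hosSmul_pow (σ : L ≃ₐ[K] L) (w : HeightOneSpectrum (𝓞 L)) (n : ℕ) :
    (hosSmul K L σ w).asIdeal ^ n = σ • (w.asIdeal ^ n) := by
  rw [hosSmul_asIdeal, Ideal.pointwise_smul_def, Ideal.pointwise_smul_def, Ideal.map_pow]

lemma intValuation_smul_le_iff (σ : L ≃ₐ[K] L) (w : HeightOneSpectrum (𝓞 L)) (r : 𝓞 L) (n : ℕ) :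
    (hosSmul K L σ w).intValuation (σ • r) ≤ exp (-(n : ℤ)) ↔
      w.intValuation r ≤ exp (-(n : ℤ)) := by
  rw [HeightOneSpectrum.intValuation_le_pow_iff_mem, HeightOneSpectrum.intValuation_le_pow_iff_mem,
    hosSmul_pow, Ideal.smul_mem_pointwise_smul_iff]

lemma intValuation_smul (σ : L ≃ₐ[K] L) (w : HeightOneSpectrum (𝓞 L)) (r : 𝓞 L) :
    (hosSmul K L σ w).intValuation (σ • r) = w.intValuation r := by
  by_cases hr : r = 0
  · subst hr
    rw [smul_zero, map_zero, map_zero]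
  have hr' : σ • r ≠ 0 := by
    intro h
    apply hr
    have h3 : σ⁻¹ • (σ • r) = 0 := by rw [h, smul_zero]
    rwa [inv_smul_smul] at h3
  have h1 := HeightOneSpectrum.intValuation_eq_exp_neg_multiplicity (hosSmul K L σ w) hr'
  have h2 := HeightOneSpectrum.intValuation_eq_exp_neg_multiplicity w hr
  apply le_antisymm
  · rw [h2]
    exact (intValuation_smul_le_iff K L σ w r _).2 (le_of_eq h2)
  · rw [h1]
    exact (intValuation_smul_le_iff K L σ w r _).1 (le_of_eq h1)

/-- `(σ • w)(σ y) = w(y)`. -/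
theorem valuation_smul (σ : L ≃ₐ[K] L) (w : HeightOneSpectrum (𝓞 L)) (y : L) :
    (hosSmul K L σ w).valuation L (σ y) = w.valuation L y := by
  obtain ⟨a, b, hb, rfl⟩ := IsFractionRing.div_surjective (A := 𝓞 L) y
  have hσ : ∀ r : 𝓞 L, σ (algebraMap (𝓞 L) L r) = algebraMap (𝓞 L) L (σ • r) := fun r => rfl
  rw [map_div₀, hσ, hσ, map_div₀, map_div₀, HeightOneSpectrum.valuation_of_algebraMap,
    HeightOneSpectrum.valuation_of_algebraMap, HeightOneSpectrum.valuation_of_algebraMap,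
    HeightOneSpectrum.valuation_of_algebraMap, intValuation_smul, intValuation_smul]

/-! ### The valuation map -/

lemma valuation_ne_zero' (w : HeightOneSpectrum (𝓞 L)) (y : Lˣ) : w.valuation L (y : L) ≠ 0 := by
  rw [Ne, Valuation.zero_iff]
  exact y.ne_zero

/-- The vector of the valuations outside `T` of `y ∈ Lˣ`. -/
def valFun (y : Lˣ) : PrimeOut L T →₀ ℤ :=
  Finsupp.ofSupportFinite (fun w => log (w.1.valuation L (y : L))) (by
    have hinj : Function.Injective (PrimeOut.val : PrimeOut L T → HeightOneSpectrum (𝓞 L)) :=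
      fun a b h => PrimeOut.ext h
    have h1 := (H12.finite_valuation_ne_one L y).preimage hinj.injOn
    apply h1.subset
    intro w hw
    rw [Function.mem_support] at hw
    rw [Set.mem_preimage, Set.mem_ofPred_eq]
    intro h
    apply hw
    rw [h, log_one])

@[simp] lemma valFun_apply (y : Lˣ) (w : PrimeOut L T) :
    valFun L T y w = log (w.1.valuation L (y : L)) := rfl

lemma valFun_mul (y z : Lˣ) : valFun L T (y * z) = valFun L T y + valFun L T z := by
  ext w
  rw [Finsupp.add_apply, valFun_apply, valFun_apply, valFun_apply, Units.val_mul, map_mul,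
    log_mul (valuation_ne_zero' L w.1 y) (valuation_ne_zero' L w.1 z)]

lemma valFun_one : valFun L T 1 = 0 := by
  ext w
  rw [valFun_apply, Units.val_one, map_one, log_one]
  rfl

lemma valFun_eq_zero_iff (y : Lˣ) : valFun L T y = 0 ↔ y ∈ TUnits L T := by
  rw [H12.mem_tUnits_iff]
  constructor
  · intro h w hw
    have h1 : log (w.valuation L (y : L)) = 0 := DFunLike.congr_fun h (⟨w, hw⟩ : PrimeOut L T)
    rw [← exp_log (valuation_ne_zero' L w y), h1]
    rfl
  · intro h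
    ext w
    rw [valFun_apply, h w.1 w.2, log_one]
    rfl

lemma valFun_smul (σ : L ≃ₐ[K] L) (y : Lˣ) (w : PrimeOut L T) :
    valFun L T (σ • y) w = valFun L T y (σ⁻¹ • w) := by
  rw [valFun_apply, valFun_apply, primeOut_smul_val]
  have h := valuation_smul K L σ⁻¹ w.1 (σ (y : L))
  show log (w.1.valuation L (σ (y : L))) = _
  rw [← h]
  congr 2
  show σ⁻¹ (σ (y : L)) = (y : L)
  exact σ.symm_apply_apply (y : L)

lemma valFun_surjective (hcl : ClTrivial L T) (f : PrimeOut L T →₀ ℤ) :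
    ∃ y : Lˣ, valFun L T y = f := by
  classical
  obtain ⟨y, hy⟩ := H12.exists_of_valuations L T hcl (f.support.image PrimeOut.val)
    (fun w => if h : w ∉ H12.primesT L T then f ⟨w, h⟩ else 0)
  refine ⟨y, ?_⟩
  ext w
  rw [valFun_apply, hy w.1 w.2]
  by_cases hw : w.1 ∈ f.support.image PrimeOut.val
  · rw [if_pos hw, log_exp, dif_pos w.2]
  · rw [if_neg hw, log_one]
    have : w ∉ f.support := fun h => hw (Finset.mem_image_of_mem _ h)
    rw [Finsupp.notMem_support_iff] at this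
    exact this.symm

/-- The divisors outside `T` as a `Gal(L/K)`-module. -/
abbrev divRep : Rep.{0} ℤ (L ≃ₐ[K] L) := PermObj ℤ (L ≃ₐ[K] L) (PrimeOut L T)

/-- The valuation map as a linear map. -/
def valLin : Additive Lˣ →ₗ[ℤ] (PrimeOut L T →₀ ℤ) where
  toFun y := valFun L T (Additive.toMul y)
  map_add' y z := valFun_mul L T (Additive.toMul y) (Additive.toMul z)
  map_smul' n y := by
    have h : ∀ (n : ℤ) (y : Additive Lˣ),
        valFun L T (Additive.toMul (n • y)) = n • valFun L T (Additive.toMul y) := by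
      intro n y
      let φ : Additive Lˣ →+ (PrimeOut L T →₀ ℤ) :=
        { toFun := fun y => valFun L T (Additive.toMul y)
          map_zero' := valFun_one L T
          map_add' := fun y z => valFun_mul L T (Additive.toMul y) (Additive.toMul z) }
      exact map_zsmul φ n y
    exact h n y

/-- The valuation map `Lˣ → Div^T(L)` as a morphism of `Gal(L/K)`-modules. -/
def valRep : repL K L ⟶ divRep K L T :=
  Rep.ofHom (ρ := (repL K L).ρ) (σ := _root_.Fermat.Agent.S55.CFT.H19.permRep ℤ (L ≃ₐ[K] L) (PrimeOut L T))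
    ⟨valLin L T, fun σ => by
      ext y w
      exact valFun_smul K L T σ (Additive.toMul y) w⟩

lemma valRep_apply (y : Lˣ) : (valRep K L T).hom (Additive.ofMul y) = valFun L T y := rfl

lemma unitsToL_valRep : unitsToL K L T ≫ valRep K L T = 0 := by
  ext e w
  exact DFunLike.congr_fun ((valFun_eq_zero_iff L T _).2 (Additive.toMul e : TUnits L T).2) w

/-- The valuation sequence is short exact. -/
theorem valSeq_shortExact (hcl : ClTrivial L T) :
    (ShortComplex.mk (unitsToL K L T) (valRep K L T) (unitsToL_valRep K L T)).ShortExact := by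
  apply H58.shortExact_of_concrete
  · intro e e' h
    exact congrArg Additive.ofMul (Subtype.ext (congrArg Additive.toMul h))
  · intro f
    obtain ⟨y, hy⟩ := valFun_surjective L T hcl f
    exact ⟨Additive.ofMul y, hy⟩
  · intro y hy
    have h1 : Additive.toMul y ∈ TUnits L T := (valFun_eq_zero_iff L T _).1 hy
    exact ⟨Additive.ofMul (⟨Additive.toMul y, h1⟩ : TUnits L T), rfl⟩

/-! ### The stabilizers are cyclic -/

lemma stabilizer_primeOut (w : PrimeOut L T) :
    MulAction.stabilizer (L ≃ₐ[K] L) w = MulAction.stabilizer (L ≃ₐ[K] L) w.1.asIdeal := by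
  ext g
  rw [MulAction.mem_stabilizer_iff, MulAction.mem_stabilizer_iff]
  constructor
  · intro h
    exact congrArg (fun x : PrimeOut L T => x.1.asIdeal) h
  · intro h
    exact PrimeOut.ext (HeightOneSpectrum.ext h)

/-- The decomposition group of a prime of `L` outside `T` is cyclic when `L/K` is unramified
outside `T`. -/
theorem isCyclic_stabilizer (hunr : UnramifiedOutsideT K L T) (w : PrimeOut L T) :
    IsCyclic (MulAction.stabilizer (L ≃ₐ[K] L) w) := by
  rw [stabilizer_primeOut]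
  set P : Ideal (𝓞 L) := w.1.asIdeal with hP
  have hin : P.inertia (L ≃ₐ[K] L) = ⊥ := by
    apply hunr P w.1.isPrime w.1.ne_bot
    intro q hq hmem
    exact w.2 ((H12.mem_primesT_iff_exists L T w.1).mpr ⟨q, hq, hmem⟩)
  haveI : SMulCommClass (L ≃ₐ[K] L) (𝓞 K) (𝓞 L) := ⟨fun σ a x => by
    apply Subtype.ext
    show σ (algebraMap K L (a : K) * (x : L)) = algebraMap K L (a : K) * σ (x : L)
    rw [map_mul, σ.commutes]⟩
  haveI : P.IsMaximal := w.1.isMaximal
  haveI : (P.under (𝓞 K)).IsMaximal := Ideal.IsMaximal.under (𝓞 K) P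
  haveI : P.LiesOver (P.under (𝓞 K)) := ⟨rfl⟩
  haveI : Finite (𝓞 L ⧸ P) := Ideal.finiteQuotientOfFreeOfNeBot P w.1.ne_bot
  have hker : (Ideal.Quotient.stabilizerHom P (P.under (𝓞 K)) (L ≃ₐ[K] L)).ker = ⊥ := by
    have h1 := Ideal.Quotient.map_ker_stabilizer_subtype (P := P) (p := P.under (𝓞 K))
      (G := L ≃ₐ[K] L)
    rw [hin] at h1
    exact (Subgroup.map_eq_bot_iff_of_injective _ (Subgroup.subtype_injective _)).1 h1
  have hinj : Function.Injective (Ideal.Quotient.stabilizerHom P (P.under (𝓞 K)) (L ≃ₐ[K] L)) :=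
    (MonoidHom.ker_eq_bot_iff _).1 hker
  letI : Field (𝓞 L ⧸ P) := Ideal.Quotient.field P
  letI : Field (𝓞 K ⧸ P.under (𝓞 K)) := Ideal.Quotient.field _
  haveI hc : IsCyclic ((𝓞 L ⧸ P) ≃ₐ[𝓞 K ⧸ P.under (𝓞 K)] (𝓞 L ⧸ P)) := inferInstance
  exact isCyclic_of_injective _ hinj

end Fermat.Agent.S55.CFT.H19

end
end
-- ==== END Fermat.Agent.S55.CFT.H19_ValSeq
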