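-- GENERATED (merged mirror, NOTES/tools/trim/merge3_helper67.py): 3 modules of the originals, bodies verbatim.
import Fermat.Prelude.Def_ModularCurve_ArithmeticGalois
import Fermat.Agent.Zm.S35_L09_002
import Fermat.Agent.Zm.S35_L09_003
import Fermat.Agent.Zm.S35_L09_000

-- ==== BEGIN Fermat.Agent.BAD.H01_P5
section

/-!
# Item 65, package ABS, part P5 (helper1): torsion injectivity in good position

`stmt_TIss_of : Stmt_NodalNS → Stmt_Coords → Stmt_Contain0 → Stmt_KeyNodal → Stmt_TIss`.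

Port of helper17's `RedSetup.ticore` (`RED/H17_Main.lean`) to a semistable Deuring datum with two
components: non-special pair `(A₁, A₂)` on the nodal curve, coordinates on the residue discs of
the points of `A₁ ⊔ A₂`, the divisor `E' = ∑ Y_Q` of the zeros of the coordinates, a function
`u ∈ L((1/n) div f + E')` on the unit sphere of the pair of norms; its reductions are glued at the
nodes, hence a constant pair; `E = div u + (1/n) div f + E' = ∑ X_Q` is in good position, and the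
nodal key lemma applies to `f u ^ n / (f u ^ n)(P∞)`.
-/

set_option autoImplicit false
set_option linter.style.haveILetI false
set_option maxHeartbeats 1000000

noncomputable section

open AlgebraicCurve

attribute [local instance] Classical.propDecidable

namespace Fermat.Agent.BAD.H01

open Fermat.Agent.RED.H17 Fermat.Agent.RED Fermat.Agent.BAD

local notation "L" => riemannRochSpace

section Aux

variable {K F : Type*} [Field K] [Field F] [Algebra K F]

/-- Push-forward of a sum of points. -/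
theorem mapDomain_ptsDiv_apply {β : Type*} (r : Place K F → β) (B : Finset (Place K F))
    (b : β) :
    Finsupp.mapDomain r (ptsDiv B) b = ((B.filter fun P => r P = b).card : ℤ) := by
  unfold ptsDiv
  rw [Finsupp.mapDomain_finsetSum, Finsupp.finsetSum_apply, Finset.card_filter]
  push_cast
  refine Finset.sum_congr rfl fun P _ => ?_
  rw [Finsupp.mapDomain_single, Finsupp.single_apply]

theorem mapDomain_ptsDiv_eq_one {β : Type*} (r : Place K F → β) (B : Finset (Place K F))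
    (b : β) (Y : Place K F) (hY : ∀ P, (P ∈ B ∧ r P = b) ↔ P = Y) :
    Finsupp.mapDomain r (ptsDiv B) b = 1 := by
  rw [mapDomain_ptsDiv_apply, Nat.cast_eq_one, Finset.card_eq_one]
  refine ⟨Y, ?_⟩
  ext P
  rw [Finset.mem_filter, Finset.mem_singleton]
  exact hY P

theorem mapDomain_ptsDiv_eq_zero {β : Type*} (r : Place K F → β) (B : Finset (Place K F))
    (b : β) (h : ∀ P ∈ B, r P ≠ b) :
    Finsupp.mapDomain r (ptsDiv B) b = 0 := by
  rw [mapDomain_ptsDiv_apply, Nat.cast_eq_zero, Finset.card_eq_zero,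
    Finset.filter_eq_empty_iff]
  exact h

variable {k F' : Type*} [Field k] [Field F'] [Algebra k F']

/-- The divisor identity for the divisor of a unit, at a good place. -/
theorem mapDomain_dv (c : PRed K F k F') (hP : HasPrincipalDivisors K F) {u : F}
    (hu : c.IsGU u) {Q : Place k F'} (hQ : Q ∈ c.good) :
    Finsupp.mapDomain c.r (dv hP u) (some Q) = Q.ord (c.rd u) := by
  have h := c.DI ⟨u, hu.1⟩ (by rw [← c.rd_of_mem hu.1]; exact hu.2) (dv hP u)
    (fun P => dv_apply hP u P) Q hQ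
  rwa [← c.rd_of_mem hu.1] at h

/-- A divisor vanishing on the fibre of `b` has push-forward `0` at `b`. -/
theorem mapDomain_eq_zero_of_fibre {α β : Type*} (r : α → β) (D : α →₀ ℤ) (b : β)
    (h : ∀ a, r a = b → D a = 0) : Finsupp.mapDomain r D b = 0 := by
  rw [mapDomain_apply_eq_sum]
  refine Finset.sum_eq_zero fun a _ => ?_
  split_ifs with hab
  · exact h a hab
  · rfl

end Aux


/-- **P5, torsion injectivity in good position**, from the non-special pair, the coordinates,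
the untwisted containment and the nodal key lemma. -/
theorem stmt_TIss_of (hNS : Stmt_NodalNS) (hCo : Stmt_Coords) (hC0 : Stmt_Contain0)
    (hKey : Stmt_KeyNodal) : Stmt_TIss := by
  intro K F k F₁ F₂ _ _ _ _ _ _ _ _ _ _ S H H₁ H₂ g g₁ g₂ c c₁ c₂ hR hR₁ hR₂ hgen n hn f hf₁ hf₂
    hrd₁ hrd₂ hdiv hnode
  have hP := H.principal
  have hn0 : n ≠ 0 := by
    rintro rfl
    exact hn Nat.cast_zero
  have hnZ : (n : ℤ) ≠ 0 := by exact_mod_cast hn0
  have hfGU₁ : S.c₁.IsGU f := ⟨hf₁, by rw [hrd₁]; exact one_ne_zero⟩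
  have hfGU₂ : S.c₂.IsGU f := ⟨hf₂, by rw [hrd₂]; exact one_ne_zero⟩
  -- the non-special pair
  obtain ⟨A₁, A₂, hcard, hdis₁, hdis₂, hNSA⟩ :=
    hNS K F k F₁ F₂ S H₁ H₂ g₁ g₂ c₁ c₂ hR₁ hR₂ ∅ ∅
  rw [Finset.union_empty] at hdis₁ hdis₂
  have hA₁g : ∀ Q ∈ A₁, Q ∈ S.c₁.good := fun Q hQ =>
    S.good₁_of_notMem (Finset.disjoint_left.mp hdis₁ hQ)
  have hA₂g : ∀ Q ∈ A₂, Q ∈ S.c₂.good := fun Q hQ =>
    S.good₂_of_notMem (Finset.disjoint_left.mp hdis₂ hQ)
  -- the place at infinity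
  obtain ⟨Qinf, hQinf⟩ := H₁.exists_notMem (A₁ ∪ S.br₁)
  rw [Finset.mem_union, not_or] at hQinf
  have hQinfg : Qinf ∈ S.c₁.good := S.good₁_of_notMem hQinf.2
  obtain ⟨Pinf, hPinf⟩ := S.c₁.r_surjective hP Qinf hQinfg
  -- the coordinates
  obtain ⟨hco₁, hco₂⟩ :=
    hCo K F k F₁ F₂ S H H₁ H₂ g g₁ g₂ c c₁ c₂ hR hR₁ hR₂ hgen A₁ A₂ hdis₁ hdis₂
  have hs₁ex : ∀ Q, ∃ s : F, Q ∈ A₁ → S.IsCoordA₁ A₁ A₂ s Q := by
    intro Q
    by_cases hQ : Q ∈ A₁
    · obtain ⟨s, hs⟩ := hco₁ Q hQ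
      exact ⟨s, fun _ => hs⟩
    · exact ⟨0, fun h => absurd h hQ⟩
  choose s₁ hs₁ using hs₁ex
  have hs₂ex : ∀ Q, ∃ s : F, Q ∈ A₂ → S.IsCoordA₂ A₁ A₂ s Q := by
    intro Q
    by_cases hQ : Q ∈ A₂
    · obtain ⟨s, hs⟩ := hco₂ Q hQ
      exact ⟨s, fun _ => hs⟩
    · exact ⟨0, fun h => absurd h hQ⟩
  choose s₂ hs₂ using hs₂ex
  have hsC₁ : ∀ Q ∈ A₁, S.c₁.IsCoord (s₁ Q) Q := fun Q hQ => (hs₁ Q hQ).1
  have hsC₂ : ∀ Q ∈ A₂, S.c₂.IsCoord (s₂ Q) Q := fun Q hQ => (hs₂ Q hQ).1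
  -- the zeros `Y` of the coordinates
  have hY₁ex : ∀ Q, ∃ Y : Place K F, Q ∈ A₁ → S.c₁.r Y = some Q ∧ Y.ord (s₁ Q) = 1 ∧
      ∀ P, S.c₁.r P = some Q → P ≠ Y → P.ord (s₁ Q) = 0 := by
    intro Q
    by_cases hQ : Q ∈ A₁
    · obtain ⟨Y, h1, h2, h3⟩ := (hsC₁ Q hQ).exists_zero hP
      exact ⟨Y, fun _ => ⟨h1, h2, h3⟩⟩
    · exact ⟨Pinf, fun h => absurd h hQ⟩
  choose Y₁ hY₁ using hY₁ex
  have hY₂ex : ∀ Q, ∃ Y : Place K F, Q ∈ A₂ → S.c₂.r Y = some Q ∧ Y.ord (s₂ Q) = 1 ∧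
      ∀ P, S.c₂.r P = some Q → P ≠ Y → P.ord (s₂ Q) = 0 := by
    intro Q
    by_cases hQ : Q ∈ A₂
    · obtain ⟨Y, h1, h2, h3⟩ := (hsC₂ Q hQ).exists_zero hP
      exact ⟨Y, fun _ => ⟨h1, h2, h3⟩⟩
    · exact ⟨Pinf, fun h => absurd h hQ⟩
  choose Y₂ hY₂ using hY₂ex
  have hrY₁ : ∀ Q ∈ A₁, S.c₁.r (Y₁ Q) = some Q := fun Q hQ => (hY₁ Q hQ).1
  have hrY₂ : ∀ Q ∈ A₂, S.c₂.r (Y₂ Q) = some Q := fun Q hQ => (hY₂ Q hQ).1
  -- the set `B` of the zeros and the divisor `E'`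
  obtain ⟨B, hBdef⟩ : ∃ B : Finset (Place K F), B = A₁.image Y₁ ∪ A₂.image Y₂ := ⟨_, rfl⟩
  have hBmem : ∀ P, P ∈ B ↔ (∃ Q ∈ A₁, Y₁ Q = P) ∨ ∃ Q ∈ A₂, Y₂ Q = P := by
    intro P
    rw [hBdef, Finset.mem_union, Finset.mem_image, Finset.mem_image]
  have hB₁ : ∀ P Q, S.c₁.r P = some Q → (P ∈ B ↔ Q ∈ A₁ ∧ P = Y₁ Q) := by
    intro P Q hPQ
    rw [hBmem]
    constructor
    · rintro (⟨Q', hQ', rfl⟩ | ⟨Q', hQ', rfl⟩)
      · have := hrY₁ Q' hQ'
        rw [hPQ] at this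
        have e : Q = Q' := Option.some.inj this
        subst e
        exact ⟨hQ', rfl⟩
      · have := S.r₁_none_of_good₂ (hA₂g Q' hQ') (hrY₂ Q' hQ')
        rw [hPQ] at this
        exact absurd this (by simp)
    · rintro ⟨hQ, rfl⟩
      exact Or.inl ⟨Q, hQ, rfl⟩
  have hB₂ : ∀ P Q, S.c₂.r P = some Q → (P ∈ B ↔ Q ∈ A₂ ∧ P = Y₂ Q) := by
    intro P Q hPQ
    rw [hBmem]
    constructor
    · rintro (⟨Q', hQ', rfl⟩ | ⟨Q', hQ', rfl⟩)
      · have := S.r₂_none_of_good₁ (hA₁g Q' hQ') (hrY₁ Q' hQ')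
        rw [hPQ] at this
        exact absurd this (by simp)
      · have := hrY₂ Q' hQ'
        rw [hPQ] at this
        have e : Q = Q' := Option.some.inj this
        subst e
        exact ⟨hQ', rfl⟩
    · rintro ⟨hQ, rfl⟩
      exact Or.inr ⟨Q, hQ, rfl⟩
  have hBnode : ∀ P, S.IsNodeP P → P ∉ B := by
    intro P hPn hPB
    rcases (hBmem P).mp hPB with ⟨Q', hQ', rfl⟩ | ⟨Q', hQ', rfl⟩
    · exact S.not_isNodeP_of_good₁ (hA₁g Q' hQ') (hrY₁ Q' hQ') hPn
    · exact S.not_isNodeP_of_good₂ (hA₂g Q' hQ') (hrY₂ Q' hQ') hPn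
  have hBcard : B.card = A₁.card + A₂.card := by
    rw [hBdef, Finset.card_union_of_disjoint, Finset.card_image_of_injOn,
      Finset.card_image_of_injOn]
    · intro Q hQ Q' hQ' h
      have h1 := hrY₂ Q hQ
      have h1' : S.c₂.r (Y₂ Q) = some Q' := by
        have := hrY₂ Q' hQ'
        rwa [← show Y₂ Q = Y₂ Q' from h] at this
      rw [h1] at h1'
      exact Option.some.inj h1'
    · intro Q hQ Q' hQ' h
      have h1 := hrY₁ Q hQ
      have h1' : S.c₁.r (Y₁ Q) = some Q' := by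
        have := hrY₁ Q' hQ'
        rwa [← show Y₁ Q = Y₁ Q' from h] at this
      rw [h1] at h1'
      exact Option.some.inj h1'
    · rw [Finset.disjoint_left]
      intro P hP₁ hP₂
      obtain ⟨Q, hQ, rfl⟩ := Finset.mem_image.mp hP₁
      obtain ⟨Q', hQ', hQQ'⟩ := Finset.mem_image.mp hP₂
      have h1 := S.r₂_none_of_good₁ (hA₁g Q hQ) (hrY₁ Q hQ)
      have h2 := hrY₂ Q' hQ'
      rw [hQQ', h1] at h2
      exact absurd h2 (by simp)
  obtain ⟨E', hE'def⟩ : ∃ E' : Divisor K F, E' = ptsDiv B := ⟨_, rfl⟩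
  have hE'a : ∀ P, E' P = if P ∈ B then 1 else 0 := fun P => by
    rw [hE'def, ptsDiv_apply]
  have hdegE' : Divisor.degree E' = (A₁.card + A₂.card : ℕ) := by
    rw [hE'def, degree_ptsDiv H.deg_one, hBcard]
  have hrE'₁ : ∀ Q, Finsupp.mapDomain S.c₁.r E' (some Q) = ptsDiv A₁ Q := by
    intro Q
    rw [hE'def, ptsDiv_apply]
    by_cases hQ : Q ∈ A₁
    · rw [if_pos hQ]
      refine mapDomain_ptsDiv_eq_one _ _ _ (Y₁ Q) fun P => ?_
      constructor
      · rintro ⟨hPB, hPQ⟩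
        exact ((hB₁ P Q hPQ).mp hPB).2
      · rintro rfl
        exact ⟨(hB₁ _ Q (hrY₁ Q hQ)).mpr ⟨hQ, rfl⟩, hrY₁ Q hQ⟩
    · rw [if_neg hQ]
      refine mapDomain_ptsDiv_eq_zero _ _ _ fun P hPB hPQ => ?_
      exact absurd ((hB₁ P Q hPQ).mp hPB).1 hQ
  have hrE'₂ : ∀ Q, Finsupp.mapDomain S.c₂.r E' (some Q) = ptsDiv A₂ Q := by
    intro Q
    rw [hE'def, ptsDiv_apply]
    by_cases hQ : Q ∈ A₂
    · rw [if_pos hQ]
      refine mapDomain_ptsDiv_eq_one _ _ _ (Y₂ Q) fun P => ?_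
      constructor
      · rintro ⟨hPB, hPQ⟩
        exact ((hB₂ P Q hPQ).mp hPB).2
      · rintro rfl
        exact ⟨(hB₂ _ Q (hrY₂ Q hQ)).mpr ⟨hQ, rfl⟩, hrY₂ Q hQ⟩
    · rw [if_neg hQ]
      refine mapDomain_ptsDiv_eq_zero _ _ _ fun P hPB hPQ => ?_
      exact absurd ((hB₂ P Q hPQ).mp hPB).1 hQ
  -- the divisor `D₀ = (1/n) div f`
  obtain ⟨D₀, hD₀def⟩ : ∃ D₀ : Divisor K F,
      D₀ = (dv hP f).mapRange (fun m : ℤ => m / (n : ℤ)) (by simp) := ⟨_, rfl⟩
  have hD₀a : ∀ P, (n : ℤ) * D₀ P = P.ord f := by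
    intro P
    rw [hD₀def, Finsupp.mapRange_apply, dv_apply]
    exact Int.mul_ediv_cancel' (hdiv P)
  have hnD₀ : (n : ℤ) • D₀ = dv hP f := by
    ext P
    rw [Finsupp.smul_apply, smul_eq_mul, hD₀a, dv_apply]
  have hdegD₀ : Divisor.degree D₀ = 0 := by
    have h1 : Divisor.degree ((n : ℤ) • D₀) = 0 := by rw [hnD₀, degree_dv]
    rw [map_zsmul, smul_eq_mul] at h1
    exact (mul_eq_zero.mp h1).resolve_left hnZ
  have hD₀node : ∀ P, S.IsNodeP P → D₀ P = 0 := by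
    intro P hPn
    have := hD₀a P
    rw [hnode P hPn] at this
    exact (mul_eq_zero.mp this).resolve_left hnZ
  have hrD₀₁ : ∀ Q, Finsupp.mapDomain S.c₁.r D₀ (some Q) = 0 := by
    intro Q
    by_cases hQ : Q ∈ S.c₁.good
    · have h1 : (n : ℤ) • Finsupp.mapDomain S.c₁.r D₀ (some Q) = 0 := by
        rw [← Finsupp.smul_apply, ← Finsupp.mapDomain_smul, hnD₀, mapDomain_dv S.c₁ hP hfGU₁ hQ,
          hrd₁, Place.ord_one]
      exact (smul_eq_zero.mp h1).resolve_left hnZ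
    · apply mapDomain_eq_zero_of_fibre
      intro P hPQ
      exact hD₀node P ((S.good₁_or_node hPQ).resolve_left hQ)
  have hrD₀₂ : ∀ Q, Finsupp.mapDomain S.c₂.r D₀ (some Q) = 0 := by
    intro Q
    by_cases hQ : Q ∈ S.c₂.good
    · have h1 : (n : ℤ) • Finsupp.mapDomain S.c₂.r D₀ (some Q) = 0 := by
        rw [← Finsupp.smul_apply, ← Finsupp.mapDomain_smul, hnD₀, mapDomain_dv S.c₂ hP hfGU₂ hQ,
          hrd₂, Place.ord_one]
      exact (smul_eq_zero.mp h1).resolve_left hnZ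
    · apply mapDomain_eq_zero_of_fibre
      intro P hPQ
      exact hD₀node P ((S.good₂_or_node hPQ).resolve_left hQ)
  -- `D₀ + E'` is in good position, with push-forwards `A₁`, `A₂`
  have hGP : S.GoodPos (D₀ + E') := by
    intro P hne hPn
    apply hne
    rw [Finsupp.add_apply, hD₀node P hPn, hE'a, if_neg (hBnode P hPn), add_zero]
  have hpush₁ : S.push₁ (D₀ + E') = ptsDiv A₁ := by
    ext Q
    rw [S.push₁_apply, Finsupp.mapDomain_add, Finsupp.add_apply, hrD₀₁, hrE'₁, zero_add]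
  have hpush₂ : S.push₂ (D₀ + E') = ptsDiv A₂ := by
    ext Q
    rw [S.push₂_apply, Finsupp.mapDomain_add, Finsupp.add_apply, hrD₀₂, hrE'₂, zero_add]
  -- the function `u`
  have hex : ∃ u₀ : F, u₀ ∈ L (D₀ + E') ∧ u₀ ≠ 0 := by
    have h1 := (hR (D₀ + E')).1
    rw [map_add, hdegD₀, hdegE'] at h1
    have h2 : L (D₀ + E') ≠ ⊥ := by
      intro hbot
      rw [hbot, finrank_bot] at h1
      push_cast at h1
      omega
    exact (Submodule.ne_bot_iff _).mp h2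
  obtain ⟨u₀, hu₀, hu₀0⟩ := hex
  obtain ⟨a₀, ha₀, hu₁V, hu₂V, hGU⟩ := S.exists_scale₂ hu₀0 (one_ne_zero : (1 : F) ≠ 0)
  obtain ⟨u, hudef⟩ : ∃ u : F, u = algebraMap K F a₀ * u₀ := ⟨_, rfl⟩
  rw [← hudef] at hu₁V hu₂V hGU
  rw [one_mul] at hu₂V hGU
  have huL : u ∈ L (D₀ + E') := by
    rw [hudef, ← Algebra.smul_def]
    exact (L (D₀ + E')).smul_mem a₀ hu₀
  have hu0 : u ≠ 0 := by
    rw [hudef]
    exact mul_ne_zero ((map_ne_zero_iff _ (algebraMap K F).injective).mpr ha₀) hu₀0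
  -- the reductions of `u` are a constant pair
  have hRs : ((S.c₁.rd u, S.c₂.rd u) : F₁ × F₂) ∈ S.Rsub 1 (D₀ + E') :=
    ⟨u, huL, hu₁V, by rw [one_mul]; exact hu₂V, rfl, by rw [one_mul]⟩
  have hLam := hC0 K F k F₁ F₂ S H H₁ H₂ (D₀ + E') hGP hRs
  rw [S.mem_Lam, hpush₁, hpush₂] at hLam
  obtain ⟨hL₁, hL₂, hglue⟩ := hLam
  obtain ⟨cu, hcu₁, hcu₂⟩ := hNSA _ hL₁ _ hL₂ (by
    intro s hs
    obtain ⟨a, ha1, ha2⟩ := hglue s hs
    refine ⟨a, ha1, ?_⟩
    simpa using ha2)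
  simp only at hcu₁ hcu₂
  have hcu0 : cu ≠ 0 := by
    rintro rfl
    rw [map_zero] at hcu₁ hcu₂
    rcases hGU with h | h
    · exact h.2 hcu₁
    · exact h.2 hcu₂
  have huGU₁ : S.c₁.IsGU u := ⟨hu₁V, by
    rw [hcu₁]; exact (map_ne_zero_iff _ (algebraMap k F₁).injective).mpr hcu0⟩
  have huGU₂ : S.c₂.IsGU u := ⟨hu₂V, by
    rw [hcu₂]; exact (map_ne_zero_iff _ (algebraMap k F₂).injective).mpr hcu0⟩
  -- the divisor `E`
  obtain ⟨E, hEdef⟩ : ∃ E : Divisor K F, E = dv hP u + D₀ + E' := ⟨_, rfl⟩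
  have hEa : ∀ P, E P = P.ord u + D₀ P + E' P := fun P => by
    rw [hEdef, Finsupp.add_apply, Finsupp.add_apply, dv_apply]
  have hEnn : ∀ P, 0 ≤ E P := by
    intro P
    have := ord_ge_of_mem_L huL hu0 P
    rw [Finsupp.add_apply] at this
    rw [hEa]
    omega
  have hrE₁ : ∀ Q ∈ S.c₁.good, Finsupp.mapDomain S.c₁.r E (some Q) = ptsDiv A₁ Q := by
    intro Q hQ
    rw [hEdef, Finsupp.mapDomain_add, Finsupp.mapDomain_add, Finsupp.add_apply,
      Finsupp.add_apply, hrD₀₁, hrE'₁, mapDomain_dv S.c₁ hP huGU₁ hQ, hcu₁, ord_algebraMap]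
    ring
  have hrE₂ : ∀ Q ∈ S.c₂.good, Finsupp.mapDomain S.c₂.r E (some Q) = ptsDiv A₂ Q := by
    intro Q hQ
    rw [hEdef, Finsupp.mapDomain_add, Finsupp.mapDomain_add, Finsupp.add_apply,
      Finsupp.add_apply, hrD₀₂, hrE'₂, mapDomain_dv S.c₂ hP huGU₂ hQ, hcu₂, ord_algebraMap]
    ring
  have hEnode : ∀ P, S.IsNodeP P → E P = 0 := by
    intro P hPn
    obtain ⟨s, hs, hPs⟩ := hPn
    have hEu : ∀ P', S.c₁.r P' = some s.1 → E P' = P'.ord u := by
      intro P' hP's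
      rw [hEa, hD₀node P' ⟨s, hs, hP's⟩, hE'a, if_neg (hBnode P' ⟨s, hs, hP's⟩)]
      ring
    rw [hEu P hPs]
    refine S.ord_eq_zero_of_node hP hs huGU₁ huGU₂ ⟨1, by rw [map_one, one_mul]⟩ ?_ ?_ ?_ hPs
    · intro P' hP's
      rw [← hEu P' hP's]
      exact hEnn P'
    · rw [hcu₁, ord_algebraMap]
    · rw [hcu₂, ord_algebraMap]
  -- the points `X`
  have hX₁ex : ∀ Q, ∃ X, Q ∈ A₁ → S.c₁.r X = some Q ∧ E X = 1 ∧
      ∀ P, S.c₁.r P = some Q → P ≠ X → E P = 0 := by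
    intro Q
    by_cases hQ : Q ∈ A₁
    · obtain ⟨X, h1, h2, h3⟩ := fibre_one S.c₁.r hEnn (b := some Q) (by
        rw [hrE₁ Q (hA₁g Q hQ), ptsDiv_apply, if_pos hQ])
      exact ⟨X, fun _ => ⟨h1, h2, h3⟩⟩
    · exact ⟨Pinf, fun h => absurd h hQ⟩
  choose X₁ hX₁ using hX₁ex
  have hX₂ex : ∀ Q, ∃ X, Q ∈ A₂ → S.c₂.r X = some Q ∧ E X = 1 ∧
      ∀ P, S.c₂.r P = some Q → P ≠ X → E P = 0 := by
    intro Q
    by_cases hQ : Q ∈ A₂
    · obtain ⟨X, h1, h2, h3⟩ := fibre_one S.c₂.r hEnn (b := some Q) (by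
        rw [hrE₂ Q (hA₂g Q hQ), ptsDiv_apply, if_pos hQ])
      exact ⟨X, fun _ => ⟨h1, h2, h3⟩⟩
    · exact ⟨Pinf, fun h => absurd h hQ⟩
  choose X₂ hX₂ using hX₂ex
  -- outside the discs `E` and `E'` vanish
  have hout : ∀ P, (∀ Q ∈ A₁, S.c₁.r P ≠ some Q) → (∀ Q ∈ A₂, S.c₂.r P ≠ some Q) →
      E P = 0 ∧ E' P = 0 := by
    intro P h₁ h₂
    have hPB : P ∉ B := by
      intro hPB
      rcases (hBmem P).mp hPB with ⟨Q', hQ', rfl⟩ | ⟨Q', hQ', rfl⟩
      · exact h₁ Q' hQ' (hrY₁ Q' hQ')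
      · exact h₂ Q' hQ' (hrY₂ Q' hQ')
    refine ⟨?_, by rw [hE'a, if_neg hPB]⟩
    rcases S.r_cases P with ⟨Q, hQ, hPQ, -⟩ | ⟨Q, hQ, hPQ, -⟩ | ⟨s, hs, hPs, -⟩
    · have hQA : Q ∉ A₁ := fun hQA => h₁ Q hQA hPQ
      exact fibre_zero S.c₁.r hEnn (b := some Q) (by
        rw [hrE₁ Q hQ, ptsDiv_apply, if_neg hQA]) hPQ
    · have hQA : Q ∉ A₂ := fun hQA => h₂ Q hQA hPQ
      exact fibre_zero S.c₂.r hEnn (b := some Q) (by
        rw [hrE₂ Q hQ, ptsDiv_apply, if_neg hQA]) hPQ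
    · exact hEnode P ⟨s, hs, hPs⟩
  -- the values `a`
  have ha₁ex : ∀ Q, ∃ a : K, Q ∈ A₁ → algebraMap K F a ∈ S.c₁.V ∧
      S.c₁.rd (algebraMap K F a) = 0 ∧ VanAt (X₁ Q) (s₁ Q - algebraMap K F a) := by
    intro Q
    by_cases hQ : Q ∈ A₁
    · obtain ⟨a, h1, h2, h3⟩ := (hsC₁ Q hQ).exists_value hP H.deg_one (hX₁ Q hQ).1
      exact ⟨a, fun _ => ⟨h1, h2, h3⟩⟩
    · exact ⟨0, fun h => absurd h hQ⟩
  choose a₁ ha₁ using ha₁ex
  have ha₂ex : ∀ Q, ∃ a : K, Q ∈ A₂ → algebraMap K F a ∈ S.c₂.V ∧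
      S.c₂.rd (algebraMap K F a) = 0 ∧ VanAt (X₂ Q) (s₂ Q - algebraMap K F a) := by
    intro Q
    by_cases hQ : Q ∈ A₂
    · obtain ⟨a, h1, h2, h3⟩ := (hsC₂ Q hQ).exists_value hP H.deg_one (hX₂ Q hQ).1
      exact ⟨a, fun _ => ⟨h1, h2, h3⟩⟩
    · exact ⟨0, fun h => absurd h hQ⟩
  choose a₂ ha₂ using ha₂ex
  -- the function `f₀ = f u ^ n`
  obtain ⟨f₀, hf₀def⟩ : ∃ f₀ : F, f₀ = f * u ^ n := ⟨_, rfl⟩
  have hf₀GU₁ : S.c₁.IsGU f₀ := by rw [hf₀def]; exact hfGU₁.mul (huGU₁.pow n)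
  have hf₀GU₂ : S.c₂.IsGU f₀ := by rw [hf₀def]; exact hfGU₂.mul (huGU₂.pow n)
  have hf₀rd₁ : S.c₁.rd f₀ = algebraMap k F₁ (cu ^ n) := by
    rw [hf₀def, S.c₁.rd_mul hf₁ (huGU₁.pow n).1, hrd₁, one_mul, S.c₁.rd_pow huGU₁.1, hcu₁,
      map_pow]
  have hf₀rd₂ : S.c₂.rd f₀ = algebraMap k F₂ (cu ^ n) := by
    rw [hf₀def, S.c₂.rd_mul hf₂ (huGU₂.pow n).1, hrd₂, one_mul, S.c₂.rd_pow huGU₂.1, hcu₂,
      map_pow]
  have hf₀ord : ∀ P, P.ord f₀ = n * (E P - E' P) := by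
    intro P
    rw [hf₀def, P.ord_mul hfGU₁.ne_zero (pow_ne_zero _ hu0), ord_pow, ← hD₀a, hEa]
    ring
  have hPinfout : (∀ Q ∈ A₁, S.c₁.r Pinf ≠ some Q) ∧ ∀ Q ∈ A₂, S.c₂.r Pinf ≠ some Q := by
    constructor
    · intro Q hQ h
      rw [hPinf] at h
      exact hQinf.1 (Option.some.inj h ▸ hQ)
    · intro Q hQ h
      rw [S.r₂_none_of_good₁ hQinfg hPinf] at h
      exact absurd h (by simp)
  have hQinfout : ∀ P, S.c₁.r P = some Qinf →
      (∀ Q ∈ A₁, S.c₁.r P ≠ some Q) ∧ ∀ Q ∈ A₂, S.c₂.r P ≠ some Q := by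
    intro P hPQ
    constructor
    · intro Q hQ h
      rw [hPQ] at h
      exact hQinf.1 (Option.some.inj h ▸ hQ)
    · intro Q hQ h
      rw [S.r₂_none_of_good₁ hQinfg hPQ] at h
      exact absurd h (by simp)
  have hf₀ord0 : ∀ P, (∀ Q ∈ A₁, S.c₁.r P ≠ some Q) → (∀ Q ∈ A₂, S.c₂.r P ≠ some Q) →
      P.ord f₀ = 0 := by
    intro P h₁ h₂
    obtain ⟨e1, e2⟩ := hout P h₁ h₂
    rw [hf₀ord, e1, e2]
    simp
  -- the value of `f₀` at infinity
  obtain ⟨e₀, he₀⟩ := exists_value Pinf (H.deg_one Pinf)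
    (regAt_of_ord_nonneg (le_of_eq (hf₀ord0 Pinf hPinfout.1 hPinfout.2).symm))
  obtain ⟨he₀V, he₀rd⟩ := S.c₁.const_of_vanAt_of_rd_const hP hf₀GU₁.1 hQinfg
    (fun P hPQ => le_of_eq (hf₀ord0 P (hQinfout P hPQ).1 (hQinfout P hPQ).2).symm)
    hPinf he₀ hf₀rd₁
  have he₀GU₁ : S.c₁.IsGU (algebraMap K F e₀) := ⟨he₀V, by rw [he₀rd]; exact hf₀GU₁.2⟩
  have he₀GU₂ : S.c₂.IsGU (algebraMap K F e₀) := S.isGU₂_const he₀GU₁
  have he₀rd₂ : S.c₂.rd (algebraMap K F e₀) = S.c₂.rd f₀ := by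
    rw [hf₀rd₂]
    exact (S.rd₂_const he₀V (by rw [he₀rd, hf₀rd₁])).2
  have he₀0 : e₀ ≠ 0 := by
    rintro rfl
    rw [map_zero] at he₀GU₁
    exact he₀GU₁.ne_zero rfl
  obtain ⟨f₁, hf₁def⟩ : ∃ f₁ : F, f₁ = f₀ / algebraMap K F e₀ := ⟨_, rfl⟩
  have hf₁GU₁ : S.c₁.IsGU f₁ := by rw [hf₁def]; exact hf₀GU₁.div he₀GU₁
  have hf₁GU₂ : S.c₂.IsGU f₁ := by rw [hf₁def]; exact hf₀GU₂.div he₀GU₂
  have hf₁rd₁ : S.c₁.rd f₁ = 1 := by
    rw [hf₁def, hf₀GU₁.rd_div he₀GU₁, he₀rd, div_self hf₀GU₁.2]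
  have hf₁rd₂ : S.c₂.rd f₁ = 1 := by
    rw [hf₁def, hf₀GU₂.rd_div he₀GU₂, he₀rd₂, div_self hf₀GU₂.2]
  have hf₁ord : ∀ P, P.ord f₁ = n * (E P - E' P) := by
    intro P
    rw [hf₁def, ord_div P hf₀GU₁.ne_zero he₀GU₁.ne_zero, ord_algebraMap, sub_zero, hf₀ord]
  have hf₁inf : VanAt Pinf (f₁ - 1) := by
    have : f₁ - 1 = (f₀ - algebraMap K F e₀) * algebraMap K F e₀⁻¹ := by
      rw [hf₁def, map_inv₀]
      field_simp [he₀GU₁.ne_zero]
    rw [this]
    exact he₀.mul_regAt (regAt_algebraMap Pinf _)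
  -- the key lemma
  have hkey : f₁ = 1 := by
    refine hKey K F k F₁ F₂ S H H₁ H₂ A₁ A₂ hdis₁ hdis₂ hNSA s₁ s₂ hs₁ hs₂ n hn f₁
      hf₁GU₁.1 hf₁GU₂.1 hf₁rd₁ hf₁rd₂ Pinf Qinf hQinfg hQinf.1 hPinf hf₁inf a₁ a₂
      (fun Q hQ => ⟨(ha₁ Q hQ).1, (ha₁ Q hQ).2.1⟩)
      (fun Q hQ => ⟨(ha₂ Q hQ).1, (ha₂ Q hQ).2.1⟩) ?_ ?_ ?_
    · intro P h₁ h₂
      obtain ⟨e1, e2⟩ := hout P h₁ h₂
      rw [hf₁ord, e1, e2]
      simp
    · intro Q hQ P hPQ
      have h1 : P.ord (s₁ Q - algebraMap K F (a₁ Q)) = if P = X₁ Q then 1 else 0 :=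
        (hsC₁ Q hQ).ord_sub_eq hP (ha₁ Q hQ).1 (ha₁ Q hQ).2.1 (hX₁ Q hQ).1 (ha₁ Q hQ).2.2 hPQ
      have h2 : E P = if P = X₁ Q then 1 else 0 := by
        split_ifs with hPX
        · rw [hPX]; exact (hX₁ Q hQ).2.1
        · exact (hX₁ Q hQ).2.2 P hPQ hPX
      have h3 : P.ord (s₁ Q) = if P = Y₁ Q then 1 else 0 := by
        split_ifs with hPY
        · rw [hPY]; exact (hY₁ Q hQ).2.1
        · exact (hY₁ Q hQ).2.2 P hPQ hPY
      have h4 : E' P = if P = Y₁ Q then 1 else 0 := by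
        rw [hE'a]
        by_cases hPY : P = Y₁ Q
        · rw [if_pos hPY, if_pos ((hB₁ P Q hPQ).mpr ⟨hQ, hPY⟩)]
        · rw [if_neg hPY, if_neg fun hPB => hPY ((hB₁ P Q hPQ).mp hPB).2]
      rw [hf₁ord, h1, h2, h3, h4]
    · intro Q hQ P hPQ
      have h1 : P.ord (s₂ Q - algebraMap K F (a₂ Q)) = if P = X₂ Q then 1 else 0 :=
        (hsC₂ Q hQ).ord_sub_eq hP (ha₂ Q hQ).1 (ha₂ Q hQ).2.1 (hX₂ Q hQ).1 (ha₂ Q hQ).2.2 hPQ
      have h2 : E P = if P = X₂ Q then 1 else 0 := by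
        split_ifs with hPX
        · rw [hPX]; exact (hX₂ Q hQ).2.1
        · exact (hX₂ Q hQ).2.2 P hPQ hPX
      have h3 : P.ord (s₂ Q) = if P = Y₂ Q then 1 else 0 := by
        split_ifs with hPY
        · rw [hPY]; exact (hY₂ Q hQ).2.1
        · exact (hY₂ Q hQ).2.2 P hPQ hPY
      have h4 : E' P = if P = Y₂ Q then 1 else 0 := by
        rw [hE'a]
        by_cases hPY : P = Y₂ Q
        · rw [if_pos hPY, if_pos ((hB₂ P Q hPQ).mpr ⟨hQ, hPY⟩)]
        · rw [if_neg hPY, if_neg fun hPB => hPY ((hB₂ P Q hPQ).mp hPB).2]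
      rw [hf₁ord, h1, h2, h3, h4]
  -- conclusion
  obtain ⟨t₀, ht₀⟩ := IsAlgClosed.exists_pow_nat_eq e₀ (Nat.pos_of_ne_zero hn0)
  refine ⟨algebraMap K F t₀ * u⁻¹, ?_⟩
  have h1 : f₀ = algebraMap K F e₀ := by
    have := hkey
    rw [hf₁def, div_eq_one_iff_eq he₀GU₁.ne_zero] at this
    exact this
  have hum : u ^ n ≠ 0 := pow_ne_zero _ hu0
  rw [mul_pow, ← map_pow, ht₀, ← h1, hf₀def, inv_pow, mul_assoc, mul_inv_cancel₀ hum, mul_one]

end Fermat.Agent.BAD.H01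

end
end
-- ==== END Fermat.Agent.BAD.H01_P5

-- ==== BEGIN Fermat.Agent.BAD.H79_Basic
section

/-!
# Item 65, package CONS-ss (helper79): MAX, REG, VAL from total conservation

For `f ∈ R_z` (integral for both valuations, no pole on the fibre of `z`):
* `InR.const_mem` (MAX): the values of `f` on the fibre are integral;
* `InR.regAt₁`, `InR.regAt₂` (REG): the reductions of `f` are regular at `z`, `β z`;
* `InR.val_cases` (VAL): the reduction of the value of `f` at a place of the fibre is the value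
  of one of the two reductions.
-/

set_option autoImplicit false
set_option linter.style.haveILetI false

noncomputable section

open AlgebraicCurve

attribute [local instance] Classical.propDecidable

namespace Fermat.Agent.BAD.H79

open Fermat.Agent.RED.H17 Fermat.Agent.RED Fermat.Agent.BAD

namespace TotData

variable {K L k L₁ L₂ : Type*} [Field K] [Field L] [Algebra K L] [Field k] [Field L₁]
  [Algebra k L₁] [Field L₂] [Algebra k L₂] (T : TotData K L k L₁ L₂)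

/-! ### Constants -/

theorem const_mem₂ {c : K} (h : algebraMap K L c ∈ T.b₁.V) : algebraMap K L c ∈ T.b₂.V :=
  (T.const_mem c).mp h

theorem const_rd {c : K} (h : algebraMap K L c ∈ T.b₁.V) :
    ∃ a : k, T.p₁.rd (algebraMap K L c) = algebraMap k L₁ a ∧
      T.p₂.rd (algebraMap K L c) = algebraMap k L₂ a := by
  obtain ⟨a, ha⟩ := T.b₁.red_const c h
  have h₂ := (T.const_mem c).mp h
  refine ⟨a, ?_, ?_⟩
  · rw [T.p₁.rd_of_mem h]; exact ha
  · rw [T.p₂.rd_of_mem h₂]; exact T.const_red c h h₂ a ha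

theorem exists_lift (a : k) :
    ∃ c : K, algebraMap K L c ∈ T.b₁.V ∧ algebraMap K L c ∈ T.b₂.V ∧
      T.p₁.rd (algebraMap K L c) = algebraMap k L₁ a ∧
      T.p₂.rd (algebraMap K L c) = algebraMap k L₂ a := by
  obtain ⟨c, h, hc⟩ := T.b₁.const_surj a
  have h₂ := (T.const_mem c).mp h
  refine ⟨c, h, h₂, ?_, ?_⟩
  · rw [T.p₁.rd_of_mem h]; exact hc
  · rw [T.p₂.rd_of_mem h₂]; exact T.const_red c h h₂ a hc

/-- A constant of the maximal ideal (for the first valuation) is in the maximal ideal for the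
second. -/
theorem const_rd₂_eq_zero {c : K} (h : algebraMap K L c ∈ T.b₁.V)
    (h0 : T.p₁.rd (algebraMap K L c) = 0) : T.p₂.rd (algebraMap K L c) = 0 := by
  obtain ⟨a, ha₁, ha₂⟩ := T.const_rd h
  rw [ha₁] at h0
  have : a = 0 := by
    have h1 : algebraMap k L₁ a = algebraMap k L₁ 0 := by rw [h0, map_zero]
    exact (algebraMap k L₁).injective h1
  rw [ha₂, this, map_zero]

theorem const_rd₁_eq_zero {c : K} (h : algebraMap K L c ∈ T.b₁.V)
    (h0 : T.p₂.rd (algebraMap K L c) = 0) : T.p₁.rd (algebraMap K L c) = 0 := by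
  obtain ⟨a, ha₁, ha₂⟩ := T.const_rd h
  rw [ha₂] at h0
  have : a = 0 := by
    have h1 : algebraMap k L₂ a = algebraMap k L₂ 0 := by rw [h0, map_zero]
    exact (algebraMap k L₂).injective h1
  rw [ha₁, this, map_zero]

/-! ### Total conservation as a sum -/

theorem tot_fsum (hP : HasPrincipalDivisors K L) {u : L} (h₁ : T.p₁.IsGU u) {c : K}
    (h₂ : T.p₂.IsGU (algebraMap K L c * u)) (z : Place k L₁) :
    fsum {P | T.ρ P = z} (dv hP u) =
      z.ord (T.p₁.rd u) + (T.β z).ord (T.p₂.rd (algebraMap K L c * u)) := by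
  have hm₁ : u ∈ T.b₁.V := h₁.1
  have hm₂ : algebraMap K L c * u ∈ T.b₂.V := h₂.1
  have e₁ : T.p₁.rd u = T.b₁.red ⟨u, hm₁⟩ := T.p₁.rd_of_mem hm₁
  have e₂ : T.p₂.rd (algebraMap K L c * u) = T.b₂.red ⟨_, hm₂⟩ := T.p₂.rd_of_mem hm₂
  have h := T.tot ⟨u, hm₁⟩ ⟨algebraMap K L c * u, hm₂⟩
    (by rw [← e₁]; exact h₁.2) (by rw [← e₂]; exact h₂.2)
    ⟨c, rfl⟩ (dv hP u) (fun P => dv_apply hP u P) z
  rw [mapDomain_eq_fsum] at h
  rw [h, e₁, e₂]

theorem tot_bal (hP : HasPrincipalDivisors K L) {u : L} (h₁ : T.p₁.IsGU u)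
    (h₂ : T.p₂.IsGU u) (z : Place k L₁) :
    fsum {P | T.ρ P = z} (dv hP u) = z.ord (T.p₁.rd u) + (T.β z).ord (T.p₂.rd u) := by
  have h2' : T.p₂.IsGU (algebraMap K L 1 * u) := by rwa [map_one, one_mul]
  have := T.tot_fsum hP h₁ h2' z
  rwa [map_one, one_mul] at this

/-! ### The ring `R_z` -/

variable {T}

theorem InR.mem₁ {z : Place k L₁} {f : L} (h : T.InR z f) : f ∈ T.p₁.V := h.1

theorem InR.mem₂ {z : Place k L₁} {f : L} (h : T.InR z f) : f ∈ T.p₂.V := h.2.1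

theorem InR.reg {z : Place k L₁} {f : L} (h : T.InR z f) {P : Place K L} (hP : T.ρ P = z) :
    RegAt P f := h.2.2 P hP

theorem InR.add {z : Place k L₁} {f g : L} (hf : T.InR z f) (hg : T.InR z g) :
    T.InR z (f + g) :=
  ⟨T.b₁.V.add_mem _ _ hf.1 hg.1, T.b₂.V.add_mem _ _ hf.2.1 hg.2.1,
    fun P hP => (hf.2.2 P hP).add (hg.2.2 P hP)⟩

theorem InR.sub {z : Place k L₁} {f g : L} (hf : T.InR z f) (hg : T.InR z g) :
    T.InR z (f - g) :=
  ⟨T.b₁.V.sub_mem hf.1 hg.1, T.b₂.V.sub_mem hf.2.1 hg.2.1,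
    fun P hP => (hf.2.2 P hP).sub (hg.2.2 P hP)⟩

theorem InR.mul {z : Place k L₁} {f g : L} (hf : T.InR z f) (hg : T.InR z g) :
    T.InR z (f * g) :=
  ⟨T.b₁.V.mul_mem _ _ hf.1 hg.1, T.b₂.V.mul_mem _ _ hf.2.1 hg.2.1,
    fun P hP => (hf.2.2 P hP).mul (hg.2.2 P hP)⟩

theorem InR.pow {z : Place k L₁} {f : L} (hf : T.InR z f) (n : ℕ) : T.InR z (f ^ n) :=
  ⟨T.b₁.V.pow_mem hf.1 n, T.b₂.V.pow_mem hf.2.1 n, fun P hP => (hf.2.2 P hP).pow n⟩

variable (T) in
theorem inR_const (z : Place k L₁) {c : K} (h : algebraMap K L c ∈ T.b₁.V) :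
    T.InR z (algebraMap K L c) :=
  ⟨h, T.const_mem₂ h, fun P _ => regAt_algebraMap P c⟩

variable (T) in
theorem inR_one (z : Place k L₁) : T.InR z (1 : L) :=
  ⟨T.b₁.V.one_mem, T.b₂.V.one_mem, fun P _ => regAt_one P⟩

theorem InR.ord_nonneg {z : Place k L₁} {f : L} (h : T.InR z f) {P : Place K L}
    (hP : T.ρ P = z) : 0 ≤ P.ord f := (h.2.2 P hP).ord_nonneg

/-- **MAX**: the values of `f ∈ R_z` on the fibre of `z` are integral. -/
theorem InR.const_mem (hP : HasPrincipalDivisors K L) {z : Place k L₁} {f : L}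
    (hf : T.InR z f) {P : Place K L} (hPz : T.ρ P = z) {a : K}
    (ha : VanAt P (f - algebraMap K L a)) : algebraMap K L a ∈ T.b₁.V := by
  by_contra hne
  obtain ⟨h1, h2⟩ := T.p₁.inv_const_of_not_mem hne
  have h2' : T.p₂.rd (algebraMap K L a⁻¹) = 0 := T.const_rd₂_eq_zero h1 h2
  have h1' : algebraMap K L a⁻¹ ∈ T.p₂.V := T.const_mem₂ h1
  have ha0 : a ≠ 0 := by
    rintro rfl
    rw [map_zero] at hne
    exact hne T.b₁.V.zero_mem
  set g : L := algebraMap K L a⁻¹ * f - 1 with hg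
  have hg1 : algebraMap K L a⁻¹ * f ∈ T.p₁.V := T.p₁.V.mul_mem _ _ h1 hf.1
  have hg2 : algebraMap K L a⁻¹ * f ∈ T.p₂.V := T.p₂.V.mul_mem _ _ h1' hf.2.1
  have hr1 : T.p₁.rd g = -1 := by
    rw [hg, T.p₁.rd_sub hg1 T.p₁.V.one_mem, T.p₁.rd_mul h1 hf.1, h2, zero_mul, T.p₁.rd_one,
      zero_sub]
  have hr2 : T.p₂.rd g = -1 := by
    rw [hg, T.p₂.rd_sub hg2 T.p₂.V.one_mem, T.p₂.rd_mul h1' hf.2.1, h2', zero_mul, T.p₂.rd_one,
      zero_sub]
  have hGU1 : T.p₁.IsGU g :=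
    ⟨T.p₁.V.sub_mem hg1 T.p₁.V.one_mem, by rw [hr1]; exact neg_ne_zero.mpr one_ne_zero⟩
  have hGU2 : T.p₂.IsGU g :=
    ⟨T.p₂.V.sub_mem hg2 T.p₂.V.one_mem, by rw [hr2]; exact neg_ne_zero.mpr one_ne_zero⟩
  have htot := T.tot_bal hP hGU1 hGU2 z
  have ho1 : z.ord (T.p₁.rd g) = 0 := by
    rw [hr1, show (-1 : L₁) = algebraMap k L₁ (-1) by rw [map_neg, map_one]]
    exact ord_algebraMap z _
  have ho2 : (T.β z).ord (T.p₂.rd g) = 0 := by
    rw [hr2, show (-1 : L₂) = algebraMap k L₂ (-1) by rw [map_neg, map_one]]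
    exact ord_algebraMap _ _
  rw [ho1, ho2, add_zero] at htot
  have hreg : ∀ P' ∈ {P | T.ρ P = z}, 0 ≤ dv hP g P' := by
    intro P' hP'
    rw [dv_apply]
    exact (((regAt_algebraMap P' a⁻¹).mul (hf.2.2 P' hP')).sub (regAt_one P')).ord_nonneg
  have h3 := eq_zero_of_fsum_eq_zero hreg (le_of_eq htot) (P := P) hPz
  rw [dv_apply] at h3
  have h4 : g = algebraMap K L a⁻¹ * (f - algebraMap K L a) := by
    rw [hg, mul_sub, ← map_mul, inv_mul_cancel₀ ha0, map_one]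
  have h5 : VanAt P g := by
    rw [h4]
    exact (regAt_algebraMap P a⁻¹).mul_vanAt ha
  have := h5.ord_pos hGU1.ne_zero
  omega

/-- `f - a ∈ R_z` for a value `a` of `f` on the fibre. -/
theorem InR.sub_value (hP : HasPrincipalDivisors K L) {z : Place k L₁} {f : L}
    (hf : T.InR z f) {P : Place K L} (hPz : T.ρ P = z) {a : K}
    (ha : VanAt P (f - algebraMap K L a)) : T.InR z (f - algebraMap K L a) :=
  hf.sub (T.inR_const z (hf.const_mem hP hPz ha))

/-- A subsingleton set of "bad constants". -/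
private theorem finite_bad {F' : Type*} [Field F'] [Algebra k F'] (Q : Place k F') (h : F') :
    ({a : k | h = algebraMap k F' a} ∪ {a : k | VanAt Q (h - algebraMap k F' a)}).Finite := by
  refine Set.Finite.union (Set.Subsingleton.finite ?_) (Set.Subsingleton.finite ?_)
  · intro a ha b hb
    rw [Set.mem_ofPred_eq] at ha hb
    exact (algebraMap k F').injective (ha.symm.trans hb)
  · intro a ha b hb
    exact value_unique Q ha hb

/-- **REG**: the two reductions of `f ∈ R_z` are regular at `z` and at `β z`. -/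
theorem InR.regAt [Infinite k] (hP : HasPrincipalDivisors K L) {z : Place k L₁} {f : L}
    (hf : T.InR z f) : RegAt z (T.p₁.rd f) ∧ RegAt (T.β z) (T.p₂.rd f) := by
  have hfin := (finite_bad z (T.p₁.rd f)).union (finite_bad (T.β z) (T.p₂.rd f))
  obtain ⟨α, hα⟩ := hfin.exists_notMem
  simp only [Set.mem_union, Set.mem_ofPred_eq, not_or] at hα
  obtain ⟨⟨hα1, hα2⟩, hα3, hα4⟩ := hα
  obtain ⟨a, ha1, ha2, hr1, hr2⟩ := T.exists_lift α
  set g : L := f - algebraMap K L a with hg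
  have hgR : T.InR z g := hf.sub (T.inR_const z ha1)
  have hr1' : T.p₁.rd g = T.p₁.rd f - algebraMap k L₁ α := by
    rw [hg, T.p₁.rd_sub hf.1 ha1, hr1]
  have hr2' : T.p₂.rd g = T.p₂.rd f - algebraMap k L₂ α := by
    rw [hg, T.p₂.rd_sub hf.2.1 ha2, hr2]
  have hGU1 : T.p₁.IsGU g := ⟨hgR.1, by rw [hr1']; exact sub_ne_zero.mpr hα1⟩
  have hGU2 : T.p₂.IsGU g := ⟨hgR.2.1, by rw [hr2']; exact sub_ne_zero.mpr hα3⟩
  have htot := T.tot_bal hP hGU1 hGU2 z
  have hnn : 0 ≤ fsum {P | T.ρ P = z} (dv hP g) := by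
    refine fsum_nonneg fun P' hP' => ?_
    rw [dv_apply]
    exact hgR.ord_nonneg hP'
  have ho1 : z.ord (T.p₁.rd g) ≤ 0 := by
    by_contra hcon
    push Not at hcon
    exact hα2 (by rw [← hr1']; exact vanAt_of_ord_pos hcon)
  have ho2 : (T.β z).ord (T.p₂.rd g) ≤ 0 := by
    by_contra hcon
    push Not at hcon
    exact hα4 (by rw [← hr2']; exact vanAt_of_ord_pos hcon)
  have e1 : T.p₁.rd f = T.p₁.rd g + algebraMap k L₁ α := by rw [hr1']; ring
  have e2 : T.p₂.rd f = T.p₂.rd g + algebraMap k L₂ α := by rw [hr2']; ring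
  constructor
  · rw [e1]
    exact (regAt_of_ord_nonneg (by omega)).add (regAt_algebraMap z α)
  · rw [e2]
    exact (regAt_of_ord_nonneg (by omega)).add (regAt_algebraMap _ α)

theorem InR.regAt₁ [Infinite k] (hP : HasPrincipalDivisors K L) {z : Place k L₁} {f : L}
    (hf : T.InR z f) : RegAt z (T.p₁.rd f) := (hf.regAt hP).1

theorem InR.regAt₂ [Infinite k] (hP : HasPrincipalDivisors K L) {z : Place k L₁} {f : L}
    (hf : T.InR z f) : RegAt (T.β z) (T.p₂.rd f) := (hf.regAt hP).2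

/-- If `f ∈ R_z` vanishes at a place of the fibre, one of the two reductions vanishes. -/
theorem InR.vanAt_cases [Infinite k] (hP : HasPrincipalDivisors K L) {z : Place k L₁} {f : L}
    (hf : T.InR z f) {P : Place K L} (hPz : T.ρ P = z) (hfP : VanAt P f) :
    VanAt z (T.p₁.rd f) ∨ VanAt (T.β z) (T.p₂.rd f) := by
  by_cases h1 : T.p₁.rd f = 0
  · left; rw [h1]; exact vanAt_zero z
  by_cases h2 : T.p₂.rd f = 0
  · right; rw [h2]; exact vanAt_zero _
  have hGU1 : T.p₁.IsGU f := ⟨hf.1, h1⟩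
  have hGU2 : T.p₂.IsGU f := ⟨hf.2.1, h2⟩
  have htot := T.tot_bal hP hGU1 hGU2 z
  have hle : dv hP f P ≤ fsum {P | T.ρ P = z} (dv hP f) :=
    le_fsum (fun P' hP' => by rw [dv_apply]; exact hf.ord_nonneg hP') hPz
  rw [dv_apply] at hle
  have hpos := hfP.ord_pos hGU1.ne_zero
  have hn1 := (hf.regAt₁ hP).ord_nonneg
  have hn2 := (hf.regAt₂ hP).ord_nonneg
  by_cases h3 : 0 < z.ord (T.p₁.rd f)
  · exact Or.inl (vanAt_of_ord_pos h3)
  · exact Or.inr (vanAt_of_ord_pos (by omega))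

/-- **VAL**: the reduction of the value of `f ∈ R_z` at a place of the fibre is the value of
one of the two reductions. -/
theorem InR.val_cases [Infinite k] (hP : HasPrincipalDivisors K L) {z : Place k L₁} {f : L}
    (hf : T.InR z f) {P : Place K L} (hPz : T.ρ P = z) {a : K}
    (ha : VanAt P (f - algebraMap K L a)) :
    VanAt z (T.p₁.rd f - T.p₁.rd (algebraMap K L a)) ∨
      VanAt (T.β z) (T.p₂.rd f - T.p₂.rd (algebraMap K L a)) := by
  have hmem := hf.const_mem hP hPz ha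
  have hR := hf.sub_value hP hPz ha
  have := hR.vanAt_cases hP hPz ha
  rwa [T.p₁.rd_sub hf.1 hmem, T.p₂.rd_sub hf.2.1 (T.const_mem₂ hmem)] at this

end TotData

end Fermat.Agent.BAD.H79

end
end
-- ==== END Fermat.Agent.BAD.H79_Basic

-- ==== BEGIN Fermat.Agent.BAD.H82_AL
section
attribute [local instance 10000] SubalgebraClass.toAlgebra
attribute [local instance 10000] HahnSeries.powerSeriesAlgebra

/-!
# Item 65, package V2 (helper82), part 1: the Atkin-Lehner involution `w_r` on `F_N`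

`N = M r`, `r` prime to `M` (here `M = N / r`).  Choose `a, b` with `r a - M b = 1` and put
`W = [[r a, b], [N, r]]` (determinant `r`).  Composition with `W` is a `Q̄`-algebra endomorphism of
the ring `Hol` of holomorphic functions on the upper half plane; on the generators
`j_d = j (d τ)`, `d ∣ N`, of `F_N` it is `j_d ↦ j_{r d}` and `j_{r d} ↦ j_d` (`d ∣ M`).  Hence it
induces a `Q̄`-automorphism `wAL` of `F_N`, an involution, commuting with the arithmetic Galois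
action (the action of `Gal(Q̄/ℚ)` on the coefficients of `q`-expansions).

Main results (namespace `Fermat.Agent.BAD.H82`):
* `wAL N r hr hrN hcop : FN N ≃ₐ[Kbar] FN N`;
* `wAL_jdF_mul`, `wAL_jdF_of_mul` : the values on the generators;
* `wAL_wAL` : `wAL (wAL x) = x`;
* `wAL_arith` : `wAL (σ x) = σ (wAL x)` for the arithmetic Galois action;
* `ringHom_ext_jdF` : ring homomorphisms out of `F_N` agreeing on constants and on the `j_d`
  are equal.
-/

set_option autoImplicit false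

noncomputable section

namespace Fermat.Agent.BAD.H82

open Fermat.Agent.S24 ModularCurve UpperHalfPlane
open scoped MatrixGroups Manifold

/-! ## Extensionality on `F_N` -/

/-- Two ring homomorphisms out of `F_N` which agree on the constants and on the generators
`j (q ^ d)` are equal. -/
theorem ringHom_ext_jdF (N : ℕ) [NeZero N] {E : Type*} [Field E] (f g : FN N →+* E)
    (hc : ∀ c : Kbar, f (algebraMap Kbar (FN N) c) = g (algebraMap Kbar (FN N) c))
    (hj : ∀ (d : ℕ) (_ : NeZero d) (hd : d ∣ N), f (jdF N d hd) = g (jdF N d hd)) :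
    f = g := by
  let M : IntermediateField Kbar (FN N) :=
    { carrier := {x | f x = g x}
      mul_mem' := fun {a b} ha hb => by
        show f (a * b) = g (a * b)
        rw [map_mul, map_mul, show f a = g a from ha, show f b = g b from hb]
      one_mem' := by
        show f 1 = g 1
        rw [map_one, map_one]
      add_mem' := fun {a b} ha hb => by
        show f (a + b) = g (a + b)
        rw [map_add, map_add, show f a = g a from ha, show f b = g b from hb]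
      zero_mem' := by
        show f 0 = g 0
        rw [map_zero, map_zero]
      algebraMap_mem' := fun c => hc c
      inv_mem' := fun a ha => by
        show f a⁻¹ = g a⁻¹
        rw [map_inv₀, map_inv₀, show f a = g a from ha] }
  have hM : M = ⊤ := by
    rw [eq_top_iff, ← adjoin_jdF N, IntermediateField.adjoin_le_iff]
    rintro _ ⟨d, hd0, hd, rfl⟩
    exact hj d hd0 hd
  ext x
  have : x ∈ M := by rw [hM]; exact IntermediateField.mem_top
  exact this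

/-! ## Composition with a real matrix of positive determinant -/

/-- `f ↦ f ∘ g` on holomorphic functions, `g ∈ GL₂(ℝ)⁺`. -/
def compGL (g : GL (Fin 2) ℝ) (hg : 0 < g.det.val) : Hol →+* Hol where
  toFun f := ⟨fun τ => (f : ℍ → ℂ) (g • τ), f.2.comp (mdifferentiable_smul hg)⟩
  map_one' := Subtype.ext (funext fun _ => rfl)
  map_mul' _ _ := Subtype.ext (funext fun _ => rfl)
  map_zero' := Subtype.ext (funext fun _ => rfl)
  map_add' _ _ := Subtype.ext (funext fun _ => rfl)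

theorem compGL_apply (g : GL (Fin 2) ℝ) (hg : 0 < g.det.val) (f : Hol) (τ : ℍ) :
    ((compGL g hg f : Hol) : ℍ → ℂ) τ = (f : ℍ → ℂ) (g • τ) := rfl

theorem compGL_algebraMap (g : GL (Fin 2) ℝ) (hg : 0 < g.det.val) (c : Kbar) :
    compGL g hg (algebraMap Kbar Hol c) = algebraMap Kbar Hol c :=
  Subtype.ext (funext fun _ => rfl)

theorem compGL_injective (g : GL (Fin 2) ℝ) (hg : 0 < g.det.val) :
    Function.Injective (compGL g hg) := by
  intro f₁ f₂ h
  apply Subtype.ext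
  funext τ
  have h1 := congrArg (fun f : Hol => (f : ℍ → ℂ) (g⁻¹ • τ)) h
  simp only [compGL_apply] at h1
  rwa [smul_inv_smul] at h1

/-- Composition with an integer matrix of positive determinant. -/
def compW (W : Matrix (Fin 2) (Fin 2) ℤ) (hW : 0 < W.det) : Hol →+* Hol :=
  compGL (intGL W hW) (intGL_det_pos W hW)

theorem compW_JA (W : Matrix (Fin 2) (Fin 2) ℤ) (hW : 0 < W.det)
    (A : Matrix (Fin 2) (Fin 2) ℤ) (hA : 0 < A.det) :
    compW W hW (JA A) = JA (A * W) := by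
  have hAW : 0 < (A * W).det := by
    rw [Matrix.det_mul]; exact mul_pos hA hW
  apply Subtype.ext
  funext τ
  show (JA A : ℍ → ℂ) (intGL W hW • τ) = (JA (A * W) : ℍ → ℂ) τ
  rw [JA_apply A hA, JA_apply _ hAW, intGL_mul_smul A W hA hW hAW]

/-- Scalar matrices act trivially. -/
theorem intGL_smul_scalar (c : ℤ) (hc : 0 < c) (B : Matrix (Fin 2) (Fin 2) ℤ) (hB : 0 < B.det)
    (hcB : 0 < (c • B).det) (τ : ℍ) : intGL (c • B) hcB • τ = intGL B hB • τ := by
  apply UpperHalfPlane.ext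
  rw [coe_intGL_smul, coe_intGL_smul]
  have hc' : (c : ℂ) ≠ 0 := by exact_mod_cast hc.ne'
  simp only [Matrix.smul_apply, smul_eq_mul, Int.cast_mul]
  rw [show (c : ℂ) * (B 0 0 : ℂ) * (τ : ℂ) + (c : ℂ) * (B 0 1 : ℂ)
      = (c : ℂ) * ((B 0 0 : ℂ) * τ + B 0 1) by ring,
    show (c : ℂ) * (B 1 0 : ℂ) * (τ : ℂ) + (c : ℂ) * (B 1 1 : ℂ)
      = (c : ℂ) * ((B 1 0 : ℂ) * τ + B 1 1) by ring,
    mul_div_mul_left _ _ hc']

theorem JA_smul_scalar (c : ℤ) (hc : 0 < c) (B : Matrix (Fin 2) (Fin 2) ℤ) (hB : 0 < B.det) :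
    JA (c • B) = JA B := by
  have hcB : 0 < (c • B).det := by
    rw [Matrix.det_smul]
    exact mul_pos (pow_pos hc _) hB
  apply Subtype.ext
  funext τ
  rw [JA_apply _ hcB, JA_apply B hB, intGL_smul_scalar c hc B hB hcB]

/-! ## The Atkin-Lehner matrix -/

/-- The Atkin-Lehner matrix `[[r a, b], [M r, r]]`. -/
def matW (r M a b : ℤ) : Matrix (Fin 2) (Fin 2) ℤ := !![r * a, b; M * r, r]

theorem det_matW (r M a b : ℤ) (h : r * a - M * b = 1) : (matW r M a b).det = r := by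
  rw [matW, Matrix.det_fin_two_of]
  linear_combination r * h

/-- `j_d ∘ W = j_{r d}` for `d ∣ M`. -/
theorem JA_diag_mul_matW (r M a b : ℤ) (hr : 0 < r) (h : r * a - M * b = 1) (d e : ℤ)
    (hd : 0 < d) (hde : M = d * e) :
    JA (!![d, 0; 0, 1] * matW r M a b) = JA !![r * d, 0; 0, 1] := by
  let γ : SL(2, ℤ) := ⟨!![a, d * b; e, r], by
    rw [Matrix.det_fin_two_of]; rw [hde] at h; linear_combination h⟩
  have hA : 0 < (!![r * d, 0; 0, 1] : Matrix (Fin 2) (Fin 2) ℤ).det := by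
    rw [Matrix.det_fin_two_of]; simp only [mul_one, mul_zero, sub_zero]; exact mul_pos hr hd
  have key : (!![d, 0; 0, 1] : Matrix (Fin 2) (Fin 2) ℤ) * matW r M a b
      = γ.1 * !![r * d, 0; 0, 1] := by
    show _ = !![a, d * b; e, r] * !![r * d, 0; 0, 1]
    rw [matW, hde]
    ext i j
    fin_cases i <;> fin_cases j <;> simp [Matrix.mul_apply, Fin.sum_univ_two] <;> ring
  rw [key, JA_mul_left γ _ hA]

/-- `j_{r d} ∘ W = j_d` for `d ∣ M`. -/
theorem JA_diag_mul_matW' (r M a b : ℤ) (hr : 0 < r) (h : r * a - M * b = 1) (d e : ℤ)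
    (hd : 0 < d) (hde : M = d * e) :
    JA (!![r * d, 0; 0, 1] * matW r M a b) = JA !![d, 0; 0, 1] := by
  let γ : SL(2, ℤ) := ⟨!![r * a, d * b; e, 1], by
    rw [Matrix.det_fin_two_of]; rw [hde] at h; linear_combination h⟩
  have hA : 0 < (!![d, 0; 0, 1] : Matrix (Fin 2) (Fin 2) ℤ).det := by
    rw [Matrix.det_fin_two_of]; simp only [mul_one, mul_zero, sub_zero]; exact hd
  have hγA : 0 < (γ.1 * !![d, 0; 0, 1] : Matrix (Fin 2) (Fin 2) ℤ).det := by
    rw [Matrix.det_mul, γ.2, one_mul]; exact hA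
  have key : (!![r * d, 0; 0, 1] : Matrix (Fin 2) (Fin 2) ℤ) * matW r M a b
      = r • (γ.1 * !![d, 0; 0, 1]) := by
    show _ = r • (!![r * a, d * b; e, 1] * !![d, 0; 0, 1])
    rw [matW, hde]
    ext i j
    fin_cases i <;> fin_cases j <;> simp [Matrix.mul_apply, Fin.sum_univ_two] <;> ring
  rw [key, JA_smul_scalar r hr _ hγA, JA_mul_left γ _ hA]

/-! ## The fraction field of `Hol` -/

/-- The field of fractions of `Hol`. -/
abbrev LH : Type := FractionRing Hol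

theorem algebraMap_valAT_injective (N : ℕ) :
    Function.Injective ((algebraMap Hol LH).comp (valAT N)) :=
  (IsFractionRing.injective Hol LH).comp (valAT_injective N)

/-- The embedding of the Galois closure into the fraction field of `Hol`. -/
def eL (N : ℕ) : LN N →+* LH := IsFractionRing.lift (algebraMap_valAT_injective N)

theorem eL_algebraMap (N : ℕ) (f : AT N) :
    eL N (algebraMap (AT N) (LN N) f) = algebraMap Hol LH (valAT N f) :=
  IsFractionRing.lift_algebraMap (algebraMap_valAT_injective N) f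

/-- The embedding `F_N → Frac(Hol)`. -/
def eH (N : ℕ) [NeZero N] : FN N →+* LH := (eL N).comp (phi N).toRingHom

theorem eH_injective (N : ℕ) [NeZero N] : Function.Injective (eH N) := (eH N).injective

theorem eH_algebraMap (N : ℕ) [NeZero N] (c : Kbar) :
    eH N (algebraMap Kbar (FN N) c) = algebraMap Hol LH (algebraMap Kbar Hol c) := by
  show eL N (phi N (algebraMap Kbar (FN N) c)) = _
  rw [(phi N).commutes c, IsScalarTower.algebraMap_apply Kbar (AT N) (LN N), eL_algebraMap,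
    valAT_algebraMap]

theorem eH_jdF (N : ℕ) [NeZero N] (d : ℕ) [NeZero d] (hd : d ∣ N) :
    eH N (jdF N d hd) = algebraMap Hol LH (JA !![(d : ℤ), 0; 0, 1]) := by
  show eL N (phi N (jdF N d hd)) = _
  rw [phi_jdF, eL_algebraMap]
  congr 1
  show (((toAT N).symm (toAT N (jdA N d)) : Atil N) : Hol) = _
  rw [AlgEquiv.symm_apply_apply, jdA_coe N d (Nat.pos_of_ne_zero (NeZero.ne d)) hd]

theorem algebraMap_compW_injective (W : Matrix (Fin 2) (Fin 2) ℤ) (hW : 0 < W.det) :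
    Function.Injective ((algebraMap Hol LH).comp (compW W hW)) :=
  (IsFractionRing.injective Hol LH).comp (compGL_injective (intGL W hW) (intGL_det_pos W hW))

/-- Composition with `W` on the fraction field of `Hol`. -/
def cH (W : Matrix (Fin 2) (Fin 2) ℤ) (hW : 0 < W.det) : LH →+* LH :=
  IsFractionRing.lift (algebraMap_compW_injective W hW)

theorem cH_algebraMap (W : Matrix (Fin 2) (Fin 2) ℤ) (hW : 0 < W.det) (f : Hol) :
    cH W hW (algebraMap Hol LH f) = algebraMap Hol LH (compW W hW f) :=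
  IsFractionRing.lift_algebraMap (algebraMap_compW_injective W hW) f

/-! ## The Atkin-Lehner data -/

/-- The hypotheses: `r` is a prime exactly dividing `N`. -/
structure ALHyp (N r : ℕ) : Prop where
  prime : r.Prime
  dvd : r ∣ N
  coprime : Nat.Coprime r (N / r)

namespace ALHyp

variable {N r : ℕ} (h : ALHyp N r)

include h

theorem r_pos : 0 < r := h.prime.pos

theorem N_eq : N = N / r * r := (Nat.div_mul_cancel h.dvd).symm

theorem exists_bezout : ∃ a b : ℤ, (r : ℤ) * a - ((N / r : ℕ) : ℤ) * b = 1 := by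
  have h1 : IsCoprime (r : ℤ) ((N / r : ℕ) : ℤ) := Nat.isCoprime_iff_coprime.mpr h.coprime
  obtain ⟨u, v, huv⟩ := h1
  exact ⟨u, -v, by linear_combination huv⟩

/-- The Bezout coefficient `a`. -/
def a : ℤ := h.exists_bezout.choose

/-- The Bezout coefficient `b`. -/
def b : ℤ := h.exists_bezout.choose_spec.choose

theorem bezout : (r : ℤ) * h.a - ((N / r : ℕ) : ℤ) * h.b = 1 :=
  h.exists_bezout.choose_spec.choose_spec

/-- The Atkin-Lehner matrix. -/
def W : Matrix (Fin 2) (Fin 2) ℤ := matW r ((N / r : ℕ) : ℤ) h.a h.b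

theorem det_W : h.W.det = r := det_matW _ _ _ _ h.bezout

theorem det_W_pos : 0 < h.W.det := by
  rw [h.det_W]; exact_mod_cast h.r_pos

theorem not_dvd_of_dvd {d : ℕ} (hd : d ∣ N / r) : ¬ r ∣ d := fun hrd =>
  h.prime.one_lt.ne' (h.coprime.eq_one_of_dvd (hrd.trans hd))

theorem dvd_of_dvd {d : ℕ} (hd : d ∣ N / r) : d ∣ N := hd.trans (Nat.div_dvd_of_dvd h.dvd)

theorem mul_dvd {d : ℕ} (hd : d ∣ N / r) : r * d ∣ N := by
  obtain ⟨e, he⟩ := hd
  refine ⟨e, ?_⟩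
  rw [h.N_eq, he]
  ring

/-- Every divisor of `N` is `d` or `r d` with `d ∣ N / r`. -/
theorem divisor_cases {d' : ℕ} (hd' : d' ∣ N) :
    d' ∣ N / r ∨ ∃ d, d ∣ N / r ∧ d' = r * d := by
  by_cases hr : r ∣ d'
  · obtain ⟨d, rfl⟩ := hr
    refine Or.inr ⟨d, ?_, rfl⟩
    have h1 : r * d ∣ r * (N / r) := by
      rw [Nat.mul_div_cancel' h.dvd]; exact hd'
    exact (Nat.mul_dvd_mul_iff_left h.r_pos).mp h1
  · left
    have hc : Nat.Coprime d' r := ((Nat.Prime.coprime_iff_not_dvd h.prime).mpr hr).symm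
    have h1 : d' ∣ N / r * r := by rw [← h.N_eq]; exact hd'
    exact hc.dvd_of_dvd_mul_right h1

end ALHyp

section Construction

variable {N r : ℕ} [NeZero N] (h : ALHyp N r)

theorem det_diag_pos (d : ℕ) [NeZero d] :
    0 < (!![(d : ℤ), 0; 0, 1] : Matrix (Fin 2) (Fin 2) ℤ).det := by
  rw [Matrix.det_fin_two_of]
  simp only [mul_one, mul_zero, sub_zero]
  exact_mod_cast Nat.pos_of_ne_zero (NeZero.ne d)

include h in
/-- `W` sends `j_d` to `j_{r d}`, `d ∣ N / r`. -/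
theorem cH_eH_jdF (d : ℕ) [NeZero d] (hd : d ∣ N / r) [NeZero (r * d)] :
    cH h.W h.det_W_pos (eH N (jdF N d (h.dvd_of_dvd hd))) = eH N (jdF N (r * d) (h.mul_dvd hd)) := by
  rw [eH_jdF, eH_jdF, cH_algebraMap, compW_JA _ _ _ (det_diag_pos d)]
  congr 1
  obtain ⟨e, he⟩ := hd
  have h1 := JA_diag_mul_matW (r : ℤ) ((N / r : ℕ) : ℤ) h.a h.b (by exact_mod_cast h.r_pos)
    h.bezout (d : ℤ) (e : ℤ) (by exact_mod_cast Nat.pos_of_ne_zero (NeZero.ne d))
    (by exact_mod_cast he)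
  rw [Nat.cast_mul]
  exact h1

include h in
/-- `W` sends `j_{r d}` to `j_d`, `d ∣ N / r`. -/
theorem cH_eH_jdF' (d : ℕ) [NeZero d] (hd : d ∣ N / r) [NeZero (r * d)] :
    cH h.W h.det_W_pos (eH N (jdF N (r * d) (h.mul_dvd hd))) = eH N (jdF N d (h.dvd_of_dvd hd)) := by
  rw [eH_jdF, eH_jdF, cH_algebraMap, compW_JA _ _ _ (det_diag_pos (r * d))]
  congr 1
  obtain ⟨e, he⟩ := hd
  have h1 := JA_diag_mul_matW' (r : ℤ) ((N / r : ℕ) : ℤ) h.a h.b (by exact_mod_cast h.r_pos)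
    h.bezout (d : ℤ) (e : ℤ) (by exact_mod_cast Nat.pos_of_ne_zero (NeZero.ne d))
    (by exact_mod_cast he)
  rw [Nat.cast_mul]
  exact h1

theorem cH_eH_algebraMap (c : Kbar) :
    cH h.W h.det_W_pos (eH N (algebraMap Kbar (FN N) c)) = eH N (algebraMap Kbar (FN N) c) := by
  rw [eH_algebraMap, cH_algebraMap]
  exact congrArg _ (compGL_algebraMap _ _ c)

include h in
theorem cH_eH_mem (x : FN N) : cH h.W h.det_W_pos (eH N x) ∈ (eH N).range := by
  let M : IntermediateField Kbar (FN N) :=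
    { carrier := {x | cH h.W h.det_W_pos (eH N x) ∈ (eH N).range}
      mul_mem' := fun {a b} ha hb => by
        show cH h.W h.det_W_pos (eH N (a * b)) ∈ (eH N).range
        rw [RingHom.map_mul (eH N), RingHom.map_mul (cH h.W h.det_W_pos)]
        exact mul_mem ha hb
      one_mem' := by
        show cH h.W h.det_W_pos (eH N 1) ∈ (eH N).range
        rw [RingHom.map_one (eH N), RingHom.map_one (cH h.W h.det_W_pos)]
        exact one_mem _
      add_mem' := fun {a b} ha hb => by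
        show cH h.W h.det_W_pos (eH N (a + b)) ∈ (eH N).range
        rw [RingHom.map_add (eH N), RingHom.map_add (cH h.W h.det_W_pos)]
        exact add_mem ha hb
      zero_mem' := by
        show cH h.W h.det_W_pos (eH N 0) ∈ (eH N).range
        rw [RingHom.map_zero (eH N), RingHom.map_zero (cH h.W h.det_W_pos)]
        exact zero_mem _
      algebraMap_mem' := fun c => by
        show cH h.W h.det_W_pos (eH N (algebraMap Kbar (FN N) c)) ∈ (eH N).range
        rw [cH_eH_algebraMap]; exact ⟨_, rfl⟩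
      inv_mem' := fun a ha => by
        show cH h.W h.det_W_pos (eH N a⁻¹) ∈ (eH N).range
        obtain ⟨y, hy⟩ := ha
        refine ⟨y⁻¹, ?_⟩
        have hy' : eH N y = cH h.W h.det_W_pos (eH N a) := hy
        show eH N y⁻¹ = cH h.W h.det_W_pos (eH N a⁻¹)
        rw [map_inv₀ (eH N) y, map_inv₀ (eH N) a, map_inv₀ (cH h.W h.det_W_pos), hy'] }
  have hM : M = ⊤ := by
    rw [eq_top_iff, ← adjoin_jdF N, IntermediateField.adjoin_le_iff]
    rintro _ ⟨d', hd0, hd', rfl⟩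
    show cH h.W h.det_W_pos (eH N (jdF N d' hd')) ∈ (eH N).range
    rcases h.divisor_cases hd' with hd | ⟨d, hd, rfl⟩
    · have : NeZero (r * d') := ⟨Nat.mul_ne_zero h.r_pos.ne' (NeZero.ne d')⟩
      exact ⟨_, (cH_eH_jdF h d' hd).symm⟩
    · have : NeZero d := ⟨fun h0 => (NeZero.ne (r * d)) (by rw [h0, mul_zero])⟩
      exact ⟨_, (cH_eH_jdF' h d hd).symm⟩
  have : x ∈ M := by rw [hM]; exact IntermediateField.mem_top
  exact this

/-- The Atkin-Lehner map as a function. -/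
def wFun (x : FN N) : FN N := (cH_eH_mem h x).choose

theorem eH_wFun (x : FN N) : eH N (wFun h x) = cH h.W h.det_W_pos (eH N x) :=
  (cH_eH_mem h x).choose_spec

/-- The Atkin-Lehner map as a `Q̄`-algebra homomorphism. -/
def wAlgHom : FN N →ₐ[Kbar] FN N where
  toFun := wFun h
  map_one' := eH_injective N (by
    rw [eH_wFun, RingHom.map_one (eH N), RingHom.map_one (cH h.W h.det_W_pos)])
  map_mul' x y := eH_injective N (by
    rw [eH_wFun, RingHom.map_mul (eH N), RingHom.map_mul (cH h.W h.det_W_pos),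
      RingHom.map_mul (eH N), eH_wFun, eH_wFun])
  map_zero' := eH_injective N (by
    rw [eH_wFun, RingHom.map_zero (eH N), RingHom.map_zero (cH h.W h.det_W_pos)])
  map_add' x y := eH_injective N (by
    rw [eH_wFun, RingHom.map_add (eH N), RingHom.map_add (cH h.W h.det_W_pos),
      RingHom.map_add (eH N), eH_wFun, eH_wFun])
  commutes' c := eH_injective N (by rw [eH_wFun, cH_eH_algebraMap])

theorem eH_wAlgHom (x : FN N) : eH N (wAlgHom h x) = cH h.W h.det_W_pos (eH N x) :=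
  eH_wFun h x

/-- `w (j_d) = j_{r d}` for `d ∣ N / r`. -/
theorem wAlgHom_jdF (d : ℕ) [NeZero d] (hd : d ∣ N / r) [NeZero (r * d)] :
    wAlgHom h (jdF N d (h.dvd_of_dvd hd)) = jdF N (r * d) (h.mul_dvd hd) :=
  eH_injective N (by rw [eH_wAlgHom, cH_eH_jdF h d hd])

/-- `w (j_{r d}) = j_d` for `d ∣ N / r`. -/
theorem wAlgHom_jdF' (d : ℕ) [NeZero d] (hd : d ∣ N / r) [NeZero (r * d)] :
    wAlgHom h (jdF N (r * d) (h.mul_dvd hd)) = jdF N d (h.dvd_of_dvd hd) :=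
  eH_injective N (by rw [eH_wAlgHom, cH_eH_jdF' h d hd])

/-- `w` is an involution. -/
theorem wAlgHom_wAlgHom (x : FN N) : wAlgHom h (wAlgHom h x) = x := by
  have key : ((wAlgHom h).comp (wAlgHom h) : FN N →ₐ[Kbar] FN N).toRingHom
      = RingHom.id (FN N) := by
    apply ringHom_ext_jdF N
    · intro c
      show wAlgHom h (wAlgHom h (algebraMap Kbar (FN N) c)) = algebraMap Kbar (FN N) c
      rw [(wAlgHom h).commutes, (wAlgHom h).commutes]
    · intro d' hd0 hd'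
      show wAlgHom h (wAlgHom h (jdF N d' hd')) = jdF N d' hd'
      rcases h.divisor_cases hd' with hd | ⟨d, hd, rfl⟩
      · have : NeZero (r * d') := ⟨Nat.mul_ne_zero h.r_pos.ne' (NeZero.ne d')⟩
        rw [wAlgHom_jdF h d' hd, wAlgHom_jdF' h d' hd]
      · have : NeZero d := ⟨fun h0 => (NeZero.ne (r * d)) (by rw [h0, mul_zero])⟩
        rw [wAlgHom_jdF' h d hd, wAlgHom_jdF h d hd]
  exact congrArg (fun f : FN N →+* FN N => f x) key

/-- **The Atkin-Lehner involution** `w_r` of `F_N`, `r ∥ N`. -/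
def wAL : FN N ≃ₐ[Kbar] FN N :=
  AlgEquiv.ofAlgHom (wAlgHom h) (wAlgHom h)
    (AlgHom.ext fun x => wAlgHom_wAlgHom h x) (AlgHom.ext fun x => wAlgHom_wAlgHom h x)

theorem wAL_apply (x : FN N) : wAL h x = wAlgHom h x := rfl

theorem wAL_symm_apply (x : FN N) : (wAL h).symm x = wAlgHom h x := rfl

theorem wAL_wAL (x : FN N) : wAL h (wAL h x) = x := wAlgHom_wAlgHom h x

theorem wAL_symm : (wAL h).symm = wAL h := AlgEquiv.ext fun _ => rfl

/-- `w (j_d) = j_{r d}` for `d ∣ N / r`. -/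
theorem wAL_jdF (d : ℕ) [NeZero d] (hd : d ∣ N / r) [NeZero (r * d)] :
    wAL h (jdF N d (h.dvd_of_dvd hd)) = jdF N (r * d) (h.mul_dvd hd) :=
  wAlgHom_jdF h d hd

/-- `w (j_{r d}) = j_d` for `d ∣ N / r`. -/
theorem wAL_jdF' (d : ℕ) [NeZero d] (hd : d ∣ N / r) [NeZero (r * d)] :
    wAL h (jdF N (r * d) (h.mul_dvd hd)) = jdF N d (h.dvd_of_dvd hd) :=
  wAlgHom_jdF' h d hd

/-! ## Commutation with the arithmetic Galois action -/

theorem arithmeticRingAut_jdF (σ : Kbar ≃ₐ[ℚ] Kbar) (d : ℕ) [NeZero d] (hd : d ∣ N) :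
    arithmeticRingAut (modularFunctionFieldFull N) σ (jdF N d hd) = jdF N d hd :=
  Subtype.ext (coeffMap_coeffEmb σ _)

/-- The Atkin-Lehner involution commutes with the action of `Gal(Q̄/ℚ)` on coefficients. -/
theorem wAL_arith (σ : Kbar ≃ₐ[ℚ] Kbar) (x : FN N) :
    wAL h (arithmeticRingAut (modularFunctionFieldFull N) σ x)
      = arithmeticRingAut (modularFunctionFieldFull N) σ (wAL h x) := by
  have key : ((wAL h : FN N ≃ₐ[Kbar] FN N) : FN N →+* FN N).comp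
        ((arithmeticRingAut (modularFunctionFieldFull N) σ : FN N ≃+* FN N) : FN N →+* FN N)
      = ((arithmeticRingAut (modularFunctionFieldFull N) σ : FN N ≃+* FN N) : FN N →+* FN N).comp
        ((wAL h : FN N ≃ₐ[Kbar] FN N) : FN N →+* FN N) := by
    apply ringHom_ext_jdF N
    · intro c
      show wAL h (arithmeticRingAut (modularFunctionFieldFull N) σ (algebraMap Kbar (FN N) c))
        = arithmeticRingAut (modularFunctionFieldFull N) σ (wAL h (algebraMap Kbar (FN N) c))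
      rw [arithmeticRingAut_algebraMap, (wAL h).commutes, (wAL h).commutes,
        arithmeticRingAut_algebraMap]
    · intro d' hd0 hd'
      show wAL h (arithmeticRingAut (modularFunctionFieldFull N) σ (jdF N d' hd'))
        = arithmeticRingAut (modularFunctionFieldFull N) σ (wAL h (jdF N d' hd'))
      rw [arithmeticRingAut_jdF]
      rcases h.divisor_cases hd' with hd | ⟨d, hd, rfl⟩
      · have : NeZero (r * d') := ⟨Nat.mul_ne_zero h.r_pos.ne' (NeZero.ne d')⟩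
        rw [wAL_jdF h d' hd, arithmeticRingAut_jdF]
      · have : NeZero d := ⟨fun h0 => (NeZero.ne (r * d)) (by rw [h0, mul_zero])⟩
        rw [wAL_jdF' h d hd, arithmeticRingAut_jdF]
  exact congrArg (fun f : FN N →+* FN N => f x) key

theorem wAL_arithmeticGalois (σ : Kbar ≃ₐ[ℚ] Kbar) (x : FN N) :
    wAL h (arithmeticGalois (modularFunctionFieldFull N) σ • x)
      = arithmeticGalois (modularFunctionFieldFull N) σ • wAL h x :=
  wAL_arith h σ x

end Construction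

end Fermat.Agent.BAD.H82

end
end
-- ==== END Fermat.Agent.BAD.H82_AL
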