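-- GENERATED (merged mirror, NOTES/tools/trim/merge3_helper67.py): 1 modules of the originals, bodies verbatim.
import Fermat.Agent.Zm.S35_L08_001
import Fermat.Agent.Zm.S35_L09_004

-- ==== BEGIN Fermat.Agent.BAD.H60_LamCount
section

/-!
# Item 65, package ABS, leaf 4 (helper60): `Stmt_LamCount`

`dim Λ^λ(G₁, G₂) ≤ l₁(G₁ - ∑ s₁) + l₂(G₂ - ∑ s₂) + δ`: the evaluation map `Λ^λ → k^nodes` has
kernel inside `L₁(G₁ - ∑ s₁) × L₂(G₂ - ∑ s₂)`.
-/

set_option autoImplicit false
set_option linter.style.haveILetI false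

noncomputable section

open AlgebraicCurve

attribute [local instance] Classical.propDecidable

namespace Fermat.Agent.BAD.H60

open Fermat.Agent.RED.H17 Fermat.Agent.RED

local notation "L" => riemannRochSpace

section Lin

variable {k M V₁ V₂ : Type*} [Field k] [AddCommGroup M] [Module k M] [AddCommGroup V₁]
  [Module k V₁] [AddCommGroup V₂] [Module k V₂]

/-- A linear map into a product with components in two submodules, as a map to the product of the
submodules. -/
def toProdSub (ι : M →ₗ[k] V₁ × V₂) (A : Submodule k V₁) (B : Submodule k V₂)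
    (hA : ∀ x, (ι x).1 ∈ A) (hB : ∀ x, (ι x).2 ∈ B) : M →ₗ[k] A × B :=
  LinearMap.prod (((LinearMap.fst k V₁ V₂).comp ι).codRestrict A hA)
    (((LinearMap.snd k V₁ V₂).comp ι).codRestrict B hB)

theorem toProdSub_injective (ι : M →ₗ[k] V₁ × V₂) (hι : Function.Injective ι)
    (A : Submodule k V₁) (B : Submodule k V₂)
    (hA : ∀ x, (ι x).1 ∈ A) (hB : ∀ x, (ι x).2 ∈ B) :
    Function.Injective (toProdSub ι A B hA hB) := by
  intro x y hxy
  apply hι
  have h1 := congrArg (fun z => (z.1 : V₁)) hxy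
  have h2 := congrArg (fun z => (z.2 : V₂)) hxy
  exact Prod.ext h1 h2

theorem finite_of_toProdSub (ι : M →ₗ[k] V₁ × V₂) (hι : Function.Injective ι)
    (A : Submodule k V₁) (B : Submodule k V₂) [Module.Finite k A] [Module.Finite k B]
    (hA : ∀ x, (ι x).1 ∈ A) (hB : ∀ x, (ι x).2 ∈ B) : Module.Finite k M :=
  Module.Finite.of_injective (toProdSub ι A B hA hB) (toProdSub_injective ι hι A B hA hB)

theorem finrank_le_of_toProdSub (ι : M →ₗ[k] V₁ × V₂) (hι : Function.Injective ι)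
    (A : Submodule k V₁) (B : Submodule k V₂) [Module.Finite k A] [Module.Finite k B]
    (hA : ∀ x, (ι x).1 ∈ A) (hB : ∀ x, (ι x).2 ∈ B) :
    Module.finrank k M ≤ Module.finrank k A + Module.finrank k B := by
  have h := LinearMap.finrank_le_finrank_of_injective (toProdSub_injective ι hι A B hA hB)
  rwa [Module.finrank_prod] at h

end Lin

section

variable {K F k F₁ F₂ : Type*} [Field K] [Field F] [Algebra K F] [Field k] [Field F₁]
  [Algebra k F₁] [Field F₂] [Algebra k F₂] (S : SSD K F k F₁ F₂)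

/-- The value of a glued pair at a node. -/
def lamVal (lam : Place k F₁ × Place k F₂ → k) (G₁ : Divisor k F₁) (G₂ : Divisor k F₂)
    (ψ : S.Lam lam G₁ G₂) (s : S.nodes) : k :=
  Classical.choose (((S.mem_Lam).mp ψ.2).2.2 s.1 s.2)

theorem lamVal_spec (lam : Place k F₁ × Place k F₂ → k) (G₁ : Divisor k F₁) (G₂ : Divisor k F₂)
    (ψ : S.Lam lam G₁ G₂) (s : S.nodes) :
    VanAt s.1.1 ((ψ : F₁ × F₂).1 - algebraMap k F₁ (lamVal S lam G₁ G₂ ψ s)) ∧
      VanAt s.1.2 (algebraMap k F₂ (lam s.1) * (ψ : F₁ × F₂).2 -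
        algebraMap k F₂ (lamVal S lam G₁ G₂ ψ s)) :=
  Classical.choose_spec (((S.mem_Lam).mp ψ.2).2.2 s.1 s.2)

/-- The evaluation map `Λ^λ → k^nodes`. -/
def lamEv (lam : Place k F₁ × Place k F₂ → k) (G₁ : Divisor k F₁) (G₂ : Divisor k F₂) :
    S.Lam lam G₁ G₂ →ₗ[k] (S.nodes → k) where
  toFun ψ := lamVal S lam G₁ G₂ ψ
  map_add' ψ ψ' := by
    funext s
    have h := (lamVal_spec S lam G₁ G₂ ψ s).1.add (lamVal_spec S lam G₁ G₂ ψ' s).1
    have h' := (lamVal_spec S lam G₁ G₂ (ψ + ψ') s).1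
    refine value_unique s.1.1 h' ?_
    rw [Pi.add_apply, map_add]
    convert h using 1
    simp only [Submodule.coe_add, Prod.fst_add]
    ring
  map_smul' c ψ := by
    funext s
    have h := (regAt_algebraMap s.1.1 c).mul_vanAt (lamVal_spec S lam G₁ G₂ ψ s).1
    have h' := (lamVal_spec S lam G₁ G₂ (c • ψ) s).1
    refine value_unique s.1.1 h' ?_
    rw [RingHom.id_apply, Pi.smul_apply, smul_eq_mul, map_mul]
    convert h using 1
    rw [Submodule.coe_smul, Prod.smul_fst, Algebra.smul_def]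
    ring

theorem lamEv_apply (lam : Place k F₁ × Place k F₂ → k) (G₁ : Divisor k F₁) (G₂ : Divisor k F₂)
    (ψ : S.Lam lam G₁ G₂) (s : S.nodes) : lamEv S lam G₁ G₂ ψ s = lamVal S lam G₁ G₂ ψ s := rfl

end

section

variable {k F : Type*} [Field k] [Field F] [Algebra k F]

/-- A function of `L(G)` vanishing at the points of `B`, where `G` has coefficient `0`, belongs
to `L(G - B)`. -/
theorem mem_L_sub_ptsDiv {G : Divisor k F} {B : Finset (Place k F)} (hG : ∀ v ∈ B, G v = 0)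
    {φ : F} (hφ : φ ∈ L G) (hv : ∀ v ∈ B, VanAt v φ) : φ ∈ L (G - ptsDiv B) := by
  rw [mem_L_iff_ord]
  intro v
  by_cases hφ0 : φ = 0
  · exact Or.inl hφ0
  right
  by_cases hvB : v ∈ B
  · have h1 := (hv v hvB).ord_pos hφ0
    simp only [Finsupp.sub_apply, ptsDiv_apply, if_pos hvB, hG v hvB]
    omega
  · have h1 := ord_ge_of_mem_L hφ hφ0 v
    simp only [Finsupp.sub_apply, ptsDiv_apply, if_neg hvB]
    omega

end

theorem stmt_LamCount : Stmt_LamCount := by
  intro K F k F₁ F₂ _ _ _ _ _ _ _ _ S H₁ H₂ lam hlam G₁ G₂ hG₁ hG₂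
  haveI := H₁.finite G₁
  haveI := H₂.finite G₂
  haveI := H₁.finite (G₁ - ptsDiv S.br₁)
  haveI := H₂.finite (G₂ - ptsDiv S.br₂)
  -- `Λ` is finite-dimensional
  haveI hfin : Module.Finite k (S.Lam lam G₁ G₂) :=
    finite_of_toProdSub (S.Lam lam G₁ G₂).subtype (Submodule.injective_subtype _) (L G₁) (L G₂)
      (fun x => ((S.mem_Lam).mp x.2).1) (fun x => ((S.mem_Lam).mp x.2).2.1)
  have hrn := (lamEv S lam G₁ G₂).finrank_range_add_finrank_ker
  -- the range
  have hrange : Module.finrank k (LinearMap.range (lamEv S lam G₁ G₂)) ≤ S.nodes.card := by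
    have h := Submodule.finrank_le (LinearMap.range (lamEv S lam G₁ G₂))
    rwa [Module.finrank_fintype_fun_eq_card, Fintype.card_coe] at h
  -- the kernel
  have hker : Module.finrank k (LinearMap.ker (lamEv S lam G₁ G₂)) ≤
      Module.finrank k (L (G₁ - ptsDiv S.br₁)) + Module.finrank k (L (G₂ - ptsDiv S.br₂)) := by
    let ι : ↥(LinearMap.ker (lamEv S lam G₁ G₂)) →ₗ[k] F₁ × F₂ :=
      (S.Lam lam G₁ G₂).subtype.comp (LinearMap.ker (lamEv S lam G₁ G₂)).subtype
    have hι : Function.Injective ι :=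
      (Submodule.injective_subtype _).comp (Submodule.injective_subtype _)
    refine finrank_le_of_toProdSub (M := ↥(LinearMap.ker (lamEv S lam G₁ G₂))) ι hι
      (L (G₁ - ptsDiv S.br₁)) (L (G₂ - ptsDiv S.br₂)) ?_ ?_
    · rintro ⟨ψ, hψ⟩
      rw [LinearMap.mem_ker] at hψ
      refine mem_L_sub_ptsDiv ?_ ((S.mem_Lam).mp ψ.2).1 ?_
      · intro v hv
        obtain ⟨s, hs, rfl⟩ := Finset.mem_image.mp hv
        exact hG₁ s hs
      · intro v hv
        obtain ⟨s, hs, rfl⟩ := Finset.mem_image.mp hv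
        have h1 := (lamVal_spec S lam G₁ G₂ ψ ⟨s, hs⟩).1
        have h2 : lamVal S lam G₁ G₂ ψ ⟨s, hs⟩ = 0 := by
          rw [← lamEv_apply, hψ]; rfl
        rw [h2, map_zero, sub_zero] at h1
        exact h1
    · rintro ⟨ψ, hψ⟩
      rw [LinearMap.mem_ker] at hψ
      refine mem_L_sub_ptsDiv ?_ ((S.mem_Lam).mp ψ.2).2.1 ?_
      · intro v hv
        obtain ⟨s, hs, rfl⟩ := Finset.mem_image.mp hv
        exact hG₂ s hs
      · intro v hv
        obtain ⟨s, hs, rfl⟩ := Finset.mem_image.mp hv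
        have h1 := (lamVal_spec S lam G₁ G₂ ψ ⟨s, hs⟩).2
        have h2 : lamVal S lam G₁ G₂ ψ ⟨s, hs⟩ = 0 := by
          rw [← lamEv_apply, hψ]; rfl
        rw [h2, map_zero, sub_zero] at h1
        have h3 := (regAt_algebraMap s.2 (lam s)⁻¹).mul_vanAt h1
        rw [← mul_assoc, ← map_mul, inv_mul_cancel₀ (hlam s hs), map_one, one_mul] at h3
        exact h3
  omega

end Fermat.Agent.BAD.H60

end
end
-- ==== END Fermat.Agent.BAD.H60_LamCount
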