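-- GENERATED (merged mirror, NOTES/tools/trim/merge3_helper67.py): 7 modules of the originals, bodies verbatim.
import Fermat.Prelude.Def_ModularCurve_ArithmeticGalois
import Mathlib
import Fermat.Agent.Zm.S35_L08_001
import Fermat.Agent.Zm.S35_L10_004
import Fermat.Agent.Zm.S35_L10_000
import Fermat.Agent.Zm.S35_L08_000
import Fermat.Agent.Zm.S35_L10_001
import Fermat.Agent.Zm.S35_L07_000
import Fermat.Agent.Zm.S35_L10_003
import Fermat.Agent.Zm.S35_L03_000

-- ==== BEGIN Fermat.Agent.BAD.H60_TwSurj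
section

/-!
# Item 65, package ABS, leaf 5 (helper60): `Stmt_TwSurj` from the leaves 1 - 4

`twSurj_of : Stmt_Pivot → Stmt_Contain → Stmt_Linearise → Stmt_LamCount → Stmt_TwSurj`.

The count: `I = Rsub ϑ (D_x + G) ⊂ Λ^λ(G₁, G₂)` (Contain + Linearise), and
`dim Λ^λ ≤ l₁(G₁ - ∑ s₁) + l₂(G₂ - ∑ s₂) + δ = deg G + 2 - g₁ - g₂ - δ ≤ deg G + 1 - g
  ≤ l(D_x + G) ≤ dim I` (LamCount, Riemann equality on the components, Riemann inequality on
`F`, Pivot).
-/

set_option autoImplicit false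
set_option linter.style.haveILetI false

noncomputable section

open AlgebraicCurve

attribute [local instance] Classical.propDecidable

namespace Fermat.Agent.BAD.H60

open Fermat.Agent.RED.H17 Fermat.Agent.RED

local notation "L" => riemannRochSpace

/-! ### Division of a divisor by `n` -/

section DivN

variable {k F : Type*} [Field k] [Field F] [Algebra k F]

theorem mapRange_div_apply (E : Divisor k F) (n : ℕ) (v : Place k F) :
    (E.mapRange (fun m : ℤ => m / (n : ℤ)) (by simp)) v = E v / (n : ℤ) :=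
  Finsupp.mapRange_apply (hf := by simp)

/-- If all coefficients of `E` are divisible by `n ≠ 0` and `deg E = 0`, then `deg (E / n) = 0`. -/
theorem degree_mapRange_div (E : Divisor k F) (n : ℕ) (hn : n ≠ 0)
    (hdvd : ∀ v, (n : ℤ) ∣ E v) (hE : Divisor.degree E = 0) :
    Divisor.degree (E.mapRange (fun m : ℤ => m / (n : ℤ)) (by simp)) = 0 := by
  have h1 : (n : ℤ) • (E.mapRange (fun m : ℤ => m / (n : ℤ)) (by simp)) = E := by
    ext v
    rw [Finsupp.smul_apply, mapRange_div_apply, smul_eq_mul]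
    exact Int.mul_ediv_cancel' (hdvd v)
  have h2 := congrArg Divisor.degree h1
  rw [map_zsmul, hE, smul_eq_mul] at h2
  have hn' : (n : ℤ) ≠ 0 := by exact_mod_cast hn
  rcases mul_eq_zero.mp h2 with h | h
  · exact absurd h hn'
  · exact h

end DivN

/-! ### Degree of a push-forward along a partial map -/

section Push

variable {K F k F' : Type*} [Field K] [Field F] [Algebra K F] [Field k] [Field F']
  [Algebra k F']

/-- The push-forward along a partial map of places. -/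
def pushOpt (r : Place K F → Option (Place k F')) (D : Divisor K F) : Divisor k F' :=
  (Finsupp.mapDomain r D).some

theorem pushOpt_add (r : Place K F → Option (Place k F')) (D E : Divisor K F) :
    pushOpt r (D + E) = pushOpt r D + pushOpt r E := by
  unfold pushOpt
  rw [Finsupp.mapDomain_add, Finsupp.some_add]

theorem pushOpt_single (r : Place K F → Option (Place k F')) (P : Place K F) (m : ℤ) :
    pushOpt r (Finsupp.single P m) =
      match r P with
      | some Q => Finsupp.single Q m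
      | none => 0 := by
  unfold pushOpt
  rw [Finsupp.mapDomain_single]
  cases h : r P with
  | none => simp
  | some Q => simp

theorem degree_pushOpt (hdeg : ∀ v : Place k F', v.deg = 1)
    (r : Place K F → Option (Place k F')) (D : Divisor K F) :
    Divisor.degree (pushOpt r D) = D.sum fun P m => if (r P).isSome then m else 0 := by
  induction D using Finsupp.induction_linear with
  | zero => simp [pushOpt]
  | add D E hD hE =>
    rw [pushOpt_add, map_add, hD, hE, Finsupp.sum_add_index']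
    · intro P; simp
    · intro P m m'; split_ifs <;> simp
  | single P m =>
    rw [pushOpt_single, Finsupp.sum_single_index (by simp)]
    cases h : r P with
    | none => simp
    | some Q => simp [hdeg Q]

theorem pushOpt_apply (r : Place K F → Option (Place k F')) (D : Divisor K F)
    (Q : Place k F') :
    pushOpt r D Q = ∑ P ∈ D.support, if r P = some Q then D P else 0 := by
  unfold pushOpt
  rw [Finsupp.some_apply, mapDomain_apply_eq_sum]
  refine Finset.sum_congr rfl fun P _ => ?_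
  congr

end Push

section

variable {K F k F₁ F₂ : Type*} [Field K] [Field F] [Algebra K F] [Field k] [Field F₁]
  [Algebra k F₁] [Field F₂] [Algebra k F₂] (S : SSD K F k F₁ F₂)

theorem push₁_eq (D : Divisor K F) : S.push₁ D = pushOpt S.c₁.r D := rfl

theorem push₂_eq (D : Divisor K F) : S.push₂ D = pushOpt S.c₂.r D := rfl

/-- A place which reduces to a branch of a node on the second component reduces to a node. -/
theorem isNodeP_of_r₂ {P : Place K F} {s : Place k F₁ × Place k F₂} (hs : s ∈ S.nodes)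
    (h : S.c₂.r P = some s.2) : S.IsNodeP P := by
  rcases S.r_cases P with ⟨Q, _, _, h2⟩ | ⟨Q, hQ, h2, _⟩ | ⟨s', hs', h1, _⟩
  · rw [h2] at h; exact absurd h (by simp)
  · rw [h2] at h
    have hQs : Q = s.2 := Option.some.inj h
    exact absurd hQs.symm ((S.good₂ Q).mp hQ s hs)
  · exact ⟨s', hs', h1⟩

/-- A place which does not reduce to a node reduces to exactly one component. -/
theorem isSome_xor_of_not_isNodeP {P : Place K F} (h : ¬ S.IsNodeP P) :
    ((S.c₁.r P).isSome = true ∧ (S.c₂.r P).isSome = false) ∨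
      ((S.c₁.r P).isSome = false ∧ (S.c₂.r P).isSome = true) := by
  rcases S.r_cases P with ⟨Q, _, h1, h2⟩ | ⟨Q, hQ, h2, h1⟩ | ⟨s', hs', h1, _⟩
  · left; rw [h1, h2]; simp
  · right; rw [h1, h2]; simp
  · exact absurd ⟨s', hs', h1⟩ h

theorem push₁_node_eq_zero {G : Divisor K F} (hG : S.GoodPos G)
    {s : Place k F₁ × Place k F₂} (hs : s ∈ S.nodes) : S.push₁ G s.1 = 0 := by
  rw [push₁_eq, pushOpt_apply]
  apply Finset.sum_eq_zero
  intro P hP
  rw [Finsupp.mem_support_iff] at hP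
  rw [if_neg]
  intro h
  exact hG P hP ⟨s, hs, h⟩

theorem push₂_node_eq_zero {G : Divisor K F} (hG : S.GoodPos G)
    {s : Place k F₁ × Place k F₂} (hs : s ∈ S.nodes) : S.push₂ G s.2 = 0 := by
  rw [push₂_eq, pushOpt_apply]
  apply Finset.sum_eq_zero
  intro P hP
  rw [Finsupp.mem_support_iff] at hP
  rw [if_neg]
  intro h
  exact hG P hP (isNodeP_of_r₂ S hs h)

/-- For `G` in good position, `deg r₁_* G + deg r₂_* G = deg G`. -/
theorem degree_push_add (hdeg : ∀ v : Place K F, v.deg = 1) (hdeg₁ : ∀ v : Place k F₁, v.deg = 1)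
    (hdeg₂ : ∀ v : Place k F₂, v.deg = 1) {G : Divisor K F} (hG : S.GoodPos G) :
    Divisor.degree (S.push₁ G) + Divisor.degree (S.push₂ G) = Divisor.degree G := by
  rw [push₁_eq, push₂_eq, degree_pushOpt hdeg₁, degree_pushOpt hdeg₂, degree_eq_sum hdeg,
    Finsupp.sum, Finsupp.sum, Finsupp.sum, ← Finset.sum_add_distrib]
  refine Finset.sum_congr rfl fun P hP => ?_
  rw [Finsupp.mem_support_iff] at hP
  rcases isSome_xor_of_not_isNodeP S (hG P hP) with ⟨h1, h2⟩ | ⟨h1, h2⟩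
  · rw [h1, h2]; simp
  · rw [h1, h2]; simp

/-! ### The twist -/

variable {S} {n : ℕ} (x : S.Twist n)

theorem twist_f_ne_zero : x.f ≠ 0 := by
  intro h
  have := x.hf₂.ne_zero
  rw [h, zero_div] at this
  exact this rfl

theorem twist_γ_ne_zero : x.γ ≠ 0 := x.hf₂.rd_ne_zero

/-- The orders of `γ` are divisible by `n`. -/
theorem twist_dvd_ord_γ (hP : HasPrincipalDivisors K F) (Q : Place k F₂) :
    (n : ℤ) ∣ Q.ord x.γ := by
  by_cases hQ : Q ∈ S.c₂.good
  · unfold SSD.Twist.γ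
    rw [S.c₂.ord_rd_eq_sum hP x.hf₂ Q hQ]
    apply Finset.dvd_sum
    intro P _
    split_ifs with h
    · rw [ord_div P (twist_f_ne_zero x) (pow_ne_zero n x.hϑ), ord_pow]
      exact dvd_sub (x.hdiv P) (dvd_mul_right _ _)
    · exact dvd_zero _
  · rw [S.good₂] at hQ
    push Not at hQ
    obtain ⟨s, hs, hsQ⟩ := hQ
    rw [← hsQ]
    have := x.hγ s hs
    unfold SSD.Twist.γ
    rw [this]
    exact dvd_zero _

theorem twist_degree_Dx (hP : HasPrincipalDivisors K F) (hn : n ≠ 0) :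
    Divisor.degree (x.Dx hP) = 0 := by
  unfold SSD.Twist.Dx
  apply degree_mapRange_div _ n hn
  · intro v
    rw [dv_apply]
    exact x.hdiv v
  · exact degree_dv hP x.f

theorem twist_degree_Δ (hP : HasPrincipalDivisors K F) (hP₂ : HasPrincipalDivisors k F₂)
    (hn : n ≠ 0) : Divisor.degree (x.Δ hP₂) = 0 := by
  unfold SSD.Twist.Δ
  apply degree_mapRange_div _ n hn
  · intro v
    rw [dv_apply]
    exact twist_dvd_ord_γ x hP v
  · exact degree_dv hP₂ x.γ

theorem twist_Δ_node (hP₂ : HasPrincipalDivisors k F₂) {s : Place k F₁ × Place k F₂}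
    (hs : s ∈ S.nodes) : x.Δ hP₂ s.2 = 0 := by
  unfold SSD.Twist.Δ
  rw [mapRange_div_apply, dv_apply]
  have := x.hγ s hs
  unfold SSD.Twist.γ
  rw [this, Int.zero_ediv]

end

/-- `Λ^λ(G₁, G₂)` is finite-dimensional. -/
theorem finite_Lam {K F k F₁ F₂ : Type*} [Field K] [Field F] [Algebra K F] [Field k] [Field F₁]
    [Algebra k F₁] [Field F₂] [Algebra k F₂] (S : SSD K F k F₁ F₂) (H₁ : FFHyp k F₁)
    (H₂ : FFHyp k F₂) (lam : Place k F₁ × Place k F₂ → k) (G₁ : Divisor k F₁)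
    (G₂ : Divisor k F₂) : Module.Finite k (S.Lam lam G₁ G₂) := by
  haveI := H₁.finite G₁
  haveI := H₂.finite G₂
  exact finite_of_toProdSub (S.Lam lam G₁ G₂).subtype (Submodule.injective_subtype _) (L G₁)
    (L G₂) (fun x => ((S.mem_Lam).mp x.2).1) (fun x => ((S.mem_Lam).mp x.2).2.1)

/-- **Leaf 5**: surjectivity of the twisted reduction, from the leaves 1 - 4. -/
theorem twSurj_of (hPiv : Stmt_Pivot) (hCon : Stmt_Contain) (hLin : Stmt_Linearise)
    (hLC : Stmt_LamCount) : Stmt_TwSurj := by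
  intro K F k F₁ F₂ _ _ _ _ _ _ _ _ _ S H H₁ H₂ g g₁ g₂ c c₁ c₂ hR hR₁ hR₂ hnum n hn x G hG
    hd₁ hd₂
  have hn0 : n ≠ 0 := by
    rintro rfl
    exact hn (by simp)
  -- containment and linearisation
  have hcon := hCon K F k F₁ F₂ S H H₁ H₂ n hn x G hG
  obtain ⟨lam, hlam, hlin⟩ := hLin k F₁ F₂ H₁ H₂ S.nodes n hn x.γ (twist_γ_ne_zero x)
    (fun s hs => x.hγ s hs) (S.Rsub x.ϑ (x.Dx H.principal + G))
    (fun ψ hψ => (hcon ψ hψ).2.2)
  refine ⟨lam, hlam, ?_⟩
  have hle : S.Rsub x.ϑ (x.Dx H.principal + G) ≤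
      S.Lam lam (S.push₁ G) (S.push₂ G + x.Δ H₂.principal) := by
    intro ψ hψ
    exact (S.mem_Lam).mpr ⟨(hcon ψ hψ).1, (hcon ψ hψ).2.1, hlin ψ hψ⟩
  haveI hfinLam := finite_Lam S H₁ H₂ lam (S.push₁ G) (S.push₂ G + x.Δ H₂.principal)
  haveI hfinR : Module.Finite k (S.Rsub x.ϑ (x.Dx H.principal + G)) :=
    Submodule.finiteDimensional_of_le hle
  -- the count
  have h1 := hLC K F k F₁ F₂ S H₁ H₂ lam hlam (S.push₁ G) (S.push₂ G + x.Δ H₂.principal)
    (fun s hs => push₁_node_eq_zero S hG hs)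
    (fun s hs => by
      rw [Finsupp.add_apply, push₂_node_eq_zero S hG hs, twist_Δ_node x H₂.principal hs, add_zero])
  have hdg₁ : Divisor.degree (S.push₁ G - ptsDiv S.br₁) =
      Divisor.degree (S.push₁ G) - S.nodes.card := by
    rw [map_sub, degree_ptsDiv H₁.deg_one, card_br₁]
  have hdg₂ : Divisor.degree (S.push₂ G + x.Δ H₂.principal - ptsDiv S.br₂) =
      Divisor.degree (S.push₂ G) - S.nodes.card := by
    rw [map_sub, map_add, degree_ptsDiv H₂.deg_one, card_br₂,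
      twist_degree_Δ x H.principal H₂.principal hn0, add_zero]
  have h2 := (hR₁ (S.push₁ G - ptsDiv S.br₁)).2 (by rw [hdg₁]; omega)
  have h3 := (hR₂ (S.push₂ G + x.Δ H₂.principal - ptsDiv S.br₂)).2 (by rw [hdg₂]; omega)
  rw [hdg₁] at h2
  rw [hdg₂] at h3
  have h4 := degree_push_add S H.deg_one H₁.deg_one H₂.deg_one hG
  have h5 := (hR (x.Dx H.principal + G)).1
  rw [map_add, twist_degree_Dx x H.principal hn0, zero_add] at h5
  have h6 := hPiv K F k F₁ F₂ S H H₁ H₂ x.ϑ x.hϑ (x.Dx H.principal + G) hfinR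
  have h7 := Submodule.finrank_mono hle
  constructor
  · exact Submodule.eq_of_le_of_finrank_le hle (by omega)
  · omega

end Fermat.Agent.BAD.H60

end
end
-- ==== END Fermat.Agent.BAD.H60_TwSurj

-- ==== BEGIN Fermat.Agent.BAD.H79_Sides
section

/-!
# Item 65, package CONS-ss (helper79): the two sides of a fibre, nodes

* `onSide_or` : every place lies on the first or on the second side;
* `IsNode.onSide₁`, `IsNode.onSide₂` : over a node every place lies on both sides;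
* `exists_eps` : over a point which is not a node there is `ε ∈ R_z` with values `(1, 0)`;
* `not_onSide_both` : over a point which is not a node the two sides are disjoint.
-/

set_option autoImplicit false
set_option linter.style.haveILetI false

noncomputable section

open AlgebraicCurve

attribute [local instance] Classical.propDecidable

namespace Fermat.Agent.BAD.H79

open Fermat.Agent.RED.H17 Fermat.Agent.RED Fermat.Agent.BAD

namespace TotData

variable {K L k L₁ L₂ : Type*} [Field K] [Field L] [Algebra K L] [Field k] [Field L₁]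
  [Algebra k L₁] [Field L₂] [Algebra k L₂] {T : TotData K L k L₁ L₂}

/-- Every place lies on the first or on the second side. -/
theorem onSide_or [Infinite k] (hP : HasPrincipalDivisors K L) (P : Place K L) :
    T.OnSide₁ P ∨ T.OnSide₂ P := by
  by_contra hcon
  rw [not_or] at hcon
  obtain ⟨h1, h2⟩ := hcon
  unfold OnSide₁ at h1
  unfold OnSide₂ at h2
  push Not at h1 h2
  obtain ⟨f₁, hf₁, a₁, ha₁, hn₁⟩ := h1
  obtain ⟨f₂, hf₂, a₂, ha₂, hn₂⟩ := h2
  have hm₁ := hf₁.const_mem hP rfl ha₁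
  have hm₂ := hf₂.const_mem hP rfl ha₂
  have hg₁ := hf₁.sub_value hP rfl ha₁
  have hg₂ := hf₂.sub_value hP rfl ha₂
  rw [← T.p₁.rd_sub hf₁.1 hm₁] at hn₁
  rw [← T.p₂.rd_sub hf₂.2.1 (T.const_mem₂ hm₂)] at hn₂
  have hv₁ : VanAt (T.β (T.ρ P)) (T.p₂.rd (f₁ - algebraMap K L a₁)) :=
    (hg₁.vanAt_cases hP rfl ha₁).resolve_left hn₁
  have hv₂ : VanAt (T.ρ P) (T.p₁.rd (f₂ - algebraMap K L a₂)) :=
    (hg₂.vanAt_cases hP rfl ha₂).resolve_right hn₂
  have hg := hg₁.add hg₂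
  rcases hg.vanAt_cases hP rfl (ha₁.add ha₂) with h | h
  · rw [T.p₁.rd_add hg₁.1 hg₂.1] at h
    have := h.sub hv₂
    rw [add_sub_cancel_right] at this
    exact hn₁ this
  · rw [T.p₂.rd_add hg₁.2.1 hg₂.2.1] at h
    have := h.sub hv₁
    rw [add_sub_cancel_left] at this
    exact hn₂ this

/-- Over a node every place lies on the first side. -/
theorem IsNode.onSide₁ [Infinite k] (hP : HasPrincipalDivisors K L) {P : Place K L}
    (hz : T.IsNode (T.ρ P)) : T.OnSide₁ P := by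
  intro f hf a ha
  rcases hf.val_cases hP rfl ha with h | h
  · exact h
  · obtain ⟨α, h1, h2⟩ := T.const_rd (hf.const_mem hP rfl ha)
    rw [h1]
    rw [h2] at h
    exact (hz f hf α).mpr h

/-- Over a node every place lies on the second side. -/
theorem IsNode.onSide₂ [Infinite k] (hP : HasPrincipalDivisors K L) {P : Place K L}
    (hz : T.IsNode (T.ρ P)) : T.OnSide₂ P := by
  intro f hf a ha
  rcases hf.val_cases hP rfl ha with h | h
  · obtain ⟨α, h1, h2⟩ := T.const_rd (hf.const_mem hP rfl ha)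
    rw [h2]
    rw [h1] at h
    exact (hz f hf α).mp h
  · exact h

/-- `ε` is a **cut-off** at `z`: `ε ∈ R_z` with values `1` at `z` and `0` at `β z`. -/
structure IsEps (T : TotData K L k L₁ L₂) (z : Place k L₁) (ε : L) : Prop where
  inR : T.InR z ε
  van₁ : VanAt z (T.p₁.rd ε - 1)
  van₂ : VanAt (T.β z) (T.p₂.rd ε)

/-- Over a point which is not a node there is a cut-off. -/
theorem exists_eps [Infinite k] (hP : HasPrincipalDivisors K L)
    (hd₁ : ∀ v : Place k L₁, v.deg = 1) (hd₂ : ∀ v : Place k L₂, v.deg = 1)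
    {z : Place k L₁} (hz : ¬ T.IsNode z) : ∃ ε : L, T.IsEps z ε := by
  unfold IsNode at hz
  push Not at hz
  obtain ⟨f, hf, α, hα⟩ := hz
  obtain ⟨α₁, hα₁⟩ := exists_value z (hd₁ z) (hf.regAt₁ hP)
  obtain ⟨α₂, hα₂⟩ := exists_value (T.β z) (hd₂ _) (hf.regAt₂ hP)
  have hne : α₁ ≠ α₂ := by
    rintro rfl
    rcases hα with ⟨h, hn⟩ | ⟨hn, h⟩
    · apply hn
      rw [value_unique z h hα₁]
      exact hα₂
    · apply hn
      rw [value_unique _ h hα₂]
      exact hα₁
  -- `f' = f - a₂` has values `(γ, 0)`, `γ = α₁ - α₂ ≠ 0`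
  obtain ⟨a₂, ha₂, ha₂', hr₁, hr₂⟩ := T.exists_lift α₂
  obtain ⟨c, hc, hc', hc₁, hc₂⟩ := T.exists_lift (α₁ - α₂)⁻¹
  have hf' : T.InR z (f - algebraMap K L a₂) := hf.sub (T.inR_const z ha₂)
  have hε : T.InR z (algebraMap K L c * (f - algebraMap K L a₂)) := (T.inR_const z hc).mul hf'
  refine ⟨_, hε, ?_, ?_⟩
  · rw [T.p₁.rd_mul hc hf'.1, T.p₁.rd_sub hf.1 ha₂, hc₁, hr₁]
    have e : algebraMap k L₁ (α₁ - α₂)⁻¹ * (T.p₁.rd f - algebraMap k L₁ α₂) - 1
        = algebraMap k L₁ (α₁ - α₂)⁻¹ * (T.p₁.rd f - algebraMap k L₁ α₁) := by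
      have h1 : algebraMap k L₁ (α₁ - α₂)⁻¹ * algebraMap k L₁ (α₁ - α₂) = 1 := by
        rw [← map_mul, inv_mul_cancel₀ (sub_ne_zero.mpr hne), map_one]
      rw [map_sub] at h1
      linear_combination h1
    rw [e]
    exact (regAt_algebraMap z _).mul_vanAt hα₁
  · rw [T.p₂.rd_mul hc' hf'.2.1, T.p₂.rd_sub hf.2.1 ha₂', hc₂, hr₂]
    exact (regAt_algebraMap _ _).mul_vanAt hα₂

namespace IsEps

variable {z : Place k L₁} {ε : L}

theorem rd₁_ne_zero (h : T.IsEps z ε) : T.p₁.rd ε ≠ 0 := by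
  intro h0
  have := h.van₁
  rw [h0, zero_sub] at this
  have h1 : VanAt z (algebraMap k L₁ 1) := by
    rw [map_one]
    have := this.neg
    rwa [neg_neg] at this
  exact one_ne_zero (const_eq_zero_of_vanAt h1)

theorem isGU₁ (h : T.IsEps z ε) : T.p₁.IsGU ε := ⟨h.inR.1, h.rd₁_ne_zero⟩

/-- The first reduction of a cut-off does not vanish at `z`. -/
theorem not_vanAt₁ (h : T.IsEps z ε) : ¬ VanAt z (T.p₁.rd ε) := by
  intro h0
  have := h0.sub h.van₁
  rw [sub_sub_cancel] at this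
  have h1 : VanAt z (algebraMap k L₁ 1) := by rwa [map_one]
  exact one_ne_zero (const_eq_zero_of_vanAt h1)

theorem ord₁ [Infinite k] (hP : HasPrincipalDivisors K L) (h : T.IsEps z ε) :
    z.ord (T.p₁.rd ε) = 0 := by
  have h1 := (h.inR.regAt₁ hP).ord_nonneg
  have h2 : ¬ 0 < z.ord (T.p₁.rd ε) := fun hpos => h.not_vanAt₁ (vanAt_of_ord_pos hpos)
  omega

/-- The value of a cut-off at a place of the first side reduces to `1`. -/
theorem value₁ (hP : HasPrincipalDivisors K L) (h : T.IsEps z ε) {P : Place K L}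
    (hPz : T.ρ P = z) (hS : T.OnSide₁ P) {a : K} (ha : VanAt P (ε - algebraMap K L a)) :
    T.p₁.rd (algebraMap K L a) = 1 ∧ T.p₂.rd (algebraMap K L a) = 1 := by
  subst hPz
  have h1 := hS ε h.inR a ha
  obtain ⟨α, hα₁, hα₂⟩ := T.const_rd (h.inR.const_mem hP rfl ha)
  have h2 := h.van₁.sub h1
  rw [hα₁] at h2
  have h3 : T.p₁.rd ε - 1 - (T.p₁.rd ε - algebraMap k L₁ α) = algebraMap k L₁ (α - 1) := by
    rw [map_sub, map_one]; ring
  rw [h3] at h2
  have h4 : α = 1 := sub_eq_zero.mp (const_eq_zero_of_vanAt h2)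
  rw [hα₁, hα₂, h4, map_one, map_one]
  exact ⟨rfl, rfl⟩

/-- The value of a cut-off at a place of the second side reduces to `0`. -/
theorem value₂ (hP : HasPrincipalDivisors K L) (h : T.IsEps z ε) {P : Place K L}
    (hPz : T.ρ P = z) (hS : T.OnSide₂ P) {a : K} (ha : VanAt P (ε - algebraMap K L a)) :
    T.p₁.rd (algebraMap K L a) = 0 ∧ T.p₂.rd (algebraMap K L a) = 0 := by
  subst hPz
  have h1 := hS ε h.inR a ha
  obtain ⟨α, hα₁, hα₂⟩ := T.const_rd (h.inR.const_mem hP rfl ha)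
  have h2 := h.van₂.sub h1
  rw [hα₂, sub_sub_cancel] at h2
  have h4 : α = 0 := const_eq_zero_of_vanAt h2
  rw [hα₁, hα₂, h4, map_zero, map_zero]
  exact ⟨rfl, rfl⟩

end IsEps

/-- Over a point with a cut-off, no place lies on both sides. -/
theorem IsEps.not_both (hP : HasPrincipalDivisors K L) (hd : ∀ v : Place K L, v.deg = 1)
    {z : Place k L₁} {ε : L} (h : T.IsEps z ε) {P : Place K L} (hPz : T.ρ P = z)
    (h₁ : T.OnSide₁ P) (h₂ : T.OnSide₂ P) : False := by
  obtain ⟨a, ha⟩ := exists_value P (hd P) (h.inR.reg hPz)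
  have e1 := (h.value₁ hP hPz h₁ ha).1
  have e2 := (h.value₂ hP hPz h₂ ha).1
  rw [e1] at e2
  exact one_ne_zero e2

/-- Over a point which is not a node, no place lies on both sides. -/
theorem not_onSide_both [Infinite k] (hP : HasPrincipalDivisors K L)
    (hd : ∀ v : Place K L, v.deg = 1)
    (hd₁ : ∀ v : Place k L₁, v.deg = 1) (hd₂ : ∀ v : Place k L₂, v.deg = 1)
    {P : Place K L} (hz : ¬ T.IsNode (T.ρ P)) (h₁ : T.OnSide₁ P) (h₂ : T.OnSide₂ P) : False := by
  obtain ⟨ε, hε⟩ := exists_eps hP hd₁ hd₂ hz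
  exact hε.not_both hP hd rfl h₁ h₂

end TotData

end Fermat.Agent.BAD.H79

end
end
-- ==== END Fermat.Agent.BAD.H79_Sides

-- ==== BEGIN Fermat.Agent.BAD.H82_KronF
section

/-!
# Item 65, package V2 (helper82), part (K): the two Gauss valuations of `F_{Mq}` are different

`N = M q`, `q ∤ M`, `A` a valuation ring of `Q̄` over `q`, `V₁ = gaussV A N`, `w = wq` (helper88's
Atkin-Lehner involution), `V₂ = w⁻¹ V₁`.

* `kronF q M = j_q - j^q ∈ F_N` lies in `V₁` and reduces to `0` (`kronF_mem`, `gaussRes_kronF`);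
* `w (kronF q M) = j - j_q^q` lies in `V₁` and does not reduce to `0`
  (`wq_kronF_mem`, `gaussRes_wq_kronF_ne_zero`);
* `exists_sep` : there is `e ∈ V₁` with `red₁ e = 1`, `w e ∈ V₁`, `red₁ (w e) = 0`
  (an approximate idempotent separating the two valuations);
* `gaussV_ne_comap` : `V₁ ≠ V₁.comap w`.
-/

set_option autoImplicit false

noncomputable section

open ModularCurve Fermat.Agent.S24 Fermat.Agent.S28 Fermat.Agent.S28.H73 Fermat.Agent.RED.H73
open Fermat.Agent.BAD.H88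

namespace Fermat.Agent.BAD.H82

theorem jdF_congr (N : ℕ) [NeZero N] {d d' : ℕ} [NeZero d] [NeZero d'] (h : d = d')
    (hd : d ∣ N) (hd' : d' ∣ N) : jdF N d hd = jdF N d' hd' := by
  subst h
  rfl

theorem coe_jdF (N : ℕ) [NeZero N] (d : ℕ) [NeZero d] (hd : d ∣ N) :
    ((jdF N d hd : FN N) : LaurentSeries Kbar) = qExpand Kbar d (jqModC Kbar) :=
  coeffEmb_qExpand_jq d

theorem coe_jdF_one (N : ℕ) [NeZero N] :
    ((jdF N 1 (one_dvd N) : FN N) : LaurentSeries Kbar) = jqModC Kbar := by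
  rw [coe_jdF, qExpand_one_apply]

theorem neZero_of_mul_right (q M : ℕ) [NeZero (M * q)] : NeZero q :=
  ⟨fun h => NeZero.ne (M * q) (by rw [h, mul_zero])⟩

section

variable (q M : ℕ) [NeZero (M * q)]

/-- `j_q - j^q` as an element of `F_{Mq}`. -/
def kronF : FN (M * q) :=
  haveI : NeZero q := neZero_of_mul_right q M
  jdF (M * q) q (dvd_mul_left q M) - jdF (M * q) 1 (one_dvd _) ^ q

/-- `j - j_q^q` as an element of `F_{Mq}`. -/
def kronG : FN (M * q) :=
  haveI : NeZero q := neZero_of_mul_right q M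
  jdF (M * q) 1 (one_dvd _) - jdF (M * q) q (dvd_mul_left q M) ^ q

theorem coe_kronF :
    haveI : NeZero q := neZero_of_mul_right q M
    ((kronF q M : FN (M * q)) : LaurentSeries Kbar) = kronX Kbar q := by
  have : NeZero q := neZero_of_mul_right q M
  show ((jdF (M * q) q (dvd_mul_left q M) : FN (M * q)) : LaurentSeries Kbar)
    - ((jdF (M * q) 1 (one_dvd _) : FN (M * q)) : LaurentSeries Kbar) ^ q = _
  rw [coe_jdF, coe_jdF_one, kronX]

theorem coe_kronG :
    haveI : NeZero q := neZero_of_mul_right q M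
    ((kronG q M : FN (M * q)) : LaurentSeries Kbar) = kronY Kbar q := by
  have : NeZero q := neZero_of_mul_right q M
  show ((jdF (M * q) 1 (one_dvd _) : FN (M * q)) : LaurentSeries Kbar)
    - ((jdF (M * q) q (dvd_mul_left q M) : FN (M * q)) : LaurentSeries Kbar) ^ q = _
  rw [coe_jdF_one, coe_jdF, kronY]

variable (a b : ℤ) (hab : a * q + b * M = 1) (hq : q.Prime)

theorem wq_kronF : wq q M a b hab hq (kronF q M) = kronG q M := by
  have : NeZero q := neZero_of_mul_right q M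
  have : NeZero (1 * q) := ⟨by rw [one_mul]; exact NeZero.ne q⟩
  have h1 : wq q M a b hab hq (jdF (M * q) 1 (one_dvd _)) = jdF (M * q) q (dvd_mul_left q M) := by
    rw [wq_apply]
    have := wqHom_jdF q M a b hab hq 1 (one_dvd M)
    rw [jdF_congr (M * q) (rfl : 1 = 1) (one_dvd _) (Dvd.dvd.mul_right (one_dvd M) q), this]
    exact jdF_congr (M * q) (one_mul q) _ _
  have h2 : wq q M a b hab hq (jdF (M * q) q (dvd_mul_left q M)) = jdF (M * q) 1 (one_dvd _) := by
    rw [wq_apply]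
    have := wqHom_jdF_mul q M a b hab hq 1 (one_dvd M)
    rw [jdF_congr (M * q) (one_mul q).symm (dvd_mul_left q M)
      (Nat.mul_dvd_mul_right (one_dvd M) q), this]
  rw [kronF, kronG, map_sub, map_pow, h1, h2]

variable (A : ValuationSubring Kbar)

theorem kronF_mem : kronF q M ∈ gaussV A (M * q) := by
  have : NeZero q := neZero_of_mul_right q M
  show ((kronF q M : FN (M * q)) : LaurentSeries Kbar) ∈ gaussRingV A
  rw [coe_kronF]
  exact kronX_mem_gaussRingV A q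

theorem kronG_mem : kronG q M ∈ gaussV A (M * q) := by
  have : NeZero q := neZero_of_mul_right q M
  show ((kronG q M : FN (M * q)) : LaurentSeries Kbar) ∈ gaussRingV A
  rw [coe_kronG]
  exact kronY_mem_gaussRingV A q

include hq in
/-- `j_q - j^q` is in the maximal ideal of the Gauss valuation ring. -/
theorem gaussRes_kronF (hA : A.LiesOverPrime q) :
    gaussRes A (M * q) ⟨kronF q M, kronF_mem q M A⟩ = 0 := by
  have : NeZero q := neZero_of_mul_right q M
  have : Fact q.Prime := ⟨hq⟩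
  have : CharP (kV A) q := charP_kV A hq hA
  apply Subtype.ext
  show gaussRedV A ⟨((kronF q M : FN (M * q)) : LaurentSeries Kbar), kronF_mem q M A⟩ = 0
  have e : (⟨((kronF q M : FN (M * q)) : LaurentSeries Kbar), kronF_mem q M A⟩ : gaussRingV A)
      = ⟨kronX Kbar q, kronX_mem_gaussRingV A q⟩ := Subtype.ext (coe_kronF q M)
  rw [e]
  exact gaussRedV_kronX A q _

include hq in
/-- `j - j_q^q` is a unit of the Gauss valuation ring. -/
theorem gaussRes_kronG_ne_zero (hA : A.LiesOverPrime q) :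
    gaussRes A (M * q) ⟨kronG q M, kronG_mem q M A⟩ ≠ 0 := by
  have : NeZero q := neZero_of_mul_right q M
  have : Fact q.Prime := ⟨hq⟩
  have : CharP (kV A) q := charP_kV A hq hA
  intro h0
  have h1 : gaussRedV A ⟨((kronG q M : FN (M * q)) : LaurentSeries Kbar), kronG_mem q M A⟩ = 0 :=
    congrArg Subtype.val h0
  have e : (⟨((kronG q M : FN (M * q)) : LaurentSeries Kbar), kronG_mem q M A⟩ : gaussRingV A)
      = ⟨kronY Kbar q, kronY_mem_gaussRingV A q⟩ := Subtype.ext (coe_kronG q M)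
  rw [e] at h1
  exact gaussRedV_kronY_ne_zero A q _ h1

theorem wq_kronF_mem : wq q M a b hab hq (kronF q M) ∈ gaussV A (M * q) := by
  rw [wq_kronF]
  exact kronG_mem q M A

theorem gaussRes_wq_kronF_ne_zero (hA : A.LiesOverPrime q) :
    gaussRes A (M * q) ⟨wq q M a b hab hq (kronF q M), wq_kronF_mem q M a b hab hq A⟩ ≠ 0 := by
  have e : (⟨wq q M a b hab hq (kronF q M), wq_kronF_mem q M a b hab hq A⟩ : ↥(gaussV A (M * q)))
      = ⟨kronG q M, kronG_mem q M A⟩ := Subtype.ext (wq_kronF q M a b hab hq)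
  rw [e]
  exact gaussRes_kronG_ne_zero q M hq A hA

/-- **(K)**: the Gauss valuation ring is not stable under the Atkin-Lehner involution:
`V₁ ≠ V₂ = w⁻¹ V₁`. -/
theorem gaussV_ne_comap (hA : A.LiesOverPrime q) :
    gaussV A (M * q) ≠ (gaussV A (M * q)).comap
      ((wq q M a b hab hq : FN (M * q) ≃ₐ[Kbar] FN (M * q)) : FN (M * q) →+* FN (M * q)) := by
  intro h
  -- `x = kronF` is a non-unit of `V₁`; `w x` is a unit of `V₁`, so `x⁻¹ ∈ V₂ = V₁`
  set x := kronF q M with hx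
  have hxm : gaussRes A (M * q) ⟨x, kronF_mem q M A⟩ = 0 := gaussRes_kronF q M hq A hA
  have hwu := gaussRes_wq_kronF_ne_zero q M a b hab hq A hA
  have hunit : IsUnit (⟨wq q M a b hab hq x, wq_kronF_mem q M a b hab hq A⟩ :
      ↥(gaussV A (M * q))) := by
    rw [isUnit_iff_gaussResF_ne_zero]
    intro h0
    exact hwu (Subtype.ext h0)
  have hinv : (wq q M a b hab hq x)⁻¹ ∈ gaussV A (M * q) := by
    obtain ⟨u, hu⟩ := hunit
    have h1 : ((u⁻¹ : (↥(gaussV A (M * q)))ˣ) : ↥(gaussV A (M * q))).1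
        = (wq q M a b hab hq x)⁻¹ := by
      have h2 : (u : ↥(gaussV A (M * q))).1 * ((u⁻¹ : (↥(gaussV A (M * q)))ˣ) :
          ↥(gaussV A (M * q))).1 = 1 := by
        have := congrArg Subtype.val (u.mul_inv)
        exact this
      rw [hu] at h2
      exact eq_inv_of_mul_eq_one_right h2
    rw [← h1]
    exact Subtype.property _
  have hxinv : x⁻¹ ∈ gaussV A (M * q) := by
    rw [h, ValuationSubring.mem_comap]
    have : ((wq q M a b hab hq : FN (M * q) ≃ₐ[Kbar] FN (M * q)) : FN (M * q) →+* FN (M * q)) x⁻¹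
        = (wq q M a b hab hq x)⁻¹ := map_inv₀ _ _
    rw [this]
    exact hinv
  -- but `x` is not a unit of `V₁`
  have hnu : ¬ IsUnit (⟨x, kronF_mem q M A⟩ : ↥(gaussV A (M * q))) := by
    rw [isUnit_iff_gaussResF_ne_zero, not_not]
    exact congrArg Subtype.val hxm
  apply hnu
  have hx0 : x ≠ 0 := fun h0 =>
    hunit.ne_zero (Subtype.ext (by
      show wq q M a b hab hq x = 0
      rw [h0, map_zero]))
  refine IsUnit.of_mul_eq_one (⟨x⁻¹, hxinv⟩ : ↥(gaussV A (M * q))) ?_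
  exact Subtype.ext (mul_inv_cancel₀ hx0)

end

/-- Inverses of elements of the Gauss valuation ring with non-zero reduction. -/
theorem inv_mem_gaussV (N : ℕ) (A : ValuationSubring Kbar) (v : ↥(gaussV A N))
    (hv : gaussRes A N v ≠ 0) :
    ∃ h : ((v : ↥(FNbar N)))⁻¹ ∈ gaussV A N,
      gaussRes A N ⟨_, h⟩ = (gaussRes A N v)⁻¹ := by
  have hunit : IsUnit v := by
    rw [isUnit_iff_gaussResF_ne_zero]
    intro h0
    exact hv (Subtype.ext h0)
  obtain ⟨u, rfl⟩ := hunit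
  have h2 : ((u : ↥(gaussV A N)) : ↥(FNbar N)) * ((u⁻¹ : (↥(gaussV A N))ˣ) : ↥(gaussV A N)).1 = 1 :=
    congrArg Subtype.val (u.mul_inv)
  have h1 : ((u⁻¹ : (↥(gaussV A N))ˣ) : ↥(gaussV A N)).1 = ((u : ↥(gaussV A N)) : ↥(FNbar N))⁻¹ :=
    eq_inv_of_mul_eq_one_right h2
  have hmem : ((u : ↥(gaussV A N)) : ↥(FNbar N))⁻¹ ∈ gaussV A N := by
    rw [← h1]; exact Subtype.property _
  refine ⟨hmem, ?_⟩
  have e : (⟨((u : ↥(gaussV A N)) : ↥(FNbar N))⁻¹, hmem⟩ : ↥(gaussV A N))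
      = ((u⁻¹ : (↥(gaussV A N))ˣ) : ↥(gaussV A N)) := Subtype.ext h1.symm
  rw [e]
  have h3 : gaussRes A N (u : ↥(gaussV A N)) * gaussRes A N ((u⁻¹ : (↥(gaussV A N))ˣ)) = 1 := by
    rw [← map_mul, u.mul_inv, map_one]
  exact eq_inv_of_mul_eq_one_right h3

section Sep

variable (q M : ℕ) [NeZero (M * q)] (a b : ℤ) (hab : a * q + b * M = 1) (hq : q.Prime)
variable (A : ValuationSubring Kbar)

/-- **Separation**: an element `e` with `e ≡ 1` for `V₁` and `e ≡ 0` for `V₂ = w⁻¹ V₁`. -/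
theorem exists_sep (hA : A.LiesOverPrime q) :
    ∃ (e : FN (M * q)) (h1 : e ∈ gaussV A (M * q))
      (h2 : wq q M a b hab hq e ∈ gaussV A (M * q)),
      gaussRes A (M * q) ⟨e, h1⟩ = 1 ∧ gaussRes A (M * q) ⟨_, h2⟩ = 0 := by
  set V := gaussV A (M * q) with hV
  let x : ↥V := ⟨kronF q M, kronF_mem q M A⟩
  let y : ↥V := ⟨kronG q M, kronG_mem q M A⟩
  have hx : gaussRes A (M * q) x = 0 := gaussRes_kronF q M hq A hA
  have hy : gaussRes A (M * q) y ≠ 0 := gaussRes_kronG_ne_zero q M hq A hA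
  have hxy : gaussRes A (M * q) (x + y) = gaussRes A (M * q) y := by
    rw [map_add, hx, zero_add]
  have hxy0 : gaussRes A (M * q) (x + y) ≠ 0 := by rw [hxy]; exact hy
  obtain ⟨hinv, hres⟩ := inv_mem_gaussV (M * q) A (x + y) hxy0
  let z : ↥V := ⟨_, hinv⟩
  have hz : gaussRes A (M * q) z = (gaussRes A (M * q) y)⁻¹ := by
    rw [← hxy]; exact hres
  have hwx : wq q M a b hab hq (kronF q M) = kronG q M := wq_kronF q M a b hab hq
  have hwy : wq q M a b hab hq (kronG q M) = kronF q M := by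
    rw [← hwx, wq_wq]
  have hwe : wq q M a b hab hq ((y * z : ↥V) : FN (M * q)) = ((x * z : ↥V) : FN (M * q)) := by
    show wq q M a b hab hq (kronG q M * (kronF q M + kronG q M)⁻¹)
      = kronF q M * (kronF q M + kronG q M)⁻¹
    rw [map_mul, map_inv₀, map_add, hwx, hwy, add_comm]
  refine ⟨((y * z : ↥V) : FN (M * q)), (y * z).2, ?_, ?_, ?_⟩
  · rw [hwe]; exact (x * z).2
  · show gaussRes A (M * q) (y * z) = 1
    rw [map_mul, hz, mul_inv_cancel₀ hy]
  · have e : (⟨wq q M a b hab hq ((y * z : ↥V) : FN (M * q)), by rw [hwe]; exact (x * z).2⟩ : ↥V)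
        = x * z := Subtype.ext hwe
    rw [e, map_mul, hx, zero_mul]

end Sep

end Fermat.Agent.BAD.H82

end
end
-- ==== END Fermat.Agent.BAD.H82_KronF

-- ==== BEGIN Fermat.Agent.BAD.H88_WqGal
section

/-!
# Item 65 (BAD_q), package V2 (helper88), part 3: `w_q` commutes with `Gal(Q̄/ℚ)`

The coefficientwise action `arithmeticRingAut` of `σ ∈ Gal(Q̄/ℚ)` on `F_N · Q̄ ⊂ Q̄((q))` fixes
the generators `j (q^d)` and `w_q` permutes them, so the two commute.
-/

set_option autoImplicit false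
set_option synthInstance.maxHeartbeats 400000
set_option maxHeartbeats 1000000
set_option linter.unusedSectionVars false
set_option linter.style.haveILetI false

noncomputable section

namespace Fermat.Agent.BAD.H88

open Fermat.Agent.S24 ModularCurve

/-- The coefficientwise Galois action fixes `j (q^d)`. -/
theorem arith_jdF (N : ℕ) [NeZero N] (d : ℕ) [NeZero d] (hd : d ∣ N) (σ : Kbar ≃ₐ[ℚ] Kbar) :
    arithmeticRingAut (modularFunctionFieldFull N) σ (jdF N d hd) = jdF N d hd := by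
  apply Subtype.ext
  rw [coe_arithmeticRingAut_apply]
  exact coeffMap_coeffEmb σ _

section Wq

variable (q M : ℕ) (a b : ℤ) (hab : a * q + b * M = 1) (hq : q.Prime) [NeZero (M * q)]

include hab hq

/-- `w_q` permutes the generators. -/
theorem wq_gen (x : FN (M * q))
    (hx : x ∈ {x : FN (M * q) | ∃ (d : ℕ) (_ : NeZero d) (hd : d ∣ M * q),
      x = jdF (M * q) d hd}) :
    wq q M a b hab hq x ∈ {x : FN (M * q) | ∃ (d : ℕ) (_ : NeZero d) (hd : d ∣ M * q),
      x = jdF (M * q) d hd} := by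
  obtain ⟨D, hD0, hD, rfl⟩ := hx
  rcases dvd_cases q M a b hab hq D hD with ⟨e, he⟩ | ⟨d, e, rfl, he⟩
  · haveI : NeZero (D * q) := ⟨(Nat.mul_pos (Nat.pos_of_ne_zero (NeZero.ne D)) hq.pos).ne'⟩
    exact ⟨D * q, inferInstance, Nat.mul_dvd_mul_right ⟨e, he⟩ q,
      wqHom_jdF q M a b hab hq D ⟨e, he⟩⟩
  · have hdpos : 0 < d := by
      rcases Nat.eq_zero_or_pos d with h | h
      · exfalso; apply NeZero.ne (d * q); rw [h, zero_mul]
      · exact h
    haveI : NeZero d := ⟨hdpos.ne'⟩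
    exact ⟨d, inferInstance, Dvd.dvd.mul_right ⟨e, he⟩ q,
      wqHom_jdF_mul q M a b hab hq d ⟨e, he⟩⟩

/-- **`w_q` commutes with the Galois action on coefficients.** -/
theorem wq_arith (σ : Kbar ≃ₐ[ℚ] Kbar) (x : FN (M * q)) :
    wq q M a b hab hq (arithmeticRingAut (modularFunctionFieldFull (M * q)) σ x)
      = arithmeticRingAut (modularFunctionFieldFull (M * q)) σ (wq q M a b hab hq x) := by
  have hx : x ∈ IntermediateField.adjoin Kbar
      {x : FN (M * q) | ∃ (d : ℕ) (_ : NeZero d) (hd : d ∣ M * q), x = jdF (M * q) d hd} := by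
    rw [adjoin_jdF]; exact IntermediateField.mem_top
  induction hx using IntermediateField.adjoin_induction with
  | mem y hy =>
    obtain ⟨D', hD0', hD', hw⟩ := wq_gen q M a b hab hq y hy
    obtain ⟨D, hD0, hD, rfl⟩ := hy
    rw [arith_jdF, hw, arith_jdF]
  | algebraMap c =>
    rw [arithmeticRingAut_algebraMap, AlgEquiv.commutes, AlgEquiv.commutes,
      arithmeticRingAut_algebraMap]
  | add y z _ _ hy hz => rw [map_add, map_add, map_add, map_add, hy, hz]
  | inv y _ hy => rw [map_inv₀, map_inv₀, map_inv₀, map_inv₀, hy]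
  | mul y z _ _ hy hz => rw [map_mul, map_mul, map_mul, map_mul, hy, hz]

end Wq

end Fermat.Agent.BAD.H88

end
end
-- ==== END Fermat.Agent.BAD.H88_WqGal

-- ==== BEGIN Fermat.Agent.BAD.H91_Assemble
section

/-!
# BAD_q: assembly of the S34 slice  (helper91)

* `b1core_of_ABS : Stmt_ABS → q.Prime → Stmt_ModSSD N q → Stmt_B1core N q`
  (helper28's abstract theorem applied to the modular semistable Deuring datum);
* `torsUnip_of_ABS` : `Stmt_ABS` and `Stmt_ModSSD N q` for all `q ‖ N`, `q ≠ p`, give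
  `Stmt_TorsUnip N p`.
-/

set_option autoImplicit false

noncomputable section

open AlgebraicCurve ModularCurve Fermat.Agent.S28.H73 Fermat.Agent.RED.H73

namespace Fermat.Agent.BAD.H91

open Fermat.Agent.BAD

/-- `n` is invertible in the residue field of a valuation ring over `q` if `q ∤ n`. -/
theorem natCast_kV_ne_zero (A : ValuationSubring (AlgebraicClosure ℚ)) {q : ℕ} (hq : q.Prime)
    (hA : A.LiesOverPrime q) {n : ℕ} (hn : ¬ q ∣ n) : ((n : ℕ) : kV A) ≠ 0 := by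
  intro h0
  have hqA : ((q : ℕ) : AlgebraicClosure ℚ) ∈ A := natCast_mem A q
  have hq0 : ((q : ℕ) : kV A) = 0 := by
    have hmem : (⟨((q : ℕ) : AlgebraicClosure ℚ), hqA⟩ : ↥A) ∈ IsLocalRing.maximalIdeal ↥A := by
      obtain ⟨hm, hmax⟩ := (A.mem_nonunits_iff_exists_mem_maximalIdeal
        (a := ((q : ℕ) : AlgebraicClosure ℚ))).1 hA
      exact hmax
    have h1 : IsLocalRing.residue ↥A ⟨((q : ℕ) : AlgebraicClosure ℚ), hqA⟩ = 0 :=
      (IsLocalRing.residue_eq_zero_iff _).2 hmem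
    have h2 : (⟨((q : ℕ) : AlgebraicClosure ℚ), hqA⟩ : ↥A) = ((q : ℕ) : ↥A) := Subtype.ext (by simp)
    rw [h2, map_natCast] at h1
    exact h1
  have hco : Nat.Coprime n q := ((Nat.Prime.coprime_iff_not_dvd hq).2 hn).symm
  obtain ⟨u, v, huv⟩ := Nat.isCoprime_iff_coprime.2 hco
  have h1 : ((u * (n : ℤ) + v * (q : ℤ) : ℤ) : kV A) = 1 := by rw [huv]; simp
  push_cast at h1
  rw [h0, hq0, mul_zero, mul_zero, add_zero] at h1
  exact zero_ne_one h1

/-- **(B1), Kummer form, from the abstract theorem ABS and the modular datum.** -/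
theorem b1core_of_ABS (N : ℕ) {q : ℕ} (hABS : Stmt_ABS) (hq : q.Prime)
    (hS : Stmt_ModSSD N q) : Stmt_B1core N q := by
  intro A hA σ hσ n hn f hres hdiv
  obtain ⟨F₁, F₂, iF₁, iA₁, iF₂, iA₂, S, hFF, hFF₁, hFF₂, g, g₁, g₂, c, c₁, c₂, hg, hg₁, hg₂,
    hnum, hV, hred, hin⟩ := hS A hA
  have : IsAlgClosed (kV A) := isAlgClosed_kV A
  have hf : ((f : ↥(gaussV A N)) : ↥(FNbar N)) ∈ S.c₁.V := hV _ f.2
  exact hABS (AlgebraicClosure ℚ) ↥(FNbar N) (kV A) F₁ F₂ S hFF hFF₁ hFF₂ g g₁ g₂ c c₁ c₂ hg hg₁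
    hg₂ hnum n (natCast_kV_ne_zero A hq hA hn) (galF N σ) (hin σ hσ)
    ((f : ↥(gaussV A N)) : ↥(FNbar N)) hf (hred f hf hres) hdiv

/-- **(UNIP) from ABS and the modular data.** -/
theorem torsUnip_of_ABS (N : ℕ) [NeZero N] {p : ℕ} (hp : p.Prime) (hABS : Stmt_ABS)
    (hS : ∀ q : ℕ, q.Prime → q ∣ N → ¬ q ^ 2 ∣ N → q ≠ p → Stmt_ModSSD N q) :
    Stmt_TorsUnip N p :=
  torsUnip_of_B1core N hp (fun q hq hqN hq2 hqp =>
    b1core_of_ABS N hABS hq (hS q hq hqN hq2 hqp))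

end Fermat.Agent.BAD.H91

end
end
-- ==== END Fermat.Agent.BAD.H91_Assemble

-- ==== BEGIN Fermat.Agent.Betti.H76_MatrixRep
section

/-!
# Betti-Hecke, part B4-a: the Hecke algebra as a ring of integer matrices

`stmt_matrixRep : Stmt_matrixRep`: in a universal basis `b` of the parabolic homomorphisms the
Hecke algebra `heckeAlgebra N 2 S` is represented faithfully by integer matrices, the generators
`T_ℓ`, `U_q` going to the matrices of the Betti operators `TB`, `UB`.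

Route: `ρ : heckeAlgebra N 2 S →+* End_ℤ (Hom_par(Γ₀(N), ℤ))` is the factorisation of the word map
`wordBL` through the surjection `wordS` (`wordB_int_eq_zero_of_wordS`); it is injective by
`wordS_eq_zero_iff_int'`; then take matrices in the basis `b`.
-/

set_option autoImplicit false

open CongruenceSubgroup ModularCurve ModularCurve.Period
open scoped MatrixGroups

namespace Fermat.Agent.Betti.H76

section

variable (N : ℕ) [NeZero N] (S : Set ℕ)

/-- Constructor for Hecke generator indices. -/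
def mkGen {S : Set ℕ} (l : ℕ) (hl : l.Prime) (hlS : l ∉ S) : Gen S := ⟨l, hl, hlS⟩

/-- `Hom_par(Γ₀(N), ℤ)`. -/
abbrev ParZ : Submodule ℤ (Additive (Gamma0 N) →+ ℤ) := parabolicHoms ℤ (Gamma0 N) ℤ

/-- The Betti generator restricted to `Hom_par(Γ₀(N), ℤ)`. -/
noncomputable def genBL (l : Gen S) : Module.End ℤ (ParZ N) :=
  (genB N S ℤ l).restrict (fun _ hφ => genB_mem_parabolicHoms N S ℤ l hφ)

/-- The Betti word operators restricted to `Hom_par(Γ₀(N), ℤ)`. -/
noncomputable def wordBL : FreeAlgebra ℤ (Gen S) →ₐ[ℤ] Module.End ℤ (ParZ N) :=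
  FreeAlgebra.lift ℤ (genBL N S)

theorem wordBL_coe (w : FreeAlgebra ℤ (Gen S)) (φ : ParZ N) :
    ((wordBL N S w φ : ParZ N) : Additive (Gamma0 N) →+ ℤ) = wordB N S ℤ w φ := by
  induction w using FreeAlgebra.induction generalizing φ with
  | grade0 r =>
    rw [AlgHom.commutes, AlgHom.commutes, Module.algebraMap_end_apply,
      Module.algebraMap_end_apply, Submodule.coe_smul]
  | grade1 l =>
    rw [wordB_ι]
    simp only [wordBL, FreeAlgebra.lift_ι_apply]
    rfl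
  | mul a c iha ihc =>
    rw [map_mul, map_mul, Module.End.mul_apply, Module.End.mul_apply, iha, ihc]
  | add a c iha ihc =>
    rw [map_add, map_add, LinearMap.add_apply, LinearMap.add_apply, Submodule.coe_add, iha, ihc]

/-- `wordS` as a surjection onto the Hecke algebra. -/
noncomputable def wordSH : FreeAlgebra ℤ (Gen S) →ₐ[ℤ] CuspForm.heckeAlgebra N 2 S :=
  (wordS N S).codRestrict (CuspForm.heckeAlgebra N 2 S) (wordS_mem_heckeAlgebra N S)

theorem wordSH_coe (w : FreeAlgebra ℤ (Gen S)) :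
    ((wordSH N S w : CuspForm.heckeAlgebra N 2 S) :
      Module.End ℂ (CuspForm (Gamma0 N) 2)) = wordS N S w := rfl

theorem wordSH_surjective : Function.Surjective (wordSH N S) := by
  rintro ⟨t, ht⟩
  obtain ⟨w, hw⟩ := exists_word_of_mem_heckeAlgebra N S ht
  exact ⟨w, Subtype.ext hw⟩

theorem wordSH_eq_zero_iff (w : FreeAlgebra ℤ (Gen S)) : wordSH N S w = 0 ↔ wordS N S w = 0 := by
  rw [← wordSH_coe]
  exact ⟨fun h => by rw [h]; rfl, fun h => Subtype.ext h⟩

theorem wordBL_eq_zero_iff (w : FreeAlgebra ℤ (Gen S)) : wordBL N S w = 0 ↔ wordS N S w = 0 := by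
  rw [wordS_eq_zero_iff_int']
  constructor
  · intro h φ hφ
    have := congrArg (fun f : Module.End ℤ (ParZ N) =>
      ((f ⟨φ, hφ⟩ : ParZ N) : Additive (Gamma0 N) →+ ℤ)) h
    simpa [wordBL_coe] using this
  · intro h
    ext1 φ
    apply Subtype.ext
    rw [wordBL_coe]
    exact h φ.1 φ.2

theorem ker_wordSH_le : RingHom.ker (wordSH N S).toRingHom ≤ RingHom.ker (wordBL N S).toRingHom := by
  intro w hw
  rw [RingHom.mem_ker] at hw ⊢
  exact (wordBL_eq_zero_iff N S w).mpr ((wordSH_eq_zero_iff N S w).mp hw)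

/-- The action of the Hecke algebra on `Hom_par(Γ₀(N), ℤ)`. -/
noncomputable def heckeRho : CuspForm.heckeAlgebra N 2 S →+* Module.End ℤ (ParZ N) :=
  RingHom.liftOfSurjective (wordSH N S).toRingHom (wordSH_surjective N S)
    ⟨(wordBL N S).toRingHom, ker_wordSH_le N S⟩

theorem heckeRho_wordSH (w : FreeAlgebra ℤ (Gen S)) :
    heckeRho N S (wordSH N S w) = wordBL N S w :=
  RingHom.liftOfRightInverse_comp_apply _ _ _ _ w

theorem heckeRho_injective : Function.Injective (heckeRho N S) := by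
  rw [injective_iff_map_eq_zero]
  intro t ht
  obtain ⟨w, rfl⟩ := wordSH_surjective N S t
  rw [heckeRho_wordSH] at ht
  exact (wordSH_eq_zero_iff N S w).mpr ((wordBL_eq_zero_iff N S w).mp ht)

theorem heckeRho_T {ℓ : ℕ} (hℓ : ℓ.Prime) (hℓN : ¬ ℓ ∣ N) (hℓS : ℓ ∉ S) (φ : ParZ N) :
    ((heckeRho N S (CuspForm.heckeAlgebra.T hℓ hℓN hℓS) φ : ParZ N) :
      Additive (Gamma0 N) →+ ℤ) = TB N ℤ hℓ hℓN φ := by
  have h1 : wordSH N S (FreeAlgebra.ι ℤ (mkGen ℓ hℓ hℓS : Gen S))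
      = CuspForm.heckeAlgebra.T hℓ hℓN hℓS := by
    apply Subtype.ext
    rw [wordSH_coe, wordS_ι, CuspForm.heckeAlgebra.coe_T]
    unfold genS
    rw [dif_neg (show ¬ (mkGen ℓ hℓ hℓS : Gen S).1 ∣ N from hℓN)]
    rfl
  rw [← h1, heckeRho_wordSH, wordBL_coe, wordB_ι]
  unfold genB
  rw [dif_neg (show ¬ (mkGen ℓ hℓ hℓS : Gen S).1 ∣ N from hℓN)]
  rfl

theorem heckeRho_U {q : ℕ} (hq : q.Prime) (hqN : q ∣ N) (hqS : q ∉ S) (φ : ParZ N) :
    ((heckeRho N S (CuspForm.heckeAlgebra.U hq hqN hqS) φ : ParZ N) :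
      Additive (Gamma0 N) →+ ℤ) = UB N ℤ hqN φ := by
  have h1 : wordSH N S (FreeAlgebra.ι ℤ (mkGen q hq hqS : Gen S))
      = CuspForm.heckeAlgebra.U hq hqN hqS := by
    apply Subtype.ext
    rw [wordSH_coe, wordS_ι, CuspForm.heckeAlgebra.coe_U]
    unfold genS
    rw [dif_pos (show (mkGen q hq hqS : Gen S).1 ∣ N from hqN)]
    rfl
  rw [← h1, heckeRho_wordSH, wordBL_coe, wordB_ι]
  unfold genB
  rw [dif_pos (show (mkGen q hq hqS : Gen S).1 ∣ N from hqN)]
  rfl

end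

section Basis

variable {N : ℕ} [NeZero N] {r : ℕ} {b : Fin r → (Additive (Gamma0 N) →+ ℤ)}

/-- A universal basis is a basis of `Hom_par(Γ₀(N), ℤ)`. -/
noncomputable def parBasis (hb : IsParBasis N b) : Module.Basis (Fin r) ℤ (ParZ N) :=
  Module.Basis.mk (v := fun i => (⟨b i, hb.1 i⟩ : ParZ N))
    (by
      rw [Fintype.linearIndependent_iff]
      intro g hg
      obtain ⟨a, -, ha⟩ := hb.2 ℤ (0 : Additive (Gamma0 N) →+ ℤ) (fun _ _ => rfl)
      have h1 : g = a := by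
        apply ha
        intro γ
        have h2 := congrArg (fun φ : ParZ N => (φ : Additive (Gamma0 N) →+ ℤ) γ) hg
        simp only [Submodule.coe_sum, Submodule.coe_smul, AddMonoidHom.coe_finsetSum,
          Finset.sum_apply, AddMonoidHom.coe_smul, Pi.smul_apply, smul_eq_mul,
          ZeroMemClass.coe_zero, AddMonoidHom.zero_apply] at h2
        rw [AddMonoidHom.zero_apply, ← h2]
        exact Finset.sum_congr rfl fun i _ => by rw [smul_eq_mul, mul_comm]
      have h3 : (0 : Fin r → ℤ) = a := by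
        apply ha
        intro γ
        simp
      intro i
      rw [h1, ← h3]
      rfl)
    (by
      rintro ⟨φ, hφ⟩ -
      obtain ⟨a, ha, -⟩ := hb.2 ℤ φ hφ
      have : (⟨φ, hφ⟩ : ParZ N) = ∑ i, a i • (⟨b i, hb.1 i⟩ : ParZ N) := by
        apply Subtype.ext
        refine AddMonoidHom.ext fun γ => ?_
        simp only [Submodule.coe_sum, Submodule.coe_smul, AddMonoidHom.coe_finsetSum,
          Finset.sum_apply, AddMonoidHom.coe_smul, Pi.smul_apply, smul_eq_mul]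
        rw [ha γ]
        exact Finset.sum_congr rfl fun i _ => by rw [smul_eq_mul, mul_comm]
      rw [this]
      exact Submodule.sum_mem _ fun i _ =>
        Submodule.smul_mem _ _ (Submodule.subset_span ⟨i, rfl⟩))

omit [NeZero N] in
theorem parBasis_apply (hb : IsParBasis N b) (i : Fin r) :
    ((parBasis hb i : ParZ N) : Additive (Gamma0 N) →+ ℤ) = b i := by
  simp [parBasis]

end Basis

/-- **B4-a**: the matrix representation of the Hecke algebra. -/
theorem stmt_matrixRep : Stmt_matrixRep := by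
  intro N _ S r b hb
  classical
  let B := parBasis hb
  let E : Module.End ℤ (ParZ N) ≃ₐ[ℤ] Matrix (Fin r) (Fin r) ℤ := LinearMap.toMatrixAlgEquiv B
  refine ⟨E.toAlgHom.toRingHom.comp (heckeRho N S), ?_, ?_, ?_⟩
  · exact E.injective.comp (heckeRho_injective N S)
  · intro ℓ hℓ hℓN hℓS j
    have h1 := heckeRho_T N S hℓ hℓN hℓS (B j)
    rw [parBasis_apply] at h1
    rw [← h1]
    have h2 := B.sum_repr (heckeRho N S (CuspForm.heckeAlgebra.T hℓ hℓN hℓS) (B j))
    have h3 := congrArg (fun φ : ParZ N => (φ : Additive (Gamma0 N) →+ ℤ)) h2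
    simp only [Submodule.coe_sum, Submodule.coe_smul] at h3
    rw [← h3]
    refine Finset.sum_congr rfl fun i _ => ?_
    rw [parBasis_apply]
    show _ = (LinearMap.toMatrixAlgEquiv B
      (heckeRho N S (CuspForm.heckeAlgebra.T hℓ hℓN hℓS))) i j • b i
    rw [LinearMap.toMatrixAlgEquiv_apply]
  · intro q hq hqN hqS j
    have h1 := heckeRho_U N S hq hqN hqS (B j)
    rw [parBasis_apply] at h1
    rw [← h1]
    have h2 := B.sum_repr (heckeRho N S (CuspForm.heckeAlgebra.U hq hqN hqS) (B j))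
    have h3 := congrArg (fun φ : ParZ N => (φ : Additive (Gamma0 N) →+ ℤ)) h2
    simp only [Submodule.coe_sum, Submodule.coe_smul] at h3
    rw [← h3]
    refine Finset.sum_congr rfl fun i _ => ?_
    rw [parBasis_apply]
    show _ = (LinearMap.toMatrixAlgEquiv B
      (heckeRho N S (CuspForm.heckeAlgebra.U hq hqN hqS))) i j • b i
    rw [LinearMap.toMatrixAlgEquiv_apply]

end Fermat.Agent.Betti.H76

end
-- ==== END Fermat.Agent.Betti.H76_MatrixRep

-- ==== BEGIN Fermat.Agent.GTor.Clo.Val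
section

/-!
# S24 construction, layer 6 (WP CLO-Val): the valuations of the Galois closure

* `wN N τ`  : order of vanishing at `τ ∈ ℍ`;
* `winfN N` : order at the cusp `∞` in `u = exp (2 π i τ / N)`.

(WP CLO-Val: `winfN` part by helper1, `wN` part by helper23.)
-/

set_option autoImplicit false

noncomputable section

namespace Fermat.Agent.GTor.Clo

open Fermat.Agent.S24

open ModularCurve UpperHalfPlane WithZero
open scoped MatrixGroups Manifold

/-- The inclusion `AT N → Hol`. -/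
def valAT (N : ℕ) : _root_.Fermat.Agent.GTor.Clo.AT N →+* Hol := (_root_.Fermat.Agent.GTor.Clo.Atil N).val.toRingHom.comp (_root_.Fermat.Agent.GTor.Clo.toAT N).symm.toAlgHom.toRingHom

theorem valAT_injective (N : ℕ) : Function.Injective (_root_.Fermat.Agent.GTor.Clo.valAT N) := by
  intro f g h
  have h' : ((_root_.Fermat.Agent.GTor.Clo.toAT N).symm f : Hol) = ((_root_.Fermat.Agent.GTor.Clo.toAT N).symm g : Hol) := h
  exact (_root_.Fermat.Agent.GTor.Clo.toAT N).symm.injective (Subtype.ext h')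

theorem valAT_smul (N : ℕ) (γ : SL(2, ℤ)) (f : _root_.Fermat.Agent.GTor.Clo.AT N) : _root_.Fermat.Agent.GTor.Clo.valAT N (γ • f) = γ • _root_.Fermat.Agent.GTor.Clo.valAT N f := rfl

theorem valAT_algebraMap (N : ℕ) (c : _root_.Fermat.Agent.GTor.Clo.Kbar) :
    _root_.Fermat.Agent.GTor.Clo.valAT N (algebraMap _root_.Fermat.Agent.GTor.Clo.Kbar (_root_.Fermat.Agent.GTor.Clo.AT N) c) = algebraMap _root_.Fermat.Agent.GTor.Clo.Kbar Hol c := rfl

theorem valAT_jT_apply (N : ℕ) (τ : ℍ) : ((_root_.Fermat.Agent.GTor.Clo.valAT N (_root_.Fermat.Agent.GTor.Clo.jT N) : Hol) : ℍ → ℂ) τ = jAn τ := by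
  show (((_root_.Fermat.Agent.GTor.Clo.toAT N).symm (_root_.Fermat.Agent.GTor.Clo.toAT N (_root_.Fermat.Agent.GTor.Clo.jA N)) : _root_.Fermat.Agent.GTor.Clo.Atil N) : ℍ → ℂ) τ = jAn τ
  rw [AlgEquiv.symm_apply_apply]
  exact _root_.Fermat.Agent.GTor.Clo.jA_apply N τ

def wAT (N : ℕ) (τ : ℍ) : Valuation (_root_.Fermat.Agent.GTor.Clo.AT N) ℤᵐ⁰ := (Hol.ordVal τ).comap (_root_.Fermat.Agent.GTor.Clo.valAT N)

theorem wAT_apply (N : ℕ) (τ : ℍ) (f : _root_.Fermat.Agent.GTor.Clo.AT N) : _root_.Fermat.Agent.GTor.Clo.wAT N τ f = Hol.ordVal τ (_root_.Fermat.Agent.GTor.Clo.valAT N f) := rfl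

theorem wAT_ne_zero (N : ℕ) (τ : ℍ) {f : _root_.Fermat.Agent.GTor.Clo.AT N} (hf : f ≠ 0) : _root_.Fermat.Agent.GTor.Clo.wAT N τ f ≠ 0 := by
  rw [_root_.Fermat.Agent.GTor.Clo.wAT_apply]
  have h : _root_.Fermat.Agent.GTor.Clo.valAT N f ≠ 0 := fun h0 => hf (_root_.Fermat.Agent.GTor.Clo.valAT_injective N (by rw [h0, map_zero]))
  rw [Hol.ordVal_apply τ h]
  exact WithZero.exp_ne_zero

theorem nonZeroDivisors_le_wAT (N : ℕ) (τ : ℍ) :
    nonZeroDivisors (_root_.Fermat.Agent.GTor.Clo.AT N) ≤ (_root_.Fermat.Agent.GTor.Clo.wAT N τ).supp.primeCompl := by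
  intro f hf
  have hf0 : f ≠ 0 := nonZeroDivisors.ne_zero hf
  show f ∉ (_root_.Fermat.Agent.GTor.Clo.wAT N τ).supp
  rw [Valuation.mem_supp_iff]
  exact _root_.Fermat.Agent.GTor.Clo.wAT_ne_zero N τ hf0

def wN (N : ℕ) (τ : ℍ) : Valuation (_root_.Fermat.Agent.GTor.Clo.LN N) ℤᵐ⁰ :=
  (_root_.Fermat.Agent.GTor.Clo.wAT N τ).extendToLocalization (_root_.Fermat.Agent.GTor.Clo.nonZeroDivisors_le_wAT N τ) (_root_.Fermat.Agent.GTor.Clo.LN N)

theorem wN_algebraMap_AT (N : ℕ) (τ : ℍ) (f : _root_.Fermat.Agent.GTor.Clo.AT N) :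
    _root_.Fermat.Agent.GTor.Clo.wN N τ (algebraMap (_root_.Fermat.Agent.GTor.Clo.AT N) (_root_.Fermat.Agent.GTor.Clo.LN N) f) = _root_.Fermat.Agent.GTor.Clo.wAT N τ f :=
  Valuation.extendToLocalization_apply_map_apply _ _ _ f

theorem wN_algebraMap (N : ℕ) (τ : ℍ) (c : _root_.Fermat.Agent.GTor.Clo.Kbar) (hc : c ≠ 0) :
    _root_.Fermat.Agent.GTor.Clo.wN N τ (algebraMap _root_.Fermat.Agent.GTor.Clo.Kbar (_root_.Fermat.Agent.GTor.Clo.LN N) c) = 1 := by
  rw [IsScalarTower.algebraMap_apply _root_.Fermat.Agent.GTor.Clo.Kbar (_root_.Fermat.Agent.GTor.Clo.AT N) (_root_.Fermat.Agent.GTor.Clo.LN N), _root_.Fermat.Agent.GTor.Clo.wN_algebraMap_AT, _root_.Fermat.Agent.GTor.Clo.wAT_apply]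
  have h1 : _root_.Fermat.Agent.GTor.Clo.valAT N (algebraMap _root_.Fermat.Agent.GTor.Clo.Kbar (_root_.Fermat.Agent.GTor.Clo.AT N) c) = algebraMap ℂ Hol (_root_.Fermat.Agent.GTor.Clo.iotaC c) := rfl
  rw [h1]
  exact Hol.ordVal_algebraMap τ (by
    intro h0
    exact hc (_root_.Fermat.Agent.GTor.Clo.iotaC.injective (by rw [h0, map_zero])))

theorem wN_piN_AT (N : ℕ) [NeZero N] (τ : ℍ) (γ : SL(2, ℤ)) (f : _root_.Fermat.Agent.GTor.Clo.AT N) :
    _root_.Fermat.Agent.GTor.Clo.wN N τ (_root_.Fermat.Agent.GTor.Clo.piN N γ (algebraMap (_root_.Fermat.Agent.GTor.Clo.AT N) (_root_.Fermat.Agent.GTor.Clo.LN N) f)) = _root_.Fermat.Agent.GTor.Clo.wN N (γ⁻¹ • τ) (algebraMap (_root_.Fermat.Agent.GTor.Clo.AT N) (_root_.Fermat.Agent.GTor.Clo.LN N) f) := by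
  rw [_root_.Fermat.Agent.GTor.Clo.piN_algebraMap, _root_.Fermat.Agent.GTor.Clo.wN_algebraMap_AT, _root_.Fermat.Agent.GTor.Clo.wN_algebraMap_AT, _root_.Fermat.Agent.GTor.Clo.wAT_apply, _root_.Fermat.Agent.GTor.Clo.wAT_apply]
  exact Hol.ordVal_smul τ γ (_root_.Fermat.Agent.GTor.Clo.valAT N f)

theorem wN_piN (N : ℕ) [NeZero N] (τ : ℍ) (γ : SL(2, ℤ)) (y : _root_.Fermat.Agent.GTor.Clo.LN N) :
    _root_.Fermat.Agent.GTor.Clo.wN N τ (_root_.Fermat.Agent.GTor.Clo.piN N γ y) = _root_.Fermat.Agent.GTor.Clo.wN N (γ⁻¹ • τ) y := by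
  obtain ⟨f, g, -, hy⟩ := IsFractionRing.div_surjective (A := _root_.Fermat.Agent.GTor.Clo.AT N) y
  subst hy
  calc _root_.Fermat.Agent.GTor.Clo.wN N τ (_root_.Fermat.Agent.GTor.Clo.piN N γ (algebraMap (_root_.Fermat.Agent.GTor.Clo.AT N) (_root_.Fermat.Agent.GTor.Clo.LN N) f / algebraMap (_root_.Fermat.Agent.GTor.Clo.AT N) (_root_.Fermat.Agent.GTor.Clo.LN N) g))
      = _root_.Fermat.Agent.GTor.Clo.wN N τ (_root_.Fermat.Agent.GTor.Clo.piN N γ (algebraMap (_root_.Fermat.Agent.GTor.Clo.AT N) (_root_.Fermat.Agent.GTor.Clo.LN N) f) / _root_.Fermat.Agent.GTor.Clo.piN N γ (algebraMap (_root_.Fermat.Agent.GTor.Clo.AT N) (_root_.Fermat.Agent.GTor.Clo.LN N) g)) :=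
        congrArg _ (map_div₀ (_root_.Fermat.Agent.GTor.Clo.piN N γ) _ _)
    _ = _root_.Fermat.Agent.GTor.Clo.wN N τ (_root_.Fermat.Agent.GTor.Clo.piN N γ (algebraMap (_root_.Fermat.Agent.GTor.Clo.AT N) (_root_.Fermat.Agent.GTor.Clo.LN N) f)) /
          _root_.Fermat.Agent.GTor.Clo.wN N τ (_root_.Fermat.Agent.GTor.Clo.piN N γ (algebraMap (_root_.Fermat.Agent.GTor.Clo.AT N) (_root_.Fermat.Agent.GTor.Clo.LN N) g)) := map_div₀ (_root_.Fermat.Agent.GTor.Clo.wN N τ) _ _
    _ = _root_.Fermat.Agent.GTor.Clo.wN N (γ⁻¹ • τ) (algebraMap (_root_.Fermat.Agent.GTor.Clo.AT N) (_root_.Fermat.Agent.GTor.Clo.LN N) f) /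
          _root_.Fermat.Agent.GTor.Clo.wN N (γ⁻¹ • τ) (algebraMap (_root_.Fermat.Agent.GTor.Clo.AT N) (_root_.Fermat.Agent.GTor.Clo.LN N) g) :=
        congrArg₂ (· / ·) (_root_.Fermat.Agent.GTor.Clo.wN_piN_AT N τ γ f) (_root_.Fermat.Agent.GTor.Clo.wN_piN_AT N τ γ g)
    _ = _root_.Fermat.Agent.GTor.Clo.wN N (γ⁻¹ • τ) (algebraMap (_root_.Fermat.Agent.GTor.Clo.AT N) (_root_.Fermat.Agent.GTor.Clo.LN N) f / algebraMap (_root_.Fermat.Agent.GTor.Clo.AT N) (_root_.Fermat.Agent.GTor.Clo.LN N) g) :=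
        (map_div₀ (_root_.Fermat.Agent.GTor.Clo.wN N (γ⁻¹ • τ)) _ _).symm

theorem valAT_j_sub_apply (N : ℕ) (a : _root_.Fermat.Agent.GTor.Clo.Kbar) (z : ℍ) :
    ((_root_.Fermat.Agent.GTor.Clo.valAT N (_root_.Fermat.Agent.GTor.Clo.jT N - algebraMap _root_.Fermat.Agent.GTor.Clo.Kbar (_root_.Fermat.Agent.GTor.Clo.AT N) a) : Hol) : ℍ → ℂ) z = jAn z - _root_.Fermat.Agent.GTor.Clo.iotaC a := by
  have h1 : _root_.Fermat.Agent.GTor.Clo.valAT N (_root_.Fermat.Agent.GTor.Clo.jT N - algebraMap _root_.Fermat.Agent.GTor.Clo.Kbar (_root_.Fermat.Agent.GTor.Clo.AT N) a)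
      = _root_.Fermat.Agent.GTor.Clo.valAT N (_root_.Fermat.Agent.GTor.Clo.jT N) - _root_.Fermat.Agent.GTor.Clo.valAT N (algebraMap _root_.Fermat.Agent.GTor.Clo.Kbar (_root_.Fermat.Agent.GTor.Clo.AT N) a) := RingHom.map_sub _ _ _
  rw [h1]
  show ((_root_.Fermat.Agent.GTor.Clo.valAT N (_root_.Fermat.Agent.GTor.Clo.jT N) : Hol) : ℍ → ℂ) z - _root_.Fermat.Agent.GTor.Clo.iotaC a = _
  rw [_root_.Fermat.Agent.GTor.Clo.valAT_jT_apply]

theorem valAT_j_sub_ne_zero (N : ℕ) (a : _root_.Fermat.Agent.GTor.Clo.Kbar) :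
    _root_.Fermat.Agent.GTor.Clo.valAT N (_root_.Fermat.Agent.GTor.Clo.jT N - algebraMap _root_.Fermat.Agent.GTor.Clo.Kbar (_root_.Fermat.Agent.GTor.Clo.AT N) a) ≠ 0 := by
  intro h0
  obtain ⟨z, hz⟩ := jAn_surjective (_root_.Fermat.Agent.GTor.Clo.iotaC a + 1)
  have := _root_.Fermat.Agent.GTor.Clo.valAT_j_sub_apply N a z
  rw [h0, hz] at this
  have h2 : ((0 : Hol) : ℍ → ℂ) z = 0 := rfl
  rw [h2] at this
  simp at this

theorem wAT_j (N : ℕ) (τ : ℍ) (a : _root_.Fermat.Agent.GTor.Clo.Kbar) (h : _root_.Fermat.Agent.GTor.Clo.iotaC a = jAn τ) :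
    _root_.Fermat.Agent.GTor.Clo.wAT N τ (_root_.Fermat.Agent.GTor.Clo.jT N - algebraMap _root_.Fermat.Agent.GTor.Clo.Kbar (_root_.Fermat.Agent.GTor.Clo.AT N) a) = exp (-(jOrd τ : ℤ)) := by
  rw [_root_.Fermat.Agent.GTor.Clo.wAT_apply, Hol.ordVal_apply τ (_root_.Fermat.Agent.GTor.Clo.valAT_j_sub_ne_zero N a)]
  have key : Hol.ordNat τ (_root_.Fermat.Agent.GTor.Clo.valAT N (_root_.Fermat.Agent.GTor.Clo.jT N - algebraMap _root_.Fermat.Agent.GTor.Clo.Kbar (_root_.Fermat.Agent.GTor.Clo.AT N) a)) = jOrd τ := by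
    unfold Hol.ordNat jOrd
    have hfun : (((_root_.Fermat.Agent.GTor.Clo.valAT N (_root_.Fermat.Agent.GTor.Clo.jT N - algebraMap _root_.Fermat.Agent.GTor.Clo.Kbar (_root_.Fermat.Agent.GTor.Clo.AT N) a) : Hol) : ℍ → ℂ) ∘ ofComplex)
        = fun z : ℂ => jAn (ofComplex z) - jAn τ := by
      funext z
      show ((_root_.Fermat.Agent.GTor.Clo.valAT N (_root_.Fermat.Agent.GTor.Clo.jT N - algebraMap _root_.Fermat.Agent.GTor.Clo.Kbar (_root_.Fermat.Agent.GTor.Clo.AT N) a) : Hol) : ℍ → ℂ) (ofComplex z) = _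
      rw [_root_.Fermat.Agent.GTor.Clo.valAT_j_sub_apply, h]
    rw [hfun]
  rw [key]

theorem algebraMap_tE_sub (N : ℕ) [NeZero N] (a : _root_.Fermat.Agent.GTor.Clo.Kbar) :
    algebraMap _root_.Fermat.Agent.GTor.Clo.EN (_root_.Fermat.Agent.GTor.Clo.LN N) (_root_.Fermat.Agent.GTor.Clo.tE - algebraMap _root_.Fermat.Agent.GTor.Clo.Kbar _root_.Fermat.Agent.GTor.Clo.EN a)
      = algebraMap (_root_.Fermat.Agent.GTor.Clo.AT N) (_root_.Fermat.Agent.GTor.Clo.LN N) (_root_.Fermat.Agent.GTor.Clo.jT N - algebraMap _root_.Fermat.Agent.GTor.Clo.Kbar (_root_.Fermat.Agent.GTor.Clo.AT N) a) := by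
  have h1 : algebraMap _root_.Fermat.Agent.GTor.Clo.EN (_root_.Fermat.Agent.GTor.Clo.LN N) (_root_.Fermat.Agent.GTor.Clo.tE - algebraMap _root_.Fermat.Agent.GTor.Clo.Kbar _root_.Fermat.Agent.GTor.Clo.EN a)
      = algebraMap _root_.Fermat.Agent.GTor.Clo.EN (_root_.Fermat.Agent.GTor.Clo.LN N) _root_.Fermat.Agent.GTor.Clo.tE - algebraMap _root_.Fermat.Agent.GTor.Clo.EN (_root_.Fermat.Agent.GTor.Clo.LN N) (algebraMap _root_.Fermat.Agent.GTor.Clo.Kbar _root_.Fermat.Agent.GTor.Clo.EN a) :=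
    RingHom.map_sub _ _ _
  have h2 : algebraMap (_root_.Fermat.Agent.GTor.Clo.AT N) (_root_.Fermat.Agent.GTor.Clo.LN N) (_root_.Fermat.Agent.GTor.Clo.jT N - algebraMap _root_.Fermat.Agent.GTor.Clo.Kbar (_root_.Fermat.Agent.GTor.Clo.AT N) a)
      = algebraMap (_root_.Fermat.Agent.GTor.Clo.AT N) (_root_.Fermat.Agent.GTor.Clo.LN N) (_root_.Fermat.Agent.GTor.Clo.jT N) - algebraMap (_root_.Fermat.Agent.GTor.Clo.AT N) (_root_.Fermat.Agent.GTor.Clo.LN N) (algebraMap _root_.Fermat.Agent.GTor.Clo.Kbar (_root_.Fermat.Agent.GTor.Clo.AT N) a) :=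
    RingHom.map_sub _ _ _
  have h3 : algebraMap _root_.Fermat.Agent.GTor.Clo.EN (_root_.Fermat.Agent.GTor.Clo.LN N) (algebraMap _root_.Fermat.Agent.GTor.Clo.Kbar _root_.Fermat.Agent.GTor.Clo.EN a) = algebraMap _root_.Fermat.Agent.GTor.Clo.Kbar (_root_.Fermat.Agent.GTor.Clo.LN N) a :=
    (IsScalarTower.algebraMap_apply _root_.Fermat.Agent.GTor.Clo.Kbar _root_.Fermat.Agent.GTor.Clo.EN (_root_.Fermat.Agent.GTor.Clo.LN N) a).symm
  have h4 : algebraMap (_root_.Fermat.Agent.GTor.Clo.AT N) (_root_.Fermat.Agent.GTor.Clo.LN N) (algebraMap _root_.Fermat.Agent.GTor.Clo.Kbar (_root_.Fermat.Agent.GTor.Clo.AT N) a) = algebraMap _root_.Fermat.Agent.GTor.Clo.Kbar (_root_.Fermat.Agent.GTor.Clo.LN N) a :=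
    (IsScalarTower.algebraMap_apply _root_.Fermat.Agent.GTor.Clo.Kbar (_root_.Fermat.Agent.GTor.Clo.AT N) (_root_.Fermat.Agent.GTor.Clo.LN N) a).symm
  rw [h1, h2, h3, h4, _root_.Fermat.Agent.GTor.Clo.tE_map_LN]

theorem wN_j (N : ℕ) [NeZero N] (τ : ℍ) (a : _root_.Fermat.Agent.GTor.Clo.Kbar) (h : _root_.Fermat.Agent.GTor.Clo.iotaC a = jAn τ) :
    _root_.Fermat.Agent.GTor.Clo.wN N τ (algebraMap _root_.Fermat.Agent.GTor.Clo.EN (_root_.Fermat.Agent.GTor.Clo.LN N) (_root_.Fermat.Agent.GTor.Clo.tE - algebraMap _root_.Fermat.Agent.GTor.Clo.Kbar _root_.Fermat.Agent.GTor.Clo.EN a)) = exp (-(jOrd τ : ℤ)) := by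
  rw [_root_.Fermat.Agent.GTor.Clo.algebraMap_tE_sub, _root_.Fermat.Agent.GTor.Clo.wN_algebraMap_AT]
  exact _root_.Fermat.Agent.GTor.Clo.wAT_j N τ a h

/-- The order at the cusp `∞` (in `u = exp (2 π i τ / N)`), on the Galois closure. -/
def winfN (N : ℕ) [NeZero N] : Valuation (_root_.Fermat.Agent.GTor.Clo.LN N) ℤᵐ⁰ :=
  (Valued.v : Valuation (LaurentSeries _root_.Fermat.Agent.GTor.Clo.Kbar) ℤᵐ⁰).comap (_root_.Fermat.Agent.GTor.Clo.UL N).toRingHom

theorem winfN_apply (N : ℕ) [NeZero N] (y : _root_.Fermat.Agent.GTor.Clo.LN N) :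
    _root_.Fermat.Agent.GTor.Clo.winfN N y = (Valued.v : Valuation (LaurentSeries _root_.Fermat.Agent.GTor.Clo.Kbar) ℤᵐ⁰) (_root_.Fermat.Agent.GTor.Clo.UL N y) := rfl

/-- The valuation of a Laurent series with lowest term in degree `m`. -/
theorem laurent_valuation_eq_of_coeff {K : Type*} [Field K] (f : LaurentSeries K) (m : ℤ)
    (hm : f.coeff m ≠ 0) (hlt : ∀ n : ℤ, n < m → f.coeff n = 0) :
    (Valued.v : Valuation (LaurentSeries K) ℤᵐ⁰) f = exp (-m) := by
  apply le_antisymm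
  · exact (LaurentSeries.valuation_le_iff_coeff_lt_eq_zero K).mpr hlt
  · by_contra hcon
    rw [not_le] at hcon
    have hf0 : f ≠ 0 := fun h => hm (by rw [h]; rfl)
    have hv0 : (Valued.v : Valuation (LaurentSeries K) ℤᵐ⁰) f ≠ 0 :=
      (Valuation.ne_zero_iff _).mpr hf0
    obtain ⟨a, ha⟩ : ∃ a : ℤ, (Valued.v : Valuation (LaurentSeries K) ℤᵐ⁰) f = exp a :=
      ⟨log _, (exp_log hv0).symm⟩
    rw [ha, exp_lt_exp] at hcon
    have h1 : (Valued.v : Valuation (LaurentSeries K) ℤᵐ⁰) f ≤ exp (-(m + 1)) := by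
      rw [ha, exp_le_exp]
      omega
    exact hm ((LaurentSeries.valuation_le_iff_coeff_lt_eq_zero K).mp h1 m (by omega))

/-- Twisting by a nonzero scalar does not change the valuation. -/
theorem laurent_valuation_twist {K : Type*} [Field K] (z : K) (hz : z ≠ 0) (c : LaurentSeries K) :
    (Valued.v : Valuation (LaurentSeries K) ℤᵐ⁰) (twist z c)
      = (Valued.v : Valuation (LaurentSeries K) ℤᵐ⁰) c := by
  by_cases hc : c = 0
  · have : twist z c = 0 := by
      ext n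
      rw [twist_coeff, hc]
      simp
    rw [this, hc]
  have hm : c.coeff c.order ≠ 0 := fun h => hc (HahnSeries.coeff_order_eq_zero.mp h)
  have hlt : ∀ n : ℤ, n < c.order → c.coeff n = 0 :=
    fun n hn => HahnSeries.coeff_eq_zero_of_lt_order hn
  rw [_root_.Fermat.Agent.GTor.Clo.laurent_valuation_eq_of_coeff c c.order hm hlt,
    _root_.Fermat.Agent.GTor.Clo.laurent_valuation_eq_of_coeff (twist z c) c.order
      (by rw [twist_coeff]; exact mul_ne_zero (zpow_ne_zero _ hz) hm)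
      (fun n hn => by rw [twist_coeff, hlt n hn, mul_zero])]

theorem winfN_algebraMap (N : ℕ) [NeZero N] (c : _root_.Fermat.Agent.GTor.Clo.Kbar) (hc : c ≠ 0) :
    _root_.Fermat.Agent.GTor.Clo.winfN N (algebraMap _root_.Fermat.Agent.GTor.Clo.Kbar (_root_.Fermat.Agent.GTor.Clo.LN N) c) = 1 := by
  rw [_root_.Fermat.Agent.GTor.Clo.winfN_apply, AlgHom.commutes, algebraMap_laurentSeries_eq_single,
    _root_.Fermat.Agent.GTor.Clo.laurent_valuation_eq_of_coeff _ 0 (by rw [HahnSeries.coeff_single_same]; exact hc)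
      (fun n hn => HahnSeries.coeff_single_of_ne hn.ne)]
  simp

theorem winfN_piN_T_algebraMap (N : ℕ) [NeZero N] (f : _root_.Fermat.Agent.GTor.Clo.AT N) :
    _root_.Fermat.Agent.GTor.Clo.winfN N (_root_.Fermat.Agent.GTor.Clo.piN N ModularGroup.T (algebraMap (_root_.Fermat.Agent.GTor.Clo.AT N) (_root_.Fermat.Agent.GTor.Clo.LN N) f))
      = _root_.Fermat.Agent.GTor.Clo.winfN N (algebraMap (_root_.Fermat.Agent.GTor.Clo.AT N) (_root_.Fermat.Agent.GTor.Clo.LN N) f) := by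
  rw [_root_.Fermat.Agent.GTor.Clo.piN_algebraMap, _root_.Fermat.Agent.GTor.Clo.winfN_apply, _root_.Fermat.Agent.GTor.Clo.winfN_apply, _root_.Fermat.Agent.GTor.Clo.UL_algebraMap, _root_.Fermat.Agent.GTor.Clo.UL_algebraMap]
  have h := _root_.Fermat.Agent.GTor.Clo.uExp_T_smul N ((_root_.Fermat.Agent.GTor.Clo.toAT N).symm f)
  have e : _root_.Fermat.Agent.GTor.Clo.uExpT N (ModularGroup.T • f) = twist (_root_.Fermat.Agent.GTor.Clo.zetaK N)⁻¹ (_root_.Fermat.Agent.GTor.Clo.uExpT N f) := h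
  rw [e, _root_.Fermat.Agent.GTor.Clo.laurent_valuation_twist _ (inv_ne_zero (_root_.Fermat.Agent.GTor.Clo.zetaK_ne_zero N))]

theorem winfN_piN_T (N : ℕ) [NeZero N] (y : _root_.Fermat.Agent.GTor.Clo.LN N) :
    _root_.Fermat.Agent.GTor.Clo.winfN N (_root_.Fermat.Agent.GTor.Clo.piN N ModularGroup.T y) = _root_.Fermat.Agent.GTor.Clo.winfN N y := by
  obtain ⟨a, b, hb, rfl⟩ := IsFractionRing.div_surjective (A := _root_.Fermat.Agent.GTor.Clo.AT N) y
  rw [map_div₀, map_div₀, map_div₀, _root_.Fermat.Agent.GTor.Clo.winfN_piN_T_algebraMap, _root_.Fermat.Agent.GTor.Clo.winfN_piN_T_algebraMap]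

theorem winfN_j (N : ℕ) [NeZero N] :
    _root_.Fermat.Agent.GTor.Clo.winfN N (algebraMap _root_.Fermat.Agent.GTor.Clo.EN (_root_.Fermat.Agent.GTor.Clo.LN N) _root_.Fermat.Agent.GTor.Clo.tE⁻¹) = exp (-(N : ℤ)) := by
  rw [map_inv₀, map_inv₀, _root_.Fermat.Agent.GTor.Clo.tE_map_LN, _root_.Fermat.Agent.GTor.Clo.winfN_apply, _root_.Fermat.Agent.GTor.Clo.UL_algebraMap]
  have e : _root_.Fermat.Agent.GTor.Clo.uExpT N (_root_.Fermat.Agent.GTor.Clo.jT N) = qExpand _root_.Fermat.Agent.GTor.Clo.Kbar N _root_.Fermat.Agent.GTor.Clo.jBar := _root_.Fermat.Agent.GTor.Clo.uExp_jA N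
  rw [e, _root_.Fermat.Agent.GTor.Clo.laurent_valuation_eq_of_coeff (qExpand _root_.Fermat.Agent.GTor.Clo.Kbar N _root_.Fermat.Agent.GTor.Clo.jBar) (-(N : ℤ)) ?_ ?_, neg_neg, exp_neg]
  · have h := qExpand_coeff_mul (R := _root_.Fermat.Agent.GTor.Clo.Kbar) N _root_.Fermat.Agent.GTor.Clo.jBar (-1)
    rw [mul_neg_one] at h
    rw [h, _root_.Fermat.Agent.GTor.Clo.jBar, coeffEmb_coeff, coeff_jq_neg_one, map_one]
    exact one_ne_zero
  · intro n hn
    by_cases hdiv : (N : ℤ) ∣ n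
    · obtain ⟨k, rfl⟩ := hdiv
      have hN : (0 : ℤ) < N := by exact_mod_cast Nat.pos_of_ne_zero (NeZero.ne N)
      have hk : k < -1 := by
        by_contra hcon
        have : -(N : ℤ) ≤ N * k := by nlinarith
        omega
      rw [qExpand_coeff_mul, _root_.Fermat.Agent.GTor.Clo.jBar, coeffEmb_coeff, coeff_jq_of_lt hk, map_zero]
    · exact qExpand_coeff_of_not_dvd N _ hdiv

end Fermat.Agent.GTor.Clo

end
end
-- ==== END Fermat.Agent.GTor.Clo.Val
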