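-- GENERATED (merged mirror, NOTES/tools/trim/merge3_helper67.py): 9 modules of the originals, bodies verbatim.
import Mathlib
import Fermat.Prelude.Def_AlgebraicCurve_Correspondence
import Fermat.Agent.Zm.S35_L03_000
import Fermat.Agent.Zm.S35_L08_000
import Fermat.Agent.Zm.S35_L04_002
import Fermat.Agent.Zm.S35_L03_001
import Fermat.Agent.Zm.S35_L01_000
import Fermat.Agent.Zm.S35_L04_000
import Fermat.Agent.Zm.S35_L11_000

-- ==== BEGIN Fermat.Agent.BAD.H42_Arch
section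

/-!
# Item 65, BAD_q (helper42): rank one of a Gauss-type valuation ring from scaling + rank one of
the constants

* `isArch_of_scale` : if every non-zero function is a constant times a unit of `V` and the
  valuation is of rank one on the constants, then `V` is of rank one (`IsArch V`, the hypothesis
  of `normRed_two`);
* `vred_isArch` : the same for helper79's `VRed`, with the rank one hypothesis in the shape of
  `TotData.arch`;
* `TotData.isArch₁`, `TotData.isArch₂` : both valuation rings of a `TotData` are of rank one;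
* `TotData.not_le₁₂`, `TotData.not_le₂₁` : they are incomparable (from `sep`).

This file contains no `sorry`.
-/

set_option autoImplicit false

noncomputable section

open AlgebraicCurve

namespace Fermat.Agent.BAD.H42

open Fermat.Agent.BAD.H79

section Abs

variable {K F : Type} [Field K] [Field F] [Algebra K F]

/-- Rank one from scaling and rank one on the constants. -/
theorem isArch_of_scale (V : ValuationSubring F)
    (hscale : ∀ f : F, f ≠ 0 → ∃ c : K, c ≠ 0 ∧ V.valuation (algebraMap K F c * f) = 1)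
    (harch : ∀ c d : K, V.valuation (algebraMap K F c) < 1 → d ≠ 0 →
      ∃ m : ℕ, V.valuation (algebraMap K F (c ^ m / d)) ≤ 1) : IsArch V := by
  intro x y hx hy
  rcases eq_or_ne x 0 with rfl | hx0
  · refine ⟨1, ?_⟩
    rw [pow_one, map_zero]
    exact zero_lt_iff.2 ((Valuation.ne_zero_iff _).2 hy)
  obtain ⟨c, hc0, hc⟩ := hscale x hx0
  obtain ⟨d, hd0, hd⟩ := hscale y hy
  have hcF : algebraMap K F c ≠ 0 := by rwa [Ne, map_eq_zero]
  have hdF : algebraMap K F d ≠ 0 := by rwa [Ne, map_eq_zero]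
  have hvc : V.valuation (algebraMap K F c) ≠ 0 := (Valuation.ne_zero_iff _).2 hcF
  have hvd : V.valuation (algebraMap K F d) ≠ 0 := (Valuation.ne_zero_iff _).2 hdF
  -- `v x = v c⁻¹`, `v y = v d⁻¹`
  have hx' : V.valuation x = V.valuation (algebraMap K F c⁻¹) := by
    rw [map_mul] at hc
    rw [map_inv₀, map_inv₀]
    exact eq_inv_of_mul_eq_one_right hc
  have hy' : V.valuation y = V.valuation (algebraMap K F d⁻¹) := by
    rw [map_mul] at hd
    rw [map_inv₀, map_inv₀]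
    exact eq_inv_of_mul_eq_one_right hd
  have hci : V.valuation (algebraMap K F c⁻¹) < 1 := by rwa [← hx']
  obtain ⟨m, hm⟩ := harch c⁻¹ d⁻¹ hci (inv_ne_zero hd0)
  refine ⟨m + 1, ?_⟩
  rw [map_pow, hx', hy']
  have hdi : V.valuation (algebraMap K F d⁻¹) ≠ 0 :=
    (Valuation.ne_zero_iff _).2 (by rw [Ne, map_eq_zero]; exact inv_ne_zero hd0)
  have h1 : V.valuation (algebraMap K F c⁻¹) ^ m ≤ V.valuation (algebraMap K F d⁻¹) := by
    rw [map_div₀, map_pow, map_div₀, map_pow] at hm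
    exact (div_le_one₀ (zero_lt_iff.2 hdi)).1 hm
  have hci0 : V.valuation (algebraMap K F c⁻¹) ≠ 0 :=
    (Valuation.ne_zero_iff _).2 (by rw [Ne, map_eq_zero]; exact inv_ne_zero hc0)
  rw [pow_succ]
  calc V.valuation (algebraMap K F c⁻¹) ^ m * V.valuation (algebraMap K F c⁻¹)
      < V.valuation (algebraMap K F c⁻¹) ^ m * 1 :=
        mul_lt_mul_of_pos_left hci (zero_lt_iff.2 (pow_ne_zero m hci0))
    _ = V.valuation (algebraMap K F c⁻¹) ^ m := mul_one _
    _ ≤ _ := h1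

end Abs

section VRedForm

variable {K F k F' : Type} [Field K] [Field F] [Algebra K F] [Field k] [Field F'] [Algebra k F']

theorem vred_val_eq_one_of_red_ne_zero (B : VRed K F k F') (u : ↥B.V) (hu : B.red u ≠ 0) :
    B.V.valuation (u : F) = 1 := by
  rw [← ValuationSubring.valuation_eq_one_iff]
  by_contra hnu
  apply hu
  rw [B.red_eq_zero_iff]
  exact (IsLocalRing.mem_maximalIdeal _).2 hnu

theorem vred_red_eq_zero_of_val_lt (B : VRed K F k F') (u : ↥B.V)
    (hu : B.V.valuation (u : F) < 1) : B.red u = 0 := by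
  rw [B.red_eq_zero_iff]
  exact (ValuationSubring.valuation_lt_one_iff B.V u).2 hu

/-- A `VRed` with rank one on the constants (shape of `TotData.arch`) is of rank one. -/
theorem vred_isArch (B : VRed K F k F')
    (harch : ∀ (c d : K) (h : algebraMap K F c ∈ B.V), B.red ⟨_, h⟩ = 0 → d ≠ 0 →
      ∃ m : ℕ, algebraMap K F (c ^ m / d) ∈ B.V) : IsArch B.V := by
  refine isArch_of_scale (K := K) B.V ?_ ?_
  · intro f hf
    obtain ⟨c, hc0, h, hred⟩ := B.exists_scale f hf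
    exact ⟨c, hc0, vred_val_eq_one_of_red_ne_zero B ⟨_, h⟩ hred⟩
  · intro c d hc hd
    have hmem : algebraMap K F c ∈ B.V := (ValuationSubring.valuation_le_one_iff _ _).1 hc.le
    obtain ⟨m, hm⟩ := harch c d hmem (vred_red_eq_zero_of_val_lt B ⟨_, hmem⟩ hc) hd
    exact ⟨m, (ValuationSubring.valuation_le_one_iff _ _).2 hm⟩

end VRedForm

section Tot

variable {K L k L₁ L₂ : Type} [Field K] [Field L] [Algebra K L] [Field k] [Field L₁]
  [Algebra k L₁] [Field L₂] [Algebra k L₂] (T : TotData K L k L₁ L₂)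

/-- The first valuation ring of a `TotData` is of rank one. -/
theorem tot_isArch₁ : IsArch T.b₁.V := vred_isArch T.b₁ T.arch

/-- The second valuation ring of a `TotData` is of rank one. -/
theorem tot_isArch₂ : IsArch T.b₂.V := by
  refine vred_isArch T.b₂ ?_
  intro c d h hred hd
  have h₁ : algebraMap K L c ∈ T.b₁.V := (T.const_mem c).2 h
  have hred₁ : T.b₁.red ⟨_, h₁⟩ = 0 := by
    by_contra hne
    -- `c` is a unit for `V₁`; its inverse is integral for both
    have hv : T.b₁.V.valuation (algebraMap K L c) = 1 :=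
      vred_val_eq_one_of_red_ne_zero T.b₁ ⟨_, h₁⟩ hne
    have hc0 : c ≠ 0 := by
      rintro rfl
      rw [map_zero, map_zero] at hv
      exact zero_ne_one hv
    have hi₁ : algebraMap K L c⁻¹ ∈ T.b₁.V := by
      rw [← ValuationSubring.valuation_le_one_iff, map_inv₀, map_inv₀, hv, inv_one]
    have hi₂ : algebraMap K L c⁻¹ ∈ T.b₂.V := (T.const_mem _).1 hi₁
    have h1 : (⟨_, h⟩ : ↥T.b₂.V) * ⟨_, hi₂⟩ = 1 := by
      apply Subtype.ext
      simp only [MulMemClass.coe_mul, OneMemClass.coe_one]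
      rw [← map_mul, mul_inv_cancel₀ hc0, map_one]
    have h2 := congrArg T.b₂.red h1
    rw [map_mul, hred, zero_mul, map_one] at h2
    exact zero_ne_one h2
  obtain ⟨m, hm⟩ := T.arch c d h₁ hred₁ hd
  exact ⟨m, (T.const_mem _).1 hm⟩

/-- The two valuation rings of a `TotData` are incomparable, first direction. -/
theorem tot_not_le₁₂ : ¬ T.b₁.V ≤ T.b₂.V := by
  obtain ⟨e, h₁, h₂, hr₁, hr₂⟩ := T.sep
  intro hle
  have hv₁ : T.b₁.V.valuation e = 1 := vred_val_eq_one_of_red_ne_zero T.b₁ ⟨e, h₁⟩ hr₁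
  have hinv : e⁻¹ ∈ T.b₁.V := by
    rw [← ValuationSubring.valuation_le_one_iff, map_inv₀, hv₁, inv_one]
  have hinv₂ : e⁻¹ ∈ T.b₂.V := hle hinv
  have he0 : e ≠ 0 := by
    rintro rfl
    rw [map_zero] at hv₁
    exact zero_ne_one hv₁
  have h1 : (⟨e, h₂⟩ : ↥T.b₂.V) * ⟨e⁻¹, hinv₂⟩ = 1 := by
    apply Subtype.ext
    simp only [MulMemClass.coe_mul, OneMemClass.coe_one]
    exact mul_inv_cancel₀ he0
  have h2 := congrArg T.b₂.red h1
  rw [map_mul, hr₂, zero_mul, map_one] at h2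
  exact zero_ne_one h2

/-- The two valuation rings of a `TotData` are incomparable, second direction. -/
theorem tot_not_le₂₁ : ¬ T.b₂.V ≤ T.b₁.V := by
  intro hle
  rcases isArch_eq_of_le (tot_isArch₂ T) hle with h | h
  · exact tot_not_le₁₂ T h.symm.le
  · -- `V₁ = ⊤` is impossible: `V₁ ⊄ V₂`
    exact tot_not_le₁₂ T (by
      intro x _
      obtain ⟨e, h₁, h₂, hr₁, hr₂⟩ := T.sep
      -- if `V₁ = ⊤` then `V₂ ≤ V₁` and rank one of `V₂` ... use maximality again
      by_contra hx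
      have hx0 : x ≠ 0 := fun h0 => hx (h0 ▸ zero_mem _)
      have hxi : T.b₂.V.valuation x⁻¹ < 1 := by
        rw [map_inv₀]
        apply inv_lt_one_of_one_lt₀
        rw [← ValuationSubring.valuation_le_one_iff] at hx
        exact not_le.1 hx
      -- `e` is a non-unit of `V₂` and non-zero; compare with a power of `x⁻¹`: no contradiction
      -- from `V₂` alone, so use `e`: `e ∈ m₂`, `e⁻¹ ∉ V₂`, but `e` is a unit of `V₁`
      have hv₁ : T.b₁.V.valuation e = 1 := vred_val_eq_one_of_red_ne_zero T.b₁ ⟨e, h₁⟩ hr₁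
      -- in `V₁ = ⊤` every non-zero element has valuation `1`; rank one of `V₁`:
      have htop : ∀ z : L, z ∈ T.b₁.V := fun z => h ▸ ValuationSubring.mem_top z
      -- `x⁻¹` has `v₁ = 1`... the hypothesis `IsArch V₁` is vacuous; use the constants instead
      obtain ⟨c, hc0, hc, hcr⟩ := T.b₂.exists_scale x⁻¹ (inv_ne_zero hx0)
      have hvc : T.b₂.V.valuation (algebraMap K L c * x⁻¹) = 1 :=
        vred_val_eq_one_of_red_ne_zero T.b₂ ⟨_, hc⟩ hcr
      -- `v₂ c > 1`, so `c ∉ V₂`, hence `c ∉ V₁` by `const_mem`, contradiction with `V₁ = ⊤`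
      have hcV₂ : algebraMap K L c ∉ T.b₂.V := by
        rw [← ValuationSubring.valuation_le_one_iff]
        rw [map_mul] at hvc
        intro hle1
        have : T.b₂.V.valuation (algebraMap K L c) * T.b₂.V.valuation x⁻¹ < 1 :=
          Right.mul_lt_one_of_le_of_lt hle1 hxi
        rw [hvc] at this
        exact lt_irrefl _ this
      exact hcV₂ ((T.const_mem c).1 (htop _)))

end Tot

end Fermat.Agent.BAD.H42

end
end
-- ==== END Fermat.Agent.BAD.H42_Arch

-- ==== BEGIN Fermat.Agent.Lib.FrobDensity.H31_Rel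
section

/-!
# Relative Frobenius density (helper31)

`stmt_FD_rel : Stmt_FD_rel`: let `L/K` be a Galois extension of number fields, `g ∈ Gal(L/K)` and
`T` a finite set of primes.  Then there are a prime `Q` of `𝓞 L` over a rational prime `ℓ ∉ T`,
unramified over `ℤ`, such that `Q ∩ 𝓞 K` has absolute norm `ℓ` (degree one), and a Frobenius
`φ ∈ Gal(L/K)` at `Q` with `⟨φ⟩ = ⟨g⟩`.

Proof: apply the absolute theorem `stmt_FD_NF` to the normal closure `N` of `L` over `ℚ` and a lift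
of `g` to `Gal(N/K) ⊆ Gal(N/ℚ)`; the Frobenius `φ` found lies in `⟨g̃⟩ ⊆ Gal(N/K)`, so it fixes `K`,
hence the residue field of `Q_N ∩ 𝓞 K` has `ℓ` elements; restrict to `L`.
-/

set_option linter.unusedSectionVars false
set_option linter.style.haveILetI false

namespace Fermat.Agent.Lib.FrobDensity

open NumberField IsDedekindDomain Ideal
open scoped Pointwise

/-- **Relative Frobenius density theorem, existence form.** -/
def Stmt_FD_rel : Prop :=
  ∀ (K L : Type) [Field K] [NumberField K] [Field L] [NumberField L] [Algebra K L] [IsGalois K L]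
    (g : L ≃ₐ[K] L) (T : Finset ℕ),
    ∃ (Q : Ideal (𝓞 L)) (φ : L ≃ₐ[K] L) (ℓ : ℕ), Q.IsPrime ∧ ℓ.Prime ∧ ℓ ∉ T ∧
      ((ℓ : ℕ) : 𝓞 L) ∈ Q ∧ Q.ramificationIdx ℤ = 1 ∧ Q.inertia (L ≃ₐ[K] L) = ⊥ ∧
      Ideal.absNorm (Q.under (𝓞 K)) = ℓ ∧
      IsArithFrobAt (𝓞 K) φ Q ∧ Subgroup.zpowers φ = Subgroup.zpowers g

namespace H31

section Lemmas

variable (K N : Type) [Field K] [NumberField K] [Field N] [NumberField N] [Algebra K N]

/-- If every element of `𝓞 K` satisfies `x ^ ℓ ≡ x` modulo the prime `w` of `𝓞 N` (over `ℓ`), then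
the prime of `K` below `w` has norm `ℓ`. -/
lemma absNorm_under_eq_of_pow_congr (w : Ideal (𝓞 N)) [hw : w.IsPrime] (hw0 : w ≠ ⊥)
    (ℓ : ℕ) (hℓ : ℓ.Prime) (hℓw : ((ℓ : ℕ) : 𝓞 N) ∈ w)
    (h : ∀ x : 𝓞 K, algebraMap (𝓞 K) (𝓞 N) x - (algebraMap (𝓞 K) (𝓞 N) x) ^ ℓ ∈ w) :
    Ideal.absNorm (w.under (𝓞 K)) = ℓ := by
  set 𝔮 : Ideal (𝓞 K) := w.under (𝓞 K) with h𝔮
  have h𝔮0 : 𝔮 ≠ ⊥ := Ideal.under_ne_bot (𝓞 K) hw0
  have h𝔮p : 𝔮.IsPrime := inferInstance
  have h𝔮max : 𝔮.IsMaximal := h𝔮p.isMaximal h𝔮0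
  letI := Ideal.Quotient.field 𝔮
  haveI hfin : Finite (𝓞 K ⧸ 𝔮) := Ideal.finiteQuotientOfFreeOfNeBot 𝔮 h𝔮0
  have hpow : ∀ x : 𝓞 K ⧸ 𝔮, x ^ ℓ = x := by
    intro x
    obtain ⟨y, rfl⟩ := Ideal.Quotient.mk_surjective x
    rw [← map_pow, eq_comm, Ideal.Quotient.eq, h𝔮, Ideal.under_def, Ideal.mem_comap, map_sub,
      map_pow]
    exact h y
  have hle : Nat.card (𝓞 K ⧸ 𝔮) ≤ ℓ := H12.card_le_of_forall_pow_eq hℓ.one_lt hpow
  have hℓ𝔮 : ((ℓ : ℕ) : 𝓞 K) ∈ 𝔮 := by
    rw [h𝔮, Ideal.under_def, Ideal.mem_comap, map_natCast]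
    exact hℓw
  have hzero : ((ℓ : ℕ) : 𝓞 K ⧸ 𝔮) = 0 := by
    rw [← map_natCast (Ideal.Quotient.mk 𝔮), Ideal.Quotient.eq_zero_iff_mem]
    exact hℓ𝔮
  have hdvd : ℓ ∣ Nat.card (𝓞 K ⧸ 𝔮) := by
    have h1 : addOrderOf (1 : 𝓞 K ⧸ 𝔮) ∣ ℓ := by
      apply addOrderOf_dvd_of_nsmul_eq_zero
      rw [nsmul_one]
      exact hzero
    have h2 : addOrderOf (1 : 𝓞 K ⧸ 𝔮) ≠ 1 := by
      rw [Ne, AddMonoid.addOrderOf_eq_one_iff]
      exact one_ne_zero
    have h3 : addOrderOf (1 : 𝓞 K ⧸ 𝔮) = ℓ := (Nat.dvd_prime hℓ).mp h1 |>.resolve_left h2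
    rw [← h3]
    exact addOrderOf_dvd_natCard _
  have hge : ℓ ≤ Nat.card (𝓞 K ⧸ 𝔮) := Nat.le_of_dvd Nat.card_pos hdvd
  rw [Ideal.absNorm_apply, Submodule.cardQuot_apply]
  exact le_antisymm hle hge

end Lemmas

section Tower

variable (K L N : Type) [Field K] [NumberField K] [Field L] [NumberField L] [Field N]
  [NumberField N] [Algebra K L] [Algebra K N] [Algebra L N] [IsScalarTower K L N]

/-- Unramified over `ℤ` in the top field implies trivial inertia in `Gal(L/K)` for the prime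
below. -/
lemma inertia_under_eq_bot [IsGalois K L] (w : Ideal (𝓞 N)) [hw : w.IsPrime]
    (he : w.ramificationIdx ℤ = 1) :
    (w.under (𝓞 L)).ramificationIdx ℤ = 1 ∧ (w.under (𝓞 L)).inertia (L ≃ₐ[K] L) = ⊥ := by
  set Q : Ideal (𝓞 L) := w.under (𝓞 L) with hQ
  haveI : w.LiesOver Q := ⟨rfl⟩
  have h1 : Q.ramificationIdx ℤ ∣ w.ramificationIdx ℤ :=
    Ideal.ramificationIdx_below_dvd (R := ℤ) (S := 𝓞 L) (T := 𝓞 N) Q w
  rw [he, Nat.dvd_one] at h1
  refine ⟨h1, ?_⟩
  haveI : Q.LiesOver (Q.under (𝓞 K)) := ⟨rfl⟩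
  have h2 : Q.ramificationIdx (𝓞 K) ∣ Q.ramificationIdx ℤ :=
    Ideal.ramificationIdx_above_dvd (R := ℤ) (S := 𝓞 K) (T := 𝓞 L) (Q.under (𝓞 K)) Q
  rw [h1, Nat.dvd_one] at h2
  have hG : IsGaloisGroup (L ≃ₐ[K] L) (𝓞 K) (𝓞 L) := IsGaloisGroup.of_isFractionRing _ _ _ K L
  have key := Ideal.card_inertia_eq_ramificationIdxIn (G := L ≃ₐ[K] L) (Q.under (𝓞 K)) Q
  rw [Ideal.ramificationIdxIn_eq_ramificationIdx (Q.under (𝓞 K)) Q (L ≃ₐ[K] L), h2] at key
  exact Subgroup.card_eq_one.mp key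

/-- Trivial inertia in `Gal(N/ℚ)` gives ramification index one over `ℤ`. -/
lemma ramificationIdx_int_eq_one [IsGalois ℚ N] (w : Ideal (𝓞 N)) [hw : w.IsPrime]
    (hin : w.inertia (N ≃ₐ[ℚ] N) = ⊥) : w.ramificationIdx ℤ = 1 := by
  have hG : IsGaloisGroup (N ≃ₐ[ℚ] N) ℤ (𝓞 N) := IsGaloisGroup.of_isFractionRing _ _ _ ℚ N
  have key := Ideal.card_inertia_eq_ramificationIdxIn (G := N ≃ₐ[ℚ] N) (w.under ℤ) w
  rw [hin, Subgroup.card_bot] at key
  rw [← Ideal.ramificationIdxIn_eq_ramificationIdx (w.under ℤ) w (N ≃ₐ[ℚ] N)]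
  exact key.symm

/-- The relative density statement for a tower `K ⊆ L ⊆ N` with `N/ℚ` Galois. -/
theorem fd_rel_tower (hNF : Stmt_FD_NF) [IsGalois ℚ N] [IsGalois K L]
    (g : L ≃ₐ[K] L) (T : Finset ℕ) :
    ∃ (Q : Ideal (𝓞 L)) (φ : L ≃ₐ[K] L) (ℓ : ℕ), Q.IsPrime ∧ ℓ.Prime ∧ ℓ ∉ T ∧
      ((ℓ : ℕ) : 𝓞 L) ∈ Q ∧ Q.ramificationIdx ℤ = 1 ∧ Q.inertia (L ≃ₐ[K] L) = ⊥ ∧
      Ideal.absNorm (Q.under (𝓞 K)) = ℓ ∧
      IsArithFrobAt (𝓞 K) φ Q ∧ Subgroup.zpowers φ = Subgroup.zpowers g := by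
  haveI : IsGalois K N := IsGalois.tower_top_of_isGalois ℚ K N
  haveI : Normal K L := IsGalois.to_normal
  haveI : Normal K N := IsGalois.to_normal
  obtain ⟨gK, hgK⟩ := AlgEquiv.restrictNormalHom_surjective (F := K) (K₁ := L) N g
  obtain ⟨w, φ, ℓ, hw, hℓ, hℓT, hℓw, hin, hφ, hzp⟩ := hNF N (gK.restrictScalars ℚ) T
  haveI := hw
  have hw0 : w ≠ ⊥ := by
    rintro rfl
    rw [Ideal.mem_bot] at hℓw
    exact hℓ.ne_zero (Nat.cast_eq_zero.mp hℓw)
  -- `φ` and `g̃` are powers of each other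
  have hφmem : φ ∈ Subgroup.zpowers (gK.restrictScalars ℚ) := hzp ▸ Subgroup.mem_zpowers φ
  obtain ⟨j, hj⟩ := Subgroup.mem_zpowers_iff.mp hφmem
  have hgmem : gK.restrictScalars ℚ ∈ Subgroup.zpowers φ := hzp.symm ▸ Subgroup.mem_zpowers _
  obtain ⟨i, hi⟩ := Subgroup.mem_zpowers_iff.mp hgmem
  set φK : N ≃ₐ[K] N := gK ^ j with hφK
  have hφK' : φK.restrictScalars ℚ = φ := by
    rw [← hj, hφK]
    exact map_zpow (AlgEquiv.restrictScalarsHom ℚ) gK j
  have hgK' : φK ^ i = gK := by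
    apply AlgEquiv.restrictScalars_injective ℚ
    rw [← hi, ← hφK']
    exact map_zpow (AlgEquiv.restrictScalarsHom ℚ) φK i
  -- the Frobenius congruence with exponent `ℓ`
  let W : HeightOneSpectrum (𝓞 N) := ⟨w, hw, hw0⟩
  have hℓW : ℓ = ZetaPrimes.ratPrime N W := H12.eq_ratPrime_of_mem N W hℓ hℓw
  have hφ' : ∀ y : 𝓞 N, φ • y - y ^ ℓ ∈ w := by
    have := (H12.isArithFrobAt_int_iff N W φ).mp hφ
    rw [← hℓW] at this
    exact this
  -- `φ` fixes `𝓞 K`
  have hfix : ∀ x : 𝓞 K, φ • (algebraMap (𝓞 K) (𝓞 N) x) = algebraMap (𝓞 K) (𝓞 N) x := by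
    intro x
    apply Subtype.ext
    change φ (algebraMap K N (x : K)) = algebraMap K N (x : K)
    rw [← hφK']
    exact φK.commutes (x : K)
  have habs : Ideal.absNorm (w.under (𝓞 K)) = ℓ := by
    refine absNorm_under_eq_of_pow_congr K N w hw0 ℓ hℓ hℓw (fun x ↦ ?_)
    have := hφ' (algebraMap (𝓞 K) (𝓞 N) x)
    rwa [hfix] at this
  -- restriction to `L`
  set Q : Ideal (𝓞 L) := w.under (𝓞 L) with hQ
  have hQK : Q.under (𝓞 K) = w.under (𝓞 K) := Ideal.under_under w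
  obtain ⟨heQ, hinQ⟩ := inertia_under_eq_bot K L N w (ramificationIdx_int_eq_one N w hin)
  refine ⟨Q, AlgEquiv.restrictNormalHom L φK, ℓ, inferInstance, hℓ, hℓT, ?_, heQ, hinQ, ?_, ?_, ?_⟩
  · rw [hQ, Ideal.under_def, Ideal.mem_comap, map_natCast]
    exact hℓw
  · rw [hQK]
    exact habs
  · refine (H12.isArithFrobAt_iff (K := K) (M := L) (G := L ≃ₐ[K] L) Q
      (AlgEquiv.restrictNormalHom L φK)).mpr ?_
    rw [hQK, habs]
    intro x
    rw [hQ, Ideal.under_def, Ideal.mem_comap, map_sub, map_pow]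
    have h1 : algebraMap (𝓞 L) (𝓞 N) ((AlgEquiv.restrictNormalHom L φK) • x) =
        φ • (algebraMap (𝓞 L) (𝓞 N) x) := by
      apply Subtype.ext
      change algebraMap L N ((AlgEquiv.restrictNormalHom L φK) (x : L)) =
        φ (algebraMap L N (x : L))
      rw [← hφK']
      exact AlgEquiv.restrictNormal_commutes φK L (x : L)
    rw [h1]
    exact hφ' _
  · have hφL : AlgEquiv.restrictNormalHom L φK = g ^ j := by
      rw [hφK, map_zpow (AlgEquiv.restrictNormalHom (F := K) (K₁ := N) L) gK j, hgK]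
    have hgL : g = (AlgEquiv.restrictNormalHom L φK) ^ i := by
      rw [← map_zpow (AlgEquiv.restrictNormalHom (F := K) (K₁ := N) L) φK i, hgK', hgK]
    apply le_antisymm
    · rw [Subgroup.zpowers_le, hφL]
      exact Subgroup.zpow_mem_zpowers g j
    · rw [Subgroup.zpowers_le]
      nth_rewrite 1 [hgL]
      exact Subgroup.zpow_mem_zpowers _ i

end Tower

/-- The relative Frobenius density theorem, from the absolute number field form. -/
theorem stmt_FD_rel_of_NF (hNF : Stmt_FD_NF) : Stmt_FD_rel := by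
  intro K L _ _ _ _ _ _ g T
  haveI : IsScalarTower ℚ L (AlgebraicClosure L) := inferInstance
  haveI : Algebra.IsAlgebraic ℚ (AlgebraicClosure L) :=
    Algebra.IsAlgebraic.trans ℚ L (AlgebraicClosure L)
  haveI : IsAlgClosure ℚ (AlgebraicClosure L) := ⟨inferInstance, inferInstance⟩
  haveI : Normal ℚ (AlgebraicClosure L) := inferInstance
  let N : IntermediateField ℚ (AlgebraicClosure L) :=
    IntermediateField.normalClosure ℚ L (AlgebraicClosure L)
  haveI : Normal ℚ N := normalClosure.normal ℚ L (AlgebraicClosure L)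
  haveI : FiniteDimensional ℚ N := inferInstance
  haveI : NumberField N := { to_charZero := inferInstance, to_finiteDimensional := inferInstance }
  haveI : IsGalois ℚ N := { to_isSeparable := inferInstance, to_normal := inferInstance }
  letI : Algebra L N := inferInstance
  letI : Algebra K N := ((algebraMap L N).comp (algebraMap K L)).toAlgebra
  haveI : IsScalarTower K L N := IsScalarTower.of_algebraMap_eq (fun _ ↦ rfl)
  exact fd_rel_tower K L N hNF g T

end H31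

/-- **Relative Frobenius density theorem, existence form** (unconditional). -/
theorem stmt_FD_rel : Stmt_FD_rel := H31.stmt_FD_rel_of_NF stmt_FD_NF

end Fermat.Agent.Lib.FrobDensity

end
-- ==== END Fermat.Agent.Lib.FrobDensity.H31_Rel

-- ==== BEGIN Fermat.Agent.Lib.InertiaConj
section

/-!
# Inertia groups above the same rational prime are conjugate (helper13)

`exists_conj_mem_inertia`: for valuation subrings `A`, `A'` of `ℚ̄` over the prime `ℓ` there is
`g ∈ Gal(ℚ̄/ℚ)` with `s ∈ I_{A'} ↔ g⁻¹ s g ∈ I_A`.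
-/

set_option autoImplicit false
set_option linter.unusedSectionVars false
set_option linter.style.haveILetI false
set_option linter.unusedVariables false

open scoped Pointwise

namespace Fermat.Agent.Lib.InertiaConj

open Fermat.Agent.Lib.FrobIntegers Fermat.Agent.Lib.FrobExists Fermat.Agent.Lib.InertiaBridge

attribute [local instance] qbar_isAlgebraic qbar_isAlgClosure qbar_isGalois zbar_isInvariant
  zbarTopologicalSpace zbar_discreteTopology zbar_continuousSMul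

theorem natCast_mem_primeUnder (ℓ : ℕ) (A : ValuationSubring (AlgebraicClosure ℚ))
    (hA : A.LiesOverPrime ℓ) : (ℓ : ZBar) ∈ primeUnder A := by
  rw [mem_primeUnder]
  have h : (ℓ : AlgebraicClosure ℚ) ∈ A.nonunits := hA
  rw [A.mem_nonunits_iff] at h
  have hcoe : (((ℓ : ZBar) : ZBar) : AlgebraicClosure ℚ) = (ℓ : AlgebraicClosure ℚ) := by
    simp
  rw [hcoe]
  exact h

/-- The primes of `ZBar` under two valuation subrings over `ℓ` are conjugate. -/
theorem exists_smul_primeUnder (ℓ : ℕ) (hℓ : ℓ.Prime)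
    (A A' : ValuationSubring (AlgebraicClosure ℚ)) (hA : A.LiesOverPrime ℓ)
    (hA' : A'.LiesOverPrime ℓ) :
    ∃ g : AlgebraicClosure ℚ ≃ₐ[ℚ] AlgebraicClosure ℚ, primeUnder A' = g • primeUnder A := by
  haveI := primeUnder_isPrime A
  haveI := primeUnder_isPrime A'
  have h1 := zbar_under_eq ℓ hℓ (primeUnder A) (natCast_mem_primeUnder ℓ A hA)
  have h2 := zbar_under_eq ℓ hℓ (primeUnder A') (natCast_mem_primeUnder ℓ A' hA')
  exact Algebra.IsInvariant.exists_smul_of_under_eq_of_profinite (A := ℤ)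
    (G := AlgebraicClosure ℚ ≃ₐ[ℚ] AlgebraicClosure ℚ) (primeUnder A) (primeUnder A')
    (h1.trans h2.symm)

/-- Inertia groups over the same prime are conjugate. -/
theorem exists_conj_mem_inertia (ℓ : ℕ) (hℓ : ℓ.Prime)
    (A A' : ValuationSubring (AlgebraicClosure ℚ)) (hA : A.LiesOverPrime ℓ)
    (hA' : A'.LiesOverPrime ℓ) :
    ∃ g : AlgebraicClosure ℚ ≃ₐ[ℚ] AlgebraicClosure ℚ,
      ∀ s : AlgebraicClosure ℚ ≃ₐ[ℚ] AlgebraicClosure ℚ,
        s ∈ A'.inertiaSubgroupIn ℚ ↔ g⁻¹ * s * g ∈ A.inertiaSubgroupIn ℚ := by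
  obtain ⟨g, hg⟩ := exists_smul_primeUnder ℓ hℓ A A' hA hA'
  refine ⟨g, fun s => ?_⟩
  rw [mem_inertiaSubgroupIn_iff ℓ hℓ A' hA', mem_inertiaSubgroupIn_iff ℓ hℓ A hA, hg]
  constructor
  · intro h b
    have h1 := h (g • b)
    rw [Ideal.mem_pointwise_smul_iff_inv_smul_mem, smul_sub, inv_smul_smul] at h1
    rw [mul_smul, mul_smul]
    exact h1
  · intro h b
    have h1 := h (g⁻¹ • b)
    rw [Ideal.mem_pointwise_smul_iff_inv_smul_mem, smul_sub]
    rw [mul_smul, mul_smul, smul_inv_smul] at h1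
    exact h1

end Fermat.Agent.Lib.InertiaConj

end
-- ==== END Fermat.Agent.Lib.InertiaConj

-- ==== BEGIN Fermat.Agent.NEB.Defs
section

/-!
# Item 72, LG-NEB (owner-planner helper84): the function field `F_H` of `X_H(M)`, interface layer FH

Plan: `NOTES/plan/LG_NEB.md` (route: helper53's fixed-point trick, `NOTES/plan/S59_TWH.md`).

`c` = conductor level (product of the Taylor–Wiles primes, or the pivot prime), `H ≤ (ℤ/c)ˣ`,
`M` = full level (`c ∣ M`), `Γ_H(M) = {γ ∈ Γ₀(M) : a_γ mod c ∈ ±H}`.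

The field is defined over `ℚ` by EXPLICIT RATIONAL generators (so that the coefficientwise Galois
action of the prelude, `arithmeticGalois`, applies verbatim, and the diamond operators are defined
over `ℚ`: this is the `μ`-model, cusp `∞` rational):

  `e_S := (∑_{n ≥ 1} (∑_{m ∣ n, m mod c ∈ S} (n/m)³) qⁿ) / E₄  ∈ ℤ⟦q⟧`,   `S = ±aH ⊆ ℤ/c`,
  `F_H(M) := F₀(M)(e_{±aH} : a ∈ (ℤ/c)ˣ) ⊆ ℚ((q))`.

Analytically `∑_{m ≡ a (c)} ∑_{n ∈ ℤ} (m z + n)⁻⁴ = C · ∑_n (∑_{m ∣ n, m ≡ ±a} (n/m)³) qⁿ`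
(Lipschitz formula, no constant term since `a ≢ 0`), a modular form of weight `4` on `Γ₁(c)` on which
`γ ∈ Γ₀(c)` acts by `a ↦ a · a_γ`.

Everything here is a definition, a `Prop`-valued statement `Stmt_*`, or a trivial lemma.
No `sorry`.
-/

set_option autoImplicit false

noncomputable section

namespace Fermat.Agent.NEB

open AlgebraicCurve ModularCurve IntermediateField UpperHalfPlane
open scoped MatrixGroups ModularForm Manifold

/-- The base field `ℚ̄`. -/
abbrev Kbar : Type := AlgebraicClosure ℚ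

/-! ## 1. The generators -/

/-- The union of the two cosets `aH` and `-aH`, as a set of residues mod `c`. -/
def cosetSet (c : ℕ) (H : Subgroup (ZMod c)ˣ) (a : (ZMod c)ˣ) : Set (ZMod c) :=
  {x | ∃ h ∈ H, x = ((a * h : (ZMod c)ˣ) : ZMod c) ∨ x = -((a * h : (ZMod c)ˣ) : ZMod c)}

open scoped Classical in
/-- `∑_{m ∣ n, m mod c ∈ S} (n/m)³`. -/
def eisCoeff (c : ℕ) (S : Set (ZMod c)) (n : ℕ) : ℤ :=
  ∑ m ∈ n.divisors, if ((m : ℕ) : ZMod c) ∈ S then ((n / m : ℕ) : ℤ) ^ 3 else 0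

/-- The numerator `∑_n (∑_{m ∣ n, m mod c ∈ S} (n/m)³) qⁿ` (zero constant term). -/
def eisNum (c : ℕ) (S : Set (ZMod c)) : PowerSeries ℤ := PowerSeries.mk (eisCoeff c S)

/-- `e_S = eisNum / E₄`, a power series with INTEGER coefficients. -/
def eisQuot (c : ℕ) (S : Set (ZMod c)) : PowerSeries ℤ :=
  eisNum c S * eisenstein4.invOfUnit 1

/-- `e_S` as a Laurent series over `ℚ`. -/
def eisGen (c : ℕ) (S : Set (ZMod c)) : LaurentSeries ℚ :=
  HahnSeries.ofPowerSeries ℤ ℚ ((eisQuot c S).map (Int.castRingHom ℚ))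

/-- The generators of `F_H` over `F₀`. -/
def genSet (c : ℕ) (H : Subgroup (ZMod c)ˣ) : Set (LaurentSeries ℚ) :=
  {x | ∃ a : (ZMod c)ˣ, x = eisGen c (cosetSet c H a)}

/-! ## 2. The field -/

/-- **The function field of `X_H(M)` over `ℚ`** (`μ`-model), inside `ℚ((q))`. -/
def FHQ (M c : ℕ) (H : Subgroup (ZMod c)ˣ) : IntermediateField ℚ (LaurentSeries ℚ) :=
  adjoin ℚ (divisorExpansions M ∪ genSet c H)

/-- The function field of `X_H(M)` over `ℚ̄`, inside `ℚ̄((q))`. -/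
abbrev FHbar (M c : ℕ) (H : Subgroup (ZMod c)ˣ) :
    IntermediateField Kbar (LaurentSeries Kbar) :=
  laurentBaseChange Kbar (FHQ M c H)

theorem full_le_FHQ (M c : ℕ) (H : Subgroup (ZMod c)ˣ) :
    modularFunctionFieldFull M ≤ FHQ M c H :=
  IntermediateField.adjoin.mono ℚ _ _ Set.subset_union_left

theorem eisGen_mem_FHQ (M c : ℕ) (H : Subgroup (ZMod c)ˣ) (a : (ZMod c)ˣ) :
    eisGen c (cosetSet c H a) ∈ FHQ M c H :=
  subset_adjoin ℚ _ (Set.mem_union_right _ ⟨a, rfl⟩)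

theorem FHQ_mono_level {M M' : ℕ} (h : M ∣ M') (c : ℕ) (H : Subgroup (ZMod c)ˣ) :
    FHQ M c H ≤ FHQ M' c H := by
  refine IntermediateField.adjoin.mono ℚ _ _ (Set.union_subset_union_left _ ?_)
  rintro x ⟨d, hd0, hd, rfl⟩
  exact ⟨d, hd0, hd.trans h, rfl⟩

theorem laurentBaseChange_mono {L : Type*} [Field L] [Algebra ℚ L]
    {F₁ F₂ : IntermediateField ℚ (LaurentSeries ℚ)} (h : F₁ ≤ F₂) :
    laurentBaseChange L F₁ ≤ laurentBaseChange L F₂ :=
  IntermediateField.adjoin.mono L _ _ (Set.image_mono h)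

theorem bar_le_FHbar (M c : ℕ) (H : Subgroup (ZMod c)ˣ) :
    modularFunctionFieldBar M ≤ FHbar M c H :=
  laurentBaseChange_mono (full_le_FHQ M c H)

/-- The inclusion `F₀(M) ⊆ F_H(M)` over `ℚ̄` (= `π^*` on functions). -/
def inclBar (M c : ℕ) (H : Subgroup (ZMod c)ˣ) :
    ↥(modularFunctionFieldBar M) →ₐ[Kbar] ↥(FHbar M c H) :=
  IntermediateField.inclusion (bar_le_FHbar M c H)

@[simp]
theorem coe_inclBar (M c : ℕ) (H : Subgroup (ZMod c)ˣ) (x : ↥(modularFunctionFieldBar M)) :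
    ((inclBar M c H x : ↥(FHbar M c H)) : LaurentSeries Kbar) = (x : LaurentSeries Kbar) :=
  IntermediateField.coe_inclusion (bar_le_FHbar M c H) x

/-- The inclusion `F_H(M) ⊆ F_H(M')` for `M ∣ M'` (degeneracy map `α`). -/
def alphaBar {M M' : ℕ} (h : M ∣ M') (c : ℕ) (H : Subgroup (ZMod c)ˣ) :
    ↥(FHbar M c H) →ₐ[Kbar] ↥(FHbar M' c H) :=
  IntermediateField.inclusion (laurentBaseChange_mono (FHQ_mono_level h c H))

/-- The generator `e_{±aH}` as an element of `F_H(M)` over `ℚ̄`. -/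
def genBar (M c : ℕ) (H : Subgroup (ZMod c)ˣ) (a : (ZMod c)ˣ) : ↥(FHbar M c H) :=
  ⟨coeffEmb Kbar (eisGen c (cosetSet c H a)),
    coeffEmb_mem_laurentBaseChange Kbar (eisGen_mem_FHQ M c H a)⟩

/-! ## 3. Package FH: the statements -/

/-- **FH-GAL**: the diamond operators.  `(ℤ/c)ˣ` acts on `F_H(M)` by `ℚ̄`-automorphisms permuting the
generators, the fixed field is `F₀(M)`, and the action commutes with the coefficientwise Galois
action (diamond operators are defined over `ℚ`).  Hypotheses `2 ≤ c`, `c ∣ M`. -/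
def Stmt_FH_gal (M c : ℕ) (H : Subgroup (ZMod c)ˣ) : Prop :=
  2 ≤ c → c ∣ M → M ≠ 0 →
  ∃ ρ : (ZMod c)ˣ →* (↥(FHbar M c H) ≃ₐ[Kbar] ↥(FHbar M c H)),
    (∀ d a, ρ d (genBar M c H a) = genBar M c H (a * d)) ∧
    (∀ d (x : ↥(modularFunctionFieldBar M)), ρ d (inclBar M c H x) = inclBar M c H x) ∧
    (∀ x : ↥(FHbar M c H), (∀ d, ρ d x = x) → ∃ x₀, inclBar M c H x₀ = x) ∧
    (∀ d, ρ d = 1 ↔ (d ∈ H ∨ -d ∈ H)) ∧
    (∀ d (σ : Kbar ≃ₐ[ℚ] Kbar) (x : ↥(FHbar M c H)),
      ρ d (arithmeticRingAut (FHQ M c H) σ x) = arithmeticRingAut (FHQ M c H) σ (ρ d x))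

/-- The condition under which `X_H(M) → X₀(M)` is unramified: every parabolic and every elliptic
element of `Γ₀(M)` lies in `Γ_H(M)`.  (Holds if the index of `±H` is a power of a prime `p ≥ 5`;
for `p = 3` if moreover `Γ₀(M)` has no element of order `3`.) -/
def UnrCond (M c : ℕ) (H : Subgroup (ZMod c)ˣ) : Prop :=
  ∀ γ : CongruenceSubgroup.Gamma0 M,
    (IsOfFinOrder γ ∨ ((γ : SL(2, ℤ)) 0 0 + (γ : SL(2, ℤ)) 1 1) ^ 2 = 4) →
      ((((γ : SL(2, ℤ)) 0 0 : ℤ) : ZMod c)) ∈ cosetSet c H 1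

/-- **FH-UNR**: under `UnrCond`, every place of `F_H(M)` has a uniformiser in `F₀(M)`
(`F_H / F₀` is unramified). -/
def Stmt_FH_unr (M c : ℕ) (H : Subgroup (ZMod c)ˣ) : Prop :=
  2 ≤ c → c ∣ M → M ≠ 0 → UnrCond M c H →
  ∀ w : Place Kbar ↥(FHbar M c H),
    ∃ x : ↥(modularFunctionFieldBar M), w.ord (inclBar M c H x) = 1

/-- **FH-BETA**: `f(q) ↦ f(q^ℓ)` maps `F_H(M)` into `F_H(M ℓ)` (degeneracy map `β`), for every
`ℓ ≥ 1` (also for `ℓ ∣ M`). -/
def Stmt_FH_beta (M c ℓ : ℕ) [NeZero ℓ] (H : Subgroup (ZMod c)ˣ) : Prop :=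
  2 ≤ c → c ∣ M → M ≠ 0 →
  ∀ x ∈ FHQ M c H, qExpand ℚ ℓ x ∈ FHQ (M * ℓ) c H

/-! ## 4. The analytic side (internal interface of package FH) -/

open scoped Classical in
/-- The lattice Eisenstein series `∑_{(m,n), m mod c ∈ S} (m z + n)⁻⁴`. -/
def eisAn (c : ℕ) (S : Set (ZMod c)) (z : ℍ) : ℂ :=
  ∑' v : ℤ × ℤ, if ((v.1 : ℤ) : ZMod c) ∈ S then ((v.1 : ℂ) * (z : ℂ) + (v.2 : ℂ)) ^ (-4 : ℤ) else 0

/-- **FH-AN**: for `0 ∉ S`, `S = -S`: `eisAn c S` is holomorphic, bounded at all cusps, satisfies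
`eisAn c S ∣[4] γ = eisAn c (a_γ⁻¹ • S)`-type rule for `γ ∈ Γ₀(c)`, and has `q`-expansion
`C · eisNum c S` with `C ≠ 0`. -/
def Stmt_FH_an (c : ℕ) : Prop :=
  2 ≤ c → ∃ C : ℂ, C ≠ 0 ∧
  ∀ S : Set (ZMod c), (0 : ZMod c) ∉ S → (∀ x, x ∈ S → -x ∈ S) →
    MDifferentiable 𝓘(ℂ) 𝓘(ℂ) (eisAn c S) ∧
    (∀ σ : SL(2, ℤ), IsBoundedAtImInfty (eisAn c S ∣[(4 : ℤ)] σ)) ∧
    (∀ γ : CongruenceSubgroup.Gamma0 c,
      eisAn c S ∣[(4 : ℤ)] (γ : SL(2, ℤ)) =
        eisAn c {x | ((((γ : SL(2, ℤ)) 1 1 : ℤ) : ZMod c)) * x ∈ S}) ∧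
    GTor.qLaurent (eisAn c S) =
      C • HahnSeries.ofPowerSeries ℤ ℂ ((eisNum c S).map (Int.castRingHom ℂ))

end Fermat.Agent.NEB

end
end
-- ==== END Fermat.Agent.NEB.Defs

-- ==== BEGIN Fermat.Agent.NEB.EIG.H39_CharDec
section

/-!
# NEB / EIG (helper39): decomposition of a Dirichlet character mod a squarefree `c` (leaf CHAR-DEC)

`qs` a list of distinct primes, `c = ∏ qs`, `ψ : MulChar (ZMod c) L`.  Then there are characters
`χ q : MulChar (ZMod q) L` with `ψ(a) = ∏_q χ_q(a)` for all integers `a` prime to `c`, and every value of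
`χ_q` on a unit is a value of `ψ` on a unit.
-/

set_option autoImplicit false

namespace Fermat.Agent.NEB.EIG.H39

section CharDec

variable {L : Type*} [Field L]

/-- The two components of a character mod `m n`, `m` and `n` coprime. -/
noncomputable def charFst {m n : ℕ} (h : m.Coprime n) (ψ : MulChar (ZMod (m * n)) L) :
    MulChar (ZMod m) L :=
  MulChar.ofUnitHom ((MulChar.toUnitHom ψ).comp
    (Units.map ((ZMod.chineseRemainder h).symm.toMonoidHom.comp
      (MonoidHom.inl (ZMod m) (ZMod n)))))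

noncomputable def charSnd {m n : ℕ} (h : m.Coprime n) (ψ : MulChar (ZMod (m * n)) L) :
    MulChar (ZMod n) L :=
  MulChar.ofUnitHom ((MulChar.toUnitHom ψ).comp
    (Units.map ((ZMod.chineseRemainder h).symm.toMonoidHom.comp
      (MonoidHom.inr (ZMod m) (ZMod n)))))

theorem charFst_coe {m n : ℕ} (h : m.Coprime n) (ψ : MulChar (ZMod (m * n)) L) (u : (ZMod m)ˣ) :
    charFst h ψ (u : ZMod m) = ψ ((ZMod.chineseRemainder h).symm ((u : ZMod m), 1)) := by
  unfold charFst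
  rw [MulChar.ofUnitHom_coe]
  simp only [MonoidHom.comp_apply, MulChar.coe_toUnitHom]
  rfl

theorem charSnd_coe {m n : ℕ} (h : m.Coprime n) (ψ : MulChar (ZMod (m * n)) L) (u : (ZMod n)ˣ) :
    charSnd h ψ (u : ZMod n) = ψ ((ZMod.chineseRemainder h).symm (1, (u : ZMod n))) := by
  unfold charSnd
  rw [MulChar.ofUnitHom_coe]
  simp only [MonoidHom.comp_apply, MulChar.coe_toUnitHom]
  rfl

theorem isUnit_intCast_of_mul {m n : ℕ} {a : ℤ} (ha : IsUnit ((a : ℤ) : ZMod (m * n))) :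
    IsUnit ((a : ℤ) : ZMod m) ∧ IsUnit ((a : ℤ) : ZMod n) := by
  have h1 := ha.map (ZMod.castHom (dvd_mul_right m n) (ZMod m))
  have h2 := ha.map (ZMod.castHom (dvd_mul_left n m) (ZMod n))
  simp only [map_intCast] at h1 h2
  exact ⟨h1, h2⟩

/-- `ψ(a) = ψ₁(a) ψ₂(a)`. -/
theorem char_mul_eq {m n : ℕ} (h : m.Coprime n) (ψ : MulChar (ZMod (m * n)) L) (a : ℤ)
    (ha : IsUnit ((a : ℤ) : ZMod (m * n))) :
    ψ ((a : ℤ) : ZMod (m * n))
      = charFst h ψ ((a : ℤ) : ZMod m) * charSnd h ψ ((a : ℤ) : ZMod n) := by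
  obtain ⟨⟨u₁, hu₁⟩, ⟨u₂, hu₂⟩⟩ := isUnit_intCast_of_mul ha
  rw [← hu₁, ← hu₂, charFst_coe, charSnd_coe, ← map_mul, ← map_mul]
  congr 1
  apply (ZMod.chineseRemainder h).injective
  rw [RingEquiv.apply_symm_apply, map_intCast]
  ext
  · simp [hu₁]
  · simp [hu₂]

/-- **CHAR-DEC**. -/
theorem char_dec : ∀ (qs : List ℕ), qs.Nodup → (∀ q ∈ qs, q.Prime) →
    ∀ (c : ℕ), c = qs.prod → ∀ ψ : MulChar (ZMod c) L,
      ∃ χ : (q : ℕ) → MulChar (ZMod q) L,
        (∀ a : ℤ, IsUnit ((a : ℤ) : ZMod c) →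
          ψ ((a : ℤ) : ZMod c) = (qs.map fun q => χ q ((a : ℤ) : ZMod q)).prod) ∧
        (∀ q ∈ qs, ∀ x : (ZMod q)ˣ, ∃ y : (ZMod c)ˣ, χ q (x : ZMod q) = ψ (y : ZMod c)) := by
  intro qs
  induction qs with
  | nil =>
    intro _ _ c hc ψ
    simp only [List.prod_nil] at hc
    subst hc
    refine ⟨fun _ => 1, fun a _ => ?_, fun q hq => absurd hq List.not_mem_nil⟩
    have : ((a : ℤ) : ZMod 1) = 1 := Subsingleton.elim _ _
    rw [this, map_one]
    rfl
  | cons q qs' ih =>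
    intro hnd hpr c hc ψ
    have hq : q.Prime := hpr q List.mem_cons_self
    have hnd' : qs'.Nodup := (List.nodup_cons.mp hnd).2
    have hq_notin : q ∉ qs' := (List.nodup_cons.mp hnd).1
    have hpr' : ∀ q' ∈ qs', q'.Prime := fun q' h => hpr q' (List.mem_cons_of_mem _ h)
    obtain ⟨c₁, hc₁def⟩ : ∃ c₁ : ℕ, c₁ = qs'.prod := ⟨_, rfl⟩
    rw [List.prod_cons, ← hc₁def] at hc
    subst hc
    have hq_c₁ : ¬ q ∣ c₁ := by
      intro h
      rw [hc₁def] at h
      obtain ⟨a, ha, hqa⟩ := (Prime.dvd_prod_iff (Nat.Prime.prime hq)).mp h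
      have : q = a := (Nat.prime_dvd_prime_iff_eq hq (hpr' a ha)).mp hqa
      exact hq_notin (this ▸ ha)
    have hcop : q.Coprime c₁ := (Nat.Prime.coprime_iff_not_dvd hq).mpr hq_c₁
    obtain ⟨χ', h1, h2⟩ := ih hnd' hpr' c₁ hc₁def (charSnd hcop ψ)
    classical
    refine ⟨Function.update χ' q (charFst hcop ψ), fun a ha => ?_, fun q' hq' x => ?_⟩
    · rw [List.map_cons, List.prod_cons, Function.update_self, char_mul_eq hcop ψ a ha,
        h1 a (isUnit_intCast_of_mul ha).2]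
      congr 2
      refine List.map_congr_left fun q' hq' => ?_
      have hne : q' ≠ q := fun e => hq_notin (e ▸ hq')
      rw [Function.update_of_ne hne]
    · rcases List.mem_cons.mp hq' with rfl | hq''
      · rw [Function.update_self, charFst_coe]
        have hu : IsUnit ((ZMod.chineseRemainder hcop).symm ((x : ZMod q'), (1 : ZMod c₁))) := by
          apply IsUnit.map
          exact (Prod.isUnit_iff).mpr ⟨x.isUnit, isUnit_one⟩
        exact ⟨hu.unit, rfl⟩
      · have hne : q' ≠ q := fun e => hq_notin (e ▸ hq'')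
        have hupd : Function.update χ' q (charFst hcop ψ) q' = χ' q' :=
          Function.update_of_ne hne _ _
        rw [hupd]
        obtain ⟨y, hy⟩ := h2 q' hq'' x
        rw [hy, charSnd_coe]
        have hu : IsUnit ((ZMod.chineseRemainder hcop).symm ((1 : ZMod q), (y : ZMod c₁))) := by
          apply IsUnit.map
          exact (Prod.isUnit_iff).mpr ⟨isUnit_one, y.isUnit⟩
        exact ⟨hu.unit, rfl⟩

end CharDec

end Fermat.Agent.NEB.EIG.H39

end
-- ==== END Fermat.Agent.NEB.EIG.H39_CharDec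

-- ==== BEGIN Fermat.Agent.NEB.EIG.H39_Jacobi
section

/-!
# NEB / EIG (helper39): the twisting operator of a nontrivial character mod a prime

`B : ZMod q → End_L(W)` a representation of the additive group `ℤ/q`, `χ` a nontrivial multiplicative
character mod `q`.  `twOp B χ = ∑_u χ⁻¹(u) • B u`.

* `twOp_shift`  : `twOp B χ ∘ B v`-type rule: `∑_u χ⁻¹(u) • B (u * a) = χ(a) • ...` (change of variable);
* `fixed_of_twOp_eq_zero` : `twOp B χ w = 0 → B 1 w = w`  (Jacobi sum identity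
  `∑_v χ(v) χ⁻¹(u + v) = q·[u = 0] − 1`).
-/

set_option autoImplicit false

namespace Fermat.Agent.NEB.EIG.H39

open Finset

section Jacobi

variable {q : ℕ} [Fact q.Prime] {L : Type*} [Field L]
  {W : Type*} [AddCommGroup W] [Module L W]

/-- The twisting operator `∑_u χ⁻¹(u) • B u`. -/
noncomputable def twOp (B : ZMod q → W →ₗ[L] W) (χ : MulChar (ZMod q) L) : W →ₗ[L] W :=
  ∑ u : ZMod q, χ⁻¹ u • B u

theorem twOp_apply (B : ZMod q → W →ₗ[L] W) (χ : MulChar (ZMod q) L) (w : W) :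
    twOp B χ w = ∑ u : ZMod q, χ⁻¹ u • B u w := by
  simp [twOp, LinearMap.sum_apply]

/-- The Jacobi-type sum `∑_v χ(v) χ⁻¹(u + v)`. -/
theorem jacobi_zmod (χ : MulChar (ZMod q) L) (hχ : χ ≠ 1) (u : ZMod q) :
    ∑ v : ZMod q, χ v * χ⁻¹ (u + v) = if u = 0 then (q : L) - 1 else -1 := by
  split_ifs with hu
  · subst hu
    have h1 : ∀ v : ZMod q, χ v * χ⁻¹ (0 + v) = (1 : MulChar (ZMod q) L) v := by
      intro v
      rw [zero_add, ← MulChar.mul_apply, mul_inv_cancel]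
    rw [Finset.sum_congr rfl (fun v _ => h1 v), MulChar.sum_one_eq_card_units]
    rw [ZMod.card_units_eq_totient, Nat.totient_prime Fact.out]
    have hq : 1 ≤ q := (Fact.out : q.Prime).one_lt.le
    push_cast [Nat.cast_sub hq]
    ring
  · -- substitute `v = -u * x`
    have hu' : IsUnit u := isUnit_iff_ne_zero.mpr hu
    have hneg : IsUnit (-u) := hu'.neg
    let e : ZMod q ≃ ZMod q :=
      { toFun := fun x => -u * x
        invFun := fun v => (-u)⁻¹ * v
        left_inv := fun x => by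
          show (-u)⁻¹ * (-u * x) = x
          rw [← mul_assoc, inv_mul_cancel₀ (neg_ne_zero.mpr hu), one_mul]
        right_inv := fun v => by
          show -u * ((-u)⁻¹ * v) = v
          rw [← mul_assoc, mul_inv_cancel₀ (neg_ne_zero.mpr hu), one_mul] }
    rw [← Equiv.sum_comp e]
    have h1 : ∀ x : ZMod q, χ (e x) * χ⁻¹ (u + e x) = χ (-1) * (χ x * χ⁻¹ (1 - x)) := by
      intro x
      show χ (-u * x) * χ⁻¹ (u + -u * x) = _
      have e1 : u + -u * x = u * (1 - x) := by ring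
      have e2 : -u * x = (-1) * u * x := by ring
      rw [e1, e2, map_mul, map_mul, map_mul]
      have e3 : χ u * χ⁻¹ u = 1 := by
        rw [← MulChar.mul_apply, mul_inv_cancel, MulChar.one_apply hu']
      calc χ (-1) * χ u * χ x * (χ⁻¹ u * χ⁻¹ (1 - x))
          = χ (-1) * (χ u * χ⁻¹ u) * (χ x * χ⁻¹ (1 - x)) := by ring
        _ = χ (-1) * (χ x * χ⁻¹ (1 - x)) := by rw [e3, mul_one]
    rw [Finset.sum_congr rfl (fun x _ => h1 x), ← Finset.mul_sum]
    have hJ : ∑ x : ZMod q, χ x * χ⁻¹ (1 - x) = jacobiSum χ χ⁻¹ := rfl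
    rw [hJ, jacobiSum_nontrivial_inv hχ]
    have h2 : χ (-1) * χ (-1) = 1 := by
      rw [← map_mul]
      simp
    linear_combination -h2

variable (B : ZMod q → W →ₗ[L] W) (hB0 : B 0 = LinearMap.id)
  (hBadd : ∀ u v, B (u + v) = (B u).comp (B v))

include hB0 hBadd in
/-- If the twist of `w` by a nontrivial character vanishes, then `w` is fixed by `B`. -/
theorem fixed_of_twOp_eq_zero [CharZero L] (χ : MulChar (ZMod q) L) (hχ : χ ≠ 1) (w : W)
    (h : twOp B χ w = 0) : B 1 w = w := by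
  have hq0 : (q : L) ≠ 0 := by
    exact_mod_cast (Fact.out : q.Prime).ne_zero
  -- step 1: all translates vanish
  have h1 : ∀ v : ZMod q, ∑ u : ZMod q, χ⁻¹ (u + v) • B u w = 0 := by
    intro v
    have := congrArg (B (-v)) h
    rw [twOp_apply, map_sum, map_zero] at this
    rw [← this]
    refine Fintype.sum_equiv (Equiv.addRight v) _ _ fun u => ?_
    show χ⁻¹ (u + v) • B u w = B (-v) (χ⁻¹ (u + v) • B (u + v) w)
    rw [map_smul]
    congr 1
    have : B (-v) (B (u + v) w) = ((B (-v)).comp (B (u + v))) w := rfl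
    rw [this, ← hBadd]
    congr 2
    ring
  -- step 2
  have h2 : ∑ u : ZMod q, (∑ v : ZMod q, χ v * χ⁻¹ (u + v)) • B u w = 0 := by
    have : ∑ v : ZMod q, χ v • ∑ u : ZMod q, χ⁻¹ (u + v) • B u w = 0 := by
      simp [h1]
    rw [← this]
    simp only [Finset.smul_sum, Finset.sum_smul, smul_smul]
    rw [Finset.sum_comm]
  simp only [jacobi_zmod χ hχ] at h2
  -- step 3: `q • w = ∑ B u w`
  have h3 : (q : L) • w = ∑ u : ZMod q, B u w := by
    have h4 : ∀ u : ZMod q, (if u = 0 then (q : L) - 1 else -1) • B u w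
        = (if u = 0 then (q : L) • w else 0) - B u w := by
      intro u
      split_ifs with hu
      · subst hu
        rw [hB0, LinearMap.id_apply, sub_smul, one_smul]
      · rw [neg_one_smul, zero_sub]
    rw [Finset.sum_congr rfl (fun u _ => h4 u), Finset.sum_sub_distrib,
      Finset.sum_ite_eq' Finset.univ (0 : ZMod q) (fun _ => (q : L) • w)] at h2
    simp only [Finset.mem_univ, if_true] at h2
    exact sub_eq_zero.mp h2
  -- step 4
  have h5 : B 1 (∑ u : ZMod q, B u w) = ∑ u : ZMod q, B u w := by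
    rw [map_sum]
    refine Fintype.sum_equiv (Equiv.addLeft (1 : ZMod q)) _ _ fun u => ?_
    show B 1 (B u w) = B (1 + u) w
    rw [hBadd]; rfl
  have h6 : (q : L) • B 1 w = (q : L) • w := by
    rw [← map_smul, h3, h5]
  exact smul_right_injective W hq0 h6

/-- Change of variable in the twisting operator. -/
theorem twOp_comp_mul (χ : MulChar (ZMod q) L) (a : (ZMod q)ˣ) (w : W) :
    ∑ u : ZMod q, χ⁻¹ u • B (u * (a : ZMod q)) w = χ (a : ZMod q) • twOp B χ w := by
  rw [twOp_apply, Finset.smul_sum]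
  let e : ZMod q ≃ ZMod q :=
    { toFun := fun u => u * (a : ZMod q)
      invFun := fun v => v * ((a⁻¹ : (ZMod q)ˣ) : ZMod q)
      left_inv := fun u => by
        show u * (a : ZMod q) * ((a⁻¹ : (ZMod q)ˣ) : ZMod q) = u
        rw [mul_assoc, ← Units.val_mul, mul_inv_cancel, Units.val_one, mul_one]
      right_inv := fun v => by
        show v * ((a⁻¹ : (ZMod q)ˣ) : ZMod q) * (a : ZMod q) = v
        rw [mul_assoc, ← Units.val_mul, inv_mul_cancel, Units.val_one, mul_one] }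
  rw [← Equiv.sum_comp e (fun v => χ (a : ZMod q) • χ⁻¹ v • B v w)]
  refine Finset.sum_congr rfl fun u _ => ?_
  show χ⁻¹ u • B (u * (a : ZMod q)) w = χ (a : ZMod q) • χ⁻¹ (u * (a : ZMod q)) • B (u * (a : ZMod q)) w
  rw [smul_smul, map_mul]
  congr 1
  have e3 : χ (a : ZMod q) * χ⁻¹ (a : ZMod q) = 1 := by
    rw [← MulChar.mul_apply, mul_inv_cancel, MulChar.one_apply a.isUnit]
  calc χ⁻¹ u = χ⁻¹ u * (χ (a : ZMod q) * χ⁻¹ (a : ZMod q)) := by rw [e3, mul_one]
    _ = χ (a : ZMod q) * (χ⁻¹ u * χ⁻¹ (a : ZMod q)) := by ring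

end Jacobi

end Fermat.Agent.NEB.EIG.H39

end
-- ==== END Fermat.Agent.NEB.EIG.H39_Jacobi

-- ==== BEGIN Fermat.Agent.NEB.EIG.H39_Padic
section

/-!
# NEB / EIG (helper39): `p`-adic limits of compatible families of homomorphisms

* `compSeq p` : the ring of compatible sequences in `∏_k ℤ/p^k`; `limZp : compSeq p →+* ℤ_[p]`;
* `padicLim φ hφ : G →+ ℤ_[p]` for a compatible family `φ k : G →+ ZMod (p ^ k)`, with
  `toZModPow k (padicLim φ hφ g) = φ k g`;
* `padic_hom_ext` : homomorphisms to `ℤ_[p]` are determined by their reductions.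
-/

set_option autoImplicit false

namespace Fermat.Agent.NEB.EIG.H39

section Padic

variable (p : ℕ) [Fact p.Prime]

/-- The reduction `ℤ/p^(k+1) → ℤ/p^k`. -/
def redZ (k : ℕ) : ZMod (p ^ (k + 1)) →+* ZMod (p ^ k) :=
  ZMod.castHom (pow_dvd_pow p (Nat.le_succ k)) (ZMod (p ^ k))

/-- The ring of compatible sequences. -/
def compSeq : Subring (∀ k : ℕ, ZMod (p ^ k)) where
  carrier := {a | ∀ k, redZ p k (a (k + 1)) = a k}
  mul_mem' := by
    intro a b ha hb k
    simp only [Pi.mul_apply, map_mul, ha k, hb k]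
  one_mem' := by
    intro k
    simp only [Pi.one_apply, map_one]
  add_mem' := by
    intro a b ha hb k
    simp only [Pi.add_apply, map_add, ha k, hb k]
  zero_mem' := by
    intro k
    simp only [Pi.zero_apply, map_zero]
  neg_mem' := by
    intro a ha k
    simp only [Pi.neg_apply, map_neg, ha k]

/-- The `k`-th component. -/
def compSeqProj (k : ℕ) : compSeq p →+* ZMod (p ^ k) :=
  (Pi.evalRingHom (fun k : ℕ => ZMod (p ^ k)) k).comp (compSeq p).subtype

omit [Fact p.Prime] in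
@[simp] theorem compSeqProj_apply (k : ℕ) (a : compSeq p) : compSeqProj p k a = a.1 k := rfl

theorem compSeq_compat (k1 k2 : ℕ) (hk : k1 ≤ k2) :
    (ZMod.castHom (pow_dvd_pow p hk) (ZMod (p ^ k1))).comp (compSeqProj p k2)
      = compSeqProj p k1 := by
  induction k2, hk using Nat.le_induction with
  | base =>
    ext a
    simp
  | succ n hn ih =>
    ext a
    have h1 := a.2 n
    have h2 := congrArg (fun f => f a) ih
    simp only [RingHom.comp_apply, compSeqProj_apply] at h2 ⊢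
    rw [← h2, ← h1]
    unfold redZ
    rw [← RingHom.comp_apply, ZMod.castHom_comp]

/-- The limit of a compatible sequence. -/
noncomputable def limZp : compSeq p →+* ℤ_[p] := PadicInt.lift (compSeq_compat p)

theorem toZModPow_limZp (k : ℕ) (a : compSeq p) : PadicInt.toZModPow k (limZp p a) = a.1 k := by
  have := congrArg (fun f => f a) (PadicInt.lift_spec (compSeq_compat p) k)
  exact this

variable {G : Type*} [AddZeroClass G]

/-- The `p`-adic limit of a compatible family of homomorphisms. -/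
noncomputable def padicLim (φ : ∀ k : ℕ, G →+ ZMod (p ^ k))
    (hφ : ∀ k g, redZ p k (φ (k + 1) g) = φ k g) : G →+ ℤ_[p] where
  toFun g := limZp p ⟨fun k => φ k g, fun k => hφ k g⟩
  map_zero' := by
    rw [← map_zero (limZp p)]
    congr 1
    apply Subtype.ext
    funext k
    exact map_zero (φ k)
  map_add' g h := by
    rw [← map_add (limZp p)]
    congr 1
    apply Subtype.ext
    funext k
    exact map_add (φ k) g h

theorem toZModPow_padicLim (φ : ∀ k : ℕ, G →+ ZMod (p ^ k))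
    (hφ : ∀ k g, redZ p k (φ (k + 1) g) = φ k g) (k : ℕ) (g : G) :
    PadicInt.toZModPow k (padicLim p φ hφ g) = φ k g :=
  toZModPow_limZp p k _

theorem padic_hom_ext {ψ ψ' : G →+ ℤ_[p]}
    (h : ∀ k g, PadicInt.toZModPow k (ψ g) = PadicInt.toZModPow k (ψ' g)) : ψ = ψ' := by
  refine AddMonoidHom.ext fun g => ?_
  exact PadicInt.ext_of_toZModPow.mp fun k => h k g

theorem redZ_toZModPow (k : ℕ) (x : ℤ_[p]) :
    redZ p k (PadicInt.toZModPow (k + 1) x) = PadicInt.toZModPow k x := by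
  simp only [redZ, ZMod.castHom_apply]
  exact PadicInt.cast_toZModPow k (k + 1) (Nat.le_succ k) x

end Padic

end Fermat.Agent.NEB.EIG.H39

end
-- ==== END Fermat.Agent.NEB.EIG.H39_Padic

-- ==== BEGIN Fermat.Agent.NEB.EIG.H39_Split
section

/-!
# NEB / EIG (helper39): decomposition under the diamond operators (leaf SPLIT)

`dia : (ZMod c)ˣ →* End_L V`, `L` a field of characteristic zero with enough roots of unity.
`eigSp dia ψ = {v | dia d v = ψ(d) v for all d}`.  Then `⨆ ψ, eigSp dia ψ = ⊤` (orthogonality of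
Dirichlet characters).
-/

set_option autoImplicit false

namespace Fermat.Agent.NEB.EIG.H39

open Finset

section Split

variable {c : ℕ} {L : Type*} [Field L] {V : Type*} [AddCommGroup V] [Module L V]

/-- The `ψ`-eigenspace of the diamond operators. -/
def eigSp (dia : (ZMod c)ˣ →* Module.End L V) (ψ : MulChar (ZMod c) L) : Submodule L V where
  carrier := {v | ∀ d : (ZMod c)ˣ, dia d v = ψ (d : ZMod c) • v}
  add_mem' := by
    intro v w hv hw d
    rw [map_add, hv d, hw d, smul_add]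
  zero_mem' := by
    intro d
    rw [map_zero, smul_zero]
  smul_mem' := by
    intro a v hv d
    rw [map_smul, hv d, smul_comm]

theorem mem_eigSp {dia : (ZMod c)ˣ →* Module.End L V} {ψ : MulChar (ZMod c) L} {v : V} :
    v ∈ eigSp dia ψ ↔ ∀ d : (ZMod c)ˣ, dia d v = ψ (d : ZMod c) • v := Iff.rfl

variable [NeZero c] [CharZero L] [HasEnoughRootsOfUnity L (Monoid.exponent (ZMod c)ˣ)]

/-- The component of `v` in the `ψ`-eigenspace. -/
noncomputable def eigComp (dia : (ZMod c)ˣ →* Module.End L V) (ψ : MulChar (ZMod c) L) (v : V) :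
    V :=
  ((c.totient : L))⁻¹ • ∑ d : (ZMod c)ˣ, ψ ((d⁻¹ : (ZMod c)ˣ) : ZMod c) • dia d v

omit [CharZero L] [HasEnoughRootsOfUnity L (Monoid.exponent (ZMod c)ˣ)] in
theorem eigComp_mem (dia : (ZMod c)ˣ →* Module.End L V) (ψ : MulChar (ZMod c) L) (v : V) :
    eigComp dia ψ v ∈ eigSp dia ψ := by
  intro d'
  unfold eigComp
  rw [map_smul, map_sum, smul_comm]
  congr 1
  rw [Finset.smul_sum]
  rw [← Equiv.sum_comp (Equiv.mulLeft d')
    (fun d : (ZMod c)ˣ => ψ (d' : ZMod c) • ψ ((d⁻¹ : (ZMod c)ˣ) : ZMod c) • dia d v)]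
  refine Finset.sum_congr rfl fun d _ => ?_
  show dia d' (ψ ((d⁻¹ : (ZMod c)ˣ) : ZMod c) • dia d v)
    = ψ (d' : ZMod c) • ψ (((d' * d)⁻¹ : (ZMod c)ˣ) : ZMod c) • dia (d' * d) v
  rw [map_smul, map_mul dia, Module.End.mul_apply, smul_smul]
  congr 1
  rw [← map_mul, ← Units.val_mul, mul_inv, mul_inv_cancel_left]

theorem sum_eigComp (dia : (ZMod c)ˣ →* Module.End L V) (v : V) :
    ∑ ψ : DirichletCharacter L c, eigComp dia ψ v = v := by
  unfold eigComp
  rw [← Finset.smul_sum, Finset.sum_comm]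
  have h1 : ∀ d : (ZMod c)ˣ, ∑ ψ : DirichletCharacter L c,
      ψ ((d⁻¹ : (ZMod c)ˣ) : ZMod c) • dia d v
      = (if d = 1 then (c.totient : L) else 0) • dia d v := by
    intro d
    rw [← Finset.sum_smul, DirichletCharacter.sum_characters_eq]
    congr 1
    have : (((d⁻¹ : (ZMod c)ˣ) : ZMod c) = 1) ↔ d = 1 := by
      rw [Units.val_eq_one, inv_eq_one]
    simp only [this]
  rw [Finset.sum_congr rfl (fun d _ => h1 d)]
  simp only [ite_smul, zero_smul]
  rw [Finset.sum_ite_eq' Finset.univ (1 : (ZMod c)ˣ)]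
  simp only [Finset.mem_univ, if_true, map_one, Module.End.one_apply]
  have hφ : ((c.totient : ℕ) : L) ≠ 0 := by
    have : 0 < c.totient := Nat.totient_pos.mpr (Nat.pos_of_ne_zero (NeZero.ne c))
    exact_mod_cast this.ne'
  rw [smul_smul, inv_mul_cancel₀ hφ, one_smul]

/-- **SPLIT**: `V` is the sum of the eigenspaces of the diamond operators. -/
theorem iSup_eigSp (dia : (ZMod c)ˣ →* Module.End L V) :
    ⨆ ψ : DirichletCharacter L c, eigSp dia ψ = ⊤ := by
  rw [eq_top_iff]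
  intro v _
  rw [← sum_eigComp dia v]
  refine Submodule.sum_mem _ fun ψ _ => ?_
  exact Submodule.mem_iSup_of_mem ψ (eigComp_mem dia ψ v)

end Split

end Fermat.Agent.NEB.EIG.H39

end
-- ==== END Fermat.Agent.NEB.EIG.H39_Split

-- ==== BEGIN Fermat.Agent.NEB.EIG.H98_Char
section

/-!
# NEB / EIG-CHAR (item 72, helper98): eigenvectors give characters of the Hecke algebra

A nonzero parabolic homomorphism `φ : Γ₀(N) → L` (`L` a field of characteristic zero) which is an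
eigenvector of the Betti Hecke operators `TB_ℓ`, `ℓ ∉ S`, `ℓ ∤ N`, with eigenvalues `lam ℓ`, gives
a ring homomorphism `y : heckeAlgebra N 2 S → L` with `y (T_ℓ) = lam ℓ`, provided `S` contains
the primes dividing `N` (so that the Hecke algebra is generated by the `T_ℓ`).

* `exists_char_of_eigen` : the character with values in `L`;
* `exists_char_of_eigen_subring` : with values in a subring `O` of `L` containing the `lam ℓ`;
* `stmt_CHAR : Stmt_CHAR`.

Ingredients: the universal basis of `Hom_par(Γ₀(N), ℤ)` (helper20) and the faithful matrix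
representation of the Hecke algebra on it (helper76).
-/

set_option autoImplicit false

open scoped MatrixGroups
open CongruenceSubgroup Matrix

namespace Fermat.Agent.NEB.EIG.H98

open Fermat.Agent.Betti ModularCurve ModularCurve.Period

/-- **EIG-CHAR**: a nonzero parabolic eigenvector of the `TB_ℓ` (`ℓ ∉ S`) with values in a field
of characteristic zero gives a character of the Hecke algebra away from `S`, if `S` contains the
primes dividing the level. -/
def Stmt_CHAR : Prop :=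
  ∀ (N : ℕ) [NeZero N] (S : Set ℕ), (∀ q : ℕ, q.Prime → q ∣ N → q ∈ S) →
  ∀ (L : Type) [Field L] [CharZero L] (φ : Additive (Gamma0 N) →+ L) (lam : ℕ → L),
    φ ≠ 0 → IsParabolicHom (Gamma0 N) φ →
    (∀ (ℓ : ℕ) (hℓ : ℓ.Prime) (hℓN : ¬ ℓ ∣ N), ℓ ∉ S → TB N L hℓ hℓN φ = lam ℓ • φ) →
    ∃ y : CuspForm.heckeAlgebra N 2 S →+* L,
      ∀ (ℓ : ℕ) (hℓ : ℓ.Prime) (hℓN : ¬ ℓ ∣ N) (hℓS : ℓ ∉ S),
        y (CuspForm.heckeAlgebra.T hℓ hℓN hℓS) = lam ℓ

section Coord

variable {N r : ℕ} (b : Fin r → (Additive (Gamma0 N) →+ ℤ)) {L : Type} [CommRing L]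

/-- The homomorphism `γ ↦ ∑ i, b i γ • a i`. -/
noncomputable def coordHom (a : Fin r → L) : Additive (Gamma0 N) →+ L :=
  ∑ i, (AddMonoidHom.mulLeft (a i)).comp ((Int.castAddHom L).comp (b i))

theorem coordHom_apply (a : Fin r → L) (γ : Additive (Gamma0 N)) :
    coordHom b a γ = ∑ i, b i γ • a i := by
  simp only [coordHom, AddMonoidHom.finsetSum_apply, AddMonoidHom.comp_apply,
    AddMonoidHom.coe_mulLeft, Int.coe_castAddHom, zsmul_eq_mul]
  exact Finset.sum_congr rfl fun i _ => mul_comm _ _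

theorem coordHom_smul (c : L) (a : Fin r → L) : coordHom b (c • a) = c • coordHom b a := by
  refine AddMonoidHom.ext fun γ => ?_
  rw [AddMonoidHom.smul_apply, coordHom_apply, coordHom_apply, Finset.smul_sum]
  refine Finset.sum_congr rfl fun i _ => ?_
  simp only [Pi.smul_apply, smul_eq_mul, zsmul_eq_mul]
  ring

variable {b}

/-- The Betti Hecke operator on `coordHom b a` in terms of its matrix on the basis `b`. -/
theorem TB_coordHom {ℓ : ℕ} (hℓ : ℓ.Prime) (hℓN : ¬ ℓ ∣ N) (Mℓ : Matrix (Fin r) (Fin r) ℤ)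
    (hM : ∀ j, TB N ℤ hℓ hℓN (b j) = ∑ i, Mℓ i j • b i) (a : Fin r → L) :
    TB N L hℓ hℓN (coordHom b a)
      = coordHom b ((Mℓ.map (Int.cast : ℤ → L)).mulVec a) := by
  have : Fact ℓ.Prime := ⟨hℓ⟩
  have hcomp : ∀ j, TB N L hℓ hℓN
      ((AddMonoidHom.mulLeft (a j)).comp ((Int.castAddHom L).comp (b j)))
      = (AddMonoidHom.mulLeft (a j)).comp ((Int.castAddHom L).comp
          (TB N ℤ hℓ hℓN (b j))) := by
    intro j
    rw [← AddMonoidHom.comp_assoc, ← AddMonoidHom.comp_assoc]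
    exact (isHeckeFamily_T N hℓN).heckeOp_comp (incl_injective N) _ (b j)
  refine AddMonoidHom.ext fun γ => ?_
  rw [coordHom, map_sum, AddMonoidHom.finsetSum_apply, coordHom_apply]
  simp only [hcomp, hM]
  simp only [AddMonoidHom.comp_apply, AddMonoidHom.finsetSum_apply, AddMonoidHom.smul_apply,
    AddMonoidHom.coe_mulLeft, Int.coe_castAddHom, Matrix.mulVec, dotProduct, Matrix.map_apply,
    smul_eq_mul, zsmul_eq_mul]
  push_cast
  simp only [Finset.mul_sum]
  rw [Finset.sum_comm]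
  refine Finset.sum_congr rfl fun i _ => Finset.sum_congr rfl fun j _ => ?_
  ring

end Coord

section Main

variable {N : ℕ} [NeZero N] {S : Set ℕ} {L : Type} [Field L] [CharZero L]

/-- The character with values in a subring `O` of `L` containing the eigenvalues. -/
theorem exists_char_of_eigen_subring (hS : ∀ q : ℕ, q.Prime → q ∣ N → q ∈ S) (O : Subring L)
    (φ : Additive (Gamma0 N) →+ L) (lam : ℕ → L) (hφ : φ ≠ 0)
    (hpar : IsParabolicHom (Gamma0 N) φ)
    (heig : ∀ (ℓ : ℕ) (hℓ : ℓ.Prime) (hℓN : ¬ ℓ ∣ N), ℓ ∉ S → TB N L hℓ hℓN φ = lam ℓ • φ)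
    (hlam : ∀ ℓ : ℕ, ℓ.Prime → ¬ ℓ ∣ N → ℓ ∉ S → lam ℓ ∈ O) :
    ∃ y : CuspForm.heckeAlgebra N 2 S →+* O,
      ∀ (ℓ : ℕ) (hℓ : ℓ.Prime) (hℓN : ¬ ℓ ∣ N) (hℓS : ℓ ∉ S),
        ((y (CuspForm.heckeAlgebra.T hℓ hℓN hℓS) : O) : L) = lam ℓ := by
  classical
  obtain ⟨r, b, hb⟩ := Fermat.Agent.Betti.stmt_basis N
  obtain ⟨M, -, hMT, -⟩ := Fermat.Agent.Betti.H76.stmt_matrixRep N S r b hb
  -- coordinates of `φ`
  obtain ⟨a, ha, hauniq⟩ := hb.2 L φ hpar
  have hφa : φ = coordHom b a := AddMonoidHom.ext fun γ => by rw [ha γ, coordHom_apply]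
  have hinj : ∀ a₁ a₂ : Fin r → L, coordHom b a₁ = coordHom b a₂ → a₁ = a₂ := by
    intro a₁ a₂ h
    have hpar₁ : IsParabolicHom (Gamma0 N) (coordHom b a₁) := by
      intro γ hγ
      rw [coordHom_apply]
      exact Finset.sum_eq_zero fun i _ => by rw [hb.1 i γ hγ, zero_smul]
    obtain ⟨a₀, -, huniq⟩ := hb.2 L (coordHom b a₁) hpar₁
    rw [huniq a₁ (fun γ => coordHom_apply b a₁ γ),
      huniq a₂ (fun γ => by rw [h, coordHom_apply])]
  have ha0 : a ≠ 0 := by
    rintro rfl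
    apply hφ
    rw [hφa]
    refine AddMonoidHom.ext fun γ => ?_
    rw [coordHom_apply]
    simp
  obtain ⟨i₀, hi₀⟩ : ∃ i₀, a i₀ ≠ 0 := Function.ne_iff.mp ha0
  -- the representation over `L`
  let ML : CuspForm.heckeAlgebra N 2 S →+* Matrix (Fin r) (Fin r) L :=
    (Int.castRingHom L).mapMatrix.comp M
  have hMLT : ∀ (ℓ : ℕ) (hℓ : ℓ.Prime) (hℓN : ¬ ℓ ∣ N) (hℓS : ℓ ∉ S),
      (ML (CuspForm.heckeAlgebra.T hℓ hℓN hℓS)).mulVec a = lam ℓ • a := by
    intro ℓ hℓ hℓN hℓS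
    apply hinj
    rw [coordHom_smul, ← hφa, ← heig ℓ hℓ hℓN hℓS, hφa]
    exact (TB_coordHom hℓ hℓN _ (hMT ℓ hℓ hℓN hℓS) a).symm
  -- every element acts by a scalar of `O`
  have hall : ∀ t : CuspForm.heckeAlgebra N 2 S, ∃ c ∈ O, (ML t).mulVec a = c • a := by
    rintro ⟨t, ht⟩
    induction ht using Algebra.adjoin_induction with
    | mem x hx =>
      rcases hx with ⟨ℓ, hℓ, hℓN, hℓS, rfl⟩ | ⟨q, hqN, hq, hqS, rfl⟩
      · exact ⟨lam ℓ, hlam ℓ hℓ hℓN hℓS, hMLT ℓ hℓ hℓN hℓS⟩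
      · exact absurd (hS q hq hqN) hqS
    | algebraMap n =>
      refine ⟨(n : L), intCast_mem O n, ?_⟩
      have : (⟨algebraMap ℤ _ n, Subalgebra.algebraMap_mem _ n⟩ : CuspForm.heckeAlgebra N 2 S)
          = (n : CuspForm.heckeAlgebra N 2 S) := by
        apply Subtype.ext
        simp
      rw [this, map_intCast]
      funext i
      simp [Matrix.mulVec, dotProduct, Matrix.intCast_apply]
    | add x y hx hy ihx ihy =>
      obtain ⟨c, hc, h1⟩ := ihx
      obtain ⟨d, hd, h2⟩ := ihy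
      refine ⟨c + d, O.add_mem hc hd, ?_⟩
      have : (⟨x + y, Subalgebra.add_mem _ hx hy⟩ : CuspForm.heckeAlgebra N 2 S)
          = ⟨x, hx⟩ + ⟨y, hy⟩ := rfl
      rw [this, map_add, Matrix.add_mulVec, h1, h2, add_smul]
    | mul x y hx hy ihx ihy =>
      obtain ⟨c, hc, h1⟩ := ihx
      obtain ⟨d, hd, h2⟩ := ihy
      refine ⟨c * d, O.mul_mem hc hd, ?_⟩
      have : (⟨x * y, Subalgebra.mul_mem _ hx hy⟩ : CuspForm.heckeAlgebra N 2 S)
          = ⟨x, hx⟩ * ⟨y, hy⟩ := rfl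
      rw [this, map_mul, ← Matrix.mulVec_mulVec, h2, Matrix.mulVec_smul, h1, smul_smul,
        mul_comm]
  choose c hcO hc using hall
  have hcuniq : ∀ (t : CuspForm.heckeAlgebra N 2 S) (d : L), (ML t).mulVec a = d • a →
      c t = d := by
    intro t d hd
    have := congrFun ((hc t).symm.trans hd) i₀
    simp only [Pi.smul_apply, smul_eq_mul] at this
    exact mul_right_cancel₀ hi₀ this
  let y : CuspForm.heckeAlgebra N 2 S →+* O :=
    { toFun := fun t => ⟨c t, hcO t⟩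
      map_one' := Subtype.ext (hcuniq 1 1 (by rw [map_one, Matrix.one_mulVec, one_smul]))
      map_mul' := fun s t => Subtype.ext (hcuniq (s * t) (c s * c t) (by
        rw [map_mul, ← Matrix.mulVec_mulVec, hc t, Matrix.mulVec_smul, hc s, smul_smul,
          mul_comm]))
      map_zero' := Subtype.ext (hcuniq 0 0 (by rw [map_zero, Matrix.zero_mulVec, zero_smul]))
      map_add' := fun s t => Subtype.ext (hcuniq (s + t) (c s + c t) (by
        rw [map_add, Matrix.add_mulVec, hc s, hc t, add_smul])) }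
  exact ⟨y, fun ℓ hℓ hℓN hℓS => hcuniq _ _ (hMLT ℓ hℓ hℓN hℓS)⟩

/-- The character with values in `L`. -/
theorem exists_char_of_eigen (hS : ∀ q : ℕ, q.Prime → q ∣ N → q ∈ S)
    (φ : Additive (Gamma0 N) →+ L) (lam : ℕ → L) (hφ : φ ≠ 0)
    (hpar : IsParabolicHom (Gamma0 N) φ)
    (heig : ∀ (ℓ : ℕ) (hℓ : ℓ.Prime) (hℓN : ¬ ℓ ∣ N), ℓ ∉ S → TB N L hℓ hℓN φ = lam ℓ • φ) :
    ∃ y : CuspForm.heckeAlgebra N 2 S →+* L,
      ∀ (ℓ : ℕ) (hℓ : ℓ.Prime) (hℓN : ¬ ℓ ∣ N) (hℓS : ℓ ∉ S),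
        y (CuspForm.heckeAlgebra.T hℓ hℓN hℓS) = lam ℓ := by
  obtain ⟨y, hy⟩ := exists_char_of_eigen_subring hS (⊤ : Subring L) φ lam hφ hpar heig
    (fun _ _ _ _ => Subring.mem_top _)
  exact ⟨(Subring.subtype ⊤).comp y, fun ℓ hℓ hℓN hℓS => hy ℓ hℓ hℓN hℓS⟩

end Main

/-- **EIG-CHAR**. -/
theorem stmt_CHAR : Stmt_CHAR := by
  intro N _ S hS L _ _ φ lam hφ hpar heig
  exact exists_char_of_eigen hS φ lam hφ hpar heig

end Fermat.Agent.NEB.EIG.H98

end
-- ==== END Fermat.Agent.NEB.EIG.H98_Char
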