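-- GENERATED (merged mirror, NOTES/tools/trim/merge3_helper67.py): 13 modules of the originals, bodies verbatim.
import Mathlib
import Fermat.Agent.Zm.S56_L04_002
import Fermat.Agent.Zm.S56_L04_000
import Fermat.Agent.Zm.S48_L01_000
import Fermat.Agent.Zm.S56_L01_001
import Fermat.Agent.Zm.S56_L01_002
import Fermat.Agent.Zm.S56_L03_003
import Fermat.Agent.S55.CFT.H24_InfRes2

-- ==== BEGIN Fermat.Agent.S55.CFT.H25_ThetaDense
section

set_option autoImplicit false
set_option linter.unusedSectionVars false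
set_option linter.style.haveILetI false

namespace Fermat.Agent.S55.CFT.H25

open Fermat.Agent.S55.CFT
open NumberField TensorProduct

section

variable (K : Type) [Field K] [NumberField K] (q : Nat.Primes)

/-- The norm of `ℚ_q ⊗ K` in coordinates is continuous. -/
theorem continuous_norm_coord {ι : Type} [Fintype ι] [DecidableEq ι]
    (B : Module.Basis ι (Qp q) (SemiLocal K q)) :
    haveI := fact_primes q
    Continuous (fun a : ι → ℚ_[(q : ℕ)] => Algebra.norm (Qp q) (B.equivFun.symm a)) := by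
  haveI := fact_primes q
  let F : (ι → ℚ_[(q : ℕ)]) →ₗ[ℚ_[(q : ℕ)]] Matrix ι ι ℚ_[(q : ℕ)] :=
    (Algebra.leftMulMatrix B).toLinearMap ∘ₗ B.equivFun.symm.toLinearMap
  have hF : Continuous F := LinearMap.continuous_on_pi F
  have h2 : (fun a : ι → ℚ_[(q : ℕ)] => Algebra.norm (Qp q) (B.equivFun.symm a)) =
      fun a => (F a).det := by
    funext a
    rw [Algebra.norm_eq_matrix_det B]
    rfl
  rw [h2]
  exact hF.matrix_det

/-- Approximation of norms by norms of global elements. -/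
theorem exists_global_norm_close (y : SemiLocal K q)
    {ε : ℝ} (hε : 0 < ε) :
    haveI := fact_primes q
    ∃ x : K, ‖Algebra.norm (Qp q) ((1 : Qp q) ⊗ₜ[ℚ] x : SemiLocal K q) -
      Algebra.norm (Qp q) y‖ < ε := by
  classical
  haveI := fact_primes q
  let b := Module.Free.chooseBasis ℚ K
  let B : Module.Basis (Module.Free.ChooseBasisIndex ℚ K) (Qp q) (SemiLocal K q) :=
    Algebra.TensorProduct.basis (Qp q) b
  have hc := continuous_norm_coord K q B
  have hc' := Metric.continuous_iff.mp hc (B.equivFun y) ε hε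
  obtain ⟨δ, hδ, hδ'⟩ := hc'
  have hr : ∀ i, ∃ r : ℚ, ‖B.equivFun y i - (r : ℚ_[(q : ℕ)])‖ < δ :=
    fun i => Padic.rat_dense (q : ℕ) _ hδ
  choose r hr using hr
  refine ⟨b.equivFun.symm r, ?_⟩
  have h1 : ((1 : Qp q) ⊗ₜ[ℚ] (b.equivFun.symm r) : SemiLocal K q) =
      B.equivFun.symm (fun i => (r i : ℚ_[(q : ℕ)])) := by
    rw [Module.Basis.equivFun_symm_apply, Module.Basis.equivFun_symm_apply,
      TensorProduct.tmul_sum]
    refine Finset.sum_congr rfl (fun i _ => ?_)
    have h3 : (r i • (1 : Qp q)) = (r i : ℚ_[(q : ℕ)]) := by rw [Rat.smul_def, mul_one]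
    have h4 : B i = (1 : Qp q) ⊗ₜ[ℚ] b i := Algebra.TensorProduct.basis_apply _ _
    rw [h4]
    calc ((1 : Qp q) ⊗ₜ[ℚ] (r i • b i) : SemiLocal K q)
        = (r i • (1 : Qp q)) ⊗ₜ[ℚ] b i := (TensorProduct.smul_tmul _ _ _).symm
      _ = (r i : ℚ_[(q : ℕ)]) ⊗ₜ[ℚ] b i := by rw [h3]
      _ = (r i : ℚ_[(q : ℕ)]) • ((1 : Qp q) ⊗ₜ[ℚ] b i) := by
          rw [TensorProduct.smul_tmul']
          congr 1
          exact (mul_one _).symm
  have h2 := hδ' (fun i => (r i : ℚ_[(q : ℕ)])) (by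
    rw [dist_pi_lt_iff hδ]
    intro i
    rw [dist_comm, dist_eq_norm]
    exact hr i)
  rw [dist_eq_norm] at h2
  rw [h1]
  simpa using h2

end
end Fermat.Agent.S55.CFT.H25

end
-- ==== END Fermat.Agent.S55.CFT.H25_ThetaDense

-- ==== BEGIN Fermat.Agent.S55.CFT.H25_ThetaProd
section

set_option autoImplicit false
set_option linter.unusedSectionVars false
set_option linter.style.haveILetI false

namespace Fermat.Agent.S55.CFT.H25

open Fermat.Agent.S55.CFT NumberField Module TensorProduct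

variable (K : Type) [Field K] [NumberField K] (q : Nat.Primes)

/-- The product formula over `ℚ_q`. -/
theorem algebraMap_norm_eq_prod [IsGalois ℚ K] (y : SemiLocal K q) :
    algebraMap (Qp q) (SemiLocal K q) (Algebra.norm (Qp q) y) =
      ∏ σ : K ≃ₐ[ℚ] K, semiLocalEquiv ℚ K q σ y := by
  classical
  obtain ⟨b⟩ := H12.exists_basis_gal ℚ K
  let β : Basis (K ≃ₐ[ℚ] K) (Qp q) (SemiLocal K q) := Algebra.TensorProduct.basis (Qp q) b
  have hβ : ∀ τ, β τ = (1 : Qp q) ⊗ₜ[ℚ] b τ := fun τ => Algebra.TensorProduct.basis_apply b τ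
  have hdet : IsUnit (Matrix.det (Matrix.of fun (σ τ : K ≃ₐ[ℚ] K) =>
      ((semiLocalEquiv ℚ K q σ : SemiLocal K q →+* SemiLocal K q)) (β τ))) := by
    have h1 : (Matrix.of fun (σ τ : K ≃ₐ[ℚ] K) =>
        ((semiLocalEquiv ℚ K q σ : SemiLocal K q →+* SemiLocal K q)) (β τ)) =
        (Algebra.TensorProduct.includeRight : K →ₐ[ℚ] SemiLocal K q).toRingHom.mapMatrix
          (Matrix.of fun (σ τ : K ≃ₐ[ℚ] K) => σ (b τ)) := by
      ext σ τ
      simp only [Matrix.of_apply, RingHom.mapMatrix_apply, Matrix.map_apply]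
      rw [hβ]
      change semiLocalEquiv ℚ K q σ ((1 : Qp q) ⊗ₜ[ℚ] b τ) = (1 : Qp q) ⊗ₜ[ℚ] σ (b τ)
      rw [semiLocalEquiv_tmul]
    rw [h1, ← RingHom.map_det]
    exact (IsUnit.mk0 _ (H12.det_conj_ne_zero b)).map _
  exact H12.algebraMap_norm_eq_prod_of_conj β
    (fun σ => (semiLocalEquiv ℚ K q σ : SemiLocal K q →+* SemiLocal K q))
    (fun σ a => (semiLocalEquiv ℚ K q σ).commutes a) hdet y

end Fermat.Agent.S55.CFT.H25

end
-- ==== END Fermat.Agent.S55.CFT.H25_ThetaProd

-- ==== BEGIN Fermat.Agent.S55.CFT.H56_IdeleBase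
section

set_option autoImplicit false
set_option linter.style.haveILetI false

open NumberField TensorProduct

noncomputable section
namespace Fermat.Agent.S55.CFT.H56

open Fermat.Agent.S55.CFT

section Base

variable (K L : Type) [Field K] [Field L] [NumberField K] [NumberField L] [Algebra K L]

/-- A basis of `ℚ_q ⊗ L` over `ℚ_q ⊗ K` indexed by a `K`-basis of `L`. -/
lemma semiLocal_exists_basis (q : Nat.Primes) :
    letI : Algebra (SemiLocal K q) (SemiLocal L q) := (semiLocalMap K L q).toRingHom.toAlgebra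
    Nonempty (Module.Basis (Module.Free.ChooseBasisIndex K L) (SemiLocal K q) (SemiLocal L q)) := by
  classical
  letI : Algebra (SemiLocal K q) (SemiLocal L q) := (semiLocalMap K L q).toRingHom.toAlgebra
  let b := Module.Free.chooseBasis K L
  let e : SemiLocal L q ≃ₗ[SemiLocal K q] (Module.Free.ChooseBasisIndex K L → SemiLocal K q) :=
    { (semiLocalCoord K L q b) with
      map_smul' := fun s a => by
        funext i
        have := semiLocalCoord_mul K L q b s a i
        simpa [Algebra.smul_def, RingHom.algebraMap_toAlgebra] using this }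
  exact ⟨Module.Basis.ofEquivFun e⟩

/-- The norm of `ℚ_q ⊗ L` over `ℚ_q ⊗ K` on the image of `ℚ_q ⊗ K` is the `[L : K]`-th power. -/
lemma semiLocal_norm_map (q : Nat.Primes) (s : SemiLocal K q) :
    letI : Algebra (SemiLocal K q) (SemiLocal L q) := (semiLocalMap K L q).toRingHom.toAlgebra
    Algebra.norm (SemiLocal K q) (semiLocalMap K L q s) = s ^ Module.finrank K L := by
  letI : Algebra (SemiLocal K q) (SemiLocal L q) := (semiLocalMap K L q).toRingHom.toAlgebra
  obtain ⟨b⟩ := semiLocal_exists_basis K L q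
  have h := Algebra.norm_algebraMap_of_basis b s
  rw [← Module.finrank_eq_card_chooseBasisIndex] at h
  exact h

/-- **T2** (helper13): `N_{L/K}` of the base change of a `T`-idele of `K` is its `[L : K]`-th
power. -/
theorem normLK_base (T : Finset Nat.Primes) (x : IdeleT K T) :
    normLK K L T (baseIdele K L T x) = x ^ Module.finrank K L := by
  funext q
  apply Units.ext
  exact semiLocal_norm_map K L q.1 (x q : SemiLocal K q.1)

/-- `N_{L/ℚ} (base x) = N_{K/ℚ} (x) ^ [L : K]`. -/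
theorem normToQ_base (T : Finset Nat.Primes) (x : IdeleT K T) :
    normToQ L T (baseIdele K L T x) = normToQ K T x ^ Module.finrank K L := by
  rw [← stmt_NormTrans K L T, normLK_base, map_pow]

lemma thetaQ_pow (p : Nat.Primes) (M : ℕ) (T : Finset Nat.Primes) (y : ∀ q : T, (Qp q.1)ˣ)
    (d : ℕ) : thetaQ p M T (y ^ d) = thetaQ p M T y ^ d := by
  rw [thetaQ, thetaQ, ← Finset.prod_pow]
  refine Finset.prod_congr rfl (fun q _ => ?_)
  exact map_pow (thetaLocHom p M q.1) (y q) d

/-- The cyclotomic symbol of `L` on a base-changed idele of `K`: `θ_L(base x) = θ_K(x)^[L:K]`. -/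
theorem cycloTheta_base (p : Nat.Primes) (M : ℕ) (T : Finset Nat.Primes) (x : IdeleT K T) :
    cycloTheta L p M T (baseIdele K L T x) = cycloTheta K p M T x ^ Module.finrank K L := by
  rw [cycloTheta, cycloTheta, normToQ_base, thetaQ_pow]

/-- The cyclotomic symbol of `K` on a norm from `L` is the symbol of `L`:
`θ_K (N_{L/K} y) = θ_L (y)`. -/
theorem cycloTheta_normLK (p : Nat.Primes) (M : ℕ) (T : Finset Nat.Primes) (y : IdeleT L T) :
    cycloTheta K p M T (normLK K L T y) = cycloTheta L p M T y := by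
  rw [cycloTheta, cycloTheta, stmt_NormTrans K L T y]

section Tower

variable (N : Type) [Field N] [NumberField N] [Algebra K N] [Algebra L N] [IsScalarTower K L N]

lemma semiLocalMap_comp (q : Nat.Primes) (s : SemiLocal K q) :
    semiLocalMap L N q (semiLocalMap K L q s) = semiLocalMap K N q s := by
  induction s using TensorProduct.induction_on with
  | zero => simp
  | add s t hs ht => simp only [map_add, hs, ht]
  | tmul x k =>
    simp [semiLocalMap, ← IsScalarTower.algebraMap_apply]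

/-- **T3** (helper13): base change is transitive. -/
theorem base_base (T : Finset Nat.Primes) (x : IdeleT K T) :
    baseIdele L N T (baseIdele K L T x) = baseIdele K N T x := by
  funext q
  apply Units.ext
  exact _root_.Fermat.Agent.S55.CFT.H56.semiLocalMap_comp K L N q.1 (x q : SemiLocal K q.1)

end Tower

lemma semiLocalEquiv_map (q : Nat.Primes) (g : L ≃ₐ[K] L) (s : SemiLocal K q) :
    semiLocalEquiv K L q g (semiLocalMap K L q s) = semiLocalMap K L q s := by
  induction s using TensorProduct.induction_on with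
  | zero => simp
  | add s t hs ht => simp only [map_add, hs, ht]
  | tmul x k => simp [semiLocalMap]

/-- **T3** (helper13): base-changed ideles are Galois-invariant. -/
theorem smul_base (T : Finset Nat.Primes) (g : L ≃ₐ[K] L) (x : IdeleT K T) :
    g • baseIdele K L T x = baseIdele K L T x := by
  funext q
  apply Units.ext
  exact semiLocalEquiv_map K L q.1 g (x q : SemiLocal K q.1)

end Base

/-- **T4 / ADM-UP** (helper13): admissibility passes from `N/K` to `N/F` for an intermediate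
field `F`. -/
theorem admissible_up (K F N : Type) [Field K] [Field F] [Field N] [NumberField K]
    [NumberField F] [NumberField N] [Algebra K F] [Algebra F N] [Algebra K N]
    [IsScalarTower K F N] (T : Finset Nat.Primes) (p : ℕ) (h : Admissible K N T p) :
    Admissible F N T p := by
  haveI := h.gal
  haveI := h.cplx
  refine ⟨IsGalois.tower_top_of_isGalois K F N, NumberField.isTotallyComplex_of_algebra K F,
    h.pmem, ?_, ?_⟩
  · intro P hP hP0 hT
    have hK := h.unr P hP hP0 hT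
    rw [eq_bot_iff]
    intro σ hσ
    rw [Subgroup.mem_bot]
    have h1 : (σ.restrictScalars K : N ≃ₐ[K] N) ∈ P.inertia (N ≃ₐ[K] N) := by
      intro x
      exact hσ x
    rw [hK, Subgroup.mem_bot] at h1
    ext y
    have := DFunLike.congr_fun h1 y
    simpa using this
  · intro F' _ _ _ _ _
    letI : Algebra K F' := ((algebraMap F F').comp (algebraMap K F)).toAlgebra
    haveI : IsScalarTower K F' N := IsScalarTower.of_algebraMap_eq (fun x => by
      rw [RingHom.algebraMap_toAlgebra, RingHom.comp_apply, ← IsScalarTower.algebraMap_apply,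
        ← IsScalarTower.algebraMap_apply])
    exact h.cl F'

/-- `x ↦ 1 ⊗ x`, `L → ℚ_q ⊗ L`, is injective. -/
lemma includeRight_inj (L : Type) [Field L] [NumberField L] (q : Nat.Primes) :
    Function.Injective (Algebra.TensorProduct.includeRight : L →ₐ[ℚ] SemiLocal L q) :=
  Algebra.TensorProduct.includeRight_injective (algebraMap ℚ (Qp q)).injective

/-- **T5a** (helper13): the diagonal embedding is injective for `T ≠ ∅`. -/
theorem diagIdele_injective (L : Type) [Field L] [NumberField L] (T : Finset Nat.Primes)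
    (hT : T.Nonempty) : Function.Injective (diagIdele L T) := by
  obtain ⟨q, hq⟩ := hT
  intro x y h
  have h1 := congrFun h ⟨q, hq⟩
  have h2 := congrArg (fun u : (SemiLocal L q)ˣ => (u : SemiLocal L q)) h1
  exact Units.ext (includeRight_inj L q h2)

/-- **T5b** (helper13): a unit of `F` is a `T`-unit of `N` iff it is a `T`-unit of `F`. -/
theorem map_mem_TUnits_iff (F N : Type) [Field F] [Field N] [NumberField F] [NumberField N]
    [Algebra F N] (T : Finset Nat.Primes) (x : Fˣ) :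
    Units.map (algebraMap F N : F →* N) x ∈ TUnits N T ↔ x ∈ TUnits F T := by
  have hinj : Function.Injective (algebraMap F N) := (algebraMap F N).injective
  have key : ∀ (n : ℕ) (y : F), IsIntegral ℤ (((prodT T : ℕ) : N) ^ n * algebraMap F N y) ↔
      IsIntegral ℤ (((prodT T : ℕ) : F) ^ n * y) := by
    intro n y
    rw [← isIntegral_algebraMap_iff (R := ℤ) hinj, map_mul, map_pow, map_natCast]
  constructor
  · rintro ⟨n, h1, h2⟩
    refine ⟨n, (key n _).1 h1, (key n _).1 ?_⟩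
    have : ((Units.map (algebraMap F N : F →* N) x)⁻¹ : Nˣ) =
        Units.map (algebraMap F N : F →* N) x⁻¹ := by simp
    rw [this] at h2
    exact h2
  · rintro ⟨n, h1, h2⟩
    refine ⟨n, (key n _).2 h1, ?_⟩
    have : ((Units.map (algebraMap F N : F →* N) x)⁻¹ : Nˣ) =
        Units.map (algebraMap F N : F →* N) x⁻¹ := by simp
    rw [this]
    exact (key n _).2 h2

/-- **T5c** (helper13): the `Gal(N/F)`-invariant `T`-units of `N` are the `T`-units of `F`. -/
theorem exists_TUnit_of_invariant (F N : Type) [Field F] [Field N] [NumberField F]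
    [NumberField N] [Algebra F N] [IsGalois F N] (T : Finset Nat.Primes) (y : Nˣ)
    (hy : y ∈ TUnits N T) (hinv : ∀ g : N ≃ₐ[F] N, g • y = y) :
    ∃ x : Fˣ, x ∈ TUnits F T ∧ Units.map (algebraMap F N : F →* N) x = y := by
  have h1 : (y : N) ∈ Set.range (algebraMap F N) := by
    rw [IsGalois.mem_range_algebraMap_iff_fixed]
    intro g
    have := congrArg (fun u : Nˣ => (u : N)) (hinv g)
    exact this
  obtain ⟨x, hx⟩ := h1
  have hx0 : x ≠ 0 := by
    rintro rfl
    rw [map_zero] at hx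
    exact y.ne_zero hx.symm
  have hxy : Units.map (algebraMap F N : F →* N) (Units.mk0 x hx0) = y := Units.ext hx
  exact ⟨Units.mk0 x hx0, (map_mem_TUnits_iff F N T _).1 (hxy ▸ hy), hxy⟩

end Fermat.Agent.S55.CFT.H56

end
end
-- ==== END Fermat.Agent.S55.CFT.H56_IdeleBase

-- ==== BEGIN Fermat.Agent.S55.CFT.H56_ThetaOnto
section

set_option autoImplicit false
set_option linter.style.haveILetI false

open NumberField TensorProduct

noncomputable section
namespace Fermat.Agent.S55.CFT.H56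

open Fermat.Agent.S55.CFT

/-! ### The cyclotomic character of a Frobenius -/

lemma absNorm_coprime_of_mem (L : Type) [Field L] [NumberField L] (Q : Ideal (𝓞 L)) [Q.IsPrime]
    (ℓ n : ℕ) (hℓ : ℓ.Prime) (hcop : ℓ.Coprime n) (hℓQ : ((ℓ : ℕ) : 𝓞 L) ∈ Q) :
    (Ideal.absNorm Q).Coprime n := by
  haveI : Q.LiesOver (Ideal.span {(ℓ : ℤ)}) := by
    constructor
    haveI : Fact ℓ.Prime := ⟨hℓ⟩
    have hmax : (Ideal.span {(ℓ : ℤ)}).IsMaximal := Int.ideal_span_isMaximal_of_prime ℓ
    have hle : Ideal.span {(ℓ : ℤ)} ≤ Q.under ℤ := by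
      rw [Ideal.span_singleton_le_iff_mem, Ideal.under_def, Ideal.mem_comap]
      simpa using hℓQ
    exact hmax.eq_of_le (Ideal.IsPrime.ne_top inferInstance) hle
  rw [Ideal.absNorm_eq_pow_inertiaDeg' Q hℓ]
  exact Nat.Coprime.pow_left _ hcop

/-- The cyclotomic character of a Frobenius at a prime of norm `ℓ` is `ℓ`. -/
lemma autToPow_frob (K L : Type) [Field K] [Field L] [NumberField K] [NumberField L]
    [Algebra K L] [IsGalois K L] (n : ℕ) [NeZero n] {ζ : L} (hζ : IsPrimitiveRoot ζ n)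
    (Q : Ideal (𝓞 L)) [Q.IsPrime] (φ : L ≃ₐ[K] L) (ℓ : ℕ) (hℓ : ℓ.Prime)
    (hcop : ℓ.Coprime n) (hℓQ : ((ℓ : ℕ) : 𝓞 L) ∈ Q)
    (hN : Ideal.absNorm (Q.under (𝓞 K)) = ℓ) (hφ : IsArithFrobAt (𝓞 K) φ Q) :
    ((hζ.autToPow K φ : (ZMod n)ˣ) : ZMod n) = (ℓ : ZMod n) := by
  classical
  set a : ℕ := ((hζ.autToPow K φ : (ZMod n)ˣ) : ZMod n).val with ha
  have hspec : ζ ^ a = φ ζ := hζ.autToPow_spec K φ
  have hζ' : IsPrimitiveRoot hζ.toInteger n := hζ.toInteger_isPrimitiveRoot
  -- the Frobenius congruence at `ζ`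
  have hfrob : φ • hζ.toInteger - hζ.toInteger ^ ℓ ∈ Q := by
    have h := hφ hζ.toInteger
    rw [← hN, Ideal.absNorm_apply, Submodule.cardQuot_apply]
    exact h
  have hsmul : φ • hζ.toInteger = hζ.toInteger ^ a := by
    apply RingOfIntegers.ext
    have h1 : ((hζ.toInteger : 𝓞 L) : L) = ζ := hζ.coe_toInteger
    change φ ((hζ.toInteger : 𝓞 L) : L) = ((hζ.toInteger ^ a : 𝓞 L) : L)
    rw [RingOfIntegers.coe_eq_algebraMap, RingOfIntegers.coe_eq_algebraMap, map_pow,
      ← RingOfIntegers.coe_eq_algebraMap, h1, hspec]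
  rw [hsmul] at hfrob
  have hQ1 : Ideal.absNorm Q ≠ 1 := by
    rw [Ne, Ideal.absNorm_eq_one_iff]
    exact Ideal.IsPrime.ne_top inferInstance
  have hQcop : (Ideal.absNorm Q).Coprime n := absNorm_coprime_of_mem L Q ℓ n hℓ hcop hℓQ
  have hinj := Ideal.rootsOfUnityMapQuot_injective (I := Q) n hQ1 hQcop
  -- the two roots of unity
  have hpow : hζ'.toRootsOfUnity ^ a = hζ'.toRootsOfUnity ^ ℓ := by
    apply hinj
    apply Units.ext
    rw [map_pow, map_pow]
    change (Ideal.Quotient.mk Q) (hζ.toInteger) ^ a = (Ideal.Quotient.mk Q) (hζ.toInteger) ^ ℓ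
    rw [← map_pow, ← map_pow, Ideal.Quotient.eq]
    exact hfrob
  have hpow' : hζ.toInteger ^ a = hζ.toInteger ^ ℓ := by
    have := congrArg (fun z : rootsOfUnity n (𝓞 L) => ((z : (𝓞 L)ˣ) : 𝓞 L)) hpow
    simpa using this
  obtain ⟨u, hu⟩ := hζ'.isUnit (NeZero.ne n)
  have hupow : u ^ a = u ^ ℓ := Units.ext (by simp [hu, hpow'])
  have hord : orderOf u = n := by
    rw [← orderOf_units, hu]
    exact hζ'.eq_orderOf.symm
  have hmod : a ≡ ℓ [MOD n] := by
    have := pow_eq_pow_iff_modEq.1 hupow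
    rwa [hord] at this
  have := (ZMod.natCast_eq_natCast_iff a ℓ n).2 hmod
  rw [← this, ha, ZMod.natCast_val, ZMod.cast_id', id]


/-! ### The symbol is a homomorphism -/

lemma cycloTheta_eq (K : Type) [Field K] [NumberField K] (p : Nat.Primes) (M : ℕ)
    (T : Finset Nat.Primes) (x : IdeleT K T) :
    cycloTheta K p M T x = ∏ q : T, thetaLoc p M q.1 (normToQ K T x q) := rfl

/-- The cyclotomic symbol as a homomorphism. -/
def cycloThetaHom (K : Type) [Field K] [NumberField K] (p : Nat.Primes) (M : ℕ)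
    (T : Finset Nat.Primes) : IdeleT K T →* (ZMod ((p : ℕ) ^ M))ˣ where
  toFun := cycloTheta K p M T
  map_one' := by
    rw [cycloTheta_eq]
    refine Finset.prod_eq_one (fun q _ => ?_)
    rw [map_one]
    exact (thetaLocHom p M q.1).map_one
  map_mul' x y := by
    rw [cycloTheta_eq, cycloTheta_eq, cycloTheta_eq, ← Finset.prod_mul_distrib]
    refine Finset.prod_congr rfl (fun q _ => ?_)
    rw [map_mul, Pi.mul_apply, thetaLoc_mul]

lemma cycloTheta_diag (K : Type) [Field K] [NumberField K] (p : Nat.Primes) (M : ℕ)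
    (T : Finset Nat.Primes) (e : Kˣ) :
    cycloTheta K p M T (diagIdele K T e) =
      thetaRat p M T (Units.map (Algebra.norm ℚ : K →* ℚ) e) := by
  rw [thetaRat_apply, cycloTheta_eq, ← Finset.prod_coe_sort T]
  refine Finset.prod_congr rfl (fun q _ => ?_)
  rw [normToQ_diag]

/-! ### The symbol of a prime outside `T` -/

lemma thetaRat_primeQ_notMem (p : Nat.Primes) (M : ℕ) (T : Finset Nat.Primes) (hp : p ∈ T)
    (l : Nat.Primes) (hl : l ∉ T) (h : l ≠ p) :
    thetaRat p M T (primeQ l) = (primeUnit p l M h)⁻¹ := by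
  classical
  rw [thetaRat_apply, Finset.prod_eq_single p]
  · rw [thetaLoc_primeQ_self, dif_neg h]
  · intro q hq hqp
    rw [thetaLoc_primeQ_ne p M q l hqp, if_neg]
    rintro rfl
    exact hl hq
  · intro h'
    exact absurd hp h'

lemma norm_pos_of_totallyComplex (K : Type) [Field K] [NumberField K] [IsTotallyComplex K]
    {x : K} (hx : x ≠ 0) : 0 < Algebra.norm ℚ x :=
  lt_of_le_of_ne (norm_nonneg_of_totallyComplex K x) (Ne.symm (Algebra.norm_ne_zero_iff.2 hx))

/-- For `K` totally complex, the norm of a nonzero integer `a` is `absNorm (a)`. -/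
lemma norm_eq_absNorm (K : Type) [Field K] [NumberField K] [IsTotallyComplex K]
    (a : 𝓞 K) (ha : a ≠ 0) :
    Algebra.norm ℚ (a : K) = ((Ideal.absNorm (Ideal.span {a}) : ℕ) : ℚ) := by
  have hpos : 0 < Algebra.norm ℚ (a : K) :=
    norm_pos_of_totallyComplex K (by simpa using ha)
  rw [Ideal.absNorm_span_singleton, ← Algebra.coe_norm_int] at *
  have hpos' : 0 < Algebra.norm ℤ a := by exact_mod_cast hpos
  rw [Nat.cast_natAbs, abs_of_pos hpos']

lemma absNorm_dvd_prodT_pow (K : Type) [Field K] [NumberField K] (T : Finset Nat.Primes)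
    (J : Ideal (𝓞 K)) (n : ℕ) (hJ : J ∣ Ideal.span {((prodT T : ℤ) : 𝓞 K)} ^ n) :
    Ideal.absNorm J ∣ prodT T ^ (Module.finrank ℚ K * n) := by
  have h := map_dvd Ideal.absNorm hJ
  rw [map_pow, Ideal.absNorm_span_singleton] at h
  have h2 : (Algebra.norm ℤ (((prodT T : ℤ) : 𝓞 K))).natAbs = prodT T ^ Module.finrank ℚ K := by
    have : (((prodT T : ℤ) : 𝓞 K)) = algebraMap ℤ (𝓞 K) (prodT T : ℤ) := by simp
    rw [this, Algebra.norm_algebraMap, Int.natAbs_pow, Int.natAbs_natCast,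
      RingOfIntegers.rank]
  rw [h2, ← pow_mul] at h
  exact h

/-- A prime `v ∤ T` of degree one and norm `ℓ`: the class of `ℓ⁻¹` is a value of the symbol. -/
lemma exists_idele_theta (p : Nat.Primes) (M : ℕ) (K : Type) [Field K] [NumberField K]
    [IsTotallyComplex K] (T : Finset Nat.Primes) (hp : p ∈ T) (hcl : ClTrivial K T)
    (v : Ideal (𝓞 K)) (hv0 : v ≠ ⊥) (l : Nat.Primes) (hl : l ∉ T) (h : l ≠ p)
    (hN : Ideal.absNorm v = (l : ℕ)) :
    ∃ x : IdeleT K T, cycloTheta K p M T x = (primeUnit p l M h)⁻¹ := by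
  obtain ⟨a, b, J, n, ha, hb, hJ, hab⟩ := hcl v hv0
  have h1 : Ideal.absNorm (Ideal.span {a}) * (l : ℕ) =
      Ideal.absNorm (Ideal.span {b}) * Ideal.absNorm J := by
    rw [← hN, ← map_mul, ← map_mul, hab]
  have h2 := absNorm_dvd_prodT_pow K T J n hJ
  have haK : (a : K) ≠ 0 := by simpa using ha
  have hbK : (b : K) ≠ 0 := by simpa using hb
  have hA0 : Ideal.absNorm (Ideal.span {a}) ≠ 0 := by
    rw [Ne, Ideal.absNorm_eq_zero_iff, Ideal.span_singleton_eq_bot]
    exact ha
  have hJ0 : Ideal.absNorm J ≠ 0 := by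
    intro h0
    rw [h0, zero_dvd_iff] at h2
    exact pow_ne_zero _ (prodT_ne_zero T) h2
  let π : Kˣ := Units.mk0 ((b : K) / (a : K)) (div_ne_zero hbK haK)
  have hπ : Algebra.norm ℚ (π : K) * ((Ideal.absNorm J : ℕ) : ℚ) = ((l : ℕ) : ℚ) := by
    have hmul : Algebra.norm ℚ (π : K) * Algebra.norm ℚ (a : K) = Algebra.norm ℚ (b : K) := by
      rw [← map_mul]
      congr 1
      change (b : K) / (a : K) * (a : K) = (b : K)
      field_simp
    rw [norm_eq_absNorm K a ha, norm_eq_absNorm K b hb] at hmul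
    have hA0' : ((Ideal.absNorm (Ideal.span {a}) : ℕ) : ℚ) ≠ 0 := by exact_mod_cast hA0
    have h1' : ((Ideal.absNorm (Ideal.span {a}) : ℕ) : ℚ) * ((l : ℕ) : ℚ) =
        ((Ideal.absNorm (Ideal.span {b}) : ℕ) : ℚ) * ((Ideal.absNorm J : ℕ) : ℚ) := by
      exact_mod_cast h1
    apply mul_left_cancel₀ hA0'
    rw [h1', ← hmul]
    ring
  refine ⟨diagIdele K T π, ?_⟩
  rw [cycloTheta_diag, ← thetaRat_primeQ_notMem p M T hp l hl h]
  have hunit : Units.map (Algebra.norm ℚ : K →* ℚ) π * natQ (Ideal.absNorm J) hJ0 = primeQ l := by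
    apply Units.ext
    exact hπ
  rw [← hunit, map_mul, thetaRat_natQ p M T hp _ hJ0 (fun l' hl' =>
    prime_mem_of_dvd_prodT_pow T _ l' (hl'.trans h2)), mul_one]

/-! ### TH-3 -/

/-- **TH-3**: the image of the cyclotomic symbol has at least `[K(ζ_{p^M}) : K]` elements. -/
theorem stmt_ThetaOnto : Stmt_ThetaOnto := by
  intro p M K L _ _ _ _ _ T _ hcyc hadm
  classical
  haveI := hadm.gal
  haveI := hadm.cplx
  obtain ⟨q0, hq0T, hq0⟩ := hadm.pmem
  have hpT : p ∈ T := by
    have : q0 = p := Subtype.ext hq0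
    rwa [← this]
  haveI : NeZero ((p : ℕ) ^ M) := ⟨pow_ne_zero _ p.2.ne_zero⟩
  haveI := hcyc
  obtain ⟨ζ, hζ⟩ := IsCyclotomicExtension.exists_isPrimitiveRoot K L
    (Set.mem_singleton ((p : ℕ) ^ M)) (NeZero.ne _)
  have hχinj : Function.Injective (hζ.autToPow K) := IsPrimitiveRoot.autToPow_injective K hζ
  have hcl : ClTrivial K T := hadm.cl K
  have key : ∀ g : L ≃ₐ[K] L, hζ.autToPow K g ∈ (cycloThetaHom K p M T).range := by
    intro g
    obtain ⟨Q, φ, ℓ, hQ, hℓ, hℓT, hℓQ, -, -, hN, hφ, hgen⟩ :=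
      Fermat.Agent.Lib.FrobDensity.stmt_FD_rel K L g (Finset.image (fun q : Nat.Primes => (q : ℕ)) T)
    haveI := hQ
    let l : Nat.Primes := ⟨ℓ, hℓ⟩
    have hlT : l ∉ T := fun h =>
      hℓT (Finset.mem_image_of_mem (fun q : Nat.Primes => (q : ℕ)) h)
    have hlp : l ≠ p := fun h => hlT (h ▸ hpT)
    have hcop : ℓ.Coprime ((p : ℕ) ^ M) :=
      Nat.Coprime.pow_right M ((Nat.coprime_primes hℓ p.2).2 (fun e => hlp (Subtype.ext e)))
    have h1 : hζ.autToPow K φ = primeUnit p l M hlp := by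
      apply Units.ext
      rw [autToPow_frob K L _ hζ Q φ ℓ hℓ hcop hℓQ hN hφ]
      rfl
    have hv0 : Q.under (𝓞 K) ≠ ⊥ := by
      intro h0
      rw [h0] at hN
      simp at hN
      exact hℓ.ne_zero hN.symm
    obtain ⟨x, hx⟩ := exists_idele_theta p M K T hpT hcl (Q.under (𝓞 K)) hv0 l hlT hlp hN
    have h2 : hζ.autToPow K φ ∈ (cycloThetaHom K p M T).range := by
      rw [h1, ← inv_mem_iff]
      exact ⟨x, hx⟩
    have hg : g ∈ Subgroup.zpowers φ := hgen ▸ Subgroup.mem_zpowers g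
    obtain ⟨k, rfl⟩ := Subgroup.mem_zpowers_iff.1 hg
    rw [map_zpow]
    exact Subgroup.zpow_mem _ h2 k
  rw [← IsGalois.card_aut_eq_finrank K L]
  refine Nat.card_le_card_of_injective
    (fun g => (⟨hζ.autToPow K g, key g⟩ : Set.range (cycloTheta K p M T))) ?_
  intro g g' hgg
  exact hχinj (congrArg Subtype.val hgg)

end Fermat.Agent.S55.CFT.H56

end
end
-- ==== END Fermat.Agent.S55.CFT.H56_ThetaOnto

-- ==== BEGIN Fermat.Agent.S55.CFT.H80_JCycField
section

set_option autoImplicit false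

open CategoryTheory groupCohomology

noncomputable section

namespace Fermat.Agent.S55.CFT.H80

section FieldCase

variable (q : ℕ) [Fact q.Prime] {G E : Type} [Group G] [Fintype G] [Field E]
  [Algebra ℚ_[q] E] [FiniteDimensional ℚ_[q] E] [MulSemiringAction G E]
  [FaithfulSMul G E]
  [MulDistribMulAction G Eˣ]

/-- `ℚ_q` maps to the fixed field. -/
def fixAlgHom (hcomm : ∀ (σ : G) (a : ℚ_[q]), σ • (algebraMap ℚ_[q] E a) = algebraMap ℚ_[q] E a) :
    ℚ_[q] →+* FixedPoints.subfield G E :=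
  (algebraMap ℚ_[q] E).codRestrict (FixedPoints.subfield G E) (fun a σ => hcomm σ a)

variable (hcompat : ∀ (σ : G) (u : Eˣ), ((σ • u : Eˣ) : E) = σ • (u : E))
  (g : G) (hg : ∀ x, x ∈ Subgroup.zpowers g) (p : ℕ) (hp : Nat.card G = p) (hpp : p.Prime)

include hcompat in
omit [Fintype G] [FiniteDimensional ℚ_[q] E] [FaithfulSMul G E] [Algebra ℚ_[q] E]
  [Fact q.Prime] in
lemma coe_nmHom_field (u : Eˣ) :
    ((nmHom g p u : Eˣ) : E) = ∏ i ∈ Finset.range p, g ^ i • (u : E) := by
  rw [nmHom_apply, Units.coe_prod]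
  exact Finset.prod_congr rfl (fun i _ => hcompat _ _)

include hg hp in
omit [FiniteDimensional ℚ_[q] E] [FaithfulSMul G E] [Algebra ℚ_[q] E]
  [Fact q.Prime] [MulDistribMulAction G Eˣ] in
lemma prod_pow_eq_prod_univ (x : E) :
    ∏ i ∈ Finset.range p, g ^ i • x = ∏ σ : G, σ • x := by
  classical
  have hord : orderOf g = p := by
    rw [orderOf_eq_card_of_forall_mem_zpowers hg, hp]
  rw [← IsCyclic.image_range_orderOf hg, hord, Finset.prod_image]
  intro i hi j hj hij
  rw [← hord] at hi hj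
  exact pow_injOn_Iio_orderOf (by simpa using hi) (by simpa using hj) hij

include hg in
omit [Fintype G] [FiniteDimensional ℚ_[q] E] [FaithfulSMul G E] [Algebra ℚ_[q] E]
  [Fact q.Prime] [MulDistribMulAction G Eˣ] in
lemma fixed_of_gen (x : E) (hx : g • x = x) (σ : G) : σ • x = x := by
  obtain ⟨n, rfl⟩ := Subgroup.mem_zpowers_iff.mp (hg σ)
  have h1 : ∀ m : ℕ, g ^ m • x = x := by
    intro m
    induction m with
    | zero => simp
    | succ m ih => rw [pow_succ, mul_smul, hx, ih]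
  rcases Int.eq_nat_or_neg n with ⟨m, rfl | rfl⟩
  · rw [zpow_natCast]
    exact h1 m
  · rw [zpow_neg, zpow_natCast, inv_smul_eq_iff]
    exact (h1 m).symm

include hg hp in
omit [FiniteDimensional ℚ_[q] E] [Algebra ℚ_[q] E]
  [Fact q.Prime] [MulDistribMulAction G Eˣ] in
lemma algebraMap_norm_eq (x : E) :
    algebraMap (FixedPoints.subfield G E) E (Algebra.norm (FixedPoints.subfield G E) x) =
      ∏ i ∈ Finset.range p, g ^ i • x := by
  rw [Algebra.norm_eq_prod_automorphisms, prod_pow_eq_prod_univ g hg p hp]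
  exact (Fintype.prod_equiv (FixedPoints.toAlgAutMulEquiv G E).toEquiv _ _ (fun σ => rfl)).symm

/-- The inclusion of the units of the fixed field. -/
def fixUnits : (FixedPoints.subfield G E)ˣ →* Eˣ :=
  Units.map (algebraMap (FixedPoints.subfield G E) E : FixedPoints.subfield G E →* E)

omit [Fintype G] [FaithfulSMul G E] [MulDistribMulAction G Eˣ] in
lemma fixUnits_injective : Function.Injective (fixUnits (G := G) (E := E)) := by
  intro a b hab
  apply Units.ext
  apply (algebraMap (FixedPoints.subfield G E) E).injective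
  exact congrArg Units.val hab

include hcompat hg in
omit [Fintype G] [FaithfulSMul G E] in
lemma invSub_eq_map :
    invSub (M := Eˣ) g = (⊤ : Subgroup (FixedPoints.subfield G E)ˣ).map fixUnits := by
  ext u
  rw [mem_invSub, Subgroup.mem_map]
  constructor
  · intro hu
    have hu' : g • (u : E) = u := by
      rw [← hcompat, hu]
    have hmem : (u : E) ∈ FixedPoints.subfield G E := fun σ => fixed_of_gen g hg _ hu' σ
    refine ⟨Units.mk0 ⟨(u : E), hmem⟩ ?_, Subgroup.mem_top _, ?_⟩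
    · intro h0
      exact u.ne_zero (congrArg Subtype.val h0)
    · apply Units.ext
      rfl
  · rintro ⟨y, -, rfl⟩
    apply Units.ext
    rw [hcompat]
    exact (y : FixedPoints.subfield G E).2 g

include hcompat hg hp in
lemma range_nmHom_eq_map :
    (nmHom (M := Eˣ) g p).range = (normSubgroup (FixedPoints.subfield G E) E).map fixUnits := by
  rw [normSubgroup, MonoidHom.map_range]
  congr 1
  ext u
  rw [coe_nmHom_field hcompat, ← algebraMap_norm_eq g hg p hp]
  rfl

include q hcompat hg hp hpp in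
/-- `#H²(G, Eˣ) = p` for a finite extension `E` of `ℚ_q` with a faithful action of the cyclic
group `G` of prime order `p`. -/
theorem field_card_h2 (hLOC : Stmt_LocalNormIndex)
    (hcomm : ∀ (σ : G) (a : ℚ_[q]), σ • (algebraMap ℚ_[q] E a) = algebraMap ℚ_[q] E a) :
    Nat.card (groupCohomology (Rep.ofMulDistribMulAction G Eˣ) 2) = p := by
  rw [card_h2 g hg p hp, invSub_eq_map hcompat g hg, range_nmHom_eq_map hcompat g hg p hp,
    Subgroup.relIndex_map_map_of_injective _ _ fixUnits_injective, Subgroup.relIndex_top_right]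
  let _ : Algebra ℚ_[q] (FixedPoints.subfield G E) := (fixAlgHom q hcomm).toAlgebra
  have : IsScalarTower ℚ_[q] (FixedPoints.subfield G E) E :=
    IsScalarTower.of_algebraMap_eq (fun x => rfl)
  have : FiniteDimensional ℚ_[q] (FixedPoints.subfield G E) :=
    FiniteDimensional.left ℚ_[q] (FixedPoints.subfield G E) E
  exact hLOC q (FixedPoints.subfield G E) E p hpp
    (by rw [FixedPoints.finrank_eq_card, ← Nat.card_eq_fintype_card, hp])

include hcompat hg hp in
omit [Algebra ℚ_[q] E] [FiniteDimensional ℚ_[q] E] [Fact q.Prime] in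
/-- Hilbert 90: `H¹(G, Eˣ) = 0`. -/
theorem field_h1 : Subsingleton (groupCohomology (Rep.ofMulDistribMulAction G Eˣ) 1) := by
  apply h1_subsingleton g hg p hp
  intro u hu
  have h1 : Algebra.norm (FixedPoints.subfield G E) (u : E) = 1 := by
    apply (algebraMap (FixedPoints.subfield G E) E).injective
    rw [algebraMap_norm_eq g hg p hp, map_one, ← coe_nmHom_field hcompat, hu, Units.val_one]
  let g' : E ≃ₐ[FixedPoints.subfield G E] E := FixedPoints.toAlgAutMulEquiv G E g
  have hg' : ∀ x, x ∈ Subgroup.zpowers g' := by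
    intro x
    obtain ⟨σ, rfl⟩ := (FixedPoints.toAlgAutMulEquiv G E).surjective x
    obtain ⟨n, rfl⟩ := Subgroup.mem_zpowers_iff.mp (hg σ)
    exact ⟨n, (map_zpow _ g n).symm⟩
  have : IsCyclic (E ≃ₐ[FixedPoints.subfield G E] E) := ⟨g', hg'⟩
  obtain ⟨y, hy⟩ := groupCohomology.exists_div_of_norm_eq_one hg' h1
  refine ⟨y, ?_⟩
  apply Units.ext
  rw [Units.val_mul, hcompat, ← hy]
  change (y : E) / (g • (y : E)) * (g • (y : E)) = y
  have hne : g • (y : E) ≠ 0 := by
    rw [← hcompat]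
    exact Units.ne_zero _
  exact div_mul_cancel₀ _ hne

end FieldCase

end Fermat.Agent.S55.CFT.H80

end
end
-- ==== END Fermat.Agent.S55.CFT.H80_JCycField

-- ==== BEGIN Fermat.Agent.S55.CFT.H80_JCycSplit
section

set_option autoImplicit false

open CategoryTheory groupCohomology

namespace Fermat.Agent.S55.CFT.H80

section Gen

lemma smul_eq_of_gen {G X : Type*} [Group G] [MulAction G X] (g : G)
    (hg : ∀ x, x ∈ Subgroup.zpowers g) (x : X) (hx : g • x = x) (σ : G) : σ • x = x := by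
  obtain ⟨n, rfl⟩ := Subgroup.mem_zpowers_iff.mp (hg σ)
  have h1 : ∀ m : ℕ, g ^ m • x = x := by
    intro m
    induction m with
    | zero => simp
    | succ m ih => rw [pow_succ, mul_smul, hx, ih]
  rcases Int.eq_nat_or_neg n with ⟨m, rfl | rfl⟩
  · rw [zpow_natCast]
    exact h1 m
  · rw [zpow_neg, zpow_natCast, inv_smul_eq_iff]
    exact (h1 m).symm

lemma isReduced_quotient_idem {R : Type*} [CommRing R] [IsReduced R] (w : R)
    (hw : IsIdempotentElem w) : IsReduced (R ⧸ Ideal.span {1 - w}) := by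
  constructor
  rintro x ⟨n, hn⟩
  obtain ⟨y, rfl⟩ := Ideal.Quotient.mk_surjective x
  rw [← map_pow, Ideal.Quotient.eq_zero_iff_mem, Ideal.mem_span_singleton'] at hn
  obtain ⟨z, hz⟩ := hn
  have hw1 : w * (1 - w) = 0 := by
    rw [mul_sub, mul_one, hw.eq, sub_self]
  have hnil : IsNilpotent (w * y) := by
    refine ⟨n + 1, ?_⟩
    rw [mul_pow, pow_succ y, ← hz, hw.pow_succ_eq]
    calc w * (z * (1 - w) * y) = (w * (1 - w)) * (z * y) := by ring
      _ = 0 := by rw [hw1, zero_mul]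
  have h0 : w * y = 0 := hnil.eq_zero
  rw [Ideal.Quotient.eq_zero_iff_mem, Ideal.mem_span_singleton']
  refine ⟨y, ?_⟩
  rw [mul_sub, mul_one, mul_comm y w, h0, sub_zero]

end Gen

section SplitCoh

variable {G C : Type} [Group G] [Fintype G] [CommRing C] [MulSemiringAction G C]
  [MulDistribMulAction G Cˣ]
  (hcompat : ∀ (σ : G) (u : Cˣ), ((σ • u : Cˣ) : C) = σ • (u : C))
  (g : G) (hg : ∀ x, x ∈ Subgroup.zpowers g) (p : ℕ) (hp : Nat.card G = p)

include hcompat in
omit [Fintype G] in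
lemma coe_nmHom (u : Cˣ) :
    ((nmHom g p u : Cˣ) : C) = ∏ i ∈ Finset.range p, g ^ i • (u : C) := by
  rw [nmHom_apply, Units.coe_prod]
  exact Finset.prod_congr rfl (fun i _ => hcompat _ _)

include hcompat hg hp in
theorem split_h1 (e : C) (h : SplitIdem g p e) :
    Subsingleton (groupCohomology (Rep.ofMulDistribMulAction G Cˣ) 1) := by
  apply h1_subsingleton g hg p hp
  intro u hu
  have hgp : g ^ p = 1 := by
    rw [← hp]
    exact pow_card_eq_one'
  have hu' : ∏ i ∈ Finset.range p, g ^ i • (u : C) = 1 := by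
    rw [← coe_nmHom hcompat, hu, Units.val_one]
  obtain ⟨w, hw⟩ := h.h90 hgp u hu'
  refine ⟨w, ?_⟩
  apply Units.ext
  rw [Units.val_mul, hcompat]
  exact hw

include hcompat hg hp in
theorem split_card_h2 (e : C) (h : SplitIdem g p e) (hp0 : 0 < p) :
    Nat.card (groupCohomology (Rep.ofMulDistribMulAction G Cˣ) 2) = 1 := by
  apply card_h2_eq_one g hg p hp
  intro u hu
  have hu' : g • (u : C) = u := by
    rw [← hcompat, hu]
  obtain ⟨y, hy⟩ := h.norm_surj hp0 u hu'
  refine ⟨y, ?_⟩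
  apply Units.ext
  rw [coe_nmHom hcompat]
  exact hy

end SplitCoh

section NotField

variable {G C : Type*} [Group G] [CommRing C] [MulSemiringAction G C]

lemma SplitIdem.not_isField [Nontrivial C] (g : G) (p : ℕ) (hp : 2 ≤ p) (e : C)
    (h : SplitIdem g p e) : ¬ IsField C := by
  intro hC
  have h01 := h.orth 0 1 (by omega) (by omega) (by omega)
  rw [pow_zero, one_smul, pow_one] at h01
  have hdom : IsDomain C := hC.isDomain
  have he0 : e = 0 := by
    rcases mul_eq_zero.mp h01 with h0 | h0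
    · exact h0
    · have := congrArg (fun x => g⁻¹ • x) h0
      simpa using this
  have hsum := h.sum
  rw [he0] at hsum
  simp only [smul_zero, Finset.sum_const_zero] at hsum
  exact zero_ne_one hsum

end NotField

end Fermat.Agent.S55.CFT.H80

end
-- ==== END Fermat.Agent.S55.CFT.H80_JCycSplit

-- ==== BEGIN Fermat.Agent.S55.CFT.H96_DegCount
section

set_option autoImplicit false

open NumberField TensorProduct

noncomputable section

namespace Fermat.Agent.S55.CFT.H96

open Fermat.Agent.S55.CFT Fermat.Agent.S55.CFT.H80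

variable (K L : Type) [Field K] [Field L] [NumberField K] [NumberField L] [Algebra K L]

/-- A maximal ideal of `ℚ_q ⊗ L` containing `𝔪 (ℚ_q ⊗ L)` lies over `𝔪`. -/
theorem comap_eq_of_placeIdeal_le (q : Nat.Primes) (𝔪 : MaximalSpectrum (SemiLocal K q))
    (𝔑 : Ideal (SemiLocal L q)) (h𝔑 : 𝔑.IsMaximal) (hle : _root_.Fermat.Agent.S55.CFT.placeIdeal K L ⟨q, 𝔪⟩ ≤ 𝔑) :
    𝔑.comap (semiLocalMap K L q) = 𝔪.asIdeal := by
  have h1 : 𝔪.asIdeal ≤ 𝔑.comap (semiLocalMap K L q) := Ideal.map_le_iff_le_comap.mp hle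
  have h2 : 𝔑.comap (semiLocalMap K L q) ≠ ⊤ :=
    (Ideal.comap_isPrime (semiLocalMap K L q) 𝔑 (H := h𝔑.isPrime)).ne_top
  exact (𝔪.isMaximal.eq_of_le h2 h1).symm

theorem placeIdeal_le_of_comap_eq (q : Nat.Primes) (𝔪 : MaximalSpectrum (SemiLocal K q))
    (𝔑 : Ideal (SemiLocal L q)) (h : 𝔑.comap (semiLocalMap K L q) = 𝔪.asIdeal) :
    _root_.Fermat.Agent.S55.CFT.placeIdeal K L ⟨q, 𝔪⟩ ≤ 𝔑 := by
  show 𝔪.asIdeal.map (semiLocalMap K L q) ≤ 𝔑
  rw [Ideal.map_le_iff_le_comap, h]

/-- The maximal ideal of `ℚ_q ⊗ L` under a maximal ideal of `LocAlg K L v`. -/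
def liftMax (v : Place K) (𝔑 : MaximalSpectrum (LocAlg K L v)) :
    MaximalSpectrum (SemiLocal L v.1) :=
  ⟨𝔑.asIdeal.comap (Ideal.Quotient.mk (_root_.Fermat.Agent.S55.CFT.placeIdeal K L v)),
    Ideal.comap_isMaximal_of_surjective _ Ideal.Quotient.mk_surjective (K := 𝔑.asIdeal)
      (H := 𝔑.isMaximal)⟩

theorem placeIdeal_le_liftMax (v : Place K) (𝔑 : MaximalSpectrum (LocAlg K L v)) :
    _root_.Fermat.Agent.S55.CFT.placeIdeal K L v ≤ (liftMax K L v 𝔑).asIdeal := by
  intro x hx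
  show Ideal.Quotient.mk (_root_.Fermat.Agent.S55.CFT.placeIdeal K L v) x ∈ 𝔑.asIdeal
  rw [Ideal.Quotient.eq_zero_iff_mem.mpr hx]
  exact 𝔑.asIdeal.zero_mem

theorem liftMax_injective (v : Place K) : Function.Injective (liftMax K L v) := by
  intro 𝔑 𝔑' h
  apply MaximalSpectrum.ext
  have h1 : 𝔑.asIdeal.comap (Ideal.Quotient.mk (_root_.Fermat.Agent.S55.CFT.placeIdeal K L v))
      = 𝔑'.asIdeal.comap (Ideal.Quotient.mk (_root_.Fermat.Agent.S55.CFT.placeIdeal K L v)) :=
    congrArg MaximalSpectrum.asIdeal h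
  exact Ideal.comap_injective_of_surjective _ Ideal.Quotient.mk_surjective h1

theorem exists_liftMax_eq (v : Place K) (𝔐 : MaximalSpectrum (SemiLocal L v.1))
    (h : _root_.Fermat.Agent.S55.CFT.placeIdeal K L v ≤ 𝔐.asIdeal) : ∃ 𝔑, liftMax K L v 𝔑 = 𝔐 := by
  have hker : RingHom.ker (Ideal.Quotient.mk (_root_.Fermat.Agent.S55.CFT.placeIdeal K L v)) ≤ 𝔐.asIdeal := by
    rw [Ideal.mk_ker]
    exact h
  have hmax : (𝔐.asIdeal.map (Ideal.Quotient.mk (_root_.Fermat.Agent.S55.CFT.placeIdeal K L v))).IsMaximal :=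
    Ideal.map_eq_top_or_isMaximal_of_surjective _ Ideal.Quotient.mk_surjective 𝔐.isMaximal
      |>.resolve_left (by
        intro htop
        have h1 := Ideal.comap_map_of_surjective (Ideal.Quotient.mk (_root_.Fermat.Agent.S55.CFT.placeIdeal K L v))
          Ideal.Quotient.mk_surjective 𝔐.asIdeal
        rw [htop, Ideal.comap_top] at h1
        have h2 : 𝔐.asIdeal ⊔ Ideal.comap (Ideal.Quotient.mk (_root_.Fermat.Agent.S55.CFT.placeIdeal K L v)) ⊥ = 𝔐.asIdeal := by
          rw [sup_eq_left]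
          exact hker
        rw [h2] at h1
        exact 𝔐.isMaximal.ne_top h1.symm)
  refine ⟨⟨_, hmax⟩, ?_⟩
  apply MaximalSpectrum.ext
  show (𝔐.asIdeal.map (Ideal.Quotient.mk (_root_.Fermat.Agent.S55.CFT.placeIdeal K L v))).comap
    (Ideal.Quotient.mk (_root_.Fermat.Agent.S55.CFT.placeIdeal K L v)) = 𝔐.asIdeal
  rw [Ideal.comap_map_of_surjective _ Ideal.Quotient.mk_surjective, sup_eq_left]
  exact hker

/-- The number of maximal ideals of `LocAlg K L v` is the number of primes of `𝓞 L` above the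
prime of `v`. -/
theorem card_maxSpec_locAlg (q : Nat.Primes) (𝔪 : MaximalSpectrum (SemiLocal K q)) :
    Nat.card (MaximalSpectrum (LocAlg K L ⟨q, 𝔪⟩))
      = ((placeQ K q 𝔪).primesOver (𝓞 L)).ncard := by
  have := fact_primes q
  have hmp : Ideal.IsPrime (𝔪.asIdeal : Ideal (ℚ_[(q : ℕ)] ⊗[ℚ] K)) := 𝔪.isMaximal.isPrime
  rw [← Nat.card_coe_set_eq]
  let f : MaximalSpectrum (LocAlg K L ⟨q, 𝔪⟩) → (placeQ K q 𝔪).primesOver (𝓞 L) := fun 𝔑 =>
    ⟨placeQ L q (liftMax K L ⟨q, 𝔪⟩ 𝔑), placeQ_isPrime L q _, by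
      have hp : Ideal.IsPrime ((liftMax K L ⟨q, 𝔪⟩ 𝔑).asIdeal : Ideal (ℚ_[(q : ℕ)] ⊗[ℚ] L)) :=
        (liftMax K L ⟨q, 𝔪⟩ 𝔑).isMaximal.isPrime
      exact placeOf_liesOver (q : ℕ) K L 𝔪.asIdeal (liftMax K L ⟨q, 𝔪⟩ 𝔑).asIdeal
        (comap_eq_of_placeIdeal_le K L q 𝔪 _ (liftMax K L ⟨q, 𝔪⟩ 𝔑).isMaximal
          (placeIdeal_le_liftMax K L ⟨q, 𝔪⟩ 𝔑))⟩
  refine Nat.card_eq_of_bijective f ⟨?_, ?_⟩
  · intro 𝔑 𝔑' h
    have h1 : placeQ L q (liftMax K L ⟨q, 𝔪⟩ 𝔑) = placeQ L q (liftMax K L ⟨q, 𝔪⟩ 𝔑') :=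
      congrArg Subtype.val h
    exact liftMax_injective K L ⟨q, 𝔪⟩ (placeQ_injective L q _ _ h1)
  · rintro ⟨w, hw, hwv⟩
    have hwv' : w.LiesOver (placeOf (q : ℕ) K 𝔪.asIdeal) := hwv
    obtain ⟨𝔐, h𝔐, hcomap, hpl⟩ := exists_over_of_liesOver (q : ℕ) K L 𝔪.asIdeal w
    obtain ⟨𝔑, h𝔑⟩ := exists_liftMax_eq K L ⟨q, 𝔪⟩ ⟨𝔐, h𝔐⟩
      (placeIdeal_le_of_comap_eq K L q 𝔪 𝔐 hcomap)
    refine ⟨𝔑, Subtype.ext ?_⟩
    show placeQ L q (liftMax K L ⟨q, 𝔪⟩ 𝔑) = w
    rw [h𝔑]
    exact hpl

end Fermat.Agent.S55.CFT.H96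

end
end
-- ==== END Fermat.Agent.S55.CFT.H96_DegCount

-- ==== BEGIN Fermat.Agent.S55.CFT.H96_SemiLocalComplete
section

set_option autoImplicit false

open NumberField TensorProduct

noncomputable section

namespace Fermat.Agent.S55.CFT.H96

open Fermat.Agent.S55.CFT Fermat.Agent.S55.CFT.H12

attribute [local instance] Fermat.Agent.S55.CFT.fact_primes

variable {K : Type} [Field K] [NumberField K] {q : Nat.Primes}

/-- `ρ = 1 / q`. -/
def rho (q : Nat.Primes) : ℝ := ((q : ℕ) : ℝ)⁻¹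

theorem rho_pos (q : Nat.Primes) : 0 < rho q := by
  unfold rho
  have : (0 : ℝ) < ((q : ℕ) : ℝ) := by exact_mod_cast q.2.pos
  positivity

theorem rho_lt_one (q : Nat.Primes) : rho q < 1 := by
  unfold rho
  have : (1 : ℝ) < ((q : ℕ) : ℝ) := by exact_mod_cast q.2.one_lt
  exact inv_lt_one_of_one_lt₀ this

theorem norm_q_pow (q : Nat.Primes) (n : ℕ) : ‖(((q : ℕ) : Qp q)) ^ n‖ = rho q ^ n := by
  rw [norm_pow, Padic.norm_p]
  rfl

theorem q_ne_zero (q : Nat.Primes) : (((q : ℕ) : Qp q)) ≠ 0 := by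
  have h := norm_q_pow q 1
  rw [pow_one, pow_one] at h
  intro h0
  rw [h0, norm_zero] at h
  exact (rho_pos q).ne h

/-- The natural number `q` in `ℚ_q ⊗ K` is the scalar `q`. -/
theorem natCast_pow_mul (n : ℕ) (x : SemiLocal K q) :
    (((q : ℕ) : SemiLocal K q)) ^ n * x = ((((q : ℕ) : Qp q)) ^ n) • x := by
  rw [Algebra.smul_def, map_pow, map_natCast]

/-- Elements of `q ^ n · intSub` in coordinates. -/
theorem mem_ball_iff (x : SemiLocal K q) (n : ℕ) :
    (∃ r ∈ intSub K q, x = (((q : ℕ) : SemiLocal K q)) ^ n * r)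
      ↔ ∀ i, ‖(slBasis K q).repr x i‖ ≤ rho q ^ n := by
  constructor
  · rintro ⟨r, hr, rfl⟩ i
    rw [natCast_pow_mul, map_smul, Finsupp.smul_apply, smul_eq_mul, norm_mul, norm_q_pow]
    calc rho q ^ n * ‖(slBasis K q).repr r i‖ ≤ rho q ^ n * 1 :=
          mul_le_mul_of_nonneg_left (hr i) (pow_nonneg (rho_pos q).le n)
      _ = rho q ^ n := mul_one _
  · intro h
    have hq : ((((q : ℕ) : Qp q)) ^ n) ≠ 0 := pow_ne_zero n (q_ne_zero q)
    refine ⟨((((q : ℕ) : Qp q)) ^ n)⁻¹ • x, ?_, ?_⟩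
    · intro i
      rw [map_smul, Finsupp.smul_apply, smul_eq_mul, norm_mul, norm_inv, norm_q_pow]
      rw [inv_mul_le_iff₀ (pow_pos (rho_pos q) n), mul_one]
      exact h i
    · rw [natCast_pow_mul, smul_smul, mul_inv_cancel₀ hq, one_smul]

variable (K q)

/-- The ideal `(q)` of `intSub K q`. -/
def qIdeal : Ideal (intSub K q) := Ideal.span {((q : ℕ) : intSub K q)}

variable {K q}

theorem mem_qIdeal_pow_iff (x : intSub K q) (n : ℕ) :
    x ∈ qIdeal K q ^ n ↔ ∀ i, ‖(slBasis K q).repr (x : SemiLocal K q) i‖ ≤ rho q ^ n := by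
  unfold qIdeal
  rw [Ideal.span_singleton_pow, Ideal.mem_span_singleton', ← mem_ball_iff]
  constructor
  · rintro ⟨a, rfl⟩
    refine ⟨a, a.2, ?_⟩
    push_cast
    rw [mul_comm]
  · rintro ⟨r, hr, h⟩
    refine ⟨⟨r, hr⟩, ?_⟩
    apply Subtype.ext
    push_cast
    rw [h, mul_comm]

theorem eq_zero_of_forall_norm_le {c : Qp q} (h : ∀ n : ℕ, ‖c‖ ≤ rho q ^ n) : c = 0 := by
  by_contra hc
  have hpos : 0 < ‖c‖ := norm_pos_iff.mpr hc
  obtain ⟨n, hn⟩ := exists_pow_lt_of_lt_one hpos (rho_lt_one q)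
  exact absurd (h n) (not_le.mpr hn)

instance isAdicComplete_intSub : IsAdicComplete (qIdeal K q) (intSub K q) where
  haus' x hx := by
    have h : ∀ n : ℕ, x ∈ qIdeal K q ^ n := by
      intro n
      have := hx n
      rw [SModEq.zero, ← Ideal.one_eq_top, Ideal.smul_eq_mul, mul_one] at this
      exact this
    apply Subtype.ext
    apply (slBasis K q).repr.injective
    ext i
    rw [ZeroMemClass.coe_zero, map_zero, Finsupp.zero_apply]
    exact eq_zero_of_forall_norm_le (fun n => (mem_qIdeal_pow_iff x n).mp (h n) i)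
  prec' f hf := by
    have h : ∀ {m n : ℕ}, m ≤ n → ∀ i,
        ‖(slBasis K q).repr (f m : SemiLocal K q) i - (slBasis K q).repr (f n : SemiLocal K q) i‖
          ≤ rho q ^ m := by
      intro m n hmn i
      have := hf hmn
      rw [SModEq.sub_mem, ← Ideal.one_eq_top, Ideal.smul_eq_mul, mul_one, mem_qIdeal_pow_iff] at this
      have h1 := this i
      rw [AddSubgroupClass.coe_sub, map_sub, Finsupp.sub_apply] at h1
      exact h1
    -- the coordinates are Cauchy sequences
    have hcau : ∀ i, CauchySeq (fun n => (slBasis K q).repr (f n : SemiLocal K q) i) := by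
      intro i
      rw [Metric.cauchySeq_iff']
      intro ε hε
      obtain ⟨N, hN⟩ := exists_pow_lt_of_lt_one hε (rho_lt_one q)
      refine ⟨N, fun n hn => ?_⟩
      rw [dist_eq_norm, ← norm_neg, neg_sub]
      exact lt_of_le_of_lt (h hn i) hN
    choose L hL using fun i => cauchySeq_tendsto_of_complete (hcau i)
    have hL1 : ∀ (n : ℕ) (i : Idx K),
        ‖(slBasis K q).repr (f n : SemiLocal K q) i - L i‖ ≤ rho q ^ n := by
      intro n i
      have ht : Filter.Tendsto
          (fun N => ‖(slBasis K q).repr (f n : SemiLocal K q) i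
            - (slBasis K q).repr (f N : SemiLocal K q) i‖) Filter.atTop
          (nhds ‖(slBasis K q).repr (f n : SemiLocal K q) i - L i‖) :=
        (tendsto_const_nhds.sub (hL i)).norm
      refine le_of_tendsto ht ?_
      filter_upwards [Filter.eventually_ge_atTop n] with N hN
      exact h hN i
    have hL2 : ∀ i, ‖L i‖ ≤ 1 := by
      intro i
      have h1 := hL1 0 i
      rw [pow_zero] at h1
      have h2 : L i = (slBasis K q).repr (f 0 : SemiLocal K q) i
          - ((slBasis K q).repr (f 0 : SemiLocal K q) i - L i) := by ring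
      rw [h2, sub_eq_add_neg]
      refine (Padic.nonarchimedean _ _).trans (max_le ((f 0).2 i) ?_)
      rw [norm_neg]
      exact h1
    have hrepr : ∀ i, (slBasis K q).repr ((slBasis K q).equivFun.symm L) i = L i := by
      intro i
      rw [← Module.Basis.equivFun_apply, LinearEquiv.apply_symm_apply]
    refine ⟨⟨(slBasis K q).equivFun.symm L, fun i => by rw [hrepr]; exact hL2 i⟩, fun n => ?_⟩
    rw [SModEq.sub_mem, ← Ideal.one_eq_top, Ideal.smul_eq_mul, mul_one, mem_qIdeal_pow_iff]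
    intro i
    rw [AddSubgroupClass.coe_sub, map_sub, Finsupp.sub_apply]
    show ‖(slBasis K q).repr (f n : SemiLocal K q) i
      - (slBasis K q).repr ((slBasis K q).equivFun.symm L) i‖ ≤ rho q ^ n
    rw [hrepr]
    exact hL1 n i

end Fermat.Agent.S55.CFT.H96

end
end
-- ==== END Fermat.Agent.S55.CFT.H96_SemiLocalComplete

-- ==== BEGIN Fermat.Agent.S55.CFT.LOC.Defs_LTO2
section

set_option autoImplicit false

namespace Fermat.Agent.S55.CFT.LOC

/-- **LTO-TR** (the norm of a uniformizer in a totally ramified extension is a uniformizer):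
`L/K` finite extensions of `ℚ_q` with the same residue field, `π` a generator of the value
group of `L`; then `|N_{L/K} π|` generates the value group of `K`.
(Route: `ϖ` a uniformizer of `K` (`H68.stmt_Uniformizer`), `|ϖ| = |π|^e`, `e ≥ 1`;
`[L:K] ≤ e` by `H25.finrank_le_of_residue_eq`; `|N π| = |π|^[L:K]` by LTO-N
(`H20.stmt_NrmNormGen`) is `|ϖ|^m = |π|^(e m)`, so `[L:K] = e m`, `m = 1`.) -/
def Stmt_TotRamNorm : Prop :=
  ∀ (q : ℕ) [Fact q.Prime] (K L : Type) [Field K] [Field L] [Algebra ℚ_[q] K]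
    [FiniteDimensional ℚ_[q] K] [Algebra ℚ_[q] L] [FiniteDimensional ℚ_[q] L] [Algebra K L]
    [IsScalarTower ℚ_[q] K L],
    (∀ y : L, nrm q L y ≤ 1 → ∃ x : K, nrm q L (y - algebraMap K L x) < 1) →
    ∀ π : L, 0 < nrm q L π → nrm q L π < 1 →
      (∀ y : L, y ≠ 0 → ∃ k : ℤ, nrm q L y = nrm q L π ^ k) →
      ∀ x : K, x ≠ 0 → ∃ k : ℤ, nrm q K x = nrm q K (Algebra.norm K π) ^ k

/-- **LTO-CK** (the character of a cyclic extension of degree `p`; pure Galois theory):
for `M/K` finite Galois and an intermediate field `E`, Galois of degree `p` over `K`, there is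
a character `χ : Gal(M/K) → ℤ/p` whose kernel has fixed field `E`.
(`H = E.fixingSubgroup` is normal of index `p`, `G/H ≅ ℤ/p`.) -/
def Stmt_CharKer : Prop :=
  ∀ (p : ℕ) [Fact p.Prime] (K M : Type) [Field K] [Field M] [Algebra K M]
    [FiniteDimensional K M] [IsGalois K M] (E : IntermediateField K M),
    IsGalois K E → Module.finrank K E = p →
    ∃ χ : (M ≃ₐ[K] M) →* Multiplicative (ZMod p), IntermediateField.fixedField χ.ker = E

/-- **LTO-KD** (Kummer degree): if `K` contains a primitive `p^c`-th root of unity, `c ≥ 1`,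
and no primitive `p^(c+1)`-th root of unity, then `[K(ζ) : K] = p` for every primitive
`p^(c+1)`-th root of unity `ζ` in an extension.
(`ζ^p = a ∈ K`; `X^p - a` is irreducible by `X_pow_sub_C_irreducible_of_prime`, since a `p`-th
root of `a` in `K` would be `ζ · ω`, `ω^p = 1`, a primitive `p^(c+1)`-th root of unity.) -/
def Stmt_KummerDeg : Prop :=
  ∀ (p : ℕ) [Fact p.Prime] (c : ℕ) (K M : Type) [Field K] [Field M] [Algebra K M], 1 ≤ c →
    (∃ ζ : K, IsPrimitiveRoot ζ (p ^ c)) → (¬ ∃ ζ : K, IsPrimitiveRoot ζ (p ^ (c + 1))) →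
    ∀ ζ : M, IsPrimitiveRoot ζ (p ^ (c + 1)) →
      Module.finrank K (IntermediateField.adjoin K {ζ}) = p

/-- **LTO-UN** (uniformizers generate `Fˣ`): a proper subgroup of `Fˣ` misses some
uniformizer (= generator of the value group).
(`π` a uniformizer (`H68.stmt_Uniformizer`), `u ∉ H`: one of `π`, `u π` is not in `H`.) -/
def Stmt_UnifNotIn : Prop :=
  ∀ (q : ℕ) [Fact q.Prime] (F : Type) [Field F] [Algebra ℚ_[q] F] [FiniteDimensional ℚ_[q] F]
    (H : Subgroup Fˣ), H ≠ ⊤ →
    ∃ b : Fˣ, b ∉ H ∧ 0 < nrm q F (b : F) ∧ nrm q F (b : F) < 1 ∧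
      ∀ y : F, y ≠ 0 → ∃ k : ℤ, nrm q F y = nrm q F (b : F) ^ k

end Fermat.Agent.S55.CFT.LOC

end
-- ==== END Fermat.Agent.S55.CFT.LOC.Defs_LTO2

-- ==== BEGIN Fermat.Agent.S55.CFT.LOC.Defs_LTO3
section

set_option autoImplicit false

namespace Fermat.Agent.S55.CFT.LOC

open Fermat.Agent.S55.CFT

/-- **LTO-B** (the base field): let `F` be a finite extension of `ℚ_p`, `p` odd, containing a
primitive `p^c`-th root of unity `ζ`, `c ≥ 1`.  Then there is an intermediate field `F'` of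
`F/ℚ_p` with `ζ ∈ F'`, with the same residue field as `F`, and with a unit `u` such that
`θ_{c+1}(N_{F'/ℚ_p} u) ≠ 1`.
(Route: `F₁ = ℚ_p(ζ)`, `N₁ = #k_{F₁}`, `N = #k_F = N₁^d` (`H25.resMap`, finite fields);
`ξ ∈ F` a primitive root of unity of order `N - 1` (exists: `H25.finrank_eq` with `n = 1` for
`F(ξ̄) ⊆ AlgebraicClosure F`); `F' = F₁(ξ)` is unramified cyclic over `F₁`
(`H25.isUnram`, `H25.isCyclic_aut`, cyclotomic); `x₁ ∈ F₁` from LTO-C1 (`H41.stmt_CycUnitTheta`),
`N_{F'/F₁} w = x₁` by LOC-2b (`H68.stmt_UnramNormUnits`), `u = w`, transitivity of norms;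
same residue field: `H25.exists_pow_congr` with `E = L = F`.) -/
def Stmt_LTOBase : Prop :=
  ∀ (p : Nat.Primes) (c : ℕ) (F : Type) [Field F] [Algebra (Qp p) F]
    [FiniteDimensional (Qp p) F], (p : ℕ) ≠ 2 → 1 ≤ c →
    (∃ ζ : F, IsPrimitiveRoot ζ ((p : ℕ) ^ c)) →
    ∃ F' : IntermediateField (Qp p) F,
      (∃ ζ : F', IsPrimitiveRoot ζ ((p : ℕ) ^ c)) ∧
      (haveI := fact_primes p;
        ∀ y : F, nrm (p : ℕ) F y ≤ 1 → ∃ x : F', nrm (p : ℕ) F (y - (x : F)) < 1) ∧
      ∃ u : (↥F')ˣ,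
        thetaLoc p (c + 1) p (Units.map (Algebra.norm (Qp p) : ↥F' →* Qp p) u) ≠ 1

end Fermat.Agent.S55.CFT.LOC

end
-- ==== END Fermat.Agent.S55.CFT.LOC.Defs_LTO3

-- ==== BEGIN Fermat.Agent.S55.CFT.LOC.H20_NrmNormGen
section

/-!
# S55 / E4 / CFT / LOC, leaf LTO-N (helper20): the absolute value of a norm, general case
-/

set_option autoImplicit false

noncomputable section

namespace Fermat.Agent.S55.CFT.LOC.H20

open Fermat.Agent.S55.CFT IntermediateField

/-- The absolute value of a norm, given a finite Galois extension `N/F` containing `E`. -/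
theorem nrm_norm_of_galois (q : ℕ) [Fact q.Prime] (F E N : Type) [Field F] [Field E] [Field N]
    [Algebra ℚ_[q] F] [Algebra ℚ_[q] E] [Algebra ℚ_[q] N] [Algebra F E] [Algebra F N]
    [Algebra E N] [IsScalarTower ℚ_[q] F E] [IsScalarTower ℚ_[q] F N]
    [IsScalarTower ℚ_[q] E N] [IsScalarTower F E N] [FiniteDimensional ℚ_[q] F]
    [FiniteDimensional ℚ_[q] E] [FiniteDimensional ℚ_[q] N] [FiniteDimensional F N]
    [IsGalois F N] (y : E) :
    nrm q F (Algebra.norm F y) = nrm q E y ^ Module.finrank F E := by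
  have hFE : FiniteDimensional F E := FiniteDimensional.right ℚ_[q] F E
  have hEN : FiniteDimensional E N := FiniteDimensional.right F E N
  have hd : 0 < Module.finrank E N := Module.finrank_pos
  have h1 := nrm_norm q F N (algebraMap E N y)
  have h2 : Algebra.norm F (algebraMap E N y) = (Algebra.norm F y) ^ Module.finrank E N := by
    rw [← Algebra.norm_norm (R := F) (S := E) (A := N), Algebra.norm_algebraMap, map_pow]
  rw [h2, nrm_pow, nrm_algebraMap q E N, ← Module.finrank_mul_finrank F E N, pow_mul] at h1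
  exact (pow_left_inj₀ (nrm_nonneg q F _) (pow_nonneg (nrm_nonneg q E _) _) hd.ne').mp h1

end Fermat.Agent.S55.CFT.LOC.H20

namespace Fermat.Agent.S55.CFT.LOC.H20

open Fermat.Agent.S55.CFT IntermediateField

/-- **LTO-N**: `|N_{E/F} y|_F = |y|_E ^ [E : F]` for any finite extension `E/F` of finite
extensions of `ℚ_q`. -/
theorem stmt_NrmNormGen : Stmt_NrmNormGen := by
  intro q _ F E _ _ _ _ _ _ _ _ y
  have hFE : FiniteDimensional F E := FiniteDimensional.right ℚ_[q] F E
  have hchar : CharZero F := charZero_of_injective_algebraMap (algebraMap ℚ_[q] F).injective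
  let L := AlgebraicClosure E
  let N : IntermediateField F L := normalClosure F E L
  have hFN : FiniteDimensional F N := inferInstance
  have hQN : FiniteDimensional ℚ_[q] N := FiniteDimensional.trans ℚ_[q] F N
  have hnorm : Normal F N := inferInstance
  have hgal : IsGalois F N := ⟨⟩
  have htower : IsScalarTower ℚ_[q] E N := by
    refine IsScalarTower.of_algebraMap_eq fun x => ?_
    apply Subtype.ext
    change algebraMap ℚ_[q] L x = algebraMap E L (algebraMap ℚ_[q] E x)
    rw [← IsScalarTower.algebraMap_apply]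
  exact nrm_norm_of_galois q F E N y

end Fermat.Agent.S55.CFT.LOC.H20

end
end
-- ==== END Fermat.Agent.S55.CFT.LOC.H20_NrmNormGen

-- ==== BEGIN Fermat.Agent.S55.CFT.LOC.H20_ThetaLocSurj
section

/-!
# S55 / E4 / CFT / LOC, leaf LTO-S (helper20): the local symbol at `p` is onto
-/

set_option autoImplicit false

noncomputable section

namespace Fermat.Agent.S55.CFT.LOC.H20

open Fermat.Agent.S55.CFT

/-- **LTO-S**: `thetaLoc p M p : ℚ_pˣ → (ℤ/p^M)ˣ` is surjective. -/
theorem stmt_ThetaLocSurj : Stmt_ThetaLocSurj := by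
  intro p M y
  have hfact : Fact ((p : ℕ).Prime) := fact_primes p
  rcases Nat.eq_zero_or_pos M with hM | hM
  · subst hM
    refine ⟨1, ?_⟩
    have hsub : Subsingleton (ZMod ((p : ℕ) ^ 0))ˣ := by
      rw [pow_zero]
      infer_instance
    exact Subsingleton.elim _ _
  · have hne : NeZero ((p : ℕ) ^ M) := ⟨pow_ne_zero _ p.2.ne_zero⟩
    set a : ℕ := ((y⁻¹ : (ZMod ((p : ℕ) ^ M))ˣ) : ZMod ((p : ℕ) ^ M)).val with ha
    have hcop : Nat.Coprime a ((p : ℕ) ^ M) := ZMod.val_coe_unit_coprime _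
    have hcop' : Nat.Coprime (p : ℕ) a :=
      (Nat.Coprime.coprime_dvd_right (dvd_pow_self _ hM.ne') hcop).symm
    have hnorm : ‖((a : ℕ) : ℚ_[(p : ℕ)])‖ = 1 := Padic.norm_natCast_eq_one_iff.mpr hcop'
    have ha0 : ((a : ℕ) : Qp p) ≠ 0 := by
      intro h
      rw [h, norm_zero] at hnorm
      exact zero_ne_one hnorm
    have hval : Padic.valuation ((a : ℕ) : ℚ_[(p : ℕ)]) = 0 := by
      rw [Padic.valuation_natCast]
      have : padicValNat (p : ℕ) a = 0 := by
        apply padicValNat.eq_zero_of_not_dvd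
        intro hd
        exact (Nat.Prime.coprime_iff_not_dvd p.2).mp hcop' hd
      simp [this]
    refine ⟨Units.mk0 ((a : ℕ) : Qp p) ha0, ?_⟩
    rw [H56.thetaLoc_self, inv_eq_iff_eq_inv]
    apply Units.ext
    have hu : ((unitPart p (Units.mk0 ((a : ℕ) : Qp p) ha0) : ℤ_[(p : ℕ)]ˣ) : ℤ_[(p : ℕ)])
        = ((a : ℕ) : ℤ_[(p : ℕ)]) := by
      apply Subtype.ext
      rw [H56.unitPart_val, Units.val_mk0, hval]
      simp
    change (PadicInt.toZModPow M) ((unitPart p _ : ℤ_[(p : ℕ)]ˣ) : ℤ_[(p : ℕ)]) = _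
    rw [hu, map_natCast, ha, ZMod.natCast_zmod_val]

end Fermat.Agent.S55.CFT.LOC.H20

end
end
-- ==== END Fermat.Agent.S55.CFT.LOC.H20_ThetaLocSurj

-- ==== BEGIN Fermat.Agent.S55.CFT.LOC.H24_InfResExact
section

set_option autoImplicit false

open groupCohomology

namespace Fermat.Agent.S55.CFT.LOC.H24

open Fermat.Agent.S55.CFT.H24 in
/-- Exactness of inflation–restriction at `H²(Γ, R)` for `R : Rep ℤ Γ`, with the quotient
presented by a surjection `π : Γ ↠ Q` and the invariants by an embedding `ι : B ↪ R`. -/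
theorem infResExact_rep {Γ Q B : Type} [Group Γ] [Group Q] [AddCommGroup B]
    [DistribMulAction Q B] (R : Rep ℤ Γ) (π : Γ →* Q) (ι : B →+ R)
    (surj : Function.Surjective π) (inj : Function.Injective ι)
    (equiv : ∀ (g : Γ) (b : B), ι (π g • b) = R.ρ g (ι b))
    (image : ∀ a : R, (∀ n : Γ, π n = 1 → R.ρ n a = a) → ∃ b : B, ι b = a)
    (h1 : ∀ f : Γ → R, (∀ n n' : Γ, π n = 1 → π n' = 1 → f (n * n') = R.ρ n (f n') + f n) →
      ∃ a : R, ∀ n : Γ, π n = 1 → R.ρ n a - a = f n)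
    (c' : Γ × Γ → R) (hf : IsCoc R c') (z : Γ → R)
    (hz : ∀ n n' : Γ, π n = 1 → π n' = 1 → R.ρ n (z n') - z (n * n') + z n = c' (n, n')) :
    ∃ c : Q × Q → B, IsCocycle₂ c ∧
      ∃ x : Γ → R, ∀ g h : Γ,
        c' (g, h) = ι (c (π g, π h)) + (R.ρ g (x h) - x (g * h) + x g) := by
  classical
  let S : Subgroup Γ := π.ker
  have hmem : ∀ g : Γ, g ∈ S ↔ π g = 1 := fun g => MonoidHom.mem_ker
  -- `H¹(S, A) = 0`
  have hH1 : H1Vanishes R S := by
    intro c hc
    obtain ⟨a, ha⟩ := h1 (fun g => if h : g ∈ S then c ⟨g, h⟩ else 0) (by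
      intro n n' hn hn'
      have hnS : n ∈ S := (hmem n).2 hn
      have hn'S : n' ∈ S := (hmem n').2 hn'
      simp only [dif_pos hnS, dif_pos hn'S, dif_pos (S.mul_mem hnS hn'S)]
      exact hc ⟨n, hnS⟩ ⟨n', hn'S⟩)
    refine ⟨a, fun s => ?_⟩
    have := ha s ((hmem _).1 s.2)
    simp only [dif_pos s.2] at this
    exact this.symm
  -- stage 1
  set b₁ : Γ → R := fun g => if π g = 1 then -z g else 0 with hb₁
  have hf₁ : IsCoc R (c' + dB R b₁) := hf.add (isCoc_dB b₁)
  have h1' : ∀ s ∈ S, ∀ t ∈ S, (c' + dB R b₁) (s, t) = 0 := by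
    intro s hs t ht
    have hs' := (hmem s).1 hs
    have ht' := (hmem t).1 ht
    have hst' : π (s * t) = 1 := (hmem _).1 (S.mul_mem hs ht)
    have := hz s t hs' ht'
    simp only [Pi.add_apply, dB, hb₁, if_pos hs', if_pos ht', if_pos hst', map_neg]
    rw [← this]
    abel
  -- stage 2
  obtain ⟨b₂, h2⟩ := stage2 S hf₁ h1'
  have hf₂ : IsCoc R (c' + dB R b₁ + dB R b₂) := hf₁.add (isCoc_dB b₂)
  -- stage 3
  obtain ⟨b₃, h3, h3'⟩ := stage3 S hH1 hf₂ h2
  have hf₃ : IsCoc R (c' + dB R b₁ + dB R b₂ + dB R b₃) := hf₂.add (isCoc_dB b₃)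
  set f₃ : Γ × Γ → R := c' + dB R b₁ + dB R b₂ + dB R b₃ with hf₃def
  -- stage 4
  have h4 := fun x y n (hn : n ∈ S) => stage4 S hf₃ h3 h3' x y hn
  have h4a : ∀ x y n : Γ, π n = 1 → f₃ (x, y * n) = f₃ (x, y) :=
    fun x y n hn => (h4 x y n ((hmem n).2 hn)).1
  have h4b : ∀ x y n : Γ, π n = 1 → f₃ (x * n, y) = f₃ (x, y) :=
    fun x y n hn => (h4 x y n ((hmem n).2 hn)).2.1
  have h4c : ∀ x y n : Γ, π n = 1 → R.ρ n (f₃ (x, y)) = f₃ (x, y) :=
    fun x y n hn => (h4 x y n ((hmem n).2 hn)).2.2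
  -- descend the values to `B`
  choose y hy using fun p : Γ × Γ => image (f₃ p) (fun n hn => h4c p.1 p.2 n hn)
  let s : Q → Γ := Function.surjInv surj
  have hs : ∀ q, π (s q) = q := Function.surjInv_eq surj
  have hker : ∀ g : Γ, π (g⁻¹ * s (π g)) = 1 := by
    intro g
    rw [map_mul, map_inv, hs, inv_mul_cancel]
  have hsec : ∀ g h : Γ, f₃ (s (π g), s (π h)) = f₃ (g, h) := by
    intro g h
    have e1 : s (π g) = g * (g⁻¹ * s (π g)) := by simp
    have e2 : s (π h) = h * (h⁻¹ * s (π h)) := by simp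
    rw [e1, e2, h4a _ _ _ (hker h), h4b _ _ _ (hker g)]
  let c : Q × Q → B := fun p => y (s p.1, s p.2)
  have hιc : ∀ g h : Γ, ι (c (π g, π h)) = f₃ (g, h) := by
    intro g h
    show ι (y (s (π g), s (π h))) = _
    rw [hy, hsec]
  refine ⟨c, ?_, fun g => -(b₁ g + b₂ g + b₃ g), ?_⟩
  · intro q r t
    obtain ⟨g, rfl⟩ := surj q
    obtain ⟨h, rfl⟩ := surj r
    obtain ⟨j, rfl⟩ := surj t
    apply inj
    rw [map_add, map_add, equiv, ← map_mul, ← map_mul, hιc, hιc, hιc, hιc]
    exact hf₃ g h j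
  · intro g h
    rw [hιc]
    simp only [hf₃def, Pi.add_apply, dB, map_neg, map_add]
    abel

/-- **LOC-4c'**: exactness of inflation–restriction at `H²(Γ, A)`, shape `InfData`. -/
theorem stmt_InfResExact : Stmt_InfResExact := by
  intro Γ Q A B _ _ _ _ _ _ π ι D c' hc' hz
  obtain ⟨z, hz⟩ := hz
  exact infResExact_rep (Rep.ofDistribMulAction ℤ Γ A) π ι D.surj D.inj D.equiv D.image D.h1
    c' hc' z hz

end Fermat.Agent.S55.CFT.LOC.H24

end
-- ==== END Fermat.Agent.S55.CFT.LOC.H24_InfResExact
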