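-- GENERATED (merged mirror, NOTES/tools/trim/merge3_helper67.py): 7 modules of the originals, bodies verbatim.
import Fermat.Agent.Zm.S56_L04_002
import Fermat.Agent.Zm.S56_L01_003

-- ==== BEGIN Fermat.Agent.S55.CFT.LOC.H25_Residue
section

set_option autoImplicit false
set_option linter.unusedSectionVars false
set_option linter.style.haveILetI false

namespace Fermat.Agent.S55.CFT.LOC.H25

open Fermat.Agent.S55.CFT.LOC

section basic

variable (q : ℕ) [Fact q.Prime] (F : Type) [Field F] [Algebra ℚ_[q] F]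
  [FiniteDimensional ℚ_[q] F]

/-- The valuation ring `{x : |x| ≤ 1}` of `F`. -/
def vring : ValuationSubring F where
  carrier := {x | nrm q F x ≤ 1}
  mul_mem' := by
    intro a b ha hb
    simp only [Set.mem_ofPred_eq] at ha hb ⊢
    rw [nrm_mul]
    exact mul_le_one₀ ha (nrm_nonneg q F b) hb
  one_mem' := by simp
  add_mem' := by
    intro a b ha hb
    simp only [Set.mem_ofPred_eq] at ha hb ⊢
    exact (nrm_add_le_max q F a b).trans (max_le ha hb)
  zero_mem' := by simp
  neg_mem' := by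
    intro a ha
    simp only [Set.mem_ofPred_eq] at ha ⊢
    rwa [nrm_neg]
  mem_or_inv_mem' := by
    intro x
    simp only [Set.mem_ofPred_eq]
    by_cases hx : nrm q F x ≤ 1
    · exact Or.inl hx
    · right
      rw [nrm_inv]
      push Not at hx
      exact inv_le_one_of_one_le₀ hx.le

theorem mem_vring {x : F} : x ∈ vring q F ↔ nrm q F x ≤ 1 := Iff.rfl

theorem nrm_le_one (x : vring q F) : nrm q F (x : F) ≤ 1 := x.2

theorem isUnit_vring_iff (x : vring q F) : IsUnit x ↔ nrm q F (x : F) = 1 := by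
  constructor
  · rintro ⟨u, rfl⟩
    have h1 : nrm q F ((u : vring q F) : F) ≤ 1 := nrm_le_one q F _
    have h2 : nrm q F (((u⁻¹ : (vring q F)ˣ) : vring q F) : F) ≤ 1 := nrm_le_one q F _
    have h3 : ((u : vring q F) : F) * (((u⁻¹ : (vring q F)ˣ) : vring q F) : F) = 1 := by
      exact congrArg (fun z : vring q F => (z : F)) u.mul_inv
    have h4 := congrArg (nrm q F) h3
    rw [nrm_mul, nrm_one] at h4
    have h5 := nrm_nonneg q F ((u : vring q F) : F)
    have h6 := nrm_nonneg q F (((u⁻¹ : (vring q F)ˣ) : vring q F) : F)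
    nlinarith
  · intro h
    have hx0 : (x : F) ≠ 0 := by
      intro h0
      rw [h0, nrm_zero] at h
      exact zero_ne_one h
    have hinv : (x : F)⁻¹ ∈ vring q F := by
      rw [mem_vring, nrm_inv, h, inv_one]
    refine ⟨⟨x, ⟨(x : F)⁻¹, hinv⟩, ?_, ?_⟩, rfl⟩
    · apply Subtype.ext
      simp [mul_inv_cancel₀ hx0]
    · apply Subtype.ext
      simp [inv_mul_cancel₀ hx0]

theorem mem_maximalIdeal_iff (x : vring q F) :
    x ∈ IsLocalRing.maximalIdeal (vring q F) ↔ nrm q F (x : F) < 1 := by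
  rw [IsLocalRing.mem_maximalIdeal, mem_nonunits_iff, isUnit_vring_iff]
  constructor
  · intro h
    exact lt_of_le_of_ne (nrm_le_one q F x) h
  · intro h
    exact h.ne

/-- The residue field of `F`. -/
abbrev resF : Type := IsLocalRing.ResidueField (vring q F)

/-- The residue map. -/
noncomputable abbrev res : vring q F →+* resF q F := IsLocalRing.residue (vring q F)

theorem res_eq_zero_iff (x : vring q F) : res q F x = 0 ↔ nrm q F (x : F) < 1 := by
  rw [IsLocalRing.residue_eq_zero_iff, mem_maximalIdeal_iff]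

theorem res_eq_iff (x y : vring q F) :
    res q F x = res q F y ↔ nrm q F ((x : F) - y) < 1 := by
  rw [← sub_eq_zero, ← map_sub, res_eq_zero_iff]
  rfl

theorem res_surjective : Function.Surjective (res q F) := IsLocalRing.residue_surjective

/-- The residue field is finite. -/
instance finite_resF : Finite (resF q F) := by
  classical
  obtain ⟨T, hT1, hT2⟩ := H68.stmt_FiniteResidue q F (1 / 2) (by norm_num)
  let g : T → resF q F := fun t => res q F ⟨t.1, hT1 t.1 t.2⟩
  have hg : Function.Surjective g := by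
    intro y
    obtain ⟨x, rfl⟩ := res_surjective q F y
    obtain ⟨t, ht, hxt⟩ := hT2 (x : F) (nrm_le_one q F x)
    refine ⟨⟨t, ht⟩, ?_⟩
    change res q F ⟨t, hT1 t ht⟩ = res q F x
    rw [res_eq_iff]
    change nrm q F (t - (x : F)) < 1
    rw [nrm_sub_comm]
    linarith
  exact Finite.of_surjective g hg

noncomputable instance fintype_resF : Fintype (resF q F) := Fintype.ofFinite _

/-- The residue field has characteristic `q`. -/
instance charP_resF : CharP (resF q F) q := by
  have hq : (q : F) ∈ vring q F := by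
    rw [mem_vring, nrm_natCast_q]
    have : (1 : ℝ) ≤ q := by exact_mod_cast (Fact.out : q.Prime).one_lt.le
    exact inv_le_one_of_one_le₀ this
  have h0 : ((q : ℕ) : resF q F) = 0 := by
    have h1 : res q F ⟨(q : F), hq⟩ = 0 := by
      rw [res_eq_zero_iff]
      change nrm q F (q : F) < 1
      rw [nrm_natCast_q]
      have : (1 : ℝ) < q := by exact_mod_cast (Fact.out : q.Prime).one_lt
      exact inv_lt_one_of_one_lt₀ this
    have h2 : (⟨(q : F), hq⟩ : vring q F) = ((q : ℕ) : vring q F) := by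
      apply Subtype.ext
      simp
    rw [h2, map_natCast] at h1
    exact h1
  exact (CharP.charP_iff_prime_eq_zero (Fact.out : q.Prime)).mpr h0

/-- `|m| = 1` for a natural number prime to `q`. -/
theorem nrm_natCast_of_not_dvd {m : ℕ} (hm : ¬ q ∣ m) : nrm q F (m : F) = 1 := by
  have h : (m : F) = algebraMap ℚ_[q] F (m : ℚ_[q]) := by simp
  rw [h, nrm_algebraMap_padic, Padic.norm_natCast_eq_one_iff]
  exact ((Nat.Prime.coprime_iff_not_dvd (Fact.out : q.Prime)).mpr hm)

end basic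

section tower

variable (q : ℕ) [Fact q.Prime] (F E : Type) [Field F] [Field E] [Algebra ℚ_[q] F]
  [FiniteDimensional ℚ_[q] F] [Algebra ℚ_[q] E] [FiniteDimensional ℚ_[q] E] [Algebra F E]
  [IsScalarTower ℚ_[q] F E]

/-- The inclusion of valuation rings in a tower. -/
noncomputable def vringMap : vring q F →+* vring q E where
  toFun x := ⟨algebraMap F E x, by rw [mem_vring, nrm_algebraMap]; exact nrm_le_one q F x⟩
  map_one' := by apply Subtype.ext; simp
  map_mul' x y := by apply Subtype.ext; simp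
  map_zero' := by apply Subtype.ext; simp
  map_add' x y := by apply Subtype.ext; simp

@[simp] theorem coe_vringMap (x : vring q F) :
    ((vringMap q F E x : vring q E) : E) = algebraMap F E (x : F) := rfl

instance isLocalHom_vringMap : IsLocalHom (vringMap q F E) := by
  constructor
  intro x hx
  rw [isUnit_vring_iff] at hx ⊢
  rw [coe_vringMap, nrm_algebraMap] at hx
  exact hx

/-- The inclusion of residue fields in a tower. -/
noncomputable def resMap : resF q F →+* resF q E :=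
  IsLocalRing.ResidueField.map (vringMap q F E)

theorem resMap_res (x : vring q F) :
    _root_.Fermat.Agent.S55.CFT.LOC.H25.resMap q F E (res q F x) = res q E (vringMap q F E x) :=
  IsLocalRing.ResidueField.map_residue _ _

theorem resMap_comp_res :
    (_root_.Fermat.Agent.S55.CFT.LOC.H25.resMap q F E).comp (res q F) = (res q E).comp (vringMap q F E) :=
  IsLocalRing.ResidueField.map_comp_residue _

/-- An automorphism of `E/F` restricted to the valuation ring. -/
noncomputable def vringAut (σ : E ≃ₐ[F] E) : vring q E →+* vring q E where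
  toFun x := ⟨σ x, by rw [mem_vring, nrm_algEquiv]; exact nrm_le_one q E x⟩
  map_one' := by apply Subtype.ext; simp
  map_mul' x y := by apply Subtype.ext; simp
  map_zero' := by apply Subtype.ext; simp
  map_add' x y := by apply Subtype.ext; simp

@[simp] theorem coe_vringAut (σ : E ≃ₐ[F] E) (x : vring q E) :
    ((vringAut q F E σ x : vring q E) : E) = σ (x : E) := rfl

instance isLocalHom_vringAut (σ : E ≃ₐ[F] E) : IsLocalHom (vringAut q F E σ) := by
  constructor
  intro x hx
  rw [isUnit_vring_iff] at hx ⊢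
  rw [coe_vringAut, nrm_algEquiv] at hx
  exact hx

/-- The endomorphism of the residue field induced by an automorphism of `E/F`. -/
noncomputable def resAut (σ : E ≃ₐ[F] E) : resF q E →+* resF q E :=
  IsLocalRing.ResidueField.map (vringAut q F E σ)

theorem resAut_res (σ : E ≃ₐ[F] E) (x : vring q E) :
    resAut q F E σ (res q E x) = res q E (vringAut q F E σ x) :=
  IsLocalRing.ResidueField.map_residue _ _

theorem vringAut_vringMap (σ : E ≃ₐ[F] E) (x : vring q F) :
    vringAut q F E σ (vringMap q F E x) = vringMap q F E x := by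
  apply Subtype.ext
  simp

theorem resAut_resMap (σ : E ≃ₐ[F] E) (a : resF q F) :
    resAut q F E σ (_root_.Fermat.Agent.S55.CFT.LOC.H25.resMap q F E a) = _root_.Fermat.Agent.S55.CFT.LOC.H25.resMap q F E a := by
  obtain ⟨x, rfl⟩ := res_surjective q F a
  rw [resMap_res, resAut_res, vringAut_vringMap]

theorem resAut_comp_resMap (σ : E ≃ₐ[F] E) :
    (resAut q F E σ).comp (_root_.Fermat.Agent.S55.CFT.LOC.H25.resMap q F E) = _root_.Fermat.Agent.S55.CFT.LOC.H25.resMap q F E :=
  RingHom.ext (fun a => resAut_resMap q F E σ a)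

end tower

end Fermat.Agent.S55.CFT.LOC.H25

end
-- ==== END Fermat.Agent.S55.CFT.LOC.H25_Residue

-- ==== BEGIN Fermat.Agent.S55.CFT.LOC.H25_UCSpan
section

set_option autoImplicit false
set_option linter.unusedSectionVars false
set_option linter.style.haveILetI false

namespace Fermat.Agent.S55.CFT.LOC.H25

open Fermat.Agent.S55.CFT.LOC

section sums

variable (q : ℕ) [Fact q.Prime] (F : Type) [Field F] [Algebra ℚ_[q] F]
  [FiniteDimensional ℚ_[q] F]

theorem nrm_sum_le {ι : Type*} (s : Finset ι) (f : ι → F) {r : ℝ} (hr : 0 ≤ r)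
    (h : ∀ i ∈ s, nrm q F (f i) ≤ r) : nrm q F (∑ i ∈ s, f i) ≤ r := by
  classical
  induction s using Finset.induction_on with
  | empty => simpa using hr
  | insert a s ha ih =>
    rw [Finset.sum_insert ha]
    refine (nrm_add_le_max q F _ _).trans (max_le ?_ ?_)
    · exact h a (Finset.mem_insert_self a s)
    · exact ih (fun i hi => h i (Finset.mem_insert_of_mem hi))

theorem nrm_sum_lt {ι : Type*} (s : Finset ι) (f : ι → F) {r : ℝ} (hr : 0 < r)
    (h : ∀ i ∈ s, nrm q F (f i) < r) : nrm q F (∑ i ∈ s, f i) < r := by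
  classical
  induction s using Finset.induction_on with
  | empty => simpa using hr
  | insert a s ha ih =>
    rw [Finset.sum_insert ha]
    refine lt_of_le_of_lt (nrm_add_le_max q F _ _) (max_lt ?_ ?_)
    · exact h a (Finset.mem_insert_self a s)
    · exact ih (fun i hi => h i (Finset.mem_insert_of_mem hi))

theorem eq_zero_of_nrm_le_pow {x : F} {ρ : ℝ} (_hρ0 : 0 ≤ ρ) (hρ1 : ρ < 1)
    (h : ∀ k : ℕ, nrm q F x ≤ ρ ^ k) : x = 0 := by
  by_contra hx
  have hpos := nrm_pos q F hx
  obtain ⟨k, hk⟩ := exists_pow_lt_of_lt_one hpos hρ1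
  exact absurd (h k) (not_le.mpr hk)

end sums

section span

variable (q : ℕ) [Fact q.Prime] (K L : Type) [Field K] [Field L] [Algebra ℚ_[q] K]
  [FiniteDimensional ℚ_[q] K] [Algebra ℚ_[q] L] [FiniteDimensional ℚ_[q] L] [Algebra K L]
  [IsScalarTower ℚ_[q] K L]

variable (hres : ∀ y : L, nrm q L y ≤ 1 → ∃ x : K, nrm q L (y - algebraMap K L x) < 1)
  (π : L) (ϖ : K) (e : ℕ) (hπ0 : 0 < nrm q L π) (hπ1 : nrm q L π < 1)
  (hπe : nrm q L π ^ e = nrm q K ϖ)
  (hval : ∀ y : L, y ≠ 0 → ∃ k : ℤ, nrm q L y = nrm q L π ^ k)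

include hres hπ0 hπ1 hval in
/-- One digit. -/
theorem exists_digit (y : L) (hy : nrm q L y ≤ 1) :
    ∃ (a : K) (y' : L), nrm q K a ≤ 1 ∧ nrm q L y' ≤ 1 ∧ y = algebraMap K L a + π * y' := by
  obtain ⟨x, hx⟩ := hres y hy
  have hx1 : nrm q K x ≤ 1 := by
    rw [← nrm_algebraMap q K L]
    have h1 : algebraMap K L x = y - (y - algebraMap K L x) := by ring
    rw [h1]
    exact (nrm_sub_le_max q L _ _).trans (max_le hy hx.le)
  have hπne : π ≠ 0 := by
    rintro rfl
    rw [nrm_zero] at hπ0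
    exact lt_irrefl _ hπ0
  refine ⟨x, (y - algebraMap K L x) / π, hx1, ?_, ?_⟩
  · by_cases hr : y - algebraMap K L x = 0
    · rw [hr, zero_div, nrm_zero]
      exact zero_le_one
    · obtain ⟨k, hk⟩ := hval _ hr
      rw [hk] at hx
      have hk1 : 0 < k := (zpow_lt_one_iff_right_of_lt_one₀ hπ0 hπ1).mp hx
      rw [nrm_div, hk, div_eq_mul_inv, ← zpow_sub_one₀ hπ0.ne']
      exact (zpow_le_one_iff_right_of_lt_one₀ hπ0 hπ1).mpr (by omega)
  · field_simp
    ring

include hres hπ0 hπ1 hval in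
/-- `t` digits. -/
theorem exists_digits (t : ℕ) (y : L) (hy : nrm q L y ≤ 1) :
    ∃ (a : ℕ → K) (y' : L), (∀ j, nrm q K (a j) ≤ 1) ∧ nrm q L y' ≤ 1 ∧
      y = ∑ j ∈ Finset.range t, algebraMap K L (a j) * π ^ j + π ^ t * y' := by
  induction t with
  | zero => exact ⟨fun _ => 0, y, fun _ => by simp, hy, by simp⟩
  | succ t ih =>
    obtain ⟨a, y', ha, hy', h⟩ := ih
    obtain ⟨b, y'', hb, hy'', h'⟩ := exists_digit q K L hres π hπ0 hπ1 hval y' hy'
    refine ⟨fun j => if j = t then b else a j, y'', ?_, hy'', ?_⟩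
    · intro j
      by_cases hj : j = t
      · simp only [hj, if_true]
        exact hb
      · simp only [hj, if_false]
        exact ha j
    · rw [Finset.sum_range_succ, h, h']
      have hsum : ∑ j ∈ Finset.range t, algebraMap K L (if j = t then b else a j) * π ^ j =
          ∑ j ∈ Finset.range t, algebraMap K L (a j) * π ^ j := by
        refine Finset.sum_congr rfl (fun j hj => ?_)
        have : j ≠ t := (Finset.mem_range.mp hj).ne
        simp only [this, if_false]
      rw [hsum]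
      simp only [if_true]
      ring

include hres hπ0 hπ1 hπe hval in
/-- One block of `e` digits, with remainder divisible by `ϖ`. -/
theorem exists_block (y : L) (hy : nrm q L y ≤ 1) :
    ∃ (a : ℕ → K) (y' : L), (∀ j, nrm q K (a j) ≤ 1) ∧ nrm q L y' ≤ 1 ∧
      y = ∑ j ∈ Finset.range e, algebraMap K L (a j) * π ^ j + algebraMap K L ϖ * y' := by
  obtain ⟨a, y', ha, hy', h⟩ := exists_digits q K L hres π hπ0 hπ1 hval e y hy
  have hϖ0 : algebraMap K L ϖ ≠ 0 := by
    intro h0
    have := nrm_algebraMap q K L ϖ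
    rw [h0, nrm_zero, ← hπe] at this
    exact (pow_pos hπ0 e).ne this
  refine ⟨a, π ^ e / algebraMap K L ϖ * y', ha, ?_, ?_⟩
  · rw [nrm_mul, nrm_div, nrm_pow, nrm_algebraMap, hπe, div_self, one_mul]
    · exact hy'
    · rw [← hπe]
      exact (pow_pos hπ0 e).ne'
  · rw [h]
    field_simp

/-- The data of the iteration. -/
structure BlockData where
  /-- the current remainder -/
  y : L
  hy : nrm q L y ≤ 1

include hres hπ0 hπ1 hπe hval in
theorem exists_seq (y : L) (hy : nrm q L y ≤ 1) :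
    ∃ (A : ℕ → ℕ → K) (Y : ℕ → L), Y 0 = y ∧ ∀ k, (∀ j, nrm q K (A k j) ≤ 1) ∧
      nrm q L (Y k) ≤ 1 ∧
      Y k = ∑ j ∈ Finset.range e, algebraMap K L (A k j) * π ^ j +
        algebraMap K L ϖ * Y (k + 1) := by
  classical
  have hstep : ∀ d : BlockData q L, ∃ (a : ℕ → K) (d' : BlockData q L),
      (∀ j, nrm q K (a j) ≤ 1) ∧
      d.y = ∑ j ∈ Finset.range e, algebraMap K L (a j) * π ^ j + algebraMap K L ϖ * d'.y := by
    intro d
    obtain ⟨a, y', ha, hy', h⟩ := exists_block q K L hres π ϖ e hπ0 hπ1 hπe hval d.y d.hy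
    exact ⟨a, ⟨y', hy'⟩, ha, h⟩
  choose dig nxt hdig hnxt using hstep
  let D : ℕ → BlockData q L := fun k => Nat.rec ⟨y, hy⟩ (fun _ d => nxt d) k
  have hD : ∀ k, D (k + 1) = nxt (D k) := fun k => rfl
  refine ⟨fun k => dig (D k), fun k => (D k).y, rfl, ?_⟩
  intro k
  refine ⟨hdig (D k), (D k).hy, ?_⟩
  exact hnxt (D k)

include hres hπ0 hπ1 hπe hval in
/-- Integers of `L` are combinations of `1, π, …, π^(e-1)`. -/
theorem exists_repr_of_le_one (he : 0 < e) (y : L) (hy : nrm q L y ≤ 1) :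
    ∃ B : ℕ → K, y = ∑ j ∈ Finset.range e, algebraMap K L (B j) * π ^ j := by
  classical
  obtain ⟨A, Y, hY0, hAY⟩ := exists_seq q K L hres π ϖ e hπ0 hπ1 hπe hval y hy
  set ρ : ℝ := nrm q K ϖ with hρ
  have hρ0 : 0 ≤ ρ := nrm_nonneg q K ϖ
  have hρ1 : ρ < 1 := by
    rw [← hπe]
    exact pow_lt_one₀ hπ0.le hπ1 he.ne'
  -- partial sums
  let S : ℕ → ℕ → K := fun j m => ∑ k ∈ Finset.range m, A k j * ϖ ^ k
  have hS : ∀ m, y = ∑ j ∈ Finset.range e, algebraMap K L (S j m) * π ^ j +
      algebraMap K L ϖ ^ m * Y m := by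
    intro m
    induction m with
    | zero => simp [S, hY0]
    | succ m ih =>
      have h1 := (hAY m).2.2
      have h2 : ∀ j, S j (m + 1) = S j m + A m j * ϖ ^ m := fun j =>
        Finset.sum_range_succ _ _
      calc y = ∑ j ∈ Finset.range e, algebraMap K L (S j m) * π ^ j +
            algebraMap K L ϖ ^ m * Y m := ih
        _ = ∑ j ∈ Finset.range e, algebraMap K L (S j m) * π ^ j +
            algebraMap K L ϖ ^ m * (∑ j ∈ Finset.range e, algebraMap K L (A m j) * π ^ j +
              algebraMap K L ϖ * Y (m + 1)) := by rw [← h1]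
        _ = ∑ j ∈ Finset.range e, algebraMap K L (S j (m + 1)) * π ^ j +
            algebraMap K L ϖ ^ (m + 1) * Y (m + 1) := by
          rw [mul_add, Finset.mul_sum, ← add_assoc, ← Finset.sum_add_distrib, pow_succ]
          congr 1
          · refine Finset.sum_congr rfl (fun j _ => ?_)
            rw [h2, map_add, map_mul, map_pow]
            ring
          · ring
  -- limits
  have hlim : ∀ j, ∃ b : K, ∀ m, nrm q K (b - S j m) ≤ 1 * ρ ^ m := by
    intro j
    refine H68.stmt_SuccApprox q K (fun m => S j m) 1 ρ zero_le_one hρ0 hρ1 ?_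
    intro m
    have : S j (m + 1) - S j m = A m j * ϖ ^ m := by
      change ∑ k ∈ Finset.range (m + 1), A k j * ϖ ^ k - ∑ k ∈ Finset.range m, A k j * ϖ ^ k = _
      rw [Finset.sum_range_succ]
      ring
    rw [this, nrm_mul, nrm_pow]
    exact mul_le_mul_of_nonneg_right ((hAY m).1 j) (pow_nonneg hρ0 m)
  choose B hB using hlim
  refine ⟨B, ?_⟩
  rw [← sub_eq_zero]
  apply eq_zero_of_nrm_le_pow q L hρ0 hρ1
  intro m
  have h1 : y - ∑ j ∈ Finset.range e, algebraMap K L (B j) * π ^ j =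
      ∑ j ∈ Finset.range e, algebraMap K L (S j m - B j) * π ^ j +
        algebraMap K L ϖ ^ m * Y m := by
    conv_lhs => rw [hS m]
    have : ∑ j ∈ Finset.range e, algebraMap K L (S j m - B j) * π ^ j =
        ∑ j ∈ Finset.range e, algebraMap K L (S j m) * π ^ j -
          ∑ j ∈ Finset.range e, algebraMap K L (B j) * π ^ j := by
      rw [← Finset.sum_sub_distrib]
      refine Finset.sum_congr rfl (fun j _ => ?_)
      rw [map_sub]
      ring
    rw [this]
    ring
  rw [h1]
  refine (nrm_add_le_max q L _ _).trans (max_le ?_ ?_)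
  · apply nrm_sum_le q L _ _ (pow_nonneg hρ0 m)
    intro j _
    rw [nrm_mul, nrm_algebraMap, nrm_pow, nrm_sub_comm]
    have h2 := hB j m
    rw [one_mul] at h2
    calc nrm q K (B j - S j m) * nrm q L π ^ j ≤ ρ ^ m * 1 :=
          mul_le_mul h2 (pow_le_one₀ hπ0.le hπ1.le) (pow_nonneg hπ0.le j) (pow_nonneg hρ0 m)
      _ = ρ ^ m := mul_one _
  · rw [nrm_mul, nrm_pow, nrm_algebraMap]
    calc ρ ^ m * nrm q L (Y m) ≤ ρ ^ m * 1 :=
          mul_le_mul_of_nonneg_left (hAY m).2.1 (pow_nonneg hρ0 m)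
      _ = ρ ^ m := mul_one _

include hres hπ0 hπ1 hπe hval in
/-- Every element of `L` is a combination of `1, π, …, π^(e-1)`. -/
theorem exists_repr (he : 0 < e) (y : L) :
    ∃ B : ℕ → K, y = ∑ j ∈ Finset.range e, algebraMap K L (B j) * π ^ j := by
  set ρ : ℝ := nrm q K ϖ with hρ
  have hρ0 : 0 < ρ := by
    rw [← hπe]
    exact pow_pos hπ0 e
  have hρ1 : ρ < 1 := by
    rw [← hπe]
    exact pow_lt_one₀ hπ0.le hπ1 he.ne'
  have hϖ0 : ϖ ≠ 0 := by
    intro h0
    have h1 : ρ = 0 := by rw [hρ, h0, nrm_zero]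
    rw [h1] at hρ0
    exact lt_irrefl _ hρ0
  by_cases hy0 : y = 0
  · exact ⟨fun _ => 0, by simp [hy0]⟩
  obtain ⟨m, hm⟩ := exists_pow_lt_of_lt_one (show 0 < (nrm q L y)⁻¹ from
    inv_pos.mpr (nrm_pos q L hy0)) hρ1
  have hy1 : nrm q L (algebraMap K L ϖ ^ m * y) ≤ 1 := by
    rw [nrm_mul, nrm_pow, nrm_algebraMap]
    have := mul_lt_mul_of_pos_right hm (nrm_pos q L hy0)
    rw [inv_mul_cancel₀ (nrm_pos q L hy0).ne'] at this
    exact this.le
  obtain ⟨B, hB⟩ := exists_repr_of_le_one q K L hres π ϖ e hπ0 hπ1 hπe hval he _ hy1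
  refine ⟨fun j => (ϖ ^ m)⁻¹ * B j, ?_⟩
  have hne : algebraMap K L ϖ ^ m ≠ 0 :=
    pow_ne_zero _ ((map_ne_zero (algebraMap K L)).mpr hϖ0)
  have h2 : y = (algebraMap K L ϖ ^ m)⁻¹ * (algebraMap K L ϖ ^ m * y) := by
    rw [← mul_assoc, inv_mul_cancel₀ hne, one_mul]
  rw [h2, hB, Finset.mul_sum]
  refine Finset.sum_congr rfl (fun j _ => ?_)
  rw [map_mul, map_inv₀, map_pow]
  ring

include hres hπ0 hπ1 hπe hval in
/-- **Spanning**: `[L : K] ≤ e`. -/
theorem finrank_le_of_residue_eq (he : 0 < e) : Module.finrank K L ≤ e := by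
  classical
  let b : Fin e → L := fun j => π ^ (j : ℕ)
  have hspan : Submodule.span K (Set.range b) = ⊤ := by
    rw [eq_top_iff]
    intro y _
    obtain ⟨B, hB⟩ := exists_repr q K L hres π ϖ e hπ0 hπ1 hπe hval he y
    rw [hB]
    refine Submodule.sum_mem _ (fun j hj => ?_)
    rw [← Algebra.smul_def]
    refine Submodule.smul_mem _ _ (Submodule.subset_span ?_)
    exact ⟨⟨j, Finset.mem_range.mp hj⟩, rfl⟩
  have h1 := finrank_range_le_card (R := K) b
  rw [Set.finrank, hspan, finrank_top, Fintype.card_fin] at h1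
  exact h1

end span

end Fermat.Agent.S55.CFT.LOC.H25

end
-- ==== END Fermat.Agent.S55.CFT.LOC.H25_UCSpan

-- ==== BEGIN Fermat.Agent.S55.CFT.LOC.H68_Conc1
section

set_option autoImplicit false
set_option linter.unusedSectionVars false
set_option linter.style.haveILetI false

namespace Fermat.Agent.S55.CFT.LOC.H68

open Fermat.Agent.S55.CFT.LOC

section general

variable (q : ℕ) [Fact q.Prime] (F : Type) [Field F] [Algebra ℚ_[q] F]
  [FiniteDimensional ℚ_[q] F]

theorem nrm_sum_le {ι : Type} (s : Finset ι) (f : ι → F) {r : ℝ} (hr : 0 ≤ r)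
    (h : ∀ i ∈ s, nrm q F (f i) ≤ r) : nrm q F (∑ i ∈ s, f i) ≤ r := by
  classical
  induction s using Finset.induction_on with
  | empty => simpa using hr
  | insert a s ha ih =>
    rw [Finset.sum_insert ha]
    exact (nrm_add_le_max q F _ _).trans
      (max_le (h a (Finset.mem_insert_self a s))
        (ih (fun i hi => h i (Finset.mem_insert_of_mem hi))))

end general

section concrete

variable (q : ℕ) [Fact q.Prime] (F E : Type) [Field F] [Field E] [Algebra ℚ_[q] F]
  [FiniteDimensional ℚ_[q] F] [Algebra ℚ_[q] E] [Algebra F E] [IsScalarTower ℚ_[q] F E]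
  [FiniteDimensional F E] [IsGalois F E]

theorem nrm_smul (a : F) (y : E) : nrm q E (a • y) = nrm q F a * nrm q E y := by
  haveI : FiniteDimensional ℚ_[q] E := FiniteDimensional.trans ℚ_[q] F E
  rw [Algebra.smul_def, nrm_mul, nrm_algebraMap]

/-- the coordinates with respect to the normal basis -/
noncomputable def nbc (x : E) (τ : E ≃ₐ[F] E) : F := (IsGalois.normalBasis F E).repr x τ

theorem nbc_add (x y : E) (τ : E ≃ₐ[F] E) : nbc F E (x + y) τ = nbc F E x τ + nbc F E y τ := by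
  simp [nbc]

theorem nbc_neg (x : E) (τ : E ≃ₐ[F] E) : nbc F E (-x) τ = -nbc F E x τ := by
  simp [nbc]

theorem nbc_sub (x y : E) (τ : E ≃ₐ[F] E) : nbc F E (x - y) τ = nbc F E x τ - nbc F E y τ := by
  simp [nbc]

theorem nbc_zero (τ : E ≃ₐ[F] E) : nbc F E 0 τ = 0 := by
  simp [nbc]

theorem nbc_smul (a : F) (x : E) (τ : E ≃ₐ[F] E) : nbc F E (a • x) τ = a * nbc F E x τ := by
  simp [nbc]

theorem nbc_sum {ι : Type} (s : Finset ι) (f : ι → E) (τ : E ≃ₐ[F] E) :
    nbc F E (∑ i ∈ s, f i) τ = ∑ i ∈ s, nbc F E (f i) τ := by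
  simp [nbc, Finsupp.finsetSum_apply]

theorem nbc_sum_self (x : E) : ∑ τ, nbc F E x τ • IsGalois.normalBasis F E τ = x :=
  (IsGalois.normalBasis F E).sum_repr x

theorem nbc_of_sum (c : (E ≃ₐ[F] E) → F) (τ : E ≃ₐ[F] E) :
    nbc F E (∑ ρ, c ρ • IsGalois.normalBasis F E ρ) τ = c τ := by
  unfold nbc
  rw [Module.Basis.repr_sum_self]

theorem nbc_ext {x y : E} (h : ∀ τ, nbc F E x τ = nbc F E y τ) : x = y := by
  rw [← nbc_sum_self F E x, ← nbc_sum_self F E y]
  exact Finset.sum_congr rfl (fun τ _ => by rw [h τ])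

theorem nb_galois (τ ρ : E ≃ₐ[F] E) :
    τ (IsGalois.normalBasis F E ρ) = IsGalois.normalBasis F E (τ * ρ) := by
  rw [IsGalois.normalBasis_apply ρ, IsGalois.normalBasis_apply (τ * ρ), AlgEquiv.mul_apply]

/-- coordinates of a Galois conjugate -/
theorem nbc_galois (τ : E ≃ₐ[F] E) (x : E) (ρ : E ≃ₐ[F] E) :
    nbc F E (τ x) ρ = nbc F E x (τ⁻¹ * ρ) := by
  have h1 : τ x = ∑ π, nbc F E x (τ⁻¹ * π) • IsGalois.normalBasis F E π := by
    conv_lhs => rw [← nbc_sum_self F E x]
    rw [map_sum]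
    simp only [map_smul, nb_galois]
    refine Fintype.sum_equiv (Equiv.mulLeft τ) _ _ (fun π => ?_)
    simp
  rw [h1, nbc_of_sum]

/-- the bound on the structure constants -/
noncomputable def nbK : ℝ :=
  1 + ∑ τ : E ≃ₐ[F] E, ∑ ρ : E ≃ₐ[F] E, ∑ π : E ≃ₐ[F] E,
    nrm q F (nbc F E (IsGalois.normalBasis F E τ * IsGalois.normalBasis F E ρ) π)

theorem nbK_ge_one : 1 ≤ nbK q F E := by
  unfold nbK
  have : 0 ≤ ∑ τ : E ≃ₐ[F] E, ∑ ρ : E ≃ₐ[F] E, ∑ π : E ≃ₐ[F] E,
    nrm q F (nbc F E (IsGalois.normalBasis F E τ * IsGalois.normalBasis F E ρ) π) :=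
    Finset.sum_nonneg (fun τ _ => Finset.sum_nonneg (fun ρ _ => Finset.sum_nonneg
      (fun π _ => nrm_nonneg q F _)))
  linarith

theorem nbK_bound (τ ρ π : E ≃ₐ[F] E) :
    nrm q F (nbc F E (IsGalois.normalBasis F E τ * IsGalois.normalBasis F E ρ) π) ≤
      nbK q F E := by
  unfold nbK
  have h1 : nrm q F (nbc F E (IsGalois.normalBasis F E τ * IsGalois.normalBasis F E ρ) π) ≤
      ∑ π' : E ≃ₐ[F] E,
        nrm q F (nbc F E (IsGalois.normalBasis F E τ * IsGalois.normalBasis F E ρ) π') :=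
    Finset.single_le_sum (f := fun π' =>
      nrm q F (nbc F E (IsGalois.normalBasis F E τ * IsGalois.normalBasis F E ρ) π'))
      (fun _ _ => nrm_nonneg q F _) (Finset.mem_univ π)
  have h2 : (∑ π' : E ≃ₐ[F] E,
        nrm q F (nbc F E (IsGalois.normalBasis F E τ * IsGalois.normalBasis F E ρ) π')) ≤
      ∑ ρ' : E ≃ₐ[F] E, ∑ π' : E ≃ₐ[F] E,
        nrm q F (nbc F E (IsGalois.normalBasis F E τ * IsGalois.normalBasis F E ρ') π') :=
    Finset.single_le_sum (f := fun ρ' => ∑ π' : E ≃ₐ[F] E,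
        nrm q F (nbc F E (IsGalois.normalBasis F E τ * IsGalois.normalBasis F E ρ') π'))
      (fun _ _ => Finset.sum_nonneg (fun _ _ => nrm_nonneg q F _)) (Finset.mem_univ ρ)
  have h3 : (∑ ρ' : E ≃ₐ[F] E, ∑ π' : E ≃ₐ[F] E,
        nrm q F (nbc F E (IsGalois.normalBasis F E τ * IsGalois.normalBasis F E ρ') π')) ≤
      ∑ τ' : E ≃ₐ[F] E, ∑ ρ' : E ≃ₐ[F] E, ∑ π' : E ≃ₐ[F] E,
        nrm q F (nbc F E (IsGalois.normalBasis F E τ' * IsGalois.normalBasis F E ρ') π') :=
    Finset.single_le_sum (f := fun τ' => ∑ ρ' : E ≃ₐ[F] E, ∑ π' : E ≃ₐ[F] E,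
        nrm q F (nbc F E (IsGalois.normalBasis F E τ' * IsGalois.normalBasis F E ρ') π'))
      (fun _ _ => Finset.sum_nonneg (fun _ _ => Finset.sum_nonneg (fun _ _ => nrm_nonneg q F _)))
      (Finset.mem_univ τ)
  linarith

/-- product rule for coordinates -/
theorem nbc_mul_le {x y : E} {r s : ℝ} (hr : 0 ≤ r) (hs : 0 ≤ s)
    (hx : ∀ τ, nrm q F (nbc F E x τ) ≤ r) (hy : ∀ τ, nrm q F (nbc F E y τ) ≤ s)
    (π : E ≃ₐ[F] E) : nrm q F (nbc F E (x * y) π) ≤ nbK q F E * r * s := by
  have hxy : x * y = ∑ τ, ∑ ρ, (nbc F E x τ * nbc F E y ρ) •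
      (IsGalois.normalBasis F E τ * IsGalois.normalBasis F E ρ) := by
    conv_lhs => rw [← nbc_sum_self F E x, ← nbc_sum_self F E y]
    rw [Finset.sum_mul_sum]
    refine Finset.sum_congr rfl (fun τ _ => Finset.sum_congr rfl (fun ρ _ => ?_))
    rw [smul_mul_smul_comm]
  rw [hxy, nbc_sum]
  have hK0 : 0 ≤ nbK q F E := le_trans zero_le_one (nbK_ge_one q F E)
  refine nrm_sum_le q F _ _ (by positivity) (fun τ _ => ?_)
  rw [nbc_sum]
  refine nrm_sum_le q F _ _ (by positivity) (fun ρ _ => ?_)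
  rw [nbc_smul, nrm_mul, nrm_mul]
  have h1 := hx τ
  have h2 := hy ρ
  have h3 := nbK_bound q F E τ ρ π
  have hn1 := nrm_nonneg q F (nbc F E x τ)
  have hn2 := nrm_nonneg q F (nbc F E y ρ)
  have hn3 := nrm_nonneg q F
    (nbc F E (IsGalois.normalBasis F E τ * IsGalois.normalBasis F E ρ) π)
  calc nrm q F (nbc F E x τ) * nrm q F (nbc F E y ρ) *
        nrm q F (nbc F E (IsGalois.normalBasis F E τ * IsGalois.normalBasis F E ρ) π)
      ≤ r * s * nbK q F E := by
        apply mul_le_mul (mul_le_mul h1 h2 hn2 hr) h3 hn3 (by positivity)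
    _ = nbK q F E * r * s := by ring

end concrete

end Fermat.Agent.S55.CFT.LOC.H68

end
-- ==== END Fermat.Agent.S55.CFT.LOC.H68_Conc1

-- ==== BEGIN Fermat.Agent.S55.CFT.LOC.H68_GI
section

set_option autoImplicit false
set_option linter.unusedSectionVars false
set_option linter.style.haveILetI false

namespace Fermat.Agent.S55.CFT.LOC.H68

open Fermat.Agent.S55.CFT.LOC Fermat.Agent.S55.CFT groupCohomology

/-- The additive form of a `MulDistribMulAction` (definitionally the action of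
`Rep.ofMulDistribMulAction`). -/
@[reducible] def addDMA (G M : Type) [Monoid G] [CommGroup M] [MulDistribMulAction G M] :
    DistribMulAction G (Additive M) where
  smul g a := Additive.ofMul (g • Additive.toMul a)
  one_smul a := by
    show Additive.ofMul ((1 : G) • Additive.toMul a) = a
    rw [one_smul]; rfl
  mul_smul g h a := by
    show Additive.ofMul ((g * h) • Additive.toMul a) =
      Additive.ofMul (g • Additive.toMul (Additive.ofMul (h • Additive.toMul a)))
    rw [mul_smul]; rfl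
  smul_zero g := by
    show Additive.ofMul (g • (1 : M)) = 0
    rw [smul_one]; rfl
  smul_add g a b := by
    show Additive.ofMul (g • (Additive.toMul a * Additive.toMul b)) = _
    rw [smul_mul']; rfl

attribute [local instance] addDMA

theorem addDMA_smul_def {G M : Type} [Monoid G] [CommGroup M] [MulDistribMulAction G M]
    (g : G) (a : Additive M) : g • a = Additive.ofMul (g • Additive.toMul a) := rfl

theorem unitsRep_ρ_eq_smul (F L : Type) [Field F] [Field L] [Algebra F L] (σ : L ≃ₐ[F] L)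
    (u : Additive Lˣ) : (unitsRep F L).ρ σ u = σ • u := rfl

section tower

variable (F K L : Type) [Field F] [Field K] [Field L] [Algebra F K] [Algebra F L] [Algebra K L]
  [IsScalarTower F K L]

/-- the inclusion `Kˣ → Lˣ`, additively -/
noncomputable def unitsIncl : Additive Kˣ →+ Additive Lˣ :=
  MonoidHom.toAdditive (Units.map (algebraMap K L : K →* L))

theorem unitsIncl_coe (u : Additive Kˣ) :
    ((Additive.toMul (unitsIncl K L u) : Lˣ) : L) = algebraMap K L ((Additive.toMul u : Kˣ) : K) :=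
  rfl

theorem smul_coe (σ : L ≃ₐ[F] L) (u : Additive Lˣ) :
    ((Additive.toMul (σ • u) : Lˣ) : L) = σ ((Additive.toMul u : Lˣ) : L) := rfl

theorem additive_units_ext {M : Type} [Field M] {u v : Additive Mˣ}
    (h : ((Additive.toMul u : Mˣ) : M) = ((Additive.toMul v : Mˣ) : M)) : u = v := by
  have : (Additive.toMul u : Mˣ) = Additive.toMul v := Units.ext h
  exact Additive.toMul.injective this

theorem unitsIncl_injective : Function.Injective (unitsIncl K L) := by
  intro u v h
  apply additive_units_ext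
  have := congrArg (fun w : Additive Lˣ => ((Additive.toMul w : Lˣ) : L)) h
  simp only [unitsIncl_coe] at this
  exact (algebraMap K L).injective this

variable [Normal F K]

theorem unitsIncl_equiv (g : L ≃ₐ[F] L) (b : Additive Kˣ) :
    unitsIncl K L (AlgEquiv.restrictNormalHom K g • b) = g • unitsIncl K L b := by
  apply additive_units_ext
  rw [unitsIncl_coe, smul_coe, smul_coe, unitsIncl_coe]
  exact AlgEquiv.restrictNormal_commutes g K _

/-- an element of the kernel of the restriction, as a `K`-automorphism -/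
noncomputable def kerLift (n : L ≃ₐ[F] L) (hn : AlgEquiv.restrictNormalHom K n = 1) :
    L ≃ₐ[K] L :=
  AlgEquiv.ofRingEquiv (f := n.toRingEquiv) (by
    intro x
    have h := AlgEquiv.restrictNormal_commutes n K x
    have h2 : n.restrictNormal K x = x := by
      show (AlgEquiv.restrictNormalHom K n) x = x
      rw [hn]; rfl
    rw [h2] at h
    exact h.symm)

theorem kerLift_apply (n : L ≃ₐ[F] L) (hn : AlgEquiv.restrictNormalHom K n = 1) (x : L) :
    kerLift F K L n hn x = n x := rfl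

theorem restrictScalars_mem_ker (σ : L ≃ₐ[K] L) :
    AlgEquiv.restrictNormalHom K (σ.restrictScalars F) = 1 := by
  ext x
  apply (algebraMap K L).injective
  have h := AlgEquiv.restrictNormal_commutes (σ.restrictScalars F) K x
  rw [AlgEquiv.restrictNormalHom]
  simp only [MonoidHom.mk'_apply]
  rw [h]
  simp

theorem kerLift_restrictScalars (n : L ≃ₐ[F] L) (hn : AlgEquiv.restrictNormalHom K n = 1) :
    (kerLift F K L n hn).restrictScalars F = n := by
  ext x
  rfl

theorem kerLift_mul (n n' : L ≃ₐ[F] L) (hn : AlgEquiv.restrictNormalHom K n = 1)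
    (hn' : AlgEquiv.restrictNormalHom K n' = 1) :
    kerLift F K L (n * n') (by rw [map_mul, hn, hn', one_mul]) =
      kerLift F K L n hn * kerLift F K L n' hn' := by
  ext x
  rfl

theorem kerLift_smul (n : L ≃ₐ[F] L) (hn : AlgEquiv.restrictNormalHom K n = 1)
    (u : Additive Lˣ) : kerLift F K L n hn • u = n • u := by
  apply additive_units_ext
  rfl

variable [FiniteDimensional F L] [IsGalois F L]

/-- **Galois inflation datum.** -/
theorem galois_infData :
    InfData (AlgEquiv.restrictNormalHom K : (L ≃ₐ[F] L) →* (K ≃ₐ[F] K)) (unitsIncl K L) := by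
  haveI : FiniteDimensional K L := FiniteDimensional.right F K L
  haveI : IsGalois K L := IsGalois.tower_top_of_isGalois F K L
  refine ⟨AlgEquiv.restrictNormalHom_surjective L, unitsIncl_injective K L,
    unitsIncl_equiv F K L, ?_, ?_⟩
  · -- image
    intro a ha
    have hfix : ∀ σ : L ≃ₐ[K] L, σ ((Additive.toMul a : Lˣ) : L) = ((Additive.toMul a : Lˣ) : L) := by
      intro σ
      have := ha (σ.restrictScalars F) (restrictScalars_mem_ker F K L σ)
      have h2 := congrArg (fun w : Additive Lˣ => ((Additive.toMul w : Lˣ) : L)) this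
      exact h2
    have hmem : ((Additive.toMul a : Lˣ) : L) ∈ (⊥ : IntermediateField K L) := by
      rw [IsGalois.mem_bot_iff_fixed]
      exact hfix
    obtain ⟨x, hx⟩ := IntermediateField.mem_bot.1 hmem
    have hx0 : x ≠ 0 := by
      rintro rfl
      rw [map_zero] at hx
      exact (Additive.toMul a : Lˣ).ne_zero hx.symm
    refine ⟨Additive.ofMul (Units.mk0 x hx0), ?_⟩
    apply additive_units_ext
    rw [unitsIncl_coe]
    exact hx
  · -- Hilbert 90
    intro f hf
    let f' : (L ≃ₐ[K] L) → Lˣ := fun σ => Additive.toMul (f (σ.restrictScalars F))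
    have hf' : IsMulCocycle₁ f' := by
      intro g h
      have := hf (g.restrictScalars F) (h.restrictScalars F)
        (restrictScalars_mem_ker F K L g) (restrictScalars_mem_ker F K L h)
      have h2 := congrArg (fun w : Additive Lˣ => (Additive.toMul w : Lˣ)) this
      exact h2
    obtain ⟨x, hx⟩ := isMulCoboundary₁_of_isMulCocycle₁_of_aut_to_units f' hf'
    refine ⟨Additive.ofMul x, fun n hn => ?_⟩
    have h := hx (kerLift F K L n hn)
    have h3 : f' (kerLift F K L n hn) = Additive.toMul (f n) := by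
      show Additive.toMul (f ((kerLift F K L n hn).restrictScalars F)) = _
      rw [kerLift_restrictScalars]
    rw [h3] at h
    apply Additive.toMul.injective
    rw [← h]
    rfl

end tower

section inflation

variable {Γ Q A B : Type} [Group Γ] [Group Q] [AddCommGroup A] [AddCommGroup B]
  [DistribMulAction Γ A] [DistribMulAction Q B] {π : Γ →* Q} {ι : B →+ A}

/-- the inflation of a cochain -/
def infl (π : Γ →* Q) (ι : B →+ A) (c : Q × Q → B) : Γ × Γ → A :=
  fun p => ι (c (π p.1, π p.2))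

theorem isCocycle₂_infl (D : InfData π ι) {c : Q × Q → B} (hc : IsCocycle₂ c) :
    IsCocycle₂ (infl π ι c) := by
  intro g h j
  simp only [infl, map_mul]
  rw [← D.equiv, ← map_add, ← map_add, hc]

theorem infl_coboundary (D : InfData π ι) (w : Q → B) (g h : Γ) :
    ι (π g • w (π h) - w (π g * π h) + w (π g)) =
      g • ι (w (π h)) - ι (w (π (g * h))) + ι (w (π g)) := by
  rw [map_add, map_sub, D.equiv, map_mul]

end inflation

end Fermat.Agent.S55.CFT.LOC.H68

end
-- ==== END Fermat.Agent.S55.CFT.LOC.H68_GI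

-- ==== BEGIN Fermat.Agent.S55.CFT.LOC.H68_NLat1
section

set_option autoImplicit false
set_option linter.unusedSectionVars false
set_option linter.style.haveILetI false

namespace Fermat.Agent.S55.CFT.LOC.H68

open Fermat.Agent.S55.CFT.LOC

section abstract

variable {F E : Type} [Field F] [Field E] [Algebra F E] [FiniteDimensional F E] (L : NLat F E)

theorem nl_mono {j k : ℕ} (h : j ≤ k) : L.M k ≤ L.M j := by
  induction h with
  | refl => exact le_rfl
  | step _ ih => exact (L.anti _).trans ih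

theorem nl_mul_mem_of_le {j k l : ℕ} (h : l ≤ j + k + 1) {x y : E} (hx : x ∈ L.M j)
    (hy : y ∈ L.M k) : x * y ∈ L.M l :=
  nl_mono L h (L.mul_mem j k x y hx hy)

theorem nl_mul_mem_right {j k : ℕ} {x y : E} (hx : x ∈ L.M j) (hy : y ∈ L.M k) :
    x * y ∈ L.M k :=
  nl_mul_mem_of_le L (by omega) hx hy

theorem nl_mul_mem_left {j k : ℕ} {x y : E} (hx : x ∈ L.M j) (hy : y ∈ L.M k) :
    x * y ∈ L.M j :=
  nl_mul_mem_of_le L (by omega) hx hy

/-- `(1 + x) * y ∈ M k` for `x ∈ M 0`, `y ∈ M k`. -/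
theorem nl_one_add_mul_mem {k : ℕ} {x y : E} (hx : x ∈ L.M 0) (hy : y ∈ L.M k) :
    (1 + x) * y ∈ L.M k := by
  rw [add_mul, one_mul]
  exact (L.M k).add_mem hy (nl_mul_mem_right L hx hy)

theorem nl_pow_mem {k : ℕ} {x : E} (hx : x ∈ L.M k) (j : ℕ) : x ^ (j + 1) ∈ L.M (k + j) := by
  induction j with
  | zero => simpa using hx
  | succ j ih =>
    rw [pow_succ]
    exact nl_mul_mem_of_le L (by omega) ih hx

theorem nl_sum_mem {ι : Type} (s : Finset ι) {k : ℕ} {f : ι → E} (h : ∀ i ∈ s, f i ∈ L.M k) :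
    ∑ i ∈ s, f i ∈ L.M k :=
  (L.M k).sum_mem h

/-- geometric series: `1 + x` is invertible with inverse in `1 + M k`. -/
theorem nl_exists_inv {k : ℕ} {x : E} (hx : x ∈ L.M k) :
    ∃ z ∈ L.M k, (1 + x) * (1 + z) = 1 := by
  -- partial sums
  let Z : ℕ → E := fun m => ∑ j ∈ Finset.range m, (-x) ^ (j + 1)
  have hnx : -x ∈ L.M k := (L.M k).neg_mem hx
  have hZk : ∀ m, Z m ∈ L.M k := fun m =>
    nl_sum_mem L _ (fun j _ => nl_mono L (Nat.le_add_right k j) (nl_pow_mem L hnx j))
  have hdiff : ∀ m, Z (m + 1) - Z m ∈ L.M m := by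
    intro m
    have : Z (m + 1) - Z m = (-x) ^ (m + 1) := by
      simp only [Z, Finset.sum_range_succ, add_sub_cancel_left]
    rw [this]
    exact nl_mono L (Nat.le_add_left m k) (nl_pow_mem L hnx m)
  obtain ⟨z, hz⟩ := L.complete Z hdiff
  have hzk : z ∈ L.M k := by
    have h1 : z - Z k ∈ L.M k := hz k
    have : z = (z - Z k) + Z k := by ring
    rw [this]
    exact (L.M k).add_mem h1 (hZk k)
  refine ⟨z, hzk, ?_⟩
  -- (1+x)(1+Z m) = 1 - (-x)^(m+1)
  have hgeo : ∀ m, (1 + x) * (1 + Z m) = 1 - (-x) ^ (m + 1) := by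
    intro m
    induction m with
    | zero => simp [Z]
    | succ m ih =>
      have : Z (m + 1) = Z m + (-x) ^ (m + 1) := by
        simp only [Z, Finset.sum_range_succ]
      rw [this, ← add_assoc, mul_add, ih]
      ring
  have hx0 : x ∈ L.M 0 := nl_mono L (Nat.zero_le k) hx
  have hall : ∀ m, (1 + x) * (1 + z) - 1 ∈ L.M m := by
    intro m
    have e : (1 + x) * (1 + z) - 1 = (1 + x) * (z - Z m) + (-((-x) ^ (m + 1))) := by
      have := hgeo m
      have e2 : (1 + x) * (1 + z) = (1 + x) * (z - Z m) + (1 + x) * (1 + Z m) := by ring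
      rw [e2, this]; ring
    rw [e]
    refine (L.M m).add_mem (nl_one_add_mul_mem L hx0 (hz m)) ((L.M m).neg_mem ?_)
    exact nl_mono L (Nat.le_add_left m k) (nl_pow_mem L hnx m)
  have := L.sep _ hall
  exact sub_eq_zero.mp this

theorem nl_one_add_ne_zero {x : E} (hx : x ∈ L.M 0) : 1 + x ≠ 0 := by
  obtain ⟨z, _, hz⟩ := nl_exists_inv L hx
  intro h
  rw [h, zero_mul] at hz
  exact zero_ne_one hz

/-- The subgroups `V k = 1 + M k` of `Eˣ`. -/
def nlV (k : ℕ) : Subgroup Eˣ where
  carrier := {u | (u : E) - 1 ∈ L.M k}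
  one_mem' := by simp
  mul_mem' := by
    intro u v hu hv
    simp only [Set.mem_ofPred_eq] at hu hv ⊢
    have e : ((u * v : Eˣ) : E) - 1 = ((u : E) - 1) * ((v : E) - 1) + ((u : E) - 1) +
        ((v : E) - 1) := by
      push_cast; ring
    rw [e]
    exact (L.M k).add_mem ((L.M k).add_mem (nl_mul_mem_right L hu hv) hu) hv
  inv_mem' := by
    intro u hu
    simp only [Set.mem_ofPred_eq] at hu ⊢
    obtain ⟨z, hz, hmul⟩ := nl_exists_inv L hu
    have e1 : (1 : E) + ((u : E) - 1) = u := by ring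
    rw [e1] at hmul
    have e2 : ((u⁻¹ : Eˣ) : E) = 1 + z := by
      have := congrArg (fun t => ((u⁻¹ : Eˣ) : E) * t) hmul
      simp only [mul_one] at this
      rw [← mul_assoc, Units.inv_mul, one_mul] at this
      exact this.symm
    rw [e2, add_sub_cancel_left]
    exact hz

theorem mem_nlV {k : ℕ} {u : Eˣ} : u ∈ nlV L k ↔ (u : E) - 1 ∈ L.M k := Iff.rfl

theorem nlV_mono {j k : ℕ} (h : j ≤ k) : nlV L k ≤ nlV L j := fun _ hu => nl_mono L h hu

theorem nlV_sep {u : Eˣ} (h : ∀ k, u ∈ nlV L k) : u = 1 := by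
  have := L.sep _ h
  exact Units.ext (sub_eq_zero.mp this)

/-- the unit `1 + x` -/
noncomputable def nlUnit (x : E) (hx : x ∈ L.M 0) : Eˣ := Units.mk0 (1 + x) (nl_one_add_ne_zero L hx)

@[simp] theorem nlUnit_coe (x : E) (hx : x ∈ L.M 0) : ((nlUnit L x hx : Eˣ) : E) = 1 + x := rfl

theorem nlUnit_mem {k : ℕ} (x : E) (hx : x ∈ L.M k) :
    nlUnit L x (nl_mono L (Nat.zero_le k) hx) ∈ nlV L k := by
  rw [mem_nlV, nlUnit_coe, add_sub_cancel_left]; exact hx

/-- if `u, v ∈ V 0` and `u - v ∈ M k` then `u / v ∈ V k`. -/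
theorem nlV_div_mem {k : ℕ} {u v : Eˣ} (hv : v ∈ nlV L 0) (h : (u : E) - v ∈ L.M k) :
    u / v ∈ nlV L k := by
  rw [mem_nlV]
  have hv' : v⁻¹ ∈ nlV L 0 := (nlV L 0).inv_mem hv
  rw [mem_nlV] at hv'
  have e : ((u / v : Eˣ) : E) - 1 = (1 + (((v⁻¹ : Eˣ) : E) - 1)) * ((u : E) - v) := by
    rw [div_eq_mul_inv]
    push_cast
    have : (v : E) * (v : E)⁻¹ = 1 := by
      rw [← Units.val_inv_eq_inv_val]; exact Units.mul_inv v
    linear_combination (1 : E) * this
  rw [e]
  exact nl_one_add_mul_mem L hv' h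

/-- if `u / v ∈ V k`, `v ∈ V 0` then `u - v ∈ M k`. -/
theorem nlV_sub_mem {k : ℕ} {u v : Eˣ} (hv : v ∈ nlV L 0) (h : u / v ∈ nlV L k) :
    (u : E) - v ∈ L.M k := by
  rw [mem_nlV] at h hv
  have e : (u : E) - v = (1 + ((v : E) - 1)) * (((u / v : Eˣ) : E) - 1) := by
    rw [div_eq_mul_inv]
    push_cast
    have : (v : E) * (v : E)⁻¹ = 1 := by
      rw [← Units.val_inv_eq_inv_val]; exact Units.mul_inv v
    linear_combination (-(u : E)) * this
  rw [e]
  exact nl_one_add_mul_mem L hv h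

end abstract

end Fermat.Agent.S55.CFT.LOC.H68

end
-- ==== END Fermat.Agent.S55.CFT.LOC.H68_NLat1

-- ==== BEGIN Fermat.Agent.S55.CFT.LOC.H68_TrivWire
section

set_option autoImplicit false
set_option linter.style.haveILetI false

namespace Fermat.Agent.S55.CFT.LOC.H68

open Fermat.Agent.S55.CFT.LOC

theorem trivialUnits_of_lattice (h2 : Stmt_LatticeExists) (h1 : Stmt_TrivialOfLattice) :
    Stmt_TrivialUnits := by
  intro q _ F E _ _ _ _ _ _ _ _ _ σ hσ
  haveI : FiniteDimensional ℚ_[q] E := FiniteDimensional.trans ℚ_[q] F E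
  obtain ⟨L, r, hr, hball, hunit⟩ := h2 q F E
  obtain ⟨V, hV, _, hVσ, hH0, hH1⟩ := h1 F E L σ hσ
  refine ⟨r, V, hr, ?_, ?_, hVσ, hH0, hH1⟩
  · intro u hu
    exact (hV u).mpr (hball _ hu)
  · intro u hu
    have h := hunit _ ((hV u).mp hu)
    have := nrm_one_add_of_lt q E h
    simpa using this

end Fermat.Agent.S55.CFT.LOC.H68

end
-- ==== END Fermat.Agent.S55.CFT.LOC.H68_TrivWire

-- ==== BEGIN Fermat.Agent.S55.CFT.LOC.H72_PowOpen
section

set_option autoImplicit false
set_option linter.unusedSectionVars false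

namespace Fermat.Agent.S55.CFT.LOC.H72

open Fermat.Agent.S55.CFT.LOC

section ball

variable (q : ℕ) [Fact q.Prime] (F : Type) [Field F] [Algebra ℚ_[q] F]
  [FiniteDimensional ℚ_[q] F]

/-- The ring of integers `{x | |x| ≤ 1}` of `F`. -/
def ball : Subring F where
  carrier := {x | nrm q F x ≤ 1}
  mul_mem' := fun {a b} ha hb => by
    show nrm q F (a * b) ≤ 1
    rw [nrm_mul]
    exact mul_le_one₀ ha (nrm_nonneg q F b) hb
  one_mem' := by
    show nrm q F 1 ≤ 1
    rw [nrm_one]
  add_mem' := fun {a b} ha hb => (nrm_add_le_max q F a b).trans (max_le ha hb)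
  zero_mem' := by
    show nrm q F 0 ≤ 1
    rw [nrm_zero]
    exact zero_le_one
  neg_mem' := fun {a} ha => by
    show nrm q F (-a) ≤ 1
    rw [nrm_neg]
    exact ha

theorem mem_ball {x : F} : x ∈ ball q F ↔ nrm q F x ≤ 1 := Iff.rfl

theorem nrm_coe_ball_le (x : ball q F) : nrm q F (x : F) ≤ 1 := x.2

theorem nrm_natCast_le (n : ℕ) : nrm q F (n : F) ≤ 1 := by
  have h : ((n : ball q F) : F) = (n : F) := by simp
  rw [← h]
  exact nrm_coe_ball_le q F _

theorem charZero_of_padic (q : ℕ) [Fact q.Prime] (F : Type) [Field F] [Algebra ℚ_[q] F] :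
    CharZero F :=
  charZero_of_injective_algebraMap (algebraMap ℚ_[q] F).injective

theorem natCast_ne_zero (q : ℕ) [Fact q.Prime] (F : Type) [Field F] [Algebra ℚ_[q] F]
    {n : ℕ} (hn : 0 < n) : (n : F) ≠ 0 := by
  have := charZero_of_padic q F
  exact_mod_cast hn.ne'

theorem nrm_natCast_pos {n : ℕ} (hn : 0 < n) : 0 < nrm q F (n : F) :=
  nrm_pos q F (natCast_ne_zero q F hn)

/-- `(x + y) ^ n = x ^ n + n x ^ (n - 1) y + k y ^ 2` with `|k| ≤ 1`, for integral `x`, `y`. -/
theorem exists_pow_add_expansion {x y : F} (hx : nrm q F x ≤ 1) (hy : nrm q F y ≤ 1) (n : ℕ) :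
    ∃ k : F, nrm q F k ≤ 1 ∧ (x + y) ^ n = x ^ n + n * x ^ (n - 1) * y + k * y ^ 2 := by
  obtain ⟨k, hk⟩ := Polynomial.powAddExpansion (⟨x, hx⟩ : ball q F) ⟨y, hy⟩ n
  refine ⟨(k : F), k.2, ?_⟩
  have := congrArg (fun z : ball q F => (z : F)) hk
  simpa using this

/-- `|x ^ n - y ^ n| ≤ |x - y|` for integral `x`, `y`. -/
theorem nrm_pow_sub_pow_le {x y : F} (hx : nrm q F x ≤ 1) (hy : nrm q F y ≤ 1) (n : ℕ) :
    nrm q F (x ^ n - y ^ n) ≤ nrm q F (x - y) := by
  obtain ⟨c, hc⟩ := sub_dvd_pow_sub_pow (⟨x, hx⟩ : ball q F) ⟨y, hy⟩ n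
  have h := congrArg (fun z : ball q F => (z : F)) hc
  have h' : x ^ n - y ^ n = (x - y) * (c : F) := by simpa using h
  rw [h', nrm_mul]
  exact mul_le_of_le_one_right (nrm_nonneg q F _) c.2

end ball

section newton

variable (q : ℕ) [Fact q.Prime] (F : Type) [Field F] [Algebra ℚ_[q] F]
  [FiniteDimensional ℚ_[q] F]

/-- The Newton iteration for `X ^ n = u`, starting at `1`. -/
noncomputable def newtonSeq (n : ℕ) (u : F) : ℕ → F
  | 0 => 1
  | k + 1 => newtonSeq n u k + (u - newtonSeq n u k ^ n) / ((n : F) * newtonSeq n u k ^ (n - 1))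

theorem newtonSeq_zero (n : ℕ) (u : F) : newtonSeq F n u 0 = 1 := rfl

theorem newtonSeq_succ (n : ℕ) (u : F) (k : ℕ) :
    newtonSeq F n u (k + 1)
      = newtonSeq F n u k + (u - newtonSeq F n u k ^ n) / ((n : F) * newtonSeq F n u k ^ (n - 1)) :=
  rfl

/-- The invariants of the Newton iteration. -/
theorem newton_invariant {n : ℕ} (hn : 0 < n) {u : F}
    (hu : nrm q F (u - 1) ≤ nrm q F (n : F) ^ 2 / 2) (k : ℕ) :
    nrm q F (newtonSeq F n u k) = 1 ∧
      nrm q F (newtonSeq F n u k ^ n - u) ≤ nrm q F (n : F) ^ 2 * (1 / 2) ^ (k + 1) := by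
  set ν := nrm q F (n : F) with hν
  have hνpos : 0 < ν := nrm_natCast_pos q F hn
  have hν1 : ν ≤ 1 := nrm_natCast_le q F n
  induction k with
  | zero =>
    refine ⟨by rw [newtonSeq_zero, nrm_one], ?_⟩
    rw [newtonSeq_zero, one_pow, nrm_sub_comm, zero_add, pow_one]
    calc nrm q F (u - 1) ≤ ν ^ 2 / 2 := hu
      _ = ν ^ 2 * (1 / 2) := by ring
  | succ k ih =>
    obtain ⟨h1, h2⟩ := ih
    set w := newtonSeq F n u k with hw
    set δ := (u - w ^ n) / ((n : F) * w ^ (n - 1)) with hδ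
    have hw0 : w ≠ 0 := by
      intro h0
      rw [h0, nrm_zero] at h1
      exact zero_ne_one h1
    have hn0 : (n : F) ≠ 0 := natCast_ne_zero q F hn
    have hden : (n : F) * w ^ (n - 1) ≠ 0 := mul_ne_zero hn0 (pow_ne_zero _ hw0)
    have hdenN : nrm q F ((n : F) * w ^ (n - 1)) = ν := by
      rw [nrm_mul, nrm_pow, h1, one_pow, mul_one]
    have hε : nrm q F (u - w ^ n) ≤ ν ^ 2 * (1 / 2) ^ (k + 1) := by
      rw [nrm_sub_comm]; exact h2
    have hδN : nrm q F δ = nrm q F (u - w ^ n) / ν := by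
      rw [hδ, nrm_div, hdenN]
    have hhalf : (1 / 2 : ℝ) ^ (k + 1) ≤ 1 / 2 := by
      calc (1 / 2 : ℝ) ^ (k + 1) ≤ (1 / 2 : ℝ) ^ 1 :=
            pow_le_pow_of_le_one (by norm_num) (by norm_num) (by omega)
        _ = 1 / 2 := pow_one _
    have hδle : nrm q F δ ≤ ν * (1 / 2) ^ (k + 1) := by
      rw [hδN, div_le_iff₀ hνpos]
      calc nrm q F (u - w ^ n) ≤ ν ^ 2 * (1 / 2) ^ (k + 1) := hε
        _ = ν * (1 / 2) ^ (k + 1) * ν := by ring
    have hδlt : nrm q F δ < 1 := by
      calc nrm q F δ ≤ ν * (1 / 2) ^ (k + 1) := hδle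
        _ ≤ 1 * (1 / 2) := mul_le_mul hν1 hhalf (by positivity) zero_le_one
        _ < 1 := by norm_num
    have hsucc : newtonSeq F n u (k + 1) = w + δ := rfl
    rw [hsucc]
    constructor
    · have := nrm_add_eq_max_of_ne q F (x := w) (y := δ) (by rw [h1]; exact hδlt.ne')
      rw [this, h1, max_eq_left hδlt.le]
    · obtain ⟨G, hG, hexp⟩ := exists_pow_add_expansion q F h1.le hδlt.le n
      have hlin : (n : F) * w ^ (n - 1) * δ = u - w ^ n := by
        rw [hδ, mul_div_cancel₀ _ hden]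
      have e : (w + δ) ^ n - u = G * δ ^ 2 := by
        rw [hexp, hlin]; ring
      rw [e, nrm_mul, nrm_pow]
      have hδ0 : 0 ≤ nrm q F δ := nrm_nonneg q F δ
      calc nrm q F G * nrm q F δ ^ 2 ≤ 1 * nrm q F δ ^ 2 :=
            mul_le_mul_of_nonneg_right hG (by positivity)
        _ = nrm q F δ ^ 2 := one_mul _
        _ ≤ (ν * (1 / 2) ^ (k + 1)) ^ 2 := pow_le_pow_left₀ hδ0 hδle 2
        _ = ν ^ 2 * ((1 / 2) ^ (k + 1) * (1 / 2) ^ (k + 1)) := by ring
        _ ≤ ν ^ 2 * ((1 / 2) ^ (k + 1) * (1 / 2)) := by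
            apply mul_le_mul_of_nonneg_left _ (by positivity)
            exact mul_le_mul_of_nonneg_left hhalf (by positivity)
        _ = ν ^ 2 * (1 / 2) ^ (k + 1 + 1) := by ring

theorem newton_step_le {n : ℕ} (hn : 0 < n) {u : F}
    (hu : nrm q F (u - 1) ≤ nrm q F (n : F) ^ 2 / 2) (k : ℕ) :
    nrm q F (newtonSeq F n u (k + 1) - newtonSeq F n u k)
      ≤ nrm q F (n : F) / 2 * (1 / 2) ^ k := by
  set ν := nrm q F (n : F) with hν
  have hνpos : 0 < ν := nrm_natCast_pos q F hn
  obtain ⟨h1, h2⟩ := newton_invariant q F hn hu k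
  rw [newtonSeq_succ, add_sub_cancel_left, nrm_div, nrm_mul, nrm_pow, h1, one_pow, mul_one,
    nrm_sub_comm, div_le_iff₀ hνpos]
  calc nrm q F (newtonSeq F n u k ^ n - u) ≤ ν ^ 2 * (1 / 2) ^ (k + 1) := h2
    _ = ν / 2 * (1 / 2) ^ k * ν := by ring

end newton

/-- **LOC-1g**: units close to `1` are `n`-th powers (`|u - 1| ≤ |n|² / 2` suffices). -/
theorem pow_eq_of_nrm_sub_one_le (q : ℕ) [Fact q.Prime] (F : Type) [Field F] [Algebra ℚ_[q] F]
    [FiniteDimensional ℚ_[q] F] {n : ℕ} (hn : 0 < n) {u : F}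
    (hu : nrm q F (u - 1) ≤ nrm q F (n : F) ^ 2 / 2) :
    ∃ w : F, nrm q F w = 1 ∧ w ^ n = u := by
  set ν := nrm q F (n : F) with hν
  have hνpos : 0 < ν := nrm_natCast_pos q F hn
  have hν1 : ν ≤ 1 := nrm_natCast_le q F n
  obtain ⟨y, hy⟩ := H68.stmt_SuccApprox q F (newtonSeq F n u) (ν / 2) (1 / 2) (by positivity)
    (by norm_num) (by norm_num) (newton_step_le q F hn hu)
  -- `|y| = 1`
  have hy0 := hy 0
  rw [pow_zero, mul_one, newtonSeq_zero] at hy0
  have hy1 : nrm q F y = 1 := by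
    have h1 : nrm q F (y - 1) < 1 := by
      calc nrm q F (y - 1) ≤ ν / 2 := hy0
        _ < 1 := by linarith
    have := nrm_one_add_of_lt q F h1
    rwa [add_sub_cancel] at this
  refine ⟨y, hy1, ?_⟩
  -- `|y ^ n - u| ≤ (1 / 2) ^ k` for all `k`
  have hb : ∀ k : ℕ, nrm q F (y ^ n - u) ≤ (1 / 2 : ℝ) ^ k := by
    intro k
    obtain ⟨h1, h2⟩ := newton_invariant q F hn hu k
    have e : y ^ n - u = (y ^ n - newtonSeq F n u k ^ n) + (newtonSeq F n u k ^ n - u) := by ring
    rw [e]
    refine (nrm_add_le_max q F _ _).trans (max_le ?_ ?_)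
    · refine (nrm_pow_sub_pow_le q F hy1.le h1.le n).trans ((hy k).trans ?_)
      calc ν / 2 * (1 / 2) ^ k ≤ 1 * (1 / 2) ^ k := by
            apply mul_le_mul_of_nonneg_right _ (by positivity)
            linarith
        _ = (1 / 2) ^ k := one_mul _
    · refine h2.trans ?_
      calc ν ^ 2 * (1 / 2) ^ (k + 1) ≤ 1 * (1 / 2) ^ (k + 1) := by
            apply mul_le_mul_of_nonneg_right _ (by positivity)
            exact pow_le_one₀ hνpos.le hν1
        _ = (1 / 2) ^ (k + 1) := one_mul _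
        _ ≤ (1 / 2) ^ k := pow_le_pow_of_le_one (by norm_num) (by norm_num) (Nat.le_succ k)
  have hzero : nrm q F (y ^ n - u) = 0 := by
    apply le_antisymm _ (nrm_nonneg q F _)
    apply le_of_forall_pos_le_add
    intro ε hε
    obtain ⟨k, hk⟩ := exists_pow_lt_of_lt_one hε (by norm_num : (1 / 2 : ℝ) < 1)
    rw [zero_add]
    exact (hb k).trans hk.le
  exact sub_eq_zero.mp ((nrm_eq_zero_iff q F).mp hzero)

theorem stmt_PowOpen : Stmt_PowOpen := by
  intro q _ F _ _ _ n hn
  refine ⟨nrm q F (n : F) ^ 2 / 2, by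
    have := nrm_natCast_pos q F hn
    positivity, fun u hu => ?_⟩
  obtain ⟨w, -, hw⟩ := pow_eq_of_nrm_sub_one_le q F hn hu
  exact ⟨w, hw⟩

end Fermat.Agent.S55.CFT.LOC.H72

end
-- ==== END Fermat.Agent.S55.CFT.LOC.H72_PowOpen
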