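-- GENERATED (merged mirror, NOTES/tools/trim/merge3_helper67.py): 9 modules of the originals, bodies verbatim.
import Mathlib.RingTheory.Ideal.Norm.RelNorm
import Mathlib
import Fermat.Agent.Zm.S56_L05_000
import Fermat.Agent.Zm.S56_L04_001
import Fermat.Agent.Zm.S56_L03_002
import Fermat.Agent.Zm.S56_L05_001
import Fermat.Agent.S55.CFT.H96_Newton
import Fermat.Agent.Zm.S56_L05_003
import Fermat.Agent.Zm.S56_L02_001
import Fermat.Agent.Zm.S56_L05_002
import Fermat.Agent.Zm.S56_L01_003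

-- ==== BEGIN Fermat.Agent.S55.CFT.H20_WeakApprox
section

/-!
# S55 / E4 / CFT, leaf SI-b (helper20): weak approximation

`stmt_WeakApprox : H12.Stmt_WeakApprox`: `𝓞 K [1 / T]` is dense in `∏_{q ∈ T} ℚ_q ⊗ K`.
-/

set_option autoImplicit false

open NumberField TensorProduct

noncomputable section

namespace Fermat.Agent.S55.CFT.H20

open Fermat.Agent.S55.CFT Fermat.Agent.S55.CFT.H12

variable {K : Type} [Field K] [NumberField K]

/-- `x` is a limit of elements of `𝓞 K [1 / T]` (diagonally embedded). -/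
def Approx (T : Finset Nat.Primes) (x : ∀ q : T, SemiLocal K q.1) : Prop :=
  ∀ m : ℕ, ∃ (a₀ : 𝓞 K) (k : ℕ), ∀ q : T,
    (1 : Qp q.1) ⊗ₜ[ℚ] ((a₀ : K) / (prodT T : K) ^ k) - x q ∈ semiLocalBall K q.1 m

theorem prodT_ne_zero (T : Finset Nat.Primes) : ((prodT T : ℕ) : K) ≠ 0 :=
  Nat.cast_ne_zero.mpr (_root_.Fermat.Agent.S55.CFT.H20.prodT_pos T).ne'

theorem approx_zero (T : Finset Nat.Primes) : Approx (K := K) T 0 := by
  intro m
  refine ⟨0, 0, fun q => ?_⟩
  simpa using zero_mem_ball (K := K) q.1 m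

theorem approx_add {T : Finset Nat.Primes} {x y : ∀ q : T, SemiLocal K q.1}
    (hx : Approx T x) (hy : Approx T y) : Approx T (x + y) := by
  intro m
  obtain ⟨a₀, k, ha⟩ := hx m
  obtain ⟨b₀, l, hb⟩ := hy m
  refine ⟨a₀ * (prodT T : 𝓞 K) ^ l + b₀ * (prodT T : 𝓞 K) ^ k, k + l, fun q => ?_⟩
  have hP := _root_.Fermat.Agent.S55.CFT.H20.prodT_ne_zero (K := K) T
  have h1 : (((a₀ * (prodT T : 𝓞 K) ^ l + b₀ * (prodT T : 𝓞 K) ^ k : 𝓞 K) : K))
      / (prodT T : K) ^ (k + l) = (a₀ : K) / (prodT T : K) ^ k + (b₀ : K) / (prodT T : K) ^ l := by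
    push_cast
    field_simp
    ring
  rw [h1, TensorProduct.tmul_add, Pi.add_apply]
  have := add_mem_ball q.1 (ha q) (hb q)
  convert this using 1
  abel

theorem one_tmul_ratsmul (q : Nat.Primes) (r : ℚ) (z : K) :
    (1 : Qp q) ⊗ₜ[ℚ] (r • z) = ((r : ℚ) : Qp q) ⊗ₜ[ℚ] z := by
  have h : r • (1 : Qp q) = ((r : ℚ) : Qp q) := by
    rw [Algebra.smul_def, mul_one, eq_ratCast]
  rw [← TensorProduct.smul_tmul, h]

theorem tmul_ratsmul (q : Nat.Primes) (c : Qp q) (r : ℚ) (z : K) :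
    c ⊗ₜ[ℚ] (r • z) = (((r : ℚ) : Qp q) * c) ⊗ₜ[ℚ] z := by
  have h : r • c = ((r : ℚ) : Qp q) * c := by
    rw [Algebra.smul_def, eq_ratCast]
  rw [← TensorProduct.smul_tmul, h]

theorem approx_single_tmul_int (T : Finset Nat.Primes) {q0 : Nat.Primes} (hq0 : q0 ∈ T)
    (c : Qp q0) (z : 𝓞 K) :
    Approx (K := K) T (Pi.single (⟨q0, hq0⟩ : T) (c ⊗ₜ[ℚ] (z : K))) := by
  intro m
  obtain ⟨b, k, hb1, hb2⟩ := exists_rat_approx T hq0 c m
  refine ⟨(b : 𝓞 K) * z, k, fun q => ?_⟩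
  have hP := _root_.Fermat.Agent.S55.CFT.H20.prodT_ne_zero (K := K) T
  have h1 : (((b : 𝓞 K) * z : 𝓞 K) : K) / (prodT T : K) ^ k
      = ((b : ℚ) / (prodT T : ℚ) ^ k) • (z : K) := by
    have e1 : ((((b : 𝓞 K) * z : 𝓞 K)) : K) = (b : K) * (z : K) := by
      change algebraMap (𝓞 K) K ((b : 𝓞 K) * z) = (b : K) * algebraMap (𝓞 K) K z
      rw [map_mul, map_intCast]
    rw [e1, Algebra.smul_def, eq_ratCast]
    push_cast
    field_simp
  rw [h1, one_tmul_ratsmul]
  have hcast : ∀ q' : Nat.Primes, ((((b : ℚ) / (prodT T : ℚ) ^ k : ℚ)) : Qp q')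
      = (b : Qp q') / ((prodT T : ℕ) : Qp q') ^ k := by
    intro q'
    push_cast
    rfl
  rw [hcast]
  by_cases h : q = ⟨q0, hq0⟩
  · subst h
    rw [Pi.single_eq_same, ← TensorProduct.sub_tmul]
    exact tmul_mem_ball q0 hb1 z
  · rw [Pi.single_eq_of_ne h, sub_zero]
    refine tmul_mem_ball q.1 (hb2 q.1 q.2 ?_) z
    intro h'
    exact h (Subtype.ext h')

theorem exists_int_denominator (y : K) : ∃ (z : 𝓞 K) (d : ℤ), d ≠ 0 ∧ y = ((d : ℚ)⁻¹) • (z : K) := by
  have halg : IsAlgebraic ℤ y := by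
    rw [IsFractionRing.isAlgebraic_iff ℤ ℚ K]
    exact Algebra.IsAlgebraic.isAlgebraic y
  obtain ⟨d, hd, hint⟩ := halg.exists_integral_multiple
  refine ⟨⟨d • y, hint⟩, d, hd, ?_⟩
  rw [Algebra.smul_def, eq_ratCast]
  have hd' : (d : K) ≠ 0 := Int.cast_ne_zero.mpr hd
  show y = _ * (d • y)
  rw [zsmul_eq_mul]
  push_cast
  field_simp

theorem approx_single_tmul (T : Finset Nat.Primes) {q0 : Nat.Primes} (hq0 : q0 ∈ T)
    (c : Qp q0) (y : K) :
    Approx (K := K) T (Pi.single (⟨q0, hq0⟩ : T) (c ⊗ₜ[ℚ] y)) := by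
  obtain ⟨z, d, -, rfl⟩ := exists_int_denominator y
  rw [tmul_ratsmul]
  exact approx_single_tmul_int T hq0 _ z

theorem approx_single (T : Finset Nat.Primes) {q0 : Nat.Primes} (hq0 : q0 ∈ T)
    (s : SemiLocal K q0) :
    Approx (K := K) T (Pi.single (⟨q0, hq0⟩ : T) s) := by
  induction s using TensorProduct.induction_on with
  | zero =>
    rw [Pi.single_zero]
    exact approx_zero T
  | tmul c y => exact approx_single_tmul T hq0 c y
  | add s t hs ht =>
    rw [Pi.single_add]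
    exact approx_add hs ht

theorem approx_all (T : Finset Nat.Primes) (x : ∀ q : T, SemiLocal K q.1) : Approx T x := by
  have hx : x = ∑ q : T, Pi.single q (x q) := (Finset.univ_sum_single x).symm
  rw [hx]
  refine Finset.sum_induction _ (Approx T) (fun _ _ => approx_add) (approx_zero T) ?_
  rintro ⟨q, hq⟩ -
  exact approx_single T hq _

/-- `1 ⊗ P ^ m ∈ q ^ m · R_q` for `q ∈ T`. -/
theorem one_tmul_prodT_pow_mem_ball {T : Finset Nat.Primes} {q : Nat.Primes} (hq : q ∈ T) (m : ℕ) :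
    (1 : Qp q) ⊗ₜ[ℚ] (((prodT T : ℕ) : K) ^ m) ∈ semiLocalBall K q m := by
  refine ⟨((prodErase T q : ℕ) : SemiLocal K q) ^ m,
    Subring.pow_mem _ (natCast_mem _ _) _, ?_⟩
  rw [← mul_pow, ← Nat.cast_mul, ← prodT_eq_mul hq]
  have : (1 : Qp q) ⊗ₜ[ℚ] (((prodT T : ℕ) : K) ^ m)
      = ((1 : Qp q) ⊗ₜ[ℚ] ((prodT T : ℕ) : K)) ^ m := by
    rw [Algebra.TensorProduct.tmul_pow, one_pow]
  rw [this]
  congr 1
  rw [← map_natCast (Algebra.TensorProduct.includeRight : K →ₐ[ℚ] SemiLocal K q)]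
  rfl

/-- **SI-b** (weak approximation). -/
theorem stmt_WeakApprox : Stmt_WeakApprox := by
  intro K _ _ T x m
  obtain ⟨a₀, k, ha⟩ := approx_all T x m
  by_cases h0 : a₀ = 0
  · subst h0
    refine ⟨(prodT T : 𝓞 K) ^ m, 0, ?_, fun q => ?_⟩
    · exact pow_ne_zero _ (Nat.cast_ne_zero.mpr (_root_.Fermat.Agent.S55.CFT.H20.prodT_pos T).ne')
    · have h1 : -x q ∈ semiLocalBall K q.1 m := by simpa using ha q
      have h2 := one_tmul_prodT_pow_mem_ball (K := K) q.2 m
      have h3 := add_mem_ball q.1 h2 h1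
      have h4 : ((((prodT T : 𝓞 K) ^ m : 𝓞 K)) : K) / (prodT T : K) ^ 0
          = ((prodT T : ℕ) : K) ^ m := by
        push_cast
        simp
      rw [h4, sub_eq_add_neg]
      exact h3
  · exact ⟨a₀, k, h0, ha⟩

end Fermat.Agent.S55.CFT.H20

end
end
-- ==== END Fermat.Agent.S55.CFT.H20_WeakApprox

-- ==== BEGIN Fermat.Agent.S55.CFT.H31_SIDeg1
section

/-!
# S55/E4, package SI'' (helper31): the ray map is trivial on the primes of degree one

* `diagIdele_norm`: `diag_K (N_{L/K} y) = N_{L/K} (diag_L y)` for `y ∈ Lˣ` (`L/K` Galois);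
* `relNorm_eq_under_of_prime`: a prime `Q` of `L` of prime absolute norm has relative norm
  `Q ∩ 𝓞 K`;
* `exists_idRep_norm`: if `Cl_T(L) = 1`, the prime `𝔭 = Q ∩ 𝓞 K` under such a `Q` has a
  representation `(a) 𝔭 = (b) J`, `J` supported on `T`, with `diag (b/a)` a norm of a `T`-idele
  of `L`;
* `rayVal_under_eq_one`: the hypothesis of `Stmt_T2m` for the ray map `rayVal`.
-/

set_option autoImplicit false
set_option linter.unusedSectionVars false

open NumberField Ideal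

noncomputable section

namespace Fermat.Agent.S55.CFT.H31

open Fermat.Agent.S55.CFT Fermat.Agent.Lib.SecondIneq

variable (K L : Type) [Field K] [Field L] [NumberField K] [NumberField L] [Algebra K L]
  (T : Finset Nat.Primes)

/-- `diag_K ∘ N_{L/K} = N_{L/K} ∘ diag_L`. -/
theorem diagIdele_norm [IsGalois K L] (y : Lˣ) :
    diagIdele K T (Units.map (Algebra.norm K : L →* K) y) = normLK K L T (diagIdele L T y) := by
  apply H12.baseIdele_injective K L T
  rw [H12.baseIdele_diagIdele, H12.baseIdele_normLK]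
  have h : Units.map (algebraMap K L : K →* L) (Units.map (Algebra.norm K : L →* K) y) =
      ∏ σ : L ≃ₐ[K] L, σ • y := by
    apply Units.ext
    rw [Units.coe_prod]
    simp only [Units.coe_map, MonoidHom.coe_coe]
    rw [Algebra.norm_eq_prod_automorphisms]
    rfl
  rw [h, map_prod]
  refine Finset.prod_congr rfl (fun σ _ => ?_)
  exact diagIdele_smul K L T σ y

theorem relNorm_eq_under_of_prime (Q : Ideal (𝓞 L)) [Q.IsPrime] (hQ : (Ideal.absNorm Q).Prime) :
    Ideal.relNorm (𝓞 K) Q = Q.under (𝓞 K) := by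
  haveI : Q.LiesOver (Q.under (𝓞 K)) := ⟨rfl⟩
  obtain ⟨s, hs⟩ := Ideal.exists_relNorm_eq_pow_of_isPrime Q (Q.under (𝓞 K))
  have h1 := Ideal.absNorm_relNorm (R := 𝓞 K) (S := 𝓞 L) Q
  rw [hs, map_pow] at h1
  have hs1 : s = 1 := ((Nat.Prime.pow_eq_iff hQ).1 h1).2
  rw [hs, hs1, pow_one]


theorem relNorm_idealT : Ideal.relNorm (𝓞 K) (idealT L T) = idealT K T ^ Module.finrank (𝓞 K) (𝓞 L) := by
  have h : idealT L T = (idealT K T).map (algebraMap (𝓞 K) (𝓞 L)) := by
    rw [idealT, idealT, Ideal.map_span, Set.image_singleton]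
    simp
  rw [h, Ideal.relNorm_algebraMap]

/-- A prime `𝔭` of `K` under a prime `Q` of `L` of absolute degree one is `(N b / N a) J` with
`J` supported on `T`: its representing element is a norm from `L`. -/
theorem exists_idRep_norm [IsGalois K L] (hclL : ClTrivial L T) (Q : Ideal (𝓞 L)) [Q.IsPrime]
    (hQ : (Ideal.absNorm Q).Prime) :
    ∃ r : IdRep K T (Q.under (𝓞 K)), diagIdele K T r.val ∈ (normLK K L T).range := by
  have hQ0 : Q ≠ ⊥ := by
    rintro rfl
    rw [Ideal.absNorm_bot] at hQ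
    exact Nat.not_prime_zero hQ
  obtain ⟨a', b', J', n, ha', hb', hJ', h'⟩ := hclL Q hQ0
  have hrel := congrArg (Ideal.relNorm (𝓞 K)) h'
  rw [map_mul, map_mul, Ideal.relNorm_singleton, Ideal.relNorm_singleton,
    relNorm_eq_under_of_prime K L Q hQ] at hrel
  have hJ : Ideal.relNorm (𝓞 K) J' ∣ idealT K T ^ (Module.finrank (𝓞 K) (𝓞 L) * n) := by
    rw [pow_mul, ← relNorm_idealT, ← map_pow]
    exact map_dvd _ hJ'
  have ha : Algebra.intNorm (𝓞 K) (𝓞 L) a' ≠ 0 := Algebra.intNorm_ne_zero.2 ha'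
  have hb : Algebra.intNorm (𝓞 K) (𝓞 L) b' ≠ 0 := Algebra.intNorm_ne_zero.2 hb'
  refine ⟨⟨_, _, _, _, ha, hb, hJ, hrel⟩, diagIdele L T (fracUnit L a' b' ha' hb'), ?_⟩
  rw [← diagIdele_norm]
  congr 1
  apply Units.ext
  simp only [IdRep.val, fracUnit_val, Units.coe_map]
  have e1 : ∀ x : 𝓞 L, ((Algebra.intNorm (𝓞 K) (𝓞 L) x : 𝓞 K) : K) = Algebra.norm K (x : L) :=
    fun x => Algebra.algebraMap_intNorm (A := 𝓞 K) (B := 𝓞 L) (K := K) (L := L) x
  have hn0 : Algebra.norm K (a' : L) ≠ 0 := by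
    rw [← e1]
    simpa using ha
  have ha0 : (a' : L) ≠ 0 := by simpa using ha'
  rw [e1, e1, eq_div_iff hn0, ← map_mul, div_mul_cancel₀ _ ha0]


theorem under_ne_bot_of_prime (Q : Ideal (𝓞 L)) (hQ : (Ideal.absNorm Q).Prime) :
    Q.under (𝓞 K) ≠ ⊥ := by
  intro h
  have hQ0 : Q = ⊥ := Ideal.eq_bot_of_comap_eq_bot (R := 𝓞 K) h
  rw [hQ0, Ideal.absNorm_bot] at hQ
  exact Nat.not_prime_zero hQ

/-- The ray map of `d` is trivial on the primes of `K` under a prime of `L` of absolute degree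
one, if `d` is trivial on the `T`-units and on the elements which are norms of `T`-ideles. -/
theorem rayVal_under_eq_one [IsGalois K L] (hclK : ClTrivial K T) (hclL : ClTrivial L T)
    {G : Type} [CommGroup G] (d : Kˣ →* G) (hd1 : ∀ e ∈ TUnits K T, d e = 1)
    (hdN : ∀ x : Kˣ, diagIdele K T x ∈ (normLK K L T).range → d x = 1)
    (Q : Ideal (𝓞 L)) [Q.IsPrime] (hQ : (Ideal.absNorm Q).Prime) :
    rayVal hclK d (Q.under (𝓞 K)) = 1 := by
  obtain ⟨r, hr⟩ := exists_idRep_norm K L T hclL Q hQ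
  rw [rayVal_eq hclK hd1 (under_ne_bot_of_prime K L Q hQ) r]
  exact hdN _ hr

end Fermat.Agent.S55.CFT.H31

end
end
-- ==== END Fermat.Agent.S55.CFT.H31_SIDeg1

-- ==== BEGIN Fermat.Agent.S55.CFT.H31_SIOpen
section

/-!
# S55/E4, package SI'' (helper31): openness of the norm group and integral representatives

From helper12's interfaces `H12.Stmt_SemiLocalPow` (SI-a) and `H12.Stmt_WeakApprox` (SI-b):

* `exists_pow_mul_mem`: `ℚ_q ⊗ K = R_q[1/q]` (`R_q = semiLocalInt K q`);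
* `exists_ball_le_range`: `U_N = {u : u_q ≡ 1 mod q^N R_q} ⊆ N_{L/K} J_{L,T}` for `N` large;
* `exists_ray_mem_range` (hd2): the integers `a ≡ 1 mod (∏ T)^N` are norms, diagonally;
* `exists_int_div_mem` (hd3): every class of `J_{K,T}` mod `E_K · N J_L` contains a nonzero
  integer of `K`.
-/

set_option autoImplicit false
set_option linter.unusedSectionVars false

open NumberField Ideal TensorProduct

noncomputable section

namespace Fermat.Agent.S55.CFT.H31

open Fermat.Agent.S55.CFT Fermat.Agent.Lib.SecondIneq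

section lattice

variable (K : Type) [Field K] [NumberField K] (q : Nat.Primes)

lemma tmul_mem_semiLocalInt {c : Qp q} (hc : H12.qNorm q c ≤ 1) (x : 𝓞 K) :
    c ⊗ₜ[ℚ] (x : K) ∈ H12.semiLocalInt K q :=
  Subring.subset_closure ⟨c, x, hc, rfl⟩

lemma ball_mul {m : ℕ} {y r : SemiLocal K q} (hy : y ∈ H12.semiLocalBall K q m)
    (hr : r ∈ H12.semiLocalInt K q) : y * r ∈ H12.semiLocalBall K q m := by
  obtain ⟨s, hs, rfl⟩ := hy
  exact ⟨s * r, Subring.mul_mem _ hs hr, by ring⟩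

lemma ball_mono {m m' : ℕ} (h : m' ≤ m) {y : SemiLocal K q}
    (hy : y ∈ H12.semiLocalBall K q m) : y ∈ H12.semiLocalBall K q m' := by
  obtain ⟨s, hs, rfl⟩ := hy
  refine ⟨((q : ℕ) : SemiLocal K q) ^ (m - m') * s,
    Subring.mul_mem _ (Subring.pow_mem _ (natCast_mem _ _) _) hs, ?_⟩
  rw [← mul_assoc, ← pow_add, Nat.add_sub_cancel' h]

lemma natCast_semiLocal (n : ℕ) : ((n : ℕ) : SemiLocal K q) = (n : Qp q) ⊗ₜ[ℚ] (1 : K) := by
  rw [← map_natCast (Algebra.TensorProduct.includeLeft : Qp q →ₐ[ℚ] SemiLocal K q)]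
  rfl

lemma natCast_semiLocal' (n : ℕ) : ((n : ℕ) : SemiLocal K q) = (1 : Qp q) ⊗ₜ[ℚ] (n : K) := by
  rw [← map_natCast (Algebra.TensorProduct.includeRight : K →ₐ[ℚ] SemiLocal K q)]
  rfl

lemma exists_pow_mul_qNorm_le (c : Qp q) :
    ∃ t : ℕ, H12.qNorm q (((q : ℕ) : Qp q) ^ t * c) ≤ 1 := by
  haveI := fact_primes q
  obtain ⟨t, ht⟩ := pow_unbounded_of_one_lt ‖(c : ℚ_[(q : ℕ)])‖
    (show (1 : ℝ) < ((q : ℕ) : ℝ) by exact_mod_cast q.2.one_lt)
  refine ⟨t, ?_⟩
  unfold H12.qNorm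
  have hq : (0 : ℝ) < ((q : ℕ) : ℝ) := by exact_mod_cast q.2.pos
  rw [norm_mul, norm_pow, Padic.norm_p, inv_pow, inv_mul_le_iff₀ (by positivity), mul_one]
  exact ht.le

lemma exists_pow_mul_mem (y : SemiLocal K q) :
    ∃ t : ℕ, ((q : ℕ) : SemiLocal K q) ^ t * y ∈ H12.semiLocalInt K q := by
  induction y using TensorProduct.induction_on with
  | zero => exact ⟨0, by simp⟩
  | tmul c x =>
    obtain ⟨x', M, hM, hx⟩ : ∃ (x' : 𝓞 K) (M : ℤ), M ≠ 0 ∧ x * (M : K) = (x' : K) := by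
      haveI := IsLocalization.isAlgebraic ℚ (nonZeroDivisors ℤ)
      haveI : Algebra.IsAlgebraic ℤ K := Algebra.IsAlgebraic.trans ℤ ℚ K
      obtain ⟨M, hM, h⟩ := IsAlgebraic.exists_integral_multiple
        (Algebra.IsAlgebraic.isAlgebraic (R := ℤ) x)
      refine ⟨⟨M • x, h⟩, M, hM, ?_⟩
      change x * (M : K) = M • x
      rw [zsmul_eq_mul, mul_comm]
    obtain ⟨t, ht⟩ := exists_pow_mul_qNorm_le q (c * ((M : ℚ) : Qp q)⁻¹)
    refine ⟨t, ?_⟩
    have hM' : ((M : ℚ) : K) ≠ 0 := by simpa using hM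
    have hxx : x = ((M : ℚ)⁻¹ : ℚ) • (x' : K) := by
      rw [← hx, Algebra.smul_def, map_inv₀]
      have hM2 : (M : K) ≠ 0 := by exact_mod_cast hM
      simp only [eq_ratCast, Rat.cast_intCast]
      field_simp
    have : ((q : ℕ) : SemiLocal K q) ^ t * (c ⊗ₜ[ℚ] x) =
        (((q : ℕ) : Qp q) ^ t * (c * ((M : ℚ) : Qp q)⁻¹)) ⊗ₜ[ℚ] (x' : K) := by
      rw [natCast_semiLocal, Algebra.TensorProduct.tmul_pow, one_pow,
        Algebra.TensorProduct.tmul_mul_tmul, one_mul, hxx, TensorProduct.tmul_smul,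
        TensorProduct.smul_tmul', Algebra.smul_def, map_inv₀]
      congr 1
      simp
      ring
    rw [this]
    exact tmul_mem_semiLocalInt K q ht x'
  | add y y' hy hy' =>
    obtain ⟨t, ht⟩ := hy
    obtain ⟨t', ht'⟩ := hy'
    refine ⟨t + t', ?_⟩
    have : ((q : ℕ) : SemiLocal K q) ^ (t + t') * (y + y') =
        ((q : ℕ) : SemiLocal K q) ^ t' * (((q : ℕ) : SemiLocal K q) ^ t * y) +
        ((q : ℕ) : SemiLocal K q) ^ t * (((q : ℕ) : SemiLocal K q) ^ t' * y') := by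
      rw [pow_add]; ring
    rw [this]
    exact Subring.add_mem _ (Subring.mul_mem _ (Subring.pow_mem _ (natCast_mem _ _) _) ht)
      (Subring.mul_mem _ (Subring.pow_mem _ (natCast_mem _ _) _) ht')

end lattice

section main

variable (K L : Type) [Field K] [Field L] [NumberField K] [NumberField L] [Algebra K L]
  (T : Finset Nat.Primes)

/-- Openness of the norm group: `U_N ⊆ N_{L/K} J_{L,T}` for `N` large. -/
theorem exists_ball_le_range (hPow : H12.Stmt_SemiLocalPow) :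
    ∃ N : ℕ, ∀ u : IdeleT K T,
      (∀ q : T, ((u q : (SemiLocal K q.1)ˣ) : SemiLocal K q.1) - 1 ∈ H12.semiLocalBall K q.1 N) →
      u ∈ (normLK K L T).range := by
  haveI : FiniteDimensional K L := Module.Finite.of_restrictScalars_finite ℚ K L
  have hn : 0 < Module.finrank K L := Module.finrank_pos
  choose m hm using fun q : T => hPow K q.1 (Module.finrank K L) hn
  refine ⟨∑ q, m q, fun u hu => ?_⟩
  have hw : ∀ q : T, ∃ w : (SemiLocal K q.1)ˣ, w ^ Module.finrank K L = u q := by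
    intro q
    obtain ⟨w, hw⟩ := hm q (u q) (ball_mono K q.1
      (Finset.single_le_sum (fun _ _ => Nat.zero_le _) (Finset.mem_univ q)) (hu q))
    have hwu : IsUnit w := by
      have : IsUnit (w ^ Module.finrank K L) := hw ▸ (u q).isUnit
      exact (isUnit_pow_iff hn.ne').1 this
    exact ⟨hwu.unit, Units.ext (by simpa using hw)⟩
  choose w hw using hw
  refine ⟨baseIdele K L T w, ?_⟩
  rw [H56.normLK_base]
  funext q
  exact hw q

lemma diag_sub_one_mem_ball (N : ℕ) (a : 𝓞 K) (h : a - 1 ∈ idealT K T ^ N) (q : T) :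
    (1 : Qp q.1) ⊗ₜ[ℚ] (a : K) - 1 ∈ H12.semiLocalBall K q.1 N := by
  rw [idealT, Ideal.span_singleton_pow, Ideal.mem_span_singleton'] at h
  obtain ⟨c, hc⟩ := h
  obtain ⟨M', hM'⟩ : (q.1 : ℕ) ∣ prodT T := Finset.dvd_prod_of_mem _ q.2
  have h1 : H12.qNorm q.1 1 ≤ 1 := by
    haveI := fact_primes q.1
    simp [H12.qNorm]
  refine ⟨((M' : ℕ) : SemiLocal K q.1) ^ N * ((1 : Qp q.1) ⊗ₜ[ℚ] (c : K)),
    Subring.mul_mem _ (Subring.pow_mem _ (natCast_mem _ _) _)
      (tmul_mem_semiLocalInt K q.1 h1 c), ?_⟩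
  have h2 : (a : K) - 1 = (c : K) * (((q.1 : ℕ) : K) * ((M' : ℕ) : K)) ^ N := by
    have := congrArg (fun z : 𝓞 K => (z : K)) hc
    simp only [map_mul, map_pow, map_sub, map_one, map_intCast] at this
    rw [← this, hM']
    push_cast
    ring
  have h3 : (1 : Qp q.1) ⊗ₜ[ℚ] (a : K) - 1 =
      (Algebra.TensorProduct.includeRight : K →ₐ[ℚ] SemiLocal K q.1) ((a : K) - 1) := by
    rw [map_sub, map_one]
    rfl
  have h4 : (1 : Qp q.1) ⊗ₜ[ℚ] (c : K) =
      (Algebra.TensorProduct.includeRight : K →ₐ[ℚ] SemiLocal K q.1) (c : K) := rfl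
  rw [h3, h2, h4, map_mul, map_pow, map_mul, map_natCast, map_natCast]
  ring

/-- **hd2**: the integers `≡ 1 mod (∏ T)^N` are norms, diagonally. -/
theorem exists_ray_mem_range (hPow : H12.Stmt_SemiLocalPow) :
    ∃ N : ℕ, ∀ (a : 𝓞 K) (ha : a ≠ 0), a - 1 ∈ idealT K T ^ N →
      diagIdele K T (intUnit a ha) ∈ (normLK K L T).range := by
  obtain ⟨N, hN⟩ := exists_ball_le_range K L T hPow
  exact ⟨N, fun a ha h => hN _ (fun q => diag_sub_one_mem_ball K T N a h q)⟩

lemma prodT_pow_mem_TUnits (k : ℕ) (e : Kˣ) (he : (e : K) = (prodT T : K) ^ k) :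
    e ∈ TUnits K T := by
  refine ⟨k, ?_, ?_⟩
  · rw [he]
    exact ((isIntegral_natCast (prodT T)).pow k).mul ((isIntegral_natCast (prodT T)).pow k)
  · rw [Units.val_inv_eq_inv_val, he, mul_inv_cancel₀ (pow_ne_zero _ (H12.prodT_cast_ne_zero K T))]
    exact isIntegral_one

/-- **hd3**: every class of `J_{K,T}` modulo the norm group is the class of a nonzero integer of
`K`. -/
theorem exists_int_div_mem (hPow : H12.Stmt_SemiLocalPow) (hWA : H12.Stmt_WeakApprox)
    (x : IdeleT K T) :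
    ∃ (b : 𝓞 K) (hb : b ≠ 0), diagIdele K T (intUnit b hb) / x ∈ normGroup K L T := by
  obtain ⟨N, hN⟩ := exists_ball_le_range K L T hPow
  choose t ht using fun q : T =>
    exists_pow_mul_mem K q.1 (((x q)⁻¹ : (SemiLocal K q.1)ˣ) : SemiLocal K q.1)
  obtain ⟨a₀, k, ha₀, hap⟩ := hWA K T (fun q => (x q : SemiLocal K q.1)) (N + ∑ q, t q)
  refine ⟨a₀, ha₀, ?_⟩
  let e : Kˣ := Units.mk0 ((prodT T : K) ^ k) (pow_ne_zero _ (H12.prodT_cast_ne_zero K T))
  have he : e ∈ TUnits K T := prodT_pow_mem_TUnits K T k e rfl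
  have hu : diagIdele K T (intUnit a₀ ha₀ / e) / x ∈ (normLK K L T).range := by
    apply hN
    intro q
    have h1 : (((diagIdele K T (intUnit a₀ ha₀ / e) / x) q : (SemiLocal K q.1)ˣ) :
          SemiLocal K q.1) - 1 =
        ((1 : Qp q.1) ⊗ₜ[ℚ] ((a₀ : K) / (prodT T : K) ^ k) - (x q : SemiLocal K q.1)) *
          (((x q)⁻¹ : (SemiLocal K q.1)ˣ) : SemiLocal K q.1) := by
      rw [sub_mul, Units.mul_inv]
      have h0 : (((diagIdele K T (intUnit a₀ ha₀ / e) / x) q : (SemiLocal K q.1)ˣ) :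
          SemiLocal K q.1) = ((diagIdele K T (intUnit a₀ ha₀ / e) q : (SemiLocal K q.1)ˣ) :
          SemiLocal K q.1) * (((x q)⁻¹ : (SemiLocal K q.1)ˣ) : SemiLocal K q.1) := by
        rw [← Units.val_mul, ← div_eq_mul_inv]
        rfl
      have h00 : ((diagIdele K T (intUnit a₀ ha₀ / e) q : (SemiLocal K q.1)ˣ) :
          SemiLocal K q.1) = (1 : Qp q.1) ⊗ₜ[ℚ] (((intUnit a₀ ha₀ / e : Kˣ)) : K) := rfl
      rw [h0, h00]
      congr 3
      rw [Units.val_div_eq_div_val]
      rfl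
    rw [h1]
    obtain ⟨r, hr, hr'⟩ := hap q
    rw [hr']
    have hle : t q ≤ ∑ q, t q := Finset.single_le_sum (fun _ _ => Nat.zero_le _) (Finset.mem_univ q)
    refine ⟨((q.1 : ℕ) : SemiLocal K q.1) ^ (∑ q, t q - t q) * r *
      (((q.1 : ℕ) : SemiLocal K q.1) ^ t q * (((x q)⁻¹ : (SemiLocal K q.1)ˣ) : SemiLocal K q.1)),
      Subring.mul_mem _ (Subring.mul_mem _ (Subring.pow_mem _ (natCast_mem _ _) _) hr) (ht q), ?_⟩
    have : N + ∑ q, t q = N + ((∑ q, t q - t q) + t q) := by rw [Nat.sub_add_cancel hle]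
    rw [this, pow_add, pow_add]
    ring
  have h2 : diagIdele K T (intUnit a₀ ha₀) / x =
      (diagIdele K T (intUnit a₀ ha₀ / e) / x) * diagIdele K T e := by
    rw [map_div]
    simp [div_eq_mul_inv, mul_comm, mul_left_comm]
  rw [h2]
  exact Subgroup.mul_mem _ (Subgroup.mem_sup_right hu)
    (Subgroup.mem_sup_left ⟨e, he, rfl⟩)

end main

end Fermat.Agent.S55.CFT.H31

end
end
-- ==== END Fermat.Agent.S55.CFT.H31_SIOpen

-- ==== BEGIN Fermat.Agent.S55.CFT.H56_CycRec
section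

set_option autoImplicit false
set_option linter.style.haveILetI false

open NumberField TensorProduct

noncomputable section
namespace Fermat.Agent.S55.CFT.H56

open Fermat.Agent.S55.CFT

/-- The norm group is contained in the kernel of the cyclotomic symbol. -/
theorem normGroup_le_ker (h2 : Stmt_ThetaNorm) (p : Nat.Primes) (M : ℕ) (K L : Type) [Field K]
    [Field L] [NumberField K] [NumberField L] [Algebra K L] (T : Finset Nat.Primes)
    (hp2 : (p : ℕ) ≠ 2) (hζ : ∃ ζ : L, IsPrimitiveRoot ζ ((p : ℕ) ^ M)) (hpT : p ∈ T)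
    (hK : IsTotallyComplex K) :
    normGroup K L T ≤ (cycloThetaHom K p M T).ker := by
  rw [normGroup, sup_le_iff]
  constructor
  · rintro _ ⟨e, he, rfl⟩
    rw [MonoidHom.mem_ker]
    exact stmt_ThetaUnits p M K T hpT hK e he
  · rintro _ ⟨y, rfl⟩
    rw [MonoidHom.mem_ker]
    change cycloTheta K p M T (normLK K L T y) = 1
    rw [cycloTheta_normLK]
    exact h2 p M L T hp2 hζ y

/-- **CYC**: reciprocity for `K(ζ_{p^M})/K`. -/
theorem stmt_CycRec (h2 : Stmt_ThetaNorm) (hSI : Stmt_SIindex) : Stmt_CycRec := by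
  intro p M K L _ _ _ _ _ T hp2 hcyc hadm x
  classical
  haveI := hadm.gal
  obtain ⟨q0, hq0T, hq0⟩ := hadm.pmem
  have hpT : p ∈ T := by
    have : q0 = p := Subtype.ext hq0
    rwa [← this]
  haveI : NeZero ((p : ℕ) ^ M) := ⟨pow_ne_zero _ p.2.ne_zero⟩
  haveI := hcyc
  have hζ : ∃ ζ : L, IsPrimitiveRoot ζ ((p : ℕ) ^ M) :=
    IsCyclotomicExtension.exists_isPrimitiveRoot K L
      (Set.mem_singleton ((p : ℕ) ^ M)) (NeZero.ne _)
  have hle := normGroup_le_ker h2 p M K L T hp2 hζ hpT hadm.cplx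
  obtain ⟨hne, hub⟩ := hSI p K L T hadm
  have hlb := stmt_ThetaOnto p M K L T hp2 hcyc hadm
  have hker : (cycloThetaHom K p M T).ker.index = Nat.card (Set.range (cycloTheta K p M T)) :=
    Subgroup.index_ker (cycloThetaHom K p M T)
  have hmul := Subgroup.relIndex_mul_index hle
  have hkne : (cycloThetaHom K p M T).ker.index ≠ 0 := by
    intro h0
    rw [h0, mul_zero] at hmul
    exact hne hmul.symm
  have hrel : (normGroup K L T).relIndex (cycloThetaHom K p M T).ker = 1 := by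
    have h1 : (cycloThetaHom K p M T).ker.index ≤ (normGroup K L T).index :=
      Nat.le_of_dvd (Nat.pos_of_ne_zero hne) (Subgroup.index_dvd_of_le hle)
    have h3 : (normGroup K L T).index = (cycloThetaHom K p M T).ker.index := by
      apply le_antisymm _ h1
      rw [hker]
      exact hub.trans hlb
    rw [h3] at hmul
    exact Nat.eq_of_mul_eq_mul_right (Nat.pos_of_ne_zero hkne) (by rw [hmul, one_mul])
  have hge : (cycloThetaHom K p M T).ker ≤ normGroup K L T := Subgroup.relIndex_eq_one.1 hrel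
  constructor
  · intro hx
    exact hle hx
  · intro hx
    exact hge hx

/-- Under CYC, the norm group is the kernel of the cyclotomic symbol. -/
theorem normGroup_eq_ker (hcr : Stmt_CycRec) (p : Nat.Primes) (M : ℕ) (K L : Type) [Field K]
    [Field L] [NumberField K] [NumberField L] [Algebra K L] (T : Finset Nat.Primes)
    (hp2 : (p : ℕ) ≠ 2) (hcyc : IsCyclotomicExtension {(p : ℕ) ^ M} K L)
    (hadm : Admissible K L T p) : normGroup K L T = (cycloThetaHom K p M T).ker := by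
  ext x
  rw [MonoidHom.mem_ker]
  exact hcr p M K L T hp2 hcyc hadm x

/-- Under CYC and SI'', the norm index of `K(ζ_{p^M})/K` is `[L : K]`, and it is the number of
values of the cyclotomic symbol. -/
theorem normGroup_index_eq (hcr : Stmt_CycRec) (hSI : Stmt_SIindex) (p : Nat.Primes) (M : ℕ)
    (K L : Type) [Field K] [Field L] [NumberField K] [NumberField L] [Algebra K L]
    (T : Finset Nat.Primes) (hp2 : (p : ℕ) ≠ 2)
    (hcyc : IsCyclotomicExtension {(p : ℕ) ^ M} K L) (hadm : Admissible K L T p) :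
    (normGroup K L T).index = Module.finrank K L ∧
      Nat.card (Set.range (cycloTheta K p M T)) = Module.finrank K L := by
  have h1 := normGroup_eq_ker hcr p M K L T hp2 hcyc hadm
  have hker : (cycloThetaHom K p M T).ker.index = Nat.card (Set.range (cycloTheta K p M T)) :=
    Subgroup.index_ker (cycloThetaHom K p M T)
  obtain ⟨-, hub⟩ := hSI p K L T hadm
  have hlb := stmt_ThetaOnto p M K L T hp2 hcyc hadm
  rw [h1, hker] at hub
  exact ⟨by rw [h1, hker]; exact le_antisymm hub hlb, le_antisymm hub hlb⟩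

end Fermat.Agent.S55.CFT.H56

end
end
-- ==== END Fermat.Agent.S55.CFT.H56_CycRec

-- ==== BEGIN Fermat.Agent.S55.CFT.H56_LocUnits
section

set_option autoImplicit false

open NumberField TensorProduct CategoryTheory

noncomputable section
namespace Fermat.Agent.S55.CFT.H56

open Fermat.Agent.S55.CFT

variable (K L : Type) [Field K] [Field L] [NumberField K] [NumberField L] [Algebra K L]

/-- The square `E → Lˣ → J_v`, `E → J → J_v` commutes. -/
lemma unitsToL_locRep (T : Finset Nat.Primes) (q : T)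
    (v : MaximalSpectrum (SemiLocal K q.1)) :
    unitsToL K L T ≫ locRep K L ⟨q.1, v⟩ = diagRep K L T ≫ projRep K L T q v := by
  ext x
  rfl

/-- **LU** (`Stmt_LocUnits`). -/
theorem stmt_LocUnits : Stmt_LocUnits := by
  intro K L _ _ _ _ _ T n q v e
  have h := congrArg (fun f => ((groupCohomology.functor ℤ (L ≃ₐ[K] L) n).map f).hom e)
    (unitsToL_locRep K L T q v)
  simp only [Functor.map_comp] at h
  exact h

end Fermat.Agent.S55.CFT.H56

end
end
-- ==== END Fermat.Agent.S55.CFT.H56_LocUnits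

-- ==== BEGIN Fermat.Agent.S55.CFT.H80_SLDRing
section

set_option autoImplicit false

open NumberField TensorProduct

noncomputable section

namespace Fermat.Agent.S55.CFT.H80

section Idem

variable (K : Type) [Field K] [NumberField K] (q : Nat.Primes)

instance semiLocal_isReduced : IsReduced (SemiLocal K q) := by
  have : Algebra.FormallyUnramified ℚ K := Algebra.FormallyUnramified.of_isSeparable ℚ K
  have : Algebra.FormallyUnramified (Qp q) (SemiLocal K q) := inferInstance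
  exact Algebra.FormallyUnramified.isReduced_of_field (Qp q) (SemiLocal K q)

instance semiLocal_isArtinian : IsArtinianRing (SemiLocal K q) :=
  IsArtinianRing.of_finite (Qp q) _

instance semiLocal_finite_maxSpec : Finite (MaximalSpectrum (SemiLocal K q)) := inferInstance

open Classical in
/-- The idempotent of `ℚ_q ⊗ K` attached to a maximal ideal `v`: `1` at `v`, `0` at the other
maximal ideals. -/
def vIdem (v : MaximalSpectrum (SemiLocal K q)) : SemiLocal K q :=
  (IsArtinianRing.equivPi (SemiLocal K q)).symm (Pi.single v 1)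

lemma equivPi_vIdem (v : MaximalSpectrum (SemiLocal K q)) :
    IsArtinianRing.equivPi (SemiLocal K q) (vIdem K q v) =
      (by classical exact Pi.single v 1) := by
  unfold vIdem
  exact (IsArtinianRing.equivPi (SemiLocal K q)).apply_symm_apply _

lemma mk_vIdem_self (v : MaximalSpectrum (SemiLocal K q)) :
    Ideal.Quotient.mk v.asIdeal (vIdem K q v) = 1 := by
  classical
  have h := congrFun (equivPi_vIdem K q v) v
  rw [IsArtinianRing.equivPi_apply] at h
  simpa using h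

lemma vIdem_mem_of_ne (v w : MaximalSpectrum (SemiLocal K q)) (h : w ≠ v) :
    vIdem K q v ∈ w.asIdeal := by
  classical
  have h1 := congrFun (equivPi_vIdem K q v) w
  rw [IsArtinianRing.equivPi_apply] at h1
  rw [← Ideal.Quotient.eq_zero_iff_mem]
  simpa [Pi.single_apply, h] using h1

lemma vIdem_complete [Fintype (MaximalSpectrum (SemiLocal K q))] :
    CompleteOrthogonalIdempotents (vIdem K q) := by
  classical
  have h := CompleteOrthogonalIdempotents.single
    (fun I : MaximalSpectrum (SemiLocal K q) => SemiLocal K q ⧸ I.asIdeal)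
  have h2 := h.map (IsArtinianRing.equivPi (SemiLocal K q)).symm.toRingEquiv.toRingHom
  convert h2 using 1
  funext v
  unfold vIdem
  simp only [Function.comp_apply]
  congr 1

lemma asIdeal_eq_span (v : MaximalSpectrum (SemiLocal K q)) :
    v.asIdeal = Ideal.span {1 - vIdem K q v} := by
  classical
  apply le_antisymm
  · intro x hx
    have hx0 : x * vIdem K q v = 0 := by
      apply (IsArtinianRing.equivPi (SemiLocal K q)).injective
      rw [map_mul, equivPi_vIdem, map_zero]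
      funext w
      by_cases hw : w = v
      · subst hw
        simp only [Pi.mul_apply, IsArtinianRing.equivPi_apply, Pi.single_eq_same, mul_one,
          Pi.zero_apply]
        exact Ideal.Quotient.eq_zero_iff_mem.mpr hx
      · simp [hw]
    rw [Ideal.mem_span_singleton']
    refine ⟨x, ?_⟩
    rw [mul_sub, mul_one, hx0, sub_zero]
  · rw [Ideal.span_singleton_le_iff_mem, ← Ideal.Quotient.eq_zero_iff_mem, map_sub, map_one,
      mk_vIdem_self, sub_self]

end Idem

section CRT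

variable (K L : Type) [Field K] [Field L] [NumberField K] [NumberField L] [Algebra K L]
  (q : Nat.Primes)

/-- The idempotent of `ℚ_q ⊗ L` attached to a maximal ideal `v` of `ℚ_q ⊗ K`. -/
def wIdem (v : MaximalSpectrum (SemiLocal K q)) : SemiLocal L q :=
  semiLocalMap K L q (vIdem K q v)

lemma wIdem_complete [Fintype (MaximalSpectrum (SemiLocal K q))] :
    CompleteOrthogonalIdempotents (wIdem K L q) :=
  (vIdem_complete K q).map (semiLocalMap K L q : SemiLocal K q →+* SemiLocal L q)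

lemma placeIdeal_eq_span (v : MaximalSpectrum (SemiLocal K q)) :
    CFT.placeIdeal K L ⟨q, v⟩ = Ideal.span {1 - wIdem K L q v} := by
  unfold CFT.placeIdeal
  rw [asIdeal_eq_span K q v, Ideal.map_span, Set.image_singleton]
  simp only [wIdem]
  congr 2
  simp

lemma smul_wIdem (σ : L ≃ₐ[K] L) (v : MaximalSpectrum (SemiLocal K q)) :
    semiLocalEquiv K L q σ (wIdem K L q v) = wIdem K L q v :=
  semiLocalEquiv_semiLocalMap K L q σ _

lemma bijective_pi_of_eq {R I : Type*} [CommRing R] [Fintype I] (e : I → R)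
    (he : CompleteOrthogonalIdempotents e) (f : I → Ideal R)
    (hf : f = fun i => Ideal.span {1 - e i}) :
    Function.Bijective (RingHom.pi fun i => Ideal.Quotient.mk (f i)) := by
  subst hf
  exact he.bijective_pi

/-- The ideal of `ℚ_q ⊗ L` generated by `v` (`= CFT.placeIdeal K L ⟨q, v⟩`). -/
def pIdeal (v : MaximalSpectrum (SemiLocal K q)) : Ideal (SemiLocal L q) :=
  CFT.placeIdeal K L ⟨q, v⟩

/-- The CRT map `ℚ_q ⊗ L → ∏_v (ℚ_q ⊗ L)/𝔪_v`. -/
def crtMap : SemiLocal L q →+* ∀ v : MaximalSpectrum (SemiLocal K q), LocAlg K L ⟨q, v⟩ :=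
  RingHom.pi (γ := SemiLocal L q)
    (f := fun v : MaximalSpectrum (SemiLocal K q) => SemiLocal L q ⧸ pIdeal K L q v)
    (fun v => Ideal.Quotient.mk (pIdeal K L q v))

lemma crtMap_apply (x : SemiLocal L q) (v : MaximalSpectrum (SemiLocal K q)) :
    crtMap K L q x v = Ideal.Quotient.mk (CFT.placeIdeal K L ⟨q, v⟩) x := rfl

/-- CRT: `ℚ_q ⊗ L → ∏_v (ℚ_q ⊗ L)/𝔪_v` is bijective. -/
theorem crt_bijective : Function.Bijective (crtMap K L q) := by
  have : Fintype (MaximalSpectrum (SemiLocal K q)) := Fintype.ofFinite _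
  exact bijective_pi_of_eq (wIdem K L q) (wIdem_complete K L q) (pIdeal K L q)
    (funext fun v => placeIdeal_eq_span K L q v)

end CRT

end Fermat.Agent.S55.CFT.H80

end
end
-- ==== END Fermat.Agent.S55.CFT.H80_SLDRing

-- ==== BEGIN Fermat.Agent.S55.CFT.H96_SemiLocalPow
section

set_option autoImplicit false

open NumberField TensorProduct Polynomial

noncomputable section

namespace Fermat.Agent.S55.CFT.H96

open Fermat.Agent.S55.CFT Fermat.Agent.S55.CFT.H12

attribute [local instance] Fermat.Agent.S55.CFT.fact_primes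

/-- `(1 + t) ^ n = 1 + n t + t² g`. -/
theorem exists_one_add_pow {A : Type*} [CommRing A] (t : A) (n : ℕ) :
    ∃ g : A, (1 + t) ^ n = 1 + n * t + t ^ 2 * g := by
  induction n with
  | zero => exact ⟨0, by simp⟩
  | succ n ih =>
    obtain ⟨g, hg⟩ := ih
    refine ⟨n + g + t * g, ?_⟩
    rw [pow_succ, hg]
    push_cast
    ring

/-- Hensel for `n`-th roots in a ring complete for the ideal `(Q)`: every element of the form
`1 + N² Q r` is the `n`-th power of some `1 + N Q y`, `N` the image of `n`. -/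
theorem exists_pow_eq_of_complete {S : Type*} [CommRing S] (Q : S)
    [IsAdicComplete (Ideal.span {Q}) S] (n : ℕ) (r : S) :
    ∃ y : S, (1 + (n : S) * Q * y) ^ n = 1 + (n : S) ^ 2 * Q * r := by
  obtain ⟨g, hg⟩ := exists_one_add_pow (C ((n : S) * Q) * X : S[X]) n
  set h : S[X] := X + C Q * (X ^ 2 * g) - C r with hh
  have hid : (1 + C ((n : S) * Q) * X : S[X]) ^ n = 1 + C ((n : S) ^ 2 * Q) * (h + C r) := by
    rw [hg, hh]
    simp only [map_mul, map_pow, map_natCast]
    ring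
  have h1 : h.eval r ∈ Ideal.span {Q} := by
    rw [hh]
    simp only [eval_sub, eval_add, eval_X, eval_mul, eval_C, eval_pow]
    rw [Ideal.mem_span_singleton']
    exact ⟨r ^ 2 * eval r g, by ring⟩
  have h2 : IsUnit (Ideal.Quotient.mk (Ideal.span {Q}) (h.derivative.eval r)) := by
    have hd : h.derivative.eval r = 1 + Q * eval r (derivative (X ^ 2 * g)) := by
      rw [hh]
      simp only [derivative_sub, derivative_add, derivative_X, derivative_C_mul, derivative_C,
        sub_zero, eval_add, eval_one, eval_mul, eval_C]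
    rw [hd, map_add, map_one, map_mul]
    have hQ : Ideal.Quotient.mk (Ideal.span {Q}) Q = 0 :=
      Ideal.Quotient.eq_zero_iff_mem.mpr (Ideal.mem_span_singleton_self Q)
    rw [hQ, zero_mul, add_zero]
    exact isUnit_one
  obtain ⟨y, hy, -⟩ := exists_root_of_adicComplete (Ideal.span {Q}) h r h1 h2
  refine ⟨y, ?_⟩
  have := congrArg (eval y) hid
  simp only [eval_pow, eval_add, eval_one, eval_mul, eval_C, eval_X] at this
  rw [this, hy.eq_zero, zero_add]

/-- **SI-a**: `n`-th powers are open in `ℚ_q ⊗ K`. -/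
theorem stmt_SemiLocalPow : Stmt_SemiLocalPow := by
  intro K _ _ q n hn
  obtain ⟨a, n', hn', hnn⟩ := Nat.exists_eq_pow_mul_and_not_dvd hn.ne' (q : ℕ) q.2.ne_one
  refine ⟨2 * a + 1, fun u hu => ?_⟩
  obtain ⟨r, hr, hur⟩ := hu
  have hrS : r ∈ intSub K q := semiLocalInt_le hr
  have hn'norm : ‖((n' : ℕ) : Qp q)‖ = 1 :=
    Padic.norm_natCast_eq_one_iff.mpr ((Nat.Prime.coprime_iff_not_dvd q.2).mpr hn')
  have hn'0 : ((n' : ℕ) : Qp q) ≠ 0 := by
    intro h0
    rw [h0, norm_zero] at hn'norm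
    exact zero_ne_one hn'norm
  have hc : ‖(((n' : ℕ) : Qp q) ^ 2)⁻¹‖ ≤ 1 := by
    rw [norm_inv, norm_pow, hn'norm, one_pow, inv_one]
  have : IsAdicComplete (Ideal.span {((q : ℕ) : intSub K q)}) (intSub K q) :=
    isAdicComplete_intSub
  obtain ⟨y, hy⟩ := exists_pow_eq_of_complete ((q : ℕ) : intSub K q) n
    (⟨(((n' : ℕ) : Qp q) ^ 2)⁻¹ • r, smul_mem_intSet hc hrS⟩ : intSub K q)
  refine ⟨((1 + (n : intSub K q) * ((q : ℕ) : intSub K q) * y : intSub K q) : SemiLocal K q), ?_⟩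
  have h1 := congrArg (Subtype.val) hy
  push_cast at h1 ⊢
  rw [h1]
  have h2 : u = 1 + ((q : ℕ) : SemiLocal K q) ^ (2 * a + 1) * r := by
    rw [← hur]; ring
  rw [h2, Algebra.smul_def, hnn]
  have h3 : (((n' : ℕ) : SemiLocal K q)) ^ 2
      * algebraMap (Qp q) (SemiLocal K q) ((((n' : ℕ) : Qp q) ^ 2)⁻¹) = 1 := by
    rw [← map_natCast (algebraMap (Qp q) (SemiLocal K q)) n', ← map_pow, ← map_mul,
      mul_inv_cancel₀ (pow_ne_zero 2 hn'0), map_one]
  push_cast
  linear_combination (((q : ℕ) : SemiLocal K q) ^ (2 * a + 1) * r) * h3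

end Fermat.Agent.S55.CFT.H96

end
end
-- ==== END Fermat.Agent.S55.CFT.H96_SemiLocalPow

-- ==== BEGIN Fermat.Agent.S55.CFT.LOC.Defs_L5
section

set_option autoImplicit false

open CategoryTheory Module groupCohomology ExtCitation

noncomputable section

namespace Fermat.Agent.S55.CFT.LOC

open Fermat.Agent.S55 Fermat.Agent.S55.Top

section loc

variable {q : ℕ} [Fact q.Prime]

/-- `f` is constant modulo the fixing subgroup of a finite extension of `ℚ_q`. -/
def IsLoc₁ (Γ : Subgroup (PadicAlgCl q ≃ₐ[ℚ_[q]] PadicAlgCl q)) {X : Type*} (f : ↥Γ → X) : Prop :=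
  ∃ E : IntermediateField ℚ_[q] (PadicAlgCl q), FiniteDimensional ℚ_[q] E ∧
    ∀ g s : ↥Γ, (s : PadicAlgCl q ≃ₐ[ℚ_[q]] PadicAlgCl q) ∈ E.fixingSubgroup → f (g * s) = f g

/-- `f` is constant modulo the fixing subgroup of a finite extension of `ℚ_q`. -/
def IsLoc₂ (Γ : Subgroup (PadicAlgCl q ≃ₐ[ℚ_[q]] PadicAlgCl q)) {X : Type*}
    (f : ↥Γ × ↥Γ → X) : Prop :=
  ∃ E : IntermediateField ℚ_[q] (PadicAlgCl q), FiniteDimensional ℚ_[q] E ∧
    ∀ g g' s s' : ↥Γ, (s : PadicAlgCl q ≃ₐ[ℚ_[q]] PadicAlgCl q) ∈ E.fixingSubgroup →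
      (s' : PadicAlgCl q ≃ₐ[ℚ_[q]] PadicAlgCl q) ∈ E.fixingSubgroup →
      f (g * s, g' * s') = f (g, g')

end loc

/-- **L5-KR** (Krasner bridge).  (a) Every finite extension of `ℚ_q` inside `PadicAlgCl q` is
contained in `ℚ_q(ι N)` for a number field `N` (Krasner's lemma, Mathlib `IsKrasner`, +
approximation of the minimal polynomial by a rational polynomial); in terms of fixing subgroups.
(b) The easy converse. -/
def Stmt_L5_Krasner : Prop :=
  ∀ (q : ℕ) [Fact q.Prime],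
    (∀ E : IntermediateField ℚ_[q] (PadicAlgCl q), FiniteDimensional ℚ_[q] E →
      ∃ N : IntermediateField ℚ (AlgebraicClosure ℚ), FiniteDimensional ℚ N ∧
        ∀ s : PadicAlgCl q ≃ₐ[ℚ_[q]] PadicAlgCl q,
          localGaloisToGlobal q s ∈ N.fixingSubgroup → s ∈ E.fixingSubgroup) ∧
    (∀ N : IntermediateField ℚ (AlgebraicClosure ℚ), FiniteDimensional ℚ N →
      ∃ E : IntermediateField ℚ_[q] (PadicAlgCl q), FiniteDimensional ℚ_[q] E ∧
        ∀ s : PadicAlgCl q ≃ₐ[ℚ_[q]] PadicAlgCl q,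
          s ∈ E.fixingSubgroup → localGaloisToGlobal q s ∈ N.fixingSubgroup)

/-- **L5-PL** (places).  For a base field `K` and a place system: the local group `Γ_w` is the
fixing subgroup of a finite extension `F_w` of `ℚ_q` (`= ℚ_q(ι_q(σ_w K))`), which contains a
primitive `p`-th root of unity, and `Σ_{w | q} [F_w : ℚ_q] = [K : ℚ]`
(orbit–stabiliser: `[F_w : ℚ_q] = [Gl q : Γ_w]` is the size of the orbit of `w`). -/
def Stmt_L5_Places : Prop :=
  ∀ (p : ℕ) [Fact p.Prime] (S : Finset Nat.Primes)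
    (K : IntermediateField ℚ (AlgebraicClosure ℚ)), IsBaseField S p K →
    ∀ 𝔓 : PlaceSys S K, ∀ q : ↥S,
      haveI : Fact ((q.1 : ℕ)).Prime := ⟨q.1.2⟩
      ∃ F : 𝔓.W q → IntermediateField ℚ_[(q.1 : ℕ)] (PadicAlgCl (q.1 : ℕ)),
        (∀ w, FiniteDimensional ℚ_[(q.1 : ℕ)] ↥(F w)) ∧
        (∀ w, ∀ h : PadicAlgCl (q.1 : ℕ) ≃ₐ[ℚ_[(q.1 : ℕ)]] PadicAlgCl (q.1 : ℕ),
          h ∈ (F w).fixingSubgroup ↔ (show Gl q.1 from h) ∈ 𝔓.Γw q w) ∧
        (∀ w, ∃ ζ : PadicAlgCl (q.1 : ℕ), ζ ∈ F w ∧ IsPrimitiveRoot ζ p) ∧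
        @Finset.sum (𝔓.W q) ℕ _ (@Finset.univ _ (𝔓.fin q))
          (fun w => Module.finrank ℚ_[(q.1 : ℕ)] ↥(F w)) = Module.finrank ℚ ↥K

/-- **L5-KUM** (Kummer theory): the locally level constant homomorphisms `Gal(Ω/F) → 𝔽_p` are
in bijection with `Fˣ/Fˣᵖ` (`a ↦ (σ ↦ σ(α)/α)`, `α^p = a`, `μ_p ≅ 𝔽_p`); here only the count. -/
def Stmt_L5_Kummer : Prop :=
  ∀ (q : ℕ) [Fact q.Prime] (p : ℕ) [Fact p.Prime] (F : IntermediateField ℚ_[q] (PadicAlgCl q)),
    FiniteDimensional ℚ_[q] ↥F → (∃ ζ : PadicAlgCl q, ζ ∈ F ∧ IsPrimitiveRoot ζ p) →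
    Nat.card {χ : ↥F.fixingSubgroup → ZMod p //
        tOne χ = 0 ∧ IsLoc₁ F.fixingSubgroup χ} =
      (powMonoidHom p : (↥F)ˣ →* (↥F)ˣ).range.index

/-- **L5-ND** (nondegeneracy of the local cup product = of the Hilbert symbol): for a nonzero
`g ∈ H¹(F, 𝔽_p)` there is `b ∈ H¹(F, 𝔽_p)` with `g ∪ b ≠ 0` in `H²(F, 𝔽_p)`.
(`E_g` = the cyclic extension cut out by `g`; `β ∈ Fˣ` not a norm from `E_g` (LOC-3);
`b` = the Kummer character of `β`; `b ∪ g ~ −(cyclic cocycle of (g, β))`, which is not a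
coboundary in `Ωˣ` by inflation injectivity + `H68.exists_norm_of_isCoboundary₂`;
`g ∪ b + b ∪ g = −d(g·b)`.) -/
def Stmt_L5_CupND : Prop :=
  ∀ (q : ℕ) [Fact q.Prime] (p : ℕ) [Fact p.Prime] (F : IntermediateField ℚ_[q] (PadicAlgCl q)),
    FiniteDimensional ℚ_[q] ↥F → (∃ ζ : PadicAlgCl q, ζ ∈ F ∧ IsPrimitiveRoot ζ p) →
    ∀ g : ↥F.fixingSubgroup → ZMod p, tOne g = 0 → IsLoc₁ F.fixingSubgroup g → g ≠ 0 →
      ∃ b : ↥F.fixingSubgroup → ZMod p, tOne b = 0 ∧ IsLoc₁ F.fixingSubgroup b ∧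
        ¬ ∃ f : ↥F.fixingSubgroup → ZMod p, IsLoc₁ F.fixingSubgroup f ∧
          tOne f = fun t : ↥F.fixingSubgroup × ↥F.fixingSubgroup => g t.1 * b t.2

/-- **L5-H2** (`dim H²(F, 𝔽_p) ≤ 1`): two locally level constant 2-cocycles are linearly
dependent modulo coboundaries.  (`H²(F, μ_p) ↪ Br(F)[p]` by Hilbert 90 + Kummer sequence;
`H²(Gal(E/F), Eˣ)[p]` is cyclic: Sylow + `cor ∘ res` + LOC-4f'.) -/
def Stmt_L5_H2Dim : Prop :=
  ∀ (q : ℕ) [Fact q.Prime] (p : ℕ) [Fact p.Prime] (F : IntermediateField ℚ_[q] (PadicAlgCl q)),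
    FiniteDimensional ℚ_[q] ↥F → (∃ ζ : PadicAlgCl q, ζ ∈ F ∧ IsPrimitiveRoot ζ p) →
    ∀ c c' : ↥F.fixingSubgroup × ↥F.fixingSubgroup → ZMod p,
      tTwo c = 0 → IsLoc₂ F.fixingSubgroup c → tTwo c' = 0 → IsLoc₂ F.fixingSubgroup c' →
      ∃ α β : ZMod p, (α ≠ 0 ∨ β ≠ 0) ∧
        ∃ f : ↥F.fixingSubgroup → ZMod p, IsLoc₁ F.fixingSubgroup f ∧
          tOne f = α • c + β • c'

/-- **L5-H2a** (finite level input of L5-H2): for every finite Galois extension `E/F` of local
fields (ANY Galois group), the `p`-torsion of `H²(Gal(E/F), Eˣ)` is cyclic (of order `≤ p`):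
two `p`-torsion classes are linearly dependent modulo `p`.
(Sylow `p`-subgroup `P`; `res_P` is injective on `p`-torsion by `H58.stmt_CorRes`;
`H²(P, Eˣ) ≅ H²(Gal(E/E^P), Eˣ)` is cyclic by `Stmt_LocalH2CyclicP`.) -/
def Stmt_BrauerPTors : Prop :=
  ∀ (q : ℕ) [Fact q.Prime] (p : ℕ) [Fact p.Prime] (F E : Type) [Field F] [Field E]
    [Algebra ℚ_[q] F] [FiniteDimensional ℚ_[q] F] [Algebra F E] [FiniteDimensional F E]
    [IsGalois F E],
    ∀ x y : groupCohomology (unitsRep F E) 2, (p : ℤ) • x = 0 → (p : ℤ) • y = 0 →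
      ∃ a b : ℤ, (¬ (p : ℤ) ∣ a ∨ ¬ (p : ℤ) ∣ b) ∧ a • x + b • y = 0

end Fermat.Agent.S55.CFT.LOC

end

end
-- ==== END Fermat.Agent.S55.CFT.LOC.Defs_L5

-- ==== BEGIN Fermat.Agent.S55.CFT.LOC.H25_LTO_GL
section

set_option autoImplicit false
set_option linter.unusedSectionVars false
set_option linter.style.haveILetI false

namespace Fermat.Agent.S55.CFT.LOC.H25

open groupCohomology Fermat.Agent.S55.CFT.LOC

attribute [local instance] H68.addDMA

section char

variable {Γ : Type} [Group Γ] (p : ℕ) [Fact p.Prime]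

/-- The lift `Γ → {0, …, p-1} ⊆ ℤ` of a character `χ : Γ → ℤ/p`. -/
def charLift (χ : Γ →* Multiplicative (ZMod p)) : Γ → ℤ :=
  fun g => ((Multiplicative.toAdd (χ g)).val : ℤ)

theorem charLift_cast (χ : Γ →* Multiplicative (ZMod p)) (g : Γ) :
    ((charLift p χ g : ℤ) : ZMod p) = Multiplicative.toAdd (χ g) := by
  rw [charLift, Int.cast_natCast, ZMod.natCast_val, ZMod.cast_id]

theorem dvd_charLift_sub_iff (χ : Γ →* Multiplicative (ZMod p)) (g : Γ) (m : ℤ) :
    (p : ℤ) ∣ charLift p χ g - m ↔ Multiplicative.toAdd (χ g) = (m : ZMod p) := by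
  rw [← ZMod.intCast_eq_intCast_iff_dvd_sub, charLift_cast]
  exact eq_comm

theorem isAddMod_charLift (χ : Γ →* Multiplicative (ZMod p)) :
    IsAddMod (p : ℤ) (charLift p χ) := by
  intro g h
  rw [← ZMod.intCast_zmod_eq_zero_iff_dvd]
  push_cast
  rw [charLift_cast, charLift_cast, charLift_cast, map_mul, toAdd_mul]
  ring

/-- `χ₃ = χ₁ ^ i * χ₂ ^ j` gives `ℓ₃ ≡ i ℓ₁ + j ℓ₂`. -/
theorem charLift_comb (χ₁ χ₂ : Γ →* Multiplicative (ZMod p)) (i j : ℤ) (g : Γ)
    (χ₃ : Γ →* Multiplicative (ZMod p))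
    (h : ∀ g, Multiplicative.toAdd (χ₃ g) =
      (i : ZMod p) * Multiplicative.toAdd (χ₁ g) + (j : ZMod p) * Multiplicative.toAdd (χ₂ g)) :
    (p : ℤ) ∣ charLift p χ₃ g - (i * charLift p χ₁ g + j * charLift p χ₂ g) := by
  rw [dvd_charLift_sub_iff, h g]
  push_cast
  rw [charLift_cast, charLift_cast]

end char

section field

variable (K Ω : Type) [Field K] [Field Ω] [Algebra K Ω] [FiniteDimensional K Ω] [IsGalois K Ω]
  (p : ℕ) [Fact p.Prime]

/-- `a ∈ Kˣ` as an element of `Additive Ωˣ`. -/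
noncomputable def baseUnit (a : Kˣ) : Additive Ωˣ :=
  Additive.ofMul (Units.map (algebraMap K Ω : K →* Ω) a)

omit [FiniteDimensional K Ω] [IsGalois K Ω] in
theorem smul_baseUnit (g : Ω ≃ₐ[K] Ω) (a : Kˣ) : g • baseUnit K Ω a = baseUnit K Ω a := by
  apply H68.additive_units_ext
  change g (algebraMap K Ω (a : K)) = algebraMap K Ω (a : K)
  exact g.commutes _

/-- The symbol cocycle `χ ∪ a`. -/
noncomputable def symC (χ : (Ω ≃ₐ[K] Ω) →* Multiplicative (ZMod p)) (a : Kˣ) :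
    (Ω ≃ₐ[K] Ω) × (Ω ≃ₐ[K] Ω) → Additive Ωˣ :=
  carryC (p : ℤ) (charLift p χ) (baseUnit K Ω a)

omit [FiniteDimensional K Ω] [IsGalois K Ω] in
/-- Additivity in the character. -/
theorem isCoboundary₂_symC_comb (χ₁ χ₂ χ₃ : (Ω ≃ₐ[K] Ω) →* Multiplicative (ZMod p)) (i j : ℤ)
    (h : ∀ g, Multiplicative.toAdd (χ₃ g) =
      (i : ZMod p) * Multiplicative.toAdd (χ₁ g) + (j : ZMod p) * Multiplicative.toAdd (χ₂ g))
    (a : Kˣ) :
    IsCoboundary₂ (symC K Ω p χ₃ a - (i • symC K Ω p χ₁ a + j • symC K Ω p χ₂ a)) :=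
  isCoboundary₂_carryC_comb (isAddMod_charLift p χ₁) (isAddMod_charLift p χ₂)
    (isAddMod_charLift p χ₃) i j (fun g => charLift_comb p χ₁ χ₂ i j g χ₃ h) _
    (fun g => smul_baseUnit K Ω g a)

omit [FiniteDimensional K Ω] [IsGalois K Ω] in
/-- `p` times the symbol cocycle is a coboundary. -/
theorem isCoboundary₂_smul_symC (χ : (Ω ≃ₐ[K] Ω) →* Multiplicative (ZMod p)) (a : Kˣ) :
    IsCoboundary₂ ((p : ℤ) • symC K Ω p χ a) := by
  rw [symC, ← carryC_zsmul (isAddMod_charLift p χ)]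
  apply isCoboundary₂_carryC_of_dvd ((isAddMod_charLift p χ).zsmul _)
  · intro g
    simp only [Pi.smul_apply, smul_eq_mul]
    exact dvd_mul_right _ _
  · exact fun g => smul_baseUnit K Ω g a

end field

section kerfield

variable (K Ω : Type) [Field K] [Field Ω] [Algebra K Ω] [FiniteDimensional K Ω] [IsGalois K Ω]
  (p : ℕ) [Fact p.Prime] (χ : (Ω ≃ₐ[K] Ω) →* Multiplicative (ZMod p))

/-- The fixed field of the kernel of a character. -/
noncomputable abbrev kerField : IntermediateField K Ω := IntermediateField.fixedField χ.ker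

theorem isGalois_kerField : IsGalois K (kerField K Ω p χ) :=
  IsGalois.of_fixedField_normal_subgroup χ.ker

theorem normal_kerField : Normal K (kerField K Ω p χ) :=
  haveI := isGalois_kerField K Ω p χ
  inferInstance

theorem restrictNormalHom_eq_one_iff (g : Ω ≃ₐ[K] Ω) :
    haveI := normal_kerField K Ω p χ
    AlgEquiv.restrictNormalHom (kerField K Ω p χ) g = 1 ↔ χ g = 1 := by
  haveI := normal_kerField K Ω p χ
  rw [← MonoidHom.mem_ker, IntermediateField.restrictNormalHom_ker,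
    IntermediateField.fixingSubgroup_fixedField, MonoidHom.mem_ker]

omit [FiniteDimensional K Ω] [IsGalois K Ω] in
theorem exists_char_gen (hχ : χ ≠ 1) : ∃ g₁, χ g₁ = Multiplicative.ofAdd 1 := by
  have h1 : ∃ g₀, χ g₀ ≠ 1 := by
    by_contra h
    push Not at h
    exact hχ (MonoidHom.ext h)
  obtain ⟨g₀, hg₀⟩ := h1
  set u : ZMod p := Multiplicative.toAdd (χ g₀) with hu
  have hu0 : u ≠ 0 := by
    intro h
    apply hg₀
    have : χ g₀ = Multiplicative.ofAdd u := rfl
    rw [this, h]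
    rfl
  refine ⟨g₀ ^ (u⁻¹).val, ?_⟩
  rw [map_pow]
  have h2 : χ g₀ = Multiplicative.ofAdd u := rfl
  rw [h2, ← ofAdd_nsmul, nsmul_eq_mul, ZMod.natCast_val, ZMod.cast_id,
    inv_mul_cancel₀ hu0]

theorem char_eq_pow (g₁ : Ω ≃ₐ[K] Ω) (hg₁ : χ g₁ = Multiplicative.ofAdd 1) (h : Ω ≃ₐ[K] Ω) :
    haveI := normal_kerField K Ω p χ
    AlgEquiv.restrictNormalHom (kerField K Ω p χ) h =
      AlgEquiv.restrictNormalHom (kerField K Ω p χ) g₁ ^ (Multiplicative.toAdd (χ h)).val := by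
  haveI := normal_kerField K Ω p χ
  rw [← map_pow, ← mul_inv_eq_one, ← map_inv, ← map_mul, restrictNormalHom_eq_one_iff,
    map_mul, map_inv, map_pow, hg₁, mul_inv_eq_one, ← ofAdd_nsmul, nsmul_eq_mul, mul_one,
    ZMod.natCast_val, ZMod.cast_id]
  rfl

/-- `a ∈ Kˣ` as an element of `Additive Lˣ`, `L` the fixed field of `ker χ`. -/
noncomputable def baseUnitL (a : Kˣ) : Additive (kerField K Ω p χ)ˣ :=
  Additive.ofMul (Units.map (algebraMap K (kerField K Ω p χ) : K →* kerField K Ω p χ) a)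

omit [FiniteDimensional K Ω] [IsGalois K Ω] in
theorem unitsIncl_baseUnitL (a : Kˣ) :
    H68.unitsIncl (kerField K Ω p χ) Ω (baseUnitL K Ω p χ a) = baseUnit K Ω a := by
  apply H68.additive_units_ext
  rfl

omit [FiniteDimensional K Ω] [IsGalois K Ω] in
theorem smul_baseUnitL (σ : kerField K Ω p χ ≃ₐ[K] kerField K Ω p χ) (a : Kˣ) :
    σ • baseUnitL K Ω p χ a = baseUnitL K Ω p χ a := by
  apply H68.additive_units_ext
  change σ (algebraMap K (kerField K Ω p χ) (a : K)) = algebraMap K (kerField K Ω p χ) (a : K)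
  exact σ.commutes _

/-- The carry of the lifts. -/
theorem charLift_carry (g h : Ω ≃ₐ[K] Ω) :
    (charLift p χ g + charLift p χ h - charLift p χ (g * h)) / (p : ℤ) =
      (((Multiplicative.toAdd (χ g)).val + (Multiplicative.toAdd (χ h)).val) / p : ℕ) := by
  have hp : (p : ℤ) ≠ 0 := by exact_mod_cast (Fact.out : p.Prime).ne_zero
  simp only [charLift]
  rw [map_mul, toAdd_mul, ZMod.val_add]
  set x := (Multiplicative.toAdd (χ g)).val
  set y := (Multiplicative.toAdd (χ h)).val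
  have h1 : ((x : ℤ) + y - ((x + y) % p : ℕ)) = (p : ℤ) * (((x + y) / p : ℕ) : ℤ) := by
    have := Nat.div_add_mod (x + y) p
    push_cast
    have h2 : ((p : ℤ) * (((x + y) / p : ℕ) : ℤ) + (((x + y) % p : ℕ) : ℤ)) = (x : ℤ) + y := by
      exact_mod_cast this
    push_cast at h2
    linarith
  rw [h1, Int.mul_ediv_cancel_left _ hp]

section gen

variable (g₁ : Ω ≃ₐ[K] Ω) (hg₁ : χ g₁ = Multiplicative.ofAdd 1)

include hg₁

theorem mem_zpowers_gen :
    haveI := normal_kerField K Ω p χ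
    ∀ σ : kerField K Ω p χ ≃ₐ[K] kerField K Ω p χ,
      σ ∈ Subgroup.zpowers (AlgEquiv.restrictNormalHom (kerField K Ω p χ) g₁) := by
  haveI := normal_kerField K Ω p χ
  intro σ
  obtain ⟨h, rfl⟩ := AlgEquiv.restrictNormalHom_surjective Ω σ
  rw [char_eq_pow K Ω p χ g₁ hg₁ h]
  exact Subgroup.pow_mem _ (Subgroup.mem_zpowers _) _

theorem orderOf_gen :
    haveI := normal_kerField K Ω p χ
    orderOf (AlgEquiv.restrictNormalHom (kerField K Ω p χ) g₁) = p := by
  haveI := normal_kerField K Ω p χ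
  apply orderOf_eq_prime
  · rw [← map_pow, restrictNormalHom_eq_one_iff, map_pow, hg₁, ← ofAdd_nsmul, nsmul_eq_mul,
      mul_one, ZMod.natCast_self]
    rfl
  · rw [Ne, restrictNormalHom_eq_one_iff, hg₁]
    intro h
    have h2 : (1 : ZMod p) = 0 := h
    haveI : Fact (1 < p) := ⟨(Fact.out : p.Prime).one_lt⟩
    exact one_ne_zero h2

theorem cycLift_gen (h : Ω ≃ₐ[K] Ω) :
    haveI := normal_kerField K Ω p χ
    H68.cycLift (AlgEquiv.restrictNormalHom (kerField K Ω p χ) g₁)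
      (mem_zpowers_gen K Ω p χ g₁ hg₁) (AlgEquiv.restrictNormalHom (kerField K Ω p χ) h) =
      (Multiplicative.toAdd (χ h)).val := by
  haveI := normal_kerField K Ω p χ
  apply H68.cycLift_eq_of
  · rw [orderOf_gen K Ω p χ g₁ hg₁]
    exact ZMod.val_lt _
  · exact (char_eq_pow K Ω p χ g₁ hg₁ h).symm

/-- The symbol cocycle is the inflation of the cyclic cocycle of the fixed field. -/
theorem symC_eq_infl (a : Kˣ) :
    haveI := normal_kerField K Ω p χ
    symC K Ω p χ a =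
      H68.infl (AlgEquiv.restrictNormalHom (kerField K Ω p χ))
        (H68.unitsIncl (kerField K Ω p χ) Ω)
        (H68.cycCocycle (AlgEquiv.restrictNormalHom (kerField K Ω p χ) g₁)
          (mem_zpowers_gen K Ω p χ g₁ hg₁) (baseUnitL K Ω p χ a)) := by
  haveI := normal_kerField K Ω p χ
  funext gh
  obtain ⟨g, h⟩ := gh
  simp only [symC, carryC, H68.infl, H68.cycCocycle, H68.cycCarry]
  rw [charLift_carry, cycLift_gen K Ω p χ g₁ hg₁, cycLift_gen K Ω p χ g₁ hg₁,
    orderOf_gen K Ω p χ g₁ hg₁, map_nsmul, unitsIncl_baseUnitL, natCast_zsmul]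

end gen

end kerfield

section norm

variable (K L : Type) [Field K] [Field L] [Algebra K L] [FiniteDimensional K L] [IsGalois K L]

theorem sum_smul_ofMul_coe (y : Lˣ) :
    ((Additive.toMul (∑ σ : L ≃ₐ[K] L, σ • (Additive.ofMul y : Additive Lˣ)) : Lˣ) : L) =
      algebraMap K L (Algebra.norm K (y : L)) := by
  rw [Algebra.norm_eq_prod_automorphisms, toMul_sum, Units.coe_prod]
  rfl

end norm

section main

variable (K Ω : Type) [Field K] [Field Ω] [Algebra K Ω] [FiniteDimensional K Ω] [IsGalois K Ω]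
  (p : ℕ) [Fact p.Prime] (χ : (Ω ≃ₐ[K] Ω) →* Multiplicative (ZMod p))

theorem finrank_kerField_one : Module.finrank K (kerField K Ω p (1 : _ →* _)) = 1 := by
  have h1 : (1 : (Ω ≃ₐ[K] Ω) →* Multiplicative (ZMod p)).ker = ⊤ := MonoidHom.ker_one
  have h2 : kerField K Ω p (1 : _ →* _) = ⊥ := by
    rw [kerField, h1]
    exact IsGalois.fixedField_top
  rw [h2]
  exact IntermediateField.finrank_bot

/-- **The symbol cocycle `χ ∪ a` is a coboundary iff `a` is a norm from the fixed field of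
`ker χ`.** -/
theorem symC_coboundary_iff (a : Kˣ) :
    IsCoboundary₂ (symC K Ω p χ a) ↔ ∃ y : kerField K Ω p χ, Algebra.norm K y = (a : K) := by
  classical
  haveI := normal_kerField K Ω p χ
  haveI := isGalois_kerField K Ω p χ
  by_cases hχ : χ = 1
  · subst hχ
    constructor
    · intro _
      refine ⟨algebraMap K _ (a : K), ?_⟩
      rw [Algebra.norm_algebraMap, finrank_kerField_one, pow_one]
    · intro _
      apply isCoboundary₂_carryC_of_dvd (isAddMod_charLift p 1)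
      · intro g
        simp [charLift]
      · exact fun g => smul_baseUnit K Ω g a
  · obtain ⟨g₁, hg₁⟩ := exists_char_gen K Ω p χ hχ
    have D := H68.galois_infData K (kerField K Ω p χ) Ω
    rw [symC_eq_infl K Ω p χ g₁ hg₁ a]
    have hφ := mem_zpowers_gen K Ω p χ g₁ hg₁
    constructor
    · rintro ⟨x, hx⟩
      have hc := H68.isCocycle₂_cycCocycle (AlgEquiv.restrictNormalHom (kerField K Ω p χ) g₁)
        hφ (baseUnitL K Ω p χ a) (fun σ => smul_baseUnitL K Ω p χ σ a)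
      have h1 := H68.inf_injective D _ hc x hx
      obtain ⟨y, hy⟩ := H68.exists_norm_of_isCoboundary₂
        (AlgEquiv.restrictNormalHom (kerField K Ω p χ) g₁) hφ _ h1
      refine ⟨((Additive.toMul y : (kerField K Ω p χ)ˣ) : kerField K Ω p χ), ?_⟩
      have h2 := sum_smul_ofMul_coe K (kerField K Ω p χ) (Additive.toMul y)
      rw [show (Additive.ofMul (Additive.toMul y) : Additive (kerField K Ω p χ)ˣ) = y from rfl,
        hy] at h2
      exact (algebraMap K (kerField K Ω p χ)).injective h2.symm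
    · rintro ⟨y, hy⟩
      have hy0 : y ≠ 0 := by
        rintro rfl
        rw [Algebra.norm_zero] at hy
        exact a.ne_zero hy.symm
      have h1 : H68.cycPart (AlgEquiv.restrictNormalHom (kerField K Ω p χ) g₁)
          (Additive.ofMul (Units.mk0 y hy0) : Additive (kerField K Ω p χ)ˣ)
          (orderOf (AlgEquiv.restrictNormalHom (kerField K Ω p χ) g₁)) =
          baseUnitL K Ω p χ a := by
        rw [H68.cycPart_orderOf_eq_sum _ hφ]
        apply H68.additive_units_ext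
        rw [sum_smul_ofMul_coe, Units.val_mk0, hy]
        rfl
      have h2 := H68.isCoboundary₂_cycCocycle_of_norm
        (AlgEquiv.restrictNormalHom (kerField K Ω p χ) g₁) hφ
        (Additive.ofMul (Units.mk0 y hy0) : Additive (kerField K Ω p χ)ˣ)
      rw [h1] at h2
      obtain ⟨w, hw⟩ := h2
      refine ⟨fun g => H68.unitsIncl _ _ (w (AlgEquiv.restrictNormalHom _ g)), fun g h => ?_⟩
      have h3 := H68.infl_coboundary D w g h
      simp only [H68.infl]
      rw [← hw, h3, map_mul]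

end main

end Fermat.Agent.S55.CFT.LOC.H25

end
-- ==== END Fermat.Agent.S55.CFT.LOC.H25_LTO_GL
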