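-- GENERATED (merged mirror, NOTES/tools/trim/merge3_helper67.py): 10 modules of the originals, bodies verbatim.
import Mathlib.NumberTheory.Cyclotomic.Gal
import Mathlib.NumberTheory.Cyclotomic.PrimitiveRoots
import Fermat.Agent.Zm.S56_L05_002
import Fermat.Agent.S55.CFT.LOC.H25_UnramFin
import Fermat.Agent.Zm.S56_L05_001
import Fermat.Agent.Zm.S56_L04_002
import Fermat.Agent.Zm.S56_L05_003

-- ==== BEGIN Fermat.Agent.S55.CFT.LOC.H25_Unram
section

set_option autoImplicit false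
set_option linter.unusedSectionVars false
set_option linter.style.haveILetI false

namespace Fermat.Agent.S55.CFT.LOC.H25

open Fermat.Agent.S55.CFT.LOC Polynomial

section roots

variable (q : ℕ) [Fact q.Prime] (F : Type) [Field F] [Algebra ℚ_[q] F]
  [FiniteDimensional ℚ_[q] F]

/-- A root of unity of order prime to `q` which is congruent to `1` is `1`. -/
theorem eq_one_of_res_eq_one {m : ℕ} (hm : ¬ q ∣ m) (η : vring q F) (hη : η ^ m = 1)
    (h1 : res q F η = 1) : η = 1 := by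
  by_contra hne
  have h2 : (∑ k ∈ Finset.range m, η ^ k) * (η - 1) = 0 := by
    rw [geom_sum_mul, hη, sub_self]
  have h3 : ∑ k ∈ Finset.range m, η ^ k = 0 := by
    rcases mul_eq_zero.mp h2 with h | h
    · exact h
    · exact absurd (sub_eq_zero.mp h) hne
  have h4 := congrArg (res q F) h3
  rw [map_sum, map_zero] at h4
  simp only [map_pow, h1, one_pow, Finset.sum_const, Finset.card_range, nsmul_eq_mul,
    mul_one] at h4
  exact hm ((CharP.cast_eq_zero_iff (resF q F) q m).mp h4)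

/-- Reduction is injective on roots of unity of order prime to `q`. -/
theorem eq_of_res_eq {m : ℕ} (hm : ¬ q ∣ m) (x y : vring q F) (hx : x ^ m = 1)
    (hy : y ^ m = 1) (h : res q F x = res q F y) : x = y := by
  have hm0 : m ≠ 0 := by
    rintro rfl
    exact hm (dvd_zero q)
  obtain ⟨k, rfl⟩ : ∃ k, m = k + 1 := Nat.exists_eq_succ_of_ne_zero hm0
  have hyk : y ^ k * y = 1 := by
    rw [← pow_succ]
    exact hy
  have hη : (x * y ^ k) ^ (k + 1) = 1 := by
    rw [mul_pow, hx, one_mul, ← pow_mul, mul_comm, pow_mul, hy, one_pow]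
  have h1 : res q F (x * y ^ k) = 1 := by
    rw [map_mul, h, ← map_mul, mul_comm, hyk, map_one]
  have h2 := eq_one_of_res_eq_one q F hm _ hη h1
  calc x = x * (y ^ k * y) := by rw [hyk, mul_one]
    _ = (x * y ^ k) * y := by ring
    _ = y := by rw [h2, one_mul]

/-- The number of elements of the residue field. -/
noncomputable def resCard : ℕ := Fintype.card (resF q F)

theorem two_le_resCard : 2 ≤ resCard q F := Fintype.one_lt_card

theorem pow_resCard_sub_one_pos {n : ℕ} (hn : 0 < n) : 0 < resCard q F ^ n - 1 := by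
  have h1 := two_le_resCard q F
  have h2 : resCard q F ^ 1 ≤ resCard q F ^ n := Nat.pow_le_pow_right (by omega) hn
  rw [pow_one] at h2
  omega

theorem not_dvd_pow_resCard_sub_one {n : ℕ} (hn : 0 < n) : ¬ q ∣ resCard q F ^ n - 1 := by
  intro h
  obtain ⟨f, -, hf⟩ := FiniteField.card (resF q F) q
  have hq : q ∣ resCard q F := by
    change q ∣ Fintype.card (resF q F)
    rw [hf]
    exact dvd_pow_self q f.pos.ne'
  have h1 : q ∣ resCard q F ^ n := dvd_pow hq hn.ne'
  have h2 := pow_resCard_sub_one_pos q F hn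
  have h3 : q ∣ resCard q F ^ n - (resCard q F ^ n - 1) := Nat.dvd_sub h1 h
  have h4 : resCard q F ^ n - (resCard q F ^ n - 1) = 1 := by omega
  rw [h4] at h3
  exact (Fact.out : q.Prime).one_lt.ne' (Nat.dvd_one.mp h3)

theorem nrm_of_pow_eq_one {x : F} {m : ℕ} (hm : m ≠ 0) (h : x ^ m = 1) : nrm q F x = 1 := by
  have h1 := congrArg (nrm q F) h
  rw [nrm_pow, nrm_one] at h1
  exact (pow_eq_one_iff_of_nonneg (nrm_nonneg q F x) hm).mp h1

/-- The class of `N` as a unit modulo `N ^ n - 1`. -/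
noncomputable def unitN {n : ℕ} (hn : 0 < n) : (ZMod (resCard q F ^ n - 1))ˣ :=
  Units.ofPowEqOne ((resCard q F : ℕ) : ZMod (resCard q F ^ n - 1)) n (by
    have h1 := pow_resCard_sub_one_pos q F hn
    have h2 : ((resCard q F ^ n - 1 + 1 : ℕ) : ZMod (resCard q F ^ n - 1)) = 1 := by
      rw [Nat.cast_add, ZMod.natCast_self, zero_add, Nat.cast_one]
    rw [← Nat.cast_pow]
    have h3 : resCard q F ^ n = resCard q F ^ n - 1 + 1 := by omega
    rw [h3]
    exact h2) hn.ne'

theorem coe_unitN {n : ℕ} (hn : 0 < n) :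
    ((unitN q F hn : (ZMod (resCard q F ^ n - 1))ˣ) : ZMod (resCard q F ^ n - 1)) =
      ((resCard q F : ℕ) : ZMod (resCard q F ^ n - 1)) := rfl

theorem unitN_pow {n : ℕ} (hn : 0 < n) : unitN q F hn ^ n = 1 := Units.pow_ofPowEqOne _ _

end roots

section main

variable (q : ℕ) [Fact q.Prime] (F E : Type) [Field F] [Field E] [Algebra ℚ_[q] F]
  [FiniteDimensional ℚ_[q] F] [Algebra ℚ_[q] E] [FiniteDimensional ℚ_[q] E] [Algebra F E]
  [IsScalarTower ℚ_[q] F E]

variable {n : ℕ} (hn : 0 < n) {ζ : E} (hζ : IsPrimitiveRoot ζ (resCard q F ^ n - 1))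

include hn hζ

theorem nrm_zeta : nrm q E ζ = 1 :=
  nrm_of_pow_eq_one q E (pow_resCard_sub_one_pos q F hn).ne' hζ.pow_eq_one

/-- `ζ` as an element of the valuation ring. -/
noncomputable def zO : vring q E := ⟨ζ, (nrm_zeta q F E hn hζ).le⟩

theorem zO_pow : zO q F E hn hζ ^ (resCard q F ^ n - 1) = 1 := by
  apply Subtype.ext
  change ζ ^ (resCard q F ^ n - 1) = 1
  exact hζ.pow_eq_one

/-- The reduction of `ζ` is a primitive root of unity of the same order. -/
theorem isPrimitiveRoot_res :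
    IsPrimitiveRoot (res q E (zO q F E hn hζ)) (Fintype.card (resF q F) ^ n - 1) := by
  change IsPrimitiveRoot (res q E (zO q F E hn hζ)) (resCard q F ^ n - 1)
  rw [IsPrimitiveRoot.iff_def]
  constructor
  · rw [← map_pow, zO_pow, map_one]
  · intro l hl
    have h1 : zO q F E hn hζ ^ l = 1 := by
      refine eq_of_res_eq q E (not_dvd_pow_resCard_sub_one q F hn) _ _ ?_ (one_pow _) ?_
      · rw [← pow_mul, mul_comm, pow_mul, zO_pow, one_pow]
      · rw [map_pow, hl, map_one]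
    have h2 : ζ ^ l = 1 := congrArg Subtype.val h1
    exact hζ.dvd_of_pow_eq_one l h2

/-- **Gauss norm.**  For a nonzero polynomial `p` of degree `< n` over `F`, the absolute value
of `p(ζ)` is the maximum of the absolute values of the coefficients. -/
theorem exists_coeff_nrm_aeval_eq (p : F[X]) (hp : p ≠ 0) (hdeg : p.natDegree < n) :
    ∃ i0 : ℕ, p.coeff i0 ≠ 0 ∧ (∀ i, nrm q F (p.coeff i) ≤ nrm q F (p.coeff i0)) ∧
      nrm q E (aeval ζ p) = nrm q F (p.coeff i0) := by
  classical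
  have hsupp : p.support.Nonempty := Polynomial.nonempty_support_iff.mpr hp
  obtain ⟨i0, hi0, hmax⟩ :=
    Finset.exists_max_image p.support (fun i => nrm q F (p.coeff i)) hsupp
  set c := p.coeff i0 with hc
  have hc0 : c ≠ 0 := Polynomial.mem_support_iff.mp hi0
  have hcpos : 0 < nrm q F c := nrm_pos q F hc0
  have hle : ∀ i, nrm q F (c⁻¹ * p.coeff i) ≤ 1 := by
    intro i
    rw [nrm_mul, nrm_inv]
    by_cases hi : i ∈ p.support
    · have := hmax i hi
      rw [inv_mul_le_iff₀ hcpos, mul_one]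
      exact this
    · rw [Polynomial.notMem_support_iff.mp hi, nrm_zero, mul_zero]
      exact zero_le_one
  let b : ℕ → vring q F := fun i => ⟨c⁻¹ * p.coeff i, hle i⟩
  let f : (resF q F)[X] := ∑ i ∈ Finset.range n, C (res q F (b i)) * X ^ i
  have hi0n : i0 < n := lt_of_le_of_lt (Polynomial.le_natDegree_of_mem_supp _ hi0) hdeg
  have hb0 : b i0 = 1 := by
    apply Subtype.ext
    change c⁻¹ * p.coeff i0 = 1
    rw [← hc, inv_mul_cancel₀ hc0]
  have hfcoeff : f.coeff i0 = 1 := by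
    change (∑ i ∈ Finset.range n, C (res q F (b i)) * X ^ i).coeff i0 = 1
    rw [Polynomial.finsetSum_coeff]
    rw [Finset.sum_eq_single i0]
    · rw [Polynomial.coeff_C_mul, Polynomial.coeff_X_pow, if_pos rfl, mul_one, hb0, map_one]
    · intro i _ hi
      rw [Polynomial.coeff_C_mul, Polynomial.coeff_X_pow, if_neg (Ne.symm hi), mul_zero]
    · intro h
      exact absurd (Finset.mem_range.mpr hi0n) h
  have hf0 : f ≠ 0 := by
    intro h
    rw [h, Polynomial.coeff_zero] at hfcoeff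
    exact zero_ne_one hfcoeff
  have hfdeg : f.natDegree ≤ n - 1 := by
    apply Polynomial.natDegree_sum_le_of_forall_le
    intro i hi
    have := Finset.mem_range.mp hi
    exact (Polynomial.natDegree_C_mul_X_pow_le _ _).trans (by omega)
  let y : vring q E := ∑ i ∈ Finset.range n, vringMap q F E (b i) * zO q F E hn hζ ^ i
  have hy : (y : E) = algebraMap F E c⁻¹ * aeval ζ p := by
    rw [Polynomial.aeval_eq_sum_range' hdeg, Finset.mul_sum]
    change ((vring q E).subtype (∑ i ∈ Finset.range n,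
      vringMap q F E (b i) * zO q F E hn hζ ^ i)) = _
    rw [map_sum]
    refine Finset.sum_congr rfl (fun i _ => ?_)
    rw [map_mul, map_pow]
    change algebraMap F E (c⁻¹ * p.coeff i) * ζ ^ i = _
    rw [map_mul, Algebra.smul_def, mul_assoc]
  have hres : res q E y = f.eval₂ (_root_.Fermat.Agent.S55.CFT.LOC.H25.resMap q F E) (res q E (zO q F E hn hζ)) := by
    change res q E (∑ i ∈ Finset.range n, vringMap q F E (b i) * zO q F E hn hζ ^ i) =
      (∑ i ∈ Finset.range n, C (res q F (b i)) * X ^ i).eval₂ (_root_.Fermat.Agent.S55.CFT.LOC.H25.resMap q F E) _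
    rw [map_sum, Polynomial.eval₂_finsetSum]
    refine Finset.sum_congr rfl (fun i _ => ?_)
    rw [map_mul, map_pow, Polynomial.eval₂_mul, Polynomial.eval₂_C, Polynomial.eval₂_pow,
      Polynomial.eval₂_X, resMap_res]
  have hy1 : nrm q E (y : E) = 1 := by
    by_contra hne
    have hlt : nrm q E (y : E) < 1 := lt_of_le_of_ne (nrm_le_one q E y) hne
    have h0 : res q E y = 0 := (res_eq_zero_iff q E y).mpr hlt
    rw [hres] at h0
    have := le_natDegree_of_root (_root_.Fermat.Agent.S55.CFT.LOC.H25.resMap q F E) (isPrimitiveRoot_res q F E hn hζ) f hf0 h0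
    omega
  refine ⟨i0, hc0, ?_, ?_⟩
  · intro i
    by_cases hi : i ∈ p.support
    · exact hmax i hi
    · rw [Polynomial.notMem_support_iff.mp hi, nrm_zero]
      exact nrm_nonneg q F _
  rw [hy, nrm_mul, nrm_algebraMap, nrm_inv] at hy1
  have h5 : nrm q E (aeval ζ p) = nrm q F c * ((nrm q F c)⁻¹ * nrm q E (aeval ζ p)) := by
    rw [← mul_assoc, mul_inv_cancel₀ hcpos.ne', one_mul]
  rw [h5, hy1, mul_one]

/-- **Gauss norm**, existence form. -/
theorem exists_nrm_aeval_eq (p : F[X]) (hp : p ≠ 0) (hdeg : p.natDegree < n) :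
    ∃ a : F, a ≠ 0 ∧ nrm q E (aeval ζ p) = nrm q F a := by
  obtain ⟨i0, h0, -, h⟩ := exists_coeff_nrm_aeval_eq q F E hn hζ p hp hdeg
  exact ⟨_, h0, h⟩

/-- Every automorphism of `E/F` maps `ζ` to a Frobenius conjugate. -/
theorem exists_pow_of_aut (σ : E ≃ₐ[F] E) : ∃ j < n, σ ζ = ζ ^ (resCard q F) ^ j := by
  obtain ⟨j, hj, h⟩ := exists_pow_of_hom (_root_.Fermat.Agent.S55.CFT.LOC.H25.resMap q F E) hn (isPrimitiveRoot_res q F E hn hζ)
    (resAut q F E σ) (resAut_comp_resMap q F E σ)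
  refine ⟨j, hj, ?_⟩
  rw [resAut_res, ← map_pow] at h
  have hx : (vringAut q F E σ (zO q F E hn hζ)) ^ (resCard q F ^ n - 1) = 1 := by
    rw [← map_pow, zO_pow, map_one]
  have hy : (zO q F E hn hζ ^ Fintype.card (resF q F) ^ j) ^ (resCard q F ^ n - 1) = 1 := by
    rw [← pow_mul, mul_comm, pow_mul, zO_pow, one_pow]
  have h3 := eq_of_res_eq q E (not_dvd_pow_resCard_sub_one q F hn) _ _ hx hy h
  exact congrArg Subtype.val h3

theorem le_natDegree_minpoly [FiniteDimensional F E] : n ≤ (minpoly F ζ).natDegree := by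
  by_contra h
  push Not at h
  have hint : IsIntegral F ζ := Algebra.IsIntegral.isIntegral ζ
  obtain ⟨a, ha, hnrm⟩ := exists_nrm_aeval_eq q F E hn hζ (minpoly F ζ) (minpoly.ne_zero hint) h
  rw [minpoly.aeval, nrm_zero] at hnrm
  exact (nrm_pos q F ha).ne hnrm

end main

section cyclo

variable (q : ℕ) [Fact q.Prime] (F E : Type) [Field F] [Field E] [Algebra ℚ_[q] F]
  [FiniteDimensional ℚ_[q] F] [Algebra ℚ_[q] E] [FiniteDimensional ℚ_[q] E] [Algebra F E]
  [IsScalarTower ℚ_[q] F E] [FiniteDimensional F E]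

variable {n : ℕ} (hn : 0 < n) {ζ : E} (hζ : IsPrimitiveRoot ζ (resCard q F ^ n - 1))
  [IsCyclotomicExtension {resCard q F ^ n - 1} F E]

include hn hζ

theorem autToPow_mem_zpowers (σ : E ≃ₐ[F] E) :
    haveI : NeZero (resCard q F ^ n - 1) := ⟨(pow_resCard_sub_one_pos q F hn).ne'⟩
    hζ.autToPow F σ ∈ Subgroup.zpowers (unitN q F hn) := by
  haveI : NeZero (resCard q F ^ n - 1) := ⟨(pow_resCard_sub_one_pos q F hn).ne'⟩
  obtain ⟨j, -, hj⟩ := exists_pow_of_aut q F E hn hζ σ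
  refine ⟨(j : ℤ), ?_⟩
  change unitN q F hn ^ (j : ℤ) = hζ.autToPow F σ
  rw [zpow_natCast]
  apply Units.ext
  rw [Units.val_pow_eq_pow_val, coe_unitN q F hn]
  have h1 := hζ.autToPow_spec F σ
  rw [hj] at h1
  have hfin : IsOfFinOrder ζ :=
    isOfFinOrder_iff_pow_eq_one.mpr ⟨_, pow_resCard_sub_one_pos q F hn, hζ.pow_eq_one⟩
  rw [hfin.pow_eq_pow_iff_modEq, ← hζ.eq_orderOf] at h1
  have h2 := (ZMod.natCast_eq_natCast_iff _ _ _).mpr h1
  rw [ZMod.natCast_zmod_val] at h2
  rw [h2, Nat.cast_pow]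

/-- The Galois group of `F(ζ)/F` is cyclic. -/
theorem isCyclic_aut : IsCyclic (E ≃ₐ[F] E) := by
  haveI : NeZero (resCard q F ^ n - 1) := ⟨(pow_resCard_sub_one_pos q F hn).ne'⟩
  let g : (E ≃ₐ[F] E) →* Subgroup.zpowers (unitN q F hn) :=
    (hζ.autToPow F).codRestrict _ (autToPow_mem_zpowers q F E hn hζ)
  have hg : Function.Injective g := by
    intro a b hab
    apply hζ.autToPow_injective F
    exact congrArg Subtype.val hab
  exact isCyclic_of_injective g hg

theorem card_aut_le : Nat.card (E ≃ₐ[F] E) ≤ n := by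
  haveI : NeZero (resCard q F ^ n - 1) := ⟨(pow_resCard_sub_one_pos q F hn).ne'⟩
  let g : (E ≃ₐ[F] E) →* Subgroup.zpowers (unitN q F hn) :=
    (hζ.autToPow F).codRestrict _ (autToPow_mem_zpowers q F E hn hζ)
  have hg : Function.Injective g := by
    intro a b hab
    apply hζ.autToPow_injective F
    exact congrArg Subtype.val hab
  have h1 : Nat.card (E ≃ₐ[F] E) ≤ Nat.card (Subgroup.zpowers (unitN q F hn)) :=
    Nat.card_le_card_of_injective g hg
  rw [Nat.card_zpowers] at h1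
  have h2 : orderOf (unitN q F hn) ∣ n := orderOf_dvd_of_pow_eq_one (unitN_pow q F hn)
  exact h1.trans (Nat.le_of_dvd hn h2)

theorem finrank_eq : Module.finrank F E = n := by
  haveI : NeZero (resCard q F ^ n - 1) := ⟨(pow_resCard_sub_one_pos q F hn).ne'⟩
  haveI : IsGalois F E := IsCyclotomicExtension.isGalois {resCard q F ^ n - 1} F E
  apply le_antisymm
  · rw [← IsGalois.card_aut_eq_finrank]
    exact card_aut_le q F E hn hζ
  · have h1 := le_natDegree_minpoly q F E hn hζ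
    rw [← hζ.powerBasis_dim F, ← PowerBasis.finrank] at h1
    exact h1

/-- `F(ζ)/F` is unramified. -/
theorem isUnram : IsUnram q F E := by
  haveI : NeZero (resCard q F ^ n - 1) := ⟨(pow_resCard_sub_one_pos q F hn).ne'⟩
  intro y
  by_cases hy : y = 0
  · exact ⟨0, by rw [hy, nrm_zero, nrm_zero]⟩
  obtain ⟨p, hpdeg, hp⟩ := (hζ.powerBasis F).exists_eq_aeval y
  rw [hζ.powerBasis_gen F] at hp
  have hdim : (hζ.powerBasis F).dim = n := by
    rw [← PowerBasis.finrank]
    exact finrank_eq q F E hn hζ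
  rw [hdim] at hpdeg
  have hp0 : p ≠ 0 := by
    rintro rfl
    rw [map_zero] at hp
    exact hy hp
  obtain ⟨a, -, ha⟩ := exists_nrm_aeval_eq q F E hn hζ p hp0 hpdeg
  exact ⟨a, by rw [hp, ha]⟩

end cyclo

end Fermat.Agent.S55.CFT.LOC.H25

end
-- ==== END Fermat.Agent.S55.CFT.LOC.H25_Unram

-- ==== BEGIN Fermat.Agent.S55.CFT.LOC.H41_TotRamNorm
section

/-!
# S55 / E4 / CFT / LOC, leaf LTO-TR (helper41)

`stmt_TotRamNorm : Stmt_TotRamNorm`: the norm of a uniformizer in a totally ramified extension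
is a uniformizer.
-/

set_option autoImplicit false

noncomputable section

namespace Fermat.Agent.S55.CFT.LOC.H41

open Fermat.Agent.S55.CFT Fermat.Agent.S55.CFT.LOC

/-- **LTO-TR.** -/
theorem stmt_TotRamNorm : Stmt_TotRamNorm := by
  intro q _ K L _ _ _ _ _ _ _ _ hres π hπ0 hπ1 hval x hx
  have hKL : FiniteDimensional K L := FiniteDimensional.right ℚ_[q] K L
  obtain ⟨ϖ, hϖ0, hϖ1, hϖ⟩ := H68.stmt_Uniformizer q K
  have hϖne : ϖ ≠ 0 := by
    intro h
    rw [h, (nrm_eq_zero_iff q K).mpr rfl] at hϖ0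
    exact lt_irrefl _ hϖ0
  have hπne : π ≠ 0 := by
    intro h
    rw [h, (nrm_eq_zero_iff q L).mpr rfl] at hπ0
    exact lt_irrefl _ hπ0
  obtain ⟨e', he'⟩ := hval (algebraMap K L ϖ)
    ((map_ne_zero_iff _ (algebraMap K L).injective).mpr hϖne)
  rw [nrm_algebraMap] at he'
  have he'pos : 0 < e' := by
    by_contra h
    push Not at h
    have h1 : 1 ≤ nrm q L π ^ e' := one_le_zpow_of_nonpos₀ hπ0 hπ1.le h
    rw [← he'] at h1
    linarith
  obtain ⟨e, rfl⟩ : ∃ e : ℕ, e' = e := ⟨e'.toNat, (Int.toNat_of_nonneg he'pos.le).symm⟩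
  have he : 0 < e := by exact_mod_cast he'pos
  have hπe : nrm q L π ^ e = nrm q K ϖ := by rw [he', zpow_natCast]
  have hle := H25.finrank_le_of_residue_eq q K L hres π ϖ e hπ0 hπ1 hπe hval he
  have hN := H20.stmt_NrmNormGen q K L π
  have hNne : Algebra.norm K π ≠ 0 := Algebra.norm_ne_zero_iff.mpr hπne
  obtain ⟨m, hm⟩ := hϖ (Algebra.norm K π) hNne
  have h1 : nrm q L π ^ ((Module.finrank K L : ℕ) : ℤ) = nrm q L π ^ ((e : ℤ) * m) := by
    rw [zpow_natCast, ← hN, hm, ← hπe, zpow_mul, zpow_natCast]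
  have h2 : ((Module.finrank K L : ℕ) : ℤ) = (e : ℤ) * m :=
    zpow_right_injective₀ hπ0 hπ1.ne h1
  have hn : 0 < Module.finrank K L := Module.finrank_pos
  have hm1 : m = 1 := by
    have hnZ : (0 : ℤ) < (Module.finrank K L : ℕ) := by exact_mod_cast hn
    have hleZ : ((Module.finrank K L : ℕ) : ℤ) ≤ (e : ℤ) := by exact_mod_cast hle
    have heZ : (0 : ℤ) < (e : ℤ) := by exact_mod_cast he
    have hmpos : 0 < m := by
      by_contra h
      push Not at h
      have : (e : ℤ) * m ≤ 0 := mul_nonpos_of_nonneg_of_nonpos heZ.le h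
      omega
    by_contra hne
    have hm2 : 2 ≤ m := by omega
    have : (e : ℤ) * 2 ≤ (e : ℤ) * m := mul_le_mul_of_nonneg_left hm2 heZ.le
    omega
  obtain ⟨k, hk⟩ := hϖ x hx
  refine ⟨k, ?_⟩
  rw [hk, hm, hm1, zpow_one]

end Fermat.Agent.S55.CFT.LOC.H41

end
end
-- ==== END Fermat.Agent.S55.CFT.LOC.H41_TotRamNorm

-- ==== BEGIN Fermat.Agent.S55.CFT.LOC.H41_UnifNotIn
section

/-!
# S55 / E4 / CFT / LOC, leaf LTO-UN (helper41)

`stmt_UnifNotIn : Stmt_UnifNotIn`: a proper subgroup of `Fˣ` misses some uniformizer.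
-/

set_option autoImplicit false

noncomputable section

namespace Fermat.Agent.S55.CFT.LOC.H41

open Fermat.Agent.S55.CFT Fermat.Agent.S55.CFT.LOC

/-- **LTO-UN.** -/
theorem stmt_UnifNotIn : Stmt_UnifNotIn := by
  intro q _ F _ _ _ H hH
  obtain ⟨π, hπ0, hπ1, hπ⟩ := H68.stmt_Uniformizer q F
  have hπne : π ≠ 0 := by
    intro h
    rw [h, (nrm_eq_zero_iff q F).mpr rfl] at hπ0
    exact lt_irrefl _ hπ0
  set πu : Fˣ := Units.mk0 π hπne with hπu
  by_cases hπH : πu ∈ H
  · obtain ⟨u, hu⟩ : ∃ u : Fˣ, u ∉ H := by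
      by_contra hcon
      push Not at hcon
      exact hH (eq_top_iff.mpr fun x _ => hcon x)
    obtain ⟨k, hk⟩ := hπ (u : F) u.ne_zero
    set b : Fˣ := u * πu ^ (1 - k) with hb
    have hbH : b ∉ H := by
      intro h
      apply hu
      have h1 : u = b * πu ^ (k - 1) := by
        rw [hb, mul_assoc, ← zpow_add]
        have : (1 - k) + (k - 1) = 0 := by ring
        rw [this, zpow_zero, mul_one]
      rw [h1]
      exact H.mul_mem h (H.zpow_mem hπH _)
    have hnb : nrm q F (b : F) = nrm q F π := by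
      rw [hb, Units.val_mul, Units.val_zpow_eq_zpow_val, nrm_mul, nrm_zpow, hk]
      show nrm q F π ^ k * nrm q F π ^ (1 - k) = nrm q F π
      rw [← zpow_add₀ hπ0.ne']
      have : k + (1 - k) = 1 := by ring
      rw [this, zpow_one]
    refine ⟨b, hbH, ?_, ?_, ?_⟩
    · rw [hnb]; exact hπ0
    · rw [hnb]; exact hπ1
    · intro y hy
      rw [hnb]
      exact hπ y hy
  · exact ⟨πu, hπH, hπ0, hπ1, hπ⟩

end Fermat.Agent.S55.CFT.LOC.H41

end
end
-- ==== END Fermat.Agent.S55.CFT.LOC.H41_UnifNotIn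

-- ==== BEGIN Fermat.Agent.S55.CFT.LOC.H45_Inertia
section

set_option autoImplicit false
set_option linter.unusedSectionVars false
set_option linter.style.haveILetI false

noncomputable section

namespace Fermat.Agent.S55.CFT.LOC.H45I

open Fermat.Agent.S55.CFT.LOC Fermat.Agent.S55.CFT.LOC.H25

variable (q : ℕ) [Fact q.Prime] (F E : Type) [Field F] [Field E] [Algebra ℚ_[q] F]
  [FiniteDimensional ℚ_[q] F] [Algebra ℚ_[q] E] [FiniteDimensional ℚ_[q] E] [Algebra F E]
  [IsScalarTower ℚ_[q] F E]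

/-- The inertia condition: `σ` acts trivially on the residue field. -/
def IsInert (σ : E ≃ₐ[F] E) : Prop := ∀ x : E, nrm q E x ≤ 1 → nrm q E (σ x - x) < 1

theorem resAut_one (a : resF q E) : resAut q F E 1 a = a := by
  obtain ⟨x, rfl⟩ := res_surjective q E a
  rw [resAut_res]
  congr 1

theorem resAut_mul (σ τ : E ≃ₐ[F] E) (a : resF q E) :
    resAut q F E (σ * τ) a = resAut q F E σ (resAut q F E τ a) := by
  obtain ⟨x, rfl⟩ := res_surjective q E a
  rw [resAut_res, resAut_res, resAut_res]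
  congr 1

theorem resAut_eq_iff (σ τ : E ≃ₐ[F] E) :
    resAut q F E σ = resAut q F E τ ↔ ∀ x : E, nrm q E x ≤ 1 → nrm q E (σ x - τ x) < 1 := by
  constructor
  · intro h x hx
    have h1 := congrArg (fun φ : resF q E →+* resF q E => φ (res q E ⟨x, hx⟩)) h
    simp only [resAut_res] at h1
    rw [res_eq_iff] at h1
    exact h1
  · intro h
    apply RingHom.ext
    intro a
    obtain ⟨x, rfl⟩ := res_surjective q E a
    rw [resAut_res, resAut_res, res_eq_iff]
    exact h x x.2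

/-- The residual automorphism as a monoid homomorphism of the residue field. -/
def resMonoidHom (σ : E ≃ₐ[F] E) : resF q E →* resF q E := (resAut q F E σ : resF q E →* resF q E)

theorem resMonoidHom_injective
    (h : ∀ σ : E ≃ₐ[F] E, IsInert q F E σ → σ = 1) :
    Function.Injective (resMonoidHom q F E) := by
  intro σ τ hστ
  have h1 : resAut q F E σ = resAut q F E τ := by
    apply RingHom.ext
    intro a
    exact congrArg (fun φ : resF q E →* resF q E => φ a) hστ
  have h2 : IsInert q F E (τ⁻¹ * σ) := by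
    intro x hx
    have h3 := (resAut_eq_iff q F E σ τ).1 h1 x hx
    have h4 : (τ⁻¹ * σ) x - x = τ⁻¹ (σ x - τ x) := by
      rw [map_sub]
      show τ⁻¹ (σ x) - x = τ⁻¹ (σ x) - τ⁻¹ (τ x)
      congr 1
      exact (τ.symm_apply_apply x).symm
    rw [h4, nrm_algEquiv]
    exact h3
  have h5 := h _ h2
  exact (inv_mul_eq_one.1 h5).symm

/-! ### Cyclicity -/

section cyc

/-- The residue field of `E` as an algebra over the residue field of `F`. -/
@[reducible] def resAlgebra : Algebra (resF q F) (resF q E) := (H25.resMap q F E).toAlgebra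

attribute [local instance] resAlgebra

theorem resAut_bijective (σ : E ≃ₐ[F] E) : Function.Bijective (resAut q F E σ) :=
  Finite.injective_iff_bijective.1 (resAut q F E σ).injective

/-- The residual automorphism as an automorphism of the residue field extension. -/
def resAlgEquiv (σ : E ≃ₐ[F] E) : resF q E ≃ₐ[resF q F] resF q E :=
  AlgEquiv.ofBijective
    { toRingHom := resAut q F E σ
      commutes' := fun a => resAut_resMap q F E σ a }
    (resAut_bijective q F E σ)

theorem resAlgEquiv_apply (σ : E ≃ₐ[F] E) (a : resF q E) :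
    resAlgEquiv q F E σ a = resAut q F E σ a := rfl

/-- `Gal(E/F) → Gal(k_E/k_F)`. -/
def resHom : (E ≃ₐ[F] E) →* (resF q E ≃ₐ[resF q F] resF q E) :=
  MonoidHom.mk' (resAlgEquiv q F E) (fun σ τ => by
    apply AlgEquiv.ext
    intro a
    show resAut q F E (σ * τ) a = resAut q F E σ (resAut q F E τ a)
    exact resAut_mul q F E σ τ a)

theorem resHom_injective (h : ∀ σ : E ≃ₐ[F] E, IsInert q F E σ → σ = 1) :
    Function.Injective (resHom q F E) := by
  intro σ τ hστ
  apply resMonoidHom_injective q F E h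
  apply MonoidHom.ext
  intro a
  exact congrArg (fun φ : resF q E ≃ₐ[resF q F] resF q E => φ a) hστ

theorem isCyclic_of_inertia_trivial (h : ∀ σ : E ≃ₐ[F] E, IsInert q F E σ → σ = 1) :
    IsCyclic (E ≃ₐ[F] E) :=
  isCyclic_of_injective (resHom q F E) (resHom_injective q F E h)

end cyc

/-! ### Equality of the value groups -/

section unram

variable [FiniteDimensional F E] [IsGalois F E]

/-- Dedekind independence of the residual automorphisms: some unit `u` has
`∑_σ c_σ σ(u)` of absolute value `1`, for units `c_σ`. -/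
theorem exists_nrm_sum_eq_one (h : ∀ σ : E ≃ₐ[F] E, IsInert q F E σ → σ = 1)
    (c : (E ≃ₐ[F] E) → E) (hc : ∀ σ, nrm q E (c σ) = 1) :
    ∃ u : E, nrm q E u ≤ 1 ∧ nrm q E (∑ σ : E ≃ₐ[F] E, c σ * σ u) = 1 := by
  classical
  have hli : LinearIndependent (resF q E)
      (fun σ : E ≃ₐ[F] E => ((resMonoidHom q F E σ : resF q E →* resF q E) : resF q E → resF q E)) :=
    (linearIndependent_monoidHom (resF q E) (resF q E)).comp _ (resMonoidHom_injective q F E h)
  rw [Fintype.linearIndependent_iff] at hli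
  let cb : (E ≃ₐ[F] E) → resF q E := fun σ => res q E ⟨c σ, (hc σ).le⟩
  have hcb : cb 1 ≠ 0 := by
    intro h0
    rw [res_eq_zero_iff] at h0
    have := hc 1
    change nrm q E (c 1) < 1 at h0
    linarith
  have hne : (∑ σ : E ≃ₐ[F] E, cb σ • ((resMonoidHom q F E σ : resF q E →* resF q E) :
      resF q E → resF q E)) ≠ 0 := fun h0 => hcb (hli cb h0 1)
  obtain ⟨a, ha⟩ := Function.ne_iff.1 hne
  obtain ⟨u, rfl⟩ := res_surjective q E a
  refine ⟨u, u.2, ?_⟩
  have hmem : (∑ σ : E ≃ₐ[F] E, c σ * σ (u : E)) ∈ vring q E := by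
    refine sum_mem fun σ _ => ?_
    refine mul_mem (hc σ).le ?_
    rw [mem_vring, nrm_algEquiv]
    exact u.2
  have hres : res q E ⟨_, hmem⟩ ≠ 0 := by
    have h1 : res q E ⟨_, hmem⟩ = ∑ σ : E ≃ₐ[F] E, cb σ * resAut q F E σ (res q E u) := by
      have h2 : (⟨_, hmem⟩ : vring q E) =
          ∑ σ : E ≃ₐ[F] E, (⟨c σ, (hc σ).le⟩ : vring q E) * vringAut q F E σ u := by
        apply Subtype.ext
        rw [AddSubmonoidClass.coe_finsetSum]
        rfl
      rw [h2, map_sum]
      refine Finset.sum_congr rfl fun σ _ => ?_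
      rw [map_mul, resAut_res]
    rw [h1]
    intro h0
    apply ha
    rw [Finset.sum_apply, Pi.zero_apply, ← h0]
    rfl
  have hlt : ¬ nrm q E (∑ σ : E ≃ₐ[F] E, c σ * σ (u : E)) < 1 := by
    intro hlt
    exact hres ((res_eq_zero_iff q E ⟨_, hmem⟩).2 hlt)
  exact le_antisymm hmem (not_lt.1 hlt)

theorem isUnram_of_inertia_trivial (h : ∀ σ : E ≃ₐ[F] E, IsInert q F E σ → σ = 1) :
    IsUnram q F E := by
  classical
  obtain ⟨π, hπ0, hπ1, hπ⟩ := H68.stmt_Uniformizer q E
  have hπne : π ≠ 0 := by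
    rintro rfl
    rw [nrm_zero] at hπ0
    exact lt_irrefl _ hπ0
  -- the units `c_σ = σ π / π`
  let c : (E ≃ₐ[F] E) → E := fun σ => σ π / π
  have hc : ∀ σ, nrm q E (c σ) = 1 := by
    intro σ
    show nrm q E (σ π / π) = 1
    rw [nrm_div, nrm_algEquiv, div_self hπ0.ne']
  obtain ⟨u, hu, hsum⟩ := exists_nrm_sum_eq_one q F E h c hc
  -- the trace of `u π`
  have htr : algebraMap F E (Algebra.trace F E (u * π)) =
      π * ∑ σ : E ≃ₐ[F] E, c σ * σ u := by
    rw [trace_eq_sum_automorphisms, Finset.mul_sum]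
    refine Finset.sum_congr rfl fun σ _ => ?_
    show σ (u * π) = π * (σ π / π * σ u)
    rw [map_mul]
    field_simp
  have hx0 : nrm q F (Algebra.trace F E (u * π)) = nrm q E π := by
    rw [← nrm_algebraMap q F E, htr, nrm_mul, hsum, mul_one]
  intro y
  by_cases hy : y = 0
  · exact ⟨0, by rw [hy, nrm_zero, nrm_zero]⟩
  · obtain ⟨n, hn⟩ := hπ y hy
    refine ⟨Algebra.trace F E (u * π) ^ n, ?_⟩
    rw [nrm_zpow, hx0, hn]

end unram

/-- **Trivial inertia ⟹ cyclic and unramified.** -/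
theorem cyclic_unram_of_inertia_trivial [FiniteDimensional F E] [IsGalois F E]
    (h : ∀ σ : E ≃ₐ[F] E, (∀ x : E, nrm q E x ≤ 1 → nrm q E (σ x - x) < 1) → σ = 1) :
    IsCyclic (E ≃ₐ[F] E) ∧ IsUnram q F E :=
  ⟨isCyclic_of_inertia_trivial q F E h, isUnram_of_inertia_trivial q F E h⟩

end Fermat.Agent.S55.CFT.LOC.H45I

end
end
-- ==== END Fermat.Agent.S55.CFT.LOC.H45_Inertia

-- ==== BEGIN Fermat.Agent.S55.CFT.LOC.H68_NLat2
section

set_option autoImplicit false
set_option linter.unusedSectionVars false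
set_option linter.style.haveILetI false

namespace Fermat.Agent.S55.CFT.LOC.H68

open Fermat.Agent.S55.CFT.LOC

section abstract2

variable {F E : Type} [Field F] [Field E] [Algebra F E] [FiniteDimensional F E] (L : NLat F E)

/-- `∏ (1 + y i) ≡ 1 + ∑ y i mod M (2k+1)` for `y i ∈ M k`. -/
theorem nl_prod_one_add {ι : Type} (s : Finset ι) {k : ℕ} {y : ι → E}
    (hy : ∀ i ∈ s, y i ∈ L.M k) :
    ∏ i ∈ s, (1 + y i) - 1 - ∑ i ∈ s, y i ∈ L.M (2 * k + 1) := by
  classical
  induction s using Finset.induction_on with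
  | empty => simp
  | insert a s ha ih =>
    have hya : y a ∈ L.M k := hy a (Finset.mem_insert_self a s)
    have hys : ∀ i ∈ s, y i ∈ L.M k := fun i hi => hy i (Finset.mem_insert_of_mem hi)
    have ih' := ih hys
    have hS : ∑ i ∈ s, y i ∈ L.M k := nl_sum_mem L s hys
    rw [Finset.prod_insert ha, Finset.sum_insert ha]
    set P := ∏ i ∈ s, (1 + y i) with hP
    set S := ∑ i ∈ s, y i with hSdef
    have e : (1 + y a) * P - 1 - (y a + S) = (P - 1 - S) + y a * S + y a * (P - 1 - S) := by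
      ring
    rw [e]
    refine (L.M _).add_mem ((L.M _).add_mem ih' ?_) ?_
    · exact nl_mul_mem_of_le L (by omega) hya hS
    · exact nl_mul_mem_right L hya ih'

theorem nl_mul_unit_mem {k : ℕ} {a : E} {w : Eˣ} (ha : a ∈ L.M k) (hw : w ∈ nlV L 0) :
    a * (w : E) ∈ L.M k := by
  rw [mem_nlV] at hw
  have e : a * (w : E) = (1 + ((w : E) - 1)) * a := by ring
  rw [e]
  exact nl_one_add_mul_mem L hw ha

/-- the abstract limit argument -/
theorem nl_limit (f : Eˣ →* Eˣ) (hf : ∀ k, ∀ w ∈ nlV L k, f w ∈ nlV L k) (X : Subgroup Eˣ)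
    (hfX : ∀ w, f w ∈ X)
    (step : ∀ k, ∀ u ∈ nlV L k, u ∈ X → ∃ w ∈ nlV L k, u / f w ∈ nlV L (k + 1)) :
    ∀ u ∈ nlV L 0, u ∈ X → ∃ W ∈ nlV L 0, f W = u := by
  intro u hu huX
  have key : ∀ (k : ℕ) (P : {P : Eˣ // P ∈ nlV L 0 ∧ u / f P ∈ nlV L k}),
      ∃ P' : {P : Eˣ // P ∈ nlV L 0 ∧ u / f P ∈ nlV L (k + 1)},
        (P'.1 / P.1 : Eˣ) ∈ nlV L k := by
    rintro k ⟨P, hP0, hPk⟩
    have hX : u / f P ∈ X := X.div_mem huX (hfX P)
    obtain ⟨w, hw, hw'⟩ := step k _ hPk hX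
    refine ⟨⟨P * w, (nlV L 0).mul_mem hP0 (nlV_mono L (Nat.zero_le k) hw), ?_⟩, ?_⟩
    · rw [map_mul]
      have : u / (f P * f w) = u / f P / f w := by rw [div_div]
      rw [this]; exact hw'
    · simpa using hw
  choose stepf hstepf using key
  let seq : (k : ℕ) → {P : Eˣ // P ∈ nlV L 0 ∧ u / f P ∈ nlV L k} :=
    fun k => Nat.rec (motive := fun k => {P : Eˣ // P ∈ nlV L 0 ∧ u / f P ∈ nlV L k})
      ⟨1, (nlV L 0).one_mem, by simpa using hu⟩ (fun k P => stepf k P) k
  have hseq : ∀ k, ((seq (k + 1)).1 / (seq k).1 : Eˣ) ∈ nlV L k := fun k => hstepf k (seq k)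
  have hseq0 : (seq 0).1 = 1 := rfl
  have hdiff : ∀ k, (((seq (k + 1)).1 : Eˣ) : E) - ((seq k).1 : Eˣ) ∈ L.M k := fun k =>
    nlV_sub_mem L (seq k).2.1 (hseq k)
  obtain ⟨y, hy⟩ := L.complete (fun k => (((seq k).1 : Eˣ) : E)) hdiff
  have hy0 : y - 1 ∈ L.M 0 := by
    have := hy 0
    simpa [hseq0] using this
  let W : Eˣ := nlUnit L (y - 1) hy0
  have hWy : (W : E) = y := by simp [W]
  have hW0 : W ∈ nlV L 0 := by rw [mem_nlV, hWy]; exact hy0
  refine ⟨W, hW0, ?_⟩
  have hWk : ∀ k, W / (seq k).1 ∈ nlV L k := fun k =>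
    nlV_div_mem L (seq k).2.1 (by rw [hWy]; exact hy k)
  have hall : ∀ k, u / f W ∈ nlV L k := by
    intro k
    have h1 : f (W / (seq k).1) ∈ nlV L k := hf k _ (hWk k)
    have h2 : u / f (seq k).1 ∈ nlV L k := (seq k).2.2
    have e : u / f W = (u / f (seq k).1) / f (W / (seq k).1) := by
      rw [map_div]
      rw [div_div, mul_div_cancel]
    rw [e]
    exact (nlV L k).div_mem h2 h1
  have := nlV_sep L hall
  exact (div_eq_one.mp this).symm

end abstract2

section abstract3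

variable {F E : Type} [Field F] [Field E] [Algebra F E] [FiniteDimensional F E] (L : NLat F E)

/-- the norm as an endomorphism of `Eˣ` -/
noncomputable def nlN (F E : Type) [Field F] [Field E] [Algebra F E] [FiniteDimensional F E] :
    Eˣ →* Eˣ :=
  ∏ τ : E ≃ₐ[F] E, Units.map (τ : E →* E)

theorem nlN_coe (w : Eˣ) : ((nlN F E w : Eˣ) : E) = ∏ τ : E ≃ₐ[F] E, τ (w : E) := by
  simp [nlN]

theorem nlN_eq_norm [IsGalois F E] (w : Eˣ) :
    ((nlN F E w : Eˣ) : E) = algebraMap F E (Algebra.norm F (w : E)) := by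
  rw [nlN_coe, Algebra.norm_eq_prod_automorphisms]

/-- `σ - 1` as an endomorphism of `Eˣ` -/
noncomputable def nlD (σ : E ≃ₐ[F] E) : Eˣ →* Eˣ :=
  Units.map (σ : E →* E) / MonoidHom.id Eˣ

theorem nlD_apply (σ : E ≃ₐ[F] E) (w : Eˣ) : nlD σ w = Units.map (σ : E →* E) w / w := rfl

theorem nlD_coe (σ : E ≃ₐ[F] E) (w : Eˣ) : ((nlD σ w : Eˣ) : E) = σ (w : E) / w := by
  rw [nlD_apply]; simp [Units.val_div_eq_div_val]

theorem nlV_map_mem (τ : E ≃ₐ[F] E) {k : ℕ} {w : Eˣ} (hw : w ∈ nlV L k) :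
    Units.map (τ : E →* E) w ∈ nlV L k := by
  rw [mem_nlV] at hw ⊢
  have := L.galois τ k _ hw
  simpa using this

theorem nlN_mem {k : ℕ} {w : Eˣ} (hw : w ∈ nlV L k) : nlN F E w ∈ nlV L k := by
  rw [nlN, MonoidHom.finsetProd_apply]
  exact (nlV L k).prod_mem (fun τ _ => nlV_map_mem L τ hw)

theorem nlD_mem (σ : E ≃ₐ[F] E) {k : ℕ} {w : Eˣ} (hw : w ∈ nlV L k) : nlD σ w ∈ nlV L k := by
  rw [nlD_apply]
  exact (nlV L k).div_mem (nlV_map_mem L σ hw) hw

end abstract3

section abstract4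

variable {F E : Type} [Field F] [Field E] [Algebra F E] [FiniteDimensional F E] (L : NLat F E)

theorem nl_stepN (k : ℕ) (u : Eˣ) (hu : u ∈ nlV L k)
    (hfix : ∀ τ : E ≃ₐ[F] E, τ (u : E) = u) :
    ∃ w ∈ nlV L k, u / nlN F E w ∈ nlV L (k + 1) := by
  have hx : (u : E) - 1 ∈ L.M k := hu
  have hxfix : ∀ τ : E ≃ₐ[F] E, τ ((u : E) - 1) = (u : E) - 1 := by
    intro τ; rw [map_sub, map_one, hfix]
  obtain ⟨y, hy, hTr⟩ := L.h0 k _ hx hxfix
  have hy0 : y ∈ L.M 0 := nl_mono L (Nat.zero_le k) hy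
  refine ⟨nlUnit L y hy0, nlUnit_mem L y hy, ?_⟩
  apply nlV_div_mem L (nlV_mono L (Nat.zero_le k) (nlN_mem L (nlUnit_mem L y hy)))
  have hexp := nl_prod_one_add L (Finset.univ : Finset (E ≃ₐ[F] E)) (k := k)
    (y := fun τ => τ y) (fun τ _ => L.galois τ k y hy)
  rw [hTr] at hexp
  have hN : ((nlN F E (nlUnit L y hy0) : Eˣ) : E) = ∏ τ : E ≃ₐ[F] E, (1 + τ y) := by
    rw [nlN_coe]; simp
  have e : (u : E) - (nlN F E (nlUnit L y hy0) : Eˣ) =
      -(∏ τ : E ≃ₐ[F] E, (1 + τ y) - 1 - ((u : E) - 1)) := by rw [hN]; ring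
  rw [e]
  exact (L.M _).neg_mem (nl_mono L (by omega) hexp)

theorem nl_stepD (σ : E ≃ₐ[F] E) (hσ : ∀ τ : E ≃ₐ[F] E, τ ∈ Subgroup.zpowers σ) (k : ℕ)
    (u : Eˣ) (hu : u ∈ nlV L k) (hN : nlN F E u = 1) :
    ∃ w ∈ nlV L k, u / nlD σ w ∈ nlV L (k + 1) := by
  have hx : (u : E) - 1 ∈ L.M k := hu
  have hux : (u : E) = 1 + ((u : E) - 1) := by ring
  generalize (u : E) - 1 = x at hx hux
  have hexp := nl_prod_one_add L (Finset.univ : Finset (E ≃ₐ[F] E)) (k := k)
    (y := fun τ => τ x) (fun τ _ => L.galois τ k x hx)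
  have hprod : ∏ τ : E ≃ₐ[F] E, (1 + τ x) = 1 := by
    have h1 := nlN_coe (F := F) u
    rw [hN] at h1
    simp only [Units.val_one] at h1
    refine Eq.trans ?_ h1.symm
    apply Finset.prod_congr rfl
    intro τ _
    rw [hux, map_add, map_one]
  rw [hprod, sub_self, zero_sub] at hexp
  have hTr : ∑ τ : E ≃ₐ[F] E, τ x ∈ L.M (2 * k + 1) := by
    simpa using (L.M _).neg_mem hexp
  obtain ⟨y, hy, hyx⟩ := L.h1 σ hσ k (2 * k + 1) x hx hTr
  have hy0 : y ∈ L.M 0 := nl_mono L (Nat.zero_le k) hy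
  have hw : nlUnit L y hy0 ∈ nlV L k := nlUnit_mem L y hy
  refine ⟨nlUnit L y hy0, hw, ?_⟩
  have hv : nlD σ (nlUnit L y hy0) ∈ nlV L k := nlD_mem L σ hw
  apply nlV_div_mem L (nlV_mono L (Nat.zero_le k) hv)
  set w := nlUnit L y hy0 with hwdef
  have hwc : (w : E) = 1 + y := rfl
  have hw0 : (w : E) ≠ 0 := w.ne_zero
  have h1 : ((u : E) - (nlD σ w : Eˣ)) * (w : E) ∈ L.M (2 * k + 1) := by
    have e : ((u : E) - (nlD σ w : Eˣ)) * (w : E) = -(σ y - y - x) + x * y := by
      rw [nlD_coe, sub_mul, div_mul_cancel₀ _ hw0, hwc, map_add, map_one, hux]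
      ring
    rw [e]
    exact (L.M _).add_mem ((L.M _).neg_mem hyx) (nl_mul_mem_of_le L (by omega) hx hy)
  have hwinv : w⁻¹ ∈ nlV L 0 := (nlV L 0).inv_mem (nlV_mono L (Nat.zero_le k) hw)
  have h2 := nl_mul_unit_mem L h1 hwinv
  have e2 : ((u : E) - (nlD σ w : Eˣ)) * (w : E) * ((w⁻¹ : Eˣ) : E) =
      (u : E) - (nlD σ w : Eˣ) := by
    rw [mul_assoc, Units.mul_inv, mul_one]
  rw [e2] at h2
  exact nl_mono L (by omega) h2

theorem stmt_TrivialOfLattice : Stmt_TrivialOfLattice := by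
  intro F E _ _ _ _ _ L σ hσ
  refine ⟨nlV L 0, fun u => Iff.rfl, fun x hx => nl_one_add_ne_zero L hx,
    fun u hu => nlV_map_mem L σ hu, ?_, ?_⟩
  · intro u hu hσu
    have hfix : ∀ τ : E ≃ₐ[F] E, τ (u : E) = u := by
      intro τ
      obtain ⟨m, rfl⟩ := Subgroup.mem_zpowers_iff.mp (hσ τ)
      have hmem : σ ∈ MulAction.stabilizer (E ≃ₐ[F] E) (u : E) := hσu
      exact (MulAction.stabilizer (E ≃ₐ[F] E) (u : E)).zpow_mem hmem m
    let X : Subgroup Eˣ :=
      { carrier := {v | ∀ τ : E ≃ₐ[F] E, τ (v : E) = v}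
        one_mem' := by intro τ; simp
        mul_mem' := by
          intro a b ha hb τ
          simp only [Set.mem_ofPred_eq] at ha hb
          rw [Units.val_mul, map_mul, ha τ, hb τ]
        inv_mem' := by
          intro a ha τ
          simp only [Set.mem_ofPred_eq] at ha
          rw [Units.val_inv_eq_inv_val, map_inv₀, ha τ] }
    obtain ⟨W, hW, hWu⟩ := nl_limit L (nlN F E) (fun k w hw => nlN_mem L hw) X
      (fun w τ => by rw [nlN_eq_norm]; exact τ.commutes _)
      (fun k u hu hX => nl_stepN L k u hu hX) u hu hfix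
    refine ⟨W, hW, ?_⟩
    rw [← nlN_eq_norm, hWu]
  · intro u hu hN
    have hN' : nlN F E u = 1 := Units.ext (by rw [nlN_eq_norm, hN, map_one]; rfl)
    obtain ⟨W, hW, hWu⟩ := nl_limit L (nlD σ) (fun k w hw => nlD_mem L σ hw) (nlN F E).ker
      (fun w => by
        rw [MonoidHom.mem_ker, nlD_apply, map_div, div_eq_one]
        apply Units.ext
        rw [nlN_eq_norm, nlN_eq_norm]
        congr 1
        exact Algebra.norm_eq_of_algEquiv σ (w : E))
      (fun k u hu hX => nl_stepD L σ hσ k u hu (MonoidHom.mem_ker.mp hX)) u hu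
      (MonoidHom.mem_ker.mpr hN')
    refine ⟨W, hW, ?_⟩
    rw [← hWu, nlD_coe]

end abstract4

end Fermat.Agent.S55.CFT.LOC.H68


end
-- ==== END Fermat.Agent.S55.CFT.LOC.H68_NLat2

-- ==== BEGIN Fermat.Agent.S55.CFT.LOC.H72_PowIndexA
section

set_option autoImplicit false
set_option linter.unusedSectionVars false

namespace Fermat.Agent.S55.CFT.LOC.H72

open Fermat.Agent.S55.CFT.LOC

section hensel

variable (q : ℕ) [Fact q.Prime] (F : Type) [Field F] [Algebra ℚ_[q] F]
  [FiniteDimensional ℚ_[q] F]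

/-- `|wⁿ - 1| = |n| |w - 1|` when `|w - 1| < |n|`. -/
theorem nrm_pow_sub_one {n : ℕ} {w : F} (hw : nrm q F (w - 1) < nrm q F (n : F)) :
    nrm q F (w ^ n - 1) = nrm q F (n : F) * nrm q F (w - 1) := by
  set ν := nrm q F (n : F) with hν
  have hν1 : ν ≤ 1 := nrm_natCast_le q F n
  set y := w - 1 with hy
  have hy1 : nrm q F y ≤ 1 := hw.le.trans hν1
  obtain ⟨G, hG, hexp⟩ := exists_pow_add_expansion q F (x := 1) (y := y)
    (by rw [nrm_one]) hy1 n
  have e : w ^ n - 1 = (n : F) * y + G * y ^ 2 := by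
    have hw' : w = 1 + y := by rw [hy]; ring
    rw [hw', hexp]; ring
  rw [e]
  by_cases hy0 : y = 0
  · rw [hy0]; simp
  have hypos : 0 < nrm q F y := nrm_pos q F hy0
  have h2 : nrm q F (G * y ^ 2) < nrm q F ((n : F) * y) := by
    rw [nrm_mul, nrm_mul, nrm_pow]
    calc nrm q F G * nrm q F y ^ 2 ≤ 1 * nrm q F y ^ 2 :=
          mul_le_mul_of_nonneg_right hG (by positivity)
      _ = nrm q F y * nrm q F y := by ring
      _ < ν * nrm q F y := mul_lt_mul_of_pos_right hw hypos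
  have := nrm_add_eq_max_of_ne q F (x := (n : F) * y) (y := G * y ^ 2) h2.ne'
  rw [this, max_eq_left h2.le, nrm_mul]

/-- Refined Hensel: a root close to `1`. -/
theorem exists_root_near_one {n : ℕ} (hn : 0 < n) {u : F}
    (hu : nrm q F (u - 1) ≤ nrm q F (n : F) ^ 2 / 2) :
    ∃ w : F, w ^ n = u ∧ nrm q F (w - 1) ≤ nrm q F (n : F) / 2 ∧
      nrm q F (u - 1) = nrm q F (n : F) * nrm q F (w - 1) := by
  set ν := nrm q F (n : F) with hν
  have hνpos : 0 < ν := nrm_natCast_pos q F hn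
  obtain ⟨y, hy⟩ := H68.stmt_SuccApprox q F (newtonSeq F n u) (ν / 2) (1 / 2) (by positivity)
    (by norm_num) (by norm_num) (newton_step_le q F hn hu)
  have hy0 := hy 0
  rw [pow_zero, mul_one, newtonSeq_zero] at hy0
  -- the limit is the root constructed in `pow_eq_of_nrm_sub_one_le`; redo the short argument
  have hν1 : ν ≤ 1 := nrm_natCast_le q F n
  have hy1 : nrm q F y = 1 := by
    have h1 : nrm q F (y - 1) < 1 := by
      calc nrm q F (y - 1) ≤ ν / 2 := hy0
        _ < 1 := by linarith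
    have := nrm_one_add_of_lt q F h1
    rwa [add_sub_cancel] at this
  have hb : ∀ k : ℕ, nrm q F (y ^ n - u) ≤ (1 / 2 : ℝ) ^ k := by
    intro k
    obtain ⟨h1, h2⟩ := newton_invariant q F hn hu k
    have e : y ^ n - u = (y ^ n - newtonSeq F n u k ^ n) + (newtonSeq F n u k ^ n - u) := by ring
    rw [e]
    refine (nrm_add_le_max q F _ _).trans (max_le ?_ ?_)
    · refine (nrm_pow_sub_pow_le q F hy1.le h1.le n).trans ((hy k).trans ?_)
      calc ν / 2 * (1 / 2) ^ k ≤ 1 * (1 / 2) ^ k := by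
            apply mul_le_mul_of_nonneg_right _ (by positivity)
            linarith
        _ = (1 / 2) ^ k := one_mul _
    · refine h2.trans ?_
      calc ν ^ 2 * (1 / 2) ^ (k + 1) ≤ 1 * (1 / 2) ^ (k + 1) := by
            apply mul_le_mul_of_nonneg_right _ (by positivity)
            exact pow_le_one₀ hνpos.le hν1
        _ = (1 / 2) ^ (k + 1) := one_mul _
        _ ≤ (1 / 2) ^ k := pow_le_pow_of_le_one (by norm_num) (by norm_num) (Nat.le_succ k)
  have hzero : nrm q F (y ^ n - u) = 0 := by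
    apply le_antisymm _ (nrm_nonneg q F _)
    apply le_of_forall_pos_le_add
    intro ε hε
    obtain ⟨k, hk⟩ := exists_pow_lt_of_lt_one hε (by norm_num : (1 / 2 : ℝ) < 1)
    rw [zero_add]
    exact (hb k).trans hk.le
  have hyn : y ^ n = u := sub_eq_zero.mp ((nrm_eq_zero_iff q F).mp hzero)
  refine ⟨y, hyn, hy0, ?_⟩
  rw [← hyn]
  exact nrm_pow_sub_one q F (lt_of_le_of_lt hy0 (by linarith))

end hensel

section groups

variable (q : ℕ) [Fact q.Prime] (F : Type) [Field F] [Algebra ℚ_[q] F]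
  [FiniteDimensional ℚ_[q] F]

/-- The additive subgroup `{x | |x| ≤ r}`. -/
def Badd (r : ℝ) (hr : 0 ≤ r) : AddSubgroup F where
  carrier := {x | nrm q F x ≤ r}
  add_mem' := fun {a b} ha hb => (nrm_add_le_max q F a b).trans (max_le ha hb)
  zero_mem' := by
    show nrm q F 0 ≤ r
    rw [nrm_zero]; exact hr
  neg_mem' := fun {a} ha => by
    show nrm q F (-a) ≤ r
    rw [nrm_neg]; exact ha

theorem mem_Badd {r : ℝ} {hr : 0 ≤ r} {x : F} : x ∈ Badd q F r hr ↔ nrm q F x ≤ r := Iff.rfl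

/-- Elements close to `1` have absolute value `1`. -/
theorem nrm_eq_one_of_sub_one_lt {x : F} (hx : nrm q F (x - 1) < 1) : nrm q F x = 1 := by
  have := nrm_one_add_of_lt q F hx
  rwa [add_sub_cancel] at this

/-- The subgroup `{x | |x - 1| ≤ r}` of `Fˣ`, for `r < 1`. -/
def Vmul (r : ℝ) (hr : 0 ≤ r) (hr1 : r < 1) : Subgroup Fˣ where
  carrier := {x | nrm q F ((x : F) - 1) ≤ r}
  mul_mem' := fun {a b} ha hb => by
    show nrm q F (((a * b : Fˣ) : F) - 1) ≤ r
    have hb1 : nrm q F (b : F) = 1 := nrm_eq_one_of_sub_one_lt q F (lt_of_le_of_lt hb hr1)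
    have e : ((a * b : Fˣ) : F) - 1 = ((a : F) - 1) * (b : F) + ((b : F) - 1) := by
      rw [Units.val_mul]; ring
    rw [e]
    refine (nrm_add_le_max q F _ _).trans (max_le ?_ hb)
    rw [nrm_mul, hb1, mul_one]
    exact ha
  one_mem' := by
    show nrm q F (((1 : Fˣ) : F) - 1) ≤ r
    rw [Units.val_one, sub_self, nrm_zero]; exact hr
  inv_mem' := fun {a} ha => by
    show nrm q F (((a⁻¹ : Fˣ) : F) - 1) ≤ r
    have ha1 : nrm q F (a : F) = 1 := nrm_eq_one_of_sub_one_lt q F (lt_of_le_of_lt ha hr1)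
    have e : ((a⁻¹ : Fˣ) : F) - 1 = -(((a : F) - 1) * ((a⁻¹ : Fˣ) : F)) := by
      have : (a : F) * ((a⁻¹ : Fˣ) : F) = 1 := by rw [← Units.val_mul, mul_inv_cancel, Units.val_one]
      linear_combination this
    rw [e, nrm_neg, nrm_mul, Units.val_inv_eq_inv_val, nrm_inv, ha1, inv_one, mul_one]
    exact ha

theorem mem_Vmul {r : ℝ} {hr : 0 ≤ r} {hr1 : r < 1} {x : Fˣ} :
    x ∈ Vmul q F r hr hr1 ↔ nrm q F ((x : F) - 1) ≤ r := Iff.rfl

theorem nrm_of_mem_Vmul {r : ℝ} {hr : 0 ≤ r} {hr1 : r < 1} {x : Fˣ}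
    (hx : x ∈ Vmul q F r hr hr1) : nrm q F (x : F) = 1 :=
  nrm_eq_one_of_sub_one_lt q F (lt_of_le_of_lt hx hr1)

theorem Vmul_mono {r s : ℝ} {hr : 0 ≤ r} {hr1 : r < 1} {hs : 0 ≤ s} {hs1 : s < 1} (h : s ≤ r) :
    Vmul q F s hs hs1 ≤ Vmul q F r hr hr1 := fun _ hx => le_trans hx h

theorem Badd_mono {r s : ℝ} {hr : 0 ≤ r} {hs : 0 ≤ s} (h : s ≤ r) :
    Badd q F s hs ≤ Badd q F r hr := fun _ hx => le_trans hx h

/-- The `n`-th power map sends `V_r` onto `V_{r |n|}`, for `r ≤ |n| / 2`. -/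
theorem map_pow_Vmul {n : ℕ} (hn : 0 < n) {r : ℝ} (hr : 0 ≤ r)
    (hrn : r ≤ nrm q F (n : F) / 2) (hr1 : r < 1) (hr1' : r * nrm q F (n : F) < 1) :
    (Vmul q F r hr hr1).map (powMonoidHom n : Fˣ →* Fˣ)
      = Vmul q F (r * nrm q F (n : F)) (mul_nonneg hr (nrm_nonneg q F _)) hr1' := by
  set ν := nrm q F (n : F) with hν
  have hνpos : 0 < ν := nrm_natCast_pos q F hn
  ext u
  rw [Subgroup.mem_map, mem_Vmul]
  constructor
  · rintro ⟨x, hx, rfl⟩
    rw [mem_Vmul] at hx
    rw [powMonoidHom_apply, Units.val_pow_eq_pow_val]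
    have hlt : nrm q F ((x : F) - 1) < ν := lt_of_le_of_lt hx (by linarith)
    rw [nrm_pow_sub_one q F hlt, mul_comm]
    exact mul_le_mul_of_nonneg_right hx hνpos.le
  · intro hu
    have hu' : nrm q F ((u : F) - 1) ≤ ν ^ 2 / 2 := by
      calc nrm q F ((u : F) - 1) ≤ r * ν := hu
        _ ≤ ν / 2 * ν := mul_le_mul_of_nonneg_right hrn hνpos.le
        _ = ν ^ 2 / 2 := by ring
    obtain ⟨w, hw, hw1, hw2⟩ := exists_root_near_one q F hn hu'
    have hw0 : w ≠ 0 := by
      intro h0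
      rw [h0, zero_pow hn.ne'] at hw
      exact u.ne_zero hw.symm
    refine ⟨Units.mk0 w hw0, ?_, ?_⟩
    · rw [mem_Vmul, Units.val_mk0]
      have hu2 : ν * nrm q F (w - 1) ≤ ν * r := by
        rw [← hw2, mul_comm ν r]; exact hu
      exact le_of_mul_le_mul_left hu2 hνpos
    · apply Units.ext
      rw [powMonoidHom_apply, Units.val_pow_eq_pow_val, Units.val_mk0, hw]

/-- The `n`-torsion of `V_r` is trivial, for `r < |n|`. -/
theorem eq_one_of_pow_eq_one_of_mem_Vmul {n : ℕ} (hn : 0 < n) {r : ℝ} (hr : 0 ≤ r)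
    (hrn : r < nrm q F (n : F)) (hr1 : r < 1) {x : Fˣ} (hx : x ∈ Vmul q F r hr hr1)
    (hxn : x ^ n = 1) : x = 1 := by
  have hνpos : 0 < nrm q F (n : F) := nrm_natCast_pos q F hn
  have h1 := nrm_pow_sub_one q F (n := n) (w := (x : F)) (lt_of_le_of_lt hx hrn)
  have h2 : (x : F) ^ n = 1 := by rw [← Units.val_pow_eq_pow_val, hxn, Units.val_one]
  rw [h2, sub_self, nrm_zero] at h1
  have h3 : nrm q F ((x : F) - 1) = 0 := by
    rcases mul_eq_zero.mp h1.symm with h | h
    · exact absurd h hνpos.ne'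
    · exact h
  apply Units.ext
  rw [Units.val_one]
  exact sub_eq_zero.mp ((nrm_eq_zero_iff q F).mp h3)

end groups

end Fermat.Agent.S55.CFT.LOC.H72

end
-- ==== END Fermat.Agent.S55.CFT.LOC.H72_PowIndexA

-- ==== BEGIN Fermat.Agent.S55.CFT.LOC.H78_CharKer
section

/-!
# LTO-CK (the character of a cyclic extension of degree `p`), helper78

For `M/K` finite Galois and `E` an intermediate field, Galois of degree `p` over `K`, the
restriction `Gal(M/K) → Gal(E/K) ≃ ℤ/p` is a character whose kernel has fixed field `E`.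
-/

set_option autoImplicit false
set_option linter.style.haveILetI false

namespace Fermat.Agent.S55.CFT.LOC.H78

/-- **LTO-CK.** -/
theorem stmt_CharKer : Stmt_CharKer := by
  intro p hp K M _ _ _ _ _ E hE hdeg
  haveI : IsGalois K E := hE
  haveI : Normal K E := hE.to_normal
  have h1 : Nat.card (E ≃ₐ[K] E) = p := by
    rw [IsGalois.card_aut_eq_finrank, hdeg]
  have h2 : Nat.card (Multiplicative (ZMod p)) = p := by
    rw [Nat.card_eq_fintype_card]
    exact (Fintype.card_congr Multiplicative.toAdd).trans (ZMod.card p)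
  let e : (E ≃ₐ[K] E) ≃* Multiplicative (ZMod p) := mulEquivOfPrimeCardEq h1 h2
  refine ⟨e.toMonoidHom.comp (AlgEquiv.restrictNormalHom E), ?_⟩
  have hker : (e.toMonoidHom.comp (AlgEquiv.restrictNormalHom (F := K) (K₁ := M) E)).ker =
      E.fixingSubgroup := by
    rw [← IntermediateField.restrictNormalHom_ker]
    ext x
    simp only [MonoidHom.mem_ker, MonoidHom.comp_apply, MulEquiv.coe_toMonoidHom]
    exact e.map_eq_one_iff
  rw [hker]
  exact IsGalois.fixedField_fixingSubgroup E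

end Fermat.Agent.S55.CFT.LOC.H78

end
-- ==== END Fermat.Agent.S55.CFT.LOC.H78_CharKer

-- ==== BEGIN Fermat.Agent.S55.CFT.LOC.H78_KummerDeg
section

/-!
# LTO-KD (Kummer degree), helper78

If `K` contains a primitive `p^c`-th root of unity (`c ≥ 1`) and no primitive `p^(c+1)`-th root
of unity, then `[K(ζ) : K] = p` for every primitive `p^(c+1)`-th root of unity `ζ`.
-/

set_option autoImplicit false
set_option linter.style.haveILetI false

open Polynomial

namespace Fermat.Agent.S55.CFT.LOC.H78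

/-- **LTO-KD.** -/
theorem stmt_KummerDeg : Stmt_KummerDeg := by
  intro p hp c K M _ _ _ hc hex hnex ζ hζ
  have hpp : p.Prime := hp.out
  obtain ⟨ζ₀, hζ₀⟩ := hex
  haveI : NeZero (p ^ c) := ⟨pow_ne_zero _ hpp.ne_zero⟩
  -- `ζ ^ p` is a primitive `p^c`-th root of unity of `M`, so it comes from `K`
  have hζ₀M : IsPrimitiveRoot (algebraMap K M ζ₀) (p ^ c) :=
    hζ₀.map_of_injective (algebraMap K M).injective
  have hζp : (ζ ^ p) ^ (p ^ c) = 1 := by
    rw [← pow_mul, ← pow_succ']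
    exact hζ.pow_eq_one
  obtain ⟨i, -, hi⟩ := hζ₀M.eq_pow_of_pow_eq_one hζp
  set a : K := ζ₀ ^ i with ha
  have haM : algebraMap K M a = ζ ^ p := by rw [ha, map_pow, hi]
  -- `a` is a primitive `p^c`-th root of unity
  have hζpprim : IsPrimitiveRoot (ζ ^ p) (p ^ c) := by
    have := hζ.pow (n := p ^ (c + 1)) (a := p) (b := p ^ c) (pow_pos hpp.pos _)
      (by rw [pow_succ']) 
    exact this
  have haprim : IsPrimitiveRoot a (p ^ c) := by
    have h1 : IsPrimitiveRoot (algebraMap K M a) (p ^ c) := by rw [haM]; exact hζpprim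
    exact IsPrimitiveRoot.of_map_of_injective h1 (algebraMap K M).injective
  -- `a` is not a `p`-th power in `K`
  have hnot : ∀ b : K, b ^ p ≠ a := by
    intro b hb
    apply hnex
    refine ⟨b, ?_⟩
    have h1 : b ^ (p ^ (c + 1)) = 1 := by
      rw [pow_succ', pow_mul, hb]
      exact haprim.pow_eq_one
    have hdvd : orderOf b ∣ p ^ (c + 1) := orderOf_dvd_of_pow_eq_one h1
    obtain ⟨j, hj, hjeq⟩ := (Nat.dvd_prime_pow hpp).mp hdvd
    have hjc : j = c + 1 := by
      by_contra hne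
      have hjle : j ≤ c := by omega
      have h2 : b ^ (p ^ c) = 1 := by
        have : orderOf b ∣ p ^ c := by rw [hjeq]; exact pow_dvd_pow p hjle
        exact orderOf_dvd_iff_pow_eq_one.mp this
      obtain ⟨c', rfl⟩ : ∃ c', c = c' + 1 := ⟨c - 1, by omega⟩
      have h3 : a ^ (p ^ c') = 1 := by
        rw [← hb, ← pow_mul, ← pow_succ']
        exact h2
      have h4 := haprim.pow_ne_one_of_pos_of_lt (pow_pos hpp.pos c').ne'
        (Nat.pow_lt_pow_right hpp.one_lt (Nat.lt_succ_self c'))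
      exact h4 h3
    rw [← hjc, ← hjeq]
    exact IsPrimitiveRoot.orderOf b
  have hirr : Irreducible (X ^ p - C a : K[X]) := X_pow_sub_C_irreducible_of_prime hpp hnot
  have hmonic : (X ^ p - C a : K[X]).Monic := monic_X_pow_sub_C a hpp.ne_zero
  have hroot : Polynomial.aeval ζ (X ^ p - C a : K[X]) = 0 := by
    simp only [map_sub, map_pow, aeval_X, aeval_C]
    rw [haM, sub_self]
  have hmin : (X ^ p - C a : K[X]) = minpoly K ζ :=
    minpoly.eq_of_irreducible_of_monic hirr hroot hmonic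
  have hint : IsIntegral K ζ := ⟨_, hmonic, by rwa [← Polynomial.aeval_def]⟩
  rw [IntermediateField.adjoin.finrank hint, ← hmin]
  exact natDegree_X_pow_sub_C

end Fermat.Agent.S55.CFT.LOC.H78

end
-- ==== END Fermat.Agent.S55.CFT.LOC.H78_KummerDeg

-- ==== BEGIN Fermat.Agent.S55.Coh.ConeR
section

set_option autoImplicit false

open CategoryTheory Module groupCohomology ExtCitation

noncomputable section

namespace Fermat.Agent.S55

variable {k : Type} [Field k] {S : Finset Nat.Primes}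

section cupRight

variable (χ : GQ →* kˣ) (M : Rep.{0} k GQ)

/-- Cone on the right, degrees `(1, 1)`: `a ∪ (f', m') = (a ∪ f', - res a ∪ m')`, a cone
2-cochain of `k(χ)`. -/
def cupB11 (a : GQ → M) (y : C1c S (Md χ M)) : C2c S (kχ χ) :=
  (fun t => ev χ M (a t.1) ((Md χ M).ρ t.1 (y.1 t.2)),
   fun q h => - ev χ M (a (rl q.1 h)) ((Md χ M).ρ (rl q.1 h) (y.2 q)))

/-- **Leibniz rule**, degrees `(1, 1)`, cone on the right:
`d_cone (a ∪ y) = (d a) ∪ y - a ∪ (d_cone y)`. -/
lemma dCone2_cupB11 (a : GQ → M) (y : C1c S (Md χ M)) :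
    dCone2 S (kχ χ) (cupB11 χ M a y) =
      cupB1 S χ M (dOne M a) y - cupB2 S χ M a (dCone1 S (Md χ M) y) := by
  refine Prod.ext (funext fun t => ?_) (funext fun q => funext fun t => ?_)
  · obtain ⟨g₁, g₂, g₃⟩ := t
    simp only [dCone2, dCone1, cupB11, cupB1, cupB2, dTwo, dOne, Prod.fst_sub, Pi.sub_apply,
      ev_sub_left, ev_add_left, map_sub, map_add, map_mul, Module.End.mul_apply,
      ev_rho', kχ_rho']
    erw [ev_add_right, ev_sub_right]
    ring
  · obtain ⟨h₁, h₂⟩ := t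
    simp only [dCone2, dCone1, cupB11, cupB1, cupB2, dOneL, dOne, dZeroL, resTwo, resOne,
      Prod.snd_sub, Pi.sub_apply, ev_sub_left, ev_add_left, map_sub, map_add, map_mul, map_neg,
      Module.End.mul_apply, ev_rho', kχ_rho']
    erw [ev_sub_right, ev_sub_right]
    ring

variable {M}

lemma cupB1_add_right (a : GQ × GQ → M) (y y' : C1c S (Md χ M)) :
    cupB1 S χ M a (y + y') = cupB1 S χ M a y + cupB1 S χ M a y' := by
  refine Prod.ext (funext fun t => ?_) (funext fun q => funext fun t => ?_)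
  · simp only [cupB1, Prod.fst_add, Pi.add_apply, map_add]; rfl
  · simp only [cupB1, Prod.snd_add, Pi.add_apply, map_add]; rfl

lemma cupB2_zero_right (a : GQ → M) : cupB2 S χ M a (0 : C2c S (Md χ M)) = 0 := by
  refine Prod.ext (funext fun t => ?_) (funext fun q => funext fun t => ?_)
  · simp only [cupB2, Prod.fst_zero, Pi.zero_apply, map_zero]; rfl
  · simp only [cupB2, Prod.snd_zero, Pi.zero_apply, map_zero]
    show -ev χ M _ 0 = 0
    rw [ev_zero_right, neg_zero]

variable (S M) in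
/-- `a ↦ a ∪ y` as a linear map. -/
def cupB1ₗ (y : C1c S (Md χ M)) : (GQ × GQ → M) →ₗ[k] C3c S (kχ χ) where
  toFun a := cupB1 S χ M a y
  map_add' a a' := by
    refine Prod.ext (funext fun t => ?_) (funext fun q => funext fun t => ?_) <;>
      simp [cupB1, ev_add_left]
  map_smul' c a := by
    refine Prod.ext (funext fun t => ?_) (funext fun q => funext fun t => ?_) <;>
      simp [cupB1, ev_smul_left]

@[simp] lemma cupB1ₗ_apply (y : C1c S (Md χ M)) (a : GQ × GQ → M) :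
    cupB1ₗ S χ M y a = cupB1 S χ M a y := rfl

variable {A B : Rep.{0} k GQ}

/-- Naturality of `cupB1`. -/
lemma cupB1_comp (u : A ⟶ B) (a : GQ × GQ → A) (y : C1c S (Md χ B)) :
    cupB1 S χ B (fun t => u.hom (a t)) y = cupB1 S χ A a (mapC1 (dMap χ u) y) := by
  refine Prod.ext (funext fun t => ?_) (funext fun q => funext fun t => ?_)
  · simp only [cupB1, mapC1, ← ev_dMap]
    exact congrArg _ (dMap_rho χ u _ _)
  · simp only [cupB1, mapC1, ← ev_dMap]
    exact congrArg _ (dMap_rho χ u _ _)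

/-- Naturality of `cupB2`. -/
lemma cupB2_comp (u : A ⟶ B) (a : GQ → A) (y : C2c S (Md χ B)) :
    cupB2 S χ B (fun t => u.hom (a t)) y = cupB2 S χ A a (mapC2 (dMap χ u) y) := by
  refine Prod.ext (funext fun t => ?_) (funext fun q => funext fun t => ?_)
  · simp only [cupB2, mapC2, ← ev_dMap]
    exact congrArg _ (dMap_rho χ u _ _)
  · simp only [cupB2, mapC2, ← ev_dMap]
    exact congrArg _ (congrArg _ (dMap_rho χ u _ _))

end cupRight

section levelRight

variable (χ : GQ →* kˣ) (M : Rep.{0} k GQ)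

/-- `(g₁, g₂) ↦ g₁ • f (g₂)` is of level `S` if `f` is. -/
lemma levS₂_rho_fst (hNC : NC S) (N : Rep.{0} k GQ) (hN : Lev S N) {f : GQ → N}
    (hf : IsLevelConstantS₁ S f) :
    IsLevelConstantS₂ S (fun t : GQ × GQ => N.ρ t.1 (f t.2)) := by
  obtain ⟨F₁, hF₁, h₁⟩ := hf
  obtain ⟨F₂, hF₂, h₂⟩ := hN
  obtain ⟨F, hle₁, hle₂, hF, hn⟩ := exists_common_level hNC hF₁ hF₂
  refine ⟨F, hF, fun g g' s s' hs hs' => ?_⟩
  show N.ρ (g * s) (f (g' * s')) = N.ρ g (f g')
  rw [h₁ g' s' (mem_fix_of_le hle₁ hs'), map_mul, Module.End.mul_apply,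
    h₂ s (mem_fix_of_le hle₂ hs)]

/-- The components of `a ∪ y` (cone on the right, degrees `(1,1)`) are level constant. -/
lemma lev_cupB11 (hNC : NC S) (hχ : LevChar S χ) (hM : Lev S M) {a : GQ → M}
    (ha : IsLevelConstantS₁ S a) {y : C1c S (Md χ M)} (hy : IsLevelConstantS₁ S y.1) :
    IsLevelConstantS₂ S (cupB11 χ M a y).1 ∧
      ∀ q : ↥S, IsLevelConstant₁ (rl q.1) ((cupB11 χ M a y).2 q) := by
  have hM' : Lev S (Md χ M) := lev_Md M hχ hM
  refine ⟨?_, fun q => ?_⟩
  · have h1 : IsLevelConstantS₂ S (fun t : GQ × GQ => a t.1) := by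
      obtain ⟨F, hF, h⟩ := ha
      exact ⟨F, hF, fun g g' s s' hs _ => h g s hs⟩
    exact levS₂_comp (levS₂_pair h1 (levS₂_rho_fst hNC (Md χ M) hM' hy))
      (fun p => ev χ M p.1 p.2)
  · exact levL₁_comp q.1 (levL₁_pair q.1 (levL₁_resOne q.1 ha)
      (levL₁_rho (Md χ M) q.1 hM' (y.2 q))) (fun p => - ev χ M p.1 p.2)

end levelRight

end Fermat.Agent.S55

end

end
-- ==== END Fermat.Agent.S55.Coh.ConeR

-- ==== BEGIN Fermat.Agent.S55.H13_E3Idx
section

/-!
# S55 (Poitou–Tate), package E3' (helper13): `Stmt_E3` with the index of the base field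

The proof of `Stmt_E3` (`H13_E3.lean`) gives a base field `K` whose degree over `ℚ` is prime to
`p`: `¬ p ∣ K.fixingSubgroup.index`.  This is the form `E3'` asked for by helper62 (the trace
properties over `K` are then formal consequences of those over `ℚ`).
-/

set_option autoImplicit false
set_option linter.style.haveILetI false
set_option linter.unusedSectionVars false
set_option linter.unusedVariables false

noncomputable section

namespace Fermat.Agent.S55.H13

open CategoryTheory Module groupCohomology ExtCitation Fermat.Agent.S55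

/-- **E3'**: `Stmt_E3` with the extra conclusion `¬ p ∣ [G_ℚ : G_K]`. -/
theorem stmt_E3_index (p : ℕ) [Fact p.Prime] (k : Type) [Field k] [CharP k p]
    (S : Finset Nat.Primes) (M : Rep.{0} k GQ) [FiniteDimensional k M]
    (hpS : pPrime p ∈ S) (hLev : Lev S M) :
    ∃ K : IntermediateField ℚ (AlgebraicClosure ℚ), IsBaseField S p K ∧
      ¬ p ∣ K.fixingSubgroup.index ∧
      ∃ N : Rep.{0} k GQ, IsRetract M N ∧ DevL k S K N ∧ DevR k S K N := by
  have hp : p.Prime := Fact.out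
  haveI := H48.qbar_isGalois
  obtain ⟨F, hF, hFM⟩ := hLev
  obtain ⟨F', hF', hχ⟩ := H48.stmt_levChar p S hpS
  haveI := hF.1
  haveI := hF'.1
  haveI : FiniteDimensional ℚ (F ⊔ F' : IntermediateField ℚ (AlgebraicClosure ℚ)) :=
    IntermediateField.finiteDimensional_sup F F'
  -- the normal subgroup `N`
  obtain ⟨N, hNdef⟩ : ∃ N : Subgroup GQ, N = M.ρ.ker ⊓ (cycloChar p).ker := ⟨_, rfl⟩
  haveI hNnorm : N.Normal := by rw [hNdef]; infer_instance
  have hNM : ∀ s ∈ N, M.ρ s = 1 := by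
    intro s hs
    rw [hNdef] at hs
    exact MonoidHom.mem_ker.mp hs.1
  have hNχ : ∀ s ∈ N, cycloChar p s = 1 := by
    intro s hs
    rw [hNdef] at hs
    exact MonoidHom.mem_ker.mp hs.2
  have hle : (F ⊔ F').fixingSubgroup ≤ N := by
    intro s hs
    rw [IntermediateField.fixingSubgroup_sup] at hs
    rw [hNdef]
    refine ⟨MonoidHom.mem_ker.mpr ?_, MonoidHom.mem_ker.mpr (hχ s hs.2)⟩
    apply LinearMap.ext
    intro m
    exact hFM s hs.1 m
  obtain ⟨hLfix, hLle, hfinN⟩ := fixedField_of_le (F ⊔ F') N hle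
  obtain ⟨L, hLdef⟩ : ∃ L : IntermediateField ℚ (AlgebraicClosure ℚ),
      L = IntermediateField.fixedField N := ⟨_, rfl⟩
  rw [← hLdef] at hLfix hLle
  have hLS : L.IsUnramifiedOutside S := (hF.sup hF').of_le hLle
  -- a Sylow subgroup and its preimage
  haveI : Finite (GQ ⧸ N) := hfinN
  obtain ⟨P⟩ : Nonempty (Sylow p (GQ ⧸ N)) := inferInstance
  obtain ⟨H₀, hH₀def⟩ : ∃ H₀ : Subgroup GQ,
      H₀ = (P : Subgroup (GQ ⧸ N)).comap (QuotientGroup.mk' N) := ⟨_, rfl⟩
  have hNH : N ≤ H₀ := by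
    intro s hs
    rw [hH₀def, Subgroup.mem_comap, QuotientGroup.mk'_apply, (QuotientGroup.eq_one_iff s).mpr hs]
    exact one_mem _
  obtain ⟨hKfix, hKle, hfinH⟩ := fixedField_of_le (F ⊔ F') H₀ (hle.trans hNH)
  obtain ⟨K, hKdef⟩ : ∃ K : IntermediateField ℚ (AlgebraicClosure ℚ),
      K = IntermediateField.fixedField H₀ := ⟨_, rfl⟩
  rw [← hKdef] at hKfix hKle
  have hKS : K.IsUnramifiedOutside S := (hF.sup hF').of_le hKle
  -- `H₀` acts through a `p`-group
  have hpow : ∀ h ∈ H₀, ∃ n : ℕ, h ^ (p ^ n) ∈ N := by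
    intro h hh
    rw [hH₀def, Subgroup.mem_comap] at hh
    obtain ⟨n, hn⟩ := P.isPGroup' ⟨QuotientGroup.mk' N h, hh⟩
    refine ⟨n, ?_⟩
    have h1 := congrArg Subtype.val hn
    rw [Subgroup.coe_pow, Subgroup.coe_one] at h1
    rw [← QuotientGroup.eq_one_iff]
    exact h1
  -- the root of unity
  obtain ⟨ζ, hζ⟩ := H48.exists_primitiveRoot p
  have hχH : ∀ h ∈ H₀, cycloChar p h = 1 := by
    intro h hh
    obtain ⟨n, hn⟩ := hpow h hh
    have h1 : cycloChar p h ^ (p ^ n) = 1 := by rw [← map_pow]; exact hNχ _ hn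
    have h2 : cycloChar p h ^ (p - 1) = 1 := by
      have := ZMod.units_pow_card_sub_one_eq_one p (cycloChar p h)
      exact this
    have hcop : Nat.Coprime (p ^ n) (p - 1) := by
      apply Nat.Coprime.pow_left
      have h2le := hp.two_le
      exact Nat.coprime_of_lt_prime (by omega) (by omega) hp
    have h3 := orderOf_dvd_of_pow_eq_one h1
    have h4 := orderOf_dvd_of_pow_eq_one h2
    have h5 : orderOf (cycloChar p h) ∣ 1 := by
      rw [← Nat.Coprime.gcd_eq_one hcop]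
      exact Nat.dvd_gcd h3 h4
    exact orderOf_eq_one_iff.mp (Nat.dvd_one.mp h5)
  have hζK : ζ ∈ K := by
    rw [hKdef, IntermediateField.mem_fixedField_iff]
    intro h hh
    exact fix_of_cycloChar_eq_one p h (hχH h hh) ζ hζ.pow_eq_one
  -- index prime to `p`
  haveI : (P : Subgroup (GQ ⧸ N)).FiniteIndex := inferInstance
  have hidx : ¬ p ∣ H₀.index := by
    rw [hH₀def, Subgroup.index_comap_of_surjective _ (QuotientGroup.mk'_surjective N)]
    exact P.not_dvd_index
  -- transport to `K.fixingSubgroup`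
  haveI hfinK : Finite (GQ ⧸ K.fixingSubgroup) := by rw [hKfix]; exact hfinH
  letI : Fintype (GQ ⧸ K.fixingSubgroup) := Fintype.ofFinite _
  have hcard : (Fintype.card (GQ ⧸ K.fixingSubgroup) : k) ≠ 0 := by
    rw [← Nat.card_eq_fintype_card, ← Subgroup.index_eq_card, hKfix]
    intro h0
    exact hidx ((CharP.cast_eq_zero_iff k p _).mp h0)
  have hnormL : L.fixingSubgroup.Normal := by rw [hLfix]; exact hNnorm
  have hLK : L.fixingSubgroup ≤ K.fixingSubgroup := by rw [hLfix, hKfix]; exact hNH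
  haveI : L.fixingSubgroup.FiniteIndex := by
    rw [hLfix]
    exact Subgroup.finiteIndex_of_finite_quotient
  haveI : (L.fixingSubgroup.subgroupOf K.fixingSubgroup).FiniteIndex := inferInstance
  have hpK : ∀ h : K.fixingSubgroup, ∃ n : ℕ,
      h ^ (p ^ n) ∈ L.fixingSubgroup.subgroupOf K.fixingSubgroup := by
    intro h
    have hh : (h : GQ) ∈ H₀ := by rw [← hKfix]; exact h.2
    obtain ⟨n, hn⟩ := hpow h hh
    refine ⟨n, ?_⟩
    rw [Subgroup.mem_subgroupOf, hLfix]
    exact hn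
  have htriv : TrivOn K L (Rep.res K.fixingSubgroup.subtype M) := by
    intro h hh
    rw [hLfix] at hh
    exact hNM _ hh
  haveI : FiniteDimensional k (Rep.res K.fixingSubgroup.subtype M) :=
    inferInstanceAs (FiniteDimensional k M)
  have hdev := dev_ind p S K L hLS hnormL hLK hpK _ (Rep.res K.fixingSubgroup.subtype M) rfl htriv
  have hidxK : ¬ p ∣ K.fixingSubgroup.index := by rw [hKfix]; exact hidx
  exact ⟨K, ⟨hKS, ζ, hζK, hζ⟩, hidxK, Ind K.fixingSubgroup (Rep.res K.fixingSubgroup.subtype M),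
    isRetract_ind K.fixingSubgroup M hcard, hdev.1, hdev.2⟩

end Fermat.Agent.S55.H13

end
end
-- ==== END Fermat.Agent.S55.H13_E3Idx
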