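-- GENERATED (merged mirror, NOTES/tools/trim/merge3_helper67.py): 10 modules of the originals, bodies verbatim.
import Mathlib.NumberTheory.Padics.RingHoms
import Fermat.Agent.Zm.S56_L06_000
import Fermat.Agent.Zm.S56_L05_003
import Fermat.Agent.Zm.S56_L05_001
import Fermat.Agent.Zm.S56_L02_003
import Fermat.Agent.Zm.S56_L01_003
import Fermat.Agent.Zm.S56_L06_002
import Fermat.Agent.Zm.S56_L05_002
import Fermat.Agent.Zm.S56_L06_001
import Fermat.Agent.Zm.S56_L06_003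

-- ==== BEGIN Fermat.Agent.S55.CFT.GS.H6_H90
section

set_option autoImplicit false

noncomputable section

namespace Fermat.Agent.S55.CFT.GS.H6

open Fermat.Agent.S55 Fermat.Agent.S55.Top groupCohomology

/-- Hilbert 90 for a finite normal extension `L / K`, for cochains on a group `G` mapping onto
`Gal(L/K)`. -/
theorem hilbert90_abstract {K L G : Type*} [Field K] [Field L] [Algebra K L]
    [FiniteDimensional K L] [Group G]
    (res : G →* Gal(L/K)) (hsurj : Function.Surjective res) (b : G → L) (hb0 : ∀ g, b g ≠ 0)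
    (hfac : ∀ g g', res g = res g' → b g = b g')
    (hcoc : ∀ g h, b (g * h) = res g (b h) * b g) :
    ∃ β : L, β ≠ 0 ∧ ∀ g, b g * β = res g β := by
  let lift : Gal(L/K) → G := fun τ => (hsurj τ).choose
  have hlift : ∀ τ, res (lift τ) = τ := fun τ => (hsurj τ).choose_spec
  let f : Gal(L/K) → Lˣ := fun τ => Units.mk0 (b (lift τ)) (hb0 _)
  have hf_val : ∀ g : G, ((f (res g) : Lˣ) : L) = b g := by
    intro g
    show b (lift (res g)) = b g
    exact hfac _ _ (hlift _)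
  have hfcoc : IsMulCocycle₁ f := by
    intro τ τ'
    apply Units.ext
    have h1 : τ * τ' = res (lift τ * lift τ') := by rw [map_mul, hlift, hlift]
    have h2 : ((f (τ * τ') : Lˣ) : L) = b (lift τ * lift τ') := by
      rw [h1]; exact hf_val _
    rw [h2, hcoc, hlift]
    rfl
  obtain ⟨β, hβ⟩ := isMulCoboundary₁_of_isMulCocycle₁_of_aut_to_units f hfcoc
  refine ⟨(β : L), β.ne_zero, fun g => ?_⟩
  have h1 : ((res g • β / β : Lˣ) : L) = ((f (res g) : Lˣ) : L) :=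
    congrArg (fun u : Lˣ => (u : L)) (hβ (res g))
  rw [hf_val] at h1
  rw [← h1, Units.val_div_eq_div_val, div_mul_cancel₀ _ β.ne_zero]
  rfl

local notation "Qb" => AlgebraicClosure ℚ

theorem qb_isAlgebraic : Algebra.IsAlgebraic ℚ Qb := AlgebraicClosure.isAlgebraic ℚ

attribute [local instance] qb_isAlgebraic

theorem qb_isAlgClosure : IsAlgClosure ℚ Qb := ⟨inferInstance, inferInstance⟩

attribute [local instance] qb_isAlgClosure

theorem qb_normal : Normal ℚ Qb := IsAlgClosure.normal ℚ Qb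

attribute [local instance] qb_normal

theorem qb_isGalois : IsGalois ℚ Qb := ⟨⟩

attribute [local instance] qb_isGalois

section core

variable (K N : IntermediateField ℚ Qb)

/-- `N` is stable under `G_ℚ` if its fixing subgroup is normal. -/
theorem map_mem_of_normal (hN : N.fixingSubgroup.Normal) (σ : GQ) (x : Qb) (hx : x ∈ N) :
    σ x ∈ N := by
  have hG : IsGalois ℚ N := (InfiniteGalois.normal_iff_isGalois N).mp hN
  have hn : Normal ℚ N := IsGalois.to_normal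
  have h := (IntermediateField.normal_iff_forall_map_le' (K := N)).mp hn σ
  exact h ⟨x, hx, rfl⟩

variable {K N} (hKN : K ≤ N)

/-- `N` as an intermediate field of `ℚ̄ / K`. -/
abbrev NK : IntermediateField K Qb := IntermediateField.extendScalars hKN

theorem normal_NK (hN : N.fixingSubgroup.Normal) : Normal K (NK hKN) := by
  have : Normal K Qb := Normal.tower_top_of_normal ℚ K Qb
  rw [IntermediateField.normal_iff_forall_map_le']
  rintro σ _ ⟨x, hx, rfl⟩
  exact map_mem_of_normal N hN (σ.restrictScalars ℚ) x hx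

theorem finiteDimensional_NK [FiniteDimensional ℚ N] : FiniteDimensional K (NK hKN) := by
  have : FiniteDimensional ℚ (NK hKN) := ‹FiniteDimensional ℚ N›
  exact FiniteDimensional.right ℚ K (NK hKN)

include hKN in
/-- **Hilbert 90 for `N / K` in the language of `G_K`-cochains.** -/
theorem hilbert90_core [FiniteDimensional ℚ N] (hN : N.fixingSubgroup.Normal)
    (b : ↥K.fixingSubgroup → Qbˣ)
    (hlev : ∀ g s : ↥K.fixingSubgroup, (s : GQ) ∈ N.fixingSubgroup → b (g * s) = b g)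
    (hval : ∀ g, (b g : Qb) ∈ N) (hcoc : mOne b = 1) :
    ∃ t : Qbˣ, (t : Qb) ∈ N ∧ ∀ g, b g = g • t / t := by
  have := normal_NK hKN hN
  have := finiteDimensional_NK hKN
  -- the restriction map `G_K → Gal(N/K)`
  let e : ↥K.fixingSubgroup ≃* (Qb ≃ₐ[K] Qb) := IntermediateField.fixingSubgroupEquiv K
  let res : ↥K.fixingSubgroup →* (NK hKN ≃ₐ[K] NK hKN) :=
    (AlgEquiv.restrictNormalHom (F := K) (K₁ := Qb) (NK hKN)).comp e.toMonoidHom
  have hres_apply : ∀ (g : ↥K.fixingSubgroup) (x : NK hKN),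
      ((res g x : NK hKN) : Qb) = (g : GQ) (x : Qb) := by
    intro g x
    exact AlgEquiv.restrictNormal_commutes (e g) (NK hKN) x
  have hres_surj : Function.Surjective res := by
    intro τ
    obtain ⟨σ, hσ⟩ := AlgEquiv.restrictNormalHom_surjective (F := K) (K₁ := NK hKN) Qb τ
    exact ⟨e.symm σ, by simpa [res] using hσ⟩
  -- `b` factors through `res`
  have hfac : ∀ g g' : ↥K.fixingSubgroup, res g = res g' → b g = b g' := by
    intro g g' h
    have hs : ((g⁻¹ * g' : ↥K.fixingSubgroup) : GQ) ∈ N.fixingSubgroup := by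
      rw [IntermediateField.mem_fixingSubgroup_iff]
      intro x hx
      have h1 : res (g⁻¹ * g') = 1 := by rw [map_mul, map_inv, h, inv_mul_cancel]
      have h2 := hres_apply (g⁻¹ * g') ⟨x, hx⟩
      rw [h1] at h2
      exact h2.symm
    have := hlev g (g⁻¹ * g') hs
    rw [mul_inv_cancel_left] at this
    exact this.symm
  -- the cocycle relation
  have hcoc' : ∀ g h : ↥K.fixingSubgroup, b (g * h) = g • b h * b g := by
    intro g h
    have h1 := congrFun hcoc (g, h)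
    simp only [mOne, Pi.one_apply] at h1
    rw [div_mul_eq_mul_div, div_eq_one] at h1
    exact h1.symm
  obtain ⟨β, hβ0, hβ⟩ := hilbert90_abstract res hres_surj
    (fun g => (⟨(b g : Qb), (hval g : (b g : Qb) ∈ NK hKN)⟩ : NK hKN))
    (fun g h => (b g).ne_zero (congrArg Subtype.val h))
    (fun g g' h => Subtype.ext (congrArg (fun u : Qbˣ => (u : Qb)) (hfac g g' h)))
    (fun g h => by
      apply Subtype.ext
      show (b (g * h) : Qb) = ((res g ⟨(b h : Qb), hval h⟩ : NK hKN) : Qb) * (b g : Qb)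
      rw [hres_apply, hcoc']
      rfl)
  have hβ0' : (β : Qb) ≠ 0 := fun h => hβ0 (Subtype.ext h)
  refine ⟨Units.mk0 (β : Qb) hβ0', β.2, fun g => ?_⟩
  apply Units.ext
  rw [Units.val_div_eq_div_val, eq_div_iff (by exact hβ0')]
  have h1 := congrArg Subtype.val (hβ g)
  rw [hres_apply] at h1
  exact h1

end core

section level

variable (S : Finset Nat.Primes)

/-- Finitely many elements of `Ω` lie in one field of level `S`. -/
theorem exists_level_of_finite (T : Set Qb) (hT : T.Finite) (h : ∀ x ∈ T, InOm S x) :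
    ∃ N : IntermediateField ℚ Qb, N.IsUnramifiedOutside S ∧ ∀ x ∈ T, x ∈ N := by
  induction T, hT using Set.Finite.induction_on with
  | empty => exact ⟨⊥, IntermediateField.isUnramifiedOutside_bot S, fun x hx => absurd hx (by simp)⟩
  | @insert a s _ _ ih =>
    obtain ⟨N, hN, hsN⟩ := ih (fun x hx => h x (Set.mem_insert_of_mem a hx))
    obtain ⟨F, hF, haF⟩ := h a (Set.mem_insert a s)
    refine ⟨N ⊔ F, hN.sup hF, fun x hx => ?_⟩
    rcases hx with rfl | hx
    · exact (le_sup_right : F ≤ N ⊔ F) haF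
    · exact (le_sup_left : N ≤ N ⊔ F) (hsN x hx)

/-- A level-`S` function on `G_K` takes finitely many values. -/
theorem finite_range_of_isLevK₁ {X : Type*} (K : IntermediateField ℚ Qb)
    (hK : K.IsUnramifiedOutside S) (b : ↥K.fixingSubgroup → X) (hlev : IsLevK₁ S K b) :
    (Set.range b).Finite := by
  classical
  obtain ⟨F, hF, hb⟩ := hlev
  have hM : (K ⊔ F).IsUnramifiedOutside S := hK.sup hF
  have hfd := hM.1
  have hfin : Finite (GQ ⧸ (K ⊔ F).fixingSubgroup) :=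
    Subgroup.quotient_finite_of_isOpen (K ⊔ F).fixingSubgroup (K ⊔ F).fixingSubgroup_isOpen
  let π : ↥K.fixingSubgroup → GQ ⧸ (K ⊔ F).fixingSubgroup := fun g => ((g : GQ) : GQ ⧸ _)
  have hπ : ∀ g g' : ↥K.fixingSubgroup, π g = π g' → b g = b g' := by
    intro g g' h
    have h1 : (g : GQ)⁻¹ * (g' : GQ) ∈ (K ⊔ F).fixingSubgroup := QuotientGroup.eq.mp h
    have h2 : ((g⁻¹ * g' : ↥K.fixingSubgroup) : GQ) ∈ F.fixingSubgroup :=
      IntermediateField.fixingSubgroup_antitone (le_sup_right : F ≤ K ⊔ F) h1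
    have := hb g (g⁻¹ * g') h2
    rw [mul_inv_cancel_left] at this
    exact this.symm
  rcases isEmpty_or_nonempty X with hX | ⟨⟨x₀⟩⟩
  · exact Set.toFinite _
  let c : GQ ⧸ (K ⊔ F).fixingSubgroup → X := fun x =>
    if h : ∃ g, π g = x then b h.choose else x₀
  refine (Set.finite_range c).subset ?_
  rintro _ ⟨g, rfl⟩
  refine ⟨π g, ?_⟩
  have hex : ∃ g', π g' = π g := ⟨g, rfl⟩
  show (if h : ∃ g', π g' = π g then b h.choose else x₀) = b g
  rw [dif_pos hex]
  exact hπ _ _ hex.choose_spec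

end level

/-- **GS-H90** : Hilbert 90 at level `S`. -/
theorem stmt_GS_H90 : Stmt_GS_H90 := by
  intro S K hK b hlev hval hcoc
  -- the values of `b`
  have hfin : (Set.range (fun g => (b g : Qb))).Finite := by
    have := finite_range_of_isLevK₁ S K hK b hlev
    have h2 : Set.range (fun g => (b g : Qb)) = (fun u : Qbˣ => (u : Qb)) '' Set.range b := by
      ext x
      constructor
      · rintro ⟨g, rfl⟩
        exact ⟨b g, ⟨g, rfl⟩, rfl⟩
      · rintro ⟨_, ⟨g, rfl⟩, rfl⟩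
        exact ⟨g, rfl⟩
    rw [h2]
    exact this.image _
  obtain ⟨N₁, hN₁, hval₁⟩ := exists_level_of_finite S _ hfin (by
    rintro _ ⟨g, rfl⟩
    exact hval g)
  obtain ⟨F, hF, hb⟩ := hlev
  obtain ⟨N, hle, hNS, hNn⟩ := Fermat.Agent.S55.H48.exists_normal_level S (K ⊔ F ⊔ N₁)
    ((hK.sup hF).sup hN₁)
  have hKN : K ≤ N := (le_sup_left.trans le_sup_left).trans hle
  have hFN : F ≤ N := (le_sup_right.trans le_sup_left).trans hle
  have hN₁N : N₁ ≤ N := le_sup_right.trans hle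
  have := hNS.1
  obtain ⟨t, htN, ht⟩ := hilbert90_core hKN hNn b
    (fun g s hs => hb g s (IntermediateField.fixingSubgroup_antitone hFN hs))
    (fun g => hN₁N (hval₁ _ ⟨g, rfl⟩)) hcoc
  exact ⟨t, ⟨N, hNS, htN⟩, ht⟩

end Fermat.Agent.S55.CFT.GS.H6

end
end
-- ==== END Fermat.Agent.S55.CFT.GS.H6_H90

-- ==== BEGIN Fermat.Agent.S55.CFT.H96_DegGrow
section

set_option autoImplicit false

open NumberField TensorProduct

noncomputable section

namespace Fermat.Agent.S55.CFT.H96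

open Fermat.Agent.S55.CFT Fermat.Agent.S55.CFT.H80

/-- The prime of a place of `K` over `q` lies over `q`. -/
theorem placeQ_liesOver (K : Type) [Field K] [NumberField K] (q : Nat.Primes)
    (𝔪 : MaximalSpectrum (SemiLocal K q)) :
    (placeQ K q 𝔪).LiesOver (Ideal.span {(((q : ℕ) : ℤ))}) := by
  have hp := placeQ_isPrime K q 𝔪
  have hqf : Fact ((q : ℕ)).Prime := ⟨q.2⟩
  constructor
  refine Ideal.IsMaximal.eq_of_le (Int.ideal_span_isMaximal_of_prime (q : ℕ))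
    Ideal.IsPrime.ne_top' ?_
  rw [Ideal.span_singleton_le_iff_mem, Ideal.mem_comap, algebraMap_int_eq, map_natCast]
  exact placeQ_mem K q 𝔪

/-- **DEG-GROW**. -/
theorem stmt_DegGrow : Stmt_DegGrow := by
  intro p k K _ _ hp hζK v
  obtain ⟨q, 𝔪⟩ := v
  have hqf : Fact ((q : ℕ)).Prime := ⟨q.2⟩
  have hnK : 0 < Module.finrank ℚ K := Module.finrank_pos
  refine ⟨(q : ℕ) * (p ^ k * Module.finrank ℚ K) + p ^ k * Module.finrank ℚ K + 1,
    fun M hM L _ _ _ hcyc => ?_⟩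
  obtain ⟨M', rfl⟩ : ∃ M', M = M' + 1 := ⟨M - 1, by omega⟩
  have hM' : (q : ℕ) * (p ^ k * Module.finrank ℚ K) + p ^ k * Module.finrank ℚ K ≤ M' := by
    omega
  rw [card_maxSpec_locAlg K L q 𝔪]
  have h𝔭 : (placeQ K q 𝔪).IsPrime := placeQ_isPrime K q 𝔪
  have h𝔭q : (placeQ K q 𝔪).LiesOver (Ideal.span {(((q : ℕ) : ℤ))}) := placeQ_liesOver K q 𝔪
  have hne : NeZero (p ^ (M' + 1)) := ⟨(pow_pos hp.pos _).ne'⟩
  have hgal : IsGalois K L := IsCyclotomicExtension.isGalois {p ^ (M' + 1)} K L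
  have hfund := Ideal.ncard_primesOver_mul_ramificationIdxIn_mul_inertiaDegIn (placeQ K q 𝔪)
    (𝓞 L) (L ≃ₐ[K] L)
  rw [IsGalois.card_aut_eq_finrank] at hfund
  obtain ⟨⟨𝔓, h𝔓p, h𝔓o⟩⟩ := (placeQ K q 𝔪).nonempty_primesOver (S := 𝓞 L)
  rw [Ideal.ramificationIdxIn_eq_ramificationIdx (placeQ K q 𝔪) 𝔓 (L ≃ₐ[K] L),
    Ideal.inertiaDegIn_eq_inertiaDeg (placeQ K q 𝔪) 𝔓 (L ≃ₐ[K] L)] at hfund
  have h𝔓q : 𝔓.LiesOver (Ideal.span {(((q : ℕ) : ℤ))}) :=
    Ideal.LiesOver.trans 𝔓 (placeQ K q 𝔪) _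
  have te : 𝔓.ramificationIdx ℤ
      = (placeQ K q 𝔪).ramificationIdx ℤ * 𝔓.ramificationIdx (𝓞 K) :=
    Ideal.ramificationIdx_tower (placeQ K q 𝔪) 𝔓
  have tf : 𝔓.inertiaDeg ℤ = (placeQ K q 𝔪).inertiaDeg ℤ * 𝔓.inertiaDeg (𝓞 K) :=
    Ideal.inertiaDeg_tower (placeQ K q 𝔪) 𝔓
  have hle := ef_le_finrank K (q : ℕ) (placeQ K q 𝔪)
  have hζ := IsCyclotomicExtension.zeta_spec (p ^ (M' + 1)) K L
  have hge := le_ef_of_primitiveRoot p M' (q : ℕ) (p ^ k * Module.finrank ℚ K) hp L hζ hM' 𝔓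
  have hpk : p ^ k ≤ 𝔓.ramificationIdx (𝓞 K) * 𝔓.inertiaDeg (𝓞 K) := by
    rw [te, tf] at hge
    have h1 : p ^ k * Module.finrank ℚ K
        ≤ Module.finrank ℚ K * (𝔓.ramificationIdx (𝓞 K) * 𝔓.inertiaDeg (𝓞 K)) := by
      calc p ^ k * Module.finrank ℚ K
          ≤ (placeQ K q 𝔪).ramificationIdx ℤ * 𝔓.ramificationIdx (𝓞 K)
            * ((placeQ K q 𝔪).inertiaDeg ℤ * 𝔓.inertiaDeg (𝓞 K)) := hge
        _ = ((placeQ K q 𝔪).ramificationIdx ℤ * (placeQ K q 𝔪).inertiaDeg ℤ)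
            * (𝔓.ramificationIdx (𝓞 K) * 𝔓.inertiaDeg (𝓞 K)) := by ring
        _ ≤ Module.finrank ℚ K * (𝔓.ramificationIdx (𝓞 K) * 𝔓.inertiaDeg (𝓞 K)) :=
            Nat.mul_le_mul_right _ hle
    rw [mul_comm (p ^ k)] at h1
    exact Nat.le_of_mul_le_mul_left h1 hnK
  obtain ⟨a, ha⟩ := finrank_eq_prime_pow p M' hp K L hζK
  have hdvd : 𝔓.ramificationIdx (𝓞 K) * 𝔓.inertiaDeg (𝓞 K) ∣ p ^ a :=
    ⟨((placeQ K q 𝔪).primesOver (𝓞 L)).ncard, by rw [← ha, ← hfund]; ring⟩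
  obtain ⟨b, -, hef⟩ := (Nat.dvd_prime_pow hp).mp hdvd
  have hkb : k ≤ b := by
    by_contra hlt
    push Not at hlt
    have : p ^ b < p ^ k := Nat.pow_lt_pow_right hp.one_lt hlt
    omega
  rw [← hfund, mul_comm (p ^ k)]
  exact Nat.mul_dvd_mul_left _ (hef ▸ pow_dvd_pow p hkb)

end Fermat.Agent.S55.CFT.H96

end
end
-- ==== END Fermat.Agent.S55.CFT.H96_DegGrow

-- ==== BEGIN Fermat.Agent.S55.CFT.H96_UnnGlobal
section

set_option autoImplicit false
set_option linter.unusedSectionVars false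

open NumberField

noncomputable section

namespace Fermat.Agent.S55.CFT.H96

open Fermat.Agent.S55.CFT

variable (K L : Type) [Field K] [Field L] [NumberField K] [NumberField L] [Algebra K L]
  (T : Finset Nat.Primes)

/-- A prime ideal containing `q ∉ T` contains no prime of `T`. -/
theorem notMem_of_mem_of_notMem {q : Nat.Primes} (hq : q ∉ T) (Q : Ideal (𝓞 L)) [hQ : Q.IsPrime]
    (hqQ : ((q : ℕ) : 𝓞 L) ∈ Q) : ∀ q' ∈ T, (((q' : ℕ) : ℤ) : 𝓞 L) ∉ Q := by
  intro q' hq' hmem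
  have hne : q ≠ q' := fun h => hq (h ▸ hq')
  have hcop : Nat.Coprime (q : ℕ) (q' : ℕ) :=
    (Nat.coprime_primes q.2 q'.2).mpr (fun h => hne (Subtype.ext h))
  have h1 : IsCoprime ((q : ℕ) : ℤ) ((q' : ℕ) : ℤ) := Nat.isCoprime_iff_coprime.mpr hcop
  obtain ⟨a, b, hab⟩ := h1
  have h2 : ((a * ((q : ℕ) : ℤ) + b * ((q' : ℕ) : ℤ) : ℤ) : 𝓞 L) ∈ Q := by
    push_cast
    refine Q.add_mem (Q.mul_mem_left _ ?_) (Q.mul_mem_left _ ?_)
    · exact_mod_cast hqQ
    · exact_mod_cast hmem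
  rw [hab] at h2
  apply hQ.ne_top
  rw [Ideal.eq_top_iff_one]
  exact_mod_cast h2

variable [IsGalois K L]

/-- Above every maximal ideal of `𝓞 K` containing `q ∉ T` there is a prime of `𝓞 L` with finite
residue field and trivial inertia. -/
theorem exists_prime_over (hunr : UnramifiedOutsideT K L T) {q : Nat.Primes} (hq : q ∉ T)
    (M : Ideal (𝓞 K)) [hM : M.IsMaximal] (hqM : ((q : ℕ) : 𝓞 K) ∈ M) :
    ∃ Q : Ideal (𝓞 L), Q.IsMaximal ∧ Q.LiesOver M ∧ Finite (𝓞 L ⧸ Q) ∧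
      Q.inertia (L ≃ₐ[K] L) = ⊥ := by
  obtain ⟨Q, hQ, hQM⟩ := Ideal.exists_ideal_over_maximal_of_isIntegral (S := 𝓞 L) M (by
    rw [(RingHom.injective_iff_ker_eq_bot _).mp (RingOfIntegers.algebraMap.injective K L)]
    exact bot_le)
  have hlies : Q.LiesOver M := ⟨hQM.symm⟩
  have hqQ : ((q : ℕ) : 𝓞 L) ∈ Q := by
    have := (Ideal.mem_of_liesOver Q M ((q : ℕ) : 𝓞 K)).mp hqM
    rwa [map_natCast] at this
  have hQ0 : Q ≠ ⊥ := by
    intro h
    rw [h, Ideal.mem_bot] at hqQ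
    have : ((q : ℕ) : 𝓞 L) ≠ 0 := by
      rw [Nat.cast_ne_zero]
      exact q.2.ne_zero
    exact this hqQ
  have hQp : Q.IsPrime := hQ.isPrime
  exact ⟨Q, hQ, hlies, Ideal.finiteQuotientOfFreeOfNeBot Q hQ0,
    hunr Q hQp hQ0 (notMem_of_mem_of_notMem L T hq Q hqQ)⟩

/-- **Trace**: there is `t ∈ 𝓞 L` with `Tr_{L/K}(t) ≡ 1 mod q`. -/
theorem exists_trace_one (hunr : UnramifiedOutsideT K L T) {q : Nat.Primes} (hq : q ∉ T) :
    ∃ t : 𝓞 L, ∃ τ : 𝓞 K, algebraMap (𝓞 K) (𝓞 L) τ = ∑ g : L ≃ₐ[K] L, g • t ∧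
      τ - 1 ∈ Ideal.span {((q : ℕ) : 𝓞 K)} := by
  refine exists_trace_glue (G := L ≃ₐ[K] L) (Ideal.span {((q : ℕ) : 𝓞 K)}) (fun M hM hle => ?_)
  have hqM : ((q : ℕ) : 𝓞 K) ∈ M := hle (Ideal.mem_span_singleton_self _)
  obtain ⟨Q, hQ, hlies, hfin, hin⟩ := exists_prime_over K L T hunr hq M hqM
  obtain ⟨t, ht⟩ := exists_sum_smul_notMem (G := L ≃ₐ[K] L) M Q hin
  obtain ⟨τ, hτ⟩ := exists_algebraMap_eq_sum_smul (𝓞 K) (L ≃ₐ[K] L) t
  refine ⟨t, τ, hτ, fun hmem => ht ?_⟩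
  rw [← hτ]
  exact (Ideal.mem_of_liesOver Q M τ).mp hmem

/-- **Norm**: every `a ∈ 𝓞 K` is congruent modulo `rad(q)` to a norm from `𝓞 L`. -/
theorem exists_norm_radical (hunr : UnramifiedOutsideT K L T) {q : Nat.Primes} (hq : q ∉ T)
    (a : 𝓞 K) :
    ∃ y : 𝓞 L, ∃ n : 𝓞 K, algebraMap (𝓞 K) (𝓞 L) n = ∏ g : L ≃ₐ[K] L, g • y ∧
      n - a ∈ (Ideal.span {((q : ℕ) : 𝓞 K)}).radical := by
  classical
  set I : Ideal (𝓞 K) := Ideal.span {((q : ℕ) : 𝓞 K)} with hI
  have hfin : I.minimalPrimes.Finite := Ideal.finite_minimalPrimes_of_isNoetherianRing _ I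
  have hq0 : ((q : ℕ) : 𝓞 K) ≠ 0 := by
    rw [Nat.cast_ne_zero]
    exact q.2.ne_zero
  have hprop : ∀ 𝔭 ∈ hfin.toFinset, 𝔭.IsMaximal ∧ ((q : ℕ) : 𝓞 K) ∈ 𝔭 := by
    intro 𝔭 h𝔭
    rw [Set.Finite.mem_toFinset] at h𝔭
    have h1 : 𝔭.IsPrime := h𝔭.1.1
    have h2 : ((q : ℕ) : 𝓞 K) ∈ 𝔭 := h𝔭.1.2 (Ideal.mem_span_singleton_self _)
    refine ⟨h1.isMaximal ?_, h2⟩
    intro h
    rw [h, Ideal.mem_bot] at h2
    exact hq0 h2
  have key : ∀ 𝔭 ∈ hfin.toFinset,
      (∀ x : 𝓞 K, algebraMap (𝓞 K) (𝓞 L) x ∈ 𝔭.map (algebraMap (𝓞 K) (𝓞 L)) → x ∈ 𝔭) ∧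
      ∃ y : 𝓞 L, ∃ n : 𝓞 K, algebraMap (𝓞 K) (𝓞 L) n = ∏ g : L ≃ₐ[K] L, g • y ∧ n - a ∈ 𝔭 := by
    intro 𝔭 h𝔭
    obtain ⟨hmax, hq𝔭⟩ := hprop 𝔭 h𝔭
    obtain ⟨Q, hQ, hlies, hfinQ, hin⟩ := exists_prime_over K L T hunr hq 𝔭 hq𝔭
    refine ⟨fun x hx => ?_, ?_⟩
    · refine (Ideal.mem_of_liesOver Q 𝔭 x).mpr ?_
      have hle : 𝔭.map (algebraMap (𝓞 K) (𝓞 L)) ≤ Q := by
        rw [Ideal.map_le_iff_le_comap]
        intro z hz
        exact (Ideal.mem_of_liesOver Q 𝔭 z).mp hz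
      exact hle hx
    · obtain ⟨y, hy⟩ := exists_prod_smul_sub_mem (G := L ≃ₐ[K] L) 𝔭 Q hin a
      obtain ⟨n, hn⟩ := exists_algebraMap_eq_prod_smul (𝓞 K) (L ≃ₐ[K] L) y
      refine ⟨y, n, hn, (Ideal.mem_of_liesOver Q 𝔭 _).mpr ?_⟩
      rw [map_sub, hn]
      exact hy
  obtain ⟨y, n, hn, hmem⟩ := exists_norm_glue (G := L ≃ₐ[K] L) hfin.toFinset
    (fun 𝔭 h => (hprop 𝔭 h).1) (fun 𝔭 h => (key 𝔭 h).1) a (fun 𝔭 h => (key 𝔭 h).2)
  refine ⟨y, n, hn, ?_⟩
  rw [← Ideal.sInf_minimalPrimes, Submodule.mem_sInf]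
  intro 𝔭 h𝔭
  exact hmem 𝔭 ((Set.Finite.mem_toFinset hfin).mpr h𝔭)

end Fermat.Agent.S55.CFT.H96

end
end
-- ==== END Fermat.Agent.S55.CFT.H96_UnnGlobal

-- ==== BEGIN Fermat.Agent.S55.CFT.LOC.H25_Frob
section

set_option autoImplicit false
set_option linter.unusedSectionVars false
set_option linter.style.haveILetI false

namespace Fermat.Agent.S55.CFT.LOC.H25

open Fermat.Agent.S55.CFT.LOC

section frob

variable (q : ℕ) [Fact q.Prime] (F E : Type) [Field F] [Field E] [Algebra ℚ_[q] F]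
  [FiniteDimensional ℚ_[q] F] [Algebra ℚ_[q] E] [FiniteDimensional ℚ_[q] E] [Algebra F E]
  [IsScalarTower ℚ_[q] F E] [FiniteDimensional F E]

variable {n : ℕ} (hn : 0 < n) {ζ : E} (hζ : IsPrimitiveRoot ζ (resCard q F ^ n - 1))
  [IsCyclotomicExtension {resCard q F ^ n - 1} F E]

include hn hζ

/-- The order of `N` modulo `N ^ n - 1` is `n`. -/
theorem orderOf_unitN : orderOf (unitN q F hn) = n := by
  have hN := two_le_resCard q F
  have hpos := pow_resCard_sub_one_pos q F hn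
  refine le_antisymm (Nat.le_of_dvd hn (orderOf_dvd_of_pow_eq_one (unitN_pow q F hn))) ?_
  by_contra hlt
  push Not at hlt
  set k := orderOf (unitN q F hn) with hk
  have hk0 : 0 < k := orderOf_pos_iff.mpr (isOfFinOrder_iff_pow_eq_one.mpr ⟨n, hn, unitN_pow q F hn⟩)
  have h1 : unitN q F hn ^ k = 1 := pow_orderOf_eq_one _
  have h2 := congrArg (fun u : (ZMod (resCard q F ^ n - 1))ˣ => (u : ZMod (resCard q F ^ n - 1))) h1
  simp only [Units.val_pow_eq_pow_val, Units.val_one] at h2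
  rw [coe_unitN, ← Nat.cast_pow, ← Nat.cast_one (R := ZMod (resCard q F ^ n - 1)),
    ZMod.natCast_eq_natCast_iff] at h2
  have h3 : 1 ≤ resCard q F ^ k := Nat.one_le_pow _ _ (by omega)
  have h4 : resCard q F ^ n - 1 ∣ resCard q F ^ k - 1 := (Nat.modEq_iff_dvd' h3).mp h2.symm
  have h5 : resCard q F ^ k < resCard q F ^ n := Nat.pow_lt_pow_right (by omega) hlt
  have h6 : resCard q F ^ 1 ≤ resCard q F ^ k := Nat.pow_le_pow_right (by omega) hk0
  rw [pow_one] at h6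
  have h7 : 0 < resCard q F ^ k - 1 := by omega
  have := Nat.le_of_dvd h7 h4
  omega

/-- **Frobenius**: there is an automorphism `τ` of `F(ζ)/F` with `τ ζ = ζ ^ N`. -/
theorem exists_frobenius : ∃ τ : E ≃ₐ[F] E, τ ζ = ζ ^ resCard q F := by
  classical
  haveI : NeZero (resCard q F ^ n - 1) := ⟨(pow_resCard_sub_one_pos q F hn).ne'⟩
  haveI : IsGalois F E := IsCyclotomicExtension.isGalois {resCard q F ^ n - 1} F E
  let g : (E ≃ₐ[F] E) →* Subgroup.zpowers (unitN q F hn) :=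
    (hζ.autToPow F).codRestrict _ (autToPow_mem_zpowers q F E hn hζ)
  have hg : Function.Injective g := by
    intro a b hab
    apply hζ.autToPow_injective F
    exact congrArg Subtype.val hab
  have hcard : Nat.card (E ≃ₐ[F] E) = Nat.card (Subgroup.zpowers (unitN q F hn)) := by
    rw [Nat.card_zpowers, orderOf_unitN q F E hn hζ, IsGalois.card_aut_eq_finrank,
      finrank_eq q F E hn hζ]
  haveI : Finite (Subgroup.zpowers (unitN q F hn)) := inferInstance
  have hbij : Function.Bijective g :=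
    (Nat.bijective_iff_injective_and_card g).mpr ⟨hg, hcard⟩
  obtain ⟨τ, hτ⟩ := hbij.2 ⟨unitN q F hn, Subgroup.mem_zpowers _⟩
  refine ⟨τ, ?_⟩
  have h1 : hζ.autToPow F τ = unitN q F hn := congrArg Subtype.val hτ
  have h2 := hζ.autToPow_spec F τ
  rw [h1, coe_unitN] at h2
  rw [← h2]
  have hfin : IsOfFinOrder ζ :=
    isOfFinOrder_iff_pow_eq_one.mpr ⟨_, pow_resCard_sub_one_pos q F hn, hζ.pow_eq_one⟩
  rw [hfin.pow_eq_pow_iff_modEq, ← hζ.eq_orderOf, ZMod.val_natCast]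
  exact Nat.mod_modEq _ _

end frob

section padic

variable (q : ℕ) [Fact q.Prime]

theorem nrm_padic (x : ℚ_[q]) : nrm q ℚ_[q] x = ‖x‖ := by
  have := nrm_algebraMap_padic q ℚ_[q] x
  simpa using this

/-- The valuation ring of `ℚ_q` is `ℤ_q`. -/
noncomputable def vringPadicEquiv : vring q ℚ_[q] ≃+* ℤ_[q] where
  toFun x := ⟨(x : ℚ_[q]), by rw [← nrm_padic]; exact nrm_le_one q ℚ_[q] x⟩
  invFun x := ⟨(x : ℚ_[q]), by rw [mem_vring, nrm_padic]; exact x.2⟩
  left_inv x := rfl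
  right_inv x := rfl
  map_mul' x y := rfl
  map_add' x y := rfl

/-- The residue field of `ℚ_q` has `q` elements. -/
theorem resCard_padic : resCard q ℚ_[q] = q := by
  classical
  let g : vring q ℚ_[q] →+* ZMod q :=
    (PadicInt.toZMod (p := q)).comp (vringPadicEquiv q).toRingHom
  have hsurj : Function.Surjective g := by
    intro a
    obtain ⟨x, hx⟩ := (ZMod.ringHom_surjective (PadicInt.toZMod (p := q))) a
    exact ⟨(vringPadicEquiv q).symm x, by simp [g, hx]⟩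
  have hker : RingHom.ker g = IsLocalRing.maximalIdeal (vring q ℚ_[q]) := by
    ext x
    rw [RingHom.mem_ker, mem_maximalIdeal_iff]
    change PadicInt.toZMod (vringPadicEquiv q x) = 0 ↔ _
    rw [← RingHom.mem_ker, PadicInt.ker_toZMod, IsLocalRing.mem_maximalIdeal,
      PadicInt.mem_nonunits, nrm_padic]
    rfl
  let e : resF q ℚ_[q] ≃+* ZMod q :=
    (Ideal.quotEquivOfEq hker.symm).trans (RingHom.quotientKerEquivOfSurjective hsurj)
  change Fintype.card (resF q ℚ_[q]) = q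
  rw [Fintype.card_congr e.toEquiv, ZMod.card]

end padic

end Fermat.Agent.S55.CFT.LOC.H25

end
-- ==== END Fermat.Agent.S55.CFT.LOC.H25_Frob

-- ==== BEGIN Fermat.Agent.S55.CFT.LOC.H25_LTO_Cyc
section

set_option autoImplicit false
set_option linter.unusedSectionVars false
set_option linter.style.haveILetI false

namespace Fermat.Agent.S55.CFT.LOC.H25

open Fermat.Agent.S55.CFT.LOC Polynomial

section cyc

variable (p : ℕ) [Fact p.Prime] (E : Type) [Field E] [Algebra ℚ_[p] E]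
  [FiniteDimensional ℚ_[p] E]

/-- `|1 - ζ^a| ≤ |1 - ζ|` for a root of unity `ζ`. -/
theorem nrm_one_sub_pow_le {ζ : E} {m : ℕ} (hm : m ≠ 0) (hζ : ζ ^ m = 1) (a : ℕ) :
    nrm p E (1 - ζ ^ a) ≤ nrm p E (1 - ζ) := by
  have h1 : (1 - ζ) * ∑ i ∈ Finset.range a, ζ ^ i = 1 - ζ ^ a := mul_neg_geom_sum ζ a
  rw [← h1, nrm_mul]
  have h2 : nrm p E (∑ i ∈ Finset.range a, ζ ^ i) ≤ 1 := by
    apply nrm_sum_le p E _ _ zero_le_one
    intro i _
    rw [nrm_pow, nrm_of_pow_eq_one p E hm hζ, one_pow]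
  exact mul_le_of_le_one_right (nrm_nonneg p E _) h2

/-- Two primitive roots of the same order: `|1 - μ| = |1 - ζ|`. -/
theorem nrm_one_sub_eq {ζ μ : E} {m : ℕ} [NeZero m] (hζ : IsPrimitiveRoot ζ m)
    (hμ : IsPrimitiveRoot μ m) : nrm p E (1 - μ) = nrm p E (1 - ζ) := by
  have hm : m ≠ 0 := NeZero.ne m
  obtain ⟨a, -, ha⟩ := hζ.eq_pow_of_pow_eq_one hμ.pow_eq_one
  obtain ⟨b, -, hb⟩ := hμ.eq_pow_of_pow_eq_one hζ.pow_eq_one
  apply le_antisymm
  · rw [← ha]
    exact nrm_one_sub_pow_le p E hm hζ.pow_eq_one a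
  · rw [← hb]
    exact nrm_one_sub_pow_le p E hm hμ.pow_eq_one b

omit [FiniteDimensional ℚ_[p] E] in
include p in
theorem charZero_of_padic : CharZero E :=
  charZero_of_injective_algebraMap (algebraMap ℚ_[p] E).injective

/-- `|1 - ζ| ^ φ(p^M) = 1/p` for a primitive `p^M`-th root of unity, `M ≥ 1`. -/
theorem nrm_one_sub_zeta_pow {ζ : E} {M : ℕ} (hM : M ≠ 0)
    (hζ : IsPrimitiveRoot ζ (p ^ M)) :
    nrm p E (1 - ζ) ^ Nat.totient (p ^ M) = (p : ℝ)⁻¹ := by
  classical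
  haveI : CharZero E := charZero_of_padic p E
  haveI : NeZero (p ^ M) := ⟨pow_ne_zero _ (Fact.out : p.Prime).ne_zero⟩
  obtain ⟨k, rfl⟩ := Nat.exists_eq_succ_of_ne_zero hM
  have h1 : (cyclotomic (p ^ (k + 1)) E).eval 1 = (p : E) := eval_one_cyclotomic_prime_pow k
  rw [cyclotomic_eq_prod_X_sub_primitiveRoots hζ, eval_prod] at h1
  simp only [eval_sub, eval_X, eval_C] at h1
  have h2 := congrArg (nrm p E) h1
  rw [nrm_natCast_q] at h2
  rw [← h2, ← hζ.card_primitiveRoots]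
  have h3 : ∀ s : Finset E, (∀ μ ∈ s, nrm p E (1 - μ) = nrm p E (1 - ζ)) →
      nrm p E (∏ μ ∈ s, (1 - μ)) = nrm p E (1 - ζ) ^ s.card := by
    intro s
    induction s using Finset.induction_on with
    | empty => intro _; simp
    | insert a s ha ih =>
      intro h
      rw [Finset.prod_insert ha, nrm_mul, ih (fun μ hμ => h μ (Finset.mem_insert_of_mem hμ)),
        h a (Finset.mem_insert_self a s), Finset.card_insert_of_notMem ha, pow_succ, mul_comm]
  symm
  apply h3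
  intro μ hμ
  exact nrm_one_sub_eq p E hζ ((mem_primitiveRoots (NeZero.pos _)).mp hμ)

end cyc

section degree

variable (p : ℕ) [Fact p.Prime] (E : Type) [Field E] [Algebra ℚ_[p] E]
  [FiniteDimensional ℚ_[p] E]

/-- The value of a `p`-adic number is an integral power of `p`. -/
theorem exists_norm_eq_zpow {x : ℚ_[p]} (hx : x ≠ 0) : ∃ v : ℤ, ‖x‖ = (p : ℝ) ^ (-v) :=
  ⟨x.valuation, Padic.norm_eq_zpow_neg_valuation hx⟩

/-- If `E/ℚ_p` is Galois and contains a primitive `p^M`-th root of unity then `φ(p^M)` divides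
the degree. -/
theorem totient_dvd_finrank [IsGalois ℚ_[p] E] {ζ : E} {M : ℕ} (hM : M ≠ 0)
    (hζ : IsPrimitiveRoot ζ (p ^ M)) :
    Nat.totient (p ^ M) ∣ Module.finrank ℚ_[p] E := by
  have hp1 : (1 : ℝ) < p := by exact_mod_cast (Fact.out : p.Prime).one_lt
  have hp0 : (0 : ℝ) < p := by linarith
  haveI : CharZero E := charZero_of_padic p E
  have hne : (1 - ζ) ≠ 0 := by
    intro h
    have h1 : ζ = 1 := (sub_eq_zero.mp h).symm
    have h2 := hζ.unique (h1 ▸ IsPrimitiveRoot.one)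
    have h3 : 1 < p ^ M := Nat.one_lt_pow hM (Fact.out : p.Prime).one_lt
    omega
  have hN : Algebra.norm ℚ_[p] (1 - ζ) ≠ 0 := Algebra.norm_ne_zero_iff.mpr hne
  obtain ⟨v, hv⟩ := exists_norm_eq_zpow p hN
  have h1 := nrm_norm p ℚ_[p] E (1 - ζ)
  have h0 : nrm p ℚ_[p] (Algebra.norm ℚ_[p] (1 - ζ)) = ‖Algebra.norm ℚ_[p] (1 - ζ)‖ := by
    have := nrm_algebraMap_padic p ℚ_[p] (Algebra.norm ℚ_[p] (1 - ζ))
    simpa using this
  rw [h0, hv] at h1
  have h2 := nrm_one_sub_zeta_pow p E hM hζ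
  set n := Module.finrank ℚ_[p] E with hn
  set φ := Nat.totient (p ^ M) with hφ
  -- `p ^ (-v φ) = |1 - ζ| ^ (n φ) = p ^ (-n)`
  have h3 : ((p : ℝ) ^ (-v)) ^ φ = ((p : ℝ)⁻¹) ^ n := by
    rw [h1, ← h2, ← pow_mul, ← pow_mul, mul_comm]
  rw [← zpow_natCast, ← zpow_mul, ← zpow_natCast, ← zpow_neg_one, ← zpow_mul] at h3
  have h4 := zpow_right_injective₀ hp0 hp1.ne' h3
  have h5 : (n : ℤ) = v * φ := by linarith
  exact Int.natCast_dvd_natCast.mp ⟨v, by rw [h5, mul_comm]⟩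

/-- The primitive root as an element of `ℚ_p(ζ)`. -/
theorem isPrimitiveRoot_adjoin {ζ : E} {m : ℕ} (hζ : IsPrimitiveRoot ζ m) :
    IsPrimitiveRoot (⟨ζ, IntermediateField.mem_adjoin_simple_self ℚ_[p] ζ⟩ :
      IntermediateField.adjoin ℚ_[p] {ζ}) m :=
  IsPrimitiveRoot.of_map_of_injective
    (f := algebraMap (IntermediateField.adjoin ℚ_[p] {ζ}) E) hζ
    (algebraMap (IntermediateField.adjoin ℚ_[p] {ζ}) E).injective

/-- `[ℚ_p(ζ_{p^M}) : ℚ_p] = φ(p^M)`. -/
theorem finrank_adjoin_zeta {ζ : E} {M : ℕ} (hM : M ≠ 0) (hζ : IsPrimitiveRoot ζ (p ^ M)) :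
    Module.finrank ℚ_[p] (IntermediateField.adjoin ℚ_[p] {ζ}) = Nat.totient (p ^ M) := by
  classical
  haveI : NeZero (p ^ M) := ⟨pow_ne_zero _ (Fact.out : p.Prime).ne_zero⟩
  haveI : CharZero E := charZero_of_padic p E
  haveI : IsCyclotomicExtension {p ^ M} ℚ_[p] (IntermediateField.adjoin ℚ_[p] {ζ}) :=
    hζ.intermediateField_adjoin_isCyclotomicExtension ℚ_[p]
  haveI : IsGalois ℚ_[p] (IntermediateField.adjoin ℚ_[p] {ζ}) :=
    IsCyclotomicExtension.isGalois {p ^ M} ℚ_[p] (IntermediateField.adjoin ℚ_[p] {ζ})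
  have h1 := totient_dvd_finrank p (IntermediateField.adjoin ℚ_[p] {ζ}) hM
    (isPrimitiveRoot_adjoin p E hζ)
  have hint : IsIntegral ℚ_[p] ζ := Algebra.IsIntegral.isIntegral ζ
  have h2 : Module.finrank ℚ_[p] (IntermediateField.adjoin ℚ_[p] {ζ}) =
      (minpoly ℚ_[p] ζ).natDegree := IntermediateField.adjoin.finrank hint
  have h3 : minpoly ℚ_[p] ζ ∣ cyclotomic (p ^ M) ℚ_[p] := by
    apply minpoly.dvd
    have h := hζ.isRoot_cyclotomic (NeZero.pos _)
    rw [IsRoot.def, ← map_cyclotomic (p ^ M) (algebraMap ℚ_[p] E), eval_map] at h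
    exact h
  have h4 : (minpoly ℚ_[p] ζ).natDegree ≤ Nat.totient (p ^ M) := by
    have := natDegree_le_of_dvd h3 (cyclotomic_ne_zero _ _)
    rwa [natDegree_cyclotomic] at this
  have h5 : 0 < Module.finrank ℚ_[p] (IntermediateField.adjoin ℚ_[p] {ζ}) := Module.finrank_pos
  exact le_antisymm (h2 ▸ h4) (Nat.le_of_dvd h5 h1)

end degree

end Fermat.Agent.S55.CFT.LOC.H25

end
-- ==== END Fermat.Agent.S55.CFT.LOC.H25_LTO_Cyc

-- ==== BEGIN Fermat.Agent.S55.CFT.LOC.H25_LTO_Desc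
section

set_option autoImplicit false
set_option linter.unusedSectionVars false
set_option linter.style.haveILetI false

namespace Fermat.Agent.S55.CFT.LOC.H25

open groupCohomology Fermat.Agent.S55.CFT.LOC

attribute [local instance] H68.addDMA

section descent

variable (K' K Ω : Type) [Field K'] [Field K] [Field Ω] [Algebra K' K] [Algebra K Ω]
  [Algebra K' Ω] [IsScalarTower K' K Ω] (M' : IntermediateField K' Ω) [Normal K' M']

/-- The restriction `Gal(Ω/K) → Gal(M'/K')`. -/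
noncomputable def resGal : (Ω ≃ₐ[K] Ω) →* (M' ≃ₐ[K'] M') :=
  (AlgEquiv.restrictNormalHom M').comp (AlgEquiv.restrictScalarsHom K')

theorem resGal_commutes (g : Ω ≃ₐ[K] Ω) (x : M') :
    algebraMap M' Ω (resGal K' K Ω M' g x) = g (algebraMap M' Ω x) :=
  AlgEquiv.restrictNormal_commutes (g.restrictScalars K') M' x

variable [FiniteDimensional K' K] [FiniteDimensional K Ω] [IsGalois K Ω]
  [FiniteDimensional K' M'] [IsGalois K' M'] (p : ℕ) [Fact p.Prime]
  (χ' : (M' ≃ₐ[K'] M') →* Multiplicative (ZMod p))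

/-- The embedding of the fixed field of `ker χ'` into the fixed field of `ker (χ' ∘ res)`. -/
noncomputable def kerFieldHom :
    kerField K' M' p χ' →+* kerField K Ω p (χ'.comp (resGal K' K Ω M')) where
  toFun x := ⟨algebraMap M' Ω (x : M'), by
    rw [kerField, IntermediateField.mem_fixedField_iff]
    intro g hg
    have hg' : resGal K' K Ω M' g ∈ χ'.ker := hg
    have hx := (IntermediateField.mem_fixedField_iff _ (x : M')).mp x.2 _ hg'
    rw [← resGal_commutes, hx]⟩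
  map_one' := by
    apply Subtype.ext
    simp
  map_mul' x y := by
    apply Subtype.ext
    simp
  map_zero' := by
    apply Subtype.ext
    simp
  map_add' x y := by
    apply Subtype.ext
    simp

/-- **Norm descent for symbol cocycles.** -/
theorem symC_descent (b : Kˣ)
    (h : IsCoboundary₂ (symC K Ω p (χ'.comp (resGal K' K Ω M')) b)) :
    IsCoboundary₂ (symC K' M' p χ' (Units.map (Algebra.norm K' : K →* K') b)) := by
  rw [symC_coboundary_iff] at h ⊢
  obtain ⟨y, hy⟩ := h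
  letI : Algebra (kerField K' M' p χ') (kerField K Ω p (χ'.comp (resGal K' K Ω M'))) :=
    (kerFieldHom K' K Ω M' p χ').toAlgebra
  haveI : IsScalarTower K' (kerField K' M' p χ')
      (kerField K Ω p (χ'.comp (resGal K' K Ω M'))) := by
    refine IsScalarTower.of_algebraMap_eq (fun x => ?_)
    apply Subtype.ext
    change algebraMap K' Ω x = algebraMap M' Ω (algebraMap K' M' x)
    rw [← IsScalarTower.algebraMap_apply]
  refine ⟨Algebra.norm (kerField K' M' p χ') y, ?_⟩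
  rw [Algebra.norm_norm, Units.coe_map, ← hy, Algebra.norm_norm]

end descent

end Fermat.Agent.S55.CFT.LOC.H25

end
-- ==== END Fermat.Agent.S55.CFT.LOC.H25_LTO_Desc

-- ==== BEGIN Fermat.Agent.S55.CFT.LOC.H25_UCRes
section

set_option autoImplicit false
set_option linter.unusedSectionVars false
set_option linter.style.haveILetI false

namespace Fermat.Agent.S55.CFT.LOC.H25

open Fermat.Agent.S55.CFT.LOC Polynomial

section gen

variable (q : ℕ) [Fact q.Prime] (F : Type) [Field F] [Algebra ℚ_[q] F]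
  [FiniteDimensional ℚ_[q] F]

/-- The reduction of a primitive root of unity of order prime to `q` is primitive. -/
theorem isPrimitiveRoot_res_gen {m : ℕ} (hm : ¬ q ∣ m) (η : vring q F)
    (hη : IsPrimitiveRoot (η : F) m) : IsPrimitiveRoot (res q F η) m := by
  have hηm : η ^ m = 1 := by
    apply Subtype.ext
    change (η : F) ^ m = 1
    exact hη.pow_eq_one
  rw [IsPrimitiveRoot.iff_def]
  constructor
  · rw [← map_pow, hηm, map_one]
  · intro l hl
    have h1 : η ^ l = 1 := by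
      refine eq_of_res_eq q F hm _ _ ?_ (one_pow _) ?_
      · rw [← pow_mul, mul_comm, pow_mul, hηm, one_pow]
      · rw [map_pow, hl, map_one]
    have h2 : (η : F) ^ l = 1 := congrArg Subtype.val h1
    exact hη.dvd_of_pow_eq_one l h2

end gen

section tower

variable (q : ℕ) [Fact q.Prime] (E L : Type) [Field E] [Field L] [Algebra ℚ_[q] E]
  [FiniteDimensional ℚ_[q] E] [Algebra ℚ_[q] L] [FiniteDimensional ℚ_[q] L] [Algebra E L]
  [IsScalarTower ℚ_[q] E L]

/-- A unit of `E` is congruent to a power of a primitive root of unity of order `#k_E - 1`. -/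
theorem exists_pow_congr {ξ : L} (hξ : IsPrimitiveRoot ξ (resCard q E - 1)) (c : E)
    (hc : nrm q E c = 1) : ∃ i : ℕ, nrm q L (algebraMap E L c - ξ ^ i) < 1 := by
  have hN := two_le_resCard q E
  haveI : NeZero (resCard q E - 1) := ⟨by omega⟩
  have hndvd : ¬ q ∣ resCard q E - 1 := by
    have := not_dvd_pow_resCard_sub_one q E (n := 1) one_pos
    rwa [pow_one] at this
  have hξ1 : nrm q L ξ = 1 := nrm_of_pow_eq_one q L (NeZero.ne _) hξ.pow_eq_one
  let ξO : vring q L := ⟨ξ, hξ1.le⟩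
  have hξO : IsPrimitiveRoot (res q L ξO) (resCard q E - 1) :=
    isPrimitiveRoot_res_gen q L hndvd ξO hξ
  let cO : vring q E := ⟨c, hc.le⟩
  have hc0 : res q E cO ≠ 0 := by
    intro h
    rw [res_eq_zero_iff] at h
    change nrm q E c < 1 at h
    rw [hc] at h
    exact lt_irrefl _ h
  have hc1 : res q E cO ^ (resCard q E - 1) = 1 :=
    FiniteField.pow_card_sub_one_eq_one _ hc0
  have hc2 : (_root_.Fermat.Agent.S55.CFT.LOC.H25.resMap q E L (res q E cO)) ^ (resCard q E - 1) = 1 := by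
    rw [← map_pow, hc1, map_one]
  obtain ⟨i, -, hi⟩ := hξO.eq_pow_of_pow_eq_one hc2
  refine ⟨i, ?_⟩
  rw [resMap_res, ← map_pow, eq_comm, res_eq_iff] at hi
  exact hi

end tower

section main

variable (q : ℕ) [Fact q.Prime] (E L : Type) [Field E] [Field L] [Algebra ℚ_[q] E]
  [FiniteDimensional ℚ_[q] E] [Algebra ℚ_[q] L] [FiniteDimensional ℚ_[q] L] [Algebra E L]
  [IsScalarTower ℚ_[q] E L] [FiniteDimensional E L]

variable {n : ℕ} (hn : 0 < n) {ζ : L} (hζ : IsPrimitiveRoot ζ (resCard q E ^ n - 1))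
  [IsCyclotomicExtension {resCard q E ^ n - 1} E L]

include hn hζ

/-- Every residue class of `E(ζ)` is represented in any subring containing `ζ`. -/
theorem exists_mem_subring_congr (S : Subring L) (hS : ζ ∈ S) (y : L) (hy : nrm q L y ≤ 1) :
    ∃ y' ∈ S, nrm q L (y - y') < 1 := by
  classical
  haveI : NeZero (resCard q E ^ n - 1) := ⟨(pow_resCard_sub_one_pos q E hn).ne'⟩
  by_cases hy0 : y = 0
  · exact ⟨0, S.zero_mem, by rw [hy0, sub_zero, nrm_zero]; exact zero_lt_one⟩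
  -- the root of unity of order `N - 1`
  have hN := two_le_resCard q E
  obtain ⟨t, ht⟩ : resCard q E - 1 ∣ resCard q E ^ n - 1 := by
    simpa only [one_pow] using Nat.sub_dvd_pow_sub_pow (resCard q E) 1 n
  have hξ : IsPrimitiveRoot (ζ ^ t) (resCard q E - 1) :=
    hζ.pow (pow_resCard_sub_one_pos q E hn) (by rw [ht, mul_comm])
  have hζ1 : nrm q L ζ = 1 := nrm_zeta q E L hn hζ
  -- write `y` in the power basis
  obtain ⟨p, hpdeg, hp⟩ := (hζ.powerBasis E).exists_eq_aeval y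
  rw [hζ.powerBasis_gen E] at hp
  have hdim : (hζ.powerBasis E).dim = n := by
    rw [← PowerBasis.finrank]
    exact finrank_eq q E L hn hζ
  rw [hdim] at hpdeg
  have hp0 : p ≠ 0 := by
    rintro rfl
    rw [map_zero] at hp
    exact hy0 hp
  obtain ⟨i0, -, hmax, hnrm⟩ := exists_coeff_nrm_aeval_eq q E L hn hζ p hp0 hpdeg
  have hcoef : ∀ i, nrm q E (p.coeff i) ≤ 1 := fun i =>
    (hmax i).trans (by rw [← hnrm, ← hp]; exact hy)
  -- approximate the coefficients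
  have happ : ∀ i, ∃ c' ∈ S, nrm q L (algebraMap E L (p.coeff i) - c') < 1 := by
    intro i
    by_cases h1 : nrm q E (p.coeff i) = 1
    · obtain ⟨k, hk⟩ := exists_pow_congr q E L hξ (p.coeff i) h1
      exact ⟨(ζ ^ t) ^ k, S.pow_mem (S.pow_mem hS t) k, hk⟩
    · refine ⟨0, S.zero_mem, ?_⟩
      rw [sub_zero, nrm_algebraMap]
      exact lt_of_le_of_ne (hcoef i) h1
  choose c' hc'S hc' using happ
  refine ⟨∑ i ∈ Finset.range n, c' i * ζ ^ i, ?_, ?_⟩
  · exact S.sum_mem (fun i _ => S.mul_mem (hc'S i) (S.pow_mem hS i))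
  · rw [hp, Polynomial.aeval_eq_sum_range' hpdeg, ← Finset.sum_sub_distrib]
    apply nrm_sum_lt q L _ _ zero_lt_one
    intro i _
    rw [Algebra.smul_def, ← sub_mul, nrm_mul, nrm_pow, hζ1, one_pow, mul_one]
    exact hc' i

end main

end Fermat.Agent.S55.CFT.LOC.H25

end
-- ==== END Fermat.Agent.S55.CFT.LOC.H25_UCRes

-- ==== BEGIN Fermat.Agent.S55.CFT.LOC.H25_UnramExists
section

set_option autoImplicit false
set_option linter.unusedSectionVars false
set_option linter.style.haveILetI false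

namespace Fermat.Agent.S55.CFT.LOC.H25

open Fermat.Agent.S55.CFT.LOC

/-- **LOC-2a**: for every `n ≥ 1` there is an unramified cyclic Galois extension of `F` of
degree `n` (namely `F(ζ)`, `ζ` a primitive root of unity of order `N ^ n - 1`, `N = #k_F`). -/
theorem stmt_UnramExists : Stmt_UnramExists := by
  intro q _ F _ _ _ n hn
  haveI hne : NeZero (resCard q F ^ n - 1) := ⟨(pow_resCard_sub_one_pos q F hn).ne'⟩
  haveI : CharZero F := charZero_of_injective_algebraMap (algebraMap ℚ_[q] F).injective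
  haveI : CharZero (AlgebraicClosure F) :=
    charZero_of_injective_algebraMap (algebraMap F (AlgebraicClosure F)).injective
  haveI : NeZero ((resCard q F ^ n - 1 : ℕ) : AlgebraicClosure F) := NeZero.charZero
  obtain ⟨ζ, hζ⟩ :=
    HasEnoughRootsOfUnity.exists_primitiveRoot (AlgebraicClosure F) (resCard q F ^ n - 1)
  let E : IntermediateField F (AlgebraicClosure F) := IntermediateField.adjoin F {ζ}
  haveI hcyc : IsCyclotomicExtension {resCard q F ^ n - 1} F E :=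
    hζ.intermediateField_adjoin_isCyclotomicExtension F
  haveI hfd : FiniteDimensional F E :=
    IsCyclotomicExtension.finiteDimensional {resCard q F ^ n - 1} F E
  haveI : FiniteDimensional ℚ_[q] E := Module.Finite.trans F E
  let ζE : E := ⟨ζ, IntermediateField.mem_adjoin_simple_self F ζ⟩
  have hζE : IsPrimitiveRoot ζE (resCard q F ^ n - 1) := by
    have h1 : IsPrimitiveRoot (algebraMap E (AlgebraicClosure F) ζE) (resCard q F ^ n - 1) := hζ
    exact IsPrimitiveRoot.of_map_of_injective (f := algebraMap E (AlgebraicClosure F)) h1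
      (algebraMap E (AlgebraicClosure F)).injective
  exact ⟨E, hfd, IsCyclotomicExtension.isGalois {resCard q F ^ n - 1} F E,
    finrank_eq q F E hn hζE, isCyclic_aut q F E hn hζE, isUnram q F E hn hζE⟩

end Fermat.Agent.S55.CFT.LOC.H25

end
-- ==== END Fermat.Agent.S55.CFT.LOC.H25_UnramExists

-- ==== BEGIN Fermat.Agent.S55.CFT.LOC.H45_Kummer
section

set_option autoImplicit false

open Module

noncomputable section

namespace Fermat.Agent.S55.CFT.LOC.H45

open Fermat.Agent.S55 Fermat.Agent.S55.Top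

/-! ### Powers of a primitive root indexed by `ZMod p` -/

section ze

set_option linter.unusedSectionVars false
set_option linter.style.haveILetI false

variable {Ω : Type*} [Field Ω] {p : ℕ} [Fact p.Prime]

/-- `ze ζ j = ζ ^ j`, `j ∈ ZMod p`. -/
def ze (ζ : Ω) (j : ZMod p) : Ω := ζ ^ j.val

theorem ze_zero (ζ : Ω) : ze ζ (0 : ZMod p) = 1 := by
  simp [ze]

theorem ze_add {ζ : Ω} (hζ : IsPrimitiveRoot ζ p) (i j : ZMod p) :
    ze ζ (i + j) = ze ζ i * ze ζ j := by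
  unfold ze
  rw [← pow_add, ZMod.val_add]
  have h : ζ ^ ((i.val + j.val) % p) = ζ ^ ((i.val + j.val) % orderOf ζ) := by
    rw [← hζ.eq_orderOf]
  rw [h, pow_mod_orderOf]

theorem ze_ne_zero {ζ : Ω} (hζ : IsPrimitiveRoot ζ p) (j : ZMod p) : ze ζ j ≠ 0 :=
  pow_ne_zero _ (hζ.ne_zero (Fact.out : p.Prime).ne_zero)

theorem ze_pow {ζ : Ω} (hζ : IsPrimitiveRoot ζ p) (j : ZMod p) : ze ζ j ^ p = 1 := by
  unfold ze
  rw [← pow_mul, mul_comm, pow_mul, hζ.pow_eq_one, one_pow]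

theorem ze_injective {ζ : Ω} (hζ : IsPrimitiveRoot ζ p) :
    Function.Injective (ze (p := p) ζ) := by
  intro i j h
  have := hζ.pow_inj (ZMod.val_lt i) (ZMod.val_lt j) h
  exact ZMod.val_injective p this

theorem exists_ze_eq {ζ : Ω} (hζ : IsPrimitiveRoot ζ p) {ξ : Ω} (hξ : ξ ^ p = 1) :
    ∃ j : ZMod p, ze ζ j = ξ := by
  haveI : NeZero p := ⟨(Fact.out : p.Prime).ne_zero⟩
  obtain ⟨i, hi, h⟩ := hζ.eq_pow_of_pow_eq_one hξ
  refine ⟨(i : ZMod p), ?_⟩
  unfold ze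
  rw [ZMod.val_natCast_of_lt hi, h]

theorem ze_eq_one_iff {ζ : Ω} (hζ : IsPrimitiveRoot ζ p) (j : ZMod p) : ze ζ j = 1 ↔ j = 0 := by
  constructor
  · intro h
    exact ze_injective hζ (h.trans (ze_zero ζ).symm)
  · rintro rfl
    exact ze_zero ζ

end ze

/-! ### The Kummer character -/

section kum

set_option linter.unusedSectionVars false

variable {k Ω : Type*} [Field k] [Field Ω] [Algebra k Ω] [IsAlgClosed Ω]
variable {p : ℕ} [Fact p.Prime]

/-- A chosen `p`-th root. -/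
def root (p : ℕ) [Fact p.Prime] (a : Ω) : Ω :=
  Classical.choose (IsAlgClosed.exists_pow_nat_eq a (Fact.out : p.Prime).pos)

theorem root_pow (a : Ω) : root p a ^ p = a :=
  Classical.choose_spec (IsAlgClosed.exists_pow_nat_eq a (Fact.out : p.Prime).pos)

/-- The Kummer character of `a` (with respect to `ζ`), on all automorphisms. -/
def kum (ζ : Ω) (a : Ω) (σ : Ω ≃ₐ[k] Ω) : ZMod p :=
  Function.invFun (ze (p := p) ζ) (σ (root p a) / root p a)

theorem map_ze {ζ : Ω} {σ : Ω ≃ₐ[k] Ω} (hσζ : σ ζ = ζ) (j : ZMod p) : σ (ze ζ j) = ze ζ j := by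
  unfold ze
  rw [map_pow, hσζ]

theorem kum_spec {ζ : Ω} (hζ : IsPrimitiveRoot ζ p) {a : Ω} (ha : a ≠ 0) {σ : Ω ≃ₐ[k] Ω}
    (hσζ : σ ζ = ζ) (hσa : σ a = a) {α : Ω} (hα : α ^ p = a) :
    σ α = ze ζ (kum (p := p) ζ a σ) * α := by
  have hp : p ≠ 0 := (Fact.out : p.Prime).ne_zero
  have h0 : root p a ≠ 0 := by
    intro h
    apply ha
    rw [← root_pow (p := p) a, h, zero_pow hp]
  have h1 : (σ (root p a) / root p a) ^ p = 1 := by
    rw [div_pow, ← map_pow, root_pow, hσa, div_self ha]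
  have h2 : ze ζ (kum (p := p) ζ a σ) = σ (root p a) / root p a :=
    Function.invFun_eq (exists_ze_eq hζ h1)
  have h3 : (α / root p a) ^ p = 1 := by
    rw [div_pow, root_pow, hα, div_self ha]
  obtain ⟨i, hi⟩ := exists_ze_eq hζ h3
  have h4 : α = ze ζ i * root p a := by
    rw [hi]
    field_simp
  rw [h2, h4, map_mul, map_ze hσζ]
  field_simp

theorem kum_unique {ζ : Ω} (hζ : IsPrimitiveRoot ζ p) {a : Ω} (ha : a ≠ 0) {σ : Ω ≃ₐ[k] Ω}
    (hσζ : σ ζ = ζ) (hσa : σ a = a) {α : Ω} (hα : α ^ p = a) {j : ZMod p}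
    (h : σ α = ze ζ j * α) : kum (p := p) ζ a σ = j := by
  have hp : p ≠ 0 := (Fact.out : p.Prime).ne_zero
  have h0 : α ≠ 0 := by
    intro h
    apply ha
    rw [← hα, h, zero_pow hp]
  have := kum_spec hζ ha hσζ hσa hα
  rw [h] at this
  exact (ze_injective hζ (mul_right_cancel₀ h0 this)).symm

end kum

/-! ### The Kummer homomorphism on `Gal(Ω/F)` -/

section main

set_option linter.unusedSectionVars false
set_option linter.style.haveILetI false

variable {k Ω : Type} [Field k] [Field Ω] [Algebra k Ω] [IsAlgClosed Ω]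
variable {p : ℕ} [Fact p.Prime] (F : IntermediateField k Ω)

theorem fix_of_mem (σ : ↥F.fixingSubgroup) {x : Ω} (hx : x ∈ F) :
    (σ : Ω ≃ₐ[k] Ω) x = x :=
  (IntermediateField.mem_fixingSubgroup_iff F _).mp σ.2 x hx

/-- The Kummer character of `a ∈ Fˣ` on `Gal(Ω/F)`. -/
def kumΓ (ζ : Ω) (a : (↥F)ˣ) : ↥F.fixingSubgroup → ZMod p :=
  fun σ => kum (p := p) ζ ((a : ↥F) : Ω) (σ : Ω ≃ₐ[k] Ω)

variable {F}

theorem unit_ne_zero (a : (↥F)ˣ) : ((a : ↥F) : Ω) ≠ 0 := by
  have := a.ne_zero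
  exact fun h => this (Subtype.ext h)

theorem kumΓ_spec {ζ : Ω} (hζ : IsPrimitiveRoot ζ p) (hζF : ζ ∈ F) (a : (↥F)ˣ)
    (σ : ↥F.fixingSubgroup) {α : Ω} (hα : α ^ p = ((a : ↥F) : Ω)) :
    (σ : Ω ≃ₐ[k] Ω) α = ze ζ (kumΓ (p := p) F ζ a σ) * α :=
  kum_spec hζ (unit_ne_zero a) (fix_of_mem F σ hζF) (fix_of_mem F σ (a : ↥F).2) hα

theorem kumΓ_unique {ζ : Ω} (hζ : IsPrimitiveRoot ζ p) (hζF : ζ ∈ F) (a : (↥F)ˣ)
    (σ : ↥F.fixingSubgroup) {α : Ω} (hα : α ^ p = ((a : ↥F) : Ω)) {j : ZMod p}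
    (h : (σ : Ω ≃ₐ[k] Ω) α = ze ζ j * α) : kumΓ (p := p) F ζ a σ = j :=
  kum_unique hζ (unit_ne_zero a) (fix_of_mem F σ hζF) (fix_of_mem F σ (a : ↥F).2) hα h

theorem kumΓ_mul_apply {ζ : Ω} (hζ : IsPrimitiveRoot ζ p) (hζF : ζ ∈ F) (a : (↥F)ˣ)
    (σ τ : ↥F.fixingSubgroup) :
    kumΓ (p := p) F ζ a (σ * τ) = kumΓ (p := p) F ζ a σ + kumΓ (p := p) F ζ a τ := by
  have hα := root_pow (p := p) ((a : ↥F) : Ω)
  refine kumΓ_unique hζ hζF a (σ * τ) hα ?_
  have h1 := kumΓ_spec hζ hζF a τ hα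
  have h2 := kumΓ_spec hζ hζF a σ hα
  rw [Subgroup.coe_mul, AlgEquiv.mul_apply, h1, map_mul, map_ze (fix_of_mem F σ hζF), h2,
    ze_add hζ]
  ring

theorem tOne_kumΓ {ζ : Ω} (hζ : IsPrimitiveRoot ζ p) (hζF : ζ ∈ F) (a : (↥F)ˣ) :
    tOne (kumΓ (p := p) F ζ a) = 0 := by
  funext t
  simp only [tOne, kumΓ_mul_apply hζ hζF, Pi.zero_apply]
  ring

theorem kumΓ_mul {ζ : Ω} (hζ : IsPrimitiveRoot ζ p) (hζF : ζ ∈ F) (a b : (↥F)ˣ) :
    kumΓ (p := p) F ζ (a * b) = kumΓ (p := p) F ζ a + kumΓ (p := p) F ζ b := by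
  funext σ
  have hα := root_pow (p := p) ((a : ↥F) : Ω)
  have hβ := root_pow (p := p) ((b : ↥F) : Ω)
  have hαβ : (root p ((a : ↥F) : Ω) * root p ((b : ↥F) : Ω)) ^ p =
      (((a * b : (↥F)ˣ) : ↥F) : Ω) := by
    rw [mul_pow, hα, hβ]
    simp
  refine kumΓ_unique hζ hζF (a * b) σ hαβ ?_
  rw [map_mul, kumΓ_spec hζ hζF a σ hα, kumΓ_spec hζ hζF b σ hβ, Pi.add_apply, ze_add hζ]
  ring

theorem kumΓ_eq_zero_iff [IsGalois k Ω] {ζ : Ω} (hζ : IsPrimitiveRoot ζ p) (hζF : ζ ∈ F)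
    (a : (↥F)ˣ) :
    kumΓ (p := p) F ζ a = 0 ↔ a ∈ (powMonoidHom p : (↥F)ˣ →* (↥F)ˣ).range := by
  have hp : p ≠ 0 := (Fact.out : p.Prime).ne_zero
  constructor
  · intro h
    have hα := root_pow (p := p) ((a : ↥F) : Ω)
    have hfix : root p ((a : ↥F) : Ω) ∈ IntermediateField.fixedField F.fixingSubgroup := by
      rw [IntermediateField.mem_fixedField_iff]
      intro σ hσ
      have := kumΓ_spec hζ hζF a ⟨σ, hσ⟩ hα
      rw [h, Pi.zero_apply, ze_zero, one_mul] at this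
      exact this
    rw [InfiniteGalois.fixedField_fixingSubgroup] at hfix
    have hne : (⟨root p ((a : ↥F) : Ω), hfix⟩ : ↥F) ≠ 0 := by
      intro h0
      have h1 : root p ((a : ↥F) : Ω) = 0 := congrArg Subtype.val h0
      apply unit_ne_zero a
      rw [← hα, h1, zero_pow hp]
    refine ⟨Units.mk0 _ hne, ?_⟩
    apply Units.ext
    apply Subtype.ext
    simp only [powMonoidHom_apply, Units.val_pow_eq_pow_val, Units.val_mk0,
      SubmonoidClass.coe_pow]
    exact hα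
  · rintro ⟨b, rfl⟩
    funext σ
    have hb : (((b : ↥F) : Ω)) ^ p = (((powMonoidHom p b : (↥F)ˣ) : ↥F) : Ω) := by
      simp
    refine kumΓ_unique hζ hζF _ σ hb ?_
    rw [Pi.zero_apply, ze_zero, one_mul]
    exact fix_of_mem F σ (b : ↥F).2

/-- `f` is constant modulo the fixing subgroup of a finite extension of `k`. -/
def IsLocA (F : IntermediateField k Ω) {X : Type*} (f : ↥F.fixingSubgroup → X) : Prop :=
  ∃ E : IntermediateField k Ω, FiniteDimensional k E ∧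
    ∀ g s : ↥F.fixingSubgroup, (s : Ω ≃ₐ[k] Ω) ∈ E.fixingSubgroup → f (g * s) = f g

theorem isLocA_kumΓ [Algebra.IsAlgebraic k Ω] {ζ : Ω} (hζ : IsPrimitiveRoot ζ p) (hζF : ζ ∈ F)
    (a : (↥F)ˣ) : IsLocA F (kumΓ (p := p) F ζ a) := by
  have hα := root_pow (p := p) ((a : ↥F) : Ω)
  refine ⟨IntermediateField.adjoin k {root p ((a : ↥F) : Ω)},
    IntermediateField.adjoin.finiteDimensional
      (Algebra.IsIntegral.isIntegral (R := k) (root p ((a : ↥F) : Ω))), ?_⟩
  intro g s hs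
  rw [kumΓ_mul_apply hζ hζF]
  have h0 : kumΓ (p := p) F ζ a s = 0 := by
    refine kumΓ_unique hζ hζF a s hα ?_
    rw [ze_zero, one_mul]
    exact (IntermediateField.mem_fixingSubgroup_iff _ _).mp hs _
      (IntermediateField.mem_adjoin_simple_self k _)
  rw [h0, add_zero]

/-! ### Hilbert 90 by the Lagrange resolvent -/

section resolvent

variable {ζ : Ω} (χ : ↥F.fixingSubgroup → ZMod p) (E : IntermediateField k Ω)

/-- The open subgroup `Gal(Ω/E) ∩ Gal(Ω/F)` of `Gal(Ω/F)`. -/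
def subU (F E : IntermediateField k Ω) : Subgroup ↥F.fixingSubgroup :=
  E.fixingSubgroup.subgroupOf F.fixingSubgroup

theorem mem_subU {s : ↥F.fixingSubgroup} :
    s ∈ subU F E ↔ (s : Ω ≃ₐ[k] Ω) ∈ E.fixingSubgroup :=
  Subgroup.mem_subgroupOf

/-- Restriction to `E`. -/
def resE (g : ↥F.fixingSubgroup) : ↥E →ₐ[k] Ω :=
  ((g : Ω ≃ₐ[k] Ω) : Ω →ₐ[k] Ω).comp E.val

theorem resE_apply (g : ↥F.fixingSubgroup) (x : ↥E) :
    resE E g x = (g : Ω ≃ₐ[k] Ω) (x : Ω) := rfl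

theorem resE_eq_iff (g g' : ↥F.fixingSubgroup) :
    resE E g = resE E g' ↔ g⁻¹ * g' ∈ subU F E := by
  rw [mem_subU, IntermediateField.mem_fixingSubgroup_iff]
  constructor
  · intro h x hx
    have := congrArg (fun f : ↥E →ₐ[k] Ω => f ⟨x, hx⟩) h
    simp only [resE_apply] at this
    rw [Subgroup.coe_mul, Subgroup.coe_inv, AlgEquiv.mul_apply, ← this]
    exact (AlgEquiv.symm_apply_apply (g : Ω ≃ₐ[k] Ω) x)
  · intro h
    ext x
    have := h x x.2
    rw [Subgroup.coe_mul, Subgroup.coe_inv, AlgEquiv.mul_apply] at this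
    rw [resE_apply, resE_apply]
    have h2 := congrArg (g : Ω ≃ₐ[k] Ω) this
    rw [← h2]
    exact AlgEquiv.apply_symm_apply (g : Ω ≃ₐ[k] Ω) _

/-- Restriction to `E`, on cosets. -/
def resQ : (↥F.fixingSubgroup ⧸ subU F E) → (↥E →ₐ[k] Ω) :=
  Quotient.lift (s := QuotientGroup.leftRel (subU F E)) (resE E) (fun g g' h =>
    (resE_eq_iff E g g').mpr (QuotientGroup.leftRel_apply.mp h))

theorem resQ_mk (g : ↥F.fixingSubgroup) :
    resQ E (QuotientGroup.mk g : ↥F.fixingSubgroup ⧸ subU F E) = resE E g := rfl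

theorem resQ_injective : Function.Injective (resQ (F := F) E) := by
  intro c c'
  induction c using QuotientGroup.induction_on with
  | H g =>
    induction c' using QuotientGroup.induction_on with
    | H g' =>
      intro h
      rw [resQ_mk, resQ_mk, resE_eq_iff] at h
      exact QuotientGroup.eq.mpr h

theorem finite_quot [FiniteDimensional k ↥E] : Finite (↥F.fixingSubgroup ⧸ subU F E) :=
  Finite.of_injective _ (resQ_injective (F := F) E)

variable {χ} {E}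

/-- The weight `ζ^{χ(g)}`, on cosets. -/
def wQ (ζ : Ω) (hE : ∀ g s : ↥F.fixingSubgroup, (s : Ω ≃ₐ[k] Ω) ∈ E.fixingSubgroup →
    χ (g * s) = χ g) : (↥F.fixingSubgroup ⧸ subU F E) → Ω :=
  Quotient.lift (s := QuotientGroup.leftRel (subU F E)) (fun g => ze ζ (χ g)) (fun g g' h => by
    have h1 := (mem_subU E).mp (QuotientGroup.leftRel_apply.mp h)
    have h2 := hE g (g⁻¹ * g') h1
    rw [mul_inv_cancel_left] at h2
    simp only [h2])

theorem wQ_mk (hE : ∀ g s : ↥F.fixingSubgroup, (s : Ω ≃ₐ[k] Ω) ∈ E.fixingSubgroup →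
    χ (g * s) = χ g) (g : ↥F.fixingSubgroup) :
    wQ ζ hE (QuotientGroup.mk g : ↥F.fixingSubgroup ⧸ subU F E) = ze ζ (χ g) := rfl

theorem smul_term (hζ : IsPrimitiveRoot ζ p) (hζF : ζ ∈ F)
    (hχ : ∀ σ τ : ↥F.fixingSubgroup, χ (σ * τ) = χ σ + χ τ)
    (hE : ∀ g s : ↥F.fixingSubgroup, (s : Ω ≃ₐ[k] Ω) ∈ E.fixingSubgroup → χ (g * s) = χ g)
    (h : ↥F.fixingSubgroup) (x : ↥E) (c : ↥F.fixingSubgroup ⧸ subU F E) :
    (h : Ω ≃ₐ[k] Ω) (wQ ζ hE c * resQ E c x) =
      ze ζ (-(χ h)) * (wQ ζ hE (h • c) * resQ E (h • c) x) := by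
  induction c using QuotientGroup.induction_on with
  | H g =>
    rw [MulAction.Quotient.smul_mk, wQ_mk, wQ_mk, resQ_mk, resQ_mk, resE_apply, resE_apply,
      smul_eq_mul, hχ, map_mul, map_ze (fix_of_mem F h hζF), Subgroup.coe_mul,
      AlgEquiv.mul_apply, ← mul_assoc, ← ze_add hζ, neg_add_cancel_left]

theorem exists_resolvent [FiniteDimensional k ↥E] (hζ : IsPrimitiveRoot ζ p) (hζF : ζ ∈ F)
    (hχ : ∀ σ τ : ↥F.fixingSubgroup, χ (σ * τ) = χ σ + χ τ)
    (hE : ∀ g s : ↥F.fixingSubgroup, (s : Ω ≃ₐ[k] Ω) ∈ E.fixingSubgroup → χ (g * s) = χ g) :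
    ∃ β : Ω, β ≠ 0 ∧ ∀ h : ↥F.fixingSubgroup, (h : Ω ≃ₐ[k] Ω) β = ze ζ (-(χ h)) * β := by
  classical
  haveI : Finite (↥F.fixingSubgroup ⧸ subU F E) := finite_quot (F := F) E
  letI : Fintype (↥F.fixingSubgroup ⧸ subU F E) := Fintype.ofFinite _
  -- the resolvent
  have key : ∀ x : ↥E, ∀ h : ↥F.fixingSubgroup,
      (h : Ω ≃ₐ[k] Ω) (∑ c, wQ ζ hE c * resQ E c x) =
        ze ζ (-(χ h)) * ∑ c, wQ ζ hE c * resQ E c x := by
    intro x h
    rw [map_sum, Finset.mul_sum]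
    rw [← Equiv.sum_comp (MulAction.toPerm h : Equiv.Perm (↥F.fixingSubgroup ⧸ subU F E))
      (fun c => ze ζ (-(χ h)) * (wQ ζ hE c * resQ E c x))]
    refine Finset.sum_congr rfl fun c _ => ?_
    exact smul_term hζ hζF hχ hE h x c
  by_cases hex : ∃ x : ↥E, (∑ c, wQ ζ hE c * resQ E c x) ≠ 0
  · obtain ⟨x, hx⟩ := hex
    exact ⟨_, hx, key x⟩
  · exfalso
    simp only [not_exists, not_not] at hex
    -- Dedekind
    have hli : LinearIndependent Ω
        (fun c : ↥F.fixingSubgroup ⧸ subU F E => ((resQ E c : ↥E →* Ω) : ↥E → Ω)) := by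
      have := (linearIndependent_monoidHom (↥E) Ω).comp
        (fun c : ↥F.fixingSubgroup ⧸ subU F E => (resQ E c : ↥E →* Ω)) (by
          intro c c' hcc
          apply resQ_injective (F := F) E
          ext x
          exact congrArg (fun f : ↥E →* Ω => f x) hcc)
      exact this
    have hsum : ∑ c, wQ ζ hE c • ((resQ E c : ↥E →* Ω) : ↥E → Ω) = 0 := by
      funext x
      rw [Finset.sum_apply]
      simpa using hex x
    have := (Fintype.linearIndependent_iff.mp hli) (wQ ζ hE) hsum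
      (QuotientGroup.mk 1)
    rw [wQ_mk] at this
    exact ze_ne_zero hζ _ this

end resolvent

/-! ### Surjectivity and the count -/

theorem exists_kumΓ_eq [IsGalois k Ω] {ζ : Ω} (hζ : IsPrimitiveRoot ζ p) (hζF : ζ ∈ F)
    (χ : ↥F.fixingSubgroup → ZMod p) (hχ : tOne χ = 0) (hloc : IsLocA F χ) :
    ∃ a : (↥F)ˣ, kumΓ (p := p) F ζ a = χ := by
  have hp : p ≠ 0 := (Fact.out : p.Prime).ne_zero
  have hχ' : ∀ σ τ : ↥F.fixingSubgroup, χ (σ * τ) = χ σ + χ τ := by
    intro σ τ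
    have := congrFun hχ (σ, τ)
    simp only [tOne, Pi.zero_apply] at this
    linear_combination -this
  obtain ⟨E, hfin, hE⟩ := hloc
  haveI := hfin
  obtain ⟨β, hβ0, hβ⟩ := exists_resolvent (χ := χ) (E := E) hζ hζF hχ' hE
  have hα : ∀ h : ↥F.fixingSubgroup, (h : Ω ≃ₐ[k] Ω) β⁻¹ = ze ζ (χ h) * β⁻¹ := by
    intro h
    rw [map_inv₀, hβ h, mul_inv]
    congr 1
    have h1 : ze ζ (-(χ h)) * ze ζ (χ h) = 1 := by
      rw [← ze_add hζ, neg_add_cancel, ze_zero]
    exact (eq_inv_of_mul_eq_one_right h1).symm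
  have hfix : β⁻¹ ^ p ∈ IntermediateField.fixedField F.fixingSubgroup := by
    rw [IntermediateField.mem_fixedField_iff]
    intro σ hσ
    rw [map_pow, hα ⟨σ, hσ⟩, mul_pow, ze_pow hζ, one_mul]
  rw [InfiniteGalois.fixedField_fixingSubgroup] at hfix
  have hne : (⟨β⁻¹ ^ p, hfix⟩ : ↥F) ≠ 0 := by
    intro h0
    have h1 : β⁻¹ ^ p = 0 := congrArg Subtype.val h0
    exact pow_ne_zero p (inv_ne_zero hβ0) h1
  refine ⟨Units.mk0 _ hne, ?_⟩
  funext σ
  exact kumΓ_unique hζ hζF (Units.mk0 _ hne) σ (α := β⁻¹) rfl (hα σ)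

/-- The Kummer homomorphism. -/
def kumHom {ζ : Ω} (hζ : IsPrimitiveRoot ζ p) (hζF : ζ ∈ F) :
    (↥F)ˣ →* Multiplicative (↥F.fixingSubgroup → ZMod p) where
  toFun a := Multiplicative.ofAdd (kumΓ (p := p) F ζ a)
  map_one' := by
    have h := kumΓ_mul (p := p) hζ hζF (1 : (↥F)ˣ) 1
    rw [mul_one] at h
    have h2 : kumΓ (p := p) F ζ (1 : (↥F)ˣ) = 0 := by
      have := congrArg (fun f => f - kumΓ (p := p) F ζ (1 : (↥F)ˣ)) h
      simpa using this.symm
    rw [h2]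
    rfl
  map_mul' a b := by
    rw [kumΓ_mul hζ hζF]
    rfl

theorem kumHom_ker [IsGalois k Ω] {ζ : Ω} (hζ : IsPrimitiveRoot ζ p) (hζF : ζ ∈ F) :
    (kumHom (p := p) hζ hζF).ker = (powMonoidHom p : (↥F)ˣ →* (↥F)ˣ).range := by
  ext a
  rw [MonoidHom.mem_ker, ← kumΓ_eq_zero_iff hζ hζF]
  exact Iff.rfl

theorem mem_kumHom_range [IsGalois k Ω] {ζ : Ω} (hζ : IsPrimitiveRoot ζ p) (hζF : ζ ∈ F)
    (x : Multiplicative (↥F.fixingSubgroup → ZMod p)) :
    x ∈ (kumHom (p := p) hζ hζF).range ↔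
      (tOne (Multiplicative.toAdd x) = 0 ∧ IsLocA F (Multiplicative.toAdd x)) := by
  constructor
  · rintro ⟨a, rfl⟩
    exact ⟨tOne_kumΓ hζ hζF a, isLocA_kumΓ hζ hζF a⟩
  · rintro ⟨h1, h2⟩
    obtain ⟨a, ha⟩ := exists_kumΓ_eq hζ hζF _ h1 h2
    exact ⟨a, congrArg Multiplicative.ofAdd ha⟩

/-- Kummer count, abstract form. -/
theorem card_hom_eq_index [IsGalois k Ω] {ζ : Ω} (hζ : IsPrimitiveRoot ζ p) (hζF : ζ ∈ F) :
    Nat.card {χ : ↥F.fixingSubgroup → ZMod p // tOne χ = 0 ∧ IsLocA F χ} =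
      (powMonoidHom p : (↥F)ˣ →* (↥F)ˣ).range.index := by
  rw [← kumHom_ker hζ hζF, Subgroup.index_ker]
  refine Nat.card_congr ?_
  exact (Equiv.subtypeEquiv Multiplicative.ofAdd (fun χ => by
    rw [mem_kumHom_range hζ hζF]
    exact Iff.rfl))

end main

/-- **L5-KUM**. -/
theorem stmt_L5_Kummer : Stmt_L5_Kummer := by
  intro q _ p _ F _ hζ
  obtain ⟨ζ, hζF, hζ⟩ := hζ
  exact card_hom_eq_index (k := ℚ_[q]) (Ω := PadicAlgCl q) (F := F) hζ hζF

end Fermat.Agent.S55.CFT.LOC.H45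

end
end
-- ==== END Fermat.Agent.S55.CFT.LOC.H45_Kummer

-- ==== BEGIN Fermat.Agent.S55.CFT.LOC.H45_Places
section

set_option autoImplicit false
set_option linter.style.haveILetI false

open Module

noncomputable section

namespace Fermat.Agent.S55.CFT.LOC.H45P

open Fermat.Agent.S55 Fermat.Agent.S55.Top

/-! ### Orbit counting -/

section orbit

variable {Γ : Type} [Group Γ] {X : Type} [MulAction Γ X] {R : Type}

/-- A point lies in the orbit of the representative of its orbit. -/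
theorem mem_orbit_rep (D : OrbitData Γ X R) (x : X) : x ∈ MulAction.orbit Γ (D.rep (D.o x)) :=
  ⟨D.t x, D.t_smul x⟩

theorem o_eq_of_mem_orbit (D : OrbitData Γ X R) {x : X} {r : R}
    (h : x ∈ MulAction.orbit Γ (D.rep r)) : D.o x = r := by
  obtain ⟨γ, rfl⟩ := h
  rw [D.o_smul, D.o_rep]

/-- `X` is the disjoint union of the orbits of the representatives. -/
def sigmaOrbit (D : OrbitData Γ X R) : X ≃ Σ r : R, MulAction.orbit Γ (D.rep r) where
  toFun x := ⟨D.o x, x, mem_orbit_rep D x⟩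
  invFun s := s.2.1
  left_inv _ := rfl
  right_inv s := by
    obtain ⟨r, x, hx⟩ := s
    have h := o_eq_of_mem_orbit D hx
    subst h
    rfl

theorem card_eq_sum_index [Finite X] [Fintype R] (D : OrbitData Γ X R) :
    Nat.card X = ∑ r : R, (MulAction.stabilizer Γ (D.rep r)).index := by
  rw [Nat.card_congr (sigmaOrbit D), Nat.card_sigma]
  refine Finset.sum_congr rfl fun r _ => ?_
  rw [MulAction.index_stabilizer]
  exact (Nat.card_coe_set_eq _)

end orbit


/-! ### The local field `ℚ_q(ι_q(σ K))` -/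

section locfield

variable (q : ℕ) [Fact q.Prime] (K : IntermediateField ℚ (AlgebraicClosure ℚ)) (σ : GQ)

/-- `ℚ_q(ι_q(σ K))`. -/
def Floc : IntermediateField ℚ_[q] (PadicAlgCl q) :=
  IntermediateField.adjoin ℚ_[q]
    ((fun x : AlgebraicClosure ℚ => padicEmbedding q (σ x)) '' (K : Set (AlgebraicClosure ℚ)))

theorem mem_Floc {x : AlgebraicClosure ℚ} (hx : x ∈ K) : padicEmbedding q (σ x) ∈ Floc q K σ :=
  IntermediateField.subset_adjoin _ _ ⟨x, hx, rfl⟩

theorem mem_fixingSubgroup_Floc (h : PadicAlgCl q ≃ₐ[ℚ_[q]] PadicAlgCl q) :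
    h ∈ (Floc q K σ).fixingSubgroup ↔
      σ⁻¹ * localGaloisToGlobal q h * σ ∈ K.fixingSubgroup := by
  rw [IntermediateField.mem_fixingSubgroup_iff, IntermediateField.mem_fixingSubgroup_iff]
  constructor
  · intro hh x hx
    have h1 := hh _ (mem_Floc q K σ hx)
    rw [← padicEmbedding_localGaloisToGlobal] at h1
    have h2 : localGaloisToGlobal q h (σ x) = σ x := (padicEmbedding q).injective h1
    show σ⁻¹ (localGaloisToGlobal q h (σ x)) = x
    rw [h2]
    exact σ.symm_apply_apply x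
  · intro hh
    have hle : Floc q K σ ≤ IntermediateField.fixedField (Subgroup.zpowers h) := by
      refine IntermediateField.adjoin_le_iff.2 ?_
      rintro _ ⟨x, hx, rfl⟩
      rintro ⟨g, hg⟩
      obtain ⟨n, rfl⟩ := Subgroup.mem_zpowers_iff.1 hg
      have h1 : σ⁻¹ (localGaloisToGlobal q h (σ x)) = x := hh x hx
      have h2 : localGaloisToGlobal q h (σ x) = σ x := by
        have := congrArg σ h1
        rwa [show σ (σ⁻¹ (localGaloisToGlobal q h (σ x))) = localGaloisToGlobal q h (σ x) from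
          σ.apply_symm_apply _] at this
      have h3 : h (padicEmbedding q (σ x)) = padicEmbedding q (σ x) := by
        rw [← padicEmbedding_localGaloisToGlobal, h2]
      have h4 : h • (padicEmbedding q (σ x)) = padicEmbedding q (σ x) := h3
      show (h ^ n) • (padicEmbedding q (σ x)) = padicEmbedding q (σ x)
      exact (MulAction.mem_stabilizer_iff.1
        ((MulAction.stabilizer _ (padicEmbedding q (σ x))).zpow_mem
          (MulAction.mem_stabilizer_iff.2 h4) n))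
    intro y hy
    exact hle hy ⟨h, Subgroup.mem_zpowers h⟩

theorem finiteDimensional_Floc [FiniteDimensional ℚ K] :
    FiniteDimensional ℚ_[q] (Floc q K σ) := by
  classical
  let b := Module.finBasis ℚ K
  let T : Set (PadicAlgCl q) :=
    Set.range (fun i => padicEmbedding q (σ ((b i : K) : AlgebraicClosure ℚ)))
  have : Finite T := Set.finite_coe_iff.2 (Set.finite_range _)
  have hT : FiniteDimensional ℚ_[q] (IntermediateField.adjoin ℚ_[q] T) :=
    IntermediateField.finiteDimensional_adjoin (fun x _ => Algebra.IsIntegral.isIntegral x)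
  have hle : Floc q K σ ≤ IntermediateField.adjoin ℚ_[q] T := by
    refine IntermediateField.adjoin_le_iff.2 ?_
    rintro _ ⟨x, hx, rfl⟩
    have hx' : x = ∑ i, (b.repr ⟨x, hx⟩ i) • ((b i : K) : AlgebraicClosure ℚ) := by
      have h1 := b.sum_repr ⟨x, hx⟩
      have h2 := congrArg (fun y : K => (y : AlgebraicClosure ℚ)) h1
      simp only [IntermediateField.coe_sum, IntermediateField.coe_smul] at h2
      exact h2.symm
    show padicEmbedding q (σ x) ∈ IntermediateField.adjoin ℚ_[q] T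
    rw [hx']
    simp only [map_sum]
    refine sum_mem fun i _ => ?_
    rw [Algebra.smul_def, map_mul, map_mul]
    refine mul_mem ?_ (IntermediateField.subset_adjoin _ _ ⟨i, rfl⟩)
    rw [eq_ratCast, map_ratCast, map_ratCast]
    exact SubfieldClass.ratCast_mem _ _
  exact Module.Finite.of_injective (IntermediateField.inclusion hle).toLinearMap
    (IntermediateField.inclusion_injective hle)

end locfield

/-! ### The statement -/

section main

attribute [local instance] locAct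

variable {S : Finset Nat.Primes} {K : IntermediateField ℚ (AlgebraicClosure ℚ)}

theorem Γw_eq_stabilizer (𝔓 : PlaceSys S K) (q : ↥S) (w : 𝔓.W q) :
    𝔓.Γw q w = MulAction.stabilizer (Gl q.1) ((𝔓.loc q).rep w) := by
  ext h
  exact Iff.rfl

theorem card_XK [FiniteDimensional ℚ K] : Nat.card (XK K) = Module.finrank ℚ K := by
  haveI := h49_qbar_isGalois
  rw [IntermediateField.finrank_eq_fixingSubgroup_index]
  rfl

theorem mem_Γw_iff (𝔓 : PlaceSys S K) (q : ↥S) (w : 𝔓.W q) (h : Gl q.1) :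
    h ∈ 𝔓.Γw q w ↔ (𝔓.σ q w)⁻¹ * rl q.1 h * 𝔓.σ q w ∈ K.fixingSubgroup := by
  constructor
  · intro hh
    exact 𝔓.conj_mem q w ⟨h, hh⟩
  · intro hh
    have h1 := smul_x0_of_mem_fix hh
    rw [mul_smul, mul_smul, 𝔓.σ_smul, inv_smul_eq_iff, 𝔓.σ_smul] at h1
    exact h1

/-- **L5-PL**. -/
theorem stmt_L5_Places : Stmt_L5_Places := by
  intro p _ S K hK 𝔓 q
  haveI : Fact ((q.1 : ℕ)).Prime := ⟨q.1.2⟩
  haveI : FiniteDimensional ℚ K := hK.1.1
  have hmem : ∀ w, ∀ h : PadicAlgCl (q.1 : ℕ) ≃ₐ[ℚ_[(q.1 : ℕ)]] PadicAlgCl (q.1 : ℕ),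
      h ∈ (Floc (q.1 : ℕ) K (𝔓.σ q w)).fixingSubgroup ↔ (show Gl q.1 from h) ∈ 𝔓.Γw q w := by
    intro w h
    rw [mem_fixingSubgroup_Floc, mem_Γw_iff]
    exact Iff.rfl
  refine ⟨fun w => Floc (q.1 : ℕ) K (𝔓.σ q w), fun w => finiteDimensional_Floc _ _ _, hmem,
    ?_, ?_⟩
  · intro w
    obtain ⟨ζ, hζK, hζ⟩ := hK.2
    refine ⟨_, mem_Floc (q.1 : ℕ) K (𝔓.σ q w) hζK, ?_⟩
    exact (hζ.map_of_injective (f := (𝔓.σ q w)) (𝔓.σ q w).injective).map_of_injective
      (f := padicEmbedding (q.1 : ℕ)) (padicEmbedding (q.1 : ℕ)).injective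
  · letI : Fintype (𝔓.W q) := 𝔓.fin q
    haveI : Finite (XK K) := finite_XK hK.1
    rw [← card_XK, card_eq_sum_index (𝔓.loc q)]
    refine Finset.sum_congr rfl fun w _ => ?_
    rw [IntermediateField.finrank_eq_fixingSubgroup_index, ← Γw_eq_stabilizer]
    have h1 : (Floc (q.1 : ℕ) K (𝔓.σ q w)).fixingSubgroup =
        (show Subgroup (PadicAlgCl (q.1 : ℕ) ≃ₐ[ℚ_[(q.1 : ℕ)]] PadicAlgCl (q.1 : ℕ)) from
          𝔓.Γw q w) := Subgroup.ext (hmem w)
    rw [h1]
    rfl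

end main

end Fermat.Agent.S55.CFT.LOC.H45P

end
end
-- ==== END Fermat.Agent.S55.CFT.LOC.H45_Places
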