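-- GENERATED (merged mirror, NOTES/tools/trim/merge3_helper67.py): 5 modules of the originals, bodies verbatim.
import Mathlib
import Fermat.Prelude.Def_AlgebraicCurve_DivisorClassGroup
import Fermat.Prelude.Def_AlgebraicCurve_Correspondence
import Fermat.Prelude.Def_GaloisRep_Residual
import Fermat.Prelude.Def_Deformations_MatrixRepresentation
import Fermat.Agent.Zm.S35_L03_001
import Fermat.Agent.Zm.S35_L07_001
import Fermat.Agent.Zm.S35_L04_001
import Fermat.Agent.Zm.S35_L01_002
import Fermat.Agent.RED.H17_Place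

-- ==== BEGIN Fermat.Agent.NEB.EIG.H98_OrdVal
section

/-!
# NEB / EIG, leaf EIG-MONO (helper98): integer valued valuations of a function field

`exists_mul_of_dvd_ord`: let `ν : F → ℤ` be additive on products of nonzero elements, with
`min (ν g) (ν h) ≤ ν (g + h)`, and trivial on the constants `K`.  If all orders of `f ≠ 0` at the
places of `F / K` are divisible by `n`, then `ν f = n * t * ν g` for some `g ≠ 0`, `t : ℤ`.
(`ν` is either trivial or `e` times the order at a place; same proof as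
`Fermat.Agent.GTor.H56.dvd_ord_map`, which is the case `ν = ord_w ∘ φ`.)
-/

set_option autoImplicit false

noncomputable section

namespace Fermat.Agent.NEB.EIG.H98

open AlgebraicCurve

section OrdVal

variable {K F : Type*} [Field K] [Field F] [Algebra K F]

/-- The data of an integer valued "order function" on the nonzero elements of a field. -/
structure IsOrdFun (K : Type*) {F : Type*} [Field K] [Field F] [Algebra K F] (ν : F → ℤ) :
    Prop where
  mul : ∀ g h : F, g ≠ 0 → h ≠ 0 → ν (g * h) = ν g + ν h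
  add : ∀ g h : F, g ≠ 0 → h ≠ 0 → g + h ≠ 0 → min (ν g) (ν h) ≤ ν (g + h)
  const : ∀ c : K, c ≠ 0 → ν (algebraMap K F c) = 0

namespace IsOrdFun

variable {ν : F → ℤ} (hν : IsOrdFun K ν)

include hν

theorem one : ν 1 = 0 := by
  have := hν.mul 1 1 one_ne_zero one_ne_zero
  rw [mul_one] at this
  omega

theorem neg_one : ν (-1) = 0 := by
  have := hν.mul (-1) (-1) (neg_ne_zero.mpr one_ne_zero) (neg_ne_zero.mpr one_ne_zero)
  rw [neg_mul_neg, mul_one, hν.one] at this
  omega

theorem neg (g : F) (hg : g ≠ 0) : ν (-g) = ν g := by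
  have := hν.mul (-1) g (neg_ne_zero.mpr one_ne_zero) hg
  rw [neg_one_mul, hν.neg_one, zero_add] at this
  exact this

theorem inv (g : F) (hg : g ≠ 0) : ν g⁻¹ = -ν g := by
  have := hν.mul g g⁻¹ hg (inv_ne_zero hg)
  rw [mul_inv_cancel₀ hg, hν.one] at this
  omega

theorem pow (g : F) (hg : g ≠ 0) (m : ℕ) : ν (g ^ m) = m * ν g := by
  induction m with
  | zero => simp [hν.one]
  | succ m ih =>
    rw [pow_succ, hν.mul _ _ (pow_ne_zero _ hg) hg, ih]
    push_cast
    ring

theorem zpow (g : F) (hg : g ≠ 0) (z : ℤ) : ν (g ^ z) = z * ν g := by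
  rcases Int.eq_nat_or_neg z with ⟨m, rfl | rfl⟩
  · rw [zpow_natCast, hν.pow g hg]
  · rw [zpow_neg, zpow_natCast, hν.inv _ (pow_ne_zero _ hg), hν.pow g hg]
    ring

/-- The valuation ring of an order function. -/
def valSubring : ValuationSubring F where
  carrier := {g | g = 0 ∨ 0 ≤ ν g}
  mul_mem' := by
    rintro a b (rfl | ha) (rfl | hb)
    · left; simp
    · left; simp
    · left; simp
    · by_cases ha0 : a = 0
      · left; simp [ha0]
      by_cases hb0 : b = 0
      · left; simp [hb0]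
      right
      rw [hν.mul a b ha0 hb0]
      omega
  one_mem' := Or.inr (by rw [hν.one])
  add_mem' := by
    rintro a b ha hb
    by_cases ha0 : a = 0
    · rw [ha0, zero_add]; exact hb
    by_cases hb0 : b = 0
    · rw [hb0, add_zero]; exact ha
    by_cases hab : a + b = 0
    · left; exact hab
    right
    have h1 := ha.resolve_left ha0
    have h2 := hb.resolve_left hb0
    have := hν.add a b ha0 hb0 hab
    exact le_trans (le_min h1 h2) this
  zero_mem' := Or.inl rfl
  neg_mem' := by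
    rintro a (rfl | ha)
    · left; simp
    · by_cases ha0 : a = 0
      · left; simp [ha0]
      right
      rw [hν.neg a ha0]
      exact ha
  mem_or_inv_mem' := by
    intro a
    by_cases ha0 : a = 0
    · left; left; exact ha0
    by_cases h : 0 ≤ ν a
    · left; right; exact h
    · right; right
      rw [hν.inv a ha0]
      omega

theorem mem_valSubring_iff {g : F} (hg : g ≠ 0) : g ∈ hν.valSubring ↔ 0 ≤ ν g :=
  ⟨fun h => h.resolve_left hg, fun h => Or.inr h⟩

end IsOrdFun

/-- **Integer valued valuations of a function field.** -/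
theorem exists_mul_of_dvd_ord {ν : F → ℤ} (hν : IsOrdFun K ν) (n : ℕ) (f : F) (hf : f ≠ 0)
    (h : ∀ v : Place K F, (n : ℤ) ∣ v.ord f) :
    ∃ (g : F) (t : ℤ), g ≠ 0 ∧ ν f = n * t * ν g := by
  classical
  set V : ValuationSubring F := hν.valSubring with hV
  have hν_mul : ∀ {g h : F}, g ≠ 0 → h ≠ 0 → ν (g * h) = ν g + ν h := fun hg hh =>
    hν.mul _ _ hg hh
  have hν_inv : ∀ g : F, g ≠ 0 → ν g⁻¹ = - ν g := fun g hg => hν.inv g hg
  have hν_zpow : ∀ (g : F), g ≠ 0 → ∀ z : ℤ, ν (g ^ z) = z * ν g := fun g hg z => hν.zpow g hg z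
  have hV_iff : ∀ {g : F}, g ≠ 0 → (g ∈ V ↔ 0 ≤ ν g) := fun hg => hν.mem_valSubring_iff hg
  by_cases htop : V = ⊤
  · have h1 : 0 ≤ ν f := (hV_iff hf).mp (htop ▸ ValuationSubring.mem_top f)
    have h2 : 0 ≤ ν f⁻¹ := (hV_iff (inv_ne_zero hf)).mp (htop ▸ ValuationSubring.mem_top _)
    rw [hν_inv f hf] at h2
    have : ν f = 0 := by omega
    exact ⟨1, 0, one_ne_zero, by rw [this]; simp⟩
  -- a positive value exists
  have hex : ∃ m : ℕ, 0 < m ∧ ∃ g : F, g ≠ 0 ∧ ν g = (m : ℤ) := by
    obtain ⟨g, hg⟩ : ∃ g : F, g ∉ V := by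
      by_contra hcon
      apply htop
      refine SetLike.ext fun x => ⟨fun _ => ValuationSubring.mem_top x, fun _ => ?_⟩
      by_contra hx
      exact hcon ⟨x, hx⟩
    have hg0 : g ≠ 0 := fun h0 => hg (h0 ▸ V.zero_mem)
    have hlt : ν g < 0 := by
      by_contra hcon
      exact hg ((hV_iff hg0).mpr (not_lt.mp hcon))
    refine ⟨(- ν g).toNat, by omega, g⁻¹, inv_ne_zero hg0, ?_⟩
    rw [hν_inv g hg0]
    omega
  obtain ⟨e, ⟨he0, π₀, hπ₀, hπν⟩, hmin⟩ : ∃ e : ℕ, (0 < e ∧ ∃ g : F, g ≠ 0 ∧ ν g = (e : ℤ)) ∧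
      ∀ m : ℕ, m < e → ¬ (0 < m ∧ ∃ g : F, g ≠ 0 ∧ ν g = (m : ℤ)) :=
    ⟨Nat.find hex, Nat.find_spec hex, fun m hm => Nat.find_min hex hm⟩
  -- Claim A
  have hA : ∀ {g : F}, g ≠ 0 → (e : ℤ) ∣ ν g := by
    intro g hg
    have hr0 : 0 ≤ ν g % (e : ℤ) := Int.emod_nonneg _ (by omega)
    have hr1 : ν g % (e : ℤ) < e := Int.emod_lt_of_pos _ (by omega)
    have hg' : g * π₀ ^ (- (ν g / (e : ℤ))) ≠ 0 := mul_ne_zero hg (zpow_ne_zero _ hπ₀)
    have hval : ν (g * π₀ ^ (- (ν g / (e : ℤ)))) = ν g % (e : ℤ) := by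
      rw [hν_mul hg (zpow_ne_zero _ hπ₀), hν_zpow _ hπ₀, hπν, Int.emod_def]
      ring
    by_contra hnd
    have hrpos : 0 < ν g % (e : ℤ) := by
      rcases hr0.lt_or_eq with h | h
      · exact h
      · exact absurd (Int.dvd_of_emod_eq_zero h.symm) hnd
    refine hmin (ν g % (e : ℤ)).toNat (by omega) ⟨by omega, _, hg', ?_⟩
    rw [hval]
    omega
  have hπV : π₀ ∈ V := (hV_iff hπ₀).mpr (by rw [hπν]; omega)
  -- units of V
  have hunit : ∀ x : V, (x : F) ≠ 0 → ν (x : F) = 0 → IsUnit x := by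
    intro x hx0 hx
    have hxinv : (x : F)⁻¹ ∈ V :=
      (hV_iff (inv_ne_zero hx0)).mpr (by rw [hν_inv _ hx0, hx, neg_zero])
    refine isUnit_iff_exists_inv.mpr ⟨⟨_, hxinv⟩, Subtype.ext ?_⟩
    simp [mul_inv_cancel₀ hx0]
  have hunit' : ∀ x : V, IsUnit x → ν (x : F) = 0 := by
    intro x hx
    obtain ⟨y, hy⟩ := isUnit_iff_exists_inv.mp hx
    have hy' : (x : F) * (y : F) = 1 := by
      have := congrArg Subtype.val hy
      simpa using this
    have hx0 : (x : F) ≠ 0 := left_ne_zero_of_mul_eq_one hy'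
    have hy0 : (y : F) ≠ 0 := right_ne_zero_of_mul_eq_one hy'
    have h1 := (hV_iff hx0).mp x.2
    have h2 := (hV_iff hy0).mp y.2
    have h3 : ν ((x : F) * (y : F)) = 0 := by
      rw [hy']
      exact hν.one
    rw [hν_mul hx0 hy0] at h3
    omega
  set p : V := ⟨π₀, hπV⟩ with hp
  have hp0 : p ≠ 0 := fun h0 => hπ₀ (congrArg Subtype.val h0)
  have hpirr : Irreducible p := by
    refine ⟨fun hu => ?_, fun a b hab => ?_⟩
    · have := hunit' p hu
      rw [show ((p : V) : F) = π₀ from rfl, hπν] at this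
      omega
    · have hab' : π₀ = (a : F) * (b : F) := congrArg Subtype.val hab
      have ha0 : (a : F) ≠ 0 := fun h0 => hπ₀ (by rw [hab', h0, zero_mul])
      have hb0 : (b : F) ≠ 0 := fun h0 => hπ₀ (by rw [hab', h0, mul_zero])
      have hsum : ν (a : F) + ν (b : F) = e := by
        rw [← hν_mul ha0 hb0, ← hab', hπν]
      have ha1 := (hV_iff ha0).mp a.2
      have hb1 := (hV_iff hb0).mp b.2
      obtain ⟨qa, hqa⟩ := hA ha0
      obtain ⟨qb, hqb⟩ := hA hb0
      have he' : (0 : ℤ) < e := by omega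
      have hqa0 : 0 ≤ qa := by
        by_contra hcon
        have : (e : ℤ) * qa < 0 := mul_neg_of_pos_of_neg he' (not_le.mp hcon)
        omega
      have hqb0 : 0 ≤ qb := by
        by_contra hcon
        have : (e : ℤ) * qb < 0 := mul_neg_of_pos_of_neg he' (not_le.mp hcon)
        omega
      have hq : qa + qb = 1 := by
        have : (e : ℤ) * (qa + qb) = e * 1 := by rw [mul_add, ← hqa, ← hqb, hsum, mul_one]
        exact mul_left_cancel₀ (by omega) this
      have hcase : qa = 0 ∨ qb = 0 := by omega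
      rcases hcase with h0 | h0
      · left
        exact hunit a ha0 (by rw [hqa, h0, mul_zero])
      · right
        exact hunit b hb0 (by rw [hqb, h0, mul_zero])
  have hfact : IsDiscreteValuationRing.HasUnitMulPowIrreducibleFactorization V := by
    refine ⟨p, hpirr, fun {x} hx => ?_⟩
    have hx0 : (x : F) ≠ 0 := fun h0 => hx (Subtype.ext h0)
    obtain ⟨q, hq⟩ := hA hx0
    have hx1 := (hV_iff hx0).mp x.2
    have he' : (0 : ℤ) < e := by omega
    have hq0 : 0 ≤ q := by
      by_contra hcon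
      have : (e : ℤ) * q < 0 := mul_neg_of_pos_of_neg he' (not_le.mp hcon)
      omega
    obtain ⟨m, rfl⟩ := Int.eq_ofNat_of_zero_le hq0
    refine ⟨m, ?_⟩
    have hu0 : (x : F) * (π₀ ^ m)⁻¹ ≠ 0 := mul_ne_zero hx0 (inv_ne_zero (pow_ne_zero _ hπ₀))
    have huν : ν ((x : F) * (π₀ ^ m)⁻¹) = 0 := by
      rw [hν_mul hx0 (inv_ne_zero (pow_ne_zero _ hπ₀)), hν_inv _ (pow_ne_zero _ hπ₀),
        ← zpow_natCast, hν_zpow _ hπ₀, hπν, hq]
      ring
    have huV : (x : F) * (π₀ ^ m)⁻¹ ∈ V := (hV_iff hu0).mpr (by rw [huν])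
    have hU : IsUnit (⟨_, huV⟩ : V) := hunit ⟨_, huV⟩ hu0 huν
    refine ⟨hU.unit, Subtype.ext ?_⟩
    simp only [IsUnit.unit_spec, MulMemClass.coe_mul, SubmonoidClass.coe_pow, hp]
    field_simp
  have hDVR : IsDiscreteValuationRing V :=
    IsDiscreteValuationRing.ofHasUnitMulPowIrreducibleFactorization hfact
  let v : Place K F :=
    { toValuationSubring := V
      algebraMap_mem' := fun a => by
        by_cases ha : a = 0
        · rw [ha, map_zero]; exact V.zero_mem
        · have h0 : algebraMap K F a ≠ 0 := (map_ne_zero _).mpr ha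
          exact (hV_iff h0).mpr (by rw [hν.const a ha])
      ne_top' := htop
      isPrincipalIdealRing' := inferInstance }
  have hp' : Irreducible (p : v.toValuationSubring) := hpirr
  obtain ⟨u, hu⟩ := v.exists_unit_mul_zpow hf hp'
  have huν : ν ((u : v.toValuationSubring) : F) = 0 := hunit' _ u.isUnit
  have hu0 : ((u : v.toValuationSubring) : F) ≠ 0 := by
    intro h0
    rw [h0, zero_mul] at hu
    exact hf hu
  have key : ν f = v.ord f * e := by
    conv_lhs => rw [hu]
    rw [hν_mul hu0 (zpow_ne_zero _ hπ₀), huν, zero_add, hν_zpow _ hπ₀, hπν]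
  obtain ⟨t, ht⟩ := h v
  refine ⟨π₀, t, hπ₀, ?_⟩
  rw [key, ht, hπν]

end OrdVal

end Fermat.Agent.NEB.EIG.H98

end
end
-- ==== END Fermat.Agent.NEB.EIG.H98_OrdVal

-- ==== BEGIN Fermat.Agent.NEB.H14_Corr
section

/-!
# NEB, package JH (helper14): calculus of correspondences on divisors

An additive map `Φ : Div(F) → Div(F')` is a *correspondence with function `N` and degree `d`*
(`IsCorr Φ N d`) if

* `Φ` has finite preimage supports (`Lib.HeckeComm.FinPre`),
* `Φ (div f) = div (N f)` for every `f ≠ 0` (`HasFn`),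
* `deg (Φ D) = d · deg D` (`DegMul`).

Pull-backs (`N = φ`), push-forwards (`N = Norm_φ`), automorphisms (`N = σ`) are correspondences;
the class is closed under composition, sums and multiples.  By the principle
`Lib.HeckeComm.eq_of_eq_on_principal` two correspondences whose functions have the same divisors
are EQUAL.  `picMap Φ : Pic0 K F →+ Pic0 K F'` is the induced map on classes (total definition:
it is `0` if `Φ` does not preserve degree zero and principal divisors).
-/

set_option autoImplicit false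
set_option linter.unusedSectionVars false

noncomputable section

namespace Fermat.Agent.NEB.H14

open AlgebraicCurve Fermat.Agent.Lib.HeckeComm

section Calc

variable {K F F' F'' : Type*} [Field K] [Field F] [Field F'] [Field F'']
  [Algebra K F] [Algebra K F'] [Algebra K F'']

/-- `Φ (div f) = div (N f)`. -/
def HasFn (Φ : Divisor K F →+ Divisor K F') (N : F → F') : Prop :=
  ∀ f : F, f ≠ 0 → N f ≠ 0 ∧
    ∀ D : Divisor K F, (∀ v, D v = v.ord f) → ∀ w, Φ D w = w.ord (N f)

/-- `deg (Φ D) = d · deg D`. -/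
def DegMul (Φ : Divisor K F →+ Divisor K F') (d : ℤ) : Prop :=
  ∀ D, Divisor.degree (Φ D) = d * Divisor.degree D

/-- A correspondence with function `N` and degree `d`. -/
structure IsCorr (Φ : Divisor K F →+ Divisor K F') (N : F → F') (d : ℤ) : Prop where
  finPre : FinPre Φ
  hasFn : HasFn Φ N
  degMul : DegMul Φ d

theorem HasFn.comp {Φ₂ : Divisor K F' →+ Divisor K F''} {Φ₁ : Divisor K F →+ Divisor K F'}
    {N₂ : F' → F''} {N₁ : F → F'} (h₂ : HasFn Φ₂ N₂) (h₁ : HasFn Φ₁ N₁) :
    HasFn (Φ₂.comp Φ₁) (N₂ ∘ N₁) := by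
  intro f hf
  obtain ⟨h1, h1'⟩ := h₁ f hf
  obtain ⟨h2, h2'⟩ := h₂ (N₁ f) h1
  exact ⟨h2, fun D hD w => h2' (Φ₁ D) (h1' D hD) w⟩

theorem IsCorr.comp {Φ₂ : Divisor K F' →+ Divisor K F''} {Φ₁ : Divisor K F →+ Divisor K F'}
    {N₂ : F' → F''} {N₁ : F → F'} {d₂ d₁ : ℤ} (h₂ : IsCorr Φ₂ N₂ d₂) (h₁ : IsCorr Φ₁ N₁ d₁) :
    IsCorr (Φ₂.comp Φ₁) (N₂ ∘ N₁) (d₂ * d₁) where
  finPre := h₂.finPre.comp h₁.finPre
  hasFn := h₂.hasFn.comp h₁.hasFn
  degMul D := by
    rw [AddMonoidHom.comp_apply, h₂.degMul, h₁.degMul, mul_assoc]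

theorem IsCorr.id : IsCorr (AddMonoidHom.id (Divisor K F)) (fun f => f) 1 where
  finPre w := by
    classical
    refine (Set.finite_singleton w).subset fun v hv => ?_
    rw [Set.mem_ofPred_eq, AddMonoidHom.id_apply] at hv
    rw [Set.mem_singleton_iff]
    by_contra hne
    exact hv (Finsupp.single_eq_of_ne (fun h => hne h.symm))
  hasFn f hf := ⟨hf, fun D hD w => hD w⟩
  degMul D := by rw [AddMonoidHom.id_apply, one_mul]

theorem IsCorr.zero : IsCorr (0 : Divisor K F →+ Divisor K F') (fun _ => 1) 0 where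
  finPre w := by
    refine Set.finite_empty.subset fun v hv => ?_
    rw [Set.mem_ofPred_eq, AddMonoidHom.zero_apply] at hv
    exact absurd rfl hv
  hasFn f hf := ⟨one_ne_zero, fun D _ w => by
    rw [AddMonoidHom.zero_apply, Finsupp.zero_apply, Place.ord_one]⟩
  degMul D := by rw [AddMonoidHom.zero_apply, map_zero, zero_mul]

theorem IsCorr.add {Φ Ψ : Divisor K F →+ Divisor K F'} {N N' : F → F'} {d d' : ℤ}
    (h : IsCorr Φ N d) (h' : IsCorr Ψ N' d') :
    IsCorr (Φ + Ψ) (fun f => N f * N' f) (d + d') where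
  finPre w := by
    refine ((h.finPre w).union (h'.finPre w)).subset fun v hv => ?_
    rw [Set.mem_ofPred_eq, AddMonoidHom.add_apply, Finsupp.add_apply] at hv
    by_contra hne
    rw [Set.mem_union, not_or] at hne
    have h1 : Φ (Finsupp.single v 1) w = 0 := by
      by_contra h0
      exact hne.1 h0
    have h2 : Ψ (Finsupp.single v 1) w = 0 := by
      by_contra h0
      exact hne.2 h0
    exact hv (by rw [h1, h2, add_zero])
  hasFn f hf := by
    obtain ⟨h1, h1'⟩ := h.hasFn f hf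
    obtain ⟨h2, h2'⟩ := h'.hasFn f hf
    refine ⟨mul_ne_zero h1 h2, fun D hD w => ?_⟩
    rw [AddMonoidHom.add_apply, Finsupp.add_apply, h1' D hD w, h2' D hD w, w.ord_mul h1 h2]
  degMul D := by
    rw [AddMonoidHom.add_apply, map_add, h.degMul, h'.degMul, add_mul]

theorem IsCorr.sum {ι : Type*} (s : Finset ι) {Φ : ι → (Divisor K F →+ Divisor K F')}
    {N : ι → F → F'} {d : ι → ℤ} (h : ∀ i ∈ s, IsCorr (Φ i) (N i) (d i)) :
    IsCorr (∑ i ∈ s, Φ i) (fun f => ∏ i ∈ s, N i f) (∑ i ∈ s, d i) := by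
  classical
  induction s using Finset.induction_on with
  | empty =>
    simp only [Finset.sum_empty, Finset.prod_empty]
    exact IsCorr.zero
  | insert a s ha ih =>
    simp only [Finset.sum_insert ha, Finset.prod_insert ha]
    exact (h a (Finset.mem_insert_self a s)).add
      (ih fun i hi => h i (Finset.mem_insert_of_mem hi))

theorem IsCorr.nsmul {Φ : Divisor K F →+ Divisor K F'} {N : F → F'} {d : ℤ}
    (h : IsCorr Φ N d) (n : ℕ) : IsCorr (n • Φ) (fun f => N f ^ n) (n * d) := by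
  have h1 := IsCorr.sum (Finset.range n) (Φ := fun _ => Φ) (N := fun _ => N) (d := fun _ => d)
    (fun _ _ => h)
  simp only [Finset.sum_const, Finset.card_range, Finset.prod_const, nsmul_eq_mul] at h1
  rw [← nsmul_eq_mul] at h1
  convert h1 using 1
  rw [nsmul_eq_mul]

/-- Change of the function within the same divisor class of functions (e.g. by constants). -/
theorem IsCorr.congr_fn {Φ : Divisor K F →+ Divisor K F'} {N N' : F → F'} {d : ℤ}
    (h : IsCorr Φ N d) (hN : ∀ f, f ≠ 0 → N' f = N f) : IsCorr Φ N' d where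
  finPre := h.finPre
  hasFn f hf := by
    rw [hN f hf]
    exact h.hasFn f hf
  degMul := h.degMul

/-- **The principle**: correspondences with the same function are equal. -/
theorem IsCorr.eq_of_ord [HasPrincipalDivisors K F] {Φ Ψ : Divisor K F →+ Divisor K F'}
    {N N' : F → F'} {d d' : ℤ} (h : IsCorr Φ N d) (h' : IsCorr Ψ N' d')
    (hN : ∀ f, f ≠ 0 → ∀ w : Place K F', w.ord (N f) = w.ord (N' f)) : Φ = Ψ := by
  refine eq_of_eq_on_principal Φ Ψ h.finPre h'.finPre fun f D hf hD => ?_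
  apply Finsupp.ext
  intro w
  rw [(h.hasFn f hf).2 D hD w, (h'.hasFn f hf).2 D hD w, hN f hf w]

theorem IsCorr.eq [HasPrincipalDivisors K F] {Φ Ψ : Divisor K F →+ Divisor K F'}
    {N N' : F → F'} {d d' : ℤ} (h : IsCorr Φ N d) (h' : IsCorr Ψ N' d')
    (hN : ∀ f, f ≠ 0 → N f = N' f) : Φ = Ψ :=
  h.eq_of_ord h' fun f hf w => by rw [hN f hf]

/-- **Kummer form**: if `n • D = div f` then `n • Φ D = div (N f)`. -/
theorem HasFn.kummer {Φ : Divisor K F →+ Divisor K F'} {N : F → F'} (h : HasFn Φ N)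
    (n : ℤ) (D : Divisor K F) {f : F} (hf : f ≠ 0) (hD : ∀ v, n * D v = v.ord f)
    (w : Place K F') : n * Φ D w = w.ord (N f) := by
  have h1 := (h f hf).2 (n • D) (fun v => by rw [Finsupp.smul_apply, smul_eq_mul, hD v]) w
  rw [map_zsmul, Finsupp.smul_apply, smul_eq_mul] at h1
  exact h1

theorem IsCorr.map_degZero {Φ : Divisor K F →+ Divisor K F'} {N : F → F'} {d : ℤ}
    (h : IsCorr Φ N d) {D : Divisor K F} (hD : D ∈ Divisor.degZero (K := K) (F := F)) :
    Φ D ∈ Divisor.degZero (K := K) (F := F') := by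
  rw [Divisor.mem_degZero] at hD ⊢
  rw [h.degMul, hD, mul_zero]

theorem HasFn.map_principal {Φ : Divisor K F →+ Divisor K F'} {N : F → F'}
    (h : HasFn Φ N) {D : Divisor K F} (hD : D ∈ Divisor.principal (K := K) (F := F)) :
    Φ D ∈ Divisor.principal (K := K) (F := F') := by
  obtain ⟨f, hf, hDf⟩ := hD
  exact ⟨N f, (h f hf).1, (h f hf).2 D hDf⟩

end Calc

section PicMap

variable {K F F' F'' : Type*} [Field K] [Field F] [Field F'] [Field F'']
  [Algebra K F] [Algebra K F'] [Algebra K F'']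

/-- `Φ` preserves degree zero and principal divisors. -/
def IsGood (Φ : Divisor K F →+ Divisor K F') : Prop :=
  (∀ D, D ∈ Divisor.degZero (K := K) (F := F) → Φ D ∈ Divisor.degZero (K := K) (F := F')) ∧
  (∀ D, D ∈ Divisor.principal (K := K) (F := F) → Φ D ∈ Divisor.principal (K := K) (F := F'))

theorem IsCorr.isGood {Φ : Divisor K F →+ Divisor K F'} {N : F → F'} {d : ℤ}
    (h : IsCorr Φ N d) : IsGood Φ :=
  ⟨fun _ hD => h.map_degZero hD, fun _ hD => h.hasFn.map_principal hD⟩

theorem IsGood.comp {Φ₂ : Divisor K F' →+ Divisor K F''} {Φ₁ : Divisor K F →+ Divisor K F'}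
    (h₂ : IsGood Φ₂) (h₁ : IsGood Φ₁) : IsGood (Φ₂.comp Φ₁) :=
  ⟨fun D hD => h₂.1 _ (h₁.1 D hD), fun D hD => h₂.2 _ (h₁.2 D hD)⟩

theorem IsGood.add {Φ Ψ : Divisor K F →+ Divisor K F'} (h : IsGood Φ) (h' : IsGood Ψ) :
    IsGood (Φ + Ψ) :=
  ⟨fun D hD => add_mem (h.1 D hD) (h'.1 D hD), fun D hD => add_mem (h.2 D hD) (h'.2 D hD)⟩

/-- The restriction of a good map to divisors of degree zero. -/
def degZeroMap (Φ : Divisor K F →+ Divisor K F') (h : IsGood Φ) :
    Divisor.degZero (K := K) (F := F) →+ Divisor.degZero (K := K) (F := F') :=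
  (Φ.domRestrict (Divisor.degZero (K := K) (F := F))).codRestrict _ (fun D => h.1 D D.2)

@[simp]
theorem coe_degZeroMap (Φ : Divisor K F →+ Divisor K F') (h : IsGood Φ)
    (D : Divisor.degZero (K := K) (F := F)) :
    (degZeroMap Φ h D : Divisor K F') = Φ (D : Divisor K F) := rfl

open scoped Classical in
/-- The map induced on `Pic⁰` (zero if `Φ` is not good). -/
def picMap (Φ : Divisor K F →+ Divisor K F') : Pic0 K F →+ Pic0 K F' :=
  if h : IsGood Φ then
    QuotientAddGroup.map _ _ (degZeroMap Φ h) (by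
      rintro ⟨D, hD0⟩ hD
      simp only [AddSubgroup.mem_addSubgroupOf] at hD ⊢
      exact h.2 D hD)
  else 0

theorem picMap_mk {Φ : Divisor K F →+ Divisor K F'} (h : IsGood Φ)
    (D : Divisor.degZero (K := K) (F := F)) :
    picMap Φ (Pic0.mk D) = Pic0.mk (degZeroMap Φ h D) := by
  rw [picMap, dif_pos h]
  rfl

theorem picMap_comp {Φ₂ : Divisor K F' →+ Divisor K F''} {Φ₁ : Divisor K F →+ Divisor K F'}
    (h₂ : IsGood Φ₂) (h₁ : IsGood Φ₁) :
    picMap (Φ₂.comp Φ₁) = (picMap Φ₂).comp (picMap Φ₁) := by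
  refine AddMonoidHom.ext fun x => ?_
  obtain ⟨D, rfl⟩ := Pic0.mk_surjective x
  rw [AddMonoidHom.comp_apply, picMap_mk h₁, picMap_mk h₂, picMap_mk (h₂.comp h₁)]
  rfl

theorem picMap_add {Φ Ψ : Divisor K F →+ Divisor K F'} (h : IsGood Φ) (h' : IsGood Ψ) :
    picMap (Φ + Ψ) = picMap Φ + picMap Ψ := by
  refine AddMonoidHom.ext fun x => ?_
  obtain ⟨D, rfl⟩ := Pic0.mk_surjective x
  rw [AddMonoidHom.add_apply, picMap_mk h, picMap_mk h', picMap_mk (h.add h')]
  rfl

theorem picMap_id : picMap (AddMonoidHom.id (Divisor K F)) = AddMonoidHom.id (Pic0 K F) := by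
  refine AddMonoidHom.ext fun x => ?_
  obtain ⟨D, rfl⟩ := Pic0.mk_surjective x
  rw [picMap_mk (IsCorr.id (K := K) (F := F)).isGood]
  rfl

theorem picMap_zero : picMap (0 : Divisor K F →+ Divisor K F') = 0 := by
  refine AddMonoidHom.ext fun x => ?_
  obtain ⟨D, rfl⟩ := Pic0.mk_surjective x
  rw [picMap_mk (IsCorr.zero (K := K) (F := F) (F' := F')).isGood]
  rfl

theorem picMap_sum {ι : Type*} (s : Finset ι) {Φ : ι → (Divisor K F →+ Divisor K F')}
    (h : ∀ i ∈ s, IsGood (Φ i)) : picMap (∑ i ∈ s, Φ i) = ∑ i ∈ s, picMap (Φ i) := by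
  classical
  induction s using Finset.induction_on with
  | empty => simp only [Finset.sum_empty]; exact picMap_zero
  | insert a s ha ih =>
    have hs : IsGood (∑ i ∈ s, Φ i) := by
      clear ih
      induction s using Finset.induction_on with
      | empty =>
        simp only [Finset.sum_empty]
        exact (IsCorr.zero (K := K) (F := F) (F' := F')).isGood
      | insert b t hb iht =>
        rw [Finset.sum_insert hb]
        refine (h b (Finset.mem_insert_of_mem (Finset.mem_insert_self b t))).add (iht ?_ ?_)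
        · exact fun hat => ha (Finset.mem_insert_of_mem hat)
        · intro i hi
          rcases Finset.mem_insert.mp hi with rfl | hi
          · exact h _ (Finset.mem_insert_self _ _)
          · exact h i (Finset.mem_insert_of_mem (Finset.mem_insert_of_mem hi))
    rw [Finset.sum_insert ha, Finset.sum_insert ha,
      picMap_add (h a (Finset.mem_insert_self a s)) hs,
      ih fun i hi => h i (Finset.mem_insert_of_mem hi)]

theorem picMap_nsmul {Φ : Divisor K F →+ Divisor K F'} (h : IsGood Φ) (n : ℕ) :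
    picMap (n • Φ) = n • picMap Φ := by
  have h1 := picMap_sum (Finset.range n) (Φ := fun _ => Φ) (fun _ _ => h)
  simpa using h1

/-- The class of `Φ D` in Kummer form: `picMap Φ (mk D) = mk E` if `E = Φ D` pointwise. -/
theorem picMap_mk_eq {Φ : Divisor K F →+ Divisor K F'} (h : IsGood Φ)
    (D : Divisor.degZero (K := K) (F := F)) (E : Divisor.degZero (K := K) (F := F'))
    (hE : (E : Divisor K F') = Φ (D : Divisor K F)) : picMap Φ (Pic0.mk D) = Pic0.mk E := by
  rw [picMap_mk h]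
  exact congrArg Pic0.mk (Subtype.ext hE.symm)

end PicMap

end Fermat.Agent.NEB.H14

end
end
-- ==== END Fermat.Agent.NEB.H14_Corr

-- ==== BEGIN Fermat.Agent.NEB.H30_A2Q
section

/-!
# LG-NEB, package FH-A2Q (helper30): coefficient descent and ratios of forms with algebraic
coefficients

* `lc_retract` : a `K`-linear functional `π : L → K` applied coefficientwise to an identity
  `∑ cᵢ · ι(zᵢ) = ∑ dⱼ · ι(wⱼ)` (`zᵢ, wⱼ ∈ K((q))`, `cᵢ, dⱼ ∈ L`) gives `∑ π(cᵢ) zᵢ = ∑ π(dⱼ) wⱼ`.
* `descent` : **coefficient descent**: for fields `ℚ ⊆ K ⊆ L` (`ι : K →+* L`), `F₀ ⊆ ℚ((q))` a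
  subfield: `g ∈ K((q))` and `ι(g) ∈ F₀ · L` imply `g ∈ F₀ · K`.
* `descent_rat` : for `g ∈ ℚ((q))`: `g ∈ F₀ · L` implies `g ∈ F₀`.
* `ratio_mem_of_forms` : **FH-A2Q**, `K`-form: if `A`, `B` are modular forms of weight `k` on
  `Γ₀(M)` whose `q`-expansions are `ι(a)`, `ι(b)` with `a, b ∈ K((q))` (`K ⊆ ℂ`), then
  `a / b ∈ F₀(M) · K`.
* `ratio_mem_bar` : the case `K = ℚ̄` (`modularFunctionFieldBar M`);
* `ratio_mem_full` : the case `K = ℚ` (`modularFunctionFieldFull M`).
-/

set_option autoImplicit false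
set_option linter.unusedSectionVars false
set_option linter.unusedVariables false

open ModularCurve

noncomputable section

namespace Fermat.Agent.NEB.H30

open Fermat.Agent.GTor Fermat.Agent.GTor.H75

section Retract

variable {K L : Type} [Field K] [Field L] (ι : K →+* L)

/-- Apply an additive functional `π : L → K`, `K`-linear in the sense `π (c * ι x) = π c * x`,
coefficientwise to an identity between `L`-linear combinations of series over `K`. -/
theorem lc_retract (π : L →+ K)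
    (hsmul : ∀ (x : K) (c : L), π (c * ι x) = π c * x)
    {I J : Type*} [Fintype I] [Fintype J]
    (c : I → L) (z : I → LaurentSeries K) (d : J → L) (w : J → LaurentSeries K)
    (h : ∑ i, c i • coeffMap ι (z i) = ∑ j, d j • coeffMap ι (w j)) :
    ∑ i, π (c i) • z i = ∑ j, π (d j) • w j := by
  ext n
  have hn := congrArg (fun x : LaurentSeries L => π (x.coeff n)) h
  simp only [H56.coeff_sum_smul, coeffMap_coeff, map_sum, hsmul] at hn
  rw [H56.coeff_sum_smul, H56.coeff_sum_smul]
  exact hn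

end Retract

section Descent

variable {K L : Type} [Field K] [Field L] [Algebra ℚ K] [Algebra ℚ L] (ι : K →+* L)
  (F₀ : IntermediateField ℚ (LaurentSeries ℚ))

theorem coeffMap_coeffEmb_eq (y : LaurentSeries ℚ) :
    coeffMap ι (coeffEmb K y) = coeffEmb L y := by
  rw [coeffEmb, coeffEmb, coeffMap_coeffMap]
  exact coeffMap_congr (Subsingleton.elim _ _) y

/-- **Coefficient descent**: `ι(K((q))) ∩ F₀·L = ι(F₀·K)`. -/
theorem descent (g : LaurentSeries K)
    (hg : coeffMap ι g ∈ laurentBaseChange L F₀) : g ∈ laurentBaseChange K F₀ := by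
  by_cases hg0 : g = 0
  · rw [hg0]
    exact zero_mem _
  have hf0 : coeffMap ι g ≠ 0 := by
    intro h
    apply hg0
    ext n
    have := congrArg (fun x : LaurentSeries L => x.coeff n) h
    simp only [coeffMap_coeff, HahnSeries.coeff_zero] at this
    exact (map_eq_zero ι).mp this
  obtain ⟨r, y, a, r', y', b, hy, hy', hP0, hQ0, e⟩ := exists_lc L F₀ hg hf0
  -- a coefficient of the denominator which is not zero
  obtain ⟨m, hm⟩ := exists_coeff_ne_zero hQ0
  rw [lc_coeff] at hm
  set β : L := ∑ i, b i * algebraMap ℚ L ((y' i).coeff m) with hβ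
  -- a `K`-linear retraction
  let _ : Algebra K L := ι.toAlgebra
  have hinj : LinearMap.ker (Algebra.linearMap K L) = ⊥ := by
    rw [LinearMap.ker_eq_bot]
    exact ι.injective
  obtain ⟨ρ, hρ⟩ := LinearMap.exists_leftInverse_of_injective (Algebra.linearMap K L) hinj
  have hρ1 : ∀ x : K, ρ (ι x) = x := fun x => LinearMap.congr_fun hρ x
  let π : L →+ K := (ρ.toAddMonoidHom).comp (AddMonoidHom.mulLeft β⁻¹)
  have hπ : ∀ c, π c = ρ (β⁻¹ * c) := fun c => rfl
  have hsmul : ∀ (x : K) (c : L), π (c * ι x) = π c * x := fun x c => by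
    rw [hπ, hπ]
    have : β⁻¹ * (c * ι x) = x • (β⁻¹ * c) := by
      rw [Algebra.smul_def]
      show β⁻¹ * (c * ι x) = ι x * (β⁻¹ * c)
      ring
    rw [this, map_smul, smul_eq_mul, mul_comm]
  have hπβ : π β = 1 := by
    rw [hπ, inv_mul_cancel₀ hm]
    have := hρ1 1
    rwa [map_one] at this
  -- the identity, as an identity between linear combinations of series over `K`
  have e1 : ∑ i, b i • coeffMap ι (g * coeffEmb K (y' i))
      = ∑ i, a i • coeffMap ι (coeffEmb K (y i)) := by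
    have e2 : coeffMap ι g * lc (algebraMap ℚ L) y' b
        = ∑ i, b i • coeffMap ι (g * coeffEmb K (y' i)) := by
      rw [lc, Finset.mul_sum]
      refine Finset.sum_congr rfl fun i _ => ?_
      rw [map_mul, coeffMap_coeffEmb_eq, H56.smul_eq_algebraMap_mul, H56.smul_eq_algebraMap_mul]
      show coeffMap ι g * (algebraMap L (LaurentSeries L) (b i) * coeffEmb L (y' i)) = _
      ring
    have e3 : lc (algebraMap ℚ L) y a = ∑ i, a i • coeffMap ι (coeffEmb K (y i)) := by
      rw [lc]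
      refine Finset.sum_congr rfl fun i _ => ?_
      rw [coeffMap_coeffEmb_eq]
      rfl
    rw [← e2, ← e3, e]
  have e4 := lc_retract ι π hsmul b (fun i => g * coeffEmb K (y' i)) a
    (fun i => coeffEmb K (y i)) e1
  -- rewrite as `g * Q' = P'`
  have e5 : g * lc (algebraMap ℚ K) y' (fun i => π (b i))
      = lc (algebraMap ℚ K) y (fun i => π (a i)) := by
    rw [lc, lc, Finset.mul_sum]
    refine Eq.trans ?_ e4
    refine Finset.sum_congr rfl fun i _ => ?_
    rw [H56.smul_eq_algebraMap_mul, H56.smul_eq_algebraMap_mul]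
    show g * (algebraMap K (LaurentSeries K) (π (b i)) * coeffEmb K (y' i)) = _
    ring
  -- the new denominator is not zero
  have hQ' : lc (algebraMap ℚ K) y' (fun i => π (b i)) ≠ 0 := by
    intro h
    have h1 := congrArg (fun x : LaurentSeries K => x.coeff m) h
    simp only [lc_coeff, HahnSeries.coeff_zero] at h1
    have h2 : π β = ∑ i, π (b i) * algebraMap ℚ K ((y' i).coeff m) := by
      rw [hβ, map_sum]
      refine Finset.sum_congr rfl fun i _ => ?_
      have : algebraMap ℚ L ((y' i).coeff m) = ι (algebraMap ℚ K ((y' i).coeff m)) :=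
        (RingHom.congr_fun (Subsingleton.elim (ι.comp (algebraMap ℚ K)) (algebraMap ℚ L)) _).symm
      rw [this, hsmul]
    rw [hπβ, h1] at h2
    exact one_ne_zero h2
  have hPmem := lc_mem K F₀ y hy (fun i => π (a i))
  have hQmem := lc_mem K F₀ y' hy' (fun i => π (b i))
  have : g = lc (algebraMap ℚ K) y (fun i => π (a i))
      / lc (algebraMap ℚ K) y' (fun i => π (b i)) := by
    rw [eq_div_iff hQ', e5]
  rw [this]
  exact div_mem hPmem hQmem

theorem laurentBaseChange_rat : laurentBaseChange ℚ F₀ = F₀ := by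
  have hid : ∀ x : LaurentSeries ℚ, coeffEmb ℚ x = x := fun x => by
    rw [coeffEmb]
    have : algebraMap ℚ ℚ = RingHom.id ℚ := Subsingleton.elim _ _
    rw [this, coeffMap_id]
  have : (coeffEmb ℚ '' (F₀ : Set (LaurentSeries ℚ))) = (F₀ : Set (LaurentSeries ℚ)) := by
    ext x
    constructor
    · rintro ⟨y, hy, rfl⟩
      rwa [hid]
    · intro hx
      exact ⟨x, hx, hid x⟩
  rw [laurentBaseChange, this]
  exact IntermediateField.adjoin_self ℚ F₀

/-- **Coefficient descent to `ℚ`**: `ℚ((q)) ∩ F₀·L = F₀`. -/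
theorem descent_rat (g : LaurentSeries ℚ)
    (hg : coeffEmb L g ∈ laurentBaseChange L F₀) : g ∈ F₀ := by
  have := descent (algebraMap ℚ L) F₀ g hg
  rwa [laurentBaseChange_rat] at this

end Descent

section Forms

open CongruenceSubgroup

variable {K : Type} [Field K] [Algebra ℚ K] (ι : K →+* ℂ) {M : ℕ} [NeZero M]

/-- **FH-A2Q**: the ratio of two modular forms of the same weight on `Γ₀(M)` with
`q`-expansion coefficients in `K ⊆ ℂ` lies in `F₀(M) · K`. -/
theorem ratio_mem_of_forms {k : ℤ} (A B : ModularForm (Gamma0 M) k)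
    (a b : LaurentSeries K) (ha : coeffMap ι a = qLaurent A) (hb : coeffMap ι b = qLaurent B) :
    a / b ∈ laurentBaseChange K (modularFunctionFieldFull M) := by
  by_cases hB : B = 0
  · have hb0 : b = 0 := by
      have h1 : coeffMap ι b = 0 := by
        rw [hb, hB, qLaurent]
        have : ((0 : ModularForm (Gamma0 M) k) : UpperHalfPlane → ℂ) = 0 := rfl
        rw [this, UpperHalfPlane.qExpansion_zero, map_zero]
      ext n
      have := congrArg (fun x : LaurentSeries ℂ => x.coeff n) h1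
      simp only [coeffMap_coeff, HahnSeries.coeff_zero] at this
      exact (map_eq_zero ι).mp this
    rw [hb0, div_zero]
    exact zero_mem _
  obtain ⟨f, -, hf⟩ := H58.stmt_A2 (N := M) k A B hB
  have hB0 : qLaurent B ≠ 0 := H58.qLaurent_ne_zero (N := M) hB
  apply descent ι
  have : coeffMap ι (a / b) = (f : LaurentSeries ℂ) := by
    rw [map_div₀, ha, hb, hf, mul_div_assoc, div_self hB0, mul_one]
  rw [this]
  exact f.2

/-- **FH-A2Q over `ℚ̄`**. -/
theorem ratio_mem_bar (ι : AlgebraicClosure ℚ →+* ℂ) {k : ℤ} (A B : ModularForm (Gamma0 M) k)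
    (a b : LaurentSeries (AlgebraicClosure ℚ)) (ha : coeffMap ι a = qLaurent A)
    (hb : coeffMap ι b = qLaurent B) : a / b ∈ modularFunctionFieldBar M :=
  ratio_mem_of_forms ι A B a b ha hb

/-- **FH-A2Q over `ℚ`**. -/
theorem ratio_mem_full {k : ℤ} (A B : ModularForm (Gamma0 M) k)
    (a b : LaurentSeries ℚ) (ha : coeffEmb ℂ a = qLaurent A)
    (hb : coeffEmb ℂ b = qLaurent B) : a / b ∈ modularFunctionFieldFull M := by
  have := ratio_mem_of_forms (algebraMap ℚ ℂ) A B a b ha hb
  rwa [laurentBaseChange_rat] at this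

end Forms

end Fermat.Agent.NEB.H30

end
end
-- ==== END Fermat.Agent.NEB.H30_A2Q

-- ==== BEGIN Fermat.Agent.NEB.H34_KumUnr
section

/-!
# NEB, package FH-UNR, abstract part (helper34): Kummer extensions by unramified classes

`K ⊆ F ⊆ L` (`φ : F →ₐ[K] L`), `w` a place of `L` of degree one, `v` a place of `F` with
`w.ord (φ f) = e · v.ord f`, `e > 0`.  If `L` is generated as a ring over `F` by elements `z` with
`z = 0` or `z ^ m = φ u`, `m ∣ v.ord u` (`m ≠ 0` in `K`), then `w` has a uniformiser in `F`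
(`exists_uniformizer_of_kummer`), i.e. `e = 1`.

Proof without completions: `z' = z / φ(π)^j` is a `w`-unit with `z'^m = φ u'`;
`(z' - φ c) · S = φ (u' - c^m)` with `S = ∑ z'^i (φ c)^(m-1-i)` a `w`-unit as soon as `z' ≡ φ c`;
hence `w.ord (z' - φ c) = e · v.ord (u' - c^m)` and `c` can be improved step by step
(only values at `w` are used).  So `φ F` is `w`-adically dense in `L`.
-/

set_option autoImplicit false
set_option linter.style.haveILetI false

noncomputable section

namespace Fermat.Agent.NEB.H34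

open AlgebraicCurve Fermat.Agent.RED.H51 Fermat.Agent.RED.H17

variable {K F L : Type*} [Field K] [Field F] [Field L] [Algebra K F] [Algebra K L]

/-- `f` is a `w`-adic limit of elements of `φ F`. -/
def Approx (φ : F →ₐ[K] L) (w : Place K L) (f : L) : Prop :=
  ∀ N : ℤ, ∃ g : F, OrdGe w N (f - φ g)

variable {φ : F →ₐ[K] L} {w : Place K L}

theorem approx_map (g : F) : Approx φ w (φ g) := fun _ => ⟨g, by simp⟩

theorem Approx.add {f f' : L} (hf : Approx φ w f) (hf' : Approx φ w f') :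
    Approx φ w (f + f') := by
  intro N
  obtain ⟨g, hg⟩ := hf N
  obtain ⟨g', hg'⟩ := hf' N
  refine ⟨g + g', ?_⟩
  have : f + f' - φ (g + g') = (f - φ g) + (f' - φ g') := by rw [map_add]; ring
  rw [this]
  exact hg.add hg'

theorem Approx.neg {f : L} (hf : Approx φ w f) : Approx φ w (-f) := by
  intro N
  obtain ⟨g, hg⟩ := hf N
  refine ⟨-g, ?_⟩
  have : -f - φ (-g) = -(f - φ g) := by rw [map_neg]; ring
  rw [this]
  exact hg.neg

theorem Approx.mul {f f' : L} (hf : Approx φ w f) (hf' : Approx φ w f') :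
    Approx φ w (f * f') := by
  intro N
  rcases eq_or_ne f' 0 with rfl | hf'0
  · exact ⟨0, by simp⟩
  obtain ⟨g, hg⟩ := hf (N - w.ord f')
  have h1 : OrdGe w N ((f - φ g) * f') := by
    have := hg.mul (ordGe_of_le (v := w) (f := f') le_rfl)
    rwa [sub_add_cancel] at this
  rcases eq_or_ne (φ g) 0 with hg0 | hg0
  · refine ⟨0, ?_⟩
    rw [hg0, sub_zero] at h1
    simpa using h1
  obtain ⟨g', hg'⟩ := hf' (N - w.ord (φ g))
  have h2 : OrdGe w N (φ g * (f' - φ g')) := by
    have := (ordGe_of_le (v := w) (f := φ g) le_rfl).mul hg'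
    rwa [add_sub_cancel] at this
  refine ⟨g * g', ?_⟩
  have : f * f' - φ (g * g') = (f - φ g) * f' + φ g * (f' - φ g') := by rw [map_mul]; ring
  rw [this]
  exact h1.add h2

/-- If `L` is generated as a ring by `φ F` and approximable elements, everything is
approximable. -/
theorem approx_of_closure {S : Set L} (hS : ∀ s ∈ S, Approx φ w s)
    (hgen : ∀ y : L, y ∈ Subring.closure (Set.range φ ∪ S)) (y : L) : Approx φ w y := by
  have := hgen y
  induction this using Subring.closure_induction with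
  | mem x hx =>
    rcases hx with ⟨g, rfl⟩ | hx
    · exact approx_map g
    · exact hS x hx
  | zero => simpa using approx_map (φ := φ) (w := w) 0
  | one => simpa using approx_map (φ := φ) (w := w) 1
  | add x y _ _ hx hy => exact hx.add hy
  | neg x _ hx => exact hx.neg
  | mul x y _ _ hx hy => exact hx.mul hy

/-- If `φ F` is `w`-adically dense, `w` has a uniformiser in `F`. -/
theorem exists_uniformizer_of_approx (h : ∀ y : L, Approx φ w y) : ∃ x : F, w.ord (φ x) = 1 := by
  obtain ⟨t, ht0, ht⟩ := exists_uniformizer w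
  obtain ⟨g, hg⟩ := h t 2
  refine ⟨g, ?_⟩
  have h1 : OrdGe w (w.ord t + 1) (-(t - φ g)) := by
    rw [ht]
    exact hg.neg
  have := (ord_add_eq w ht0 h1).2
  rw [ht] at this
  rw [← this]
  congr 1
  ring

theorem ordGe_pow_sub_pow {x y : L} (hx : OrdGe w 0 x) (hy : OrdGe w 0 y)
    (hxy : OrdGe w 1 (x - y)) (j : ℕ) : OrdGe w 1 (x ^ j - y ^ j) := by
  rw [← geom_sum₂_mul]
  have h1 : OrdGe w 0 (∑ i ∈ Finset.range j, x ^ i * y ^ (j - 1 - i)) := by
    refine ordGe_sum w 0 _ _ fun i _ => ?_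
    have := (ordGe_pow hx i).mul (ordGe_pow hy (j - 1 - i))
    simpa using this
  have := h1.mul hxy
  simpa using this

/-- The basic identity: for a `w`-unit `z` with `z ^ m = φ u` and `c` with `z ≡ φ c`:
`w.ord (z - φ c) = w.ord (φ (u - c ^ m))`. -/
theorem ord_sub_eq_of_pow {m : ℕ} (hm : (m : K) ≠ 0) {z : L} {u c : F}
    (hz : z ^ m = φ u) (hz0 : w.ord z = 0) (hz1 : z ≠ 0) (hc : OrdGe w 1 (z - φ c)) :
    (z - φ c = 0 ∧ u - c ^ m = 0) ∨
      (z - φ c ≠ 0 ∧ u - c ^ m ≠ 0 ∧ w.ord (z - φ c) = w.ord (φ (u - c ^ m))) := by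
  have hm0 : m ≠ 0 := by rintro rfl; simp at hm
  have hzr : OrdGe w 0 z := Or.inr hz0.ge
  have hcr : OrdGe w 0 (φ c) := by
    have := hzr.sub (hc.mono (by norm_num : (0 : ℤ) ≤ 1))
    simpa using this
  set S : L := ∑ i ∈ Finset.range m, z ^ i * (φ c) ^ (m - 1 - i) with hS
  have hSmul : S * (z - φ c) = φ (u - c ^ m) := by
    rw [hS, geom_sum₂_mul, hz, map_sub, map_pow]
  -- `S ≡ m z^(m-1)`
  have hmL : (algebraMap K L (m : K)) ≠ 0 := by
    intro h
    exact hm ((map_eq_zero_iff _ (algebraMap K L).injective).mp h)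
  have hlead0 : algebraMap K L (m : K) * z ^ (m - 1) ≠ 0 :=
    mul_ne_zero hmL (pow_ne_zero _ hz1)
  have hleadord : w.ord (algebraMap K L (m : K) * z ^ (m - 1)) = 0 := by
    rw [w.ord_mul hmL (pow_ne_zero _ hz1), Fermat.Agent.RED.H51.ord_algebraMap, Fermat.Agent.RED.H51.ord_pow, hz0]
    simp
  have hdiff : OrdGe w 1 (S - algebraMap K L (m : K) * z ^ (m - 1)) := by
    have e1 : algebraMap K L (m : K) * z ^ (m - 1) = ∑ i ∈ Finset.range m, z ^ i * z ^ (m - 1 - i) := by
      rw [Finset.sum_congr rfl (fun i hi => by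
        rw [← pow_add, show i + (m - 1 - i) = m - 1 by
          have := Finset.mem_range.mp hi; omega])]
      simp
    rw [e1, hS, ← Finset.sum_sub_distrib]
    refine ordGe_sum w 1 _ _ fun i _ => ?_
    rw [← mul_sub]
    have h2 := ordGe_pow_sub_pow hcr hzr (by
      have := hc.neg
      simpa using this) (m - 1 - i)
    have := (ordGe_pow hzr i).mul h2
    simpa using this
  have hSord : S ≠ 0 ∧ w.ord S = 0 := by
    have := ord_add_eq w hlead0 (g := S - algebraMap K L (m : K) * z ^ (m - 1)) (by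
      rw [hleadord]; simpa using hdiff)
    rw [hleadord] at this
    simpa using this
  by_cases hzc : z - φ c = 0
  · left
    refine ⟨hzc, ?_⟩
    rw [hzc, mul_zero] at hSmul
    exact (map_eq_zero_iff φ φ.injective).mp hSmul.symm
  · right
    have hne : φ (u - c ^ m) ≠ 0 := by
      rw [← hSmul]
      exact mul_ne_zero hSord.1 hzc
    refine ⟨hzc, fun h => hne (by rw [h, map_zero]), ?_⟩
    rw [← hSmul, w.ord_mul hSord.1 hzc, hSord.2, zero_add]


theorem pos_of_mul_pos {e : ℕ} {k n : ℤ} (h : (e : ℤ) * n + 1 ≤ e * k) : n + 1 ≤ k := by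
  by_contra hk
  have hk' : k ≤ n := by omega
  have : (e : ℤ) * k ≤ e * n := mul_le_mul_of_nonneg_left hk' (Int.natCast_nonneg e)
  omega

/-- Step-by-step improvement of the approximation of a `w`-unit `z` with `z ^ m ∈ φ F`. -/
theorem exists_approx_unit {m : ℕ} (hm : (m : K) ≠ 0) (hdeg : w.deg = 1)
    {e : ℕ} (v : Place K F) (hev : ∀ f : F, w.ord (φ f) = e * v.ord f)
    {z : L} {u : F} (hz : z ^ m = φ u) (hz0 : w.ord z = 0) (hz1 : z ≠ 0) (n : ℕ) :
    ∃ c : F, OrdGe w 1 (z - φ c) ∧ OrdGe v (n + 1 : ℤ) (u - c ^ m) := by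
  induction n with
  | zero =>
    obtain ⟨a, ha⟩ := _root_.Fermat.Agent.RED.H17.exists_value w hdeg (regAt_of_ord_nonneg (v := w) (f := z) hz0.ge)
    refine ⟨algebraMap K F a, ?_, ?_⟩
    · rw [φ.commutes]
      exact (vanAt_iff_ord w _).mp ha |>.imp id fun h => by omega
    · have hc : OrdGe w 1 (z - φ (algebraMap K F a)) := by
        rw [φ.commutes]
        exact (vanAt_iff_ord w _).mp ha |>.imp id fun h => by omega
      rcases ord_sub_eq_of_pow hm hz hz0 hz1 hc with ⟨-, h⟩ | ⟨h1, h2, h3⟩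
      · exact Or.inl h
      · refine Or.inr ?_
        have h4 := hc.le h1
        rw [h3, hev] at h4
        have := pos_of_mul_pos (e := e) (n := 0) (k := v.ord (u - algebraMap K F a ^ m))
          (by simpa using h4)
        simpa using this
  | succ n ih =>
    obtain ⟨c, hc, hcu⟩ := ih
    rcases ord_sub_eq_of_pow hm hz hz0 hz1 hc with ⟨-, h⟩ | ⟨h1, h2, h3⟩
    · exact ⟨c, hc, Or.inl h⟩
    have hk := hcu.le h2
    by_cases hk2 : ((n + 1 : ℕ) : ℤ) + 1 ≤ v.ord (u - c ^ m)
    · exact ⟨c, hc, Or.inr hk2⟩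
    have hkeq : v.ord (u - c ^ m) = n + 1 := by push_cast at hk2; omega
    obtain ⟨π, hπ0, hπ⟩ := exists_uniformizer v
    have hφπ0 : φ π ≠ 0 := (map_ne_zero_iff φ φ.injective).mpr hπ0
    have hφπ : w.ord (φ π) = e := by rw [hev, hπ, mul_one]
    set r : L := (z - φ c) / φ π ^ (n + 1) with hr
    have hr0 : w.ord r = 0 := by
      rw [hr, Fermat.Agent.RED.H51.ord_div w h1 (pow_ne_zero _ hφπ0),
        Fermat.Agent.RED.H51.ord_pow, hφπ, h3, hev, hkeq]
      push_cast
      ring
    obtain ⟨a, ha⟩ := _root_.Fermat.Agent.RED.H17.exists_value w hdeg (regAt_of_ord_nonneg (v := w) (f := r) hr0.ge)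
    have ha' : OrdGe w 1 (r - algebraMap K L a) :=
      (vanAt_iff_ord w _).mp ha |>.imp id fun h => by omega
    set c' : F := c + algebraMap K F a * π ^ (n + 1) with hc'
    have hdiff : z - φ c' = φ π ^ (n + 1) * (r - algebraMap K L a) := by
      rw [hc', map_add, map_mul, map_pow, φ.commutes, hr]
      field_simp
      ring
    have hbig : OrdGe w ((e : ℤ) * (n + 1) + 1) (z - φ c') := by
      rw [hdiff]
      have h5 : OrdGe w ((e : ℤ) * (n + 1)) (φ π ^ (n + 1)) := by
        refine Or.inr ?_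
        rw [Fermat.Agent.RED.H51.ord_pow, hφπ]
        push_cast
        ring_nf
        exact le_rfl
      exact h5.mul ha'
    have hc1 : OrdGe w 1 (z - φ c') :=
      hbig.mono (by
        have : (0 : ℤ) ≤ (e : ℤ) * (n + 1) := by positivity
        omega)
    refine ⟨c', hc1, ?_⟩
    rcases ord_sub_eq_of_pow hm hz hz0 hz1 hc1 with ⟨-, h⟩ | ⟨h1', h2', h3'⟩
    · exact Or.inl h
    · refine Or.inr ?_
      have h6 := hbig.le h1'
      rw [h3', hev] at h6
      have := pos_of_mul_pos (e := e) (n := n + 1) (k := v.ord (u - c' ^ m)) h6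
      push_cast
      omega

/-- A `w`-unit `z` with `z ^ m ∈ φ F` is a `w`-adic limit of elements of `φ F`. -/
theorem approx_unit {m : ℕ} (hm : (m : K) ≠ 0) (hdeg : w.deg = 1)
    {e : ℕ} (he : 0 < e) (v : Place K F) (hev : ∀ f : F, w.ord (φ f) = e * v.ord f)
    {z : L} {u : F} (hz : z ^ m = φ u) (hz0 : w.ord z = 0) (hz1 : z ≠ 0) : Approx φ w z := by
  intro N
  obtain ⟨c, hc, hcu⟩ := exists_approx_unit hm hdeg v hev hz hz0 hz1 N.toNat
  refine ⟨c, ?_⟩
  rcases ord_sub_eq_of_pow hm hz hz0 hz1 hc with ⟨h, -⟩ | ⟨h1, h2, h3⟩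
  · exact Or.inl h
  · refine Or.inr ?_
    rw [h3, hev]
    have hk := hcu.le h2
    have h7 : (N.toNat : ℤ) + 1 ≤ (e : ℤ) * v.ord (u - c ^ m) := by
      have he' : (1 : ℤ) ≤ e := by exact_mod_cast he
      have hk0 : (0 : ℤ) ≤ v.ord (u - c ^ m) := by omega
      nlinarith
    have := Int.self_le_toNat N
    omega


/-- A Kummer generator `z` (`z ^ m = φ u`, `m ∣ v.ord u`) is a `w`-adic limit of elements of
`φ F`. -/
theorem approx_kummer {m : ℕ} (hm : (m : K) ≠ 0) (hdeg : w.deg = 1)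
    {e : ℕ} (he : 0 < e) (v : Place K F) (hev : ∀ f : F, w.ord (φ f) = e * v.ord f)
    {z : L} {u : F} (hu0 : u ≠ 0) (hz : z ^ m = φ u) (hu : (m : ℤ) ∣ v.ord u) :
    Approx φ w z := by
  have hm0 : m ≠ 0 := by rintro rfl; simp at hm
  obtain ⟨j, hj⟩ := hu
  obtain ⟨π, hπ0, hπ⟩ := exists_uniformizer v
  have hφπ0 : φ π ≠ 0 := (map_ne_zero_iff φ φ.injective).mpr hπ0
  have hφπ : w.ord (φ π) = e := by rw [hev, hπ, mul_one]
  have hz1 : z ≠ 0 := by
    rintro rfl
    rw [zero_pow hm0] at hz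
    exact hu0 ((map_eq_zero_iff φ φ.injective).mp hz.symm)
  have hzord : w.ord z = e * j := by
    have h1 : w.ord (z ^ m) = (m : ℤ) * w.ord z := Fermat.Agent.RED.H51.ord_pow w z m
    rw [hz, hev, hj] at h1
    have hm' : (m : ℤ) ≠ 0 := by exact_mod_cast hm0
    have : (m : ℤ) * w.ord z = m * (e * j) := by rw [← h1]; ring
    exact mul_left_cancel₀ hm' this
  set z' : L := z * (φ π ^ j)⁻¹ with hz'
  have hpj0 : φ π ^ j ≠ 0 := zpow_ne_zero _ hφπ0
  have hz'0 : z' ≠ 0 := mul_ne_zero hz1 (inv_ne_zero hpj0)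
  have hz'ord : w.ord z' = 0 := by
    rw [hz', w.ord_mul hz1 (inv_ne_zero hpj0), w.ord_inv, w.ord_zpow, hφπ, hzord]
    ring
  have hz'm : z' ^ m = φ (u * (π ^ j)⁻¹ ^ m) := by
    rw [hz', mul_pow, hz, map_mul, map_pow, map_inv₀, map_zpow₀]
  have h1 := approx_unit hm hdeg he v hev hz'm hz'ord hz'0
  have h2 : Approx φ w (z' * φ (π ^ j)) := h1.mul (approx_map _)
  have e1 : z' * φ (π ^ j) = z := by
    rw [hz', map_zpow₀, mul_assoc, inv_mul_cancel₀ hpj0, mul_one]
  rwa [e1] at h2

/-- **Kummer extensions by unramified classes are unramified.**  If `L` is generated as a ring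
by `φ F` and elements `z` with `z = 0` or `z ^ m = φ u`, `m ∣ v.ord u` (`v` the place below `w`,
`w.ord ∘ φ = e · v.ord`, `e > 0`), and `w` has degree one, then `w` has a uniformiser in `F`. -/
theorem exists_uniformizer_of_kummer {m : ℕ} (hm : (m : K) ≠ 0) (hdeg : w.deg = 1)
    {e : ℕ} (he : 0 < e) (v : Place K F) (hev : ∀ f : F, w.ord (φ f) = e * v.ord f)
    (S : Set L) (hS : ∀ z ∈ S, z = 0 ∨ ∃ u : F, u ≠ 0 ∧ z ^ m = φ u ∧ (m : ℤ) ∣ v.ord u)
    (hgen : ∀ y : L, y ∈ Subring.closure (Set.range φ ∪ S)) :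
    ∃ x : F, w.ord (φ x) = 1 := by
  refine exists_uniformizer_of_approx (approx_of_closure (S := S) ?_ hgen)
  intro z hzS
  rcases hS z hzS with rfl | ⟨u, hu0, hz, hu⟩
  · simpa using approx_map (φ := φ) (w := w) 0
  · exact approx_kummer hm hdeg he v hev hu0 hz hu

/-- Version along an integral `K`-algebra hom, in the prelude's language. -/
theorem exists_uniformizer_along {m : ℕ} (hm : (m : K) ≠ 0)
    (φ : F →ₐ[K] L) (hφ : φ.toRingHom.IsIntegral) (w : Place K L) (hdeg : w.deg = 1)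
    (S : Set L)
    (hS : ∀ z ∈ S, z = 0 ∨ ∃ u : F, u ≠ 0 ∧ z ^ m = φ u ∧
      (m : ℤ) ∣ (w.restrictAlong φ hφ).ord u)
    (hgen : ∀ y : L, y ∈ Subring.closure (Set.range φ ∪ S)) :
    ∃ x : F, w.ord (φ x) = 1 := by
  have he : 0 < Place.ramificationIndexAlong φ w := by
    letI := algebraAlong φ
    haveI := isScalarTower_along φ
    haveI := isIntegral_along φ hφ
    exact w.ramificationIndex_pos (F := F)
  exact exists_uniformizer_of_kummer hm hdeg he (w.restrictAlong φ hφ)
    (fun f => Place.ord_restrictAlong φ hφ w f) S hS hgen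

end Fermat.Agent.NEB.H34

end
end
-- ==== END Fermat.Agent.NEB.H34_KumUnr

-- ==== BEGIN Fermat.Agent.S48.H55_IrrLine
section

/-!
# S48, leaf Irr (helper55): linear algebra and finite level

* `irr_of_no_line` : a two-dimensional matrix representation without stable line is irreducible;
* `finite_range_of_finiteLevel` : a homomorphism of finite level has finite range;
* `trace_eq_of_eigen` : `tr g = c + det g / c` for an eigenvalue `c ≠ 0` of a `2 × 2` matrix.
-/

set_option autoImplicit false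
set_option linter.style.haveILetI false

namespace Fermat.Agent.S48.H55

local notation "Γℚ" => (AlgebraicClosure ℚ ≃ₐ[ℚ] AlgebraicClosure ℚ)

/-- A two-dimensional matrix representation without stable line is irreducible. -/
theorem irr_of_no_line {G : Type} [Group G] (ρ : G →* GL (Fin 2) ℂ)
    (h : ¬ ∃ v : Fin 2 → ℂ, v ≠ 0 ∧
      ∀ σ : G, ∃ c : ℂ, ((ρ σ : GL (Fin 2) ℂ) : Matrix (Fin 2) (Fin 2) ℂ).mulVec v = c • v) :
    (Deformation.matrixRepresentation ρ).IsIrreducible := by
  haveI : Nontrivial (Subrepresentation (Deformation.matrixRepresentation ρ)) := by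
    refine ⟨⊥, ⊤, ?_⟩
    intro hbt
    have h1 : (⊥ : Submodule ℂ (Fin 2 → ℂ)) = ⊤ := congrArg Subrepresentation.toSubmodule hbt
    exact bot_ne_top h1
  refine ⟨fun W => ?_⟩
  by_contra hW
  push_neg at hW
  obtain ⟨hbot, htop⟩ := hW
  have hbot' : W.toSubmodule ≠ ⊥ := fun h => hbot (Subrepresentation.toSubmodule_injective h)
  have htop' : W.toSubmodule ≠ ⊤ := fun h => htop (Subrepresentation.toSubmodule_injective h)
  obtain ⟨v, hvW, hv0⟩ := Submodule.exists_mem_ne_zero_of_ne_bot hbot'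
  have hlt : Module.finrank ℂ W.toSubmodule < 2 := by
    have := Submodule.finrank_lt htop'
    rwa [Module.finrank_fin_fun] at this
  have hpos : Module.finrank ℂ W.toSubmodule ≠ 0 := by
    intro h0
    exact hbot' (Submodule.finrank_eq_zero.mp h0)
  have hone : Module.finrank ℂ W.toSubmodule = 1 := by omega
  have hv0' : (⟨v, hvW⟩ : W.toSubmodule) ≠ 0 := fun h0 => hv0 (congrArg Subtype.val h0)
  have hall := (finrank_eq_one_iff_of_nonzero' (⟨v, hvW⟩ : W.toSubmodule) hv0').mp hone
  apply h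
  refine ⟨v, hv0, fun σ => ?_⟩
  have hmem := W.apply_mem_toSubmodule σ hvW
  obtain ⟨c, hc⟩ := hall ⟨_, hmem⟩
  refine ⟨c, ?_⟩
  have h2 := congrArg Subtype.val hc
  simp only [Submodule.coe_smul] at h2
  rw [h2, Deformation.matrixRepresentation_apply]
  rfl

/-- `tr g = c + det g / c` for an eigenvalue `c ≠ 0` of a `2 × 2` matrix. -/
theorem trace_eq_of_eigen (g : Matrix (Fin 2) (Fin 2) ℂ) (v : Fin 2 → ℂ) (hv : v ≠ 0) (c : ℂ)
    (hc : c ≠ 0) (h : g.mulVec v = c • v) : g.trace = c + g.det / c := by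
  have h1 : (g - Matrix.scalar (Fin 2) c).det = 0 := by
    rw [← Matrix.exists_mulVec_eq_zero_iff]
    refine ⟨v, hv, ?_⟩
    rw [Matrix.sub_mulVec, h]
    ext i
    fin_cases i <;> simp [Matrix.scalar, Matrix.diagonal]
  rw [Matrix.det_fin_two] at h1
  simp only [Matrix.sub_apply, Matrix.scalar_apply, Matrix.diagonal_apply_eq,
    Matrix.diagonal_apply_ne, ne_eq, Fin.zero_eq_one_iff, Fin.one_eq_zero_iff,
    OfNat.ofNat_ne_one, not_false_eq_true, sub_zero] at h1
  rw [Matrix.trace_fin_two, Matrix.det_fin_two]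
  field_simp
  linear_combination (-1 : ℂ) * h1

/-- A homomorphism of finite level has finite range. -/
theorem finite_range_of_finiteLevel {M : Type} [Group M] (r : Γℚ →* M)
    (h : GaloisFactorsThroughFiniteLevel r) : Finite r.range := by
  obtain ⟨L, hL, hr⟩ := h
  haveI := hL
  let res : Γℚ → (L →ₐ[ℚ] AlgebraicClosure ℚ) := fun σ =>
    (σ : AlgebraicClosure ℚ →ₐ[ℚ] AlgebraicClosure ℚ).comp L.val
  have key : ∀ σ τ : Γℚ, res σ = res τ → r σ = r τ := by
    intro σ τ hst
    have h1 : r (τ⁻¹ * σ) = 1 := hr _ (fun x hx => by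
      have h2 : σ x = τ x := DFunLike.congr_fun hst ⟨x, hx⟩
      show τ⁻¹ (σ x) = x
      rw [h2]
      exact τ.symm_apply_apply x)
    rw [map_mul, map_inv, inv_mul_eq_one] at h1
    exact h1.symm
  haveI : Finite (L →ₐ[ℚ] AlgebraicClosure ℚ) := Finite.algHom ℚ L (AlgebraicClosure ℚ)
  let f : Set.range res → r.range := fun x => ⟨r x.2.choose, ⟨_, rfl⟩⟩
  have hf : Function.Surjective f := by
    rintro ⟨m, σ, rfl⟩
    refine ⟨⟨res σ, ⟨σ, rfl⟩⟩, ?_⟩
    apply Subtype.ext
    show r _ = r σ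
    exact key _ _ (Exists.choose_spec (⟨σ, rfl⟩ : ∃ τ, res τ = res σ))
  exact Finite.of_surjective f hf

/-- Every value of a homomorphism of finite level has finite order. -/
theorem exists_pow_eq_one_of_finiteLevel {M : Type} [Group M] (r : Γℚ →* M)
    (h : GaloisFactorsThroughFiniteLevel r) (σ : Γℚ) : ∃ n : ℕ, 0 < n ∧ r σ ^ n = 1 := by
  haveI := finite_range_of_finiteLevel r h
  obtain ⟨n, hn, hpow⟩ := (isOfFinOrder_of_finite (r.rangeRestrict σ)).exists_pow_eq_one
  refine ⟨n, hn, ?_⟩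
  have h1 := congrArg Subtype.val hpow
  simpa using h1

end Fermat.Agent.S48.H55

end
-- ==== END Fermat.Agent.S48.H55_IrrLine
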