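-- GENERATED (merged mirror, NOTES/tools/trim/merge3_helper67.py): 5 modules of the originals, bodies verbatim.
import Mathlib
import Fermat.Prelude.Def_FLTPrelim_ModularRep
import Fermat.Prelude.Def_FreyPackage_LevelRaising
import Fermat.Agent.Zm.S35_L04_002
import Fermat.Agent.Zm.S35_L08_003
import Fermat.Agent.Zm.S35_L09_001
import Fermat.Agent.Zm.S35_L07_000
import Fermat.Agent.Zm.S35_L03_002

-- ==== BEGIN Fermat.Agent.NEB.H70_RedQ
section

/-!
# LG-NEB, package RED-q (helper70), part 1: Kronecker's congruence for the operators of `X_H`,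
series level

`C` a field, `O : ValuationSubring C`, residue field `k = kV O`.  Everything here is a statement
about Laurent series in `C((q))`, their Gauss reduction `gaussRedV O`, and the formal operators

* `uSeries ℓ s  = ∏_{ζ^ℓ = 1} s (ζ q^{1/ℓ})`          (Kummer function of `U_ℓ`),
* `twNorm ℓ y s = y (q^ℓ) · ∏_{ζ^ℓ = 1} s (ζ q^{1/ℓ})`  (Kummer function of `T_ℓ` on `X_H`:
  `y = ⟨ℓ⟩ s`, or `y = s` and `s` replaced by `⟨ℓ⟩⁻¹ s`; `twNorm ℓ s s = H44.normSeries s`).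

Vocabulary:

* `RedTo O x y`     : `x` lies in the Gauss ring and reduces to `y`;
* `IsRedOneC O x`   : some constant multiple of `x` reduces to `1`
  (`x ∈ Cˣ · (1 + 𝔪_Gauss)`: the class of `x` in the kernel `K_A` of the reduction map).

Results (residue characteristic `ℓ`, `s` a Frobenius lift: a ring automorphism of `C` preserving
`O` and inducing `a ↦ a ^ ℓ` on `k`; all series are "scalable": a constant multiple is a Gauss
unit):

* `RedTo.uSer`      : `res (uSeries x) = Frob (res x)`                      (Kronecker for `U_ℓ`);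
* `RedTo.twN`       : `res (twNorm y x) = (res y)(q^ℓ) · Frob (res x)`      (Kronecker for `T_ℓ`);
* `isRedOneC_U`     : `uSeries x / s x ∈ Cˣ (1 + 𝔪)`                      (`(U_ℓ - φ) J ⊆ K_A`);
* `isRedOneC_ES`    : `s² x₂ · twNorm (s x₁) (s x₂)⁻¹ · x₁ ^ ℓ ∈ Cˣ (1 + 𝔪)`
                      (`(φ² d₂ - T_ℓ φ + ℓ d₁) J ⊆ K_A`, the Eichler–Shimura relation);
* `isRedOneC_inertia` : `σ x / x ∈ Cˣ (1 + 𝔪)` for `σ` inertial           (`(σ - 1) J ⊆ K_A`).

No `sorry`.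
-/

set_option autoImplicit false

noncomputable section

open ModularCurve Fermat.Agent.S28 Fermat.Agent.S28.H73 Fermat.Agent.RED.H73 Fermat.Agent.GTor

namespace Fermat.Agent.NEB.H70

/-! ## 1. The formal operators -/

section Ops

variable {C : Type} [Field C] (ℓ : ℕ) [NeZero ℓ]

/-- `uSeries ℓ s = ∏_{ζ^ℓ = 1} s (ζ q^{1/ℓ})`. -/
def uSeries (s : LaurentSeries C) : LaurentSeries C :=
  H44.descend ℓ (H44.twistProd C ℓ s)

/-- `twNorm ℓ y s = y (q^ℓ) · ∏_{ζ^ℓ = 1} s (ζ q^{1/ℓ})`. -/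
def twNorm (y s : LaurentSeries C) : LaurentSeries C :=
  qExpand C ℓ y * uSeries ℓ s

theorem normSeries_eq_twNorm (s : LaurentSeries C) :
    H44.normSeries C ℓ s = twNorm ℓ s s := rfl

variable {ℓ}

theorem uSeries_mul {ζ₀ : Cˣ} (hζ : IsPrimitiveRoot ζ₀ ℓ) (s t : LaurentSeries C) :
    uSeries ℓ (s * t) = uSeries ℓ s * uSeries ℓ t := by
  unfold uSeries
  rw [H44.twistProd_mul, H44.descend_mul (H44.isSupp_twistProd hζ s) (H44.isSupp_twistProd hζ t)]

theorem uSeries_one : uSeries ℓ (1 : LaurentSeries C) = 1 := by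
  unfold uSeries
  rw [H44.twistProd_one, H44.descend_one]

theorem uSeries_C {ζ₀ : Cˣ} (hζ : IsPrimitiveRoot ζ₀ ℓ) (c : C) :
    uSeries ℓ (HahnSeries.C c : LaurentSeries C) = HahnSeries.C (c ^ ℓ) := by
  unfold uSeries
  rw [H44.twistProd_eq_prod_range hζ]
  have h1 : ∏ j ∈ Finset.range ℓ, H44.twistBy (ζ₀ ^ j) (HahnSeries.C c : LaurentSeries C)
      = (HahnSeries.C c : LaurentSeries C) ^ ℓ := by
    rw [Finset.prod_congr rfl (g := fun _ => (HahnSeries.C c : LaurentSeries C))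
      (fun j _ => H44.twistBy_C _ c), Finset.prod_const, Finset.card_range]
  have h2 : (HahnSeries.C (c ^ ℓ) : LaurentSeries C) = qExpand C ℓ (HahnSeries.C (c ^ ℓ)) :=
    (qExpand_C (R := C) (N := ℓ) (c ^ ℓ)).symm
  rw [h1, ← map_pow]
  conv_lhs => rw [h2]
  exact H44.descend_qExpand ℓ _

theorem uSeries_ne_zero {ζ₀ : Cˣ} (hζ : IsPrimitiveRoot ζ₀ ℓ) {s : LaurentSeries C}
    (hs : s ≠ 0) : uSeries ℓ s ≠ 0 := by
  intro h0
  have h1 : uSeries ℓ s * uSeries ℓ s⁻¹ = 1 := by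
    rw [← uSeries_mul hζ, mul_inv_cancel₀ hs, uSeries_one]
  rw [h0, zero_mul] at h1
  exact zero_ne_one h1

theorem uSeries_inv {ζ₀ : Cˣ} (hζ : IsPrimitiveRoot ζ₀ ℓ) {s : LaurentSeries C} (hs : s ≠ 0) :
    uSeries ℓ s⁻¹ = (uSeries ℓ s)⁻¹ := by
  have h1 : uSeries ℓ s * uSeries ℓ s⁻¹ = 1 := by
    rw [← uSeries_mul hζ, mul_inv_cancel₀ hs, uSeries_one]
  exact eq_inv_of_mul_eq_one_right h1

theorem twNorm_mul {ζ₀ : Cˣ} (hζ : IsPrimitiveRoot ζ₀ ℓ) (y y' s s' : LaurentSeries C) :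
    twNorm ℓ (y * y') (s * s') = twNorm ℓ y s * twNorm ℓ y' s' := by
  unfold twNorm
  rw [map_mul, uSeries_mul hζ]
  ring

theorem twNorm_C {ζ₀ : Cˣ} (hζ : IsPrimitiveRoot ζ₀ ℓ) (c d : C) :
    twNorm ℓ (HahnSeries.C c : LaurentSeries C) (HahnSeries.C d) = HahnSeries.C (c * d ^ ℓ) := by
  unfold twNorm
  rw [qExpand_C, uSeries_C hζ, ← map_mul]

theorem uSeries_C_mul {ζ₀ : Cˣ} (hζ : IsPrimitiveRoot ζ₀ ℓ) (c : C) (s : LaurentSeries C) :
    uSeries ℓ (HahnSeries.C c * s) = HahnSeries.C (c ^ ℓ) * uSeries ℓ s := by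
  rw [uSeries_mul hζ, uSeries_C hζ]

theorem twNorm_C_mul {ζ₀ : Cˣ} (hζ : IsPrimitiveRoot ζ₀ ℓ) (c d : C) (y s : LaurentSeries C) :
    twNorm ℓ (HahnSeries.C c * y) (HahnSeries.C d * s)
      = HahnSeries.C (c * d ^ ℓ) * twNorm ℓ y s := by
  rw [twNorm_mul hζ, twNorm_C hζ]

end Ops

/-! ## 2. `RedTo`: membership in the Gauss ring together with the value of the reduction -/

section RedTo

variable {C : Type} [Field C] (O : ValuationSubring C)

/-- `x` lies in the Gauss ring of `O` and reduces to `y`. -/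
def RedTo (x : LaurentSeries C) (y : LaurentSeries (kV O)) : Prop :=
  ∃ hx : x ∈ gaussRingV O, gaussRedV O ⟨x, hx⟩ = y

variable {O}

theorem RedTo.mem {x : LaurentSeries C} {y : LaurentSeries (kV O)} (h : RedTo O x y) :
    x ∈ gaussRingV O := h.1

theorem RedTo.eq {x : LaurentSeries C} {y : LaurentSeries (kV O)} (h : RedTo O x y)
    (hx : x ∈ gaussRingV O) : gaussRedV O ⟨x, hx⟩ = y := h.2

theorem redTo_of_mem {x : LaurentSeries C} (hx : x ∈ gaussRingV O) :
    RedTo O x (gaussRedV O ⟨x, hx⟩) := ⟨hx, rfl⟩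

theorem RedTo.unique {x : LaurentSeries C} {y y' : LaurentSeries (kV O)} (h : RedTo O x y)
    (h' : RedTo O x y') : y = y' := by
  obtain ⟨hx, rfl⟩ := h
  obtain ⟨hx', rfl⟩ := h'
  rfl

theorem RedTo.one : RedTo O (1 : LaurentSeries C) 1 :=
  ⟨(gaussRingV O).one_mem, map_one (gaussRedV O)⟩

theorem RedTo.mul {x x' : LaurentSeries C} {y y' : LaurentSeries (kV O)} (h : RedTo O x y)
    (h' : RedTo O x' y') : RedTo O (x * x') (y * y') := by
  obtain ⟨hx, rfl⟩ := h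
  obtain ⟨hx', rfl⟩ := h'
  refine ⟨(gaussRingV O).mul_mem hx hx', ?_⟩
  have e : (⟨x * x', (gaussRingV O).mul_mem hx hx'⟩ : gaussRingV O)
      = (⟨x, hx⟩ : gaussRingV O) * ⟨x', hx'⟩ := Subtype.ext rfl
  rw [e, map_mul]

theorem RedTo.pow {x : LaurentSeries C} {y : LaurentSeries (kV O)} (h : RedTo O x y) (n : ℕ) :
    RedTo O (x ^ n) (y ^ n) := by
  induction n with
  | zero => rw [pow_zero, pow_zero]; exact RedTo.one
  | succ n ih => rw [pow_succ, pow_succ]; exact ih.mul h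

theorem RedTo.inv {x : LaurentSeries C} {y : LaurentSeries (kV O)} (h : RedTo O x y)
    (hy : y ≠ 0) : RedTo O x⁻¹ y⁻¹ := by
  obtain ⟨hx, rfl⟩ := h
  have hinv : x⁻¹ ∈ gaussRingV O := inv_mem_gaussRingV O hx hy
  refine ⟨hinv, ?_⟩
  have hx0 : x ≠ 0 := by
    rintro rfl
    apply hy
    exact map_zero (gaussRedV O)
  have h1 : gaussRedV O ⟨x, hx⟩ * gaussRedV O ⟨x⁻¹, hinv⟩ = 1 := by
    rw [← map_mul]
    have e : (⟨x, hx⟩ * ⟨x⁻¹, hinv⟩ : gaussRingV O) = 1 :=
      Subtype.ext (mul_inv_cancel₀ hx0)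
    rw [e, map_one]
  exact eq_inv_of_mul_eq_one_right h1

theorem RedTo.ne_zero {x : LaurentSeries C} {y : LaurentSeries (kV O)} (h : RedTo O x y)
    (hy : y ≠ 0) : x ≠ 0 := by
  rintro rfl
  obtain ⟨hx, rfl⟩ := h
  exact hy (map_zero (gaussRedV O))

theorem RedTo.gaussUnit {x : LaurentSeries C} {y : LaurentSeries (kV O)} (h : RedTo O x y)
    (hy : y ≠ 0) : GaussUnit O x := by
  obtain ⟨hx, rfl⟩ := h
  exact gaussUnit_of_gaussRedV_ne_zero O hx hy

theorem redTo_of_gaussUnit {x : LaurentSeries C} (hx : GaussUnit O x) :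
    ∃ y : LaurentSeries (kV O), y ≠ 0 ∧ RedTo O x y :=
  ⟨gaussRedV O ⟨x, hx.mem⟩, gaussRedV_ne_zero_of_gaussUnit O hx hx.mem, hx.mem, rfl⟩

theorem RedTo.qExp (N : ℕ) [NeZero N] {x : LaurentSeries C} {y : LaurentSeries (kV O)}
    (h : RedTo O x y) : RedTo O (qExpand C N x) (qExpand (kV O) N y) := by
  obtain ⟨hx, rfl⟩ := h
  exact ⟨qExpand_mem_gaussRingV O N hx, gaussRedV_qExpand O N ⟨x, hx⟩ _⟩

theorem RedTo.cMap (s : C ≃+* C) (hs : ∀ a : C, s a ∈ O ↔ a ∈ O) {x : LaurentSeries C}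
    {y : LaurentSeries (kV O)} (h : RedTo O x y) :
    RedTo O (coeffMap (s : C →+* C) x) (coeffMap (RED.H33.autkHom O s hs) y) := by
  obtain ⟨hx, rfl⟩ := h
  exact ⟨RED.H33.coeffMap_mem_gaussRingV O s hs hx, RED.H33.gaussRedV_coeffMap O s hs hx⟩

theorem RedTo.inertial {σ : C →+* C} (hσ : BAD.H91.InertialOn O σ) {x : LaurentSeries C}
    {y : LaurentSeries (kV O)} (h : RedTo O x y) : RedTo O (coeffMap σ x) y := by
  obtain ⟨hx, rfl⟩ := h
  exact ⟨BAD.H91.coeffMap_mem_gaussRingV hσ hx, BAD.H91.gaussRedV_coeffMap hσ hx _⟩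

theorem RedTo.C_mem {c : C} (hc : c ∈ O) :
    RedTo O (HahnSeries.C c : LaurentSeries C) (HahnSeries.C (resV O ⟨c, hc⟩)) :=
  ⟨C_mem_gaussRingV O hc, gaussRedV_C O ⟨c, hc⟩ _⟩

end RedTo

/-! ## 3. Kronecker's congruence for `uSeries` and `twNorm` -/

section Kron

variable {C : Type} [Field C] (O : ValuationSubring C) (ℓ : ℕ) [Fact ℓ.Prime] [CharP (kV O) ℓ]

/-- The Frobenius on the coefficients of a series over the residue field. -/
abbrev Fr : LaurentSeries (kV O) →+* LaurentSeries (kV O) :=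
  coeffMap (frobenius (kV O) ℓ)

variable {O ℓ}

theorem RedTo.nSer {ζ₀ : Cˣ} (hζ : IsPrimitiveRoot ζ₀ ℓ) {x : LaurentSeries C}
    {y : LaurentSeries (kV O)} (h : RedTo O x y) :
    RedTo O (H44.normSeries C ℓ x) (qExpand (kV O) ℓ y * Fr O ℓ y) := by
  obtain ⟨hx, rfl⟩ := h
  exact ⟨RED.H95.normSeries_mem_gaussRingV O ℓ hζ hx,
    RED.H95.gaussRedV_normSeries O ℓ hζ hx _⟩

/-- **Kronecker for `U_ℓ`**: `res (∏ x (ζ q^{1/ℓ})) = Frob (res x)` for Gauss units `x`. -/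
theorem RedTo.uSer {ζ₀ : Cˣ} (hζ : IsPrimitiveRoot ζ₀ ℓ) {x : LaurentSeries C}
    {y : LaurentSeries (kV O)} (h : RedTo O x y) (hy : y ≠ 0) :
    RedTo O (uSeries ℓ x) (Fr O ℓ y) := by
  have hx0 : x ≠ 0 := h.ne_zero hy
  have hq0 : qExpand C ℓ x ≠ 0 := RED.H73.qExpand_ne_zero ℓ hx0
  have hqy0 : qExpand (kV O) ℓ y ≠ 0 := RED.H73.qExpand_ne_zero ℓ hy
  have e : uSeries ℓ x = (qExpand C ℓ x)⁻¹ * H44.normSeries C ℓ x := by
    rw [normSeries_eq_twNorm, twNorm, ← mul_assoc, inv_mul_cancel₀ hq0, one_mul]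
  have h1 := ((h.qExp ℓ).inv hqy0).mul (h.nSer hζ)
  rw [← e] at h1
  have e2 : (qExpand (kV O) ℓ y)⁻¹ * (qExpand (kV O) ℓ y * Fr O ℓ y) = Fr O ℓ y := by
    rw [← mul_assoc, inv_mul_cancel₀ hqy0, one_mul]
  rwa [e2] at h1

/-- **Kronecker for `T_ℓ`**: `res (y (q^ℓ) ∏ x (ζ q^{1/ℓ})) = (res y)(q^ℓ) · Frob (res x)`. -/
theorem RedTo.twN {ζ₀ : Cˣ} (hζ : IsPrimitiveRoot ζ₀ ℓ) {x x' : LaurentSeries C}
    {y y' : LaurentSeries (kV O)} (h' : RedTo O x' y') (h : RedTo O x y) (hy : y ≠ 0) :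
    RedTo O (twNorm ℓ x' x) (qExpand (kV O) ℓ y' * Fr O ℓ y) :=
  (h'.qExp ℓ).mul (h.uSer hζ hy)

/-- In characteristic `ℓ`: `(Frob y)(q^ℓ) = y ^ ℓ`. -/
theorem qExpand_Fr (y : LaurentSeries (kV O)) :
    qExpand (kV O) ℓ (Fr O ℓ y) = y ^ ℓ :=
  (RED.H10.pow_char_eq ℓ y).symm

end Kron

/-! ## 4. Classes reducing to `1` -/

section RedOne

variable {C : Type} [Field C] (O : ValuationSubring C)

/-- Some constant multiple of `x` reduces to `1`. -/
def IsRedOneC (x : LaurentSeries C) : Prop :=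
  ∃ c : C, c ≠ 0 ∧ RedTo O (HahnSeries.C c * x) 1

/-- Some constant multiple of `x` is a Gauss unit. -/
def Scalable (x : LaurentSeries C) : Prop :=
  ∃ c : C, c ≠ 0 ∧ GaussUnit O (HahnSeries.C c * x)

variable {O}

theorem Scalable.exists_redTo {x : LaurentSeries C} (hx : Scalable O x) :
    ∃ (c : C) (y : LaurentSeries (kV O)), c ≠ 0 ∧ y ≠ 0 ∧ RedTo O (HahnSeries.C c * x) y := by
  obtain ⟨c, hc, hu⟩ := hx
  obtain ⟨y, hy, h⟩ := redTo_of_gaussUnit hu
  exact ⟨c, y, hc, hy, h⟩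

theorem IsRedOneC.scalable {x : LaurentSeries C} (hx : IsRedOneC O x) : Scalable O x := by
  obtain ⟨c, hc, h⟩ := hx
  exact ⟨c, hc, h.gaussUnit one_ne_zero⟩

theorem isRedOneC_one : IsRedOneC O (1 : LaurentSeries C) :=
  ⟨1, one_ne_zero, by rw [map_one, one_mul]; exact RedTo.one⟩

theorem isRedOneC_C {c : C} (hc : c ≠ 0) : IsRedOneC O (HahnSeries.C c : LaurentSeries C) :=
  ⟨c⁻¹, inv_ne_zero hc, by rw [← map_mul, inv_mul_cancel₀ hc, map_one]; exact RedTo.one⟩

theorem IsRedOneC.mul {x x' : LaurentSeries C} (h : IsRedOneC O x) (h' : IsRedOneC O x') :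
    IsRedOneC O (x * x') := by
  obtain ⟨c, hc, h1⟩ := h
  obtain ⟨c', hc', h1'⟩ := h'
  refine ⟨c * c', mul_ne_zero hc hc', ?_⟩
  have := h1.mul h1'
  rw [one_mul] at this
  have e : HahnSeries.C (c * c') * (x * x')
      = HahnSeries.C c * x * (HahnSeries.C c' * x') := by
    rw [map_mul]; ring
  rwa [e]

theorem IsRedOneC.inv {x : LaurentSeries C} (h : IsRedOneC O x) : IsRedOneC O x⁻¹ := by
  obtain ⟨c, hc, h1⟩ := h
  refine ⟨c⁻¹, inv_ne_zero hc, ?_⟩
  have := h1.inv one_ne_zero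
  rw [inv_one] at this
  have e : HahnSeries.C c⁻¹ * x⁻¹ = (HahnSeries.C c * x)⁻¹ := by
    rw [mul_inv, RED.H73.C_inv']
  rwa [e]

theorem IsRedOneC.pow {x : LaurentSeries C} (h : IsRedOneC O x) (n : ℕ) :
    IsRedOneC O (x ^ n) := by
  induction n with
  | zero => rw [pow_zero]; exact isRedOneC_one
  | succ n ih => rw [pow_succ]; exact ih.mul h

theorem IsRedOneC.C_mul {x : LaurentSeries C} (h : IsRedOneC O x) {c : C} (hc : c ≠ 0) :
    IsRedOneC O (HahnSeries.C c * x) :=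
  (isRedOneC_C hc).mul h

/-- A series which, up to a constant, is in the Gauss ring with reduction `y`, `y'` twice: the
quotient reduces to `1` up to a constant as soon as `y = y'`. -/
theorem isRedOneC_of_redTo {x x' : LaurentSeries C} {c c' : C} (hc : c ≠ 0) (hc' : c' ≠ 0)
    {y : LaurentSeries (kV O)} (hy : y ≠ 0) (h : RedTo O (HahnSeries.C c * x) y)
    (h' : RedTo O (HahnSeries.C c' * x') y) : IsRedOneC O (x * x'⁻¹) := by
  refine ⟨c * c'⁻¹, mul_ne_zero hc (inv_ne_zero hc'), ?_⟩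
  have := h.mul (h'.inv hy)
  rw [mul_inv_cancel₀ hy] at this
  have e : HahnSeries.C (c * c'⁻¹) * (x * x'⁻¹)
      = HahnSeries.C c * x * (HahnSeries.C c' * x')⁻¹ := by
    rw [map_mul, mul_inv, RED.H73.C_inv']; ring
  rwa [e]

end RedOne

/-! ## 5. The three relations -/

section Relations

variable {C : Type} [Field C] {O : ValuationSubring C}

theorem assemble_aux (a b d : C) (X T P : LaurentSeries C) :
    HahnSeries.C (a * b⁻¹ * d) * (X * T⁻¹ * P)
      = HahnSeries.C a * X * (HahnSeries.C b * T)⁻¹ * (HahnSeries.C d * P) := by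
  rw [map_mul, map_mul, mul_inv, RED.H73.C_inv']
  ring

theorem coeffMap_C' {R S : Type*} [CommRing R] [CommRing S] (f : R →+* S) (c : R) :
    coeffMap f (HahnSeries.C c : LaurentSeries R) = HahnSeries.C (f c) :=
  coeffMap_single f 0 c

/-- **Inertia**: `σ x / x` reduces to `1` up to a constant, for `σ` inertial
(`(σ - 1) J ⊆ K_A`). -/
theorem isRedOneC_inertia {σ : C →+* C} (hσ : BAD.H91.InertialOn O σ) {x : LaurentSeries C}
    (hx : Scalable O x) : IsRedOneC O (coeffMap σ x * x⁻¹) := by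
  obtain ⟨c, y, hc, hy, h⟩ := hx.exists_redTo
  have h1 := h.inertial hσ
  rw [map_mul, coeffMap_C'] at h1
  exact isRedOneC_of_redTo (c := σ c) (c' := c) ((map_ne_zero σ).2 hc) hc hy h1 h

variable {ℓ : ℕ} [Fact ℓ.Prime] [CharP (kV O) ℓ]

/-- The residual automorphism of a Frobenius lift is the Frobenius. -/
theorem autkHom_eq_frobenius (s : C ≃+* C) (hs : ∀ a : C, s a ∈ O ↔ a ∈ O)
    (hFr : ∀ a : kV O, RED.H33.autkHom O s hs a = a ^ ℓ) :
    RED.H33.autkHom O s hs = frobenius (kV O) ℓ :=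
  RingHom.ext fun a => by rw [hFr, frobenius_def]

theorem RedTo.frob (s : C ≃+* C) (hs : ∀ a : C, s a ∈ O ↔ a ∈ O)
    (hFr : ∀ a : kV O, RED.H33.autkHom O s hs a = a ^ ℓ) {x : LaurentSeries C}
    {y : LaurentSeries (kV O)} (h : RedTo O x y) :
    RedTo O (coeffMap (s : C →+* C) x) (Fr O ℓ y) := by
  have := h.cMap s hs
  rwa [autkHom_eq_frobenius s hs hFr] at this

theorem Fr_ne_zero {y : LaurentSeries (kV O)} (hy : y ≠ 0) : Fr O ℓ y ≠ 0 := fun h0 =>
  hy (RED.H95.coeffMap_frobenius_injective O ℓ (by rw [h0, map_zero]))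

/-- **`U_ℓ` and Frobenius**: `uSeries x / φ x` reduces to `1` up to a constant
(`(U_ℓ - φ) J ⊆ K_A`). -/
theorem isRedOneC_U {ζ₀ : Cˣ} (hζ : IsPrimitiveRoot ζ₀ ℓ) (s : C ≃+* C)
    (hs : ∀ a : C, s a ∈ O ↔ a ∈ O) (hFr : ∀ a : kV O, RED.H33.autkHom O s hs a = a ^ ℓ)
    {x : LaurentSeries C} (hx : Scalable O x) :
    IsRedOneC O (uSeries ℓ x * (coeffMap (s : C →+* C) x)⁻¹) := by
  obtain ⟨c, y, hc, hy, h⟩ := hx.exists_redTo
  have h1 := h.uSer hζ hy
  rw [uSeries_C_mul hζ] at h1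
  have h2 := h.frob s hs hFr
  rw [map_mul, coeffMap_C'] at h2
  exact isRedOneC_of_redTo (pow_ne_zero ℓ hc) ((map_ne_zero (s : C →+* C)).2 hc)
    (Fr_ne_zero hy) h1 h2

/-- **Eichler–Shimura on Kummer functions**: for scalable series `x₁ = d₁ f`, `x₂ = d₂ f`
(`d₁`, `d₂` diamond operators commuting with the Frobenius lift `φ`),
`φ² x₂ · (T (φ f))⁻¹ · x₁ ^ ℓ`, with `T (φ f) = twNorm (φ x₁) (φ x₂)`, reduces to `1` up to a
constant: `(φ² d₂ - T_ℓ φ + ℓ d₁) J ⊆ K_A`. -/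
theorem isRedOneC_ES {ζ₀ : Cˣ} (hζ : IsPrimitiveRoot ζ₀ ℓ) (s : C ≃+* C)
    (hs : ∀ a : C, s a ∈ O ↔ a ∈ O) (hFr : ∀ a : kV O, RED.H33.autkHom O s hs a = a ^ ℓ)
    {x₁ x₂ : LaurentSeries C} (hx₁ : Scalable O x₁) (hx₂ : Scalable O x₂) :
    IsRedOneC O (coeffMap (s : C →+* C) (coeffMap (s : C →+* C) x₂)
      * (twNorm ℓ (coeffMap (s : C →+* C) x₁) (coeffMap (s : C →+* C) x₂))⁻¹ * x₁ ^ ℓ) := by
  obtain ⟨c₁, y₁, hc₁, hy₁, h₁⟩ := hx₁.exists_redTo
  obtain ⟨c₂, y₂, hc₂, hy₂, h₂⟩ := hx₂.exists_redTo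
  have hs0 : ∀ {c : C}, c ≠ 0 → (s : C →+* C) c ≠ 0 := fun hc =>
    (map_ne_zero (s : C →+* C)).2 hc
  -- reductions of `φ x₁`, `φ x₂`, `φ² x₂`
  have g₁ := h₁.frob s hs hFr
  have g₂ := h₂.frob s hs hFr
  have g₂₂ := g₂.frob s hs hFr
  rw [map_mul, coeffMap_C'] at g₁ g₂
  rw [map_mul, coeffMap_C', map_mul, coeffMap_C'] at g₂₂
  -- reduction of `T (φ f)`
  have gT := RedTo.twN hζ g₁ g₂ (Fr_ne_zero hy₂)
  rw [twNorm_C_mul hζ, qExpand_Fr] at gT
  -- reduction of `x₁ ^ ℓ`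
  have gP := h₁.pow ℓ
  rw [mul_pow, ← map_pow] at gP
  -- assemble
  have hy₁ℓ : y₁ ^ ℓ ≠ 0 := pow_ne_zero ℓ hy₁
  have hF2 : Fr O ℓ (Fr O ℓ y₂) ≠ 0 := Fr_ne_zero (Fr_ne_zero hy₂)
  have hT0 : y₁ ^ ℓ * Fr O ℓ (Fr O ℓ y₂) ≠ 0 := mul_ne_zero hy₁ℓ hF2
  have hall := (g₂₂.mul (gT.inv hT0)).mul gP
  have e1 : Fr O ℓ (Fr O ℓ y₂) * (y₁ ^ ℓ * Fr O ℓ (Fr O ℓ y₂))⁻¹ * y₁ ^ ℓ = 1 := by
    field_simp
  rw [e1] at hall
  have ha0 : (s : C →+* C) ((s : C →+* C) c₂) ≠ 0 := hs0 (hs0 hc₂)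
  have hb0 : (s : C →+* C) c₁ * (s : C →+* C) c₂ ^ ℓ ≠ 0 :=
    mul_ne_zero (hs0 hc₁) (pow_ne_zero ℓ (hs0 hc₂))
  have hcℓ : c₁ ^ ℓ ≠ 0 := pow_ne_zero ℓ hc₁
  refine ⟨(s : C →+* C) ((s : C →+* C) c₂) * ((s : C →+* C) c₁ * (s : C →+* C) c₂ ^ ℓ)⁻¹
    * c₁ ^ ℓ, mul_ne_zero (mul_ne_zero ha0 (inv_ne_zero hb0)) hcℓ, ?_⟩
  rw [assemble_aux]
  exact hall

end Relations

/-! ## 6. Reduction commutes with `twistBy` and `descend` (any residue characteristic) -/

section TwistDescend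

open Fermat.Agent.GTor

theorem coeffMap_twistBy {R S : Type*} [CommRing R] [CommRing S] (f : R →+* S) (u : Rˣ)
    (x : LaurentSeries R) :
    coeffMap f (H44.twistBy u x) = H44.twistBy (Units.map (f : R →* S) u) (coeffMap f x) := by
  ext n
  simp only [coeffMap_coeff, H44.twistBy_coeff, map_mul, ← map_zpow]
  rfl

theorem coeffMap_descend {R S : Type*} [CommRing R] [CommRing S] (f : R →+* S) (ℓ : ℕ)
    [NeZero ℓ] (x : LaurentSeries R) :
    coeffMap f (H44.descend ℓ x) = H44.descend ℓ (coeffMap f x) := by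
  ext n
  simp only [coeffMap_coeff, H44.descend_coeff]

theorem isSupp_coeffMap {R S : Type*} [CommRing R] [CommRing S] (f : R →+* S) {ℓ : ℕ}
    [NeZero ℓ] {x : LaurentSeries R} (hx : H44.IsSupp ℓ x) : H44.IsSupp ℓ (coeffMap f x) := by
  intro m hm
  rw [coeffMap_coeff, hx m hm, map_zero]

theorem twistBy_injective {R : Type*} [CommRing R] (u : Rˣ) :
    Function.Injective (H44.twistBy u : LaurentSeries R → LaurentSeries R) := by
  intro x y hxy
  have := congrArg (H44.twistBy u⁻¹) hxy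
  rwa [H44.twistBy_twistBy, H44.twistBy_twistBy, inv_mul_cancel, H44.twistBy_one,
    H44.twistBy_one] at this

theorem descend_ne_zero {R : Type*} [CommRing R] {ℓ : ℕ} [NeZero ℓ] {x : LaurentSeries R}
    (hx : H44.IsSupp ℓ x) (h0 : x ≠ 0) : H44.descend ℓ x ≠ 0 := by
  intro h
  apply h0
  rw [← H44.qExpand_descend hx, h, map_zero]

variable {C : Type} [Field C] {O : ValuationSubring C}

/-- A unit of `C` which lies in `O` together with its inverse, as a unit of `O`. -/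
def unitO (ζ : Cˣ) (h1 : (ζ : C) ∈ O) (h2 : ((ζ⁻¹ : Cˣ) : C) ∈ O) : (↥O)ˣ :=
  ⟨⟨ζ, h1⟩, ⟨(ζ⁻¹ : Cˣ), h2⟩,
    Subtype.ext (by show (ζ : C) * ((ζ⁻¹ : Cˣ) : C) = 1; rw [← Units.val_mul, mul_inv_cancel,
      Units.val_one]),
    Subtype.ext (by show ((ζ⁻¹ : Cˣ) : C) * (ζ : C) = 1; rw [← Units.val_mul, inv_mul_cancel,
      Units.val_one])⟩

theorem map_unitO (ζ : Cˣ) (h1 : (ζ : C) ∈ O) (h2 : ((ζ⁻¹ : Cˣ) : C) ∈ O) :
    Units.map ((O.subtype : ↥O →+* C) : ↥O →* C) (unitO ζ h1 h2) = ζ := Units.ext rfl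

/-- The residue of a unit of `O`. -/
def resUnit (u : (↥O)ˣ) : (kV O)ˣ := Units.map ((resV O : ↥O →+* kV O) : ↥O →* kV O) u

theorem iotaV_twistBy (u : (↥O)ˣ) (g : LaurentSeries ↥O) :
    iotaV O (H44.twistBy u g)
      = H44.twistBy (Units.map ((O.subtype : ↥O →+* C) : ↥O →* C) u) (iotaV O g) :=
  coeffMap_twistBy _ u g

theorem redV_twistBy (u : (↥O)ˣ) (g : LaurentSeries ↥O) :
    redV O (H44.twistBy u g) = H44.twistBy (resUnit u) (redV O g) :=
  coeffMap_twistBy _ u g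

/-- **Reduction commutes with `q ↦ ζ q`**, `ζ` a unit of `O`. -/
theorem RedTo.twist (u : (↥O)ˣ) {x : LaurentSeries C} {y : LaurentSeries (kV O)}
    (h : RedTo O x y) :
    RedTo O (H44.twistBy (Units.map ((O.subtype : ↥O →+* C) : ↥O →* C) u) x)
      (H44.twistBy (resUnit u) y) := by
  obtain ⟨hx, rfl⟩ := h
  have hx' := hx
  obtain ⟨g, hh, hg, e⟩ := hx'
  have hg' : redV O (H44.twistBy u g) ≠ 0 := by
    rw [redV_twistBy]
    intro h0
    exact hg (twistBy_injective (resUnit u) (by rw [h0, map_zero]))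
  have e' : iotaV O (H44.twistBy u g)
      * H44.twistBy (Units.map ((O.subtype : ↥O →+* C) : ↥O →* C) u) x
      = iotaV O (H44.twistBy u hh) := by
    rw [iotaV_twistBy, iotaV_twistBy, ← map_mul, e]
  have hm : H44.twistBy (Units.map ((O.subtype : ↥O →+* C) : ↥O →* C) u) x ∈ gaussRingV O :=
    ⟨_, _, hg', e'⟩
  refine ⟨hm, ?_⟩
  rw [gaussRedV_eq O ⟨_, hm⟩ hg' e', gaussRedV_eq O ⟨x, hx⟩ hg e, redV_twistBy, redV_twistBy,
    map_div₀]

theorem isSupp_of_iotaV {ℓ : ℕ} [NeZero ℓ] {g : LaurentSeries ↥O}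
    (h : H44.IsSupp ℓ (iotaV O g)) : H44.IsSupp ℓ g := by
  intro m hm
  have := h m hm
  apply Subtype.val_injective
  simpa [iotaV] using this

/-- **Reduction commutes with `descend`** (`∑ a_{ℓ m} q^{ℓ m} ↦ ∑ a_{ℓ m} q^m`). -/
theorem RedTo.desc {ℓ : ℕ} [NeZero ℓ] {ζ₀ : Cˣ} (hζ : IsPrimitiveRoot ζ₀ ℓ)
    {P : LaurentSeries C} {y : LaurentSeries (kV O)} (h : RedTo O P y) (hP : H44.IsSupp ℓ P) :
    RedTo O (H44.descend ℓ P) (H44.descend ℓ y) := by
  classical
  obtain ⟨hx, rfl⟩ := h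
  have hx' := hx
  obtain ⟨g, hh, hg, e⟩ := hx'
  have hℓ0 : ℓ ≠ 0 := NeZero.ne ℓ
  -- the root of unity as a unit of `O`
  have hpow : (ζ₀ : C) ^ ℓ = 1 := by
    rw [← Units.val_pow_eq_pow_val, hζ.pow_eq_one, Units.val_one]
  have hpow' : ((ζ₀⁻¹ : Cˣ) : C) ^ ℓ = 1 := by
    rw [← Units.val_pow_eq_pow_val, inv_pow, hζ.pow_eq_one, inv_one, Units.val_one]
  have mem_of_pow : ∀ z : C, z ^ ℓ = 1 → z ∈ O := by
    intro z hz
    rcases O.mem_or_inv_mem z with hm | hm
    · exact hm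
    · have hz0 : z ≠ 0 := by
        rintro rfl
        rw [zero_pow hℓ0] at hz
        exact zero_ne_one hz
      have h1 : z * z ^ (ℓ - 1) = 1 := by
        rw [← pow_succ', Nat.sub_add_cancel (Nat.pos_of_ne_zero hℓ0), hz]
      have h2 : z = z⁻¹ ^ (ℓ - 1) := by
        rw [inv_pow]
        exact eq_inv_of_mul_eq_one_left h1
      rw [h2]
      exact pow_mem hm _
  set u : (↥O)ˣ := unitO ζ₀ (mem_of_pow _ hpow) (mem_of_pow _ hpow') with hu
  have hmap : Units.map ((O.subtype : ↥O →+* C) : ↥O →* C) u = ζ₀ := map_unitO _ _ _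
  -- the norm of `g` and its cofactor
  set R : LaurentSeries ↥O := ∏ j ∈ (Finset.range ℓ).erase 0, H44.twistBy (u ^ j) g with hR
  have hG : g * R = ∏ j ∈ Finset.range ℓ, H44.twistBy (u ^ j) g := by
    have h0 : (0 : ℕ) ∈ Finset.range ℓ := Finset.mem_range.2 (Nat.pos_of_ne_zero hℓ0)
    have := Finset.mul_prod_erase (Finset.range ℓ) (fun j => H44.twistBy (u ^ j) g) h0
    simp only [pow_zero, H44.twistBy_one] at this
    exact this
  have hιG : iotaV O (g * R) = H44.twistProd C ℓ (iotaV O g) := by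
    rw [hG, map_prod, H44.twistProd_eq_prod_range hζ]
    refine Finset.prod_congr rfl fun j _ => ?_
    rw [iotaV_twistBy, map_pow, hmap]
  have hsG : H44.IsSupp ℓ (iotaV O (g * R)) := by
    rw [hιG]
    exact H44.isSupp_twistProd hζ _
  have hιH : iotaV O (R * hh) = iotaV O (g * R) * P := by
    rw [map_mul, map_mul, ← e]
    ring
  have hsH : H44.IsSupp ℓ (iotaV O (R * hh)) := by
    rw [hιH]
    exact hsG.mul hP
  have hsG' : H44.IsSupp ℓ (g * R) := isSupp_of_iotaV hsG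
  -- nonvanishing of the reduction
  have hredG : redV O (g * R) ≠ 0 := by
    rw [hG, map_prod]
    rw [Finset.prod_ne_zero_iff]
    intro j _
    rw [redV_twistBy]
    intro h0
    exact hg (twistBy_injective _ (by rw [h0, map_zero]))
  have hg₂ : redV O (H44.descend ℓ (g * R)) ≠ 0 := by
    have e1 : redV O (H44.descend ℓ (g * R)) = H44.descend ℓ (redV O (g * R)) :=
      coeffMap_descend _ ℓ _
    rw [e1]
    exact descend_ne_zero (isSupp_coeffMap _ hsG') hredG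
  have e₂ : iotaV O (H44.descend ℓ (g * R)) * H44.descend ℓ P
      = iotaV O (H44.descend ℓ (R * hh)) := by
    have e1 : iotaV O (H44.descend ℓ (g * R)) = H44.descend ℓ (iotaV O (g * R)) :=
      coeffMap_descend _ ℓ _
    have e2 : iotaV O (H44.descend ℓ (R * hh)) = H44.descend ℓ (iotaV O (R * hh)) :=
      coeffMap_descend _ ℓ _
    rw [e1, e2, hιH, H44.descend_mul hsG hP]
  have hm : H44.descend ℓ P ∈ gaussRingV O := ⟨_, _, hg₂, e₂⟩
  refine ⟨hm, ?_⟩
  -- identify the reduction through `qExpand`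
  have hq := (redTo_of_mem hm).qExp ℓ
  rw [H44.qExpand_descend hP] at hq
  have := hq.unique (redTo_of_mem hx)
  rw [← this, H44.descend_qExpand]

/-- **Reduction of `uSeries`** when `x` reduces to `1` (any residue characteristic). -/
theorem RedTo.uSer_one {ℓ : ℕ} [NeZero ℓ] {ζ₀ : Cˣ} (hζ : IsPrimitiveRoot ζ₀ ℓ)
    {x : LaurentSeries C} (h : RedTo O x 1) : RedTo O (uSeries ℓ x) 1 := by
  classical
  have hℓ0 : ℓ ≠ 0 := NeZero.ne ℓ
  have mem_of_pow : ∀ z : C, z ^ ℓ = 1 → z ∈ O := by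
    intro z hz
    rcases O.mem_or_inv_mem z with hm | hm
    · exact hm
    · have hz0 : z ≠ 0 := by
        rintro rfl
        rw [zero_pow hℓ0] at hz
        exact zero_ne_one hz
      have h1 : z * z ^ (ℓ - 1) = 1 := by
        rw [← pow_succ', Nat.sub_add_cancel (Nat.pos_of_ne_zero hℓ0), hz]
      have h2 : z = z⁻¹ ^ (ℓ - 1) := by
        rw [inv_pow]
        exact eq_inv_of_mul_eq_one_left h1
      rw [h2]
      exact pow_mem hm _
  have hprod : RedTo O (H44.twistProd C ℓ x) 1 := by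
    unfold H44.twistProd
    have key : ∀ T : Finset Cˣ, (∀ ζ ∈ T, ζ ^ ℓ = 1) →
        RedTo O (∏ ζ ∈ T, H44.twistBy ζ x) 1 := by
      intro T
      induction T using Finset.induction_on with
      | empty => intro _; rw [Finset.prod_empty]; exact RedTo.one
      | insert a T ha ih =>
        intro hT
        rw [Finset.prod_insert ha]
        have ha1 : a ^ ℓ = 1 := hT a (Finset.mem_insert_self a T)
        have hm1 : (a : C) ∈ O := mem_of_pow _ (by
          rw [← Units.val_pow_eq_pow_val, ha1, Units.val_one])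
        have hm2 : ((a⁻¹ : Cˣ) : C) ∈ O := mem_of_pow _ (by
          rw [← Units.val_pow_eq_pow_val, inv_pow, ha1, inv_one, Units.val_one])
        have h1 := h.twist (unitO a hm1 hm2)
        rw [map_unitO, map_one] at h1
        have := h1.mul (ih fun ζ hζ' => hT ζ (Finset.mem_insert_of_mem hζ'))
        rwa [one_mul] at this
    exact key _ fun ζ hζ' => H44.mem_rootsFinset.1 hζ'
  have := hprod.desc hζ (H44.isSupp_twistProd hζ x)
  rwa [H44.descend_one] at this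

/-- **Stability**: `twNorm` of two series reducing to `1` (up to constants) reduces to `1` (up to
a constant), in any residue characteristic (`T_ℓ K_A ⊆ K_A`). -/
theorem IsRedOneC.twNorm {ℓ : ℕ} [NeZero ℓ] {ζ₀ : Cˣ} (hζ : IsPrimitiveRoot ζ₀ ℓ)
    {y x : LaurentSeries C} (hy : IsRedOneC O y) (hx : IsRedOneC O x) :
    IsRedOneC O (H70.twNorm ℓ y x) := by
  obtain ⟨c, hc, h1⟩ := hy
  obtain ⟨d, hd, h2⟩ := hx
  refine ⟨c * d ^ ℓ, mul_ne_zero hc (pow_ne_zero ℓ hd), ?_⟩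
  rw [← twNorm_C_mul hζ]
  have := (h1.qExp ℓ).mul (h2.uSer_one hζ)
  rw [map_one, one_mul] at this
  exact this

/-- **Stability**: `uSeries` of a series reducing to `1` (up to a constant). -/
theorem IsRedOneC.uSeries {ℓ : ℕ} [NeZero ℓ] {ζ₀ : Cˣ} (hζ : IsPrimitiveRoot ζ₀ ℓ)
    {x : LaurentSeries C} (hx : IsRedOneC O x) : IsRedOneC O (H70.uSeries ℓ x) := by
  obtain ⟨d, hd, h2⟩ := hx
  refine ⟨d ^ ℓ, pow_ne_zero ℓ hd, ?_⟩
  rw [← uSeries_C_mul hζ]
  exact h2.uSer_one hζ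

/-- **Stability**: `q ↦ q^N`. -/
theorem IsRedOneC.qExpand (N : ℕ) [NeZero N] {x : LaurentSeries C} (hx : IsRedOneC O x) :
    IsRedOneC O (ModularCurve.qExpand C N x) := by
  obtain ⟨d, hd, h2⟩ := hx
  refine ⟨d, hd, ?_⟩
  have := h2.qExp N
  rwa [map_mul, qExpand_C, map_one] at this

end TwistDescend

end Fermat.Agent.NEB.H70

end
end
-- ==== END Fermat.Agent.NEB.H70_RedQ

-- ==== BEGIN Fermat.Agent.R.H89_FrobCyc
section

/-!
# Cluster R leaf `Stmt_FrobCyc`

A Frobenius element at `ℓ` acts on the roots of unity of order prime to `ℓ` as the `ℓ`-th power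
map: `stmt_FrobCyc : Fermat.Agent.R.Stmt_FrobCyc`.  Also the inertia analogue
`inertia_fixes_rootsOfUnity`: inertia at `ℓ` fixes the roots of unity of order prime to `ℓ`.
-/

set_option autoImplicit false

namespace Fermat.Agent.R.H89

section Roots

variable {L : Type*} [Field L]

/-- An integer prime to the residue characteristic is a unit of the valuation subring. -/
theorem h89_coprime_not_mem_nonunits (A : ValuationSubring L) {n q : ℕ}
    (hnq : n.Coprime q) (hA : A.LiesOverPrime q) : (n : L) ∉ A.nonunits := by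
  intro hnA
  have hqA : (q : L) ∈ A.nonunits := hA
  rw [A.mem_nonunits_iff] at hnA hqA
  have hcop : IsCoprime (n : ℤ) (q : ℤ) := Nat.isCoprime_iff_coprime.2 hnq
  obtain ⟨a, b, hab⟩ := hcop
  have h1 : (1 : L) = (a : L) * (n : L) + (b : L) * (q : L) := by
    have := congrArg (fun z : ℤ => (z : L)) hab
    simp only [Int.cast_add, Int.cast_mul, Int.cast_natCast, Int.cast_one] at this
    exact this.symm
  have h2 : A.valuation ((a : L) * (n : L)) < 1 := by
    rw [map_mul]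
    calc A.valuation (a : L) * A.valuation (n : L) ≤ 1 * A.valuation (n : L) :=
          mul_le_mul_left (h89_valuation_intCast_le_one A a) _
      _ < 1 := by rw [one_mul]; exact hnA
  have h3 : A.valuation ((b : L) * (q : L)) < 1 := by
    rw [map_mul]
    calc A.valuation (b : L) * A.valuation (q : L) ≤ 1 * A.valuation (q : L) :=
          mul_le_mul_left (h89_valuation_intCast_le_one A b) _
      _ < 1 := by rw [one_mul]; exact hqA
  have h4 : A.valuation (1 : L) < 1 := by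
    rw [h1]
    exact Valuation.map_add_lt _ h2 h3
  rw [map_one] at h4
  exact lt_irrefl _ h4

/-- Reduction is injective on `n`-th roots of unity when `n` is a unit. -/
theorem h89_eq_one_of_sub_one_mem' (A : ValuationSubring L) (n : ℕ)
    (hnA : (n : L) ∉ A.nonunits) {w : L} (hw : w ^ n = 1)
    (h1 : w - 1 ∈ A.nonunits) : w = 1 := by
  by_contra hne
  rw [A.mem_nonunits_iff] at h1 hnA
  have hn0 : n ≠ 0 := by
    intro h0
    apply hnA
    rw [h0, Nat.cast_zero, map_zero]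
    exact zero_lt_one
  have hsum : ∑ i ∈ Finset.range n, w ^ i = 0 := by
    have h := mul_geom_sum w n
    rw [hw, sub_self] at h
    rcases mul_eq_zero.1 h with h | h
    · exact absurd (sub_eq_zero.1 h) hne
    · exact h
  have hterm : ∀ i : ℕ, A.valuation (1 - w ^ i) < 1 := by
    intro i
    have h := mul_geom_sum w i
    have h' : 1 - w ^ i = -((w - 1) * ∑ j ∈ Finset.range i, w ^ j) := by rw [h]; ring
    rw [h', Valuation.map_neg, map_mul]
    have hS : A.valuation (∑ j ∈ Finset.range i, w ^ j) ≤ 1 := by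
      refine Valuation.map_sum_le _ (fun j _ => ?_)
      rw [map_pow]
      rw [h89_valuation_eq_one_of_pow_eq_one A hn0 hw, one_pow]
    calc A.valuation (w - 1) * A.valuation (∑ j ∈ Finset.range i, w ^ j)
        ≤ A.valuation (w - 1) * 1 := mul_le_mul_right hS _
      _ < 1 := by rw [mul_one]; exact h1
  have hpn : ((n : ℕ) : L) = ∑ i ∈ Finset.range n, (1 - w ^ i) := by
    rw [Finset.sum_sub_distrib, hsum, sub_zero, Finset.sum_const, Finset.card_range,
      nsmul_eq_mul, mul_one]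
  have hlt : A.valuation ((n : ℕ) : L) < 1 := by
    rw [hpn]
    exact Valuation.map_sum_lt _ one_ne_zero (fun i _ => hterm i)
  exact hnA hlt

theorem h89_eq_of_sub_mem' (A : ValuationSubring L) (n : ℕ)
    (hnA : (n : L) ∉ A.nonunits) {u v : L} (hu : u ^ n = 1)
    (hv : v ^ n = 1) (h : u - v ∈ A.nonunits) : u = v := by
  have hn0 : n ≠ 0 := by
    intro h0
    apply hnA
    rw [h0, Nat.cast_zero, A.mem_nonunits_iff, map_zero]
    exact zero_lt_one
  have hv0 : v ≠ 0 := by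
    rintro rfl
    rw [zero_pow hn0] at hv
    exact zero_ne_one hv
  have hw : (u * v⁻¹) ^ n = 1 := by rw [mul_pow, inv_pow, hu, hv, inv_one, mul_one]
  have hw1 : u * v⁻¹ - 1 ∈ A.nonunits := by
    rw [A.mem_nonunits_iff] at h ⊢
    have : u * v⁻¹ - 1 = (u - v) * v⁻¹ := by field_simp
    rw [this, map_mul, map_inv₀, h89_valuation_eq_one_of_pow_eq_one A hn0 hv, inv_one, mul_one]
    exact h
  have := h89_eq_one_of_sub_one_mem' A n hnA hw hw1
  field_simp at this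
  exact this

end Roots

/-- **Leaf `Stmt_FrobCyc`.** -/
theorem stmt_FrobCyc : Fermat.Agent.R.Stmt_FrobCyc := by
  intro ℓ _ A hA σ hσ n hn ζ hζ
  have hnA := h89_coprime_not_mem_nonunits A hn hA
  have hn0 : n ≠ 0 := by
    intro h0
    apply hnA
    rw [h0, Nat.cast_zero, A.mem_nonunits_iff, map_zero]
    exact zero_lt_one
  have hζA : ζ ∈ A := (A.valuation_le_one_iff ζ).1
    (le_of_eq (h89_valuation_eq_one_of_pow_eq_one A hn0 hζ))
  refine h89_eq_of_sub_mem' A n hnA ?_ ?_ (h89_frob_sub_mem A hσ hζA)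
  · rw [← map_pow, hζ, map_one]
  · rw [← pow_mul, mul_comm, pow_mul, hζ, one_pow]

/-- Inertia at `q` fixes the roots of unity of order prime to `q`. -/
theorem inertia_fixes_rootsOfUnity (q : ℕ)
    (P : ValuationSubring (AlgebraicClosure ℚ)) (hP : P.LiesOverPrime q)
    (σ : AlgebraicClosure ℚ ≃ₐ[ℚ] AlgebraicClosure ℚ) (hσ : σ ∈ P.inertiaSubgroupIn ℚ)
    (n : ℕ) (hn : n.Coprime q) (ζ : AlgebraicClosure ℚ) (hζ : ζ ^ n = 1) : σ ζ = ζ := by
  have hnA := h89_coprime_not_mem_nonunits P hn hP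
  have hn0 : n ≠ 0 := by
    intro h0
    apply hnA
    rw [h0, Nat.cast_zero, P.mem_nonunits_iff, map_zero]
    exact zero_lt_one
  have hζA : ζ ∈ P := (P.valuation_le_one_iff ζ).1
    (le_of_eq (h89_valuation_eq_one_of_pow_eq_one P hn0 hζ))
  refine h89_eq_of_sub_mem' P n hnA ?_ hζ
    (Fermat.Agent.S05.H95.sub_mem_nonunits_of_mem_inertia P hσ hζA)
  rw [← map_pow, hζ, map_one]

end Fermat.Agent.R.H89

end
-- ==== END Fermat.Agent.R.H89_FrobCyc

-- ==== BEGIN Fermat.Agent.S14.H66_T2Core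
section

/-!
# S14, package B3 (helper66): the abstract core of T2

Finite abelian group `G`, subgroup `U`, a family of "primes" `ι` with classes `c : ι → G` and
nonnegative weights `w i s`.  If
* the total weight is `≤ log (1/(s-1)) + O(1)`,
* the twisted sums for non-trivial characters have real part bounded above,
* `n` times the weight of the primes with class in `U` is `≥ log (1/(s-1)) - O(1)`,
then `U.index ≤ n`.
-/

namespace Fermat.Agent.S14.H66

open scoped BigOperators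

section Orthogonality

variable {G : Type*} [CommGroup G] [Finite G]

lemma norm_char_eq_one (χ : G →* ℂˣ) (g : G) : ‖((χ g : ℂˣ) : ℂ)‖ = 1 := by
  have h : ((χ g : ℂˣ) : ℂ) ^ (orderOf g) = 1 := by
    rw [← Units.val_pow_eq_pow_val, ← map_pow, pow_orderOf_eq_one, map_one, Units.val_one]
  exact Complex.norm_eq_one_of_pow_eq_one h (orderOf_pos g).ne'

variable (G) in
lemma finite_monoidHom_units : Finite (G →* ℂˣ) := by
  have := CommGroup.monoidHom_mulEquiv_of_hasEnoughRootsOfUnity G ℂ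
  exact Finite.of_equiv G this.some.symm.toEquiv

open Classical in
lemma sum_char_apply [Fintype (G →* ℂˣ)] (g : G) :
    ∑ χ : G →* ℂˣ, ((χ g : ℂˣ) : ℂ) = if g = 1 then (Nat.card G : ℂ) else 0 := by
  split_ifs with hg
  · subst hg
    simp only [map_one, Units.val_one, Finset.sum_const, Finset.card_univ, nsmul_eq_mul, mul_one]
    rw [← Nat.card_eq_fintype_card, CommGroup.card_monoidHom_of_hasEnoughRootsOfUnity G ℂ]
  · obtain ⟨χ₀, hχ₀⟩ := CommGroup.exists_apply_ne_one_of_hasEnoughRootsOfUnity G ℂ hg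
    have h1 : ∑ χ : G →* ℂˣ, ((χ g : ℂˣ) : ℂ)
        = ((χ₀ g : ℂˣ) : ℂ) * ∑ χ : G →* ℂˣ, ((χ g : ℂˣ) : ℂ) := by
      rw [Finset.mul_sum]
      refine (Fintype.sum_equiv (Equiv.mulLeft χ₀) _ _ fun χ => ?_).symm
      simp
    have h2 : ((χ₀ g : ℂˣ) : ℂ) ≠ 1 := fun h => hχ₀ (Units.ext h)
    have h3 : (1 - ((χ₀ g : ℂˣ) : ℂ)) * ∑ χ : G →* ℂˣ, ((χ g : ℂˣ) : ℂ) = 0 := by
      rw [sub_mul, one_mul, ← h1, sub_self]
    rcases mul_eq_zero.mp h3 with h | h
    · exact absurd (sub_eq_zero.mp h).symm h2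
    · exact h

end Orthogonality

end Fermat.Agent.S14.H66

namespace Fermat.Agent.S14.H66

open scoped BigOperators

section Core

variable {G : Type*} [CommGroup G] [Finite G] {ι : Type*}

lemma summable_char_mul (χ : G →* ℂˣ) (c : ι → G) (w : ι → ℝ) (hw0 : ∀ i, 0 ≤ w i)
    (hs : Summable w) : Summable (fun i => ((χ (c i) : ℂˣ) : ℂ) * ((w i : ℝ) : ℂ)) := by
  refine Summable.of_norm ?_
  have : (fun i => ‖((χ (c i) : ℂˣ) : ℂ) * ((w i : ℝ) : ℂ)‖) = w := by
    funext i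
    rw [norm_mul, norm_char_eq_one, one_mul, Complex.norm_real, Real.norm_of_nonneg (hw0 i)]
  rw [this]; exact hs

open Classical in
lemma sum_char_tsum (U : Subgroup G) (c : ι → G) (w : ι → ℝ) (hw0 : ∀ i, 0 ≤ w i)
    (hs : Summable w) [Fintype ((G ⧸ U) →* ℂˣ)] :
    ∑ ψ : (G ⧸ U) →* ℂˣ, ∑' i, (((ψ.comp (QuotientGroup.mk' U)) (c i) : ℂˣ) : ℂ) * ((w i : ℝ) : ℂ)
      = (U.index : ℂ) * ((∑' i : {i // c i ∈ U}, w i : ℝ) : ℂ) := by
  rw [← Summable.tsum_finsetSum (fun ψ _ => summable_char_mul _ c w hw0 hs)]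
  have h1 : ∀ i, ∑ ψ : (G ⧸ U) →* ℂˣ,
      (((ψ.comp (QuotientGroup.mk' U)) (c i) : ℂˣ) : ℂ) * ((w i : ℝ) : ℂ)
      = (U.index : ℂ) * (({i | c i ∈ U} : Set ι).indicator (fun i => ((w i : ℝ) : ℂ)) i) := by
    intro i
    rw [← Finset.sum_mul]
    have := sum_char_apply (G := G ⧸ U) (QuotientGroup.mk' U (c i))
    simp only [MonoidHom.coe_comp, Function.comp_apply]
    rw [this]
    by_cases hi : c i ∈ U
    · have : (QuotientGroup.mk' U (c i)) = 1 := by
        rw [QuotientGroup.mk'_apply, QuotientGroup.eq_one_iff]; exact hi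
      rw [if_pos this, Set.indicator_of_mem (by exact hi), Subgroup.index]
    · have : (QuotientGroup.mk' U (c i)) ≠ 1 := by
        rw [QuotientGroup.mk'_apply, Ne, QuotientGroup.eq_one_iff]; exact hi
      rw [if_neg this, Set.indicator_of_notMem (by exact hi)]
      simp
  simp_rw [h1]
  rw [tsum_mul_left]
  congr 1
  rw [Complex.ofReal_tsum]
  exact (tsum_subtype ({i | c i ∈ U} : Set ι) (fun i => ((w i : ℝ) : ℂ))).symm

theorem index_le_of_bounds (U : Subgroup G) (c : ι → G) (w : ι → ℝ → ℝ)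
    (hw0 : ∀ i s, 0 ≤ w i s)
    (hsum : ∀ s : ℝ, 1 < s → Summable (fun i => w i s))
    (hup : ∃ C : ℝ, ∀ᶠ s in nhdsWithin (1 : ℝ) (Set.Ioi 1),
      ∑' i, w i s ≤ Real.log (1 / (s - 1)) + C)
    (hchar : ∀ χ : G →* ℂˣ, χ ≠ 1 → ∃ C : ℝ, ∀ s : ℝ, 1 < s → s ≤ 2 →
      (∑' i, ((χ (c i) : ℂˣ) : ℂ) * ((w i s : ℝ) : ℂ)).re ≤ C)
    (n : ℕ)
    (hlow : ∃ C : ℝ, ∀ᶠ s in nhdsWithin (1 : ℝ) (Set.Ioi 1),
      Real.log (1 / (s - 1)) - C ≤ n * ∑' i : {i // c i ∈ U}, w i s) :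
    U.index ≤ n := by
  classical
  have hfin : Finite ((G ⧸ U) →* ℂˣ) := finite_monoidHom_units (G ⧸ U)
  have : Fintype ((G ⧸ U) →* ℂˣ) := Fintype.ofFinite _
  obtain ⟨C0, hC0⟩ := hup
  obtain ⟨C2, hC2⟩ := hlow
  -- uniform bound for the nontrivial characters
  have hchar' : ∀ ψ : (G ⧸ U) →* ℂˣ, ∃ C : ℝ, 0 ≤ C ∧ (ψ ≠ 1 → ∀ s : ℝ, 1 < s → s ≤ 2 →
      (∑' i, (((ψ.comp (QuotientGroup.mk' U)) (c i) : ℂˣ) : ℂ) * ((w i s : ℝ) : ℂ)).re ≤ C) := by
    intro ψ
    by_cases hψ : ψ = 1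
    · exact ⟨0, le_rfl, fun h => absurd hψ h⟩
    · have hne : ψ.comp (QuotientGroup.mk' U) ≠ 1 := by
        intro h
        apply hψ
        refine MonoidHom.ext fun x => ?_
        obtain ⟨g, hg⟩ := QuotientGroup.mk'_surjective U x
        have := congrArg (fun f : G →* ℂˣ => f g) h
        rw [← hg]
        simpa using this
      obtain ⟨C, hC⟩ := hchar _ hne
      exact ⟨max C 0, le_max_right _ _, fun _ s hs1 hs2 => (hC s hs1 hs2).trans (le_max_left _ _)⟩
  choose Cψ hCψ0 hCψ using hchar'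
  set C1 : ℝ := C0 + ∑ ψ : (G ⧸ U) →* ℂˣ, Cψ ψ with hC1
  -- the main inequality
  have hmain : ∀ s : ℝ, 1 < s → s ≤ 2 → ∑' i, w i s ≤ Real.log (1 / (s - 1)) + C0 →
      (U.index : ℝ) * ∑' i : {i // c i ∈ U}, w i s ≤ Real.log (1 / (s - 1)) + C1 := by
    intro s hs1 hs2 hC0s
    have hkey := sum_char_tsum U c (fun i => w i s) (fun i => hw0 i s) (hsum s hs1)
    have hre := congrArg Complex.re hkey
    rw [Complex.re_sum] at hre
    have hR : ((U.index : ℂ) * ((∑' i : {i // c i ∈ U}, w i s : ℝ) : ℂ)).re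
        = (U.index : ℝ) * ∑' i : {i // c i ∈ U}, w i s := by
      rw [← Complex.ofReal_natCast, ← Complex.ofReal_mul, Complex.ofReal_re]
    rw [hR] at hre
    rw [← hre]
    have hterm : ∀ ψ : (G ⧸ U) →* ℂˣ,
        (∑' i, (((ψ.comp (QuotientGroup.mk' U)) (c i) : ℂˣ) : ℂ) * ((w i s : ℝ) : ℂ)).re
          ≤ (if ψ = 1 then Real.log (1 / (s - 1)) + C0 else 0) + Cψ ψ := by
      intro ψ
      by_cases hψ : ψ = 1
      · subst hψ
        rw [if_pos rfl]
        have : (∑' i, (((((1 : (G ⧸ U) →* ℂˣ)).comp (QuotientGroup.mk' U)) (c i) : ℂˣ) : ℂ)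
            * ((w i s : ℝ) : ℂ)) = ((∑' i, w i s : ℝ) : ℂ) := by
          rw [Complex.ofReal_tsum]
          congr 1; funext i; simp
        rw [this, Complex.ofReal_re]
        linarith [hCψ0 (1 : (G ⧸ U) →* ℂˣ)]
      · rw [if_neg hψ, zero_add]
        exact hCψ ψ hψ s hs1 hs2
    calc ∑ ψ : (G ⧸ U) →* ℂˣ,
          (∑' i, (((ψ.comp (QuotientGroup.mk' U)) (c i) : ℂˣ) : ℂ) * ((w i s : ℝ) : ℂ)).re
        ≤ ∑ ψ : (G ⧸ U) →* ℂˣ,
          ((if ψ = 1 then Real.log (1 / (s - 1)) + C0 else 0) + Cψ ψ) :=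
          Finset.sum_le_sum fun ψ _ => hterm ψ
      _ = Real.log (1 / (s - 1)) + C1 := by
          rw [Finset.sum_add_distrib, Finset.sum_ite_eq' Finset.univ (1 : (G ⧸ U) →* ℂˣ),
            if_pos (Finset.mem_univ _), hC1]
          ring
  -- conclude
  by_contra hcon
  rw [not_le] at hcon
  have hcon' : (n : ℝ) + 1 ≤ (U.index : ℝ) := by exact_mod_cast hcon
  set B : ℝ := n * C1 + U.index * C2 with hB
  -- `log (1/(s-1)) → ∞` as `s → 1⁺`
  have htend : Filter.Tendsto (fun s : ℝ => Real.log (1 / (s - 1)))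
      (nhdsWithin (1 : ℝ) (Set.Ioi 1)) Filter.atTop := by
    have h1 : Filter.Tendsto (fun s : ℝ => s - 1) (nhdsWithin (1 : ℝ) (Set.Ioi 1))
        (nhdsWithin (0 : ℝ) (Set.Ioi 0)) := by
      refine tendsto_nhdsWithin_of_tendsto_nhds_of_eventually_within _ ?_ ?_
      · have : Filter.Tendsto (fun s : ℝ => s - 1) (nhds (1 : ℝ)) (nhds (1 - 1)) :=
          (continuous_id.sub continuous_const).tendsto 1
        rw [sub_self] at this
        exact this.mono_left nhdsWithin_le_nhds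
      · filter_upwards [self_mem_nhdsWithin] with s hs
        exact sub_pos.mpr (Set.mem_Ioi.mp hs)
    have h2 : Filter.Tendsto (fun s : ℝ => 1 / (s - 1)) (nhdsWithin (1 : ℝ) (Set.Ioi 1))
        Filter.atTop := by
      simp only [one_div]
      exact Filter.Tendsto.comp tendsto_inv_nhdsGT_zero h1
    exact Real.tendsto_log_atTop.comp h2
  have hbig := htend.eventually (Filter.eventually_gt_atTop |B|)
  have h12 : ∀ᶠ s in nhdsWithin (1 : ℝ) (Set.Ioi 1), 1 < s ∧ s ≤ 2 := by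
    have : Set.Ioc (1 : ℝ) 2 ∈ nhdsWithin (1 : ℝ) (Set.Ioi 1) :=
      Ioc_mem_nhdsGT (by norm_num)
    filter_upwards [this] with s hs using hs
  obtain ⟨s, hsbig, ⟨hs1, hs2⟩, hC0s, hC2s⟩ := (hbig.and (h12.and (hC0.and hC2))).exists
  have h1 := hmain s hs1 hs2 hC0s
  set t : ℝ := Real.log (1 / (s - 1)) with ht
  set S₀ : ℝ := ∑' i : {i // c i ∈ U}, w i s with hS₀
  have hidx : (0 : ℝ) ≤ U.index := Nat.cast_nonneg _
  have hn0 : (0 : ℝ) ≤ n := Nat.cast_nonneg _
  have h3 : (U.index : ℝ) * (t - C2) ≤ n * (t + C1) := by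
    calc (U.index : ℝ) * (t - C2) ≤ U.index * (n * S₀) :=
          mul_le_mul_of_nonneg_left hC2s hidx
      _ = n * (U.index * S₀) := by ring
      _ ≤ n * (t + C1) := mul_le_mul_of_nonneg_left h1 hn0
  have h4 : ((U.index : ℝ) - n) * t ≤ B := by
    rw [hB]; linarith
  have ht0 : 0 ≤ t := (abs_nonneg B).trans hsbig.le
  have h5 : t ≤ ((U.index : ℝ) - n) * t := by
    have : (1 : ℝ) ≤ (U.index : ℝ) - n := by linarith
    nlinarith
  have h6 : B ≤ |B| := le_abs_self B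
  linarith

end Core

end Fermat.Agent.S14.H66

end
-- ==== END Fermat.Agent.S14.H66_T2Core

-- ==== BEGIN Fermat.Agent.S14.Interfaces
section

/-!
# S14 (ExtVanishingCts): interfaces between the work packages

Coordinator: helper68.  Every work package proves ONE of the `Stmt_*` propositions below
(or a lemma feeding it) in its own file; the glue files only use these propositions.
All fields are in `Type` (universe 0).

* `cls I`             : class of the ideal `I` in the class group (`1` if `I = ⊥`)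
* `normClasses K M`   : subgroup of `Cl(𝓞 K)` generated by the classes of norms of ideals of `𝓞 M`
* `UnramifiedEverywhere K M` : all inertia groups of `M/K` at nonzero primes of `𝓞 M` are trivial
* `Stmt_T1`    (package A)  : first inequality, `normClasses K M ≠ ⊤`
* `Stmt_T2`    (package B)  : analytic inequality, index of split classes `≤ [L : F]`
* `Stmt_Stick` (package F)  : Stickelberger relation from the Jacobi sum
* `Stmt_Cross` (package X)  : Artin crossing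
* `Stmt_NT`    (package H)  : the number field core, fed by G (plumbing)
-/

namespace Fermat.Agent.S14

open NumberField
open scoped Pointwise

/-- Class of an ideal in the class group; junk value `1` for the zero ideal. -/
noncomputable def cls {R : Type*} [CommRing R] [IsDedekindDomain R]
    (I : Ideal R) : ClassGroup R :=
  open Classical in
  if h : I = ⊥ then 1 else ClassGroup.mk0 ⟨I, mem_nonZeroDivisors_of_ne_zero h⟩

/-- The subgroup of `Cl(𝓞 K)` generated by the classes of the relative norms of the nonzero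
ideals of `𝓞 M`. -/
noncomputable def normClasses (K M : Type*) [Field K] [NumberField K] [Field M] [NumberField M]
    [Algebra K M] : Subgroup (ClassGroup (𝓞 K)) :=
  Subgroup.closure {c | ∃ J : Ideal (𝓞 M), J ≠ ⊥ ∧ c = cls (Ideal.relNorm (𝓞 K) J)}

/-- `M/K` is unramified at every finite prime: all inertia groups are trivial. -/
def UnramifiedEverywhere (K M : Type*) [Field K] [NumberField K] [Field M] [NumberField M]
    [Algebra K M] : Prop :=
  ∀ P : Ideal (𝓞 M), P.IsPrime → P ≠ ⊥ → P.inertia (M ≃ₐ[K] M) = ⊥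

/-- **T1** (first inequality, algebraic).  For `M/K` Galois of odd prime degree `p`, `K` totally
complex, `M/K` unramified everywhere: the norm classes do not fill the class group. -/
def Stmt_T1 : Prop :=
  ∀ (p : ℕ) [Fact p.Prime] (K M : Type) [Field K] [NumberField K] [Field M] [NumberField M]
    [Algebra K M] [IsGalois K M],
    p ≠ 2 → Module.finrank K M = p → IsTotallyComplex K → UnramifiedEverywhere K M →
    normClasses K M ≠ ⊤

/-- **T2** (analytic inequality).  `F ⊆ L` number fields (no Galois hypothesis), `T` a finite set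
of excluded norms.  If a subgroup `U` of the class group of `F` contains the classes of all primes
of `F` lying under a prime of `L` of absolute degree one (norm not in `T`), then `U` has index at
most `[L : F]`. -/
def Stmt_T2 : Prop :=
  ∀ (F L : Type) [Field F] [NumberField F] [Field L] [NumberField L] [Algebra F L]
    (U : Subgroup (ClassGroup (𝓞 F))) (T : Finset ℕ),
    (∀ Q : Ideal (𝓞 L), Q.IsPrime → (Ideal.absNorm Q).Prime → Ideal.absNorm Q ∉ T →
      cls (Q.under (𝓞 F)) ∈ U) →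
    U.index ≤ Module.finrank F L

/-- **Stickelberger relation** (from the Jacobi sum `J(χ⁻¹,χ⁻¹)`, `χ(x) = x^((q-1)/p) mod 𝔮`):
for a prime `𝔮` of `ℚ(ζ_p)` of absolute degree one not above `p`,
`∏_{p/2 < t < p} [σ_t⁻¹ 𝔮] = 1` in the class group, where `σ_t ζ = ζ ^ t`. -/
def Stmt_Stick : Prop :=
  ∀ (p : ℕ) [Fact p.Prime] (K : Type) [Field K] [NumberField K] [IsCyclotomicExtension {p} ℚ K],
    p ≠ 2 → ∀ ζ : K, IsPrimitiveRoot ζ p →
    ∀ (𝔮 : Ideal (𝓞 K)), 𝔮.IsPrime → (Ideal.absNorm 𝔮).Prime → ¬ p ∣ Ideal.absNorm 𝔮 →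
    ∀ σ : ℕ → (K ≃ₐ[ℚ] K), (∀ t ∈ Finset.Ioo (p / 2) p, σ t ζ = ζ ^ t) →
    ∏ t ∈ Finset.Ioo (p / 2) p, cls ((σ t)⁻¹ • 𝔮) = 1

/-- **Crossing** (Artin's trick).  `K = ℚ(ζ_p)`, `M/K` Galois of degree `p`, unramified everywhere.
If `Q`, `Q'` are primes of `M` over primes of `K` of absolute degree one not above `p`, with
Frobenius elements `τ`, `τ'` and `τ' = τ ^ b`, then `[𝔮'] ≡ [𝔮] ^ b` modulo norm classes. -/
def Stmt_Cross : Prop :=
  ∀ (p : ℕ) [Fact p.Prime] (K M : Type) [Field K] [NumberField K] [Field M] [NumberField M]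
    [Algebra K M] [IsGalois K M] [IsCyclotomicExtension {p} ℚ K],
    p ≠ 2 → Module.finrank K M = p → UnramifiedEverywhere K M →
    ∀ (Q Q' : Ideal (𝓞 M)), Q.IsPrime → Q'.IsPrime →
    (Ideal.absNorm (Q.under (𝓞 K))).Prime → (Ideal.absNorm (Q'.under (𝓞 K))).Prime →
    ¬ p ∣ Ideal.absNorm (Q.under (𝓞 K)) → ¬ p ∣ Ideal.absNorm (Q'.under (𝓞 K)) →
    ∀ (τ τ' : M ≃ₐ[K] M) (b : ℕ), IsArithFrobAt (𝓞 K) τ Q → IsArithFrobAt (𝓞 K) τ' Q' →
    τ' = τ ^ b →
    cls (Q'.under (𝓞 K)) * (cls (Q.under (𝓞 K)) ^ b)⁻¹ ∈ normClasses K M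

/-- The conjugation hypothesis: `Gal(K/ℚ)` acts on `Gal(M/K)` through the inverse of the
cyclotomic character, i.e. `s ζ = ζ ^ a → s t s⁻¹ = t ^ (1/a)`, written as `s * t ^ a = t * s`. -/
def ConjInvCyclo (p : ℕ) (K M : Type*) [Field K] [NumberField K] [Field M] [NumberField M]
    [Algebra K M] : Prop :=
  ∀ ζ : K, IsPrimitiveRoot ζ p → ∀ (s : M ≃ₐ[ℚ] M) (t : M ≃ₐ[K] M) (a : ℕ),
    s (algebraMap K M ζ) = algebraMap K M ζ ^ a →
    s * (t.restrictScalars ℚ) ^ a = t.restrictScalars ℚ * s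

/-- **Number field core**: there is no `M/ℚ` Galois, containing `K = ℚ(ζ_p)` with `[M : K] = p`,
unramified everywhere over `K`, on which `Gal(K/ℚ)` acts on `Gal(M/K)` through `χ⁻¹`. -/
def Stmt_NT : Prop :=
  ∀ (p : ℕ) [Fact p.Prime] (K M : Type) [Field K] [NumberField K] [Field M] [NumberField M]
    [Algebra K M] [IsGalois ℚ M] [IsCyclotomicExtension {p} ℚ K],
    p ≠ 2 → Module.finrank K M = p → UnramifiedEverywhere K M → ConjInvCyclo p K M → False

end Fermat.Agent.S14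

end
-- ==== END Fermat.Agent.S14.Interfaces

-- ==== BEGIN Fermat.Agent.S41.Defs
section

/-!
# S41 (level raising): shared definitions and interfaces

Route: Ribet's argument on the Betti cohomology `Hom(Gamma0 N, A)` (no Jacobians).

* `inclG N q : Gamma0 (N*q) →* Gamma0 N`   the inclusion,
* `conjG N q : Gamma0 (N*q) →* Gamma0 N`   `[[a,b],[c,d]] ↦ [[a, q*b],[c/q, d]]` (conjugation by `diag(q,1)`),
* `resAlong ι φ = φ ∘ ι`, `corAlong ι φ` = transfer (corestriction) along an injective `ι` of finite index,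
* `res1, res2, cor1, cor2` the four degeneracy maps between levels `N` and `N*q`,
* `Tcoh N ℓ = cor1 ∘ res2` the Hecke operator `T_ℓ` (`U_ℓ` if `ℓ ∣ N`) on `Hom(Gamma0 N, A)`,
* `IsCuspidalHom φ`: `φ` kills every parabolic and every elliptic element (`|trace| ≤ 2`).

The interfaces `Stmt_*` are `Prop`s; `Fermat/Agent/S41/Wiring.lean` proves the frozen statement S41 from them.
-/

set_option autoImplicit false

open scoped MatrixGroups

namespace Fermat.Agent.S41

open CongruenceSubgroup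

/-! ### The two homomorphisms `Gamma0 (N*q) →* Gamma0 N` -/

theorem gamma0_mul_le (N q : ℕ) : Gamma0 (N * q) ≤ Gamma0 N := by
  intro A hA
  rw [Gamma0_mem] at hA ⊢
  have h := (ZMod.intCast_zmod_eq_zero_iff_dvd _ _).mp hA
  exact (ZMod.intCast_zmod_eq_zero_iff_dvd _ _).mpr (dvd_trans (by push_cast; exact dvd_mul_right _ _) h)

/-- The inclusion `Gamma0 (N*q) →* Gamma0 N`. -/
def inclG (N q : ℕ) : Gamma0 (N * q) →* Gamma0 N :=
  Subgroup.inclusion (gamma0_mul_le N q)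

/-- The matrix `[[a, q*b],[c/q, d]]`. -/
def conjMat (q : ℕ) (A : Matrix (Fin 2) (Fin 2) ℤ) : Matrix (Fin 2) (Fin 2) ℤ :=
  !![A 0 0, (q : ℤ) * A 0 1; A 1 0 / (q : ℤ), A 1 1]

theorem conjMat_det {q : ℕ} {A : Matrix (Fin 2) (Fin 2) ℤ} (h : (q : ℤ) ∣ A 1 0) :
    (conjMat q A).det = A.det := by
  obtain ⟨c, hc⟩ := h
  rw [conjMat, Matrix.det_fin_two_of, Matrix.det_fin_two, hc]
  rcases eq_or_ne (q : ℤ) 0 with hq | hq
  · simp [hq]
  · rw [Int.mul_ediv_cancel_left _ hq]; ring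

theorem conjMat_mul {q : ℕ} {A B : Matrix (Fin 2) (Fin 2) ℤ}
    (hA : (q : ℤ) ∣ A 1 0) (hB : (q : ℤ) ∣ B 1 0) :
    conjMat q (A * B) = conjMat q A * conjMat q B := by
  obtain ⟨c, hc⟩ := hA
  obtain ⟨c', hc'⟩ := hB
  rcases eq_or_ne (q : ℤ) 0 with hq | hq
  · ext i j
    fin_cases i <;> fin_cases j <;>
      simp [conjMat, Matrix.mul_apply, Fin.sum_univ_two, hq, hc, hc']
  · have h10 : (A * B) 1 0 = (q : ℤ) * (c * B 0 0 + A 1 1 * c') := by
      rw [Matrix.mul_apply, Fin.sum_univ_two, hc, hc']; ring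
    have e00 : (A * B) 0 0 = A 0 0 * B 0 0 + A 0 1 * B 1 0 := by
      rw [Matrix.mul_apply, Fin.sum_univ_two]
    have e01 : (A * B) 0 1 = A 0 0 * B 0 1 + A 0 1 * B 1 1 := by
      rw [Matrix.mul_apply, Fin.sum_univ_two]
    have e11 : (A * B) 1 1 = A 1 0 * B 0 1 + A 1 1 * B 1 1 := by
      rw [Matrix.mul_apply, Fin.sum_univ_two]
    have dA : A 1 0 / (q : ℤ) = c := by rw [hc, Int.mul_ediv_cancel_left _ hq]
    have dB : B 1 0 / (q : ℤ) = c' := by rw [hc', Int.mul_ediv_cancel_left _ hq]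
    have dAB : (A * B) 1 0 / (q : ℤ) = c * B 0 0 + A 1 1 * c' := by
      rw [h10, Int.mul_ediv_cancel_left _ hq]
    ext i j
    fin_cases i <;> fin_cases j
    · show (conjMat q (A * B)) 0 0 = (conjMat q A * conjMat q B) 0 0
      rw [Matrix.mul_apply, Fin.sum_univ_two]
      simp only [conjMat, Matrix.of_apply, Matrix.cons_val', Matrix.cons_val_zero,
        Matrix.cons_val_one, Matrix.empty_val', Matrix.cons_val_fin_one]
      rw [e00, dB, hc']; ring
    · show (conjMat q (A * B)) 0 1 = (conjMat q A * conjMat q B) 0 1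
      rw [Matrix.mul_apply, Fin.sum_univ_two]
      simp only [conjMat, Matrix.of_apply, Matrix.cons_val', Matrix.cons_val_zero,
        Matrix.cons_val_one, Matrix.empty_val', Matrix.cons_val_fin_one]
      rw [e01]; ring
    · show (conjMat q (A * B)) 1 0 = (conjMat q A * conjMat q B) 1 0
      rw [Matrix.mul_apply, Fin.sum_univ_two]
      simp only [conjMat, Matrix.of_apply, Matrix.cons_val', Matrix.cons_val_zero,
        Matrix.cons_val_one, Matrix.empty_val', Matrix.cons_val_fin_one]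
      rw [dAB, dA, dB]
    · show (conjMat q (A * B)) 1 1 = (conjMat q A * conjMat q B) 1 1
      rw [Matrix.mul_apply, Fin.sum_univ_two]
      simp only [conjMat, Matrix.of_apply, Matrix.cons_val', Matrix.cons_val_zero,
        Matrix.cons_val_one, Matrix.empty_val', Matrix.cons_val_fin_one]
      rw [e11, dA, hc]; ring

theorem dvd_of_mem_gamma0_mul {N q : ℕ} {A : SL(2, ℤ)} (hA : A ∈ Gamma0 (N * q)) :
    ((N * q : ℕ) : ℤ) ∣ (A : Matrix (Fin 2) (Fin 2) ℤ) 1 0 :=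
  (ZMod.intCast_zmod_eq_zero_iff_dvd _ _).mp (Gamma0_mem.mp hA)

theorem q_dvd_of_mem_gamma0_mul {N q : ℕ} {A : SL(2, ℤ)} (hA : A ∈ Gamma0 (N * q)) :
    (q : ℤ) ∣ (A : Matrix (Fin 2) (Fin 2) ℤ) 1 0 :=
  dvd_trans (by push_cast; exact dvd_mul_left _ _) (dvd_of_mem_gamma0_mul hA)

/-- Conjugation by `diag(q,1)`: `[[a,b],[c,d]] ↦ [[a, q*b],[c/q, d]]`, as a map on `Gamma0 (N*q)`
with values in `SL(2,ℤ)`. -/
def conjSL (N q : ℕ) (A : Gamma0 (N * q)) : SL(2, ℤ) :=
  ⟨conjMat q ((A : SL(2, ℤ)) : Matrix (Fin 2) (Fin 2) ℤ), by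
    rw [conjMat_det (q_dvd_of_mem_gamma0_mul A.2)]; exact (A : SL(2, ℤ)).2⟩

theorem conjSL_mem (N q : ℕ) (A : Gamma0 (N * q)) : conjSL N q A ∈ Gamma0 N := by
  rw [Gamma0_mem]
  show (((conjMat q ((A : SL(2, ℤ)) : Matrix (Fin 2) (Fin 2) ℤ)) 1 0 : ℤ) : ZMod N) = 0
  obtain ⟨c, hc⟩ := dvd_of_mem_gamma0_mul A.2
  rw [(ZMod.intCast_zmod_eq_zero_iff_dvd _ _)]
  simp only [conjMat, Matrix.of_apply, Matrix.cons_val', Matrix.cons_val_zero, Matrix.cons_val_one,
    Matrix.empty_val', Matrix.cons_val_fin_one]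
  rw [hc]
  rcases eq_or_ne (q : ℤ) 0 with hq | hq
  · simp [hq]
  · refine ⟨c, ?_⟩
    rw [show ((N * q : ℕ) : ℤ) * c = (q : ℤ) * ((N : ℤ) * c) by push_cast; ring,
      Int.mul_ediv_cancel_left _ hq]

/-- Conjugation by `diag(q,1)` as a homomorphism `Gamma0 (N*q) →* Gamma0 N`. -/
def conjG (N q : ℕ) : Gamma0 (N * q) →* Gamma0 N where
  toFun A := ⟨conjSL N q A, conjSL_mem N q A⟩
  map_one' := by
    apply Subtype.ext
    apply Subtype.ext
    show conjMat q ((1 : SL(2, ℤ)) : Matrix (Fin 2) (Fin 2) ℤ) = 1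
    ext i j
    fin_cases i <;> fin_cases j <;> simp [conjMat]
  map_mul' A B := by
    apply Subtype.ext
    apply Subtype.ext
    show conjMat q (((A : SL(2, ℤ)) : Matrix (Fin 2) (Fin 2) ℤ) * ((B : SL(2, ℤ)) : Matrix (Fin 2) (Fin 2) ℤ))
      = conjMat q ((A : SL(2, ℤ)) : Matrix (Fin 2) (Fin 2) ℤ) * conjMat q ((B : SL(2, ℤ)) : Matrix (Fin 2) (Fin 2) ℤ)
    exact conjMat_mul (q_dvd_of_mem_gamma0_mul A.2) (q_dvd_of_mem_gamma0_mul B.2)

/-! ### Restriction and corestriction of additive characters -/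

section ResCor

variable {H G : Type*} [Group H] [Group G] (A : Type*) [AddCommGroup A]

/-- Restriction of an additive character along `ι : H →* G`. -/
def resAlong (ι : H →* G) (φ : Additive G →+ A) : Additive H →+ A :=
  φ.comp (MonoidHom.toAdditive ι)

@[simp] theorem resAlong_apply (ι : H →* G) (φ : Additive G →+ A) (h : H) :
    resAlong A ι φ (Additive.ofMul h) = φ (Additive.ofMul (ι h)) := rfl

open Classical in
/-- Corestriction (transfer) of an additive character along `ι : H →* G`, when `ι` is injective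
with range of finite index; `0` otherwise. -/
noncomputable def corAlong (ι : H →* G) (φ : Additive H →+ A) : Additive G →+ A :=
  if h : Function.Injective ι ∧ ι.range.FiniteIndex then
    haveI := h.2
    MonoidHom.toAdditiveLeft
      (MonoidHom.transfer
        ((AddMonoidHom.toMultiplicativeRight φ).comp (MonoidHom.ofInjective h.1).symm.toMonoidHom))
  else 0

end ResCor

section Degeneracy

variable (N q : ℕ) (A : Type*) [AddCommGroup A]

/-- first degeneracy map (restriction to `Gamma0 (N*q)`) -/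
def res1 (φ : Additive (Gamma0 N) →+ A) : Additive (Gamma0 (N * q)) →+ A := resAlong A (inclG N q) φ
/-- second degeneracy map (restriction along conjugation by `diag(q,1)`) -/
def res2 (φ : Additive (Gamma0 N) →+ A) : Additive (Gamma0 (N * q)) →+ A := resAlong A (conjG N q) φ
/-- first trace map (transfer along the inclusion) -/
noncomputable def cor1 (φ : Additive (Gamma0 (N * q)) →+ A) : Additive (Gamma0 N) →+ A :=
  corAlong A (inclG N q) φ
/-- second trace map (transfer along conjugation by `diag(q,1)`) -/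
noncomputable def cor2 (φ : Additive (Gamma0 (N * q)) →+ A) : Additive (Gamma0 N) →+ A :=
  corAlong A (conjG N q) φ

/-- The Hecke operator `T_ℓ` (or `U_ℓ` if `ℓ ∣ N`) on `Hom(Gamma0 N, A)`: `cor1 ∘ res2` through level `N*ℓ`. -/
noncomputable def Tcoh (ℓ : ℕ) (φ : Additive (Gamma0 N) →+ A) : Additive (Gamma0 N) →+ A :=
  cor1 N ℓ A (res2 N ℓ A φ)

end Degeneracy

/-- `φ` kills every parabolic and every elliptic element of `Γ` (all `γ` with `|trace γ| ≤ 2`).
For `A` without `6`-torsion (or `A` in which `6` is invertible) this is the prelude's `IsParabolicHom`. -/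
def IsCuspidalHom {A : Type*} [AddCommGroup A] (Γ : Subgroup SL(2, ℤ)) (φ : Additive Γ →+ A) : Prop :=
  ∀ γ : Γ, ((γ : SL(2, ℤ)) : Matrix (Fin 2) (Fin 2) ℤ).trace ^ 2 ≤ 4 → φ (Additive.ofMul γ) = 0

/-- The system of eigenvalues of `W` mod `p`: `T_ℓ x = a_ℓ(W) x` for every good prime `ℓ ∤ M`, `ℓ ≠ p`. -/
def IsEigenOf (W : WeierstrassCurve ℤ) (p M N : ℕ) (x : Additive (Gamma0 N) →+ ZMod p) : Prop :=
  ∀ ℓ : ℕ, ℓ.Prime → W.IsGoodPrimeFor ℓ → ¬ ℓ ∣ M → ℓ ≠ p →
    Tcoh N (ZMod p) ℓ x = ((W.apOfModel ℓ : ℤ) : ZMod p) • x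

end Fermat.Agent.S41

end
-- ==== END Fermat.Agent.S41.Defs
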