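-- GENERATED (merged mirror, NOTES/tools/trim/merge3_helper67.py): 9 modules of the originals, bodies verbatim.
import Mathlib
import Fermat.Prelude.Def_ModularCurve_X0
import Fermat.Prelude.Def_GaloisRep_Residual
import Fermat.Prelude.Def_Deformations_MatrixRepresentation

-- ==== BEGIN Fermat.Agent.S48.B2.R.H96_Irr3Gen
section

/-!
# S48 B2, slice R, leaf IRR-3 (helper96), part 1: generic lemmas

* `eq_C_of_qExpand_eq` : a Laurent series `w` with `w (q ^ n) = w`, `n ≥ 2`, is constant;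
* `finrank_adjoin_eq_relfinrank` : `[F : K(j)]` computed inside `F` equals the relative rank
  computed in the ambient field;
* `mem_adjoin_iff_coe_mem` : membership in `K(j)` inside `F` versus in the ambient field.
-/

set_option autoImplicit false

noncomputable section

namespace Fermat.Agent.S48.B2.R.H96

open ModularCurve IntermediateField

/-- A Laurent series fixed by `q ↦ q ^ n`, `n ≥ 2`, is constant. -/
theorem eq_C_of_qExpand_eq {R : Type*} [CommRing R] (n : ℕ) [NeZero n] (hn : 2 ≤ n)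
    (w : LaurentSeries R) (hw : qExpand R n w = w) : w = HahnSeries.C (w.coeff 0) := by
  have key : ∀ (d : ℕ) (m : ℤ), m.natAbs = d → m ≠ 0 → w.coeff m = 0 := by
    intro d
    induction d using Nat.strong_induction_on with
    | _ d ih =>
      intro m hm hm0
      by_cases hdvd : (n : ℤ) ∣ m
      · obtain ⟨m', rfl⟩ := hdvd
        have hm'0 : m' ≠ 0 := by
          rintro rfl
          exact hm0 (mul_zero _)
        have h1 : w.coeff ((n : ℤ) * m') = w.coeff m' := by
          conv_lhs => rw [← hw]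
          exact qExpand_coeff_mul n w m'
        rw [h1]
        refine ih m'.natAbs ?_ m' rfl hm'0
        rw [← hm, Int.natAbs_mul, Int.natAbs_natCast]
        have hpos : 0 < m'.natAbs := Int.natAbs_pos.mpr hm'0
        nlinarith
      · rw [← hw]
        exact qExpand_coeff_of_not_dvd n w hdvd
  ext m
  by_cases hm : m = 0
  · subst hm
    simp
  · rw [key m.natAbs m rfl hm]
    rw [HahnSeries.C_apply, HahnSeries.coeff_single_of_ne hm]

section Fields

variable {K Ω : Type*} [Field K] [Field Ω] [Algebra K Ω] (F : IntermediateField K Ω)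

/-- `[F : K(j)]` as a relative rank in the ambient field. -/
theorem finrank_adjoin_eq_relfinrank (j : ↥F) :
    Module.finrank ↥(K⟮j⟯) ↥F
      = (IntermediateField.adjoin K ({(j : Ω)} : Set Ω)).relfinrank F := by
  rw [← relfinrank_top_right,
    ← relfinrank_map_map (A := K⟮j⟯) (B := (⊤ : IntermediateField K ↥F)) F.val]
  congr 1
  · rw [IntermediateField.adjoin_map, Set.image_singleton]
    rfl
  · rw [← AlgHom.fieldRange_eq_map, IntermediateField.fieldRange_val]

/-- Membership in `K(j)`, computed in `F` or in the ambient field. -/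
theorem mem_adjoin_iff_coe_mem (j x : ↥F) :
    x ∈ K⟮j⟯ ↔ (x : Ω) ∈ IntermediateField.adjoin K ({(j : Ω)} : Set Ω) := by
  have e : (K⟮j⟯).map F.val = IntermediateField.adjoin K ({(j : Ω)} : Set Ω) := by
    rw [IntermediateField.adjoin_map, Set.image_singleton]
    rfl
  rw [← e]
  constructor
  · intro hx
    exact ⟨x, hx, rfl⟩
  · rintro ⟨y, hy, hxy⟩
    have : y = x := Subtype.ext hxy
    rwa [← this]

end Fields

end Fermat.Agent.S48.B2.R.H96

end
end
-- ==== END Fermat.Agent.S48.B2.R.H96_Irr3Gen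

-- ==== BEGIN Fermat.Agent.S48.B2.T.H43_EigRed
section

/-!
# S48 B2, slice T, leaf EIG-RED (helper43): reduction of eigensystems

Pure algebra, no commutativity needed.

* `exists_common_kernel` : `R` a commutative ring, `ι : R → K` an injective ring homomorphism into
  a field, `φ : R → k` a ring homomorphism into a field.  If the matrices `A i` over `R` have a
  common nonzero kernel vector over `K`, then they have one over `k`.
  (Proof: otherwise finitely many of them have an injective stacked matrix `B` over `k`, with a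
  left inverse `C`; the polynomial `det (X · B) ∈ R[X_{ab}]` specialises to `det (C · B) = 1` in
  `k`, but it vanishes over `K` because `(X · B) w = 0`.)
* `isIntegral_of_eigen` : eigenvalues of integer matrices are algebraic integers.
* `eigRed` : integer matrices `T i` with a common eigenvector `w ≠ 0` over `ℂ`, eigenvalues
  `lam i`: for every ring homomorphism `φ : integralClosure ℤ ℂ → k` into a field there is
  `v ≠ 0` in `k^r` with `T i v = φ (lam i) v`.
-/

set_option autoImplicit false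

namespace Fermat.Agent.S48.B2.T.H43

open Matrix

section Key

variable {R K k : Type*} [CommRing R] [Field K] [Field k]

/-- The finite case. -/
theorem exists_common_kernel_fin (ι : R →+* K) (hι : Function.Injective ι) (φ : R →+* k)
    {r : ℕ} {J : Type*} [Fintype J] (A : J → Matrix (Fin r) (Fin r) R)
    (w : Fin r → K) (hw : w ≠ 0) (hA : ∀ j, (A j).map ι *ᵥ w = 0) :
    ∃ v : Fin r → k, v ≠ 0 ∧ ∀ j, (A j).map φ *ᵥ v = 0 := by
  classical
  by_contra hcon
  push Not at hcon
  -- the stacked matrix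
  set B : Matrix (J × Fin r) (Fin r) R := fun x b => A x.1 x.2 b with hB
  have hker : ∀ v : Fin r → k, (B.map φ) *ᵥ v = 0 → v = 0 := by
    intro v hv
    by_contra hv0
    obtain ⟨j, hj⟩ := hcon v hv0
    apply hj
    funext a
    have := congrFun hv (j, a)
    simpa [Matrix.mulVec, dotProduct, hB] using this
  have hinj : Function.Injective (Matrix.toLin' (B.map φ)) := by
    rw [← LinearMap.ker_eq_bot, LinearMap.ker_eq_bot']
    intro v hv
    exact hker v (by simpa [Matrix.toLin'_apply] using hv)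
  obtain ⟨g, hg⟩ := LinearMap.exists_leftInverse_of_injective (Matrix.toLin' (B.map φ))
    (LinearMap.ker_eq_bot.mpr hinj)
  set Cb : Matrix (Fin r) (J × Fin r) k := LinearMap.toMatrix' g with hCb
  have hCB : (Cb * B.map φ : Matrix (Fin r) (Fin r) k) = 1 := by
    have h1 : (Cb * B.map φ : Matrix (Fin r) (Fin r) k)
        = LinearMap.toMatrix' (g.comp (Matrix.toLin' (B.map φ))) := by
      rw [LinearMap.toMatrix'_comp, LinearMap.toMatrix'_toLin']
    rw [h1, hg, LinearMap.toMatrix'_id]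
  -- the polynomial ring
  let P := MvPolynomial (Fin r × (J × Fin r)) R
  set X : Matrix (Fin r) (J × Fin r) P := fun a x => MvPolynomial.X (a, x) with hX
  set BP : Matrix (J × Fin r) (Fin r) P := B.map (MvPolynomial.C) with hBP
  set D : P := (X * BP).det with hD
  -- specialisation to `k`
  let ψ : P →+* k := MvPolynomial.eval₂Hom φ (fun p => Cb p.1 p.2)
  have hψX : X.map ψ = Cb := by
    ext a x
    show MvPolynomial.eval₂Hom φ (fun p : Fin r × (J × Fin r) => Cb p.1 p.2)
      (MvPolynomial.X (a, x)) = Cb a x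
    rw [MvPolynomial.coe_eval₂Hom, MvPolynomial.eval₂_X]
  have hψB : BP.map ψ = B.map φ := by
    ext x b
    show MvPolynomial.eval₂Hom φ (fun p : Fin r × (J × Fin r) => Cb p.1 p.2)
      (MvPolynomial.C (B x b)) = φ (B x b)
    rw [MvPolynomial.coe_eval₂Hom, MvPolynomial.eval₂_C]
  have hψD : ψ D = 1 := by
    rw [hD, RingHom.map_det, RingHom.mapMatrix_apply, Matrix.map_mul, hψX, hψB, hCB,
      Matrix.det_one]
  -- specialisation to `K[X]`
  let θ : P →+* MvPolynomial (Fin r × (J × Fin r)) K := MvPolynomial.map ι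
  have hθinj : Function.Injective θ := MvPolynomial.map_injective ι hι
  have hθD : θ D = 0 := by
    rw [hD, RingHom.map_det, RingHom.mapMatrix_apply, Matrix.map_mul]
    apply Matrix.exists_mulVec_eq_zero_iff.mp
    refine ⟨fun b => (MvPolynomial.C (w b) : MvPolynomial (Fin r × (J × Fin r)) K), ?_, ?_⟩
    · intro h0
      apply hw
      funext b
      have := congrFun h0 b
      exact MvPolynomial.C_injective (Fin r × (J × Fin r)) K (by simpa using this)
    · rw [← Matrix.mulVec_mulVec]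
      have hz : (BP.map θ) *ᵥ
          (fun b => (MvPolynomial.C (w b) : MvPolynomial (Fin r × (J × Fin r)) K)) = 0 := by
        funext x
        have h2 := congrFun (hA x.1) x.2
        simp only [Matrix.mulVec, dotProduct, Matrix.map_apply, Pi.zero_apply] at h2 ⊢
        have h3 : ∀ b, θ (BP x b) * MvPolynomial.C (w b)
            = MvPolynomial.C (ι (A x.1 x.2 b) * w b) := by
          intro b
          show MvPolynomial.map ι (MvPolynomial.C (A x.1 x.2 b)) * MvPolynomial.C (w b) = _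
          rw [MvPolynomial.map_C, ← MvPolynomial.C_mul]
        rw [Finset.sum_congr rfl (fun b _ => h3 b), ← map_sum, h2, map_zero]
      rw [hz, Matrix.mulVec_zero]
  have hD0 : D = 0 := hθinj (by rw [hθD, map_zero])
  rw [hD0, map_zero] at hψD
  exact zero_ne_one hψD

/-- **Common kernel vectors specialise**: any family of matrices. -/
theorem exists_common_kernel (ι : R →+* K) (hι : Function.Injective ι) (φ : R →+* k)
    {r : ℕ} {I : Type*} (A : I → Matrix (Fin r) (Fin r) R)
    (w : Fin r → K) (hw : w ≠ 0) (hA : ∀ i, (A i).map ι *ᵥ w = 0) :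
    ∃ v : Fin r → k, v ≠ 0 ∧ ∀ i, (A i).map φ *ᵥ v = 0 := by
  classical
  set S : Set (Matrix (Fin r) (Fin r) k) := Set.range (fun i => (A i).map φ) with hS
  have hfg : (Submodule.span k S).FG := IsNoetherian.noetherian _
  obtain ⟨s', hs', hspan⟩ := (Submodule.fg_span_iff_fg_span_finset_subset S).mp hfg
  have hidx : ∀ x : s', ∃ i : I, (A i).map φ = (x : Matrix (Fin r) (Fin r) k) := by
    intro x
    have := hs' x.2
    rw [hS] at this
    exact this
  choose idx hidx using hidx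
  obtain ⟨v, hv0, hv⟩ := exists_common_kernel_fin ι hι φ (fun x : s' => A (idx x)) w hw
    (fun x => hA (idx x))
  refine ⟨v, hv0, fun i => ?_⟩
  have hmem : (A i).map φ ∈ Submodule.span k (s' : Set (Matrix (Fin r) (Fin r) k)) := by
    rw [← hspan]
    exact Submodule.subset_span ⟨i, rfl⟩
  have key : ∀ M ∈ Submodule.span k (s' : Set (Matrix (Fin r) (Fin r) k)), M *ᵥ v = 0 := by
    intro M hM
    induction hM using Submodule.span_induction with
    | mem x hx =>
      have := hv ⟨x, hx⟩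
      rwa [hidx ⟨x, hx⟩] at this
    | zero => exact Matrix.zero_mulVec v
    | add x y _ _ hx hy => rw [Matrix.add_mulVec, hx, hy, add_zero]
    | smul c x _ hx => rw [Matrix.smul_mulVec, hx, smul_zero]
  exact key _ hmem

end Key

/-- Eigenvalues of integer matrices are algebraic integers. -/
theorem isIntegral_of_eigen {r : ℕ} (T : Matrix (Fin r) (Fin r) ℤ) (lam : ℂ) (w : Fin r → ℂ)
    (hw : w ≠ 0) (h : (T.map (Int.cast : ℤ → ℂ)) *ᵥ w = lam • w) : IsIntegral ℤ lam := by
  classical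
  refine ⟨T.charpoly, Matrix.charpoly_monic T, ?_⟩
  have hdet : (Matrix.scalar (Fin r) lam - T.map (Int.cast : ℤ → ℂ)).det = 0 := by
    apply Matrix.exists_mulVec_eq_zero_iff.mp
    refine ⟨w, hw, ?_⟩
    rw [Matrix.sub_mulVec, h]
    funext a
    simp [Matrix.mulVec, dotProduct, Matrix.scalar_apply, Matrix.diagonal_apply]
  have hmap : (T.map (Int.cast : ℤ → ℂ)).charpoly = T.charpoly.map (Int.castRingHom ℂ) := by
    have := Matrix.charpoly_map T (Int.castRingHom ℂ)
    simpa [RingHom.mapMatrix_apply] using this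
  rw [← Polynomial.eval_map, algebraMap_int_eq, ← hmap, Matrix.eval_charpoly]
  exact hdet

/-- **EIG-RED**: a common eigenvector over `ℂ` of integer matrices gives a common eigenvector
over `k` with the reduced eigenvalues, for every `φ : ℤ̄ → k`. -/
theorem eigRed {r : ℕ} {I : Type*} (T : I → Matrix (Fin r) (Fin r) ℤ) (lam : I → ℂ)
    (w : Fin r → ℂ) (hw : w ≠ 0)
    (h : ∀ i, ((T i).map (Int.cast : ℤ → ℂ)) *ᵥ w = lam i • w)
    {k : Type*} [Field k] (φ : integralClosure ℤ ℂ →+* k) :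
    (∀ i, IsIntegral ℤ (lam i)) ∧
      ∃ v : Fin r → k, v ≠ 0 ∧ ∀ (i : I) (t : integralClosure ℤ ℂ), (t : ℂ) = lam i →
        ((T i).map (Int.cast : ℤ → k)) *ᵥ v = φ t • v := by
  classical
  have hint : ∀ i, IsIntegral ℤ (lam i) := fun i => isIntegral_of_eigen (T i) (lam i) w hw (h i)
  refine ⟨hint, ?_⟩
  let R := integralClosure ℤ ℂ
  let ι : R →+* ℂ := algebraMap R ℂ
  have hι : Function.Injective ι := Subtype.val_injective
  let t : I → R := fun i => ⟨lam i, hint i⟩
  let A : I → Matrix (Fin r) (Fin r) R := fun i =>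
    (T i).map (Int.cast : ℤ → R) - Matrix.scalar (Fin r) (t i)
  have hA : ∀ i, (A i).map ι *ᵥ w = 0 := by
    intro i
    have h1 : (A i).map ι = (T i).map (Int.cast : ℤ → ℂ) - Matrix.scalar (Fin r) (lam i) := by
      ext a b
      by_cases hab : a = b
      · subst hab
        simp [A, ι, t, Matrix.scalar_apply]
      · simp [A, ι, t, Matrix.scalar_apply, hab]
    rw [h1, Matrix.sub_mulVec, h i]
    funext a
    simp [Matrix.mulVec, dotProduct, Matrix.scalar_apply, Matrix.diagonal_apply]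
  obtain ⟨v, hv0, hv⟩ := exists_common_kernel ι hι φ A w hw hA
  refine ⟨v, hv0, fun i t' ht' => ?_⟩
  have ht : t' = t i := Subtype.ext ht'
  subst ht
  have h2 : (A i).map φ = (T i).map (Int.cast : ℤ → k) - Matrix.scalar (Fin r) (φ (t i)) := by
    ext a b
    by_cases hab : a = b
    · subst hab
      simp [A, Matrix.scalar_apply]
    · simp [A, Matrix.scalar_apply, hab]
  have h3 := hv i
  rw [h2, Matrix.sub_mulVec, sub_eq_zero] at h3
  rw [h3]
  funext a
  simp [Matrix.mulVec, dotProduct, Matrix.scalar_apply, Matrix.diagonal_apply]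

end Fermat.Agent.S48.B2.T.H43

end
-- ==== END Fermat.Agent.S48.B2.T.H43_EigRed

-- ==== BEGIN Fermat.Agent.S48.B2.T.H55_PerConst
section

/-!
# S48 / B2, slice T, leaf T-PER (helper55), part 1: the maximum principle on a modular curve

`const_of_norm_inv` : a holomorphic function on the upper half plane whose modulus is invariant
under a subgroup `Γ` of finite index in `SL(2, ℤ)`, which is `N`-periodic after every
`δ ∈ SL(2, ℤ)` and has a limit at every cusp, is constant.

This is the statement `Fermat.Agent.S21.partD_core` (helper78, for `Γ₀(N)`) for an arbitrary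
subgroup of finite index; the proof is the same.
-/

set_option autoImplicit false

open UpperHalfPlane Filter Topology Function
open scoped MatrixGroups Manifold

namespace Fermat.Agent.S48.B2.T.H55

theorem const_of_norm_inv (Γ : Subgroup SL(2, ℤ)) [Finite (SL(2, ℤ) ⧸ Γ)]
    (N : ℕ) [NeZero N] (E : ℍ → ℂ)
    (hE : ∀ τ : ℍ, DifferentiableAt ℂ (E ∘ ofComplex) (τ : ℂ))
    (hinv : ∀ γ ∈ Γ, ∀ z : ℍ, ‖E (γ • z)‖ = ‖E z‖)
    (hper : ∀ (δ : SL(2, ℤ)) (w : ℍ), E (δ • (ModularGroup.T ^ N • w)) = E (δ • w))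
    (hlim : ∀ δ : SL(2, ℤ), ∃ L : ℂ, Tendsto (fun w : ℍ => E (δ • w)) atImInfty (𝓝 L)) :
    ∃ c : ℂ, ∀ z : ℍ, E z = c := by
  classical
  have hN : (0 : ℝ) < (N : ℝ) := by exact_mod_cast Nat.pos_of_ne_zero (NeZero.ne N)
  -- the translates, as functions on `ℂ`
  let f : SL(2, ℤ) → ℂ → ℂ := fun δ => (fun w : ℍ => E (δ • w)) ∘ ofComplex
  have hf_apply : ∀ δ (w : ℍ), f δ (w : ℂ) = E (δ • w) := fun δ w => by
    simp only [f, comp_apply, ofComplex_apply]
  -- (1) periodicity
  have hfper : ∀ δ, Periodic (f δ) ((N : ℝ) : ℂ) := by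
    intro δ z
    by_cases hz : 0 < z.im
    · have hz' : 0 < (z + ((N : ℝ) : ℂ)).im := by simpa using hz
      have h1 : (⟨z + ((N : ℝ) : ℂ), hz'⟩ : ℍ) = ModularGroup.T ^ N • (⟨z, hz⟩ : ℍ) := by
        apply UpperHalfPlane.ext
        have := ModularGroup.coe_T_zpow_smul_eq (z := (⟨z, hz⟩ : ℍ)) (n := (N : ℤ))
        rw [zpow_natCast] at this
        rw [this]
        simp
      have h2 := hf_apply δ ⟨z + ((N : ℝ) : ℂ), hz'⟩
      have h3 := hf_apply δ ⟨z, hz⟩
      simp only at h2 h3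
      rw [h2, h3, h1]
      exact hper δ _
    · have hz0 : z.im ≤ 0 := not_lt.mp hz
      have hz' : (z + ((N : ℝ) : ℂ)).im ≤ 0 := by simpa using hz0
      simp only [f, comp_apply]
      rw [ofComplex_apply_eq_of_im_nonpos hz' hz0]
  -- (2) differentiability on the upper half plane
  have hfdiff : ∀ δ (z : ℂ), 0 < z.im → DifferentiableAt ℂ (f δ) z := by
    intro δ z hz
    have hEm : ∀ τ : ℍ, MDifferentiableAt 𝓘(ℂ) 𝓘(ℂ) E τ := fun τ =>
      mdifferentiableAt_iff.mpr (hE τ)
    have hg : 0 < ((δ : GL (Fin 2) ℝ)).det.val := by simp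
    have h1 : MDifferentiableAt 𝓘(ℂ) 𝓘(ℂ) (fun w : ℍ => E (δ • w)) ⟨z, hz⟩ :=
      (hEm (δ • ⟨z, hz⟩)).comp (⟨z, hz⟩ : ℍ) (mdifferentiable_smul hg ⟨z, hz⟩)
    exact mdifferentiableAt_iff.mp h1
  -- (3) boundedness at `i∞`
  have hfbdd : ∀ δ, BoundedAtFilter (comap Complex.im atTop) (f δ) := by
    intro δ
    obtain ⟨L, hL⟩ := hlim δ
    have h1 : Tendsto (f δ) (comap Complex.im atTop) (𝓝 L) := hL.comp tendsto_comap_im_ofComplex
    exact h1.isBigO_one ℝ
  have hfhol : ∀ δ, ∀ᶠ z in comap Complex.im atTop, DifferentiableAt ℂ (f δ) z := by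
    intro δ
    have h1 : ∀ᶠ z in comap Complex.im atTop, 0 < z.im :=
      (tendsto_comap (f := Complex.im) (x := atTop)).eventually (eventually_gt_atTop 0)
    exact h1.mono fun z hz => hfdiff δ z hz
  -- cusp functions
  let c : SL(2, ℤ) → ℂ → ℂ := fun δ => Periodic.cuspFunction (N : ℝ) (f δ)
  have hc_eq : ∀ δ (w : ℍ), c δ (Periodic.qParam (N : ℝ) (w : ℂ)) = E (δ • w) := by
    intro δ w
    rw [← hf_apply δ w]
    exact Periodic.eq_cuspFunction hN.ne' (hfper δ) (w : ℂ)
  have hc_diffAt : ∀ δ, ∀ q ∈ Metric.ball (0 : ℂ) 1, DifferentiableAt ℂ (c δ) q := by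
    intro δ q hq
    rcases eq_or_ne q 0 with rfl | hq0
    · exact Periodic.differentiableAt_cuspFunction_zero hN (hfper δ) (hfhol δ) (hfbdd δ)
    · have him := Periodic.im_invQParam_pos_of_norm_lt_one hN (mem_ball_zero_iff.mp hq) hq0
      have := Periodic.differentiableAt_cuspFunction hN.ne' (hfper δ) (hfdiff δ _ him)
      rwa [Periodic.qParam_right_inv hN.ne' hq0] at this
  have hc_diff : ∀ δ, DifferentiableOn ℂ (c δ) (Metric.ball 0 1) := fun δ q hq =>
    (hc_diffAt δ q hq).differentiableWithinAt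
  -- the radius
  set r : ℝ := Real.exp (-Real.pi / N) with hr
  have hr0 : 0 ≤ r := (Real.exp_pos _).le
  have hr1 : r < 1 := by
    rw [hr, Real.exp_lt_one_iff]
    exact div_neg_of_neg_of_pos (neg_lt_zero.mpr Real.pi_pos) hN
  have hqr : ∀ w : ℍ, 1 / 2 ≤ w.im →
      Periodic.qParam (N : ℝ) (w : ℂ) ∈ Metric.closedBall (0 : ℂ) r := by
    intro w hw
    rw [mem_closedBall_zero_iff, Periodic.norm_qParam, hr, Real.exp_le_exp]
    rw [div_le_div_iff_of_pos_right hN]
    have : (w : ℂ).im = w.im := rfl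
    rw [this]
    nlinarith [Real.pi_pos]
  -- coset representatives and maximisers
  have hmax : ∀ δ : SL(2, ℤ), ∃ x ∈ Metric.closedBall (0 : ℂ) r,
      IsMaxOn (fun q => ‖c δ q‖) (Metric.closedBall (0 : ℂ) r) x := by
    intro δ
    exact (isCompact_closedBall (0 : ℂ) r).exists_isMaxOn (Metric.nonempty_closedBall.mpr hr0)
      ((hc_diff δ).continuousOn.mono (Metric.closedBall_subset_ball hr1)).norm
  choose x hx_mem hx_max using hmax
  let rep : (SL(2, ℤ) ⧸ Γ) → SL(2, ℤ) := fun q => (Quotient.out q)⁻¹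
  obtain ⟨q₀, hq₀⟩ := Finite.exists_max (fun q : SL(2, ℤ) ⧸ Γ => ‖c (rep q) (x (rep q))‖)
  set δ₀ := rep q₀ with hδ₀
  set B := ‖c δ₀ (x δ₀)‖ with hB
  -- the global bound
  have hbound : ∀ τ : ℍ, ‖E τ‖ ≤ B := by
    intro τ
    obtain ⟨γ₀, hγ₀⟩ := ModularGroup.exists_one_half_le_im_smul τ
    obtain ⟨h, hh⟩ := QuotientGroup.mk_out_eq_mul Γ γ₀
    set q : SL(2, ℤ) ⧸ Γ := QuotientGroup.mk γ₀ with hq
    have h1 : τ = (h : SL(2, ℤ)) • (rep q • (γ₀ • τ)) := by
      have : (h : SL(2, ℤ)) * rep q * γ₀ = 1 := by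
        simp only [rep]
        rw [hh]
        group
      rw [← mul_smul, ← mul_smul, this, one_smul]
    calc ‖E τ‖ = ‖E ((h : SL(2, ℤ)) • (rep q • (γ₀ • τ)))‖ := by rw [← h1]
      _ = ‖E (rep q • (γ₀ • τ))‖ := hinv _ h.2 _
      _ = ‖c (rep q) (Periodic.qParam (N : ℝ) ((γ₀ • τ : ℍ) : ℂ))‖ := by rw [hc_eq]
      _ ≤ ‖c (rep q) (x (rep q))‖ := hx_max (rep q) (hqr _ hγ₀)
      _ ≤ B := hq₀ q
  -- bound for the cusp function of `δ₀` on the whole unit disc
  have hcB : ∀ z ∈ Metric.ball (0 : ℂ) 1, ‖c δ₀ z‖ ≤ B := by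
    have hne : ∀ z ∈ Metric.ball (0 : ℂ) 1, z ≠ 0 → ‖c δ₀ z‖ ≤ B := by
      intro z hz hz0
      have him := Periodic.im_invQParam_pos_of_norm_lt_one hN (mem_ball_zero_iff.mp hz) hz0
      have h1 := hc_eq δ₀ ⟨_, him⟩
      simp only at h1
      rw [Periodic.qParam_right_inv hN.ne' hz0] at h1
      rw [h1]
      exact hbound _
    intro z hz
    rcases eq_or_ne z 0 with rfl | hz0
    · have hcont : ContinuousAt (c δ₀) 0 := (hc_diffAt δ₀ 0 hz).continuousAt
      have ht : Tendsto (fun q => ‖c δ₀ q‖) (𝓝[≠] (0 : ℂ)) (𝓝 ‖c δ₀ 0‖) :=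
        (hcont.norm.tendsto).mono_left nhdsWithin_le_nhds
      refine le_of_tendsto ht ?_
      have hball : Metric.ball (0 : ℂ) 1 ∈ 𝓝 (0 : ℂ) := Metric.ball_mem_nhds 0 one_pos
      filter_upwards [nhdsWithin_le_nhds hball, self_mem_nhdsWithin] with q hq hq0
      exact hne q hq hq0
    · exact hne z hz hz0
  -- maximum modulus principle
  have hconst : Set.EqOn (c δ₀) (Function.const ℂ (c δ₀ 0)) (Metric.ball 0 1) := by
    refine Complex.eq_const_of_exists_le (hc_diff δ₀) hr0 hr1 fun z hz => ?_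
    exact ⟨x δ₀, hx_mem δ₀, hcB z hz⟩
  refine ⟨c δ₀ 0, fun z => ?_⟩
  have h1 := hc_eq δ₀ (δ₀⁻¹ • z)
  rw [smul_inv_smul] at h1
  rw [← h1]
  refine hconst ?_
  rw [mem_ball_zero_iff]
  exact Periodic.norm_qParam_lt_one hN (δ₀⁻¹ • z).im_pos

end Fermat.Agent.S48.B2.T.H55

end
-- ==== END Fermat.Agent.S48.B2.T.H55_PerConst

-- ==== BEGIN Fermat.Agent.S48.Cheb.H55_Exp
section

/-!
# S48, leaf D3 (helper55): the choice of the modulus `m = 4 q`

`exists_modulus`: for `n ≥ 1` and `η > 0` there are `m ≠ 0` and a set `Bad` of units mod `m` with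
`#Bad ≤ η φ(m)` such that every unit `t ∉ Bad` has order divisible by `n` and no power of `t` is
`-1`.

Proof: `D = 4 n`, `2 ^ K ≥ D / η`, `q` a prime `≡ 1 mod D ^ K`, `m = 4 q`;
`Bad = {t : D ∤ ord (t mod q)}`.  In the cyclic group `(ℤ/q)ˣ` of order `Q`, an element of order
not divisible by `D` is killed by `Q / π ^ K` for some prime `π ∣ D`.
-/

set_option autoImplicit false
set_option linter.style.haveILetI false

namespace Fermat.Agent.S48.Cheb.H55

/-- If `o ∣ Q`, `D ^ K ∣ Q` and `D ∤ o`, then `o ∣ Q / π ^ K` for some prime `π ∣ D`. -/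
theorem dvd_div_pow_of_not_dvd (D K o Q : ℕ) (hD : D ≠ 0) (hK : 1 ≤ K) (hQ : Q ≠ 0)
    (ho : o ∣ Q) (hDK : D ^ K ∣ Q) (hDo : ¬ D ∣ o) : ∃ π ∈ D.primeFactors, o ∣ Q / π ^ K := by
  have ho0 : o ≠ 0 := fun h => by
    subst h
    exact hQ (zero_dvd_iff.mp ho)
  have h1 : ¬ D.factorization ≤ o.factorization := fun h =>
    hDo ((Nat.factorization_le_iff_dvd hD ho0).mp h)
  rw [Finsupp.le_def, not_forall] at h1
  obtain ⟨π, hπ⟩ := h1
  rw [not_le] at hπ
  have hπD : π ∈ D.primeFactors := by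
    rw [← Nat.support_factorization, Finsupp.mem_support_iff]
    omega
  have hπp : π.Prime := Nat.prime_of_mem_primeFactors hπD
  refine ⟨π, hπD, ?_⟩
  have hπKQ : π ^ K ∣ Q := (pow_dvd_pow_of_dvd (Nat.dvd_of_mem_primeFactors hπD) K).trans hDK
  have hq0 : Q / π ^ K ≠ 0 := by
    obtain ⟨c, hc⟩ := hπKQ
    rw [hc, Nat.mul_div_cancel_left _ (pow_pos hπp.pos K)]
    rintro rfl
    exact hQ (by rw [hc, mul_zero])
  rw [← Nat.factorization_le_iff_dvd ho0 hq0, Nat.factorization_div hπKQ, Finsupp.le_def]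
  intro r
  rw [Finsupp.tsub_apply, Nat.factorization_pow, Finsupp.smul_apply, hπp.factorization,
    smul_eq_mul]
  have hoQ : o.factorization r ≤ Q.factorization r :=
    (Nat.factorization_le_iff_dvd ho0 hQ).mpr ho r
  by_cases hr : r = π
  · subst hr
    rw [Finsupp.single_eq_same, mul_one]
    have h2 : K * D.factorization r ≤ Q.factorization r := by
      have h3 := (Nat.factorization_le_iff_dvd (pow_ne_zero K hD) hQ).mpr hDK r
      rw [Nat.factorization_pow, Finsupp.smul_apply, smul_eq_mul] at h3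
      exact h3
    have h4 : o.factorization r + K ≤ K * D.factorization r := by
      nlinarith [Nat.mul_le_mul_left K (Nat.succ_le_of_lt hπ),
        Nat.mul_le_mul_right (o.factorization r) hK]
    omega
  · rw [Finsupp.single_eq_of_ne hr, mul_zero, Nat.sub_zero]
    exact hoQ

/-- In `(ℤ/q)ˣ`, few elements have an order not divisible by `D`, if `D ^ K ∣ q - 1`. -/
theorem card_bad_mul_le (q : ℕ) [hq : Fact q.Prime] (D K : ℕ) (hD : D ≠ 0) (hK : 1 ≤ K)
    (hDK : D ^ K ∣ q - 1) :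
    (Finset.univ.filter (fun x : (ZMod q)ˣ => ¬ D ∣ orderOf x)).card * 2 ^ K ≤ D * (q - 1) := by
  classical
  have hQ : q - 1 ≠ 0 := by
    have := hq.out.two_le
    omega
  have hcard : Fintype.card (ZMod q)ˣ = q - 1 := ZMod.card_units q
  set bad : Finset (ZMod q)ˣ := Finset.univ.filter (fun x : (ZMod q)ˣ => ¬ D ∣ orderOf x)
    with hbad
  have hsub : bad ⊆ D.primeFactors.biUnion
      (fun π => Finset.univ.filter (fun x : (ZMod q)ˣ => x ^ ((q - 1) / π ^ K) = 1)) := by
    intro x hx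
    have hx' : ¬ D ∣ orderOf x := (Finset.mem_filter.mp hx).2
    have hox : orderOf x ∣ q - 1 := hcard ▸ orderOf_dvd_card
    obtain ⟨π, hπ, hdvd⟩ := dvd_div_pow_of_not_dvd D K (orderOf x) (q - 1) hD hK hQ hox hDK hx'
    rw [Finset.mem_biUnion]
    exact ⟨π, hπ, Finset.mem_filter.mpr ⟨Finset.mem_univ _, orderOf_dvd_iff_pow_eq_one.mp hdvd⟩⟩
  have h1 : bad.card ≤ ∑ π ∈ D.primeFactors, (q - 1) / π ^ K := by
    refine (Finset.card_le_card hsub).trans (Finset.card_biUnion_le.trans ?_)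
    refine Finset.sum_le_sum fun π hπ => ?_
    have hπp : π.Prime := Nat.prime_of_mem_primeFactors hπ
    have hπKQ : π ^ K ∣ q - 1 :=
      (pow_dvd_pow_of_dvd (Nat.dvd_of_mem_primeFactors hπ) K).trans hDK
    have hpos : 0 < (q - 1) / π ^ K :=
      Nat.div_pos (Nat.le_of_dvd (Nat.pos_of_ne_zero hQ) hπKQ) (pow_pos hπp.pos K)
    exact IsCyclic.card_pow_eq_one_le hpos
  have h2 : (∑ π ∈ D.primeFactors, (q - 1) / π ^ K) * 2 ^ K ≤ D.primeFactors.card * (q - 1) := by
    rw [Finset.sum_mul, ← smul_eq_mul, ← Finset.sum_const]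
    refine Finset.sum_le_sum fun π hπ => ?_
    have hπp : π.Prime := Nat.prime_of_mem_primeFactors hπ
    calc (q - 1) / π ^ K * 2 ^ K ≤ (q - 1) / π ^ K * π ^ K :=
          Nat.mul_le_mul_left _ (Nat.pow_le_pow_left hπp.two_le K)
      _ ≤ q - 1 := Nat.div_mul_le_self _ _
  have h3 : D.primeFactors.card ≤ D := by
    have hsub' : D.primeFactors ⊆ Finset.Icc 1 D := by
      intro π hπ
      rw [Finset.mem_Icc]
      exact ⟨(Nat.prime_of_mem_primeFactors hπ).one_le,
        Nat.le_of_dvd (Nat.pos_of_ne_zero hD) (Nat.dvd_of_mem_primeFactors hπ)⟩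
    have := Finset.card_le_card hsub'
    rwa [Nat.card_Icc, Nat.add_sub_cancel] at this
  calc bad.card * 2 ^ K ≤ (∑ π ∈ D.primeFactors, (q - 1) / π ^ K) * 2 ^ K :=
        Nat.mul_le_mul_right _ h1
    _ ≤ D.primeFactors.card * (q - 1) := h2
    _ ≤ D * (q - 1) := Nat.mul_le_mul_right _ h3

end Fermat.Agent.S48.Cheb.H55

end
-- ==== END Fermat.Agent.S48.Cheb.H55_Exp

-- ==== BEGIN Fermat.Agent.S48.Cheb.H78_CrossField
section

/-!
# S48 leaf D3, field theory: `N = L(ζ_m)` and the automorphisms extending `g`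

* `isGalois_cyclotomicField` : `L(ζ_m)/ℚ` is Galois if `L/ℚ` is;
* `eq_one_of_res_of_zeta`    : an automorphism of `N = L(ζ)` trivial on `L` and on `ζ` is trivial;
* `exists_good_set`          : the set `R` of the `a ∈ Gal(N/ℚ)` with `a|_L = g` whose action on `ζ`
  avoids a given set `Bad` of units mod `m` has at least `[N : L] - #Bad` elements, and its
  elements satisfy the two hypotheses of the cyclotomic case if the units outside `Bad` are good;
* `totient_le_finrank_mul`   : `φ(m) ≤ [L : ℚ] [N : L]`.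
-/

set_option autoImplicit false
set_option linter.style.haveILetI false
set_option linter.unusedSectionVars false

open NumberField Polynomial

namespace Fermat.Agent.S48.Cheb.H78

/-- `L(ζ_m)` is Galois over `ℚ` if `L` is. -/
theorem isGalois_cyclotomicField (L : Type) [Field L] [NumberField L] [IsGalois ℚ L]
    (m : ℕ) [NeZero m] : IsGalois ℚ (CyclotomicField m L) := by
  obtain ⟨f, hfsep, hf⟩ := IsGalois.is_separable_splitting_field ℚ L
  haveI := hf
  haveI : Polynomial.IsSplittingField L (CyclotomicField m L)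
      ((Polynomial.cyclotomic m ℚ).map (algebraMap ℚ L)) := by
    rw [Polynomial.map_cyclotomic]
    exact IsCyclotomicExtension.splitting_field_cyclotomic m L _
  haveI := Polynomial.IsSplittingField.mul (F := ℚ) (K := L) (CyclotomicField m L) f
    (Polynomial.cyclotomic m ℚ) hfsep.ne_zero (Polynomial.cyclotomic_ne_zero m ℚ)
  haveI : Normal ℚ (CyclotomicField m L) := Normal.of_isSplittingField (f * cyclotomic m ℚ)
  exact ⟨⟩

section grp

variable (L : Type) [Field L] [NumberField L] [IsGalois ℚ L]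
  (N : Type) [Field N] [NumberField N] [IsGalois ℚ N] [Algebra L N]
  (m : ℕ) [NeZero m] [IsCyclotomicExtension {m} L N] (ζ : N) (hζ : IsPrimitiveRoot ζ m)

include hζ in
/-- An automorphism of `N = L(ζ)` trivial on `L` and on `ζ` is trivial. -/
theorem eq_one_of_res_of_zeta (a : N ≃ₐ[ℚ] N) (hres : AlgEquiv.restrictNormalHom L a = 1)
    (hz : a ζ = ζ) : a = 1 := by
  have hfix : ∀ x : L, a (algebraMap L N x) = algebraMap L N x := by
    intro x
    have := AlgEquiv.restrictNormal_commutes a L x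
    rw [← this]
    have h1 : a.restrictNormal L = 1 := hres
    rw [h1]; rfl
  let a' : N →ₐ[L] N := { (a : N →+* N) with commutes' := hfix }
  have htop : Algebra.adjoin L {ζ} = ⊤ := IsCyclotomicExtension.adjoin_primitive_root_eq_top hζ
  have : a' = AlgHom.id L N := by
    apply AlgHom.ext_of_adjoin_eq_top htop
    intro x hx
    rw [Set.mem_singleton_iff] at hx
    subst hx
    exact hz
  ext x
  exact DFunLike.congr_fun this x

include hζ in
lemma zeta_pow_val_one : ζ ^ (1 : ZMod m).val = ζ := by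
  rw [ZMod.val_one_eq_one_mod]
  rcases Nat.lt_or_ge 1 m with h | h
  · rw [Nat.mod_eq_of_lt h, pow_one]
  · have hm1 : m = 1 := le_antisymm h (Nat.pos_of_ne_zero (NeZero.ne m))
    subst hm1
    simp only [Nat.mod_self, pow_zero]
    exact (hζ.pow_eq_one.symm.trans (pow_one ζ))

/-- `χ b = 1` if `b ζ = ζ`. -/
theorem autToPow_eq_one_of_fix (b : N ≃ₐ[ℚ] N) (hb : b ζ = ζ) : hζ.autToPow ℚ b = 1 := by
  have h := hζ.autToPow_spec ℚ b
  rw [hb] at h
  set v := ((hζ.autToPow ℚ b : (ZMod m)ˣ) : ZMod m).val with hv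
  have h1 : ζ ^ ((v : ℤ) - 1) = 1 := by
    have hz0 : ζ ≠ 0 := hζ.ne_zero (NeZero.ne m)
    rw [zpow_sub₀ hz0, zpow_natCast, zpow_one, h, div_self hz0]
  have h2 : (m : ℤ) ∣ (v : ℤ) - 1 := (hζ.zpow_eq_one_iff_dvd _).mp h1
  have h3 : (((v : ℤ) - 1 : ℤ) : ZMod m) = 0 := (ZMod.intCast_zmod_eq_zero_iff_dvd _ _).mpr h2
  have h4 : ((v : ℕ) : ZMod m) = 1 := by
    push_cast at h3
    exact sub_eq_zero.mp h3
  rw [hv, ZMod.natCast_zmod_val] at h4
  exact Units.ext h4

/-- `χ b = -1` if `b ζ = ζ⁻¹`. -/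
theorem autToPow_eq_neg_one_of_inv (b : N ≃ₐ[ℚ] N) (hb : b ζ = ζ⁻¹) :
    hζ.autToPow ℚ b = -1 := by
  have h := hζ.autToPow_spec ℚ b
  rw [hb] at h
  set v := ((hζ.autToPow ℚ b : (ZMod m)ˣ) : ZMod m).val with hv
  have h1 : ζ ^ ((v : ℤ) + 1) = 1 := by
    have hz0 : ζ ≠ 0 := hζ.ne_zero (NeZero.ne m)
    rw [zpow_add₀ hz0, zpow_natCast, zpow_one, h, inv_mul_cancel₀ hz0]
  have h2 : (m : ℤ) ∣ (v : ℤ) + 1 := (hζ.zpow_eq_one_iff_dvd _).mp h1
  have h3 : (((v : ℤ) + 1 : ℤ) : ZMod m) = 0 := (ZMod.intCast_zmod_eq_zero_iff_dvd _ _).mpr h2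
  have h4 : ((v : ℕ) : ZMod m) = -1 := by
    push_cast at h3
    exact eq_neg_of_add_eq_zero_left h3
  rw [hv, ZMod.natCast_zmod_val] at h4
  apply Units.ext
  rw [h4]; simp

include hζ in
/-- `(res, χ)` is injective. -/
theorem eq_of_res_of_autToPow (a b : N ≃ₐ[ℚ] N)
    (hres : AlgEquiv.restrictNormalHom L a = AlgEquiv.restrictNormalHom L b)
    (hχ : hζ.autToPow ℚ a = hζ.autToPow ℚ b) : a = b := by
  have h1 : AlgEquiv.restrictNormalHom L (a⁻¹ * b) = 1 := by
    rw [map_mul, map_inv, hres, inv_mul_cancel]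
  have h2 : hζ.autToPow ℚ (a⁻¹ * b) = 1 := by
    rw [map_mul, map_inv, hχ, inv_mul_cancel]
  have h3 : (a⁻¹ * b) ζ = ζ := by
    have := hζ.autToPow_spec ℚ (a⁻¹ * b)
    rw [h2, Units.val_one, zeta_pow_val_one N m ζ hζ] at this
    exact this.symm
  have := eq_one_of_res_of_zeta L N m ζ hζ _ h1 h3
  exact inv_mul_eq_one.mp this

/-- The kernel of the restriction `Gal(N/ℚ) → Gal(L/ℚ)` has `[N : L]` elements. -/
theorem card_ker_res :
    Nat.card (AlgEquiv.restrictNormalHom (F := ℚ) (K₁ := N) L).ker = Module.finrank L N := by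
  set res := AlgEquiv.restrictNormalHom (F := ℚ) (K₁ := N) L with hres
  have hsurj : Function.Surjective res := AlgEquiv.restrictNormalHom_surjective N
  have h1 : Nat.card res.ker * res.ker.index = Nat.card (N ≃ₐ[ℚ] N) :=
    Subgroup.card_mul_index res.ker
  have h2 : res.ker.index = Nat.card (L ≃ₐ[ℚ] L) := by
    rw [Subgroup.index_ker, MonoidHom.range_eq_top.mpr hsurj, Subgroup.card_top]
  rw [h2, IsGalois.card_aut_eq_finrank, IsGalois.card_aut_eq_finrank,
    ← Module.finrank_mul_finrank ℚ L N, mul_comm] at h1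
  exact Nat.eq_of_mul_eq_mul_left Module.finrank_pos h1

include hζ in
/-- `φ(m) ≤ [L : ℚ] [N : L]`. -/
theorem totient_le_finrank_mul :
    Nat.totient m ≤ Module.finrank ℚ L * Module.finrank L N := by
  rw [Module.finrank_mul_finrank ℚ L N]
  have h1 : Polynomial.cyclotomic m ℚ = minpoly ℚ ζ :=
    Polynomial.cyclotomic_eq_minpoly_rat hζ (Nat.pos_of_ne_zero (NeZero.ne m))
  have h2 := minpoly.natDegree_le (A := ℚ) ζ
  rw [← h1, Polynomial.natDegree_cyclotomic] at h2
  exact h2

include hζ in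
/-- The good extensions of `g`. -/
theorem exists_good_set (g : L ≃ₐ[ℚ] L) (Bad : Finset (ZMod m)ˣ)
    (hgood : ∀ t : (ZMod m)ˣ, t ∉ Bad → orderOf g ∣ orderOf t ∧ ∀ k : ℕ, t ^ k ≠ -1) :
    ∃ R : Finset (N ≃ₐ[ℚ] N),
      (∀ a ∈ R, AlgEquiv.restrictNormalHom L a = g) ∧
      (∀ a ∈ R, (∀ k : ℕ, (a ^ k) ζ = ζ → a ^ k = 1) ∧ ∀ k : ℕ, (a ^ k) ζ ≠ ζ⁻¹) ∧
      Module.finrank L N ≤ R.card + Bad.card := by
  classical
  haveI : Fintype (N ≃ₐ[ℚ] N) := Fintype.ofFinite _
  set res := AlgEquiv.restrictNormalHom (F := ℚ) (K₁ := N) L with hres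
  set χ := hζ.autToPow ℚ with hχ
  have hsurj : Function.Surjective res := AlgEquiv.restrictNormalHom_surjective N
  obtain ⟨a₀, ha₀⟩ := hsurj g
  set Ag : Finset (N ≃ₐ[ℚ] N) := Finset.univ.filter (fun a => res a = g) with hAg
  -- `#A_g = [N : L]`
  have hAgcard : Ag.card = Module.finrank L N := by
    rw [← card_ker_res L N, Nat.card_eq_fintype_card, ← Finset.card_univ]
    symm
    refine Finset.card_bij (fun k _ => a₀ * (k : N ≃ₐ[ℚ] N)) ?_ ?_ ?_
    · intro k _
      rw [hAg, Finset.mem_filter]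
      refine ⟨Finset.mem_univ _, ?_⟩
      rw [map_mul, ha₀, (MonoidHom.mem_ker).mp k.2, mul_one]
    · intro k _ k' _ h
      exact Subtype.ext (mul_left_cancel h)
    · intro a ha
      rw [hAg, Finset.mem_filter] at ha
      refine ⟨⟨a₀⁻¹ * a, ?_⟩, Finset.mem_univ _, ?_⟩
      · rw [MonoidHom.mem_ker, map_mul, map_inv, ha₀, ha.2, inv_mul_cancel]
      · simp
  refine ⟨Ag.filter (fun a => χ a ∉ Bad), ?_, ?_, ?_⟩
  · intro a ha
    rw [Finset.mem_filter, hAg, Finset.mem_filter] at ha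
    exact ha.1.2
  · intro a ha
    rw [Finset.mem_filter, hAg, Finset.mem_filter] at ha
    obtain ⟨hord, hneg⟩ := hgood (χ a) ha.2
    constructor
    · intro k hk
      have h1 : χ (a ^ k) = 1 := autToPow_eq_one_of_fix N m ζ hζ _ hk
      rw [map_pow] at h1
      have h2 : orderOf g ∣ k := hord.trans (orderOf_dvd_of_pow_eq_one h1)
      have h3 : res (a ^ k) = 1 := by
        rw [map_pow, ha.1.2]
        exact orderOf_dvd_iff_pow_eq_one.mp h2
      exact eq_one_of_res_of_zeta L N m ζ hζ _ h3 hk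
    · intro k hk
      have h1 : χ (a ^ k) = -1 := autToPow_eq_neg_one_of_inv N m ζ hζ _ hk
      rw [map_pow] at h1
      exact hneg k h1
  · rw [← hAgcard]
    have hsplit : Ag.card = (Ag.filter (fun a => χ a ∉ Bad)).card +
        (Ag.filter (fun a => ¬ χ a ∉ Bad)).card :=
      (Finset.card_filter_add_card_filter_not (s := Ag) (fun a => χ a ∉ Bad)).symm
    rw [hsplit]
    apply Nat.add_le_add_left
    apply Finset.card_le_card_of_injOn χ
    · intro a ha
      rw [Finset.mem_coe, Finset.mem_filter] at ha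
      exact Finset.mem_coe.mpr (not_not.mp ha.2)
    · intro a ha b hb hab
      rw [Finset.mem_coe, Finset.mem_filter, hAg, Finset.mem_filter] at ha hb
      exact eq_of_res_of_autToPow L N m ζ hζ a b (ha.1.2.trans hb.1.2.symm) hab

end grp

end Fermat.Agent.S48.Cheb.H78

end
-- ==== END Fermat.Agent.S48.Cheb.H78_CrossField

-- ==== BEGIN Fermat.Agent.S48.Defs
section

/-!
# S48 (Deligne–Serre, weight one): interfaces

Owner / planner: helper43.  Plan: `NOTES/plan/W_S48.md`.

Frozen statement: `N` with `[NeZero N]`, `ε` a Dirichlet character mod `N`, `f` a weight one cusp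
form on `Γ₁(N)` with `a₁ = 1` whose `q`-coefficients satisfy the Hecke relations for `ε` at all
primes `p ∤ N`; then there is `ρ : Γℚ → GL₂(ℂ)` with finite image, irreducible, unramified at all
`p ∤ N`, with `tr ρ(Frob_p) = a_p` and `det ρ(Frob_p) = ε(p)`.

Top level: `S48 = Stmt_Core + Stmt_Irr` (`Fermat/Agent/S48/Wiring.lean`).

Leaves (all stated with Mathlib / prelude objects only, so that they can be attacked in parallel):

* `Stmt_Int`        (A) integrality of the `a_p` (`p ∤ N`), finiteness of the field they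
                        generate, conjugate forms;
* `Stmt_ResRep`     (B) residual representations mod `ℓ` for all large `ℓ` (the mountain: needs
                        the geometry of `X₁(Nℓ)`);
* `Stmt_Rankin`     (C) `∑_{p ∤ N} |a_p|² p^{-s} ≤ log (1/(s-1)) + C` on `(1, 2]`;
* `Stmt_Cheb`       (D) Chebotarev, lower bound form, Dirichlet density;
* `Stmt_GroupBound` (E) Deligne–Serre Prop. 7.2 (bounded image);
* `Stmt_Lift`       (F) lifting a representation of a group of order prime to `ℓ` to `ℂ`;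
* `Stmt_DegOne`         infinitely many `ℓ` with a residue map under which the coefficient field
                        lands in the prime field.
-/

set_option autoImplicit false

open CongruenceSubgroup
open scoped MatrixGroups

namespace Fermat.Agent.S48

local notation "Γℚ" => (AlgebraicClosure ℚ ≃ₐ[ℚ] AlgebraicClosure ℚ)

/-- The hypotheses of S48 on `(N, ε, f)`. -/
structure IsDSForm (N : ℕ) [NeZero N] (ε : DirichletCharacter ℂ N)
    (f : CuspForm (Gamma1 N) 1) : Prop where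
  one : ModularFormClass.qCoeff f 1 = 1
  hecke : ∀ p : ℕ, p.Prime → ¬ p ∣ N → ∀ n : ℕ,
    ModularFormClass.qCoeff f (p * n) +
        ε (p : ZMod N) * (if p ∣ n then ModularFormClass.qCoeff f (n / p) else 0) =
      ModularFormClass.qCoeff f p * ModularFormClass.qCoeff f n

/-- `ρ` is unramified at `p` and every Frobenius at `p` has trace `a` and determinant `e`. -/
def HasFrobCharpolyAt {k : Type} [Field k] (ρ : Γℚ →* GL (Fin 2) k) (p : ℕ) (a e : k) : Prop :=
  ∀ A : ValuationSubring (AlgebraicClosure ℚ), A.LiesOverPrime p →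
    (∀ σ ∈ A.inertiaSubgroupIn ℚ, ρ σ = 1) ∧
    ∀ σ : Γℚ, A.IsFrobeniusAt σ p →
      ((ρ σ : GL (Fin 2) k) : Matrix (Fin 2) (Fin 2) k).trace = a ∧
      ((ρ σ : GL (Fin 2) k) : Matrix (Fin 2) (Fin 2) k).det = e

/-- `ρ` is attached to `(f, ε)`: finite image, unramified outside `N`, the right Frobenius
traces and determinants. -/
def IsAttached (N : ℕ) [NeZero N] (ε : DirichletCharacter ℂ N) (f : CuspForm (Gamma1 N) 1)
    (ρ : Γℚ →* GL (Fin 2) ℂ) : Prop :=
  GaloisFactorsThroughFiniteLevel ρ ∧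
    ∀ p : ℕ, p.Prime → ¬ p ∣ N →
      HasFrobCharpolyAt ρ p (ModularFormClass.qCoeff f p) (ε (p : ZMod N))

/-- **Core**: existence of the attached representation (Deligne–Serre Thm 4.1, without the
irreducibility). -/
def Stmt_Core : Prop :=
  ∀ (N : ℕ) [NeZero N] (ε : DirichletCharacter ℂ N) (f : CuspForm (Gamma1 N) 1),
    IsDSForm N ε f → ∃ ρ : Γℚ →* GL (Fin 2) ℂ, IsAttached N ε f ρ

/-- **Irr**: an attached representation is irreducible (`f` is a cusp form). -/
def Stmt_Irr : Prop :=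
  ∀ (N : ℕ) [NeZero N] (ε : DirichletCharacter ℂ N) (f : CuspForm (Gamma1 N) 1),
    IsDSForm N ε f → ∀ ρ : Γℚ →* GL (Fin 2) ℂ, IsAttached N ε f ρ →
      (Deformation.matrixRepresentation ρ).IsIrreducible

/-- **(A) Int**: the coefficients `a_p`, `p ∤ N` prime, are algebraic integers, they generate a
number field, and the coefficientwise conjugates of `f` are again cusp forms of weight one on
`Γ₁(N)`.

(v2, helper43: only the `a_p` with `p ∤ N` are controlled. `f` is not assumed to be an eigenform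
at the primes dividing `N`, so the other coefficients can be transcendental, e.g.
`f₀(z) + c f₀(dz)`; v1 asked integrality of all `a_n` and was false.) -/
def Stmt_Int : Prop :=
  ∀ (N : ℕ) [NeZero N] (ε : DirichletCharacter ℂ N) (f : CuspForm (Gamma1 N) 1),
    IsDSForm N ε f →
      (∀ p : ℕ, p.Prime → ¬ p ∣ N → IsIntegral ℤ (ModularFormClass.qCoeff f p)) ∧
      FiniteDimensional ℚ
        (IntermediateField.adjoin ℚ
          {x : ℂ | ∃ p : ℕ, p.Prime ∧ ¬ p ∣ N ∧ x = ModularFormClass.qCoeff f p}) ∧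
      ∀ σ : ℂ →+* ℂ, ∃ f' : CuspForm (Gamma1 N) 1,
        ∀ n : ℕ, ModularFormClass.qCoeff f' n = σ (ModularFormClass.qCoeff f n)

/-- **(B) ResRep**: for every large prime `ℓ` and every residue map `φ` of `ℤ̄` to an
algebraically closed field of characteristic `ℓ` there is a representation mod `ℓ` of finite
level, unramified outside `Nℓ`, with Frobenius traces `φ(a_p)` and determinants `φ(ε(p))`.
(No semisimplicity is asked: the assembly semisimplifies.) -/
def Stmt_ResRep : Prop :=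
  ∀ (N : ℕ) [NeZero N] (ε : DirichletCharacter ℂ N) (f : CuspForm (Gamma1 N) 1),
    IsDSForm N ε f →
      ∃ ℓ₀ : ℕ, ∀ ℓ : ℕ, ℓ.Prime → ℓ₀ ≤ ℓ →
        ∀ (k : Type) [Field k] [CharP k ℓ] [IsAlgClosed k] (φ : integralClosure ℤ ℂ →+* k),
          ∃ ρ : Γℚ →* GL (Fin 2) k, GaloisFactorsThroughFiniteLevel ρ ∧
            ∀ p : ℕ, p.Prime → ¬ p ∣ N * ℓ →
              ∀ a e : integralClosure ℤ ℂ, (a : ℂ) = ModularFormClass.qCoeff f p →
                (e : ℂ) = ε (p : ZMod N) → HasFrobCharpolyAt ρ p (φ a) (φ e)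

/-- **(C) Rankin**: `∑_{p ∤ N} |a_p|² p^{-s} ≤ log (1/(s-1)) + C` for `1 < s ≤ 2` (stated for
finite partial sums). -/
def Stmt_Rankin : Prop :=
  ∀ (N : ℕ) [NeZero N] (ε : DirichletCharacter ℂ N) (f : CuspForm (Gamma1 N) 1),
    IsDSForm N ε f →
      ∃ C : ℝ, ∀ s : ℝ, 1 < s → s ≤ 2 → ∀ T : Finset ℕ, (∀ p ∈ T, p.Prime ∧ ¬ p ∣ N) →
        ∑ p ∈ T, ‖ModularFormClass.qCoeff f p‖ ^ 2 * (p : ℝ) ^ (-s) ≤
          Real.log (1 / (s - 1)) + C

/-- The primes having a Frobenius element mapped to `g` by `r`. -/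
def frobPrimes {G : Type} [Group G] (r : Γℚ →* G) (g : G) : Set ℕ :=
  {p | p.Prime ∧ ∃ (A : ValuationSubring (AlgebraicClosure ℚ)) (σ : Γℚ),
    A.LiesOverPrime p ∧ A.IsFrobeniusAt σ p ∧ r σ = g}

/-- **(D) Chebotarev**, lower bound form for the Dirichlet density, with a loss `η > 0`: for `r`
of finite level onto a finite group `G`, `g ∈ G`, a finite set `S` of primes and `η > 0`,
`∑_{p ∉ S, Frob_p = g} p^{-s} ≥ (1 - η) (#(class of g) / #G) log (1/(s-1)) - C` on `(1, 2]`.

(v2, helper43: the factor `1 - η` is what Chebotarev's field crossing argument gives without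
class field theory; every use in the assembly and in `Stmt_Irr` has room for it.) -/
def Stmt_Cheb : Prop :=
  ∀ (G : Type) [Group G] [Finite G] (r : Γℚ →* G), GaloisFactorsThroughFiniteLevel r →
    Function.Surjective r → ∀ (S : Finset ℕ) (g : G) (η : ℝ), 0 < η →
      ∃ C : ℝ, ∀ s : ℝ, 1 < s → s ≤ 2 →
        ∃ T : Finset ℕ, (∀ p ∈ T, p ∈ frobPrimes r g ∧ p ∉ S) ∧
          (1 - η) * ((Nat.card {h : G // IsConj g h} : ℝ) / (Nat.card G : ℝ)) *
              Real.log (1 / (s - 1)) - C ≤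
            ∑ p ∈ T, (p : ℝ) ^ (-s)

/-- Every stable line has a stable complement (semisimplicity in dimension two). -/
def IsSemisimple2 {k : Type} [Field k] (G : Subgroup (GL (Fin 2) k)) : Prop :=
  ∀ v : Fin 2 → k, v ≠ 0 →
    (∀ g ∈ G, ∃ c : k, (g : Matrix (Fin 2) (Fin 2) k).mulVec v = c • v) →
    ∃ w : Fin 2 → k, LinearIndependent k ![v, w] ∧
      ∀ g ∈ G, ∃ c : k, (g : Matrix (Fin 2) (Fin 2) k).mulVec w = c • w

/-- **(E) GroupBound** (Deligne–Serre Prop. 7.2, with `η = 1/120`): a finite semisimple subgroup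
`G` of `GL₂(k)`, `char k = ℓ`, all of whose traces and determinants lie in the prime field, such
that the elements outside a subset of density `≤ 1/120` have at most `M` characteristic
polynomials, has order bounded in terms of `M` only. -/
def Stmt_GroupBound : Prop :=
  ∀ M : ℕ, ∃ B : ℕ, ∀ (ℓ : ℕ) (k : Type) [Field k] [CharP k ℓ]
    (G : Subgroup (GL (Fin 2) k)) (H : Set (GL (Fin 2) k)) (Y : Finset (k × k)),
    ℓ.Prime → Finite G → IsSemisimple2 G →
    (∀ g ∈ G, (g : Matrix (Fin 2) (Fin 2) k).trace ^ ℓ = (g : Matrix (Fin 2) (Fin 2) k).trace ∧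
      (g : Matrix (Fin 2) (Fin 2) k).det ^ ℓ = (g : Matrix (Fin 2) (Fin 2) k).det) →
    (∀ h ∈ H, ((h : Matrix (Fin 2) (Fin 2) k).trace, (h : Matrix (Fin 2) (Fin 2) k).det) ∈ Y) →
    Y.card ≤ M →
    120 * Nat.card {g : GL (Fin 2) k // g ∈ G ∧ g ∉ H} ≤ Nat.card G →
    Nat.card G ≤ B

/-- **(F) Lift**: a two-dimensional representation over an algebraically closed field of
characteristic `ℓ ≠ 2` of a finite group of order prime to `ℓ` lifts to `ℂ`: there is a complex
representation whose traces and determinants are algebraic integers reducing (under any given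
residue map `φ`) to those of the given one. -/
def Stmt_Lift : Prop :=
  ∀ (ℓ : ℕ) (k : Type) [Field k] [CharP k ℓ] [IsAlgClosed k] (φ : integralClosure ℤ ℂ →+* k)
    (G : Type) [Group G] [Finite G] (r : G →* GL (Fin 2) k),
    ℓ.Prime → ℓ ≠ 2 → ¬ ℓ ∣ Nat.card G →
    ∃ R : G →* GL (Fin 2) ℂ, ∀ g : G, ∃ t d : integralClosure ℤ ℂ,
      (t : ℂ) = ((R g : GL (Fin 2) ℂ) : Matrix (Fin 2) (Fin 2) ℂ).trace ∧
      (d : ℂ) = ((R g : GL (Fin 2) ℂ) : Matrix (Fin 2) (Fin 2) ℂ).det ∧
      φ t = ((r g : GL (Fin 2) k) : Matrix (Fin 2) (Fin 2) k).trace ∧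
      φ d = ((r g : GL (Fin 2) k) : Matrix (Fin 2) (Fin 2) k).det

/-- **DegOne**: for a number field `K ⊆ ℂ` there are arbitrarily large primes `ℓ` such that every
algebraically closed field `k` of characteristic `ℓ` receives a residue map of `ℤ̄` sending the
integers of `K` into the prime field. -/
def Stmt_DegOne : Prop :=
  ∀ K : IntermediateField ℚ ℂ, FiniteDimensional ℚ K → ∀ B : ℕ, ∃ ℓ : ℕ, ℓ.Prime ∧ B ≤ ℓ ∧
    ∀ (k : Type) [Field k] [CharP k ℓ] [IsAlgClosed k],
      ∃ φ : integralClosure ℤ ℂ →+* k,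
        ∀ x : integralClosure ℤ ℂ, (x : ℂ) ∈ K → φ x ^ ℓ = φ x

end Fermat.Agent.S48

end
-- ==== END Fermat.Agent.S48.Defs

-- ==== BEGIN Fermat.Agent.S48.H55_GroupBoundLin
section

/-!
# S48, leaf E (helper55): linear algebra of `2 × 2` matrices

Elementary facts used in the proof of `Stmt_GroupBound`:
* a matrix killing two independent vectors is zero;
* a nonzero matrix has a kernel of dimension at most one;
* matrices with a common eigenbasis commute; trace in an eigenbasis;
* Cayley–Hamilton;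
* the trace form `x ↦ (tr (x b_i))_i` is injective for a basis `b`.
-/

set_option autoImplicit false
set_option linter.style.haveILetI false

namespace Fermat.Agent.S48.H55

open Matrix

variable {k : Type} [Field k]

/-- A `2 × 2` matrix killing two independent vectors is zero. -/
theorem mat_eq_zero_of_pair (u : Matrix (Fin 2) (Fin 2) k) (v w : Fin 2 → k)
    (hvw : LinearIndependent k ![v, w]) (hv : u.mulVec v = 0) (hw : u.mulVec w = 0) : u = 0 := by
  have hspan : Submodule.span k (Set.range ![v, w]) = ⊤ :=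
    hvw.span_eq_top_of_card_eq_finrank' (by simp)
  have h1 : Matrix.toLin' u = 0 := by
    apply LinearMap.ext_on_range hspan
    intro i
    fin_cases i
    · simpa [Matrix.toLin'_apply] using hv
    · simpa [Matrix.toLin'_apply] using hw
  exact (LinearEquiv.map_eq_zero_iff Matrix.toLin').mp h1

/-- The kernel of a nonzero `2 × 2` matrix has dimension at most one. -/
theorem exists_smul_of_ker (u : Matrix (Fin 2) (Fin 2) k) (hu : u ≠ 0) (v v' : Fin 2 → k)
    (hv0 : v ≠ 0) (hv : u.mulVec v = 0) (hv' : u.mulVec v' = 0) : ∃ c : k, v' = c • v := by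
  by_contra hcon
  rw [not_exists] at hcon
  apply hu
  refine mat_eq_zero_of_pair u v v' ?_ hv hv'
  rw [LinearIndependent.pair_iff]
  intro s t hst
  have ht : t = 0 := by
    by_contra ht
    apply hcon (-(s / t))
    have h1 : t • v' = -(s • v) := by
      rw [eq_neg_iff_add_eq_zero, add_comm]
      exact hst
    have h2 : v' = t⁻¹ • (t • v') := by rw [smul_smul, inv_mul_cancel₀ ht, one_smul]
    rw [h2, h1, smul_neg, smul_smul, neg_smul, div_eq_inv_mul, mul_comm]
  refine ⟨?_, ht⟩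
  rw [ht, zero_smul, add_zero] at hst
  exact (smul_eq_zero.mp hst).resolve_right hv0

/-- Matrices with a common eigenbasis commute. -/
theorem comm_of_common_eigenbasis (x y : Matrix (Fin 2) (Fin 2) k) (v w : Fin 2 → k)
    (hvw : LinearIndependent k ![v, w]) (a b a' b' : k)
    (hxv : x.mulVec v = a • v) (hxw : x.mulVec w = b • w)
    (hyv : y.mulVec v = a' • v) (hyw : y.mulVec w = b' • w) : x * y = y * x := by
  rw [← sub_eq_zero]
  apply mat_eq_zero_of_pair _ v w hvw
  · rw [Matrix.sub_mulVec, ← Matrix.mulVec_mulVec, ← Matrix.mulVec_mulVec, hyv, hxv,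
      Matrix.mulVec_smul, Matrix.mulVec_smul, hxv, hyv, smul_smul, smul_smul, mul_comm, sub_self]
  · rw [Matrix.sub_mulVec, ← Matrix.mulVec_mulVec, ← Matrix.mulVec_mulVec, hyw, hxw,
      Matrix.mulVec_smul, Matrix.mulVec_smul, hxw, hyw, smul_smul, smul_smul, mul_comm, sub_self]

/-- An eigenvalue is a root of the characteristic polynomial. -/
theorem eigen_root (x : Matrix (Fin 2) (Fin 2) k) (v : Fin 2 → k) (hv : v ≠ 0) (a : k)
    (h : x.mulVec v = a • v) : a * a - x.trace * a + x.det = 0 := by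
  have h1 : (x - Matrix.scalar (Fin 2) a).det = 0 := by
    rw [← Matrix.exists_mulVec_eq_zero_iff]
    refine ⟨v, hv, ?_⟩
    rw [Matrix.sub_mulVec, h]
    ext i
    fin_cases i <;> simp [Matrix.scalar, Matrix.diagonal]
  rw [Matrix.det_fin_two] at h1
  simp only [Matrix.sub_apply, Matrix.scalar_apply, Matrix.diagonal_apply_eq,
    Matrix.diagonal_apply_ne, ne_eq, Fin.zero_eq_one_iff, Fin.one_eq_zero_iff,
    OfNat.ofNat_ne_one, not_false_eq_true, sub_zero] at h1
  rw [Matrix.trace_fin_two, Matrix.det_fin_two]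
  linear_combination h1

/-- The trace in an eigenbasis. -/
theorem trace_of_eigenbasis (x : Matrix (Fin 2) (Fin 2) k) (v w : Fin 2 → k)
    (hvw : LinearIndependent k ![v, w]) (a b : k)
    (hxv : x.mulVec v = a • v) (hxw : x.mulVec w = b • w) : x.trace = a + b := by
  have hv0 : v ≠ 0 := hvw.ne_zero 0
  have hw0 : w ≠ 0 := hvw.ne_zero 1
  by_cases hab : a = b
  · subst hab
    have h1 : x - Matrix.scalar (Fin 2) a = 0 := by
      apply mat_eq_zero_of_pair _ v w hvw
      · rw [Matrix.sub_mulVec, hxv]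
        ext i
        fin_cases i <;> simp [Matrix.scalar, Matrix.diagonal]
      · rw [Matrix.sub_mulVec, hxw]
        ext i
        fin_cases i <;> simp [Matrix.scalar, Matrix.diagonal]
    have h2 : x = Matrix.scalar (Fin 2) a := sub_eq_zero.mp h1
    rw [h2, Matrix.trace_fin_two]
    simp [Matrix.scalar]
  · have h1 := eigen_root x v hv0 a hxv
    have h2 := eigen_root x w hw0 b hxw
    have h3 : (a - b) * (a + b - x.trace) = 0 := by linear_combination h1 - h2
    rcases mul_eq_zero.mp h3 with h4 | h4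
    · exact absurd (sub_eq_zero.mp h4) hab
    · exact (sub_eq_zero.mp h4).symm

/-- Cayley–Hamilton for `2 × 2` matrices. -/
theorem cayley_hamilton_two (x : Matrix (Fin 2) (Fin 2) k) :
    x * x = x.trace • x - x.det • (1 : Matrix (Fin 2) (Fin 2) k) := by
  ext i j
  fin_cases i <;> fin_cases j <;>
    simp [Matrix.mul_apply, Fin.sum_univ_two, Matrix.trace_fin_two, Matrix.det_fin_two] <;> ring

/-- A nonzero matrix has a nonzero column. -/
theorem exists_mulVec_single_ne_zero (u : Matrix (Fin 2) (Fin 2) k) (hu : u ≠ 0) :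
    ∃ j : Fin 2, u.mulVec (Pi.single j 1) ≠ 0 := by
  by_contra hcon
  simp only [not_exists, not_not] at hcon
  apply hu
  ext i j
  have h1 := congrFun (hcon j) i
  simpa using h1

/-- The trace form is nondegenerate: a matrix `x` with `tr (x * b i) = 0` for the members of a
family spanning all matrices is zero. -/
theorem eq_zero_of_trace_mul_eq_zero (b : Fin 4 → Matrix (Fin 2) (Fin 2) k)
    (hb : LinearIndependent k b) (x : Matrix (Fin 2) (Fin 2) k)
    (hx : ∀ i, (x * b i).trace = 0) : x = 0 := by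
  have hspan : Submodule.span k (Set.range b) = ⊤ :=
    hb.span_eq_top_of_card_eq_finrank' (by
      rw [Module.finrank_matrix]
      simp)
  let L : Matrix (Fin 2) (Fin 2) k →ₗ[k] k :=
    (Matrix.traceLinearMap (Fin 2) k k).comp (LinearMap.mulLeft k x)
  have hL : L = 0 := by
    apply LinearMap.ext_on_range hspan
    intro i
    simpa [L] using hx i
  have hall : ∀ m : Matrix (Fin 2) (Fin 2) k, (x * m).trace = 0 := by
    intro m
    have := LinearMap.congr_fun hL m
    simpa [L] using this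
  ext i j
  have h1 := hall (Matrix.single j i 1)
  rw [Matrix.trace_fin_two] at h1
  fin_cases i <;> fin_cases j <;>
    simpa [Matrix.mul_apply, Fin.sum_univ_two, Matrix.single_apply] using h1

end Fermat.Agent.S48.H55

end
-- ==== END Fermat.Agent.S48.H55_GroupBoundLin

-- ==== BEGIN Fermat.Agent.S48.H55_IrrSum
section

/-!
# S48, leaf Irr (helper55): the analytic contradiction

* `sum_sq_norm_one_add` : for a finite subgroup `H` of `ℂˣ`, `∑_{z ∈ H} ‖1 + z‖² ≥ 2 #H`;
* `rankin_cheb_absurd` : an upper bound `∑ ‖a_p‖² p^{-s} ≤ log (1/(s-1)) + C` is incompatible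
  with lower bounds `∑_{p ∈ P z} p^{-s} ≥ (3/4) (1/#H) log (1/(s-1)) - C_z` on pairwise disjoint
  sets `P z` on which `‖a_p‖² = ‖1 + z‖²`.
-/

set_option autoImplicit false

namespace Fermat.Agent.S48.H55

open Finset

/-- The elements of a finite subgroup of `ℂˣ` have norm one. -/
theorem norm_coe_eq_one_of_finite (H : Subgroup ℂˣ) [Fintype H] (z : H) :
    ‖((z : ℂˣ) : ℂ)‖ = 1 := by
  have h1 : z ^ Fintype.card H = 1 := pow_card_eq_one
  have h2 : (((z : ℂˣ) : ℂ)) ^ Fintype.card H = 1 := by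
    have h3 : ((((z ^ Fintype.card H : H) : ℂˣ) : ℂ)) = 1 := by rw [h1]; rfl
    rw [← h3]
    push_cast
    rfl
  exact Complex.norm_eq_one_of_pow_eq_one h2 Fintype.card_ne_zero

theorem sq_norm_one_add (z : ℂ) (hz : ‖z‖ = 1) : ‖1 + z‖ ^ 2 = 2 + 2 * z.re := by
  rw [Complex.sq_norm, Complex.normSq_add, Complex.normSq_one, ← Complex.sq_norm, hz, one_mul,
    Complex.conj_re]
  ring

/-- `∑_{z ∈ H} ‖1 + z‖² ≥ 2 #H` for a finite subgroup `H` of `ℂˣ`. -/
theorem sum_sq_norm_one_add (H : Subgroup ℂˣ) [Fintype H] :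
    2 * (Fintype.card H : ℝ) ≤ ∑ z : H, ‖1 + ((z : ℂˣ) : ℂ)‖ ^ 2 := by
  classical
  let f : H →* ℂ := (Units.coeHom ℂ).comp H.subtype
  have hf : ∀ z : H, f z = ((z : ℂˣ) : ℂ) := fun z => rfl
  have hsum : 0 ≤ (∑ z : H, ((z : ℂˣ) : ℂ)).re := by
    have h1 := sum_hom_units f
    simp only [hf] at h1
    rw [h1]
    split_ifs
    · simp
    · simp
  have h2 : ∑ z : H, ‖1 + ((z : ℂˣ) : ℂ)‖ ^ 2 = ∑ z : H, (2 + 2 * (((z : ℂˣ) : ℂ)).re) :=
    Finset.sum_congr rfl fun z _ => sq_norm_one_add _ (norm_coe_eq_one_of_finite H z)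
  rw [h2, Finset.sum_add_distrib, ← Finset.mul_sum, ← Complex.re_sum, Finset.sum_const,
    Finset.card_univ, nsmul_eq_mul]
  nlinarith

/-- The analytic contradiction. -/
theorem rankin_cheb_absurd {H : Type} [Fintype H] [Nonempty H] (w : H → ℝ)
    (hw : 2 * (Fintype.card H : ℝ) ≤ ∑ z : H, w z) (hw0 : ∀ z, 0 ≤ w z)
    (b : ℕ → ℝ) (P : H → Set ℕ)
    (hP : ∀ z, ∀ p ∈ P z, b p = w z)
    (hdisj : ∀ z z' : H, ∀ p, p ∈ P z → p ∈ P z' → z = z')
    (hCheb : ∀ z, ∃ C : ℝ, ∀ s : ℝ, 1 < s → s ≤ 2 → ∃ T : Finset ℕ, (∀ p ∈ T, p ∈ P z) ∧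
      (1 - 1 / 4) * ((1 : ℝ) / (Fintype.card H : ℝ)) * Real.log (1 / (s - 1)) - C ≤
        ∑ p ∈ T, (p : ℝ) ^ (-s))
    (hRankin : ∃ C : ℝ, ∀ s : ℝ, 1 < s → s ≤ 2 → ∀ T : Finset ℕ, (∀ p ∈ T, ∃ z, p ∈ P z) →
      ∑ p ∈ T, b p * (p : ℝ) ^ (-s) ≤ Real.log (1 / (s - 1)) + C) : False := by
  classical
  choose C hC using hCheb
  obtain ⟨CR, hR⟩ := hRankin
  set C' : ℝ := ∑ z : H, w z * C z with hC'
  set B : ℝ := 2 * (C' + CR) with hB
  set M : ℝ := max B 0 + 1 with hM
  have hM0 : 0 < M := by positivity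
  have hMB : B < M := lt_of_le_of_lt (le_max_left B 0) (lt_add_one _)
  set s : ℝ := 1 + Real.exp (-M) with hs
  have hs1 : 1 < s := by
    have := Real.exp_pos (-M)
    linarith
  have hs2 : s ≤ 2 := by
    have : Real.exp (-M) ≤ 1 := Real.exp_le_one_iff.mpr (by linarith)
    linarith
  have hL : Real.log (1 / (s - 1)) = M := by
    rw [hs, add_sub_cancel_left, one_div, ← Real.exp_neg, neg_neg, Real.log_exp]
  choose T hT using fun z => hC z s hs1 hs2
  have hm : (0 : ℝ) < (Fintype.card H : ℝ) := by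
    exact_mod_cast Fintype.card_pos
  have hdis : ((Finset.univ : Finset H) : Set H).PairwiseDisjoint T := by
    intro z _ z' _ hzz'
    rw [Function.onFun, Finset.disjoint_left]
    intro p hp hp'
    exact hzz' (hdisj z z' p ((hT z).1 p hp) ((hT z').1 p hp'))
  have hup := hR s hs1 hs2 (Finset.univ.biUnion T) (by
    intro p hp
    rw [Finset.mem_biUnion] at hp
    obtain ⟨z, _, hz⟩ := hp
    exact ⟨z, (hT z).1 p hz⟩)
  rw [Finset.sum_biUnion hdis, hL] at hup
  have hlow : ∀ z : H, w z * ((1 - 1 / 4) * ((1 : ℝ) / (Fintype.card H : ℝ)) * M - C z) ≤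
      ∑ p ∈ T z, b p * (p : ℝ) ^ (-s) := by
    intro z
    have h1 : ∑ p ∈ T z, b p * (p : ℝ) ^ (-s) = w z * ∑ p ∈ T z, (p : ℝ) ^ (-s) := by
      rw [Finset.mul_sum]
      exact Finset.sum_congr rfl fun p hp => by rw [hP z p ((hT z).1 p hp)]
    rw [h1]
    have h2 := (hT z).2
    rw [hL] at h2
    exact mul_le_mul_of_nonneg_left h2 (hw0 z)
  have hlow' := Finset.sum_le_sum fun z (_ : z ∈ (Finset.univ : Finset H)) => hlow z
  have h3 : ∑ z : H, w z * ((1 - 1 / 4) * ((1 : ℝ) / (Fintype.card H : ℝ)) * M - C z)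
      = (1 - 1 / 4) * ((1 : ℝ) / (Fintype.card H : ℝ)) * M * (∑ z : H, w z) - C' := by
    rw [hC', Finset.mul_sum, ← Finset.sum_sub_distrib]
    exact Finset.sum_congr rfl fun z _ => by ring
  rw [h3] at hlow'
  have h4 : (1 - 1 / 4) * ((1 : ℝ) / (Fintype.card H : ℝ)) * M * (2 * (Fintype.card H : ℝ))
      ≤ (1 - 1 / 4) * ((1 : ℝ) / (Fintype.card H : ℝ)) * M * (∑ z : H, w z) := by
    apply mul_le_mul_of_nonneg_left hw
    positivity
  have h5 : (1 - 1 / 4) * ((1 : ℝ) / (Fintype.card H : ℝ)) * M * (2 * (Fintype.card H : ℝ))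
      = 3 / 2 * M := by
    field_simp
    ring
  rw [h5] at h4
  linarith

end Fermat.Agent.S48.H55

end
-- ==== END Fermat.Agent.S48.H55_IrrSum

-- ==== BEGIN Fermat.Agent.S48.H55_RankinDir
section

/-!
# S48 leaf C (Rankin), part 3: from mean square to Dirichlet series

If `b ≥ 0` and `∑_{n ≤ M} b n ≤ C (M + 1)` for all `M`, then for `1 < s ≤ 2` and every finite set
`S` of positive integers, `∑_{n ∈ S} b n * n^(-s) ≤ 4 C / (s - 1)`.
-/

set_option autoImplicit false

namespace Fermat.Agent.S48.H55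

open Finset

/-- Abel summation in inequality form. -/
lemma abel_le (B W : ℕ → ℝ) (C : ℝ) (hW0 : ∀ n, 0 ≤ W n)
    (hW : ∀ n, W (n + 1) ≤ W n) (hS : ∀ M, ∑ n ∈ range M, B n ≤ C * M) (M : ℕ) :
    ∑ n ∈ range M, B n * W n ≤ C * ∑ n ∈ range M, W n := by
  have key : ∀ M, ∑ n ∈ range M, B n * W n + (C * M - ∑ n ∈ range M, B n) * W M
      ≤ C * ∑ n ∈ range M, W n := by
    intro M
    induction M with
    | zero => simp
    | succ M ih =>
        rw [Finset.sum_range_succ, Finset.sum_range_succ, Finset.sum_range_succ]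
        have hD' : 0 ≤ C * ((M + 1 : ℕ) : ℝ) - (∑ n ∈ range M, B n + B M) := by
          have := hS (M + 1)
          rw [Finset.sum_range_succ] at this
          linarith
        have h1 := mul_le_mul_of_nonneg_left (hW M) hD'
        push_cast at h1 hD' ⊢
        nlinarith
  have h1 := key M
  have h2 : 0 ≤ (C * M - ∑ n ∈ range M, B n) * W M :=
    mul_nonneg (by linarith [hS M]) (hW0 M)
  linarith

lemma sum_rpow_le {s : ℝ} (hs : 1 < s) (M : ℕ) :
    ∑ n ∈ range M, ((n + 1 : ℕ) : ℝ) ^ (-s) ≤ s / (s - 1) := by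
  rcases M with _ | M
  · simp only [range_zero, sum_empty]
    exact div_nonneg (by linarith) (by linarith)
  rw [Finset.sum_range_succ']
  have hanti : AntitoneOn (fun x : ℝ => x ^ (-s)) (Set.Icc (1:ℝ) (1 + (M : ℕ))) := by
    intro x hx y hy hxy
    have hx0 : 0 < x := by linarith [hx.1]
    exact Real.rpow_le_rpow_of_nonpos hx0 hxy (by linarith)
  have h1 := AntitoneOn.sum_le_integral (f := fun x : ℝ => x ^ (-s)) (x₀ := 1) (a := M) hanti
  have h2 : ∫ x in (1:ℝ)..1 + (M:ℕ), x ^ (-s)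
      = ((1 + (M:ℝ)) ^ (-s + 1) - 1 ^ (-s + 1)) / (-s + 1) := by
    rw [integral_rpow]
    right
    refine ⟨by linarith, ?_⟩
    rw [Set.uIcc_of_le (by linarith [(Nat.cast_nonneg M : (0:ℝ) ≤ M)] : (1:ℝ) ≤ 1 + (M:ℝ))]
    intro h0
    have := h0.1
    linarith
  have h3 : ((1 + (M:ℝ)) ^ (-s + 1) - 1 ^ (-s + 1)) / (-s + 1) ≤ 1 / (s - 1) := by
    have hpos : 0 ≤ (1 + (M:ℝ)) ^ (-s + 1) := Real.rpow_nonneg (by positivity) _
    rw [Real.one_rpow]
    have : ((1 + (M:ℝ)) ^ (-s + 1) - 1) / (-s + 1) = (1 - (1 + (M:ℝ)) ^ (-s + 1)) / (s - 1) := by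
      have e1 : (-s + 1) = -(s - 1) := by ring
      rw [e1, div_neg, ← neg_div, neg_sub]
    rw [this]
    exact div_le_div_of_nonneg_right (by linarith) (by linarith)
  have h4 : ∑ i ∈ range M, ((i + 1 + 1 : ℕ) : ℝ) ^ (-s) ≤ 1 / (s - 1) := by
    refine le_trans (le_of_eq ?_) (le_trans h1 (h2 ▸ h3))
    refine Finset.sum_congr rfl fun i _ => ?_
    push_cast
    ring_nf
  have h5 : (((0 : ℕ) + 1 : ℕ) : ℝ) ^ (-s) = 1 := by simp
  rw [h5]
  have : s / (s - 1) = 1 / (s - 1) + 1 := by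
    field_simp [(by linarith : s - 1 ≠ 0)]
    ring
  rw [this]
  linarith

/-- **Dirichlet series bound** from a linear bound on the partial sums. -/
theorem dirichlet_bound (b : ℕ → ℝ) (hb : ∀ n, 0 ≤ b n) (C : ℝ) (hC : 0 ≤ C)
    (hmean : ∀ M : ℕ, ∑ n ∈ range (M + 1), b n ≤ C * (M + 1))
    {s : ℝ} (hs : 1 < s) (hs2 : s ≤ 2) (S : Finset ℕ) (hS : ∀ n ∈ S, 0 < n) :
    ∑ n ∈ S, b n * (n : ℝ) ^ (-s) ≤ 4 * C / (s - 1) := by
  classical
  -- shifted sequences
  set B : ℕ → ℝ := fun n => b (n + 1) with hB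
  set W : ℕ → ℝ := fun n => ((n + 1 : ℕ) : ℝ) ^ (-s) with hW
  have hW0 : ∀ n, 0 ≤ W n := fun n => Real.rpow_nonneg (by positivity) _
  have hWanti : ∀ n, W (n + 1) ≤ W n := by
    intro n
    simp only [hW]
    refine Real.rpow_le_rpow_of_nonpos (by positivity) ?_ (by linarith)
    push_cast; linarith
  have hSB : ∀ M, ∑ n ∈ range M, B n ≤ (2 * C) * M := by
    intro M
    rcases M with _ | M
    · simp
    have h1 := hmean (M + 1)
    rw [Finset.sum_range_succ'] at h1
    have h2 : ∑ n ∈ range (M + 1), B n ≤ C * ((M + 1 : ℕ) + 1) := by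
      have := hb 0
      simp only [hB]
      push_cast at h1 ⊢
      linarith
    have h3 : C * (((M + 1 : ℕ) : ℝ) + 1) ≤ 2 * C * ((M + 1 : ℕ) : ℝ) := by
      push_cast
      nlinarith [(Nat.cast_nonneg M : (0:ℝ) ≤ M)]
    exact le_trans h2 h3
  -- bound S by a range
  obtain ⟨M, hM⟩ : ∃ M, ∀ n ∈ S, n < M + 1 := by
    refine ⟨S.sup id, fun n hn => ?_⟩
    exact Nat.lt_succ_of_le (Finset.le_sup (f := id) hn)
  have hsub : S ⊆ (range M).image (fun n => n + 1) := by
    intro n hn
    rw [Finset.mem_image]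
    refine ⟨n - 1, ?_, ?_⟩
    · have := hM n hn; have := hS n hn; rw [mem_range]; omega
    · have := hS n hn; omega
  have h1 : ∑ n ∈ S, b n * (n : ℝ) ^ (-s)
      ≤ ∑ n ∈ (range M).image (fun n => n + 1), b n * (n : ℝ) ^ (-s) :=
    Finset.sum_le_sum_of_subset_of_nonneg hsub
      (fun n _ _ => mul_nonneg (hb n) (Real.rpow_nonneg (Nat.cast_nonneg n) _))
  have h2 : ∑ n ∈ (range M).image (fun n => n + 1), b n * (n : ℝ) ^ (-s)
      = ∑ n ∈ range M, B n * W n := by
    rw [Finset.sum_image (fun x _ y _ hxy => by simpa using hxy)]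
  have h3 := abel_le B W (2 * C) hW0 hWanti hSB M
  have h4 := sum_rpow_le hs M
  have h5 : s / (s - 1) ≤ 2 / (s - 1) :=
    div_le_div_of_nonneg_right hs2 (by linarith)
  calc ∑ n ∈ S, b n * (n : ℝ) ^ (-s) ≤ ∑ n ∈ range M, B n * W n := h2 ▸ h1
    _ ≤ 2 * C * ∑ n ∈ range M, W n := h3
    _ ≤ 2 * C * (2 / (s - 1)) :=
        mul_le_mul_of_nonneg_left (le_trans h4 h5) (by linarith)
    _ = 4 * C / (s - 1) := by ring

end Fermat.Agent.S48.H55

end
-- ==== END Fermat.Agent.S48.H55_RankinDir
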