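-- GENERATED (merged mirror, NOTES/tools/trim/merge3_helper67.py): 7 modules of the originals, bodies verbatim.
import Mathlib
import Fermat.Agent.Zm.S48_L01_000
import Fermat.Agent.Zm.S48_L01_001
import Fermat.Agent.Zm.S35_L01_001
import Fermat.Agent.Zm.S35_L11_001
import Fermat.Agent.Zm.S35_L03_002
import Fermat.Agent.NEB.H34_TwSum
import Fermat.Agent.Zm.S35_L06_002
import Fermat.Agent.Zm.S35_L08_000
import Fermat.Agent.Zm.S35_L02_000
import Fermat.Agent.Lib.ZetaPrimesDefs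
import Fermat.Agent.Zm.S48_L01_002
import Fermat.Agent.Zm.S48_L01_004

-- ==== BEGIN Fermat.Agent.NEB.EIG.H39_Transport
section

/-!
# NEB / EIG (helper39): transport of the Hecke action through injective intertwiners (leaf TRANSPORT)

`V` an `L`-vector space (`L` a field of characteristic zero), `W i` submodules spanning `V`,
`Θ i : V → Hom(Γ₀(N), L)` linear maps which on `W i` are injective with parabolic values, `t ℓ` operators
on `V` preserving every `W i` with `Θ i (t ℓ v) = TB_ℓ (Θ i v)` on `W i`.  Then there is a ring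
homomorphism `η : heckeAlgebra N 2 S → End_L V` with `η (T_ℓ) = t ℓ` (`S ⊇` primes dividing `N`).

Proof: in a universal basis `b` of `Hom_par(Γ₀(N), ℤ)` the Hecke algebra acts through integer
matrices (`Betti.H76.stmt_matrixRep`); `Rel x e` says that `e` corresponds to `x` under all `Θ i`.
-/

set_option autoImplicit false

open scoped MatrixGroups
open CongruenceSubgroup Matrix

namespace Fermat.Agent.NEB.EIG.H39

open Fermat.Agent.Betti ModularCurve ModularCurve.Period Fermat.Agent.NEB.EIG.H98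

section Transport

variable {N : ℕ} [NeZero N] {S : Set ℕ} {L : Type} [Field L]
  {V : Type*} [AddCommGroup V] [Module L V] {I : Type*}
  {r : ℕ} (b : Fin r → (Additive (Gamma0 N) →+ ℤ))
  (ML : CuspForm.heckeAlgebra N 2 S →+* Matrix (Fin r) (Fin r) L)
  (W : I → Submodule L V) (Θ : I → V →ₗ[L] (Additive (Gamma0 N) →+ L))

/-- `e ∈ End V` corresponds to `x` in the Hecke algebra under the intertwiners `Θ i`. -/
def Rel (x : CuspForm.heckeAlgebra N 2 S) (e : Module.End L V) : Prop :=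
  ∀ i, ∀ v ∈ W i, e v ∈ W i ∧
    ∀ a : Fin r → L, Θ i v = coordHom b a → Θ i (e v) = coordHom b ((ML x).mulVec a)

variable {b ML W Θ}

theorem Rel.one : Rel b ML W Θ 1 1 := by
  intro i v hv
  refine ⟨hv, fun a ha => ?_⟩
  rw [map_one, Matrix.one_mulVec]
  exact ha

theorem Rel.zero : Rel b ML W Θ 0 0 := by
  intro i v _
  refine ⟨(W i).zero_mem, fun a _ => ?_⟩
  rw [map_zero, Matrix.zero_mulVec, LinearMap.zero_apply, map_zero]
  refine AddMonoidHom.ext fun γ => ?_
  rw [coordHom_apply]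
  simp

omit [NeZero N] in
theorem coordHom_add (a₁ a₂ : Fin r → L) :
    coordHom b (a₁ + a₂) = coordHom b a₁ + coordHom b a₂ := by
  refine AddMonoidHom.ext fun γ => ?_
  rw [AddMonoidHom.add_apply, coordHom_apply, coordHom_apply, coordHom_apply,
    ← Finset.sum_add_distrib]
  refine Finset.sum_congr rfl fun i _ => ?_
  simp only [Pi.add_apply, smul_add]

theorem Rel.add {x y : CuspForm.heckeAlgebra N 2 S} {e f : Module.End L V}
    (hx : Rel b ML W Θ x e) (hy : Rel b ML W Θ y f) : Rel b ML W Θ (x + y) (e + f) := by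
  intro i v hv
  obtain ⟨h1, h2⟩ := hx i v hv
  obtain ⟨h3, h4⟩ := hy i v hv
  refine ⟨(W i).add_mem h1 h3, fun a ha => ?_⟩
  rw [LinearMap.add_apply, map_add, h2 a ha, h4 a ha, map_add, Matrix.add_mulVec, coordHom_add]

theorem Rel.mul {x y : CuspForm.heckeAlgebra N 2 S} {e f : Module.End L V}
    (hx : Rel b ML W Θ x e) (hy : Rel b ML W Θ y f) : Rel b ML W Θ (x * y) (e * f) := by
  intro i v hv
  obtain ⟨h3, h4⟩ := hy i v hv
  obtain ⟨h1, h2⟩ := hx i (f v) h3
  refine ⟨h1, fun a ha => ?_⟩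
  rw [Module.End.mul_apply, h2 _ (h4 a ha), map_mul, Matrix.mulVec_mulVec]

theorem Rel.intCast (n : ℤ) : Rel b ML W Θ (n : CuspForm.heckeAlgebra N 2 S)
    ((n : L) • (1 : Module.End L V)) := by
  intro i v hv
  refine ⟨(W i).smul_mem _ hv, fun a ha => ?_⟩
  rw [LinearMap.smul_apply, Module.End.one_apply, map_smul, ha, map_intCast, ← coordHom_smul]
  congr 1
  funext j
  simp [Matrix.mulVec, dotProduct, Matrix.intCast_apply]

variable [CharZero L]

theorem Rel.unique (hb : IsParBasis N b) (hW : ⨆ i, W i = ⊤)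
    (hpar : ∀ i, ∀ v ∈ W i, IsParabolicHom (Gamma0 N) (Θ i v))
    (hinj : ∀ i, ∀ v ∈ W i, Θ i v = 0 → v = 0)
    {x : CuspForm.heckeAlgebra N 2 S} {e f : Module.End L V}
    (he : Rel b ML W Θ x e) (hf : Rel b ML W Θ x f) : e = f := by
  have h1 : ∀ i, ∀ v ∈ W i, e v = f v := by
    intro i v hv
    obtain ⟨a, ha, -⟩ := hb.2 L (Θ i v) (hpar i v hv)
    have ha' : Θ i v = coordHom b a := AddMonoidHom.ext fun γ => by rw [ha γ, coordHom_apply]
    obtain ⟨h1, h2⟩ := he i v hv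
    obtain ⟨h3, h4⟩ := hf i v hv
    have : Θ i (e v - f v) = 0 := by rw [map_sub, h2 a ha', h4 a ha', sub_self]
    exact sub_eq_zero.mp (hinj i _ ((W i).sub_mem h1 h3) this)
  apply LinearMap.ext
  intro v
  have hv : v ∈ ⨆ i, W i := hW ▸ Submodule.mem_top
  refine Submodule.iSup_induction W (motive := fun v => e v = f v) hv h1 ?_ ?_
  · rw [map_zero, map_zero]
  · intro x y hx hy
    rw [map_add, map_add, hx, hy]

/-- **TRANSPORT**: the Hecke algebra acts on `V` through the operators `t ℓ`. -/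
theorem transport (hS : ∀ q : ℕ, q.Prime → q ∣ N → q ∈ S)
    (W : I → Submodule L V) (hW : ⨆ i, W i = ⊤)
    (Θ : I → V →ₗ[L] (Additive (Gamma0 N) →+ L))
    (hpar : ∀ i, ∀ v ∈ W i, IsParabolicHom (Gamma0 N) (Θ i v))
    (hinj : ∀ i, ∀ v ∈ W i, Θ i v = 0 → v = 0)
    (t : ℕ → Module.End L V)
    (htW : ∀ (i : I) (ℓ : ℕ), ℓ.Prime → ¬ ℓ ∣ N → ℓ ∉ S → ∀ v ∈ W i, t ℓ v ∈ W i)
    (htΘ : ∀ (i : I) (ℓ : ℕ) (hℓ : ℓ.Prime) (hℓN : ¬ ℓ ∣ N), ℓ ∉ S → ∀ v ∈ W i,
      Θ i (t ℓ v) = TB N L hℓ hℓN (Θ i v)) :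
    ∃ η : CuspForm.heckeAlgebra N 2 S →+* Module.End L V,
      ∀ (ℓ : ℕ) (hℓ : ℓ.Prime) (hℓN : ¬ ℓ ∣ N) (hℓS : ℓ ∉ S),
        η (CuspForm.heckeAlgebra.T hℓ hℓN hℓS) = t ℓ := by
  classical
  obtain ⟨r, b, hb⟩ := Fermat.Agent.Betti.stmt_basis N
  obtain ⟨M, -, hMT, -⟩ := Fermat.Agent.Betti.H76.stmt_matrixRep N S r b hb
  let ML : CuspForm.heckeAlgebra N 2 S →+* Matrix (Fin r) (Fin r) L :=
    (Int.castRingHom L).mapMatrix.comp M
  have hgen : ∀ (ℓ : ℕ) (hℓ : ℓ.Prime) (hℓN : ¬ ℓ ∣ N) (hℓS : ℓ ∉ S),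
      Rel b ML W Θ (CuspForm.heckeAlgebra.T hℓ hℓN hℓS) (t ℓ) := by
    intro ℓ hℓ hℓN hℓS i v hv
    refine ⟨htW i ℓ hℓ hℓN hℓS v hv, fun a ha => ?_⟩
    rw [htΘ i ℓ hℓ hℓN hℓS v hv, ha]
    exact TB_coordHom hℓ hℓN _ (hMT ℓ hℓ hℓN hℓS) a
  have hall : ∀ x : CuspForm.heckeAlgebra N 2 S, ∃ e : Module.End L V, Rel b ML W Θ x e := by
    rintro ⟨x, hx⟩
    induction hx using Algebra.adjoin_induction with
    | mem x hx =>
      rcases hx with ⟨ℓ, hℓ, hℓN, hℓS, rfl⟩ | ⟨q, hqN, hq, hqS, rfl⟩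
      · exact ⟨t ℓ, hgen ℓ hℓ hℓN hℓS⟩
      · exact absurd (hS q hq hqN) hqS
    | algebraMap n =>
      refine ⟨(n : L) • (1 : Module.End L V), ?_⟩
      have : (⟨algebraMap ℤ _ n, Subalgebra.algebraMap_mem _ n⟩ : CuspForm.heckeAlgebra N 2 S)
          = (n : CuspForm.heckeAlgebra N 2 S) := by
        apply Subtype.ext
        simp
      rw [this]
      exact Rel.intCast n
    | add x y hx hy ihx ihy =>
      obtain ⟨e, he⟩ := ihx
      obtain ⟨f, hf⟩ := ihy
      have : (⟨x + y, Subalgebra.add_mem _ hx hy⟩ : CuspForm.heckeAlgebra N 2 S)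
          = ⟨x, hx⟩ + ⟨y, hy⟩ := rfl
      rw [this]
      exact ⟨e + f, he.add hf⟩
    | mul x y hx hy ihx ihy =>
      obtain ⟨e, he⟩ := ihx
      obtain ⟨f, hf⟩ := ihy
      have : (⟨x * y, Subalgebra.mul_mem _ hx hy⟩ : CuspForm.heckeAlgebra N 2 S)
          = ⟨x, hx⟩ * ⟨y, hy⟩ := rfl
      rw [this]
      exact ⟨e * f, he.mul hf⟩
  choose c hc using hall
  have huniq : ∀ (x : CuspForm.heckeAlgebra N 2 S) (e : Module.End L V),
      Rel b ML W Θ x e → c x = e := fun x e he => Rel.unique hb hW hpar hinj (hc x) he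
  exact ⟨{ toFun := c
           map_one' := huniq 1 1 Rel.one
           map_mul' := fun x y => huniq _ _ ((hc x).mul (hc y))
           map_zero' := huniq 0 0 Rel.zero
           map_add' := fun x y => huniq _ _ ((hc x).add (hc y)) },
    fun ℓ hℓ hℓN hℓS => huniq _ _ (hgen ℓ hℓ hℓN hℓS)⟩

end Transport

end Fermat.Agent.NEB.EIG.H39

end
-- ==== END Fermat.Agent.NEB.EIG.H39_Transport

-- ==== BEGIN Fermat.Agent.NEB.H14_CorrFF
section

/-!
# NEB, package JH (helper14): pull-back, push-forward and automorphisms as correspondences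

`K` algebraically closed, `F`, `F'` function fields of one variable over `K` (`RED.IsFF`).
For every `K`-algebra homomorphism `φ : F →ₐ[K] F'`:

* `pullD φ : Div(F) → Div(F')`, `IsCorr (pullD φ) φ [F' : F]`,
* `pushD φ : Div(F') → Div(F)`, `IsCorr (pushD φ) (Norm_φ) 1`,
* `pullP φ`, `pushP φ` : the induced maps on `Pic⁰` (total definitions),
* `smulD σ` (the prelude action of `σ : F ≃ₐ[K] F`), `IsCorr (smulD σ) σ 1`, `smulD σ = pullD σ`.

Rules (all by the principle `IsCorr.eq`):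
`pullD_comp`, `pushD_comp`, `pushD_comp_pullD` (`φ_* φ^* = [F' : F]`).
-/

set_option autoImplicit false
set_option linter.unusedSectionVars false
set_option linter.style.haveILetI false

noncomputable section

namespace Fermat.Agent.NEB.H14

open AlgebraicCurve Fermat.Agent.Lib.HeckeComm Fermat.Agent.RED

section FF

variable {K F F' F'' : Type} [Field K] [Field F] [Field F'] [Field F'']
  [Algebra K F] [Algebra K F'] [Algebra K F''] [IsAlgClosed K]

theorem hasPD (hF : IsFF K F) : HasPrincipalDivisors K F :=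
  Fermat.Agent.RED.H51.stmt_FFB_principal K F hF

theorem isIntegral_hom (hF : IsFF K F) (hF' : IsFF K F') (φ : F →ₐ[K] F') :
    φ.toRingHom.IsIntegral :=
  (Fermat.Agent.RED.H51.stmt_FFB_finite K F F' hF hF' φ).1

theorem finiteAlong_hom (hF : IsFF K F) (hF' : IsFF K F') (φ : F →ₐ[K] F') :
    FiniteAlong K φ :=
  (Fermat.Agent.RED.H51.stmt_FFB_finite K F F' hF hF' φ).2

open scoped Classical in
/-- Pull-back of divisors along `φ` (total: zero unless `F`, `F'` are function fields). -/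
def pullD (φ : F →ₐ[K] F') : Divisor K F →+ Divisor K F' :=
  if h : IsFF K F ∧ IsFF K F' then
    haveI : HasPrincipalDivisors K F' := hasPD h.2
    Divisor.pullbackAlong φ (isIntegral_hom h.1 h.2 φ)
  else 0

open scoped Classical in
/-- Push-forward of divisors along `φ` (total: zero unless `F`, `F'` are function fields). -/
def pushD (φ : F →ₐ[K] F') : Divisor K F' →+ Divisor K F :=
  if h : IsFF K F ∧ IsFF K F' then
    Divisor.pushforwardAlong φ (isIntegral_hom h.1 h.2 φ)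
  else 0

theorem pullD_eq (hF : IsFF K F) (hF' : IsFF K F') (φ : F →ₐ[K] F') :
    pullD φ = (haveI : HasPrincipalDivisors K F' := hasPD hF';
      Divisor.pullbackAlong φ (isIntegral_hom hF hF' φ)) := by
  rw [pullD, dif_pos ⟨hF, hF'⟩]

theorem pushD_eq (hF : IsFF K F) (hF' : IsFF K F') (φ : F →ₐ[K] F') :
    pushD φ = Divisor.pushforwardAlong φ (isIntegral_hom hF hF' φ) := by
  rw [pushD, dif_pos ⟨hF, hF'⟩]

/-- The norm along `φ`. -/
def normFn (φ : F →ₐ[K] F') (x : F') : F :=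
  letI := algebraAlong φ
  Algebra.norm F x

theorem normFn_eq_normAlongHom (φ : F →ₐ[K] F') (x : F') :
    normFn φ x = normAlongHom (φ : F →+* F') x := rfl

theorem normFn_ne_zero (hF : IsFF K F) (hF' : IsFF K F') (φ : F →ₐ[K] F') {x : F'}
    (hx : x ≠ 0) : normFn φ x ≠ 0 := by
  letI := algebraAlong φ
  haveI : Module.Finite F F' := finiteAlong_hom hF hF' φ
  show Algebra.norm F x ≠ 0
  exact Algebra.norm_ne_zero_iff.mpr hx

theorem isCorr_pullD (hF : IsFF K F) (hF' : IsFF K F') (φ : F →ₐ[K] F') :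
    IsCorr (pullD φ) φ (finrankAlong K φ) := by
  haveI : HasPrincipalDivisors K F' := hasPD hF'
  rw [pullD_eq hF hF']
  refine ⟨finPre_pullbackAlong φ _, ?_, ?_⟩
  · intro f hf
    refine ⟨fun h0 => hf (φ.toRingHom.injective (by simpa using h0)), fun D hD w => ?_⟩
    letI := algebraAlong φ
    haveI := isScalarTower_along φ
    haveI := isIntegral_along φ (isIntegral_hom hF hF' φ)
    exact Divisor.pullback_apply_eq_ord hD w
  · intro D
    exact Divisor.degree_pullbackAlong φ _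
      (Fermat.Agent.RED.H51.stmt_FFB_fundamental K F F' hF hF' φ _ _) D

theorem isCorr_pushD (hF : IsFF K F) (hF' : IsFF K F') (φ : F →ₐ[K] F') :
    IsCorr (pushD φ) (normFn φ) 1 := by
  haveI : HasPrincipalDivisors K F' := hasPD hF'
  rw [pushD_eq hF hF']
  refine ⟨finPre_pushforwardAlong φ _, ?_, ?_⟩
  · intro f hf
    refine ⟨normFn_ne_zero hF hF' φ hf, fun D hD v => ?_⟩
    have hN := Fermat.Agent.RED.H51.stmt_FFB_norm K F F' hF hF' φ (finiteAlong_hom hF hF' φ)
    letI := algebraAlong φ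
    haveI := isScalarTower_along φ
    haveI := isIntegral_along φ (isIntegral_hom hF hF' φ)
    haveI : Module.Finite F F' := finiteAlong_hom hF hF' φ
    exact hN f hf D hD v
  · intro D
    rw [Divisor.degree_pushforwardAlong, one_mul]

/-- The prelude action of an automorphism on divisors, as an additive map. -/
def smulD (σ : F ≃ₐ[K] F) : Divisor K F →+ Divisor K F :=
  DistribSMul.toAddMonoidHom (Divisor K F) σ

@[simp]
theorem smulD_apply (σ : F ≃ₐ[K] F) (D : Divisor K F) : smulD σ D = σ • D := rfl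

theorem isCorr_smulD (σ : F ≃ₐ[K] F) : IsCorr (smulD σ) σ 1 := by
  classical
  refine ⟨fun w => ?_, fun f hf => ⟨by simpa using hf, fun D hD w => ?_⟩, fun D => ?_⟩
  · refine (Set.finite_singleton (σ⁻¹ • w)).subset fun v hv => ?_
    rw [Set.mem_ofPred_eq, smulD_apply, Divisor.smul_single] at hv
    rw [Set.mem_singleton_iff]
    by_contra hne
    apply hv
    rw [Finsupp.single_eq_of_ne]
    intro h
    apply hne
    rw [h, inv_smul_smul]
  · rw [smulD_apply, Divisor.smul_apply, hD (σ⁻¹ • w)]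
    have h := Place.ord_smul σ (σ⁻¹ • w) f
    rw [smul_inv_smul] at h
    exact h.symm
  · rw [smulD_apply, Divisor.degree_smul, one_mul]

/-- The maps on `Pic⁰`. -/
def pullP (φ : F →ₐ[K] F') : Pic0 K F →+ Pic0 K F' := picMap (pullD φ)

/-- The maps on `Pic⁰`. -/
def pushP (φ : F →ₐ[K] F') : Pic0 K F' →+ Pic0 K F := picMap (pushD φ)

theorem picMap_smulD (σ : F ≃ₐ[K] F) (x : Pic0 K F) : picMap (smulD σ) x = σ • x := by
  obtain ⟨D, rfl⟩ := Pic0.mk_surjective x
  rw [picMap_mk (isCorr_smulD σ).isGood, Pic0.smul_mk]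
  rfl

/-! ### Rules -/

theorem smulD_eq_pullD (hF : IsFF K F) (σ : F ≃ₐ[K] F) : smulD σ = pullD (σ : F →ₐ[K] F) := by
  haveI := hasPD hF
  exact (isCorr_smulD σ).eq (isCorr_pullD hF hF _) (fun f _ => rfl)

theorem pullD_comp (hF : IsFF K F) (hF' : IsFF K F') (hF'' : IsFF K F'')
    (φ : F →ₐ[K] F') (ψ : F' →ₐ[K] F'') :
    pullD (ψ.comp φ) = (pullD ψ).comp (pullD φ) := by
  haveI := hasPD hF
  exact (isCorr_pullD hF hF'' _).eq ((isCorr_pullD hF' hF'' ψ).comp (isCorr_pullD hF hF' φ))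
    (fun f _ => rfl)

theorem pushD_comp (hF : IsFF K F) (hF' : IsFF K F') (hF'' : IsFF K F'')
    (φ : F →ₐ[K] F') (ψ : F' →ₐ[K] F'') :
    pushD (ψ.comp φ) = (pushD φ).comp (pushD ψ) := by
  haveI := hasPD hF''
  refine (isCorr_pushD hF hF'' _).eq ((isCorr_pushD hF hF' φ).comp (isCorr_pushD hF' hF'' ψ))
    (fun f _ => ?_)
  exact (normAlongHom_comp (φ : F →+* F') (ψ : F' →+* F'') f).symm

theorem normFn_apply_self (φ : F →ₐ[K] F') (f : F) :
    normFn φ (φ f) = f ^ finrankAlong K φ := by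
  letI := algebraAlong φ
  show Algebra.norm F (algebraMap F F' f) = f ^ Module.finrank F F'
  exact Algebra.norm_algebraMap f

/-- `φ_* φ^* = [F' : F]`. -/
theorem pushD_comp_pullD (hF : IsFF K F) (hF' : IsFF K F') (φ : F →ₐ[K] F') :
    (pushD φ).comp (pullD φ) = finrankAlong K φ • AddMonoidHom.id (Divisor K F) := by
  haveI := hasPD hF
  refine ((isCorr_pushD hF hF' φ).comp (isCorr_pullD hF hF' φ)).eq
    ((IsCorr.id (K := K) (F := F)).nsmul (finrankAlong K φ)) (fun f _ => ?_)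
  exact normFn_apply_self φ f

theorem pullP_comp (hF : IsFF K F) (hF' : IsFF K F') (hF'' : IsFF K F'')
    (φ : F →ₐ[K] F') (ψ : F' →ₐ[K] F'') :
    pullP (ψ.comp φ) = (pullP ψ).comp (pullP φ) := by
  rw [pullP, pullD_comp hF hF' hF'', picMap_comp (isCorr_pullD hF' hF'' ψ).isGood
    (isCorr_pullD hF hF' φ).isGood]
  rfl

theorem pushP_comp (hF : IsFF K F) (hF' : IsFF K F') (hF'' : IsFF K F'')
    (φ : F →ₐ[K] F') (ψ : F' →ₐ[K] F'') :
    pushP (ψ.comp φ) = (pushP φ).comp (pushP ψ) := by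
  rw [pushP, pushD_comp hF hF' hF'', picMap_comp (isCorr_pushD hF hF' φ).isGood
    (isCorr_pushD hF' hF'' ψ).isGood]
  rfl

theorem pushP_pullP (hF : IsFF K F) (hF' : IsFF K F') (φ : F →ₐ[K] F') (x : Pic0 K F) :
    pushP φ (pullP φ x) = finrankAlong K φ • x := by
  have h := picMap_comp (isCorr_pushD hF hF' φ).isGood (isCorr_pullD hF hF' φ).isGood
  rw [pushD_comp_pullD hF hF', picMap_nsmul (IsCorr.id (K := K) (F := F)).isGood, picMap_id] at h
  have h2 := DFunLike.congr_fun h x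
  rw [AddMonoidHom.comp_apply] at h2
  rw [pushP, pullP, ← h2]
  rfl

theorem pullP_smul (hF : IsFF K F) (σ : F ≃ₐ[K] F) (x : Pic0 K F) :
    pullP (σ : F →ₐ[K] F) x = σ • x := by
  rw [pullP, ← smulD_eq_pullD hF, picMap_smulD]

/-- Kummer form of `pullP`. -/
theorem pullD_kummer (hF : IsFF K F) (hF' : IsFF K F') (φ : F →ₐ[K] F')
    (n : ℤ) (D : Divisor K F) {f : F} (hf : f ≠ 0) (hD : ∀ v, n * D v = v.ord f)
    (w : Place K F') : n * pullD φ D w = w.ord (φ f) :=
  (isCorr_pullD hF hF' φ).hasFn.kummer n D hf hD w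

/-- Kummer form of `pushP`. -/
theorem pushD_kummer (hF : IsFF K F) (hF' : IsFF K F') (φ : F →ₐ[K] F')
    (n : ℤ) (D : Divisor K F') {f : F'} (hf : f ≠ 0) (hD : ∀ w, n * D w = w.ord f)
    (v : Place K F) : n * pushD φ D v = v.ord (normFn φ f) :=
  (isCorr_pushD hF hF' φ).hasFn.kummer n D hf hD v

end FF

end Fermat.Agent.NEB.H14

end
end
-- ==== END Fermat.Agent.NEB.H14_CorrFF

-- ==== BEGIN Fermat.Agent.NEB.H29_EisAn
section

/-!
# Item 72, LG-NEB, package FH-AN (helper29): `Stmt_FH_an`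

The lattice Eisenstein series `eisAn c S (z) = ∑_{(m,n), m mod c ∈ S} (m z + n)⁻⁴` (`0 ∉ S = -S`) is
helper96's weighted Eisenstein series for the weight `(m, n) ↦ 1_S(m)`; holomorphy, boundedness at
the cusps and the slash rule come from `Lib/TwistedEisenstein.lean`, the `q`-expansion from
helper34's `wEis_cWeight_eq`.
-/

set_option autoImplicit false

open UpperHalfPlane hiding I
open ModularForm EisensteinSeries Filter Topology Complex Set
open scoped MatrixGroups Manifold Real Nat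

noncomputable section

namespace Fermat.Agent.NEB.H29

open Fermat.Agent.Lib.TwistedEisenstein Fermat.Agent.NEB.H34

open scoped Classical in
/-- The indicator function of `{m : m mod c ∈ S}`. -/
def chiS (c : ℕ) (S : Set (ZMod c)) (m : ℤ) : ℂ := if ((m : ℤ) : ZMod c) ∈ S then 1 else 0

theorem norm_chiS_le (c : ℕ) (S : Set (ZMod c)) (m : ℤ) : ‖chiS c S m‖ ≤ 1 := by
  unfold chiS
  split_ifs <;> simp

theorem chiS_zero (c : ℕ) (S : Set (ZMod c)) (h0 : (0 : ZMod c) ∉ S) : chiS c S 0 = 0 := by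
  unfold chiS
  rw [if_neg]
  simpa using h0

theorem chiS_neg (c : ℕ) (S : Set (ZMod c)) (hS : ∀ x, x ∈ S → -x ∈ S) (m : ℤ) :
    chiS c S (-m) = chiS c S m := by
  classical
  unfold chiS
  have : (((-m : ℤ)) : ZMod c) ∈ S ↔ ((m : ℤ) : ZMod c) ∈ S := by
    constructor
    · intro h
      have := hS _ h
      simpa using this
    · intro h
      have := hS _ h
      simpa using this
  simp only [this]

/-- `eisAn` is a weighted Eisenstein series. -/
theorem eisAn_eq_wEis (c : ℕ) (S : Set (ZMod c)) :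
    eisAn c S = wEis 4 (cWeight (chiS c S)) := by
  classical
  funext z
  unfold eisAn wEis
  rw [← (finTwoArrowEquiv ℤ).symm.tsum_eq]
  refine tsum_congr fun v => ?_
  simp only [finTwoArrowEquiv_symm_apply, cWeight, chiS, eisSummand, Matrix.cons_val_zero,
    Matrix.cons_val_one]
  split_ifs <;> simp

theorem norm_cWeight_chiS_le (c : ℕ) (S : Set (ZMod c)) (v : Fin 2 → ℤ) :
    ‖cWeight (chiS c S) v‖ ≤ 1 := norm_chiS_le c S _

theorem eisAn_mdifferentiable (c : ℕ) (S : Set (ZMod c)) : MDiff (eisAn c S) := by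
  rw [eisAn_eq_wEis]
  exact wEis_mdifferentiable (by norm_num) (norm_cWeight_chiS_le c S)

theorem eisAn_isBoundedAtImInfty_slash (c : ℕ) (S : Set (ZMod c)) (σ : SL(2, ℤ)) :
    IsBoundedAtImInfty (eisAn c S ∣[(4 : ℤ)] σ) := by
  rw [eisAn_eq_wEis]
  exact isBoundedAtImInfty_wEis_slash (by norm_num) (norm_cWeight_chiS_le c S) σ

/-! ### The slash rule for `Γ₀(c)` -/

open Matrix in
theorem cast_vecMul_inv_zero (c : ℕ) (γ : CongruenceSubgroup.Gamma0 c) (v : Fin 2 → ℤ) :
    ((((v ᵥ* (((γ : SL(2, ℤ))⁻¹ : SL(2, ℤ)) : Matrix (Fin 2) (Fin 2) ℤ)) 0 : ℤ)) : ZMod c)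
      = ((((γ : SL(2, ℤ)) 1 1 : ℤ)) : ZMod c) * ((v 0 : ℤ) : ZMod c) := by
  set A : SL(2, ℤ) := (γ : SL(2, ℤ)) with hA
  set w := v ᵥ* ((A⁻¹ : SL(2, ℤ)) : Matrix (Fin 2) (Fin 2) ℤ) with hw
  have hv : v = w ᵥ* (A : Matrix (Fin 2) (Fin 2) ℤ) := (vecMul_inv_vecMul A v).symm
  have hv0 : v 0 = w 0 * A 0 0 + w 1 * A 1 0 := by
    rw [hv]
    simp [Matrix.vecMul, Matrix.vec2_dotProduct]
  have hc : ((A 1 0 : ℤ) : ZMod c) = 0 := CongruenceSubgroup.Gamma0_mem.mp γ.2
  have hdet : A 0 0 * A 1 1 - A 0 1 * A 1 0 = 1 := by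
    have := A.det_coe
    rwa [Matrix.det_fin_two] at this
  have hdet' : ((A 0 0 : ℤ) : ZMod c) * ((A 1 1 : ℤ) : ZMod c) = 1 := by
    have := congrArg (fun x : ℤ => (x : ZMod c)) hdet
    simp only [Int.cast_sub, Int.cast_mul, Int.cast_one, hc, mul_zero, sub_zero] at this
    exact this
  rw [hv0]
  push_cast
  rw [hc, mul_zero, add_zero]
  calc ((w 0 : ℤ) : ZMod c) = (w 0 : ZMod c) * (((A 0 0 : ℤ) : ZMod c) * ((A 1 1 : ℤ) : ZMod c)) := by
        rw [hdet', mul_one]
    _ = ((A 1 1 : ℤ) : ZMod c) * ((w 0 : ZMod c) * ((A 0 0 : ℤ) : ZMod c)) := by ring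

theorem eisAn_slash_Gamma0 (c : ℕ) (S : Set (ZMod c)) (γ : CongruenceSubgroup.Gamma0 c) :
    eisAn c S ∣[(4 : ℤ)] (γ : SL(2, ℤ)) =
      eisAn c {x | ((((γ : SL(2, ℤ)) 1 1 : ℤ) : ZMod c)) * x ∈ S} := by
  classical
  rw [eisAn_eq_wEis, eisAn_eq_wEis, wEis_slash]
  congr 1
  funext v
  rw [wSlash_apply]
  simp only [cWeight, chiS, Set.mem_ofPred_eq]
  rw [cast_vecMul_inv_zero c γ v]

/-! ### The `q`-expansion -/

theorem eisCoeff_eq_sigmaChi (c : ℕ) (S : Set (ZMod c)) (n : ℕ) :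
    ((eisCoeff c S n : ℤ) : ℂ) = sigmaChi (chiS c S) 3 n := by
  classical
  unfold eisCoeff sigmaChi chiS
  rw [Nat.sum_divisorsAntidiagonal
    (fun a b => (if (((a : ℕ) : ℤ) : ZMod c) ∈ S then (1 : ℂ) else 0) * ((b : ℕ) : ℂ) ^ 3),
    Int.cast_sum]
  refine Finset.sum_congr rfl fun m _ => ?_
  have hP : ((((m : ℕ) : ℤ)) : ZMod c) = ((m : ℕ) : ZMod c) := Int.cast_natCast m
  rw [hP]
  by_cases h : ((m : ℕ) : ZMod c) ∈ S
  · rw [if_pos h, if_pos h, one_mul, Int.cast_pow, Int.cast_natCast]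
  · rw [if_neg h, if_neg h, zero_mul, Int.cast_zero]

theorem eisCoeff_zero (c : ℕ) (S : Set (ZMod c)) : eisCoeff c S 0 = 0 := by
  simp [eisCoeff]

theorem norm_eisCoeff_le (c : ℕ) (S : Set (ZMod c)) (n : ℕ) :
    ‖((eisCoeff c S n : ℤ) : ℂ)‖ ≤ (n : ℝ) ^ 4 := by
  classical
  have h1 : |eisCoeff c S n| ≤ ((ArithmeticFunction.sigma 3 n : ℕ) : ℤ) := by
    unfold eisCoeff
    refine (Finset.abs_sum_le_sum_abs _ _).trans ?_
    rw [ArithmeticFunction.sigma_apply, ← Nat.sum_div_divisors n (fun d => d ^ 3)]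
    push_cast
    refine Finset.sum_le_sum fun m _ => ?_
    split_ifs
    · rw [abs_of_nonneg (by positivity)]
    · rw [abs_zero]
      positivity
  have h2 : ((ArithmeticFunction.sigma 3 n : ℕ) : ℤ) ≤ ((n ^ 4 : ℕ) : ℤ) := by
    exact_mod_cast ArithmeticFunction.sigma_le_pow_succ 3 n
  have h3 : |eisCoeff c S n| ≤ ((n ^ 4 : ℕ) : ℤ) := h1.trans h2
  rw [Complex.norm_intCast]
  have h4 : ((|eisCoeff c S n| : ℤ) : ℝ) ≤ (((n ^ 4 : ℕ) : ℤ) : ℝ) := by exact_mod_cast h3
  simpa using h4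

/-- The constant `2 (2πi)⁴ / 3!`. -/
def eisConst : ℂ := 2 * ((-2 * π * I) ^ 4 / (3 ! : ℕ))

theorem eisConst_ne_zero : eisConst ≠ 0 := by
  unfold eisConst
  have hpi : (π : ℂ) ≠ 0 := by exact_mod_cast Real.pi_ne_zero
  have : (-2 * (π : ℂ) * I) ≠ 0 := by
    simp [hpi, Complex.I_ne_zero]
  have h3 : ((3 ! : ℕ) : ℂ) ≠ 0 := by
    exact_mod_cast Nat.factorial_ne_zero 3
  exact mul_ne_zero two_ne_zero (div_ne_zero (pow_ne_zero 4 this) h3)

theorem summable_eisCoeff (c : ℕ) (S : Set (ZMod c)) (τ : ℍ) :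
    Summable fun n : ℕ => ((eisCoeff c S n : ℤ) : ℂ) * cexp (2 * π * I * τ) ^ n := by
  apply Summable.of_norm_bounded
    (summable_norm_pow_mul_geometric_of_norm_lt_one 4 (norm_exp_two_pi_I_lt_one τ))
  intro n
  simp only [norm_mul, Complex.norm_natCast, norm_pow]
  gcongr
  have := norm_eisCoeff_le c S n
  simpa using this

theorem eisAn_eq_tsum (c : ℕ) (S : Set (ZMod c)) (h0 : (0 : ZMod c) ∉ S)
    (hS : ∀ x, x ∈ S → -x ∈ S) (τ : ℍ) :
    eisAn c S τ = eisConst * ∑' n : ℕ, ((eisCoeff c S n : ℤ) : ℂ) * cexp (2 * π * I * τ) ^ n := by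
  have h := wEis_cWeight_eq (k := 4) (by norm_num) (chiS c S) (norm_chiS_le c S)
    (fun m => by rw [chiS_neg c S hS]; norm_num) (chiS_zero c S h0) τ
  rw [eisAn_eq_wEis]
  have e4 : ((4 : ℕ) : ℤ) = (4 : ℤ) := by norm_num
  rw [e4] at h
  rw [h, ← tsum_zero_pnat_eq_tsum_nat (summable_eisCoeff c S τ), eisCoeff_zero]
  simp only [Int.cast_zero, zero_mul, zero_add, eisCoeff_eq_sigmaChi]
  rfl

theorem hasSum_eisAn (c : ℕ) (S : Set (ZMod c)) (h0 : (0 : ZMod c) ∉ S)
    (hS : ∀ x, x ∈ S → -x ∈ S) (τ : ℍ) :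
    HasSum (fun m : ℕ => (eisConst * ((eisCoeff c S m : ℤ) : ℂ)) • Function.Periodic.qParam 1 τ ^ m)
      (eisAn c S τ) := by
  rw [eisAn_eq_tsum c S h0 hS τ]
  have hs := (summable_eisCoeff c S τ).mul_left eisConst
  have h1 := hs.hasSum
  rw [tsum_mul_left] at h1
  have hf : (fun m : ℕ => (eisConst * ((eisCoeff c S m : ℤ) : ℂ)) • Function.Periodic.qParam 1 τ ^ m)
      = fun i : ℕ => eisConst * (((eisCoeff c S i : ℤ) : ℂ) * cexp (2 * π * I * τ) ^ i) := by
    funext m
    simp only [smul_eq_mul, Function.Periodic.qParam, ofReal_one, div_one]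
    ring
  rw [hf]
  exact h1

/-! ### The `q`-expansion as a power series -/

open Matrix in
theorem tInvariant_cWeight (χ : ℤ → ℂ) : TInvariant (cWeight χ) := by
  intro v
  unfold cWeight
  congr 1
  simp [Matrix.vecMul, ModularGroup.T]
  rfl

theorem periodic_eisAn (c : ℕ) (S : Set (ZMod c)) :
    Function.Periodic ((eisAn c S) ∘ ofComplex) (1 : ℝ) := by
  rw [eisAn_eq_wEis]
  exact periodic_wEis (tInvariant_cWeight _)

theorem analyticAt_cuspFunction_eisAn (c : ℕ) (S : Set (ZMod c)) :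
    AnalyticAt ℂ (cuspFunction 1 (eisAn c S)) 0 := by
  have hb : IsBoundedAtImInfty (eisAn c S) := by
    rw [eisAn_eq_wEis]
    exact isBoundedAtImInfty_wEis (by norm_num) (norm_cWeight_chiS_le c S)
  exact analyticAt_cuspFunction_zero one_pos (periodic_eisAn c S) (eisAn_mdifferentiable c S) hb

theorem qExpansion_eisAn_coeff (c : ℕ) (S : Set (ZMod c)) (h0 : (0 : ZMod c) ∉ S)
    (hS : ∀ x, x ∈ S → -x ∈ S) (m : ℕ) :
    (qExpansion 1 (eisAn c S)).coeff m = eisConst * ((eisCoeff c S m : ℤ) : ℂ) :=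
  (UpperHalfPlane.qExpansion_coeff_unique
    (ContinuousMap.mk (eisAn c S) (eisAn_mdifferentiable c S).continuous) one_pos
    (analyticAt_cuspFunction_eisAn c S) (hasSum_eisAn c S h0 hS) m).symm

theorem qExpansion_eisAn (c : ℕ) (S : Set (ZMod c)) (h0 : (0 : ZMod c) ∉ S)
    (hS : ∀ x, x ∈ S → -x ∈ S) :
    qExpansion 1 (eisAn c S) = eisConst • (eisNum c S).map (Int.castRingHom ℂ) := by
  ext m
  rw [qExpansion_eisAn_coeff c S h0 hS m]
  simp [eisNum]

theorem qLaurent_eisAn (c : ℕ) (S : Set (ZMod c)) (h0 : (0 : ZMod c) ∉ S)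
    (hS : ∀ x, x ∈ S → -x ∈ S) :
    GTor.qLaurent (eisAn c S) =
      eisConst • HahnSeries.ofPowerSeries ℤ ℂ ((eisNum c S).map (Int.castRingHom ℂ)) := by
  unfold GTor.qLaurent
  rw [qExpansion_eisAn c S h0 hS]
  ext n
  rcases lt_or_ge n 0 with hn | hn
  · rw [HahnSeries.coeff_smul, ModularCurve.ofPowerSeries_coeff_of_neg _ hn,
      ModularCurve.ofPowerSeries_coeff_of_neg _ hn, smul_zero]
  · lift n to ℕ using hn
    rw [HahnSeries.coeff_smul, HahnSeries.ofPowerSeries_apply_coeff,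
      HahnSeries.ofPowerSeries_apply_coeff]
    simp

/-- **FH-AN.** -/
theorem stmt_FH_an (c : ℕ) : Stmt_FH_an c := by
  intro _
  refine ⟨eisConst, eisConst_ne_zero, fun S h0 hS => ⟨?_, ?_, ?_, ?_⟩⟩
  · exact eisAn_mdifferentiable c S
  · exact eisAn_isBoundedAtImInfty_slash c S
  · exact eisAn_slash_Gamma0 c S
  · exact qLaurent_eisAn c S h0 hS

end Fermat.Agent.NEB.H29

end
end
-- ==== END Fermat.Agent.NEB.H29_EisAn

-- ==== BEGIN Fermat.Agent.NEB.H84_ResVal
section

/-!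
# NEB, package RES, part 1 (helper84): the Gauss valuation ring of a field of series over `ℚ̄`

`A` a valuation ring of `ℚ̄`, `F ⊆ ℚ̄((q))` with the scaling property, `V = gaussValSub A F h`.

* `val_unit`, `val_algebraMap_eq_one`, `exists_scale_val`, `exists_const_val` (value group of `V` =
  value group of `A`);
* `isArch_gaussValSub` : `V` has rank one if `A` lies over a prime;
* `val_natCast_eq_one` : `v(m) = 1` for `m` prime to the residue characteristic;
* `val_sub_one_lt_iff` : `v(x - 1) < 1 ↔ x` lies in the Gauss ring and reduces to `1`.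
-/

set_option autoImplicit false
set_option linter.unusedSectionVars false
set_option linter.style.haveILetI false

noncomputable section

open ModularCurve Fermat.Agent.S28 Fermat.Agent.S28.H73 Fermat.Agent.RED.H73

namespace Fermat.Agent.NEB.H84

section GaussVal

variable (A : ValuationSubring Kbar) {F : IntermediateField Kbar (LaurentSeries Kbar)}
  (h : HasScale A F)

theorem val_unit (u : (↥(gaussValSub A F h))ˣ) :
    (gaussValSub A F h).valuation ((u : ↥(gaussValSub A F h)) : ↥F) = 1 :=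
  ((gaussValSub A F h).valuation_eq_one_iff _).mp u.isUnit

theorem exists_scale_val (x : ↥F) (hx : x ≠ 0) :
    ∃ c : Kbar, c ≠ 0 ∧ (gaussValSub A F h).valuation (algebraMap Kbar ↥F c * x) = 1 := by
  obtain ⟨c, u, hc, hxu⟩ := exists_unit_scale A h x hx
  refine ⟨c⁻¹, inv_ne_zero hc, ?_⟩
  rw [hxu, ← mul_assoc, ← map_mul, inv_mul_cancel₀ hc, map_one, one_mul]
  exact val_unit A h u

theorem exists_const_val (x : ↥F) (hx : x ≠ 0) :
    ∃ c : Kbar, c ≠ 0 ∧ (gaussValSub A F h).valuation (algebraMap Kbar ↥F c) =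
      (gaussValSub A F h).valuation x := by
  obtain ⟨c, u, hc, hxu⟩ := exists_unit_scale A h x hx
  refine ⟨c, hc, ?_⟩
  rw [hxu, map_mul, val_unit A h u, mul_one]

theorem val_algebraMap_le_one_iff (c : Kbar) :
    (gaussValSub A F h).valuation (algebraMap Kbar ↥F c) ≤ 1 ↔ c ∈ A := by
  rw [ValuationSubring.valuation_le_one_iff, algebraMap_mem_gaussValSub_iff]

theorem val_algebraMap_eq_one {c : Kbar} (hc0 : c ≠ 0) (hc : c ∈ A) (hc' : c⁻¹ ∈ A) :
    (gaussValSub A F h).valuation (algebraMap Kbar ↥F c) = 1 := by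
  apply le_antisymm ((val_algebraMap_le_one_iff A h c).mpr hc)
  have h1 := (val_algebraMap_le_one_iff A h c⁻¹).mpr hc'
  rw [map_inv₀, map_inv₀] at h1
  have hv0 : (gaussValSub A F h).valuation (algebraMap Kbar ↥F c) ≠ 0 :=
    (Valuation.ne_zero_iff _).2 (by rwa [Ne, map_eq_zero])
  exact (inv_le_one₀ (zero_lt_iff.2 hv0)).mp h1

theorem mem_nonunits_of_val_lt {c : Kbar}
    (hc : (gaussValSub A F h).valuation (algebraMap Kbar ↥F c) < 1) : c ∈ A.nonunits := by
  have hcA : c ∈ A := (val_algebraMap_le_one_iff A h c).mp hc.le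
  rw [ValuationSubring.mem_nonunits_iff_or]
  by_contra hcon
  obtain ⟨hc1, hc2⟩ := not_or.mp hcon
  have := val_algebraMap_eq_one A h hc1 hcA (not_not.mp hc2)
  rw [this] at hc
  exact lt_irrefl _ hc

/-- **Rank one** of the Gauss valuation ring. -/
theorem isArch_gaussValSub {q : ℕ} (hq : q.Prime) (hA : A.LiesOverPrime q) :
    Fermat.Agent.BAD.H42.IsArch (gaussValSub A F h) := by
  apply Fermat.Agent.BAD.H42.isArch_of_scale (K := Kbar) (gaussValSub A F h)
  · intro f hf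
    exact exists_scale_val A h f hf
  · intro c d hc hd
    obtain ⟨m, hm⟩ := Fermat.Agent.BAD.H82.arch_Qbar A hq hA (mem_nonunits_of_val_lt A h hc) hd
    exact ⟨m, (val_algebraMap_le_one_iff A h _).mpr hm⟩

theorem natCast_unit {q : ℕ} (hq : q.Prime) (hA : A.LiesOverPrime q) {m : ℕ} (hm : ¬ q ∣ m) :
    ((m : ℕ) : Kbar) ∈ A ∧ (((m : ℕ) : Kbar))⁻¹ ∈ A ∧ ((m : ℕ) : Kbar) ≠ 0 := by
  have hmA : ((m : ℕ) : Kbar) ∈ A := natCast_mem A m
  have hqA : ((q : ℕ) : Kbar) ∈ A := natCast_mem A q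
  have hcop : Nat.Coprime q m := (Nat.Prime.coprime_iff_not_dvd hq).mpr hm
  have hm0 : ((m : ℕ) : Kbar) ≠ 0 := by
    intro h0
    have : m = 0 := by exact_mod_cast h0
    subst this
    exact hm (dvd_zero q)
  -- Bezout
  have hbez : ∃ a b : ℤ, a * q + b * m = 1 := by
    have := Int.isCoprime_iff_gcd_eq_one.mpr (by
      show Int.gcd (q : ℤ) (m : ℤ) = 1
      exact_mod_cast hcop)
    obtain ⟨a, b, hab⟩ := this
    exact ⟨a, b, hab⟩
  obtain ⟨a, b, hab⟩ := hbez
  have hab' : ((a : ℤ) : Kbar) * (q : Kbar) + ((b : ℤ) : Kbar) * (m : Kbar) = 1 := by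
    have := congrArg (fun z : ℤ => (z : Kbar)) hab
    push_cast at this
    exact this
  refine ⟨hmA, ?_, hm0⟩
  by_contra hinv
  have hmnon : ((m : ℕ) : Kbar) ∈ A.nonunits :=
    (ValuationSubring.mem_nonunits_iff_or A).mpr (Or.inr hinv)
  have hq1 : A.valuation ((q : ℕ) : Kbar) < 1 := (ValuationSubring.mem_nonunits_iff A).mp hA
  have hm1 : A.valuation ((m : ℕ) : Kbar) < 1 := (ValuationSubring.mem_nonunits_iff A).mp hmnon
  have ha1 : A.valuation ((a : ℤ) : Kbar) ≤ 1 := (A.valuation_le_one_iff _).mpr (intCast_mem A a)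
  have hb1 : A.valuation ((b : ℤ) : Kbar) ≤ 1 := (A.valuation_le_one_iff _).mpr (intCast_mem A b)
  have h1 : A.valuation (((a : ℤ) : Kbar) * (q : Kbar) + ((b : ℤ) : Kbar) * (m : Kbar)) < 1 := by
    refine lt_of_le_of_lt (Valuation.map_add _ _ _) (max_lt ?_ ?_)
    · rw [map_mul]
      exact lt_of_le_of_lt (mul_le_of_le_one_left zero_le ha1) hq1
    · rw [map_mul]
      exact lt_of_le_of_lt (mul_le_of_le_one_left zero_le hb1) hm1
  rw [hab', map_one] at h1
  exact lt_irrefl _ h1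

theorem val_natCast_eq_one {q : ℕ} (hq : q.Prime) (hA : A.LiesOverPrime q) {m : ℕ}
    (hm : ¬ q ∣ m) : (gaussValSub A F h).valuation ((m : ℕ) : ↥F) = 1 := by
  obtain ⟨h1, h2, h3⟩ := natCast_unit A hq hA hm
  have := val_algebraMap_eq_one A h h3 h1 h2
  rwa [map_natCast] at this

/-- `v(x - 1) < 1` iff `x` lies in the Gauss ring and reduces to `1`. -/
theorem val_sub_one_lt_iff (x : ↥F) :
    (gaussValSub A F h).valuation (x - 1) < 1 ↔
      ∃ hx : (x : LaurentSeries Kbar) ∈ gaussRingV A, gaussRedV A ⟨x, hx⟩ = 1 := by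
  constructor
  · intro hlt
    have h1 : x - 1 ∈ gaussValSub A F h :=
      ((gaussValSub A F h).valuation_le_one_iff _).mp hlt.le
    have hx : x ∈ gaussValSub A F h := by
      have := (gaussValSub A F h).add_mem _ _ h1 (gaussValSub A F h).one_mem
      simpa using this
    refine ⟨hx, ?_⟩
    have h2 : (⟨x - 1, h1⟩ : ↥(gaussValSub A F h)) ∈
        IsLocalRing.maximalIdeal ↥(gaussValSub A F h) :=
      ((gaussValSub A F h).valuation_lt_one_iff _).mpr hlt
    rw [← gaussResF_eq_zero_iff A h] at h2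
    have e : (⟨x - 1, h1⟩ : ↥(gaussValSub A F h)) = ⟨x, hx⟩ - 1 := rfl
    rw [e, map_sub, map_one, sub_eq_zero] at h2
    exact h2
  · rintro ⟨hx, hred⟩
    have hx' : x ∈ gaussValSub A F h := hx
    have h1 : x - 1 ∈ gaussValSub A F h :=
      sub_mem hx' (gaussValSub A F h).one_mem
    have h2 : gaussResF A h (⟨x - 1, h1⟩ : ↥(gaussValSub A F h)) = 0 := by
      have e : (⟨x - 1, h1⟩ : ↥(gaussValSub A F h)) = ⟨x, hx'⟩ - 1 := rfl
      rw [e, map_sub, map_one, sub_eq_zero]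
      exact hred
    rw [gaussResF_eq_zero_iff A h] at h2
    exact ((gaussValSub A F h).valuation_lt_one_iff _).mp h2

end GaussVal

end Fermat.Agent.NEB.H84

end
end
-- ==== END Fermat.Agent.NEB.H84_ResVal

-- ==== BEGIN Fermat.Agent.NEB.H84_W
section

/-!
# NEB, package FH-GAL, part 1 (helper84): forms on `Γ₁(M)` as bare functions, slash by `Γ₀(M)`

`IsW M k R` : `R : ℍ → ℂ` is holomorphic, invariant under the weight-`k` slash action of `Γ₁(M)` and
bounded at every cusp.  Such functions are `Nice 1` (so they have `q`-expansions with the usual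
algebra), they are closed under products and sums, and `Γ₀(M)` acts on them by the slash action
(because `Γ₁(M)` is normal in `Γ₀(M)`).
-/

set_option autoImplicit false

open UpperHalfPlane ModularForm CongruenceSubgroup
open scoped MatrixGroups ModularForm Manifold

noncomputable section

namespace Fermat.Agent.NEB.H84

open Fermat.Agent.S23.H22 (Nice)
open Fermat.Agent.GTor (qLaurent)

/-- A modular form of weight `k` on `Γ₁(M)`, as a bare function. -/
structure IsW (M : ℕ) (k : ℤ) (R : ℍ → ℂ) : Prop where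
  mdiff : MDifferentiable 𝓘(ℂ) 𝓘(ℂ) R
  slash : ∀ γ : SL(2, ℤ), γ ∈ Gamma1 M → R ∣[k] γ = R
  bdd : ∀ σ : SL(2, ℤ), IsBoundedAtImInfty (R ∣[k] σ)

variable {M : ℕ} {k k₁ k₂ : ℤ} {R R₁ R₂ : ℍ → ℂ}

theorem T_mem_Gamma1 (M : ℕ) : ModularGroup.T ∈ Gamma1 M := by
  rw [Gamma1_mem]
  simp [ModularGroup.T]

theorem IsW.periodic (h : IsW M k R) : Function.Periodic (R ∘ ofComplex) (1 : ℝ) := by
  intro w
  by_cases hw : 0 < w.im
  · have h1 : 0 < (w + (1 : ℝ)).im := by simpa using hw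
    have hT := congrFun (h.slash ModularGroup.T (T_mem_Gamma1 M)) ⟨w, hw⟩
    rw [SL_slash_apply] at hT
    simp only [Function.comp_apply, ofComplex_apply_of_im_pos hw, ofComplex_apply_of_im_pos h1]
    have h2 : ModularGroup.T • (⟨w, hw⟩ : ℍ) = ⟨w + (1 : ℝ), h1⟩ := by
      ext
      rw [UpperHalfPlane.modular_T_smul]
      simp [add_comm]
    have h3 : denom (ModularGroup.T : SL(2, ℤ)) (⟨w, hw⟩ : ℍ) = 1 := by
      rw [ModularGroup.denom_apply]
      simp [ModularGroup.T]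
    rw [h2] at hT
    erw [h3] at hT
    rw [one_zpow, mul_one] at hT
    exact hT
  · have h1 : ¬ 0 < (w + (1 : ℝ)).im := by simpa using hw
    simp only [Function.comp_apply]
    rw [ofComplex_apply_of_im_nonpos (not_lt.mp hw), ofComplex_apply_of_im_nonpos (not_lt.mp h1)]

theorem IsW.nice (h : IsW M k R) : Nice 1 R where
  per := h.periodic
  hol := h.mdiff
  bdd := by
    have := h.bdd 1
    rwa [SlashAction.slash_one] at this

theorem IsW.mul (h₁ : IsW M k₁ R₁) (h₂ : IsW M k₂ R₂) : IsW M (k₁ + k₂) (R₁ * R₂) where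
  mdiff := h₁.mdiff.mul h₂.mdiff
  slash γ hγ := by rw [mul_slash_SL2, h₁.slash γ hγ, h₂.slash γ hγ]
  bdd σ := by
    rw [mul_slash_SL2]
    exact (h₁.bdd σ).mul (h₂.bdd σ)

theorem IsW.add (h₁ : IsW M k R₁) (h₂ : IsW M k R₂) : IsW M k (R₁ + R₂) where
  mdiff := h₁.mdiff.add h₂.mdiff
  slash γ hγ := by rw [SlashAction.add_slash, h₁.slash γ hγ, h₂.slash γ hγ]
  bdd σ := by
    rw [SlashAction.add_slash]
    exact (h₁.bdd σ).add (h₂.bdd σ)

theorem IsW.neg (h : IsW M k R) : IsW M k (-R) where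
  mdiff := h.mdiff.neg
  slash γ hγ := by rw [SlashAction.neg_slash, h.slash γ hγ]
  bdd σ := by
    rw [SlashAction.neg_slash]
    exact (h.bdd σ).neg

theorem const_slash_zero (c : ℂ) (σ : SL(2, ℤ)) :
    (fun _ : ℍ => c) ∣[(0 : ℤ)] σ = fun _ => c := by
  funext z
  rw [SL_slash_apply]
  simp

theorem IsW.const (M : ℕ) (c : ℂ) : IsW M 0 (fun _ => c) where
  mdiff := mdifferentiable_const
  slash γ _ := const_slash_zero c γ
  bdd σ := by
    rw [const_slash_zero]
    exact Filter.const_boundedAtFilter _ c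

/-- `Γ₁(M)` is normalised by `Γ₀(M)`. -/
theorem conj_mem_Gamma1 {γ g : SL(2, ℤ)} (hγ : γ ∈ Gamma0 M) (hg : g ∈ Gamma1 M) :
    γ * g * γ⁻¹ ∈ Gamma1 M := by
  have h0 : g ∈ Gamma0 M := Gamma1_in_Gamma0 M hg
  have hmem : γ * g * γ⁻¹ ∈ Gamma0 M := (Gamma0 M).mul_mem ((Gamma0 M).mul_mem hγ h0)
    ((Gamma0 M).inv_mem hγ)
  have key : (⟨γ * g * γ⁻¹, hmem⟩ : Gamma0 M) ∈ Gamma1' M := by
    have : (⟨γ * g * γ⁻¹, hmem⟩ : Gamma0 M) = ⟨γ, hγ⟩ * ⟨g, h0⟩ * ⟨γ, hγ⟩⁻¹ := rfl
    have hg1 : Gamma0Map M ⟨g, h0⟩ = 1 := by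
      rw [← Gamma1_mem', Gamma1_to_Gamma0_mem]
      exact (Gamma1_mem M g).mp hg
    have hu : Gamma0Map M ⟨γ, hγ⟩ * Gamma0Map M (⟨γ, hγ⟩⁻¹) = 1 := by
      rw [← map_mul, mul_inv_cancel, map_one]
    rw [this, Gamma1_mem', map_mul, map_mul, hg1, mul_one, hu]
  rw [Gamma1_to_Gamma0_mem] at key
  exact (Gamma1_mem M _).mpr key

/-- `Γ₀(M)` acts on the forms on `Γ₁(M)` by the slash action. -/
theorem IsW.slash_Gamma0 (h : IsW M k R) {γ : SL(2, ℤ)} (hγ : γ ∈ Gamma0 M) :
    IsW M k (R ∣[k] γ) where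
  mdiff := by
    rw [SL_slash]
    exact h.mdiff.slash k _
  slash g hg := by
    have h1 : γ * g = (γ * g * γ⁻¹) * γ := by group
    rw [← SlashAction.slash_mul, h1, SlashAction.slash_mul, h.slash _ (conj_mem_Gamma1 hγ hg)]
  bdd σ := by
    rw [← SlashAction.slash_mul]
    exact h.bdd (γ * σ)

theorem slash_ne_zero {R : ℍ → ℂ} (k : ℤ) (γ : SL(2, ℤ)) (hR : R ≠ 0) : R ∣[k] γ ≠ 0 := by
  intro h0
  apply hR
  have : (R ∣[k] γ) ∣[k] γ⁻¹ = 0 := by rw [h0, SlashAction.zero_slash]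
  rwa [← SlashAction.slash_mul, mul_inv_cancel, SlashAction.slash_one] at this

/-- A modular form on `Γ₀(M)` is a form on `Γ₁(M)`, fixed by the slash action of `Γ₀(M)`. -/
theorem isW_of_modularForm [NeZero M] (A : ModularForm (Gamma0 M) k) : IsW M k (A : ℍ → ℂ) where
  mdiff := A.holo'
  slash γ hγ := by
    rw [SL_slash]
    exact SlashInvariantFormClass.slash_action_eq A _ ⟨γ, Gamma1_in_Gamma0 M hγ, rfl⟩
  bdd σ := ModularFormClass.bdd_at_infty_slash A σ

theorem slash_modularForm [NeZero M] (A : ModularForm (Gamma0 M) k) {γ : SL(2, ℤ)}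
    (hγ : γ ∈ Gamma0 M) : (A : ℍ → ℂ) ∣[k] γ = A := by
  rw [SL_slash]
  exact SlashInvariantFormClass.slash_action_eq A _ ⟨γ, hγ, rfl⟩

/-- A form on `Γ₁(M)` fixed by `Γ₀(M)` is a modular form on `Γ₀(M)`. -/
def toModularForm0 [NeZero M] (h : IsW M k R)
    (hfix : ∀ γ : SL(2, ℤ), γ ∈ Gamma0 M → R ∣[k] γ = R) : ModularForm (Gamma0 M) k :=
  Fermat.Agent.GTor.H56.toModularForm (N := M) (n := 1) (k := k) (R := R)
    { mdiff := h.mdiff
      slash := fun γ => by
        rw [AddMonoidHom.zero_apply, Fermat.Agent.GTor.H56.zetaPow_zero, one_smul]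
        exact hfix γ γ.2
      bdd := h.bdd }

@[simp]
theorem toModularForm0_coe [NeZero M] (h : IsW M k R)
    (hfix : ∀ γ : SL(2, ℤ), γ ∈ Gamma0 M → R ∣[k] γ = R) :
    (toModularForm0 h hfix : ℍ → ℂ) = R := rfl

end Fermat.Agent.NEB.H84

end
end
-- ==== END Fermat.Agent.NEB.H84_W

-- ==== BEGIN Fermat.Agent.S14.H66_T2
section

/-!
# S14, package B3 (helper66): T2 from the B2 interface

`Stmt_T2` (analytic inequality: a subgroup `U` of the class group of `F` containing the classes of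
all primes of `F` below a prime of `L` of absolute degree one has index `≤ [L : F]`), deduced from
the prime-sum statements of `Fermat.Agent.Lib.ZetaPrimesDefs` (package B2), which are taken as
hypotheses here.
-/

namespace Fermat.Agent.S14.H66

open NumberField IsDedekindDomain Ideal Fermat.Agent.Lib.ZetaPrimes
open scoped BigOperators

set_option linter.deprecated false

section Under

variable (F L : Type) [Field F] [NumberField F] [Field L] [NumberField L] [Algebra F L]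

/-- The prime of `F` below a prime of `L`. -/
noncomputable def underSpec (w : HeightOneSpectrum (𝓞 L)) : HeightOneSpectrum (𝓞 F) where
  asIdeal := w.asIdeal.under (𝓞 F)
  isPrime := Ideal.IsPrime.under (𝓞 F) w.asIdeal
  ne_bot := Ideal.under_ne_bot (𝓞 F) w.ne_bot

@[simp] lemma underSpec_asIdeal (w : HeightOneSpectrum (𝓞 L)) :
    (underSpec F L w).asIdeal = w.asIdeal.under (𝓞 F) := rfl

lemma absNorm_underSpec (w : HeightOneSpectrum (𝓞 L)) (hw : (absNorm w.asIdeal).Prime) :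
    absNorm (underSpec F L w).asIdeal = absNorm w.asIdeal := by
  have hlies : w.asIdeal.LiesOver (underSpec F L w).asIdeal := Ideal.over_under w.asIdeal
  have h := absNorm_eq_pow_inertiaDeg'_of_liesOver w.asIdeal (underSpec F L w).asIdeal
    (underSpec F L w).isPrime (underSpec F L w).ne_bot
  exact ((Nat.Prime.pow_eq_iff hw).mp h.symm).1

lemma primeTerm_underSpec (s : ℝ) (w : HeightOneSpectrum (𝓞 L))
    (hw : (absNorm w.asIdeal).Prime) :
    primeTerm F s (underSpec F L w) = primeTerm L s w := by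
  rw [primeTerm, primeTerm, absNorm_underSpec F L w hw]

lemma card_fiber_le (v : HeightOneSpectrum (𝓞 F)) (A : Finset (HeightOneSpectrum (𝓞 L)))
    (hA : ∀ w ∈ A, underSpec F L w = v) : A.card ≤ Module.finrank F L := by
  classical
  have hmax : v.asIdeal.IsMaximal := v.isMaximal
  have : NoZeroSMulDivisors (𝓞 F) (𝓞 L) := ⟨fun {c x} h => by
    rw [Algebra.smul_def, mul_eq_zero] at h
    rcases h with h | h
    · exact Or.inl ((map_eq_zero_iff _ (RingOfIntegers.algebraMap.injective F L)).mp h)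
    · exact Or.inr h⟩
  refine le_trans ?_ (Ideal.card_primesOverFinset_le_finrank (𝓞 L) F L v.ne_bot)
  refine Finset.card_le_card_of_injOn (fun w => w.asIdeal) ?_ ?_
  · intro w hw
    rw [Finset.mem_coe, IsDedekindDomain.mem_primesOverFinset_iff v.ne_bot]
    refine ⟨w.isPrime, ?_⟩
    have := hA w hw
    rw [← this]
    exact Ideal.over_under w.asIdeal
  · intro w _ w' _ h
    exact HeightOneSpectrum.ext h

lemma primeTerm_nonneg' (K : Type) [Field K] [NumberField K] (s : ℝ)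
    (v : HeightOneSpectrum (𝓞 K)) : 0 ≤ primeTerm K s v := by
  rw [primeTerm]; positivity

lemma primeTerm_le_one (K : Type) [Field K] [NumberField K] {s : ℝ} (hs : 0 ≤ s)
    (v : HeightOneSpectrum (𝓞 K)) : primeTerm K s v ≤ 1 := by
  rw [primeTerm]
  refine Real.rpow_le_one_of_one_le_of_nonpos ?_ (by linarith)
  have : absNorm v.asIdeal ≠ 0 := by
    rw [Ne, Ideal.absNorm_eq_zero_iff]; exact v.ne_bot
  exact_mod_cast Nat.one_le_iff_ne_zero.mpr this

/-- Transfer of the prime sums from `L` to `F`. -/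
lemma tsum_le_finrank_mul (U : Subgroup (ClassGroup (𝓞 F)))
    (D : Set (HeightOneSpectrum (𝓞 L)))
    (hD : ∀ w ∈ D, (absNorm w.asIdeal).Prime ∧ primeClass F (underSpec F L w) ∈ U)
    (s : ℝ) (hsF : Summable (primeTerm F s)) (hsL : Summable (primeTerm L s)) :
    ∑' w : D, primeTerm L s w
      ≤ (Module.finrank F L : ℝ) * ∑' v : {v // primeClass F v ∈ U}, primeTerm F s v := by
  classical
  have hsD : Summable (fun w : D => primeTerm L s w) := hsL.subtype D
  have hsU : Summable (fun v : {v // primeClass F v ∈ U} => primeTerm F s v) :=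
    hsF.subtype _
  refine hsD.tsum_le_of_sum_le fun A => ?_
  let φ : D → {v // primeClass F v ∈ U} := fun w => ⟨underSpec F L w, (hD w w.2).2⟩
  have h1 : ∑ w ∈ A, primeTerm L s w = ∑ w ∈ A, primeTerm F s (φ w) := by
    refine Finset.sum_congr rfl fun w _ => ?_
    exact (primeTerm_underSpec F L s w (hD w w.2).1).symm
  rw [h1, Finset.sum_comp (fun v : {v // primeClass F v ∈ U} => primeTerm F s v) φ]
  have h2 : ∀ v ∈ A.image φ, ({w ∈ A | φ w = v}.card : ℕ) • primeTerm F s v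
      ≤ (Module.finrank F L : ℝ) * primeTerm F s v := by
    intro v _
    rw [nsmul_eq_mul]
    refine mul_le_mul_of_nonneg_right ?_ (primeTerm_nonneg' F s v)
    have hc : ({w ∈ A | φ w = v}.map ⟨Subtype.val, Subtype.val_injective⟩).card
        ≤ Module.finrank F L := by
      refine card_fiber_le F L v.1 _ ?_
      intro w hw
      rw [Finset.mem_map] at hw
      obtain ⟨w', hw', rfl⟩ := hw
      rw [Finset.mem_filter] at hw'
      exact congrArg Subtype.val hw'.2
    rw [Finset.card_map] at hc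
    exact_mod_cast hc
  refine (Finset.sum_le_sum h2).trans ?_
  rw [← Finset.mul_sum]
  refine mul_le_mul_of_nonneg_left ?_ (Nat.cast_nonneg _)
  exact hsU.sum_le_tsum _ fun v _ => primeTerm_nonneg' F s v

lemma finite_absNorm_mem (T : Finset ℕ) :
    {w : HeightOneSpectrum (𝓞 L) | absNorm w.asIdeal ∈ T}.Finite := by
  have hfin : (⋃ t ∈ T, {I : Ideal (𝓞 L) | absNorm I = t}).Finite :=
    Set.Finite.biUnion T.finite_toSet (fun t _ => Ideal.finite_setOfPred_absNorm_eq t)
  refine Set.Finite.of_finite_image (f := fun w : HeightOneSpectrum (𝓞 L) => w.asIdeal)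
    (hfin.subset ?_) ?_
  · rintro _ ⟨w, hw, rfl⟩
    simp only [Set.mem_iUnion, Set.mem_setOf_eq, exists_prop]
    exact ⟨_, hw, rfl⟩
  · intro w _ w' _ h
    exact HeightOneSpectrum.ext h

lemma cls_under_eq (w : HeightOneSpectrum (𝓞 L)) :
    cls (w.asIdeal.under (𝓞 F)) = primeClass F (underSpec F L w) := by
  have h : w.asIdeal.under (𝓞 F) ≠ ⊥ := (underSpec F L w).ne_bot
  rw [cls, dif_neg h]
  rfl

open Filter Topology in
/-- The lower bound needed by `index_le_of_bounds`. -/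
lemma lower_bound (hsF : StmtSummablePrimeTerm F) (hsL : StmtSummablePrimeTerm L)
    (hgeL : StmtPrimeSumGe L) (hnpL : StmtNotPrimeNormLe L)
    (U : Subgroup (ClassGroup (𝓞 F))) (T : Finset ℕ)
    (hU : ∀ Q : Ideal (𝓞 L), Q.IsPrime → (Ideal.absNorm Q).Prime → Ideal.absNorm Q ∉ T →
      cls (Q.under (𝓞 F)) ∈ U) :
    ∃ C : ℝ, ∀ᶠ s in 𝓝[>] (1 : ℝ), Real.log (1 / (s - 1)) - C
      ≤ (Module.finrank F L : ℝ) * ∑' v : {v // primeClass F v ∈ U}, primeTerm F s v := by
  classical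
  obtain ⟨C1, hC1⟩ := hgeL
  obtain ⟨C2, hC2⟩ := hnpL
  set BT : Set (HeightOneSpectrum (𝓞 L)) := {w | absNorm w.asIdeal ∈ T} with hBT
  set NP : Set (HeightOneSpectrum (𝓞 L)) := {w | ¬ (absNorm w.asIdeal).Prime} with hNP
  set D : Set (HeightOneSpectrum (𝓞 L)) :=
    {w | (absNorm w.asIdeal).Prime ∧ absNorm w.asIdeal ∉ T} with hD
  have hBTfin : BT.Finite := finite_absNorm_mem L T
  refine ⟨C1 + C2 + BT.ncard, ?_⟩
  filter_upwards [hC1, self_mem_nhdsWithin] with s hs hs1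
  have hs1' : (1 : ℝ) < s := hs1
  have hSL := hsL s hs1'
  have hSF := hsF s hs1'
  have hsplit := hSL.tsum_subtype_add_tsum_subtype_compl D
  -- the complement of `D`
  have hcompl : ∑' w : (Dᶜ : Set _), primeTerm L s w
      ≤ ∑' w : NP, primeTerm L s w + ∑' w : BT, primeTerm L s w := by
    rw [tsum_subtype (Dᶜ) (primeTerm L s), tsum_subtype NP (primeTerm L s),
      tsum_subtype BT (primeTerm L s), ← (hSL.indicator NP).tsum_add (hSL.indicator BT)]
    refine (hSL.indicator _).tsum_le_tsum (fun w => ?_)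
      ((hSL.indicator NP).add (hSL.indicator BT))
    by_cases hw : w ∈ Dᶜ
    · rw [Set.indicator_of_mem hw]
      by_cases hw1 : w ∈ NP
      · rw [Set.indicator_of_mem hw1]
        have := Set.indicator_nonneg (s := BT) (f := primeTerm L s)
          (fun w _ => primeTerm_nonneg' L s w) w
        linarith
      · have hw2 : w ∈ BT := by
          by_contra hw2
          exact hw ⟨not_not.mp hw1, hw2⟩
        rw [Set.indicator_of_mem hw2]
        have := Set.indicator_nonneg (s := NP) (f := primeTerm L s)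
          (fun w _ => primeTerm_nonneg' L s w) w
        linarith
    · rw [Set.indicator_of_notMem hw]
      exact add_nonneg
        (Set.indicator_nonneg (fun w _ => primeTerm_nonneg' L s w) w)
        (Set.indicator_nonneg (fun w _ => primeTerm_nonneg' L s w) w)
  have hNPle : ∑' w : NP, primeTerm L s w ≤ C2 := hC2 s hs1'
  have hBTle : ∑' w : BT, primeTerm L s w ≤ BT.ncard :=
    NumberField.Set.primeIdealZetaSum_le_card_of_finite hBTfin (by linarith)
  have hDle := tsum_le_finrank_mul F L U D (fun w hw =>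
    ⟨hw.1, by
      rw [← cls_under_eq]
      exact hU w.asIdeal w.isPrime hw.1 hw.2⟩) s hSF hSL
  linarith

end Under

section Main

open Filter Topology

variable (F L : Type) [Field F] [NumberField F] [Field L] [NumberField L] [Algebra F L]

/-- **T2** for a fixed pair `F ⊆ L`, from the prime-sum statements (package B2). -/
theorem T2_of_primeSums
    (hsF : StmtSummablePrimeTerm F) (hleF : StmtPrimeSumLe F)
    (hchF : ∀ χ : ClassGroup (𝓞 F) →* ℂˣ, χ ≠ 1 → ∃ C : ℝ, ∀ s : ℝ, 1 < s → s ≤ 2 →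
        (∑' v, ((χ (primeClass F v) : ℂˣ) : ℂ) * ((primeTerm F s v : ℝ) : ℂ)).re ≤ C)
    (hsL : StmtSummablePrimeTerm L) (hgeL : StmtPrimeSumGe L) (hnpL : StmtNotPrimeNormLe L)
    (U : Subgroup (ClassGroup (𝓞 F))) (T : Finset ℕ)
    (hU : ∀ Q : Ideal (𝓞 L), Q.IsPrime → (Ideal.absNorm Q).Prime → Ideal.absNorm Q ∉ T →
      cls (Q.under (𝓞 F)) ∈ U) :
    U.index ≤ Module.finrank F L := by
  refine index_le_of_bounds U (primeClass F) (fun v s => primeTerm F s v)
    (fun v s => primeTerm_nonneg' F s v) hsF hleF hchF (Module.finrank F L) ?_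
  exact lower_bound F L hsF hsL hgeL hnpL U T hU

/-- **T2** (`Stmt_T2`) from packages B1 (counting bound) and B2 (prime sums). -/
theorem stmt_T2_of_B1_B2
    (hB1 : ∀ (K : Type) [Field K] [NumberField K], ∃ κ δ A : ℝ, 0 < δ ∧ CountingBound K κ δ A)
    (hsum : ∀ (K : Type) [Field K] [NumberField K], StmtSummablePrimeTerm K)
    (hge : ∀ (K : Type) [Field K] [NumberField K], StmtPrimeSumGe K)
    (hle : ∀ (K : Type) [Field K] [NumberField K], StmtPrimeSumLe K)
    (hnp : ∀ (K : Type) [Field K] [NumberField K], StmtNotPrimeNormLe K)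
    (hch : ∀ (K : Type) [Field K] [NumberField K], StmtCharPrimeSumLe K) :
    Stmt_T2 := by
  intro F L _ _ _ _ _ U T hU
  obtain ⟨κ, δ, A, hδ, hcb⟩ := hB1 F
  exact T2_of_primeSums F L (hsum F) (hle F) (hch F κ δ A hδ hcb) (hsum L) (hge L) (hnp L) U T hU

end Main

end Fermat.Agent.S14.H66

end
-- ==== END Fermat.Agent.S14.H66_T2

-- ==== BEGIN Fermat.Agent.S48.B.Defs
section

/-!
# S48, mountain B (`Stmt_ResRep`): interfaces (helper43)

Plan: `NOTES/plan/W_S48_B.md`.

`Stmt_ResRep` ⟸ `Stmt_EisLift` + `Stmt_TatePieceH` + `Stmt_SmallPieceL` + `Stmt_DirCharL`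
(+ Chebotarev, proved): `B.H43.resRep_of` (`S48/B/H43_Wiring.lean`).

* `IsEigenvec2 M χ G b` : `G ≠ 0` is a weight two cusp form on `Γ₁(M)` whose `q`-coefficients
  satisfy `a_{pn} + χ(p) p a_{n/p} = b_p a_n` for all primes `p ∤ M` (an eigenvector of the `T_p`
  with nebentypus `χ`; NOT normalised: `a_1` may vanish);
* `Stmt_EisLift`     (B1) Deligne–Serre §6: `f · E_{1,ω⁻¹}` and the lifting lemma 6.11: for large `ℓ`
                     a weight two eigenvector of level `N ℓ` congruent to `f` under `φ`;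
* `Stmt_TatePieceH`  (B2, the geometry of `X₁(M)`): a weight two eigenvector with character has a
                     nonzero Eichler–Shimura piece mod `ℓ`;
* `Stmt_SmallPieceL` (B3, linear algebra in characteristic `≠ 2`): cut out dimension two;
* `Stmt_DirCharL`    (B4) the Galois character of a Dirichlet character, reduced by `φ`.
-/

set_option autoImplicit false

open CongruenceSubgroup
open scoped MatrixGroups

namespace Fermat.Agent.S48.B

local notation "Γℚ" => (AlgebraicClosure ℚ ≃ₐ[ℚ] AlgebraicClosure ℚ)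

/-- `G ≠ 0` is an eigenvector of the Hecke operators `T_p`, `p ∤ M`, with eigenvalues `b p` and
nebentypus `χ`, in terms of `q`-coefficients (weight two). -/
structure IsEigenvec2 (M : ℕ) [NeZero M] (χ : DirichletCharacter ℂ M)
    (G : CuspForm (Gamma1 M) 2) (b : ℕ → ℂ) : Prop where
  ne_zero : G ≠ 0
  hecke : ∀ p : ℕ, p.Prime → ¬ p ∣ M → ∀ n : ℕ,
    ModularFormClass.qCoeff G (p * n) +
        χ (p : ZMod M) * (p : ℂ) * (if p ∣ n then ModularFormClass.qCoeff G (n / p) else 0) =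
      b p * ModularFormClass.qCoeff G n

/-- **(B1) EisLift** (Deligne–Serre §6): for all large `ℓ` and every residue map `φ` there is a
weight two eigenvector `G` of level `N ℓ` with a character `χ`, whose eigenvalues `b_p` and
`χ(p) p` are algebraic integers congruent to `a_p(f)` and `ε(p)` under `φ`. -/
def Stmt_EisLift : Prop :=
  ∀ (N : ℕ) [NeZero N] (ε : DirichletCharacter ℂ N) (f : CuspForm (Gamma1 N) 1),
    IsDSForm N ε f →
      ∃ ℓ₀ : ℕ, ∀ (ℓ : ℕ) [NeZero (N * ℓ)], ℓ.Prime → ℓ₀ ≤ ℓ →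
        ∀ (k : Type) [Field k] [CharP k ℓ] [IsAlgClosed k] (φ : integralClosure ℤ ℂ →+* k),
          ∃ (χ : DirichletCharacter ℂ (N * ℓ)) (G : CuspForm (Gamma1 (N * ℓ)) 2) (b : ℕ → ℂ),
            IsEigenvec2 (N * ℓ) χ G b ∧
            ∀ p : ℕ, p.Prime → ¬ p ∣ N * ℓ →
              ∃ β c : integralClosure ℤ ℂ, (β : ℂ) = b p ∧
                (c : ℂ) = χ (p : ZMod (N * ℓ)) * (p : ℂ) ∧
                (∀ a : integralClosure ℤ ℂ, (a : ℂ) = ModularFormClass.qCoeff f p → φ β = φ a) ∧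
                (∀ e : integralClosure ℤ ℂ, (e : ℂ) = ε (p : ZMod N) → φ c = φ e)

/-- **(B2) TatePieceH** (Eichler–Shimura for `X₁(M)`, mod `ℓ`): a weight two eigenvector with
character `χ` on `Γ₁(M)` has, for every prime `ℓ` and every residue map `φ`, a nonzero
representation of finite level over `k`, unramified outside `M ℓ`, on which every Frobenius
element `F` at `p ∤ M ℓ` satisfies `F² - φ(b_p) F + φ(χ(p) p) = 0`. -/
def Stmt_TatePieceH : Prop :=
  ∀ (M : ℕ) [NeZero M] (χ : DirichletCharacter ℂ M) (G : CuspForm (Gamma1 M) 2) (b : ℕ → ℂ),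
    IsEigenvec2 M χ G b →
      ∀ ℓ : ℕ, ℓ.Prime →
        ∀ (k : Type) [Field k] [CharP k ℓ] [IsAlgClosed k] (φ : integralClosure ℤ ℂ →+* k),
          ∃ (r : ℕ) (ρ : Γℚ →* GL (Fin r) k), 0 < r ∧ GaloisFactorsThroughFiniteLevel ρ ∧
            ∀ p : ℕ, p.Prime → ¬ p ∣ M * ℓ →
              ∀ A : ValuationSubring (AlgebraicClosure ℚ), A.LiesOverPrime p →
                (∀ σ ∈ A.inertiaSubgroupIn ℚ, ρ σ = 1) ∧
                ∀ σ : Γℚ, A.IsFrobeniusAt σ p → ∀ β c : integralClosure ℤ ℂ,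
                  (β : ℂ) = b p → (c : ℂ) = χ (p : ZMod M) * (p : ℂ) →
                    ((ρ σ : GL (Fin r) k) : Matrix (Fin r) (Fin r) k) *
                        ((ρ σ : GL (Fin r) k) : Matrix (Fin r) (Fin r) k) -
                      φ β • ((ρ σ : GL (Fin r) k) : Matrix (Fin r) (Fin r) k) +
                      φ c • (1 : Matrix (Fin r) (Fin r) k) = 0

/-- **(B3) SmallPieceL**: over an algebraically closed field in which `2 ≠ 0`, a representation
all of whose elements satisfy a monic quadratic with constant term a character `θ` contains (up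
to semisimplification) a two-dimensional representation with these quadratics as characteristic
polynomials. -/
def Stmt_SmallPieceL : Prop :=
  ∀ (k : Type) [Field k] [IsAlgClosed k], (2 : k) ≠ 0 →
    ∀ (Γ : Type) [Group Γ] (r : ℕ), 0 < r →
      ∀ (ρ : Γ →* GL (Fin r) k) (θ : Γ →* kˣ) (a : Γ → k),
        (∀ g : Γ, ((ρ g : GL (Fin r) k) : Matrix (Fin r) (Fin r) k) *
            ((ρ g : GL (Fin r) k) : Matrix (Fin r) (Fin r) k) -
          a g • ((ρ g : GL (Fin r) k) : Matrix (Fin r) (Fin r) k) +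
          ((θ g : kˣ) : k) • (1 : Matrix (Fin r) (Fin r) k) = 0) →
        ∃ ρ₂ : Γ →* GL (Fin 2) k, (∀ g : Γ, ρ g = 1 → θ g = 1 → ρ₂ g = 1) ∧
          ∀ g : Γ, ((ρ₂ g : GL (Fin 2) k) : Matrix (Fin 2) (Fin 2) k).trace = a g ∧
            ((ρ₂ g : GL (Fin 2) k) : Matrix (Fin 2) (Fin 2) k).det = ((θ g : kˣ) : k)

/-- **(B4) DirCharL**: the Galois character attached to a Dirichlet character `ε` mod `N`,
reduced by `φ`: of finite level, unramified outside `N`, `θ(Frob_p) = φ(ε(p))`. -/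
def Stmt_DirCharL : Prop :=
  ∀ (N : ℕ) [NeZero N] (ε : DirichletCharacter ℂ N) (k : Type) [Field k]
    (φ : integralClosure ℤ ℂ →+* k),
    ∃ θ : Γℚ →* kˣ, GaloisFactorsThroughFiniteLevel θ ∧
      ∀ p : ℕ, p.Prime → ¬ p ∣ N →
        ∀ A : ValuationSubring (AlgebraicClosure ℚ), A.LiesOverPrime p →
          (∀ σ ∈ A.inertiaSubgroupIn ℚ, θ σ = 1) ∧
          ∀ σ : Γℚ, A.IsFrobeniusAt σ p → ∀ e : integralClosure ℤ ℂ,
            (e : ℂ) = ε (p : ZMod N) → ((θ σ : kˣ) : k) = φ e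

end Fermat.Agent.S48.B

end
-- ==== END Fermat.Agent.S48.B.Defs
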