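-- GENERATED (merged mirror, NOTES/tools/trim/merge3_helper67.py): 1 modules of the originals, bodies verbatim.
import Fermat.Agent.Zm.S35_L08_004
import Fermat.Agent.Zm.S35_L07_003
import Fermat.Agent.Zm.S35_L07_002

-- ==== BEGIN Fermat.Agent.RED.H76_RHFinal
section

/-!
# RH-R (helper76): the Riemann genus satisfies the Hurwitz formula

`stmt_RHR_of : Stmt_basisTransfer → Stmt_discrScale → Stmt_discrExact → Stmt_RHR`.

With the reduced basis `ω` (`exists_redBasis`, `∑ d_i = g + n - 1`), the bases `c` of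
`B / K[x]`, `c'` of `B' / K[x⁻¹]` (`c'_i = x^{-d_i} c_i`), `disc c = p(x)`,
`disc c' = p'(x⁻¹) = x^{-2 ∑ d_i} p(x)`:
`deg p + ord_0 p' = 2 ∑ d_i`, `deg p = ∑_a (n - r_a)`, `ord_0 p' = n - r_∞`.
-/

set_option autoImplicit false
set_option linter.style.haveILetI false

noncomputable section

open AlgebraicCurve WithZero Polynomial IntermediateField
open scoped IntermediateField.algebraAdjoinAdjoin

namespace Fermat.Agent.RED.H76

open Fermat.Agent.RED.H42

local notation "L" => riemannRochSpace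

section Poly

variable {K F : Type*} [Field K] [Field F] [Algebra K F]

theorem aeval_inv_eq_reverse (x : F) (hx0 : x ≠ 0) (q : K[X]) :
    aeval x⁻¹ q = aeval x q.reverse * x⁻¹ ^ q.natDegree := by
  letI : Invertible x⁻¹ := invertibleOfNonzero (inv_ne_zero hx0)
  have h := eval₂_reverse_mul_pow (algebraMap K F) x⁻¹ q
  rw [invOf_eq_inv, inv_inv] at h
  rw [aeval_def, aeval_def, h]

/-- If `p'(x⁻¹) = x^{-N} p(x)` then `deg p + ord_0 p' = N`. -/
theorem natDegree_add_rootMultiplicity {x : F} (hx : Transcendental K x) {p p' : K[X]}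
    (hp : p ≠ 0) (N : ℕ) (h : aeval x⁻¹ p' = x⁻¹ ^ N * aeval x p) :
    p.natDegree + p'.rootMultiplicity 0 = N := by
  have hx0 : x ≠ 0 := by
    rintro rfl
    exact hx (isAlgebraic_zero)
  have hinj : Function.Injective (aeval (R := K) x) := transcendental_iff_injective.mp hx
  have hp'0 : p' ≠ 0 := by
    rintro rfl
    rw [map_zero] at h
    have h1 : aeval x p = 0 := by
      rcases mul_eq_zero.mp h.symm with h2 | h2
      · exact absurd h2 (pow_ne_zero _ (inv_ne_zero hx0))
      · exact h2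
    exact hp (hinj (by rw [h1, map_zero]))
  obtain ⟨q, hq, hXq⟩ := exists_eq_pow_rootMultiplicity_mul_and_not_dvd p' hp'0 0
  set μ := p'.rootMultiplicity 0 with hμ
  rw [C_0, sub_zero] at hq hXq
  have hq0 : q ≠ 0 := by
    rintro rfl
    rw [mul_zero] at hq
    exact hp'0 hq
  have hqc : q.coeff 0 ≠ 0 := fun h0 => hXq (X_dvd_iff.mpr h0)
  have hrev : q.reverse.natDegree = q.natDegree := by
    rw [reverse_natDegree, natTrailingDegree_eq_zero.mpr (Or.inr hqc), Nat.sub_zero]
  have hrev0 : q.reverse ≠ 0 := by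
    intro h0
    exact hq0 (reverse_eq_zero.mp h0)
  have e1 : aeval x⁻¹ p' = x⁻¹ ^ μ * (aeval x q.reverse * x⁻¹ ^ q.natDegree) := by
    rw [hq, map_mul, map_pow, aeval_X, aeval_inv_eq_reverse x hx0 q]
  have e2 : aeval x (X ^ N * q.reverse) = aeval x (X ^ (μ + q.natDegree) * p) := by
    rw [map_mul, map_mul, map_pow, map_pow, aeval_X]
    have h3 : x⁻¹ ^ μ * (aeval x q.reverse * x⁻¹ ^ q.natDegree) = x⁻¹ ^ N * aeval x p := by
      rw [← e1, h]
    have hxN : x ^ N * x⁻¹ ^ N = 1 := by
      rw [← mul_pow, mul_inv_cancel₀ hx0, one_pow]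
    have hxμ : x ^ (μ + q.natDegree) * (x⁻¹ ^ μ * x⁻¹ ^ q.natDegree) = 1 := by
      rw [← pow_add, ← mul_pow, mul_inv_cancel₀ hx0, one_pow]
    calc x ^ N * aeval x q.reverse
        = x ^ N * (x ^ (μ + q.natDegree) * (x⁻¹ ^ μ * x⁻¹ ^ q.natDegree))
            * aeval x q.reverse := by rw [hxμ, mul_one]
      _ = x ^ N * x ^ (μ + q.natDegree)
            * (x⁻¹ ^ μ * (aeval x q.reverse * x⁻¹ ^ q.natDegree)) := by ring
      _ = x ^ N * x ^ (μ + q.natDegree) * (x⁻¹ ^ N * aeval x p) := by rw [h3]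
      _ = (x ^ N * x⁻¹ ^ N) * (x ^ (μ + q.natDegree) * aeval x p) := by ring
      _ = x ^ (μ + q.natDegree) * aeval x p := by rw [hxN, one_mul]
  have e3 := hinj e2
  have e4 := congrArg natDegree e3
  rw [natDegree_mul (pow_ne_zero _ X_ne_zero) hrev0, natDegree_mul (pow_ne_zero _ X_ne_zero) hp,
    natDegree_X_pow, natDegree_X_pow, hrev] at e4
  omega

theorem exists_aeval_eq (x : F) (a : ↥(Algebra.adjoin K {x})) :
    ∃ p : K[X], aeval x p = (a : F) := by
  obtain ⟨a, ha⟩ := a
  rw [Algebra.adjoin_singleton_eq_range_aeval] at ha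
  exact ha

theorem natDegree_eq_sum_rootMultiplicity [IsAlgClosed K] [DecidableEq K] {p : K[X]}
    (S : Finset K) (hS : ∀ a, a ∉ S → p.rootMultiplicity a = 0) :
    p.natDegree = ∑ a ∈ S, p.rootMultiplicity a := by
  have h1 : p.natDegree = Multiset.card p.roots :=
    (splits_iff_card_roots.mp (IsAlgClosed.splits p)).symm
  rw [h1, ← Multiset.toFinset_sum_count_eq]
  have hsub : p.roots.toFinset ⊆ S := by
    intro a ha
    by_contra hnot
    have h2 := hS a hnot
    rw [Multiset.mem_toFinset] at ha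
    rw [← count_roots] at h2
    exact absurd (Multiset.count_pos.mpr ha) (by omega)
  rw [← Finset.sum_subset hsub]
  · exact Finset.sum_congr rfl fun a _ => count_roots p
  · intro a _ ha
    rw [← count_roots]
    exact Multiset.count_eq_zero.mpr (fun h => ha (Multiset.mem_toFinset.mpr h))

end Poly

section PoleDiv

variable {K F : Type*} [Field K] [Field F] [Algebra K F]

/-- The pole divisor of a nonzero function exists. -/
theorem exists_isPoleDiv (H : Hyp K F) {x : F} (hx0 : x ≠ 0) :
    ∃ P : Divisor K F, IsPoleDiv P x := by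
  obtain ⟨D, hD, -⟩ := H.principal x hx0
  refine ⟨D.mapRange (fun k : ℤ => max 0 (-k)) (by simp), ?_⟩
  intro v
  rw [Finsupp.mapRange_apply, hD v, v.adicValuation_eq_exp_neg_ord hx0]
  rcases le_total 0 (-v.ord x) with h | h
  · rw [max_eq_right h, max_eq_right]
    rw [← exp_zero, exp_le_exp]; exact h
  · rw [max_eq_left h, max_eq_left, exp_zero]
    rw [← exp_zero, exp_le_exp]; exact h

end PoleDiv

section Rank

variable {K F : Type} [Field K] [Field F] [Algebra K F]

/-- The number of elements of an integral basis is `[F : K(x)]`. -/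
theorem finrank_eq_of_basis [CharZero K] (x : F) [FiniteDimensional K⟮x⟯ F] (r : ℕ)
    (c : Module.Basis (Fin r) ↥(Algebra.adjoin K {x})
      ↥(integralClosure ↥(Algebra.adjoin K {x}) F)) :
    Module.finrank K⟮x⟯ F = r := by
  haveI hcz : CharZero ↥K⟮x⟯ := charZero_of_injective_algebraMap (algebraMap K ↥K⟮x⟯).injective
  haveI hsep : Algebra.IsSeparable ↥K⟮x⟯ F := inferInstance
  haveI : IsLocalization (Algebra.algebraMapSubmonoid
      ↥(integralClosure ↥(Algebra.adjoin K {x}) F) (nonZeroDivisors ↥(Algebra.adjoin K {x}))) F :=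
    IsIntegralClosure.isLocalization ↥(Algebra.adjoin K {x}) ↥K⟮x⟯ F
      ↥(integralClosure ↥(Algebra.adjoin K {x}) F)
  have b := Module.Basis.localizationLocalization ↥K⟮x⟯
    (nonZeroDivisors ↥(Algebra.adjoin K {x})) F c
  rw [Module.finrank_eq_card_basis b, Fintype.card_fin]

end Rank

/-- **RH-R** from the three interface statements. -/
theorem stmt_RHR_of (hBT : Stmt_basisTransfer) (hDS : Stmt_discrScale)
    (hDE : Stmt_discrExact) : Stmt_RHR := by
  classical
  intro K F _ _ _ _ _ g c hG x hx hfin S r hr hS rinf hrinf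
  haveI := hfin
  have hx0 : x ≠ 0 := by
    rintro rfl
    exact hx isAlgebraic_zero
  have H : Hyp K F := hyp_of_zeros (zerosAll K F ⟨x, hx, hfin⟩) hx
  obtain ⟨P, hP⟩ := exists_isPoleDiv H hx0
  obtain ⟨n, ω, d, hmem, hind, hspan, hred, -, hsum⟩ :=
    exists_redBasis H hP hx g c (fun D hD => (hG D).2 hD)
  obtain ⟨b, b', hb, hb'⟩ := hBT K F x hx hfin P hP n ω d hmem hind hspan hred
  -- the transcendental `x⁻¹`
  have hxi : Transcendental K x⁻¹ := by
    intro h
    exact hx (by simpa using h.inv)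
  have hfini : FiniteDimensional K⟮x⁻¹⟯ F := by
    have e : K⟮x⁻¹⟯ = K⟮x⟯ := by
      apply le_antisymm
      · rw [adjoin_simple_le_iff]
        exact inv_mem (mem_adjoin_simple_self K x)
      · rw [adjoin_simple_le_iff]
        have := inv_mem (mem_adjoin_simple_self K x⁻¹)
        rwa [inv_inv] at this
    rw [e]
    exact hfin
  have hnfin : Module.finrank K⟮x⟯ F = n := finrank_eq_of_basis x n b
  -- the discriminants as polynomials
  obtain ⟨p, hp⟩ : ∃ p : K[X], aeval x p
      = ((Algebra.discr ↥(Algebra.adjoin K {x}) b : ↥(Algebra.adjoin K {x})) : F) :=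
    _root_.Fermat.Agent.RED.H76.exists_aeval_eq x _
  obtain ⟨p', hp'⟩ : ∃ p' : K[X], aeval x⁻¹ p'
      = ((Algebra.discr ↥(Algebra.adjoin K {x⁻¹}) b' : ↥(Algebra.adjoin K {x⁻¹})) : F) :=
    _root_.Fermat.Agent.RED.H76.exists_aeval_eq x⁻¹ _
  have hE := hDE K F x hx hfin n b p hp
  have hE' := hDE K F x⁻¹ hxi hfini n b' p' hp' 0
  have hscale := hDS K F x hx hfin n b b' d (fun i => by rw [hb' i, hb i])
  rw [← hp, ← hp'] at hscale
  -- `p ≠ 0`
  have hp0 : p ≠ 0 := by
    rintro rfl
    have h1 := hE 0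
    rw [rootMultiplicity_zero, zero_add] at h1
    -- all fibres have `n` points, in particular `p' = 0` as well; use the scaling identity
    have hS0 : ∀ a, Nat.card {v : Place K F // 0 < v.ord (x - algebraMap K F a)} = n := by
      intro a
      have := hE a
      rwa [rootMultiplicity_zero, zero_add] at this
    -- the discriminant of an integral basis is nonzero
    haveI hcz : CharZero ↥K⟮x⟯ :=
      charZero_of_injective_algebraMap (algebraMap K ↥K⟮x⟯).injective
    haveI hsep : Algebra.IsSeparable ↥K⟮x⟯ F := inferInstance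
    haveI : IsLocalization (Algebra.algebraMapSubmonoid
        ↥(integralClosure ↥(Algebra.adjoin K {x}) F)
        (nonZeroDivisors ↥(Algebra.adjoin K {x}))) F :=
      IsIntegralClosure.isLocalization ↥(Algebra.adjoin K {x}) ↥K⟮x⟯ F
        ↥(integralClosure ↥(Algebra.adjoin K {x}) F)
    have h2 := Algebra.discr_localizationLocalization ↥(Algebra.adjoin K {x})
      (Rₘ := ↥K⟮x⟯) (nonZeroDivisors ↥(Algebra.adjoin K {x})) F b
    have h3 := Algebra.discr_not_zero_of_basis ↥K⟮x⟯
      (Module.Basis.localizationLocalization ↥K⟮x⟯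
        (nonZeroDivisors ↥(Algebra.adjoin K {x})) F b)
    apply h3
    rw [h2]
    have h4 : Algebra.discr ↥(Algebra.adjoin K {x}) b = 0 := by
      apply Subtype.ext
      rw [← hp, map_zero]
      rfl
    rw [h4, map_zero]
  have hdeg := natDegree_add_rootMultiplicity hx hp0 (2 * ∑ i, d i) hscale
  -- the fibre counts
  have hroot : ∀ a, a ∉ S → p.rootMultiplicity a = 0 := by
    intro a ha
    have h1 := hE a
    rw [hS a ha, hnfin] at h1
    omega
  have hdegp := natDegree_eq_sum_rootMultiplicity (p := p) S hroot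
  have hinf : Nat.card {v : Place K F // 0 < v.ord (x⁻¹ - algebraMap K F 0)} = rinf := by
    rw [← hrinf]
    refine Nat.card_congr (Equiv.subtypeEquivRight fun v => ?_)
    rw [map_zero, sub_zero, v.ord_inv]
    omega
  rw [hinf] at hE'
  -- assemble
  have hsumS : ((∑ a ∈ S, p.rootMultiplicity a : ℕ) : ℤ)
      = ∑ a ∈ S, ((Module.finrank K⟮x⟯ F : ℤ) - r a) := by
    rw [Nat.cast_sum]
    refine Finset.sum_congr rfl fun a ha => ?_
    have h1 := hE a
    rw [hr a ha] at h1
    rw [hnfin]
    omega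
  rw [← hsumS, ← hdegp, hnfin]
  have h5 : ((∑ i, d i : ℕ) : ℤ) = g + n - 1 := by
    rw [Nat.cast_sum]; exact hsum
  omega

end Fermat.Agent.RED.H76

end
end
-- ==== END Fermat.Agent.RED.H76_RHFinal
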