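-- GENERATED (merged mirror, NOTES/tools/trim/merge3_helper67.py): 1 modules of the originals, bodies verbatim.
import Fermat.Agent.Zm.S35_L08_001
import Fermat.Agent.Zm.S35_L09_001
import Fermat.Agent.Zm.S35_L07_002
import Fermat.Agent.Zm.S35_L03_002

-- ==== BEGIN Fermat.Agent.RED.H17_LiftMove
section
attribute [local instance 10000] SubalgebraClass.toAlgebra
attribute [local instance 10000] HahnSeries.powerSeriesAlgebra

/-!
# G-RED packages LIFT and MOVE (helper17), and the unconditional form of TI-abs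

* `ffHyp_of_isFF`, `exists_isGenus` : FF-B and FF-R for a function field (unconditional, from
  helper42's and helper51's theorems);
* `stmt_LIFT : Stmt_LIFT`, `stmt_MOVE : Stmt_MOVE`;
* `ticoreFor_of_hasDR` : `HasDR O h → TIcoreFor O h ℓ` without hypotheses on function fields.
-/

set_option autoImplicit false
set_option linter.style.haveILetI false
set_option synthInstance.maxHeartbeats 400000
set_option maxHeartbeats 1000000

noncomputable section

open AlgebraicCurve ModularCurve Fermat.Agent.S28.H73 Fermat.Agent.RED.H73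

attribute [local instance] Classical.propDecidable

namespace Fermat.Agent.RED.H17

local notation "L" => riemannRochSpace

/-- FF-B and FF-R for a function field over an algebraically closed field. -/
theorem ffHyp_of_isFF (K F : Type) [Field K] [Field F] [Algebra K F] [IsAlgClosed K]
    (hFF : IsFF K F) : FFHyp K F :=
  ffHyp_of H42.stmt_FFB_principal H51.stmt_FFB_deg H42.stmt_FFR_finite H42.stmt_FFR_le K F hFF

/-- Riemann's theorem for a function field over an algebraically closed field. -/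
theorem exists_isGenus (K F : Type) [Field K] [Field F] [Algebra K F] [IsAlgClosed K]
    (hFF : IsFF K F) : ∃ (g : ℕ) (c : ℤ), IsGenus K F g c :=
  H42.stmt_FFR_riemann K F hFF

/-- **TI-abs**, unconditional form. -/
theorem ticoreFor_of_hasDR {C : Type} [Field C] [IsAlgClosed C] (O : ValuationSubring C)
    [IsAlgClosed (kV O)] {F : IntermediateField C (LaurentSeries C)} (h : HasScale O F)
    {ℓ : ℕ} (hℓ : ℓ.Prime) (hℓ0 : ((ℓ : ℕ) : kV O) = 0) (hFF : IsFF C ↥F) (hDR : HasDR O h) :
    TIcoreFor O h ℓ :=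
  stmt_TIabs H42.stmt_FFB_principal H51.stmt_FFB_deg H42.stmt_FFR_finite H42.stmt_FFR_le
    H42.stmt_FFR_riemann C O F h ℓ hℓ hℓ0 hFF hDR

namespace RedSetup

variable {K F k F' : Type*} [Field K] [Field F] [Algebra K F] [Field k] [Field F']
  [Algebra k F'] (S : RedSetup K F k F')

/-- The lifting property. -/
def HasLift' : Prop :=
  ∃ c : ℤ, ∀ D : Divisor K F, c ≤ Divisor.degree D →
    ∀ y : F', y ∈ L (Finsupp.mapDomain S.r D) → ∃ u : F, u ∈ S.V ∧ u ∈ L D ∧ S.rd u = y

theorem hasLift'_of_genusLE' (H : FFHyp K F) (H' : FFHyp k F') [Infinite k]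
    (hG : S.GenusLE') : S.HasLift' := by
  obtain ⟨c, hc⟩ := hG
  exact ⟨c, fun D hD y hy => S.exists_lift H H' (hc D hD) hy⟩

/-- **The moving lemma.** -/
theorem exists_move (H : FFHyp K F) (H' : FFHyp k F') [Infinite k] {g' : ℕ} {c' : ℤ}
    (hR' : IsGenus k F' g' c') (hL : S.HasLift') (P : Place K F) (T : Finset (Place k F')) :
    ∃ (n : ℕ) (f : F), 0 < n ∧ S.IsGU f ∧ P.ord f = -(n : ℤ) ∧
      ∀ P' : Place K F, P' ≠ P →
        0 ≤ P'.ord f ∧ (0 < P'.ord f → S.r P' ∉ T ∧ S.r P' ≠ S.r P) := by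
  have hP := H.principal
  obtain ⟨cL, hcL⟩ := hL
  set Q := S.r P with hQ
  set n : ℕ := (max (max c' cL) 0).toNat + 1 with hn
  have hn1 : c' ≤ (n : ℤ) - 1 := by rw [hn]; push_cast; omega
  have hn2 : cL ≤ (n : ℤ) := by rw [hn]; push_cast; omega
  have hn0 : 0 < n := by rw [hn]; omega
  -- a function with a pole of exact order `n` at `Q`
  set D' : Divisor k F' := Finsupp.single Q (n : ℤ) with hD'
  set D'' : Divisor k F' := Finsupp.single Q ((n : ℤ) - 1) with hD''
  have hdeg' : Divisor.degree D' = n := by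
    rw [hD', Divisor.degree_single, H'.deg_one, Nat.cast_one, mul_one]
  have hdeg'' : Divisor.degree D'' = (n : ℤ) - 1 := by
    rw [hD'', Divisor.degree_single, H'.deg_one, Nat.cast_one, mul_one]
  have hl' := (hR' D').2 (by rw [hdeg']; omega)
  have hl'' := (hR' D'').2 (by rw [hdeg'']; omega)
  rw [hdeg'] at hl'
  rw [hdeg''] at hl''
  have hle : L D'' ≤ L D' := L_mono' fun v => by
    rw [hD', hD'', Finsupp.single_apply, Finsupp.single_apply]
    split_ifs <;> omega
  have hne : ¬ (L D' ≤ L D'') := by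
    intro hle2
    have heq : L D' = L D'' := le_antisymm hle2 hle
    rw [heq] at hl'
    omega
  obtain ⟨y₁, hy₁, hy₁n⟩ := Set.not_subset.mp hne
  have hy₁0 : y₁ ≠ 0 := by
    rintro rfl
    exact hy₁n (L D'').zero_mem
  have hD'Q : D' Q = n := by rw [hD', Finsupp.single_eq_same]
  have hD'ne : ∀ Q', Q' ≠ Q → D' Q' = 0 := fun Q' hne' => by
    rw [hD', Finsupp.single_apply, if_neg (Ne.symm hne')]
  have hy₁reg : ∀ Q', Q' ≠ Q → 0 ≤ Q'.ord y₁ := by
    intro Q' hne'
    have := ord_ge_of_mem_L hy₁ hy₁0 Q'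
    rw [hD'ne Q' hne'] at this
    omega
  have hy₁Q : Q.ord y₁ = -(n : ℤ) := by
    have h1 := ord_ge_of_mem_L hy₁ hy₁0 Q
    rw [hD'Q] at h1
    by_contra hcon
    apply hy₁n
    show y₁ ∈ L D''
    rw [mem_L_iff_ord]
    intro Q'
    right
    rw [hD'', Finsupp.single_apply]
    split_ifs with hQQ'
    · rw [← hQQ']; omega
    · have := hy₁reg Q' (Ne.symm hQQ')
      omega
  -- the values of `y₁` on `T`
  have hvex : ∀ Q', ∃ v : k, Q' ≠ Q → VanAt Q' (y₁ - algebraMap k F' v) := by
    intro Q'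
    by_cases hQQ' : Q' = Q
    · exact ⟨0, fun h => absurd hQQ' h⟩
    · obtain ⟨v, hv⟩ := exists_value Q' (H'.deg_one Q') (regAt_of_ord_nonneg (hy₁reg Q' hQQ'))
      exact ⟨v, fun _ => hv⟩
  choose vals hvals using hvex
  obtain ⟨c, hc⟩ := Infinite.exists_notMem_finset (T.image fun Q' => -vals Q')
  set y : F' := y₁ + algebraMap k F' c with hy
  have hyL : y ∈ L D' := by
    refine (L D').add_mem hy₁ ?_
    rw [Algebra.algebraMap_eq_smul_one]
    refine (L D').smul_mem c (one_mem_L_of_nonneg fun v => ?_)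
    rw [hD', Finsupp.single_apply]
    split_ifs <;> omega
  have hyQ : Q.ord y = -(n : ℤ) := by
    rw [hy, ord_add_of_lt Q hy₁0, hy₁Q]
    by_cases hc0 : algebraMap k F' c = 0
    · exact Or.inl hc0
    · right
      rw [hy₁Q, ord_algebraMap]
      omega
  have hy0 : y ≠ 0 := by
    intro h0
    rw [h0, Place.ord_zero] at hyQ
    omega
  have hyT : ∀ Q' ∈ T, Q' ≠ Q → Q'.ord y = 0 := by
    intro Q' hQ'T hQQ'
    have hvc : vals Q' + c ≠ 0 := by
      intro h0
      apply hc
      rw [Finset.mem_image]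
      exact ⟨Q', hQ'T, by linear_combination -h0⟩
    have e : y = algebraMap k F' (vals Q' + c) + (y₁ - algebraMap k F' (vals Q')) := by
      rw [hy, map_add]; ring
    have hne0 : algebraMap k F' (vals Q' + c) ≠ 0 :=
      (map_ne_zero_iff _ (algebraMap k F').injective).mpr hvc
    rw [e, ord_add_of_lt Q' hne0, ord_algebraMap]
    by_cases h0 : y₁ - algebraMap k F' (vals Q') = 0
    · exact Or.inl h0
    · right
      rw [ord_algebraMap]
      exact (hvals Q' hQQ').ord_pos h0
  -- the lift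
  set D : Divisor K F := Finsupp.single P (n : ℤ) with hD
  have hrD : Finsupp.mapDomain S.r D = D' := by
    rw [hD, Finsupp.mapDomain_single]
  have hdegD : Divisor.degree D = n := by
    rw [hD, Divisor.degree_single, H.deg_one, Nat.cast_one, mul_one]
  obtain ⟨u, hu, huD, huy⟩ := hcL D (by rw [hdegD]; exact hn2) y (by rw [hrD]; exact hyL)
  have hGU : S.IsGU u := ⟨hu, by rw [huy]; exact hy0⟩
  have hDP : D P = n := by rw [hD, Finsupp.single_eq_same]
  have hDne : ∀ P', P' ≠ P → D P' = 0 := fun P' hne' => by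
    rw [hD, Finsupp.single_apply, if_neg (Ne.symm hne')]
  have hureg : ∀ P', P' ≠ P → 0 ≤ P'.ord u := by
    intro P' hne'
    have := ord_ge_of_mem_L huD hGU.ne_zero P'
    rw [hDne P' hne'] at this
    omega
  -- the divisor `div u + n P ≥ 0` has no point over `Q`
  set E : Divisor K F := dv hP u + D with hE
  have hEnn : ∀ P', 0 ≤ E P' := by
    intro P'
    have := ord_ge_of_mem_L huD hGU.ne_zero P'
    rw [hE, Finsupp.add_apply, dv_apply]
    omega
  have hrE : Finsupp.mapDomain S.r E Q = 0 := by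
    rw [hE, Finsupp.mapDomain_add, Finsupp.add_apply, S.mapDomain_dv hP hGU, hrD, huy, hyQ, hD'Q]
    omega
  have hEfib : ∀ P', S.r P' = Q → E P' = 0 := fun P' hP' => fibre_zero S.r hEnn hrE hP'
  have huP : P.ord u = -(n : ℤ) := by
    have := hEfib P rfl
    rw [hE, Finsupp.add_apply, dv_apply, hDP] at this
    omega
  refine ⟨n, u, hn0, hGU, huP, fun P' hne' => ⟨hureg P' hne', fun hpos => ?_⟩⟩
  have hrP' : S.r P' ≠ Q := by
    intro hP'Q
    have := hEfib P' hP'Q
    rw [hE, Finsupp.add_apply, dv_apply, hDne P' hne'] at this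
    omega
  refine ⟨fun hT => ?_, hrP'⟩
  have hreg : ∀ P'', S.r P'' = S.r P' → 0 ≤ P''.ord u := by
    intro P'' hP''
    apply hureg
    rintro rfl
    exact hrP' hP''.symm
  have := S.ord_eq_zero_of_ord_rd_eq_zero hP hGU (S.r P') hreg
    (by rw [huy]; exact hyT _ hT hrP') rfl
  omega

end RedSetup

/-- **Package LIFT.** (The hypothesis `FracScalable` is not used.) -/
theorem stmt_LIFT : Stmt_LIFT := by
  intro C _ _ O _ F h _ hFF hFF' r hr hG
  have H := ffHyp_of_isFF C ↥F hFF
  have H' := ffHyp_of_isFF (kV O) ↥(redField O F h) hFF'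
  obtain ⟨c, hc⟩ := (redSetupOf O h r hr).hasLift'_of_genusLE' H H' hG
  refine ⟨c, fun D hD y hy => ?_⟩
  obtain ⟨u, hu, huD, huy⟩ := hc D hD y hy
  refine ⟨⟨u, hu⟩, huD, ?_⟩
  rw [← huy, (redSetupOf O h r hr).rd_of_mem hu]
  rfl

/-- **Package MOVE.** -/
theorem stmt_MOVE : Stmt_MOVE := by
  intro C _ _ O _ F h hFF hFF' r hr hL P T
  have H := ffHyp_of_isFF C ↥F hFF
  have H' := ffHyp_of_isFF (kV O) ↥(redField O F h) hFF'
  obtain ⟨g', c', hR'⟩ := exists_isGenus (kV O) ↥(redField O F h) hFF'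
  set S := redSetupOf O h r hr with hS
  have hL' : S.HasLift' := by
    obtain ⟨c, hc⟩ := hL
    refine ⟨c, fun D hD y hy => ?_⟩
    obtain ⟨f, hfD, hfy⟩ := hc D hD y hy
    exact ⟨(f : ↥F), f.2, hfD, by rw [S.rd_of_mem f.2]; exact hfy⟩
  obtain ⟨n, f, hn, hGU, hfP, hf⟩ := S.exists_move H H' hR' hL' P T
  refine ⟨n, ⟨f, hGU.1⟩, hn, ?_, hfP, hf⟩
  exact (S.isGU_iff_isUnit hGU.1).mp hGU

end Fermat.Agent.RED.H17

end
end
-- ==== END Fermat.Agent.RED.H17_LiftMove
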