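-- GENERATED (merged mirror, NOTES/tools/trim/merge3_helper67.py): 9 modules of the originals, bodies verbatim.
import Mathlib
import Fermat.Agent.Zm.S35_L11_001
import Fermat.Agent.Zm.S35_L06_002
import Fermat.Agent.Zm.S35_L07_003
import Fermat.Agent.RED.Defs
import Fermat.Agent.Zm.S35_L07_002
import Fermat.Agent.RED.KD.H22_Place
import Fermat.Agent.Zm.S35_L09_002
import Fermat.Agent.Zm.S35_L08_001

-- ==== BEGIN Fermat.Agent.RED.ES.H95_HeckeNorm
section

/-!
# G-RED, package ES-2 (helper95): the norm along `β` in `q`-expansions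

`ℓ` prime, `ℓ ∤ N`, `K = F_N` acting on `F_{Nℓ}` through `β : g (q) ↦ g (q ^ ℓ)`.

* `finrank_beta` : `[F_{Nℓ} : β F_N] = ℓ + 1`;
* `norm_alpha_qExpand` : for `g ∈ F_N`,
  `(N_β (α g)) (q ^ ℓ) = g (q ^ (ℓ²)) * ∏_{b < ℓ} g (ζ ^ b q)` for a primitive `ℓ`-th root of
  unity `ζ`.
-/

set_option autoImplicit false

noncomputable section

namespace Fermat.Agent.RED.H95

open Fermat.Agent.S24 ModularCurve Matrix ModularGroup CongruenceSubgroup UpperHalfPlane
open scoped MatrixGroups

variable (N : ℕ) [NeZero N] {ℓ : ℕ} [NeZero ℓ]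

/-- `F_{Nℓ}` as an algebra over `F_N` through `β`. -/
@[reducible] def algBeta : Algebra (FN N) (FN (N * ℓ)) :=
  AlgebraicCurve.algebraAlong (heckeBetaBar Kbar N ℓ)

/-- `LN (N ℓ)` as an algebra over `F_N` through `φ ∘ α`. -/
@[reducible] def algPhiAlpha : Algebra (FN N) (LN (N * ℓ)) :=
  (phiAlpha N (ℓ := ℓ)).toRingHom.toAlgebra

attribute [local instance] algBeta algPhiAlpha

omit [NeZero N] in
theorem algebraMap_beta (g : FN N) :
    algebraMap (FN N) (FN (N * ℓ)) g = heckeBetaBar Kbar N ℓ g := rfl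

theorem algebraMap_phiAlpha (g : FN N) :
    algebraMap (FN N) (LN (N * ℓ)) g = phiAlpha N (ℓ := ℓ) g := rfl

theorem alpha_jF : heckeAlphaBar Kbar N ℓ (jF N) = jF (N * ℓ) := Subtype.ext rfl

theorem phiAlpha_aeval_jF (p : Polynomial Kbar) :
    phiAlpha N (ℓ := ℓ) (Polynomial.aeval (jF N) p)
      = algebraMap (AT (N * ℓ)) (LN (N * ℓ)) (Polynomial.aeval (jT (N * ℓ)) p) := by
  rw [phiAlpha_apply, ← Polynomial.aeval_algHom_apply, alpha_jF, phi_aeval_jF]

theorem phiAlpha_algebraMap_EN (y : EN) :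
    phiAlpha N (ℓ := ℓ) (algebraMap EN (FN N) y) = algebraMap EN (LN (N * ℓ)) y := by
  have h : ((phiAlpha N (ℓ := ℓ)).toRingHom.comp (algebraMap EN (FN N)))
      = algebraMap EN (LN (N * ℓ)) := by
    apply IsLocalization.ringHom_ext (nonZeroDivisors (Polynomial Kbar))
    apply RingHom.ext
    intro p
    show phiAlpha N (ℓ := ℓ) (algebraMap EN (FN N) (algebraMap (Polynomial Kbar) EN p))
      = algebraMap EN (LN (N * ℓ)) (algebraMap (Polynomial Kbar) EN p)
    rw [← IsScalarTower.algebraMap_apply (Polynomial Kbar) EN (FN N),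
      ← IsScalarTower.algebraMap_apply (Polynomial Kbar) EN (LN (N * ℓ)),
      IsScalarTower.algebraMap_apply (Polynomial Kbar) (AT (N * ℓ)) (LN (N * ℓ)),
      algebraMap_poly_FN, algebraMap_poly_AT, phiAlpha_aeval_jF]
  exact congrArg (fun f : EN →+* LN (N * ℓ) => f y) h

instance towerE_FN_LM : IsScalarTower EN (FN N) (LN (N * ℓ)) :=
  IsScalarTower.of_algebraMap_eq fun y => (phiAlpha_algebraMap_EN N y).symm

instance finiteDimensional_FN_LM : FiniteDimensional (FN N) (LN (N * ℓ)) :=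
  FiniteDimensional.right EN (FN N) (LN (N * ℓ))

instance normal_FN_LM : Normal (FN N) (LN (N * ℓ)) :=
  Normal.tower_top_of_normal EN (FN N) (LN (N * ℓ))

instance charZero_FN : CharZero (FN N) :=
  charZero_of_injective_algebraMap (algebraMap Kbar (FN N)).injective

variable {N}

/-- `ρ` as a homomorphism of `F_N`-algebras. -/
def rhoK (hℓ : ℓ.Prime) : FN (N * ℓ) →ₐ[FN N] LN (N * ℓ) :=
  { (rho N hℓ).toRingHom with
    commutes' := fun g => rho_beta N hℓ g }

theorem rhoK_apply (hℓ : ℓ.Prime) (x : FN (N * ℓ)) : rhoK hℓ x = rho N hℓ x := rfl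

theorem finiteDimensional_beta (hℓ : ℓ.Prime) : FiniteDimensional (FN N) (FN (N * ℓ)) :=
  finiteDimensional_of_algHom (rhoK hℓ)

theorem isSeparable_beta (hℓ : ℓ.Prime) : Algebra.IsSeparable (FN N) (FN (N * ℓ)) := by
  have := finiteDimensional_beta (N := N) hℓ
  infer_instance

/-- The automorphisms `piN (cosetRep c)` as `F_N`-algebra homomorphisms. -/
def sigmaK (u v : ℤ) (h : u * ℓ + v * N = 1) (c : Option (Fin ℓ)) :
    LN (N * ℓ) →ₐ[FN N] LN (N * ℓ) :=
  { (piK (N * ℓ) (cosetRep N ℓ u v h c)).toRingHom with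
    commutes' := fun g => by
      have := piK_phiAlpha_of_mem_Gamma0 N (ℓ := ℓ) _ (cosetRep_mem_Gamma0 N ℓ u v h c)
      exact congrArg (fun f : FN N →ₐ[Kbar] LN (N * ℓ) => f g) this }

theorem sigmaK_apply (u v : ℤ) (h : u * ℓ + v * N = 1) (c : Option (Fin ℓ)) (y : LN (N * ℓ)) :
    sigmaK u v h c y = piN (N * ℓ) (cosetRep N ℓ u v h c) y := rfl

/-- Every `F_N`-endomorphism of `LN (N ℓ)` agrees on `ρ (F_{Nℓ})` with some `sigmaK c`. -/
theorem sigmaK_cover (hℓ : ℓ.Prime) (u v : ℤ) (h : u * ℓ + v * N = 1)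
    (τ : LN (N * ℓ) →ₐ[FN N] LN (N * ℓ)) :
    ∃ c, τ.comp (rhoK hℓ) = (sigmaK u v h c).comp (rhoK hℓ) := by
  -- `τ` is an element of the Galois group over `Q̄(j)`
  let τE : LN (N * ℓ) →ₐ[EN] LN (N * ℓ) := τ.restrictScalars EN
  let τ' : LN (N * ℓ) ≃ₐ[EN] LN (N * ℓ) := AlgEquiv.ofBijective τE (AlgHom.bijective τE)
  obtain ⟨γ, hγ⟩ := piN_surjective (N * ℓ) τ'
  have hτ : ∀ y, piN (N * ℓ) γ y = τ y := fun y => by rw [hγ]; rfl
  have hγ0 : γ ∈ Gamma0 N := by
    apply mem_Gamma0_of_piK_phiAlpha N (ℓ := ℓ) γ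
    rw [piK_apply, hτ]
    exact τ.commutes (jdF N N dvd_rfl)
  obtain ⟨c, η, hγη, hb, hc⟩ := exists_cosetRep N ℓ hℓ u v h γ hγ0
  refine ⟨c, ?_⟩
  ext x
  rw [AlgHom.comp_apply, AlgHom.comp_apply, ← hτ, hγη, sigmaK_apply, rhoK_apply, map_mul]
  show piN (N * ℓ) (cosetRep N ℓ u v h c) (piK (N * ℓ) η (rho N hℓ x)) = _
  have := piK_rho_of_fix hℓ η hb hc
  rw [← AlgHom.comp_apply, this]

/-! ### Distinctness -/

theorem jBar_coeff_neg_one : jBar.coeff (-1 : ℤ) = 1 := by
  rw [jBar, coeffEmb_coeff, coeff_jq_neg_one, map_one]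

/-- The coefficient of `u ^ (-N)` in the expansion of `sigmaK c (ρ j)`. -/
theorem coeff_sigmaK_rho_jF (hℓ : ℓ.Prime) (u v : ℤ) (h : u * ℓ + v * N = 1)
    (c : Option (Fin ℓ)) :
    (UL (N * ℓ) (sigmaK u v h c (rhoK hℓ (jdF (N * ℓ) 1 (one_dvd _))))).coeff (-(N : ℤ))
      = match c with
        | some b => ((zetaK (N * ℓ))⁻¹ ^ (b : ℕ)) ^ (-(N : ℤ))
        | none => 0 := by
  cases c with
  | some b =>
    show (UL (N * ℓ) (piN (N * ℓ) (T ^ (b : ℕ)) (rho N hℓ (jdF (N * ℓ) 1 (one_dvd _))))).coeff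
      (-(N : ℤ)) = _
    rw [UL_piN_T_pow, UL_rho, coe_jdF, qExpand_one_apply, twist_coeff]
    have h1 := qExpand_coeff_mul (R := Kbar) N jBar (-1)
    rw [mul_neg_one] at h1
    rw [h1, jBar_coeff_neg_one, mul_one]
  | none =>
    show (UL (N * ℓ) (piK (N * ℓ) (deltaInf N ℓ u v h) (rho N hℓ (jdF (N * ℓ) 1 (one_dvd _))))).coeff
      (-(N : ℤ)) = 0
    have e1 : jdF (N * ℓ) 1 (one_dvd _) = heckeAlphaBar Kbar N ℓ (jdF N 1 (one_dvd _)) :=
      (alpha_jdF N 1 (one_dvd _)).symm
    have e2 := congrArg (fun f : FN N →ₐ[Kbar] LN (N * ℓ) => f (jdF N 1 (one_dvd _)))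
      (piK_deltaInf_rho_alpha hℓ u v h)
    simp only [AlgHom.comp_apply] at e2
    rw [e1, e2, UL_phi, qN_apply, coe_heckeBetaBar, qExpand_qExpand]
    apply qExpand_coeff_of_not_dvd
    rintro ⟨k, hk⟩
    have hN : (0 : ℤ) < N := by exact_mod_cast NeZero.pos N
    have hl2 : (2 : ℤ) ≤ ℓ := by exact_mod_cast hℓ.two_le
    push_cast at hk
    have hk' : (N : ℤ) * ((ℓ : ℤ) * ℓ * k + 1) = 0 := by linear_combination -hk
    rcases mul_eq_zero.mp hk' with h0 | h0
    · omega
    · have hdvd : (ℓ : ℤ) ∣ 1 := ⟨-(ℓ * k), by linear_combination h0⟩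
      have := Int.le_of_dvd one_pos hdvd
      omega

theorem sigmaK_injective (hℓ : ℓ.Prime) (u v : ℤ) (h : u * ℓ + v * N = 1) :
    Function.Injective fun c => (sigmaK u v h c).comp (rhoK hℓ) := by
  intro c c' hcc
  have hval : ∀ c₁ c₂ : Option (Fin ℓ),
      (sigmaK u v h c₁).comp (rhoK hℓ) = (sigmaK u v h c₂).comp (rhoK hℓ) →
      (UL (N * ℓ) (sigmaK u v h c₁ (rhoK hℓ (jdF (N * ℓ) 1 (one_dvd _))))).coeff (-(N : ℤ))
        = (UL (N * ℓ) (sigmaK u v h c₂ (rhoK hℓ (jdF (N * ℓ) 1 (one_dvd _))))).coeff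
          (-(N : ℤ)) := by
    intro c₁ c₂ h12
    have := congrArg (fun f : FN (N * ℓ) →ₐ[FN N] LN (N * ℓ) => f (jdF (N * ℓ) 1 (one_dvd _))) h12
    simp only [AlgHom.comp_apply] at this
    rw [this]
  have hv := hval c c' hcc
  rw [coeff_sigmaK_rho_jF, coeff_sigmaK_rho_jF] at hv
  have hz : zetaK (N * ℓ) ≠ 0 := zetaK_ne_zero (N * ℓ)
  have hne : ∀ b : ℕ, ((zetaK (N * ℓ))⁻¹ ^ b) ^ (-(N : ℤ)) ≠ 0 :=
    fun b => zpow_ne_zero _ (pow_ne_zero _ (inv_ne_zero hz))
  have hform : ∀ b : ℕ, ((zetaK (N * ℓ))⁻¹ ^ b) ^ (-(N : ℤ)) = zetaK (N * ℓ) ^ ((b : ℤ) * N) := by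
    intro b
    rw [← zpow_natCast, ← _root_.zpow_mul, _root_.inv_zpow']
    congr 1
    ring
  cases c with
  | none =>
    cases c' with
    | none => rfl
    | some b' => exact absurd hv.symm (hne _)
  | some b =>
    cases c' with
    | none => exact absurd hv (hne _)
    | some b' =>
      simp only at hv
      rw [hform, hform] at hv
      have h1 : zetaK (N * ℓ) ^ (((b : ℕ) : ℤ) * N - ((b' : ℕ) : ℤ) * N) = 1 := by
        rw [zpow_sub₀ hz, hv, div_self (zpow_ne_zero _ hz)]
      rw [zetaK_zpow_eq_one_iff] at h1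
      obtain ⟨k, hk⟩ := h1
      have hN : (0 : ℤ) < N := by exact_mod_cast NeZero.pos N
      push_cast at hk
      have hk' : (N : ℤ) * (((b : ℕ) : ℤ) - ((b' : ℕ) : ℤ) - ℓ * k) = 0 := by
        linear_combination hk
      have hk2 : ((b : ℕ) : ℤ) - ((b' : ℕ) : ℤ) = ℓ * k := by
        rcases mul_eq_zero.mp hk' with h0 | h0
        · omega
        · linarith
      have hb := b.2
      have hb' := b'.2
      have hk0 : k = 0 := by
        by_contra hk0
        have hℓpos : (0 : ℤ) < ℓ := by exact_mod_cast hℓ.pos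
        rcases lt_or_gt_of_ne hk0 with hneg | hpos
        · have : (ℓ : ℤ) * k ≤ -ℓ := by nlinarith
          omega
        · have : (ℓ : ℤ) ≤ ℓ * k := by nlinarith
          omega
      rw [hk0, mul_zero] at hk2
      congr 1
      apply Fin.ext
      omega

end Fermat.Agent.RED.H95

end
end
-- ==== END Fermat.Agent.RED.ES.H95_HeckeNorm

-- ==== BEGIN Fermat.Agent.RED.H10_ConsFibre
section

/-!
# G-RED package CONS (helper10), DICT (a): the norm formula on the fibres of a coordinate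

`F / K` a function field over an algebraically closed field (any characteristic), `x ∈ F`
transcendental with `[F : K(x)] < ∞`.

* `adjoin_gen_eq_top` : `K(x)` is generated by `x`, as a field of its own;
* `exists_unique_zero_of_top` : a generator of a rational function field has exactly one zero,
  and it is simple (char-free version of helper72's `h72_exists_unique_zero`);
* `fibre_norm` : for `ρ ∈ K` there is a finite set `T` of places, `P ∈ T ↔ x(P) = ρ`, with
  `∑_{P ∈ T} ord_P f = rootMultiplicity ρ p` whenever `N_{F/K(x)} f = p(x)`.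
-/

set_option autoImplicit false

noncomputable section

open AlgebraicCurve Polynomial IntermediateField

namespace Fermat.Agent.RED.H10

open Fermat.Agent.RED.H51 Fermat.Agent.S24

section Gen

variable {K F : Type} [Field K] [Field F] [Algebra K F]

theorem adjoin_gen_eq_top (x : F) :
    K⟮AdjoinSimple.gen K x⟯ = (⊤ : IntermediateField K ↥K⟮x⟯) := by
  have h1 : (K⟮AdjoinSimple.gen K x⟯ : IntermediateField K ↥K⟮x⟯).map (K⟮x⟯.val) =
      (⊤ : IntermediateField K ↥K⟮x⟯).map (K⟮x⟯.val) := by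
    rw [IntermediateField.adjoin_map, Set.image_singleton]
    rw [← AlgHom.fieldRange_eq_map, IntermediateField.fieldRange_val]
    rfl
  exact IntermediateField.map_injective _ h1

theorem finrank_of_eq_top (S : IntermediateField K F) (hS : S = ⊤) :
    FiniteDimensional ↥S F ∧ Module.finrank ↥S F = 1 := by
  subst hS
  exact ⟨Module.finite_of_finrank_pos (by rw [IntermediateField.finrank_top]; exact one_pos),
    IntermediateField.finrank_top⟩

/-- A generator of a rational function field has exactly one zero, and it is simple. -/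
theorem exists_unique_zero_of_top (hz : H59.ZerosStmt K F) (y : F) (hy : Transcendental K y)
    (htop : K⟮y⟯ = ⊤) :
    ∃ v : Place K F, v.ord y = 1 ∧ ∀ v' : Place K F, 0 < v'.ord y → v' = v := by
  classical
  obtain ⟨hfd, hrank⟩ := finrank_of_eq_top K⟮y⟯ htop
  obtain ⟨hfin, hsum⟩ := hz y hy
  rw [hrank, finsum_mem_eq_finite_toFinset_sum _ hfin] at hsum
  have hpos : ∀ v ∈ hfin.toFinset, 0 < v.ord y := fun v hv => by
    simpa using hv
  have hne : hfin.toFinset.Nonempty := by
    by_contra hemp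
    rw [Finset.not_nonempty_iff_eq_empty] at hemp
    rw [hemp, Finset.sum_empty] at hsum
    norm_num at hsum
  obtain ⟨v, hv⟩ := hne
  have hle : ∀ v' ∈ hfin.toFinset, v' ≠ v → False := by
    intro v' hv' hne'
    have h2 : v.ord y + v'.ord y ≤ ∑ u ∈ hfin.toFinset, u.ord y := by
      have hsub : ({v, v'} : Finset (Place K F)) ⊆ hfin.toFinset := by
        intro u hu
        rcases Finset.mem_insert.mp hu with rfl | hu
        · exact hv
        · rw [Finset.mem_singleton.mp hu]; exact hv'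
      calc v.ord y + v'.ord y = ∑ u ∈ ({v, v'} : Finset (Place K F)), u.ord y := by
            rw [Finset.sum_pair (Ne.symm hne')]
        _ ≤ ∑ u ∈ hfin.toFinset, u.ord y :=
            Finset.sum_le_sum_of_subset_of_nonneg hsub
              (fun u hu _ => (hpos u hu).le)
    have := hpos v hv
    have := hpos v' hv'
    rw [hsum] at h2
    push_cast at h2
    omega
  refine ⟨v, ?_, ?_⟩
  · have h1 : v.ord y ≤ ∑ u ∈ hfin.toFinset, u.ord y :=
      Finset.single_le_sum (f := fun u : Place K F => u.ord y)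
        (fun u hu => (hpos u hu).le) hv
    have := hpos v hv
    rw [hsum] at h1
    push_cast at h1
    omega
  · intro v' hv'
    by_contra hne'
    exact hle v' (by simpa using hv') hne'

/-- **The norm formula on the fibre `x = ρ`.** -/
theorem fibre_norm [IsAlgClosed K] (hFF : IsFF K F) (x : F) (hx : Transcendental K x)
    [FiniteDimensional ↥K⟮x⟯ F] (ρ : K) :
    ∃ T : Finset (Place K F), (∀ P, P ∈ T ↔ OrdGe P 1 (x - algebraMap K F ρ)) ∧
      ∀ (f : F) (p : K[X]), f ≠ 0 →
        ((Algebra.norm ↥K⟮x⟯ f : ↥K⟮x⟯) : F) = Polynomial.aeval x p →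
        ∑ P ∈ T, P.ord f = (p.rootMultiplicity ρ : ℤ) := by
  classical
  -- the rational function field `E = K(x)` and its generator `y = x - ρ`
  set g : ↥K⟮x⟯ := AdjoinSimple.gen K x with hg
  have hgx : algebraMap ↥K⟮x⟯ F g = x := rfl
  have hgtr : Transcendental K g :=
    (transcendental_algebraMap_iff (algebraMap ↥K⟮x⟯ F).injective).mp (by rw [hgx]; exact hx)
  have hgtop : K⟮g⟯ = (⊤ : IntermediateField K ↥K⟮x⟯) := adjoin_gen_eq_top x
  have hfinE : FiniteDimensional ↥K⟮g⟯ ↥K⟮x⟯ := (finrank_of_eq_top K⟮g⟯ hgtop).1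
  have hFFE : IsFF K ↥K⟮x⟯ := ⟨g, hgtr, hfinE⟩
  have hzE : H59.ZerosStmt K ↥K⟮x⟯ := zerosAll K ↥K⟮x⟯ hFFE
  have hzF : H59.ZerosStmt K F := zerosAll K F hFF
  have : HasPrincipalDivisors K F := stmt_FFB_principal K F hFF
  set y : ↥K⟮x⟯ := g - algebraMap K ↥K⟮x⟯ ρ with hy
  have hytr : Transcendental K y := by
    intro halg
    apply hgtr
    have h1 : g = y + algebraMap K ↥K⟮x⟯ ρ := by rw [hy]; ring
    rw [h1]
    exact halg.add (isAlgebraic_algebraMap ρ)
  have hytop : K⟮y⟯ = (⊤ : IntermediateField K ↥K⟮x⟯) := by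
    rw [eq_top_iff, ← hgtop, adjoin_simple_le_iff]
    have h1 : g = y + algebraMap K ↥K⟮x⟯ ρ := by rw [hy]; ring
    rw [h1]
    exact add_mem (mem_adjoin_simple_self K y) (IntermediateField.algebraMap_mem _ ρ)
  obtain ⟨v₀, hv₀, huniq⟩ := exists_unique_zero_of_top hzE y hytr hytop
  have hyx : algebraMap ↥K⟮x⟯ F y = x - algebraMap K F ρ := by
    rw [hy, map_sub, hgx, ← IsScalarTower.algebraMap_apply]
  have hxρ : x - algebraMap K F ρ ≠ 0 := by
    rw [← hyx]
    intro h0
    have : y = 0 := (map_eq_zero (algebraMap ↥K⟮x⟯ F)).mp h0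
    rw [this] at hv₀
    simp at hv₀
  refine ⟨v₀.fiber F, ?_, ?_⟩
  · intro P
    rw [Place.mem_fiber]
    constructor
    · intro hP
      refine Or.inr ?_
      rw [← hyx, P.ord_restrict y, hP, hv₀, mul_one]
      have := P.ramificationIndex_pos (F := ↥K⟮x⟯)
      omega
    · rintro (h0 | h1)
      · exact absurd h0 hxρ
      · apply huniq
        rw [← hyx, P.ord_restrict y] at h1
        have hepos := P.ramificationIndex_pos (F := ↥K⟮x⟯)
        by_contra hneg
        rw [not_lt] at hneg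
        have : (P.ramificationIndex ↥K⟮x⟯ : ℤ) * (P.restrict ↥K⟮x⟯).ord y ≤ 0 :=
          mul_nonpos_of_nonneg_of_nonpos (by omega) hneg
        omega
  · intro f p hf hN
    have hdegF : ∀ w : Place K F, w.deg = 1 := fun w => ff_deg_eq_one x hx w
    have hsum := sum_ramificationIndex_eq hzE hzF hgtr hx v₀ (v₀.fiber F)
      (fun w => Place.mem_fiber)
    rw [← norm_ord v₀ (v₀.fiber F) (fun w hw => Place.mem_fiber.mp hw) hsum hdegF hf]
    have hNE : Algebra.norm ↥K⟮x⟯ f = Polynomial.aeval g p := by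
      apply (algebraMap ↥K⟮x⟯ F).injective
      rw [← Polynomial.aeval_algebraMap_apply, hgx]
      exact hN
    have hp : p ≠ 0 := by
      rintro rfl
      rw [map_zero] at hNE
      exact hf (Algebra.norm_eq_zero_iff.mp hNE)
    have hcomp : Polynomial.aeval g p = Polynomial.aeval y (p.comp (X + C ρ)) := by
      rw [Polynomial.aeval_comp, map_add, Polynomial.aeval_X, Polynomial.aeval_C, hy,
        sub_add_cancel]
    have hp' : p.comp (X + C ρ) ≠ 0 := by
      intro h0
      apply hp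
      have := congrArg (fun q : K[X] => q.comp (X - C ρ)) h0
      simpa [Polynomial.comp_assoc] using this
    rw [hNE, hcomp, (ord_aeval v₀ (by omega) hp').2, hv₀, mul_one,
      ← Polynomial.rootMultiplicity_eq_rootMultiplicity]

end Gen

end Fermat.Agent.RED.H10

end
end
-- ==== END Fermat.Agent.RED.H10_ConsFibre

-- ==== BEGIN Fermat.Agent.RED.H34_FibB
section

set_option autoImplicit false

noncomputable section

open Polynomial IntermediateField Module Matrix
open scoped IntermediateField.algebraAdjoinAdjoin nonZeroDivisors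

namespace Fermat.Agent.RED.H34

variable {C F k Ft : Type} [Field C] [Field F] [Algebra C F] [Field k] [Field Ft] [Algebra k Ft]

section Abstract

variable {x : F}

/-- The value at a point over `ρ` of an element of `C[x]` is its value at `ρ`. -/
theorem evP_algebraMap_Rx [IsAlgClosed C] (hxC : Transcendental C x) {ρ : C}
    {P : Ideal ↥(Bx (C := C) x)} (hP : P ∈ ptsOver x ρ) (a : ↥(Algebra.adjoin C {x})) :
    evP hP (algebraMap ↥(Algebra.adjoin C {x}) ↥(Bx (C := C) x) a) = evAt hxC ρ a := by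
  obtain ⟨p, rfl⟩ := (polyEquiv hxC).surjective a
  rw [evAt_polyEquiv]
  induction p using Polynomial.induction_on' with
  | add p q hp hq =>
    rw [map_add (polyEquiv hxC), RingHom.map_add, RingHom.map_add, hp, hq, Polynomial.eval_add]
  | monomial n c =>
    rw [← Polynomial.C_mul_X_pow_eq_monomial, map_mul (polyEquiv hxC), map_pow (polyEquiv hxC),
      polyEquiv_C, polyEquiv_X, RingHom.map_mul, RingHom.map_pow, RingHom.map_mul,
      RingHom.map_pow, evP_genX, Polynomial.eval_mul, Polynomial.eval_pow,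
      Polynomial.eval_C, Polynomial.eval_X]
    congr 1
    exact evP_algebraMap hP c

theorem sub_evAt_mem (hxC : Transcendental C x) (ρ : C) (a : ↥(Algebra.adjoin C {x})) :
    a - algebraMap C ↥(Algebra.adjoin C {x}) (evAt hxC ρ a) ∈ Ideal.span {piRho x ρ} := by
  rw [Ideal.mem_span_singleton, ← evAt_eq_zero_iff hxC, map_sub, evAt_algebraMap, sub_self]

/-- Enumeration of the points over `ρ`. -/
theorem exists_enum_ptsOver (hxC : Transcendental C x) {m : ℕ}
    (c : Module.Basis (Fin m) ↥(Algebra.adjoin C {x}) ↥(Bx (C := C) x)) (ρ : C) :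
    ∃ pt : Fin (ptsOver x ρ).ncard → Ideal ↥(Bx (C := C) x),
      Function.Injective pt ∧ (∀ t, pt t ∈ ptsOver x ρ) ∧ ∀ Q ∈ ptsOver x ρ, ∃ t, pt t = Q := by
  classical
  have hfin := finite_ptsOver hxC c ρ
  have : Finite ↥(ptsOver x ρ) := hfin
  have hcard : Nat.card ↥(ptsOver x ρ) = (ptsOver x ρ).ncard := Nat.card_coe_set_eq _
  let e : ↥(ptsOver x ρ) ≃ Fin (ptsOver x ρ).ncard := (Finite.equivFin _).trans (finCongr hcard)
  refine ⟨fun t => ((e.symm t : ↥(ptsOver x ρ)) : _), ?_, fun t => (e.symm t).2, fun Q hQ =>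
    ⟨e ⟨Q, hQ⟩, by simp⟩⟩
  intro t t' h
  exact e.symm.injective (Subtype.ext h)

theorem ncard_ptsOver_le (hxC : Transcendental C x) {m : ℕ}
    (c : Module.Basis (Fin m) ↥(Algebra.adjoin C {x}) ↥(Bx (C := C) x)) (ρ : C) :
    (ptsOver x ρ).ncard ≤ m := by
  classical
  have : IsPrincipalIdealRing ↥(Algebra.adjoin C {x}) := isPrincipalIdealRing_adjoin hxC
  have hfin := finite_ptsOver hxC c ρ
  rw [Set.ncard_eq_toFinset_card _ hfin]
  have h := H82.h82_count (R := ↥(Algebra.adjoin C {x})) (B := ↥(Bx (C := C) x)) c (piRho x ρ)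
    (prime_piRho hxC ρ) (∅ : Finset (Fin m)) (fun i hi => absurd hi (Finset.notMem_empty i))
    hfin.toFinset (fun P hP => (mem_ptsOver_iff x ρ P).1 ((Set.Finite.mem_toFinset hfin).1 hP))
  rw [Finset.card_empty, Fintype.card_fin, zero_add] at h
  exact h

/-- **Dedekind's bound**: `ord_{x - ρ} disc ≥ n - r`, `r` the number of points over `ρ`. -/
theorem pow_dvd_discr_ptsOver [IsAlgClosed C] (hxC : Transcendental C x) {m : ℕ}
    (c : Module.Basis (Fin m) ↥(Algebra.adjoin C {x}) ↥(Bx (C := C) x)) (ρ : C) :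
    piRho x ρ ^ (m - (ptsOver x ρ).ncard) ∣ Algebra.discr ↥(Algebra.adjoin C {x}) c := by
  classical
  have hpid : IsPrincipalIdealRing ↥(Algebra.adjoin C {x}) := isPrincipalIdealRing_adjoin hxC
  have hπ := prime_piRho hxC ρ
  haveI hmax : (Ideal.span {piRho x ρ}).IsMaximal :=
    PrincipalIdealRing.isMaximal_of_irreducible hπ.irreducible
  obtain ⟨pt, -, hpt, hall⟩ := exists_enum_ptsOver hxC c ρ
  let g : ↥(Bx (C := C) x) →ₗ[↥(Algebra.adjoin C {x})]
      (Fin (ptsOver x ρ).ncard → ↥(Algebra.adjoin C {x}) ⧸ Ideal.span {piRho x ρ}) :=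
    { toFun := fun y t => Ideal.Quotient.mk _ (algebraMap C ↥(Algebra.adjoin C {x}) (evP (hpt t) y))
      map_add' := fun y z => by
        ext t
        show Ideal.Quotient.mk _ (algebraMap C ↥(Algebra.adjoin C {x}) (evP (hpt t) (y + z))) =
          Ideal.Quotient.mk _ (algebraMap C ↥(Algebra.adjoin C {x}) (evP (hpt t) y)) +
          Ideal.Quotient.mk _ (algebraMap C ↥(Algebra.adjoin C {x}) (evP (hpt t) z))
        rw [(evP (hpt t)).map_add, RingHom.map_add, RingHom.map_add]
      map_smul' := fun a y => by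
        ext t
        show Ideal.Quotient.mk _ (algebraMap C ↥(Algebra.adjoin C {x}) (evP (hpt t) (a • y))) =
          Ideal.Quotient.mk _ (a * algebraMap C ↥(Algebra.adjoin C {x}) (evP (hpt t) y))
        rw [Algebra.smul_def, (evP (hpt t)).map_mul, evP_algebraMap_Rx hxC, RingHom.map_mul,
          Ideal.Quotient.eq, ← sub_mul]
        refine Ideal.mul_mem_right _ _ ?_
        have := sub_evAt_mem hxC ρ a
        rw [← neg_sub]
        exact neg_mem this }
  have hg : ∀ y, g y = 0 → ∃ e, y ^ e ∈ Ideal.span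
      {algebraMap ↥(Algebra.adjoin C {x}) ↥(Bx (C := C) x) (piRho x ρ)} := by
    intro y hy
    apply pow_mem_of_forall_mem
    intro Q hQ
    obtain ⟨t, rfl⟩ := hall Q hQ
    have h1 := congrFun hy t
    change Ideal.Quotient.mk _ (algebraMap C ↥(Algebra.adjoin C {x}) (evP (hpt t) y)) = 0 at h1
    rw [Ideal.Quotient.eq_zero_iff_mem, Ideal.mem_span_singleton, ← evAt_eq_zero_iff hxC,
      evAt_algebraMap] at h1
    exact (evP_eq_zero_iff (hpt t) y).1 h1
  have h := pow_dvd_discr_of_linearMap c (piRho x ρ) hπ g hg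
  rwa [Fintype.card_fin] at h

end Abstract

end Fermat.Agent.RED.H34

end
end
-- ==== END Fermat.Agent.RED.H34_FibB

-- ==== BEGIN Fermat.Agent.RED.H42_Gen7
section

/-!
# G-RED package GEN (helper42), part 7: `H¹ = 0` over `O` and the lifting theorem `gen_lift`

`S : RedSetting C F k Ft`, `x` a unit of `V` with transcendental reduction `xt`, both charts
(`x` and `x⁻¹`) normal.  Then for all large `N` every `y ∈ Ft` with `y` integral over `k[xt]` and
`xt⁻¹ ^ N * y` integral over `k[xt⁻¹]` is the reduction of some `g ∈ V` with `g` integral over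
`C[x]` and `x⁻¹ ^ N * g` integral over `C[x⁻¹]`:
`red : L(N (x)_∞) ∩ V → L~(N (xt)_∞)` is surjective.
-/

set_option autoImplicit false

noncomputable section

open Polynomial IntermediateField Module

namespace Fermat.Agent.RED.H42

open Fermat.Agent.RED.H34 Fermat.Agent.RED.H34.RedSetting

variable {C F k Ft : Type} [Field C] [Field F] [Algebra C F] [Field k] [Field Ft] [Algebra k Ft]
variable {S : RedSetting C F k Ft} {x : F} (hx : x ∈ S.V)

theorem isIntegral_coe_psi (p₀ : (↥S.O)[X]) :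
    IsIntegral ↥(Algebra.adjoin C {x}) ((psi hx p₀ : ↥S.V) : F) := by
  rw [coe_psi]
  exact isIntegral_algebraMap
    (x := (⟨_, Polynomial.aeval_mem_adjoin_singleton C x⟩ : ↥(Algebra.adjoin C {x})))

theorem coe_psi_X : ((psi hx Polynomial.X : ↥S.V) : F) = x := by
  rw [coe_psi]
  simp

theorem coe_psi_reflect (hx0 : x ≠ 0) (hx' : x⁻¹ ∈ S.V) (R : (↥S.O)[X]) (M : ℕ)
    (h : R.natDegree ≤ M) :
    ((psi hx' (Polynomial.reflect M R) : ↥S.V) : F) = ((psi hx R : ↥S.V) : F) * x⁻¹ ^ M := by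
  rw [coe_psi, coe_psi, ← Polynomial.reflect_map,
    aeval_inv_reflect hx0 _ M (Polynomial.natDegree_map_le.trans h)]

variable {ι : Type} [Fintype ι]

/-- **`H¹ = 0` over `O`**: an element `t ∈ V` with `x ^ M * t ∈ B` splits as `a + x ^ N * b` with
`a ∈ B ∩ V` and `b ∈ B' ∩ V`, as soon as `x⁻¹ ^ N * e i ∈ B'` for a chart basis `e`. -/
theorem exists_split (hx0 : x ≠ 0) (hx' : x⁻¹ ∈ S.V) {e : ι → F} (heV : ∀ i, e i ∈ S.V)
    (heint : ∀ i, IsIntegral ↥(Algebra.adjoin C {x}) (e i))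
    (hrep : ∀ f : F, f ∈ S.V → IsIntegral ↥(Algebra.adjoin C {x}) f →
      ∃ p : ι → (↥S.O)[X], f = ∑ i, ((psi hx (p i) : ↥S.V) : F) * e i)
    (N : ℕ) (heN : ∀ i, IsIntegral ↥(Algebra.adjoin C {x⁻¹}) (x⁻¹ ^ N * e i))
    (t : F) (ht : t ∈ S.V) (M : ℕ) (hM : IsIntegral ↥(Algebra.adjoin C {x}) (x ^ M * t)) :
    ∃ a b : ↥S.V, IsIntegral ↥(Algebra.adjoin C {x}) (a : F) ∧
      IsIntegral ↥(Algebra.adjoin C {x⁻¹}) (b : F) ∧ t = (a : F) + x ^ N * (b : F) := by
  have hMV : x ^ M * t ∈ S.V := mul_mem (pow_mem hx M) ht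
  obtain ⟨p, hp⟩ := hrep _ hMV hM
  have hsplit : ∀ i, p i %ₘ (Polynomial.X ^ M) + Polynomial.X ^ M * (p i /ₘ (Polynomial.X ^ M))
      = p i := fun i => Polynomial.modByMonic_add_div (p i) _
  have hRdeg : ∀ i, (p i %ₘ (Polynomial.X ^ M)).natDegree ≤ M := by
    intro i
    have := Polynomial.natDegree_modByMonic_le (p i) (Polynomial.monic_X_pow (R := ↥S.O) M)
    rwa [Polynomial.natDegree_X_pow] at this
  have hpsi : ∀ i, ((psi hx (p i) : ↥S.V) : F) =
      ((psi hx (p i %ₘ (Polynomial.X ^ M)) : ↥S.V) : F) +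
        x ^ M * ((psi hx (p i /ₘ (Polynomial.X ^ M)) : ↥S.V) : F) := by
    intro i
    conv_lhs => rw [← hsplit i]
    rw [map_add, map_mul, map_pow, Subring.coe_add, Subring.coe_mul, SubmonoidClass.coe_pow,
      coe_psi_X]
  let a : ↥S.V := ∑ i, psi hx (p i /ₘ (Polynomial.X ^ M)) * ⟨e i, heV i⟩
  let b : ↥S.V := ∑ i, psi hx' (Polynomial.reflect M (p i %ₘ (Polynomial.X ^ M))) *
    ⟨x⁻¹ ^ N * e i, mul_mem (pow_mem hx' N) (heV i)⟩
  have haF : (a : F) = ∑ i, ((psi hx (p i /ₘ (Polynomial.X ^ M)) : ↥S.V) : F) * e i := by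
    simp only [a, AddSubmonoidClass.coe_finsetSum]
    rfl
  have hbF : (b : F) = ∑ i, ((psi hx' (Polynomial.reflect M (p i %ₘ (Polynomial.X ^ M))) :
      ↥S.V) : F) * (x⁻¹ ^ N * e i) := by
    simp only [b, AddSubmonoidClass.coe_finsetSum]
    rfl
  refine ⟨a, b, ?_, ?_, ?_⟩
  · rw [haF]
    exact IsIntegral.sum _ fun i _ => (isIntegral_coe_psi hx _).mul (heint i)
  · rw [hbF]
    exact IsIntegral.sum _ fun i _ => (isIntegral_coe_psi hx' _).mul (heN i)
  · have hxM : x ^ M ≠ 0 := pow_ne_zero M hx0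
    apply mul_left_cancel₀ hxM
    rw [hp, haF, hbF, mul_add, Finset.mul_sum, Finset.mul_sum, Finset.mul_sum,
      ← Finset.sum_add_distrib]
    refine Finset.sum_congr rfl fun i _ => ?_
    rw [hpsi i, coe_psi_reflect hx hx0 hx' _ M (hRdeg i)]
    have h1 : x ^ M * (x ^ N * (((psi hx (p i %ₘ (Polynomial.X ^ M)) : ↥S.V) : F) * x⁻¹ ^ M *
        (x⁻¹ ^ N * e i))) = ((psi hx (p i %ₘ (Polynomial.X ^ M)) : ↥S.V) : F) * e i := by
      have h2 : x ^ M * x⁻¹ ^ M = 1 := by rw [← mul_pow, mul_inv_cancel₀ hx0, one_pow]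
      have h3 : x ^ N * x⁻¹ ^ N = 1 := by rw [← mul_pow, mul_inv_cancel₀ hx0, one_pow]
      calc x ^ M * (x ^ N * (((psi hx (p i %ₘ (Polynomial.X ^ M)) : ↥S.V) : F) * x⁻¹ ^ M *
            (x⁻¹ ^ N * e i)))
          = (x ^ M * x⁻¹ ^ M) * (x ^ N * x⁻¹ ^ N) *
            (((psi hx (p i %ₘ (Polynomial.X ^ M)) : ↥S.V) : F) * e i) := by ring
        _ = _ := by rw [h2, h3, one_mul, one_mul]
    rw [h1]
    ring

/-- **GEN-lift**: for all large `N`, `red : L(N (x)_∞) ∩ V → L~(N (xt)_∞)` is surjective. -/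
theorem gen_lift [IsAlgClosed C] [CharZero C] (hx' : x⁻¹ ∈ S.V)
    (hxt : Transcendental k (S.red ⟨x, hx⟩)) [FiniteDimensional ↥C⟮x⟯ F]
    (hdeg : Module.finrank ↥k⟮S.red ⟨x, hx⟩⟯ Ft = Module.finrank ↥C⟮x⟯ F)
    [Algebra.IsSeparable ↥k⟮S.red ⟨x, hx⟩⟯ Ft]
    (hcn : ∀ y : Ft, IsIntegral ↥(Algebra.adjoin k {S.red ⟨x, hx⟩}) y →
      ∃ f : ↥S.V, IsIntegral ↥(Algebra.adjoin C {x}) (f : F) ∧ S.red f = y)
    (hcn' : ∀ y : Ft, IsIntegral ↥(Algebra.adjoin k {S.red ⟨x⁻¹, hx'⟩}) y →
      ∃ f : ↥S.V, IsIntegral ↥(Algebra.adjoin C {x⁻¹}) (f : F) ∧ S.red f = y) :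
    ∃ N₀ : ℕ, ∀ N, N₀ ≤ N → ∀ y : Ft, IsIntegral ↥(Algebra.adjoin k {S.red ⟨x, hx⟩}) y →
      IsIntegral ↥(Algebra.adjoin k {S.red ⟨x⁻¹, hx'⟩}) (S.red ⟨x⁻¹, hx'⟩ ^ N * y) →
      ∃ g : ↥S.V, S.red g = y ∧ IsIntegral ↥(Algebra.adjoin C {x}) (g : F) ∧
        IsIntegral ↥(Algebra.adjoin C {x⁻¹}) (x⁻¹ ^ N * (g : F)) := by
  classical
  have hxC := transcendental_x hx hxt
  have hx0 : x ≠ 0 := fun h0 => hxC (h0 ▸ isAlgebraic_zero)
  obtain ⟨e, he, hrep⟩ := exists_chart_basis hx hxt hdeg hcn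
  choose c hc using fun i => exists_scale_isIntegral (C := C) hx0 (he.int i)
  refine ⟨Finset.univ.sup c, fun N hN y hy hy' => ?_⟩
  have heN : ∀ i, IsIntegral ↥(Algebra.adjoin C {x⁻¹}) (x⁻¹ ^ N * e i) := fun i =>
    hc i N ((Finset.le_sup (f := c) (Finset.mem_univ i)).trans hN)
  obtain ⟨f, hfint, hfred⟩ := hcn y hy
  obtain ⟨f', hf'int, hf'red⟩ := hcn' _ hy'
  have hxx : (⟨x, hx⟩ : ↥S.V) * ⟨x⁻¹, hx'⟩ = 1 := Subtype.ext (mul_inv_cancel₀ hx0)
  have hxxt : S.red ⟨x, hx⟩ * S.red ⟨x⁻¹, hx'⟩ = 1 := by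
    rw [← map_mul, hxx, map_one]
  have hxN : x ^ N * x⁻¹ ^ N = 1 := by rw [← mul_pow, mul_inv_cancel₀ hx0, one_pow]
  have hzred : S.red (f - ⟨x, hx⟩ ^ N * f') = 0 := by
    rw [map_sub, map_mul, map_pow, hfred, hf'red, ← mul_assoc, ← mul_pow, hxxt, one_pow,
      one_mul, sub_self]
  by_cases hz : f - (⟨x, hx⟩ : ↥S.V) ^ N * f' = 0
  · refine ⟨f, hfred, hfint, ?_⟩
    have h1 : (f : F) = x ^ N * (f' : F) := by
      have := congrArg (fun v : ↥S.V => (v : F)) (sub_eq_zero.1 hz)
      simpa using this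
    have h2 : x⁻¹ ^ N * (f : F) = (f' : F) := by
      rw [h1, ← mul_assoc, mul_comm (x⁻¹ ^ N), hxN, one_mul]
    rw [h2]
    exact hf'int
  · have hzF : ((f - (⟨x, hx⟩ : ↥S.V) ^ N * f' : ↥S.V) : F) ≠ 0 := fun h0 => hz (Subtype.ext h0)
    obtain ⟨π, hπ0, t, hπt⟩ := S.scale _ hzF
    have hπF : algebraMap C F π ≠ 0 := fun h0 => hπ0 ((map_eq_zero _).1 h0)
    have htinv : (((t⁻¹ : (↥S.V)ˣ) : ↥S.V) : F) * (((t : (↥S.V)ˣ) : ↥S.V) : F) = 1 := by
      rw [← Subring.coe_mul, ← Units.val_mul, inv_mul_cancel]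
      rfl
    have hπV : algebraMap C F π =
        (((f - (⟨x, hx⟩ : ↥S.V) ^ N * f') * ((t⁻¹ : (↥S.V)ˣ) : ↥S.V) : ↥S.V) : F) := by
      rw [Subring.coe_mul, hπt, mul_assoc, mul_comm ((((t : (↥S.V)ˣ) : ↥S.V) : F)), htinv,
        mul_one]
    have hπO : π ∈ S.O := by
      rw [ValuationSubring.mem_comap, hπV]
      exact Subtype.mem _
    have hπred : S.red (S.inclO ⟨π, hπO⟩) = 0 := by
      have : S.inclO ⟨π, hπO⟩ = (f - (⟨x, hx⟩ : ↥S.V) ^ N * f') * ((t⁻¹ : (↥S.V)ˣ) : ↥S.V) :=
        Subtype.ext hπV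
      rw [this, map_mul, hzred, zero_mul]
    -- the F-level equation `f = π t + x ^ N f'`
    have hfF : (f : F) = algebraMap C F π * (((t : (↥S.V)ˣ) : ↥S.V) : F) + x ^ N * (f' : F) := by
      rw [← hπt]
      simp
    -- `x ^ M * t` is integral over `C[x]`
    obtain ⟨M, hM⟩ : ∃ c : ℕ, ∀ m, c ≤ m →
        IsIntegral ↥(Algebra.adjoin C {x}) (x ^ m * (f' : F)) := by
      have h1 := exists_scale_isIntegral (C := C) (inv_ne_zero hx0) hf'int
      rwa [inv_inv] at h1
    have hTint : IsIntegral ↥(Algebra.adjoin C {x}) (x ^ M * (((t : (↥S.V)ˣ) : ↥S.V) : F)) := by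
      have h1 : x ^ M * (((t : (↥S.V)ˣ) : ↥S.V) : F) =
          Polynomial.aeval x (Polynomial.C π⁻¹ : C[X]) *
            (Polynomial.aeval x (Polynomial.X ^ M : C[X]) * (f : F) -
              Polynomial.aeval x (Polynomial.X ^ N : C[X]) * (x ^ M * (f' : F))) := by
        rw [hfF]
        simp only [Polynomial.aeval_C, map_pow, Polynomial.aeval_X, map_inv₀]
        field_simp
        ring
      rw [h1]
      exact isIntegral_aeval_mul
        ((isIntegral_aeval_mul hfint _).sub (isIntegral_aeval_mul (hM M le_rfl) _)) _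
    obtain ⟨a, b, haint, hbint, hab⟩ := exists_split hx hx0 hx' he.memV he.int hrep N heN
      _ (Subtype.mem ((t : (↥S.V)ˣ) : ↥S.V)) M hTint
    refine ⟨f - S.inclO ⟨π, hπO⟩ * a, ?_, ?_, ?_⟩
    · rw [map_sub, map_mul, hπred, zero_mul, sub_zero, hfred]
    · have h1 : ((f - S.inclO ⟨π, hπO⟩ * a : ↥S.V) : F) =
          (f : F) - Polynomial.aeval x (Polynomial.C π : C[X]) * (a : F) := by
        simp
      rw [h1]
      exact hfint.sub (isIntegral_aeval_mul haint _)
    · have h1 : x⁻¹ ^ N * ((f - S.inclO ⟨π, hπO⟩ * a : ↥S.V) : F) =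
          (f' : F) + Polynomial.aeval x⁻¹ (Polynomial.C π : C[X]) * (b : F) := by
        have h2 : ((f - S.inclO ⟨π, hπO⟩ * a : ↥S.V) : F) =
            x ^ N * ((f' : F) + algebraMap C F π * (b : F)) := by
          rw [AddSubgroupClass.coe_sub, Subring.coe_mul, coe_inclO, hfF, hab]
          ring
        rw [h2, ← mul_assoc, mul_comm (x⁻¹ ^ N), hxN, one_mul, Polynomial.aeval_C]
      rw [h1]
      exact hf'int.add (isIntegral_aeval_mul hbint _)

end Fermat.Agent.RED.H42

end
end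
-- ==== END Fermat.Agent.RED.H42_Gen7

-- ==== BEGIN Fermat.Agent.RED.H51_HKA
section

/-!
# HK-A (helper51 assembly): the Hecke correspondence inputs over `ℚ̄`, unconditional

`stmt_HKA : Stmt_HKA`, from FF-B (`H51_Final.lean`) and helper95's `Stmt_HKA_isFF`.
-/

set_option autoImplicit false

noncomputable section

namespace Fermat.Agent.RED.H51

/-- **HK-A**: `HeckeInputsAlong ℚ̄ N ℓ` holds for all `N`, `ℓ`. -/
theorem stmt_HKA : Fermat.Agent.RED.Stmt_HKA :=
  Fermat.Agent.RED.stmt_HKA_of Fermat.Agent.RED.H95.stmt_HKA_isFF stmt_FFB_principal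
    stmt_FFB_finite stmt_FFB_fundamental stmt_FFB_norm

end Fermat.Agent.RED.H51

end
end
-- ==== END Fermat.Agent.RED.H51_HKA

-- ==== BEGIN Fermat.Agent.RED.H51_NDConst
section

/-!
# G-RED package NDESC (helper51), part 1: bounded functionals on divisors

A homomorphism `L : Div(F) → ℤ` which vanishes on principal divisors and is bounded on the
places takes the same value on all places (Riemann: `n (P₁ - P₂) + g P₀` is linearly equivalent
to a positive divisor of degree `g`, for every `n`).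
-/

set_option autoImplicit false
set_option linter.style.haveILetI false

noncomputable section

open AlgebraicCurve

namespace Fermat.Agent.RED.H51

section Const

variable {K F : Type} [Field K] [Field F] [Algebra K F]

/-- The value of an additive functional on a divisor. -/
theorem addHom_apply_eq_sum (L : Divisor K F →+ ℤ) (D : Divisor K F) :
    L D = D.sum fun P n => n * L (Finsupp.single P 1) := by
  conv_lhs => rw [← Finsupp.sum_single D]
  rw [map_finsuppSum]
  refine Finsupp.sum_congr fun P _ => ?_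
  have h : (Finsupp.single P (D P) : Divisor K F) = (D P) • Finsupp.single P 1 := by
    rw [Finsupp.smul_single, smul_eq_mul, mul_one]
  rw [h, map_zsmul, smul_eq_mul]

theorem degree_eq_sum (hdeg : ∀ v : Place K F, v.deg = 1) (D : Divisor K F) :
    Divisor.degree D = D.sum fun _ n => n := by
  rw [addHom_apply_eq_sum]
  refine Finsupp.sum_congr fun P _ => ?_
  rw [Divisor.degree_single, hdeg, Nat.cast_one, mul_one, mul_one]

/-- A bounded functional is bounded by the degree on positive divisors. -/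
theorem abs_addHom_le (hdeg : ∀ v : Place K F, v.deg = 1) (L : Divisor K F →+ ℤ) (B : ℤ)
    (hB : ∀ P : Place K F, |L (Finsupp.single P 1)| ≤ B) (E : Divisor K F)
    (hE : ∀ P, 0 ≤ E P) : |L E| ≤ B * Divisor.degree E := by
  rw [addHom_apply_eq_sum L E, degree_eq_sum hdeg E, Finsupp.sum, Finsupp.sum, Finset.mul_sum]
  refine (Finset.abs_sum_le_sum_abs _ _).trans (Finset.sum_le_sum fun P _ => ?_)
  rw [abs_mul, abs_of_nonneg (hE P), mul_comm]
  exact mul_le_mul_of_nonneg_right (hB P) (hE P)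

/-- **Bounded functionals are constant on places.** -/
theorem addHom_const_of_bounded [IsAlgClosed K] (hFF : IsFF K F)
    (L : Divisor K F →+ ℤ) (B : ℤ) (hB : ∀ P : Place K F, |L (Finsupp.single P 1)| ≤ B)
    (hL : ∀ D : Divisor K F, D.IsPrincipal → L D = 0) (P₁ P₂ : Place K F) :
    L (Finsupp.single P₁ 1) = L (Finsupp.single P₂ 1) := by
  classical
  haveI : HasPrincipalDivisors K F := stmt_FFB_principal K F hFF
  have hdeg : ∀ v : Place K F, v.deg = 1 := stmt_FFB_deg K F hFF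
  obtain ⟨g, c, hR⟩ := stmt_FFR_riemann K F hFF
  have hB0 : 0 ≤ B := (abs_nonneg _).trans (hB P₁)
  set c₁ := L (Finsupp.single P₁ 1) with hc₁
  set c₂ := L (Finsupp.single P₂ 1) with hc₂
  -- the key estimate, for every `n`
  have key : ∀ n : ℕ, |(n : ℤ) * (c₁ - c₂)| ≤ 2 * (g * B) := by
    intro n
    set D : Divisor K F := (n : ℤ) • Finsupp.single P₁ 1 - (n : ℤ) • Finsupp.single P₂ 1
      + (g : ℤ) • Finsupp.single P₁ 1 with hD
    have hdegD : Divisor.degree D = g := by
      rw [hD, map_add, map_sub, map_zsmul, map_zsmul, map_zsmul, Divisor.degree_single,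
        Divisor.degree_single, hdeg, hdeg]
      simp
    have hLD : L D = n * (c₁ - c₂) + g * c₁ := by
      rw [hD, map_add, map_sub, map_zsmul, map_zsmul, map_zsmul]
      simp only [smul_eq_mul]
      ring
    have hfr : 0 < Module.finrank K (riemannRochSpace D) := by
      have := (hR D).1
      rw [hdegD] at this
      omega
    haveI : Module.Finite K ↥(riemannRochSpace D) := stmt_FFR_finite K F hFF D
    haveI : Nontrivial ↥(riemannRochSpace D) := Module.finrank_pos_iff.mp hfr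
    obtain ⟨⟨f, hfm⟩, hf0⟩ := exists_ne (0 : ↥(riemannRochSpace D))
    have hf : f ≠ 0 := fun h => hf0 (Subtype.ext h)
    rw [mem_riemannRochSpace_iff] at hfm
    obtain ⟨Df, hDf, hDfdeg⟩ := HasPrincipalDivisors.exists_divisor (K := K) f hf
    have hE : ∀ P, 0 ≤ (Df + D) P := by
      intro P
      rw [Finsupp.add_apply, hDf]
      rcases hfm P with h | h
      · exact absurd h hf
      · omega
    have h1 := abs_addHom_le hdeg L B hB (Df + D) hE
    have e1 : L (Df + D) = n * (c₁ - c₂) + g * c₁ := by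
      rw [map_add L Df D, hL Df ⟨f, hf, hDf⟩, zero_add, hLD]
    have e2 : Divisor.degree (Df + D) = g := by
      rw [map_add Divisor.degree Df D, hDfdeg, zero_add, hdegD]
    rw [e1, e2] at h1
    have h2 : |(g : ℤ) * c₁| ≤ g * B := by
      rw [abs_mul, abs_of_nonneg (Int.natCast_nonneg g)]
      exact mul_le_mul_of_nonneg_left (hB P₁) (Int.natCast_nonneg g)
    have h3 : |(n : ℤ) * (c₁ - c₂)| ≤ |(n : ℤ) * (c₁ - c₂) + g * c₁| + |(g : ℤ) * c₁| := by
      have := abs_sub ((n : ℤ) * (c₁ - c₂) + g * c₁) ((g : ℤ) * c₁)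
      simpa using this
    rw [mul_comm B] at h1
    omega
  by_contra hne
  have hpos : 1 ≤ |c₁ - c₂| := by
    have : c₁ - c₂ ≠ 0 := sub_ne_zero.mpr hne
    exact Int.one_le_abs this
  have hk := key (2 * (g * B).toNat + 1)
  rw [abs_mul] at hk
  have hgB : 0 ≤ (g : ℤ) * B := mul_nonneg (Int.natCast_nonneg g) hB0
  have h4 : |((2 * (g * B).toNat + 1 : ℕ) : ℤ)| = 2 * (g * B) + 1 := by
    rw [abs_of_nonneg (Int.natCast_nonneg _)]
    push_cast
    rw [Int.toNat_of_nonneg hgB]
  rw [h4] at hk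
  nlinarith

end Const

end Fermat.Agent.RED.H51

end
end
-- ==== END Fermat.Agent.RED.H51_NDConst

-- ==== BEGIN Fermat.Agent.RED.H73_GAChart
section
attribute [local instance 10000] HahnSeries.powerSeriesAlgebra

/-!
# G-RED package GA (helper73): the chart `x = j`, Type-level form

For `S = redSetting A (hasScale_laurentBaseChange A N)` (helper34's `RedSetting`) and the chart
`x = j ∈ F = F_N · L`:
* `red_jF`            : `S.red j = j~`;
* `transcendental_red_jF`, `finiteDimensional_jF`, `isSeparable_jF`, `finrank_red_jF`,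
  `isSeparable_red_jF` : the first five fields of helper79's `GoodChart`;
* `isFF_redField`     : the residue field is a function field of one variable over `k`.
General bridges: `finrank_adjoin_simple_subtype`, `algebra_isSeparable_subtype`.
-/

set_option autoImplicit false
set_option synthInstance.maxHeartbeats 400000
set_option maxHeartbeats 1000000

open Polynomial ModularCurve Fermat.Agent.S28 Fermat.Agent.S28.H73 Fermat.Agent.S28.H90
open IntermediateField

noncomputable section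

namespace Fermat.Agent.RED.H73

/-! ### Bridges between subfields of an ambient field and Type-level statements -/

theorem map_val_adjoin_simple {K E : Type*} [Field K] [Field E] [Algebra K E]
    (B : IntermediateField K E) (x : ↥B) :
    (K⟮x⟯).map B.val = IntermediateField.adjoin K {(x : E)} := by
  rw [IntermediateField.adjoin_map, Set.image_singleton]
  rfl

/-- `[B : K(x)]` as a relative degree inside the ambient field. -/
theorem finrank_adjoin_simple_subtype {K E : Type*} [Field K] [Field E] [Algebra K E]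
    (B : IntermediateField K E) (x : ↥B) :
    Module.finrank ↥(K⟮x⟯) ↥B = (IntermediateField.adjoin K {(x : E)}).relfinrank B := by
  have h2 : (⊤ : IntermediateField K ↥B).map B.val = B := by
    rw [← AlgHom.fieldRange_eq_map, IntermediateField.fieldRange_val]
  calc Module.finrank ↥(K⟮x⟯) ↥B = (K⟮x⟯).relfinrank ⊤ := (relfinrank_top_right _).symm
    _ = ((K⟮x⟯).map B.val).relfinrank ((⊤ : IntermediateField K ↥B).map B.val) :=
        (relfinrank_map_map _ _ B.val).symm
    _ = (IntermediateField.adjoin K {(x : E)}).relfinrank B := by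
        rw [map_val_adjoin_simple, h2]

/-- Separability of `B / K(x)` from separability of the elements inside the ambient field. -/
theorem algebra_isSeparable_subtype {K E : Type*} [Field K] [Field E] [Algebra K E]
    (B : IntermediateField K E) (x : ↥B)
    (h : ∀ y ∈ B, IsSeparable ↥(IntermediateField.adjoin K {(x : E)}) y) :
    Algebra.IsSeparable ↥(K⟮x⟯) ↥B := by
  refine ⟨fun y => ?_⟩
  apply isSeparable_of_map B.val
  rw [map_val_adjoin_simple]
  exact h _ y.2

theorem transcendental_subtype {K E : Type*} [Field K] [Field E] [Algebra K E]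
    (B : IntermediateField K E) (x : ↥B) (h : Transcendental K (x : E)) :
    Transcendental K x := by
  intro halg
  apply h
  have := halg.algHom B.val
  exact this

/-- A Laurent series with a pole is transcendental over the constants. -/
theorem transcendental_of_order_neg {K : Type} [Field K] {J : LaurentSeries K}
    (hJ : J.order < 0) : Transcendental K J := by
  rw [transcendental_iff]
  intro p hp
  by_contra hne
  exact H73.aeval_ne_zero_of_one_lt (H90.tVal K) (fun _ hc => H90.tVal_algebraMap hc)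
    (H90.one_lt_tVal_of_order_neg hJ) p hne hp

theorem jqModC_order_neg (K : Type) [Field K] : (jqModC K).order < 0 := by
  have h := JL_order K 1
  have e : JL K 1 = jqModC K := qExpand_one_apply _
  rw [e] at h
  rw [h]
  norm_num

theorem transcendental_jqModC (K : Type) [Field K] : Transcendental K (jqModC K) :=
  transcendental_of_order_neg (jqModC_order_neg K)

/-! ### The chart `x = j` -/

section Chart

variable {L : Type} [Field L] [IsAlgClosed L] [Algebra ℚ L] (A : ValuationSubring L)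
  (N : ℕ) [NeZero N]

/-- `j` as an element of `F = F_N · L`. -/
def jF : ↥(laurentBaseChange L (modularFunctionFieldFull N)) :=
  ⟨jqModC L, by rw [laurentBaseChange_full_eq]; exact jqModC_mem_full L N⟩

omit [IsAlgClosed L] [Algebra ℚ L] in
theorem jqModC_mem_gaussRingV : jqModC L ∈ gaussRingV A := by
  have := qExpand_jqModC_mem_gaussRingV A 1
  rwa [qExpand_one_apply] at this

omit [IsAlgClosed L] [Algebra ℚ L] in
theorem gaussRedV_jqModC (h : jqModC L ∈ gaussRingV A) :
    gaussRedV A ⟨jqModC L, h⟩ = jqModC (kV A) := by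
  have e : (⟨jqModC L, h⟩ : gaussRingV A)
      = ⟨iotaV A (jqModC ↥A), iotaV_mem_gaussRingV A _⟩ :=
    Subtype.ext (coeffMap_jqModC A.subtype).symm
  rw [e, gaussRedV_iotaV]
  exact coeffMap_jqModC (resV A)

omit [NeZero N] [IsAlgClosed L] in
theorem jF_mem : jF (L := L) N ∈ (redSetting A (hasScale_laurentBaseChange A N)).V :=
  jqModC_mem_gaussRingV A

omit [IsAlgClosed L] [NeZero N] in
/-- `S.red j = j~`. -/
theorem red_jF :
    (((redSetting A (hasScale_laurentBaseChange A N)).red ⟨jF N, jF_mem A N⟩ :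
      ↥(redField A (laurentBaseChange L (modularFunctionFieldFull N))
        (hasScale_laurentBaseChange A N))) : LaurentSeries (kV A)) = jqModC (kV A) :=
  gaussRedV_jqModC A _

omit [IsAlgClosed L] [NeZero N] in
/-- The reduction of `j` is transcendental over `k`. -/
theorem transcendental_red_jF :
    Transcendental (kV A)
      ((redSetting A (hasScale_laurentBaseChange A N)).red ⟨jF N, jF_mem A N⟩) := by
  apply transcendental_subtype
  rw [red_jF]
  exact transcendental_jqModC (kV A)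

variable {A N}
variable (hN : ((N : L))⁻¹ ∈ A) (D : CADataL L N)

include D in
/-- `[F : L(j)] = card Q`. -/
theorem finrank_jF :
    Module.finrank ↥(L⟮jF (L := L) N⟯) ↥(laurentBaseChange L (modularFunctionFieldFull N))
      = Fintype.card D.Q := by
  rw [finrank_adjoin_simple_subtype]
  have e : ((jF (L := L) N : ↥(laurentBaseChange L (modularFunctionFieldFull N)))
      : LaurentSeries L) = jqModC L := rfl
  rw [e, laurentBaseChange_full_eq]
  exact relfinrank_fullC D

omit [IsAlgClosed L] [Algebra ℚ L] in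
include D in
theorem card_Q_pos : 0 < Fintype.card D.Q := Fintype.card_pos_iff.2 ⟨D.q₀⟩

include D in
theorem finiteDimensional_jF :
    FiniteDimensional ↥(L⟮jF (L := L) N⟯) ↥(laurentBaseChange L (modularFunctionFieldFull N)) :=
  Module.finite_of_finrank_pos (by rw [finrank_jF D]; exact card_Q_pos D)

include D in
theorem isSeparable_jF [CharZero L] :
    Algebra.IsSeparable ↥(L⟮jF (L := L) N⟯)
      ↥(laurentBaseChange L (modularFunctionFieldFull N)) := by
  have := finiteDimensional_jF D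
  infer_instance

include hN D in
/-- `[F~ : k(j~)] = card Q`. -/
theorem finrank_red_jF :
    Module.finrank
      ↥((kV A)⟮(redSetting A (hasScale_laurentBaseChange A N)).red ⟨jF N, jF_mem A N⟩⟯)
      ↥(redField A (laurentBaseChange L (modularFunctionFieldFull N))
        (hasScale_laurentBaseChange A N)) = Fintype.card D.Q := by
  have : IsAlgClosed (kV A) := isAlgClosed_kV A
  have : Infinite (kV A) := IsAlgClosed.instInfinite
  rw [finrank_adjoin_simple_subtype, red_jF, redField_laurentBaseChange_eq A hN D]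
  exact relfinrank_fullC_red A hN D

include hN D in
/-- `[F~ : k(j~)] = [F : L(j)]`. -/
theorem finrank_red_jF_eq :
    Module.finrank
      ↥((kV A)⟮(redSetting A (hasScale_laurentBaseChange A N)).red ⟨jF N, jF_mem A N⟩⟯)
      ↥(redField A (laurentBaseChange L (modularFunctionFieldFull N))
        (hasScale_laurentBaseChange A N))
      = Module.finrank ↥(L⟮jF (L := L) N⟯)
        ↥(laurentBaseChange L (modularFunctionFieldFull N)) := by
  rw [finrank_red_jF hN D, finrank_jF D]

include hN D in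
/-- `F~ / k(j~)` is separable. -/
theorem isSeparable_red_jF :
    Algebra.IsSeparable
      ↥((kV A)⟮(redSetting A (hasScale_laurentBaseChange A N)).red ⟨jF N, jF_mem A N⟩⟯)
      ↥(redField A (laurentBaseChange L (modularFunctionFieldFull N))
        (hasScale_laurentBaseChange A N)) := by
  have : IsAlgClosed (kV A) := isAlgClosed_kV A
  have : Infinite (kV A) := IsAlgClosed.instInfinite
  apply algebra_isSeparable_subtype
  intro y hy
  rw [red_jF]
  rw [redField_laurentBaseChange_eq A hN D] at hy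
  exact isSeparable_fullC_red A hN D hy

include hN D in
theorem finiteDimensional_red_jF :
    FiniteDimensional
      ↥((kV A)⟮(redSetting A (hasScale_laurentBaseChange A N)).red ⟨jF N, jF_mem A N⟩⟯)
      ↥(redField A (laurentBaseChange L (modularFunctionFieldFull N))
        (hasScale_laurentBaseChange A N)) :=
  Module.finite_of_finrank_pos (by rw [finrank_red_jF hN D]; exact card_Q_pos D)

include hN D in
/-- The residue field of the Gauss valuation is a function field of one variable over `k`. -/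
theorem isFF_redField :
    IsFF (kV A) ↥(redField A (laurentBaseChange L (modularFunctionFieldFull N))
      (hasScale_laurentBaseChange A N)) :=
  ⟨_, transcendental_red_jF A N, finiteDimensional_red_jF hN D⟩

end Chart

/-! ### The statements over `ℚ̄` -/

/-- The first five fields of `GoodChart` for the chart `x = j` at level `N`, over `ℚ̄`. -/
theorem goodChart_pre_of_CAL (h : Stmt_CAL) (N ℓ : ℕ) [NeZero N] (hℓ : ℓ.Prime) (hℓN : ¬ ℓ ∣ N)
    (A : ValuationSubring (AlgebraicClosure ℚ)) (hA : A.LiesOverPrime ℓ) :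
    Transcendental (kV A)
      ((redSetting A (hasScale_laurentBaseChange A N)).red ⟨jF N, jF_mem A N⟩) ∧
    FiniteDimensional ↥((AlgebraicClosure ℚ)⟮jF (L := AlgebraicClosure ℚ) N⟯)
      ↥(laurentBaseChange (AlgebraicClosure ℚ) (modularFunctionFieldFull N)) ∧
    Algebra.IsSeparable ↥((AlgebraicClosure ℚ)⟮jF (L := AlgebraicClosure ℚ) N⟯)
      ↥(laurentBaseChange (AlgebraicClosure ℚ) (modularFunctionFieldFull N)) ∧
    Module.finrank
      ↥((kV A)⟮(redSetting A (hasScale_laurentBaseChange A N)).red ⟨jF N, jF_mem A N⟩⟯)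
      ↥(redField A (laurentBaseChange (AlgebraicClosure ℚ) (modularFunctionFieldFull N))
        (hasScale_laurentBaseChange A N))
      = Module.finrank ↥((AlgebraicClosure ℚ)⟮jF (L := AlgebraicClosure ℚ) N⟯)
        ↥(laurentBaseChange (AlgebraicClosure ℚ) (modularFunctionFieldFull N)) ∧
    Algebra.IsSeparable
      ↥((kV A)⟮(redSetting A (hasScale_laurentBaseChange A N)).red ⟨jF N, jF_mem A N⟩⟯)
      ↥(redField A (laurentBaseChange (AlgebraicClosure ℚ) (modularFunctionFieldFull N))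
        (hasScale_laurentBaseChange A N)) := by
  obtain ⟨D⟩ := h N
  have hN := inv_natCast_mem_of_liesOver A N hℓ hℓN hA
  exact ⟨transcendental_red_jF A N, finiteDimensional_jF D, isSeparable_jF D,
    finrank_red_jF_eq hN D, isSeparable_red_jF hN D⟩

/-- The residue field of the Gauss valuation on `F_N · ℚ̄` is a function field over `k`. -/
theorem isFF_redField_of_CAL (h : Stmt_CAL) (N ℓ : ℕ) [NeZero N] (hℓ : ℓ.Prime) (hℓN : ¬ ℓ ∣ N)
    (A : ValuationSubring (AlgebraicClosure ℚ)) (hA : A.LiesOverPrime ℓ) :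
    IsFF (kV A) ↥(redField A (laurentBaseChange (AlgebraicClosure ℚ) (modularFunctionFieldFull N))
      (hasScale_laurentBaseChange A N)) := by
  obtain ⟨D⟩ := h N
  exact isFF_redField (inv_natCast_mem_of_liesOver A N hℓ hℓN hA) D

end Fermat.Agent.RED.H73

end
end
-- ==== END Fermat.Agent.RED.H73_GAChart

-- ==== BEGIN Fermat.Agent.RED.KD.H22_KD
section
attribute [local instance 10000] SubalgebraClass.toAlgebra
attribute [local instance 10000] HahnSeries.powerSeriesAlgebra

/-!
# G-RED package KD (helper22): Kummer descent `X₀(M) → X₀(N)`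

`stmt_KD : Stmt_KD`.
-/

set_option autoImplicit false

noncomputable section

open HahnSeries ModularCurve IntermediateField WithZero

namespace Fermat.Agent.RED.KD.H22

open Fermat.Agent.S24 Fermat.Agent.RED.H10 AlgebraicCurve
open scoped MatrixGroups

/-- `ψ(N p^a) < 2 p^a ψ(N)`. -/
theorem psi_lt (N p a : ℕ) (hN : N ≠ 0) (hp : p.Prime) :
    dedekindPsi (N * p ^ a) < 2 * p ^ a * dedekindPsi N := by
  have : NeZero N := ⟨hN⟩
  have hNpos := dedekindPsi_pos N
  rcases Nat.eq_zero_or_pos a with rfl | ha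
  · rw [pow_zero, mul_one]
    omega
  obtain ⟨e, N', hN', rfl⟩ := Nat.exists_eq_pow_mul_and_not_dvd hN p hp.ne_one
  have hN'0 : N' ≠ 0 := fun h => hN (by rw [h, mul_zero])
  have : NeZero N' := ⟨hN'0⟩
  have hN'pos := dedekindPsi_pos N'
  have hcop : ∀ k, (p ^ k).Coprime N' := fun k =>
    Nat.Coprime.pow_left k ((Nat.Prime.coprime_iff_not_dvd hp).mpr hN')
  have e1 : p ^ e * N' * p ^ a = p ^ (e + a) * N' := by rw [_root_.pow_add]; ring
  rw [e1, Fermat.Agent.S20.H19.dedekindPsi_mul (hcop (e + a)),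
    Fermat.Agent.S20.H19.dedekindPsi_mul (hcop e),
    Fermat.Agent.S20.H19.dedekindPsi_prime_pow hp (by omega : 0 < e + a)]
  have hppos : 0 < p := hp.pos
  rcases Nat.eq_zero_or_pos e with rfl | he
  · rw [pow_zero, dedekindPsi_one, zero_add]
    have h1 : p ^ (a - 1) < p ^ a := Nat.pow_lt_pow_right hp.one_lt (by omega)
    nlinarith
  · rw [Fermat.Agent.S20.H19.dedekindPsi_prime_pow hp he]
    have h2 : p ^ (e + a) = p ^ a * p ^ e := by rw [_root_.pow_add]; ring
    have h3 : p ^ (e + a - 1) = p ^ a * p ^ (e - 1) := by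
      rw [← _root_.pow_add]; congr 1; omega
    rw [h2, h3]
    have h4 : 0 < p ^ a * p ^ e := by positivity
    have h5 : 0 < p ^ a * p ^ (e - 1) := by positivity
    nlinarith

/-- The valuation of a nonzero Laurent series. -/
theorem valued_eq_exp_order {K : Type*} [Field K] (x : LaurentSeries K) (hx : x ≠ 0) :
    (Valued.v : Valuation (LaurentSeries K) ℤᵐ⁰) x = exp (-x.order) :=
  laurent_valuation_eq_of_coeff x x.order (fun h => hx (HahnSeries.coeff_order_eq_zero.mp h))
    (fun _ hn => HahnSeries.coeff_eq_zero_of_lt_order hn)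

/-- The valuation of `F_N'` at the cusp `0` of `X₀(M)`. -/
def val0 {N' M : ℕ} [NeZero N'] [NeZero M] (h : N' ∣ M) : Valuation (FN N') ℤᵐ⁰ :=
  (Valued.v : Valuation (LaurentSeries Kbar) ℤᵐ⁰).comap ((iota0 M).comp (incl h).toRingHom)

theorem val0_apply {N' M : ℕ} [NeZero N'] [NeZero M] (h : N' ∣ M) (x : FN N') :
    val0 h x = (Valued.v : Valuation (LaurentSeries Kbar) ℤᵐ⁰) (iota0 M (incl h x)) := rfl

theorem iota0_incl_ne_zero {N' M : ℕ} [NeZero N'] [NeZero M] (h : N' ∣ M) {x : FN N'}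
    (hx : x ≠ 0) : iota0 M (incl h x) ≠ 0 := by
  intro h0
  apply hx
  have h1 : incl h x = 0 := iota0_injective M (by rw [h0, map_zero])
  exact (incl h).toRingHom.injective (by rw [AlgHom.toRingHom_eq_coe, RingHom.coe_coe, h1, map_zero])

theorem val0_eq {N' M : ℕ} [NeZero N'] [NeZero M] (h : N' ∣ M) {x : FN N'} (hx : x ≠ 0) :
    val0 h x = exp (-(iota0 M (incl h x)).order) := by
  rw [val0_apply, valued_eq_exp_order _ (iota0_incl_ne_zero h hx)]

theorem val0_algebraMap_le {N' M : ℕ} [NeZero N'] [NeZero M] (h : N' ∣ M) (a : Kbar) :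
    val0 h (algebraMap Kbar (FN N') a) ≤ 1 := by
  rcases eq_or_ne a 0 with rfl | ha
  · rw [map_zero, map_zero]
    exact zero_le_one
  · have hne : algebraMap Kbar (FN N') a ≠ 0 := by
      rw [Ne, map_eq_zero_iff _ (algebraMap Kbar (FN N')).injective]
      exact ha
    rw [val0_eq h hne, AlgHom.commutes, iota0_algebraMap, HahnSeries.order_C, neg_zero, exp_zero]

theorem val0_jF_ne_one {N' M : ℕ} [NeZero N'] [NeZero M] (h : N' ∣ M) :
    val0 h (jF N') ≠ 1 := by
  have hM : 0 < M := Nat.pos_of_ne_zero (NeZero.ne M)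
  have hne : jF N' ≠ 0 := by
    intro h0
    have := congrArg (fun y : FN N' => (y : LaurentSeries Kbar)) h0
    exact jBar_ne_zero this
  rw [val0_eq h hne, incl_jF, jF_eq_jdF, iota0_jdF M 1 (one_dvd M)]
  have : NeZero (M / 1) := ⟨by rw [Nat.div_one]; exact NeZero.ne M⟩
  intro h1
  have h2 : (qExpand Kbar (M / 1) jBar).order ≤ -(M : ℤ) := by
    apply HahnSeries.order_le_of_coeff_ne_zero
    have e : -(M : ℤ) = ((M / 1 : ℕ) : ℤ) * (-1) := by rw [Nat.div_one]; ring
    rw [e, qExpand_coeff_mul, asm_jBar_coeff_neg_one]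
    exact one_ne_zero
  have h3 : -(qExpand Kbar (M / 1) jBar).order = 0 := by
    have := congrArg WithZero.log h1
    rwa [WithZero.log_exp, WithZero.log_one] at this
  have : (0 : ℤ) < M := by exact_mod_cast hM
  omega

/-- There is a function of order one at every place. -/
theorem exists_ord_eq_one {K F : Type*} [Field K] [Field F] [Algebra K F] (P : Place K F) :
    ∃ x : F, x ≠ 0 ∧ P.ord x = 1 := by
  obtain ⟨π, hπ⟩ := IsDiscreteValuationRing.exists_irreducible P.toValuationSubring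
  refine ⟨(π : F), ?_, P.ord_coe_irreducible hπ⟩
  simpa [ne_eq, ZeroMemClass.coe_eq_zero] using hπ.ne_zero

/-- **One step of the Kummer descent.** -/
theorem kd_step {N M c : ℕ} [NeZero N] [NeZero M] (hM : M = N * c)
    (hψ : dedekindPsi M < 2 * c * dedekindPsi N) {m : ℕ} (hm : 0 < m)
    {N' : ℕ} [NeZero N'] (hN' : N' ∣ N) (f : FN N')
    (hord : ∀ P : Place Kbar (FN N'), (m : ℤ) ∣ P.ord f)
    (t : LaurentSeries Kbar) (ht : t ∈ modularFunctionFieldBar M)
    (htm : t ^ m = (f : LaurentSeries Kbar)) : t ∈ modularFunctionFieldBar N := by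
  have hNM : N ∣ M := Dvd.intro c hM.symm
  have hN'M : N' ∣ M := hN'.trans hNM
  rcases eq_or_ne f 0 with rfl | hf
  · have : t = 0 := by
      have h0 : t ^ m = 0 := by rw [htm]; rfl
      exact pow_eq_zero_iff hm.ne' |>.mp h0
    rw [this]
    exact zero_mem _
  have hc0 : c ≠ 0 := by
    rintro rfl
    exact NeZero.ne M (by rw [hM, mul_zero])
  have : NeZero c := ⟨hc0⟩
  have : NeZero m := ⟨hm.ne'⟩
  -- roots of unity
  obtain ⟨ζ₀, hζ₀⟩ := HasEnoughRootsOfUnity.exists_primitiveRoot Kbar c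
  obtain ⟨η, hη⟩ := HasEnoughRootsOfUnity.exists_primitiveRoot Kbar m
  have hζ₀0 : ζ₀ ≠ 0 := hζ₀.ne_zero hc0
  set ζ : Kbarˣ := Units.mk0 ζ₀ hζ₀0 with hζdef
  have hζ : IsPrimitiveRoot ζ c := by
    rw [← IsPrimitiveRoot.coe_units_iff]
    exact hζ₀
  -- elements of `F_N'` are fixed
  obtain ⟨k, hk⟩ := hN'
  have hM' : M = N' * (k * c) := by rw [hM, hk]; ring
  have hζ' : ζ ^ (k * c) = 1 := by rw [mul_comm, pow_mul, hζ.pow_eq_one, one_pow]
  have hfix : ∀ x : FN N', rot ζ (iota0 M (incl hN'M x)) = iota0 M (incl hN'M x) := fun x =>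
    range_incl_le_fixF hM' hζ' ⟨x, rfl⟩
  -- the place at the cusp `0`
  have hnt : ∃ x : FN N', x ≠ 0 ∧ val0 hN'M x ≠ 1 := by
    refine ⟨jF N', ?_, val0_jF_ne_one hN'M⟩
    intro h0
    have := congrArg (fun y : FN N' => (y : LaurentSeries Kbar)) h0
    exact jBar_ne_zero this
  obtain ⟨e, he, hP⟩ := exists_ord_placeOfValuation (val0 hN'M) (val0_algebraMap_le hN'M) hnt
  set P := placeOfValuation (val0 hN'M) (val0_algebraMap_le hN'M) hnt with hPdef
  have hordEq : ∀ x : FN N', x ≠ 0 → (iota0 M (incl hN'M x)).order = (e : ℤ) * P.ord x := by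
    intro x hx
    have := hP x hx
    rwa [val0_eq hN'M hx, WithZero.log_exp, neg_neg] at this
  -- `c ∣ e`
  have hce : (c : ℤ) ∣ (e : ℤ) := by
    obtain ⟨x, hx0, hx1⟩ := exists_ord_eq_one P
    have h1 := hordEq x hx0
    rw [hx1, mul_one] at h1
    rw [← h1]
    exact dvd_order_of_rot_eq hζ (hfix x) (iota0_incl_ne_zero hN'M hx0)
  -- the order of `f` at the cusp `0` is divisible by `c m`
  have hcm : ((c * m : ℕ) : ℤ) ∣ (iota0 M (incl hN'M f)).order := by
    rw [hordEq f hf]
    push_cast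
    exact mul_dvd_mul hce (hord P)
  -- `t` is fixed
  have hpow : (iota0 M ⟨t, ht⟩) ^ m = iota0 M (incl hN'M f) := by
    rw [← map_pow]
    congr 1
    apply Subtype.ext
    rw [incl_coe, ← htm]
    rfl
  have htfix : rot ζ (iota0 M ⟨t, ht⟩) = iota0 M ⟨t, ht⟩ :=
    rot_eq_of_pow hm hζ hη (by rw [hpow]; exact hfix f) (by rw [hpow]; exact hcm)
  exact mem_bar_of_fixed hM hψ hζ ⟨t, ht⟩ htfix

/-- The divisors of `36`. -/
theorem exists_pow_of_dvd_36 {c : ℕ} (hc : c ∣ 36) : ∃ a b : ℕ, c = 2 ^ a * 3 ^ b := by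
  have hle : c ≤ 36 := Nat.le_of_dvd (by norm_num) hc
  interval_cases c
  all_goals first
    | (exfalso; revert hc; decide)
    | exact ⟨0, 0, rfl⟩
    | exact ⟨1, 0, rfl⟩
    | exact ⟨0, 1, rfl⟩
    | exact ⟨2, 0, rfl⟩
    | exact ⟨1, 1, rfl⟩
    | exact ⟨0, 2, rfl⟩
    | exact ⟨2, 1, rfl⟩
    | exact ⟨1, 2, rfl⟩
    | exact ⟨2, 2, rfl⟩

/-- **Package KD**: Kummer descent from level `M` to level `N`. -/
theorem stmt_KD : Stmt_KD := by
  intro N M m _ _ hNM hM36 hm f hord ht
  obtain ⟨t, htM, htm⟩ := ht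
  obtain ⟨c, rfl⟩ := hNM
  have hN0 : N ≠ 0 := NeZero.ne N
  have hc36 : c ∣ 36 := by
    have : N * c ∣ N * 36 := by rwa [mul_comm N 36]
    exact Nat.dvd_of_mul_dvd_mul_left (Nat.pos_of_ne_zero hN0) this
  obtain ⟨a, b, rfl⟩ := exists_pow_of_dvd_36 hc36
  have h1 : NeZero (N * 2 ^ a) := ⟨Nat.mul_ne_zero hN0 (by positivity)⟩
  -- first step: from `M` to `N * 2 ^ a`
  have hstep1 : t ∈ modularFunctionFieldBar (N * 2 ^ a) := by
    refine kd_step (N := N * 2 ^ a) (M := N * (2 ^ a * 3 ^ b)) (c := 3 ^ b) (by ring) ?_ hm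
      (N' := N) (Dvd.intro _ rfl) f hord t htM htm
    have := psi_lt (N * 2 ^ a) 3 b (NeZero.ne _) Nat.prime_three
    rwa [mul_assoc] at this
  -- second step: from `N * 2 ^ a` to `N`
  have hstep2 : t ∈ modularFunctionFieldBar N :=
    kd_step (N := N) (M := N * 2 ^ a) (c := 2 ^ a) rfl (psi_lt N 2 a hN0 Nat.prime_two) hm
      (N' := N) dvd_rfl f hord t hstep1 htm
  exact ⟨⟨t, hstep2⟩, Subtype.ext htm⟩

end Fermat.Agent.RED.KD.H22

end
end
-- ==== END Fermat.Agent.RED.KD.H22_KD

-- ==== BEGIN Fermat.Agent.S15.H30_CuspUnitC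
section

/-!
# S15, package CUSP-tors (helper30), part 1: the modular unit `Δ(z)/Δ(pz)` over `ℂ`

The conjugate data (`Fermat.Agent.S28.CAData p`) of the eta quotient `u = Δ(z)/Δ(pz)` on `X₀(p)`,
`p` prime: the conjugate at the identity coset has `t`-order `-(p-1) p` (`t = q^(1/p)`), all
other conjugates have `t`-order `p - 1`; the norm `∏_q u_q` is a nonzero constant
(`prod_deltaU_eq_C`).
-/

set_option autoImplicit false
set_option linter.unusedSectionVars false
set_option linter.unusedVariables false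

open UpperHalfPlane ModularForm ModularCurve Function SlashInvariantForm
open scoped MatrixGroups ModularForm Manifold Real

noncomputable section

namespace Fermat.Agent.S15.H30

open Fermat.Agent.S23.H22 (G0 Q toSL piPerm q1 E12)
open Fermat.Agent.S28 Fermat.Agent.S28.H30

/-- The levels: `false ↦ Δ(z)`, `true ↦ Δ(pz)`. -/
def dM (p : ℕ) (i : Bool) : ℕ := if i then p else 1

/-- The exponents of the numerator. -/
def dP (i : Bool) : ℕ := if i then 0 else 1

/-- The exponents of the denominator. -/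
def dMm (i : Bool) : ℕ := if i then 1 else 0

lemma dM_dvd (p : ℕ) : ∀ i ∈ (Finset.univ : Finset Bool), dM p i ∣ p := by
  intro i _
  cases i
  · exact one_dvd p
  · exact dvd_rfl

variable (p : ℕ) [NeZero p]

/-- The conjugates of `Δ(z)/Δ(pz)`. -/
def deltaU (q : Q p) : LaurentSeries ℂ := Ueta p Finset.univ (dM p) dP dMm q

/-- The conjugates of `Δ(pz)/Δ(z)`. -/
def deltaV (q : Q p) : LaurentSeries ℂ := Ueta p Finset.univ (dM p) dMm dP q

lemma uls_deltaU (γ : SL(2, ℤ)) :
    ULS (coeffRing p) (deltaU p (⟦toSL γ⟧ : Q p))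
      ((p : ℤ) - ((Int.gcd ((γ⁻¹ : SL(2, ℤ)) 1 0) (p : ℤ) : ℕ) : ℤ) ^ 2) := by
  refine ULS.congr_ord (uls_Ueta (mp := dP) (mm := dMm) (dM_dvd p) γ) ?_
  have hp0 : 0 < p := Nat.pos_of_ne_zero (NeZero.ne p)
  rw [Fintype.sum_bool]
  simp only [dP, dMm, dM, ordAt, if_true, Bool.false_eq_true, if_false, Nat.cast_one,
    Int.gcd_one, Nat.div_self hp0, Nat.div_one]
  push_cast
  ring

lemma deltaU_order_q1 : (deltaU p (q1 : Q p)).order = -(((p - 1 : ℕ) : ℤ) * (p : ℤ)) := by
  have hq : (q1 : Q p) = (⟦toSL (1 : SL(2, ℤ))⟧ : Q p) :=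
    (mk_toSL_eq_q1' p (one_mem _)).symm
  rw [hq, (uls_deltaU p 1).ord]
  have hp0 : 1 ≤ p := Nat.pos_of_ne_zero (NeZero.ne p)
  have h0 : ((1 : SL(2, ℤ))⁻¹ : SL(2, ℤ)) 1 0 = 0 := by simp
  rw [h0, Int.gcd_zero_left, Int.natAbs_natCast, Nat.cast_sub hp0]
  push_cast
  ring

lemma deltaU_order_of_ne (hp : p.Prime) (q : Q p) (hq : q ≠ q1) :
    (deltaU p q).order = (p : ℤ) - 1 := by
  obtain ⟨γ, rfl⟩ := exists_rep p q
  rw [(uls_deltaU p γ).ord]
  have hc := not_dvd_of_ne_q1 p hq
  have hg : Int.gcd ((γ⁻¹ : SL(2, ℤ)) 1 0) (p : ℤ) = 1 := by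
    rw [Int.gcd_comm]
    have hpi : Prime (p : ℤ) := Nat.prime_iff_prime_int.mp hp
    exact Int.isCoprime_iff_gcd_eq_one.mp ((Prime.coprime_iff_not_dvd hpi).mpr hc)
  rw [hg]
  simp

lemma deltaU_order_pos (hp : p.Prime) (q : Q p) (hq : q ≠ q1) : 0 < (deltaU p q).order := by
  rw [deltaU_order_of_ne p hp q hq]
  have : (2 : ℤ) ≤ p := by exact_mod_cast hp.two_le
  omega

/-- The conjugate data of `Δ(z)/Δ(pz)`. -/
def caDataDelta (hp : p.Prime) : CAData p where
  Q := Q p
  instFintype := inferInstance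
  q₀ := q1
  D := p - 1
  D_pos := Nat.sub_pos_of_lt hp.one_lt
  U := deltaU p
  X := fun d q => Fermat.Agent.S28.H76.Xfam p d q
  U_coeff := fun q n => by
    obtain ⟨γ, rfl⟩ := exists_rep p q
    exact (uls_deltaU p γ).coeffs n
  U_ne := fun q => by
    obtain ⟨γ, rfl⟩ := exists_rep p q
    exact (uls_deltaU p γ).ne
  U_lead := fun q => by
    obtain ⟨γ, rfl⟩ := exists_rep p q
    exact (uls_deltaU p γ).lead
  U_order₀ := deltaU_order_q1 p
  U_order_pos := fun q hq => deltaU_order_pos p hp q hq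
  X_q₀ := fun d _ hd => Fermat.Agent.S28.H76.Xfam_q1 p hd
  sym := fun d hd c s =>
    sym_of_stmt (mp := dP) (mm := dMm) Fermat.Agent.S28.H76.stmt_sym
      (dM_dvd p) (by simp [dP, dMm]) hd c s

lemma caDataDelta_X_coeff (hp : p.Prime) (d : ℕ) (q : (caDataDelta p hp).Q) (n : ℤ)
    (hd : d ∣ p) : ((caDataDelta p hp).X d q).coeff n ∈ coeffRing p :=
  Xfam_coeff_mem p hd q n

lemma caDataDelta_X_top (hp : p.Prime) (q : (caDataDelta p hp).Q)
    (hq : q ≠ (caDataDelta p hp).q₀) :
    ((caDataDelta p hp).X p q).coeff (-((p : ℤ) ^ 2)) = 0 :=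
  Xfam_coeff_neg_sq p q hq

/-! ### The norm is constant -/

lemma deltaU_mul_deltaV (q : Q p) : deltaU p q * deltaV p q = 1 := by
  unfold deltaU deltaV Ueta
  have h1 : pexp p (prodF p Finset.univ (dM p) dP q) ≠ 0 :=
    pexp_ne_zero (prodF_BPH (dM_dvd p) dP q) (z := UpperHalfPlane.I)
      (prodF_ne_zero (dM_dvd p) dP q _)
  have h2 : pexp p (prodF p Finset.univ (dM p) dMm q) ≠ 0 :=
    pexp_ne_zero (prodF_BPH (dM_dvd p) dMm q) (z := UpperHalfPlane.I)
      (prodF_ne_zero (dM_dvd p) dMm q _)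
  field_simp

lemma prod_neg_deltaU_mem :
    (∏ q : Q p, (-deltaU p q)) ∈ Algebra.adjoin ℂ ({iotaN p jq} : Set (LaurentSeries ℂ)) := by
  have h := sym_of_stmt (N := p) (mp := dP) (mm := dMm) Fermat.Agent.S28.H76.stmt_sym
    (dM_dvd p) (by simp [dP, dMm]) (one_dvd p) 0 0
  convert h using 1
  refine Finset.prod_congr rfl fun q _ => ?_
  rw [map_zero, zero_mul, sub_zero, zero_sub]
  rfl

lemma prod_neg_deltaV_mem :
    (∏ q : Q p, (-deltaV p q)) ∈ Algebra.adjoin ℂ ({iotaN p jq} : Set (LaurentSeries ℂ)) := by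
  have h := sym_of_stmt (N := p) (mp := dMm) (mm := dP) Fermat.Agent.S28.H76.stmt_sym
    (dM_dvd p) (by simp [dP, dMm]) (one_dvd p) 0 0
  convert h using 1
  refine Finset.prod_congr rfl fun q _ => ?_
  rw [map_zero, zero_mul, sub_zero, zero_sub]
  rfl

/-- A polynomial in a series `J` with a pole which is invertible among the polynomials in `J`
is a constant. -/
lemma eq_C_of_mul_eq_one {K : Type} [Field K] {J A B : LaurentSeries K} (hJ : J.order < 0)
    (hA : A ∈ Algebra.adjoin K ({J} : Set (LaurentSeries K)))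
    (hB : B ∈ Algebra.adjoin K ({J} : Set (LaurentSeries K))) (hAB : A * B = 1) :
    ∃ c : K, c ≠ 0 ∧ A = HahnSeries.C c := by
  rw [Algebra.adjoin_singleton_eq_range_aeval] at hA hB
  obtain ⟨a, ha⟩ := hA
  obtain ⟨b, hb⟩ := hB
  have ha' : Polynomial.aeval J a = A := ha
  have hb' : Polynomial.aeval J b = B := hb
  subst ha'
  subst hb'
  have hA0 : Polynomial.aeval J a ≠ 0 := left_ne_zero_of_mul_eq_one hAB
  have hB0 : Polynomial.aeval J b ≠ 0 := right_ne_zero_of_mul_eq_one hAB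
  have ha0 : a ≠ 0 := by rintro rfl; exact hA0 (map_zero _)
  have hb0 : b ≠ 0 := by rintro rfl; exact hB0 (map_zero _)
  have hJ1 := Fermat.Agent.S28.H90.one_lt_tVal_of_order_neg hJ
  have hva := Fermat.Agent.S28.H73.valuation_aeval_eq_pow (Fermat.Agent.S28.H90.tVal K)
    (fun _ hc => Fermat.Agent.S28.H90.tVal_algebraMap hc) hJ1 a ha0
  have hvb := Fermat.Agent.S28.H73.valuation_aeval_eq_pow (Fermat.Agent.S28.H90.tVal K)
    (fun _ hc => Fermat.Agent.S28.H90.tVal_algebraMap hc) hJ1 b hb0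
  have hprod : Fermat.Agent.S28.H90.tVal K (Polynomial.aeval J a)
      * Fermat.Agent.S28.H90.tVal K (Polynomial.aeval J b) = 1 := by
    rw [← map_mul, hAB, map_one]
  rw [hva, hvb, ← pow_add] at hprod
  have hdeg : a.natDegree + b.natDegree = 0 := by
    by_contra hne
    have := one_lt_pow₀ hJ1 hne
    rw [hprod] at this
    exact lt_irrefl _ this
  have hda : a.natDegree = 0 := by omega
  obtain ⟨c, hc⟩ := Polynomial.natDegree_eq_zero.mp hda
  refine ⟨c, ?_, ?_⟩
  · rintro rfl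
    apply ha0
    rw [← hc, map_zero]
  · rw [← hc, Polynomial.aeval_C, LaurentSeries.algebraMap_apply]

lemma iotaN_jq_order : (iotaN p jq).order < 0 := by
  have h := Fermat.Agent.RED.H30.coeffMap_qExpand_jqModC_one (RingHom.id ℂ) p
  rw [coeffMap_id] at h
  have h2 := Fermat.Agent.RED.H73.JL_order ℂ p
  unfold Fermat.Agent.RED.H73.JL at h2
  rw [h] at h2
  rw [h2]
  have : (0 : ℤ) < p := by exact_mod_cast Nat.pos_of_ne_zero (NeZero.ne p)
  omega

/-- **The norm of the modular unit is a nonzero constant.** -/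
theorem prod_deltaU_eq_C : ∃ c : ℂ, c ≠ 0 ∧ ∏ q : Q p, deltaU p q = HahnSeries.C c := by
  have hAB : (∏ q : Q p, (-deltaU p q)) * (∏ q : Q p, (-deltaV p q)) = 1 := by
    rw [← Finset.prod_mul_distrib]
    refine Finset.prod_eq_one fun q _ => ?_
    have e : -deltaU p q * -deltaV p q = deltaU p q * deltaV p q := by ring
    rw [e, deltaU_mul_deltaV]
  obtain ⟨c, hc, hA⟩ := eq_C_of_mul_eq_one (_root_.Fermat.Agent.S15.H30.iotaN_jq_order p) (prod_neg_deltaU_mem p)
    (prod_neg_deltaV_mem p) hAB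
  refine ⟨(-1) ^ Fintype.card (Q p) * c, mul_ne_zero (pow_ne_zero _ (by norm_num)) hc, ?_⟩
  have h0 : ∏ q : Q p, (-deltaU p q) = (-1) ^ Fintype.card (Q p) * ∏ q : Q p, deltaU p q := by
    have e : ∀ q : Q p, -deltaU p q = (-1) * deltaU p q := fun q => by ring
    simp only [e]
    rw [Finset.prod_mul_distrib, Finset.prod_const, Finset.card_univ]
  have h1 : ∏ q : Q p, deltaU p q = (-1) ^ Fintype.card (Q p) * ∏ q : Q p, (-deltaU p q) := by
    have e2 : ((-1 : LaurentSeries ℂ) ^ Fintype.card (Q p)) * (-1) ^ Fintype.card (Q p) = 1 := by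
      have e3 : (-1 : LaurentSeries ℂ) * (-1) = 1 := by ring
      rw [← mul_pow, e3, one_pow]
    rw [h0, ← mul_assoc, e2, one_mul]
  rw [h1, hA, map_mul, map_pow, map_neg, map_one]

end Fermat.Agent.S15.H30

end
end
-- ==== END Fermat.Agent.S15.H30_CuspUnitC
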