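-- GENERATED (merged mirror, NOTES/tools/trim/merge3_helper67.py): 7 modules of the originals, bodies verbatim.
import Mathlib
import Fermat.Prelude.Thm_CongruenceSubgroup_one_mem_strictPeriods_Gamma0
import Fermat.Agent.Zm.S35_L08_001
import Fermat.Agent.Zm.S35_L11_000
import Fermat.Agent.Zm.S35_L06_002
import Fermat.Agent.Zm.S35_L09_001
import Fermat.Agent.Zm.S35_L04_000
import Fermat.Agent.Zm.S35_L01_000
import Fermat.Agent.Zm.S35_L11_001
import Fermat.Agent.Zm.S35_L02_001

-- ==== BEGIN Fermat.Agent.BAD.H60_GoodLift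
section

/-!
# Item 65, package ABS, leaf 7 (helper60): `Stmt_GoodLift` from `Stmt_TwSurj`

`goodLift_of : Stmt_TwSurj → Stmt_GoodLift`.

The trivial twist (`f = 1`, `ϑ = 1`, `n = 1`) and `G = M (∑_{Q ∈ A₁} P_Q + ∑_{Q ∈ A₂} P_Q)`, where
`A_i` contains the poles of `y_i` and one more good point, `P_Q` is a place over `Q` and `M` is
large.  The multipliers are `1` because `(1, 1)` lies in the reduction.
-/

set_option autoImplicit false
set_option linter.style.haveILetI false

noncomputable section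

open AlgebraicCurve

attribute [local instance] Classical.propDecidable

namespace Fermat.Agent.BAD.H60

open Fermat.Agent.RED.H17 Fermat.Agent.RED

local notation "L" => riemannRochSpace

/-! ### More on push-forwards -/

section Push

variable {K F k F' : Type*} [Field K] [Field F] [Algebra K F] [Field k] [Field F']
  [Algebra k F']

theorem pushOpt_zero (r : Place K F → Option (Place k F')) :
    pushOpt r (0 : Divisor K F) = 0 := by
  unfold pushOpt
  rw [Finsupp.mapDomain_zero]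
  ext Q
  rw [Finsupp.some_apply]
  rfl

/-- The push-forward as an additive map. -/
def pushOptHom (r : Place K F → Option (Place k F')) : Divisor K F →+ Divisor k F' where
  toFun := pushOpt r
  map_zero' := pushOpt_zero r
  map_add' := pushOpt_add r

theorem pushOptHom_apply (r : Place K F → Option (Place k F')) (D : Divisor K F) :
    pushOptHom r D = pushOpt r D := rfl

theorem pushOpt_nsmul (r : Place K F → Option (Place k F')) (M : ℕ) (D : Divisor K F) :
    pushOpt r (M • D) = M • pushOpt r D := by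
  rw [← pushOptHom_apply, map_nsmul, pushOptHom_apply]

theorem pushOpt_single_some (r : Place K F → Option (Place k F')) {P : Place K F}
    {Q : Place k F'} (h : r P = some Q) (m : ℤ) :
    pushOpt r (Finsupp.single P m) = Finsupp.single Q m := by
  rw [pushOpt_single, h]

theorem pushOpt_single_none (r : Place K F → Option (Place k F')) {P : Place K F}
    (h : r P = none) (m : ℤ) :
    pushOpt r (Finsupp.single P m) = 0 := by
  rw [pushOpt_single, h]

theorem pushOpt_ptsDiv_image (r : Place K F → Option (Place k F'))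
    (p : Place k F' → Place K F) (A : Finset (Place k F'))
    (h : ∀ Q ∈ A, r (p Q) = some Q) : pushOpt r (ptsDiv (A.image p)) = ptsDiv A := by
  have hinj : Set.InjOn p A := by
    intro Q hQ Q' hQ' hpp
    have h1 := h Q hQ
    rw [hpp, h Q' hQ'] at h1
    exact (Option.some.inj h1).symm
  unfold ptsDiv
  rw [Finset.sum_image hinj, ← pushOptHom_apply, map_sum]
  refine Finset.sum_congr rfl fun Q hQ => ?_
  rw [pushOptHom_apply, pushOpt_single_some r (h Q hQ)]

theorem pushOpt_ptsDiv_none (r : Place K F → Option (Place k F'))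
    (B : Finset (Place K F)) (h : ∀ P ∈ B, r P = none) : pushOpt r (ptsDiv B) = 0 := by
  unfold ptsDiv
  rw [← pushOptHom_apply, map_sum]
  refine Finset.sum_eq_zero fun P hP => ?_
  rw [pushOptHom_apply, pushOpt_single_none r (h P hP)]

end Push

section Poles

variable {k F : Type*} [Field k] [Field F] [Algebra k F]

/-- The poles of a function. -/
def polesOf (hP : HasPrincipalDivisors k F) (y : F) : Finset (Place k F) :=
  (dv hP y).support.filter fun Q => Q.ord y < 0

theorem mem_polesOf (hP : HasPrincipalDivisors k F) (y : F) (Q : Place k F) :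
    Q ∈ polesOf hP y ↔ Q.ord y < 0 := by
  unfold polesOf
  rw [Finset.mem_filter, Finsupp.mem_support_iff, dv_apply]
  constructor
  · exact fun h => h.2
  · exact fun h => ⟨by omega, h⟩

/-- `y ∈ L(M A)` if `A` contains the poles of `y` and `M` bounds the pole orders. -/
theorem mem_L_nsmul_ptsDiv (hP : HasPrincipalDivisors k F) (y : F) (A : Finset (Place k F))
    (M : ℕ) (hA : polesOf hP y ⊆ A) (hM : ∀ Q ∈ A, -(M : ℤ) ≤ Q.ord y) :
    y ∈ L (M • ptsDiv A) := by
  rw [mem_L_iff_ord]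
  intro Q
  right
  rw [Finsupp.smul_apply, ptsDiv_apply, nsmul_eq_mul]
  by_cases hQ : Q ∈ A
  · rw [if_pos hQ, mul_one]
    exact hM Q hQ
  · rw [if_neg hQ, mul_zero, neg_zero]
    by_contra hneg
    push Not at hneg
    exact hQ (hA ((mem_polesOf hP y Q).mpr hneg))

end Poles

section Triv

variable {K F k F₁ F₂ : Type*} [Field K] [Field F] [Algebra K F] [Field k] [Field F₁]
  [Algebra k F₁] [Field F₂] [Algebra k F₂] (S : SSD K F k F₁ F₂)

/-- The trivial twist. -/
def trivTwist : S.Twist 1 where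
  f := 1
  ϑ := 1
  hϑ := one_ne_zero
  hf₁ := S.c₁.V.one_mem
  hrd₁ := S.c₁.rd_one
  hf₂ := by
    rw [pow_one, div_one]
    exact S.c₂.isGU_one
  hdiv := fun P => by
    rw [Nat.cast_one]
    exact one_dvd _
  hγ := fun s _ => by
    rw [pow_one, div_one, S.c₂.rd_one, Place.ord_one]

theorem trivTwist_ϑ : (trivTwist S).ϑ = 1 := rfl

theorem trivTwist_γ : (trivTwist S).γ = 1 := by
  unfold SSD.Twist.γ
  show S.c₂.rd ((1 : F) / 1 ^ 1) = 1
  rw [pow_one, div_one, S.c₂.rd_one]

theorem trivTwist_Dx (hP : HasPrincipalDivisors K F) : (trivTwist S).Dx hP = 0 := by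
  ext P
  unfold SSD.Twist.Dx
  rw [mapRange_div_apply, dv_apply]
  show P.ord (1 : F) / ((1 : ℕ) : ℤ) = 0
  rw [Place.ord_one, Int.zero_ediv]

theorem trivTwist_Δ (hP₂ : HasPrincipalDivisors k F₂) : (trivTwist S).Δ hP₂ = 0 := by
  ext P
  unfold SSD.Twist.Δ
  rw [mapRange_div_apply, dv_apply, trivTwist_γ, Place.ord_one, Int.zero_ediv]
  rfl

/-- A place over a good point of the second component does not reduce to the first one. -/
theorem r₁_eq_none_of_r₂ {P : Place K F} {Q : Place k F₂} (hQ : Q ∈ S.c₂.good)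
    (h : S.c₂.r P = some Q) : S.c₁.r P = none := by
  rcases S.r_cases P with ⟨Q', _, _, h2⟩ | ⟨Q', _, _, h1⟩ | ⟨s', hs', _, h2⟩
  · rw [h2] at h; exact absurd h (by simp)
  · exact h1
  · rw [h2] at h
    exact absurd (Option.some.inj h) ((S.good₂ Q).mp hQ s' hs')

/-- A place over a good point of the first component does not reduce to the second one. -/
theorem r₂_eq_none_of_r₁ {P : Place K F} {Q : Place k F₁} (hQ : Q ∈ S.c₁.good)
    (h : S.c₁.r P = some Q) : S.c₂.r P = none := by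
  rcases S.r_cases P with ⟨Q', _, _, h2⟩ | ⟨Q', _, _, h1⟩ | ⟨s', hs', h1, _⟩
  · exact h2
  · rw [h1] at h; exact absurd h (by simp)
  · rw [h1] at h
    exact absurd (Option.some.inj h) ((S.good₁ Q).mp hQ s' hs')

theorem not_mem_br₁_iff (Q : Place k F₁) : Q ∉ S.br₁ ↔ Q ∈ S.c₁.good := by
  rw [S.good₁]
  unfold SSD.br₁
  rw [Finset.mem_image]
  constructor
  · intro h s hs hsQ
    exact h ⟨s, hs, hsQ⟩
  · rintro h ⟨s, hs, hsQ⟩
    exact h s hs hsQ

theorem not_mem_br₂_iff (Q : Place k F₂) : Q ∉ S.br₂ ↔ Q ∈ S.c₂.good := by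
  rw [S.good₂]
  unfold SSD.br₂
  rw [Finset.mem_image]
  constructor
  · intro h s hs hsQ
    exact h ⟨s, hs, hsQ⟩
  · rintro h ⟨s, hs, hsQ⟩
    exact h s hs hsQ

end Triv

/-- The set `A` for one component: the poles of `y` and one more point, outside `T` and the
branches. -/
theorem exists_pole_set {k F : Type*} [Field k] [Field F] [Algebra k F] [Infinite k]
    (H : FFHyp k F) (y : F) (T B : Finset (Place k F)) (hT : ∀ Q ∈ T, 0 ≤ Q.ord y)
    (hB : ∀ Q ∈ B, 0 ≤ Q.ord y) :
    ∃ A : Finset (Place k F), A.Nonempty ∧ polesOf H.principal y ⊆ A ∧ Disjoint A T ∧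
      Disjoint A B := by
  obtain ⟨Q₀, hQ₀⟩ := H.exists_notMem (T ∪ B)
  rw [Finset.mem_union, not_or] at hQ₀
  refine ⟨insert Q₀ (polesOf H.principal y), Finset.insert_nonempty _ _,
    Finset.subset_insert _ _, ?_, ?_⟩
  · rw [Finset.disjoint_insert_left]
    refine ⟨hQ₀.1, ?_⟩
    rw [Finset.disjoint_left]
    intro Q hQ hQT
    rw [mem_polesOf] at hQ
    have := hT Q hQT
    omega
  · rw [Finset.disjoint_insert_left]
    refine ⟨hQ₀.2, ?_⟩
    rw [Finset.disjoint_left]
    intro Q hQ hQT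
    rw [mem_polesOf] at hQ
    have := hB Q hQT
    omega

/-- **Leaf 7**: good lifts, from the surjectivity of the (untwisted) reduction. -/
theorem goodLift_of (hTS : Stmt_TwSurj) : Stmt_GoodLift := by
  intro K F k F₁ F₂ _ _ _ _ _ _ _ _ _ S H H₁ H₂ g g₁ g₂ c c₁ c₂ hR hR₁ hR₂ hnum y₁ y₂ T₁ T₂
    hT₁ hT₂ hglue
  -- regularity at the branches
  have hB₁ : ∀ Q ∈ S.br₁, 0 ≤ Q.ord y₁ := by
    intro Q hQ
    obtain ⟨s, hs, rfl⟩ := Finset.mem_image.mp hQ
    obtain ⟨a, ha, -⟩ := hglue s hs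
    exact (RegAt.of_vanAt_sub ha).ord_nonneg
  have hB₂ : ∀ Q ∈ S.br₂, 0 ≤ Q.ord y₂ := by
    intro Q hQ
    obtain ⟨s, hs, rfl⟩ := Finset.mem_image.mp hQ
    obtain ⟨a, -, ha⟩ := hglue s hs
    exact (RegAt.of_vanAt_sub ha).ord_nonneg
  obtain ⟨A₁, hA₁ne, hA₁p, hA₁T, hA₁B⟩ := exists_pole_set H₁ y₁ T₁ S.br₁ hT₁ hB₁
  obtain ⟨A₂, hA₂ne, hA₂p, hA₂T, hA₂B⟩ := exists_pole_set H₂ y₂ T₂ S.br₂ hT₂ hB₂
  have hgood₁ : ∀ Q ∈ A₁, Q ∈ S.c₁.good := fun Q hQ =>
    (not_mem_br₁_iff S Q).mp (Finset.disjoint_left.mp hA₁B hQ)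
  have hgood₂ : ∀ Q ∈ A₂, Q ∈ S.c₂.good := fun Q hQ =>
    (not_mem_br₂_iff S Q).mp (Finset.disjoint_left.mp hA₂B hQ)
  -- places over the points of `A₁`, `A₂`
  have hex₁ : ∀ Q : Place k F₁, ∃ P : Place K F, Q ∈ S.c₁.good → S.c₁.r P = some Q := by
    intro Q
    by_cases hQ : Q ∈ S.c₁.good
    · obtain ⟨P, hP⟩ := S.c₁.r_surjective H.principal Q hQ
      exact ⟨P, fun _ => hP⟩
    · obtain ⟨P⟩ : Nonempty (Place K F) := by
        haveI := H₁.infinite_place
        obtain ⟨Q', hQ'⟩ := H₁.exists_notMem S.br₁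
        obtain ⟨P, -⟩ := S.c₁.r_surjective H.principal Q' ((not_mem_br₁_iff S Q').mp hQ')
        exact ⟨P⟩
      exact ⟨P, fun h => absurd h hQ⟩
  have hex₂ : ∀ Q : Place k F₂, ∃ P : Place K F, Q ∈ S.c₂.good → S.c₂.r P = some Q := by
    intro Q
    by_cases hQ : Q ∈ S.c₂.good
    · obtain ⟨P, hP⟩ := S.c₂.r_surjective H.principal Q hQ
      exact ⟨P, fun _ => hP⟩
    · obtain ⟨P⟩ : Nonempty (Place K F) := by
        obtain ⟨Q', hQ'⟩ := H₁.exists_notMem S.br₁
        obtain ⟨P, -⟩ := S.c₁.r_surjective H.principal Q' ((not_mem_br₁_iff S Q').mp hQ')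
        exact ⟨P⟩
      exact ⟨P, fun h => absurd h hQ⟩
  choose p₁ hp₁ using hex₁
  choose p₂ hp₂ using hex₂
  have hr₁ : ∀ Q ∈ A₁, S.c₁.r (p₁ Q) = some Q := fun Q hQ => hp₁ Q (hgood₁ Q hQ)
  have hr₂ : ∀ Q ∈ A₂, S.c₂.r (p₂ Q) = some Q := fun Q hQ => hp₂ Q (hgood₂ Q hQ)
  -- the multiplicity
  set M : ℕ := (c₁ + S.nodes.card).toNat + (c₂ + S.nodes.card).toNat +
    ∑ Q ∈ A₁, (Q.ord y₁).natAbs + ∑ Q ∈ A₂, (Q.ord y₂).natAbs with hM
  have hM₁ : ∀ Q ∈ A₁, -(M : ℤ) ≤ Q.ord y₁ := by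
    intro Q hQ
    have h1 : (Q.ord y₁).natAbs ≤ ∑ Q' ∈ A₁, (Q'.ord y₁).natAbs :=
      Finset.single_le_sum (f := fun Q' : Place k F₁ => (Q'.ord y₁).natAbs)
        (fun _ _ => Nat.zero_le _) hQ
    have h2 : (Q.ord y₁).natAbs ≤ M := by omega
    have h3 : ((Q.ord y₁).natAbs : ℤ) ≤ (M : ℤ) := by exact_mod_cast h2
    omega
  have hM₂ : ∀ Q ∈ A₂, -(M : ℤ) ≤ Q.ord y₂ := by
    intro Q hQ
    have h1 : (Q.ord y₂).natAbs ≤ ∑ Q' ∈ A₂, (Q'.ord y₂).natAbs :=
      Finset.single_le_sum (f := fun Q' : Place k F₂ => (Q'.ord y₂).natAbs)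
        (fun _ _ => Nat.zero_le _) hQ
    have h2 : (Q.ord y₂).natAbs ≤ M := by omega
    have h3 : ((Q.ord y₂).natAbs : ℤ) ≤ (M : ℤ) := by exact_mod_cast h2
    omega
  -- the divisor `G`
  set G : Divisor K F := M • (ptsDiv (A₁.image p₁) + ptsDiv (A₂.image p₂)) with hGdef
  have hGsupp : ∀ P, G P ≠ 0 → (∃ Q ∈ A₁, P = p₁ Q) ∨ ∃ Q ∈ A₂, P = p₂ Q := by
    intro P hP
    by_contra hcon
    rw [not_or] at hcon
    apply hP
    rw [hGdef, Finsupp.smul_apply, Finsupp.add_apply, ptsDiv_apply, ptsDiv_apply, if_neg,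
      if_neg, add_zero, smul_zero]
    · intro h
      obtain ⟨Q, hQ, rfl⟩ := Finset.mem_image.mp h
      exact hcon.2 ⟨Q, hQ, rfl⟩
    · intro h
      obtain ⟨Q, hQ, rfl⟩ := Finset.mem_image.mp h
      exact hcon.1 ⟨Q, hQ, rfl⟩
  have hnotnode : ∀ P, G P ≠ 0 → ¬ S.IsNodeP P := by
    intro P hP
    rintro ⟨s, hs, hsP⟩
    rcases hGsupp P hP with ⟨Q, hQ, rfl⟩ | ⟨Q, hQ, rfl⟩
    · rw [hr₁ Q hQ] at hsP
      exact (S.good₁ Q).mp (hgood₁ Q hQ) s hs (Option.some.inj hsP).symm
    · rw [r₁_eq_none_of_r₂ S (hgood₂ Q hQ) (hr₂ Q hQ)] at hsP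
      exact absurd hsP (by simp)
  have hG : S.GoodPos G := hnotnode
  have hpush₁ : S.push₁ G = M • ptsDiv A₁ := by
    rw [push₁_eq, hGdef, pushOpt_nsmul, pushOpt_add, pushOpt_ptsDiv_image _ _ _ hr₁,
      pushOpt_ptsDiv_none, add_zero]
    intro P hP
    obtain ⟨Q, hQ, rfl⟩ := Finset.mem_image.mp hP
    exact r₁_eq_none_of_r₂ S (hgood₂ Q hQ) (hr₂ Q hQ)
  have hpush₂ : S.push₂ G = M • ptsDiv A₂ := by
    rw [push₂_eq, hGdef, pushOpt_nsmul, pushOpt_add, pushOpt_ptsDiv_image _ _ _ hr₂,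
      pushOpt_ptsDiv_none, zero_add]
    intro P hP
    obtain ⟨Q, hQ, rfl⟩ := Finset.mem_image.mp hP
    exact r₂_eq_none_of_r₁ S (hgood₁ Q hQ) (hr₁ Q hQ)
  have hcard₁ : 1 ≤ A₁.card := Finset.card_pos.mpr hA₁ne
  have hcard₂ : 1 ≤ A₂.card := Finset.card_pos.mpr hA₂ne
  have hd₁ : c₁ + S.nodes.card ≤ Divisor.degree (S.push₁ G) := by
    rw [hpush₁, map_nsmul, degree_ptsDiv H₁.deg_one, nsmul_eq_mul]
    have h1 : (M : ℤ) * 1 ≤ (M : ℤ) * (A₁.card : ℤ) :=
      mul_le_mul_of_nonneg_left (by exact_mod_cast hcard₁) (Int.natCast_nonneg M)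
    have h2 : c₁ + S.nodes.card ≤ (M : ℤ) := by
      have := Int.self_le_toNat (c₁ + S.nodes.card)
      have h3 : ((c₁ + S.nodes.card).toNat : ℤ) ≤ (M : ℤ) := by
        exact_mod_cast (by omega : (c₁ + S.nodes.card).toNat ≤ M)
      omega
    omega
  have hd₂ : c₂ + S.nodes.card ≤ Divisor.degree (S.push₂ G) := by
    rw [hpush₂, map_nsmul, degree_ptsDiv H₂.deg_one, nsmul_eq_mul]
    have h1 : (M : ℤ) * 1 ≤ (M : ℤ) * (A₂.card : ℤ) :=
      mul_le_mul_of_nonneg_left (by exact_mod_cast hcard₂) (Int.natCast_nonneg M)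
    have h2 : c₂ + S.nodes.card ≤ (M : ℤ) := by
      have := Int.self_le_toNat (c₂ + S.nodes.card)
      have h3 : ((c₂ + S.nodes.card).toNat : ℤ) ≤ (M : ℤ) := by
        exact_mod_cast (by omega : (c₂ + S.nodes.card).toNat ≤ M)
      omega
    omega
  -- surjectivity of the reduction
  obtain ⟨lam, hlam, hRL, -⟩ := hTS K F k F₁ F₂ S H H₁ H₂ g g₁ g₂ c c₁ c₂ hR hR₁ hR₂ hnum 1
    (by rw [Nat.cast_one]; exact one_ne_zero) (trivTwist S) G hG hd₁ hd₂
  rw [trivTwist_Dx, trivTwist_Δ, zero_add, add_zero, trivTwist_ϑ, hpush₁, hpush₂] at hRL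
  have hGnn : ∀ P, 0 ≤ G P := by
    intro P
    rw [hGdef, Finsupp.smul_apply, Finsupp.add_apply, nsmul_eq_mul]
    have h1 := ptsDiv_nonneg (A₁.image p₁) P
    have h2 := ptsDiv_nonneg (A₂.image p₂) P
    positivity
  -- the multipliers are `1`
  have hlam1 : ∀ s ∈ S.nodes, lam s = 1 := by
    intro s hs
    have h11 : ((1 : F₁), (1 : F₂)) ∈ S.Rsub 1 G := by
      rw [S.mem_Rsub]
      refine ⟨1, one_mem_L_of_nonneg hGnn, S.c₁.V.one_mem, ?_, S.c₁.rd_one, ?_⟩
      · rw [mul_one]; exact S.c₂.V.one_mem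
      · rw [mul_one]; exact S.c₂.rd_one
    rw [hRL, S.mem_Lam] at h11
    obtain ⟨a, ha1, ha2⟩ := h11.2.2 s hs
    have ha : a = 1 := by
      by_contra hne
      have h0 : (1 : F₁) - algebraMap k F₁ a = algebraMap k F₁ (1 - a) := by
        rw [map_sub, map_one]
      rw [h0] at ha1
      exact not_vanAt_algebraMap s.1 (sub_ne_zero.mpr (Ne.symm hne)) ha1
    subst ha
    by_contra hne
    have h0 : algebraMap k F₂ (lam s) * (1 : F₂) - algebraMap k F₂ 1 =
        algebraMap k F₂ (lam s - 1) := by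
      rw [map_sub, mul_one]
    rw [h0] at ha2
    exact not_vanAt_algebraMap s.2 (sub_ne_zero.mpr hne) ha2
  -- the pair `(y₁, y₂)` lies in `Λ`
  have hy : (y₁, y₂) ∈ S.Rsub 1 G := by
    rw [hRL, S.mem_Lam]
    refine ⟨mem_L_nsmul_ptsDiv H₁.principal y₁ A₁ M hA₁p hM₁,
      mem_L_nsmul_ptsDiv H₂.principal y₂ A₂ M hA₂p hM₂, ?_⟩
    intro s hs
    obtain ⟨a, ha1, ha2⟩ := hglue s hs
    refine ⟨a, ha1, ?_⟩
    rw [hlam1 s hs, map_one, one_mul]
    exact ha2
  rw [S.mem_Rsub] at hy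
  obtain ⟨u, huL, hu1, hu2, hr1, hr2⟩ := hy
  rw [one_mul] at hu2 hr2
  have hord : ∀ P, G P = 0 → 0 ≤ P.ord u := by
    intro P hP
    by_cases hu0 : u = 0
    · rw [hu0, Place.ord_zero]
    · have := ord_ge_of_mem_L huL hu0 P
      omega
  refine ⟨u, hu1, hu2, hr1, hr2, ?_, ?_, ?_⟩
  · intro P Q hQ hPQ
    apply hord
    by_contra hne
    rcases hGsupp P hne with ⟨Q', hQ', rfl⟩ | ⟨Q', hQ', rfl⟩
    · rw [hr₁ Q' hQ'] at hPQ
      rw [Option.some.inj hPQ] at hQ'
      exact Finset.disjoint_left.mp hA₁T hQ' hQ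
    · rw [r₁_eq_none_of_r₂ S (hgood₂ Q' hQ') (hr₂ Q' hQ')] at hPQ
      exact absurd hPQ (by simp)
  · intro P Q hQ hPQ
    apply hord
    by_contra hne
    rcases hGsupp P hne with ⟨Q', hQ', rfl⟩ | ⟨Q', hQ', rfl⟩
    · rw [r₂_eq_none_of_r₁ S (hgood₁ Q' hQ') (hr₁ Q' hQ')] at hPQ
      exact absurd hPQ (by simp)
    · rw [hr₂ Q' hQ'] at hPQ
      rw [Option.some.inj hPQ] at hQ'
      exact Finset.disjoint_left.mp hA₂T hQ' hQ
  · intro P hP
    apply hord
    by_contra hne
    exact hnotnode P hne hP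

end Fermat.Agent.BAD.H60

end
end
-- ==== END Fermat.Agent.BAD.H60_GoodLift

-- ==== BEGIN Fermat.Agent.BAD.H79_Coord
section

/-!
# Item 65, package CONS-ss (helper79): coordinates and cut-offs over a point which is not a node

Over `z` with a cut-off `ε`:
* `exists_coord_at` : for `P` on the first side, a function `s`, unit for both valuations, with
  `ord_z (red₁ s) = 1`, whose only zero on the fibre is a simple zero at `P`;
* `exists_cut` : for finitely many places `Q` of the second side and multiplicities `n Q`, a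
  function `H ∈ R_z` with value `1` at `z` (first component) and `ord_Q H ≥ n Q`;
* `exists_unit_prod` : a product of coordinates with prescribed orders on the first side.
-/

set_option autoImplicit false
set_option linter.style.haveILetI false

noncomputable section

open AlgebraicCurve

attribute [local instance] Classical.propDecidable

namespace Fermat.Agent.BAD.H79

open Fermat.Agent.RED.H17 Fermat.Agent.RED Fermat.Agent.BAD

section GU

variable {K F k F' : Type*} [Field K] [Field F] [Algebra K F] [Field k] [Field F']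
  [Algebra k F'] {S : PRed K F k F'}

theorem isGU_zpow {f : F} (h : S.IsGU f) (n : ℤ) :
    S.IsGU (f ^ n) ∧ S.rd (f ^ n) = S.rd f ^ n := by
  cases n with
  | ofNat m =>
    rw [Int.ofNat_eq_natCast, zpow_natCast, zpow_natCast]
    exact ⟨h.pow m, S.rd_pow h.1 m⟩
  | negSucc m =>
    rw [zpow_negSucc, zpow_negSucc]
    refine ⟨(h.pow (m + 1)).inv, ?_⟩
    rw [(h.pow (m + 1)).rd_inv, S.rd_pow h.1]

theorem vanAt_iff_ordGe {K F : Type*} [Field K] [Field F] [Algebra K F] (v : Place K F)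
    (f : F) : VanAt v f ↔ H51.OrdGe v 1 f := by
  rw [vanAt_iff_ord]
  unfold H51.OrdGe
  constructor
  · rintro (h | h)
    · exact Or.inl h
    · exact Or.inr (by omega)
  · rintro (h | h)
    · exact Or.inl h
    · exact Or.inr (by omega)

end GU

namespace TotData

variable {K L k L₁ L₂ : Type*} [Field K] [Field L] [Algebra K L] [Field k] [Field L₁]
  [Algebra k L₁] [Field L₂] [Algebra k L₂] {T : TotData K L k L₁ L₂}

/-- The places of the fibre of `z` on the first side. -/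
def S₁ (T : TotData K L k L₁ L₂) (z : Place k L₁) : Set (Place K L) :=
  {P | T.ρ P = z ∧ T.OnSide₁ P}

/-- The places of the fibre of `z` on the second side. -/
def S₂ (T : TotData K L k L₁ L₂) (z : Place k L₁) : Set (Place K L) :=
  {P | T.ρ P = z ∧ T.OnSide₂ P}

/-- `H ∈ R_z` with value `1` at `z` on the first component. -/
structure IsCut (T : TotData K L k L₁ L₂) (z : Place k L₁) (H : L) : Prop where
  inR : T.InR z H
  van₁ : VanAt z (T.p₁.rd H - 1)

theorem IsEps.isCut {z : Place k L₁} {ε : L} (h : T.IsEps z ε) : T.IsCut z ε := ⟨h.inR, h.van₁⟩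

variable (T) in
theorem isCut_one (z : Place k L₁) : T.IsCut z (1 : L) :=
  ⟨T.inR_one z, by rw [T.p₁.rd_one, sub_self]; exact vanAt_zero z⟩

namespace IsCut

variable {z : Place k L₁} {H H' : L}

theorem regAt₁ (h : T.IsCut z H) : RegAt z (T.p₁.rd H) := by
  have h1 : VanAt z (T.p₁.rd H - algebraMap k L₁ 1) := by rw [map_one]; exact h.van₁
  exact RegAt.of_vanAt_sub h1

theorem not_vanAt₁ (h : T.IsCut z H) : ¬ VanAt z (T.p₁.rd H) := by
  intro h0
  have := h0.sub h.van₁
  rw [sub_sub_cancel] at this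
  have h1 : VanAt z (algebraMap k L₁ 1) := by rwa [map_one]
  exact one_ne_zero (const_eq_zero_of_vanAt h1)

theorem rd₁_ne_zero (h : T.IsCut z H) : T.p₁.rd H ≠ 0 := by
  intro h0
  apply h.not_vanAt₁
  rw [h0]
  exact vanAt_zero z

theorem isGU₁ (h : T.IsCut z H) : T.p₁.IsGU H := ⟨h.inR.1, h.rd₁_ne_zero⟩

theorem ne_zero (h : T.IsCut z H) : H ≠ 0 := h.isGU₁.ne_zero

theorem ord₁ (h : T.IsCut z H) : z.ord (T.p₁.rd H) = 0 := by
  have h1 := h.regAt₁.ord_nonneg
  have h2 : ¬ 0 < z.ord (T.p₁.rd H) := fun hpos => h.not_vanAt₁ (vanAt_of_ord_pos hpos)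
  omega

theorem mul (h : T.IsCut z H) (h' : T.IsCut z H') : T.IsCut z (H * H') := by
  refine ⟨h.inR.mul h'.inR, ?_⟩
  rw [T.p₁.rd_mul h.inR.1 h'.inR.1]
  have e : T.p₁.rd H * T.p₁.rd H' - 1 = (T.p₁.rd H - 1) * T.p₁.rd H' + (T.p₁.rd H' - 1) := by
    ring
  rw [e]
  exact (h.van₁.mul_regAt h'.regAt₁).add h'.van₁

theorem pow (h : T.IsCut z H) (n : ℕ) : T.IsCut z (H ^ n) := by
  induction n with
  | zero => rw [pow_zero]; exact T.isCut_one z
  | succ n ih => rw [pow_succ]; exact ih.mul h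

/-- A cut has no zero on the first side. -/
theorem ord_eq_zero (h : T.IsCut z H) {P : Place K L} (hP : P ∈ T.S₁ z) : P.ord H = 0 := by
  obtain ⟨hPz, hS⟩ := hP
  subst hPz
  have h1 := h.inR.ord_nonneg (P := P) rfl
  by_contra hne
  have hpos : 0 < P.ord H := by omega
  have hv : VanAt P (H - algebraMap K L 0) := by
    rw [map_zero, sub_zero]; exact vanAt_of_ord_pos hpos
  have := hS H h.inR 0 hv
  rw [map_zero, T.p₁.rd_zero, sub_zero] at this
  exact h.not_vanAt₁ this

end IsCut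

/-- The cut-off vanishing at a given place of the second side. -/
theorem IsEps.exists_cut_at (hP : HasPrincipalDivisors K L) (hd : ∀ v : Place K L, v.deg = 1)
    {z : Place k L₁} {ε : L} (hε : T.IsEps z ε) {Q : Place K L} (hQz : T.ρ Q = z)
    (hQ : T.OnSide₂ Q) : ∃ e : L, T.IsCut z e ∧ 1 ≤ Q.ord e := by
  obtain ⟨a, ha⟩ := exists_value Q (hd Q) (hε.inR.reg hQz)
  have h0 := (hε.value₂ hP hQz hQ ha).1
  have hmem := hε.inR.const_mem hP hQz ha
  have hR := hε.inR.sub_value hP hQz ha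
  have hcut : T.IsCut z (ε - algebraMap K L a) := by
    refine ⟨hR, ?_⟩
    rw [T.p₁.rd_sub hε.inR.1 hmem, h0, sub_zero]
    exact hε.van₁
  refine ⟨_, hcut, ?_⟩
  have := ha.ord_pos hcut.ne_zero
  omega

/-- Cutting finitely many places of the second side with multiplicities. -/
theorem IsEps.exists_cut (hP : HasPrincipalDivisors K L) (hd : ∀ v : Place K L, v.deg = 1)
    {z : Place k L₁} {ε : L} (hε : T.IsEps z ε) (n : Place K L → ℕ) (S : Finset (Place K L))
    (hS : ∀ Q ∈ S, T.ρ Q = z ∧ T.OnSide₂ Q) :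
    ∃ H : L, T.IsCut z H ∧ ∀ Q ∈ S, (n Q : ℤ) ≤ Q.ord H := by
  induction S using Finset.induction_on with
  | empty => exact ⟨1, T.isCut_one z, fun Q hQ => absurd hQ (Finset.notMem_empty Q)⟩
  | insert Q S hQS ih =>
    obtain ⟨H, hH, hHS⟩ := ih fun Q' hQ' => hS Q' (Finset.mem_insert_of_mem hQ')
    obtain ⟨hQz, hQ2⟩ := hS Q (Finset.mem_insert_self Q S)
    obtain ⟨e, he, heQ⟩ := hε.exists_cut_at hP hd hQz hQ2
    refine ⟨H * e ^ n Q, hH.mul (he.pow _), fun Q' hQ' => ?_⟩
    have hord : Q'.ord (H * e ^ n Q) = Q'.ord H + n Q * Q'.ord e := by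
      rw [Q'.ord_mul hH.ne_zero (pow_ne_zero _ he.ne_zero), ord_pow]
    rw [hord]
    rcases Finset.mem_insert.mp hQ' with rfl | hQ''
    · have h1 := hH.inR.ord_nonneg (P := Q') hQz
      have h2 : (n Q' : ℤ) * 1 ≤ n Q' * Q'.ord e :=
        mul_le_mul_of_nonneg_left heQ (Int.natCast_nonneg _)
      omega
    · have h1 := hHS Q' hQ''
      have h2 := he.inR.ord_nonneg (P := Q') (hS Q' hQ').1
      have h3 : (0 : ℤ) ≤ n Q * Q'.ord e := mul_nonneg (Int.natCast_nonneg _) h2
      omega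

/-- A coordinate of the first component at `z`: `u ∈ R_z`, `ord_z (red₁ u) = 1`, with value `1`
at `β z` on the second component. -/
theorem IsEps.exists_coord [Infinite k] (hP : HasPrincipalDivisors K L)
    {z : Place k L₁} {ε : L} (hε : T.IsEps z ε) :
    ∃ u : L, T.InR z u ∧ z.ord (T.p₁.rd u) = 1 ∧ VanAt (T.β z) (T.p₂.rd u - 1) := by
  obtain ⟨t, ht₁, ht₂, htreg, htord⟩ := T.unif z
  have htR : T.InR z t := ⟨ht₁, ht₂, fun P hPz => regAt_of_ord_nonneg (htreg P hPz)⟩
  have htord' : z.ord (T.p₁.rd t) = 1 := by rw [T.p₁.rd_of_mem ht₁]; exact htord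
  have h1R : T.InR z (1 - ε) := (T.inR_one z).sub hε.inR
  have h2R : T.InR z ((1 - ε) ^ 2) := h1R.pow 2
  have h3R : T.InR z (t * ε) := htR.mul hε.inR
  refine ⟨t * ε + (1 - ε) ^ 2, h3R.add h2R, ?_, ?_⟩
  · rw [T.p₁.rd_add h3R.1 h2R.1, T.p₁.rd_mul htR.1 hε.inR.1, T.p₁.rd_pow h1R.1,
      T.p₁.rd_sub T.p₁.V.one_mem hε.inR.1, T.p₁.rd_one]
    have ht0 : T.p₁.rd t ≠ 0 := by
      intro h0
      rw [h0, Place.ord_zero] at htord'
      exact zero_ne_one htord'
    have hf0 : T.p₁.rd t * T.p₁.rd ε ≠ 0 := mul_ne_zero ht0 hε.rd₁_ne_zero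
    have hford : z.ord (T.p₁.rd t * T.p₁.rd ε) = 1 := by
      rw [z.ord_mul ht0 hε.rd₁_ne_zero, htord', hε.isCut.ord₁, add_zero]
    have hg : H51.OrdGe z (z.ord (T.p₁.rd t * T.p₁.rd ε) + 1) ((1 - T.p₁.rd ε) ^ 2) := by
      rw [hford]
      have h1 : H51.OrdGe z 1 (1 - T.p₁.rd ε) := by
        have := ((vanAt_iff_ordGe z _).mp hε.van₁).neg
        rwa [neg_sub] at this
      have := H51.ordGe_pow h1 2
      simpa using this
    rw [(H51.ord_add_eq z hf0 hg).2, hford]
  · rw [T.p₂.rd_add h3R.2.1 h2R.2.1, T.p₂.rd_mul htR.2.1 hε.inR.2.1, T.p₂.rd_pow h1R.2.1,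
      T.p₂.rd_sub T.p₂.V.one_mem hε.inR.2.1, T.p₂.rd_one]
    have e : T.p₂.rd t * T.p₂.rd ε + (1 - T.p₂.rd ε) ^ 2 - 1
        = T.p₂.rd ε * (T.p₂.rd t + T.p₂.rd ε - (1 + 1)) := by ring
    rw [e]
    exact hε.van₂.mul_regAt ((((htR.regAt₂ hP).add hε.van₂.regAt).sub
      ((regAt_one _).add (regAt_one _))))

/-- A coordinate with its zero at a given place of the first side. -/
theorem IsEps.exists_coord_at [Infinite k] (hP : HasPrincipalDivisors K L)
    (hd : ∀ v : Place K L, v.deg = 1)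
    {z : Place k L₁} {ε : L} (hε : T.IsEps z ε) {P : Place K L} (hPS : P ∈ T.S₁ z) :
    ∃ s : L, T.p₁.IsGU s ∧ T.p₂.IsGU s ∧ z.ord (T.p₁.rd s) = 1 ∧
      ∀ P', T.ρ P' = z → P'.ord s = if P' = P then 1 else 0 := by
  obtain ⟨u, huR, hu1, hu2⟩ := hε.exists_coord hP
  obtain ⟨hPz, hS⟩ := hPS
  obtain ⟨a, ha⟩ := exists_value P (hd P) (huR.reg hPz)
  have hmem := huR.const_mem hP hPz ha
  have hR := huR.sub_value hP hPz ha
  -- the value of `u` at `P` is in the maximal ideal
  have hra : T.p₁.rd (algebraMap K L a) = 0 := by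
    obtain ⟨α, hα₁, -⟩ := T.const_rd hmem
    have h1 : VanAt z (T.p₁.rd u - T.p₁.rd (algebraMap K L a)) := by
      have := hS u (hPz ▸ huR) a ha
      rwa [hPz] at this
    have h2 : VanAt z (T.p₁.rd u) := vanAt_of_ord_pos (by omega)
    have h3 := h2.sub h1
    rw [sub_sub_cancel, hα₁] at h3
    rw [hα₁, const_eq_zero_of_vanAt h3, map_zero]
  have hra' : T.p₂.rd (algebraMap K L a) = 0 := T.const_rd₂_eq_zero hmem hra
  have hr1 : T.p₁.rd (u - algebraMap K L a) = T.p₁.rd u := by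
    rw [T.p₁.rd_sub huR.1 hmem, hra, sub_zero]
  have hr2 : T.p₂.rd (u - algebraMap K L a) = T.p₂.rd u := by
    rw [T.p₂.rd_sub huR.2.1 (T.const_mem₂ hmem), hra', sub_zero]
  have hu0 : T.p₁.rd u ≠ 0 := by
    intro h0
    rw [h0, Place.ord_zero] at hu1
    exact zero_ne_one hu1
  have hnv : ¬ VanAt (T.β z) (T.p₂.rd u) := by
    intro h0
    have := h0.sub hu2
    rw [sub_sub_cancel] at this
    have h1 : VanAt (T.β z) (algebraMap k L₂ 1) := by rwa [map_one]
    exact one_ne_zero (const_eq_zero_of_vanAt h1)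
  have hu0' : T.p₂.rd u ≠ 0 := by
    intro h0
    apply hnv
    rw [h0]
    exact vanAt_zero _
  have hGU1 : T.p₁.IsGU (u - algebraMap K L a) := ⟨hR.1, by rw [hr1]; exact hu0⟩
  have hGU2 : T.p₂.IsGU (u - algebraMap K L a) := ⟨hR.2.1, by rw [hr2]; exact hu0'⟩
  have ho2 : (T.β z).ord (T.p₂.rd u) = 0 := by
    have h1 := (huR.regAt₂ hP).ord_nonneg
    have h2 : ¬ 0 < (T.β z).ord (T.p₂.rd u) := fun hpos => hnv (vanAt_of_ord_pos hpos)
    omega
  have htot := T.tot_bal hP hGU1 hGU2 z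
  rw [hr1, hr2, hu1, ho2, add_zero] at htot
  have hnn : ∀ P' ∈ {P | T.ρ P = z}, 0 ≤ dv hP (u - algebraMap K L a) P' := by
    intro P' hP'
    rw [dv_apply]
    exact hR.ord_nonneg hP'
  have hpos : 1 ≤ P.ord (u - algebraMap K L a) := by
    have := ha.ord_pos hGU1.ne_zero
    omega
  have hle := le_fsum hnn (P := P) hPz
  rw [htot, dv_apply] at hle
  refine ⟨_, hGU1, hGU2, by rw [hr1]; exact hu1, fun P' hP' => ?_⟩
  split_ifs with hPP
  · rw [hPP]; omega
  · have h2 := add_le_fsum hnn (P := P) (P' := P') hPz hP' hPP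
    rw [htot, dv_apply, dv_apply] at h2
    have h3 := hR.ord_nonneg hP'
    omega

/-- A product of coordinates with prescribed orders on the first side. -/
theorem IsEps.exists_unit_prod [Infinite k] (hP : HasPrincipalDivisors K L)
    (hd : ∀ v : Place K L, v.deg = 1)
    {z : Place k L₁} {ε : L} (hε : T.IsEps z ε) (m : Place K L → ℤ) (S : Finset (Place K L))
    (hS : ∀ P ∈ S, P ∈ T.S₁ z) :
    ∃ U : L, T.p₁.IsGU U ∧ T.p₂.IsGU U ∧ z.ord (T.p₁.rd U) = ∑ P ∈ S, m P ∧
      ∀ P', T.ρ P' = z → P'.ord U = if P' ∈ S then m P' else 0 := by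
  induction S using Finset.induction_on with
  | empty =>
    refine ⟨1, T.p₁.isGU_one, T.p₂.isGU_one, ?_, fun P' _ => ?_⟩
    · rw [T.p₁.rd_one, Place.ord_one, Finset.sum_empty]
    · rw [Place.ord_one, if_neg (Finset.notMem_empty P')]
  | insert P S hPS ih =>
    obtain ⟨U, hU1, hU2, hUo, hUP⟩ := ih fun P' hP' => hS P' (Finset.mem_insert_of_mem hP')
    obtain ⟨s, hs1, hs2, hso, hsP⟩ := hε.exists_coord_at hP hd (hS P (Finset.mem_insert_self P S))
    obtain ⟨hz1, hzr1⟩ := isGU_zpow hs1 (m P)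
    obtain ⟨hz2, -⟩ := isGU_zpow hs2 (m P)
    refine ⟨U * s ^ m P, hU1.mul hz1, hU2.mul hz2, ?_, fun P' hP' => ?_⟩
    · rw [T.p₁.rd_mul hU1.1 hz1.1, hzr1, z.ord_mul hU1.2 (zpow_ne_zero _ hs1.2), z.ord_zpow, hUo,
        hso, Finset.sum_insert hPS]
      ring
    · rw [P'.ord_mul hU1.ne_zero hz1.ne_zero, P'.ord_zpow, hUP P' hP', hsP P' hP']
      by_cases hPP : P' = P
      · subst hPP
        rw [if_neg hPS, if_pos rfl, if_pos (Finset.mem_insert_self _ _)]
        ring
      · rw [if_neg hPP]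
        by_cases hmem : P' ∈ S
        · rw [if_pos hmem, if_pos (Finset.mem_insert_of_mem hmem)]
          ring
        · rw [if_neg hmem, if_neg fun h => (Finset.mem_insert.mp h).elim hPP hmem]
          ring

end TotData

end Fermat.Agent.BAD.H79

end
end
-- ==== END Fermat.Agent.BAD.H79_Coord

-- ==== BEGIN Fermat.Agent.BAD.H88_V2
section
attribute [local instance 10000] SubalgebraClass.toAlgebra
attribute [local instance 10000] HahnSeries.powerSeriesAlgebra

/-!
# Item 65 (BAD_q), package V2 (helper88), part 4: the second Gauss valuation `V₂ = V₁ ∘ w_q`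

Abstract part: transport of a valuation ring with residue map along a `K`-automorphism `w`.
Concrete part: `N = M q`, `V₁ = gaussValSub A F_N`, `red₁ = gaussResF'`,
`V₂ = V₁.comap w_q`, `red₂ = red₁ ∘ w_q` (so the second residue field is `F₂ := F₁ = redField`).
-/

set_option autoImplicit false
set_option synthInstance.maxHeartbeats 400000
set_option maxHeartbeats 1000000
set_option linter.unusedSectionVars false
set_option linter.style.haveILetI false

noncomputable section

namespace Fermat.Agent.BAD.H88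

open Fermat.Agent.S24 ModularCurve Fermat.Agent.S28 Fermat.Agent.S28.H73 Fermat.Agent.RED.H73

/-! ## Abstract transport -/

section Transport

variable {K F F' : Type*} [Field K] [Field F] [Algebra K F] [Field F']
variable (V : ValuationSubring F) (red : V →+* F') (w : F ≃ₐ[K] F)

/-- The valuation ring `V ∘ w = w⁻¹ V`. -/
def comapV : ValuationSubring F := V.comap (w : F →+* F)

theorem mem_comapV_iff (x : F) : x ∈ comapV V w ↔ w x ∈ V := Iff.rfl

/-- `w : V ∘ w → V`. -/
def comapRestrict : ↥(comapV V w) →+* ↥V where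
  toFun x := ⟨w (x : F), x.2⟩
  map_one' := Subtype.ext (map_one w)
  map_mul' x y := Subtype.ext (map_mul w (x : F) (y : F))
  map_zero' := Subtype.ext (map_zero w)
  map_add' x y := Subtype.ext (map_add w (x : F) (y : F))

theorem coe_comapRestrict (x : ↥(comapV V w)) : ((comapRestrict V w x : ↥V) : F) = w (x : F) := rfl

/-- The residue map of `V ∘ w`: `red ∘ w`. -/
def comapRed : ↥(comapV V w) →+* F' := red.comp (comapRestrict V w)

theorem comapRed_mk (x : F) (h : x ∈ comapV V w) :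
    comapRed V red w ⟨x, h⟩ = red ⟨w x, h⟩ := rfl

theorem comapRed_surjective (hs : Function.Surjective red) :
    Function.Surjective (comapRed V red w) := by
  intro y
  obtain ⟨v, rfl⟩ := hs y
  have hm : w.symm (v : F) ∈ comapV V w := by
    rw [mem_comapV_iff, AlgEquiv.apply_symm_apply]; exact v.2
  refine ⟨⟨w.symm (v : F), hm⟩, ?_⟩
  rw [comapRed_mk]
  congr 1
  exact Subtype.ext (w.apply_symm_apply _)

/-- In a valuation ring, the maximal ideal consists of `0` and the elements whose inverse is not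
in the ring. -/
theorem mem_maximalIdeal_iff' (U : ValuationSubring F) (u : ↥U) :
    u ∈ IsLocalRing.maximalIdeal ↥U ↔ ((u : F) = 0 ∨ (u : F)⁻¹ ∉ U) := by
  rw [IsLocalRing.mem_maximalIdeal, mem_nonunits_iff]
  constructor
  · intro hu
    by_contra hc
    rw [not_or, not_not] at hc
    apply hu
    refine IsUnit.of_mul_eq_one (⟨(u : F)⁻¹, hc.2⟩ : ↥U) ?_
    exact Subtype.ext (mul_inv_cancel₀ hc.1)
  · rintro (h0 | hinv) hu
    · have : u = 0 := Subtype.ext h0
      rw [this] at hu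
      exact not_isUnit_zero hu
    · apply hinv
      obtain ⟨v, hv⟩ := hu.exists_right_inv
      have h1 : (u : F) * (v : F) = 1 := congrArg Subtype.val hv
      have h2 : (u : F)⁻¹ = (v : F) := (eq_inv_of_mul_eq_one_right h1).symm
      rw [h2]
      exact v.2

theorem comapRed_eq_zero_iff
    (hz : ∀ u : ↥V, red u = 0 ↔ u ∈ IsLocalRing.maximalIdeal ↥V) (u : ↥(comapV V w)) :
    comapRed V red w u = 0 ↔ u ∈ IsLocalRing.maximalIdeal ↥(comapV V w) := by
  show red (comapRestrict V w u) = 0 ↔ _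
  rw [hz, mem_maximalIdeal_iff', mem_maximalIdeal_iff', coe_comapRestrict, mem_comapV_iff,
    map_inv₀]
  constructor
  · rintro (h | h)
    · left
      exact (map_eq_zero_iff w w.injective).mp h
    · exact Or.inr h
  · rintro (h | h)
    · left
      rw [h, map_zero]
    · exact Or.inr h

theorem comap_exists_scale
    (hsc : ∀ f : F, f ≠ 0 → ∃ c : K, c ≠ 0 ∧
      ∃ h : algebraMap K F c * f ∈ V, red ⟨_, h⟩ ≠ 0) (f : F) (hf : f ≠ 0) :
    ∃ c : K, c ≠ 0 ∧ ∃ h : algebraMap K F c * f ∈ comapV V w, comapRed V red w ⟨_, h⟩ ≠ 0 := by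
  have hwf : w f ≠ 0 := fun h => hf ((map_eq_zero_iff w w.injective).mp h)
  obtain ⟨c, hc, h, hr⟩ := hsc (w f) hwf
  have e : w (algebraMap K F c * f) = algebraMap K F c * w f := by
    rw [map_mul, AlgEquiv.commutes]
  have hm : algebraMap K F c * f ∈ comapV V w := by
    rw [mem_comapV_iff, e]; exact h
  refine ⟨c, hc, hm, ?_⟩
  rw [comapRed_mk]
  have e2 : (⟨w (algebraMap K F c * f), hm⟩ : ↥V) = ⟨algebraMap K F c * w f, h⟩ :=
    Subtype.ext e
  rw [e2]
  exact hr

theorem comap_const_mem (c : K) : algebraMap K F c ∈ comapV V w ↔ algebraMap K F c ∈ V := by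
  rw [mem_comapV_iff, AlgEquiv.commutes]

theorem comap_const_red (c : K) (h₁ : algebraMap K F c ∈ V) (h₂ : algebraMap K F c ∈ comapV V w) :
    comapRed V red w ⟨_, h₂⟩ = red ⟨_, h₁⟩ := by
  rw [comapRed_mk]
  congr 1
  exact Subtype.ext (w.commutes c)

end Transport

/-! ## The two Gauss valuations of `F_N`, `N = M q` -/

section Concrete

open Fermat.Agent.RED.H17

variable (A : ValuationSubring Kbar)
variable (q M : ℕ) (a b : ℤ) (hab : a * q + b * M = 1) (hq : q.Prime) [NeZero (M * q)]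

/-- The scaling property of `F_N`. -/
theorem hSc : HasScale A (modularFunctionFieldBar (M * q)) :=
  hasScale_laurentBaseChange A (M * q)

/-- The first valuation ring: the Gauss valuation of the `q`-expansion at `∞`. -/
abbrev V1 : ValuationSubring (FN (M * q)) :=
  gaussValSub A (modularFunctionFieldBar (M * q)) (hSc A q M)

/-- The common residue field `F₁ = F₂` of the two valuations, inside `k((q))`. -/
abbrev F1 : Type := ↥(redField A (modularFunctionFieldBar (M * q)) (hSc A q M))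

/-- The first residue map. -/
abbrev red1 : ↥(V1 A q M) →+* F1 A q M := gaussResF' A (hSc A q M)

theorem red1_eq_zero_iff (u : ↥(V1 A q M)) :
    red1 A q M u = 0 ↔ u ∈ IsLocalRing.maximalIdeal ↥(V1 A q M) :=
  gaussResF'_eq_zero_iff A (hSc A q M) u

theorem red1_surjective : Function.Surjective (red1 A q M) :=
  gaussResF'_surjective A (hSc A q M)

theorem exists_scale1 (f : FN (M * q)) (hf : f ≠ 0) :
    ∃ c : Kbar, c ≠ 0 ∧ ∃ h : algebraMap Kbar (FN (M * q)) c * f ∈ V1 A q M,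
      red1 A q M ⟨_, h⟩ ≠ 0 := by
  obtain ⟨c, u, hc, hfu⟩ := exists_unit_scale A (hSc A q M) f hf
  refine ⟨c⁻¹, inv_ne_zero hc, ?_⟩
  have e : algebraMap Kbar (FN (M * q)) c⁻¹ * f = ((u : ↥(V1 A q M)) : FN (M * q)) := by
    rw [hfu, ← mul_assoc, ← map_mul, inv_mul_cancel₀ hc, map_one, one_mul]
  have hmem : algebraMap Kbar (FN (M * q)) c⁻¹ * f ∈ V1 A q M := e ▸ (u : ↥(V1 A q M)).2
  refine ⟨hmem, ?_⟩
  have e2 : (⟨_, hmem⟩ : ↥(V1 A q M)) = u := Subtype.ext e
  rw [e2]
  exact (gaussResF'_ne_zero_iff_isUnit A (hSc A q M) _).mpr u.isUnit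

theorem const_mem1 (c : Kbar) : algebraMap Kbar (FN (M * q)) c ∈ V1 A q M ↔ c ∈ A :=
  algebraMap_mem_gaussValSub_iff A (hSc A q M) c

theorem red1_const (c : ↥A) (h : algebraMap Kbar (FN (M * q)) (c : Kbar) ∈ V1 A q M) :
    red1 A q M ⟨_, h⟩ = algebraMap (kV A) (F1 A q M) (resV A c) :=
  gaussResF'_algebraMap A (hSc A q M) c h

include hab hq

/-- **The second valuation ring** `V₂ = V₁ ∘ w_q`. -/
def V2 : ValuationSubring (FN (M * q)) := comapV (V1 A q M) (wq q M a b hab hq)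

theorem mem_V2_iff (x : FN (M * q)) :
    x ∈ V2 A q M a b hab hq ↔ wq q M a b hab hq x ∈ V1 A q M := Iff.rfl

/-- **The second residue map** `red₂ = red₁ ∘ w_q`, with values in `F₂ := F₁`. -/
def red2 : ↥(V2 A q M a b hab hq) →+* F1 A q M :=
  comapRed (V1 A q M) (red1 A q M) (wq q M a b hab hq)

theorem red2_mk (x : FN (M * q)) (h : x ∈ V2 A q M a b hab hq) :
    red2 A q M a b hab hq ⟨x, h⟩ = red1 A q M ⟨wq q M a b hab hq x, h⟩ := rfl

theorem red2_eq_zero_iff (u : ↥(V2 A q M a b hab hq)) :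
    red2 A q M a b hab hq u = 0 ↔ u ∈ IsLocalRing.maximalIdeal ↥(V2 A q M a b hab hq) :=
  comapRed_eq_zero_iff _ _ _ (red1_eq_zero_iff A q M) u

theorem red2_surjective : Function.Surjective (red2 A q M a b hab hq) :=
  comapRed_surjective _ _ _ (red1_surjective A q M)

theorem exists_scale2 (f : FN (M * q)) (hf : f ≠ 0) :
    ∃ c : Kbar, c ≠ 0 ∧ ∃ h : algebraMap Kbar (FN (M * q)) c * f ∈ V2 A q M a b hab hq,
      red2 A q M a b hab hq ⟨_, h⟩ ≠ 0 :=
  comap_exists_scale _ _ _ (exists_scale1 A q M) f hf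

/-- The two valuations agree on the constants. -/
theorem const_mem2 (c : Kbar) :
    algebraMap Kbar (FN (M * q)) c ∈ V2 A q M a b hab hq ↔
      algebraMap Kbar (FN (M * q)) c ∈ V1 A q M :=
  comap_const_mem _ _ c

theorem const_red2 (c : Kbar) (h₁ : algebraMap Kbar (FN (M * q)) c ∈ V1 A q M)
    (h₂ : algebraMap Kbar (FN (M * q)) c ∈ V2 A q M a b hab hq) :
    red2 A q M a b hab hq ⟨_, h₂⟩ = red1 A q M ⟨_, h₁⟩ :=
  comap_const_red _ _ _ c h₁ h₂

/-- `w_q` exchanges the two valuation rings. -/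
theorem wq_mem_V1_iff (x : FN (M * q)) :
    wq q M a b hab hq x ∈ V1 A q M ↔ x ∈ V2 A q M a b hab hq := Iff.rfl

theorem wq_mem_V2_iff (x : FN (M * q)) :
    wq q M a b hab hq x ∈ V2 A q M a b hab hq ↔ x ∈ V1 A q M := by
  rw [mem_V2_iff, wq_wq]

/-! ### Compatibility with the Galois action -/

/-- If `σ` preserves `V₁` then it preserves `V₂`. -/
theorem arith_mem_V2 (σ : Kbar ≃ₐ[ℚ] Kbar)
    (h₁ : ∀ f : FN (M * q), f ∈ V1 A q M →
      arithmeticRingAut (modularFunctionFieldFull (M * q)) σ f ∈ V1 A q M)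
    (f : FN (M * q)) (hf : f ∈ V2 A q M a b hab hq) :
    arithmeticRingAut (modularFunctionFieldFull (M * q)) σ f ∈ V2 A q M a b hab hq := by
  rw [mem_V2_iff, wq_arith]
  exact h₁ _ hf

/-- If `σ` acts trivially on the first reduction then it acts trivially on the second. -/
theorem arith_red2 (σ : Kbar ≃ₐ[ℚ] Kbar)
    (h₁ : ∀ (f : FN (M * q)) (h : f ∈ V1 A q M)
      (h' : arithmeticRingAut (modularFunctionFieldFull (M * q)) σ f ∈ V1 A q M),
      red1 A q M ⟨_, h'⟩ = red1 A q M ⟨f, h⟩)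
    (f : FN (M * q)) (h : f ∈ V2 A q M a b hab hq)
    (h' : arithmeticRingAut (modularFunctionFieldFull (M * q)) σ f ∈ V2 A q M a b hab hq) :
    red2 A q M a b hab hq ⟨_, h'⟩ = red2 A q M a b hab hq ⟨f, h⟩ := by
  have e := wq_arith q M a b hab hq σ f
  have hm : arithmeticRingAut (modularFunctionFieldFull (M * q)) σ (wq q M a b hab hq f)
      ∈ V1 A q M := e ▸ h'
  have key : red1 A q M ⟨wq q M a b hab hq
      (arithmeticRingAut (modularFunctionFieldFull (M * q)) σ f), h'⟩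
      = red1 A q M ⟨_, hm⟩ := by
    congr 1
    exact Subtype.ext e
  show red1 A q M ⟨wq q M a b hab hq
      (arithmeticRingAut (modularFunctionFieldFull (M * q)) σ f), h'⟩
      = red1 A q M ⟨wq q M a b hab hq f, h⟩
  exact key.trans (h₁ _ h hm)

end Concrete

end Fermat.Agent.BAD.H88

end
end
-- ==== END Fermat.Agent.BAD.H88_V2

-- ==== BEGIN Fermat.Agent.Betti.EigenFinal
section

/-!
# Betti–Hecke: every Hecke character occurs in `Hom_par(Γ₀(N), K)`

`stmt_eigen : Stmt_eigen` (B4-eig), from `stmt_basis` (helper20), `H76.stmt_matrixRep` and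
`H76.stmt_algEig` (helper76), Eichler–Shimura S21 and the dimension formula S20.
-/

set_option autoImplicit false

namespace Fermat.Agent.Betti

/-- **B4-eig**: every character `χ : heckeAlgebra N 2 S → K` (`K` a field of characteristic
zero) has a nonzero parabolic eigenvector `φ : Γ₀(N) → K`. -/
theorem stmt_eigen : Stmt_eigen :=
  eigen_of stmt_basis H76.stmt_matrixRep H76.stmt_algEig

end Fermat.Agent.Betti

end
-- ==== END Fermat.Agent.Betti.EigenFinal

-- ==== BEGIN Fermat.Agent.GTor.Clo.Final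
section

/-!
# S24 construction, final layer: `modClosure N : ModClosure N`
-/

set_option autoImplicit false

noncomputable section

namespace Fermat.Agent.GTor.Clo

open Fermat.Agent.S24

open ModularCurve UpperHalfPlane WithZero
open scoped MatrixGroups Manifold

theorem tE_transcendental : Transcendental _root_.Fermat.Agent.GTor.Clo.Kbar _root_.Fermat.Agent.GTor.Clo.tE :=
  (transcendental_algebraMap_iff (IsFractionRing.injective (Polynomial _root_.Fermat.Agent.GTor.Clo.Kbar) _root_.Fermat.Agent.GTor.Clo.EN)).mpr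
    (Polynomial.transcendental_X _root_.Fermat.Agent.GTor.Clo.Kbar)

/-- The Galois closure of `F_N / Q̄(j)` with its modular structure. -/
def modClosure (N : ℕ) [NeZero N] : _root_.Fermat.Agent.GTor.Clo.ModClosure N where
  E := _root_.Fermat.Agent.GTor.Clo.EN
  L := _root_.Fermat.Agent.GTor.Clo.LN N
  t := _root_.Fermat.Agent.GTor.Clo.tE
  t_transcendental := _root_.Fermat.Agent.GTor.Clo.tE_transcendental
  t_map := _root_.Fermat.Agent.GTor.Clo.tE_map_FN N
  t_gen := _root_.Fermat.Agent.GTor.Clo.tE_gen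
  π := _root_.Fermat.Agent.GTor.Clo.piN N
  π_surjective := _root_.Fermat.Agent.GTor.Clo.piN_surjective N
  π_comap := _root_.Fermat.Agent.GTor.Clo.piN_comap N
  w := _root_.Fermat.Agent.GTor.Clo.wN N
  w_algebraMap := _root_.Fermat.Agent.GTor.Clo.wN_algebraMap N
  w_π := _root_.Fermat.Agent.GTor.Clo.wN_piN N
  w_j := _root_.Fermat.Agent.GTor.Clo.wN_j N
  winf := _root_.Fermat.Agent.GTor.Clo.winfN N
  winf_algebraMap := _root_.Fermat.Agent.GTor.Clo.winfN_algebraMap N
  winf_π_T := _root_.Fermat.Agent.GTor.Clo.winfN_piN_T N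
  winf_j := _root_.Fermat.Agent.GTor.Clo.winfN_j N

end Fermat.Agent.GTor.Clo

end
end
-- ==== END Fermat.Agent.GTor.Clo.Final

-- ==== BEGIN Fermat.Agent.GTor.Clo.H72_RatioCore
section

/-!
# G-TOR, WP Ratio, shared core (helper72): `a * B = b * A` on `ℍ`

For `f ∈ F_ℂ` with `f = A / B` as `q`-expansions (`IsRatio`) and `phi f = a / b` with
`a, b ∈ AT N`: the holomorphic functions `a * B` and `b * A` have the same expansion in
`u = exp (2 π i τ / N)`, hence are equal.

* `h72_hasUExp_modularForm` : a modular form on `Γ₀(N)` has the expansion `qExpand N (qLaurent A)`;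
* `h72_ratio_core`          : `a τ * B τ = b τ * A τ`;
* `h72_ratio_core_hol`      : the same as an identity in `Hol`.
-/

set_option autoImplicit false

noncomputable section

namespace Fermat.Agent.GTor.Clo

open Fermat.Agent.S24 Fermat.Agent.GTor

open ModularCurve AlgebraicCurve UpperHalfPlane WithZero
open scoped MatrixGroups Manifold ModularForm

/-- The coefficients of `qLaurent` in negative degree vanish. -/
theorem h72_qLaurent_coeff_neg (A : ℍ → ℂ) {n : ℤ} (hn : n < 0) : (qLaurent A).coeff n = 0 :=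
  ofPowerSeries_coeff_of_neg _ hn

/-- The coefficients of `qLaurent` in degree `m ≥ 0`. -/
theorem h72_qLaurent_coeff_nat (A : ℍ → ℂ) (m : ℕ) :
    (qLaurent A).coeff (m : ℤ) = (UpperHalfPlane.qExpansion 1 A).coeff m :=
  HahnSeries.ofPowerSeries_apply_coeff _ m

/-- A modular form on `Γ₀(N)` is the sum of its `q`-expansion, written in the parameter
`u = exp (2 π i τ / N)`. -/
theorem h72_hasUExp_modularForm (N : ℕ) [NeZero N] {k : ℤ}
    (A : ModularForm (CongruenceSubgroup.Gamma0 N) k) :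
    HasUExp N (A : ℍ → ℂ) (qExpand ℂ N (qLaurent A)) := by
  intro τ
  have h := ModularForm.hasSum_qExpansion (f := A) one_pos
    (CongruenceSubgroup.one_mem_strictPeriods_Gamma0 N) τ
  have hN0 : (N : ℤ) ≠ 0 := by exact_mod_cast NeZero.ne N
  have hφ : Function.Injective (fun m : ℕ => (N : ℤ) * (m : ℤ)) := by
    intro m m' hmm
    have := mul_left_cancel₀ hN0 hmm
    exact_mod_cast this
  refine (hφ.hasSum_iff ?_).mp ?_
  · intro n hn
    by_cases hdiv : (N : ℤ) ∣ n
    · obtain ⟨j, rfl⟩ := hdiv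
      have hj : j < 0 := by
        by_contra hcon
        rw [not_lt] at hcon
        obtain ⟨m, rfl⟩ := Int.eq_ofNat_of_zero_le hcon
        exact hn ⟨m, rfl⟩
      rw [qExpand_coeff_mul, h72_qLaurent_coeff_neg _ hj, zero_mul]
    · rw [qExpand_coeff_of_not_dvd N _ hdiv, zero_mul]
  · have hfun : ((fun n : ℤ => (qExpand ℂ N (qLaurent A)).coeff n * uPar N τ ^ n) ∘
        fun m : ℕ => (N : ℤ) * (m : ℤ))
        = fun m : ℕ => (UpperHalfPlane.qExpansion 1 A).coeff m
            * Function.Periodic.qParam 1 (τ : ℂ) ^ m := by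
      funext m
      show (qExpand ℂ N (qLaurent A)).coeff ((N : ℤ) * (m : ℤ)) * uPar N τ ^ ((N : ℤ) * (m : ℤ))
        = _
      rw [qExpand_coeff_mul, h72_qLaurent_coeff_nat, zpow_mul, zpow_natCast, zpow_natCast,
        uPar_pow]
      simp [uPar]
    rw [hfun]
    exact h

/-- `coeffMap iotaC` is the identity (`Kbar` unfolds to `ℂ`). -/
theorem h72_coeffMap_iotaC_coeff (c : LaurentSeries _root_.Fermat.Agent.GTor.Clo.Kbar) (n : ℤ) :
    (coeffMap _root_.Fermat.Agent.GTor.Clo.iotaC c).coeff n = c.coeff n := by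
  rw [coeffMap_coeff]
  rfl

/-- The expansion of an element of `AT N`, as a statement over `ℂ`. -/
theorem h72_hasUExp_valAT (N : ℕ) [NeZero N] (a : _root_.Fermat.Agent.GTor.Clo.AT N) :
    HasUExp N ((_root_.Fermat.Agent.GTor.Clo.valAT N a : Hol) : ℍ → ℂ) (coeffMap _root_.Fermat.Agent.GTor.Clo.iotaC (_root_.Fermat.Agent.GTor.Clo.uExpT N a)) :=
  _root_.Fermat.Agent.GTor.Clo.uExp_spec N ((_root_.Fermat.Agent.GTor.Clo.toAT N).symm a)

/-- `coeffMap iotaC` commutes with `qExpand`. -/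
theorem h72_coeffMap_qExpand (N : ℕ) [NeZero N] (x : LaurentSeries _root_.Fermat.Agent.GTor.Clo.Kbar) :
    coeffMap _root_.Fermat.Agent.GTor.Clo.iotaC (qExpand _root_.Fermat.Agent.GTor.Clo.Kbar N x) = qExpand ℂ N (coeffMap _root_.Fermat.Agent.GTor.Clo.iotaC x) := by
  ext n
  rw [coeffMap_coeff]
  by_cases hdiv : (N : ℤ) ∣ n
  · obtain ⟨j, rfl⟩ := hdiv
    rw [qExpand_coeff_mul, qExpand_coeff_mul, coeffMap_coeff]
  · rw [qExpand_coeff_of_not_dvd N _ hdiv, qExpand_coeff_of_not_dvd N _ hdiv, map_zero]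

/-- The identification of the two names of the function field over `ℂ`
(same as `toFNL` of `Ratio.lean`). -/
def h72_toFNL (N : ℕ) (f : _root_.Fermat.Agent.GTor.Clo.FN N) : FNL ℂ N := f

theorem h72_ser_eq (N : ℕ) (f : _root_.Fermat.Agent.GTor.Clo.FN N) :
    coeffMap _root_.Fermat.Agent.GTor.Clo.iotaC (f : LaurentSeries _root_.Fermat.Agent.GTor.Clo.Kbar) = ((h72_toFNL N f : FNL ℂ N) : LaurentSeries ℂ) := by
  ext n
  exact h72_coeffMap_iotaC_coeff _ n

/-- The relation between the expansions of numerator and denominator of `phi f`. -/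
theorem h72_uExpT_eq (N : ℕ) [NeZero N] (f : _root_.Fermat.Agent.GTor.Clo.FN N) (a b : _root_.Fermat.Agent.GTor.Clo.AT N) (hb : b ≠ 0)
    (hab : _root_.Fermat.Agent.GTor.Clo.phi N f = algebraMap (_root_.Fermat.Agent.GTor.Clo.AT N) (_root_.Fermat.Agent.GTor.Clo.LN N) a / algebraMap (_root_.Fermat.Agent.GTor.Clo.AT N) (_root_.Fermat.Agent.GTor.Clo.LN N) b) :
    _root_.Fermat.Agent.GTor.Clo.uExpT N a = qExpand _root_.Fermat.Agent.GTor.Clo.Kbar N (f : LaurentSeries _root_.Fermat.Agent.GTor.Clo.Kbar) * _root_.Fermat.Agent.GTor.Clo.uExpT N b := by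
  have hb' : algebraMap (_root_.Fermat.Agent.GTor.Clo.AT N) (_root_.Fermat.Agent.GTor.Clo.LN N) b ≠ 0 := by
    intro h0
    exact hb (IsFractionRing.injective (_root_.Fermat.Agent.GTor.Clo.AT N) (_root_.Fermat.Agent.GTor.Clo.LN N) (by rw [h0, map_zero]))
  have h1 : _root_.Fermat.Agent.GTor.Clo.phi N f * algebraMap (_root_.Fermat.Agent.GTor.Clo.AT N) (_root_.Fermat.Agent.GTor.Clo.LN N) b = algebraMap (_root_.Fermat.Agent.GTor.Clo.AT N) (_root_.Fermat.Agent.GTor.Clo.LN N) a := by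
    rw [hab, div_mul_cancel₀ _ hb']
  have h2 := congrArg (_root_.Fermat.Agent.GTor.Clo.UL N) h1
  rw [map_mul, _root_.Fermat.Agent.GTor.Clo.UL_phi, _root_.Fermat.Agent.GTor.Clo.UL_algebraMap, _root_.Fermat.Agent.GTor.Clo.UL_algebraMap, _root_.Fermat.Agent.GTor.Clo.qN_apply] at h2
  exact h2.symm

/-- **Core of WP Ratio**: `a * B = b * A` on `ℍ`. -/
theorem h72_ratio_core (N : ℕ) [NeZero N] (f : _root_.Fermat.Agent.GTor.Clo.FN N) {k : ℤ}
    (A B : ModularForm (CongruenceSubgroup.Gamma0 N) k) (h : IsRatio N (h72_toFNL N f) A B)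
    (a b : _root_.Fermat.Agent.GTor.Clo.AT N) (hb : b ≠ 0)
    (hab : _root_.Fermat.Agent.GTor.Clo.phi N f = algebraMap (_root_.Fermat.Agent.GTor.Clo.AT N) (_root_.Fermat.Agent.GTor.Clo.LN N) a / algebraMap (_root_.Fermat.Agent.GTor.Clo.AT N) (_root_.Fermat.Agent.GTor.Clo.LN N) b) (τ : ℍ) :
    ((_root_.Fermat.Agent.GTor.Clo.valAT N a : Hol) : ℍ → ℂ) τ * B τ = ((_root_.Fermat.Agent.GTor.Clo.valAT N b : Hol) : ℍ → ℂ) τ * A τ := by
  obtain ⟨-, hAB⟩ := h
  have ha := h72_hasUExp_valAT N a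
  have hbx := h72_hasUExp_valAT N b
  have hA := h72_hasUExp_modularForm N A
  have hB := h72_hasUExp_modularForm N B
  have h1 := ha.mul hB
  have h2 := hbx.mul hA
  have hser : coeffMap _root_.Fermat.Agent.GTor.Clo.iotaC (_root_.Fermat.Agent.GTor.Clo.uExpT N a) * qExpand ℂ N (qLaurent B)
      = coeffMap _root_.Fermat.Agent.GTor.Clo.iotaC (_root_.Fermat.Agent.GTor.Clo.uExpT N b) * qExpand ℂ N (qLaurent A) := by
    rw [h72_uExpT_eq N f a b hb hab, map_mul, h72_coeffMap_qExpand, hAB, map_mul]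
    rw [h72_ser_eq N f]
    ring
  rw [hser] at h1
  exact (h1 τ).unique (h2 τ)

end Fermat.Agent.GTor.Clo

end
end
-- ==== END Fermat.Agent.GTor.Clo.H72_RatioCore

-- ==== BEGIN Fermat.Agent.GTor.H33_CurveL
section

/-!
# Cluster G-TOR, package CURVE (helper33), general algebraically closed `L` of characteristic `0`

`F_L = FNL L N = L(X₀(N)) ⊂ L((q))` is a function field of one variable over `L`:
`j` is transcendental over `L` and `F_L / L(j)` is finite.  The finiteness is transferred from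
`Q̄` (S24 closure layer) along an embedding `Q̄ → L` acting on the coefficients of `q`-expansions.
-/

set_option autoImplicit false
set_option linter.unusedSectionVars false
set_option linter.style.haveILetI false

noncomputable section

namespace Fermat.Agent.GTor.H33

open AlgebraicCurve IntermediateField ModularCurve Fermat.Agent.GTor Fermat.Agent.S24 Polynomial

section Transfer

variable {K₁ K₂ F₁ F₂ : Type*} [Field K₁] [Field K₂] [Field F₁] [Field F₂]
  [Algebra K₁ F₁] [Algebra K₂ F₂]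

/-- Transfer of algebraic dependence along a ring homomorphism of fields. -/
theorem isAlgebraic_adjoin_map (ι : K₁ →+* K₂) (ψ : F₁ →+* F₂)
    (hψ : ∀ c, ψ (algebraMap K₁ F₁ c) = algebraMap K₂ F₂ (ι c)) (x y : F₁)
    (h : IsAlgebraic K₁⟮x⟯ y) : IsAlgebraic K₂⟮ψ x⟯ (ψ y) := by
  rw [isAlgebraic_adjoin_iff] at h ⊢
  obtain ⟨p, hp0, hp⟩ := h
  have hmem : ∀ a : F₁, a ∈ Algebra.adjoin K₁ {x} → ψ a ∈ Algebra.adjoin K₂ {ψ x} := by
    intro a ha
    induction ha using Algebra.adjoin_induction with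
    | mem z hz =>
      rw [Set.mem_singleton_iff] at hz
      subst hz
      exact Algebra.self_mem_adjoin_singleton K₂ (ψ z)
    | algebraMap c => rw [hψ]; exact Subalgebra.algebraMap_mem _ _
    | add a b _ _ ha hb => rw [map_add]; exact add_mem ha hb
    | mul a b _ _ ha hb => rw [map_mul]; exact mul_mem ha hb
  let ψ' : Algebra.adjoin K₁ {x} →+* Algebra.adjoin K₂ {ψ x} :=
    { toFun := fun a => ⟨ψ a, hmem a a.2⟩
      map_one' := Subtype.ext (by simp)
      map_mul' := fun a b => Subtype.ext (by simp)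
      map_zero' := Subtype.ext (by simp)
      map_add' := fun a b => Subtype.ext (by simp) }
  have hinj : Function.Injective ψ' := by
    intro a b hab
    have : ψ (a : F₁) = ψ (b : F₁) := congrArg Subtype.val hab
    exact Subtype.ext (ψ.injective this)
  refine ⟨p.map ψ', (Polynomial.map_ne_zero_iff hinj).mpr hp0, ?_⟩
  have h1 := congrArg ψ hp
  rw [map_zero, aeval_def, hom_eval₂] at h1
  rw [aeval_def, eval₂_map]
  exact h1

end Transfer


section Generators

variable (L : Type) [Field L] [Algebra ℚ L] (N : ℕ) [NeZero N]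

theorem coeffEmb_algebraMap_rat (c : ℚ) :
    coeffEmb L (algebraMap ℚ (LaurentSeries ℚ) c) =
      algebraMap L (LaurentSeries L) (algebraMap ℚ L c) := by
  rw [algebraMap_laurentSeries_eq_single, algebraMap_laurentSeries_eq_single, coeffEmb,
    coeffMap_single]

/-- `coeffEmb` maps `ℚ(X₀(N))` into the field generated over `L` by the `j(q^d)`, `d ∣ N`. -/
theorem coeffEmb_mem_adjoin_divisorExpansions {z : LaurentSeries ℚ}
    (hz : z ∈ modularFunctionFieldFull N) :
    coeffEmb L z ∈ adjoin L (⇑(coeffEmb L) '' divisorExpansions N) := by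
  rw [modularFunctionFieldFull] at hz
  induction hz using IntermediateField.adjoin_induction with
  | mem x hx => exact subset_adjoin L _ ⟨x, hx, rfl⟩
  | algebraMap c =>
      rw [coeffEmb_algebraMap_rat]
      exact IntermediateField.algebraMap_mem _ _
  | add x y _ _ hx hy => rw [map_add]; exact add_mem hx hy
  | inv x _ hx => rw [map_inv₀]; exact inv_mem hx
  | mul x y _ _ hx hy => rw [map_mul]; exact mul_mem hx hy

/-- `F_L = L(j(q^d) : d ∣ N)` inside `L((q))`. -/
theorem laurentBaseChange_full_eq_adjoin :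
    laurentBaseChange L (modularFunctionFieldFull N) =
      adjoin L (⇑(coeffEmb L) '' divisorExpansions N) := by
  apply le_antisymm
  · rw [laurentBaseChange, adjoin_le_iff]
    rintro _ ⟨z, hz, rfl⟩
    exact coeffEmb_mem_adjoin_divisorExpansions L N hz
  · rw [laurentBaseChange]
    apply adjoin.mono
    rintro _ ⟨z, hz, rfl⟩
    exact ⟨z, subset_adjoin ℚ _ hz, rfl⟩

theorem divisorExpansions_finite : (divisorExpansions N).Finite := by
  have h : divisorExpansions N ⊆
      (fun d : ℕ => if h : d = 0 then (0 : LaurentSeries ℚ) else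
        haveI : NeZero d := ⟨h⟩; qExpand ℚ d jq) '' (N.divisors : Set ℕ) := by
    rintro x ⟨d, hd, hdN, rfl⟩
    refine ⟨d, ?_, ?_⟩
    · simpa using ⟨hdN, NeZero.ne N⟩
    · simp [NeZero.ne d]
  exact ((N.divisors.finite_toSet).image _).subset h

/-- The generators `j(q^d)`, `d ∣ N`, of `F_L`, as a subset of `F_L`. -/
def genSet : Set (FNL L N) :=
  {x | (x : LaurentSeries L) ∈ ⇑(coeffEmb L) '' divisorExpansions N}

theorem genSet_finite : (genSet L N).Finite := by
  have h : (genSet L N) ⊆ Subtype.val ⁻¹' (⇑(coeffEmb L) '' divisorExpansions N) := fun _ hx => hx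
  exact (((divisorExpansions_finite N).image _).preimage
    (Subtype.val_injective.injOn)).subset h

theorem val_image_genSet :
    (laurentBaseChange L (modularFunctionFieldFull N)).val '' genSet L N =
      ⇑(coeffEmb L) '' divisorExpansions N := by
  ext y
  constructor
  · rintro ⟨x, hx, rfl⟩
    exact hx
  · rintro ⟨z, hz, rfl⟩
    exact ⟨⟨coeffEmb L z, coeffEmb_mem_laurentBaseChange L (subset_adjoin ℚ _ hz)⟩,
      ⟨z, hz, rfl⟩, rfl⟩

theorem adjoin_genSet : adjoin L (genSet L N) = ⊤ := by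
  rw [eq_top_iff]
  rintro x -
  have hx : (x : LaurentSeries L) ∈ adjoin L (⇑(coeffEmb L) '' divisorExpansions N) := by
    rw [← laurentBaseChange_full_eq_adjoin]
    exact x.2
  rw [← val_image_genSet, ← IntermediateField.adjoin_map] at hx
  obtain ⟨y, hy, hyx⟩ := hx
  have : y = x := Subtype.ext hyx
  rwa [← this]

/-- `j` as an element of `F_L`. -/
def jL : FNL L N :=
  ⟨coeffEmb L jq, coeffEmb_mem_laurentBaseChange L (by
    have h := jqd_mem_full N (one_dvd N)
    rwa [qExpand_one_apply] at h)⟩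

theorem jL_ne_algebraMap (c : L) : jL L N ≠ algebraMap L (FNL L N) c := by
  intro h
  have h1 : coeffEmb L jq = algebraMap L (LaurentSeries L) c := congrArg Subtype.val h
  have h2 := congrArg (fun s : LaurentSeries L => s.coeff (-1)) h1
  simp only [coeffEmb_coeff, coeff_jq_neg_one, map_one, algebraMap_laurentSeries_eq_single] at h2
  rw [HahnSeries.coeff_single_of_ne (by norm_num)] at h2
  exact one_ne_zero h2

theorem transcendental_jL [IsAlgClosed L] : Transcendental L (jL L N) := by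
  intro halg
  have hint : IsIntegral L (jL L N) := halg.isIntegral
  have hdeg1 : (minpoly L (jL L N)).degree = 1 :=
    IsAlgClosed.degree_eq_one_of_irreducible L (minpoly.irreducible hint)
  obtain ⟨a, ha⟩ := minpoly.mem_range_of_degree_eq_one L (jL L N) hdeg1
  exact jL_ne_algebraMap L N a ha.symm

end Generators

section Finite

variable (L : Type) [Field L] [Algebra ℚ L] [IsAlgClosed L] (N : ℕ) [NeZero N]

/-- An embedding `Q̄ → L`. -/
def iotaL : Kbar →+* L :=
  haveI : Algebra.IsAlgebraic ℚ Kbar := AlgebraicClosure.isAlgebraic ℚ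
  (IsAlgClosed.lift : Kbar →ₐ[ℚ] L).toRingHom

theorem bcHom_jF : H75.bcHom (iotaL L) (modularFunctionFieldFull N) (jF N) = jL L N :=
  Subtype.ext (H75.coeffMap_coeffEmb' (iotaL L) jq)

set_option synthInstance.maxHeartbeats 400000 in
set_option maxHeartbeats 1600000 in
theorem isAlgebraic_gen {x : FNL L N} (hx : x ∈ genSet L N) : IsAlgebraic L⟮jL L N⟯ x := by
  obtain ⟨z, hz, hzx⟩ := hx
  haveI : FiniteDimensional Kbar⟮jF N⟯ (FN N) := asm_finiteDimensional (modClosure N)
  let y : FN N := ⟨coeffEmb Kbar z, coeffEmb_mem_laurentBaseChange Kbar (subset_adjoin ℚ _ hz)⟩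
  haveI : Algebra.IsAlgebraic Kbar⟮jF N⟯ (FN N) := Algebra.IsAlgebraic.of_finite _ _
  have hy : IsAlgebraic Kbar⟮jF N⟯ y := Algebra.IsAlgebraic.isAlgebraic y
  have h := isAlgebraic_adjoin_map (iotaL L) (H75.bcHom (iotaL L) (modularFunctionFieldFull N))
    (H75.bcHom_algebraMap (iotaL L) (modularFunctionFieldFull N)) (jF N) y hy
  rw [bcHom_jF] at h
  have hyx : H75.bcHom (iotaL L) (modularFunctionFieldFull N) y = x :=
    Subtype.ext ((H75.coeffMap_coeffEmb' (iotaL L) z).trans hzx)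
  rwa [hyx] at h

set_option synthInstance.maxHeartbeats 400000 in
set_option maxHeartbeats 1600000 in
/-- `F_L / L(j)` is finite. -/
theorem finiteDimensional_FNL : FiniteDimensional L⟮jL L N⟯ (FNL L N) := by
  haveI : Finite (genSet L N) := (genSet_finite L N).to_subtype
  have hfin : FiniteDimensional L⟮jL L N⟯ (adjoin L⟮jL L N⟯ (genSet L N)) :=
    IntermediateField.finiteDimensional_adjoin fun x hx => (isAlgebraic_gen L N hx).isIntegral
  have htop : adjoin L⟮jL L N⟯ (genSet L N) = ⊤ := by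
    rw [← IntermediateField.restrictScalars_eq_top_iff (K := L), eq_top_iff, ← adjoin_genSet L N,
      adjoin_le_iff]
    intro x hx
    exact subset_adjoin L⟮jL L N⟯ _ hx
  rw [htop] at hfin
  exact (IntermediateField.topEquiv (F := L⟮jL L N⟯) (E := FNL L N)).toLinearEquiv.finiteDimensional

variable [CharZero L]

/-- **CURVE**: `F_L` is a function field of one variable over `L`. -/
theorem exists_transcendental_finite :
    ∃ x : FNL L N, Transcendental L x ∧ FiniteDimensional L⟮x⟯ (FNL L N) :=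
  ⟨jL L N, transcendental_jL L N, finiteDimensional_FNL L N⟩

/-- **CURVE**: principal divisors of `F_L` have finite support and degree zero. -/
theorem hasPrincipalDivisors_FNL : HasPrincipalDivisors L (FNL L N) :=
  haveI := finiteDimensional_FNL L N
  hasPrincipalDivisors_of_finite (jL L N) (transcendental_jL L N)

/-- **CURVE**: functions without zeros and poles are constant. -/
theorem exists_algebraMap_eq_FNL (f : FNL L N) (hf : f ≠ 0)
    (h : ∀ v : Place L (FNL L N), v.ord f = 0) :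
    ∃ c : L, algebraMap L (FNL L N) c = f :=
  haveI := finiteDimensional_FNL L N
  exists_algebraMap_eq_of_forall_ord_eq_zero (jL L N) (transcendental_jL L N) f hf h

/-- **KUM** for `L(X₀(N))`: `Pic⁰[n] ≃ U_n`. -/
theorem stmt_KUM_FNL {n : ℕ} (hn : n ≠ 0) : Stmt_KUM L (FNL L N) n :=
  haveI := finiteDimensional_FNL L N
  stmt_KUM_of_finite (jL L N) (transcendental_jL L N) hn

end Finite

end Fermat.Agent.GTor.H33

end
end
-- ==== END Fermat.Agent.GTor.H33_CurveL
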