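-- GENERATED (merged mirror, NOTES/tools/trim/merge3_helper67.py): 7 modules of the originals, bodies verbatim.
import Fermat.Prelude.Def_ModularCurve_ModularUnit
import Fermat.Prelude.Def_ModularCurve_HeckeOperator
import Fermat.Agent.Zm.S35_L12_001
import Fermat.Agent.Zm.S35_L05_005
import Fermat.Agent.S28.H76_Bridge
import Fermat.Agent.Zm.S35_L08_001
import Fermat.Agent.Zm.S35_L12_000
import Fermat.Agent.Zm.S35_L03_000
import Fermat.Agent.Zm.S35_L08_000
import Fermat.Agent.Zm.S35_L11_000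
import Fermat.Agent.Zm.S35_L02_000
import Fermat.Agent.Zm.S35_L10_003
import Fermat.Agent.Zm.S35_L08_003
import Fermat.Agent.Zm.S35_L05_000
import Fermat.Agent.Zm.S35_L06_000
import Fermat.Agent.Zm.S35_L01_000
import Fermat.Agent.Zm.S35_L01_001

-- ==== BEGIN Fermat.Agent.BAD.H30_UnitC
section

/-!
# BAD_q, package UNIT (helper30), part 1: the modular unit `Δ(z)/Δ(dz)` at level `N`, over `ℂ`

For `d ∣ N`: the conjugates `unitU N d q` of the eta quotient `Δ(z)/Δ(dz)` over the cosets of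
`Γ₀(N)` in `SL₂(ℤ)`, as `t`-expansions (`t = q^(1/N)`).

* `unitU_coeff_mem` : coefficients in `ℤ[ζ_N, 1/N]`;
* `sym_unitU` : the symmetric functions of `u_q + s X_q` are polynomials in `j`;
* `prod_unitU_eq_C` : the norm is a nonzero constant;
* `unitU_q1` : at the identity coset, `u = d⁻¹¹ · Δ(q)/Δ(q^d)` (prelude `modularUnitSeries d`).
-/

set_option autoImplicit false
set_option linter.unusedSectionVars false
set_option linter.unusedVariables false

open UpperHalfPlane ModularForm ModularCurve Function SlashInvariantForm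
open scoped MatrixGroups ModularForm Manifold Real

noncomputable section

namespace Fermat.Agent.BAD.H30

open Fermat.Agent.S23.H22 (G0 Q toSL piPerm q1 E12)
open Fermat.Agent.S28 Fermat.Agent.S28.H30
open Fermat.Agent.S15.H30 (dM dP dMm eq_C_of_mul_eq_one iotaN_jq_order)

local notation "ofPS" => HahnSeries.ofPowerSeries ℤ ℂ

variable (N : ℕ) [NeZero N] (d : ℕ)

lemma dM_dvd_of_dvd {N d : ℕ} (hd : d ∣ N) : ∀ i ∈ (Finset.univ : Finset Bool), dM d i ∣ N := by
  intro i _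
  cases i
  · exact one_dvd N
  · exact hd

/-- The conjugates of `Δ(z)/Δ(dz)`. -/
def unitU (q : Q N) : LaurentSeries ℂ := Ueta N Finset.univ (dM d) dP dMm q

/-- The conjugates of `Δ(dz)/Δ(z)`. -/
def unitV (q : Q N) : LaurentSeries ℂ := Ueta N Finset.univ (dM d) dMm dP q

variable {N d}

lemma unitU_coeff_mem (hd : d ∣ N) (q : Q N) (n : ℤ) : (unitU N d q).coeff n ∈ coeffRing N := by
  obtain ⟨γ, rfl⟩ := exists_rep N q
  exact (uls_Ueta (mp := dP) (mm := dMm) (dM_dvd_of_dvd hd) γ).coeffs n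

lemma unitU_ne_zero (hd : d ∣ N) (q : Q N) : unitU N d q ≠ 0 := by
  obtain ⟨γ, rfl⟩ := exists_rep N q
  exact (uls_Ueta (mp := dP) (mm := dMm) (dM_dvd_of_dvd hd) γ).ne

lemma unitU_mul_unitV (hd : d ∣ N) (q : Q N) : unitU N d q * unitV N d q = 1 := by
  unfold unitU unitV Ueta
  have h1 : pexp N (prodF N Finset.univ (dM d) dP q) ≠ 0 :=
    pexp_ne_zero (prodF_BPH (dM_dvd_of_dvd hd) dP q) (z := UpperHalfPlane.I)
      (prodF_ne_zero (dM_dvd_of_dvd hd) dP q _)
  have h2 : pexp N (prodF N Finset.univ (dM d) dMm q) ≠ 0 :=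
    pexp_ne_zero (prodF_BPH (dM_dvd_of_dvd hd) dMm q) (z := UpperHalfPlane.I)
      (prodF_ne_zero (dM_dvd_of_dvd hd) dMm q _)
  field_simp

/-- The symmetric functions of the conjugates are polynomials in `j`. -/
theorem sym_unitU (hd : d ∣ N) {d' : ℕ} (hd' : d' ∣ N) (c s : ℂ) :
    (∏ q : Q N, (HahnSeries.C c - unitU N d q - HahnSeries.C s * Fermat.Agent.S28.H76.Xfam N d' q))
      ∈ Algebra.adjoin ℂ ({iotaN N jq} : Set (LaurentSeries ℂ)) :=
  sym_of_stmt (N := N) (mp := dP) (mm := dMm) Fermat.Agent.S28.H76.stmt_sym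
    (dM_dvd_of_dvd hd) (by simp [dP, dMm]) hd' c s

lemma prod_neg_unitU_mem (hd : d ∣ N) :
    (∏ q : Q N, (-unitU N d q)) ∈ Algebra.adjoin ℂ ({iotaN N jq} : Set (LaurentSeries ℂ)) := by
  have h := sym_unitU hd (one_dvd N) 0 0
  convert h using 1
  refine Finset.prod_congr rfl fun q _ => ?_
  rw [map_zero, zero_mul, sub_zero, zero_sub]

lemma prod_neg_unitV_mem (hd : d ∣ N) :
    (∏ q : Q N, (-unitV N d q)) ∈ Algebra.adjoin ℂ ({iotaN N jq} : Set (LaurentSeries ℂ)) := by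
  have h := sym_of_stmt (N := N) (mp := dMm) (mm := dP) Fermat.Agent.S28.H76.stmt_sym
    (dM_dvd_of_dvd hd) (by simp [dP, dMm]) (one_dvd N) 0 0
  convert h using 1
  refine Finset.prod_congr rfl fun q _ => ?_
  rw [map_zero, zero_mul, sub_zero, zero_sub]
  rfl

/-- **The norm of the modular unit is a nonzero constant.** -/
theorem prod_unitU_eq_C (hd : d ∣ N) :
    ∃ c : ℂ, c ≠ 0 ∧ ∏ q : Q N, unitU N d q = HahnSeries.C c := by
  have hAB : (∏ q : Q N, (-unitU N d q)) * (∏ q : Q N, (-unitV N d q)) = 1 := by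
    rw [← Finset.prod_mul_distrib]
    refine Finset.prod_eq_one fun q _ => ?_
    have e : -unitU N d q * -unitV N d q = unitU N d q * unitV N d q := by ring
    rw [e, unitU_mul_unitV hd]
  obtain ⟨c, hc, hA⟩ := eq_C_of_mul_eq_one (_root_.Fermat.Agent.S15.H30.iotaN_jq_order N) (prod_neg_unitU_mem hd)
    (prod_neg_unitV_mem hd) hAB
  refine ⟨(-1) ^ Fintype.card (Q N) * c, mul_ne_zero (pow_ne_zero _ (by norm_num)) hc, ?_⟩
  have h0 : ∏ q : Q N, (-unitU N d q) = (-1) ^ Fintype.card (Q N) * ∏ q : Q N, unitU N d q := by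
    have e : ∀ q : Q N, -unitU N d q = (-1) * unitU N d q := fun q => by ring
    simp only [e]
    rw [Finset.prod_mul_distrib, Finset.prod_const, Finset.card_univ]
  have h1 : ∏ q : Q N, unitU N d q = (-1) ^ Fintype.card (Q N) * ∏ q : Q N, (-unitU N d q) := by
    have e2 : ((-1 : LaurentSeries ℂ) ^ Fintype.card (Q N)) * (-1) ^ Fintype.card (Q N) = 1 := by
      have e3 : (-1 : LaurentSeries ℂ) * (-1) = 1 := by ring
      rw [← mul_pow, e3, one_pow]
    rw [h0, ← mul_assoc, e2, one_mul]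
  rw [h1, hA, map_mul, map_pow, map_neg, map_one]

/-! ### The expansion at the identity coset -/

/-- The formal `Δ` over `ℂ` is the `q`-expansion of the discriminant. -/
theorem coeffMap_deltaSeries :
    coeffMap (algebraMap ℚ ℂ) deltaSeries = ofPS (qExpansion 1 ModularForm.discriminant) := by
  rw [deltaSeries, map_mul, coeffMap_single, map_one,
    Fermat.Agent.S28.H76.coeffMap_ofPowerSeries, Fermat.Agent.S28.H76.qExpansion_disc_eq_etaProd,
    map_mul, HahnSeries.ofPowerSeries_X]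
  congr 2
  have e : PowerSeries.map (algebraMap ℚ ℂ) (PowerSeries.map (Int.castRingHom ℚ) (etaProd ^ 24))
      = PowerSeries.map (Int.castRingHom ℂ) (etaProd ^ 24) := by
    ext n
    simp only [PowerSeries.coeff_map]
    simp
  rw [dedekindEtaUnitQ, dedekindEtaUnit, e, map_pow]

theorem ofPS_disc_ne_zero : ofPS (qExpansion 1 ModularForm.discriminant) ≠ 0 := by
  rw [← coeffMap_deltaSeries]
  intro h
  have h2 : coeffMap (algebraMap ℚ ℂ) deltaSeries = coeffMap (algebraMap ℚ ℂ) 0 := by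
    rw [h, map_zero]
  exact deltaSeries_ne_zero (Fermat.Agent.RED.H30.coeffMap_injective _ h2)

/-- **The expansion of the unit at the identity coset**: `d⁻¹¹ · Δ(q)/Δ(q^d)`, `q = t^N`. -/
theorem unitU_q1 [NeZero d] (hd : d ∣ N) :
    unitU N d (q1 : Q N)
      = HahnSeries.C (((d : ℂ) ^ ((12 : ℤ) - 1))⁻¹) * iotaN N (modularUnitSeries d) := by
  have hc0 : (d : ℂ) ^ ((12 : ℤ) - 1) ≠ 0 := zpow_ne_zero _ (Nat.cast_ne_zero.mpr (NeZero.ne d))
  have hc : (HahnSeries.C ((d : ℂ) ^ ((12 : ℤ) - 1)) : LaurentSeries ℂ) ≠ 0 := by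
    rw [Ne, map_eq_zero]
    exact hc0
  have hD := ofPS_disc_ne_zero
  have hDd : qExpand ℂ d (ofPS (qExpansion 1 ModularForm.discriminant)) ≠ 0 := by
    intro h
    exact hD (qExpand_injective d (by rw [h, map_zero]))
  -- numerator and denominator
  have hnum : pexp N (prodF N Finset.univ (dM d) dP (q1 : Q N))
      = qExpand ℂ N (ofPS (qExpansion 1 ModularForm.discriminant)) := by
    rw [pexp_prodF (dM_dvd_of_dvd hd), Fintype.prod_bool]
    simp only [dP, dM, if_true, Bool.false_eq_true, if_false, pow_zero, pow_one, one_mul]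
    rw [Fermat.Agent.S28.H76.pexp_fam_q1 N (one_dvd N) DeltaMF]
    simp only [Nat.cast_one, one_zpow, map_one, one_mul, qExpand_one_apply]
    rfl
  have hden : pexp N (prodF N Finset.univ (dM d) dMm (q1 : Q N))
      = qExpand ℂ N (HahnSeries.C ((d : ℂ) ^ ((12 : ℤ) - 1)) *
          qExpand ℂ d (ofPS (qExpansion 1 ModularForm.discriminant))) := by
    rw [pexp_prodF (dM_dvd_of_dvd hd), Fintype.prod_bool]
    simp only [dMm, dM, if_true, Bool.false_eq_true, if_false, pow_zero, pow_one, mul_one]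
    rw [Fermat.Agent.S28.H76.pexp_fam_q1 N hd DeltaMF]
    rfl
  have hmus : coeffMap (algebraMap ℚ ℂ) (modularUnitSeries d)
      = ofPS (qExpansion 1 ModularForm.discriminant)
        * (qExpand ℂ d (ofPS (qExpansion 1 ModularForm.discriminant)))⁻¹ := by
    rw [modularUnitSeries, deltaSeriesN, map_mul, map_inv₀, ModularCurve.coeffMap_qExpand,
      coeffMap_deltaSeries]
  have hqC : qExpand ℂ N (HahnSeries.C ((d : ℂ) ^ ((12 : ℤ) - 1)))
      = HahnSeries.C ((d : ℂ) ^ ((12 : ℤ) - 1)) := by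
    rw [HahnSeries.C_apply, qExpand_single, mul_zero]
  have hB : qExpand ℂ N (qExpand ℂ d (ofPS (qExpansion 1 ModularForm.discriminant))) ≠ 0 := by
    intro h
    exact hDd (qExpand_injective N (by rw [h, map_zero]))
  unfold unitU Ueta
  rw [hnum, hden, iotaN, RingHom.comp_apply, hmus, map_mul (qExpand ℂ N), hqC,
    map_mul (qExpand ℂ N), map_inv₀ (qExpand ℂ N), map_inv₀ (HahnSeries.C)]
  field_simp

end Fermat.Agent.BAD.H30

end
end
-- ==== END Fermat.Agent.BAD.H30_UnitC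

-- ==== BEGIN Fermat.Agent.BAD.H60_Coords
section

/-!
# Item 65, package ABS, leaf 9 (helper60): `Stmt_Coords` from `Stmt_GoodLift`

`coords_of : Stmt_GoodLift → Stmt_Coords`.

For `Q ∈ A₁`: `y₁` with a simple zero at `Q` and order `0` at the other points of `A₁` and at the
branches (weak approximation with exact orders), `y₂` with the values of `y₁` at the nodes and the
value `1` on `A₂` (weak approximation); lift the pair by `Stmt_GoodLift`; the lift has no zero on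
the fibres of the nodes by the conservation law `DIn`.
-/

set_option autoImplicit false
set_option linter.style.haveILetI false

noncomputable section

open AlgebraicCurve

attribute [local instance] Classical.propDecidable

namespace Fermat.Agent.BAD.H60

open Fermat.Agent.RED.H17 Fermat.Agent.RED

local notation "L" => riemannRochSpace

section OneField

variable {k F : Type*} [Field k] [Field F] [Algebra k F]

/-- A function with a non-zero value at `v` has order `0` at `v`. -/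
theorem ord_eq_zero_of_vanAt_sub {v : Place k F} {y : F} {a : k} (ha : a ≠ 0)
    (h : VanAt v (y - algebraMap k F a)) : y ≠ 0 ∧ v.ord y = 0 := by
  have ha' : algebraMap k F a ≠ 0 := by
    intro h0
    exact ha ((map_eq_zero (algebraMap k F)).mp h0)
  have h1 : H51.OrdGe v (v.ord (algebraMap k F a) + 1) (y - algebraMap k F a) := by
    rw [ord_algebraMap, zero_add]
    rcases (vanAt_iff_ord v _).mp h with h0 | h0
    · exact Or.inl h0
    · exact Or.inr (by omega)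
  have h2 := H51.ord_add_eq v ha' h1
  rw [add_sub_cancel, ord_algebraMap] at h2
  exact h2

/-- A function of order `0` at a place of degree one has a non-zero value there. -/
theorem exists_value_ne_zero {v : Place k F} (hdeg : v.deg = 1) {y : F} (hy : y ≠ 0)
    (h : v.ord y = 0) : ∃ a : k, a ≠ 0 ∧ VanAt v (y - algebraMap k F a) := by
  obtain ⟨a, ha⟩ := exists_value v hdeg (regAt_of_ord_nonneg (le_of_eq h.symm))
  refine ⟨a, ?_, ha⟩
  rintro rfl
  rw [map_zero, sub_zero] at ha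
  have := ha.ord_pos hy
  omega

end OneField

/-- The pair of functions on the two components (symmetric form). -/
theorem exists_coord_pair {k F₁ F₂ : Type*} [Field k] [Field F₁] [Algebra k F₁] [Field F₂]
    [Algebra k F₂] (hdeg₁ : ∀ v : Place k F₁, v.deg = 1)
    (nodes : Finset (Place k F₁ × Place k F₂)) (hne : nodes.Nonempty)
    (inj₂ : ∀ s ∈ nodes, ∀ s' ∈ nodes, s.2 = s'.2 → s = s')
    (A₁ : Finset (Place k F₁)) (A₂ : Finset (Place k F₂))
    (hA₁ : Disjoint A₁ (nodes.image Prod.fst)) (hA₂ : Disjoint A₂ (nodes.image Prod.snd))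
    (Q : Place k F₁) (hQ : Q ∈ A₁) :
    ∃ (y₁ : F₁) (y₂ : F₂), y₁ ≠ 0 ∧ y₂ ≠ 0 ∧ Q.ord y₁ = 1 ∧
      (∀ Q' ∈ A₁, Q' ≠ Q → Q'.ord y₁ = 0) ∧ (∀ Q' ∈ A₂, Q'.ord y₂ = 0) ∧
      ∀ s ∈ nodes, ∃ a : k, a ≠ 0 ∧ VanAt s.1 (y₁ - algebraMap k F₁ a) ∧
        VanAt s.2 (y₂ - algebraMap k F₂ a) := by
  -- the first function
  obtain ⟨y₁, hy₁0, hy₁⟩ := H51.exists_ord_eq_family (A₁ ∪ nodes.image Prod.fst)
    (fun v => if v = Q then 1 else 0)
  have hQ1 : Q.ord y₁ = 1 := by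
    rw [hy₁ Q (Finset.mem_union_left _ hQ), if_pos rfl]
  have hA1 : ∀ Q' ∈ A₁, Q' ≠ Q → Q'.ord y₁ = 0 := by
    intro Q' hQ' hne
    rw [hy₁ Q' (Finset.mem_union_left _ hQ'), if_neg hne]
  have hbr : ∀ s ∈ nodes, s.1.ord y₁ = 0 := by
    intro s hs
    have hmem : s.1 ∈ nodes.image Prod.fst := Finset.mem_image_of_mem _ hs
    rw [hy₁ s.1 (Finset.mem_union_right _ hmem), if_neg]
    rintro rfl
    exact Finset.disjoint_left.mp hA₁ hQ hmem
  -- its values at the nodes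
  have hval : ∀ s : Place k F₁ × Place k F₂, ∃ a : k, s ∈ nodes →
      a ≠ 0 ∧ VanAt s.1 (y₁ - algebraMap k F₁ a) := by
    intro s
    by_cases hs : s ∈ nodes
    · obtain ⟨a, ha0, ha⟩ := exists_value_ne_zero (hdeg₁ s.1) hy₁0 (hbr s hs)
      exact ⟨a, fun _ => ⟨ha0, ha⟩⟩
    · exact ⟨0, fun h => absurd h hs⟩
  choose a ha using hval
  -- the second function
  obtain ⟨y₂, hy₂⟩ := H51.exists_approx (A₂ ∪ nodes.image Prod.snd)
    (fun v => if h : ∃ s ∈ nodes, s.2 = v then algebraMap k F₂ (a h.choose) else 1) 1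
  have hnode₂ : ∀ s ∈ nodes, VanAt s.2 (y₂ - algebraMap k F₂ (a s)) := by
    intro s hs
    have hmem : s.2 ∈ nodes.image Prod.snd := Finset.mem_image_of_mem _ hs
    have h1 := hy₂ s.2 (Finset.mem_union_right _ hmem)
    have hex : ∃ s' ∈ nodes, s'.2 = s.2 := ⟨s, hs, rfl⟩
    rw [dif_pos hex] at h1
    have h2 : hex.choose = s := inj₂ _ hex.choose_spec.1 s hs hex.choose_spec.2
    rw [h2] at h1
    rw [vanAt_iff_ord]
    rcases h1 with h1 | h1
    · exact Or.inl h1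
    · exact Or.inr (by omega)
  have hA2' : ∀ Q' ∈ A₂, VanAt Q' (y₂ - algebraMap k F₂ 1) := by
    intro Q' hQ'
    have h1 := hy₂ Q' (Finset.mem_union_left _ hQ')
    have hnex : ¬ ∃ s ∈ nodes, s.2 = Q' := by
      rintro ⟨s, hs, rfl⟩
      exact Finset.disjoint_left.mp hA₂ hQ' (Finset.mem_image_of_mem _ hs)
    rw [dif_neg hnex] at h1
    rw [vanAt_iff_ord, map_one]
    rcases h1 with h1 | h1
    · exact Or.inl h1
    · exact Or.inr (by omega)
  have hy₂0 : y₂ ≠ 0 := by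
    obtain ⟨s, hs⟩ := hne
    exact (ord_eq_zero_of_vanAt_sub (ha s hs).1 (hnode₂ s hs)).1
  refine ⟨y₁, y₂, hy₁0, hy₂0, hQ1, hA1, ?_, ?_⟩
  · intro Q' hQ'
    exact (ord_eq_zero_of_vanAt_sub one_ne_zero (hA2' Q' hQ')).2
  · intro s hs
    exact ⟨a s, (ha s hs).1, (ha s hs).2, hnode₂ s hs⟩

section Core

variable {K F k F₁ F₂ : Type*} [Field K] [Field F] [Algebra K F] [Field k] [Field F₁]
  [Algebra k F₁] [Field F₂] [Algebra k F₂] (S : SSD K F k F₁ F₂)

/-- A function integral for both valuations, regular on the fibres of the nodes, whose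
reductions have order `0` at the branches, has no zero on the fibres of the nodes. -/
theorem ord_eq_zero_of_isNodeP (hP : HasPrincipalDivisors K F) {u : F} (h₁ : S.c₁.IsGU u)
    (h₂ : S.c₂.IsGU u) (hreg : ∀ P, S.IsNodeP P → 0 ≤ P.ord u)
    (ho₁ : ∀ s ∈ S.nodes, s.1.ord (S.c₁.rd u) = 0)
    (ho₂ : ∀ s ∈ S.nodes, s.2.ord (S.c₂.rd u) = 0) :
    ∀ P, S.IsNodeP P → P.ord u = 0 := by
  rintro P ⟨s, hs, hsP⟩
  have h := S.DIn s hs ⟨u, h₁.1⟩ ⟨u, h₂.1⟩ (by rw [← S.c₁.rd_of_mem h₁.1]; exact h₁.2)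
    (by rw [← S.c₂.rd_of_mem h₂.1]; exact h₂.2) ⟨1, by rw [map_one, one_mul]⟩ (dv hP u)
    (fun P => dv_apply hP u P)
  rw [← S.c₁.rd_of_mem h₁.1, ← S.c₂.rd_of_mem h₂.1, ho₁ s hs, ho₂ s hs, add_zero,
    mapDomain_apply_eq_sum] at h
  by_cases hmem : P ∈ (dv hP u).support
  · have h0 := eq_zero_of_sum_eq_zero _ _ (fun P' _ => by
      split_ifs with hP'
      · rw [dv_apply]
        exact hreg P' ⟨s, hs, hP'⟩
      · exact le_rfl) h hmem
    rw [if_pos hsP, dv_apply] at h0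
    exact h0
  · rw [Finsupp.notMem_support_iff, dv_apply] at hmem
    exact hmem

theorem isNodeP_iff_r₂ (P : Place K F) : S.IsNodeP P ↔ ∃ s ∈ S.nodes, S.c₂.r P = some s.2 := by
  constructor
  · rintro ⟨s, hs, hsP⟩
    rcases S.r_cases P with ⟨Q, hQ, h1, _⟩ | ⟨Q, _, _, h1⟩ | ⟨s', hs', h1, h2⟩
    · rw [h1] at hsP
      exact absurd (Option.some.inj hsP).symm ((S.good₁ Q).mp hQ s hs)
    · rw [h1] at hsP; exact absurd hsP (by simp)
    · exact ⟨s', hs', h2⟩
  · rintro ⟨s, hs, hsP⟩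
    exact isNodeP_of_r₂ S hs hsP

end Core

/-- **Leaf 9**: coordinates on the residue discs, from good lifts. -/
theorem coords_of (hGL : Stmt_GoodLift) : Stmt_Coords := by
  intro K F k F₁ F₂ _ _ _ _ _ _ _ _ _ S H H₁ H₂ g g₁ g₂ c c₁ c₂ hR hR₁ hR₂ hnum A₁ A₂ hA₁ hA₂
  -- the common part: lift a pair with non-zero values at the nodes
  have core : ∀ (y₁ : F₁) (y₂ : F₂), y₁ ≠ 0 → y₂ ≠ 0 → (∀ Q' ∈ A₁, 0 ≤ Q'.ord y₁) →
      (∀ Q' ∈ A₂, 0 ≤ Q'.ord y₂) →
      (∀ s ∈ S.nodes, ∃ a : k, a ≠ 0 ∧ VanAt s.1 (y₁ - algebraMap k F₁ a) ∧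
        VanAt s.2 (y₂ - algebraMap k F₂ a)) →
      ∃ u : F, S.c₁.IsGU u ∧ S.c₂.IsGU u ∧ S.c₁.rd u = y₁ ∧ S.c₂.rd u = y₂ ∧
        (∀ P, ∀ Q ∈ A₁, S.c₁.r P = some Q → 0 ≤ P.ord u) ∧
        (∀ P, ∀ Q ∈ A₂, S.c₂.r P = some Q → 0 ≤ P.ord u) ∧
        ∀ P, S.IsNodeP P → P.ord u = 0 := by
    intro y₁ y₂ hy₁ hy₂ hr₁ hr₂ hglue
    obtain ⟨u, hu₁, hu₂, hrd₁, hrd₂, hf₁, hf₂, hfn⟩ := hGL K F k F₁ F₂ S H H₁ H₂ g g₁ g₂ c c₁ c₂
      hR hR₁ hR₂ hnum y₁ y₂ A₁ A₂ hr₁ hr₂ (fun s hs => by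
        obtain ⟨a, -, h1, h2⟩ := hglue s hs
        exact ⟨a, h1, h2⟩)
    have hGU₁ : S.c₁.IsGU u := ⟨hu₁, by rw [hrd₁]; exact hy₁⟩
    have hGU₂ : S.c₂.IsGU u := ⟨hu₂, by rw [hrd₂]; exact hy₂⟩
    refine ⟨u, hGU₁, hGU₂, hrd₁, hrd₂, hf₁, hf₂, ?_⟩
    apply ord_eq_zero_of_isNodeP S H.principal hGU₁ hGU₂ hfn
    · intro s hs
      obtain ⟨a, ha0, h1, -⟩ := hglue s hs
      rw [hrd₁]
      exact (ord_eq_zero_of_vanAt_sub ha0 h1).2
    · intro s hs
      obtain ⟨a, ha0, -, h2⟩ := hglue s hs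
      rw [hrd₂]
      exact (ord_eq_zero_of_vanAt_sub ha0 h2).2
  constructor
  · intro Q hQ
    obtain ⟨y₁, y₂, hy₁, hy₂, hQ1, hA1, hA2, hglue⟩ := exists_coord_pair H₁.deg_one S.nodes
      S.nodes_nonempty S.inj₂ A₁ A₂ hA₁ hA₂ Q hQ
    obtain ⟨u, hGU₁, hGU₂, hrd₁, hrd₂, hf₁, hf₂, hfn⟩ := core y₁ y₂ hy₁ hy₂
      (fun Q' hQ' => by
        by_cases hQQ : Q' = Q
        · rw [hQQ, hQ1]; exact zero_le_one
        · rw [hA1 Q' hQ' hQQ])
      (fun Q' hQ' => by rw [hA2 Q' hQ']) hglue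
    refine ⟨u, ⟨(not_mem_br₁_iff S Q).mp (Finset.disjoint_left.mp hA₁ hQ), hGU₁,
      fun P hPQ => hf₁ P Q hQ hPQ, by rw [hrd₁]; exact hQ1⟩, hGU₂, ?_, ?_, hf₁, hf₂, hfn⟩
    · intro Q' hQ' hne
      rw [hrd₁]
      exact hA1 Q' hQ' hne
    · intro Q' hQ'
      rw [hrd₂]
      exact hA2 Q' hQ'
  · intro Q hQ
    -- the symmetric case: swap the components
    have hinj : ∀ s ∈ S.nodes.image Prod.swap, ∀ s' ∈ S.nodes.image Prod.swap,
        s.2 = s'.2 → s = s' := by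
      intro s hs s' hs' h
      obtain ⟨t, ht, rfl⟩ := Finset.mem_image.mp hs
      obtain ⟨t', ht', rfl⟩ := Finset.mem_image.mp hs'
      rw [S.inj₁ t ht t' ht' h]
    have himg₁ : (S.nodes.image Prod.swap).image Prod.fst = S.br₂ := by
      rw [Finset.image_image]
      rfl
    have himg₂ : (S.nodes.image Prod.swap).image Prod.snd = S.br₁ := by
      rw [Finset.image_image]
      rfl
    obtain ⟨y₂, y₁, hy₂, hy₁, hQ1, hA2, hA1, hglue⟩ := exists_coord_pair H₂.deg_one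
      (S.nodes.image Prod.swap) (S.nodes_nonempty.image _) hinj A₂ A₁
      (by rw [himg₁]; exact hA₂) (by rw [himg₂]; exact hA₁) Q hQ
    obtain ⟨u, hGU₁, hGU₂, hrd₁, hrd₂, hf₁, hf₂, hfn⟩ := core y₁ y₂ hy₁ hy₂
      (fun Q' hQ' => by rw [hA1 Q' hQ'])
      (fun Q' hQ' => by
        by_cases hQQ : Q' = Q
        · rw [hQQ, hQ1]; exact zero_le_one
        · rw [hA2 Q' hQ' hQQ])
      (fun s hs => by
        obtain ⟨a, ha0, h2, h1⟩ := hglue s.swap (Finset.mem_image_of_mem _ hs)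
        exact ⟨a, ha0, h1, h2⟩)
    refine ⟨u, ⟨(not_mem_br₂_iff S Q).mp (Finset.disjoint_left.mp hA₂ hQ), hGU₂,
      fun P hPQ => hf₂ P Q hQ hPQ, by rw [hrd₂]; exact hQ1⟩, hGU₁, ?_, ?_, hf₁, hf₂, hfn⟩
    · intro Q' hQ' hne
      rw [hrd₂]
      exact hA2 Q' hQ' hne
    · intro Q' hQ'
      rw [hrd₁]
      exact hA1 Q' hQ'

end Fermat.Agent.BAD.H60

end
end
-- ==== END Fermat.Agent.BAD.H60_Coords

-- ==== BEGIN Fermat.Agent.BAD.H73_ArchSep
section

/-!
# Item 65 (BAD_q), glue for TOT-MOD (helper73): rank one and incomparability of `V₁`, `V₂`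

* `isArch_V1`, `isArch_V2` : helper42's `IsArch` for the two Gauss valuation rings of `F_{Mq} ℚ̄`;
* `not_V1_le_V2`, `not_V2_le_V1` : the two valuation rings are incomparable;
* generic: `isArch_iff_nonunits`, `isArch_comap` (transport along an automorphism),
  `isArch_of_scale` (rank one from scaling by constants + rank one on the constants).
-/

set_option autoImplicit false
set_option synthInstance.maxHeartbeats 400000
set_option maxHeartbeats 1000000

noncomputable section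

open ModularCurve AlgebraicCurve Fermat.Agent.S28.H73 Fermat.Agent.RED.H73 Fermat.Agent.BAD.H88
  Fermat.Agent.BAD.H82 Fermat.Agent.S24 Fermat.Agent.RED.H17

namespace Fermat.Agent.BAD.H73

section Generic

variable {L : Type} [Field L]

theorem val_lt_iff_div_mem (V : ValuationSubring L) (a y : L) (hy : y ≠ 0) :
    V.valuation a < V.valuation y ↔ a / y ∈ V.nonunits := by
  have hvy : V.valuation y ≠ 0 := (Valuation.ne_zero_iff _).2 hy
  have hpos : 0 < V.valuation y := zero_lt_iff.2 hvy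
  rw [ValuationSubring.mem_nonunits_iff, map_div₀, div_lt_one₀ hpos]

/-- `IsArch` in terms of the maximal ideal. -/
theorem isArch_iff_nonunits (V : ValuationSubring L) :
    H42.IsArch V ↔ ∀ x y : L, x ∈ V.nonunits → y ≠ 0 → ∃ n : ℕ, x ^ n / y ∈ V.nonunits := by
  constructor
  · intro h x y hx hy
    obtain ⟨n, hn⟩ := h x y ((ValuationSubring.mem_nonunits_iff V).1 hx) hy
    exact ⟨n, (val_lt_iff_div_mem V _ _ hy).1 hn⟩
  · intro h x y hx hy
    obtain ⟨n, hn⟩ := h x y ((ValuationSubring.mem_nonunits_iff V).2 hx) hy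
    exact ⟨n, (val_lt_iff_div_mem V _ _ hy).2 hn⟩

theorem mem_nonunits_comap (V : ValuationSubring L) (w : L ≃+* L) (x : L) :
    x ∈ (V.comap (w : L →+* L)).nonunits ↔ w x ∈ V.nonunits := by
  rw [ValuationSubring.mem_nonunits_iff_or, ValuationSubring.mem_nonunits_iff_or,
    ValuationSubring.mem_comap]
  constructor
  · rintro (h | h)
    · left
      rw [h]
      exact map_zero w
    · right
      intro h'
      apply h
      show w x⁻¹ ∈ V
      rw [map_inv₀]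
      exact h'
  · rintro (h | h)
    · left
      exact (map_eq_zero_iff w w.injective).1 h
    · right
      intro h'
      apply h
      have : w x⁻¹ ∈ V := h'
      rwa [map_inv₀] at this

/-- Rank one is transported along an automorphism. -/
theorem isArch_comap (V : ValuationSubring L) (w : L ≃+* L) (h : H42.IsArch V) :
    H42.IsArch (V.comap (w : L →+* L)) := by
  rw [isArch_iff_nonunits] at h ⊢
  intro x y hx hy
  have hwy : w y ≠ 0 := fun h0 => hy ((map_eq_zero_iff w w.injective).1 h0)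
  obtain ⟨n, hn⟩ := h (w x) (w y) ((mem_nonunits_comap V w x).1 hx) hwy
  refine ⟨n, (mem_nonunits_comap V w _).2 ?_⟩
  rw [map_div₀, map_pow]
  exact hn

/-- Rank one from scaling by constants: if every non-zero element is a constant times a unit
and the constants satisfy the rank one property. -/
theorem isArch_of_scale {K : Type} [Field K] [Algebra K L] (V : ValuationSubring L)
    (hsc : ∀ f : L, f ≠ 0 → ∃ c : K, c ≠ 0 ∧ V.valuation (algebraMap K L c * f) = 1)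
    (harch : ∀ c d : K, algebraMap K L c ∈ V.nonunits → d ≠ 0 →
      ∃ m : ℕ, algebraMap K L (c ^ m / d) ∈ V) :
    H42.IsArch V := by
  intro x y hx hy
  rcases eq_or_ne x 0 with rfl | hx0
  · refine ⟨1, ?_⟩
    rw [pow_one, map_zero]
    exact zero_lt_iff.2 ((Valuation.ne_zero_iff _).2 hy)
  obtain ⟨c₁, hc₁, h₁⟩ := hsc x hx0
  obtain ⟨c₂, hc₂, h₂⟩ := hsc y hy
  have hc₁' : algebraMap K L c₁ ≠ 0 := fun h0 => hc₁ ((map_eq_zero _).1 h0)
  have hc₂' : algebraMap K L c₂ ≠ 0 := fun h0 => hc₂ ((map_eq_zero _).1 h0)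
  -- `v x = v (c₁⁻¹)`, `v y = v (c₂⁻¹)`
  have hvx : V.valuation x = V.valuation (algebraMap K L c₁⁻¹) := by
    rw [map_mul] at h₁
    rw [map_inv₀, map_inv₀]
    exact eq_inv_of_mul_eq_one_right h₁
  have hvy : V.valuation y = V.valuation (algebraMap K L c₂⁻¹) := by
    rw [map_mul] at h₂
    rw [map_inv₀, map_inv₀]
    exact eq_inv_of_mul_eq_one_right h₂
  have hc : algebraMap K L c₁⁻¹ ∈ V.nonunits := by
    rw [ValuationSubring.mem_nonunits_iff, ← hvx]
    exact hx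
  obtain ⟨m, hm⟩ := harch c₁⁻¹ c₂⁻¹ hc (inv_ne_zero hc₂)
  refine ⟨m + 1, ?_⟩
  rw [map_pow, hvx, hvy]
  have h1 : V.valuation (algebraMap K L c₁⁻¹) ^ m ≤ V.valuation (algebraMap K L c₂⁻¹) := by
    rw [← ValuationSubring.valuation_le_one_iff, map_div₀, map_div₀, map_pow, map_pow] at hm
    have hpos : 0 < V.valuation (algebraMap K L c₂⁻¹) :=
      zero_lt_iff.2 ((Valuation.ne_zero_iff _).2 (by
        rw [map_inv₀]; exact inv_ne_zero hc₂'))
    exact (div_le_one₀ hpos).1 hm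
  have h2 : V.valuation (algebraMap K L c₁⁻¹) < 1 := (ValuationSubring.mem_nonunits_iff V).1 hc
  have hpos : 0 < V.valuation (algebraMap K L c₂⁻¹) :=
    zero_lt_iff.2 ((Valuation.ne_zero_iff _).2 (by
      rw [map_inv₀]; exact inv_ne_zero hc₂'))
  calc V.valuation (algebraMap K L c₁⁻¹) ^ (m + 1)
      = V.valuation (algebraMap K L c₁⁻¹) ^ m * V.valuation (algebraMap K L c₁⁻¹) := pow_succ _ _
    _ ≤ V.valuation (algebraMap K L c₂⁻¹) * V.valuation (algebraMap K L c₁⁻¹) :=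
        mul_le_mul_left h1 _
    _ < V.valuation (algebraMap K L c₂⁻¹) * 1 := by
        exact mul_lt_mul_of_pos_left h2 hpos
    _ = V.valuation (algebraMap K L c₂⁻¹) := mul_one _

end Generic

section Concrete

variable (A : ValuationSubring Kbar)
variable (q M : ℕ) (a b : ℤ) (hab : a * q + b * M = 1) (hq : q.Prime) [NeZero (M * q)]
variable (hA : A.LiesOverPrime q)

/-- A unit of `V₁` has valuation `1`. -/
theorem valuation_eq_one_of_red1_ne_zero (u : ↥(V1 A q M)) (hu : red1 A q M u ≠ 0) :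
    (V1 A q M).valuation (u : FN (M * q)) = 1 := by
  rw [← ValuationSubring.valuation_eq_one_iff]
  exact (gaussResF'_ne_zero_iff_isUnit A (hSc A q M) u).1 hu

include hq hA in
/-- **`V₁` has rank one.** -/
theorem isArch_V1 : H42.IsArch (V1 A q M) := by
  apply isArch_of_scale (K := Kbar) (V1 A q M)
  · intro f hf
    obtain ⟨c, hc, h, hr⟩ := exists_scale1 A q M f hf
    exact ⟨c, hc, valuation_eq_one_of_red1_ne_zero A q M ⟨_, h⟩ hr⟩
  · intro c d hc hd
    obtain ⟨hmem, hmax⟩ := (ValuationSubring.mem_nonunits_iff_exists_mem_maximalIdeal).1 hc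
    have h0 : red1 A q M ⟨_, hmem⟩ = 0 := (red1_eq_zero_iff A q M _).2 hmax
    exact arch_gaussV A hq hA (M * q) c d hmem h0 hd

include hq hA in
/-- **`V₂` has rank one.** -/
theorem isArch_V2 : H42.IsArch (V2 A q M a b hab hq) :=
  isArch_comap (V1 A q M) ((wq q M a b hab hq : FN (M * q) ≃ₐ[Kbar] FN (M * q)) :
    FN (M * q) ≃+* FN (M * q)) (isArch_V1 A q M hq hA)

include hq hA in
theorem V1_ne_top : V1 A q M ≠ ⊤ := by
  intro h
  have h1 : algebraMap Kbar (FN (M * q)) ((q : Kbar))⁻¹ ∈ V1 A q M := by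
    rw [h]; exact ValuationSubring.mem_top _
  rw [const_mem1] at h1
  have h2 : (q : Kbar) ∈ A.nonunits := hA
  rw [ValuationSubring.mem_nonunits_iff_or] at h2
  rcases h2 with h2 | h2
  · exact hq.ne_zero (by exact_mod_cast h2)
  · exact h2 h1

include hq hA in
theorem V2_ne_top : V2 A q M a b hab hq ≠ ⊤ := by
  intro h
  have h1 : algebraMap Kbar (FN (M * q)) ((q : Kbar))⁻¹ ∈ V2 A q M a b hab hq := by
    rw [h]; exact ValuationSubring.mem_top _
  rw [const_mem2, const_mem1] at h1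
  have h2 : (q : Kbar) ∈ A.nonunits := hA
  rw [ValuationSubring.mem_nonunits_iff_or] at h2
  rcases h2 with h2 | h2
  · exact hq.ne_zero (by exact_mod_cast h2)
  · exact h2 h1

include hA in
/-- `V₁ ≠ V₂` (helper82's (K)). -/
theorem V1_ne_V2 : V1 A q M ≠ V2 A q M a b hab hq :=
  gaussV_ne_comap q M a b hab hq A hA

include hA in
/-- **`V₁ ⊄ V₂`.** -/
theorem not_V1_le_V2 : ¬ V1 A q M ≤ V2 A q M a b hab hq :=
  H42.not_le_of_isArch (isArch_V1 A q M hq hA) (V1_ne_V2 A q M a b hab hq hA)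
    (V2_ne_top A q M a b hab hq hA)

include hA in
/-- **`V₂ ⊄ V₁`.** -/
theorem not_V2_le_V1 : ¬ V2 A q M a b hab hq ≤ V1 A q M :=
  H42.not_le_of_isArch (isArch_V2 A q M a b hab hq hA) (V1_ne_V2 A q M a b hab hq hA).symm
    (V1_ne_top A q M hq hA)

end Concrete

end Fermat.Agent.BAD.H73

end
end
-- ==== END Fermat.Agent.BAD.H73_ArchSep

-- ==== BEGIN Fermat.Agent.BAD.H73_BetaF1
section
attribute [local instance 10000] SubalgebraClass.toAlgebra
attribute [local instance 10000] HahnSeries.powerSeriesAlgebra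

/-!
# Item 65 (BAD_q), `TotData` leaf `β` for `F₁ = redField A (F_{Mq} ℚ̄)` (helper73)

Concrete instance of `BAD/H73_Beta.lean`: `k = kV A`, `A` over `q`, `E = redField`, with the input
(D) `redField A (F_{Mq} ℚ̄) = modularFunctionFieldFullC k M'` (helper82) as a hypothesis.

* `betaF1 : Place k F₁ ≃ Place k F₁`, `FrF1 : F₁ →ₐ[k] F₁` (`t ↦ t ^ q`), `phiF1 : F₁ ≃+* F₁`;
* `betaF1_ord : (β z).ord y = z.ord (φ y)`, **`betaF1_ord_Fr : (β z).ord (Fr g) = q * z.ord g`**.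
-/

set_option autoImplicit false
set_option synthInstance.maxHeartbeats 400000
set_option maxHeartbeats 1000000

noncomputable section

open ModularCurve AlgebraicCurve Fermat.Agent.S28.H73 Fermat.Agent.RED.H73 Fermat.Agent.BAD.H88
  Fermat.Agent.BAD.H82 Fermat.Agent.S24

namespace Fermat.Agent.BAD.H73

/-- The residue field of a valuation ring of `ℚ̄` over `q` is perfect. -/
theorem perfectRing_kV {F : Type} [Field F] [IsAlgClosed F] (A : ValuationSubring F) (q : ℕ)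
    [Fact q.Prime] [CharP (kV A) q] : PerfectRing (kV A) q := by
  have : IsAlgClosed (kV A) := isAlgClosed_kV A
  infer_instance

section Concrete

variable (A : ValuationSubring Kbar) (q M : ℕ) [NeZero (M * q)]
variable (hq : q.Prime) (hA : A.LiesOverPrime q) (M' : ℕ)
variable (hD : redField A (modularFunctionFieldBar (M * q)) (hSc A q M)
  = modularFunctionFieldFullC (kV A) M')

include hq hA hD in
/-- (D) implies that `F₁` is stable under the coefficientwise Frobenius. -/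
theorem frobStable_F1 :
    @FrobStable (kV A) _ q ⟨hq⟩ (charP_kV A hq hA)
      (@perfectRing_kV _ _ _ A q ⟨hq⟩ (charP_kV A hq hA))
      (redField A (modularFunctionFieldBar (M * q)) (hSc A q M)) := by
  rw [hD]
  exact @frobStable_fullC (kV A) _ q ⟨hq⟩ (charP_kV A hq hA)
    (@perfectRing_kV _ _ _ A q ⟨hq⟩ (charP_kV A hq hA)) M'

/-- **`β`** on the places of `F₁`. -/
def betaF1 : Place (kV A) (F1 A q M) ≃ Place (kV A) (F1 A q M) :=
  @beta (kV A) _ q ⟨hq⟩ (charP_kV A hq hA) (@perfectRing_kV _ _ _ A q ⟨hq⟩ (charP_kV A hq hA))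
    _ (frobStable_F1 A q M hq hA M' hD)

/-- `Fr : t ↦ t ^ q` on `F₁`. -/
def FrF1 : F1 A q M →ₐ[kV A] F1 A q M :=
  @FrE (kV A) _ q ⟨hq⟩ (charP_kV A hq hA) (@perfectRing_kV _ _ _ A q ⟨hq⟩ (charP_kV A hq hA))
    _ (frobStable_F1 A q M hq hA M' hD)

/-- The coefficientwise Frobenius `φ` on `F₁`. -/
def phiF1 : F1 A q M ≃+* F1 A q M :=
  @frobE (kV A) _ q ⟨hq⟩ (charP_kV A hq hA) (@perfectRing_kV _ _ _ A q ⟨hq⟩ (charP_kV A hq hA))
    _ (frobStable_F1 A q M hq hA M' hD)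

theorem coe_FrF1 (g : F1 A q M) :
    letI : NeZero q := ⟨hq.ne_zero⟩
    ((FrF1 A q M hq hA M' hD g : F1 A q M) : LaurentSeries (kV A))
      = qExpand (kV A) q (g : LaurentSeries (kV A)) := rfl

theorem coe_phiF1_coeff (g : F1 A q M) (n : ℤ) :
    ((phiF1 A q M hq hA M' hD g : F1 A q M) : LaurentSeries (kV A)).coeff n
      = (g : LaurentSeries (kV A)).coeff n ^ q :=
  @frobL_coeff (kV A) _ q ⟨hq⟩ (charP_kV A hq hA)
    (@perfectRing_kV _ _ _ A q ⟨hq⟩ (charP_kV A hq hA)) (g : LaurentSeries (kV A)) n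

/-- Elements of `F₁` whose series has coefficients in the image of `ℤ` are fixed by `φ`. -/
theorem phiF1_of_int (g : F1 A q M) (x : LaurentSeries ℤ)
    (hx : (g : LaurentSeries (kV A)) = coeffMap (Int.castRingHom (kV A)) x) :
    phiF1 A q M hq hA M' hD g = g := by
  apply Subtype.ext
  show @frobL (kV A) _ q ⟨hq⟩ (charP_kV A hq hA)
    (@perfectRing_kV _ _ _ A q ⟨hq⟩ (charP_kV A hq hA)) (g : LaurentSeries (kV A)) = _
  rw [hx]
  exact @frobL_coeffMap_intCast (kV A) _ q ⟨hq⟩ (charP_kV A hq hA)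
    (@perfectRing_kV _ _ _ A q ⟨hq⟩ (charP_kV A hq hA)) x

theorem phiF1_FrF1 (g : F1 A q M) :
    phiF1 A q M hq hA M' hD (FrF1 A q M hq hA M' hD g) = g ^ q :=
  @frobE_FrE (kV A) _ q ⟨hq⟩ (charP_kV A hq hA)
    (@perfectRing_kV _ _ _ A q ⟨hq⟩ (charP_kV A hq hA)) _ (frobStable_F1 A q M hq hA M' hD) g

theorem FrF1_phiF1 (g : F1 A q M) :
    FrF1 A q M hq hA M' hD (phiF1 A q M hq hA M' hD g) = g ^ q :=
  @FrE_frobE (kV A) _ q ⟨hq⟩ (charP_kV A hq hA)
    (@perfectRing_kV _ _ _ A q ⟨hq⟩ (charP_kV A hq hA)) _ (frobStable_F1 A q M hq hA M' hD) g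

theorem phiF1_algebraMap (c : kV A) :
    phiF1 A q M hq hA M' hD (algebraMap (kV A) (F1 A q M) c)
      = algebraMap (kV A) (F1 A q M) (c ^ q) := by
  have e := @frobE_algebraMap (kV A) _ q ⟨hq⟩ (charP_kV A hq hA)
    (@perfectRing_kV _ _ _ A q ⟨hq⟩ (charP_kV A hq hA)) _ (frobStable_F1 A q M hq hA M' hD) c
  rw [frobeniusEquiv_apply] at e
  exact e

/-- `ord_{β z} y = ord_z (φ y)`. -/
theorem betaF1_ord (z : Place (kV A) (F1 A q M)) (y : F1 A q M) :
    (betaF1 A q M hq hA M' hD z).ord y = z.ord (phiF1 A q M hq hA M' hD y) :=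
  @beta_ord (kV A) _ q ⟨hq⟩ (charP_kV A hq hA)
    (@perfectRing_kV _ _ _ A q ⟨hq⟩ (charP_kV A hq hA)) _ (frobStable_F1 A q M hq hA M' hD) z y

/-- `ord_{β⁻¹ z} y = ord_z (φ⁻¹ y)`. -/
theorem betaF1_symm_ord (z : Place (kV A) (F1 A q M)) (y : F1 A q M) :
    ((betaF1 A q M hq hA M' hD).symm z).ord y = z.ord ((phiF1 A q M hq hA M' hD).symm y) :=
  @beta_symm_ord (kV A) _ q ⟨hq⟩ (charP_kV A hq hA)
    (@perfectRing_kV _ _ _ A q ⟨hq⟩ (charP_kV A hq hA)) _ (frobStable_F1 A q M hq hA M' hD) z y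

/-- **`ord_{β z} (Fr g) = q · ord_z g`**. -/
theorem betaF1_ord_Fr (z : Place (kV A) (F1 A q M)) (g : F1 A q M) :
    (betaF1 A q M hq hA M' hD z).ord (FrF1 A q M hq hA M' hD g) = (q : ℤ) * z.ord g :=
  @beta_ord_Fr (kV A) _ q ⟨hq⟩ (charP_kV A hq hA)
    (@perfectRing_kV _ _ _ A q ⟨hq⟩ (charP_kV A hq hA)) _ (frobStable_F1 A q M hq hA M' hD) z g

/-- `ord_{β z} (g ^ q) = q · ord_{β z} g`, and `ord_{β z} g ^ q = ord_z (Fr ... )`: the order at
`β z` of any `g` is `ord_z (φ g)`; in particular for `g` with coefficients in `𝔽_q` (fixed by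
`φ`) the orders at `z` and `β z` agree. -/
theorem betaF1_ord_of_fixed (z : Place (kV A) (F1 A q M)) (g : F1 A q M)
    (hg : phiF1 A q M hq hA M' hD g = g) :
    (betaF1 A q M hq hA M' hD z).ord g = z.ord g := by
  rw [betaF1_ord, hg]

end Concrete

end Fermat.Agent.BAD.H73

end
end
-- ==== END Fermat.Agent.BAD.H73_BetaF1

-- ==== BEGIN Fermat.Agent.BAD.H79_DI
section

/-!
# Item 65, package CONS-ss (helper79): the divisor identity on the first side

Over a point `z` with a cut-off `ε` (i.e. `z` is not a node):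
* `IsEps.fsum_le` : `∑_{P on side 1 over z} ord_P g ≤ ord_z (red₁ g)` for a unit `g` of `V₁`
  which is integral for `V₂`;
* `IsEps.fsum_eq_of_bal` : equality for units of both valuations (apply `fsum_le` to `g`, `g⁻¹`);
* `exists_imbalance` : elements `e` with `v₁ e = 0`, `v₂ e = v d` for every constant `d` of the
  maximal ideal (separating element + rank one);
* `IsEps.fsum_eq` : equality for all units `g` of `V₁` (the value group of an algebraically
  closed field is divisible, and a homomorphism from a divisible group to `ℤ` vanishes).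
-/

set_option autoImplicit false
set_option linter.style.haveILetI false

noncomputable section

open AlgebraicCurve

attribute [local instance] Classical.propDecidable

namespace Fermat.Agent.BAD.H79

open Fermat.Agent.RED.H17 Fermat.Agent.RED Fermat.Agent.BAD

namespace TotData

variable {K L k L₁ L₂ : Type*} [Field K] [Field L] [Algebra K L] [Field k] [Field L₁]
  [Algebra k L₁] [Field L₂] [Algebra k L₂] {T : TotData K L k L₁ L₂}

/-- **The inequality on the first side.** -/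
theorem IsEps.fsum_le [Infinite k] (hP : HasPrincipalDivisors K L)
    (hd : ∀ v : Place K L, v.deg = 1) {z : Place k L₁} {ε : L} (hε : T.IsEps z ε) {g : L}
    (hg₁ : T.p₁.IsGU g) (hg₂ : g ∈ T.b₂.V) :
    fsum (T.S₁ z) (dv hP g) ≤ z.ord (T.p₁.rd g) := by
  set Sa : Finset (Place K L) := (dv hP g).support.filter (fun P => P ∈ T.S₁ z) with hSa
  set Sb : Finset (Place K L) :=
    (dv hP g).support.filter (fun Q => T.ρ Q = z ∧ ¬ T.OnSide₁ Q) with hSb
  obtain ⟨U, hU1, hU2, hUo, hUP⟩ := hε.exists_unit_prod hP hd (fun P => P.ord g) Sa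
    (fun P hP' => (Finset.mem_filter.mp hP').2)
  obtain ⟨H, hH, hHS⟩ := hε.exists_cut hP hd (fun Q => (-(Q.ord g)).toNat) Sb
    (fun Q hQ => ⟨(Finset.mem_filter.mp hQ).2.1,
      (onSide_or hP Q).resolve_left (Finset.mem_filter.mp hQ).2.2⟩)
  have hGU : T.p₁.IsGU (g * H * U⁻¹) := (hg₁.mul hH.isGU₁).mul hU1.inv
  have hmem₂ : g * H * U⁻¹ ∈ T.b₂.V :=
    T.b₂.V.mul_mem _ _ (T.b₂.V.mul_mem _ _ hg₂ hH.inR.2.1) hU2.inv_mem
  have hordh : ∀ P' : Place K L, P'.ord (g * H * U⁻¹) = P'.ord g + P'.ord H - P'.ord U := by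
    intro P'
    rw [P'.ord_mul (mul_ne_zero hg₁.ne_zero hH.ne_zero) (inv_ne_zero hU1.ne_zero),
      P'.ord_mul hg₁.ne_zero hH.ne_zero, P'.ord_inv]
    ring
  have hreg : ∀ P', T.ρ P' = z → RegAt P' (g * H * U⁻¹) := by
    intro P' hP'z
    apply regAt_of_ord_nonneg
    rw [hordh, hUP P' hP'z]
    by_cases hS1 : T.OnSide₁ P'
    · have hmemS : P' ∈ T.S₁ z := ⟨hP'z, hS1⟩
      rw [hH.ord_eq_zero hmemS]
      by_cases hmem : P' ∈ Sa
      · rw [if_pos hmem]; omega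
      · rw [if_neg hmem]
        have : P'.ord g = 0 := by
          by_contra hne
          apply hmem
          rw [hSa, Finset.mem_filter, Finsupp.mem_support_iff, dv_apply]
          exact ⟨hne, hmemS⟩
        omega
    · have hmem : P' ∉ Sa := by
        intro hmem
        exact hS1 (Finset.mem_filter.mp hmem).2.2
      rw [if_neg hmem]
      have h1 := hH.inR.ord_nonneg hP'z
      by_cases hneg : P'.ord g < 0
      · have hmemb : P' ∈ Sb := by
          rw [hSb, Finset.mem_filter, Finsupp.mem_support_iff, dv_apply]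
          exact ⟨by omega, hP'z, hS1⟩
        have h2 := hHS P' hmemb
        have h3 : ((-(P'.ord g)).toNat : ℤ) = -(P'.ord g) := Int.toNat_of_nonneg (by omega)
        omega
      · omega
  have hR : T.InR z (g * H * U⁻¹) := ⟨hGU.1, hmem₂, hreg⟩
  have hord := (hR.regAt₁ hP).ord_nonneg
  have hrd : T.p₁.rd (g * H * U⁻¹) = T.p₁.rd g * T.p₁.rd H * (T.p₁.rd U)⁻¹ := by
    rw [T.p₁.rd_mul (T.p₁.V.mul_mem _ _ hg₁.1 hH.inR.1) hU1.inv_mem,
      T.p₁.rd_mul hg₁.1 hH.inR.1, hU1.rd_inv]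
  rw [hrd, z.ord_mul (mul_ne_zero hg₁.2 hH.rd₁_ne_zero) (inv_ne_zero hU1.2),
    z.ord_mul hg₁.2 hH.rd₁_ne_zero, z.ord_inv, hH.ord₁, hUo] at hord
  have hfs : fsum (T.S₁ z) (dv hP g) = ∑ P ∈ Sa, P.ord g := by
    rw [fsum_apply, hSa, Finset.sum_filter]
    refine Finset.sum_congr rfl fun P _ => ?_
    rw [dv_apply]
  rw [hfs]
  omega

/-- The divisor identity on the first side for units of both valuations. -/
theorem IsEps.fsum_eq_of_bal [Infinite k] (hP : HasPrincipalDivisors K L)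
    (hd : ∀ v : Place K L, v.deg = 1) {z : Place k L₁} {ε : L} (hε : T.IsEps z ε) {g : L}
    (hg₁ : T.p₁.IsGU g) (hg₂ : T.p₂.IsGU g) :
    fsum (T.S₁ z) (dv hP g) = z.ord (T.p₁.rd g) := by
  have h1 := hε.fsum_le hP hd hg₁ hg₂.1
  have h2 := hε.fsum_le hP hd hg₁.inv hg₂.inv_mem
  rw [dv_inv', map_neg, hg₁.rd_inv, z.ord_inv] at h2
  omega

/-- The defect of the divisor identity on the first side. -/
def defect (T : TotData K L k L₁ L₂) (hP : HasPrincipalDivisors K L) (z : Place k L₁) (g : L) :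
    ℤ :=
  fsum (T.S₁ z) (dv hP g) - z.ord (T.p₁.rd g)

theorem defect_mul (hP : HasPrincipalDivisors K L) (z : Place k L₁) {g h : L}
    (hg : T.p₁.IsGU g) (hh : T.p₁.IsGU h) :
    T.defect hP z (g * h) = T.defect hP z g + T.defect hP z h := by
  unfold defect
  rw [dv_mul' hP hg.ne_zero hh.ne_zero, map_add, T.p₁.rd_mul hg.1 hh.1, z.ord_mul hg.2 hh.2]
  ring

theorem defect_inv (hP : HasPrincipalDivisors K L) (z : Place k L₁) {g : L}
    (hg : T.p₁.IsGU g) : T.defect hP z g⁻¹ = -T.defect hP z g := by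
  unfold defect
  rw [dv_inv', map_neg, hg.rd_inv, z.ord_inv]
  ring

theorem defect_pow (hP : HasPrincipalDivisors K L) (z : Place k L₁) {g : L}
    (hg : T.p₁.IsGU g) (n : ℕ) : T.defect hP z (g ^ n) = n * T.defect hP z g := by
  induction n with
  | zero =>
    unfold defect
    rw [pow_zero, T.p₁.rd_one, Place.ord_one]
    have : dv hP (1 : L) = 0 := by
      ext P
      rw [dv_apply, Place.ord_one, Finsupp.zero_apply]
    rw [this, map_zero]
    simp
  | succ n ih =>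
    rw [pow_succ, defect_mul hP z (hg.pow n) hg, ih]
    push_cast
    ring

/-- **Imbalance elements**: for every non-zero constant `d` of the maximal ideal there is `e`,
unit for `V₁`, such that `e / d` is a unit for `V₂`. -/
theorem exists_imbalance (T : TotData K L k L₁ L₂) {d : K} (hd0 : d ≠ 0)
    (hd : algebraMap K L d ∈ T.b₁.V) (hdr : T.p₁.rd (algebraMap K L d) = 0) :
    ∃ e : L, T.p₁.IsGU e ∧ e ∈ T.b₂.V ∧ T.p₂.IsGU (algebraMap K L d⁻¹ * e) := by
  obtain ⟨e₀, h₁, h₂, hr₁, hr₂⟩ := T.sep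
  have hr₁' : T.p₁.rd e₀ ≠ 0 := by rw [T.p₁.rd_of_mem h₁]; exact hr₁
  have hr₂' : T.p₂.rd e₀ = 0 := by rw [T.p₂.rd_of_mem h₂]; exact hr₂
  have he₀ : e₀ ≠ 0 := by
    rintro rfl
    exact hr₁' T.p₁.rd_zero
  obtain ⟨c', hc'0, hGU⟩ := T.p₂.exists_isGU_scale he₀
  have hc'n : algebraMap K L c' ∉ T.p₂.V := by
    intro hmem
    apply hGU.2
    rw [T.p₂.rd_mul hmem h₂, hr₂', mul_zero]
  obtain ⟨hc₀, hc₀r⟩ := T.p₂.inv_const_of_not_mem hc'n
  have hc₀1 : algebraMap K L c'⁻¹ ∈ T.b₁.V := (T.const_mem _).mpr hc₀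
  have hc₀r1 : T.p₁.rd (algebraMap K L c'⁻¹) = 0 := T.const_rd₁_eq_zero hc₀1 hc₀r
  have hc₀r1' : T.b₁.red ⟨_, hc₀1⟩ = 0 := by
    have := hc₀r1
    rwa [T.p₁.rd_of_mem hc₀1] at this
  obtain ⟨m, hm⟩ := T.arch c'⁻¹ d hc₀1 hc₀r1' hd0
  -- `x = c₀ ^ (m + 1) / d` is in the maximal ideal
  have hx : algebraMap K L (c'⁻¹ ^ (m + 1) / d) = algebraMap K L c'⁻¹ *
      algebraMap K L (c'⁻¹ ^ m / d) := by
    rw [← map_mul]
    congr 1
    rw [pow_succ]
    ring
  have hx1 : algebraMap K L (c'⁻¹ ^ (m + 1) / d) ∈ T.b₁.V := by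
    rw [hx]; exact T.b₁.V.mul_mem _ _ hc₀1 hm
  have hxr1 : T.p₁.rd (algebraMap K L (c'⁻¹ ^ (m + 1) / d)) = 0 := by
    rw [hx, T.p₁.rd_mul hc₀1 hm, hc₀r1, zero_mul]
  have hx2 : algebraMap K L (c'⁻¹ ^ (m + 1) / d) ∈ T.b₂.V := T.const_mem₂ hx1
  have hxr2 : T.p₂.rd (algebraMap K L (c'⁻¹ ^ (m + 1) / d)) = 0 := T.const_rd₂_eq_zero hx1 hxr1
  -- `y = e₀ ^ (m + 1) / d`
  have hw := hGU.pow (m + 1)
  have hy : algebraMap K L d⁻¹ * e₀ ^ (m + 1) =
      algebraMap K L (c'⁻¹ ^ (m + 1) / d) * (algebraMap K L c' * e₀) ^ (m + 1) := by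
    rw [map_div₀, map_pow, map_inv₀, map_inv₀, mul_pow, inv_pow]
    have : algebraMap K L c' ≠ 0 := (map_ne_zero_iff _ (algebraMap K L).injective).mpr hc'0
    have hd' : algebraMap K L d ≠ 0 := (map_ne_zero_iff _ (algebraMap K L).injective).mpr hd0
    field_simp
  have hy2 : algebraMap K L d⁻¹ * e₀ ^ (m + 1) ∈ T.b₂.V := by
    rw [hy]; exact T.b₂.V.mul_mem _ _ hx2 hw.1
  have hyr2 : T.p₂.rd (algebraMap K L d⁻¹ * e₀ ^ (m + 1)) = 0 := by
    rw [hy, T.p₂.rd_mul hx2 hw.1, hxr2, zero_mul]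
  have hp1 : e₀ ^ (m + 1) ∈ T.b₁.V := T.b₁.V.pow_mem h₁ _
  have hp2 : e₀ ^ (m + 1) ∈ T.b₂.V := T.b₂.V.pow_mem h₂ _
  refine ⟨algebraMap K L d + e₀ ^ (m + 1), ⟨T.b₁.V.add_mem _ _ hd hp1, ?_⟩,
    T.b₂.V.add_mem _ _ (T.const_mem₂ hd) hp2, ?_⟩
  · rw [T.p₁.rd_add hd hp1, hdr, zero_add, T.p₁.rd_pow h₁]
    exact pow_ne_zero _ hr₁'
  · have e : algebraMap K L d⁻¹ * (algebraMap K L d + e₀ ^ (m + 1)) =
        1 + algebraMap K L d⁻¹ * e₀ ^ (m + 1) := by
      rw [mul_add, ← map_mul, inv_mul_cancel₀ hd0, map_one]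
    rw [e]
    refine ⟨T.b₂.V.add_mem _ _ T.b₂.V.one_mem hy2, ?_⟩
    rw [T.p₂.rd_add T.p₂.V.one_mem hy2, hyr2, add_zero, T.p₂.rd_one]
    exact one_ne_zero

/-- A root of a constant of the maximal ideal is in the maximal ideal. -/
theorem root_mem (T : TotData K L k L₁ L₂) {d d' : K} {n : ℕ} (hn : 0 < n) (hdd : d' ^ n = d)
    (hd : algebraMap K L d ∈ T.b₁.V) (hdr : T.p₁.rd (algebraMap K L d) = 0) :
    algebraMap K L d' ∈ T.b₁.V ∧ T.p₁.rd (algebraMap K L d') = 0 := by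
  have hmem : algebraMap K L d' ∈ T.b₁.V := by
    by_contra hne
    obtain ⟨h1, h2⟩ := T.p₁.inv_const_of_not_mem hne
    have h3 : algebraMap K L d'⁻¹ ^ n ∈ T.p₁.V := T.p₁.V.pow_mem h1 n
    have h4 : algebraMap K L d * algebraMap K L d'⁻¹ ^ n = 1 := by
      have hd'0 : d' ≠ 0 := by
        rintro rfl
        rw [map_zero] at hne
        exact hne T.b₁.V.zero_mem
      rw [← hdd, ← map_pow, ← map_mul, ← mul_pow, mul_inv_cancel₀ hd'0, one_pow,
        map_one]
    have h5 := T.p₁.rd_mul hd h3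
    rw [h4, T.p₁.rd_one, hdr, zero_mul] at h5
    exact one_ne_zero h5
  refine ⟨hmem, ?_⟩
  have h1 := T.p₁.rd_pow hmem n
  rw [← map_pow, hdd, hdr] at h1
  exact (pow_eq_zero_iff hn.ne').mp h1.symm

/-- The defect vanishes on elements with `v₁ = 0 < v₂`. -/
theorem IsEps.defect_eq_zero_of_pos [Infinite k] [IsAlgClosed K]
    (hP : HasPrincipalDivisors K L) (hd : ∀ v : Place K L, v.deg = 1) {z : Place k L₁} {ε : L}
    (hε : T.IsEps z ε) {g : L} (hg₁ : T.p₁.IsGU g) {d : K} (hd0 : d ≠ 0)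
    (hdm : algebraMap K L d ∈ T.b₁.V) (hdr : T.p₁.rd (algebraMap K L d) = 0)
    (hg₂ : T.p₂.IsGU (algebraMap K L d⁻¹ * g)) : T.defect hP z g = 0 := by
  have hdL : algebraMap K L d ≠ 0 := (map_ne_zero_iff _ (algebraMap K L).injective).mpr hd0
  have hgm₂ : g ∈ T.b₂.V := by
    have : g = algebraMap K L d * (algebraMap K L d⁻¹ * g) := by
      rw [← mul_assoc, ← map_mul, mul_inv_cancel₀ hd0, map_one, one_mul]
    rw [this]
    exact T.b₂.V.mul_mem _ _ (T.const_mem₂ hdm) hg₂.1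
  have hle : T.defect hP z g ≤ 0 := by
    have := hε.fsum_le hP hd hg₁ hgm₂
    unfold defect
    omega
  by_contra hne
  set n : ℕ := (-(T.defect hP z g)).toNat + 1 with hn
  have hnpos : 0 < n := Nat.succ_pos _
  obtain ⟨d', hdd⟩ := IsAlgClosed.exists_pow_nat_eq d hnpos
  have hd'0 : d' ≠ 0 := by
    rintro rfl
    rw [zero_pow hnpos.ne'] at hdd
    exact hd0 hdd.symm
  obtain ⟨hd'm, hd'r⟩ := T.root_mem hnpos hdd hdm hdr
  obtain ⟨e, he₁, hem₂, he₂⟩ := T.exists_imbalance hd'0 hd'm hd'r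
  have hd'L : algebraMap K L d' ≠ 0 := (map_ne_zero_iff _ (algebraMap K L).injective).mpr hd'0
  -- `g / e ^ n` is a unit for both valuations
  have hq₁ : T.p₁.IsGU (g / e ^ n) := hg₁.div (he₁.pow n)
  have hq₂ : T.p₂.IsGU (g / e ^ n) := by
    have h := hg₂.div (he₂.pow n)
    have e' : algebraMap K L d⁻¹ * g / (algebraMap K L d'⁻¹ * e) ^ n = g / e ^ n := by
      rw [mul_pow, ← map_pow, inv_pow, hdd]
      have he0 : e ≠ 0 := he₁.ne_zero
      rw [map_inv₀]
      field_simp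
    rwa [e'] at h
  have h0 := hε.fsum_eq_of_bal hP hd hq₁ hq₂
  have hdef : T.defect hP z (g / e ^ n) = 0 := by
    unfold defect
    omega
  have hsplit : T.defect hP z g = T.defect hP z (g / e ^ n) + n * T.defect hP z e := by
    rw [← defect_pow hP z he₁, ← defect_mul hP z hq₁ (he₁.pow n),
      div_mul_cancel₀ _ (pow_ne_zero _ he₁.ne_zero)]
  rw [hdef, zero_add] at hsplit
  have hele : T.defect hP z e ≤ 0 := by
    have := hε.fsum_le hP hd he₁ hem₂
    unfold defect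
    omega
  have hene : T.defect hP z e ≠ 0 := by
    intro h0'
    rw [h0', mul_zero] at hsplit
    exact hne hsplit
  have h1 : T.defect hP z e ≤ -1 := by omega
  have h2 : (n : ℤ) * T.defect hP z e ≤ n * (-1) :=
    mul_le_mul_of_nonneg_left h1 (Int.natCast_nonneg n)
  have h3 : ((-(T.defect hP z g)).toNat : ℤ) = -(T.defect hP z g) :=
    Int.toNat_of_nonneg (by omega)
  have h4 : (n : ℤ) = -(T.defect hP z g) + 1 := by
    rw [hn]
    push_cast
    rw [h3]
  rw [← hsplit] at h2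
  rw [h4] at h2
  omega

/-- **The divisor identity on the first side**, over a point with a cut-off. -/
theorem IsEps.fsum_eq [Infinite k] [IsAlgClosed K] (hP : HasPrincipalDivisors K L)
    (hd : ∀ v : Place K L, v.deg = 1) {z : Place k L₁} {ε : L} (hε : T.IsEps z ε) {g : L}
    (hg₁ : T.p₁.IsGU g) : fsum (T.S₁ z) (dv hP g) = z.ord (T.p₁.rd g) := by
  have key : T.defect hP z g = 0 := by
    obtain ⟨c, hc0, hGU⟩ := T.p₂.exists_isGU_scale hg₁.ne_zero
    by_cases hcm : algebraMap K L c ∈ T.b₁.V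
    · by_cases hcr : T.p₁.rd (algebraMap K L c) = 0
      · -- `c` in the maximal ideal: apply the lemma to `g⁻¹`
        have h2 : T.p₂.IsGU (algebraMap K L c⁻¹ * g⁻¹) := by
          have := hGU.inv
          rwa [mul_inv, ← map_inv₀] at this
        have := hε.defect_eq_zero_of_pos hP hd hg₁.inv hc0 hcm hcr h2
        rw [defect_inv hP z hg₁] at this
        omega
      · -- `c` is a unit: `g` is a unit for both valuations
        have hc2 : T.p₂.IsGU (algebraMap K L c) :=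
          ⟨T.const_mem₂ hcm, fun h0 => hcr (T.const_rd₁_eq_zero hcm h0)⟩
        have h2 : T.p₂.IsGU g := by
          have := hc2.inv.mul hGU
          have hcL : algebraMap K L c ≠ 0 :=
            (map_ne_zero_iff _ (algebraMap K L).injective).mpr hc0
          rwa [inv_mul_cancel_left₀ hcL] at this
        have := hε.fsum_eq_of_bal hP hd hg₁ h2
        unfold defect
        omega
    · -- `c⁻¹` in the maximal ideal
      obtain ⟨h1, h2⟩ := T.p₁.inv_const_of_not_mem hcm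
      have h3 : T.p₂.IsGU (algebraMap K L c⁻¹⁻¹ * g) := by rwa [inv_inv]
      exact hε.defect_eq_zero_of_pos hP hd hg₁ (inv_ne_zero hc0) h1 h2 h3
  unfold defect at key
  omega

end TotData

end Fermat.Agent.BAD.H79

end
end
-- ==== END Fermat.Agent.BAD.H79_DI

-- ==== BEGIN Fermat.Agent.BAD.H88_VM
section

/-!
# Item 65 (BAD_q), package V2 (helper88), part 5: `V₁ ∩ F_M = V₂ ∩ F_M = V_M`

`N = M q`, `α, β : F_M → F_N` the two degeneracy maps (`α` the inclusion, `β = (q ↦ q^q)`).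
* `wq ∘ α = β`, `wq ∘ β = α`;
* `α x ∈ V₁ ↔ x ∈ V_M`, `β x ∈ V₁ ↔ x ∈ V_M`, and the same for `V₂`;
* `red₁ (α x) = red_M x`, `red₁ (β x) = (red_M x)(q^q)`, `red₂ (α x) = (red_M x)(q^q)`,
  `red₂ (β x) = red_M x` inside `k((q))`.
-/

set_option autoImplicit false
set_option synthInstance.maxHeartbeats 400000
set_option maxHeartbeats 1000000
set_option linter.unusedSectionVars false
set_option linter.style.haveILetI false

noncomputable section

namespace Fermat.Agent.BAD.H88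

open Fermat.Agent.S24 ModularCurve Fermat.Agent.S28 Fermat.Agent.S28.H73 Fermat.Agent.RED.H73

section Level

variable (A : ValuationSubring Kbar) (q M : ℕ) [NeZero M] [NeZero q]

/-- The scaling property of `F_M`. -/
theorem hScM : HasScale A (modularFunctionFieldBar M) :=
  hasScale_laurentBaseChange A M

/-- The Gauss valuation ring of `F_M`. -/
abbrev VM : ValuationSubring (FN M) :=
  gaussValSub A (modularFunctionFieldBar M) (hScM A M)

/-- The residue field of `V_M`, inside `k((q))`. -/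
abbrev FM : Type := ↥(redField A (modularFunctionFieldBar M) (hScM A M))

/-- The residue map of `V_M`. -/
abbrev redM : ↥(VM A M) →+* FM A M := gaussResF' A (hScM A M)

/-- `α (j (q^d)) = j (q^d)`. -/
theorem alpha_jdF (d : ℕ) [NeZero d] (hd : d ∣ M) :
    heckeAlphaBar Kbar M q (jdF M d hd) = jdF (M * q) d (Dvd.dvd.mul_right hd q) :=
  Subtype.ext (coe_heckeAlphaBar M q _)

/-- `β (j (q^d)) = j (q^(d q))`. -/
theorem beta_jdF (d : ℕ) [NeZero d] (hd : d ∣ M) :
    heckeBetaBar Kbar M q (jdF M d hd) = jdF (M * q) (d * q) (Nat.mul_dvd_mul_right hd q) := by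
  apply Subtype.ext
  rw [coe_heckeBetaBar]
  show qExpand Kbar q (coeffEmb Kbar (qExpand ℚ d jq)) = coeffEmb Kbar (qExpand ℚ (d * q) jq)
  rw [coeffEmb_qExpand_jq, coeffEmb_qExpand_jq, qExpand_qExpand]
  exact qExpand_congr (mul_comm q d) _

/-- `α x ∈ V₁ ↔ x ∈ V_M`. -/
theorem alpha_mem_V1_iff (x : FN M) :
    heckeAlphaBar Kbar M q x ∈ V1 A q M ↔ x ∈ VM A M := by
  rw [mem_gaussValSub_iff, mem_gaussValSub_iff, coe_heckeAlphaBar]

/-- The unit scaling at level `M`. -/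
theorem exists_scaleM (f : FN M) (hf : f ≠ 0) :
    ∃ c : Kbar, c ≠ 0 ∧ ∃ h : algebraMap Kbar (FN M) c * f ∈ VM A M,
      redM A M ⟨_, h⟩ ≠ 0 := by
  obtain ⟨c, u, hc, hfu⟩ := exists_unit_scale A (hScM A M) f hf
  refine ⟨c⁻¹, inv_ne_zero hc, ?_⟩
  have e : algebraMap Kbar (FN M) c⁻¹ * f = ((u : ↥(VM A M)) : FN M) := by
    rw [hfu, ← mul_assoc, ← map_mul, inv_mul_cancel₀ hc, map_one, one_mul]
  have hmem : algebraMap Kbar (FN M) c⁻¹ * f ∈ VM A M := e ▸ (u : ↥(VM A M)).2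
  refine ⟨hmem, ?_⟩
  have e2 : (⟨_, hmem⟩ : ↥(VM A M)) = u := Subtype.ext e
  rw [e2]
  exact (Fermat.Agent.RED.H17.gaussResF'_ne_zero_iff_isUnit A (hScM A M) _).mpr u.isUnit

theorem const_memM (c : Kbar) : algebraMap Kbar (FN M) c ∈ VM A M ↔ c ∈ A :=
  algebraMap_mem_gaussValSub_iff A (hScM A M) c

/-- `β x ∈ V₁ ↔ x ∈ V_M`: the Gauss norm is invariant under `q ↦ q^q`. -/
theorem beta_mem_V1_iff (x : FN M) :
    heckeBetaBar Kbar M q x ∈ V1 A q M ↔ x ∈ VM A M := by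
  constructor
  · intro h
    by_cases hx : x = 0
    · rw [hx]; exact zero_mem _
    obtain ⟨c, hc, hm, hr⟩ := exists_scaleM A M x hx
    -- `u = c x` is a unit of `V_M`, hence `β u` is a unit of `V₁`
    set u : FN M := algebraMap Kbar (FN M) c * x with hu
    have hu0 : u ≠ 0 := mul_ne_zero (by
      rw [Ne, map_eq_zero_iff _ (algebraMap Kbar (FN M)).injective]; exact hc) hx
    have huinv : u⁻¹ ∈ VM A M := by
      have hunit : IsUnit (⟨u, hm⟩ : ↥(VM A M)) :=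
        (Fermat.Agent.RED.H17.gaussResF'_ne_zero_iff_isUnit A (hScM A M) _).mp hr
      obtain ⟨v, hv⟩ := hunit.exists_right_inv
      have hv' : u * (v : FN M) = 1 := congrArg Subtype.val hv
      have e : u⁻¹ = (v : FN M) := by
        rw [inv_eq_iff_eq_inv]
        exact eq_inv_of_mul_eq_one_left hv'
      rw [e]; exact v.2
    have hβinv : heckeBetaBar Kbar M q u⁻¹ ∈ V1 A q M := by
      rw [mem_gaussValSub_iff, coe_heckeBetaBar]
      exact qExpand_mem_gaussRingV A q ((mem_gaussValSub_iff A (hScM A M) _).mp huinv)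
    -- `c⁻¹ = β x * β u⁻¹ ∈ V₁`, hence `c⁻¹ ∈ A`
    have hcinv : algebraMap Kbar (FN (M * q)) c⁻¹ ∈ V1 A q M := by
      have e : algebraMap Kbar (FN (M * q)) c⁻¹
          = heckeBetaBar Kbar M q x * heckeBetaBar Kbar M q u⁻¹ := by
        rw [← map_mul, hu, mul_inv, ← mul_assoc, mul_comm x, mul_assoc, mul_inv_cancel₀ hx,
          mul_one, ← map_inv₀, AlgHom.commutes]
      rw [e]; exact mul_mem h hβinv
    have hcA : c⁻¹ ∈ A := (const_mem1 A q M c⁻¹).mp hcinv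
    have e : x = algebraMap Kbar (FN M) c⁻¹ * u := by
      rw [hu, ← mul_assoc, ← map_mul, inv_mul_cancel₀ hc, map_one, one_mul]
    rw [e]
    exact mul_mem ((const_memM A M c⁻¹).mpr hcA) hm
  · intro h
    rw [mem_gaussValSub_iff, coe_heckeBetaBar]
    exact qExpand_mem_gaussRingV A q ((mem_gaussValSub_iff A (hScM A M) _).mp h)

/-- The underlying series of the reduction. -/
theorem coe_gaussResF'_eq {C : Type} [Field C] (O : ValuationSubring C)
    {F : IntermediateField C (LaurentSeries C)} (h : HasScale O F) (x : ↥(gaussValSub O F h)) :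
    ((gaussResF' O h x : ↥(redField O F h)) : LaurentSeries (kV O))
      = gaussRedV O ⟨((x : F) : LaurentSeries C), x.2⟩ := rfl

/-- `red₁ (α x) = red_M x` in `k((q))`. -/
theorem red1_alpha (x : FN M) (h : x ∈ VM A M) (h' : heckeAlphaBar Kbar M q x ∈ V1 A q M) :
    ((red1 A q M ⟨_, h'⟩ : F1 A q M) : LaurentSeries (kV A))
      = ((redM A M ⟨x, h⟩ : FM A M) : LaurentSeries (kV A)) := by
  rw [coe_gaussResF'_eq, coe_gaussResF'_eq]
  congr 1

/-- `red₁ (β x) = (red_M x)(q^q)` in `k((q))`. -/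
theorem red1_beta (x : FN M) (h : x ∈ VM A M) (h' : heckeBetaBar Kbar M q x ∈ V1 A q M) :
    ((red1 A q M ⟨_, h'⟩ : F1 A q M) : LaurentSeries (kV A))
      = qExpand (kV A) q ((redM A M ⟨x, h⟩ : FM A M) : LaurentSeries (kV A)) := by
  rw [coe_gaussResF'_eq, coe_gaussResF'_eq]
  exact gaussRedV_qExpand A q ⟨(x : LaurentSeries Kbar), h⟩ _

end Level

end Fermat.Agent.BAD.H88

end
end
-- ==== END Fermat.Agent.BAD.H88_VM

-- ==== BEGIN Fermat.Agent.GTor.Clo.Ell
section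

/-!
# G-TOR A3–A5 (WP Ell): ramification indices = group theory in the Galois closure over `ℂ`

`G = Gal (LN N / EN)`, `piN N : SL(2, ℤ) → G` surjective, `fixF = Gal (LN N / F_N)`,
`(fixF).comap (piN N) = Γ₀(N)` (`piN_comap`).
* `piN N (-1) = 1` (`-1` acts trivially on `ℍ`, hence on `Hol` and on `AT N`; `piN_algebraMap`).
* `ker (piN N)` is a normal subgroup contained in `Γ₀(N)`; for `1 < N` it meets every stabiliser
  in `{±1}` (`eq_one_or_neg_one_of_mem_normal`), so `piN N` maps `Stab(z) / ±1` isomorphically.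
* `⟨piN N γ⟩ ⊓ fixF = piN N (Stab(z) ⊓ Γ₀(N))` has `|Stab_{Γ₀(N)}(z)| / 2 = ellOrder N z` elements.
* cusps: `piN N T` has order `N` (`T ^ N ∈ Γ(N)` acts trivially: `smul_eq_of_mem_Gamma`;
  `S * T ^ k * S⁻¹ ∈ Γ₀(N)` iff `N ∣ k`: `h85_conj_T_pow_mem_iff`), and
  `⟨piN N (σ T σ⁻¹)⟩ ⊓ fixF` is the subgroup of index `cuspWidth N σ`.

WP Ell (helper38): all statements of this file are proved (signatures unchanged).
-/

set_option autoImplicit false

noncomputable section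

namespace Fermat.Agent.GTor.Clo

open Fermat.Agent.S24 Fermat.Agent.GTor

open ModularCurve AlgebraicCurve UpperHalfPlane ModularGroup CongruenceSubgroup
open scoped MatrixGroups

theorem ell_neg_one_smul_Hol (f : Hol) : (-1 : SL(2, ℤ)) • f = f := by
  apply Subtype.ext
  funext τ
  rw [Hol.smul_apply]
  have h : (-1 : SL(2, ℤ))⁻¹ • τ = τ := by
    rw [inv_smul_eq_iff, ModularGroup.SL_neg_smul, one_smul]
  rw [h]

theorem ell_neg_one_smul_Atil (N : ℕ) (f : _root_.Fermat.Agent.GTor.Clo.Atil N) : (-1 : SL(2, ℤ)) • f = f :=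
  Subtype.ext (ell_neg_one_smul_Hol (f : Hol))

theorem ell_neg_one_smul (N : ℕ) (f : _root_.Fermat.Agent.GTor.Clo.AT N) : (-1 : SL(2, ℤ)) • f = f :=
  ell_neg_one_smul_Atil N f

/-- An element acting trivially on `AT N` lies in the kernel of `piN N`. -/
theorem piN_eq_one_of_smul (N : ℕ) [NeZero N] (γ : SL(2, ℤ)) (h : ∀ f : _root_.Fermat.Agent.GTor.Clo.AT N, γ • f = f) :
    _root_.Fermat.Agent.GTor.Clo.piN N γ = 1 := by
  have h1 : _root_.Fermat.Agent.GTor.Clo.toG0 N γ = 1 := by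
    apply Subtype.ext
    ext f
    exact h f
  show (IsGaloisGroup.mulEquivAlgEquiv (_root_.Fermat.Agent.GTor.Clo.G0 N) _root_.Fermat.Agent.GTor.Clo.EN (_root_.Fermat.Agent.GTor.Clo.LN N)) (_root_.Fermat.Agent.GTor.Clo.toG0 N γ) = 1
  rw [h1, map_one]

theorem piN_neg_one (N : ℕ) [NeZero N] : _root_.Fermat.Agent.GTor.Clo.piN N (-1) = 1 :=
  piN_eq_one_of_smul N (-1) (ell_neg_one_smul N)

theorem piN_mem_fixF_iff (N : ℕ) [NeZero N] (γ : SL(2, ℤ)) :
    _root_.Fermat.Agent.GTor.Clo.piN N γ ∈ fixF _root_.Fermat.Agent.GTor.Clo.EN (_root_.Fermat.Agent.GTor.Clo.FN N) (_root_.Fermat.Agent.GTor.Clo.LN N) ↔ γ ∈ Gamma0 N := by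
  rw [← _root_.Fermat.Agent.GTor.Clo.piN_comap N, Subgroup.mem_comap]

theorem ker_piN_le_Gamma0 (N : ℕ) [NeZero N] : (_root_.Fermat.Agent.GTor.Clo.piN N).ker ≤ Gamma0 N := by
  intro γ hγ
  rw [← piN_mem_fixF_iff, MonoidHom.mem_ker.mp hγ]
  exact Subgroup.one_mem _

/-! ## Points of `ℍ` -/

/-- The stabiliser of `z` in `Γ₀(N)`, as a subgroup of `SL(2, ℤ)`. -/
def ellStab (N : ℕ) (z : ℍ) : Subgroup SL(2, ℤ) :=
  MulAction.stabilizer SL(2, ℤ) z ⊓ Gamma0 N

theorem mem_ellStab (N : ℕ) (z : ℍ) (γ : SL(2, ℤ)) :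
    γ ∈ ellStab N z ↔ γ • z = z ∧ γ ∈ Gamma0 N := by
  rw [ellStab, Subgroup.mem_inf, MulAction.mem_stabilizer_iff]

theorem ell_finite_ellStab (N : ℕ) (z : ℍ) : Finite ↥(ellStab N z) := by
  have := stab_finite z
  exact Finite.of_injective
    (fun x : ↥(ellStab N z) => (⟨x.1, x.2.1⟩ : ↥(MulAction.stabilizer SL(2, ℤ) z)))
    (fun x y h => Subtype.ext (congrArg (fun t : ↥(MulAction.stabilizer SL(2, ℤ) z) => t.1) h))

/-- The set in the definition of `ellOrder` is the subgroup `ellStab`. -/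
def ellEquiv (N : ℕ) (z : ℍ) :
    {γ : Gamma0 N // ((γ : SL(2, ℤ))) • z = z} ≃ ↥(ellStab N z) where
  toFun x := ⟨x.1.1, (mem_ellStab N z _).mpr ⟨x.2, x.1.2⟩⟩
  invFun y := ⟨⟨y.1, ((mem_ellStab N z _).mp y.2).2⟩, ((mem_ellStab N z _).mp y.2).1⟩
  left_inv _ := rfl
  right_inv _ := rfl

theorem ellOrder_eq (N : ℕ) (z : ℍ) : ellOrder N z = Nat.card ↥(ellStab N z) / 2 := by
  unfold ellOrder
  rw [Nat.card_congr (ellEquiv N z)]

theorem ell_neg_one_mem_Gamma0 (N : ℕ) : (-1 : SL(2, ℤ)) ∈ Gamma0 N := by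
  rw [Gamma0_mem]
  simp

theorem ell_neg_one_mem (N : ℕ) (z : ℍ) : (-1 : SL(2, ℤ)) ∈ ellStab N z := by
  rw [mem_ellStab]
  exact ⟨by rw [ModularGroup.SL_neg_smul, one_smul], ell_neg_one_mem_Gamma0 N⟩

theorem ell_two_dvd_card (N : ℕ) (z : ℍ) : 2 ∣ Nat.card ↥(ellStab N z) := by
  have hle : Subgroup.zpowers (-1 : SL(2, ℤ)) ≤ ellStab N z :=
    Subgroup.zpowers_le.mpr (ell_neg_one_mem N z)
  have h := Subgroup.card_dvd_of_le hle
  rwa [Nat.card_zpowers, stab_orderOf_neg_one] at h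

theorem ellOrder_pos (N : ℕ) [NeZero N] (z : ℍ) : 0 < ellOrder N z := by
  rw [ellOrder_eq]
  have := ell_finite_ellStab N z
  have hpos : 0 < Nat.card ↥(ellStab N z) := Nat.card_pos
  obtain ⟨k, hk⟩ := ell_two_dvd_card N z
  rw [hk] at hpos ⊢
  omega

theorem ellOrder_one (z : ℍ) : ellOrder 1 z = jOrd z := by
  rw [ellOrder_eq]
  have h : ellStab 1 z = MulAction.stabilizer SL(2, ℤ) z := by
    ext γ
    rw [mem_ellStab, MulAction.mem_stabilizer_iff, Gamma0_mem]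
    constructor
    · exact fun h => h.1
    · exact fun h => ⟨h, Subsingleton.elim _ _⟩
  rw [h, card_stabilizer]
  omega

/-- The order of a generator of the stabiliser. -/
theorem ell_orderOf_generator (z : ℍ) (γ : SL(2, ℤ))
    (hγ : MulAction.stabilizer SL(2, ℤ) z = Subgroup.zpowers γ) :
    orderOf γ = 2 * jOrd z := by
  rw [← Nat.card_zpowers, ← hγ, card_stabilizer]

/-- For `1 < N` the image in the Galois group of a generator of `Stab(z)` has order `jOrd z`. -/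
theorem orderOf_piN_stab (N : ℕ) [NeZero N] (hN : 1 < N) (z : ℍ) (γ : SL(2, ℤ))
    (hγ : MulAction.stabilizer SL(2, ℤ) z = Subgroup.zpowers γ) (hγ' : γ ^ jOrd z = -1) :
    orderOf (_root_.Fermat.Agent.GTor.Clo.piN N γ) = jOrd z := by
  have ho := ell_orderOf_generator z γ hγ
  have hm := jOrd_pos z
  have hfix : ∀ k : ℕ, (γ ^ k) • z = z := fun k => by
    have : γ ^ k ∈ MulAction.stabilizer SL(2, ℤ) z := by
      rw [hγ]
      exact Subgroup.pow_mem _ (Subgroup.mem_zpowers γ) k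
    exact MulAction.mem_stabilizer_iff.mp this
  apply Nat.dvd_antisymm
  · apply orderOf_dvd_of_pow_eq_one
    rw [← map_pow, hγ', piN_neg_one]
  · -- `(piN γ) ^ k = 1` implies `γ ^ k = ± 1`
    set k := orderOf (_root_.Fermat.Agent.GTor.Clo.piN N γ) with hk
    have h1 : _root_.Fermat.Agent.GTor.Clo.piN N (γ ^ k) = 1 := by rw [map_pow, hk, pow_orderOf_eq_one]
    have hker : γ ^ k ∈ (_root_.Fermat.Agent.GTor.Clo.piN N).ker := MonoidHom.mem_ker.mpr h1
    rcases eq_one_or_neg_one_of_mem_normal N hN (_root_.Fermat.Agent.GTor.Clo.piN N).ker (ker_piN_le_Gamma0 N) z (γ ^ k)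
      (hfix k) hker with h | h
    · have hd : 2 * jOrd z ∣ k := by
        rw [← ho]
        exact orderOf_dvd_of_pow_eq_one h
      exact dvd_trans (Dvd.intro_left 2 rfl) hd
    · -- `γ ^ (k + m) = 1`
      have h2 : γ ^ (k + jOrd z) = 1 := by
        rw [pow_add, h, hγ']
        apply Subtype.ext
        simp
      have hd : 2 * jOrd z ∣ k + jOrd z := by
        rw [← ho]
        exact orderOf_dvd_of_pow_eq_one h2
      obtain ⟨c, hc⟩ := hd
      exact ⟨2 * c - 1, by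
        have : 1 ≤ c := by
          rcases Nat.eq_zero_or_pos c with h0 | h0
          · rw [h0] at hc
            omega
          · exact h0
        zify [show 1 ≤ 2 * c by omega]
        zify at hc
        linear_combination hc⟩

/-- The image of the stabiliser in `Γ₀(N)` is `⟨piN γ⟩ ⊓ Gal (L / F)`. -/
theorem ell_map_ellStab (N : ℕ) [NeZero N] (z : ℍ) (γ : SL(2, ℤ))
    (hγ : MulAction.stabilizer SL(2, ℤ) z = Subgroup.zpowers γ) :
    (ellStab N z).map (_root_.Fermat.Agent.GTor.Clo.piN N) = Subgroup.zpowers (_root_.Fermat.Agent.GTor.Clo.piN N γ) ⊓ fixF _root_.Fermat.Agent.GTor.Clo.EN (_root_.Fermat.Agent.GTor.Clo.FN N) (_root_.Fermat.Agent.GTor.Clo.LN N) := by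
  ext y
  rw [Subgroup.mem_map, Subgroup.mem_inf]
  constructor
  · rintro ⟨x, hx, rfl⟩
    rw [ellStab, Subgroup.mem_inf, hγ] at hx
    obtain ⟨k, rfl⟩ := Subgroup.mem_zpowers_iff.mp hx.1
    refine ⟨?_, (piN_mem_fixF_iff N _).mpr hx.2⟩
    rw [map_zpow]
    exact Subgroup.zpow_mem _ (Subgroup.mem_zpowers _) k
  · rintro ⟨h1, h2⟩
    obtain ⟨k, rfl⟩ := Subgroup.mem_zpowers_iff.mp h1
    rw [← map_zpow] at h2 ⊢
    refine ⟨γ ^ k, ?_, rfl⟩
    rw [ellStab, Subgroup.mem_inf, hγ]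
    exact ⟨Subgroup.zpow_mem _ (Subgroup.mem_zpowers _) k, (piN_mem_fixF_iff N _).mp h2⟩

/-- For `1 < N`, the kernel of `piN` on the stabiliser in `Γ₀(N)` has two elements. -/
theorem ell_card_ker (N : ℕ) [NeZero N] (hN : 1 < N) (z : ℍ) :
    Nat.card ↥((_root_.Fermat.Agent.GTor.Clo.piN N).subgroupMap (ellStab N z)).ker = 2 := by
  rw [Nat.card_eq_two_iff]
  have hmem1 : (1 : ↥(ellStab N z)) ∈ ((_root_.Fermat.Agent.GTor.Clo.piN N).subgroupMap (ellStab N z)).ker :=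
    Subgroup.one_mem _
  have hmem2 : (⟨-1, ell_neg_one_mem N z⟩ : ↥(ellStab N z)) ∈
      ((_root_.Fermat.Agent.GTor.Clo.piN N).subgroupMap (ellStab N z)).ker := by
    rw [MonoidHom.mem_ker]
    apply Subtype.ext
    show _root_.Fermat.Agent.GTor.Clo.piN N (-1) = 1
    exact piN_neg_one N
  refine ⟨⟨1, hmem1⟩, ⟨⟨-1, ell_neg_one_mem N z⟩, hmem2⟩, ?_, ?_⟩
  · intro h
    have h2 := congrArg (fun t : ↥((_root_.Fermat.Agent.GTor.Clo.piN N).subgroupMap (ellStab N z)).ker =>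
      ((t : ↥(ellStab N z)) : SL(2, ℤ))) h
    exact stab_neg_one_ne_one h2.symm
  · ext x
    simp only [Set.mem_insert_iff, Set.mem_singleton_iff, Set.mem_univ, iff_true]
    have hx1 : _root_.Fermat.Agent.GTor.Clo.piN N ((x : ↥(ellStab N z)) : SL(2, ℤ)) = 1 := by
      have := MonoidHom.mem_ker.mp x.2
      exact congrArg (fun t : ↥((ellStab N z).map (_root_.Fermat.Agent.GTor.Clo.piN N)) => (t : _root_.Fermat.Agent.GTor.Clo.LN N ≃ₐ[_root_.Fermat.Agent.GTor.Clo.EN] _root_.Fermat.Agent.GTor.Clo.LN N)) this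
    have hx2 := ((mem_ellStab N z _).mp (x : ↥(ellStab N z)).2).1
    rcases eq_one_or_neg_one_of_mem_normal N hN (_root_.Fermat.Agent.GTor.Clo.piN N).ker (ker_piN_le_Gamma0 N) z _ hx2
      (MonoidHom.mem_ker.mpr hx1) with h | h
    · left
      exact Subtype.ext (Subtype.ext h)
    · right
      exact Subtype.ext (Subtype.ext h)

/-- For `1 < N`: `|⟨piN γ⟩ ⊓ Gal (L / F)| = ellOrder N z`. -/
theorem card_zpowers_inf_fixF (N : ℕ) [NeZero N] (hN : 1 < N) (z : ℍ) (γ : SL(2, ℤ))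
    (hγ : MulAction.stabilizer SL(2, ℤ) z = Subgroup.zpowers γ) (hγ' : γ ^ jOrd z = -1) :
    Nat.card ↥(Subgroup.zpowers (_root_.Fermat.Agent.GTor.Clo.piN N γ) ⊓ fixF _root_.Fermat.Agent.GTor.Clo.EN (_root_.Fermat.Agent.GTor.Clo.FN N) (_root_.Fermat.Agent.GTor.Clo.LN N)) = ellOrder N z := by
  rw [ellOrder_eq, ← ell_map_ellStab N z γ hγ]
  have h1 := Subgroup.card_eq_card_quotient_mul_card_subgroup
    ((_root_.Fermat.Agent.GTor.Clo.piN N).subgroupMap (ellStab N z)).ker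
  have h2 : Nat.card (↥(ellStab N z) ⧸ ((_root_.Fermat.Agent.GTor.Clo.piN N).subgroupMap (ellStab N z)).ker) =
      Nat.card ↥((ellStab N z).map (_root_.Fermat.Agent.GTor.Clo.piN N)) :=
    Nat.card_congr (QuotientGroup.quotientKerEquivOfSurjective _
      ((_root_.Fermat.Agent.GTor.Clo.piN N).subgroupMap_surjective (ellStab N z))).toEquiv
  rw [h2, ell_card_ker N hN z] at h1
  rw [h1]
  omega

/-! ## Cusps -/

theorem ell_T_pow_mem_Gamma (N : ℕ) : (T ^ N : SL(2, ℤ)) ∈ Gamma N := by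
  have hT : ((T ^ N : SL(2, ℤ)) : Matrix (Fin 2) (Fin 2) ℤ) = !![1, (N : ℤ); 0, 1] := by
    have := ModularGroup.coe_T_zpow (N : ℤ)
    rwa [zpow_natCast] at this
  rw [Gamma_mem, hT]
  simp

theorem ell_conj_T_pow_mem (N : ℕ) (σ : SL(2, ℤ)) : σ * T ^ N * σ⁻¹ ∈ Gamma0 N := by
  have h1 : σ * T ^ N * σ⁻¹ ∈ Gamma N :=
    (Gamma_normal N).conj_mem _ (ell_T_pow_mem_Gamma N) σ
  rw [Gamma_mem] at h1
  rw [Gamma0_mem]
  exact h1.2.2.1

/-- The set in the definition of `cuspWidth`, in terms of powers of `σ T σ⁻¹`. -/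
theorem ell_width_set (N : ℕ) (σ : SL(2, ℤ)) :
    {h : ℕ | 0 < h ∧ σ * T ^ h * σ⁻¹ ∈ Gamma0 N} =
      {h : ℕ | 0 < h ∧ (σ * T * σ⁻¹) ^ h ∈ Gamma0 N} := by
  ext h
  simp only [Set.mem_ofPred_eq, conj_pow]

theorem ell_width_mem (N : ℕ) [NeZero N] (σ : SL(2, ℤ)) :
    cuspWidth N σ ∈ {h : ℕ | 0 < h ∧ σ * T ^ h * σ⁻¹ ∈ Gamma0 N} :=
  Nat.sInf_mem ⟨N, Nat.pos_of_ne_zero (NeZero.ne N), ell_conj_T_pow_mem N σ⟩

theorem cuspWidth_pos (N : ℕ) [NeZero N] (σ : SL(2, ℤ)) : 0 < cuspWidth N σ :=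
  (ell_width_mem N σ).1

/-- `(σ T σ⁻¹) ^ j ∈ Γ₀(N)` implies `cuspWidth N σ ∣ j`. -/
theorem ell_width_dvd_of_mem (N : ℕ) [NeZero N] (σ : SL(2, ℤ)) {j : ℤ}
    (hj : (σ * T * σ⁻¹) ^ j ∈ Gamma0 N) : (cuspWidth N σ : ℤ) ∣ j := by
  have hw := cuspWidth_pos N σ
  unfold cuspWidth at hw ⊢
  rw [ell_width_set] at hw ⊢
  exact H96.sInf_dvd_of_zpow_mem (Gamma0 N) (σ * T * σ⁻¹) hw hj

theorem cuspWidth_dvd (N : ℕ) [NeZero N] (σ : SL(2, ℤ)) : cuspWidth N σ ∣ N := by
  have h : (σ * T * σ⁻¹) ^ ((N : ℕ) : ℤ) ∈ Gamma0 N := by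
    rw [zpow_natCast, conj_pow]
    exact ell_conj_T_pow_mem N σ
  exact Int.natCast_dvd_natCast.mp (ell_width_dvd_of_mem N σ h)

theorem orderOf_piN_T (N : ℕ) [NeZero N] : orderOf (_root_.Fermat.Agent.GTor.Clo.piN N T) = N := by
  have h1 : orderOf (_root_.Fermat.Agent.GTor.Clo.piN N T) ∣ N := by
    apply orderOf_dvd_of_pow_eq_one
    rw [← map_pow]
    exact piN_eq_one_of_smul N _ (fun f => _root_.Fermat.Agent.GTor.Clo.smul_eq_of_mem_Gamma N _ (ell_T_pow_mem_Gamma N) f)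
  have h2 : N ≤ orderOf (_root_.Fermat.Agent.GTor.Clo.piN N T) := _root_.Fermat.Agent.GTor.Clo.h85_le_orderOf_T (_root_.Fermat.Agent.GTor.Clo.modClosure N)
  exact le_antisymm (Nat.le_of_dvd (Nat.pos_of_ne_zero (NeZero.ne N)) h1) h2

theorem orderOf_piN_conj_T (N : ℕ) [NeZero N] (σ : SL(2, ℤ)) :
    orderOf (_root_.Fermat.Agent.GTor.Clo.piN N (σ * T * σ⁻¹)) = N := by
  rw [map_mul, map_mul, map_inv]
  exact (orderOf_injective (MulAut.conj (_root_.Fermat.Agent.GTor.Clo.piN N σ)).toMonoidHom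
    (MulAut.conj (_root_.Fermat.Agent.GTor.Clo.piN N σ)).injective (_root_.Fermat.Agent.GTor.Clo.piN N T)).trans (orderOf_piN_T N)

/-- `|⟨piN (σ T σ⁻¹)⟩ ⊓ Gal (L / F)| = N / cuspWidth N σ`. -/
theorem card_zpowers_inf_fixF_cusp (N : ℕ) [NeZero N] (σ : SL(2, ℤ)) :
    Nat.card ↥(Subgroup.zpowers (_root_.Fermat.Agent.GTor.Clo.piN N (σ * T * σ⁻¹)) ⊓ fixF _root_.Fermat.Agent.GTor.Clo.EN (_root_.Fermat.Agent.GTor.Clo.FN N) (_root_.Fermat.Agent.GTor.Clo.LN N))
      = N / cuspWidth N σ := by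
  set g := _root_.Fermat.Agent.GTor.Clo.piN N (σ * T * σ⁻¹) with hg
  set w := cuspWidth N σ with hw
  have hwpos : 0 < w := cuspWidth_pos N σ
  have hwdvd : w ∣ N := cuspWidth_dvd N σ
  have hwmem : (σ * T * σ⁻¹) ^ w ∈ Gamma0 N := by
    rw [conj_pow]
    exact (ell_width_mem N σ).2
  have heq : Subgroup.zpowers g ⊓ fixF _root_.Fermat.Agent.GTor.Clo.EN (_root_.Fermat.Agent.GTor.Clo.FN N) (_root_.Fermat.Agent.GTor.Clo.LN N) = Subgroup.zpowers (g ^ w) := by
    ext y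
    rw [Subgroup.mem_inf]
    constructor
    · rintro ⟨h1, h2⟩
      obtain ⟨k, rfl⟩ := Subgroup.mem_zpowers_iff.mp h1
      rw [hg, ← map_zpow, piN_mem_fixF_iff] at h2
      obtain ⟨c, hc⟩ := ell_width_dvd_of_mem N σ h2
      rw [Subgroup.mem_zpowers_iff]
      exact ⟨c, by rw [hc, zpow_mul, zpow_natCast]⟩
    · intro h
      obtain ⟨k, rfl⟩ := Subgroup.mem_zpowers_iff.mp h
      refine ⟨Subgroup.zpow_mem _ (Subgroup.pow_mem _ (Subgroup.mem_zpowers g) w) k, ?_⟩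
      refine Subgroup.zpow_mem _ ?_ k
      rw [hg, ← map_pow, piN_mem_fixF_iff]
      exact hwmem
  rw [heq, Nat.card_zpowers, orderOf_pow' g hwpos.ne', hg, orderOf_piN_conj_T,
    Nat.gcd_eq_right hwdvd]

end Fermat.Agent.GTor.Clo

end
end
-- ==== END Fermat.Agent.GTor.Clo.Ell
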