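-- GENERATED (merged mirror, NOTES/tools/trim/merge3_helper67.py): 9 modules of the originals, bodies verbatim.
import Fermat.Prelude.Thm_CongruenceSubgroup_one_mem_strictPeriods_Gamma0
import Fermat.Agent.Zm.S35_L12_000
import Fermat.Agent.Zm.S35_L01_000
import Fermat.Agent.Zm.S35_L03_001
import Fermat.Agent.Zm.S35_L07_001
import Fermat.Agent.Zm.S35_L03_000
import Fermat.Agent.GTor.H33_Trdeg
import Fermat.Agent.Zm.S35_L08_001
import Fermat.Agent.Zm.S35_L05_001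
import Fermat.Agent.Zm.S35_L02_001
import Fermat.Agent.Zm.S35_L05_002
import Fermat.Agent.Zm.S35_L06_001
import Fermat.Agent.Zm.S35_L04_001
import Fermat.Agent.Zm.S35_L04_000
import Fermat.Agent.Zm.S35_L03_005
import Fermat.Agent.S17.OpenStab
import Fermat.Agent.Zm.S35_L12_001
import Fermat.Agent.Zm.S35_L01_002
import Fermat.Agent.Zm.S35_L03_002
import Fermat.Agent.Zm.S35_L11_001
import Fermat.Agent.Zm.S35_L08_003

-- ==== BEGIN Fermat.Agent.GTor.Clo.H72_RatioPt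
section

/-!
# G-TOR, WP Ratio, the point half (helper72): `wN_of_isRatio`

For `f ∈ F_ℂ`, `f ≠ 0`, `f = A / B` as `q`-expansions: the valuation of the closure at `z ∈ ℍ`
of `f` is `exp (-(ord_z A - ord_z B))`.
-/

set_option autoImplicit false

noncomputable section

namespace Fermat.Agent.GTor.Clo

open Fermat.Agent.S24 Fermat.Agent.GTor

open ModularCurve AlgebraicCurve UpperHalfPlane WithZero
open scoped MatrixGroups Manifold ModularForm

/-- A modular form, as an element of `Hol`. -/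
def h72_mfHol (N : ℕ) {k : ℤ} (A : ModularForm (CongruenceSubgroup.Gamma0 N) k) : Hol :=
  ⟨(A : ℍ → ℂ), A.holo'⟩

theorem h72_mfHol_apply (N : ℕ) {k : ℤ} (A : ModularForm (CongruenceSubgroup.Gamma0 N) k)
    (τ : ℍ) : ((h72_mfHol N A : Hol) : ℍ → ℂ) τ = A τ := rfl

theorem h72_mfHol_ne_zero (N : ℕ) {k : ℤ} {A : ModularForm (CongruenceSubgroup.Gamma0 N) k}
    (hA : A ≠ 0) : h72_mfHol N A ≠ 0 := by
  intro h0
  apply hA
  ext τ
  have := congrArg (fun g : Hol => (g : ℍ → ℂ) τ) h0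
  exact this

theorem h72_ordAt_eq (N : ℕ) {k : ℤ} (A : ModularForm (CongruenceSubgroup.Gamma0 N) k) (z : ℍ) :
    ordAt (A : ℍ → ℂ) z = (Hol.ordNat z (h72_mfHol N A) : ℤ) := rfl

/-- The core identity, in `Hol`. -/
theorem h72_ratio_core_hol (N : ℕ) [NeZero N] (f : _root_.Fermat.Agent.GTor.Clo.FN N) {k : ℤ}
    (A B : ModularForm (CongruenceSubgroup.Gamma0 N) k) (h : IsRatio N (h72_toFNL N f) A B)
    (a b : _root_.Fermat.Agent.GTor.Clo.AT N) (hb : b ≠ 0)
    (hab : _root_.Fermat.Agent.GTor.Clo.phi N f = algebraMap (_root_.Fermat.Agent.GTor.Clo.AT N) (_root_.Fermat.Agent.GTor.Clo.LN N) a / algebraMap (_root_.Fermat.Agent.GTor.Clo.AT N) (_root_.Fermat.Agent.GTor.Clo.LN N) b) :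
    _root_.Fermat.Agent.GTor.Clo.valAT N a * h72_mfHol N B = _root_.Fermat.Agent.GTor.Clo.valAT N b * h72_mfHol N A := by
  apply Subtype.ext
  funext τ
  exact h72_ratio_core N f A B h a b hb hab τ

theorem h72_valAT_ne_zero (N : ℕ) {a : _root_.Fermat.Agent.GTor.Clo.AT N} (ha : a ≠ 0) : _root_.Fermat.Agent.GTor.Clo.valAT N a ≠ 0 :=
  fun h0 => ha (_root_.Fermat.Agent.GTor.Clo.valAT_injective N (by rw [h0, map_zero]))

/-- **WP Ratio, point half.** -/
theorem h72_wN_of_isRatio (N : ℕ) [NeZero N] (z : ℍ) (f : _root_.Fermat.Agent.GTor.Clo.FN N) (hf : f ≠ 0) (k : ℤ)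
    (A B : ModularForm (CongruenceSubgroup.Gamma0 N) k) (h : IsRatio N (h72_toFNL N f) A B) :
    _root_.Fermat.Agent.GTor.Clo.wN N z (algebraMap (_root_.Fermat.Agent.GTor.Clo.FN N) (_root_.Fermat.Agent.GTor.Clo.LN N) f) = exp (-(ordAt A z - ordAt B z)) := by
  obtain ⟨a, b, hbmem, hab⟩ := IsFractionRing.div_surjective (A := _root_.Fermat.Agent.GTor.Clo.AT N) (_root_.Fermat.Agent.GTor.Clo.phi N f)
  have hb : b ≠ 0 := nonZeroDivisors.ne_zero hbmem
  have hb' : algebraMap (_root_.Fermat.Agent.GTor.Clo.AT N) (_root_.Fermat.Agent.GTor.Clo.LN N) b ≠ 0 :=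
    IsFractionRing.to_map_ne_zero_of_mem_nonZeroDivisors hbmem
  have hphi : _root_.Fermat.Agent.GTor.Clo.phi N f ≠ 0 := by
    intro h0
    exact hf ((_root_.Fermat.Agent.GTor.Clo.phi N).toRingHom.injective (by rw [AlgHom.toRingHom_eq_coe, RingHom.coe_coe, h0,
      map_zero]))
  have ha : a ≠ 0 := by
    intro h0
    rw [h0, map_zero, zero_div] at hab
    exact hphi hab.symm
  have hcore := h72_ratio_core_hol N f A B h a b hb hab.symm
  have hB : B ≠ 0 := h.1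
  have hBh := h72_mfHol_ne_zero N hB
  have hah := h72_valAT_ne_zero N ha
  have hbh := h72_valAT_ne_zero N hb
  have hAh : h72_mfHol N A ≠ 0 := by
    intro h0
    rw [h0, mul_zero] at hcore
    exact mul_ne_zero hah hBh hcore
  have hord := congrArg (Hol.ordNat z) hcore
  rw [Hol.ordNat_mul z hah hBh, Hol.ordNat_mul z hbh hAh] at hord
  rw [_root_.Fermat.Agent.GTor.Clo.algebraMap_FN_LN, ← hab, map_div₀, _root_.Fermat.Agent.GTor.Clo.wN_algebraMap_AT, _root_.Fermat.Agent.GTor.Clo.wN_algebraMap_AT, _root_.Fermat.Agent.GTor.Clo.wAT_apply,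
    _root_.Fermat.Agent.GTor.Clo.wAT_apply, Hol.ordVal_apply z hah, Hol.ordVal_apply z hbh, h72_ordAt_eq, h72_ordAt_eq,
    ← WithZero.exp_sub]
  congr 1
  have hordZ : (Hol.ordNat z (_root_.Fermat.Agent.GTor.Clo.valAT N a) : ℤ) + (Hol.ordNat z (h72_mfHol N B) : ℤ)
      = (Hol.ordNat z (_root_.Fermat.Agent.GTor.Clo.valAT N b) : ℤ) + (Hol.ordNat z (h72_mfHol N A) : ℤ) := by
    exact_mod_cast hord
  linarith

end Fermat.Agent.GTor.Clo

end
end
-- ==== END Fermat.Agent.GTor.Clo.H72_RatioPt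

-- ==== BEGIN Fermat.Agent.GTor.Clo.H96_RatioCusp
section

set_option autoImplicit false

noncomputable section

namespace Fermat.Agent.GTor.Clo.H96

open Fermat.Agent.S24 Fermat.Agent.GTor Fermat.Agent.GTor.Clo

open ModularCurve AlgebraicCurve UpperHalfPlane WithZero
open scoped MatrixGroups Manifold ModularForm

/-- A power-series expansion in `𝕢 N` is an expansion in the sense of `HasUExp`. -/
theorem hasUExp_ofPowerSeries (N : ℕ) (X : ℍ → ℂ) (P : PowerSeries ℂ)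
    (h : ∀ τ : ℍ, HasSum (fun m : ℕ => (PowerSeries.coeff m P) • Function.Periodic.qParam (N : ℝ) (τ : ℂ) ^ m) (X τ)) :
    HasUExp N X (HahnSeries.ofPowerSeries ℤ ℂ P) := by
  intro τ
  have hinj : Function.Injective (fun n : ℕ => (n : ℤ)) := Nat.cast_injective
  refine (hinj.hasSum_iff ?_).mp ?_
  · intro m hm
    have hneg : m < 0 := by
      by_contra hcon
      apply hm
      exact ⟨m.toNat, Int.toNat_of_nonneg (not_lt.mp hcon)⟩
    rw [ofPowerSeries_coeff_of_neg _ hneg, zero_mul]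
  · have hfun : ((fun n : ℤ => (HahnSeries.ofPowerSeries ℤ ℂ P).coeff n * uPar N τ ^ n) ∘
        fun n : ℕ => (n : ℤ))
        = fun m : ℕ => (PowerSeries.coeff m P) • Function.Periodic.qParam (N : ℝ) (τ : ℂ) ^ m := by
      funext m
      show (HahnSeries.ofPowerSeries ℤ ℂ P).coeff (m : ℤ) * uPar N τ ^ (m : ℤ) = _
      rw [HahnSeries.ofPowerSeries_apply_coeff, zpow_natCast, smul_eq_mul]
      rfl
    rw [hfun]
    exact h τ

/-- An expansion in `q` is an expansion in `u = q ^ (1 / N)`. -/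
theorem hasUExp_qExpand (N : ℕ) [NeZero N] {X : ℍ → ℂ} {c : LaurentSeries ℂ}
    (h : HasUExp 1 X c) : HasUExp N X (qExpand ℂ N c) := by
  intro τ
  have hN : (N : ℤ) ≠ 0 := by exact_mod_cast NeZero.ne N
  have hinj : Function.Injective (fun n : ℤ => (N : ℤ) * n) := mul_right_injective₀ hN
  refine (hinj.hasSum_iff ?_).mp ?_
  · intro m hm
    have hnd : ¬ (N : ℤ) ∣ m := by
      rintro ⟨n, rfl⟩
      exact hm ⟨n, rfl⟩
    rw [qExpand_coeff_of_not_dvd N c hnd, zero_mul]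
  · have hfun : ((fun n : ℤ => (qExpand ℂ N c).coeff n * uPar N τ ^ n) ∘
        fun n : ℤ => (N : ℤ) * n) = fun n : ℤ => c.coeff n * uPar 1 τ ^ n := by
      funext n
      show (qExpand ℂ N c).coeff ((N : ℤ) * n) * uPar N τ ^ ((N : ℤ) * n) = _
      rw [qExpand_coeff_mul, zpow_mul, zpow_natCast, uPar_pow]
    rw [hfun]
    exact h τ

/-- A cusp-regular function has an expansion in `u`. -/
theorem hasUExp_of_isCuspRegular (N : ℕ) [NeZero N] {X : ℍ → ℂ}
    (hX : Fermat.Agent.GTor.H96.IsCuspRegular (N : ℝ) X) :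
    HasUExp N X (HahnSeries.ofPowerSeries ℤ ℂ (qExpansion (N : ℝ) X)) := by
  apply hasUExp_ofPowerSeries
  intro τ
  exact UpperHalfPlane.hasSum_qExpansion (Nat.cast_pos.mpr (NeZero.pos N)) hX.per hX.hol hX.bdd τ

/-- The `q`-expansion of a modular form on `Γ₀(N)`, in the parameter `u`. -/
theorem hasUExp_modularForm (N : ℕ) [NeZero N] {k : ℤ}
    (A : ModularForm (CongruenceSubgroup.Gamma0 N) k) :
    HasUExp N (A : ℍ → ℂ) (qExpand ℂ N (qLaurent A)) := by
  apply hasUExp_qExpand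
  have hX : Fermat.Agent.GTor.H96.IsCuspRegular ((1 : ℕ) : ℝ) ((A : ℍ → ℂ)) := by
    rw [Nat.cast_one]
    exact ⟨SlashInvariantFormClass.periodic_comp_ofComplex A
      (CongruenceSubgroup.one_mem_strictPeriods_Gamma0 N), A.holo',
      ModularFormClass.bdd_at_infty A⟩
  have h := hasUExp_of_isCuspRegular 1 hX
  rw [Nat.cast_one] at h
  exact h

/-- `iotaC` is the identity, so `coeffMap iotaC` is the identity. -/
theorem coeffMap_iotaC_id (c : LaurentSeries _root_.Fermat.Agent.GTor.Clo.Kbar) : coeffMap _root_.Fermat.Agent.GTor.Clo.iotaC c = c := by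
  ext n
  rfl

/-- The expansion of an element of `AT N`, as a Laurent series over `ℂ`. -/
def uExpC (N : ℕ) [NeZero N] (a : _root_.Fermat.Agent.GTor.Clo.AT N) : LaurentSeries ℂ := _root_.Fermat.Agent.GTor.Clo.uExpT N a

/-- The expansion of an element of `AT N`. -/
theorem hasUExp_valAT (N : ℕ) [NeZero N] (a : _root_.Fermat.Agent.GTor.Clo.AT N) :
    HasUExp N ((_root_.Fermat.Agent.GTor.Clo.valAT N a : Hol) : ℍ → ℂ) (uExpC N a) := by
  have h := _root_.Fermat.Agent.GTor.Clo.uExp_spec N ((_root_.Fermat.Agent.GTor.Clo.toAT N).symm a)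
  rw [coeffMap_iotaC_id] at h
  exact h

/-- The identification of the two names of the function field over `ℂ`
(same as `Clo.toFNL` of `Clo/Ratio.lean`). -/
def toFNLc (N : ℕ) (f : _root_.Fermat.Agent.GTor.Clo.FN N) : FNL ℂ N := f

/-- **Core of WP Ratio**, on expansions: if `phi f = a / b` and `f = A / B` then
`a * B` and `b * A` have the same expansion. -/
theorem ratio_core_series (N : ℕ) [NeZero N] (f : _root_.Fermat.Agent.GTor.Clo.FN N) {k : ℤ}
    (A B : ModularForm (CongruenceSubgroup.Gamma0 N) k)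
    (h : qLaurent A = ((toFNLc N f : FNL ℂ N) : LaurentSeries ℂ) * qLaurent B) (a b : _root_.Fermat.Agent.GTor.Clo.AT N)
    (hab : _root_.Fermat.Agent.GTor.Clo.phi N f * algebraMap (_root_.Fermat.Agent.GTor.Clo.AT N) (_root_.Fermat.Agent.GTor.Clo.LN N) b = algebraMap (_root_.Fermat.Agent.GTor.Clo.AT N) (_root_.Fermat.Agent.GTor.Clo.LN N) a) :
    uExpC N a * qExpand ℂ N (qLaurent B) = uExpC N b * qExpand ℂ N (qLaurent A) := by
  have h1 : _root_.Fermat.Agent.GTor.Clo.qN N f * _root_.Fermat.Agent.GTor.Clo.uExpT N b = _root_.Fermat.Agent.GTor.Clo.uExpT N a := by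
    have := congrArg (_root_.Fermat.Agent.GTor.Clo.UL N) hab
    rwa [map_mul, _root_.Fermat.Agent.GTor.Clo.UL_phi, _root_.Fermat.Agent.GTor.Clo.UL_algebraMap, _root_.Fermat.Agent.GTor.Clo.UL_algebraMap] at this
  have h1' : qExpand ℂ N ((toFNLc N f : FNL ℂ N) : LaurentSeries ℂ) * uExpC N b = uExpC N a := h1
  rw [h, ← h1', map_mul]
  ring

/-- **Core of WP Ratio**: if `phi f = a / b` and `f = A / B` then `a * B = b * A` on `ℍ`. -/
theorem ratio_core (N : ℕ) [NeZero N] (f : _root_.Fermat.Agent.GTor.Clo.FN N) {k : ℤ}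
    (A B : ModularForm (CongruenceSubgroup.Gamma0 N) k)
    (h : qLaurent A = ((toFNLc N f : FNL ℂ N) : LaurentSeries ℂ) * qLaurent B) (a b : _root_.Fermat.Agent.GTor.Clo.AT N)
    (hab : _root_.Fermat.Agent.GTor.Clo.phi N f * algebraMap (_root_.Fermat.Agent.GTor.Clo.AT N) (_root_.Fermat.Agent.GTor.Clo.LN N) b = algebraMap (_root_.Fermat.Agent.GTor.Clo.AT N) (_root_.Fermat.Agent.GTor.Clo.LN N) a) (τ : ℍ) :
    ((_root_.Fermat.Agent.GTor.Clo.valAT N a : Hol) : ℍ → ℂ) τ * B τ = ((_root_.Fermat.Agent.GTor.Clo.valAT N b : Hol) : ℍ → ℂ) τ * A τ := by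
  have ha := (hasUExp_valAT N a).mul (hasUExp_modularForm N B)
  have hb := (hasUExp_valAT N b).mul (hasUExp_modularForm N A)
  rw [ratio_core_series N f A B h a b hab] at ha
  exact (ha τ).unique (hb τ)

/-- The valuation of a power series is given by its order. -/
theorem laurent_valuation_ofPowerSeries (P : PowerSeries ℂ) (hP : P ≠ 0) :
    (Valued.v : Valuation (LaurentSeries ℂ) ℤᵐ⁰) (HahnSeries.ofPowerSeries ℤ ℂ P)
      = exp (-((P.order.toNat : ℕ) : ℤ)) := by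
  have hord : P.order = ((P.order.toNat : ℕ) : ℕ∞) := (PowerSeries.coe_toNat_order hP).symm
  obtain ⟨hc, hlt⟩ := PowerSeries.order_eq_nat.mp hord
  apply _root_.Fermat.Agent.GTor.Clo.laurent_valuation_eq_of_coeff
  · rw [HahnSeries.ofPowerSeries_apply_coeff]
    exact hc
  · intro n hn
    rcases lt_or_ge n 0 with h0 | h0
    · exact ofPowerSeries_coeff_of_neg _ h0
    · obtain ⟨m, rfl⟩ := Int.eq_ofNat_of_zero_le h0
      rw [HahnSeries.ofPowerSeries_apply_coeff]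
      exact hlt m (by exact_mod_cast hn)

/-- The valuation of the closure at the cusp `σ∞` on a ratio of modular forms
(the statement `winfN_of_isRatio` of `Clo/Ratio.lean`). -/
theorem winfN_of_isRatio_cusp (N : ℕ) [NeZero N] (σ : SL(2, ℤ)) (f : _root_.Fermat.Agent.GTor.Clo.FN N) (hf : f ≠ 0) (k : ℤ)
    (A B : ModularForm (CongruenceSubgroup.Gamma0 N) k) (h : IsRatio N (toFNLc N f) A B) :
    _root_.Fermat.Agent.GTor.Clo.winfN N (_root_.Fermat.Agent.GTor.Clo.piN N σ⁻¹ (algebraMap (_root_.Fermat.Agent.GTor.Clo.FN N) (_root_.Fermat.Agent.GTor.Clo.LN N) f))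
      = exp (-(ordCusp N k A σ - ordCusp N k B σ)) := by
  obtain ⟨hB0, hAB⟩ := h
  have hN : (0 : ℝ) < (N : ℝ) := Nat.cast_pos.mpr (NeZero.pos N)
  -- `A ≠ 0`
  have hf' : ((toFNLc N f : FNL ℂ N) : LaurentSeries ℂ) ≠ 0 := by
    intro h0
    apply hf
    exact Subtype.ext h0
  have hqB : qLaurent B ≠ 0 := by
    intro h0
    have h1 : qExpansion (1 : ℝ) (B : ℍ → ℂ) = 0 := by
      apply HahnSeries.ofPowerSeries_injective (Γ := ℤ) (R := ℂ)
      rw [map_zero]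
      exact h0
    have hX : Fermat.Agent.GTor.H96.IsCuspRegular (1 : ℝ) ((B : ℍ → ℂ)) :=
      ⟨SlashInvariantFormClass.periodic_comp_ofComplex B
        (CongruenceSubgroup.one_mem_strictPeriods_Gamma0 N), B.holo',
        ModularFormClass.bdd_at_infty B⟩
    exact hX.qExpansion_ne_zero one_pos (fun h0 => hB0 (DFunLike.coe_injective h0)) h1
  have hA0 : A ≠ 0 := by
    intro hA
    have h1 : qLaurent A = 0 := by
      rw [hA]
      unfold qLaurent
      have : qExpansion (1 : ℝ) ((0 : ModularForm (CongruenceSubgroup.Gamma0 N) k) : ℍ → ℂ) = 0 := by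
        have hX : Fermat.Agent.GTor.H96.IsCuspRegular (1 : ℝ)
            (((0 : ModularForm (CongruenceSubgroup.Gamma0 N) k) : ℍ → ℂ)) :=
          ⟨SlashInvariantFormClass.periodic_comp_ofComplex
            (0 : ModularForm (CongruenceSubgroup.Gamma0 N) k)
            (CongruenceSubgroup.one_mem_strictPeriods_Gamma0 N),
            (0 : ModularForm (CongruenceSubgroup.Gamma0 N) k).holo',
            ModularFormClass.bdd_at_infty (0 : ModularForm (CongruenceSubgroup.Gamma0 N) k)⟩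
        exact (UpperHalfPlane.qExpansion_eq_zero_iff one_pos hX.per hX.hol hX.bdd).mpr rfl
      rw [this, map_zero]
    rw [h1] at hAB
    rcases mul_eq_zero.mp hAB.symm with h2 | h2
    · exact hf' h2
    · exact hqB h2
  have hA0' : (A : ℍ → ℂ) ≠ 0 := fun h0 => hA0 (DFunLike.coe_injective h0)
  have hB0' : (B : ℍ → ℂ) ≠ 0 := fun h0 => hB0 (DFunLike.coe_injective h0)
  obtain ⟨a, b, hb, hab⟩ := IsFractionRing.div_surjective (A := _root_.Fermat.Agent.GTor.Clo.AT N) (_root_.Fermat.Agent.GTor.Clo.phi N f)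
  have hb0 : b ≠ 0 := nonZeroDivisors.ne_zero hb
  have hbL : algebraMap (_root_.Fermat.Agent.GTor.Clo.AT N) (_root_.Fermat.Agent.GTor.Clo.LN N) b ≠ 0 :=
    IsFractionRing.to_map_ne_zero_of_mem_nonZeroDivisors hb
  have hab' : _root_.Fermat.Agent.GTor.Clo.phi N f * algebraMap (_root_.Fermat.Agent.GTor.Clo.AT N) (_root_.Fermat.Agent.GTor.Clo.LN N) b = algebraMap (_root_.Fermat.Agent.GTor.Clo.AT N) (_root_.Fermat.Agent.GTor.Clo.LN N) a := by
    rw [← hab, div_mul_cancel₀ _ hbL]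
  have hcore := ratio_core N f A B hAB a b hab'
  -- the identity after translation by `σ`
  have hslash : ∀ τ : ℍ, ((_root_.Fermat.Agent.GTor.Clo.valAT N (σ⁻¹ • a) : Hol) : ℍ → ℂ) τ * ((B : ℍ → ℂ) ∣[k] σ) τ
      = ((_root_.Fermat.Agent.GTor.Clo.valAT N (σ⁻¹ • b) : Hol) : ℍ → ℂ) τ * ((A : ℍ → ℂ) ∣[k] σ) τ := by
    intro τ
    rw [_root_.Fermat.Agent.GTor.Clo.valAT_smul, _root_.Fermat.Agent.GTor.Clo.valAT_smul, Hol.smul_apply, Hol.smul_apply, inv_inv, ModularForm.SL_slash_apply,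
      ModularForm.SL_slash_apply]
    have := hcore (σ • τ)
    linear_combination (denom σ τ ^ (-k)) * this
  have hRA := Fermat.Agent.GTor.H96.isCuspRegular_slash A σ
  have hRB := Fermat.Agent.GTor.H96.isCuspRegular_slash B σ
  have ha' := (hasUExp_valAT N (σ⁻¹ • a)).mul (hasUExp_of_isCuspRegular N hRB)
  have hb' := (hasUExp_valAT N (σ⁻¹ • b)).mul (hasUExp_of_isCuspRegular N hRA)
  have hser := (ha'.congr hslash).unique hb'
  have hPA : qExpansion (N : ℝ) ((A : ℍ → ℂ) ∣[k] σ) ≠ 0 :=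
    hRA.qExpansion_ne_zero hN (Fermat.Agent.GTor.H96.slash_ne_zero hA0' k σ)
  have hPB : qExpansion (N : ℝ) ((B : ℍ → ℂ) ∣[k] σ) ≠ 0 :=
    hRB.qExpansion_ne_zero hN (Fermat.Agent.GTor.H96.slash_ne_zero hB0' k σ)
  have hv := congrArg (Valued.v : Valuation (LaurentSeries ℂ) ℤᵐ⁰) hser
  rw [map_mul, map_mul, laurent_valuation_ofPowerSeries _ hPA,
    laurent_valuation_ofPowerSeries _ hPB] at hv
  -- the left-hand side
  have hsb : σ⁻¹ • b ≠ 0 := by
    intro h0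
    apply hb0
    have := congrArg (fun x => σ • x) h0
    simpa using this
  have hvb : (Valued.v : Valuation (LaurentSeries ℂ) ℤᵐ⁰) (uExpC N (σ⁻¹ • b)) ≠ 0 := by
    rw [Valuation.ne_zero_iff]
    intro h0
    exact hsb (_root_.Fermat.Agent.GTor.Clo.uExpT_injective N (by rw [map_zero]; exact h0))
  have hlhs : _root_.Fermat.Agent.GTor.Clo.winfN N (_root_.Fermat.Agent.GTor.Clo.piN N σ⁻¹ (algebraMap (_root_.Fermat.Agent.GTor.Clo.FN N) (_root_.Fermat.Agent.GTor.Clo.LN N) f))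
      = (Valued.v : Valuation (LaurentSeries ℂ) ℤᵐ⁰) (uExpC N (σ⁻¹ • a))
        / (Valued.v : Valuation (LaurentSeries ℂ) ℤᵐ⁰) (uExpC N (σ⁻¹ • b)) := by
    rw [_root_.Fermat.Agent.GTor.Clo.algebraMap_FN_LN, ← hab, map_div₀, _root_.Fermat.Agent.GTor.Clo.piN_algebraMap, _root_.Fermat.Agent.GTor.Clo.piN_algebraMap, map_div₀,
      _root_.Fermat.Agent.GTor.Clo.winfN_apply, _root_.Fermat.Agent.GTor.Clo.winfN_apply, _root_.Fermat.Agent.GTor.Clo.UL_algebraMap, _root_.Fermat.Agent.GTor.Clo.UL_algebraMap]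
    rfl
  rw [hlhs, div_eq_iff hvb]
  unfold ordCusp
  set x : ℤ := (((qExpansion (N : ℝ) ((A : ℍ → ℂ) ∣[k] σ)).order.toNat : ℕ) : ℤ) with hx
  set y : ℤ := (((qExpansion (N : ℝ) ((B : ℍ → ℂ) ∣[k] σ)).order.toNat : ℕ) : ℤ) with hy
  set va := (Valued.v : Valuation (LaurentSeries ℂ) ℤᵐ⁰) (uExpC N (σ⁻¹ • a)) with hva
  set vb := (Valued.v : Valuation (LaurentSeries ℂ) ℤᵐ⁰) (uExpC N (σ⁻¹ • b)) with hvb'
  have e1 : (exp (-(x - y)) : ℤᵐ⁰) = exp (-x) * exp y := by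
    rw [← WithZero.exp_add]
    congr 1
    ring
  have e2 : (exp y : ℤᵐ⁰) * exp (-y) = 1 := by
    rw [← WithZero.exp_add, add_neg_cancel, WithZero.exp_zero]
  calc va = va * (exp (-y) * exp y) := by rw [mul_comm (exp (-y)), e2, mul_one]
    _ = (va * exp (-y)) * exp y := by rw [mul_assoc]
    _ = (vb * exp (-x)) * exp y := by rw [hv]
    _ = exp (-(x - y)) * vb := by rw [e1, mul_assoc, mul_comm vb]

end Fermat.Agent.GTor.Clo.H96

end
end
-- ==== END Fermat.Agent.GTor.Clo.H96_RatioCusp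

-- ==== BEGIN Fermat.Agent.GTor.H75_Desc
section

/-!
# G-TOR package DESC (helper75): assembly of `Stmt_DESC N n`

Inputs: ROOT, DOWN, AUT (helper56), UP, CURVE, trdeg (helper33), CORE (helper75), and the
finiteness of `U_n(F_ℂ)` (from BETTI).
-/

set_option autoImplicit false
set_option linter.style.haveILetI false
set_option linter.unusedSectionVars false

noncomputable section

namespace Fermat.Agent.GTor.H75

open ModularCurve AlgebraicCurve

theorem stmt_DESC_of (N n : ℕ) [NeZero N] (hn : n ≠ 0)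
    (hPig : Stmt_DescPigeon ℂ (modularFunctionFieldFull N))
    (hfin : Finite (UnrKummer ℂ (FNL ℂ N) n)) : Stmt_DESC N n := by
  intro ι
  have hn' : 0 < n := Nat.pos_of_ne_zero hn
  refine ⟨bcHom ι (modularFunctionFieldFull N), isBaseChange_bcHom ι N, ?_, ?_, ?_⟩
  · intro f hf
    constructor
    · intro h
      exact H56.stmt_DescPlaceDown (AlgebraicClosure ℚ) ℂ (modularFunctionFieldFull N) ι n f hf h
    · intro h v
      have hdeg : v.deg = 1 := by
        haveI := H33.finiteDimensional_FNL (AlgebraicClosure ℚ) N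
        exact Fermat.Agent.S24.ff_deg_eq_one (H33.jL (AlgebraicClosure ℚ) N)
          (H33.transcendental_jL (AlgebraicClosure ℚ) N) v
      obtain ⟨w, hw⟩ := H33.stmt_DescPlaceUp (AlgebraicClosure ℚ) ℂ
        (modularFunctionFieldFull N) ι v hdeg
      rw [← hw f]
      exact h w
  · intro f hf h
    exact H56.stmt_DescRoot (AlgebraicClosure ℚ) ℂ (modularFunctionFieldFull N) ι n hn' f hf h
  · intro f hf h
    exact descCore_of (AlgebraicClosure ℚ) ℂ (modularFunctionFieldFull N) hPig ι n hn'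
      (H33.exists_not_isAlgebraic_complex ι) hfin f hf h

end Fermat.Agent.GTor.H75

end
end
-- ==== END Fermat.Agent.GTor.H75_Desc

-- ==== BEGIN Fermat.Agent.GTor.H81_TatePiece
section

/-!
# G-TOR: assembly of `S30.Stmt_TatePiece`  (helper81)

`tatePiece_of` derives cluster R's interface `Stmt_TatePiece` from the packages that are still
open (as hypotheses), using every package that has landed:

* `Stmt_A3`, `Stmt_A4`, `Stmt_A5`  (points and cusps ↔ places of `F_ℂ`; helper23)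
* `Stmt_DESC`                      (descent `ℂ → ℚ̄`; helper75)
* `Stmt_HK`                        (Hecke compatibility; helper2, helper44, helper76, helper95)
* `Stmt_torsLift`                  (TORSLIFT; helper77)
* `AllRed`                         (G-RED reduction packages; helper36)
* `Betti.Stmt_basis`, `Betti.Stmt_matrixRep`  (helper20, helper76)
-/

set_option autoImplicit false

noncomputable section

namespace Fermat.Agent.GTor.H81

open AlgebraicCurve ModularCurve Fermat.Agent.GTor Fermat.Agent.Betti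

/-- **GAL**: every point of `J₀(N)` is fixed by the Galois group of a number field. -/
theorem stmt_GAL (N : ℕ) [NeZero N] : Stmt_GAL N := by
  have hZ : Fermat.Agent.S17.Stmt_zeros_finite N := by
    intro x hx
    haveI := H33.hasPrincipalDivisors_FNL (AlgebraicClosure ℚ) N
    obtain ⟨D, hD, -⟩ := HasPrincipalDivisors.exists_divisor (K := AlgebraicClosure ℚ) x hx
    refine D.support.finite_toSet.subset fun v hv => ?_
    have h0 : 0 < v.ord x := hv
    rw [Finset.mem_coe, Finsupp.mem_support_iff, hD v]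
    exact h0.ne'
  intro y
  obtain ⟨F, hF, h⟩ := Fermat.Agent.S17.open_stab_of_zeros_finite N hZ y
  exact ⟨F, hF, fun σ hσ => h σ ((IntermediateField.mem_fixingSubgroup_iff F σ).2 hσ)⟩

/-- **BETTI** from A3, A4, A5. -/
theorem stmt_BETTI (N n : ℕ) [NeZero N] (hn : n ≠ 0) (hA3 : Stmt_A3 N) (hA4 : Stmt_A4 N)
    (hA5 : Stmt_A5 N) : Stmt_BETTI N n :=
  betti_of N n (H96.stmt_MONO N n hn (H58.stmt_A1 N) hA3 hA4) (H56.stmt_CHAR hn (H58.stmt_A1 N))
    (H56.stmt_INJ (H58.stmt_A2 N)) (H98.exist hn (H58.stmt_A2 N) hA5)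

/-- **TORc** from A3, A4, A5 and DESC. -/
theorem stmt_TORc (N n : ℕ) [NeZero N] (hn : n ≠ 0) (hA3 : Stmt_A3 N) (hA4 : Stmt_A4 N)
    (hA5 : Stmt_A5 N) (hD : Stmt_DESC N n) : Stmt_TORc N n :=
  torc_of N n (H33.stmt_KUM_FNL (AlgebraicClosure ℚ) N hn) hD (stmt_BETTI N n hn hA3 hA4 hA5)
    (H56.stmt_CHAR hn (H58.stmt_A1 N))

/-- **TOR**: `J₀(N)[n] ≃ homPE(Γ₀(N), ℤ/n)`. -/
theorem stmt_TOR (N n : ℕ) [NeZero N] (hn : n ≠ 0) (hA3 : Stmt_A3 N) (hA4 : Stmt_A4 N)
    (hA5 : Stmt_A5 N) (hD : Stmt_DESC N n) : Stmt_TOR N n :=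
  tor_of_torc N n (stmt_TORc N n hn hA3 hA4 hA5 hD)

/-- **The Tate system of `J₀(N)`** from the open packages. -/
theorem stmt_TateSystem (N p : ℕ) [NeZero N] (S : Finset ℕ) (hp : p.Prime) (hpS : p ∈ S)
    (hNS : ∀ q : ℕ, q.Prime → q ∣ N → q ∈ S)
    (hA3 : Stmt_A3 N) (hA4 : Stmt_A4 N) (hA5 : Stmt_A5 N)
    (hD : ∀ n : ℕ, n ≠ 0 → Stmt_DESC N n) (hHK : ∀ n : ℕ, n ≠ 0 → Stmt_HK N n)
    (hLift : Stmt_torsLift N) (hRed : AllRed N p)
    (hBasis : Betti.Stmt_basis) (hMat : Betti.Stmt_matrixRep) : Stmt_TateSystem N p S :=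
  t2 N p S hp hpS hNS
    (fun k => stmt_TORc N (p ^ k) (pow_ne_zero k hp.ne_zero) hA3 hA4 hA5
      (hD _ (pow_ne_zero k hp.ne_zero)))
    (fun k => hHK _ (pow_ne_zero k hp.ne_zero)) hLift (H2.stmt_GalHecke N)
    (torsUnram_of_red hp hRed) (torsES_of_red hp hRed) (stmt_GAL N) hBasis hMat

/-- **`Stmt_TatePiece`** (interface of cluster R) from the open packages. -/
theorem tatePiece_of
    (hA3 : ∀ (N : ℕ) [NeZero N], Stmt_A3 N) (hA4 : ∀ (N : ℕ) [NeZero N], Stmt_A4 N)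
    (hA5 : ∀ (N : ℕ) [NeZero N], Stmt_A5 N)
    (hD : ∀ (N : ℕ) [NeZero N] (n : ℕ), n ≠ 0 → Stmt_DESC N n)
    (hHK : ∀ (N : ℕ) [NeZero N] (n : ℕ), n ≠ 0 → Stmt_HK N n)
    (hLift : ∀ (N : ℕ) [NeZero N], Stmt_torsLift N)
    (hRed : ∀ (N : ℕ) [NeZero N] (p : ℕ), p.Prime → AllRed N p)
    (hBasis : Betti.Stmt_basis) (hMat : Betti.Stmt_matrixRep) : S30.Stmt_TatePiece :=
  H58T1.t1 Betti.H21.stmt_algEig Fermat.Agent.S30.H56.stmt_lattice
    (fun p hp N _ S hpS hNS =>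
      stmt_TateSystem N p S hp.out hpS hNS (hA3 N) (hA4 N) (hA5 N) (hD N) (hHK N) (hLift N)
        (hRed N p hp.out) hBasis hMat)

end Fermat.Agent.GTor.H81

end
end
-- ==== END Fermat.Agent.GTor.H81_TatePiece

-- ==== BEGIN Fermat.Agent.Lib.HeckeComm.H2_CommOf
section
attribute [local instance 10000] SubalgebraClass.toAlgebra
attribute [local instance 10000] HahnSeries.powerSeriesAlgebra

/-!
# COMM (helper2): commutation of two Hecke operators from commutation of the norm functions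

`T_ℓ = α_* β^*` on `Div(F_N)`, `n_ℓ f = Norm_α (β f)` (`GTor.H2.heckeNormFn`), `T_ℓ (div f) =
div (n_ℓ f)`.  By the principle (`eq_of_eq_on_principal`):
`n_ℓ ∘ n_ℓ' = n_ℓ' ∘ n_ℓ` on `F_N` ⇒ `T_ℓ T_ℓ' = T_ℓ' T_ℓ` on `Div(F_N)` ⇒ on `J₀(N)`.
-/

set_option autoImplicit false
set_option linter.style.haveILetI false
set_option linter.unusedSectionVars false

noncomputable section

namespace Fermat.Agent.Lib.HeckeComm

open AlgebraicCurve ModularCurve Fermat.Agent.GTor Fermat.Agent.GTor.H2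

local notation "Kb" => AlgebraicClosure ℚ

/-- `F_N · ℚ̄` has principal divisors. -/
theorem hasPrincipalDivisors_FN (N : ℕ) [NeZero N] : HasPrincipalDivisors Kb (FNL Kb N) :=
  Fermat.Agent.RED.H51.stmt_FFB_principal _ _ (Fermat.Agent.RED.H95.stmt_HKA_isFF N)

section

variable (N ℓ : ℕ) [NeZero N] [NeZero ℓ]
  (hα : HeckeAlphaBarIntegral Kb N ℓ) (hβ : HeckeBetaBarIntegral Kb N ℓ)
  [HasPrincipalDivisors Kb (laurentBaseChange Kb (modularFunctionFieldFull (N * ℓ)))]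

/-- The Hecke correspondence has finite preimage supports. -/
theorem finPre_heckeDivBar : FinPre (heckeDivBar (L := Kb) hα hβ) :=
  FinPre.comp (finPre_pushforwardAlong _ hα) (finPre_pullbackAlong _ hβ)

/-- `T_ℓ (div f) = div (n_ℓ f)`. -/
theorem heckeDivBar_ord (hfin : FiniteAlong Kb (heckeAlphaBar Kb N ℓ))
    (hN : NormFormulaAlong Kb (heckeAlphaBar Kb N ℓ) hfin)
    (D : Divisor Kb (FNL Kb N)) {f : FNL Kb N} (hf : f ≠ 0)
    (hD : ∀ v : Place Kb (FNL Kb N), D v = v.ord f) (v : Place Kb (FNL Kb N)) :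
    heckeDivBar (L := Kb) hα hβ D v = v.ord (heckeNormFn Kb N ℓ f) := by
  have h := correspondence_ord Kb N ℓ hα hβ hfin hN 1 D hf (fun v => by rw [one_mul, hD v]) v
  rw [one_mul] at h
  exact h

end

/-- Two Hecke correspondences commute on divisors if their norm functions commute. -/
theorem heckeDivBar_comm_of (N ℓ ℓ' : ℕ) [NeZero N] [NeZero ℓ] [NeZero ℓ']
    (hα : HeckeAlphaBarIntegral Kb N ℓ) (hβ : HeckeBetaBarIntegral Kb N ℓ)
    (hP : HasPrincipalDivisors Kb (laurentBaseChange Kb (modularFunctionFieldFull (N * ℓ))))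
    (hfin : FiniteAlong Kb (heckeAlphaBar Kb N ℓ))
    (hN : NormFormulaAlong Kb (heckeAlphaBar Kb N ℓ) hfin)
    (hα' : HeckeAlphaBarIntegral Kb N ℓ') (hβ' : HeckeBetaBarIntegral Kb N ℓ')
    (hP' : HasPrincipalDivisors Kb (laurentBaseChange Kb (modularFunctionFieldFull (N * ℓ'))))
    (hfin' : FiniteAlong Kb (heckeAlphaBar Kb N ℓ'))
    (hN' : NormFormulaAlong Kb (heckeAlphaBar Kb N ℓ') hfin')
    (hcomm : ∀ f : FNL Kb N, f ≠ 0 →
      heckeNormFn Kb N ℓ (heckeNormFn Kb N ℓ' f) = heckeNormFn Kb N ℓ' (heckeNormFn Kb N ℓ f)) :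
    (heckeDivBar (L := Kb) hα hβ).comp (heckeDivBar (L := Kb) hα' hβ')
      = (heckeDivBar (L := Kb) hα' hβ').comp (heckeDivBar (L := Kb) hα hβ) := by
  haveI := hasPrincipalDivisors_FN N
  refine eq_of_eq_on_principal _ _
    (FinPre.comp (finPre_heckeDivBar N ℓ hα hβ) (finPre_heckeDivBar N ℓ' hα' hβ'))
    (FinPre.comp (finPre_heckeDivBar N ℓ' hα' hβ') (finPre_heckeDivBar N ℓ hα hβ)) ?_
  intro f D hf hD
  apply Finsupp.ext
  intro v
  rw [AddMonoidHom.comp_apply, AddMonoidHom.comp_apply]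
  have h1 := heckeDivBar_ord N ℓ' hα' hβ' hfin' hN' D hf hD
  have h2 := heckeDivBar_ord N ℓ hα hβ hfin hN D hf hD
  have hf' : heckeNormFn Kb N ℓ' f ≠ 0 := heckeNormFn_ne_zero Kb N ℓ' hfin' hf
  have hf2 : heckeNormFn Kb N ℓ f ≠ 0 := heckeNormFn_ne_zero Kb N ℓ hfin hf
  rw [heckeDivBar_ord N ℓ hα hβ hfin hN _ hf' h1 v,
    heckeDivBar_ord N ℓ' hα' hβ' hfin' hN' _ hf2 h2 v, hcomm f hf]

/-- The prelude's Hecke operator on `J₀(N)` is induced by `heckeDivBar`. -/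
theorem heckeOperatorBar_mk (N : ℕ) [NeZero N] (ℓ : Nat.Primes)
    (hα : haveI : NeZero (ℓ : ℕ) := ⟨ℓ.2.ne_zero⟩; HeckeAlphaBarIntegral Kb N ℓ)
    (hβ : haveI : NeZero (ℓ : ℕ) := ⟨ℓ.2.ne_zero⟩; HeckeBetaBarIntegral Kb N ℓ)
    (hP : haveI : NeZero (ℓ : ℕ) := ⟨ℓ.2.ne_zero⟩;
      HasPrincipalDivisors Kb (laurentBaseChange Kb (modularFunctionFieldFull (N * ℓ))))
    (hfin : haveI : NeZero (ℓ : ℕ) := ⟨ℓ.2.ne_zero⟩; FiniteAlong Kb (heckeAlphaBar Kb N ℓ))
    (hFI : haveI : NeZero (ℓ : ℕ) := ⟨ℓ.2.ne_zero⟩;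
      FundamentalIdentityAlong Kb (heckeBetaBar Kb N ℓ) hβ)
    (hN : haveI : NeZero (ℓ : ℕ) := ⟨ℓ.2.ne_zero⟩;
      NormFormulaAlong Kb (heckeAlphaBar Kb N ℓ) hfin)
    (D : Divisor.degZero (K := Kb) (F := FNL Kb N)) :
    haveI : NeZero (ℓ : ℕ) := ⟨ℓ.2.ne_zero⟩
    heckeOperatorBar N ℓ (Pic0.mk D)
      = Pic0.mk (Pic0.degZeroCorrespondence (heckeBetaBar Kb N ℓ) (heckeAlphaBar Kb N ℓ)
          hβ hα hFI D) := by
  haveI : NeZero (ℓ : ℕ) := ⟨ℓ.2.ne_zero⟩
  rw [heckeOperatorBar_apply, heckeOperatorAlong_eq hα hβ hFI hfin hN]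
  rfl

/-- **Commutation of `T_ℓ` and `T_ℓ'` on `J₀(N)`** from the commutation of the norm functions. -/
theorem heckeOperatorBar_comm_of (N : ℕ) [NeZero N] (ℓ ℓ' : Nat.Primes)
    (hcomm : haveI : NeZero (ℓ : ℕ) := ⟨ℓ.2.ne_zero⟩
      haveI : NeZero (ℓ' : ℕ) := ⟨ℓ'.2.ne_zero⟩
      ∀ f : FNL Kb N, f ≠ 0 →
      heckeNormFn Kb N ℓ (heckeNormFn Kb N ℓ' f) = heckeNormFn Kb N ℓ' (heckeNormFn Kb N ℓ f)) :
    heckeOperatorBar N ℓ * heckeOperatorBar N ℓ' = heckeOperatorBar N ℓ' * heckeOperatorBar N ℓ := by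
  haveI : NeZero (ℓ : ℕ) := ⟨ℓ.2.ne_zero⟩
  haveI : NeZero (ℓ' : ℕ) := ⟨ℓ'.2.ne_zero⟩
  obtain ⟨hα, hβ, hP, hfin, hFI, hN⟩ := Fermat.Agent.RED.H51.stmt_HKA N ℓ
  obtain ⟨hα', hβ', hP', hfin', hFI', hN'⟩ := Fermat.Agent.RED.H51.stmt_HKA N ℓ'
  have hdiv := heckeDivBar_comm_of N ℓ ℓ' hα hβ hP hfin hN hα' hβ' hP' hfin' hN' hcomm
  apply LinearMap.ext
  intro x
  obtain ⟨D, rfl⟩ := Pic0.mk_surjective x
  rw [Module.End.mul_apply, Module.End.mul_apply,
    heckeOperatorBar_mk N ℓ' hα' hβ' hP' hfin' hFI' hN' D,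
    heckeOperatorBar_mk N ℓ hα hβ hP hfin hFI hN D,
    heckeOperatorBar_mk N ℓ hα hβ hP hfin hFI hN,
    heckeOperatorBar_mk N ℓ' hα' hβ' hP' hfin' hFI' hN']
  congr 1
  apply Subtype.ext
  rw [Pic0.coe_degZeroCorrespondence, Pic0.coe_degZeroCorrespondence,
    Pic0.coe_degZeroCorrespondence, Pic0.coe_degZeroCorrespondence]
  exact congrArg (fun Φ : Divisor Kb (FNL Kb N) →+ Divisor Kb (FNL Kb N) =>
    Φ (D : Divisor Kb (FNL Kb N))) hdiv

end Fermat.Agent.Lib.HeckeComm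

end
end
-- ==== END Fermat.Agent.Lib.HeckeComm.H2_CommOf

-- ==== BEGIN Fermat.Agent.RED.ES.H95_ES2
section

/-!
# G-RED, package ES-2 (helper95): final statements

`ℓ` prime, `ℓ ∤ N`, `α, β : F_N → F_{Nℓ}` the degeneracy maps of the prelude
(`heckeAlphaBar`, `heckeBetaBar` over `Q̄`), norms taken for the algebra structure
`algebraAlong β`.

* `finrankAlong_beta` : `[F_{Nℓ} : β F_N] = ℓ + 1`.
* `norm_alpha_qExpand` : `(N_β (α g)) (q ^ ℓ) = g (q ^ (ℓ²)) * ∏_{b < ℓ} g (ζ ^ b q)`.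
* `norm_sub_alpha_qExpand` : the same for `c - α f`, `c ∈ Q̄`, in the exact shape of the
  hypothesis of `Fermat.Agent.RED.H10.kronecker_norm`.
-/

set_option autoImplicit false

noncomputable section

namespace Fermat.Agent.RED.H95

open Fermat.Agent.S24 ModularCurve Matrix ModularGroup CongruenceSubgroup UpperHalfPlane
open scoped MatrixGroups

variable {N : ℕ} [NeZero N] {ℓ : ℕ} [NeZero ℓ]

attribute [local instance] algBeta algPhiAlpha

omit [NeZero N] [NeZero ℓ] in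
theorem exists_bezout (hℓ : ℓ.Prime) (hN : ¬ ℓ ∣ N) : ∃ u v : ℤ, u * ℓ + v * N = 1 := by
  have hco : Nat.Coprime ℓ N := (Nat.Prime.coprime_iff_not_dvd hℓ).mpr hN
  have := Nat.isCoprime_iff_coprime.mpr hco
  obtain ⟨u, v, huv⟩ := this
  exact ⟨u, v, huv⟩

/-- `[F_{Nℓ} : β F_N] = ℓ + 1`. -/
theorem finrank_beta (hℓ : ℓ.Prime) (hN : ¬ ℓ ∣ N) :
    Module.finrank (FN N) (FN (N * ℓ)) = ℓ + 1 := by
  obtain ⟨u, v, h⟩ := exists_bezout hℓ hN
  have := isSeparable_beta (N := N) hℓ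
  rw [finrank_eq_card_of_cover (rhoK hℓ) (sigmaK u v h) (sigmaK_cover hℓ u v h)
    (sigmaK_injective hℓ u v h), Fintype.card_option, Fintype.card_fin]

/-- `[F_{Nℓ} : β F_N] = ℓ + 1`, in the vocabulary of the prelude. -/
theorem finrankAlong_beta (hℓ : ℓ.Prime) (hN : ¬ ℓ ∣ N) :
    AlgebraicCurve.finrankAlong Kbar (heckeBetaBar Kbar N ℓ) = ℓ + 1 :=
  finrank_beta hℓ hN

/-- `β` is finite. -/
theorem finiteAlong_beta (hℓ : ℓ.Prime) :
    AlgebraicCurve.FiniteAlong Kbar (heckeBetaBar Kbar N ℓ) :=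
  finiteDimensional_beta (N := N) hℓ

/-- The norm of `y ∈ F_{Nℓ}` along `β`, expanded in `u = q ^ (1 / (N ℓ))`. -/
theorem qExpand_norm (hℓ : ℓ.Prime) (u v : ℤ) (h : u * ℓ + v * N = 1) (y : FN (N * ℓ)) :
    qExpand Kbar (N * ℓ) ((Algebra.norm (FN N) y : FN N) : LaurentSeries Kbar)
      = ∏ c, UL (N * ℓ) (sigmaK u v h c (rhoK hℓ y)) := by
  have := isSeparable_beta (N := N) hℓ
  have hnorm := norm_eq_prod_of_cover (rhoK hℓ) (sigmaK u v h) (sigmaK_cover hℓ u v h)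
    (sigmaK_injective hℓ u v h) y
  have h2 := congrArg (UL (N * ℓ)) hnorm
  rw [map_prod, algebraMap_phiAlpha, phiAlpha_apply, UL_phi, qN_apply, coe_heckeAlphaBar] at h2
  exact h2

/-- The primitive `ℓ`-th root of unity `ζ_{Nℓ}^{-N}`. -/
def zetaL (N ℓ : ℕ) [NeZero N] [NeZero ℓ] : Kbar := (zetaK (N * ℓ))⁻¹ ^ N

theorem isPrimitiveRoot_zetaL : IsPrimitiveRoot (zetaL N ℓ) ℓ :=
  IsPrimitiveRoot.pow (NeZero.pos (N * ℓ)) (isPrimitiveRoot_zetaK (N * ℓ)).inv rfl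

/-- **ES-2**, first form. -/
theorem norm_alpha_qExpand_zetaL (hℓ : ℓ.Prime) (hN : ¬ ℓ ∣ N) (g : FN N) :
    qExpand Kbar ℓ ((Algebra.norm (FN N) (heckeAlphaBar Kbar N ℓ g) : FN N) : LaurentSeries Kbar)
      = qExpand Kbar ℓ (qExpand Kbar ℓ (g : LaurentSeries Kbar))
        * ∏ b : Fin ℓ, twist (zetaL N ℓ ^ (b : ℕ)) (g : LaurentSeries Kbar) := by
  obtain ⟨u, v, h⟩ := exists_bezout hℓ hN
  apply qExpand_injective (R := Kbar) N
  rw [qExpand_qExpand, qExpand_norm hℓ u v h, Fintype.prod_option, map_mul, map_prod]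
  congr 1
  · -- the extra coset
    show UL (N * ℓ) (piK (N * ℓ) (deltaInf N ℓ u v h) (rho N hℓ (heckeAlphaBar Kbar N ℓ g))) = _
    have e2 := congrArg (fun f : FN N →ₐ[Kbar] LN (N * ℓ) => f g)
      (piK_deltaInf_rho_alpha hℓ u v h)
    simp only [AlgHom.comp_apply] at e2
    rw [e2, UL_phi, qN_apply, coe_heckeBetaBar, qExpand_qExpand, qExpand_qExpand, qExpand_qExpand]
  · refine Finset.prod_congr rfl fun b _ => ?_
    show UL (N * ℓ) (piN (N * ℓ) (T ^ (b : ℕ)) (rho N hℓ (heckeAlphaBar Kbar N ℓ g))) = _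
    rw [UL_piN_T_pow, UL_rho, coe_heckeAlphaBar, ← qExpand_twist, zetaL, ← pow_mul, ← pow_mul,
      Nat.mul_comm (b : ℕ) N]

omit [NeZero ℓ] in
/-- The product over the `ℓ`-th roots of unity does not depend on the primitive root. -/
theorem prod_twist_eq {ζ ζ' : Kbar} (hζ : IsPrimitiveRoot ζ ℓ) (hζ' : IsPrimitiveRoot ζ' ℓ)
    (F : Kbar → LaurentSeries Kbar) :
    ∏ b ∈ Finset.range ℓ, F (ζ ^ b) = ∏ b ∈ Finset.range ℓ, F (ζ' ^ b) := by
  have h1 := hζ.nthRoots_eq (α := 1) (a := 1) (one_pow ℓ)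
  have h2 := hζ'.nthRoots_eq (α := 1) (a := 1) (one_pow ℓ)
  have e : ∀ z : Kbar, ∏ b ∈ Finset.range ℓ, F (z ^ b)
      = (((Multiset.range ℓ).map (z ^ · * 1)).map F).prod := by
    intro z
    rw [Multiset.map_map]
    show _ = ((Finset.range ℓ).val.map _).prod
    rw [← Finset.prod_eq_multiset_prod]
    refine Finset.prod_congr rfl fun b _ => ?_
    simp
  rw [e ζ, e ζ', ← h1, ← h2]

theorem rot_eq_twist (z : Kbarˣ) (x : LaurentSeries Kbar) :
    H10.rot z x = twist (z : Kbar) x := by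
  ext n
  rw [H10.rot_coeff, twist_coeff, Units.val_zpow_eq_zpow_val]

/-- **ES-2.** `(N_β (α g)) (q ^ ℓ) = g (q ^ (ℓ²)) * ∏_{b < ℓ} g (ζ ^ b q)` for every primitive
`ℓ`-th root of unity `ζ`. -/
theorem norm_alpha_qExpand (hℓ : ℓ.Prime) (hN : ¬ ℓ ∣ N) (ζ : Kbarˣ) (hζ : IsPrimitiveRoot ζ ℓ)
    (g : FN N) :
    qExpand Kbar ℓ ((Algebra.norm (FN N) (heckeAlphaBar Kbar N ℓ g) : FN N) : LaurentSeries Kbar)
      = qExpand Kbar ℓ (qExpand Kbar ℓ (g : LaurentSeries Kbar))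
        * ∏ b ∈ Finset.range ℓ, H10.rot (ζ ^ b) (g : LaurentSeries Kbar) := by
  rw [norm_alpha_qExpand_zetaL hℓ hN g]
  congr 1
  have hζ' : IsPrimitiveRoot (ζ : Kbar) ℓ := IsPrimitiveRoot.coe_units_iff.mpr hζ
  rw [Fin.prod_univ_eq_prod_range (fun b => twist (zetaL N ℓ ^ b) (g : LaurentSeries Kbar)) ℓ,
    prod_twist_eq isPrimitiveRoot_zetaL hζ' (fun z => twist z (g : LaurentSeries Kbar))]
  refine Finset.prod_congr rfl fun b _ => ?_
  rw [rot_eq_twist, Units.val_pow_eq_pow_val]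

theorem coe_algebraMap_FN (M : ℕ) (c : Kbar) :
    ((algebraMap Kbar (FN M) c : FN M) : LaurentSeries Kbar) = HahnSeries.C c := by
  show algebraMap Kbar (LaurentSeries Kbar) c = HahnSeries.C c
  rw [algebraMap_laurentSeries_eq_single]
  rfl

/-- **ES-2**, in the shape of the hypothesis of `H10.kronecker_norm`:
`(N_β (c - α f)) (q ^ ℓ) = (c - f (q ^ (ℓ²))) * ∏_{b < ℓ} (c - f (ζ ^ b q))`. -/
theorem norm_sub_alpha_qExpand (hℓ : ℓ.Prime) (hN : ¬ ℓ ∣ N) (ζ : Kbarˣ)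
    (hζ : IsPrimitiveRoot ζ ℓ) (f : FN N) (c : Kbar) :
    qExpand Kbar ℓ ((Algebra.norm (FN N)
        (algebraMap Kbar (FN (N * ℓ)) c - heckeAlphaBar Kbar N ℓ f) : FN N) : LaurentSeries Kbar)
      = (HahnSeries.C c - qExpand Kbar ℓ (qExpand Kbar ℓ (f : LaurentSeries Kbar)))
        * ∏ b ∈ Finset.range ℓ, (HahnSeries.C c - H10.rot (ζ ^ b) (f : LaurentSeries Kbar)) := by
  have e : algebraMap Kbar (FN (N * ℓ)) c - heckeAlphaBar Kbar N ℓ f
      = heckeAlphaBar Kbar N ℓ (algebraMap Kbar (FN N) c - f) := by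
    rw [map_sub, AlgHom.commutes]
  have hcoe : ((algebraMap Kbar (FN N) c - f : FN N) : LaurentSeries Kbar)
      = HahnSeries.C c - (f : LaurentSeries Kbar) := by
    rw [← coe_algebraMap_FN N c]
    rfl
  rw [e, norm_alpha_qExpand hℓ hN ζ hζ, hcoe, map_sub, map_sub, qExpand_C, qExpand_C]
  congr 1
  refine Finset.prod_congr rfl fun b _ => ?_
  rw [map_sub, H10.rot_C]

end Fermat.Agent.RED.H95

namespace Fermat.Agent.RED.H95

open Fermat.Agent.S24 ModularCurve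

/-- **ES-2**, stated without local instances: the algebra structure is `algebraAlong β`. -/
theorem stmt_ES2 (N ℓ : ℕ) [NeZero N] [NeZero ℓ] (hℓ : ℓ.Prime) (hN : ¬ ℓ ∣ N) (ζ : Kbarˣ)
    (hζ : IsPrimitiveRoot ζ ℓ) (f : FN N) (c : Kbar) :
    letI := AlgebraicCurve.algebraAlong (heckeBetaBar Kbar N ℓ)
    qExpand Kbar ℓ ((Algebra.norm (FN N)
        (algebraMap Kbar (FN (N * ℓ)) c - heckeAlphaBar Kbar N ℓ f) : FN N) : LaurentSeries Kbar)
      = (HahnSeries.C c - qExpand Kbar ℓ (qExpand Kbar ℓ (f : LaurentSeries Kbar)))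
        * ∏ b ∈ Finset.range ℓ, (HahnSeries.C c - H10.rot (ζ ^ b) (f : LaurentSeries Kbar)) :=
  norm_sub_alpha_qExpand hℓ hN ζ hζ f c

end Fermat.Agent.RED.H95

end
end
-- ==== END Fermat.Agent.RED.ES.H95_ES2

-- ==== BEGIN Fermat.Agent.RED.H10_ConsChart
section

/-!
# G-RED package CONS (helper10), part C3: fibre-wise conservation on a chart

`S : RedSetting C F k Ft`, chart `x ∈ V` with `[Ft : k(xt)] = [F : C(x)]`.

* `exists_norm_poly` : for `f ∈ R = B ∩ V` the norm `N f` is `p(x)` with `p ∈ O[X]`, and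
  `N (red f) = (p mod m)(xt)`.
* `fibre_conservation` (C3) : for a Gauss unit `f ∈ R` and `γ ∈ k`:
  `∑_{P : x(P) ∈ O, x(P) mod m = γ} ord_P f = ∑_{Q : xt(Q) = γ} ord_Q (red f)`.
-/

set_option autoImplicit false

noncomputable section

open AlgebraicCurve Polynomial IntermediateField

namespace Fermat.Agent.RED.H10

open Fermat.Agent.RED.H34 Fermat.Agent.RED.H34.RedSetting Fermat.Agent.RED.H51
  Fermat.Agent.RED.H79

open scoped IntermediateField.algebraAdjoinAdjoin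

variable {C F k Ft : Type} [Field C] [Field F] [Algebra C F] [Field k] [Field Ft] [Algebra k Ft]
variable {S : RedSetting C F k Ft} {x : F} (hx : x ∈ S.V)

/-- The norm of an element of `R = B ∩ V` is a polynomial in `x` over `O`, and it reduces to the
norm of the reduction. -/
theorem exists_norm_poly (hxt : Transcendental k (S.red ⟨x, hx⟩)) [FiniteDimensional ↥C⟮x⟯ F]
    (hdeg : Module.finrank ↥k⟮S.red ⟨x, hx⟩⟯ Ft = Module.finrank ↥C⟮x⟯ F)
    (f : ↥S.V) (hfi : IsIntegral ↥(Algebra.adjoin C {x}) (f : F)) :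
    ∃ p₀ : (↥S.O)[X],
      ((Algebra.norm ↥C⟮x⟯ (f : F) : ↥C⟮x⟯) : F) = Polynomial.aeval x (p₀.map S.O.subtype) ∧
      ((Algebra.norm ↥k⟮S.red ⟨x, hx⟩⟯ (S.red f) : ↥k⟮S.red ⟨x, hx⟩⟯) : Ft) =
        Polynomial.aeval (S.red ⟨x, hx⟩) (p₀.map S.resO) := by
  classical
  have hxC := transcendental_x hx hxt
  obtain ⟨βF, hβV, βt, hβt⟩ := exists_ortho_basis hx hxt hdeg
  obtain ⟨t, ht1, ht2⟩ := norm_red hx βF hβV βt hβt hxt (f : F) f.2
  have hpid : IsPrincipalIdealRing ↥(Algebra.adjoin C {x}) := isPrincipalIdealRing_adjoin hxC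
  have hint : IsIntegral ↥(Algebra.adjoin C {x}) (Algebra.norm ↥C⟮x⟯ (f : F)) :=
    Algebra.isIntegral_norm ↥C⟮x⟯ hfi
  obtain ⟨a, ha⟩ := IsIntegrallyClosed.isIntegral_iff.mp hint
  have haF : (a : F) = ((t : ↥C⟮x⟯) : F) := by
    rw [ht1, ← ha]
    rfl
  have haV : (a : F) ∈ S.V := by
    rw [haF]
    exact t.2
  obtain ⟨p₀, hp₀⟩ := exists_psiR_eq hx hxt hxC a haV
  have hpsi : ((psi hx p₀ : ↥S.V) : F) = ((t : ↥C⟮x⟯) : F) := by
    rw [← coe_psiR hx hxC, hp₀, haF]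
  refine ⟨p₀, ?_, ?_⟩
  · rw [← ht1, ← hpsi, coe_psi]
  · have h1 : (⟨f, f.2⟩ : ↥S.V) = f := rfl
    rw [h1] at ht2
    rw [← ht2, coe_redx, ← red_psi]
    congr 1
    exact Subtype.ext hpsi.symm

/-- Uniqueness of the value of a function at a place. -/
theorem value_unique_ordGe {K E : Type} [Field K] [Field E] [Algebra K E] (P : Place K E) {g : E}
    {a b : K} (ha : OrdGe P 1 (g - algebraMap K E a)) (hb : OrdGe P 1 (g - algebraMap K E b)) :
    a = b := by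
  rw [ordGe_one_iff_vanAt] at ha hb
  exact H17.value_unique P ha hb

open Classical in
/-- **(C3)** fibre-wise conservation: for a Gauss unit `f ∈ R` and `γ ∈ k`, the zeros of `f` in
the residue discs over `xt = γ` are as many as the zeros of `red f` over `xt = γ`. -/
theorem fibre_conservation [IsAlgClosed C] [IsAlgClosed k] (hFF : IsFF C F) (hFFt : IsFF k Ft)
    (hxt : Transcendental k (S.red ⟨x, hx⟩)) [FiniteDimensional ↥C⟮x⟯ F]
    (hdeg : Module.finrank ↥k⟮S.red ⟨x, hx⟩⟯ Ft = Module.finrank ↥C⟮x⟯ F)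
    (f : ↥S.V) (hfu : IsUnit f) (hfi : IsIntegral ↥(Algebra.adjoin C {x}) (f : F))
    (D : Divisor C F) (hD : ∀ P, D P = P.ord (f : F)) (γ : k)
    (T' : Finset (Place k Ft))
    (hT' : ∀ Q, Q ∈ T' ↔ OrdGe Q 1 (S.red ⟨x, hx⟩ - algebraMap k Ft γ)) :
    ∑ P ∈ D.support.filter (fun P => ∃ a : ↥S.O, S.resO a = γ ∧
        OrdGe P 1 (x - algebraMap C F (a : C))), D P = ∑ Q ∈ T', Q.ord (S.red f) := by
  have hxC := transcendental_x hx hxt
  have hfinT : FiniteDimensional ↥k⟮S.red ⟨x, hx⟩⟯ Ft :=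
    Module.finite_of_finrank_pos (hdeg ▸ Module.finrank_pos)
  obtain ⟨p₀, hN, hNt⟩ := exists_norm_poly hx hxt hdeg f hfi
  have hf0 : (f : F) ≠ 0 := by
    intro h0
    have : f = 0 := Subtype.ext h0
    rw [this] at hfu
    exact not_isUnit_zero hfu
  have hrf0 : S.red f ≠ 0 := (hfu.map S.red).ne_zero
  -- the right hand side
  obtain ⟨T'', hT'', hsum''⟩ := fibre_norm hFFt (S.red ⟨x, hx⟩) hxt γ
  have hTT : T'' = T' := Finset.ext fun Q => (hT'' Q).trans (hT' Q).symm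
  have hR : ∑ Q ∈ T', Q.ord (S.red f) = ((p₀.map S.resO).rootMultiplicity γ : ℤ) := by
    rw [← hTT]
    exact hsum'' _ _ hrf0 hNt
  have hp₀ : p₀.map S.resO ≠ 0 := by
    intro h0
    rw [h0, map_zero] at hNt
    have h1 : Algebra.norm ↥k⟮S.red ⟨x, hx⟩⟯ (S.red f) = 0 := Subtype.ext hNt
    exact hrf0 (Algebra.norm_eq_zero_iff.mp h1)
  have hp₀0 : p₀ ≠ 0 := fun h => hp₀ (by rw [h, Polynomial.map_zero])
  -- the fibres over `ρ ∈ O`
  choose T hT hsum using fun ρ : ↥S.O => fibre_norm hFF x hxC (ρ : C)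
  have hTsum : ∀ ρ : ↥S.O, ∑ P ∈ T ρ, P.ord (f : F) = (p₀.rootMultiplicity ρ : ℤ) := by
    intro ρ
    rw [hsum ρ (f : F) (p₀.map S.O.subtype) hf0 hN,
      Polynomial.eq_rootMultiplicity_map (f := S.O.subtype) Subtype.val_injective ρ]
    rfl
  have hTnonneg : ∀ (ρ : ↥S.O) (P : Place C F), P ∈ T ρ → 0 ≤ P.ord (f : F) := by
    intro ρ P hP
    have hxP : x ∈ P.toValuationSubring := mem_of_ordGe_one_sub P ((hT ρ P).mp hP)
    exact (mem_iff_ord_nonneg P hf0).mp (mem_of_isIntegral_adjoin P hxP _ hfi)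
  rw [hR, rootMultiplicity_map_res S.O S.resO (fun a => S.resO_eq_zero_iff a) p₀ hp₀ γ]
  -- the value function
  set φ : Place C F → Prop := fun P => ∃ a : ↥S.O, S.resO a = γ ∧
    OrdGe P 1 (x - algebraMap C F (a : C)) with hφ
  let val : Place C F → ↥S.O := fun P => if h : φ P then Classical.choose h else 0
  have hval : ∀ P, φ P → S.resO (val P) = γ ∧ OrdGe P 1 (x - algebraMap C F ((val P : ↥S.O) : C)) := by
    intro P h
    simp only [val, dif_pos h]
    exact Classical.choose_spec h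
  have hvaleq : ∀ (P : Place C F) (ρ : ↥S.O), OrdGe P 1 (x - algebraMap C F (ρ : C)) →
      S.resO ρ = γ → φ P ∧ val P = ρ := by
    intro P ρ h1 h2
    have hφP : φ P := ⟨ρ, h2, h1⟩
    exact ⟨hφP, Subtype.ext (value_unique_ordGe P (hval P hφP).2 h1)⟩
  have hmaps : ∀ P ∈ D.support.filter φ, val P ∈
      p₀.roots.toFinset.filter (fun ρ => S.resO ρ = γ) := by
    intro P hP
    rw [Finset.mem_filter] at hP
    obtain ⟨hPs, hPφ⟩ := hP
    obtain ⟨h1, h2⟩ := hval P hPφ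
    rw [Finset.mem_filter, Multiset.mem_toFinset, Polynomial.mem_roots hp₀0]
    refine ⟨?_, h1⟩
    have hPT : P ∈ T (val P) := (hT _ P).mpr h2
    have hne : P.ord (f : F) ≠ 0 := by
      rw [← hD P]
      exact Finsupp.mem_support_iff.mp hPs
    have hpos : 0 < P.ord (f : F) := lt_of_le_of_ne (hTnonneg _ P hPT) (Ne.symm hne)
    have hle : P.ord (f : F) ≤ ∑ P' ∈ T (val P), P'.ord (f : F) :=
      Finset.single_le_sum (f := fun P' : Place C F => P'.ord (f : F))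
        (fun P' hP' => hTnonneg _ P' hP') hPT
    rw [hTsum] at hle
    have : 0 < p₀.rootMultiplicity (val P) := by
      have : (0 : ℤ) < (p₀.rootMultiplicity (val P) : ℤ) := lt_of_lt_of_le hpos hle
      exact_mod_cast this
    exact (Polynomial.rootMultiplicity_pos hp₀0).mp this
  rw [← Finset.sum_fiberwise_of_maps_to hmaps]
  refine Finset.sum_congr rfl fun ρ hρ => ?_
  rw [Finset.mem_filter] at hρ
  rw [← hTsum ρ]
  have hsub : (D.support.filter φ).filter (fun P => val P = ρ) ⊆ T ρ := by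
    intro P hP
    rw [Finset.mem_filter, Finset.mem_filter] at hP
    obtain ⟨⟨-, hPφ⟩, hPv⟩ := hP
    rw [hT, ← hPv]
    exact (hval P hPφ).2
  rw [Finset.sum_subset hsub]
  · exact Finset.sum_congr rfl fun P _ => hD P
  · intro P hPT hPn
    obtain ⟨h1, h2⟩ := hvaleq P ρ ((hT ρ P).mp hPT) hρ.2
    by_contra hne
    apply hPn
    rw [Finset.mem_filter, Finset.mem_filter]
    exact ⟨⟨Finsupp.mem_support_iff.mpr hne, h1⟩, h2⟩

end Fermat.Agent.RED.H10

end
end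
-- ==== END Fermat.Agent.RED.H10_ConsChart

-- ==== BEGIN Fermat.Agent.RED.H34_FibA
section

set_option autoImplicit false

noncomputable section

open Polynomial IntermediateField Module Matrix
open scoped IntermediateField.algebraAdjoinAdjoin nonZeroDivisors

namespace Fermat.Agent.RED.H34

variable {C F k Ft : Type} [Field C] [Field F] [Algebra C F] [Field k] [Field Ft] [Algebra k Ft]

theorem card_le_of_ker_le {κ : Type} [Field κ] {m r s : ℕ}
    (Φ : (Fin m → κ) →ₗ[κ] (Fin r → κ)) (Ψ : (Fin m → κ) →ₗ[κ] (Fin s → κ))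
    (hker : LinearMap.ker Φ ≤ LinearMap.ker Ψ) (hsurj : Function.Surjective Ψ) : s ≤ r := by
  have h1 := LinearMap.finrank_range_add_finrank_ker Φ
  have h2 := LinearMap.finrank_range_add_finrank_ker Ψ
  have h3 : Module.finrank κ (LinearMap.range Ψ) = s := by
    rw [LinearMap.range_eq_top.2 hsurj, finrank_top, Module.finrank_fin_fun]
  have h4 : Module.finrank κ (LinearMap.range Φ) ≤ r := by
    have := Submodule.finrank_le (LinearMap.range Φ)
    rwa [Module.finrank_fin_fun] at this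
  have h5 := Submodule.finrank_mono hker
  omega

section Abstract

variable {x : F}

/-- CRT at the points over `ρ`: prescribed values. -/
theorem exists_evP_eq [IsAlgClosed C] {ρ : C} {s : ℕ} (qt : Fin s → Ideal ↥(Bx (C := C) x))
    (hinj : Function.Injective qt) (hqt : ∀ j, qt j ∈ ptsOver x ρ) (w : Fin s → C) :
    ∃ y : ↥(Bx (C := C) x), ∀ j, evP (hqt j) y = w j := by
  have hcop : Pairwise (Function.onFun IsCoprime qt) := by
    intro i j hij
    haveI := (hqt i).1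
    haveI := (hqt j).1
    exact Ideal.isCoprime_of_isMaximal (fun h => hij (hinj h))
  obtain ⟨y, hy⟩ := Ideal.exists_forall_sub_mem_ideal hcop
    (fun j => algebraMap C ↥(Bx (C := C) x) (w j))
  exact ⟨y, fun j => evP_eq_of_mem (hqt j) y (w j) (hy j)⟩

end Abstract

namespace RedSetting

variable {S : RedSetting C F k Ft} {x : F} (hx : x ∈ S.V)

/-- **(FIB ≤)** the fibre of the reduced chart over `γ = ρ mod m` has at most as many points as
the fibre of the chart over `ρ`. -/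
theorem ncard_ptsOver_red_le [IsAlgClosed C] [CharZero C] [IsAlgClosed k]
    (hxt : Transcendental k (S.red ⟨x, hx⟩)) [FiniteDimensional ↥C⟮x⟯ F]
    (hdeg : Module.finrank ↥k⟮S.red ⟨x, hx⟩⟯ Ft = Module.finrank ↥C⟮x⟯ F)
    [Algebra.IsSeparable ↥k⟮S.red ⟨x, hx⟩⟯ Ft]
    (hcn : ∀ y : Ft, IsIntegral ↥(Algebra.adjoin k {S.red ⟨x, hx⟩}) y →
      ∃ f : ↥S.V, IsIntegral ↥(Algebra.adjoin C {x}) (f : F) ∧ S.red f = y)
    (ρ : ↥S.O) :
    (ptsOver (S.red ⟨x, hx⟩) (S.resO ρ)).ncard ≤ (ptsOver x (ρ : C)).ncard := by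
  classical
  have hxC := transcendental_x hx hxt
  have hfdt := finiteDimensional_red hx hdeg
  have hpidt : IsPrincipalIdealRing ↥(Algebra.adjoin k {S.red ⟨x, hx⟩}) :=
    isPrincipalIdealRing_adjoin hxt
  have hpid : IsPrincipalIdealRing ↥(Algebra.adjoin C {x}) := isPrincipalIdealRing_adjoin hxC
  have hcz : CharZero ↥C⟮x⟯ := charZero_of_injective_algebraMap (algebraMap C ↥C⟮x⟯).injective
  have hsepC : Algebra.IsSeparable ↥C⟮x⟯ F := inferInstance
  obtain ⟨m, bF, hbV, bt, hbB, hbt, hspan⟩ := exists_good_basis hx hxt hdeg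
  obtain ⟨c, P, hP, hdisc⟩ :=
    exists_transition (R := ↥(Algebra.adjoin C {x})) (K := ↥C⟮x⟯) (L := F) bF hbB
  have hbtint : ∀ i, IsIntegral ↥(Algebra.adjoin k {S.red ⟨x, hx⟩}) (bt i) := by
    intro i
    rw [hbt i]
    exact red_isIntegral hx hxt hdeg _ (hbB i) (hbV i)
  obtain ⟨ct, Pt, hPt, hdisct⟩ :=
    exists_transition (R := ↥(Algebra.adjoin k {S.red ⟨x, hx⟩})) (K := ↥k⟮S.red ⟨x, hx⟩⟯)
      (L := Ft) bt hbtint
  have hmain : ∀ y : Ft, IsIntegral ↥(Algebra.adjoin k {S.red ⟨x, hx⟩}) y →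
      y ∈ Submodule.span ↥(Algebra.adjoin k {S.red ⟨x, hx⟩}) (Set.range bt) := by
    intro y hy
    obtain ⟨f, hfi, hfr⟩ := hcn y hy
    exact hspan y ((mem_Bbar hx y).2 ⟨f, f.2, hfi, hfr⟩)
  obtain ⟨pt, -, hpt, hall⟩ := exists_enum_ptsOver hxC c (ρ : C)
  set γ := S.resO ρ with hγ
  obtain ⟨qt, hqinj, hqt, -⟩ := exists_enum_ptsOver hxt ct γ
  -- the two evaluation maps
  let lam : Fin (ptsOver x (ρ : C)).ncard → Fin m → k := fun t i =>
    S.resO ⟨evP (hpt t) ⟨bF i, hbB i⟩, evP_mem_O hx hxt hdeg ρ.2 (hpt t) ⟨bF i, hbB i⟩ (hbV i)⟩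
  let mu : Fin (ptsOver (S.red ⟨x, hx⟩) γ).ncard → Fin m → k := fun j i =>
    evP (hqt j) ⟨bt i, hbtint i⟩
  let Φ : (Fin m → k) →ₗ[k] (Fin (ptsOver x (ρ : C)).ncard → k) :=
    Matrix.mulVecLin (Matrix.of lam)
  let Ψ : (Fin m → k) →ₗ[k] (Fin (ptsOver (S.red ⟨x, hx⟩) γ).ncard → k) :=
    Matrix.mulVecLin (Matrix.of mu)
  have hΦ : ∀ a t, Φ a t = ∑ i, lam t i * a i := fun a t => rfl
  have hΨ : ∀ a j, Ψ a j = ∑ i, mu j i * a i := fun a j => rfl
  -- value of a combination at a point of the reduced chart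
  have hval : ∀ (v : Fin m → ↥(Algebra.adjoin k {S.red ⟨x, hx⟩})) (yB : ↥(Bx (C := k) (S.red ⟨x, hx⟩)))
      (_ : (yB : Ft) = ∑ i, v i • bt i) (j : Fin (ptsOver (S.red ⟨x, hx⟩) γ).ncard),
      evP (hqt j) yB = ∑ i, mu j i * evAt hxt γ (v i) := by
    intro v yB hyB j
    have h1 : yB = ∑ i, algebraMap ↥(Algebra.adjoin k {S.red ⟨x, hx⟩})
        ↥(Bx (C := k) (S.red ⟨x, hx⟩)) (v i) * ⟨bt i, hbtint i⟩ := by
      apply Subtype.ext
      rw [hyB, AddSubmonoidClass.coe_finsetSum]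
      refine Finset.sum_congr rfl fun i _ => ?_
      rw [Algebra.smul_def]
      rfl
    rw [h1, map_sum]
    refine Finset.sum_congr rfl fun i _ => ?_
    rw [RingHom.map_mul, evP_algebraMap_Rx hxt, mul_comm]
  apply card_le_of_ker_le Φ Ψ
  · -- kernel inclusion, by (NIL)
    intro a ha
    rw [LinearMap.mem_ker] at ha ⊢
    set v : Fin m → ↥(Algebra.adjoin k {S.red ⟨x, hx⟩}) := fun i =>
      algebraMap k ↥(Algebra.adjoin k {S.red ⟨x, hx⟩}) (a i) with hv
    have hdvd : ∀ t, piRho (S.red ⟨x, hx⟩) (S.resO ⟨(ρ : C), ρ.2⟩) ∣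
        ∑ i, algebraMap k ↥(Algebra.adjoin k {S.red ⟨x, hx⟩})
          (S.resO ⟨evP (hpt t) ⟨bF i, hbB i⟩,
            evP_mem_O hx hxt hdeg ρ.2 (hpt t) ⟨bF i, hbB i⟩ (hbV i)⟩) * v i := by
      intro t
      have h1 : ∑ i, algebraMap k ↥(Algebra.adjoin k {S.red ⟨x, hx⟩})
          (S.resO ⟨evP (hpt t) ⟨bF i, hbB i⟩,
            evP_mem_O hx hxt hdeg ρ.2 (hpt t) ⟨bF i, hbB i⟩ (hbV i)⟩) * v i =
          algebraMap k ↥(Algebra.adjoin k {S.red ⟨x, hx⟩}) (Φ a t) := by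
        rw [hΦ, map_sum]
        refine Finset.sum_congr rfl fun i _ => ?_
        rw [map_mul]
      rw [h1, ha]
      simp
    obtain ⟨n, z, hz, hpow⟩ := exists_pow_eq_smul hx hxt hdeg (fun i => bF i) hbV hbB (ρ : C)
      ρ.2 pt hpt hall v hdvd
    have hyint : IsIntegral ↥(Algebra.adjoin k {S.red ⟨x, hx⟩}) (∑ i, v i • bt i) :=
      IsIntegral.sum _ fun i _ => (hbtint i).smul _
    set yB : ↥(Bx (C := k) (S.red ⟨x, hx⟩)) := ⟨∑ i, v i • bt i, hyint⟩ with hyB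
    ext j
    have h2 := hval v yB rfl j
    have h3 : (fun i => evAt hxt γ (v i)) = a := by
      ext i
      exact evAt_algebraMap hxt γ (a i)
    rw [hΨ]
    simp only [Pi.zero_apply]
    have h4 : ∑ i, mu j i * a i = ∑ i, mu j i * evAt hxt γ (v i) := by
      refine Finset.sum_congr rfl fun i _ => ?_
      rw [congrFun h3 i]
    rw [h4, ← h2, evP_eq_zero_iff]
    -- `yB ^ n ∈ qt j`
    have hprime : (qt j).IsPrime := (hqt j).1.isPrime
    refine hprime.mem_of_pow_mem n ?_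
    have h5 : yB ^ n = algebraMap ↥(Algebra.adjoin k {S.red ⟨x, hx⟩})
        ↥(Bx (C := k) (S.red ⟨x, hx⟩)) (piRho (S.red ⟨x, hx⟩) γ) * ⟨z, hz⟩ := by
      apply Subtype.ext
      have h6 : (∑ i, v i • bt i) = ∑ i, v i • S.red ⟨bF i, hbV i⟩ :=
        Finset.sum_congr rfl fun i _ => by rw [hbt i]
      show (∑ i, v i • bt i) ^ n = _
      rw [h6, hpow, Algebra.smul_def]
      rfl
    rw [h5]
    exact Ideal.mul_mem_right _ _ ((mem_ptsOver_iff _ _ _).1 (hqt j)).2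
  · -- surjectivity, by CRT and the chart theorem
    intro w
    obtain ⟨y, hy⟩ := exists_evP_eq qt hqinj hqt w
    obtain ⟨v, hv⟩ := (Submodule.mem_span_range_iff_exists_fun _).1 (hmain (y : Ft) y.2)
    refine ⟨fun i => evAt hxt γ (v i), ?_⟩
    ext j
    rw [hΨ, ← hval v y hv.symm j, hy j]

end RedSetting

end Fermat.Agent.RED.H34

end
end
-- ==== END Fermat.Agent.RED.H34_FibA

-- ==== BEGIN Fermat.Agent.RED.H42_Gen9
section

/-!
# G-RED package GEN (helper42), part 9: the genus does not drop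

* `linearIndependent_of_red` : lifts of `k`-linearly independent elements are `C`-linearly
  independent.
* `finrank_L_le_of_charts` : `l~(N (xt)_∞) ≤ l(N (x)_∞)` for `N` large.
* `genusLE_of_charts` : for EVERY map `r` of places, `l~(r_* D) ≤ l(D)` for `deg D` large.
-/

set_option autoImplicit false

noncomputable section

open AlgebraicCurve IntermediateField WithZero Polynomial Module

namespace Fermat.Agent.RED.H42

open Fermat.Agent.S24 Fermat.Agent.RED.H34 Fermat.Agent.RED.H34.RedSetting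

variable {C F k Ft : Type} [Field C] [Field F] [Algebra C F] [Field k] [Field Ft] [Algebra k Ft]

local notation "L" => riemannRochSpace

/-- Lifts of `k`-linearly independent elements are `C`-linearly independent. -/
theorem linearIndependent_of_red (S : RedSetting C F k Ft) {ι : Type} [Fintype ι]
    (g : ι → ↥S.V) (hli : LinearIndependent k (fun j => S.red (g j))) :
    LinearIndependent C (fun j => ((g j : ↥S.V) : F)) := by
  classical
  rw [Fintype.linearIndependent_iff]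
  intro c hc
  by_contra hno
  push Not at hno
  obtain ⟨j₁, hj₁⟩ := hno
  obtain ⟨j₀, -, hmax⟩ := Finset.exists_max_image (Finset.univ : Finset ι)
    (fun j => S.O.valuation (c j)) ⟨j₁, Finset.mem_univ j₁⟩
  have hv1 : S.O.valuation (c j₁) ≠ 0 := (Valuation.ne_zero_iff _).2 hj₁
  have hv0 : S.O.valuation (c j₀) ≠ 0 := by
    intro h0
    have := hmax j₁ (Finset.mem_univ j₁)
    rw [h0] at this
    exact hv1 (le_antisymm this zero_le)
  have hc0 : c j₀ ≠ 0 := (Valuation.ne_zero_iff _).1 hv0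
  have hall : ∀ j, c j / c j₀ ∈ S.O := by
    intro j
    rw [← S.O.valuation_le_one_iff, map_div₀, div_le_one₀ (zero_lt_iff.2 hv0)]
    exact hmax j (Finset.mem_univ j)
  have h1 : ∑ j, S.inclO ⟨c j / c j₀, hall j⟩ * g j = 0 := by
    apply Subtype.ext
    rw [AddSubmonoidClass.coe_finsetSum, ZeroMemClass.coe_zero]
    have h2 : ∑ j, algebraMap C F (c j / c j₀) * ((g j : ↥S.V) : F) =
        algebraMap C F (c j₀)⁻¹ * ∑ j, c j • ((g j : ↥S.V) : F) := by
      rw [Finset.mul_sum]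
      refine Finset.sum_congr rfl fun j _ => ?_
      rw [Algebra.smul_def, ← mul_assoc, ← map_mul, inv_mul_eq_div]
    rw [hc, mul_zero] at h2
    rw [← h2]
    rfl
  have h3 := congrArg S.red h1
  rw [map_sum, map_zero] at h3
  have h4 : ∑ j, S.resO ⟨c j / c j₀, hall j⟩ • S.red (g j) = 0 := by
    rw [← h3]
    refine Finset.sum_congr rfl fun j _ => ?_
    rw [map_mul, red_inclO, Algebra.smul_def]
  have h5 := Fintype.linearIndependent_iff.1 hli _ h4 j₀
  have h6 : (⟨c j₀ / c j₀, hall j₀⟩ : ↥S.O) = 1 := Subtype.ext (div_self hc0)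
  rw [h6, map_one] at h5
  exact one_ne_zero h5

theorem red_inv_eq (S : RedSetting C F k Ft) {x : F} (hx : x ∈ S.V) (hx' : x⁻¹ ∈ S.V)
    (hx0 : x ≠ 0) : S.red ⟨x⁻¹, hx'⟩ = (S.red ⟨x, hx⟩)⁻¹ := by
  apply eq_inv_of_mul_eq_one_left
  rw [← map_mul]
  have : (⟨x⁻¹, hx'⟩ : ↥S.V) * ⟨x, hx⟩ = 1 := Subtype.ext (inv_mul_cancel₀ hx0)
  rw [this, map_one]

/-- `l~(N (xt)_∞) ≤ l(N (x)_∞)` from the lifting property. -/
theorem finrank_L_le_of_lift [IsAlgClosed C] [IsAlgClosed k] (hFF : IsFF C F) (hFFt : IsFF k Ft)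
    (S : RedSetting C F k Ft) {x : F} (hx : x ∈ S.V) (hx' : x⁻¹ ∈ S.V) (hx0 : x ≠ 0)
    (hfin : {v : Place C F | 0 < v.ord x⁻¹}.Finite)
    (hfint : {v : Place k Ft | 0 < v.ord (S.red ⟨x, hx⟩)⁻¹}.Finite) (N : ℕ)
    (hlift : ∀ y : Ft, IsIntegral ↥(Algebra.adjoin k {S.red ⟨x, hx⟩}) y →
      IsIntegral ↥(Algebra.adjoin k {S.red ⟨x⁻¹, hx'⟩}) (S.red ⟨x⁻¹, hx'⟩ ^ N * y) →
      ∃ g : ↥S.V, S.red g = y ∧ IsIntegral ↥(Algebra.adjoin C {x}) (g : F) ∧
        IsIntegral ↥(Algebra.adjoin C {x⁻¹}) (x⁻¹ ^ N * (g : F))) :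
    Module.finrank k (L (N • zeroDivisor (S.red ⟨x, hx⟩)⁻¹ hfint)) ≤
      Module.finrank C (L (N • zeroDivisor x⁻¹ hfin)) := by
  classical
  have hxt0 : S.red ⟨x, hx⟩ ≠ 0 := by
    intro h0
    have h1 := red_inv_eq S hx hx' hx0
    have h2 : S.red ⟨x, hx⟩ * S.red ⟨x⁻¹, hx'⟩ = 1 := by
      rw [← map_mul]
      have : (⟨x, hx⟩ : ↥S.V) * ⟨x⁻¹, hx'⟩ = 1 := Subtype.ext (mul_inv_cancel₀ hx0)
      rw [this, map_one]
    rw [h0, zero_mul] at h2
    exact zero_ne_one h2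
  rw [red_inv_eq S hx hx' hx0] at hlift
  haveI : Module.Finite k (L (N • zeroDivisor (S.red ⟨x, hx⟩)⁻¹ hfint)) :=
    stmt_FFR_finite k Ft hFFt _
  haveI : Module.Finite C (L (N • zeroDivisor x⁻¹ hfin)) := stmt_FFR_finite C F hFF _
  let b := Module.finBasis k (L (N • zeroDivisor (S.red ⟨x, hx⟩)⁻¹ hfint))
  have hb : ∀ j, ∃ g : ↥S.V, S.red g = ((b j : ↥(L (N • zeroDivisor (S.red ⟨x, hx⟩)⁻¹ hfint))) :
      Ft) ∧ IsIntegral ↥(Algebra.adjoin C {x}) (g : F) ∧
        IsIntegral ↥(Algebra.adjoin C {x⁻¹}) (x⁻¹ ^ N * (g : F)) := by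
    intro j
    obtain ⟨h1, h2⟩ := isIntegral_of_mem_L hFFt hxt0 hfint N (b j).2
    exact hlift _ h1 h2
  choose g hgred hgint hgint' using hb
  have hli : LinearIndependent k (fun j => S.red (g j)) := by
    have h1 := b.linearIndependent.map' (L (N • zeroDivisor (S.red ⟨x, hx⟩)⁻¹ hfint)).subtype
      (Submodule.ker_subtype _)
    have h2 : (fun j => S.red (g j)) =
        ⇑(L (N • zeroDivisor (S.red ⟨x, hx⟩)⁻¹ hfint)).subtype ∘ ⇑b := by
      funext j
      exact hgred j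
    rw [h2]
    exact h1
  have hliF := linearIndependent_of_red S g hli
  have hliL : LinearIndependent C (fun j =>
      (⟨((g j : ↥S.V) : F), mem_L_of_isIntegral hx0 hfin N (hgint j) (hgint' j)⟩ :
        ↥(L (N • zeroDivisor x⁻¹ hfin)))) := by
    refine LinearIndependent.of_comp (L (N • zeroDivisor x⁻¹ hfin)).subtype ?_
    exact hliF
  have := hliL.fintype_card_le_finrank
  simpa using this

theorem degree_mapDomain {K E K' E' : Type} [Field K] [Field E] [Algebra K E] [Field K']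
    [Field E'] [Algebra K' E'] (h1 : ∀ v : Place K E, v.deg = 1)
    (h1' : ∀ v : Place K' E', v.deg = 1) (r : Place K E → Place K' E') (D : Divisor K E) :
    Divisor.degree (Finsupp.mapDomain r D) = Divisor.degree D := by
  induction D using Finsupp.induction_linear with
  | zero => simp
  | add D D' hD hD' => rw [Finsupp.mapDomain_add, map_add, map_add, hD, hD']
  | single v n =>
    rw [Finsupp.mapDomain_single, Divisor.degree_single, Divisor.degree_single, h1, h1']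

/-- **The genus does not drop** (abstract form): from the lifting property, for every map `r`
of places `l~(r_* D) ≤ l(D)` for all divisors `D` of large degree. -/
theorem genusLE_of_lift [IsAlgClosed C] [IsAlgClosed k] (hFF : IsFF C F) (hFFt : IsFF k Ft)
    (S : RedSetting C F k Ft) {x : F} (hx : x ∈ S.V) (hx' : x⁻¹ ∈ S.V)
    (hxt : Transcendental k (S.red ⟨x, hx⟩)) [FiniteDimensional ↥C⟮x⟯ F]
    (hdeg : Module.finrank ↥k⟮S.red ⟨x, hx⟩⟯ Ft = Module.finrank ↥C⟮x⟯ F)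
    (hlift : ∃ N₀ : ℕ, ∀ N, N₀ ≤ N → ∀ y : Ft,
      IsIntegral ↥(Algebra.adjoin k {S.red ⟨x, hx⟩}) y →
      IsIntegral ↥(Algebra.adjoin k {S.red ⟨x⁻¹, hx'⟩}) (S.red ⟨x⁻¹, hx'⟩ ^ N * y) →
      ∃ g : ↥S.V, S.red g = y ∧ IsIntegral ↥(Algebra.adjoin C {x}) (g : F) ∧
        IsIntegral ↥(Algebra.adjoin C {x⁻¹}) (x⁻¹ ^ N * (g : F)))
    (r : Place C F → Place k Ft) :
    ∃ c : ℤ, ∀ D : Divisor C F, c ≤ Divisor.degree D →
      Module.finrank k (L (Finsupp.mapDomain r D)) ≤ Module.finrank C (L D) := by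
  classical
  have hxC := transcendental_x hx hxt
  have hx0 : x ≠ 0 := fun h0 => hxC (h0 ▸ isAlgebraic_zero)
  have hxt0 : S.red ⟨x, hx⟩ ≠ 0 := fun h0 => hxt (h0 ▸ isAlgebraic_zero)
  have hpos : 0 < Module.finrank ↥C⟮x⟯ F := Module.finrank_pos
  have hfint' : FiniteDimensional ↥k⟮S.red ⟨x, hx⟩⟯ Ft :=
    Module.finite_of_finrank_pos (hdeg ▸ hpos)
  have h1 : ∀ v : Place C F, v.deg = 1 := fun v => ff_deg_eq_one x hxC v
  have h1t : ∀ v : Place k Ft, v.deg = 1 := fun v => ff_deg_eq_one _ hxt v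
  -- pole divisors
  have htr : Transcendental C x⁻¹ := fun h => hxC (IsAlgebraic.inv_iff.mp h)
  have htrt : Transcendental k (S.red ⟨x, hx⟩)⁻¹ := fun h => hxt (IsAlgebraic.inv_iff.mp h)
  have hfd := ff_finite_of_transcendental x hxC x⁻¹ htr
  have hfdt := ff_finite_of_transcendental _ hxt (S.red ⟨x, hx⟩)⁻¹ htrt
  obtain ⟨hfin, hsum⟩ := zerosAll C F hFF x⁻¹ htr
  obtain ⟨hfint, hsumt⟩ := zerosAll k Ft hFFt (S.red ⟨x, hx⟩)⁻¹ htrt
  rw [H59.finrank_adjoin_inv] at hsum hsumt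
  have hdegD : Divisor.degree (zeroDivisor x⁻¹ hfin) = (Module.finrank ↥C⟮x⟯ F : ℤ) := by
    rw [degree_zeroDivisor h1, hsum]
  have hdegDt : Divisor.degree (zeroDivisor (S.red ⟨x, hx⟩)⁻¹ hfint) =
      (Module.finrank ↥C⟮x⟯ F : ℤ) := by
    rw [degree_zeroDivisor h1t, hsumt, hdeg]
  -- Riemann
  obtain ⟨g, c, hR⟩ := stmt_FFR_riemann C F hFF
  obtain ⟨gt, ct, hRt⟩ := stmt_FFR_riemann k Ft hFFt
  obtain ⟨N₀, hN₀⟩ := hlift
  -- a large `N`
  let N : ℕ := max N₀ (max c ct).toNat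
  have hNN₀ : N₀ ≤ N := le_max_left _ _
  have hNc : max c ct ≤ (N : ℤ) * (Module.finrank ↥C⟮x⟯ F : ℤ) := by
    have h2 : max c ct ≤ (N : ℤ) := by
      have h3 : (max c ct).toNat ≤ N := le_max_right _ _
      have h4 : max c ct ≤ ((max c ct).toNat : ℤ) := Int.self_le_toNat _
      exact h4.trans (by exact_mod_cast h3)
    have h5 : (1 : ℤ) ≤ (Module.finrank ↥C⟮x⟯ F : ℤ) := by exact_mod_cast hpos
    have h6 : (0 : ℤ) ≤ (N : ℤ) := Int.natCast_nonneg N
    nlinarith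
  have hle := finrank_L_le_of_lift hFF hFFt S hx hx' hx0 hfin hfint N (hN₀ N hNN₀)
  have hdN : Divisor.degree (N • zeroDivisor x⁻¹ hfin) =
      (N : ℤ) * (Module.finrank ↥C⟮x⟯ F : ℤ) := by
    rw [map_nsmul, hdegD, nsmul_eq_mul]
  have hdNt : Divisor.degree (N • zeroDivisor (S.red ⟨x, hx⟩)⁻¹ hfint) =
      (N : ℤ) * (Module.finrank ↥C⟮x⟯ F : ℤ) := by
    rw [map_nsmul, hdegDt, nsmul_eq_mul]
  have e1 := (hR (N • zeroDivisor x⁻¹ hfin)).2 (by rw [hdN]; exact (le_max_left _ _).trans hNc)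
  have e2 := (hRt (N • zeroDivisor (S.red ⟨x, hx⟩)⁻¹ hfint)).2
    (by rw [hdNt]; exact (le_max_right _ _).trans hNc)
  rw [hdN] at e1
  rw [hdNt] at e2
  have hgg : (g : ℤ) ≤ (gt : ℤ) := by
    have : ((Module.finrank k (L (N • zeroDivisor (S.red ⟨x, hx⟩)⁻¹ hfint)) : ℕ) : ℤ) ≤
        ((Module.finrank C (L (N • zeroDivisor x⁻¹ hfin)) : ℕ) : ℤ) := by exact_mod_cast hle
    rw [e1, e2] at this
    linarith
  refine ⟨max c ct, fun D hD => ?_⟩
  have e3 := (hR D).2 ((le_max_left _ _).trans hD)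
  have e4 := (hRt (Finsupp.mapDomain r D)).2
    (by rw [degree_mapDomain h1 h1t]; exact (le_max_right _ _).trans hD)
  rw [degree_mapDomain h1 h1t] at e4
  have : ((Module.finrank k (L (Finsupp.mapDomain r D)) : ℕ) : ℤ) ≤
      ((Module.finrank C (L D) : ℕ) : ℤ) := by
    rw [e3, e4]
    linarith
  exact_mod_cast this

/-- **GEN** (abstract form): if both charts `x`, `x⁻¹` are normal, `Ft / k(xt)` is separable of
degree `[F : C(x)]` and `char C = 0`, the genus does not drop: for EVERY map `r` of places,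
`l~(r_* D) ≤ l(D)` for all divisors `D` of large degree. -/
theorem genusLE_of_charts [IsAlgClosed C] [CharZero C] [IsAlgClosed k] (hFF : IsFF C F)
    (hFFt : IsFF k Ft) (S : RedSetting C F k Ft) {x : F} (hx : x ∈ S.V) (hx' : x⁻¹ ∈ S.V)
    (hxt : Transcendental k (S.red ⟨x, hx⟩)) [FiniteDimensional ↥C⟮x⟯ F]
    (hdeg : Module.finrank ↥k⟮S.red ⟨x, hx⟩⟯ Ft = Module.finrank ↥C⟮x⟯ F)
    [Algebra.IsSeparable ↥k⟮S.red ⟨x, hx⟩⟯ Ft]
    (hcn : ∀ y : Ft, IsIntegral ↥(Algebra.adjoin k {S.red ⟨x, hx⟩}) y →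
      ∃ f : ↥S.V, IsIntegral ↥(Algebra.adjoin C {x}) (f : F) ∧ S.red f = y)
    (hcn' : ∀ y : Ft, IsIntegral ↥(Algebra.adjoin k {S.red ⟨x⁻¹, hx'⟩}) y →
      ∃ f : ↥S.V, IsIntegral ↥(Algebra.adjoin C {x⁻¹}) (f : F) ∧ S.red f = y)
    (r : Place C F → Place k Ft) :
    ∃ c : ℤ, ∀ D : Divisor C F, c ≤ Divisor.degree D →
      Module.finrank k (L (Finsupp.mapDomain r D)) ≤ Module.finrank C (L D) :=
  genusLE_of_lift hFF hFFt S hx hx' hxt hdeg (gen_lift hx hx' hxt hdeg hcn hcn') r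

end Fermat.Agent.RED.H42

end
end
-- ==== END Fermat.Agent.RED.H42_Gen9
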