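-- GENERATED (merged mirror, NOTES/tools/trim/merge3_helper67.py): 7 modules of the originals, bodies verbatim.
import Fermat.Agent.Zm.S35_L10_001
import Fermat.Agent.Zm.S35_L10_002
import Fermat.Agent.Zm.S35_L10_000
import Fermat.Agent.Zm.S35_L09_001
import Fermat.Agent.Zm.S35_L09_000
import Fermat.Agent.Zm.S35_L10_003
import Fermat.Agent.Zm.S35_L10_004
import Fermat.Agent.Zm.S35_L09_004
import Fermat.Agent.Zm.S35_L12_000
import Fermat.Agent.Zm.S35_L13_000
import Fermat.Agent.Zm.S35_L11_000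
import Fermat.Agent.Zm.S35_L01_000
import Fermat.Agent.Zm.S35_L13_001
import Fermat.Agent.Zm.S35_L06_001

-- ==== BEGIN Fermat.Agent.BAD.H28_ABS
section

/-!
# Item 65, package ABS: assembly of the leaves

`Stmt_TwSurj`, `Stmt_GoodLift`, `Stmt_Coords`, `Stmt_TIss` are proved unconditionally here from
the leaves of helper17 (Pivot, Contain, Contain0), helper41 (Linearise, TwSurj), helper60
(NS, NodalNS, LamCount, GoodLift, Coords), helper90 (TwistExists), helper1 (TIss from the key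
lemma), helper55 (ALG, EVAL), helper28 (PRed port, key lemma, final assembly).
`stmt_ABS_of_moving : Stmt_Moving → Stmt_ABS`.
-/

set_option autoImplicit false

namespace Fermat.Agent.BAD

namespace H28

/-- Surjectivity of the twisted reduction. -/
theorem stmt_TwSurj : Stmt_TwSurj :=
  H41.stmt_TwSurj_of H17.stmt_Contain H17.stmt_Pivot H60.stmt_LamCount

/-- Good lifts. -/
theorem stmt_GoodLift : Stmt_GoodLift := H60.goodLift_of stmt_TwSurj

/-- Coordinates on the residue discs. -/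
theorem stmt_Coords : Stmt_Coords := H60.coords_of stmt_GoodLift

/-- Torsion injectivity in good position. -/
theorem stmt_TIss : Stmt_TIss :=
  H01.stmt_TIss_of H60.stmt_NodalNS stmt_Coords H17.stmt_Contain0 stmt_KeyNodal

/-- Package ABS from the moving lemma. -/
theorem stmt_ABS_of_moving (h : Stmt_Moving) : Stmt_ABS :=
  stmt_ABS_of H90.stmt_TwistExists h stmt_TIss

end H28

end Fermat.Agent.BAD

end
-- ==== END Fermat.Agent.BAD.H28_ABS

-- ==== BEGIN Fermat.Agent.BAD.H60_GlueFrob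
section

/-!
# Item 65, package ABS (helper60): `Stmt_GlueFrob` from `Stmt_Moving`, `Stmt_GoodLift`, `Stmt_TIss`

`glueFrob_of : Stmt_Moving → Stmt_GoodLift → Stmt_TIss → Stmt_GlueFrob`  ((B2') for S35).

Twist datum `ϑ = c₀`; the moving lemma gives `h` with `F_h = f h ^ n` a unit for both valuations
without zero or pole on the fibres of the nodes; its reductions are `ψ₁ ^ n`, `ψ₂ ^ n` with `ψ_i`
of order `0` at the branches (`glue` + `DIn`); `G = τ F_h / F_h ^ Q` has reductions `u_i ^ n`,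
`u_i = τ_i ψ_i / ψ_i ^ Q`, with value `1` at the branches; lift `(u₁, u₂)` to `u` (good lift,
no zero on the fibres of the nodes); `G / u ^ n` satisfies TI-ss-gp.
-/

set_option autoImplicit false
set_option linter.style.haveILetI false
set_option maxHeartbeats 1000000

noncomputable section

open AlgebraicCurve

attribute [local instance] Classical.propDecidable

namespace Fermat.Agent.BAD.H60

open Fermat.Agent.RED.H17 Fermat.Agent.RED

local notation "L" => riemannRochSpace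

section OneField

variable {k F : Type*} [Field k] [Field F] [Algebra k F]

/-- The value of a power. -/
theorem vanAt_pow_sub {v : Place k F} {ψ : F} {a : k} (h : VanAt v (ψ - algebraMap k F a))
    (Q : ℕ) : VanAt v (ψ ^ Q - algebraMap k F (a ^ Q)) := by
  induction Q with
  | zero =>
    rw [pow_zero, pow_zero, map_one, sub_self]
    exact vanAt_zero v
  | succ Q ih =>
    have h1 := ((RegAt.of_vanAt_sub h).pow Q).mul_vanAt h
    have h2 := (regAt_algebraMap v a).mul_vanAt ih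
    have h3 := h1.add h2
    have e : ψ ^ (Q + 1) - algebraMap k F (a ^ (Q + 1)) =
        ψ ^ Q * (ψ - algebraMap k F a) +
          algebraMap k F a * (ψ ^ Q - algebraMap k F (a ^ Q)) := by
      rw [map_pow, map_pow]
      ring
    rw [e]
    exact h3

/-- Two functions with the same non-zero value: the quotient has value `1`. -/
theorem vanAt_div_sub_one {v : Place k F} {x y : F} {a : k} (ha : a ≠ 0)
    (hx : VanAt v (x - algebraMap k F a)) (hy : VanAt v (y - algebraMap k F a)) :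
    VanAt v (x / y - algebraMap k F 1) := by
  obtain ⟨hy0, hyo⟩ := ord_eq_zero_of_vanAt_sub ha hy
  have h1 : VanAt v (x - y) := by
    have := hx.sub hy
    rwa [sub_sub_sub_cancel_right] at this
  have h2 : RegAt v y⁻¹ := by
    apply regAt_of_ord_nonneg
    rw [Place.ord_inv, hyo, neg_zero]
  have h3 := h1.mul_regAt h2
  have e : x / y - algebraMap k F 1 = (x - y) * y⁻¹ := by
    rw [map_one]
    field_simp
  rw [e]
  exact h3

/-- An identity in a field. -/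
theorem pow_div_aux {E : Type*} [Field E] (A B : E) (n Q : ℕ) (hA : A ≠ 0) (hB : B ≠ 0) :
    A ^ n / ((B ^ n) ^ Q * (A / B ^ Q) ^ n) = 1 := by
  have h1 : (B ^ n) ^ Q * (A / B ^ Q) ^ n = A ^ n := by
    rw [div_pow, ← pow_mul, ← pow_mul, mul_comm Q n]
    field_simp
  rw [h1, div_self (pow_ne_zero _ hA)]

end OneField

section Node

variable {K F k F₁ F₂ : Type*} [Field K] [Field F] [Algebra K F] [Field k] [Field F₁]
  [Algebra k F₁] [Field F₂] [Algebra k F₂] (S : SSD K F k F₁ F₂)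

/-- A unit for both valuations without zero or pole on the fibres of the nodes: its reductions
have order `0` at the branches. -/
theorem ord_rd_eq_zero_of_node (hP : HasPrincipalDivisors K F) {u : F} (h₁ : S.c₁.IsGU u)
    (h₂ : S.c₂.IsGU u) (hnode : ∀ P, S.IsNodeP P → P.ord u = 0)
    {s : Place k F₁ × Place k F₂} (hs : s ∈ S.nodes) :
    s.1.ord (S.c₁.rd u) = 0 ∧ s.2.ord (S.c₂.rd u) = 0 := by
  obtain ⟨a, ha1, ha2⟩ := S.glue s hs u h₁.1 h₂.1 (fun P hPs => by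
    rw [hnode P ⟨s, hs, hPs⟩])
  rw [← S.c₁.rd_of_mem h₁.1] at ha1
  rw [← S.c₂.rd_of_mem h₂.1] at ha2
  have hn1 := (RegAt.of_vanAt_sub ha1).ord_nonneg
  have hn2 := (RegAt.of_vanAt_sub ha2).ord_nonneg
  have h := S.DIn s hs ⟨u, h₁.1⟩ ⟨u, h₂.1⟩ (by rw [← S.c₁.rd_of_mem h₁.1]; exact h₁.2)
    (by rw [← S.c₂.rd_of_mem h₂.1]; exact h₂.2) ⟨1, by rw [map_one, one_mul]⟩ (dv hP u)
    (fun P => dv_apply hP u P)
  rw [← S.c₁.rd_of_mem h₁.1, ← S.c₂.rd_of_mem h₂.1] at h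
  have h0 : Finsupp.mapDomain S.c₁.r (dv hP u) (some s.1) = 0 := by
    rw [mapDomain_apply_eq_sum]
    apply Finset.sum_eq_zero
    intro P _
    split_ifs with hPs
    · rw [dv_apply, hnode P ⟨s, hs, hPs⟩]
    · rfl
  rw [h0] at h
  constructor <;> omega

end Node

/-- **GLUE, Frobenius form**, from the moving lemma, good lifts and TI-ss-gp. -/
theorem glueFrob_of (hMv : Stmt_Moving) (hGL : Stmt_GoodLift) (hTI : Stmt_TIss) :
    Stmt_GlueFrob := by
  intro K F k F₁ F₂ _ _ _ _ _ _ _ _ _ _ S H H₁ H₂ g g₁ g₂ c c₁ c₂ hR hR₁ hR₂ hnum n hn τ τ₁ τ₂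
    Q hτ f c₀ hc₀ hf hf1 hf₂ hf₂1 hdiv
  have hn0 : n ≠ 0 := by
    rintro rfl
    exact hn Nat.cast_zero
  have hϑ0 : algebraMap K F c₀ ≠ 0 := by
    intro h0
    exact hc₀ ((map_eq_zero (algebraMap K F)).mp h0)
  -- the twist datum
  let x : S.Twist n :=
    { f := f
      ϑ := algebraMap K F c₀
      hϑ := hϑ0
      hf₁ := hf
      hrd₁ := hf1
      hf₂ := ⟨hf₂, by rw [hf₂1]; exact one_ne_zero⟩
      hdiv := hdiv
      hγ := fun s _ => by rw [hf₂1, Place.ord_one] }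
  obtain ⟨h, hh₁, hh₂, hnode⟩ :=
    hMv K F k F₁ F₂ S H H₁ H₂ g g₁ g₂ c c₁ c₂ hR hR₁ hR₂ hnum n hn x
  change S.c₂.IsGU (algebraMap K F c₀ * h) at hh₂
  change ∀ P : Place K F, S.IsNodeP P → P.ord (f * h ^ n) = 0 at hnode
  have hfGU₁ : S.c₁.IsGU f := ⟨hf, by rw [hf1]; exact one_ne_zero⟩
  have hfGU₂ : S.c₂.IsGU (f / algebraMap K F c₀ ^ n) := ⟨hf₂, by rw [hf₂1]; exact one_ne_zero⟩
  have hf0 : f ≠ 0 := hfGU₁.ne_zero
  have hh0 : h ≠ 0 := hh₁.ne_zero
  set Fh : F := f * h ^ n with hFh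
  have hFh0 : Fh ≠ 0 := mul_ne_zero hf0 (pow_ne_zero _ hh0)
  have hFh₁ : S.c₁.IsGU Fh := hfGU₁.mul (hh₁.pow n)
  have eFh : Fh = (f / algebraMap K F c₀ ^ n) * (algebraMap K F c₀ * h) ^ n := by
    have hϑn : algebraMap K F c₀ ^ n ≠ 0 := pow_ne_zero _ hϑ0
    rw [hFh, mul_pow]
    field_simp
  have hFh₂ : S.c₂.IsGU Fh := by
    rw [eFh]
    exact hfGU₂.mul (hh₂.pow n)
  -- the reductions of `F_h`
  set ψ₁ : F₁ := S.c₁.rd h with hψ₁
  set ψ₂ : F₂ := S.c₂.rd (algebraMap K F c₀ * h) with hψ₂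
  have hψ₁0 : ψ₁ ≠ 0 := hh₁.2
  have hψ₂0 : ψ₂ ≠ 0 := hh₂.2
  have hrdF₁ : S.c₁.rd Fh = ψ₁ ^ n := by
    rw [hFh, S.c₁.rd_mul hf (hh₁.pow n).1, hf1, one_mul, S.c₁.rd_pow hh₁.1]
  have hrdF₂ : S.c₂.rd Fh = ψ₂ ^ n := by
    rw [eFh, S.c₂.rd_mul hf₂ (hh₂.pow n).1, hf₂1, one_mul, S.c₂.rd_pow hh₂.1]
  have hordψ : ∀ s ∈ S.nodes, s.1.ord ψ₁ = 0 ∧ s.2.ord ψ₂ = 0 := by
    intro s hs
    obtain ⟨h1, h2⟩ := ord_rd_eq_zero_of_node S H.principal hFh₁ hFh₂ hnode hs
    rw [hrdF₁, ord_pow] at h1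
    rw [hrdF₂, ord_pow] at h2
    have hnZ : (n : ℤ) ≠ 0 := by exact_mod_cast hn0
    exact ⟨(mul_eq_zero.mp h1).resolve_left hnZ, (mul_eq_zero.mp h2).resolve_left hnZ⟩
  -- the functions `u₁`, `u₂`
  set u₁ : F₁ := τ₁ ψ₁ / ψ₁ ^ Q with hu₁
  set u₂ : F₂ := τ₂ ψ₂ / ψ₂ ^ Q with hu₂
  have hτψ₁0 : τ₁ ψ₁ ≠ 0 := (map_ne_zero τ₁).mpr hψ₁0
  have hτψ₂0 : τ₂ ψ₂ ≠ 0 := (map_ne_zero τ₂).mpr hψ₂0
  have hu₁0 : u₁ ≠ 0 := div_ne_zero hτψ₁0 (pow_ne_zero _ hψ₁0)
  have hu₂0 : u₂ ≠ 0 := div_ne_zero hτψ₂0 (pow_ne_zero _ hψ₂0)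
  have hval₁ : ∀ s ∈ S.nodes, VanAt s.1 (u₁ - algebraMap k F₁ 1) := by
    intro s hs
    obtain ⟨b, hb0, hb⟩ := exists_value_ne_zero (H₁.deg_one s.1) hψ₁0 (hordψ s hs).1
    exact vanAt_div_sub_one (pow_ne_zero Q hb0) (hτ.val₁ s hs ψ₁ b hb) (vanAt_pow_sub hb Q)
  have hval₂ : ∀ s ∈ S.nodes, VanAt s.2 (u₂ - algebraMap k F₂ 1) := by
    intro s hs
    obtain ⟨b, hb0, hb⟩ := exists_value_ne_zero (H₂.deg_one s.2) hψ₂0 (hordψ s hs).2
    exact vanAt_div_sub_one (pow_ne_zero Q hb0) (hτ.val₂ s hs ψ₂ b hb) (vanAt_pow_sub hb Q)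
  -- the lift `u`
  obtain ⟨u, hu1, hu2, hrdu₁, hrdu₂, -, -, hureg⟩ := hGL K F k F₁ F₂ S H H₁ H₂ g g₁ g₂ c c₁ c₂
    hR hR₁ hR₂ hnum u₁ u₂ ∅ ∅ (fun Q hQ => absurd hQ (Finset.notMem_empty Q))
    (fun Q hQ => absurd hQ (Finset.notMem_empty Q)) (fun s hs => ⟨1, hval₁ s hs, hval₂ s hs⟩)
  have huGU₁ : S.c₁.IsGU u := ⟨hu1, by rw [hrdu₁]; exact hu₁0⟩
  have huGU₂ : S.c₂.IsGU u := ⟨hu2, by rw [hrdu₂]; exact hu₂0⟩
  have hu0 : u ≠ 0 := huGU₁.ne_zero
  have hunode : ∀ P, S.IsNodeP P → P.ord u = 0 :=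
    ord_eq_zero_of_isNodeP S H.principal huGU₁ huGU₂ hureg
      (fun s hs => by rw [hrdu₁]; exact (ord_eq_zero_of_vanAt_sub one_ne_zero (hval₁ s hs)).2)
      (fun s hs => by rw [hrdu₂]; exact (ord_eq_zero_of_vanAt_sub one_ne_zero (hval₂ s hs)).2)
  -- `τ F_h`
  have hτ₁ : S.c₁.IsGU (τ • Fh) ∧ S.c₁.rd (τ • Fh) = τ₁ ψ₁ ^ n := by
    have hm := hτ.mem₁ Fh hFh₁.1
    have hr : S.c₁.rd (τ • Fh) = τ₁ ψ₁ ^ n := by
      rw [S.c₁.rd_of_mem hm, hτ.red₁ Fh hFh₁.1 hm, ← S.c₁.rd_of_mem hFh₁.1, hrdF₁, map_pow]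
    exact ⟨⟨hm, by rw [hr]; exact pow_ne_zero _ hτψ₁0⟩, hr⟩
  have hτ₂ : S.c₂.IsGU (τ • Fh) ∧ S.c₂.rd (τ • Fh) = τ₂ ψ₂ ^ n := by
    have hm := hτ.mem₂ Fh hFh₂.1
    have hr : S.c₂.rd (τ • Fh) = τ₂ ψ₂ ^ n := by
      rw [S.c₂.rd_of_mem hm, hτ.red₂ Fh hFh₂.1 hm, ← S.c₂.rd_of_mem hFh₂.1, hrdF₂, map_pow]
    exact ⟨⟨hm, by rw [hr]; exact pow_ne_zero _ hτψ₂0⟩, hr⟩
  -- the function `gg = τ F_h / (F_h ^ Q u ^ n)`
  set gg : F := (τ • Fh) / (Fh ^ Q * u ^ n) with hgg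
  have hden₁ : S.c₁.IsGU (Fh ^ Q * u ^ n) := (hFh₁.pow Q).mul (huGU₁.pow n)
  have hden₂ : S.c₂.IsGU (Fh ^ Q * u ^ n) := (hFh₂.pow Q).mul (huGU₂.pow n)
  have hgg₁ : S.c₁.IsGU gg := hτ₁.1.div hden₁
  have hgg₂ : S.c₂.IsGU gg := hτ₂.1.div hden₂
  have hggrd₁ : S.c₁.rd gg = 1 := by
    rw [hτ₁.1.rd_div hden₁, hτ₁.2, S.c₁.rd_mul (hFh₁.pow Q).1 (huGU₁.pow n).1,
      S.c₁.rd_pow hFh₁.1, S.c₁.rd_pow hu1, hrdF₁, hrdu₁, hu₁]
    exact pow_div_aux _ _ n Q hτψ₁0 hψ₁0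
  have hggrd₂ : S.c₂.rd gg = 1 := by
    rw [hτ₂.1.rd_div hden₂, hτ₂.2, S.c₂.rd_mul (hFh₂.pow Q).1 (huGU₂.pow n).1,
      S.c₂.rd_pow hFh₂.1, S.c₂.rd_pow hu2, hrdF₂, hrdu₂, hu₂]
    exact pow_div_aux _ _ n Q hτψ₂0 hψ₂0
  -- orders
  have hordτ : ∀ (P : Place K F) (y : F), P.ord (τ • y) = (τ⁻¹ • P).ord y := by
    intro P y
    have := SemilinearAut.ord_smul τ (τ⁻¹ • P) y
    rwa [smul_inv_smul] at this
  have hordF : ∀ P : Place K F, (n : ℤ) ∣ P.ord Fh := by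
    intro P
    rw [hFh, P.ord_mul hf0 (pow_ne_zero _ hh0), ord_pow]
    exact dvd_add (hdiv P) (dvd_mul_right _ _)
  have hordg : ∀ P : Place K F,
      P.ord gg = (τ⁻¹ • P).ord Fh - (Q * P.ord Fh + n * P.ord u) := by
    intro P
    rw [hgg, ord_div P hτ₁.1.ne_zero hden₁.ne_zero, hordτ,
      P.ord_mul (pow_ne_zero _ hFh0) (pow_ne_zero _ hu0), ord_pow, ord_pow]
  have hdivg : ∀ P : Place K F, (n : ℤ) ∣ P.ord gg := by
    intro P
    rw [hordg]
    exact dvd_sub (hordF _) (dvd_add (dvd_mul_of_dvd_right (hordF P) _) (dvd_mul_right _ _))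
  have hnodeg : ∀ P : Place K F, S.IsNodeP P → P.ord gg = 0 := by
    intro P hP
    rw [hordg, hnode P hP, hnode _ (hτ.node P hP), hunode P hP]
    ring
  obtain ⟨t, ht⟩ := hTI K F k F₁ F₂ S H H₁ H₂ g g₁ g₂ c c₁ c₂ hR hR₁ hR₂ hnum n hn gg
    hgg₁.1 hgg₂.1 hggrd₁ hggrd₂ hdivg hnodeg
  -- conclusion
  have hτh0 : τ • h ≠ 0 := by
    intro h0
    apply hh0
    have := congrArg (fun y => τ⁻¹ • y) h0
    simpa using this
  have hτFh : τ • Fh = (τ • f) * (τ • h) ^ n := by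
    rw [hFh, smul_mul', smul_pow']
  refine ⟨t * u * h ^ Q / (τ • h), ?_⟩
  rw [div_pow, mul_pow, mul_pow, ht, hgg, hτFh, hFh]
  field_simp
  ring

end Fermat.Agent.BAD.H60

end
end
-- ==== END Fermat.Agent.BAD.H60_GlueFrob

-- ==== BEGIN Fermat.Agent.BAD.H73_Compat2
section

/-!
# Item 65 (BAD_q), glue for TOT-MOD (helper73), part (M3): the second valuation on level `M`

`N = M q`.  For a function `x ∈ F_N ℚ̄` of level `M` (its `q`-expansion lies in `F_M ℚ̄`):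

* `coe_wq_of_level` : the `q`-expansion of `w_q x` is `x(t ^ q)`;
* `mem_V2_iff_of_level` : `x ∈ V₂ ↔ x ∈ V₁`;
* `red2_of_level` : `red₂ x = Fr (red₁ x)` (as series: `coe_red2_of_level`).

Generic: `qExpand_mem_gaussRingV`, `gaussRedV_qExpand` (the Gauss ring and its reduction commute
with `t ↦ t ^ n`).
-/

set_option autoImplicit false
set_option synthInstance.maxHeartbeats 400000
set_option maxHeartbeats 1000000

noncomputable section

open ModularCurve AlgebraicCurve Fermat.Agent.S28.H73 Fermat.Agent.RED.H73 Fermat.Agent.BAD.H88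
  Fermat.Agent.BAD.H82 Fermat.Agent.S24

namespace Fermat.Agent.BAD.H73

section Gauss

variable {C : Type} [Field C] (O : ValuationSubring C) (n : ℕ) [NeZero n]

theorem qExpand_congr {R : Type*} [CommRing R] {m n : ℕ} [NeZero m] [NeZero n] (h : m = n)
    (f : LaurentSeries R) : qExpand R m f = qExpand R n f := by
  subst h
  rfl

theorem iotaV_qExpand (g : LaurentSeries ↥O) :
    iotaV O (qExpand ↥O n g) = qExpand C n (iotaV O g) :=
  coeffMap_qExpand _ n g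

theorem redV_qExpand (g : LaurentSeries ↥O) :
    redV O (qExpand ↥O n g) = qExpand (kV O) n (redV O g) :=
  coeffMap_qExpand _ n g

/-- The Gauss ring is stable under `t ↦ t ^ n`. -/
theorem qExpand_mem_gaussRingV {x : LaurentSeries C} (hx : x ∈ gaussRingV O) :
    qExpand C n x ∈ gaussRingV O := by
  obtain ⟨g, h, hg, hgx⟩ := hx
  refine ⟨qExpand ↥O n g, qExpand ↥O n h, ?_, ?_⟩
  · rw [_root_.Fermat.Agent.BAD.H73.redV_qExpand]
    intro h0
    exact hg (qExpand_injective n (by rw [h0, map_zero]))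
  · rw [_root_.Fermat.Agent.BAD.H73.iotaV_qExpand, _root_.Fermat.Agent.BAD.H73.iotaV_qExpand, ← map_mul, hgx]

/-- The reduction of the Gauss ring commutes with `t ↦ t ^ n`. -/
theorem gaussRedV_qExpand {x : LaurentSeries C} (hx : x ∈ gaussRingV O)
    (hx' : qExpand C n x ∈ gaussRingV O) :
    gaussRedV O ⟨qExpand C n x, hx'⟩ = qExpand (kV O) n (gaussRedV O ⟨x, hx⟩) := by
  have hx0 := hx
  obtain ⟨g, h, hg, hgx⟩ := hx0
  have hg' : redV O (qExpand ↥O n g) ≠ 0 := by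
    rw [_root_.Fermat.Agent.BAD.H73.redV_qExpand]
    intro h0
    exact hg (qExpand_injective n (by rw [h0, map_zero]))
  have hgx' : iotaV O (qExpand ↥O n g) * qExpand C n x = iotaV O (qExpand ↥O n h) := by
    rw [_root_.Fermat.Agent.BAD.H73.iotaV_qExpand, _root_.Fermat.Agent.BAD.H73.iotaV_qExpand, ← map_mul, hgx]
  rw [gaussRedV_eq O ⟨qExpand C n x, hx'⟩ hg' hgx', gaussRedV_eq O ⟨x, hx⟩ hg hgx,
    _root_.Fermat.Agent.BAD.H73.redV_qExpand, _root_.Fermat.Agent.BAD.H73.redV_qExpand, map_div₀]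

end Gauss

section Level

theorem neZero_of_mul_left' (q M : ℕ) [NeZero (M * q)] : NeZero M :=
  ⟨fun h => NeZero.ne (M * q) (by rw [h, zero_mul])⟩

theorem barM_le_bar (q M : ℕ) [NeZero (M * q)] :
    modularFunctionFieldBar M ≤ modularFunctionFieldBar (M * q) :=
  have : NeZero M := neZero_of_mul_left' q M
  IntermediateField.adjoin.mono _ _ _ (Set.image_mono (full_degeneracy_le (Dvd.intro q rfl)))

variable (A : ValuationSubring Kbar)
variable (q M : ℕ) (a b : ℤ) (hab : a * q + b * M = 1) (hq : q.Prime) [NeZero (M * q)]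

include hab hq in
/-- **The `q`-expansion of `w_q x` is `x(t ^ q)`** for `x` of level `M`. -/
theorem coe_wq_of_level (x : FN (M * q))
    (hx : (x : LaurentSeries Kbar) ∈ modularFunctionFieldBar M) :
    letI : NeZero q := neZero_of_mul_right q M
    ((wq q M a b hab hq x : FN (M * q)) : LaurentSeries Kbar)
      = qExpand Kbar q (x : LaurentSeries Kbar) := by
  have : NeZero q := neZero_of_mul_right q M
  have : NeZero M := neZero_of_mul_left' q M
  let i : FN M →ₐ[Kbar] FN (M * q) := IntermediateField.inclusion (barM_le_bar q M)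
  let f₁ : FN M →ₐ[Kbar] LaurentSeries Kbar :=
    (modularFunctionFieldBar (M * q)).val.comp ((wq q M a b hab hq).toAlgHom.comp i)
  let f₂ : FN M →ₐ[Kbar] LaurentSeries Kbar :=
    (qExpandAlgHomC Kbar q).comp (modularFunctionFieldBar M).val
  have key : f₁ = f₂ := by
    apply algHom_ext_of_adjoin _ (adjoin_jdF M)
    rintro y ⟨d, hd0, hd, rfl⟩
    have : NeZero (d * q) := ⟨Nat.mul_ne_zero (NeZero.ne d) (NeZero.ne q)⟩
    have : NeZero (q * d) := ⟨Nat.mul_ne_zero (NeZero.ne q) (NeZero.ne d)⟩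
    have e1 : i (jdF M d hd) = jdF (M * q) d (Dvd.dvd.mul_right hd q) := Subtype.ext rfl
    show ((wq q M a b hab hq (i (jdF M d hd)) : FN (M * q)) : LaurentSeries Kbar)
      = qExpand Kbar q ((jdF M d hd : FN M) : LaurentSeries Kbar)
    rw [e1, wq_apply, wqHom_jdF q M a b hab hq d hd, coe_jdF, coe_jdF, qExpand_qExpand]
    exact qExpand_congr (Nat.mul_comm d q) _
  have := congrArg (fun f : FN M →ₐ[Kbar] LaurentSeries Kbar => f ⟨(x : LaurentSeries Kbar), hx⟩)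
    key
  exact this

include hab hq in
/-- A function of level `M` in `V₁` is in `V₂`. -/
theorem mem_V2_of_level (x : FN (M * q))
    (hx : (x : LaurentSeries Kbar) ∈ modularFunctionFieldBar M) (h1 : x ∈ V1 A q M) :
    x ∈ V2 A q M a b hab hq := by
  have : NeZero q := neZero_of_mul_right q M
  rw [mem_V2_iff]
  show ((wq q M a b hab hq x : FN (M * q)) : LaurentSeries Kbar) ∈ gaussRingV A
  rw [coe_wq_of_level q M a b hab hq x hx]
  exact _root_.Fermat.Agent.BAD.H73.qExpand_mem_gaussRingV A q h1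

include hab hq in
/-- **`red₂ x = (red₁ x)(t ^ q)`** for `x` of level `M`. -/
theorem coe_red2_of_level (x : FN (M * q))
    (hx : (x : LaurentSeries Kbar) ∈ modularFunctionFieldBar M) (h1 : x ∈ V1 A q M)
    (h2 : x ∈ V2 A q M a b hab hq) :
    letI : NeZero q := neZero_of_mul_right q M
    ((red2 A q M a b hab hq ⟨x, h2⟩ : F1 A q M) : LaurentSeries (kV A))
      = qExpand (kV A) q ((red1 A q M ⟨x, h1⟩ : F1 A q M) : LaurentSeries (kV A)) := by
  have : NeZero q := neZero_of_mul_right q M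
  rw [red2_mk]
  show gaussRedV A ⟨((wq q M a b hab hq x : FN (M * q)) : LaurentSeries Kbar), h2⟩
    = qExpand (kV A) q (gaussRedV A ⟨(x : LaurentSeries Kbar), h1⟩)
  have e : (⟨((wq q M a b hab hq x : FN (M * q)) : LaurentSeries Kbar), h2⟩ : gaussRingV A)
      = ⟨qExpand Kbar q (x : LaurentSeries Kbar), _root_.Fermat.Agent.BAD.H73.qExpand_mem_gaussRingV A q h1⟩ :=
    Subtype.ext (coe_wq_of_level q M a b hab hq x hx)
  rw [e]
  exact _root_.Fermat.Agent.BAD.H73.gaussRedV_qExpand A q h1 _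

include hab hq in
/-- For a function of level `M`: `x ∈ V₂ ↔ x ∈ V₁`. -/
theorem mem_V2_iff_of_level (x : FN (M * q))
    (hx : (x : LaurentSeries Kbar) ∈ modularFunctionFieldBar M) :
    x ∈ V2 A q M a b hab hq ↔ x ∈ V1 A q M := by
  have : NeZero q := neZero_of_mul_right q M
  refine ⟨fun h2 => ?_, mem_V2_of_level A q M a b hab hq x hx⟩
  by_contra h1
  have hx0 : x ≠ 0 := by
    rintro rfl
    exact h1 (V1 A q M).zero_mem
  have hinv1 : x⁻¹ ∈ V1 A q M := ((V1 A q M).mem_or_inv_mem x).resolve_left h1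
  have hxi : ((x⁻¹ : FN (M * q)) : LaurentSeries Kbar) ∈ modularFunctionFieldBar M := by
    show ((x : LaurentSeries Kbar))⁻¹ ∈ modularFunctionFieldBar M
    exact (modularFunctionFieldBar M).inv_mem hx
  have hinv2 : x⁻¹ ∈ V2 A q M a b hab hq := mem_V2_of_level A q M a b hab hq _ hxi hinv1
  -- `x⁻¹` is not a unit of `V₁`, so `red₁ x⁻¹ = 0`, so `red₂ x⁻¹ = 0`
  have hr1 : red1 A q M ⟨x⁻¹, hinv1⟩ = 0 := by
    rw [red1_eq_zero_iff, mem_maximalIdeal_iff']
    right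
    show (x⁻¹)⁻¹ ∉ V1 A q M
    rwa [inv_inv]
  have hr2 : red2 A q M a b hab hq ⟨x⁻¹, hinv2⟩ = 0 := by
    apply Subtype.ext
    rw [coe_red2_of_level A q M a b hab hq _ hxi hinv1 hinv2, hr1]
    show qExpand (kV A) q 0 = 0
    exact map_zero _
  rw [red2_eq_zero_iff, mem_maximalIdeal_iff'] at hr2
  rcases hr2 with h0 | h0
  · exact hx0 (inv_eq_zero.mp h0)
  · apply h0
    show (x⁻¹)⁻¹ ∈ V2 A q M a b hab hq
    rwa [inv_inv]

variable (hA : A.LiesOverPrime q) (M' : ℕ)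
variable (hD : redField A (modularFunctionFieldBar (M * q)) (hSc A q M)
  = modularFunctionFieldFullC (kV A) M')

include hab in
/-- **`red₂ x = Fr (red₁ x)`** for `x` of level `M` (hcompat₂). -/
theorem red2_of_level (x : FN (M * q))
    (hx : (x : LaurentSeries Kbar) ∈ modularFunctionFieldBar M) (h1 : x ∈ V1 A q M)
    (h2 : x ∈ V2 A q M a b hab hq) :
    red2 A q M a b hab hq ⟨x, h2⟩ = FrF1 A q M hq hA M' hD (red1 A q M ⟨x, h1⟩) :=
  Subtype.ext (coe_red2_of_level A q M a b hab hq x hx h1 h2)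

end Level

end Fermat.Agent.BAD.H73

end
end
-- ==== END Fermat.Agent.BAD.H73_Compat2

-- ==== BEGIN Fermat.Agent.BAD.H79_SSD
section

/-!
# Item 65, package CONS-ss (helper79): the semistable Deuring datum of a total conservation datum

`TotData.toSSD T hP hd hP₁ hd₁ hd₂ hne : SSD K L k L₁ L₂` with
* `c₁.V = T.b₁.V`, `c₁.red = T.b₁.red`, `c₁.r = T.r₁`, `c₁.good = {z | ¬ T.IsNode z}`;
* `c₂.V = T.b₂.V`, `c₂.red = T.b₂.red`, `c₂.r = T.r₂`, `c₂.good = {w | ¬ T.IsNode (β⁻¹ w)}`;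
* `nodes = {(z, β z) | T.IsNode z}`.

Also: `isNode_of_ord_ne_zero` (a zero or pole of the reduction of a function without zero or pole
on the fibre is a node) and `card_le_card_nodes`.
-/

set_option autoImplicit false
set_option linter.style.haveILetI false

noncomputable section

open AlgebraicCurve

attribute [local instance] Classical.propDecidable

namespace Fermat.Agent.BAD.H79

open Fermat.Agent.RED.H17 Fermat.Agent.RED Fermat.Agent.BAD

namespace TotData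

variable {K L k L₁ L₂ : Type*} [Field K] [Field L] [Algebra K L] [Field k] [Field L₁]
  [Algebra k L₁] [Field L₂] [Algebra k L₂] {T : TotData K L k L₁ L₂}

/-! ### The partial reduction maps -/

theorem r₁_eq_some_iff {P : Place K L} {z : Place k L₁} :
    T.r₁ P = some z ↔ T.ρ P = z ∧ T.OnSide₁ P := by
  unfold r₁
  split_ifs with h
  · rw [Option.some_inj]
    exact ⟨fun h' => ⟨h', h⟩, fun h' => h'.1⟩
  · exact ⟨fun h' => absurd h' (by simp), fun h' => absurd h'.2 h⟩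

theorem r₂_eq_some_iff {P : Place K L} {w : Place k L₂} :
    T.r₂ P = some w ↔ T.β (T.ρ P) = w ∧ T.OnSide₂ P := by
  unfold r₂
  split_ifs with h
  · rw [Option.some_inj]
    exact ⟨fun h' => ⟨h', h⟩, fun h' => h'.1⟩
  · exact ⟨fun h' => absurd h' (by simp), fun h' => absurd h'.2 h⟩

theorem r₁_eq_none_iff {P : Place K L} : T.r₁ P = none ↔ ¬ T.OnSide₁ P := by
  unfold r₁
  split_ifs with h
  · exact ⟨fun h' => absurd h' (by simp), fun h' => absurd h h'⟩
  · exact ⟨fun _ => h, fun _ => rfl⟩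

theorem r₂_eq_none_iff {P : Place K L} : T.r₂ P = none ↔ ¬ T.OnSide₂ P := by
  unfold r₂
  split_ifs with h
  · exact ⟨fun h' => absurd h' (by simp), fun h' => absurd h h'⟩
  · exact ⟨fun _ => h, fun _ => rfl⟩

theorem fibre_r₁ (z : Place k L₁) : {P | T.r₁ P = some z} = T.S₁ z := by
  ext P
  exact r₁_eq_some_iff

theorem fibre_r₂ (z : Place k L₁) : {P | T.r₂ P = some (T.β z)} = T.S₂ z := by
  ext P
  rw [Set.mem_ofPred_eq, r₂_eq_some_iff, T.β.apply_eq_iff_eq]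
  rfl

/-! ### The divisor identities -/

/-- The divisor identity on the first side (as sums). -/
theorem fsum_S₁ [Infinite k] [IsAlgClosed K] (hP : HasPrincipalDivisors K L)
    (hd : ∀ v : Place K L, v.deg = 1) (hd₁ : ∀ v : Place k L₁, v.deg = 1)
    (hd₂ : ∀ v : Place k L₂, v.deg = 1) {z : Place k L₁} (hz : ¬ T.IsNode z) {g : L}
    (hg : T.p₁.IsGU g) : fsum (T.S₁ z) (dv hP g) = z.ord (T.p₁.rd g) := by
  obtain ⟨ε, hε⟩ := exists_eps hP hd₁ hd₂ hz
  exact hε.fsum_eq hP hd hg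

/-- The divisor identity on the second side (as sums). -/
theorem fsum_S₂ [Infinite k] [IsAlgClosed K] (hP : HasPrincipalDivisors K L)
    (hd : ∀ v : Place K L, v.deg = 1) (hd₁ : ∀ v : Place k L₁, v.deg = 1)
    (hd₂ : ∀ v : Place k L₂, v.deg = 1) {z : Place k L₁} (hz : ¬ T.IsNode z) {g : L}
    (hg : T.p₂.IsGU g) : fsum (T.S₂ z) (dv hP g) = (T.β z).ord (T.p₂.rd g) := by
  obtain ⟨ε, hε⟩ := exists_eps hP hd₁ hd₂ hz
  obtain ⟨c, hc0, hGU⟩ := T.p₁.exists_isGU_scale hg.ne_zero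
  have hcL : algebraMap K L c ≠ 0 := (map_ne_zero_iff _ (algebraMap K L).injective).mpr hc0
  have e : algebraMap K L c⁻¹ * (algebraMap K L c * g) = g := by
    rw [map_inv₀, inv_mul_cancel_left₀ hcL]
  have hGU2 : T.p₂.IsGU (algebraMap K L c⁻¹ * (algebraMap K L c * g)) := by rwa [e]
  have htot := T.tot_fsum hP hGU hGU2 z
  rw [e, dv_const_mul' hP hc0] at htot
  have h1 := hε.fsum_eq hP hd hGU
  rw [dv_const_mul' hP hc0] at h1
  have hset : {P | T.ρ P = z} = T.S₁ z ∪ T.S₂ z := by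
    ext P
    constructor
    · intro hPz
      rcases onSide_or (T := T) hP P with h | h
      · exact Or.inl ⟨hPz, h⟩
      · exact Or.inr ⟨hPz, h⟩
    · rintro (h | h)
      · exact h.1
      · exact h.1
  rw [hset, fsum_union _ (fun P h₁ h₂ => hε.not_both hP hd h₁.1 h₁.2 h₂.2)] at htot
  omega

/-- **(C-reg)** for the first component. -/
theorem DI₁ [Infinite k] [IsAlgClosed K] (hP : HasPrincipalDivisors K L)
    (hd : ∀ v : Place K L, v.deg = 1) (hd₁ : ∀ v : Place k L₁, v.deg = 1)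
    (hd₂ : ∀ v : Place k L₂, v.deg = 1) (u : T.b₁.V) (hu : T.b₁.red u ≠ 0) (D : Divisor K L)
    (hD : ∀ P, D P = P.ord (u : L)) (z : Place k L₁) (hz : ¬ T.IsNode z) :
    Finsupp.mapDomain T.r₁ D (some z) = z.ord (T.b₁.red u) := by
  have hGU : T.p₁.IsGU (u : L) := ⟨u.2, by rw [T.p₁.rd_of_mem u.2]; exact hu⟩
  rw [mapDomain_eq_fsum, fibre_r₁, eq_dv hP hD, fsum_S₁ hP hd hd₁ hd₂ hz hGU,
    T.p₁.rd_of_mem u.2]
  rfl

/-- **(C-reg)** for the second component. -/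
theorem DI₂ [Infinite k] [IsAlgClosed K] (hP : HasPrincipalDivisors K L)
    (hd : ∀ v : Place K L, v.deg = 1) (hd₁ : ∀ v : Place k L₁, v.deg = 1)
    (hd₂ : ∀ v : Place k L₂, v.deg = 1) (u : T.b₂.V) (hu : T.b₂.red u ≠ 0) (D : Divisor K L)
    (hD : ∀ P, D P = P.ord (u : L)) (w : Place k L₂) (hw : ¬ T.IsNode (T.β.symm w)) :
    Finsupp.mapDomain T.r₂ D (some w) = w.ord (T.b₂.red u) := by
  have hGU : T.p₂.IsGU (u : L) := ⟨u.2, by rw [T.p₂.rd_of_mem u.2]; exact hu⟩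
  have hwz : w = T.β (T.β.symm w) := (T.β.apply_symm_apply w).symm
  rw [mapDomain_eq_fsum]
  conv_lhs => rw [hwz]
  rw [fibre_r₂, eq_dv hP hD, fsum_S₂ hP hd hd₁ hd₂ hw hGU, T.p₂.rd_of_mem u.2, ← hwz]
  rfl

/-- **(C-node)**. -/
theorem DIn' [Infinite k] (hP : HasPrincipalDivisors K L) (z : Place k L₁) (hz : T.IsNode z)
    (u₁ : T.b₁.V) (u₂ : T.b₂.V) (h₁ : T.b₁.red u₁ ≠ 0) (h₂ : T.b₂.red u₂ ≠ 0)
    (hc : ∃ c : K, (u₂ : L) = algebraMap K L c * (u₁ : L)) (D : Divisor K L)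
    (hD : ∀ P, D P = P.ord (u₁ : L)) :
    Finsupp.mapDomain T.r₁ D (some z) = z.ord (T.b₁.red u₁) + (T.β z).ord (T.b₂.red u₂) := by
  rw [← T.tot u₁ u₂ h₁ h₂ hc D hD z, mapDomain_eq_fsum, mapDomain_eq_fsum, fibre_r₁]
  refine fsum_congr D fun P _ => ?_
  constructor
  · exact fun h => h.1
  · intro h
    have h' : T.ρ P = z := h
    exact ⟨h', IsNode.onSide₁ hP (by rw [h']; exact hz)⟩

/-- **(C-glue)**. -/
theorem glue' [Infinite k] (hP : HasPrincipalDivisors K L)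
    (hd₁ : ∀ v : Place k L₁, v.deg = 1) (z : Place k L₁) (hz : T.IsNode z)
    (f : L) (h₁ : f ∈ T.b₁.V) (h₂ : f ∈ T.b₂.V)
    (hreg : ∀ P, T.r₁ P = some z → 0 ≤ P.ord f) :
    ∃ a : k, VanAt z (T.b₁.red ⟨f, h₁⟩ - algebraMap k L₁ a) ∧
      VanAt (T.β z) (T.b₂.red ⟨f, h₂⟩ - algebraMap k L₂ a) := by
  have hR : T.InR z f := by
    refine ⟨h₁, h₂, fun P hPz => regAt_of_ord_nonneg (hreg P ?_)⟩
    rw [r₁_eq_some_iff]
    exact ⟨hPz, IsNode.onSide₁ hP (by rw [hPz]; exact hz)⟩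
  obtain ⟨a, ha⟩ := exists_value z (hd₁ z) (hR.regAt₁ hP)
  refine ⟨a, ?_, ?_⟩
  · have := ha
    rwa [T.p₁.rd_of_mem h₁] at this
  · have := (hz f hR a).mp ha
    rwa [T.p₂.rd_of_mem h₂] at this

/-! ### Finiteness of the set of nodes -/

theorem finite_nodes [Infinite k] (hP : HasPrincipalDivisors K L)
    (hP₁ : HasPrincipalDivisors k L₁) (T : TotData K L k L₁ L₂) : {z | T.IsNode z}.Finite := by
  obtain ⟨e₀, h₁, h₂, hr₁, hr₂⟩ := T.sep
  have hr₁' : T.p₁.rd e₀ ≠ 0 := by rw [T.p₁.rd_of_mem h₁]; exact hr₁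
  have hr₂' : T.p₂.rd e₀ = 0 := by rw [T.p₂.rd_of_mem h₂]; exact hr₂
  have hfin : (T.ρ '' {P : Place K L | P.ord e₀ ≠ 0} ∪
      {z : Place k L₁ | z.ord (T.p₁.rd e₀) ≠ 0}).Finite :=
    ((finite_ord_ne_zero hP e₀).image _).union (finite_ord_ne_zero hP₁ _)
  refine hfin.subset fun z hz => ?_
  by_contra hcon
  rw [Set.mem_union, not_or] at hcon
  obtain ⟨hc1, hc2⟩ := hcon
  have hR : T.InR z e₀ := by
    refine ⟨h₁, h₂, fun P hPz => regAt_of_ord_nonneg ?_⟩
    have : P.ord e₀ = 0 := by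
      by_contra hne
      exact hc1 ⟨P, hne, hPz⟩
    omega
  have hv : VanAt z (T.p₁.rd e₀ - algebraMap k L₁ 0) := by
    refine (hz e₀ hR 0).mpr ?_
    rw [hr₂', map_zero, sub_zero]
    exact vanAt_zero _
  rw [map_zero, sub_zero] at hv
  have := hv.ord_pos hr₁'
  rw [Set.mem_ofPred_eq, not_not] at hc2
  omega

/-- **A zero or pole of the first reduction of a function without zero or pole on the fibre is a
node.** -/
theorem isNode_of_ord_ne_zero [Infinite k] [IsAlgClosed K] (hP : HasPrincipalDivisors K L)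
    (hd : ∀ v : Place K L, v.deg = 1) (hd₁ : ∀ v : Place k L₁, v.deg = 1)
    (hd₂ : ∀ v : Place k L₂, v.deg = 1) {z : Place k L₁} {g : L} (hg : T.p₁.IsGU g)
    (h0 : ∀ P, T.ρ P = z → P.ord g = 0) (hne : z.ord (T.p₁.rd g) ≠ 0) : T.IsNode z := by
  by_contra hz
  have h1 := fsum_S₁ hP hd hd₁ hd₂ hz hg
  have h2 : fsum (T.S₁ z) (dv hP g) = 0 :=
    fsum_eq_zero fun P hPS => by rw [dv_apply]; exact h0 P hPS.1
  omega

/-- The same for the second reduction. -/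
theorem isNode_of_ord_ne_zero₂ [Infinite k] [IsAlgClosed K] (hP : HasPrincipalDivisors K L)
    (hd : ∀ v : Place K L, v.deg = 1) (hd₁ : ∀ v : Place k L₁, v.deg = 1)
    (hd₂ : ∀ v : Place k L₂, v.deg = 1) {z : Place k L₁} {g : L} (hg : T.p₂.IsGU g)
    (h0 : ∀ P, T.ρ P = z → P.ord g = 0) (hne : (T.β z).ord (T.p₂.rd g) ≠ 0) : T.IsNode z := by
  by_contra hz
  have h1 := fsum_S₂ hP hd hd₁ hd₂ hz hg
  have h2 : fsum (T.S₂ z) (dv hP g) = 0 :=
    fsum_eq_zero fun P hPS => by rw [dv_apply]; exact h0 P hPS.1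
  omega

/-! ### The semistable Deuring datum -/

/-- The set of nodes as a finset of pairs of branches. -/
def nodes [Infinite k] (T : TotData K L k L₁ L₂) (hP : HasPrincipalDivisors K L)
    (hP₁ : HasPrincipalDivisors k L₁) : Finset (Place k L₁ × Place k L₂) :=
  (finite_nodes hP hP₁ T).toFinset.image fun z => (z, T.β z)

theorem mem_nodes [Infinite k] (hP : HasPrincipalDivisors K L)
    (hP₁ : HasPrincipalDivisors k L₁) {s : Place k L₁ × Place k L₂} :
    s ∈ T.nodes hP hP₁ ↔ T.IsNode s.1 ∧ s.2 = T.β s.1 := by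
  unfold nodes
  rw [Finset.mem_image]
  constructor
  · rintro ⟨z, hz, rfl⟩
    rw [Set.Finite.mem_toFinset] at hz
    exact ⟨hz, rfl⟩
  · rintro ⟨h1, h2⟩
    refine ⟨s.1, ?_, ?_⟩
    · rw [Set.Finite.mem_toFinset]; exact h1
    · rw [← h2]

theorem card_le_card_nodes [Infinite k] (hP : HasPrincipalDivisors K L)
    (hP₁ : HasPrincipalDivisors k L₁) (Z : Finset (Place k L₁)) (hZ : ∀ z ∈ Z, T.IsNode z) :
    Z.card ≤ (T.nodes hP hP₁).card := by
  have h1 : Z.card = (Z.image fun z => (z, T.β z)).card := by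
    rw [Finset.card_image_of_injective]
    intro z z' h
    exact (Prod.mk.inj h).1
  rw [h1]
  refine Finset.card_le_card fun s hs => ?_
  obtain ⟨z, hz, rfl⟩ := Finset.mem_image.mp hs
  exact (mem_nodes hP hP₁).mpr ⟨hZ z hz, rfl⟩

/-- **The semistable Deuring datum of a total conservation datum.** -/
def toSSD [Infinite k] [IsAlgClosed K] (T : TotData K L k L₁ L₂)
    (hP : HasPrincipalDivisors K L) (hd : ∀ v : Place K L, v.deg = 1)
    (hP₁ : HasPrincipalDivisors k L₁) (hd₁ : ∀ v : Place k L₁, v.deg = 1)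
    (hd₂ : ∀ v : Place k L₂, v.deg = 1) (hne : ∃ z, T.IsNode z) : SSD K L k L₁ L₂ where
  c₁ :=
    { V := T.b₁.V
      red := T.b₁.red
      red_eq_zero_iff := T.b₁.red_eq_zero_iff
      red_surj := T.b₁.red_surj
      exists_scale := T.b₁.exists_scale
      red_const := T.b₁.red_const
      const_surj := T.b₁.const_surj
      r := T.r₁
      good := {z | ¬ T.IsNode z}
      DI := fun u hu D hD z hz => DI₁ hP hd hd₁ hd₂ u hu D hD z hz }
  c₂ :=
    { V := T.b₂.V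
      red := T.b₂.red
      red_eq_zero_iff := T.b₂.red_eq_zero_iff
      red_surj := T.b₂.red_surj
      exists_scale := T.b₂.exists_scale
      red_const := T.b₂.red_const
      const_surj := T.b₂.const_surj
      r := T.r₂
      good := {w | ¬ T.IsNode (T.β.symm w)}
      DI := fun u hu D hD w hw => DI₂ hP hd hd₁ hd₂ u hu D hD w hw }
  nodes := T.nodes hP hP₁
  nodes_nonempty := by
    obtain ⟨z, hz⟩ := hne
    exact ⟨(z, T.β z), (mem_nodes hP hP₁).mpr ⟨hz, rfl⟩⟩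
  inj₁ := by
    intro s hs s' hs' h
    obtain ⟨-, h2⟩ := (mem_nodes hP hP₁).mp hs
    obtain ⟨-, h2'⟩ := (mem_nodes hP hP₁).mp hs'
    refine Prod.ext h ?_
    rw [h2, h2', h]
  inj₂ := by
    intro s hs s' hs' h
    obtain ⟨-, h2⟩ := (mem_nodes hP hP₁).mp hs
    obtain ⟨-, h2'⟩ := (mem_nodes hP hP₁).mp hs'
    refine Prod.ext ?_ h
    rw [h2, h2'] at h
    exact T.β.injective h
  good₁ := by
    intro Q
    constructor
    · intro hQ s hs hsQ
      exact hQ (hsQ ▸ ((mem_nodes hP hP₁).mp hs).1)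
    · intro h hQ
      exact h (Q, T.β Q) ((mem_nodes hP hP₁).mpr ⟨hQ, rfl⟩) rfl
  good₂ := by
    intro Q
    constructor
    · intro hQ s hs hsQ
      obtain ⟨h1, h2⟩ := (mem_nodes hP hP₁).mp hs
      apply hQ
      rw [← hsQ, h2, T.β.symm_apply_apply]
      exact h1
    · intro h hQ
      exact h (T.β.symm Q, Q) ((mem_nodes hP hP₁).mpr ⟨hQ, (T.β.apply_symm_apply Q).symm⟩) rfl
  r_cases := by
    intro P
    by_cases hz : T.IsNode (T.ρ P)
    · right; right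
      exact ⟨(T.ρ P, T.β (T.ρ P)), (mem_nodes hP hP₁).mpr ⟨hz, rfl⟩,
        r₁_eq_some_iff.mpr ⟨rfl, IsNode.onSide₁ hP hz⟩,
        r₂_eq_some_iff.mpr ⟨rfl, IsNode.onSide₂ hP hz⟩⟩
    · rcases onSide_or (T := T) hP P with h | h
      · left
        exact ⟨T.ρ P, hz, r₁_eq_some_iff.mpr ⟨rfl, h⟩,
          r₂_eq_none_iff.mpr fun h' => not_onSide_both hP hd hd₁ hd₂ hz h h'⟩
      · right; left
        refine ⟨T.β (T.ρ P), ?_, r₂_eq_some_iff.mpr ⟨rfl, h⟩,
          r₁_eq_none_iff.mpr fun h' => not_onSide_both hP hd hd₁ hd₂ hz h' h⟩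
        show ¬ T.IsNode (T.β.symm (T.β (T.ρ P)))
        rw [T.β.symm_apply_apply]
        exact hz
  const_mem := T.const_mem
  const_red := T.const_red
  DIn := by
    intro s hs u₁ u₂ h₁ h₂ hc D hD
    obtain ⟨h1, h2⟩ := (mem_nodes hP hP₁).mp hs
    rw [h2]
    exact DIn' hP s.1 h1 u₁ u₂ h₁ h₂ hc D hD
  glue := by
    intro s hs f h₁ h₂ hreg
    obtain ⟨h1, h2⟩ := (mem_nodes hP hP₁).mp hs
    rw [h2]
    exact glue' hP hd₁ s.1 h1 f h₁ h₂ hreg

section simp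

variable [Infinite k] [IsAlgClosed K] (T : TotData K L k L₁ L₂)
  (hP : HasPrincipalDivisors K L) (hd : ∀ v : Place K L, v.deg = 1)
  (hP₁ : HasPrincipalDivisors k L₁) (hd₁ : ∀ v : Place k L₁, v.deg = 1)
  (hd₂ : ∀ v : Place k L₂, v.deg = 1) (hne : ∃ z, T.IsNode z)

@[simp] theorem toSSD_c₁_V : (T.toSSD hP hd hP₁ hd₁ hd₂ hne).c₁.V = T.b₁.V := rfl

@[simp] theorem toSSD_c₂_V : (T.toSSD hP hd hP₁ hd₁ hd₂ hne).c₂.V = T.b₂.V := rfl

@[simp] theorem toSSD_c₁_red : (T.toSSD hP hd hP₁ hd₁ hd₂ hne).c₁.red = T.b₁.red := rfl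

@[simp] theorem toSSD_c₂_red : (T.toSSD hP hd hP₁ hd₁ hd₂ hne).c₂.red = T.b₂.red := rfl

@[simp] theorem toSSD_c₁_r : (T.toSSD hP hd hP₁ hd₁ hd₂ hne).c₁.r = T.r₁ := rfl

@[simp] theorem toSSD_c₂_r : (T.toSSD hP hd hP₁ hd₁ hd₂ hne).c₂.r = T.r₂ := rfl

@[simp] theorem toSSD_nodes : (T.toSSD hP hd hP₁ hd₁ hd₂ hne).nodes = T.nodes hP hP₁ := rfl

theorem card_le_toSSD_nodes (Z : Finset (Place k L₁)) (hZ : ∀ z ∈ Z, T.IsNode z) :
    Z.card ≤ (T.toSSD hP hd hP₁ hd₁ hd₂ hne).nodes.card :=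
  card_le_card_nodes hP hP₁ Z hZ

end simp

end TotData

end Fermat.Agent.BAD.H79

end
end
-- ==== END Fermat.Agent.BAD.H79_SSD

-- ==== BEGIN Fermat.Agent.BAD.H88_VM2
section
attribute [local instance 10000] SubalgebraClass.toAlgebra
attribute [local instance 10000] HahnSeries.powerSeriesAlgebra

/-!
# Item 65 (BAD_q), package V2 (helper88), part 6: `w_q ∘ α = β` and `V₂ ∩ F_M = V_M`
-/

set_option autoImplicit false
set_option synthInstance.maxHeartbeats 400000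
set_option maxHeartbeats 1000000
set_option linter.unusedSectionVars false
set_option linter.style.haveILetI false

noncomputable section

namespace Fermat.Agent.BAD.H88

open Fermat.Agent.S24 ModularCurve Fermat.Agent.S28 Fermat.Agent.S28.H73 Fermat.Agent.RED.H73

section WqLevel

variable (A : ValuationSubring Kbar) (q M : ℕ) [NeZero M] [NeZero q]
variable (a b : ℤ) (hab : a * q + b * M = 1) (hq : q.Prime)

include hab hq

/-- `w_q ∘ α = β`. -/
theorem wq_comp_alpha :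
    (wq q M a b hab hq).toAlgHom.comp (heckeAlphaBar Kbar M q) = heckeBetaBar Kbar M q := by
  apply algHom_ext_of_adjoin _ (adjoin_jdF M)
  rintro x ⟨d, hd0, hd, rfl⟩
  haveI : NeZero (d * q) := ⟨(Nat.mul_pos (Nat.pos_of_ne_zero (NeZero.ne d)) hq.pos).ne'⟩
  rw [AlgHom.comp_apply, alpha_jdF, beta_jdF]
  exact wqHom_jdF q M a b hab hq d hd

/-- `w_q ∘ β = α`. -/
theorem wq_comp_beta :
    (wq q M a b hab hq).toAlgHom.comp (heckeBetaBar Kbar M q) = heckeAlphaBar Kbar M q := by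
  apply algHom_ext_of_adjoin _ (adjoin_jdF M)
  rintro x ⟨d, hd0, hd, rfl⟩
  haveI : NeZero (d * q) := ⟨(Nat.mul_pos (Nat.pos_of_ne_zero (NeZero.ne d)) hq.pos).ne'⟩
  rw [AlgHom.comp_apply, alpha_jdF, beta_jdF]
  exact wqHom_jdF_mul q M a b hab hq d hd

theorem wq_alpha (x : FN M) :
    wq q M a b hab hq (heckeAlphaBar Kbar M q x) = heckeBetaBar Kbar M q x :=
  congrArg (fun f : FN M →ₐ[Kbar] FN (M * q) => f x) (wq_comp_alpha q M a b hab hq)

theorem wq_beta (x : FN M) :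
    wq q M a b hab hq (heckeBetaBar Kbar M q x) = heckeAlphaBar Kbar M q x :=
  congrArg (fun f : FN M →ₐ[Kbar] FN (M * q) => f x) (wq_comp_beta q M a b hab hq)

/-- `α x ∈ V₂ ↔ x ∈ V_M`. -/
theorem alpha_mem_V2_iff (x : FN M) :
    heckeAlphaBar Kbar M q x ∈ V2 A q M a b hab hq ↔ x ∈ VM A M := by
  rw [mem_V2_iff, wq_alpha, beta_mem_V1_iff]

/-- `β x ∈ V₂ ↔ x ∈ V_M`. -/
theorem beta_mem_V2_iff (x : FN M) :
    heckeBetaBar Kbar M q x ∈ V2 A q M a b hab hq ↔ x ∈ VM A M := by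
  rw [mem_V2_iff, wq_beta, alpha_mem_V1_iff]

/-- **`V₁ ∩ F_M = V_M`.** -/
theorem V1_comap_alpha :
    (V1 A q M).comap (heckeAlphaBar Kbar M q).toRingHom = VM A M := by
  apply SetLike.ext
  intro x
  rw [ValuationSubring.mem_comap]
  exact alpha_mem_V1_iff A q M x

/-- **`V₂ ∩ F_M = V_M`.** -/
theorem V2_comap_alpha :
    (V2 A q M a b hab hq).comap (heckeAlphaBar Kbar M q).toRingHom = VM A M := by
  apply SetLike.ext
  intro x
  rw [ValuationSubring.mem_comap]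
  exact alpha_mem_V2_iff A q M a b hab hq x

/-- `red₂ (α x) = (red_M x)(q^q)` in `k((q))`. -/
theorem red2_alpha (x : FN M) (h : x ∈ VM A M)
    (h' : heckeAlphaBar Kbar M q x ∈ V2 A q M a b hab hq) :
    ((red2 A q M a b hab hq ⟨_, h'⟩ : F1 A q M) : LaurentSeries (kV A))
      = qExpand (kV A) q ((redM A M ⟨x, h⟩ : FM A M) : LaurentSeries (kV A)) := by
  have hb : heckeBetaBar Kbar M q x ∈ V1 A q M := (beta_mem_V1_iff A q M x).mpr h
  have e : red2 A q M a b hab hq ⟨_, h'⟩ = red1 A q M ⟨heckeBetaBar Kbar M q x, hb⟩ := by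
    rw [red2_mk]
    congr 1
    exact Subtype.ext (wq_alpha q M a b hab hq x)
  rw [e]
  exact red1_beta A q M x h hb

/-- `red₂ (β x) = red_M x` in `k((q))`. -/
theorem red2_beta (x : FN M) (h : x ∈ VM A M)
    (h' : heckeBetaBar Kbar M q x ∈ V2 A q M a b hab hq) :
    ((red2 A q M a b hab hq ⟨_, h'⟩ : F1 A q M) : LaurentSeries (kV A))
      = ((redM A M ⟨x, h⟩ : FM A M) : LaurentSeries (kV A)) := by
  have ha : heckeAlphaBar Kbar M q x ∈ V1 A q M := (alpha_mem_V1_iff A q M x).mpr h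
  have e : red2 A q M a b hab hq ⟨_, h'⟩ = red1 A q M ⟨heckeAlphaBar Kbar M q x, ha⟩ := by
    rw [red2_mk]
    congr 1
    exact Subtype.ext (wq_beta q M a b hab hq x)
  rw [e]
  exact red1_alpha A q M x h ha

end WqLevel

end Fermat.Agent.BAD.H88

end
end
-- ==== END Fermat.Agent.BAD.H88_VM2

-- ==== BEGIN Fermat.Agent.GTor.Clo.Ratio
section

/-!
# G-TOR A3–A5 (WP Ratio): ratios of modular forms inside the Galois closure

For `f ∈ F_ℂ`, `f ≠ 0`, with `f = A / B` as `q`-expansions (`IsRatio`), and `phi f = a / b` with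
`a, b ∈ AT N ⊂ Hol`: `a * B = b * A` as functions on `ℍ` (both sides have the same expansion in
`u = exp (2 π i τ / N)`: `uExp_spec`, `UL_phi`, Mathlib's `hasSum_qExpansion` for `A`, `B`, and
`HasUExp.unique`/`HasUExp.mul`). Hence the orders at a point `z` satisfy
`ord_z a - ord_z b = ord_z A - ord_z B`, and the same for the orders in `u` at `∞` of the
translates by `σ` (`(σ⁻¹ • a) * (B ∣[k] σ) = (σ⁻¹ • b) * (A ∣[k] σ)`).

Note `Clo.Kbar` unfolds to `ℂ`, so `FN N` and `Fermat.Agent.GTor.FNL ℂ N` are definitionally equal.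

Every `sorry` in this file belongs to WP Ratio (fill in place, keep all signatures).
-/

set_option autoImplicit false

noncomputable section

namespace Fermat.Agent.GTor.Clo

open Fermat.Agent.S24 Fermat.Agent.GTor

open ModularCurve AlgebraicCurve UpperHalfPlane WithZero
open scoped MatrixGroups Manifold ModularForm

/-- The identification of the two names of the function field over `ℂ`. -/
def toFNL (N : ℕ) (f : _root_.Fermat.Agent.GTor.Clo.FN N) : FNL ℂ N := f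

/-- The valuation of the closure at `z` on a ratio of modular forms. -/
theorem wN_of_isRatio (N : ℕ) [NeZero N] (z : ℍ) (f : _root_.Fermat.Agent.GTor.Clo.FN N) (hf : f ≠ 0) (k : ℤ)
    (A B : ModularForm (CongruenceSubgroup.Gamma0 N) k) (h : IsRatio N (toFNL N f) A B) :
    _root_.Fermat.Agent.GTor.Clo.wN N z (algebraMap (_root_.Fermat.Agent.GTor.Clo.FN N) (_root_.Fermat.Agent.GTor.Clo.LN N) f) = exp (-(ordAt A z - ordAt B z)) :=
  h72_wN_of_isRatio N z f hf k A B h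

/-- The valuation of the closure at the cusp `σ∞` on a ratio of modular forms. -/
theorem winfN_of_isRatio (N : ℕ) [NeZero N] (σ : SL(2, ℤ)) (f : _root_.Fermat.Agent.GTor.Clo.FN N) (hf : f ≠ 0) (k : ℤ)
    (A B : ModularForm (CongruenceSubgroup.Gamma0 N) k) (h : IsRatio N (toFNL N f) A B) :
    _root_.Fermat.Agent.GTor.Clo.winfN N (_root_.Fermat.Agent.GTor.Clo.piN N σ⁻¹ (algebraMap (_root_.Fermat.Agent.GTor.Clo.FN N) (_root_.Fermat.Agent.GTor.Clo.LN N) f))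
      = exp (-(ordCusp N k A σ - ordCusp N k B σ)) :=
  Fermat.Agent.GTor.Clo.H96.winfN_of_isRatio_cusp N σ f hf k A B h

end Fermat.Agent.GTor.Clo

end
end
-- ==== END Fermat.Agent.GTor.Clo.Ratio

-- ==== BEGIN Fermat.Agent.GTor.H2_HKalgNS
section

/-!
# G-TOR, package HK-alg (helper2): the norm series from `Norm_α (β f) = Norm_β (α f)`

helper95's ES-2 (`H95.norm_alpha_qExpand_zetaL`) computes the expansion of `Norm_β (α g)`.
`Stmt_NormSwap N` says `Norm_α (β f) = Norm_β (α f)`; together they give `Stmt_NormSeries N`.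
-/

set_option autoImplicit false
set_option linter.style.haveILetI false
set_option linter.unusedSectionVars false
set_option linter.dupNamespace false

noncomputable section

namespace Fermat.Agent.GTor.H2

open AlgebraicCurve ModularCurve Fermat.Agent.S24 Fermat.Agent.RED.H95

/-- The Kummer function of the transposed correspondence: the norm along `β` of `α f`. -/
def heckeNormFnT (L : Type) [Field L] [Algebra ℚ L] (N ℓ : ℕ) [NeZero N] [NeZero ℓ]
    (f : FNL L N) : FNL L N :=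
  letI := algebraAlong (heckeBetaBar L N ℓ)
  Algebra.norm (FNL L N) (heckeAlphaBar L N ℓ f)

/-- **NormSwap**: `Norm_α (β f) = Norm_β (α f)`. -/
def Stmt_NormSwap (N : ℕ) [NeZero N] : Prop :=
  ∀ (ℓ : ℕ) (hℓ : ℓ.Prime) (_ : ¬ ℓ ∣ N) (f : FNL (AlgebraicClosure ℚ) N),
    haveI : NeZero ℓ := ⟨hℓ.ne_zero⟩
    heckeNormFn (AlgebraicClosure ℚ) N ℓ f = heckeNormFnT (AlgebraicClosure ℚ) N ℓ f

theorem twist_eq_twistBy {K : Type*} [Field K] (z : Kˣ) (s : LaurentSeries K) :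
    twist (z : K) s = H44.twistBy z s := by
  ext m
  rw [twist_coeff, H44.twistBy_coeff, Units.val_zpow_eq_zpow_val]

/-- The expansion of `Norm_β (α f)` is the norm series. -/
theorem heckeNormFnT_coe (N ℓ : ℕ) [NeZero N] [NeZero ℓ] (hℓ : ℓ.Prime) (hN : ¬ ℓ ∣ N)
    (f : FNL (AlgebraicClosure ℚ) N) :
    ((heckeNormFnT (AlgebraicClosure ℚ) N ℓ f : FNL (AlgebraicClosure ℚ) N) :
        LaurentSeries (AlgebraicClosure ℚ))
      = H44.normSeries (AlgebraicClosure ℚ) ℓ (f : LaurentSeries (AlgebraicClosure ℚ)) := by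
  have hz : IsPrimitiveRoot (zetaL N ℓ) ℓ := isPrimitiveRoot_zetaL
  have hz0 : zetaL N ℓ ≠ 0 := hz.ne_zero (NeZero.ne ℓ)
  have hζ : IsPrimitiveRoot (Units.mk0 (zetaL N ℓ) hz0) ℓ :=
    IsPrimitiveRoot.coe_units_iff.mp (by simpa using hz)
  refine H44.eq_normSeries_of_qExpand hζ ?_
  have h := norm_alpha_qExpand_zetaL (N := N) (ℓ := ℓ) hℓ hN f
  rw [H44.twistProd_eq_prod_range hζ, ← Fin.prod_univ_eq_prod_range]
  refine h.trans ?_
  congr 1
  refine Finset.prod_congr rfl fun b _ => ?_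
  rw [← twist_eq_twistBy, Units.val_pow_eq_pow_val, Units.val_mk0]

theorem normSeries_of_swap (N : ℕ) [NeZero N] (h : Stmt_NormSwap N) : Stmt_NormSeries N := by
  intro ℓ hℓ hℓN f
  haveI : NeZero ℓ := ⟨hℓ.ne_zero⟩
  show ((heckeNormFn (AlgebraicClosure ℚ) N ℓ f : FNL (AlgebraicClosure ℚ) N) :
        LaurentSeries (AlgebraicClosure ℚ)) = _
  rw [h ℓ hℓ hℓN f]
  exact heckeNormFnT_coe N ℓ hℓ hℓN f

end Fermat.Agent.GTor.H2

end
end
-- ==== END Fermat.Agent.GTor.H2_HKalgNS
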