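-- GENERATED (merged mirror, NOTES/tools/trim/merge3_helper67.py): 7 modules of the originals, bodies verbatim.
import Mathlib
import Fermat.Agent.Zm.S35_L12_001
import Fermat.Agent.Zm.S35_L01_002
import Fermat.Agent.Zm.S35_L08_001
import Fermat.Agent.Zm.S35_L07_003
import Fermat.Agent.Zm.S35_L06_003
import Fermat.Agent.Zm.S35_L10_003
import Fermat.Agent.Zm.S35_L01_005

-- ==== BEGIN Fermat.Agent.RED.H51_NDCore
section

/-!
# G-RED package NDESC (helper51), part 2: the abstract norm descent

`F'/F` and `Ft'/Ft` finite extensions of function fields (over algebraically closed `K`, `k`),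
`V = V' ∩ F` valuation rings with residue fields `Ft ⊆ Ft'`, `[F' : F] = [Ft' : Ft]`, and
`r' : Place K F' → Place k Ft'` with the conservation law.  Then `ρ = restrict ∘ r'` factors
through the restriction of places, the induced `r` has the conservation law, and the moving
lemma descends.
-/

set_option autoImplicit false
set_option linter.style.haveILetI false
set_option linter.unusedSectionVars false

noncomputable section

open AlgebraicCurve IntermediateField

namespace Fermat.Agent.RED.H51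

/-! ### Generic facts on extensions of function fields -/

section Generic

variable {K F F' : Type} [Field K] [Field F] [Field F'] [Algebra K F] [Algebra K F']
  [Algebra F F'] [IsScalarTower K F F'] [Module.Finite F F']

theorem inertiaDeg_eq_one (hdeg : ∀ v : Place K F, v.deg = 1)
    (hdeg' : ∀ w : Place K F', w.deg = 1) (w : Place K F') : w.inertiaDeg F = 1 := by
  have h := w.deg_restrict_mul_inertiaDeg (F := F)
  rw [hdeg, hdeg', one_mul] at h
  exact h

theorem pushforward_eq_mapDomain (hdeg : ∀ v : Place K F, v.deg = 1)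
    (hdeg' : ∀ w : Place K F', w.deg = 1) (D : Divisor K F') :
    Divisor.pushforward F D = Finsupp.mapDomain (fun w : Place K F' => w.restrict F) D := by
  induction D using Finsupp.induction with
  | zero => simp
  | single_add w n D _ _ ih =>
    rw [map_add, Finsupp.mapDomain_add, ih, Divisor.pushforward_single,
      inertiaDeg_eq_one hdeg hdeg' w, Nat.cast_one, mul_one, Finsupp.mapDomain_single]

variable [HasPrincipalDivisors K F']

theorem mapDomain_restrict_pullback
    (hsum : ∀ v : Place K F, ∑ w ∈ v.fiber F', w.ramificationIndex F = Module.finrank F F')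
    (D : Divisor K F) :
    Finsupp.mapDomain (fun w : Place K F' => w.restrict F) (Divisor.pullback F' D)
      = (Module.finrank F F' : ℤ) • D := by
  induction D using Finsupp.induction with
  | zero => simp
  | single_add v n D _ _ ih =>
    rw [map_add, Finsupp.mapDomain_add, ih, smul_add]
    congr 1
    rw [Divisor.pullback_single, ← Finsupp.mapDomain.addMonoidHom_apply, map_sum]
    have h1 : ∀ w ∈ v.fiber F', Finsupp.mapDomain.addMonoidHom (fun w : Place K F' => w.restrict F)
        (Finsupp.single w (n * (w.ramificationIndex F : ℤ)))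
        = Finsupp.single v (n * (w.ramificationIndex F : ℤ)) := by
      intro w hw
      rw [Finsupp.mapDomain.addMonoidHom_apply, Finsupp.mapDomain_single, Place.mem_fiber.mp hw]
    rw [Finset.sum_congr rfl h1, ← Finsupp.single_finsetSum, ← Finset.mul_sum, ← Nat.cast_sum,
      hsum v, Finsupp.smul_single, smul_eq_mul, mul_comm]

theorem fiber_nonempty
    (hsum : ∀ v : Place K F, ∑ w ∈ v.fiber F', w.ramificationIndex F = Module.finrank F F')
    (v : Place K F) : ∃ w : Place K F', w.restrict F = v := by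
  have hpos : 0 < Module.finrank F F' := Module.finrank_pos
  have h := hsum v
  by_contra hcon
  have hempty : v.fiber F' = ∅ := by
    rw [Finset.eq_empty_iff_forall_notMem]
    intro w hw
    exact hcon ⟨w, Place.mem_fiber.mp hw⟩
  rw [hempty, Finset.sum_empty] at h
  omega

end Generic

/-! ### The abstract reduction setting -/

/-- A pair of compatible valuation rings `V = V' ∩ F` with reduction maps onto `Ft ⊆ Ft'`,
of Gauss type (constants scale every element to a unit), with `[F' : F] = [Ft' : Ft]`. -/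
structure RedPair (K F F' Ft Ft' : Type) [Field K] [Field F] [Field F'] [Field Ft] [Field Ft']
    [Algebra K F'] [Algebra F F'] [Algebra Ft Ft'] where
  /-- the valuation ring of `F` -/
  V : ValuationSubring F
  /-- the valuation ring of `F'` -/
  V' : ValuationSubring F'
  /-- the reduction map of `F` -/
  red : ↥V →+* Ft
  /-- the reduction map of `F'` -/
  red' : ↥V' →+* Ft'
  mem_iff : ∀ a : F, a ∈ V ↔ algebraMap F F' a ∈ V'
  red_compat : ∀ (a : ↥V) (ha : algebraMap F F' (a : F) ∈ V'),
    red' ⟨algebraMap F F' (a : F), ha⟩ = algebraMap Ft Ft' (red a)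
  red'_surj : Function.Surjective red'
  red'_eq_zero : ∀ a : ↥V', red' a = 0 ↔ ¬ IsUnit a
  scale' : ∀ f : F', f ≠ 0 →
    ∃ c : K, c ≠ 0 ∧ ∃ u : (↥V')ˣ, f = algebraMap K F' c * ((u : ↥V') : F')
  finrank_eq : Module.finrank F F' = Module.finrank Ft Ft'

section Red

variable {K k F F' Ft Ft' : Type} [Field K] [Field k] [Field F] [Field F'] [Field Ft] [Field Ft']
  [Algebra K F] [Algebra K F'] [Algebra F F'] [IsScalarTower K F F'] [Module.Finite F F']
  [Algebra k Ft] [Algebra k Ft'] [Algebra Ft Ft'] [IsScalarTower k Ft Ft'] [Module.Finite Ft Ft']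

/-- The conservation law for `(V, red, r)`. -/
def IsRedAbs (V : ValuationSubring F) (red : ↥V →+* Ft) (r : Place K F → Place k Ft) : Prop :=
  ∀ f : ↥V, IsUnit f → ∀ D : Divisor K F, (∀ P, D P = P.ord (f : F)) →
    ∀ Q : Place k Ft, Finsupp.mapDomain r D Q = Q.ord (red f)

/-- The moving lemma for `(V, r)`. -/
def HasMoveAbs (V : ValuationSubring F) (r : Place K F → Place k Ft) : Prop :=
  ∀ (P : Place K F) (S : Finset (Place k Ft)),
    ∃ (n : ℕ) (f : ↥V), 0 < n ∧ IsUnit f ∧ P.ord (f : F) = -(n : ℤ) ∧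
      ∀ P' : Place K F, P' ≠ P →
        0 ≤ P'.ord (f : F) ∧ (0 < P'.ord (f : F) → r P' ∉ S ∧ r P' ≠ r P)

namespace RedPair

variable (S : RedPair K F F' Ft Ft')

/-- The inclusion `V → V'`. -/
def incl (a : ↥S.V) : ↥S.V' := ⟨algebraMap F F' (a : F), (S.mem_iff a).1 a.2⟩

theorem coe_incl (a : ↥S.V) : ((S.incl a : ↥S.V') : F') = algebraMap F F' (a : F) := rfl

theorem red'_incl (a : ↥S.V) : S.red' (S.incl a) = algebraMap Ft Ft' (S.red a) :=
  S.red_compat a _

theorem isUnit_iff_of_valuationSubring {L : Type} [Field L] (A : ValuationSubring L) (x : ↥A) :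
    IsUnit x ↔ (x : L) ≠ 0 ∧ (x : L)⁻¹ ∈ A := by
  constructor
  · intro hx
    obtain ⟨y, hy⟩ := hx.exists_right_inv
    have hxy : (x : L) * (y : L) = 1 := congrArg Subtype.val hy
    have hx0 : (x : L) ≠ 0 := left_ne_zero_of_mul_eq_one hxy
    refine ⟨hx0, ?_⟩
    rw [← eq_inv_of_mul_eq_one_right hxy]
    exact y.2
  · rintro ⟨hx0, hinv⟩
    exact IsUnit.of_mul_eq_one ⟨(x : L)⁻¹, hinv⟩ (Subtype.ext (mul_inv_cancel₀ hx0))

theorem isUnit_incl_iff (a : ↥S.V) : IsUnit (S.incl a) ↔ IsUnit a := by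
  rw [isUnit_iff_of_valuationSubring, isUnit_iff_of_valuationSubring, coe_incl,
    ← map_inv₀, ← S.mem_iff, Ne, map_eq_zero]

theorem red_eq_zero (a : ↥S.V) : S.red a = 0 ↔ ¬ IsUnit a := by
  rw [← S.isUnit_incl_iff, ← S.red'_eq_zero, S.red'_incl]
  exact (map_eq_zero_iff _ (algebraMap Ft Ft').injective).symm

theorem red_ne_zero {a : ↥S.V} (ha : IsUnit a) : S.red a ≠ 0 := fun h =>
  (S.red_eq_zero a).1 h ha

theorem red'_ne_zero {a : ↥S.V'} (ha : IsUnit a) : S.red' a ≠ 0 := fun h =>
  (S.red'_eq_zero a).1 h ha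

theorem ne_zero_of_isUnit' {a : ↥S.V'} (ha : IsUnit a) : (a : F') ≠ 0 :=
  ((isUnit_iff_of_valuationSubring S.V' a).1 ha).1

/-- The norm of an element of `V'`, as an element of `V`. -/
theorem exists_norm (hNR : Stmt_NormRedAbs) (f : ↥S.V') :
    ∃ g : ↥S.V, (g : F) = Algebra.norm F (f : F') ∧ S.red g = Algebra.norm Ft (S.red' f) := by
  obtain ⟨hN, h⟩ := hNR F F' Ft Ft' S.V S.V' S.red S.red' S.mem_iff S.red'_surj S.red'_eq_zero
    S.red_compat S.finrank_eq f
  exact ⟨⟨_, hN⟩, rfl, h⟩

theorem exists_norm_unit (hNR : Stmt_NormRedAbs) {f : ↥S.V'} (hf : IsUnit f) :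
    ∃ g : ↥S.V, IsUnit g ∧ (g : F) = Algebra.norm F (f : F') ∧
      S.red g = Algebra.norm Ft (S.red' f) := by
  obtain ⟨g, hg, hred⟩ := S.exists_norm hNR f
  refine ⟨g, ?_, hg, hred⟩
  by_contra hcon
  have h0 := (S.red_eq_zero g).2 hcon
  rw [hred, Algebra.norm_eq_zero_iff] at h0
  exact S.red'_ne_zero hf h0

end RedPair

end Red

/-! ### The facts on function fields which are used -/

section Facts

variable (K F F' : Type) [Field K] [Field F] [Field F'] [Algebra K F] [Algebra K F']
  [Algebra F F'] [IsScalarTower K F F'] [Module.Finite F F'] [HasPrincipalDivisors K F']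

/-- The facts on a finite extension `F'/F` of function fields used in the descent. -/
structure FFFacts : Prop where
  deg : ∀ v : Place K F, v.deg = 1
  deg' : ∀ w : Place K F', w.deg = 1
  sum_e : ∀ v : Place K F, ∑ w ∈ v.fiber F', w.ramificationIndex F = Module.finrank F F'
  norm : Divisor.PushforwardNormFormula K F F'

variable {K F F'}

open Fermat.Agent.S24 in
theorem ffFacts_of_isFF [IsAlgClosed K] (hF : IsFF K F) (hF' : IsFF K F') : FFFacts K F F' := by
  have hzF := zerosAll K F hF
  have hzF' := zerosAll K F' hF'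
  have hdeg := stmt_FFB_deg K F hF
  have hdeg' := stmt_FFB_deg K F' hF'
  obtain ⟨x₀, hx₀, hfin₀⟩ := hF
  obtain ⟨x₀', hx₀', hfin₀'⟩ := hF'
  haveI : FiniteDimensional K⟮x₀⟯ F := hfin₀
  haveI : FiniteDimensional K⟮x₀'⟯ F' := hfin₀'
  exact ⟨hdeg, hdeg',
    fun v => sum_ramificationIndex_eq hzF hzF' hx₀ hx₀' v (v.fiber F') (fun _ => Place.mem_fiber),
    pushforwardNormFormula_of_zeros hzF hzF' hx₀ hx₀'⟩

end Facts

end Fermat.Agent.RED.H51

end
end
-- ==== END Fermat.Agent.RED.H51_NDCore

-- ==== BEGIN Fermat.Agent.RED.H73_GAFinal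
section
attribute [local instance 10000] SubalgebraClass.toAlgebra
attribute [local instance 10000] HahnSeries.powerSeriesAlgebra

/-!
# G-RED package GA (helper73): the unconditional statements

* `stmt_GA      : Stmt_GA`      — the residue field of the Gauss valuation on `F_N · ℚ̄` is
                                  `modularFunctionFieldFullC k N`  (`ℓ ∤ N`);
* `stmt_GA_deg  : Stmt_GA_deg`  — `[F_{N,k} : k(j~)] = [F_N ℚ̄ : ℚ̄(j)]`, separable;
* `goodChart_pre`, `isFF_redField_bar` — Type-level forms for the chart `x = j`.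
(Conjugate data over `ℚ̄`: helper30, `RED/H30_CAL.lean`.)
-/

set_option autoImplicit false
set_option synthInstance.maxHeartbeats 400000
set_option maxHeartbeats 1000000

open ModularCurve Fermat.Agent.S28 Fermat.Agent.S28.H73
open IntermediateField

noncomputable section

namespace Fermat.Agent.RED.H73

/-- **GA**: `redField = modularFunctionFieldFullC k N`. -/
theorem stmt_GA : Stmt_GA := stmt_GA_of_CAL Fermat.Agent.RED.H30.stmt_CAL

/-- **GA, degrees**. -/
theorem stmt_GA_deg : Stmt_GA_deg := stmt_GA_deg_of_CAL Fermat.Agent.RED.H30.stmt_CAL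

/-- The first five fields of `GoodChart` for the chart `x = j` at level `N`. -/
theorem goodChart_pre (N ℓ : ℕ) [NeZero N] (hℓ : ℓ.Prime) (hℓN : ¬ ℓ ∣ N)
    (A : ValuationSubring (AlgebraicClosure ℚ)) (hA : A.LiesOverPrime ℓ) :
    Transcendental (kV A)
      ((redSetting A (hasScale_laurentBaseChange A N)).red ⟨jF N, jF_mem A N⟩) ∧
    FiniteDimensional ↥((AlgebraicClosure ℚ)⟮jF (L := AlgebraicClosure ℚ) N⟯)
      ↥(laurentBaseChange (AlgebraicClosure ℚ) (modularFunctionFieldFull N)) ∧
    Algebra.IsSeparable ↥((AlgebraicClosure ℚ)⟮jF (L := AlgebraicClosure ℚ) N⟯)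
      ↥(laurentBaseChange (AlgebraicClosure ℚ) (modularFunctionFieldFull N)) ∧
    Module.finrank
      ↥((kV A)⟮(redSetting A (hasScale_laurentBaseChange A N)).red ⟨jF N, jF_mem A N⟩⟯)
      ↥(redField A (laurentBaseChange (AlgebraicClosure ℚ) (modularFunctionFieldFull N))
        (hasScale_laurentBaseChange A N))
      = Module.finrank ↥((AlgebraicClosure ℚ)⟮jF (L := AlgebraicClosure ℚ) N⟯)
        ↥(laurentBaseChange (AlgebraicClosure ℚ) (modularFunctionFieldFull N)) ∧
    Algebra.IsSeparable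
      ↥((kV A)⟮(redSetting A (hasScale_laurentBaseChange A N)).red ⟨jF N, jF_mem A N⟩⟯)
      ↥(redField A (laurentBaseChange (AlgebraicClosure ℚ) (modularFunctionFieldFull N))
        (hasScale_laurentBaseChange A N)) :=
  goodChart_pre_of_CAL Fermat.Agent.RED.H30.stmt_CAL N ℓ hℓ hℓN A hA

/-- The residue field of the Gauss valuation on `F_N · ℚ̄` is a function field over `k`. -/
theorem isFF_redField_bar (N ℓ : ℕ) [NeZero N] (hℓ : ℓ.Prime) (hℓN : ¬ ℓ ∣ N)
    (A : ValuationSubring (AlgebraicClosure ℚ)) (hA : A.LiesOverPrime ℓ) :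
    IsFF (kV A) ↥(redField A (laurentBaseChange (AlgebraicClosure ℚ) (modularFunctionFieldFull N))
      (hasScale_laurentBaseChange A N)) :=
  isFF_redField_of_CAL Fermat.Agent.RED.H30.stmt_CAL N ℓ hℓ hℓN A hA

/-- The conjugate data over `ℚ̄` (helper30). -/
def caDataBar (N : ℕ) [NeZero N] : CADataL (AlgebraicClosure ℚ) N :=
  (Fermat.Agent.RED.H30.stmt_CAL N).some

end Fermat.Agent.RED.H73

end
end
-- ==== END Fermat.Agent.RED.H73_GAFinal

-- ==== BEGIN Fermat.Agent.RED.H73_GAHaupt
section
attribute [local instance 10000] HahnSeries.powerSeriesAlgebra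

/-!
# G-RED package GA-H (helper73): chart data for a Hauptmodul of a sublevel, abstract glue

Setting: `L` algebraically closed of characteristic `0`, `A` a valuation subring, `k = kV A`,
`p ∣ M`, `M` invertible in `A`, conjugate data `Dp : CADataL L p`, `DM : CADataL L M`.
`h₀ ∈ A((q))` with `h = iotaV A h₀`, `h~ = redV A h₀`, such that
  (H2) `L(h) = F_p · L`   and   (H3) `k(h~) = F_{p,k}`.
Then `x = h` (and `x = 1/h`) satisfies the first five fields of helper79's `GoodChart` for
`S = redSetting A (hasScale_laurentBaseChange A M)`: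
`ChartPre S x hx` (`transc`, `fin`, `sep`, `deg`, `sept`).

* `ChartPre` : the five fields.  `ChartPre.inv` : the chart `1/x`.
* `chartPre_haupt` : the glue.  `chartPre_jF` : the case `x = j`.
No `q`-series identities are used.
-/

set_option autoImplicit false
set_option synthInstance.maxHeartbeats 400000
set_option maxHeartbeats 1000000

open Polynomial ModularCurve Fermat.Agent.S28 Fermat.Agent.S28.H73
open IntermediateField

noncomputable section

namespace Fermat.Agent.RED.H73

/-! ### Field theory -/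

theorem adjoin_simple_inv {K E : Type*} [Field K] [Field E] [Algebra K E] (x : E) :
    K⟮x⁻¹⟯ = K⟮x⟯ := by
  apply le_antisymm
  · rw [adjoin_simple_le_iff]
    exact inv_mem (mem_adjoin_simple_self K x)
  · rw [adjoin_simple_le_iff]
    have := inv_mem (mem_adjoin_simple_self K x⁻¹)
    rwa [inv_inv] at this

/-- Separability over a smaller subfield implies separability over a bigger one. -/
theorem isSeparable_of_le {K E : Type*} [Field K] [Field E] [Algebra K E]
    {A₀ B₀ : IntermediateField K E} (h : A₀ ≤ B₀) {y : E} (hy : IsSeparable ↥A₀ y) :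
    IsSeparable ↥B₀ y := by
  let _ : Algebra ↥A₀ ↥B₀ := (IntermediateField.inclusion h).toRingHom.toAlgebra
  have : IsScalarTower ↥A₀ ↥B₀ E := IsScalarTower.of_algebraMap_eq (fun _ => rfl)
  exact IsSeparable.tower_top ↥B₀ hy

/-- An element of `E` over which a transcendental element is algebraic is transcendental. -/
theorem transcendental_of_mem_adjoin {K E : Type*} [Field K] [Field E] [Algebra K E] {x y : E}
    (hy : Transcendental K y) (hmem : y ∈ K⟮x⟯) : Transcendental K x := by
  intro hx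
  apply hy
  have halg : Algebra.IsAlgebraic K ↥(K⟮x⟯) :=
    IntermediateField.isAlgebraic_adjoin_simple hx.isIntegral
  have h1 : IsAlgebraic K (⟨y, hmem⟩ : ↥(K⟮x⟯)) := halg.isAlgebraic _
  exact h1.algHom (K⟮x⟯).val

/-! ### The five chart fields -/

section ChartPre

variable {C F k Ft : Type} [Field C] [Field F] [Algebra C F] [Field k] [Field Ft] [Algebra k Ft]

/-- The first five fields of helper79's `GoodChart`. -/
structure ChartPre (S : Fermat.Agent.RED.H34.RedSetting C F k Ft) (x : F) (hx : x ∈ S.V) :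
    Prop where
  transc : Transcendental k (S.red ⟨x, hx⟩)
  fin : FiniteDimensional C⟮x⟯ F
  sep : Algebra.IsSeparable C⟮x⟯ F
  deg : Module.finrank k⟮S.red ⟨x, hx⟩⟯ Ft = Module.finrank C⟮x⟯ F
  sept : Algebra.IsSeparable k⟮S.red ⟨x, hx⟩⟯ Ft

theorem red_inv (S : Fermat.Agent.RED.H34.RedSetting C F k Ft) (x : F) (hx : x ∈ S.V)
    (hx' : x⁻¹ ∈ S.V) (hx0 : x ≠ 0) : S.red ⟨x⁻¹, hx'⟩ = (S.red ⟨x, hx⟩)⁻¹ := by
  have h1 : S.red ⟨x, hx⟩ * S.red ⟨x⁻¹, hx'⟩ = 1 := by
    rw [← map_mul]
    have : (⟨x, hx⟩ * ⟨x⁻¹, hx'⟩ : ↥S.V) = 1 := Subtype.ext (mul_inv_cancel₀ hx0)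
    rw [this, map_one]
  exact eq_inv_of_mul_eq_one_right h1

/-- The chart `1/x`. -/
theorem ChartPre.inv {S : Fermat.Agent.RED.H34.RedSetting C F k Ft} {x : F} {hx : x ∈ S.V}
    (h : ChartPre S x hx) (hx' : x⁻¹ ∈ S.V) : ChartPre S x⁻¹ hx' := by
  have hx0 : x ≠ 0 := by
    rintro rfl
    have := h.transc
    have e : S.red ⟨0, hx⟩ = 0 := map_zero S.red
    rw [e] at this
    exact this (isAlgebraic_zero)
  have e1 : C⟮x⁻¹⟯ = C⟮x⟯ := adjoin_simple_inv x
  have e2 : k⟮S.red ⟨x⁻¹, hx'⟩⟯ = k⟮S.red ⟨x, hx⟩⟯ := by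
    rw [red_inv S x hx hx' hx0, adjoin_simple_inv]
  refine ⟨?_, ?_, ?_, ?_, ?_⟩
  · rw [red_inv S x hx hx' hx0]
    intro halg
    exact h.transc (by simpa using halg.inv)
  · rw [e1]; exact h.fin
  · rw [e1]; exact h.sep
  · rw [e1, e2]; exact h.deg
  · rw [e2]; exact h.sept

theorem ChartPre.inv' {S : Fermat.Agent.RED.H34.RedSetting C F k Ft} {x y : F} {hx : x ∈ S.V}
    (h : ChartPre S x hx) (hy : y ∈ S.V) (hxy : x * y = 1) : ChartPre S y hy := by
  obtain rfl : y = x⁻¹ := eq_inv_of_mul_eq_one_right hxy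
  exact h.inv hy

end ChartPre

/-! ### The glue -/

section Glue

variable {L : Type} [Field L] [IsAlgClosed L] [CharZero L] [Algebra ℚ L]
  (A : ValuationSubring L) {p M : ℕ} [NeZero p] [NeZero M]

omit [IsAlgClosed L] [Algebra ℚ L] [NeZero p] [NeZero M] in
theorem inv_natCast_mem_of_dvd (hpM : p ∣ M) (hM0 : M ≠ 0) (hM : ((M : L))⁻¹ ∈ A) :
    ((p : L))⁻¹ ∈ A := by
  obtain ⟨e, rfl⟩ := hpM
  have hp0 : (p : L) ≠ 0 := by
    have : p ≠ 0 := fun h => hM0 (by rw [h, zero_mul])
    exact_mod_cast this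
  have he0 : (e : L) ≠ 0 := by
    have : e ≠ 0 := fun h => hM0 (by rw [h, mul_zero])
    exact_mod_cast this
  have e1 : ((p : L))⁻¹ = (e : L) * (((p * e : ℕ) : L))⁻¹ := by
    push_cast
    field_simp
  rw [e1]
  exact A.mul_mem _ _ (natCast_mem A e) hM

variable {A}
variable (hpM : p ∣ M) (hM : ((M : L))⁻¹ ∈ A) (Dp : CADataL L p) (DM : CADataL L M)
  {x : LaurentSeries L} (hx : x ∈ gaussRingV A)
  (H2 : IntermediateField.adjoin L ({x} : Set (LaurentSeries L)) = modularFunctionFieldFullC L p)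
  (H3 : IntermediateField.adjoin (kV A) ({gaussRedV A ⟨x, hx⟩} : Set (LaurentSeries (kV A)))
    = modularFunctionFieldFullC (kV A) p)

omit [IsAlgClosed L] [CharZero L] in
include hpM H2 in
/-- The Hauptmodul lies in `F_M · L`. -/
theorem haupt_mem : x ∈ laurentBaseChange L (modularFunctionFieldFull M) := by
  rw [laurentBaseChange_full_eq]
  apply full_degeneracyC_le L hpM
  rw [← H2]
  exact mem_adjoin_simple_self L x

omit [CharZero L] [Algebra ℚ L] in
include hpM Dp DM H2 in
/-- `[F_M L : L(h)] · [F_p L : L(j)] = [F_M L : L(j)]`. -/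
theorem haupt_relfinrank_mul :
    Fintype.card Dp.Q *
      (IntermediateField.adjoin L ({x} : Set (LaurentSeries L))).relfinrank
        (modularFunctionFieldFullC L M) = Fintype.card DM.Q := by
  rw [H2, ← relfinrank_fullC Dp, ← relfinrank_fullC DM]
  apply IntermediateField.relfinrank_mul_relfinrank
  · rw [adjoin_simple_le_iff]
    exact jqModC_mem_full L p
  · exact full_degeneracyC_le L hpM

omit [Algebra ℚ L] in
include hpM hM Dp DM H3 in
/-- `[F_{M,k} : k(h~)] · [F_{p,k} : k(j~)] = [F_{M,k} : k(j~)]`. -/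
theorem haupt_relfinrank_mul_red :
    Fintype.card Dp.Q *
      (IntermediateField.adjoin (kV A)
          ({gaussRedV A ⟨x, hx⟩} : Set (LaurentSeries (kV A)))).relfinrank
        (modularFunctionFieldFullC (kV A) M) = Fintype.card DM.Q := by
  have : IsAlgClosed (kV A) := isAlgClosed_kV A
  have : Infinite (kV A) := IsAlgClosed.instInfinite
  have hp : ((p : L))⁻¹ ∈ A := inv_natCast_mem_of_dvd A hpM (NeZero.ne M) hM
  rw [H3, ← relfinrank_fullC_red A hp Dp, ← relfinrank_fullC_red A hM DM]
  apply IntermediateField.relfinrank_mul_relfinrank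
  · rw [adjoin_simple_le_iff]
    exact jqModC_mem_full (kV A) p
  · exact full_degeneracyC_le (kV A) hpM

include hpM hM Dp DM H2 H3 in
/-- **GA-H**: the five chart fields for a Hauptmodul `x` of the sublevel `p ∣ M`. -/
theorem chartPre_haupt (hxF : x ∈ laurentBaseChange L (modularFunctionFieldFull M)) :
    ChartPre (redSetting A (hasScale_laurentBaseChange A M)) ⟨x, hxF⟩ hx := by
  have : IsAlgClosed (kV A) := isAlgClosed_kV A
  have : Infinite (kV A) := IsAlgClosed.instInfinite
  have hred : (((redSetting A (hasScale_laurentBaseChange A M)).red ⟨⟨x, hxF⟩, hx⟩ :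
      ↥(redField A (laurentBaseChange L (modularFunctionFieldFull M))
        (hasScale_laurentBaseChange A M))) : LaurentSeries (kV A)) = gaussRedV A ⟨x, hx⟩ := rfl
  have hdegL : Module.finrank ↥(L⟮(⟨x, hxF⟩ : ↥(laurentBaseChange L
      (modularFunctionFieldFull M)))⟯) ↥(laurentBaseChange L (modularFunctionFieldFull M))
      = (IntermediateField.adjoin L ({x} : Set (LaurentSeries L))).relfinrank
        (modularFunctionFieldFullC L M) := by
    rw [finrank_adjoin_simple_subtype]
    exact congrArg (fun B => (IntermediateField.adjoin L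
      ({x} : Set (LaurentSeries L))).relfinrank B) (laurentBaseChange_full_eq M)
  have hdegk : Module.finrank
      ↥((kV A)⟮(redSetting A (hasScale_laurentBaseChange A M)).red ⟨⟨x, hxF⟩, hx⟩⟯)
      ↥(redField A (laurentBaseChange L (modularFunctionFieldFull M))
        (hasScale_laurentBaseChange A M))
      = (IntermediateField.adjoin (kV A)
          ({gaussRedV A ⟨x, hx⟩} : Set (LaurentSeries (kV A)))).relfinrank
        (modularFunctionFieldFullC (kV A) M) := by
    rw [finrank_adjoin_simple_subtype, hred, redField_laurentBaseChange_eq A hM DM]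
  have h1 := haupt_relfinrank_mul hpM Dp DM H2
  have h2 := haupt_relfinrank_mul_red hpM hM Dp DM hx H3
  have hQ : 0 < Fintype.card Dp.Q := card_Q_pos Dp
  have hQM : 0 < Fintype.card DM.Q := card_Q_pos DM
  have hjmem : jqModC (kV A) ∈ IntermediateField.adjoin (kV A)
      ({gaussRedV A ⟨x, hx⟩} : Set (LaurentSeries (kV A))) := by
    rw [H3]
    exact jqModC_mem_full (kV A) p
  have hfin : FiniteDimensional ↥(L⟮(⟨x, hxF⟩ : ↥(laurentBaseChange L
      (modularFunctionFieldFull M)))⟯) ↥(laurentBaseChange L (modularFunctionFieldFull M)) := by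
    apply Module.finite_of_finrank_pos
    rw [hdegL]
    rcases Nat.eq_zero_or_pos ((IntermediateField.adjoin L
      ({x} : Set (LaurentSeries L))).relfinrank (modularFunctionFieldFullC L M)) with h0 | h0
    · rw [h0, mul_zero] at h1
      omega
    · exact h0
  refine ⟨?_, hfin, ?_, ?_, ?_⟩
  · apply transcendental_subtype
    rw [hred]
    exact transcendental_of_mem_adjoin (transcendental_jqModC (kV A)) hjmem
  · infer_instance
  · rw [hdegL, hdegk]
    exact Nat.eq_of_mul_eq_mul_left hQ (h2.trans h1.symm)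
  · apply algebra_isSeparable_subtype
    intro y hy
    rw [hred]
    rw [redField_laurentBaseChange_eq A hM DM] at hy
    refine isSeparable_of_le ?_ (isSeparable_fullC_red A hM DM hy)
    rw [adjoin_simple_le_iff]
    exact hjmem

include hpM hM Dp DM H2 H3 in
/-- **GA-H**, the chart `1/x` (stated for `y` with `x * y = 1` to keep unification cheap). -/
theorem chartPre_haupt_inv {y : LaurentSeries L} (hy : x * y = 1)
    (hyF : y ∈ laurentBaseChange L (modularFunctionFieldFull M)) (hy' : y ∈ gaussRingV A) :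
    ChartPre (redSetting A (hasScale_laurentBaseChange A M)) ⟨y, hyF⟩ hy' := by
  have hxF₀ : x ∈ laurentBaseChange L (modularFunctionFieldFull M) := haupt_mem hpM H2
  have h := chartPre_haupt hpM hM Dp DM hx H2 H3 hxF₀
  have e : (⟨x, hxF₀⟩ : ↥(laurentBaseChange L (modularFunctionFieldFull M))) * ⟨y, hyF⟩ = 1 :=
    Subtype.ext hy
  exact ChartPre.inv' (S := redSetting A (hasScale_laurentBaseChange A M))
    (x := ⟨x, hxF₀⟩) (y := ⟨y, hyF⟩) (hx := hx) h hy' e

end Glue

/-! ### The chart `x = j` and the chart `1/j` -/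

section ChartJ

variable {L : Type} [Field L] [IsAlgClosed L] [CharZero L] [Algebra ℚ L]
  {A : ValuationSubring L} {N : ℕ} [NeZero N] (hN : ((N : L))⁻¹ ∈ A) (D : CADataL L N)

include hN D in
/-- The five chart fields for `x = j` at level `N`. -/
theorem chartPre_jF :
    ChartPre (redSetting A (hasScale_laurentBaseChange A N)) (jF N) (jF_mem A N) :=
  ⟨transcendental_red_jF A N, finiteDimensional_jF D, isSeparable_jF D,
    finrank_red_jF_eq hN D, isSeparable_red_jF hN D⟩

omit [IsAlgClosed L] [CharZero L] [Algebra ℚ L] in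
theorem jqModC_ne_zero (K : Type) [Field K] : jqModC K ≠ 0 := by
  intro h
  have := jqModC_order_neg K
  rw [h, HahnSeries.order_zero] at this
  exact lt_irrefl _ this

omit [IsAlgClosed L] [CharZero L] [Algebra ℚ L] in
/-- `1/j` lies in the Gauss ring. -/
theorem inv_jqModC_mem_gaussRingV (A : ValuationSubring L) : (jqModC L)⁻¹ ∈ gaussRingV A := by
  apply inv_mem_gaussRingV A (jqModC_mem_gaussRingV A)
  rw [gaussRedV_jqModC]
  exact jqModC_ne_zero (kV A)

include hN D in
/-- The five chart fields for `y = 1/j` at level `N` (any `y` with `j * y = 1`). -/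
theorem chartPre_jF_inv {y : LaurentSeries L} (hy : jqModC L * y = 1)
    (hyF : y ∈ laurentBaseChange L (modularFunctionFieldFull N)) (hy' : y ∈ gaussRingV A) :
    ChartPre (redSetting A (hasScale_laurentBaseChange A N)) ⟨y, hyF⟩ hy' := by
  have h := chartPre_jF hN D
  have e : (jF (L := L) N) * ⟨y, hyF⟩ = 1 := Subtype.ext hy
  exact ChartPre.inv' (S := redSetting A (hasScale_laurentBaseChange A N))
    (x := jF N) (y := ⟨y, hyF⟩) (hx := jF_mem A N) h hy' e

end ChartJ

end Fermat.Agent.RED.H73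

end
end
-- ==== END Fermat.Agent.RED.H73_GAHaupt

-- ==== BEGIN Fermat.Agent.RED.H76_IGModj
section

/-!
# G-RED package IG-MODj (helper76): the branch values of the chart `x = j`

* `card_ptsOver` (dictionary, any function field): the maximal ideals of the integral closure of
  `K[x]` over `x = ρ` correspond to the places `v` with `ord_v (x - ρ) > 0`.
* `isBranchValue_iff` : `H34.IsBranchValue x ρ ↔ #{v | ord_v (x - ρ) > 0} < [F : K(x)]`.
* `isBranchValue_jF` : a branch value of `j` on `F_N · ℚ̄` is `0` or `1728` (S24 counts).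
-/

set_option autoImplicit false
set_option linter.style.haveILetI false
set_option synthInstance.maxHeartbeats 400000
set_option maxHeartbeats 1000000

noncomputable section

open AlgebraicCurve IsDedekindDomain IntermediateField
open scoped IntermediateField.algebraAdjoinAdjoin

namespace Fermat.Agent.RED.H76

open Fermat.Agent.RED.H34 Fermat.Agent.RED.H51 Fermat.Agent.RED.H79

section Dict

variable {K F : Type} [Field K] [Field F] [Algebra K F]

theorem sub_algebraMap_ne_zero {x : F} (hx : Transcendental K x) (ρ : K) :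
    x - algebraMap K F ρ ≠ 0 := by
  intro h
  apply hx
  rw [sub_eq_zero.mp h]
  exact isAlgebraic_algebraMap ρ

theorem isIntegral_sub_algebraMap (x : F) (ρ : K) :
    IsIntegral ↥(Algebra.adjoin K {x}) (x - algebraMap K F ρ) := by
  have h : x - algebraMap K F ρ ∈ Algebra.adjoin K {x} :=
    sub_mem (Algebra.self_mem_adjoin_singleton K x) (Subalgebra.algebraMap_mem _ ρ)
  exact isIntegral_algebraMap (R := ↥(Algebra.adjoin K {x})) (A := F)
    (x := ⟨x - algebraMap K F ρ, h⟩)

/-- **Dictionary**: points of the chart over `x = ρ` and zeros of `x - ρ`. -/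
theorem card_ptsOver (x : F) (hx : Transcendental K x) [FiniteDimensional K⟮x⟯ F]
    [Algebra.IsSeparable K⟮x⟯ F] (ρ : K) :
    Nat.card ↥(ptsOver x ρ)
      = Nat.card {v : Place K F // 0 < v.ord (x - algebraMap K F ρ)} := by
  haveI := isDedekind_Bx x hx
  haveI := isFractionRing_Bx (K := K) x
  have hne := sub_algebraMap_ne_zero hx ρ
  let b₀ : ↥(integralClosure ↥(Algebra.adjoin K {x}) F) :=
    ⟨x - algebraMap K F ρ, isIntegral_sub_algebraMap x ρ⟩
  have hb₀ : b₀ ≠ 0 := fun h => hne (congrArg Subtype.val h)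
  -- the map from points to places
  have hbot : ∀ P : ↥(ptsOver x ρ),
      (P : Ideal ↥(integralClosure ↥(Algebra.adjoin K {x}) F)) ≠ ⊥ := by
    intro P h
    have := P.2.2 b₀ rfl
    rw [h, Ideal.mem_bot] at this
    exact hb₀ this
  let toH : ↥(ptsOver x ρ) → HeightOneSpectrum ↥(integralClosure ↥(Algebra.adjoin K {x}) F) :=
    fun P => ⟨P.1, P.2.1.isPrime, hbot P⟩
  have hpos : ∀ P : ↥(ptsOver x ρ), 0 < (ofH K (toH P)).ord (x - algebraMap K F ρ) := by
    intro P
    have h1 : OrdGe (ofH K (toH P)) 1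
        (algebraMap ↥(integralClosure ↥(Algebra.adjoin K {x}) F) F b₀) :=
      (ordGe_one_algebraMap_iff (K := K) (F := F) (toH P) b₀).2 (P.2.2 b₀ rfl)
    exact h1.pos_of_ne hne
  refine Nat.card_congr (Equiv.ofBijective (fun P => ⟨ofH K (toH P), hpos P⟩) ⟨?_, ?_⟩)
  · intro P P' h
    have h1 : ofH K (toH P) = ofH K (toH P') := congrArg Subtype.val h
    have h2 := ofH_injective (K := K) (F := F) h1
    exact Subtype.ext (congrArg HeightOneSpectrum.asIdeal h2)
  · rintro ⟨v, hv⟩
    have hxv : x ∈ v.toValuationSubring := by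
      have h1 : x - algebraMap K F ρ ∈ v.toValuationSubring :=
        (ordGe_zero_iff_mem v _).1 (Or.inr hv.le)
      have h2 := add_mem h1 (v.algebraMap_mem' ρ)
      rwa [sub_add_cancel] at h2
    obtain ⟨w, hw⟩ := exists_eq_ofH_of_mem x hx v hxv
    have hmem : ∀ b : ↥(integralClosure ↥(Algebra.adjoin K {x}) F),
        (b : F) = x - algebraMap K F ρ → b ∈ w.asIdeal := by
      intro b hb
      apply (ordGe_one_algebraMap_iff (K := K) (F := F) w b).1
      show OrdGe (ofH K w) 1 (b : F)
      rw [hb, ← hw]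
      exact Or.inr hv
    refine ⟨⟨w.asIdeal, w.isMaximal, hmem⟩, ?_⟩
    apply Subtype.ext
    show ofH K _ = v
    rw [hw]

theorem isBranchValue_iff (x : F) (hx : Transcendental K x) [FiniteDimensional K⟮x⟯ F]
    [Algebra.IsSeparable K⟮x⟯ F] (ρ : K) :
    IsBranchValue x ρ ↔
      Nat.card {v : Place K F // 0 < v.ord (x - algebraMap K F ρ)} < Module.finrank K⟮x⟯ F := by
  rw [IsBranchValue, ← card_ptsOver x hx ρ, Nat.card_coe_set_eq]

/-! ### The chart `1/x` -/

theorem ord_eq_zero_of_pos_sub (v : Place K F) {y : F} {c : K} (hc : c ≠ 0)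
    (h : 0 < v.ord (y - algebraMap K F c)) : v.ord y = 0 := by
  have hc' : algebraMap K F c ≠ 0 := (map_ne_zero _).mpr hc
  have h2 : OrdGe v (v.ord (algebraMap K F c) + 1) (y - algebraMap K F c) := by
    refine Or.inr ?_
    rw [ord_algebraMap]
    omega
  have h1 : v.ord (algebraMap K F c + (y - algebraMap K F c)) = v.ord (algebraMap K F c) :=
    (ord_add_eq v hc' h2).2
  rw [add_sub_cancel, ord_algebraMap] at h1
  exact h1

theorem pos_ord_inv_sub {v : Place K F} {x : F} {c : K} (hc : c ≠ 0)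
    (h : 0 < v.ord (x⁻¹ - algebraMap K F c)) : 0 < v.ord (x - algebraMap K F c⁻¹) := by
  have hc' : algebraMap K F c ≠ 0 := (map_ne_zero _).mpr hc
  have hy0 : v.ord x⁻¹ = 0 := ord_eq_zero_of_pos_sub v hc h
  have hx0 : x ≠ 0 := by
    rintro rfl
    rw [inv_zero, zero_sub, ord_neg, ord_algebraMap] at h
    exact lt_irrefl _ h
  have hx : v.ord x = 0 := by
    rw [Place.ord_inv] at hy0
    omega
  have hne : x⁻¹ - algebraMap K F c ≠ 0 := ne_zero_of_ord_ne_zero v h.ne'
  have e : x - algebraMap K F c⁻¹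
      = -((x⁻¹ - algebraMap K F c) * (x * algebraMap K F c⁻¹)) := by
    rw [map_inv₀]
    field_simp
    ring
  have hci : algebraMap K F c⁻¹ ≠ 0 := (map_ne_zero _).mpr (inv_ne_zero hc)
  rw [e, ord_neg, v.ord_mul hne (mul_ne_zero hx0 hci), v.ord_mul hx0 hci, hx, ord_algebraMap]
  omega

theorem pos_ord_inv_sub_iff (v : Place K F) (x : F) {c : K} (hc : c ≠ 0) :
    0 < v.ord (x⁻¹ - algebraMap K F c) ↔ 0 < v.ord (x - algebraMap K F c⁻¹) := by
  refine ⟨pos_ord_inv_sub hc, fun h => ?_⟩
  have := pos_ord_inv_sub (v := v) (x := x⁻¹) (c := c⁻¹) (inv_ne_zero hc) (by rwa [inv_inv])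
  rwa [inv_inv] at this

theorem adjoin_simple_inv (x : F) : K⟮x⁻¹⟯ = K⟮x⟯ := by
  apply le_antisymm
  · rw [adjoin_simple_le_iff]
    exact inv_mem (mem_adjoin_simple_self K x)
  · rw [adjoin_simple_le_iff]
    have := inv_mem (mem_adjoin_simple_self K x⁻¹)
    rwa [inv_inv] at this

theorem finrank_adjoin_simple_inv (x : F) :
    Module.finrank K⟮x⁻¹⟯ F = Module.finrank K⟮x⟯ F :=
  congrArg (fun E : IntermediateField K F => Module.finrank E F) (_root_.Fermat.Agent.RED.H76.adjoin_simple_inv x)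

theorem finiteDimensional_adjoin_simple_inv (x : F) [h : FiniteDimensional K⟮x⟯ F] :
    FiniteDimensional K⟮x⁻¹⟯ F := by
  have e := _root_.Fermat.Agent.RED.H76.adjoin_simple_inv (K := K) x
  rw [← e] at h
  exact h

theorem isSeparable_adjoin_simple [CharZero K] (x : F) [FiniteDimensional K⟮x⟯ F] :
    Algebra.IsSeparable K⟮x⟯ F := by
  haveI : CharZero K⟮x⟯ := charZero_of_injective_algebraMap (algebraMap K K⟮x⟯).injective
  haveI : Algebra.IsAlgebraic K⟮x⟯ F := Algebra.IsAlgebraic.of_finite _ _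
  exact Algebra.IsAlgebraic.isSeparable_of_perfectField

theorem transcendental_inv {x : F} (hx : Transcendental K x) : Transcendental K x⁻¹ := by
  intro h
  apply hx
  have := h.inv
  rwa [inv_inv] at this

end Dict

/-! ### The chart `x = j` on `F_N · ℚ̄` -/

section Modular

open Fermat.Agent.S24 (Kbar FN)
open ModularCurve

variable (N : ℕ) [NeZero N]

/-- The `j` of S24 and the `j` of package GA agree. -/
theorem jF_eq : Fermat.Agent.S24.jF N = Fermat.Agent.RED.H73.jF (L := Kbar) N := by
  apply Subtype.ext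
  show Fermat.Agent.S24.jBar = jqModC Kbar
  rw [Fermat.Agent.S24.jBar, coeffEmb, ← jqModC_rat, coeffMap_jqModC]

theorem transcendental_jF : Transcendental Kbar (Fermat.Agent.RED.H73.jF (L := Kbar) N) := by
  rw [← jF_eq]
  exact Fermat.Agent.S24.asm_transcendental_jF (Fermat.Agent.S24.modClosure N)

theorem finiteDimensional_jF :
    FiniteDimensional Kbar⟮Fermat.Agent.RED.H73.jF (L := Kbar) N⟯ (FN N) := by
  rw [← jF_eq]
  exact Fermat.Agent.S24.asm_finiteDimensional (Fermat.Agent.S24.modClosure N)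

theorem finrank_jF :
    Module.finrank Kbar⟮Fermat.Agent.RED.H73.jF (L := Kbar) N⟯ (FN N) = dedekindPsi N := by
  rw [← jF_eq]
  exact Fermat.Agent.S24.asm_finrank (Fermat.Agent.S24.modClosure N)

theorem card_zeros_jF (a : Kbar) (h0 : a ≠ 0) (h1728 : a ≠ 1728) :
    Nat.card {v : Place Kbar (FN N) //
      0 < v.ord (Fermat.Agent.RED.H73.jF (L := Kbar) N - algebraMap Kbar (FN N) a)}
      = dedekindPsi N := by
  rw [← jF_eq]
  exact Fermat.Agent.S24.asm_card_zeros_generic (Fermat.Agent.S24.modClosure N) a h0 h1728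

/-- **IG-MODj, chart `j`**: the branch values of `j` are among `0`, `1728`. -/
theorem isBranchValue_jF {ρ : Kbar}
    (h : IsBranchValue (Fermat.Agent.RED.H73.jF (L := Kbar) N) ρ) : ρ = 0 ∨ ρ = 1728 := by
  haveI := _root_.Fermat.Agent.RED.H76.finiteDimensional_jF N
  haveI := isSeparable_adjoin_simple (K := Kbar) (Fermat.Agent.RED.H73.jF (L := Kbar) N)
  by_contra hne
  rw [not_or] at hne
  rw [isBranchValue_iff _ (transcendental_jF N), card_zeros_jF N ρ hne.1 hne.2, _root_.Fermat.Agent.RED.H76.finrank_jF] at h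
  exact lt_irrefl _ h

/-- **IG-MODj, chart `1/j`**: the branch values of `1/j` are among `0`, `1/1728`. -/
theorem isBranchValue_jF_inv {ρ : Kbar}
    (h : IsBranchValue (Fermat.Agent.RED.H73.jF (L := Kbar) N)⁻¹ ρ) :
    ρ = 0 ∨ ρ = (1728 : Kbar)⁻¹ := by
  haveI := _root_.Fermat.Agent.RED.H76.finiteDimensional_jF N
  haveI := finiteDimensional_adjoin_simple_inv (K := Kbar) (Fermat.Agent.RED.H73.jF (L := Kbar) N)
  haveI := isSeparable_adjoin_simple (K := Kbar) (Fermat.Agent.RED.H73.jF (L := Kbar) N)⁻¹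
  by_contra hne
  rw [not_or] at hne
  have h1 : ρ⁻¹ ≠ 0 := inv_ne_zero hne.1
  have h2 : ρ⁻¹ ≠ 1728 := by
    intro h2
    apply hne.2
    rw [← h2, inv_inv]
  rw [isBranchValue_iff _ (transcendental_inv (transcendental_jF N)),
    finrank_adjoin_simple_inv, _root_.Fermat.Agent.RED.H76.finrank_jF, ← card_zeros_jF N ρ⁻¹ h1 h2] at h
  refine lt_irrefl _ (lt_of_eq_of_lt ?_ h)
  exact Nat.card_congr (Equiv.subtypeEquivRight fun v => (pos_ord_inv_sub_iff v _ hne.1).symm)

end Modular

/-! ### Distinctness modulo the maximal ideal (`ℓ ≥ 5`) -/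

section Distinct

open Fermat.Agent.S24 (Kbar FN)
open ModularCurve Fermat.Agent.S28.H73 Fermat.Agent.RED.H73

theorem not_dvd_1728 {ℓ : ℕ} (hℓ : ℓ.Prime) (h5 : 5 ≤ ℓ) : ¬ ℓ ∣ 1728 := by
  intro h
  have h12 : ℓ ∣ 12 := hℓ.dvd_of_dvd_pow (show ℓ ∣ 12 ^ 3 by norm_num; exact h)
  have hle : ℓ ≤ 12 := Nat.le_of_dvd (by norm_num) h12
  interval_cases ℓ <;>
    first
    | exact absurd h12 (by decide)
    | exact absurd hℓ (by norm_num)

variable {C : Type} [Field C] (O : ValuationSubring C)
variable {F : IntermediateField C (LaurentSeries C)} (h : HasScale O F)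

/-- A constant which is a unit of `O` has nonzero residue. -/
theorem resO_ne_zero_of_inv_mem (ρ : ↥((redSetting O h).V.comap (algebraMap C ↥F)))
    (hinv : ((ρ : C))⁻¹ ∈ O) (hne : (ρ : C) ≠ 0) : (redSetting O h).resO ρ ≠ 0 := by
  have hmem : algebraMap C ↥F ((ρ : C))⁻¹ ∈ (redSetting O h).V :=
    (algebraMap_mem_gaussValSub_iff O h _).2 hinv
  let ρ' : ↥((redSetting O h).V.comap (algebraMap C ↥F)) := ⟨((ρ : C))⁻¹, hmem⟩
  have h1 : ρ * ρ' = 1 := Subtype.ext (mul_inv_cancel₀ hne)
  intro h0
  have h2 := congrArg (redSetting O h).resO h1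
  rw [map_mul, h0, zero_mul, map_one] at h2
  exact zero_ne_one h2

/-- Two constants of `O`, each either `0` or equal to a fixed unit `c` of `O`, with the same
residue, are equal. -/
theorem eq_of_resO_eq_of_mem_pair (c : C) (hc : c ≠ 0) (hcinv : c⁻¹ ∈ O)
    (ρ ρ' : ↥((redSetting O h).V.comap (algebraMap C ↥F)))
    (hρ : (ρ : C) = 0 ∨ (ρ : C) = c) (hρ' : (ρ' : C) = 0 ∨ (ρ' : C) = c)
    (hres : (redSetting O h).resO ρ = (redSetting O h).resO ρ') : ρ = ρ' := by
  have hz : ∀ σ : ↥((redSetting O h).V.comap (algebraMap C ↥F)), (σ : C) = 0 →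
      (redSetting O h).resO σ = 0 := by
    intro σ hσ
    have : σ = 0 := Subtype.ext hσ
    rw [this, map_zero]
  have hu : ∀ σ : ↥((redSetting O h).V.comap (algebraMap C ↥F)), (σ : C) = c →
      (redSetting O h).resO σ ≠ 0 := by
    intro σ hσ
    exact resO_ne_zero_of_inv_mem O h σ (by rw [hσ]; exact hcinv) (by rw [hσ]; exact hc)
  rcases hρ with h1 | h1 <;> rcases hρ' with h2 | h2
  · exact Subtype.ext (h1.trans h2.symm)
  · exact absurd (hres ▸ hz ρ h1 : (redSetting O h).resO ρ' = 0) (hu ρ' h2)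
  · exact absurd (hres.symm ▸ hz ρ' h2 : (redSetting O h).resO ρ = 0) (hu ρ h1)
  · exact Subtype.ext (h1.trans h2.symm)

variable (N : ℕ) [NeZero N]

/-- **IG-MODj (final form, chart `j`)**: the hypothesis "branch values are pairwise distinct
modulo the maximal ideal" of `H34.Stmt_chartNormal`, for `x = j` and `ℓ ≥ 5`. -/
theorem branch_distinct_jF {ℓ : ℕ} (hℓ : ℓ.Prime) (h5 : 5 ≤ ℓ)
    (A : ValuationSubring Kbar) (hA : A.LiesOverPrime ℓ)
    (ρ ρ' : ↥((redSetting A (hasScale_laurentBaseChange A N)).V.comap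
      (algebraMap Kbar ↥(laurentBaseChange Kbar (modularFunctionFieldFull N)))))
    (hρ : IsBranchValue (Fermat.Agent.RED.H73.jF (L := Kbar) N) (ρ : Kbar))
    (hρ' : IsBranchValue (Fermat.Agent.RED.H73.jF (L := Kbar) N) (ρ' : Kbar))
    (hres : (redSetting A (hasScale_laurentBaseChange A N)).resO ρ
      = (redSetting A (hasScale_laurentBaseChange A N)).resO ρ') : ρ = ρ' := by
  have hinv : ((1728 : Kbar))⁻¹ ∈ A := by
    have := inv_natCast_mem_of_liesOver A 1728 hℓ (not_dvd_1728 hℓ h5) hA
    simpa using this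
  exact eq_of_resO_eq_of_mem_pair A _ (1728 : Kbar) (by norm_num) hinv ρ ρ'
    (isBranchValue_jF N hρ) (isBranchValue_jF N hρ') hres

/-- **IG-MODj (final form, chart `1/j`)**. -/
theorem branch_distinct_jF_inv (A : ValuationSubring Kbar)
    (ρ ρ' : ↥((redSetting A (hasScale_laurentBaseChange A N)).V.comap
      (algebraMap Kbar ↥(laurentBaseChange Kbar (modularFunctionFieldFull N)))))
    (hρ : IsBranchValue (Fermat.Agent.RED.H73.jF (L := Kbar) N)⁻¹ (ρ : Kbar))
    (hρ' : IsBranchValue (Fermat.Agent.RED.H73.jF (L := Kbar) N)⁻¹ (ρ' : Kbar))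
    (hres : (redSetting A (hasScale_laurentBaseChange A N)).resO ρ
      = (redSetting A (hasScale_laurentBaseChange A N)).resO ρ') : ρ = ρ' := by
  have hmem : (((1728 : Kbar))⁻¹)⁻¹ ∈ A := by
    rw [inv_inv]
    have : ((1728 : ℕ) : Kbar) ∈ A := natCast_mem A 1728
    exact_mod_cast this
  exact eq_of_resO_eq_of_mem_pair A _ ((1728 : Kbar))⁻¹ (by norm_num) hmem ρ ρ'
    (isBranchValue_jF_inv N hρ) (isBranchValue_jF_inv N hρ') hres

end Distinct

end Fermat.Agent.RED.H76

end
end
-- ==== END Fermat.Agent.RED.H76_IGModj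

-- ==== BEGIN Fermat.Agent.RED.KD.H22_CuspPlaces
section
attribute [local instance 10000] SubalgebraClass.toAlgebra
attribute [local instance 10000] HahnSeries.powerSeriesAlgebra

/-!
# The places of `F_N = Q̄(X₀(N))` at the cusps `∞` and `0` (helper22)

* `laurentPlace E y hy : Place k E` for a subfield `E ⊂ k((q))` containing an element `y` of
  order `-1`; `ord_laurentPlace : P.ord x = order x`.
* `cuspInf N`, `cuspZero N : Place Q̄ F_N` with
  `ord_cuspInf : (cuspInf N).ord x = order x` and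
  `ord_cuspZero : (cuspZero N).ord x = order (iota0 N x)` (`iota0` = expansion at the cusp `0`
  in `u = q^(1/N)`).
-/

set_option autoImplicit false

noncomputable section

open HahnSeries ModularCurve IntermediateField WithZero

namespace Fermat.Agent.RED.KD.H22

open Fermat.Agent.S24 Fermat.Agent.RED.H10 AlgebraicCurve
open scoped MatrixGroups

section General

variable {K E : Type*} [Field K] [Field E] [Algebra K E]

/-- If some function has `v`-order `-1`, the place of `v` has `ord = - log v`. -/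
theorem ord_placeOfValuation_eq (v : Valuation E ℤᵐ⁰)
    (hK : ∀ a : K, v (algebraMap K E a) ≤ 1) (hnt : ∃ x : E, x ≠ 0 ∧ v x ≠ 1)
    (y : E) (hy0 : y ≠ 0) (hy : -(WithZero.log (v y)) = -1) (x : E) (hx : x ≠ 0) :
    (placeOfValuation v hK hnt).ord x = -(WithZero.log (v x)) := by
  obtain ⟨e, he, h⟩ := exists_ord_placeOfValuation v hK hnt
  have h1 := h y hy0
  rw [hy] at h1
  have he1 : (e : ℤ) = 1 := by
    have hdvd : (e : ℤ) ∣ 1 := ⟨-(placeOfValuation v hK hnt).ord y, by linarith⟩
    have hpos : (0 : ℤ) < e := by exact_mod_cast he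
    exact Int.eq_one_of_dvd_one hpos.le hdvd
  rw [h x hx, he1, one_mul]

end General

section Laurent

variable {k : Type*} [Field k] (E : IntermediateField k (LaurentSeries k))

/-- The `q`-order valuation on a subfield of `k((q))`. -/
def laurentVal : Valuation E ℤᵐ⁰ :=
  (Valued.v : Valuation (LaurentSeries k) ℤᵐ⁰).comap (algebraMap E (LaurentSeries k))

theorem laurentVal_eq {x : E} (hx : x ≠ 0) :
    laurentVal E x = exp (-(x : LaurentSeries k).order) := by
  have hx' : (x : LaurentSeries k) ≠ 0 := fun h => hx (Subtype.ext h)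
  exact valued_eq_exp_order _ hx'

theorem laurentVal_algebraMap_le (a : k) : laurentVal E (algebraMap k E a) ≤ 1 := by
  rcases eq_or_ne a 0 with rfl | ha
  · rw [map_zero, map_zero]
    exact zero_le_one
  · have hne : algebraMap k E a ≠ 0 := by
      rw [Ne, map_eq_zero_iff _ (algebraMap k E).injective]
      exact ha
    rw [laurentVal_eq E hne]
    have : ((algebraMap k E a : E) : LaurentSeries k) = HahnSeries.C a := by
      show algebraMap k (LaurentSeries k) a = _
      rw [algebraMap_laurentSeries_eq_single, HahnSeries.C_apply]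
    rw [this, HahnSeries.order_C, neg_zero, exp_zero]

variable (y : E) (hy : (y : LaurentSeries k).order = -1)

include hy in
theorem laurent_ne_zero : y ≠ 0 := by
  intro h
  rw [h] at hy
  have : ((0 : E) : LaurentSeries k).order = 0 := HahnSeries.order_zero
  rw [this] at hy
  omega

include hy in
theorem laurentVal_nontrivial : ∃ x : E, x ≠ 0 ∧ laurentVal E x ≠ 1 := by
  refine ⟨y, laurent_ne_zero E y hy, ?_⟩
  rw [laurentVal_eq E (laurent_ne_zero E y hy), hy]
  intro h
  have := congrArg WithZero.log h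
  rw [WithZero.log_exp, WithZero.log_one] at this
  omega

/-- The place "`q`-order" of a subfield of `k((q))` containing an element of order `-1`. -/
def laurentPlace : Place k E :=
  placeOfValuation (laurentVal E) (laurentVal_algebraMap_le E) (laurentVal_nontrivial E y hy)

theorem ord_laurentPlace (x : E) (hx : x ≠ 0) :
    (laurentPlace E y hy).ord x = (x : LaurentSeries k).order := by
  have h0 := laurent_ne_zero E y hy
  rw [laurentPlace, ord_placeOfValuation_eq _ _ _ y h0 (by
    rw [laurentVal_eq E h0, WithZero.log_exp, neg_neg, hy]) x hx, laurentVal_eq E hx,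
    WithZero.log_exp, neg_neg]

theorem mem_laurentPlace_iff (x : E) :
    x ∈ (laurentPlace E y hy).toValuationSubring ↔ x = 0 ∨ 0 ≤ (x : LaurentSeries k).order := by
  show x ∈ (laurentVal E).valuationSubring ↔ _
  rw [Valuation.mem_valuationSubring_iff]
  rcases eq_or_ne x 0 with rfl | hx
  · simp
  · rw [laurentVal_eq E hx, ← exp_zero, exp_le_exp]
    constructor
    · intro h; right; omega
    · rintro (h | h)
      · exact absurd h hx
      · omega

end Laurent

/-! ## The cusps `∞` and `0` of `X₀(N)` -/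

theorem jF_order (N : ℕ) [NeZero N] : ((jF N : FN N) : LaurentSeries Kbar).order = -1 :=
  jBar_order

/-- The place of `F_N` at the cusp `∞`. -/
def cuspInf (N : ℕ) [NeZero N] : Place Kbar (FN N) :=
  laurentPlace (modularFunctionFieldBar N) (jF N) (jF_order N)

theorem ord_cuspInf (N : ℕ) [NeZero N] (x : FN N) (hx : x ≠ 0) :
    (cuspInf N).ord x = (x : LaurentSeries Kbar).order :=
  ord_laurentPlace _ _ _ x hx

theorem val0_self_eq (N : ℕ) [NeZero N] {x : FN N} (hx : x ≠ 0) :
    val0 (dvd_refl N) x = exp (-(iota0 N x).order) := by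
  rw [val0_eq _ hx]
  have : incl (dvd_refl N) x = x := Subtype.ext (incl_coe _ x)
  rw [this]

/-- The place of `F_N` at the cusp `0`. -/
def cuspZero (N : ℕ) [NeZero N] : Place Kbar (FN N) :=
  placeOfValuation (val0 (dvd_refl N)) (val0_algebraMap_le _)
    ⟨jF N, fun h0 => jBar_ne_zero (congrArg (fun y : FN N => (y : LaurentSeries Kbar)) h0),
      val0_jF_ne_one _⟩

theorem jdF_self_ne_zero (N : ℕ) [NeZero N] : jdF N N dvd_rfl ≠ 0 := by
  intro h
  have := congrArg (iota0 N) h
  rw [iota0_jdF_self, map_zero] at this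
  exact jBar_ne_zero this

theorem ord_cuspZero (N : ℕ) [NeZero N] (x : FN N) (hx : x ≠ 0) :
    (cuspZero N).ord x = (iota0 N x).order := by
  rw [cuspZero, ord_placeOfValuation_eq _ _ _ (jdF N N dvd_rfl) (jdF_self_ne_zero N) (by
    rw [val0_self_eq N (jdF_self_ne_zero N), WithZero.log_exp, neg_neg, iota0_jdF_self,
      jBar_order]) x hx, val0_self_eq N hx, WithZero.log_exp, neg_neg]

/-- `j` has a simple pole at `∞` and a pole of order `N` at the cusp `0`. -/
theorem ord_cuspInf_jF (N : ℕ) [NeZero N] : (cuspInf N).ord (jF N) = -1 := by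
  rw [ord_cuspInf N _ (laurent_ne_zero _ _ (jF_order N)), jF_order]

theorem iota0_jF_order (N : ℕ) [NeZero N] : (iota0 N (jF N)).order = -(N : ℤ) := by
  have : NeZero (N / 1) := ⟨by rw [Nat.div_one]; exact NeZero.ne N⟩
  rw [jF_eq_jdF, iota0_jdF N 1 (one_dvd N)]
  have hN : (0 : ℤ) < N := by exact_mod_cast Nat.pos_of_ne_zero (NeZero.ne N)
  have e : -(N : ℤ) = ((N / 1 : ℕ) : ℤ) * (-1) := by rw [Nat.div_one]; ring
  apply le_antisymm
  · apply HahnSeries.order_le_of_coeff_ne_zero
    rw [e, qExpand_coeff_mul, asm_jBar_coeff_neg_one]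
    exact one_ne_zero
  · by_contra hcon
    rw [not_le] at hcon
    have hne : qExpand Kbar (N / 1) jBar ≠ 0 := by
      intro h0
      have := congrArg (fun y : LaurentSeries Kbar => y.coeff (((N / 1 : ℕ) : ℤ) * (-1))) h0
      simp only [qExpand_coeff_mul, asm_jBar_coeff_neg_one, HahnSeries.coeff_zero] at this
      exact one_ne_zero this
    apply hne
    apply HahnSeries.coeff_order_eq_zero.mp
    set n := (qExpand Kbar (N / 1) jBar).order with hn
    by_cases hdvd : ((N / 1 : ℕ) : ℤ) ∣ n
    · obtain ⟨k, hk⟩ := hdvd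
      rw [hk, qExpand_coeff_mul]
      have hk1 : k < -1 := by
        rw [Nat.div_one] at hk
        by_contra hk1
        rw [not_lt] at hk1
        have : (N : ℤ) * (-1) ≤ (N : ℤ) * k := mul_le_mul_of_nonneg_left hk1 hN.le
        omega
      rw [jBar, coeffEmb_coeff, coeff_jq_of_lt hk1, map_zero]
    · exact qExpand_coeff_of_not_dvd _ _ hdvd

theorem ord_cuspZero_jF (N : ℕ) [NeZero N] : (cuspZero N).ord (jF N) = -(N : ℤ) := by
  rw [ord_cuspZero N _ (laurent_ne_zero _ _ (jF_order N)), iota0_jF_order]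

end Fermat.Agent.RED.KD.H22

end
end
-- ==== END Fermat.Agent.RED.KD.H22_CuspPlaces

-- ==== BEGIN Fermat.Agent.S15.H30_CuspUnitL
section

/-!
# S15, package CUSP-tors (helper30), part 2: the modular unit over `ℚ̄`

Transfer of conjugate data from `ℂ` to an algebraically closed field `K ⊂ ℂ`, keeping `D.D` and
the norm; `exists_unitDataBar p` : conjugate data over `ℚ̄` for `Δ(z)/Δ(pz)`, with `D = p - 1` and
constant norm.
-/

set_option autoImplicit false
set_option linter.unusedSectionVars false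
set_option linter.unusedVariables false

open ModularCurve Polynomial

noncomputable section

namespace Fermat.Agent.S15.H30

open Fermat.Agent.S28 (CAData coeffRing iotaN)
open Fermat.Agent.RED.H73 (CADataL coeffRingL)
open Fermat.Agent.RED.H30

section Transfer

variable {K : Type} [Field K] [IsAlgClosed K] (ι : K →+* ℂ) {N : ℕ} [NeZero N] (D : CAData N)

lemma exists_liftU (q : D.Q) : ∃ g : LaurentSeries K, coeffMap ι g = D.U q :=
  exists_coeffMap_eq ι fun n => mem_range_of_mem_coeffRing ι N (D.U_coeff q n)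

/-- The conjugates over `K`. -/
def liftU (q : D.Q) : LaurentSeries K := Classical.choose (exists_liftU ι D q)

lemma coeffMap_liftU (q : D.Q) : coeffMap ι (liftU ι D q) = D.U q :=
  Classical.choose_spec (exists_liftU ι D q)

variable (hXc : ∀ (d : ℕ) (q : D.Q) (n : ℤ), d ∣ N → (D.X d q).coeff n ∈ coeffRing N)

include hXc in
lemma exists_liftX (d : ℕ) (q : D.Q) :
    ∃ g : LaurentSeries K, d ∣ N → coeffMap ι g = D.X d q := by
  by_cases hd : d ∣ N
  · obtain ⟨g, hg⟩ :=
      exists_coeffMap_eq ι fun n => mem_range_of_mem_coeffRing ι N (hXc d q n hd)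
    exact ⟨g, fun _ => hg⟩
  · exact ⟨0, fun h => absurd h hd⟩

/-- The conjugates of `j(dz)` over `K`. -/
def liftX (d : ℕ) (q : D.Q) : LaurentSeries K := Classical.choose (exists_liftX ι D hXc d q)

lemma coeffMap_liftX {d : ℕ} (hd : d ∣ N) (q : D.Q) :
    coeffMap ι (liftX ι D hXc d q) = D.X d q :=
  Classical.choose_spec (exists_liftX ι D hXc d q) hd

variable (hXtop : ∀ q : D.Q, q ≠ D.q₀ → (D.X N q).coeff (-((N : ℤ) ^ 2)) = 0)

/-- **Transfer** of conjugate data from `ℂ` to `K`. -/
def caDataLOf : CADataL K N where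
  Q := D.Q
  instFintype := D.instFintype
  q₀ := D.q₀
  D := D.D
  D_pos := D.D_pos
  U := liftU ι D
  X := liftX ι D hXc
  U_coeff := fun q n => mem_coeffRingL_of_map_mem ι N (by
    rw [← coeffMap_coeff, coeffMap_liftU]; exact D.U_coeff q n)
  U_ne := fun q h => D.U_ne q (by rw [← coeffMap_liftU ι D q, h, map_zero])
  U_lead := fun q => mem_coeffRingL_of_map_mem ι N (by
    rw [map_inv₀, ← coeffMap_leadingCoeff, coeffMap_liftU]; exact D.U_lead q)
  U_order₀ := by rw [← coeffMap_order ι, coeffMap_liftU]; exact D.U_order₀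
  U_order_pos := fun q hq => by rw [← coeffMap_order ι, coeffMap_liftU]; exact D.U_order_pos q hq
  X_coeff := fun d q n hd => mem_coeffRingL_of_map_mem ι N (by
    rw [← coeffMap_coeff, coeffMap_liftX ι D hXc hd]; exact hXc d q n hd)
  X_q₀ := fun d _ hd => coeffMap_injective ι (by
    rw [coeffMap_liftX ι D hXc hd, D.X_q₀ d hd, coeffMap_qExpand_jqModC])
  X_top := fun q hq => ι.injective (by
    rw [← coeffMap_coeff, coeffMap_liftX ι D hXc dvd_rfl, map_zero]; exact hXtop q hq)
  sym := fun d hd c s => mem_adjoin_of_coeffMap_mem ι _ _ (by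
    rw [coeffMap_qExpand_jqModC_one, map_prod]
    have := D.sym d hd (ι c) (ι s)
    convert this using 2
    rename_i q _
    rw [map_sub, map_sub, map_mul, coeffMap_C, coeffMap_C, coeffMap_liftU,
      coeffMap_liftX ι D hXc hd])

lemma caDataLOf_D : (caDataLOf ι D hXc hXtop).D = D.D := rfl

/-- A constant norm stays constant. -/
lemma caDataLOf_prod {c₀ : ℂ} (hc₀ : c₀ ≠ 0) (h : ∏ q, D.U q = HahnSeries.C c₀) :
    ∃ c : K, c ≠ 0 ∧ ∏ q, (caDataLOf ι D hXc hXtop).U q = HahnSeries.C c := by
  set g : LaurentSeries K := ∏ q, (caDataLOf ι D hXc hXtop).U q with hg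
  have hmap : coeffMap ι g = HahnSeries.C c₀ := by
    rw [hg, map_prod, ← h]
    exact Finset.prod_congr rfl fun q _ => coeffMap_liftU ι D q
  have hcoeff : ∀ n : ℤ, ι (g.coeff n) = (HahnSeries.C c₀ : LaurentSeries ℂ).coeff n := fun n => by
    rw [← coeffMap_coeff, hmap]
  refine ⟨g.coeff 0, ?_, ?_⟩
  · intro h0
    have := hcoeff 0
    rw [h0, map_zero, HahnSeries.C_apply, HahnSeries.coeff_single_same] at this
    exact hc₀ this.symm
  · ext n
    by_cases hn : n = 0
    · subst hn
      rw [HahnSeries.C_apply, HahnSeries.coeff_single_same]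
    · rw [HahnSeries.C_apply, HahnSeries.coeff_single_of_ne hn]
      apply ι.injective
      rw [hcoeff n, map_zero, HahnSeries.C_apply, HahnSeries.coeff_single_of_ne hn]

end Transfer

/-- **The modular unit over `ℚ̄`**: conjugate data for `Δ(z)/Δ(pz)` with `D = p - 1` and constant
norm. -/
theorem exists_unitDataL {K : Type} [Field K] [IsAlgClosed K] (ι : K →+* ℂ) (p : ℕ) [NeZero p]
    (hp : p.Prime) :
    ∃ D : CADataL K p, D.D = p - 1 ∧ ∃ c : K, c ≠ 0 ∧ ∏ q, D.U q = HahnSeries.C c := by
  obtain ⟨c₀, hc₀, hprod⟩ := prod_deltaU_eq_C p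
  refine ⟨caDataLOf ι (caDataDelta p hp) (caDataDelta_X_coeff p hp) (caDataDelta_X_top p hp),
    rfl, ?_⟩
  exact caDataLOf_prod ι (caDataDelta p hp) _ _ hc₀ hprod

theorem exists_unitDataBar (p : ℕ) [NeZero p] (hp : p.Prime) :
    ∃ D : CADataL (AlgebraicClosure ℚ) p, D.D = p - 1 ∧
      ∃ c : AlgebraicClosure ℚ, c ≠ 0 ∧ ∏ q, D.U q = HahnSeries.C c :=
  haveI : Algebra.IsAlgebraic ℚ (AlgebraicClosure ℚ) := AlgebraicClosure.isAlgebraic ℚ
  exists_unitDataL ((IsAlgClosed.lift : AlgebraicClosure ℚ →ₐ[ℚ] ℂ) : AlgebraicClosure ℚ →+* ℂ)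
    p hp

end Fermat.Agent.S15.H30

end
end
-- ==== END Fermat.Agent.S15.H30_CuspUnitL

-- ==== BEGIN Fermat.Agent.S36.H44_Push
section

/-!
# S35 / S36, T-X (route Y), helper44: the degeneracy push-forwards on `J₀`

* `pic0Push φ hφ hfin hN : Pic0 K F' →+ Pic0 K F` : the push-forward of divisor classes of degree
  `0` along a finite morphism of function fields (generic).
* `alphaPush M q`, `betaPush M q : JZero (M * q) →+ JZero M` : the push-forwards along the two
  degeneracy maps `heckeAlphaBar`, `heckeBetaBar`.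
* `isQNew_iff` : `IsQNew M q x ↔ alphaPush M q x = 0 ∧ betaPush M q x = 0`.
-/

set_option autoImplicit false
set_option linter.style.haveILetI false
set_option linter.unusedSectionVars false

noncomputable section

namespace Fermat.Agent.S36.H44

open AlgebraicCurve ModularCurve

local notation "Kb" => AlgebraicClosure ℚ

section Generic

variable {K F F' : Type*} [Field K] [Field F] [Field F'] [Algebra K F] [Algebra K F']
variable (φ : F →ₐ[K] F') (hφ : φ.toRingHom.IsIntegral)

/-- The push-forward on divisors of degree `0`. -/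
def degZeroPush :
    Divisor.degZero (K := K) (F := F') →+ Divisor.degZero (K := K) (F := F) :=
  ((Divisor.pushforwardAlong φ hφ).comp (Divisor.degZero (K := K) (F := F')).subtype).codRestrict _
    (fun D => Divisor.pushforwardAlong_mem_degZero φ hφ D.2)

@[simp]
theorem coe_degZeroPush (D : Divisor.degZero (K := K) (F := F')) :
    (degZeroPush φ hφ D : Divisor K F) = Divisor.pushforwardAlong φ hφ (D : Divisor K F') :=
  rfl

variable (hfin : FiniteAlong K φ) (hN : NormFormulaAlong K φ hfin)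

/-- The push-forward on `Pic⁰`. -/
def pic0Push : Pic0 K F' →+ Pic0 K F :=
  QuotientAddGroup.map _ _ (degZeroPush φ hφ) (by
    rintro ⟨D, hD0⟩ hD
    simp only [AddSubgroup.mem_addSubgroupOf] at hD ⊢
    exact Divisor.isPrincipal_pushforwardAlong φ hφ hfin hN hD)

theorem pic0Push_mk (D : Divisor.degZero (K := K) (F := F')) :
    pic0Push φ hφ hfin hN (Pic0.mk D) = Pic0.mk (degZeroPush φ hφ D) :=
  rfl

theorem pic0_mk_eq_zero_iff (D : Divisor.degZero (K := K) (F := F)) :
    Pic0.mk D = 0 ↔ (D : Divisor K F).IsPrincipal := by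
  rw [Pic0.mk, QuotientAddGroup.eq_zero_iff, AddSubgroup.mem_addSubgroupOf]
  rfl

theorem pic0Push_mk_eq_zero_iff (D : Divisor.degZero (K := K) (F := F')) :
    pic0Push φ hφ hfin hN (Pic0.mk D) = 0
      ↔ (Divisor.pushforwardAlong φ hφ (D : Divisor K F')).IsPrincipal := by
  rw [pic0Push_mk, pic0_mk_eq_zero_iff, coe_degZeroPush]

end Generic

section Modular

variable (M q : ℕ) [NeZero M] [NeZero q]

theorem isFF_FN (N : ℕ) [NeZero N] : Fermat.Agent.RED.IsFF Kb ↥(modularFunctionFieldBar N) :=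
  Fermat.Agent.RED.H95.stmt_HKA_isFF N

theorem alpha_integral : HeckeAlphaBarIntegral Kb M q :=
  (Fermat.Agent.RED.H51.stmt_FFB_finite Kb _ _ (isFF_FN M) (isFF_FN (M * q))
    (heckeAlphaBar Kb M q)).1

theorem alpha_finite : FiniteAlong Kb (heckeAlphaBar Kb M q) :=
  (Fermat.Agent.RED.H51.stmt_FFB_finite Kb _ _ (isFF_FN M) (isFF_FN (M * q))
    (heckeAlphaBar Kb M q)).2

theorem alpha_norm : NormFormulaAlong Kb (heckeAlphaBar Kb M q) (alpha_finite M q) :=
  Fermat.Agent.RED.H51.stmt_FFB_norm Kb _ _ (isFF_FN M) (isFF_FN (M * q)) _ _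

theorem beta_integral : HeckeBetaBarIntegral Kb M q :=
  (Fermat.Agent.RED.H51.stmt_FFB_finite Kb _ _ (isFF_FN M) (isFF_FN (M * q))
    (heckeBetaBar Kb M q)).1

theorem beta_finite : FiniteAlong Kb (heckeBetaBar Kb M q) :=
  (Fermat.Agent.RED.H51.stmt_FFB_finite Kb _ _ (isFF_FN M) (isFF_FN (M * q))
    (heckeBetaBar Kb M q)).2

theorem beta_norm : NormFormulaAlong Kb (heckeBetaBar Kb M q) (beta_finite M q) :=
  Fermat.Agent.RED.H51.stmt_FFB_norm Kb _ _ (isFF_FN M) (isFF_FN (M * q)) _ _

/-- `α_* : J₀(M q) → J₀(M)`. -/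
def alphaPush : JZero (M * q) →+ JZero M :=
  pic0Push (heckeAlphaBar Kb M q) (alpha_integral M q) (alpha_finite M q) (alpha_norm M q)

/-- `β_* : J₀(M q) → J₀(M)`. -/
def betaPush : JZero (M * q) →+ JZero M :=
  pic0Push (heckeBetaBar Kb M q) (beta_integral M q) (beta_finite M q) (beta_norm M q)

theorem alphaPush_mk (D : Divisor.degZero (K := Kb) (F := ↥(modularFunctionFieldBar (M * q)))) :
    alphaPush M q (Pic0.mk D)
      = Pic0.mk (degZeroPush (heckeAlphaBar Kb M q) (alpha_integral M q) D) :=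
  rfl

theorem betaPush_mk (D : Divisor.degZero (K := Kb) (F := ↥(modularFunctionFieldBar (M * q)))) :
    betaPush M q (Pic0.mk D)
      = Pic0.mk (degZeroPush (heckeBetaBar Kb M q) (beta_integral M q) D) :=
  rfl

/-- **`q`-new = killed by both degeneracy push-forwards.** -/
theorem isQNew_iff (x : JZero (M * q)) :
    Fermat.Agent.S35.H89.IsQNew M q x ↔ alphaPush M q x = 0 ∧ betaPush M q x = 0 := by
  constructor
  · rintro ⟨hα, hβ, D, rfl, h1, h2⟩
    exact ⟨(pic0Push_mk_eq_zero_iff _ _ _ _ D).mpr h1, (pic0Push_mk_eq_zero_iff _ _ _ _ D).mpr h2⟩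
  · rintro ⟨h1, h2⟩
    obtain ⟨D, rfl⟩ := Pic0.mk_surjective x
    exact ⟨alpha_integral M q, beta_integral M q, D, rfl,
      (pic0Push_mk_eq_zero_iff _ _ _ _ D).mp h1, (pic0Push_mk_eq_zero_iff _ _ _ _ D).mp h2⟩

theorem isQNew_of_push (x : JZero (M * q)) (h1 : alphaPush M q x = 0) (h2 : betaPush M q x = 0) :
    Fermat.Agent.S35.H89.IsQNew M q x :=
  (isQNew_iff M q x).mpr ⟨h1, h2⟩

end Modular

end Fermat.Agent.S36.H44

end
end
-- ==== END Fermat.Agent.S36.H44_Push
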