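-- GENERATED (merged mirror, NOTES/tools/trim/merge3_helper67.py): 7 modules of the originals, bodies verbatim.
import Fermat.Agent.Zm.S35_L11_001
import Fermat.Agent.Zm.S35_L10_001
import Fermat.Agent.Zm.S35_L13_001
import Fermat.Agent.Zm.S35_L02_001
import Fermat.Agent.Zm.S35_L01_003
import Fermat.Agent.Zm.S35_L09_002
import Fermat.Agent.Zm.S35_L09_001
import Fermat.Agent.Zm.S35_L08_001
import Fermat.Agent.Zm.S35_L13_002
import Fermat.Agent.Zm.S35_L10_002
import Fermat.Agent.Zm.S35_L07_002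
import Fermat.Agent.Zm.S35_L03_006
import Fermat.Agent.Zm.S35_L07_003

-- ==== BEGIN Fermat.Agent.Lib.HeckeComm.H2_CommAll
section
attribute [local instance 10000] SubalgebraClass.toAlgebra
attribute [local instance 10000] HahnSeries.powerSeriesAlgebra

/-!
# COMM (helper2): commutation of ALL Hecke operators of `J₀(N)`, given package G

`n_ℓ (n_ℓ' f) = Norm_{F_{Nℓ'ℓ} / F_N} (f (q ^ (ℓ' ℓ)))` by base change of the norm in the square
`F_N ⊂ F_{Nℓ'}`, `V_ℓ : F_N → F_{Nℓ}`, `V_ℓ : F_{Nℓ'} → F_{Nℓ'ℓ}`, `F_{Nℓ} ⊂ F_{Nℓ'ℓ}`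
(generator `j (q ^ (Nℓ'))`, degrees from `ψ`), and transitivity of the norm.
-/

set_option autoImplicit false
set_option linter.style.haveILetI false
set_option linter.unusedSectionVars false

noncomputable section

namespace Fermat.Agent.Lib.HeckeComm

open AlgebraicCurve ModularCurve Fermat.Agent.S24 Fermat.Agent.GTor Fermat.Agent.GTor.H2

local notation "Kb" => AlgebraicClosure ℚ

/-- The `ψ`-identity behind the equality of degrees. -/
theorem psi_square {N ℓ ℓ' : ℕ} (hN : N ≠ 0) (hℓ : ℓ.Prime) (hℓ' : ℓ'.Prime) (hne : ℓ ≠ ℓ') :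
    dedekindPsi (N * ℓ') * dedekindPsi (N * ℓ) = dedekindPsi N * dedekindPsi (N * ℓ' * ℓ) := by
  obtain ⟨a, N₁, hN₁, rfl⟩ := Nat.exists_eq_pow_mul_and_not_dvd hN ℓ hℓ.ne_one
  have hcℓ : Nat.Coprime ℓ N₁ := (Nat.Prime.coprime_iff_not_dvd hℓ).mpr hN₁
  have hcℓℓ' : Nat.Coprime ℓ ℓ' := (Nat.coprime_primes hℓ hℓ').mpr hne
  have hcℓ2 : Nat.Coprime ℓ (N₁ * ℓ') := Nat.Coprime.mul_right hcℓ hcℓℓ'
  have e1 : ℓ ^ a * N₁ * ℓ' = ℓ ^ a * (N₁ * ℓ') := by ring
  have e2 : ℓ ^ a * N₁ * ℓ = ℓ ^ (a + 1) * N₁ := by ring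
  have e3 : ℓ ^ a * N₁ * ℓ' * ℓ = ℓ ^ (a + 1) * (N₁ * ℓ') := by ring
  rw [e3, e1, e2, Fermat.Agent.S20.H19.dedekindPsi_mul (hcℓ.pow_left a),
    Fermat.Agent.S20.H19.dedekindPsi_mul (hcℓ2.pow_left a),
    Fermat.Agent.S20.H19.dedekindPsi_mul (hcℓ.pow_left (a + 1)),
    Fermat.Agent.S20.H19.dedekindPsi_mul (hcℓ2.pow_left (a + 1))]
  ring

theorem jdF_congr (M : ℕ) [NeZero M] (d d' : ℕ) [NeZero d] [NeZero d'] (hd : d ∣ M) (hd' : d' ∣ M)
    (h : d = d') : jdF M d hd = jdF M d' hd' := by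
  subst h
  rfl

theorem heckeNormFn_eq_normAlongHom (N ℓ : ℕ) [NeZero N] [NeZero ℓ] (f : FN N) :
    heckeNormFn Kb N ℓ f
      = normAlongHom (heckeAlphaBar Kb N ℓ).toRingHom (heckeBetaBar Kb N ℓ f) := rfl

/-- The norm along the inclusion only depends on the Laurent series. -/
theorem normAlongHom_incl_congr (X M M' : ℕ) [NeZero X] [NeZero M] [NeZero M'] (h : X ∣ M)
    (h' : X ∣ M') (hMM' : M = M') (z : FN M) (z' : FN M')
    (hz : (z : LaurentSeries Kb) = (z' : LaurentSeries Kb)) :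
    normAlongHom (inclFN X M h).toRingHom z = normAlongHom (inclFN X M' h').toRingHom z' := by
  subst hMM'
  have : z = z' := Subtype.ext hz
  subst this
  rfl

section Key

variable (hG : ∀ (X M : ℕ) [NeZero X] [NeZero M] (h : X ∣ M), Stmt_GenJ X M h)
variable (N ℓ ℓ' : ℕ) [NeZero N] [NeZero ℓ] [NeZero ℓ']

/-- Equality of the degrees in the base change square. -/
theorem finrank_square (hℓ : ℓ.Prime) (hℓ' : ℓ'.Prime) (hne : ℓ ≠ ℓ') :
    (letI := (inclFN N (N * ℓ') (dvd_mul_right N ℓ')).toRingHom.toAlgebra;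
      Module.finrank (FN N) (FN (N * ℓ')))
    = (letI := (inclFN (N * ℓ) (N * ℓ' * ℓ) (by
          rw [mul_right_comm]; exact dvd_mul_right _ _)).toRingHom.toAlgebra;
      Module.finrank (FN (N * ℓ)) (FN (N * ℓ' * ℓ))) := by
  have h1 := stmt_Deg N (N * ℓ') (dvd_mul_right N ℓ')
  have h2 := stmt_Deg (N * ℓ) (N * ℓ' * ℓ) (by rw [mul_right_comm]; exact dvd_mul_right _ _)
  unfold Stmt_Deg at h1 h2
  have h3 := psi_square (NeZero.ne N) hℓ hℓ' hne
  rw [← h1, ← h2] at h3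
  have hp1 := dedekindPsi_pos_h2 N
  have hp2 := dedekindPsi_pos_h2 (N * ℓ)
  -- `d₁ ψ(N) * (ψ(Nℓ)) = ψ(N) * (d₂ ψ(Nℓ))`
  have h4 : (letI := (inclFN N (N * ℓ') (dvd_mul_right N ℓ')).toRingHom.toAlgebra;
      Module.finrank (FN N) (FN (N * ℓ'))) * (dedekindPsi N * dedekindPsi (N * ℓ))
    = (letI := (inclFN (N * ℓ) (N * ℓ' * ℓ) (by
          rw [mul_right_comm]; exact dvd_mul_right _ _)).toRingHom.toAlgebra;
      Module.finrank (FN (N * ℓ)) (FN (N * ℓ' * ℓ))) * (dedekindPsi N * dedekindPsi (N * ℓ)) := by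
    linear_combination h3
  exact Nat.eq_of_mul_eq_mul_right (Nat.mul_pos hp1 hp2) h4

include hG in
/-- **Base change of the norm** in the Hecke square. -/
theorem beta_norm_eq (hℓ : ℓ.Prime) (hℓ' : ℓ'.Prime) (hne : ℓ ≠ ℓ') (x : FN (N * ℓ')) :
    heckeBetaBar Kb N ℓ (normAlongHom (heckeAlphaBar Kb N ℓ').toRingHom x)
      = normAlongHom (inclFN (N * ℓ) (N * ℓ' * ℓ) (by
          rw [mul_right_comm]; exact dvd_mul_right _ _)).toRingHom
          (heckeBetaBar Kb (N * ℓ') ℓ x) := by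
  have hdvd : N * ℓ ∣ N * ℓ' * ℓ := by rw [mul_right_comm]; exact dvd_mul_right _ _
  refine normAlongHom_baseChange (heckeAlphaBar Kb N ℓ').toRingHom
    (inclFN (N * ℓ) (N * ℓ' * ℓ) hdvd).toRingHom (heckeBetaBar Kb N ℓ).toRingHom
    (heckeBetaBar Kb (N * ℓ') ℓ).toRingHom ?_ ?_ ?_ (jdF (N * ℓ') (N * ℓ') dvd_rfl) ?_ ?_ ?_ x
  · intro a
    apply Subtype.ext
    simp only [AlgHom.toRingHom_eq_coe, RingHom.coe_coe, coe_heckeBetaBar, coe_heckeAlphaBar,
      coe_inclFN]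
  · exact stmt_Fin N (N * ℓ') (dvd_mul_right N ℓ')
  · exact stmt_Fin (N * ℓ) (N * ℓ' * ℓ) hdvd
  · exact hG N (N * ℓ') (dvd_mul_right N ℓ')
  · have h := hG (N * ℓ) (N * ℓ' * ℓ) hdvd
    have hj : (heckeBetaBar Kb (N * ℓ') ℓ).toRingHom (jdF (N * ℓ') (N * ℓ') dvd_rfl)
        = jdF (N * ℓ' * ℓ) (N * ℓ' * ℓ) dvd_rfl := by
      show heckeBetaBar Kb (N * ℓ') ℓ (jdF (N * ℓ') (N * ℓ') dvd_rfl) = _
      rw [Fermat.Agent.RED.H95.beta_jdF]
      exact jdF_congr _ _ _ _ _ (mul_comm _ _)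
    rw [hj]
    exact h
  · exact finrank_square N ℓ ℓ' hℓ hℓ' hne

include hG in
/-- `n_ℓ (n_ℓ' f)` is the norm of `f (q ^ (ℓ' ℓ))` from `F_{Nℓ'ℓ}` to `F_N`. -/
theorem heckeNormFn_heckeNormFn (hℓ : ℓ.Prime) (hℓ' : ℓ'.Prime) (hne : ℓ ≠ ℓ') (f : FN N) :
    heckeNormFn Kb N ℓ (heckeNormFn Kb N ℓ' f)
      = normAlongHom (inclFN N (N * ℓ' * ℓ) (by
          rw [mul_assoc]; exact dvd_mul_right _ _)).toRingHom
          (heckeBetaBar Kb (N * ℓ') ℓ (heckeBetaBar Kb N ℓ' f)) := by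
  have hdvd : N * ℓ ∣ N * ℓ' * ℓ := by rw [mul_right_comm]; exact dvd_mul_right _ _
  have hcomp : (inclFN (N * ℓ) (N * ℓ' * ℓ) hdvd).toRingHom.comp (heckeAlphaBar Kb N ℓ).toRingHom
      = (inclFN N (N * ℓ' * ℓ) (by rw [mul_assoc]; exact dvd_mul_right _ _)).toRingHom := by
    ext a
    simp only [RingHom.comp_apply, AlgHom.toRingHom_eq_coe, RingHom.coe_coe, coe_heckeAlphaBar,
      coe_inclFN]
  rw [heckeNormFn_eq_normAlongHom, heckeNormFn_eq_normAlongHom,
    beta_norm_eq hG N ℓ ℓ' hℓ hℓ' hne, normAlongHom_comp, hcomp]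

include hG in
/-- **The norm functions of any two distinct primes commute.** -/
theorem heckeNormFn_comm_of_genJ (hℓ : ℓ.Prime) (hℓ' : ℓ'.Prime) (hne : ℓ ≠ ℓ') (f : FN N) :
    heckeNormFn Kb N ℓ (heckeNormFn Kb N ℓ' f) = heckeNormFn Kb N ℓ' (heckeNormFn Kb N ℓ f) := by
  rw [heckeNormFn_heckeNormFn hG N ℓ ℓ' hℓ hℓ' hne, heckeNormFn_heckeNormFn hG N ℓ' ℓ hℓ' hℓ hne.symm]
  refine normAlongHom_incl_congr N _ _ _ _ (by ring) _ _ ?_
  rw [coe_heckeBetaBar, coe_heckeBetaBar, coe_heckeBetaBar, coe_heckeBetaBar]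
  exact qExpand_comm ℓ ℓ' _

end Key

/-- **COMM from package G**: all Hecke operators of `J₀(N)` commute. -/
theorem heckeOperatorsCommuteBar_of_genJ
    (hG : ∀ (X M : ℕ) [NeZero X] [NeZero M] (h : X ∣ M), Stmt_GenJ X M h)
    (N : ℕ) [NeZero N] : HeckeOperatorsCommuteBar N := by
  intro ℓ ℓ'
  by_cases hne : ℓ = ℓ'
  · rw [hne]
  · haveI : NeZero (ℓ : ℕ) := ⟨ℓ.2.ne_zero⟩
    haveI : NeZero (ℓ' : ℕ) := ⟨ℓ'.2.ne_zero⟩
    refine heckeOperatorBar_comm_of N ℓ ℓ' fun f _ => ?_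
    exact heckeNormFn_comm_of_genJ hG N ℓ ℓ' ℓ.2 ℓ'.2 (fun h => hne (Subtype.ext h)) f

end Fermat.Agent.Lib.HeckeComm

end
end
-- ==== END Fermat.Agent.Lib.HeckeComm.H2_CommAll

-- ==== BEGIN Fermat.Agent.RED.ES.H95_NormAlpha
section

/-!
# G-RED / G-TOR (helper95): the norm along `α`

`ℓ` prime, `ℓ ∤ N`, `α, β : F_N → F_{Nℓ}` the degeneracy maps of the prelude
(`heckeAlphaBar`, `heckeBetaBar` over `Q̄`).  `H95_ES2` computes the norm of `α g` for the algebra
structure `algebraAlong β`; here the norm of `β g` for the algebra structure `algebraAlong α`: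

* `finrankAlong_alpha` : `[F_{Nℓ} : α F_N] = ℓ + 1`;
* `norm_alpha_beta_eq` : `N_α (β g) = N_β (α g)` in `F_N` (the Hecke correspondence is symmetric);
* `norm_beta_qExpand` : `(N_α (β g)) (q ^ ℓ) = g (q ^ (ℓ²)) * ∏_{b < ℓ} g (ζ ^ b q)`,
  i.e. `N_α (β g) (q) = g (q ^ ℓ) * ∏_{b < ℓ} g (ζ ^ b q ^ (1 / ℓ))`.

Method: `ρ' = π (δ∞⁻¹) ∘ φ : F_{Nℓ} → L = LN (N ℓ)` satisfies `ρ' ∘ α = φ ∘ α = ρ ∘ β` and
`ρ' ∘ β = ρ ∘ α`, so that `ρ'` is an `F_N`-embedding for the structure `α` on `F_{Nℓ}` and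
`φ ∘ α` on `L`, with the same image as `ρ`; the `ℓ + 1` automorphisms `sigmaK c` of `H95_HeckeNorm`
cover the embeddings over `α` as well.
-/

set_option autoImplicit false

noncomputable section

namespace Fermat.Agent.RED.H95

open Fermat.Agent.S24 ModularCurve Matrix ModularGroup CongruenceSubgroup UpperHalfPlane
open scoped MatrixGroups

variable {N : ℕ} [NeZero N] {ℓ : ℕ} [NeZero ℓ]

/-- Two homomorphisms on `F_{Nℓ}` which agree on `α F_N` and on `β F_N` are equal. -/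
theorem algHom_ext_alpha_beta (hℓ : ℓ.Prime) {B : Type*} [Field B] [Algebra Kbar B]
    (f g : FN (N * ℓ) →ₐ[Kbar] B)
    (hα : ∀ x : FN N, f (heckeAlphaBar Kbar N ℓ x) = g (heckeAlphaBar Kbar N ℓ x))
    (hβ : ∀ x : FN N, f (heckeBetaBar Kbar N ℓ x) = g (heckeBetaBar Kbar N ℓ x)) : f = g := by
  apply algHom_eq_of_adjoin_eq_top _ _ _ (adjoin_jdF (N * ℓ))
  rintro _ ⟨d', hd0, hd', rfl⟩
  rcases dvd_mul_prime_cases hℓ hd' with hdN | ⟨d, hdN, rfl⟩
  · have e := alpha_jdF N (ℓ := ℓ) d' hdN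
    rw [← e]
    exact hα _
  · have : NeZero d := ⟨fun h0 => NeZero.ne (ℓ * d) (by rw [h0, mul_zero])⟩
    have e := beta_jdF N (ℓ := ℓ) d hdN
    rw [← e]
    exact hβ _

theorem piK_one (M : ℕ) [NeZero M] (y : LN M) : piK M 1 y = y := by
  rw [piK_apply, map_one]
  rfl

theorem piK_inv_piK (M : ℕ) [NeZero M] (γ : SL(2, ℤ)) (y : LN M) :
    piK M γ⁻¹ (piK M γ y) = y := by
  rw [← piK_mul, inv_mul_cancel, piK_one]

theorem piK_piK_inv (M : ℕ) [NeZero M] (γ : SL(2, ℤ)) (y : LN M) :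
    piK M γ (piK M γ⁻¹ y) = y := by
  rw [← piK_mul, mul_inv_cancel, piK_one]

/-- `ρ' = π (δ∞⁻¹) ∘ φ : F_{Nℓ} → L` (morally `ρ ∘ w_ℓ`). -/
def rhoW (u v : ℤ) (h : u * ℓ + v * N = 1) : FN (N * ℓ) →ₐ[Kbar] LN (N * ℓ) :=
  (piK (N * ℓ) (deltaInf N ℓ u v h)⁻¹).comp (phi (N * ℓ))

theorem rhoW_apply (u v : ℤ) (h : u * ℓ + v * N = 1) (x : FN (N * ℓ)) :
    rhoW u v h x = piK (N * ℓ) (deltaInf N ℓ u v h)⁻¹ (phi (N * ℓ) x) := rfl

theorem piK_deltaInf_rhoW (u v : ℤ) (h : u * ℓ + v * N = 1) (x : FN (N * ℓ)) :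
    piK (N * ℓ) (deltaInf N ℓ u v h) (rhoW u v h x) = phi (N * ℓ) x := by
  rw [rhoW_apply, piK_piK_inv]

theorem rhoW_alpha (u v : ℤ) (h : u * ℓ + v * N = 1) (g : FN N) :
    rhoW u v h (heckeAlphaBar Kbar N ℓ g) = phi (N * ℓ) (heckeAlphaBar Kbar N ℓ g) := by
  have := piK_phiAlpha_of_mem_Gamma0 N (ℓ := ℓ) _ (inv_mem (deltaInf_mem_Gamma0 N ℓ u v h))
  exact congrArg (fun f : FN N →ₐ[Kbar] LN (N * ℓ) => f g) this

theorem rhoW_beta (hℓ : ℓ.Prime) (u v : ℤ) (h : u * ℓ + v * N = 1) (g : FN N) :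
    rhoW u v h (heckeBetaBar Kbar N ℓ g) = rho N hℓ (heckeAlphaBar Kbar N ℓ g) := by
  have e2 := congrArg (fun f : FN N →ₐ[Kbar] LN (N * ℓ) => f g)
    (piK_deltaInf_rho_alpha hℓ u v h)
  simp only [AlgHom.comp_apply] at e2
  rw [rhoW_apply, ← e2, piK_inv_piK]

/-- An element of `Γ₀(N) ∩ Γ⁰(ℓ)` fixes `ρ' (F_{Nℓ})`. -/
theorem piK_rhoW_of_fix (hℓ : ℓ.Prime) (u v : ℤ) (h : u * ℓ + v * N = 1) (η : SL(2, ℤ))
    (hb : (ℓ : ℤ) ∣ (η⁻¹ : SL(2, ℤ)).1 0 1) (hc : (N : ℤ) ∣ (η⁻¹ : SL(2, ℤ)).1 1 0) :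
    (piK (N * ℓ) η).comp (rhoW u v h) = rhoW u v h := by
  have hfix : ∀ x, piK (N * ℓ) η (rho N hℓ x) = rho N hℓ x := fun x =>
    congrArg (fun f : FN (N * ℓ) →ₐ[Kbar] LN (N * ℓ) => f x) (piK_rho_of_fix hℓ η hb hc)
  apply algHom_ext_alpha_beta hℓ
  · intro g
    rw [AlgHom.comp_apply, rhoW_alpha, ← rho_beta N hℓ, hfix]
  · intro g
    rw [AlgHom.comp_apply, rhoW_beta hℓ, hfix]

variable (N) in
/-- `F_{Nℓ}` as an algebra over `F_N` through `α`. -/
@[reducible] def algAlpha : Algebra (FN N) (FN (N * ℓ)) :=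
  AlgebraicCurve.algebraAlong (heckeAlphaBar Kbar N ℓ)

section Alpha

attribute [local instance] algAlpha algPhiAlpha

theorem algebraMap_alpha (g : FN N) :
    algebraMap (FN N) (FN (N * ℓ)) g = heckeAlphaBar Kbar N ℓ g := rfl

/-- `ρ'` as a homomorphism of `F_N`-algebras (structure `α` on `F_{Nℓ}`). -/
def rhoWK (u v : ℤ) (h : u * ℓ + v * N = 1) : FN (N * ℓ) →ₐ[FN N] LN (N * ℓ) :=
  { (rhoW u v h).toRingHom with
    commutes' := fun g => rhoW_alpha u v h g }

theorem rhoWK_apply (u v : ℤ) (h : u * ℓ + v * N = 1) (x : FN (N * ℓ)) :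
    rhoWK u v h x = rhoW u v h x := rfl

theorem finiteDimensional_alpha (hℓ : ℓ.Prime) (hN : ¬ ℓ ∣ N) :
    FiniteDimensional (FN N) (FN (N * ℓ)) := by
  obtain ⟨u, v, h⟩ := exists_bezout hℓ hN
  exact finiteDimensional_of_algHom (rhoWK u v h)

theorem isSeparable_alpha (hℓ : ℓ.Prime) (hN : ¬ ℓ ∣ N) :
    Algebra.IsSeparable (FN N) (FN (N * ℓ)) := by
  have := finiteDimensional_alpha (N := N) hℓ hN
  infer_instance

/-- Every `F_N`-endomorphism of `LN (N ℓ)` agrees on `ρ' (F_{Nℓ})` with some `sigmaK c`. -/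
theorem sigmaK_cover_alpha (hℓ : ℓ.Prime) (u v : ℤ) (h : u * ℓ + v * N = 1)
    (τ : LN (N * ℓ) →ₐ[FN N] LN (N * ℓ)) :
    ∃ c, τ.comp (rhoWK u v h) = (sigmaK u v h c).comp (rhoWK u v h) := by
  let τE : LN (N * ℓ) →ₐ[EN] LN (N * ℓ) := τ.restrictScalars EN
  let τ' : LN (N * ℓ) ≃ₐ[EN] LN (N * ℓ) := AlgEquiv.ofBijective τE (AlgHom.bijective τE)
  obtain ⟨γ, hγ⟩ := piN_surjective (N * ℓ) τ'
  have hτ : ∀ y, piN (N * ℓ) γ y = τ y := fun y => by rw [hγ]; rfl
  have hγ0 : γ ∈ Gamma0 N := by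
    apply mem_Gamma0_of_piK_phiAlpha N (ℓ := ℓ) γ
    rw [piK_apply, hτ]
    exact τ.commutes (jdF N N dvd_rfl)
  obtain ⟨c, η, hγη, hb, hc⟩ := exists_cosetRep N ℓ hℓ u v h γ hγ0
  refine ⟨c, ?_⟩
  ext x
  rw [AlgHom.comp_apply, AlgHom.comp_apply, ← hτ, hγη, sigmaK_apply, rhoWK_apply, map_mul]
  show piN (N * ℓ) (cosetRep N ℓ u v h c) (piK (N * ℓ) η (rhoW u v h x)) = _
  have := piK_rhoW_of_fix hℓ u v h η hb hc
  rw [← AlgHom.comp_apply, this]

end Alpha

/-- Distinctness of the `sigmaK c` on the single element `ρ (j)`. -/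
theorem sigmaK_rho_jdF_injective (hℓ : ℓ.Prime) (u v : ℤ) (h : u * ℓ + v * N = 1)
    (c c' : Option (Fin ℓ))
    (hv0 : piK (N * ℓ) (cosetRep N ℓ u v h c) (rho N hℓ (jdF (N * ℓ) 1 (one_dvd _)))
      = piK (N * ℓ) (cosetRep N ℓ u v h c') (rho N hℓ (jdF (N * ℓ) 1 (one_dvd _)))) :
    c = c' := by
  have hv : (UL (N * ℓ) (sigmaK u v h c (rhoK hℓ (jdF (N * ℓ) 1 (one_dvd _))))).coeff (-(N : ℤ))
        = (UL (N * ℓ) (sigmaK u v h c' (rhoK hℓ (jdF (N * ℓ) 1 (one_dvd _))))).coeff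
          (-(N : ℤ)) := by
    show (UL (N * ℓ) (piK (N * ℓ) (cosetRep N ℓ u v h c)
      (rho N hℓ (jdF (N * ℓ) 1 (one_dvd _))))).coeff (-(N : ℤ)) = (UL (N * ℓ) (piK (N * ℓ)
      (cosetRep N ℓ u v h c') (rho N hℓ (jdF (N * ℓ) 1 (one_dvd _))))).coeff (-(N : ℤ))
    rw [hv0]
  rw [coeff_sigmaK_rho_jF, coeff_sigmaK_rho_jF] at hv
  have hz : zetaK (N * ℓ) ≠ 0 := zetaK_ne_zero (N * ℓ)
  have hne : ∀ b : ℕ, ((zetaK (N * ℓ))⁻¹ ^ b) ^ (-(N : ℤ)) ≠ 0 :=
    fun b => zpow_ne_zero _ (pow_ne_zero _ (inv_ne_zero hz))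
  have hform : ∀ b : ℕ, ((zetaK (N * ℓ))⁻¹ ^ b) ^ (-(N : ℤ)) = zetaK (N * ℓ) ^ ((b : ℤ) * N) := by
    intro b
    rw [← zpow_natCast, ← _root_.zpow_mul, _root_.inv_zpow']
    congr 1
    ring
  cases c with
  | none =>
    cases c' with
    | none => rfl
    | some b' => exact absurd hv.symm (hne _)
  | some b =>
    cases c' with
    | none => exact absurd hv (hne _)
    | some b' =>
      simp only at hv
      rw [hform, hform] at hv
      have h1 : zetaK (N * ℓ) ^ (((b : ℕ) : ℤ) * N - ((b' : ℕ) : ℤ) * N) = 1 := by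
        rw [zpow_sub₀ hz, hv, div_self (zpow_ne_zero _ hz)]
      rw [zetaK_zpow_eq_one_iff] at h1
      obtain ⟨k, hk⟩ := h1
      have hN : (0 : ℤ) < N := by exact_mod_cast NeZero.pos N
      push_cast at hk
      have hk' : (N : ℤ) * (((b : ℕ) : ℤ) - ((b' : ℕ) : ℤ) - ℓ * k) = 0 := by
        linear_combination hk
      have hk2 : ((b : ℕ) : ℤ) - ((b' : ℕ) : ℤ) = ℓ * k := by
        rcases mul_eq_zero.mp hk' with h0 | h0
        · omega
        · linarith
      have hb := b.2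
      have hb' := b'.2
      have hk0 : k = 0 := by
        by_contra hk0
        have hℓpos : (0 : ℤ) < ℓ := by exact_mod_cast hℓ.pos
        rcases lt_or_gt_of_ne hk0 with hneg | hpos
        · have : (ℓ : ℤ) * k ≤ -ℓ := by nlinarith
          omega
        · have : (ℓ : ℤ) ≤ ℓ * k := by nlinarith
          omega
      rw [hk0, mul_zero] at hk2
      congr 1
      apply Fin.ext
      omega

section Alpha2

attribute [local instance] algAlpha algPhiAlpha

theorem sigmaK_injective_alpha (hℓ : ℓ.Prime) (u v : ℤ) (h : u * ℓ + v * N = 1) :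
    Function.Injective fun c => (sigmaK u v h c).comp (rhoWK u v h) := by
  intro c c' hcc
  apply sigmaK_rho_jdF_injective hℓ u v h
  have e := congrArg (fun f : FN (N * ℓ) →ₐ[FN N] LN (N * ℓ) =>
    f (heckeBetaBar Kbar N ℓ (jdF N 1 (one_dvd _)))) hcc
  simp only [AlgHom.comp_apply, rhoWK_apply, rhoW_beta hℓ, alpha_jdF] at e
  exact e

/-- `[F_{Nℓ} : α F_N] = ℓ + 1`. -/
theorem finrank_alpha (hℓ : ℓ.Prime) (hN : ¬ ℓ ∣ N) :
    Module.finrank (FN N) (FN (N * ℓ)) = ℓ + 1 := by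
  obtain ⟨u, v, h⟩ := exists_bezout hℓ hN
  have := isSeparable_alpha (N := N) hℓ hN
  rw [finrank_eq_card_of_cover (rhoWK u v h) (sigmaK u v h) (sigmaK_cover_alpha hℓ u v h)
    (sigmaK_injective_alpha hℓ u v h), Fintype.card_option, Fintype.card_fin]

/-- `[F_{Nℓ} : α F_N] = ℓ + 1`, in the vocabulary of the prelude. -/
theorem finrankAlong_alpha (hℓ : ℓ.Prime) (hN : ¬ ℓ ∣ N) :
    AlgebraicCurve.finrankAlong Kbar (heckeAlphaBar Kbar N ℓ) = ℓ + 1 :=
  finrank_alpha hℓ hN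

/-- `α` is finite. -/
theorem finiteAlong_alpha (hℓ : ℓ.Prime) (hN : ¬ ℓ ∣ N) :
    AlgebraicCurve.FiniteAlong Kbar (heckeAlphaBar Kbar N ℓ) :=
  finiteDimensional_alpha (N := N) hℓ hN

/-- The norm of `y ∈ F_{Nℓ}` along `α`, expanded in `u = q ^ (1 / (N ℓ))`. -/
theorem qExpand_norm_along_alpha (hℓ : ℓ.Prime) (hN : ¬ ℓ ∣ N) (u v : ℤ)
    (h : u * ℓ + v * N = 1) (y : FN (N * ℓ)) :
    qExpand Kbar (N * ℓ) ((Algebra.norm (FN N) y : FN N) : LaurentSeries Kbar)
      = ∏ c, UL (N * ℓ) (piK (N * ℓ) (cosetRep N ℓ u v h c) (rhoW u v h y)) := by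
  have := isSeparable_alpha (N := N) hℓ hN
  have hnorm := norm_eq_prod_of_cover (rhoWK u v h) (sigmaK u v h) (sigmaK_cover_alpha hℓ u v h)
    (sigmaK_injective_alpha hℓ u v h) y
  have h2 := congrArg (UL (N * ℓ)) hnorm
  rw [map_prod, algebraMap_phiAlpha, phiAlpha_apply, UL_phi, qN_apply, coe_heckeAlphaBar] at h2
  exact h2

end Alpha2

/-- **Symmetry of the Hecke correspondence**: `N_α (β g) = N_β (α g)` in `F_N`. -/
theorem norm_alpha_beta_eq (hℓ : ℓ.Prime) (hN : ¬ ℓ ∣ N) (g : FN N) :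
    @Algebra.norm (FN N) (FN (N * ℓ)) _ _ (AlgebraicCurve.algebraAlong (heckeAlphaBar Kbar N ℓ))
        (heckeBetaBar Kbar N ℓ g)
      = @Algebra.norm (FN N) (FN (N * ℓ)) _ _
          (AlgebraicCurve.algebraAlong (heckeBetaBar Kbar N ℓ)) (heckeAlphaBar Kbar N ℓ g) := by
  obtain ⟨u, v, h⟩ := exists_bezout hℓ hN
  apply Subtype.ext
  apply qExpand_injective (R := Kbar) (N * ℓ)
  have h1 := qExpand_norm_along_alpha hℓ hN u v h (heckeBetaBar Kbar N ℓ g)
  have h2 := qExpand_norm hℓ u v h (heckeAlphaBar Kbar N ℓ g)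
  refine h1.trans (Eq.trans ?_ h2.symm)
  refine Finset.prod_congr rfl fun c _ => ?_
  rw [rhoW_beta hℓ]
  rfl

/-- **NormSeries.** `(N_α (β g)) (q ^ ℓ) = g (q ^ (ℓ²)) * ∏_{b < ℓ} g (ζ ^ b q)` for every
primitive `ℓ`-th root of unity `ζ`, i.e. `N_α (β g) (q) = g (q ^ ℓ) ∏_b g (ζ ^ b q ^ (1 / ℓ))`. -/
theorem norm_beta_qExpand (hℓ : ℓ.Prime) (hN : ¬ ℓ ∣ N) (ζ : Kbarˣ) (hζ : IsPrimitiveRoot ζ ℓ)
    (g : FN N) :
    qExpand Kbar ℓ ((@Algebra.norm (FN N) (FN (N * ℓ)) _ _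
        (AlgebraicCurve.algebraAlong (heckeAlphaBar Kbar N ℓ))
        (heckeBetaBar Kbar N ℓ g) : FN N) : LaurentSeries Kbar)
      = qExpand Kbar ℓ (qExpand Kbar ℓ (g : LaurentSeries Kbar))
        * ∏ b ∈ Finset.range ℓ, H10.rot (ζ ^ b) (g : LaurentSeries Kbar) := by
  rw [norm_alpha_beta_eq hℓ hN]
  exact norm_alpha_qExpand hℓ hN ζ hζ g

/-- The same with `twist` (`twist z x = x (z q)`) and the root of unity `zetaL`. -/
theorem norm_beta_qExpand_zetaL (hℓ : ℓ.Prime) (hN : ¬ ℓ ∣ N) (g : FN N) :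
    qExpand Kbar ℓ ((@Algebra.norm (FN N) (FN (N * ℓ)) _ _
        (AlgebraicCurve.algebraAlong (heckeAlphaBar Kbar N ℓ))
        (heckeBetaBar Kbar N ℓ g) : FN N) : LaurentSeries Kbar)
      = qExpand Kbar ℓ (qExpand Kbar ℓ (g : LaurentSeries Kbar))
        * ∏ b : Fin ℓ, twist (zetaL N ℓ ^ (b : ℕ)) (g : LaurentSeries Kbar) := by
  rw [norm_alpha_beta_eq hℓ hN]
  exact norm_alpha_qExpand_zetaL hℓ hN g

end Fermat.Agent.RED.H95

namespace Fermat.Agent.RED.H95

open Fermat.Agent.S24 ModularCurve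

/-- **NormSeries**, stated without local instances: the algebra structure is `algebraAlong α`. -/
theorem stmt_NormSeries (N ℓ : ℕ) [NeZero N] [NeZero ℓ] (hℓ : ℓ.Prime) (hN : ¬ ℓ ∣ N) (ζ : Kbarˣ)
    (hζ : IsPrimitiveRoot ζ ℓ) (f : FN N) :
    letI := AlgebraicCurve.algebraAlong (heckeAlphaBar Kbar N ℓ)
    qExpand Kbar ℓ ((Algebra.norm (FN N) (heckeBetaBar Kbar N ℓ f) : FN N) : LaurentSeries Kbar)
      = qExpand Kbar ℓ (qExpand Kbar ℓ (f : LaurentSeries Kbar))
        * ∏ b ∈ Finset.range ℓ, H10.rot (ζ ^ b) (f : LaurentSeries Kbar) :=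
  norm_beta_qExpand hℓ hN ζ hζ f

end Fermat.Agent.RED.H95

end
end
-- ==== END Fermat.Agent.RED.ES.H95_NormAlpha

-- ==== BEGIN Fermat.Agent.RED.H10_ConsC6
section

/-!
# G-RED package CONS (helper10), part C6: conservation on a chart

`S : RedSetting C F k Ft`, `x` a good chart, `r` a map on places with `RedTo P (r P)` for the
places `P` of the chart.

* `chart_conservation_int` : for a Gauss unit `f ∈ R = B ∩ V` and `Q` finite over `xt`:
  `∑_{P in the chart, r P = Q} ord_P f = ord_Q (red f)`   (C3 + helper79's C5);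
* `chart_conservation` : the same for every Gauss unit `f`.
-/

set_option autoImplicit false

noncomputable section

open AlgebraicCurve Polynomial IntermediateField

namespace Fermat.Agent.RED.H10

open Fermat.Agent.RED.H34 Fermat.Agent.RED.H34.RedSetting Fermat.Agent.RED.H51
  Fermat.Agent.RED.H79

open scoped IntermediateField.algebraAdjoinAdjoin

variable {C F k Ft : Type} [Field C] [Field F] [Algebra C F] [Field k] [Field Ft] [Algebra k Ft]
variable {S : RedSetting C F k Ft} {x : F} (hx : x ∈ S.V)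

/-- For a place of the chart, `RedTo` gives the value of `xt` at the reduction. -/
theorem RedTo.ordGe_x {P : Place C F} {Q : Place k Ft} (h : RedTo S x hx P Q) (a : ↥S.O)
    (ha : OrdGe P 1 (x - algebraMap C F (a : C))) :
    OrdGe Q 1 (S.red ⟨x, hx⟩ - algebraMap k Ft (S.resO a)) :=
  h.2 ⟨x, hx⟩ (isIntegral_gen x) a ha

open Classical in
/-- **(C6)** for Gauss units of `R = B ∩ V`. -/
theorem chart_conservation_int [IsAlgClosed C] [CharZero C] [IsAlgClosed k]
    (hFF : IsFF C F) (hFFt : IsFF k Ft) (gc : GoodChart S x hx)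
    (r : Place C F → Place k Ft) (hr : ∀ P, InChart S x P → RedTo S x hx P (r P))
    (f : ↥S.V) (hfu : IsUnit f) (hfi : IsIntegral ↥(Algebra.adjoin C {x}) (f : F))
    (D : Divisor C F) (hD : ∀ P, D P = P.ord (f : F))
    (Q : Place k Ft) (hQ : S.red ⟨x, hx⟩ ∈ Q.toValuationSubring) :
    ∑ P ∈ D.support.filter (fun P => InChart S x P ∧ r P = Q), D P = Q.ord (S.red f) := by
  have hxt := gc.transc
  have hfin := gc.fin
  have hI : ChartIntegral S x hx := chartIntegral hx hFF gc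
  have hQdeg : Q.deg = 1 := H51.stmt_FFB_deg k Ft hFFt Q
  set γ : k := valHom Q hQdeg ⟨S.red ⟨x, hx⟩, hQ⟩ with hγ
  have hQγ : OrdGe Q 1 (S.red ⟨x, hx⟩ - algebraMap k Ft γ) :=
    ordGe_sub_valHom Q hQdeg ⟨S.red ⟨x, hx⟩, hQ⟩
  have hfinT : FiniteDimensional ↥k⟮S.red ⟨x, hx⟩⟯ Ft :=
    Module.finite_of_finrank_pos (gc.deg ▸ Module.finrank_pos)
  obtain ⟨T', hT', -⟩ := fibre_norm hFFt (S.red ⟨x, hx⟩) hxt γ
  have hC3 := fibre_conservation hx hFF hFFt hxt gc.deg f hfu hfi D hD γ T' hT'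
  have hC5 : ∀ Q' ∈ T', Q'.ord (S.red f) ≤
      ∑ P ∈ D.support.filter (fun P => InChart S x P ∧ r P = Q'), D P := by
    intro Q' hQ'
    exact stmt_C5 C F k Ft S x hx gc hI r hr f hfu hfi D hD Q'
      (mem_of_ordGe_one_sub Q' ((hT' Q').mp hQ'))
  -- fibrewise decomposition of the left hand side of C3
  set φ : Place C F → Prop := fun P => ∃ a : ↥S.O, S.resO a = γ ∧
    OrdGe P 1 (x - algebraMap C F (a : C)) with hφ
  have hφin : ∀ P, φ P → InChart S x P := fun P ⟨a, _, ha⟩ => ⟨(a : C), a.2, ha⟩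
  have hmaps : ∀ P ∈ D.support.filter φ, r P ∈ T' := by
    intro P hP
    rw [Finset.mem_filter] at hP
    obtain ⟨a, ha1, ha2⟩ := hP.2
    rw [hT', ← ha1]
    exact RedTo.ordGe_x hx (hr P (hφin P hP.2)) a ha2
  have hfib : ∀ Q' ∈ T', (D.support.filter φ).filter (fun P => r P = Q') =
      D.support.filter (fun P => InChart S x P ∧ r P = Q') := by
    intro Q' hQ'
    ext P
    simp only [Finset.mem_filter]
    constructor
    · rintro ⟨⟨h1, h2⟩, h3⟩
      exact ⟨h1, hφin P h2, h3⟩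
    · rintro ⟨h1, h2, h3⟩
      refine ⟨⟨h1, ?_⟩, h3⟩
      obtain ⟨a, haV, ha⟩ := h2
      have h4 := RedTo.ordGe_x hx (hr P ⟨a, haV, ha⟩) ⟨a, haV⟩ ha
      rw [h3] at h4
      have h5 := value_unique_ordGe Q' h4 ((hT' Q').mp hQ')
      exact ⟨⟨a, haV⟩, h5, ha⟩
  have hsum : ∑ Q' ∈ T', ∑ P ∈ D.support.filter (fun P => InChart S x P ∧ r P = Q'), D P =
      ∑ Q' ∈ T', Q'.ord (S.red f) := by
    rw [← hC3, ← Finset.sum_fiberwise_of_maps_to hmaps]
    exact Finset.sum_congr rfl fun Q' hQ' => by rw [hfib Q' hQ']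
  have hQT : Q ∈ T' := (hT' Q).mpr hQγ
  have hzero : ∀ Q' ∈ T', (∑ P ∈ D.support.filter (fun P => InChart S x P ∧ r P = Q'), D P) -
      Q'.ord (S.red f) = 0 := by
    refine (Finset.sum_eq_zero_iff_of_nonneg ?_).mp ?_
    · intro Q' hQ'
      have := hC5 Q' hQ'
      omega
    · rw [Finset.sum_sub_distrib, hsum, sub_self]
  have := hzero Q hQT
  omega

/-- Sums over the support of a divisor can be taken over any larger finite set. -/
theorem sum_support_filter_eq {α : Type} (D : α →₀ ℤ) (U : Finset α) (hU : D.support ⊆ U)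
    (ψ : α → Prop) [DecidablePred ψ] :
    ∑ P ∈ D.support.filter ψ, D P = ∑ P ∈ U.filter ψ, D P := by
  refine Finset.sum_subset (Finset.filter_subset_filter ψ hU) ?_
  intro P hP hPn
  rw [Finset.mem_filter] at hP hPn
  by_contra hne
  exact hPn ⟨Finsupp.mem_support_iff.mpr hne, hP.2⟩

open Classical in
/-- **(C6)** conservation on a chart, for every Gauss unit. -/
theorem chart_conservation [IsAlgClosed C] [CharZero C] [IsAlgClosed k]
    (hFF : IsFF C F) (hFFt : IsFF k Ft) (gc : GoodChart S x hx)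
    (r : Place C F → Place k Ft) (hr : ∀ P, InChart S x P → RedTo S x hx P (r P))
    (f : ↥S.V) (hfu : IsUnit f)
    (D : Divisor C F) (hD : ∀ P, D P = P.ord (f : F))
    (Q : Place k Ft) (hQ : S.red ⟨x, hx⟩ ∈ Q.toValuationSubring) :
    ∑ P ∈ D.support.filter (fun P => InChart S x P ∧ r P = Q), D P = Q.ord (S.red f) := by
  have hxt := gc.transc
  have hfin := gc.fin
  have hxC := transcendental_x hx hxt
  -- a denominator
  have halgK : IsAlgebraic ↥C⟮x⟯ (f : F) := Algebra.IsAlgebraic.isAlgebraic _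
  have halg : IsAlgebraic ↥(Algebra.adjoin C {x}) (f : F) :=
    (IsFractionRing.isAlgebraic_iff ↥(Algebra.adjoin C {x}) ↥C⟮x⟯ F).mpr halgK
  obtain ⟨y, hy0, hyint⟩ := halg.exists_integral_multiple
  obtain ⟨p, rfl⟩ := (polyEquiv hxC).surjective y
  have hp : p ≠ 0 := fun h => hy0 (by rw [h, map_zero])
  obtain ⟨c, hc, p₀, hp₀, hu₂, -, he⟩ := exists_decomp hx hxt p hp
  set f₂ : ↥S.V := psi hx p₀ with hf₂
  have hf₂i : IsIntegral ↥(Algebra.adjoin C {x}) (f₂ : F) := by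
    have h1 : (f₂ : F) = algebraMap ↥(Algebra.adjoin C {x}) F
        (polyEquiv hxC (p₀.map S.O.subtype)) := by
      rw [hf₂, coe_psi]
      exact (coe_polyEquiv hxC _).symm
    rw [h1]
    exact isIntegral_algebraMap
  have hyF : ((polyEquiv hxC p : ↥(Algebra.adjoin C {x})) : F) =
      algebraMap C F c * (f₂ : F) := by
    rw [coe_polyEquiv, he]
  have hf₁u : IsUnit (f * f₂) := hfu.mul hu₂
  have hf₁i : IsIntegral ↥(Algebra.adjoin C {x}) ((f * f₂ : ↥S.V) : F) := by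
    have h1 : ((f * f₂ : ↥S.V) : F) = algebraMap C F c⁻¹ * (polyEquiv hxC p • (f : F)) := by
      rw [Algebra.smul_def]
      show (f : F) * (f₂ : F) = algebraMap C F c⁻¹ *
        (((polyEquiv hxC p : ↥(Algebra.adjoin C {x})) : F) * (f : F))
      rw [hyF, map_inv₀]
      have hc' : algebraMap C F c ≠ 0 := (map_ne_zero (algebraMap C F)).mpr hc
      field_simp
    rw [h1]
    exact (isIntegral_const x c⁻¹).mul hyint
  -- the divisors
  have hne : ∀ g : ↥S.V, IsUnit g → (g : F) ≠ 0 := by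
    intro g hg h0
    have : g = 0 := Subtype.ext h0
    rw [this] at hg
    exact not_isUnit_zero hg
  have hP : HasPrincipalDivisors C F := stmt_FFB_principal C F hFF
  obtain ⟨D₁, hD₁, -⟩ := hP.exists_divisor _ (hne _ hf₁u)
  obtain ⟨D₂, hD₂, -⟩ := hP.exists_divisor _ (hne _ hu₂)
  have h1 := chart_conservation_int hx hFF hFFt gc r hr (f * f₂) hf₁u hf₁i D₁ hD₁ Q hQ
  have h2 := chart_conservation_int hx hFF hFFt gc r hr f₂ hu₂ hf₂i D₂ hD₂ Q hQ
  have hDD : ∀ P, D P = D₁ P - D₂ P := by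
    intro P
    rw [hD, hD₁, hD₂]
    show P.ord (f : F) = P.ord ((f : F) * (f₂ : F)) - P.ord (f₂ : F)
    rw [P.ord_mul (hne _ hfu) (hne _ hu₂)]
    ring
  set U : Finset (Place C F) := D.support ∪ D₁.support ∪ D₂.support with hU
  rw [sum_support_filter_eq D U (by rw [hU]; intro a ha; simp [ha])
    (fun P => InChart S x P ∧ r P = Q)]
  rw [sum_support_filter_eq D₁ U (by rw [hU]; intro a ha; simp [ha])
    (fun P => InChart S x P ∧ r P = Q)] at h1
  rw [sum_support_filter_eq D₂ U (by rw [hU]; intro a ha; simp [ha])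
    (fun P => InChart S x P ∧ r P = Q)] at h2
  have h3 : S.red (f * f₂) = S.red f * S.red f₂ := map_mul _ _ _
  have hr0 : S.red f ≠ 0 := (hfu.map S.red).ne_zero
  have hr2 : S.red f₂ ≠ 0 := (hu₂.map S.red).ne_zero
  rw [h3, Q.ord_mul hr0 hr2] at h1
  have h4 : ∑ P ∈ U.filter (fun P => InChart S x P ∧ r P = Q), D P =
      ∑ P ∈ U.filter (fun P => InChart S x P ∧ r P = Q), D₁ P -
        ∑ P ∈ U.filter (fun P => InChart S x P ∧ r P = Q), D₂ P := by
    rw [← Finset.sum_sub_distrib]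
    exact Finset.sum_congr rfl fun P _ => hDD P
  rw [h4, h1, h2]
  ring

end Fermat.Agent.RED.H10

end
end
-- ==== END Fermat.Agent.RED.H10_ConsC6

-- ==== BEGIN Fermat.Agent.RED.H33_EQ
section

/-!
# G-RED, package EQ (helper33): `stmt_EQ : Stmt_EQ`

The Deuring reduction of places of `F_N · ℚ̄` is equivariant under the decomposition group of
`A`: for `σ ∈ D_A` the semilinear automorphism `redGalois σ` of the reduced field (the residual
action of `σ` on the coefficients of `q`-expansions) satisfies `r (σ P) = redGalois σ • r P`.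

This is `H33.isRed_decomposition` (uniqueness of the reduction map, `RED/H33_Uni.lean`) with the
function-field hypotheses supplied by helper95 (`IsFF` for `F_N · ℚ̄`), helper73 (`IsFF` for the
reduced field) and helper42 (`FracScalable`).
-/

set_option autoImplicit false
set_option synthInstance.maxHeartbeats 400000
set_option maxHeartbeats 1000000

noncomputable section

open AlgebraicCurve ModularCurve Fermat.Agent.S28 Fermat.Agent.S28.H73 Fermat.Agent.RED.H73

namespace Fermat.Agent.RED.H33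

/-- **Package EQ**: equivariance of the reduction map under the decomposition group. -/
theorem stmt_EQ : Stmt_EQ := by
  intro N ℓ _ hℓ hℓN A hA r hr σ hσ
  haveI : IsAlgClosed (kV A) := isAlgClosed_kV A
  refine ⟨redGalois A (modularFunctionFieldFull N) (hasScale_laurentBaseChange A N) σ hσ,
    fun x n => ?_, fun P => ?_⟩
  · rw [coe_redGalois_smul, coeffMap_coeff, autkHom_eq_smul A σ hσ]
  · exact isRed_decomposition A (modularFunctionFieldFull N) (hasScale_laurentBaseChange A N)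
      (H95.stmt_HKA_isFF N) (isFF_redField_bar N ℓ hℓ hℓN A hA)
      (H42.fracScalable_laurentBaseChange A N) hσ hr P

end Fermat.Agent.RED.H33

end
end
-- ==== END Fermat.Agent.RED.H33_EQ

-- ==== BEGIN Fermat.Agent.RED.H34_Fib
section

/-!
# G-RED / BAD_q (helper34): (FIB) fibre cardinalities are preserved by reduction

`RedSetting.ncard_ptsOver_red` : under the hypotheses of the chart theorem, for `ρ ∈ O` such that
every branch value of `x` in `O` congruent to `ρ` is equal to `ρ`, the number of points of the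
reduced chart over `γ = ρ mod m` equals the number of points of the chart over `ρ`.
-/

set_option autoImplicit false

noncomputable section

open Polynomial IntermediateField Module Matrix
open scoped IntermediateField.algebraAdjoinAdjoin nonZeroDivisors

namespace Fermat.Agent.RED.H34

variable {C F k Ft : Type} [Field C] [Field F] [Algebra C F] [Field k] [Field Ft] [Algebra k Ft]

namespace RedSetting

variable {S : RedSetting C F k Ft} {x : F} (hx : x ∈ S.V)

/-- **(FIB ≥)** -/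
theorem ncard_ptsOver_red_ge [IsAlgClosed C] [CharZero C] [IsAlgClosed k]
    (hxt : Transcendental k (S.red ⟨x, hx⟩)) [FiniteDimensional ↥C⟮x⟯ F]
    (hdeg : Module.finrank ↥k⟮S.red ⟨x, hx⟩⟯ Ft = Module.finrank ↥C⟮x⟯ F)
    [Algebra.IsSeparable ↥k⟮S.red ⟨x, hx⟩⟯ Ft]
    (ρ : ↥S.O)
    (hρ : ∀ ρ' : ↥S.O, IsBranchValue x (ρ' : C) → S.resO ρ' = S.resO ρ → ρ' = ρ) :
    (ptsOver x (ρ : C)).ncard ≤ (ptsOver (S.red ⟨x, hx⟩) (S.resO ρ)).ncard := by
  classical
  have hxC := transcendental_x hx hxt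
  have hfdt := finiteDimensional_red hx hdeg
  have hpidt : IsPrincipalIdealRing ↥(Algebra.adjoin k {S.red ⟨x, hx⟩}) :=
    isPrincipalIdealRing_adjoin hxt
  have hpid : IsPrincipalIdealRing ↥(Algebra.adjoin C {x}) := isPrincipalIdealRing_adjoin hxC
  have hcz : CharZero ↥C⟮x⟯ := charZero_of_injective_algebraMap (algebraMap C ↥C⟮x⟯).injective
  have hsepC : Algebra.IsSeparable ↥C⟮x⟯ F := inferInstance
  obtain ⟨m, bF, hbV, bt, hbB, hbt, hspan⟩ := exists_good_basis hx hxt hdeg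
  obtain ⟨c, P, hP, hdisc⟩ :=
    exists_transition (R := ↥(Algebra.adjoin C {x})) (K := ↥C⟮x⟯) (L := F) bF hbB
  obtain ⟨D₀, hD₀, hd, hD₀ne⟩ := exists_discr_lift hx hxt bF hbV bt hbt _ hdisc
  have hm : Module.finrank ↥C⟮x⟯ F = m := by
    rw [Module.finrank_eq_card_basis bF, Fintype.card_fin]
  have hdet : ∀ ρ : ↥S.O, ¬ piRho x (ρ : C) ∣ P.det := fun ρ =>
    stmt_notDvdDet C F k Ft S x hx hxt hdeg m bF hbV hbB bt hbt hspan c P hP ρ ρ.2
  have hD₀0 : D₀ ≠ 0 := by
    rintro rfl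
    exact hD₀ne (Polynomial.map_zero _)
  have hroot_dvd : ∀ (ρ : ↥S.O) (N : ℕ), (Polynomial.X - Polynomial.C ρ) ^ N ∣ D₀ →
      piRho x (ρ : C) ^ N ∣ Algebra.discr ↥(Algebra.adjoin C {x}) c := by
    intro ρ N hN
    have h1 : piRho x (ρ : C) ^ N ∣ P.det ^ 2 * Algebra.discr ↥(Algebra.adjoin C {x}) c := by
      rw [← hD₀, psiR_eq, pow_dvd_polyEquiv_iff]
      have h2 := Polynomial.map_dvd S.O.subtype hN
      rwa [Polynomial.map_pow, Polynomial.map_sub, Polynomial.map_X, Polynomial.map_C] at h2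
    refine (prime_piRho hxC (ρ : C)).pow_dvd_of_dvd_mul_left N ?_ h1
    intro h3
    exact hdet ρ ((prime_piRho hxC (ρ : C)).dvd_of_dvd_pow h3)
  have hbranch : ∀ ρ : ↥S.O, D₀.IsRoot ρ → IsBranchValue x (ρ : C) := by
    intro ρ hρ
    have h1 := hroot_dvd ρ 1 (by rw [pow_one]; exact Polynomial.dvd_iff_isRoot.2 hρ)
    have h2 := not_pow_dvd_discr hxC c (ρ : C)
    unfold IsBranchValue
    rw [hm]
    by_contra hlt
    rw [not_lt] at hlt
    rw [Nat.sub_eq_zero_of_le hlt, zero_add] at h2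
    exact h2 h1
  have hbtint : ∀ i, IsIntegral ↥(Algebra.adjoin k {S.red ⟨x, hx⟩}) (bt i) := by
    intro i
    rw [hbt i]
    exact red_isIntegral hx hxt hdeg _ (hbB i) (hbV i)
  obtain ⟨ct, Pt, hPt, hdisct⟩ :=
    exists_transition (R := ↥(Algebra.adjoin k {S.red ⟨x, hx⟩})) (K := ↥k⟮S.red ⟨x, hx⟩⟯)
      (L := Ft) bt hbtint
  set γ := S.resO ρ with hγ
  set r := (ptsOver x (ρ : C)).ncard with hr
  set rt := (ptsOver (S.red ⟨x, hx⟩) γ).ncard with hrt
  have hrm : r ≤ m := ncard_ptsOver_le hxC c (ρ : C)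
  have hrtm : rt ≤ m := ncard_ptsOver_le hxt ct γ
  -- Dedekind's bound on the reduced side
  have h1 : piRho (S.red ⟨x, hx⟩) γ ^ (m - rt) ∣ S.psiT hx D₀ := by
    have h2 := pow_dvd_discr_ptsOver hxt ct γ
    have h3 : Pt.det ^ 2 * Algebra.discr ↥(Algebra.adjoin k {S.red ⟨x, hx⟩}) ct = S.psiT hx D₀ := by
      apply IsFractionRing.injective ↥(Algebra.adjoin k {S.red ⟨x, hx⟩}) ↥k⟮S.red ⟨x, hx⟩⟯
      rw [hdisct, hd]
    rw [← h3]
    exact h2.mul_left _
  by_contra hlt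
  rw [not_le] at hlt
  have hpos : 1 ≤ m - rt := by omega
  rw [psiT_eq hx hxt, pow_dvd_polyEquiv_iff, ← Polynomial.le_rootMultiplicity_iff hD₀ne] at h1
  have hγroot : (D₀.map S.resO).IsRoot γ := by
    rw [← Polynomial.rootMultiplicity_pos hD₀ne]
    omega
  obtain ⟨ρ₀, hρ₀, hρroot, hmult⟩ := H82.stmt_rootRed C k S.O S.resO S.resO_surj
    S.resO_eq_zero_iff D₀ hD₀ne γ hγroot
  have hρ₀eq : ρ₀ = ρ := hρ ρ₀ (hbranch ρ₀ hρroot) hρ₀
  subst hρ₀eq
  have hmult' := hmult (fun ρ' hρ' hroot' => hρ ρ' (hbranch ρ' hroot') hρ')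
  rw [hmult', Polynomial.le_rootMultiplicity_iff hD₀0] at h1
  have h4 := hroot_dvd ρ₀ _ h1
  have h5 := not_pow_dvd_discr hxC c (ρ₀ : C)
  apply h5
  refine (pow_dvd_pow _ ?_).trans h4
  omega

/-- **(FIB)** the number of points of the reduced chart over `γ = ρ mod m` equals the number of
points of the chart over `ρ`, if `ρ` is the only possible branch value in its residue class. -/
theorem ncard_ptsOver_red [IsAlgClosed C] [CharZero C] [IsAlgClosed k]
    (hxt : Transcendental k (S.red ⟨x, hx⟩)) [FiniteDimensional ↥C⟮x⟯ F]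
    (hdeg : Module.finrank ↥k⟮S.red ⟨x, hx⟩⟯ Ft = Module.finrank ↥C⟮x⟯ F)
    [Algebra.IsSeparable ↥k⟮S.red ⟨x, hx⟩⟯ Ft]
    (hD : ∀ ρ ρ' : ↥(S.V.comap (algebraMap C F)), IsBranchValue x (ρ : C) →
      IsBranchValue x (ρ' : C) → S.resO ρ = S.resO ρ' → ρ = ρ')
    (ρ : ↥S.O)
    (hρ : ∀ ρ' : ↥S.O, IsBranchValue x (ρ' : C) → S.resO ρ' = S.resO ρ → ρ' = ρ) :
    (ptsOver (S.red ⟨x, hx⟩) (S.resO ρ)).ncard = (ptsOver x (ρ : C)).ncard :=
  le_antisymm
    (ncard_ptsOver_red_le hx hxt hdeg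
      (stmt_chartNormal C F k Ft S x hx hxt inferInstance hdeg inferInstance hD) ρ)
    (ncard_ptsOver_red_ge hx hxt hdeg ρ hρ)

end RedSetting

end Fermat.Agent.RED.H34

end
end
-- ==== END Fermat.Agent.RED.H34_Fib

-- ==== BEGIN Fermat.Agent.RED.H36_Fin
section
attribute [local instance 10000] SubalgebraClass.toAlgebra
attribute [local instance 10000] HahnSeries.powerSeriesAlgebra

/-!
# G-RED, FIN (helper36): `RedPackage` (hence S37) from the packages

`redPackage_of` : `Stmt_RM → Stmt_EQ → Stmt_ES3 → Stmt_TIcore → Stmt_HKA →`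
`∀ N p ℓ A, ℓ ∤ N p → RedPackage N p ℓ A`.

`red : J₀(N) → Pic(F~_N)`, `[D] ↦ [r_* D]`; inertia invariance and stability of the kernel under
Frobenius by equivariance of `r` (`Stmt_EQ`), injectivity on `p`-power torsion by `TIcoreFor`,
Eichler–Shimura by `Stmt_ES3`.
-/

set_option autoImplicit false
set_option synthInstance.maxHeartbeats 400000
set_option maxHeartbeats 1000000

noncomputable section

open AlgebraicCurve ModularCurve Fermat.Agent.S28.H73 Fermat.Agent.RED.H73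

namespace Fermat.Agent.RED.H36

section Abs

variable {K F : Type*} [Field K] [Field F] [Algebra K F]

/-- A semilinear automorphism acting trivially on the field fixes every place. -/
theorem smul_place_eq_of_forall (gt : SemilinearAut K F) (hgt : ∀ x : F, gt • x = x)
    (Q : Place K F) : gt • Q = Q := by
  apply Place.ext
  rw [SemilinearAut.smul_toValuationSubring]
  ext x
  rw [ValuationSubring.mem_pointwise_smul_iff_inv_smul_mem]
  have : gt⁻¹ • x = x := by rw [inv_smul_eq_iff, hgt]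
  rw [this]

/-- A semilinear automorphism acting trivially on the field fixes every divisor. -/
theorem smul_divisor_eq_of_forall (gt : SemilinearAut K F) (hgt : ∀ x : F, gt • x = x)
    (D : Divisor K F) : gt • D = D := by
  rw [SemilinearAut.divisor_smul_def]
  have : (fun Q : Place K F => gt • Q) = id := funext fun Q => smul_place_eq_of_forall gt hgt Q
  rw [this, Finsupp.mapDomain_id]

end Abs

section Abs2

variable {C : Type} [Field C] (O : ValuationSubring C)
variable {F : IntermediateField C (LaurentSeries C)} (h : HasScale O F)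
variable {r : Place C ↥F → Place (kV O) ↥(redField O F h)}

/-- Equivariance of `r` on divisors. -/
theorem mapDomain_smul_eq (g : SemilinearAut C ↥F) (gt : SemilinearAut (kV O) ↥(redField O F h))
    (hgr : ∀ P : Place C ↥F, r (g • P) = gt • r P) (D : Divisor C ↥F) :
    Finsupp.mapDomain r (g • D) = gt • Finsupp.mapDomain r D := by
  rw [SemilinearAut.divisor_smul_def, SemilinearAut.divisor_smul_def,
    ← Finsupp.mapDomain_comp, ← Finsupp.mapDomain_comp]
  congr 1
  funext P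
  exact hgr P

/-- Functions without zeros and poles on a function field over an algebraically closed field
are constant. -/
theorem const_of_ord_eq_zero {k E : Type} [Field k] [Field E] [Algebra k E] [IsAlgClosed k]
    (hE : IsFF k E) (g : E) (_hg : g ≠ 0) (hord : ∀ Q : Place k E, Q.ord g = 0) :
    ∃ c : k, g = algebraMap k E c := by
  have hle := (H42.stmt_FFR_le k E hE (0 : Divisor k E)).2 (by simp)
  haveI := H42.stmt_FFR_finite k E hE (0 : Divisor k E)
  have h1 : (1 : E) ∈ riemannRochSpace (0 : Divisor k E) := by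
    rw [mem_riemannRochSpace_iff]
    intro v
    right
    simp
  have hgm : g ∈ riemannRochSpace (0 : Divisor k E) := by
    rw [mem_riemannRochSpace_iff]
    intro v
    right
    simp [hord v]
  have hfr : Module.finrank k (riemannRochSpace (0 : Divisor k E)) ≤ 1 := by
    have : (Module.finrank k (riemannRochSpace (0 : Divisor k E)) : ℤ) ≤ 0 + 1 := by
      simpa using hle
    omega
  -- `1` spans `L(0)`
  have h10 : (⟨1, h1⟩ : riemannRochSpace (0 : Divisor k E)) ≠ 0 := by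
    intro h0
    exact one_ne_zero (congrArg Subtype.val h0)
  obtain ⟨c, hc⟩ := (finrank_le_one_iff (K := k)
    (V := riemannRochSpace (0 : Divisor k E))).1 hfr
  obtain ⟨a, ha⟩ := hc ⟨1, h1⟩
  obtain ⟨b, hb⟩ := hc ⟨g, hgm⟩
  have ha0 : a ≠ 0 := by
    rintro rfl
    rw [zero_smul] at ha
    exact h10 ha.symm
  refine ⟨b * a⁻¹, ?_⟩
  have e1 : (1 : E) = a • (c : E) := by
    have := congrArg Subtype.val ha
    simpa using this.symm
  have e2 : g = b • (c : E) := by
    have := congrArg Subtype.val hb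
    simpa using this.symm
  have e3 : (c : E) = a⁻¹ • (1 : E) := by
    rw [e1, smul_smul, inv_mul_cancel₀ ha0, one_smul]
  rw [e2, e3, smul_smul, Algebra.algebraMap_eq_smul_one]

end Abs2

section Main

open Fermat.Agent.S37

/-- Coefficientwise description of equality in the reduced field. -/
theorem redField_ext {C : Type} [Field C] {O : ValuationSubring C}
    {F : IntermediateField C (LaurentSeries C)} {h : HasScale O F}
    {x y : ↥(redField O F h)}
    (hxy : ∀ n : ℤ, (x : LaurentSeries (kV O)).coeff n = (y : LaurentSeries (kV O)).coeff n) :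
    x = y :=
  Subtype.ext (HahnSeries.ext (funext hxy))

/-- **FIN**: the reduction package `RedPackage N p ℓ A` from the G-RED packages. -/
theorem redPackage_of (hRM : Stmt_RM) (hEQ : Stmt_EQ) (hES : Stmt_ES3) (hTI : Stmt_TIcore)
    (hHKA : Stmt_HKA) (N p ℓ : ℕ) [NeZero N] [NeZero ℓ] (hℓ : ℓ.Prime) (hNp : ¬ ℓ ∣ N * p)
    (A : ValuationSubring (AlgebraicClosure ℚ)) (hA : A.LiesOverPrime ℓ) :
    RedPackage N p ℓ A := by
  classical
  have hN : ¬ ℓ ∣ N := fun hd => hNp (Dvd.dvd.mul_right hd p)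
  have hp : ¬ ℓ ∣ p := fun hd => hNp (Dvd.dvd.mul_left hd N)
  obtain ⟨r, hr, hmove⟩ := hRM N ℓ hℓ hN A hA
  obtain ⟨σ₀, hσ₀⟩ := Fermat.Agent.Lib.FrobExists.exists_isFrobeniusAt ℓ hℓ A hA
  haveI : IsAlgClosed (kV A) := isAlgClosed_kV A
  have hFt := isFF_redField_bar N ℓ hℓ hN A hA
  obtain ⟨hα, hβ, hP, hfin, hFI, hNF⟩ := hHKA N ℓ
  -- the Frobenius
  obtain ⟨gt, hgt_coeff, hgt_r⟩ := hEQ N ℓ hℓ hN A hA r hr σ₀ hσ₀.mem_decompositionSubgroup
  have hφ : ∀ (x : ↥(redField A (modularFunctionFieldBar N) (hasScale_laurentBaseChange A N)))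
      (n : ℤ),
      ((gt • x : ↥(redField A (modularFunctionFieldBar N)
          (hasScale_laurentBaseChange A N))) : LaurentSeries (kV A)).coeff n
        = ((x : LaurentSeries (kV A)).coeff n) ^ ℓ := by
    intro x n
    rw [hgt_coeff x n, hσ₀.smul_residue_eq]
  have hES' := @hES N ℓ _ _ hℓ hN A hA hα hβ hP r hr hmove gt hφ
  refine ⟨Pic (kV A) ↥(redField A (modularFunctionFieldBar N) (hasScale_laurentBaseChange A N)),
    inferInstance, redPic A (hasScale_laurentBaseChange A N) hr, σ₀, hσ₀, ?_, ?_, ?_, ?_⟩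
  · -- inertia invariance
    intro τ hτ x
    obtain ⟨D, rfl⟩ := Pic0.mk_surjective x
    obtain ⟨τ', hτ', rfl⟩ := Subgroup.mem_map.1 hτ
    have hker : ∀ c : kV A, τ' • c = c := by
      intro c
      have h1 := MonoidHom.mem_ker.1 hτ'
      have h2 := DFunLike.congr_fun h1 c
      exact h2
    obtain ⟨gτ, hgτ_coeff, hgτ_r⟩ := hEQ N ℓ hℓ hN A hA r hr τ'.1 τ'.2
    have hgτ : ∀ x : ↥(redField A (modularFunctionFieldBar N)
        (hasScale_laurentBaseChange A N)), gτ • x = x := by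
      intro x
      refine redField_ext fun n => ?_
      rw [hgτ_coeff x n]
      exact hker _
    have e : Finsupp.mapDomain r
        (arithmeticGalois (modularFunctionFieldFull N) (τ' : AlgebraicClosure ℚ ≃ₐ[ℚ] AlgebraicClosure ℚ)
          • (D : Divisor (AlgebraicClosure ℚ) ↥(modularFunctionFieldBar N)))
        = Finsupp.mapDomain r (D : Divisor (AlgebraicClosure ℚ) ↥(modularFunctionFieldBar N)) := by
      rw [mapDomain_smul_eq A (hasScale_laurentBaseChange A N) _ gτ hgτ_r,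
        smul_divisor_eq_of_forall gτ hgτ]
    show (QuotientAddGroup.mk (Finsupp.mapDomain r
        (arithmeticGalois (modularFunctionFieldFull N) (τ' : AlgebraicClosure ℚ ≃ₐ[ℚ] AlgebraicClosure ℚ)
          • (D : Divisor (AlgebraicClosure ℚ) ↥(modularFunctionFieldBar N)))) :
        Pic (kV A) ↥(redField A (modularFunctionFieldBar N) (hasScale_laurentBaseChange A N)))
      = QuotientAddGroup.mk (Finsupp.mapDomain r
          (D : Divisor (AlgebraicClosure ℚ) ↥(modularFunctionFieldBar N)))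
    rw [e]
  · -- the kernel is stable under Frobenius
    intro x hx
    obtain ⟨D, rfl⟩ := Pic0.mk_surjective x
    rw [redPic_mk_eq_zero_iff] at hx
    have e : Finsupp.mapDomain r
        (arithmeticGalois (modularFunctionFieldFull N) σ₀
          • (D : Divisor (AlgebraicClosure ℚ) ↥(modularFunctionFieldBar N)))
        = gt • Finsupp.mapDomain r
            (D : Divisor (AlgebraicClosure ℚ) ↥(modularFunctionFieldBar N)) :=
      mapDomain_smul_eq A (hasScale_laurentBaseChange A N) _ gt hgt_r _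
    show (QuotientAddGroup.mk (Finsupp.mapDomain r
        (arithmeticGalois (modularFunctionFieldFull N) σ₀
          • (D : Divisor (AlgebraicClosure ℚ) ↥(modularFunctionFieldBar N)))) :
        Pic (kV A) ↥(redField A (modularFunctionFieldBar N) (hasScale_laurentBaseChange A N)))
      = 0
    rw [e, QuotientAddGroup.eq_zero_iff]
    exact SemilinearAut.smul_mem_principal gt hx
  · -- injectivity on `p`-power torsion
    rintro x ⟨n, hn⟩ hx
    refine redPic_eq_zero_of_TIcore A (hasScale_laurentBaseChange A N) hr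
      (hTI N ℓ hℓ hN A hA) (fun g hg hord => const_of_ord_eq_zero hFt g hg hord)
      (p ^ n) (fun hd => hp (hℓ.dvd_of_dvd_pow hd)) x hn hx
  · -- Eichler–Shimura
    intro x
    obtain ⟨D, rfl⟩ := Pic0.mk_surjective x
    rw [heckeOperatorAlong_eq hα hβ hFI hfin hNF]
    show redPic A (hasScale_laurentBaseChange A N) hr
      (Pic0.mk (SemilinearAut.degZeroSMulHom (arithmeticGalois (modularFunctionFieldFull N) σ₀)
          (SemilinearAut.degZeroSMulHom (arithmeticGalois (modularFunctionFieldFull N) σ₀) D))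
        - Pic0.mk (Pic0.degZeroCorrespondence (heckeBetaBar (AlgebraicClosure ℚ) N ℓ)
            (heckeAlphaBar (AlgebraicClosure ℚ) N ℓ) hβ hα hFI
            (SemilinearAut.degZeroSMulHom (arithmeticGalois (modularFunctionFieldFull N) σ₀) D))
        + ℓ • Pic0.mk D) = 0
    rw [map_add, map_sub, map_nsmul]
    show (QuotientAddGroup.mk (Finsupp.mapDomain r
          (arithmeticGalois (modularFunctionFieldFull N) σ₀ •
            arithmeticGalois (modularFunctionFieldFull N) σ₀ •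
              (D : Divisor (AlgebraicClosure ℚ) ↥(modularFunctionFieldBar N)))) :
        Pic (kV A) ↥(redField A (modularFunctionFieldBar N) (hasScale_laurentBaseChange A N)))
      - QuotientAddGroup.mk (Finsupp.mapDomain r
          (Divisor.correspondence (heckeBetaBar (AlgebraicClosure ℚ) N ℓ)
            (heckeAlphaBar (AlgebraicClosure ℚ) N ℓ) hβ hα
            (arithmeticGalois (modularFunctionFieldFull N) σ₀ •
              (D : Divisor (AlgebraicClosure ℚ) ↥(modularFunctionFieldBar N)))))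
      + ℓ • QuotientAddGroup.mk (Finsupp.mapDomain r
          (D : Divisor (AlgebraicClosure ℚ) ↥(modularFunctionFieldBar N))) = 0
    have e1 := mapDomain_smul_eq A (hasScale_laurentBaseChange A N)
      (arithmeticGalois (modularFunctionFieldFull N) σ₀) gt hgt_r (D : Divisor _ _)
    have e2 := mapDomain_smul_eq A (hasScale_laurentBaseChange A N)
      (arithmeticGalois (modularFunctionFieldFull N) σ₀) gt hgt_r
      (arithmeticGalois (modularFunctionFieldFull N) σ₀ • (D : Divisor _ _))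
    have e3 := hES' (arithmeticGalois (modularFunctionFieldFull N) σ₀ • (D : Divisor _ _))
    rw [e1] at e2 e3
    rw [inv_smul_smul] at e3
    have e3' : Finsupp.mapDomain r
        (Divisor.correspondence (heckeBetaBar (AlgebraicClosure ℚ) N ℓ)
          (heckeAlphaBar (AlgebraicClosure ℚ) N ℓ) hβ hα
          (arithmeticGalois (modularFunctionFieldFull N) σ₀ • (D : Divisor _ _)))
        = gt • gt • Finsupp.mapDomain r (D : Divisor _ _)
          + ℓ • Finsupp.mapDomain r (D : Divisor _ _) := e3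
    rw [e2, e3']
    rw [← QuotientAddGroup.mk_sub, ← QuotientAddGroup.mk_nsmul, ← QuotientAddGroup.mk_add]
    rw [QuotientAddGroup.eq_zero_iff]
    have : gt • gt • Finsupp.mapDomain r (D : Divisor _ _)
        - (gt • gt • Finsupp.mapDomain r (D : Divisor _ _)
          + ℓ • Finsupp.mapDomain r (D : Divisor _ _))
        + ℓ • Finsupp.mapDomain r (D : Divisor _ _) = 0 := by abel
    rw [this]
    exact AddSubgroup.zero_mem _

end Main

end Fermat.Agent.RED.H36

end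
end
-- ==== END Fermat.Agent.RED.H36_Fin

-- ==== BEGIN Fermat.Agent.RED.H42_Gen10
section
attribute [local instance 10000] SubalgebraClass.toAlgebra
attribute [local instance 10000] HahnSeries.powerSeriesAlgebra

/-!
# G-RED package GEN (helper42), part 10: `GenusLE` of `RED/Core.lean` from normal charts

Setting of helper73's package GA: `O : ValuationSubring C`, `F ⊂ C((q))` with `h : HasScale O F`,
`S = H73.redSetting O h`.  If `x` is a unit of the Gauss valuation ring with transcendental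
reduction, both charts `x` and `x⁻¹` are normal (conclusion of helper34's `Stmt_chartNormal`),
`F~ / k(xt)` is separable of degree `[F : C(x)]` and `char C = 0`, then `GenusLE O h r` holds for
EVERY map `r` of places.
-/

set_option autoImplicit false
set_option synthInstance.maxHeartbeats 400000
set_option maxHeartbeats 1000000

noncomputable section

open AlgebraicCurve IntermediateField ModularCurve Fermat.Agent.S28.H73 Fermat.Agent.RED.H73

namespace Fermat.Agent.RED.H42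

variable {C : Type} [Field C] (O : ValuationSubring C)
variable {F : IntermediateField C (LaurentSeries C)} (h : HasScale O F)

/-- **Package GEN**: the genus does not drop under reduction. -/
theorem genusLE_of_charts_GA [IsAlgClosed C] [CharZero C] [IsAlgClosed (kV O)]
    (hFF : IsFF C ↥F) (hFFt : IsFF (kV O) ↥(redField O F h))
    {x : ↥F} (hx : x ∈ (redSetting O h).V) (hx' : x⁻¹ ∈ (redSetting O h).V)
    (hxt : Transcendental (kV O) ((redSetting O h).red ⟨x, hx⟩)) [FiniteDimensional ↥C⟮x⟯ ↥F]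
    (hdeg : Module.finrank ↥(kV O)⟮(redSetting O h).red ⟨x, hx⟩⟯ ↥(redField O F h) =
      Module.finrank ↥C⟮x⟯ ↥F)
    [Algebra.IsSeparable ↥(kV O)⟮(redSetting O h).red ⟨x, hx⟩⟯ ↥(redField O F h)]
    (hcn : ∀ y : ↥(redField O F h),
      IsIntegral ↥(Algebra.adjoin (kV O) {(redSetting O h).red ⟨x, hx⟩}) y →
      ∃ f : ↥(redSetting O h).V, IsIntegral ↥(Algebra.adjoin C {x}) (f : ↥F) ∧
        (redSetting O h).red f = y)
    (hcn' : ∀ y : ↥(redField O F h),
      IsIntegral ↥(Algebra.adjoin (kV O) {(redSetting O h).red ⟨x⁻¹, hx'⟩}) y →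
      ∃ f : ↥(redSetting O h).V, IsIntegral ↥(Algebra.adjoin C {x⁻¹}) (f : ↥F) ∧
        (redSetting O h).red f = y)
    (r : Place C ↥F → Place (kV O) ↥(redField O F h)) : GenusLE O h r :=
  genusLE_of_charts hFF hFFt (redSetting O h) hx hx' hxt hdeg hcn hcn' r

end Fermat.Agent.RED.H42

end
end
-- ==== END Fermat.Agent.RED.H42_Gen10
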