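-- GENERATED (merged mirror, NOTES/tools/trim/merge3_helper67.py): 7 modules of the originals, bodies verbatim.
import Mathlib
import Fermat.Agent.Zm.S35_L13_002
import Fermat.Agent.Zm.S35_L03_004
import Fermat.Agent.Zm.S35_L04_003
import Fermat.Agent.Zm.S35_L12_001
import Fermat.Agent.Zm.S35_L01_003
import Fermat.Agent.Zm.S35_L02_004
import Fermat.Agent.Zm.S35_L05_004
import Fermat.Agent.Zm.S35_L10_003
import Fermat.Agent.Zm.S35_L08_003
import Fermat.Agent.Zm.S35_L10_005
import Fermat.Agent.Zm.S35_L11_001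
import Fermat.Agent.Zm.S35_L08_001

-- ==== BEGIN Fermat.Agent.RED.H51_NDDescent
section

/-!
# G-RED package NDESC (helper51), part 3: the descent

Setting of `H51_NDCore`.  `ρ = restrict ∘ r'`.

* `rho_eq_of_restrict_eq` : `ρ` factors through the restriction of places;
* `isRedAbs_of_compat`    : the induced `r` has the conservation law;
* `hasMoveAbs_of_compat`  : the moving lemma descends (norms);
* `ndesc_abs`             : the abstract norm descent.
-/

set_option autoImplicit false
set_option linter.style.haveILetI false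
set_option linter.unusedSectionVars false

noncomputable section

open AlgebraicCurve IntermediateField

namespace Fermat.Agent.RED.H51

section Descent

variable {K k F F' Ft Ft' : Type} [Field K] [Field k] [Field F] [Field F'] [Field Ft] [Field Ft']
  [Algebra K F] [Algebra K F'] [Algebra F F'] [IsScalarTower K F F'] [Module.Finite F F']
  [Algebra k Ft] [Algebra k Ft'] [Algebra Ft Ft'] [IsScalarTower k Ft Ft'] [Module.Finite Ft Ft']
  [HasPrincipalDivisors K F'] [HasPrincipalDivisors k Ft']

variable (S : RedPair K F F' Ft Ft') (r' : Place K F' → Place k Ft')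

variable (Ft) in
/-- `ρ = restrict ∘ r'`. -/
def rho : Place K F' → Place k Ft := fun P' => (r' P').restrict Ft

theorem rho_apply (P' : Place K F') : rho Ft r' P' = (r' P').restrict Ft := rfl

/-- `(ρ_* div u)(Q) = ord_Q (N (red' u))` for units `u` of `V'`. -/
theorem mapDomain_rho_apply (hFt : FFFacts k Ft Ft') (hred : IsRedAbs S.V' S.red' r')
    {u : ↥S.V'} (hu : IsUnit u) (D' : Divisor K F') (hD' : ∀ P, D' P = P.ord (u : F'))
    (Q : Place k Ft) :
    Finsupp.mapDomain (rho Ft r') D' Q = Q.ord (Algebra.norm Ft (S.red' u)) := by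
  have hE := hred u hu D' hD'
  have h := hFt.norm (S.red' u) (S.red'_ne_zero hu) (Finsupp.mapDomain r' D') hE Q
  rw [pushforward_eq_mapDomain hFt.deg hFt.deg', ← Finsupp.mapDomain_comp] at h
  exact h

/-- `(ρ_* π^* div a)(Q) = d ord_Q (red a)` for units `a` of `V`. -/
theorem mapDomain_rho_pullback (hFt : FFFacts k Ft Ft') (hred : IsRedAbs S.V' S.red' r')
    {a : ↥S.V} (ha : IsUnit a) (D : Divisor K F) (hD : ∀ P, D P = P.ord (a : F))
    (Q : Place k Ft) :
    Finsupp.mapDomain (rho Ft r') (Divisor.pullback F' D) Q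
      = (Module.finrank F F' : ℤ) * Q.ord (S.red a) := by
  have hu : IsUnit (S.incl a) := (S.isUnit_incl_iff a).2 ha
  have hD' : ∀ P, Divisor.pullback F' D P = P.ord ((S.incl a : ↥S.V') : F') :=
    fun P => Divisor.pullback_apply_eq_ord hD P
  rw [mapDomain_rho_apply S r' hFt hred hu _ hD' Q, S.red'_incl, Algebra.norm_algebraMap,
    ord_pow, S.finrank_eq]

variable (F) in
/-- The functional `D' ↦ (ρ_* π^* π_* D')(Q) - d (ρ_* D')(Q)`. -/
def ndFun (Q : Place k Ft) : Divisor K F' →+ ℤ :=
  ((Finsupp.applyAddHom Q).comp (Finsupp.mapDomain.addMonoidHom (rho Ft r'))).comp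
      ((Divisor.pullback F').comp (Divisor.pushforward F))
    - (Module.finrank F F' : ℤ) •
      ((Finsupp.applyAddHom Q).comp (Finsupp.mapDomain.addMonoidHom (rho Ft r')))

theorem ndFun_apply (Q : Place k Ft) (D' : Divisor K F') :
    ndFun F r' Q D'
      = Finsupp.mapDomain (rho Ft r') (Divisor.pullback F' (Divisor.pushforward F D')) Q
        - (Module.finrank F F' : ℤ) * Finsupp.mapDomain (rho Ft r') D' Q := rfl

/-- The functional vanishes on principal divisors. -/
theorem ndFun_principal (hNR : Stmt_NormRedAbs) (hF : FFFacts K F F')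
    (hFt : FFFacts k Ft Ft') (hred : IsRedAbs S.V' S.red' r') (Q : Place k Ft)
    (D' : Divisor K F') (hD' : D'.IsPrincipal) : ndFun F r' Q D' = 0 := by
  obtain ⟨f, hf, hDf⟩ := hD'
  obtain ⟨c, hc, u, rfl⟩ := S.scale' f hf
  have hu0 : ((u : ↥S.V') : F') ≠ 0 := S.ne_zero_of_isUnit' u.isUnit
  have hc0 : algebraMap K F' c ≠ 0 := by
    rw [Ne, map_eq_zero]
    exact hc
  have hDu : ∀ P, D' P = P.ord ((u : ↥S.V') : F') := by
    intro P
    rw [hDf P, P.ord_mul hc0 hu0, ord_algebraMap, zero_add]
  obtain ⟨g, hgu, hg, hgred⟩ := S.exists_norm_unit hNR u.isUnit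
  have hDg : ∀ v : Place K F, Divisor.pushforward F D' v = v.ord (g : F) := by
    intro v
    rw [hg]
    exact hF.norm _ hu0 D' hDu v
  rw [ndFun_apply, mapDomain_rho_pullback S r' hFt hred hgu _ hDg Q,
    mapDomain_rho_apply S r' hFt hred u.isUnit D' hDu Q, hgred, sub_self]

open Classical in
/-- The value of the functional on a place. -/
theorem ndFun_single (hF : FFFacts K F F') (Q : Place k Ft) (P' : Place K F') :
    ndFun F r' Q (Finsupp.single P' 1)
      = (∑ w ∈ (P'.restrict F).fiber F',
          if rho Ft r' w = Q then (w.ramificationIndex F : ℤ) else 0)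
        - (Module.finrank F F' : ℤ) * (if rho Ft r' P' = Q then 1 else 0) := by
  rw [ndFun_apply, Divisor.pushforward_single, inertiaDeg_eq_one hF.deg hF.deg', Nat.cast_one,
    mul_one, Divisor.pullback_single, Finsupp.mapDomain_single, Finsupp.single_apply]
  congr 1
  rw [← Finsupp.mapDomain.addMonoidHom_apply, map_sum, Finsupp.finsetSum_apply]
  refine Finset.sum_congr rfl fun w _ => ?_
  rw [Finsupp.mapDomain.addMonoidHom_apply, Finsupp.mapDomain_single, Finsupp.single_apply,
    one_mul]

/-- The functional is bounded on the places. -/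
theorem abs_ndFun_single_le (hF : FFFacts K F F') (Q : Place k Ft) (P' : Place K F') :
    |ndFun F r' Q (Finsupp.single P' 1)| ≤ (Module.finrank F F' : ℤ) := by
  classical
  rw [ndFun_single r' hF Q P']
  have h0 : 0 ≤ ∑ w ∈ (P'.restrict F).fiber F',
      (if rho Ft r' w = Q then (w.ramificationIndex F : ℤ) else 0) := by
    refine Finset.sum_nonneg fun w _ => ?_
    split_ifs
    · exact Int.natCast_nonneg _
    · exact le_rfl
  have h1 : ∑ w ∈ (P'.restrict F).fiber F',
      (if rho Ft r' w = Q then (w.ramificationIndex F : ℤ) else 0) ≤ Module.finrank F F' := by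
    have h2 : ∑ w ∈ (P'.restrict F).fiber F',
        (if rho Ft r' w = Q then (w.ramificationIndex F : ℤ) else 0)
        ≤ ∑ w ∈ (P'.restrict F).fiber F', (w.ramificationIndex F : ℤ) := by
      refine Finset.sum_le_sum fun w _ => ?_
      split_ifs
      · exact le_rfl
      · exact Int.natCast_nonneg _
    refine h2.trans (le_of_eq ?_)
    exact_mod_cast hF.sum_e (P'.restrict F)
  have hd : (0 : ℤ) ≤ Module.finrank F F' := Int.natCast_nonneg _
  rw [abs_le]
  split_ifs <;> constructor <;> linarith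

/-- **`ρ` factors through the restriction of places.** -/
theorem rho_eq_of_restrict_eq (hNR : Stmt_NormRedAbs) [IsAlgClosed K] (hFF' : IsFF K F')
    (hF : FFFacts K F F') (hFt : FFFacts k Ft Ft') (hred : IsRedAbs S.V' S.red' r')
    {P' P'' : Place K F'} (h : P'.restrict F = P''.restrict F) : rho Ft r' P' = rho Ft r' P'' := by
  classical
  have hc := addHom_const_of_bounded hFF' (ndFun F r' (rho Ft r' P')) (Module.finrank F F')
    (abs_ndFun_single_le r' hF (rho Ft r' P'))
    (fun D hD => ndFun_principal S r' hNR hF hFt hred (rho Ft r' P') D hD) P' P''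
  rw [ndFun_single r' hF (rho Ft r' P') P', ndFun_single r' hF (rho Ft r' P') P'', h, if_pos rfl] at hc
  have hd : (0 : ℤ) < Module.finrank F F' := by exact_mod_cast Module.finrank_pos
  by_contra hne
  rw [if_neg (fun h' => hne h'.symm)] at hc
  linarith

/-- **The conservation law descends.** -/
theorem isRedAbs_of_compat (hF : FFFacts K F F') (hFt : FFFacts k Ft Ft')
    (hred : IsRedAbs S.V' S.red' r') (r : Place K F → Place k Ft)
    (hr : ∀ P' : Place K F', r (P'.restrict F) = rho Ft r' P') : IsRedAbs S.V S.red r := by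
  intro a ha D hD Q
  have h1 := mapDomain_rho_pullback S r' hFt hred ha D hD Q
  have e : rho Ft r' = r ∘ (fun w : Place K F' => w.restrict F) := funext fun P' => (hr P').symm
  rw [e, Finsupp.mapDomain_comp, mapDomain_restrict_pullback hF.sum_e, Finsupp.mapDomain_smul,
    Finsupp.smul_apply, smul_eq_mul] at h1
  have hd : (Module.finrank F F' : ℤ) ≠ 0 := by
    have : 0 < Module.finrank F F' := Module.finrank_pos
    exact_mod_cast this.ne'
  exact mul_left_cancel₀ hd h1

/-- **The moving lemma descends.** -/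
theorem hasMoveAbs_of_compat (hNR : Stmt_NormRedAbs) (hF : FFFacts K F F')
    (hmove : HasMoveAbs S.V' r') (r : Place K F → Place k Ft)
    (hr : ∀ P' : Place K F', r (P'.restrict F) = rho Ft r' P') : HasMoveAbs S.V r := by
  classical
  intro P T
  obtain ⟨P', hP'⟩ := fiber_nonempty hF.sum_e P
  set T' : Finset (Place k Ft') := (insert (r P) T).biUnion (fun Q => Q.fiber Ft') with hT'
  have hmemT' : ∀ w : Place k Ft', w ∈ T' ↔ w.restrict Ft ∈ insert (r P) T := by
    intro w
    rw [hT', Finset.mem_biUnion]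
    constructor
    · rintro ⟨Q, hQ, hw⟩
      rw [Place.mem_fiber.mp hw]
      exact hQ
    · intro h
      exact ⟨_, h, Place.mem_fiber.mpr rfl⟩
  obtain ⟨n, f', hn, hu, hord, hother⟩ := hmove P' T'
  obtain ⟨g, hgu, hg, -⟩ := S.exists_norm_unit hNR hu
  have hf0 : (f' : F') ≠ 0 := S.ne_zero_of_isUnit' hu
  have hnorm : ∀ v : Place K F, v.ord (g : F) = ∑ w ∈ v.fiber F', w.ord (f' : F') := by
    intro v
    rw [hg]
    exact norm_ord v (v.fiber F') (fun w hw => Place.mem_fiber.mp hw) (hF.sum_e v) hF.deg' hf0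
  -- the zeros of `f'` reduce outside `T ∪ {r P}`
  have hzero : ∀ w : Place K F', w ≠ P' → 0 < w.ord (f' : F') →
      r (w.restrict F) ∉ T ∧ r (w.restrict F) ≠ r P := by
    intro w hw hpos
    have h1 := ((hother w hw).2 hpos).1
    rw [hmemT', ← rho_apply, ← hr w, Finset.mem_insert, not_or] at h1
    exact ⟨h1.2, h1.1⟩
  refine ⟨n, g, hn, hgu, ?_, ?_⟩
  · rw [hnorm P, Finset.sum_eq_single_of_mem P' (Place.mem_fiber.mpr hP') ?_, hord]
    intro w hw hne
    have hw' := Place.mem_fiber.mp hw
    have h0 := (hother w hne).1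
    by_contra hcon
    have hpos : 0 < w.ord (f' : F') := lt_of_le_of_ne h0 (Ne.symm hcon)
    have := (hzero w hne hpos).2
    rw [hw'] at this
    exact this rfl
  · intro v hv
    have hne : ∀ w ∈ v.fiber F', w ≠ P' := by
      intro w hw h
      subst h
      exact hv ((Place.mem_fiber.mp hw).symm.trans hP')
    constructor
    · rw [hnorm v]
      exact Finset.sum_nonneg fun w hw => (hother w (hne w hw)).1
    · intro hpos
      rw [hnorm v] at hpos
      obtain ⟨w, hw, hwpos⟩ : ∃ w ∈ v.fiber F', 0 < w.ord (f' : F') := by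
        by_contra hcon
        push Not at hcon
        exact absurd hpos (not_lt.mpr (Finset.sum_nonpos hcon))
      have := hzero w (hne w hw) hwpos
      rwa [Place.mem_fiber.mp hw] at this

/-- **Abstract norm descent.** -/
theorem ndesc_abs (hNR : Stmt_NormRedAbs) [IsAlgClosed K] [IsAlgClosed k]
    (hFF : IsFF K F) (hFF' : IsFF K F') (hFFt : IsFF k Ft) (hFFt' : IsFF k Ft')
    (hred : IsRedAbs S.V' S.red' r') (hmove : HasMoveAbs S.V' r') :
    ∃ r : Place K F → Place k Ft,
      (∀ P' : Place K F', r (P'.restrict F) = (r' P').restrict Ft) ∧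
      IsRedAbs S.V S.red r ∧ HasMoveAbs S.V r := by
  have hF : FFFacts K F F' := ffFacts_of_isFF hFF hFF'
  have hFt : FFFacts k Ft Ft' := ffFacts_of_isFF hFFt hFFt'
  have hex : ∀ P : Place K F, ∃ P' : Place K F', P'.restrict F = P := fiber_nonempty hF.sum_e
  choose s hs using hex
  have hr : ∀ P' : Place K F', rho Ft r' (s (P'.restrict F)) = rho Ft r' P' := fun P' =>
    rho_eq_of_restrict_eq S r' hNR hFF' hF hFt hred (hs _)
  exact ⟨fun P => rho Ft r' (s P), hr, isRedAbs_of_compat S r' hF hFt hred _ hr,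
    hasMoveAbs_of_compat S r' hNR hF hmove _ hr⟩

end Descent

end Fermat.Agent.RED.H51

end
end
-- ==== END Fermat.Agent.RED.H51_NDDescent

-- ==== BEGIN Fermat.Agent.RED.H73_GACard
section

/-!
# G-RED package GA (helper73): the degree `[F_N · ℚ̄ : ℚ̄(j)] = ψ(N)`

The conjugate data are indexed by the cosets of `Γ₀(N)` in `SL₂(ℤ)`, so that
`card D.Q = ψ(N)` (Dedekind's `ψ`), for every `D : CADataL ℚ̄ N`; hence
* `relfinrank_fullC_bar`     : `[F_N · ℚ̄ : ℚ̄(j)] = ψ(N)`;
* `relfinrank_fullC_red_bar` : `[F_{N,k} : k(j~)] = ψ(N)` for the residue field `k` of a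
  valuation subring of `ℚ̄` in which `N` is invertible.
-/

set_option autoImplicit false
set_option synthInstance.maxHeartbeats 400000
set_option maxHeartbeats 1000000

open Polynomial ModularCurve Fermat.Agent.S28 Fermat.Agent.S28.H73
open IntermediateField MatrixGroups CongruenceSubgroup

noncomputable section

namespace Fermat.Agent.RED.H73

/-- The number of cosets of `Γ₀(N)` in `SL₂(ℤ)`, in helper22's model, is `ψ(N)`. -/
theorem card_cosets_eq_psi (N : ℕ) [NeZero N] :
    Fintype.card (Fermat.Agent.S23.H22.Q N) = dedekindPsi N := by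
  rw [← Nat.card_eq_fintype_card, ← Subgroup.index_eq_card]
  rw [← Fermat.Agent.S20.H19.G1 N]
  show ((Fermat.Agent.S23.H22.G0 N).subgroupOf 𝒮ℒ).index = _
  have h1 : ((Fermat.Agent.S23.H22.G0 N).subgroupOf 𝒮ℒ).index
      = (Fermat.Agent.S23.H22.G0 N).relIndex 𝒮ℒ := rfl
  rw [h1]
  have h2 : (𝒮ℒ : Subgroup (GL (Fin 2) ℝ))
      = (⊤ : Subgroup SL(2, ℤ)).map (Matrix.SpecialLinearGroup.mapGL ℝ) := by
    rw [← MonoidHom.range_eq_map]
  have h3 : Fermat.Agent.S23.H22.G0 N
      = (Gamma0 N).map (Matrix.SpecialLinearGroup.mapGL ℝ) := rfl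
  rw [h2, h3, Subgroup.relIndex_map_map_of_injective _ _
    (Matrix.SpecialLinearGroup.mapGL_injective), Subgroup.relIndex_top_right]

/-- **Transfer with the index set kept** (helper30's `nonempty_caDataL`, same proof): the
conjugate data over an algebraically closed subfield of `ℂ`, with the same number of conjugates. -/
theorem exists_caDataL_of_caData {K : Type} [Field K] [IsAlgClosed K] (ι : K →+* ℂ) (N : ℕ)
    [NeZero N] (D : CAData N)
    (hXc : ∀ (d : ℕ) (q : D.Q) (n : ℤ), d ∣ N → (D.X d q).coeff n ∈ coeffRing N)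
    (hXtop : ∀ q : D.Q, q ≠ D.q₀ → (D.X N q).coeff (-((N : ℤ) ^ 2)) = 0) :
    ∃ D' : CADataL K N, Fintype.card D'.Q = Fintype.card D.Q := by
  have hU : ∀ q, ∃ g : LaurentSeries K, coeffMap ι g = D.U q := fun q =>
    Fermat.Agent.RED.H30.exists_coeffMap_eq ι fun n =>
      Fermat.Agent.RED.H30.mem_range_of_mem_coeffRing ι N (D.U_coeff q n)
  choose U' hU' using hU
  have hX : ∀ (d : ℕ) (q : D.Q), ∃ g : LaurentSeries K, d ∣ N → coeffMap ι g = D.X d q := by
    intro d q
    by_cases hd : d ∣ N
    · obtain ⟨g, hg⟩ :=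
        Fermat.Agent.RED.H30.exists_coeffMap_eq ι fun n =>
          Fermat.Agent.RED.H30.mem_range_of_mem_coeffRing ι N (hXc d q n hd)
      exact ⟨g, fun _ => hg⟩
    · exact ⟨0, fun h => absurd h hd⟩
  choose X' hX' using hX
  refine ⟨{
    Q := D.Q
    instFintype := D.instFintype
    q₀ := D.q₀
    D := D.D
    D_pos := D.D_pos
    U := U'
    X := X'
    U_coeff := fun q n => Fermat.Agent.RED.H30.mem_coeffRingL_of_map_mem ι N (by
      rw [← coeffMap_coeff, hU']; exact D.U_coeff q n)
    U_ne := fun q h => D.U_ne q (by rw [← hU', h, map_zero])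
    U_lead := fun q => Fermat.Agent.RED.H30.mem_coeffRingL_of_map_mem ι N (by
      rw [map_inv₀, ← Fermat.Agent.RED.H30.coeffMap_leadingCoeff, hU']; exact D.U_lead q)
    U_order₀ := by rw [← Fermat.Agent.RED.H30.coeffMap_order ι, hU']; exact D.U_order₀
    U_order_pos := fun q hq => by
      rw [← Fermat.Agent.RED.H30.coeffMap_order ι, hU']; exact D.U_order_pos q hq
    X_coeff := fun d q n hd => Fermat.Agent.RED.H30.mem_coeffRingL_of_map_mem ι N (by
      rw [← coeffMap_coeff, hX' d q hd]; exact hXc d q n hd)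
    X_q₀ := fun d _ hd => Fermat.Agent.RED.H30.coeffMap_injective ι (by
      rw [hX' d _ hd, D.X_q₀ d hd, Fermat.Agent.RED.H30.coeffMap_qExpand_jqModC])
    X_top := fun q hq => ι.injective (by
      rw [← coeffMap_coeff, hX' N q dvd_rfl, map_zero]; exact hXtop q hq)
    sym := fun d hd c s => Fermat.Agent.RED.H30.mem_adjoin_of_coeffMap_mem ι _ _ (by
      rw [Fermat.Agent.RED.H30.coeffMap_qExpand_jqModC_one, map_prod]
      have := D.sym d hd (ι c) (ι s)
      convert this using 2
      rename_i q _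
      rw [map_sub, map_sub, map_mul, Fermat.Agent.RED.H30.coeffMap_C,
        Fermat.Agent.RED.H30.coeffMap_C, hU', hX' d q hd]) }, rfl⟩

/-- Conjugate data over an algebraically closed subfield of `ℂ` with `card Q = ψ(N)`. -/
theorem exists_caDataL_card {K : Type} [Field K] [IsAlgClosed K] (ι : K →+* ℂ) (N : ℕ)
    [NeZero N] : ∃ D : CADataL K N, Fintype.card D.Q = dedekindPsi N := by
  rcases Nat.lt_or_ge N 2 with h | h
  · have hN0 : N ≠ 0 := NeZero.ne N
    have h1 : N = 1 := by omega
    subst h1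
    obtain ⟨D', hD'⟩ := exists_caDataL_of_caData ι 1 Fermat.Agent.S28.H10.caDataOne
      (fun d q n hd => Fermat.Agent.S28.iotaN_jq_coeffsIn 1 (coeffRing 1) n)
      (fun q hq => absurd (Subsingleton.elim (α := Unit) q ()) hq)
    refine ⟨D', ?_⟩
    rw [hD', dedekindPsi_one]
    rfl
  · obtain ⟨D', hD'⟩ := exists_caDataL_of_caData ι N (Fermat.Agent.S28.H30.caDataEta N h)
      (fun d q n hd => Fermat.Agent.S28.H30.Xfam_coeff_mem N hd q n)
      (fun q hq => Fermat.Agent.S28.H30.Xfam_coeff_neg_sq N q hq)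
    refine ⟨D', ?_⟩
    rw [hD']
    exact card_cosets_eq_psi N

section Bar

variable (N : ℕ) [NeZero N]

/-- `[F_N · ℚ̄ : ℚ̄(j)] = ψ(N)`. -/
theorem relfinrank_fullC_bar :
    (IntermediateField.adjoin (AlgebraicClosure ℚ)
        ({jqModC (AlgebraicClosure ℚ)} : Set (LaurentSeries (AlgebraicClosure ℚ)))).relfinrank
      (modularFunctionFieldFullC (AlgebraicClosure ℚ) N) = dedekindPsi N := by
  have : Algebra.IsAlgebraic ℚ (AlgebraicClosure ℚ) := AlgebraicClosure.isAlgebraic ℚ
  obtain ⟨D, hD⟩ := exists_caDataL_card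
    ((IsAlgClosed.lift : AlgebraicClosure ℚ →ₐ[ℚ] ℂ) : AlgebraicClosure ℚ →+* ℂ) N
  rw [relfinrank_fullC D, hD]

variable {N}

/-- Every system of conjugate data over `ℚ̄` has `ψ(N)` conjugates. -/
theorem card_Q_eq_psi (D : CADataL (AlgebraicClosure ℚ) N) :
    Fintype.card D.Q = dedekindPsi N := by
  rw [← relfinrank_fullC D, relfinrank_fullC_bar]

/-- `[F_{N,k} : k(j~)] = ψ(N)` over the residue field of a valuation subring of `ℚ̄` in which
`N` is invertible. -/
theorem relfinrank_fullC_red_bar (A : ValuationSubring (AlgebraicClosure ℚ))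
    (hN : ((N : AlgebraicClosure ℚ))⁻¹ ∈ A) :
    (IntermediateField.adjoin (kV A) ({jqModC (kV A)} : Set (LaurentSeries (kV A)))).relfinrank
      (modularFunctionFieldFullC (kV A) N) = dedekindPsi N := by
  have : IsAlgClosed (kV A) := isAlgClosed_kV A
  have : Infinite (kV A) := IsAlgClosed.instInfinite
  rw [relfinrank_fullC_red A hN (caDataBar N), card_Q_eq_psi]

end Bar

theorem dedekindPsi_prime {p : ℕ} (hp : p.Prime) : dedekindPsi p = p + 1 := by
  rw [dedekindPsi, Nat.Prime.divisors hp]
  have h1 : (1 : ℕ) ≠ p := hp.one_lt.ne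
  rw [Finset.filter_true_of_mem]
  · rw [Finset.sum_pair h1, Nat.div_one, Nat.div_self hp.pos]
  · intro d hd
    rcases Finset.mem_insert.1 hd with rfl | hd
    · exact squarefree_one
    · rw [Finset.mem_singleton.1 hd]
      exact hp.squarefree

end Fermat.Agent.RED.H73

end
end
-- ==== END Fermat.Agent.RED.H73_GACard

-- ==== BEGIN Fermat.Agent.RED.H73_GAInv
section
attribute [local instance 10000] SubalgebraClass.toAlgebra
attribute [local instance 10000] HahnSeries.powerSeriesAlgebra

/-!
# G-RED package GA (helper73): inverses of charts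

In a `RedSetting` the kernel of the reduction map is the maximal ideal of the valuation ring,
so an element with nonzero reduction is a unit:
* `redSetting_inv_mem` : `S.red x ≠ 0 → x⁻¹ ∈ S.V`;
* `ChartPre.inv_mem`, `ChartPre.inv_chart` : the chart `1/x` of a chart `x`, with no side
  condition;
* `jF_inv_mem`, `chartPre_jF_inv'` : the chart `1/j`.
-/

set_option autoImplicit false
set_option synthInstance.maxHeartbeats 400000
set_option maxHeartbeats 1000000

open Polynomial ModularCurve Fermat.Agent.S28 Fermat.Agent.S28.H73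
open IntermediateField

noncomputable section

namespace Fermat.Agent.RED.H73

section General

variable {C F k Ft : Type} [Field C] [Field F] [Algebra C F] [Field k] [Field Ft] [Algebra k Ft]

/-- An element of the valuation ring with nonzero reduction is a unit. -/
theorem redSetting_inv_mem (S : Fermat.Agent.RED.H34.RedSetting C F k Ft) {x : F} (hx : x ∈ S.V)
    (h : S.red ⟨x, hx⟩ ≠ 0) : x⁻¹ ∈ S.V := by
  have hmax : (RingHom.ker S.red).IsMaximal := RingHom.ker_isMaximal_of_surjective S.red S.red_surj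
  have hker : RingHom.ker S.red = IsLocalRing.maximalIdeal ↥S.V :=
    IsLocalRing.eq_maximalIdeal hmax
  have hu : IsUnit (⟨x, hx⟩ : ↥S.V) := by
    by_contra hnu
    have : (⟨x, hx⟩ : ↥S.V) ∈ IsLocalRing.maximalIdeal ↥S.V :=
      (IsLocalRing.mem_maximalIdeal _).2 hnu
    rw [← hker] at this
    exact h ((RingHom.mem_ker).1 this)
  obtain ⟨u, hu⟩ := hu
  have h1 : x * ((u⁻¹ : (↥S.V)ˣ) : ↥S.V) = 1 := by
    have h2 : ((u : ↥S.V) : F) = x := by rw [hu]
    rw [← h2]
    have h3 : (u : ↥S.V) * ((u⁻¹ : (↥S.V)ˣ) : ↥S.V) = 1 := u.mul_inv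
    exact_mod_cast congrArg (Subtype.val) h3
  rw [← eq_inv_of_mul_eq_one_right h1]
  exact Subtype.property _

/-- The inverse of a chart lies in the valuation ring. -/
theorem ChartPre.inv_mem {S : Fermat.Agent.RED.H34.RedSetting C F k Ft} {x : F} {hx : x ∈ S.V}
    (h : ChartPre S x hx) : x⁻¹ ∈ S.V := by
  apply redSetting_inv_mem S hx
  intro h0
  have := h.transc
  rw [h0] at this
  exact this isAlgebraic_zero

/-- The chart `1/x` of a chart `x`. -/
theorem ChartPre.inv_chart {S : Fermat.Agent.RED.H34.RedSetting C F k Ft} {x : F} {hx : x ∈ S.V}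
    (h : ChartPre S x hx) : ChartPre S x⁻¹ h.inv_mem :=
  h.inv h.inv_mem

end General

section ChartJ

variable {L : Type} [Field L] [IsAlgClosed L] [CharZero L] [Algebra ℚ L]
  {A : ValuationSubring L} {N : ℕ} [NeZero N] (hN : ((N : L))⁻¹ ∈ A) (D : CADataL L N)

omit [IsAlgClosed L] [CharZero L] [NeZero N] in
/-- `1/j` lies in the valuation ring of the Gauss valuation. -/
theorem jF_inv_mem (A : ValuationSubring L) (N : ℕ) :
    (jF (L := L) N)⁻¹ ∈ (redSetting A (hasScale_laurentBaseChange A N)).V := by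
  apply redSetting_inv_mem _ (jF_mem A N)
  intro h0
  have := transcendental_red_jF A N
  rw [h0] at this
  exact this isAlgebraic_zero

include hN D in
/-- The five chart fields for `1/j` at level `N`. -/
theorem chartPre_jF_inv' :
    ChartPre (redSetting A (hasScale_laurentBaseChange A N)) (jF N)⁻¹ (jF_inv_mem A N) :=
  (chartPre_jF hN D).inv (jF_inv_mem A N)

end ChartJ

section Haupt

variable {L : Type} [Field L] [IsAlgClosed L] [CharZero L] [Algebra ℚ L]
  {A : ValuationSubring L} {p M : ℕ} [NeZero p] [NeZero M]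
  (hpM : p ∣ M) (hM : ((M : L))⁻¹ ∈ A) (Dp : CADataL L p) (DM : CADataL L M)
  {x : LaurentSeries L} (hx : x ∈ gaussRingV A)
  (H2 : IntermediateField.adjoin L ({x} : Set (LaurentSeries L)) = modularFunctionFieldFullC L p)
  (H3 : IntermediateField.adjoin (kV A) ({gaussRedV A ⟨x, hx⟩} : Set (LaurentSeries (kV A)))
    = modularFunctionFieldFullC (kV A) p)

include hpM hM Dp DM H2 H3 in
/-- **GA-H**, both charts `x` and `1/x` in the form used by `H79.hasDR_of_goodCharts`. -/
theorem chartPre_haupt_both (hxF : x ∈ laurentBaseChange L (modularFunctionFieldFull M)) :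
    ∃ (X : ↥(laurentBaseChange L (modularFunctionFieldFull M)))
      (hX : X ∈ (redSetting A (hasScale_laurentBaseChange A M)).V)
      (hX' : X⁻¹ ∈ (redSetting A (hasScale_laurentBaseChange A M)).V),
      (X : LaurentSeries L) = x ∧
      ChartPre (redSetting A (hasScale_laurentBaseChange A M)) X hX ∧
      ChartPre (redSetting A (hasScale_laurentBaseChange A M)) X⁻¹ hX' := by
  have h := chartPre_haupt hpM hM Dp DM hx H2 H3 hxF
  exact ⟨⟨x, hxF⟩, hx, h.inv_mem, rfl, h, h.inv_chart⟩

end Haupt

end Fermat.Agent.RED.H73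

end
end
-- ==== END Fermat.Agent.RED.H73_GAInv

-- ==== BEGIN Fermat.Agent.RED.H76_IGOrd
section

/-!
# G-RED package IG-MODj (helper76): bounds for the ramification of `j`

For every place `v` of `F_N · ℚ̄` (any level `N`):
* `ord_jF_sub_le` : `0 < ord_v (j - a)` and `a = j(τ)` imply `ord_v (j - a) ≤ jOrd τ`;
* `ord_jF_le_three` : `ord_v j ≤ 3`;
* `ord_jF_sub_1728_le_two` : `ord_v (j - 1728) ≤ 2`;
* `ord_jF_sub_eq_one` : `ord_v (j - a) = 1` for `a ≠ 0, 1728` (when it is positive);
* `neg_le_ord_jF` : `-N ≤ ord_v j` (pole order at most `N`).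

Abstract form: `gc_ord_le` (same setting as `Fermat.Agent.S24.gc_card_zeros`): if `L / K(t)` is
a finite Galois extension with a valuation `w`, trivial on `K`, with `exp (-n) ≤ w t < 1`, then
`ord_v t ≤ n` at every place `v` of an intermediate field `F` with `ord_v t > 0`.
(All primes of `L` over `t = 0` are conjugate and `t` is fixed by the Galois group.)
-/

set_option autoImplicit false
set_option linter.style.haveILetI false
set_option synthInstance.maxHeartbeats 400000
set_option maxHeartbeats 1000000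

noncomputable section

open WithZero IsDedekindDomain AlgebraicCurve
open scoped Pointwise

namespace Fermat.Agent.RED.H76

open Fermat.Agent.S24

section Abstract

theorem ord_le_aux {K A : Type*} (E : Type*) {F L : Type*} [Field K] [IsAlgClosed K] [CharZero K]
    [CommRing A] [IsDedekindDomain A] [Algebra K A]
    [Field E] [Field F] [Field L]
    [Algebra A E] [IsFractionRing A E]
    [Algebra E F] [Algebra E L] [Algebra F L] [IsScalarTower E F L]
    [Algebra A F] [IsScalarTower A E F] [Algebra A L] [IsScalarTower A E L] [IsScalarTower A F L]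
    [Algebra K F] [IsScalarTower K A F]
    [FiniteDimensional E L] [IsGalois E L]
    (t : A) (ht : (Ideal.span {t}).IsMaximal) (ht0 : t ≠ 0)
    (hplace : ∀ v : Place K F, 0 < v.ord (algebraMap A F t) →
      ∀ a : A, algebraMap A F a ∈ v.toValuationSubring)
    (w : Valuation L ℤᵐ⁰) (hwA : ∀ a : A, w (algebraMap A L a) ≤ 1)
    (hwt : w (algebraMap A L t) < 1)
    (n : ℕ) (hord : exp (-(n : ℤ)) ≤ w (algebraMap A L t))
    (v : Place K F) (hv : 0 < v.ord (algebraMap A F t)) :
    v.ord (algebraMap A F t) ≤ n := by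
  have : CharZero A := charZero_of_injective_algebraMap (algebraMap K A).injective
  have : CharZero E := charZero_of_injective_algebraMap (IsFractionRing.injective A E)
  have : FiniteDimensional E F := FiniteDimensional.left E F L
  have : Algebra.IsSeparable E F := inferInstance
  let B := integralClosure A F
  let C := integralClosure A L
  have : IsDedekindDomain B := IsIntegralClosure.isDedekindDomain A E F B
  have : IsDedekindDomain C := IsIntegralClosure.isDedekindDomain A E L C
  have : IsFractionRing B F := IsIntegralClosure.isFractionRing_of_finite_extension A E F B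
  have : IsFractionRing C L := IsIntegralClosure.isFractionRing_of_finite_extension A E L C
  have : Module.Finite A C := IsIntegralClosure.finite A E L C
  have : Algebra.IsIntegral A B := IsIntegralClosure.isIntegral_algebra A F
  have : Algebra.IsIntegral A C := IsIntegralClosure.isIntegral_algebra A L
  let i1 : Algebra B L := inferInstance
  have : IsScalarTower B F L := inferInstance
  have : IsScalarTower A B L := inferInstance
  let i2 : Algebra K B := inferInstance
  have : IsScalarTower K B F := inferInstance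
  let i3 : Algebra B C := (IsIntegralClosure.lift A C L : B →ₐ[A] C).toRingHom.toAlgebra
  have : IsScalarTower A B C := by
    refine IsScalarTower.of_algebraMap_eq fun a => ?_
    exact ((IsIntegralClosure.lift A C L : B →ₐ[A] C).commutes a).symm
  have : IsScalarTower B C L := by
    refine IsScalarTower.of_algebraMap_eq fun b => ?_
    exact (IsIntegralClosure.algebraMap_lift A C L b).symm
  have : Algebra.IsIntegral B C := Algebra.IsIntegral.tower_top (R := A)
  let i4 : MulSemiringAction (L ≃ₐ[E] L) C := IsIntegralClosure.MulSemiringAction A E L C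
  have : IsGaloisGroup (L ≃ₐ[E] L) A C := IsGaloisGroup.of_isFractionRing _ _ _ E L
  have hAL : Function.Injective (algebraMap A L) := by
    rw [IsScalarTower.algebraMap_eq A E L]
    exact (algebraMap E L).injective.comp (IsFractionRing.injective A E)
  have hBC : Function.Injective (algebraMap B C) := by
    intro x y hxy
    have h1 := congrArg (algebraMap C L) hxy
    rw [← IsScalarTower.algebraMap_apply B C L, ← IsScalarTower.algebraMap_apply B C L,
      IsScalarTower.algebraMap_apply B F L, IsScalarTower.algebraMap_apply B F L] at h1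
    exact (IsFractionRing.injective B F) ((algebraMap F L).injective h1)
  have hAB : Function.Injective (algebraMap A B) := by
    intro x y hxy
    apply hAL
    rw [IsScalarTower.algebraMap_apply A B L, IsScalarTower.algebraMap_apply A B L, hxy]
  have htB : algebraMap A B t ≠ 0 := fun h => ht0 (hAB (h.trans (map_zero _).symm))
  -- the valuation is `≤ 1` on `C`
  have hwC : ∀ c : C, w (algebraMap C L c) ≤ 1 := by
    intro c
    have hint : IsIntegral A (algebraMap C L c) :=
      (IsIntegralClosure.isIntegral_iff (A := C)).mpr ⟨c, rfl⟩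
    have := h95_mem_valuationSubring_of_isIntegral (A := A) w.valuationSubring
      (fun a => (Valuation.mem_valuationSubring_iff _ _).mpr (hwA a)) hint
    exact (Valuation.mem_valuationSubring_iff _ _).mp this
  -- the prime `P` of `w`
  set P : Ideal C := h95_valLT w hwC with hP
  have hPprime : P.IsPrime := h95_valLT_isPrime w hwC
  set p : Ideal A := Ideal.span {t} with hp
  have htP : algebraMap A C t ∈ P := by
    rw [hP, h95_mem_valLT, ← IsScalarTower.algebraMap_apply A C L]
    exact hwt
  have hPp : P.LiesOver p := by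
    refine ⟨?_⟩
    have hle : p ≤ P.under A := by
      rw [hp, Ideal.span_singleton_le_iff_mem]
      exact htP
    exact Ideal.IsMaximal.eq_of_le ht (Ideal.IsPrime.under A P).ne_top hle
  -- the prime `Q` of `B` of the place `v`
  have hB : ∀ b : B, algebraMap B F b ∈ v.toValuationSubring := by
    intro b
    exact h95_mem_valuationSubring_of_isIntegral (A := A) v.toValuationSubring (hplace v hv)
      ((IsIntegralClosure.isIntegral_iff (A := B)).mpr ⟨b, rfl⟩)
  obtain ⟨Q, hQ⟩ := exists_heightOneSpectrum_of_le v hB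
  have htF : algebraMap A F t ≠ 0 := by
    rw [IsScalarTower.algebraMap_apply A B F]
    exact fun h => htB ((IsFractionRing.injective B F) (h.trans (map_zero _).symm))
  have hordQ : v.ord (algebraMap A F t) = -(WithZero.log (Q.valuation F (algebraMap A F t))) :=
    ord_eq_of_valuationSubring_eq v Q hQ htF
  -- `m = ord_v t`
  obtain ⟨m, hm⟩ : ∃ m : ℕ, v.ord (algebraMap A F t) = (m : ℤ) :=
    ⟨(v.ord (algebraMap A F t)).toNat, (Int.toNat_of_nonneg hv.le).symm⟩
  rw [hm]
  have hmQ : algebraMap A B t ∈ Q.asIdeal ^ m := by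
    rw [← HeightOneSpectrum.intValuation_le_pow_iff_mem,
      ← HeightOneSpectrum.valuation_of_algebraMap (K := F)]
    change Q.valuation F (algebraMap B F (algebraMap A B t)) ≤ _
    rw [← IsScalarTower.algebraMap_apply A B F]
    have hne : Q.valuation F (algebraMap A F t) ≠ 0 := (Valuation.ne_zero_iff _).mpr htF
    rw [← exp_log hne, exp_le_exp]
    omega
  -- a prime `P'` of `C` over `Q`
  have hker : (⊥ : Ideal C).comap (algebraMap B C) ≤ Q.asIdeal := by
    intro b hb
    rw [Ideal.mem_comap, Ideal.mem_bot] at hb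
    have : b = 0 := hBC (hb.trans (map_zero _).symm)
    rw [this]
    exact Q.asIdeal.zero_mem
  obtain ⟨P', -, hP'prime, hP'Q⟩ :=
    Ideal.exists_ideal_over_prime_of_isIntegral (S := C) Q.asIdeal (⊥ : Ideal C) hker
  have hmP' : algebraMap A C t ∈ P' ^ m := by
    rw [IsScalarTower.algebraMap_apply A B C]
    have h1 : algebraMap B C (algebraMap A B t) ∈ (Q.asIdeal ^ m).map (algebraMap B C) :=
      Ideal.mem_map_of_mem _ hmQ
    rw [Ideal.map_pow] at h1
    refine Ideal.pow_right_mono ?_ m h1
    rw [Ideal.map_le_iff_le_comap, hP'Q]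
  have hm0 : 0 < m := by
    have := hv
    rw [hm] at this
    exact_mod_cast this
  have htP' : algebraMap A C t ∈ P' := Ideal.pow_le_self hm0.ne' hmP'
  have hP'p : P'.LiesOver p := by
    refine ⟨?_⟩
    have hle : p ≤ P'.under A := by
      rw [hp, Ideal.span_singleton_le_iff_mem]
      exact htP'
    exact Ideal.IsMaximal.eq_of_le ht (Ideal.IsPrime.under A P').ne_top hle
  -- conjugacy
  obtain ⟨g, hg⟩ := Ideal.exists_smul_eq_of_isGaloisGroup p P P' (L ≃ₐ[E] L)
  have hmP : algebraMap A C t ∈ P ^ m := by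
    rw [← hg, ← smul_pow', Ideal.mem_pointwise_smul_iff_inv_smul_mem, smul_algebraMap] at hmP'
    exact hmP'
  have h2 := h95_le_exp_of_mem_pow w hwC m hmP
  rw [← IsScalarTower.algebraMap_apply A C L] at h2
  have h3 := hord.trans h2
  rw [exp_le_exp] at h3
  omega

end Abstract

section Concrete

open Polynomial

/-- **Ramification bound** (abstract): in the setting of `Fermat.Agent.S24.gc_card_zeros`, the
order of `t` at a place of `F` is at most `n` if `exp (-n) ≤ w t`. -/
theorem gc_ord_le
    {K E F L : Type*} [Field K] [IsAlgClosed K] [CharZero K] [Field E] [Field F] [Field L]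
    [Algebra K E] [Algebra K F] [Algebra K L] [Algebra E F] [Algebra E L] [Algebra F L]
    [IsScalarTower K E F] [IsScalarTower K E L] [IsScalarTower E F L] [IsScalarTower K F L]
    [FiniteDimensional E L] [IsGalois E L]
    (t : E) (ht : Transcendental K t)
    (hE : ∀ y : E, ∃ p q : Polynomial K, Polynomial.aeval t q ≠ 0 ∧
      y = Polynomial.aeval t p / Polynomial.aeval t q)
    (w : Valuation L ℤᵐ⁰) (hwK : ∀ c : K, c ≠ 0 → w (algebraMap K L c) = 1)
    (hwt : w (algebraMap E L t) < 1)
    (n : ℕ) (hord : exp (-(n : ℤ)) ≤ w (algebraMap E L t))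
    (v : Place K F) (hv : 0 < v.ord (algebraMap E F t)) :
    v.ord (algebraMap E F t) ≤ n := by
  let iAE : Algebra K[X] E := (Polynomial.aeval t : K[X] →ₐ[K] E).toRingHom.toAlgebra
  have hAE : ∀ p : K[X], algebraMap K[X] E p = Polynomial.aeval t p := fun p => rfl
  have : IsScalarTower K K[X] E := by
    refine IsScalarTower.of_algebraMap_eq fun k => ?_
    rw [hAE, Polynomial.algebraMap_apply, Algebra.algebraMap_self, RingHom.id_apply,
      Polynomial.aeval_C]
  let iAF : Algebra K[X] F := ((algebraMap E F).comp (algebraMap K[X] E)).toAlgebra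
  let iAL : Algebra K[X] L := ((algebraMap E L).comp (algebraMap K[X] E)).toAlgebra
  have : IsScalarTower K[X] E F := IsScalarTower.of_algebraMap_eq' rfl
  have : IsScalarTower K[X] E L := IsScalarTower.of_algebraMap_eq' rfl
  have : IsScalarTower K[X] F L := by
    refine IsScalarTower.of_algebraMap_eq fun p => ?_
    rw [IsScalarTower.algebraMap_apply K[X] E L, IsScalarTower.algebraMap_apply K[X] E F,
      ← IsScalarTower.algebraMap_apply E F L]
  have : IsScalarTower K K[X] F := by
    refine IsScalarTower.of_algebraMap_eq fun k => ?_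
    rw [IsScalarTower.algebraMap_apply K[X] E F, ← IsScalarTower.algebraMap_apply K K[X] E,
      ← IsScalarTower.algebraMap_apply K E F]
  have hinj : Function.Injective (algebraMap K[X] E) := transcendental_iff_injective.mp ht
  have : FaithfulSMul K[X] E := (faithfulSMul_iff_algebraMap_injective K[X] E).mpr hinj
  have : IsFractionRing K[X] E := by
    refine IsFractionRing.of_field K[X] E fun y => ?_
    obtain ⟨p, q, -, hy⟩ := hE y
    exact ⟨p, q, hy⟩
  have hXF : algebraMap K[X] F X = algebraMap E F t := by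
    rw [IsScalarTower.algebraMap_apply K[X] E F, hAE, Polynomial.aeval_X]
  have hXL : algebraMap K[X] L X = algebraMap E L t := by
    rw [IsScalarTower.algebraMap_apply K[X] E L, hAE, Polynomial.aeval_X]
  have hmemF : ∀ (V : ValuationSubring F), (∀ k : K, algebraMap K F k ∈ V) →
      algebraMap E F t ∈ V → ∀ a : K[X], algebraMap K[X] F a ∈ V := by
    intro V hVK hVt a
    induction a using Polynomial.induction_on' with
    | add p q hp hq => rw [map_add]; exact V.add_mem _ _ hp hq
    | monomial n k =>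
      rw [← Polynomial.C_mul_X_pow_eq_monomial, map_mul, map_pow, hXF,
        ← Polynomial.algebraMap_eq, ← IsScalarTower.algebraMap_apply K K[X] F]
      exact V.mul_mem _ _ (hVK k) (V.pow_mem hVt n)
  have hwA : ∀ a : K[X], w (algebraMap K[X] L a) ≤ 1 := by
    intro a
    induction a using Polynomial.induction_on' with
    | add p q hp hq => rw [map_add]; exact (w.map_add _ _).trans (max_le hp hq)
    | monomial n k =>
      have hk : w (algebraMap K L k) ≤ 1 := by
        rcases eq_or_ne k 0 with rfl | hk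
        · simp
        · exact (hwK k hk).le
      have hkL : algebraMap K[X] L (Polynomial.C k) = algebraMap K L k := by
        rw [IsScalarTower.algebraMap_apply K[X] E L, hAE, Polynomial.aeval_C,
          ← IsScalarTower.algebraMap_apply K E L]
      rw [← Polynomial.C_mul_X_pow_eq_monomial, map_mul, map_pow, hXL, hkL, map_mul, map_pow]
      exact mul_le_one' hk (pow_le_one' hwt.le n)
  have key := ord_le_aux (K := K) (A := K[X]) E (F := F) (L := L)
    (X : K[X]) h95_span_X_isMaximal Polynomial.X_ne_zero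
    (fun v hv => hmemF v.toValuationSubring v.algebraMap_mem'
      (h95_mem_of_ord_nonneg v (by rw [← hXF]; exact hv.le)))
    w hwA (by rw [hXL]; exact hwt) n (by rw [hXL]; exact hord) v (by rw [hXF]; exact hv)
  rw [hXF] at key
  exact key

end Concrete

section Modular

open CongruenceSubgroup ModularGroup ModularCurve IntermediateField
open scoped MatrixGroups

attribute [local instance] ModClosure.instFieldE ModClosure.instField ModClosure.instAlgKE
  ModClosure.instAlgK ModClosure.instAlgEF ModClosure.instAlgF ModClosure.instAlgE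
  ModClosure.towerKEF ModClosure.towerKFL ModClosure.towerEFL ModClosure.towerKEL
  ModClosure.finite ModClosure.galois

variable {N : ℕ} [NeZero N]

/-- The order of `j - a` at a place of `F_N · ℚ̄` is at most the order of `j - j(τ)` at `τ`,
`a = j(τ)`. -/
theorem ord_jF_sub_le_of_closure (M : ModClosure N) (a : Kbar) (τ : UpperHalfPlane)
    (hτ : iotaC a = jAn τ) (hpos : 0 < jOrd τ)
    (v : Place Kbar (FN N)) (hv : 0 < v.ord (Fermat.Agent.S24.jF N - algebraMap Kbar (FN N) a)) :
    v.ord (Fermat.Agent.S24.jF N - algebraMap Kbar (FN N) a) ≤ jOrd τ := by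
  have h := gc_ord_le (K := Kbar) (E := M.E) (F := FN N) (L := M.L)
    (M.t - algebraMap Kbar M.E a) (h85_transcendental_sub M.t_transcendental a)
    (h85_gen_sub M.t_gen a) (M.w τ) (M.w_algebraMap τ)
    (by
      rw [M.w_j τ a hτ, ← exp_zero, exp_lt_exp]
      omega)
    (jOrd τ) (by rw [M.w_j τ a hτ]) v
    (by rw [map_sub, M.t_map, ← IsScalarTower.algebraMap_apply]; exact hv)
  rw [map_sub, M.t_map, ← IsScalarTower.algebraMap_apply] at h
  exact h

/-- The pole order of `j` at a place of `F_N · ℚ̄` is at most `N`. -/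
theorem neg_le_ord_jF_of_closure (M : ModClosure N) (v : Place Kbar (FN N)) :
    -(N : ℤ) ≤ v.ord (Fermat.Agent.S24.jF N) := by
  have ht0 : M.t ≠ 0 := fun h0 => M.t_transcendental (h0 ▸ isAlgebraic_zero)
  have hNpos : 0 < N := Nat.pos_of_ne_zero (NeZero.ne N)
  by_cases hv : v.ord (Fermat.Agent.S24.jF N) < 0
  · have hv' : 0 < v.ord (algebraMap M.E (FN N) (M.t)⁻¹) := by
      rw [map_inv₀, M.t_map, Place.ord_inv]
      omega
    have h := gc_ord_le (K := Kbar) (E := M.E) (F := FN N) (L := M.L)
      (M.t)⁻¹ (h85_transcendental_inv M.t_transcendental)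
      (h85_gen_inv ht0 M.t_gen) M.winf M.winf_algebraMap
      (by
        rw [M.winf_j, ← exp_zero, exp_lt_exp]
        omega)
      N (by rw [M.winf_j]) v hv'
    rw [map_inv₀, M.t_map, Place.ord_inv] at h
    omega
  · omega

variable (N)

theorem ord_jF_sub_le (a : Kbar) (τ : UpperHalfPlane) (hτ : iotaC a = jAn τ) (hpos : 0 < jOrd τ)
    (v : Place Kbar (FN N)) (hv : 0 < v.ord (Fermat.Agent.S24.jF N - algebraMap Kbar (FN N) a)) :
    v.ord (Fermat.Agent.S24.jF N - algebraMap Kbar (FN N) a) ≤ jOrd τ :=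
  ord_jF_sub_le_of_closure (modClosure N) a τ hτ hpos v hv

/-- **`e(P | j) ≤ 3` over `j = 0`.** -/
theorem ord_jF_le_three (v : Place Kbar (FN N)) : v.ord (Fermat.Agent.S24.jF N) ≤ 3 := by
  by_cases hv : 0 < v.ord (Fermat.Agent.S24.jF N)
  · have h := ord_jF_sub_le N 0 UpperHalfPlane.ρ (by rw [map_zero, jAn_rho])
      (by rw [jOrd_rho]; norm_num) v (by rw [map_zero, sub_zero]; exact hv)
    rw [map_zero, sub_zero, jOrd_rho] at h
    exact_mod_cast h
  · omega

/-- **`e(P | j) ≤ 2` over `j = 1728`.** -/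
theorem ord_jF_sub_1728_le_two (v : Place Kbar (FN N)) :
    v.ord (Fermat.Agent.S24.jF N - algebraMap Kbar (FN N) 1728) ≤ 2 := by
  by_cases hv : 0 < v.ord (Fermat.Agent.S24.jF N - algebraMap Kbar (FN N) 1728)
  · have h := ord_jF_sub_le N 1728 UpperHalfPlane.I (by rw [map_ofNat, jAn_I])
      (by rw [jOrd_I]; norm_num) v hv
    rw [jOrd_I] at h
    exact_mod_cast h
  · omega

/-- **`e(P | j) = 1` over `j = a`, `a ≠ 0, 1728`.** -/
theorem ord_jF_sub_le_one (a : Kbar) (h0 : a ≠ 0) (h1728 : a ≠ 1728) (v : Place Kbar (FN N)) :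
    v.ord (Fermat.Agent.S24.jF N - algebraMap Kbar (FN N) a) ≤ 1 := by
  by_cases hv : 0 < v.ord (Fermat.Agent.S24.jF N - algebraMap Kbar (FN N) a)
  · obtain ⟨τ, hτ⟩ := jAn_surjective (iotaC a)
    have h0' : jAn τ ≠ 0 := by
      rw [hτ]
      exact (map_ne_zero iotaC).mpr h0
    have h1' : jAn τ ≠ 1728 := by
      rw [hτ]
      intro h
      apply h1728
      apply iotaC.injective
      rw [h, map_ofNat]
    have hj : jOrd τ = 1 := jOrd_eq_one τ h0' h1'
    have h := ord_jF_sub_le N a τ hτ.symm (by rw [hj]; norm_num) v hv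
    rw [hj] at h
    exact_mod_cast h
  · omega

theorem ord_jF_sub_eq_one (a : Kbar) (h0 : a ≠ 0) (h1728 : a ≠ 1728) (v : Place Kbar (FN N))
    (hv : 0 < v.ord (Fermat.Agent.S24.jF N - algebraMap Kbar (FN N) a)) :
    v.ord (Fermat.Agent.S24.jF N - algebraMap Kbar (FN N) a) = 1 := by
  have := ord_jF_sub_le_one N a h0 h1728 v
  omega

/-- **Pole order of `j` at most `N`.** -/
theorem neg_le_ord_jF (v : Place Kbar (FN N)) : -(N : ℤ) ≤ v.ord (Fermat.Agent.S24.jF N) :=
  neg_le_ord_jF_of_closure (modClosure N) v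

/-! ### The same statements for `H73.jF` -/

theorem ord_jF_le_three' (v : Place Kbar (FN N)) :
    v.ord (Fermat.Agent.RED.H73.jF (L := Kbar) N) ≤ 3 := by
  rw [← jF_eq]
  exact ord_jF_le_three N v

theorem ord_jF_sub_1728_le_two' (v : Place Kbar (FN N)) :
    v.ord (Fermat.Agent.RED.H73.jF (L := Kbar) N - algebraMap Kbar (FN N) 1728) ≤ 2 := by
  rw [← jF_eq]
  exact ord_jF_sub_1728_le_two N v

theorem ord_jF_sub_le_one' (a : Kbar) (h0 : a ≠ 0) (h1728 : a ≠ 1728) (v : Place Kbar (FN N)) :
    v.ord (Fermat.Agent.RED.H73.jF (L := Kbar) N - algebraMap Kbar (FN N) a) ≤ 1 := by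
  rw [← jF_eq]
  exact ord_jF_sub_le_one N a h0 h1728 v

theorem neg_le_ord_jF' (v : Place Kbar (FN N)) :
    -(N : ℤ) ≤ v.ord (Fermat.Agent.RED.H73.jF (L := Kbar) N) := by
  rw [← jF_eq]
  exact neg_le_ord_jF N v

end Modular

end Fermat.Agent.RED.H76

end
end
-- ==== END Fermat.Agent.RED.H76_IGOrd

-- ==== BEGIN Fermat.Agent.RED.H94_DiscrExact
section

/-!
# RH-R (5), helper94: the order of the discriminant at `x = a` is exactly `n - r_a`

`stmt_discrExact : H76.Stmt_discrExact`, from
* `H34.pow_dvd_discr_ptsOver` (Dedekind's lower bound),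
* `H34.not_pow_dvd_discr` (tame upper bound, `H82.h82_tameDiscr`),
* `H76.card_ptsOver` (maximal ideals over `x = a` ↔ places with `ord_v (x - a) > 0`).
-/

set_option autoImplicit false
set_option linter.style.haveILetI false
set_option synthInstance.maxHeartbeats 400000
set_option maxHeartbeats 1000000

noncomputable section

open AlgebraicCurve IsDedekindDomain IntermediateField Polynomial
open scoped IntermediateField.algebraAdjoinAdjoin

namespace Fermat.Agent.RED.H94

open Fermat.Agent.RED.H34 Fermat.Agent.RED.H76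

/-- **DISC-EXACT**. -/
theorem stmt_discrExact : H76.Stmt_discrExact := by
  intro K F _ _ _ _ _ x hx hfd n c p hp a
  haveI := hfd
  haveI hcz : CharZero ↥K⟮x⟯ := charZero_of_injective_algebraMap (algebraMap K ↥K⟮x⟯).injective
  haveI hsep : Algebra.IsSeparable ↥K⟮x⟯ F := inferInstance
  have hlow := H34.pow_dvd_discr_ptsOver hx c a
  have hup := H34.not_pow_dvd_discr hx c a
  have hle := H34.ncard_ptsOver_le hx c a
  have hcard := H76.card_ptsOver x hx a
  have hpe : H34.polyEquiv hx p = Algebra.discr ↥(Algebra.adjoin K {x}) c := by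
    apply Subtype.ext
    rw [H34.coe_polyEquiv]
    exact hp
  have hd0 : Algebra.discr ↥(Algebra.adjoin K {x}) c ≠ 0 :=
    H82.h82_discr_ne_zero ↥(Algebra.adjoin K {x}) ↥K⟮x⟯ F (Fin n) c
  have hp0 : p ≠ 0 := by
    rintro rfl
    rw [map_zero] at hpe
    exact hd0 hpe.symm
  rw [← hpe, H34.pow_dvd_polyEquiv_iff] at hlow hup
  have h1 : n - (ptsOver x a).ncard ≤ p.rootMultiplicity a :=
    (Polynomial.le_rootMultiplicity_iff hp0).mpr hlow
  have h2 : ¬ (n - (ptsOver x a).ncard + 1 ≤ p.rootMultiplicity a) := fun h =>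
    hup ((Polynomial.le_rootMultiplicity_iff hp0).mp h)
  rw [← hcard, Nat.card_coe_set_eq]
  omega

end Fermat.Agent.RED.H94

end
end
-- ==== END Fermat.Agent.RED.H94_DiscrExact

-- ==== BEGIN Fermat.Agent.S15.H22_CuspEx
section

/-!
# S15 package CUSP-ex (helper22): the two cusps of `X₀(p)` exist

`stmt_cuspExists p : Stmt_cuspExists p`, for every `p ≠ 0`, with the explicit places
`RED.KD.H22.cuspInf p` (the `q`-order) and `RED.KD.H22.cuspZero p` (order of the expansion at the
cusp `0`).
-/

set_option autoImplicit false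

noncomputable section

open HahnSeries ModularCurve AlgebraicCurve

namespace Fermat.Agent.S15.H22

open Fermat.Agent.S24 Fermat.Agent.RED.KD.H22

/-- The order of `x(q^n)`. -/
theorem order_qExpand {K : Type*} [Field K] (n : ℕ) [NeZero n] (x : LaurentSeries K)
    (hx : x ≠ 0) : (qExpand K n x).order = (n : ℤ) * x.order := by
  have hn : (0 : ℤ) < n := by exact_mod_cast Nat.pos_of_ne_zero (NeZero.ne n)
  have hc : x.coeff x.order ≠ 0 := fun h => hx (HahnSeries.coeff_order_eq_zero.mp h)
  have hne : qExpand K n x ≠ 0 := fun h0 => hx (qExpand_injective n (by rw [h0, map_zero]))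
  apply le_antisymm
  · apply HahnSeries.order_le_of_coeff_ne_zero
    rw [qExpand_coeff_mul]
    exact hc
  · by_contra hcon
    rw [not_le] at hcon
    apply hne
    apply HahnSeries.coeff_order_eq_zero.mp
    set m := (qExpand K n x).order with hm
    by_cases hdvd : (n : ℤ) ∣ m
    · obtain ⟨k, hk⟩ := hdvd
      rw [hk, qExpand_coeff_mul]
      apply HahnSeries.coeff_eq_zero_of_lt_order
      by_contra hk1
      rw [not_lt] at hk1
      have : (n : ℤ) * x.order ≤ (n : ℤ) * k := mul_le_mul_of_nonneg_left hk1 hn.le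
      omega
    · exact qExpand_coeff_of_not_dvd _ _ hdvd

theorem jBar_eq (p : ℕ) [NeZero p] : Fermat.Agent.S15.jBar p = jF p := rfl

theorem jBarN_eq (p : ℕ) [NeZero p] : Fermat.Agent.S15.jBarN p = jdF p p dvd_rfl := rfl

theorem jdF_coe (p : ℕ) [NeZero p] (d : ℕ) [NeZero d] (hd : d ∣ p) :
    ((jdF p d hd : FN p) : LaurentSeries Kbar) = qExpand Kbar d Fermat.Agent.S24.jBar := by
  show coeffEmb Kbar (qExpand ℚ d jq) = _
  rw [coeffEmb, coeffMap_qExpand]
  rfl

theorem place_deg_eq_one (p : ℕ) [NeZero p] (P : Place Kbar (FN p)) : P.deg = 1 := by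
  have : FiniteDimensional (IntermediateField.adjoin Kbar {jF p}) (FN p) :=
    asm_finiteDimensional (modClosure p)
  exact ff_deg_eq_one (jF p) (asm_transcendental_jF (modClosure p)) P

theorem isCuspPair (p : ℕ) [NeZero p] : IsCuspPair p (cuspInf p) (cuspZero p) where
  ord_j_inf := by rw [jBar_eq]; exact ord_cuspInf_jF p
  ord_jN_inf := by
    rw [jBarN_eq, ord_cuspInf p _ (jdF_self_ne_zero p), jdF_coe,
      order_qExpand p _ jBar_ne_zero, jBar_order]
    ring
  ord_j_zero := by rw [jBar_eq]; exact ord_cuspZero_jF p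
  ord_jN_zero := by
    rw [jBarN_eq, ord_cuspZero p _ (jdF_self_ne_zero p), iota0_jdF_self, jBar_order]
  deg_inf := place_deg_eq_one p _
  deg_zero := place_deg_eq_one p _

/-- **CUSP-ex**: the two cusps of `X₀(p)` exist. -/
theorem stmt_cuspExists (p : ℕ) [NeZero p] : Stmt_cuspExists p :=
  ⟨cuspInf p, cuspZero p, isCuspPair p⟩

end Fermat.Agent.S15.H22

end
end
-- ==== END Fermat.Agent.S15.H22_CuspEx

-- ==== BEGIN Fermat.Agent.S18.Final
section
attribute [local instance 10000] SubalgebraClass.toAlgebra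
attribute [local instance 10000] HahnSeries.powerSeriesAlgebra

/-!
# S18, final wiring (cluster G, part RED; helper17)

`s18_of_DR2_KD`: the frozen statement of S18 from the two packages

* `Stmt_DR2` : the Deuring reduction datum at the tame levels (`RED/Core2.lean`);
* `Stmt_KD`  : Kummer descent from level `M` to level `N ∣ M`, `M ∣ 36 N` (`RED/Core.lean`).

Everything else is proved: `TIcoreFor` at the tame levels is `H17.ticoreFor_of_hasDR` (route C),
`ticoreFor_descend` goes down from `M = N, 2N, 3N` to `N`, `S18.s18_of_TIcore` is the wiring of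
`S18/WiringCore.lean`, and the reduced field is a function field by helper73's GA.
-/

set_option autoImplicit false
set_option linter.style.haveILetI false
set_option synthInstance.maxHeartbeats 400000
set_option maxHeartbeats 200000

noncomputable section

open HahnSeries IntermediateField AlgebraicCurve ModularCurve
open Fermat.Agent.S28.H73 Fermat.Agent.RED.H73 Fermat.Agent.RED

namespace Fermat.Agent.S18

theorem modularFunctionFieldFull_mono {N M : ℕ} (h : N ∣ M) :
    modularFunctionFieldFull N ≤ modularFunctionFieldFull M := by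
  apply IntermediateField.adjoin.mono
  rintro x ⟨d, hd0, hd, hx⟩
  exact ⟨d, hd0, hd.trans h, hx⟩

theorem modularFunctionFieldBar_mono {N M : ℕ} (h : N ∣ M) :
    modularFunctionFieldBar N ≤ modularFunctionFieldBar M := by
  apply IntermediateField.adjoin.mono
  rintro _ ⟨x, hx, rfl⟩
  exact ⟨x, modularFunctionFieldFull_mono h hx, rfl⟩

/-- The residue characteristic. -/
theorem natCast_kV_eq_zero {A : ValuationSubring (AlgebraicClosure ℚ)} {ℓ : ℕ}
    (hA : A.LiesOverPrime ℓ) : ((ℓ : ℕ) : kV A) = 0 := by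
  obtain ⟨ha, hmem⟩ := ValuationSubring.mem_nonunits_iff_exists_mem_maximalIdeal.mp hA
  have h1 : IsLocalRing.residue ↥A ⟨(ℓ : AlgebraicClosure ℚ), ha⟩ = 0 :=
    (IsLocalRing.residue_eq_zero_iff _).mpr hmem
  have h2 : (⟨(ℓ : AlgebraicClosure ℚ), ha⟩ : ↥A) = ((ℓ : ℕ) : ↥A) := Subtype.ext (by simp)
  rw [h2, map_natCast] at h1
  exact h1

/-- **Descent of `TIcore`**, abstract form: `F ⊆ F'` function fields in `C((q))`, `F'` integral
over `F`; if `m`-th roots in `F'` of elements of `F` with divisor divisible by `m` lie in `F`,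
then `TIcore` for `F'` implies `TIcore` for `F`. -/
theorem ticoreFor_descend_abs {C : Type} [Field C] (O : ValuationSubring C)
    {F F' : IntermediateField C (LaurentSeries C)} (hle : F ≤ F') (h : HasScale O F)
    (h' : HasScale O F') (hint : (IntermediateField.inclusion hle).toRingHom.IsIntegral)
    {ℓ : ℕ} (hTI' : TIcoreFor O h' ℓ)
    (hKD : ∀ m : ℕ, 0 < m → ∀ f : ↥F, (∀ P : Place C ↥F, (m : ℤ) ∣ P.ord f) →
      (∃ t : LaurentSeries C, t ∈ F' ∧ t ^ m = (f : LaurentSeries C)) → ∃ t : ↥F, t ^ m = f) :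
    TIcoreFor O h ℓ := by
  intro m hm f hf1 hdiv
  have hm0 : 0 < m := Nat.pos_of_ne_zero (by rintro rfl; exact hm (dvd_zero ℓ))
  set φ : ↥F →ₐ[C] ↥F' := IntermediateField.inclusion hle with hφdef
  set f' : ↥F' := φ (f : ↥F) with hf'
  have hcoe : ((f' : ↥F') : LaurentSeries C) = ((f : ↥F) : LaurentSeries C) :=
    IntermediateField.coe_inclusion hle (f : ↥F)
  have hfV : ((f : ↥F) : LaurentSeries C) ∈ gaussRingV O := (mem_gaussValSub_iff O h _).mp f.2
  have hf'V : f' ∈ gaussValSub O F' h' := by
    rw [mem_gaussValSub_iff, hcoe]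
    exact hfV
  have hres : gaussResF' O h' ⟨f', hf'V⟩ = 1 := by
    apply Subtype.ext
    have e1 : gaussResF O h f = 1 := congrArg Subtype.val hf1
    rw [gaussResF_apply] at e1
    show gaussResF O h' ⟨f', hf'V⟩ = 1
    rw [gaussResF_apply, ← e1]
    congr 1
  have hdiv' : ∀ P' : Place C ↥F', (m : ℤ) ∣ P'.ord f' := by
    intro P'
    letI := algebraAlong φ
    haveI := isScalarTower_along φ
    haveI := isIntegral_along φ hint
    have h1 := P'.ord_restrict (F := ↥F) (f : ↥F)
    have h2 : f' = algebraMap ↥F ↥F' (f : ↥F) := rfl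
    rw [h2, h1]
    exact Dvd.dvd.mul_left (hdiv _) _
  obtain ⟨t, ht⟩ := hTI' m hm ⟨f', hf'V⟩ hres hdiv'
  refine hKD m hm0 (f : ↥F) hdiv ⟨(t : LaurentSeries C), t.2, ?_⟩
  have := congrArg Subtype.val ht
  rw [← hcoe]
  exact this

/-- **Descent of `TIcore`** from level `M` to level `N ∣ M`, `M ∣ 36 N`, by Kummer descent. -/
theorem ticoreFor_descend (hKD : Stmt_KD) (A : ValuationSubring (AlgebraicClosure ℚ))
    {N M : ℕ} [NeZero N] [NeZero M] (hNM : N ∣ M) (hM36 : M ∣ 36 * N) {ℓ : ℕ}
    (hM : TIcoreFor A (hasScale_laurentBaseChange A M) ℓ) :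
    TIcoreFor A (hasScale_laurentBaseChange A N) ℓ :=
  ticoreFor_descend_abs A (modularFunctionFieldBar_mono hNM) (hasScale_laurentBaseChange A N)
    (hasScale_laurentBaseChange A M)
    (H51.stmt_FFB_finite _ _ _ (H95.stmt_HKA_isFF N) (H95.stmt_HKA_isFF M) _).1 hM
    (fun m hm0 f hdiv ht => hKD N M m hNM hM36 hm0 f hdiv ht)

/-- **`TIcore` at every level** from the Deuring datum at the tame levels and Kummer descent. -/
theorem stmt_TIcore_of (hDR2 : Stmt_DR2) (hKD : Stmt_KD) : Stmt_TIcore := by
  intro N ℓ _ hℓ hℓN A hA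
  haveI : IsAlgClosed (kV A) := isAlgClosed_kV A
  have hℓ0 := natCast_kV_eq_zero hA
  -- `TIcore` at a tame level `M`
  have tame : ∀ (M : ℕ) [NeZero M], ¬ ℓ ∣ M → (5 ≤ ℓ ∨ (ℓ = 3 ∧ 2 ∣ M) ∨ (ℓ = 2 ∧ 3 ∣ M)) →
      TIcoreFor A (hasScale_laurentBaseChange A M) ℓ := fun M _ hℓM hcase =>
    H17.ticoreFor_of_hasDR A (hasScale_laurentBaseChange A M) hℓ hℓ0 (H95.stmt_HKA_isFF M)
      (hDR2 M ℓ hℓ hℓM hcase A hA)
  by_cases h5 : 5 ≤ ℓ
  · exact tame N hℓN (Or.inl h5)
  have hℓ2 : 2 ≤ ℓ := hℓ.two_le
  have h23 : ℓ = 2 ∨ ℓ = 3 ∨ ℓ = 4 := by omega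
  have hN0 : N ≠ 0 := NeZero.ne N
  rcases h23 with rfl | rfl | rfl
  · -- `ℓ = 2`, `M = 3 N`
    haveI : NeZero (3 * N) := ⟨Nat.mul_ne_zero (by norm_num) hN0⟩
    have h1 : ¬ 2 ∣ 3 * N := by
      intro h
      rcases (Nat.Prime.dvd_mul Nat.prime_two).mp h with h | h
      · omega
      · exact hℓN h
    exact ticoreFor_descend hKD A (Dvd.intro_left 3 rfl) (Nat.mul_dvd_mul_right (by norm_num) N)
      (tame (3 * N) h1 (Or.inr (Or.inr ⟨rfl, Dvd.intro N rfl⟩)))
  · -- `ℓ = 3`, `M = 2 N`
    haveI : NeZero (2 * N) := ⟨Nat.mul_ne_zero (by norm_num) hN0⟩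
    have h1 : ¬ 3 ∣ 2 * N := by
      intro h
      rcases (Nat.Prime.dvd_mul Nat.prime_three).mp h with h | h
      · omega
      · exact hℓN h
    exact ticoreFor_descend hKD A (Dvd.intro_left 2 rfl) (Nat.mul_dvd_mul_right (by norm_num) N)
      (tame (2 * N) h1 (Or.inr (Or.inl ⟨rfl, Dvd.intro N rfl⟩)))
  · exact absurd hℓ (by decide)

/-- A function without zeros and poles on the reduced field is constant. -/
theorem const_of_ord_eq_zero (N : ℕ) [NeZero N] {ℓ : ℕ} (hℓ : ℓ.Prime) (hℓN : ¬ ℓ ∣ N)
    (A : ValuationSubring (AlgebraicClosure ℚ)) (hA : A.LiesOverPrime ℓ)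
    (g : ↥(modularFunctionFieldFullC (kV A) N))
    (hg : ∀ Q : Place (kV A) ↥(modularFunctionFieldFullC (kV A) N), Q.ord g = 0) :
    ∃ c : kV A, g = algebraMap (kV A) ↥(modularFunctionFieldFullC (kV A) N) c := by
  haveI : IsAlgClosed (kV A) := isAlgClosed_kV A
  have hFF : IsFF (kV A) ↥(modularFunctionFieldFullC (kV A) N) := by
    have h1 := isFF_redField_bar N ℓ hℓ hℓN A hA
    have h2 := stmt_GA N ℓ hℓ hℓN A hA
    rw [h2] at h1
    exact h1
  exact (H17.ffHyp_of_isFF _ _ hFF).const_of_regular fun Q => le_of_eq (hg Q).symm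

/-- **S18** from the packages DR2 and KD. -/
theorem s18_of_DR2_KD (hDR2 : Stmt_DR2) (hKD : Stmt_KD) (N : ℕ) [NeZero N] {ℓ : ℕ}
    [Fact ℓ.Prime] (hℓN : ¬ ℓ ∣ N) (A : ValuationSubring (AlgebraicClosure ℚ))
    (hA : A.LiesOverPrime ℓ) (h : ModularCurve.ReductionInputsModL A N) (m : ℕ) (hm : ¬ ℓ ∣ m)
    (z : ModularCurve.JZero N) (hmz : m • z = 0) (hz : ModularCurve.reductionModL A N z = 0) :
    z = 0 :=
  s18_of_TIcore N hℓN A hA (stmt_TIcore_of hDR2 hKD N ℓ Fact.out hℓN A hA)
    (fun g _ hg => const_of_ord_eq_zero N Fact.out hℓN A hA g hg) h m hm z hmz hz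

end Fermat.Agent.S18

end
end
-- ==== END Fermat.Agent.S18.Final
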