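-- GENERATED (merged mirror, NOTES/tools/trim/merge3_helper67.py): 7 modules of the originals, bodies verbatim.
import Mathlib
import Fermat.Agent.Zm.S35_L14_000
import Fermat.Agent.Zm.S35_L14_001
import Fermat.Agent.Zm.S35_L12_001
import Fermat.Agent.Zm.S35_L10_005
import Fermat.Agent.Zm.S35_L14_002
import Fermat.Agent.Zm.S35_L11_001
import Fermat.Agent.Zm.S35_L08_001
import Fermat.Agent.Zm.S35_L06_002
import Fermat.Agent.Zm.S35_L03_004
import Fermat.Agent.Zm.S35_L09_006
import Fermat.Agent.Zm.S35_L08_003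
import Fermat.Agent.Zm.S35_L05_002
import Fermat.Agent.Zm.S35_L10_003
import Fermat.Agent.Zm.S35_L01_002
import Fermat.Agent.Zm.S35_L07_002
import Fermat.Agent.Zm.S35_L07_003

-- ==== BEGIN Fermat.Agent.GTor.H2_HKFinal
section

/-!
# G-TOR, package HK-alg (helper2): final form

* `stmt_NormSwap N`, `stmt_NormSeries N` : unconditional (helper95's `norm_alpha_beta_eq`, ES-2).
* `hk_of_an : Stmt_HKan N n → Stmt_HK N n` : **HK** from the analytic half alone
  (`HeckeInputsAlong` is helper51's `stmt_HKA`).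
-/

set_option autoImplicit false
set_option linter.style.haveILetI false
set_option linter.unusedSectionVars false
set_option linter.dupNamespace false

noncomputable section

namespace Fermat.Agent.GTor.H2

open AlgebraicCurve ModularCurve

/-- `Norm_α (β f) = Norm_β (α f)` (helper95). -/
theorem stmt_NormSwap (N : ℕ) [NeZero N] : Stmt_NormSwap N := by
  intro ℓ hℓ hℓN f
  haveI : NeZero ℓ := ⟨hℓ.ne_zero⟩
  exact Fermat.Agent.RED.H95.norm_alpha_beta_eq hℓ hℓN f

/-- The `q`-expansion of the Kummer function `Norm_α (β f)` of `T_ℓ x` is the norm series. -/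
theorem stmt_NormSeries (N : ℕ) [NeZero N] : Stmt_NormSeries N :=
  normSeries_of_swap N (stmt_NormSwap N)

/-- **HK** from its analytic half. -/
theorem hk_of_an (N n : ℕ) [NeZero N] (han : Stmt_HKan N n) : Stmt_HK N n :=
  hk_of N n (fun ℓ _ => Fermat.Agent.RED.H51.stmt_HKA N ℓ) han (stmt_NormSeries N)

end Fermat.Agent.GTor.H2

end
end
-- ==== END Fermat.Agent.GTor.H2_HKFinal

-- ==== BEGIN Fermat.Agent.RED.H36_RM
section

/-!
# G-RED, FIN (helper36): `Stmt_RM` and the final wiring of S37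

* `relfinrank_level_eq` : `[F_M : F_N] = [F~_M : F~_N]` for `N ∣ M`, `ℓ ∤ M` (helper73's GA).
* `stmt_RM_of` : `Stmt_DR2 → Stmt_NDESC → Stmt_RM` (tame levels: LIFT + MOVE of helper17;
  `ℓ = 2, 3`: norm descent from `3 N`, `2 N`).
* `allRed_of` : `Stmt_DR2 → Stmt_NDESC → Stmt_KD → Stmt_EQ → Stmt_ES3 → ∀ N p ℓ A, RedPackage`.
* `s37_of` : the frozen statement of S37 from the same five packages.
-/

set_option autoImplicit false
set_option linter.style.haveILetI false
set_option synthInstance.maxHeartbeats 400000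
set_option maxHeartbeats 1000000

noncomputable section

open AlgebraicCurve ModularCurve Fermat.Agent.S28.H73 Fermat.Agent.RED.H73

namespace Fermat.Agent.RED.H36

/-- `F_{N,K} ≤ F_{M,K}` for `N ∣ M`. -/
theorem fullC_mono (K : Type) [Field K] {N M : ℕ} (h : N ∣ M) :
    modularFunctionFieldFullC K N ≤ modularFunctionFieldFullC K M := by
  apply IntermediateField.adjoin.mono
  rintro x ⟨d, hd0, hd, hx⟩
  exact ⟨d, hd0, hd.trans h, hx⟩

theorem adjoin_jq_le_fullC (K : Type) [Field K] (N : ℕ) :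
    IntermediateField.adjoin K ({jqModC K} : Set (LaurentSeries K))
      ≤ modularFunctionFieldFullC K N := by
  rw [IntermediateField.adjoin_le_iff]
  rintro x hx
  rw [Set.mem_singleton_iff] at hx
  subst hx
  exact jqModC_mem_full K N

theorem dedekindPsi_ne_zero (N : ℕ) [NeZero N] : dedekindPsi N ≠ 0 := by
  rw [dedekindPsi]
  have h1 : (1 : ℕ) ∈ (N.divisors).filter (fun d => Squarefree d) := by
    rw [Finset.mem_filter]
    exact ⟨Nat.one_mem_divisors.mpr (NeZero.ne N), squarefree_one⟩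
  have h2 : N / 1 ≤ ∑ d ∈ (N.divisors).filter (fun d => Squarefree d), N / d :=
    Finset.single_le_sum (f := fun d => N / d) (fun _ _ => Nat.zero_le _) h1
  have h3 : 0 < N := Nat.pos_of_ne_zero (NeZero.ne N)
  rw [Nat.div_one] at h2
  omega

/-- `[F_M : F_N] = [F~_M : F~_N]`. -/
theorem relfinrank_level_eq {N M ℓ : ℕ} [NeZero N] [NeZero M] (hNM : N ∣ M) (hℓ : ℓ.Prime)
    (hℓM : ¬ ℓ ∣ M) (A : ValuationSubring (AlgebraicClosure ℚ)) (hA : A.LiesOverPrime ℓ) :
    (modularFunctionFieldBar N).relfinrank (modularFunctionFieldBar M)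
      = (redField A (modularFunctionFieldBar N) (hasScale_laurentBaseChange A N)).relfinrank
          (redField A (modularFunctionFieldBar M) (hasScale_laurentBaseChange A M)) := by
  have hℓN : ¬ ℓ ∣ N := fun hd => hℓM (hd.trans hNM)
  have e1 : redField A (modularFunctionFieldBar N) (hasScale_laurentBaseChange A N)
      = modularFunctionFieldFullC (kV A) N := stmt_GA N ℓ hℓ hℓN A hA
  have e2 : redField A (modularFunctionFieldBar M) (hasScale_laurentBaseChange A M)
      = modularFunctionFieldFullC (kV A) M := stmt_GA M ℓ hℓ hℓM A hA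
  have e3 : modularFunctionFieldBar N = modularFunctionFieldFullC (AlgebraicClosure ℚ) N :=
    laurentBaseChange_full_eq N
  have e4 : modularFunctionFieldBar M = modularFunctionFieldFullC (AlgebraicClosure ℚ) M :=
    laurentBaseChange_full_eq M
  rw [e1, e2, e3, e4]
  have d1 := (stmt_GA_deg N ℓ hℓ hℓN A hA).1
  have d2 := (stmt_GA_deg M ℓ hℓ hℓM A hA).1
  have c1 := relfinrank_fullC_bar N
  have c2 := relfinrank_fullC_bar M
  have t1 := IntermediateField.relfinrank_mul_relfinrank
    (adjoin_jq_le_fullC (AlgebraicClosure ℚ) N) (fullC_mono (AlgebraicClosure ℚ) hNM)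
  have t2 := IntermediateField.relfinrank_mul_relfinrank
    (adjoin_jq_le_fullC (kV A) N) (fullC_mono (kV A) hNM)
  rw [d1, c1] at t2
  rw [d2, c2] at t2
  rw [c1, c2] at t1
  have h0 : 0 < dedekindPsi N := Nat.pos_of_ne_zero (dedekindPsi_ne_zero N)
  exact Nat.eq_of_mul_eq_mul_left h0 (t1.trans t2.symm)

/-- **Package RM** from the Deuring datum at the tame levels and norm descent. -/
theorem stmt_RM_of (hDR2 : Stmt_DR2) (hND : Stmt_NDESC) : Stmt_RM := by
  intro N ℓ _ hℓ hℓN A hA
  haveI : IsAlgClosed (kV A) := isAlgClosed_kV A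
  -- the tame levels
  have tame : ∀ (M : ℕ) [NeZero M], ¬ ℓ ∣ M → (5 ≤ ℓ ∨ (ℓ = 3 ∧ 2 ∣ M) ∨ (ℓ = 2 ∧ 3 ∣ M)) →
      HasRM A (hasScale_laurentBaseChange A M) := fun M _ hℓM hcase => by
    obtain ⟨hFt, r, hr, hG⟩ := hDR2 M ℓ hℓ hℓM hcase A hA
    have hL := H17.stmt_LIFT (AlgebraicClosure ℚ) A (modularFunctionFieldBar M)
      (hasScale_laurentBaseChange A M) (H42.fracScalable_laurentBaseChange A M)
      (H95.stmt_HKA_isFF M) hFt r hr hG
    exact ⟨r, hr, H17.stmt_MOVE (AlgebraicClosure ℚ) A (modularFunctionFieldBar M)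
      (hasScale_laurentBaseChange A M) (H95.stmt_HKA_isFF M) hFt r hr hL⟩
  -- descent from a tame level `M`, `N ∣ M`
  have desc : ∀ (M : ℕ) [NeZero M], N ∣ M → ¬ ℓ ∣ M →
      (5 ≤ ℓ ∨ (ℓ = 3 ∧ 2 ∣ M) ∨ (ℓ = 2 ∧ 3 ∣ M)) →
      HasRM A (hasScale_laurentBaseChange A N) := fun M _ hNM hℓM hcase =>
    hND (AlgebraicClosure ℚ) A (modularFunctionFieldBar N) (modularFunctionFieldBar M)
      (Fermat.Agent.S18.modularFunctionFieldBar_mono hNM) (hasScale_laurentBaseChange A N)
      (hasScale_laurentBaseChange A M) (H42.fracScalable_laurentBaseChange A M)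
      (H95.stmt_HKA_isFF N) (H95.stmt_HKA_isFF M) (isFF_redField_bar N ℓ hℓ hℓN A hA)
      (isFF_redField_bar M ℓ hℓ hℓM A hA) (relfinrank_level_eq hNM hℓ hℓM A hA)
      (hDR2 M ℓ hℓ hℓM hcase A hA)
  by_cases h5 : 5 ≤ ℓ
  · exact tame N hℓN (Or.inl h5)
  have hℓ2 : 2 ≤ ℓ := hℓ.two_le
  have h23 : ℓ = 2 ∨ ℓ = 3 ∨ ℓ = 4 := by omega
  have hN0 : N ≠ 0 := NeZero.ne N
  rcases h23 with rfl | rfl | rfl
  · haveI : NeZero (3 * N) := ⟨Nat.mul_ne_zero (by norm_num) hN0⟩
    have h1 : ¬ 2 ∣ 3 * N := by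
      intro h
      rcases (Nat.Prime.dvd_mul Nat.prime_two).mp h with h | h
      · omega
      · exact hℓN h
    exact desc (3 * N) (Dvd.intro_left 3 rfl) h1 (Or.inr (Or.inr ⟨rfl, Dvd.intro N rfl⟩))
  · haveI : NeZero (2 * N) := ⟨Nat.mul_ne_zero (by norm_num) hN0⟩
    have h1 : ¬ 3 ∣ 2 * N := by
      intro h
      rcases (Nat.Prime.dvd_mul Nat.prime_three).mp h with h | h
      · omega
      · exact hℓN h
    exact desc (2 * N) (Dvd.intro_left 2 rfl) h1 (Or.inr (Or.inl ⟨rfl, Dvd.intro N rfl⟩))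
  · exact absurd hℓ (by decide)

/-- All reduction packages, from the five open packages. -/
theorem allRed_of (hDR2 : Stmt_DR2) (hND : Stmt_NDESC) (hKD : Stmt_KD) (hEQ : Stmt_EQ)
    (hES : Stmt_ES3) (N p ℓ : ℕ) [NeZero N] [NeZero ℓ] (hℓ : ℓ.Prime) (hNp : ¬ ℓ ∣ N * p)
    (A : ValuationSubring (AlgebraicClosure ℚ)) (hA : A.LiesOverPrime ℓ) :
    Fermat.Agent.S37.RedPackage N p ℓ A :=
  redPackage_of (stmt_RM_of hDR2 hND) hEQ hES (Fermat.Agent.S18.stmt_TIcore_of hDR2 hKD)
    H51.stmt_HKA N p ℓ hℓ hNp A hA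

/-- **S37** (frozen shape) from the five open packages. -/
theorem s37_of (hDR2 : Stmt_DR2) (hND : Stmt_NDESC) (hKD : Stmt_KD) (hEQ : Stmt_EQ)
    (hES : Stmt_ES3) (N p : ℕ) [NeZero N] (hcomm : ModularCurve.HeckeOperatorsCommuteBar N) :
    letI := ModularCurve.heckeModuleBar N
    ∀ (_ : SMulCommClass (AlgebraicClosure ℚ ≃ₐ[ℚ] AlgebraicClosure ℚ) ModularCurve.HeckeAlg
      (ModularCurve.JZero N)),
      ModularCurve.SpecializationExists (K := ℚ) (L := AlgebraicClosure ℚ) N p
        (ModularCurve.JZero N) :=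
  Fermat.Agent.S37.specializationExists_JZero_of_red N p hcomm
    (fun ℓ hℓ hNp A hA =>
      haveI : NeZero ℓ := ⟨hℓ.ne_zero⟩
      allRed_of hDR2 hND hKD hEQ hES N p ℓ hℓ hNp A hA)

end Fermat.Agent.RED.H36

end
end
-- ==== END Fermat.Agent.RED.H36_RM

-- ==== BEGIN Fermat.Agent.RED.H51_NDFinal
section
attribute [local instance 10000] SubalgebraClass.toAlgebra
attribute [local instance 10000] HahnSeries.powerSeriesAlgebra

/-!
# G-RED package NDESC (helper51), part 4: norm descent for the Gauss valuation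

* `ndesc_compat` : for `F ≤ F'` with `[F' : F] = [F~' : F~]` and `r'` on `F'` with the
  conservation law and the moving lemma, there is `r` on `F` with both, and
  `r (P' | F) = (r' P') | F~` for all places `P'` of `F'`.
* `stmt_NDESC_of : Stmt_NormRedAbs → Stmt_NDESC`.
-/

set_option autoImplicit false
set_option linter.style.haveILetI false
set_option linter.unusedSectionVars false
set_option synthInstance.maxHeartbeats 400000
set_option maxHeartbeats 1000000

noncomputable section

open AlgebraicCurve IntermediateField ModularCurve Fermat.Agent.S28.H73 Fermat.Agent.RED.H73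

namespace Fermat.Agent.RED.H51

section Gauss

variable {C : Type} [Field C] (O : ValuationSubring C)
variable {F F' : IntermediateField C (LaurentSeries C)} (hle : F ≤ F')
variable (h : HasScale O F) (h' : HasScale O F')

include hle in
/-- The reduced field of a subfield is contained in the reduced field. -/
theorem redField_mono : redField O F h ≤ redField O F' h' := by
  rintro y ⟨x, rfl⟩
  exact ⟨⟨⟨(x : ↥F), hle (x : ↥F).2⟩, x.2⟩, rfl⟩

/-- `[F' : F]` along the inclusion is the relative degree. -/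
theorem finrank_along_inclusion {L E : Type} [Field L] [Field E] [Algebra L E]
    {A B : IntermediateField L E} (hAB : A ≤ B) :
    @Module.finrank ↥A ↥B _ _ (algebraAlong (IntermediateField.inclusion hAB)).toModule
      = A.relfinrank B := by
  rw [relfinrank_eq_finrank_of_le hAB]
  letI := algebraAlong (IntermediateField.inclusion hAB)
  let e : ↥B ≃ₗ[↥A] ↥(extendScalars hAB) :=
    { toFun := fun x => ⟨(x : E), x.2⟩
      invFun := fun y => ⟨(y : E), y.2⟩
      map_add' := fun _ _ => rfl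
      map_smul' := fun c x => by
        apply Subtype.ext
        show ((c • x : ↥B) : E) = (c : E) * (x : E)
        rw [Algebra.smul_def]
        rfl
      left_inv := fun _ => rfl
      right_inv := fun _ => rfl }
  exact e.finrank_eq

/-- **Norm descent for the Gauss valuation**, with the compatibility
`r (P' | F) = (r' P') | F~`. -/
theorem ndesc_compat (hNR : Stmt_NormRedAbs) [IsAlgClosed C] [IsAlgClosed (kV O)]
    (hFF : IsFF C ↥F) (hFF' : IsFF C ↥F')
    (hFFt : IsFF (kV O) ↥(redField O F h)) (hFFt' : IsFF (kV O) ↥(redField O F' h'))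
    (hdeg : F.relfinrank F' = (redField O F h).relfinrank (redField O F' h'))
    (r' : Place C ↥F' → Place (kV O) ↥(redField O F' h'))
    (hred' : IsRed O h' r') (hmove' : HasMove O h' r')
    (hφ : (IntermediateField.inclusion hle).toRingHom.IsIntegral)
    (hφt : (IntermediateField.inclusion (redField_mono O hle h h')).toRingHom.IsIntegral) :
    ∃ r : Place C ↥F → Place (kV O) ↥(redField O F h), IsRed O h r ∧ HasMove O h r ∧
      ∀ P' : Place C ↥F', r (P'.restrictAlong (IntermediateField.inclusion hle) hφ)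
        = (r' P').restrictAlong (IntermediateField.inclusion (redField_mono O hle h h')) hφt := by
  letI := algebraAlong (IntermediateField.inclusion hle)
  haveI := isScalarTower_along (IntermediateField.inclusion hle)
  letI := algebraAlong (IntermediateField.inclusion (redField_mono O hle h h'))
  haveI := isScalarTower_along (IntermediateField.inclusion (redField_mono O hle h h'))
  haveI : Module.Finite ↥F ↥F' :=
    (stmt_FFB_finite C ↥F ↥F' hFF hFF' (IntermediateField.inclusion hle)).2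
  haveI : Module.Finite ↥(redField O F h) ↥(redField O F' h') :=
    (stmt_FFB_finite (kV O) _ _ hFFt hFFt'
      (IntermediateField.inclusion (redField_mono O hle h h'))).2
  haveI : HasPrincipalDivisors C ↥F' := stmt_FFB_principal C ↥F' hFF'
  haveI : HasPrincipalDivisors (kV O) ↥(redField O F' h') := stmt_FFB_principal (kV O) _ hFFt'
  let S : RedPair C ↥F ↥F' ↥(redField O F h) ↥(redField O F' h') :=
    { V := gaussValSub O F h
      V' := gaussValSub O F' h'
      red := gaussResF' O h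
      red' := gaussResF' O h'
      mem_iff := fun a => Iff.rfl
      red_compat := fun a ha => Subtype.ext rfl
      red'_surj := gaussResF'_surjective O h'
      red'_eq_zero := fun a => by
        rw [isUnit_iff_gaussResF_ne_zero O h', not_not]
        constructor
        · intro h0
          exact congrArg Subtype.val h0
        · intro h0
          exact Subtype.ext h0
      scale' := fun f hf => by
        obtain ⟨c, u, hc, hu⟩ := exists_unit_scale O h' f hf
        exact ⟨c, hc, u, hu⟩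
      finrank_eq := by
        rw [finrank_along_inclusion hle, finrank_along_inclusion (redField_mono O hle h h'),
          hdeg] }
  obtain ⟨r, hcompat, hred, hmove⟩ := ndesc_abs S r' hNR hFF hFF' hFFt hFFt' hred' hmove'
  exact ⟨r, hred, hmove, hcompat⟩

end Gauss

/-- **Package NDESC**, from the norm–reduction lemma. -/
theorem stmt_NDESC_of (hNR : Stmt_NormRedAbs) : Fermat.Agent.RED.Stmt_NDESC := by
  intro C _ _ _ O _ F F' hle h h' hfrac hFF hFF' hFFt hFFt' hdeg hDR
  obtain ⟨-, r', hred', hgen'⟩ := hDR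
  have hlift := Fermat.Agent.RED.H17.stmt_LIFT C O F' h' hfrac hFF' hFFt' r' hred' hgen'
  have hmove' := Fermat.Agent.RED.H17.stmt_MOVE C O F' h' hFF' hFFt' r' hred' hlift
  obtain ⟨r, hred, hmove, -⟩ := ndesc_compat O hle h h' hNR hFF hFF' hFFt hFFt' hdeg r' hred'
    hmove' (stmt_FFB_finite C ↥F ↥F' hFF hFF' (IntermediateField.inclusion hle)).1
    (stmt_FFB_finite (kV O) _ _ hFFt hFFt'
      (IntermediateField.inclusion (redField_mono O hle h h'))).1
  exact ⟨r, hred, hmove⟩

end Fermat.Agent.RED.H51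

end
end
-- ==== END Fermat.Agent.RED.H51_NDFinal

-- ==== BEGIN Fermat.Agent.RED.H73_GAHauptField
section

/-!
# G-RED package GA-H (helper73): the hypotheses (H2), (H3) from two identities

Generic field theory: if `P(h) = j · Q(h)` with `P` monic of degree `n`, `deg Q < n`, then
`[K(h) : K(j)] ≤ n`; if moreover `K(j) ≤ F ≤ K(h)` and `[F : K(j)] = n` then `K(h) = F`.

Application (`p` prime, `F = F_p · K = K(j, j(q^p))`, `n = p + 1 = ψ(p)`):
* `haupt_adjoin_eq_fullC` : over any field `K` with `[F_p K : K(j)] = p + 1`;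
* `haupt_H2_bar`          : over `ℚ̄`;
* `haupt_H3_bar`          : over the residue field of a valuation subring of `ℚ̄` with `p` a unit.
-/

set_option autoImplicit false
set_option synthInstance.maxHeartbeats 400000
set_option maxHeartbeats 1000000

open Polynomial ModularCurve Fermat.Agent.S28 Fermat.Agent.S28.H73
open IntermediateField
open scoped IntermediateField.algebraAdjoinAdjoin

noncomputable section

namespace Fermat.Agent.RED.H73

section Generic

variable {K E : Type*} [Field K] [Field E] [Algebra K E]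

/-- From `P(h) = j · Q(h)`: a monic polynomial of degree `deg P` over `K(j)` killing `h`. -/
theorem exists_monic_of_rel {j h : E} (P Q : K[X]) (hP : P.Monic)
    (hQ : Q.natDegree < P.natDegree) (hPQ : aeval h P = j * aeval h Q) :
    ∃ f : (↥(K⟮j⟯))[X], f.Monic ∧ f.natDegree = P.natDegree ∧ aeval h f = 0 := by
  set jj : ↥(K⟮j⟯) := ⟨j, mem_adjoin_simple_self K j⟩ with hjj
  have hPm : (P.map (algebraMap K ↥(K⟮j⟯))).Monic := hP.map _
  have hPd : (P.map (algebraMap K ↥(K⟮j⟯))).natDegree = P.natDegree := hP.natDegree_map _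
  have hQd : (C jj * Q.map (algebraMap K ↥(K⟮j⟯))).natDegree
      < (P.map (algebraMap K ↥(K⟮j⟯))).natDegree := by
    rw [hPd]
    refine lt_of_le_of_lt (natDegree_C_mul_le _ _) ?_
    exact lt_of_le_of_lt (natDegree_map_le) hQ
  refine ⟨P.map (algebraMap K ↥(K⟮j⟯)) - C jj * Q.map (algebraMap K ↥(K⟮j⟯)), ?_, ?_, ?_⟩
  · apply hPm.sub_of_left
    exact degree_lt_degree hQd
  · rw [natDegree_sub_eq_left_of_natDegree_lt hQd, hPd]
  · rw [map_sub, map_mul, aeval_C, aeval_map_algebraMap, aeval_map_algebraMap, hPQ]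
    exact sub_self _

/-- `0 < [K(h) : K(j)] ≤ deg P` when `j ∈ K(h)` and `P(h) = j · Q(h)`. -/
theorem relfinrank_adjoin_simple_le {j h : E} (hj : j ∈ K⟮h⟯) (P Q : K[X]) (hP : P.Monic)
    (hQ : Q.natDegree < P.natDegree) (hPQ : aeval h P = j * aeval h Q) :
    0 < (K⟮j⟯).relfinrank K⟮h⟯ ∧ (K⟮j⟯).relfinrank K⟮h⟯ ≤ P.natDegree := by
  obtain ⟨f, hf, hfd, hf0⟩ := exists_monic_of_rel P Q hP hQ hPQ
  have hint : IsIntegral ↥(K⟮j⟯) h := ⟨f, hf, by rwa [← aeval_def]⟩
  have hle : K⟮j⟯ ≤ K⟮h⟯ := by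
    rw [adjoin_simple_le_iff]; exact hj
  have e : extendScalars hle = adjoin ↥(K⟮j⟯) ({h} : Set E) := by
    apply restrictScalars_injective K
    rw [extendScalars_restrictScalars, adjoin_adjoin_left]
    apply le_antisymm
    · apply IntermediateField.adjoin.mono
      intro x hx
      right
      exact hx
    · rw [IntermediateField.adjoin_le_iff]
      rintro x (hx | hx)
      · rw [Set.mem_singleton_iff] at hx
        rw [hx]
        exact hj
      · rw [Set.mem_singleton_iff] at hx
        rw [hx]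
        exact mem_adjoin_simple_self K h
  rw [relfinrank_eq_finrank_of_le hle, e, adjoin.finrank hint]
  refine ⟨minpoly.natDegree_pos hint, ?_⟩
  rw [← hfd]
  exact natDegree_le_of_dvd (minpoly.dvd _ _ hf0) hf.ne_zero

/-- **Degree argument**: `K(j) ≤ F ≤ K(h)`, `[F : K(j)] = deg P`, `P(h) = j · Q(h)` give
`K(h) = F`. -/
theorem adjoin_simple_eq_of_relfinrank {j h : E} (F : IntermediateField K E) (hjF : j ∈ F)
    (hFh : F ≤ K⟮h⟯) (P Q : K[X]) (hP : P.Monic) (hQ : Q.natDegree < P.natDegree)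
    (hPQ : aeval h P = j * aeval h Q) (hdeg : (K⟮j⟯).relfinrank F = P.natDegree) :
    K⟮h⟯ = F := by
  have hj : j ∈ K⟮h⟯ := hFh hjF
  obtain ⟨h0, h1⟩ := relfinrank_adjoin_simple_le hj P Q hP hQ hPQ
  have hjF' : K⟮j⟯ ≤ F := by
    rw [adjoin_simple_le_iff]; exact hjF
  have hmul := IntermediateField.relfinrank_mul_relfinrank hjF' hFh
  rw [hdeg] at hmul
  rw [← hmul] at h0 h1
  have hn : 0 < P.natDegree := Nat.pos_of_ne_zero (fun h => by rw [h, zero_mul] at h0; omega)
  have hb : 0 < F.relfinrank K⟮h⟯ :=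
    Nat.pos_of_ne_zero (fun h => by rw [h, mul_zero] at h0; omega)
  have hb1 : F.relfinrank K⟮h⟯ = 1 := by
    have : P.natDegree * F.relfinrank K⟮h⟯ ≤ P.natDegree * 1 := by rwa [mul_one]
    have := Nat.le_of_mul_le_mul_left this hn
    omega
  exact le_antisymm (relfinrank_eq_one_iff.1 hb1) hFh

/-- `j = P(h)/Q(h) ∈ K(h)`. -/
theorem mem_adjoin_simple_of_rel {j h : E} (P Q : K[X]) (hPQ : aeval h P = j * aeval h Q)
    (hQ0 : aeval h Q ≠ 0) : j ∈ K⟮h⟯ := by
  have hP' : aeval h P ∈ K⟮h⟯ :=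
    IntermediateField.algebra_adjoin_le_adjoin K _ (aeval_mem_adjoin_singleton K h)
  have hQ' : aeval h Q ∈ K⟮h⟯ :=
    IntermediateField.algebra_adjoin_le_adjoin K _ (aeval_mem_adjoin_singleton K h)
  have e : j = aeval h P / aeval h Q := by
    rw [hPQ, mul_div_assoc, div_self hQ0, mul_one]
  rw [e]
  exact div_mem hP' hQ'

end Generic

/-! ### The field `F_p · K` for a prime `p` -/

section Prime

variable {K : Type} [Field K] {p : ℕ} [NeZero p]

/-- For `p` prime, `F_p · K = K(j, j(q^p))`. -/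
theorem fullC_prime_le (hp : p.Prime) (B : IntermediateField K (LaurentSeries K))
    (h1 : jqModC K ∈ B) (h2 : qExpand K p (jqModC K) ∈ B) :
    modularFunctionFieldFullC K p ≤ B := by
  rw [modularFunctionFieldFullC, IntermediateField.adjoin_le_iff]
  rintro x ⟨d, hd0, hd, rfl⟩
  rcases (Nat.dvd_prime hp).1 hd with rfl | rfl
  · rw [qExpand_one_apply]
    exact h1
  · exact h2

/-- **(H2)/(H3) from two identities**, over any field `K` with `[F_p K : K(j)] = deg P`:
if `P(h) = j · Q(h)` (`P` monic, `deg Q < deg P`, `Q(h) ≠ 0`) and `P'(h) = j(q^p) · Q'(h)`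
(`Q'(h) ≠ 0`), then `K(h) = F_p · K`. -/
theorem haupt_adjoin_eq_fullC (hp : p.Prime) {h : LaurentSeries K} (P Q P' Q' : K[X])
    (hP : P.Monic) (hQ : Q.natDegree < P.natDegree)
    (hPQ : aeval h P = jqModC K * aeval h Q) (hQ0 : aeval h Q ≠ 0)
    (hPQ' : aeval h P' = qExpand K p (jqModC K) * aeval h Q') (hQ0' : aeval h Q' ≠ 0)
    (hdeg : (IntermediateField.adjoin K ({jqModC K} : Set (LaurentSeries K))).relfinrank
      (modularFunctionFieldFullC K p) = P.natDegree) :
    IntermediateField.adjoin K ({h} : Set (LaurentSeries K)) = modularFunctionFieldFullC K p := by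
  apply adjoin_simple_eq_of_relfinrank (modularFunctionFieldFullC K p) (jqModC_mem_full K p)
    ?_ P Q hP hQ hPQ hdeg
  exact fullC_prime_le hp _ (mem_adjoin_simple_of_rel P Q hPQ hQ0)
    (mem_adjoin_simple_of_rel P' Q' hPQ' hQ0')

/-- A nonzero polynomial does not vanish at a series with a pole. -/
theorem aeval_ne_zero_of_order_neg {h : LaurentSeries K} (hh : h.order < 0) {Q : K[X]}
    (hQ : Q ≠ 0) : aeval h Q ≠ 0 := by
  intro h0
  exact (transcendental_iff.1 (transcendental_of_order_neg hh)) Q h0 |> hQ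

end Prime

/-! ### Over `ℚ̄` and over the residue fields -/

section Bar

variable {p : ℕ} [NeZero p]

/-- **(H2) over `ℚ̄`** from the two identities (`deg P = p + 1`). -/
theorem haupt_H2_bar (hp : p.Prime) {h : LaurentSeries (AlgebraicClosure ℚ)}
    (P Q P' Q' : (AlgebraicClosure ℚ)[X])
    (hP : P.Monic) (hPd : P.natDegree = p + 1) (hQ : Q.natDegree < p + 1)
    (hPQ : aeval h P = jqModC (AlgebraicClosure ℚ) * aeval h Q) (hQ0 : aeval h Q ≠ 0)
    (hPQ' : aeval h P' = qExpand (AlgebraicClosure ℚ) p (jqModC (AlgebraicClosure ℚ)) * aeval h Q')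
    (hQ0' : aeval h Q' ≠ 0) :
    IntermediateField.adjoin (AlgebraicClosure ℚ) ({h} : Set (LaurentSeries (AlgebraicClosure ℚ)))
      = modularFunctionFieldFullC (AlgebraicClosure ℚ) p := by
  apply haupt_adjoin_eq_fullC hp P Q P' Q' hP (by rw [hPd]; exact hQ) hPQ hQ0 hPQ' hQ0'
  rw [relfinrank_fullC_bar, dedekindPsi_prime hp, hPd]

/-- **(H3) over the residue field** from the two identities (`deg P = p + 1`). -/
theorem haupt_H3_bar (hp : p.Prime) (A : ValuationSubring (AlgebraicClosure ℚ))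
    (hpA : ((p : AlgebraicClosure ℚ))⁻¹ ∈ A) {h : LaurentSeries (kV A)}
    (P Q P' Q' : (kV A)[X])
    (hP : P.Monic) (hPd : P.natDegree = p + 1) (hQ : Q.natDegree < p + 1)
    (hPQ : aeval h P = jqModC (kV A) * aeval h Q) (hQ0 : aeval h Q ≠ 0)
    (hPQ' : aeval h P' = qExpand (kV A) p (jqModC (kV A)) * aeval h Q')
    (hQ0' : aeval h Q' ≠ 0) :
    IntermediateField.adjoin (kV A) ({h} : Set (LaurentSeries (kV A)))
      = modularFunctionFieldFullC (kV A) p := by
  apply haupt_adjoin_eq_fullC hp P Q P' Q' hP (by rw [hPd]; exact hQ) hPQ hQ0 hPQ' hQ0'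
  rw [relfinrank_fullC_red_bar A hpA, dedekindPsi_prime hp, hPd]

/-- **GA-H over `ℚ̄`, from the identities**: both charts `x`, `1/x` for a Hauptmodul
`x ∈ gaussRingV A` of prime level `p ∣ M`, `M` invertible in `A`. -/
theorem chartPre_haupt_bar (hp : p.Prime) {M : ℕ} [NeZero M] (hpM : p ∣ M)
    (A : ValuationSubring (AlgebraicClosure ℚ)) (hM : ((M : AlgebraicClosure ℚ))⁻¹ ∈ A)
    {x : LaurentSeries (AlgebraicClosure ℚ)} (hx : x ∈ gaussRingV A)
    (P Q P' Q' : (AlgebraicClosure ℚ)[X])
    (hP : P.Monic) (hPd : P.natDegree = p + 1) (hQ : Q.natDegree < p + 1)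
    (hPQ : aeval x P = jqModC (AlgebraicClosure ℚ) * aeval x Q) (hQ0 : aeval x Q ≠ 0)
    (hPQ' : aeval x P' = qExpand (AlgebraicClosure ℚ) p (jqModC (AlgebraicClosure ℚ)) * aeval x Q')
    (hQ0' : aeval x Q' ≠ 0)
    (Pk Qk Pk' Qk' : (kV A)[X])
    (hPk : Pk.Monic) (hPkd : Pk.natDegree = p + 1) (hQk : Qk.natDegree < p + 1)
    (hPQk : aeval (gaussRedV A ⟨x, hx⟩) Pk = jqModC (kV A) * aeval (gaussRedV A ⟨x, hx⟩) Qk)
    (hQk0 : aeval (gaussRedV A ⟨x, hx⟩) Qk ≠ 0)
    (hPQk' : aeval (gaussRedV A ⟨x, hx⟩) Pk'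
      = qExpand (kV A) p (jqModC (kV A)) * aeval (gaussRedV A ⟨x, hx⟩) Qk')
    (hQk0' : aeval (gaussRedV A ⟨x, hx⟩) Qk' ≠ 0) :
    ∃ (X : ↥(laurentBaseChange (AlgebraicClosure ℚ) (modularFunctionFieldFull M)))
      (hX : X ∈ (redSetting A (hasScale_laurentBaseChange A M)).V)
      (hX' : X⁻¹ ∈ (redSetting A (hasScale_laurentBaseChange A M)).V),
      (X : LaurentSeries (AlgebraicClosure ℚ)) = x ∧
      ChartPre (redSetting A (hasScale_laurentBaseChange A M)) X hX ∧
      ChartPre (redSetting A (hasScale_laurentBaseChange A M)) X⁻¹ hX' := by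
  have hpA : ((p : AlgebraicClosure ℚ))⁻¹ ∈ A := inv_natCast_mem_of_dvd A hpM (NeZero.ne M) hM
  have H2 := haupt_H2_bar hp P Q P' Q' hP hPd hQ hPQ hQ0 hPQ' hQ0'
  have H3 := haupt_H3_bar hp A hpA Pk Qk Pk' Qk' hPk hPkd hQk hPQk hQk0 hPQk' hQk0'
  exact chartPre_haupt_both hpM hM (caDataBar p) (caDataBar M) hx H2 H3 (haupt_mem hpM H2)

end Bar

end Fermat.Agent.RED.H73

end
end
-- ==== END Fermat.Agent.RED.H73_GAHauptField

-- ==== BEGIN Fermat.Agent.RED.H76_IGBranch
section

/-!
# G-RED package IG-MOD (helper76): branch values of a chart `h` with `P(h) = j · Q(h)`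

Generic part (any function field `F / K`, `K` algebraically closed of characteristic `0`):
* `exists_two_le_ord_of_isBranchValue` : over a branch value `ρ` of `x` there is a place `v`
  with `ord_v (x - ρ) ≥ 2`;
* `ord_aeval_sub` : `ord_v (p(h)) = mult_ρ(p) · ord_v (h - ρ)` at a zero `v` of `h - ρ`;
* `mul_ord_le_ord_sub` : if `P(h) = x Q(h)`, `Q(ρ) ≠ 0`, `(X - ρ)^m ∣ P - a Q` then
  `m · ord_v (h - ρ) ≤ ord_v (x - a)`;
* `isBranchValue_inv_iff` : `ρ ≠ 0` is a branch value of `1/x` iff `1/ρ` is a branch value of `x`.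

Modular part (`F = F_N · ℚ̄`, `x = j`, ramification bounds of `RED/H76_IGOrd.lean`):
* `branch_haupt` : a branch value `ρ` of `h` with `Q(ρ) ≠ 0` is a simple root of `P` or a
  simple root of `P - 1728 Q`.
-/

set_option autoImplicit false
set_option linter.style.haveILetI false
set_option synthInstance.maxHeartbeats 400000
set_option maxHeartbeats 1000000

noncomputable section

open AlgebraicCurve IsDedekindDomain IntermediateField Polynomial

namespace Fermat.Agent.RED.H76

open Fermat.Agent.RED.H34 Fermat.Agent.RED.H51 Fermat.Agent.RED.H79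

section Generic

variable {K F : Type} [Field K] [Field F] [Algebra K F]

theorem adjoin_simple_sub_algebraMap (x : F) (ρ : K) : K⟮x - algebraMap K F ρ⟯ = K⟮x⟯ := by
  apply le_antisymm
  · rw [adjoin_simple_le_iff]
    exact sub_mem (mem_adjoin_simple_self K x) (IntermediateField.algebraMap_mem _ ρ)
  · rw [adjoin_simple_le_iff]
    have h := add_mem (mem_adjoin_simple_self K (x - algebraMap K F ρ))
      (IntermediateField.algebraMap_mem K⟮x - algebraMap K F ρ⟯ ρ)
    rwa [sub_add_cancel] at h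

theorem transcendental_sub_algebraMap {x : F} (hx : Transcendental K x) (ρ : K) :
    Transcendental K (x - algebraMap K F ρ) := by
  intro h
  apply hx
  have h2 := h.add (isAlgebraic_algebraMap (R := K) (A := F) ρ)
  rwa [sub_add_cancel] at h2

/-- Over a branch value there is a ramified place. -/
theorem exists_two_le_ord_of_isBranchValue [IsAlgClosed K] [CharZero K] (x : F)
    (hx : Transcendental K x) [FiniteDimensional K⟮x⟯ F] (ρ : K) (h : IsBranchValue x ρ) :
    ∃ v : Place K F, 2 ≤ v.ord (x - algebraMap K F ρ) := by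
  classical
  haveI := isSeparable_adjoin_simple (K := K) x
  by_contra hcon
  push Not at hcon
  rw [isBranchValue_iff x hx ρ] at h
  set y : F := x - algebraMap K F ρ with hy
  have hyt : Transcendental K y := transcendental_sub_algebraMap hx ρ
  have hKy : K⟮y⟯ = K⟮x⟯ := adjoin_simple_sub_algebraMap x ρ
  haveI : FiniteDimensional K⟮y⟯ F := by
    rw [hKy]
    infer_instance
  obtain ⟨hfin, hsum⟩ := Fermat.Agent.S24.ff_zeros y hyt
  have hrank : Module.finrank K⟮y⟯ F = Module.finrank K⟮x⟯ F :=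
    congrArg (fun E : IntermediateField K F => Module.finrank E F) hKy
  have hone : ∀ v ∈ {v : Place K F | 0 < v.ord y}, v.ord y = 1 := by
    intro v hv
    have h1 : 0 < v.ord y := hv
    have h2 := hcon v
    omega
  rw [finsum_mem_congr rfl hone, finsum_mem_eq_finite_toFinset_sum _ hfin, Finset.sum_const,
    nsmul_eq_mul, mul_one, hrank] at hsum
  have hcard : Nat.card {v : Place K F // 0 < v.ord y} = hfin.toFinset.card := by
    rw [← Set.ncard_eq_toFinset_card _ hfin]
    exact Nat.card_coe_set_eq _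
  rw [hcard] at h
  have : (hfin.toFinset.card : ℤ) < (Module.finrank K⟮x⟯ F : ℤ) := by exact_mod_cast h
  omega

/-- The order of `p(h)` at a zero of `h - ρ`. -/
theorem ord_aeval_sub (v : Place K F) {h : F} {ρ : K}
    (hv : 0 < v.ord (h - algebraMap K F ρ)) {p : K[X]} (hp : p ≠ 0) :
    aeval h p ≠ 0 ∧
      v.ord (aeval h p) = (p.rootMultiplicity ρ : ℤ) * v.ord (h - algebraMap K F ρ) := by
  have hcomp : aeval (h - algebraMap K F ρ) (p.comp (X + C ρ)) = aeval h p := by
    rw [aeval_comp]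
    congr 1
    simp
  have hp' : p.comp (X + C ρ) ≠ 0 := by
    intro h0
    apply hp
    have := congrArg (fun q : K[X] => q.comp (X - C ρ)) h0
    simpa [Polynomial.comp_assoc] using this
  have := ord_aeval v hv hp'
  rw [hcomp, ← rootMultiplicity_eq_rootMultiplicity] at this
  exact this

/-- If `P(h) = x Q(h)`, `Q(ρ) ≠ 0` and `(X - ρ)^m` divides `P - a Q`, then the order of `x - a`
at a zero of `h - ρ` is at least `m` times the order of `h - ρ`. -/
theorem mul_ord_le_ord_sub (v : Place K F) {h x : F} {P Q : K[X]}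
    (hPQ : aeval h P = x * aeval h Q) {ρ a : K} (hQρ : Q.eval ρ ≠ 0) {m : ℕ}
    (hdvd : (X - C ρ) ^ m ∣ P - C a * Q) (hPa : P - C a * Q ≠ 0)
    (hv : 0 < v.ord (h - algebraMap K F ρ)) :
    x - algebraMap K F a ≠ 0 ∧
      (m : ℤ) * v.ord (h - algebraMap K F ρ) ≤ v.ord (x - algebraMap K F a) := by
  have hQ0 : Q ≠ 0 := by
    rintro rfl
    simp at hQρ
  obtain ⟨hQne, hQord⟩ := ord_aeval_sub v hv hQ0
  have hQm : Q.rootMultiplicity ρ = 0 := rootMultiplicity_eq_zero hQρ
  rw [hQm, Nat.cast_zero, zero_mul] at hQord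
  obtain ⟨hPne, hPord⟩ := ord_aeval_sub v hv hPa
  have hle : m ≤ (P - C a * Q).rootMultiplicity ρ := (le_rootMultiplicity_iff hPa).mpr hdvd
  have hrel : aeval h (P - C a * Q) = (x - algebraMap K F a) * aeval h Q := by
    rw [map_sub, map_mul, aeval_C, hPQ]
    ring
  have hxa : x - algebraMap K F a ≠ 0 := by
    intro h0
    rw [h0, zero_mul] at hrel
    exact hPne hrel
  refine ⟨hxa, ?_⟩
  rw [hrel, v.ord_mul hxa hQne, hQord, add_zero] at hPord
  rw [hPord]
  have hpos : (0 : ℤ) ≤ v.ord (h - algebraMap K F ρ) := hv.le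
  have : (m : ℤ) ≤ ((P - C a * Q).rootMultiplicity ρ : ℤ) := by exact_mod_cast hle
  exact mul_le_mul_of_nonneg_right this hpos

/-- `ρ ≠ 0` is a branch value of `1/x` iff `1/ρ` is a branch value of `x`. -/
theorem isBranchValue_inv_iff [CharZero K] (x : F) (hx : Transcendental K x)
    [FiniteDimensional K⟮x⟯ F] {ρ : K} (hρ : ρ ≠ 0) :
    IsBranchValue x⁻¹ ρ ↔ IsBranchValue x ρ⁻¹ := by
  haveI := finiteDimensional_adjoin_simple_inv (K := K) x
  haveI := isSeparable_adjoin_simple (K := K) x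
  haveI := isSeparable_adjoin_simple (K := K) x⁻¹
  rw [isBranchValue_iff _ (transcendental_inv hx), isBranchValue_iff _ hx,
    finrank_adjoin_simple_inv]
  have e : Nat.card {v : Place K F // 0 < v.ord (x⁻¹ - algebraMap K F ρ)}
      = Nat.card {v : Place K F // 0 < v.ord (x - algebraMap K F ρ⁻¹)} :=
    Nat.card_congr (Equiv.subtypeEquivRight fun v => pos_ord_inv_sub_iff v _ hρ)
  rw [e]

end Generic

section Modular

open Fermat.Agent.S24 (Kbar FN)

variable (N : ℕ) [NeZero N]

/-- **Branch values of a chart `h` with `P(h) = j Q(h)`**: a branch value `ρ` of `h` with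
`Q(ρ) ≠ 0` is a simple root of `P` or of `P - 1728 Q`. -/
theorem branch_haupt (h : FN N) (hh : Transcendental Kbar h) [FiniteDimensional Kbar⟮h⟯ (FN N)]
    (P Q : Kbar[X])
    (hPQ : aeval h P = Fermat.Agent.RED.H73.jF (L := Kbar) N * aeval h Q)
    (hne : ∀ a : Kbar, P - C a * Q ≠ 0)
    {ρ : Kbar} (hQρ : Q.eval ρ ≠ 0) (hbr : IsBranchValue h ρ) :
    (P.eval ρ = 0 ∧ ¬ (X - C ρ) ^ 2 ∣ P) ∨
      (P.eval ρ = 1728 * Q.eval ρ ∧ ¬ (X - C ρ) ^ 2 ∣ P - C 1728 * Q) := by
  obtain ⟨v, hv⟩ := exists_two_le_ord_of_isBranchValue h hh ρ hbr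
  have hv0 : 0 < v.ord (h - algebraMap Kbar (FN N) ρ) := by omega
  set a : Kbar := P.eval ρ / Q.eval ρ with ha
  have haQ : a * Q.eval ρ = P.eval ρ := div_mul_cancel₀ _ hQρ
  have hroot : (X - C ρ) ^ 1 ∣ P - C a * Q := by
    rw [pow_one, dvd_iff_isRoot, IsRoot, eval_sub, eval_mul, eval_C, haQ, sub_self]
  obtain ⟨-, h1⟩ := mul_ord_le_ord_sub v hPQ hQρ hroot (hne a) hv0
  rw [Nat.cast_one, one_mul] at h1
  have h2 : 2 ≤ v.ord (Fermat.Agent.RED.H73.jF (L := Kbar) N - algebraMap Kbar (FN N) a) := by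
    omega
  by_cases ha0 : a = 0
  · left
    have hP0 : P.eval ρ = 0 := by rw [← haQ, ha0, zero_mul]
    refine ⟨hP0, fun hd => ?_⟩
    have hd' : (X - C ρ) ^ 2 ∣ P - C (0 : Kbar) * Q := by simpa using hd
    obtain ⟨-, h3⟩ := mul_ord_le_ord_sub v hPQ hQρ hd' (hne 0) hv0
    have h4 := ord_jF_le_three' N v
    rw [map_zero, sub_zero] at h3
    push_cast at h3
    omega
  by_cases ha1 : a = 1728
  · right
    have hP1 : P.eval ρ = 1728 * Q.eval ρ := by rw [← haQ, ha1]
    refine ⟨hP1, fun hd => ?_⟩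
    obtain ⟨-, h3⟩ := mul_ord_le_ord_sub v hPQ hQρ hd (hne 1728) hv0
    have h4 := ord_jF_sub_1728_le_two' N v
    push_cast at h3
    omega
  · exfalso
    have h4 := ord_jF_sub_le_one' N a ha0 ha1 v
    omega

end Modular

end Fermat.Agent.RED.H76

end
end
-- ==== END Fermat.Agent.RED.H76_IGBranch

-- ==== BEGIN Fermat.Agent.RED.H76_RHR
section

/-!
# RH-R, unconditional (helper76 + helper94 + helper17)

`stmt_RHR : Stmt_RHR` — for a function field `F / K` (`K` algebraically closed of characteristic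
zero) with Riemann genus `g` (`RED.H17.IsGenus K F g c`) and a non-constant `x`:
`2 g - 2 = ∑_{a ∈ S} (n - r_a) - n - r_∞`, `n = [F : K(x)]`, `r_a` the number of places over
`x = a`, `r_∞` the number of poles of `x`, `S` any finite set containing the branch values.
-/

set_option autoImplicit false

namespace Fermat.Agent.RED.H76

/-- **RH-R**: the Riemann genus satisfies the Hurwitz formula. -/
theorem stmt_RHR : Stmt_RHR :=
  stmt_RHR_of Fermat.Agent.RED.H94.stmt_basisTransfer Fermat.Agent.RED.H17.stmt_discrScale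
    Fermat.Agent.RED.H94.stmt_discrExact

end Fermat.Agent.RED.H76

end
-- ==== END Fermat.Agent.RED.H76_RHR

-- ==== BEGIN Fermat.Agent.RED.H79_DRabs
section
attribute [local instance 10000] SubalgebraClass.toAlgebra
attribute [local instance 10000] HahnSeries.powerSeriesAlgebra

/-!
# G-RED package CONS, assembly (helper79): two good charts give the conservation law

* `exists_isRedAbs` : abstract form, for a `RedSetting` with charts `x`, `x'`, `x' (x - c₀) = 1`.
* `exists_isRed` : for the Gauss valuation of `F ⊆ C((q))`: `∃ r, IsRed O h r`.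
* `hasDR_of_charts` : `HasDR O h` from two good charts, `IsFF` of the reduced field and `GenusLE`.

Inputs: C2, C3, C6 (helper10: `H10.chartIntegral`, `H10.chart_conservation`), C4, C5, C7
(helper79).
-/

set_option autoImplicit false
set_option linter.style.haveILetI false
set_option synthInstance.maxHeartbeats 400000
set_option maxHeartbeats 1000000

noncomputable section

open AlgebraicCurve IntermediateField

namespace Fermat.Agent.RED.H79

open Fermat.Agent.RED.H34 Fermat.Agent.RED.H51 Fermat.Agent.RED.H34.RedSetting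

section Abs

variable {C F k Ft : Type} [Field C] [Field F] [Algebra C F] [Field k] [Field Ft] [Algebra k Ft]

/-- **CONS** (abstract): two good charts `x`, `x'` with `x' (x - c₀) = 1`, `c₀ ∈ O`, give a
reduction map of places with the conservation law. -/
theorem exists_isRedAbs [IsAlgClosed C] [CharZero C] [IsAlgClosed k]
    (hFF : IsFF C F) (hFFt : IsFF k Ft)
    (S : RedSetting C F k Ft) (x x' : F) (hx : x ∈ S.V) (hx' : x' ∈ S.V) (c₀ : ↥S.O)
    (hxx' : x' * (x - algebraMap C F (c₀ : C)) = 1)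
    (G : GoodChart S x hx) (G' : GoodChart S x' hx') :
    ∃ r : Place C F → Place k Ft, IsRedAbs S r := by
  classical
  haveI := G.fin
  have hxC : Transcendental C x := transcendental_x hx G.transc
  have hI : ChartIntegral S x hx := Fermat.Agent.RED.H10.chartIntegral hx hFF G
  have hI' : ChartIntegral S x' hx' := Fermat.Agent.RED.H10.chartIntegral hx' hFF G'
  -- a place of `Ft`
  obtain ⟨P₀, hP₀⟩ := Fermat.Agent.RED.H12.exists_place_ord_pos
    (fun y hy => Fermat.Agent.S24.ff_finite_of_transcendental x hxC y hy) x hxC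
  have hP₀in : InChart S x P₀ := by
    refine ⟨0, ?_, ?_⟩
    · rw [map_zero]; exact zero_mem _
    · rw [map_zero, sub_zero]; exact Or.inr hP₀
  obtain ⟨Q₀, -⟩ := stmt_C4 C F k Ft S x hx G hI P₀ hP₀in
  haveI : Nonempty (Place k Ft) := ⟨Q₀⟩
  choose! r₁ hr₁ using stmt_C4 C F k Ft S x hx G hI
  choose! r₂ hr₂ using stmt_C4 C F k Ft S x' hx' G' hI'
  refine ⟨_, isRedAbs_glue S hx hx' c₀ hxC hxx' r₁ r₂ hr₁ hr₂ ?_ ?_⟩
  · intro f hfu D hD Q hQ
    exact Fermat.Agent.RED.H10.chart_conservation hx hFF hFFt G r₁ hr₁ f hfu D hD Q hQ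
  · intro f hfu D hD Q hQ
    exact Fermat.Agent.RED.H10.chart_conservation hx' hFF hFFt G' r₂ hr₂ f hfu D hD Q hQ

end Abs

section Gauss

open ModularCurve Fermat.Agent.S28.H73 Fermat.Agent.RED.H73

variable {C : Type} [Field C] (O : ValuationSubring C)
variable {F : IntermediateField C (LaurentSeries C)} (h : HasScale O F)

/-- `IsRed` of `RED/Core.lean` is `IsRedAbs` for the Gauss valuation. -/
theorem isRed_iff_isRedAbs (r : Place C ↥F → Place (kV O) ↥(redField O F h)) :
    IsRed O h r ↔ _root_.Fermat.Agent.RED.H79.IsRedAbs (redSetting O h) r := Iff.rfl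

/-- **CONS**: two good charts `x`, `x'` with `x' (x - c₀) = 1`, `c₀ ∈ O`, of the Gauss valuation
of `F ⊆ C((q))` give a reduction map of places with the conservation law. -/
theorem exists_isRed [IsAlgClosed C] [CharZero C] [IsAlgClosed (kV O)]
    (hFF : IsFF C ↥F) (hFFt : IsFF (kV O) ↥(redField O F h))
    (x x' : ↥F) (hx : x ∈ gaussValSub O F h) (hx' : x' ∈ gaussValSub O F h) (c₀ : C)
    (hc₀ : c₀ ∈ O) (hxx' : x' * (x - algebraMap C ↥F c₀) = 1)
    (G : GoodChart (redSetting O h) x hx) (G' : GoodChart (redSetting O h) x' hx') :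
    ∃ r : Place C ↥F → Place (kV O) ↥(redField O F h), IsRed O h r := by
  have hc₀' : algebraMap C ↥F c₀ ∈ (redSetting O h).V :=
    (algebraMap_mem_gaussValSub_iff O h c₀).2 hc₀
  exact exists_isRedAbs hFF hFFt (redSetting O h) x x' hx hx' ⟨c₀, hc₀'⟩ hxx' G G'

/-- **DR-abs**: the Deuring reduction datum from two good charts, given that the reduced field is
a function field and that the genus does not drop (package GEN). -/
theorem hasDR_of_charts [IsAlgClosed C] [CharZero C] [IsAlgClosed (kV O)]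
    (hFF : IsFF C ↥F) (hFFt : IsFF (kV O) ↥(redField O F h))
    (x x' : ↥F) (hx : x ∈ gaussValSub O F h) (hx' : x' ∈ gaussValSub O F h) (c₀ : C)
    (hc₀ : c₀ ∈ O) (hxx' : x' * (x - algebraMap C ↥F c₀) = 1)
    (G : GoodChart (redSetting O h) x hx) (G' : GoodChart (redSetting O h) x' hx')
    (hGEN : ∀ r : Place C ↥F → Place (kV O) ↥(redField O F h), IsRed O h r → GenusLE O h r) :
    HasDR O h := by
  obtain ⟨r, hr⟩ := exists_isRed O h hFF hFFt x x' hx hx' c₀ hc₀ hxx' G G'
  exact ⟨hFFt, r, hr, hGEN r hr⟩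

/-- **DR-abs** (unconditional): two good charts `x`, `1/x` of the Gauss valuation of
`F ⊆ C((q))` give the Deuring reduction datum (`IsRed` by CONS, `GenusLE` by helper42's GEN). -/
theorem hasDR_of_goodCharts [IsAlgClosed C] [CharZero C] [IsAlgClosed (kV O)]
    (hFF : IsFF C ↥F) (hFFt : IsFF (kV O) ↥(redField O F h))
    (x : ↥F) (hx : x ∈ gaussValSub O F h) (hx' : x⁻¹ ∈ gaussValSub O F h)
    (G : GoodChart (redSetting O h) x hx) (G' : GoodChart (redSetting O h) x⁻¹ hx') :
    HasDR O h := by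
  haveI := G.fin
  haveI := G.sept
  have hxC : Transcendental C x := transcendental_x hx G.transc
  have hx0 : x ≠ 0 := fun h0 => hxC (h0 ▸ isAlgebraic_zero)
  refine hasDR_of_charts O h hFF hFFt x x⁻¹ hx hx' 0 (zero_mem _) ?_ G G' ?_
  · rw [map_zero, sub_zero, inv_mul_cancel₀ hx0]
  · intro r _
    exact Fermat.Agent.RED.H42.genusLE_of_charts_GA O h hFF hFFt hx hx' G.transc G.deg
      G.normal G'.normal r

end Gauss

end Fermat.Agent.RED.H79

end
end
-- ==== END Fermat.Agent.RED.H79_DRabs
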