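-- GENERATED (merged mirror, NOTES/tools/trim/merge3_helper67.py): 7 modules of the originals, bodies verbatim.
import Mathlib
import Fermat.Prelude.Def_AlgebraicCurve_Correspondence
import Fermat.Agent.Zm.S35_L01_004
import Fermat.Agent.Zm.S35_L15_001
import Fermat.Agent.Zm.S35_L07_002

-- ==== BEGIN Fermat.Agent.S48.Asm.H78_ThinExt
section

/-!
# S48 assembly leaf G-Thin, part 1: extension of embeddings to `ℂ`

`exists_ringHom_extend`: for a subfield `K` of `ℂ` algebraic over `ℚ`, every ring homomorphism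
`φ : K →+* ℂ` is the restriction of a ring homomorphism `σ : ℂ →+* ℂ`.
-/

set_option autoImplicit false
set_option linter.style.haveILetI false

namespace Fermat.Agent.S48.Asm.H78

open MvPolynomial

/-- Every automorphism of `ℚ̄ ⊆ ℂ` extends to `ℂ`. -/
theorem exists_ringEquiv_extend_algClosure
    (τ : algebraicClosure ℚ ℂ ≃ₐ[ℚ] algebraicClosure ℚ ℂ) :
    ∃ σ : ℂ ≃+* ℂ, ∀ x : algebraicClosure ℚ ℂ, σ (x : ℂ) = ((τ x : algebraicClosure ℚ ℂ) : ℂ) := by
  classical
  obtain ⟨s, hs⟩ := exists_isTranscendenceBasis (algebraicClosure ℚ ℂ) ℂ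
  obtain ⟨σ, hσ⟩ := Fermat.Agent.S23.H77.exists_ringEquiv_of_mvPolynomial_equiv
    (K₀ := algebraicClosure ℚ ℂ) _ hs (MvPolynomial.mapEquiv s τ.toRingEquiv)
  refine ⟨σ, fun x => ?_⟩
  have h := hσ (C x)
  have h3 : (MvPolynomial.mapEquiv s τ.toRingEquiv) (C x) = C (τ x) := by
    simp
  rw [h3] at h
  simp only [aeval_C] at h
  exact h

/-- Every embedding of a subfield of `ℂ`, algebraic over `ℚ`, extends to `ℂ`. -/
theorem exists_ringHom_extend (K : IntermediateField ℚ ℂ) [Algebra.IsAlgebraic ℚ K]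
    (φ : K →+* ℂ) : ∃ σ : ℂ →+* ℂ, ∀ x : K, σ (x : ℂ) = φ x := by
  classical
  have hle : K ≤ algebraicClosure ℚ ℂ := by
    intro x hx
    rw [mem_algebraicClosure_iff]
    have h1 : IsAlgebraic ℚ (⟨x, hx⟩ : K) := Algebra.IsAlgebraic.isAlgebraic _
    exact (isAlgebraic_algebraMap_iff (algebraMap K ℂ).injective).mpr h1
  -- `φ` lands in `ℚ̄`
  have hφmem : ∀ x : K, φ x ∈ algebraicClosure ℚ ℂ := by
    intro x
    rw [mem_algebraicClosure_iff]
    have h1 : IsAlgebraic ℚ x := Algebra.IsAlgebraic.isAlgebraic _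
    exact IsAlgebraic.algHom φ.toRatAlgHom h1
  let ι : K →ₐ[ℚ] algebraicClosure ℚ ℂ := (IntermediateField.inclusion hle)
  let φ' : K →ₐ[ℚ] algebraicClosure ℚ ℂ :=
    (φ.toRatAlgHom).codRestrict (algebraicClosure ℚ ℂ).toSubalgebra hφmem
  letI : Algebra K (algebraicClosure ℚ ℂ) := ι.toRingHom.toAlgebra
  haveI : IsScalarTower ℚ K (algebraicClosure ℚ ℂ) :=
    IsScalarTower.of_algebraMap_eq (fun q => (ι.commutes q).symm)
  haveI hcl : IsAlgClosure ℚ (algebraicClosure ℚ ℂ) := algebraicClosure.isAlgClosure ℚ ℂ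
  haveI : Normal ℚ (algebraicClosure ℚ ℂ) :=
    (IsAlgClosure.isGalois ℚ (algebraicClosure ℚ ℂ)).to_normal
  let ψ : algebraicClosure ℚ ℂ →ₐ[ℚ] algebraicClosure ℚ ℂ := φ'.liftNormal (algebraicClosure ℚ ℂ)
  have hψ : ∀ x : K, ψ (ι x) = φ' x := fun x => φ'.liftNormal_commutes (algebraicClosure ℚ ℂ) x
  let τ : algebraicClosure ℚ ℂ ≃ₐ[ℚ] algebraicClosure ℚ ℂ :=
    AlgEquiv.ofBijective ψ (Algebra.IsAlgebraic.algHom_bijective ψ)
  obtain ⟨σ, hσ⟩ := exists_ringEquiv_extend_algClosure τ
  refine ⟨σ.toRingHom, fun x => ?_⟩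
  have h1 := hσ (ι x)
  have h2 : ((ι x : algebraicClosure ℚ ℂ) : ℂ) = (x : ℂ) := rfl
  rw [h2] at h1
  show σ (x : ℂ) = φ x
  rw [h1]
  have h3 : τ (ι x) = φ' x := hψ x
  rw [h3]
  rfl

end Fermat.Agent.S48.Asm.H78

end
-- ==== END Fermat.Agent.S48.Asm.H78_ThinExt

-- ==== BEGIN Fermat.Agent.S48.B.H46_SmallCore
section

/-!
# S48, mountain B, leaf B3 (helper46): the linear algebra core

`k` a field, `V` a `k`-vector space, `Γ` a group acting on `V` by `Φ`, `θ : Γ →* kˣ` a character
and `a : Γ → k` such that every `g` satisfies `g² - a(g) g + θ(g) = 0` on `V`.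

* `QuadRel.key`: if `w` is an eigenvector of `g` with eigenvalue `μ` then
  `g (h w) = (a g - μ) • h w + (a (g h) - (a g - μ) a h) • w` for every `h`.
* `exists_minimal_inv`: a minimal nonzero invariant subspace.
* `QuadRel.sub_mem_span`: on a minimal invariant subspace `W`, `(g - (a g - μ)) W ⊆ k w`.
* `QuadRel.finrank_le_two`: a minimal invariant subspace has dimension at most two
  (`k` algebraically closed).
-/

set_option autoImplicit false

namespace Fermat.Agent.S48.B.H46

open Module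

variable {k : Type*} [Field k] {V : Type*} [AddCommGroup V] [Module k V]
  {Γ : Type*} [Group Γ]

/-- The quadratic relation `g² - a(g) g + θ(g) = 0`. -/
def QuadRel (Φ : Γ →* Module.End k V) (θ : Γ →* kˣ) (a : Γ → k) : Prop :=
  ∀ (g : Γ) (v : V), Φ g (Φ g v) = a g • Φ g v - ((θ g : kˣ) : k) • v

/-- `W` is invariant. -/
def IsInv (Φ : Γ →* Module.End k V) (W : Submodule k V) : Prop :=
  ∀ (g : Γ), ∀ w ∈ W, Φ g w ∈ W

variable {Φ : Γ →* Module.End k V} {θ : Γ →* kˣ} {a : Γ → k}

theorem apply_inv_apply (Φ : Γ →* Module.End k V) (g : Γ) (v : V) : Φ g⁻¹ (Φ g v) = v := by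
  have h : Φ g⁻¹ * Φ g = 1 := by rw [← map_mul, inv_mul_cancel, map_one]
  have := congrArg (fun f : Module.End k V => f v) h
  simpa using this

theorem apply_injective (Φ : Γ →* Module.End k V) (g : Γ) : Function.Injective (Φ g) := by
  intro v w h
  rw [← apply_inv_apply Φ g v, ← apply_inv_apply Φ g w, h]

theorem apply_mul (Φ : Γ →* Module.End k V) (g h : Γ) (v : V) : Φ (g * h) v = Φ g (Φ h v) := by
  rw [map_mul]
  rfl

/-- The eigenvalues are roots of the quadratic. -/
theorem QuadRel.eigen (H : QuadRel Φ θ a) {g : Γ} {w : V} {μ : k} (hw0 : w ≠ 0)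
    (hw : Φ g w = μ • w) : μ * μ - a g * μ + ((θ g : kˣ) : k) = 0 := by
  have h1 := H g w
  rw [hw, map_smul, hw] at h1
  have h2 : (μ * μ - a g * μ + ((θ g : kˣ) : k)) • w = 0 := by
    rw [add_smul, sub_smul, mul_smul, mul_smul, h1]
    abel
  exact (smul_eq_zero.mp h2).resolve_right hw0

/-- **The key identity.** -/
theorem QuadRel.key (H : QuadRel Φ θ a) (g h : Γ) {w : V} {μ : k} (hw : Φ g w = μ • w) :
    Φ g (Φ h w) = (a g - μ) • Φ h w + (a (g * h) - (a g - μ) * a h) • w := by
  by_cases hw0 : w = 0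
  · subst hw0
    simp
  have hμ := H.eigen hw0 hw
  apply apply_injective Φ (g * h)
  -- both sides after applying `g h`
  have e1 : Φ (g * h) (Φ g (Φ h w)) = a (g * h) • Φ g (Φ h w)
      - (((θ g : kˣ) : k) * ((θ h : kˣ) : k)) • w := by
    have := H (g * h) w
    rw [apply_mul Φ g h w, apply_mul Φ g h (Φ g (Φ h w))] at this
    rw [apply_mul Φ g h (Φ g (Φ h w)), this, map_mul, Units.val_mul]
  have e2 : Φ g (Φ h (Φ h w)) = a h • Φ g (Φ h w) - (((θ h : kˣ) : k) * μ) • w := by
    rw [H h w, map_sub, map_smul, map_smul, hw, smul_smul]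
  rw [e1, map_add, map_smul, map_smul, apply_mul Φ g h (Φ h w), e2, apply_mul Φ g h w]
  have e3 : ((θ g : kˣ) : k) = a g * μ - μ * μ := by linear_combination hμ
  rw [e3]
  module


/-- Irreducibility. -/
def IsIrr (Φ : Γ →* Module.End k V) : Prop :=
  ∀ U : Submodule k V, IsInv Φ U → U = ⊥ ∨ U = ⊤

theorem span_orbit_eq_top (hirr : IsIrr Φ) {x : V} (hx : x ≠ 0) :
    Submodule.span k (Set.range fun h : Γ => Φ h x) = ⊤ := by
  have hinv : IsInv Φ (Submodule.span k (Set.range fun h : Γ => Φ h x)) := by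
    intro g w hw
    induction hw using Submodule.span_induction with
    | mem y hy =>
      obtain ⟨h, rfl⟩ := hy
      apply Submodule.subset_span
      exact ⟨g * h, apply_mul Φ g h x⟩
    | zero => simp
    | add y z _ _ hy hz => rw [map_add]; exact Submodule.add_mem _ hy hz
    | smul c y _ hy => rw [map_smul]; exact Submodule.smul_mem _ c hy
  rcases hirr _ hinv with h | h
  · exfalso
    have hmem : x ∈ Submodule.span k (Set.range fun h : Γ => Φ h x) :=
      Submodule.subset_span ⟨1, by simp⟩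
    rw [h] at hmem
    exact hx (by simpa using hmem)
  · exact h

theorem QuadRel.sub_mem_span (H : QuadRel Φ θ a) (hirr : IsIrr Φ) {g : Γ} {x : V} {μ : k}
    (hx : x ≠ 0) (hgx : Φ g x = μ • x) (v : V) :
    Φ g v - (a g - μ) • v ∈ Submodule.span k {x} := by
  have hv : v ∈ Submodule.span k (Set.range fun h : Γ => Φ h x) := by
    rw [span_orbit_eq_top hirr hx]; trivial
  induction hv using Submodule.span_induction with
  | mem y hy =>
    obtain ⟨h, rfl⟩ := hy
    rw [H.key g h hgx]
    have e : (a g - μ) • Φ h x + (a (g * h) - (a g - μ) * a h) • x - (a g - μ) • Φ h x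
        = (a (g * h) - (a g - μ) * a h) • x := by abel
    rw [e]
    exact Submodule.smul_mem _ _ (Submodule.mem_span_singleton_self x)
  | zero => simp
  | add y z _ _ hy hz =>
    have e : Φ g (y + z) - (a g - μ) • (y + z)
        = (Φ g y - (a g - μ) • y) + (Φ g z - (a g - μ) • z) := by
      rw [map_add, smul_add]; abel
    rw [e]; exact Submodule.add_mem _ hy hz
  | smul c y _ hy =>
    have e : Φ g (c • y) - (a g - μ) • (c • y) = c • (Φ g y - (a g - μ) • y) := by
      rw [map_smul, smul_sub, smul_comm]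
    rw [e]; exact Submodule.smul_mem _ c hy

/-- An irreducible representation satisfying the quadratic relations, with a non-scalar element,
has dimension at most two. -/
theorem QuadRel.finrank_le_two [IsAlgClosed k] [FiniteDimensional k V] [Nontrivial V]
    (H : QuadRel Φ θ a) (hirr : IsIrr Φ) (g : Γ) (hg : ∀ c : k, Φ g ≠ c • (1 : Module.End k V)) :
    finrank k V ≤ 2 := by
  obtain ⟨l, hl⟩ := Module.End.exists_eigenvalue (Φ g)
  obtain ⟨w, hw⟩ := hl.exists_hasEigenvector
  have hw0 : w ≠ 0 := hw.2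
  have hgw : Φ g w = l • w := hw.apply_eq_smul
  have hrel := H.eigen hw0 hgw
  -- a vector not killed by `g - l`
  obtain ⟨x₀, hx₀⟩ : ∃ x₀ : V, Φ g x₀ - l • x₀ ≠ 0 := by
    by_contra hcon
    push_neg at hcon
    apply hg l
    ext v
    have := hcon v
    simpa [sub_eq_zero] using this
  set y : V := Φ g x₀ - l • x₀ with hy
  have hgy : Φ g y = (a g - l) • y := by
    rw [hy, map_sub, map_smul, H g x₀]
    have e3 : ((θ g : kˣ) : k) = a g * l - l * l := by linear_combination hrel
    rw [e3]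
    module
  -- the two rank one statements
  have hT : ∀ v, Φ g v - (a g - l) • v ∈ Submodule.span k {w} :=
    fun v => H.sub_mem_span hirr hw0 hgw v
  have hS : ∀ {x : V}, x ≠ 0 → Φ g x = (a g - l) • x → ∀ v, Φ g v - l • v ∈ Submodule.span k {x} := by
    intro x hx hgx v
    have := H.sub_mem_span hirr hx hgx v
    rwa [sub_sub_cancel] at this
  set T : Module.End k V := Φ g - (a g - l) • (1 : Module.End k V) with hTdef
  have hTv : ∀ v, T v = Φ g v - (a g - l) • v := fun v => by
    simp [hTdef]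
  have hrange : LinearMap.range T ≤ Submodule.span k {w} := by
    rintro _ ⟨v, rfl⟩
    rw [hTv]; exact hT v
  have hker : LinearMap.ker T ≤ Submodule.span k {y} := by
    intro x hx
    rw [LinearMap.mem_ker, hTv, sub_eq_zero] at hx
    by_cases hx0 : x = 0
    · rw [hx0]; exact Submodule.zero_mem _
    have hmem : y ∈ Submodule.span k {x} := hS hx0 hx x₀
    obtain ⟨c, hc⟩ := Submodule.mem_span_singleton.mp hmem
    have hc0 : c ≠ 0 := by
      rintro rfl
      rw [zero_smul] at hc
      exact hx₀ hc.symm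
    rw [Submodule.mem_span_singleton]
    refine ⟨c⁻¹, ?_⟩
    rw [← hc, smul_smul, inv_mul_cancel₀ hc0, one_smul]
  have h1 : finrank k (LinearMap.range T) ≤ 1 := by
    calc finrank k (LinearMap.range T) ≤ finrank k (Submodule.span k {w}) :=
          Submodule.finrank_mono hrange
      _ = 1 := finrank_span_singleton hw0
  have h2 : finrank k (LinearMap.ker T) ≤ 1 := by
    calc finrank k (LinearMap.ker T) ≤ finrank k (Submodule.span k {y}) :=
          Submodule.finrank_mono hker
      _ = 1 := finrank_span_singleton hx₀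
  have := LinearMap.finrank_range_add_finrank_ker T
  omega


/-! ### Minimal invariant subspaces and the restricted representation -/

theorem exists_minimal_inv [FiniteDimensional k V] [Nontrivial V] (Φ : Γ →* Module.End k V) :
    ∃ W : Submodule k V, IsInv Φ W ∧ W ≠ ⊥ ∧
      ∀ U : Submodule k V, U ≤ W → IsInv Φ U → U = ⊥ ∨ U = W := by
  have hne : ({W : Submodule k V | IsInv Φ W ∧ W ≠ ⊥}).Nonempty :=
    ⟨⊤, fun _ _ _ => Submodule.mem_top, top_ne_bot⟩
  obtain ⟨W, hW, hmin⟩ := IsArtinian.set_has_minimal _ hne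
  refine ⟨W, hW.1, hW.2, fun U hUW hU => ?_⟩
  by_cases hU0 : U = ⊥
  · exact Or.inl hU0
  · exact Or.inr (eq_of_le_of_not_lt hUW (hmin U ⟨hU, hU0⟩))

/-- The restriction of `Φ` to an invariant subspace. -/
def resRep (Φ : Γ →* Module.End k V) (W : Submodule k V) (hW : IsInv Φ W) :
    Γ →* Module.End k W where
  toFun g := (Φ g).restrict (hW g)
  map_one' := by
    ext w
    simp
  map_mul' g h := by
    ext w
    simp [apply_mul]

@[simp] theorem resRep_apply_coe (Φ : Γ →* Module.End k V) (W : Submodule k V) (hW : IsInv Φ W)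
    (g : Γ) (w : W) : ((resRep Φ W hW g w : W) : V) = Φ g (w : V) := rfl

theorem QuadRel.resRep (H : QuadRel Φ θ a) (W : Submodule k V) (hW : IsInv Φ W) :
    QuadRel (_root_.Fermat.Agent.S48.B.H46.resRep Φ W hW) θ a := by
  intro g v
  apply Subtype.ext
  simp only [resRep_apply_coe, Submodule.coe_sub, Submodule.coe_smul]
  exact H g v

theorem isIrr_resRep (Φ : Γ →* Module.End k V) (W : Submodule k V) (hW : IsInv Φ W)
    (hmin : ∀ U : Submodule k V, U ≤ W → IsInv Φ U → U = ⊥ ∨ U = W) :
    IsIrr (resRep Φ W hW) := by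
  intro U hU
  have hinv : IsInv Φ (U.map W.subtype) := by
    rintro g _ ⟨u, hu, rfl⟩
    exact ⟨resRep Φ W hW g u, hU g u hu, rfl⟩
  rcases hmin _ (Submodule.map_subtype_le W U) hinv with h | h
  · left
    rw [eq_bot_iff]
    intro u hu
    have hmem : (u : V) ∈ U.map W.subtype := ⟨u, hu, rfl⟩
    rw [h] at hmem
    rw [Submodule.mem_bot] at hmem ⊢
    exact Subtype.ext hmem
  · right
    rw [eq_top_iff]
    intro u _
    have hmem : (u : V) ∈ U.map W.subtype := by rw [h]; exact u.2
    obtain ⟨u₀, hu₀, he⟩ := hmem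
    have : u₀ = u := Subtype.ext he
    rwa [← this]

/-! ### Two by two matrices -/

theorem cayley_hamilton_two (M : Matrix (Fin 2) (Fin 2) k) :
    M * M - M.trace • M + M.det • (1 : Matrix (Fin 2) (Fin 2) k) = 0 := by
  ext i j
  fin_cases i <;> fin_cases j <;>
    simp [Matrix.mul_apply, Fin.sum_univ_two, Matrix.trace_fin_two, Matrix.det_fin_two] <;> ring

theorem trace_det_of_quad {M : Matrix (Fin 2) (Fin 2) k} {a θ : k}
    (h : M * M - a • M + θ • (1 : Matrix (Fin 2) (Fin 2) k) = 0)
    (hM : ∀ c : k, M ≠ c • (1 : Matrix (Fin 2) (Fin 2) k)) : M.trace = a ∧ M.det = θ := by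
  have hch := cayley_hamilton_two M
  have e : (M.trace - a) • M = (M.det - θ) • (1 : Matrix (Fin 2) (Fin 2) k) := by
    have : (M.trace - a) • M - (M.det - θ) • (1 : Matrix (Fin 2) (Fin 2) k)
        = (M * M - a • M + θ • (1 : Matrix (Fin 2) (Fin 2) k))
          - (M * M - M.trace • M + M.det • (1 : Matrix (Fin 2) (Fin 2) k)) := by
      module
    rw [h, hch, sub_zero] at this
    exact sub_eq_zero.mp this
  have ht : M.trace = a := by
    by_contra hne
    have hne' : M.trace - a ≠ 0 := sub_ne_zero.mpr hne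
    apply hM ((M.trace - a)⁻¹ * (M.det - θ))
    rw [mul_smul, ← e, smul_smul, inv_mul_cancel₀ hne', one_smul]
  refine ⟨ht, ?_⟩
  rw [ht, sub_self, zero_smul] at e
  have e00 := congrFun (congrFun e 0) 0
  simp only [Matrix.zero_apply, Matrix.smul_apply, Matrix.one_apply_eq, smul_eq_mul,
    mul_one] at e00
  exact (sub_eq_zero.mp e00.symm)


/-! ### Case A: a common eigenvector -/

theorem exists_rep2_of_eigenvector (H : QuadRel Φ θ a) {w : V} (hw : w ≠ 0)
    (hev : ∀ g, ∃ c : k, Φ g w = c • w) :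
    ∃ ρ₂ : Γ →* GL (Fin 2) k, (∀ g, Φ g = 1 → θ g = 1 → ρ₂ g = 1) ∧
      ∀ g, ((ρ₂ g : GL (Fin 2) k) : Matrix (Fin 2) (Fin 2) k).trace = a g ∧
        ((ρ₂ g : GL (Fin 2) k) : Matrix (Fin 2) (Fin 2) k).det = ((θ g : kˣ) : k) := by
  choose χ hχ using hev
  have hinj : Function.Injective (fun c : k => c • w) := smul_left_injective k hw
  have hχ1 : χ 1 = 1 := by
    apply hinj
    show χ 1 • w = (1 : k) • w
    rw [← hχ 1, map_one, one_smul]
    rfl
  have hχmul : ∀ g h, χ (g * h) = χ g * χ h := by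
    intro g h
    apply hinj
    show χ (g * h) • w = (χ g * χ h) • w
    rw [← hχ (g * h), apply_mul, hχ h, map_smul, hχ g, smul_smul, mul_comm]
  have hχ0 : ∀ g, χ g ≠ 0 := by
    intro g h0
    have h1 := hχ g
    rw [h0, zero_smul] at h1
    exact hw (apply_injective Φ g (by rw [h1, map_zero]))
  have hrel : ∀ g, χ g * χ g - a g * χ g + ((θ g : kˣ) : k) = 0 := fun g => H.eigen hw (hχ g)
  let D : Γ →* Matrix (Fin 2) (Fin 2) k :=
    { toFun := fun g => Matrix.diagonal ![χ g, ((θ g : kˣ) : k) * (χ g)⁻¹]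
      map_one' := by
        rw [hχ1, map_one]
        ext i j
        fin_cases i <;> fin_cases j <;> simp
      map_mul' := fun g h => by
        rw [Matrix.diagonal_mul_diagonal, hχmul, map_mul]
        congr 1
        ext i
        fin_cases i
        · simp
        · simp only [Units.val_mul, Fin.mk_one, Matrix.cons_val_one, Matrix.cons_val_zero]
          have := hχ0 g
          have := hχ0 h
          field_simp }
  have hD : ∀ g, D g = Matrix.diagonal ![χ g, ((θ g : kˣ) : k) * (χ g)⁻¹] := fun _ => rfl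
  refine ⟨D.toHomUnits, ?_, ?_⟩
  · intro g hg hθ
    apply Units.ext
    rw [MonoidHom.coe_toHomUnits, hD]
    have hχg : χ g = 1 := by
      apply hinj
      show χ g • w = (1 : k) • w
      rw [← hχ g, hg, one_smul]
      rfl
    rw [hχg, hθ]
    ext i j
    fin_cases i <;> fin_cases j <;> simp
  · intro g
    rw [MonoidHom.coe_toHomUnits, hD]
    have h0 := hχ0 g
    constructor
    · rw [Matrix.trace_diagonal, Fin.sum_univ_two]
      simp only [Matrix.cons_val_zero, Matrix.cons_val_one]
      field_simp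
      linear_combination hrel g
    · rw [Matrix.det_diagonal, Fin.prod_univ_two]
      simp only [Matrix.cons_val_zero, Matrix.cons_val_one]
      field_simp

/-! ### Case B: no common eigenvector, irreducible -/

theorem exists_rep2_of_irr [IsAlgClosed k] [FiniteDimensional k V] [Nontrivial V]
    (H : QuadRel Φ θ a) (hirr : IsIrr Φ)
    (hno : ¬ ∃ w : V, w ≠ 0 ∧ ∀ g, ∃ c : k, Φ g w = c • w) :
    ∃ ρ₂ : Γ →* GL (Fin 2) k, (∀ g, Φ g = 1 → ρ₂ g = 1) ∧
      ∀ g, ((ρ₂ g : GL (Fin 2) k) : Matrix (Fin 2) (Fin 2) k).trace = a g ∧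
        ((ρ₂ g : GL (Fin 2) k) : Matrix (Fin 2) (Fin 2) k).det = ((θ g : kˣ) : k) := by
  -- a non-scalar element
  obtain ⟨g₀, hg₀⟩ : ∃ g₀, ∀ c : k, Φ g₀ ≠ c • (1 : Module.End k V) := by
    by_contra hcon
    push_neg at hcon
    obtain ⟨w, hw⟩ := exists_ne (0 : V)
    refine hno ⟨w, hw, fun g => ?_⟩
    obtain ⟨c, hc⟩ := hcon g
    exact ⟨c, by rw [hc]; rfl⟩
  have hle := H.finrank_le_two hirr g₀ hg₀
  have hpos : 0 < finrank k V := Module.finrank_pos
  have hne1 : finrank k V ≠ 1 := by
    intro h1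
    obtain ⟨v, hv, hall⟩ := finrank_eq_one_iff'.mp h1
    refine hno ⟨v, hv, fun g => ?_⟩
    obtain ⟨c, hc⟩ := hall (Φ g v)
    exact ⟨c, hc.symm⟩
  have hfin : finrank k V = 2 := by omega
  let b : Basis (Fin 2) k V := Module.finBasisOfFinrankEq k V hfin
  let E : Module.End k V ≃ₐ[k] Matrix (Fin 2) (Fin 2) k := LinearMap.toMatrixAlgEquiv b
  let R : Γ →* Matrix (Fin 2) (Fin 2) k := (E : Module.End k V →* Matrix (Fin 2) (Fin 2) k).comp Φ
  have hR : ∀ g, R g = E (Φ g) := fun _ => rfl
  have hrelE : ∀ g, Φ g * Φ g - a g • Φ g + ((θ g : kˣ) : k) • (1 : Module.End k V) = 0 := by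
    intro g
    ext v
    have := H g v
    simp only [LinearMap.add_apply, LinearMap.sub_apply, Module.End.mul_apply,
      LinearMap.smul_apply, Module.End.one_apply, LinearMap.zero_apply]
    rw [this]
    abel
  have hrel : ∀ g, R g * R g - a g • R g
      + ((θ g : kˣ) : k) • (1 : Matrix (Fin 2) (Fin 2) k) = 0 := by
    intro g
    have := congrArg E (hrelE g)
    simpa [hR] using this
  have hns : ∀ c : k, R g₀ ≠ c • (1 : Matrix (Fin 2) (Fin 2) k) := by
    intro c hc
    apply hg₀ c
    apply E.injective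
    rw [← hR, hc, map_smul, map_one]
  have hθ0 : ∀ g, ((θ g : kˣ) : k) ≠ 0 := fun g => (θ g).ne_zero
  have htd₀ := trace_det_of_quad (hrel g₀) hns
  refine ⟨R.toHomUnits, ?_, ?_⟩
  · intro g hg
    apply Units.ext
    rw [MonoidHom.coe_toHomUnits, hR, hg, map_one]
    rfl
  · intro g
    rw [MonoidHom.coe_toHomUnits]
    by_cases hs : ∃ c : k, R g = c • (1 : Matrix (Fin 2) (Fin 2) k)
    · obtain ⟨c, hc⟩ := hs
      have hc0 : c ≠ 0 := by
        rintro rfl
        rw [zero_smul] at hc
        have h1 : R (g * g⁻¹) = 1 := by rw [mul_inv_cancel, map_one]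
        rw [map_mul, hc, zero_mul] at h1
        exact zero_ne_one h1
      have hgg : R (g * g₀) = c • R g₀ := by
        rw [map_mul, hc, Matrix.smul_mul, one_mul]
      have hns' : ∀ d : k, R (g * g₀) ≠ d • (1 : Matrix (Fin 2) (Fin 2) k) := by
        intro d hd
        apply hns (c⁻¹ * d)
        rw [mul_smul, ← hd, hgg, smul_smul, inv_mul_cancel₀ hc0, one_smul]
      have htd := trace_det_of_quad (hrel (g * g₀)) hns'
      have hdet : ((θ g : kˣ) : k) = c * c := by
        have h2 := htd.2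
        rw [hgg, Matrix.det_smul, Fintype.card_fin, htd₀.2, map_mul, Units.val_mul] at h2
        have h3 : (c * c - ((θ g : kˣ) : k)) * ((θ g₀ : kˣ) : k) = 0 := by
          linear_combination h2
        rcases mul_eq_zero.mp h3 with h4 | h4
        · exact (sub_eq_zero.mp h4).symm
        · exact absurd h4 (hθ0 g₀)
      have hq : c * c - a g * c + ((θ g : kˣ) : k) = 0 := by
        have h2 := hrel g
        rw [hc] at h2
        have h3 := congrFun (congrFun h2 0) 0
        simp only [Matrix.add_apply, Matrix.sub_apply, Matrix.mul_apply, Matrix.smul_apply,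
          Matrix.one_apply, Fin.sum_univ_two, Matrix.zero_apply, smul_eq_mul] at h3
        simpa using h3
      have ha : a g = 2 * c := by
        have h3 : c * (2 * c - a g) = 0 := by
          rw [hdet] at hq
          linear_combination hq
        rcases mul_eq_zero.mp h3 with h4 | h4
        · exact absurd h4 hc0
        · exact (sub_eq_zero.mp h4).symm
      rw [hc]
      constructor
      · rw [Matrix.trace_smul, Matrix.trace_one, Fintype.card_fin, ha]
        simp [mul_comm]
      · rw [Matrix.det_smul, Fintype.card_fin, Matrix.det_one, hdet]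
        ring
    · push_neg at hs
      exact trace_det_of_quad (hrel g) hs

/-! ### The abstract statement -/

theorem exists_rep2 [IsAlgClosed k] [FiniteDimensional k V] [Nontrivial V]
    (Φ : Γ →* Module.End k V) (θ : Γ →* kˣ) (a : Γ → k) (H : QuadRel Φ θ a) :
    ∃ ρ₂ : Γ →* GL (Fin 2) k, (∀ g, Φ g = 1 → θ g = 1 → ρ₂ g = 1) ∧
      ∀ g, ((ρ₂ g : GL (Fin 2) k) : Matrix (Fin 2) (Fin 2) k).trace = a g ∧
        ((ρ₂ g : GL (Fin 2) k) : Matrix (Fin 2) (Fin 2) k).det = ((θ g : kˣ) : k) := by
  by_cases hA : ∃ w : V, w ≠ 0 ∧ ∀ g, ∃ c : k, Φ g w = c • w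
  · obtain ⟨w, hw, hev⟩ := hA
    exact exists_rep2_of_eigenvector H hw hev
  · obtain ⟨W, hW, hW0, hmin⟩ := exists_minimal_inv Φ
    have : Nontrivial W := Submodule.nontrivial_iff_ne_bot.mpr hW0
    have hno : ¬ ∃ w : W, w ≠ 0 ∧ ∀ g, ∃ c : k, resRep Φ W hW g w = c • w := by
      rintro ⟨w, hw, hev⟩
      refine hA ⟨(w : V), fun h => hw (Subtype.ext h), fun g => ?_⟩
      obtain ⟨c, hc⟩ := hev g
      exact ⟨c, congrArg Subtype.val hc⟩
    obtain ⟨ρ₂, h1, h2⟩ := exists_rep2_of_irr (H.resRep W hW) (isIrr_resRep Φ W hW hmin) hno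
    refine ⟨ρ₂, fun g hg _ => h1 g ?_, h2⟩
    ext w
    simp [hg]

end Fermat.Agent.S48.B.H46

end
-- ==== END Fermat.Agent.S48.B.H46_SmallCore

-- ==== BEGIN Fermat.Agent.S48.B1.H22_Eis1Cot
section

/-!
# S48 B1 (a): weight one Eisenstein series, part 1 — the cotangent form (helper22)

`cotP w = π cot (π w)`.  For `Im w > 0` it is `-π i - 2 π i x / (1 - x)`, `x = exp (2 π i w)`,
hence `cotP w + π i` is exponentially small as `Im w → ∞`.

`Zc z τ = cotP z + ∑_{m ≥ 1} (cotP (z + m τ) + cotP (z - m τ))` is the "Eisenstein summation" form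
of `ζ(z; τ) - G₂(τ) z` (Weierstrass zeta function).
-/

set_option autoImplicit false

open UpperHalfPlane hiding I
open Complex Filter Topology
open scoped Real

noncomputable section

namespace Fermat.Agent.S48.B1.H22

/-- `π cot (π w)`. -/
def cotP (w : ℂ) : ℂ := π * Complex.cot (π * w)

theorem cotP_eq_exp_ratio (w : ℂ) :
    cotP w = π * ((cexp (2 * π * I * w) + 1) / (I * (1 - cexp (2 * π * I * w)))) := by
  rw [cotP, Complex.cot_pi_eq_exp_ratio]

theorem exp_two_pi_I_add_one (w : ℂ) : cexp (2 * π * I * (w + 1)) = cexp (2 * π * I * w) := by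
  rw [mul_add, mul_one, Complex.exp_add, Complex.exp_two_pi_mul_I, mul_one]

theorem cotP_add_one (w : ℂ) : cotP (w + 1) = cotP w := by
  rw [cotP_eq_exp_ratio, cotP_eq_exp_ratio, exp_two_pi_I_add_one]

theorem cotP_sub_one (w : ℂ) : cotP (w - 1) = cotP w := by
  have := cotP_add_one (w - 1)
  rw [sub_add_cancel] at this
  exact this.symm

theorem cotP_add_int (w : ℂ) (n : ℤ) : cotP (w + n) = cotP w := by
  induction n using Int.induction_on with
  | zero => simp
  | succ k ih =>
    rw [show w + ((k + 1 : ℤ) : ℂ) = (w + k) + 1 by push_cast; ring, cotP_add_one]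
    exact_mod_cast ih
  | pred k ih =>
    rw [show w + ((-(k : ℤ) - 1 : ℤ) : ℂ) = (w + (-(k : ℤ) : ℤ)) - 1 by push_cast; ring,
      cotP_sub_one]
    exact ih

theorem cotP_neg (w : ℂ) : cotP (-w) = -cotP w := by
  unfold cotP
  rw [mul_neg, Complex.cot, Complex.cos_neg, Complex.sin_neg, Complex.cot]
  ring

/-- The nome `exp (2 π i w)`. -/
def nome (w : ℂ) : ℂ := cexp (2 * π * I * w)

theorem norm_nome (w : ℂ) : ‖nome w‖ = Real.exp (-2 * π * w.im) := by
  rw [nome, Complex.norm_exp]
  congr 1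
  simp only [mul_re, re_ofNat, ofReal_re, im_ofNat, ofReal_im, mul_zero, sub_zero, Complex.I_re,
    mul_im, zero_mul, add_zero, Complex.I_im]
  ring

theorem norm_nome_lt_one {w : ℂ} (hw : 0 < w.im) : ‖nome w‖ < 1 := by
  rw [norm_nome, Real.exp_lt_one_iff]
  have := Real.pi_pos
  nlinarith

theorem nome_ne_one {w : ℂ} (hw : 0 < w.im) : nome w ≠ 1 := by
  intro h
  have := norm_nome_lt_one hw
  rw [h, norm_one] at this
  exact lt_irrefl _ this

/-- For `Im w > 0`: `π cot (π w) + π i = -2 π i x / (1 - x)`. -/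
theorem cotP_add_pi_I {w : ℂ} (hw : 0 < w.im) :
    cotP w + π * I = -2 * π * I * (nome w / (1 - nome w)) := by
  rw [cotP_eq_exp_ratio]
  have h1 : (1 : ℂ) - nome w ≠ 0 := sub_ne_zero.2 (nome_ne_one hw).symm
  change π * ((nome w + 1) / (I * (1 - nome w))) + π * I = _
  field_simp
  ring_nf
  rw [Complex.I_sq]
  ring

/-- The exponential bound for `cotP w + π i`. -/
theorem norm_cotP_add_pi_I_le {w : ℂ} {t : ℝ} (ht : 0 < t) (hw : t ≤ w.im) :
    ‖cotP w + π * I‖ ≤ 2 * π * (Real.exp (-2 * π * t) / (1 - Real.exp (-2 * π * t))) := by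
  have hw0 : 0 < w.im := lt_of_lt_of_le ht hw
  rw [cotP_add_pi_I hw0]
  have hx : ‖nome w‖ ≤ Real.exp (-2 * π * t) := by
    rw [norm_nome]
    apply Real.exp_le_exp.2
    have := Real.pi_pos
    nlinarith
  have hx1 : Real.exp (-2 * π * t) < 1 := by
    rw [Real.exp_lt_one_iff]
    have := Real.pi_pos
    nlinarith
  have hx0 : 0 ≤ ‖nome w‖ := norm_nonneg _
  have hden : 1 - Real.exp (-2 * π * t) ≤ ‖1 - nome w‖ := by
    have := norm_sub_norm_le (1 : ℂ) (nome w)
    rw [norm_one] at this
    linarith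
  have hden0 : 0 < 1 - Real.exp (-2 * π * t) := by linarith
  rw [norm_mul, norm_div]
  have h2 : ‖(-2 * π * I : ℂ)‖ = 2 * π := by
    simp [abs_of_pos Real.pi_pos]
  rw [h2]
  apply mul_le_mul_of_nonneg_left _ (by positivity)
  exact div_le_div₀ (Real.exp_pos _).le hx hden0 hden

theorem natCast_mul_coe_im (n : ℕ) (τ : ℍ) : ((n : ℂ) * (τ : ℂ)).im = n * τ.im := by
  simp

theorem intCast_mul_coe_im (n : ℤ) (τ : ℍ) : ((n : ℂ) * (τ : ℂ)).im = n * τ.im := by
  simp

/-- The `m`-th term of the cotangent form. -/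
def zcTerm (z : ℂ) (τ : ℍ) (m : ℕ) : ℂ :=
  cotP (z + (m : ℂ) * (τ : ℂ)) + cotP (z - (m : ℂ) * (τ : ℂ))

theorem zcTerm_eq (z : ℂ) (τ : ℍ) (m : ℕ) :
    zcTerm z τ m = (cotP (z + (m : ℂ) * (τ : ℂ)) + π * I) - (cotP ((m : ℂ) * (τ : ℂ) - z) + π * I) := by
  rw [zcTerm, show z - (m : ℂ) * (τ : ℂ) = -((m : ℂ) * (τ : ℂ) - z) by ring, cotP_neg]
  ring

/-- Bound for the `m`-th term when both `z + m τ` and `m τ - z` have imaginary part `≥ t`. -/
theorem norm_zcTerm_le (z : ℂ) (τ : ℍ) (m : ℕ) {t : ℝ} (ht : 0 < t)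
    (h1 : t ≤ (z + (m : ℂ) * (τ : ℂ)).im) (h2 : t ≤ ((m : ℂ) * (τ : ℂ) - z).im) :
    ‖zcTerm z τ m‖ ≤ 4 * π * (Real.exp (-2 * π * t) / (1 - Real.exp (-2 * π * t))) := by
  rw [zcTerm_eq]
  refine (norm_sub_le _ _).trans ?_
  have a := norm_cotP_add_pi_I_le ht h1
  have b := norm_cotP_add_pi_I_le ht h2
  linarith

/-- The cotangent form `Zc z τ = π cot π z + ∑_{m ≥ 1} (π cot π(z + mτ) + π cot π(z - mτ))`. -/
def Zc (z : ℂ) (τ : ℍ) : ℂ := cotP z + ∑' m : ℕ, zcTerm z τ (m + 1)

theorem zcTerm_add_one (z : ℂ) (τ : ℍ) (m : ℕ) : zcTerm (z + 1) τ m = zcTerm z τ m := by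
  unfold zcTerm
  rw [show z + 1 + (m : ℂ) * (τ : ℂ) = (z + (m : ℂ) * (τ : ℂ)) + 1 by ring,
    show z + 1 - (m : ℂ) * (τ : ℂ) = (z - (m : ℂ) * (τ : ℂ)) + 1 by ring, cotP_add_one,
    cotP_add_one]

theorem Zc_add_one (z : ℂ) (τ : ℍ) : Zc (z + 1) τ = Zc z τ := by
  unfold Zc
  rw [cotP_add_one]
  congr 1
  exact tsum_congr fun m => zcTerm_add_one z τ (m + 1)

theorem Zc_add_int (z : ℂ) (τ : ℍ) (n : ℤ) : Zc (z + n) τ = Zc z τ := by
  induction n using Int.induction_on with
  | zero => simp
  | succ k ih =>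
    rw [show z + ((k + 1 : ℤ) : ℂ) = (z + k) + 1 by push_cast; ring, Zc_add_one]
    exact_mod_cast ih
  | pred k ih =>
    have h := Zc_add_one (z + ((-(k : ℤ) - 1 : ℤ) : ℂ)) τ
    rw [show z + ((-(k : ℤ) - 1 : ℤ) : ℂ) + 1 = z + ((-(k : ℤ) : ℤ) : ℂ) by push_cast; ring] at h
    rw [← h]
    exact ih

/-- A geometric majorant: `exp (-2π t m)`-type bound. -/
theorem exp_div_le {x : ℝ} (hx0 : 0 ≤ x) (hx : x ≤ 1 / 2) : x / (1 - x) ≤ 2 * x := by
  rw [div_le_iff₀ (by linarith)]
  nlinarith

theorem summable_zcTerm (z : ℂ) (τ : ℍ) : Summable fun m : ℕ => zcTerm z τ (m + 1) := by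
  have hy : 0 < τ.im := τ.im_pos
  -- eventually `m τ.im - |z.im| ≥ m τ.im / 2` and `exp(-π m y) ≤ 1/2`
  have hgeo : Summable fun m : ℕ => 8 * π * Real.exp (-π * τ.im) ^ m := by
    apply Summable.mul_left
    apply summable_geometric_of_lt_one (Real.exp_pos _).le
    rw [Real.exp_lt_one_iff]
    have := Real.pi_pos
    nlinarith
  refine Summable.of_norm_bounded_eventually_nat hgeo ?_
  obtain ⟨M, hM⟩ := exists_nat_gt (max (2 * |z.im| / τ.im) (1 / τ.im))
  filter_upwards [eventually_ge_atTop M] with m hm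
  have hmM : (M : ℝ) ≤ m := by exact_mod_cast hm
  have h1 : 2 * |z.im| / τ.im < m := lt_of_lt_of_le ((le_max_left _ _).trans_lt hM) hmM
  have h2 : 1 / τ.im < m := lt_of_lt_of_le ((le_max_right _ _).trans_lt hM) hmM
  rw [div_lt_iff₀ hy] at h1 h2
  set t : ℝ := (m : ℝ) * τ.im / 2 with ht
  have ht0 : 0 < t := by
    rw [ht]
    linarith
  have hz := abs_le.1 (le_refl |z.im|)
  have himτ : (((m + 1 : ℕ) : ℂ) * (τ : ℂ)).im = (m : ℝ) * τ.im + τ.im := by
    rw [natCast_mul_coe_im]
    push_cast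
    ring
  have him1 : t ≤ (z + ((m + 1 : ℕ) : ℂ) * (τ : ℂ)).im := by
    rw [add_im, himτ, ht]
    linarith [hz.1]
  have him2 : t ≤ (((m + 1 : ℕ) : ℂ) * (τ : ℂ) - z).im := by
    rw [sub_im, himτ, ht]
    linarith [hz.2]
  refine (norm_zcTerm_le z τ (m + 1) ht0 him1 him2).trans ?_
  have hx : Real.exp (-2 * π * t) = Real.exp (-π * τ.im) ^ m := by
    rw [← Real.exp_nat_mul]
    congr 1
    rw [ht]
    ring
  have hxle : Real.exp (-2 * π * t) ≤ 1 / 2 := by
    have h3 : -2 * π * t ≤ -1 := by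
      have := Real.pi_gt_three
      rw [ht]
      nlinarith
    calc Real.exp (-2 * π * t) ≤ Real.exp (-1) := Real.exp_le_exp.2 h3
      _ ≤ 1 / 2 := by
        have := Real.exp_neg_one_lt_d9
        norm_num at this ⊢
        linarith
  have := exp_div_le (Real.exp_pos _).le hxle
  rw [← hx]
  have hpi := Real.pi_pos
  nlinarith

end Fermat.Agent.S48.B1.H22

end
end
-- ==== END Fermat.Agent.S48.B1.H22_Eis1Cot

-- ==== BEGIN Fermat.Agent.S48.B1.H96_Descent
section

set_option autoImplicit false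

namespace Fermat.Agent.S48.B1.H96

section descent

variable {V : Type*} [AddCommGroup V] [Module ℂ V]

/-- The elements of `W` whose support is contained in the support of `g`. -/
def suppSub (c : V →ₗ[ℂ] (ℕ → ℂ)) (W : Submodule ℂ V) (g : V) : Submodule ℂ V where
  carrier := {h | h ∈ W ∧ ∀ n, c g n = 0 → c h n = 0}
  add_mem' := by
    rintro a b ⟨ha, ha'⟩ ⟨hb, hb'⟩
    refine ⟨W.add_mem ha hb, fun n hn => ?_⟩
    rw [map_add, Pi.add_apply, ha' n hn, hb' n hn, add_zero]
  zero_mem' := ⟨W.zero_mem, fun n _ => by rw [map_zero, Pi.zero_apply]⟩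
  smul_mem' := by
    rintro r a ⟨ha, ha'⟩
    refine ⟨W.smul_mem r ha, fun n hn => ?_⟩
    rw [map_smul, Pi.smul_apply, ha' n hn, smul_zero]

theorem mem_suppSub (c : V →ₗ[ℂ] (ℕ → ℂ)) (W : Submodule ℂ V) (g h : V) :
    h ∈ suppSub c W g ↔ h ∈ W ∧ ∀ n, c g n = 0 → c h n = 0 := Iff.rfl

variable [FiniteDimensional ℂ V]

/-- **Descent**: an element of minimal support normalised at `i₀` is fixed. -/
theorem exists_fixed_of_stable (c : V →ₗ[ℂ] (ℕ → ℂ)) (S : Set (ℂ →+* ℂ)) (W : Submodule ℂ V)
    (hW : ∀ σ ∈ S, ∀ v ∈ W, ∃ v' ∈ W, ∀ n, c v' n = σ (c v n))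
    (i₀ : ℕ) (f : V) (hf : f ∈ W) (hf1 : c f i₀ = 1) :
    ∃ f' ∈ W, c f' i₀ = 1 ∧ ∀ σ ∈ S, ∀ n, σ (c f' n) = c f' n := by
  have key : ∀ d : ℕ, ∀ g : V, g ∈ W → c g i₀ = 1 →
      Module.finrank ℂ (suppSub c W g) ≤ d →
      ∃ f' ∈ W, c f' i₀ = 1 ∧ ∀ σ ∈ S, ∀ n, σ (c f' n) = c f' n := by
    intro d
    induction d with
    | zero =>
      intro g hg hg1 hd
      exfalso
      have h0 : suppSub c W g = ⊥ := by
        apply Submodule.finrank_eq_zero.mp
        exact Nat.le_zero.mp hd
      have hmem : g ∈ suppSub c W g := ⟨hg, fun n hn => hn⟩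
      rw [h0, Submodule.mem_bot] at hmem
      rw [hmem, map_zero, Pi.zero_apply] at hg1
      exact zero_ne_one hg1
    | succ d ih =>
      intro g hg hg1 hd
      by_cases hfix : ∀ σ ∈ S, ∀ n, σ (c g n) = c g n
      · exact ⟨g, hg, hg1, hfix⟩
      · push Not at hfix
        obtain ⟨σ, hσ, n₀, hn₀⟩ := hfix
        obtain ⟨gσ, hgσW, hgσ⟩ := hW σ hσ g hg
        set h : V := g - gσ with hh
        have hhW : h ∈ W := W.sub_mem hg hgσW
        have hc : ∀ n, c h n = c g n - σ (c g n) := by
          intro n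
          rw [hh, map_sub, Pi.sub_apply, hgσ]
        have hh1 : c h i₀ = 0 := by rw [hc, hg1, map_one, sub_self]
        have hhn₀ : c h n₀ ≠ 0 := by
          rw [hc]
          exact fun h0 => hn₀ (sub_eq_zero.mp h0).symm
        have hgn₀ : c g n₀ ≠ 0 := by
          intro h0
          apply hhn₀
          rw [hc, h0, map_zero, sub_zero]
        set g' : V := g - (c g n₀ / c h n₀) • h with hg'
        have hg'W : g' ∈ W := W.sub_mem hg (W.smul_mem _ hhW)
        have hc' : ∀ n, c g' n = c g n - (c g n₀ / c h n₀) * c h n := by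
          intro n
          rw [hg', map_sub, map_smul, Pi.sub_apply, Pi.smul_apply, smul_eq_mul]
        have hg'1 : c g' i₀ = 1 := by rw [hc', hh1, mul_zero, sub_zero, hg1]
        have hg'n₀ : c g' n₀ = 0 := by
          rw [hc', div_mul_cancel₀ _ hhn₀, sub_self]
        have hsupp : ∀ n, c g n = 0 → c g' n = 0 := by
          intro n hn
          have h0 : c h n = 0 := by rw [hc, hn, map_zero, sub_zero]
          rw [hc', h0, hn, mul_zero, sub_zero]
        have hlt : suppSub c W g' < suppSub c W g := by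
          refine lt_of_le_of_ne ?_ ?_
          · rintro x ⟨hxW, hx⟩
            exact ⟨hxW, fun n hn => hx n (hsupp n hn)⟩
          · intro heq
            have hmem : g ∈ suppSub c W g := ⟨hg, fun n hn => hn⟩
            rw [← heq] at hmem
            exact hgn₀ (hmem.2 n₀ hg'n₀)
        have hlt' := Submodule.finrank_lt_finrank_of_lt hlt
        exact ih g' hg'W hg'1 (by omega)
  exact key _ f hf hf1 le_rfl

end descent

section fix

open MvPolynomial

/-- The "shift one variable" automorphism of a polynomial ring over a field `K₀`. -/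
noncomputable def shiftEquivK (K₀ : Type) [Field K₀] {ι : Type} [DecidableEq ι] (i₀ : ι) :
    MvPolynomial ι K₀ ≃ₐ[K₀] MvPolynomial ι K₀ :=
  AlgEquiv.ofAlgHom
    (MvPolynomial.aeval fun i => if i = i₀ then (X i + 1 : MvPolynomial ι K₀) else X i)
    (MvPolynomial.aeval fun i => if i = i₀ then (X i - 1 : MvPolynomial ι K₀) else X i)
    (by
      ext i
      by_cases h : i = i₀ <;> simp [h])
    (by
      ext i
      by_cases h : i = i₀ <;> simp [h])

theorem shiftEquivK_X (K₀ : Type) [Field K₀] {ι : Type} [DecidableEq ι] (i₀ : ι) :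
    shiftEquivK K₀ i₀ (X i₀) = X i₀ + 1 := by
  simp [shiftEquivK]

/-- A transcendental number is moved by an automorphism of `ℂ` fixing all algebraic numbers. -/
theorem exists_ringEquiv_fix_ne {x : ℂ} (hx : Transcendental ℚ x) :
    ∃ σ : ℂ ≃+* ℂ, (∀ y : ℂ, IsAlgebraic ℚ y → σ y = y) ∧ σ x ≠ x := by
  classical
  have hxK : Transcendental (algebraicClosure ℚ ℂ) x := by
    intro halg
    have : Algebra.IsAlgebraic ℚ (algebraicClosure ℚ ℂ) := algebraicClosure.isAlgebraic ℚ ℂ
    exact hx (halg.restrictScalars ℚ)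
  let K₀ := algebraicClosure ℚ ℂ
  have hs : AlgebraicIndepOn K₀ id ({x} : Set ℂ) := by
    have : AlgebraicIndependent K₀ (fun i : ({x} : Set ℂ) => (i : ℂ)) := by
      rw [algebraicIndependent_unique_type_iff]
      simpa using hxK
    exact this
  obtain ⟨t, hst, ht⟩ := exists_isTranscendenceBasis_superset hs
  let i₀ : t := ⟨x, hst rfl⟩
  obtain ⟨σ, hσ⟩ := Fermat.Agent.S23.H77.exists_ringEquiv_of_mvPolynomial_equiv (K₀ := K₀) _ ht
    (shiftEquivK K₀ i₀).toRingEquiv
  refine ⟨σ, fun y hy => ?_, ?_⟩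
  · have hyK : y ∈ K₀ := (mem_algebraicClosure_iff).2 hy
    have h := hσ (C (⟨y, hyK⟩ : K₀))
    have h2 : (shiftEquivK K₀ i₀).toRingEquiv (C (⟨y, hyK⟩ : K₀)) = C (⟨y, hyK⟩ : K₀) := by
      have := (shiftEquivK K₀ i₀).commutes (⟨y, hyK⟩ : K₀)
      simpa [MvPolynomial.algebraMap_eq] using this
    rw [h2] at h
    simp only [aeval_C] at h
    exact h
  · have h := hσ (X i₀)
    have h2 : (shiftEquivK K₀ i₀).toRingEquiv (X i₀) = X i₀ + 1 := shiftEquivK_X K₀ i₀
    rw [h2] at h
    simp only [aeval_X, map_add, map_one] at h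
    intro hfix
    have hx' : ((i₀ : t) : ℂ) = x := rfl
    rw [hx'] at h
    rw [hfix] at h
    simp at h

/-- A complex number fixed by all ring endomorphisms of `ℂ` which fix the algebraic numbers is
algebraic. -/
theorem isAlgebraic_of_forall_fixed (x : ℂ)
    (h : ∀ σ : ℂ →+* ℂ, (∀ y : ℂ, IsAlgebraic ℚ y → σ y = y) → σ x = x) : IsAlgebraic ℚ x := by
  by_contra hx
  obtain ⟨σ, hσ, hne⟩ := exists_ringEquiv_fix_ne hx
  exact hne (h σ.toRingHom hσ)

end fix

section denominators

/-- An algebraic number has a nonzero natural multiple which is integral. -/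
theorem exists_nat_mul_isIntegral {x : ℂ} (hx : IsAlgebraic ℚ x) :
    ∃ d : ℕ, d ≠ 0 ∧ IsIntegral ℤ ((d : ℂ) * x) := by
  have hx' : IsAlgebraic ℤ x := (IsFractionRing.isAlgebraic_iff ℤ ℚ ℂ).mpr hx
  obtain ⟨y, hy0, hy⟩ := hx'.exists_integral_multiple
  refine ⟨y.natAbs, Int.natAbs_ne_zero.mpr hy0, ?_⟩
  rcases Int.natAbs_eq y with h | h
  · have e : ((y.natAbs : ℕ) : ℂ) * x = y • x := by
      rw [zsmul_eq_mul]
      congr 1
      conv_rhs => rw [h]
      simp
    rw [e]
    exact hy
  · have e : ((y.natAbs : ℕ) : ℂ) * x = -(y • x) := by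
      rw [zsmul_eq_mul, ← neg_mul]
      congr 1
      conv_rhs => rw [h]
      simp
    rw [e]
    exact hy.neg

/-- Algebraic numbers in a finitely generated subgroup of `ℂ` have a common denominator. -/
theorem exists_common_denominator (Λ : Submodule ℤ ℂ) (hΛ : Λ.FG) (a : ℕ → ℂ)
    (ha : ∀ n, a n ∈ Λ) (halg : ∀ n, IsAlgebraic ℚ (a n)) :
    ∃ D : ℕ, D ≠ 0 ∧ ∀ n, IsIntegral ℤ ((D : ℂ) * a n) := by
  classical
  -- the subgroup generated by the `a n`
  set M : Submodule ℤ ℂ := Submodule.span ℤ (Set.range a) with hM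
  have hMΛ : M ≤ Λ := Submodule.span_le.mpr (by rintro _ ⟨n, rfl⟩; exact ha n)
  have hnoeth : IsNoetherian ℤ Λ := isNoetherian_of_fg_of_noetherian Λ hΛ
  have hMfg : M.FG := by
    have h1 : (M.comap Λ.subtype).FG := IsNoetherian.noetherian _
    have h2 := h1.map Λ.subtype
    rwa [Submodule.map_comap_subtype, inf_eq_right.mpr hMΛ] at h2
  have hMalg : ∀ x ∈ M, IsAlgebraic ℚ x := by
    intro x hx
    induction hx using Submodule.span_induction with
    | mem y hy =>
      obtain ⟨n, rfl⟩ := hy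
      exact halg n
    | zero => exact isAlgebraic_zero
    | add y z _ _ hy hz => exact hy.add hz
    | smul r y _ hy =>
      rw [zsmul_eq_mul]
      exact (isAlgebraic_intCast r).mul hy
  obtain ⟨T, hT⟩ := hMfg
  have hTM : ∀ t ∈ T, t ∈ M := fun t ht => hT ▸ Submodule.subset_span ht
  choose! d hd0 hd using fun t (ht : t ∈ T) => exists_nat_mul_isIntegral (hMalg t (hTM t ht))
  refine ⟨∏ t ∈ T, d t, Finset.prod_ne_zero_iff.mpr hd0, fun n => ?_⟩
  have hn : a n ∈ Submodule.span ℤ (T : Set ℂ) := by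
    rw [hT]
    exact Submodule.subset_span ⟨n, rfl⟩
  generalize a n = z at hn
  induction hn using Submodule.span_induction with
  | mem y hy =>
    have hy' : y ∈ T := hy
    rw [← Finset.mul_prod_erase T d hy']
    push_cast
    have : (d y : ℂ) * (∏ t ∈ T.erase y, (d t : ℂ)) * y
        = (∏ t ∈ T.erase y, (d t : ℂ)) * ((d y : ℂ) * y) := by ring
    rw [this]
    refine IsIntegral.mul ?_ (hd y hy')
    exact IsIntegral.prod _ (fun t _ => isIntegral_natCast (R := ℤ) (d t))
  | zero => rw [mul_zero]; exact isIntegral_zero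
  | add y z _ _ hy hz => rw [mul_add]; exact hy.add hz
  | smul r y _ hy =>
    rw [zsmul_eq_mul, mul_left_comm]
    exact (isIntegral_intCast (R := ℤ) r).mul hy

end denominators

end Fermat.Agent.S48.B1.H96

end
-- ==== END Fermat.Agent.S48.B1.H96_Descent

-- ==== BEGIN Fermat.Agent.S48.B2.R.H34_Brup
section

/-!
# S48, B2, slice R, leaf BRUP (helper34): branch values do not grow in unramified extensions

* `isBranchValue_of_two_le_ord` : a place `v` with `ord_v (x - ρ) ≥ 2` makes `ρ` a branch value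
  of `x` (converse of `RED.H76.exists_two_le_ord_of_isBranchValue`).
* `isBranchValue_iff_exists_two_le_ord`.
* `ramificationIndexAlong_eq_one` : a place with a uniformiser in the image of `φ` has
  ramification index `1` along `φ`.
* `brup` : if every place of `F'` has a uniformiser in `φ F` (`F'/F` unramified), then every
  branch value of `φ x` on `F'` is a branch value of `x` on `F`.
-/

set_option autoImplicit false
set_option linter.style.haveILetI false
set_option synthInstance.maxHeartbeats 400000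
set_option maxHeartbeats 1000000

noncomputable section

open AlgebraicCurve IntermediateField

namespace Fermat.Agent.S48.B2.R.H34

open Fermat.Agent.RED.H34 Fermat.Agent.RED.H51 Fermat.Agent.RED.H76

section Generic

variable {K F : Type} [Field K] [Field F] [Algebra K F]

/-- A ramified place over `x = ρ` makes `ρ` a branch value. -/
theorem isBranchValue_of_two_le_ord [IsAlgClosed K] [CharZero K] (x : F)
    (hx : Transcendental K x) [FiniteDimensional K⟮x⟯ F] (ρ : K) (v₀ : Place K F)
    (hv₀ : 2 ≤ v₀.ord (x - algebraMap K F ρ)) : IsBranchValue x ρ := by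
  classical
  haveI := isSeparable_adjoin_simple (K := K) x
  rw [isBranchValue_iff x hx ρ]
  set y : F := x - algebraMap K F ρ with hy
  have hyt : Transcendental K y := transcendental_sub_algebraMap hx ρ
  have hKy : K⟮y⟯ = K⟮x⟯ := adjoin_simple_sub_algebraMap x ρ
  haveI : FiniteDimensional K⟮y⟯ F := by
    rw [hKy]
    infer_instance
  obtain ⟨hfin, hsum⟩ := Fermat.Agent.S24.ff_zeros y hyt
  have hrank : Module.finrank K⟮y⟯ F = Module.finrank K⟮x⟯ F :=
    congrArg (fun E : IntermediateField K F => Module.finrank E F) hKy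
  rw [finsum_mem_eq_finite_toFinset_sum _ hfin, hrank] at hsum
  have hcard : Nat.card {v : Place K F // 0 < v.ord y} = hfin.toFinset.card := by
    rw [← Set.ncard_eq_toFinset_card _ hfin]
    exact Nat.card_coe_set_eq _
  rw [hcard]
  have hmem : v₀ ∈ hfin.toFinset := by
    rw [Set.Finite.mem_toFinset]
    show 0 < v₀.ord y
    omega
  have hlt : ∑ v ∈ hfin.toFinset, (1 : ℤ) < ∑ v ∈ hfin.toFinset, v.ord y := by
    apply Finset.sum_lt_sum
    · intro v hv
      rw [Set.Finite.mem_toFinset] at hv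
      have : 0 < v.ord y := hv
      omega
    · exact ⟨v₀, hmem, by omega⟩
  rw [Finset.sum_const, nsmul_eq_mul, mul_one, hsum] at hlt
  exact_mod_cast hlt

theorem isBranchValue_iff_exists_two_le_ord [IsAlgClosed K] [CharZero K] (x : F)
    (hx : Transcendental K x) [FiniteDimensional K⟮x⟯ F] (ρ : K) :
    IsBranchValue x ρ ↔ ∃ v : Place K F, 2 ≤ v.ord (x - algebraMap K F ρ) :=
  ⟨exists_two_le_ord_of_isBranchValue x hx ρ,
    fun ⟨v, hv⟩ => isBranchValue_of_two_le_ord x hx ρ v hv⟩

end Generic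

section Along

variable {K F F' : Type} [Field K] [Field F] [Field F'] [Algebra K F] [Algebra K F']

/-- A place of `F'` with a uniformiser in `φ F` is unramified along `φ`. -/
theorem ramificationIndexAlong_eq_one (φ : F →ₐ[K] F') (hφ : φ.toRingHom.IsIntegral)
    (w : Place K F') (t : F) (ht : w.ord (φ t) = 1) :
    Place.ramificationIndexAlong φ w = 1 := by
  have h := Place.ord_restrictAlong φ hφ w t
  rw [ht] at h
  have h1 : (Place.ramificationIndexAlong φ w : ℤ) ∣ 1 := ⟨_, h⟩
  have h2 : (Place.ramificationIndexAlong φ w : ℤ) = 1 := by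
    rcases Int.isUnit_iff.mp (isUnit_of_dvd_one h1) with h3 | h3
    · exact h3
    · have : (0 : ℤ) ≤ (Place.ramificationIndexAlong φ w : ℤ) := Int.natCast_nonneg _
      omega
  exact_mod_cast h2

/-- In an unramified extension the orders do not change. -/
theorem ord_map_of_unramified (φ : F →ₐ[K] F') (hφ : φ.toRingHom.IsIntegral)
    (w : Place K F') (t : F) (ht : w.ord (φ t) = 1) (f : F) :
    w.ord (φ f) = (w.restrictAlong φ hφ).ord f := by
  rw [Place.ord_restrictAlong φ hφ w f, ramificationIndexAlong_eq_one φ hφ w t ht]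
  simp

/-- **BRUP**: in an unramified extension `F'/φ F`, a branch value of `φ x` is a branch value
of `x`. -/
theorem brup [IsAlgClosed K] [CharZero K] (φ : F →ₐ[K] F') (hφ : φ.toRingHom.IsIntegral)
    (hunr : ∀ w : Place K F', ∃ t : F, w.ord (φ t) = 1)
    (x : F) (hx : Transcendental K x) [FiniteDimensional K⟮x⟯ F]
    [FiniteDimensional K⟮φ x⟯ F'] (ρ : K) (h : IsBranchValue (φ x) ρ) :
    IsBranchValue x ρ := by
  have hx' : Transcendental K (φ x) := by
    intro halg
    apply hx
    exact (isAlgebraic_algHom_iff φ φ.toRingHom.injective).mp halg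
  obtain ⟨w, hw⟩ := exists_two_le_ord_of_isBranchValue (φ x) hx' ρ h
  obtain ⟨t, ht⟩ := hunr w
  have h1 : φ x - algebraMap K F' ρ = φ (x - algebraMap K F ρ) := by
    rw [map_sub, AlgHom.commutes]
  rw [h1, ord_map_of_unramified φ hφ w t ht] at hw
  exact isBranchValue_of_two_le_ord x hx ρ _ hw

end Along

end Fermat.Agent.S48.B2.R.H34

end
end
-- ==== END Fermat.Agent.S48.B2.R.H34_Brup

-- ==== BEGIN Fermat.Agent.S48.B2.R.H34_Desc
section

/-!
# S48, B2, slice R, leaf DESC (helper34): norm descent of the Kummer form of torsion injectivity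

* `kummer_descent_norm` : `φ : F → F'` finite of degree `d`, `gcd(m, d) = 1`, `f ∈ F` with
  `φ f = t ^ m`, `t ∈ F'`  ⟹  `f = s ^ m`, `s ∈ F`   (`s = f^a N(t)^b`, `a m + b d = 1`).
* `ticoreAt_descent` : the Kummer form of torsion injectivity (`RED.TIcoreFor`, at ONE exponent
  `m`) descends from `F'` to `F ≤ F'` (both inside `C((q))`) if `gcd(m, [F' : F]) = 1`.
-/

set_option autoImplicit false
set_option linter.style.haveILetI false
set_option synthInstance.maxHeartbeats 400000
set_option maxHeartbeats 1000000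

noncomputable section

open AlgebraicCurve IntermediateField

namespace Fermat.Agent.S48.B2.R.H34

section Abstract

variable {K F F' : Type} [Field K] [Field F] [Field F'] [Algebra K F] [Algebra K F']

/-- **Kummer descent by the norm.** -/
theorem kummer_descent_norm (φ : F →ₐ[K] F') (hφ : FiniteAlong K φ) (m : ℕ)
    (hcop : Nat.Coprime m (finrankAlong K φ)) (f : F) (t : F') (ht : t ^ m = φ f) :
    ∃ s : F, s ^ m = f := by
  letI := algebraAlong φ
  haveI : Module.Finite F F' := hφ
  by_cases hm : m = 0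
  · refine ⟨1, ?_⟩
    rw [hm, pow_zero] at ht ⊢
    apply φ.toRingHom.injective
    show φ 1 = φ f
    rw [map_one, ← ht]
  by_cases hf : f = 0
  · exact ⟨0, by rw [zero_pow hm, hf]⟩
  set d : ℕ := Module.finrank F F' with hd
  have hd' : finrankAlong K φ = d := rfl
  rw [hd'] at hcop
  set N : F := Algebra.norm F t with hN
  have hNpow : N ^ m = f ^ d := by
    rw [hN, ← map_pow, ht]
    exact Algebra.norm_algebraMap f
  have hbez : (m : ℤ) * Nat.gcdA m d + (d : ℤ) * Nat.gcdB m d = 1 := by
    have := Nat.gcd_eq_gcd_ab m d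
    rw [hcop.gcd_eq_one] at this
    exact_mod_cast this.symm
  refine ⟨f ^ (Nat.gcdA m d) * N ^ (Nat.gcdB m d), ?_⟩
  have hN0 : N ≠ 0 := by
    intro h0
    rw [h0, zero_pow hm] at hNpow
    exact pow_ne_zero d hf hNpow.symm
  calc (f ^ (Nat.gcdA m d) * N ^ (Nat.gcdB m d)) ^ m
      = f ^ ((m : ℤ) * Nat.gcdA m d) * (N ^ m) ^ (Nat.gcdB m d) := by
        rw [mul_pow, ← zpow_natCast (f ^ Nat.gcdA m d), ← zpow_mul, mul_comm (Nat.gcdA m d),
          ← zpow_natCast (N ^ Nat.gcdB m d), ← zpow_mul, ← zpow_natCast N m, ← zpow_mul,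
          mul_comm (Nat.gcdB m d)]
    _ = f ^ ((m : ℤ) * Nat.gcdA m d) * f ^ ((d : ℤ) * Nat.gcdB m d) := by
        rw [hNpow, ← zpow_natCast f d, ← zpow_mul]
    _ = f := by
        rw [← zpow_add₀ hf, hbez, zpow_one]

end Abstract

section Gauss

open Fermat.Agent.RED Fermat.Agent.RED.H73 Fermat.Agent.S28.H73

variable {C : Type} [Field C] (O : ValuationSubring C)
variable {F F' : IntermediateField C (LaurentSeries C)}

/-- The Kummer form of torsion injectivity at ONE exponent `m`. -/
def TIcoreAt (h : HasScale O F) (m : ℕ) : Prop :=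
  ∀ f : ↥(gaussValSub O F h), gaussResF' O h f = 1 →
    (∀ P : Place C ↥F, (m : ℤ) ∣ P.ord (f : ↥F)) → ∃ t : ↥F, t ^ m = (f : ↥F)

theorem ticoreAt_of_ticoreFor (h : HasScale O F) (ℓ m : ℕ) (hm : ¬ ℓ ∣ m)
    (hTI : TIcoreFor O h ℓ) : _root_.Fermat.Agent.S48.B2.R.H34.TIcoreAt O h m :=
  fun f hf hord => hTI m hm f hf hord

/-- **DESC**: norm descent of the Kummer form of torsion injectivity from `F'` to `F ≤ F'`,
`[F' : F]` prime to `m`. -/
theorem ticoreAt_descent (h : HasScale O F) (h' : HasScale O F') (hle : F ≤ F')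
    (hfin : FiniteAlong C (IntermediateField.inclusion hle)) (m : ℕ)
    (hcop : Nat.Coprime m (finrankAlong C (IntermediateField.inclusion hle)))
    (hTI : _root_.Fermat.Agent.S48.B2.R.H34.TIcoreAt O h' m) : _root_.Fermat.Agent.S48.B2.R.H34.TIcoreAt O h m := by
  intro f hf hord
  set φ : ↥F →ₐ[C] ↥F' := IntermediateField.inclusion hle with hφ
  have hint : φ.toRingHom.IsIntegral := by
    letI := algebraAlong φ
    haveI : Module.Finite ↥F ↥F' := hfin
    intro y
    exact IsIntegral.of_finite ↥F y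
  -- the image of `f` in the Gauss ring of `F'`
  have hmem : φ (f : ↥F) ∈ gaussValSub O F' h' := by
    show ((φ (f : ↥F) : ↥F') : LaurentSeries C) ∈ gaussRingV O
    rw [hφ, IntermediateField.coe_inclusion]
    exact f.2
  have hres : gaussResF' O h' ⟨φ (f : ↥F), hmem⟩ = 1 := by
    apply Subtype.ext
    have h1 := congrArg Subtype.val hf
    exact h1
  have hord' : ∀ P : Place C ↥F', (m : ℤ) ∣ P.ord (φ (f : ↥F)) := by
    intro P
    rw [Place.ord_restrictAlong φ hint P]
    exact Dvd.dvd.mul_left (hord _) _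
  obtain ⟨t, ht⟩ := hTI ⟨φ (f : ↥F), hmem⟩ hres hord'
  exact kummer_descent_norm φ hfin m hcop (f : ↥F) t ht

end Gauss

end Fermat.Agent.S48.B2.R.H34

end
end
-- ==== END Fermat.Agent.S48.B2.R.H34_Desc

-- ==== BEGIN Fermat.Agent.S48.B2.R.H66_ValU
section

/-!
# S48 B2, slice R, leaf VAL-U (helper66): uniqueness of the extension when `f = n`

`L / E` finite of degree `n`, `V` a valuation ring of `L`, `V₀ = V ∩ E`.  If there are `n`
elements of `V` whose residues are linearly independent over the residue field of `V₀`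
(residue degree `f(V | V₀) = [L : E]`), then `V` is the only valuation ring of `L` over `V₀`:
every valuation ring `V'` of `L` with `V' ∩ E = V ∩ E` equals `V`.

No rank-one hypothesis and no approximation theorem are needed:
* the `n` elements are an "orthonormal basis": `v (∑ cᵢ bᵢ) = max v (cᵢ)` (`val_sum_eq_max`);
* so `V = ⊕ V₀ bᵢ` is a finite `V₀`-module, every `x ∈ V` is a root of the characteristic
  polynomial of its multiplication matrix (coefficients in `V₀`), hence `V ⊆ V'`;
* if `x ∈ V' ∖ V`, `x = ∑ cᵢ bᵢ`, `c_j` of maximal valuation, then `u = c_j⁻¹ x` is a unit of `V`,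
  so `u⁻¹ ∈ V ⊆ V'` and `c_j = u⁻¹ x ∈ V' ∩ E = V ∩ E`, a contradiction.

Main statements:
* `valU` : the primitive form (residual independence stated with valuations).
* `valU_comap` : the same with `V.comap (algebraMap E L) = V'.comap (algebraMap E L)`.
-/

set_option autoImplicit false
set_option linter.style.haveILetI false
set_option linter.unusedSectionVars false

noncomputable section

namespace Fermat.Agent.S48.B2.R.H66

open Polynomial

variable {E L : Type*} [Field E] [Field L] [Algebra E L]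

section Ortho

variable (V : ValuationSubring L) {ι : Type*} [Fintype ι] (b : ι → L)
  (hbV : ∀ i, b i ∈ V)
  (hres : ∀ c : ι → E, (∀ i, algebraMap E L (c i) ∈ V) →
    V.valuation (∑ i, c i • b i) < 1 → ∀ i, V.valuation (algebraMap E L (c i)) < 1)
include hbV hres

/-- A combination with integral coefficients, one of which is a unit, is a unit of `V`. -/
theorem val_sum_eq_one (c : ι → E) (hc : ∀ i, algebraMap E L (c i) ∈ V) (j : ι)
    (hj : V.valuation (algebraMap E L (c j)) = 1) : V.valuation (∑ i, c i • b i) = 1 := by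
  have hle : V.valuation (∑ i, c i • b i) ≤ 1 := by
    rw [V.valuation_le_one_iff]
    refine sum_mem fun i _ => ?_
    rw [Algebra.smul_def]
    exact mul_mem (hc i) (hbV i)
  rcases lt_or_eq_of_le hle with h | h
  · exact absurd hj (ne_of_lt (hres c hc h j))
  · exact h

/-- The family `b` is orthonormal: `v (∑ cᵢ bᵢ) = max v (cᵢ)`. -/
theorem val_sum_eq_max (c : ι → E) (j : ι)
    (hj : ∀ i, V.valuation (algebraMap E L (c i)) ≤ V.valuation (algebraMap E L (c j))) :
    V.valuation (∑ i, c i • b i) = V.valuation (algebraMap E L (c j)) := by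
  by_cases hcj : c j = 0
  · have hall : ∀ i, c i = 0 := by
      intro i
      have h := hj i
      rw [hcj, map_zero, map_zero, le_zero_iff, Valuation.zero_iff] at h
      exact (map_eq_zero (algebraMap E L)).1 h
    simp [hall]
  · have hφ : algebraMap E L (c j) ≠ 0 := by simpa using hcj
    have hv : V.valuation (algebraMap E L (c j)) ≠ 0 := (Valuation.ne_zero_iff _).2 hφ
    have hd : ∀ i, algebraMap E L (c i / c j) ∈ V := by
      intro i
      rw [← V.valuation_le_one_iff, map_div₀, map_div₀]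
      exact (div_le_one₀ (zero_lt_iff.2 hv)).2 (hj i)
    have hdj : V.valuation (algebraMap E L (c j / c j)) = 1 := by
      rw [div_self hcj, map_one, map_one]
    have h1 := val_sum_eq_one V b hbV hres (fun i => c i / c j) hd j hdj
    have hsum : ∑ i, c i • b i = algebraMap E L (c j) * ∑ i, (c i / c j) • b i := by
      rw [Finset.mul_sum]
      refine Finset.sum_congr rfl fun i _ => ?_
      rw [Algebra.smul_def, Algebra.smul_def, ← mul_assoc, ← map_mul, mul_div_cancel₀ _ hcj]
    rw [hsum, map_mul, h1, mul_one]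

/-- Residually independent elements are linearly independent. -/
theorem linearIndependent_of_res : LinearIndependent E b := by
  classical
  rw [Fintype.linearIndependent_iff]
  intro g hg i
  obtain ⟨j, -, hj⟩ := Finset.exists_max_image Finset.univ
    (fun i => V.valuation (algebraMap E L (g i))) ⟨i, Finset.mem_univ i⟩
  have h := val_sum_eq_max V b hbV hres g j (fun i => hj i (Finset.mem_univ i))
  rw [hg, map_zero] at h
  have hi := hj i (Finset.mem_univ i)
  rw [← h, le_zero_iff, Valuation.zero_iff] at hi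
  exact (map_eq_zero (algebraMap E L)).1 hi

end Ortho

/-- **VAL-U** (primitive form).  `L / E` finite, `V`, `V'` valuation rings of `L` with the same
trace on `E`; if `[L : E]` elements of `V` are residually independent over `V ∩ E`, then
`V' = V`. -/
theorem valU [FiniteDimensional E L] (V V' : ValuationSubring L)
    (hE : ∀ e : E, algebraMap E L e ∈ V ↔ algebraMap E L e ∈ V')
    {ι : Type*} [Fintype ι] (hcard : Fintype.card ι = Module.finrank E L)
    (b : ι → L) (hbV : ∀ i, b i ∈ V)
    (hres : ∀ c : ι → E, (∀ i, algebraMap E L (c i) ∈ V) →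
      V.valuation (∑ i, c i • b i) < 1 → ∀ i, V.valuation (algebraMap E L (c i)) < 1) :
    V' = V := by
  classical
  have hli := linearIndependent_of_res V b hbV hres
  haveI hι : Nonempty ι := by
    rw [← Fintype.card_pos_iff, hcard]
    exact Module.finrank_pos
  let B : Module.Basis ι E L := basisOfLinearIndependentOfCardEqFinrank hli hcard
  have hB : ∀ i, B i = b i := fun i => by
    simp only [B, coe_basisOfLinearIndependentOfCardEqFinrank]
  have hexp : ∀ x : L, x = ∑ i, B.repr x i • b i := by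
    intro x
    conv_lhs => rw [← B.sum_repr x]
    exact Finset.sum_congr rfl fun i _ => by rw [hB]
  -- coefficients of elements of `V` are integral
  have hcoef : ∀ x ∈ V, ∀ i, algebraMap E L (B.repr x i) ∈ V := by
    intro x hx i
    obtain ⟨j, -, hj⟩ := Finset.exists_max_image Finset.univ
      (fun i => V.valuation (algebraMap E L (B.repr x i))) ⟨i, Finset.mem_univ i⟩
    have h := val_sum_eq_max V b hbV hres (fun i => B.repr x i) j
      (fun i => hj i (Finset.mem_univ i))
    rw [← hexp x] at h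
    rw [← V.valuation_le_one_iff]
    calc V.valuation (algebraMap E L (B.repr x i))
        ≤ V.valuation (algebraMap E L (B.repr x j)) := hj i (Finset.mem_univ i)
      _ = V.valuation x := h.symm
      _ ≤ 1 := (V.valuation_le_one_iff x).2 hx
  -- `V ⊆ V'`
  have hVV' : ∀ x ∈ V, x ∈ V' := by
    intro x hx
    let R₀ : Subring E := V'.toSubring.comap (algebraMap E L)
    have hM : ∀ i j, Algebra.leftMulMatrix B x i j ∈ R₀ := by
      intro i j
      show algebraMap E L (Algebra.leftMulMatrix B x i j) ∈ V'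
      rw [← hE, Algebra.leftMulMatrix_eq_repr_mul]
      exact hcoef (x * B j) (mul_mem hx (by rw [hB]; exact hbV j)) i
    let M₀ : Matrix ι ι R₀ := fun i j => ⟨Algebra.leftMulMatrix B x i j, hM i j⟩
    have hMM₀ : Algebra.leftMulMatrix B x = M₀.map R₀.subtype := by
      ext i j
      rfl
    let ψ : R₀ →+* V' :=
      { toFun := fun r => ⟨algebraMap E L r.1, r.2⟩
        map_one' := Subtype.ext (map_one _)
        map_mul' := fun r s => Subtype.ext (map_mul _ _ _)
        map_zero' := Subtype.ext (map_zero _)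
        map_add' := fun r s => Subtype.ext (map_add _ _ _) }
    have hint : IsIntegral V' x := by
      refine ⟨M₀.charpoly.map ψ, (Matrix.charpoly_monic M₀).map ψ, ?_⟩
      rw [Polynomial.eval₂_map]
      have hcomp : (algebraMap V' L).comp ψ = (algebraMap E L).comp R₀.subtype := by
        ext r
        rfl
      rw [hcomp, ← Polynomial.eval₂_map, ← Matrix.charpoly_map, ← hMM₀]
      have h0 : Polynomial.aeval x (Algebra.leftMulMatrix B x).charpoly = 0 := by
        apply Algebra.leftMulMatrix_injective B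
        rw [map_zero, ← Polynomial.aeval_algHom_apply]
        exact Matrix.aeval_self_charpoly _
      exact h0
    obtain ⟨y, hy⟩ := IsIntegrallyClosed.isIntegral_iff.1 hint
    rw [← hy]
    exact y.2
  -- `V' ⊆ V`
  have hV'V : ∀ x ∈ V', x ∈ V := by
    intro x hx'
    by_contra hxV
    have hx0 : x ≠ 0 := by
      rintro rfl
      exact hxV (zero_mem V)
    obtain ⟨j, -, hj⟩ := Finset.exists_max_image Finset.univ
      (fun i => V.valuation (algebraMap E L (B.repr x i))) Finset.univ_nonempty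
    have h := val_sum_eq_max V b hbV hres (fun i => B.repr x i) j
      (fun i => hj i (Finset.mem_univ i))
    rw [← hexp x] at h
    have hvx : 1 < V.valuation x := by
      rw [← not_le, V.valuation_le_one_iff]
      exact hxV
    have hcj0 : algebraMap E L (B.repr x j) ≠ 0 := by
      intro h0
      rw [h0, map_zero] at h
      rw [h] at hvx
      exact absurd hvx (by simp)
    have hu : V.valuation ((algebraMap E L (B.repr x j))⁻¹ * x) = 1 := by
      rw [map_mul, map_inv₀, h]
      exact inv_mul_cancel₀ ((Valuation.ne_zero_iff _).2 hcj0)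
    have huinv : ((algebraMap E L (B.repr x j))⁻¹ * x)⁻¹ ∈ V' := by
      apply hVV'
      rw [← V.valuation_le_one_iff, map_inv₀, hu, inv_one]
    have hcjV : algebraMap E L (B.repr x j) ∉ V := by
      rw [← V.valuation_le_one_iff, not_le, ← h]
      exact hvx
    apply hcjV
    rw [hE]
    have hrew : algebraMap E L (B.repr x j)
        = ((algebraMap E L (B.repr x j))⁻¹ * x)⁻¹ * x := by
      rw [mul_inv, inv_inv, mul_assoc, inv_mul_cancel₀ hx0, mul_one]
    rw [hrew]
    exact mul_mem huinv hx'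
  exact le_antisymm (fun x hx => hV'V x hx) (fun x hx => hVV' x hx)

/-- **VAL-U** with the hypothesis on `E` stated by `comap`. -/
theorem valU_comap [FiniteDimensional E L] (V V' : ValuationSubring L)
    (hE : V.comap (algebraMap E L) = V'.comap (algebraMap E L))
    {ι : Type*} [Fintype ι] (hcard : Fintype.card ι = Module.finrank E L)
    (b : ι → L) (hbV : ∀ i, b i ∈ V)
    (hres : ∀ c : ι → E, (∀ i, algebraMap E L (c i) ∈ V) →
      V.valuation (∑ i, c i • b i) < 1 → ∀ i, V.valuation (algebraMap E L (c i)) < 1) :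
    V' = V := by
  refine valU V V' (fun e => ?_) hcard b hbV hres
  have h1 : e ∈ V.comap (algebraMap E L) ↔ algebraMap E L e ∈ V := ValuationSubring.mem_comap
  have h2 : e ∈ V'.comap (algebraMap E L) ↔ algebraMap E L e ∈ V' := ValuationSubring.mem_comap
  rw [← h1, ← h2, hE]

end Fermat.Agent.S48.B2.R.H66

end
end
-- ==== END Fermat.Agent.S48.B2.R.H66_ValU
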