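-- GENERATED (merged mirror, NOTES/tools/trim/merge3_helper67.py): 5 modules of the originals, bodies verbatim.
import Mathlib
import Fermat.Agent.Zm.S48_L01_002
import Fermat.Agent.Zm.S48_L01_004
import Fermat.Agent.Zm.S48_L01_003
import Fermat.Agent.Lib.TwistedEisenstein
import Fermat.Agent.Zm.S48_L01_000
import Fermat.Agent.Zm.S35_L01_001
import Fermat.Agent.Zm.S35_L01_003

-- ==== BEGIN Fermat.Agent.S41.H19_Transfer
section

/-!
# S41 package H (helper19): abstract transfer calculus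

* `transfer_eq_prod` : explicit formula for Mathlib's `MonoidHom.transfer` from ANY system of
  coset representatives `t : I → G` and ANY solution `g * t i = t (σ i) * k i`.
* `corAlong_eq_sum` : the same for `corAlong` (S41/Defs.lean).
-/

set_option autoImplicit false

namespace Fermat.Agent.S41.H19

open Subgroup

section Mathlib

variable {G : Type*} [Group G] {K : Subgroup G} {B : Type*} [CommGroup B]

/-- Explicit formula for the transfer. -/
theorem transfer_eq_prod [K.FiniteIndex] (ϕ : K →* B) {I : Type*} [Fintype I] (t : I → G)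
    (ht : Function.Bijective (fun i => (t i : G ⧸ K))) (g : G) (σ : I → I) (k : I → K)
    (hk : ∀ i, g * t i = t (σ i) * k i) :
    MonoidHom.transfer ϕ g = ∏ i, ϕ (k i) := by
  classical
  let e : I ≃ G ⧸ K := Equiv.ofBijective _ ht
  have he : ∀ i, e i = (t i : G ⧸ K) := fun i => rfl
  let f : G ⧸ K → G := fun q => t (e.symm q)
  have hf : ∀ q, (f q : G ⧸ K) = q := fun q => e.apply_symm_apply q
  have hfe : ∀ i, f (e i) = t i := fun i => by simp [f]
  let T : K.LeftTransversal := ⟨Set.range f, Subgroup.isComplement_range_left hf⟩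
  have hσ : ∀ i, g • e i = e (σ i) := by
    intro i
    rw [he, he, MulAction.Quotient.smul_mk, smul_eq_mul, hk i]
    exact (QuotientGroup.mk_mul_of_mem _ (k i).2)
  let _ : Fintype (G ⧸ K) := K.fintypeQuotientOfFiniteIndex
  rw [MonoidHom.transfer_def ϕ T g]
  unfold Subgroup.leftTransversals.diff
  symm
  refine Fintype.prod_equiv (e.trans (MulAction.toPerm g)) _ _ ?_
  intro i
  congr 1
  apply Subtype.ext
  simp only [Equiv.trans_apply, MulAction.toPerm_apply]
  rw [smul_apply_eq_smul_apply_inv_smul, inv_smul_smul]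
  change (k i : G) = ((IsComplement.leftQuotientEquiv (Subgroup.isComplement_range_left hf)
    (g • e i) : G))⁻¹ * g • ((IsComplement.leftQuotientEquiv
      (Subgroup.isComplement_range_left hf) (e i) : G))
  rw [IsComplement.leftQuotientEquiv_apply hf, IsComplement.leftQuotientEquiv_apply hf, hσ, hfe,
    hfe, smul_eq_mul, hk i, inv_mul_cancel_left]

end Mathlib

section Cor

variable {H G : Type*} [Group H] [Group G] {A : Type*} [AddCommGroup A]

/-- `t : I → G` is a system of representatives for the left cosets of `ι.range` in `G`. -/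
structure IsReps (ι : H →* G) {I : Type*} (t : I → G) : Prop where
  inj : ∀ i j, (t i)⁻¹ * t j ∈ ι.range → i = j
  surj : ∀ g : G, ∃ i, (t i)⁻¹ * g ∈ ι.range

lemma IsReps.bijective {ι : H →* G} {I : Type*} {t : I → G} (ht : IsReps ι t) :
    Function.Bijective (fun i => (t i : G ⧸ ι.range)) := by
  constructor
  · intro i j hij
    exact ht.inj i j (QuotientGroup.eq.mp hij)
  · intro q
    induction q using QuotientGroup.induction_on with
    | H g =>
      obtain ⟨i, hi⟩ := ht.surj g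
      exact ⟨i, QuotientGroup.eq.mpr hi⟩

lemma IsReps.finiteIndex {ι : H →* G} {I : Type*} [Finite I] {t : I → G} (ht : IsReps ι t) :
    ι.range.FiniteIndex := by
  have : Finite (G ⧸ ι.range) := Finite.of_surjective _ ht.bijective.2
  exact Subgroup.finiteIndex_of_finite_quotient

/-- `Quotient.out` is a system of representatives. -/
lemma isReps_out (ι : H →* G) : IsReps ι (fun q : G ⧸ ι.range => q.out) := by
  constructor
  · intro i j hij
    have := QuotientGroup.eq.mpr hij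
    simpa using this
  · intro g
    refine ⟨(g : G ⧸ ι.range), ?_⟩
    apply QuotientGroup.eq.mp
    simp

/-- Explicit formula for `corAlong`. -/
theorem corAlong_eq_sum (ι : H →* G) (hι : Function.Injective ι) {I : Type*} [Fintype I]
    (t : I → G) (ht : IsReps ι t) (φ : Additive H →+ A) (g : G) (σ : I → I) (h : I → H)
    (hh : ∀ i, g * t i = t (σ i) * ι (h i)) :
    corAlong A ι φ (Additive.ofMul g) = ∑ i, φ (Additive.ofMul (h i)) := by
  have hfin : ι.range.FiniteIndex := ht.finiteIndex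
  unfold corAlong
  rw [dif_pos ⟨hι, hfin⟩]
  change Multiplicative.toAdd (MonoidHom.transfer _ g) = _
  rw [transfer_eq_prod _ t ht.bijective g σ (fun i => ⟨ι (h i), h i, rfl⟩) hh, toAdd_prod]
  refine Finset.sum_congr rfl fun i _ => ?_
  have : (MonoidHom.ofInjective hι).symm ⟨ι (h i), h i, rfl⟩ = h i := by
    apply (MonoidHom.ofInjective hι).injective
    rw [MulEquiv.apply_symm_apply]
    rfl
  simp [this]

/-- Any system of representatives admits a solution `g * t i = t (σ i) * ι (h i)`. -/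
lemma IsReps.exists_sol {ι : H →* G} {I : Type*} {t : I → G} (ht : IsReps ι t) (g : G) :
    ∃ (σ : I → I) (h : I → H), ∀ i, g * t i = t (σ i) * ι (h i) := by
  have : ∀ i, ∃ (j : I) (h : H), g * t i = t j * ι h := by
    intro i
    obtain ⟨j, h, hh⟩ := ht.surj (g * t i)
    exact ⟨j, h, by rw [hh, mul_inv_cancel_left]⟩
  choose σ h hh using this
  exact ⟨σ, h, hh⟩

lemma IsReps.sol_injective {ι : H →* G} {I : Type*} {t : I → G} (ht : IsReps ι t) {g : G}
    {σ : I → I} {h : I → H} (hh : ∀ i, g * t i = t (σ i) * ι (h i)) : Function.Injective σ := by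
  intro i j hij
  apply ht.inj
  refine ⟨(h i)⁻¹ * h j, ?_⟩
  have e1 : t i = g⁻¹ * (t (σ i) * ι (h i)) := by rw [← hh i, inv_mul_cancel_left]
  have e2 : t j = g⁻¹ * (t (σ j) * ι (h j)) := by rw [← hh j, inv_mul_cancel_left]
  rw [e1, e2, hij, map_mul, map_inv]
  group

lemma IsReps.sol_bijective {ι : H →* G} {I : Type*} [Finite I] {t : I → G} (ht : IsReps ι t)
    {g : G} {σ : I → I} {h : I → H} (hh : ∀ i, g * t i = t (σ i) * ι (h i)) :
    Function.Bijective σ :=
  Finite.injective_iff_bijective.mp (ht.sol_injective hh)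

/-- If `ι` is injective of finite index, `corAlong` is computed by the explicit formula with the
canonical representatives. -/
lemma corAlong_of_not {ι : H →* G} (h : ¬ (Function.Injective ι ∧ ι.range.FiniteIndex))
    (φ : Additive H →+ A) : corAlong A ι φ = 0 := by
  unfold corAlong
  rw [dif_neg h]

theorem corAlong_add (ι : H →* G) (φ ψ : Additive H →+ A) :
    corAlong A ι (φ + ψ) = corAlong A ι φ + corAlong A ι ψ := by
  classical
  by_cases h : Function.Injective ι ∧ ι.range.FiniteIndex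
  · obtain ⟨hι, hfin⟩ := h
    let _ : Fintype (G ⧸ ι.range) := ι.range.fintypeQuotientOfFiniteIndex
    apply AddMonoidHom.ext
    intro g
    obtain ⟨σ, k, hk⟩ := (isReps_out ι).exists_sol (Additive.toMul g)
    change corAlong A ι (φ + ψ) (Additive.ofMul (Additive.toMul g)) =
      corAlong A ι φ (Additive.ofMul (Additive.toMul g)) +
        corAlong A ι ψ (Additive.ofMul (Additive.toMul g))
    rw [corAlong_eq_sum ι hι _ (isReps_out ι) _ _ σ k hk,
      corAlong_eq_sum ι hι _ (isReps_out ι) _ _ σ k hk,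
      corAlong_eq_sum ι hι _ (isReps_out ι) _ _ σ k hk, ← Finset.sum_add_distrib]
    rfl
  · rw [corAlong_of_not h, corAlong_of_not h, corAlong_of_not h, add_zero]

theorem corAlong_smul {R : Type*} [Semiring R] [Module R A] (ι : H →* G) (c : R)
    (φ : Additive H →+ A) :
    corAlong A ι (c • φ) = c • corAlong A ι φ := by
  classical
  by_cases h : Function.Injective ι ∧ ι.range.FiniteIndex
  · obtain ⟨hι, hfin⟩ := h
    let _ : Fintype (G ⧸ ι.range) := ι.range.fintypeQuotientOfFiniteIndex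
    apply AddMonoidHom.ext
    intro g
    obtain ⟨σ, k, hk⟩ := (isReps_out ι).exists_sol (Additive.toMul g)
    change corAlong A ι (c • φ) (Additive.ofMul (Additive.toMul g)) =
      c • corAlong A ι φ (Additive.ofMul (Additive.toMul g))
    rw [corAlong_eq_sum ι hι _ (isReps_out ι) _ _ σ k hk,
      corAlong_eq_sum ι hι _ (isReps_out ι) _ _ σ k hk, Finset.smul_sum]
    rfl
  · rw [corAlong_of_not h, corAlong_of_not h, smul_zero]

theorem corAlong_neg (ι : H →* G) (φ : Additive H →+ A) :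
    corAlong A ι (-φ) = - corAlong A ι φ := by
  have h := corAlong_add (A := A) ι φ (-φ)
  have h0 : corAlong A ι (0 : Additive H →+ A) = 0 := by
    have := corAlong_add (A := A) ι 0 0
    rw [add_zero] at this
    exact left_eq_add.mp this
  rw [add_neg_cancel, h0] at h
  exact (neg_eq_of_add_eq_zero_right h.symm).symm

theorem corAlong_sub (ι : H →* G) (φ ψ : Additive H →+ A) :
    corAlong A ι (φ - ψ) = corAlong A ι φ - corAlong A ι ψ := by
  rw [sub_eq_add_neg, corAlong_add, corAlong_neg, ← sub_eq_add_neg]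

/-- `cor ∘ res` is multiplication by the index. -/
theorem corAlong_resAlong (ι : H →* G) (hι : Function.Injective ι) [hfin : ι.range.FiniteIndex]
    (φ : Additive G →+ A) :
    corAlong A ι (resAlong A ι φ) = ι.range.index • φ := by
  classical
  let _ : Fintype (G ⧸ ι.range) := ι.range.fintypeQuotientOfFiniteIndex
  apply AddMonoidHom.ext
  intro g
  obtain ⟨σ, k, hk⟩ := (isReps_out ι).exists_sol (Additive.toMul g)
  have hσ := (isReps_out ι).sol_bijective hk
  change corAlong A ι (resAlong A ι φ) (Additive.ofMul (Additive.toMul g)) = _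
  rw [corAlong_eq_sum ι hι _ (isReps_out ι) _ _ σ k hk]
  have key : ∀ q : G ⧸ ι.range, resAlong A ι φ (Additive.ofMul (k q))
      = φ g + (φ (Additive.ofMul q.out) - φ (Additive.ofMul (σ q).out)) := by
    intro q
    have h1 : ι (k q) = ((σ q).out)⁻¹ * (Additive.toMul g * q.out) := by
      rw [hk q, inv_mul_cancel_left]
    rw [resAlong_apply, h1]
    change φ (- Additive.ofMul (σ q).out + (g + Additive.ofMul q.out)) = _
    rw [map_add, map_neg, map_add]
    abel
  have hperm : ∑ q : G ⧸ ι.range, φ (Additive.ofMul (σ q).out)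
      = ∑ q : G ⧸ ι.range, φ (Additive.ofMul q.out) :=
    Equiv.sum_comp (Equiv.ofBijective σ hσ) (fun q => φ (Additive.ofMul q.out))
  rw [Finset.sum_congr rfl (fun q _ => key q), Finset.sum_add_distrib, Finset.sum_sub_distrib,
    hperm, sub_self, add_zero, Finset.sum_const, Finset.card_univ, Subgroup.index_eq_card,
    Nat.card_eq_fintype_card]
  rfl

/-- Transport of `corAlong` along conjugation by `g₀ ∈ G`: if `ι'.range = g₀ ι.range g₀⁻¹` and
`φ'`, `φ` correspond, then `corAlong ι' φ' = corAlong ι φ`. -/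
theorem corAlong_transport {H' : Type*} [Group H'] (ι : H →* G) (ι' : H' →* G)
    (hι : Function.Injective ι) (hι' : Function.Injective ι') [hfin : ι.range.FiniteIndex]
    (g₀ : G)
    (hsurj : ∀ h : H, ∃ h' : H', ι' h' = g₀ * ι h * g₀⁻¹)
    (hsub : ∀ h' : H', ∃ h : H, ι' h' = g₀ * ι h * g₀⁻¹)
    (φ : Additive H →+ A) (φ' : Additive H' →+ A)
    (hφ : ∀ (h : H) (h' : H'), ι' h' = g₀ * ι h * g₀⁻¹ →
      φ' (Additive.ofMul h') = φ (Additive.ofMul h)) :
    corAlong A ι' φ' = corAlong A ι φ := by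
  classical
  let _ : Fintype (G ⧸ ι.range) := ι.range.fintypeQuotientOfFiniteIndex
  have ht := isReps_out ι
  have ht' : IsReps ι' (fun q : G ⧸ ι.range => q.out * g₀⁻¹) := by
    constructor
    · rintro i j ⟨h', hh'⟩
      obtain ⟨h, hh⟩ := hsub h'
      apply ht.inj
      refine ⟨h, ?_⟩
      have : ι h = g₀⁻¹ * ι' h' * g₀ := by rw [hh]; group
      rw [this, hh']
      group
    · intro g
      obtain ⟨i, h, hh⟩ := ht.surj (g * g₀)
      obtain ⟨h', hh'⟩ := hsurj h
      refine ⟨i, h', ?_⟩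
      rw [hh', hh]
      group
  apply AddMonoidHom.ext
  intro x
  obtain ⟨σ, k, hk⟩ := ht.exists_sol (Additive.toMul x)
  choose k' hk' using fun q => hsurj (k q)
  change corAlong A ι' φ' (Additive.ofMul (Additive.toMul x))
    = corAlong A ι φ (Additive.ofMul (Additive.toMul x))
  rw [corAlong_eq_sum ι hι _ ht _ _ σ k hk, corAlong_eq_sum ι' hι' _ ht' _ _ σ k' (fun q => by
    rw [hk' q, ← mul_assoc, hk q]; group)]
  exact Finset.sum_congr rfl fun q _ => hφ _ _ (hk' q)

/-- The Mackey formula in the transitive case. -/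
theorem corAlong_mackey {K P : Type*} [Group K] [Group P] (ιH : H →* G) (r : K →* G)
    (a : P →* K) (b : P →* H) (hιH : Function.Injective ιH) (ha : Function.Injective a)
    [hfin : ιH.range.FiniteIndex]
    (hcomm : ∀ p, r (a p) = ιH (b p))
    (hpull : ∀ (k : K) (h : H), r k = ιH h → ∃ p, a p = k)
    (hidx : Nat.card (G ⧸ ιH.range) ≤ Nat.card (K ⧸ a.range))
    (ψ : Additive H →+ A) :
    resAlong A r (corAlong A ιH ψ) = corAlong A a (resAlong A b ψ) := by
  classical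
  have hfinG : Finite (G ⧸ ιH.range) := Subgroup.finite_quotient_of_finiteIndex
  have ht := isReps_out a
  have hinj : Function.Injective (fun q : K ⧸ a.range => (r q.out : G ⧸ ιH.range)) := by
    intro i j hij
    have h1 : (r i.out)⁻¹ * r j.out ∈ ιH.range := QuotientGroup.eq.mp hij
    obtain ⟨h, hh⟩ := h1
    obtain ⟨p, hp⟩ := hpull (i.out⁻¹ * j.out) h (by rw [map_mul, map_inv, hh])
    exact ht.inj i j ⟨p, hp⟩
  have hfinK : Finite (K ⧸ a.range) := Finite.of_injective _ hinj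
  have hbij := hinj.bijective_of_nat_card_le hidx
  let _ : Fintype (K ⧸ a.range) := Fintype.ofFinite _
  have htG : IsReps ιH (fun q : K ⧸ a.range => r q.out) := by
    constructor
    · intro i j hij
      exact hinj (QuotientGroup.eq.mpr hij)
    · intro g
      obtain ⟨i, hi⟩ := hbij.2 (g : G ⧸ ιH.range)
      exact ⟨i, QuotientGroup.eq.mp hi⟩
  have hfa : a.range.FiniteIndex := ht.finiteIndex
  apply AddMonoidHom.ext
  intro x
  obtain ⟨σ, p, hp⟩ := ht.exists_sol (Additive.toMul x)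
  change corAlong A ιH ψ (Additive.ofMul (r (Additive.toMul x)))
    = corAlong A a (resAlong A b ψ) (Additive.ofMul (Additive.toMul x))
  rw [corAlong_eq_sum a ha _ ht _ _ σ p hp, corAlong_eq_sum ιH hιH _ htG _ _ σ (fun q => b (p q))
    (fun q => by rw [← hcomm, ← map_mul, ← map_mul, hp q])]
  rfl

end Cor

end Fermat.Agent.S41.H19

end
-- ==== END Fermat.Agent.S41.H19_Transfer

-- ==== BEGIN Fermat.Agent.S48.Asm.Defs
section

/-!
# S48, assembly G (Deligne–Serre §7–8): interfaces (helper43)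

Plan: `NOTES/plan/W_S48.md` §3b.  All leaves here are GENERIC (no modular curves).

Chain:  `Stmt_ResRep` + `Stmt_Thin` + `Stmt_ChebSet` + `Stmt_SS2` + GroupBound + Lift  ⟹ `Stmt_ModLift`
        `Stmt_ModLift` + `Stmt_Int` + `Stmt_InjFin` + `Stmt_TraceSet` + DegOne          ⟹ `Stmt_Away`
        `Stmt_Away` + `Stmt_Cheb` + `Stmt_TraceTwo`                                      ⟹ `Stmt_Core`.

* `Stmt_Thin`     (from `Stmt_Int` + `Stmt_Rankin`): for every `η > 0` the primes `p ∤ N` whose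
                  `a_p` is outside a suitable finite set have upper Dirichlet density `≤ η`;
* `Stmt_ChebSet`  Chebotarev (lower bound, loss `η`) for an arbitrary subset of `G`;
* `Stmt_SS2`      semisimplification in dimension two;
* `Stmt_InjFin`   a finite set of nonzero algebraic integers stays nonzero mod every large `ℓ`;
* `Stmt_TraceSet` traces and determinants of elements of order `≤ B` of `GL₂(ℂ)` lie in a finite
                  set of algebraic integers;
* `Stmt_TraceTwo` an element of finite order of `GL₂(ℂ)` with trace `2` is `1`.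
-/

set_option autoImplicit false

open CongruenceSubgroup
open scoped MatrixGroups

namespace Fermat.Agent.S48.Asm

local notation "Γℚ" => (AlgebraicClosure ℚ ≃ₐ[ℚ] AlgebraicClosure ℚ)

/-- **Thin** (Deligne–Serre §8, from Rankin for all conjugates of `f`): for every `η > 0` there is
a finite set `Y` such that `∑_{p ∈ T} p^{-s} ≤ η log (1/(s-1)) + C` for every finite set `T` of
primes `p ∤ N` with `a_p ∉ Y`. -/
def Stmt_Thin : Prop :=
  ∀ (N : ℕ) [NeZero N] (ε : DirichletCharacter ℂ N) (f : CuspForm (Gamma1 N) 1),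
    IsDSForm N ε f → ∀ η : ℝ, 0 < η →
      ∃ (Y : Finset ℂ) (C : ℝ), ∀ s : ℝ, 1 < s → s ≤ 2 → ∀ T : Finset ℕ,
        (∀ p ∈ T, p.Prime ∧ ¬ p ∣ N ∧ ModularFormClass.qCoeff f p ∉ Y) →
          ∑ p ∈ T, (p : ℝ) ^ (-s) ≤ η * Real.log (1 / (s - 1)) + C

/-- **ChebSet**: `Stmt_Cheb` for an arbitrary subset `{g | Q g}` of `G`. -/
def Stmt_ChebSet : Prop :=
  ∀ (G : Type) [Group G] [Finite G] (r : Γℚ →* G), GaloisFactorsThroughFiniteLevel r →
    Function.Surjective r → ∀ (S : Finset ℕ) (Q : G → Prop) (η : ℝ), 0 < η →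
      ∃ C : ℝ, ∀ s : ℝ, 1 < s → s ≤ 2 →
        ∃ T : Finset ℕ, (∀ p ∈ T, p ∉ S ∧ ∃ g : G, Q g ∧ p ∈ frobPrimes r g) ∧
          (1 - η) * ((Nat.card {h : G // Q h} : ℝ) / (Nat.card G : ℝ)) *
              Real.log (1 / (s - 1)) - C ≤
            ∑ p ∈ T, (p : ℝ) ^ (-s)

/-- **SS2**: every two-dimensional representation has a semisimplification: same traces and
determinants, kernel at least as large, and every stable line of the image has a stable
complement. -/
def Stmt_SS2 : Prop :=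
  ∀ (k : Type) [Field k] (Γ : Type) [Group Γ] (ρ : Γ →* GL (Fin 2) k),
    ∃ ρ' : Γ →* GL (Fin 2) k, IsSemisimple2 ρ'.range ∧ (∀ σ : Γ, ρ σ = 1 → ρ' σ = 1) ∧
      ∀ σ : Γ,
        ((ρ' σ : GL (Fin 2) k) : Matrix (Fin 2) (Fin 2) k).trace =
          ((ρ σ : GL (Fin 2) k) : Matrix (Fin 2) (Fin 2) k).trace ∧
        ((ρ' σ : GL (Fin 2) k) : Matrix (Fin 2) (Fin 2) k).det =
          ((ρ σ : GL (Fin 2) k) : Matrix (Fin 2) (Fin 2) k).det

/-- **InjFin**: a finite set of nonzero algebraic integers has nonzero image under every residue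
map of large residue characteristic. -/
def Stmt_InjFin : Prop :=
  ∀ D : Finset (integralClosure ℤ ℂ), (0 : integralClosure ℤ ℂ) ∉ D →
    ∃ ℓ₁ : ℕ, ∀ ℓ : ℕ, ℓ.Prime → ℓ₁ ≤ ℓ →
      ∀ (k : Type) [Field k] [CharP k ℓ] (φ : integralClosure ℤ ℂ →+* k), ∀ d ∈ D, φ d ≠ 0

/-- **TraceSet**: the traces and determinants of the elements of order `≤ B` of `GL₂(ℂ)` are the
values of finitely many algebraic integers. -/
def Stmt_TraceSet : Prop :=
  ∀ B : ℕ, ∃ Z : Finset (integralClosure ℤ ℂ), ∀ (g : GL (Fin 2) ℂ) (n : ℕ), 0 < n → n ≤ B →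
    g ^ n = 1 →
      (∃ z ∈ Z, (z : ℂ) = ((g : GL (Fin 2) ℂ) : Matrix (Fin 2) (Fin 2) ℂ).trace) ∧
      (∃ z ∈ Z, (z : ℂ) = ((g : GL (Fin 2) ℂ) : Matrix (Fin 2) (Fin 2) ℂ).det)

/-- **TraceTwo**: an element of finite order of `GL₂(ℂ)` with trace `2` is the identity. -/
def Stmt_TraceTwo : Prop :=
  ∀ (g : GL (Fin 2) ℂ) (n : ℕ), 0 < n → g ^ n = 1 →
    ((g : GL (Fin 2) ℂ) : Matrix (Fin 2) (Fin 2) ℂ).trace = 2 → g = 1

/-- **ModLift** (steps 3–5): for all large `ℓ` and every residue map `φ`, a complex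
representation with image of order `≤ B` (independent of `ℓ`), of finite level, unramified
outside `N ℓ`, whose Frobenius traces and determinants are congruent to `a_p`, `ε(p)` under `φ`. -/
def Stmt_ModLift : Prop :=
  ∀ (N : ℕ) [NeZero N] (ε : DirichletCharacter ℂ N) (f : CuspForm (Gamma1 N) 1),
    IsDSForm N ε f →
      ∃ B ℓ₀ : ℕ, ∀ ℓ : ℕ, ℓ.Prime → ℓ₀ ≤ ℓ →
        ∀ (k : Type) [Field k] [CharP k ℓ] [IsAlgClosed k] (φ : integralClosure ℤ ℂ →+* k),
          ∃ ρ : Γℚ →* GL (Fin 2) ℂ, GaloisFactorsThroughFiniteLevel ρ ∧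
            Nat.card ρ.range ≤ B ∧
            ∀ p : ℕ, p.Prime → ¬ p ∣ N * ℓ →
              ∀ A : ValuationSubring (AlgebraicClosure ℚ), A.LiesOverPrime p →
                (∀ σ ∈ A.inertiaSubgroupIn ℚ, ρ σ = 1) ∧
                ∀ σ : Γℚ, A.IsFrobeniusAt σ p → ∀ t d a e : integralClosure ℤ ℂ,
                  (t : ℂ) = ((ρ σ : GL (Fin 2) ℂ) : Matrix (Fin 2) (Fin 2) ℂ).trace →
                  (d : ℂ) = ((ρ σ : GL (Fin 2) ℂ) : Matrix (Fin 2) (Fin 2) ℂ).det →
                  (a : ℂ) = ModularFormClass.qCoeff f p → (e : ℂ) = ε (p : ZMod N) →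
                    φ t = φ a ∧ φ d = φ e

/-- `ρ` is attached to `(f, ε)` away from `ℓ`. -/
def IsAttachedAway (N : ℕ) [NeZero N] (ε : DirichletCharacter ℂ N) (f : CuspForm (Gamma1 N) 1)
    (ℓ : ℕ) (ρ : Γℚ →* GL (Fin 2) ℂ) : Prop :=
  GaloisFactorsThroughFiniteLevel ρ ∧
    ∀ p : ℕ, p.Prime → ¬ p ∣ N * ℓ →
      HasFrobCharpolyAt ρ p (ModularFormClass.qCoeff f p) (ε (p : ZMod N))

/-- **Away** (step 5, exactness): for infinitely many `ℓ` there is a representation attached to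
`(f, ε)` away from `ℓ`. -/
def Stmt_Away : Prop :=
  ∀ (N : ℕ) [NeZero N] (ε : DirichletCharacter ℂ N) (f : CuspForm (Gamma1 N) 1),
    IsDSForm N ε f → ∀ B₀ : ℕ, ∃ ℓ : ℕ, ℓ.Prime ∧ B₀ ≤ ℓ ∧
      ∃ ρ : Γℚ →* GL (Fin 2) ℂ, IsAttachedAway N ε f ℓ ρ

end Fermat.Agent.S48.Asm

end
-- ==== END Fermat.Agent.S48.Asm.Defs

-- ==== BEGIN Fermat.Agent.S48.B1.H22_Eis1Dist
section

/-!
# S48 B1 (a): weight one Eisenstein series, part 6 — the distribution relation (helper22)

`∑_{s < N} π cot π (w + s/N) = N π cot (π N w)` for `Im w ≠ 0`.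
-/

set_option autoImplicit false

open Complex Filter Topology
open scoped Real

noncomputable section

namespace Fermat.Agent.S48.B1.H22

/-- The root of unity `exp (2 π i / N)`. -/
def zetaN (N : ℕ) : ℂ := cexp (2 * π * I / N)

theorem zetaN_pow_self {N : ℕ} (hN : N ≠ 0) : zetaN N ^ N = 1 :=
  (Complex.isPrimitiveRoot_exp N hN).pow_eq_one

theorem norm_zetaN (N : ℕ) : ‖zetaN N‖ = 1 := by
  rw [zetaN, Complex.norm_exp]
  simp

theorem sum_zetaN_pow {N : ℕ} (hN : N ≠ 0) (k : ℕ) :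
    ∑ s ∈ Finset.range N, (zetaN N ^ k) ^ s = if N ∣ k then (N : ℂ) else 0 := by
  have hprim := Complex.isPrimitiveRoot_exp N hN
  by_cases h : N ∣ k
  · rw [if_pos h]
    have h1 : zetaN N ^ k = 1 := (hprim.pow_eq_one_iff_dvd k).2 h
    rw [h1]
    simp
  · rw [if_neg h]
    have h1 : zetaN N ^ k ≠ 1 := fun hh => h ((hprim.pow_eq_one_iff_dvd k).1 hh)
    have h2 : (zetaN N ^ k) ^ N = 1 := by
      rw [← pow_mul, mul_comm, pow_mul, zetaN_pow_self hN, one_pow]
    have h3 := geom_sum_mul (zetaN N ^ k) N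
    rw [h2, sub_self] at h3
    exact (mul_eq_zero.1 h3).resolve_right (sub_ne_zero.2 h1)

theorem nome_add_div (w : ℂ) (N : ℕ) (s : ℕ) :
    nome (w + (s : ℂ) / N) = nome w * zetaN N ^ s := by
  rw [nome, nome, zetaN, ← Complex.exp_nat_mul, ← Complex.exp_add]
  congr 1
  ring

theorem nome_nat_mul (w : ℂ) (N : ℕ) : nome ((N : ℂ) * w) = nome w ^ N := by
  rw [nome, nome, ← Complex.exp_nat_mul]
  congr 1
  ring

theorem cotP_eq_of_im_pos {w : ℂ} (hw : 0 < w.im) :
    cotP w = π * I - 2 * π * I * (1 - nome w)⁻¹ := by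
  have h := cotP_add_pi_I hw
  have h1 : (1 : ℂ) - nome w ≠ 0 := sub_ne_zero.2 (nome_ne_one hw).symm
  have h2 : nome w / (1 - nome w) = (1 - nome w)⁻¹ - 1 := by
    field_simp
    ring
  rw [h2] at h
  linear_combination h

theorem sum_inv_one_sub {N : ℕ} (hN : N ≠ 0) {Y : ℂ} (hY : ‖Y‖ < 1) :
    ∑ s ∈ Finset.range N, (1 - Y * zetaN N ^ s)⁻¹ = N * (1 - Y ^ N)⁻¹ := by
  have hs : ∀ s : ℕ, ‖Y * zetaN N ^ s‖ < 1 := by
    intro s
    rw [norm_mul, norm_pow, norm_zetaN, one_pow, mul_one]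
    exact hY
  have hYN : ‖Y ^ N‖ < 1 := by
    rw [norm_pow]
    exact pow_lt_one₀ (norm_nonneg _) hY hN
  have e1 : ∀ s ∈ Finset.range N, (1 - Y * zetaN N ^ s)⁻¹ = ∑' e : ℕ, (Y * zetaN N ^ s) ^ e :=
    fun s _ => (tsum_geometric_of_norm_lt_one (hs s)).symm
  rw [Finset.sum_congr rfl e1, ← Summable.tsum_finsetSum
    (fun s _ => summable_geometric_of_norm_lt_one (hs s))]
  have e2 : ∀ e : ℕ, ∑ s ∈ Finset.range N, (Y * zetaN N ^ s) ^ e
      = if N ∣ e then (N : ℂ) * Y ^ e else 0 := by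
    intro e
    have : ∀ s ∈ Finset.range N, (Y * zetaN N ^ s) ^ e = Y ^ e * (zetaN N ^ e) ^ s := by
      intro s _
      rw [mul_pow, ← pow_mul, ← pow_mul, mul_comm s e]
    rw [Finset.sum_congr rfl this, ← Finset.mul_sum, sum_zetaN_pow hN]
    split_ifs <;> ring
  simp_rw [e2]
  have hinj : Function.Injective (fun j : ℕ => N * j) := by
    intro a b h
    exact Nat.eq_of_mul_eq_mul_left (Nat.pos_of_ne_zero hN) h
  have hsupp : Function.support (fun e : ℕ => if N ∣ e then (N : ℂ) * Y ^ e else 0)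
      ⊆ Set.range (fun j : ℕ => N * j) := by
    intro e he
    simp only [Function.mem_support, ne_eq, ite_eq_right_iff, not_forall] at he
    obtain ⟨⟨j, rfl⟩, -⟩ := he
    exact ⟨j, rfl⟩
  rw [← hinj.tsum_eq hsupp]
  have e3 : ∀ j : ℕ, (if N ∣ N * j then (N : ℂ) * Y ^ (N * j) else 0) = N * (Y ^ N) ^ j := by
    intro j
    rw [if_pos (dvd_mul_right N j), pow_mul]
  simp_rw [e3]
  rw [tsum_mul_left, tsum_geometric_of_norm_lt_one hYN]

/-- The distribution relation for `Im w > 0`. -/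
theorem sum_cotP_of_im_pos {N : ℕ} (hN : N ≠ 0) {w : ℂ} (hw : 0 < w.im) :
    ∑ s ∈ Finset.range N, cotP (w + (s : ℂ) / N) = N * cotP ((N : ℂ) * w) := by
  have hNr : (0 : ℝ) < N := by exact_mod_cast Nat.pos_of_ne_zero hN
  have him : ∀ s : ℕ, 0 < (w + (s : ℂ) / N).im := by
    intro s
    rw [add_im, Complex.div_natCast_im, natCast_im, zero_div, add_zero]
    exact hw
  have himN : 0 < ((N : ℂ) * w).im := by
    rw [mul_im, natCast_re, natCast_im, zero_mul, add_zero]
    positivity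
  have e1 : ∀ s ∈ Finset.range N, cotP (w + (s : ℂ) / N)
      = π * I - 2 * π * I * (1 - nome w * zetaN N ^ s)⁻¹ := by
    intro s _
    rw [cotP_eq_of_im_pos (him s), nome_add_div]
  have e2 : ∑ s ∈ Finset.range N, (2 * π * I * (1 - nome w * zetaN N ^ s)⁻¹)
      = 2 * π * I * (N * (1 - nome w ^ N)⁻¹) := by
    rw [← Finset.mul_sum, sum_inv_one_sub hN (norm_nome_lt_one hw)]
  rw [Finset.sum_congr rfl e1, Finset.sum_sub_distrib, e2, cotP_eq_of_im_pos himN, nome_nat_mul]
  simp only [Finset.sum_const, Finset.card_range, nsmul_eq_mul]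
  ring

/-- The distribution relation for `Im w < 0`. -/
theorem sum_cotP_of_im_neg {N : ℕ} (hN : N ≠ 0) {w : ℂ} (hw : w.im < 0) :
    ∑ s ∈ Finset.range N, cotP (w + (s : ℂ) / N) = N * cotP ((N : ℂ) * w) := by
  have hN' : (N : ℂ) ≠ 0 := by exact_mod_cast hN
  set w' : ℂ := -w - ((N - 1 : ℕ) : ℂ) / N with hw'
  have hw'im : 0 < w'.im := by
    rw [hw', sub_im, neg_im, Complex.div_natCast_im, natCast_im, zero_div, sub_zero]
    linarith
  have key := sum_cotP_of_im_pos hN hw'im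
  rw [← Finset.sum_range_reflect] at key
  have e1 : ∀ s ∈ Finset.range N, cotP (w' + ((N - 1 - s : ℕ) : ℂ) / N)
      = -cotP (w + (s : ℂ) / N) := by
    intro s hs
    have hs' : s ≤ N - 1 := by
      have := Finset.mem_range.1 hs
      omega
    rw [← cotP_neg]
    congr 1
    rw [hw', Nat.cast_sub hs']
    ring
  rw [Finset.sum_congr rfl e1, Finset.sum_neg_distrib] at key
  have e2 : (N : ℂ) * w' = -((N : ℂ) * w) + ((-((N - 1 : ℕ) : ℤ) : ℤ) : ℂ) := by
    rw [hw']
    push_cast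
    field_simp
    ring
  rw [e2, cotP_add_int, cotP_neg] at key
  linear_combination -key

/-- The distribution relation. -/
theorem sum_cotP {N : ℕ} (hN : N ≠ 0) {w : ℂ} (hw : w.im ≠ 0) :
    ∑ s ∈ Finset.range N, cotP (w + (s : ℂ) / N) = N * cotP ((N : ℂ) * w) := by
  rcases lt_or_gt_of_ne hw with h | h
  · exact sum_cotP_of_im_neg hN h
  · exact sum_cotP_of_im_pos hN h

end Fermat.Agent.S48.B1.H22

end
end
-- ==== END Fermat.Agent.S48.B1.H22_Eis1Dist

-- ==== BEGIN Fermat.Agent.S48.B1.H22_Eis1Zeta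
section

/-!
# S48 B1 (a): weight one Eisenstein series, part 2 — the Weierstrass zeta function (helper22)

`W z τ = 1/z + ∑_{ω ≠ 0} (1/(z - ω) + 1/ω + z/ω²)` over the lattice `ℤ τ + ℤ`: absolutely
convergent, homogeneous of degree `-1` and `SL(2, ℤ)`-equivariant (reindexing).

Bridge: `W z τ - z G₂(τ) = Zc z τ` (sum over `n` first, then symmetric summation over `m`).

Consequences: `Zc (z / (cτ+d)) (γ τ) = (cτ+d) Zc z τ + 2 π i c z` and `Zc (z + τ) τ = Zc z τ - 2 π i`.
-/

set_option autoImplicit false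

open UpperHalfPlane hiding I
open Complex Filter Topology EisensteinSeries Matrix ModularForm
open scoped Real MatrixGroups

noncomputable section

namespace Fermat.Agent.S48.B1.H22

open Fermat.Agent.Lib.TwistedEisenstein (vecMulEquiv vecMulEquiv_apply)

/-- The lattice point `v₀ τ + v₁`. -/
def lam (τ : ℍ) (v : Fin 2 → ℤ) : ℂ := (v 0 : ℂ) * (τ : ℂ) + (v 1 : ℂ)

theorem lam_zero (τ : ℍ) : lam τ 0 = 0 := by simp [lam]

theorem lam_ne_zero (τ : ℍ) {v : Fin 2 → ℤ} (hv : v ≠ 0) : lam τ v ≠ 0 := by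
  have h := UpperHalfPlane.linear_ne_zero (cd := fun i => ((v i : ℤ) : ℝ)) τ (by
    intro h0
    apply hv
    funext i
    have := congrFun h0 i
    simpa using this)
  simpa [lam] using h

theorem lam_cons (τ : ℍ) (m n : ℤ) : lam τ ![m, n] = (m : ℂ) * (τ : ℂ) + (n : ℂ) := by
  simp [lam]

theorem lam_smul (γ : SL(2, ℤ)) (τ : ℍ) (v : Fin 2 → ℤ) :
    lam (γ • τ) v = lam τ (v ᵥ* (γ : Matrix (Fin 2) (Fin 2) ℤ)) / denom γ τ := by
  have h := eisSummand_SL2_apply (-1) v γ τ
  simp only [eisSummand, neg_neg, zpow_one, _root_.zpow_neg] at h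
  rw [lam, lam, h]
  field_simp [denom_ne_zero γ τ]

/-- `z` is not a point of the lattice `ℤ τ + ℤ`. -/
def NotLat (z : ℂ) (τ : ℍ) : Prop := ∀ v : Fin 2 → ℤ, z ≠ lam τ v

theorem NotLat.ne_zero {z : ℂ} {τ : ℍ} (h : NotLat z τ) : z ≠ 0 := by
  have := h 0
  rwa [lam_zero] at this

theorem NotLat.smul {z : ℂ} {τ : ℍ} (h : NotLat z τ) (γ : SL(2, ℤ)) :
    NotLat (z / denom γ τ) (γ • τ) := by
  intro v hv
  rw [lam_smul, div_left_inj' (denom_ne_zero γ τ)] at hv
  exact h _ hv

theorem NotLat.add_lam {z : ℂ} {τ : ℍ} (h : NotLat z τ) (u : Fin 2 → ℤ) :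
    NotLat (z + lam τ u) τ := by
  intro v hv
  apply h (v - u)
  have : lam τ (v - u) = lam τ v - lam τ u := by
    simp only [lam, Pi.sub_apply, Int.cast_sub]
    ring
  rw [this, ← hv]
  ring

/-- The general term of the Weierstrass zeta function. -/
def wTerm (z : ℂ) (τ : ℍ) (v : Fin 2 → ℤ) : ℂ :=
  if v = 0 then 1 / z else 1 / (z - lam τ v) + 1 / lam τ v + z / lam τ v ^ 2

/-- The Weierstrass zeta function of the lattice `ℤ τ + ℤ`. -/
def W (z : ℂ) (τ : ℍ) : ℂ := ∑' v : Fin 2 → ℤ, wTerm z τ v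

theorem wTerm_eq_of_ne {z ω : ℂ} (hω : ω ≠ 0) (hz : z ≠ ω) :
    1 / (z - ω) + 1 / ω + z / ω ^ 2 = z ^ 2 / (ω ^ 2 * (z - ω)) := by
  have : z - ω ≠ 0 := sub_ne_zero.2 hz
  field_simp
  ring

theorem vecMul_eq_zero_iff (γ : SL(2, ℤ)) (v : Fin 2 → ℤ) :
    v ᵥ* (γ : Matrix (Fin 2) (Fin 2) ℤ) = 0 ↔ v = 0 := by
  constructor
  · intro h
    have := congrArg (fun u => (vecMulEquiv γ).symm u) h
    simp only [← vecMulEquiv_apply, Equiv.symm_apply_apply] at this
    rw [this]
    simp [Fermat.Agent.Lib.TwistedEisenstein.vecMulEquiv_symm_apply]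
  · rintro rfl
    simp

/-- Homogeneity / equivariance of the general term. -/
theorem wTerm_smul (γ : SL(2, ℤ)) (z : ℂ) (τ : ℍ) (v : Fin 2 → ℤ) :
    wTerm (z / denom γ τ) (γ • τ) v
      = denom γ τ * wTerm z τ (v ᵥ* (γ : Matrix (Fin 2) (Fin 2) ℤ)) := by
  have hD := denom_ne_zero γ τ
  unfold wTerm
  by_cases hv : v = 0
  · rw [if_pos hv, if_pos ((vecMul_eq_zero_iff γ v).2 hv)]
    field_simp
  · rw [if_neg hv, if_neg (fun h => hv ((vecMul_eq_zero_iff γ v).1 h)), lam_smul]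
    set ω := lam τ (v ᵥ* (γ : Matrix (Fin 2) (Fin 2) ℤ)) with hω
    have hω0 : ω ≠ 0 := lam_ne_zero τ (fun h => hv ((vecMul_eq_zero_iff γ v).1 h))
    rw [← sub_div, one_div_div, one_div_div, div_pow, div_div_div_eq, mul_add, mul_add]
    congr 1
    · congr 1
      · rw [mul_one_div]
      · rw [mul_one_div]
    · field_simp

/-- `SL(2, ℤ)`-equivariance of the Weierstrass zeta function. -/
theorem W_smul (γ : SL(2, ℤ)) (z : ℂ) (τ : ℍ) :
    W (z / denom γ τ) (γ • τ) = denom γ τ * W z τ := by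
  unfold W
  simp_rw [wTerm_smul]
  rw [tsum_mul_left]
  congr 1
  exact (vecMulEquiv γ).tsum_eq (fun u => wTerm z τ u)

/-! ### Summability -/

theorem tendsto_norm_cofinite : Tendsto (fun v : Fin 2 → ℤ => ‖v‖) cofinite atTop := by
  have := tendsto_norm_comp_cofinite_atTop_of_isClosedEmbedding
    (IsClosedEmbedding.id (X := Fin 2 → ℤ))
  simpa [Function.comp_def] using this

theorem summable_wTerm (z : ℂ) (τ : ℍ) : Summable (wTerm z τ) := by
  apply summable_of_isBigO_rpow_norm (a := 3) (by norm_num)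
  have hr : 0 < r τ := r_pos τ
  rw [Asymptotics.isBigO_iff]
  refine ⟨2 * ‖z‖ ^ 2 * (r τ ^ 3)⁻¹, ?_⟩
  have hev : ∀ᶠ v : Fin 2 → ℤ in cofinite, (2 * ‖z‖ + 1) / r τ ≤ ‖v‖ :=
    tendsto_norm_cofinite.eventually_ge_atTop _
  filter_upwards [hev] with v hv
  rw [div_le_iff₀ hr] at hv
  have hv0 : v ≠ 0 := by
    rintro rfl
    rw [norm_zero, zero_mul] at hv
    have := norm_nonneg z
    linarith
  have hvpos : 0 < ‖v‖ := norm_pos_iff.2 hv0
  have hlam : r τ * ‖v‖ ≤ ‖lam τ v‖ := r_mul_max_le τ hv0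
  have hlam1 : 2 * ‖z‖ + 1 ≤ ‖lam τ v‖ := by
    rw [mul_comm] at hlam
    exact hv.trans hlam
  have hzne : z ≠ lam τ v := by
    intro h
    rw [← h] at hlam1
    have := norm_nonneg z
    linarith
  have hω0 : lam τ v ≠ 0 := lam_ne_zero τ hv0
  have hsub : ‖lam τ v‖ / 2 ≤ ‖z - lam τ v‖ := by
    have := norm_sub_norm_le (lam τ v) z
    rw [norm_sub_rev] at this
    linarith
  have hωpos : 0 < ‖lam τ v‖ := norm_pos_iff.2 hω0
  rw [wTerm, if_neg hv0, wTerm_eq_of_ne hω0 hzne, norm_div, norm_mul, norm_pow, norm_pow,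
    Real.norm_of_nonneg (by positivity)]
  have h3 : (‖v‖ ^ (3 : ℝ)) = ‖v‖ ^ 3 := by
    rw [← Real.rpow_natCast]
    norm_num
  have hsubpos : 0 < ‖z - lam τ v‖ := lt_of_lt_of_le (by positivity) hsub
  rw [h3, div_le_iff₀ (by positivity)]
  have key : ‖z‖ ^ 2 * (r τ * ‖v‖) ^ 3 ≤ ‖z‖ ^ 2 * ‖lam τ v‖ ^ 3 := by
    apply mul_le_mul_of_nonneg_left _ (by positivity)
    exact pow_le_pow_left₀ (by positivity) hlam 3
  have e1 : 2 * ‖z‖ ^ 2 * (r τ ^ 3)⁻¹ * (‖v‖ ^ 3)⁻¹ * (‖lam τ v‖ ^ 2 * ‖z - lam τ v‖)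
      = 2 * (‖z‖ ^ 2 * (r τ * ‖v‖) ^ 3)⁻¹ * ‖z‖ ^ 2 * ‖z‖ ^ 2
        * (‖lam τ v‖ ^ 2 * ‖z - lam τ v‖) := by
    by_cases hz : ‖z‖ = 0
    · rw [hz]; ring
    · field_simp
  by_cases hz : ‖z‖ = 0
  · rw [hz]
    simp
  have hzpos : 0 < ‖z‖ := lt_of_le_of_ne (norm_nonneg _) (Ne.symm hz)
  calc ‖z‖ ^ 2 = ‖z‖ ^ 2 * ((‖lam τ v‖ ^ 3) * (‖lam τ v‖ ^ 3)⁻¹) := by
        rw [mul_inv_cancel₀ (by positivity), mul_one]
    _ ≤ ‖z‖ ^ 2 * ((‖lam τ v‖ ^ 2 * (2 * ‖z - lam τ v‖)) * ((r τ * ‖v‖) ^ 3)⁻¹) := by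
        apply mul_le_mul_of_nonneg_left _ (by positivity)
        apply mul_le_mul
        · have : ‖lam τ v‖ ^ 3 = ‖lam τ v‖ ^ 2 * ‖lam τ v‖ := by ring
          rw [this]
          apply mul_le_mul_of_nonneg_left _ (by positivity)
          linarith
        · exact inv_anti₀ (by positivity) (pow_le_pow_left₀ (by positivity) hlam 3)
        · positivity
        · positivity
    _ = 2 * ‖z‖ ^ 2 * (r τ ^ 3)⁻¹ * (‖v‖ ^ 3)⁻¹ * (‖lam τ v‖ ^ 2 * ‖z - lam τ v‖) := by
        rw [mul_pow, mul_inv]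
        ring

end Fermat.Agent.S48.B1.H22

end
end
-- ==== END Fermat.Agent.S48.B1.H22_Eis1Zeta

-- ==== BEGIN Fermat.Agent.S48.B2.R.H22_Level
section

/-!
# S48 B2, slice R, leaf (1) LEVEL (helper22)

For `c ∣ M`, `n` prime to `6` with no prime `q ∣ n` such that `q² ∣ c`, and a prime `p ∤ M`, there
is a level `M'' = M · c₀ · t · r` (`c₀ = c / gcd(c, n)`, `t ∈ {1, 2, 3}`, `r` a prime with
`r ≡ 11 mod 12`, `r ≡ 1 mod n`) such that

* `UnrCond M'' c H` for every `H ≤ (ℤ/c)ˣ`: `Γ₀(M'')` has no elliptic elements and its parabolic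
  elements have upper left entry `≡ ± 1 mod c`;
* `ψ(M'') = ψ(M) · d` with `d` prime to `n` (`d = [F_H(M'') : F_H(M)]`);
* `p ∤ M''`; `2 ∣ M''` if `p = 3`; `3 ∣ M''` if `p = 2`.
-/

set_option autoImplicit false

open Matrix CongruenceSubgroup
open scoped MatrixGroups

namespace Fermat.Agent.S48.B2.R.H22

/-! ### No elliptic elements -/

/-- In `ZMod r`, `r ≡ 11 mod 12` prime, `x² - t x + 1 = 0` has no solution for `|t| ≤ 1`. -/
theorem no_root_of_mod_twelve {r : ℕ} (hr : r.Prime) (hr12 : r % 12 = 11) (x : ZMod r) (t : ℤ)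
    (ht : |t| ≤ 1) (h : x ^ 2 - (t : ZMod r) * x + 1 = 0) : False := by
  have : Fact r.Prime := ⟨hr⟩
  have ht' : t = -1 ∨ t = 0 ∨ t = 1 := by
    rw [abs_le] at ht
    omega
  have h4 : r % 4 = 3 := by omega
  have h3 : r % 3 = 2 := by omega
  -- `x ^ 12 = 1` and more precisely `x` has order `3`, `4` or `6`
  have hx0 : x ≠ 0 := by
    rintro rfl
    simp at h
  have hcard : Fintype.card (ZMod r)ˣ = r - 1 := by
    rw [ZMod.card_units_eq_totient, Nat.totient_prime hr]
  have hr2 : 2 < r := by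
    rcases hr.eq_two_or_odd with h2 | h2
    · omega
    · have := hr.two_le
      omega
  have h2ne : (2 : ZMod r) ≠ 0 := by
    intro h2
    have : ((2 : ℕ) : ZMod r) = 0 := by exact_mod_cast h2
    rw [ZMod.natCast_eq_zero_iff] at this
    have := Nat.le_of_dvd (by norm_num) this
    omega
  have h3ne : (3 : ZMod r) ≠ 0 := by
    intro h3'
    have : ((3 : ℕ) : ZMod r) = 0 := by exact_mod_cast h3'
    rw [ZMod.natCast_eq_zero_iff] at this
    have := Nat.le_of_dvd (by norm_num) this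
    have : r = 3 := by omega
    omega
  rcases ht' with rfl | rfl | rfl
  · -- `x² + x + 1 = 0`: `x` has order `3`
    have e : x ^ 2 + x + 1 = 0 := by
      have := h
      simp only [Int.cast_neg, Int.cast_one, neg_mul, one_mul, sub_neg_eq_add] at this
      exact this
    have hx3 : x ^ 3 = 1 := by linear_combination (x - 1) * e
    have hx1 : x ≠ 1 := by
      rintro rfl
      apply h3ne
      linear_combination e
    let u : (ZMod r)ˣ := Units.mk0 x hx0
    have hu3 : u ^ 3 = 1 := by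
      apply Units.ext
      simpa [u] using hx3
    have hu1 : u ≠ 1 := by
      intro hu
      apply hx1
      have := congrArg Units.val hu
      simpa [u] using this
    have hord : orderOf u = 3 := orderOf_eq_prime hu3 hu1
    have hdvd : 3 ∣ r - 1 := by
      rw [← hcard, ← hord]
      exact orderOf_dvd_card
    omega
  · -- `x² + 1 = 0`: `-1` is a square
    have e : x ^ 2 = -1 := by
      have := h
      simp only [Int.cast_zero, zero_mul, sub_zero] at this
      linear_combination this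
    have hsq : IsSquare (-1 : ZMod r) := ⟨x, by rw [← e]; ring⟩
    exact (ZMod.exists_sq_eq_neg_one_iff.mp hsq) h4
  · -- `x² - x + 1 = 0`: `-x` has order `3`
    have e : x ^ 2 - x + 1 = 0 := by
      have := h
      simp only [Int.cast_one, one_mul] at this
      exact this
    have hx3 : (-x) ^ 3 = 1 := by linear_combination (-x - 1) * e
    have hx1 : -x ≠ 1 := by
      intro hx
      have hx' : x = -1 := by linear_combination -hx
      rw [hx'] at e
      apply h3ne
      linear_combination e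
    have hnx0 : -x ≠ 0 := neg_ne_zero.mpr hx0
    let u : (ZMod r)ˣ := Units.mk0 (-x) hnx0
    have hu3 : u ^ 3 = 1 := by
      apply Units.ext
      simpa [u] using hx3
    have hu1 : u ≠ 1 := by
      intro hu
      apply hx1
      have := congrArg Units.val hu
      simpa [u] using this
    have hord : orderOf u = 3 := orderOf_eq_prime hu3 hu1
    have hdvd : 3 ∣ r - 1 := by
      rw [← hcard, ← hord]
      exact orderOf_dvd_card
    omega

/-- The determinant relation of an element of `SL(2, ℤ)`. -/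
theorem det_rel (γ : SL(2, ℤ)) : γ 0 0 * γ 1 1 - γ 0 1 * γ 1 0 = 1 := by
  have := γ.det_coe
  rwa [Matrix.det_fin_two] at this

/-- An element of `Γ₀(M)`, `r ∣ M`, `r ≡ 11 mod 12` prime, has trace `|t| ≥ 2`. -/
theorem two_le_abs_trace {r M : ℕ} (hr : r.Prime) (hr12 : r % 12 = 11) (hrM : r ∣ M)
    {γ : SL(2, ℤ)} (hγ : γ ∈ Gamma0 M) : 2 ≤ |γ 0 0 + γ 1 1| := by
  by_contra hlt
  have ht : |γ 0 0 + γ 1 1| ≤ 1 := by omega
  have hc : ((γ 1 0 : ℤ) : ZMod M) = 0 := Gamma0_mem.mp hγ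
  have hcr : ((γ 1 0 : ℤ) : ZMod r) = 0 := by
    rw [ZMod.intCast_zmod_eq_zero_iff_dvd] at hc ⊢
    exact (Int.natCast_dvd_natCast.mpr hrM).trans hc
  have hdet := congrArg (Int.cast : ℤ → ZMod r) (det_rel γ)
  push_cast at hdet
  rw [hcr, mul_zero, sub_zero] at hdet
  refine no_root_of_mod_twelve hr hr12 ((γ 0 0 : ℤ) : ZMod r) (γ 0 0 + γ 1 1) ht ?_
  push_cast
  linear_combination -hdet

/-! ### Parabolic elements -/

/-- If `c = c₀ c₁` with `c₁` squarefree and `c₀² c₁ ∣ x²` then `c ∣ x`. -/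
theorem dvd_of_dvd_sq {c₀ c₁ : ℕ} (hsq : Squarefree c₁) (hcop : Nat.Coprime c₀ c₁) {x : ℤ}
    (h : ((c₀ * (c₀ * c₁) : ℕ) : ℤ) ∣ x ^ 2) : ((c₀ * c₁ : ℕ) : ℤ) ∣ x := by
  have h' : (c₀ * (c₀ * c₁)) ∣ x.natAbs ^ 2 := by
    have := Int.natAbs_dvd_natAbs.mpr h
    rwa [Int.natAbs_natCast, Int.natAbs_pow] at this
  have h0 : c₀ ∣ x.natAbs := by
    have hd : c₀ ^ 2 ∣ c₀ * (c₀ * c₁) := ⟨c₁, by ring⟩
    have : c₀ ^ 2 ∣ x.natAbs ^ 2 := hd.trans h'
    exact (Nat.pow_dvd_pow_iff (by norm_num)).mp this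
  have h1 : c₁ ∣ x.natAbs := by
    have hd : c₁ ∣ c₀ * (c₀ * c₁) := ⟨c₀ * c₀, by ring⟩
    have : c₁ ∣ x.natAbs ^ 2 := hd.trans h'
    exact (hsq.dvd_pow_iff_dvd (by norm_num)).mp this
  have := hcop.mul_dvd_of_dvd_of_dvd h0 h1
  exact Int.natCast_dvd.mpr this

/-- **UnrCond at the level `M''`.** -/
theorem unrCond_of_level {M'' c₀ c₁ r : ℕ} (hr : r.Prime) (hr12 : r % 12 = 11) (hrM : r ∣ M'')
    (hsq : Squarefree c₁) (hcop : Nat.Coprime c₀ c₁) (hdvd : c₀ * (c₀ * c₁) ∣ M'')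
    (H : Subgroup (ZMod (c₀ * c₁))ˣ) : Fermat.Agent.NEB.UnrCond M'' (c₀ * c₁) H := by
  rintro ⟨γ, hγ⟩ hcase
  show ((γ 0 0 : ℤ) : ZMod (c₀ * c₁)) ∈ Fermat.Agent.NEB.cosetSet (c₀ * c₁) H 1
  have hmem : ∀ x : ZMod (c₀ * c₁), x = 1 ∨ x = -1 →
      x ∈ Fermat.Agent.NEB.cosetSet (c₀ * c₁) H 1 := by
    intro x hx
    refine ⟨1, H.one_mem, ?_⟩
    simpa using hx
  apply hmem
  have htr : (γ 0 0 + γ 1 1) ^ 2 = 4 := by
    rcases hcase with hfin | hpar
    · have hfin' : IsOfFinOrder γ := by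
        have := (Submonoid.isOfFinOrder_coe (H := (Gamma0 M'').toSubmonoid)
          (x := ⟨γ, hγ⟩)).mpr hfin
        simpa using this
      obtain ⟨m, hm, hpow⟩ := isOfFinOrder_iff_pow_eq_one.mp hfin'
      have h2 := two_le_abs_trace hr hr12 hrM hγ
      have h2' : 2 ≤ |(γ : Matrix (Fin 2) (Fin 2) ℤ).trace| := by
        rw [Matrix.trace_fin_two]
        exact h2
      rcases Fermat.Agent.GTor.H96.eq_one_or_neg_one_of_pow_eq_one γ h2' hm hpow with h1 | h1
      · rw [h1]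
        simp
      · rw [h1]
        simp
    · exact hpar
  have hc : ((γ 1 0 : ℤ) : ZMod M'') = 0 := Gamma0_mem.mp hγ
  have hcd : (M'' : ℤ) ∣ γ 1 0 := (ZMod.intCast_zmod_eq_zero_iff_dvd _ _).mp hc
  have hdet := det_rel γ
  have ht : γ 0 0 + γ 1 1 = 2 ∨ γ 0 0 + γ 1 1 = -2 := by
    have : (γ 0 0 + γ 1 1 - 2) * (γ 0 0 + γ 1 1 + 2) = 0 := by linear_combination htr
    rcases mul_eq_zero.mp this with h | h
    · left; linarith
    · right; linarith
  rcases ht with ht | ht
  · left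
    have hsqd : (M'' : ℤ) ∣ (γ 0 0 - 1) ^ 2 := by
      have e : (γ 0 0 - 1) ^ 2 = -(γ 0 1 * γ 1 0) := by
        have hd : γ 1 1 = 2 - γ 0 0 := by linarith
        rw [hd] at hdet
        linear_combination -hdet
      rw [e]
      exact (dvd_mul_of_dvd_right hcd _).neg_right
    have := dvd_of_dvd_sq hsq hcop ((Int.natCast_dvd_natCast.mpr hdvd).trans hsqd)
    have h0 := (ZMod.intCast_zmod_eq_zero_iff_dvd _ _).mpr this
    push_cast at h0
    linear_combination h0
  · right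
    have hsqd : (M'' : ℤ) ∣ (γ 0 0 + 1) ^ 2 := by
      have e : (γ 0 0 + 1) ^ 2 = -(γ 0 1 * γ 1 0) := by
        have hd : γ 1 1 = -2 - γ 0 0 := by linarith
        rw [hd] at hdet
        linear_combination -hdet
      rw [e]
      exact (dvd_mul_of_dvd_right hcd _).neg_right
    have := dvd_of_dvd_sq hsq hcop ((Int.natCast_dvd_natCast.mpr hdvd).trans hsqd)
    have h0 := (ZMod.intCast_zmod_eq_zero_iff_dvd _ _).mpr this
    push_cast at h0
    linear_combination h0


/-! ### The prime `r` -/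

/-- Dirichlet: a large prime `r ≡ 11 mod 12`, `r ≡ 1 mod n` (`n` prime to `6`). -/
theorem exists_prime_r {n : ℕ} (hn : Nat.Coprime n 6) (B : ℕ) :
    ∃ r : ℕ, B < r ∧ r.Prime ∧ r % 12 = 11 ∧ r % n = 1 % n := by
  have hn0 : n ≠ 0 := by
    rintro rfl
    simp at hn
  have h12 : Nat.Coprime 12 n := by
    have h2 : Nat.Coprime n 2 := hn.coprime_dvd_right (by norm_num)
    have h3 : Nat.Coprime n 3 := hn.coprime_dvd_right (by norm_num)
    have h4 : Nat.Coprime n 4 := by
      have : Nat.Coprime n (2 ^ 2) := Nat.Coprime.pow_right 2 h2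
      simpa using this
    have : Nat.Coprime n (4 * 3) := Nat.Coprime.mul_right h4 h3
    exact this.symm
  obtain ⟨k, hk12, hkn⟩ := Nat.chineseRemainder h12 11 1
  have : NeZero (12 * n) := ⟨by positivity⟩
  have hkcop : Nat.Coprime k (12 * n) := by
    apply Nat.Coprime.mul_right
    · have h := hk12.gcd_eq
      rw [Nat.Coprime, h]
      norm_num
    · have h := hkn.gcd_eq
      rw [Nat.Coprime, h]
      simp
  have hunit : IsUnit ((k : ℕ) : ZMod (12 * n)) := (ZMod.isUnit_iff_coprime k (12 * n)).mpr hkcop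
  obtain ⟨r, hrB, hr, hrk⟩ := Nat.forall_exists_prime_gt_and_eq_mod hunit B
  refine ⟨r, hrB, hr, ?_, ?_⟩
  · have h1 : r ≡ k [MOD 12 * n] := (ZMod.natCast_eq_natCast_iff r k (12 * n)).mp hrk
    have h2 : r ≡ k [MOD 12] := h1.of_mul_right n
    have h3 := h2.trans hk12
    exact h3
  · have h1 : r ≡ k [MOD 12 * n] := (ZMod.natCast_eq_natCast_iff r k (12 * n)).mp hrk
    have h2 : r ≡ k [MOD n] := h1.of_mul_left 12
    exact h2.trans hkn

/-! ### The index -/

open Fermat.Agent.S20.H19 in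
/-- `ψ(M q) = q ψ(M)` for a prime `q ∣ M`. -/
theorem dedekindPsi_mul_prime_of_dvd {M q : ℕ} (hM : M ≠ 0) (hq : q.Prime) (hqM : q ∣ M) :
    ModularCurve.dedekindPsi (M * q) = ModularCurve.dedekindPsi M * q := by
  obtain ⟨k, m, hqm, hMeq⟩ := Nat.exists_eq_pow_mul_and_not_dvd hM q hq.ne_one
  have hk : 0 < k := by
    rcases Nat.eq_zero_or_pos k with h | h
    · exfalso
      rw [h, pow_zero, one_mul] at hMeq
      rw [hMeq] at hqM
      exact hqm hqM
    · exact h
  have hcop : ∀ j : ℕ, Nat.Coprime (q ^ j) m := fun j =>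
    Nat.Coprime.pow_left j ((Nat.Prime.coprime_iff_not_dvd hq).mpr hqm)
  obtain ⟨j, rfl⟩ : ∃ j, k = j + 1 := ⟨k - 1, by omega⟩
  have e1 : M * q = q ^ (j + 2) * m := by
    rw [hMeq]
    ring
  have h1 : ModularCurve.dedekindPsi (q ^ (j + 1)) = q ^ (j + 1) + q ^ j := by
    have := dedekindPsi_prime_pow hq (n := j + 1) (Nat.succ_pos j)
    simpa using this
  have h2 : ModularCurve.dedekindPsi (q ^ (j + 2)) = q ^ (j + 2) + q ^ (j + 1) := by
    have := dedekindPsi_prime_pow hq (n := j + 2) (Nat.succ_pos (j + 1))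
    simpa using this
  rw [e1, dedekindPsi_mul (hcop (j + 2)), hMeq, dedekindPsi_mul (hcop (j + 1)), h1, h2]
  ring

/-- `ψ(M a) = a ψ(M)` if every prime factor of `a` divides `M`. -/
theorem dedekindPsi_mul_of_primes_dvd {M : ℕ} (hM : M ≠ 0) (a : ℕ) (ha : a ≠ 0) :
    (∀ q : ℕ, q.Prime → q ∣ a → q ∣ M) →
      ModularCurve.dedekindPsi (M * a) = ModularCurve.dedekindPsi M * a := by
  induction a using Nat.strong_induction_on generalizing M with
  | _ a ih =>
    intro h
    by_cases ha1 : a = 1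
    · rw [ha1, mul_one, mul_one]
    · have hq := Nat.minFac_prime ha1
      obtain ⟨b, hb⟩ := Nat.minFac_dvd a
      have hb0 : b ≠ 0 := by
        rintro rfl
        rw [mul_zero] at hb
        exact ha hb
      have hba : b < a := by
        have h2 := hq.two_le
        have hbpos : 0 < b := Nat.pos_of_ne_zero hb0
        calc b < a.minFac * b := by nlinarith
          _ = a := hb.symm
      have hqM : a.minFac ∣ M := h _ hq (Nat.minFac_dvd a)
      have hMq : M * a.minFac ≠ 0 := mul_ne_zero hM hq.ne_zero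
      have hb' : ∀ q : ℕ, q.Prime → q ∣ b → q ∣ M * a.minFac := by
        intro q hqp hqb
        have : q ∣ a := by
          rw [hb]
          exact Dvd.dvd.mul_left hqb _
        exact Dvd.dvd.mul_right (h q hqp this) _
      have e : M * a = M * a.minFac * b := by
        conv_lhs => rw [hb]
        ring
      rw [e, ih b hba hMq hb0 hb', dedekindPsi_mul_prime_of_dvd hM hq hqM]
      conv_rhs => rw [hb]
      ring

open Fermat.Agent.S20.H19 in
/-- `ψ(M q) = (q + 1) ψ(M)` for a prime `q ∤ M`. -/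
theorem dedekindPsi_mul_prime_of_not_dvd {M q : ℕ} (hq : q.Prime) (hqM : ¬ q ∣ M) :
    ModularCurve.dedekindPsi (M * q) = ModularCurve.dedekindPsi M * (q + 1) := by
  have hcop : Nat.Coprime M q := ((Nat.Prime.coprime_iff_not_dvd hq).mpr hqM).symm
  have h1 := dedekindPsi_prime_pow hq (n := 1) one_pos
  simp only [pow_one, Nat.sub_self, pow_zero] at h1
  rw [dedekindPsi_mul hcop, h1]


/-! ### The level -/

/-- Under (SQ), `c = c₀ c₁` with `c₀` prime to `n` and `c₁` squarefree. -/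
theorem exists_c0_c1 {c n : ℕ} (hSQ : ∀ q : ℕ, q.Prime → q ∣ n → ¬ q ^ 2 ∣ c) :
    ∃ c₀ c₁ : ℕ, c = c₀ * c₁ ∧ Squarefree c₁ ∧ Nat.Coprime c₀ c₁ ∧ Nat.Coprime c₀ n := by
  have hc : c = c / Nat.gcd c n * Nat.gcd c n := (Nat.div_mul_cancel (Nat.gcd_dvd_left c n)).symm
  have hcopn : Nat.Coprime (c / Nat.gcd c n) n := by
    apply Nat.coprime_of_dvd
    intro q hq hq0 hqn
    have hqc : q ∣ c := hq0.trans (Nat.div_dvd_of_dvd (Nat.gcd_dvd_left c n))
    have hq1 : q ∣ Nat.gcd c n := Nat.dvd_gcd hqc hqn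
    apply hSQ q hq hqn
    rw [hc, pow_two]
    exact Nat.mul_dvd_mul hq0 hq1
  refine ⟨c / Nat.gcd c n, Nat.gcd c n, hc, ?_, ?_, hcopn⟩
  · rw [Nat.squarefree_iff_prime_squarefree]
    intro q hq hqq
    have hq2 : q ∣ q * q := Dvd.intro _ rfl
    have hqn : q ∣ n := hq2.trans (hqq.trans (Nat.gcd_dvd_right c n))
    apply hSQ q hq hqn
    rw [pow_two]
    exact hqq.trans (Nat.gcd_dvd_left c n)
  · exact hcopn.coprime_dvd_right (Nat.gcd_dvd_right c n)

/-- **Leaf (1) LEVEL.** -/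
theorem exists_level (M c n p : ℕ) (hM : M ≠ 0) (hcM : c ∣ M) (hn : Nat.Coprime n 6)
    (hSQ : ∀ q : ℕ, q.Prime → q ∣ n → ¬ q ^ 2 ∣ c) (hp : p.Prime) (hpM : ¬ p ∣ M) :
    ∃ M'' d : ℕ, M ∣ M'' ∧ M'' ≠ 0 ∧ ¬ p ∣ M'' ∧ (p = 3 → 2 ∣ M'') ∧ (p = 2 → 3 ∣ M'') ∧
      (∀ H : Subgroup (ZMod c)ˣ, Fermat.Agent.NEB.UnrCond M'' c H) ∧
      ModularCurve.dedekindPsi M'' = ModularCurve.dedekindPsi M * d ∧ Nat.Coprime d n := by
  obtain ⟨c₀, c₁, rfl, hsq, hcop, hcopn⟩ := exists_c0_c1 hSQ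
  have hc₀M : c₀ ∣ M := (Dvd.intro _ rfl).trans hcM
  have hc₀ : c₀ ≠ 0 := ne_zero_of_dvd_ne_zero hM hc₀M
  have hMc : M * c₀ ≠ 0 := mul_ne_zero hM hc₀
  have hn2 : Nat.Coprime n 2 := hn.coprime_dvd_right (by norm_num)
  have hn3 : Nat.Coprime n 3 := hn.coprime_dvd_right (by norm_num)
  have hn4 : Nat.Coprime n 4 := by
    have : Nat.Coprime n (2 ^ 2) := Nat.Coprime.pow_right 2 hn2
    simpa using this
  have hψ0 : ModularCurve.dedekindPsi (M * c₀) = ModularCurve.dedekindPsi M * c₀ :=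
    dedekindPsi_mul_of_primes_dvd hM c₀ hc₀ (fun q _ hq => hq.trans hc₀M)
  have hprime_dvd : ∀ q : ℕ, q.Prime → q ∣ M * c₀ → q ∣ M := by
    intro q hq h
    rcases (Nat.Prime.dvd_mul hq).mp h with h | h
    · exact h
    · exact h.trans hc₀M
  -- the tame factor
  obtain ⟨t, τ, ht0, hpt, ht3, ht2, hψt, hτ⟩ : ∃ t τ : ℕ, t ≠ 0 ∧ ¬ p ∣ t ∧
      (p = 3 → 2 ∣ M * c₀ * t) ∧ (p = 2 → 3 ∣ M * c₀ * t) ∧
      ModularCurve.dedekindPsi (M * c₀ * t) = ModularCurve.dedekindPsi (M * c₀) * τ ∧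
      Nat.Coprime τ n := by
    by_cases hA : p = 3 ∧ ¬ 2 ∣ M
    · obtain ⟨hp3, h2M⟩ := hA
      refine ⟨2, 3, by norm_num, ?_, fun _ => Dvd.intro_left _ rfl, ?_, ?_, hn3.symm⟩
      · rw [hp3]
        norm_num
      · intro h
        omega
      · exact dedekindPsi_mul_prime_of_not_dvd Nat.prime_two
          (fun h => h2M (hprime_dvd 2 Nat.prime_two h))
    · by_cases hB : p = 2 ∧ ¬ 3 ∣ M
      · obtain ⟨hp2, h3M⟩ := hB
        refine ⟨3, 4, by norm_num, ?_, ?_, fun _ => Dvd.intro_left _ rfl, ?_, hn4.symm⟩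
        · rw [hp2]
          norm_num
        · intro h
          omega
        · exact dedekindPsi_mul_prime_of_not_dvd Nat.prime_three
            (fun h => h3M (hprime_dvd 3 Nat.prime_three h))
      · refine ⟨1, 1, one_ne_zero, ?_, ?_, ?_, by rw [mul_one, mul_one],
          Nat.coprime_one_left n⟩
        · intro h
          exact hp.one_lt.ne' (Nat.dvd_one.mp h)
        · intro hp3
          rw [mul_one]
          have : 2 ∣ M := by
            by_contra h
            exact hA ⟨hp3, h⟩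
          exact Dvd.dvd.mul_right this _
        · intro hp2
          rw [mul_one]
          have : 3 ∣ M := by
            by_contra h
            exact hB ⟨hp2, h⟩
          exact Dvd.dvd.mul_right this _
  have hX : M * c₀ * t ≠ 0 := mul_ne_zero hMc ht0
  -- the prime `r`
  obtain ⟨r, hrB, hr, hr12, hrn⟩ := exists_prime_r hn (M * c₀ * t * p)
  have hXpos : 0 < M * c₀ * t := Nat.pos_of_ne_zero hX
  have hrX : M * c₀ * t < r := by
    have : M * c₀ * t ≤ M * c₀ * t * p := Nat.le_mul_of_pos_right _ hp.pos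
    omega
  have hrp : p < r := by
    have : p ≤ M * c₀ * t * p := Nat.le_mul_of_pos_left _ hXpos
    omega
  have hrX' : ¬ r ∣ M * c₀ * t := fun h => by
    have := Nat.le_of_dvd hXpos h
    omega
  refine ⟨M * c₀ * t * r, c₀ * τ * (r + 1), ?_, mul_ne_zero hX hr.ne_zero, ?_, ?_, ?_, ?_, ?_, ?_⟩
  · exact ⟨c₀ * t * r, by ring⟩
  · intro h
    rcases (Nat.Prime.dvd_mul hp).mp h with h | h
    · rcases (Nat.Prime.dvd_mul hp).mp h with h | h
      · exact hpM (hprime_dvd p hp h)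
      · exact hpt h
    · have := (Nat.prime_dvd_prime_iff_eq hp hr).mp h
      omega
  · intro h
    exact Dvd.dvd.mul_right (ht3 h) _
  · intro h
    exact Dvd.dvd.mul_right (ht2 h) _
  · intro H
    refine unrCond_of_level hr hr12 (Dvd.intro_left _ rfl) hsq hcop ?_ H
    obtain ⟨k, hk⟩ := hcM
    exact ⟨k * t * r, by rw [hk]; ring⟩
  · rw [dedekindPsi_mul_prime_of_not_dvd hr hrX', hψt, hψ0]
    ring
  · apply Nat.Coprime.mul_left (Nat.Coprime.mul_left hcopn hτ)
    have h1 : r + 1 ≡ 1 + 1 [MOD n] := by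
      have : r ≡ 1 [MOD n] := hrn
      exact this.add_right 1
    have h2 := h1.gcd_eq
    rw [Nat.Coprime, h2]
    exact hn2.symm

end Fermat.Agent.S48.B2.R.H22

end
-- ==== END Fermat.Agent.S48.B2.R.H22_Level
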