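-- GENERATED (merged mirror, NOTES/tools/trim/merge3_helper67.py): 9 modules of the originals, bodies verbatim.
import Mathlib
import Fermat.Agent.Lib.SecondIneq.H31_RayChar
import Fermat.Agent.Lib.ZetaPrimes
import Fermat.Agent.Lib.ZetaPrimesDeg
import Fermat.Agent.Zm.S48_L02_000
import Fermat.Agent.Zm.S35_L01_000
import Fermat.Agent.Zm.S48_L02_001
import Fermat.Agent.GTor.H2_Equivariance
import Fermat.Agent.NEB.H29_InvAbs
import Fermat.Agent.Zm.S35_L02_000
import Fermat.Agent.Zm.S48_L02_002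
import Fermat.Agent.Zm.S35_L04_002
import Fermat.Agent.Zm.S48_L01_000

-- ==== BEGIN Fermat.Agent.Lib.SecondIneq.H31_T2m
section

/-!
# Package SI-G: `Stmt_T2m`, the second inequality with modulus (analytic form)

`F ⊆ L` number fields, `ψ : Ideal (𝓞 F) → A` a ray class map mod `𝔪 ≠ 0` onto a finite abelian
group.  If `ψ 𝔭 = 1` for all primes `𝔭 ∤ 𝔪` of `F` under a prime of `L` of absolute degree one
(norm outside a finite set), then `|A| ≤ [L : F]`.
-/

namespace Fermat.Agent.Lib.SecondIneq.H31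

open NumberField Ideal IsDedekindDomain
open Fermat.Agent.Lib.ZetaPrimes Fermat.Agent.S14.H66
open scoped BigOperators

section Lower

variable (F L : Type) [Field F] [NumberField F] [Field L] [NumberField L] [Algebra F L]

/-- Transfer of the prime sums from `L` to `F`. -/
lemma tsum_le_finrank_mul_set (V : Set (HeightOneSpectrum (𝓞 F)))
    (D : Set (HeightOneSpectrum (𝓞 L)))
    (hD : ∀ w ∈ D, (absNorm w.asIdeal).Prime ∧ underSpec F L w ∈ V)
    (s : ℝ) (hsF : Summable (primeTerm F s)) (hsL : Summable (primeTerm L s)) :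
    ∑' w : D, primeTerm L s w
      ≤ (Module.finrank F L : ℝ) * ∑' v : V, primeTerm F s v := by
  classical
  have hsD : Summable (fun w : D => primeTerm L s w) := hsL.subtype D
  have hsU : Summable (fun v : V => primeTerm F s v) := hsF.subtype _
  refine hsD.tsum_le_of_sum_le fun A => ?_
  let φ : D → V := fun w => ⟨underSpec F L w, (hD w w.2).2⟩
  have h1 : ∑ w ∈ A, primeTerm L s w = ∑ w ∈ A, primeTerm F s (φ w) := by
    refine Finset.sum_congr rfl fun w _ => ?_
    exact (primeTerm_underSpec F L s w (hD w w.2).1).symm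
  rw [h1, Finset.sum_comp (fun v : V => primeTerm F s v) φ]
  have h2 : ∀ v ∈ A.image φ, ({w ∈ A | φ w = v}.card : ℕ) • primeTerm F s v
      ≤ (Module.finrank F L : ℝ) * primeTerm F s v := by
    intro v _
    rw [nsmul_eq_mul]
    refine mul_le_mul_of_nonneg_right ?_ (primeTerm_nonneg' F s v)
    have hc : ({w ∈ A | φ w = v}.map ⟨Subtype.val, Subtype.val_injective⟩).card
        ≤ Module.finrank F L := by
      refine card_fiber_le F L v.1 _ ?_
      intro w hw
      rw [Finset.mem_map] at hw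
      obtain ⟨w', hw', rfl⟩ := hw
      rw [Finset.mem_filter] at hw'
      exact congrArg Subtype.val hw'.2
    rw [Finset.card_map] at hc
    exact_mod_cast hc
  refine (Finset.sum_le_sum h2).trans ?_
  rw [← Finset.mul_sum]
  refine mul_le_mul_of_nonneg_left ?_ (Nat.cast_nonneg _)
  exact hsU.sum_le_tsum _ fun v _ => primeTerm_nonneg' F s v

/-- The primes of `L` over a prime of `F` dividing `𝔪`: a finite set. -/
lemma finite_not_isCoprime_under {𝔪 : Ideal (𝓞 F)} (h𝔪 : 𝔪 ≠ ⊥) :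
    {w : HeightOneSpectrum (𝓞 L) | ¬ IsCoprime (w.asIdeal.under (𝓞 F)) 𝔪}.Finite := by
  have hmap : Ideal.map (algebraMap (𝓞 F) (𝓞 L)) 𝔪 ≠ ⊥ := by
    rw [Ne, Ideal.map_eq_bot_iff_of_injective (RingOfIntegers.algebraMap.injective F L)]
    exact h𝔪
  refine (Ideal.finite_factors hmap).subset fun w hw => ?_
  rw [Set.mem_ofPred_eq] at hw ⊢
  rw [Ideal.dvd_iff_le, Ideal.map_le_iff_le_comap]
  by_contra hle
  apply hw
  have hmax : (w.asIdeal.under (𝓞 F)).IsMaximal := (underSpec F L w).isMaximal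
  rw [Ideal.isCoprime_iff_sup_eq]
  by_contra htop
  have h := hmax.eq_of_le htop le_sup_left
  apply hle
  have h2 : 𝔪 ≤ w.asIdeal.under (𝓞 F) := by
    rw [h]
    exact le_sup_right
  exact h2

end Lower

section Main

open Filter Topology

variable (F L : Type) [Field F] [NumberField F] [Field L] [NumberField L] [Algebra F L]

set_option linter.deprecated false in
/-- **T2m** for a fixed pair `F ⊆ L`, from the ray class counts and the bound for the prime sums
of bounded multiplicative functions. -/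
theorem T2m_of (hRC : Stmt_RayCount) (hMS : Stmt_MultSum)
    (𝔪 : Ideal (𝓞 F)) (A : Type) [CommGroup A] [Finite A] (ψ : Ideal (𝓞 F) → A) (T : Finset ℕ)
    (h𝔪 : 𝔪 ≠ ⊥) (hψ : IsRayMap 𝔪 ψ)
    (hU : ∀ Q : Ideal (𝓞 L), Q.IsPrime → (Ideal.absNorm Q).Prime → Ideal.absNorm Q ∉ T →
      IsCoprime (Q.under (𝓞 F)) 𝔪 → ψ (Q.under (𝓞 F)) = 1) :
    Nat.card A ≤ Module.finrank F L := by
  classical
  set c : HeightOneSpectrum (𝓞 F) → A :=
    fun v => if IsCoprime v.asIdeal 𝔪 then ψ v.asIdeal else 1 with hc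
  set w : HeightOneSpectrum (𝓞 F) → ℝ → ℝ :=
    fun v s => if IsCoprime v.asIdeal 𝔪 then primeTerm F s v else 0 with hw
  have hw0 : ∀ v s, 0 ≤ w v s := by
    intro v s
    simp only [hw]
    split_ifs
    · exact primeTerm_nonneg' F s v
    · exact le_rfl
  have hwle : ∀ v s, w v s ≤ primeTerm F s v := by
    intro v s
    simp only [hw]
    split_ifs
    · exact le_rfl
    · exact primeTerm_nonneg' F s v
  have hsF := summable_primeTerm F
  have hsL := summable_primeTerm L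
  have hsum : ∀ s : ℝ, 1 < s → Summable (fun v => w v s) := fun s hs =>
    Summable.of_nonneg_of_le (fun v => hw0 v s) (fun v => hwle v s) (hsF s hs)
  have hup : ∃ C : ℝ, ∀ᶠ s in 𝓝[>] (1 : ℝ), ∑' v, w v s ≤ Real.log (1 / (s - 1)) + C := by
    obtain ⟨C, hC⟩ := primeSum_le F
    refine ⟨C, ?_⟩
    filter_upwards [hC, self_mem_nhdsWithin] with s hs hs1
    exact ((hsum s hs1).tsum_le_tsum (fun v => hwle v s) (hsF s hs1)).trans hs
  have hchar : ∀ χ : A →* ℂˣ, χ ≠ 1 → ∃ C : ℝ, ∀ s : ℝ, 1 < s → s ≤ 2 →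
      (∑' v, ((χ (c v) : ℂˣ) : ℂ) * ((w v s : ℝ) : ℂ)).re ≤ C := by
    intro χ hχ
    obtain ⟨C, hC⟩ := exists_re_tsum_rayChar_le hRC hMS h𝔪 hψ χ hχ
    refine ⟨C, fun s hs hs2 => ?_⟩
    have : (fun v => ((χ (c v) : ℂˣ) : ℂ) * ((w v s : ℝ) : ℂ)) =
        fun v => rayChar hψ χ v.asIdeal * ((primeTerm F s v : ℝ) : ℂ) := by
      funext v
      rw [rayChar_apply]
      by_cases hv : IsCoprime v.asIdeal 𝔪
      · simp [hc, hw, hv, v.ne_bot]
      · simp [hc, hw, hv]
    rw [this]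
    exact hC s hs hs2
  have hlow : ∃ C : ℝ, ∀ᶠ s in 𝓝[>] (1 : ℝ), Real.log (1 / (s - 1)) - C
      ≤ (Module.finrank F L : ℕ) * ∑' v : {v // c v ∈ (⊥ : Subgroup A)}, w v s := by
    obtain ⟨C1, hC1⟩ := primeSum_ge L
    obtain ⟨C2, hC2⟩ := notPrimeNorm_le L
    set B : Set (HeightOneSpectrum (𝓞 L)) :=
      {w | absNorm w.asIdeal ∈ T} ∪ {w | ¬ IsCoprime (w.asIdeal.under (𝓞 F)) 𝔪} with hB
    set NP : Set (HeightOneSpectrum (𝓞 L)) := {w | ¬ (absNorm w.asIdeal).Prime} with hNP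
    set D : Set (HeightOneSpectrum (𝓞 L)) :=
      {w | (absNorm w.asIdeal).Prime ∧ absNorm w.asIdeal ∉ T ∧
        IsCoprime (w.asIdeal.under (𝓞 F)) 𝔪} with hD
    set V : Set (HeightOneSpectrum (𝓞 F)) :=
      {v | IsCoprime v.asIdeal 𝔪 ∧ ψ v.asIdeal = 1} with hV
    have hBfin : B.Finite := (finite_absNorm_mem L T).union (finite_not_isCoprime_under F L h𝔪)
    refine ⟨C1 + C2 + B.ncard, ?_⟩
    filter_upwards [hC1, self_mem_nhdsWithin] with s hs hs1
    have hs1' : (1 : ℝ) < s := hs1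
    have hSL := hsL s hs1'
    have hSF := hsF s hs1'
    have hsplit := hSL.tsum_subtype_add_tsum_subtype_compl D
    have hcompl : ∑' w : (Dᶜ : Set _), primeTerm L s w
        ≤ ∑' w : NP, primeTerm L s w + ∑' w : B, primeTerm L s w := by
      rw [tsum_subtype (Dᶜ) (primeTerm L s), tsum_subtype NP (primeTerm L s),
        tsum_subtype B (primeTerm L s), ← (hSL.indicator NP).tsum_add (hSL.indicator B)]
      refine (hSL.indicator _).tsum_le_tsum (fun w => ?_)
        ((hSL.indicator NP).add (hSL.indicator B))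
      by_cases hw : w ∈ Dᶜ
      · rw [Set.indicator_of_mem hw]
        by_cases hw1 : w ∈ NP
        · rw [Set.indicator_of_mem hw1]
          have := Set.indicator_nonneg (s := B) (f := primeTerm L s)
            (fun w _ => primeTerm_nonneg' L s w) w
          linarith
        · have hw2 : w ∈ B := by
            by_contra hw2
            apply hw
            have h1 : absNorm w.asIdeal ∉ T := fun h => hw2 (Or.inl h)
            have h2 : IsCoprime (w.asIdeal.under (𝓞 F)) 𝔪 := by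
              by_contra h
              exact hw2 (Or.inr h)
            exact ⟨not_not.mp hw1, h1, h2⟩
          rw [Set.indicator_of_mem hw2]
          have := Set.indicator_nonneg (s := NP) (f := primeTerm L s)
            (fun w _ => primeTerm_nonneg' L s w) w
          linarith
      · rw [Set.indicator_of_notMem hw]
        exact add_nonneg
          (Set.indicator_nonneg (fun w _ => primeTerm_nonneg' L s w) w)
          (Set.indicator_nonneg (fun w _ => primeTerm_nonneg' L s w) w)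
    have hNPle : ∑' w : NP, primeTerm L s w ≤ C2 := hC2 s hs1'
    have hBle : ∑' w : B, primeTerm L s w ≤ B.ncard :=
      NumberField.Set.primeIdealZetaSum_le_card_of_finite hBfin (by linarith)
    have hDle := tsum_le_finrank_mul_set F L V D (fun w hw =>
      ⟨hw.1, hw.2.2, hU w.asIdeal w.isPrime hw.1 hw.2.1 hw.2.2⟩) s hSF hSL
    have hVle : ∑' v : V, primeTerm F s v ≤ ∑' v : {v // c v ∈ (⊥ : Subgroup A)}, w v s := by
      have e1 := tsum_subtype V (primeTerm F s)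
      have e2 := tsum_subtype ({v | c v ∈ (⊥ : Subgroup A)} : Set (HeightOneSpectrum (𝓞 F)))
        (fun v => w v s)
      have e2' : ∑' v : {v // c v ∈ (⊥ : Subgroup A)}, w v s =
          ∑' v, ({v | c v ∈ (⊥ : Subgroup A)} : Set (HeightOneSpectrum (𝓞 F))).indicator
            (fun v => w v s) v := e2
      rw [e1, e2']
      refine (hSF.indicator V).tsum_le_tsum (fun v => ?_) ((hsum s hs1').indicator _)
      by_cases hv : v ∈ V
      · have hcv : c v = 1 := by
          simp only [hc]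
          rw [if_pos hv.1]
          exact hv.2
        have hv' : v ∈ ({v | c v ∈ (⊥ : Subgroup A)} : Set (HeightOneSpectrum (𝓞 F))) := by
          rw [Set.mem_setOf_eq, hcv]
          exact Subgroup.one_mem _
        rw [Set.indicator_of_mem hv, Set.indicator_of_mem hv']
        simp only [hw]
        rw [if_pos hv.1]
      · rw [Set.indicator_of_notMem hv]
        exact Set.indicator_nonneg (fun v _ => hw0 v s) v
    have hfin0 : (0 : ℝ) ≤ (Module.finrank F L : ℝ) := Nat.cast_nonneg _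
    have hfinal := mul_le_mul_of_nonneg_left hVle hfin0
    linarith
  have := index_le_of_bounds (⊥ : Subgroup A) c w hw0 hsum hup hchar (Module.finrank F L) hlow
  rwa [Subgroup.index_bot] at this

end Main

/-- **SI-G**: `Stmt_T2m`, the second inequality with modulus (analytic form). -/
theorem stmt_T2m : Stmt_T2m := by
  intro F L _ _ _ _ _ 𝔪 A _ _ ψ T h𝔪 hψ hU
  exact T2m_of F L stmt_RayCount stmt_MultSum 𝔪 A ψ T h𝔪 hψ hU

end Fermat.Agent.Lib.SecondIneq.H31

end
-- ==== END Fermat.Agent.Lib.SecondIneq.H31_T2m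

-- ==== BEGIN Fermat.Agent.NEB.EIG.H39_Abs
section

/-!
# NEB / EIG (helper39): abstract lemmas for Betti twisting

* `heckeOp_intertwine` : the general intertwining lemma for transfer-type Hecke operators
  (two groups, two families, two "conjugations" `a`, `b` with `rep₁ i * b = e₁ (ε i) * a * rep₂ (π i)`).
  Special cases: restriction to a subgroup (`a = b = 1`), conjugation by an element normalising
  the group, the relation `T ∘ α_{u} = α_{ℓ u} ∘ T` for the twisting operators.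
* `exists_extension` : a homomorphism on a normal subgroup of finite index which is invariant under
  conjugation extends, up to the index, to the whole group (transfer).
* `jacobi_sum_zmod`, `twist_eq_zero_imp_fixed` : if `∑_u χ(u)⁻¹ A^u w = 0` for a nontrivial
  character `χ` mod a prime `q` and an operator `A` with `A^q = 1`, then `A w = w`.
-/

set_option autoImplicit false

namespace Fermat.Agent.NEB.EIG.H39

open Finset Fermat.Agent.Betti

section Intertwine

variable {Γ₁ Γ₂ G : Type*} [Group Γ₁] [Group Γ₂] [Group G]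
  {e₁ : Γ₁ →* G} {e₂ : Γ₂ →* G}
  {ι₁ ι₂ : Type*} [Fintype ι₁] [Fintype ι₂]
  {rep₁ : ι₁ → G} {rep₂ : ι₂ → G}
  (H₁ : IsHeckeFamily e₁ rep₁) (H₂ : IsHeckeFamily e₂ rep₂)
  {A : Type*} [AddCommGroup A]

/-- **General intertwining lemma.**  If `θa, θb : Γ₂ → Γ₁` are "conjugation by `a`, `b`"
and `rep₁ i * b = e₁ (ε i) * a * rep₂ (π i)`, then `(T₁ φ) ∘ θb = T₂ (φ ∘ θa)`. -/
theorem heckeOp_intertwine (he₁ : Function.Injective e₁) (he₂ : Function.Injective e₂)
    (a b : G) (θa θb : Γ₂ →* Γ₁)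
    (hθa : ∀ γ, e₁ (θa γ) * a = a * e₂ γ)
    (hθb : ∀ γ, e₁ (θb γ) * b = b * e₂ γ)
    (π : ι₁ ≃ ι₂) (ε : ι₁ → Γ₁)
    (hrep : ∀ i, rep₁ i * b = e₁ (ε i) * a * rep₂ (π i))
    (φ : Additive Γ₁ →+ A) :
    (H₁.heckeOp he₁ φ).comp (MonoidHom.toAdditive θb) =
      H₂.heckeOp he₂ (φ.comp (MonoidHom.toAdditive θa)) := by
  refine AddMonoidHom.ext fun γ => ?_
  obtain ⟨γ, rfl⟩ : ∃ g : Γ₂, Additive.ofMul g = γ := ⟨Additive.toMul γ, rfl⟩
  show ∑ i, φ (Additive.ofMul (H₁.kap (θb γ) i)) = ∑ j, φ (Additive.ofMul (θa (H₂.kap γ j)))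
  -- the permutation `i ↦ π⁻¹ (σ₂ (π i))`
  let τ : Equiv.Perm ι₁ := (π.trans (H₂.permEquiv he₂ γ)).trans π.symm
  have hτ : ∀ i, π (τ i) = H₂.perm γ (π i) := fun i => by simp [τ]
  have key : ∀ i, H₁.kap (θb γ) i = ε i * θa (H₂.kap γ (π i)) * (ε (τ i))⁻¹ := by
    intro i
    have h1 : rep₁ i * e₁ (θb γ) = rep₁ i * b * e₂ γ * b⁻¹ := by
      have := hθb γ
      have h' : e₁ (θb γ) = b * e₂ γ * b⁻¹ := by rw [← this]; group
      rw [h']; group
    have h2 : rep₂ (H₂.perm γ (π i)) * b⁻¹ = a⁻¹ * (e₁ (ε (τ i)))⁻¹ * rep₁ (τ i) := by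
      have := hrep (τ i)
      rw [hτ i] at this
      have h' : rep₁ (τ i) = e₁ (ε (τ i)) * a * rep₂ (H₂.perm γ (π i)) * b⁻¹ := by
        rw [← this]; group
      rw [h']; group
    have h3 : rep₁ i * e₁ (θb γ)
        = e₁ (ε i * θa (H₂.kap γ (π i)) * (ε (τ i))⁻¹) * rep₁ (τ i) := by
      rw [h1, hrep i]
      have h4 : e₁ (ε i) * a * rep₂ (π i) * e₂ γ * b⁻¹
          = e₁ (ε i) * a * (rep₂ (π i) * e₂ γ) * b⁻¹ := by group
      rw [h4, H₂.rep_mul γ (π i)]
      have h5 : e₁ (ε i) * a * (e₂ (H₂.kap γ (π i)) * rep₂ (H₂.perm γ (π i))) * b⁻¹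
          = e₁ (ε i) * (a * e₂ (H₂.kap γ (π i))) * (rep₂ (H₂.perm γ (π i)) * b⁻¹) := by group
      rw [h5, ← hθa, h2, map_mul, map_mul, map_inv]
      group
    exact ((H₁.unique he₁ h3).2).symm
  have hterm : ∀ i, φ (Additive.ofMul (H₁.kap (θb γ) i))
      = φ (Additive.ofMul (θa (H₂.kap γ (π i)))) + φ (Additive.ofMul (ε i))
        - φ (Additive.ofMul (ε (τ i))) := by
    intro i
    rw [key i]
    simp only [ofMul_mul, ofMul_inv, map_add, map_neg]
    abel
  simp only [hterm, sum_add_distrib, sum_sub_distrib]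
  have hperm : ∑ i, φ (Additive.ofMul (ε (τ i))) = ∑ i, φ (Additive.ofMul (ε i)) :=
    Equiv.sum_comp τ (fun i => φ (Additive.ofMul (ε i)))
  rw [hperm, add_sub_cancel_right]
  exact Equiv.sum_comp π (fun j => φ (Additive.ofMul (θa (H₂.kap γ j))))

end Intertwine

section Extension

open Fermat.Agent.S41 Fermat.Agent.S41.H19

variable {Γ' Γ : Type*} [Group Γ'] [Group Γ] {A : Type*} [AddCommGroup A]

/-- A homomorphism on a normal subgroup of finite index, invariant under conjugation, extends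
(up to the index) to the whole group: `Φ ∘ ι = index • w`. -/
theorem exists_extension (ι : Γ' →* Γ) (hι : Function.Injective ι)
    [hfin : ι.range.FiniteIndex]
    (hnorm : ∀ (g : Γ) (h : Γ'), ∃ h' : Γ', ι h' = g⁻¹ * ι h * g)
    (w : Additive Γ' →+ A)
    (hinv : ∀ (g : Γ) (h h' : Γ'), ι h' = g⁻¹ * ι h * g →
      w (Additive.ofMul h') = w (Additive.ofMul h)) :
    ∃ Φ : Additive Γ →+ A, ∀ h : Γ', Φ (Additive.ofMul (ι h)) = ι.range.index • w (Additive.ofMul h) := by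
  classical
  let _ : Fintype (Γ ⧸ ι.range) := ι.range.fintypeQuotientOfFiniteIndex
  refine ⟨corAlong A ι w, fun h => ?_⟩
  choose k hk using fun q : Γ ⧸ ι.range => hnorm q.out h
  rw [corAlong_eq_sum ι hι _ (isReps_out ι) w (ι h) id k (fun q => by
    rw [hk q, id]; group)]
  rw [Finset.sum_congr rfl (fun q _ => hinv q.out h (k q) (hk q)), Finset.sum_const,
    Finset.card_univ, Subgroup.index_eq_card, Nat.card_eq_fintype_card]

end Extension

end Fermat.Agent.NEB.EIG.H39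

end
-- ==== END Fermat.Agent.NEB.EIG.H39_Abs

-- ==== BEGIN Fermat.Agent.NEB.H14_CorrRules
section

/-!
# NEB, package JH (helper14): further rules of the calculus of correspondences

* `pullD_comp_pushD_of_norm` : `φ^* φ_* = ∑_g g` if `φ (Norm_φ x) = ∏_g g x`.
* `square_of_norm` : base change `b^* a_* = a'_* b'^*` in a commutative square if
  `b (Norm_a x) = Norm_a' (b' x)`.
* equivariance of `pullP`, `pushP` under semilinear automorphisms (Galois action on coefficients)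
  and under `K`-automorphisms.
* `correspondence_eq` : the prelude's `Pic0.correspondence φ ψ` is `pushP ψ ∘ pullP φ`.
-/

set_option autoImplicit false
set_option linter.unusedSectionVars false
set_option linter.style.haveILetI false

noncomputable section

namespace Fermat.Agent.NEB.H14

open AlgebraicCurve AlgebraicCurve.SemilinearAut Fermat.Agent.Lib.HeckeComm Fermat.Agent.RED

section Rules

variable {K F F' F₁ F₂ L : Type} [Field K] [Field F] [Field F'] [Field F₁] [Field F₂] [Field L]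
  [Algebra K F] [Algebra K F'] [Algebra K F₁] [Algebra K F₂] [Algebra K L] [IsAlgClosed K]

/-- `φ^* φ_* = ∑_g g` on divisors. -/
theorem pullD_comp_pushD_of_norm (hF : IsFF K F) (hF' : IsFF K F') (φ : F →ₐ[K] F')
    {G : Type*} [Fintype G] (ρ : G → (F' ≃ₐ[K] F'))
    (hnorm : ∀ x : F', x ≠ 0 → φ (normFn φ x) = ∏ g, ρ g x) :
    (pullD φ).comp (pushD φ) = ∑ g, smulD (ρ g) := by
  haveI := hasPD hF'
  exact ((isCorr_pullD hF hF' φ).comp (isCorr_pushD hF hF' φ)).eq
    (IsCorr.sum Finset.univ (fun g _ => isCorr_smulD (ρ g))) hnorm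

/-- `φ^* φ_* = ∑_g g` on `Pic⁰`. -/
theorem pullP_pushP_of_norm (hF : IsFF K F) (hF' : IsFF K F') (φ : F →ₐ[K] F')
    {G : Type*} [Fintype G] (ρ : G → (F' ≃ₐ[K] F'))
    (hnorm : ∀ x : F', x ≠ 0 → φ (normFn φ x) = ∏ g, ρ g x) (y : Pic0 K F') :
    pullP φ (pushP φ y) = ∑ g, ρ g • y := by
  have h := picMap_comp (isCorr_pullD hF hF' φ).isGood (isCorr_pushD hF hF' φ).isGood
  rw [pullD_comp_pushD_of_norm hF hF' φ ρ hnorm,
    picMap_sum Finset.univ (fun g _ => (isCorr_smulD (ρ g)).isGood)] at h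
  have h2 := DFunLike.congr_fun h y
  rw [AddMonoidHom.comp_apply, AddMonoidHom.finsetSum_apply] at h2
  rw [pullP, pushP, ← h2]
  exact Finset.sum_congr rfl fun g _ => picMap_smulD (ρ g) y

/-- Base change in a commutative square, on divisors. -/
theorem square_of_norm (hF : IsFF K F) (hF₁ : IsFF K F₁) (hF₂ : IsFF K F₂) (hL : IsFF K L)
    (a : F →ₐ[K] F₂) (b : F →ₐ[K] F₁) (a' : F₁ →ₐ[K] L) (b' : F₂ →ₐ[K] L)
    (hnorm : ∀ x : F₂, x ≠ 0 → b (normFn a x) = normFn a' (b' x)) :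
    (pullD b).comp (pushD a) = (pushD a').comp (pullD b') := by
  haveI := hasPD hF₂
  exact ((isCorr_pullD hF hF₁ b).comp (isCorr_pushD hF hF₂ a)).eq
    ((isCorr_pushD hF₁ hL a').comp (isCorr_pullD hF₂ hL b')) hnorm

/-- Base change in a commutative square, on `Pic⁰`. -/
theorem square_of_norm_pic (hF : IsFF K F) (hF₁ : IsFF K F₁) (hF₂ : IsFF K F₂) (hL : IsFF K L)
    (a : F →ₐ[K] F₂) (b : F →ₐ[K] F₁) (a' : F₁ →ₐ[K] L) (b' : F₂ →ₐ[K] L)
    (hnorm : ∀ x : F₂, x ≠ 0 → b (normFn a x) = normFn a' (b' x)) :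
    (pullP b).comp (pushP a) = (pushP a').comp (pullP b') := by
  rw [pullP, pushP, pushP, pullP,
    ← picMap_comp (isCorr_pullD hF hF₁ b).isGood (isCorr_pushD hF hF₂ a).isGood,
    ← picMap_comp (isCorr_pushD hF₁ hL a').isGood (isCorr_pullD hF₂ hL b').isGood,
    square_of_norm hF hF₁ hF₂ hL a b a' b' hnorm]

/-- The prelude's correspondence is `ψ_* φ^*`. -/
theorem correspondence_eq (hF : IsFF K F) (hF' : IsFF K F') (φ ψ : F →ₐ[K] F')
    (hφ : φ.toRingHom.IsIntegral) (hψ : ψ.toRingHom.IsIntegral)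
    [HasPrincipalDivisors K F']
    (hFI : FundamentalIdentityAlong K φ hφ)
    (hfin : FiniteAlong K ψ) (hN : NormFormulaAlong K ψ hfin) :
    Pic0.correspondence φ ψ hφ hψ hFI hfin hN = (pushP ψ).comp (pullP φ) := by
  refine AddMonoidHom.ext fun x => ?_
  obtain ⟨D, rfl⟩ := Pic0.mk_surjective x
  rw [AddMonoidHom.comp_apply, pullP, pushP, picMap_mk (isCorr_pullD hF hF' φ).isGood,
    picMap_mk (isCorr_pushD hF hF' ψ).isGood, Pic0.correspondence_mk]
  refine congrArg Pic0.mk (Subtype.ext ?_)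
  simp only [Pic0.coe_degZeroCorrespondence, coe_degZeroMap, Divisor.correspondence_apply]
  rw [pullD_eq hF hF', pushD_eq hF hF']

/-! ### Equivariance -/

/-- Equivariance of `picMap` under semilinear automorphisms. -/
theorem picMap_semilinear {Φ : Divisor K F →+ Divisor K F'} (hΦ : IsGood Φ)
    (g : SemilinearAut K F) (g' : SemilinearAut K F')
    (h : ∀ D : Divisor K F, Φ (g • D) = g' • Φ D) (x : Pic0 K F) :
    picMap Φ (g • x) = g' • picMap Φ x := by
  obtain ⟨D, rfl⟩ := Pic0.mk_surjective x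
  rw [pic0_smul_mk, picMap_mk hΦ, picMap_mk hΦ, pic0_smul_mk]
  refine congrArg Pic0.mk (Subtype.ext ?_)
  simp only [coe_degZeroMap, coe_degZeroSMulHom]
  exact h _

theorem pullP_semilinear (hF : IsFF K F) (hF' : IsFF K F') (φ : F →ₐ[K] F')
    (g : SemilinearAut K F) (g' : SemilinearAut K F')
    (h : IntertwinesAlong (φ : F →+* F') g g') (x : Pic0 K F) :
    pullP φ (g • x) = g' • pullP φ x := by
  haveI := hasPD hF'
  refine picMap_semilinear (isCorr_pullD hF hF' φ).isGood g g' (fun D => ?_) x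
  rw [pullD_eq hF hF']
  exact Fermat.Agent.GTor.H2.pullbackAlong_smul g g' φ _ h D

theorem pushP_semilinear (hF : IsFF K F) (hF' : IsFF K F') (φ : F →ₐ[K] F')
    (g : SemilinearAut K F) (g' : SemilinearAut K F')
    (h : IntertwinesAlong (φ : F →+* F') g g') (y : Pic0 K F') :
    pushP φ (g' • y) = g • pushP φ y := by
  refine picMap_semilinear (isCorr_pushD hF hF' φ).isGood g' g (fun D => ?_) y
  rw [pushD_eq hF hF']
  exact Fermat.Agent.GTor.H2.pushforwardAlong_smul g g' φ _ h D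

/-- Equivariance of `pullP` under `K`-automorphisms. -/
theorem pullP_algEquiv (hF : IsFF K F) (hF' : IsFF K F') (φ : F →ₐ[K] F')
    (g : F ≃ₐ[K] F) (g' : F' ≃ₐ[K] F') (h : ∀ x, φ (g x) = g' (φ x)) (x : Pic0 K F) :
    pullP φ (g • x) = g' • pullP φ x := by
  rw [← pullP_smul hF g, ← pullP_smul hF' g']
  have h1 : φ.comp (g : F →ₐ[K] F) = (g' : F' →ₐ[K] F').comp φ := AlgHom.ext fun x => h x
  have h2 := pullP_comp hF hF hF' (g : F →ₐ[K] F) φ
  have h3 := pullP_comp hF hF' hF' φ (g' : F' →ₐ[K] F')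
  rw [h1] at h2
  have h4 := DFunLike.congr_fun (h2.symm.trans h3) x
  simpa using h4

omit [IsAlgClosed K] in
theorem finrank_toAlgebra_of_bijective {A B : Type*} [Field A] [Field B] (φ : A →+* B)
    (h : Function.Bijective φ) : (letI := φ.toAlgebra; Module.finrank A B) = 1 := by
  letI := φ.toAlgebra
  refine finrank_eq_one (1 : B) one_ne_zero fun w => ?_
  obtain ⟨c, rfl⟩ := h.2 w
  exact ⟨c, by rw [Algebra.smul_def, mul_one]; rfl⟩

/-- The norm along an automorphism is the inverse. -/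
theorem pushP_smul (hF : IsFF K F) (σ : F ≃ₐ[K] F) (x : Pic0 K F) :
    pushP (σ : F →ₐ[K] F) x = σ⁻¹ • x := by
  have h1 := pushP_pullP hF hF (σ : F →ₐ[K] F) (σ⁻¹ • x)
  rw [pullP_smul hF, smul_inv_smul] at h1
  have h2 : finrankAlong K (σ : F →ₐ[K] F) = 1 :=
    finrank_toAlgebra_of_bijective ((σ : F →ₐ[K] F) : F →+* F) σ.bijective
  rw [h2, one_smul] at h1
  exact h1

/-- Equivariance of `pushP` under `K`-automorphisms. -/
theorem pushP_algEquiv (hF : IsFF K F) (hF' : IsFF K F') (φ : F →ₐ[K] F')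
    (g : F ≃ₐ[K] F) (g' : F' ≃ₐ[K] F') (h : ∀ x, φ (g x) = g' (φ x)) (y : Pic0 K F') :
    pushP φ (g' • y) = g • pushP φ y := by
  have hinv : ∀ x, φ (g⁻¹ x) = g'⁻¹ (φ x) := by
    intro x
    have := h (g⁻¹ x)
    rw [show g (g⁻¹ x) = x from g.apply_symm_apply x] at this
    rw [this]
    exact (g'.symm_apply_apply _).symm
  have h1 : φ.comp ((g⁻¹ : F ≃ₐ[K] F) : F →ₐ[K] F) =
      ((g'⁻¹ : F' ≃ₐ[K] F') : F' →ₐ[K] F').comp φ := AlgHom.ext fun x => hinv x
  have h2 := pushP_comp hF hF hF' ((g⁻¹ : F ≃ₐ[K] F) : F →ₐ[K] F) φ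
  have h3 := pushP_comp hF hF' hF' φ ((g'⁻¹ : F' ≃ₐ[K] F') : F' →ₐ[K] F')
  rw [h1] at h2
  have h4 := DFunLike.congr_fun (h2.symm.trans h3) y
  simp only [AddMonoidHom.comp_apply] at h4
  rw [pushP_smul hF, pushP_smul hF', inv_inv, inv_inv] at h4
  exact h4.symm

end Rules

end Fermat.Agent.NEB.H14

end
end
-- ==== END Fermat.Agent.NEB.H14_CorrRules

-- ==== BEGIN Fermat.Agent.NEB.H14_JHLeaves
section

/-!
# NEB, package JH (helper14): the two field-theoretic leaves (pure algebra, Mathlib only)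

`normFn φ x` is the norm of `x : F'` along `φ : F →ₐ[K] F'` (defined in `H14_CorrFF`;
`normFn φ x = Lib.HeckeComm.normAlongHom ↑φ x` by `rfl`).

* `Stmt_GalNorm` : Artin.  If the fixed field of a finite group `G` of `K`-automorphisms of `F'` is
  `φ(F)`, then `F'/F` is finite of degree `|G|` and `φ (Norm_φ x) = ∏_{g ∈ G} g x`.
* `Stmt_GalSquare` : norms in a Galois square.  `L ⊇ F₂` Galois with group `G`, `F₁ ⊆ L` a
  `G`-stable subfield on which `G` acts faithfully with fixed field `F`; then `F₁ ⊗_F F₂ = L` and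
  the norms `F₂ → F`, `L → F₁` (resp. `F₁ → F`, `L → F₂`) are compatible.

Owners prove `theorem stmt_GalNorm : Stmt_GalNorm`, `theorem stmt_GalSquare : Stmt_GalSquare` in
their own files `Fermat/Agent/NEB/H<seat>_*.lean`.  No `sorry` here.
-/

set_option autoImplicit false

noncomputable section

namespace Fermat.Agent.NEB.H14

open AlgebraicCurve

/-- **GAL-NORM** (Artin). -/
def Stmt_GalNorm : Prop :=
  ∀ (K F F' : Type) [Field K] [Field F] [Field F'] [Algebra K F] [Algebra K F']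
    (φ : F →ₐ[K] F') (G : Subgroup (F' ≃ₐ[K] F')) [Fintype G],
    (∀ x : F', (∀ g ∈ G, g x = x) → x ∈ Set.range φ) →
    (∀ (g : F' ≃ₐ[K] F') (y : F), g ∈ G → g (φ y) = φ y) →
    FiniteAlong K φ ∧ finrankAlong K φ = Fintype.card G ∧
    ∀ x : F', φ (normFn φ x) = ∏ g : G, (g : F' ≃ₐ[K] F') x

/-- **GAL-SQUARE**: a commutative square

```
F₁ --a'--> L
^          ^
b          b'
F  --a---> F₂
```
in which `L / b'(F₂)` is Galois with group `G`, `a'(F₁)` is `G`-stable, `G` acts faithfully on it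
and its fixed field is `b(F)`.  Then the norms commute with the maps. -/
def Stmt_GalSquare : Prop :=
  ∀ (K F F₁ F₂ L : Type) [Field K] [Field F] [Field F₁] [Field F₂] [Field L]
    [Algebra K F] [Algebra K F₁] [Algebra K F₂] [Algebra K L]
    (a : F →ₐ[K] F₂) (b : F →ₐ[K] F₁) (a' : F₁ →ₐ[K] L) (b' : F₂ →ₐ[K] L),
    a'.comp b = b'.comp a →
    FiniteAlong K a →
    ∀ (G : Subgroup (L ≃ₐ[K] L)) [Fintype G],
    (∀ x : L, (∀ g ∈ G, g x = x) → x ∈ Set.range b') →
    (∀ (g : L ≃ₐ[K] L) (y : F₂), g ∈ G → g (b' y) = b' y) →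
    (∀ (g : L ≃ₐ[K] L) (y : F₁), g ∈ G → g (a' y) ∈ Set.range a') →
    (∀ g ∈ G, (∀ y : F₁, g (a' y) = a' y) → g = 1) →
    (∀ y : F₁, (∀ g ∈ G, g (a' y) = a' y) → y ∈ Set.range b) →
    FiniteAlong K a' ∧ finrankAlong K a' = finrankAlong K a ∧
    (∀ x : F₂, b (normFn a x) = normFn a' (b' x)) ∧
    (∀ y : F₁, a (normFn b y) = normFn b' (a' y))

end Fermat.Agent.NEB.H14

end
end
-- ==== END Fermat.Agent.NEB.H14_JHLeaves

-- ==== BEGIN Fermat.Agent.NEB.H29_InvCore
section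

/-!
# LG-NEB, package INV, the core (helper29)

`K` algebraically closed, `E → L` an extension of fields with principal divisors over `K`
(function fields), `G` a finite group acting on `L` through `ρ` with fixed field `φ(E)`, `m ≠ 0`.
`Φ : Div(L) → Div(L)` a correspondence with function `N` (helper14's calculus `IsCorr`), with
`N` multiplicative, `G`-equivariant and `N ζ = ζ ^ n` on `μ_m(K)` (for `T_ℓ^H = α_* β^*`:
`N = Norm_α ∘ β`, `n = ℓ + 1`).

* `stmt_INV_core` : if `y ∈ Pic⁰(L)[m]` is `G`-invariant then `Φ y - n y = π^* y₀` with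
  `y₀ ∈ Pic⁰(E)[m]`, provided `L / E` is unramified (in the form `hunr`).
* `stmt_SIGMA_core` : if `y₀ ∈ Pic⁰(E)[m]` has `π^* y₀ = 0` then `Φ₀ y₀ - n y₀ = 0`
  (`ker π^*` is Eisenstein), for a correspondence `Φ₀` of `E` with function `N₀`, `φ ∘ N₀ = N ∘ φ`.
-/

set_option autoImplicit false
set_option linter.style.haveILetI false

noncomputable section

namespace Fermat.Agent.NEB.H29

open AlgebraicCurve Fermat.Agent.NEB.H14 Fermat.Agent.GTor

/-! ### Action forms of INV-ABS and SIGMA-ABS -/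

section Act

variable {L : Type*} [Field L] {G : Type*} [Group G] [Finite G] [MulSemiringAction G L]

/-- **INV-ABS**, for a finite group acting on `L` (not necessarily faithfully). -/
theorem stmt_INV_ABS_act (m n : ℕ) (f : Lˣ)
    (hf : ∀ δ : G, ∃ h : Lˣ, δ • (f : L) = f * (h : L) ^ m)
    (T : Lˣ →* Lˣ)
    (hT : ∀ (δ : G) (x y : Lˣ), (y : L) = δ • (x : L) → ((T y : Lˣ) : L) = δ • ((T x : Lˣ) : L))
    (hζ : ∀ ζ : Lˣ, ζ ^ m = 1 → T ζ = ζ ^ n) :
    ∃ g : Lˣ, ∀ δ : G, δ • (((T f : Lˣ) : L) * ((f : L) ^ n)⁻¹ * (g : L) ^ m)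
      = ((T f : Lˣ) : L) * ((f : L) ^ n)⁻¹ * (g : L) ^ m := by
  classical
  have hsurj := FixedPoints.toAlgAut_surjective G L
  obtain ⟨g, e, he⟩ := stmt_INV_ABS (E := FixedPoints.subfield G L) (L := L) m n f
    (by
      intro δ'
      obtain ⟨δ, rfl⟩ := hsurj δ'
      exact hf δ)
    T
    (by
      intro δ' x
      obtain ⟨δ, rfl⟩ := hsurj δ'
      ext
      exact (hT δ x (Units.map _ x) rfl).symm)
    hζ
  refine ⟨g, fun δ => ?_⟩
  rw [he]
  exact (e : FixedPoints.subfield G L).2 δ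

/-- **SIGMA-ABS**, for a finite group acting on `L`. -/
theorem stmt_SIGMA_ABS_act (m n : ℕ) (y : Lˣ)
    (hy : ∀ δ : G, δ • ((y : L) ^ m) = (y : L) ^ m)
    (T : Lˣ →* Lˣ)
    (hT : ∀ (δ : G) (x y : Lˣ), (y : L) = δ • (x : L) → ((T y : Lˣ) : L) = δ • ((T x : Lˣ) : L))
    (hζ : ∀ ζ : Lˣ, ζ ^ m = 1 → T ζ = ζ ^ n) :
    (∀ δ : G, δ • (((T y : Lˣ) : L) * ((y : L) ^ n)⁻¹) = ((T y : Lˣ) : L) * ((y : L) ^ n)⁻¹) ∧
      ((T (y ^ m) : Lˣ) : L) * (((y : L) ^ m) ^ n)⁻¹
        = (((T y : Lˣ) : L) * ((y : L) ^ n)⁻¹) ^ m := by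
  classical
  have hsurj := FixedPoints.toAlgAut_surjective G L
  obtain ⟨e, he1, he2⟩ := stmt_SIGMA_ABS (E := FixedPoints.subfield G L) (L := L) m n y
    ⟨⟨(y : L) ^ m, hy⟩, rfl⟩
    T
    (by
      intro δ' x
      obtain ⟨δ, rfl⟩ := hsurj δ'
      ext
      exact (hT δ x (Units.map _ x) rfl).symm)
    hζ
  refine ⟨fun δ => ?_, ?_⟩
  · rw [he1]
    exact (e : FixedPoints.subfield G L).2 δ
  · rw [he2, he1]
    simp

end Act

/-! ### Kummer representatives -/

section Kummer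

variable {K F : Type} [Field K] [Field F] [Algebra K F]

/-- A function without zeros and poles is constant. -/
def ConstHyp (K F : Type) [Field K] [Field F] [Algebra K F] : Prop :=
  ∀ f : F, f ≠ 0 → (∀ v : Place K F, v.ord f = 0) → ∃ c : K, algebraMap K F c = f

/-- A class killed by `m` is the class of `(1/m) div f`. -/
theorem exists_kummer_rep (m : ℕ) (y : Pic0 K F) (hy : (m : ℤ) • y = 0) :
    ∃ (D : Divisor.degZero (K := K) (F := F)) (f : F), f ≠ 0 ∧ Pic0.mk D = y ∧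
      ∀ v : Place K F, (m : ℤ) * (D : Divisor K F) v = v.ord f := by
  obtain ⟨D, rfl⟩ := Pic0.mk_surjective y
  have h : (m : ℤ) • Pic0.mk D = Pic0.mk ((m : ℤ) • D) := rfl
  rw [h, H33.mk_eq_zero_iff] at hy
  obtain ⟨f, hf, hD⟩ := hy
  refine ⟨D, f, hf, rfl, fun v => ?_⟩
  have := hD v
  rw [AddSubgroup.coe_zsmul, Finsupp.smul_apply, smul_eq_mul] at this
  exact this

theorem ord_pow_nat (v : Place K F) (f : F) (n : ℕ) : v.ord (f ^ n) = n * v.ord f := by
  rw [← zpow_natCast, v.ord_zpow]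

/-- Two functions with the same divisor differ by a constant. -/
theorem exists_const_mul [IsAlgClosed K] (hconst : ConstHyp K F) {a b : F} (ha : a ≠ 0)
    (hb : b ≠ 0) (h : ∀ v : Place K F, v.ord a = v.ord b) (m : ℕ) (hm : m ≠ 0) :
    ∃ c : K, c ≠ 0 ∧ a = b * (algebraMap K F c) ^ m := by
  obtain ⟨c, hc⟩ := hconst (a * b⁻¹) (mul_ne_zero ha (inv_ne_zero hb)) (fun v => by
    rw [v.ord_mul ha (inv_ne_zero hb), v.ord_inv, h v, add_neg_cancel])
  obtain ⟨c', hc'⟩ := IsAlgClosed.exists_pow_nat_eq c (Nat.pos_of_ne_zero hm)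
  have hc0 : c ≠ 0 := by
    rintro rfl
    rw [map_zero] at hc
    exact mul_ne_zero ha (inv_ne_zero hb) hc.symm
  have hc'0 : c' ≠ 0 := by
    rintro rfl
    rw [zero_pow hm] at hc'
    exact hc0 hc'.symm
  refine ⟨c', hc'0, ?_⟩
  rw [← map_pow, hc', hc]
  field_simp

/-- If the class of `(1/m) div f` is `σ`-invariant then `σ f = f h ^ m`. -/
theorem exists_root_of_smul_eq [IsAlgClosed K] (hconst : ConstHyp K F) (m : ℕ) (hm : m ≠ 0)
    (σ : F ≃ₐ[K] F) (D : Divisor.degZero (K := K) (F := F)) (f : F) (hf : f ≠ 0)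
    (hD : ∀ v : Place K F, (m : ℤ) * (D : Divisor K F) v = v.ord f)
    (hσ : σ • Pic0.mk D = Pic0.mk D) :
    ∃ h : Fˣ, σ f = f * (h : F) ^ m := by
  have h1 : Pic0.mk (Pic0.degZeroSMulHom σ D - D) = 0 := by
    have : Pic0.mk (Pic0.degZeroSMulHom σ D - D) = σ • Pic0.mk D - Pic0.mk D := rfl
    rw [this, hσ, sub_self]
  rw [H33.mk_eq_zero_iff] at h1
  obtain ⟨h, hh0, hh⟩ := h1
  have hσf : σ f ≠ 0 := by simpa using hf
  have hord : ∀ w : Place K F, w.ord (σ f) = w.ord (f * h ^ m) := by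
    intro w
    have h2 := (isCorr_smulD σ).hasFn.kummer (m : ℤ) (D : Divisor K F) hf hD w
    have h3 := hh w
    rw [AddSubgroup.coe_sub, Finsupp.sub_apply, Pic0.coe_degZeroSMulHom] at h3
    rw [smulD_apply] at h2
    rw [w.ord_mul hf (pow_ne_zero _ hh0), ord_pow_nat, ← h2, ← hD w, ← h3]
    ring
  obtain ⟨c, hc0, hc⟩ := exists_const_mul hconst hσf (mul_ne_zero hf (pow_ne_zero _ hh0)) hord m hm
  have hu : algebraMap K F c * h ≠ 0 :=
    mul_ne_zero (by simpa using hc0) hh0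
  refine ⟨Units.mk0 _ hu, ?_⟩
  rw [hc, Units.val_mk0]
  ring

end Kummer

/-! ### The core of INV -/

section Core

variable {K E L : Type} [Field K] [Field E] [Field L] [Algebra K E] [Algebra K L]

/-- The hypotheses on the operator: a function `N` on `L`, multiplicative, equivariant for the
group action, acting on the `m`-th roots of unity of `K` by `ζ ↦ ζ ^ n`. -/
structure OpHyp {G : Type} [Group G] (ρ : G →* (L ≃ₐ[K] L)) (N : L → L) (m n : ℕ) : Prop where
  ne_zero : ∀ x : L, x ≠ 0 → N x ≠ 0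
  mul : ∀ x y : L, N (x * y) = N x * N y
  equiv : ∀ (d : G) (x : L), ρ d (N x) = N (ρ d x)
  const : ∀ ζ : K, ζ ^ m = 1 → N (algebraMap K L ζ) = algebraMap K L (ζ ^ n)

namespace OpHyp

variable {G : Type} [Group G] {ρ : G →* (L ≃ₐ[K] L)} {N : L → L} {m n : ℕ}

theorem map_one (h : OpHyp ρ N m n) : N 1 = 1 := by
  have h1 := h.mul 1 1
  rw [mul_one] at h1
  have h0 := h.ne_zero 1 one_ne_zero
  exact (mul_right_cancel₀ h0 (by rw [one_mul]; exact h1)).symm

/-- The operator on units. -/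
def toHom (h : OpHyp ρ N m n) : Lˣ →* Lˣ where
  toFun x := Units.mk0 (N x) (h.ne_zero x x.ne_zero)
  map_one' := by
    ext
    simp [h.map_one]
  map_mul' x y := by
    ext
    simp [h.mul]

@[simp]
theorem coe_toHom (h : OpHyp ρ N m n) (x : Lˣ) : ((h.toHom x : Lˣ) : L) = N x := rfl

theorem toHom_equiv (h : OpHyp ρ N m n) (δ : G) (x y : Lˣ) (hxy : (y : L) = ρ δ (x : L)) :
    ((h.toHom y : Lˣ) : L) = ρ δ ((h.toHom x : Lˣ) : L) := by
  rw [coe_toHom, coe_toHom, hxy, h.equiv]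

theorem toHom_root (h : OpHyp ρ N m n) (hm : m ≠ 0) (hconst : ConstHyp K L) (ζ : Lˣ)
    (hζ : ζ ^ m = 1) : h.toHom ζ = ζ ^ n := by
  have h1 : ((ζ : L)) ^ m = 1 := by
    have := congrArg Units.val hζ
    simpa using this
  obtain ⟨c, hc⟩ := hconst (ζ : L) ζ.ne_zero (fun v => by
    have h2 : v.ord ((ζ : L) ^ m) = 0 := by rw [h1, Place.ord_one]
    rw [ord_pow_nat] at h2
    rcases mul_eq_zero.mp h2 with h3 | h3
    · exact absurd (by exact_mod_cast h3) hm
    · exact h3)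
  have hcm : c ^ m = 1 := by
    apply (algebraMap K L).injective
    rw [map_pow, hc, h1, _root_.map_one]
  ext
  rw [coe_toHom, ← hc, h.const c hcm, map_pow, Units.val_pow_eq_pow_val, ← hc]

end OpHyp

/-- **INV, core.**  If `y ∈ Pic⁰(L)[m]` is invariant under the group then
`Φ y - n y ∈ π^* (Pic⁰(E)[m])`. -/
theorem stmt_INV_core [IsAlgClosed K] [HasPrincipalDivisors K E] (hconstL : ConstHyp K L)
    (φ : E →ₐ[K] L) {Ψ : Divisor K E →+ Divisor K L} {d₀ : ℤ} (hΨ : IsCorr Ψ φ d₀)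
    {G : Type} [Group G] [Finite G] (ρ : G →* (L ≃ₐ[K] L))
    (hfix : ∀ x : L, (∀ d, ρ d x = x) → ∃ x₀ : E, φ x₀ = x)
    (m n : ℕ) (hm : m ≠ 0)
    (hunr : ∀ e : E, e ≠ 0 → (∀ w : Place K L, (m : ℤ) ∣ w.ord (φ e)) →
      ∀ v : Place K E, (m : ℤ) ∣ v.ord e)
    {Φ : Divisor K L →+ Divisor K L} {N : L → L} {d : ℤ} (hΦ : IsCorr Φ N d)
    (hN : OpHyp ρ N m n)
    (y : Pic0 K L) (hy : (m : ℤ) • y = 0) (hyG : ∀ d, ρ d • y = y) :
    ∃ y₀ : Pic0 K E, (m : ℤ) • y₀ = 0 ∧ picMap Ψ y₀ = picMap Φ y - n • y := by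
  classical
  obtain ⟨D, f, hf, rfl, hD⟩ := exists_kummer_rep m y hy
  letI : MulSemiringAction G L := MulSemiringAction.compHom L ρ
  have hsmul : ∀ (δ : G) (x : L), δ • x = ρ δ x := fun _ _ => rfl
  -- the Kummer class of `f` is invariant
  have hb : ∀ δ : G, ∃ h : Lˣ,
      δ • ((Units.mk0 f hf : Lˣ) : L) = ((Units.mk0 f hf : Lˣ) : L) * (h : L) ^ m := by
    intro δ
    obtain ⟨h, hh⟩ := exists_root_of_smul_eq hconstL m hm (ρ δ) D f hf hD (hyG δ)
    exact ⟨h, hh⟩
  obtain ⟨g, hg⟩ := stmt_INV_ABS_act m n (Units.mk0 f hf) hb hN.toHom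
    (fun δ x y hxy => hN.toHom_equiv δ x y hxy) (hN.toHom_root hm hconstL)
  simp only [OpHyp.coe_toHom, Units.val_mk0, hsmul] at hg
  obtain ⟨e, he⟩ := hfix _ hg
  have hNf : N f ≠ 0 := hN.ne_zero f hf
  have hfn : ((f : L) ^ n)⁻¹ ≠ 0 := inv_ne_zero (pow_ne_zero _ hf)
  have hgm : (g : L) ^ m ≠ 0 := pow_ne_zero _ g.ne_zero
  have he0 : e ≠ 0 := by
    rintro rfl
    rw [map_zero] at he
    exact mul_ne_zero (mul_ne_zero hNf hfn) hgm he.symm
  have hord : ∀ w : Place K L,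
      w.ord (φ e) = (m : ℤ) * (Φ (D : Divisor K L) w - n * (D : Divisor K L) w + w.ord (g : L)) := by
    intro w
    rw [he, w.ord_mul (mul_ne_zero hNf hfn) hgm, w.ord_mul hNf hfn, w.ord_inv, ord_pow_nat,
      ord_pow_nat, ← hΦ.hasFn.kummer (m : ℤ) (D : Divisor K L) hf hD w, ← hD w]
    ring
  have hdiv : ∀ v : Place K E, (m : ℤ) ∣ v.ord e := hunr e he0 (fun w => ⟨_, hord w⟩)
  let fe : unrSubgroup K E m := ⟨Units.mk0 e he0, hdiv⟩
  have hD₀ : ∀ v : Place K E, (m : ℤ) * (H33.divQuot hm fe : Divisor K E) v = v.ord e :=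
    H33.divQuot_apply hm fe
  refine ⟨Pic0.mk (H33.divQuot hm fe), H33.nsmul_mk_divQuot hm fe, ?_⟩
  rw [picMap_mk hΨ.isGood, picMap_mk hΦ.isGood]
  have key : Pic0.mk (degZeroMap Ψ hΨ.isGood (H33.divQuot hm fe)
      - (degZeroMap Φ hΦ.isGood D - n • D)) = 0 := by
    rw [H33.mk_eq_zero_iff]
    refine ⟨(g : L), g.ne_zero, fun w => ?_⟩
    have h1 := hΨ.hasFn.kummer (m : ℤ) (H33.divQuot hm fe : Divisor K E) he0 hD₀ w
    rw [hord w] at h1
    have h2 := mul_left_cancel₀ (by exact_mod_cast hm : (m : ℤ) ≠ 0) h1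
    rw [AddSubgroup.coe_sub, AddSubgroup.coe_sub, AddSubgroup.coe_nsmul, coe_degZeroMap,
      coe_degZeroMap, Finsupp.sub_apply, Finsupp.sub_apply, Finsupp.smul_apply, h2]
    simp only [nsmul_eq_mul]
    ring
  have h3 : Pic0.mk (degZeroMap Ψ hΨ.isGood (H33.divQuot hm fe)
      - (degZeroMap Φ hΦ.isGood D - n • D))
      = Pic0.mk (degZeroMap Ψ hΨ.isGood (H33.divQuot hm fe))
        - (Pic0.mk (degZeroMap Φ hΦ.isGood D) - n • Pic0.mk D) := rfl
  rw [h3, sub_eq_zero] at key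
  exact key

/-- **SIGMA, core.**  The kernel of `π^*` on `Pic⁰(E)[m]` is Eisenstein: it is killed by
`Φ₀ - n` for every correspondence `Φ₀` of `E` whose function `N₀` is the restriction of an
operator `N` of `L` as in `OpHyp`. -/
theorem stmt_SIGMA_core [IsAlgClosed K] (hconstL : ConstHyp K L)
    (φ : E →ₐ[K] L) {Ψ : Divisor K E →+ Divisor K L} {d₀ : ℤ} (hΨ : IsCorr Ψ φ d₀)
    {G : Type} [Group G] [Finite G] (ρ : G →* (L ≃ₐ[K] L))
    (hfixE : ∀ (d : G) (x : E), ρ d (φ x) = φ x)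
    (hfix : ∀ x : L, (∀ d, ρ d x = x) → ∃ x₀ : E, φ x₀ = x)
    (m n : ℕ) (hm : m ≠ 0)
    {Φ₀ : Divisor K E →+ Divisor K E} {N₀ : E → E} {d : ℤ} (hΦ₀ : IsCorr Φ₀ N₀ d)
    {N : L → L} (hN : OpHyp ρ N m n) (hNN : ∀ x : E, φ (N₀ x) = N (φ x))
    (y₀ : Pic0 K E) (hy : (m : ℤ) • y₀ = 0) (hker : picMap Ψ y₀ = 0) :
    picMap Φ₀ y₀ - n • y₀ = 0 := by
  classical
  obtain ⟨D₀, e, he0, rfl, hD₀⟩ := exists_kummer_rep m y₀ hy
  letI : MulSemiringAction G L := MulSemiringAction.compHom L ρ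
  have hsmul : ∀ (δ : G) (x : L), δ • x = ρ δ x := fun _ _ => rfl
  rw [picMap_mk hΨ.isGood, H33.mk_eq_zero_iff] at hker
  obtain ⟨g, hg0, hg⟩ := hker
  have hφe : φ e ≠ 0 := by simpa using he0
  -- `φ e` is an `m`-th power
  have hord : ∀ w : Place K L, w.ord (φ e) = w.ord (g ^ m) := by
    intro w
    rw [ord_pow_nat, ← hΨ.hasFn.kummer (m : ℤ) (D₀ : Divisor K E) he0 hD₀ w, ← hg w,
      coe_degZeroMap]
  obtain ⟨c, hc0, hc⟩ := exists_const_mul hconstL hφe (pow_ne_zero _ hg0) hord m hm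
  have hy0 : g * algebraMap K L c ≠ 0 := mul_ne_zero hg0 (by simpa using hc0)
  have hym : ((Units.mk0 _ hy0 : Lˣ) : L) ^ m = φ e := by
    rw [Units.val_mk0, hc, mul_pow]
  obtain ⟨hfixu, hpow⟩ := stmt_SIGMA_ABS_act (G := G) m n (Units.mk0 _ hy0)
    (fun δ => by rw [hym, hsmul, hfixE]) hN.toHom
    (fun δ x y hxy => hN.toHom_equiv δ x y hxy) (hN.toHom_root hm hconstL)
  simp only [hsmul] at hfixu
  obtain ⟨e', he'⟩ := hfix _ hfixu
  have hu0 : ((hN.toHom (Units.mk0 _ hy0) : Lˣ) : L) * (((Units.mk0 _ hy0 : Lˣ) : L) ^ n)⁻¹ ≠ 0 :=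
    mul_ne_zero (Units.ne_zero _) (inv_ne_zero (pow_ne_zero _ (Units.ne_zero _)))
  have he'0 : e' ≠ 0 := by
    rintro rfl
    rw [map_zero] at he'
    exact hu0 he'.symm
  -- `N₀ e / e ^ n = e' ^ m`
  have hkey : N₀ e * (e ^ n)⁻¹ = e' ^ m := by
    apply φ.toRingHom.injective
    show φ (N₀ e * (e ^ n)⁻¹) = φ (e' ^ m)
    rw [map_mul, map_inv₀, map_pow, map_pow, hNN, he', ← hpow, OpHyp.coe_toHom,
      Units.val_pow_eq_pow_val, hym]
  have hN₀e : N₀ e ≠ 0 := (hΦ₀.hasFn e he0).1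
  rw [picMap_mk hΦ₀.isGood]
  have h3 : Pic0.mk (degZeroMap Φ₀ hΦ₀.isGood D₀ - n • D₀)
      = Pic0.mk (degZeroMap Φ₀ hΦ₀.isGood D₀) - n • Pic0.mk D₀ := rfl
  rw [← h3, H33.mk_eq_zero_iff]
  refine ⟨e', he'0, fun v => ?_⟩
  have h1 := hΦ₀.hasFn.kummer (m : ℤ) (D₀ : Divisor K E) he0 hD₀ v
  have h2 : v.ord (N₀ e * (e ^ n)⁻¹) = v.ord (e' ^ m) := by rw [hkey]
  rw [v.ord_mul hN₀e (inv_ne_zero (pow_ne_zero _ he0)), v.ord_inv, ord_pow_nat, ord_pow_nat,
    ← h1, ← hD₀ v] at h2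
  have h4 : (m : ℤ) * (Φ₀ (D₀ : Divisor K E) v - n * (D₀ : Divisor K E) v) = (m : ℤ) * v.ord e' := by
    rw [← h2]; ring
  have h5 := mul_left_cancel₀ (by exact_mod_cast hm : (m : ℤ) ≠ 0) h4
  rw [AddSubgroup.coe_sub, AddSubgroup.coe_nsmul, coe_degZeroMap, Finsupp.sub_apply,
    Finsupp.smul_apply, ← h5]
  simp only [nsmul_eq_mul]

end Core

end Fermat.Agent.NEB.H29

end
end
-- ==== END Fermat.Agent.NEB.H29_InvCore

-- ==== BEGIN Fermat.Agent.NEB.H84_Rel
section

/-!
# NEB, package FH-GAL, part 2 (helper84): the slash action of `Γ₀(M)` on ratios of `q`-expansions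

`Rel M γ x y` : the Laurent series `x` is the ratio `A / B` of the `q`-expansions of two forms of the
same weight on `Γ₁(M)` and `y` is the ratio of the `q`-expansions of `A ∣ γ`, `B ∣ γ`.
For `γ ∈ Γ₀(M)` this is the graph of a field automorphism of the field of all such ratios:
`rel_unique`, `rel_add`, `rel_mul`, `rel_neg`, `rel_inv`, `rel_const`, `rel_trans`.
-/

set_option autoImplicit false

open UpperHalfPlane ModularForm CongruenceSubgroup
open scoped MatrixGroups ModularForm Manifold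

noncomputable section

namespace Fermat.Agent.NEB.H84

open Fermat.Agent.S23.H22 (Nice)
open Fermat.Agent.GTor (qLaurent)
open Fermat.Agent.GTor.H56 (qLaurent_mul qLaurent_injective qLaurent_eq_zero_iff qLaurent_zero)

theorem qLaurent_add {F G : ℍ → ℂ} (hF : Nice 1 F) (hG : Nice 1 G) :
    qLaurent (F + G) = qLaurent F + qLaurent G := by
  rw [qLaurent, qLaurent, qLaurent, hF.qExpansion_add one_pos hG, map_add]

theorem qLaurent_neg {F : ℍ → ℂ} (hF : Nice 1 F) : qLaurent (-F) = -qLaurent F := by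
  rw [qLaurent, qLaurent, hF.qExpansion_neg one_pos, map_neg]

theorem qLaurent_ne_zero {F : ℍ → ℂ} (hF : Nice 1 F) (h0 : F ≠ 0) : qLaurent F ≠ 0 :=
  fun h => h0 ((qLaurent_eq_zero_iff hF).mp h)

/-- The graph of the slash action of `γ` on ratios of forms on `Γ₁(M)`. -/
def Rel (M : ℕ) (γ : SL(2, ℤ)) (x y : LaurentSeries ℂ) : Prop :=
  ∃ (k : ℤ) (A B : ℍ → ℂ), IsW M k A ∧ IsW M k B ∧ B ≠ 0 ∧
    qLaurent A = x * qLaurent B ∧ qLaurent (A ∣[k] γ) = y * qLaurent (B ∣[k] γ)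

variable {M : ℕ} {γ γ' : SL(2, ℤ)} {x y x' y' z : LaurentSeries ℂ}

theorem rel_unique (hγ : γ ∈ Gamma0 M) (h : Rel M γ x y) (h' : Rel M γ x y') : y = y' := by
  obtain ⟨k, A, B, hA, hB, hB0, hx, hy⟩ := h
  obtain ⟨k', A', B', hA', hB', hB0', hx', hy'⟩ := h'
  have h1 : A * B' = A' * B := by
    apply qLaurent_injective (hA.nice.mul hB'.nice) (hA'.nice.mul hB.nice)
    rw [qLaurent_mul hA.nice hB'.nice, qLaurent_mul hA'.nice hB.nice, hx, hx']
    ring
  have h2 : (A ∣[k] γ) * (B' ∣[k'] γ) = (A' ∣[k'] γ) * (B ∣[k] γ) := by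
    rw [← mul_slash_SL2, ← mul_slash_SL2, h1, add_comm k k']
  have hAγ := hA.slash_Gamma0 hγ
  have hBγ := hB.slash_Gamma0 hγ
  have hAγ' := hA'.slash_Gamma0 hγ
  have hBγ' := hB'.slash_Gamma0 hγ
  have h3 := congrArg qLaurent h2
  rw [qLaurent_mul hAγ.nice hBγ'.nice, qLaurent_mul hAγ'.nice hBγ.nice, hy, hy'] at h3
  have n1 : qLaurent (B ∣[k] γ) ≠ 0 := qLaurent_ne_zero hBγ.nice (slash_ne_zero k γ hB0)
  have n2 : qLaurent (B' ∣[k'] γ) ≠ 0 := qLaurent_ne_zero hBγ'.nice (slash_ne_zero k' γ hB0')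
  have h4 : (y - y') * (qLaurent (B ∣[k] γ) * qLaurent (B' ∣[k'] γ)) = 0 := by
    linear_combination h3
  rcases mul_eq_zero.mp h4 with h5 | h5
  · exact sub_eq_zero.mp h5
  · exact absurd h5 (mul_ne_zero n1 n2)

theorem rel_mul (hγ : γ ∈ Gamma0 M) (h : Rel M γ x y) (h' : Rel M γ x' y') :
    Rel M γ (x * x') (y * y') := by
  obtain ⟨k, A, B, hA, hB, hB0, hx, hy⟩ := h
  obtain ⟨k', A', B', hA', hB', hB0', hx', hy'⟩ := h'
  have hBB : B * B' ≠ 0 := by
    intro h0
    have := congrArg qLaurent h0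
    rw [qLaurent_mul hB.nice hB'.nice, qLaurent_zero] at this
    rcases mul_eq_zero.mp this with h5 | h5
    · exact qLaurent_ne_zero hB.nice hB0 h5
    · exact qLaurent_ne_zero hB'.nice hB0' h5
  refine ⟨k + k', A * A', B * B', hA.mul hA', hB.mul hB', hBB, ?_, ?_⟩
  · rw [qLaurent_mul hA.nice hA'.nice, qLaurent_mul hB.nice hB'.nice, hx, hx']
    ring
  · rw [mul_slash_SL2, mul_slash_SL2,
      qLaurent_mul (hA.slash_Gamma0 hγ).nice (hA'.slash_Gamma0 hγ).nice,
      qLaurent_mul (hB.slash_Gamma0 hγ).nice (hB'.slash_Gamma0 hγ).nice, hy, hy']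
    ring

theorem rel_add (hγ : γ ∈ Gamma0 M) (h : Rel M γ x y) (h' : Rel M γ x' y') :
    Rel M γ (x + x') (y + y') := by
  obtain ⟨k, A, B, hA, hB, hB0, hx, hy⟩ := h
  obtain ⟨k', A', B', hA', hB', hB0', hx', hy'⟩ := h'
  have hBB : B * B' ≠ 0 := by
    intro h0
    have := congrArg qLaurent h0
    rw [qLaurent_mul hB.nice hB'.nice, qLaurent_zero] at this
    rcases mul_eq_zero.mp this with h5 | h5
    · exact qLaurent_ne_zero hB.nice hB0 h5
    · exact qLaurent_ne_zero hB'.nice hB0' h5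
  have hw1 : IsW M (k + k') (A * B') := hA.mul hB'
  have hw2 : IsW M (k + k') (B * A') := hB.mul hA'
  refine ⟨k + k', A * B' + B * A', B * B', hw1.add hw2, hB.mul hB', hBB, ?_, ?_⟩
  · rw [qLaurent_add hw1.nice hw2.nice, qLaurent_mul hA.nice hB'.nice,
      qLaurent_mul hB.nice hA'.nice, qLaurent_mul hB.nice hB'.nice, hx, hx']
    ring
  · rw [SlashAction.add_slash, mul_slash_SL2, mul_slash_SL2, mul_slash_SL2,
      qLaurent_add ((hA.slash_Gamma0 hγ).mul (hB'.slash_Gamma0 hγ)).nice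
        ((hB.slash_Gamma0 hγ).mul (hA'.slash_Gamma0 hγ)).nice,
      qLaurent_mul (hA.slash_Gamma0 hγ).nice (hB'.slash_Gamma0 hγ).nice,
      qLaurent_mul (hB.slash_Gamma0 hγ).nice (hA'.slash_Gamma0 hγ).nice,
      qLaurent_mul (hB.slash_Gamma0 hγ).nice (hB'.slash_Gamma0 hγ).nice, hy, hy']
    ring

theorem rel_neg (hγ : γ ∈ Gamma0 M) (h : Rel M γ x y) : Rel M γ (-x) (-y) := by
  obtain ⟨k, A, B, hA, hB, hB0, hx, hy⟩ := h
  refine ⟨k, -A, B, hA.neg, hB, hB0, ?_, ?_⟩
  · rw [qLaurent_neg hA.nice, hx]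
    ring
  · rw [SlashAction.neg_slash, qLaurent_neg (hA.slash_Gamma0 hγ).nice, hy]
    ring

theorem rel_inv (hγ : γ ∈ Gamma0 M) (h : Rel M γ x y) (hx0 : x ≠ 0) : Rel M γ x⁻¹ y⁻¹ := by
  obtain ⟨k, A, B, hA, hB, hB0, hx, hy⟩ := h
  have nB : qLaurent B ≠ 0 := qLaurent_ne_zero hB.nice hB0
  have hA0 : A ≠ 0 := by
    rintro rfl
    rw [qLaurent_zero] at hx
    rcases mul_eq_zero.mp hx.symm with h5 | h5
    · exact hx0 h5
    · exact nB h5
  have nA : qLaurent A ≠ 0 := qLaurent_ne_zero hA.nice hA0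
  have nAγ : qLaurent (A ∣[k] γ) ≠ 0 :=
    qLaurent_ne_zero (hA.slash_Gamma0 hγ).nice (slash_ne_zero k γ hA0)
  have nBγ : qLaurent (B ∣[k] γ) ≠ 0 :=
    qLaurent_ne_zero (hB.slash_Gamma0 hγ).nice (slash_ne_zero k γ hB0)
  have hy0 : y ≠ 0 := by
    rintro rfl
    rw [zero_mul] at hy
    exact nAγ hy
  refine ⟨k, B, A, hB, hA, hA0, ?_, ?_⟩
  · rw [hx]
    field_simp
  · rw [hy]
    field_simp

theorem rel_const (M : ℕ) (γ : SL(2, ℤ)) (c : ℂ) :
    Rel M γ (qLaurent fun _ => c) (qLaurent fun _ => c) := by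
  have h1 : ((fun _ => 1 : ℍ → ℂ)) ≠ 0 := by
    intro h
    have := congrFun h UpperHalfPlane.I
    simp at this
  refine ⟨0, fun _ => c, fun _ => 1, IsW.const M c, IsW.const M 1, h1, ?_, ?_⟩
  · have : qLaurent (fun _ : ℍ => (1 : ℂ)) = 1 := by
      have h2 : (fun _ : ℍ => (1 : ℂ)) = (1 : ℍ → ℂ) := rfl
      rw [h2, qLaurent, UpperHalfPlane.qExpansion_one, map_one]
    rw [this, mul_one]
  · rw [const_slash_zero, const_slash_zero]
    have : qLaurent (fun _ : ℍ => (1 : ℂ)) = 1 := by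
      have h2 : (fun _ : ℍ => (1 : ℂ)) = (1 : ℍ → ℂ) := rfl
      rw [h2, qLaurent, UpperHalfPlane.qExpansion_one, map_one]
    rw [this, mul_one]

/-- Transitivity: the action of `γ γ'` is the composite (first `γ`, then `γ'`). -/
theorem rel_trans (hγ : γ ∈ Gamma0 M) (hγ' : γ' ∈ Gamma0 M) (h : Rel M γ x y)
    (h' : Rel M γ' y z) : Rel M (γ * γ') x z := by
  obtain ⟨k, A, B, hA, hB, hB0, hx, hy⟩ := h
  have hAγ := hA.slash_Gamma0 hγ
  have hBγ := hB.slash_Gamma0 hγ
  have nBγγ : qLaurent ((B ∣[k] γ) ∣[k] γ') ≠ 0 :=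
    qLaurent_ne_zero (hBγ.slash_Gamma0 hγ').nice (slash_ne_zero k γ' (slash_ne_zero k γ hB0))
  have h2 : Rel M γ' y (qLaurent ((A ∣[k] γ) ∣[k] γ') / qLaurent ((B ∣[k] γ) ∣[k] γ')) :=
    ⟨k, A ∣[k] γ, B ∣[k] γ, hAγ, hBγ, slash_ne_zero k γ hB0, hy, by field_simp⟩
  have h3 := rel_unique hγ' h' h2
  refine ⟨k, A, B, hA, hB, hB0, hx, ?_⟩
  rw [SlashAction.slash_mul, SlashAction.slash_mul, h3]
  field_simp

/-- A ratio of two modular forms on `Γ₀(M)` is fixed. -/
theorem rel_of_modularForm [NeZero M] (hγ : γ ∈ Gamma0 M) {k : ℤ}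
    (A B : ModularForm (Gamma0 M) k) (hB : B ≠ 0) (hx : qLaurent A = x * qLaurent B) :
    Rel M γ x x := by
  have hB0 : (B : ℍ → ℂ) ≠ 0 := fun h => hB (DFunLike.coe_injective h)
  refine ⟨k, A, B, isW_of_modularForm A, isW_of_modularForm B, hB0, hx, ?_⟩
  rw [slash_modularForm A hγ, slash_modularForm B hγ, hx]

end Fermat.Agent.NEB.H84

end
end
-- ==== END Fermat.Agent.NEB.H84_Rel

-- ==== BEGIN Fermat.Agent.S48.Asm.H01_InjFin
section

/-!
# S48, assembly G, leaf G-InjFin (helper1)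

`stmt_InjFin : Stmt_InjFin`: a finite set of nonzero algebraic integers has nonzero image under
every ring homomorphism to a field of large characteristic.

Proof: a nonzero algebraic integer `d` divides the constant term `c₀ ≠ 0` of its minimal
polynomial over `ℤ`; if `φ d = 0` then `φ c₀ = 0`, so `ℓ ∣ c₀` and `ℓ ≤ |c₀|`.
-/

set_option autoImplicit false
set_option linter.style.haveILetI false
set_option linter.unusedSectionVars false

noncomputable section

namespace Fermat.Agent.S48.Asm.H01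

open Polynomial

/-- The absolute value of the constant term of the minimal polynomial. -/
def constAbs (d : integralClosure ℤ ℂ) : ℕ := ((minpoly ℤ (d : ℂ)).coeff 0).natAbs

theorem constAbs_pos {d : integralClosure ℤ ℂ} (hd : d ≠ 0) : 0 < constAbs d := by
  unfold constAbs
  rw [Int.natAbs_pos]
  have hint : IsIntegral ℤ (d : ℂ) := d.2
  have hd' : (d : ℂ) ≠ 0 := fun h => hd (Subtype.ext h)
  have h1 : (minpoly ℚ (d : ℂ)).coeff 0 ≠ 0 :=
    minpoly.coeff_zero_ne_zero hint.tower_top hd'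
  rw [minpoly.isIntegrallyClosed_eq_field_fractions' ℚ hint, coeff_map] at h1
  intro h
  apply h1
  rw [h, map_zero]

/-- If `φ d = 0` for a ring homomorphism to a ring of characteristic `ℓ` then `ℓ` divides the
constant term of the minimal polynomial of `d`. -/
theorem dvd_constAbs_of_map_eq_zero (d : integralClosure ℤ ℂ) (ℓ : ℕ) (k : Type) [Field k]
    [CharP k ℓ] (φ : integralClosure ℤ ℂ →+* k) (h : φ d = 0) : ℓ ∣ constAbs d := by
  have hint : IsIntegral ℤ (d : ℂ) := d.2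
  set p := minpoly ℤ (d : ℂ) with hp
  have h0 : aeval (d : ℂ) p = 0 := minpoly.aeval ℤ (d : ℂ)
  have h1 : aeval d p = 0 := by
    apply Subtype.ext
    have := Subalgebra.aeval_coe (integralClosure ℤ ℂ) d p
    rw [← this, h0]
    rfl
  have h2 : aeval d (divX p) * d + algebraMap ℤ (integralClosure ℤ ℂ) (p.coeff 0) = 0 := by
    have h3 := congrArg (aeval d) (divX_mul_X_add p)
    rw [h1, map_add, map_mul, aeval_X, aeval_C] at h3
    exact h3
  have h4 := congrArg φ h2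
  rw [map_add, map_mul, h, mul_zero, zero_add, map_zero, eq_intCast, map_intCast] at h4
  have h5 : (ℓ : ℤ) ∣ p.coeff 0 := (CharP.intCast_eq_zero_iff k ℓ _).mp h4
  unfold constAbs
  exact Int.natCast_dvd.mp h5

/-- **G-InjFin.** -/
theorem stmt_InjFin : Stmt_InjFin := by
  intro D hD
  refine ⟨1 + ∑ d ∈ D, constAbs d, ?_⟩
  intro ℓ _ hℓ k _ _ φ d hd hφ
  have hd0 : d ≠ 0 := fun h => hD (h ▸ hd)
  have h1 := dvd_constAbs_of_map_eq_zero d ℓ k φ hφ
  have h2 := Nat.le_of_dvd (constAbs_pos hd0) h1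
  have h3 : constAbs d ≤ ∑ d ∈ D, constAbs d :=
    Finset.single_le_sum (f := constAbs) (fun _ _ => Nat.zero_le _) hd
  omega

end Fermat.Agent.S48.Asm.H01

end
end
-- ==== END Fermat.Agent.S48.Asm.H01_InjFin

-- ==== BEGIN Fermat.Agent.S48.Asm.H01_TraceTwo
section

/-!
# S48, assembly G, leaves G-TraceTwo and G-TraceSet (helper1)

* `eig_pow_eq_one`  : an eigenvalue of a matrix of finite order `n` is an `n`-th root of unity;
* `exists_roots_two` : a complex `2 × 2` matrix `M` with `M ^ n = 1` has eigenvalues `α`, `β`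
  with `α ^ n = β ^ n = 1`, `tr M = α + β`, `det M = α β`;
* `stmt_TraceTwo : Stmt_TraceTwo` : finite order and trace `2` force `g = 1`;
* `stmt_TraceSet : Stmt_TraceSet` : traces and determinants of the elements of order `≤ B`.
-/

set_option autoImplicit false
set_option linter.style.haveILetI false
set_option linter.unusedSectionVars false

open scoped MatrixGroups

noncomputable section

namespace Fermat.Agent.S48.Asm.H01

open Polynomial

/-- An eigenvalue of a matrix of finite order `m` is an `m`-th root of unity. -/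
theorem eig_pow_eq_one {L : Type*} [Field L] {n : Type*} [Fintype n]
    [DecidableEq n] (Q : Matrix n n L) (m : ℕ) (hQ : Q ^ m = 1) (lam : L)
    (hlam : Q.charpoly.IsRoot lam) : lam ^ m = 1 := by
  have h0 : (Matrix.scalar n lam - Q).det = 0 := by
    rw [← Matrix.eval_charpoly]
    exact hlam
  obtain ⟨v, hv, hv0⟩ := Matrix.exists_mulVec_eq_zero_iff.mpr h0
  have h1 : Q.mulVec v = lam • v := by
    rw [Matrix.sub_mulVec, sub_eq_zero] at hv0
    rw [← hv0]
    ext i
    simp [Matrix.mulVec, dotProduct, Matrix.scalar_apply, Matrix.diagonal_apply]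
  have h2 : ∀ j : ℕ, (Q ^ j).mulVec v = lam ^ j • v := by
    intro j
    induction j with
    | zero => simp
    | succ j ih =>
      rw [pow_succ, ← Matrix.mulVec_mulVec, h1, Matrix.mulVec_smul, ih, smul_smul, pow_succ,
        mul_comm]
  have h3 := h2 m
  rw [hQ, Matrix.one_mulVec] at h3
  by_contra hne
  apply hv
  have h4 : (lam ^ m - 1) • v = 0 := by
    rw [sub_smul, one_smul, ← h3, sub_self]
  rcases smul_eq_zero.mp h4 with h | h
  · exact absurd (sub_eq_zero.mp h) hne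
  · exact h

/-- The two eigenvalues of a complex `2 × 2` matrix of finite order. -/
theorem exists_roots_two (M : Matrix (Fin 2) (Fin 2) ℂ) (n : ℕ) (hM : M ^ n = 1) :
    ∃ α β : ℂ, α ^ n = 1 ∧ β ^ n = 1 ∧ M.trace = α + β ∧ M.det = α * β := by
  have hcard : Multiset.card M.charpoly.roots = 2 := by
    rw [IsAlgClosed.card_roots_eq_natDegree, Matrix.charpoly_natDegree_eq_dim,
      Fintype.card_fin]
  obtain ⟨α, β, hαβ⟩ := Multiset.card_eq_two.mp hcard
  have hα : α ∈ M.charpoly.roots := by rw [hαβ]; simp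
  have hβ : β ∈ M.charpoly.roots := by rw [hαβ]; simp
  refine ⟨α, β, eig_pow_eq_one M n hM α (Polynomial.mem_roots'.mp hα).2,
    eig_pow_eq_one M n hM β (Polynomial.mem_roots'.mp hβ).2, ?_, ?_⟩
  · rw [Matrix.trace_eq_sum_roots_charpoly, hαβ]
    simp
  · rw [Matrix.det_eq_prod_roots_charpoly, hαβ]
    simp

/-- A complex number of norm one with real part `≥ 1` is `1`. -/
theorem eq_one_of_norm_of_re {z : ℂ} (hz : ‖z‖ = 1) (hre : 1 ≤ z.re) : z = 1 := by
  have h1 : z.re ≤ 1 := by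
    have := Complex.re_le_norm z
    rw [hz] at this
    exact this
  have hre1 : z.re = 1 := le_antisymm h1 hre
  have h2 : z.re * z.re + z.im * z.im = 1 := by
    have := Complex.normSq_apply z
    rw [Complex.normSq_eq_norm_sq, hz] at this
    linarith
  have him : z.im = 0 := by
    rw [hre1] at h2
    have : z.im * z.im = 0 := by linarith
    exact mul_self_eq_zero.mp this
  exact Complex.ext (by rw [hre1, Complex.one_re]) (by rw [him, Complex.one_im])

/-- A complex `2 × 2` matrix of finite order with trace `2` is the identity. -/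
theorem matrix_eq_one_of_trace_two (M : Matrix (Fin 2) (Fin 2) ℂ) (n : ℕ) (hn : 0 < n)
    (hM : M ^ n = 1) (ht : M.trace = 2) : M = 1 := by
  obtain ⟨α, β, hα, hβ, htr, hdet⟩ := exists_roots_two M n hM
  have hnα : ‖α‖ = 1 := Complex.norm_eq_one_of_pow_eq_one hα hn.ne'
  have hnβ : ‖β‖ = 1 := Complex.norm_eq_one_of_pow_eq_one hβ hn.ne'
  have hsum : α + β = 2 := by rw [← htr, ht]
  have hre : α.re + β.re = 2 := by
    have := congrArg Complex.re hsum
    simpa using this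
  have hαre : α.re ≤ 1 := by
    have := Complex.re_le_norm α
    rw [hnα] at this
    exact this
  have hβre : β.re ≤ 1 := by
    have := Complex.re_le_norm β
    rw [hnβ] at this
    exact this
  have hα1 : α = 1 := eq_one_of_norm_of_re hnα (by linarith)
  have hβ1 : β = 1 := eq_one_of_norm_of_re hnβ (by linarith)
  have hd : M.det = 1 := by rw [hdet, hα1, hβ1, mul_one]
  -- Cayley–Hamilton: `(M - 1)² = 0`
  have hCH : M ^ 2 - (2 : ℂ) • M + 1 = 0 := by
    have h := Matrix.aeval_self_charpoly M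
    rw [Matrix.charpoly_fin_two, ht, hd] at h
    simpa [Algebra.smul_def, two_smul, two_mul] using h
  set N : Matrix (Fin 2) (Fin 2) ℂ := M - 1 with hN
  have hN2 : N * N = 0 := by
    have : N * N = M ^ 2 - (2 : ℂ) • M + 1 := by
      rw [hN, two_smul]
      noncomm_ring
    rw [this, hCH]
  have hMN : M = 1 + N := by rw [hN]; abel
  have hpow : ∀ j : ℕ, M ^ j = 1 + (j : ℂ) • N := by
    intro j
    induction j with
    | zero => simp
    | succ j ih =>
      have hstep : (1 + (j : ℂ) • N) * (1 + N) = 1 + ((j + 1 : ℕ) : ℂ) • N := by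
        rw [add_mul, mul_add, mul_add, one_mul, mul_one, one_mul, Matrix.smul_mul, hN2,
          smul_zero, add_zero]
        push_cast
        rw [add_smul, one_smul]
        abel
      rw [pow_succ, ih]
      calc (1 + (j : ℂ) • N) * M = (1 + (j : ℂ) • N) * (1 + N) := by rw [← hMN]
        _ = 1 + ((j + 1 : ℕ) : ℂ) • N := hstep
  have h1 := hpow n
  rw [hM] at h1
  have h2 : (n : ℂ) • N = 0 := by
    have := h1.symm
    rwa [add_eq_left] at this
  rcases smul_eq_zero.mp h2 with h | h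
  · exfalso
    have : (n : ℂ) ≠ 0 := by exact_mod_cast hn.ne'
    exact this h
  · rw [hMN, h, add_zero]

/-- **G-TraceTwo.** -/
theorem stmt_TraceTwo : Stmt_TraceTwo := by
  intro g n hn hg ht
  have hM : ((g : GL (Fin 2) ℂ) : Matrix (Fin 2) (Fin 2) ℂ) ^ n = 1 := by
    rw [← Units.val_pow_eq_pow_val, hg, Units.val_one]
  exact Units.ext (matrix_eq_one_of_trace_two _ n hn hM ht)

end Fermat.Agent.S48.Asm.H01

end
end
-- ==== END Fermat.Agent.S48.Asm.H01_TraceTwo

-- ==== BEGIN Fermat.Agent.S48.Cheb.H43_Bridge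
section

/-!
# S48 leaf D4: from Chebotarev for number fields to `Γℚ` (helper43)

`L ⊆ ℚ̄` finite Galois over `ℚ`, `r : Γℚ →* G` trivial on `Gal(ℚ̄/L)`.

* `rbar L r hL : Gal(L/ℚ) →* G` with `rbar (σ|L) = r σ`;
* `mem_frobPrimes`: an unramified prime `w` of `L` with Frobenius `τ`, `rbar τ = g`, gives
  `p_w ∈ frobPrimes r g`;
* `exists_frobEq_conj`: conjugating the prime.
-/

set_option autoImplicit false
set_option linter.unusedSectionVars false
set_option linter.style.haveILetI false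

namespace Fermat.Agent.S48.Cheb.H43

open NumberField IsDedekindDomain Ideal
open Fermat.Agent.Lib Fermat.Agent.Lib.FrobDensity Fermat.Agent.Lib.ZetaPrimes
open scoped Pointwise

local notation "Γℚ" => (AlgebraicClosure ℚ ≃ₐ[ℚ] AlgebraicClosure ℚ)

attribute [local instance] Fermat.Agent.Lib.FrobIntegers.qbar_isAlgebraic
  Fermat.Agent.Lib.FrobIntegers.qbar_isAlgClosure Fermat.Agent.Lib.FrobIntegers.qbar_isGalois

section

variable (L : IntermediateField ℚ (AlgebraicClosure ℚ)) [NumberField L] [IsGalois ℚ L]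
variable {G : Type} [Group G] (r : Γℚ →* G)

/-- The restriction `Γℚ → Gal(L/ℚ)` is onto. -/
lemma restrict_surjective : Function.Surjective (AlgEquiv.restrictNormalHom (F := ℚ)
    (K₁ := AlgebraicClosure ℚ) L) :=
  AlgEquiv.restrictNormalHom_surjective (AlgebraicClosure ℚ)

variable {L r} in
lemma ker_restrict_le (hL : ∀ σ : Γℚ, (∀ x ∈ L, σ x = x) → r σ = 1) :
    (AlgEquiv.restrictNormalHom (F := ℚ) (K₁ := AlgebraicClosure ℚ) L).ker ≤ r.ker := by
  intro σ hσ
  rw [MonoidHom.mem_ker] at hσ ⊢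
  apply hL
  intro x hx
  have h1 := AlgEquiv.restrictNormal_commutes σ L ⟨x, hx⟩
  have h2 : σ.restrictNormal L = 1 := hσ
  rw [h2] at h1
  exact h1.symm

/-- The factorisation of `r` through `Gal(L/ℚ)`. -/
noncomputable def rbar (hL : ∀ σ : Γℚ, (∀ x ∈ L, σ x = x) → r σ = 1) : (L ≃ₐ[ℚ] L) →* G :=
  (AlgEquiv.restrictNormalHom (F := ℚ) (K₁ := AlgebraicClosure ℚ) L).liftOfSurjective
    (restrict_surjective L) ⟨r, ker_restrict_le hL⟩

lemma rbar_apply (hL : ∀ σ : Γℚ, (∀ x ∈ L, σ x = x) → r σ = 1) (σ : Γℚ) :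
    rbar L r hL (AlgEquiv.restrictNormalHom L σ) = r σ :=
  MonoidHom.liftOfRightInverse_comp_apply _ _ _ _ σ

lemma rbar_surjective (hL : ∀ σ : Γℚ, (∀ x ∈ L, σ x = x) → r σ = 1)
    (hr : Function.Surjective r) : Function.Surjective (rbar L r hL) := by
  intro g
  obtain ⟨σ, rfl⟩ := hr g
  exact ⟨_, rbar_apply L r hL σ⟩

/-- An unramified prime `w` of `L` with Frobenius `τ`, `rbar τ = g`, gives a prime in
`frobPrimes r g`. -/
theorem mem_frobPrimes (hL : ∀ σ : Γℚ, (∀ x ∈ L, σ x = x) → r σ = 1)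
    (w : HeightOneSpectrum (𝓞 L)) (hw : Unram L w) {τ : L ≃ₐ[ℚ] L}
    (hτ : IsArithFrobAt ℤ τ w.asIdeal) {g : G} (hg : rbar L r hL τ = g) :
    ratPrime L w ∈ Fermat.Agent.S48.frobPrimes r g := by
  haveI := w.isPrime
  have hp := ratPrime_prime L w
  have hmem := ratPrime_mem L w
  obtain ⟨B, hB⟩ := H97.exists_valuationSubring_center L w.asIdeal w.ne_bot
  have hBℓ : B.LiesOverPrime (ratPrime L w) := by
    show ((ratPrime L w : ℕ) : AlgebraicClosure ℚ) ∈ B.nonunits
    rw [B.mem_nonunits_iff]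
    have := (hB _).mp hmem
    rwa [map_natCast] at this
  obtain ⟨σ, hσ⟩ := Fermat.Agent.Lib.FrobExists.exists_isFrobeniusAt _ hp B hBℓ
  have hσ' := H97.isArithFrobAt_restrict L w.asIdeal _ hp hmem B hB σ hσ
  have heq : AlgEquiv.restrictNormalHom L σ = τ := by
    have h1 := IsArithFrobAt.mul_inv_mem_inertia hσ' hτ
    have hin : w.asIdeal.inertia (L ≃ₐ[ℚ] L) = ⊥ := hw
    rw [hin, Subgroup.mem_bot] at h1
    exact mul_inv_eq_one.mp h1
  refine ⟨hp, B, σ, hBℓ, hσ, ?_⟩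
  rw [← rbar_apply L r hL σ, heq, hg]

end

end Fermat.Agent.S48.Cheb.H43

end
-- ==== END Fermat.Agent.S48.Cheb.H43_Bridge
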