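-- GENERATED (merged mirror, NOTES/tools/trim/merge3_helper67.py): 15 modules of the originals, bodies verbatim.
import Fermat.Agent.Zm.S56_L05_000
import Fermat.Agent.Zm.S56_L06_000
import Fermat.Agent.Zm.S56_L06_001
import Fermat.Agent.Zm.S56_L05_001
import Fermat.Agent.Zm.S56_L04_002
import Fermat.Agent.Zm.S56_L01_002

-- ==== BEGIN Fermat.Agent.R.Flat.H54_ClosureProd
section

/-!
# Flat closure (cluster R, helper54): `Stmt_FlatProd`
-/

set_option autoImplicit false

namespace Fermat.Agent.R.H54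

open GaloisRep

/-- **Flatness passes to binary products.** -/
theorem stmt_FlatProd : Stmt_FlatProd := by
  intro p _ M M' _ _ act act' h h'
  exact absFlat_prod act act' h h'

end Fermat.Agent.R.H54

end
-- ==== END Fermat.Agent.R.Flat.H54_ClosureProd

-- ==== BEGIN Fermat.Agent.R.Flat.H54_Subquot
section

/-!
# Flat closure (cluster R, helper54): subquotients, with control of the values

For `G`-stable subgroups `X₁ ⊆ X₂` of the points of a finite cocommutative Hopf algebra `H` over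
a principal ideal domain `R`, there is a finite free cocommutative Hopf algebra `A` over `R` and a
map `q` from the points of `H` to the points of `A` which on `X₂` is multiplicative,
`G`-equivariant, has kernel `X₁`, and whose values are values of the original points: for every
`a : A` there is `t : H` with `q f a = f t` for all `f ∈ X₂` and `counit a = counit t`.
-/

set_option autoImplicit false
set_option linter.unusedSectionVars false
set_option linter.style.haveILetI false

open scoped TensorProduct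
open WithConv

namespace Fermat.Agent.R.H54

section Subquot

variable {R K G : Type} [CommRing R] [IsDomain R] [IsPrincipalIdealRing R] [Field K] [Algebra R K]
  [Group G] [MulSemiringAction G K]

lemma resPt_one {H A : Type} [CommRing H] [HopfAlgebra R H] [CommRing A] [HopfAlgebra R A]
    (j : A →ₐ[R] H)
    (hj : ∀ a, Coalgebra.counit (R := R) (j a) = Coalgebra.counit (R := R) a) :
    resPt j (1 : Pts R H K) = 1 := by
  apply WithConv.ext
  apply AlgHom.ext
  intro a
  show algebraMap R K (Coalgebra.counit (R := R) (j a)) =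
    algebraMap R K (Coalgebra.counit (R := R) a)
  rw [hj]

/-- **Subquotients.** -/
theorem exists_subquotient_model (hD : DescentData R K G)
    {H : Type} [CommRing H] [HopfAlgebra R H] [Module.Finite R H] [Coalgebra.IsCocomm R H]
    {X₁ X₂ : Set (Pts R H K)} (hX₁ : IsGSubgroup hD X₁) (hX₂ : IsGSubgroup hD X₂) :
    ∃ (A : Type) (_ : CommRing A) (_ : HopfAlgebra R A),
      Module.Finite R A ∧ Module.Free R A ∧ Coalgebra.IsCocomm R A ∧
      ∃ q : Pts R H K → Pts R A K,
        (∀ f ∈ X₂, ∀ g ∈ X₂, q (f * g) = q f * q g) ∧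
        (∀ f ∈ X₂, (q f = 1 ↔ f ∈ X₁)) ∧
        (∀ (σ : G), ∀ f ∈ X₂, q (gconj hD σ f) = gconj hD σ (q f)) ∧
        (∀ a : A, ∃ t : H, Coalgebra.counit (R := R) a = Coalgebra.counit (R := R) t ∧
          ∀ f ∈ X₂, q f a = f t) := by
  classical
  haveI := vanIdeal_isHopfIdeal hD hX₂
  obtain ⟨hcl, -⟩ := closurePts_eq hD hX₂
  set J := vanIdeal X₂ with hJ
  haveI hfree0 := quot_free hD X₂
  haveI hfree : Module.Free R (H ⧸ J) :=
    Module.Free.of_equiv (Submodule.Quotient.restrictScalarsEquiv R J)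
  haveI hfin : Module.Finite R (H ⧸ J) :=
    Module.Finite.of_surjective (Ideal.Quotient.mkₐ R J).toLinearMap
      (Ideal.Quotient.mkₐ_surjective R J)
  haveI hflat : Module.Flat R (H ⧸ J) := Module.Flat.of_free
  haveI hcoc : Coalgebra.IsCocomm R (H ⧸ J) := isCocomm_quotient J
  -- restriction of points
  let restr : Pts R (H ⧸ J) K → Pts R H K :=
    fun g => toConv (g.ofConv.comp (Ideal.Quotient.mkₐ R J))
  have hrestr_mem : ∀ g, restr g ∈ X₂ := by
    intro g
    rw [← hcl]
    intro x hx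
    show g (Ideal.Quotient.mk J x) = 0
    rw [Ideal.Quotient.eq_zero_iff_mem.mpr hx, map_zero]
  have hrestr_inj : Function.Injective restr := by
    intro g₁ g₂ h
    apply WithConv.ext
    apply AlgHom.ext
    intro a
    obtain ⟨x, rfl⟩ := Ideal.Quotient.mk_surjective a
    have := congrArg (fun f : Pts R H K => f x) h
    exact this
  have hrestr_surj : ∀ f ∈ X₂, ∃ g, restr g = f := by
    intro f hf
    refine ⟨toConv (Ideal.Quotient.liftₐ J f.ofConv (fun x hx => mem_vanIdeal.mp hx f hf)), ?_⟩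
    apply WithConv.ext
    apply AlgHom.ext
    intro x
    rfl
  have hrestr_mul : ∀ f g, restr (f * g) = restr f * restr g := by
    intro f g
    apply WithConv.ext
    exact AlgHom.convMul_comp_bialgHom_distrib f g (Bialgebra.Quotient.mkBialgHom (R := R) J)
  have hrestr_one : restr 1 = 1 := by
    apply WithConv.ext
    apply AlgHom.ext
    intro x
    show algebraMap R K (Coalgebra.counit (R := R) (Ideal.Quotient.mk J x)) =
      algebraMap R K (Coalgebra.counit (R := R) x)
    congr 1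
  have hrestr_gal : ∀ (σ : G) g, restr (gconj hD σ g) = gconj hD σ (restr g) := by
    intro σ g
    rfl
  have hsep : ∀ h : H ⧸ J, (∀ f : Pts R (H ⧸ J) K, f h = 0) → h = 0 := by
    intro a ha
    obtain ⟨x, rfl⟩ := Ideal.Quotient.mk_surjective a
    rw [Ideal.Quotient.eq_zero_iff_mem, hJ, mem_vanIdeal]
    intro f hf
    obtain ⟨g, rfl⟩ := hrestr_surj f hf
    exact ha g
  -- the subgroup `N`
  set N : Set (Pts R (H ⧸ J) K) := {g | restr g ∈ X₁} with hNdef
  have hrestr_inv : ∀ g, restr (pinv g) = pinv (restr g) := by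
    intro g
    apply left_inv_eq_right_inv (a := restr g)
    · rw [← hrestr_mul, pinv_mul, hrestr_one]
    · rw [mul_comm, pinv_mul]
  have hN : IsGSubgroup hD N := by
    refine ⟨?_, ?_, ?_, ?_⟩
    · show restr 1 ∈ X₁
      rw [hrestr_one]
      exact hX₁.one_mem
    · intro f hf g hg
      show restr (f * g) ∈ X₁
      rw [hrestr_mul]
      exact hX₁.mul_mem _ hf _ hg
    · intro f hf
      show restr (pinv f) ∈ X₁
      rw [hrestr_inv]
      exact hX₁.inv_mem _ hf
    · intro σ f hf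
      show restr (gconj hD σ f) ∈ X₁
      rw [hrestr_gal]
      exact hX₁.stable σ _ hf
  obtain ⟨-, hNfin⟩ := closurePts_eq hD hN
  have d := subHopfData_inv hD hsep hN
  letI : HopfAlgebra R (invSub N) := d.hopfAlgebra
  haveI hfinA := finite_inv (R := R) (K := K) (H := H ⧸ J) N
  haveI hfreeA := free_inv (R := R) (K := K) (H := H ⧸ J) N
  have hcocA : Coalgebra.IsCocomm R (invSub N) := d.isCocomm
  set res : Pts R (H ⧸ J) K → Pts R (invSub N) K := resPt (invSub N).val with hres
  have hres_mul : ∀ f g, res (f * g) = res f * res g := resPt_mul _ d.map_comulA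
  have hres_one : res 1 = 1 := resPt_one _ (fun _ => rfl)
  -- the lift of a point of `X₂`
  have hlift : ∀ f : Pts R H K, ∃ g : Pts R (H ⧸ J) K, f ∈ X₂ → restr g = f := by
    intro f
    by_cases hf : f ∈ X₂
    · obtain ⟨g, hg⟩ := hrestr_surj f hf
      exact ⟨g, fun _ => hg⟩
    · exact ⟨1, fun h => absurd h hf⟩
  choose lift hlift' using hlift
  have hlift_mul : ∀ f ∈ X₂, ∀ g ∈ X₂, lift (f * g) = lift f * lift g := by
    intro f hf g hg
    apply hrestr_inj
    rw [hrestr_mul, hlift' f hf, hlift' g hg, hlift' _ (hX₂.mul_mem f hf g hg)]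
  have hlift_gal : ∀ (σ : G), ∀ f ∈ X₂, lift (gconj hD σ f) = gconj hD σ (lift f) := by
    intro σ f hf
    apply hrestr_inj
    rw [hrestr_gal, hlift' f hf, hlift' _ (hX₂.stable σ f hf)]
  refine ⟨invSub N, inferInstance, d.hopfAlgebra, hfinA, hfreeA, hcocA,
    fun f => res (lift f), ?_, ?_, ?_, ?_⟩
  · intro f hf g hg
    show res (lift (f * g)) = res (lift f) * res (lift g)
    rw [hlift_mul f hf g hg, hres_mul]
  · intro f hf
    constructor
    · intro h1
      have h1' : res (lift f) = res 1 := by rw [hres_one]; exact h1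
      obtain ⟨k, hk, hk'⟩ := sep_cosets hD hN hNfin 1 (lift f) (by
        intro a ha
        have := congrArg (fun φ : Pts R (invSub N) K => φ ⟨a, ha⟩) h1'
        exact this.symm)
      rw [one_mul] at hk'
      have : restr (lift f) ∈ X₁ := by rw [hk']; exact hk
      rwa [hlift' f hf] at this
    · intro hf1
      have hk : lift f ∈ N := by
        show restr (lift f) ∈ X₁
        rw [hlift' f hf]
        exact hf1
      show res (lift f) = 1
      rw [← hres_one]
      apply WithConv.ext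
      apply AlgHom.ext
      intro a
      have := a.2 1 (lift f) hk
      rw [one_mul] at this
      exact this
  · intro σ f hf
    show res (lift (gconj hD σ f)) = gconj hD σ (res (lift f))
    rw [hlift_gal σ f hf]
    rfl
  · intro a
    obtain ⟨t, ht⟩ := Ideal.Quotient.mk_surjective (a : H ⧸ J)
    refine ⟨t, ?_, ?_⟩
    · show Coalgebra.counit (R := R) (a : H ⧸ J) = Coalgebra.counit (R := R) t
      rw [← ht]
      rfl
    · intro f hf
      show (lift f) (a : H ⧸ J) = f t
      rw [← ht]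
      have := congrArg (fun φ : Pts R H K => φ t) (hlift' f hf)
      exact this

end Subquot

end Fermat.Agent.R.H54

end
-- ==== END Fermat.Agent.R.Flat.H54_Subquot

-- ==== BEGIN Fermat.Agent.S55.CFT.Defs_GS2
section

set_option autoImplicit false

open NumberField TensorProduct CategoryTheory

noncomputable section

namespace Fermat.Agent.S55.CFT.GS

open Fermat.Agent.S55.CFT

/-- The standing hypotheses of Layer A: `p` odd, `ζ_p ∈ K`, `L/K` finite Galois (ANY group). -/
structure HypG (K L : Type) [Field K] [Field L] [NumberField K] [NumberField L] [Algebra K L]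
    (p : ℕ) : Prop where
  prime : p.Prime
  odd : p ≠ 2
  zeta : ∃ ζ : K, IsPrimitiveRoot ζ p
  gal : IsGalois K L

/-- **A-Hasse** (Hasse principle, general Galois, `p`-primary classes): a `p`-primary class of
`H²(Gal(L/K), Lˣ)` which is locally trivial at all finite places is trivial.
(`Stmt_BrHasse` for `L/L^P` + `Stmt_CorRes`; restriction commutes with localisation: for a place
`u` of `K' = L^P` over `v`, `LocAlg K' L u` is a `Gal(L/K')`-equivariant quotient of
`LocAlg K L v`.) -/
def Stmt_BrHasseG : Prop :=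
  ∀ (p : ℕ) (K L : Type) [Field K] [Field L] [NumberField K] [NumberField L] [Algebra K L],
    HypG K L p → ∀ (k : ℕ) (x : groupCohomology (repL K L) 2), ((p : ℤ) ^ k) • x = 0 →
      (∀ v : Place K, locMap K L v 2 x = 0) → x = 0

/-- **A-One** (weak reciprocity, general Galois): a `p`-primary class of `H²(Gal(L/K), Lˣ)` with at
most one nonzero local component is locally trivial.
(Reduce to `p x = 0` by induction on `k` with A-Hasse.  `M` with `p ∣` local degree of
`L' = K(ζ_{p^M})` at `v₀` (`Stmt_DegGrow`), `N = L(ζ_{p^M})`; `res_{N/L'} inf x` is locally trivial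
(at the places over `v₀` by local splitting: `LOC.Stmt_BrauerPTors` / `Stmt_LocSplit` in general
form; elsewhere by restriction), hence `0` (A-Hasse for `N/L'`), hence `inf x = inf x'`,
`x' ∈ H²(Gal(L'/K), L'ˣ)` (`Stmt_InfResL`); `L'/K` is a cyclic `p`-extension: `Stmt_BrOne`;
`Stmt_InfJvInj`.) -/
def Stmt_BrOneG : Prop :=
  ∀ (p : ℕ) (K L : Type) [Field K] [Field L] [NumberField K] [NumberField L] [Algebra K L],
    HypG K L p → ∀ (k : ℕ) (x : groupCohomology (repL K L) 2) (v₀ : Place K),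
      ((p : ℤ) ^ k) • x = 0 →
      (∀ v : Place K, v ≠ v₀ → locMap K L v 2 x = 0) → locMap K L v₀ 2 x = 0

/-- **A-Two** (existence): for two places `v₁ ≠ v₂` of `K` (`ζ_p ∈ K`) and all large `M`, every
model `N` of `K(ζ_{p^M})` carries a class `x ∈ H²(Gal(N/K), Nˣ)` with `p x = 0`, nonzero
`v₁`-component and zero components outside `{v₁, v₂}`.
(`Stmt_BrTwo` with `L = K(ζ_{p^{M₁}})`, `p ∣` local degree at `v₁` (`Stmt_DegGrow`), `b` of order
`p` (`Stmt_SHL`); `loc_{v₁} x = inf b ≠ 0` (`Stmt_InfJvInj`); `p x` is locally trivial outside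
`v₂`, hence everywhere (`Stmt_BrOne`), hence `0` (`Stmt_BrHasse`); larger `M`: inflate; other
models: transport along the isomorphism of cyclotomic extensions.) -/
def Stmt_BrTwoG : Prop :=
  ∀ (p : ℕ) (K : Type) [Field K] [NumberField K], p.Prime → p ≠ 2 →
    (∃ ζ : K, IsPrimitiveRoot ζ p) → ∀ v₁ v₂ : Place K, v₁ ≠ v₂ →
    ∃ M₀ : ℕ, ∀ M : ℕ, M₀ ≤ M → ∀ (N : Type) [Field N] [NumberField N] [Algebra K N],
      IsCyclotomicExtension {p ^ M} K N →
      ∃ x : groupCohomology (repL K N) 2, (p : ℤ) • x = 0 ∧ locMap K N v₁ 2 x ≠ 0 ∧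
        ∀ v : Place K, v ≠ v₁ → v ≠ v₂ → locMap K N v 2 x = 0

/-- **A-H3** (`H³` dies in the cyclotomic tower, general Galois, `p`-primary classes).
(`K' = L^P`; `Stmt_BrH3` for `L/K'` kills `res x` in `N = L(ζ_{p^M})`; `N/K'` is a `p`-extension
and `[K' : K]` is prime to `p`, so `res : H³(Gal(N/K), Nˣ) → H³(Gal(N/K'), Nˣ)` is injective on
`p`-primary classes (`Stmt_CorRes`); `res ∘ inf = inf ∘ res`.) -/
def Stmt_BrH3G : Prop :=
  ∀ (p : ℕ) (K L : Type) [Field K] [Field L] [NumberField K] [NumberField L] [Algebra K L]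
    (h : HypG K L p),
    haveI : Normal K L := h.gal.to_normal
    ∃ M₀ : ℕ, ∀ M : ℕ, M₀ ≤ M → ∀ (N : Type) [Field N] [NumberField N] [Algebra K N]
      [Algebra L N] [IsScalarTower K L N], IsGalois K N → IsCyclotomicExtension {p ^ M} L N →
      ∀ (k : ℕ) (x : groupCohomology (repL K L) 3), ((p : ℤ) ^ k) • x = 0 →
        infL K L N 3 x = 0

/-- **A-Div** (`H²` is `p`-divisible in the cyclotomic tower, general Galois): for every class
`x ∈ H²(Gal(L/K), Lˣ)` and all large `M`, `inf x = p z` in every model `N` of `L(ζ_{p^M})`.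
(The prime-to-`p` part of `x` is divisible by `p`.  `p`-primary part: it has finitely many nonzero
local components (`Stmt_AdmissibleExists` + `Stmt_UnitsUnram`); split it by `L' = K(ζ_{p^M})`
(as in A-One): `inf x = inf x'`, `x' ∈ H²(Gal(L'/K), L'ˣ)`, `L'/K` cyclic; then either the
inflation formula for cyclic cocycles (`inf_{L' → L''} cyc_{L'}(a) = [L'' : L'] cyc_{L''}(a)`), or:
local divisibility (`Stmt_SHL`, `Stmt_InfJvInj`, `Stmt_DegGrow`) + `Stmt_BrTwo` at each place with
nonzero component + `Stmt_BrOne` + `Stmt_BrHasse`.) -/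
def Stmt_BrDivG : Prop :=
  ∀ (p : ℕ) (K L : Type) [Field K] [Field L] [NumberField K] [NumberField L] [Algebra K L]
    (h : HypG K L p),
    haveI : Normal K L := h.gal.to_normal
    ∀ x : groupCohomology (repL K L) 2,
    ∃ M₀ : ℕ, ∀ M : ℕ, M₀ ≤ M → ∀ (N : Type) [Field N] [NumberField N] [Algebra K N]
      [Algebra L N] [IsScalarTower K L N], IsGalois K N → IsCyclotomicExtension {p ^ M} L N →
      ∃ z : groupCohomology (repL K N) 2, (p : ℤ) • z = infL K L N 2 x

end Fermat.Agent.S55.CFT.GS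

end

end
-- ==== END Fermat.Agent.S55.CFT.Defs_GS2

-- ==== BEGIN Fermat.Agent.S55.CFT.Defs_GS3
section

set_option autoImplicit false

open CategoryTheory Module groupCohomology ExtCitation

open scoped Pointwise

noncomputable section

namespace Fermat.Agent.S55.CFT.GS

open Fermat.Agent.S55 Fermat.Agent.S55.Top

local notation "Qb" => AlgebraicClosure ℚ

/-! ### Objects -/

/-- A `p`-torsion class of `H²(G_S, Ωˣ)`: `c ∈ Z²_S(G_K, Ωˣ)`, `b ∈ C¹_S(G_K, Ωˣ)`, `cᵖ = d b`. -/
structure PTorsData (S : Finset Nat.Primes) (p : ℕ) (K : IntermediateField ℚ Qb)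
    (c : ↥K.fixingSubgroup × ↥K.fixingSubgroup → Qbˣ) (b : ↥K.fixingSubgroup → Qbˣ) : Prop where
  levc : IsLevK₂ S K c
  omc : ∀ t, InOm S (c t : Qb)
  coc : mTwo c = 1
  levb : IsLevK₁ S K b
  omb : ∀ g, InOm S (b g : Qb)
  pow : ∀ t, c t ^ p = mOne b t

/-- The element `h` of the local group, as an automorphism of `ℚ̄_q`. -/
def glAut (q : Nat.Primes) (h : Gl q) :
    haveI : Fact ((q : ℕ)).Prime := ⟨q.2⟩
    PadicAlgCl (q : ℕ) ≃ₐ[ℚ_[(q : ℕ)]] PadicAlgCl (q : ℕ) := h

/-- `c` is locally trivial at the place `w ∣ q` of `K` (`q ∈ S`). -/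
def LocTrivS {S : Finset Nat.Primes} {K : IntermediateField ℚ Qb} (𝔓 : PlaceSys S K)
    (q : ↥S) (w : 𝔓.W q) (c : ↥K.fixingSubgroup × ↥K.fixingSubgroup → Qbˣ) : Prop :=
  haveI : Fact ((q.1 : ℕ)).Prime := ⟨q.1.2⟩
  ∃ β : 𝔓.Γw q w → PadicAlgCl (q.1 : ℕ), (∀ h, β h ≠ 0) ∧ IsLevelConstant₁ (𝔓.rw q w) β ∧
    ∀ h₁ h₂ : 𝔓.Γw q w,
      padicEmbedding (q.1 : ℕ)
          (𝔓.σ q w ((c (𝔓.ρw q w h₁, 𝔓.ρw q w h₂) : Qbˣ) : Qb)) * β (h₁ * h₂) =
        glAut q.1 (h₁ : Gl q.1) (β h₂) * β h₁

/-- `ord_A(x) = k`, i.e. `|x|_A = |q|_A ^ k` (`A` a place of `ℚ̄` over `q`). -/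
def OrdIs (A : ValuationSubring Qb) (q : ℕ) (x : Qb) (k : ℤ) : Prop :=
  A.valuation x = A.valuation (q : Qb) ^ k

/-- The residue at the place `A` (over `q ∉ S`) vanishes. -/
def ResTrivAt (p : ℕ) (K : IntermediateField ℚ Qb) (A : ValuationSubring Qb) (q : ℕ)
    (b : ↥K.fixingSubgroup → Qbˣ) : Prop :=
  ∀ g : ↥K.fixingSubgroup, (g : GQ) • A = A → ∃ k : ℤ, OrdIs A q (b g : Qb) ((p : ℤ) * k)

/-! ### Brauer forms (Layer B: from Layer A by the bridge) -/

/-- **GSB-Hasse**: a `p`-torsion class of `H²(G_S, Ωˣ)` which is locally trivial at all places of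
`K` over `S` and has zero residues outside `S` is trivial (at its own level, hence in `G_S`). -/
def Stmt_GSB_Hasse : Prop :=
  ∀ (p : ℕ) [Fact p.Prime], p ≠ 2 → ∀ (S : Finset Nat.Primes), pPrime p ∈ S →
    ∀ K : IntermediateField ℚ Qb, IsBaseField S p K → ∀ 𝔓 : PlaceSys S K,
    ∀ (c : ↥K.fixingSubgroup × ↥K.fixingSubgroup → Qbˣ) (b : ↥K.fixingSubgroup → Qbˣ),
      PTorsData S p K c b →
      (∀ (q : ↥S) (w : 𝔓.W q), LocTrivS 𝔓 q w c) →
      (∀ q : Nat.Primes, q ∉ S → ∀ A : ValuationSubring Qb, A.LiesOverPrime (q : ℕ) →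
        ResTrivAt p K A (q : ℕ) b) →
      ∃ b' : ↥K.fixingSubgroup → Qbˣ, IsLevK₁ S K b' ∧ (∀ g, InOm S (b' g : Qb)) ∧
        ∀ t, c t = mOne b' t

/-- **GSB-One**: a `p`-torsion class of `H²(G_S, Ωˣ)` with zero residues outside `S` which is
locally trivial at all places over `S` but one, is locally trivial at that place too. -/
def Stmt_GSB_One : Prop :=
  ∀ (p : ℕ) [Fact p.Prime], p ≠ 2 → ∀ (S : Finset Nat.Primes), pPrime p ∈ S →
    ∀ K : IntermediateField ℚ Qb, IsBaseField S p K → ∀ 𝔓 : PlaceSys S K,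
    ∀ (c : ↥K.fixingSubgroup × ↥K.fixingSubgroup → Qbˣ) (b : ↥K.fixingSubgroup → Qbˣ),
      PTorsData S p K c b → ∀ (q₀ : ↥S) (w₀ : 𝔓.W q₀),
      (∀ (q : ↥S) (w : 𝔓.W q), (⟨q, w⟩ : Σ q : ↥S, 𝔓.W q) ≠ ⟨q₀, w₀⟩ → LocTrivS 𝔓 q w c) →
      (∀ q : Nat.Primes, q ∉ S → ∀ A : ValuationSubring Qb, A.LiesOverPrime (q : ℕ) →
        ResTrivAt p K A (q : ℕ) b) →
      LocTrivS 𝔓 q₀ w₀ c

/-- **GSB-TwoIn**: for two places `w₁ ≠ w₂` of `K` over `S` there is a `p`-torsion class of
`H²(G_S, Ωˣ)` with zero residues outside `S`, not locally trivial at `w₁`, and locally trivial at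
all places over `S` different from `w₁`, `w₂`. -/
def Stmt_GSB_TwoIn : Prop :=
  ∀ (p : ℕ) [Fact p.Prime], p ≠ 2 → ∀ (S : Finset Nat.Primes), pPrime p ∈ S →
    ∀ K : IntermediateField ℚ Qb, IsBaseField S p K → ∀ 𝔓 : PlaceSys S K,
    ∀ (q₁ : ↥S) (w₁ : 𝔓.W q₁) (q₂ : ↥S) (w₂ : 𝔓.W q₂),
      (⟨q₁, w₁⟩ : Σ q : ↥S, 𝔓.W q) ≠ ⟨q₂, w₂⟩ →
      ∃ (c : ↥K.fixingSubgroup × ↥K.fixingSubgroup → Qbˣ) (b : ↥K.fixingSubgroup → Qbˣ),
        PTorsData S p K c b ∧ ¬ LocTrivS 𝔓 q₁ w₁ c ∧
        (∀ (q : ↥S) (w : 𝔓.W q), (⟨q, w⟩ : Σ q : ↥S, 𝔓.W q) ≠ ⟨q₁, w₁⟩ →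
          (⟨q, w⟩ : Σ q : ↥S, 𝔓.W q) ≠ ⟨q₂, w₂⟩ → LocTrivS 𝔓 q w c) ∧
        ∀ q : Nat.Primes, q ∉ S → ∀ A : ValuationSubring Qb, A.LiesOverPrime (q : ℕ) →
          ResTrivAt p K A (q : ℕ) b

/-- **GSB-TwoOut**: for a place `A₁` of `ℚ̄` over `q₁ ∉ S` there is a `p`-torsion class of
`H²(G_S, Ωˣ)` with nonzero residue at `A₁` and zero residues at all places outside `S` which are
not conjugate to `A₁` under `G_K`.  (A-Two with `v₁ = A₁ ∩ K` and `v₂` a place over `p`.) -/
def Stmt_GSB_TwoOut : Prop :=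
  ∀ (p : ℕ) [Fact p.Prime], p ≠ 2 → ∀ (S : Finset Nat.Primes), pPrime p ∈ S →
    ∀ K : IntermediateField ℚ Qb, IsBaseField S p K →
    ∀ (q₁ : Nat.Primes), q₁ ∉ S → ∀ A₁ : ValuationSubring Qb, A₁.LiesOverPrime (q₁ : ℕ) →
      ∃ (c : ↥K.fixingSubgroup × ↥K.fixingSubgroup → Qbˣ) (b : ↥K.fixingSubgroup → Qbˣ),
        PTorsData S p K c b ∧ ¬ ResTrivAt p K A₁ (q₁ : ℕ) b ∧
        ∀ q : Nat.Primes, q ∉ S → ∀ A : ValuationSubring Qb, A.LiesOverPrime (q : ℕ) →
          (∀ g : ↥K.fixingSubgroup, (g : GQ) • A₁ ≠ A) → ResTrivAt p K A (q : ℕ) b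

/-! ### Local Kummer theory (island LOC) -/

/-- **GS-LocKum** (`H²(K_w, μ_p) → H²(K_w, ℚ̄_qˣ)` is injective): if the `μ_p`-valued cocycle
`ζ^a` is locally trivial at `w` (coboundary of a level constant cochain with values in `ℚ̄_qˣ`),
then `a` is locally the coboundary of a level constant cochain with values in `𝔽_p`.
(`ζ^a = d β` on `Γ_w`; `βᵖ` is a level constant 1-cocycle, so `βᵖ = (h ↦ h t / t)` by Hilbert 90
for a finite Galois extension of `K_w`; `s = t^{1/p}`; `β(h) / (h s / s) = ζ^{g(h)}`, `a = d g`;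
level constancy of `g` in the number field sense: `LOC.Stmt_L5_Krasner`.) -/
def Stmt_GS_LocKum : Prop :=
  ∀ (p : ℕ) [Fact p.Prime], p ≠ 2 → ∀ (S : Finset Nat.Primes), pPrime p ∈ S →
    ∀ K : IntermediateField ℚ Qb, IsBaseField S p K → ∀ 𝔓 : PlaceSys S K,
    ∀ ζ : Qbˣ, (ζ : Qb) ∈ K → IsPrimitiveRoot ζ p →
    ∀ a : ↥K.fixingSubgroup × ↥K.fixingSubgroup → ZMod p, IsZ2K S K a →
    ∀ (q : ↥S) (w : 𝔓.W q),
      LocTrivS 𝔓 q w (fun t => ζ ^ (a t).val) → 𝔓.res₂ q w a ∈ B2w (ZMod p) 𝔓 q w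

/-! ### Residue calculus -/

/-- **RES-Sh1** (Shapiro in degree 1, abstract): a 1-cocycle of `G` with values in the functions
on a `G`-set `X` (action `(g φ)(x) = φ(g⁻¹ x)`) which vanishes on the stabilisers is the coboundary
of a function `φ`; `φ` is invariant under every `s` with `r(g s) = r(g)` for all `g`, and vanishes
at `x` if `r` vanishes on the orbit of `x`. -/
def Stmt_RES_Sh1 : Prop :=
  ∀ (G X M : Type) [Group G] [MulAction G X] [AddCommGroup M] (r : G → X → M),
    (∀ g h x, r (g * h) x = r h (g⁻¹ • x) + r g x) → (∀ g x, g • x = x → r g x = 0) →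
    ∃ φ : X → M, (∀ g x, r g x = φ (g⁻¹ • x) - φ x) ∧
      (∀ s : G, (∀ g, r (g * s) = r g) → ∀ x, φ (s • x) = φ x) ∧
      ∀ x, (∀ (g h : G), r g (h • x) = 0) → φ x = 0

/-- **RES-Cap** (`p`-capitulation: every divisor outside `S` is principal in `Ω` modulo `p`):
a function `φ` on the places of `ℚ̄` with values in `𝔽_p`, of level `F` (unramified outside `S`)
and supported over finitely many primes, is `A ↦ ord_A(t) mod p` on the places outside `S` for
some `t ∈ Ωˣ`.
(Divisor `D` of `F` with `D ≡ φ mod p`; `h = pᵃ m` the class number of `F`, `D^h = (α)`;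
`α^{1/pᵃ} ∈ Ω` by the Kummer criterion `H6.inOm_of_pow`; `t = (α^{1/pᵃ})^{m'}`, `m m' ≡ 1 mod p`.) -/
def Stmt_RES_Cap : Prop :=
  ∀ (p : ℕ) [Fact p.Prime] (S : Finset Nat.Primes), pPrime p ∈ S →
    ∀ (φ : ValuationSubring Qb → ZMod p) (F : IntermediateField ℚ Qb),
      F.IsUnramifiedOutside S →
      (∀ s : GQ, s ∈ F.fixingSubgroup → ∀ A : ValuationSubring Qb, φ (s • A) = φ A) →
      {q : Nat.Primes | ∃ A : ValuationSubring Qb, A.LiesOverPrime (q : ℕ) ∧ φ A ≠ 0}.Finite →
      ∃ t : Qbˣ, InOm S (t : Qb) ∧ ∀ q : Nat.Primes, q ∉ S → ∀ A : ValuationSubring Qb,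
        A.LiesOverPrime (q : ℕ) → ∃ k : ℤ, OrdIs A (q : ℕ) (t : Qb) k ∧ (k : ZMod p) = φ A

/-- **RES-Cyc** (decomposition groups outside `S` are cyclic modulo every level): for a place `A`
of `ℚ̄` over `q ∉ S` and a level field `F` there is `g₀` in the decomposition group
`D = {g ∈ G_K : g A = A}` such that every `g ∈ D` is `g₀ⁿ s` with `s ∈ G_F`.
(The image of `D` in `Gal(F'/K)`, `F'` the normal closure of `F K`, acts faithfully on the residue
field of `A ∩ F'` because the inertia group fixes `F'`; automorphism groups of finite fields are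
cyclic.) -/
def Stmt_RES_Cyc : Prop :=
  ∀ (S : Finset Nat.Primes) (K F : IntermediateField ℚ Qb), K.IsUnramifiedOutside S →
    F.IsUnramifiedOutside S → ∀ q : Nat.Primes, q ∉ S → ∀ A : ValuationSubring Qb,
    A.LiesOverPrime (q : ℕ) →
    ∃ g₀ : ↥K.fixingSubgroup, (g₀ : GQ) • A = A ∧
      ∀ g : ↥K.fixingSubgroup, (g : GQ) • A = A →
        ∃ (n : ℕ) (s : ↥K.fixingSubgroup), (s : GQ) ∈ F.fixingSubgroup ∧ g = g₀ ^ n * s

/-! ### The assemblies (helper24) -/

/-- `Hasse` from its Brauer form. -/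
def Stmt_GS_AsmHasse : Prop := Stmt_GSB_Hasse → Stmt_GS_Hasse

/-- `One` from its Brauer form and local Kummer theory. -/
def Stmt_GS_AsmOne : Prop := Stmt_GSB_One → Stmt_GS_LocKum → Stmt_GS_One

/-- `Two` from its Brauer form, the residue calculus (lifting to `μ_p`) and local Kummer
theory. -/
def Stmt_GS_AsmTwo : Prop :=
  Stmt_GSB_TwoIn → Stmt_RES_Sh1 → Stmt_RES_Cap → Stmt_GS_LocKum → Stmt_GS_Two

/-- `ResOnto` from the classes with one nonzero residue and the residue calculus. -/
def Stmt_GS_AsmResOnto : Prop :=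
  Stmt_GSB_TwoOut → Stmt_RES_Sh1 → Stmt_RES_Cap → Stmt_RES_Cyc → Stmt_GS_ResOnto

end Fermat.Agent.S55.CFT.GS

end

end
-- ==== END Fermat.Agent.S55.CFT.Defs_GS3

-- ==== BEGIN Fermat.Agent.S55.CFT.Defs_THL
section

set_option autoImplicit false

open NumberField TensorProduct CategoryTheory

noncomputable section

namespace Fermat.Agent.S55.CFT

/-- The local cyclotomic symbol on the units of a finite `ℚ_q`-algebra `A`:
`β ↦ thetaLoc p M q (N_{A/ℚ_q} β)`. -/
def thetaAlg (p : Nat.Primes) (M : ℕ) (q : Nat.Primes) (A : Type) [CommRing A]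
    [Algebra (Qp q) A] (β : Aˣ) : (ZMod ((p : ℕ) ^ M))ˣ :=
  thetaLoc p M q (Units.map (Algebra.norm (Qp q) : A →* Qp q) β)

/-- **THL-Q** (abstract local statement at `q ≠ p`): `F` a finite extension of `ℚ_q`, `E/F` a
finite extension, `ζ ∈ E` a primitive `p^M`-th root of unity.  There is `β ∈ Fˣ` such that every
`σ ∈ Aut(E/F)` maps `ζ` to `ζ ^ (θ(β) ^ j)` for some `j`.
(`θ(β) = q ^ v_q(N β)`; take `β` with `v_q(N_{F/ℚ_q} β) = f`, `#k_F = q ^ f`, e.g. a uniformiser;
`σ` induces a power of the Frobenius `x ↦ x ^ #k_F` on the residue field of `E`, and the reduction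
is injective on the `p^M`-th roots of unity.) -/
def Stmt_THL_GenQ : Prop :=
  ∀ (p : Nat.Primes) (M : ℕ) (q : Nat.Primes) (F E : Type) [Field F] [Field E]
    [Algebra (Qp q) F] [FiniteDimensional (Qp q) F] [Algebra F E] [FiniteDimensional F E],
    q ≠ p → ∀ ζ : E, IsPrimitiveRoot ζ ((p : ℕ) ^ M) →
    ∃ β : Fˣ, ∀ σ : E ≃ₐ[F] E, ∃ j : ℕ,
      σ ζ = ζ ^ (((thetaAlg p M q F β) ^ j : (ZMod ((p : ℕ) ^ M))ˣ) : ZMod ((p : ℕ) ^ M)).val

/-- **THL-P** (abstract local statement at `q = p`): `F` a finite extension of `ℚ_p`, `p` odd,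
`ζ_p ∈ F`, `E/F` a finite extension, `ζ ∈ E` a primitive `p^M`-th root of unity.  There is
`β ∈ Fˣ` such that every `σ ∈ Aut(E/F)` maps `ζ` to `ζ ^ (θ(β) ^ j)` for some `j`.
(`c ≤ M` maximal with `ζ_{p^c} ∈ F`; `c = M`: `β = 1`; `c < M`: `β = b` of
`Stmt_LocalThetaOnto`, `θ(b) ≡ 1 mod p^c` by `H25.thetaLoc_norm_local`, `≢ 1 mod p^{c+1}`, so
`θ(b)` generates `{t ≡ 1 mod p^c}`, which contains the image of `Aut(E/F)`.) -/
def Stmt_THL_GenP : Prop :=
  ∀ (p : Nat.Primes) (M : ℕ) (F E : Type) [Field F] [Field E]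
    [Algebra (Qp p) F] [FiniteDimensional (Qp p) F] [Algebra F E] [FiniteDimensional F E],
    (p : ℕ) ≠ 2 → (∃ η : F, IsPrimitiveRoot η (p : ℕ)) →
    ∀ ζ : E, IsPrimitiveRoot ζ ((p : ℕ) ^ M) →
    ∃ β : Fˣ, ∀ σ : E ≃ₐ[F] E, ∃ j : ℕ,
      σ ζ = ζ ^ (((thetaAlg p M p F β) ^ j : (ZMod ((p : ℕ) ^ M))ˣ) : ZMod ((p : ℕ) ^ M)).val

/-- THL-Q and THL-P together. -/
def Stmt_THL_Gen : Prop :=
  ∀ (p : Nat.Primes) (M : ℕ) (q : Nat.Primes) (F E : Type) [Field F] [Field E]
    [Algebra (Qp q) F] [FiniteDimensional (Qp q) F] [Algebra F E] [FiniteDimensional F E],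
    (p : ℕ) ≠ 2 → (∃ η : F, IsPrimitiveRoot η (p : ℕ)) →
    ∀ ζ : E, IsPrimitiveRoot ζ ((p : ℕ) ^ M) →
    ∃ β : Fˣ, ∀ σ : E ≃ₐ[F] E, ∃ j : ℕ,
      σ ζ = ζ ^ (((thetaAlg p M q F β) ^ j : (ZMod ((p : ℕ) ^ M))ˣ) : ZMod ((p : ℕ) ^ M)).val

/-- **THL-W** (target of the wiring `Stmt_THL_Gen → Stmt_THL_Ord`): for `L = K(ζ_{p^M})`,
`ζ_p ∈ K`, and a place `v` of `K` with local degree `d`, some value of the local symbol `θ_v` has
order at least `d`.
(`M` a maximal ideal of `B = LocAlg K L v`, `D = H58.decomp` its decomposition group,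
`#D · #MaxSpec B = #G` (`H58.card_maximalSpectrum_mul`), `D` acts faithfully on the field `B/M`
(`H58.locAlg_faithful`) by `F`-automorphisms, `σ ∈ D` is determined by `σ ζ`.) -/
def Stmt_THL_Ord : Prop :=
  ∀ (p : Nat.Primes) (M : ℕ) (K L : Type) [Field K] [Field L] [NumberField K] [NumberField L]
    [Algebra K L], (p : ℕ) ≠ 2 → (∃ ζ : K, IsPrimitiveRoot ζ (p : ℕ)) →
    IsCyclotomicExtension {(p : ℕ) ^ M} K L →
    ∀ (v : Place K) (d : ℕ),
      d * Nat.card (MaximalSpectrum (LocAlg K L v)) = Module.finrank K L →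
      ∃ β : (LocAlg K K v)ˣ, d ≤ orderOf (thetaAlg p M v.1 (LocAlg K K v) β)

end Fermat.Agent.S55.CFT

end
end
-- ==== END Fermat.Agent.S55.CFT.Defs_THL

-- ==== BEGIN Fermat.Agent.S55.CFT.GS.H56_InfTrans
section

set_option autoImplicit false
set_option linter.unusedSectionVars false
set_option linter.style.haveILetI false

open NumberField TensorProduct CategoryTheory

noncomputable section

namespace Fermat.Agent.S55.CFT.GS.H56

open Fermat.Agent.S55.CFT groupCohomology

/-! ### Transitivity of inflation -/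

section trans

variable (K F' F'' N : Type) [Field K] [Field F'] [Field F''] [Field N] [NumberField K]
  [NumberField F'] [NumberField F''] [NumberField N] [Algebra K F'] [Algebra K F''] [Algebra K N]
  [Algebra F' F''] [Algebra F' N] [Algebra F'' N] [IsScalarTower K F' F''] [IsScalarTower K F' N]
  [IsScalarTower K F'' N] [IsScalarTower F' F'' N] [Normal K F'] [Normal K F'']

lemma restrictNormalHom_trans (τ : N ≃ₐ[K] N) :
    AlgEquiv.restrictNormalHom (F := K) (K₁ := F'') F'
        (AlgEquiv.restrictNormalHom (F := K) (K₁ := N) F'' τ) =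
      AlgEquiv.restrictNormalHom (F := K) (K₁ := N) F' τ := by
  apply AlgEquiv.ext
  intro x
  apply (algebraMap F' N).injective
  have h1 := AlgEquiv.restrictNormal_commutes τ F' x
  have h2 := AlgEquiv.restrictNormal_commutes τ F'' (algebraMap F' F'' x)
  have h3 := AlgEquiv.restrictNormal_commutes (AlgEquiv.restrictNormalHom (F := K) (K₁ := N) F'' τ)
    F' x
  change algebraMap F' N ((AlgEquiv.restrictNormal (AlgEquiv.restrictNormalHom (F := K) (K₁ := N)
    F'' τ) F') x) = algebraMap F' N ((AlgEquiv.restrictNormal τ F') x)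
  rw [h1, IsScalarTower.algebraMap_apply F' F'' N, h3]
  change algebraMap F'' N ((AlgEquiv.restrictNormal τ F'') (algebraMap F' F'' x)) = _
  rw [h2, ← IsScalarTower.algebraMap_apply F' F'' N]

/-- Transitivity of inflation. -/
theorem infL_infL (n : ℕ) (y : groupCohomology (repL K F') n) :
    infL K F'' N n (infL K F' F'' n y) = infL K F' N n y := by
  have h1 := groupCohomology.map_comp (A := repL K F') (B := repL K F'') (C := repL K N)
    (AlgEquiv.restrictNormalHom (F := K) (K₁ := F'') F')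
    (AlgEquiv.restrictNormalHom (F := K) (K₁ := N) F'')
    (infRepL K F' F'') (infRepL K F'' N) n
  have h2 : groupCohomology.map
      ((AlgEquiv.restrictNormalHom (F := K) (K₁ := F'') F').comp
        (AlgEquiv.restrictNormalHom (F := K) (K₁ := N) F''))
      ((Rep.resFunctor (AlgEquiv.restrictNormalHom (F := K) (K₁ := N) F'')).map
        (infRepL K F' F'') ≫ infRepL K F'' N) n =
      groupCohomology.map (AlgEquiv.restrictNormalHom (F := K) (K₁ := N) F')
        (infRepL K F' N) n := by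
    apply groupCohomology.map_congr
    · ext τ : 1
      exact restrictNormalHom_trans K F' F'' N τ
    · ext x
      apply congrArg Additive.ofMul
      apply Units.ext
      change algebraMap F'' N (algebraMap F' F'' ((Additive.toMul x : F'ˣ) : F')) =
        algebraMap F' N ((Additive.toMul x : F'ˣ) : F')
      rw [← IsScalarTower.algebraMap_apply F' F'' N]
  rw [h2] at h1
  have h3 := congrArg (fun f => f.hom y) h1
  exact h3.symm

end trans

/-! ### Inflation and restriction -/

section infres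

variable (K K' L N : Type) [Field K] [Field K'] [Field L] [Field N] [NumberField K]
  [NumberField K'] [NumberField L] [NumberField N] [Algebra K K'] [Algebra K L] [Algebra K N]
  [Algebra K' L] [Algebra K' N] [Algebra L N] [IsScalarTower K K' L] [IsScalarTower K K' N]
  [IsScalarTower K L N] [IsScalarTower K' L N] [Normal K L] [Normal K' L]

lemma restrictNormalHom_galRes (τ : N ≃ₐ[K'] N) :
    galRes K K' L (AlgEquiv.restrictNormalHom (F := K') (K₁ := N) L τ) =
      AlgEquiv.restrictNormalHom (F := K) (K₁ := N) L (galRes K K' N τ) := by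
  apply AlgEquiv.ext
  intro x
  apply (algebraMap L N).injective
  have h1 := AlgEquiv.restrictNormal_commutes τ L x
  have h2 := AlgEquiv.restrictNormal_commutes (galRes K K' N τ) L x
  change algebraMap L N ((AlgEquiv.restrictNormal τ L) x) =
    algebraMap L N ((AlgEquiv.restrictNormal (galRes K K' N τ) L) x)
  rw [h1, h2]
  rfl

/-- Inflation commutes with restriction. -/
theorem infL_resL (n : ℕ) (x : groupCohomology (repL K L) n) :
    infL K' L N n (resL K K' L n x) = resL K K' N n (infL K L N n x) := by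
  have h1 := groupCohomology.map_comp (A := repL K L) (B := repL K' L) (C := repL K' N)
    (galRes K K' L) (AlgEquiv.restrictNormalHom (F := K') (K₁ := N) L)
    (resRepL K K' L) (infRepL K' L N) n
  have h2 := groupCohomology.map_comp (A := repL K L) (B := repL K N) (C := repL K' N)
    (AlgEquiv.restrictNormalHom (F := K) (K₁ := N) L) (galRes K K' N)
    (infRepL K L N) (resRepL K K' N) n
  have h3 : groupCohomology.map
      ((galRes K K' L).comp (AlgEquiv.restrictNormalHom (F := K') (K₁ := N) L))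
      ((Rep.resFunctor (AlgEquiv.restrictNormalHom (F := K') (K₁ := N) L)).map
        (resRepL K K' L) ≫ infRepL K' L N) n =
      groupCohomology.map
      ((AlgEquiv.restrictNormalHom (F := K) (K₁ := N) L).comp (galRes K K' N))
      ((Rep.resFunctor (galRes K K' N)).map (infRepL K L N) ≫ resRepL K K' N) n := by
    apply groupCohomology.map_congr
    · ext τ : 1
      exact restrictNormalHom_galRes K K' L N τ
    · rfl
  rw [h1, h2] at h3
  exact congrArg (fun f => f.hom x) h3

end infres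

/-! ### Restriction to a subgroup, abstractly -/

/-- If `ι ∘ t` is the inclusion of the subgroup `H` and the coefficient maps compose to the
identity, then `res_H = map t ∘ map ι` (generic coefficient ring). -/
theorem res_eq_map_map {k G Γ : Type} [CommRing k] [Group G] [Group Γ] (A : Rep.{0} k G)
    (A' : Rep.{0} k Γ) (H : Subgroup G) (ι : Γ →* G) (t : H →* Γ)
    (hι : ∀ h : H, ι (t h) = (h : G))
    (ρ : Rep.res ι A ⟶ A') (φ : Rep.res t A' ⟶ Rep.res H.subtype A)
    (hφ : ∀ a : A.V, φ.hom (ρ.hom a) = a) (n : ℕ) (y : groupCohomology A n) :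
    (groupCohomology.map H.subtype (𝟙 (Rep.res H.subtype A)) n).hom y =
      (groupCohomology.map t φ n).hom ((groupCohomology.map ι ρ n).hom y) := by
  have h1 := groupCohomology.map_comp (A := A) (B := A') (C := Rep.res H.subtype A) ι t ρ φ n
  have h2 : groupCohomology.map (ι.comp t) ((Rep.resFunctor t).map ρ ≫ φ) n =
      groupCohomology.map H.subtype (𝟙 (Rep.res H.subtype A)) n := by
    apply groupCohomology.map_congr
    · ext h : 1
      exact hι h
    · apply LinearMap.ext
      intro a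
      exact hφ a
  rw [h2] at h1
  exact congrArg (fun f => f.hom y) h1

theorem resMap_eq_map_map {G Γ : Type} [Group G] [Group Γ] (A : Rep ℤ G) (A' : Rep ℤ Γ)
    (H : Subgroup G) (ι : Γ →* G) (t : H →* Γ) (hι : ∀ h : H, ι (t h) = (h : G))
    (ρ : Rep.res ι A ⟶ A') (φ : Rep.res t A' ⟶ resSub A H)
    (hφ : ∀ a : A.V, φ.hom (ρ.hom a) = a) (n : ℕ) (y : groupCohomology A n) :
    resMap A H n y = (groupCohomology.map t φ n).hom ((groupCohomology.map ι ρ n).hom y) :=
  res_eq_map_map A A' H ι t hι ρ φ hφ n y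

end Fermat.Agent.S55.CFT.GS.H56

end
end
-- ==== END Fermat.Agent.S55.CFT.GS.H56_InfTrans

-- ==== BEGIN Fermat.Agent.S55.CFT.GS.H68_LocS_Defs2
section

set_option autoImplicit false

noncomputable section

namespace Fermat.Agent.S55.CFT.GS

open Fermat.Agent.S55.CFT

/-- **LOCS-H90** (local inflation is injective in degree 2, cochain form).  `F₀ ⊆ E` finite
extensions of `ℚ_q` inside `Ω = PadicAlgCl q`, `E/F₀` normal, `Γ = Gal(Ω/F₀)`.  Let `cw` be a
2-cochain of `Γ` with values in `Eˣ`, constant modulo `Gal(Ω/E)`, which is the coboundary of a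
locally level constant `β : Γ → Ωˣ`.  Then `cw` is the coboundary of some `b : Γ → Eˣ` which is
constant modulo `Gal(Ω/E)`.
(Route = the middle part of `LOC.H68.norm_of_cup_coboundary` (`LOC/H68_CupND.lean`):
`L ⊇ E` finite Galois over `F₀` containing the level of `β` (`LOC.H68.exists_finLevel`) and the
finitely many values of `β`; `β = β̄ ∘ resΓ` (`LOC.H68.exists_factor₁`), `cw = c̄ ∘ resΓ`;
`inf c̄ = d β̄` at level `L`, so `c̄` is a coboundary at level `E` by
`LOC.H68.inf_injective (LOC.H68.galois_infData F₀ E L)` (Hilbert 90 for `L/E`).) -/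
def Stmt_LocS_H90 : Prop :=
  ∀ (q : ℕ) [Fact q.Prime] (F₀ E : IntermediateField ℚ_[q] (PadicAlgCl q)),
    FiniteDimensional ℚ_[q] ↥F₀ → FiniteDimensional ℚ_[q] ↥E → F₀ ≤ E →
    (∀ h : PadicAlgCl q ≃ₐ[ℚ_[q]] PadicAlgCl q, h ∈ F₀.fixingSubgroup →
      ∀ x : PadicAlgCl q, x ∈ E → h x ∈ E) →
    ∀ (cw : ↥F₀.fixingSubgroup × ↥F₀.fixingSubgroup → PadicAlgCl q)
      (β : ↥F₀.fixingSubgroup → PadicAlgCl q),
      (∀ t, cw t ∈ E) → (∀ t, cw t ≠ 0) →
      (∀ h₁ h₂ s₁ s₂ : ↥F₀.fixingSubgroup,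
        (s₁ : PadicAlgCl q ≃ₐ[ℚ_[q]] PadicAlgCl q) ∈ E.fixingSubgroup →
        (s₂ : PadicAlgCl q ≃ₐ[ℚ_[q]] PadicAlgCl q) ∈ E.fixingSubgroup →
        cw (h₁ * s₁, h₂ * s₂) = cw (h₁, h₂)) →
      (∀ h, β h ≠ 0) → LOC.IsLoc₁ F₀.fixingSubgroup β →
      (∀ h₁ h₂ : ↥F₀.fixingSubgroup,
        cw (h₁, h₂) * β (h₁ * h₂) =
          (h₁ : PadicAlgCl q ≃ₐ[ℚ_[q]] PadicAlgCl q) (β h₂) * β h₁) →
      ∃ b : ↥F₀.fixingSubgroup → PadicAlgCl q, (∀ h, b h ≠ 0) ∧ (∀ h, b h ∈ E) ∧
        (∀ h s : ↥F₀.fixingSubgroup,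
          (s : PadicAlgCl q ≃ₐ[ℚ_[q]] PadicAlgCl q) ∈ E.fixingSubgroup → b (h * s) = b h) ∧
        ∀ h₁ h₂ : ↥F₀.fixingSubgroup,
          cw (h₁, h₂) * b (h₁ * h₂) =
            (h₁ : PadicAlgCl q ≃ₐ[ℚ_[q]] PadicAlgCl q) (b h₂) * b h₁

end Fermat.Agent.S55.CFT.GS

end

end
-- ==== END Fermat.Agent.S55.CFT.GS.H68_LocS_Defs2

-- ==== BEGIN Fermat.Agent.S55.CFT.GS.H6_CD_Defs
section

set_option autoImplicit false

open scoped NumberField

noncomputable section

namespace Fermat.Agent.S55.CFT.GS.H6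

open IsDedekindDomain

/-- The order of `a` at the prime `v` (`0` for `a = 0`). -/
def ordAt {K : Type} [Field K] [NumberField K] (v : HeightOneSpectrum (𝓞 K)) (a : K) : ℤ :=
  -WithZero.log (v.valuation K a)

/-- **CD-ABS** (pure group theory).  `G` a commutative group with subgroups `Kx, W ≤ T` and `U`,
`D` an additive group without `p`-torsion, `ε : G → D` additive on `T` with `D / ε(Kx)` finite,
such that `t ∈ W ↔ ε t ∈ p D` on `T` and `a ∈ U ↔ ε a = 0` on `Kx`.  Then
`[T : T ∩ Kx W] ≤ [Kx ∩ W : (Kx ∩ W) ∩ U Kxᵖ] < ∞`. -/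
def Stmt_CD_ABS : Prop :=
  ∀ (G D : Type) [CommGroup G] [AddCommGroup D] (p : ℕ), p.Prime →
    ∀ (Kx W T U : Subgroup G), Kx ≤ T → W ≤ T → U ≤ Kx →
    ∀ (ε : G → D), (∀ x ∈ T, ∀ y ∈ T, ε (x * y) = ε x + ε y) →
      (∀ x : D, p • x = 0 → x = 0) →
      (∃ F : Finset D, ∀ x : D, ∃ f ∈ F, ∃ a ∈ Kx, x = f + ε a) →
      (∀ t ∈ T, (t ∈ W ↔ ∃ x : D, ε t = p • x)) →
      (∀ a ∈ Kx, (a ∈ U ↔ ε a = 0)) →
      ∀ V V' T' : Subgroup G,
        (∀ x, x ∈ V ↔ x ∈ Kx ∧ x ∈ W) →
        (∀ x, x ∈ V' ↔ ∃ u b, u ∈ U ∧ b ∈ Kx ∧ x = u * b ^ p) →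
        (∀ x, x ∈ T' ↔ ∃ c s, c ∈ Kx ∧ s ∈ W ∧ x = c * s) →
        V'.relIndex V ≠ 0 ∧ T'.relIndex T ≠ 0 ∧ T'.relIndex T ≤ V'.relIndex V

/-- **CD-NF** (finiteness of the class group, divisor form).  For a number field `K` and any set
`P` of primes of `𝓞 K` there are finitely many divisors `f` supported on `P` such that every
divisor supported on `P` is `f + div a` for one of them and some `a ∈ Kˣ`. -/
def Stmt_CD_NF : Prop :=
  ∀ (K : Type) [Field K] [NumberField K] (P : Set (HeightOneSpectrum (𝓞 K))),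
    ∃ F : Finset (P →₀ ℤ), ∀ x : P →₀ ℤ, ∃ f ∈ F, ∃ a : K, a ≠ 0 ∧
      ∀ v : P, x v = f v + ordAt v.1 a

end Fermat.Agent.S55.CFT.GS.H6

end
end
-- ==== END Fermat.Agent.S55.CFT.GS.H6_CD_Defs

-- ==== BEGIN Fermat.Agent.S55.CFT.H13_FundGal
section

set_option autoImplicit false
open NumberField TensorProduct

noncomputable section
namespace Fermat.Agent.S55.CFT.H13

open Fermat.Agent.S55.CFT

section Tower
variable (K F N : Type) [Field K] [Field F] [Field N] [Algebra K F] [Algebra F N] [Algebra K N]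
  [IsScalarTower K F N]

/-- `Gal(N/F)` as a subgroup of `Gal(N/K)`: the kernel of the restriction to `F`. -/
def kerRes [Normal K F] : Subgroup (N ≃ₐ[K] N) := (AlgEquiv.restrictNormalHom (K₁ := N) F).ker

instance kerRes_normal [Normal K F] : (kerRes K F N).Normal := by
  unfold kerRes; infer_instance

theorem mem_kerRes_iff [Normal K F] (σ : N ≃ₐ[K] N) :
    σ ∈ kerRes K F N ↔ ∀ f : F, σ (algebraMap F N f) = algebraMap F N f := by
  unfold kerRes
  rw [MonoidHom.mem_ker]
  constructor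
  · intro h f
    have := AlgEquiv.restrictNormal_commutes σ F f
    rw [← this]
    have h2 : σ.restrictNormal F = 1 := h
    rw [h2]; rfl
  · intro h
    apply AlgEquiv.ext
    intro f
    apply (algebraMap F N).injective
    have := AlgEquiv.restrictNormal_commutes σ F f
    change algebraMap F N (σ.restrictNormal F f) = algebraMap F N f
    rw [this, h]

theorem restrictScalars_mem_kerRes [Normal K F] (σ : N ≃ₐ[F] N) :
    σ.restrictScalars K ∈ kerRes K F N := by
  rw [mem_kerRes_iff]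
  intro f
  exact σ.commutes f

/-- `Gal(N/F) ≃ ker(Gal(N/K) → Gal(F/K))`. -/
def kerResEquiv [Normal K F] : (N ≃ₐ[F] N) ≃ kerRes K F N where
  toFun σ := ⟨σ.restrictScalars K, restrictScalars_mem_kerRes K F N σ⟩
  invFun s := { (s : N ≃ₐ[K] N).toRingEquiv with
    commutes' := fun f => (mem_kerRes_iff K F N _).1 s.2 f }
  left_inv σ := by ext x; rfl
  right_inv s := by apply Subtype.ext; ext x; rfl

@[simp] theorem kerResEquiv_coe [Normal K F] (σ : N ≃ₐ[F] N) :
    ((kerResEquiv K F N σ : kerRes K F N) : N ≃ₐ[K] N) = σ.restrictScalars K := rfl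

/-- `Gal(N/K)/Gal(N/F) ≃ Gal(F/K)`. -/
def quotKerRes [Normal K F] [Normal K N] : ((N ≃ₐ[K] N) ⧸ kerRes K F N) ≃* (F ≃ₐ[K] F) :=
  QuotientGroup.quotientKerEquivOfSurjective (AlgEquiv.restrictNormalHom (K₁ := N) F)
    (AlgEquiv.restrictNormalHom_surjective N)

theorem quotKerRes_mk [Normal K F] [Normal K N] (σ : N ≃ₐ[K] N) :
    quotKerRes K F N (QuotientGroup.mk σ) = AlgEquiv.restrictNormalHom F σ := rfl

end Tower

section Idele
variable (K F N : Type) [Field K] [Field F] [Field N] [NumberField K] [NumberField F]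
  [NumberField N] [Algebra K F] [Algebra F N] [Algebra K N] [IsScalarTower K F N]
  (T : Finset Nat.Primes)

theorem smul_restrictScalars (σ : N ≃ₐ[F] N) (y : IdeleT N T) :
    (σ.restrictScalars K) • y = σ • y := by
  funext q
  apply Units.ext
  rfl

theorem smul_baseIdele_tower [Normal K F] (σ : N ≃ₐ[K] N) (w : IdeleT F T) :
    σ • baseIdele F N T w = baseIdele F N T ((AlgEquiv.restrictNormalHom F σ) • w) := by
  funext q
  apply Units.ext
  rw [H12.smul_idele_apply_val, H12.baseIdele_apply_val, H12.baseIdele_apply_val,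
    H12.smul_idele_apply_val]
  generalize ((w q : (SemiLocal F q.1)ˣ) : SemiLocal F q.1) = s
  induction s using TensorProduct.induction_on with
  | zero => simp
  | add s t hs ht => simp only [map_add, hs, ht]
  | tmul a b =>
    rw [H12.semiLocalMap_tmul, semiLocalEquiv_tmul, semiLocalEquiv_tmul, H12.semiLocalMap_tmul]
    congr 1
    exact (AlgEquiv.restrictNormal_commutes σ F b).symm

end Idele

end Fermat.Agent.S55.CFT.H13

end
end
-- ==== END Fermat.Agent.S55.CFT.H13_FundGal

-- ==== BEGIN Fermat.Agent.S55.CFT.H13_TateFinal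
section

/-!
# S55-E4 package TN-2 (helper13): Tate's theorem in degree 3, unconditional

`stmt_TateH3 : Stmt_TateH3`, from helper58's twin vanishing (TN-1) and the splitting module.
-/

set_option autoImplicit false

namespace Fermat.Agent.S55.CFT.H13

/-- **TN-2**: Tate's theorem, degree 3. -/
theorem stmt_TateH3 : Stmt_TateH3 := stmt_TateH3_of H58.stmt_TwinVanishing

end Fermat.Agent.S55.CFT.H13

end
-- ==== END Fermat.Agent.S55.CFT.H13_TateFinal

-- ==== BEGIN Fermat.Agent.S55.CFT.H19_CycLoc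
section

set_option autoImplicit false
set_option linter.unusedSectionVars false
set_option linter.unusedVariables false

open NumberField TensorProduct CategoryTheory

noncomputable section

namespace Fermat.Agent.S55.CFT.H19

open Fermat.Agent.S55.CFT

variable (K L : Type) [Field K] [Field L] [NumberField K] [NumberField L] [Algebra K L]

/-- `(Lˣ)^G = Kˣ`. -/
theorem exists_unit_of_invariant [IsGalois K L] (x : Lˣ) (hx : ∀ σ : L ≃ₐ[K] L, σ • x = x) :
    ∃ a : Kˣ, Units.map (algebraMap K L : K →* L) a = x := by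
  have h1 : (x : L) ∈ Set.range (algebraMap K L) :=
    (InfiniteGalois.mem_range_algebraMap_iff_fixed (x : L)).2
      (fun σ => congrArg Units.val (hx σ))
  obtain ⟨a, ha⟩ := h1
  have ha0 : a ≠ 0 := by
    rintro rfl
    rw [map_zero] at ha
    exact x.ne_zero ha.symm
  refine ⟨Units.mk0 a ha0, ?_⟩
  apply Units.ext
  exact ha

theorem semiLocalMap_self (q : Nat.Primes) (x : SemiLocal K q) : semiLocalMap K K q x = x := by
  induction x using TensorProduct.induction_on with
  | zero => simp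
  | tmul a b => simp [semiLocalMap]
  | add a b ha hb => simp [map_add, ha, hb]

theorem placeIdeal_self (v : Place K) : placeIdeal K K v = v.2.asIdeal := by
  unfold placeIdeal
  have : ((semiLocalMap K K v.1 : SemiLocal K v.1 →ₐ[Qp v.1] SemiLocal K v.1) :
      SemiLocal K v.1 →+* SemiLocal K v.1) = RingHom.id _ :=
    RingHom.ext (fun x => semiLocalMap_self K v.1 x)
  show Ideal.map ((semiLocalMap K K v.1 : SemiLocal K v.1 →ₐ[Qp v.1] SemiLocal K v.1) :
      SemiLocal K v.1 →+* SemiLocal K v.1) v.2.asIdeal = _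
  rw [this, Ideal.map_id]

/-- `LocAlg K K v = K_v` is a field. -/
theorem isField_locAlg_self (v : Place K) : IsField (LocAlg K K v) := by
  have hmax : (placeIdeal K K v).IsMaximal := by
    rw [placeIdeal_self]
    exact v.2.isMaximal
  exact (Ideal.Quotient.maximal_ideal_iff_isField_quotient _).1 hmax

theorem locAlgTower_mk (v : Place K) (w : SemiLocal K v.1) :
    locAlgTower K K L v (Ideal.Quotient.mk _ w) = Ideal.Quotient.mk _ (semiLocalMap K L v.1 w) :=
  rfl

theorem locAlg_smul_mk (v : Place K) (σ : L ≃ₐ[K] L) (x : SemiLocal L v.1) :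
    σ • (Ideal.Quotient.mk (placeIdeal K L v) x : LocAlg K L v) =
      Ideal.Quotient.mk _ (semiLocalEquiv K L v.1 σ x) := rfl

/-- The image of `K_v` is invariant. -/
theorem smul_locAlgTower (v : Place K) (σ : L ≃ₐ[K] L) (z : LocAlg K K v) :
    σ • locAlgTower K K L v z = locAlgTower K K L v z := by
  obtain ⟨w, rfl⟩ := Ideal.Quotient.mk_surjective z
  rw [locAlgTower_mk, locAlg_smul_mk, semiLocalEquiv_semiLocalMap]

theorem smul_units_locAlgTower (v : Place K) (σ : L ≃ₐ[K] L) (β : (LocAlg K K v)ˣ) :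
    σ • Units.map (locAlgTower K K L v : LocAlg K K v →* LocAlg K L v) β =
      Units.map (locAlgTower K K L v : LocAlg K K v →* LocAlg K L v) β := by
  apply Units.ext
  exact smul_locAlgTower K L v σ (β : LocAlg K K v)

/-- The sum of the conjugates of an element of `ℚ_q ⊗ L` comes from `ℚ_q ⊗ K` (trace). -/
theorem exists_sum_semiLocalEquiv [IsGalois K L] [Fintype (L ≃ₐ[K] L)] (q : Nat.Primes)
    (x : SemiLocal L q) :
    ∃ w : SemiLocal K q, semiLocalMap K L q w = ∑ σ : L ≃ₐ[K] L, semiLocalEquiv K L q σ x := by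
  have : FiniteDimensional K L := Module.Finite.of_restrictScalars_finite ℚ K L
  induction x using TensorProduct.induction_on with
  | zero => exact ⟨0, by simp⟩
  | tmul a b =>
    refine ⟨a ⊗ₜ[ℚ] Algebra.trace K L b, ?_⟩
    have h2 : (∑ σ : L ≃ₐ[K] L, σ b) = algebraMap K L (Algebra.trace K L b) := by
      rw [trace_eq_sum_automorphisms]
      refine Finset.sum_congr ?_ (fun _ _ => rfl)
      ext
      simp
    simp only [semiLocalEquiv_tmul]
    rw [← TensorProduct.tmul_sum, h2]
    simp [semiLocalMap]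
  | add a b ha hb =>
    obtain ⟨wa, hwa⟩ := ha
    obtain ⟨wb, hwb⟩ := hb
    refine ⟨wa + wb, ?_⟩
    simp only [map_add, hwa, hwb, Finset.sum_add_distrib]

/-- `(K_v ⊗_K L)^G` is the image of `K_v`. -/
theorem exists_of_invariant_locAlg [IsGalois K L] (v : Place K) (y : LocAlg K L v)
    (hy : ∀ σ : L ≃ₐ[K] L, σ • y = y) : ∃ z : LocAlg K K v, locAlgTower K K L v z = y := by
  classical
  have : FiniteDimensional K L := Module.Finite.of_restrictScalars_finite ℚ K L
  let _ : Fintype (L ≃ₐ[K] L) := Fintype.ofFinite _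
  obtain ⟨x, rfl⟩ := Ideal.Quotient.mk_surjective y
  obtain ⟨w, hw⟩ := exists_sum_semiLocalEquiv K L v.1 x
  set N : ℕ := Fintype.card (L ≃ₐ[K] L) with hN
  have hN0 : (N : Qp v.1) ≠ 0 := by
    rw [Nat.cast_ne_zero]
    exact Fintype.card_ne_zero
  -- `N • mk x = mk (semiLocalMap w)`
  have h1 : (N : LocAlg K L v) * Ideal.Quotient.mk (placeIdeal K L v) x =
      Ideal.Quotient.mk (placeIdeal K L v) (semiLocalMap K L v.1 w) := by
    rw [hw, map_sum]
    have : ∀ σ : L ≃ₐ[K] L, Ideal.Quotient.mk (placeIdeal K L v) (semiLocalEquiv K L v.1 σ x) =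
        Ideal.Quotient.mk (placeIdeal K L v) x := by
      intro σ
      rw [← locAlg_smul_mk]
      exact hy σ
    rw [Finset.sum_congr rfl (fun σ _ => this σ), Finset.sum_const, Finset.card_univ,
      nsmul_eq_mul]
  refine ⟨Ideal.Quotient.mk _ (algebraMap (Qp v.1) (SemiLocal K v.1) ((N : Qp v.1)⁻¹) * w), ?_⟩
  rw [locAlgTower_mk, map_mul, AlgHom.commutes, map_mul, ← h1, ← mul_assoc]
  have h2 : Ideal.Quotient.mk (placeIdeal K L v)
      (algebraMap (Qp v.1) (SemiLocal L v.1) ((N : Qp v.1)⁻¹)) * (N : LocAlg K L v) = 1 := by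
    have e1 : (N : LocAlg K L v) = Ideal.Quotient.mk (placeIdeal K L v)
        (algebraMap (Qp v.1) (SemiLocal L v.1) (N : Qp v.1)) := by
      rw [map_natCast, map_natCast]
    rw [e1, ← map_mul, ← map_mul, inv_mul_cancel₀ hN0, map_one, map_one]
  rw [h2, one_mul]

/-- `((K_v ⊗_K L)ˣ)^G` is the image of `K_vˣ`. -/
theorem exists_unit_of_invariant_locAlg [IsGalois K L] (v : Place K) (u : (LocAlg K L v)ˣ)
    (hu : ∀ σ : L ≃ₐ[K] L, σ • u = u) :
    ∃ β : (LocAlg K K v)ˣ,
      Units.map (locAlgTower K K L v : LocAlg K K v →* LocAlg K L v) β = u := by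
  rcases subsingleton_or_nontrivial (LocAlg K L v) with hs | hn
  · exact ⟨1, Subsingleton.elim _ _⟩
  · obtain ⟨z, hz⟩ := exists_of_invariant_locAlg K L v (u : LocAlg K L v)
      (fun σ => congrArg Units.val (hu σ))
    have hz0 : z ≠ 0 := by
      rintro rfl
      rw [map_zero] at hz
      exact u.ne_zero hz.symm
    obtain ⟨z', hz'⟩ := (isField_locAlg_self K v).mul_inv_cancel hz0
    refine ⟨⟨z, z', hz', by rw [mul_comm]; exact hz'⟩, ?_⟩
    apply Units.ext
    exact hz

end Fermat.Agent.S55.CFT.H19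

end
end
-- ==== END Fermat.Agent.S55.CFT.H19_CycLoc

-- ==== BEGIN Fermat.Agent.S55.CFT.H19_FI
section

set_option autoImplicit false
set_option linter.unusedSectionVars false

namespace Fermat.Agent.S55.CFT.H19

open CategoryTheory CategoryTheory.Limits NumberField Module Fermat.Agent.S55.CFT.H12

section RepLevel

variable {k G : Type} [CommRing k] [Group G] [Fintype G] {E J : Rep.{0} k G} (f : E ⟶ J)

theorem hom_norm_apply (x : E) : f.hom (E.ρ.norm x) = J.ρ.norm (f.hom x) := by
  simp only [Representation.norm, LinearMap.sum_apply, map_sum]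
  exact Finset.sum_congr rfl (fun σ _ => Rep.hom_comm_apply f σ x)

/-- **The Herbrand hexagon for a cokernel**, `G` finite cyclic, `H¹(G, J) = 0`. -/
theorem card_cokernel_mul (g : G) (hg : ∀ x, x ∈ Subgroup.zpowers g)
    (hf : Function.Injective f.hom) (hJ1 : Nat.card (groupCohomology J 1) = 1) :
    Nat.card (groupCohomology (cokernel f) 2) * Nat.card (groupCohomology E 2)
      = Nat.card (groupCohomology E 1) * Nat.card (groupCohomology J 2)
        * Nat.card (groupCohomology (cokernel f) 1) := by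
  have eJ1 := card_odd J g hg 1 (by decide)
  rw [hJ1] at eJ1
  have hJ : (LinearMap.ker J.ρ.norm).toAddSubgroup ≤ (LinearMap.range (J.ρ g - 1)).toAddSubgroup :=
    AddSubgroup.relIndex_eq_one.mp eJ1.symm
  rw [card_even (cokernel f) g hg 2 (by decide), card_even E g hg 2 (by decide),
    card_odd E g hg 1 (by decide), card_even J g hg 2 (by decide),
    card_odd (cokernel f) g hg 1 (by decide)]
  refine hexagon (f.hom.toLinearMap.toAddMonoidHom) (cokerAdd f) hf (cokernel_π_surjective f)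
    (fun y => cokernel_π_eq_zero_iff f y)
    (E.ρ g - 1).toAddMonoidHom E.ρ.norm.toAddMonoidHom
    (J.ρ g - 1).toAddMonoidHom J.ρ.norm.toAddMonoidHom
    ((cokernel f).ρ g - 1).toAddMonoidHom (cokernel f).ρ.norm.toAddMonoidHom
    ?_ ?_ ?_ ?_ ?_ ?_ hJ
  · intro x
    show f.hom (E.ρ g x - x) = J.ρ g (f.hom x) - f.hom x
    rw [map_sub, Rep.hom_comm_apply]
  · intro x
    exact hom_norm_apply f x
  · intro y
    show (cokernel.π f).hom (J.ρ g y - y)
      = (cokernel f).ρ g ((cokernel.π f).hom y) - (cokernel.π f).hom y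
    rw [map_sub, cokernel_π_ρ]
  · intro y
    exact cokernel_π_norm f y
  · intro y
    show J.ρ g (J.ρ.norm y) - J.ρ.norm y = 0
    rw [Representation.self_norm_apply, sub_self]
  · intro y
    show J.ρ.norm (J.ρ g y - y) = 0
    rw [map_sub, Representation.norm_self_apply, sub_self]

/-- `#H¹(coker f)` divides `#H²(E)`. -/
theorem card_cokernel_dvd (g : G) (hg : ∀ x, x ∈ Subgroup.zpowers g)
    (hf : Function.Injective f.hom) (hJ1 : Nat.card (groupCohomology J 1) = 1) :
    Nat.card (groupCohomology (cokernel f) 1) ∣ Nat.card (groupCohomology E 2) := by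
  have eJ1 := card_odd J g hg 1 (by decide)
  rw [hJ1] at eJ1
  have hJ : (LinearMap.ker J.ρ.norm).toAddSubgroup ≤ (LinearMap.range (J.ρ g - 1)).toAddSubgroup :=
    AddSubgroup.relIndex_eq_one.mp eJ1.symm
  rw [card_even E g hg 2 (by decide), card_odd (cokernel f) g hg 1 (by decide)]
  refine hexagon_dvd (f.hom.toLinearMap.toAddMonoidHom) (cokerAdd f) hf (cokernel_π_surjective f)
    (fun y => cokernel_π_eq_zero_iff f y)
    (E.ρ g - 1).toAddMonoidHom E.ρ.norm.toAddMonoidHom
    (J.ρ g - 1).toAddMonoidHom J.ρ.norm.toAddMonoidHom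
    ((cokernel f).ρ g - 1).toAddMonoidHom (cokernel f).ρ.norm.toAddMonoidHom
    ?_ ?_ ?_ ?_ ?_ ?_ hJ
  · intro x
    show f.hom (E.ρ g x - x) = J.ρ g (f.hom x) - f.hom x
    rw [map_sub, Rep.hom_comm_apply]
  · intro x
    exact hom_norm_apply f x
  · intro y
    show (cokernel.π f).hom (J.ρ g y - y)
      = (cokernel f).ρ g ((cokernel.π f).hom y) - (cokernel.π f).hom y
    rw [map_sub, cokernel_π_ρ]
  · intro y
    exact cokernel_π_norm f y
  · intro y
    show J.ρ g (J.ρ.norm y) - J.ρ.norm y = 0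
    rw [Representation.self_norm_apply, sub_self]
  · intro y
    show J.ρ.norm (J.ρ g y - y) = 0
    rw [map_sub, Representation.norm_self_apply, sub_self]

end RepLevel

/-! ### The statements -/

section Statements

theorem diagRep_injective (K L : Type) [Field K] [Field L] [NumberField K] [NumberField L]
    [Algebra K L] (T : Finset Nat.Primes) (hT : T.Nonempty) :
    Function.Injective (diagRep K L T).hom := by
  intro x y h
  have h' : diagIdele L T ((Additive.toMul x : TUnits L T) : Lˣ)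
      = diagIdele L T ((Additive.toMul y : TUnits L T) : Lˣ) := congrArg Additive.toMul h
  have h2 := H12.diagIdele_injective L T hT h'
  exact congrArg Additive.ofMul (Subtype.ext h2)

/-- **FI** (first inequality) from the cohomology of the ideles and of the units. -/
theorem stmt_FI_of (hJC : Stmt_JCyclic) (hEH : Stmt_EHerbrand) (hPl : Stmt_Places) : Stmt_FI := by
  intro p K L _ _ _ _ _ T hp hdeg hadm
  have hgal := hadm.gal
  have hcard : Nat.card (L ≃ₐ[K] L) = p := by
    rw [IsGalois.card_aut_eq_finrank, hdeg]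
  have hpp : Fact p.Prime := ⟨hp⟩
  have hcyc : IsCyclic (L ≃ₐ[K] L) := isCyclic_of_prime_card hcard
  obtain ⟨g, hg⟩ := hcyc.exists_generator
  have hfinG : Finite (L ≃ₐ[K] L) := inferInstance
  let _ : Fintype (L ≃ₐ[K] L) := Fintype.ofFinite _
  obtain ⟨hJ1, hJ2⟩ := hJC p K L T hp hdeg hgal
  obtain ⟨hE1, hE2, hEeq⟩ := hEH p K L T hp hdeg hgal hadm.cplx
  have hpl := hPl K L T
  have hTne : T.Nonempty := by
    obtain ⟨q, hq, -⟩ := hadm.pmem
    exact ⟨q, hq⟩
  have hinj := diagRep_injective K L T hTne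
  have hJ1' : Nat.card (groupCohomology (repJ K L T) 1) = 1 := Nat.card_unique
  have key := card_cokernel_mul (diagRep K L T) g hg hinj hJ1'
  have hdvd := card_cokernel_dvd (diagRep K L T) g hg hinj hJ1'
  have he1 : 0 < Nat.card (groupCohomology (repE K L T) 1) := Nat.card_pos
  have he2 : 0 < Nat.card (groupCohomology (repE K L T) 2) := Nat.card_pos
  have hc1 : Nat.card (groupCohomology (repC K L T) 1) ≠ 0 := fun h0 => by
    rw [h0] at hdvd
    exact he2.ne' (zero_dvd_iff.mp hdvd)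
  rw [hJ2, hpl] at key
  have hmain : Nat.card (groupCohomology (repC K L T) 2)
      = p * Nat.card (groupCohomology (repC K L T) 1) := by
    have hpos : 0 < p ^ nonsplitCount K L T * Nat.card (groupCohomology (repE K L T) 1) :=
      Nat.mul_pos (pow_pos hp.pos _) he1
    apply Nat.eq_of_mul_eq_mul_right hpos
    calc Nat.card (groupCohomology (repC K L T) 2)
          * (p ^ nonsplitCount K L T * Nat.card (groupCohomology (repE K L T) 1))
        = Nat.card (groupCohomology (repC K L T) 2)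
          * (p * Nat.card (groupCohomology (repE K L T) 2)) := by rw [hEeq]
      _ = p * (Nat.card (groupCohomology (repC K L T) 2)
          * Nat.card (groupCohomology (repE K L T) 2)) := by ring
      _ = p * (Nat.card (groupCohomology (repE K L T) 1) * p ^ nonsplitCount K L T
          * Nat.card (groupCohomology (repC K L T) 1)) := by rw [key]
      _ = p * Nat.card (groupCohomology (repC K L T) 1)
          * (p ^ nonsplitCount K L T * Nat.card (groupCohomology (repE K L T) 1)) := by ring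
  refine ⟨Nat.finite_of_card_ne_zero hc1, Nat.finite_of_card_ne_zero ?_, hmain⟩
  rw [hmain]
  exact Nat.mul_ne_zero hp.ne_zero hc1

/-- **SI'** from the index form. -/
theorem stmt_SIidelic_of (hH2 : Stmt_H2Index) (hSI : Stmt_SIindex) : Stmt_SIidelic := by
  intro p K L _ _ _ _ _ T hp hdeg hadm
  have hgal := hadm.gal
  have hcard : Nat.card (L ≃ₐ[K] L) = p := by
    rw [IsGalois.card_aut_eq_finrank, hdeg]
  have hpp : Fact p.Prime := ⟨hp⟩
  have hcyc : IsCyclic (L ≃ₐ[K] L) := isCyclic_of_prime_card hcard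
  have h2 := hH2 p K L T hadm hcyc
  obtain ⟨hne, hle⟩ := hSI p K L T hadm
  rw [hdeg] at hle
  refine ⟨Nat.finite_of_card_ne_zero (by rw [h2]; exact hne), ?_⟩
  rw [h2]
  exact hle

/-- **CF-cyc** from the two inequalities. -/
theorem stmt_CFcyc_of (hFI : Stmt_FI) (hSI : Stmt_SIidelic) : Stmt_CFcyc := by
  intro p K L _ _ _ _ _ T hp hdeg hadm
  obtain ⟨hf1, hf2, heq⟩ := hFI p K L T hp hdeg hadm
  obtain ⟨-, hle⟩ := hSI p K L T hp hdeg hadm
  have hc1 : 0 < Nat.card (groupCohomology (repC K L T) 1) := Nat.card_pos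
  have h1 : Nat.card (groupCohomology (repC K L T) 1) = 1 := by
    rw [heq] at hle
    have : p * Nat.card (groupCohomology (repC K L T) 1) ≤ p * 1 := by rwa [mul_one]
    have := Nat.le_of_mul_le_mul_left this hp.pos
    omega
  refine ⟨(Nat.card_eq_one_iff_unique.mp h1).1, ?_⟩
  rw [heq, h1, mul_one]

end Statements

end Fermat.Agent.S55.CFT.H19

end
-- ==== END Fermat.Agent.S55.CFT.H19_FI

-- ==== BEGIN Fermat.Agent.S55.CFT.H19_ValH3
section

set_option autoImplicit false
set_option linter.unusedSectionVars false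
set_option linter.unusedVariables false
set_option linter.style.haveILetI false

open NumberField IsDedekindDomain CategoryTheory

noncomputable section

namespace Fermat.Agent.S55.CFT.H19

open Fermat.Agent.S55.CFT

/-- `Hⁱ(G, Div^T(L)) = 0` for odd `i`, if `L/K` is unramified outside `T`. -/
theorem isZero_divRep_odd (K L : Type) [Field K] [Field L] [NumberField K] [NumberField L]
    [Algebra K L] (T : Finset Nat.Primes) (hunr : UnramifiedOutsideT K L T) (i : ℕ)
    (hi : Odd i) : Limits.IsZero (groupCohomology (divRep K L T) i) := by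
  haveI : FiniteDimensional K L := Module.Finite.of_restrictScalars_finite ℚ K L
  haveI : Finite (L ≃ₐ[K] L) := inferInstance
  refine isZero_permObj_odd (k := ℤ) (fun m a hm h => ?_) (PrimeOut L T)
    (isCyclic_stabilizer K L T hunr) i hi
  rcases smul_eq_zero.1 h with h1 | h1
  · exact absurd h1 hm
  · exact h1

/-- **VAL-d**. -/
theorem stmt_ValH3 : Stmt_ValH3 := by
  intro p K L _ _ _ _ _ T hadm x
  have hses := valSeq_shortExact K L T (hadm.cl L)
  have hex := groupCohomology.mapShortComplex₂_exact hses 3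
  rw [ShortComplex.moduleCat_exact_iff] at hex
  have hz := isZero_divRep_odd K L T hadm.unr 3 (by decide)
  have hsub := ModuleCat.isZero_iff_subsingleton.1 hz
  obtain ⟨e, he⟩ := hex x (hsub.elim _ _)
  exact ⟨e, he⟩

end Fermat.Agent.S55.CFT.H19

end
end
-- ==== END Fermat.Agent.S55.CFT.H19_ValH3

-- ==== BEGIN Fermat.Agent.S55.CFT.H31_SIAsm
section

/-!
# S55/E4, package SI'' (helper31): the ray map of the norm residue group

`dNorm K L T : Kˣ → J_{K,T} / (E_K · N_{L/K} J_{L,T})`, the class of the diagonal idele.  From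
`H12.Stmt_SemiLocalPow` and `H12.Stmt_WeakApprox`:

* `exists_isRayMap_dNorm`: `rayVal hcl (dNorm K L T)` is a ray class map mod `(∏ T)^N`
  (`Fermat.Agent.Lib.SecondIneq.IsRayMap`), for `N` large;
* `rayVal_dNorm_under`: it is trivial on the primes of `K` under a prime of `L` of prime
  absolute norm (the hypothesis of `Stmt_T2m`).

Both survive composition with a surjective homomorphism `J_{K,T} / (E_K · N J_L) → A`
(`exists_isRayMap_comp`, `rayVal_comp_under`), which is the form needed to bound the finite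
quotients of the norm residue group.
-/

set_option autoImplicit false
set_option linter.unusedSectionVars false

open NumberField Ideal

noncomputable section

namespace Fermat.Agent.S55.CFT.H31

open Fermat.Agent.S55.CFT Fermat.Agent.Lib.SecondIneq

variable (K L : Type) [Field K] [Field L] [NumberField K] [NumberField L] [Algebra K L]
  (T : Finset Nat.Primes)

/-- The class of the diagonal idele modulo the norm group. -/
def dNorm : Kˣ →* (IdeleT K T ⧸ normGroup K L T) :=
  (QuotientGroup.mk' (normGroup K L T)).comp (diagIdele K T)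

lemma dNorm_eq_one_of_mem {x : Kˣ} (hx : diagIdele K T x ∈ normGroup K L T) :
    dNorm K L T x = 1 :=
  (QuotientGroup.eq_one_iff _).2 hx

lemma dNorm_TUnits (e : Kˣ) (he : e ∈ TUnits K T) : dNorm K L T e = 1 :=
  dNorm_eq_one_of_mem K L T (Subgroup.mem_sup_left ⟨e, he, rfl⟩)

lemma dNorm_range {x : Kˣ} (hx : diagIdele K T x ∈ (normLK K L T).range) :
    dNorm K L T x = 1 :=
  dNorm_eq_one_of_mem K L T (Subgroup.mem_sup_right hx)

section comp

variable {A : Type} [CommGroup A] (f : (IdeleT K T ⧸ normGroup K L T) →* A)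

/-- The ray map of `f ∘ dNorm` is a ray class map mod `(∏ T)^N` for `N` large, if `f` is onto. -/
theorem exists_isRayMap_comp (hPow : H12.Stmt_SemiLocalPow) (hWA : H12.Stmt_WeakApprox)
    (hcl : ClTrivial K T) (hf : Function.Surjective f) :
    ∃ N : ℕ, IsRayMap (idealT K T ^ N) (rayVal hcl (f.comp (dNorm K L T))) := by
  obtain ⟨N, hN⟩ := exists_ray_mem_range K L T hPow
  refine ⟨N, isRayMap_rayVal hcl (fun e he => ?_) N (fun a ha h => ?_) (fun g => ?_)⟩
  · rw [MonoidHom.comp_apply, dNorm_TUnits K L T e he, map_one]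
  · rw [MonoidHom.comp_apply, dNorm_range K L T (hN a ha h), map_one]
  · obtain ⟨y, rfl⟩ := hf g
    obtain ⟨x, rfl⟩ := QuotientGroup.mk'_surjective _ y
    obtain ⟨b, hb, hbx⟩ := exists_int_div_mem K L T hPow hWA x
    refine ⟨b, hb, ?_⟩
    rw [MonoidHom.comp_apply]
    congr 1
    exact (QuotientGroup.eq_iff_div_mem).2 hbx

/-- The ray map of `f ∘ dNorm` is trivial on the primes under a prime of `L` of prime absolute
norm. -/
theorem rayVal_comp_under [IsGalois K L] (hclK : ClTrivial K T) (hclL : ClTrivial L T)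
    (Q : Ideal (𝓞 L)) [Q.IsPrime] (hQ : (Ideal.absNorm Q).Prime) :
    rayVal hclK (f.comp (dNorm K L T)) (Q.under (𝓞 K)) = 1 :=
  rayVal_under_eq_one K L T hclK hclL _
    (fun e he => by rw [MonoidHom.comp_apply, dNorm_TUnits K L T e he, map_one])
    (fun x hx => by rw [MonoidHom.comp_apply, dNorm_range K L T hx, map_one]) Q hQ

end comp

/-- `rayVal hcl (dNorm K L T)` is a ray class map mod `(∏ T)^N` for `N` large. -/
theorem exists_isRayMap_dNorm (hPow : H12.Stmt_SemiLocalPow) (hWA : H12.Stmt_WeakApprox)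
    (hcl : ClTrivial K T) :
    ∃ N : ℕ, IsRayMap (idealT K T ^ N)
      (rayVal (G := IdeleT K T ⧸ normGroup K L T) hcl (dNorm K L T)) := by
  obtain ⟨N, hN⟩ := exists_ray_mem_range K L T hPow
  refine ⟨N, isRayMap_rayVal hcl (dNorm_TUnits K L T) N
    (fun a ha h => dNorm_range K L T (hN a ha h)) (fun g => ?_)⟩
  obtain ⟨x, rfl⟩ := QuotientGroup.mk'_surjective _ g
  obtain ⟨b, hb, hbx⟩ := exists_int_div_mem K L T hPow hWA x
  exact ⟨b, hb, (QuotientGroup.eq_iff_div_mem).2 hbx⟩

/-- `rayVal hcl (dNorm K L T)` is trivial on the primes under a prime of `L` of prime absolute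
norm. -/
theorem rayVal_dNorm_under [IsGalois K L] (hclK : ClTrivial K T) (hclL : ClTrivial L T)
    (Q : Ideal (𝓞 L)) [Q.IsPrime] (hQ : (Ideal.absNorm Q).Prime) :
    rayVal (G := IdeleT K T ⧸ normGroup K L T) hclK (dNorm K L T) (Q.under (𝓞 K)) = 1 :=
  rayVal_under_eq_one K L T hclK hclL _ (dNorm_TUnits K L T)
    (fun _ hx => dNorm_range K L T hx) Q hQ

end Fermat.Agent.S55.CFT.H31

end
end
-- ==== END Fermat.Agent.S55.CFT.H31_SIAsm

-- ==== BEGIN Fermat.Agent.S55.CFT.H56_LocNat
section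

set_option autoImplicit false
set_option linter.style.haveILetI false

open NumberField TensorProduct CategoryTheory

noncomputable section
namespace Fermat.Agent.S55.CFT.H56

open Fermat.Agent.S55.CFT groupCohomology

variable (K L N : Type) [Field K] [Field L] [Field N] [NumberField K] [NumberField L]
  [NumberField N] [Algebra K L] [Algebra K N] [Algebra L N] [IsScalarTower K L N]

/-! ### Inflation -/

section inflation

variable [Normal K L]

lemma infRepL_locRep (v : Place K) :
    infRepL K L N ≫ locRep K N v =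
      (Rep.resFunctor (AlgEquiv.restrictNormalHom (F := K) (K₁ := N) L)).map (locRep K L v) ≫
        infRepJv K L N v := by
  ext x
  apply congrArg Additive.ofMul
  apply Units.ext
  change Ideal.Quotient.mk _ ((1 : Qp v.1) ⊗ₜ[ℚ] (algebraMap L N ((Additive.toMul x : Lˣ) : L))) =
    locAlgTower K L N v (Ideal.Quotient.mk _ ((1 : Qp v.1) ⊗ₜ[ℚ] ((Additive.toMul x : Lˣ) : L)))
  change _ = Ideal.Quotient.mk _ (semiLocalMap L N v.1 ((1 : Qp v.1) ⊗ₜ[ℚ] _))
  simp [semiLocalMap]

/-- `loc_v ∘ inf = inf_v ∘ loc_v`. -/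
theorem locMap_infL (v : Place K) (n : ℕ) (x : groupCohomology (repL K L) n) :
    locMap K N v n (infL K L N n x) = infJv K L N v n (locMap K L v n x) := by
  have h1 := groupCohomology.map_comp (A := repL K L) (B := repL K N) (C := repJv K N v)
    (AlgEquiv.restrictNormalHom (F := K) (K₁ := N) L) (MonoidHom.id _)
    (infRepL K L N) (locRep K N v) n
  have h2 := groupCohomology.map_comp (A := repL K L) (B := repJv K L v) (C := repJv K N v)
    (MonoidHom.id _) (AlgEquiv.restrictNormalHom (F := K) (K₁ := N) L)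
    (locRep K L v) (infRepJv K L N v) n
  have h3 : groupCohomology.map
      ((AlgEquiv.restrictNormalHom (F := K) (K₁ := N) L).comp (MonoidHom.id _))
      ((Rep.resFunctor (MonoidHom.id _)).map (infRepL K L N) ≫ locRep K N v) n =
    groupCohomology.map
      ((MonoidHom.id _).comp (AlgEquiv.restrictNormalHom (F := K) (K₁ := N) L))
      ((Rep.resFunctor (AlgEquiv.restrictNormalHom (F := K) (K₁ := N) L)).map (locRep K L v) ≫
        infRepJv K L N v) n := by
    apply groupCohomology.map_congr rfl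
    have := infRepL_locRep K L N v
    exact congrArg (fun f => f.hom.toLinearMap) this
  rw [h1, h2] at h3
  have h4 := congrArg (fun f => f.hom x) h3
  exact h4

end inflation

/-! ### Restriction -/

section restriction

variable (q : Nat.Primes) (v : MaximalSpectrum (SemiLocal K q))
  (u : MaximalSpectrum (SemiLocal L q))

lemma placeIdeal_le_of_comap (h : u.asIdeal.comap (semiLocalMap K L q) = v.asIdeal) :
    placeIdeal K N ⟨q, v⟩ ≤ placeIdeal L N ⟨q, u⟩ := by
  rw [placeIdeal, Ideal.map_le_iff_le_comap]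
  intro x hx
  rw [Ideal.mem_comap]
  change semiLocalMap K N q x ∈ _
  rw [← _root_.Fermat.Agent.S55.CFT.semiLocalMap_comp K L N q x]
  apply Ideal.mem_map_of_mem
  change semiLocalMap K L q x ∈ u.asIdeal
  rw [← Ideal.mem_comap, h]
  exact hx

/-- The projection `K_v ⊗_K N → L_u ⊗_L N` for `u ∣ v`. -/
def locAlgRes (h : u.asIdeal.comap (semiLocalMap K L q) = v.asIdeal) :
    LocAlg K N ⟨q, v⟩ →+* LocAlg L N ⟨q, u⟩ :=
  Ideal.Quotient.factor (placeIdeal_le_of_comap K L N q v u h)

lemma locAlgRes_mk (h : u.asIdeal.comap (semiLocalMap K L q) = v.asIdeal) (x : SemiLocal N q) :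
    locAlgRes K L N q v u h (Ideal.Quotient.mk _ x) = Ideal.Quotient.mk _ x := rfl

lemma semiLocalEquiv_restrictScalars (τ : N ≃ₐ[L] N) (x : SemiLocal N q) :
    semiLocalEquiv K N q (galRes K L N τ) x = semiLocalEquiv L N q τ x := by
  induction x using TensorProduct.induction_on with
  | zero => simp
  | tmul a b =>
    rw [semiLocalEquiv_tmul, semiLocalEquiv_tmul]
    rfl
  | add a b ha hb => simp only [map_add, ha, hb]

lemma locAlgRes_smul (h : u.asIdeal.comap (semiLocalMap K L q) = v.asIdeal) (τ : N ≃ₐ[L] N)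
    (x : LocAlg K N ⟨q, v⟩) :
    locAlgRes K L N q v u h (locAlgMap K N ⟨q, v⟩ (galRes K L N τ) x) =
      locAlgMap L N ⟨q, u⟩ τ (locAlgRes K L N q v u h x) := by
  obtain ⟨y, rfl⟩ := Ideal.Quotient.mk_surjective x
  rw [locAlgMap_mk, locAlgRes_mk, locAlgRes_mk, locAlgMap_mk,
    semiLocalEquiv_restrictScalars K L N q τ y]

/-- Restriction of the local components as a morphism of `Gal(N/L)`-modules. -/
def resRepJv (h : u.asIdeal.comap (semiLocalMap K L q) = v.asIdeal) :
    Rep.res (galRes K L N) (repJv K N ⟨q, v⟩) ⟶ repJv L N ⟨q, u⟩ :=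
  Rep.ofHom (LinearMap.intertwiningMap_of_isIntertwiningMap _ _
    ((Units.map (locAlgRes K L N q v u h : LocAlg K N ⟨q, v⟩ →* LocAlg L N ⟨q, u⟩)).toAdditive.toIntLinearMap)
    (fun τ x => congrArg Additive.ofMul (Units.ext
      (locAlgRes_smul K L N q v u h τ
        ((Additive.toMul x : (LocAlg K N ⟨q, v⟩)ˣ) : LocAlg K N ⟨q, v⟩)))))

/-- Restriction `Hⁿ(Gal(N/K), (K_v ⊗ N)ˣ) → Hⁿ(Gal(N/L), (L_u ⊗ N)ˣ)` for `u ∣ v`. -/
def resJv (h : u.asIdeal.comap (semiLocalMap K L q) = v.asIdeal) (n : ℕ) :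
    groupCohomology (repJv K N ⟨q, v⟩) n →ₗ[ℤ] groupCohomology (repJv L N ⟨q, u⟩) n :=
  (groupCohomology.map (galRes K L N) (resRepJv K L N q v u h) n).hom

lemma resRepL_locRep (h : u.asIdeal.comap (semiLocalMap K L q) = v.asIdeal) :
    resRepL K L N ≫ locRep L N ⟨q, u⟩ =
      (Rep.resFunctor (galRes K L N)).map (locRep K N ⟨q, v⟩) ≫ resRepJv K L N q v u h := by
  ext x
  rfl

/-- `loc_u ∘ res = res_{u ∣ v} ∘ loc_v`. -/
theorem locMap_resL (h : u.asIdeal.comap (semiLocalMap K L q) = v.asIdeal) (n : ℕ)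
    (x : groupCohomology (repL K N) n) :
    locMap L N ⟨q, u⟩ n (resL K L N n x) = resJv K L N q v u h n (locMap K N ⟨q, v⟩ n x) := by
  have h1 := groupCohomology.map_comp (A := repL K N) (B := repL L N) (C := repJv L N ⟨q, u⟩)
    (galRes K L N) (MonoidHom.id _) (resRepL K L N) (locRep L N ⟨q, u⟩) n
  have h2 := groupCohomology.map_comp (A := repL K N) (B := repJv K N ⟨q, v⟩)
    (C := repJv L N ⟨q, u⟩) (MonoidHom.id _) (galRes K L N)
    (locRep K N ⟨q, v⟩) (resRepJv K L N q v u h) n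
  have h3 : groupCohomology.map ((galRes K L N).comp (MonoidHom.id _))
      ((Rep.resFunctor (MonoidHom.id _)).map (resRepL K L N) ≫ locRep L N ⟨q, u⟩) n =
    groupCohomology.map ((MonoidHom.id _).comp (galRes K L N))
      ((Rep.resFunctor (galRes K L N)).map (locRep K N ⟨q, v⟩) ≫ resRepJv K L N q v u h) n := by
    apply groupCohomology.map_congr rfl
    have := resRepL_locRep K L N q v u h
    exact congrArg (fun f => f.hom.toLinearMap) this
  rw [h1, h2] at h3
  have h4 := congrArg (fun f => f.hom x) h3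
  exact h4

/-- A class which is trivial at `v` restricts to a class which is trivial at every `u ∣ v`. -/
theorem locMap_resL_eq_zero (h : u.asIdeal.comap (semiLocalMap K L q) = v.asIdeal) (n : ℕ)
    (x : groupCohomology (repL K N) n) (hx : locMap K N ⟨q, v⟩ n x = 0) :
    locMap L N ⟨q, u⟩ n (resL K L N n x) = 0 := by
  rw [locMap_resL K L N q v u h, hx, map_zero]

end restriction

/-! ### The place below -/

instance semiLocal_isArtinianRing (q : Nat.Primes) : IsArtinianRing (SemiLocal K q) :=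
  IsArtinianRing.of_finite (Qp q) (SemiLocal K q)

/-- The place of `K` below a place of `L`. -/
def placeBelow (q : Nat.Primes) (u : MaximalSpectrum (SemiLocal L q)) :
    MaximalSpectrum (SemiLocal K q) :=
  ⟨u.asIdeal.comap (semiLocalMap K L q),
    haveI : (u.asIdeal.comap (semiLocalMap K L q)).IsPrime :=
      Ideal.comap_isPrime (semiLocalMap K L q) u.asIdeal
    IsArtinianRing.isMaximal_of_isPrime _⟩

lemma placeBelow_asIdeal (q : Nat.Primes) (u : MaximalSpectrum (SemiLocal L q)) :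
    u.asIdeal.comap (semiLocalMap K L q) = (placeBelow K L q u).asIdeal := rfl

end Fermat.Agent.S55.CFT.H56

end
end
-- ==== END Fermat.Agent.S55.CFT.H56_LocNat
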