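-- GENERATED (merged mirror, NOTES/tools/trim/merge3_helper67.py): 8 modules of the originals, bodies verbatim.
import Mathlib
import Fermat.Agent.Zm.S56_L04_004
import Fermat.Agent.Zm.S56_L03_003
import Fermat.Agent.Zm.S56_L02_003
import Fermat.Agent.Zm.S56_L03_004
import Fermat.Agent.Zm.S56_L02_004
import Fermat.Agent.Zm.S56_L01_004

-- ==== BEGIN Fermat.Agent.S55.Top.FunRep
section

set_option autoImplicit false
set_option linter.unusedSectionVars false

open CategoryTheory Module groupCohomology ExtCitation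

noncomputable section

namespace Fermat.Agent.S55.Top

open Fermat.Agent.S55

variable (k : Type) [Field k] (K : IntermediateField ℚ (AlgebraicClosure ℚ))

/-- The representation of `G_ℚ` on the functions on `G_ℚ / G_K`: `(g φ)(x) = φ(g⁻¹ x)`. -/
def funRho : Representation k GQ (XK K → k) where
  toFun g := LinearMap.funLeft k k (fun x : XK K => g⁻¹ • x)
  map_one' := by
    apply LinearMap.ext
    intro φ
    funext x
    simp [LinearMap.funLeft]
  map_mul' g h := by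
    apply LinearMap.ext
    intro φ
    funext x
    simp [LinearMap.funLeft, mul_smul]

/-- The function model of the permutation module. -/
abbrev FX : Rep.{0} k GQ := Rep.of (funRho k K)

variable {k K}

lemma FX_rho_apply (g : GQ) (φ : FX k K) (x : XK K) :
    ((FX k K).ρ g φ : XK K → k) x = (φ : XK K → k) (g⁻¹ • x) := rfl

/-! ### The function model is isomorphic to the permutation module -/

section retract

variable [Finite (XK K)]

/-- coefficients -/
def permToFun : permRep k K ⟶ FX k K :=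
  Rep.ofHom ⟨((Finsupp.linearEquivFunOnFinite k k (XK K)).toLinearMap ∘ₗ
      (MonoidAlgebra.coeffLinearEquiv k).toLinearMap : MonoidAlgebra k (XK K) →ₗ[k] (XK K → k)),
    fun g => by
      apply LinearMap.ext
      intro m
      funext x
      show ((Representation.ofMulAction k GQ (XK K)) g m).coeff x = m.coeff (g⁻¹ • x)
      exact Representation.coeff_ofMulAction g m x⟩

/-- the element with given coefficients -/
def funToPerm : FX k K ⟶ permRep k K :=
  Rep.ofHom ⟨((MonoidAlgebra.coeffLinearEquiv k).symm.toLinearMap ∘ₗ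
      (Finsupp.linearEquivFunOnFinite k k (XK K)).symm.toLinearMap :
        (XK K → k) →ₗ[k] MonoidAlgebra k (XK K)),
    fun g => by
      apply LinearMap.ext
      intro φ
      apply MonoidAlgebra.coeff_injective
      apply Finsupp.ext
      intro x
      show ((Finsupp.linearEquivFunOnFinite k k (XK K)).symm (fun y => φ (g⁻¹ • y))) x =
        ((Representation.ofMulAction k GQ (XK K)) g (MonoidAlgebra.ofCoeff
          ((Finsupp.linearEquivFunOnFinite k k (XK K)).symm φ))).coeff x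
      rw [Representation.coeff_ofMulAction]
      rfl⟩

theorem isRetract_perm_FX : IsRetract (permRep k K) (FX k K) := by
  refine ⟨permToFun, funToPerm, fun m => ?_⟩
  apply MonoidAlgebra.coeff_injective
  apply Finsupp.ext
  intro x
  rfl

end retract

/-! ### Untwisting the dual -/

/-- A function `u` on `G_ℚ / G_K` with `u (g x) = χ(g) u(x)` (it exists when `χ` is trivial on
`G_K`). -/
structure Untwist (χ : GQ →* kˣ) (K : IntermediateField ℚ (AlgebraicClosure ℚ)) where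
  /-- the function -/
  u : XK K → kˣ
  smul : ∀ (g : GQ) (x : XK K), u (g • x) = χ g * u x

section untwist

variable {χ : GQ →* kˣ} (𝔲 : Untwist χ K) [Fintype (XK K)] [DecidableEq (XK K)]

/-- The twisted sum `Σ_χ φ = Σ_x u(x) φ(x)`. -/
def Untwist.sum (φ : XK K → k) : k := ∑ x, (𝔲.u x : k) * φ x

lemma Untwist.sum_smul (g : GQ) (φ : XK K → k) :
    𝔲.sum (fun x => φ (g⁻¹ • x)) = (χ g : k) * 𝔲.sum φ := by
  unfold Untwist.sum
  rw [Finset.mul_sum]
  refine Fintype.sum_equiv (MulAction.toPerm g⁻¹) _ _ (fun x => ?_)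
  have h := 𝔲.smul g (g⁻¹ • x)
  rw [smul_inv_smul] at h
  simp only [MulAction.toPerm_apply]
  rw [h]
  push_cast
  ring

/-- untwisted coordinates of the dual: `φ ↦ (x ↦ φ(δ_x) / u(x))`. -/
def Untwist.coLin : Md χ (FX k K) →ₗ[k] (XK K → k) where
  toFun φ := fun x => (𝔲.u x : k)⁻¹ * (show Module.Dual k (XK K → k) from φ) (Pi.single x 1)
  map_add' φ ψ := by
    funext x
    show _ * ((show Module.Dual k (XK K → k) from φ) (Pi.single x 1) +
      (show Module.Dual k (XK K → k) from ψ) (Pi.single x 1)) = _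
    simp [mul_add]
  map_smul' c φ := by
    funext x
    show _ * (c * (show Module.Dual k (XK K → k) from φ) (Pi.single x 1)) = _
    simp
    ring

/-- the functional with given untwisted coordinates: `ψ ↦ (m ↦ Σ_x u(x) m(x) ψ(x))`. -/
def Untwist.ocLin : (XK K → k) →ₗ[k] Md χ (FX k K) where
  toFun ψ :=
    ({ toFun := fun m => 𝔲.sum (fun x => m x * ψ x)
       map_add' := fun m m' => by
        simp only [Untwist.sum, Pi.add_apply, add_mul, mul_add, Finset.sum_add_distrib]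
       map_smul' := fun c m => by
        simp only [Untwist.sum, Pi.smul_apply, smul_eq_mul, RingHom.id_apply, Finset.mul_sum]
        refine Finset.sum_congr rfl fun x _ => ?_
        ring } : Module.Dual k (XK K → k))
  map_add' ψ ψ' := by
    apply LinearMap.ext
    intro m
    show 𝔲.sum _ = 𝔲.sum _ + 𝔲.sum _
    simp only [Untwist.sum, Pi.add_apply, mul_add, Finset.sum_add_distrib]
  map_smul' c ψ := by
    apply LinearMap.ext
    intro m
    show 𝔲.sum _ = c * 𝔲.sum _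
    simp only [Untwist.sum, Pi.smul_apply, smul_eq_mul, Finset.mul_sum]
    refine Finset.sum_congr rfl fun x _ => ?_
    ring

lemma Untwist.ev_ocLin (m : FX k K) (ψ : XK K → k) :
    ev χ (FX k K) m (𝔲.ocLin ψ) = 𝔲.sum (fun x => (m : XK K → k) x * ψ x) := rfl

lemma Untwist.coLin_apply (φ : Md χ (FX k K)) (x : XK K) :
    𝔲.coLin φ x = (𝔲.u x : k)⁻¹ * ev χ (FX k K) (Pi.single x 1 : XK K → k) φ := rfl

lemma Untwist.u_ne_zero (x : XK K) : (𝔲.u x : k) ≠ 0 := (𝔲.u x).ne_zero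

/-- The pairing in untwisted coordinates. -/
lemma Untwist.ev_eq (m : FX k K) (φ : Md χ (FX k K)) :
    ev χ (FX k K) m φ = 𝔲.sum (fun x => (m : XK K → k) x * 𝔲.coLin φ x) := by
  have h := LinearMap.pi_apply_eq_sum_univ (show Module.Dual k (XK K → k) from φ)
    (m : XK K → k)
  have h2 : ∀ x : XK K, (fun j => if x = j then (1 : k) else 0) =
      (Pi.single x (1 : k) : XK K → k) := by
    intro x
    funext j
    by_cases hj : x = j
    · subst hj; simp
    · simp [hj, Ne.symm hj]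
  unfold Untwist.sum
  show (show Module.Dual k (XK K → k) from φ) m = _
  rw [h]
  refine Finset.sum_congr rfl fun x _ => ?_
  show (m : XK K → k) x • (show Module.Dual k (XK K → k) from φ)
      (fun j => if x = j then (1 : k) else 0) =
    (𝔲.u x : k) * ((m : XK K → k) x * ((𝔲.u x : k)⁻¹ *
      (show Module.Dual k (XK K → k) from φ) (Pi.single x 1)))
  rw [h2 x, smul_eq_mul]
  have hu := 𝔲.u_ne_zero x
  field_simp

lemma Untwist.coLin_ocLin (ψ : XK K → k) : 𝔲.coLin (𝔲.ocLin ψ) = ψ := by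
  funext x
  rw [Untwist.coLin_apply, Untwist.ev_ocLin]
  unfold Untwist.sum
  rw [Finset.sum_eq_single x]
  · have hu := 𝔲.u_ne_zero x
    simp only [Pi.single_eq_same, one_mul]
    field_simp
  · intro y _ hy
    simp [Pi.single_apply, hy]
  · intro h
    exact absurd (Finset.mem_univ x) h

lemma Untwist.ocLin_coLin (φ : Md χ (FX k K)) : 𝔲.ocLin (𝔲.coLin φ) = φ := by
  apply Md_ext
  intro m
  rw [Untwist.ev_ocLin, ← Untwist.ev_eq]

/-- equivariance of the untwisted coordinates. -/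
lemma Untwist.coLin_rho (g : GQ) (φ : Md χ (FX k K)) (x : XK K) :
    𝔲.coLin ((Md χ (FX k K)).ρ g φ) x = 𝔲.coLin φ (g⁻¹ • x) := by
  rw [Untwist.coLin_apply, Untwist.coLin_apply, Md_rho_apply]
  have h1 : ((FX k K).ρ g⁻¹ (Pi.single x 1 : XK K → k) : XK K → k) =
      (Pi.single (g⁻¹ • x) 1 : XK K → k) := by
    funext y
    rw [FX_rho_apply, inv_inv]
    by_cases hy : y = g⁻¹ • x
    · subst hy; simp
    · have hy' : g • y ≠ x := fun h => hy (by rw [← h, inv_smul_smul])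
      simp [Pi.single_apply, hy, hy']
  rw [h1]
  have h2 := 𝔲.smul g (g⁻¹ • x)
  rw [smul_inv_smul] at h2
  have h2' : (𝔲.u x : k) = (χ g : k) * (𝔲.u (g⁻¹ • x) : k) := by
    rw [h2]; push_cast; rfl
  rw [h2']
  have hu := 𝔲.u_ne_zero (g⁻¹ • x)
  have hχ : (χ g : k) ≠ 0 := (χ g).ne_zero
  field_simp

/-- The untwisted coordinates as a morphism of representations. -/
def Untwist.coHom : Md χ (FX k K) ⟶ FX k K :=
  Rep.ofHom ⟨𝔲.coLin, fun g => by
    apply LinearMap.ext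
    intro φ
    funext x
    exact 𝔲.coLin_rho g φ x⟩

/-- The inverse of the untwisted coordinates as a morphism of representations. -/
def Untwist.ocHom : FX k K ⟶ Md χ (FX k K) :=
  Rep.ofHom ⟨𝔲.ocLin, fun g => by
    apply LinearMap.ext
    intro ψ
    show 𝔲.ocLin ((FX k K).ρ g ψ) = (Md χ (FX k K)).ρ g (𝔲.ocLin ψ)
    have h : 𝔲.coLin (𝔲.ocLin ((FX k K).ρ g ψ)) = 𝔲.coLin ((Md χ (FX k K)).ρ g (𝔲.ocLin ψ)) := by
      funext x
      rw [𝔲.coLin_ocLin, 𝔲.coLin_rho, 𝔲.coLin_ocLin]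
      rfl
    have := congrArg 𝔲.ocLin h
    rwa [𝔲.ocLin_coLin, 𝔲.ocLin_coLin] at this⟩

lemma Untwist.coHom_apply (φ : Md χ (FX k K)) : 𝔲.coHom.hom φ = 𝔲.coLin φ := rfl

lemma Untwist.ocHom_apply (ψ : FX k K) : 𝔲.ocHom.hom ψ = 𝔲.ocLin ψ := rfl

end untwist

end Fermat.Agent.S55.Top

end

end
-- ==== END Fermat.Agent.S55.Top.FunRep

-- ==== BEGIN Fermat.Agent.S56.FL.H38_Unr
section

set_option autoImplicit false

/-!
# LOC-p-FL (helper38): the fixed field of inertia is unramified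

`K̄ = PadicAlgCl p`, `inertiaP p ≤ Gal(K̄/ℚ_p)` as in `FL/Coh.lean`.

* `norm_natCast_algCl_eq_one`, `norm_natCast_algCl_lt_one` : `‖(n : K̄)‖` and `p ∣ n`.
* `norm_one_sub_root`      : `ξ ^ m = 1`, `ξ ≠ 1`, `p ∤ m`  ⟹  `‖1 - ξ‖ = 1`.
* `exists_root_near`       : every unit of `K̄` is congruent to a root of unity of order prime to `p`.
* `unrField p`             : `ℚ_p(μ_{p'})`.
* `fixingSubgroup_unrField_le` : `Gal(K̄/ℚ_p(μ_{p'})) ≤ inertiaP p`.
* `mem_unrField_of_fixed`  : an element fixed by inertia lies in `ℚ_p(μ_{p'})`.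
* `norm_eq_zpow_of_mem_adjoin_root` : the value group of `ℚ_p(ζ)`, `ζ ^ m = 1`, `p ∤ m`, is `p^ℤ`.
* `norm_eq_zpow_of_fixed`, `norm_le_inv_of_fixed` : **UNR** an element `a ≠ 0` of `K̄` fixed by
  inertia has `‖a‖ ∈ p^ℤ`; if moreover `‖a‖ < 1` then `‖a‖ ≤ p⁻¹`.
-/

noncomputable section

namespace Fermat.Agent.S56.FL.H38

open scoped NNReal
open Fermat.Agent.S56.FL Polynomial

variable {p : ℕ} [Fact p.Prime]

theorem norm_natCast_algCl (n : ℕ) : ‖(n : PadicAlgCl p)‖ = ‖(n : ℚ_[p])‖ := by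
  have h : (n : PadicAlgCl p) = algebraMap ℚ_[p] (PadicAlgCl p) (n : ℚ_[p]) := by simp
  rw [h, PadicAlgCl.norm_extends]

theorem norm_natCast_algCl_le_one (n : ℕ) : ‖(n : PadicAlgCl p)‖ ≤ 1 := by
  rw [norm_natCast_algCl]
  have := Padic.norm_int_le_one (p := p) (n : ℤ)
  simpa using this

theorem norm_natCast_algCl_eq_one {n : ℕ} : ‖(n : PadicAlgCl p)‖ = 1 ↔ ¬ p ∣ n := by
  rw [norm_natCast_algCl, Padic.norm_natCast_eq_one_iff]
  exact (Nat.Prime.coprime_iff_not_dvd (Fact.out : p.Prime))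

theorem norm_natCast_algCl_lt_one {n : ℕ} : ‖(n : PadicAlgCl p)‖ < 1 ↔ p ∣ n := by
  rw [norm_natCast_algCl, Padic.norm_natCast_lt_one_iff]

theorem norm_p_algCl' : ‖(p : PadicAlgCl p)‖ = (p : ℝ)⁻¹ := by
  rw [norm_natCast_algCl, Padic.norm_p]

/-- `‖y ^ m - z ^ m‖ ≤ ‖y - z‖` for integers `y`, `z` of `K̄`. -/
theorem norm_pow_sub_pow_le' {y z : PadicAlgCl p} (hy : ‖y‖ ≤ 1) (hz : ‖z‖ ≤ 1) (m : ℕ) :
    ‖y ^ m - z ^ m‖ ≤ ‖y - z‖ := by
  induction m with
  | zero => simp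
  | succ m ih =>
    have h : y ^ (m + 1) - z ^ (m + 1) = y * (y ^ m - z ^ m) + (y - z) * z ^ m := by ring
    rw [h]
    refine (IsUltrametricDist.norm_add_le_max _ _).trans (max_le ?_ ?_)
    · rw [norm_mul]
      calc ‖y‖ * ‖y ^ m - z ^ m‖ ≤ 1 * ‖y - z‖ :=
            mul_le_mul hy ih (norm_nonneg _) zero_le_one
        _ = ‖y - z‖ := one_mul _
    · rw [norm_mul, norm_pow]
      calc ‖y - z‖ * ‖z‖ ^ m ≤ ‖y - z‖ * 1 :=
            mul_le_mul_of_nonneg_left (pow_le_one₀ (norm_nonneg _) hz) (norm_nonneg _)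
        _ = ‖y - z‖ := mul_one _

/-- The norm of a finite sum is at most the maximum of the norms (with a bound). -/
theorem norm_sum_le_of_forall_le {ι : Type*} (s : Finset ι) (f : ι → PadicAlgCl p) {C : ℝ}
    (hC : 0 ≤ C) (h : ∀ i ∈ s, ‖f i‖ ≤ C) : ‖∑ i ∈ s, f i‖ ≤ C := by
  classical
  induction s using Finset.induction_on with
  | empty => simpa using hC
  | insert a s ha ih =>
    rw [Finset.sum_insert ha]
    refine (IsUltrametricDist.norm_add_le_max _ _).trans (max_le ?_ ?_)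
    · exact h a (Finset.mem_insert_self a s)
    · exact ih fun i hi => h i (Finset.mem_insert_of_mem hi)

theorem norm_root_eq_one {ξ : PadicAlgCl p} {m : ℕ} (hm : 0 < m) (hξ : ξ ^ m = 1) : ‖ξ‖ = 1 := by
  have h : ‖ξ‖ ^ m = 1 := by rw [← norm_pow, hξ, norm_one]
  exact (pow_eq_one_iff_of_nonneg (norm_nonneg _) hm.ne').mp h

/-- A root of unity `ξ ≠ 1` of order prime to `p` is not congruent to `1`. -/
theorem norm_one_sub_root {ξ : PadicAlgCl p} {m : ℕ} (hm : 0 < m) (hpm : ¬ p ∣ m)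
    (hξ : ξ ^ m = 1) (hξ1 : ξ ≠ 1) : ‖1 - ξ‖ = 1 := by
  have hξn : ‖ξ‖ = 1 := norm_root_eq_one hm hξ
  have hle : ‖1 - ξ‖ ≤ 1 := by
    rw [sub_eq_add_neg]
    refine (IsUltrametricDist.norm_add_le_max _ _).trans (max_le (by simp) ?_)
    rw [norm_neg, hξn]
  refine le_antisymm hle ?_
  -- `∑_{i<m} ξ^i = 0`
  have hgeom : (∑ i ∈ Finset.range m, ξ ^ i) = 0 := by
    have h1 : (∑ i ∈ Finset.range m, ξ ^ i) * (ξ - 1) = 0 := by
      rw [geom_sum_mul, hξ, sub_self]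
    rcases mul_eq_zero.mp h1 with h | h
    · exact h
    · exact absurd (sub_eq_zero.mp h) hξ1
  have hsum : (m : PadicAlgCl p) = ∑ i ∈ Finset.range m, (1 ^ i - ξ ^ i) := by
    rw [Finset.sum_sub_distrib, hgeom, sub_zero]
    simp
  have h2 : ‖(m : PadicAlgCl p)‖ ≤ ‖1 - ξ‖ := by
    rw [hsum]
    refine norm_sum_le_of_forall_le _ _ (norm_nonneg _) fun i _ => ?_
    exact norm_pow_sub_pow_le' (by simp) hξn.le i
  rwa [norm_natCast_algCl_eq_one.mpr hpm] at h2

/-- Two distinct roots of unity of order prime to `p` are not congruent. -/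
theorem norm_sub_root {ξ η : PadicAlgCl p} {m : ℕ} (hm : 0 < m) (hpm : ¬ p ∣ m)
    (hξ : ξ ^ m = 1) (hη : η ^ m = 1) (hne : ξ ≠ η) : ‖ξ - η‖ = 1 := by
  have hξ0 : ξ ≠ 0 := by
    intro h; rw [h, zero_pow hm.ne'] at hξ; exact zero_ne_one hξ
  have h1 : ξ - η = ξ * (1 - η / ξ) := by field_simp
  have h2 : (η / ξ) ^ m = 1 := by rw [div_pow, hξ, hη, div_one]
  have h3 : η / ξ ≠ 1 := by
    intro h
    rw [div_eq_one_iff_eq hξ0] at h
    exact hne h.symm
  rw [h1, norm_mul, norm_root_eq_one hm hξ, norm_one_sub_root hm hpm h2 h3, one_mul]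

theorem one_le_norm_multiset_prod (s : Multiset (PadicAlgCl p)) (h : ∀ x ∈ s, 1 ≤ ‖x‖) :
    1 ≤ ‖s.prod‖ := by
  induction s using Multiset.induction_on with
  | empty => simp
  | cons a s ih =>
    rw [Multiset.prod_cons, norm_mul]
    have h1 : 1 ≤ ‖a‖ := h a (Multiset.mem_cons_self a s)
    have h2 : 1 ≤ ‖s.prod‖ := ih fun x hx => h x (Multiset.mem_cons_of_mem hx)
    calc (1 : ℝ) = 1 * 1 := (one_mul 1).symm
      _ ≤ ‖a‖ * ‖s.prod‖ := mul_le_mul h1 h2 zero_le_one (zero_le_one.trans h1)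

/-- If `‖a ^ n - 1‖ < 1` (`n > 0`) then `a` is congruent to an `n`-th root of unity. -/
theorem exists_root_near_of_pow {a : PadicAlgCl p} {n : ℕ} (hn : 0 < n) (ha : ‖a ^ n - 1‖ < 1) :
    ∃ ξ : PadicAlgCl p, ξ ^ n = 1 ∧ ‖a - ξ‖ < 1 := by
  have hsplit : (X ^ n - 1 : (PadicAlgCl p)[X]).Splits := IsAlgClosed.splits _
  have hmonic : (X ^ n - 1 : (PadicAlgCl p)[X]).Monic := monic_X_pow_sub_C 1 hn.ne'
  have hev := hsplit.eval_eq_prod_roots a
  rw [hmonic.leadingCoeff, one_mul] at hev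
  have hev' : a ^ n - 1 = (Multiset.map (fun r => a - r) (X ^ n - 1 : (PadicAlgCl p)[X]).roots).prod := by
    rw [← hev]; simp
  by_contra hcon
  have hall : ∀ x ∈ Multiset.map (fun r => a - r) (X ^ n - 1 : (PadicAlgCl p)[X]).roots,
      1 ≤ ‖x‖ := by
    intro x hx
    obtain ⟨r, hr, rfl⟩ := Multiset.mem_map.mp hx
    by_contra hlt
    apply hcon
    refine ⟨r, ?_, not_le.mp hlt⟩
    have hr' := (Polynomial.mem_roots (hmonic.ne_zero)).mp hr
    have : r ^ n - 1 = 0 := by simpa [IsRoot] using hr'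
    exact sub_eq_zero.mp this
  have := one_le_norm_multiset_prod _ hall
  rw [← hev'] at this
  exact absurd ha (not_lt.mpr this)

/-- Every unit of `K̄` is congruent to a root of unity of order prime to `p`. -/
theorem exists_root_near {a : PadicAlgCl p} (ha : ‖a‖ = 1) :
    ∃ (ξ : PadicAlgCl p) (n : ℕ), 0 < n ∧ ¬ p ∣ n ∧ ξ ^ n = 1 ∧ ‖a - ξ‖ < 1 := by
  have hint : IsIntegral ℚ_[p] a := (Algebra.IsAlgebraic.isAlgebraic a).isIntegral
  have : FiniteDimensional ℚ_[p] (IntermediateField.adjoin ℚ_[p] {a}) :=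
    IntermediateField.adjoin.finiteDimensional hint
  obtain ⟨-, q, -, hq0, hq1, hpow, -⟩ :=
    H15.exists_residue_generator (IntermediateField.adjoin ℚ_[p] {a})
  have haL : a ∈ IntermediateField.adjoin ℚ_[p] {a} :=
    IntermediateField.mem_adjoin_simple_self ℚ_[p] a
  have h1 := hpow ⟨a, haL⟩ ha.le
  simp only at h1
  have hpq : p ∣ q := norm_natCast_algCl_lt_one.mp hq1
  have hp2 : 2 ≤ p := (Fact.out : p.Prime).two_le
  have hq2 : 2 ≤ q := hp2.trans (Nat.le_of_dvd hq0 hpq)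
  have hn : 0 < q - 1 := by omega
  have hpn : ¬ p ∣ (q - 1) := by
    intro h
    have h3 : p ∣ q - (q - 1) := Nat.dvd_sub hpq h
    have h4 : q - (q - 1) = 1 := by omega
    rw [h4] at h3
    have := Nat.le_of_dvd one_pos h3
    omega
  have h2 : ‖a ^ (q - 1) - 1‖ < 1 := by
    have h5 : a ^ q - a = a * (a ^ (q - 1) - 1) := by
      have : q = (q - 1) + 1 := by omega
      conv_lhs => rw [this]
      ring
    rw [h5, norm_mul, ha, one_mul] at h1
    exact h1
  obtain ⟨ξ, hξ, hξa⟩ := exists_root_near_of_pow hn h2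
  exact ⟨ξ, q - 1, hn, hpn, hξ, hξa⟩

/-! ## The maximal unramified extension -/

variable (p)

/-- `ℚ_p(μ_{p'})`: the field generated by the roots of unity of order prime to `p`. -/
def unrField : IntermediateField ℚ_[p] (PadicAlgCl p) :=
  IntermediateField.adjoin ℚ_[p] {ξ | ∃ n : ℕ, 0 < n ∧ ¬ p ∣ n ∧ ξ ^ n = 1}

variable {p}

/-- An automorphism fixing the roots of unity of order prime to `p` is in the inertia group. -/
theorem fixingSubgroup_unrField_le : (unrField p).fixingSubgroup ≤ inertiaP p := by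
  intro σ hσ a ha
  rw [IntermediateField.mem_fixingSubgroup_iff] at hσ
  rcases lt_or_eq_of_le ha with hlt | heq
  · rw [sub_eq_add_neg]
    refine (IsUltrametricDist.norm_add_le_max _ _).trans_lt (max_lt ?_ ?_)
    · rw [norm_gal]; exact hlt
    · rw [norm_neg]; exact hlt
  · obtain ⟨ξ, n, hn, hpn, hξ, hξa⟩ := exists_root_near heq
    have hξfix : σ ξ = ξ :=
      hσ ξ (IntermediateField.subset_adjoin ℚ_[p] _ ⟨n, hn, hpn, hξ⟩)
    have h1 : σ a - a = σ (a - ξ) - (a - ξ) := by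
      rw [map_sub, hξfix]; ring
    rw [h1, sub_eq_add_neg]
    refine (IsUltrametricDist.norm_add_le_max _ _).trans_lt (max_lt ?_ ?_)
    · rw [norm_gal]; exact hξa
    · rw [norm_neg]; exact hξa

/-- Inertia fixes the roots of unity of order prime to `p`. -/
theorem inertia_fixes_root {σ : Gp p} (hσ : σ ∈ inertiaP p) {ξ : PadicAlgCl p} {n : ℕ}
    (hn : 0 < n) (hpn : ¬ p ∣ n) (hξ : ξ ^ n = 1) : σ ξ = ξ := by
  by_contra hne
  have h1 : (σ ξ) ^ n = 1 := by rw [← map_pow, hξ, map_one]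
  have h2 := norm_sub_root hn hpn h1 hξ hne
  have h3 := hσ ξ (norm_root_eq_one hn hξ).le
  rw [h2] at h3
  exact lt_irrefl _ h3

/-- An element fixed by inertia lies in `ℚ_p(μ_{p'})`. -/
theorem mem_unrField_of_fixed {a : PadicAlgCl p} (ha : ∀ σ ∈ inertiaP p, σ a = a) :
    a ∈ unrField p := by
  rw [← InfiniteGalois.fixedField_fixingSubgroup (unrField p),
    IntermediateField.mem_fixedField_iff]
  intro σ hσ
  exact ha σ (fixingSubgroup_unrField_le hσ)

/-! ## The value group of `ℚ_p(ζ)`, `ζ` a root of unity of order prime to `p` -/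

/-- Polynomials over `K̄` with integral coefficients. -/
def IntCoeff (Q : (PadicAlgCl p)[X]) : Prop := ∀ n, ‖Q.coeff n‖ ≤ 1

theorem intCoeff_C {c : PadicAlgCl p} (hc : ‖c‖ ≤ 1) : IntCoeff (C c) := by
  intro n
  rw [coeff_C]
  split_ifs
  · exact hc
  · simp

theorem intCoeff_X : IntCoeff (X : (PadicAlgCl p)[X]) := by
  intro n
  rw [coeff_X]
  split_ifs <;> simp

theorem intCoeff_one : IntCoeff (1 : (PadicAlgCl p)[X]) := by
  have := intCoeff_C (p := p) (c := 1) (by simp)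
  simpa using this

theorem IntCoeff.mul {Q R : (PadicAlgCl p)[X]} (hQ : IntCoeff Q) (hR : IntCoeff R) :
    IntCoeff (Q * R) := by
  intro n
  rw [coeff_mul]
  refine norm_sum_le_of_forall_le _ _ zero_le_one fun x _ => ?_
  rw [norm_mul]
  exact mul_le_one₀ (hQ _) (norm_nonneg _) (hR _)

theorem IntCoeff.sub {Q R : (PadicAlgCl p)[X]} (hQ : IntCoeff Q) (hR : IntCoeff R) :
    IntCoeff (Q - R) := by
  intro n
  rw [coeff_sub, sub_eq_add_neg]
  refine (IsUltrametricDist.norm_add_le_max _ _).trans (max_le (hQ n) ?_)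
  rw [norm_neg]; exact hR n

theorem intCoeff_prod {ι : Type*} (s : Finset ι) (f : ι → (PadicAlgCl p)[X])
    (h : ∀ i ∈ s, IntCoeff (f i)) : IntCoeff (∏ i ∈ s, f i) := by
  classical
  induction s using Finset.induction_on with
  | empty => simpa using intCoeff_one
  | insert a s ha ih =>
    rw [Finset.prod_insert ha]
    exact (h a (Finset.mem_insert_self a s)).mul (ih fun i hi => h i (Finset.mem_insert_of_mem hi))

/-- The value group of `ℚ_p(ζ)` is `p^ℤ` when `ζ` is a root of unity of order prime to `p`. -/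
theorem norm_eq_zpow_of_mem_adjoin_root {ζ : PadicAlgCl p} {m : ℕ} (hm : 0 < m) (hpm : ¬ p ∣ m)
    (hζ : ζ ^ m = 1) {a : PadicAlgCl p} (ha : a ∈ IntermediateField.adjoin ℚ_[p] {ζ})
    (ha0 : a ≠ 0) : ∃ k : ℤ, ‖a‖ = (p : ℝ) ^ k := by
  classical
  have hint : IsIntegral ℚ_[p] ζ := (Algebra.IsAlgebraic.isAlgebraic ζ).isIntegral
  have ha' : a ∈ (IntermediateField.adjoin ℚ_[p] {ζ}).toSubalgebra := ha
  rw [IntermediateField.adjoin_simple_toSubalgebra_of_isAlgebraic hint.isAlgebraic,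
    Algebra.adjoin_singleton_eq_range_aeval] at ha'
  obtain ⟨P, hP⟩ := ha'
  have hP : aeval ζ P = a := hP
  set g : ℚ_[p][X] := minpoly ℚ_[p] ζ with hg_def
  have hg : g.Monic := minpoly.monic hint
  set P₁ : ℚ_[p][X] := P %ₘ g with hP₁_def
  have hP₁ : aeval ζ P₁ = a := by
    rw [hP₁_def, aeval_modByMonic_eq_self_of_root (minpoly.aeval _ _)]; exact hP
  have hdeg : P₁.degree < g.degree := degree_modByMonic_lt P hg
  set Q : (PadicAlgCl p)[X] := P₁.map (algebraMap ℚ_[p] (PadicAlgCl p)) with hQ_def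
  set Z : Finset (PadicAlgCl p) := (g.map (algebraMap ℚ_[p] (PadicAlgCl p))).roots.toFinset
    with hZ_def
  have hsep : g.Separable := Algebra.IsSeparable.isSeparable ℚ_[p] ζ
  have hcard : Z.card = g.natDegree := by
    rw [hZ_def, Multiset.toFinset_card_of_nodup (nodup_roots hsep.map),
      ← (IsAlgClosed.splits (g.map (algebraMap ℚ_[p] (PadicAlgCl p)))).natDegree_eq_card_roots,
      natDegree_map]
  have hgm : g ∣ (X ^ m - 1 : ℚ_[p][X]) := by
    apply minpoly.dvd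
    simp [hζ]
  have hZroot : ∀ z ∈ Z, aeval z g = 0 := by
    intro z hz
    rw [hZ_def, Multiset.mem_toFinset, mem_roots (map_monic_ne_zero hg)] at hz
    rw [IsRoot, eval_map_algebraMap] at hz
    exact hz
  have hZm : ∀ z ∈ Z, z ^ m = 1 := by
    intro z hz
    obtain ⟨r, hr⟩ := hgm
    have h1 : aeval z (X ^ m - 1 : ℚ_[p][X]) = 0 := by
      rw [hr, map_mul, hZroot z hz, zero_mul]
    have h2 : z ^ m - 1 = 0 := by simpa using h1
    exact sub_eq_zero.mp h2
  have hZnorm : ∀ z ∈ Z, ‖Q.eval z‖ = ‖a‖ := by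
    intro z hz
    obtain ⟨σ, hσ⟩ := minpoly.exists_algEquiv_of_root (K := ℚ_[p]) (L := PadicAlgCl p)
      (x := z) (y := ζ) hint.isAlgebraic (hZroot z hz)
    have h1 : σ (aeval z P₁) = a := by
      have h2 : aeval (σ z) P₁ = σ (aeval z P₁) :=
        aeval_algHom_apply (σ : PadicAlgCl p →ₐ[ℚ_[p]] PadicAlgCl p) z P₁
      rw [hσ, hP₁] at h2
      exact h2.symm
    rw [hQ_def, eval_map_algebraMap, ← h1, norm_gal]
  have hdegQ : Q.degree < Z.card := by
    rw [hcard, hQ_def, degree_map, ← degree_eq_natDegree hg.ne_zero]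
    exact hdeg
  have hQ := Lagrange.eq_interpolate (s := Z) (v := id) (f := Q) (Set.injOn_id _) hdegQ
  rw [Lagrange.interpolate_apply] at hQ
  have hbasis : ∀ i ∈ Z, IntCoeff (Lagrange.basis Z id i) := by
    intro i hi
    unfold Lagrange.basis
    refine intCoeff_prod _ _ fun j hj => ?_
    rw [Finset.mem_erase] at hj
    unfold Lagrange.basisDivisor
    refine (intCoeff_C ?_).mul (intCoeff_X.sub (intCoeff_C ?_))
    · rw [norm_inv, id, id, norm_sub_root hm hpm (hZm i hi) (hZm j hj.2) (Ne.symm hj.1), inv_one]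
    · rw [id, norm_root_eq_one hm (hZm j hj.2)]
  have hcoeff : ∀ n, ‖P₁.coeff n‖ ≤ ‖a‖ := by
    intro n
    have h1 : ‖P₁.coeff n‖ = ‖Q.coeff n‖ := by
      rw [hQ_def, coeff_map, PadicAlgCl.norm_extends]
    rw [h1, hQ, finsetSum_coeff]
    refine norm_sum_le_of_forall_le _ _ (norm_nonneg _) fun i hi => ?_
    rw [coeff_C_mul, norm_mul, id, hZnorm i hi]
    calc ‖a‖ * ‖(Lagrange.basis Z id i).coeff n‖ ≤ ‖a‖ * 1 :=
          mul_le_mul_of_nonneg_left (hbasis i hi n) (norm_nonneg _)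
      _ = ‖a‖ := mul_one _
  have hsum : a = ∑ n ∈ Finset.range (P₁.natDegree + 1),
      algebraMap ℚ_[p] (PadicAlgCl p) (P₁.coeff n) * ζ ^ n := by
    rw [← hP₁, aeval_eq_sum_range]
    refine Finset.sum_congr rfl fun n _ => ?_
    rw [Algebra.smul_def]
  obtain ⟨n₀, -, hn₀⟩ := IsUltrametricDist.exists_norm_finsetSum_le_of_nonempty
    (t := Finset.range (P₁.natDegree + 1)) ⟨0, by simp⟩
    (fun n => algebraMap ℚ_[p] (PadicAlgCl p) (P₁.coeff n) * ζ ^ n)
  rw [← hsum, norm_mul, norm_pow, norm_root_eq_one hm hζ, one_pow, mul_one,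
    PadicAlgCl.norm_extends] at hn₀
  have heq : ‖a‖ = ‖P₁.coeff n₀‖ := le_antisymm hn₀ (hcoeff n₀)
  have hne : P₁.coeff n₀ ≠ 0 := by
    intro h
    rw [h, norm_zero, norm_eq_zero] at heq
    exact ha0 heq
  exact ⟨-(P₁.coeff n₀).valuation, by rw [heq, Padic.norm_eq_zpow_neg_valuation hne]⟩

/-- An element of `ℚ_p(μ_{p'})` lies in `ℚ_p(ζ)` for a single root of unity `ζ` of order prime
to `p`. -/
theorem exists_single_root {a : PadicAlgCl p} (ha : a ∈ unrField p) :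
    ∃ (ζ : PadicAlgCl p) (m : ℕ), 0 < m ∧ ¬ p ∣ m ∧ ζ ^ m = 1 ∧
      a ∈ IntermediateField.adjoin ℚ_[p] {ζ} := by
  classical
  obtain ⟨T, hTS, haT⟩ := IntermediateField.exists_finset_of_mem_adjoin ha
  have hTS' : ∀ t : PadicAlgCl p, t ∈ T → ∃ n : ℕ, 0 < n ∧ ¬ p ∣ n ∧ t ^ n = 1 :=
    fun t ht => hTS (Finset.mem_coe.mpr ht)
  choose! n hn using hTS'
  set M : ℕ := ∏ t ∈ T, n t with hM_def
  have hM0 : 0 < M := Finset.prod_pos fun t ht => (hn t ht).1
  have hMp : ¬ p ∣ M := by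
    intro h
    rw [hM_def, (Nat.Prime.prime (Fact.out : p.Prime)).dvd_finsetProd_iff] at h
    obtain ⟨t, ht, htp⟩ := h
    exact (hn t ht).2.1 htp
  have : NeZero M := ⟨hM0.ne'⟩
  obtain ⟨ζ, hζ⟩ := HasEnoughRootsOfUnity.exists_primitiveRoot (PadicAlgCl p) M
  refine ⟨ζ, M, hM0, hMp, hζ.pow_eq_one, ?_⟩
  have hle : IntermediateField.adjoin ℚ_[p] (T : Set (PadicAlgCl p))
      ≤ IntermediateField.adjoin ℚ_[p] {ζ} := by
    rw [IntermediateField.adjoin_le_iff]
    intro t ht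
    have htM : t ^ M = 1 := by
      obtain ⟨r, hr⟩ := Finset.dvd_prod_of_mem n (Finset.mem_coe.mp ht)
      rw [hM_def, hr, pow_mul, (hn t (Finset.mem_coe.mp ht)).2.2, one_pow]
    obtain ⟨i, -, hi⟩ := hζ.eq_pow_of_pow_eq_one htM
    rw [← hi]
    exact pow_mem (IntermediateField.mem_adjoin_simple_self ℚ_[p] ζ) i
  exact hle haT

/-- **UNR.** A nonzero element of `K̄` fixed by inertia has norm in `p^ℤ`. -/
theorem norm_eq_zpow_of_fixed {a : PadicAlgCl p} (ha : ∀ σ ∈ inertiaP p, σ a = a)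
    (ha0 : a ≠ 0) : ∃ k : ℤ, ‖a‖ = (p : ℝ) ^ k := by
  obtain ⟨ζ, m, hm, hpm, hζ, haζ⟩ := exists_single_root (mem_unrField_of_fixed ha)
  exact norm_eq_zpow_of_mem_adjoin_root hm hpm hζ haζ ha0

/-- **UNR.** An element of `K̄` fixed by inertia, of norm `< 1`, has norm `≤ p⁻¹`. -/
theorem norm_le_inv_of_fixed {a : PadicAlgCl p} (ha : ∀ σ ∈ inertiaP p, σ a = a)
    (ha1 : ‖a‖ < 1) : ‖a‖ ≤ (p : ℝ)⁻¹ := by
  by_cases ha0 : a = 0
  · rw [ha0, norm_zero]
    exact inv_nonneg.mpr (Nat.cast_nonneg p)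
  obtain ⟨k, hk⟩ := norm_eq_zpow_of_fixed ha ha0
  have hp1 : (1 : ℝ) < p := by exact_mod_cast (Fact.out : p.Prime).one_lt
  have hk1 : k ≤ -1 := by
    by_contra hcon
    have hk0 : 0 ≤ k := by omega
    have := one_le_zpow₀ hp1.le hk0
    rw [← hk] at this
    exact absurd ha1 (not_lt.mpr this)
  rw [hk, ← zpow_neg_one]
  exact zpow_le_zpow_right₀ hp1.le hk1

end Fermat.Agent.S56.FL.H38

end

end
-- ==== END Fermat.Agent.S56.FL.H38_Unr

-- ==== BEGIN Fermat.Agent.S56.FL.H41_HenselF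
section

set_option autoImplicit false

/-!
# LOC-p-FL, CC3z leaf HenselF (helper41)

`H41.stmt_HenselF : H59.Stmt_HenselF`: for `F/ℚ_p` finite and `y ∈ F` with
`‖y‖^(p-1) < p^(-p)` there is `z ∈ F` with `(1 + z)^p = 1 + y`.  This is `H50.stmt_LIFT_b` for
`C = 𝒪_F`.
-/

noncomputable section

namespace Fermat.Agent.S56.FL.H41

open Fermat.Agent.S56.FL

open scoped NNReal

/-- **HenselF.** -/
theorem stmt_HenselF : H59.Stmt_HenselF := by
  intro p _ F _ y hyF hy
  have hp : (p : ℕ).Prime := Fact.out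
  have hp1 : 1 ≤ p - 1 := by have := hp.two_le; omega
  have hpR : (1 : ℝ) < p := by exact_mod_cast hp.one_lt
  -- `‖y‖ ≤ 1`
  have hinv : ((p : ℝ)⁻¹) ^ p ≤ 1 :=
    pow_le_one₀ (inv_nonneg.2 (by positivity)) (inv_le_one_of_one_le₀ hpR.le)
  have hy1 : ‖y‖ ≤ 1 := by
    by_contra hcon
    push Not at hcon
    have h1 : (1 : ℝ) ≤ ‖y‖ ^ (p - 1) := one_le_pow₀ hcon.le
    linarith
  set c : ℝ≥0 := ⟨‖y‖, norm_nonneg y⟩ with hc
  have hcc : c ^ (p - 1) < ((p : ℝ≥0)⁻¹) ^ p := by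
    rw [← NNReal.coe_lt_coe]
    push_cast
    exact hy
  set y' : intRing p F := ⟨y, hyF, hy1⟩ with hy'
  have hmem : y' ∈ Ideal.map (algebraMap (intRing p F) (intRing p F)) (ballIdeal p F c) := by
    rw [Algebra.algebraMap_self, Ideal.map_id]
    show ‖(y' : PadicAlgCl p)‖ ≤ (c : ℝ)
    exact le_refl _
  obtain ⟨z, -, hz⟩ := H50.stmt_LIFT_b p F (intRing p F) c hcc y' hmem
  refine ⟨(z : PadicAlgCl p), z.2.1, ?_⟩
  have h := congrArg (fun t : intRing p F => (t : PadicAlgCl p)) hz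
  simpa using h

end Fermat.Agent.S56.FL.H41

end

end
-- ==== END Fermat.Agent.S56.FL.H41_HenselF

-- ==== BEGIN Fermat.Agent.S56.FL.H54_PMLift
section

/-!
# LOC-p-FL, package PM (helper54): lifting points (LIFT-c)

`R = 𝒪_F` with `F/ℚ_p` finite, `g : H → R/{‖·‖ ≤ c}` an algebra homomorphism killed by `p` in the
convolution monoid, `c^{p-1} < p^{-p}`.  Then there is an algebra homomorphism `x' : H → R` with
`x' ≡ g` modulo `{‖·‖ ≤ p c}`.
-/

set_option autoImplicit false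
set_option linter.unusedSectionVars false
set_option linter.style.haveILetI false

noncomputable section

namespace Fermat.Agent.S56.FL.H54

open scoped NNReal TensorProduct
open Fermat.Agent.S56.FL WithConv

variable {p : ℕ} [Fact p.Prime] {F : IntermediateField ℚ_[p] (PadicAlgCl p)}
variable {H : Type} [CommRing H] [Bialgebra (Zloc p) H] [Coalgebra.IsCocomm (Zloc p) H]
  [Module.Free (Zloc p) H] [Module.Finite (Zloc p) H]

theorem free_cv : Module.Free (intRing p F) (WithConv (H →ₗ[Zloc p] intRing p F)) :=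
  Module.Free.of_equiv (WithConv.linearEquiv (intRing p F) (H →ₗ[Zloc p] intRing p F)).symm

theorem finite_cv : Module.Finite (intRing p F) (WithConv (H →ₗ[Zloc p] intRing p F)) :=
  Module.Finite.equiv (WithConv.linearEquiv (intRing p F) (H →ₗ[Zloc p] intRing p F)).symm

/-- The numerical fact `(p c)^{p-1} < p⁻¹`. -/
theorem radius_pc {c : ℝ≥0} (hc : c ^ (p - 1) < ((p : ℝ≥0)⁻¹) ^ p) :
    ((p : ℝ≥0) * c) ^ (p - 1) < (p : ℝ≥0)⁻¹ := by
  have hp : p.Prime := Fact.out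
  have hpp : (0 : ℝ≥0) < (p : ℝ≥0) := by exact_mod_cast hp.pos
  obtain ⟨-, h2, -⟩ := H50.radius_facts hc
  have h4 : ((p : ℝ≥0) * c) ^ (p - 1) * (p : ℝ≥0) = (p : ℝ≥0) ^ p * c ^ (p - 1) := by
    rw [mul_pow, mul_right_comm, ← pow_succ, Nat.sub_add_cancel hp.one_le]
  have h5 : ((p : ℝ≥0) * c) ^ (p - 1) * (p : ℝ≥0) < 1 := by rw [h4]; exact h2
  calc ((p : ℝ≥0) * c) ^ (p - 1) = ((p : ℝ≥0) * c) ^ (p - 1) * (p : ℝ≥0) * (p : ℝ≥0)⁻¹ := by
        rw [mul_assoc, mul_inv_cancel₀ hpp.ne', mul_one]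
    _ < 1 * (p : ℝ≥0)⁻¹ := mul_lt_mul_of_pos_right h5 (inv_pos.mpr hpp)
    _ = (p : ℝ≥0)⁻¹ := one_mul _

theorem le_p_mul (c : ℝ≥0) : c ≤ (p : ℝ≥0) * c := by
  have hp : p.Prime := Fact.out
  have h1 : (1 : ℝ≥0) ≤ (p : ℝ≥0) := by exact_mod_cast hp.one_le
  calc c = 1 * c := (one_mul c).symm
    _ ≤ (p : ℝ≥0) * c := mul_le_mul' h1 le_rfl

/-- **LIFT-c**: lifting points killed by `p` (auxiliary form with a named ideal). -/
theorem lift_c_aux [FiniteDimensional ℚ_[p] F] (c : ℝ≥0) (hc : c ^ (p - 1) < ((p : ℝ≥0)⁻¹) ^ p)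
    (I : Ideal (intRing p F)) (hI : I = ballIdeal p F c)
    (g : H →ₐ[Zloc p] (intRing p F ⧸ I))
    (hg : (toConv g : WithConv (H →ₐ[Zloc p] (intRing p F ⧸ I))) ^ p = 1) :
    ∃ x' : H →ₐ[Zloc p] intRing p F,
      ∀ (h : H) (r : intRing p F), Ideal.Quotient.mk I r = g h →
        x' h - r ∈ ballIdeal p F ((p : ℝ≥0) * c) := by
  classical
  have hp : p.Prime := Fact.out
  haveI := free_cv (p := p) (F := F) (H := H)
  haveI := finite_cv (p := p) (F := F) (H := H)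
  haveI := free_cv (p := p) (F := F) (H := H ⊗[Zloc p] H)
  haveI := finite_cv (p := p) (F := F) (H := H ⊗[Zloc p] H)
  set I' := ballIdeal p F ((p : ℝ≥0) * c) with hI'
  have hII' : I ≤ I' := by
    rw [hI]
    exact ballIdeal_mono (le_p_mul c)
  obtain ⟨hρ1, -, -⟩ := H50.radius_facts hc
  have hpc := radius_pc hc
  -- a linear lift of `g`
  obtain ⟨gt, hgt⟩ := Module.projective_lifting_property
    (Ideal.Quotient.mkₐ (Zloc p) I).toLinearMap g.toLinearMap
    (Ideal.Quotient.mkₐ_surjective (Zloc p) I)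
  have hgt' : ∀ x, Ideal.Quotient.mk I (gt x) = g x := fun x => LinearMap.congr_fun hgt x
  set G : WithConv (H →ₗ[Zloc p] intRing p F) := toConv gt with hG
  have hpost : postC (Ideal.Quotient.mkₐ (Zloc p) I) G = toConv g.toLinearMap := by
    apply WithConv.ext
    exact hgt
  have hGp : postC (Ideal.Quotient.mkₐ (Zloc p) I) (G ^ p) = 1 := by
    rw [map_pow, hpost, ← AlgHom.toLinearMap_convPow, hg]
    rfl
  have hy : G ^ p - 1 ∈ Ideal.map (algebraMap (intRing p F) _) I := by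
    apply mem_map_of_apply_mem
    intro x
    have h1 := congrArg (fun f : WithConv (H →ₗ[Zloc p] (intRing p F ⧸ I)) => f x) hGp
    have h2 : Ideal.Quotient.mk I ((G ^ p) x) =
        Ideal.Quotient.mk I (algebraMap (Zloc p) (intRing p F) (Coalgebra.counit x)) := h1
    rw [← Ideal.Quotient.eq_zero_iff_mem]
    show Ideal.Quotient.mk I ((G ^ p) x - algebraMap (Zloc p) (intRing p F) (Coalgebra.counit x))
      = 0
    rw [map_sub, h2, sub_self]
  rw [hI] at hy
  obtain ⟨z, hz, hzp⟩ := H50.stmt_LIFT_b p F _ c hc (G ^ p - 1) hy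
  have hzp' : (1 + z) ^ p = G ^ p := by rw [hzp]; ring
  have hunit : IsUnit (1 + z) := by
    refine isUnit_of_sub_one_mem (R := intRing p F) (1 + z) ?_
    rw [add_sub_cancel_left]
    exact Ideal.map_mono (ballIdeal_le_maximalIdeal hρ1) hz
  obtain ⟨w, hw⟩ := hunit
  set wi : WithConv (H →ₗ[Zloc p] intRing p F) :=
    (↑(w⁻¹) : WithConv (H →ₗ[Zloc p] intRing p F)) with hwi
  have hwwi : (1 + z) * wi = 1 := by rw [← hw, hwi, Units.mul_inv]
  set G₁ := G * wi with hG₁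
  have hG₁p : G₁ ^ p = 1 := by
    rw [hG₁, mul_pow, ← hzp', ← mul_pow, hwwi, one_pow]
  have hwi1 : wi - 1 ∈ Ideal.map (algebraMap (intRing p F) _) I' := by
    have : wi - 1 = -(z * wi) := by
      have h1 : wi + z * wi = 1 := by rw [← hwwi]; ring
      rw [← h1]; ring
    rw [this]
    exact neg_mem (Ideal.mul_mem_right _ _ hz)
  have hG₁G : G₁ - G ∈ Ideal.map (algebraMap (intRing p F) _) I' := by
    have : G₁ - G = G * (wi - 1) := by rw [hG₁]; ring
    rw [this]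
    exact Ideal.mul_mem_left _ _ hwi1
  have hval : ∀ x, G₁ x - gt x ∈ I' := fun x => apply_mem_of_mem_map I' _ hG₁G x
  -- multiplicativity
  have hgtmul : ∀ a b, gt (a * b) - gt a * gt b ∈ I := by
    intro a b
    have h1 : Ideal.Quotient.mk I (gt (a * b)) = g (a * b) := hgt' _
    have h2 : Ideal.Quotient.mk I (gt a * gt b) = g a * g b := by
      rw [map_mul (Ideal.Quotient.mk I), hgt', hgt']
    rw [← Ideal.Quotient.eq_zero_iff_mem, map_sub, h1, h2, map_mul g, sub_self]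
  have hmul_mem : muHom G₁ - psiHom G₁ ∈ Ideal.map (algebraMap (intRing p F) _) I' := by
    apply mem_map_of_apply_mem
    intro t
    induction t using TensorProduct.induction_on with
    | zero =>
      have : (muHom G₁ - psiHom G₁) (0 : H ⊗[Zloc p] H) = 0 := map_zero _
      rw [this]
      exact I'.zero_mem
    | tmul a b =>
      show G₁ (a * b) - G₁ a * G₁ b ∈ I'
      have h1 : G₁ (a * b) - G₁ a * G₁ b =
          (G₁ (a * b) - gt (a * b)) + (gt (a * b) - gt a * gt b)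
          - ((G₁ a - gt a) * G₁ b + gt a * (G₁ b - gt b)) := by ring
      rw [h1]
      refine I'.sub_mem (I'.add_mem (hval _) (hII' (hgtmul a b))) (I'.add_mem ?_ ?_)
      · exact I'.mul_mem_right _ (hval a)
      · exact I'.mul_mem_left _ (hval b)
    | add s t hs ht =>
      have : (muHom G₁ - psiHom G₁) (s + t) =
          (muHom G₁ - psiHom G₁) s + (muHom G₁ - psiHom G₁) t := map_add _ s t
      rw [this]
      exact I'.add_mem hs ht
  have hM₁ : muHom G₁ ^ p = 1 := by rw [← map_pow, hG₁p, map_one]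
  have hM₂ : psiHom G₁ ^ p = 1 := by rw [← map_pow, hG₁p, map_one]
  have hp1 : p - 1 + 1 = p := Nat.sub_add_cancel hp.one_le
  have hM₂' : psiHom G₁ * psiHom G₁ ^ (p - 1) = 1 := by
    rw [← pow_succ', hp1, hM₂]
  have hmul : muHom G₁ = psiHom G₁ := by
    have hu : (muHom G₁ * psiHom G₁ ^ (p - 1)) ^ p = 1 := by
      rw [mul_pow, hM₁, ← pow_mul, mul_comm (p - 1) p, pow_mul, hM₂, one_pow, one_mul]
    have hmem : muHom G₁ * psiHom G₁ ^ (p - 1) - 1 ∈
        Ideal.map (algebraMap (intRing p F) _) I' := by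
      have : muHom G₁ * psiHom G₁ ^ (p - 1) - 1 =
          (muHom G₁ - psiHom G₁) * psiHom G₁ ^ (p - 1) := by
        rw [sub_mul, hM₂']
      rw [this]
      exact Ideal.mul_mem_right _ _ hmul_mem
    have h1 := H50.stmt_LIFT_a p F _ ((p : ℝ≥0) * c) hpc _ hu hmem
    calc muHom G₁ = muHom G₁ * (psiHom G₁ * psiHom G₁ ^ (p - 1)) := by rw [hM₂', mul_one]
      _ = (muHom G₁ * psiHom G₁ ^ (p - 1)) * psiHom G₁ := by ring
      _ = psiHom G₁ := by rw [h1, one_mul]
  -- the unit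
  have hone : G₁ 1 = 1 := by
    have h1 : G₁ 1 * G₁ 1 = G₁ 1 := by
      have := congrArg (fun g : WithConv ((H ⊗[Zloc p] H) →ₗ[Zloc p] intRing p F) =>
        g ((1 : H) ⊗ₜ[Zloc p] (1 : H))) hmul
      have h2 : G₁ (1 * 1) = G₁ 1 * G₁ 1 := this
      rw [mul_one] at h2
      exact h2.symm
    have h3 : gt 1 - 1 ∈ I := by
      rw [← Ideal.Quotient.eq_zero_iff_mem, map_sub, hgt', map_one, map_one, sub_self]
    have h4 : G₁ 1 - 1 ∈ I' := by
      have : G₁ 1 - 1 = (G₁ 1 - gt 1) + (gt 1 - 1) := by ring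
      rw [this]
      exact I'.add_mem (hval 1) (hII' h3)
    have h5 : G₁ 1 * (G₁ 1 - 1) = 0 := by rw [mul_sub, h1, mul_one, sub_self]
    rcases mul_eq_zero.mp h5 with h0 | h0
    · exfalso
      rw [h0, zero_sub] at h4
      have h6 : (1 : intRing p F) ∈ I' := by simpa using I'.neg_mem h4
      have h7 : ‖((1 : intRing p F) : PadicAlgCl p)‖ ≤ ((p : ℝ≥0) * c : ℝ≥0) :=
        (mem_ballIdeal p).mp h6
      rw [Subring.coe_one, norm_one] at h7
      have h8 : ((p : ℝ≥0) * c : ℝ≥0) < 1 := hρ1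
      exact absurd h7 (not_le.mpr (by exact_mod_cast h8))
    · exact sub_eq_zero.mp h0
  refine ⟨algHomOfPsi G₁ hone hmul, ?_⟩
  intro h r hr
  show G₁ h - r ∈ I'
  have h1 : gt h - r ∈ I := by
    rw [← Ideal.Quotient.eq_zero_iff_mem, map_sub, hgt', hr, sub_self]
  have : G₁ h - r = (G₁ h - gt h) + (gt h - r) := by ring
  rw [this]
  exact I'.add_mem (hval h) (hII' h1)

/-- **LIFT-c**: lifting points killed by `p`. -/
theorem lift_c [FiniteDimensional ℚ_[p] F] (c : ℝ≥0) (hc : c ^ (p - 1) < ((p : ℝ≥0)⁻¹) ^ p)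
    (g : H →ₐ[Zloc p] (intRing p F ⧸ ballIdeal p F c))
    (hg : (toConv g : WithConv (H →ₐ[Zloc p] (intRing p F ⧸ ballIdeal p F c))) ^ p = 1) :
    ∃ x' : H →ₐ[Zloc p] intRing p F,
      ∀ (h : H) (r : intRing p F), Ideal.Quotient.mk (ballIdeal p F c) r = g h →
        x' h - r ∈ ballIdeal p F ((p : ℝ≥0) * c) :=
  lift_c_aux c hc _ rfl g hg

end Fermat.Agent.S56.FL.H54

end

end
-- ==== END Fermat.Agent.S56.FL.H54_PMLift

-- ==== BEGIN Fermat.Agent.S56.FL.H85_LeadCnt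
section

set_option autoImplicit false
set_option linter.unusedSectionVars false
set_option linter.style.haveILetI false
set_option linter.unusedVariables false

/-!
# LOC-p-FL, package UNITS / CC2 (helper85): the leaf LEADCNT

`stmt_LEADCNT : H15.Stmt_LEADCNT` : the semilinear count `H61.cnt_core` for leading coefficient
relations with values in the integers of `K` modulo the maximal ideal.
-/

noncomputable section

namespace Fermat.Agent.S56.FL.H85

open scoped NNReal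
open Fermat.Agent.S56.FL Fermat.Agent.S56.FL.H15

variable {p : ℕ} [Fact p.Prime]

section residue

variable (K : IntermediateField ℚ_[p] (PadicAlgCl p))

/-- The residue class of an integer of `K`. -/
def clK (u : PadicAlgCl p) (hu : u ∈ K ∧ ‖u‖ ≤ 1) : OL K ⧸ mL K :=
  Ideal.Quotient.mk (mL K) ⟨⟨u, hu.1⟩, hu.2⟩

variable {K}

theorem clK_eq_iff {u v : PadicAlgCl p} (hu : u ∈ K ∧ ‖u‖ ≤ 1) (hv : v ∈ K ∧ ‖v‖ ≤ 1) :
    clK K u hu = clK K v hv ↔ ‖u - v‖ < 1 := by
  unfold clK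
  rw [Ideal.Quotient.eq, mem_mL]
  rfl

theorem clK_eq_zero_iff {u : PadicAlgCl p} (hu : u ∈ K ∧ ‖u‖ ≤ 1) :
    clK K u hu = 0 ↔ ‖u‖ < 1 := by
  unfold clK
  rw [Ideal.Quotient.eq_zero_iff_mem, mem_mL]

theorem mem_add {u v : PadicAlgCl p} (hu : u ∈ K ∧ ‖u‖ ≤ 1) (hv : v ∈ K ∧ ‖v‖ ≤ 1) :
    u + v ∈ K ∧ ‖u + v‖ ≤ 1 :=
  ⟨K.add_mem hu.1 hv.1, (IsUltrametricDist.norm_add_le_max u v).trans (max_le hu.2 hv.2)⟩

theorem mem_mul {u v : PadicAlgCl p} (hu : u ∈ K ∧ ‖u‖ ≤ 1) (hv : v ∈ K ∧ ‖v‖ ≤ 1) :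
    u * v ∈ K ∧ ‖u * v‖ ≤ 1 :=
  ⟨K.mul_mem hu.1 hv.1, by rw [norm_mul]; exact mul_le_one₀ hu.2 (norm_nonneg _) hv.2⟩

theorem mem_pow {u : PadicAlgCl p} (hu : u ∈ K ∧ ‖u‖ ≤ 1) (n : ℕ) :
    u ^ n ∈ K ∧ ‖u ^ n‖ ≤ 1 :=
  ⟨pow_mem hu.1 n, by rw [norm_pow]; exact pow_le_one₀ (norm_nonneg _) hu.2⟩

theorem clK_add {u v : PadicAlgCl p} (hu : u ∈ K ∧ ‖u‖ ≤ 1) (hv : v ∈ K ∧ ‖v‖ ≤ 1) :
    clK K (u + v) (mem_add hu hv) = clK K u hu + clK K v hv := rfl

theorem clK_mul {u v : PadicAlgCl p} (hu : u ∈ K ∧ ‖u‖ ≤ 1) (hv : v ∈ K ∧ ‖v‖ ≤ 1) :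
    clK K (u * v) (mem_mul hu hv) = clK K u hu * clK K v hv := rfl

theorem clK_pow {u : PadicAlgCl p} (hu : u ∈ K ∧ ‖u‖ ≤ 1) (n : ℕ) :
    clK K (u ^ n) (mem_pow hu n) = clK K u hu ^ n := by
  unfold clK
  rw [← map_pow]
  rfl

end residue

/-- The map attached to a leading coefficient relation. -/
theorem exists_lead_map {k : Type} [Field k] (K : IntermediateField ℚ_[p] (PadicAlgCl p))
    (Lead : k → PadicAlgCl p → Prop) (y w : k) (θ t : PadicAlgCl p)
    (hθ : θ ∈ K ∧ ‖θ‖ ≤ 1) (ht : t ∈ K ∧ ‖t‖ ≤ 1)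
    (h1 : ∀ x u, Lead x u → u ∈ K ∧ ‖u‖ ≤ 1)
    (h2 : ∀ x, ∃ u, Lead x u)
    (h3 : ∀ x u u', Lead x u → Lead x u' → ‖u - u'‖ < 1)
    (h4 : ∀ x x' u u', Lead x u → Lead x' u' → Lead (x + x') (u + u'))
    (h5 : ∀ x u, Lead x u → Lead (y * x) (θ * u))
    (h6 : ∀ x u, Lead x u → Lead (w * x) (t * u ^ (p ^ 2))) :
    ∃ f : k →+ (OL K ⧸ mL K),
      (∀ x u (hu : Lead x u), f x = clK K u (h1 x u hu)) ∧
      (∀ x, f (y * x) = clK K θ hθ * f x) ∧
      (∀ x, f (w * x) = clK K t ht * f x ^ (p ^ 2)) := by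
  choose U hU using h2
  have hf : ∀ x u (hu : Lead x u), clK K (U x) (h1 x _ (hU x)) = clK K u (h1 x u hu) := by
    intro x u hu
    rw [clK_eq_iff]
    exact h3 x _ _ (hU x) hu
  have hadd : ∀ x x' : k, clK K (U (x + x')) (h1 _ _ (hU (x + x')))
      = clK K (U x) (h1 x _ (hU x)) + clK K (U x') (h1 x' _ (hU x')) := by
    intro x x'
    rw [hf _ _ (h4 x x' _ _ (hU x) (hU x')), clK_add]
  let f : k →+ (OL K ⧸ mL K) := AddMonoidHom.mk' (fun x => clK K (U x) (h1 x _ (hU x))) hadd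
  have hfF : ∀ z, f z = clK K (U z) (h1 z _ (hU z)) := fun z => rfl
  refine ⟨f, fun x u hu => by rw [hfF]; exact hf x u hu, ?_, ?_⟩
  · intro x
    rw [hfF, hfF, hf _ _ (h5 x _ (hU x)), clK_mul]
  · intro x
    rw [hfF, hfF, hf _ _ (h6 x _ (hU x)), clK_mul ht (mem_pow (h1 x _ (hU x)) _), clK_pow]

/-- **LEADCNT.** -/
theorem stmt_LEADCNT : H15.Stmt_LEADCNT := by
  intro p _ k _ _ _ K _ Lead₁ Lead₂ y w θ t hθK hθ1 htK ht1 hθp
    a1 a2 a3 a4 a5 a6 b1 b2 b3 b4 b5 b6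
  haveI : (mL K).IsMaximal := mL_isMaximal K
  letI : Field (OL K ⧸ mL K) := Ideal.Quotient.field (mL K)
  haveI : CharP (OL K ⧸ mL K) p := by
    have hp : p.Prime := Fact.out
    rw [CharP.charP_iff_prime_eq_zero hp]
    rw [← map_natCast (Ideal.Quotient.mk (mL K)), Ideal.Quotient.eq_zero_iff_mem, mem_mL]
    have : ((((p : ℕ) : OL K) : K) : PadicAlgCl p) = (p : PadicAlgCl p) := by
      push_cast
      rfl
    rw [this, H15.norm_p_algCl]
    exact inv_lt_one_of_one_lt₀ (by exact_mod_cast hp.one_lt)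
  letI : Algebra (ZMod p) k := ZMod.algebra k p
  letI : Algebra (ZMod p) (OL K ⧸ mL K) := ZMod.algebra _ p
  have hθ : θ ∈ K ∧ ‖θ‖ ≤ 1 := ⟨hθK, hθ1.le⟩
  have ht : t ∈ K ∧ ‖t‖ ≤ 1 := ⟨htK, ht1.le⟩
  obtain ⟨f₁, hf₁, hy₁, hw₁⟩ := exists_lead_map K Lead₁ y w θ t hθ ht a1 a2 a3 a4 a5 a6
  obtain ⟨f₂, hf₂, hy₂, hw₂⟩ := exists_lead_map K Lead₂ y w θ t hθ ht b1 b2 b3 b4 b5 b6
  have ht0 : clK K t ht ≠ 0 := by
    rw [Ne, clK_eq_zero_iff, ht1]
    exact lt_irrefl _
  have hz : clK K θ hθ ^ p ≠ clK K θ hθ := by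
    rw [← clK_pow, Ne, clK_eq_iff]
    exact hθp
  obtain ⟨l₁, l₂, hl, h⟩ := H61.cnt_core p y w (clK K θ hθ) (clK K t ht) ht0 hz f₁ f₂
    ⟨hy₁, hw₁⟩ ⟨hy₂, hw₂⟩
  refine ⟨l₁, l₂, hl, fun x u₁ u₂ hu₁ hu₂ => ?_⟩
  have h1 := h x
  rw [hf₁ _ _ hu₁, hf₂ _ _ hu₂, ← clK_add, clK_eq_zero_iff] at h1
  exact h1

end Fermat.Agent.S56.FL.H85

end

end
-- ==== END Fermat.Agent.S56.FL.H85_LeadCnt

-- ==== BEGIN Fermat.Agent.S56.FL.LF.H15_Gen
section

set_option autoImplicit false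

/-!
# LOC-p-FL, LF basics (helper15), part 4: a good generator `x` of `𝒪_L`
(Serre, Local Fields III §6 Prop. 12) and the formula `depth σ = ‖σ x - x‖`.

`IsGoodGen L x π q`: `π` is a uniformizer of `L`, `x` is an integer of `L` such that
`x^q - x` is a uniformizer and every integer of `L` is congruent modulo `π` to `0` or to a power
of `x`.  Then (finite successive approximation, no completeness needed)
`‖σ a - a‖ ≤ ‖σ x - x‖` for every integer `a` and every automorphism `σ`.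
-/

noncomputable section

namespace Fermat.Agent.S56.FL.H15

open scoped NNReal
open Fermat.Agent.S56.FL Module Polynomial

variable {p : ℕ} [Fact p.Prime]

variable (L : IntermediateField ℚ_[p] (PadicAlgCl p))

/-- `x` is a good generator of the integers of `L`, with uniformizer `π` and residue
cardinality `q`. -/
def IsGoodGen (x π : L) (q : ℕ) : Prop :=
  ‖x‖ ≤ 1 ∧ 0 < ‖π‖ ∧ ‖π‖ < 1 ∧ (∀ a : L, ‖a‖ < 1 → ‖a‖ ≤ ‖π‖) ∧ ‖x ^ q - x‖ = ‖π‖ ∧
    ∀ a : L, ‖a‖ ≤ 1 → ‖a‖ ≤ ‖π‖ ∨ ∃ m : ℕ, ‖a - x ^ m‖ ≤ ‖π‖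

variable {L}

theorem norm_pow_sub_pow_le {y z : L} (hy : ‖y‖ ≤ 1) (hz : ‖z‖ ≤ 1) (m : ℕ) :
    ‖y ^ m - z ^ m‖ ≤ ‖y - z‖ := by
  induction m with
  | zero => simp
  | succ m ih =>
    have h : y ^ (m + 1) - z ^ (m + 1) = y * (y ^ m - z ^ m) + (y - z) * z ^ m := by ring
    rw [h]
    refine (IsUltrametricDist.norm_add_le_max _ _).trans (max_le ?_ ?_)
    · rw [norm_mul]
      calc ‖y‖ * ‖y ^ m - z ^ m‖ ≤ 1 * ‖y - z‖ :=
            mul_le_mul hy ih (norm_nonneg _) zero_le_one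
        _ = ‖y - z‖ := one_mul _
    · rw [norm_mul, norm_pow]
      calc ‖y - z‖ * ‖z‖ ^ m ≤ ‖y - z‖ * 1 :=
            mul_le_mul_of_nonneg_left (pow_le_one₀ (norm_nonneg _) hz) (norm_nonneg _)
        _ = ‖y - z‖ := mul_one _

theorem norm_add3_eq {A B C : L} {r : ℝ} (hA : ‖A‖ < r) (hB : ‖B‖ = r) (hC : ‖C‖ < r) :
    ‖A + B + C‖ = r := by
  have h1 : ‖A + B‖ = r := by
    rw [IsUltrametricDist.norm_add_eq_max_of_norm_ne_norm (by rw [hB]; exact hA.ne), hB]
    exact max_eq_right hA.le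
  rw [IsUltrametricDist.norm_add_eq_max_of_norm_ne_norm (by rw [h1]; exact hC.ne'), h1]
  exact max_eq_left hC.le

variable (L) [FiniteDimensional ℚ_[p] L]

/-- Existence of a good generator. -/
theorem exists_goodGen : ∃ (x π : L) (q : ℕ), IsGoodGen L x π q := by
  obtain ⟨π, hπ0, hπ1, hπmax⟩ := exists_uniformizer L
  obtain ⟨ζ, q, hζ, hq0, hq1, hpowq, hgen⟩ := exists_residue_generator L
  have hπ0' : 0 < ‖π‖ := hπ0
  have hπ1' : ‖π‖ < 1 := hπ1
  have hπmax' : ∀ a : L, ‖a‖ < 1 → ‖a‖ ≤ ‖π‖ := hπmax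
  have hζ' : ‖ζ‖ ≤ 1 := hζ
  have hq1' : ‖(q : L)‖ < 1 := by
    have : ‖((q : L) : PadicAlgCl p)‖ < 1 := by push_cast; exact hq1
    exact this
  have hpowq' : ∀ a : L, ‖a‖ ≤ 1 → ‖a ^ q - a‖ < 1 := by
    intro a ha
    have := hpowq a ha
    have h2 : ‖((a ^ q - a : L) : PadicAlgCl p)‖ < 1 := by push_cast; exact this
    exact h2
  have hgen' : ∀ a : L, ‖a‖ = 1 → ∃ m : ℕ, ‖a - ζ ^ m‖ < 1 := by
    intro a ha
    obtain ⟨m, hm⟩ := hgen a ha
    refine ⟨m, ?_⟩
    have h2 : ‖((a - ζ ^ m : L) : PadicAlgCl p)‖ < 1 := by push_cast; exact hm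
    exact h2
  -- the residue classes of powers of any `x ≡ ζ`
  have hres : ∀ x : L, ‖x‖ ≤ 1 → ‖x - ζ‖ < 1 →
      ∀ a : L, ‖a‖ ≤ 1 → ‖a‖ ≤ ‖π‖ ∨ ∃ m : ℕ, ‖a - x ^ m‖ ≤ ‖π‖ := by
    intro x hx hxζ a ha
    rcases lt_or_eq_of_le ha with h | h
    · exact Or.inl (hπmax' a h)
    · obtain ⟨m, hm⟩ := hgen' a h
      refine Or.inr ⟨m, hπmax' _ ?_⟩
      have h1 : a - x ^ m = (a - ζ ^ m) + (ζ ^ m - x ^ m) := by ring
      rw [h1]
      refine (IsUltrametricDist.norm_add_le_max _ _).trans_lt (max_lt hm ?_)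
      refine (norm_pow_sub_pow_le hζ' hx m).trans_lt ?_
      rwa [norm_sub_rev]
  by_cases hcase : ‖ζ ^ q - ζ‖ = ‖π‖
  · exact ⟨ζ, π, q, hζ', hπ0', hπ1', hπmax', hcase, hres ζ hζ' (by simp)⟩
  · have hlt : ‖ζ ^ q - ζ‖ < ‖π‖ := lt_of_le_of_ne (hπmax' _ (hpowq' ζ hζ')) hcase
    have hx : ‖ζ + π‖ ≤ 1 :=
      (IsUltrametricDist.norm_add_le_max _ _).trans (max_le hζ' hπ1'.le)
    refine ⟨ζ + π, π, q, hx, hπ0', hπ1', hπmax', ?_, hres (ζ + π) hx (by simpa using hπ1')⟩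
    -- binomial expansion in the ring of integers
    let Z : OL L := ⟨ζ, hζ⟩
    let P : OL L := ⟨π, hπ1.le⟩
    let f : (OL L)[X] := X ^ q - X
    obtain ⟨k, hk⟩ := f.binomExpansion Z P
    have hk' : (ζ + π) ^ q - (ζ + π)
        = (ζ ^ q - ζ) + ((q : L) * ζ ^ (q - 1) - 1) * π + (k : L) * π ^ 2 := by
      have := congrArg (fun z : OL L => (z : L)) hk
      simp only [f, eval_sub, eval_pow, eval_X, derivative_sub, derivative_X_pow, derivative_X,
        eval_mul, eval_one, eval_natCast, map_natCast] at this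
      simpa [Z, P] using this
    rw [hk']
    have hk1 : ‖(k : L)‖ ≤ 1 := k.2
    refine norm_add3_eq hlt ?_ ?_
    · rw [norm_mul]
      have h1 : ‖(q : L) * ζ ^ (q - 1) - 1‖ = 1 := by
        have h2 : ‖(q : L) * ζ ^ (q - 1)‖ < 1 := by
          rw [norm_mul, norm_pow]
          calc ‖(q : L)‖ * ‖ζ‖ ^ (q - 1) ≤ ‖(q : L)‖ * 1 :=
                mul_le_mul_of_nonneg_left (pow_le_one₀ (norm_nonneg _) hζ') (norm_nonneg _)
            _ = ‖(q : L)‖ := mul_one _
            _ < 1 := hq1'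
        rw [sub_eq_add_neg,
          IsUltrametricDist.norm_add_eq_max_of_norm_ne_norm (by simpa using h2.ne)]
        simpa using h2.le
      rw [h1, one_mul]
    · rw [norm_mul, norm_pow]
      calc ‖(k : L)‖ * ‖π‖ ^ 2 ≤ 1 * ‖π‖ ^ 2 :=
            mul_le_mul_of_nonneg_right hk1 (by positivity)
        _ = ‖π‖ * ‖π‖ := by ring
        _ < 1 * ‖π‖ := mul_lt_mul_of_pos_right hπ1' hπ0'
        _ = ‖π‖ := one_mul _

variable {L}

omit [FiniteDimensional ℚ_[p] L] in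
/-- Finite successive approximation: for a good generator `x`, every integer `a` of `L` and
every automorphism `σ`: `‖σ a - a‖ ≤ max ‖σ x - x‖ ‖π‖^J`. -/
theorem norm_map_sub_le_max {x π : L} {q : ℕ} (h : IsGoodGen L x π q) (σ : L ≃ₐ[ℚ_[p]] L)
    (J : ℕ) : ∀ a : L, ‖a‖ ≤ 1 → ‖σ a - a‖ ≤ max ‖σ x - x‖ (‖π‖ ^ J) := by
  obtain ⟨hx, hπ0, hπ1, hπmax, hxq, hres⟩ := h
  have hσ : ∀ a : L, ‖σ a‖ = ‖a‖ := fun a => norm_algEquiv σ a
  have hσx : ‖σ x‖ ≤ 1 := by rw [hσ]; exact hx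
  -- the uniformizer `ϖ = x^q - x`
  set ϖ : L := x ^ q - x with hϖ
  have hϖn : ‖ϖ‖ = ‖π‖ := hxq
  have hϖ0 : ϖ ≠ 0 := by
    intro h0
    rw [h0, norm_zero] at hϖn
    exact hπ0.ne hϖn
  have hσϖ : ‖σ ϖ - ϖ‖ ≤ ‖σ x - x‖ := by
    have h1 : σ ϖ - ϖ = ((σ x) ^ q - x ^ q) - (σ x - x) := by
      rw [hϖ]; simp only [map_sub, map_pow]; ring
    rw [h1, sub_eq_add_neg]
    refine (IsUltrametricDist.norm_add_le_max _ _).trans (max_le ?_ ?_)
    · exact norm_pow_sub_pow_le hσx hx q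
    · rw [norm_neg]
  induction J with
  | zero =>
    intro a ha
    refine le_max_of_le_right ?_
    rw [pow_zero]
    have : ‖((σ a : L) : PadicAlgCl p) - (a : PadicAlgCl p)‖ ≤ 1 := norm_sub_le_one σ ha
    exact this
  | succ J ih =>
    -- the step for multiples of `ϖ`
    have hmul : ∀ b : L, ‖b‖ ≤ ‖π‖ → ‖σ b - b‖ ≤ max ‖σ x - x‖ (‖π‖ ^ (J + 1)) := by
      intro b hb
      set c : L := b / ϖ with hc
      have hbc : b = ϖ * c := by rw [hc]; field_simp
      have hc1 : ‖c‖ ≤ 1 := by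
        rw [hc, norm_div, hϖn]
        exact div_le_one_of_le₀ hb (norm_nonneg _)
      have h1 : σ b - b = σ ϖ * (σ c - c) + (σ ϖ - ϖ) * c := by
        rw [hbc]; simp only [map_mul]; ring
      rw [h1]
      refine (IsUltrametricDist.norm_add_le_max _ _).trans (max_le ?_ ?_)
      · rw [norm_mul, hσ, hϖn]
        have h2 := ih c hc1
        rcases le_max_iff.mp h2 with h3 | h3
        · refine le_max_of_le_left ?_
          calc ‖π‖ * ‖σ c - c‖ ≤ 1 * ‖σ x - x‖ :=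
                mul_le_mul hπ1.le h3 (norm_nonneg _) zero_le_one
            _ = ‖σ x - x‖ := one_mul _
        · refine le_max_of_le_right ?_
          rw [pow_succ']
          exact mul_le_mul_of_nonneg_left h3 hπ0.le
      · refine le_max_of_le_left ?_
        rw [norm_mul]
        calc ‖σ ϖ - ϖ‖ * ‖c‖ ≤ ‖σ x - x‖ * 1 :=
              mul_le_mul hσϖ hc1 (norm_nonneg _) (norm_nonneg _)
          _ = ‖σ x - x‖ := mul_one _
    intro a ha
    rcases hres a ha with h1 | ⟨m, hm⟩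
    · exact hmul a h1
    · have h2 : σ a - a = (σ (a - x ^ m) - (a - x ^ m)) + ((σ x) ^ m - x ^ m) := by
        simp only [map_sub, map_pow]; ring
      rw [h2]
      refine (IsUltrametricDist.norm_add_le_max _ _).trans (max_le (hmul _ hm) ?_)
      exact le_max_of_le_left (norm_pow_sub_pow_le hσx hx m)

omit [FiniteDimensional ℚ_[p] L] in
/-- For a good generator `x`: `‖σ a - a‖ ≤ ‖σ x - x‖` for all integers `a`. -/
theorem norm_map_sub_le_of_goodGen {x π : L} {q : ℕ} (h : IsGoodGen L x π q)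
    (σ : L ≃ₐ[ℚ_[p]] L) (a : L) (ha : ‖a‖ ≤ 1) : ‖σ a - a‖ ≤ ‖σ x - x‖ := by
  by_contra hcon
  have hlt : ‖σ x - x‖ < ‖σ a - a‖ := not_le.mp hcon
  have hpos : 0 < ‖σ a - a‖ := (norm_nonneg _).trans_lt hlt
  obtain ⟨J, hJ⟩ := exists_pow_lt_of_lt_one hpos h.2.2.1
  have := norm_map_sub_le_max h σ J a ha
  exact absurd this (not_le.mpr (max_lt hlt hJ))

omit [FiniteDimensional ℚ_[p] L] in
/-- For a good generator `x`: `depth σ = ‖σ x - x‖`. -/
theorem depth_eq_of_goodGen {x π : L} {q : ℕ} (h : IsGoodGen L x π q) (σ : L ≃ₐ[ℚ_[p]] L) :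
    depth p L σ = ‖σ x - x‖ := by
  refine le_antisymm (depth_le σ fun a ha => ?_) ?_
  · exact norm_map_sub_le_of_goodGen h σ a ha
  · exact norm_sub_le_depth σ h.1

end Fermat.Agent.S56.FL.H15

end

end
-- ==== END Fermat.Agent.S56.FL.LF.H15_Gen

-- ==== BEGIN Fermat.Agent.S56.IND.Final
section

/-!
# S56 / GW-CORE / IND: final assembly

`stmt_IND : Stmt_IND` (modular Artin induction): an additive, isomorphism-invariant integer
function on finite-dimensional representations of a finite group over a field of characteristic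
`p`, vanishing on every representation induced from a cyclic subgroup of order prime to `p`,
vanishes identically.

Pieces: BR, BN, PERM (helper74), ART (helper1), TENS (helper54), assembly `Asm.lean`.
-/

set_option autoImplicit false

namespace Fermat.Agent.S56.IND

theorem stmt_IND : Stmt_IND :=
  stmt_IND_of_art_tens H01.stmt_ART H54.stmt_TENS

end Fermat.Agent.S56.IND

end
-- ==== END Fermat.Agent.S56.IND.Final

-- ==== BEGIN Fermat.Agent.S56.LocMin.H85_Cyclic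
section

/-!
# S56, leaf LOC-min, part B2 (helper85): the image of inertia in a group of exponent `p ≠ q`

Let `ρ : G_ℚ → X` be a homomorphism to a monoid, trivial on the fixing subgroup of a finite Galois
extension `F`, and let `A` be a place of `ℚ̄` over the prime `q`.  If `ρ(σ)^p = 1` for all `σ` in
the inertia group `I_A`, with `p` prime to `q`, then `ρ(I_A)` is cyclic: wild inertia has
`q`-power order at level `F`, so it dies, and tame inertia is cyclic.
-/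

set_option autoImplicit false
set_option linter.unusedSectionVars false
set_option linter.style.haveILetI false

namespace Fermat.Agent.S56.LocMin

open NumberField Fermat.Agent.S56.H9 Fermat.Agent.S56

local notation "Qbar" => AlgebraicClosure ℚ

section inertiaImage

variable (A : ValuationSubring Qbar) (F : IntermediateField ℚ Qbar) [NumberField F] [Normal ℚ F]

/-- The restriction to `F` of an element of the inertia group of `A` lies in the inertia group
of the prime of `F` under `A`. -/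
lemma restrictNormalHom_mem_inertia {σ : Qbar ≃ₐ[ℚ] Qbar} (hσ : σ ∈ A.inertiaSubgroupIn ℚ) :
    AlgEquiv.restrictNormalHom F σ ∈ (primeAt A F).inertia (F ≃ₐ[ℚ] F) := by
  intro y
  show AlgEquiv.restrictNormalHom F σ • y - y ∈ primeAt A F
  rw [mem_primeAt, map_sub, intIncl_restrictNormal_smul]
  have h := ((Fermat.Agent.Lib.InertiaBridge.mem_inertiaSubgroupIn_iff_forall A σ).1 hσ).2
  exact h (intIncl F y) ((A.valuation_le_one_iff _).1 (valuation_intIncl_le_one A F y))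

end inertiaImage

/-- **The image of inertia is cyclic.** -/
theorem exists_inertia_generator (q : ℕ) (hq : q.Prime) (A : ValuationSubring Qbar)
    (hA : A.LiesOverPrime q) {X : Type*} [Monoid X] (ρ : GQ →* X)
    (F : IntermediateField ℚ Qbar) [FiniteDimensional ℚ F] [Normal ℚ F]
    (hF : ∀ s ∈ F.fixingSubgroup, ρ s = 1)
    (p : ℕ) (hp : p.Coprime q) (hpow : ∀ σ ∈ A.inertiaSubgroupIn ℚ, ρ σ ^ p = 1) :
    ∃ τ₀ ∈ A.inertiaSubgroupIn ℚ, ∀ σ ∈ A.inertiaSubgroupIn ℚ, ∃ n : ℕ, ρ σ = ρ τ₀ ^ n := by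
  classical
  haveI : NumberField F :=
    { to_charZero := inferInstance, to_finiteDimensional := inferInstance }
  haveI : Fact q.Prime := ⟨hq⟩
  have hA' : ((q : ℕ) : Qbar) ∈ A.nonunits := hA
  have hq0 : q ≠ 0 := hq.ne_zero
  haveI : (primeAt A F).IsMaximal := primeAt_isMaximal _ _ hq0 hA'
  have h𝔓 : primeAt A F ≠ ⊥ := primeAt_ne_bot A F hq0 hA'
  have h𝔓top : primeAt A F ≠ ⊤ := Ideal.IsPrime.ne_top inferInstance
  have hq𝔓 : (q : 𝓞 F) ∈ primeAt A F := natCast_mem_primeAt A F hA'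
  -- the image of inertia at level `F`
  let J : Subgroup (F ≃ₐ[ℚ] F) := (A.inertiaSubgroupIn ℚ).map (AlgEquiv.restrictNormalHom F)
  have hJ : J ≤ (primeAt A F).inertia (F ≃ₐ[ℚ] F) := by
    rintro _ ⟨σ, hσ, rfl⟩
    exact restrictNormalHom_mem_inertia A F hσ
  obtain ⟨τ₀', hτ₀', hcyc⟩ := exists_generator_mod_wild h𝔓 J hJ
  obtain ⟨τ₀, hτ₀, rfl⟩ := hτ₀'
  refine ⟨τ₀, hτ₀, fun σ hσ => ?_⟩
  obtain ⟨n, hn⟩ := hcyc (AlgEquiv.restrictNormalHom F σ) ⟨σ, hσ, rfl⟩
  refine ⟨n, ?_⟩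
  -- the wild part
  set w : Qbar ≃ₐ[ℚ] Qbar := (τ₀ ^ n)⁻¹ * σ with hw
  have hwI : w ∈ A.inertiaSubgroupIn ℚ := mul_mem (inv_mem (pow_mem hτ₀ n)) hσ
  have hw' : AlgEquiv.restrictNormalHom F w ∈ wild (primeAt A F) (F ≃ₐ[ℚ] F) := by
    rw [hw, map_mul, map_inv, map_pow]
    exact hn
  have hord : orderOf (AlgEquiv.restrictNormalHom F w) ≠ 0 :=
    (orderOf_pos (AlgEquiv.restrictNormalHom F w)).ne'
  obtain ⟨e, m, hm, hem⟩ := Nat.exists_eq_pow_mul_and_not_dvd hord q hq.ne_one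
  have hcop : m.Coprime q := (Nat.Coprime.symm ((Nat.Prime.coprime_iff_not_dvd hq).2 hm))
  have hpowy : ∀ y : 𝓞 F, ((AlgEquiv.restrictNormalHom F w ^ q ^ e) ^ m) • y = y := by
    intro y
    rw [← pow_mul, ← hem, pow_orderOf_eq_one, one_smul]
  have htriv := smul_eq_of_mem_wild_of_coprime (primeAt A F) h𝔓top hq𝔓
    (pow_mem hw' (q ^ e)) hcop hpowy
  have h1 : AlgEquiv.restrictNormalHom F w ^ q ^ e = 1 := by
    apply FaithfulSMul.eq_of_smul_eq_smul (α := 𝓞 F)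
    intro y
    rw [htriv y, one_smul]
  have h2 : w ^ q ^ e ∈ F.fixingSubgroup := by
    have h3 : AlgEquiv.restrictNormalHom F (w ^ q ^ e) = 1 := by rw [map_pow, h1]
    rw [← MonoidHom.mem_ker] at h3
    exact (Subgroup.ext_iff.1 (@IntermediateField.restrictNormalHom_ker ℚ Qbar _ _ _ F ‹_›) _).1 h3
  have h4 : ρ w ^ q ^ e = 1 := by rw [← map_pow]; exact hF _ h2
  have h5 : ρ w ^ p = 1 := hpow w hwI
  have h6 : ρ w = 1 := by
    have h7 : ρ w ^ (p.gcd (q ^ e)) = 1 := pow_gcd_eq_one.2 ⟨h5, h4⟩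
    have h8 : p.gcd (q ^ e) = 1 := Nat.Coprime.pow_right e hp
    rwa [h8, pow_one] at h7
  have h9 : σ = τ₀ ^ n * w := by rw [hw, mul_inv_cancel_left]
  rw [h9, map_mul, h6, mul_one, map_pow]

end Fermat.Agent.S56.LocMin

end
-- ==== END Fermat.Agent.S56.LocMin.H85_Cyclic
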