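-- GENERATED (merged mirror, NOTES/tools/trim/merge3_helper67.py): 7 modules of the originals, bodies verbatim.
import Mathlib
import Fermat.Agent.Zm.S56_L03_003
import Fermat.Agent.Zm.S56_L05_003
import Fermat.Agent.Zm.S56_L04_003
import Fermat.Agent.Zm.S56_L05_004
import Fermat.Agent.Zm.S56_L01_004
import Fermat.Agent.Zm.S56_L01_005

-- ==== BEGIN Fermat.Agent.S55.H48_E2
section

set_option autoImplicit false

open CategoryTheory Module groupCohomology ExtCitation

noncomputable section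

namespace Fermat.Agent.S55.H48

open Fermat.Agent.S55

variable {k : Type} [Field k] {S : Finset Nat.Primes} (χ : GQ →* kˣ)

section naturalityRight

variable {A B : Rep.{0} k GQ}

/-- Naturality of `cupB1`: `a ∪ u'(y) = u(a) ∪ y`. -/
lemma cupB1_mapC1 (u : A ⟶ B) (a : GQ × GQ → A) (y : C1c S (Md χ B)) :
    cupB1 S χ A a (mapC1 (dHom χ u).hom y) = cupB1 S χ B (fun t => u.hom (a t)) y := by
  refine Prod.ext (funext fun t => ?_) (funext fun q => funext fun t => ?_)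
  · simp only [cupB1, mapC1, ← ev_dMap]
    exact congrArg _ (dMap_rho χ u _ _).symm
  · simp only [cupB1, mapC1, ← ev_dMap]
    exact congrArg _ (dMap_rho χ u _ _).symm

/-- Naturality of `cupB2`: `a ∪ u'(y) = u(a) ∪ y`. -/
lemma cupB2_mapC2 (u : A ⟶ B) (a : GQ → A) (y : C2c S (Md χ B)) :
    cupB2 S χ A a (mapC2 (dHom χ u).hom y) = cupB2 S χ B (fun t => u.hom (a t)) y := by
  refine Prod.ext (funext fun t => ?_) (funext fun q => funext fun t => ?_)
  · simp only [cupB2, mapC2, ← ev_dMap]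
    exact congrArg _ (dMap_rho χ u _ _).symm
  · simp only [cupB2, mapC2, ← ev_dMap]
    exact congrArg (fun z => - ev χ A (a ((rl q.1) t.1)) z) (dMap_rho χ u _ _).symm

end naturalityRight

section push

variable {A B : Rep.{0} k GQ} (u : A ⟶ B)

lemma isZ1S_push {b : GQ → A} (hb : IsZ1S S A b) : IsZ1S S B (fun g => u.hom (b g)) := by
  refine ⟨?_, levS₁_comp hb.2 _⟩
  rw [dOne_comp, hb.1]
  funext x
  simp

lemma isZ2S_push {a : GQ × GQ → A} (ha : IsZ2S S A a) : IsZ2S S B (fun t => u.hom (a t)) := by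
  refine ⟨?_, levS₂_comp ha.2 _⟩
  rw [dTwo_comp, ha.1]
  funext x
  simp

lemma isB2S_push {a : GQ × GQ → A} (ha : IsB2S S A a) : IsB2S S B (fun t => u.hom (a t)) := by
  obtain ⟨f, hf, rfl⟩ := ha
  exact ⟨fun g => u.hom (f g), levS₁_comp hf _, dOne_comp u f⟩

lemma mapC3_zero : mapC3 (S := S) u.hom (0 : C3c S A) = 0 := by
  refine Prod.ext (funext fun t => ?_) (funext fun q => funext fun t => ?_) <;>
    simp [mapC3]

lemma mapC2_zero : mapC2 (S := S) u.hom (0 : C2c S A) = 0 := by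
  refine Prod.ext (funext fun t => ?_) (funext fun q => funext fun t => ?_) <;>
    simp [mapC2]

lemma isZ1c_push {y : C1c S A} (hy : IsZ1c S A y) : IsZ1c S B (mapC1 u.hom y) := by
  rw [isZ1c_iff] at hy ⊢
  refine ⟨levS₁_comp hy.1 _, ?_⟩
  rw [dCone1_mapC1, hy.2, mapC2_zero]

lemma isZ2c_push {x : C2c S A} (hx : IsZ2c S A x) : IsZ2c S B (mapC2 u.hom x) := by
  rw [isZ2c_iff] at hx ⊢
  refine ⟨⟨levS₂_comp hx.1.1 _, fun q => levL₁_comp q.1 (hx.1.2 q) _⟩, ?_⟩
  rw [dCone2_mapC2, hx.2, mapC3_zero]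

lemma isZ3c_push {x : C3c S A} (hx : IsZ3c S A x) : IsZ3c S B (mapC3 u.hom x) := by
  obtain ⟨⟨hd, hl⟩, h⟩ := hx
  refine ⟨⟨?_, levS₃_comp hl _⟩, fun q => ⟨levL₂_comp q.1 (h q).1 _, ?_⟩⟩
  · show dThree B (fun t => u.hom (x.1 t)) = 0
    rw [dThree_comp, hd]
    funext t
    simp
  · show resThree q.1 (fun t => u.hom (x.1 t)) = dTwoL B q.1 (fun t => u.hom (x.2 q t))
    rw [dTwoL_comp, ← (h q).2]
    rfl

lemma isB3c_push {x : C3c S A} (hx : IsB3c S A x) : IsB3c S B (mapC3 u.hom x) := by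
  rw [isB3c_iff] at hx ⊢
  obtain ⟨z, hl, hl', rfl⟩ := hx
  exact ⟨mapC2 u.hom z, levS₂_comp hl _, fun q => levL₁_comp q.1 (hl' q) _,
    (dCone2_mapC2 u z).symm⟩

lemma isB2c_push {x : C2c S A} (hx : IsB2c S A x) : IsB2c S B (mapC2 u.hom x) := by
  rw [isB2c_iff] at hx ⊢
  obtain ⟨w, hl, rfl⟩ := hx
  exact ⟨mapC1 u.hom w, levS₁_comp hl _, (dCone1_mapC1 u w).symm⟩

end push

section retract

variable {M N : Rep.{0} k GQ} (i : M ⟶ N) (r : N ⟶ M) (hri : ∀ m : M, r.hom (i.hom m) = m)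

include hri

lemma dMap_retract (φ : Md χ M) : dMap χ i (dMap χ r φ) = φ := by
  apply Md_ext
  intro m
  rw [ev_dMap, ev_dMap, hri]

lemma mapC3_retract (x : C3c S M) : mapC3 r.hom (mapC3 i.hom x) = x := by
  refine Prod.ext (funext fun t => ?_) (funext fun q => funext fun t => ?_)
  · exact hri _
  · exact hri _

lemma mapC2_dual_retract (y : C2c S (Md χ M)) :
    mapC2 (dHom χ i).hom (mapC2 (dHom χ r).hom y) = y := by
  refine Prod.ext (funext fun t => ?_) (funext fun q => funext fun t => ?_)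
  · exact dMap_retract χ i r hri _
  · exact dMap_retract χ i r hri _

theorem alphaTwoEpi_of_retract (tr : Trace S χ) (hN : AlphaTwoEpi tr N) : AlphaTwoEpi tr M := by
  intro φ hφ
  -- transport the functional to `N'`
  let φN : (GQ → Md χ N) →ₗ[k] k := φ.comp ((dMap χ i).compLeft GQ)
  have hφN : ∀ n' : Md χ N, φN (dZero (Md χ N) n') = 0 := by
    intro n'
    have h1 : (dMap χ i).compLeft GQ (dZero (Md χ N) n') = dZero (Md χ M) (dMap χ i n') :=
      (dZero_comp (dHom χ i) n').symm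
    show φ ((dMap χ i).compLeft GQ (dZero (Md χ N) n')) = 0
    rw [h1]
    exact hφ _
  obtain ⟨xN, hxN, hpair⟩ := hN φN hφN
  refine ⟨mapC2 r.hom xN, isZ2c_push r hxN, fun b hb => ?_⟩
  rw [cupA2_mapC2]
  have hb' : IsZ1S S (Md χ N) (fun g => dMap χ r (b g)) := isZ1S_push (dHom χ r) hb
  rw [hpair _ hb']
  show φ ((dMap χ i).compLeft GQ (fun g => dMap χ r (b g))) = φ b
  congr 1
  funext g
  exact dMap_retract χ i r hri (b g)

theorem alphaThreeMono_of_retract (tr : Trace S χ) (hN : AlphaThreeMono tr N) :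
    AlphaThreeMono tr M := by
  intro x hx hinv
  have h1 : IsB3c S N (mapC3 i.hom x) := by
    refine hN _ (isZ3c_push i hx) fun n' hn' => ?_
    rw [cupA3_mapC3]
    refine hinv _ fun g => ?_
    rw [← dMap_rho, hn' g]
  have h2 := isB3c_push r h1
  rwa [mapC3_retract i r hri] at h2

theorem betaOneEpi_of_retract (tr : Trace S χ) (hN : BetaOneEpi tr N) : BetaOneEpi tr M := by
  intro φ hφ
  let φN : (GQ × GQ → N) →ₗ[k] k := φ.comp (r.hom.toLinearMap.compLeft (GQ × GQ))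
  have hφN : ∀ a : GQ × GQ → N, IsB2S S N a → φN a = 0 := by
    intro a ha
    exact hφ _ (isB2S_push r ha)
  obtain ⟨yN, hyN, hpair⟩ := hN φN hφN
  refine ⟨mapC1 (dHom χ i).hom yN, isZ1c_push (dHom χ i) hyN, fun a ha => ?_⟩
  rw [cupB1_mapC1, hpair _ (isZ2S_push i ha)]
  show φ (r.hom.toLinearMap.compLeft (GQ × GQ) (fun t => i.hom (a t))) = φ a
  congr 1
  funext t
  exact hri (a t)

theorem betaTwoMono_of_retract (tr : Trace S χ) (hN : BetaTwoMono tr N) : BetaTwoMono tr M := by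
  intro y hy hpair
  have h1 : IsB2c S (Md χ N) (mapC2 (dHom χ r).hom y) := by
    refine hN _ (isZ2c_push (dHom χ r) hy) fun a ha => ?_
    rw [cupB2_mapC2]
    exact hpair _ (isZ1S_push r ha)
  have h2 := isB2c_push (dHom χ i) h1
  rwa [mapC2_dual_retract χ i r hri] at h2

end retract

/-- **E2**: the four properties pass to retracts. -/
theorem stmt_E2 : Stmt_E2 := by
  intro k _ S χ tr M N hret
  obtain ⟨i, r, hri⟩ := hret
  exact ⟨alphaTwoEpi_of_retract χ i r hri tr, alphaThreeMono_of_retract χ i r hri tr,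
    betaOneEpi_of_retract χ i r hri tr, betaTwoMono_of_retract χ i r hri tr⟩

end Fermat.Agent.S55.H48

end

end
-- ==== END Fermat.Agent.S55.H48_E2

-- ==== BEGIN Fermat.Agent.S55.H49_E1A
section

set_option autoImplicit false

open CategoryTheory Module groupCohomology ExtCitation

noncomputable section

namespace Fermat.Agent.S55.H49

open Fermat.Agent.S55

variable {k : Type} [Field k] {S : Finset Nat.Primes} {χ : GQ →* kˣ}

/-- Level-`S` 1-cocycles are pushed forward by morphisms. -/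
lemma isZ1S_comp {A B : Rep.{0} k GQ} (u : A ⟶ B) {b : GQ → A} (hb : IsZ1S S A b) :
    IsZ1S S B (fun g => u.hom (b g)) := by
  refine ⟨?_, levS₁_comp hb.2 _⟩
  rw [dOne_comp, hb.1]
  funext x
  simp

/-- Cone 2-cocycles are pushed forward by morphisms. -/
lemma isZ2c_mapC2 {A B : Rep.{0} k GQ} (u : A ⟶ B) {x : C2c S A} (hx : IsZ2c S A x) :
    IsZ2c S B (mapC2 u.hom x) := by
  rw [isZ2c_iff] at hx ⊢
  obtain ⟨⟨hl, hl'⟩, hd⟩ := hx
  refine ⟨⟨levS₂_comp hl _, fun q => levL₁_comp q.1 (hl' q) _⟩, ?_⟩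
  rw [dCone2_mapC2, hd]
  refine Prod.ext (funext fun t => ?_) (funext fun q => funext fun t => ?_) <;>
    simp [mapC3]

/-- Cone 2-cocycles are closed under addition. -/
lemma isZ2c_add {M : Rep.{0} k GQ} {x x' : C2c S M} (hx : IsZ2c S M x) (hx' : IsZ2c S M x') :
    IsZ2c S M (x + x') := by
  rw [isZ2c_iff] at hx hx' ⊢
  obtain ⟨⟨hl, hl'⟩, hd⟩ := hx
  obtain ⟨⟨hm, hm'⟩, hd'⟩ := hx'
  refine ⟨⟨hl.add hm, fun q => (hl' q).add (hm' q)⟩, ?_⟩
  rw [dCone2_add, hd, hd', add_zero]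

/-- The level-`S` 1-cocycles as a submodule. -/
def Z1S (S : Finset Nat.Primes) (M : Rep.{0} k GQ) : Submodule k (GQ → M) where
  carrier := {b | IsZ1S S M b}
  add_mem' := by
    intro b b' hb hb'
    exact ⟨by rw [dOne_add, hb.1, hb'.1, add_zero], hb.2.add hb'.2⟩
  zero_mem' := ⟨dOne_zero M, isLevelConstantS₁_const S (0 : M)⟩
  smul_mem' := by
    intro c b hb
    exact ⟨by rw [dOne_smul, hb.1, smul_zero], hb.2.comp (c • ·)⟩

lemma mem_Z1S {M : Rep.{0} k GQ} {b : GQ → M} : b ∈ Z1S S M ↔ IsZ1S S M b := Iff.rfl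

/-- Linear algebra: a functional on `V` which vanishes on `p ∩ ker I` agrees on `p` with a
functional on `X` composed with `I`. -/
lemma exists_functional_factor {K V X : Type*} [Field K] [AddCommGroup V] [Module K V]
    [AddCommGroup X] [Module K X] (p : Submodule K V) (I : V →ₗ[K] X) (ψ : V →ₗ[K] K)
    (h : ∀ v ∈ p, I v = 0 → ψ v = 0) : ∃ ψ₁ : X →ₗ[K] K, ∀ v ∈ p, ψ₁ (I v) = ψ v := by
  have hmem : ψ.comp p.subtype ∈ LinearMap.range (I.comp p.subtype).dualMap := by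
    rw [LinearMap.range_dualMap_eq_dualAnnihilator_ker, Submodule.mem_dualAnnihilator]
    intro v hv
    exact h v.1 v.2 hv
  obtain ⟨ψ₁, hψ₁⟩ := hmem
  exact ⟨ψ₁, fun v hv => congrArg (fun f : p →ₗ[K] K => f ⟨v, hv⟩) hψ₁⟩

set_option maxHeartbeats 1600000 in
/-- **E1A** from `NC`. -/
theorem stmt_E1A_of_NC (hNC : ∀ S : Finset Nat.Primes, NC S) : Stmt_E1A := by
  intro k _ S χ tr hχ M₁ M M₂ i π hses h₁ hM h₂ hA1 hA3 hA2 φ hφ
  have hses' := hses
  obtain ⟨hi, hπ, hex⟩ := hses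
  have hNC := hNC S
  have hM' : Lev S (Md χ M) := lev_Md M hχ hM
  -- linear section of `π`, linear retraction of `i`
  obtain ⟨σ, hσ⟩ := LinearMap.exists_rightInverse_of_surjective π.hom.toLinearMap
    (LinearMap.range_eq_top.2 hπ)
  have hσ' : ∀ m₂ : M₂, π.hom (σ m₂) = m₂ := fun m₂ =>
    congrArg (fun f : M₂ →ₗ[k] M₂ => f m₂) hσ
  obtain ⟨r, hr⟩ := LinearMap.exists_leftInverse_of_injective i.hom.toLinearMap
    (LinearMap.ker_eq_bot.2 hi)
  have hr' : ∀ m₁ : M₁, r (i.hom m₁) = m₁ := fun m₁ =>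
    congrArg (fun f : M₁ →ₗ[k] M₁ => f m₁) hr
  have hir : ∀ m : M, π.hom m = 0 → i.hom (r m) = m := by
    intro m hm
    obtain ⟨m₁, rfl⟩ := (hex m).1 hm
    rw [hr']
  -- the dual of `σ`, a linear map `M' → M₂'`
  let F : Md χ M →ₗ[k] Md χ M₂ :=
    { toFun := fun ψ => (show Module.Dual k M from ψ).comp σ
      map_add' := fun _ _ => rfl
      map_smul' := fun _ _ => rfl }
  have hF : ∀ ψ : Md χ M, dMap χ i ψ = 0 → dMap χ π (F ψ) = ψ := by
    intro ψ hψ
    apply Md_ext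
    intro m
    rw [ev_dMap]
    change (show Module.Dual k M from ψ) (σ (π.hom m)) = (show Module.Dual k M from ψ) m
    have h1 : π.hom (σ (π.hom m) - m) = 0 := by rw [map_sub, hσ', sub_self]
    obtain ⟨m₁, hm₁⟩ := (hex _).1 h1
    have h2 : (show Module.Dual k M from ψ) (i.hom m₁) = 0 :=
      congrArg (fun ψ' : Md χ M₁ => ev χ M₁ m₁ ψ') hψ
    rw [hm₁, map_sub, sub_eq_zero] at h2
    exact h2
  -- a cocycle of `M'` killed by `i'` comes from a cocycle of `M₂'`
  have hlift : ∀ b : GQ → Md χ M, IsZ1S S (Md χ M) b → (∀ g, dMap χ i (b g) = 0) →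
      ∃ b₂ : GQ → Md χ M₂, IsZ1S S (Md χ M₂) b₂ ∧ (fun g => dMap χ π (b₂ g)) = b := by
    intro b hb hb0
    have hb₂ : (fun g => dMap χ π (F (b g))) = b := funext fun g => hF (b g) (hb0 g)
    refine ⟨fun g => F (b g), ⟨?_, levS₁_comp hb.2 _⟩, hb₂⟩
    have h3 := dOne_comp (dHom χ π) (fun g => F (b g))
    have h4 : (fun g => (dHom χ π).hom (F (b g))) = b := hb₂
    rw [h4, hb.1] at h3
    funext x
    have h5 := congrFun h3 x
    apply dMap_injective χ π hπ
    simp only [Pi.zero_apply, map_zero]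
    exact h5.symm
  -- Step 1: the functional on `H¹_S(M₂')`
  let φ₂ : (GQ → Md χ M₂) →ₗ[k] k := φ.comp ((dMap χ π).compLeft GQ)
  have hφ₂ : ∀ m₂' : Md χ M₂, φ₂ (dZero (Md χ M₂) m₂') = 0 := by
    intro m₂'
    have : (dMap χ π).compLeft GQ (dZero (Md χ M₂) m₂') = dZero (Md χ M) (dMap χ π m₂') := by
      funext g
      have := congrFun (dZero_comp (dHom χ π) m₂') g
      exact this.symm
    show φ ((dMap χ π).compLeft GQ (dZero (Md χ M₂) m₂')) = 0
    rw [this]
    exact hφ _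
  obtain ⟨x₂, hx₂Z, hx₂⟩ := hA2 φ₂ hφ₂
  have hx₂Z' := (isZ2c_iff x₂).1 hx₂Z
  -- Step 2: lift and take the cone differential
  let xh : C2c S M := mapC2 σ x₂
  have hxhl : IsLevelConstantS₂ S xh.1 := levS₂_comp hx₂Z'.1.1 _
  have hxhl' : ∀ q : ↥S, IsLevelConstant₁ (rl q.1) (xh.2 q) := fun q =>
    levL₁_comp q.1 (hx₂Z'.1.2 q) _
  have hπxh : mapC2 π.hom xh = x₂ := by
    refine Prod.ext (funext fun t => ?_) (funext fun q => funext fun t => ?_) <;>
      simp [mapC2, xh, hσ']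
  let δ : C3c S M := dCone2 S M xh
  have hπδ : mapC3 π.hom δ = 0 := by
    rw [← dCone2_mapC2, hπxh]
    exact hx₂Z'.2
  let δ₁ : C3c S M₁ := mapC3 r δ
  have hiδ₁ : mapC3 i.hom δ₁ = δ := by
    refine Prod.ext (funext fun t => ?_) (funext fun q => funext fun t => ?_)
    · exact hir _ (congrFun (congrArg Prod.fst hπδ) t)
    · exact hir _ (congrFun (congrFun (congrArg Prod.snd hπδ) q) t)
  have hδ₁Z : IsZ3c S M₁ δ₁ := by
    have hinj : ∀ (X : Type) (f f' : X → M₁), (fun t => i.hom (f t)) = (fun t => i.hom (f' t)) →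
        f = f' := fun X f f' h => funext fun t => hi (congrFun h t)
    refine ⟨⟨?_, ?_⟩, fun q => ⟨?_, ?_⟩⟩
    · apply hinj
      rw [← dThree_comp]
      have : (fun t => i.hom (δ₁.1 t)) = δ.1 := congrArg Prod.fst hiδ₁
      rw [this]
      show dThree M (dTwo M xh.1) = _
      rw [dThree_dTwo]
      funext t
      simp
    · exact levS₃_comp (isLevS₃_dTwo M hNC hM hxhl) r
    · exact levL₂_comp q.1 (levL₂_sub q.1 (levL₂_resTwo q.1 hxhl)
        (levL₂_dOneL q.1 M hM (hxhl' q))) r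
    · apply hinj
      rw [← dTwoL_comp]
      have e1 : (fun t => i.hom (δ₁.2 q t)) = δ.2 q := congrFun (congrArg Prod.snd hiδ₁) q
      have e2 : (fun t => i.hom (resThree q.1 δ₁.1 t)) = resThree q.1 δ.1 := by
        have : (fun t => i.hom (δ₁.1 t)) = δ.1 := congrArg Prod.fst hiδ₁
        rw [← this]
        rfl
      rw [e1, e2]
      show resThree q.1 (dTwo M xh.1) = dTwoL M q.1 (resTwo q.1 xh.1 - dOneL M q.1 (xh.2 q))
      rw [resThree_dTwo, dTwoL_sub, dTwoL_dOneL, sub_zero]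
  -- Step 3: `δ₁` pairs to zero with the invariants of `M₁'`
  have hstep3 : ∀ m₁' : Md χ M₁, (∀ g : GQ, (Md χ M₁).ρ g m₁' = m₁') →
      tr.toFun (cupA3 S χ M₁ δ₁ m₁') = 0 := by
    intro m₁' hinv
    obtain ⟨mh, hmh⟩ := dMap_surjective χ i hi m₁'
    have hb0 : ∀ g, dMap χ i (dZero (Md χ M) mh g) = 0 := by
      intro g
      show dMap χ i ((Md χ M).ρ g mh - mh) = 0
      rw [map_sub, dMap_rho, hmh, hinv g, sub_self]
    have hbZ : IsZ1S S (Md χ M) (dZero (Md χ M) mh) :=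
      ⟨dOne_dZero _ mh, isLevelConstantS₁_dZero _ hM' mh⟩
    obtain ⟨β, hβZ, hβ⟩ := hlift _ hbZ hb0
    have e1 : tr.toFun (cupA2 S χ M₂ x₂ β) = 0 := by
      rw [hx₂ β hβZ]
      show φ ((dMap χ π).compLeft GQ β) = 0
      have : (dMap χ π).compLeft GQ β = dZero (Md χ M) mh := hβ
      rw [this]
      exact hφ mh
    have e2 := dCone2_cupA20 (S := S) χ M xh mh
    have e3 : cupA3 S χ M (dCone2 S M xh) mh = cupA3 S χ M₁ δ₁ m₁' := by
      show cupA3 S χ M δ mh = _
      rw [← hiδ₁, cupA3_mapC3, hmh]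
    have e4 : cupA2 S χ M xh (dZero (Md χ M) mh) = cupA2 S χ M₂ x₂ β := by
      rw [← hβ, ← cupA2_mapC2, hπxh]
    have hlev := lev_cupA20 χ M hNC hχ hM hxhl hxhl' mh
    have e5 : tr.toFun (dCone2 S (kχ χ) (cupA20 χ M xh mh)) = 0 :=
      tr.zero_of_isB3c _ (isB3c_dCone2 hlev.1 hlev.2)
    rw [e2, e3, e4, map_add, e1, add_zero] at e5
    exact e5
  -- Step 4: correct the lift to a cone cocycle
  obtain ⟨y₁, hy₁l, hy₁l', hy₁⟩ := (isB3c_iff δ₁).1 (hA3 δ₁ hδ₁Z hstep3)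
  let x : C2c S M := xh - mapC2 i.hom y₁
  have hxZ : IsZ2c S M x := by
    rw [isZ2c_iff]
    refine ⟨⟨levS₂_sub hxhl (levS₂_comp hy₁l _),
      fun q => levL₁_sub q.1 (hxhl' q) (levL₁_comp q.1 (hy₁l' q) _)⟩, ?_⟩
    rw [dCone2_sub, dCone2_mapC2, ← hy₁, hiδ₁]
    exact sub_self _
  have hπx : mapC2 π.hom x = x₂ := by
    have : mapC2 π.hom (mapC2 i.hom y₁) = 0 := by
      refine Prod.ext (funext fun t => ?_) (funext fun q => funext fun t => ?_)
      · exact (hex _).2 ⟨_, rfl⟩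
      · exact (hex _).2 ⟨_, rfl⟩
    show mapC2 π.hom.toLinearMap (xh - mapC2 i.hom y₁) = x₂
    rw [mapC2_sub]
    show mapC2 π.hom xh - mapC2 π.hom (mapC2 i.hom y₁) = x₂
    rw [this, hπxh, sub_zero]
  -- Step 5: the difference functional factors through `H¹_S(M₁')`
  let ψ : (GQ → Md χ M) →ₗ[k] k := φ - tr.toFun.comp (cupA2ₗ S χ M x)
  have hψ : ∀ b, ψ b = φ b - tr.toFun (cupA2 S χ M x b) := fun b => rfl
  have hψ₂ : ∀ b₂ : GQ → Md χ M₂, IsZ1S S (Md χ M₂) b₂ →
      ψ (fun g => dMap χ π (b₂ g)) = 0 := by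
    intro b₂ hb₂
    rw [hψ, ← cupA2_mapC2, hπx, hx₂ b₂ hb₂]
    exact sub_self _
  -- `ψ` factors through `i'` on cocycles
  have hker : ∀ b ∈ Z1S S (Md χ M), ((dMap χ i).compLeft GQ) b = 0 → ψ b = 0 := by
    intro b hb hb'
    have hb0 : ∀ g, dMap χ i (b g) = 0 := fun g => congrFun hb' g
    obtain ⟨b₂, hb₂Z, hb₂⟩ := hlift b hb hb0
    rw [← hb₂]
    exact hψ₂ b₂ hb₂Z
  obtain ⟨ψ₁, hψ₁⟩ := exists_functional_factor (Z1S S (Md χ M)) ((dMap χ i).compLeft GQ) ψ hker
  have hψ₁' : ∀ b : GQ → Md χ M, IsZ1S S (Md χ M) b →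
      ψ₁ (fun g => dMap χ i (b g)) = ψ b := fun b hb => hψ₁ b hb
  have hψ₁0 : ∀ m₁' : Md χ M₁, ψ₁ (dZero (Md χ M₁) m₁') = 0 := by
    intro m₁'
    obtain ⟨mh, hmh⟩ := dMap_surjective χ i hi m₁'
    have hbZ : IsZ1S S (Md χ M) (dZero (Md χ M) mh) :=
      ⟨dOne_dZero _ mh, isLevelConstantS₁_dZero _ hM' mh⟩
    have e1 : (fun g => dMap χ i (dZero (Md χ M) mh g)) = dZero (Md χ M₁) m₁' := by
      rw [← hmh]
      exact (dZero_comp (dHom χ i) mh).symm
    rw [← e1, hψ₁' _ hbZ, hψ, hφ mh, zero_sub, neg_eq_zero]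
    -- `tr (x ∪ d mh) = 0` by Leibniz, `x` being a cone cocycle
    have e2 := dCone2_cupA20 (S := S) χ M x mh
    have hxZ' := (isZ2c_iff x).1 hxZ
    have hlev := lev_cupA20 χ M hNC hχ hM hxZ'.1.1 hxZ'.1.2 mh
    have e5 : tr.toFun (dCone2 S (kχ χ) (cupA20 χ M x mh)) = 0 :=
      tr.zero_of_isB3c _ (isB3c_dCone2 hlev.1 hlev.2)
    rw [e2, hxZ'.2, cupA3_zero_left, zero_add] at e5
    exact e5
  obtain ⟨x₁, hx₁Z, hx₁⟩ := hA1 ψ₁ hψ₁0
  -- the answer
  refine ⟨x + mapC2 i.hom x₁, isZ2c_add hxZ (isZ2c_mapC2 i hx₁Z), fun b hb => ?_⟩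
  have e := hx₁ (fun g => dMap χ i (b g)) (isZ1S_comp (dHom χ i) hb)
  rw [cupA2_add_left, map_add, cupA2_mapC2, e, hψ₁' b hb, hψ]
  ring

end Fermat.Agent.S55.H49

end

end
-- ==== END Fermat.Agent.S55.H49_E1A

-- ==== BEGIN Fermat.Agent.S55.Top.Defs_TQ
section

set_option autoImplicit false

open CategoryTheory Module groupCohomology ExtCitation

noncomputable section

namespace Fermat.Agent.S55.Top

open Fermat.Agent.S55

/-- The local Galois group of `ℚ_p(ζ_p)`: the kernel of the mod `p` cyclotomic character on the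
local Galois group at `p`. -/
def Γcyc (p : ℕ) [Fact p.Prime] : Subgroup (Gl (pPrime p)) :=
  (cycloChar p).ker.comap (rl (pPrime p))

lemma mem_Γcyc (p : ℕ) [Fact p.Prime] (h : Gl (pPrime p)) :
    h ∈ Γcyc p ↔ cycloChar p (rl (pPrime p) h) = 1 := Iff.rfl

/-- **TQ-L** (local, at `p`): there is a level-constant 2-cocycle `c` of the local Galois group
at `p` with values in `𝔽_p(1)` (twisted cocycle: `dTwoL (kχ χ) p c = 0`) whose restriction to
`Γcyc p = Gal(ℚ̄_p / ℚ_p(ζ_p))` is not the coboundary of a level-constant 1-cochain.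
(E.g. `c(h₁, h₂) = κ(h₁) · u(h₂)`, `κ` the Kummer cocycle of `p`, `u` the unramified character of
degree `p`: over `ℚ_p(ζ_p)` it is the cyclic algebra `(E/F₀, p)`, `E/F₀` unramified of degree `p`,
and `p` is not a norm from `E` because `v_{F₀}(p) = p - 1` is prime to `p`.) -/
def Stmt_TQ_Loc : Prop :=
  ∀ (p : ℕ) [Fact p.Prime], p ≠ 2 →
    ∃ c : Gl (pPrime p) × Gl (pPrime p) → ZMod p,
      IsLevelConstant₂ (rl (pPrime p)) c ∧
      dTwoL (kχ (cycloChar p)) (pPrime p) c = 0 ∧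
      ¬ ∃ g : ↥(Γcyc p) → ZMod p,
          IsLevelConstant₁ ((rl (pPrime p)).comp (Γcyc p).subtype) g ∧
          tOne g = fun t : ↥(Γcyc p) × ↥(Γcyc p) => c (t.1.1, t.2.1)

/-- **TQ-C** (local, at `p`): the mod `p` cyclotomic character is onto on the local Galois group
at `p`  (`[ℚ_p(ζ_p) : ℚ_p] = p - 1`). -/
def Stmt_TQ_CycSurj : Prop :=
  ∀ (p : ℕ) [Fact p.Prime],
    Function.Surjective (fun h : Gl (pPrime p) => cycloChar p (rl (pPrime p) h))

end Fermat.Agent.S55.Top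

end

end
-- ==== END Fermat.Agent.S55.Top.Defs_TQ

-- ==== BEGIN Fermat.Agent.S55.Top.H48_PTCone
section

set_option autoImplicit false

open CategoryTheory Module groupCohomology ExtCitation

noncomputable section

namespace Fermat.Agent.S55.Top.H48

open Fermat.Agent.S55 Fermat.Agent.S55.Top

variable {k : Type} [Field k] {S : Finset Nat.Primes}
  {K : IntermediateField ℚ (AlgebraicClosure ℚ)} (𝔓 : PlaceSys S K)

/-! ### Cone differentials -/

/-- The `K`-level cone differential `C¹ → C²_c` on global cochains: `f ↦ (d f, res f)`. -/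
def dCone1K (f : ↥K.fixingSubgroup → k) : 𝔓.C2 k := (tOne f, fun q w => 𝔓.res₁ q w f)

/-- The `K`-level cone differential `C²_c → C³_c`: `(f, g) ↦ (d f, res f - d g)`. -/
def dCone2K (u : 𝔓.C2 k) : 𝔓.C3 k :=
  (tTwo u.1, fun q w => 𝔓.res₂ q w u.1 - tOne (u.2 q w))

lemma isB3cK_dCone2K {u : 𝔓.C2 k} (h1 : IsLevK₂ S K u.1)
    (h2 : ∀ (q : ↥S) (w : 𝔓.W q), IsLevelConstant₁ (𝔓.rw q w) (u.2 q w)) :
    IsB3cK 𝔓 (dCone2K 𝔓 u) :=
  ⟨u.1, u.2, h1, h2, rfl, fun _ _ => rfl⟩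

lemma isB3cK_iff (z : 𝔓.C3 k) :
    IsB3cK 𝔓 z ↔ ∃ u : 𝔓.C2 k, IsLevK₂ S K u.1 ∧
      (∀ (q : ↥S) (w : 𝔓.W q), IsLevelConstant₁ (𝔓.rw q w) (u.2 q w)) ∧ z = dCone2K 𝔓 u := by
  constructor
  · rintro ⟨f, g, hf, hg, h1, h2⟩
    exact ⟨(f, g), hf, hg, Prod.ext h1 (funext fun q => funext fun w => h2 q w)⟩
  · rintro ⟨u, h1, h2, rfl⟩
    exact isB3cK_dCone2K 𝔓 h1 h2

lemma isB2cK_dCone1K {f : ↥K.fixingSubgroup → k} (h : IsLevK₁ S K f) :
    IsB2cK 𝔓 (dCone1K 𝔓 f) :=
  ⟨f, h, rfl, fun _ _ => rfl⟩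

lemma isB2cK_iff (x : 𝔓.C2 k) :
    IsB2cK 𝔓 x ↔ ∃ f : ↥K.fixingSubgroup → k, IsLevK₁ S K f ∧ x = dCone1K 𝔓 f := by
  constructor
  · rintro ⟨f, hf, h1, h2⟩
    exact ⟨f, hf, Prod.ext h1 (funext fun q => funext fun w => h2 q w)⟩
  · rintro ⟨f, hf, rfl⟩
    exact isB2cK_dCone1K 𝔓 hf

/-! ### Restriction and differentials -/

lemma res₂_tOne (q : ↥S) (w : 𝔓.W q) (f : ↥K.fixingSubgroup → k) :
    𝔓.res₂ q w (tOne f) = tOne (𝔓.res₁ q w f) := by
  funext t
  simp only [PlaceSys.res₂, PlaceSys.res₁, tOne, map_mul]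

lemma res₃_tTwo (q : ↥S) (w : 𝔓.W q) (f : ↥K.fixingSubgroup × ↥K.fixingSubgroup → k) :
    𝔓.res₃ q w (tTwo f) = tTwo (𝔓.res₂ q w f) := by
  funext t
  simp only [PlaceSys.res₃, PlaceSys.res₂, tTwo, map_mul]

lemma tTwo_tOne {Δ : Type} [Group Δ] (f : Δ → k) : tTwo (tOne f) = 0 := by
  funext t
  simp only [tTwo, tOne, Pi.zero_apply, mul_assoc]
  ring

/-! ### Homomorphisms -/

/-- A 1-cocycle with trivial coefficients is additive. -/
lemma hom_mul {Δ : Type} [Group Δ] {b : Δ → k} (hb : tOne b = 0) (g h : Δ) :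
    b (g * h) = b g + b h := by
  have := congrFun hb (g, h)
  simp only [tOne, Pi.zero_apply] at this
  linear_combination -this

lemma hom_one {Δ : Type} [Group Δ] {b : Δ → k} (hb : tOne b = 0) : b 1 = 0 := by
  have := hom_mul hb 1 1
  rw [mul_one] at this
  linear_combination -this

/-- A 2-cocycle with trivial coefficients. -/
lemma coc2 {Δ : Type} [Group Δ] {a : Δ × Δ → k} (ha : tTwo a = 0) (g₁ g₂ g₃ : Δ) :
    a (g₂, g₃) - a (g₁ * g₂, g₃) + a (g₁, g₂ * g₃) - a (g₁, g₂) = 0 := by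
  have := congrFun ha (g₁, g₂, g₃)
  simpa only [tTwo, Pi.zero_apply] using this

/-! ### Levels -/

section levels

variable {𝔓}

/-- A level-`S` homomorphism vanishes on its level group. -/
lemma hom_level {b : ↥K.fixingSubgroup → k} (hb : IsZ1K S K b) :
    ∃ F : IntermediateField ℚ (AlgebraicClosure ℚ), F.IsUnramifiedOutside S ∧
      ∀ s : ↥K.fixingSubgroup, (s : GQ) ∈ F.fixingSubgroup → b s = 0 := by
  obtain ⟨hd, F, hF, h⟩ := hb
  refine ⟨F, hF, fun s hs => ?_⟩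
  have := h 1 s hs
  rw [one_mul, hom_one hd] at this
  exact this

/-- `(g₁, g₂) ↦ f g₁ * b g₂` is of level `S`. -/
lemma levK₂_mul {f b : ↥K.fixingSubgroup → k} (hf : IsLevK₁ S K f) (hb : IsLevK₁ S K b) :
    IsLevK₂ S K (fun t : ↥K.fixingSubgroup × ↥K.fixingSubgroup => f t.1 * b t.2) := by
  obtain ⟨F, hF, h⟩ := hf
  obtain ⟨F', hF', h'⟩ := hb
  refine ⟨F ⊔ F', hF.sup hF', fun g₁ g₂ s₁ s₂ h₁ h₂ => ?_⟩
  show f (g₁ * s₁) * b (g₂ * s₂) = f g₁ * b g₂
  rw [h g₁ s₁ (IntermediateField.fixingSubgroup_antitone le_sup_left h₁),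
    h' g₂ s₂ (IntermediateField.fixingSubgroup_antitone le_sup_right h₂)]

/-- `(g₁, g₂) ↦ a (g₁ g₂) * y (g₁, g₂)` is of level `S` for a level-`S` homomorphism `a`. -/
lemma levK₂_hom_mul {a : ↥K.fixingSubgroup → k} (ha : IsZ1K S K a)
    {y : ↥K.fixingSubgroup × ↥K.fixingSubgroup → k} (hy : IsLevK₂ S K y) :
    IsLevK₂ S K (fun t : ↥K.fixingSubgroup × ↥K.fixingSubgroup => a (t.1 * t.2) * y t) := by
  obtain ⟨F, hF, h⟩ := hom_level ha
  obtain ⟨F', hF', h'⟩ := hy
  refine ⟨F ⊔ F', hF.sup hF', fun g₁ g₂ s₁ s₂ h₁ h₂ => ?_⟩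
  show a (g₁ * s₁ * (g₂ * s₂)) * y (g₁ * s₁, g₂ * s₂) = a (g₁ * g₂) * y (g₁, g₂)
  rw [h' g₁ g₂ s₁ s₂ (IntermediateField.fixingSubgroup_antitone le_sup_right h₁)
      (IntermediateField.fixingSubgroup_antitone le_sup_right h₂),
    hom_mul ha.1, hom_mul ha.1, hom_mul ha.1, hom_mul ha.1,
    h s₁ (IntermediateField.fixingSubgroup_antitone le_sup_left h₁),
    h s₂ (IntermediateField.fixingSubgroup_antitone le_sup_left h₂)]
  ring

/-- The restriction of a level-`S` function on `G_K` to a local group is level constant. -/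
lemma levL₁_res₁ {X : Type} {f : ↥K.fixingSubgroup → X} (hf : IsLevK₁ S K f) (q : ↥S)
    (w : 𝔓.W q) : IsLevelConstant₁ (𝔓.rw q w) (𝔓.res₁ q w f) := by
  obtain ⟨F₀, hF₀, h⟩ := hf
  obtain ⟨F, hle, hF, hn⟩ := Fermat.Agent.S55.H48.exists_normal_level S F₀ hF₀
  refine ⟨F, hF.1, fun g s hs => ?_⟩
  show f (𝔓.ρw q w (g * s)) = f (𝔓.ρw q w g)
  rw [map_mul]
  refine h _ _ ?_
  have h1 : (𝔓.σ q w)⁻¹ * rl q.1 s.1 * 𝔓.σ q w ∈ F.fixingSubgroup := conj_mem_fix hn _ hs
  exact IntermediateField.fixingSubgroup_antitone hle h1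

/-- The restriction of a level-`S` function on `G_K × G_K` to a local group is level
constant. -/
lemma levL₂_res₂ {X : Type} {f : ↥K.fixingSubgroup × ↥K.fixingSubgroup → X}
    (hf : IsLevK₂ S K f) (q : ↥S) (w : 𝔓.W q) :
    IsLevelConstant₂ (𝔓.rw q w) (𝔓.res₂ q w f) := by
  obtain ⟨F₀, hF₀, h⟩ := hf
  obtain ⟨F, hle, hF, hn⟩ := Fermat.Agent.S55.H48.exists_normal_level S F₀ hF₀
  refine ⟨F, hF.1, fun g g' s s' hs hs' => ?_⟩
  show f (𝔓.ρw q w (g * s), 𝔓.ρw q w (g' * s')) = f (𝔓.ρw q w g, 𝔓.ρw q w g')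
  rw [map_mul, map_mul]
  refine h _ _ _ _ ?_ ?_
  · have h1 : (𝔓.σ q w)⁻¹ * rl q.1 s.1 * 𝔓.σ q w ∈ F.fixingSubgroup := conj_mem_fix hn _ hs
    exact IntermediateField.fixingSubgroup_antitone hle h1
  · have h1 : (𝔓.σ q w)⁻¹ * rl q.1 s'.1 * 𝔓.σ q w ∈ F.fixingSubgroup := conj_mem_fix hn _ hs'
    exact IntermediateField.fixingSubgroup_antitone hle h1

/-- Products of level-constant functions on a local group are level constant. -/
lemma levL₁_mul (q : ↥S) (w : 𝔓.W q) {f f' : 𝔓.Γw q w → k}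
    (hf : IsLevelConstant₁ (𝔓.rw q w) f) (hf' : IsLevelConstant₁ (𝔓.rw q w) f') :
    IsLevelConstant₁ (𝔓.rw q w) (fun t => f t * f' t) := by
  obtain ⟨F, hF, h⟩ := hf
  obtain ⟨F', hF', h'⟩ := hf'
  haveI := hF
  haveI := hF'
  refine ⟨F ⊔ F', IntermediateField.finiteDimensional_sup F F', fun g s hs => ?_⟩
  show f (g * s) * f' (g * s) = f g * f' g
  rw [h g s (IntermediateField.fixingSubgroup_antitone le_sup_left hs),
    h' g s (IntermediateField.fixingSubgroup_antitone le_sup_right hs)]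

/-- `(h₁, h₂) ↦ f h₁ * f' h₂` is level constant on a local group. -/
lemma levL₂_mul (q : ↥S) (w : 𝔓.W q) {f f' : 𝔓.Γw q w → k}
    (hf : IsLevelConstant₁ (𝔓.rw q w) f) (hf' : IsLevelConstant₁ (𝔓.rw q w) f') :
    IsLevelConstant₂ (𝔓.rw q w) (fun t : 𝔓.Γw q w × 𝔓.Γw q w => f t.1 * f' t.2) := by
  obtain ⟨F, hF, h⟩ := hf
  obtain ⟨F', hF', h'⟩ := hf'
  haveI := hF
  haveI := hF'
  refine ⟨F ⊔ F', IntermediateField.finiteDimensional_sup F F', fun g g' s s' hs hs' => ?_⟩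
  show f (g * s) * f' (g' * s') = f g * f' g'
  rw [h g s (IntermediateField.fixingSubgroup_antitone le_sup_left hs),
    h' g' s' (IntermediateField.fixingSubgroup_antitone le_sup_right hs')]

lemma levL₁_smul (q : ↥S) (w : 𝔓.W q) (m : k) {f : 𝔓.Γw q w → k}
    (hf : IsLevelConstant₁ (𝔓.rw q w) f) : IsLevelConstant₁ (𝔓.rw q w) (m • f) :=
  hf.comp (m • ·)

lemma levL₁_neg (q : ↥S) (w : 𝔓.W q) {f : 𝔓.Γw q w → k}
    (hf : IsLevelConstant₁ (𝔓.rw q w) f) : IsLevelConstant₁ (𝔓.rw q w) (-f) :=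
  hf.comp (fun x => -x)

end levels

/-! ### The identities -/

section identities

/-- `(d f, res f) ∪ b = d_cone (f ∪ b, 0)` for a homomorphism `b`. -/
lemma cupA2K_dCone1K (f b : ↥K.fixingSubgroup → k) (hb : tOne b = 0) :
    cupA2K 𝔓 (dCone1K 𝔓 f) b =
      dCone2K 𝔓 ((fun t => f t.1 * b t.2, 0) : 𝔓.C2 k) := by
  refine Prod.ext (funext fun t => ?_) (funext fun q => funext fun w => funext fun t => ?_)
  · obtain ⟨g₁, g₂, g₃⟩ := t
    simp only [cupA2K, dCone1K, dCone2K, tTwo, tOne]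
    rw [hom_mul hb g₂ g₃]
    ring
  · obtain ⟨h₁, h₂⟩ := t
    simp only [cupA2K, dCone1K, dCone2K, PlaceSys.res₁, PlaceSys.res₂, Pi.sub_apply, tOne,
      Pi.zero_apply]
    ring

/-- `d f ∪ (b, m) = d_cone (f ∪ b, - m res f)` for a cone 1-cocycle `(b, m)`. -/
lemma cupB1K_tOne (f : ↥K.fixingSubgroup → k) (y : 𝔓.C1 k) (hy : IsZ1cK 𝔓 y) :
    cupB1K 𝔓 (tOne f) y =
      dCone2K 𝔓 ((fun t => f t.1 * y.1 t.2,
        fun q w t => - (y.2 q w * f (𝔓.ρw q w t))) : 𝔓.C2 k) := by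
  refine Prod.ext (funext fun t => ?_) (funext fun q => funext fun w => funext fun t => ?_)
  · obtain ⟨g₁, g₂, g₃⟩ := t
    simp only [cupB1K, dCone2K, tTwo, tOne]
    rw [hom_mul hy.1.1 g₂ g₃]
    ring
  · obtain ⟨h₁, h₂⟩ := t
    have h0 : y.1 (𝔓.ρw q w h₂) = 0 := congrFun (hy.2 q w) h₂
    simp only [cupB1K, dCone2K, PlaceSys.res₂, Pi.sub_apply, tOne, map_mul, h0]
    ring

/-- `a ∪ (0, m) = d_cone (m a, 0)` for a 2-cocycle `a` and a constant `m`. -/
lemma cupB1K_const (a : ↥K.fixingSubgroup × ↥K.fixingSubgroup → k) (ha : tTwo a = 0) (m : k) :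
    cupB1K 𝔓 a ((0, fun _ _ => m) : 𝔓.C1 k) = dCone2K 𝔓 ((m • a, 0) : 𝔓.C2 k) := by
  refine Prod.ext (funext fun t => ?_) (funext fun q => funext fun w => funext fun t => ?_)
  · simp only [cupB1K, dCone2K, Pi.zero_apply, mul_zero, tTwo_smul, ha, smul_zero]
  · simp only [cupB1K, dCone2K, PlaceSys.res₂, Pi.sub_apply, Pi.smul_apply, smul_eq_mul,
      tOne_zero, Pi.zero_apply, sub_zero]
    ring

/-- **Adjointness**: `x ∪ b - a ∪ y = d_cone (0, m g)` for `x = (a, g)`, `y = (b, m)` cone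
cocycles. -/
lemma cupA2K_sub_cupB1K (x : 𝔓.C2 k) (y : 𝔓.C1 k) (hx : IsZ2cK 𝔓 x) (hy : IsZ1cK 𝔓 y) :
    cupA2K 𝔓 x y.1 - cupB1K 𝔓 x.1 y =
      dCone2K 𝔓 ((0, fun q w t => y.2 q w * x.2 q w t) : 𝔓.C2 k) := by
  refine Prod.ext (funext fun t => ?_) (funext fun q => funext fun w => funext fun t => ?_)
  · simp only [cupA2K, cupB1K, dCone2K, Prod.fst_sub, Pi.sub_apply, sub_self, tTwo_zero,
      Pi.zero_apply]
  · obtain ⟨h₁, h₂⟩ := t
    have h0 : y.1 (𝔓.ρw q w h₂) = 0 := congrFun (hy.2 q w) h₂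
    have h1 : x.1 (𝔓.ρw q w h₁, 𝔓.ρw q w h₂) = tOne (x.2 q w) (h₁, h₂) :=
      congrFun (hx.2 q w).2 (h₁, h₂)
    simp only [cupA2K, cupB1K, dCone2K, Prod.snd_sub, Pi.sub_apply, PlaceSys.res₂,
      Pi.zero_apply, h0, h1, tOne]
    ring

/-- **Isotropy**: `(0, res b ∪ res b') = d_cone (b ∪ b', 0)` for homomorphisms `b`, `b'`. -/
lemma isotropy (b b' : ↥K.fixingSubgroup → k) (hb : tOne b = 0) (hb' : tOne b' = 0) :
    ((0, fun q w t => 𝔓.res₁ q w b t.1 * 𝔓.res₁ q w b' t.2) : 𝔓.C3 k) =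
      dCone2K 𝔓 ((fun t => b t.1 * b' t.2, 0) : 𝔓.C2 k) := by
  refine Prod.ext (funext fun t => ?_) (funext fun q => funext fun w => funext fun t => ?_)
  · obtain ⟨g₁, g₂, g₃⟩ := t
    simp only [dCone2K, tTwo, Pi.zero_apply]
    rw [hom_mul hb g₁ g₂, hom_mul hb' g₂ g₃]
    ring
  · simp only [dCone2K, PlaceSys.res₁, PlaceSys.res₂, Pi.sub_apply, tOne_zero, Pi.zero_apply,
      sub_zero]

/-- **Graded commutativity**: `y ∪ a - a ∪ y = d_cone (a(g₁ g₂) y(g₁, g₂), res a · g)` for a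
homomorphism `a` and a cone 2-cocycle `y = (y₁, g)`. -/
lemma cupA2K_sub_cupB2K (a : ↥K.fixingSubgroup → k) (ha : tOne a = 0) (y : 𝔓.C2 k)
    (hy : IsZ2cK 𝔓 y) :
    cupA2K 𝔓 y a - cupB2K 𝔓 a y =
      dCone2K 𝔓 ((fun t => a (t.1 * t.2) * y.1 t,
        fun q w t => a (𝔓.ρw q w t) * y.2 q w t) : 𝔓.C2 k) := by
  refine Prod.ext (funext fun t => ?_) (funext fun q => funext fun w => funext fun t => ?_)
  · obtain ⟨g₁, g₂, g₃⟩ := t
    have hc := coc2 hy.1.1 g₁ g₂ g₃
    simp only [cupA2K, cupB2K, dCone2K, Prod.fst_sub, Pi.sub_apply, tTwo]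
    rw [hom_mul ha (g₁ * g₂) g₃, hom_mul ha g₁ (g₂ * g₃), hom_mul ha g₂ g₃, hom_mul ha g₁ g₂]
    linear_combination (-(a g₁ + a g₂ + a g₃)) * hc
  · obtain ⟨h₁, h₂⟩ := t
    have h1 : y.1 (𝔓.ρw q w h₁, 𝔓.ρw q w h₂) = tOne (y.2 q w) (h₁, h₂) :=
      congrFun (hy.2 q w).2 (h₁, h₂)
    simp only [cupA2K, cupB2K, dCone2K, Prod.snd_sub, Pi.sub_apply, PlaceSys.res₂, h1, tOne,
      map_mul]
    rw [hom_mul ha (𝔓.ρw q w h₁) (𝔓.ρw q w h₂)]
    ring

/-- A family of scaled local coboundaries is a cone coboundary. -/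
lemma local_cob (g : ∀ (q : ↥S) (w : 𝔓.W q), 𝔓.Γw q w → k) :
    ((0, fun q w => tOne (g q w)) : 𝔓.C3 k) = dCone2K 𝔓 ((0, fun q w => - g q w) : 𝔓.C2 k) := by
  refine Prod.ext (funext fun t => ?_) (funext fun q => funext fun w => funext fun t => ?_)
  · simp only [dCone2K, tTwo_zero]
  · simp only [dCone2K, PlaceSys.res₂, Pi.sub_apply, Pi.zero_apply, tOne, Pi.neg_apply]
    ring

end identities

end Fermat.Agent.S55.Top.H48

end

end
-- ==== END Fermat.Agent.S55.Top.H48_PTCone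

-- ==== BEGIN Fermat.Agent.S55.Top.PlaceEx
section

set_option autoImplicit false
set_option linter.unusedSectionVars false

open CategoryTheory Module groupCohomology ExtCitation

noncomputable section

namespace Fermat.Agent.S55.Top

open Fermat.Agent.S55

/-! ### Orbit data exist -/

section orbit

variable (Γ : Type) [Group Γ] (X : Type) [MulAction Γ X]

/-- The orbit data given by a choice of representatives of the orbits. -/
def orbitDataOut : OrbitData Γ X (MulAction.orbitRel.Quotient Γ X) := by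
  classical
  have hex : ∀ x : X, ∃ g : Γ, g • (Quotient.out (Quotient.mk (MulAction.orbitRel Γ X) x)) = x := by
    intro x
    have h : Quotient.mk (MulAction.orbitRel Γ X) x =
        Quotient.mk (MulAction.orbitRel Γ X)
          (Quotient.out (Quotient.mk (MulAction.orbitRel Γ X) x)) := (Quotient.out_eq _).symm
    have h2 := Quotient.exact h
    obtain ⟨g, hg⟩ := (MulAction.orbitRel_apply.1 h2)
    exact ⟨g, hg⟩
  exact
  { rep := fun r => Quotient.out r
    o := fun x => Quotient.mk (MulAction.orbitRel Γ X) x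
    t := fun x => if x = Quotient.out (Quotient.mk (MulAction.orbitRel Γ X) x) then 1
      else (hex x).choose
    t_smul := fun x => by
      by_cases h : x = Quotient.out (Quotient.mk (MulAction.orbitRel Γ X) x)
      · rw [if_pos h, one_smul]; exact h.symm
      · rw [if_neg h]; exact (hex x).choose_spec
    o_smul := fun γ x => by
      apply Quotient.sound
      exact MulAction.orbitRel_apply.2 ⟨γ, rfl⟩
    o_rep := fun r => Quotient.out_eq r
    t_rep := fun r => by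
      have h : Quotient.out r =
          Quotient.out (Quotient.mk (MulAction.orbitRel Γ X) (Quotient.out r)) := by
        rw [Quotient.out_eq]
      rw [if_pos h] }

end orbit

/-! ### Place systems exist -/

section places

variable (S : Finset Nat.Primes) (K : IntermediateField ℚ (AlgebraicClosure ℚ))

attribute [local instance] locAct

/-- Coset representatives of `G_ℚ / G_K`, with `1` for the base coset. -/
def globData : OrbitData GQ (XK K) Unit := by
  classical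
  exact
  { rep := fun _ => x0 K
    o := fun _ => ()
    t := fun x => if x = x0 K then 1 else Quotient.out x
    t_smul := fun x => by
      by_cases h : x = x0 K
      · rw [if_pos h, one_smul]; exact h.symm
      · rw [if_neg h]
        show (Quotient.out x : GQ) • ((1 : GQ) : GQ ⧸ K.fixingSubgroup) = x
        rw [MulAction.Quotient.smul_mk, smul_eq_mul, mul_one]
        exact QuotientGroup.out_eq' x
    o_smul := fun _ _ => rfl
    o_rep := fun _ => rfl
    t_rep := fun _ => if_pos rfl }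

lemma globData_rep : (globData K).rep () = x0 K := rfl

variable [Finite (XK K)]

/-- A place system. -/
def placeSysOut : PlaceSys S K where
  glob := globData K
  glob_rep := rfl
  W := fun q => MulAction.orbitRel.Quotient (Gl q.1) (XK K)
  fin := fun q => by
    haveI : Finite (MulAction.orbitRel.Quotient (Gl q.1) (XK K)) := Quotient.finite _
    exact Fintype.ofFinite _
  loc := fun q => orbitDataOut (Gl q.1) (XK K)

end places

/-! ### Finiteness of `G_ℚ / G_K` -/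

lemma finite_XK {S : Finset Nat.Primes} {K : IntermediateField ℚ (AlgebraicClosure ℚ)}
    (hK : K.IsUnramifiedOutside S) : Finite (XK K) := by
  have hfd := hK.1
  have hgal := h49_qbar_isGalois
  exact Subgroup.quotient_finite_of_isOpen K.fixingSubgroup K.fixingSubgroup_isOpen

/-! ### The untwisting function -/

section untw

variable {k : Type} [Field k] {S : Finset Nat.Primes}
  {K : IntermediateField ℚ (AlgebraicClosure ℚ)}

lemma mem_fix_of_smul_x0 {g : GQ} (h : g • x0 K = x0 K) : g ∈ K.fixingSubgroup := by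
  have h3 : ((g : GQ) : GQ ⧸ K.fixingSubgroup) = ((1 : GQ) : GQ ⧸ K.fixingSubgroup) := by
    simpa [x0, MulAction.Quotient.smul_mk] using h
  have h4 := QuotientGroup.eq.1 h3
  simpa using K.fixingSubgroup.inv_mem h4

lemma smul_x0_of_mem_fix {g : GQ} (h : g ∈ K.fixingSubgroup) : g • x0 K = x0 K := by
  show g • ((1 : GQ) : GQ ⧸ K.fixingSubgroup) = ((1 : GQ) : GQ ⧸ K.fixingSubgroup)
  rw [MulAction.Quotient.smul_mk, smul_eq_mul, mul_one]
  apply QuotientGroup.eq.2
  simpa using K.fixingSubgroup.inv_mem h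

/-- The untwisting function `x ↦ χ(t(x))` of a character which is trivial on `G_K`. -/
def PlaceSys.untwist (𝔓 : PlaceSys S K) (χ : GQ →* kˣ)
    (hχ : ∀ s ∈ K.fixingSubgroup, χ s = 1) : Untwist χ K where
  u := fun x => χ (𝔓.glob.t x)
  smul := fun g x => by
    have h1 : ((𝔓.glob.t (g • x))⁻¹ * g * 𝔓.glob.t x) • x0 K = x0 K := by
      have ha := 𝔓.glob.t_smul x
      have hb := 𝔓.glob.t_smul (g • x)
      rw [show 𝔓.glob.rep (𝔓.glob.o x) = x0 K from 𝔓.glob_rep] at ha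
      rw [show 𝔓.glob.rep (𝔓.glob.o (g • x)) = x0 K from 𝔓.glob_rep] at hb
      rw [mul_smul, mul_smul, ha, inv_smul_eq_iff, hb]
    have h2 := hχ _ (mem_fix_of_smul_x0 h1)
    rw [map_mul, map_mul, map_inv, mul_assoc, inv_mul_eq_one] at h2
    exact h2

end untw

end Fermat.Agent.S55.Top

end

end
-- ==== END Fermat.Agent.S55.Top.PlaceEx

-- ==== BEGIN Fermat.Agent.S56.EC.H92_LES
section

set_option autoImplicit false
set_option linter.style.haveILetI false

/-!
# The long exact sequence of level-`S` cohomology in degrees `0..2`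

For a short exact sequence `0 → A → B → C → 0` of representations of level `S`, the level-`S`
cochain complexes `N → C¹_S(N) → C²_S(N) → C³(N)` form a degreewise short exact sequence
(`nineHyp`), so that `H92_Snake.lean` applies.  The cohomology of these complexes is identified
with the prelude's objects: `N.ρ.invariants`, `continuousH1S S N`, `continuousH2S S N`.

Main results (namespace `Fermat.Agent.S56.H92.LES`):
* `count` : the dimension count of the nine-term exact sequence;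
* `superadd` : `h⁰(B) + h¹(A) + h¹(C) + h²(B) ≤ h⁰(A) + h⁰(C) + h¹(B) + h²(A) + h²(C)`;
* `finite_H2` : `H²_S(B)` is finite-dimensional if `H²_S(A)` and `H²_S(C)` are.
-/

noncomputable section

namespace Fermat.Agent.S56.H92.LES

open CategoryTheory groupCohomology Fermat.Agent.S55 Fermat.Agent.S56.H92.Snake

variable {k : Type} [Field k] (S : Finset Nat.Primes)

theorem nc : NC S := fun F hF => H48.exists_normal_level S F hF

section complex

variable (N : Rep.{0} k _root_.Fermat.Agent.S55.GQ)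

/-- `d⁰ : N → C¹_S(N)`. -/
def d0 (hN : Lev S N) : N →ₗ[k] ↥(levelCochainsS₁ S N) :=
  LinearMap.codRestrict (levelCochainsS₁ S N) (d₀₁ N).hom
    (fun m => isLevelConstantS₁_dZero N hN m)

/-- `d¹ : C¹_S(N) → C²_S(N)`. -/
def d1 (hN : Lev S N) : ↥(levelCochainsS₁ S N) →ₗ[k] ↥(levelCochainsS₂ S N) :=
  LinearMap.restrict (d₁₂ N).hom (fun _ hf => isLevelConstantS₂_dOne N (nc S) hN hf)

/-- `d² : C²_S(N) → C³(N)`. -/
def d2 : ↥(levelCochainsS₂ S N) →ₗ[k] (_root_.Fermat.Agent.S55.GQ × _root_.Fermat.Agent.S55.GQ × _root_.Fermat.Agent.S55.GQ → N) :=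
  (d₂₃ N).hom ∘ₗ (levelCochainsS₂ S N).subtype

theorem d0_coe (hN : Lev S N) (m : N) : ((d0 S N hN m : ↥(levelCochainsS₁ S N)) : _root_.Fermat.Agent.S55.GQ → N) =
    dZero N m := rfl

theorem d1_coe (hN : Lev S N) (f : ↥(levelCochainsS₁ S N)) :
    ((d1 S N hN f : ↥(levelCochainsS₂ S N)) : _root_.Fermat.Agent.S55.GQ × _root_.Fermat.Agent.S55.GQ → N) = dOne N (f : _root_.Fermat.Agent.S55.GQ → N) := rfl

theorem d2_apply (f : ↥(levelCochainsS₂ S N)) : d2 S N f = dTwo N (f : _root_.Fermat.Agent.S55.GQ × _root_.Fermat.Agent.S55.GQ → N) := rfl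

end complex

section maps

variable {A B : Rep.{0} k _root_.Fermat.Agent.S55.GQ} (u : A ⟶ B)

/-- The map induced on `C¹_S`. -/
def c1 : ↥(levelCochainsS₁ S A) →ₗ[k] ↥(levelCochainsS₁ S B) :=
  LinearMap.restrict (u.hom.toLinearMap.compLeft _root_.Fermat.Agent.S55.GQ) (fun _ hf => hf.comp _)

/-- The map induced on `C²_S`. -/
def c2 : ↥(levelCochainsS₂ S A) →ₗ[k] ↥(levelCochainsS₂ S B) :=
  LinearMap.restrict (u.hom.toLinearMap.compLeft (_root_.Fermat.Agent.S55.GQ × _root_.Fermat.Agent.S55.GQ)) (fun _ hf => hf.comp _)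

/-- The map induced on `C³`. -/
def c3 : (_root_.Fermat.Agent.S55.GQ × _root_.Fermat.Agent.S55.GQ × _root_.Fermat.Agent.S55.GQ → A) →ₗ[k] (_root_.Fermat.Agent.S55.GQ × _root_.Fermat.Agent.S55.GQ × _root_.Fermat.Agent.S55.GQ → B) :=
  u.hom.toLinearMap.compLeft (_root_.Fermat.Agent.S55.GQ × _root_.Fermat.Agent.S55.GQ × _root_.Fermat.Agent.S55.GQ)

theorem c1_coe (f : ↥(levelCochainsS₁ S A)) (g : _root_.Fermat.Agent.S55.GQ) :
    ((c1 S u f : ↥(levelCochainsS₁ S B)) : _root_.Fermat.Agent.S55.GQ → B) g = u.hom ((f : _root_.Fermat.Agent.S55.GQ → A) g) := rfl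

theorem c2_coe (f : ↥(levelCochainsS₂ S A)) (x : _root_.Fermat.Agent.S55.GQ × _root_.Fermat.Agent.S55.GQ) :
    ((c2 S u f : ↥(levelCochainsS₂ S B)) : _root_.Fermat.Agent.S55.GQ × _root_.Fermat.Agent.S55.GQ → B) x = u.hom ((f : _root_.Fermat.Agent.S55.GQ × _root_.Fermat.Agent.S55.GQ → A) x) := rfl

theorem c3_apply (f : _root_.Fermat.Agent.S55.GQ × _root_.Fermat.Agent.S55.GQ × _root_.Fermat.Agent.S55.GQ → A) (x : _root_.Fermat.Agent.S55.GQ × _root_.Fermat.Agent.S55.GQ × _root_.Fermat.Agent.S55.GQ) : c3 u f x = u.hom (f x) := rfl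

end maps

section nine

variable {A B C : Rep.{0} k _root_.Fermat.Agent.S55.GQ} (i : A ⟶ B) (π : B ⟶ C)

/-- The level-`S` cochain complexes of a short exact sequence of level-`S` representations form
a degreewise short exact sequence. -/
theorem nineHyp (hi : Function.Injective i.hom) (hπ : Function.Surjective π.hom)
    (hex : ∀ b : B, π.hom b = 0 ↔ ∃ a : A, i.hom a = b)
    (hA : Lev S A) (hB : Lev S B) (hC : Lev S C) :
    NineHyp (d0 S A hA) (d1 S A hA) (d2 S A) (d0 S B hB) (d1 S B hB) (d2 S B)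
      (d0 S C hC) (d1 S C hC) (d2 S C)
      i.hom.toLinearMap (c1 S i) (c2 S i) (c3 i)
      π.hom.toLinearMap (c1 S π) (c2 S π) (c3 π) where
  d1B_d0B := fun x => Subtype.ext (dOne_dZero B x)
  d2B_d1B := fun x => dTwo_dOne B (x : _root_.Fermat.Agent.S55.GQ → B)
  i1_d0A := fun x => Subtype.ext (dZero_comp i x).symm
  i2_d1A := fun x => Subtype.ext (dOne_comp i (x : _root_.Fermat.Agent.S55.GQ → A)).symm
  i3_d2A := fun x => (dTwo_comp i (x : _root_.Fermat.Agent.S55.GQ × _root_.Fermat.Agent.S55.GQ → A)).symm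
  p1_d0B := fun x => Subtype.ext (dZero_comp π x).symm
  p2_d1B := fun x => Subtype.ext (dOne_comp π (x : _root_.Fermat.Agent.S55.GQ → B)).symm
  p3_d2B := fun x => (dTwo_comp π (x : _root_.Fermat.Agent.S55.GQ × _root_.Fermat.Agent.S55.GQ → B)).symm
  i0_inj := hi
  ex0 := hex
  p0_surj := hπ
  i1_inj := fun f f' hff => by
    apply Subtype.ext
    funext g
    apply hi
    exact congrFun (congrArg Subtype.val hff) g
  ex1 := fun x => by
    constructor
    · intro hx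
      have hx' : ∀ g, π.hom ((x : _root_.Fermat.Agent.S55.GQ → B) g) = 0 := fun g =>
        congrFun (congrArg Subtype.val hx) g
      refine ⟨⟨Function.invFun i.hom ∘ (x : _root_.Fermat.Agent.S55.GQ → B), x.2.comp (Function.invFun i.hom)⟩, ?_⟩
      apply Subtype.ext
      funext g
      obtain ⟨a, ha⟩ := (hex _).1 (hx' g)
      show i.hom (Function.invFun i.hom ((x : _root_.Fermat.Agent.S55.GQ → B) g)) = (x : _root_.Fermat.Agent.S55.GQ → B) g
      rw [← ha, Function.leftInverse_invFun hi a]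
    · rintro ⟨a, rfl⟩
      apply Subtype.ext
      funext g
      exact (hex _).2 ⟨_, rfl⟩
  p1_surj := fun x => by
    refine ⟨⟨Function.surjInv hπ ∘ (x : _root_.Fermat.Agent.S55.GQ → C), x.2.comp (Function.surjInv hπ)⟩, ?_⟩
    apply Subtype.ext
    funext g
    exact Function.surjInv_eq hπ _
  i2_inj := fun f f' hff => by
    apply Subtype.ext
    funext g
    apply hi
    exact congrFun (congrArg Subtype.val hff) g
  ex2 := fun x => by
    constructor
    · intro hx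
      have hx' : ∀ g, π.hom ((x : _root_.Fermat.Agent.S55.GQ × _root_.Fermat.Agent.S55.GQ → B) g) = 0 := fun g =>
        congrFun (congrArg Subtype.val hx) g
      refine ⟨⟨Function.invFun i.hom ∘ (x : _root_.Fermat.Agent.S55.GQ × _root_.Fermat.Agent.S55.GQ → B), x.2.comp (Function.invFun i.hom)⟩, ?_⟩
      apply Subtype.ext
      funext g
      obtain ⟨a, ha⟩ := (hex _).1 (hx' g)
      show i.hom (Function.invFun i.hom ((x : _root_.Fermat.Agent.S55.GQ × _root_.Fermat.Agent.S55.GQ → B) g)) = (x : _root_.Fermat.Agent.S55.GQ × _root_.Fermat.Agent.S55.GQ → B) g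
      rw [← ha, Function.leftInverse_invFun hi a]
    · rintro ⟨a, rfl⟩
      apply Subtype.ext
      funext g
      exact (hex _).2 ⟨_, rfl⟩
  i3_inj := fun f f' hff => by
    funext g
    apply hi
    exact congrFun hff g

end nine

section ident

variable (N : Rep.{0} k _root_.Fermat.Agent.S55.GQ) (hN : Lev S N)

/-- `H⁰` of the level-`S` complex is the space of invariants. -/
theorem ker_d0 : LinearMap.ker (d0 S N hN) = N.ρ.invariants := by
  ext m
  rw [LinearMap.mem_ker, Representation.mem_invariants]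
  constructor
  · intro h g
    have h1 : dZero N m g = 0 := congrFun (congrArg Subtype.val h) g
    exact sub_eq_zero.1 h1
  · intro h
    apply Subtype.ext
    funext g
    show N.ρ g m - m = 0
    rw [h g, sub_self]

theorem finrank_ker_d0 :
    Module.finrank k ↥(LinearMap.ker (d0 S N hN)) = Module.finrank k ↥N.ρ.invariants := by
  rw [ker_d0]

/-- The cocycle underlying an element of `ker d¹`. -/
def toCocycles₁ : ↥(LinearMap.ker (d1 S N hN)) →ₗ[k] ↥(cocycles₁ N) :=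
  LinearMap.codRestrict (cocycles₁ N)
    ((levelCochainsS₁ S N).subtype ∘ₗ (LinearMap.ker (d1 S N hN)).subtype)
    (fun z => by
      have hz : d1 S N hN (z : ↥(levelCochainsS₁ S N)) = 0 := z.2
      have hz' : dOne N ((z : ↥(levelCochainsS₁ S N)) : _root_.Fermat.Agent.S55.GQ → N) = 0 :=
        congrArg Subtype.val hz
      exact LinearMap.mem_ker.2 hz')

theorem toCocycles₁_coe (z : ↥(LinearMap.ker (d1 S N hN))) :
    ((toCocycles₁ S N hN z : ↥(cocycles₁ N)) : _root_.Fermat.Agent.S55.GQ → N) =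
      ((z : ↥(levelCochainsS₁ S N)) : _root_.Fermat.Agent.S55.GQ → N) := rfl

/-- The class map `ker d¹ → H¹(G_ℚ, N)`. -/
def classH1 : ↥(LinearMap.ker (d1 S N hN)) →ₗ[k] H1 N :=
  (H1π N).hom ∘ₗ toCocycles₁ S N hN

theorem range_classH1 : LinearMap.range (classH1 S N hN) = continuousH1S S N := by
  ext x
  rw [LinearMap.mem_range, mem_continuousH1S_iff]
  constructor
  · rintro ⟨z, rfl⟩
    exact ⟨toCocycles₁ S N hN z, (z : ↥(levelCochainsS₁ S N)).2, rfl⟩
  · rintro ⟨c, hc, rfl⟩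
    have hz : (⟨(c : _root_.Fermat.Agent.S55.GQ → N), hc⟩ : ↥(levelCochainsS₁ S N)) ∈ LinearMap.ker (d1 S N hN) := by
      rw [LinearMap.mem_ker]
      apply Subtype.ext
      exact LinearMap.mem_ker.1 c.2
    exact ⟨⟨⟨(c : _root_.Fermat.Agent.S55.GQ → N), hc⟩, hz⟩, rfl⟩

theorem ker_classH1 : LinearMap.ker (classH1 S N hN) =
    (LinearMap.range (d0 S N hN)).comap (LinearMap.ker (d1 S N hN)).subtype := by
  ext z
  rw [LinearMap.mem_ker, Submodule.mem_comap, LinearMap.mem_range]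
  show (H1π N).hom (toCocycles₁ S N hN z) = 0 ↔ _
  rw [H1π_eq_zero_iff]
  constructor
  · rintro ⟨m, hm⟩
    refine ⟨m, Subtype.ext ?_⟩
    exact hm
  · rintro ⟨m, hm⟩
    exact ⟨m, congrArg Subtype.val hm⟩

/-- `H¹` of the level-`S` complex is `continuousH1S`. -/
def equivH1 : Hmid (d0 S N hN) (d1 S N hN) ≃ₗ[k] ↥(continuousH1S S N) :=
  (Submodule.quotEquivOfEq _ _ (ker_classH1 S N hN).symm).trans
    ((classH1 S N hN).quotKerEquivRange.trans (LinearEquiv.ofEq _ _ (range_classH1 S N hN)))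

theorem finrank_H1 : Module.finrank k (Hmid (d0 S N hN) (d1 S N hN)) =
    Module.finrank k ↥(continuousH1S S N) :=
  (equivH1 S N hN).finrank_eq

/-- `ker d²` is the space of level-`S` 2-cocycles. -/
def equivZ2 : ↥(LinearMap.ker (d2 S N)) ≃ₗ[k] ↥(levelCocyclesS₂ S N) where
  toFun z := ⟨((z : ↥(levelCochainsS₂ S N)) : _root_.Fermat.Agent.S55.GQ × _root_.Fermat.Agent.S55.GQ → N),
    ⟨LinearMap.mem_ker.2 (LinearMap.mem_ker.1 z.2), (z : ↥(levelCochainsS₂ S N)).2⟩⟩
  invFun c := ⟨⟨(c : _root_.Fermat.Agent.S55.GQ × _root_.Fermat.Agent.S55.GQ → N), c.2.2⟩, LinearMap.mem_ker.2 (LinearMap.mem_ker.1 c.2.1)⟩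
  map_add' _ _ := rfl
  map_smul' _ _ := rfl
  left_inv _ := rfl
  right_inv _ := rfl

theorem map_equivZ2 :
    ((LinearMap.range (d1 S N hN)).comap (LinearMap.ker (d2 S N)).subtype).map
        (equivZ2 S N : ↥(LinearMap.ker (d2 S N)) →ₗ[k] ↥(levelCocyclesS₂ S N)) =
      (levelCoboundariesS₂ S N).comap (levelCocyclesS₂ S N).subtype := by
  ext c
  rw [Submodule.mem_map, Submodule.mem_comap, mem_levelCoboundariesS₂_iff]
  constructor
  · rintro ⟨z, hz, rfl⟩
    rw [Submodule.mem_comap, LinearMap.mem_range] at hz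
    obtain ⟨f, hf⟩ := hz
    exact ⟨(f : _root_.Fermat.Agent.S55.GQ → N), f.2, congrArg Subtype.val hf⟩
  · rintro ⟨x, hx, hxc⟩
    refine ⟨(equivZ2 S N).symm c, ?_, (equivZ2 S N).apply_symm_apply c⟩
    rw [Submodule.mem_comap, LinearMap.mem_range]
    exact ⟨⟨x, hx⟩, Subtype.ext hxc⟩

/-- `H²` of the level-`S` complex is `continuousH2S`. -/
def equivH2 : Hmid (d1 S N hN) (d2 S N) ≃ₗ[k] continuousH2S S N :=
  Submodule.Quotient.equiv _ _ (equivZ2 S N) (map_equivZ2 S N hN)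

theorem finrank_H2 : Module.finrank k (Hmid (d1 S N hN) (d2 S N)) =
    Module.finrank k (continuousH2S S N) :=
  (equivH2 S N hN).finrank_eq

end ident

section main

variable {A B C : Rep.{0} k _root_.Fermat.Agent.S55.GQ} (i : A ⟶ B) (π : B ⟶ C)
  (hi : Function.Injective i.hom) (hπ : Function.Surjective π.hom)
  (hex : ∀ b : B, π.hom b = 0 ↔ ∃ a : A, i.hom a = b)
  (hA : Lev S A) (hB : Lev S B) (hC : Lev S C)

include hi hπ hex hA hB hC

/-- The map `H²_S(B) → H²_S(C)` of the long exact sequence (on the cochain model). -/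
def β2 : Hmid (d1 S B hB) (d2 S B) →ₗ[k] Hmid (d1 S C hC) (d2 S C) :=
  (nineHyp S i π hi hπ hex hA hB hC).β2

/-- **The dimension count of the long exact sequence** of level-`S` cohomology in degrees
`0..2`. -/
theorem count [Module.Finite k B] [Module.Finite k C]
    [Module.Finite k ↥(continuousH1S S A)] [Module.Finite k ↥(continuousH1S S B)]
    [Module.Finite k ↥(continuousH1S S C)]
    [Module.Finite k (continuousH2S S A)] [Module.Finite k (continuousH2S S B)] :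
    Module.finrank k ↥A.ρ.invariants + Module.finrank k ↥C.ρ.invariants +
        Module.finrank k ↥(continuousH1S S B) + Module.finrank k (continuousH2S S A) +
        Module.finrank k (LinearMap.range (β2 S i π hi hπ hex hA hB hC)) =
      Module.finrank k ↥B.ρ.invariants + Module.finrank k ↥(continuousH1S S A) +
        Module.finrank k ↥(continuousH1S S C) + Module.finrank k (continuousH2S S B) := by
  haveI : Module.Finite k (Hmid (d0 S A hA) (d1 S A hA)) :=
    Module.Finite.equiv (equivH1 S A hA).symm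
  haveI : Module.Finite k (Hmid (d0 S B hB) (d1 S B hB)) :=
    Module.Finite.equiv (equivH1 S B hB).symm
  haveI : Module.Finite k (Hmid (d0 S C hC) (d1 S C hC)) :=
    Module.Finite.equiv (equivH1 S C hC).symm
  haveI : Module.Finite k (Hmid (d1 S A hA) (d2 S A)) :=
    Module.Finite.equiv (equivH2 S A hA).symm
  haveI : Module.Finite k (Hmid (d1 S B hB) (d2 S B)) :=
    Module.Finite.equiv (equivH2 S B hB).symm
  have c := (nineHyp S i π hi hπ hex hA hB hC).count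
  have a0 := finrank_ker_d0 S A hA
  have b0 := finrank_ker_d0 S B hB
  have c0 := finrank_ker_d0 S C hC
  have a1 := finrank_H1 S A hA
  have b1 := finrank_H1 S B hB
  have c1 := finrank_H1 S C hC
  have a2 := finrank_H2 S A hA
  have b2 := finrank_H2 S B hB
  have e : Module.finrank k (LinearMap.range (β2 S i π hi hπ hex hA hB hC)) =
      Module.finrank k (LinearMap.range (nineHyp S i π hi hπ hex hA hB hC).β2) := rfl
  omega

/-- **Superadditivity of `h¹ - h⁰ - h²`** on short exact sequences of level-`S`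
representations: no `H³` input is needed. -/
theorem superadd [Module.Finite k B] [Module.Finite k C]
    [Module.Finite k ↥(continuousH1S S A)] [Module.Finite k ↥(continuousH1S S B)]
    [Module.Finite k ↥(continuousH1S S C)]
    [Module.Finite k (continuousH2S S A)] [Module.Finite k (continuousH2S S B)]
    [Module.Finite k (continuousH2S S C)] :
    Module.finrank k ↥B.ρ.invariants + Module.finrank k ↥(continuousH1S S A) +
        Module.finrank k ↥(continuousH1S S C) + Module.finrank k (continuousH2S S B) ≤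
      Module.finrank k ↥A.ρ.invariants + Module.finrank k ↥C.ρ.invariants +
        Module.finrank k ↥(continuousH1S S B) + Module.finrank k (continuousH2S S A) +
        Module.finrank k (continuousH2S S C) := by
  haveI : Module.Finite k (Hmid (d1 S C hC) (d2 S C)) :=
    Module.Finite.equiv (equivH2 S C hC).symm
  have c := count S i π hi hπ hex hA hB hC
  have hle : Module.finrank k (LinearMap.range (β2 S i π hi hπ hex hA hB hC)) ≤
      Module.finrank k (Hmid (d1 S C hC) (d2 S C)) := Submodule.finrank_le _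
  rw [finrank_H2] at hle
  omega

/-- **Additivity** when `H²_S(B) → H²_S(C)` is onto (for instance when `H³_S(A) = 0`, or when
the sequence splits). -/
theorem add_of_surjective [Module.Finite k B] [Module.Finite k C]
    [Module.Finite k ↥(continuousH1S S A)] [Module.Finite k ↥(continuousH1S S B)]
    [Module.Finite k ↥(continuousH1S S C)]
    [Module.Finite k (continuousH2S S A)] [Module.Finite k (continuousH2S S B)]
    (hs : Function.Surjective (β2 S i π hi hπ hex hA hB hC)) :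
    Module.finrank k ↥B.ρ.invariants + Module.finrank k ↥(continuousH1S S A) +
        Module.finrank k ↥(continuousH1S S C) + Module.finrank k (continuousH2S S B) =
      Module.finrank k ↥A.ρ.invariants + Module.finrank k ↥C.ρ.invariants +
        Module.finrank k ↥(continuousH1S S B) + Module.finrank k (continuousH2S S A) +
        Module.finrank k (continuousH2S S C) := by
  have c := count S i π hi hπ hex hA hB hC
  have hr : Module.finrank k (LinearMap.range (β2 S i π hi hπ hex hA hB hC)) =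
      Module.finrank k (Hmid (d1 S C hC) (d2 S C)) := by
    rw [LinearMap.range_eq_top.2 hs, finrank_top]
  rw [finrank_H2] at hr
  omega

/-- `β2` is onto as soon as every level-`S` 2-cocycle of `C` lifts, modulo level-`S`
coboundaries, to a level-`S` 2-cocycle of `B`. -/
theorem β2_surjective_of_lift
    (hlift : ∀ c : _root_.Fermat.Agent.S55.GQ × _root_.Fermat.Agent.S55.GQ → C, dTwo C c = 0 → IsLevelConstantS₂ S c →
      ∃ b : _root_.Fermat.Agent.S55.GQ × _root_.Fermat.Agent.S55.GQ → B, dTwo B b = 0 ∧ IsLevelConstantS₂ S b ∧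
        ∃ f : _root_.Fermat.Agent.S55.GQ → C, IsLevelConstantS₁ S f ∧ (fun x => π.hom (b x)) = c + dOne C f) :
    Function.Surjective (β2 S i π hi hπ hex hA hB hC) := by
  intro y
  obtain ⟨z, rfl⟩ := Hmid.mk_surjective (d1 S C hC) (d2 S C) y
  obtain ⟨b, hb0, hbl, f, hfl, hbf⟩ :=
    hlift ((z : ↥(levelCochainsS₂ S C)) : _root_.Fermat.Agent.S55.GQ × _root_.Fermat.Agent.S55.GQ → C) (LinearMap.mem_ker.1 z.2)
      (z : ↥(levelCochainsS₂ S C)).2
  have hbz : (⟨b, hbl⟩ : ↥(levelCochainsS₂ S B)) ∈ LinearMap.ker (d2 S B) :=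
    LinearMap.mem_ker.2 hb0
  refine ⟨Hmid.mk (d1 S B hB) (d2 S B) ⟨⟨b, hbl⟩, hbz⟩, ?_⟩
  have hpz : c2 S π (⟨b, hbl⟩ : ↥(levelCochainsS₂ S B)) ∈ LinearMap.ker (d2 S C) := by
    rw [LinearMap.mem_ker]
    show dTwo C (fun x => π.hom (b x)) = 0
    rw [dTwo_comp π b, hb0]
    funext x
    exact map_zero _
  have e1 : β2 S i π hi hπ hex hA hB hC (Hmid.mk (d1 S B hB) (d2 S B) ⟨⟨b, hbl⟩, hbz⟩) =
      Hmid.mk (d1 S C hC) (d2 S C) ⟨c2 S π ⟨b, hbl⟩, hpz⟩ :=
    Hmid.map_mk (c1 S π) (c2 S π) (c3 π) (nineHyp S i π hi hπ hex hA hB hC).six1.pY_dB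
      (nineHyp S i π hi hπ hex hA hB hC).six1.pZ_eB _ _ rfl
  rw [e1, Hmid.mk_eq_mk_iff]
  refine ⟨⟨f, hfl⟩, ?_⟩
  apply Subtype.ext
  show dOne C f = (fun x => π.hom (b x)) - ((z : ↥(levelCochainsS₂ S C)) : _root_.Fermat.Agent.S55.GQ × _root_.Fermat.Agent.S55.GQ → C)
  rw [hbf]
  abel

/-- `H²_S(B)` is finite-dimensional if `H²_S(A)` and `H²_S(C)` are. -/
theorem finite_H2 [Module.Finite k (continuousH2S S A)] [Module.Finite k (continuousH2S S C)] :
    Module.Finite k (continuousH2S S B) := by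
  haveI : Module.Finite k (Hmid (d1 S A hA) (d2 S A)) :=
    Module.Finite.equiv (equivH2 S A hA).symm
  haveI : Module.Finite k (Hmid (d1 S C hC) (d2 S C)) :=
    Module.Finite.equiv (equivH2 S C hC).symm
  haveI := (nineHyp S i π hi hπ hex hA hB hC).finite_H2B
  exact Module.Finite.equiv (equivH2 S B hB)

end main

end Fermat.Agent.S56.H92.LES

end

end
-- ==== END Fermat.Agent.S56.EC.H92_LES

-- ==== BEGIN Fermat.Agent.S56.FL.H15_Herb
section

set_option autoImplicit false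

/-!
# LOC-p-FL, package HERB (helper15): Herbrand's theorem

* `depthOn L N σ`   : the depth of `σ` on the fixed field of the subgroup `N ≤ Gal(L/ℚ_p)`.
* `cosetProd_le_depthOn` : Serre, Local Fields IV §1 Prop. 3 (the inequality that is needed):
  `∏_{ν ∈ N} depth (σ ν) ≤ depthOn N σ`.
* `herbrand_rel`    : relative form over a base `K' = L^H`, everything inside `Gal(L/ℚ_p)`.
* `stmt_HERB`       : `Stmt_HERB` of `FL/Local.lean`.
-/

noncomputable section

namespace Fermat.Agent.S56.FL.H15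

open scoped NNReal
open Fermat.Agent.S56.FL Module Polynomial

variable {p : ℕ} [Fact p.Prime]

variable (L : IntermediateField ℚ_[p] (PadicAlgCl p))

/-- The depth of `σ` on the integers of the fixed field of `N`. -/
def depthOn (N : Subgroup (L ≃ₐ[ℚ_[p]] L)) (σ : L ≃ₐ[ℚ_[p]] L) : ℝ :=
  ⨆ a : {a : L // ‖a‖ ≤ 1 ∧ ∀ ν ∈ N, ν a = a}, ‖σ a.1 - a.1‖

variable {L}

theorem depthOn_bddAbove (N : Subgroup (L ≃ₐ[ℚ_[p]] L)) (σ : L ≃ₐ[ℚ_[p]] L) :
    BddAbove (Set.range fun a : {a : L // ‖a‖ ≤ 1 ∧ ∀ ν ∈ N, ν a = a} => ‖σ a.1 - a.1‖) := by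
  refine ⟨1, ?_⟩
  rintro _ ⟨a, rfl⟩
  exact norm_sub_le_one σ a.2.1

theorem norm_sub_le_depthOn (N : Subgroup (L ≃ₐ[ℚ_[p]] L)) (σ : L ≃ₐ[ℚ_[p]] L) {a : L}
    (ha : ‖a‖ ≤ 1) (hfix : ∀ ν ∈ N, ν a = a) : ‖σ a - a‖ ≤ depthOn L N σ :=
  le_ciSup (depthOn_bddAbove N σ) (⟨a, ha, hfix⟩ : {a : L // ‖a‖ ≤ 1 ∧ ∀ ν ∈ N, ν a = a})

theorem depthOn_nonneg (N : Subgroup (L ≃ₐ[ℚ_[p]] L)) (σ : L ≃ₐ[ℚ_[p]] L) :
    0 ≤ depthOn L N σ :=
  (norm_nonneg _).trans (norm_sub_le_depthOn N σ (a := 0) (by simp) (by simp))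

theorem depthOn_le (N : Subgroup (L ≃ₐ[ℚ_[p]] L)) (σ : L ≃ₐ[ℚ_[p]] L) {C : ℝ}
    (hC : ∀ a : L, ‖a‖ ≤ 1 → (∀ ν ∈ N, ν a = a) → ‖σ a - a‖ ≤ C) : depthOn L N σ ≤ C := by
  have : Nonempty {a : L // ‖a‖ ≤ 1 ∧ ∀ ν ∈ N, ν a = a} := ⟨⟨0, by simp, by simp⟩⟩
  exact ciSup_le fun a => hC a.1 a.2.1 a.2.2

/-- `depth` is an ultrametric depth function on the Galois group. -/
theorem isDepthFn_depth (L : IntermediateField ℚ_[p] (PadicAlgCl p)) :
    IsDepthFn (depth p L) where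
  nonneg := depth_nonneg L
  mul_le := depth_mul_le L
  inv := depth_inv L

/-- A polynomial with integral coefficients, evaluated at an integer: ultrametric bound of a
difference of evaluations by the differences of the coefficients. -/
theorem exists_coeff_norm_ge (F G : L[X]) (x : L) (hx : ‖x‖ ≤ 1) :
    ∃ i : ℕ, ‖G.eval x - F.eval x‖ ≤ ‖G.coeff i - F.coeff i‖ := by
  set n := max F.natDegree G.natDegree + 1 with hn
  have hF : F.eval x = ∑ i ∈ Finset.range n, F.coeff i * x ^ i :=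
    eval_eq_sum_range' (by omega) x
  have hG : G.eval x = ∑ i ∈ Finset.range n, G.coeff i * x ^ i :=
    eval_eq_sum_range' (by omega) x
  have hsub : G.eval x - F.eval x
      = ∑ i ∈ Finset.range n, (G.coeff i - F.coeff i) * x ^ i := by
    rw [hF, hG, ← Finset.sum_sub_distrib]
    exact Finset.sum_congr rfl fun i _ => by ring
  obtain ⟨i, -, hi⟩ := IsUltrametricDist.exists_norm_finsetSum_le (Finset.range n)
    (fun i => (G.coeff i - F.coeff i) * x ^ i)
  refine ⟨i, ?_⟩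
  rw [hsub]
  refine hi.trans ?_
  rw [norm_mul, norm_pow]
  calc ‖G.coeff i - F.coeff i‖ * ‖x‖ ^ i ≤ ‖G.coeff i - F.coeff i‖ * 1 :=
        mul_le_mul_of_nonneg_left (pow_le_one₀ (norm_nonneg _) hx) (norm_nonneg _)
    _ = ‖G.coeff i - F.coeff i‖ := mul_one _

/-- The coefficients of a product of monic linear factors with integral roots are integral. -/
theorem norm_coeff_prod_X_sub_C_le {ι : Type*} (s : Finset ι) (f : ι → L)
    (hf : ∀ i ∈ s, ‖f i‖ ≤ 1) (k : ℕ) : ‖(∏ i ∈ s, (X - C (f i))).coeff k‖ ≤ 1 := by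
  classical
  have key : ∃ P : (OL L)[X], P.map (OL L).subtype = ∏ i ∈ s, (X - C (f i)) := by
    induction s using Finset.induction_on with
    | empty => exact ⟨1, by simp⟩
    | insert a s ha ih =>
      obtain ⟨P, hP⟩ := ih fun i hi => hf i (Finset.mem_insert_of_mem hi)
      refine ⟨(X - C ⟨f a, hf a (Finset.mem_insert_self a s)⟩) * P, ?_⟩
      rw [Finset.prod_insert ha, Polynomial.map_mul, hP]
      simp
  obtain ⟨P, hP⟩ := key
  rw [← hP, coeff_map]
  exact (P.coeff k).2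

variable [FiniteDimensional ℚ_[p] L]

/-- **Serre, Local Fields IV §1 Prop. 3** (the inequality `≥`, in multiplicative form):
`∏_{ν ∈ N} depth (σ ν) ≤ depthOn N σ`. -/
theorem cosetProd_le_depthOn (N : Subgroup (L ≃ₐ[ℚ_[p]] L)) [Fintype N]
    (σ : L ≃ₐ[ℚ_[p]] L) : cosetProd N (depth p L) σ ≤ depthOn L N σ := by
  classical
  obtain ⟨x, π, q, hgood⟩ := exists_goodGen L
  have hx : ‖x‖ ≤ 1 := hgood.1
  have hnorm : ∀ τ : L ≃ₐ[ℚ_[p]] L, ∀ a : L, ‖τ a‖ = ‖a‖ := fun τ a => norm_algEquiv τ a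
  -- the polynomial `F = ∏ (X - ν x)`
  set F : L[X] := ∏ ν : N, (X - C ((ν : L ≃ₐ[ℚ_[p]] L) x)) with hF
  have hmap : ∀ τ : L ≃ₐ[ℚ_[p]] L,
      F.map (τ : L →+* L) = ∏ ν : N, (X - C (τ ((ν : L ≃ₐ[ℚ_[p]] L) x))) := by
    intro τ
    rw [hF, Polynomial.map_prod]
    refine Finset.prod_congr rfl fun ν _ => ?_
    simp
  have hF0 : F.eval x = 0 := by
    rw [hF, eval_prod]
    refine Finset.prod_eq_zero (Finset.mem_univ (1 : N)) ?_
    simp
  have hFσ : (F.map (σ : L →+* L)).eval x = ∏ ν : N, (x - σ ((ν : L ≃ₐ[ℚ_[p]] L) x)) := by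
    rw [hmap, eval_prod]
    refine Finset.prod_congr rfl fun ν _ => ?_
    simp
  -- the coefficients of `F` are integral and fixed by `N`
  have hint : ∀ k, ‖F.coeff k‖ ≤ 1 := fun k =>
    norm_coeff_prod_X_sub_C_le _ _ (fun ν _ => by rw [hnorm]; exact hx) k
  have hfix : ∀ k, ∀ ν ∈ N, ν (F.coeff k) = F.coeff k := by
    intro k ν hν
    have h1 : F.map ((ν : L ≃ₐ[ℚ_[p]] L) : L →+* L) = F := by
      rw [hmap, hF]
      refine Fintype.prod_equiv (Equiv.mulLeft (⟨ν, hν⟩ : N)) _ _ fun μ => ?_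
      simp [AlgEquiv.mul_apply]
    have h2 := congrArg (fun P : L[X] => P.coeff k) h1
    simpa [coeff_map] using h2
  -- the estimate
  obtain ⟨i, hi⟩ := exists_coeff_norm_ge F (F.map (σ : L →+* L)) x hx
  rw [hF0, sub_zero, coeff_map] at hi
  have h3 : cosetProd N (depth p L) σ = ‖(F.map (σ : L →+* L)).eval x‖ := by
    rw [hFσ, norm_prod]
    refine Finset.prod_congr rfl fun ν _ => ?_
    rw [depth_eq_of_goodGen hgood, AlgEquiv.mul_apply, norm_sub_rev]
  rw [h3]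
  exact hi.trans (norm_sub_le_depthOn N σ (hint i) (hfix i))

/-- **Herbrand's theorem, relative form** (base `K' = L^H`, intermediate field `M = L^N`,
`N ≤ H ≤ Gal(L/ℚ_p)`): for every `σ` there is `ν₀ ∈ N` with
`(∏_{τ ∈ H} max (depth (σ ν₀)) (depth τ)) ^ |N| ≤ ∏_{τ ∈ H} max (depthOn N σ) (depthOn N τ)`.
(The product on the right counts every coset of `N` exactly `|N|` times.) -/
theorem herbrand_rel (H N : Subgroup (L ≃ₐ[ℚ_[p]] L)) [Fintype H] [Fintype N] (hNH : N ≤ H)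
    (σ : L ≃ₐ[ℚ_[p]] L) :
    ∃ ν₀ ∈ N, (∏ τ : H, max (depth p L (σ * ν₀)) (depth p L (τ : L ≃ₐ[ℚ_[p]] L)))
        ^ Fintype.card N
      ≤ ∏ τ : H, max (depthOn L N σ) (depthOn L N (τ : L ≃ₐ[ℚ_[p]] L)) := by
  obtain ⟨ν₀, hν₀⟩ := exists_min_coset (N := N) (depth p L) σ
  refine ⟨ν₀, ν₀.2, ?_⟩
  have hmin : ∀ ν : N, depth p L (σ * ν₀) ≤ depth p L (σ * ν₀ * ν) := by
    intro ν
    have := hν₀ (ν₀ * ν)
    simpa [mul_assoc] using this
  rw [← prod_max_cosetProd (isDepthFn_depth L) H hNH hmin, cosetProd_mul_right]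
  refine Finset.prod_le_prod (fun τ _ => ?_) (fun τ _ => ?_)
  · exact (cosetProd_nonneg (isDepthFn_depth L) _).trans (le_max_left _ _)
  · exact max_le_max (cosetProd_le_depthOn N σ) (cosetProd_le_depthOn N τ)

/-- Herbrand's theorem, relative form with `H = ⊤`, products over the whole group. -/
theorem herbrand_top (N : Subgroup (L ≃ₐ[ℚ_[p]] L)) [Fintype N] [Fintype (L ≃ₐ[ℚ_[p]] L)]
    (σ : L ≃ₐ[ℚ_[p]] L) :
    ∃ ν₀ ∈ N, (∏ τ : L ≃ₐ[ℚ_[p]] L, max (depth p L (σ * ν₀)) (depth p L τ))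
        ^ Fintype.card N
      ≤ ∏ τ : L ≃ₐ[ℚ_[p]] L, max (depthOn L N σ) (depthOn L N τ) := by
  obtain ⟨ν₀, hν₀⟩ := exists_min_coset (N := N) (depth p L) σ
  refine ⟨ν₀, ν₀.2, ?_⟩
  have hmin : ∀ ν : N, depth p L (σ * ν₀) ≤ depth p L (σ * ν₀ * ν) := by
    intro ν
    have := hν₀ (ν₀ * ν)
    simpa [mul_assoc] using this
  rw [← prod_max_cosetProd_top (isDepthFn_depth L) hmin, cosetProd_mul_right]
  refine Finset.prod_le_prod (fun τ _ => ?_) (fun τ _ => ?_)
  · exact (cosetProd_nonneg (isDepthFn_depth L) _).trans (le_max_left _ _)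
  · exact max_le_max (cosetProd_le_depthOn N σ) (cosetProd_le_depthOn N τ)

end Fermat.Agent.S56.FL.H15

end

end
-- ==== END Fermat.Agent.S56.FL.H15_Herb
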