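-- GENERATED (merged mirror, NOTES/tools/trim/merge3_helper67.py): 9 modules of the originals, bodies verbatim.
import Mathlib
import Fermat.Agent.Zm.S56_L06_000
import Fermat.Agent.Zm.S56_L06_003
import Fermat.Agent.Zm.S56_L05_003
import Fermat.Agent.Zm.S56_L05_000
import Fermat.Agent.Zm.S56_L05_001
import Fermat.Agent.Zm.S56_L06_001
import Fermat.Agent.Zm.S56_L04_002
import Fermat.Agent.Zm.S56_L04_003
import Fermat.Agent.Zm.S56_L04_000
import Fermat.Agent.Zm.S56_L03_003

-- ==== BEGIN Fermat.Agent.S55.CFT.GS.H24_Basic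
section

set_option autoImplicit false
set_option linter.unusedSectionVars false
set_option linter.unusedVariables false

open CategoryTheory Module groupCohomology ExtCitation

noncomputable section

namespace Fermat.Agent.S55.CFT.GS.H24

open Fermat.Agent.S55 Fermat.Agent.S55.Top Fermat.Agent.S55.CFT.GS

local notation "Qb" => AlgebraicClosure ℚ

/-! ### `μ_p` calculus -/

section mu

variable {p : ℕ} [Fact p.Prime] {M : Type} [CommGroup M] {ζ : M}

theorem zp_add (h1 : ζ ^ p = 1) (a b : ZMod p) :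
    ζ ^ (a + b).val = ζ ^ a.val * ζ ^ b.val := by
  rw [ZMod.val_add, ← pow_add]
  conv_rhs => rw [← Nat.mod_add_div (a.val + b.val) p]
  rw [pow_add, pow_mul, h1, one_pow, mul_one]

theorem zp_zero : ζ ^ (0 : ZMod p).val = 1 := by
  rw [ZMod.val_zero, pow_zero]

theorem zp_neg (h1 : ζ ^ p = 1) (a : ZMod p) : ζ ^ (-a).val = (ζ ^ a.val)⁻¹ := by
  rw [eq_inv_iff_mul_eq_one, ← zp_add h1, neg_add_cancel, zp_zero]

theorem zp_sub (h1 : ζ ^ p = 1) (a b : ZMod p) :
    ζ ^ (a - b).val = ζ ^ a.val / ζ ^ b.val := by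
  rw [sub_eq_add_neg, zp_add h1, zp_neg h1, div_eq_mul_inv]

theorem zp_pow_p (h1 : ζ ^ p = 1) (a : ZMod p) : (ζ ^ a.val) ^ p = 1 := by
  rw [← pow_mul, mul_comm, pow_mul, h1, one_pow]

theorem zp_inj (hζ : IsPrimitiveRoot ζ p) {a b : ZMod p} (h : ζ ^ a.val = ζ ^ b.val) : a = b := by
  have := hζ.pow_inj (ZMod.val_lt a) (ZMod.val_lt b) h
  exact ZMod.val_injective p this

theorem zp_nsmul (h1 : ζ ^ p = 1) (n : ℕ) (a : ZMod p) :
    ζ ^ ((n : ZMod p) * a).val = (ζ ^ a.val) ^ n := by
  induction n with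
  | zero => simp
  | succ n ih =>
    rw [Nat.cast_succ, add_mul, one_mul, zp_add h1, ih, pow_succ]

end mu

/-- Every `p`-th root of unity of `ℚ̄` is a power of `ζ`. -/
theorem exists_zp {p : ℕ} [Fact p.Prime] {ζ : Qbˣ} (hζ : IsPrimitiveRoot ζ p) {x : Qbˣ}
    (hx : x ^ p = 1) : ∃ a : ZMod p, ζ ^ a.val = x := by
  have hζ' : IsPrimitiveRoot (ζ : Qb) p := hζ.map_of_injective (f := Units.coeHom Qb)
    Units.val_injective
  have hx' : (x : Qb) ^ p = 1 := by
    have := congrArg (fun u : Qbˣ => (u : Qb)) hx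
    simpa using this
  have : NeZero p := ⟨(Fact.out : p.Prime).ne_zero⟩
  obtain ⟨i, hi, hix⟩ := hζ'.eq_pow_of_pow_eq_one hx'
  refine ⟨(i : ZMod p), ?_⟩
  apply Units.ext
  rw [ZMod.val_natCast, Nat.mod_eq_of_lt hi]
  simpa using hix

/-! ### Algebra of `mOne` -/

section diff

variable {Δ : Type} [Group Δ] {X : Type} [CommGroup X] [MulDistribMulAction Δ X]

theorem mOne_apply (b : Δ → X) (g h : Δ) : mOne b (g, h) = g • b h / b (g * h) * b g := rfl

theorem mOne_mul (b b' : Δ → X) : mOne (b * b') = mOne b * mOne b' := by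
  funext ⟨g, h⟩
  simp only [mOne_apply, Pi.mul_apply, smul_mul']
  apply Additive.ofMul.injective
  simp only [ofMul_mul, ofMul_div]
  abel

theorem mOne_one : mOne (1 : Δ → X) = 1 := by
  funext ⟨g, h⟩
  simp [mOne_apply]

theorem mOne_inv (b : Δ → X) : mOne b⁻¹ = (mOne b)⁻¹ := by
  rw [eq_inv_iff_mul_eq_one, ← mOne_mul, inv_mul_cancel, mOne_one]

theorem mOne_div (b b' : Δ → X) : mOne (b / b') = mOne b / mOne b' := by
  rw [div_eq_mul_inv, mOne_mul, mOne_inv, div_eq_mul_inv]

theorem mOne_pow (b : Δ → X) (n : ℕ) : mOne (b ^ n) = mOne b ^ n := by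
  induction n with
  | zero => simp [mOne_one]
  | succ n ih => rw [pow_succ, mOne_mul, ih, pow_succ]

theorem mOne_bdry (t : X) : mOne (fun g : Δ => g • t / t) = 1 := by
  funext ⟨g, h⟩
  simp only [mOne_apply, Pi.one_apply, smul_div', mul_smul]
  apply Additive.ofMul.injective
  simp only [ofMul_mul, ofMul_div, ofMul_one]
  abel

/-- A 1-cocycle and its value at products. -/
theorem mOne_eq_one_iff (b : Δ → X) : mOne b = 1 ↔ ∀ g h, b (g * h) = g • b h * b g := by
  constructor
  · intro hb g h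
    have := congrFun hb (g, h)
    simp only [mOne_apply, Pi.one_apply] at this
    rw [div_mul_eq_mul_div, div_eq_one] at this
    exact this.symm
  · intro hb
    funext ⟨g, h⟩
    simp only [mOne_apply, Pi.one_apply]
    rw [div_mul_eq_mul_div, div_eq_one]
    exact (hb g h).symm

end diff

/-- `mOne` of a `μ_p`-valued cochain with fixed `ζ`. -/
theorem mOne_zp {p : ℕ} [Fact p.Prime] {Δ : Type} [Group Δ] {X : Type} [CommGroup X]
    [MulDistribMulAction Δ X] {ζ : X} (h1 : ζ ^ p = 1) (hfix : ∀ g : Δ, g • ζ = ζ)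
    (f : Δ → ZMod p) :
    mOne (fun g => ζ ^ (f g).val) = fun t : Δ × Δ => ζ ^ (tOne f t).val := by
  funext ⟨g, h⟩
  simp only [mOne_apply, tOne, smul_pow', hfix]
  rw [zp_add h1, zp_sub h1]

/-! ### `Ω` -/

section omega

variable {S : Finset Nat.Primes}

theorem inOm_of_mem {K : IntermediateField ℚ Qb} (hK : K.IsUnramifiedOutside S) {x : Qb}
    (hx : x ∈ K) : InOm S x := ⟨K, hK, hx⟩

theorem inOm_one : InOm S (1 : Qb) :=
  ⟨⊥, IntermediateField.isUnramifiedOutside_bot S, one_mem _⟩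

theorem inOm_mul {x y : Qb} (hx : InOm S x) (hy : InOm S y) : InOm S (x * y) := by
  obtain ⟨F, hF, hxF⟩ := hx
  obtain ⟨F', hF', hyF⟩ := hy
  exact ⟨F ⊔ F', hF.sup hF', mul_mem ((le_sup_left : F ≤ F ⊔ F') hxF)
    ((le_sup_right : F' ≤ F ⊔ F') hyF)⟩

theorem inOm_inv {x : Qb} (hx : InOm S x) : InOm S x⁻¹ := by
  obtain ⟨F, hF, hxF⟩ := hx
  exact ⟨F, hF, inv_mem hxF⟩

theorem inOm_div {x y : Qb} (hx : InOm S x) (hy : InOm S y) : InOm S (x / y) := by
  rw [div_eq_mul_inv]
  exact inOm_mul hx (inOm_inv hy)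

theorem inOm_pow {x : Qb} (hx : InOm S x) (n : ℕ) : InOm S (x ^ n) := by
  obtain ⟨F, hF, hxF⟩ := hx
  exact ⟨F, hF, pow_mem hxF n⟩

/-- `Ω` is Galois stable. -/
theorem inOm_map {x : Qb} (hx : InOm S x) (g : GQ) : InOm S (g x) := by
  obtain ⟨F, hF, hxF⟩ := hx
  obtain ⟨F', hle, hF', hN⟩ := H48.exists_normal_level S F hF
  refine ⟨F', hF', ?_⟩
  have := h49_qbar_isGalois
  have hfix : IntermediateField.fixedField F'.fixingSubgroup = F' :=
    InfiniteGalois.fixedField_fixingSubgroup F'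
  rw [← hfix]
  rw [IntermediateField.mem_fixedField_iff]
  intro s hs
  have hs' : g⁻¹ * s * g ∈ F'.fixingSubgroup := by
    have := hN.conj_mem s hs g⁻¹
    simpa using this
  have h2 : (g⁻¹ * s * g) x = x := by
    have := (IntermediateField.mem_fixingSubgroup_iff _ _).1 hs' x (hle hxF)
    exact this
  have h3 : g ((g⁻¹ * s * g) x) = g x := by rw [h2]
  simpa [AlgEquiv.mul_apply] using h3

theorem inOm_smul {K : IntermediateField ℚ Qb} {t : Qbˣ} (ht : InOm S (t : Qb))
    (g : ↥K.fixingSubgroup) : InOm S ((g • t : Qbˣ) : Qb) :=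
  inOm_map ht (g : GQ)

theorem inOm_bdry {K : IntermediateField ℚ Qb} {t : Qbˣ} (ht : InOm S (t : Qb))
    (g : ↥K.fixingSubgroup) : InOm S ((g • t / t : Qbˣ) : Qb) := by
  rw [Units.val_div_eq_div_val]
  exact inOm_div (inOm_smul ht g) ht

/-- The coboundary of an element of `Ω` is of level `S`. -/
theorem isLevK₁_bdry {K : IntermediateField ℚ Qb} {t : Qbˣ} (ht : InOm S (t : Qb)) :
    IsLevK₁ S K (fun g : ↥K.fixingSubgroup => g • t / t) := by
  obtain ⟨F, hF, htF⟩ := ht
  refine ⟨F, hF, fun g s hs => ?_⟩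
  have h : (s : GQ) (t : Qb) = t := (IntermediateField.mem_fixingSubgroup_iff _ _).1 hs _ htF
  have h2 : s • t = t := by
    apply Units.ext
    exact h
  show (g * s) • t / t = g • t / t
  rw [mul_smul, h2]

end omega

end Fermat.Agent.S55.CFT.GS.H24

end

end
-- ==== END Fermat.Agent.S55.CFT.GS.H24_Basic

-- ==== BEGIN Fermat.Agent.S55.CFT.H56_WHasse
section

set_option autoImplicit false
set_option linter.style.haveILetI false

open NumberField TensorProduct CategoryTheory CategoryTheory.Limits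

noncomputable section
namespace Fermat.Agent.S55.CFT.H56

open Fermat.Agent.S55.CFT groupCohomology

/-! ### Restriction to `⊤` -/

/-- Restriction to the subgroup `⊤` is injective (generic coefficient ring). -/
lemma res_top_injective {k : Type} [CommRing k] {G : Type} [Group G] (A : Rep.{0} k G) (n : ℕ) :
    Function.Injective (groupCohomology.map (Subgroup.subtype (⊤ : Subgroup G))
      (𝟙 (Rep.res (Subgroup.subtype (⊤ : Subgroup G)) A)) n).hom := by
  let ε : G →* (⊤ : Subgroup G) := (Subgroup.topEquiv (G := G)).symm.toMonoidHom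
  let ψ : Rep.res ε (Rep.res (Subgroup.subtype (⊤ : Subgroup G)) A) ⟶ A :=
    Rep.ofHom ⟨LinearMap.id, fun g => rfl⟩
  have hcomp := groupCohomology.map_comp (A := A)
    (B := Rep.res (Subgroup.subtype (⊤ : Subgroup G)) A) (C := A)
    (Subgroup.subtype (⊤ : Subgroup G)) ε (𝟙 _) ψ n
  have hid : groupCohomology.map ((Subgroup.subtype (⊤ : Subgroup G)).comp ε)
      ((Rep.resFunctor ε).map (𝟙 (Rep.res (Subgroup.subtype (⊤ : Subgroup G)) A)) ≫ ψ) n
        = 𝟙 _ := by
    rw [← groupCohomology.map_id (B := A) (n := n)]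
    apply groupCohomology.map_congr
    · ext g
      rfl
    · rfl
  rw [hid] at hcomp
  intro x y hxy
  have h1 := congrArg (fun f => f.hom x) hcomp
  have h2 := congrArg (fun f => f.hom y) hcomp
  simp only [ModuleCat.hom_id, LinearMap.id_coe, id_eq, ModuleCat.hom_comp,
    LinearMap.coe_comp, Function.comp_apply] at h1 h2
  rw [h1, h2]
  exact congrArg _ hxy

lemma resMap_top_injective {G : Type} [Group G] (A : Rep ℤ G) (n : ℕ) :
    Function.Injective (resMap A (⊤ : Subgroup G) n) :=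
  res_top_injective A n

lemma subsingleton_of_resSub_top {G : Type} [Group G] (A : Rep ℤ G) (n : ℕ)
    (h : Subsingleton (groupCohomology (resSub A (⊤ : Subgroup G)) n)) :
    Subsingleton (groupCohomology A n) :=
  ⟨fun _ _ => resMap_top_injective A n (Subsingleton.elim _ _)⟩

/-! ### The sequence `0 → E → J → C → 0` -/

variable (K L : Type) [Field K] [Field L] [NumberField K] [NumberField L] [Algebra K L]

/-- `0 → E → J → C → 0` is short exact (for `T ≠ ∅`). -/
lemma seqEJC_shortExact (T : Finset Nat.Primes) (hT : T.Nonempty) :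
    (ShortComplex.mk (diagRep K L T) (toC K L T) (cokernel.condition _)).ShortExact where
  exact := ShortComplex.exact_cokernel _
  mono_f := by
    rw [Rep.mono_iff_injective]
    intro x y h
    have h1 : diagIdele L T ((Additive.toMul x : TUnits L T) : Lˣ) =
        diagIdele L T ((Additive.toMul y : TUnits L T) : Lˣ) := congrArg Additive.toMul h
    have h2 := diagIdele_injective L T hT h1
    exact congrArg Additive.ofMul (Subtype.ext h2)
  epi_g := by
    change Epi (cokernel.π (diagRep K L T))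
    infer_instance

/-- If `Hⁿ(G, C) = 0` then `Hⁿ⁺¹(G, E) → Hⁿ⁺¹(G, J)` is injective. -/
lemma diagMap_injective (T : Finset Nat.Primes) (hT : T.Nonempty) (n : ℕ)
    (h : Subsingleton (groupCohomology (repC K L T) n)) :
    Function.Injective (diagMap K L T (n + 1)) := by
  have hX := seqEJC_shortExact K L T hT
  have hex := mapShortComplex₁_exact hX (i := n) (j := n + 1) rfl
  have hzero : (mapShortComplex₁ hX (i := n) (j := n + 1) rfl).f = 0 := by
    haveI : Subsingleton ↑(mapShortComplex₁ hX (i := n) (j := n + 1) rfl).X₁ := h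
    apply (ModuleCat.isZero_of_subsingleton _).eq_of_src
  have hmono := hex.mono_g hzero
  exact (ModuleCat.mono_iff_injective _).1 hmono

/-- `Hⁿ(G, E) → Hⁿ(G, J) → Hⁿ(G, C)` is zero. -/
lemma toCMap_diagMap (T : Finset Nat.Primes) (n : ℕ) (e : groupCohomology (repE K L T) n) :
    toCMap K L T n (diagMap K L T n e) = 0 := by
  have h := (mapShortComplex₂
    (ShortComplex.mk (diagRep K L T) (toC K L T) (cokernel.condition _)) n).zero
  have h2 := congrArg (fun f => f.hom e) h
  exact h2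

/-- The kernel of `Hⁿ(G, J) → Hⁿ(G, C)` is the image of `Hⁿ(G, E)` (for `T ≠ ∅`). -/
lemma exists_diagMap_eq (T : Finset Nat.Primes) (hT : T.Nonempty) (n : ℕ)
    (y : groupCohomology (repJ K L T) n) (hy : toCMap K L T n y = 0) :
    ∃ e : groupCohomology (repE K L T) n, diagMap K L T n e = y := by
  have hX := seqEJC_shortExact K L T hT
  have hex := mapShortComplex₂_exact hX n
  rw [ShortComplex.moduleCat_exact_iff] at hex
  exact hex y hy

/-! ### W-Hasse -/

/-- **W-Hasse**: BR-Hasse from VAL-a, SLD, CF-ind. -/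
theorem stmt_BrHasse_of (hVal : Stmt_ValExact) (hSLD : Stmt_SLD) (hCF : Stmt_CFind) :
    Stmt_BrHasse := by
  intro p m K L _ _ _ _ _ h3 x hx
  haveI := h3.gal
  have hcplx := isTotallyComplex_of_primitiveRoot p h3.prime h3.odd K h3.zeta
  obtain ⟨T, -, hadm⟩ := stmt_AdmissibleExists p K L ∅ h3.prime h3.gal hcplx
  have hT : T.Nonempty := by
    obtain ⟨q, hq, -⟩ := hadm.pmem
    exact ⟨q, hq⟩
  obtain ⟨e, rfl⟩ := hVal p K L T hadm x (fun v _ => hx v)
  have hcomp : ∀ (q : T) (v : MaximalSpectrum (SemiLocal K q.1)),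
      projMap K L T q v 2 (diagMap K L T 2 e) = 0 := by
    intro q v
    rw [← stmt_LocUnits K L T 2 q v e]
    exact hx ⟨q.1, v⟩
  have h0 : diagMap K L T 2 e = 0 := (hSLD K L T 2).1 _ hcomp
  have hH1 : Subsingleton (groupCohomology (repC K L T) 1) :=
    subsingleton_of_resSub_top _ 1 ((hCF p m K L T h3.prime h3.deg hadm ⊤).1)
  have hinj := diagMap_injective K L T hT 1 hH1
  have he : e = 0 := hinj (by rw [h0, map_zero])
  rw [he, map_zero]

/-! ### W-One -/

/-- **W-One**: BR-One from GoodT and VAL-a. -/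
theorem stmt_BrOne_of (hGood : Stmt_GoodT) (hVal : Stmt_ValExact) : Stmt_BrOne := by
  intro p m K L _ _ _ _ _ h3 x v₀ hx
  obtain ⟨q₀, w₀⟩ := v₀
  obtain ⟨M, hne, T, -, hT0, hyp2, -, hinj, -, -⟩ := hGood p m K L h3 {q₀} 0
  have hq₀T : q₀ ∈ T := hT0 (Finset.mem_singleton_self q₀)
  have hadm := hyp2.adm
  obtain ⟨e, rfl⟩ := hVal p K L T hadm x (fun v hv => hx v (by
    rintro rfl
    exact hv hq₀T))
  have key := hinj (diagMap K L T 2 e) (toCMap_diagMap K L T 2 e) ⟨q₀, hq₀T⟩ w₀ (by
    intro q v hne'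
    rw [← stmt_LocUnits K L T 2 q v e]
    apply hx
    intro heq
    apply hne'
    obtain ⟨q, hq⟩ := q
    obtain ⟨h1, h2⟩ := Sigma.mk.inj_iff.1 heq
    simp only at h1
    subst h1
    rw [heq_iff_eq] at h2
    subst h2
    rfl)
  rw [stmt_LocUnits K L T 2 ⟨q₀, hq₀T⟩ w₀ e]
  exact key

end Fermat.Agent.S55.CFT.H56

end
end
-- ==== END Fermat.Agent.S55.CFT.H56_WHasse

-- ==== BEGIN Fermat.Agent.S55.CFT.H61_LVc
section

set_option autoImplicit false
set_option linter.style.haveILetI false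
set_option linter.unusedSectionVars false

open NumberField TensorProduct IsDedekindDomain

noncomputable section

namespace Fermat.Agent.S55.CFT.H61

open Fermat.Agent.S55.CFT Fermat.Agent.S55.CFT.H12 Fermat.Agent.S55.CFT.H96

attribute [local instance] Fermat.Agent.S55.CFT.fact_primes

section valuations

variable {L : Type} [Field L] [NumberField L] (q : Nat.Primes)

/-- An integer prime to `q` is a unit at every prime above `q`. -/
theorem valuation_intCast_eq_one (w : HeightOneSpectrum (𝓞 L))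
    (hw : ((q : ℕ) : 𝓞 L) ∈ w.asIdeal) {n : ℤ} (hn : ¬ ((q : ℕ) : ℤ) ∣ n) :
    w.valuation L (n : L) = 1 := by
  have h1 : (n : L) = algebraMap (𝓞 L) L (n : 𝓞 L) := by simp
  rw [h1, HeightOneSpectrum.valuation_eq_one_iff_notMem]
  intro hmem
  have hcop : IsCoprime ((q : ℕ) : ℤ) n :=
    (Prime.coprime_iff_not_dvd (Nat.prime_iff_prime_int.mp q.2)).2 hn
  obtain ⟨a, b, hab⟩ := hcop
  have h2 : (1 : 𝓞 L) ∈ w.asIdeal := by
    have h3 : ((a * ((q : ℕ) : ℤ) + b * n : ℤ) : 𝓞 L) = 1 := by rw [hab]; simp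
    rw [← h3]
    push_cast
    exact w.asIdeal.add_mem (w.asIdeal.mul_mem_left _ hw) (w.asIdeal.mul_mem_left _ hmem)
  exact w.isPrime.ne_top ((Ideal.eq_top_iff_one _).2 h2)

theorem valuation_natCast_eq_one (w : HeightOneSpectrum (𝓞 L))
    (hw : ((q : ℕ) : 𝓞 L) ∈ w.asIdeal) {n : ℕ} (hn : ¬ (q : ℕ) ∣ n) :
    w.valuation L (n : L) = 1 := by
  have := valuation_intCast_eq_one q w hw (n := (n : ℤ)) (by rwa [Int.natCast_dvd_natCast])
  simpa using this

/-- `q` is a unit at the primes not above `q`. -/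
theorem valuation_q_eq_one (w : HeightOneSpectrum (𝓞 L))
    (hw : ((q : ℕ) : 𝓞 L) ∉ w.asIdeal) : w.valuation L ((q : ℕ) : L) = 1 := by
  have h1 : ((q : ℕ) : L) = algebraMap (𝓞 L) L ((q : ℕ) : 𝓞 L) := by simp
  rw [h1, HeightOneSpectrum.valuation_eq_one_iff_notMem]
  exact hw

theorem valuation_int_le_one (w : HeightOneSpectrum (𝓞 L)) (n : ℤ) :
    w.valuation L (n : L) ≤ 1 := by
  have := w.valuation_le_one (K := L) ((n : 𝓞 L))
  simpa using this

theorem valuation_of_isIntegral (w : HeightOneSpectrum (𝓞 L)) {y : L} (hy : IsIntegral ℤ y) :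
    w.valuation L y ≤ 1 :=
  (H12.isIntegral_iff_valuation_le_one L y).1 hy w

/-- A rational number which is a `q`-adic integer has denominator prime to `q`. -/
theorem not_dvd_den_of_norm_le_one {c : ℚ} (hc : ‖(c : Qp q)‖ ≤ 1) : ¬ (q : ℕ) ∣ c.den := by
  intro hdvd
  have hnum : ¬ ((q : ℕ) : ℤ) ∣ c.num := by
    intro h
    have h1 : (q : ℕ) ∣ c.num.natAbs := Int.natCast_dvd.mp h
    have h2 : (q : ℕ) ∣ Nat.gcd c.num.natAbs c.den := Nat.dvd_gcd h1 hdvd
    rw [c.reduced] at h2
    exact q.2.one_lt.ne' (Nat.dvd_one.mp h2)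
  have hn1 : ‖((c.num : ℤ) : Qp q)‖ = 1 := by
    refine le_antisymm (Padic.norm_int_le_one _) (not_lt.mp fun hlt => hnum ?_)
    exact Padic.norm_intCast_lt_one_iff.mp hlt
  have hd1 : ‖((c.den : ℕ) : Qp q)‖ < 1 := Padic.norm_natCast_lt_one_iff.mpr hdvd
  have hd0 : ((c.den : ℕ) : Qp q) ≠ 0 := Nat.cast_ne_zero.mpr c.den_nz
  have hc' : (c : Qp q) = ((c.num : ℤ) : Qp q) / ((c.den : ℕ) : Qp q) := by
    conv_lhs => rw [← Rat.num_div_den c]
    push_cast
    rfl
  rw [hc', norm_div, hn1, div_le_one (norm_pos_iff.mpr hd0)] at hc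
  exact absurd hd1 (not_lt.mpr hc)

/-- A rational number with denominator prime to `q` is integral at the primes above `q`. -/
theorem valuation_ratCast_le_one (w : HeightOneSpectrum (𝓞 L))
    (hw : ((q : ℕ) : 𝓞 L) ∈ w.asIdeal) {c : ℚ} (hc : ¬ (q : ℕ) ∣ c.den) :
    w.valuation L (c : L) ≤ 1 := by
  have hc' : (c : L) = ((c.num : ℤ) : L) / ((c.den : ℕ) : L) := by
    conv_lhs => rw [← Rat.num_div_den c]
    push_cast
    rfl
  rw [hc', map_div₀, valuation_natCast_eq_one q w hw hc, div_one]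
  exact valuation_int_le_one w _

end valuations

section main

variable (L : Type) [Field L] [NumberField L] (q : Nat.Primes)

/-- **LV-c**, first half. -/
theorem valuation_le_one_of_mem_intSub {y : L}
    (h : (1 : Qp q) ⊗ₜ[ℚ] y ∈ intSub L q) (w : HeightOneSpectrum (𝓞 L))
    (hw : ((q : ℕ) : 𝓞 L) ∈ w.asIdeal) : w.valuation L y ≤ 1 := by
  have hy := (integralBasis L).sum_repr y
  rw [← hy]
  refine Valuation.map_sum_le _ fun i _ => ?_
  have hi := h i
  rw [slBasis_repr_tmul, one_mul] at hi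
  have hden : ¬ (q : ℕ) ∣ ((integralBasis L).repr y i).den :=
    not_dvd_den_of_norm_le_one q (by simpa using hi)
  have h1 : (integralBasis L).repr y i • integralBasis L i
      = (((integralBasis L).repr y i : ℚ) : L) * integralBasis L i := by
    rw [Algebra.smul_def]; rfl
  rw [h1, map_mul]
  have h2 : w.valuation L (integralBasis L i) ≤ 1 := by
    rw [integralBasis_apply]
    exact w.valuation_le_one (K := L) _
  exact mul_le_one' (valuation_ratCast_le_one q w hw hden) h2

/-- **LV-c**, second half. -/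
theorem mem_intSub_of_valuation_le_one {y : L}
    (h : ∀ w : HeightOneSpectrum (𝓞 L), ((q : ℕ) : 𝓞 L) ∈ w.asIdeal → w.valuation L y ≤ 1) :
    (1 : Qp q) ⊗ₜ[ℚ] y ∈ intSub L q := by
  obtain ⟨z, d, hd, hy⟩ := H20.exists_int_denominator y
  have hdL : (d : L) ≠ 0 := Int.cast_ne_zero.mpr hd
  have hdy : (d : L) * y = (z : L) := by
    rw [hy, Algebra.smul_def, eq_ratCast]
    push_cast
    field_simp
  have hn : d.natAbs ≠ 0 := Int.natAbs_ne_zero.mpr hd
  obtain ⟨k, n', hn', hnn'⟩ := Nat.exists_eq_pow_mul_and_not_dvd hn (q : ℕ) q.2.ne_one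
  -- `|d| y` is integral
  have hint1 : IsIntegral ℤ ((d.natAbs : L) * y) := by
    rcases Int.natAbs_eq d with h1 | h1
    · have h2 : (d : L) = ((d.natAbs : ℕ) : L) :=
        (congrArg (Int.cast : ℤ → L) h1).trans (Int.cast_natCast _)
      rw [← h2, hdy]
      exact RingOfIntegers.isIntegral_coe z
    · have h2 : (d : L) = -((d.natAbs : ℕ) : L) :=
        (congrArg (Int.cast : ℤ → L) h1).trans (by rw [Int.cast_neg, Int.cast_natCast])
      have h3 : ((d.natAbs : ℕ) : L) * y = -((d : L) * y) := by rw [h2]; ring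
      rw [h3, hdy]
      exact (RingOfIntegers.isIntegral_coe z).neg
  -- `n' y` is integral
  have hint : IsIntegral ℤ ((n' : L) * y) := by
    rw [H12.isIntegral_iff_valuation_le_one]
    intro w
    by_cases hw : ((q : ℕ) : 𝓞 L) ∈ w.asIdeal
    · rw [map_mul]
      have h1 : w.valuation L (n' : L) ≤ 1 := by
        have := valuation_int_le_one w (n' : ℤ)
        simpa using this
      exact mul_le_one' h1 (h w hw)
    · have h1 : ((d.natAbs : ℕ) : L) * y = ((q : ℕ) : L) ^ k * ((n' : L) * y) := by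
        rw [hnn']
        push_cast
        ring
      have h2 := valuation_of_isIntegral w hint1
      rw [h1, map_mul, map_pow, valuation_q_eq_one q w hw, one_pow, one_mul] at h2
      exact h2
  have hn'0 : (n' : ℚ) ≠ 0 := by
    intro h0
    have : n' = 0 := by exact_mod_cast h0
    rw [this, mul_zero] at hnn'
    exact hn hnn'
  have hn'L : (n' : L) ≠ 0 := by
    intro h0
    have : n' = 0 := by exact_mod_cast h0
    rw [this, mul_zero] at hnn'
    exact hn hnn'
  obtain ⟨z', hz'⟩ : ∃ z' : 𝓞 L, (z' : L) = (n' : L) * y := ⟨⟨(n' : L) * y, hint⟩, rfl⟩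
  have hyz : ((n' : ℚ)⁻¹ : ℚ) • (z' : L) = y := by
    rw [hz', Algebra.smul_def, eq_ratCast]
    push_cast
    field_simp
  have hc : ‖((((n' : ℚ)⁻¹ : ℚ)) : Qp q)‖ ≤ 1 := by
    push_cast
    rw [norm_inv]
    have : ‖((n' : ℕ) : Qp q)‖ = 1 :=
      Padic.norm_natCast_eq_one_iff.mpr ((Nat.Prime.coprime_iff_not_dvd q.2).2 hn')
    rw [this, inv_one]
  have key : (1 : Qp q) ⊗ₜ[ℚ] y = ((((n' : ℚ)⁻¹ : ℚ)) : Qp q) ⊗ₜ[ℚ] (z' : L) := by
    rw [← H20.one_tmul_ratsmul, hyz]
  rw [key]
  exact tmul_mem_intSet hc z'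

/-- **LV-c**: `1 ⊗ y` is in the lattice `ℤ_q ⊗ 𝓞_L` iff `y` is integral at the primes above
`q`. -/
theorem one_tmul_mem_intSub_iff (y : L) :
    (1 : Qp q) ⊗ₜ[ℚ] y ∈ intSub L q ↔
      ∀ w : HeightOneSpectrum (𝓞 L), ((q : ℕ) : 𝓞 L) ∈ w.asIdeal → w.valuation L y ≤ 1 :=
  ⟨fun h w hw => valuation_le_one_of_mem_intSub L q h w hw,
    mem_intSub_of_valuation_le_one L q⟩

end main

end Fermat.Agent.S55.CFT.H61

end
end
-- ==== END Fermat.Agent.S55.CFT.H61_LVc

-- ==== BEGIN Fermat.Agent.S55.CFT.H61_WH3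
section

set_option autoImplicit false
set_option linter.style.haveILetI false
set_option linter.unusedSectionVars false

open NumberField TensorProduct CategoryTheory

noncomputable section

namespace Fermat.Agent.S55.CFT.H61

open Fermat.Agent.S55.CFT groupCohomology

section tower

variable (K L N : Type) [Field K] [Field L] [Field N] [NumberField K] [NumberField L]
  [NumberField N] [Algebra K L] [Algebra K N] [Algebra L N] [IsScalarTower K L N] [Normal K L]

/-- Inflation commutes with the maps induced by the inclusions of the `T`-units. -/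
theorem infL_unitsMap (T : Finset Nat.Primes) (n : ℕ) (e : groupCohomology (repE K L T) n) :
    infL K L N n (unitsMap K L T n e) = unitsMap K N T n (infE K L N T n e) := by
  have h1 := groupCohomology.map_comp (A := repE K L T) (B := repL K L) (C := repL K N)
    (MonoidHom.id (L ≃ₐ[K] L)) (AlgEquiv.restrictNormalHom (F := K) (K₁ := N) L)
    (unitsToL K L T) (infRepL K L N) n
  have h2 := groupCohomology.map_comp (A := repE K L T) (B := repE K N T) (C := repL K N)
    (AlgEquiv.restrictNormalHom (F := K) (K₁ := N) L) (MonoidHom.id (N ≃ₐ[K] N))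
    (infRepE K L N T) (unitsToL K N T) n
  have h3 : groupCohomology.map
      ((MonoidHom.id (L ≃ₐ[K] L)).comp (AlgEquiv.restrictNormalHom (F := K) (K₁ := N) L))
      ((Rep.resFunctor (AlgEquiv.restrictNormalHom (F := K) (K₁ := N) L)).map (unitsToL K L T)
        ≫ infRepL K L N) n
      = groupCohomology.map
      ((AlgEquiv.restrictNormalHom (F := K) (K₁ := N) L).comp (MonoidHom.id (N ≃ₐ[K] N)))
      ((Rep.resFunctor (MonoidHom.id (N ≃ₐ[K] N))).map (infRepE K L N T) ≫ unitsToL K N T) n := by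
    apply groupCohomology.map_congr
    · rfl
    · rfl
  rw [h1, h2] at h3
  have h4 := congrArg (fun f => f.hom e) h3
  simp only [ModuleCat.hom_comp, LinearMap.coe_comp, Function.comp_apply] at h4
  exact h4

end tower

/-- **W-H3**: `H³(Gal(L/K), Lˣ)` dies in the cyclotomic tower. -/
theorem stmt_BrH3_of (hHyp : Stmt_Hyp2Exists) (hU : Stmt_H3Units) (hV : Stmt_ValH3) :
    Stmt_BrH3 := by
  intro p m K L _ _ _ _ _ h
  haveI : Normal K L := h.gal.to_normal
  obtain ⟨M, hM, T, -, -, h2⟩ := hHyp p m K L ∅ 0 h.prime h.odd h.zeta h.gal h.deg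
  refine ⟨M, hM, fun x => ?_⟩
  obtain ⟨e, rfl⟩ := hV p K L T h2.adm x
  have key := infL_unitsMap K L (CyclotomicField (p ^ M) L) T 3 e
  have h0 := hU p m M K L T h2 e
  show infL K L (CyclotomicField (p ^ M) L) 3 (unitsMap K L T 3 e) = 0
  rw [key, h0, map_zero]

end Fermat.Agent.S55.CFT.H61

end
end
-- ==== END Fermat.Agent.S55.CFT.H61_WH3

-- ==== BEGIN Fermat.Agent.S55.CFT.H72_InfResL
section

/-!
# S55/E4 wave 3, leaf IRL (helper72): inflation–restriction for `Nˣ` in a Galois tower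

`stmt_InfResL : Stmt_InfResL`: for a tower `K ⊆ L ⊆ N` of finite Galois extensions, a class of
`H²(Gal(N/K), Nˣ)` which dies in `H²(Gal(N/L), Nˣ)` is inflated from `H²(Gal(L/K), Lˣ)`.

Route: helper24's cocycle-level exactness `LOC.H24.infResExact_rep` applied to
`π = restrictNormalHom L : Gal(N/K) ↠ Gal(L/K)`, `ι : Lˣ ↪ Nˣ`, with Hilbert 90 for `N/L`
(Mathlib) and `N^{Gal(N/L)} = L`.
-/

set_option autoImplicit false
set_option linter.unusedSectionVars false

noncomputable section

namespace Fermat.Agent.S55.CFT.H72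

open CategoryTheory groupCohomology Rep

section tower

variable (K L N : Type) [Field K] [Field L] [Field N] [Algebra K L] [Algebra K N] [Algebra L N]
  [IsScalarTower K L N] [Normal K L]

/-- An automorphism of `N/K` restricting to the identity of `L` is `L`-linear. -/
def liftKer (n : N ≃ₐ[K] N)
    (h : AlgEquiv.restrictNormalHom (F := K) (K₁ := N) L n = 1) : N ≃ₐ[L] N :=
  { n.toRingEquiv with
    commutes' := fun x => by
      have h1 := AlgEquiv.restrictNormal_commutes n L x
      have h2 : n.restrictNormal L = 1 := h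
      rw [h2] at h1
      exact h1.symm }

lemma liftKer_apply (n : N ≃ₐ[K] N)
    (h : AlgEquiv.restrictNormalHom (F := K) (K₁ := N) L n = 1) (x : N) :
    liftKer K L N n h x = n x := rfl

lemma restrictNormalHom_restrictScalars (s : N ≃ₐ[L] N) :
    AlgEquiv.restrictNormalHom (F := K) (K₁ := N) L (AlgEquiv.restrictScalarsHom K s) = 1 := by
  ext x
  apply (algebraMap L N).injective
  have h1 := AlgEquiv.restrictNormal_commutes (AlgEquiv.restrictScalarsHom K s) L x
  exact h1.trans (s.commutes x)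

lemma liftKer_mul (n n' : N ≃ₐ[K] N)
    (h : AlgEquiv.restrictNormalHom (F := K) (K₁ := N) L n = 1)
    (h' : AlgEquiv.restrictNormalHom (F := K) (K₁ := N) L n' = 1)
    (h'' : AlgEquiv.restrictNormalHom (F := K) (K₁ := N) L (n * n') = 1) :
    liftKer K L N (n * n') h'' = liftKer K L N n h * liftKer K L N n' h' := by
  ext x
  rfl

lemma restrictScalars_liftKer (n : N ≃ₐ[K] N)
    (h : AlgEquiv.restrictNormalHom (F := K) (K₁ := N) L n = 1) :
    AlgEquiv.restrictScalarsHom K (liftKer K L N n h) = n := by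
  ext x
  rfl

/-- The action of `Gal(L/K)` on `Additive Lˣ`. -/
@[instance_reducible]
def addUnitsAction : DistribMulAction (L ≃ₐ[K] L) (Additive Lˣ) where
  smul g a := Additive.ofMul (g • a.toMul)
  one_smul a := by
    show Additive.ofMul ((1 : L ≃ₐ[K] L) • a.toMul) = a
    rw [one_smul]
    rfl
  mul_smul g h a := by
    show Additive.ofMul ((g * h) • a.toMul) = Additive.ofMul (g • (h • a.toMul))
    rw [mul_smul]
  smul_zero g := by
    show Additive.ofMul (g • (1 : Lˣ)) = 0
    rw [smul_one]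
    rfl
  smul_add g a b := by
    show Additive.ofMul (g • (a.toMul * b.toMul)) =
      Additive.ofMul (g • a.toMul) + Additive.ofMul (g • b.toMul)
    rw [smul_mul']
    rfl

/-- The inclusion `Lˣ → Nˣ`, additively. -/
def iotaU : Additive Lˣ →+ Additive Nˣ := (Units.map (algebraMap L N : L →* N)).toAdditive

omit [Algebra K L] [Algebra K N] [IsScalarTower K L N] [Normal K L] in
lemma iotaU_injective : Function.Injective (iotaU L N) := by
  intro a b hab
  have h1 : (Units.map (algebraMap L N : L →* N)) a.toMul =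
      (Units.map (algebraMap L N : L →* N)) b.toMul := hab
  have h2 : a.toMul = b.toMul :=
    Units.map_injective (f := (algebraMap L N : L →* N)) (algebraMap L N).injective h1
  exact h2

/-- An element of `Nˣ` fixed by `Gal(N/L)` comes from `Lˣ`. -/
lemma image_of_fixed [FiniteDimensional L N] [IsGalois L N] (a : Additive Nˣ)
    (ha : ∀ n : N ≃ₐ[K] N, AlgEquiv.restrictNormalHom (F := K) (K₁ := N) L n = 1 →
      Additive.ofMul (n • Additive.toMul (α := Nˣ) a) = a) :
    ∃ b : Additive Lˣ, iotaU L N b = a := by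
  set a' : Nˣ := Additive.toMul (α := Nˣ) a with ha'
  have hfix : ∀ s : N ≃ₐ[L] N, s (a' : N) = (a' : N) := by
    intro s
    have h1 := ha (AlgEquiv.restrictScalarsHom K s) (restrictNormalHom_restrictScalars K L N s)
    have h2 : (AlgEquiv.restrictScalarsHom K s) • a' = a' := congrArg Additive.toMul h1
    exact congrArg Units.val h2
  obtain ⟨b, hb⟩ := (IsGalois.mem_range_algebraMap_iff_fixed (F := L) (E := N) (a' : N)).2 hfix
  have hb0 : b ≠ 0 := by
    rintro rfl
    rw [map_zero] at hb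
    exact a'.ne_zero hb.symm
  refine ⟨Additive.ofMul (Units.mk0 b hb0), ?_⟩
  have h3 : Units.map (algebraMap L N : L →* N) (Units.mk0 b hb0) = a' := Units.ext hb
  show Additive.ofMul (Units.map (algebraMap L N : L →* N) (Units.mk0 b hb0)) = a
  rw [h3]
  rfl

/-- Hilbert 90 for `N/L`, in the shape of `InfData.h1`. -/
lemma hilbert90_ker [FiniteDimensional L N] (g : (N ≃ₐ[K] N) → Additive Nˣ)
    (hg : ∀ n n' : N ≃ₐ[K] N, AlgEquiv.restrictNormalHom (F := K) (K₁ := N) L n = 1 →
      AlgEquiv.restrictNormalHom (F := K) (K₁ := N) L n' = 1 →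
      g (n * n') = Additive.ofMul (n • Additive.toMul (α := Nˣ) (g n')) + g n) :
    ∃ a : Additive Nˣ, ∀ n : N ≃ₐ[K] N,
      AlgEquiv.restrictNormalHom (F := K) (K₁ := N) L n = 1 →
      Additive.ofMul (n • Additive.toMul (α := Nˣ) a) - a = g n := by
  let g' : (N ≃ₐ[L] N) → Nˣ := fun s => Additive.toMul (α := Nˣ) (g (AlgEquiv.restrictScalarsHom K s))
  have hg' : IsMulCocycle₁ g' := by
    intro s t
    have h1 := hg (AlgEquiv.restrictScalarsHom K s) (AlgEquiv.restrictScalarsHom K t)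
      (restrictNormalHom_restrictScalars K L N s) (restrictNormalHom_restrictScalars K L N t)
    rw [← map_mul] at h1
    exact congrArg Additive.toMul h1
  obtain ⟨β, hβ⟩ := isMulCoboundary₁_of_isMulCocycle₁_of_aut_to_units g' hg'
  refine ⟨Additive.ofMul β, fun n hn => ?_⟩
  have h3 : (liftKer K L N n hn) • β / β = g' (liftKer K L N n hn) := hβ (liftKer K L N n hn)
  have h5 : g' (liftKer K L N n hn) = Additive.toMul (α := Nˣ) (g n) := by
    show Additive.toMul (α := Nˣ) (g (AlgEquiv.restrictScalarsHom K (liftKer K L N n hn))) = _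
    rw [restrictScalars_liftKer]
  have h6 : (liftKer K L N n hn) • β = n • β := Units.ext rfl
  rw [h5, h6] at h3
  have h7 : Additive.ofMul (n • β / β) = g n := congrArg Additive.ofMul h3
  rw [← h7]
  rfl

end tower

lemma aux_abel {X : Type} [AddCommGroup X] (F I A B C : X) (h : F = I + (A - B + C)) :
    -A - -B + -C = I - F := by
  rw [h]
  abel

/-- **IRL**: inflation–restriction for `Nˣ` in a Galois tower of number fields. -/
theorem stmt_InfResL : Stmt_InfResL := by
  intro K L N _ _ _ _ _ _ _ _ _ _ _ hKL hKN x hx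
  classical
  have hLN : IsGalois L N := IsGalois.tower_top_of_isGalois K L N
  induction x using H2_induction_on with | @h f =>
  have hx' : H2π (repL L N) (mapCocycles₂ (galRes K L N) (resRepL K L N) f) = 0 := by
    rw [← hx]
    exact (H2π_comp_map_apply (galRes K L N) (resRepL K L N) f).symm
  rw [H2π_eq_zero_iff] at hx'
  obtain ⟨u, hu⟩ := hx'
  have hu' : ∀ s t : N ≃ₐ[L] N, (repL L N).ρ s (u t) - u (s * t) + u s =
      f (galRes K L N s, galRes K L N t) := fun s t => congrFun hu (s, t)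
  have hf : Fermat.Agent.S55.CFT.H24.IsCoc (repL K N) f :=
    (Fermat.Agent.S55.CFT.H24.isCoc_iff _).2 f.2
  let _ : DistribMulAction (L ≃ₐ[K] L) (Additive Lˣ) := addUnitsAction K L
  let π : (N ≃ₐ[K] N) →* (L ≃ₐ[K] L) := AlgEquiv.restrictNormalHom (F := K) (K₁ := N) L
  -- the cochain `z`
  let z : (N ≃ₐ[K] N) → (repL K N) := fun n =>
    if h : π n = 1 then u (liftKer K L N n h) else 0
  have hzv : ∀ (n : N ≃ₐ[K] N) (h : π n = 1), z n = u (liftKer K L N n h) :=
    fun n h => dif_pos h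
  have hz : ∀ n n' : N ≃ₐ[K] N, π n = 1 → π n' = 1 →
      (repL K N).ρ n (z n') - z (n * n') + z n = f (n, n') := by
    intro n n' hn hn'
    have hnn' : π (n * n') = 1 := by rw [map_mul, hn, hn', one_mul]
    rw [hzv n hn, hzv n' hn', hzv _ hnn', liftKer_mul K L N n n' hn hn' hnn']
    have h1 := hu' (liftKer K L N n hn) (liftKer K L N n' hn')
    have e1 : galRes K L N (liftKer K L N n hn) = n := restrictScalars_liftKer K L N n hn
    have e2 : galRes K L N (liftKer K L N n' hn') = n' := restrictScalars_liftKer K L N n' hn'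
    rw [e1, e2] at h1
    exact h1
  obtain ⟨c, hc, y, hy⟩ := Fermat.Agent.S55.CFT.LOC.H24.infResExact_rep (repL K N) π
    (iotaU L N)
    (AlgEquiv.restrictNormalHom_surjective N)
    (iotaU_injective L N)
    (fun g b => congrArg Additive.ofMul (algebraMap_units_smul K L N g (Additive.toMul b)))
    (fun a ha => image_of_fixed K L N a ha)
    (fun g hg => hilbert90_ker K L N g hg)
    f hf z hz
  have hc' : c ∈ cocycles₂ (repL K L) :=
    (mem_cocycles₂_iff (A := repL K L) c).2 (fun g h j => hc g h j)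
  refine ⟨H2π (repL K L) ⟨c, hc'⟩, ?_⟩
  have e1 : infL K L N 2 (H2π (repL K L) ⟨c, hc'⟩) =
      H2π (repL K N) (mapCocycles₂ π (infRepL K L N) ⟨c, hc'⟩) :=
    H2π_comp_map_apply π (infRepL K L N) ⟨c, hc'⟩
  rw [e1, H2π_eq_iff]
  refine ⟨-y, ?_⟩
  funext ⟨g, h⟩
  have h7 := hy g h
  have h8 : (mapCocycles₂ π (infRepL K L N) ⟨c, hc'⟩ : (N ≃ₐ[K] N) × (N ≃ₐ[K] N) → (repL K N))
      (g, h) = iotaU L N (c (π g, π h)) := rfl
  show (repL K N).ρ g ((-y) h) - (-y) (g * h) + (-y) g = _ - f (g, h)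
  rw [h8]
  have h9 : (repL K N).ρ g ((-y) h) = -(repL K N).ρ g (y h) := map_neg _ _
  rw [h9]
  exact aux_abel _ _ _ _ _ h7

end Fermat.Agent.S55.CFT.H72

end
end
-- ==== END Fermat.Agent.S55.CFT.H72_InfResL

-- ==== BEGIN Fermat.Agent.S55.CFT.H72_LocInfImage
section

/-!
# S55/E4 wave 3, leaf LII (helper72): local classes become inflations from `L'`

`stmt_LocInfImage_of : Stmt_SHL → Stmt_InfJvInj → Stmt_LocInfImage`.

Route: `X = H²(Gal(N/K), (K_v ⊗ N)ˣ)` is finite cyclic (SHL).  The inflation from `L'` is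
injective (InfJvInj) with source of order `d` = the local degree of `L'/K` at `v` (SHL), so its
image is the set of all elements of `X` killed by `d`.  A class `b` of `L/K` is killed by
`[L : K]` (the order of the group), which divides `d`.
-/

set_option autoImplicit false
set_option linter.unusedSectionVars false

noncomputable section

namespace Fermat.Agent.S55.CFT.H72

open CategoryTheory groupCohomology Rep

/-- In a finite cyclic group, the image of an injective homomorphism from a group of order `d`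
contains every element killed by `d`. -/
theorem mem_range_of_card_nsmul_eq_zero {X Y : Type} [AddCommGroup X] [AddCommGroup Y]
    [Finite X] [Finite Y] (hcyc : ∃ γ : X, ∀ x : X, ∃ n : ℤ, x = n • γ) (f : Y →+ X)
    (hf : Function.Injective f) (x : X) (hx : Nat.card Y • x = 0) : ∃ y, f y = x := by
  classical
  have hd : 0 < Nat.card Y := Nat.card_pos
  let T : AddSubgroup X :=
    { carrier := {z | Nat.card Y • z = 0}
      zero_mem' := by simp
      add_mem' := fun {a b} ha hb => by
        show Nat.card Y • (a + b) = 0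
        rw [smul_add, show Nat.card Y • a = 0 from ha, show Nat.card Y • b = 0 from hb,
          add_zero]
      neg_mem' := fun {a} ha => by
        show Nat.card Y • (-a) = 0
        rw [smul_neg, show Nat.card Y • a = 0 from ha, neg_zero] }
  have hT : ∀ z ∈ T, Nat.card Y • z = 0 := fun z hz => hz
  have hcardT : Nat.card T ≤ Nat.card Y :=
    Fermat.Agent.S55.CFT.LOC.H72.card_le_of_forall_nsmul_eq_zero hcyc T _ hd hT
  have hle : f.range ≤ T := by
    rintro z ⟨y, rfl⟩
    show Nat.card Y • f y = 0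
    rw [← map_nsmul, card_nsmul_eq_zero', map_zero]
  have hcardR : Nat.card f.range = Nat.card Y :=
    Nat.card_congr (AddMonoidHom.ofInjective hf).symm.toEquiv
  have heq : f.range = T := AddSubgroup.eq_of_le_of_card_ge hle (by rw [hcardR]; exact hcardT)
  have hxT : x ∈ f.range := by
    rw [heq]
    exact hx
  exact hxT

/-- Transport of `d • x = 0` along an additive map. -/
theorem map_nsmul_eq_zero {X Y : Type} [AddCommGroup X] [AddCommGroup Y] (f : Y →+ X)
    (c d : ℕ) (hcd : c ∣ d) (y : Y) (hy : c • y = 0) : d • f y = 0 := by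
  obtain ⟨e, rfl⟩ := hcd
  rw [← map_nsmul, mul_comm, mul_smul, hy, smul_zero, map_zero]

/-- **LII**: local classes of `L/K` become inflations from `L'/K`. -/
theorem stmt_LocInfImage_of (hS : Stmt_SHL) (hI : Stmt_InfJvInj) : Stmt_LocInfImage := by
  intro p m K L L' N _ _ _ _ _ _ _ _ _ _ _ _ _ _ _ _ _ hyp hKL hKL' v hdiv b
  have hN : IsGalois K N := hyp.gal
  obtain ⟨-, hfinX, -, hcycX, -⟩ := hS p m K N hyp v
  -- `Hyp3` for `L'`
  have hdvd : Module.finrank K L' ∣ p ^ m := by
    rw [← hyp.deg, ← Module.finrank_mul_finrank K L' N]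
    exact dvd_mul_right _ _
  obtain ⟨m', -, hm'⟩ := (Nat.dvd_prime_pow hyp.prime).1 hdvd
  have hyp' : Hyp3 K L' p m' := ⟨hyp.prime, hyp.odd, hyp.zeta, hKL', hm'⟩
  obtain ⟨-, hfinY, hcardY, -, -⟩ := hS p m' K L' hyp' v
  -- `[L : K]` divides the order of `H²` at `L'`
  have hpos : 0 < Module.finrank K L' := Module.finrank_pos
  have hg0 : Nat.card (MaximalSpectrum (LocAlg K L' v)) ≠ 0 := by
    intro h0
    rw [h0, mul_zero] at hcardY
    exact hpos.ne hcardY
  have hLd : Module.finrank K L ∣ Nat.card (groupCohomology (repJv K L' v) 2) := by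
    rw [← hcardY] at hdiv
    exact Nat.dvd_of_mul_dvd_mul_right (Nat.pos_of_ne_zero hg0) hdiv
  -- `b` is killed by `[L : K]`
  have hb : Module.finrank K L • b = 0 := by
    have h := Fermat.Agent.S55.CFT.LOC.H72.card_nsmul_H2 (repJv K L v) b
    rwa [IsGalois.card_aut_eq_finrank] at h
  have hkill : Nat.card (groupCohomology (repJv K L' v) 2) • infJv K L N v 2 b = 0 :=
    map_nsmul_eq_zero (infJv K L N v 2).toAddMonoidHom _ _ hLd b hb
  obtain ⟨b', hb'⟩ := mem_range_of_card_nsmul_eq_zero hcycX (infJv K L' N v 2).toAddMonoidHom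
    (hI K L' N hKL' hN v) _ hkill
  exact ⟨b', hb'.symm⟩

end Fermat.Agent.S55.CFT.H72

end
end
-- ==== END Fermat.Agent.S55.CFT.H72_LocInfImage

-- ==== BEGIN Fermat.Agent.S55.CFT.H80_JCycPlace
section

set_option autoImplicit false

open NumberField TensorProduct CategoryTheory

noncomputable section

namespace Fermat.Agent.S55.CFT.H80

section Ring

variable (K L : Type) [Field K] [Field L] [NumberField K] [NumberField L] [Algebra K L]
  (v : Place K)

lemma wIdem_idem : IsIdempotentElem (wIdem K L v.1 v.2) := by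
  classical
  have : Fintype (MaximalSpectrum (SemiLocal K v.1)) := Fintype.ofFinite _
  exact (wIdem_complete K L v.1).idem v.2

lemma wIdem_ne_zero : wIdem K L v.1 v.2 ≠ 0 := by
  intro h0
  have h1 : vIdem K v.1 v.2 = 0 := by
    apply H12.semiLocalMap_injective K L v.1
    rw [map_zero]
    exact h0
  have h2 := mk_vIdem_self K v.1 v.2
  rw [h1, map_zero] at h2
  have : Nontrivial (SemiLocal K v.1 ⧸ v.2.asIdeal) :=
    Ideal.Quotient.nontrivial_iff.mpr v.2.isMaximal.ne_top
  exact zero_ne_one h2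

lemma placeIdeal_eq_span' : CFT.placeIdeal K L v = Ideal.span {1 - wIdem K L v.1 v.2} :=
  placeIdeal_eq_span K L v.1 v.2

lemma placeIdeal_ne_top : CFT.placeIdeal K L v ≠ ⊤ := by
  rw [placeIdeal_eq_span', Ne, Ideal.span_singleton_eq_top]
  intro hu
  have hid : IsIdempotentElem (1 - wIdem K L v.1 v.2) := (wIdem_idem K L v).one_sub
  have h1 : 1 - wIdem K L v.1 v.2 = 1 := by
    have := hid.eq
    exact hu.mul_left_cancel (by rw [this, mul_one])
  exact wIdem_ne_zero K L v (by rw [sub_eq_self] at h1; exact h1)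

instance locAlg_nontrivial : Nontrivial (LocAlg K L v) :=
  Ideal.Quotient.nontrivial_iff.mpr (placeIdeal_ne_top K L v)

instance locAlg_isReduced : IsReduced (LocAlg K L v) := by
  have h := isReduced_quotient_idem (wIdem K L v.1 v.2) (wIdem_idem K L v)
  have he : CFT.placeIdeal K L v = Ideal.span {1 - wIdem K L v.1 v.2} := placeIdeal_eq_span' K L v
  unfold LocAlg
  rw [he]
  exact h

instance locAlg_finite : Module.Finite (Qp v.1) (LocAlg K L v) :=
  Module.Finite.of_surjective (Ideal.Quotient.mkₐ (Qp v.1) (CFT.placeIdeal K L v)).toLinearMap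
    (Ideal.Quotient.mkₐ_surjective (Qp v.1) (CFT.placeIdeal K L v))

instance locAlg_isArtinian : IsArtinianRing (LocAlg K L v) :=
  IsArtinianRing.of_finite (Qp v.1) _

end Ring

section Action

variable (K L : Type) [Field K] [Field L] [NumberField K] [NumberField L] [Algebra K L]
  (v : Place K)

/-- `L → C`. -/
def locInc : L →+* LocAlg K L v :=
  (Ideal.Quotient.mk (CFT.placeIdeal K L v)).comp
    ((Algebra.TensorProduct.includeRight : L →ₐ[ℚ] SemiLocal L v.1) : L →+* SemiLocal L v.1)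

lemma locInc_injective : Function.Injective (locInc K L v) := RingHom.injective _

lemma smul_locInc (σ : L ≃ₐ[K] L) (x : L) : σ • locInc K L v x = locInc K L v (σ x) := by
  change locAlgMap K L v σ (Ideal.Quotient.mk _ ((1 : Qp v.1) ⊗ₜ[ℚ] x)) =
    Ideal.Quotient.mk _ ((1 : Qp v.1) ⊗ₜ[ℚ] (σ x))
  rw [locAlgMap_mk, semiLocalEquiv_tmul]

lemma smul_mk (σ : L ≃ₐ[K] L) (x : SemiLocal L v.1) :
    σ • (Ideal.Quotient.mk (CFT.placeIdeal K L v) x) =
      Ideal.Quotient.mk (CFT.placeIdeal K L v) (σ • x) := rfl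

instance locAlg_faithful : FaithfulSMul (L ≃ₐ[K] L) (LocAlg K L v) where
  eq_of_smul_eq_smul := by
    intro σ τ h
    ext x
    apply locInc_injective K L v
    rw [← smul_locInc, ← smul_locInc]
    exact h _

instance locAlg_smulComm : SMulCommClass (L ≃ₐ[K] L) (Qp v.1) (LocAlg K L v) where
  smul_comm σ a c := by
    obtain ⟨x, rfl⟩ := Ideal.Quotient.mk_surjective c
    have h1 : ∀ y : SemiLocal L v.1, a • Ideal.Quotient.mk (CFT.placeIdeal K L v) y =
        Ideal.Quotient.mk (CFT.placeIdeal K L v) (a • y) := fun y =>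
      (map_smul (Ideal.Quotient.mkₐ (Qp v.1) (CFT.placeIdeal K L v)) a y).symm
    rw [h1, smul_mk, smul_mk, h1]
    congr 1
    exact map_smul (semiLocalEquiv K L v.1 σ) a x

/-- `ℚ_q ⊗ K → C`. -/
def baseInc : SemiLocal K v.1 →+* LocAlg K L v :=
  (Ideal.Quotient.mk (CFT.placeIdeal K L v)).comp
    (semiLocalMap K L v.1 : SemiLocal K v.1 →+* SemiLocal L v.1)

lemma baseInc_eq_zero_iff (a : SemiLocal K v.1) : baseInc K L v a = 0 ↔ a ∈ v.2.asIdeal := by
  have hle : v.2.asIdeal ≤ RingHom.ker (baseInc K L v) := by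
    intro b hb
    rw [RingHom.mem_ker]
    change Ideal.Quotient.mk _ (semiLocalMap K L v.1 b) = 0
    rw [Ideal.Quotient.eq_zero_iff_mem]
    exact Ideal.mem_map_of_mem _ hb
  have hne : RingHom.ker (baseInc K L v) ≠ ⊤ := RingHom.ker_ne_top _
  have heq : v.2.asIdeal = RingHom.ker (baseInc K L v) := v.2.isMaximal.eq_of_le hne hle
  rw [heq, RingHom.mem_ker]

theorem invariant_idem [IsGalois K L] (c : LocAlg K L v) (hc : IsIdempotentElem c)
    (hinv : ∀ σ : L ≃ₐ[K] L, σ • c = c) : c = 0 ∨ c = 1 := by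
  classical
  obtain ⟨x, rfl⟩ := Ideal.Quotient.mk_surjective c
  set y : SemiLocal L v.1 := ∑ σ : L ≃ₐ[K] L, σ • x with hy
  have hyinv : ∀ τ : L ≃ₐ[K] L, τ • y = y := by
    intro τ
    rw [hy, Finset.smul_sum]
    exact Fintype.sum_equiv (Equiv.mulLeft τ) _ _ (fun σ => by simp [mul_smul])
  obtain ⟨z, hz⟩ := H12.exists_of_invariant K L v.1 y hyinv
  set N : ℕ := Fintype.card (L ≃ₐ[K] L) with hN
  have hmk : Ideal.Quotient.mk (CFT.placeIdeal K L v) y =
      (N : LocAlg K L v) * Ideal.Quotient.mk (CFT.placeIdeal K L v) x := by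
    rw [hy, map_sum]
    have : ∀ σ ∈ (Finset.univ : Finset (L ≃ₐ[K] L)),
        Ideal.Quotient.mk (CFT.placeIdeal K L v) (σ • x) =
          Ideal.Quotient.mk (CFT.placeIdeal K L v) x := by
      intro σ _
      rw [← smul_mk]
      exact hinv σ
    rw [Finset.sum_congr rfl this, Finset.sum_const, Finset.card_univ, nsmul_eq_mul]
  have hψz : baseInc K L v z = (N : LocAlg K L v) * Ideal.Quotient.mk (CFT.placeIdeal K L v) x := by
    rw [← hmk, ← hz]
    rfl
  have hNunit : IsUnit (N : LocAlg K L v) := by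
    have h1 : (N : LocAlg K L v) = algebraMap (Qp v.1) (LocAlg K L v) (N : Qp v.1) := by
      rw [map_natCast]
    rw [h1]
    apply IsUnit.map
    rw [isUnit_iff_ne_zero]
    have hpos : 0 < N := Fintype.card_pos
    exact_mod_cast hpos.ne'
  have hmem : z * (z - (N : SemiLocal K v.1)) ∈ v.2.asIdeal := by
    rw [← baseInc_eq_zero_iff K L v, map_mul, map_sub, map_natCast, hψz]
    have := hc.eq
    calc (N : LocAlg K L v) * Ideal.Quotient.mk (CFT.placeIdeal K L v) x *
        ((N : LocAlg K L v) * Ideal.Quotient.mk (CFT.placeIdeal K L v) x - (N : LocAlg K L v))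
        = (N : LocAlg K L v) * (N : LocAlg K L v) *
          (Ideal.Quotient.mk (CFT.placeIdeal K L v) x *
            Ideal.Quotient.mk (CFT.placeIdeal K L v) x -
              Ideal.Quotient.mk (CFT.placeIdeal K L v) x) := by ring
      _ = 0 := by rw [this, sub_self, mul_zero]
  rcases v.2.isMaximal.isPrime.mem_or_mem hmem with h | h
  · left
    rw [← baseInc_eq_zero_iff K L v, hψz] at h
    exact (hNunit.mul_right_eq_zero).mp h
  · right
    rw [← baseInc_eq_zero_iff K L v, map_sub, map_natCast, hψz, sub_eq_zero] at h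
    exact hNunit.mul_left_cancel (by rw [h, mul_one])

end Action

section FieldIff

variable (K L : Type) [Field K] [Field L] [NumberField K] [NumberField L] [Algebra K L]
  (v : Place K)

lemma comap_eq_of_le (J : Ideal (SemiLocal L v.1)) (hJ : J ≠ ⊤)
    (hle : CFT.placeIdeal K L v ≤ J) :
    J.comap (semiLocalMap K L v.1) = v.2.asIdeal := by
  have h1 : v.2.asIdeal ≤ J.comap (semiLocalMap K L v.1) := by
    rw [← Ideal.map_le_iff_le_comap]
    exact hle
  have h2 : J.comap (semiLocalMap K L v.1) ≠ ⊤ := Ideal.comap_ne_top _ hJ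
  exact (v.2.isMaximal.eq_of_le h2 h1).symm

lemma le_of_comap_eq (J : Ideal (SemiLocal L v.1))
    (h : J.comap (semiLocalMap K L v.1) = v.2.asIdeal) : CFT.placeIdeal K L v ≤ J := by
  unfold CFT.placeIdeal
  rw [Ideal.map_le_iff_le_comap, h]

theorem isField_iff : IsField (LocAlg K L v) ↔
    ∃! 𝔐 : MaximalSpectrum (SemiLocal L v.1),
      𝔐.asIdeal.comap (semiLocalMap K L v.1) = v.2.asIdeal := by
  constructor
  · intro hF
    have hmax : (CFT.placeIdeal K L v).IsMaximal := Ideal.Quotient.maximal_of_isField _ hF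
    refine ⟨⟨CFT.placeIdeal K L v, hmax⟩, comap_eq_of_le K L v _ hmax.ne_top le_rfl, ?_⟩
    intro 𝔐 h𝔐
    apply MaximalSpectrum.ext
    exact (hmax.eq_of_le 𝔐.isMaximal.ne_top (le_of_comap_eq K L v _ h𝔐)).symm
  · rintro ⟨𝔐, -, huniq⟩
    have hkey : ∀ I : Ideal (LocAlg K L v), I.IsMaximal →
        I.comap (Ideal.Quotient.mk (CFT.placeIdeal K L v)) = 𝔐.asIdeal := by
      intro I hI
      have hJ : (I.comap (Ideal.Quotient.mk (CFT.placeIdeal K L v))).IsMaximal :=
        Ideal.comap_isMaximal_of_surjective _ Ideal.Quotient.mk_surjective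
      have hle : CFT.placeIdeal K L v ≤ I.comap (Ideal.Quotient.mk (CFT.placeIdeal K L v)) := by
        intro a ha
        rw [Ideal.mem_comap, Ideal.Quotient.eq_zero_iff_mem.mpr ha]
        exact I.zero_mem
      have := huniq ⟨_, hJ⟩ (comap_eq_of_le K L v _ hJ.ne_top hle)
      exact congrArg MaximalSpectrum.asIdeal this
    obtain ⟨I₀, hI₀⟩ := Ideal.exists_maximal (LocAlg K L v)
    have : IsLocalRing (LocAlg K L v) := by
      apply IsLocalRing.of_unique_max_ideal
      refine ⟨I₀, hI₀, ?_⟩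
      intro I hI
      apply Ideal.comap_injective_of_surjective _ Ideal.Quotient.mk_surjective
      rw [hkey I hI, hkey I₀ hI₀]
    exact IsArtinianRing.isField_of_isReduced_of_isLocalRing _

end FieldIff

section PlaceCoh

variable (K L : Type) [Field K] [Field L] [NumberField K] [NumberField L] [Algebra K L]
  (v : Place K)

/-- The place `v` is nonsplit in `L`: exactly one maximal ideal of `ℚ_q ⊗ L` above it. -/
def NonsplitAt : Prop :=
  ∃! 𝔐 : MaximalSpectrum (SemiLocal L v.1),
    𝔐.asIdeal.comap (semiLocalMap K L v.1) = v.2.asIdeal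

open Classical in
/-- The cohomology of the local component at `v`, for `L/K` cyclic of prime degree `p`:
`H¹ = 0`, and `#H² = p` if `v` is nonsplit, `1` otherwise. -/
theorem place_cyclic (hLOC : Stmt_LocalNormIndex) (p : ℕ) (hp : p.Prime)
    (hfin : Module.finrank K L = p) [IsGalois K L] :
    Subsingleton (groupCohomology (repJv K L v) 1) ∧
      Nat.card (groupCohomology (repJv K L v) 2) = if NonsplitAt K L v then p else 1 := by
  have hcard : Nat.card (L ≃ₐ[K] L) = p := by rw [IsGalois.card_aut_eq_finrank, hfin]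
  have : Fact p.Prime := ⟨hp⟩
  have hcyc : IsCyclic (L ≃ₐ[K] L) := isCyclic_of_prime_card hcard
  obtain ⟨g, hg⟩ := hcyc.exists_generator
  have hgp : g ^ p = 1 := by
    rw [← hcard]
    exact pow_card_eq_one'
  have hcompat : ∀ (σ : L ≃ₐ[K] L) (u : (LocAlg K L v)ˣ),
      ((σ • u : (LocAlg K L v)ˣ) : LocAlg K L v) = σ • (u : LocAlg K L v) := fun _ _ => rfl
  rcases field_or_split (C := LocAlg K L v) g p hp hgp
    (fun c hc hgc => invariant_idem K L v c hc (fun σ => smul_eq_of_gen g hg c hgc σ))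
    with hF | ⟨e, he⟩
  · have hns : NonsplitAt K L v := (isField_iff K L v).mp hF
    rw [if_pos hns]
    have hmax : (CFT.placeIdeal K L v).IsMaximal := Ideal.Quotient.maximal_of_isField _ hF
    let _ : Field (LocAlg K L v) := Ideal.Quotient.field (CFT.placeIdeal K L v)
    have := fact_primes v.1
    have hcomm : ∀ (σ : L ≃ₐ[K] L) (a : Qp v.1),
        σ • (algebraMap (Qp v.1) (LocAlg K L v) a) = algebraMap (Qp v.1) (LocAlg K L v) a := by
      intro σ a
      rw [Algebra.algebraMap_eq_smul_one, smul_comm, smul_one]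
    exact ⟨field_h1 hcompat g hg p hcard,
      field_card_h2 (v.1 : ℕ) hcompat g hg p hcard hp hLOC hcomm⟩
  · have hns : ¬ NonsplitAt K L v := fun h =>
      SplitIdem.not_isField g p hp.two_le e he ((isField_iff K L v).mpr h)
    rw [if_neg hns]
    exact ⟨split_h1 hcompat g hg p hcard e he, split_card_h2 hcompat g hg p hcard e he hp.pos⟩

end PlaceCoh

end Fermat.Agent.S55.CFT.H80

end
end
-- ==== END Fermat.Agent.S55.CFT.H80_JCycPlace

-- ==== BEGIN Fermat.Agent.S55.CFT.H80_LV
section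

set_option autoImplicit false

open NumberField TensorProduct Module IsDedekindDomain

noncomputable section

namespace Fermat.Agent.S55.CFT.H80

section Generic

variable (p : ℕ) [hp : Fact p.Prime] (K L : Type) [Field K] [NumberField K] [Field L]
  [NumberField L] [Algebra K L]

/-- The automorphism `id ⊗ σ` of `ℚ_p ⊗ L`. -/
def sigmaMap (σ : L ≃ₐ[K] L) : ℚ_[p] ⊗[ℚ] L ≃ₐ[ℚ_[p]] ℚ_[p] ⊗[ℚ] L :=
  Algebra.TensorProduct.congr AlgEquiv.refl (σ.restrictScalars ℚ)

lemma sigmaMap_incl (σ : L ≃ₐ[K] L) (x : 𝓞 L) :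
    sigmaMap p K L σ (incl p L x) =
      incl p L (RingOfIntegers.mapRingHom ((σ : L ≃+* L) : L →+* L) x) := by
  rw [incl_apply, incl_apply, sigmaMap, Algebra.TensorProduct.congr_apply,
    Algebra.TensorProduct.map_tmul]
  rfl

lemma sigmaMap_mem (σ : L ≃ₐ[K] L) (r : ℚ_[p] ⊗[ℚ] L) (hr : r ∈ intSub p L) :
    sigmaMap p K L σ r ∈ intSub p L := by
  have hr' : r ∈ Submodule.span ℤ_[p] (Set.range (incl p L)) := by
    rw [← intSub_toSubmodule]
    exact hr
  refine Submodule.span_induction (p := fun r _ => sigmaMap p K L σ r ∈ intSub p L)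
    ?_ ?_ ?_ ?_ hr'
  · rintro _ ⟨x, rfl⟩
    rw [sigmaMap_incl]
    exact incl_mem p L _
  · rw [map_zero]
    exact Subalgebra.zero_mem _
  · intro a b _ _ ha hb
    rw [map_add]
    exact Subalgebra.add_mem _ ha hb
  · intro c a _ ha
    rw [coe_smul_eq, map_smul, ← coe_smul_eq]
    exact Subalgebra.smul_mem _ ha c

end Generic

section Bridge

variable (K L : Type) [Field K] [NumberField K] [Field L] [NumberField L] [Algebra K L]
  (q : Nat.Primes)

/-- `H96.intSub L q` is the order `ℤ_q · 𝓞_L`. -/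
lemma mem_intSub_bridge (x : SemiLocal L q) :
    x ∈ H96.intSub L q ↔ (haveI := fact_primes q; x ∈ intSub (q : ℕ) L) := by
  have := fact_primes q
  rw [H96.mem_intSub]
  exact (mem_intSub_iff (q : ℕ) L x).symm

/-- The units of the order `ℤ_q · 𝓞_L` of `ℚ_q ⊗ L`. -/
def unitQ : Subgroup (SemiLocal L q)ˣ where
  carrier := {u | (u : SemiLocal L q) ∈ H96.intSub L q ∧
    ((u⁻¹ : (SemiLocal L q)ˣ) : SemiLocal L q) ∈ H96.intSub L q}
  one_mem' := ⟨by simp, by simp⟩
  mul_mem' := fun {a b} ha hb =>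
    ⟨by rw [Units.val_mul]; exact mul_mem ha.1 hb.1,
      by rw [mul_inv_rev, Units.val_mul]; exact mul_mem hb.2 ha.2⟩
  inv_mem' := fun {a} ha => ⟨ha.2, by rw [inv_inv]; exact ha.1⟩

lemma mem_unitQ (u : (SemiLocal L q)ˣ) : u ∈ unitQ L q ↔
    (u : SemiLocal L q) ∈ H96.intSub L q ∧
      ((u⁻¹ : (SemiLocal L q)ˣ) : SemiLocal L q) ∈ H96.intSub L q := Iff.rfl

/-- `U` is stable under `Gal(L/K)`. -/
theorem smul_mem_unitQ (σ : L ≃ₐ[K] L) (u : (SemiLocal L q)ˣ) (hu : u ∈ unitQ L q) :
    σ • u ∈ unitQ L q := by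
  have := fact_primes q
  rw [mem_unitQ, mem_intSub_bridge, mem_intSub_bridge] at hu ⊢
  refine ⟨?_, ?_⟩
  · exact sigmaMap_mem (q : ℕ) K L σ _ hu.1
  · rw [← smul_inv']
    exact sigmaMap_mem (q : ℕ) K L σ _ hu.2

/-- `(ℚ_q ⊗ L)ˣ = diag(Lˣ) · U`. -/
theorem exists_div_mem_unitQ (u : (SemiLocal L q)ˣ) :
    ∃ y : Lˣ, u / H12.diagQ L q y ∈ unitQ L q := by
  have := fact_primes q
  obtain ⟨y, hy⟩ := exists_div_mem_unitSub (q : ℕ) L u
  refine ⟨y, ?_⟩
  rw [mem_unitQ, mem_intSub_bridge, mem_intSub_bridge]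
  exact hy

end Bridge

/-- **LV** from the valuation criterion LV-c. -/
theorem stmt_LocUnitGroup_of
    (hc : ∀ (L : Type) [Field L] [NumberField L] (q : Nat.Primes) (y : L),
      (1 : Qp q) ⊗ₜ[ℚ] y ∈ H96.intSub L q ↔
        ∀ w : HeightOneSpectrum (𝓞 L), ((q : ℕ) : 𝓞 L) ∈ w.asIdeal → w.valuation L y ≤ 1) :
    H12.Stmt_LocUnitGroup := by
  intro K L _ _ _ _ _ q
  refine ⟨unitQ L q, fun σ u hu => smul_mem_unitQ K L q σ u hu,
    fun u => exists_div_mem_unitQ L q u, fun y => ?_⟩
  rw [mem_unitQ]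
  have h1 : ((H12.diagQ L q y : (SemiLocal L q)ˣ) : SemiLocal L q) = (1 : Qp q) ⊗ₜ[ℚ] (y : L) :=
    rfl
  have h2 : (((H12.diagQ L q y)⁻¹ : (SemiLocal L q)ˣ) : SemiLocal L q) =
      (1 : Qp q) ⊗ₜ[ℚ] ((y⁻¹ : Lˣ) : L) := by
    rw [← map_inv]
    rfl
  rw [h1, h2, hc L q, hc L q]
  constructor
  · rintro ⟨ha, hb⟩ w hw
    have h3 := ha w hw
    have h4 := hb w hw
    rw [Units.val_inv_eq_inv_val, map_inv₀] at h4
    have hne : w.valuation L (y : L) ≠ 0 := (Valuation.ne_zero_iff _).mpr y.ne_zero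
    apply le_antisymm h3
    rw [← inv_le_one₀ (zero_lt_iff.mpr hne)]
    exact h4
  · intro h
    refine ⟨fun w hw => (h w hw).le, fun w hw => ?_⟩
    rw [Units.val_inv_eq_inv_val, map_inv₀, h w hw, inv_one]

end Fermat.Agent.S55.CFT.H80

end
end
-- ==== END Fermat.Agent.S55.CFT.H80_LV

-- ==== BEGIN Fermat.Agent.S55.CFT.H80_SLD
section

set_option autoImplicit false

open NumberField TensorProduct CategoryTheory

noncomputable section

namespace Fermat.Agent.S55.CFT.H80

variable (K L : Type) [Field K] [Field L] [NumberField K] [NumberField L] [Algebra K L]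
  (T : Finset Nat.Primes)

/-- The places of `K` above `T`. -/
abbrev PlaceT : Type := (q : T) × MaximalSpectrum (SemiLocal K q.1)

instance placeT_finite : Finite (PlaceT K T) := inferInstance

/-- The local component group at `ω`. -/
abbrev JvT (ω : PlaceT K T) : Type := (LocAlg K L ⟨ω.1.1, ω.2⟩)ˣ

instance jvT_action (ω : PlaceT K T) : MulDistribMulAction (L ≃ₐ[K] L) (JvT K L T ω) :=
  locAlgUnitsAction K L ⟨ω.1.1, ω.2⟩

/-- All local components of a `T`-idele. -/
def compHom : IdeleT L T →* ∀ ω : PlaceT K T, JvT K L T ω :=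
  MonoidHom.pi (fun ω => projIdele K L T ω.1 ω.2)

lemma compHom_apply (x : IdeleT L T) (ω : PlaceT K T) :
    compHom K L T x ω = projIdele K L T ω.1 ω.2 x := rfl

lemma compHom_apply_val (x : IdeleT L T) (ω : PlaceT K T) :
    ((compHom K L T x ω : JvT K L T ω) : LocAlg K L ⟨ω.1.1, ω.2⟩) =
      crtMap K L ω.1.1 ((x ω.1 : (SemiLocal L ω.1.1)ˣ) : SemiLocal L ω.1.1) ω.2 := rfl

theorem compHom_injective : Function.Injective (compHom K L T) := by
  intro x y hxy
  funext q
  apply Units.ext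
  apply (crt_bijective K L q.1).1
  funext v
  have h := congrArg (fun u : JvT K L T ⟨q, v⟩ => (u : LocAlg K L ⟨q.1, v⟩))
    (congrFun hxy ⟨q, v⟩)
  exact h

theorem compHom_surjective : Function.Surjective (compHom K L T) := by
  intro u
  have hex : ∀ q : T, ∃ b b' : SemiLocal L q.1,
      (crtMap K L q.1 b = fun v => ((u ⟨q, v⟩ : JvT K L T ⟨q, v⟩) : LocAlg K L ⟨q.1, v⟩)) ∧
      (crtMap K L q.1 b' = fun v => (((u ⟨q, v⟩)⁻¹ : JvT K L T ⟨q, v⟩) : LocAlg K L ⟨q.1, v⟩)) := by
    intro q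
    obtain ⟨b, hb⟩ := (crt_bijective K L q.1).2
      (fun v => ((u ⟨q, v⟩ : JvT K L T ⟨q, v⟩) : LocAlg K L ⟨q.1, v⟩))
    obtain ⟨b', hb'⟩ := (crt_bijective K L q.1).2
      (fun v => (((u ⟨q, v⟩)⁻¹ : JvT K L T ⟨q, v⟩) : LocAlg K L ⟨q.1, v⟩))
    exact ⟨b, b', hb, hb'⟩
  choose b b' hb hb' using hex
  have hbb' : ∀ q, b q * b' q = 1 := by
    intro q
    apply (crt_bijective K L q.1).1
    rw [map_mul, hb, hb', map_one]
    funext v
    simp
  refine ⟨fun q => ⟨b q, b' q, hbb' q, by rw [mul_comm]; exact hbb' q⟩, ?_⟩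
  funext ω
  apply Units.ext
  rw [compHom_apply_val]
  exact congrFun (hb ω.1) ω.2

/-- The `T`-ideles are the product of their local components. -/
def compEquiv : IdeleT L T ≃* ∀ ω : PlaceT K T, JvT K L T ω :=
  MulEquiv.ofBijective (compHom K L T) ⟨compHom_injective K L T, compHom_surjective K L T⟩

lemma compEquiv_apply (x : IdeleT L T) : compEquiv K L T x = compHom K L T x := rfl

lemma compHom_smul (σ : L ≃ₐ[K] L) (x : IdeleT L T) (ω : PlaceT K T) :
    compHom K L T (σ • x) ω = σ • compHom K L T x ω :=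
  projIdele_smul K L T ω.1 ω.2 σ x

open Classical in
/-- The section of the component map at `ω`: the idele with component `u` at `ω` and `1` at the
other places. -/
def secHom (ω : PlaceT K T) : JvT K L T ω →* IdeleT L T :=
  (compEquiv K L T).symm.toMonoidHom.comp (MonoidHom.mulSingle (fun ω => JvT K L T ω) ω)

open Classical in
lemma compHom_secHom (ω : PlaceT K T) (u : JvT K L T ω) :
    compHom K L T (secHom K L T ω u) = Pi.mulSingle ω u := by
  unfold secHom
  exact (compEquiv K L T).apply_symm_apply _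

lemma proj_secHom_self (ω : PlaceT K T) (u : JvT K L T ω) :
    projIdele K L T ω.1 ω.2 (secHom K L T ω u) = u := by
  classical
  have h := congrFun (compHom_secHom K L T ω u) ω
  rw [Pi.mulSingle_eq_same] at h
  exact h

lemma proj_secHom_ne (ω ω' : PlaceT K T) (h : ω' ≠ ω) (u : JvT K L T ω) :
    projIdele K L T ω'.1 ω'.2 (secHom K L T ω u) = 1 := by
  classical
  have h1 := congrFun (compHom_secHom K L T ω u) ω'
  rw [Pi.mulSingle_eq_of_ne h] at h1
  exact h1

lemma secHom_smul (σ : L ≃ₐ[K] L) (ω : PlaceT K T) (u : JvT K L T ω) :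
    secHom K L T ω (σ • u) = σ • secHom K L T ω u := by
  classical
  apply compHom_injective K L T
  funext ω'
  rw [compHom_smul, compHom_secHom, compHom_secHom]
  by_cases h : ω' = ω
  · subst h
    rw [Pi.mulSingle_eq_same, Pi.mulSingle_eq_same]
  · rw [Pi.mulSingle_eq_of_ne h, Pi.mulSingle_eq_of_ne h, smul_one]

lemma prod_secHom [Fintype (PlaceT K T)] (x : IdeleT L T) :
    ∏ ω, secHom K L T ω (projIdele K L T ω.1 ω.2 x) = x := by
  classical
  apply compHom_injective K L T
  rw [map_prod]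
  simp only [compHom_secHom]
  exact Finset.univ_prod_mulSingle (compHom K L T x)

/-- The section of the component map at `ω` as a morphism of `Gal(L/K)`-modules. -/
def secRep (ω : PlaceT K T) : repJv K L ⟨ω.1.1, ω.2⟩ ⟶ repJ K L T :=
  Rep.ofHom (LinearMap.intertwiningMap_of_isIntertwiningMap _ _
    ((secHom K L T ω).toAdditive.toIntLinearMap)
    (fun σ x => congrArg Additive.ofMul
      (secHom_smul K L T σ ω (Additive.toMul x : JvT K L T ω))))

lemma secRep_apply (ω : PlaceT K T) (x : repJv K L ⟨ω.1.1, ω.2⟩) :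
    (secRep K L T ω).hom x = Additive.ofMul (secHom K L T ω (Additive.toMul x)) := rfl

lemma projRep_apply (ω : PlaceT K T) (x : repJ K L T) :
    (projRep K L T ω.1 ω.2).hom x = Additive.ofMul (projIdele K L T ω.1 ω.2 (Additive.toMul x)) := rfl

theorem secRep_projRep_self (ω : PlaceT K T) :
    secRep K L T ω ≫ projRep K L T ω.1 ω.2 = 𝟙 _ := by
  apply Rep.hom_ext
  ext x
  simp only [Rep.hom_comp, Rep.hom_id]
  change Additive.ofMul (projIdele K L T ω.1 ω.2 (secHom K L T ω (Additive.toMul x))) = x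
  exact congrArg Additive.ofMul (proj_secHom_self K L T ω (Additive.toMul x))

theorem secRep_projRep_ne (ω ω' : PlaceT K T) (h : ω' ≠ ω) :
    secRep K L T ω ≫ projRep K L T ω'.1 ω'.2 = 0 := by
  apply Rep.hom_ext
  ext x
  simp only [Rep.hom_comp, Rep.zero_hom]
  change Additive.ofMul (projIdele K L T ω'.1 ω'.2 (secHom K L T ω (Additive.toMul x))) = 0
  exact congrArg Additive.ofMul (proj_secHom_ne K L T ω ω' h (Additive.toMul x))

theorem sum_projRep_secRep [Fintype (PlaceT K T)] :
    ∑ ω : PlaceT K T, projRep K L T ω.1 ω.2 ≫ secRep K L T ω = 𝟙 (repJ K L T) := by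
  apply Rep.hom_ext
  ext x
  simp only [Rep.sum_hom, Rep.hom_comp, Rep.hom_id]
  rw [Representation.IntertwiningMap.toLinearMap_sum, LinearMap.sum_apply]
  have h := congrArg Additive.ofMul (prod_secHom K L T (Additive.toMul x))
  rw [ofMul_prod] at h
  exact h


theorem gc_map_add {G : Type} [Group G] (n : ℕ) {A B : Rep ℤ G} (φ ψ : A ⟶ B) :
    (groupCohomology.functor ℤ G n).map (φ + ψ) =
      (groupCohomology.functor ℤ G n).map φ + (groupCohomology.functor ℤ G n).map ψ := by
  change HomologicalComplex.homologyMap ((groupCohomology.cochainsFunctor ℤ G).map (φ + ψ)) n =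
    HomologicalComplex.homologyMap ((groupCohomology.cochainsFunctor ℤ G).map φ) n +
      HomologicalComplex.homologyMap ((groupCohomology.cochainsFunctor ℤ G).map ψ) n
  rw [Functor.map_add, HomologicalComplex.homologyMap_add]

instance gc_additive {G : Type} [Group G] (n : ℕ) :
    (groupCohomology.functor ℤ G n).Additive where
  map_add := gc_map_add n _ _

/-- The map induced on `Hⁿ` by the section at `ω`. -/
def secMap (ω : PlaceT K T) (n : ℕ) :
    groupCohomology (repJv K L ⟨ω.1.1, ω.2⟩) n →ₗ[ℤ] groupCohomology (repJ K L T) n :=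
  ((groupCohomology.functor ℤ (L ≃ₐ[K] L) n).map (secRep K L T ω)).hom

theorem projMap_secMap_self (ω : PlaceT K T) (n : ℕ)
    (b : groupCohomology (repJv K L ⟨ω.1.1, ω.2⟩) n) :
    projMap K L T ω.1 ω.2 n (secMap K L T ω n b) = b := by
  have h : (groupCohomology.functor ℤ (L ≃ₐ[K] L) n).map (secRep K L T ω) ≫
      (groupCohomology.functor ℤ (L ≃ₐ[K] L) n).map (projRep K L T ω.1 ω.2) = 𝟙 _ := by
    rw [← CategoryTheory.Functor.map_comp, secRep_projRep_self, CategoryTheory.Functor.map_id]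
  have h2 := congrArg (fun f => f.hom b) h
  simp only [ModuleCat.hom_comp, ModuleCat.hom_id] at h2
  exact h2

theorem projMap_secMap_ne (ω ω' : PlaceT K T) (hne : ω' ≠ ω) (n : ℕ)
    (b : groupCohomology (repJv K L ⟨ω.1.1, ω.2⟩) n) :
    projMap K L T ω'.1 ω'.2 n (secMap K L T ω n b) = 0 := by
  have h : (groupCohomology.functor ℤ (L ≃ₐ[K] L) n).map (secRep K L T ω) ≫
      (groupCohomology.functor ℤ (L ≃ₐ[K] L) n).map (projRep K L T ω'.1 ω'.2) = 0 := by
    rw [← CategoryTheory.Functor.map_comp, secRep_projRep_ne K L T ω ω' hne,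
      CategoryTheory.Functor.map_zero]
  have h2 := congrArg (fun f => f.hom b) h
  simp only [ModuleCat.hom_comp, ModuleCat.hom_zero] at h2
  exact h2

theorem sum_secMap_projMap [Fintype (PlaceT K T)] (n : ℕ)
    (x : groupCohomology (repJ K L T) n) :
    ∑ ω : PlaceT K T, secMap K L T ω n (projMap K L T ω.1 ω.2 n x) = x := by
  have h : ∑ ω : PlaceT K T,
      (groupCohomology.functor ℤ (L ≃ₐ[K] L) n).map (projRep K L T ω.1 ω.2) ≫
        (groupCohomology.functor ℤ (L ≃ₐ[K] L) n).map (secRep K L T ω) = 𝟙 _ := by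
    simp_rw [← CategoryTheory.Functor.map_comp]
    rw [← CategoryTheory.Functor.map_sum, sum_projRep_secRep, CategoryTheory.Functor.map_id]
  have h3 : ∑ ω : PlaceT K T, (secMap K L T ω n) ∘ₗ (projMap K L T ω.1 ω.2 n) =
      LinearMap.id := by
    have h2 := congrArg ModuleCat.Hom.hom h
    simp only [ModuleCat.hom_sum, ModuleCat.hom_comp, ModuleCat.hom_id] at h2
    exact h2
  have h4 := congrArg (fun f : groupCohomology (repJ K L T) n →ₗ[ℤ]
    groupCohomology (repJ K L T) n => f x) h3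
  simp only [LinearMap.sum_apply, LinearMap.comp_apply, LinearMap.id_apply] at h4
  exact h4

/-- **SLD** (semi-local decomposition). -/
theorem stmt_SLD : Stmt_SLD := by
  intro K L _ _ _ _ _ T n
  have : Fintype (PlaceT K T) := Fintype.ofFinite _
  refine ⟨fun x hx => ?_, fun q₀ v₀ b => ?_⟩
  · rw [← sum_secMap_projMap K L T n x]
    apply Finset.sum_eq_zero
    intro ω _
    rw [hx ω.1 ω.2, map_zero]
  · refine ⟨secMap K L T ⟨q₀, v₀⟩ n b, projMap_secMap_self K L T ⟨q₀, v₀⟩ n b, ?_⟩
    intro q v hne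
    exact projMap_secMap_ne K L T ⟨q₀, v₀⟩ ⟨q, v⟩ hne n b

end Fermat.Agent.S55.CFT.H80

end
end
-- ==== END Fermat.Agent.S55.CFT.H80_SLD
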