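-- GENERATED (merged mirror, NOTES/tools/trim/merge3_helper67.py): 10 modules of the originals, bodies verbatim.
import Fermat.Agent.Zm.S56_L07_000
import Fermat.Agent.Zm.S56_L07_001
import Fermat.Agent.Zm.S56_L01_003
import Fermat.Agent.Zm.S56_L05_002
import Fermat.Agent.Zm.S56_L07_002
import Fermat.Agent.Zm.S56_L01_001
import Fermat.Agent.Zm.S56_L05_001
import Fermat.Agent.Zm.S48_L03_000
import Fermat.Agent.Zm.S56_L06_001
import Fermat.Agent.Zm.S56_L06_000

-- ==== BEGIN Fermat.Agent.S55.CFT.Defs_GS4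
section

set_option autoImplicit false

noncomputable section

namespace Fermat.Agent.S55.CFT.GS

/-- **BRI-Hasse**. -/
def Stmt_GS_BriHasse : Prop := Stmt_BrHasseG → Stmt_GSB_Hasse

/-- **BRI-One**. -/
def Stmt_GS_BriOne : Prop := Stmt_BrOneG → Stmt_GSB_One

/-- **BRI-TwoIn** (`v₁ = v(q₁, w₁)`, `v₂ = v(q₂, w₂)`). -/
def Stmt_GS_BriTwoIn : Prop := Stmt_BrTwoG → Stmt_GSB_TwoIn

/-- **BRI-TwoOut** (`v₁ = v(A₁)`, `v₂` a place over `p`). -/
def Stmt_GS_BriTwoOut : Prop := Stmt_BrTwoG → Stmt_GSB_TwoOut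

/-- **BRI-H3** (no local conditions; degree 3). -/
def Stmt_GS_BriH3 : Prop := Stmt_BrH3G → Stmt_GS_H3

/-- **BRI-Div** (no local conditions). -/
def Stmt_GS_BriDiv : Prop := Stmt_BrDivG → Stmt_GS_DivBr

end Fermat.Agent.S55.CFT.GS

end

end
-- ==== END Fermat.Agent.S55.CFT.Defs_GS4

-- ==== BEGIN Fermat.Agent.S55.CFT.GS.H24_KummerH1
section

set_option autoImplicit false
set_option linter.unusedSectionVars false
set_option linter.unusedVariables false
set_option linter.style.haveILetI false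

open CategoryTheory Module groupCohomology ExtCitation

noncomputable section

namespace Fermat.Agent.S55.CFT.GS.H24

open Fermat.Agent.S55 Fermat.Agent.S55.Top Fermat.Agent.S55.CFT.GS

local notation "Qb" => AlgebraicClosure ℚ

/-! ### The fixed field of `G_K` -/

section fixed

variable {K : IntermediateField ℚ Qb}

theorem smul_eq_of_mem {a : Qbˣ} (ha : (a : Qb) ∈ K) (g : ↥K.fixingSubgroup) : g • a = a := by
  apply Units.ext
  exact (IntermediateField.mem_fixingSubgroup_iff _ _).1 g.2 _ ha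

theorem mem_of_forall_smul {a : Qbˣ} (h : ∀ g : ↥K.fixingSubgroup, g • a = a) :
    (a : Qb) ∈ K := by
  have := h49_qbar_isGalois
  have hfix : IntermediateField.fixedField K.fixingSubgroup = K :=
    InfiniteGalois.fixedField_fixingSubgroup K
  rw [← hfix, IntermediateField.mem_fixedField_iff]
  intro s hs
  have := congrArg (fun u : Qbˣ => (u : Qb)) (h ⟨s, hs⟩)
  exact this

end fixed

/-! ### Subgroups -/

section subgroups

variable (S : Finset Nat.Primes) (p : ℕ) (K : IntermediateField ℚ Qb)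

/-- `Kˣ` as a subgroup of `ℚ̄ˣ`. -/
def KxS : Subgroup Qbˣ where
  carrier := {a | (a : Qb) ∈ K}
  mul_mem' := by
    intro a b ha hb
    show ((a * b : Qbˣ) : Qb) ∈ K
    rw [Units.val_mul]
    exact mul_mem ha hb
  one_mem' := by
    show ((1 : Qbˣ) : Qb) ∈ K
    rw [Units.val_one]
    exact one_mem K
  inv_mem' := by
    intro a ha
    show ((a⁻¹ : Qbˣ) : Qb) ∈ K
    rw [Units.val_inv_eq_inv_val]
    exact inv_mem ha

/-- `Ωˣ` as a subgroup of `ℚ̄ˣ`. -/
def OmS : Subgroup Qbˣ where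
  carrier := {a | InOm S (a : Qb)}
  mul_mem' := by
    intro a b ha hb
    show InOm S ((a * b : Qbˣ) : Qb)
    rw [Units.val_mul]
    exact inOm_mul ha hb
  one_mem' := by
    show InOm S ((1 : Qbˣ) : Qb)
    rw [Units.val_one]
    exact inOm_one
  inv_mem' := by
    intro a ha
    show InOm S ((a⁻¹ : Qbˣ) : Qb)
    rw [Units.val_inv_eq_inv_val]
    exact inOm_inv ha

/-- `R = {t ∈ Ωˣ : tᵖ ∈ K}`. -/
def RS : Subgroup Qbˣ := OmS S ⊓ (KxS K).comap (powMonoidHom p)

variable {S p K}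

theorem mem_KxS {a : Qbˣ} : a ∈ KxS K ↔ (a : Qb) ∈ K := Iff.rfl

theorem mem_OmS {a : Qbˣ} : a ∈ OmS S ↔ InOm S (a : Qb) := Iff.rfl

theorem mem_RS {t : Qbˣ} : t ∈ RS S p K ↔ InOm S (t : Qb) ∧ t ^ p ∈ KxS K := Iff.rfl

theorem KxS_le_RS (hK : K.IsUnramifiedOutside S) : KxS K ≤ RS S p K := by
  intro a ha
  exact ⟨inOm_of_mem hK ha, (KxS K).pow_mem ha p⟩

end subgroups

/-! ### The Kummer map -/

section kummer

variable {p : ℕ} [Fact p.Prime] {S : Finset Nat.Primes} {K : IntermediateField ℚ Qb}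
  {ζ : Qbˣ} (hζ : IsPrimitiveRoot ζ p)

theorem bdry_pow_eq_one {t : Qbˣ} (ht : t ^ p ∈ KxS K) (g : ↥K.fixingSubgroup) :
    (g • t / t) ^ p = 1 := by
  rw [div_pow, ← smul_pow', smul_eq_of_mem ht g, div_self']

/-- The Kummer character of `t` (with `tᵖ ∈ K`): `ζ ^ (kum t g) = g t / t`. -/
def kum (t : Qbˣ) (g : ↥K.fixingSubgroup) : ZMod p := by
  classical
  exact if h : (g • t / t) ^ p = 1 then Classical.choose (exists_zp hζ h) else 0

theorem kum_spec {t : Qbˣ} (ht : t ^ p ∈ KxS K) (g : ↥K.fixingSubgroup) :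
    ζ ^ (kum hζ t g).val = g • t / t := by
  classical
  unfold kum
  rw [dif_pos (bdry_pow_eq_one ht g)]
  exact Classical.choose_spec (exists_zp hζ (bdry_pow_eq_one ht g))

theorem kum_eq_iff {t : Qbˣ} (ht : t ^ p ∈ KxS K) (g : ↥K.fixingSubgroup) (c : ZMod p) :
    kum hζ t g = c ↔ ζ ^ c.val = g • t / t := by
  constructor
  · rintro rfl
    exact kum_spec hζ ht g
  · intro h
    exact zp_inj hζ ((kum_spec hζ ht g).trans h.symm)

theorem kum_mul {t t' : Qbˣ} (ht : t ^ p ∈ KxS K) (ht' : t' ^ p ∈ KxS K) :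
    kum hζ (t * t') = (kum hζ t + kum hζ t' : ↥K.fixingSubgroup → ZMod p) := by
  funext g
  rw [kum_eq_iff hζ (by rw [mul_pow]; exact (KxS K).mul_mem ht ht')]
  rw [Pi.add_apply, zp_add hζ.pow_eq_one, kum_spec hζ ht, kum_spec hζ ht', smul_mul']
  apply Additive.ofMul.injective
  simp only [ofMul_mul, ofMul_div]
  abel

theorem kum_tOne {t : Qbˣ} (ht : t ^ p ∈ KxS K) (hζK : ζ ∈ KxS K) :
    tOne (kum hζ t : ↥K.fixingSubgroup → ZMod p) = 0 := by
  have h1 := mOne_zp (Δ := ↥K.fixingSubgroup) hζ.pow_eq_one (fun g => smul_eq_of_mem hζK g)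
    (kum hζ t)
  have h2 : (fun g : ↥K.fixingSubgroup => ζ ^ (kum hζ t g).val) = fun g => g • t / t := by
    funext g
    exact kum_spec hζ ht g
  rw [h2, mOne_bdry] at h1
  funext x
  have := congrFun h1 x
  simp only [Pi.one_apply] at this
  have h0 : ζ ^ (tOne (kum hζ t : ↥K.fixingSubgroup → ZMod p) x).val = ζ ^ (0 : ZMod p).val := by
    rw [zp_zero]
    exact this.symm
  exact zp_inj hζ h0

theorem kum_level {t : Qbˣ} (ht : t ^ p ∈ KxS K) (htΩ : InOm S (t : Qb)) :
    IsLevK₁ S K (kum hζ t : ↥K.fixingSubgroup → ZMod p) := by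
  obtain ⟨F, hF, h⟩ := isLevK₁_bdry (K := K) htΩ
  refine ⟨F, hF, fun g s hs => ?_⟩
  rw [kum_eq_iff hζ ht, kum_spec hζ ht]
  exact (h g s hs).symm

theorem kum_mem_Z1K {t : Qbˣ} (ht : t ∈ RS S p K) (hζK : ζ ∈ KxS K) :
    (kum hζ t : ↥K.fixingSubgroup → ZMod p) ∈ Z1K (ZMod p) S K :=
  ⟨kum_tOne hζ ht.2 hζK, kum_level hζ ht.2 ht.1⟩

theorem kum_eq_zero_iff {t : Qbˣ} (ht : t ^ p ∈ KxS K) :
    (kum hζ t : ↥K.fixingSubgroup → ZMod p) = 0 ↔ t ∈ KxS K := by
  constructor
  · intro h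
    apply mem_of_forall_smul
    intro g
    have := kum_spec hζ ht g
    rw [h, Pi.zero_apply, zp_zero] at this
    exact (div_eq_one.mp this.symm)
  · intro h
    funext g
    rw [Pi.zero_apply, kum_eq_iff hζ ht, zp_zero, smul_eq_of_mem h g, div_self']

/-- Surjectivity of the Kummer map (Hilbert 90). -/
theorem exists_kum_eq (hH90 : Stmt_GS_H90) (hK : K.IsUnramifiedOutside S) (hζK : ζ ∈ KxS K)
    {χ : ↥K.fixingSubgroup → ZMod p} (hχ : χ ∈ Z1K (ZMod p) S K) :
    ∃ t : Qbˣ, t ∈ RS S p K ∧ kum hζ t = χ := by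
  have hlev : IsLevK₁ S K (fun g => ζ ^ (χ g).val) := hχ.2.comp (fun c : ZMod p => ζ ^ c.val)
  have hval : ∀ g : ↥K.fixingSubgroup, InOm S ((ζ ^ (χ g).val : Qbˣ) : Qb) := by
    intro g
    rw [Units.val_pow_eq_pow_val]
    exact inOm_pow (inOm_of_mem hK hζK) _
  have hcoc : mOne (fun g : ↥K.fixingSubgroup => ζ ^ (χ g).val) = 1 := by
    rw [mOne_zp hζ.pow_eq_one (fun g => smul_eq_of_mem hζK g)]
    funext x
    rw [hχ.1, Pi.zero_apply, zp_zero, Pi.one_apply]
  obtain ⟨t, htΩ, ht⟩ := hH90 S K hK _ hlev hval hcoc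
  have htp : t ^ p ∈ KxS K := by
    apply mem_of_forall_smul
    intro g
    have h := ht g
    have h2 : (g • t / t) ^ p = 1 := by
      rw [← h]
      exact zp_pow_p hζ.pow_eq_one _
    rw [div_pow, div_eq_one, ← smul_pow'] at h2
    exact h2
  refine ⟨t, ⟨htΩ, htp⟩, ?_⟩
  funext g
  rw [kum_eq_iff hζ htp]
  exact ht g

end kummer

end Fermat.Agent.S55.CFT.GS.H24

end

end
-- ==== END Fermat.Agent.S55.CFT.GS.H24_KummerH1

-- ==== BEGIN Fermat.Agent.S55.CFT.GS.H24_Sh1
section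

set_option autoImplicit false
set_option linter.unusedSectionVars false
set_option linter.unusedVariables false

noncomputable section

namespace Fermat.Agent.S55.CFT.GS.H24

section sh1

variable {G X M : Type} [Group G] [MulAction G X] [AddCommGroup M] (r : G → X → M)

/-- A representative of the orbit of `x`. -/
def sh1Rep (x : X) : X := (Quotient.mk (MulAction.orbitRel G X) x).out

theorem sh1Rep_spec (x : X) : ∃ k : G, k • sh1Rep (G := G) x = x := by
  have h : (MulAction.orbitRel G X).r (sh1Rep (G := G) x) x := by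
    have := Quotient.out_eq (Quotient.mk (MulAction.orbitRel G X) x)
    exact Quotient.exact this
  have h' : (MulAction.orbitRel G X).r x (sh1Rep (G := G) x) := (MulAction.orbitRel G X).symm h
  rw [MulAction.orbitRel_apply] at h'
  obtain ⟨k, hk⟩ := h'
  exact ⟨k, hk⟩

theorem sh1Rep_smul (g : G) (x : X) : sh1Rep (G := G) (g • x) = sh1Rep (G := G) x := by
  unfold sh1Rep
  congr 1
  apply Quotient.sound
  show (MulAction.orbitRel G X).r (g • x) x
  rw [MulAction.orbitRel_apply]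
  exact ⟨g, rfl⟩

/-- The chosen element moving the representative to `x`. -/
def sh1K (x : X) : G := (sh1Rep_spec (G := G) x).choose

theorem sh1K_spec (x : X) : sh1K (G := G) x • sh1Rep (G := G) x = x :=
  (sh1Rep_spec (G := G) x).choose_spec

variable {r}

theorem sh1_one (h0 : ∀ g x, g • x = x → r g x = 0) (x : X) : r 1 x = 0 := h0 1 x (one_smul _ _)

theorem sh1_inv (hr : ∀ g h x, r (g * h) x = r h (g⁻¹ • x) + r g x)
    (h0 : ∀ g x, g • x = x → r g x = 0) (g : G) (x : X) : r g⁻¹ (g⁻¹ • x) = - r g x := by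
  have h := hr g g⁻¹ x
  rw [mul_inv_cancel, sh1_one h0] at h
  exact eq_neg_of_add_eq_zero_left h.symm

/-- Independence of the chosen element. -/
theorem sh1_indep (hr : ∀ g h x, r (g * h) x = r h (g⁻¹ • x) + r g x)
    (h0 : ∀ g x, g • x = x → r g x = 0) (x₀ : X) (k₁ k₂ : G) (h : k₁ • x₀ = k₂ • x₀) :
    r k₁ (k₁ • x₀) = r k₂ (k₂ • x₀) := by
  have hs : (k₂⁻¹ * k₁) • x₀ = x₀ := by
    rw [mul_smul, h, inv_smul_smul]
  have e : k₁ = k₂ * (k₂⁻¹ * k₁) := by group
  have h1 := hr k₂ (k₂⁻¹ * k₁) (k₂ • x₀)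
  rw [← e, inv_smul_smul, h0 _ _ hs, zero_add] at h1
  rw [h, h1]

/-- **RES-Sh1.** -/
theorem resSh1 : Stmt_RES_Sh1 := by
  intro G X M _ _ _ r hr h0
  refine ⟨fun x => - r (sh1K (G := G) x) x, ?_, ?_, ?_⟩
  · intro g x
    -- `g⁻¹ x = (g⁻¹ k) x₀`
    have hk := sh1K_spec (G := G) x
    have hk' := sh1K_spec (G := G) (g⁻¹ • x)
    rw [sh1Rep_smul] at hk'
    set x₀ := sh1Rep (G := G) x with hx₀
    set k := sh1K (G := G) x with hkdef
    set k' := sh1K (G := G) (g⁻¹ • x) with hk'def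
    have e1 : k' • x₀ = (g⁻¹ * k) • x₀ := by rw [hk', mul_smul, hk]
    have e2 := sh1_indep hr h0 x₀ k' (g⁻¹ * k) e1
    rw [hk'] at e2
    have e3 : (g⁻¹ * k) • x₀ = g⁻¹ • x := by rw [mul_smul, hk]
    rw [e3] at e2
    have e4 := hr g⁻¹ k (g⁻¹ • x)
    rw [inv_inv, smul_inv_smul, sh1_inv hr h0] at e4
    show r g x = - r k' (g⁻¹ • x) - - r k x
    rw [e2, e4]
    abel
  · intro s hs x
    -- first clause with `g = s⁻¹`
    have h1 : r s⁻¹ = 0 := by
      have := hs s⁻¹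
      rw [inv_mul_cancel] at this
      rw [← this]
      funext x
      exact sh1_one h0 x
    -- reuse the first clause
    have hk := sh1K_spec (G := G) x
    have hk' := sh1K_spec (G := G) (s • x)
    rw [sh1Rep_smul] at hk'
    set x₀ := sh1Rep (G := G) x with hx₀
    set k := sh1K (G := G) x with hkdef
    set k' := sh1K (G := G) (s • x) with hk'def
    have e1 : k' • x₀ = (s * k) • x₀ := by rw [hk', mul_smul, hk]
    have e2 := sh1_indep hr h0 x₀ k' (s * k) e1
    rw [hk'] at e2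
    have e3 : (s * k) • x₀ = s • x := by rw [mul_smul, hk]
    rw [e3] at e2
    have e4 := hr s k (s • x)
    rw [inv_smul_smul] at e4
    have e5 : r s (s • x) = 0 := by
      have := sh1_inv hr h0 s⁻¹ x
      rw [inv_inv] at this
      rw [this, h1]
      simp
    show - r k' (s • x) = - r k x
    rw [e2, e4, e5, add_zero]
  · intro x hx
    have := hx (sh1K (G := G) x) 1
    rw [one_smul] at this
    show - r (sh1K (G := G) x) x = 0
    rw [this, neg_zero]

end sh1

end Fermat.Agent.S55.CFT.GS.H24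

end

end
-- ==== END Fermat.Agent.S55.CFT.GS.H24_Sh1

-- ==== BEGIN Fermat.Agent.S55.CFT.GS.H25_LocSH90
section

set_option autoImplicit false
set_option linter.unusedSectionVars false
set_option linter.style.haveILetI false
set_option linter.unusedVariables false

namespace Fermat.Agent.S55.CFT.GS.H25

open Fermat.Agent.S55.CFT Fermat.Agent.S55.CFT.LOC groupCohomology

attribute [local instance] LOC.H68.addDMA

section gen

variable {k Ω : Type} [Field k] [Field Ω] [Algebra k Ω] [IsGalois k Ω]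

/-- normality of `E/F₀` from stability under `Gal(Ω/F₀)` -/
theorem normal_extendScalars (F₀ E : IntermediateField k Ω) (hle : F₀ ≤ E)
    (hst : ∀ h : Ω ≃ₐ[k] Ω, h ∈ F₀.fixingSubgroup → ∀ x : Ω, x ∈ E → h x ∈ E) :
    Normal ↥F₀ ↥(IntermediateField.extendScalars hle) := by
  rw [IntermediateField.normal_iff_forall_map_le']
  intro σ x hx
  rw [IntermediateField.mem_map] at hx
  obtain ⟨y, hy, rfl⟩ := hx
  exact hst (((IntermediateField.fixingSubgroupEquiv F₀).symm σ : ↥F₀.fixingSubgroup) : Ω ≃ₐ[k] Ω)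
    (Subtype.property _) y hy

/-- the multiplicative 2-cocycle identity for a multiplicative coboundary -/
theorem cocycle_of_coboundary_field {M : Type} [Field M]
    {X1 X2 Y3 X4 a b c P Q R : M} (ha : a ≠ 0) (hb : b ≠ 0) (hc : c ≠ 0)
    (e1 : X1 * a = P * b) (e2 : X2 * b = Q * R) (e3 : Y3 * c = P * Q) (e4 : X4 * a = c * R) :
    X1 * X2 = Y3 * X4 := by
  have h : (X1 * X2 - Y3 * X4) * (a * b * c) = 0 := by
    linear_combination (X2 * b * c) * e1 + (P * b * c) * e2 - (X4 * a * b) * e3 -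
      (P * Q * b) * e4
  have habc : a * b * c ≠ 0 := mul_ne_zero (mul_ne_zero ha hb) hc
  have := (mul_eq_zero.1 h).resolve_right habc
  exact sub_eq_zero.1 this

/-- **LOCS-H90**, general form. -/
theorem locS_h90_gen (F₀ E : IntermediateField k Ω) [FiniteDimensional k ↥E] (hle : F₀ ≤ E)
    (hst : ∀ h : Ω ≃ₐ[k] Ω, h ∈ F₀.fixingSubgroup → ∀ x : Ω, x ∈ E → h x ∈ E)
    (cw : ↥F₀.fixingSubgroup × ↥F₀.fixingSubgroup → Ω) (β : ↥F₀.fixingSubgroup → Ω)
    (hcwE : ∀ t, cw t ∈ E) (hcw0 : ∀ t, cw t ≠ 0)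
    (hcwc : ∀ h₁ h₂ s₁ s₂ : ↥F₀.fixingSubgroup, (s₁ : Ω ≃ₐ[k] Ω) ∈ E.fixingSubgroup →
      (s₂ : Ω ≃ₐ[k] Ω) ∈ E.fixingSubgroup → cw (h₁ * s₁, h₂ * s₂) = cw (h₁, h₂))
    (hβ0 : ∀ h, β h ≠ 0)
    (E' : IntermediateField k Ω) [FiniteDimensional k ↥E']
    (hβloc : ∀ g s : ↥F₀.fixingSubgroup, (s : Ω ≃ₐ[k] Ω) ∈ E'.fixingSubgroup →
      β (g * s) = β g)
    (heq : ∀ h₁ h₂ : ↥F₀.fixingSubgroup,
      cw (h₁, h₂) * β (h₁ * h₂) = (h₁ : Ω ≃ₐ[k] Ω) (β h₂) * β h₁) :
    ∃ b : ↥F₀.fixingSubgroup → Ω, (∀ h, b h ≠ 0) ∧ (∀ h, b h ∈ E) ∧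
      (∀ h s : ↥F₀.fixingSubgroup, (s : Ω ≃ₐ[k] Ω) ∈ E.fixingSubgroup → b (h * s) = b h) ∧
      ∀ h₁ h₂ : ↥F₀.fixingSubgroup,
        cw (h₁, h₂) * b (h₁ * h₂) = (h₁ : Ω ≃ₐ[k] Ω) (b h₂) * b h₁ := by
  classical
  -- the level `E` over `F₀`
  let Erel : IntermediateField ↥F₀ Ω := IntermediateField.extendScalars hle
  haveI : Normal ↥F₀ ↥Erel := normal_extendScalars F₀ E hle hst
  -- first level: `β` has finitely many values
  obtain ⟨L₁, hL₁fd, hL₁gal, hE'L₁⟩ := H68.exists_finLevel F₀ E'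
  haveI := hL₁fd
  haveI := hL₁gal
  obtain ⟨β₁, hβ₁⟩ := H68.exists_factor₁ F₀ L₁ E' hE'L₁ β hβloc
  haveI : Finite (↥L₁ ≃ₐ[↥F₀] ↥L₁) := inferInstance
  haveI : Finite ↥(Set.range β₁) := (Set.finite_range β₁).to_subtype
  have hint : ∀ x ∈ Set.range β₁, IsIntegral k x := fun x _ => Algebra.IsIntegral.isIntegral x
  haveI : FiniteDimensional k ↥(IntermediateField.adjoin k (Set.range β₁)) :=
    IntermediateField.finiteDimensional_adjoin hint
  haveI : FiniteDimensional k ↥(E ⊔ E') := IntermediateField.finiteDimensional_sup _ _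
  let E₀ : IntermediateField k Ω := E ⊔ E' ⊔ IntermediateField.adjoin k (Set.range β₁)
  haveI : FiniteDimensional k ↥E₀ := IntermediateField.finiteDimensional_sup _ _
  obtain ⟨L, hLfd, hLgal, hE₀L⟩ := H68.exists_finLevel F₀ E₀
  haveI := hLfd
  haveI := hLgal
  have hEE₀ : E ≤ E₀ := le_sup_left.trans le_sup_left
  have hE'E₀ : E' ≤ E₀ := le_sup_right.trans le_sup_left
  have hβL : ∀ σ : ↥F₀.fixingSubgroup, β σ ∈ L := by
    intro σ
    apply hE₀L
    have h1 : β σ ∈ IntermediateField.adjoin k (Set.range β₁) :=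
      IntermediateField.subset_adjoin k _ ⟨_, (hβ₁ σ).symm⟩
    exact (le_sup_right : IntermediateField.adjoin k (Set.range β₁) ≤ E₀) h1
  have hEL : Erel ≤ L := fun x hx => hE₀L x (hEE₀ hx)
  -- the tower `F₀ ⊆ E ⊆ L`
  letI : Algebra ↥Erel ↥L := (IntermediateField.inclusion hEL).toRingHom.toAlgebra
  haveI : IsScalarTower ↥F₀ ↥Erel ↥L := IsScalarTower.of_algebraMap_eq (fun x => rfl)
  have GI := H68.galois_infData ↥F₀ ↥Erel ↥L
  have hcompat : ∀ σ : ↥F₀.fixingSubgroup,
      (AlgEquiv.restrictNormalHom ↥Erel : (↥L ≃ₐ[↥F₀] ↥L) →* (↥Erel ≃ₐ[↥F₀] ↥Erel))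
          (H68.resΓ F₀ L σ) = H68.resΓ F₀ Erel σ := by
    intro σ
    ext x
    have h1 := AlgEquiv.restrictNormal_commutes (H68.resΓ F₀ L σ) ↥Erel x
    have h2 := congrArg (Subtype.val : ↥L → Ω) h1
    have h4 : (((H68.resΓ F₀ L σ) (algebraMap ↥Erel ↥L x) : ↥L) : Ω) =
        (σ : Ω ≃ₐ[k] Ω) (x : Ω) :=
      H68.resΓ_apply F₀ L σ (algebraMap ↥Erel ↥L x)
    rw [H68.resΓ_apply]
    exact h2.trans h4
  -- the cochain `β` at level `L`
  let Xfun : ↥F₀.fixingSubgroup → Additive (↥L)ˣ := fun σ =>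
    Additive.ofMul (Units.mk0 ⟨β σ, hβL σ⟩ (fun h => hβ0 σ (congrArg Subtype.val h)))
  have hXloc : ∀ σ s : ↥F₀.fixingSubgroup, (s : Ω ≃ₐ[k] Ω) ∈ E₀.fixingSubgroup →
      Xfun (σ * s) = Xfun σ := by
    intro σ s hs
    have hs1 : (s : Ω ≃ₐ[k] Ω) ∈ E'.fixingSubgroup :=
      IntermediateField.fixingSubgroup_antitone hE'E₀ hs
    apply H68.additive_units_ext
    exact Subtype.ext (hβloc σ s hs1)
  obtain ⟨Xbar, hXbar⟩ := H68.exists_factor₁ F₀ L E₀ hE₀L Xfun hXloc
  -- the cochain `cw` at level `E`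
  let Cfun : ↥F₀.fixingSubgroup × ↥F₀.fixingSubgroup → Additive (↥Erel)ˣ := fun t =>
    Additive.ofMul (Units.mk0 ⟨cw t, hcwE t⟩ (fun h => hcw0 t (congrArg Subtype.val h)))
  have hCloc : ∀ g g' s s' : ↥F₀.fixingSubgroup, (s : Ω ≃ₐ[k] Ω) ∈ E.fixingSubgroup →
      (s' : Ω ≃ₐ[k] Ω) ∈ E.fixingSubgroup → Cfun (g * s, g' * s') = Cfun (g, g') := by
    intro g g' s s' hs hs'
    apply H68.additive_units_ext
    exact Subtype.ext (hcwc g g' s s' hs hs')
  obtain ⟨cbar, hcbar⟩ := H68.exists_factor₂ F₀ Erel E (fun x hx => hx) Cfun hCloc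
  -- `cbar` is a cocycle
  have hcoc : IsCocycle₂ cbar := by
    intro g h j
    obtain ⟨σ, rfl⟩ := H68.resΓ_surjective F₀ Erel g
    obtain ⟨τ, rfl⟩ := H68.resΓ_surjective F₀ Erel h
    obtain ⟨υ, rfl⟩ := H68.resΓ_surjective F₀ Erel j
    rw [← map_mul, ← map_mul, ← hcbar, ← hcbar, ← hcbar, ← hcbar]
    apply H68.additive_units_ext
    apply Subtype.ext
    show cw (σ * τ, υ) * cw (σ, τ) =
      ((H68.resΓ F₀ Erel σ) ⟨cw (τ, υ), hcwE (τ, υ)⟩ : Ω) * cw (σ, τ * υ)
    rw [H68.resΓ_apply]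
    show cw (σ * τ, υ) * cw (σ, τ) = (σ : Ω ≃ₐ[k] Ω) (cw (τ, υ)) * cw (σ, τ * υ)
    have e1 := heq (σ * τ) υ
    have e2 := heq σ τ
    have e3 := congrArg (σ : Ω ≃ₐ[k] Ω) (heq τ υ)
    have e4 := heq σ (τ * υ)
    rw [map_mul, map_mul] at e3
    rw [Subgroup.coe_mul, AlgEquiv.mul_apply] at e1
    rw [← mul_assoc] at e4
    exact cocycle_of_coboundary_field (hβ0 (σ * τ * υ)) (hβ0 (σ * τ))
      ((map_ne_zero (σ : Ω ≃ₐ[k] Ω)).2 (hβ0 (τ * υ))) e1 e2 e3 e4
  -- inflation is injective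
  have hcob : IsCoboundary₂ cbar := by
    refine H68.inf_injective GI cbar hcoc Xbar (fun s t => ?_)
    obtain ⟨σ, rfl⟩ := H68.resΓ_surjective F₀ L s
    obtain ⟨τ, rfl⟩ := H68.resΓ_surjective F₀ L t
    rw [← map_mul, ← hXbar, ← hXbar, ← hXbar, hcompat, hcompat, ← hcbar]
    apply H68.additive_units_ext
    apply Subtype.ext
    show ((H68.resΓ F₀ L σ) ⟨β τ, hβL τ⟩ : Ω) * (β (σ * τ))⁻¹ * β σ = cw (σ, τ)
    rw [H68.resΓ_apply]
    show (σ : Ω ≃ₐ[k] Ω) (β τ) * (β (σ * τ))⁻¹ * β σ = cw (σ, τ)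
    have hne := hβ0 (σ * τ)
    have := heq σ τ
    field_simp
    linear_combination -this
  obtain ⟨y, hy⟩ := hcob
  refine ⟨fun σ => (((Additive.toMul (y (H68.resΓ F₀ Erel σ)) : (↥Erel)ˣ) : ↥Erel) : Ω),
    fun σ => ?_, fun σ => ?_, fun σ s hs => ?_, fun σ τ => ?_⟩
  · intro h
    exact (Additive.toMul (y (H68.resΓ F₀ Erel σ)) : (↥Erel)ˣ).ne_zero (Subtype.ext h)
  · exact (((Additive.toMul (y (H68.resΓ F₀ Erel σ)) : (↥Erel)ˣ) : ↥Erel)).2
  · have h1 : H68.resΓ F₀ Erel s = 1 := by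
      rw [H68.resΓ_eq_one_iff]
      intro x hx
      exact (IntermediateField.mem_fixingSubgroup_iff E _).1 hs x hx
    show (((Additive.toMul (y (H68.resΓ F₀ Erel (σ * s))) : (↥Erel)ˣ) : ↥Erel) : Ω) = _
    rw [map_mul, h1, mul_one]
  · have h := hy (H68.resΓ F₀ Erel σ) (H68.resΓ F₀ Erel τ)
    rw [← hcbar, ← map_mul] at h
    have h' : H68.resΓ F₀ Erel σ • y (H68.resΓ F₀ Erel τ) + y (H68.resΓ F₀ Erel σ) =
        Cfun (σ, τ) + y (H68.resΓ F₀ Erel (σ * τ)) := by
      rw [← h]; abel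
    have h2 := congrArg
      (fun w : Additive (↥Erel)ˣ => (((Additive.toMul w : (↥Erel)ˣ) : ↥Erel) : Ω)) h'
    have h3 : ((H68.resΓ F₀ Erel σ)
          ((Additive.toMul (y (H68.resΓ F₀ Erel τ)) : (↥Erel)ˣ) : ↥Erel) : Ω) *
        (((Additive.toMul (y (H68.resΓ F₀ Erel σ)) : (↥Erel)ˣ) : ↥Erel) : Ω) =
        cw (σ, τ) *
          (((Additive.toMul (y (H68.resΓ F₀ Erel (σ * τ))) : (↥Erel)ˣ) : ↥Erel) : Ω) := h2
    rw [H68.resΓ_apply] at h3
    exact h3.symm

end gen

/-- **LOCS-H90.** -/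
theorem stmt_LocS_H90 : Stmt_LocS_H90 := by
  intro q _ F₀ E hF₀ hE hle hst cw β hcwE hcw0 hcwc hβ0 hβloc heq
  obtain ⟨E', hE'fd, hβl⟩ := hβloc
  haveI := hE
  haveI := hE'fd
  exact locS_h90_gen F₀ E hle hst cw β hcwE hcw0 hcwc hβ0 E' hβl heq

end Fermat.Agent.S55.CFT.GS.H25

end
-- ==== END Fermat.Agent.S55.CFT.GS.H25_LocSH90

-- ==== BEGIN Fermat.Agent.S55.CFT.GS.H72_HasseGLoc
section

/-!
# S55/E4 island GS, Layer A, leaf A-Hasse (helper72), part 1: restriction and localisation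

For a tower `K ⊆ K' ⊆ L` of number fields and a place `u` of `K'`, with `v = placeBelow u` the
place of `K` below `u`: `LocAlg K' L u` is a `Gal(L/K')`-equivariant quotient of `LocAlg K L v`
(`locQuot`), and restriction commutes with localisation (`locMap_resL`).
-/

set_option autoImplicit false
set_option linter.unusedSectionVars false

open NumberField TensorProduct CategoryTheory groupCohomology

noncomputable section

namespace Fermat.Agent.S55.CFT.GS.H72

open Fermat.Agent.S55.CFT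

section tower

variable (K K' L : Type) [Field K] [Field K'] [Field L] [NumberField K] [NumberField K']
  [NumberField L] [Algebra K K'] [Algebra K L] [Algebra K' L] [IsScalarTower K K' L]

instance semiLocal_artinian (q : Nat.Primes) : IsArtinianRing (SemiLocal K q) :=
  IsArtinianRing.of_finite (Qp q) _

/-- The place of `K` below a place of `K'`. -/
abbrev placeBelow (u : Place K') : Place K :=
  ⟨u.1, ⟨u.2.asIdeal.comap (semiLocalMap K K' u.1 : SemiLocal K u.1 →+* SemiLocal K' u.1),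
    haveI := u.2.isMaximal
    haveI : (u.2.asIdeal.comap
        (semiLocalMap K K' u.1 : SemiLocal K u.1 →+* SemiLocal K' u.1)).IsPrime :=
      Ideal.comap_isPrime _ _
    IsArtinianRing.isMaximal_of_isPrime _⟩⟩

lemma placeIdeal_below_le (u : Place K') :
    placeIdeal K L (placeBelow K K' u) ≤ placeIdeal K' L u := by
  rw [placeIdeal, Ideal.map_le_iff_le_comap]
  intro x hx
  rw [Ideal.mem_comap]
  have h1 : semiLocalMap K' L u.1 (semiLocalMap K K' u.1 x) = semiLocalMap K L u.1 x :=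
    semiLocalMap_comp K K' L u.1 x
  change semiLocalMap K L u.1 x ∈ placeIdeal K' L u
  rw [← h1]
  exact Ideal.mem_map_of_mem _ hx

/-- The quotient map `K_v ⊗_K L → K'_u ⊗_{K'} L`. -/
def locQuot (u : Place K') : LocAlg K L (placeBelow K K' u) →+* LocAlg K' L u :=
  Ideal.Quotient.factor (placeIdeal_below_le K K' L u)

lemma locQuot_mk (u : Place K') (x : SemiLocal L u.1) :
    locQuot K K' L u (Ideal.Quotient.mk _ x) = Ideal.Quotient.mk _ x :=
  Ideal.Quotient.factor_mk _ x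

lemma semiLocalEquiv_galRes (q : Nat.Primes) (σ : L ≃ₐ[K'] L) (x : SemiLocal L q) :
    semiLocalEquiv K L q (galRes K K' L σ) x = semiLocalEquiv K' L q σ x := rfl

lemma locQuot_smul (u : Place K') (σ : L ≃ₐ[K'] L) (y : LocAlg K L (placeBelow K K' u)) :
    locQuot K K' L u ((galRes K K' L σ) • y) = σ • locQuot K K' L u y := by
  obtain ⟨z, rfl⟩ := Ideal.Quotient.mk_surjective y
  change locQuot K K' L u (locAlgMap K L (placeBelow K K' u) (galRes K K' L σ) _) =
    locAlgMap K' L u σ (locQuot K K' L u _)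
  rw [locAlgMap_mk, locQuot_mk, locQuot_mk, locAlgMap_mk, semiLocalEquiv_galRes]

/-- The quotient map on units as a morphism of `Gal(L/K')`-modules. -/
def locQuotRep (u : Place K') :
    Rep.res (galRes K K' L) (repJv K L (placeBelow K K' u)) ⟶ repJv K' L u :=
  Rep.ofHom (LinearMap.intertwiningMap_of_isIntertwiningMap _ _
    ((Units.map (locQuot K K' L u : LocAlg K L (placeBelow K K' u) →* LocAlg K' L u)).toAdditive.toIntLinearMap)
    (fun σ x => congrArg Additive.ofMul (Units.ext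
      (locQuot_smul K K' L u σ
        ((Additive.toMul x : (LocAlg K L (placeBelow K K' u))ˣ) :
          LocAlg K L (placeBelow K K' u))))))

/-- Restriction of the local component. -/
def resJv (u : Place K') (n : ℕ) :
    groupCohomology (repJv K L (placeBelow K K' u)) n →ₗ[ℤ] groupCohomology (repJv K' L u) n :=
  (groupCohomology.map (galRes K K' L) (locQuotRep K K' L u) n).hom

/-- Restriction commutes with localisation. -/
theorem locMap_resL (u : Place K') (n : ℕ) (x : groupCohomology (repL K L) n) :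
    locMap K' L u n (resL K K' L n x) = resJv K K' L u n (locMap K L (placeBelow K K' u) n x) := by
  have h1 : groupCohomology.map (galRes K K' L) (resRepL K K' L) n ≫
      groupCohomology.map (MonoidHom.id _) (locRep K' L u) n =
      groupCohomology.map (MonoidHom.id _) (locRep K L (placeBelow K K' u)) n ≫
        groupCohomology.map (galRes K K' L) (locQuotRep K K' L u) n := by
    rw [← groupCohomology.map_comp, ← groupCohomology.map_comp]
    apply groupCohomology.map_congr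
    · rfl
    · rfl
  exact congrArg (fun f => f.hom x) h1

end tower

end Fermat.Agent.S55.CFT.GS.H72

end
end
-- ==== END Fermat.Agent.S55.CFT.GS.H72_HasseGLoc

-- ==== BEGIN Fermat.Agent.S55.CFT.GS.H78_LocKumAbs
section

set_option autoImplicit false
set_option linter.unusedSectionVars false
set_option linter.style.haveILetI false

noncomputable section

namespace Fermat.Agent.S55.CFT.GS.H78

open Fermat.Agent.S55 Fermat.Agent.S55.Top Fermat.Agent.S55.CFT.LOC

section abs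

variable {k Ω : Type} [Field k] [Field Ω] [Algebra k Ω] [IsGalois k Ω] [IsAlgClosed Ω]
variable {p : ℕ} [Fact p.Prime] (F : IntermediateField k Ω)

/-- A function on `Γ` which is constant modulo the fixing subgroup of a finite extension takes
finitely many values. -/
theorem finite_range_of_loc {X : Type*} (β : ↥F.fixingSubgroup → X)
    (hβloc : ∃ E : IntermediateField k Ω, FiniteDimensional k E ∧
      ∀ g s : ↥F.fixingSubgroup, (s : Ω ≃ₐ[k] Ω) ∈ E.fixingSubgroup → β (g * s) = β g) :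
    (Set.range β).Finite := by
  obtain ⟨E, hE, h⟩ := hβloc
  haveI := hE
  obtain ⟨L, hLfin, hLgal, hEL⟩ := H68.exists_finLevel F E
  haveI := hLfin
  haveI := hLgal
  obtain ⟨f', hf'⟩ := H68.exists_factor₁ F L E hEL β h
  haveI : Finite (↥L ≃ₐ[↥F] ↥L) := inferInstance
  refine (Set.finite_range f').subset ?_
  rintro x ⟨g, rfl⟩
  exact ⟨H68.resΓ F L g, (hf' g).symm⟩

theorem ze_sub_add' {ζ : Ω} (hζ : IsPrimitiveRoot ζ p) (i j l : ZMod p) :
    H45.ze ζ (i - j + l) = H45.ze ζ i / H45.ze ζ j * H45.ze ζ l := by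
  have h1 : H45.ze ζ (i - j) * H45.ze ζ j = H45.ze ζ i := by
    rw [← H45.ze_add hζ, sub_add_cancel]
  rw [H45.ze_add hζ, ← h1, mul_div_assoc, div_self (H45.ze_ne_zero hζ j), mul_one]

/-- **GS-LocKum, abstract form.** -/
theorem lockum_abs {ζ : Ω} (hζ : IsPrimitiveRoot ζ p)
    (hζfix : ∀ g : ↥F.fixingSubgroup, (g : Ω ≃ₐ[k] Ω) ζ = ζ)
    (c : ↥F.fixingSubgroup × ↥F.fixingSubgroup → ZMod p)
    (β : ↥F.fixingSubgroup → Ω) (hβ0 : ∀ g, β g ≠ 0)
    (hβloc : ∃ E : IntermediateField k Ω, FiniteDimensional k E ∧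
      ∀ g s : ↥F.fixingSubgroup, (s : Ω ≃ₐ[k] Ω) ∈ E.fixingSubgroup → β (g * s) = β g)
    (hβ : ∀ g h : ↥F.fixingSubgroup,
      H45.ze ζ (c (g, h)) * β (g * h) = (g : Ω ≃ₐ[k] Ω) (β h) * β g) :
    ∃ m : ↥F.fixingSubgroup → ZMod p,
      (∃ E : IntermediateField k Ω, FiniteDimensional k E ∧
        ∀ g s : ↥F.fixingSubgroup, (s : Ω ≃ₐ[k] Ω) ∈ E.fixingSubgroup → m (g * s) = m g) ∧
      tOne m = c := by
  classical
  have hp : p.Prime := Fact.out
  have hfin := finite_range_of_loc F β hβloc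
  obtain ⟨E, hE, hEβ⟩ := hβloc
  haveI := hE
  -- the field generated by `E` and the values of `β`
  haveI : Finite ↥(Set.range β) := hfin.to_subtype
  haveI hT : FiniteDimensional k ↥(IntermediateField.adjoin k (Set.range β)) :=
    IntermediateField.finiteDimensional_adjoin
      (fun x _ => Algebra.IsIntegral.isIntegral (R := k) x)
  obtain ⟨L, hLfin, hLgal, hEL⟩ :=
    H68.exists_finLevel F (E ⊔ IntermediateField.adjoin k (Set.range β))
  haveI := hLfin
  haveI := hLgal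
  have hEL' : ∀ x ∈ E, x ∈ L := fun x hx =>
    hEL x ((le_sup_left : E ≤ E ⊔ IntermediateField.adjoin k (Set.range β)) hx)
  have hβL : ∀ g, β g ∈ L := fun g =>
    hEL _ ((le_sup_right : IntermediateField.adjoin k (Set.range β) ≤
      E ⊔ IntermediateField.adjoin k (Set.range β))
      (IntermediateField.subset_adjoin k _ ⟨g, rfl⟩))
  obtain ⟨f', hf'⟩ := H68.exists_factor₁ F L E hEL' β hEβ
  -- Hilbert 90 for `βᵖ`
  let bp : ↥F.fixingSubgroup → ↥L := fun g => ⟨β g, hβL g⟩ ^ p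
  have hbp : ∀ g, ((bp g : ↥L) : Ω) = β g ^ p := fun g => rfl
  obtain ⟨v, hv0, hv⟩ := H6.hilbert90_abstract (K := ↥F) (L := ↥L) (H68.resΓ F L)
    (H68.resΓ_surjective F L) bp
    (fun g h => by
      have h1 := congrArg (Subtype.val : ↥L → Ω) h
      rw [hbp] at h1
      exact pow_ne_zero p (hβ0 g) h1)
    (fun g g' h => by
      apply Subtype.ext
      rw [hbp, hbp, hf' g, hf' g', h])
    (fun g h => by
      apply Subtype.ext
      show β (g * h) ^ p = ((H68.resΓ F L g (bp h) : ↥L) : Ω) * β g ^ p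
      rw [H68.resΓ_apply, hbp, map_pow, ← mul_pow, ← hβ g h, mul_pow, H45.ze_pow hζ, one_mul])
  have hv' : ∀ g : ↥F.fixingSubgroup, β g ^ p * (v : Ω) = (g : Ω ≃ₐ[k] Ω) (v : Ω) := by
    intro g
    have h1 := congrArg (Subtype.val : ↥L → Ω) (hv g)
    rw [H68.resΓ_apply] at h1
    exact h1
  have hv0' : (v : Ω) ≠ 0 := fun h => hv0 (Subtype.ext h)
  -- the root `η` of `v`
  set η : Ω := H45.root p (v : Ω) with hηdef
  have hη : η ^ p = (v : Ω) := H45.root_pow _
  have hη0 : η ≠ 0 := by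
    intro h
    rw [h, zero_pow hp.ne_zero] at hη
    exact hv0' hη.symm
  let w : ↥F.fixingSubgroup → Ω := fun γ => (γ : Ω ≃ₐ[k] Ω) η / η
  have hγη0 : ∀ γ : ↥F.fixingSubgroup, (γ : Ω ≃ₐ[k] Ω) η ≠ 0 := fun γ =>
    (map_ne_zero_iff _ (γ : Ω ≃ₐ[k] Ω).injective).2 hη0
  have hw0 : ∀ γ, w γ ≠ 0 := fun γ => div_ne_zero (hγη0 γ) hη0
  have hwp : ∀ γ, w γ ^ p = β γ ^ p := by
    intro γ
    show ((γ : Ω ≃ₐ[k] Ω) η / η) ^ p = β γ ^ p
    rw [div_pow, ← map_pow, hη, ← hv' γ, mul_div_assoc, div_self hv0', mul_one]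
  -- the cochain `m`
  have hex : ∀ γ, ∃ j : ZMod p, H45.ze ζ j = β γ / w γ := fun γ =>
    H45.exists_ze_eq hζ (by rw [div_pow, hwp, div_self (pow_ne_zero _ (hβ0 γ))])
  choose m hm using hex
  refine ⟨m, ?_, ?_⟩
  · -- `m` is locally level constant
    have hηint : IsIntegral k η := Algebra.IsIntegral.isIntegral (R := k) η
    haveI : FiniteDimensional k ↥(IntermediateField.adjoin k {η}) :=
      IntermediateField.adjoin.finiteDimensional hηint
    refine ⟨E ⊔ IntermediateField.adjoin k {η}, inferInstance, ?_⟩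
    intro γ s hs
    have hsE : (s : Ω ≃ₐ[k] Ω) ∈ E.fixingSubgroup := by
      rw [IntermediateField.mem_fixingSubgroup_iff] at hs ⊢
      exact fun x hx => hs x ((le_sup_left : E ≤ _) hx)
    rw [IntermediateField.mem_fixingSubgroup_iff] at hs
    have hsη : (s : Ω ≃ₐ[k] Ω) η = η :=
      hs η ((le_sup_right : IntermediateField.adjoin k {η} ≤ _)
        (IntermediateField.mem_adjoin_simple_self k η))
    apply H45.ze_injective hζ
    rw [hm, hm, hEβ γ s hsE]
    have e3 : w (γ * s) = w γ := by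
      show ((γ * s : ↥F.fixingSubgroup) : Ω ≃ₐ[k] Ω) η / η = (γ : Ω ≃ₐ[k] Ω) η / η
      rw [Subgroup.coe_mul, AlgEquiv.mul_apply, hsη]
    rw [e3]
  · -- `d m = c`
    funext ⟨γ, δ⟩
    apply H45.ze_injective hζ
    have hw' : (γ : Ω ≃ₐ[k] Ω) (w δ) * w γ = w (γ * δ) := by
      show (γ : Ω ≃ₐ[k] Ω) ((δ : Ω ≃ₐ[k] Ω) η / η) * ((γ : Ω ≃ₐ[k] Ω) η / η) =
        ((γ * δ : ↥F.fixingSubgroup) : Ω ≃ₐ[k] Ω) η / η
      rw [Subgroup.coe_mul, AlgEquiv.mul_apply, map_div₀]
      have h8 := hγη0 γ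
      field_simp
    have hA : H45.ze ζ (m δ) = (γ : Ω ≃ₐ[k] Ω) (β δ) / (γ : Ω ≃ₐ[k] Ω) (w δ) := by
      rw [← map_div₀, ← hm δ, H45.map_ze (hζfix γ)]
    have hγw0 : (γ : Ω ≃ₐ[k] Ω) (w δ) ≠ 0 :=
      (map_ne_zero_iff _ (γ : Ω ≃ₐ[k] Ω).injective).2 (hw0 δ)
    have hβ' := hβ γ δ
    show H45.ze ζ (m δ - m (γ * δ) + m γ) = _
    rw [ze_sub_add' hζ, hA, hm, hm, ← hw']
    have h5 := hβ0 (γ * δ)
    have h6 := hβ0 γ
    have h7 := hw0 γ
    have h9 : (γ : Ω ≃ₐ[k] Ω) (β δ) * β γ = H45.ze ζ (c (γ, δ)) * β (γ * δ) := hβ'.symm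
    field_simp
    rw [h9]
    ring

end abs

end Fermat.Agent.S55.CFT.GS.H78

end
end
-- ==== END Fermat.Agent.S55.CFT.GS.H78_LocKumAbs

-- ==== BEGIN Fermat.Agent.S55.CFT.GS.H93_CDAbs
section

set_option autoImplicit false

noncomputable section

namespace Fermat.Agent.S55.CFT.GS.H93

open Fermat.Agent.S55.CFT.GS.H6

section Abs

variable {G D : Type} [CommGroup G] [AddCommGroup D]

/-- `ε 1 = 0` for a map additive on a subgroup. -/
theorem cdabs_eps_one {T : Subgroup G} {ε : G → D}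
    (hε : ∀ x ∈ T, ∀ y ∈ T, ε (x * y) = ε x + ε y) : ε 1 = 0 := by
  have h := hε 1 T.one_mem 1 T.one_mem
  rw [mul_one] at h
  have h2 : ε 1 + 0 = ε 1 + ε 1 := by rw [add_zero]; exact h
  exact (add_left_cancel h2).symm

/-- `ε x⁻¹ = - ε x` for a map additive on a subgroup. -/
theorem cdabs_eps_inv {T : Subgroup G} {ε : G → D}
    (hε : ∀ x ∈ T, ∀ y ∈ T, ε (x * y) = ε x + ε y) {x : G} (hx : x ∈ T) : ε x⁻¹ = - ε x := by
  have h := hε x hx x⁻¹ (T.inv_mem hx)
  rw [mul_inv_cancel, cdabs_eps_one hε] at h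
  exact eq_neg_of_add_eq_zero_right h.symm

/-- `ε (x ^ n) = n • ε x` for a map additive on a subgroup. -/
theorem cdabs_eps_pow {T : Subgroup G} {ε : G → D}
    (hε : ∀ x ∈ T, ∀ y ∈ T, ε (x * y) = ε x + ε y) {x : G} (hx : x ∈ T) (n : ℕ) :
    ε (x ^ n) = n • ε x := by
  induction n with
  | zero => rw [pow_zero, zero_smul]; exact cdabs_eps_one hε
  | succ n ih =>
    rw [pow_succ, hε _ (T.pow_mem hx n) _ hx, ih, succ_nsmul]

/-- The restriction of `ε` to a subgroup of `T`, as a homomorphism. -/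
def cdabsHom (T : Subgroup G) (ε : G → D)
    (hε : ∀ x ∈ T, ∀ y ∈ T, ε (x * y) = ε x + ε y) (H : Subgroup G) (hH : H ≤ T) :
    Additive H →+ D where
  toFun a := ε (Additive.toMul a : H)
  map_zero' := cdabs_eps_one hε
  map_add' a b := hε _ (hH (Additive.toMul a : H).2) _ (hH (Additive.toMul b : H).2)

/-- For a finite additive commutative group, the kernel of multiplication by `p` has as many
elements as the cokernel. -/
theorem cdabs_card_ker_eq_index {C : Type} [AddCommGroup C] [Finite C] (m : C →+ C) :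
    Nat.card m.ker = m.range.index := by
  have h1 := AddSubgroup.card_mul_index m.ker
  have h2 := AddSubgroup.index_ker m
  have h3 := AddSubgroup.card_mul_index m.range
  have h4 : 0 < Nat.card m.range := Nat.card_pos
  rw [h2, ← h3, mul_comm] at h1
  exact Nat.eq_of_mul_eq_mul_left h4 h1

/-- **CD-ABS**, the main computation. -/
theorem cdabs_main (p : ℕ) (Kx W T U : Subgroup G) (hKT : Kx ≤ T) (_hWT : W ≤ T)
    (hUK : U ≤ Kx) (ε : G → D) (hε : ∀ x ∈ T, ∀ y ∈ T, ε (x * y) = ε x + ε y)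
    (htf : ∀ x : D, p • x = 0 → x = 0)
    (hfin : ∃ F : Finset D, ∀ x : D, ∃ f ∈ F, ∃ a ∈ Kx, x = f + ε a)
    (hW : ∀ t ∈ T, (t ∈ W ↔ ∃ x : D, ε t = p • x))
    (hU : ∀ a ∈ Kx, (a ∈ U ↔ ε a = 0))
    (V V' T' : Subgroup G)
    (hV : ∀ x, x ∈ V ↔ x ∈ Kx ∧ x ∈ W)
    (hV' : ∀ x, x ∈ V' ↔ ∃ u b, u ∈ U ∧ b ∈ Kx ∧ x = u * b ^ p)
    (hT' : ∀ x, x ∈ T' ↔ ∃ c s, c ∈ Kx ∧ s ∈ W ∧ x = c * s) :
    V'.relIndex V ≠ 0 ∧ T'.relIndex T ≠ 0 ∧ T'.relIndex T ≤ V'.relIndex V := by
  classical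
  -- cancellation of `p`
  have hcanc : ∀ x y : D, p • x = p • y → x = y := by
    intro x y h
    have : p • (x - y) = 0 := by rw [smul_sub, h, sub_self]
    exact sub_eq_zero.mp (htf _ this)
  -- the image of `Kx`
  let eK : Additive Kx →+ D := cdabsHom T ε hε Kx hKT
  let E : AddSubgroup D := eK.range
  have hE : ∀ x : D, x ∈ E ↔ ∃ a ∈ Kx, x = ε a := by
    intro x
    constructor
    · rintro ⟨a, rfl⟩
      exact ⟨(Additive.toMul a : Kx), (Additive.toMul a : Kx).2, rfl⟩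
    · rintro ⟨a, ha, rfl⟩
      exact ⟨Additive.ofMul ⟨a, ha⟩, rfl⟩
  let π : D →+ D ⧸ E := QuotientAddGroup.mk' E
  have hπ0 : ∀ x : D, π x = 0 ↔ x ∈ E := fun x => QuotientAddGroup.eq_zero_iff x
  -- finiteness of the quotient
  have hCfin : Finite (D ⧸ E) := by
    obtain ⟨F, hF⟩ := hfin
    have hsurj : Function.Surjective (fun f : F => π (f : D)) := by
      intro c
      obtain ⟨x, rfl⟩ := QuotientAddGroup.mk'_surjective E c
      obtain ⟨f, hf, a, ha, rfl⟩ := hF x
      refine ⟨⟨f, hf⟩, ?_⟩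
      change π f = π (f + ε a)
      rw [map_add, (hπ0 (ε a)).mpr ((hE _).mpr ⟨a, ha, rfl⟩), add_zero]
    exact Finite.of_surjective _ hsurj
  -- multiplication by `p`
  let m : D ⧸ E →+ D ⧸ E := nsmulAddMonoidHom p
  have hm : ∀ c, m c = p • c := fun c => rfl
  -- the quotient `ε t / p`
  let q : G → D := fun t => if h : ∃ x : D, ε t = p • x then h.choose else 0
  have hq : ∀ t, (∃ x : D, ε t = p • x) → ε t = p • q t := by
    intro t h
    simp only [q, dif_pos h]
    exact h.choose_spec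
  have hVT : ∀ a, a ∈ V → a ∈ T := fun a ha => hKT ((hV a).mp ha).1
  have hqV : ∀ a, a ∈ V → ε a = p • q a := fun a ha =>
    hq a ((hW a (hVT a ha)).mp ((hV a).mp ha).2)
  -- the homomorphism `φ`
  let φ : V →* Multiplicative (D ⧸ E) :=
    { toFun := fun a => Multiplicative.ofAdd (π (q a))
      map_one' := by
        have h1 : q (1 : G) = 0 := by
          apply hcanc
          rw [← hqV 1 V.one_mem, cdabs_eps_one hε, smul_zero]
        change Multiplicative.ofAdd (π (q ((1 : V) : G))) = 1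
        rw [Subgroup.coe_one, h1, map_zero]
        rfl
      map_mul' := by
        intro a b
        have h1 : q ((a : G) * b) = q a + q b := by
          apply hcanc
          rw [← hqV _ (V.mul_mem a.2 b.2), hε _ (hVT _ a.2) _ (hVT _ b.2), hqV _ a.2, hqV _ b.2,
            smul_add]
        change Multiplicative.ofAdd (π (q (((a * b : V)) : G))) = _
        rw [Subgroup.coe_mul, h1, map_add]
        rfl }
  have hφ : ∀ a : V, φ a = Multiplicative.ofAdd (π (q a)) := fun a => rfl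
  -- the kernel of `φ`
  have hkerφ : φ.ker = V'.subgroupOf V := by
    ext a
    rw [MonoidHom.mem_ker, Subgroup.mem_subgroupOf, hφ, hV']
    have hone : (Multiplicative.ofAdd (π (q a)) = 1) ↔ π (q a) = 0 := by
      constructor
      · intro h; exact Multiplicative.ofAdd.injective h
      · intro h; rw [h]; rfl
    rw [hone, hπ0, hE]
    have haK : (a : G) ∈ Kx := ((hV a).mp a.2).1
    constructor
    · rintro ⟨b, hb, hqb⟩
      have hbT : b ∈ T := hKT hb
      have hbp : ε (b ^ p) = ε a := by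
        rw [cdabs_eps_pow hε hbT, hqV _ a.2, hqb]
      refine ⟨(a : G) * (b ^ p)⁻¹, b, ?_, hb, ?_⟩
      · have hmem : (a : G) * (b ^ p)⁻¹ ∈ Kx := Kx.mul_mem haK (Kx.inv_mem (Kx.pow_mem hb p))
        rw [hU _ hmem, hε _ (hKT haK) _ (T.inv_mem (T.pow_mem hbT p)),
          cdabs_eps_inv hε (T.pow_mem hbT p), hbp, add_neg_cancel]
      · rw [inv_mul_cancel_right]
    · rintro ⟨u, b, hu, hb, hab⟩
      refine ⟨b, hb, ?_⟩
      apply hcanc
      have huK : u ∈ Kx := hUK hu
      rw [← hqV _ a.2, hab, hε _ (hKT huK) _ (T.pow_mem (hKT hb) p), (hU u huK).mp hu, zero_add,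
        cdabs_eps_pow hε (hKT hb)]
  -- the range of `φ` contains the kernel of `m`
  have hrangeφ : Nat.card m.ker ≤ Nat.card φ.range := by
    have hex : ∀ c : m.ker, ∃ a : V, φ a = Multiplicative.ofAdd (c : D ⧸ E) := by
      rintro ⟨c, hc⟩
      obtain ⟨x, rfl⟩ := QuotientAddGroup.mk'_surjective E c
      have hpx : p • x ∈ E := by
        rw [← hπ0, map_nsmul]
        exact hc
      obtain ⟨a, ha, hax⟩ := (hE _).mp hpx
      have haW : a ∈ W := (hW a (hKT ha)).mpr ⟨x, hax.symm⟩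
      have haV : a ∈ V := (hV a).mpr ⟨ha, haW⟩
      refine ⟨⟨a, haV⟩, ?_⟩
      rw [hφ]
      have : q a = x := by
        apply hcanc
        rw [← hqV a haV, hax]
      change Multiplicative.ofAdd (π (q a)) = Multiplicative.ofAdd (π x)
      rw [this]
    let j : m.ker → φ.range := fun c => ⟨Multiplicative.ofAdd (c : D ⧸ E), by
      obtain ⟨a, ha⟩ := hex c
      exact ⟨a, ha⟩⟩
    have hj : Function.Injective j := by
      intro c c' h
      have := congrArg Subtype.val h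
      exact Subtype.ext (Multiplicative.ofAdd.injective this)
    exact Nat.card_le_card_of_injective j hj
  -- the homomorphism `ψ`
  let ρ : D ⧸ E →+ (D ⧸ E) ⧸ m.range := QuotientAddGroup.mk' m.range
  let ψ : T →* Multiplicative ((D ⧸ E) ⧸ m.range) :=
    { toFun := fun t => Multiplicative.ofAdd (ρ (π (ε t)))
      map_one' := by
        change Multiplicative.ofAdd (ρ (π (ε ((1 : T) : G)))) = 1
        rw [Subgroup.coe_one, cdabs_eps_one hε, map_zero, map_zero]
        rfl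
      map_mul' := by
        intro a b
        change Multiplicative.ofAdd (ρ (π (ε ((a * b : T) : G)))) = _
        rw [Subgroup.coe_mul, hε _ a.2 _ b.2, map_add, map_add]
        rfl }
  have hψ : ∀ t : T, ψ t = Multiplicative.ofAdd (ρ (π (ε t))) := fun t => rfl
  have hkerψ : ψ.ker ≤ T'.subgroupOf T := by
    intro t ht
    rw [MonoidHom.mem_ker, hψ] at ht
    have h0 : ρ (π (ε t)) = 0 := Multiplicative.ofAdd.injective ht
    have h1 : π (ε t) ∈ m.range := (QuotientAddGroup.eq_zero_iff _).mp h0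
    obtain ⟨c, hc⟩ := h1
    obtain ⟨x, rfl⟩ := QuotientAddGroup.mk'_surjective E c
    rw [hm] at hc
    have h2 : ε t - p • x ∈ E := by
      rw [← hπ0, map_sub, map_nsmul]
      change π (ε t) - p • π x = 0
      rw [sub_eq_zero]
      exact hc.symm
    obtain ⟨a, ha, hax⟩ := (hE _).mp h2
    rw [Subgroup.mem_subgroupOf, hT']
    have haT : a ∈ T := hKT ha
    refine ⟨a, (t : G) * a⁻¹, ha, ?_, by rw [mul_comm (t : G), mul_inv_cancel_left]⟩
    rw [hW _ (T.mul_mem t.2 (T.inv_mem haT))]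
    refine ⟨x, ?_⟩
    rw [hε _ t.2 _ (T.inv_mem haT), cdabs_eps_inv hε haT, ← hax]
    abel
  -- the indices
  have hV'idx : V'.relIndex V = Nat.card φ.range := by
    rw [Subgroup.relIndex, ← hkerφ, Subgroup.index_ker]
  have hψpos : 0 < Nat.card ψ.range := Nat.card_pos
  have hφpos : 0 < Nat.card φ.range := Nat.card_pos
  have hT'dvd : T'.relIndex T ∣ Nat.card ψ.range := by
    rw [Subgroup.relIndex, ← Subgroup.index_ker]
    exact Subgroup.index_dvd_of_le hkerψ
  have hT'le : T'.relIndex T ≤ Nat.card ψ.range := Nat.le_of_dvd hψpos hT'dvd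
  have hψle : Nat.card ψ.range ≤ m.range.index := by
    have h1 : Nat.card ψ.range ≤ Nat.card (Multiplicative ((D ⧸ E) ⧸ m.range)) :=
      Nat.card_le_card_of_injective (fun x : ψ.range => (x : Multiplicative ((D ⧸ E) ⧸ m.range)))
        Subtype.val_injective
    have h2 : Nat.card (Multiplicative ((D ⧸ E) ⧸ m.range)) = m.range.index :=
      Nat.card_congr Multiplicative.toAdd
    rw [h2] at h1
    exact h1
  refine ⟨?_, ?_, ?_⟩
  · rw [hV'idx]; exact hφpos.ne'
  · intro h0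
    rw [h0] at hT'dvd
    exact hψpos.ne' (Nat.eq_zero_of_zero_dvd hT'dvd)
  · calc T'.relIndex T ≤ Nat.card ψ.range := hT'le
      _ ≤ m.range.index := hψle
      _ = Nat.card m.ker := (cdabs_card_ker_eq_index m).symm
      _ ≤ Nat.card φ.range := hrangeφ
      _ = V'.relIndex V := hV'idx.symm

end Abs

/-- **CD-ABS**: `H6.Stmt_CD_ABS`. -/
theorem stmt_CD_ABS : Stmt_CD_ABS := by
  intro G D _ _ p _ Kx W T U hKT hWT hUK ε hε htf hfin hW hU V V' T' hV hV' hT'
  exact cdabs_main p Kx W T U hKT hWT hUK ε hε htf hfin hW hU V V' T' hV hV' hT'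

end Fermat.Agent.S55.CFT.GS.H93

end
end
-- ==== END Fermat.Agent.S55.CFT.GS.H93_CDAbs

-- ==== BEGIN Fermat.Agent.S55.CFT.GS.H93_CDNF
section

set_option autoImplicit false

open scoped NumberField nonZeroDivisors

noncomputable section

namespace Fermat.Agent.S55.CFT.GS.H93

open Fermat.Agent.S55.CFT.GS.H6 IsDedekindDomain FractionalIdeal

section Count

variable {R : Type*} [CommRing R] [IsDedekindDomain R] (K : Type*) [Field K] [Algebra R K]
  [IsFractionRing R K] (v : HeightOneSpectrum R)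

/-- The `v`-adic valuation of a non-zero element of `R` in terms of `FractionalIdeal.count`. -/
theorem cdnf_count_span (r : R) (hr : r ≠ 0) :
    count K v ((Ideal.span {r} : Ideal R) : FractionalIdeal R⁰ K)
      = -WithZero.log (v.valuation K (algebraMap R K r)) := by
  have hne : (Ideal.span {r} : Ideal R) ≠ 0 := by
    rw [Ne, Ideal.zero_eq_bot, Ideal.span_singleton_eq_bot]
    exact hr
  rw [count_coe K v hne, HeightOneSpectrum.valuation_of_algebraMap,
    HeightOneSpectrum.intValuation_if_neg v hr, WithZero.log_exp, neg_neg]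

/-- The order of a principal fractional ideal is the (additive) valuation of its generator. -/
theorem cdnf_count_spanSingleton (a : K) (ha : a ≠ 0) :
    count K v (spanSingleton R⁰ a) = -WithZero.log (v.valuation K a) := by
  obtain ⟨n, d, hd, rfl⟩ := IsFractionRing.div_surjective (A := R) a
  have hd0 : d ≠ 0 := nonZeroDivisors.ne_zero hd
  have hn0 : n ≠ 0 := by
    rintro rfl
    rw [map_zero, zero_div] at ha
    exact ha rfl
  have hdK : algebraMap R K d ≠ 0 :=
    (map_ne_zero_iff _ (IsFractionRing.injective R K)).mpr hd0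
  have hnK : algebraMap R K n ≠ 0 :=
    (map_ne_zero_iff _ (IsFractionRing.injective R K)).mpr hn0
  have hsplit : spanSingleton R⁰ (algebraMap R K n / algebraMap R K d)
      = ((Ideal.span {n} : Ideal R) : FractionalIdeal R⁰ K)
        * (((Ideal.span {d} : Ideal R) : FractionalIdeal R⁰ K))⁻¹ := by
    rw [coeIdeal_span_singleton, coeIdeal_span_singleton, spanSingleton_inv,
      spanSingleton_mul_spanSingleton, div_eq_mul_inv]
  have h1 : ((Ideal.span {n} : Ideal R) : FractionalIdeal R⁰ K) ≠ 0 := by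
    rw [coeIdeal_span_singleton]
    exact spanSingleton_ne_zero_iff.mpr hnK
  have h2 : (((Ideal.span {d} : Ideal R) : FractionalIdeal R⁰ K))⁻¹ ≠ 0 := by
    rw [coeIdeal_span_singleton]
    exact inv_ne_zero (spanSingleton_ne_zero_iff.mpr hdK)
  rw [hsplit, count_mul K v h1 h2, count_inv, cdnf_count_span K v n hn0,
    cdnf_count_span K v d hd0, map_div₀,
    WithZero.log_div ((Valuation.ne_zero_iff _).mpr hnK) ((Valuation.ne_zero_iff _).mpr hdK)]
  ring

end Count

section Main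

variable (K : Type) [Field K] [NumberField K] (P : Set (HeightOneSpectrum (𝓞 K)))

/-- Extension by zero of a divisor supported on `P`. -/
def cdnfExt (x : P →₀ ℤ) : HeightOneSpectrum (𝓞 K) →₀ ℤ :=
  Finsupp.mapDomain Subtype.val x

theorem cdnfExt_apply (x : P →₀ ℤ) (v : P) : cdnfExt K P x v.1 = x v :=
  Finsupp.mapDomain_apply Subtype.val_injective x v

/-- The fractional ideal of a divisor. -/
def cdnfIdeal (x : P →₀ ℤ) : FractionalIdeal (𝓞 K)⁰ K :=
  (cdnfExt K P x).prod (fun w n => (w.asIdeal : FractionalIdeal (𝓞 K)⁰ K) ^ n)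

theorem cdnfIdeal_ne_zero (x : P →₀ ℤ) : cdnfIdeal K P x ≠ 0 := by
  unfold cdnfIdeal
  rw [Finsupp.prod]
  exact Finset.prod_ne_zero_iff.mpr fun w _ => zpow_ne_zero _ (coeIdeal_ne_zero.mpr w.ne_bot)

theorem cdnf_count_ideal (x : P →₀ ℤ) (v : P) :
    count K v.1 (cdnfIdeal K P x) = x v := by
  unfold cdnfIdeal
  rw [count_finsuppProd K v.1 (cdnfExt K P x), cdnfExt_apply]

/-- The class of a divisor. -/
def cdnfClass (x : P →₀ ℤ) : ClassGroup (𝓞 K) :=
  ClassGroup.mk K (Units.mk0 (cdnfIdeal K P x) (cdnfIdeal_ne_zero K P x))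

/-- Two divisors with the same class differ by a principal divisor. -/
theorem cdnf_of_class_eq (x f : P →₀ ℤ) (h : cdnfClass K P x = cdnfClass K P f) :
    ∃ a : K, a ≠ 0 ∧ ∀ v : P, x v = f v + ordAt v.1 a := by
  set Ux : (FractionalIdeal (𝓞 K)⁰ K)ˣ := Units.mk0 (cdnfIdeal K P x) (cdnfIdeal_ne_zero K P x)
    with hUx
  set Uf : (FractionalIdeal (𝓞 K)⁰ K)ˣ := Units.mk0 (cdnfIdeal K P f) (cdnfIdeal_ne_zero K P f)
    with hUf
  have h1 : ClassGroup.mk K (Ux * Uf⁻¹) = 1 := by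
    rw [map_mul, map_inv]
    change cdnfClass K P x * (cdnfClass K P f)⁻¹ = 1
    rw [h, mul_inv_cancel]
  have h2 := ClassGroup.mk_eq_one_iff.mp h1
  obtain ⟨a, ha⟩ := (isPrincipal_iff ((Ux * Uf⁻¹ : (FractionalIdeal (𝓞 K)⁰ K)ˣ) :
    FractionalIdeal (𝓞 K)⁰ K)).mp h2
  have hval : ((Ux * Uf⁻¹ : (FractionalIdeal (𝓞 K)⁰ K)ˣ) : FractionalIdeal (𝓞 K)⁰ K)
      = cdnfIdeal K P x * (cdnfIdeal K P f)⁻¹ := by
    rw [Units.val_mul, Units.val_inv_eq_inv_val]
    rfl
  have ha0 : a ≠ 0 := by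
    rintro rfl
    rw [spanSingleton_zero] at ha
    exact (Ux * Uf⁻¹).ne_zero ha
  refine ⟨a, ha0, fun v => ?_⟩
  have hc := congrArg (count K v.1) ha
  rw [hval, count_mul K v.1 (cdnfIdeal_ne_zero K P x) (inv_ne_zero (cdnfIdeal_ne_zero K P f)),
    count_inv, cdnf_count_ideal, cdnf_count_ideal, cdnf_count_spanSingleton K v.1 a ha0] at hc
  unfold ordAt
  linarith

/-- **CD-NF**: `H6.Stmt_CD_NF`. -/
theorem stmt_CD_NF : Stmt_CD_NF := by
  intro K _ _ P
  classical
  let sec : ClassGroup (𝓞 K) → (P →₀ ℤ) := fun c =>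
    if h : ∃ x, cdnfClass K P x = c then h.choose else 0
  have hsec : ∀ x, cdnfClass K P (sec (cdnfClass K P x)) = cdnfClass K P x := by
    intro x
    have h : ∃ y, cdnfClass K P y = cdnfClass K P x := ⟨x, rfl⟩
    simp only [sec, dif_pos h]
    exact h.choose_spec
  refine ⟨Finset.univ.image sec, fun x => ⟨sec (cdnfClass K P x),
    Finset.mem_image_of_mem _ (Finset.mem_univ _), ?_⟩⟩
  obtain ⟨a, ha, hav⟩ := cdnf_of_class_eq K P x (sec (cdnfClass K P x)) (hsec x).symm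
  exact ⟨a, ha, hav⟩

end Main

end Fermat.Agent.S55.CFT.GS.H93

end
end
-- ==== END Fermat.Agent.S55.CFT.GS.H93_CDNF

-- ==== BEGIN Fermat.Agent.S55.CFT.H12_SIindex
section

set_option autoImplicit false
set_option linter.unusedSectionVars false
set_option linter.style.haveILetI false

open NumberField

noncomputable section

namespace Fermat.Agent.S55.CFT.H12

open Fermat.Agent.S55.CFT Fermat.Agent.Lib.SecondIneq

/-- The second inequality (index form), from the two semilocal inputs. -/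
theorem stmt_SIindex_of (hPow : Stmt_SemiLocalPow) (hWA : Stmt_WeakApprox) : Stmt_SIindex := by
  intro p K L _ _ _ _ _ T hadm
  haveI : IsGalois K L := hadm.gal
  have hclK : ClTrivial K T := hadm.cl K
  have hclL : ClTrivial L T := hadm.cl L
  refine index_le_of_overgroups (normGroup K L T) (Module.finrank K L) Module.finrank_pos
    (fun x => ?_) (fun H hNH hH => ?_)
  · -- exponent
    rw [← H56.normLK_base K L T x]
    exact Subgroup.mem_sup_right ⟨_, rfl⟩
  · -- finite quotients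
    haveI : H.FiniteIndex := ⟨hH⟩
    haveI : Finite (IdeleT K T ⧸ H) := Subgroup.finite_quotient_of_finiteIndex
    let f : (IdeleT K T ⧸ normGroup K L T) →* (IdeleT K T ⧸ H) :=
      QuotientGroup.map (normGroup K L T) H (MonoidHom.id _) hNH
    have hf : Function.Surjective f := by
      intro y
      obtain ⟨x, rfl⟩ := QuotientGroup.mk_surjective y
      exact ⟨QuotientGroup.mk x, rfl⟩
    obtain ⟨N, hN⟩ := H31.exists_isRayMap_comp K L T f hPow hWA hclK hf
    have h0 : H31.idealT K T ^ N ≠ ⊥ := by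
      apply pow_ne_zero
      rw [Ne, Ideal.zero_eq_bot, Ideal.span_singleton_eq_bot]
      have hp : (prodT T : ℤ) ≠ 0 := by
        exact_mod_cast prodT_ne_zero T
      exact_mod_cast hp
    have h := H31.stmt_T2m K L (H31.idealT K T ^ N) (IdeleT K T ⧸ H)
      (H31.rayVal hclK (f.comp (H31.dNorm K L T))) ∅ h0 hN
      (fun Q hQ hQn _ _ => by
        haveI := hQ
        exact H31.rayVal_comp_under K L T f hclK hclL Q hQn)
    rw [Subgroup.index_eq_card]
    exact h

/-- The second inequality (index form), from weak approximation alone (SI-a is helper96's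
`H96.stmt_SemiLocalPow`). -/
theorem stmt_SIindex_of_weakApprox (hWA : Stmt_WeakApprox) : Stmt_SIindex :=
  stmt_SIindex_of H96.stmt_SemiLocalPow hWA

/-- **SI''**: the second inequality (index form), unconditional (SI-b is helper20's
`H20.stmt_WeakApprox`). -/
theorem stmt_SIindex : Stmt_SIindex :=
  stmt_SIindex_of H96.stmt_SemiLocalPow H20.stmt_WeakApprox

end Fermat.Agent.S55.CFT.H12

end
end
-- ==== END Fermat.Agent.S55.CFT.H12_SIindex

-- ==== BEGIN Fermat.Agent.S55.CFT.H12_ValCochain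
section

set_option autoImplicit false
set_option linter.unusedSectionVars false
set_option linter.style.haveILetI false

open NumberField TensorProduct IsDedekindDomain CategoryTheory groupCohomology

noncomputable section

namespace Fermat.Agent.S55.CFT.H12

lemma commGroup_aux {M : Type*} [CommGroup M] (a b c a' b' c' : M) :
    a / b * c / (a' / b' * c') = a / a' / (b / b') * (c / c') := by
  simp only [div_eq_mul_inv, mul_inv_rev, inv_inv, mul_comm, mul_left_comm, mul_assoc]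

variable (K L : Type) [Field K] [Field L] [NumberField K] [NumberField L] [Algebra K L]

/-- The diagonal `Lˣ → J_{L,T}` as a morphism of representations. -/
def diagRepL (T : Finset Nat.Primes) : repL K L ⟶ repJ K L T :=
  Rep.ofHom (LinearMap.intertwiningMap_of_isIntertwiningMap _ _
    ((diagIdele L T).toAdditive.toIntLinearMap)
    (fun σ x => congrArg Additive.ofMul (diagIdele_smul K L T σ (Additive.toMul x : Lˣ))))

lemma diagRepL_projRep (T : Finset Nat.Primes) (q : T)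
    (v : MaximalSpectrum (SemiLocal K q.1)) :
    diagRepL K L T ≫ projRep K L T q v = locRep K L ⟨q.1, v⟩ := by
  ext x
  rfl

lemma projMap_diagRepL (T : Finset Nat.Primes) (q : T)
    (v : MaximalSpectrum (SemiLocal K q.1)) (n : ℕ) (x : groupCohomology (repL K L) n) :
    projMap K L T q v n
        (((groupCohomology.functor ℤ (L ≃ₐ[K] L) n).map (diagRepL K L T)).hom x) =
      locMap K L ⟨q.1, v⟩ n x := by
  have h := congrArg (fun f => ((groupCohomology.functor ℤ (L ≃ₐ[K] L) n).map f).hom x)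
    (diagRepL_projRep K L T q v)
  simp only [Functor.map_comp] at h
  exact h

lemma diagQ_smul (q : Nat.Primes) (σ : L ≃ₐ[K] L) (y : Lˣ) :
    diagQ L q (σ • y) = σ • diagQ L q y := by
  apply Units.ext
  change (1 : Qp q) ⊗ₜ[ℚ] (σ y : L) = semiLocalEquiv K L q σ ((1 : Qp q) ⊗ₜ[ℚ] (y : L))
  simp

/-- If `[f] ∈ H²(G, Lˣ)` is locally trivial at all places above `q`, then `1 ⊗ f` is the
coboundary of a cochain with values in `(ℚ_q ⊗ L)ˣ`. -/
theorem exists_cochain_of_loc (q : Nat.Primes) (f : cocycles₂ (repL K L))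
    (hloc : ∀ v : MaximalSpectrum (SemiLocal K q),
      locMap K L ⟨q, v⟩ 2 (H2π (repL K L) f) = 0) :
    ∃ g : (L ≃ₐ[K] L) → (SemiLocal L q)ˣ, ∀ σ τ : L ≃ₐ[K] L,
      diagQ L q (Additive.toMul (f (σ, τ) : Additive Lˣ)) = σ • g τ / g (σ * τ) * g σ := by
  have hSLD := (H80.stmt_SLD K L {q} 2).1
  have hx : ((groupCohomology.functor ℤ (L ≃ₐ[K] L) 2).map (diagRepL K L {q})).hom
      (H2π (repL K L) f) = 0 := by
    apply hSLD
    rintro ⟨q', hq'⟩ v
    have hqq : q' = q := Finset.mem_singleton.mp hq'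
    subst hqq
    rw [projMap_diagRepL]
    exact hloc v
  have key := H2π_comp_map_apply (MonoidHom.id (L ≃ₐ[K] L)) (diagRepL K L {q}) f
  have hx' : H2π (repJ K L {q}) (mapCocycles₂ (MonoidHom.id _) (diagRepL K L {q}) f) = 0 := by
    rw [← key]
    exact hx
  rw [H2π_eq_zero_iff] at hx'
  obtain ⟨u, hu⟩ := hx'
  have hu' : ∀ σ τ : L ≃ₐ[K] L, (repJ K L {q}).ρ σ (u τ) - u (σ * τ) + u σ =
      (diagRepL K L {q}).hom (f (σ, τ)) := fun σ τ => congrFun hu (σ, τ)
  let q₀ : ({q} : Finset Nat.Primes) := ⟨q, Finset.mem_singleton_self q⟩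
  refine ⟨fun σ => (Additive.toMul (u σ : Additive (IdeleT L {q})) : IdeleT L {q}) q₀,
    fun σ τ => ?_⟩
  have h := congrArg
    (fun z : Additive (IdeleT L {q}) => (Additive.toMul z : IdeleT L {q}) q₀) (hu' σ τ)
  exact h.symm

/-- The elements of `Lˣ` which are units at all primes of `L` above `q`. -/
def unitsAt (q : Nat.Primes) : Subgroup Lˣ where
  carrier := {y | ∀ w : HeightOneSpectrum (𝓞 L), ((q : ℕ) : 𝓞 L) ∈ w.asIdeal →
    w.valuation L (y : L) = 1}
  one_mem' := fun w _ => by simp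
  mul_mem' := by
    intro a b ha hb w hw
    rw [Units.val_mul, map_mul, ha w hw, hb w hw, one_mul]
  inv_mem' := by
    intro a ha w hw
    rw [Units.val_inv_eq_inv_val, map_inv₀, ha w hw, inv_one]

lemma mem_unitsAt (q : Nat.Primes) (y : Lˣ) :
    y ∈ unitsAt L q ↔ ∀ w : HeightOneSpectrum (𝓞 L), ((q : ℕ) : 𝓞 L) ∈ w.asIdeal →
      w.valuation L (y : L) = 1 := Iff.rfl

/-- Under `Stmt_LocUnitGroup`: `unitsAt L q` is stable under `Gal(L/K)`, and a cocycle which is
locally trivial above `q` is cohomologous to a cocycle with values in `unitsAt L q`. -/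
theorem exists_cochain_unitsAt (hLV : Stmt_LocUnitGroup) (q : Nat.Primes) :
    (∀ (σ : L ≃ₐ[K] L) (y : Lˣ), y ∈ unitsAt L q → σ • y ∈ unitsAt L q) ∧
    ∀ f : cocycles₂ (repL K L),
      (∀ v : MaximalSpectrum (SemiLocal K q), locMap K L ⟨q, v⟩ 2 (H2π (repL K L) f) = 0) →
      ∃ y : (L ≃ₐ[K] L) → Lˣ, ∀ σ τ : L ≃ₐ[K] L,
        (Additive.toMul (f (σ, τ) : Additive Lˣ) : Lˣ) / (σ • y τ / y (σ * τ) * y σ) ∈
          unitsAt L q := by
  obtain ⟨U, hstab, happ, hiff⟩ := hLV K L q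
  have hmem : ∀ y : Lˣ, y ∈ unitsAt L q ↔ diagQ L q y ∈ U := fun y => (hiff y).symm
  refine ⟨fun σ y hy => ?_, fun f hloc => ?_⟩
  · rw [hmem, diagQ_smul]
    exact hstab σ _ ((hmem y).1 hy)
  · obtain ⟨g, hg⟩ := exists_cochain_of_loc K L q f hloc
    choose y hy using happ
    refine ⟨fun σ => y (g σ), fun σ τ => ?_⟩
    rw [hmem, map_div, hg σ τ, map_mul, map_div, diagQ_smul]
    have h1 : σ • g τ / g (σ * τ) * g σ /
        (σ • diagQ L q (y (g τ)) / diagQ L q (y (g (σ * τ))) * diagQ L q (y (g σ))) =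
        σ • (g τ / diagQ L q (y (g τ))) / (g (σ * τ) / diagQ L q (y (g (σ * τ)))) *
          (g σ / diagQ L q (y (g σ))) := by
      rw [smul_div']
      exact commGroup_aux _ _ _ _ _ _
    rw [h1]
    exact U.mul_mem (U.div_mem (hstab σ _ (hy (g τ))) (hy (g (σ * τ)))) (hy (g σ))

end Fermat.Agent.S55.CFT.H12

end
end
-- ==== END Fermat.Agent.S55.CFT.H12_ValCochain
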