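-- GENERATED (merged mirror, NOTES/tools/trim/merge3_helper67.py): 12 modules of the originals, bodies verbatim.
import Mathlib
import Fermat.Agent.Zm.S56_L07_001
import Fermat.Agent.Zm.S56_L07_000
import Fermat.Agent.Zm.S56_L02_002
import Fermat.Agent.Zm.S56_L03_003
import Fermat.Agent.Zm.S56_L06_000
import Fermat.Agent.Zm.S56_L07_002
import Fermat.Agent.Zm.S56_L04_000
import Fermat.Agent.Zm.S56_L04_002
import Fermat.Agent.Zm.S56_L05_000
import Fermat.Agent.Zm.S56_L01_003
import Fermat.Agent.Zm.S56_L05_001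

-- ==== BEGIN Fermat.Agent.S55.CFT.GS.H24_Loc
section

set_option autoImplicit false
set_option linter.unusedSectionVars false
set_option linter.unusedVariables false
set_option linter.style.haveILetI false

open CategoryTheory Module groupCohomology ExtCitation

noncomputable section

namespace Fermat.Agent.S55.CFT.GS.H24

open Fermat.Agent.S55 Fermat.Agent.S55.Top Fermat.Agent.S55.CFT.GS

local notation "Qb" => AlgebraicClosure ℚ

section res

variable {k : Type} [Field k] {S : Finset Nat.Primes} {K : IntermediateField ℚ Qb}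
  (𝔓 : PlaceSys S K)

/-- If `rl h` fixes a field with normal fixing subgroup then so does `ρ_w h`. -/
theorem rho_mem_of_normal (q : ↥S) (w : 𝔓.W q) {F : IntermediateField ℚ Qb}
    (hN : F.fixingSubgroup.Normal) (s : 𝔓.Γw q w) (hs : 𝔓.rw q w s ∈ F.fixingSubgroup) :
    ((𝔓.ρw q w s : ↥K.fixingSubgroup) : GQ) ∈ F.fixingSubgroup := by
  have h := hN.conj_mem _ hs (𝔓.σ q w)⁻¹
  simpa [PlaceSys.ρw, PlaceSys.rw] using h

theorem isLevelConstant₁_res₁ (q : ↥S) (w : 𝔓.W q) {X : Type*} {f : ↥K.fixingSubgroup → X}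
    (hf : IsLevK₁ S K f) : IsLevelConstant₁ (𝔓.rw q w) (𝔓.res₁ q w f) := by
  obtain ⟨F, hF, h⟩ := hf
  obtain ⟨F', hle, hF', hN⟩ := H48.exists_normal_level S F hF
  refine ⟨F', hF'.1, fun g s hs => ?_⟩
  show f (𝔓.ρw q w (g * s)) = f (𝔓.ρw q w g)
  rw [map_mul]
  exact h _ _ (IntermediateField.fixingSubgroup_antitone hle (rho_mem_of_normal 𝔓 q w hN s hs))

theorem isLevelConstant₂_res₂ (q : ↥S) (w : 𝔓.W q) {X : Type*}
    {f : ↥K.fixingSubgroup × ↥K.fixingSubgroup → X}
    (hf : IsLevK₂ S K f) : IsLevelConstant₂ (𝔓.rw q w) (𝔓.res₂ q w f) := by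
  obtain ⟨F, hF, h⟩ := hf
  obtain ⟨F', hle, hF', hN⟩ := H48.exists_normal_level S F hF
  refine ⟨F', hF'.1, fun g g' s s' hs hs' => ?_⟩
  show f (𝔓.ρw q w (g * s), 𝔓.ρw q w (g' * s')) = f (𝔓.ρw q w g, 𝔓.ρw q w g')
  rw [map_mul, map_mul]
  exact h _ _ _ _
    (IntermediateField.fixingSubgroup_antitone hle (rho_mem_of_normal 𝔓 q w hN s hs))
    (IntermediateField.fixingSubgroup_antitone hle (rho_mem_of_normal 𝔓 q w hN s' hs'))

theorem res₂_tOne (q : ↥S) (w : 𝔓.W q) (f : ↥K.fixingSubgroup → k) :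
    𝔓.res₂ q w (tOne f) = tOne (𝔓.res₁ q w f) := by
  funext ⟨g, h⟩
  simp only [PlaceSys.res₂, PlaceSys.res₁, tOne, map_mul]

theorem tTwo_res₂ (q : ↥S) (w : 𝔓.W q) (a : ↥K.fixingSubgroup × ↥K.fixingSubgroup → k) :
    tTwo (𝔓.res₂ q w a) = 𝔓.res₃ q w (tTwo a) := by
  funext ⟨g, h, j⟩
  simp only [PlaceSys.res₂, PlaceSys.res₃, tTwo, map_mul]

theorem res₂_mem_Z2w (q : ↥S) (w : 𝔓.W q) {a : ↥K.fixingSubgroup × ↥K.fixingSubgroup → k}
    (ha : a ∈ Z2K k S K) : 𝔓.res₂ q w a ∈ Z2w k 𝔓 q w := by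
  refine ⟨?_, isLevelConstant₂_res₂ 𝔓 q w ha.2⟩
  rw [tTwo_res₂, ha.1]
  rfl

theorem res₂_mem_B2w (q : ↥S) (w : 𝔓.W q) {a : ↥K.fixingSubgroup × ↥K.fixingSubgroup → k}
    (ha : a ∈ B2K k S K) : 𝔓.res₂ q w a ∈ B2w k 𝔓 q w := by
  obtain ⟨f, hf, rfl⟩ := ha
  exact ⟨𝔓.res₁ q w f, isLevelConstant₁_res₁ 𝔓 q w hf, (res₂_tOne 𝔓 q w f).symm⟩

theorem res₂_add (q : ↥S) (w : 𝔓.W q) (a a' : ↥K.fixingSubgroup × ↥K.fixingSubgroup → k) :
    𝔓.res₂ q w (a + a') = 𝔓.res₂ q w a + 𝔓.res₂ q w a' := rfl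

theorem res₂_smul (q : ↥S) (w : 𝔓.W q) (c : k)
    (a : ↥K.fixingSubgroup × ↥K.fixingSubgroup → k) :
    𝔓.res₂ q w (c • a) = c • 𝔓.res₂ q w a := rfl

variable (k) in
/-- The locally trivial level-`S` 2-cocycles. -/
def ZL : Submodule k (↥K.fixingSubgroup × ↥K.fixingSubgroup → k) where
  carrier := {a | a ∈ Z2K k S K ∧ ∀ (q : ↥S) (w : 𝔓.W q), 𝔓.res₂ q w a ∈ B2w k 𝔓 q w}
  add_mem' := by
    intro a a' ha ha'
    refine ⟨(Z2K k S K).add_mem ha.1 ha'.1, fun q w => ?_⟩
    rw [res₂_add]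
    exact (B2w k 𝔓 q w).add_mem (ha.2 q w) (ha'.2 q w)
  zero_mem' := ⟨(Z2K k S K).zero_mem, fun q w => (B2w k 𝔓 q w).zero_mem⟩
  smul_mem' := by
    intro c a ha
    refine ⟨(Z2K k S K).smul_mem c ha.1, fun q w => ?_⟩
    rw [res₂_smul]
    exact (B2w k 𝔓 q w).smul_mem c (ha.2 q w)

theorem ZL_le_Z2K : ZL k 𝔓 ≤ Z2K k S K := fun _ ha => ha.1

/-- The coboundary of a level-`S` 1-cochain is of level `S`. -/
theorem isLevK₂_tOne {f : ↥K.fixingSubgroup → k} (hf : IsLevK₁ S K f) :
    IsLevK₂ S K (tOne f) := by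
  obtain ⟨F, hF, h⟩ := hf
  obtain ⟨F', hle, hF', hN⟩ := H48.exists_normal_level S F hF
  have h' : ∀ g s : ↥K.fixingSubgroup, (s : GQ) ∈ F'.fixingSubgroup → f (g * s) = f g :=
    fun g s hs => h g s (IntermediateField.fixingSubgroup_antitone hle hs)
  refine ⟨F', hF', fun g₁ g₂ s₁ s₂ h₁ h₂ => ?_⟩
  simp only [tOne]
  have e : g₁ * s₁ * (g₂ * s₂) = g₁ * g₂ * ((g₂⁻¹ * s₁ * g₂) * s₂) := by group
  have hc : (((g₂⁻¹ * s₁ * g₂) * s₂ : ↥K.fixingSubgroup) : GQ) ∈ F'.fixingSubgroup := by
    have h3 := hN.conj_mem _ h₁ ((g₂ : GQ)⁻¹)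
    have h4 := F'.fixingSubgroup.mul_mem h3 h₂
    simpa using h4
  rw [e, h' _ _ hc, h' _ _ h₁, h' _ _ h₂]

theorem tTwo_tOne (f : ↥K.fixingSubgroup → k) : tTwo (tOne f) = 0 := by
  funext ⟨g, h, j⟩
  simp only [tTwo, tOne, Pi.zero_apply, mul_assoc]
  ring

theorem B2K_le_Z2K : B2K k S K ≤ Z2K k S K := by
  rintro a ⟨f, hf, rfl⟩
  exact ⟨tTwo_tOne f, isLevK₂_tOne hf⟩

theorem B2K_le_ZL : B2K k S K ≤ ZL k 𝔓 := fun a ha =>
  ⟨B2K_le_Z2K ha, fun q w => res₂_mem_B2w 𝔓 q w ha⟩

end res

end Fermat.Agent.S55.CFT.GS.H24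

end

end
-- ==== END Fermat.Agent.S55.CFT.GS.H24_Loc

-- ==== BEGIN Fermat.Agent.S55.CFT.H13_FundCls
section

set_option autoImplicit false
set_option linter.unusedSectionVars false
open NumberField TensorProduct CategoryTheory CategoryTheory.Limits

noncomputable section
namespace Fermat.Agent.S55.CFT.H13

open Fermat.Agent.S55.CFT

section Cls
variable (K L : Type) [Field K] [Field L] [NumberField K] [NumberField L] [Algebra K L]
  (T : Finset Nat.Primes)

theorem idClass_eq_cokerAdd (j : IdeleT L T) :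
    H12.idClass K L T j = H12.cokerAdd (diagRep K L T) (Additive.ofMul j) := rfl

theorem idClass_one : H12.idClass K L T 1 = 0 := by
  rw [idClass_eq_cokerAdd]
  exact map_zero _

theorem idClass_prod {ι : Type*} (s : Finset ι) (f : ι → IdeleT L T) :
    H12.idClass K L T (∏ i ∈ s, f i) = ∑ i ∈ s, H12.idClass K L T (f i) := by
  classical
  induction s using Finset.induction_on with
  | empty => simp [idClass_one]
  | insert a s ha ih => rw [Finset.prod_insert ha, Finset.sum_insert ha, H12.idClass_mul, ih]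

theorem idClass_pow (j : IdeleT L T) (k : ℕ) :
    H12.idClass K L T (j ^ k) = k • H12.idClass K L T j := by
  induction k with
  | zero => simp [idClass_one]
  | succ k ih => rw [pow_succ, H12.idClass_mul, ih, succ_nsmul]

end Cls

section TowerCls
variable (K F N : Type) [Field K] [Field F] [Field N] [NumberField K] [NumberField F]
  [NumberField N] [Algebra K F] [Algebra F N] [Algebra K N] [IsScalarTower K F N]
  (T : Finset Nat.Primes)

theorem idClass_eq_iff_tower (j j' : IdeleT N T) :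
    H12.idClass K N T j = H12.idClass K N T j' ↔ H12.idClass F N T j = H12.idClass F N T j' := by
  rw [H12.idClass_eq_iff, H12.idClass_eq_iff]

/-- `(C_N)^{Gal(N/F)}` is the image of `J_F`. -/
theorem exists_base_of_kerRes_invariant [Normal K F] [IsGalois F N]
    (hunr : UnramifiedOutsideT F N T) (hcl : ClTrivial F T) (hT : T.Nonempty)
    (b : (repC K N T).V) (hb : ∀ s ∈ kerRes K F N, (repC K N T).ρ s b = b) :
    ∃ w : IdeleT F T, H12.idClass K N T (baseIdele F N T w) = b := by
  obtain ⟨j, rfl⟩ := H12.idClass_surjective K N T b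
  have hj : ∀ σ : N ≃ₐ[F] N, H12.idClass F N T (σ • j) = H12.idClass F N T j := by
    intro σ
    rw [← idClass_eq_iff_tower K F N T, ← smul_restrictScalars K F N T, H12.idClass_smul]
    exact hb _ (restrictScalars_mem_kerRes K F N σ)
  obtain ⟨x, hx⟩ := H12.exists_base_of_idClass_invariant F N T hunr hcl hT j hj
  exact ⟨x, (idClass_eq_iff_tower K F N T _ _).2 hx⟩

/-- Injectivity of `C_F → C_N`, on ideles. -/
theorem exists_diag_of_base_eq_diag [IsGalois F N] (hT : T.Nonempty) (w : IdeleT F T)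
    (e : TUnits N T) (he : diagIdele N T (e : Nˣ) = baseIdele F N T w) :
    ∃ e' : TUnits F T, w = diagIdele F T (e' : Fˣ) := by
  have hinj := H12.diagIdele_injective N T hT
  have hinv : ∀ σ : N ≃ₐ[F] N, σ • e = e := by
    intro σ
    apply Subtype.ext
    apply hinj
    change diagIdele N T (σ • (e : Nˣ)) = diagIdele N T (e : Nˣ)
    rw [diagIdele_smul F N T, he, H12.smul_baseIdele]
  obtain ⟨e', he'⟩ := H12.exists_iotaT_of_invariant F N T e hinv
  refine ⟨e', ?_⟩
  apply H12.baseIdele_injective F N T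
  rw [← he, H12.baseIdele_diagIdele, ← he']
  rfl

theorem idClass_base_eq_zero [IsGalois F N] (hT : T.Nonempty) (w : IdeleT F T)
    (h : H12.idClass K N T (baseIdele F N T w) = 0) :
    ∃ e' : TUnits F T, w = diagIdele F T (e' : Fˣ) := by
  obtain ⟨e, he⟩ := H12.idClass_eq_zero K N T _ h
  exact exists_diag_of_base_eq_diag F N T hT w e he

end TowerCls

section TowerSum
variable (K F N : Type) [Field K] [Field F] [Field N] [NumberField K] [NumberField F]
  [NumberField N] [Algebra K F] [Algebra F N] [Algebra K N] [IsScalarTower K F N]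
  (T : Finset Nat.Primes)

theorem coe_quot_ρ_idClass [IsGalois K F]
    (w : IdeleT F T) (b : ((repC K N T).quotientToInvariants (kerRes K F N)).V)
    (hb : (b : (repC K N T).V) = H12.idClass K N T (baseIdele F N T w))
    (x : (N ≃ₐ[K] N) ⧸ kerRes K F N) [IsGalois K N] :
    ((((repC K N T).quotientToInvariants (kerRes K F N)).ρ x b :
        ((repC K N T).quotientToInvariants (kerRes K F N)).V) : (repC K N T).V) =
      H12.idClass K N T (baseIdele F N T ((quotKerRes K F N x) • w)) := by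
  induction x using QuotientGroup.induction_on with
  | H σ =>
    rw [quotKerRes_mk]
    change (repC K N T).ρ σ (b : (repC K N T).V) = _
    rw [hb, ← H12.idClass_smul, smul_baseIdele_tower]

theorem coe_sum_quot_idClass [IsGalois K F] [IsGalois K N]
    [Fintype ((N ≃ₐ[K] N) ⧸ kerRes K F N)]
    (w : IdeleT F T) (b : ((repC K N T).quotientToInvariants (kerRes K F N)).V)
    (hb : (b : (repC K N T).V) = H12.idClass K N T (baseIdele F N T w)) :
    ((∑ x : (N ≃ₐ[K] N) ⧸ kerRes K F N, ((repC K N T).quotientToInvariants (kerRes K F N)).ρ x b :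
        ((repC K N T).quotientToInvariants (kerRes K F N)).V) : (repC K N T).V) =
      H12.idClass K N T (baseIdele K N T (normLK K F T w)) := by
  classical
  rw [← H56.base_base K F N T, H12.baseIdele_normLK K F T w, map_prod, idClass_prod]
  rw [AddSubmonoidClass.coe_finsetSum]
  refine Fintype.sum_equiv (quotKerRes K F N).toEquiv _ _ (fun x => ?_)
  exact coe_quot_ρ_idClass K F N T w b hb x

end TowerSum

end Fermat.Agent.S55.CFT.H13

end
end
-- ==== END Fermat.Agent.S55.CFT.H13_FundCls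

-- ==== BEGIN Fermat.Agent.S55.CFT.H19_Cyc
section

set_option autoImplicit false
set_option linter.unusedSectionVars false
set_option linter.unusedVariables false
set_option linter.style.haveILetI false

open NumberField TensorProduct CategoryTheory

noncomputable section

namespace Fermat.Agent.S55.CFT.H19

open Fermat.Agent.S55.CFT Fermat.Agent.S55.CFT.H13

variable (K L : Type) [Field K] [Field L] [NumberField K] [NumberField L] [Algebra K L]

theorem repL_invariant (a : Kˣ) (g : L ≃ₐ[K] L) :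
    (repL K L).ρ g (Additive.ofMul (Units.map (algebraMap K L : K →* L) a)) =
      Additive.ofMul (Units.map (algebraMap K L : K →* L) a) := by
  apply congrArg Additive.ofMul
  apply Units.ext
  exact g.commutes (a : K)

theorem repJv_invariant (v : Place K) (β : (LocAlg K K v)ˣ) (g : L ≃ₐ[K] L) :
    (repJv K L v).ρ g
        (Additive.ofMul (Units.map (locAlgTower K K L v : LocAlg K K v →* LocAlg K L v) β)) =
      Additive.ofMul (Units.map (locAlgTower K K L v : LocAlg K K v →* LocAlg K L v) β) :=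
  congrArg Additive.ofMul (smul_units_locAlgTower K L v g β)

theorem locHom_algebraMap (v : Place K) (a : Kˣ) :
    locHom K L v (Units.map (algebraMap K L : K →* L) a) =
      Units.map (locAlgTower K K L v : LocAlg K K v →* LocAlg K L v) (locHom K K v a) := by
  apply Units.ext
  show Ideal.Quotient.mk _ ((1 : Qp v.1) ⊗ₜ[ℚ] (algebraMap K L (a : K))) =
    locAlgTower K K L v (Ideal.Quotient.mk _ ((1 : Qp v.1) ⊗ₜ[ℚ] (a : K)))
  rw [locAlgTower_mk]
  simp [semiLocalMap]

theorem repJv_sum_ρ [Fintype (L ≃ₐ[K] L)] (v : Place K) (y : (LocAlg K L v)ˣ) :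
    ∑ x : L ≃ₐ[K] L, (repJv K L v).ρ x (Additive.ofMul y) =
      Additive.ofMul (∏ x : L ≃ₐ[K] L, x • y) := by
  rw [ofMul_prod]
  rfl

/-- **CYC-CLASS**. -/
theorem stmt_CycClass : Stmt_CycClass := by
  intro K L _ _ _ _ _ hgal hcyc
  classical
  haveI : FiniteDimensional K L := Module.Finite.of_restrictScalars_finite ℚ K L
  haveI : Finite (L ≃ₐ[K] L) := inferInstance
  letI : Fintype (L ≃ₐ[K] L) := Fintype.ofFinite _
  obtain ⟨σ, hσ⟩ := hcyc.exists_generator
  obtain ⟨e, he⟩ := exists_dlog σ hσ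
  refine ⟨fun a => cycCl (repL K L) he
      (Additive.ofMul (Units.map (algebraMap K L : K →* L) a)) (repL_invariant K L a),
    fun v β => cycCl (repJv K L v) he
      (Additive.ofMul (Units.map (locAlgTower K K L v : LocAlg K K v →* LocAlg K L v) β))
      (repJv_invariant K L v β), ?_, ?_, ?_, ?_⟩
  · intro a b
    have hab : ∀ g, (repL K L).ρ g
        (Additive.ofMul (Units.map (algebraMap K L : K →* L) a) +
          Additive.ofMul (Units.map (algebraMap K L : K →* L) b)) =
        Additive.ofMul (Units.map (algebraMap K L : K →* L) a) +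
          Additive.ofMul (Units.map (algebraMap K L : K →* L) b) := by
      intro g
      have := repL_invariant K L (a * b) g
      rw [map_mul] at this
      exact this
    refine (cycCl_congr (repL K L) he _ _ _ hab ?_).trans
      (cycCl_add (repL K L) he _ _ (repL_invariant K L a) (repL_invariant K L b) hab)
    rw [map_mul]
    rfl
  · intro x
    obtain ⟨a, ha, rfl⟩ := exists_cycCl (repL K L) he x
    obtain ⟨a', ha'⟩ := exists_unit_of_invariant K L (Additive.toMul a : Lˣ)
      (fun τ => congrArg Additive.toMul (ha τ))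
    refine ⟨a', ?_⟩
    exact cycCl_congr (repL K L) he _ _ _ _ (congrArg Additive.ofMul ha')
  · intro v
    refine ⟨?_, ?_, ?_⟩
    · intro a b
      have hab : ∀ g, (repJv K L v).ρ g
          (Additive.ofMul (Units.map (locAlgTower K K L v : LocAlg K K v →* LocAlg K L v) a) +
            Additive.ofMul (Units.map (locAlgTower K K L v : LocAlg K K v →* LocAlg K L v) b)) =
          Additive.ofMul (Units.map (locAlgTower K K L v : LocAlg K K v →* LocAlg K L v) a) +
            Additive.ofMul (Units.map (locAlgTower K K L v : LocAlg K K v →* LocAlg K L v) b) := by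
        intro g
        have := repJv_invariant K L v (a * b) g
        rw [map_mul] at this
        exact this
      refine (cycCl_congr (repJv K L v) he _ _ _ hab ?_).trans
        (cycCl_add (repJv K L v) he _ _ (repJv_invariant K L v a) (repJv_invariant K L v b) hab)
      rw [map_mul]
      rfl
    · intro x
      obtain ⟨a, ha, rfl⟩ := exists_cycCl (repJv K L v) he x
      obtain ⟨a', ha'⟩ := exists_unit_of_invariant_locAlg K L v
        (Additive.toMul a : (LocAlg K L v)ˣ) (fun τ => congrArg Additive.toMul (ha τ))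
      refine ⟨a', ?_⟩
      exact cycCl_congr (repJv K L v) he _ _ _ _ (congrArg Additive.ofMul ha')
    · intro β
      refine (cycCl_eq_zero_iff (repJv K L v) he _ _).trans ?_
      unfold IsLocNorm
      constructor
      · rintro ⟨b, hb⟩
        refine ⟨Additive.toMul b, ?_⟩
        rw [finprod_eq_prod_of_fintype]
        have h1 := repJv_sum_ρ K L v (Additive.toMul b : (LocAlg K L v)ˣ)
        exact (congrArg Additive.toMul (hb.trans h1)).symm
      · rintro ⟨y, hy⟩
        refine ⟨Additive.ofMul y, ?_⟩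
        rw [finprod_eq_prod_of_fintype] at hy
        rw [repJv_sum_ρ K L v y, hy]
        rfl
  · intro v a
    show (groupCohomology.map (MonoidHom.id (L ≃ₐ[K] L)) (locRep K L v) 2).hom
      (cycCl (repL K L) he _ _) = cycCl (repJv K L v) he _ _
    refine (map_cycCl (repJv K L v) (repL K L) (locRep K L v) he _ _
      (fun g => by
        have := repJv_invariant K L v (locHom K K v a) g
        rw [← locHom_algebraMap] at this
        exact this)).trans ?_
    exact cycCl_congr (repJv K L v) he _ _ _ _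
      (congrArg Additive.ofMul (locHom_algebraMap K L v a))

end Fermat.Agent.S55.CFT.H19

end
end
-- ==== END Fermat.Agent.S55.CFT.H19_Cyc

-- ==== BEGIN Fermat.Agent.S55.CFT.H19_FIFinal
section

set_option autoImplicit false

namespace Fermat.Agent.S55.CFT.H19

theorem stmt_FI_of_JCyclic (hJC : Stmt_JCyclic) : Stmt_FI :=
  stmt_FI_of hJC Fermat.Agent.S55.CFT.H12.stmt_EHerbrand Fermat.Agent.S55.CFT.H80.stmt_Places

theorem stmt_SIidelic_of_SIindex (hSI : Stmt_SIindex) : Stmt_SIidelic :=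
  stmt_SIidelic_of Fermat.Agent.S55.CFT.H12.stmt_H2Index hSI

theorem stmt_CFcyc_of_leaves (hJC : Stmt_JCyclic) (hSI : Stmt_SIindex) : Stmt_CFcyc :=
  stmt_CFcyc_of (stmt_FI_of_JCyclic hJC) (stmt_SIidelic_of_SIindex hSI)

end Fermat.Agent.S55.CFT.H19

end
-- ==== END Fermat.Agent.S55.CFT.H19_FIFinal

-- ==== BEGIN Fermat.Agent.S55.CFT.H20_LocSplit
section

/-!
# S55/E4 wave 3, leaf LSP (helper20): a local class of order `p` is split by a local degree
divisible by `p`

`stmt_LocSplit_of : Stmt_SHL → Stmt_InfJvInj → Stmt_LocSplit`.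

Route: `X = H²(Gal(N/K), (K_v ⊗ N)ˣ)` is finite cyclic (SHL); the inflation from `L` is injective
(InfJvInj) with source of order `d` = the local degree of `L/K` at `v`, divisible by `p`; so the
local component `b` of `x` (killed by `p`) is an inflation `inf b'`.  On cocycles: the restriction
to `Gal(N/L)` of an inflated cocycle is constant, with value fixed by `Gal(N/L)`, hence a
coboundary; and the `u`-component of `res x` is the image of `res (loc_v x)` under the projection
`K_v ⊗_K N → L_u ⊗_L N`.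
-/

set_option autoImplicit false
set_option linter.unusedSectionVars false

open NumberField TensorProduct CategoryTheory

noncomputable section

namespace Fermat.Agent.S55.CFT.H20

open CategoryTheory groupCohomology Rep

section tower

variable (K L N : Type) [Field K] [Field L] [Field N] [NumberField K] [NumberField L]
  [NumberField N] [Algebra K L] [Algebra K N] [Algebra L N] [IsScalarTower K L N]

/-- `𝔪_v (ℚ_q ⊗ N) ⊆ 𝔪_u (ℚ_q ⊗ N)` for `u ∣ v`. -/
lemma placeIdeal_le_of_over (q : Nat.Primes) (v : MaximalSpectrum (SemiLocal K q))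
    (u : MaximalSpectrum (SemiLocal L q))
    (huv : u.asIdeal.comap (semiLocalMap K L q) = v.asIdeal) :
    placeIdeal K N ⟨q, v⟩ ≤ placeIdeal L N ⟨q, u⟩ := by
  unfold placeIdeal
  rw [Ideal.map_le_iff_le_comap]
  intro x hx
  rw [Ideal.mem_comap]
  have h1 : semiLocalMap K N q x = semiLocalMap L N q (semiLocalMap K L q x) :=
    (semiLocalMap_comp K L N q x).symm
  change semiLocalMap K N q x ∈ _
  rw [h1]
  apply Ideal.mem_map_of_mem
  have h2 : x ∈ u.asIdeal.comap (semiLocalMap K L q) := by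
    rw [huv]
    exact hx
  exact h2

/-- The projection `K_v ⊗_K N → L_u ⊗_L N` for `u ∣ v`. -/
def locProj (q : Nat.Primes) (v : MaximalSpectrum (SemiLocal K q))
    (u : MaximalSpectrum (SemiLocal L q))
    (huv : u.asIdeal.comap (semiLocalMap K L q) = v.asIdeal) :
    LocAlg K N ⟨q, v⟩ →+* LocAlg L N ⟨q, u⟩ :=
  Ideal.Quotient.factor (placeIdeal_le_of_over K L N q v u huv)

lemma locProj_mk (q : Nat.Primes) (v : MaximalSpectrum (SemiLocal K q))
    (u : MaximalSpectrum (SemiLocal L q))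
    (huv : u.asIdeal.comap (semiLocalMap K L q) = v.asIdeal) (x : SemiLocal N q) :
    locProj K L N q v u huv (Ideal.Quotient.mk _ x) = Ideal.Quotient.mk _ x := rfl

lemma semiLocalEquiv_galRes (q : Nat.Primes) (s : N ≃ₐ[L] N) (x : SemiLocal N q) :
    semiLocalEquiv K N q (galRes K L N s) x = semiLocalEquiv L N q s x := by
  induction x using TensorProduct.induction_on with
  | zero => simp
  | tmul a b => simp
  | add a b ha hb => simp only [map_add, ha, hb]

/-- The projection is `Gal(N/L)`-equivariant. -/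
lemma locProj_smul (q : Nat.Primes) (v : MaximalSpectrum (SemiLocal K q))
    (u : MaximalSpectrum (SemiLocal L q))
    (huv : u.asIdeal.comap (semiLocalMap K L q) = v.asIdeal) (s : N ≃ₐ[L] N)
    (z : LocAlg K N ⟨q, v⟩) :
    locProj K L N q v u huv (locAlgMap K N ⟨q, v⟩ (galRes K L N s) z) =
      locAlgMap L N ⟨q, u⟩ s (locProj K L N q v u huv z) := by
  obtain ⟨y, rfl⟩ := Ideal.Quotient.mk_surjective z
  rw [locAlgMap_mk, locProj_mk, locProj_mk, locAlgMap_mk, semiLocalEquiv_galRes]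

/-- The projection on units. -/
def locProjU (q : Nat.Primes) (v : MaximalSpectrum (SemiLocal K q))
    (u : MaximalSpectrum (SemiLocal L q))
    (huv : u.asIdeal.comap (semiLocalMap K L q) = v.asIdeal) :
    (LocAlg K N ⟨q, v⟩)ˣ →* (LocAlg L N ⟨q, u⟩)ˣ :=
  Units.map (locProj K L N q v u huv : LocAlg K N ⟨q, v⟩ →* LocAlg L N ⟨q, u⟩)

lemma locProjU_smul (q : Nat.Primes) (v : MaximalSpectrum (SemiLocal K q))
    (u : MaximalSpectrum (SemiLocal L q))
    (huv : u.asIdeal.comap (semiLocalMap K L q) = v.asIdeal) (s : N ≃ₐ[L] N)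
    (z : (LocAlg K N ⟨q, v⟩)ˣ) :
    locProjU K L N q v u huv
        (Units.map (locAlgMap K N ⟨q, v⟩ (galRes K L N s) :
          LocAlg K N ⟨q, v⟩ →* LocAlg K N ⟨q, v⟩) z) =
      Units.map (locAlgMap L N ⟨q, u⟩ s : LocAlg L N ⟨q, u⟩ →* LocAlg L N ⟨q, u⟩)
        (locProjU K L N q v u huv z) :=
  Units.ext (locProj_smul K L N q v u huv s (z : LocAlg K N ⟨q, v⟩))

lemma locProjU_locHom (q : Nat.Primes) (v : MaximalSpectrum (SemiLocal K q))
    (u : MaximalSpectrum (SemiLocal L q))
    (huv : u.asIdeal.comap (semiLocalMap K L q) = v.asIdeal) (a : Nˣ) :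
    locProjU K L N q v u huv (locHom K N ⟨q, v⟩ a) = locHom L N ⟨q, u⟩ a :=
  Units.ext rfl

variable [Normal K L]

/-- Elements coming from `K_v ⊗_K L` are fixed by `Gal(N/L)`. -/
lemma galRes_smul_locAlgTower (v : Place K) (s : N ≃ₐ[L] N) (a : (LocAlg K L v)ˣ) :
    galRes K L N s • Units.map (locAlgTower K L N v : LocAlg K L v →* LocAlg K N v) a =
      Units.map (locAlgTower K L N v : LocAlg K L v →* LocAlg K N v) a := by
  apply Units.ext
  have h := locAlgTower_smul K L N v (galRes K L N s) (a : LocAlg K L v)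
  have h1 : AlgEquiv.restrictNormalHom (F := K) (K₁ := N) L (galRes K L N s) = 1 :=
    H72.restrictNormalHom_restrictScalars K L N s
  rw [h1, one_smul] at h
  exact h.symm

/-- The projection on units, additively. -/
def locProjA (q : Nat.Primes) (v : MaximalSpectrum (SemiLocal K q))
    (u : MaximalSpectrum (SemiLocal L q))
    (huv : u.asIdeal.comap (semiLocalMap K L q) = v.asIdeal) :
    (repJv K N ⟨q, v⟩) →+ (repJv L N ⟨q, u⟩) :=
  (locProjU K L N q v u huv).toAdditive

lemma locProjA_rho (q : Nat.Primes) (v : MaximalSpectrum (SemiLocal K q))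
    (u : MaximalSpectrum (SemiLocal L q))
    (huv : u.asIdeal.comap (semiLocalMap K L q) = v.asIdeal) (s : N ≃ₐ[L] N)
    (w : repJv K N ⟨q, v⟩) :
    locProjA K L N q v u huv ((repJv K N ⟨q, v⟩).ρ (galRes K L N s) w) =
      (repJv L N ⟨q, u⟩).ρ s (locProjA K L N q v u huv w) :=
  congrArg Additive.ofMul (locProjU_smul K L N q v u huv s (Additive.toMul w))

lemma locProjA_loc (q : Nat.Primes) (v : MaximalSpectrum (SemiLocal K q))
    (u : MaximalSpectrum (SemiLocal L q))
    (huv : u.asIdeal.comap (semiLocalMap K L q) = v.asIdeal) (a : repL K N) :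
    locProjA K L N q v u huv ((locRep K N ⟨q, v⟩).hom a) =
      (locRep L N ⟨q, u⟩).hom ((resRepL K L N).hom a) :=
  congrArg Additive.ofMul (locProjU_locHom K L N q v u huv (Additive.toMul a))

lemma rho_galRes_inf (v : Place K) (s : N ≃ₐ[L] N) (a : repJv K L v) :
    (repJv K N v).ρ (galRes K L N s) ((infRepJv K L N v).hom a) = (infRepJv K L N v).hom a :=
  congrArg Additive.ofMul (galRes_smul_locAlgTower K L N v s (Additive.toMul a))

lemma aux_abel2 {X : Type} [AddCommGroup X] (Pa R A B C Lf : X)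
    (h : A - B + C = Pa - Lf) (hR : R = Pa) :
    (R - A) - (Pa - B) + (Pa - C) = Lf := by
  rw [hR]
  have : Lf = Pa - (A - B + C) := by rw [h]; abel
  rw [this]
  abel

theorem locMap_eq_map (v : Place K) :
    locMap K N v 2 = (groupCohomology.map (MonoidHom.id (N ≃ₐ[K] N)) (locRep K N v) 2).hom := rfl

theorem locMap_H2π (v : Place K) (f : cocycles₂ (repL K N)) :
    locMap K N v 2 (H2π (repL K N) f) =
      H2π (repJv K N v) (mapCocycles₂ (MonoidHom.id (N ≃ₐ[K] N)) (locRep K N v) f) := by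
  rw [locMap_eq_map]
  exact H2π_comp_map_apply (A := repL K N) (B := repJv K N v) (MonoidHom.id (N ≃ₐ[K] N))
    (locRep K N v) f

/-- The cocycle-level core of LSP. -/
theorem locSplit_core (q : Nat.Primes) (v : MaximalSpectrum (SemiLocal K q))
    (u : MaximalSpectrum (SemiLocal L q))
    (huv : u.asIdeal.comap (semiLocalMap K L q) = v.asIdeal)
    (x : groupCohomology (repL K N) 2) (b' : groupCohomology (repJv K L ⟨q, v⟩) 2)
    (h : infJv K L N ⟨q, v⟩ 2 b' = locMap K N ⟨q, v⟩ 2 x) :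
    locMap L N ⟨q, u⟩ 2 (resL K L N 2 x) = 0 := by
  classical
  induction x using H2_induction_on with | @h f =>
  induction b' using H2_induction_on with | @h c =>
  let π : (N ≃ₐ[K] N) →* (L ≃ₐ[K] L) := AlgEquiv.restrictNormalHom (F := K) (K₁ := N) L
  have e1 : infJv K L N ⟨q, v⟩ 2 (H2π _ c) =
      H2π _ (mapCocycles₂ π (infRepJv K L N ⟨q, v⟩) c) :=
    H2π_comp_map_apply (A := repJv K L ⟨q, v⟩) (B := repJv K N ⟨q, v⟩) π
      (infRepJv K L N ⟨q, v⟩) c
  have e2 : locMap K N ⟨q, v⟩ 2 (H2π _ f) =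
      H2π _ (mapCocycles₂ (MonoidHom.id _) (locRep K N ⟨q, v⟩) f) :=
    locMap_H2π K N ⟨q, v⟩ f
  rw [e1, e2, H2π_eq_iff] at h
  obtain ⟨y, hy⟩ := h
  have hy' : ∀ g g' : N ≃ₐ[K] N,
      (repJv K N ⟨q, v⟩).ρ g (y g') - y (g * g') + y g =
        (infRepJv K L N ⟨q, v⟩).hom (c (π g, π g')) - (locRep K N ⟨q, v⟩).hom (f (g, g')) :=
    fun g g' => congrFun hy (g, g')
  have e3 : resL K L N 2 (H2π _ f) =
      H2π _ (mapCocycles₂ (galRes K L N) (resRepL K L N) f) :=
    H2π_comp_map_apply (A := repL K N) (B := repL L N) (galRes K L N) (resRepL K L N) f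
  rw [e3]
  have e4 : locMap L N ⟨q, u⟩ 2
      (H2π _ (mapCocycles₂ (galRes K L N) (resRepL K L N) f)) =
      H2π _ (mapCocycles₂ (MonoidHom.id _) (locRep L N ⟨q, u⟩)
        (mapCocycles₂ (galRes K L N) (resRepL K L N) f)) :=
    locMap_H2π L N ⟨q, u⟩ _
  rw [e4, H2π_eq_zero_iff]
  let P := locProjA K L N q v u huv
  let a₀ : repJv K N ⟨q, v⟩ := (infRepJv K L N ⟨q, v⟩).hom (c (1, 1))
  refine ⟨fun s => P a₀ - P (y (galRes K L N s)), ?_⟩
  funext ⟨s, t⟩
  have h1 := hy' (galRes K L N s) (galRes K L N t)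
  have hπs : π (galRes K L N s) = 1 := H72.restrictNormalHom_restrictScalars K L N s
  have hπt : π (galRes K L N t) = 1 := H72.restrictNormalHom_restrictScalars K L N t
  rw [hπs, hπt] at h1
  have h2 := congrArg P h1
  rw [map_sub, map_add, map_sub, locProjA_rho, locProjA_loc, ← map_mul] at h2
  have h3 : (repJv L N ⟨q, u⟩).ρ s (P a₀) = P a₀ := by
    rw [← locProjA_rho, rho_galRes_inf]
  show (repJv L N ⟨q, u⟩).ρ s (P a₀ - P (y (galRes K L N t)))
      - (P a₀ - P (y (galRes K L N (s * t)))) + (P a₀ - P (y (galRes K L N s))) = _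
  rw [map_sub]
  exact aux_abel2 _ _ _ _ _ _ h2 h3

end tower

/-- **LSP**: a local class killed by `p` dies under restriction to `L ⊆ N` when `p` divides the
local degree of `L/K` at `v`. -/
theorem stmt_LocSplit_of (hS : Stmt_SHL) (hI : Stmt_InfJvInj) : Stmt_LocSplit := by
  intro p m K L N _ _ _ _ _ _ _ _ _ _ hyp hKL q v u huv hdiv x hx
  have hN : IsGalois K N := hyp.gal
  have hnormal : Normal K L := hKL.to_normal
  obtain ⟨-, hfinX, -, hcycX, -⟩ := hS p m K N hyp ⟨q, v⟩
  -- `Hyp3` for `L`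
  have hdvd : Module.finrank K L ∣ p ^ m := by
    rw [← hyp.deg, ← Module.finrank_mul_finrank K L N]
    exact dvd_mul_right _ _
  obtain ⟨m', -, hm'⟩ := (Nat.dvd_prime_pow hyp.prime).1 hdvd
  have hyp' : Hyp3 K L p m' := ⟨hyp.prime, hyp.odd, hyp.zeta, hKL, hm'⟩
  obtain ⟨-, hfinY, hcardY, -, -⟩ := hS p m' K L hyp' ⟨q, v⟩
  -- `p` divides the order of `H²` at `L`
  have hpos : 0 < Module.finrank K L := Module.finrank_pos
  have hg0 : Nat.card (MaximalSpectrum (LocAlg K L ⟨q, v⟩)) ≠ 0 := by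
    intro h0
    rw [h0, mul_zero] at hcardY
    exact hpos.ne hcardY
  have hpd : p ∣ Nat.card (groupCohomology (repJv K L ⟨q, v⟩) 2) := by
    rw [← hcardY] at hdiv
    exact Nat.dvd_of_mul_dvd_mul_right (Nat.pos_of_ne_zero hg0) hdiv
  have hkill : Nat.card (groupCohomology (repJv K L ⟨q, v⟩) 2) • locMap K N ⟨q, v⟩ 2 x = 0 := by
    obtain ⟨e, he⟩ := hpd
    rw [he, mul_comm, mul_smul, hx, smul_zero]
  obtain ⟨b', hb'⟩ := H72.mem_range_of_card_nsmul_eq_zero hcycX
    (infJv K L N ⟨q, v⟩ 2).toAddMonoidHom (hI K L N hKL hN ⟨q, v⟩) _ hkill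
  exact locSplit_core K L N q v u huv x b' hb'

end Fermat.Agent.S55.CFT.H20

end
end
-- ==== END Fermat.Agent.S55.CFT.H20_LocSplit

-- ==== BEGIN Fermat.Agent.S55.CFT.H25_ThetaQ
section

set_option autoImplicit false
set_option linter.unusedSectionVars false
set_option linter.style.haveILetI false

namespace Fermat.Agent.S55.CFT.H25

open Fermat.Agent.S55.CFT.LOC Fermat.Agent.S55.CFT.LOC.H25

section orbit

variable {G : Type*} [Group G] [Fintype G]

/-- A function on a finite group which is invariant under right multiplication by `s` has a sum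
divisible by the order of `s`. -/
theorem orderOf_dvd_sum (s : G) (k : G → ℤ) (hk : ∀ σ, k (σ * s) = k σ) :
    (orderOf s : ℤ) ∣ ∑ σ, k σ := by
  classical
  let H : Subgroup G := Subgroup.zpowers s
  have hkz : ∀ (j : ℤ) (σ : G), k (σ * s ^ j) = k σ := by
    intro j
    induction j using Int.induction_on with
    | zero => intro σ; simp
    | succ j ih =>
      intro σ
      rw [zpow_add, zpow_one, ← mul_assoc, hk, ih]
    | pred j ih =>
      intro σ
      rw [zpow_sub, zpow_one, ← mul_assoc]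
      have := hk (σ * s ^ (-(j : ℤ)) * s⁻¹)
      rw [inv_mul_cancel_right] at this
      rw [← this, ih]
  have hkH : ∀ σ : G, ∀ h ∈ H, k (σ * h) = k σ := by
    intro σ h hh
    obtain ⟨j, rfl⟩ := Subgroup.mem_zpowers_iff.mp hh
    exact hkz j σ
  let e : (G ⧸ H) × H → G := fun x => Quotient.out x.1 * (x.2 : G)
  have hmk : ∀ x : (G ⧸ H) × H, ((e x : G) : G ⧸ H) = x.1 := by
    intro x
    have h1 : ((Quotient.out x.1 * (x.2 : G) : G) : G ⧸ H) = ((Quotient.out x.1 : G) : G ⧸ H) := by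
      rw [QuotientGroup.eq]
      simp
    change ((Quotient.out x.1 * (x.2 : G) : G) : G ⧸ H) = x.1
    rw [h1]
    exact Quotient.out_eq' x.1
  have hinj : Function.Injective e := by
    intro x y hxy
    have h1 : x.1 = y.1 := by rw [← hmk x, ← hmk y, hxy]
    have h2 : (x.2 : G) = y.2 := by
      have : Quotient.out x.1 * (x.2 : G) = Quotient.out y.1 * (y.2 : G) := hxy
      rw [h1] at this
      exact mul_left_cancel this
    exact Prod.ext h1 (Subtype.ext h2)
  have hcard : Fintype.card ((G ⧸ H) × H) = Fintype.card G := by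
    rw [Fintype.card_prod, ← Nat.card_eq_fintype_card, ← Nat.card_eq_fintype_card,
      ← Nat.card_eq_fintype_card]
    exact (Subgroup.card_eq_card_quotient_mul_card_subgroup H).symm
  have hbij : Function.Bijective e :=
    (Fintype.bijective_iff_injective_and_card e).mpr ⟨hinj, hcard⟩
  have hsum : ∑ σ, k σ = ∑ x : (G ⧸ H) × H, k (e x) :=
    (Fintype.sum_bijective e hbij _ _ (fun _ => rfl)).symm
  rw [hsum, Fintype.sum_prod_type]
  have h3 : ∀ c : G ⧸ H, ∑ h : H, k (e (c, h)) = (orderOf s : ℤ) * k (Quotient.out c) := by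
    intro c
    have : ∀ h : H, k (e (c, h)) = k (Quotient.out c) := fun h => hkH _ _ h.2
    rw [Finset.sum_congr rfl (fun h _ => this h), Finset.sum_const, Finset.card_univ,
      Fintype.card_zpowers, nsmul_eq_mul]
  rw [Finset.sum_congr rfl (fun c _ => h3 c), ← Finset.mul_sum]
  exact dvd_mul_right _ _

end orbit

section local_q

variable (q : ℕ) [Fact q.Prime] (E : Type) [Field E] [Algebra ℚ_[q] E]
  [FiniteDimensional ℚ_[q] E]

variable {B : Type*} [CommRing B] [Algebra ℚ_[q] B]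
  {G : Type*} [Group G] [Fintype G] (φ : G → (B →+* B))
  (hprod : ∀ y : B, algebraMap ℚ_[q] B (Algebra.norm ℚ_[q] y) = ∏ σ, φ σ y)
  (lam : B →ₐ[ℚ_[q]] E) (τ : E ≃ₐ[ℚ_[q]] E) (s : G)
  (hinv : ∀ σ y, lam (φ (σ * s) y) = τ (lam (φ σ y)))
  (hunr : IsUnram q ℚ_[q] E)

include hprod hinv hunr in
/-- The abstract local statement at `q ≠ p`. -/
theorem orderOf_dvd_valuation_norm (y : B) (hy : IsUnit y) :
    (orderOf s : ℤ) ∣ Padic.valuation (Algebra.norm ℚ_[q] y) := by
  classical
  have hq1 : (1 : ℝ) < q := by exact_mod_cast (Fact.out : q.Prime).one_lt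
  have hq0 : (0 : ℝ) < q := by linarith
  -- the values
  have hval : ∀ σ : G, ∃ k : ℤ, nrm q E (lam (φ σ y)) = (q : ℝ) ^ (-k) := by
    intro σ
    have hu : IsUnit (lam (φ σ y)) := (hy.map (φ σ)).map lam
    obtain ⟨x, hx⟩ := hunr (lam (φ σ y))
    have hx0 : x ≠ 0 := by
      rintro rfl
      rw [nrm_zero] at hx
      exact hu.ne_zero ((nrm_eq_zero_iff q E).mp hx)
    refine ⟨Padic.valuation x, ?_⟩
    rw [hx, nrm_padic, Padic.norm_eq_zpow_neg_valuation hx0]
  choose k hk using hval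
  have hkinv : ∀ σ, k (σ * s) = k σ := by
    intro σ
    have h1 : nrm q E (lam (φ (σ * s) y)) = nrm q E (lam (φ σ y)) := by
      rw [hinv]
      exact (spectralNorm_eq_of_equiv τ _).symm
    rw [hk, hk] at h1
    have := (zpow_right_inj₀ hq0 hq1.ne').mp h1
    omega
  have hdvd := orderOf_dvd_sum s k hkinv
  -- the norm
  have hN0 : Algebra.norm ℚ_[q] y ≠ 0 := (hy.map (Algebra.norm ℚ_[q])).ne_zero
  have h2 : ‖Algebra.norm ℚ_[q] y‖ = (q : ℝ) ^ (-∑ σ, k σ) := by
    rw [← nrm_padic, ← nrm_algebraMap q ℚ_[q] E]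
    have h3 : algebraMap ℚ_[q] E (Algebra.norm ℚ_[q] y) = ∏ σ, lam (φ σ y) := by
      rw [← lam.commutes, hprod, map_prod]
    rw [h3]
    have h4 : ∀ t : Finset G, nrm q E (∏ σ ∈ t, lam (φ σ y)) = (q : ℝ) ^ (-∑ σ ∈ t, k σ) := by
      intro t
      induction t using Finset.induction_on with
      | empty => simp
      | insert a t ha ih =>
        rw [Finset.prod_insert ha, Finset.sum_insert ha, nrm_mul, ih, hk, ← zpow_add₀ hq0.ne']
        congr 1
        ring
    exact h4 Finset.univ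
  rw [Padic.norm_eq_zpow_neg_valuation hN0] at h2
  have h5 := (zpow_right_inj₀ hq0 hq1.ne').mp h2
  have h6 : Padic.valuation (Algebra.norm ℚ_[q] y) = ∑ σ, k σ := by omega
  rw [h6]
  exact hdvd

end local_q

end Fermat.Agent.S55.CFT.H25

end
-- ==== END Fermat.Agent.S55.CFT.H25_ThetaQ

-- ==== BEGIN Fermat.Agent.S55.CFT.H56_LocComp
section

set_option autoImplicit false
set_option linter.style.haveILetI false

open NumberField TensorProduct CategoryTheory

noncomputable section
namespace Fermat.Agent.S55.CFT.H56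

open Fermat.Agent.S55.CFT

variable (K L : Type) [Field K] [Field L] [NumberField K] [NumberField L] [Algebra K L]

/-! ### `K_v → K_v ⊗_K L` is injective -/

lemma placeIdeal_ne_top (v : Place K) : placeIdeal K L v ≠ ⊤ := by
  letI : Algebra (SemiLocal K v.1) (SemiLocal L v.1) := (semiLocalMap K L v.1).toRingHom.toAlgebra
  haveI : IsScalarTower (Qp v.1) (SemiLocal K v.1) (SemiLocal L v.1) :=
    IsScalarTower.of_algebraMap_eq (fun x => ((semiLocalMap K L v.1).commutes x).symm)
  haveI : Module.Finite (SemiLocal K v.1) (SemiLocal L v.1) :=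
    Module.Finite.of_restrictScalars_finite (Qp v.1) _ _
  haveI : Algebra.IsIntegral (SemiLocal K v.1) (SemiLocal L v.1) := Algebra.IsIntegral.of_finite _ _
  haveI := v.2.isMaximal
  have hker : RingHom.ker (algebraMap (SemiLocal K v.1) (SemiLocal L v.1)) ≤ v.2.asIdeal := by
    intro x hx
    rw [RingHom.mem_ker] at hx
    have h0 : x = 0 := by
      apply H12.semiLocalMap_injective K L v.1
      rw [map_zero]
      exact hx
    rw [h0]
    exact Ideal.zero_mem _
  obtain ⟨Q, hQ, hQc⟩ := Ideal.exists_ideal_over_maximal_of_isIntegral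
    (S := SemiLocal L v.1) v.2.asIdeal hker
  intro htop
  have hle : placeIdeal K L v ≤ Q := by
    rw [placeIdeal, Ideal.map_le_iff_le_comap]
    intro x hx
    rw [← hQc] at hx
    exact hx
  rw [htop, top_le_iff] at hle
  exact hQ.ne_top hle

instance locAlg_nontrivial (v : Place K) : Nontrivial (LocAlg K L v) :=
  Ideal.Quotient.nontrivial_iff.2 (placeIdeal_ne_top K L v)

lemma locAlgTower_injective (v : Place K) : Function.Injective (locAlgTower K K L v) := by
  letI : Field (LocAlg K K v) := (H19.isField_locAlg_self K v).toField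
  exact (locAlgTower K K L v).injective

/-! ### Components -/

lemma projIdele_diag (T : Finset Nat.Primes) (q : T) (v : MaximalSpectrum (SemiLocal K q.1))
    (x : Lˣ) : projIdele K L T q v (diagIdele L T x) = locHom K L ⟨q.1, v⟩ x := by
  apply Units.ext
  rfl

lemma projIdele_base (T : Finset Nat.Primes) (q : T) (v : MaximalSpectrum (SemiLocal K q.1))
    (x : IdeleT K T) :
    projIdele K L T q v (baseIdele K L T x) =
      Units.map (locAlgTower K K L ⟨q.1, v⟩ : LocAlg K K ⟨q.1, v⟩ →* LocAlg K L ⟨q.1, v⟩)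
        (projIdele K K T q v x) := by
  apply Units.ext
  rfl

lemma projIdele_prod_smul [Fintype (L ≃ₐ[K] L)] (T : Finset Nat.Primes) (q : T)
    (v : MaximalSpectrum (SemiLocal K q.1)) (y : IdeleT L T) :
    projIdele K L T q v (∏ σ : L ≃ₐ[K] L, σ • y) =
      ∏ σ : L ≃ₐ[K] L,
        Units.map (locAlgMap K L ⟨q.1, v⟩ σ : LocAlg K L ⟨q.1, v⟩ →* LocAlg K L ⟨q.1, v⟩)
          (projIdele K L T q v y) := by
  rw [map_prod]
  exact Finset.prod_congr rfl (fun σ _ => projIdele_smul K L T q v σ y)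

/-- The component of a norm: its image in `K_v ⊗_K L` is the product of the conjugates. -/
lemma projIdele_normLK [IsGalois K L] [hF : Fintype (L ≃ₐ[K] L)] (T : Finset Nat.Primes) (q : T)
    (v : MaximalSpectrum (SemiLocal K q.1)) (y : IdeleT L T) :
    Units.map (locAlgTower K K L ⟨q.1, v⟩ : LocAlg K K ⟨q.1, v⟩ →* LocAlg K L ⟨q.1, v⟩)
        (projIdele K K T q v (normLK K L T y)) =
      ∏ σ : L ≃ₐ[K] L,
        Units.map (locAlgMap K L ⟨q.1, v⟩ σ : LocAlg K L ⟨q.1, v⟩ →* LocAlg K L ⟨q.1, v⟩)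
          (projIdele K L T q v y) := by
  obtain ⟨inst, h⟩ := (H12.stmt_Descent K L T inferInstance).2.2 y
  have hinst : inst = hF := Subsingleton.elim _ _
  subst hinst
  rw [← projIdele_base, h, ← projIdele_prod_smul]
  rfl

/-! ### Local norms -/

lemma isLocNorm_iff [Fintype (L ≃ₐ[K] L)] (v : Place K) (β : (LocAlg K K v)ˣ) :
    IsLocNorm K L v β ↔ ∃ y : (LocAlg K L v)ˣ,
      ∏ σ : L ≃ₐ[K] L, Units.map (locAlgMap K L v σ : LocAlg K L v →* LocAlg K L v) y =
        Units.map (locAlgTower K K L v : LocAlg K K v →* LocAlg K L v) β := by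
  unfold IsLocNorm
  constructor
  · rintro ⟨y, hy⟩
    refine ⟨y, ?_⟩
    rw [← hy, finprod_eq_prod_of_fintype]
    rfl
  · rintro ⟨y, hy⟩
    refine ⟨y, ?_⟩
    rw [← hy, finprod_eq_prod_of_fintype]
    rfl

lemma isLocNorm_one (v : Place K) : IsLocNorm K L v 1 := by
  classical
  haveI : Finite (L ≃ₐ[K] L) := inferInstance
  letI : Fintype (L ≃ₐ[K] L) := Fintype.ofFinite _
  rw [isLocNorm_iff]
  exact ⟨1, by simp⟩

lemma isLocNorm_mul (v : Place K) {β γ : (LocAlg K K v)ˣ} (hβ : IsLocNorm K L v β)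
    (hγ : IsLocNorm K L v γ) : IsLocNorm K L v (β * γ) := by
  classical
  letI : Fintype (L ≃ₐ[K] L) := Fintype.ofFinite _
  rw [isLocNorm_iff] at hβ hγ ⊢
  obtain ⟨y, hy⟩ := hβ
  obtain ⟨z, hz⟩ := hγ
  refine ⟨y * z, ?_⟩
  rw [map_mul, ← hy, ← hz, ← Finset.prod_mul_distrib]
  exact Finset.prod_congr rfl (fun σ _ => map_mul _ y z)

lemma isLocNorm_inv (v : Place K) {β : (LocAlg K K v)ˣ} (hβ : IsLocNorm K L v β) :
    IsLocNorm K L v β⁻¹ := by
  classical
  letI : Fintype (L ≃ₐ[K] L) := Fintype.ofFinite _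
  rw [isLocNorm_iff] at hβ ⊢
  obtain ⟨y, hy⟩ := hβ
  refine ⟨y⁻¹, ?_⟩
  rw [map_inv, eq_inv_iff_mul_eq_one, ← hy, ← Finset.prod_mul_distrib]
  apply Finset.prod_eq_one
  intro σ _
  rw [← map_mul, inv_mul_cancel, map_one]

/-- The components of a norm are local norms. -/
lemma isLocNorm_projIdele_normLK [IsGalois K L] (T : Finset Nat.Primes) (q : T)
    (v : MaximalSpectrum (SemiLocal K q.1)) (y : IdeleT L T) :
    IsLocNorm K L ⟨q.1, v⟩ (projIdele K K T q v (normLK K L T y)) := by
  classical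
  letI : Fintype (L ≃ₐ[K] L) := Fintype.ofFinite _
  rw [isLocNorm_iff]
  exact ⟨projIdele K L T q v y, (projIdele_normLK K L T q v y).symm⟩

/-! ### The idele `(a at v₀, 1 elsewhere)` -/

/-- If the `T`-unit `a` is a local norm from `L` at all places `v ∣ T`, `v ≠ v₀`, then the idele
`(a at v₀, 1 elsewhere)` is in the norm group `E_K · N J_L`. -/
theorem secHom_mem_normGroup [IsGalois K L] (T : Finset Nat.Primes) (ω₀ : H80.PlaceT K T)
    (a : Kˣ) (ha : a ∈ TUnits K T)
    (hloc : ∀ ω : H80.PlaceT K T, ω ≠ ω₀ →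
      IsLocNorm K L ⟨ω.1.1, ω.2⟩ (locHom K K ⟨ω.1.1, ω.2⟩ a)) :
    H80.secHom K K T ω₀ (locHom K K ⟨ω₀.1.1, ω₀.2⟩ a) ∈ normGroup K L T := by
  classical
  letI : Fintype (L ≃ₐ[K] L) := Fintype.ofFinite _
  have hex : ∀ ω : H80.PlaceT K T, ∃ y : (LocAlg K L ⟨ω.1.1, ω.2⟩)ˣ,
      ∏ σ : L ≃ₐ[K] L, Units.map (locAlgMap K L ⟨ω.1.1, ω.2⟩ σ :
          LocAlg K L ⟨ω.1.1, ω.2⟩ →* LocAlg K L ⟨ω.1.1, ω.2⟩) y =
        if ω = ω₀ then 1 else
          Units.map (locAlgTower K K L ⟨ω.1.1, ω.2⟩ :
            LocAlg K K ⟨ω.1.1, ω.2⟩ →* LocAlg K L ⟨ω.1.1, ω.2⟩) (locHom K K ⟨ω.1.1, ω.2⟩ a) := by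
    intro ω
    by_cases h : ω = ω₀
    · refine ⟨1, ?_⟩
      rw [if_pos h]
      simp
    · rw [if_neg h]
      exact (isLocNorm_iff K L _ _).1 (hloc ω h)
  choose y hy using hex
  obtain ⟨β, hβ⟩ := H80.compHom_surjective K L T y
  have hβ' : ∀ ω : H80.PlaceT K T, projIdele K L T ω.1 ω.2 β = y ω := fun ω => congrFun hβ ω
  have key : H80.secHom K K T ω₀ (locHom K K ⟨ω₀.1.1, ω₀.2⟩ a) * normLK K L T β =
      diagIdele K T a := by
    apply H80.compHom_injective K K T
    funext ω
    rw [map_mul, Pi.mul_apply, H80.compHom_secHom, H80.compHom_apply, H80.compHom_apply,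
      projIdele_diag]
    apply Units.map_injective (f := (locAlgTower K K L ⟨ω.1.1, ω.2⟩ :
      LocAlg K K ⟨ω.1.1, ω.2⟩ →* LocAlg K L ⟨ω.1.1, ω.2⟩)) (locAlgTower_injective K L _)
    rw [map_mul, projIdele_normLK, hβ', hy]
    by_cases h : ω = ω₀
    · subst h
      rw [if_pos rfl, Pi.mulSingle_eq_same, mul_one]
    · rw [if_neg h, Pi.mulSingle_eq_of_ne h, map_one, one_mul]
  have h2 : H80.secHom K K T ω₀ (locHom K K ⟨ω₀.1.1, ω₀.2⟩ a) =
      diagIdele K T a * (normLK K L T β)⁻¹ := eq_mul_inv_of_mul_eq key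
  rw [h2, normGroup]
  exact Subgroup.mul_mem _ (Subgroup.mem_sup_left ⟨a, ha, rfl⟩)
    (Subgroup.mem_sup_right (inv_mem ⟨β, rfl⟩))

end Fermat.Agent.S55.CFT.H56

end
end
-- ==== END Fermat.Agent.S55.CFT.H56_LocComp

-- ==== BEGIN Fermat.Agent.S55.CFT.H61_WH3b
section

set_option autoImplicit false

noncomputable section

namespace Fermat.Agent.S55.CFT.H61

open Fermat.Agent.S55.CFT

/-- **W-H3**, with `Stmt_Hyp2Exists` discharged. -/
theorem stmt_BrH3_of' (hU : Stmt_H3Units) (hV : Stmt_ValH3) : Stmt_BrH3 :=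
  stmt_BrH3_of H56.stmt_Hyp2Exists hU hV

end Fermat.Agent.S55.CFT.H61

end
end
-- ==== END Fermat.Agent.S55.CFT.H61_WH3b

-- ==== BEGIN Fermat.Agent.S55.CFT.H61_WTwoLoc
section

set_option autoImplicit false
set_option linter.style.haveILetI false
set_option linter.unusedSectionVars false

open NumberField TensorProduct CategoryTheory

noncomputable section

namespace Fermat.Agent.S55.CFT.H61

open Fermat.Agent.S55.CFT groupCohomology

section tower

variable (K L N : Type) [Field K] [Field L] [Field N] [NumberField K] [NumberField L]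
  [NumberField N] [Algebra K L] [Algebra K N] [Algebra L N] [IsScalarTower K L N] [Normal K L]

/-- Localisation commutes with inflation. -/
theorem locMap_infL (v : Place K) (n : ℕ) (x : groupCohomology (repL K L) n) :
    locMap K N v n (infL K L N n x) = infJv K L N v n (locMap K L v n x) := by
  have h1 := groupCohomology.map_comp (A := repL K L) (B := repJv K L v) (C := repJv K N v)
    (MonoidHom.id (L ≃ₐ[K] L)) (AlgEquiv.restrictNormalHom (F := K) (K₁ := N) L)
    (locRep K L v) (infRepJv K L N v) n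
  have h2 := groupCohomology.map_comp (A := repL K L) (B := repL K N) (C := repJv K N v)
    (AlgEquiv.restrictNormalHom (F := K) (K₁ := N) L) (MonoidHom.id (N ≃ₐ[K] N))
    (infRepL K L N) (locRep K N v) n
  have h3 : groupCohomology.map
      ((MonoidHom.id (L ≃ₐ[K] L)).comp (AlgEquiv.restrictNormalHom (F := K) (K₁ := N) L))
      ((Rep.resFunctor (AlgEquiv.restrictNormalHom (F := K) (K₁ := N) L)).map (locRep K L v)
        ≫ infRepJv K L N v) n
      = groupCohomology.map
      ((AlgEquiv.restrictNormalHom (F := K) (K₁ := N) L).comp (MonoidHom.id (N ≃ₐ[K] N)))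
      ((Rep.resFunctor (MonoidHom.id (N ≃ₐ[K] N))).map (infRepL K L N) ≫ locRep K N v) n := by
    apply groupCohomology.map_congr
    · rfl
    · apply LinearMap.ext
      intro x
      apply congrArg Additive.ofMul
      apply Units.ext
      change locAlgTower K L N v (Ideal.Quotient.mk _ ((1 : Qp v.1) ⊗ₜ[ℚ] ((Additive.toMul x : Lˣ) : L)))
        = Ideal.Quotient.mk _ ((1 : Qp v.1) ⊗ₜ[ℚ] (algebraMap L N ((Additive.toMul x : Lˣ) : L)))
      change Ideal.Quotient.mk _ (semiLocalMap L N v.1 ((1 : Qp v.1) ⊗ₜ[ℚ] ((Additive.toMul x : Lˣ) : L)))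
        = _
      congr 1
  rw [h1, h2] at h3
  have h4 := congrArg (fun f => f.hom x) h3
  simp only [ModuleCat.hom_comp, LinearMap.coe_comp, Function.comp_apply] at h4
  exact h4.symm

end tower

section abstract_norm

variable (G : Type) {M : Type} [Group G] [Finite G] [CommGroup M] [MulDistribMulAction G M]

theorem finprod_smul_mul (y z : M) :
    ∏ᶠ σ : G, σ • (y * z) = (∏ᶠ σ : G, σ • y) * ∏ᶠ σ : G, σ • z := by
  haveI : Fintype G := Fintype.ofFinite G
  rw [finprod_eq_prod_of_fintype, finprod_eq_prod_of_fintype, finprod_eq_prod_of_fintype,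
    ← Finset.prod_mul_distrib]
  exact Finset.prod_congr rfl fun σ _ => smul_mul' σ y z

theorem finprod_smul_inv (y : M) : ∏ᶠ σ : G, σ • y⁻¹ = (∏ᶠ σ : G, σ • y)⁻¹ := by
  haveI : Fintype G := Fintype.ofFinite G
  rw [finprod_eq_prod_of_fintype, finprod_eq_prod_of_fintype, ← Finset.prod_inv_distrib]
  exact Finset.prod_congr rfl fun σ _ => smul_inv' σ y

theorem finprod_smul_pow (y : M) (n : ℕ) : ∏ᶠ σ : G, σ • (y ^ n) = (∏ᶠ σ : G, σ • y) ^ n := by
  haveI : Fintype G := Fintype.ofFinite G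
  rw [finprod_eq_prod_of_fintype, finprod_eq_prod_of_fintype, ← Finset.prod_pow]
  exact Finset.prod_congr rfl fun σ _ => smul_pow' σ y n

end abstract_norm

section local_norms

variable (K L : Type) [Field K] [Field L] [NumberField K] [NumberField L] [Algebra K L]

/-- The local component of `e ∈ Kˣ` at a place above `T` is the component of its diagonal
idele. -/
theorem locHom_eq_proj (T : Finset Nat.Primes) (q : T) (v : MaximalSpectrum (SemiLocal K q.1))
    (e : Kˣ) : locHom K K ⟨q.1, v⟩ e = projIdele K K T q v (diagIdele K T e) := by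
  apply Units.ext
  rfl

theorem isLocNorm_one (v : Place K) : IsLocNorm K L v 1 := by
  refine ⟨1, ?_⟩
  rw [map_one]
  simp

theorem IsLocNorm.mul {v : Place K} {α β : (LocAlg K K v)ˣ} (hα : IsLocNorm K L v α)
    (hβ : IsLocNorm K L v β) : IsLocNorm K L v (α * β) := by
  obtain ⟨y, hy⟩ := hα
  obtain ⟨z, hz⟩ := hβ
  refine ⟨y * z, ?_⟩
  rw [map_mul, ← hy, ← hz]
  exact finprod_smul_mul (L ≃ₐ[K] L) y z

theorem IsLocNorm.inv {v : Place K} {α : (LocAlg K K v)ˣ} (hα : IsLocNorm K L v α) :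
    IsLocNorm K L v α⁻¹ := by
  obtain ⟨y, hy⟩ := hα
  refine ⟨y⁻¹, ?_⟩
  rw [map_inv, ← hy]
  exact finprod_smul_inv (L ≃ₐ[K] L) y

end local_norms

section norms

variable (K L : Type) [Field K] [Field L] [NumberField K] [NumberField L] [Algebra K L]
  (T : Finset Nat.Primes)

/-- Base change of ideles, componentwise. -/
theorem proj_baseIdele (q : T) (v : MaximalSpectrum (SemiLocal K q.1)) (x : IdeleT K T) :
    projIdele K L T q v (baseIdele K L T x) =
      Units.map (locAlgTower K K L ⟨q.1, v⟩ : LocAlg K K ⟨q.1, v⟩ →* LocAlg K L ⟨q.1, v⟩)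
        (projIdele K K T q v x) := by
  apply Units.ext
  rfl

/-- The components of a norm idele are local norms. -/
theorem isLocNorm_proj_normLK [IsGalois K L] (q : T) (v : MaximalSpectrum (SemiLocal K q.1))
    (y : IdeleT L T) : IsLocNorm K L ⟨q.1, v⟩ (projIdele K K T q v (normLK K L T y)) := by
  refine ⟨projIdele K L T q v y, ?_⟩
  rw [← proj_baseIdele, H12.baseIdele_normLK, finprod_eq_prod_of_fintype, map_prod]
  exact Finset.prod_congr rfl (fun σ _ => (projIdele_smul K L T q v σ y).symm)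

open Classical in
/-- An idele supported at one place whose component is a local norm is a norm idele. -/
theorem secHom_mem_range_normLK [IsGalois K L] (ω : H80.PlaceT K T)
    (β : (LocAlg K K ⟨ω.1.1, ω.2⟩)ˣ) (hβ : IsLocNorm K L ⟨ω.1.1, ω.2⟩ β) :
    H80.secHom K K T ω β ∈ (normLK K L T).range := by
  obtain ⟨y', hy'⟩ := hβ
  refine ⟨H80.secHom K L T ω y', ?_⟩
  apply H12.baseIdele_injective K L T
  rw [H12.baseIdele_normLK]
  have e1 : ∏ σ : L ≃ₐ[K] L, σ • H80.secHom K L T ω y'
      = H80.secHom K L T ω (∏ σ : L ≃ₐ[K] L, σ • y') := by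
    rw [map_prod]
    exact Finset.prod_congr rfl (fun σ _ => (H80.secHom_smul K L T σ ω y').symm)
  rw [e1, ← finprod_eq_prod_of_fintype, hy']
  apply H80.compHom_injective K L T
  funext ω'
  rw [H80.compHom_secHom, H80.compHom_apply, proj_baseIdele]
  by_cases h : ω' = ω
  · subst h
    rw [Pi.mulSingle_eq_same, H80.proj_secHom_self]
  · rw [Pi.mulSingle_eq_of_ne h, H80.proj_secHom_ne K K T ω ω' h, map_one]

end norms

end Fermat.Agent.S55.CFT.H61

end
end
-- ==== END Fermat.Agent.S55.CFT.H61_WTwoLoc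

-- ==== BEGIN Fermat.Agent.S55.CFT.H80_JCyc
section

set_option autoImplicit false

open NumberField TensorProduct CategoryTheory

noncomputable section

namespace Fermat.Agent.S55.CFT.H80

/-- **GLB-3a** from LOC-3. -/
theorem stmt_JCyclic_of_LOC (hLOC : Stmt_LocalNormIndex) : Stmt_JCyclic := by
  intro p K L _ _ _ _ _ T hp hfin hGal
  classical
  have : Fintype (PlaceT K T) := Fintype.ofFinite _
  have hplace := fun ω : PlaceT K T => place_cyclic K L ⟨ω.1.1, ω.2⟩ hLOC p hp hfin
  constructor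
  · constructor
    intro x y
    rw [← sum_secMap_projMap K L T 1 x, ← sum_secMap_projMap K L T 1 y]
    apply Finset.sum_congr rfl
    intro ω _
    congr 1
    exact (hplace ω).1.elim _ _
  · let Φ : groupCohomology (repJ K L T) 2 →
        ∀ ω : PlaceT K T, groupCohomology (repJv K L ⟨ω.1.1, ω.2⟩) 2 :=
      fun x ω => projMap K L T ω.1 ω.2 2 x
    have hinj : Function.Injective Φ := by
      intro x y hxy
      rw [← sum_secMap_projMap K L T 2 x, ← sum_secMap_projMap K L T 2 y]
      apply Finset.sum_congr rfl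
      intro ω _
      congr 1
      exact congrFun hxy ω
    have hsurj : Function.Surjective Φ := by
      intro b
      refine ⟨∑ ω : PlaceT K T, secMap K L T ω 2 (b ω), ?_⟩
      funext ω'
      change projMap K L T ω'.1 ω'.2 2 (∑ ω : PlaceT K T, secMap K L T ω 2 (b ω)) = b ω'
      rw [map_sum, Finset.sum_eq_single_of_mem ω' (Finset.mem_univ _)]
      · exact projMap_secMap_self K L T ω' 2 (b ω')
      · intro ω _ hne
        exact projMap_secMap_ne K L T ω ω' hne.symm 2 (b ω)
    rw [Nat.card_congr (Equiv.ofBijective Φ ⟨hinj, hsurj⟩), Nat.card_pi]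
    have h2 : ∀ ω : PlaceT K T, Nat.card (groupCohomology (repJv K L ⟨ω.1.1, ω.2⟩) 2) =
        if NonsplitAt K L ⟨ω.1.1, ω.2⟩ then p else 1 := fun ω => (hplace ω).2
    rw [Finset.prod_congr rfl (fun ω _ => h2 ω), Finset.prod_ite, Finset.prod_const,
      Finset.prod_const_one, mul_one]
    congr 1
    unfold nonsplitCountLoc
    rw [Nat.card_eq_fintype_card, Fintype.card_subtype]
    rfl

end Fermat.Agent.S55.CFT.H80

end
end
-- ==== END Fermat.Agent.S55.CFT.H80_JCyc

-- ==== BEGIN Fermat.Agent.S55.CFT.H80_LVFinal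
section

set_option autoImplicit false

namespace Fermat.Agent.S55.CFT.H80

/-- **LV** (local unit groups). -/
theorem stmt_LocUnitGroup : H12.Stmt_LocUnitGroup :=
  stmt_LocUnitGroup_of (fun L _ _ q y => H61.one_tmul_mem_intSub_iff L q y)

end Fermat.Agent.S55.CFT.H80

end
-- ==== END Fermat.Agent.S55.CFT.H80_LVFinal

-- ==== BEGIN Fermat.Agent.S55.CFT.H96_UnnSemiLocal
section

set_option autoImplicit false
set_option linter.unusedSectionVars false

open NumberField TensorProduct Polynomial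

noncomputable section

namespace Fermat.Agent.S55.CFT.H96

open Fermat.Agent.S55.CFT Fermat.Agent.S55.CFT.H12

attribute [local instance] Fermat.Agent.S55.CFT.fact_primes

section lattice

variable (K : Type) [Field K] [NumberField K] (q : Nat.Primes)

/-- `𝓞 K → ℚ_q ⊗ K`, `a ↦ 1 ⊗ a`. -/
def intIncl : 𝓞 K →+* SemiLocal K q :=
  ((Algebra.TensorProduct.includeRight : K →ₐ[ℚ] SemiLocal K q) : K →+* SemiLocal K q).comp
    (algebraMap (𝓞 K) K)

theorem intIncl_apply (a : 𝓞 K) : intIncl K q a = (1 : Qp q) ⊗ₜ[ℚ] (a : K) := rfl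

theorem intIncl_mem (a : 𝓞 K) : intIncl K q a ∈ intSub K q :=
  tmul_mem_intSet (by simp) a

/-- `𝓞 K → R_q(K)`. -/
def intHom : 𝓞 K →+* intSub K q := (intIncl K q).codRestrict (intSub K q) (intIncl_mem K q)

theorem intHom_val (a : 𝓞 K) : ((intHom K q a : intSub K q) : SemiLocal K q) = intIncl K q a :=
  rfl

/-- The ideal `rad(q 𝓞 K) · R_q(K)`. -/
def radIdeal : Ideal (intSub K q) :=
  Ideal.map (intHom K q) (Ideal.span {((q : ℕ) : 𝓞 K)}).radical

theorem qIdeal_eq_map : qIdeal K q = Ideal.map (intHom K q) (Ideal.span {((q : ℕ) : 𝓞 K)}) := by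
  rw [Ideal.map_span, Set.image_singleton, map_natCast]
  rfl

theorem qIdeal_le_radIdeal : qIdeal K q ≤ radIdeal K q := by
  rw [qIdeal_eq_map]
  exact Ideal.map_mono Ideal.le_radical

theorem exists_radIdeal_pow_le : ∃ m : ℕ, radIdeal K q ^ m ≤ qIdeal K q := by
  obtain ⟨m, hm⟩ := Ideal.exists_radical_pow_le_of_fg (Ideal.span {((q : ℕ) : 𝓞 K)})
    (IsNoetherian.noetherian _)
  refine ⟨m, ?_⟩
  rw [radIdeal, ← Ideal.map_pow, qIdeal_eq_map]
  exact Ideal.map_mono hm

instance isAdicComplete_radIdeal : IsAdicComplete (radIdeal K q) (intSub K q) := by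
  obtain ⟨m, hm⟩ := exists_radIdeal_pow_le K q
  exact isAdicComplete_of_le_of_pow_le (qIdeal K q) (radIdeal K q) (qIdeal_le_radIdeal K q) m hm

theorem intHom_sub_mem_radIdeal {a b : 𝓞 K}
    (h : a - b ∈ (Ideal.span {((q : ℕ) : 𝓞 K)}).radical) :
    intHom K q a - intHom K q b ∈ radIdeal K q := by
  rw [← map_sub]
  exact Ideal.mem_map_of_mem _ h

theorem intHom_sub_mem_radIdeal' {a b : 𝓞 K} (h : a - b ∈ Ideal.span {((q : ℕ) : 𝓞 K)}) :
    intHom K q a - intHom K q b ∈ radIdeal K q :=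
  intHom_sub_mem_radIdeal K q (Ideal.le_radical h)

/-- `1 + radIdeal` consists of units. -/
theorem isUnit_of_sub_one_mem {x : intSub K q} (hx : x - 1 ∈ radIdeal K q) : IsUnit x := by
  have h1 : x - 1 ∈ (⊥ : Ideal (intSub K q)).jacobson :=
    IsAdicComplete.le_jacobson_bot (radIdeal K q) hx
  have h2 := Ideal.mem_jacobson_bot.mp h1 1
  rwa [mul_one, sub_add_cancel] at h2

end lattice

section norm

variable (K L : Type) [Field K] [Field L] [NumberField K] [NumberField L] [Algebra K L]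
  (T : Finset Nat.Primes) (q : Nat.Primes)

/-- `R_q(K) → ℚ_q ⊗ L`. -/
def latHom : intSub K q →+* SemiLocal L q :=
  ((semiLocalMap K L q : SemiLocal K q →ₐ[Qp q] SemiLocal L q) : SemiLocal K q →+*
    SemiLocal L q).comp (intSub K q).subtype

theorem latHom_apply (r : intSub K q) : latHom K L q r = semiLocalMap K L q (r : SemiLocal K q) :=
  rfl

theorem smul_latHom (σ : L ≃ₐ[K] L) (r : intSub K q) : σ • latHom K L q r = latHom K L q r :=
  _root_.Fermat.Agent.S55.CFT.semiLocalEquiv_semiLocalMap K L q σ (r : SemiLocal K q)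

theorem latHom_comp_intHom :
    (latHom K L q).comp (intHom K q) = (intIncl L q).comp (algebraMap (𝓞 K) (𝓞 L)) := by
  ext a
  show semiLocalMap K L q ((1 : Qp q) ⊗ₜ[ℚ] (a : K)) = (1 : Qp q) ⊗ₜ[ℚ] _
  simp [semiLocalMap]
  rfl

theorem smul_intIncl (σ : L ≃ₐ[K] L) (b : 𝓞 L) : σ • intIncl L q b = intIncl L q (σ • b) := by
  rw [intIncl_apply, intIncl_apply, semiLocal_smul_tmul]
  rfl

variable [IsGalois K L]

/-- **Units of the lattice are norms** (semi-local form): for `q ∉ T`, a unit `ε` of `R_q(K)`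
which is congruent modulo `radIdeal` to an element of `𝓞 K` is `∏ σ, σ Y`, `Y ∈ ℚ_q ⊗ L`. -/
theorem exists_semiLocal_norm_of_approx (hunr : UnramifiedOutsideT K L T) (hq : q ∉ T)
    (ε ε' : intSub K q) (hε : ε * ε' = 1) (a₀ : 𝓞 K) (ha₀ : intHom K q a₀ - ε ∈ radIdeal K q) :
    ∃ Y : SemiLocal L q, ∏ σ : L ≃ₐ[K] L, σ • Y = semiLocalMap K L q (ε : SemiLocal K q) := by
  classical
  -- the norm
  obtain ⟨y₀, n₀, hn₀, hn₀a⟩ := exists_norm_radical K L T hunr hq a₀
  set ν : intSub K q := intHom K q n₀ with hν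
  have hνε : ν - ε ∈ radIdeal K q := by
    have : ν - ε = (intHom K q n₀ - intHom K q a₀) + (intHom K q a₀ - ε) := by rw [hν]; ring
    rw [this]
    exact Ideal.add_mem _ (intHom_sub_mem_radIdeal K q hn₀a) ha₀
  have hunit : IsUnit (ν * ε') := by
    apply isUnit_of_sub_one_mem
    have : ν * ε' - 1 = (ν - ε) * ε' := by rw [sub_mul, hε]
    rw [this]
    exact Ideal.mul_mem_right _ _ hνε
  obtain ⟨w, hw⟩ := hunit.exists_right_inv
  -- `u = ε / ν`
  set u : intSub K q := ε * (ε' * w) with hu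
  have huν : ν * u = ε := by
    have : ν * u = ε * (ν * ε' * w) := by rw [hu]; ring
    rw [this, hw, mul_one]
  have hu1 : u - 1 ∈ radIdeal K q := by
    have : u - 1 = (ε - ν) * (ε' * w) := by
      have h1 : ν * (ε' * w) = 1 := by rw [← mul_assoc]; exact hw
      rw [sub_mul, h1]
    rw [this]
    refine Ideal.mul_mem_right _ _ ?_
    rw [← Ideal.neg_mem_iff, neg_sub]
    exact hνε
  -- the trace
  obtain ⟨t, τ, hτ, hτ1⟩ := exists_trace_one K L T hunr hq
  obtain ⟨gA, hgA⟩ := exists_poly_one_add (𝓞 K) (L ≃ₐ[K] L) t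
  have hinj := RingOfIntegers.algebraMap.injective K L
  have hgA0 : gA.eval 0 = 1 := by
    apply hinj
    have := congrArg (Polynomial.eval 0) hgA
    rw [eval_zero_prod_one_add, Polynomial.eval_zero_map] at this
    rw [this, map_one]
  have hgA1 : gA.derivative.eval 0 = τ := by
    apply hinj
    have := congrArg (Polynomial.eval 0) (congrArg (⇑Polynomial.derivative) hgA)
    rw [eval_zero_derivative_prod_one_add, Polynomial.derivative_map,
      Polynomial.eval_zero_map] at this
    rw [this, hτ]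
  set g : (intSub K q)[X] := gA.map (intHom K q) with hg
  have hg0 : g.eval 0 = 1 := by
    rw [hg, Polynomial.eval_zero_map, hgA0, map_one]
  have hg1 : g.derivative.eval 0 - 1 ∈ radIdeal K q := by
    rw [hg, Polynomial.derivative_map, Polynomial.eval_zero_map, hgA1,
      ← map_one (intHom K q)]
    exact intHom_sub_mem_radIdeal' K q hτ1
  have hgφ : g.map (latHom K L q) =
      ∏ σ : L ≃ₐ[K] L, (1 + C (σ • intIncl L q t) * X) := by
    rw [hg, Polynomial.map_map, latHom_comp_intHom, ← Polynomial.map_map, hgA,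
      Polynomial.map_prod]
    refine Finset.prod_congr rfl (fun σ _ => ?_)
    rw [Polynomial.map_add, Polynomial.map_one, Polynomial.map_mul, Polynomial.map_C,
      Polynomial.map_X, smul_intIncl]
  obtain ⟨x, -, hx⟩ := exists_prod_smul_one_add (latHom K L q) (smul_latHom K L q)
    (radIdeal K q) (intIncl L q t) g hgφ hg0 hg1 u hu1
  refine ⟨intIncl L q y₀ * (1 + latHom K L q x * intIncl L q t), ?_⟩
  have h1 : ∏ σ : L ≃ₐ[K] L, σ • intIncl L q y₀ = latHom K L q ν := by
    have e1 : ∏ σ : L ≃ₐ[K] L, σ • intIncl L q y₀ = intIncl L q (∏ σ : L ≃ₐ[K] L, σ • y₀) := by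
      rw [map_prod]
      exact Finset.prod_congr rfl (fun σ _ => smul_intIncl K L q σ y₀)
    rw [e1, ← hn₀, hν]
    exact (congrArg (fun f => f n₀) (latHom_comp_intHom K L q)).symm
  simp only [smul_mul']
  rw [Finset.prod_mul_distrib, h1, hx, ← map_mul, huν]
  rfl

end norm

end Fermat.Agent.S55.CFT.H96

end
end
-- ==== END Fermat.Agent.S55.CFT.H96_UnnSemiLocal
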