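-- GENERATED (merged mirror, NOTES/tools/trim/merge3_helper67.py): 7 modules of the originals, bodies verbatim.
import Fermat.Agent.Zm.S56_L06_001
import Fermat.Agent.Zm.S56_L06_003
import Fermat.Agent.Zm.S56_L05_002
import Fermat.Agent.Zm.S56_L06_002
import Fermat.Agent.Zm.S56_L01_003
import Fermat.Agent.Zm.S56_L03_003

-- ==== BEGIN Fermat.Agent.S55.CFT.LOC.H5_Krasner
section

set_option autoImplicit false

open Polynomial IntermediateField

noncomputable section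

namespace Fermat.Agent.S55.CFT.LOC.H5

/-- An automorphism fixing `b` fixes `K(b)` pointwise. -/
theorem fix_adjoin_simple {K L : Type*} [Field K] [Field L] [Algebra K L] (s : L ≃ₐ[K] L)
    (b : L) (h : s b = b) : ∀ x ∈ K⟮b⟯, s x = x := by
  intro x hx
  induction hx using IntermediateField.adjoin_induction with
  | mem y hy =>
    rw [Set.mem_singleton_iff] at hy
    rw [hy, h]
  | algebraMap y => exact s.commutes y
  | add y z _ _ hy hz => rw [map_add, hy, hz]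
  | inv y _ hy => rw [map_inv₀, hy]
  | mul y z _ _ hy hz => rw [map_mul, hy, hz]

/-- Every element of `Ω` integral over `ℚ` is in the image of `ℚ̄`. -/
theorem exists_padicEmbedding_eq (q : ℕ) [Fact q.Prime] (y : PadicAlgCl q)
    (hy : IsIntegral ℚ y) : ∃ x : AlgebraicClosure ℚ, padicEmbedding q x = y := by
  have hsp : ((minpoly ℚ y).map (algebraMap ℚ (AlgebraicClosure ℚ))).Splits :=
    IsAlgClosed.splits _
  have hroot : y ∈ ((minpoly ℚ y).map (algebraMap ℚ (PadicAlgCl q))).roots := by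
    rw [Polynomial.mem_roots (Polynomial.map_ne_zero (minpoly.ne_zero hy))]
    simp [Polynomial.IsRoot.def, Polynomial.eval_map_algebraMap]
  have hmap : (minpoly ℚ y).map (algebraMap ℚ (PadicAlgCl q)) =
      ((minpoly ℚ y).map (algebraMap ℚ (AlgebraicClosure ℚ))).map
        (padicEmbedding q).toRingHom := by
    rw [Polynomial.map_map]
    congr 1
    exact Subsingleton.elim _ _
  rw [hmap, Polynomial.Splits.roots_map hsp, Multiset.mem_map] at hroot
  obtain ⟨x, -, hx⟩ := hroot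
  exact ⟨x, hx⟩

/-- **Krasner approximation**: every `β ∈ Ω` lies in `ℚ_q(ι α₀)` for some `α₀ ∈ ℚ̄`. -/
theorem exists_mem_adjoin_padicEmbedding (q : ℕ) [Fact q.Prime] (β : PadicAlgCl q) :
    ∃ α₀ : AlgebraicClosure ℚ, β ∈ ℚ_[q]⟮padicEmbedding q α₀⟯ := by
  have hβint : IsIntegral ℚ_[q] β := (Algebra.IsAlgebraic.isAlgebraic β).isIntegral
  set f : Polynomial ℚ_[q] := minpoly ℚ_[q] β with hf
  have fmon : f.Monic := minpoly.monic hβint
  have firr : Irreducible f := minpoly.irreducible hβint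
  have fa0 : f.aeval β = 0 := minpoly.aeval _ _
  have fnatdeg0 : f.natDegree ≠ 0 := (Irreducible.natDegree_pos firr).ne'
  classical
  let S : Finset (PadicAlgCl q) := {x ∈ (f.rootSet (PadicAlgCl q)).toFinset | x ≠ β}
  let δ : ℝ := if hS : S.Nonempty then Finset.min' (S.image fun x => ‖β - x‖)
      (Finset.image_nonempty.mpr hS) else 1
  have norm_sub_le : ∀ a' : PadicAlgCl q, IsConjRoot ℚ_[q] β a' → β ≠ a' → δ ≤ ‖β - a'‖ := by
    intro a' conj ne
    by_cases hS : S.Nonempty <;> simp only [hS, ↓reduceDIte, δ]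
    · apply Finset.min'_le (S.image fun x => ‖β - x‖) (‖β - a'‖)
      apply Finset.mem_image_of_mem
      simp only [Finset.mem_filter, Set.mem_toFinset, S]
      rw [hf, ← (isConjRoot_iff_mem_minpoly_rootSet hβint)]
      exact ⟨conj, ne.symm⟩
    · simp only [ne_eq, Finset.not_nonempty_iff_eq_empty, Finset.filter_eq_empty_iff,
        Set.mem_toFinset, not_not, S] at hS
      rw [isConjRoot_iff_mem_minpoly_rootSet hβint] at conj
      exact (ne (hS conj).symm).elim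
  have δpos : δ > 0 := by
    by_cases hS : S.Nonempty <;> simp only [hS, ↓reduceDIte, δ]
    · simp only [gt_iff_lt, Finset.lt_min'_iff, Finset.mem_image, forall_exists_index, and_imp,
        forall_apply_eq_imp_iff₂]
      rintro a' ha'
      simp only [Finset.mem_filter, Set.mem_toFinset, S] at ha'
      rw [norm_pos_iff, sub_ne_zero]
      exact ha'.2.symm
    · linarith
  have hε : (δ / (max ‖β‖ 1)) ^ f.natDegree / (f.natDegree + 1) > 0 := by positivity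
  have hi : DenseRange (algebraMap ℚ ℚ_[q]) := by
    have := Padic.denseRange_ratCast q
    convert this using 1
    ext x
    simp
  obtain ⟨g, gmon, gdeg, gcoeff⟩ :=
    exists_monic_and_natDegree_eq_and_norm_map_algebraMap_coeff_sub_lt hi fmon hε
  obtain ⟨b, hb, hab⟩ := exists_aroots_norm_sub_lt_of_norm_coeff_sub_lt (L := PadicAlgCl q)
      hε fa0 fmon (gmon.map _) (gdeg ▸ (g.natDegree_map _)) gcoeff (IsAlgClosed.splits _)
  have hab : ‖β - b‖ < δ := by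
    rw [← Real.rpow_natCast, ← mul_comm_div, div_self, one_mul,
        ← Real.rpow_mul (div_pos δpos (by positivity)).le, mul_inv_cancel₀] at hab
    · simpa [mul_assoc, div_mul_cancel₀ _ (by positivity : (max ‖β‖ 1) > 0).ne'] using hab
    · simp [fnatdeg0]
    · positivity
  simp only [Polynomial.mem_roots', ne_eq, Polynomial.map_eq_zero, Polynomial.IsRoot.def,
    Polynomial.eval_map_algebraMap, Polynomial.aroots_def] at hb
  have hbint : IsIntegral ℚ b := by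
    refine ⟨g, gmon, ?_⟩
    have h2 := hb.2
    rw [Polynomial.aeval_map_algebraMap] at h2
    exact h2
  obtain ⟨α₀, hα₀⟩ := exists_padicEmbedding_eq q b hbint
  refine ⟨α₀, ?_⟩
  rw [hα₀]
  have : IsKrasner ℚ_[q] (PadicAlgCl q) := IsKrasner.of_completeSpace ℚ_[q] (PadicAlgCl q)
  exact IsKrasner.krasner firr.separable (IsAlgClosed.splits _)
    ⟨(g.map _), gmon.map _, hb.2⟩ fun a' h1 h2 ↦ lt_of_lt_of_le hab (norm_sub_le a' h1 h2)

/-- Every finite extension of `ℚ_q` in `Ω` is contained in `ℚ_q(ι α₀)` for some `α₀ ∈ ℚ̄`. -/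
theorem exists_le_adjoin_padicEmbedding (q : ℕ) [Fact q.Prime]
    (E : IntermediateField ℚ_[q] (PadicAlgCl q)) [FiniteDimensional ℚ_[q] E] :
    ∃ α₀ : AlgebraicClosure ℚ, E ≤ ℚ_[q]⟮padicEmbedding q α₀⟯ := by
  obtain ⟨θ, hθ⟩ := Field.exists_primitive_element ℚ_[q] E
  obtain ⟨α₀, hα₀⟩ := exists_mem_adjoin_padicEmbedding q (θ : PadicAlgCl q)
  refine ⟨α₀, ?_⟩
  intro x hx
  have hx' : (⟨x, hx⟩ : E) ∈ ℚ_[q]⟮θ⟯ := by rw [hθ]; trivial
  have key : ∀ y : E, y ∈ ℚ_[q]⟮θ⟯ → (y : PadicAlgCl q) ∈ ℚ_[q]⟮padicEmbedding q α₀⟯ := by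
    intro y hy
    induction hy using IntermediateField.adjoin_induction with
    | mem y hy =>
      rw [Set.mem_singleton_iff] at hy
      rw [hy]
      exact hα₀
    | algebraMap y => exact (ℚ_[q]⟮padicEmbedding q α₀⟯).algebraMap_mem y
    | add y z _ _ hy hz => exact add_mem hy hz
    | inv y _ hy => exact inv_mem hy
    | mul y z _ _ hy hz => exact mul_mem hy hz
  exact key ⟨x, hx⟩ hx'

/-- **L5-KR**, the Krasner bridge. -/
theorem stmt_L5_Krasner : Stmt_L5_Krasner := by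
  intro q _
  refine ⟨?_, ?_⟩
  · intro E hE
    obtain ⟨α₀, hα₀⟩ := exists_le_adjoin_padicEmbedding q E
    refine ⟨ℚ⟮α₀⟯, IntermediateField.adjoin.finiteDimensional
      ((AlgebraicClosure.isAlgebraic ℚ).isAlgebraic α₀).isIntegral, ?_⟩
    intro s hs
    rw [IntermediateField.mem_fixingSubgroup_iff] at hs ⊢
    have h1 : localGaloisToGlobal q s α₀ = α₀ :=
      hs α₀ (IntermediateField.mem_adjoin_simple_self ℚ α₀)
    have h2 : s (padicEmbedding q α₀) = padicEmbedding q α₀ := by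
      rw [← padicEmbedding_localGaloisToGlobal, h1]
    intro x hx
    exact fix_adjoin_simple s _ h2 x (hα₀ hx)
  · intro N hN
    obtain ⟨θ, hθ⟩ := Field.exists_primitive_element ℚ N
    refine ⟨ℚ_[q]⟮padicEmbedding q (θ : AlgebraicClosure ℚ)⟯,
      IntermediateField.adjoin.finiteDimensional
        (Algebra.IsAlgebraic.isAlgebraic _).isIntegral, ?_⟩
    intro s hs
    rw [IntermediateField.mem_fixingSubgroup_iff] at hs ⊢
    have h1 : s (padicEmbedding q (θ : AlgebraicClosure ℚ)) =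
        padicEmbedding q (θ : AlgebraicClosure ℚ) :=
      hs _ (IntermediateField.mem_adjoin_simple_self ℚ_[q] _)
    have h2 : localGaloisToGlobal q s (θ : AlgebraicClosure ℚ) = (θ : AlgebraicClosure ℚ) := by
      apply (padicEmbedding q).injective
      show padicEmbedding q _ = padicEmbedding q _
      rw [padicEmbedding_localGaloisToGlobal, h1]
    intro x hx
    have hx' : (⟨x, hx⟩ : N) ∈ ℚ⟮θ⟯ := by rw [hθ]; trivial
    have key : ∀ y : N, y ∈ ℚ⟮θ⟯ →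
        localGaloisToGlobal q s (y : AlgebraicClosure ℚ) = (y : AlgebraicClosure ℚ) := by
      intro y hy
      induction hy using IntermediateField.adjoin_induction with
      | mem y hy =>
        rw [Set.mem_singleton_iff] at hy
        rw [hy]
        exact h2
      | algebraMap y => exact (localGaloisToGlobal q s).commutes y
      | add y z _ _ hy hz =>
        rw [AddMemClass.coe_add, map_add, hy, hz]
      | inv y _ hy =>
        have : ((y⁻¹ : N) : AlgebraicClosure ℚ) = (y : AlgebraicClosure ℚ)⁻¹ := rfl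
        rw [this, map_inv₀, hy]
      | mul y z _ _ hy hz =>
        rw [MulMemClass.coe_mul, map_mul, hy, hz]
    exact key ⟨x, hx⟩ hx'

end Fermat.Agent.S55.CFT.LOC.H5

end
end
-- ==== END Fermat.Agent.S55.CFT.LOC.H5_Krasner

-- ==== BEGIN Fermat.Agent.S55.CFT.LOC.H5_L5Asm
section

set_option autoImplicit false
set_option linter.unusedSectionVars false
set_option linter.unusedVariables false
set_option linter.style.haveILetI false

open CategoryTheory Module groupCohomology ExtCitation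

noncomputable section

namespace Fermat.Agent.S55.CFT.LOC.H5

open Fermat.Agent.S55 Fermat.Agent.S55.Top

section gen

variable {q : ℕ} [Fact q.Prime]

/-- The map `Γ → G_ℚ` for a subgroup of the local Galois group. -/
def rG (Γ : Subgroup (PadicAlgCl q ≃ₐ[ℚ_[q]] PadicAlgCl q)) : ↥Γ →* GQ :=
  (localGaloisToGlobal q).comp Γ.subtype

theorem lev₁_iff_loc₁ (hKR : Stmt_L5_Krasner)
    (Γ : Subgroup (PadicAlgCl q ≃ₐ[ℚ_[q]] PadicAlgCl q)) {X : Type*} (f : ↥Γ → X) :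
    IsLevelConstant₁ (rG Γ) f ↔ IsLoc₁ Γ f := by
  constructor
  · rintro ⟨N, hN, h⟩
    obtain ⟨E, hE, hEN⟩ := (hKR q).2 N hN
    exact ⟨E, hE, fun g s hs => h g s (hEN s.1 hs)⟩
  · rintro ⟨E, hE, h⟩
    obtain ⟨N, hN, hNE⟩ := (hKR q).1 E hE
    exact ⟨N, hN, fun g s hs => h g s (hNE s.1 hs)⟩

theorem lev₂_iff_loc₂ (hKR : Stmt_L5_Krasner)
    (Γ : Subgroup (PadicAlgCl q ≃ₐ[ℚ_[q]] PadicAlgCl q)) {X : Type*} (f : ↥Γ × ↥Γ → X) :
    IsLevelConstant₂ (rG Γ) f ↔ IsLoc₂ Γ f := by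
  constructor
  · rintro ⟨N, hN, h⟩
    obtain ⟨E, hE, hEN⟩ := (hKR q).2 N hN
    exact ⟨E, hE, fun g g' s s' hs hs' => h g g' s s' (hEN s.1 hs) (hEN s'.1 hs')⟩
  · rintro ⟨E, hE, h⟩
    obtain ⟨N, hN, hNE⟩ := (hKR q).1 E hE
    exact ⟨N, hN, fun g g' s s' hs hs' => h g g' s s' (hNE s.1 hs) (hNE s'.1 hs')⟩

/-- The local package at a subgroup `Γ` of the local Galois group, in the prelude's terms. -/
def LocPk (p : ℕ) [Fact p.Prime] (Γ : Subgroup (PadicAlgCl q ≃ₐ[ℚ_[q]] PadicAlgCl q))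
    (d : ℕ) : Prop :=
  Nat.card {χ : ↥Γ → ZMod p // tOne χ = 0 ∧ IsLevelConstant₁ (rG Γ) χ} = p ^ d ∧
  (∀ g : ↥Γ → ZMod p, tOne g = 0 → IsLevelConstant₁ (rG Γ) g → g ≠ 0 →
      ∃ b : ↥Γ → ZMod p, tOne b = 0 ∧ IsLevelConstant₁ (rG Γ) b ∧
        ¬ ∃ f : ↥Γ → ZMod p, IsLevelConstant₁ (rG Γ) f ∧
          tOne f = fun t : ↥Γ × ↥Γ => g t.1 * b t.2) ∧
  (∀ c c' : ↥Γ × ↥Γ → ZMod p,
      tTwo c = 0 → IsLevelConstant₂ (rG Γ) c → tTwo c' = 0 → IsLevelConstant₂ (rG Γ) c' →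
      ∃ α β : ZMod p, (α ≠ 0 ∨ β ≠ 0) ∧
        ∃ f : ↥Γ → ZMod p, IsLevelConstant₁ (rG Γ) f ∧ tOne f = α • c + β • c')

/-- The local package at `Γ = F.fixingSubgroup`. -/
theorem locPk_fixingSubgroup (hKR : Stmt_L5_Krasner) (hKUM : Stmt_L5_Kummer)
    (hND : Stmt_L5_CupND) (hH2 : Stmt_L5_H2Dim) (hPI : CFT.Stmt_LocalPowIndex)
    (p : ℕ) [Fact p.Prime] (F : IntermediateField ℚ_[q] (PadicAlgCl q))
    (hF : FiniteDimensional ℚ_[q] ↥F) (hζ : ∃ ζ : PadicAlgCl q, ζ ∈ F ∧ IsPrimitiveRoot ζ p) :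
    LocPk p F.fixingSubgroup (if q = p then 2 + Module.finrank ℚ_[q] ↥F else 2) := by
  refine ⟨?_, ?_, ?_⟩
  · have h1 : Nat.card {χ : ↥F.fixingSubgroup → ZMod p //
          tOne χ = 0 ∧ IsLevelConstant₁ (rG F.fixingSubgroup) χ} =
        Nat.card {χ : ↥F.fixingSubgroup → ZMod p // tOne χ = 0 ∧ IsLoc₁ F.fixingSubgroup χ} :=
      Nat.card_congr (Equiv.subtypeEquivRight fun χ =>
        and_congr_right fun _ => lev₁_iff_loc₁ hKR _ χ)
    rw [h1, hKUM q p F hF hζ]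
    obtain ⟨ζ, hζF, hζp⟩ := hζ
    have hζ' : ∃ ζ' : ↥F, IsPrimitiveRoot ζ' p := by
      refine ⟨⟨ζ, hζF⟩, ?_⟩
      exact IsPrimitiveRoot.of_map_of_injective (f := F.val) (by exact hζp) F.val.injective
    rw [hPI q ↥F p (Fact.out : p.Prime) hζ']
    split_ifs <;> rfl
  · intro g hg1 hg2 hg0
    obtain ⟨b, hb1, hb2, hb3⟩ := hND q p F hF hζ g hg1 ((lev₁_iff_loc₁ hKR _ g).1 hg2) hg0
    refine ⟨b, hb1, (lev₁_iff_loc₁ hKR _ b).2 hb2, ?_⟩
    rintro ⟨f, hf1, hf2⟩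
    exact hb3 ⟨f, (lev₁_iff_loc₁ hKR _ f).1 hf1, hf2⟩
  · intro c c' hc1 hc2 hc1' hc2'
    obtain ⟨α, β, hαβ, f, hf1, hf2⟩ := hH2 q p F hF hζ c c' hc1 ((lev₂_iff_loc₂ hKR _ c).1 hc2)
      hc1' ((lev₂_iff_loc₂ hKR _ c').1 hc2')
    exact ⟨α, β, hαβ, f, (lev₁_iff_loc₁ hKR _ f).2 hf1, hf2⟩

end gen

section bundle

variable {p : ℕ} [Fact p.Prime] {S : Finset Nat.Primes}
  {K : IntermediateField ℚ (AlgebraicClosure ℚ)} (𝔓 : PlaceSys S K) (q : ↥S) (w : 𝔓.W q)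

/-- The local package at the local group of the place `w`. -/
def LocPkw (p : ℕ) [Fact p.Prime] (d : ℕ) : Prop :=
  @LocPk (q.1 : ℕ) ⟨q.1.2⟩ p _ (𝔓.Γw q w) d

variable {𝔓 q w}

theorem card_Z1w {d : ℕ} (h : LocPkw 𝔓 q w p d) :
    Nat.card ↥(Z1w (ZMod p) 𝔓 q w) = p ^ d := h.1

theorem finite_Z1w {d : ℕ} (h : LocPkw 𝔓 q w p d) :
    Module.Finite (ZMod p) ↥(Z1w (ZMod p) 𝔓 q w) := by
  haveI : Finite ↥(Z1w (ZMod p) 𝔓 q w) :=
    Nat.finite_of_card_ne_zero (by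
      rw [card_Z1w h]
      exact pow_ne_zero _ (Fact.out : p.Prime).ne_zero)
  exact Module.Finite.of_finite

theorem finrank_Z1w {d : ℕ} (h : LocPkw 𝔓 q w p d) :
    Module.finrank (ZMod p) ↥(Z1w (ZMod p) 𝔓 q w) = d := by
  haveI := finite_Z1w h
  have h1 := Module.natCard_eq_pow_finrank (K := ZMod p) (V := ↥(Z1w (ZMod p) 𝔓 q w))
  rw [card_Z1w h, Nat.card_zmod] at h1
  exact (Nat.pow_right_injective (Fact.out : p.Prime).two_le h1).symm

theorem cup_mem_Z2w' {g b : 𝔓.Γw q w → ZMod p} (hg : g ∈ Z1w (ZMod p) 𝔓 q w)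
    (hb : b ∈ Z1w (ZMod p) 𝔓 q w) :
    (fun t : 𝔓.Γw q w × 𝔓.Γw q w => g t.1 * b t.2) ∈ Z2w (ZMod p) 𝔓 q w := by
  refine ⟨?_, Top.H48.levL₂_mul q w hg.2 hb.2⟩
  funext t
  obtain ⟨t₁, t₂, t₃⟩ := t
  simp only [tTwo, Pi.zero_apply]
  rw [Top.H48.hom_mul hg.1 t₁ t₂, Top.H48.hom_mul hb.1 t₂ t₃]
  ring

theorem cupND_Z1w {d : ℕ} (h : LocPkw 𝔓 q w p d) (g : 𝔓.Γw q w → ZMod p)
    (hg : g ∈ Z1w (ZMod p) 𝔓 q w) (hg0 : g ≠ 0) :
    ∃ b : 𝔓.Γw q w → ZMod p, b ∈ Z1w (ZMod p) 𝔓 q w ∧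
      (fun t : 𝔓.Γw q w × 𝔓.Γw q w => g t.1 * b t.2) ∉ B2w (ZMod p) 𝔓 q w := by
  obtain ⟨b, hb1, hb2, hb3⟩ := h.2.1 g hg.1 hg.2 hg0
  exact ⟨b, ⟨hb1, hb2⟩, fun hmem => hb3 hmem⟩

theorem finrank_H2w {d : ℕ} (hd : 0 < d) (h : LocPkw 𝔓 q w p d) :
    Module.finrank (ZMod p) (H2w (ZMod p) 𝔓 q w) = 1 := by
  haveI := finite_Z1w h
  have hpos : 0 < Module.finrank (ZMod p) ↥(Z1w (ZMod p) 𝔓 q w) := by
    rw [finrank_Z1w h]; exact hd
  obtain ⟨g, hg0⟩ := Module.finrank_pos_iff_exists_ne_zero.1 hpos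
  have hg0' : (g : 𝔓.Γw q w → ZMod p) ≠ 0 := fun h0 => hg0 (Subtype.ext h0)
  obtain ⟨b, hb, hb3⟩ := cupND_Z1w h g.1 g.2 hg0'
  set c₀ : ↥(Z2w (ZMod p) 𝔓 q w) :=
    ⟨fun t : 𝔓.Γw q w × 𝔓.Γw q w => g.1 t.1 * b t.2, cup_mem_Z2w' g.2 hb⟩ with hc₀def
  have hc₀ : (Submodule.Quotient.mk c₀ : H2w (ZMod p) 𝔓 q w) ≠ 0 := by
    rw [Ne, Submodule.Quotient.mk_eq_zero]
    intro hmem
    exact hb3 hmem
  rw [finrank_eq_one_iff_of_nonzero' _ hc₀]
  intro x
  obtain ⟨c', rfl⟩ := Submodule.Quotient.mk_surjective _ x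
  obtain ⟨α, β, hαβ, f, hf1, hf2⟩ := h.2.2 c₀.1 c'.1 c₀.2.1 c₀.2.2 c'.2.1 c'.2.2
  have hrel : α • (Submodule.Quotient.mk c₀ : H2w (ZMod p) 𝔓 q w) +
      β • (Submodule.Quotient.mk c' : H2w (ZMod p) 𝔓 q w) = 0 := by
    rw [← Submodule.Quotient.mk_smul, ← Submodule.Quotient.mk_smul,
      ← Submodule.Quotient.mk_add, Submodule.Quotient.mk_eq_zero]
    exact ⟨f, hf1, hf2⟩
  have hβ : β ≠ 0 := by
    intro hβ0
    rw [hβ0, zero_smul, add_zero] at hrel
    rcases hαβ with hα | hβ'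
    · exact hc₀ ((smul_eq_zero.1 hrel).resolve_left hα)
    · exact hβ' hβ0
  refine ⟨-(β⁻¹ * α), ?_⟩
  have h2 : β • (Submodule.Quotient.mk c' : H2w (ZMod p) 𝔓 q w) =
      -(α • (Submodule.Quotient.mk c₀ : H2w (ZMod p) 𝔓 q w)) :=
    eq_neg_of_add_eq_zero_right hrel
  have h3 : (Submodule.Quotient.mk c' : H2w (ZMod p) 𝔓 q w) =
      β⁻¹ • (β • (Submodule.Quotient.mk c' : H2w (ZMod p) 𝔓 q w)) := by
    rw [smul_smul, inv_mul_cancel₀ hβ, one_smul]
  rw [h3, h2, neg_smul, mul_smul, smul_neg]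

end bundle

/-- **L5-ASM**: the local inputs give `Top.Stmt_I1`. -/
theorem stmt_I1_of (hKR : Stmt_L5_Krasner) (hPL : Stmt_L5_Places) (hKUM : Stmt_L5_Kummer)
    (hND : Stmt_L5_CupND) (hH2 : Stmt_L5_H2Dim) (hPI : CFT.Stmt_LocalPowIndex) :
    Top.Stmt_I1 := by
  intro p _ hp2 S hpS K hK 𝔓
  have key : ∀ q : ↥S, ∃ e : 𝔓.W q → ℕ,
      (∀ w, LocPkw 𝔓 q w p (if (q.1 : ℕ) = p then 2 + e w else 2)) ∧
      @Finset.sum (𝔓.W q) ℕ _ (@Finset.univ _ (𝔓.fin q)) e = Module.finrank ℚ ↥K := by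
    intro q
    haveI : Fact ((q.1 : ℕ)).Prime := ⟨q.1.2⟩
    obtain ⟨F, hFfin, hFΓ, hFζ, hFsum⟩ := hPL p S K hK 𝔓 q
    refine ⟨fun w => Module.finrank ℚ_[(q.1 : ℕ)] ↥(F w), fun w => ?_, hFsum⟩
    have hΓ : 𝔓.Γw q w = (F w).fixingSubgroup := Subgroup.ext fun h => (hFΓ w h).symm
    have h1 := @locPk_fixingSubgroup (q.1 : ℕ) ⟨q.1.2⟩ hKR hKUM hND hH2 hPI p _ (F w)
      (hFfin w) (hFζ w)
    unfold LocPkw
    rw [hΓ]
    exact h1
  choose e he hsum using key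
  have hdpos : ∀ (q : ↥S) (w : 𝔓.W q), 0 < (if (q.1 : ℕ) = p then 2 + e q w else 2) := by
    intro q w
    split_ifs <;> omega
  refine ⟨fun q w => finite_Z1w (he q w), fun q w => finrank_H2w (hdpos q w) (he q w),
    fun q w g hg hg0 => cupND_Z1w (he q w) g hg hg0, ?_⟩
  unfold sumH1w nPl
  have h1 : ∀ q : ↥S, @Finset.sum (𝔓.W q) ℕ _ (@Finset.univ _ (𝔓.fin q))
      (fun w => Module.finrank (ZMod p) ↥(Z1w (ZMod p) 𝔓 q w)) =
      2 * @Fintype.card (𝔓.W q) (𝔓.fin q) +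
        (if q = (⟨pPrime p, hpS⟩ : ↥S) then Module.finrank ℚ ↥K else 0) := by
    intro q
    letI := 𝔓.fin q
    have h2 : ∀ w : 𝔓.W q, Module.finrank (ZMod p) ↥(Z1w (ZMod p) 𝔓 q w) =
        2 + (if (q.1 : ℕ) = p then e q w else 0) := by
      intro w
      rw [finrank_Z1w (he q w)]
      split_ifs <;> rfl
    simp_rw [h2]
    rw [Finset.sum_add_distrib, Finset.sum_const, Finset.card_univ, smul_eq_mul, mul_comm]
    congr 1
    by_cases hq : (q.1 : ℕ) = p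
    · have hq' : q = (⟨pPrime p, hpS⟩ : ↥S) := Subtype.ext (Subtype.ext hq)
      rw [if_pos hq', ← hsum q]
      exact Finset.sum_congr rfl (fun w _ => if_pos hq)
    · have hq' : q ≠ (⟨pPrime p, hpS⟩ : ↥S) := by
        intro h
        apply hq
        rw [h]
        rfl
      rw [if_neg hq']
      exact Finset.sum_eq_zero (fun w _ => if_neg hq)
  simp_rw [h1]
  rw [Finset.sum_add_distrib, ← Finset.mul_sum, Finset.sum_ite_eq' Finset.univ
    (⟨pPrime p, hpS⟩ : ↥S) (fun _ => Module.finrank ℚ ↥K)]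
  simp

end Fermat.Agent.S55.CFT.LOC.H5

end
end
-- ==== END Fermat.Agent.S55.CFT.LOC.H5_L5Asm

-- ==== BEGIN Fermat.Agent.S55.CFT.LOC.H68_Conc2
section
set_option autoImplicit false
set_option linter.unusedSectionVars false
set_option linter.style.haveILetI false

namespace Fermat.Agent.S55.CFT.LOC.H68

open Fermat.Agent.S55.CFT.LOC

/-- Telescoping on a finite cyclic group: every function is, up to its sum placed at `1`,
of the form `τ ↦ b (σ⁻¹ τ) - b τ`, with `b` built from sums of values of `a`. -/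
theorem cyclic_telescope {G : Type} [Group G] [Fintype G] {A : Type}
    [AddCommGroup A] (σ : G) (hσ : ∀ τ : G, τ ∈ Subgroup.zpowers σ) (a : G → A) :
    ∃ b : G → A, (∀ τ, b (σ⁻¹ * τ) - b τ = a τ - (open Classical in if τ = 1 then ∑ π, a π else 0)) ∧
      ∀ B : AddSubgroup A, (∀ τ, a τ ∈ B) → ∀ τ, b τ ∈ B := by
  classical
  set n := orderOf σ with hn
  have hnpos : 0 < n := orderOf_pos σ
  have hex : ∀ τ : G, ∃ i, i < n ∧ σ ^ i = τ := by
    intro τ
    have h1 : τ ∈ Submonoid.powers σ := mem_powers_iff_mem_zpowers.mpr (hσ τ)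
    rw [mem_powers_iff_mem_range_orderOf] at h1
    obtain ⟨i, hi, hiτ⟩ := Finset.mem_image.mp h1
    exact ⟨i, Finset.mem_range.mp hi, hiτ⟩
  choose idx hidx_lt hidx_eq using hex
  have uniq : ∀ i j, i < n → j < n → σ ^ i = σ ^ j → i = j := fun i j hi hj h =>
    pow_injOn_Iio_orderOf (x := σ) hi hj h
  have hidx_pow : ∀ i, i < n → idx (σ ^ i) = i := fun i hi =>
    uniq _ _ (hidx_lt _) hi (hidx_eq _)
  have hsum : ∑ π, a π = ∑ j ∈ Finset.range n, a (σ ^ j) := by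
    symm
    refine Finset.sum_bij (fun j _ => σ ^ j) (fun _ _ => Finset.mem_univ _) ?_ ?_ (fun _ _ => rfl)
    · intro i hi j hj h
      exact uniq i j (Finset.mem_range.mp hi) (Finset.mem_range.mp hj) h
    · intro τ _
      exact ⟨idx τ, Finset.mem_range.mpr (hidx_lt τ), hidx_eq τ⟩
  let b' : ℕ → A := fun i => -∑ j ∈ Finset.range i, a (σ ^ (j + 1))
  refine ⟨fun τ => b' (idx τ), ?_, ?_⟩
  · intro τ
    rcases Nat.eq_zero_or_eq_succ_pred (idx τ) with h0 | hs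
    · -- τ = 1
      have hτ : τ = 1 := by rw [← hidx_eq τ, h0, pow_zero]
      subst hτ
      rw [if_pos rfl, mul_one]
      have hinv : σ⁻¹ = σ ^ (n - 1) := by
        rw [inv_eq_iff_mul_eq_one, ← pow_succ', Nat.sub_add_cancel hnpos, hn, pow_orderOf_eq_one]
      have h1 : idx σ⁻¹ = n - 1 := by rw [hinv]; exact hidx_pow _ (by omega)
      simp only [h1, h0, b', Finset.range_zero, Finset.sum_empty, neg_zero, sub_zero]
      rw [hsum]
      have hn1 : n = (n - 1) + 1 := by omega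
      conv_rhs => rw [hn1, Finset.sum_range_succ', pow_zero]
      abel
    · set i := (idx τ).pred with hi
      have hτ : τ = σ ^ (i + 1) := by rw [← hidx_eq τ, hs]
      have hlt : i + 1 < n := by rw [← Nat.succ_eq_add_one, ← hs]; exact hidx_lt τ
      have hne : τ ≠ 1 := by
        intro h1
        have : idx τ = 0 := by
          rw [h1]
          have := hidx_pow 0 hnpos
          rwa [pow_zero] at this
        omega
      rw [if_neg hne, sub_zero]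
      have h2 : σ⁻¹ * τ = σ ^ i := by rw [hτ, pow_succ', inv_mul_cancel_left]
      have h3 : idx (σ⁻¹ * τ) = i := by rw [h2]; exact hidx_pow i (by omega)
      have h4 : idx τ = i + 1 := hs
      simp only [h3, h4, b', Finset.sum_range_succ]
      rw [← hτ]
      abel
  · intro B hB τ
    exact B.neg_mem (B.sum_mem (fun j _ => hB _))

section concrete2

variable (q : ℕ) [Fact q.Prime] (F E : Type) [Field F] [Field E] [Algebra ℚ_[q] F]
  [FiniteDimensional ℚ_[q] F] [Algebra ℚ_[q] E] [Algebra F E] [IsScalarTower ℚ_[q] F E]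
  [FiniteDimensional F E] [IsGalois F E] [FiniteDimensional ℚ_[q] E]

/-- the basic radius -/
noncomputable def nbS0 : ℝ := 1 / (2 * (nbK q F E + nrm q E (IsGalois.normalBasis F E 1)))

theorem nbS0_pos : 0 < nbS0 q F E := by
  unfold nbS0
  have h1 := nbK_ge_one q F E
  have h2 := nrm_nonneg q E (IsGalois.normalBasis F E 1)
  positivity

theorem nbS0_K : nbK q F E * nbS0 q F E ≤ 1 / 2 := by
  unfold nbS0
  have h1 := nbK_ge_one q F E
  have h2 := nrm_nonneg q E (IsGalois.normalBasis F E 1)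
  rw [mul_one_div, div_le_div_iff₀ (by positivity) (by norm_num)]
  nlinarith

theorem nbS0_T : nbS0 q F E * nrm q E (IsGalois.normalBasis F E 1) ≤ 1 / 2 := by
  unfold nbS0
  have h1 := nbK_ge_one q F E
  have h2 := nrm_nonneg q E (IsGalois.normalBasis F E 1)
  rw [one_div_mul_eq_div, div_le_div_iff₀ (by positivity) (by norm_num)]
  nlinarith

/-- the radii `s₀ / 2^k` -/
noncomputable def nbRad (k : ℕ) : ℝ := nbS0 q F E * (1 / 2) ^ k

theorem nbRad_pos (k : ℕ) : 0 < nbRad q F E k := by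
  unfold nbRad
  have := nbS0_pos q F E
  positivity

theorem nbRad_succ (k : ℕ) : nbRad q F E (k + 1) = nbRad q F E k / 2 := by
  unfold nbRad
  rw [pow_succ]; ring

theorem nbRad_anti (k : ℕ) : nbRad q F E (k + 1) ≤ nbRad q F E k := by
  rw [nbRad_succ]
  have := nbRad_pos q F E k
  linarith

theorem nbRad_le_S0 (k : ℕ) : nbRad q F E k ≤ nbS0 q F E := by
  unfold nbRad
  have h := nbS0_pos q F E
  have : ((1 : ℝ) / 2) ^ k ≤ 1 := pow_le_one₀ (by norm_num) (by norm_num)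
  nlinarith

theorem nbRad_mul (j k : ℕ) :
    nbK q F E * nbRad q F E j * nbRad q F E k ≤ nbRad q F E (j + k + 1) := by
  have hK := nbS0_K q F E
  have h0 := nbS0_pos q F E
  have e : nbRad q F E (j + k + 1) = (1 / 2) * nbS0 q F E * ((1 / 2) ^ j * (1 / 2) ^ k) := by
    unfold nbRad
    rw [pow_succ, pow_add]; ring
  have e2 : nbK q F E * nbRad q F E j * nbRad q F E k =
      (nbK q F E * nbS0 q F E) * nbS0 q F E * ((1 / 2) ^ j * (1 / 2) ^ k) := by
    unfold nbRad; ring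
  rw [e, e2]
  have hp : (0 : ℝ) ≤ (1 / 2) ^ j * (1 / 2) ^ k := by positivity
  apply mul_le_mul_of_nonneg_right _ hp
  exact mul_le_mul_of_nonneg_right hK h0.le

/-- the lattices -/
noncomputable def nbM (k : ℕ) : AddSubgroup E where
  carrier := {x | ∀ τ, nrm q F (nbc F E x τ) ≤ nbRad q F E k}
  zero_mem' := by
    intro τ
    rw [nbc_zero, nrm_zero]
    exact (nbRad_pos q F E k).le
  add_mem' := by
    intro x y hx hy τ
    rw [nbc_add]
    exact (nrm_add_le_max q F _ _).trans (max_le (hx τ) (hy τ))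
  neg_mem' := by
    intro x hx τ
    rw [nbc_neg, nrm_neg]
    exact hx τ

theorem mem_nbM {k : ℕ} {x : E} :
    x ∈ nbM q F E k ↔ ∀ τ, nrm q F (nbc F E x τ) ≤ nbRad q F E k := Iff.rfl

theorem nbM_anti (k : ℕ) : nbM q F E (k + 1) ≤ nbM q F E k := fun _ hx τ =>
  (hx τ).trans (nbRad_anti q F E k)

theorem nbM_mul_mem (j k : ℕ) (x y : E) (hx : x ∈ nbM q F E j) (hy : y ∈ nbM q F E k) :
    x * y ∈ nbM q F E (j + k + 1) := fun π =>
  (nbc_mul_le q F E (nbRad_pos q F E j).le (nbRad_pos q F E k).le hx hy π).trans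
    (nbRad_mul q F E j k)

theorem nbM_sep (x : E) (h : ∀ k, x ∈ nbM q F E k) : x = 0 := by
  apply nbc_ext F E
  intro τ
  rw [nbc_zero]
  by_contra hne
  have hpos : 0 < nrm q F (nbc F E x τ) := nrm_pos q F hne
  have h0 := nbS0_pos q F E
  obtain ⟨k, hk⟩ := exists_pow_lt_of_lt_one (div_pos hpos h0) (by norm_num : (1 / 2 : ℝ) < 1)
  have h1 := h k τ
  unfold nbRad at h1
  rw [lt_div_iff₀ h0] at hk
  linarith

theorem nbM_complete (x : ℕ → E) (h : ∀ k, x (k + 1) - x k ∈ nbM q F E k) :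
    ∃ y : E, ∀ k, y - x k ∈ nbM q F E k := by
  have hτ : ∀ τ : E ≃ₐ[F] E, ∃ yτ : F, ∀ k,
      nrm q F (yτ - nbc F E (x k) τ) ≤ nbS0 q F E * (1 / 2) ^ k := by
    intro τ
    refine stmt_SuccApprox q F (fun k => nbc F E (x k) τ) (nbS0 q F E) (1 / 2)
      (nbS0_pos q F E).le (by norm_num) (by norm_num) (fun k => ?_)
    have := h k τ
    rwa [nbc_sub] at this
  choose yf hyf using hτ
  refine ⟨∑ τ, yf τ • IsGalois.normalBasis F E τ, fun k τ => ?_⟩
  rw [nbc_sub, nbc_of_sum]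
  exact hyf τ k

theorem nbM_galois (τ : E ≃ₐ[F] E) (k : ℕ) (x : E) (hx : x ∈ nbM q F E k) :
    τ x ∈ nbM q F E k := fun ρ => by
  rw [nbc_galois]
  exact hx _

theorem nbM_h0 (k : ℕ) (x : E) (hx : x ∈ nbM q F E k) (hfix : ∀ τ : E ≃ₐ[F] E, τ x = x) :
    ∃ y ∈ nbM q F E k, ∑ τ : E ≃ₐ[F] E, τ y = x := by
  classical
  have hc : ∀ ρ : E ≃ₐ[F] E, nbc F E x ρ = nbc F E x 1 := by
    intro ρ
    have := nbc_galois F E ρ x ρ
    rw [hfix ρ, inv_mul_cancel] at this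
    exact this
  refine ⟨nbc F E x 1 • IsGalois.normalBasis F E 1, ?_, ?_⟩
  · intro τ
    rw [nbc_smul]
    have h1 : nbc F E (IsGalois.normalBasis F E 1) τ = if (1 : E ≃ₐ[F] E) = τ then 1 else 0 := by
      unfold nbc
      rw [Module.Basis.repr_self, Finsupp.single_apply]
    rw [h1]
    split_ifs
    · rw [mul_one]; exact hx 1
    · rw [mul_zero, nrm_zero]; exact (nbRad_pos q F E k).le
  · conv_rhs => rw [← nbc_sum_self F E x]
    refine Finset.sum_congr rfl (fun τ _ => ?_)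
    rw [map_smul, nb_galois, mul_one, hc τ]

end concrete2

section concrete3

variable (q : ℕ) [Fact q.Prime] (F E : Type) [Field F] [Field E] [Algebra ℚ_[q] F]
  [FiniteDimensional ℚ_[q] F] [Algebra ℚ_[q] E] [Algebra F E] [IsScalarTower ℚ_[q] F E]
  [FiniteDimensional F E] [IsGalois F E] [FiniteDimensional ℚ_[q] E]

theorem nbM_h1 (σ : E ≃ₐ[F] E) (hσ : ∀ τ : E ≃ₐ[F] E, τ ∈ Subgroup.zpowers σ) (k l : ℕ)
    (x : E) (hx : x ∈ nbM q F E k) (hTr : ∑ τ : E ≃ₐ[F] E, τ x ∈ nbM q F E l) :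
    ∃ y ∈ nbM q F E k, σ y - y - x ∈ nbM q F E l := by
  classical
  obtain ⟨b, hb, hbB⟩ := cyclic_telescope σ hσ (fun τ => nbc F E x τ)
  let Bk : AddSubgroup F :=
    { carrier := {a | nrm q F a ≤ nbRad q F E k}
      zero_mem' := by
        change nrm q F 0 ≤ _
        rw [nrm_zero]; exact (nbRad_pos q F E k).le
      add_mem' := fun {a c} ha hc => (nrm_add_le_max q F a c).trans (max_le ha hc)
      neg_mem' := fun {a} ha => by
        change nrm q F (-a) ≤ _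
        rw [nrm_neg]; exact ha }
  have hbk : ∀ τ, nrm q F (b τ) ≤ nbRad q F E k := hbB Bk (fun τ => hx τ)
  have hS : nrm q F (∑ π, nbc F E x π) ≤ nbRad q F E l := by
    have h1 := hTr 1
    rw [nbc_sum] at h1
    simp only [nbc_galois, mul_one] at h1
    have e : ∑ τ : E ≃ₐ[F] E, nbc F E x τ⁻¹ = ∑ π, nbc F E x π :=
      Fintype.sum_equiv (Equiv.inv _) _ _ (fun τ => rfl)
    rwa [e] at h1
  refine ⟨∑ τ, b τ • IsGalois.normalBasis F E τ,
    fun τ => by rw [nbc_of_sum]; exact hbk τ, fun τ => ?_⟩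
  rw [nbc_sub, nbc_sub, nbc_galois, nbc_of_sum, nbc_of_sum, hb τ]
  split_ifs
  · rw [sub_sub_cancel_left, nrm_neg]; exact hS
  · rw [sub_zero, sub_self, nrm_zero]; exact (nbRad_pos q F E l).le

theorem nbM_ball : ∃ r : ℝ, 0 < r ∧ ∀ x : E, nrm q E x ≤ r → x ∈ nbM q F E 0 := by
  obtain ⟨C, hC, hCb⟩ := stmt_CoordBound q F E (E ≃ₐ[F] E) (IsGalois.normalBasis F E)
  refine ⟨nbS0 q F E / C, div_pos (nbS0_pos q F E) hC, fun x hx τ => ?_⟩
  have h1 : nrm q F (nbc F E x τ) ≤ C * nrm q E x := hCb x τ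
  have h2 : nbRad q F E 0 = nbS0 q F E := by unfold nbRad; simp
  rw [h2]
  calc nrm q F (nbc F E x τ) ≤ C * nrm q E x := h1
    _ ≤ C * (nbS0 q F E / C) := mul_le_mul_of_nonneg_left hx hC.le
    _ = nbS0 q F E := by field_simp

theorem nbM_lt_one (x : E) (hx : x ∈ nbM q F E 0) : nrm q E x < 1 := by
  have h2 : nbRad q F E 0 = nbS0 q F E := by unfold nbRad; simp
  have h3 : nrm q E x ≤ 1 / 2 := by
    rw [← nbc_sum_self F E x]
    refine nrm_sum_le q E _ _ (by norm_num) (fun τ _ => ?_)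
    rw [nrm_smul, IsGalois.normalBasis_apply τ, nrm_algEquiv]
    have h4 := hx τ
    rw [h2] at h4
    have h5 := nbS0_T q F E
    have h6 := nrm_nonneg q E (IsGalois.normalBasis F E 1)
    calc nrm q F (nbc F E x τ) * nrm q E (IsGalois.normalBasis F E 1)
        ≤ nbS0 q F E * nrm q E (IsGalois.normalBasis F E 1) :=
          mul_le_mul_of_nonneg_right h4 h6
      _ ≤ 1 / 2 := h5
  linarith

/-- the normal basis lattice filtration -/
noncomputable def nbLat : NLat F E where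
  M := nbM q F E
  anti := nbM_anti q F E
  mul_mem := nbM_mul_mem q F E
  sep := nbM_sep q F E
  complete := nbM_complete q F E
  galois := nbM_galois q F E
  h0 := nbM_h0 q F E
  h1 := nbM_h1 q F E

end concrete3

theorem stmt_LatticeExists : Stmt_LatticeExists := by
  intro q _ F E _ _ _ _ _ _ _ _ _
  haveI : FiniteDimensional ℚ_[q] E := FiniteDimensional.trans ℚ_[q] F E
  obtain ⟨r, hr, hball⟩ := nbM_ball q F E
  exact ⟨nbLat q F E, r, hr, hball, nbM_lt_one q F E⟩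

theorem stmt_TrivialUnits : Stmt_TrivialUnits :=
  trivialUnits_of_lattice stmt_LatticeExists stmt_TrivialOfLattice

end Fermat.Agent.S55.CFT.LOC.H68

end
-- ==== END Fermat.Agent.S55.CFT.LOC.H68_Conc2

-- ==== BEGIN Fermat.Agent.S55.CFT.LOC.H72_PowIndexB
section

set_option autoImplicit false
set_option linter.unusedSectionVars false
set_option linter.style.haveILetI false

namespace Fermat.Agent.S55.CFT.LOC.H72

open Fermat.Agent.S55.CFT.LOC Module Polynomial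

section padic

variable (q : ℕ) [Fact q.Prime] (F : Type) [Field F] [Algebra ℚ_[q] F]
  [FiniteDimensional ℚ_[q] F]

/-- The `ℤ_q`-algebra structure of `F`. -/
@[reducible] noncomputable def algZ : Algebra ℤ_[q] F :=
  ((algebraMap ℚ_[q] F).comp (algebraMap ℤ_[q] ℚ_[q])).toAlgebra

attribute [local instance] algZ

theorem isScalarTower_Z : IsScalarTower ℤ_[q] ℚ_[q] F :=
  IsScalarTower.of_algebraMap_eq (fun _ => rfl)

attribute [local instance] isScalarTower_Z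

theorem algebraMap_Z_apply (a : ℤ_[q]) :
    algebraMap ℤ_[q] F a = algebraMap ℚ_[q] F (a : ℚ_[q]) := rfl

theorem nrm_algebraMap_Z_le (a : ℤ_[q]) : nrm q F (algebraMap ℤ_[q] F a) ≤ 1 := by
  rw [algebraMap_Z_apply, nrm_algebraMap_padic]
  exact a.2

/-- `x` is integral over `ℤ_q` iff `|x| ≤ 1`. -/
theorem isIntegral_iff_nrm_le_one (x : F) : IsIntegral ℤ_[q] x ↔ nrm q F x ≤ 1 := by
  have hxK : IsIntegral ℚ_[q] x := Algebra.IsIntegral.isIntegral x
  have hmonic : (minpoly ℚ_[q] x).Monic := minpoly.monic hxK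
  rw [nrm_def, spectralNorm, spectralValue_le_one_iff hmonic]
  constructor
  · intro hx n
    rw [minpoly.isIntegrallyClosed_eq_field_fractions' ℚ_[q] hx, coeff_map]
    exact ((minpoly ℤ_[q] x).coeff n).2
  · intro h
    have hlift : minpoly ℚ_[q] x ∈ Polynomial.lifts (algebraMap ℤ_[q] ℚ_[q]) := by
      rw [Polynomial.lifts_iff_coeff_lifts]
      intro n
      exact ⟨⟨(minpoly ℚ_[q] x).coeff n, h n⟩, rfl⟩
    obtain ⟨Q, hQ, -, hQm⟩ := Polynomial.lifts_and_natDegree_eq_and_monic hlift hmonic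
    refine ⟨Q, hQm, ?_⟩
    have h1 : Polynomial.eval₂ (algebraMap ℤ_[q] F) x Q
        = Polynomial.eval₂ (algebraMap ℚ_[q] F) x (Q.map (algebraMap ℤ_[q] ℚ_[q])) := by
      rw [Polynomial.eval₂_map]
      rfl
    rw [h1, hQ]
    exact minpoly.aeval ℚ_[q] x

theorem card_residue_Z : Nat.card (ℤ_[q] ⧸ IsLocalRing.maximalIdeal ℤ_[q]) = q := by
  show Nat.card (IsLocalRing.ResidueField ℤ_[q]) = q
  rw [Nat.card_congr (PadicInt.residueField (p := q)).toEquiv, Nat.card_zmod]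

/-- `[O : qO] = q ^ [F : ℚ_q]`, in terms of balls. -/
theorem relIndex_Badd_q :
    (Badd q F (nrm q F (q : F)) (nrm_nonneg q F _)).relIndex (Badd q F 1 zero_le_one)
      = q ^ finrank ℚ_[q] F := by
  haveI : Algebra.IsSeparable ℚ_[q] F := inferInstance
  set C := integralClosure ℤ_[q] F with hC
  set I : Ideal C := (IsLocalRing.maximalIdeal ℤ_[q]).map (algebraMap ℤ_[q] C) with hI
  have hcard : Nat.card (C ⧸ I) = q ^ finrank ℚ_[q] F := by
    rw [hI, hC, card_intClosure_quot ℤ_[q] ℚ_[q] F, card_residue_Z]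
  have hq0 : (q : F) ≠ 0 := natCast_ne_zero q F (Fact.out : q.Prime).pos
  -- the additive hom `O → C / I`
  let ι : ↥(Badd q F 1 zero_le_one) →+ C :=
    { toFun := fun x => ⟨(x : F), (isIntegral_iff_nrm_le_one q F _).mpr x.2⟩
      map_zero' := rfl
      map_add' := fun _ _ => rfl }
  let ψ : ↥(Badd q F 1 zero_le_one) →+ C ⧸ I :=
    (Ideal.Quotient.mk I : C →+* C ⧸ I).toAddMonoidHom.comp ι
  have hψ : Function.Surjective ψ := by
    intro c
    obtain ⟨c, rfl⟩ := Ideal.Quotient.mk_surjective c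
    exact ⟨⟨(c : F), (isIntegral_iff_nrm_le_one q F _).mp c.2⟩, rfl⟩
  have hImem : ∀ c : C, c ∈ I ↔ nrm q F (c : F) ≤ nrm q F (q : F) := by
    intro c
    rw [hI, PadicInt.maximalIdeal_eq_span_p, Ideal.map_span, Set.image_singleton,
      Ideal.mem_span_singleton']
    constructor
    · rintro ⟨a, rfl⟩
      have e : ((a * algebraMap ℤ_[q] C (q : ℤ_[q]) : C) : F) = (a : F) * (q : F) := by
        simp
      rw [e, nrm_mul]
      exact mul_le_of_le_one_left (nrm_nonneg q F _) ((isIntegral_iff_nrm_le_one q F _).mp a.2)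
    · intro h
      have h1 : nrm q F ((c : F) / (q : F)) ≤ 1 := by
        rw [nrm_div]
        exact div_le_one_of_le₀ h (nrm_nonneg q F _)
      refine ⟨⟨(c : F) / (q : F), (isIntegral_iff_nrm_le_one q F _).mpr h1⟩, ?_⟩
      apply Subtype.ext
      have e : ((⟨(c : F) / (q : F), (isIntegral_iff_nrm_le_one q F _).mpr h1⟩
          * algebraMap ℤ_[q] C (q : ℤ_[q]) : C) : F) = (c : F) / (q : F) * (q : F) := by
        simp
      rw [e, div_mul_cancel₀ _ hq0]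
  have hker : ψ.ker = (Badd q F (nrm q F (q : F)) (nrm_nonneg q F _)).addSubgroupOf
      (Badd q F 1 zero_le_one) := by
    ext x
    rw [AddMonoidHom.mem_ker, AddSubgroup.mem_addSubgroupOf, mem_Badd]
    show (Ideal.Quotient.mk I (ι x) = 0) ↔ _
    rw [Ideal.Quotient.eq_zero_iff_mem, hImem]
    rfl
  rw [AddSubgroup.relIndex, ← hker, AddSubgroup.index_ker, ← hcard]
  exact Nat.card_congr (Equiv.ofBijective (fun y : ψ.range => (y : C ⧸ I))
    ⟨Subtype.val_injective, fun c => by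
      obtain ⟨x, hx⟩ := hψ c
      exact ⟨⟨c, ⟨x, hx⟩⟩, rfl⟩⟩)

end padic

section transfer

variable (q : ℕ) [Fact q.Prime] (F : Type) [Field F] [Algebra ℚ_[q] F]
  [FiniteDimensional ℚ_[q] F]

/-- `[V_r : V_s] = [B_r : B_s]`. -/
theorem relIndex_Vmul_eq {r s : ℝ} (hr : 0 ≤ r) (hr1 : r < 1) (hs : 0 ≤ s) (hs1 : s < 1) :
    (Vmul q F s hs hs1).relIndex (Vmul q F r hr hr1)
      = (Badd q F s hs).relIndex (Badd q F r hr) := by
  rw [Subgroup.relIndex, AddSubgroup.relIndex, Subgroup.index_eq_card, AddSubgroup.index_eq_card]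
  apply Nat.card_congr
  have hne : ∀ y : ↥(Badd q F r hr), (y : F) + 1 ≠ 0 := by
    intro y h0
    have h1 : nrm q F ((y : F) + 1) = 1 := by
      rw [add_comm]
      exact nrm_one_add_of_lt q F (lt_of_le_of_lt y.2 hr1)
    rw [h0, nrm_zero] at h1
    exact zero_ne_one h1
  let e : ↥(Vmul q F r hr hr1) ≃ ↥(Badd q F r hr) :=
    { toFun := fun x => ⟨((x : Fˣ) : F) - 1, x.2⟩
      invFun := fun y => ⟨Units.mk0 ((y : F) + 1) (hne y), by
        show nrm q F (((Units.mk0 ((y : F) + 1) (hne y) : Fˣ) : F) - 1) ≤ r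
        rw [Units.val_mk0, add_sub_cancel_right]
        exact y.2⟩
      left_inv := fun x => by
        apply Subtype.ext
        apply Units.ext
        show ((x : Fˣ) : F) - 1 + 1 = _
        ring
      right_inv := fun y => by
        apply Subtype.ext
        show (y : F) + 1 - 1 = _
        ring }
  refine Quotient.congr e ?_
  intro a b
  rw [QuotientGroup.leftRel_apply, QuotientAddGroup.leftRel_apply, Subgroup.mem_subgroupOf,
    AddSubgroup.mem_addSubgroupOf, mem_Vmul, mem_Badd]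
  have ha1 : nrm q F ((a : Fˣ) : F) = 1 := nrm_of_mem_Vmul q F a.2
  have e1 : (((a⁻¹ * b : ↥(Vmul q F r hr hr1)) : Fˣ) : F) - 1
      = (((b : Fˣ) : F) - ((a : Fˣ) : F)) / ((a : Fˣ) : F) := by
    have : (((a⁻¹ * b : ↥(Vmul q F r hr hr1)) : Fˣ) : F) = ((a : Fˣ) : F)⁻¹ * ((b : Fˣ) : F) := by
      simp
    rw [this]
    field_simp
  have e2 : ((-e a + e b : ↥(Badd q F r hr)) : F) = ((b : Fˣ) : F) - ((a : Fˣ) : F) := by
    show -(((a : Fˣ) : F) - 1) + (((b : Fˣ) : F) - 1) = _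
    ring
  rw [e1, e2, nrm_div, ha1, div_one]

/-- `[B_{|c| r} : B_{|c| s}] = [B_r : B_s]`. -/
theorem relIndex_Badd_mul {c : F} (hc : c ≠ 0) {r s : ℝ} (hr : 0 ≤ r) (hs : 0 ≤ s) :
    (Badd q F (nrm q F c * s) (mul_nonneg (nrm_nonneg q F c) hs)).relIndex
        (Badd q F (nrm q F c * r) (mul_nonneg (nrm_nonneg q F c) hr))
      = (Badd q F s hs).relIndex (Badd q F r hr) := by
  have hcpos : 0 < nrm q F c := nrm_pos q F hc
  have hinj : Function.Injective (AddMonoidHom.mulLeft c : F →+ F) := by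
    intro x y hxy
    exact mul_left_cancel₀ hc hxy
  have hmap : ∀ (t : ℝ) (ht : 0 ≤ t), (Badd q F t ht).map (AddMonoidHom.mulLeft c : F →+ F)
      = Badd q F (nrm q F c * t) (mul_nonneg (nrm_nonneg q F c) ht) := by
    intro t ht
    ext x
    rw [AddSubgroup.mem_map, mem_Badd]
    constructor
    · rintro ⟨y, hy, rfl⟩
      show nrm q F (c * y) ≤ _
      rw [nrm_mul]
      exact mul_le_mul_of_nonneg_left hy hcpos.le
    · intro hx
      refine ⟨x / c, ?_, ?_⟩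
      · show nrm q F (x / c) ≤ t
        rw [nrm_div, div_le_iff₀ hcpos, mul_comm]
        exact hx
      · show c * (x / c) = x
        field_simp
  rw [← hmap r hr, ← hmap s hs, AddSubgroup.relIndex_map_map_of_injective _ _ hinj]

end transfer

end Fermat.Agent.S55.CFT.LOC.H72

end
-- ==== END Fermat.Agent.S55.CFT.LOC.H72_PowIndexB

-- ==== BEGIN Fermat.Agent.S55.H48_E5Adj
section

set_option autoImplicit false

open CategoryTheory Module groupCohomology ExtCitation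

noncomputable section

namespace Fermat.Agent.S55.H48

open Fermat.Agent.S55

variable {k : Type} [Field k] {S : Finset Nat.Primes} (χ : GQ →* kˣ) (M : Rep.{0} k GQ)

/-- The local correction term of the adjointness formula. -/
def adjU (x : C2c S M) (y : C1c S (Md χ M)) : C2c S (kχ χ) :=
  (0, fun q h => ev χ M (x.2 q h) ((Md χ M).ρ (rl q.1 h) (y.2 q)))

/-- **Adjointness** of the two cup products on cone cocycles. -/
lemma cupA2_sub_cupB1 (x : C2c S M) (y : C1c S (Md χ M))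
    (hx : ∀ q : ↥S, resTwo q.1 x.1 = dOneL M q.1 (x.2 q))
    (hy : ∀ q : ↥S, resOne q.1 y.1 = dZeroL (Md χ M) q.1 (y.2 q)) :
    cupA2 S χ M x y.1 - cupB1 S χ M x.1 y = dCone2 S (kχ χ) (adjU χ M x y) := by
  refine Prod.ext (funext fun t => ?_) (funext fun q => funext fun t => ?_)
  · obtain ⟨g₁, g₂, g₃⟩ := t
    simp only [dCone2, adjU, cupA2, cupB1, Prod.fst_sub, Pi.sub_apply, sub_self, dTwo_zero,
      Pi.zero_apply]
  · obtain ⟨h₁, h₂⟩ := t
    have e1 : y.1 (rl q.1 h₂) = (Md χ M).ρ (rl q.1 h₂) (y.2 q) - y.2 q := congrFun (hy q) h₂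
    have e2 : x.1 (rl q.1 h₁, rl q.1 h₂) =
        M.ρ (rl q.1 h₁) (x.2 q h₂) - x.2 q (h₁ * h₂) + x.2 q h₁ := congrFun (hx q) (h₁, h₂)
    simp only [dCone2, adjU, cupA2, cupB1, dOneL, resTwo, Prod.snd_sub, Pi.sub_apply,
      Pi.zero_apply, e1, e2, ev_sub_left, ev_add_left, map_sub, map_mul,
      Module.End.mul_apply, ev_rho', kχ_rho']
    erw [ev_sub_right]
    ring

variable {χ M}

/-- The components of the correction term are level constant. -/
lemma lev_adjU (hχ : LevChar S χ) (hM : Lev S M) {x : C2c S M}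
    (hl' : ∀ q : ↥S, IsLevelConstant₁ (rl q.1) (x.2 q)) (y : C1c S (Md χ M)) :
    IsLevelConstantS₂ S (adjU χ M x y).1 ∧
      ∀ q : ↥S, IsLevelConstant₁ (rl q.1) ((adjU χ M x y).2 q) := by
  have hM' : Lev S (Md χ M) := lev_Md M hχ hM
  refine ⟨isLevelConstantS₂_const S (0 : kχ χ), fun q => ?_⟩
  exact levL₁_comp q.1 (levL₁_pair q.1 (hl' q) (levL₁_rho (Md χ M) q.1 hM' (y.2 q)))
    (fun p => ev χ M p.1 p.2)

/-- The two cup products of a cone 2-cocycle of `M` and a cone 1-cocycle of `M'` have the same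
trace. -/
theorem tr_cupA2_eq_cupB1 (hχ : LevChar S χ) (hM : Lev S M) (tr : Trace S χ)
    {x : C2c S M} {y : C1c S (Md χ M)} (hx : IsZ2c S M x) (hy : IsZ1c S (Md χ M) y) :
    tr.toFun (cupA2 S χ M x y.1) = tr.toFun (cupB1 S χ M x.1 y) := by
  rw [← sub_eq_zero, ← map_sub,
    cupA2_sub_cupB1 χ M x y (fun q => (hx.2 q).2) (fun q => hy.2 q)]
  obtain ⟨h1, h2⟩ := lev_adjU hχ hM (fun q => (hx.2 q).1) y
  exact tr.zero_of_isB3c _ (isB3c_dCone2 h1 h2)

/-- The trace of `x ∪ d m'` vanishes for a cone 2-cocycle `x`. -/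
theorem tr_cupA2_dZero (hNC : NC S) (hχ : LevChar S χ) (hM : Lev S M) (tr : Trace S χ)
    {x : C2c S M} (hx : IsZ2c S M x) (m' : Md χ M) :
    tr.toFun (cupA2 S χ M x (dZero (Md χ M) m')) = 0 := by
  have hx' := (isZ2c_iff x).1 hx
  have h := dCone2_cupA20 χ M x m'
  rw [hx'.2, cupA3_zero_left, zero_add] at h
  rw [← h]
  obtain ⟨h1, h2⟩ := lev_cupA20 χ M hNC hχ hM hx'.1.1 hx'.1.2 m'
  exact tr.zero_of_isB3c _ (isB3c_dCone2 h1 h2)

/-- The trace of `d f ∪ y` vanishes for a cone 1-cocycle `y` and a level-`S` cochain `f`. -/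
theorem tr_cupB1_dOne (hNC : NC S) (hχ : LevChar S χ) (hM : Lev S M) (tr : Trace S χ)
    {y : C1c S (Md χ M)} (hy : IsZ1c S (Md χ M) y) {f : GQ → M}
    (hf : IsLevelConstantS₁ S f) :
    tr.toFun (cupB1 S χ M (dOne M f) y) = 0 := by
  have hy' := (isZ1c_iff y).1 hy
  have h := dCone2_cupB11 χ M f y
  rw [hy'.2, cupB2_zero_right, sub_zero] at h
  rw [← h]
  obtain ⟨h1, h2⟩ := lev_cupB11 χ M hNC hχ hM hf hy'.1
  exact tr.zero_of_isB3c _ (isB3c_dCone2 h1 h2)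

end Fermat.Agent.S55.H48

end

end
-- ==== END Fermat.Agent.S55.H48_E5Adj

-- ==== BEGIN Fermat.Agent.S55.H49_E1B
section

set_option autoImplicit false

open CategoryTheory Module groupCohomology ExtCitation

noncomputable section

namespace Fermat.Agent.S55.H49

open Fermat.Agent.S55

variable {k : Type} [Field k] {S : Finset Nat.Primes} {χ : GQ →* kˣ}

/-- Level-`S` 2-cocycles are pushed forward by morphisms. -/
lemma isZ2S_comp {A B : Rep.{0} k GQ} (u : A ⟶ B) {a : GQ × GQ → A} (ha : IsZ2S S A a) :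
    IsZ2S S B (fun t => u.hom (a t)) := by
  refine ⟨?_, levS₂_comp ha.2 _⟩
  rw [dTwo_comp, ha.1]
  funext x
  simp

/-- Cone 1-cocycles are pushed forward by morphisms. -/
lemma isZ1c_mapC1 {A B : Rep.{0} k GQ} (u : A ⟶ B) {y : C1c S A} (hy : IsZ1c S A y) :
    IsZ1c S B (mapC1 u.hom y) := by
  rw [isZ1c_iff] at hy ⊢
  obtain ⟨hl, hd⟩ := hy
  refine ⟨levS₁_comp hl _, ?_⟩
  rw [dCone1_mapC1, hd]
  refine Prod.ext (funext fun t => ?_) (funext fun q => funext fun t => ?_) <;>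
    simp [mapC2]

/-- Cone 1-cocycles are closed under addition. -/
lemma isZ1c_add {M : Rep.{0} k GQ} {y y' : C1c S M} (hy : IsZ1c S M y) (hy' : IsZ1c S M y') :
    IsZ1c S M (y + y') := by
  rw [isZ1c_iff] at hy hy' ⊢
  obtain ⟨hl, hd⟩ := hy
  obtain ⟨hm, hd'⟩ := hy'
  refine ⟨hl.add hm, ?_⟩
  rw [dCone1_add, hd, hd', add_zero]

/-- `d_cone ∘ d_cone = 0` in degrees `1 → 2 → 3`. -/
lemma dCone2_dCone1 {M : Rep.{0} k GQ} (y : C1c S M) : dCone2 S M (dCone1 S M y) = 0 := by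
  refine Prod.ext (dTwo_dOne M y.1) (funext fun q => ?_)
  show resTwo q.1 (dOne M y.1) - dOneL M q.1 (resOne q.1 y.1 - dZeroL M q.1 (y.2 q)) = 0
  rw [resTwo_dOne, dOneL_sub, dOneL_dZeroL, sub_zero, sub_self]

/-- The level-`S` 2-cocycles as a submodule. -/
def Z2S (S : Finset Nat.Primes) (M : Rep.{0} k GQ) : Submodule k (GQ × GQ → M) where
  carrier := {a | IsZ2S S M a}
  add_mem' := by
    intro a a' ha ha'
    exact ⟨by rw [dTwo_add, ha.1, ha'.1, add_zero], ha.2.add ha'.2⟩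
  zero_mem' := ⟨dTwo_zero M, isLevelConstantS₂_const S (0 : M)⟩
  smul_mem' := by
    intro c a ha
    refine ⟨?_, ha.2.comp (c • ·)⟩
    have h := ha.1
    funext x
    have hx := congrFun h x
    simp only [dTwo, Pi.smul_apply, map_smul, Pi.zero_apply] at hx ⊢
    rw [← smul_sub, ← smul_add, ← smul_sub, hx, smul_zero]

set_option maxHeartbeats 1600000 in
/-- **E1B** from `NC`. -/
theorem stmt_E1B_of_NC (hNC : ∀ S : Finset Nat.Primes, NC S) : Stmt_E1B := by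
  intro k _ S χ tr hχ M₁ M M₂ i π hses h₁ hM h₂ hB1 hB2 hBm φ hφ
  obtain ⟨hi, hπ, hex⟩ := hses
  have hNC := hNC S
  have hM' : Lev S (Md χ M) := lev_Md M hχ hM
  -- linear section of `π`, linear retraction of `i`
  obtain ⟨σ, hσ⟩ := LinearMap.exists_rightInverse_of_surjective π.hom.toLinearMap
    (LinearMap.range_eq_top.2 hπ)
  have hσ' : ∀ m₂ : M₂, π.hom (σ m₂) = m₂ := fun m₂ =>
    congrArg (fun f : M₂ →ₗ[k] M₂ => f m₂) hσ
  obtain ⟨r, hr⟩ := LinearMap.exists_leftInverse_of_injective i.hom.toLinearMap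
    (LinearMap.ker_eq_bot.2 hi)
  have hr' : ∀ m₁ : M₁, r (i.hom m₁) = m₁ := fun m₁ =>
    congrArg (fun f : M₁ →ₗ[k] M₁ => f m₁) hr
  have hir : ∀ m : M, π.hom m = 0 → i.hom (r m) = m := by
    intro m hm
    obtain ⟨m₁, rfl⟩ := (hex m).1 hm
    rw [hr']
  have hπi : ∀ m₁ : M₁, π.hom (i.hom m₁) = 0 := fun m₁ => (hex _).2 ⟨m₁, rfl⟩
  -- the duals of `σ` and `r`
  let F : Md χ M →ₗ[k] Md χ M₂ :=
    { toFun := fun ψ => (show Module.Dual k M from ψ).comp σ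
      map_add' := fun _ _ => rfl
      map_smul' := fun _ _ => rfl }
  let ι : Md χ M₁ →ₗ[k] Md χ M :=
    { toFun := fun ψ => (show Module.Dual k M₁ from ψ).comp r
      map_add' := fun _ _ => rfl
      map_smul' := fun _ _ => rfl }
  have hι : ∀ ψ₁ : Md χ M₁, dMap χ i (ι ψ₁) = ψ₁ := by
    intro ψ₁
    apply Md_ext
    intro m₁
    rw [ev_dMap]
    change (show Module.Dual k M₁ from ψ₁) (r (i.hom m₁)) = _
    rw [hr']
    rfl
  have hF : ∀ ψ : Md χ M, dMap χ i ψ = 0 → dMap χ π (F ψ) = ψ := by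
    intro ψ hψ
    apply Md_ext
    intro m
    rw [ev_dMap]
    change (show Module.Dual k M from ψ) (σ (π.hom m)) = (show Module.Dual k M from ψ) m
    have h1 : π.hom (σ (π.hom m) - m) = 0 := by rw [map_sub, hσ', sub_self]
    obtain ⟨m₁, hm₁⟩ := (hex _).1 h1
    have h2 : (show Module.Dual k M from ψ) (i.hom m₁) = 0 :=
      congrArg (fun ψ' : Md χ M₁ => ev χ M₁ m₁ ψ') hψ
    rw [hm₁, map_sub, sub_eq_zero] at h2
    exact h2
  have hiπ : ∀ ψ₂ : Md χ M₂, dMap χ i (dMap χ π ψ₂) = 0 := fun ψ₂ =>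
    dMap_comp_eq_zero χ i π ⟨hi, hπ, hex⟩ ψ₂
  -- Step 1: the functional on `H²_S(M₁)`
  let φ₁ : (GQ × GQ → M₁) →ₗ[k] k := φ.comp (i.hom.toLinearMap.compLeft (GQ × GQ))
  have hφ₁ : ∀ a₁ : GQ × GQ → M₁, IsB2S S M₁ a₁ → φ₁ a₁ = 0 := by
    rintro a₁ ⟨f₁, hf₁, rfl⟩
    apply hφ
    refine ⟨fun g => i.hom (f₁ g), levS₁_comp hf₁ _, ?_⟩
    rw [dOne_comp]
    rfl
  obtain ⟨y₁, hy₁Z, hy₁⟩ := hB1 φ₁ hφ₁
  have hy₁Z' := (isZ1c_iff y₁).1 hy₁Z
  -- Step 2: lift and take the cone differential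
  let yh : C1c S (Md χ M) := mapC1 ι y₁
  have hyhl : IsLevelConstantS₁ S yh.1 := by
    show IsLevelConstantS₁ S (fun g => ι (y₁.1 g))
    exact levS₁_comp hy₁Z'.1 _
  have hiyh : mapC1 (dMap χ i) yh = y₁ := by
    refine Prod.ext (funext fun t => ?_) (funext fun q => ?_)
    · exact hι _
    · exact hι _
  let ε : C2c S (Md χ M) := dCone1 S (Md χ M) yh
  have hεl : IsLevelConstantS₂ S ε.1 := isLevelConstantS₂_dOne (Md χ M) hNC hM' hyhl
  have hεl' : ∀ q : ↥S, IsLevelConstant₁ (rl q.1) (ε.2 q) := fun q =>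
    levL₁_sub q.1 (levL₁_resOne q.1 hyhl) (levL₁_dZeroL q.1 (Md χ M) hM' (yh.2 q))
  have hiε : mapC2 (dMap χ i) ε = 0 := by
    have := dCone1_mapC1 (S := S) (dHom χ i) yh
    have e : mapC1 (dHom χ i).hom yh = y₁ := hiyh
    rw [e, hy₁Z'.2] at this
    exact this.symm
  let ε₂ : C2c S (Md χ M₂) := mapC2 F ε
  have hπε₂ : mapC2 (dMap χ π) ε₂ = ε := by
    refine Prod.ext (funext fun t => ?_) (funext fun q => funext fun t => ?_)
    · exact hF _ (congrFun (congrArg Prod.fst hiε) t)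
    · exact hF _ (congrFun (congrFun (congrArg Prod.snd hiε) q) t)
  have hε₂Z : IsZ2c S (Md χ M₂) ε₂ := by
    rw [isZ2c_iff]
    have hl1 : IsLevelConstantS₂ S ε₂.1 := by
      show IsLevelConstantS₂ S (fun t => F (ε.1 t))
      exact levS₂_comp hεl _
    have hl2 : ∀ q : ↥S, IsLevelConstant₁ (rl q.1) (ε₂.2 q) := by
      intro q
      show IsLevelConstant₁ (rl q.1) (fun t => F (ε.2 q t))
      exact levL₁_comp q.1 (hεl' q) _
    refine ⟨⟨hl1, hl2⟩, ?_⟩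
    have h1 := dCone2_mapC2 (S := S) (dHom χ π) ε₂
    have e : mapC2 (dHom χ π).hom ε₂ = ε := hπε₂
    rw [e] at h1
    have h2 : dCone2 S (Md χ M) ε = 0 := dCone2_dCone1 yh
    rw [h2] at h1
    refine Prod.ext (funext fun t => ?_) (funext fun q => funext fun t => ?_)
    · apply dMap_injective χ π hπ
      have := congrFun (congrArg Prod.fst h1) t
      simp only [Prod.fst_zero, Pi.zero_apply, map_zero]
      exact this.symm
    · apply dMap_injective χ π hπ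
      have := congrFun (congrFun (congrArg Prod.snd h1) q) t
      simp only [Prod.snd_zero, Pi.zero_apply, map_zero]
      exact this.symm
  -- Step 3: `ε₂` pairs to zero with the level-`S` 1-cocycles of `M₂`
  have hstep3 : ∀ a₂ : GQ → M₂, IsZ1S S M₂ a₂ → tr.toFun (cupB2 S χ M₂ a₂ ε₂) = 0 := by
    intro a₂ ha₂
    let ah : GQ → M := fun g => σ (a₂ g)
    have hahl : IsLevelConstantS₁ S ah := levS₁_comp ha₂.2 _
    have hπah : (fun g => π.hom (ah g)) = a₂ := funext fun g => hσ' _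
    have hB : IsB2S S M (dOne M ah) := ⟨ah, hahl, rfl⟩
    have hπd : ∀ t, π.hom (dOne M ah t) = 0 := by
      intro t
      have := congrFun (dOne_comp π ah) t
      rw [hπah, ha₂.1] at this
      exact this.symm
    let a₁ : GQ × GQ → M₁ := fun t => r (dOne M ah t)
    have hia₁ : (fun t => i.hom (a₁ t)) = dOne M ah := funext fun t => hir _ (hπd t)
    have ha₁Z : IsZ2S S M₁ a₁ := by
      refine ⟨?_, levS₂_comp (isLevelConstantS₂_dOne M hNC hM hahl) _⟩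
      funext t
      apply hi
      have := congrFun (dTwo_comp i a₁) t
      rw [hia₁, dTwo_dOne] at this
      simp only [Pi.zero_apply, map_zero]
      exact this.symm
    have e1 : tr.toFun (cupB1 S χ M₁ a₁ y₁) = 0 := by
      rw [hy₁ a₁ ha₁Z]
      show φ (fun t => i.hom (a₁ t)) = 0
      rw [hia₁]
      exact hφ _ hB
    have e2 := dCone2_cupB11 (S := S) χ M ah yh
    have e3 : cupB1 S χ M (dOne M ah) yh = cupB1 S χ M₁ a₁ y₁ := by
      rw [← hia₁, cupB1_comp, hiyh]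
    have e4 : cupB2 S χ M ah (dCone1 S (Md χ M) yh) = cupB2 S χ M₂ a₂ ε₂ := by
      show cupB2 S χ M ah ε = _
      rw [← hπε₂, ← cupB2_comp, hπah]
    have hlev := lev_cupB11 χ M hNC hχ hM hahl hyhl
    have e5 : tr.toFun (dCone2 S (kχ χ) (cupB11 χ M ah yh)) = 0 :=
      tr.zero_of_isB3c _ (isB3c_dCone2 hlev.1 hlev.2)
    rw [e2, e3, e4, map_sub, e1, zero_sub, neg_eq_zero] at e5
    exact e5
  -- Step 4: correct the lift to a cone cocycle
  obtain ⟨z₂, hz₂l, hz₂⟩ := (isB2c_iff ε₂).1 (hBm ε₂ hε₂Z hstep3)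
  let y : C1c S (Md χ M) := yh - mapC1 (dMap χ π) z₂
  have hyZ : IsZ1c S (Md χ M) y := by
    rw [isZ1c_iff]
    have hzl : IsLevelConstantS₁ S (mapC1 (dMap χ π) z₂).1 := by
      show IsLevelConstantS₁ S (fun g => dMap χ π (z₂.1 g))
      exact levS₁_comp hz₂l _
    refine ⟨levS₁_sub hyhl hzl, ?_⟩
    rw [dCone1_sub]
    have := dCone1_mapC1 (S := S) (dHom χ π) z₂
    have e : mapC1 (dHom χ π).hom z₂ = mapC1 (dMap χ π) z₂ := rfl
    rw [e] at this
    rw [this, ← hz₂]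
    show ε - mapC2 (dMap χ π) ε₂ = 0
    rw [hπε₂, sub_self]
  have hiy : mapC1 (dMap χ i) y = y₁ := by
    refine Prod.ext (funext fun t => ?_) (funext fun q => ?_)
    · show dMap χ i (yh.1 t - dMap χ π (z₂.1 t)) = y₁.1 t
      rw [map_sub, hiπ, sub_zero]
      exact hι _
    · show dMap χ i (yh.2 q - dMap χ π (z₂.2 q)) = y₁.2 q
      rw [map_sub, hiπ, sub_zero]
      exact hι _
  have hyZ' := (isZ1c_iff y).1 hyZ
  -- Step 5: the difference functional factors through `H²_S(M₂)`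
  let ψ : (GQ × GQ → M) →ₗ[k] k := φ - tr.toFun.comp (cupB1ₗ S χ M y)
  have hψ : ∀ a, ψ a = φ a - tr.toFun (cupB1 S χ M a y) := fun a => rfl
  have hψB : ∀ f : GQ → M, IsLevelConstantS₁ S f → ψ (dOne M f) = 0 := by
    intro f hf
    rw [hψ, hφ _ ⟨f, hf, rfl⟩, zero_sub, neg_eq_zero]
    have e2 := dCone2_cupB11 (S := S) χ M f y
    have hlev := lev_cupB11 χ M hNC hχ hM hf hyZ'.1
    have e5 : tr.toFun (dCone2 S (kχ χ) (cupB11 χ M f y)) = 0 :=
      tr.zero_of_isB3c _ (isB3c_dCone2 hlev.1 hlev.2)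
    rw [e2, hyZ'.2, cupB2_zero_right, sub_zero] at e5
    exact e5
  have hψ₁ : ∀ a₁ : GQ × GQ → M₁, IsZ2S S M₁ a₁ → ψ (fun t => i.hom (a₁ t)) = 0 := by
    intro a₁ ha₁
    rw [hψ, cupB1_comp, hiy, hy₁ a₁ ha₁]
    exact sub_self _
  have hker : ∀ a ∈ Z2S S M, (π.hom.toLinearMap.compLeft (GQ × GQ)) a = 0 → ψ a = 0 := by
    intro a ha ha'
    have hπa : ∀ t, π.hom (a t) = 0 := fun t => congrFun ha' t
    have hia : (fun t => i.hom (r (a t))) = a := funext fun t => hir _ (hπa t)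
    have hra : IsZ2S S M₁ (fun t => r (a t)) := by
      refine ⟨?_, levS₂_comp ha.2 _⟩
      funext t
      apply hi
      have := congrFun (dTwo_comp i (fun t => r (a t))) t
      rw [hia, ha.1] at this
      simp only [Pi.zero_apply, map_zero]
      exact this.symm
    rw [← hia]
    exact hψ₁ _ hra
  obtain ⟨ψ₂, hψ₂⟩ := exists_functional_factor (Z2S S M)
    (π.hom.toLinearMap.compLeft (GQ × GQ)) ψ hker
  have hψ₂' : ∀ a : GQ × GQ → M, IsZ2S S M a → ψ₂ (fun t => π.hom (a t)) = ψ a :=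
    fun a ha => hψ₂ a ha
  have hψ₂B : ∀ a₂ : GQ × GQ → M₂, IsB2S S M₂ a₂ → ψ₂ a₂ = 0 := by
    rintro a₂ ⟨f₂, hf₂, rfl⟩
    have hl : IsLevelConstantS₁ S (fun g => σ (f₂ g)) := levS₁_comp hf₂ _
    have hZ : IsZ2S S M (dOne M (fun g => σ (f₂ g))) :=
      ⟨dTwo_dOne M _, isLevelConstantS₂_dOne M hNC hM hl⟩
    have e : (fun t => π.hom (dOne M (fun g => σ (f₂ g)) t)) = dOne M₂ f₂ := by
      rw [← dOne_comp]
      congr 1
      funext g
      exact hσ' _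
    rw [← e, hψ₂' _ hZ]
    exact hψB _ hl
  obtain ⟨y₂, hy₂Z, hy₂⟩ := hB2 ψ₂ hψ₂B
  -- the answer
  refine ⟨y + mapC1 (dMap χ π) y₂, isZ1c_add hyZ (isZ1c_mapC1 (dHom χ π) hy₂Z), fun a ha => ?_⟩
  have e := hy₂ (fun t => π.hom (a t)) (isZ2S_comp π ha)
  rw [cupB1_add_right, map_add, ← cupB1_comp, e, hψ₂' a ha, hψ]
  ring

end Fermat.Agent.S55.H49

end

end
-- ==== END Fermat.Agent.S55.H49_E1B

-- ==== BEGIN Fermat.Agent.S55.Top.H48_PTSpaces
section

set_option autoImplicit false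

open CategoryTheory Module groupCohomology ExtCitation

noncomputable section

namespace Fermat.Agent.S55.Top.H48

open Fermat.Agent.S55 Fermat.Agent.S55.Top

variable {k : Type} [Field k] {S : Finset Nat.Primes}
  {K : IntermediateField ℚ (AlgebraicClosure ℚ)} (𝔓 : PlaceSys S K)

/-! ### Cone cocycles and coboundaries as submodules -/

lemma isZ2cK_add {x x' : 𝔓.C2 k} (hx : IsZ2cK 𝔓 x) (hx' : IsZ2cK 𝔓 x') : IsZ2cK 𝔓 (x + x') := by
  refine ⟨⟨?_, hx.1.2.add hx'.1.2⟩, fun q w => ⟨(hx.2 q w).1.add (hx'.2 q w).1, ?_⟩⟩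
  · rw [Prod.fst_add, tTwo_add, hx.1.1, hx'.1.1, add_zero]
  · show 𝔓.res₂ q w (x.1 + x'.1) = tOne (x.2 q w + x'.2 q w)
    rw [tOne_add, ← (hx.2 q w).2, ← (hx'.2 q w).2]
    rfl

lemma isZ2cK_smul (c : k) {x : 𝔓.C2 k} (hx : IsZ2cK 𝔓 x) : IsZ2cK 𝔓 (c • x) := by
  refine ⟨⟨?_, hx.1.2.comp (c • ·)⟩, fun q w => ⟨(hx.2 q w).1.comp (c • ·), ?_⟩⟩
  · rw [Prod.smul_fst, tTwo_smul, hx.1.1, smul_zero]
  · show 𝔓.res₂ q w (c • x.1) = tOne (c • x.2 q w)
    rw [tOne_smul, ← (hx.2 q w).2]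
    rfl

lemma isZ2cK_zero : IsZ2cK 𝔓 (0 : 𝔓.C2 k) := by
  refine ⟨⟨tTwo_zero, isLevK₂_const (0 : k)⟩, fun q w =>
    ⟨isLevelConstant₁_const (𝔓.rw q w) (0 : k), ?_⟩⟩
  show 𝔓.res₂ q w (0 : ↥K.fixingSubgroup × ↥K.fixingSubgroup → k) = tOne (0 : 𝔓.Γw q w → k)
  rw [tOne_zero]
  rfl

variable (k) in
/-- The `K`-level cone 2-cocycles. -/
def Z2cK : Submodule k (𝔓.C2 k) where
  carrier := {x | IsZ2cK 𝔓 x}
  add_mem' := fun hx hx' => isZ2cK_add 𝔓 hx hx'
  zero_mem' := isZ2cK_zero 𝔓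
  smul_mem' := fun c _ hx => isZ2cK_smul 𝔓 c hx

lemma dCone1K_add (f f' : ↥K.fixingSubgroup → k) :
    dCone1K 𝔓 (f + f') = dCone1K 𝔓 f + dCone1K 𝔓 f' := by
  refine Prod.ext (tOne_add f f') rfl

lemma dCone1K_smul (c : k) (f : ↥K.fixingSubgroup → k) :
    dCone1K 𝔓 (c • f) = c • dCone1K 𝔓 f := by
  refine Prod.ext (tOne_smul c f) rfl

lemma dCone1K_zero : dCone1K 𝔓 (0 : ↥K.fixingSubgroup → k) = 0 := by
  refine Prod.ext tOne_zero rfl

variable (k) in
/-- The `K`-level cone 2-coboundaries. -/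
def B2cK : Submodule k (𝔓.C2 k) where
  carrier := {x | IsB2cK 𝔓 x}
  add_mem' := by
    intro x x' hx hx'
    obtain ⟨f, hf, rfl⟩ := (isB2cK_iff 𝔓 x).1 hx
    obtain ⟨f', hf', rfl⟩ := (isB2cK_iff 𝔓 x').1 hx'
    exact (isB2cK_iff 𝔓 _).2 ⟨f + f', hf.add hf', (dCone1K_add 𝔓 f f').symm⟩
  zero_mem' := (isB2cK_iff 𝔓 _).2 ⟨0, isLevK₁_const (0 : k), (dCone1K_zero 𝔓).symm⟩
  smul_mem' := by
    intro c x hx
    obtain ⟨f, hf, rfl⟩ := (isB2cK_iff 𝔓 x).1 hx
    exact (isB2cK_iff 𝔓 _).2 ⟨c • f, hf.comp (c • ·), (dCone1K_smul 𝔓 c f).symm⟩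

variable (k) in
/-- `H²_c(K) = Z²_c / B²_c`. -/
abbrev Hc2 : Type := ↥(Z2cK k 𝔓) ⧸ (B2cK k 𝔓).comap (Z2cK k 𝔓).subtype

variable (k) in
/-- The `K`-level cone 1-cocycles. -/
def Z1cK : Submodule k (𝔓.C1 k) where
  carrier := {y | IsZ1cK 𝔓 y}
  add_mem' := by
    intro y y' hy hy'
    refine ⟨(Z1K k S K).add_mem hy.1 hy'.1, fun q w => ?_⟩
    show 𝔓.res₁ q w (y.1 + y'.1) = 0
    have h1 := hy.2 q w
    have h2 := hy'.2 q w
    funext t
    have e1 := congrFun h1 t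
    have e2 := congrFun h2 t
    simp only [PlaceSys.res₁, Pi.add_apply, Pi.zero_apply] at e1 e2 ⊢
    rw [e1, e2, add_zero]
  zero_mem' := ⟨(Z1K k S K).zero_mem, fun q w => rfl⟩
  smul_mem' := by
    intro c y hy
    refine ⟨(Z1K k S K).smul_mem c hy.1, fun q w => ?_⟩
    show 𝔓.res₁ q w (c • y.1) = 0
    funext t
    have e1 := congrFun (hy.2 q w) t
    simp only [PlaceSys.res₁, Pi.smul_apply, Pi.zero_apply] at e1 ⊢
    rw [e1, smul_zero]

variable (k) in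
/-- `⊕_w H¹(K_w, k)`. -/
abbrev P1 : Type := ∀ (q : ↥S) (w : 𝔓.W q), ↥(Z1w k 𝔓 q w)

/-! ### The maps of the cone sequence -/

variable (k) in
/-- `r1 : H¹_S(G_K) → ⊕_w H¹(K_w)`. -/
def r1 : ↥(Z1K k S K) →ₗ[k] P1 k 𝔓 where
  toFun b := fun q w => ⟨𝔓.res₁ q w b.1, by
    refine ⟨?_, levL₁_res₁ b.2.2 q w⟩
    rw [← res₂_tOne, b.2.1]
    rfl⟩
  map_add' _ _ := rfl
  map_smul' _ _ := rfl

lemma r1_apply (b : ↥(Z1K k S K)) (q : ↥S) (w : 𝔓.W q) :
    ((r1 k 𝔓 b q w : ↥(Z1w k 𝔓 q w)) : 𝔓.Γw q w → k) = 𝔓.res₁ q w b.1 := rfl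

variable (k) in
/-- The cone 2-cocycle `(0, g)` of a family of local homomorphisms. -/
def δ1c : P1 k 𝔓 →ₗ[k] ↥(Z2cK k 𝔓) where
  toFun g := ⟨(0, fun q w => (g q w).1), by
    refine ⟨⟨tTwo_zero, isLevK₂_const (0 : k)⟩, fun q w => ⟨(g q w).2.2, ?_⟩⟩
    show 𝔓.res₂ q w (0 : ↥K.fixingSubgroup × ↥K.fixingSubgroup → k) = tOne (g q w).1
    rw [(g q w).2.1]
    rfl⟩
  map_add' g g' := by
    apply Subtype.ext
    refine Prod.ext ?_ rfl
    show (0 : ↥K.fixingSubgroup × ↥K.fixingSubgroup → k) = 0 + 0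
    rw [add_zero]
  map_smul' c g := by
    apply Subtype.ext
    refine Prod.ext ?_ rfl
    show (0 : ↥K.fixingSubgroup × ↥K.fixingSubgroup → k) =
      c • (0 : ↥K.fixingSubgroup × ↥K.fixingSubgroup → k)
    rw [smul_zero]

lemma δ1c_coe (g : P1 k 𝔓) :
    ((δ1c k 𝔓 g : ↥(Z2cK k 𝔓)) : 𝔓.C2 k) = (0, fun q w => (g q w).1) := rfl

variable (k) in
/-- `δ1 : ⊕_w H¹(K_w) → H²_c(K)`. -/
def δ1 : P1 k 𝔓 →ₗ[k] Hc2 k 𝔓 := (Submodule.mkQ _).comp (δ1c k 𝔓)

variable (k) in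
/-- The global component of a cone 2-cocycle. -/
def π2c : ↥(Z2cK k 𝔓) →ₗ[k] ↥(Z2K k S K) where
  toFun x := ⟨x.1.1, x.2.1⟩
  map_add' _ _ := rfl
  map_smul' _ _ := rfl

variable (k) in
/-- `π2 : H²_c(K) → H²_S(G_K)`. -/
def π2 : Hc2 k 𝔓 →ₗ[k] H2K k S K :=
  Submodule.mapQ _ _ (π2c k 𝔓) (by
    intro x hx
    obtain ⟨f, hf, h1, _⟩ := (hx : IsB2cK 𝔓 x.1)
    exact ⟨f, hf, h1.symm⟩)

lemma π2_mk (x : ↥(Z2cK k 𝔓)) :
    π2 k 𝔓 (Submodule.Quotient.mk x) = Submodule.Quotient.mk (π2c k 𝔓 x) := rfl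

variable (k) in
/-- `π1 : Z¹_c(K) → H¹_S(G_K)`, the global component. -/
def π1 : ↥(Z1cK k 𝔓) →ₗ[k] ↥(Z1K k S K) where
  toFun y := ⟨y.1.1, y.2.1⟩
  map_add' _ _ := rfl
  map_smul' _ _ := rfl

/-! ### Exactness -/

lemma ex_C2 (x : Hc2 k 𝔓) (hx : π2 k 𝔓 x = 0) : ∃ g : P1 k 𝔓, δ1 k 𝔓 g = x := by
  obtain ⟨x, rfl⟩ := Submodule.mkQ_surjective _ x
  rw [Submodule.mkQ_apply, π2_mk, Submodule.Quotient.mk_eq_zero] at hx
  obtain ⟨f, hf, hfx⟩ := (hx : IsB2K S K x.1.1)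
  have hfx : tOne f = x.1.1 := hfx
  have hx2 := x.2.2
  refine ⟨fun q w => ⟨x.1.2 q w - 𝔓.res₁ q w f, ?_, ?_⟩, ?_⟩
  · rw [sub_eq_add_neg, tOne_add, ← (hx2 q w).2, ← hfx, res₂_tOne]
    have : tOne (-𝔓.res₁ q w f) = - tOne (𝔓.res₁ q w f) := by
      have := tOne_smul (-1 : k) (𝔓.res₁ q w f)
      simpa using this
    rw [this, add_neg_cancel]
  · have h1 := (hx2 q w).1
    have h2 := _root_.Fermat.Agent.S55.Top.H48.levL₁_neg q w (levL₁_res₁ (𝔓 := 𝔓) hf q w)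
    rw [sub_eq_add_neg]
    exact h1.add h2
  · show Submodule.Quotient.mk _ = Submodule.Quotient.mk x
    rw [Submodule.Quotient.eq]
    show IsB2cK 𝔓 (_ - x.1)
    rw [isB2cK_iff]
    refine ⟨-f, hf.comp (fun c => -c), ?_⟩
    refine Prod.ext ?_ (funext fun q => funext fun w => ?_)
    · show (0 : ↥K.fixingSubgroup × ↥K.fixingSubgroup → k) - x.1.1 = tOne (-f)
      have : tOne (-f) = - tOne f := by
        have := tOne_smul (-1 : k) f
        simpa using this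
      rw [this, hfx, zero_sub]
    · show (x.1.2 q w - 𝔓.res₁ q w f) - x.1.2 q w = 𝔓.res₁ q w (-f)
      funext t
      simp [PlaceSys.res₁]

lemma δ1_r1 (b : ↥(Z1K k S K)) : δ1 k 𝔓 (r1 k 𝔓 b) = 0 := by
  show Submodule.Quotient.mk _ = 0
  rw [Submodule.Quotient.mk_eq_zero]
  show IsB2cK 𝔓 _
  rw [isB2cK_iff]
  refine ⟨b.1, b.2.2, ?_⟩
  refine Prod.ext ?_ rfl
  show (0 : ↥K.fixingSubgroup × ↥K.fixingSubgroup → k) = tOne b.1
  rw [b.2.1]

lemma ex_H1 (b : ↥(Z1K k S K)) (hb : r1 k 𝔓 b = 0) : ∃ y : ↥(Z1cK k 𝔓), π1 k 𝔓 y = b := by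
  refine ⟨⟨(b.1, 0), b.2, fun q w => ?_⟩, Subtype.ext rfl⟩
  have := congrArg (fun g : P1 k 𝔓 => ((g q w : ↥(Z1w k 𝔓 q w)) : 𝔓.Γw q w → k)) hb
  exact this

end Fermat.Agent.S55.Top.H48

end

end
-- ==== END Fermat.Agent.S55.Top.H48_PTSpaces
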