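-- GENERATED (merged mirror, NOTES/tools/trim/merge3_helper67.py): 8 modules of the originals, bodies verbatim.
import Fermat.Agent.Zm.S56_L06_003
import Fermat.Agent.Zm.S56_L07_000
import Fermat.Agent.Zm.S56_L07_002
import Fermat.Agent.Zm.S56_L07_003
import Fermat.Agent.Zm.S56_L01_003
import Fermat.Agent.Zm.S56_L03_003
import Fermat.Agent.Zm.S56_L06_001
import Fermat.Agent.S55.H48_E5Lin
import Fermat.Agent.Zm.S56_L05_003
import Fermat.Agent.Zm.S56_L04_003

-- ==== BEGIN Fermat.Agent.S55.CFT.GS.H24_PSEx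
section

set_option autoImplicit false
set_option linter.unusedSectionVars false
set_option linter.unusedVariables false
set_option linter.style.haveILetI false

open CategoryTheory groupCohomology ExtCitation

noncomputable section

namespace Fermat.Agent.S55.CFT.GS.H24

open Fermat.Agent.S55 Fermat.Agent.S55.Top Fermat.Agent.S55.CFT

local notation "Qb" => AlgebraicClosure ℚ

section orbit

variable (Γ : Type) [Group Γ] (X : Type) [MulAction Γ X]

/-- Orbit data with a prescribed representative `x₁` of its orbit. -/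
def orbitDataAt (x₁ : X) : OrbitData Γ X (MulAction.orbitRel.Quotient Γ X) := by
  classical
  let rep : MulAction.orbitRel.Quotient Γ X → X := fun r =>
    if r = Quotient.mk (MulAction.orbitRel Γ X) x₁ then x₁ else Quotient.out r
  have hrep : ∀ r, Quotient.mk (MulAction.orbitRel Γ X) (rep r) = r := by
    intro r
    by_cases h : r = Quotient.mk (MulAction.orbitRel Γ X) x₁
    · show Quotient.mk _ (if r = Quotient.mk (MulAction.orbitRel Γ X) x₁ then x₁
        else Quotient.out r) = r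
      rw [if_pos h, h]
    · show Quotient.mk _ (if r = Quotient.mk (MulAction.orbitRel Γ X) x₁ then x₁
        else Quotient.out r) = r
      rw [if_neg h]
      exact Quotient.out_eq r
  have hex : ∀ x : X, ∃ g : Γ, g • rep (Quotient.mk (MulAction.orbitRel Γ X) x) = x := by
    intro x
    have h := hrep (Quotient.mk (MulAction.orbitRel Γ X) x)
    have h2 := Quotient.exact h.symm
    obtain ⟨g, hg⟩ := (MulAction.orbitRel_apply.1 h2)
    exact ⟨g, hg⟩
  exact
  { rep := rep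
    o := fun x => Quotient.mk (MulAction.orbitRel Γ X) x
    t := fun x => if x = rep (Quotient.mk (MulAction.orbitRel Γ X) x) then 1
      else (hex x).choose
    t_smul := fun x => by
      by_cases h : x = rep (Quotient.mk (MulAction.orbitRel Γ X) x)
      · rw [if_pos h, one_smul]; exact h.symm
      · rw [if_neg h]; exact (hex x).choose_spec
    o_smul := fun γ x => by
      apply Quotient.sound
      exact MulAction.orbitRel_apply.2 ⟨γ, rfl⟩
    o_rep := fun r => hrep r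
    t_rep := fun r => by
      have h : rep r = rep (Quotient.mk (MulAction.orbitRel Γ X) (rep r)) := by
        rw [hrep r]
      rw [if_pos h] }

theorem orbitDataAt_rep (x₁ : X) :
    (orbitDataAt Γ X x₁).rep (Quotient.mk (MulAction.orbitRel Γ X) x₁) = x₁ := by
  classical
  show (if Quotient.mk (MulAction.orbitRel Γ X) x₁ = Quotient.mk (MulAction.orbitRel Γ X) x₁
    then x₁ else Quotient.out _) = x₁
  rw [if_pos rfl]

end orbit

section psex

attribute [local instance] locAct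

variable (K : IntermediateField ℚ Qb) [Finite (XK K)] (q : Nat.Primes)

/-- The place system for `S' = {q}` through `σ`. -/
def placeSysAt (σ : GQ) : PlaceSys ({q} : Finset Nat.Primes) K where
  glob := globData K
  glob_rep := rfl
  W := fun q' => MulAction.orbitRel.Quotient (Gl q'.1) (XK K)
  fin := fun q' => by
    haveI : Finite (MulAction.orbitRel.Quotient (Gl q'.1) (XK K)) := Quotient.finite _
    exact Fintype.ofFinite _
  loc := fun q' => orbitDataAt (Gl q'.1) (XK K) (σ • x0 K)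

/-- The index `q` of `S' = {q}`. -/
def qS : ↥({q} : Finset Nat.Primes) := ⟨q, Finset.mem_singleton_self q⟩

/-- The place through `σ`. -/
def wAt (σ : GQ) : (placeSysAt K q σ).W (qS q) :=
  Quotient.mk (MulAction.orbitRel (Gl q) (XK K)) (σ • x0 K)

/-- **PSEX'**. -/
theorem psex (σ : GQ) :
    ∃ g : GQ, g ∈ K.fixingSubgroup ∧ (placeSysAt K q σ).σ (qS q) (wAt K q σ) = σ * g := by
  have h1 : ((placeSysAt K q σ).loc (qS q)).rep (wAt K q σ) = σ • x0 K :=
    orbitDataAt_rep (Gl q) (XK K) (σ • x0 K)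
  have h2 := (placeSysAt K q σ).σ_smul (qS q) (wAt K q σ)
  rw [h1] at h2
  refine ⟨σ⁻¹ * (placeSysAt K q σ).σ (qS q) (wAt K q σ), ?_, by group⟩
  apply mem_fix_of_smul_x0
  rw [mul_smul, h2, inv_smul_smul]

end psex

end Fermat.Agent.S55.CFT.GS.H24

end

end
-- ==== END Fermat.Agent.S55.CFT.GS.H24_PSEx

-- ==== BEGIN Fermat.Agent.S55.CFT.LOC.H25_UnramCyc
section

set_option autoImplicit false
set_option linter.unusedSectionVars false
set_option linter.style.haveILetI false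

namespace Fermat.Agent.S55.CFT.LOC.H25

open Fermat.Agent.S55.CFT.LOC

/-- For `m ∣ q ^ f - 1`, `f ≥ 1`, there is a finite unramified extension `E` of `ℚ_q` containing a
primitive `m`-th root of unity, with an automorphism `τ` which raises every `m`-th root of unity
to the `q`-th power. -/
theorem exists_unram_cyc (q : ℕ) [Fact q.Prime] {m f : ℕ} (hf : 0 < f) (hm : m ∣ q ^ f - 1) :
    ∃ (E : IntermediateField ℚ_[q] (AlgebraicClosure ℚ_[q])) (τ : E ≃ₐ[ℚ_[q]] E) (η : E),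
      FiniteDimensional ℚ_[q] E ∧ IsUnram q ℚ_[q] E ∧ IsPrimitiveRoot η m ∧
      ∀ x : E, x ^ m = 1 → τ x = x ^ q := by
  classical
  have hres : resCard q ℚ_[q] = q := resCard_padic q
  have hpos : 0 < resCard q ℚ_[q] ^ f - 1 := pow_resCard_sub_one_pos q ℚ_[q] hf
  haveI hne : NeZero (resCard q ℚ_[q] ^ f - 1) := ⟨hpos.ne'⟩
  haveI : CharZero (AlgebraicClosure ℚ_[q]) :=
    charZero_of_injective_algebraMap (algebraMap ℚ_[q] (AlgebraicClosure ℚ_[q])).injective
  haveI : NeZero ((resCard q ℚ_[q] ^ f - 1 : ℕ) : AlgebraicClosure ℚ_[q]) := NeZero.charZero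
  obtain ⟨ζ, hζ⟩ := HasEnoughRootsOfUnity.exists_primitiveRoot (AlgebraicClosure ℚ_[q])
    (resCard q ℚ_[q] ^ f - 1)
  let E : IntermediateField ℚ_[q] (AlgebraicClosure ℚ_[q]) := IntermediateField.adjoin ℚ_[q] {ζ}
  haveI hcyc : IsCyclotomicExtension {resCard q ℚ_[q] ^ f - 1} ℚ_[q] E :=
    hζ.intermediateField_adjoin_isCyclotomicExtension ℚ_[q]
  haveI hfd : FiniteDimensional ℚ_[q] E :=
    IsCyclotomicExtension.finiteDimensional {resCard q ℚ_[q] ^ f - 1} ℚ_[q] E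
  let ζE : E := ⟨ζ, IntermediateField.mem_adjoin_simple_self ℚ_[q] ζ⟩
  have hζE : IsPrimitiveRoot ζE (resCard q ℚ_[q] ^ f - 1) := by
    have h1 : IsPrimitiveRoot (algebraMap E (AlgebraicClosure ℚ_[q]) ζE)
        (resCard q ℚ_[q] ^ f - 1) := hζ
    exact IsPrimitiveRoot.of_map_of_injective (f := algebraMap E (AlgebraicClosure ℚ_[q])) h1
      (algebraMap E (AlgebraicClosure ℚ_[q])).injective
  obtain ⟨τ, hτ⟩ := exists_frobenius q ℚ_[q] E hf hζE
  rw [hres] at hτ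
  obtain ⟨t, ht⟩ := hm
  have hη : IsPrimitiveRoot (ζE ^ t) m := by
    refine hζE.pow hpos ?_
    rw [hres, ht, mul_comm]
  refine ⟨E, τ, ζE ^ t, hfd, isUnram q ℚ_[q] E hf hζE, hη, ?_⟩
  intro x hx
  have hx' : x ^ (resCard q ℚ_[q] ^ f - 1) = 1 := by
    rw [hres, ht, pow_mul, hx, one_pow]
  obtain ⟨j, -, rfl⟩ := hζE.eq_pow_of_pow_eq_one hx'
  rw [map_pow, hτ, ← pow_mul, ← pow_mul, mul_comm]

end Fermat.Agent.S55.CFT.LOC.H25

end
-- ==== END Fermat.Agent.S55.CFT.LOC.H25_UnramCyc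

-- ==== BEGIN Fermat.Agent.S55.CFT.LOC.H68_NormIndex
section

set_option autoImplicit false
set_option linter.unusedSectionVars false
set_option linter.style.haveILetI false

namespace Fermat.Agent.S55.CFT.LOC.H68

open Fermat.Agent.S55.CFT.LOC

section normIndex

variable (q : ℕ) [Fact q.Prime] (F E : Type) [Field F] [Field E] [Algebra ℚ_[q] F]
  [FiniteDimensional ℚ_[q] F] [Algebra ℚ_[q] E] [Algebra F E] [IsScalarTower ℚ_[q] F E]
  [FiniteDimensional F E] [IsGalois F E] [FiniteDimensional ℚ_[q] E]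

theorem natCast_q_ne_zero : (q : E) ≠ 0 := by
  intro h
  have := nrm_natCast_q q E
  rw [h, nrm_zero] at this
  have hq : (0 : ℝ) < q := by exact_mod_cast (Fact.out : q.Prime).pos
  have : (q : ℝ)⁻¹ = 0 := this.symm
  rw [inv_eq_zero] at this
  linarith

/-- the prime `q` as a unit of `E` -/
noncomputable def qU : Eˣ := Units.mk0 (q : E) (natCast_q_ne_zero q E)

@[simp] theorem qU_coe : ((qU q E : Eˣ) : E) = (q : E) := rfl

theorem nrm_qU_zpow (k : ℤ) : nrm q E (((qU q E) ^ k : Eˣ) : E) = ((q : ℝ)⁻¹) ^ k := by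
  rw [Units.val_zpow_eq_zpow_val, nrm_zpow, qU_coe, nrm_natCast_q]

theorem q_inv_zpow_inj {k m : ℤ} (h : ((q : ℝ)⁻¹) ^ k = ((q : ℝ)⁻¹) ^ m) : k = m := by
  have hq1 : (1 : ℝ) < q := by exact_mod_cast (Fact.out : q.Prime).one_lt
  have h0 : (0 : ℝ) < (q : ℝ)⁻¹ := by positivity
  have h1 : (q : ℝ)⁻¹ ≠ 1 := by
    intro h; rw [inv_eq_one] at h; linarith
  exact zpow_right_injective₀ h0 h1 h

theorem algEquiv_natCast (τ : E ≃ₐ[F] E) : τ (q : E) = (q : E) := map_natCast τ q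

theorem nlD_qU (σ : E ≃ₐ[F] E) : nlD σ (qU q E) = 1 := by
  apply Units.ext
  rw [nlD_coe, qU_coe, algEquiv_natCast, div_self (natCast_q_ne_zero q E)]
  rfl

theorem nlN_qU : nlN F E (qU q E) = (qU q E) ^ (Module.finrank F E) := by
  apply Units.ext
  rw [nlN_eq_norm, qU_coe, Units.val_pow_eq_pow_val, qU_coe]
  have : (q : E) = algebraMap F E (q : F) := by simp
  rw [this, Algebra.norm_algebraMap, map_pow]

theorem nlD_nlN (σ : E ≃ₐ[F] E) (x : Eˣ) : nlD σ (nlN F E x) = 1 := by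
  apply Units.ext
  rw [nlD_coe, nlN_eq_norm, AlgEquiv.commutes, div_self]
  · rfl
  · rw [← nlN_eq_norm]; exact (nlN F E x).ne_zero

theorem nlN_nlD (σ : E ≃ₐ[F] E) (x : Eˣ) : nlN F E (nlD σ x) = 1 := by
  rw [nlD_apply, map_div, div_eq_one]
  apply Units.ext
  rw [nlN_eq_norm, nlN_eq_norm]
  congr 1
  exact Algebra.norm_eq_of_algEquiv σ (x : E)

theorem nrm_nlN (x : Eˣ) : nrm q E ((nlN F E x : Eˣ) : E) = nrm q E (x : E) ^ Module.finrank F E := by
  rw [nlN_eq_norm, nrm_algebraMap, nrm_norm]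

/-- the absolute value is `1` if the norm has absolute value `1` -/
theorem nrm_eq_one_of_pow {a : ℝ} (ha : 0 ≤ a) {n : ℕ} (hn : n ≠ 0) (h : a ^ n = 1) : a = 1 := by
  exact (pow_eq_one_iff_of_nonneg ha hn).mp h

end normIndex


section finiteIndex

variable (q : ℕ) [Fact q.Prime] (F E : Type) [Field F] [Field E] [Algebra ℚ_[q] F]
  [FiniteDimensional ℚ_[q] F] [Algebra ℚ_[q] E] [Algebra F E] [IsScalarTower ℚ_[q] F E]
  [FiniteDimensional F E] [IsGalois F E] [FiniteDimensional ℚ_[q] E]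

theorem finiteIndex_of_ball (r : ℝ) (hr : 0 < r) (V : Subgroup Eˣ)
    (hV1 : ∀ u : Eˣ, nrm q E ((u : E) - 1) ≤ r → u ∈ V) :
    (V ⊔ Subgroup.zpowers (qU q E)).index ≠ 0 := by
  classical
  have hq1 : (1 : ℝ) < q := by exact_mod_cast (Fact.out : q.Prime).one_lt
  have hq0 : (0 : ℝ) < q := by linarith
  set r' := min r 1 with hr'
  have hr'pos : 0 < r' := lt_min hr one_pos
  have hr'1 : r' ≤ 1 := min_le_right _ _
  have hr'r : r' ≤ r := min_le_left _ _
  obtain ⟨T, _, hT2⟩ := stmt_FiniteResidue q E (r' * (q : ℝ)⁻¹) (by positivity)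
  set S := V ⊔ Subgroup.zpowers (qU q E) with hS
  let φ : T → Eˣ ⧸ S := fun t =>
    if h : (t : E) ≠ 0 then QuotientGroup.mk (Units.mk0 (t : E) h) else 1
  have hφ : Function.Surjective φ := by
    intro X
    induction X using QuotientGroup.induction_on with
    | H x =>
    have hxpos : 0 < nrm q E (x : E) := nrm_pos q E x.ne_zero
    obtain ⟨n, hn1, hn2⟩ := exists_mem_Ioc_zpow hxpos hq1
    -- y = x * q^(n+1)
    set y : Eˣ := x * (qU q E) ^ (n + 1) with hy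
    have hny : nrm q E (y : E) = nrm q E (x : E) * ((q : ℝ)⁻¹) ^ (n + 1) := by
      rw [hy, Units.val_mul, nrm_mul, nrm_qU_zpow]
    have hqn : (0 : ℝ) < (q : ℝ) ^ (n + 1) := zpow_pos hq0 _
    have hinv : ((q : ℝ)⁻¹) ^ (n + 1) = ((q : ℝ) ^ (n + 1))⁻¹ := inv_zpow _ _
    have hy_le : nrm q E (y : E) ≤ 1 := by
      rw [hny, hinv, ← div_eq_mul_inv, div_le_one hqn]
      exact hn2
    have hy_gt : (q : ℝ)⁻¹ < nrm q E (y : E) := by
      rw [hny, hinv, ← div_eq_mul_inv, lt_div_iff₀ hqn]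
      calc (q : ℝ)⁻¹ * (q : ℝ) ^ (n + 1) = (q : ℝ) ^ n := by
            rw [zpow_add_one₀ hq0.ne']; field_simp
        _ < nrm q E (x : E) := hn1
    obtain ⟨t, htT, hty⟩ := hT2 (y : E) hy_le
    have hlt : nrm q E ((y : E) - t) < nrm q E (y : E) := by
      calc nrm q E ((y : E) - t) ≤ r' * (q : ℝ)⁻¹ := hty
        _ ≤ 1 * (q : ℝ)⁻¹ := by gcongr
        _ = (q : ℝ)⁻¹ := one_mul _
        _ < nrm q E (y : E) := hy_gt
    have hnt : nrm q E t = nrm q E (y : E) := by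
      have e : t = (y : E) + (-((y : E) - t)) := by ring
      have hne : nrm q E (y : E) ≠ nrm q E (-((y : E) - t)) := by
        rw [nrm_neg]; exact hlt.ne'
      rw [e, nrm_add_eq_max_of_ne q E hne, nrm_neg, max_eq_left hlt.le]
    have ht0 : t ≠ 0 := by
      intro h0
      rw [h0, nrm_zero] at hnt
      have : (0 : ℝ) < (q : ℝ)⁻¹ := by positivity
      linarith
    refine ⟨⟨t, htT⟩, ?_⟩
    simp only [φ, ne_eq, ht0, not_false_eq_true, dite_true]
    rw [QuotientGroup.eq]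
    -- (t⁻¹ * y) ∈ V and x = y * q^{-(n+1)}
    have hV : (Units.mk0 t ht0)⁻¹ * y ∈ V := by
      apply hV1
      have e : ((((Units.mk0 t ht0)⁻¹ * y : Eˣ) : E) - 1) = ((y : E) - t) / t := by
        rw [Units.val_mul, Units.val_inv_eq_inv_val, Units.val_mk0]
        field_simp
      rw [e, nrm_div, hnt]
      have hypos : 0 < nrm q E (y : E) := lt_trans (by positivity) hy_gt
      rw [div_le_iff₀ hypos]
      calc nrm q E ((y : E) - t) ≤ r' * (q : ℝ)⁻¹ := hty
        _ ≤ r' * nrm q E (y : E) := by gcongr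
        _ ≤ r * nrm q E (y : E) := by gcongr
    have e2 : (Units.mk0 t ht0)⁻¹ * x = ((Units.mk0 t ht0)⁻¹ * y) * ((qU q E) ^ (n + 1))⁻¹ := by
      rw [hy]; group
    rw [e2]
    exact Subgroup.mul_mem_sup hV ((Subgroup.zpowers (qU q E)).inv_mem
      (Subgroup.zpow_mem_zpowers _ _))
  haveI : Finite (Eˣ ⧸ S) := Finite.of_surjective φ hφ
  exact Subgroup.index_ne_zero_of_finite

end finiteIndex


section main

variable (q : ℕ) [Fact q.Prime] (F E : Type) [Field F] [Field E] [Algebra ℚ_[q] F]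
  [FiniteDimensional ℚ_[q] F] [Algebra ℚ_[q] E] [Algebra F E] [IsScalarTower ℚ_[q] F E]
  [FiniteDimensional F E] [IsGalois F E] [FiniteDimensional ℚ_[q] E]

theorem units_map_pow_mem (σ : E ≃ₐ[F] E) (V : Subgroup Eˣ)
    (hV3 : ∀ u ∈ V, Units.map (σ : E →* E) u ∈ V) (i : ℕ) :
    ∀ u ∈ V, Units.map ((σ ^ i : E ≃ₐ[F] E) : E →* E) u ∈ V := by
  induction i with
  | zero =>
    intro u hu
    have : Units.map ((σ ^ 0 : E ≃ₐ[F] E) : E →* E) u = u := by
      apply Units.ext; simp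
    rw [this]; exact hu
  | succ i ih =>
    intro u hu
    have : Units.map ((σ ^ (i + 1) : E ≃ₐ[F] E) : E →* E) u =
        Units.map (σ : E →* E) (Units.map ((σ ^ i : E ≃ₐ[F] E) : E →* E) u) := by
      apply Units.ext
      simp [pow_succ', AlgEquiv.mul_apply]
    rw [this]
    exact hV3 _ (ih u hu)

theorem units_map_mem_of_gen (σ : E ≃ₐ[F] E) (hσ : ∀ τ : E ≃ₐ[F] E, τ ∈ Subgroup.zpowers σ)
    (V : Subgroup Eˣ) (hV3 : ∀ u ∈ V, Units.map (σ : E →* E) u ∈ V) (τ : E ≃ₐ[F] E) :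
    ∀ u ∈ V, Units.map (τ : E →* E) u ∈ V := by
  have h1 : τ ∈ Submonoid.powers σ := mem_powers_iff_mem_zpowers.mpr (hσ τ)
  obtain ⟨i, rfl⟩ := Submonoid.mem_powers_iff _ _ |>.mp h1
  exact units_map_pow_mem F E σ V hV3 i

theorem fixed_of_gen (σ : E ≃ₐ[F] E) (hσ : ∀ τ : E ≃ₐ[F] E, τ ∈ Subgroup.zpowers σ) {x : E}
    (hx : σ x = x) : ∃ a : F, algebraMap F E a = x := by
  have hfix : ∀ τ : E ≃ₐ[F] E, τ x = x := by
    intro τ
    obtain ⟨m, rfl⟩ := Subgroup.mem_zpowers_iff.mp (hσ τ)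
    have hmem : σ ∈ MulAction.stabilizer (E ≃ₐ[F] E) x := hx
    exact (MulAction.stabilizer (E ≃ₐ[F] E) x).zpow_mem hmem m
  have : x ∈ (⊥ : IntermediateField F E) := by
    rw [← IsGalois.fixedField_top (F := F) (E := E)]
    intro τ
    exact hfix τ.1
  exact IntermediateField.mem_bot.mp this

theorem normIndex_of_trivial (σ : E ≃ₐ[F] E) (hσ : ∀ τ : E ≃ₐ[F] E, τ ∈ Subgroup.zpowers σ)
    (r : ℝ) (V : Subgroup Eˣ) (hr : 0 < r)
    (hV1 : ∀ u : Eˣ, nrm q E ((u : E) - 1) ≤ r → u ∈ V)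
    (hV2 : ∀ u ∈ V, nrm q E (u : E) = 1)
    (hV3 : ∀ u ∈ V, Units.map (σ : E →* E) u ∈ V)
    (hV4 : ∀ u ∈ V, σ (u : E) = u → ∃ w ∈ V, algebraMap F E (Algebra.norm F (w : E)) = u)
    (hV5 : ∀ u ∈ V, Algebra.norm F (u : E) = 1 → ∃ w ∈ V, (u : E) = σ (w : E) / w) :
    (normSubgroup F E).index = Module.finrank F E := by
  classical
  haveI : IsCyclic (E ≃ₐ[F] E) := ⟨σ, hσ⟩
  set n := Module.finrank F E with hn
  have hnpos : 0 < n := Module.finrank_pos
  set π := qU q E with hπ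
  set S := V ⊔ Subgroup.zpowers π with hS
  have hVS : V ≤ S := le_sup_left
  have hπS : π ∈ S := (le_sup_right : Subgroup.zpowers π ≤ S) (Subgroup.mem_zpowers π)
  have hSmem : ∀ x, x ∈ S ↔ ∃ v ∈ V, ∃ k : ℤ, v * π ^ k = x := by
    intro x
    rw [hS, Subgroup.mem_sup]
    constructor
    · rintro ⟨v, hv, z, hz, rfl⟩
      obtain ⟨k, rfl⟩ := Subgroup.mem_zpowers_iff.mp hz
      exact ⟨v, hv, k, rfl⟩
    · rintro ⟨v, hv, k, rfl⟩
      exact ⟨v, hv, π ^ k, Subgroup.zpow_mem_zpowers π k, rfl⟩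
  have hVτ := units_map_mem_of_gen F E σ hσ V hV3
  have hNV : ∀ v ∈ V, nlN F E v ∈ V := by
    intro v hv
    rw [nlN, MonoidHom.finsetProd_apply]
    exact V.prod_mem (fun τ _ => hVτ τ v hv)
  have hDV : ∀ v ∈ V, nlD σ v ∈ V := by
    intro v hv
    rw [nlD_apply]
    exact V.div_mem (hV3 v hv) hv
  have hNπ : nlN F E π = π ^ n := nlN_qU q F E
  have hDπ : nlD σ π = 1 := nlD_qU q F E σ
  have hnrmS : ∀ v ∈ V, ∀ k : ℤ, nrm q E ((v * π ^ k : Eˣ) : E) = ((q : ℝ)⁻¹) ^ k := by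
    intro v hv k
    rw [Units.val_mul, nrm_mul, hV2 v hv, one_mul, nrm_qU_zpow]
  -- stability
  have hDS : S.map (nlD σ) ≤ S := by
    rintro _ ⟨x, hx, rfl⟩
    obtain ⟨v, hv, k, rfl⟩ := (hSmem x).mp hx
    rw [map_mul, map_zpow, hDπ, one_zpow, mul_one]
    exact hVS (hDV v hv)
  have hNS : S.map (nlN F E) ≤ S := by
    rintro _ ⟨x, hx, rfl⟩
    obtain ⟨v, hv, k, rfl⟩ := (hSmem x).mp hx
    rw [map_mul, map_zpow]
    exact S.mul_mem (hVS (hNV v hv)) (S.zpow_mem (hNπ ▸ S.pow_mem hπS n) k)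
  have hfin : S.index ≠ 0 := finiteIndex_of_ball q E r hr V hV1
  have hherb := mhIdx_mul_eq_of_finiteIndex (nlD σ) (nlN F E) (nlD_nlN F E σ) (nlN_nlD F E σ) S hDS hNS hfin
  -- (1) mhIdx N D S = 1
  have h1 : mhIdx (nlN F E) (nlD σ) S = 1 := by
    rw [mhIdx, Subgroup.relIndex_eq_one]
    rintro x ⟨hxN, hxS⟩
    obtain ⟨v, hv, k, rfl⟩ := (hSmem x).mp hxS
    have hN1 : nlN F E (v * π ^ k) = 1 := hxN
    have hk : k = 0 := by
      have h2 := nrm_nlN q F E (v * π ^ k)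
      rw [hN1, Units.val_one, nrm_one, hnrmS v hv k] at h2
      have h3 : ((q : ℝ)⁻¹) ^ k = 1 :=
        nrm_eq_one_of_pow (zpow_nonneg (by positivity) _) hnpos.ne' h2.symm
      have h4 : ((q : ℝ)⁻¹) ^ k = ((q : ℝ)⁻¹) ^ (0 : ℤ) := by rw [h3, zpow_zero]
      exact q_inv_zpow_inj q h4
    subst hk
    rw [zpow_zero, mul_one] at hN1 ⊢
    have hnorm : Algebra.norm F (v : E) = 1 := by
      have := congrArg (fun u : Eˣ => (u : E)) hN1
      simp only [nlN_eq_norm, Units.val_one] at this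
      exact (algebraMap F E).injective (by rw [this, map_one])
    obtain ⟨w, hw, hwv⟩ := hV5 v hv hnorm
    refine ⟨w, hVS hw, ?_⟩
    apply Units.ext
    rw [nlD_coe, hwv]
  -- (2) mhIdx N D ⊤ = 1 (Hilbert 90)
  have h2 : mhIdx (nlN F E) (nlD σ) ⊤ = 1 := by
    rw [mhIdx_top, Subgroup.relIndex_eq_one]
    intro x hx
    have hN1 : nlN F E x = 1 := hx
    have hnorm : Algebra.norm F (x : E) = 1 := by
      have := congrArg (fun u : Eˣ => (u : E)) hN1
      simp only [nlN_eq_norm, Units.val_one] at this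
      exact (algebraMap F E).injective (by rw [this, map_one])
    obtain ⟨y, hy⟩ := groupCohomology.exists_div_of_norm_eq_one hσ hnorm
    refine ⟨y⁻¹, ?_⟩
    apply Units.ext
    rw [nlD_coe, ← hy, Units.val_inv_eq_inv_val, map_inv₀]
    have hy0 : (y : E) ≠ 0 := y.ne_zero
    have hσy0 : σ (y : E) ≠ 0 := by
      intro h
      exact hy0 ((map_eq_zero σ).mp h)
    field_simp
  -- (3) mhIdx D N S = n
  have h3 : mhIdx (nlD σ) (nlN F E) S = n := by
    rw [mhIdx]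
    have hle : S.map (nlN F E) ≤ (nlD σ).ker ⊓ S := by
      refine le_inf ?_ hNS
      rintro _ ⟨x, _, rfl⟩
      exact nlD_nlN F E σ x
    refine relIndex_eq_of_cyclic _ _ hle π ⟨hDπ, hπS⟩ n ?_ ?_
    · rintro x ⟨hxD, hxS⟩
      obtain ⟨v, hv, k, rfl⟩ := (hSmem x).mp hxS
      refine ⟨k, ?_⟩
      rw [mul_div_cancel_right]
      have hDv : nlD σ v = 1 := by
        have : nlD σ (v * π ^ k) = 1 := hxD
        rwa [map_mul, map_zpow, hDπ, one_zpow, mul_one] at this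
      have hσv : σ (v : E) = v := by
        have := congrArg (fun u : Eˣ => (u : E)) hDv
        simp only [nlD_coe, Units.val_one] at this
        exact (div_eq_one_iff_eq v.ne_zero).mp this
      obtain ⟨w, hw, hwv⟩ := hV4 v hv hσv
      refine ⟨w, hVS hw, ?_⟩
      apply Units.ext
      rw [nlN_eq_norm, hwv]
    · intro k
      constructor
      · rintro ⟨x, hxS, hxk⟩
        obtain ⟨v, hv, m, rfl⟩ := (hSmem x).mp hxS
        have e1 : nlN F E (v * π ^ m) = nlN F E v * π ^ ((n : ℤ) * m) := by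
          rw [map_mul, map_zpow, hNπ, zpow_mul, zpow_natCast]
        rw [e1] at hxk
        have e2 := hnrmS (nlN F E v) (hNV v hv) ((n : ℤ) * m)
        rw [hxk] at e2
        have e3 : nrm q E ((π ^ k : Eˣ) : E) = ((q : ℝ)⁻¹) ^ k := nrm_qU_zpow q E k
        rw [e3] at e2
        exact ⟨m, q_inv_zpow_inj q e2⟩
      · rintro ⟨m, rfl⟩
        refine ⟨π ^ m, S.zpow_mem hπS m, ?_⟩
        rw [map_zpow, hNπ, zpow_mul, zpow_natCast]
  -- (4) mhIdx D N ⊤ = index of the norm subgroup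
  have h4 : mhIdx (nlD σ) (nlN F E) ⊤ = (normSubgroup F E).index := by
    rw [mhIdx_top]
    let ι : Fˣ →* Eˣ := Units.map (algebraMap F E : F →* E)
    have hι : Function.Injective ι := by
      intro a b hab
      apply Units.ext
      apply (algebraMap F E).injective
      have := congrArg (fun u : Eˣ => (u : E)) hab
      simpa [ι] using this
    have hker : (nlD σ).ker = Subgroup.map ι ⊤ := by
      ext x
      simp only [MonoidHom.mem_ker, Subgroup.mem_map, Subgroup.mem_top, true_and]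
      constructor
      · intro hx
        have hσx : σ (x : E) = x := by
          have := congrArg (fun u : Eˣ => (u : E)) hx
          simp only [nlD_coe, Units.val_one] at this
          exact (div_eq_one_iff_eq x.ne_zero).mp this
        obtain ⟨a, ha⟩ := fixed_of_gen F E σ hσ hσx
        have ha0 : a ≠ 0 := by
          rintro rfl
          rw [map_zero] at ha
          exact x.ne_zero ha.symm
        refine ⟨Units.mk0 a ha0, ?_⟩
        apply Units.ext
        simpa [ι] using ha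
      · rintro ⟨a, rfl⟩
        apply Units.ext
        rw [nlD_coe]
        simp [ι]
    have hrange : (nlN F E).range = Subgroup.map ι (normSubgroup F E) := by
      ext x
      simp only [MonoidHom.mem_range, Subgroup.mem_map]
      constructor
      · rintro ⟨y, rfl⟩
        refine ⟨Units.map (Algebra.norm F : E →* F) y, ⟨y, rfl⟩, ?_⟩
        apply Units.ext
        rw [nlN_eq_norm]
        simp [ι]
      · rintro ⟨a, ⟨y, rfl⟩, rfl⟩
        refine ⟨y, ?_⟩
        apply Units.ext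
        rw [nlN_eq_norm]
        simp [ι]
    rw [hker, hrange, Subgroup.relIndex_map_map_of_injective _ _ hι, Subgroup.relIndex_top_right]
  rw [h1, h2, h3, h4, mul_one, mul_one] at hherb
  exact hherb

end main

theorem stmt_LocalNormIndexCyclic : Stmt_LocalNormIndexCyclic := by
  intro q _ F E _ _ _ _ _ _ _ hcyc
  letI : Algebra ℚ_[q] E := ((algebraMap F E).comp (algebraMap ℚ_[q] F)).toAlgebra
  haveI : IsScalarTower ℚ_[q] F E := IsScalarTower.of_algebraMap_eq (fun _ => rfl)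
  haveI : FiniteDimensional ℚ_[q] E := FiniteDimensional.trans ℚ_[q] F E
  obtain ⟨σ, hσ⟩ := hcyc.exists_generator
  obtain ⟨r, V, hr, hV1, hV2, hV3, hV4, hV5⟩ := stmt_TrivialUnits q F E σ hσ
  exact normIndex_of_trivial q F E σ hσ r V hr hV1 hV2 hV3 hV4 hV5

theorem stmt_LocalNormIndex : Fermat.Agent.S55.CFT.Stmt_LocalNormIndex := by
  intro q _ F E _ _ _ _ _ _ _ ℓ hℓ hdeg
  have hcard : Nat.card (E ≃ₐ[F] E) = ℓ := by rw [IsGalois.card_aut_eq_finrank, hdeg]
  haveI : Fact ℓ.Prime := ⟨hℓ⟩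
  have hcyc : IsCyclic (E ≃ₐ[F] E) := isCyclic_of_prime_card hcard
  rw [stmt_LocalNormIndexCyclic q F E hcyc, hdeg]

end Fermat.Agent.S55.CFT.LOC.H68

end
-- ==== END Fermat.Agent.S55.CFT.LOC.H68_NormIndex

-- ==== BEGIN Fermat.Agent.S55.CFT.LOC.H72_H2DimB
section

/-!
# S55/E4 island LOC, package L5-H2b (helper72), part B: from the finite level to `Γ`

`stmt_L5_H2Dim_of : Stmt_BrauerPTors → Stmt_L5_H2Dim`.

Route (helper68's steps, NOTES/plan/S55_LOC.md): two locally level constant 2-cocycles `c`, `c'`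
of `Γ = Gal(Ω/F)` with values in `𝔽_p` factor through a finite Galois level `L/F`; part A gives
`U : Gal(L/F) → Lˣ`, `v ∈ Lˣ` with `d U = ζ ^ (a c̄ + b c̄')`, `U(σ) ^ p = σ v / v`.  With `η ^ p = v`
in `Ω`: `U(res g) = (g η / η) · ζ ^ m(g)`, and `d m = a c + b c'`.
-/

set_option autoImplicit false
set_option linter.unusedSectionVars false
set_option linter.style.haveILetI false

noncomputable section

namespace Fermat.Agent.S55.CFT.LOC.H72

open Fermat.Agent.S55 Fermat.Agent.S55.Top groupCohomology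

section abs

variable {k Ω : Type} [Field k] [Field Ω] [Algebra k Ω] [IsGalois k Ω] [IsAlgClosed Ω]
variable {p : ℕ} [Fact p.Prime] (F : IntermediateField k Ω)

lemma ze_sub_add {ζ : Ω} (hζ : IsPrimitiveRoot ζ p) (i j l : ZMod p) :
    H45.ze ζ (i - j + l) = H45.ze ζ i / H45.ze ζ j * H45.ze ζ l := by
  have h1 : H45.ze ζ (i - j) * H45.ze ζ j = H45.ze ζ i := by
    rw [← H45.ze_add hζ, sub_add_cancel]
  rw [H45.ze_add hζ, ← h1, mul_div_assoc, div_self (H45.ze_ne_zero hζ j), mul_one]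

/-- The finite level of a locally level constant 2-cochain, and its cocycle property. -/
theorem exists_level₂ (c c' : ↥F.fixingSubgroup × ↥F.fixingSubgroup → ZMod p)
    (hc : tTwo c = 0) (hc' : tTwo c' = 0)
    (hloc : ∃ E : IntermediateField k Ω, FiniteDimensional k E ∧
      ∀ g g' s s' : ↥F.fixingSubgroup, (s : Ω ≃ₐ[k] Ω) ∈ E.fixingSubgroup →
        (s' : Ω ≃ₐ[k] Ω) ∈ E.fixingSubgroup → c (g * s, g' * s') = c (g, g'))
    (hloc' : ∃ E : IntermediateField k Ω, FiniteDimensional k E ∧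
      ∀ g g' s s' : ↥F.fixingSubgroup, (s : Ω ≃ₐ[k] Ω) ∈ E.fixingSubgroup →
        (s' : Ω ≃ₐ[k] Ω) ∈ E.fixingSubgroup → c' (g * s, g' * s') = c' (g, g')) :
    ∃ (L : IntermediateField ↥F Ω) (_ : FiniteDimensional ↥F ↥L) (_ : IsGalois ↥F ↥L)
      (cb cb' : (↥L ≃ₐ[↥F] ↥L) × (↥L ≃ₐ[↥F] ↥L) → ZMod p),
      (∀ g h : ↥F.fixingSubgroup, c (g, h) = cb (H68.resΓ F L g, H68.resΓ F L h)) ∧
      (∀ g h : ↥F.fixingSubgroup, c' (g, h) = cb' (H68.resΓ F L g, H68.resΓ F L h)) ∧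
      (∀ g h j : ↥L ≃ₐ[↥F] ↥L, cb (g * h, j) + cb (g, h) = cb (h, j) + cb (g, h * j)) ∧
      (∀ g h j : ↥L ≃ₐ[↥F] ↥L, cb' (g * h, j) + cb' (g, h) = cb' (h, j) + cb' (g, h * j)) := by
  classical
  obtain ⟨E₁, hE₁, h1⟩ := hloc
  obtain ⟨E₂, hE₂, h2⟩ := hloc'
  haveI := hE₁
  haveI := hE₂
  obtain ⟨L, hLfin, hLgal, hEL⟩ := H68.exists_finLevel F (E₁ ⊔ E₂)
  haveI := hLfin
  haveI := hLgal
  obtain ⟨cb, hcb⟩ := H68.exists_factor₂ F L E₁
    (fun x hx => hEL x ((le_sup_left : E₁ ≤ E₁ ⊔ E₂) hx)) c h1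
  obtain ⟨cb', hcb'⟩ := H68.exists_factor₂ F L E₂
    (fun x hx => hEL x ((le_sup_right : E₂ ≤ E₁ ⊔ E₂) hx)) c' h2
  have hres := H68.resΓ_surjective F L
  refine ⟨L, hLfin, hLgal, cb, cb', hcb, hcb', ?_, ?_⟩
  · intro g h j
    obtain ⟨g, rfl⟩ := hres g
    obtain ⟨h, rfl⟩ := hres h
    obtain ⟨j, rfl⟩ := hres j
    have h3 := congrFun hc (g, h, j)
    simp only [tTwo, Pi.zero_apply] at h3
    rw [hcb, hcb, hcb, hcb, map_mul, map_mul] at h3
    linear_combination -h3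
  · intro g h j
    obtain ⟨g, rfl⟩ := hres g
    obtain ⟨h, rfl⟩ := hres h
    obtain ⟨j, rfl⟩ := hres j
    have h3 := congrFun hc' (g, h, j)
    simp only [tTwo, Pi.zero_apply] at h3
    rw [hcb', hcb', hcb', hcb', map_mul, map_mul] at h3
    linear_combination -h3

/-- **L5-H2b, abstract form.** -/
theorem h2dim_abs [FiniteDimensional k ↥F]
    (hB : ∀ (L : IntermediateField ↥F Ω), FiniteDimensional ↥F ↥L → IsGalois ↥F ↥L →
      BrauerProp ↥F ↥L p)
    {ζ : Ω} (hζF : ζ ∈ F) (hζ : IsPrimitiveRoot ζ p)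
    (c c' : ↥F.fixingSubgroup × ↥F.fixingSubgroup → ZMod p)
    (hc : tTwo c = 0) (hc' : tTwo c' = 0)
    (hloc : ∃ E : IntermediateField k Ω, FiniteDimensional k E ∧
      ∀ g g' s s' : ↥F.fixingSubgroup, (s : Ω ≃ₐ[k] Ω) ∈ E.fixingSubgroup →
        (s' : Ω ≃ₐ[k] Ω) ∈ E.fixingSubgroup → c (g * s, g' * s') = c (g, g'))
    (hloc' : ∃ E : IntermediateField k Ω, FiniteDimensional k E ∧
      ∀ g g' s s' : ↥F.fixingSubgroup, (s : Ω ≃ₐ[k] Ω) ∈ E.fixingSubgroup →
        (s' : Ω ≃ₐ[k] Ω) ∈ E.fixingSubgroup → c' (g * s, g' * s') = c' (g, g')) :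
    ∃ α β : ZMod p, (α ≠ 0 ∨ β ≠ 0) ∧
      ∃ f : ↥F.fixingSubgroup → ZMod p,
        (∃ E : IntermediateField k Ω, FiniteDimensional k E ∧
          ∀ g s : ↥F.fixingSubgroup, (s : Ω ≃ₐ[k] Ω) ∈ E.fixingSubgroup → f (g * s) = f g) ∧
        tOne f = α • c + β • c' := by
  classical
  have hp : p.Prime := Fact.out
  obtain ⟨L, hLfin, hLgal, cb, cb', hcb, hcb', hcoc, hcoc'⟩ :=
    exists_level₂ F c c' hc hc' hloc hloc'
  haveI := hLfin
  haveI := hLgal
  -- `ζ` as an element of `F`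
  have hζ0 : ζ ≠ 0 := hζ.ne_zero hp.ne_zero
  have hζF0 : (⟨ζ, hζF⟩ : ↥F) ≠ 0 := fun h => hζ0 (congrArg Subtype.val h)
  have hζF' : IsPrimitiveRoot (⟨ζ, hζF⟩ : ↥F) p :=
    IsPrimitiveRoot.of_map_of_injective (f := algebraMap ↥F Ω) hζ (algebraMap ↥F Ω).injective
  obtain ⟨a, b, U, v, hab, hU0, hv0', hU, hv⟩ := exists_cochain_of_brauer' (F := ↥F) ↥L hζF'
    hζF0 (hB L hLfin hLgal) cb cb' hcoc hcoc'
  -- the root `η` of `v`
  set η : Ω := H45.root p (v : Ω) with hηdef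
  have hη : η ^ p = (v : Ω) := H45.root_pow _
  have hv0 : (v : Ω) ≠ 0 := fun h => hv0' (Subtype.ext h)
  have hη0 : η ≠ 0 := by
    intro h
    rw [h, zero_pow hp.ne_zero] at hη
    exact hv0 hη.symm
  -- the functions on `Γ`
  let Ut : ↥F.fixingSubgroup → Ω := fun γ => ((U (H68.resΓ F L γ) : ↥L) : Ω)
  have hUt0 : ∀ γ, Ut γ ≠ 0 := fun γ h => hU0 (H68.resΓ F L γ) (Subtype.ext h)
  let w : ↥F.fixingSubgroup → Ω := fun γ => (γ : Ω ≃ₐ[k] Ω) η / η
  have hγη0 : ∀ γ : ↥F.fixingSubgroup, (γ : Ω ≃ₐ[k] Ω) η ≠ 0 := fun γ =>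
    (map_ne_zero_iff _ (γ : Ω ≃ₐ[k] Ω).injective).2 hη0
  have hw0 : ∀ γ, w γ ≠ 0 := fun γ => div_ne_zero (hγη0 γ) hη0
  have hwp : ∀ γ, w γ ^ p = Ut γ ^ p := by
    intro γ
    have h1 := congrArg (Subtype.val : ↥L → Ω) (hv (H68.resΓ F L γ))
    have h3 : (((H68.resΓ F L γ) v : ↥L) : Ω) / (v : Ω) = Ut γ ^ p := h1
    rw [H68.resΓ_apply] at h3
    show ((γ : Ω ≃ₐ[k] Ω) η / η) ^ p = Ut γ ^ p
    rw [div_pow, ← map_pow, hη, h3]
  -- the cochain `m`
  have hex : ∀ γ, ∃ j : ZMod p, H45.ze ζ j = Ut γ / w γ := fun γ =>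
    H45.exists_ze_eq hζ (by rw [div_pow, hwp, div_self (pow_ne_zero _ (hUt0 γ))])
  choose m hm using hex
  refine ⟨(a : ZMod p), (b : ZMod p), ?_, m, ?_, ?_⟩
  · rcases hab with h | h
    · exact Or.inl (fun h0 => h ((ZMod.intCast_zmod_eq_zero_iff_dvd a p).1 h0))
    · exact Or.inr (fun h0 => h ((ZMod.intCast_zmod_eq_zero_iff_dvd b p).1 h0))
  · -- `m` is locally level constant
    have hηint : IsIntegral k η := Algebra.IsIntegral.isIntegral (R := k) η
    haveI : FiniteDimensional k ↥(IntermediateField.adjoin k {η}) :=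
      IntermediateField.adjoin.finiteDimensional hηint
    haveI : FiniteDimensional k ↥L := FiniteDimensional.trans k ↥F ↥L
    haveI : FiniteDimensional k ↥(L.restrictScalars k) :=
      inferInstanceAs (FiniteDimensional k ↥L)
    refine ⟨L.restrictScalars k ⊔ IntermediateField.adjoin k {η}, inferInstance, ?_⟩
    intro γ s hs
    rw [IntermediateField.mem_fixingSubgroup_iff] at hs
    have hsL : ∀ x ∈ L, (s : Ω ≃ₐ[k] Ω) x = x := fun x hx =>
      hs x ((le_sup_left : L.restrictScalars k ≤ _) hx)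
    have hsη : (s : Ω ≃ₐ[k] Ω) η = η :=
      hs η ((le_sup_right : IntermediateField.adjoin k {η} ≤ _)
        (IntermediateField.mem_adjoin_simple_self k η))
    apply H45.ze_injective hζ
    rw [hm, hm]
    have e1 : H68.resΓ F L (γ * s) = H68.resΓ F L γ := by
      rw [H68.resΓ_eq_iff]
      intro x hx
      rw [Subgroup.coe_mul, AlgEquiv.mul_apply, hsL x hx]
    have e2 : Ut (γ * s) = Ut γ := by
      show ((U (H68.resΓ F L (γ * s)) : ↥L) : Ω) = ((U (H68.resΓ F L γ) : ↥L) : Ω)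
      rw [e1]
    have e3 : w (γ * s) = w γ := by
      show ((γ * s : ↥F.fixingSubgroup) : Ω ≃ₐ[k] Ω) η / η = (γ : Ω ≃ₐ[k] Ω) η / η
      rw [Subgroup.coe_mul, AlgEquiv.mul_apply, hsη]
    rw [e2, e3]
  · -- `d m = a c + b c'`
    funext ⟨γ, δ⟩
    apply H45.ze_injective hζ
    have hγζ : (γ : Ω ≃ₐ[k] Ω) ζ = ζ := H45.fix_of_mem F γ hζF
    -- the coboundary of `U`, in `Ω`
    have hU' : (γ : Ω ≃ₐ[k] Ω) (Ut δ) / Ut (γ * δ) * Ut γ =
        H45.ze ζ (a • c (γ, δ) + b • c' (γ, δ)) := by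
      have h1 := congrArg (Subtype.val : ↥L → Ω) (hU (H68.resΓ F L γ) (H68.resΓ F L δ))
      have h2 : (((H68.resΓ F L γ) (U (H68.resΓ F L δ)) : ↥L) : Ω) /
          ((U (H68.resΓ F L γ * H68.resΓ F L δ) : ↥L) : Ω) * ((U (H68.resΓ F L γ) : ↥L) : Ω) =
          ζ ^ (a • cb (H68.resΓ F L γ, H68.resΓ F L δ) +
            b • cb' (H68.resΓ F L γ, H68.resΓ F L δ)).val := h1
      rw [H68.resΓ_apply, ← map_mul, ← hcb, ← hcb'] at h2
      exact h2
    -- the coboundary of `w`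
    have hw' : (γ : Ω ≃ₐ[k] Ω) (w δ) * w γ = w (γ * δ) := by
      show (γ : Ω ≃ₐ[k] Ω) ((δ : Ω ≃ₐ[k] Ω) η / η) * ((γ : Ω ≃ₐ[k] Ω) η / η) =
        ((γ * δ : ↥F.fixingSubgroup) : Ω ≃ₐ[k] Ω) η / η
      rw [Subgroup.coe_mul, AlgEquiv.mul_apply, map_div₀]
      have h8 := hγη0 γ
      field_simp
    have hA : H45.ze ζ (m δ) = (γ : Ω ≃ₐ[k] Ω) (Ut δ) / (γ : Ω ≃ₐ[k] Ω) (w δ) := by
      rw [← map_div₀, ← hm δ, H45.map_ze hγζ]
    have hγw0 : (γ : Ω ≃ₐ[k] Ω) (w δ) ≠ 0 :=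
      (map_ne_zero_iff _ (γ : Ω ≃ₐ[k] Ω).injective).2 (hw0 δ)
    have hrhs : (((a : ZMod p) • c + (b : ZMod p) • c') (γ, δ)) =
        a • c (γ, δ) + b • c' (γ, δ) := by
      simp only [Pi.add_apply, Pi.smul_apply, smul_eq_mul, zsmul_eq_mul]
    rw [hrhs, ← hU']
    show H45.ze ζ (m δ - m (γ * δ) + m γ) = _
    rw [ze_sub_add hζ, hA, hm, hm, ← hw']
    have h5 := hUt0 (γ * δ)
    have h6 := hUt0 γ
    have h7 := hw0 γ
    field_simp


end abs

/-- **L5-H2b**: `dim H²(F, 𝔽_p) ≤ 1` at the local groups, from the cyclicity of the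
`p`-torsion of the finite-level Brauer groups. -/
theorem stmt_L5_H2Dim_of (hB : Stmt_BrauerPTors) : Stmt_L5_H2Dim := by
  intro q _ p _ F hF hζ c c' hc hloc hc' hloc'
  obtain ⟨ζ, hζF, hζ⟩ := hζ
  haveI := hF
  exact h2dim_abs (k := ℚ_[q]) (Ω := PadicAlgCl q) F
    (fun L hLfin hLgal => by
      haveI := hLfin
      haveI := hLgal
      exact hB q p ↥F ↥L)
    hζF hζ c c' hc hc' hloc hloc'

end Fermat.Agent.S55.CFT.LOC.H72

end
end
-- ==== END Fermat.Agent.S55.CFT.LOC.H72_H2DimB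

-- ==== BEGIN Fermat.Agent.S55.CFT.LOC.H72_PowIndexC
section

set_option autoImplicit false
set_option linter.unusedSectionVars false
set_option linter.style.haveILetI false

namespace Fermat.Agent.S55.CFT.LOC.H72

open Fermat.Agent.S55.CFT.LOC Module

section lattice

variable {G : Type*} [CommGroup G]

/-- `[V ⊔ Z : V' ⊔ Z] = [V : V']` when `(V' ⊔ Z) ⊓ V = V'`. -/
theorem relIndex_sup_sup_eq (V V' Z : Subgroup G) (hV : V' ≤ V) (h : (V' ⊔ Z) ⊓ V = V') :
    (V' ⊔ Z).relIndex (V ⊔ Z) = V'.relIndex V := by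
  have e : V ⊔ Z = (V' ⊔ Z) ⊔ V := by
    apply le_antisymm
    · exact sup_le le_sup_right (le_sup_right.trans le_sup_left)
    · exact sup_le (sup_le (hV.trans le_sup_left) le_sup_right) le_sup_left
  rw [e, Subgroup.relIndex_sup_left, ← Subgroup.inf_relIndex_right, h]

end lattice

section main

variable (q : ℕ) [Fact q.Prime] (F : Type) [Field F] [Algebra ℚ_[q] F]
  [FiniteDimensional ℚ_[q] F]

theorem Badd_congr {r r' : ℝ} (hr : 0 ≤ r) (hr' : 0 ≤ r') (h : r = r') :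
    Badd q F r hr = Badd q F r' hr' := by
  subst h; rfl

theorem Vmul_congr {r r' : ℝ} (hr : 0 ≤ r) (hr1 : r < 1) (hr' : 0 ≤ r') (hr1' : r' < 1)
    (h : r = r') : Vmul q F r hr hr1 = Vmul q F r' hr' hr1' := by
  subst h; rfl

/-- The absolute value of a prime `p ≠ q` is `1`. -/
theorem nrm_prime_ne {p : ℕ} (hp : p.Prime) (hpq : q ≠ p) : nrm q F (p : F) = 1 := by
  have h : (p : F) = algebraMap ℚ_[q] F (p : ℚ_[q]) := by simp
  rw [h, nrm_algebraMap_padic, Padic.norm_natCast_eq_one_iff]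
  exact (Nat.coprime_primes (Fact.out : q.Prime) hp).mpr hpq

/-- The `p`-th power map. -/
noncomputable abbrev powHom (p : ℕ) : Fˣ →* Fˣ := powMonoidHom p

/-- `#μ_p(F) = p`. -/
theorem card_ker_pow {p : ℕ} (hp : p.Prime) {ζ : F} (hζ : IsPrimitiveRoot ζ p) :
    Nat.card (powHom F p).ker = p := by
  haveI : NeZero p := ⟨hp.ne_zero⟩
  have e : (powHom F p).ker = rootsOfUnity p F := by
    ext x
    rw [MonoidHom.mem_ker, mem_rootsOfUnity, powMonoidHom_apply]
  rw [e]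
  exact hζ.card_rootsOfUnity

/-- Absolute value of a power of the uniformiser. -/
theorem nrm_units_zpow (π : Fˣ) (k : ℤ) : nrm q F ((π ^ k : Fˣ) : F) = nrm q F (π : F) ^ k := by
  rw [Units.val_zpow_eq_zpow_val, nrm_zpow]

theorem eq_zero_of_nrm_zpow_eq_one {a : ℝ} (ha0 : 0 < a) (ha1 : a < 1) {k : ℤ}
    (h : a ^ k = 1) : k = 0 :=
  (zpow_eq_one_iff_right₀ ha0.le ha1.ne).mp h

/-- The subgroup `S = V_r · π^ℤ` has finite index. -/
theorem index_sup_zpowers_ne_zero (π : Fˣ) (hπ : ∀ x : F, x ≠ 0 → ∃ n : ℤ,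
    nrm q F x = nrm q F (π : F) ^ n) {r : ℝ} (hr : 0 < r) (hr1 : r < 1) :
    (Vmul q F r hr.le hr1 ⊔ Subgroup.zpowers π).index ≠ 0 := by
  classical
  obtain ⟨T, -, hT⟩ := H68.stmt_FiniteResidue q F r hr
  set S := Vmul q F r hr.le hr1 ⊔ Subgroup.zpowers π with hS
  let f : T → Fˣ ⧸ S := fun t =>
    if h : (t : F) = 0 then 1 else QuotientGroup.mk (Units.mk0 (t : F) h)
  have hf : Function.Surjective f := by
    intro c
    obtain ⟨x, rfl⟩ := QuotientGroup.mk_surjective c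
    obtain ⟨k, hk⟩ := hπ (x : F) x.ne_zero
    set u : Fˣ := x * (π ^ k)⁻¹ with hu
    have hπpos : 0 < nrm q F (π : F) := nrm_pos q F π.ne_zero
    have hu1 : nrm q F (u : F) = 1 := by
      rw [hu, Units.val_mul, nrm_mul, hk, Units.val_inv_eq_inv_val, nrm_inv, nrm_units_zpow,
        mul_inv_cancel₀ (zpow_ne_zero k hπpos.ne')]
    obtain ⟨t, htT, ht⟩ := hT (u : F) hu1.le
    have ht1 : nrm q F t = 1 := by
      have h1 : nrm q F (t - (u : F)) < 1 := by
        rw [nrm_sub_comm]; exact lt_of_le_of_lt ht hr1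
      have h2 := nrm_add_eq_max_of_ne q F (x := (u : F)) (y := t - (u : F))
        (by rw [hu1]; exact h1.ne')
      rw [add_sub_cancel, hu1, max_eq_left h1.le] at h2
      exact h2
    have ht0 : t ≠ 0 := fun h => by rw [h, nrm_zero] at ht1; exact zero_ne_one ht1
    refine ⟨⟨t, htT⟩, ?_⟩
    show (if h : t = 0 then (1 : Fˣ ⧸ S) else QuotientGroup.mk (Units.mk0 t h)) = _
    rw [dif_neg ht0, QuotientGroup.eq]
    -- `t⁻¹ x = (u / t) π^k`
    have e : (Units.mk0 t ht0)⁻¹ * x = ((Units.mk0 t ht0)⁻¹ * u) * π ^ k := by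
      rw [hu]; group
    rw [e]
    refine Subgroup.mul_mem_sup ?_ (Subgroup.zpow_mem_zpowers π k)
    rw [mem_Vmul]
    have e2 : (((Units.mk0 t ht0)⁻¹ * u : Fˣ) : F) - 1 = ((u : F) - t) / t := by
      rw [Units.val_mul, Units.val_inv_eq_inv_val, Units.val_mk0]
      field_simp
    rw [e2, nrm_div, ht1, div_one]
    exact ht
  haveI : Finite (Fˣ ⧸ S) := Finite.of_surjective f hf
  exact Subgroup.index_ne_zero_of_finite

/-- Elements of `V_r · ⟨z⟩` of absolute value `1` lie in `V_r`, if `|z| < 1`. -/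
theorem mem_Vmul_of_mem_sup {r : ℝ} (hr : 0 ≤ r) (hr1 : r < 1) (z : Fˣ)
    (hz0 : 0 < nrm q F (z : F)) (hz1 : nrm q F (z : F) < 1) {x : Fˣ}
    (hx : x ∈ Vmul q F r hr hr1 ⊔ Subgroup.zpowers z) (hx1 : nrm q F (x : F) = 1) :
    x ∈ Vmul q F r hr hr1 := by
  rw [Subgroup.mem_sup] at hx
  obtain ⟨v, hv, c, hc, rfl⟩ := hx
  rw [Subgroup.mem_zpowers_iff] at hc
  obtain ⟨k, rfl⟩ := hc
  rw [Units.val_mul, nrm_mul, nrm_of_mem_Vmul q F hv, one_mul, nrm_units_zpow] at hx1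
  have hk : k = 0 := eq_zero_of_nrm_zpow_eq_one hz0 hz1 hx1
  rw [hk, zpow_zero, mul_one]
  exact hv

end main

/-- **LOC-1b**: the index of the `p`-th powers in `Fˣ`, when `μ_p ⊆ F`. -/
theorem stmt_LocalPowIndex : Stmt_LocalPowIndex := by
  intro q _ F _ _ _ p hp hζ
  obtain ⟨ζ, hζ⟩ := hζ
  classical
  have hppos : 0 < p := hp.pos
  obtain ⟨π₀, hπ0, hπ1, hπ⟩ := H68.stmt_Uniformizer q F
  have hπne : π₀ ≠ 0 := fun h => by rw [h, nrm_zero] at hπ0; exact lt_irrefl _ hπ0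
  set π : Fˣ := Units.mk0 π₀ hπne with hπdef
  have hπval : (π : F) = π₀ := rfl
  set ν := nrm q F (p : F) with hν
  have hνpos : 0 < ν := nrm_natCast_pos q F hppos
  have hν1 : ν ≤ 1 := nrm_natCast_le q F p
  -- the radius
  obtain ⟨m, hm⟩ := exists_pow_lt_of_lt_one (by positivity : 0 < ν / 2) hπ1
  set r := nrm q F (π₀ ^ m) with hr
  have hrpow : r = nrm q F π₀ ^ m := nrm_pow q F π₀ m
  have hrpos : 0 < r := by rw [hrpow]; positivity
  have hrν : r ≤ ν / 2 := by rw [hrpow]; exact hm.le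
  have hr1 : r < 1 := by linarith
  have hrltν : r < ν := by linarith
  have hrν1 : r * ν < 1 := by
    calc r * ν ≤ r * 1 := mul_le_mul_of_nonneg_left hν1 hrpos.le
      _ = r := mul_one r
      _ < 1 := hr1
  set V := Vmul q F r hrpos.le hr1 with hV
  set V' := Vmul q F (r * ν) (mul_nonneg hrpos.le hνpos.le) hrν1 with hV'
  have hV'V : V' ≤ V := Vmul_mono q F (by
    calc r * ν ≤ r * 1 := mul_le_mul_of_nonneg_left hν1 hrpos.le
      _ = r := mul_one r)
  set S := V ⊔ Subgroup.zpowers π with hS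
  set g : Fˣ →* Fˣ := powHom F p with hg
  set f : Fˣ →* Fˣ := 1 with hf
  -- index calculus
  have hSfin : S.index ≠ 0 := index_sup_zpowers_ne_zero q F π (by rw [hπval]; exact hπ) hrpos hr1
  have hfS : S.map f ≤ S := by rw [hf, Subgroup.map_one_eq_bot]; exact bot_le
  have hgS : S.map g ≤ S := by
    rintro _ ⟨x, hx, rfl⟩
    exact pow_mem hx p
  have hherb := H68.mhIdx_mul_eq_of_finiteIndex f g (fun x => rfl) (fun x => map_one g) S
    hfS hgS hSfin
  -- the four terms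
  have t1 : H68.mhIdx f g ⊤ = g.range.index := by
    rw [H68.mhIdx_top, hf, MonoidHom.ker_one, Subgroup.relIndex_top_right]
  have hkerS : g.ker ⊓ S = ⊥ := by
    rw [eq_bot_iff]
    rintro x ⟨hxk, hxS⟩
    have hxp : x ^ p = 1 := hxk
    have hx1 : nrm q F (x : F) = 1 := by
      have h1 : nrm q F (x : F) ^ p = 1 := by
        rw [← nrm_pow, ← Units.val_pow_eq_pow_val, hxp, Units.val_one, nrm_one]
      exact (pow_eq_one_iff_of_nonneg (nrm_nonneg q F _) hp.ne_zero).mp h1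
    have hxV : x ∈ V := mem_Vmul_of_mem_sup q F hrpos.le hr1 π hπ0 hπ1 hxS hx1
    exact eq_one_of_pow_eq_one_of_mem_Vmul q F hppos hrpos.le hrltν hr1 hxV hxp
  have t2 : H68.mhIdx g f S = 1 := by
    rw [H68.mhIdx, hkerS, hf, Subgroup.map_one_eq_bot, Subgroup.relIndex_self]
  have t3 : H68.mhIdx f g S = (S.map g).relIndex S := by
    rw [H68.mhIdx, hf, MonoidHom.ker_one, top_inf_eq]
  have t4 : H68.mhIdx g f ⊤ = p := by
    rw [H68.mhIdx_top, hf, MonoidHom.range_one, Subgroup.relIndex_bot_left]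
    exact card_ker_pow F hp hζ
  rw [t1, t2, t3, t4, mul_one] at hherb
  -- `S ^ p`
  have hSmap : S.map g = V' ⊔ Subgroup.zpowers (π ^ p) := by
    rw [hS, Subgroup.map_sup, MonoidHom.map_zpowers]
    congr 1
    exact map_pow_Vmul q F hppos hrpos.le hrν hr1 hrν1
  -- `[S : S ^ p] = p [V : V']`
  have hπp0 : 0 < nrm q F ((π ^ p : Fˣ) : F) := nrm_pos q F (Units.ne_zero _)
  have hπp1 : nrm q F ((π ^ p : Fˣ) : F) < 1 := by
    rw [Units.val_pow_eq_pow_val, nrm_pow]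
    exact pow_lt_one₀ hπ0.le hπ1 hp.ne_zero
  have hmid1 : V' ⊔ Subgroup.zpowers (π ^ p) ≤ V ⊔ Subgroup.zpowers (π ^ p) :=
    sup_le_sup_right hV'V _
  have hzle : Subgroup.zpowers (π ^ p) ≤ Subgroup.zpowers π :=
    Subgroup.zpowers_le.mpr (Subgroup.pow_mem _ (Subgroup.mem_zpowers π) p)
  have hmid2 : V ⊔ Subgroup.zpowers (π ^ p) ≤ S := sup_le_sup_left hzle _
  have hstep1 : (V' ⊔ Subgroup.zpowers (π ^ p)).relIndex (V ⊔ Subgroup.zpowers (π ^ p))
      = V'.relIndex V := by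
    apply relIndex_sup_sup_eq _ _ _ hV'V
    apply le_antisymm
    · rintro x ⟨hx1, hx2⟩
      exact mem_Vmul_of_mem_sup q F _ hrν1 (π ^ p) hπp0 hπp1 hx1 (nrm_of_mem_Vmul q F hx2)
    · exact le_inf le_sup_left hV'V
  have hstep2 : (V ⊔ Subgroup.zpowers (π ^ p)).relIndex S = p := by
    apply H68.relIndex_eq_of_cyclic _ _ hmid2 π
      (Subgroup.mem_sup_right (Subgroup.mem_zpowers π)) p
    · intro x hx
      rw [hS, Subgroup.mem_sup] at hx
      obtain ⟨v, hv, c, hc, rfl⟩ := hx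
      rw [Subgroup.mem_zpowers_iff] at hc
      obtain ⟨k, rfl⟩ := hc
      refine ⟨k, ?_⟩
      rw [mul_div_assoc, div_self', mul_one]
      exact Subgroup.mem_sup_left hv
    · intro k
      constructor
      · intro hk
        rw [Subgroup.mem_sup] at hk
        obtain ⟨v, hv, c, hc, hvc⟩ := hk
        rw [Subgroup.mem_zpowers_iff] at hc
        obtain ⟨j, rfl⟩ := hc
        have h1 := congrArg (fun y : Fˣ => nrm q F (y : F)) hvc
        simp only [Units.val_mul, nrm_mul, nrm_of_mem_Vmul q F hv, one_mul] at h1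
        rw [← zpow_natCast π p, ← zpow_mul, nrm_units_zpow, nrm_units_zpow] at h1
        have h2 := zpow_right_injective₀ hπ0 hπ1.ne h1
        exact ⟨j, by rw [← h2]⟩
      · rintro ⟨j, rfl⟩
        apply Subgroup.mem_sup_right
        rw [Subgroup.mem_zpowers_iff]
        exact ⟨j, by rw [← zpow_natCast π p, ← zpow_mul]⟩
  have hSidx : (S.map g).relIndex S = V'.relIndex V * p := by
    rw [hSmap, ← Subgroup.relIndex_mul_relIndex _ _ _ hmid1 hmid2, hstep1, hstep2]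
  rw [hSidx] at hherb
  show g.range.index = _
  rw [hherb]
  -- `[V : V']`
  by_cases hqp : q = p
  · rw [if_pos hqp]
    have hπm : π₀ ^ m ≠ 0 := pow_ne_zero m hπne
    have h1 : V'.relIndex V
        = (Badd q F (r * ν) (mul_nonneg hrpos.le hνpos.le)).relIndex (Badd q F r hrpos.le) :=
      relIndex_Vmul_eq q F hrpos.le hr1 (mul_nonneg hrpos.le hνpos.le) hrν1
    have h2 := relIndex_Badd_mul q F hπm (r := 1) (s := ν) zero_le_one hνpos.le
    have h3 : Badd q F (nrm q F (π₀ ^ m) * 1) (mul_nonneg (nrm_nonneg q F _) zero_le_one)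
        = Badd q F r hrpos.le := Badd_congr q F _ _ (mul_one _)
    rw [h3] at h2
    have hcast : (p : F) = (q : F) := congrArg (Nat.cast : ℕ → F) hqp.symm
    have h4 : ν = nrm q F (q : F) := by rw [hν, hcast]
    have h5 : Badd q F ν hνpos.le = Badd q F (nrm q F (q : F)) (nrm_nonneg q F _) :=
      Badd_congr q F _ _ h4
    rw [h1, h2, h5, relIndex_Badd_q]
    generalize finrank ℚ_[q] F = n
    rw [hqp]
    ring
  · rw [if_neg hqp]
    have hν1' : ν = 1 := nrm_prime_ne q F hp hqp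
    have hVV : V' = V := Vmul_congr q F _ _ _ _ (by rw [hν1', mul_one])
    rw [hVV, Subgroup.relIndex_self]
    ring

end Fermat.Agent.S55.CFT.LOC.H72

end
-- ==== END Fermat.Agent.S55.CFT.LOC.H72_PowIndexC

-- ==== BEGIN Fermat.Agent.S55.CFT.LOC.H9_TQLUnr
section

set_option autoImplicit false
set_option linter.style.haveILetI false
set_option linter.unusedSectionVars false

noncomputable section

namespace Fermat.Agent.S55.CFT.LOC.H9

open IntermediateField

/-- A cyclic group of prime order `p` is isomorphic to `Multiplicative (ZMod p)`. -/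
theorem exists_mulEquiv_zmod (p : ℕ) [Fact p.Prime] (G : Type) [Group G] [IsCyclic G]
    (h : Nat.card G = p) : Nonempty (G ≃* Multiplicative (ZMod p)) := by
  have h1 : Nat.card (Multiplicative (ZMod p)) = p := by
    rw [Nat.card_eq_fintype_card]
    exact (Fintype.card_multiplicative _).trans (ZMod.card p)
  exact ⟨mulEquivOfCyclicCardEq (h.trans h1.symm)⟩

/-- **TQL-U**. -/
theorem stmt_TQL_Unr : Stmt_TQL_Unr := by
  intro p _
  obtain ⟨E, hfd, hgal, hrank, hcyc, hunr⟩ :=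
    H25.stmt_UnramExists p ℚ_[p] p (Fact.out : p.Prime).pos
  haveI := hfd
  haveI := hgal
  haveI := hcyc
  have hcard : Nat.card (↥E ≃ₐ[ℚ_[p]] ↥E) = p := by
    rw [IsGalois.card_aut_eq_finrank, hrank]
  obtain ⟨e⟩ := exists_mulEquiv_zmod p (↥E ≃ₐ[ℚ_[p]] ↥E) hcard
  refine ⟨E, e.toMonoidHom.comp (AlgEquiv.restrictNormalHom (↥E)), hfd, hgal, hrank, hunr, ?_⟩
  rw [← IntermediateField.restrictNormalHom_ker]
  ext σ
  simp only [MonoidHom.mem_ker, MonoidHom.comp_apply, MulEquiv.toMonoidHom_eq_coe,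
    MonoidHom.coe_coe, EmbeddingLike.map_eq_one_iff]

end Fermat.Agent.S55.CFT.LOC.H9

end

end
-- ==== END Fermat.Agent.S55.CFT.LOC.H9_TQLUnr

-- ==== BEGIN Fermat.Agent.S55.H48_E5
section

set_option autoImplicit false

open CategoryTheory Module groupCohomology ExtCitation

noncomputable section

namespace Fermat.Agent.S55.H48

open Fermat.Agent.S55

variable {k : Type} [Field k] {S : Finset Nat.Primes} {χ : GQ →* kˣ}

section choices

variable (M : Rep.{0} k GQ)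

/-- A choice of local primitives of a locally trivial 1-cocycle. -/
def locM (A : Rep.{0} k GQ) (c : ↥(shaZ1 S A)) : ↥S → A :=
  fun q => Classical.choose ((isSha1_of_mem S A c).2 q)

lemma locM_spec (A : Rep.{0} k GQ) (c : ↥(shaZ1 S A)) (q : ↥S) :
    resOne q.1 ((c.1 : cocycles₁ A) : GQ → A) = dZeroL A q.1 (locM A c q) :=
  Classical.choose_spec ((isSha1_of_mem S A c).2 q)

/-- The cone 1-cocycle of a locally trivial 1-cocycle. -/
def coneY (A : Rep.{0} k GQ) (c : ↥(shaZ1 S A)) : C1c S A :=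
  (((c.1 : cocycles₁ A) : GQ → A), locM A c)

lemma isZ1c_coneY (A : Rep.{0} k GQ) (c : ↥(shaZ1 S A)) : IsZ1c S A (coneY A c) :=
  ⟨(isSha1_of_mem S A c).1, locM_spec A c⟩

/-- A choice of local primitives of a locally trivial 2-cocycle. -/
def locG (a : ↥(shaZ2 S M)) : ∀ q : ↥S, Gl q.1 → M :=
  fun q => Classical.choose ((isSha2_of_mem S M a).2 q)

lemma locG_spec (a : ↥(shaZ2 S M)) (q : ↥S) :
    IsLevelConstant₁ (rl q.1) (locG M a q) ∧
      resTwo q.1 (a.1.1 : GQ × GQ → M) = dOneL M q.1 (locG M a q) :=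
  Classical.choose_spec ((isSha2_of_mem S M a).2 q)

/-- The cone 2-cocycle of a locally trivial 2-cocycle. -/
def coneX (a : ↥(shaZ2 S M)) : C2c S M :=
  ((a.1.1 : GQ × GQ → M), locG M a)

lemma isZ2c_coneX (a : ↥(shaZ2 S M)) : IsZ2c S M (coneX M a) :=
  ⟨(isSha2_of_mem S M a).1, locG_spec M a⟩

end choices

section pairing

variable (M : Rep.{0} k GQ) (hχ : LevChar S χ) (hM : Lev S M) (tr : Trace S χ)

/-- The value of the pairing on cocycles. -/
def pairVal (tr : Trace S χ) (c : ↥(shaZ1 S (Md χ M))) (a : ↥(shaZ2 S M)) : k :=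
  tr.toFun (cupB1 S χ M (a.1.1 : GQ × GQ → M) (coneY (Md χ M) c))

include hχ hM in
/-- The value of the pairing, computed with any cone 2-cocycle above `a`. -/
lemma pairVal_eq_cupA2 (c : ↥(shaZ1 S (Md χ M))) (a : ↥(shaZ2 S M)) {x : C2c S M}
    (hx : IsZ2c S M x) (hxa : x.1 = (a.1.1 : GQ × GQ → M)) :
    pairVal M tr c a =
      tr.toFun (cupA2 S χ M x ((c.1 : cocycles₁ (Md χ M)) : GQ → Md χ M)) := by
  have h := tr_cupA2_eq_cupB1 hχ hM tr hx (isZ1c_coneY (Md χ M) c)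
  rw [hxa] at h
  exact h.symm

include hχ hM in
/-- The value of the pairing, computed with any cone 1-cocycle above `c`. -/
lemma pairVal_eq_cupB1 (c : ↥(shaZ1 S (Md χ M))) (a : ↥(shaZ2 S M)) {y : C1c S (Md χ M)}
    (hy : IsZ1c S (Md χ M) y) (hyc : y.1 = ((c.1 : cocycles₁ (Md χ M)) : GQ → Md χ M)) :
    pairVal M tr c a = tr.toFun (cupB1 S χ M (a.1.1 : GQ × GQ → M) y) := by
  rw [pairVal_eq_cupA2 M hχ hM tr c a (isZ2c_coneX M a) rfl]
  have h := tr_cupA2_eq_cupB1 hχ hM tr (isZ2c_coneX M a) hy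
  rw [hyc] at h
  exact h

/-- The pairing on cocycles. -/
def pairZ : ↥(shaZ1 S (Md χ M)) →ₗ[k] ↥(shaZ2 S M) →ₗ[k] k :=
  LinearMap.mk₂ k (pairVal M tr)
    (fun c c' a => by
      rw [pairVal_eq_cupA2 M hχ hM tr c a (isZ2c_coneX M a) rfl,
        pairVal_eq_cupA2 M hχ hM tr c' a (isZ2c_coneX M a) rfl,
        pairVal_eq_cupA2 M hχ hM tr (c + c') a (isZ2c_coneX M a) rfl, ← map_add]
      exact congrArg _ ((cupA2ₗ S χ M (coneX M a)).map_add _ _))
    (fun r c a => by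
      rw [pairVal_eq_cupA2 M hχ hM tr c a (isZ2c_coneX M a) rfl,
        pairVal_eq_cupA2 M hχ hM tr (r • c) a (isZ2c_coneX M a) rfl, ← map_smul]
      exact congrArg _ ((cupA2ₗ S χ M (coneX M a)).map_smul _ _))
    (fun c a a' => by
      show tr.toFun _ = tr.toFun _ + tr.toFun _
      rw [← map_add]
      exact congrArg _ ((cupB1ₗ S χ M (coneY (Md χ M) c)).map_add _ _))
    (fun r c a => by
      show tr.toFun _ = r • tr.toFun _
      rw [← map_smul]
      exact congrArg _ ((cupB1ₗ S χ M (coneY (Md χ M) c)).map_smul _ _))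

lemma pairZ_apply (c : ↥(shaZ1 S (Md χ M))) (a : ↥(shaZ2 S M)) :
    pairZ M hχ hM tr c a = pairVal M tr c a := rfl

end pairing

/-- `2` is invertible in `𝔽_p` for odd `p`. -/
lemma two_ne_zero_zmod (p : ℕ) [Fact p.Prime] (hp2 : p ≠ 2) : (2 : ZMod p) ≠ 0 := by
  intro h
  have h' : ((2 : ℕ) : ZMod p) = 0 := by exact_mod_cast h
  rw [ZMod.natCast_eq_zero_iff] at h'
  exact hp2 ((Nat.prime_dvd_prime_iff_eq Fact.out Nat.prime_two).1 h')

/-- **E5** over any field in which `2` is invertible, for any character and module of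
level `S`. -/
theorem e5_general (h2 : (2 : k) ≠ 0) (hNC : NC S) (hχ : LevChar S χ) (M : Rep.{0} k GQ)
    (hM : Lev S M) (tr : Trace S χ) (hα : AlphaTwoEpi tr M) (hβ : BetaOneEpi tr M) :
    ∃ B : sha₁ S (M.dualTwist χ) →ₗ[k] sha₂ S M →ₗ[k] k,
      (∀ y, (∀ x, B y x = 0) → y = 0) ∧ (∀ x, (∀ y, B y x = 0) → x = 0) := by
  have hP₁ : ∀ c : ↥(shaZ1 S (Md χ M)), shaπ1 S (Md χ M) c = 0 →
      ∀ a : ↥(shaZ2 S M), pairZ M hχ hM tr c a = 0 := by
    intro c hc a
    obtain ⟨m, hm⟩ := (shaπ1_eq_zero_iff S _ c).1 hc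
    rw [pairZ_apply, pairVal_eq_cupA2 M hχ hM tr c a (isZ2c_coneX M a) rfl, hm]
    exact tr_cupA2_dZero hNC hχ hM tr (isZ2c_coneX M a) m
  have hP₂ : ∀ a : ↥(shaZ2 S M), shaπ2 S M a = 0 →
      ∀ c : ↥(shaZ1 S (Md χ M)), pairZ M hχ hM tr c a = 0 := by
    intro a ha c
    obtain ⟨f, hf, hfa⟩ := (shaπ2_eq_zero_iff S M a).1 ha
    rw [pairZ_apply]
    show tr.toFun (cupB1 S _ M (a.1.1 : GQ × GQ → M) _) = 0
    rw [← hfa]
    exact tr_cupB1_dOne hNC hχ hM tr (isZ1c_coneY _ c) hf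
  letI iA : AddCommGroup ↑(Md χ M) := (Md χ M).hV1
  obtain ⟨B, hB⟩ := exists_bilin_descent (K := k)
    (Z₁ := ↥(shaZ1 S (Md χ M))) (Z₂ := ↥(shaZ2 S M))
    (X₁ := ↥(sha₁ S (Md χ M))) (X₂ := ↥(sha₂ S M))
    (shaπ1 S (Md χ M)) (shaπ2 S M)
    (shaπ1_surjective S _) (shaπ2_surjective S M) (pairZ M hχ hM tr) hP₁ hP₂
  refine ⟨B, ?_, ?_⟩
  · intro y hy
    obtain ⟨c, rfl⟩ := shaπ1_surjective S _ y
    by_contra hne
    have hnot : ((c.1 : cocycles₁ (Md χ M)) : GQ → Md χ M) ∉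
        LinearMap.range (d₀₁ (Md χ M)).hom := by
      rintro ⟨m, hm⟩
      exact hne ((shaπ1_eq_zero_iff S _ c).2 ⟨m, hm.symm⟩)
    obtain ⟨φ, hφ0, hφc⟩ := exists_functional_sep _ hnot
    obtain ⟨x, hx, hxφ⟩ := hα φ (fun m' => hφ0 _ ⟨m', rfl⟩)
    have hsha : IsSha2 S M x.1 := ⟨hx.1, fun q => ⟨x.2 q, (hx.2 q).1, (hx.2 q).2⟩⟩
    obtain ⟨a, ha⟩ := exists_mem_of_isSha2 S M h2 hsha
    have h1 := hy (shaπ2 S M a)
    rw [hB c a, pairZ_apply, pairVal_eq_cupA2 M hχ hM tr c a hx ha.symm,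
      hxφ _ (isSha1_of_mem S _ c).1] at h1
    exact hφc h1
  · intro x hx
    obtain ⟨a, rfl⟩ := shaπ2_surjective S M x
    by_contra hne
    have hnot : (a.1.1 : GQ × GQ → M) ∉ levelCoboundariesS₂ S M := by
      intro hmem
      obtain ⟨f, hf, hfa⟩ := (mem_levelCoboundariesS₂_iff S M _).1 hmem
      exact hne ((shaπ2_eq_zero_iff S M a).2 ⟨f, hf, hfa⟩)
    obtain ⟨φ, hφ0, hφa⟩ := exists_functional_sep _ hnot
    obtain ⟨y, hy, hyφ⟩ := hβ φ (fun a' ha' => by
      obtain ⟨f, hf, hfa⟩ := ha'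
      exact hφ0 _ ((mem_levelCoboundariesS₂_iff S M _).2 ⟨f, hf, hfa⟩))
    have hsha : IsSha1 S (Md χ M) y.1 := ⟨hy.1, fun q => ⟨y.2 q, hy.2 q⟩⟩
    obtain ⟨c, hc⟩ := exists_mem_of_isSha1 S _ h2 hsha
    have h1 := hx (shaπ1 S _ c)
    rw [hB c a, pairZ_apply, pairVal_eq_cupB1 M hχ hM tr c a hy hc.symm,
      hyφ _ (isSha2_of_mem S M a).1] at h1
    exact hφa h1

/-- **E5**. -/
theorem stmt_E5 : Stmt_E5 := by
  intro p _ S M hyp tr hα hβ
  have hM : Lev S M := stmt_lev p S M hyp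
  have hχ : LevChar S (cycloChar p) := stmt_levChar p S hyp.hpS
  have hNC : NC S := fun F hF => exists_normal_level S F hF
  have h2 : (2 : ZMod p) ≠ 0 := two_ne_zero_zmod p hyp.hp2
  exact e5_general h2 hNC hχ M hM tr hα hβ

end Fermat.Agent.S55.H48

end

end
-- ==== END Fermat.Agent.S55.H48_E5

-- ==== BEGIN Fermat.Agent.S55.H49_E1
section

set_option autoImplicit false

namespace Fermat.Agent.S55.H49

open Fermat.Agent.S55

/-- **NC** for every finite set of primes. -/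
theorem nc_all (S : Finset Nat.Primes) : NC S :=
  fun F hF => H48.exists_normal_level S F hF

/-- **E1A**. -/
theorem stmt_E1A : Stmt_E1A := stmt_E1A_of_NC nc_all

/-- **E1B**. -/
theorem stmt_E1B : Stmt_E1B := stmt_E1B_of_NC nc_all

end Fermat.Agent.S55.H49

end
-- ==== END Fermat.Agent.S55.H49_E1
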