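-- GENERATED (merged mirror, NOTES/tools/trim/merge3_helper67.py): 10 modules of the originals, bodies verbatim.
import Mathlib
import Mathlib.RingTheory.ZMod.UnitsCyclic
import Mathlib.NumberTheory.Cyclotomic.Gal
import Mathlib.NumberTheory.Cyclotomic.PrimitiveRoots
import Fermat.Agent.Zm.S56_L08_000
import Fermat.Agent.Zm.S56_L04_002
import Fermat.Agent.Zm.S56_L06_000
import Fermat.Agent.Zm.S56_L08_001
import Fermat.Agent.Zm.S56_L03_002
import Fermat.Agent.Zm.S56_L05_001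
import Fermat.Agent.Zm.S56_L08_002
import Fermat.Agent.Zm.S56_L04_003
import Fermat.Agent.Zm.S56_L07_002

-- ==== BEGIN Fermat.Agent.S55.CFT.GS.H24_KummerCount
section

set_option autoImplicit false
set_option linter.unusedSectionVars false
set_option linter.unusedVariables false
set_option linter.style.haveILetI false

open CategoryTheory Module groupCohomology ExtCitation

noncomputable section

namespace Fermat.Agent.S55.CFT.GS.H24

open Fermat.Agent.S55 Fermat.Agent.S55.Top Fermat.Agent.S55.CFT.GS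

local notation "Qb" => AlgebraicClosure ℚ

section subgroups

variable (S : Finset Nat.Primes) (p : ℕ) (K : IntermediateField ℚ Qb)

/-- `V_S = Kˣ ∩ (Ωˣ)ᵖ` as a subgroup. -/
def VSs : Subgroup Qbˣ := KxS K ⊓ (OmS S).map (powMonoidHom p)

/-- `Kˣᵖ` as a subgroup. -/
def KPs : Subgroup Qbˣ := (KxS K).map (powMonoidHom p)

variable {S p K}

theorem mem_VSs {a : Qbˣ} : a ∈ VSs S p K ↔ (a : Qb) ∈ K ∧ InW S p a := by
  unfold VSs InW
  rw [Subgroup.mem_inf, Subgroup.mem_map]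
  constructor
  · rintro ⟨h1, t, ht, rfl⟩
    exact ⟨h1, t, ht, rfl⟩
  · rintro ⟨h1, t, ht, rfl⟩
    exact ⟨h1, t, ht, rfl⟩

theorem coe_VSs : (VSs S p K : Set Qbˣ) = VS S p K := by
  ext a
  exact mem_VSs

theorem mem_KPs {a : Qbˣ} : a ∈ KPs p K ↔ ∃ b : Qbˣ, (b : Qb) ∈ K ∧ b ^ p = a := by
  unfold KPs
  rw [Subgroup.mem_map]
  rfl

theorem KPs_le_VSs (hK : K.IsUnramifiedOutside S) : KPs p K ≤ VSs S p K := by
  intro a ha
  obtain ⟨b, hb, rfl⟩ := mem_KPs.1 ha
  exact mem_VSs.2 ⟨(KxS K).pow_mem hb p, b, inOm_of_mem hK hb, rfl⟩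

end subgroups

section count

variable {p : ℕ} [Fact p.Prime] {S : Finset Nat.Primes} {K : IntermediateField ℚ Qb}
  {ζ : Qbˣ}

/-- The Kummer homomorphism `R → Z¹_S(G_K, 𝔽_p)`. -/
def kumHom (hζ : IsPrimitiveRoot ζ p) (hζK : ζ ∈ KxS K) :
    ↥(RS S p K) →* Multiplicative ↥(Z1K (ZMod p) S K) where
  toFun t := Multiplicative.ofAdd ⟨kum hζ (t : Qbˣ), kum_mem_Z1K hζ t.2 hζK⟩
  map_one' := by
    apply Multiplicative.toAdd.injective
    apply Subtype.ext
    show kum hζ ((1 : ↥(RS S p K)) : Qbˣ) = 0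
    rw [kum_eq_zero_iff hζ (by simp [(KxS K).one_mem])]
    exact (KxS K).one_mem
  map_mul' := by
    intro t t'
    apply Multiplicative.toAdd.injective
    apply Subtype.ext
    show kum hζ ((t : Qbˣ) * (t' : Qbˣ)) = kum hζ (t : Qbˣ) + kum hζ (t' : Qbˣ)
    exact kum_mul hζ t.2.2 t'.2.2

theorem kumHom_surjective (hζ : IsPrimitiveRoot ζ p) (hH90 : Stmt_GS_H90) (hK : K.IsUnramifiedOutside S)
    (hζK : ζ ∈ KxS K) : Function.Surjective (kumHom (S := S) hζ hζK) := by
  intro χ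
  obtain ⟨t, ht, hkt⟩ := exists_kum_eq hζ hH90 hK hζK (Multiplicative.toAdd χ).2
  refine ⟨⟨t, ht⟩, ?_⟩
  apply Multiplicative.toAdd.injective
  apply Subtype.ext
  exact hkt

theorem kumHom_ker (hζ : IsPrimitiveRoot ζ p) (hζK : ζ ∈ KxS K) :
    (kumHom (S := S) hζ hζK).ker = (KxS K).subgroupOf (RS S p K) := by
  ext t
  rw [MonoidHom.mem_ker, Subgroup.mem_subgroupOf, ← kum_eq_zero_iff hζ t.2.2]
  constructor
  · intro h
    have := congrArg (fun x => (Multiplicative.toAdd x : ↥(Z1K (ZMod p) S K)).1) h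
    exact this
  · intro h
    apply Multiplicative.toAdd.injective
    apply Subtype.ext
    exact h

/-- `#Z¹_S(G_K, 𝔽_p) = [R : Kˣ]`. -/
theorem card_Z1K_eq_relIndex (hζ : IsPrimitiveRoot ζ p) (hH90 : Stmt_GS_H90) (hK : K.IsUnramifiedOutside S)
    (hζK : ζ ∈ KxS K) :
    Nat.card ↥(Z1K (ZMod p) S K) = (KxS K).relIndex (RS S p K) := by
  have e := QuotientGroup.quotientKerEquivOfSurjective (kumHom (S := S) hζ hζK)
    (kumHom_surjective hζ hH90 hK hζK)
  have h1 : Nat.card (↥(RS S p K) ⧸ (kumHom (S := S) hζ hζK).ker) =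
      Nat.card (Multiplicative ↥(Z1K (ZMod p) S K)) := Nat.card_congr e.toEquiv
  have h2 : Nat.card (Multiplicative ↥(Z1K (ZMod p) S K)) = Nat.card ↥(Z1K (ZMod p) S K) :=
    Nat.card_congr Multiplicative.toAdd
  rw [← h2, ← h1, kumHom_ker]
  rfl

/-- The `p`-th power map `R → V_S`. -/
def powR : ↥(RS S p K) →* ↥(VSs S p K) where
  toFun t := ⟨(t : Qbˣ) ^ p, mem_VSs.2 ⟨t.2.2, (t : Qbˣ), t.2.1, rfl⟩⟩
  map_one' := by
    apply Subtype.ext
    simp
  map_mul' := by
    intro t t'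
    apply Subtype.ext
    simp [mul_pow]

theorem powR_surjective : Function.Surjective (powR (p := p) (S := S) (K := K)) := by
  rintro ⟨a, ha⟩
  obtain ⟨haK, t, htΩ, rfl⟩ := mem_VSs.1 ha
  exact ⟨⟨t, htΩ, haK⟩, rfl⟩

theorem comap_powR (hζ : IsPrimitiveRoot ζ p) (hζK : ζ ∈ KxS K) :
    ((KPs p K).subgroupOf (VSs S p K)).comap (powR (p := p) (S := S) (K := K)) =
      (KxS K).subgroupOf (RS S p K) := by
  ext t
  rw [Subgroup.mem_comap, Subgroup.mem_subgroupOf, Subgroup.mem_subgroupOf]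
  show (t : Qbˣ) ^ p ∈ KPs p K ↔ (t : Qbˣ) ∈ KxS K
  constructor
  · intro h
    obtain ⟨b, hb, hbt⟩ := mem_KPs.1 h
    have h1 : ((t : Qbˣ) / b) ^ p = 1 := by
      rw [div_pow, hbt, div_self']
    obtain ⟨c, hc⟩ := exists_zp hζ h1
    have h2 : (t : Qbˣ) = ζ ^ c.val * b := by
      rw [hc, div_mul_cancel]
    rw [h2]
    exact (KxS K).mul_mem ((KxS K).pow_mem hζK _) hb
  · intro h
    exact mem_KPs.2 ⟨(t : Qbˣ), h, rfl⟩

/-- `[R : Kˣ] = [V_S : Kˣᵖ]`. -/
theorem relIndex_RS_eq (hζ : IsPrimitiveRoot ζ p) (hζK : ζ ∈ KxS K) :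
    (KxS K).relIndex (RS S p K) = (KPs p K).relIndex (VSs S p K) := by
  show ((KxS K).subgroupOf (RS S p K)).index = ((KPs p K).subgroupOf (VSs S p K)).index
  rw [← comap_powR hζ hζK]
  exact Subgroup.index_comap_of_surjective _ powR_surjective

/-- **Kummer**: `#Z¹_S(G_K, 𝔽_p) = [V_S : Kˣᵖ]`. -/
theorem card_Z1K (hζ : IsPrimitiveRoot ζ p) (hH90 : Stmt_GS_H90) (hK : K.IsUnramifiedOutside S) (hζK : ζ ∈ KxS K) :
    Nat.card ↥(Z1K (ZMod p) S K) = (KPs p K).relIndex (VSs S p K) := by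
  rw [card_Z1K_eq_relIndex hζ hH90 hK hζK, relIndex_RS_eq hζ hζK]

end count

end Fermat.Agent.S55.CFT.GS.H24

end

end
-- ==== END Fermat.Agent.S55.CFT.GS.H24_KummerCount

-- ==== BEGIN Fermat.Agent.S55.CFT.GS.H72_HasseG
section

/-!
# S55/E4 island GS, Layer A, leaf A-Hasse (helper72)

`stmt_BrHasseG_of : Stmt_BrHasse → GS.Stmt_BrHasseG`: the Hasse principle for `p`-primary classes
of `H²(Gal(L/K), Lˣ)`, `L/K` any finite Galois extension.

Route: `P` a Sylow `p`-subgroup, `K' = L^P`; the restriction of `x` to `Gal(L/K')` is locally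
trivial (`locMap_resL`), hence zero (`Stmt_BrHasse` for the `p`-extension `L/K'`); so
`[G : P] • x = cor (res x) = 0` (helper58, `H58.stmt_CorRes`), and `p ^ k • x = 0`.
-/

set_option autoImplicit false
set_option linter.unusedSectionVars false

open NumberField TensorProduct CategoryTheory groupCohomology IntermediateField

noncomputable section

namespace Fermat.Agent.S55.CFT.GS.H72

open Fermat.Agent.S55.CFT

section sylow

variable (K L : Type) [Field K] [Field L] [NumberField K] [NumberField L] [Algebra K L]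
  [IsGalois K L]

/-- `P → Gal(L / L^P)`. -/
def toGalFixed (P : Subgroup (L ≃ₐ[K] L)) : P →* (L ≃ₐ[fixedField P] L) where
  toFun h :=
    { (h : L ≃ₐ[K] L).toRingEquiv with
      commutes' := fun x => x.2 h }
  map_one' := by
    ext x
    rfl
  map_mul' g h := by
    ext x
    rfl

lemma galRes_toGalFixed (P : Subgroup (L ≃ₐ[K] L)) (h : P) :
    galRes K (fixedField P) L (toGalFixed K L P h) = (h : L ≃ₐ[K] L) := by
  ext x
  rfl

/-- The identity of `Lˣ`, from the `Gal(L/L^P)`-module restricted to `P` to the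
`Gal(L/K)`-module restricted to `P`. -/
def fixedRep (P : Subgroup (L ≃ₐ[K] L)) :
    Rep.res (toGalFixed K L P) (repL (fixedField P) L) ⟶ resSub (repL K L) P :=
  Rep.ofHom (LinearMap.intertwiningMap_of_isIntertwiningMap _ _
    ((MonoidHom.id Lˣ).toAdditive.toIntLinearMap)
    (fun _ _ => rfl))

/-- A class whose restriction to `Gal(L / L^P)` vanishes restricts to zero on `P`. -/
theorem resMap_eq_zero_of_resL (P : Subgroup (L ≃ₐ[K] L)) (n : ℕ)
    (x : groupCohomology (repL K L) n) (hx : resL K (fixedField P) L n x = 0) :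
    resMap (repL K L) P n x = 0 := by
  have h1 : groupCohomology.map (galRes K (fixedField P) L) (resRepL K (fixedField P) L) n ≫
      groupCohomology.map (toGalFixed K L P) (fixedRep K L P) n =
      groupCohomology.map P.subtype (𝟙 (resSub (repL K L) P)) n := by
    rw [← groupCohomology.map_comp]
    apply groupCohomology.map_congr
    · ext h x
      rfl
    · rfl
  have h2 := congrArg (fun f => f.hom x) h1
  have h3 : (groupCohomology.map (toGalFixed K L P) (fixedRep K L P) n).hom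
      (resL K (fixedField P) L n x) = resMap (repL K L) P n x := h2
  rw [← h3, hx, map_zero]

end sylow

/-- A class killed by two coprime numbers vanishes. -/
theorem eq_zero_of_coprime_nsmul {X : Type} [AddCommGroup X] (m n : ℕ) (h : Nat.Coprime m n)
    (x : X) (hm : m • x = 0) (hn : n • x = 0) : x = 0 := by
  have h1 : ((m : ℤ) * Nat.gcdA m n + (n : ℤ) * Nat.gcdB m n) • x = x := by
    rw [← Nat.gcd_eq_gcd_ab, h]
    simp
  rw [← h1, add_smul, mul_comm (m : ℤ), mul_comm (n : ℤ), mul_smul, mul_smul, natCast_zsmul,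
    natCast_zsmul, hm, hn, smul_zero, smul_zero, add_zero]

theorem eq_zero_of_index_of_pow {X : Type} [AddCommGroup X] (p k i : ℕ) (hp : p.Prime)
    (hi : ¬ p ∣ i) (x : X) (h1 : ((p : ℤ) ^ k) • x = 0) (h2 : i • x = 0) : x = 0 := by
  have h3 : (p ^ k) • x = 0 := by
    rw [← natCast_zsmul, Nat.cast_pow]
    exact h1
  have hc : Nat.Coprime (p ^ k) i :=
    Nat.Coprime.pow_left k ((Nat.Prime.coprime_iff_not_dvd hp).2 hi)
  exact eq_zero_of_coprime_nsmul _ _ hc x h3 h2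

/-- **A-Hasse**: the Hasse principle for `p`-primary classes, general Galois. -/
theorem stmt_BrHasseG_of (hH : Stmt_BrHasse) : Stmt_BrHasseG := by
  intro p K L _ _ _ _ _ hyp k x hpx hloc
  have : Fact p.Prime := ⟨hyp.prime⟩
  have := hyp.gal
  obtain ⟨P⟩ : Nonempty (Sylow p (L ≃ₐ[K] L)) := inferInstance
  have hdeg : Module.finrank ↥(fixedField (P : Subgroup (L ≃ₐ[K] L))) L =
      Nat.card (P : Subgroup (L ≃ₐ[K] L)) :=
    IntermediateField.finrank_fixedField_eq_card _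
  obtain ⟨m, hm⟩ := (IsPGroup.iff_card (p := p)).1 P.isPGroup'
  obtain ⟨ζ, hζ⟩ := hyp.zeta
  have hyp3 : Hyp3 ↥(fixedField (P : Subgroup (L ≃ₐ[K] L))) L p m :=
    ⟨hyp.prime, hyp.odd, ⟨algebraMap K _ ζ, hζ.map_of_injective (algebraMap K _).injective⟩,
      inferInstance, by rw [hdeg, hm]⟩
  have h1 : resL K ↥(fixedField (P : Subgroup (L ≃ₐ[K] L))) L 2 x = 0 :=
    hH p m ↥(fixedField (P : Subgroup (L ≃ₐ[K] L))) L hyp3 _ (fun u => by
      rw [locMap_resL, hloc, map_zero])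
  have h2 := resMap_eq_zero_of_resL K L (P : Subgroup (L ≃ₐ[K] L)) 2 x h1
  obtain ⟨cor, hcor⟩ := Fermat.Agent.S55.CFT.H58.stmt_CorRes (L ≃ₐ[K] L) (repL K L)
    (P : Subgroup (L ≃ₐ[K] L)) 2
  have h3 : (P : Subgroup (L ≃ₐ[K] L)).index • x = 0 := by
    rw [← hcor, h2, map_zero]
  exact eq_zero_of_index_of_pow p k _ hyp.prime P.not_dvd_index x hpx h3

end Fermat.Agent.S55.CFT.GS.H72

end
end
-- ==== END Fermat.Agent.S55.CFT.GS.H72_HasseG

-- ==== BEGIN Fermat.Agent.S55.CFT.H12_ValExact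
section

set_option autoImplicit false
set_option linter.unusedSectionVars false
set_option linter.style.haveILetI false

open NumberField TensorProduct IsDedekindDomain CategoryTheory groupCohomology WithZero

noncomputable section

namespace Fermat.Agent.S55.CFT.H12

lemma commGroup_aux2 {M : Type*} [CommGroup M] (F a b c a' b' c' : M) :
    F / (a / b * c) = F / (a' / b' * c') / (a / a' / (b / b') * (c / c')) := by
  have h : ∀ F a b c a' b' c' : Additive M,
      F - (a - b + c) = F - (a' - b' + c') - (a - a' - (b - b') + (c - c')) := by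
    intros
    abel
  exact h (Additive.ofMul F) (Additive.ofMul a) (Additive.ofMul b) (Additive.ofMul c)
    (Additive.ofMul a') (Additive.ofMul b') (Additive.ofMul c')

section primeUnder

variable (L : Type) [Field L] [NumberField L]

/-- Every prime of `𝓞 L` contains a rational prime. -/
lemma exists_prime_mem (w : HeightOneSpectrum (𝓞 L)) :
    ∃ q : Nat.Primes, ((q : ℕ) : 𝓞 L) ∈ w.asIdeal := by
  have hw := w.isPrime
  have key : ∀ n : ℕ, n ≠ 0 → ((n : ℕ) : 𝓞 L) ∈ w.asIdeal →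
      ∃ q : Nat.Primes, ((q : ℕ) : 𝓞 L) ∈ w.asIdeal := by
    intro n
    induction n using Nat.recOnMul with
    | zero => intro h; exact absurd rfl h
    | one =>
      intro _ h
      exfalso
      apply hw.ne_top
      rw [Ideal.eq_top_iff_one]
      simpa using h
    | prime p hp => intro _ h; exact ⟨⟨p, hp⟩, h⟩
    | mul a b iha ihb =>
      intro hab h
      rw [Nat.cast_mul] at h
      rcases hw.mem_or_mem h with h1 | h1
      · exact iha (left_ne_zero_of_mul hab) h1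
      · exact ihb (right_ne_zero_of_mul hab) h1
  refine key (Ideal.absNorm w.asIdeal) ?_ (Ideal.absNorm_mem _)
  rw [Ne, Ideal.absNorm_eq_zero_iff]
  exact w.ne_bot

/-- A prime of `𝓞 L` contains only one rational prime. -/
lemma prime_mem_unique (w : HeightOneSpectrum (𝓞 L)) {q q' : Nat.Primes}
    (hq : ((q : ℕ) : 𝓞 L) ∈ w.asIdeal) (hq' : ((q' : ℕ) : 𝓞 L) ∈ w.asIdeal) : q = q' := by
  by_contra hne
  have hcop : Nat.Coprime (q : ℕ) (q' : ℕ) :=
    (Nat.coprime_primes q.2 q'.2).2 (fun h => hne (Subtype.ext h))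
  have h1 : IsCoprime ((q : ℕ) : ℤ) ((q' : ℕ) : ℤ) := Nat.isCoprime_iff_coprime.2 hcop
  obtain ⟨a, b, hab⟩ := h1
  apply w.isPrime.ne_top
  rw [Ideal.eq_top_iff_one]
  have h2 : (1 : 𝓞 L) = (a : 𝓞 L) * ((q : ℕ) : 𝓞 L) + (b : 𝓞 L) * ((q' : ℕ) : 𝓞 L) := by
    have := congrArg (fun z : ℤ => (z : 𝓞 L)) hab
    simp only [Int.cast_add, Int.cast_mul, Int.cast_natCast, Int.cast_one] at this
    exact this.symm
  rw [h2]
  exact w.asIdeal.add_mem (w.asIdeal.mul_mem_left _ hq) (w.asIdeal.mul_mem_left _ hq')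

/-- The rational prime under a prime of `𝓞 L`. -/
def primeUnder (w : HeightOneSpectrum (𝓞 L)) : Nat.Primes := (exists_prime_mem L w).choose

lemma primeUnder_mem (w : HeightOneSpectrum (𝓞 L)) :
    ((primeUnder L w : ℕ) : 𝓞 L) ∈ w.asIdeal := (exists_prime_mem L w).choose_spec

lemma primeUnder_eq (w : HeightOneSpectrum (𝓞 L)) {q : Nat.Primes}
    (hq : ((q : ℕ) : 𝓞 L) ∈ w.asIdeal) : primeUnder L w = q :=
  prime_mem_unique L w (primeUnder_mem L w) hq

lemma primeUnder_notMem (T : Finset Nat.Primes) (w : HeightOneSpectrum (𝓞 L))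
    (hw : w ∉ primesT L T) : primeUnder L w ∉ T := by
  intro h
  apply hw
  rw [mem_primesT_iff_exists]
  exact ⟨_, h, by simpa using primeUnder_mem L w⟩

lemma notMem_primesT_of_mem (T : Finset Nat.Primes) (w : HeightOneSpectrum (𝓞 L))
    {q : Nat.Primes} (hq : q ∉ T) (hw : ((q : ℕ) : 𝓞 L) ∈ w.asIdeal) : w ∉ primesT L T := by
  intro h
  rw [mem_primesT_iff_exists] at h
  obtain ⟨q', hq', hmem⟩ := h
  have h1 : q' = q := prime_mem_unique L w (by simpa using hmem) hw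
  exact hq (h1 ▸ hq')

/-- An element of `Lˣ` is a unit above almost all rational primes. -/
lemma finite_notMem_unitsAt (z : Lˣ) : {q : Nat.Primes | z ∉ unitsAt L q}.Finite := by
  apply ((finite_valuation_ne_one L z).image (primeUnder L)).subset
  intro q hq
  rw [Set.mem_ofPred_eq, mem_unitsAt] at hq
  push Not at hq
  obtain ⟨w, hw, hne⟩ := hq
  exact ⟨w, hne, primeUnder_eq L w hw⟩

lemma valuation_units_ne_zero (w : HeightOneSpectrum (𝓞 L)) (y : Lˣ) :
    w.valuation L (y : L) ≠ 0 := by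
  rw [Ne, Valuation.zero_iff]
  exact y.ne_zero

end primeUnder

variable (K L : Type) [Field K] [Field L] [NumberField K] [NumberField L] [Algebra K L]

/-- The cochain-level form of VAL-a: a cocycle which is locally trivial outside `T` is
cohomologous to a cocycle with values in the `T`-units. -/
theorem exists_cochain_tUnits (hLV : Stmt_LocUnitGroup) (T : Finset Nat.Primes)
    (hclL : ClTrivial L T) (f : cocycles₂ (repL K L))
    (hx : ∀ v : Place K, v.1 ∉ T → locMap K L v 2 (H2π (repL K L) f) = 0) :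
    ∃ y : (L ≃ₐ[K] L) → Lˣ, ∀ σ τ : L ≃ₐ[K] L,
      (Additive.toMul (f (σ, τ) : Additive Lˣ) : Lˣ) / (σ • y τ / y (σ * τ) * y σ) ∈
        TUnits L T := by
  classical
  haveI : FiniteDimensional K L := Module.Finite.of_restrictScalars_finite ℚ K L
  have hB := fun q => exists_cochain_unitsAt K L hLV q
  -- the bad rational primes
  let S : Set Nat.Primes := {q | ∃ σ τ : L ≃ₐ[K] L,
    (Additive.toMul (f (σ, τ) : Additive Lˣ) : Lˣ) ∉ unitsAt L q}
  have hS : S.Finite := by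
    have h1 : S = ⋃ στ : (L ≃ₐ[K] L) × (L ≃ₐ[K] L),
        {q | (Additive.toMul (f στ : Additive Lˣ) : Lˣ) ∉ unitsAt L q} := by
      ext q
      simp only [S, Set.mem_ofPred_eq, Set.mem_iUnion, Prod.exists]
    rw [h1]
    exact Set.finite_iUnion (fun στ => finite_notMem_unitsAt L _)
  -- the local cochains
  have hY : ∀ q : Nat.Primes, q ∉ T → ∃ Y : (L ≃ₐ[K] L) → Lˣ,
      (q ∉ S → Y = fun _ => 1) ∧ ∀ σ τ : L ≃ₐ[K] L,
        (Additive.toMul (f (σ, τ) : Additive Lˣ) : Lˣ) / (σ • Y τ / Y (σ * τ) * Y σ) ∈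
          unitsAt L q := by
    intro q hq
    by_cases hqS : q ∈ S
    · obtain ⟨Y, hY⟩ := (hB q).2 f (fun v => hx ⟨q, v⟩ hq)
      exact ⟨Y, fun h => absurd hqS h, hY⟩
    · refine ⟨fun _ => 1, fun _ => rfl, fun σ τ => ?_⟩
      simp only [smul_one, div_one, mul_one]
      by_contra hc
      exact hqS ⟨σ, τ, hc⟩
  choose! Y hY1 hY2 using hY
  -- gluing
  have hy : ∀ σ : L ≃ₐ[K] L, ∃ y : Lˣ, ∀ w : HeightOneSpectrum (𝓞 L), w ∉ primesT L T →
      w.valuation L (y : L) = w.valuation L ((Y (primeUnder L w) σ : Lˣ) : L) := by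
    intro σ
    obtain ⟨y, hy⟩ := exists_of_valuations L T hclL (primesT L hS.toFinset)
      (fun w => log (w.valuation L ((Y (primeUnder L w) σ : Lˣ) : L)))
    refine ⟨y, fun w hw => ?_⟩
    rw [hy w hw]
    by_cases hwS : w ∈ primesT L hS.toFinset
    · rw [if_pos hwS, exp_log (valuation_units_ne_zero L w _)]
    · rw [if_neg hwS]
      have h1 : primeUnder L w ∉ S := by
        intro h
        apply hwS
        rw [mem_primesT_iff_exists]
        exact ⟨_, hS.mem_toFinset.2 h, by simpa using primeUnder_mem L w⟩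
      rw [hY1 _ (primeUnder_notMem L T w hw) h1]
      simp
  choose y hy using hy
  refine ⟨y, fun σ τ => ?_⟩
  rw [mem_tUnits_iff]
  intro w hw
  have hqT : primeUnder L w ∉ T := primeUnder_notMem L T w hw
  have hrel : ∀ σ' : L ≃ₐ[K] L, y σ' / Y (primeUnder L w) σ' ∈ unitsAt L (primeUnder L w) := by
    intro σ' w' hw'
    have hw'T : w' ∉ primesT L T := notMem_primesT_of_mem L T w' hqT hw'
    rw [Units.val_div_eq_div_val, map_div₀, hy σ' w' hw'T, primeUnder_eq L w' hw',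
      div_self (valuation_units_ne_zero L w' _)]
  have hstab := (hB (primeUnder L w)).1
  have h1 := hY2 _ hqT σ τ
  have h2 : σ • (y τ / Y (primeUnder L w) τ) / (y (σ * τ) / Y (primeUnder L w) (σ * τ)) *
      (y σ / Y (primeUnder L w) σ) ∈ unitsAt L (primeUnder L w) :=
    (unitsAt L _).mul_mem ((unitsAt L _).div_mem (hstab σ _ (hrel τ)) (hrel (σ * τ))) (hrel σ)
  have h3 : (Additive.toMul (f (σ, τ) : Additive Lˣ) : Lˣ) / (σ • y τ / y (σ * τ) * y σ) =
      ((Additive.toMul (f (σ, τ) : Additive Lˣ) : Lˣ) /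
        (σ • Y (primeUnder L w) τ / Y (primeUnder L w) (σ * τ) * Y (primeUnder L w) σ)) /
      (σ • (y τ / Y (primeUnder L w) τ) / (y (σ * τ) / Y (primeUnder L w) (σ * τ)) *
        (y σ / Y (primeUnder L w) σ)) := by
    rw [smul_div']
    exact commGroup_aux2 _ _ _ _ _ _ _
  rw [h3]
  exact ((unitsAt L _).div_mem h1 h2) w (primeUnder_mem L w)

/-- **VAL-a** from the local interface `Stmt_LocUnitGroup`. -/
theorem stmt_ValExact_of (hLV : Stmt_LocUnitGroup) : Stmt_ValExact := by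
  intro p K L _ _ _ _ _ T hadm x hx
  have hclL : ClTrivial L T := hadm.cl L
  have hses := H19.valSeq_shortExact K L T hclL
  have hex := groupCohomology.mapShortComplex₂_exact hses 2
  rw [ShortComplex.moduleCat_exact_iff] at hex
  suffices h : (groupCohomology.map (MonoidHom.id (L ≃ₐ[K] L)) (H19.valRep K L T) 2) x = 0 by
    obtain ⟨e, he⟩ := hex x h
    exact ⟨e, he⟩
  induction x using H2_induction_on with | @h f =>
  obtain ⟨y, hy⟩ := exists_cochain_tUnits K L hLV T hclL f hx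
  rw [H2π_comp_map_apply, H2π_eq_zero_iff]
  refine ⟨fun σ => (H19.valRep K L T).hom (Additive.ofMul (y σ)), ?_⟩
  funext ⟨σ, τ⟩
  have hF : (H19.valRep K L T).hom (f (σ, τ)) =
      H19.valFun L T (Additive.toMul (f (σ, τ) : Additive Lˣ) : Lˣ) := rfl
  have hFD : H19.valFun L T (Additive.toMul (f (σ, τ) : Additive Lˣ) : Lˣ) =
      H19.valFun L T (σ • y τ / y (σ * τ) * y σ) := by
    have h := H19.valFun_mul L T ((Additive.toMul (f (σ, τ) : Additive Lˣ) : Lˣ) /
        (σ • y τ / y (σ * τ) * y σ)) (σ • y τ / y (σ * τ) * y σ)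
    rw [div_mul_cancel] at h
    rw [h, (H19.valFun_eq_zero_iff L T _).2 (hy σ τ), zero_add]
  have h2 : H19.valFun L T (σ • y τ / y (σ * τ) * y σ) =
      H19.valFun L T (σ • y τ) - H19.valFun L T (y (σ * τ)) + H19.valFun L T (y σ) := by
    rw [H19.valFun_mul]
    have h4 : H19.valFun L T (σ • y τ) =
        H19.valFun L T (σ • y τ / y (σ * τ)) + H19.valFun L T (y (σ * τ)) := by
      rw [← H19.valFun_mul, div_mul_cancel]
    rw [h4, add_sub_cancel_right]
  have h3 : H19.valFun L T (σ • y τ) =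
      (H19.divRep K L T).ρ σ (H19.valFun L T (y τ)) :=
    Rep.hom_comm_apply (H19.valRep K L T) σ (Additive.ofMul (y τ))
  change (H19.divRep K L T).ρ σ (H19.valFun L T (y τ)) - H19.valFun L T (y (σ * τ)) +
      H19.valFun L T (y σ) = (H19.valRep K L T).hom (f (σ, τ))
  rw [hF, hFD, h2, h3]

end Fermat.Agent.S55.CFT.H12

end
end
-- ==== END Fermat.Agent.S55.CFT.H12_ValExact

-- ==== BEGIN Fermat.Agent.S55.CFT.H13_FundInv
section

set_option autoImplicit false
set_option linter.unusedSectionVars false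
open NumberField TensorProduct CategoryTheory CategoryTheory.Limits

noncomputable section
namespace Fermat.Agent.S55.CFT.H13

open Fermat.Agent.S55.CFT

attribute [local instance 1100] Rep.hV2

section Abstract

/-- Transport of a class of full order along an isomorphism of pairs (group, module). -/
theorem exists_class_transport_abstract {G H : Type} [Group G] [Group H] (e : G ≃* H)
    (A : Rep.{0} ℤ H) (B : Rep.{0} ℤ G) (Ψ : B ⟶ Rep.res e.toMonoidHom A)
    (hΨ : Function.Bijective Ψ.hom) (P : ℕ)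
    (h : ∃ γ : groupCohomology A 2, ∀ k : ℕ, k • γ = 0 → P ∣ k) :
    ∃ γ : groupCohomology B 2, ∀ k : ℕ, k • γ = 0 → P ∣ k := by
  obtain ⟨γ, hγ⟩ := h
  obtain ⟨I, hI⟩ : ∃ I : groupCohomology B 2 ≅ groupCohomology A 2, I =
      groupCohomology.mapIso (A := A) (B := B) e
        (LinearEquiv.ofBijective Ψ.hom.toLinearMap hΨ)
        (fun g => LinearMap.ext fun c => Rep.hom_comm_apply Ψ g c) 2 := ⟨_, rfl⟩
  refine ⟨I.inv.hom γ, ?_⟩
  intro k hk
  apply hγ k
  have h1 := congrArg I.hom.hom hk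
  rw [map_nsmul, map_zero] at h1
  have h2 : I.hom.hom (I.inv.hom γ) = γ := by
    have := I.inv_hom_id
    exact congrArg (fun f => f.hom γ) this
  rw [h2] at h1
  exact h1

end Abstract

section Inv
variable (K L N : Type) [Field K] [Field L] [Field N] [NumberField K] [NumberField L]
  [NumberField N] [Algebra K L] [Algebra L N] [Algebra K N] [IsScalarTower K L N]
  (T : Finset Nat.Primes) [IsGalois K L] [IsGalois K N]

/-- `(C_N)^{Gal(N/L)}` as a representation of `Gal(N/K)/Gal(N/L)`. -/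
abbrev quotC : Rep.{0} ℤ ((N ≃ₐ[K] N) ⧸ kerRes K L N) :=
  (repC K N T).quotientToInvariants (kerRes K L N)

/-- `Gal(L/K) ≃ Gal(N/K)/Gal(N/L)`. -/
def galQuot : (L ≃ₐ[K] L) ≃* ((N ≃ₐ[K] N) ⧸ kerRes K L N) := (quotKerRes K L N).symm

theorem galQuot_restrict (σ : N ≃ₐ[K] N) :
    galQuot K L N (AlgEquiv.restrictNormalHom L σ) = QuotientGroup.mk σ := by
  unfold galQuot
  rw [MulEquiv.symm_apply_eq, quotKerRes_mk]

theorem ρ_idClass_base_of_mem (j : IdeleT L T) (s : N ≃ₐ[K] N) (hs : s ∈ kerRes K L N) :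
    (repC K N T).ρ s (H12.idClass K N T (baseIdele L N T j)) =
      H12.idClass K N T (baseIdele L N T j) := by
  rw [← H12.idClass_smul, smul_baseIdele_tower]
  have h1 : AlgEquiv.restrictNormalHom L s = 1 := hs
  rw [h1, one_smul]

/-- The additive map `J_L → (C_N)^{Gal(N/L)}`. -/
def baseClsAdd : Additive (IdeleT L T) →+ (quotC K L N T).V :=
  AddMonoidHom.codRestrict
    ((H12.cokerAdd (diagRep K N T)).comp
      (MonoidHom.toAdditive (baseIdele L N T) : Additive (IdeleT L T) →+ Additive (IdeleT N T)))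
    (Representation.invariants ((repC K N T).ρ.comp (kerRes K L N).subtype))
    (fun j => by
      rw [Representation.mem_invariants]
      intro s
      exact ρ_idClass_base_of_mem K L N T (Additive.toMul j) s.1 s.2)

theorem baseClsAdd_coe (j : Additive (IdeleT L T)) :
    ((baseClsAdd K L N T j : (quotC K L N T).V) : (repC K N T).V) =
      H12.idClass K N T (baseIdele L N T (Additive.toMul j)) := rfl

/-- The morphism `J_L → (C_N)^{Gal(N/L)}` of representations of `Gal(L/K)`. -/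
def baseClsRep : repJ K L T ⟶ Rep.res (galQuot K L N).toMonoidHom (quotC K L N T) :=
  mkHomZ (A := repJ K L T) (B := Rep.res (galQuot K L N).toMonoidHom (quotC K L N T))
    (baseClsAdd K L N T) (fun g j => by
      obtain ⟨σ, rfl⟩ := AlgEquiv.restrictNormalHom_surjective (F := K) (K₁ := L) N g
      apply Subtype.ext
      rw [Rep.coe_res_obj_ρ']
      change _ = (((quotC K L N T).ρ (galQuot K L N (AlgEquiv.restrictNormalHom L σ))
        (baseClsAdd K L N T j) : (quotC K L N T).V) : (repC K N T).V)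
      rw [galQuot_restrict]
      change H12.idClass K N T (baseIdele L N T ((AlgEquiv.restrictNormalHom L σ) •
        (Additive.toMul (j : Additive (IdeleT L T)) : IdeleT L T))) =
        (repC K N T).ρ σ (H12.idClass K N T (baseIdele L N T
          (Additive.toMul (j : Additive (IdeleT L T)) : IdeleT L T)))
      rw [← H12.idClass_smul, smul_baseIdele_tower])

theorem baseClsRep_apply (j : Additive (IdeleT L T)) :
    (baseClsRep K L N T).hom j = baseClsAdd K L N T j := rfl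

theorem diag_baseClsRep : diagRep K L T ≫ baseClsRep K L N T = 0 := by
  refine Rep.hom_ext (DFunLike.ext _ _ fun e => ?_)
  apply Subtype.ext
  change H12.idClass K N T (baseIdele L N T (diagIdele L T ((Additive.toMul e : TUnits L T) : Lˣ)))
    = 0
  rw [H12.baseIdele_diagIdele]
  exact H12.idClass_diag K N T (H12.iotaT L N T (Additive.toMul e))

/-- The map `C_L → (C_N)^{Gal(N/L)}`. -/
def clsMap : repC K L T ⟶ Rep.res (galQuot K L N).toMonoidHom (quotC K L N T) :=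
  cokernel.desc (diagRep K L T) (baseClsRep K L N T) (diag_baseClsRep K L N T)

theorem clsMap_idClass (j : IdeleT L T) :
    (((clsMap K L N T).hom (H12.idClass K L T j) : (quotC K L N T).V) : (repC K N T).V) =
      H12.idClass K N T (baseIdele L N T j) := by
  have h := cokernel.π_desc (diagRep K L T) (baseClsRep K L N T) (diag_baseClsRep K L N T)
  have h2 := congrArg (fun f => f.hom (Additive.ofMul j : Additive (IdeleT L T))) h
  have h3 : (clsMap K L N T).hom (H12.idClass K L T j) =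
      (baseClsRep K L N T).hom (Additive.ofMul j : Additive (IdeleT L T)) := h2
  rw [h3]
  rfl

theorem clsMap_injective [IsGalois L N] (hT : T.Nonempty) :
    Function.Injective (clsMap K L N T).hom := by
  intro c c' h
  obtain ⟨j, rfl⟩ := H12.idClass_surjective K L T c
  obtain ⟨j', rfl⟩ := H12.idClass_surjective K L T c'
  have h1 := congrArg (fun v : (quotC K L N T).V => (v : (repC K N T).V)) h
  have h2 : H12.idClass K N T (baseIdele L N T j) = H12.idClass K N T (baseIdele L N T j') := by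
    rw [← clsMap_idClass, ← clsMap_idClass]
    exact h1
  have h3 : H12.idClass K N T (baseIdele L N T (j / j')) = 0 := by
    rw [map_div, H12.idClass_div, h2, sub_self]
  obtain ⟨e, he⟩ := idClass_base_eq_zero K L N T hT _ h3
  rw [H12.idClass_eq_iff]
  exact ⟨e, by rw [← he, mul_div_cancel]⟩

theorem clsMap_surjective [IsGalois L N] (hunr : UnramifiedOutsideT L N T)
    (hcl : ClTrivial L T) (hT : T.Nonempty) :
    Function.Surjective (clsMap K L N T).hom := by
  intro b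
  have hb : ∀ s ∈ kerRes K L N, (repC K N T).ρ s (b : (repC K N T).V) = (b : (repC K N T).V) := by
    intro s hs
    have := b.2
    rw [Representation.mem_invariants] at this
    exact this ⟨s, hs⟩
  obtain ⟨w, hw⟩ := exists_base_of_kerRes_invariant K L N T hunr hcl hT _ hb
  refine ⟨H12.idClass K L T w, ?_⟩
  apply Subtype.ext
  rw [clsMap_idClass]
  exact hw

/-- Transport of a class of full order from `H²(Gal(N/K)/Gal(N/L), (C_N)^{Gal(N/L)})` to
`H²(Gal(L/K), C_L)`. -/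
theorem exists_class_transport [IsGalois L N] (hunr : UnramifiedOutsideT L N T)
    (hcl : ClTrivial L T) (hT : T.Nonempty) (P : ℕ)
    (h : ∃ γ : groupCohomology (quotC K L N T) 2, ∀ k : ℕ, k • γ = 0 → P ∣ k) :
    ∃ γ : groupCohomology (repC K L T) 2, ∀ k : ℕ, k • γ = 0 → P ∣ k :=
  exists_class_transport_abstract (galQuot K L N) (quotC K L N T) (repC K L T)
    (clsMap K L N T) ⟨clsMap_injective K L N T hT, clsMap_surjective K L N T hunr hcl hT⟩ P h

end Inv

end Fermat.Agent.S55.CFT.H13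

end
end
-- ==== END Fermat.Agent.S55.CFT.H13_FundInv

-- ==== BEGIN Fermat.Agent.S55.CFT.H13_FundNorm
section

set_option autoImplicit false
set_option linter.unusedSectionVars false
open NumberField TensorProduct CategoryTheory CategoryTheory.Limits

noncomputable section
namespace Fermat.Agent.S55.CFT.H13

open Fermat.Agent.S55.CFT

attribute [local instance 1100] Rep.hV2

section Norm
variable (K F N : Type) [Field K] [Field F] [Field N] [NumberField K] [NumberField F]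
  [NumberField N] [Algebra K F] [Algebra F N] [Algebra K N] [IsScalarTower K F N]
  (T : Finset Nat.Primes)

/-- **h2**: if the base change of `x` to `F` is in the norm group of `N/F`, then the class of
`x` in `C_N` is a norm from `C_N` for `Gal(N/F)`. -/
theorem class_eq_norm_of_mem_normGroup [Normal K F] [IsGalois F N] (hT : T.Nonempty)
    [Fintype (kerRes K F N)] (x : IdeleT K T)
    (hx : baseIdele K F T x ∈ normGroup F N T) :
    ∃ b : (repC K N T).V, H12.idClass K N T (baseIdele K N T x) =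
      ∑ s : kerRes K F N, (repC K N T).ρ (s : N ≃ₐ[K] N) b := by
  classical
  obtain ⟨j, hj⟩ := (H12.mem_normGroup_iff F N T hT _).1 hx
  rw [H56.base_base K F N T, ← idClass_eq_iff_tower K F N T] at hj
  refine ⟨H12.idClass K N T j, ?_⟩
  rw [hj, idClass_prod]
  refine Fintype.sum_equiv (kerResEquiv K F N) _ _ (fun σ => ?_)
  rw [kerResEquiv_coe, ← H12.idClass_smul, smul_restrictScalars]

/-- **h1**: if `k • [x]` is a norm from `(C_N)^{Gal(N/F)}` for `Gal(F/K)`, then a symbol which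
is trivial on `T`-units of `K` and on norms from `F` kills `x ^ k`. -/
theorem symbol_pow_eq_one_of_norm [IsGalois K F] [IsGalois K N] [IsGalois F N]
    (hunr : UnramifiedOutsideT F N T) (hcl : ClTrivial F T) (hT : T.Nonempty)
    {U : Type*} [Group U] (θ : IdeleT K T →* U)
    (hθu : ∀ e ∈ TUnits K T, θ (diagIdele K T e) = 1)
    (hθn : ∀ w : IdeleT F T, θ (normLK K F T w) = 1)
    [Fintype ((N ≃ₐ[K] N) ⧸ kerRes K F N)] (x : IdeleT K T) (k : ℕ)
    (b : ((repC K N T).quotientToInvariants (kerRes K F N)).V)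
    (hb : k • H12.idClass K N T (baseIdele K N T x) =
      ((∑ y : (N ≃ₐ[K] N) ⧸ kerRes K F N,
        ((repC K N T).quotientToInvariants (kerRes K F N)).ρ y b :
        ((repC K N T).quotientToInvariants (kerRes K F N)).V) : (repC K N T).V)) :
    θ x ^ k = 1 := by
  have hbinv : ∀ s ∈ kerRes K F N,
      (repC K N T).ρ s (b : (repC K N T).V) = (b : (repC K N T).V) := by
    intro s hs
    have := b.2
    rw [Representation.mem_invariants] at this
    exact this ⟨s, hs⟩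
  obtain ⟨w, hw⟩ := exists_base_of_kerRes_invariant K F N T hunr hcl hT _ hbinv
  rw [coe_sum_quot_idClass K F N T w b hw.symm, ← idClass_pow, ← map_pow] at hb
  have h0 : H12.idClass K N T (baseIdele K N T (x ^ k / normLK K F T w)) = 0 := by
    rw [map_div, H12.idClass_div, hb, sub_self]
  obtain ⟨e, he⟩ := idClass_base_eq_zero K K N T hT _ h0
  have h1 : θ (x ^ k / normLK K F T w) = 1 := by
    rw [he]; exact hθu _ e.2
  rw [map_div, map_pow, hθn, div_one] at h1
  exact h1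

end Norm

end Fermat.Agent.S55.CFT.H13

end
end
-- ==== END Fermat.Agent.S55.CFT.H13_FundNorm

-- ==== BEGIN Fermat.Agent.S55.CFT.H25_ThetaQ2
section

set_option autoImplicit false
set_option linter.unusedSectionVars false
set_option linter.style.haveILetI false

namespace Fermat.Agent.S55.CFT.H25

open Fermat.Agent.S55.CFT Fermat.Agent.S55.CFT.LOC Fermat.Agent.S55.CFT.LOC.H25
open NumberField TensorProduct Polynomial

section

variable (p q : Nat.Primes) (M : ℕ)

theorem neZero_pow : NeZero ((p : ℕ) ^ M) := ⟨pow_ne_zero _ p.2.ne_zero⟩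

theorem coe_primeUnit (hqp : q ≠ p) :
    ((primeUnit p q M hqp : (ZMod ((p : ℕ) ^ M))ˣ) : ZMod ((p : ℕ) ^ M)) =
      ((q : ℕ) : ZMod ((p : ℕ) ^ M)) := rfl

/-- `q ^ f ≡ 1 mod p ^ M` for `f` the order of `q` in `(ℤ/p^M)ˣ`. -/
theorem pow_dvd_pow_orderOf_sub_one (hqp : q ≠ p) :
    (p : ℕ) ^ M ∣ (q : ℕ) ^ orderOf (primeUnit p q M hqp) - 1 := by
  have h1 : primeUnit p q M hqp ^ orderOf (primeUnit p q M hqp) = 1 := pow_orderOf_eq_one _
  have h2 := congrArg (fun u : (ZMod ((p : ℕ) ^ M))ˣ => (u : ZMod ((p : ℕ) ^ M))) h1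
  simp only [Units.val_pow_eq_pow_val, Units.val_one] at h2
  rw [coe_primeUnit, ← Nat.cast_pow, ← Nat.cast_one (R := ZMod ((p : ℕ) ^ M)),
    ZMod.natCast_eq_natCast_iff] at h2
  have h4 : 1 ≤ (q : ℕ) ^ orderOf (primeUnit p q M hqp) := Nat.one_le_pow _ _ q.2.pos
  exact (Nat.modEq_iff_dvd' h4).mp h2.symm

variable (K₀ : Type) [Field K₀] [NumberField K₀]
  [hcyc : IsCyclotomicExtension {(p : ℕ) ^ M} ℚ K₀]

/-- The local statement at `q ≠ p`, valuation form. -/
theorem orderOf_primeUnit_dvd_valuation (hqp : q ≠ p) (y : SemiLocal K₀ q) (hy : IsUnit y) :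
    haveI := fact_primes q
    (orderOf (primeUnit p q M hqp) : ℤ) ∣ Padic.valuation (Algebra.norm (Qp q) y) := by
  classical
  haveI := fact_primes q
  haveI : NeZero ((p : ℕ) ^ M) := neZero_pow p M
  haveI : IsGalois ℚ K₀ := IsCyclotomicExtension.isGalois {(p : ℕ) ^ M} ℚ K₀
  have hpM : 0 < (p : ℕ) ^ M := pow_pos p.2.pos M
  haveI : Finite (ZMod ((p : ℕ) ^ M))ˣ := inferInstance
  obtain ⟨E, τ, η, hfd, hunr, hη, hτ⟩ := exists_unram_cyc (q : ℕ)
    (f := orderOf (primeUnit p q M hqp)) (orderOf_pos _) (pow_dvd_pow_orderOf_sub_one p q M hqp)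
  haveI := hfd
  haveI : CharZero E :=
    charZero_of_injective_algebraMap (algebraMap ℚ_[(q : ℕ)] E).injective
  -- the embedding of `K₀`
  have hirr : Irreducible (cyclotomic ((p : ℕ) ^ M) ℚ) := cyclotomic.irreducible_rat hpM
  have hζ₀ := IsCyclotomicExtension.zeta_spec ((p : ℕ) ^ M) ℚ K₀
  set ζ₀ := IsCyclotomicExtension.zeta ((p : ℕ) ^ M) ℚ K₀ with hζ₀def
  let ψ : K₀ →ₐ[ℚ] E := (hζ₀.embeddingsEquivPrimitiveRoots E hirr).symm
    ⟨η, (mem_primitiveRoots hpM).mpr hη⟩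
  have hψ : ψ ζ₀ = η := by
    have h1 := (hζ₀.embeddingsEquivPrimitiveRoots E hirr).apply_symm_apply
      ⟨η, (mem_primitiveRoots hpM).mpr hη⟩
    have h2 := congrArg Subtype.val h1
    rwa [IsPrimitiveRoot.embeddingsEquivPrimitiveRoots_apply_coe] at h2
  -- the map `ℚ_q ⊗ K₀ → E`
  let lam : SemiLocal K₀ q →ₐ[Qp q] E :=
    Algebra.TensorProduct.lift (Algebra.ofId (Qp q) E) ψ (fun _ _ => Commute.all _ _)
  have hlam : ∀ (a : Qp q) (k : K₀), lam (a ⊗ₜ[ℚ] k) = algebraMap (Qp q) E a * ψ k := by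
    intro a k
    simp [lam, Algebra.ofId_apply]
  -- the Frobenius of `K₀`
  let χ := IsCyclotomicExtension.autEquivPow K₀ hirr
  let s : K₀ ≃ₐ[ℚ] K₀ := χ.symm (primeUnit p q M hqp)
  have hs_ord : orderOf s = orderOf (primeUnit p q M hqp) := χ.symm.orderOf_eq _
  have hsζ : s ζ₀ = ζ₀ ^ (q : ℕ) := by
    have h1 : χ s = primeUnit p q M hqp := χ.apply_symm_apply _
    have h2 := hζ₀.autToPow_spec ℚ s
    have h3 : hζ₀.autToPow ℚ s = χ s := rfl
    rw [h3, h1, coe_primeUnit, ZMod.val_natCast] at h2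
    rw [← h2]
    have hfin : IsOfFinOrder ζ₀ := isOfFinOrder_iff_pow_eq_one.mpr ⟨_, hpM, hζ₀.pow_eq_one⟩
    rw [hfin.pow_eq_pow_iff_modEq, ← hζ₀.eq_orderOf]
    exact Nat.mod_modEq _ _
  -- compatibility
  have hkey : ∀ (σ : K₀ ≃ₐ[ℚ] K₀) (k : K₀), ψ (σ (s k)) = τ (ψ (σ k)) := by
    intro σ
    have hE : ((ψ.comp (σ : K₀ →ₐ[ℚ] K₀)).comp (s : K₀ →ₐ[ℚ] K₀) : K₀ →+* E) =
        ((τ : E →+* E).comp ((ψ.comp (σ : K₀ →ₐ[ℚ] K₀) : K₀ →ₐ[ℚ] E) : K₀ →+* E)) := by
      have hA : (ψ.comp (σ : K₀ →ₐ[ℚ] K₀)).comp (s : K₀ →ₐ[ℚ] K₀) =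
          ((τ : E →+* E).comp
            ((ψ.comp (σ : K₀ →ₐ[ℚ] K₀) : K₀ →ₐ[ℚ] E) : K₀ →+* E)).toRatAlgHom := by
        apply (hζ₀.powerBasis ℚ).algHom_ext
        rw [hζ₀.powerBasis_gen ℚ]
        change ψ (σ (s ζ₀)) = τ (ψ (σ ζ₀))
        rw [hsζ, map_pow, map_pow]
        refine (hτ _ ?_).symm
        rw [← map_pow, ← map_pow, hζ₀.pow_eq_one, map_one, map_one]
      rw [hA]
      rfl
    intro k
    exact DFunLike.congr_fun hE k
  have hinv : ∀ σ y, lam (semiLocalEquiv ℚ K₀ q (σ * s) y) =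
      τ (lam (semiLocalEquiv ℚ K₀ q σ y)) := by
    intro σ y
    induction y using TensorProduct.induction_on with
    | zero => simp
    | tmul a k =>
      rw [semiLocalEquiv_tmul, semiLocalEquiv_tmul, hlam, hlam, map_mul, AlgEquiv.commutes]
      congr 1
      exact hkey σ k
    | add x y hx hy => simp only [map_add, hx, hy]
  have hmain := orderOf_dvd_valuation_norm (q : ℕ) E
    (fun σ => ((semiLocalEquiv ℚ K₀ q σ : SemiLocal K₀ q ≃ₐ[Qp q] SemiLocal K₀ q) :
      SemiLocal K₀ q →+* SemiLocal K₀ q))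
    (algebraMap_norm_eq_prod K₀ q) lam τ s hinv hunr y hy
  rwa [hs_ord] at hmain

/-- The local statement at `q ≠ p`: `θ_q (N u) = 1`. -/
theorem thetaLoc_norm_of_ne (hqp : q ≠ p) (u : (SemiLocal K₀ q)ˣ) :
    thetaLoc p M q (Units.map (Algebra.norm (Qp q) : SemiLocal K₀ q →* Qp q) u) = 1 := by
  haveI := fact_primes q
  rw [H56.thetaLoc_ne p M q hqp]
  have h := orderOf_primeUnit_dvd_valuation p q M K₀ hqp (u : SemiLocal K₀ q) u.isUnit
  exact orderOf_dvd_iff_zpow_eq_one.mp h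

end
end Fermat.Agent.S55.CFT.H25

end
-- ==== END Fermat.Agent.S55.CFT.H25_ThetaQ2

-- ==== BEGIN Fermat.Agent.S55.CFT.H61_WTwo
section

set_option autoImplicit false
set_option linter.style.haveILetI false
set_option linter.unusedSectionVars false

open NumberField TensorProduct CategoryTheory

noncomputable section

namespace Fermat.Agent.S55.CFT.H61

open Fermat.Agent.S55.CFT groupCohomology

section additive

variable {A B : Type} [CommGroup A] [AddCommGroup B] (f : A → B)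
  (hf : ∀ a b, f (a * b) = f a + f b)
include hf

theorem mulAdd_one : f 1 = 0 := by
  have h := hf 1 1
  rw [mul_one] at h
  exact left_eq_add.mp h

theorem mulAdd_pow (a : A) (n : ℕ) : f (a ^ n) = n • f a := by
  induction n with
  | zero => rw [pow_zero, zero_smul, mulAdd_one f hf]
  | succ n ih => rw [pow_succ, hf, ih, succ_nsmul]

theorem mulAdd_inv (a : A) : f a⁻¹ = -f a := by
  have h := hf a a⁻¹
  rw [mul_inv_cancel, mulAdd_one f hf] at h
  exact eq_neg_of_add_eq_zero_right h.symm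

end additive

section towerform

variable (K L L' N : Type) [Field K] [Field L] [Field L'] [Field N] [NumberField K]
  [NumberField L] [NumberField L'] [NumberField N] [Algebra K L] [Algebra K L'] [Algebra K N]
  [Algebra L N] [Algebra L' N] [IsScalarTower K L N] [IsScalarTower K L' N] [Normal K L]
  [Normal K L']

open Classical in
/-- **W-Two, tower form.** -/
theorem brTwo_tower (hLII : Stmt_LocInfImage) (hInj : Stmt_InfJvInj) (hCyc : Stmt_CycClass)
    (hTHL : Stmt_THL) (hRec : Stmt_CycRec) (hUNN : Stmt_UnrNorm)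
    (p : Nat.Primes) (m m' M : ℕ) (hN : Hyp3 K N (p : ℕ) m') (hL : IsGalois K L)
    (hLdeg : Module.finrank K L = (p : ℕ) ^ m) (hL' : IsGalois K L')
    (hcyc : IsCyclotomicExtension {(p : ℕ) ^ M} K L') (hcycl : IsCyclic (L' ≃ₐ[K] L'))
    (T : Finset Nat.Primes) (hadm : Admissible K L' T (p : ℕ))
    (q₁ q₂ : Nat.Primes) (w₁ : MaximalSpectrum (SemiLocal K q₁))
    (w₂ : MaximalSpectrum (SemiLocal K q₂))
    (hne : (⟨q₁, w₁⟩ : Place K) ≠ ⟨q₂, w₂⟩) (h₁T : q₁ ∈ T) (h₂T : q₂ ∈ T)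
    (hd₁ : (p : ℕ) ^ m * Nat.card (MaximalSpectrum (LocAlg K L' ⟨q₁, w₁⟩)) ∣
      Module.finrank K L')
    (hd₂ : (p : ℕ) ^ m * Nat.card (MaximalSpectrum (LocAlg K L' ⟨q₂, w₂⟩)) ∣
      Module.finrank K L')
    (b : groupCohomology (repJv K L ⟨q₁, w₁⟩) 2) :
    ∃ x : groupCohomology (repL K N) 2,
      locMap K N ⟨q₁, w₁⟩ 2 x = infJv K L N ⟨q₁, w₁⟩ 2 b ∧
      ∀ v : Place K, v ≠ ⟨q₁, w₁⟩ → v ≠ ⟨q₂, w₂⟩ → locMap K N v 2 x = 0 := by
  have hp2 : (p : ℕ) ≠ 2 := hN.odd
  have hζ : ∃ ζ : K, IsPrimitiveRoot ζ (p : ℕ) := hN.zeta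
  -- Step 1: `inf b = inf b'`
  obtain ⟨b', hb'⟩ := hLII (p : ℕ) m' K L L' N hN hL hL' ⟨q₁, w₁⟩ (by rw [hLdeg]; exact hd₁) b
  -- Step 2: `p^m b' = 0`
  have hb0 : ((p : ℕ) ^ m) • b = 0 := by
    have h := LOC.H72.card_nsmul_H2 (repJv K L ⟨q₁, w₁⟩) b
    rwa [IsGalois.card_aut_eq_finrank, hLdeg] at h
  have hb'0 : ((p : ℕ) ^ m) • b' = 0 := by
    apply hInj K L' N hL' hN.gal ⟨q₁, w₁⟩
    rw [map_nsmul, ← hb', ← map_nsmul, hb0, map_zero, map_zero]
  -- Step 3: cyclic classes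
  obtain ⟨cyc, cycv, -, -, hcycv, hloc⟩ := hCyc K L' hL' hcycl
  have hmul := fun v => (hcycv v).1
  have hker := fun v => (hcycv v).2.2
  obtain ⟨β₁, hβ₁⟩ := (hcycv ⟨q₁, w₁⟩).2.1 b'
  have hnorm₁ : IsLocNorm K L' ⟨q₁, w₁⟩ (β₁ ^ ((p : ℕ) ^ m)) := by
    have hpow : cycv ⟨q₁, w₁⟩ (β₁ ^ ((p : ℕ) ^ m)) = ((p : ℕ) ^ m) • cycv ⟨q₁, w₁⟩ β₁ :=
      mulAdd_pow (cycv ⟨q₁, w₁⟩) (hmul ⟨q₁, w₁⟩) β₁ _
    rw [← hker, hpow, hβ₁, hb'0]
  -- Step 4: the idele supported at `v₁`
  let ω₁ : H80.PlaceT K T := ⟨⟨q₁, h₁T⟩, w₁⟩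
  let ω₂ : H80.PlaceT K T := ⟨⟨q₂, h₂T⟩, w₂⟩
  have hω : ω₁ ≠ ω₂ := by
    intro h
    apply hne
    have h1 := congrArg (fun ω : H80.PlaceT K T => (⟨ω.1.1, ω.2⟩ : Place K)) h
    exact h1
  let x₁ : IdeleT K T := H80.secHom K K T ω₁ β₁
  have hθ₁ : cycloTheta K p M T x₁ ^ ((p : ℕ) ^ m) = 1 := by
    have h1 : x₁ ^ ((p : ℕ) ^ m) ∈ normGroup K L' T := by
      have h2 : x₁ ^ ((p : ℕ) ^ m) = H80.secHom K K T ω₁ (β₁ ^ ((p : ℕ) ^ m)) :=
        (map_pow (H80.secHom K K T ω₁) β₁ _).symm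
      rw [h2]
      exact Subgroup.mem_sup_right (secHom_mem_range_normLK K L' T ω₁ _ hnorm₁)
    have h3 := (hRec p M K L' T hp2 hcyc hadm _).1 h1
    have h4 : cycloTheta K p M T (x₁ ^ ((p : ℕ) ^ m)) = cycloTheta K p M T x₁ ^ ((p : ℕ) ^ m) :=
      map_pow (H56.cycloThetaHom K p M T) x₁ _
    rw [← h4]
    exact h3
  -- Step 5: the idele supported at `v₂`
  obtain ⟨c, hc⟩ := hd₂
  obtain ⟨x₂, hx₂s, hx₂θ⟩ := (hTHL p M K L' T hp2 hζ hcyc ⟨q₂, h₂T⟩ w₂).2
    ((p : ℕ) ^ m * c) (cycloTheta K p M T x₁)⁻¹ (by rw [hc]; ring)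
    (by rw [inv_pow, pow_mul, hθ₁, one_pow, inv_one])
  -- Step 6: reciprocity
  have hθ : cycloTheta K p M T (x₁ * x₂) = 1 := by
    have h1 : cycloTheta K p M T (x₁ * x₂) = cycloTheta K p M T x₁ * cycloTheta K p M T x₂ :=
      map_mul (H56.cycloThetaHom K p M T) x₁ x₂
    rw [h1, hx₂θ, mul_inv_cancel]
  have hmem := (hRec p M K L' T hp2 hcyc hadm _).2 hθ
  rw [normGroup, Subgroup.mem_sup] at hmem
  obtain ⟨_, ⟨e, he, rfl⟩, _, ⟨y, rfl⟩, hey⟩ := hmem
  -- Step 7: the global class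
  have key : ∀ v : Place K, locMap K N v 2 (infL K L' N 2 (cyc e))
      = infJv K L' N v 2 (cycv v (locHom K K v e)) := by
    intro v
    rw [locMap_infL, hloc]
  have hone : ∀ v : Place K, cycv v 1 = 0 := fun v => mulAdd_one (cycv v) (hmul v)
  have hproj : ∀ (q : T) (w : MaximalSpectrum (SemiLocal K q.1)),
      cycv ⟨q.1, w⟩ (locHom K K ⟨q.1, w⟩ e)
        = cycv ⟨q.1, w⟩ (projIdele K K T q w x₁) + cycv ⟨q.1, w⟩ (projIdele K K T q w x₂) := by
    intro q w
    have h1 : diagIdele K T e = x₁ * x₂ * (normLK K L' T y)⁻¹ := by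
      rw [← hey, mul_inv_cancel_right]
    have h2 : cycv ⟨q.1, w⟩ (projIdele K K T q w (normLK K L' T y)) = 0 :=
      (hker ⟨q.1, w⟩ _).2 (isLocNorm_proj_normLK K L' T q w y)
    rw [locHom_eq_proj K T q w e, h1, map_mul, map_mul, map_inv, hmul, hmul,
      mulAdd_inv (cycv ⟨q.1, w⟩) (hmul ⟨q.1, w⟩), h2, neg_zero, add_zero]
  refine ⟨infL K L' N 2 (cyc e), ?_, ?_⟩
  · rw [key, hproj ⟨q₁, h₁T⟩ w₁, H80.proj_secHom_self K K T ω₁ β₁,
      hx₂s ⟨q₁, h₁T⟩ w₁ hω, hone, add_zero, hβ₁, ← hb']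
  · rintro ⟨q, w⟩ hv₁ hv₂
    rw [key]
    by_cases hq : q ∈ T
    · have hω₁ : (⟨⟨q, hq⟩, w⟩ : H80.PlaceT K T) ≠ ω₁ := by
        intro h
        apply hv₁
        exact congrArg (fun ω : H80.PlaceT K T => (⟨ω.1.1, ω.2⟩ : Place K)) h
      have hω₂ : (⟨⟨q, hq⟩, w⟩ : H80.PlaceT K T) ≠ ω₂ := by
        intro h
        apply hv₂
        exact congrArg (fun ω : H80.PlaceT K T => (⟨ω.1.1, ω.2⟩ : Place K)) h
      rw [hproj ⟨q, hq⟩ w, H80.proj_secHom_ne K K T ω₁ ⟨⟨q, hq⟩, w⟩ hω₁ β₁,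
        hx₂s ⟨q, hq⟩ w hω₂, hone, add_zero, map_zero]
    · rw [(hker ⟨q, w⟩ _).2 (hUNN (p : ℕ) K L' T hadm e he ⟨q, w⟩ hq), map_zero]

end towerform

end Fermat.Agent.S55.CFT.H61

end
end
-- ==== END Fermat.Agent.S55.CFT.H61_WTwo

-- ==== BEGIN Fermat.Agent.S55.CFT.H80_JCycFinal
section

set_option autoImplicit false

namespace Fermat.Agent.S55.CFT.H80

/-- **GLB-3a**: for `L/K` cyclic of prime degree `p`, `H¹(G, J_{L,T}) = 0` and
`#H²(G, J_{L,T}) = p ^ #{places above T, nonsplit}`. -/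
theorem stmt_JCyclic : Stmt_JCyclic :=
  stmt_JCyclic_of_LOC LOC.H68.stmt_LocalNormIndex

end Fermat.Agent.S55.CFT.H80

end
-- ==== END Fermat.Agent.S55.CFT.H80_JCycFinal

-- ==== BEGIN Fermat.Agent.S55.CFT.H96_UnrNorm
section

set_option autoImplicit false
set_option linter.unusedSectionVars false

open NumberField TensorProduct

noncomputable section

namespace Fermat.Agent.S55.CFT.H96

open Fermat.Agent.S55.CFT Fermat.Agent.S55.CFT.H12

attribute [local instance] Fermat.Agent.S55.CFT.fact_primes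

section units

variable (K : Type) [Field K] [NumberField K] (T : Finset Nat.Primes) (q : Nat.Primes)

theorem not_dvd_prodT_pow (hq : q ∉ T) (n : ℕ) : ¬ (q : ℕ) ∣ prodT T ^ n := by
  intro h
  have h1 : (q : ℕ) ∣ prodT T := q.2.dvd_of_dvd_pow h
  unfold prodT at h1
  obtain ⟨q', hq', hdvd⟩ := (Prime.dvd_finsetProd_iff (Nat.Prime.prime q.2) _).mp h1
  have : (q : ℕ) = (q' : ℕ) := (Nat.prime_dvd_prime_iff_eq q.2 q'.2).mp hdvd
  exact hq ((Subtype.ext this : q = q') ▸ hq')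

theorem one_tmul_natCast_mul (m : ℕ) (x : K) :
    (1 : Qp q) ⊗ₜ[ℚ] ((m : K) * x) = (m : SemiLocal K q) * ((1 : Qp q) ⊗ₜ[ℚ] x) := by
  have h1 : (m : SemiLocal K q) = (1 : Qp q) ⊗ₜ[ℚ] (m : K) := by
    rw [← Algebra.TensorProduct.includeRight_apply, map_natCast]
  rw [h1, Algebra.TensorProduct.tmul_mul_tmul, one_mul]

/-- `1 ⊗ x ∈ R_q(K)` if `c x` is integral, `q ∤ c`. -/
theorem one_tmul_mem_intSub (c : ℕ) (hc : ¬ (q : ℕ) ∣ c) (x : K) (z : 𝓞 K)
    (hz : (z : K) = (c : K) * x) : (1 : Qp q) ⊗ₜ[ℚ] x ∈ intSub K q := by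
  have hnorm : ‖((c : ℕ) : Qp q)‖ = 1 :=
    Padic.norm_natCast_eq_one_iff.mpr ((Nat.Prime.coprime_iff_not_dvd q.2).mpr hc)
  have hc0 : ((c : ℕ) : Qp q) ≠ 0 := by
    intro h0
    rw [h0, norm_zero] at hnorm
    exact zero_ne_one hnorm
  have hinv : ‖(((c : ℕ) : Qp q))⁻¹‖ ≤ 1 := by rw [norm_inv, hnorm, inv_one]
  have key : (1 : Qp q) ⊗ₜ[ℚ] x = (((c : ℕ) : Qp q))⁻¹ • ((1 : Qp q) ⊗ₜ[ℚ] (z : K)) := by
    rw [hz, one_tmul_natCast_mul, Algebra.smul_def, ← mul_assoc,
      ← map_natCast (algebraMap (Qp q) (SemiLocal K q)) c, ← map_mul, inv_mul_cancel₀ hc0,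
      map_one, one_mul]
  rw [key]
  exact smul_mem_intSet hinv (tmul_mem_intSet (by simp) z)

end units

section main

variable (K L : Type) [Field K] [Field L] [NumberField K] [NumberField L] [Algebra K L]
  (T : Finset Nat.Primes) (q : Nat.Primes)

/-- **Semi-local form of UNN**: for `q ∉ T`, the image of a `T`-unit of `K` in `ℚ_q ⊗ L` is
`∏ σ, σ Y` for a unit `Y` of `ℚ_q ⊗ L`. -/
theorem exists_semiLocal_norm_tUnit [IsGalois K L] (hunr : UnramifiedOutsideT K L T) (hq : q ∉ T)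
    (e : Kˣ) (he : e ∈ TUnits K T) :
    ∃ Y : (SemiLocal L q)ˣ, ∏ σ : L ≃ₐ[K] L, σ • (Y : SemiLocal L q) =
      (1 : Qp q) ⊗ₜ[ℚ] (algebraMap K L (e : K)) := by
  classical
  obtain ⟨n, h1, h2⟩ := he
  set c : ℕ := prodT T ^ n with hc
  have hcq : ¬ (q : ℕ) ∣ c := not_dvd_prodT_pow T q hq n
  have hcast : ((prodT T : ℕ) : K) ^ n = (c : K) := by rw [hc]; push_cast; rfl
  rw [hcast] at h1 h2
  set e₁ : 𝓞 K := ⟨(c : K) * (e : K), h1⟩ with he₁
  set e₂ : 𝓞 K := ⟨(c : K) * ((e⁻¹ : Kˣ) : K), h2⟩ with he₂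
  have hm1 : (1 : Qp q) ⊗ₜ[ℚ] (e : K) ∈ intSub K q :=
    one_tmul_mem_intSub K q c hcq (e : K) e₁ rfl
  have hm2 : (1 : Qp q) ⊗ₜ[ℚ] ((e⁻¹ : Kˣ) : K) ∈ intSub K q :=
    one_tmul_mem_intSub K q c hcq ((e⁻¹ : Kˣ) : K) e₂ rfl
  set ε : intSub K q := ⟨_, hm1⟩ with hε
  set ε' : intSub K q := ⟨_, hm2⟩ with hε'
  have hεε' : ε * ε' = 1 := by
    apply Subtype.ext
    show ((1 : Qp q) ⊗ₜ[ℚ] (e : K)) * ((1 : Qp q) ⊗ₜ[ℚ] ((e⁻¹ : Kˣ) : K)) = 1
    rw [Algebra.TensorProduct.tmul_mul_tmul, one_mul, ← Units.val_mul, mul_inv_cancel,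
      Units.val_one, Algebra.TensorProduct.one_def]
  -- an integer `c'` with `c c' ≡ 1 mod q`
  have hcop : Nat.Coprime c (q : ℕ) :=
    Nat.Coprime.symm ((Nat.Prime.coprime_iff_not_dvd q.2).mpr hcq)
  obtain ⟨c', -, hc'⟩ := Nat.exists_mul_mod_eq_one_of_coprime hcop q.2.one_lt
  set a₀ : 𝓞 K := (c' : 𝓞 K) * e₁ with ha₀
  have hval : ((intHom K q a₀ : intSub K q) : SemiLocal K q)
      = ((c * c' : ℕ) : SemiLocal K q) * (ε : SemiLocal K q) := by
    rw [intHom_val, intIncl_apply]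
    show (1 : Qp q) ⊗ₜ[ℚ] (((c' : 𝓞 K) * e₁ : 𝓞 K) : K) = _
    have : (((c' : 𝓞 K) * e₁ : 𝓞 K) : K) = ((c * c' : ℕ) : K) * (e : K) := by
      push_cast
      change (c' : K) * ((c : K) * (e : K)) = _
      ring
    rw [this, one_tmul_natCast_mul]
  have hmem : intHom K q a₀ - ε ∈ radIdeal K q := by
    apply qIdeal_le_radIdeal
    obtain ⟨k, hk⟩ : ∃ k : ℕ, c * c' = (q : ℕ) * k + 1 := by
      refine ⟨c * c' / (q : ℕ), ?_⟩
      have := Nat.div_add_mod (c * c') (q : ℕ)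
      rw [hc'] at this
      exact this.symm
    have : intHom K q a₀ - ε = ((q : ℕ) : intSub K q) * ((k : intSub K q) * ε) := by
      apply Subtype.ext
      push_cast
      rw [hval, hk]
      push_cast
      ring
    rw [this]
    exact Ideal.mul_mem_right _ _ (Ideal.mem_span_singleton_self _)
  obtain ⟨Y, hY⟩ := exists_semiLocal_norm_of_approx K L T q hunr hq ε ε' hεε' a₀ hmem
  have hY' : ∏ σ : L ≃ₐ[K] L, σ • Y = (1 : Qp q) ⊗ₜ[ℚ] (algebraMap K L (e : K)) := by
    rw [hY]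
    show semiLocalMap K L q ((1 : Qp q) ⊗ₜ[ℚ] (e : K)) = _
    simp [semiLocalMap]
  have hunitR : IsUnit ((1 : Qp q) ⊗ₜ[ℚ] (algebraMap K L (e : K)) : SemiLocal L q) := by
    refine IsUnit.of_mul_eq_one ((1 : Qp q) ⊗ₜ[ℚ] (algebraMap K L ((e⁻¹ : Kˣ) : K))) ?_
    rw [Algebra.TensorProduct.tmul_mul_tmul, one_mul, ← map_mul, ← Units.val_mul,
      mul_inv_cancel, Units.val_one, map_one, Algebra.TensorProduct.one_def]
  have hunitY : IsUnit Y := by
    have h3 : Y * ∏ σ ∈ (Finset.univ : Finset (L ≃ₐ[K] L)).erase 1, σ • Y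
        = ∏ σ : L ≃ₐ[K] L, σ • Y := by
      have := Finset.mul_prod_erase (Finset.univ : Finset (L ≃ₐ[K] L)) (fun σ => σ • Y)
        (Finset.mem_univ 1)
      rw [one_smul] at this
      exact this
    rw [hY'] at h3
    rw [← h3] at hunitR
    exact isUnit_of_mul_isUnit_left hunitR
  exact ⟨hunitY.unit, by rw [IsUnit.unit_spec]; exact hY'⟩

/-- **UNN**: `T`-units are local norms at the places outside `T`. -/
theorem stmt_UnrNorm : Stmt_UnrNorm := by
  intro p K L _ _ _ _ _ T hadm e he v hv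
  classical
  have hgal : IsGalois K L := hadm.gal
  obtain ⟨Y, hY⟩ := exists_semiLocal_norm_tUnit K L T v.1 hadm.unr hv e he
  refine ⟨Units.map (Ideal.Quotient.mk (placeIdeal K L v) : SemiLocal L v.1 →* LocAlg K L v) Y, ?_⟩
  rw [finprod_eq_prod_of_fintype]
  apply Units.ext
  rw [Units.coe_prod]
  have h1 : ∀ σ : L ≃ₐ[K] L,
      ((σ • Units.map (Ideal.Quotient.mk (placeIdeal K L v) : SemiLocal L v.1 →* LocAlg K L v) Y :
        (LocAlg K L v)ˣ) : LocAlg K L v)
        = Ideal.Quotient.mk (placeIdeal K L v) (σ • (Y : SemiLocal L v.1)) := fun σ => rfl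
  rw [Finset.prod_congr rfl (fun σ _ => h1 σ), ← map_prod, hY]
  rfl

end main

end Fermat.Agent.S55.CFT.H96

end
end
-- ==== END Fermat.Agent.S55.CFT.H96_UnrNorm

-- ==== BEGIN Fermat.Agent.S55.CFT.LOC.H41_CycUnitTheta
section

/-!
# S55 / E4 / CFT / LOC, leaf LTO-C1 (helper41)

`stmt_CycUnitTheta : Stmt_CycUnitTheta`: for `p` odd, `c ≥ 1` and `E = ℚ_p(ζ_{p^c})` there is a
unit `x` of `E` (`|x| = 1`) with `θ_{c+1}(N_{E/ℚ_p} x) ≠ 1`.

Route: `E/ℚ_p` is cyclic of degree `φ(p^c)`, so the norm group has index `φ(p^c)`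
(`H68.stmt_LocalNormIndexCyclic`), while the kernel of `θ_{c+1}` has index `φ(p^(c+1))`
(`H20.stmt_ThetaLocSurj`): some norm `N y` has `θ_{c+1}(N y) ≠ 1`; then
`x := y / (ζ - 1)^v` with `v = v_p(N y)`, since `N(ζ - 1) = p` and `θ_{c+1}(p) = 1`.
-/

set_option autoImplicit false
set_option linter.unusedSectionVars false
set_option linter.style.haveILetI false

noncomputable section

namespace Fermat.Agent.S55.CFT.LOC.H41

open Fermat.Agent.S55.CFT Fermat.Agent.S55.CFT.LOC Polynomial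

section

variable (p : Nat.Primes) (E : Type) [Field E] [Algebra (Qp p) E] [FiniteDimensional (Qp p) E]

/-- The prime `p` as a unit of `ℚ_p`. -/
def pUnit : (Qp p)ˣ := Units.mk0 (((p : ℕ) : Qp p)) (by
  haveI := fact_primes p
  exact_mod_cast p.2.ne_zero)

theorem pUnit_eq : pUnit p = H56.ratU p (H56.primeQ p) := by
  apply Units.ext
  show (((p : ℕ) : Qp p)) = (((p : ℕ) : ℚ) : Qp p)
  rw [Rat.cast_natCast]

theorem thetaLoc_pUnit (M : ℕ) : thetaLoc p M p (pUnit p) = 1 := by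
  rw [pUnit_eq, H56.thetaLoc_primeQ_self]
  simp

/-- `E = ℚ_p(ζ)` is a cyclotomic extension. -/
theorem isCyclotomicExtension_of_adjoin {n : ℕ} [NeZero n] {ζ : E} (hζ : IsPrimitiveRoot ζ n)
    (htop : IntermediateField.adjoin (Qp p) {ζ} = ⊤) : IsCyclotomicExtension {n} (Qp p) E := by
  haveI := fact_primes p
  haveI : IsCyclotomicExtension {n} (Qp p) (IntermediateField.adjoin (Qp p) {ζ}) :=
    hζ.intermediateField_adjoin_isCyclotomicExtension (Qp p)
  exact IsCyclotomicExtension.equiv {n} (Qp p) (IntermediateField.adjoin (Qp p) {ζ})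
    ((IntermediateField.equivOfEq htop).trans IntermediateField.topEquiv)

/-- `[E : ℚ_p] = φ(p^c)`. -/
theorem finrank_of_adjoin {c : ℕ} (hc : c ≠ 0) {ζ : E} (hζ : IsPrimitiveRoot ζ ((p : ℕ) ^ c))
    (htop : IntermediateField.adjoin (Qp p) {ζ} = ⊤) :
    Module.finrank (Qp p) E = Nat.totient ((p : ℕ) ^ c) := by
  haveI := fact_primes p
  rw [← H25.finrank_adjoin_zeta (p : ℕ) E hc hζ]
  exact (LinearEquiv.finrank_eq
    ((IntermediateField.equivOfEq htop).trans IntermediateField.topEquiv).toLinearEquiv).symm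

/-- The cyclotomic polynomial is irreducible over `ℚ_p`. -/
theorem irreducible_cyclotomic {c : ℕ} (hc : c ≠ 0) {ζ : E}
    (hζ : IsPrimitiveRoot ζ ((p : ℕ) ^ c)) :
    Irreducible (cyclotomic ((p : ℕ) ^ c) (Qp p)) := by
  haveI := fact_primes p
  haveI : NeZero ((p : ℕ) ^ c) := ⟨pow_ne_zero _ p.2.ne_zero⟩
  haveI : CharZero E := H25.charZero_of_padic (p : ℕ) E
  have hint : IsIntegral (Qp p) ζ := Algebra.IsIntegral.isIntegral ζ
  have h2 : Module.finrank (Qp p) (IntermediateField.adjoin (Qp p) {ζ}) =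
      (minpoly (Qp p) ζ).natDegree := IntermediateField.adjoin.finrank hint
  rw [H25.finrank_adjoin_zeta (p : ℕ) E hc hζ] at h2
  have h3 : minpoly (Qp p) ζ ∣ cyclotomic ((p : ℕ) ^ c) (Qp p) := by
    apply minpoly.dvd
    have h := hζ.isRoot_cyclotomic (NeZero.pos _)
    rw [IsRoot.def, ← map_cyclotomic ((p : ℕ) ^ c) (algebraMap (Qp p) E), eval_map] at h
    exact h
  have h4 : cyclotomic ((p : ℕ) ^ c) (Qp p) = minpoly (Qp p) ζ :=
    eq_of_monic_of_dvd_of_natDegree_le (minpoly.monic hint) (cyclotomic.monic _ _) h3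
      (by rw [natDegree_cyclotomic, h2])
  rw [h4]
  exact minpoly.irreducible hint

end

/-- **LTO-C1.** -/
theorem stmt_CycUnitTheta : Stmt_CycUnitTheta := by
  intro p c E _ _ _ ζ hp2 hc hζ htop
  classical
  haveI := fact_primes p
  have hc0 : c ≠ 0 := by omega
  haveI : NeZero ((p : ℕ) ^ c) := ⟨pow_ne_zero _ p.2.ne_zero⟩
  haveI : CharZero E := H25.charZero_of_padic (p : ℕ) E
  haveI hcycl : IsCyclotomicExtension {(p : ℕ) ^ c} (Qp p) E :=
    isCyclotomicExtension_of_adjoin p E hζ htop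
  have hirr := irreducible_cyclotomic p E hc0 hζ
  haveI : IsGalois (Qp p) E := IsCyclotomicExtension.isGalois {(p : ℕ) ^ c} (Qp p) E
  have hfin := finrank_of_adjoin p E hc0 hζ htop
  -- the Galois group is cyclic
  haveI : IsCyclic (ZMod ((p : ℕ) ^ c))ˣ := ZMod.isCyclic_units_of_prime_pow p p.2 hp2 c
  have hcyc : IsCyclic (E ≃ₐ[Qp p] E) :=
    isCyclic_of_injective (hζ.autToPow (Qp p)) (hζ.autToPow_injective (Qp p))
  -- the norm index
  have hidx : (normSubgroup (Qp p) E).index = Module.finrank (Qp p) E :=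
    H68.stmt_LocalNormIndexCyclic (p : ℕ) (Qp p) E hcyc
  obtain ⟨k, rfl⟩ : ∃ k, c = k + 1 := ⟨c - 1, by omega⟩
  -- the norm of `ζ - 1`
  have hN : Algebra.norm (Qp p) (ζ - 1) = ((p : ℕ) : Qp p) :=
    hζ.norm_sub_one_of_prime_ne_two hirr hp2
  have hn0 : Module.finrank (Qp p) E ≠ 0 := Module.finrank_pos.ne'
  have hp0 : ((p : ℕ) : ℝ) ≠ 0 := by exact_mod_cast p.2.ne_zero
  by_contra hcon
  push Not at hcon
  have hle : normSubgroup (Qp p) E ≤ (H56.thetaLocHom p (k + 1 + 1) p).ker := by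
    rintro _ ⟨y, rfl⟩
    rw [MonoidHom.mem_ker]
    set u : (Qp p)ˣ := Units.map (Algebra.norm (Qp p) : E →* Qp p) y with hu
    set v : ℤ := Padic.valuation (u : Qp p) with hv
    have hz0 : ζ - 1 ≠ 0 := by
      intro h
      have h1 : ζ = 1 := sub_eq_zero.mp h
      have h2 := hζ.unique (h1 ▸ IsPrimitiveRoot.one)
      have h3 : 1 < (p : ℕ) ^ (k + 1) := Nat.one_lt_pow (Nat.succ_ne_zero k) p.2.one_lt
      omega
    set z : Eˣ := Units.mk0 (ζ - 1) hz0 with hz
    have hNz : Units.map (Algebra.norm (Qp p) : E →* Qp p) z = pUnit p := Units.ext hN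
    set x : Eˣ := y * z ^ (-v) with hx
    have hNx : Units.map (Algebra.norm (Qp p) : E →* Qp p) x = u * pUnit p ^ (-v) := by
      rw [hx, map_mul, map_zpow, hNz]
    have hnx : nrm (p : ℕ) E (x : E) = 1 := by
      have h1 := nrm_norm (p : ℕ) (Qp p) E (x : E)
      have h2 : Algebra.norm (Qp p) (x : E) = (u : Qp p) * ((p : ℕ) : Qp p) ^ (-v) := by
        have h := congrArg Units.val hNx
        rw [Units.val_mul, Units.val_zpow_eq_zpow_val] at h
        exact h
      have h3 : nrm (p : ℕ) (Qp p) (Algebra.norm (Qp p) (x : E)) = 1 := by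
        rw [h2]
        have h := nrm_algebraMap_padic (p : ℕ) (Qp p) ((u : Qp p) * ((p : ℕ) : Qp p) ^ (-v))
        rw [Algebra.algebraMap_self, RingHom.id_apply] at h
        rw [h, norm_mul, norm_zpow, Padic.norm_p, Padic.norm_eq_zpow_neg_valuation u.ne_zero,
          inv_zpow', neg_neg, ← zpow_add₀ hp0]
        simp [hv]
      rw [h3] at h1
      exact (pow_eq_one_iff_of_nonneg (nrm_nonneg _ _ _) hn0).mp h1.symm
    have h4 := hcon x hnx
    have h5 : H56.thetaLocHom p (k + 1 + 1) p (u * pUnit p ^ (-v)) = 1 := by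
      rw [← hNx]
      exact h4
    have h6 : H56.thetaLocHom p (k + 1 + 1) p (pUnit p) = 1 := thetaLoc_pUnit p (k + 1 + 1)
    rw [map_mul, map_zpow, h6, one_zpow, mul_one] at h5
    exact h5
  have hdvd := Subgroup.index_dvd_of_le hle
  have hsurj : Function.Surjective (H56.thetaLocHom p (k + 1 + 1) p) :=
    H20.stmt_ThetaLocSurj p (k + 1 + 1)
  haveI : NeZero ((p : ℕ) ^ (k + 1 + 1)) := ⟨pow_ne_zero _ p.2.ne_zero⟩
  have hrange : Nat.card (H56.thetaLocHom p (k + 1 + 1) p).range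
      = Nat.totient ((p : ℕ) ^ (k + 1 + 1)) := by
    rw [MonoidHom.range_eq_top.mpr hsurj, Subgroup.card_top, Nat.card_eq_fintype_card,
      ZMod.card_units_eq_totient]
  rw [hidx, hfin, Subgroup.index_ker, hrange, Nat.totient_prime_pow_succ p.2,
    Nat.totient_prime_pow_succ p.2] at hdvd
  have hp1 : 1 < (p : ℕ) := p.2.one_lt
  have hpos : 0 < (p : ℕ) ^ k * ((p : ℕ) - 1) :=
    Nat.mul_pos (pow_pos p.2.pos k) (by omega)
  have hle2 := Nat.le_of_dvd hpos hdvd
  rw [pow_succ, mul_assoc] at hle2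
  have h7 : (p : ℕ) ^ k * ((p : ℕ) - 1) * 2 ≤ (p : ℕ) ^ k * ((p : ℕ) * ((p : ℕ) - 1)) := by
    rw [mul_assoc]
    apply Nat.mul_le_mul_left
    rw [mul_comm]
    exact Nat.mul_le_mul_right _ hp1
  omega

end Fermat.Agent.S55.CFT.LOC.H41

end
end
-- ==== END Fermat.Agent.S55.CFT.LOC.H41_CycUnitTheta
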