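-- GENERATED (merged mirror, NOTES/tools/trim/merge3_helper67.py): 1 modules of the originals, bodies verbatim.
import Fermat.Agent.Zm.S56_L03_005

-- ==== BEGIN Fermat.Agent.S56.TWS.H74_MatDefs
section

set_option autoImplicit false

/-!
# TW-SELECT, package TWS-A (helper74): the matrix statements

`Stmt_H1_matrix` is the matrix form of TWS-A (`H¹(ρbar(G), ad⁰(1)) = 0`).  It is proved from
* `TwCoc.tau_all` (file `H74_Tau`): `τ = 0` on `ker χ`;
* `Stmt_H1_kill` (case with a nontrivial unipotent element in `ker χ`);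
* `Stmt_H1_avg`  (case without: `p` does not divide the order of the image; averaging).
-/

namespace Fermat.Agent.S56.TWS.H74

open Matrix

/-- **TWS-A, matrix form.**  `k` a finite field of odd characteristic `p`, `R : G → GL₂(k)` with
all eigenvalues in `k` and no stable line over any extension (in the form `Irr`), `χ = det R`
(with `χ² ≠ 1` when `p = 5`): every twisted cocycle `c` with values in trace-zero matrices which
vanishes on `ker R` is a coboundary. -/
def Stmt_H1_matrix : Prop :=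
  ∀ (k : Type) [Field k] [Fintype k] (p : ℕ) [Fact p.Prime] [CharP k p], p ≠ 2 →
    ∀ (G : Type) [Group G] (R : G →* Matrix (Fin 2) (Fin 2) k) (χ : G →* kˣ)
      (c : G → Matrix (Fin 2) (Fin 2) k), TwCoc R χ c →
      (∀ g, ∃ α β : k, (R g).trace = α + β ∧ (R g).det = α * β) →
      (p = 5 → ∃ γ : G, (χ γ : k) ^ 2 ≠ 1) → Irr R →
      ∃ m : Matrix (Fin 2) (Fin 2) k, m.trace = 0 ∧ ∀ g, c g = cobd R χ m g

/-- **Case without unipotent elements** (averaging): if `ker χ` contains no `g` with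
`tr R g = 2` and `R g ≠ 1`, then `p` does not divide the order of the (finite) image of `R`,
and `m = - |Γ|⁻¹ Σ_{γ ∈ Γ} c γ` works. -/
def Stmt_H1_avg : Prop :=
  ∀ (k : Type) [Field k] [Fintype k] (p : ℕ) [Fact p.Prime] [CharP k p]
    (G : Type) [Group G] (R : G →* Matrix (Fin 2) (Fin 2) k) (χ : G →* kˣ)
    (c : G → Matrix (Fin 2) (Fin 2) k), TwCoc R χ c →
    (∀ g, χ g = 1 → (R g).trace = 2 → R g = 1) →
    ∃ m : Matrix (Fin 2) (Fin 2) k, m.trace = 0 ∧ ∀ g, c g = cobd R χ m g

/-- **Case with a unipotent element**: if `τ = 0` on `ker χ` and `ker χ` contains `u` with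
`tr R u = 2` and `R u ≠ 1`, then `c` is a coboundary. -/
def Stmt_H1_kill : Prop :=
  ∀ (k : Type) [Field k] (p : ℕ) [Fact p.Prime] [CharP k p], p ≠ 2 →
    ∀ (G : Type) [Group G] (R : G →* Matrix (Fin 2) (Fin 2) k) (χ : G →* kˣ)
      (c : G → Matrix (Fin 2) (Fin 2) k), TwCoc R χ c → Irr R →
      (∀ g, χ g = 1 → tau R c g = 0) →
      ∀ u : G, χ u = 1 → (R u).trace = 2 → R u ≠ 1 →
      ∃ m : Matrix (Fin 2) (Fin 2) k, m.trace = 0 ∧ ∀ g, c g = cobd R χ m g

/-- The matrix form of TWS-A from its two cases. -/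
theorem stmt_H1_matrix_of (hK : Stmt_H1_kill) (hA : Stmt_H1_avg) : Stmt_H1_matrix := by
  intro k _ _ p _ _ hp2 G _ R χ c h hsplit h5 hirr
  by_cases hNU : ∀ g, χ g = 1 → (R g).trace = 2 → R g = 1
  · exact hA k p G R χ c h hNU
  · push Not at hNU
    obtain ⟨u, hu, htr, hne⟩ := hNU
    exact hK k p hp2 G R χ c h hirr (h.tau_all p hp2 hsplit h5 hirr) u hu htr hne

end Fermat.Agent.S56.TWS.H74

end
-- ==== END Fermat.Agent.S56.TWS.H74_MatDefs
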