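-- GENERATED (merged mirror, NOTES/tools/trim/merge3_helper67.py): 2 modules of the originals, bodies verbatim.
import Fermat.Agent.Zm.S56_L04_005

-- ==== BEGIN Fermat.Agent.S56.TWS.H01_Avg
section

set_option autoImplicit false

/-!
# TW-SELECT, package TWS-A, the averaging case `Stmt_H1_avg` (helper1)

If `ker χ` contains no nontrivial unipotent element then the characteristic `p` does not divide
the order of the (finite) image of `R`, and `m = - |Γ|⁻¹ ∑_{γ ∈ Γ} c γ` is a primitive of `c`.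
We work with `Γ = G ⧸ ker R`.
-/

namespace Fermat.Agent.S56.TWS.H01

open Matrix Fermat.Agent.S56.TWS.H74

section Nilp

variable {k : Type} [Field k]

/-- A nilpotent `2 × 2` matrix has trace zero and determinant zero. -/
theorem trace_det_of_pow_eq_zero (N : Matrix (Fin 2) (Fin 2) k) (n : ℕ) (hN : N ^ n = 0) :
    N.trace = 0 ∧ N.det = 0 := by
  have hn0 : n ≠ 0 := by
    rintro rfl
    rw [pow_zero] at hN
    exact one_ne_zero hN
  have hdet : N.det = 0 := by
    have := congrArg Matrix.det hN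
    rw [Matrix.det_pow, Matrix.det_zero] at this
    exact pow_eq_zero_iff hn0 |>.1 this
  refine ⟨?_, hdet⟩
  have hsq : N * N = N.trace • N := by
    rw [cayley N, hdet, zero_smul, sub_zero]
  have hpow : ∀ m : ℕ, N ^ (m + 1) = N.trace ^ m • N := by
    intro m
    induction m with
    | zero => simp
    | succ m ih =>
      rw [pow_succ, ih, Matrix.smul_mul, hsq, smul_smul, pow_succ]
  obtain ⟨m, rfl⟩ := Nat.exists_eq_succ_of_ne_zero hn0
  rw [Nat.succ_eq_add_one, hpow m] at hN
  rcases smul_eq_zero.1 hN with h | h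
  · cases m with
    | zero => rw [pow_zero] at h; exact absurd h one_ne_zero
    | succ m => exact pow_eq_zero_iff (Nat.succ_ne_zero m) |>.1 h
  · rw [h, Matrix.trace_zero]

theorem det_one_add (N : Matrix (Fin 2) (Fin 2) k) : (1 + N).det = 1 + N.trace + N.det := by
  simp only [Matrix.det_fin_two, Matrix.trace, Matrix.diag, Fin.sum_univ_two, Matrix.add_apply,
    Matrix.one_apply_eq, Matrix.one_apply_ne (show (0 : Fin 2) ≠ 1 by decide),
    Matrix.one_apply_ne (show (1 : Fin 2) ≠ 0 by decide)]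
  ring

/-- In characteristic `p`, a matrix `A` with `A ^ p = 1` has trace `2` and determinant `1`. -/
theorem trace_det_of_pow_char (p : ℕ) [Fact p.Prime] [CharP k p] (A : Matrix (Fin 2) (Fin 2) k)
    (hA : A ^ p = 1) : A.trace = 2 ∧ A.det = 1 := by
  have h1 : (A - 1) ^ p = 0 := by
    rw [sub_pow_char_of_commute (p := p) (h := Commute.one_right A), hA, one_pow, sub_self]
  obtain ⟨htr, hdet⟩ := trace_det_of_pow_eq_zero (A - 1) p h1
  have hA' : A = 1 + (A - 1) := by abel
  constructor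
  · rw [Matrix.trace_sub, Matrix.trace_one, Fintype.card_fin] at htr
    have : A.trace = 2 := by
      have h2 : A.trace - ((2 : ℕ) : k) = 0 := htr
      rw [sub_eq_zero] at h2
      rw [h2]; norm_num
    exact this
  · rw [hA', det_one_add, htr, hdet, add_zero, add_zero]

end Nilp

section Avg

variable {k : Type} [Field k] {G : Type} [Group G]
  {R : G →* Matrix (Fin 2) (Fin 2) k} {χ : G →* kˣ} {c : G → Matrix (Fin 2) (Fin 2) k}

theorem R_out (R : G →* Matrix (Fin 2) (Fin 2) k) (g : G) :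
    R ((QuotientGroup.mk g : G ⧸ R.ker)).out = R g := by
  have h1 : (QuotientGroup.mk ((QuotientGroup.mk g : G ⧸ R.ker)).out : G ⧸ R.ker) =
      QuotientGroup.mk g := Quotient.out_eq' _
  rw [QuotientGroup.eq, MonoidHom.mem_ker, map_mul] at h1
  have h2 : R ((QuotientGroup.mk g : G ⧸ R.ker)).out *
      (R ((QuotientGroup.mk g : G ⧸ R.ker)).out⁻¹ * R g) =
      R ((QuotientGroup.mk g : G ⧸ R.ker)).out := by rw [h1, mul_one]
  rw [← mul_assoc, R_mul_inv, one_mul] at h2
  exact h2.symm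

theorem finite_quot [Finite k] (R : G →* Matrix (Fin 2) (Fin 2) k) : Finite (G ⧸ R.ker) := by
  have hinj : Function.Injective (fun q : G ⧸ R.ker => R q.out) := by
    intro a b hab
    have hab' : R a.out = R b.out := hab
    have h1 : R (a.out⁻¹ * b.out) = 1 := by
      rw [map_mul, ← hab', R_inv_mul]
    have h2 : (QuotientGroup.mk a.out : G ⧸ R.ker) = QuotientGroup.mk b.out := by
      rw [QuotientGroup.eq, MonoidHom.mem_ker]; exact h1
    have ha : (QuotientGroup.mk a.out : G ⧸ R.ker) = a := Quotient.out_eq' a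
    have hb : (QuotientGroup.mk b.out : G ⧸ R.ker) = b := Quotient.out_eq' b
    rw [← ha, ← hb]; exact h2
  exact Finite.of_injective _ hinj

/-- The order of the image is prime to `p` when `ker χ` has no nontrivial unipotent. -/
theorem card_ne_zero (p : ℕ) [Fact p.Prime] [CharP k p] [Fintype (G ⧸ R.ker)]
    (h : TwCoc R χ c) (hNU : ∀ g, χ g = 1 → (R g).trace = 2 → R g = 1) :
    ((Fintype.card (G ⧸ R.ker) : ℕ) : k) ≠ 0 := by
  intro h0
  have hdvd : p ∣ Fintype.card (G ⧸ R.ker) := (CharP.cast_eq_zero_iff k p _).1 h0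
  obtain ⟨x, hx⟩ := exists_prime_orderOf_dvd_card p hdvd
  obtain ⟨g, rfl⟩ := QuotientGroup.mk_surjective x
  have hxp : (QuotientGroup.mk g : G ⧸ R.ker) ^ p = 1 := by
    rw [← hx]; exact pow_orderOf_eq_one _
  have hgp : R g ^ p = 1 := by
    rw [← QuotientGroup.mk_pow, QuotientGroup.eq_one_iff, MonoidHom.mem_ker, map_pow] at hxp
    exact hxp
  obtain ⟨htr, hdet⟩ := trace_det_of_pow_char p (R g) hgp
  have hχ : χ g = 1 := by
    apply Units.ext
    rw [← h.det, hdet, Units.val_one]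
  have hRg : R g = 1 := hNU g hχ htr
  have hx1 : (QuotientGroup.mk g : G ⧸ R.ker) = 1 := by
    rw [QuotientGroup.eq_one_iff, MonoidHom.mem_ker]; exact hRg
  rw [hx1, orderOf_one] at hx
  exact (Fact.out : p.Prime).one_lt.ne' hx.symm

theorem sum_out_eq [Fintype (G ⧸ R.ker)] (h : TwCoc R χ c) (g : G) :
    (∑ γ : G ⧸ R.ker, c γ.out) =
      (Fintype.card (G ⧸ R.ker) : k) • c g +
        (χ g : k) • (R g * (∑ γ : G ⧸ R.ker, c γ.out) * R g⁻¹) := by
  have h1 : (∑ γ : G ⧸ R.ker, c γ.out) =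
      ∑ γ : G ⧸ R.ker, c ((QuotientGroup.mk g : G ⧸ R.ker) * γ).out :=
    (Fintype.sum_equiv (Equiv.mulLeft (QuotientGroup.mk g : G ⧸ R.ker)) _ _ (fun γ => rfl)).symm
  have h2 : ∀ γ : G ⧸ R.ker, c ((QuotientGroup.mk g : G ⧸ R.ker) * γ).out =
      c g + (χ g : k) • (R g * c γ.out * R g⁻¹) := by
    intro γ
    rw [← h.mul]
    apply h.c_congr
    have : (QuotientGroup.mk g : G ⧸ R.ker) * γ = QuotientGroup.mk (g * γ.out) := by
      rw [QuotientGroup.mk_mul]
      congr 1
      exact (Quotient.out_eq' γ).symm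
    rw [this, R_out]
  conv_lhs => rw [h1]
  simp only [h2]
  rw [Finset.sum_add_distrib, Finset.sum_const, Finset.card_univ, ← Finset.smul_sum,
    ← Finset.sum_mul, ← Finset.mul_sum, Nat.cast_smul_eq_nsmul]

end Avg

/-- **TWS-A, averaging case.** -/
theorem stmt_H1_avg : Stmt_H1_avg := by
  intro k _ _ p _ _ G _ R χ c h hNU
  classical
  have : Finite (G ⧸ R.ker) := finite_quot R
  letI : Fintype (G ⧸ R.ker) := Fintype.ofFinite _
  have hcard := card_ne_zero p h hNU
  refine ⟨-((Fintype.card (G ⧸ R.ker) : k)⁻¹ • ∑ γ : G ⧸ R.ker, c γ.out), ?_, fun g => ?_⟩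
  · rw [Matrix.trace_neg, Matrix.trace_smul, neg_eq_zero, smul_eq_zero]
    right
    rw [Matrix.trace_sum]
    exact Finset.sum_eq_zero fun γ _ => h.tr _
  · have h3 := sum_out_eq h g
    set S := ∑ γ : G ⧸ R.ker, c γ.out with hS
    unfold cobd
    have h4 : (Fintype.card (G ⧸ R.ker) : k) • c g = S - (χ g : k) • (R g * S * R g⁻¹) := by
      rw [eq_sub_iff_add_eq]; exact h3.symm
    have h5 : c g = (Fintype.card (G ⧸ R.ker) : k)⁻¹ • (S - (χ g : k) • (R g * S * R g⁻¹)) := by
      rw [← h4, smul_smul, inv_mul_cancel₀ hcard, one_smul]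
    rw [h5]
    simp only [Matrix.mul_neg, Matrix.neg_mul, Matrix.mul_smul, Matrix.smul_mul, smul_neg,
      smul_sub, smul_smul]
    rw [mul_comm (χ g : k)]
    abel

end Fermat.Agent.S56.TWS.H01

end
-- ==== END Fermat.Agent.S56.TWS.H01_Avg

-- ==== BEGIN Fermat.Agent.S56.TWS.H74_KillDefs
section

set_option autoImplicit false

/-!
# TW-SELECT, package TWS-A (helper74): the last step of the "kill" argument

`Stmt_H1_N34`: a twisted cocycle with `τ = 0` on `ker χ` which vanishes at two elements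
`u, w ∈ ker χ` with `R u = [[1,1],[0,1]]` and `(R w) 1 0 ≠ 0` is zero.

Proof (N3): for `g ∈ ker χ` and `h ∈ {1, u, w, u w}`: `c (g h) = c g`, so
`tr (c g * R g * R h) = τ (g h) = 0`; the matrices `1, U, W, U W` span `M₂(k)`, so
`c g * R g = 0`, `c g = 0`.
(N4): for all `g` and `h ∈ ker χ`: `c (g h) = c g` and `g h = (g h g⁻¹) g` give
`c g = R (g h g⁻¹) * c g * R (g h g⁻¹)⁻¹`; so `c g` commutes with `U` and `W`, hence is scalar,
hence zero (trace zero, `2 ≠ 0`).
-/

namespace Fermat.Agent.S56.TWS.H74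

open Matrix

/-- The last step (N3 + N4) of the kill argument. -/
def Stmt_H1_N34 : Prop :=
  ∀ (k : Type) [Field k], (2 : k) ≠ 0 →
    ∀ (G : Type) [Group G] (R : G →* Matrix (Fin 2) (Fin 2) k) (χ : G →* kˣ)
      (c : G → Matrix (Fin 2) (Fin 2) k), TwCoc R χ c →
      (∀ g, χ g = 1 → tau R c g = 0) →
      ∀ u w : G, χ u = 1 → χ w = 1 → R u = Umat → (R w) 1 0 ≠ 0 → c u = 0 → c w = 0 →
      ∀ g, c g = 0

end Fermat.Agent.S56.TWS.H74

end
-- ==== END Fermat.Agent.S56.TWS.H74_KillDefs
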