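-- GENERATED (merged mirror, NOTES/tools/trim/merge3_helper67.py): 7 modules of the originals, bodies verbatim.
import Mathlib
import Fermat.Agent.Zm.S56_L05_004
import Fermat.Agent.Zm.S56_L03_005
import Fermat.Agent.Zm.S56_L02_000
import Fermat.Agent.Zm.S56_L01_003
import Fermat.Agent.Zm.S56_L05_000
import Fermat.Agent.Zm.S56_L05_005

-- ==== BEGIN Fermat.Agent.S56.FL.H50_PMa
section

set_option autoImplicit false

/-!
# LOC-p-FL, package PM (helper50), part a: `ℤ_(p)` is local, ring homomorphisms out of `ℤ_(p)`,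
points with values in `𝒪_L`, post-composition of points.
-/

noncomputable section

namespace Fermat.Agent.S56.FL.H50

open scoped NNReal TensorProduct
open Fermat.Agent.S56.FL WithConv

variable {p : ℕ} [Fact p.Prime]

/-! ### `ℤ_(p)` is a local ring -/

theorem mem_Zloc {q : ℚ} : q ∈ Zloc p ↔ q.den.Coprime p := Iff.rfl

theorem not_dvd_den_Zloc (a : Zloc p) : ¬ p ∣ (a : ℚ).den := by
  have hp : p.Prime := Fact.out
  have := a.2
  rw [mem_Zloc, Nat.coprime_comm, Nat.Prime.coprime_iff_not_dvd hp] at this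
  exact this

theorem inv_mem_Zloc_of_not_dvd_num {a : ℚ} (h : ¬ (p : ℤ) ∣ a.num) : a⁻¹ ∈ Zloc p := by
  have hp : p.Prime := Fact.out
  have ha0 : a ≠ 0 := by
    intro h0
    apply h
    rw [h0]; simp
  rw [mem_Zloc, Rat.den_inv_of_ne_zero ha0]
  rw [Nat.coprime_comm, Nat.Prime.coprime_iff_not_dvd hp]
  intro hd
  exact h (Int.natCast_dvd.2 hd)

theorem isUnit_Zloc_of_not_dvd_num (a : Zloc p) (h : ¬ (p : ℤ) ∣ (a : ℚ).num) : IsUnit a := by
  have ha0 : (a : ℚ) ≠ 0 := by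
    intro h0
    apply h
    rw [h0]; simp
  refine IsUnit.of_mul_eq_one (⟨_, inv_mem_Zloc_of_not_dvd_num h⟩ : Zloc p) (Subtype.ext ?_)
  simp [mul_inv_cancel₀ ha0]

theorem padic_norm_Zloc_le_one (a : Zloc p) : ‖((a : ℚ) : ℚ_[p])‖ ≤ 1 :=
  Padic.norm_rat_le_one (not_dvd_den_Zloc a)

theorem isUnit_Zloc_of_norm_eq_one (a : Zloc p) (h : ‖((a : ℚ) : ℚ_[p])‖ = 1) : IsUnit a := by
  apply isUnit_Zloc_of_not_dvd_num
  intro hd
  have h1 : ((a : ℚ) : ℚ_[p]) = ((a : ℚ).num : ℚ_[p]) / ((a : ℚ).den : ℚ_[p]) := Rat.cast_def _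
  have h2 : ‖(((a : ℚ).den : ℕ) : ℚ_[p])‖ = 1 := by
    have h3 : ‖(((a : ℚ).den : ℤ) : ℚ_[p])‖ ≤ 1 := Padic.norm_int_le_one _
    have h4 : ¬ ‖(((a : ℚ).den : ℤ) : ℚ_[p])‖ < 1 := by
      rw [Padic.norm_intCast_lt_one_iff]
      intro hd'
      exact not_dvd_den_Zloc a (Int.natCast_dvd_natCast.1 hd')
    have h5 := le_antisymm h3 (not_lt.1 h4)
    simpa using h5
  have h6 : ‖((a : ℚ).num : ℚ_[p])‖ < 1 := Padic.norm_intCast_lt_one_iff.2 hd
  rw [h1, norm_div, h2, div_one] at h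
  rw [h] at h6
  exact lt_irrefl _ h6

instance isLocalRing_Zloc : IsLocalRing (Zloc p) := by
  refine IsLocalRing.of_isUnit_or_isUnit_one_sub_self fun a => ?_
  by_cases h : ‖((a : ℚ) : ℚ_[p])‖ = 1
  · left; exact isUnit_Zloc_of_norm_eq_one a h
  · right
    apply isUnit_Zloc_of_norm_eq_one
    have hlt : ‖((a : ℚ) : ℚ_[p])‖ < 1 := lt_of_le_of_ne (padic_norm_Zloc_le_one a) h
    have hq : (((1 - a : Zloc p) : ℚ) : ℚ_[p]) = 1 - ((a : ℚ) : ℚ_[p]) := by
      push_cast; rfl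
    rw [hq]
    have h1 : ‖(1 : ℚ_[p])‖ = 1 := norm_one
    have h2 : ‖(1 : ℚ_[p]) + (-((a : ℚ) : ℚ_[p]))‖
        = max ‖(1 : ℚ_[p])‖ ‖(-((a : ℚ) : ℚ_[p]))‖ := by
      apply Padic.add_eq_max_of_ne
      rw [h1, norm_neg]; exact (ne_of_lt hlt).symm
    rw [sub_eq_add_neg, h2, h1, norm_neg, max_eq_left hlt.le]

/-! ### Ring homomorphisms out of `ℤ_(p)` are unique -/

theorem ringHom_Zloc_ext {S : Type} [Ring S] (f g : Zloc p →+* S) : f = g := by
  ext a
  -- `a * den = num` in `ℤ_(p)`, and `den` is a unit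
  set d : Zloc p := ((a : ℚ).den : Zloc p) with hd
  set n : Zloc p := ((a : ℚ).num : Zloc p) with hn
  have hdu : IsUnit d := by
    apply isUnit_Zloc_of_not_dvd_num
    have : ((d : Zloc p) : ℚ) = ((a : ℚ).den : ℚ) := by simp [hd]
    rw [this]
    intro hdvd
    have h1 : ((((a : ℚ).den : ℕ) : ℚ)).num = ((a : ℚ).den : ℤ) := Rat.num_natCast _
    rw [h1] at hdvd
    exact not_dvd_den_Zloc a (Int.natCast_dvd_natCast.1 hdvd)
  have hmul : a * d = n := by
    apply Subtype.ext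
    simp only [hd, hn, Subring.coe_mul, Subring.coe_natCast, Subring.coe_intCast]
    exact Rat.mul_den_eq_num _
  have hfd : f d = g d := by simp [hd]
  have hfn : f n = g n := by simp [hn]
  have h1 : f a * f d = g a * f d := by
    rw [← map_mul, hmul, hfn, ← hmul, map_mul, hfd]
  exact (hdu.map f).mul_right_cancel h1

/-! ### Post-composition of points with an algebra homomorphism -/

section PostAlg

variable {R : Type} [CommRing R]
variable {A B : Type} [CommRing A] [Algebra R A] [CommRing B] [Algebra R B]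
variable {H : Type} [CommRing H] [Bialgebra R H]

/-- Post-composition with an algebra homomorphism, as a homomorphism of convolution monoids of
points. -/
def postAlg (φ : A →ₐ[R] B) : WithConv (H →ₐ[R] A) →* WithConv (H →ₐ[R] B) where
  toFun x := toConv (φ.comp x.ofConv)
  map_one' := by
    apply WithConv.ofConv_injective
    apply AlgHom.ext
    intro h
    simp [AlgHom.convOne_apply]
  map_mul' x y := by
    apply WithConv.ofConv_injective
    exact AlgHom.comp_convMul_distrib φ x y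

@[simp] theorem postAlg_apply (φ : A →ₐ[R] B) (x : WithConv (H →ₐ[R] A)) (h : H) :
    (postAlg φ x).ofConv h = φ (x.ofConv h) := rfl

theorem postAlg_injective (φ : A →ₐ[R] B) (hφ : Function.Injective φ) :
    Function.Injective (postAlg (H := H) φ) := by
  intro x y hxy
  apply WithConv.ofConv_injective
  apply AlgHom.ext
  intro h
  apply hφ
  have := congrArg (fun z => z.ofConv h) hxy
  simpa using this

end PostAlg

/-! ### Points have values in `𝒪_L`, `L` the field generated by the points -/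

section PointInt

variable {H : Type} [CommRing H] [Algebra (Zloc p) H] [Module.Finite (Zloc p) H]

theorem point_mem_pointField (x : H →ₐ[Zloc p] PadicAlgCl p) (h : H) :
    x h ∈ pointField p H :=
  IntermediateField.subset_adjoin _ _ ⟨x, h, rfl⟩

/-- A point, as a homomorphism to `𝒪_L`. -/
def pointInt (x : H →ₐ[Zloc p] PadicAlgCl p) : H →ₐ[Zloc p] intRing p (pointField p H) where
  toFun h := ⟨x h, point_mem_pointField x h, H54.norm_point_le_one x h⟩
  map_one' := Subtype.ext (map_one x)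
  map_mul' a b := Subtype.ext (map_mul x a b)
  map_zero' := Subtype.ext (map_zero x)
  map_add' a b := Subtype.ext (map_add x a b)
  commutes' r := Subtype.ext (x.commutes r)

@[simp] theorem coe_pointInt (x : H →ₐ[Zloc p] PadicAlgCl p) (h : H) :
    ((pointInt x h : intRing p (pointField p H)) : PadicAlgCl p) = x h := rfl

theorem inclAlg_comp_pointInt (x : H →ₐ[Zloc p] PadicAlgCl p) :
    (H54.inclAlg (pointField p H)).comp (pointInt x) = x := by
  apply AlgHom.ext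
  intro h
  rfl

end PointInt

/-- A ring homomorphism `𝒪_L → 𝒪_F / 𝔞` is automatically `ℤ_(p)`-linear. -/
def algOfRingHom {L F : IntermediateField ℚ_[p] (PadicAlgCl p)} {I : Ideal (intRing p F)}
    (φ : intRing p L →+* (intRing p F ⧸ I)) : intRing p L →ₐ[Zloc p] (intRing p F ⧸ I) where
  toRingHom := φ
  commutes' r := by
    have := ringHom_Zloc_ext (φ.comp (algebraMap (Zloc p) (intRing p L)))
      (algebraMap (Zloc p) (intRing p F ⧸ I))
    exact RingHom.congr_fun this r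

@[simp] theorem algOfRingHom_apply {L F : IntermediateField ℚ_[p] (PadicAlgCl p)}
    {I : Ideal (intRing p F)} (φ : intRing p L →+* (intRing p F ⧸ I)) (a : intRing p L) :
    algOfRingHom φ a = φ a := rfl

end Fermat.Agent.S56.FL.H50

end

end
-- ==== END Fermat.Agent.S56.FL.H50_PMa

-- ==== BEGIN Fermat.Agent.S56.FL.H59_KumUV
section

set_option autoImplicit false
set_option linter.style.haveILetI false

/-!
# LOC-p-FL, package KUM (helper59), part 2: what is used of "the fixed field of inertia is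
unramified"

* `uvfin` : finite level form of `H38.norm_le_inv_of_fixed`.
* `norm_pow_card_orbit_le` : for `c ∈ L` of norm `< 1`, `‖c‖ ^ #(orbit of c under inertia) ≤ p⁻¹`.
* `prod_not_mem_le` : the tame base change that is needed for KUM:
  `∏_{τ ∉ H} max (depth σ) (depth τ) · ‖c‖ ≤ p⁻¹` for `σ` of depth `< 1` and `c` fixed by `H`,
  `0 < ‖c‖ < 1`.
-/

noncomputable section

namespace Fermat.Agent.S56.FL.H59

open scoped NNReal
open Fermat.Agent.S56.FL Fermat.Agent.S56.FL.H15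

variable {p : ℕ} [Fact p.Prime]

variable (L : IntermediateField ℚ_[p] (PadicAlgCl p)) [FiniteDimensional ℚ_[p] L]

/-- An element of a finite Galois extension that is fixed by the inertia group (`depth < 1`) and
has norm `< 1` has norm `≤ p⁻¹`. -/
theorem uvfin (hN : Normal ℚ_[p] L) (b : L)
    (hb : ∀ τ : L ≃ₐ[ℚ_[p]] L, depth p L τ < 1 → τ b = b) (hb1 : ‖b‖ < 1) :
    ‖b‖ ≤ (p : ℝ)⁻¹ := by
  haveI := hN
  have key : ∀ σ ∈ inertiaP p, σ (b : PadicAlgCl p) = (b : PadicAlgCl p) := by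
    intro σ hσ
    have hcomm : ∀ a : L, ((σ.restrictNormal L a : L) : PadicAlgCl p) = σ (a : PadicAlgCl p) :=
      fun a => AlgEquiv.restrictNormal_commutes σ L a
    obtain ⟨x, π, q, hg⟩ := exists_goodGen L
    have hd : depth p L (σ.restrictNormal L) < 1 := by
      rw [depth_eq_of_goodGen hg]
      have h1 : ‖σ.restrictNormal L x - x‖ = ‖σ (x : PadicAlgCl p) - (x : PadicAlgCl p)‖ := by
        rw [← hcomm x]; rfl
      rw [h1]
      exact hσ _ hg.1
    rw [← hcomm b, hb _ hd]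
  exact H38.norm_le_inv_of_fixed key hb1

open Classical in
/-- The inertia group as a finset. -/
def inertiaSet : Finset (L ≃ₐ[ℚ_[p]] L) :=
  Finset.univ.filter fun τ : L ≃ₐ[ℚ_[p]] L => depth p L τ < 1

variable {L}

theorem mem_inertiaSet {τ : L ≃ₐ[ℚ_[p]] L} : τ ∈ inertiaSet L ↔ depth p L τ < 1 := by
  classical
  simp [inertiaSet]

theorem one_mem_inertiaSet : (1 : L ≃ₐ[ℚ_[p]] L) ∈ inertiaSet L := by
  rw [mem_inertiaSet, depth_one]; exact zero_lt_one

theorem mul_mem_inertiaSet {σ τ : L ≃ₐ[ℚ_[p]] L} (hσ : σ ∈ inertiaSet L)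
    (hτ : τ ∈ inertiaSet L) : σ * τ ∈ inertiaSet L := by
  rw [mem_inertiaSet] at *
  exact (depth_mul_le L σ τ).trans_lt (max_lt hσ hτ)

theorem inv_mem_inertiaSet {σ : L ≃ₐ[ℚ_[p]] L} (hσ : σ ∈ inertiaSet L) :
    σ⁻¹ ∈ inertiaSet L := by
  rw [mem_inertiaSet] at *
  rwa [depth_inv]

open Classical in
/-- Left translation by an element of the inertia group permutes the inertia group. -/
theorem image_mul_inertiaSet {σ : L ≃ₐ[ℚ_[p]] L} (hσ : σ ∈ inertiaSet L) :
    (inertiaSet L).image (fun τ => σ * τ) = inertiaSet L := by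
  ext τ
  simp only [Finset.mem_image]
  constructor
  · rintro ⟨ν, hν, rfl⟩
    exact mul_mem_inertiaSet hσ hν
  · intro hτ
    exact ⟨σ⁻¹ * τ, mul_mem_inertiaSet (inv_mem_inertiaSet hσ) hτ, by group⟩

open Classical in
/-- The orbit of `c` under the inertia group. -/
def inertiaOrbit (c : L) : Finset L := (inertiaSet L).image fun τ => τ c

open Classical in
theorem inertiaOrbit_nonempty (c : L) : (inertiaOrbit c).Nonempty :=
  ⟨c, Finset.mem_image.mpr ⟨1, one_mem_inertiaSet, rfl⟩⟩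

open Classical in
/-- `‖c‖ ^ #(orbit of c under inertia) ≤ p⁻¹` if `‖c‖ < 1`. -/
theorem norm_pow_card_orbit_le (hN : Normal ℚ_[p] L) (c : L) (hc1 : ‖c‖ < 1) :
    ‖c‖ ^ (inertiaOrbit c).card ≤ (p : ℝ)⁻¹ := by
  set w : L := ∏ z ∈ inertiaOrbit c, z with hw
  have hnorm : ‖w‖ = ‖c‖ ^ (inertiaOrbit c).card := by
    rw [hw, norm_prod]
    rw [Finset.prod_eq_pow_card]
    intro z hz
    obtain ⟨τ, -, rfl⟩ := Finset.mem_image.mp hz
    exact norm_algEquiv τ c
  have hfix : ∀ τ : L ≃ₐ[ℚ_[p]] L, depth p L τ < 1 → τ w = w := by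
    intro τ hτ
    have hτ' : τ ∈ inertiaSet L := mem_inertiaSet.mpr hτ
    rw [hw, map_prod]
    have h1 : ∏ z ∈ inertiaOrbit c, τ z = ∏ z ∈ (inertiaOrbit c).image (fun z => τ z), z := by
      rw [Finset.prod_image]
      intro a _ b _ hab
      exact τ.injective hab
    rw [h1]
    congr 1
    unfold inertiaOrbit
    rw [Finset.image_image]
    conv_rhs => rw [← image_mul_inertiaSet hτ']
    rw [Finset.image_image]
    rfl
  have hw1 : ‖w‖ < 1 := by
    rw [hnorm]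
    exact pow_lt_one₀ (norm_nonneg _) hc1 (Finset.card_pos.mpr (inertiaOrbit_nonempty c)).ne'
  rw [← hnorm]
  exact uvfin L hN w hfix hw1

open Classical in
/-- The fibres of `τ ↦ τ c` on the inertia group have at least `#(H ∩ inertia)` elements if `H`
fixes `c`. -/
theorem card_orbit_mul_le (H : Subgroup (L ≃ₐ[ℚ_[p]] L)) (c : L) (hc : ∀ τ ∈ H, τ c = c) :
    (inertiaOrbit c).card * ((inertiaSet L).filter fun τ => τ ∈ H).card
      ≤ (inertiaSet L).card := by
  rw [Finset.card_eq_sum_card_fiberwise (f := fun τ : L ≃ₐ[ℚ_[p]] L => τ c)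
    (s := inertiaSet L) (t := inertiaOrbit c)
    (fun τ hτ => Finset.mem_image.mpr ⟨τ, hτ, rfl⟩)]
  rw [← smul_eq_mul, ← Finset.sum_const]
  refine Finset.sum_le_sum fun z hz => ?_
  obtain ⟨τ₀, hτ₀, rfl⟩ := Finset.mem_image.mp hz
  refine Finset.card_le_card_of_injOn (fun ν => τ₀ * ν) ?_ ?_
  · intro ν hν
    have hν' := Finset.mem_filter.mp (Finset.mem_coe.mp hν)
    refine Finset.mem_coe.mpr (Finset.mem_filter.mpr ⟨mul_mem_inertiaSet hτ₀ hν'.1, ?_⟩)
    change τ₀ (ν c) = τ₀ c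
    rw [hc ν hν'.2]
  · intro a _ b _ hab
    exact mul_left_cancel hab

/-- Arithmetic: `x^A ≤ P`, `y^m ≤ P`, `m h ≤ A`, `1 ≤ m`, `h ≤ A` imply `x^(A-h) y ≤ P`
(`0 ≤ x ≤ 1`, `0 ≤ y`, `0 < P ≤ 1`). -/
theorem arith_count {x y P : ℝ} (hx0 : 0 ≤ x) (hx1 : x ≤ 1) (hy0 : 0 ≤ y) (hP0 : 0 < P)
    {A h m : ℕ} (hm : 1 ≤ m) (hmh : m * h ≤ A)
    (h1 : x ^ A ≤ P) (h2 : y ^ m ≤ P) : x ^ (A - h) * y ≤ P := by
  have hm0 : m ≠ 0 := by omega
  refine le_of_pow_le_pow_left₀ hm0 hP0.le ?_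
  have hhA : h ≤ A := le_trans (Nat.le_mul_of_pos_left h (by omega)) hmh
  rw [mul_pow, ← pow_mul]
  have e1 : A * (m - 1) ≤ (A - h) * m := by
    have : (A - h) * m = A * m - h * m := Nat.sub_mul A h m
    have h3 : A * (m - 1) = A * m - A := by rw [Nat.mul_sub, mul_one]
    rw [this, h3]
    have : h * m ≤ A := by rw [mul_comm]; exact hmh
    omega
  calc x ^ ((A - h) * m) * y ^ m ≤ x ^ (A * (m - 1)) * y ^ m :=
        mul_le_mul_of_nonneg_right (pow_le_pow_of_le_one hx0 hx1 e1) (pow_nonneg hy0 _)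
    _ = (x ^ A) ^ (m - 1) * y ^ m := by rw [pow_mul]
    _ ≤ P ^ (m - 1) * P := by
        refine mul_le_mul (pow_le_pow_left₀ (pow_nonneg hx0 _) h1 _) h2 (pow_nonneg hy0 _)
          (pow_nonneg hP0.le _)
    _ = P ^ m := by
        rw [← pow_succ]; congr 1; omega

open Classical in
/-- **Tame base change, in the form needed for KUM.**  `σ` of depth `< 1`, `H` a subgroup, `c`
fixed by `H` with `0 < ‖c‖ < 1`: `(∏_{τ ∉ H} max (depth σ) (depth τ)) · ‖c‖ ≤ p⁻¹`. -/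
theorem prod_not_mem_le (hN : Normal ℚ_[p] L) (H : Subgroup (L ≃ₐ[ℚ_[p]] L))
    {σ : L ≃ₐ[ℚ_[p]] L} (hσ : depth p L σ < 1) {c : L} (hc : ∀ τ ∈ H, τ c = c)
    (hc1 : ‖c‖ < 1) :
    (∏ τ ∈ Finset.univ.filter (fun τ : L ≃ₐ[ℚ_[p]] L => τ ∉ H),
      max (depth p L σ) (depth p L τ)) * ‖c‖ ≤ (p : ℝ)⁻¹ := by
  obtain ⟨x, π, q, hg⟩ := exists_goodGen L
  obtain ⟨hx, hπ0, hπ1, hπmax, -, -⟩ := id hg
  have hdle : ∀ τ : L ≃ₐ[ℚ_[p]] L, depth p L τ < 1 → depth p L τ ≤ ‖π‖ := by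
    intro τ hτ
    rw [depth_eq_of_goodGen hg] at hτ ⊢
    exact hπmax _ hτ
  set f : (L ≃ₐ[ℚ_[p]] L) → ℝ := fun τ => max (depth p L σ) (depth p L τ) with hf
  have hf0 : ∀ τ, 0 ≤ f τ := fun τ => le_max_of_le_left (depth_nonneg L σ)
  have hf1 : ∀ τ, f τ ≤ 1 := fun τ => max_le hσ.le (depth_le_one L τ)
  have hfπ : ∀ τ ∈ inertiaSet L, f τ ≤ ‖π‖ := fun τ hτ =>
    max_le (hdle σ hσ) (hdle τ (mem_inertiaSet.mp hτ))
  set T : Finset (L ≃ₐ[ℚ_[p]] L) := Finset.univ.filter (fun τ : L ≃ₐ[ℚ_[p]] L => τ ∉ H) with hT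
  set T₀ : Finset (L ≃ₐ[ℚ_[p]] L) := (inertiaSet L).filter (fun τ => τ ∉ H) with hT₀
  have hsub : T₀ ⊆ T := by
    intro τ hτ
    exact Finset.mem_filter.mpr ⟨Finset.mem_univ _, (Finset.mem_filter.mp hτ).2⟩
  have hprod1 : ∏ τ ∈ T, f τ ≤ ∏ τ ∈ T₀, f τ := by
    rw [← Finset.prod_sdiff hsub]
    calc (∏ τ ∈ T \ T₀, f τ) * ∏ τ ∈ T₀, f τ ≤ 1 * ∏ τ ∈ T₀, f τ :=
          mul_le_mul_of_nonneg_right
            (Finset.prod_le_one (fun τ _ => hf0 τ) (fun τ _ => hf1 τ))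
            (Finset.prod_nonneg fun τ _ => hf0 τ)
      _ = ∏ τ ∈ T₀, f τ := one_mul _
  have hprod2 : ∏ τ ∈ T₀, f τ ≤ ‖π‖ ^ T₀.card := by
    calc ∏ τ ∈ T₀, f τ ≤ ∏ _τ ∈ T₀, ‖π‖ :=
          Finset.prod_le_prod (fun τ _ => hf0 τ)
            (fun τ hτ => hfπ τ (Finset.mem_filter.mp hτ).1)
      _ = ‖π‖ ^ T₀.card := by rw [Finset.prod_const]
  set A := (inertiaSet L).card with hA
  set h₀ := ((inertiaSet L).filter fun τ => τ ∈ H).card with hh₀
  have hcard : T₀.card = A - h₀ := by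
    have e : h₀ + T₀.card = A :=
      Finset.card_filter_add_card_filter_not (s := inertiaSet L) (fun τ => τ ∈ H)
    omega
  by_cases hc0 : ‖c‖ = 0
  · rw [hc0, mul_zero]
    exact inv_nonneg.mpr (Nat.cast_nonneg p)
  have hcpos : 0 < ‖c‖ := lt_of_le_of_ne (norm_nonneg _) (Ne.symm hc0)
  have hP0 : (0 : ℝ) < (p : ℝ)⁻¹ := inv_pos.mpr (by exact_mod_cast (Fact.out : p.Prime).pos)
  have hm1 : 1 ≤ (inertiaOrbit c).card := Finset.card_pos.mpr (inertiaOrbit_nonempty c)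
  have h1 : ‖π‖ ^ A ≤ (p : ℝ)⁻¹ := by
    have h3 : (inertiaOrbit π).card ≤ A := Finset.card_image_le
    exact (pow_le_pow_of_le_one hπ0.le hπ1.le h3).trans (norm_pow_card_orbit_le hN π hπ1)
  have h2 : ‖c‖ ^ (inertiaOrbit c).card ≤ (p : ℝ)⁻¹ := norm_pow_card_orbit_le hN c hc1
  have := arith_count hπ0.le hπ1.le hcpos.le hP0 hm1 (card_orbit_mul_le H c hc) h1 h2
  calc (∏ τ ∈ T, f τ) * ‖c‖ ≤ ‖π‖ ^ T₀.card * ‖c‖ :=
        mul_le_mul_of_nonneg_right (hprod1.trans hprod2) hcpos.le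
    _ = ‖π‖ ^ (A - h₀) * ‖c‖ := by rw [hcard]
    _ ≤ (p : ℝ)⁻¹ := this

end Fermat.Agent.S56.FL.H59

end

end
-- ==== END Fermat.Agent.S56.FL.H59_KumUV

-- ==== BEGIN Fermat.Agent.S56.FL.H85_CCBase
section

set_option autoImplicit false
set_option linter.unusedSectionVars false
set_option linter.style.haveILetI false

/-!
# LOC-p-FL, package UNITS (helper85): shared small leaves

* `omg hζ`            : the mod `p` cyclotomic character `Gal(K̄/ℚ_p) → (ℤ/p)ˣ` (`σ ζ = ζ ^ ω(σ)`).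
* `isCycloAt_iff`     : `IsCycloAt x σ ↔ x = ω(σ)` in `k`.
* `coboundary_of_vanish` (**AVG**): a `χ`-cocycle vanishing on a subgroup of finite index
                        prime to the characteristic is a coboundary.
* `mem_of_fixed_of_le` : an element fixed by a subgroup containing `Gal(K̄/L)` lies in `L`.
-/

noncomputable section

namespace Fermat.Agent.S56.FL.H85

open scoped NNReal
open Fermat.Agent.S56.FL Fermat.Agent.Lib.LocalKummer

variable {p : ℕ} [Fact p.Prime]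

instance neZero_p : NeZero p := ⟨(Fact.out : p.Prime).ne_zero⟩

/-! ## The cyclotomic character -/

section omega

variable {ζ : PadicAlgCl p} (hζ : IsPrimitiveRoot ζ p)

/-- The mod `p` cyclotomic character of `Gal(K̄/ℚ_p)`. -/
def omg : Gp p →* (ZMod p)ˣ := hζ.autToPow ℚ_[p]

theorem omg_spec (σ : Gp p) : σ ζ = ζ ^ ((omg hζ σ : (ZMod p)ˣ) : ZMod p).val :=
  (hζ.autToPow_spec ℚ_[p] σ).symm

/-- The action on all `p`-th roots of unity. -/
theorem omg_spec' (σ : Gp p) {ξ : PadicAlgCl p} (hξ : ξ ^ p = 1) :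
    σ ξ = ξ ^ ((omg hζ σ : (ZMod p)ˣ) : ZMod p).val := by
  obtain ⟨i, -, rfl⟩ := hζ.eq_pow_of_pow_eq_one hξ
  rw [map_pow, omg_spec hζ σ, ← pow_mul, ← pow_mul, mul_comm]

theorem omg_zpowZ (σ : Gp p) (a : ZMod p) :
    σ (zpowZ ζ a) = zpowZ ζ (((omg hζ σ : (ZMod p)ˣ) : ZMod p) * a) := by
  have h1 : σ (zpowZ ζ a) = zpowZ (σ ζ) a := by
    unfold zpowZ
    rw [map_pow]
  rw [h1, omg_spec hζ σ]
  exact zpowZ_zpowZ hζ.pow_eq_one _ _

theorem omg_eq_one_iff (σ : Gp p) : omg hζ σ = 1 ↔ σ ζ = ζ := by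
  constructor
  · intro h
    rw [omg_spec hζ σ, h, Units.val_one, ZMod.val_one'' ?_, pow_one]
    exact (Fact.out : p.Prime).ne_one
  · intro h
    have h1 := omg_zpowZ hζ σ 1
    have h2 : zpowZ ζ (1 : ZMod p) = ζ := by
      unfold zpowZ
      rw [ZMod.val_one'' (Fact.out : p.Prime).ne_one, pow_one]
    rw [h2, h, mul_one] at h1
    have h3 := zpowZ_injective hζ (h2.trans h1)
    exact Units.ext h3.symm

include hζ in
theorem pow_eq_iff_natCast_eq {a b : ℕ} : ζ ^ a = ζ ^ b ↔ (a : ZMod p) = (b : ZMod p) := by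
  rw [← zpowZ_natCast hζ.pow_eq_one, ← zpowZ_natCast hζ.pow_eq_one]
  exact (zpowZ_injective hζ).eq_iff

end omega

/-! ## `IsCycloAt` -/

section cyclo

variable {k : Type} [Field k] [CharP k p]

/-- The embedding `𝔽_p → k`. -/
abbrev cst (p : ℕ) [Fact p.Prime] (k : Type) [Field k] [CharP k p] : ZMod p →+* k :=
  ZMod.castHom (dvd_refl p) k

theorem isCycloAt_iff {ζ : PadicAlgCl p} (hζ : IsPrimitiveRoot ζ p) (x : k) (σ : Gp p) :
    IsCycloAt x σ ↔ x = cst p k ((omg hζ σ : (ZMod p)ˣ) : ZMod p) := by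
  constructor
  · rintro ⟨n, rfl, h⟩
    have h1 := h ζ hζ.pow_eq_one
    rw [omg_spec hζ σ, eq_comm, pow_eq_iff_natCast_eq hζ, ZMod.natCast_zmod_val] at h1
    rw [← h1, map_natCast]
  · intro h
    refine ⟨(((omg hζ σ : (ZMod p)ˣ) : ZMod p)).val, ?_, fun ξ hξ => omg_spec' hζ σ hξ⟩
    rw [h]
    conv_rhs => rw [← ZMod.natCast_zmod_val ((omg hζ σ : (ZMod p)ˣ) : ZMod p)]
    rw [map_natCast]

end cyclo

/-! ## AVG: a cocycle vanishing on a subgroup of index prime to `p` is a coboundary -/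

section avg

variable {G : Type*} [Group G] {k : Type*} [Field k]

theorem coboundary_of_vanish (χ : G →* kˣ) (c : G → k)
    (hc : ∀ σ τ : G, c (σ * τ) = c σ + (χ σ : k) * c τ)
    (N : Subgroup G) [Finite (G ⧸ N)] (hN : ∀ n ∈ N, c n = 0)
    (hidx : (Nat.card (G ⧸ N) : k) ≠ 0) :
    ∃ a : k, ∀ σ : G, c σ = ((χ σ : k) - 1) * a := by
  classical
  haveI : Fintype (G ⧸ N) := Fintype.ofFinite _
  -- `c` is constant on left cosets
  have hcos : ∀ g h : G, g⁻¹ * h ∈ N → c h = c g := by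
    intro g h hgh
    have : h = g * (g⁻¹ * h) := by group
    rw [this, hc, hN _ hgh, mul_zero, add_zero]
  set S : k := ∑ x : G ⧸ N, c x.out with hS
  have hperm : ∀ σ : G, ∑ x : G ⧸ N, c (σ * x.out) = S := by
    intro σ
    have h1 : ∀ x : G ⧸ N, c (σ * x.out) = c ((σ • x).out) := by
      intro x
      apply hcos
      have h2 : ((σ • x).out : G ⧸ N) = ((σ * x.out : G) : G ⧸ N) := by
        rw [QuotientGroup.out_eq']
        conv_lhs => rw [← QuotientGroup.out_eq' x]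
        rfl
      exact QuotientGroup.eq.mp h2
    rw [Finset.sum_congr rfl (fun x _ => h1 x), hS]
    exact Fintype.sum_equiv (MulAction.toPerm σ) _ _ (fun x => rfl)
  refine ⟨-(S / (Nat.card (G ⧸ N) : k)), fun σ => ?_⟩
  have h3 := hperm σ
  simp only [hc, Finset.sum_add_distrib, Finset.sum_const, Finset.card_univ, nsmul_eq_mul,
    ← Finset.mul_sum] at h3
  rw [← hS, ← Nat.card_eq_fintype_card] at h3
  field_simp
  linear_combination h3

end avg

/-! ## Elements fixed by a subgroup containing `Gal(K̄/L)` -/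

theorem mem_of_fixed_of_le {L : IntermediateField ℚ_[p] (PadicAlgCl p)}
    {N : Subgroup (Gp p)} (hN : L.fixingSubgroup ≤ N) {x : PadicAlgCl p}
    (hx : ∀ s ∈ N, s x = x) : x ∈ L := by
  rw [← InfiniteGalois.fixedField_fixingSubgroup L, IntermediateField.mem_fixedField_iff]
  exact fun s hs => hx s (hN hs)

theorem finite_quotient_of_le {L : IntermediateField ℚ_[p] (PadicAlgCl p)}
    [FiniteDimensional ℚ_[p] L] {N : Subgroup (Gp p)} (hN : L.fixingSubgroup ≤ N) :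
    Finite (Gp p ⧸ N) := by
  have h1 : L.fixingSubgroup.index ≠ 0 := by
    rw [← IntermediateField.finrank_eq_fixingSubgroup_index]
    exact Module.finrank_pos.ne'
  haveI : L.fixingSubgroup.FiniteIndex := ⟨h1⟩
  haveI : N.FiniteIndex := Subgroup.finiteIndex_of_le hN
  exact Subgroup.finite_quotient_of_finiteIndex

end Fermat.Agent.S56.FL.H85

end

end
-- ==== END Fermat.Agent.S56.FL.H85_CCBase

-- ==== BEGIN Fermat.Agent.S56.FL.LF.H15_Value
section

set_option autoImplicit false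

/-!
# LOC-p-FL, LF basics (helper15), part 5: value group, roots of unity, integrality

* `norm_pow_sub_pow_le_algCl` : `‖y^m - z^m‖ ≤ ‖y - z‖` for integers of `K̄`.
* `norm_natCast_eq_one`       : `‖m‖ = 1` for `p ∤ m`.
* `norm_zeta_sub_one`         : `‖ζ - 1‖^(p-1) = p⁻¹` for a primitive `p`-th root of unity.
* `exists_goodGen_q`          : a good generator with `‖q‖ < 1`.
* `exists_norm_eq_zpow`       : the value group of `L` is generated by `‖π‖`.
-/

noncomputable section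

namespace Fermat.Agent.S56.FL.H15

open scoped NNReal
open Fermat.Agent.S56.FL Module Polynomial

variable {p : ℕ} [Fact p.Prime]

theorem norm_pow_sub_pow_le_algCl {y z : PadicAlgCl p} (hy : ‖y‖ ≤ 1) (hz : ‖z‖ ≤ 1) (m : ℕ) :
    ‖y ^ m - z ^ m‖ ≤ ‖y - z‖ := by
  induction m with
  | zero => simp
  | succ m ih =>
    have h : y ^ (m + 1) - z ^ (m + 1) = y * (y ^ m - z ^ m) + (y - z) * z ^ m := by ring
    rw [h]
    refine (IsUltrametricDist.norm_add_le_max _ _).trans (max_le ?_ ?_)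
    · rw [norm_mul]
      calc ‖y‖ * ‖y ^ m - z ^ m‖ ≤ 1 * ‖y - z‖ :=
            mul_le_mul hy ih (norm_nonneg _) zero_le_one
        _ = ‖y - z‖ := one_mul _
    · rw [norm_mul, norm_pow]
      calc ‖y - z‖ * ‖z‖ ^ m ≤ ‖y - z‖ * 1 :=
            mul_le_mul_of_nonneg_left (pow_le_one₀ (norm_nonneg _) hz) (norm_nonneg _)
        _ = ‖y - z‖ := mul_one _

theorem norm_natCast_eq_one {m : ℕ} (hm : ¬ p ∣ m) : ‖(m : PadicAlgCl p)‖ = 1 := by
  have h : (m : PadicAlgCl p) = algebraMap ℚ_[p] (PadicAlgCl p) (m : ℚ_[p]) := by simp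
  rw [h, PadicAlgCl.norm_extends, Padic.norm_natCast_eq_one_iff]
  exact ((Nat.Prime.coprime_iff_not_dvd (Fact.out : p.Prime)).mpr hm)

theorem norm_natCast_lt_one {m : ℕ} (hm : p ∣ m) : ‖(m : PadicAlgCl p)‖ < 1 := by
  have h : (m : PadicAlgCl p) = algebraMap ℚ_[p] (PadicAlgCl p) (m : ℚ_[p]) := by simp
  rw [h, PadicAlgCl.norm_extends]
  exact (Padic.norm_natCast_lt_one_iff).mpr hm

theorem norm_sub_le_max_algCl (a b : PadicAlgCl p) : ‖a - b‖ ≤ max ‖a‖ ‖b‖ := by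
  rw [sub_eq_add_neg]
  exact (IsUltrametricDist.norm_add_le_max _ _).trans (by rw [norm_neg])

/-- If `‖b‖ < ‖a‖` then `‖a + b‖ = ‖a‖`. -/
theorem norm_add_eq_left {a b : PadicAlgCl p} (h : ‖b‖ < ‖a‖) : ‖a + b‖ = ‖a‖ := by
  rw [IsUltrametricDist.norm_add_eq_max_of_norm_ne_norm h.ne']
  exact max_eq_left h.le

theorem norm_sub_eq_left {a b : PadicAlgCl p} (h : ‖b‖ < ‖a‖) : ‖a - b‖ = ‖a‖ := by
  rw [sub_eq_add_neg]
  exact norm_add_eq_left (by rwa [norm_neg])

theorem norm_add_eq_right {a b : PadicAlgCl p} (h : ‖a‖ < ‖b‖) : ‖a + b‖ = ‖b‖ := by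
  rw [add_comm]; exact norm_add_eq_left h

/-- `‖ζ - 1‖^(p-1) = p⁻¹` for `ζ ≠ 1`, `ζ^p = 1`. -/
theorem norm_zeta_sub_one {ζ : PadicAlgCl p} (h1 : ζ ≠ 1) (hζ : ζ ^ p = 1) :
    ‖ζ - 1‖ ^ (p - 1) = (p : ℝ)⁻¹ := by
  have hp : p.Prime := Fact.out
  set z : PadicAlgCl p := ζ - 1 with hz
  have hz0 : z ≠ 0 := sub_ne_zero.mpr h1
  have hzpos : 0 < ‖z‖ := norm_pos_iff.mpr hz0
  have hζn : ‖ζ‖ = 1 := by
    have : ‖ζ‖ ^ p = 1 := by rw [← norm_pow, hζ, norm_one]
    exact (pow_eq_one_iff_of_nonneg (norm_nonneg _) hp.ne_zero).mp this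
  have hz1 : ‖z‖ ≤ 1 := by
    rw [hz]
    exact (norm_sub_le_max_algCl _ _).trans (max_le hζn.le (by simp))
  -- the binomial identity
  have hbin := add_pow_prime_eq' hp z (1 : PadicAlgCl p)
  have hz1' : z + 1 = ζ := by rw [hz]; ring
  rw [hz1', hζ] at hbin
  simp only [one_pow, mul_one] at hbin
  set S : PadicAlgCl p := ∑ k ∈ Finset.Ioo 0 p, z ^ k * ((p.choose k / p : ℕ) : PadicAlgCl p)
    with hS
  have hzp : z ^ p = -((p : PadicAlgCl p) * S) := by
    have : z ^ p + (p : PadicAlgCl p) * S = 0 := by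
      have h2 : (1 : PadicAlgCl p) = z ^ p + 1 + (p : PadicAlgCl p) * S := hbin
      linear_combination -h2
    exact eq_neg_of_add_eq_zero_left this
  have hterm : ∀ k ∈ Finset.Ioo 0 p,
      ‖z ^ k * ((p.choose k / p : ℕ) : PadicAlgCl p)‖ ≤ ‖z‖ ^ k := by
    intro k _
    rw [norm_mul, norm_pow]
    calc ‖z‖ ^ k * ‖((p.choose k / p : ℕ) : PadicAlgCl p)‖ ≤ ‖z‖ ^ k * 1 :=
          mul_le_mul_of_nonneg_left (norm_natCast_le_one _) (by positivity)
      _ = ‖z‖ ^ k := mul_one _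
  have hS1 : ‖S‖ ≤ 1 := by
    refine IsUltrametricDist.norm_sum_le_of_forall_le_of_nonneg zero_le_one fun k hk => ?_
    exact (hterm k hk).trans (pow_le_one₀ (norm_nonneg _) hz1)
  have hpn : ‖(p : PadicAlgCl p)‖ = (p : ℝ)⁻¹ := norm_p_algCl
  have hplt : (p : ℝ)⁻¹ < 1 := inv_lt_one_of_one_lt₀ one_lt_p_real
  have hzlt : ‖z‖ < 1 := by
    by_contra hcon
    have hz_eq : ‖z‖ = 1 := le_antisymm hz1 (not_lt.mp hcon)
    have h3 : ‖z ^ p‖ = 1 := by rw [norm_pow, hz_eq, one_pow]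
    rw [hzp, norm_neg, norm_mul, hpn] at h3
    have : (p : ℝ)⁻¹ * ‖S‖ ≤ (p : ℝ)⁻¹ * 1 :=
      mul_le_mul_of_nonneg_left hS1 (by positivity)
    linarith
  -- `S = z + (terms divisible by z^2)`
  have h1mem : 1 ∈ Finset.Ioo 0 p := by
    rw [Finset.mem_Ioo]; exact ⟨one_pos, hp.one_lt⟩
  have hsplit := Finset.add_sum_erase (Finset.Ioo 0 p)
    (fun k => z ^ k * ((p.choose k / p : ℕ) : PadicAlgCl p)) h1mem
  have hc1 : ((p.choose 1 / p : ℕ) : PadicAlgCl p) = 1 := by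
    rw [Nat.choose_one_right, Nat.div_self hp.pos]; simp
  simp only [pow_one, hc1, mul_one] at hsplit
  set T : PadicAlgCl p := ∑ k ∈ (Finset.Ioo 0 p).erase 1,
    z ^ k * ((p.choose k / p : ℕ) : PadicAlgCl p) with hT
  have hT2 : ‖T‖ ≤ ‖z‖ ^ 2 := by
    refine IsUltrametricDist.norm_sum_le_of_forall_le_of_nonneg (by positivity) fun k hk => ?_
    have hk' := Finset.mem_erase.mp hk
    have hk2 : 2 ≤ k := by
      have := (Finset.mem_Ioo.mp hk'.2).1
      have := hk'.1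
      omega
    exact (hterm k hk'.2).trans (pow_le_pow_of_le_one (norm_nonneg _) hz1 hk2)
  have hTlt : ‖T‖ < ‖z‖ := by
    refine hT2.trans_lt ?_
    calc ‖z‖ ^ 2 = ‖z‖ * ‖z‖ := by ring
      _ < 1 * ‖z‖ := mul_lt_mul_of_pos_right hzlt hzpos
      _ = ‖z‖ := one_mul _
  have hSn : ‖S‖ = ‖z‖ := by
    rw [hS, ← hsplit]
    exact norm_add_eq_left hTlt
  have h4 : ‖z‖ ^ p = (p : ℝ)⁻¹ * ‖z‖ := by
    rw [← norm_pow, hzp, norm_neg, norm_mul, hpn, hSn]
  have h5 : ‖z‖ ^ (p - 1) * ‖z‖ = (p : ℝ)⁻¹ * ‖z‖ := by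
    rw [← pow_succ, Nat.sub_add_cancel hp.one_le]; exact h4
  exact mul_right_cancel₀ hzpos.ne' h5

variable (L : IntermediateField ℚ_[p] (PadicAlgCl p))

/-- The value group of `L` is generated by the norm of a uniformizer. -/
theorem exists_norm_eq_zpow {π : L} (hπ0 : 0 < ‖π‖) (hπ1 : ‖π‖ < 1)
    (hmax : ∀ a : L, ‖a‖ < 1 → ‖a‖ ≤ ‖π‖) (a : L) (ha : a ≠ 0) :
    ∃ j : ℤ, ‖a‖ = ‖π‖ ^ j := by
  have hπne : π ≠ 0 := norm_pos_iff.mp hπ0
  -- units have norm one
  have key : ∀ b : L, b ≠ 0 → ‖b‖ ≤ 1 → ∃ j : ℕ, ‖b‖ = ‖π‖ ^ j := by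
    intro b hb hb1
    have hbpos : 0 < ‖b‖ := norm_pos_iff.mpr hb
    obtain ⟨N, hN⟩ := exists_pow_lt_of_lt_one hbpos hπ1
    -- find the least `j` with `‖π‖^(j+1) < ‖b‖`
    have hex : ∃ j : ℕ, ‖π‖ ^ (j + 1) < ‖b‖ :=
      ⟨N, (pow_le_pow_of_le_one hπ0.le hπ1.le (Nat.le_succ N)).trans_lt hN⟩
    classical
    set j := Nat.find hex with hj
    have hj1 : ‖π‖ ^ (j + 1) < ‖b‖ := Nat.find_spec hex
    have hj2 : ‖b‖ ≤ ‖π‖ ^ j := by
      rcases Nat.eq_zero_or_pos j with h0 | hpos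
      · rw [h0, pow_zero]; exact hb1
      · have := Nat.find_min hex (m := j - 1) (by omega)
        rw [Nat.sub_add_cancel hpos] at this
        exact not_lt.mp this
    refine ⟨j, le_antisymm hj2 ?_⟩
    by_contra hcon
    have hlt : ‖b‖ < ‖π‖ ^ j := not_le.mp hcon
    have hc : ‖b / π ^ j‖ < 1 := by
      rw [norm_div, norm_pow, div_lt_one (pow_pos hπ0 j)]
      exact hlt
    have := hmax _ hc
    rw [norm_div, norm_pow, div_le_iff₀ (pow_pos hπ0 j), ← pow_succ'] at this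
    exact absurd hj1 (not_lt.mpr this)
  rcases le_or_gt ‖a‖ 1 with h | h
  · obtain ⟨j, hj⟩ := key a ha h
    exact ⟨j, by rw [hj, zpow_natCast]⟩
  · have hinv : ‖a⁻¹‖ ≤ 1 := by
      rw [norm_inv]; exact inv_le_one_of_one_le₀ h.le
    obtain ⟨j, hj⟩ := key a⁻¹ (inv_ne_zero ha) hinv
    refine ⟨-j, ?_⟩
    rw [zpow_neg, zpow_natCast, ← hj, norm_inv, inv_inv]

/-- The norm of a nonzero integer of `L` is a natural power of the norm of a uniformizer. -/
theorem exists_norm_eq_pow {π : L} (hπ0 : 0 < ‖π‖) (hπ1 : ‖π‖ < 1)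
    (hmax : ∀ a : L, ‖a‖ < 1 → ‖a‖ ≤ ‖π‖) (a : L) (ha : a ≠ 0) (ha1 : ‖a‖ ≤ 1) :
    ∃ j : ℕ, ‖a‖ = ‖π‖ ^ j := by
  obtain ⟨j, hj⟩ := exists_norm_eq_zpow L hπ0 hπ1 hmax a ha
  have hj0 : 0 ≤ j := by
    by_contra hcon
    have hneg : j < 0 := not_le.mp hcon
    have : 1 < ‖π‖ ^ j := by
      have h1 : ‖π‖ ^ j = (‖π‖ ^ (-j).toNat)⁻¹ := by
        rw [← zpow_natCast, ← zpow_neg]
        congr 1
        have : ((-j).toNat : ℤ) = -j := Int.toNat_of_nonneg (by omega)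
        omega
      rw [h1]
      have h2 : ‖π‖ ^ (-j).toNat < 1 :=
        pow_lt_one₀ hπ0.le hπ1 (by
          intro h0
          have : ((-j).toNat : ℤ) = -j := Int.toNat_of_nonneg (by omega)
          omega)
      exact (one_lt_inv₀ (pow_pos hπ0 _)).mpr h2
    rw [← hj] at this
    exact absurd ha1 (not_le.mpr this)
  refine ⟨j.toNat, ?_⟩
  rw [hj, ← zpow_natCast, Int.toNat_of_nonneg hj0]

/-- A good generator whose `q` has norm `< 1`. -/
theorem exists_goodGen_q [FiniteDimensional ℚ_[p] L] :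
    ∃ (x π : L) (q : ℕ), IsGoodGen L x π q ∧ ‖(q : PadicAlgCl p)‖ < 1 := by
  obtain ⟨π, hπ0, hπ1, hπmax⟩ := exists_uniformizer L
  obtain ⟨ζ, q, hζ, hq0, hq1, hpowq, hgen⟩ := exists_residue_generator L
  have hπ0' : 0 < ‖π‖ := hπ0
  have hπ1' : ‖π‖ < 1 := hπ1
  have hπmax' : ∀ a : L, ‖a‖ < 1 → ‖a‖ ≤ ‖π‖ := hπmax
  have hζ' : ‖ζ‖ ≤ 1 := hζ
  have hq1' : ‖(q : L)‖ < 1 := by
    have : ‖((q : L) : PadicAlgCl p)‖ < 1 := by push_cast; exact hq1
    exact this
  have hpowq' : ∀ a : L, ‖a‖ ≤ 1 → ‖a ^ q - a‖ < 1 := by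
    intro a ha
    have := hpowq a ha
    have h2 : ‖((a ^ q - a : L) : PadicAlgCl p)‖ < 1 := by push_cast; exact this
    exact h2
  have hgen' : ∀ a : L, ‖a‖ = 1 → ∃ m : ℕ, ‖a - ζ ^ m‖ < 1 := by
    intro a ha
    obtain ⟨m, hm⟩ := hgen a ha
    refine ⟨m, ?_⟩
    have h2 : ‖((a - ζ ^ m : L) : PadicAlgCl p)‖ < 1 := by push_cast; exact hm
    exact h2
  have hres : ∀ x : L, ‖x‖ ≤ 1 → ‖x - ζ‖ < 1 →
      ∀ a : L, ‖a‖ ≤ 1 → ‖a‖ ≤ ‖π‖ ∨ ∃ m : ℕ, ‖a - x ^ m‖ ≤ ‖π‖ := by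
    intro x hx hxζ a ha
    rcases lt_or_eq_of_le ha with h | h
    · exact Or.inl (hπmax' a h)
    · obtain ⟨m, hm⟩ := hgen' a h
      refine Or.inr ⟨m, hπmax' _ ?_⟩
      have h1 : a - x ^ m = (a - ζ ^ m) + (ζ ^ m - x ^ m) := by ring
      rw [h1]
      refine (IsUltrametricDist.norm_add_le_max _ _).trans_lt (max_lt hm ?_)
      refine (norm_pow_sub_pow_le hζ' hx m).trans_lt ?_
      rwa [norm_sub_rev]
  by_cases hcase : ‖ζ ^ q - ζ‖ = ‖π‖
  · exact ⟨ζ, π, q, ⟨hζ', hπ0', hπ1', hπmax', hcase, hres ζ hζ' (by simp)⟩, hq1⟩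
  · have hlt : ‖ζ ^ q - ζ‖ < ‖π‖ := lt_of_le_of_ne (hπmax' _ (hpowq' ζ hζ')) hcase
    have hx : ‖ζ + π‖ ≤ 1 :=
      (IsUltrametricDist.norm_add_le_max _ _).trans (max_le hζ' hπ1'.le)
    refine ⟨ζ + π, π, q, ⟨hx, hπ0', hπ1', hπmax', ?_,
      hres (ζ + π) hx (by simpa using hπ1')⟩, hq1⟩
    let Z : OL L := ⟨ζ, hζ⟩
    let P : OL L := ⟨π, hπ1.le⟩
    let f : (OL L)[X] := X ^ q - X
    obtain ⟨k, hk⟩ := f.binomExpansion Z P
    have hk' : (ζ + π) ^ q - (ζ + π)
        = (ζ ^ q - ζ) + ((q : L) * ζ ^ (q - 1) - 1) * π + (k : L) * π ^ 2 := by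
      have := congrArg (fun z : OL L => (z : L)) hk
      simp only [f, eval_sub, eval_pow, eval_X, derivative_sub, derivative_X_pow, derivative_X,
        eval_mul, eval_one, eval_natCast, map_natCast] at this
      simpa [Z, P] using this
    rw [hk']
    have hk1 : ‖(k : L)‖ ≤ 1 := k.2
    refine norm_add3_eq hlt ?_ ?_
    · rw [norm_mul]
      have h1 : ‖(q : L) * ζ ^ (q - 1) - 1‖ = 1 := by
        have h2 : ‖(q : L) * ζ ^ (q - 1)‖ < 1 := by
          rw [norm_mul, norm_pow]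
          calc ‖(q : L)‖ * ‖ζ‖ ^ (q - 1) ≤ ‖(q : L)‖ * 1 :=
                mul_le_mul_of_nonneg_left (pow_le_one₀ (norm_nonneg _) hζ') (norm_nonneg _)
            _ = ‖(q : L)‖ := mul_one _
            _ < 1 := hq1'
        rw [sub_eq_add_neg,
          IsUltrametricDist.norm_add_eq_max_of_norm_ne_norm (by simpa using h2.ne)]
        simpa using h2.le
      rw [h1, one_mul]
    · rw [norm_mul, norm_pow]
      calc ‖(k : L)‖ * ‖π‖ ^ 2 ≤ 1 * ‖π‖ ^ 2 :=
            mul_le_mul_of_nonneg_right hk1 (by positivity)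
        _ = ‖π‖ * ‖π‖ := by ring
        _ < 1 * ‖π‖ := mul_lt_mul_of_pos_right hπ1' hπ0'
        _ = ‖π‖ := one_mul _

end Fermat.Agent.S56.FL.H15

end

end
-- ==== END Fermat.Agent.S56.FL.LF.H15_Value

-- ==== BEGIN Fermat.Agent.S56.Leaves
section

set_option autoImplicit false

/-!
# Cluster T / S56: top-level packages (exact statements)

`S56 ⟸ Stmt_surj ∧ Stmt_stable_SO ∧ Stmt_stable_Fl ∧ Stmt_TW_SO ∧ Stmt_TW_Fl` (see `Wiring.lean`).

* `Stmt_surj`      (pkg T-A, commutative algebra + universal property): a bound `|k|^r` on the number of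
                   first-order deformations of type `𝒟` gives a surjection `𝒪⟦X₁..X_r⟧ ↠ R` for every
                   universal deformation ring `R` of type `𝒟`.
* `Stmt_stable_*`  (pkg T-S): the two conditions of S56 are stable under base change to `k[ε]`.
* `Stmt_TW_*`      (pkg T-N, number theory): existence of Taylor-Wiles families with the tangent bound.
-/

noncomputable section

namespace Fermat.Agent.S56

open Polynomial IsLocalRing Fermat.Agent.S53

/-- The type of deformation conditions. -/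
abbrev Cond (𝒪 : Type) [CommRing 𝒪] : Type 1 :=
  ∀ ⦃A : Type⦄ [CommRing A] [IsLocalRing A] [Algebra 𝒪 A], GaloisRepAdic A → Prop

/-- Stability of a condition under base change from a complete noetherian local `𝒪`-algebra to the
dual numbers `k[ε]`. -/
def StableDual (𝒪 : Type) [CommRing 𝒪] [IsLocalRing 𝒪] (𝒟 : Cond 𝒪) : Prop :=
  letI := dualNumberAlgebra 𝒪
  ∀ (R : Type) [CommRing R] [IsLocalRing R] [IsNoetherianRing R]
    [IsAdicComplete (maximalIdeal R) R] [Algebra 𝒪 R] [IsLocalHom (algebraMap 𝒪 R)],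
    Function.Surjective (IsLocalRing.residue R ∘ algebraMap 𝒪 R) →
    ∀ ρ : GaloisRepAdic R, 𝒟 ρ →
      ∀ (φ : R →ₐ[𝒪] DualNumber (ResidueField 𝒪))
        (hφ : IsLocalHom (φ : R →+* DualNumber (ResidueField 𝒪))),
        𝒟 (ρ.baseChangeAlong (φ : R →+* DualNumber (ResidueField 𝒪)) hφ)

/-- The tangent bound: the set of first-order deformations of type `𝒟` modulo equivalence is finite
of cardinality at most `|k|^r`.  (`TSetoid` is the setoid of `GaloisRep.TangentFinite`.) -/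
def TangentLE (𝒪 : Type) [CommRing 𝒪] [IsLocalRing 𝒪]
    (ρbar : ResidualGaloisRep (ResidueField 𝒪)) (𝒟 : Cond 𝒪) (r : ℕ) : Prop :=
  Finite (Quotient (TSetoid 𝒪 ρbar 𝒟)) ∧
    Nat.card (Quotient (TSetoid 𝒪 ρbar 𝒟)) ≤ Nat.card (ResidueField 𝒪) ^ r

/-- **Package T-A.** Tangent bound ⟹ `𝒪⟦X₁,…,X_r⟧ ↠ R`. -/
def Stmt_surj : Prop :=
  ∀ (𝒪 : Type) [CommRing 𝒪] [IsDomain 𝒪] [IsDiscreteValuationRing 𝒪]
    [IsAdicComplete (maximalIdeal 𝒪) 𝒪] [Finite (ResidueField 𝒪)]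
    (ρbar : ResidualGaloisRep (ResidueField 𝒪)) (𝒟 : Cond 𝒪) (r : ℕ),
    StableDual 𝒪 𝒟 → TangentLE 𝒪 ρbar 𝒟 r →
    ∀ DQ : GaloisRep.DeformationRingData 𝒪 ρbar 𝒟,
      ∃ γ : MvPowerSeries (Fin r) 𝒪 →ₐ[𝒪] DQ.R, Function.Surjective γ

/-- **Package T-S (strict ordinary).** -/
def Stmt_stable_SO : Prop :=
  ∀ (𝒪 : Type) [CommRing 𝒪] [IsDomain 𝒪] [IsDiscreteValuationRing 𝒪]
    [IsAdicComplete (maximalIdeal 𝒪) 𝒪] [Finite (ResidueField 𝒪)]
    (p : ℕ) [Fact p.Prime] (Smin T : Finset ℕ), StableDual 𝒪 (condSO 𝒪 p Smin T)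

/-- **Package T-S (flat).** -/
def Stmt_stable_Fl : Prop :=
  ∀ (𝒪 : Type) [CommRing 𝒪] [IsDomain 𝒪] [IsDiscreteValuationRing 𝒪]
    [IsAdicComplete (maximalIdeal 𝒪) 𝒪] [Finite (ResidueField 𝒪)]
    (p : ℕ) [Fact p.Prime] (Smin T : Finset ℕ), StableDual 𝒪 (condFl 𝒪 p Smin T)

/-- The standing hypotheses of S56 on `(p, ρbar, S, Smin)`. -/
structure Hyp (𝒪 : Type) [CommRing 𝒪] [IsLocalRing 𝒪] (p : ℕ)
    (ρbar : ResidualGaloisRep (ResidueField 𝒪)) (S Smin : Finset ℕ) : Prop where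
  hp2 : p ≠ 2
  hp𝒪 : (p : 𝒪) ∈ maximalIdeal 𝒪
  habs : ρbar.IsAbsolutelyIrreducible
  hdet : (GaloisRepAdic.ofResidualGaloisRep ρbar).DetIsCyclotomic p
  hsplit : ∀ σ : AlgebraicClosure ℚ ≃ₐ[ℚ] AlgebraicClosure ℚ,
      ∃ α β : ResidueField 𝒪, LinearMap.charpoly (ρbar.ρ σ) = (X - C α) * (X - C β)
  hTW : ∀ (K : Type) [Field K] [Algebra (ResidueField 𝒪) K]
      (G : Subgroup (AlgebraicClosure ℚ ≃ₐ[ℚ] AlgebraicClosure ℚ)), G.index = 2 →
      ∀ V : Submodule K (ρbar.baseChange K).V,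
        (∀ σ ∈ G, ∀ x ∈ V, (ρbar.baseChange K).ρ σ x ∈ V) → V = ⊥ ∨ V = ⊤
  hpSmin : p ∈ Smin
  hSmin : Smin ⊆ S
  hS : ∀ q ∈ S, q.Prime
  hmin : ∀ q : ℕ, q.Prime → q ≠ p → (q ∈ Smin ↔ ¬ ρbar.IsUnramifiedAt q)

/-- **Package T-N (strict ordinary).** Taylor-Wiles families with the tangent bound. -/
def Stmt_TW_SO : Prop :=
  ∀ (𝒪 : Type) [CommRing 𝒪] [IsDomain 𝒪] [IsDiscreteValuationRing 𝒪]
    [IsAdicComplete (maximalIdeal 𝒪) 𝒪] [Finite (ResidueField 𝒪)]
    (p : ℕ) [Fact p.Prime] (ρbar : ResidualGaloisRep (ResidueField 𝒪)) (S Smin : Finset ℕ),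
    Hyp 𝒪 p ρbar S Smin →
    ∃ r : ℕ, ∀ n : ℕ, ∃ qv : Fin r → ℕ, IsTWFamily ρbar p n S qv ∧
      TangentLE 𝒪 ρbar (condSO 𝒪 p Smin (Finset.univ.image qv)) r

/-- **Package T-N (flat).** Taylor-Wiles families with the tangent bound. -/
def Stmt_TW_Fl : Prop :=
  ∀ (𝒪 : Type) [CommRing 𝒪] [IsDomain 𝒪] [IsDiscreteValuationRing 𝒪]
    [IsAdicComplete (maximalIdeal 𝒪) 𝒪] [Finite (ResidueField 𝒪)]
    (p : ℕ) [Fact p.Prime] (ρbar : ResidualGaloisRep (ResidueField 𝒪)) (S Smin : Finset ℕ),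
    Hyp 𝒪 p ρbar S Smin →
    ∃ r : ℕ, ∀ n : ℕ, ∃ qv : Fin r → ℕ, IsTWFamily ρbar p n S qv ∧
      TangentLE 𝒪 ρbar (condFl 𝒪 p Smin (Finset.univ.image qv)) r

end Fermat.Agent.S56

end

end
-- ==== END Fermat.Agent.S56.Leaves

-- ==== BEGIN Fermat.Agent.S56.TWS.H64_N34
section

set_option autoImplicit false

/-!
# TW-SELECT, package TWS-A, slice N3 + N4 (helper64)

`stmt_H1_N34 : H74.Stmt_H1_N34`: a twisted cocycle with `τ = 0` on `ker χ` which vanishes at
`u, w ∈ ker χ` with `R u = [[1,1],[0,1]]` and `(R w) 1 0 ≠ 0` is zero.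
-/

namespace Fermat.Agent.S56.TWS.H64

open Matrix Fermat.Agent.S56.TWS.H74

variable {k : Type} [Field k] {G : Type} [Group G]

/-- A matrix whose products with `1, U, W, U W` have trace zero is zero (`W 1 0 ≠ 0`). -/
theorem eq_zero_of_trace_span (A W : Matrix (Fin 2) (Fin 2) k) (hW : W 1 0 ≠ 0)
    (h1 : A.trace = 0) (hU : (A * Umat).trace = 0) (hWt : (A * W).trace = 0)
    (hUW : (A * (Umat * W)).trace = 0) : A = 0 := by
  rw [trace2] at h1 hU hWt hUW
  simp only [mul_apply2, Umat_00, Umat_01, Umat_10, Umat_11] at hU hWt hUW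
  have h10 : A 1 0 = 0 := by linear_combination hU - h1
  have h00 : A 0 0 = 0 := by
    have e : A 0 0 * W 1 0 = 0 := by
      linear_combination hUW - hWt - W 1 1 * h10
    rcases mul_eq_zero.mp e with h | h
    · exact h
    · exact absurd h hW
  have h11 : A 1 1 = 0 := by linear_combination h1 - h00
  have h01 : A 0 1 = 0 := by
    have e : A 0 1 * W 1 0 = 0 := by
      linear_combination hWt - W 0 0 * h00 - W 0 1 * h10 - W 1 1 * h11
    rcases mul_eq_zero.mp e with h | h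
    · exact h
    · exact absurd h hW
  exact ext2 (by simpa using h00) (by simpa using h01) (by simpa using h10) (by simpa using h11)

/-- A trace-zero matrix commuting with `U` and with `W` (`W 1 0 ≠ 0`) is zero (`2 ≠ 0`). -/
theorem eq_zero_of_commute (h2 : (2 : k) ≠ 0) (X W : Matrix (Fin 2) (Fin 2) k) (hW : W 1 0 ≠ 0)
    (htr : X.trace = 0) (hU : Umat * X = X * Umat) (hWc : W * X = X * W) : X = 0 := by
  rw [trace2] at htr
  have e00 := congrFun (congrFun hU 0) 0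
  have e01 := congrFun (congrFun hU 0) 1
  have w00 := congrFun (congrFun hWc 0) 0
  have w10 := congrFun (congrFun hWc 1) 0
  simp only [mul_apply2, Umat_00, Umat_01, Umat_10, Umat_11] at e00 e01 w00 w10
  have h10 : X 1 0 = 0 := by linear_combination e00
  have hd : X 1 1 = X 0 0 := by linear_combination e01
  have h00 : X 0 0 = 0 := by
    have e : (2 : k) * X 0 0 = 0 := by linear_combination htr - hd
    rcases mul_eq_zero.mp e with h | h
    · exact absurd h h2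
    · exact h
  have h11 : X 1 1 = 0 := by rw [hd, h00]
  have h01 : X 0 1 = 0 := by
    have e : X 0 1 * W 1 0 = 0 := by
      linear_combination W 0 1 * h10 - w00
    rcases mul_eq_zero.mp e with h | h
    · exact h
    · exact absurd h hW
  exact ext2 (by simpa using h00) (by simpa using h01) (by simpa using h10) (by simpa using h11)

variable {R : G →* Matrix (Fin 2) (Fin 2) k} {χ : G →* kˣ}
  {c : G → Matrix (Fin 2) (Fin 2) k}

/-- If `c h = 0` then `c (g h) = c g`. -/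
theorem c_mul_of_zero (h : TwCoc R χ c) (g x : G) (hx : c x = 0) : c (g * x) = c g := by
  rw [h.mul, hx, mul_zero, zero_mul, smul_zero, add_zero]

/-- If `τ (g h) = 0` and `c h = 0` then `tr (c g * R g * R h) = 0`. -/
theorem trace_of_tau (h : TwCoc R χ c) (g x : G) (hx : c x = 0) (ht : tau R c (g * x) = 0) :
    (c g * R g * R x).trace = 0 := by
  unfold tau at ht
  rwa [c_mul_of_zero h g x hx, map_mul, ← mul_assoc] at ht

/-- **N3**: `c = 0` on `ker χ`. -/
theorem c_eq_zero_of_ker (h : TwCoc R χ c) (hτ : ∀ g, χ g = 1 → tau R c g = 0)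
    (u w : G) (hu : χ u = 1) (hw : χ w = 1) (hRu : R u = Umat) (hRw : (R w) 1 0 ≠ 0)
    (hcu : c u = 0) (hcw : c w = 0) (g : G) (hg : χ g = 1) : c g = 0 := by
  have hcuw : c (u * w) = 0 := by rw [c_mul_of_zero h u w hcw, hcu]
  have hχ : ∀ x, χ x = 1 → χ (g * x) = 1 := fun x hx => by rw [map_mul, hg, hx, one_mul]
  have t1 : (c g * R g).trace = 0 := hτ g hg
  have tU : (c g * R g * Umat).trace = 0 := by
    rw [← hRu]; exact trace_of_tau h g u hcu (hτ _ (hχ u hu))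
  have tW : (c g * R g * R w).trace = 0 := trace_of_tau h g w hcw (hτ _ (hχ w hw))
  have tUW : (c g * R g * (Umat * R w)).trace = 0 := by
    rw [← hRu, ← map_mul]
    exact trace_of_tau h g (u * w) hcuw (hτ _ (hχ _ (by rw [map_mul, hu, hw, one_mul])))
  have hA : c g * R g = 0 := eq_zero_of_trace_span _ _ hRw t1 tU tW tUW
  calc c g = c g * (R g * R g⁻¹) := by rw [R_mul_inv, mul_one]
    _ = (c g * R g) * R g⁻¹ := by rw [mul_assoc]
    _ = 0 := by rw [hA, zero_mul]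

/-- **N4**: `c g` commutes with `R x` for `x ∈ ker χ` (when `c = 0` on `ker χ`). -/
theorem commute_of_ker (h : TwCoc R χ c) (h0 : ∀ x, χ x = 1 → c x = 0) (g x : G)
    (hx : χ x = 1) : R x * c g = c g * R x := by
  -- `g (g⁻¹ x g) = x g`
  have hy : χ (g⁻¹ * x * g) = 1 := by
    rw [map_mul, map_mul, hx, mul_one, map_inv, inv_mul_cancel]
  have e1 : c (g * (g⁻¹ * x * g)) = c g := c_mul_of_zero h g _ (h0 _ hy)
  have e2 : g * (g⁻¹ * x * g) = x * g := by group
  rw [e2, h.mul_of_one hx, h0 x hx, zero_add] at e1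
  calc R x * c g = (R x * c g * R x⁻¹) * R x := by
        rw [mul_assoc (R x * c g), R_inv_mul, mul_one]
    _ = c g * R x := by rw [e1]

/-- **TWS-A, slice N3 + N4.** -/
theorem stmt_H1_N34 : Stmt_H1_N34 := by
  intro k _ h2 G _ R χ c h hτ u w hu hw hRu hRw hcu hcw g
  have h0 : ∀ x, χ x = 1 → c x = 0 := fun x hx =>
    c_eq_zero_of_ker h hτ u w hu hw hRu hRw hcu hcw x hx
  refine eq_zero_of_commute h2 (c g) (R w) hRw (h.tr g) ?_ (commute_of_ker h h0 g w hw)
  rw [← hRu]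
  exact commute_of_ker h h0 g u hu

end Fermat.Agent.S56.TWS.H64

end
-- ==== END Fermat.Agent.S56.TWS.H64_N34

-- ==== BEGIN Fermat.Agent.S56.TWS.H74_Kill
section

set_option autoImplicit false
set_option linter.unusedSimpArgs false
set_option linter.unusedVariables false

/-!
# TW-SELECT, package TWS-A (helper74): from `τ = 0` to a coboundary

In normalised coordinates (`R u = Umat`, `R w = 1 + N'` with `N' 1 0 ≠ 0`): subtract two
coboundaries to get `c u = c w = 0`; then `Stmt_H1_N34` applies.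
-/

namespace Fermat.Agent.S56.TWS.H74

open Matrix

variable {k : Type} [Field k] {G : Type} [Group G]
variable {R : G →* Matrix (Fin 2) (Fin 2) k} {χ : G →* kˣ}
  {c : G → Matrix (Fin 2) (Fin 2) k}

theorem R_inv_eq (R : G →* Matrix (Fin 2) (Fin 2) k) (g : G) {B : Matrix (Fin 2) (Fin 2) k}
    (hB : B * R g = 1) : R g⁻¹ = B := by
  calc R g⁻¹ = (B * R g) * R g⁻¹ := by rw [hB, one_mul]
    _ = B := by rw [mul_assoc, R_mul_inv, mul_one]

/-- The coboundary is a cocycle. -/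
theorem cobd_mul (R : G →* Matrix (Fin 2) (Fin 2) k) (χ : G →* kˣ)
    (m : Matrix (Fin 2) (Fin 2) k) (g x : G) :
    cobd R χ m (g * x) = cobd R χ m g + (χ g : k) • (R g * cobd R χ m x * R g⁻¹) := by
  unfold cobd
  have e : R (g * x) * m * R (g * x)⁻¹ = R g * (R x * m * R x⁻¹) * R g⁻¹ := by
    rw [map_mul, _root_.mul_inv_rev, map_mul]
    simp only [mul_assoc]
  have e2 : R g * m * R g⁻¹ = R g * m * R g⁻¹ := rfl
  rw [e, map_mul, Units.val_mul, mul_sub, sub_mul, Matrix.mul_smul, Matrix.smul_mul, smul_sub,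
    smul_smul]
  abel

theorem TwCoc.sub_cobd (h : TwCoc R χ c) {m : Matrix (Fin 2) (Fin 2) k} (hm : m.trace = 0) :
    TwCoc R χ (fun g => c g - cobd R χ m g) where
  det := h.det
  tr g := by
    show (c g - cobd R χ m g).trace = 0
    unfold cobd
    rw [Matrix.trace_sub, Matrix.trace_sub, Matrix.trace_smul, h.tr, hm, mul_assoc,
      Matrix.trace_mul_comm, mul_assoc, R_inv_mul, mul_one, hm]
    simp
  mul g x := by
    show c (g * x) - cobd R χ m (g * x) =
      c g - cobd R χ m g + (χ g : k) • (R g * (c x - cobd R χ m x) * R g⁻¹)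
    rw [h.mul, cobd_mul, mul_sub, sub_mul, smul_sub]
    abel
  ker s hs := by
    show c s - cobd R χ m s = 0
    have hχ : χ s = 1 := chi_eq_one_of_det h (by rw [hs, Matrix.det_one])
    have hinv : R s⁻¹ = 1 := R_inv_eq R s (by rw [hs, mul_one])
    unfold cobd
    rw [h.ker s hs, hs, hinv, hχ, Units.val_one, one_smul, one_mul, mul_one, sub_self, sub_zero]

theorem tau_sub_cobd (m : Matrix (Fin 2) (Fin 2) k) {g : G} (hg : χ g = 1) :
    tau R (fun g => c g - cobd R χ m g) g = tau R c g := by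
  show ((c g - cobd R χ m g) * R g).trace = (c g * R g).trace
  unfold cobd
  rw [hg, Units.val_one, one_smul, sub_mul, sub_mul, Matrix.trace_sub, Matrix.trace_sub,
    mul_assoc (R g * m), R_inv_mul, mul_one, Matrix.trace_mul_comm (R g) m, sub_self, sub_zero]

theorem cobd_add (m m' : Matrix (Fin 2) (Fin 2) k) (g : G) :
    cobd R χ (m + m') g = cobd R χ m g + cobd R χ m' g := by
  unfold cobd
  rw [mul_add, add_mul, smul_add]
  abel

section Normalised

theorem R_u_inv {u : G} (hu : R u = Umat) : R u⁻¹ = Vmat := by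
  apply R_inv_eq
  rw [hu]
  apply ext2 <;> simp [mul_apply2]

theorem R_w_inv {w : G} {N' : Matrix (Fin 2) (Fin 2) k} (hw : R w = 1 + N')
    (hNN : N' * N' = 0) : R w⁻¹ = 1 - N' := by
  apply R_inv_eq
  rw [hw, sub_mul, mul_add, mul_add, one_mul, mul_one, hNN]
  simp

/-- Step N1: kill `c u`. -/
theorem exists_m1 (h : TwCoc R χ c) {u : G} (hu : R u = Umat) (h2 : (2 : k) ≠ 0)
    (hτu : tau R c u = 0) :
    ∃ m : Matrix (Fin 2) (Fin 2) k, m.trace = 0 ∧ c u = cobd R χ m u := by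
  have hχu := chi_of_Umat h hu
  have htr : c u 0 0 + c u 1 1 = 0 := by rw [← trace2]; exact h.tr u
  have hz : c u 1 0 = 0 := by
    unfold tau at hτu
    rw [hu, trace2] at hτu
    simp only [mul_apply2, Umat_00, Umat_01, Umat_10, Umat_11] at hτu
    linear_combination hτu - htr
  have h11 : c u 1 1 = - c u 0 0 := by linear_combination htr
  refine ⟨mk2 (-(c u 0 0 + c u 0 1) / 2) 0 (c u 0 0) ((c u 0 0 + c u 0 1) / 2), ?_, ?_⟩
  · rw [trace2]
    simp only [mk2_00, mk2_11]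
    ring
  · unfold cobd
    rw [hχu, Units.val_one, one_smul, hu, R_u_inv hu]
    apply ext2
    · simp only [Matrix.sub_apply, mul_apply2, mk2_00, mk2_01, mk2_10, mk2_11, Umat_00, Umat_01,
        Umat_10, Umat_11, Vmat_00, Vmat_01, Vmat_10, Vmat_11]
      ring
    · simp only [Matrix.sub_apply, mul_apply2, mk2_00, mk2_01, mk2_10, mk2_11, Umat_00, Umat_01,
        Umat_10, Umat_11, Vmat_00, Vmat_01, Vmat_10, Vmat_11]
      field_simp
      ring
    · simp only [Matrix.sub_apply, mul_apply2, mk2_00, mk2_01, mk2_10, mk2_11, Umat_00, Umat_01,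
        Umat_10, Umat_11, Vmat_00, Vmat_01, Vmat_10, Vmat_11]
      rw [hz]
      ring
    · simp only [Matrix.sub_apply, mul_apply2, mk2_00, mk2_01, mk2_10, mk2_11, Umat_00, Umat_01,
        Umat_10, Umat_11, Vmat_00, Vmat_01, Vmat_10, Vmat_11]
      rw [h11]
      ring

/-- Step N2: kill `c w`, keeping `c u = 0`. -/
theorem exists_b (h : TwCoc R χ c) {u w : G} (hu : R u = Umat) (hcu : c u = 0)
    {N' : Matrix (Fin 2) (Fin 2) k} (hw : R w = 1 + N') (hχw : χ w = 1)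
    (hNt : N'.trace = 0) (hNN : N' * N' = 0) (hn3 : N' 1 0 ≠ 0)
    (hτw : tau R c w = 0) (hτwu : tau R c (w * u) = 0) :
    ∃ b : k, c w = cobd R χ (b • Emat) w := by
  have htr : c w 0 0 + c w 1 1 = 0 := by rw [← trace2]; exact h.tr w
  have hN11 : N' 1 1 = - N' 0 0 := by
    rw [trace2] at hNt
    linear_combination hNt
  have e00 := congrFun (congrFun hNN 0) 0
  simp only [mul_apply2, Matrix.zero_apply] at e00
  have hN01 : N' 0 1 = - (N' 0 0) ^ 2 / N' 1 0 := by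
    field_simp
    linear_combination e00
  have hC11 : c w 1 1 = - c w 0 0 := by linear_combination htr
  -- τ(w) = 0
  have H2 : 2 * c w 0 0 * N' 0 0 + c w 0 1 * N' 1 0 + c w 1 0 * N' 0 1 = 0 := by
    unfold tau at hτw
    rw [hw, trace2] at hτw
    simp only [mul_apply2, Matrix.add_apply, Matrix.one_apply_eq, Matrix.one_apply_ne,
      ne_eq, one_ne_zero, zero_ne_one, not_false_eq_true, Fin.isValue, hN11, hC11] at hτw
    linear_combination hτw
  -- τ(w u) = 0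
  have hcwu : c (w * u) = c w := by
    rw [h.mul, hcu, mul_zero, zero_mul, smul_zero, add_zero]
  have H3 : c w 1 0 * (1 + N' 0 0) - c w 0 0 * N' 1 0 = 0 := by
    unfold tau at hτwu
    rw [hcwu, map_mul, hw, hu, trace2] at hτwu
    simp only [mul_apply2, Matrix.add_apply, Matrix.one_apply_eq, Matrix.one_apply_ne,
      ne_eq, one_ne_zero, zero_ne_one, not_false_eq_true, Fin.isValue, hN11, hC11,
      Umat_00, Umat_01, Umat_10, Umat_11] at hτwu
    linear_combination hτwu - H2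
  have hC00 : c w 0 0 = c w 1 0 * (1 + N' 0 0) / N' 1 0 := by
    field_simp
    linear_combination -H3
  have hC01 : c w 0 1 = - (2 * c w 0 0 * N' 0 0 + c w 1 0 * N' 0 1) / N' 1 0 := by
    field_simp
    linear_combination H2
  refine ⟨- c w 1 0 / (N' 1 0) ^ 2, ?_⟩
  unfold cobd
  rw [hχw, Units.val_one, one_smul, hw, R_w_inv hw hNN]
  apply ext2
  · simp only [mul_apply2, Matrix.add_apply, Matrix.sub_apply, Matrix.smul_apply,
      Matrix.one_apply_eq, Matrix.one_apply_ne, ne_eq, one_ne_zero, zero_ne_one,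
      not_false_eq_true, Fin.isValue, Emat_00, Emat_01, Emat_10, Emat_11, smul_eq_mul]
    try simp only [hC01, hC11, hC00, hN01, hN11]
    field_simp
    ring
  · simp only [mul_apply2, Matrix.add_apply, Matrix.sub_apply, Matrix.smul_apply,
      Matrix.one_apply_eq, Matrix.one_apply_ne, ne_eq, one_ne_zero, zero_ne_one,
      not_false_eq_true, Fin.isValue, Emat_00, Emat_01, Emat_10, Emat_11, smul_eq_mul]
    try simp only [hC01, hC11, hC00, hN01, hN11]
    field_simp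
    ring
  · simp only [mul_apply2, Matrix.add_apply, Matrix.sub_apply, Matrix.smul_apply,
      Matrix.one_apply_eq, Matrix.one_apply_ne, ne_eq, one_ne_zero, zero_ne_one,
      not_false_eq_true, Fin.isValue, Emat_00, Emat_01, Emat_10, Emat_11, smul_eq_mul]
    try simp only [hC01, hC11, hC00, hN01, hN11]
    field_simp
    ring
  · simp only [mul_apply2, Matrix.add_apply, Matrix.sub_apply, Matrix.smul_apply,
      Matrix.one_apply_eq, Matrix.one_apply_ne, ne_eq, one_ne_zero, zero_ne_one,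
      not_false_eq_true, Fin.isValue, Emat_00, Emat_01, Emat_10, Emat_11, smul_eq_mul]
    try simp only [hC01, hC11, hC00, hN01, hN11]
    field_simp
    ring

theorem cobd_smul_Emat_u {u : G} (hu : R u = Umat) (hχu : χ u = 1) (b : k) :
    cobd R χ (b • Emat) u = 0 := by
  unfold cobd
  rw [hχu, Units.val_one, one_smul, hu, R_u_inv hu]
  apply ext2 <;>
    simp [mul_apply2]

/-- The kill argument in normalised coordinates. -/
theorem kill_normalised (h34 : Stmt_H1_N34) (h2 : (2 : k) ≠ 0) (h : TwCoc R χ c)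
    (hτ : ∀ g, χ g = 1 → tau R c g = 0) {u x : G} (hu : R u = Umat) (hx : R x 1 0 ≠ 0) :
    ∃ m : Matrix (Fin 2) (Fin 2) k, m.trace = 0 ∧ ∀ g, c g = cobd R χ m g := by
  have hχu := chi_of_Umat h hu
  obtain ⟨m₁, hm₁t, hm₁⟩ := exists_m1 h hu h2 (hτ u hχu)
  have h₁ : TwCoc R χ (fun g => c g - cobd R χ m₁ g) := h.sub_cobd hm₁t
  have hτ₁ : ∀ g, χ g = 1 → tau R (fun g => c g - cobd R χ m₁ g) g = 0 := fun g hg => by
    rw [tau_sub_cobd m₁ hg]
    exact hτ g hg
  have hc₁u : (fun g => c g - cobd R χ m₁ g) u = 0 := by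
    show c u - cobd R χ m₁ u = 0
    rw [hm₁, sub_self]
  obtain ⟨hRw, hNN', hNt', hn⟩ := conj_data h hu x
  have hχw : χ (x * u * x⁻¹) = 1 := by
    rw [map_mul, map_mul, hχu, mul_one, map_inv, mul_inv_cancel]
  have hn3 : (R x * Emat * R x⁻¹ : Matrix (Fin 2) (Fin 2) k) 1 0 ≠ 0 := by
    intro h0
    have e : (Emat * (R x * Emat * R x⁻¹)).trace =
        (R x * Emat * R x⁻¹ : Matrix (Fin 2) (Fin 2) k) 1 0 := by
      rw [trace2, mul_apply2 Emat, mul_apply2 Emat]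
      simp
    rw [e, h0, zero_mul] at hn
    have : R x 1 0 ^ 2 = 0 := by
      have h3 := neg_eq_zero.mp hn.symm
      exact h3
    exact hx (pow_eq_zero_iff (two_ne_zero) |>.mp this)
  have hχwu : χ (x * u * x⁻¹ * u) = 1 := by rw [map_mul, hχw, hχu, one_mul]
  obtain ⟨b, hb⟩ := exists_b h₁ hu hc₁u hRw hχw hNt' hNN' hn3 (hτ₁ _ hχw) (hτ₁ _ hχwu)
  have hbt : (b • (Emat : Matrix (Fin 2) (Fin 2) k)).trace = 0 := by
    rw [Matrix.trace_smul, Emat_trace, smul_zero]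
  have h₂ : TwCoc R χ (fun g => (fun g => c g - cobd R χ m₁ g) g - cobd R χ (b • Emat) g) :=
    h₁.sub_cobd hbt
  have hτ₂ : ∀ g, χ g = 1 →
      tau R (fun g => (fun g => c g - cobd R χ m₁ g) g - cobd R χ (b • Emat) g) g = 0 :=
    fun g hg => by
      rw [tau_sub_cobd (b • Emat) hg]
      exact hτ₁ g hg
  have hc₂u : (fun g => (fun g => c g - cobd R χ m₁ g) g - cobd R χ (b • Emat) g) u = 0 := by
    show (fun g => c g - cobd R χ m₁ g) u - cobd R χ (b • Emat) u = 0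
    rw [hc₁u, cobd_smul_Emat_u hu hχu, sub_zero]
  have hc₂w : (fun g => (fun g => c g - cobd R χ m₁ g) g - cobd R χ (b • Emat) g)
      (x * u * x⁻¹) = 0 := by
    exact sub_eq_zero.mpr hb
  have hRw10 : R (x * u * x⁻¹) 1 0 ≠ 0 := by
    rw [hRw]
    simpa using hn3
  have key := h34 k h2 G R χ _ h₂ hτ₂ u (x * u * x⁻¹) hχu hχw hu hRw10 hc₂u hc₂w
  refine ⟨m₁ + b • Emat, ?_, fun g => ?_⟩
  · rw [Matrix.trace_add, hm₁t, hbt, add_zero]
  · have hg : c g - cobd R χ m₁ g - cobd R χ (b • Emat) g = 0 := key g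
    rw [cobd_add]
    have e := sub_eq_zero.mp hg
    exact (sub_eq_iff_eq_add'.mp e).trans (add_comm _ _) |>.trans (add_comm _ _)

end Normalised

/-- The case with a unipotent element, from the last step. -/
theorem stmt_H1_kill_of (h34 : Stmt_H1_N34) : Stmt_H1_kill := by
  intro k _ p _ _ hp2 G _ R χ c h hirr hτ u hχu htr hne
  have h2 : (2 : k) ≠ 0 := by
    have := natCast_ne_zero_of_prime (k := k) p Nat.prime_two hp2
    simpa using this
  have hNN : (R u - 1) * (R u - 1) = 0 := by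
    rw [sub_mul, mul_sub, mul_sub, mul_one, one_mul, mul_one, cayley, htr, h.det_one hχu]
    simp only [one_smul]
    module
  have hN0 : R u - 1 ≠ 0 := fun h0 => hne (sub_eq_zero.mp h0)
  obtain ⟨P, P', hP, hP', hE⟩ := exists_normalise hN0 hNN
  obtain ⟨x, hx⟩ := hirr (R u - 1) hN0 hNN
  have h' := h.conj P P' hP hP'
  have hτ' : ∀ g, χ g = 1 → tau (conjHom P P' hP hP' R) (fun g => P' * c g * P) g = 0 :=
    fun g hg => by
      rw [tau_conjHom]
      exact hτ g hg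
  have hu' : conjHom P P' hP hP' R u = Umat := by
    have e : R u = 1 + (R u - 1) := by abel
    rw [conjHom_apply, e, mul_add, add_mul, mul_one, hP, hE, Umat_eq]
  have hx' : conjHom P P' hP hP' R x 1 0 ≠ 0 := by
    intro h0
    apply hx
    have e : Emat * conjHom P P' hP hP' R x * Emat = 0 := by
      rw [Emat_mul_mul, h0, zero_smul]
    rw [conjHom_apply, ← hE, conj_mul P P' hP', conj_mul P P' hP'] at e
    exact conj_eq_zero P P' hP' e
  obtain ⟨m, hmt, hm⟩ := kill_normalised h34 h2 h' hτ' hu' hx'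
  refine ⟨P * m * P', ?_, fun g => ?_⟩
  · rw [mul_assoc, Matrix.trace_mul_comm, mul_assoc, hP, mul_one, hmt]
  · rw [← cobd_conjHom P P' hP hP' m g, ← hm g]
    calc c g = (P * P') * c g * (P * P') := by rw [hP', one_mul, mul_one]
      _ = P * (P' * c g * P) * P' := by simp only [mul_assoc]

end Fermat.Agent.S56.TWS.H74

end
-- ==== END Fermat.Agent.S56.TWS.H74_Kill
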