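-- GENERATED (merged mirror, NOTES/tools/trim/merge3_helper67.py): 8 modules of the originals, bodies verbatim.
import Mathlib
import Fermat.Agent.Zm.S56_L06_003
import Fermat.Agent.Zm.S56_L03_004
import Fermat.Agent.Zm.S56_L05_003
import Fermat.Agent.Zm.S56_L06_004
import Fermat.Agent.Zm.S56_L05_004
import Fermat.Agent.Zm.S56_L02_003
import Fermat.Agent.Zm.S35_L03_002
import Fermat.Agent.Zm.S56_L04_004
import Fermat.Agent.Zm.S56_L06_000

-- ==== BEGIN Fermat.Agent.S55.Top.KPure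
section

set_option autoImplicit false
set_option linter.unusedSectionVars false
set_option linter.unusedSimpArgs false

open CategoryTheory Module groupCohomology ExtCitation

noncomputable section

namespace Fermat.Agent.S55.Top

open Fermat.Agent.S55 OrbitData

attribute [local instance] locAct

variable {k : Type} [Field k] {S : Finset Nat.Primes}
  {K : IntermediateField ℚ (AlgebraicClosure ℚ)} (𝔓 : PlaceSys S K)

/-! ### Stabilisers -/

lemma PlaceSys.glob_stab (g : GQ) :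
    g • 𝔓.glob.rep () = 𝔓.glob.rep () ↔ g ∈ K.fixingSubgroup := by
  rw [𝔓.glob_rep]
  exact ⟨mem_fix_of_smul_x0, smul_x0_of_mem_fix⟩

lemma PlaceSys.glob_stab' (g : ↥K.fixingSubgroup) :
    (g : GQ) • 𝔓.glob.rep () = 𝔓.glob.rep () := (𝔓.glob_stab g).2 g.2

lemma PlaceSys.glob_stab_inv (g : ↥K.fixingSubgroup) :
    (g : GQ)⁻¹ • 𝔓.glob.rep () = 𝔓.glob.rep () := by
  rw [inv_smul_eq_iff, 𝔓.glob_stab']

lemma PlaceSys.loc_stab (q : ↥S) (w : 𝔓.W q) (h : Gl q.1) :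
    h • (𝔓.loc q).rep w = (𝔓.loc q).rep w ↔ h ∈ 𝔓.Γw q w := Iff.rfl

lemma PlaceSys.loc_stab' (q : ↥S) (w : 𝔓.W q) (h : 𝔓.Γw q w) :
    (h : Gl q.1) • (𝔓.loc q).rep w = (𝔓.loc q).rep w := h.2

lemma PlaceSys.loc_stab_inv (q : ↥S) (w : 𝔓.W q) (h : 𝔓.Γw q w) :
    (h : Gl q.1)⁻¹ • (𝔓.loc q).rep w = (𝔓.loc q).rep w := by
  rw [inv_smul_eq_iff, 𝔓.loc_stab']

lemma PlaceSys.glob_o (x : XK K) : 𝔓.glob.o x = () := rfl

/-- the global `cc` has values in `G_K`. -/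
lemma PlaceSys.cc_mem (g : GQ) (x : XK K) : 𝔓.glob.cc g x ∈ K.fixingSubgroup :=
  (𝔓.glob_stab _).1 (𝔓.glob.cc_smul g x)

/-- the global `cc` at a representative of a place. -/
lemma PlaceSys.cc_rep (q : ↥S) (w : 𝔓.W q) (h : 𝔓.Γw q w) :
    𝔓.glob.cc (rl q.1 h.1) ((𝔓.loc q).rep w) = ((𝔓.ρw q w h : ↥K.fixingSubgroup) : GQ) := by
  have h1 : (rl q.1 h.1)⁻¹ • (𝔓.loc q).rep w = (𝔓.loc q).rep w := by
    rw [inv_smul_eq_iff]
    exact (h.2 : rl q.1 h.1 • (𝔓.loc q).rep w = (𝔓.loc q).rep w).symm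
  unfold OrbitData.cc
  rw [h1]
  rfl

/-! ### Extension by zero -/

open Classical in
/-- extension by zero of a function on `G_K`. -/
def eG₁ (b : ↥K.fixingSubgroup → k) : Unit → GQ → k :=
  fun _ g => if h : g ∈ K.fixingSubgroup then b ⟨g, h⟩ else 0

open Classical in
/-- extension by zero of a function on `G_K × G_K`. -/
def eG₂ (a : ↥K.fixingSubgroup × ↥K.fixingSubgroup → k) : Unit → GQ × GQ → k :=
  fun _ t => if h : t.1 ∈ K.fixingSubgroup ∧ t.2 ∈ K.fixingSubgroup then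
    a (⟨t.1, h.1⟩, ⟨t.2, h.2⟩) else 0

open Classical in
/-- extension by zero of a function on `G_K × G_K × G_K`. -/
def eG₃ (a : ↥K.fixingSubgroup × ↥K.fixingSubgroup × ↥K.fixingSubgroup → k) :
    Unit → GQ × GQ × GQ → k :=
  fun _ t => if h : t.1 ∈ K.fixingSubgroup ∧ t.2.1 ∈ K.fixingSubgroup ∧
      t.2.2 ∈ K.fixingSubgroup then
    a (⟨t.1, h.1⟩, ⟨t.2.1, h.2.1⟩, ⟨t.2.2, h.2.2⟩) else 0

open Classical in
/-- extension by zero of a family of functions on the `Γw`. -/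
def PlaceSys.eL₁ (q : ↥S) (z : ∀ w : 𝔓.W q, 𝔓.Γw q w → k) : 𝔓.W q → Gl q.1 → k :=
  fun w h => if hh : h ∈ 𝔓.Γw q w then z w ⟨h, hh⟩ else 0

open Classical in
/-- extension by zero of a family of functions on the `Γw × Γw`. -/
def PlaceSys.eL₂ (q : ↥S) (z : ∀ w : 𝔓.W q, 𝔓.Γw q w × 𝔓.Γw q w → k) :
    𝔓.W q → Gl q.1 × Gl q.1 → k :=
  fun w t => if hh : t.1 ∈ 𝔓.Γw q w ∧ t.2 ∈ 𝔓.Γw q w then z w (⟨t.1, hh.1⟩, ⟨t.2, hh.2⟩)
    else 0

lemma eG₁_mem (b : ↥K.fixingSubgroup → k) {g : GQ} (h : g ∈ K.fixingSubgroup) :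
    eG₁ b () g = b ⟨g, h⟩ := dif_pos h

lemma eG₂_mem (a : ↥K.fixingSubgroup × ↥K.fixingSubgroup → k) {g₁ g₂ : GQ}
    (h₁ : g₁ ∈ K.fixingSubgroup) (h₂ : g₂ ∈ K.fixingSubgroup) :
    eG₂ a () (g₁, g₂) = a (⟨g₁, h₁⟩, ⟨g₂, h₂⟩) := dif_pos ⟨h₁, h₂⟩

lemma eG₃_mem (a : ↥K.fixingSubgroup × ↥K.fixingSubgroup × ↥K.fixingSubgroup → k)
    {g₁ g₂ g₃ : GQ} (h₁ : g₁ ∈ K.fixingSubgroup) (h₂ : g₂ ∈ K.fixingSubgroup)
    (h₃ : g₃ ∈ K.fixingSubgroup) :
    eG₃ a () (g₁, g₂, g₃) = a (⟨g₁, h₁⟩, ⟨g₂, h₂⟩, ⟨g₃, h₃⟩) := dif_pos ⟨h₁, h₂, h₃⟩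

lemma PlaceSys.eL₁_mem (q : ↥S) (z : ∀ w : 𝔓.W q, 𝔓.Γw q w → k) (w : 𝔓.W q) {h : Gl q.1}
    (hh : h ∈ 𝔓.Γw q w) : 𝔓.eL₁ q z w h = z w ⟨h, hh⟩ := dif_pos hh

lemma PlaceSys.eL₂_mem (q : ↥S) (z : ∀ w : 𝔓.W q, 𝔓.Γw q w × 𝔓.Γw q w → k) (w : 𝔓.W q)
    {h₁ h₂ : Gl q.1} (hh₁ : h₁ ∈ 𝔓.Γw q w) (hh₂ : h₂ ∈ 𝔓.Γw q w) :
    𝔓.eL₂ q z w (h₁, h₂) = z w (⟨h₁, hh₁⟩, ⟨h₂, hh₂⟩) := dif_pos ⟨hh₁, hh₂⟩

lemma eG₁_sub (b b' : ↥K.fixingSubgroup → k) : eG₁ (b - b') = eG₁ b - eG₁ b' := by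
  funext u g
  by_cases h : g ∈ K.fixingSubgroup
  · simp [eG₁, h]
  · simp [eG₁, h]

lemma eG₂_sub (a a' : ↥K.fixingSubgroup × ↥K.fixingSubgroup → k) :
    eG₂ (a - a') = eG₂ a - eG₂ a' := by
  funext u t
  by_cases h : t.1 ∈ K.fixingSubgroup ∧ t.2 ∈ K.fixingSubgroup
  · simp [eG₂, h]
  · simp only [eG₂, Pi.sub_apply]
    rw [dif_neg h, dif_neg h, dif_neg h, sub_zero]

lemma PlaceSys.eL₂_sub (q : ↥S) (z z' : ∀ w : 𝔓.W q, 𝔓.Γw q w × 𝔓.Γw q w → k) :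
    𝔓.eL₂ q (z - z') = 𝔓.eL₂ q z - 𝔓.eL₂ q z' := by
  funext w t
  by_cases h : t.1 ∈ 𝔓.Γw q w ∧ t.2 ∈ 𝔓.Γw q w
  · simp [PlaceSys.eL₂, h]
  · simp [PlaceSys.eL₂, h]

lemma PlaceSys.eL₁_sub (q : ↥S) (z z' : ∀ w : 𝔓.W q, 𝔓.Γw q w → k) :
    𝔓.eL₁ q (z - z') = 𝔓.eL₁ q z - 𝔓.eL₁ q z' := by
  funext w t
  by_cases h : t ∈ 𝔓.Γw q w
  · simp [PlaceSys.eL₁, h]
  · simp [PlaceSys.eL₁, h]

lemma eG₁_zero : eG₁ (0 : ↥K.fixingSubgroup → k) = 0 := by
  funext u g; simp [eG₁]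

lemma eG₂_zero : eG₂ (0 : ↥K.fixingSubgroup × ↥K.fixingSubgroup → k) = 0 := by
  funext u g; simp [eG₂]

lemma eG₃_zero : eG₃ (0 : ↥K.fixingSubgroup × ↥K.fixingSubgroup × ↥K.fixingSubgroup → k) = 0 := by
  funext u g; simp [eG₃]

lemma PlaceSys.eL₁_zero (q : ↥S) : 𝔓.eL₁ q (0 : ∀ w : 𝔓.W q, 𝔓.Γw q w → k) = 0 := by
  funext u g; simp [PlaceSys.eL₁]

lemma PlaceSys.eL₂_zero (q : ↥S) :
    𝔓.eL₂ q (0 : ∀ w : 𝔓.W q, 𝔓.Γw q w × 𝔓.Γw q w → k) = 0 := by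
  funext u g; simp [PlaceSys.eL₂]

/-! ### `K`-level induction and Shapiro maps -/

/-- global induction, degree 1. -/
def PlaceSys.indK₁ (b : ↥K.fixingSubgroup → k) : GQ → XK K → k := 𝔓.glob.ind1 (eG₁ b)

/-- global induction, degree 2. -/
def PlaceSys.indK₂ (a : ↥K.fixingSubgroup × ↥K.fixingSubgroup → k) : GQ × GQ → XK K → k :=
  𝔓.glob.ind2 (eG₂ a)

/-- global induction, degree 3. -/
def PlaceSys.indK₃ (a : ↥K.fixingSubgroup × ↥K.fixingSubgroup × ↥K.fixingSubgroup → k) :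
    GQ × GQ × GQ → XK K → k :=
  𝔓.glob.ind3 (eG₃ a)

/-- local induction, degree 1. -/
def PlaceSys.indL₁ (q : ↥S) (z : ∀ w : 𝔓.W q, 𝔓.Γw q w → k) : Gl q.1 → XK K → k :=
  (𝔓.loc q).ind1 (𝔓.eL₁ q z)

/-- local induction, degree 2. -/
def PlaceSys.indL₂ (q : ↥S) (z : ∀ w : 𝔓.W q, 𝔓.Γw q w × 𝔓.Γw q w → k) :
    Gl q.1 × Gl q.1 → XK K → k :=
  (𝔓.loc q).ind2 (𝔓.eL₂ q z)

/-- global Shapiro map, degree 1. -/
def PlaceSys.shK₁ (B : GQ → XK K → k) : ↥K.fixingSubgroup → k :=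
  fun g => B g.1 (𝔓.glob.rep ())

/-- global Shapiro map, degree 2. -/
def PlaceSys.shK₂ (B : GQ × GQ → XK K → k) : ↥K.fixingSubgroup × ↥K.fixingSubgroup → k :=
  fun t => B (t.1.1, t.2.1) (𝔓.glob.rep ())

/-- global Shapiro map, degree 3. -/
def PlaceSys.shK₃ (B : GQ × GQ × GQ → XK K → k) :
    ↥K.fixingSubgroup × ↥K.fixingSubgroup × ↥K.fixingSubgroup → k :=
  fun t => B (t.1.1, t.2.1.1, t.2.2.1) (𝔓.glob.rep ())

/-- local Shapiro map, degree 1. -/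
def PlaceSys.shL₁ (q : ↥S) (Z : Gl q.1 → XK K → k) : ∀ w : 𝔓.W q, 𝔓.Γw q w → k :=
  fun w h => Z h.1 ((𝔓.loc q).rep w)

/-- local Shapiro map, degree 2. -/
def PlaceSys.shL₂ (q : ↥S) (Z : Gl q.1 × Gl q.1 → XK K → k) :
    ∀ w : 𝔓.W q, 𝔓.Γw q w × 𝔓.Γw q w → k :=
  fun w t => Z (t.1.1, t.2.1) ((𝔓.loc q).rep w)

/-! ### Agreement lemmas -/

lemma PlaceSys.agree_eG₁_shK₁ (B : GQ → XK K → k) :
    𝔓.glob.Agree₁ (eG₁ (𝔓.shK₁ B)) (𝔓.glob.sh1 B) := by
  intro r g hg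
  rw [eG₁_mem _ ((𝔓.glob_stab g).1 hg)]
  rfl

lemma PlaceSys.agree_eG₂_shK₂ (B : GQ × GQ → XK K → k) :
    𝔓.glob.Agree₂ (eG₂ (𝔓.shK₂ B)) (𝔓.glob.sh2 B) := by
  intro r t h1 h2
  obtain ⟨g₁, g₂⟩ := t
  rw [eG₂_mem _ ((𝔓.glob_stab g₁).1 h1) ((𝔓.glob_stab g₂).1 h2)]
  rfl

lemma PlaceSys.agree_eG₃_shK₃ (B : GQ × GQ × GQ → XK K → k) :
    𝔓.glob.Agree₃ (eG₃ (𝔓.shK₃ B)) (𝔓.glob.sh3 B) := by
  intro r t h1 h2 h3
  obtain ⟨g₁, g₂, g₃⟩ := t
  rw [eG₃_mem _ ((𝔓.glob_stab g₁).1 h1) ((𝔓.glob_stab g₂).1 h2) ((𝔓.glob_stab g₃).1 h3)]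
  rfl

lemma PlaceSys.agree_eL₁_shL₁ (q : ↥S) (Z : Gl q.1 → XK K → k) :
    (𝔓.loc q).Agree₁ (𝔓.eL₁ q (𝔓.shL₁ q Z)) ((𝔓.loc q).sh1 Z) := by
  intro w h hh
  rw [𝔓.eL₁_mem q _ w hh]
  rfl

lemma PlaceSys.agree_eL₂_shL₂ (q : ↥S) (Z : Gl q.1 × Gl q.1 → XK K → k) :
    (𝔓.loc q).Agree₂ (𝔓.eL₂ q (𝔓.shL₂ q Z)) ((𝔓.loc q).sh2 Z) := by
  intro w t h1 h2
  obtain ⟨g₁, g₂⟩ := t
  rw [𝔓.eL₂_mem q _ w h1 h2]
  rfl

lemma PlaceSys.indK₁_shK₁ (B : GQ → XK K → k) :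
    𝔓.indK₁ (𝔓.shK₁ B) = 𝔓.glob.ind1 (𝔓.glob.sh1 B) :=
  𝔓.glob.ind1_congr (𝔓.agree_eG₁_shK₁ B)

lemma PlaceSys.indK₂_shK₂ (B : GQ × GQ → XK K → k) :
    𝔓.indK₂ (𝔓.shK₂ B) = 𝔓.glob.ind2 (𝔓.glob.sh2 B) :=
  𝔓.glob.ind2_congr (𝔓.agree_eG₂_shK₂ B)

lemma PlaceSys.indK₃_shK₃ (B : GQ × GQ × GQ → XK K → k) :
    𝔓.indK₃ (𝔓.shK₃ B) = 𝔓.glob.ind3 (𝔓.glob.sh3 B) :=
  𝔓.glob.ind3_congr (𝔓.agree_eG₃_shK₃ B)

lemma PlaceSys.indL₁_shL₁ (q : ↥S) (Z : Gl q.1 → XK K → k) :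
    𝔓.indL₁ q (𝔓.shL₁ q Z) = (𝔓.loc q).ind1 ((𝔓.loc q).sh1 Z) :=
  (𝔓.loc q).ind1_congr (𝔓.agree_eL₁_shL₁ q Z)

lemma PlaceSys.indL₂_shL₂ (q : ↥S) (Z : Gl q.1 × Gl q.1 → XK K → k) :
    𝔓.indL₂ q (𝔓.shL₂ q Z) = (𝔓.loc q).ind2 ((𝔓.loc q).sh2 Z) :=
  (𝔓.loc q).ind2_congr (𝔓.agree_eL₂_shL₂ q Z)

/-! ### Induction commutes with the differentials -/

lemma PlaceSys.d1_indK₁ (b : ↥K.fixingSubgroup → k) :
    d1 (𝔓.indK₁ b) = 𝔓.indK₂ (tOne b) := by
  unfold PlaceSys.indK₁ PlaceSys.indK₂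
  rw [d1_ind1]
  apply ind2_congr
  intro r t h1 h2
  obtain ⟨g₁, g₂⟩ := t
  have m1 := (𝔓.glob_stab g₁).1 h1
  have m2 := (𝔓.glob_stab g₂).1 h2
  rw [eG₂_mem _ m1 m2]
  simp only [e1, eG₁_mem _ m1, eG₁_mem _ m2, eG₁_mem _ (K.fixingSubgroup.mul_mem m1 m2)]
  rfl

lemma PlaceSys.d2_indK₂ (a : ↥K.fixingSubgroup × ↥K.fixingSubgroup → k) :
    d2 (𝔓.indK₂ a) = 𝔓.indK₃ (tTwo a) := by
  unfold PlaceSys.indK₂ PlaceSys.indK₃
  rw [d2_ind2]
  apply ind3_congr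
  intro r t h1 h2 h3
  obtain ⟨g₁, g₂, g₃⟩ := t
  have m1 := (𝔓.glob_stab g₁).1 h1
  have m2 := (𝔓.glob_stab g₂).1 h2
  have m3 := (𝔓.glob_stab g₃).1 h3
  rw [eG₃_mem _ m1 m2 m3]
  simp only [e2, eG₂_mem _ m1 m2, eG₂_mem _ m2 m3, eG₂_mem _ (K.fixingSubgroup.mul_mem m1 m2) m3,
    eG₂_mem _ m1 (K.fixingSubgroup.mul_mem m2 m3)]
  rfl

lemma PlaceSys.d1_indL₁ (q : ↥S) (z : ∀ w : 𝔓.W q, 𝔓.Γw q w → k) :
    d1 (𝔓.indL₁ q z) = 𝔓.indL₂ q (fun w => tOne (z w)) := by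
  unfold PlaceSys.indL₁ PlaceSys.indL₂
  rw [d1_ind1]
  apply ind2_congr
  intro w t h1 h2
  obtain ⟨g₁, g₂⟩ := t
  have m1 : g₁ ∈ 𝔓.Γw q w := h1
  have m2 : g₂ ∈ 𝔓.Γw q w := h2
  rw [𝔓.eL₂_mem q _ w m1 m2]
  simp only [e1, 𝔓.eL₁_mem q _ w m1, 𝔓.eL₁_mem q _ w m2,
    𝔓.eL₁_mem q _ w ((𝔓.Γw q w).mul_mem m1 m2)]
  rfl

/-! ### Restriction to the places -/

lemma PlaceSys.sh_res_ind₁ (q : ↥S) (b : ↥K.fixingSubgroup → k) :
    𝔓.shL₁ q (resOne q.1 (𝔓.indK₁ b)) = fun w => 𝔓.res₁ q w b := by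
  funext w h
  show eG₁ b () (𝔓.glob.cc (rl q.1 h.1) ((𝔓.loc q).rep w)) = b (𝔓.ρw q w h)
  rw [𝔓.cc_rep q w h, eG₁_mem _ (𝔓.ρw q w h).2]

lemma PlaceSys.cc_rep' (q : ↥S) (w : 𝔓.W q) (h h' : 𝔓.Γw q w) :
    𝔓.glob.cc (rl q.1 h.1) ((rl q.1 h'.1)⁻¹ • (𝔓.loc q).rep w) =
      ((𝔓.ρw q w h : ↥K.fixingSubgroup) : GQ) := by
  have h1 : (rl q.1 h'.1)⁻¹ • (𝔓.loc q).rep w = (𝔓.loc q).rep w := by
    rw [inv_smul_eq_iff]
    exact (h'.2 : rl q.1 h'.1 • (𝔓.loc q).rep w = (𝔓.loc q).rep w).symm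
  rw [h1, 𝔓.cc_rep]

lemma PlaceSys.sh_res_ind₂ (q : ↥S) (a : ↥K.fixingSubgroup × ↥K.fixingSubgroup → k) :
    𝔓.shL₂ q (resTwo q.1 (𝔓.indK₂ a)) = fun w => 𝔓.res₂ q w a := by
  funext w t
  obtain ⟨h₁, h₂⟩ := t
  show eG₂ a () (𝔓.glob.cc (rl q.1 h₁.1) ((𝔓.loc q).rep w),
    𝔓.glob.cc (rl q.1 h₂.1) ((rl q.1 h₁.1)⁻¹ • (𝔓.loc q).rep w)) = a (𝔓.ρw q w h₁, 𝔓.ρw q w h₂)
  rw [𝔓.cc_rep q w h₁, 𝔓.cc_rep' q w h₂ h₁, eG₂_mem _ (𝔓.ρw q w h₁).2 (𝔓.ρw q w h₂).2]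

lemma PlaceSys.sh_res_ind₃ (q : ↥S) (w : 𝔓.W q)
    (a : ↥K.fixingSubgroup × ↥K.fixingSubgroup × ↥K.fixingSubgroup → k)
    (t : 𝔓.Γw q w × 𝔓.Γw q w × 𝔓.Γw q w) :
    resThree q.1 (𝔓.indK₃ a) (t.1.1, t.2.1.1, t.2.2.1) ((𝔓.loc q).rep w) = 𝔓.res₃ q w a t := by
  obtain ⟨h₁, h₂, h₃⟩ := t
  show eG₃ a () (𝔓.glob.cc (rl q.1 h₁.1) ((𝔓.loc q).rep w),
    𝔓.glob.cc (rl q.1 h₂.1) ((rl q.1 h₁.1)⁻¹ • (𝔓.loc q).rep w),
    𝔓.glob.cc (rl q.1 h₃.1) ((rl q.1 h₂.1)⁻¹ • (rl q.1 h₁.1)⁻¹ • (𝔓.loc q).rep w)) =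
      a (𝔓.ρw q w h₁, 𝔓.ρw q w h₂, 𝔓.ρw q w h₃)
  have h1 : (rl q.1 h₁.1)⁻¹ • (𝔓.loc q).rep w = (𝔓.loc q).rep w := by
    rw [inv_smul_eq_iff]
    exact (h₁.2 : rl q.1 h₁.1 • (𝔓.loc q).rep w = (𝔓.loc q).rep w).symm
  rw [h1, 𝔓.cc_rep q w h₁, 𝔓.cc_rep q w h₂, 𝔓.cc_rep' q w h₃ h₂,
    eG₃_mem _ (𝔓.ρw q w h₁).2 (𝔓.ρw q w h₂).2 (𝔓.ρw q w h₃).2]

/-- `ind ∘ sh ∘ Res ∘ ind = ind ∘ res` (degree 1). -/
lemma PlaceSys.ind_sh_res_ind₁ (q : ↥S) (b : ↥K.fixingSubgroup → k) :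
    (𝔓.loc q).ind1 ((𝔓.loc q).sh1 (resOne q.1 (𝔓.indK₁ b))) =
      𝔓.indL₁ q (fun w => 𝔓.res₁ q w b) := by
  rw [← 𝔓.indL₁_shL₁, 𝔓.sh_res_ind₁]

/-- `ind ∘ sh ∘ Res ∘ ind = ind ∘ res` (degree 2). -/
lemma PlaceSys.ind_sh_res_ind₂ (q : ↥S) (a : ↥K.fixingSubgroup × ↥K.fixingSubgroup → k) :
    (𝔓.loc q).ind2 ((𝔓.loc q).sh2 (resTwo q.1 (𝔓.indK₂ a))) =
      𝔓.indL₂ q (fun w => 𝔓.res₂ q w a) := by
  rw [← 𝔓.indL₂_shL₂, 𝔓.sh_res_ind₂]

/-! ### The Shapiro maps commute with the differentials -/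

lemma PlaceSys.tOne_shK₁ (B : GQ → XK K → k) :
    tOne (𝔓.shK₁ B) = 𝔓.shK₂ (d1 B) := by
  funext t
  simp only [tOne, PlaceSys.shK₁, PlaceSys.shK₂, d1, 𝔓.glob_stab_inv]
  rfl

lemma PlaceSys.tTwo_shK₂ (B : GQ × GQ → XK K → k) :
    tTwo (𝔓.shK₂ B) = 𝔓.shK₃ (d2 B) := by
  funext t
  simp only [tTwo, PlaceSys.shK₂, PlaceSys.shK₃, d2, 𝔓.glob_stab_inv]
  rfl

lemma PlaceSys.tThree_shK₃ (B : GQ × GQ × GQ → XK K → k) (hB : d3 B = 0) :
    tThree (𝔓.shK₃ B) = 0 := by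
  funext t
  have h := congrFun (congrFun hB (t.1.1, t.2.1.1, t.2.2.1.1, t.2.2.2.1)) (𝔓.glob.rep ())
  simp only [d3, 𝔓.glob_stab_inv, Pi.zero_apply] at h
  simp only [tThree, PlaceSys.shK₃, Pi.zero_apply]
  exact h

lemma PlaceSys.tOne_shL₁ (q : ↥S) (Y : Gl q.1 → XK K → k) (w : 𝔓.W q) :
    tOne (𝔓.shL₁ q Y w) = 𝔓.shL₂ q (d1 Y) w := by
  funext t
  simp only [tOne, PlaceSys.shL₁, PlaceSys.shL₂, d1, 𝔓.loc_stab_inv]
  rfl

lemma PlaceSys.tTwo_shL₂ (q : ↥S) (Y : Gl q.1 × Gl q.1 → XK K → k) (w : 𝔓.W q)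
    (t : 𝔓.Γw q w × 𝔓.Γw q w × 𝔓.Γw q w) :
    tTwo (𝔓.shL₂ q Y w) t = d2 Y (t.1.1, t.2.1.1, t.2.2.1) ((𝔓.loc q).rep w) := by
  simp only [tTwo, PlaceSys.shL₂, d2, 𝔓.loc_stab_inv]
  rfl

end Fermat.Agent.S55.Top

end

end
-- ==== END Fermat.Agent.S55.Top.KPure

-- ==== BEGIN Fermat.Agent.S56.EC.H4_Sha0Ret
section

set_option autoImplicit false
set_option linter.unusedSectionVars false

open CategoryTheory Module groupCohomology ExtCitation

noncomputable section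

namespace Fermat.Agent.S56.EC.H4

open Fermat.Agent.S55

variable {k : Type} [Field k] (S : Finset Nat.Primes)

/-- Locally trivial level-`S` cocycles are pushed forward by morphisms. -/
lemma isSha1_push {A B : Rep.{0} k _root_.Fermat.Agent.S55.GQ} (u : A ⟶ B) {b : _root_.Fermat.Agent.S55.GQ → A} (hb : H48.IsSha1 S A b) :
    H48.IsSha1 S B (fun g => u.hom (b g)) := by
  refine ⟨H48.isZ1S_push u hb.1, fun q => ?_⟩
  obtain ⟨m, hm⟩ := hb.2 q
  refine ⟨u.hom m, ?_⟩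
  rw [dZeroL_comp]
  funext t
  exact congrArg (fun f => u.hom (f t)) hm

/-- `sha₁ = ⊥` in terms of cocycles. -/
lemma exists_dZero_of_sha1_eq_bot (h2 : (2 : k) ≠ 0) {B : Rep.{0} k _root_.Fermat.Agent.S55.GQ} (hB : sha₁ S B = ⊥)
    {b : _root_.Fermat.Agent.S55.GQ → B} (hb : H48.IsSha1 S B b) : ∃ m : B, b = dZero B m := by
  obtain ⟨c, hc⟩ := H48.exists_mem_of_isSha1 S B h2 hb
  have h0 : H48.shaπ1 S B c = 0 := by
    apply Subtype.ext
    have h1 : ((H48.shaπ1 S B c : ↥(sha₁ S B)) : H1 B) ∈ (⊥ : Submodule k (H1 B)) :=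
      hB ▸ (H48.shaπ1 S B c).2
    exact (Submodule.mem_bot _).1 h1
  obtain ⟨m, hm⟩ := (H48.shaπ1_eq_zero_iff S B c).1 h0
  exact ⟨m, hc.symm.trans hm⟩

/-- **Joint retracts**: `sha₁` vanishes on `A` if `id_A = ∑ j, r j ∘ u j` with
`u j : A ⟶ B`, `r j : B ⟶ A` and `sha₁` vanishes on `B`. -/
theorem sha1_eq_bot_of_joint_retract (h2 : (2 : k) ≠ 0) {A B : Rep.{0} k _root_.Fermat.Agent.S55.GQ} {J : Type}
    [Fintype J] (u : J → (A ⟶ B)) (r : J → (B ⟶ A))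
    (hur : ∀ a : A, ∑ j, (r j).hom ((u j).hom a) = a) (hB : sha₁ S B = ⊥) :
    sha₁ S A = ⊥ := by
  rw [eq_bot_iff]
  intro x hx
  obtain ⟨c, hc⟩ := H48.shaπ1_surjective S A ⟨x, hx⟩
  have hsha := H48.isSha1_of_mem S A c
  have hm : ∀ j : J, ∃ m : B, (fun g => (u j).hom (((c.1 : cocycles₁ A) : _root_.Fermat.Agent.S55.GQ → A) g))
      = dZero B m := fun j =>
    exists_dZero_of_sha1_eq_bot S h2 hB (isSha1_push S (u j) hsha)
  choose m hm using hm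
  have h0 : H48.shaπ1 S A c = 0 := by
    rw [H48.shaπ1_eq_zero_iff]
    refine ⟨∑ j, (r j).hom (m j), ?_⟩
    funext g
    have h1 : ((c.1 : cocycles₁ A) : _root_.Fermat.Agent.S55.GQ → A) g
        = ∑ j, (r j).hom ((u j).hom (((c.1 : cocycles₁ A) : _root_.Fermat.Agent.S55.GQ → A) g)) := (hur _).symm
    rw [h1]
    have h3 : ∀ j : J, (r j).hom ((u j).hom (((c.1 : cocycles₁ A) : _root_.Fermat.Agent.S55.GQ → A) g))
        = dZero A ((r j).hom (m j)) g := by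
      intro j
      have h4 : (u j).hom (((c.1 : cocycles₁ A) : _root_.Fermat.Agent.S55.GQ → A) g) = dZero B (m j) g :=
        congrFun (hm j) g
      rw [h4, dZero_comp]
    rw [Finset.sum_congr rfl (fun j _ => h3 j)]
    simp only [dZero, map_sum, Finset.sum_sub_distrib]
  have hx0 : (⟨x, hx⟩ : ↥(sha₁ S A)) = 0 := hc.symm.trans h0
  rw [Submodule.mem_bot]
  exact congrArg Subtype.val hx0

end Fermat.Agent.S56.EC.H4

end
end
-- ==== END Fermat.Agent.S56.EC.H4_Sha0Ret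

-- ==== BEGIN Fermat.Agent.S56.FL.H15_CC2Core
section

set_option autoImplicit false

/-!
# LOC-p-FL, package UNITS / CC2 (helper15): the interface between the core and the assembly

* `Stmt_CC2core` : the count for Kummer homomorphisms on a normal subgroup `N ≤ G₂` of
  `Gal(K̄/ℚ_p)` of exponent-index prime to `p` (helper15, `FL/H15_CC2*.lean`).
* leaf **ASM** : `Stmt_CC2core → Stmt_CC2z` (group theory + `H85.coboundary_of_vanish`).
-/

noncomputable section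

namespace Fermat.Agent.S56.FL.H15

open Fermat.Agent.S56.FL

/-- **CC2-core.**  `L/ℚ_p` finite Galois of bounded ramification, `ζ ∈ L` a primitive `p`-th root
of unity, `I ≤ G₂`, `g² ∈ G₂` for all `g`, `N ≤ G₂` normal in `Gal(K̄/ℚ_p)`, fixing `ζ`, with
`g^m ∈ N` for all `g` (`p ∤ m`); `χ : G₂ → kˣ` (extended to a function on `Gal(K̄/ℚ_p)`), trivial on
`N`, with `(ω χ⁻¹)^{(p+1)/2} = ω` on inertia.  Two homomorphisms `h₁, h₂ : N → k`, trivial on
`N ∩ Gal(K̄/L)`, with `h (σ n σ⁻¹) = χ σ * h n` (`σ ∈ G₂`) are `k`-linearly dependent. -/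
def Stmt_CC2core : Prop :=
  ∀ (p : ℕ) [Fact p.Prime], p ≠ 2 →
    ∀ (k : Type) [Field k] [Finite k] [CharP k p]
      (L : IntermediateField ℚ_[p] (PadicAlgCl p)) [FiniteDimensional ℚ_[p] L],
      Normal ℚ_[p] L → IsBddField p L →
      ∀ (ζ : PadicAlgCl p) (hζ : IsPrimitiveRoot ζ p), ζ ∈ L →
      ∀ (G₂ N : Subgroup (Gp p)), inertiaP p ≤ G₂ → (∀ g : Gp p, g ^ 2 ∈ G₂) →
        N.Normal → N ≤ G₂ → (∀ n ∈ N, n ζ = ζ) →
        (∃ m : ℕ, ¬ p ∣ m ∧ ∀ g : Gp p, g ^ m ∈ N) →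
      ∀ (χ : Gp p → k), (∀ σ ∈ G₂, ∀ τ ∈ G₂, χ (σ * τ) = χ σ * χ τ) → (∀ n ∈ N, χ n = 1) →
        (∀ σ ∈ inertiaP p,
          (H85.cst p k ((H85.omg hζ σ : (ZMod p)ˣ) : ZMod p) * (χ σ)⁻¹) ^ ((p + 1) / 2)
            = H85.cst p k ((H85.omg hζ σ : (ZMod p)ˣ) : ZMod p)) →
      ∀ (h₁ h₂ : Gp p → k),
        (∀ n ∈ N, ∀ n' ∈ N, h₁ (n * n') = h₁ n + h₁ n') →
        (∀ σ ∈ G₂, ∀ n ∈ N, h₁ (σ * n * σ⁻¹) = χ σ * h₁ n) →
        (∀ n ∈ N, n ∈ L.fixingSubgroup → h₁ n = 0) →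
        (∀ n ∈ N, ∀ n' ∈ N, h₂ (n * n') = h₂ n + h₂ n') →
        (∀ σ ∈ G₂, ∀ n ∈ N, h₂ (σ * n * σ⁻¹) = χ σ * h₂ n) →
        (∀ n ∈ N, n ∈ L.fixingSubgroup → h₂ n = 0) →
        ∃ l₁ l₂ : k, (l₁ ≠ 0 ∨ l₂ ≠ 0) ∧ ∀ n ∈ N, l₁ * h₁ n + l₂ * h₂ n = 0

end Fermat.Agent.S56.FL.H15

end

end
-- ==== END Fermat.Agent.S56.FL.H15_CC2Core

-- ==== BEGIN Fermat.Agent.S56.FL.H15_HerbFinal
section

set_option autoImplicit false
set_option linter.style.haveILetI false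

/-!
# LOC-p-FL, package HERB (helper15): `Stmt_HERB`

Bounded ramification passes to Galois subextensions (Herbrand's theorem for the upper numbering).
-/

noncomputable section

namespace Fermat.Agent.S56.FL.H15

open scoped NNReal
open Fermat.Agent.S56.FL Module Polynomial

variable {p : ℕ} [Fact p.Prime]

/-- **HERB**: `Stmt_HERB` of `Fermat/Agent/S56/FL/Local.lean`. -/
theorem stmt_HERB : Stmt_HERB := by
  intro p _ L L' _ _ hL hL' hle hbdd σ' hσ'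
  classical
  letI : Algebra L' L := (IntermediateField.inclusion hle).toRingHom.toAlgebra
  haveI : IsScalarTower ℚ_[p] L' L := IsScalarTower.of_algebraMap_eq (fun x => rfl)
  haveI : Normal ℚ_[p] L := hL
  haveI : Normal ℚ_[p] L' := hL'
  haveI : IsGalois ℚ_[p] L := ⟨⟩
  let r : (L ≃ₐ[ℚ_[p]] L) →* (L' ≃ₐ[ℚ_[p]] L') := AlgEquiv.restrictNormalHom L'
  have hsurj : Function.Surjective r := AlgEquiv.restrictNormalHom_surjective L
  have hcomm : ∀ (σ : L ≃ₐ[ℚ_[p]] L) (a : L'),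
      algebraMap L' L (r σ a) = σ (algebraMap L' L a) :=
    fun σ a => AlgEquiv.restrictNormal_commutes σ L' a
  have hcoe : ∀ a : L', ((algebraMap L' L a : L) : PadicAlgCl p) = (a : PadicAlgCl p) :=
    fun a => rfl
  have hinj : Function.Injective (algebraMap L' L) := (algebraMap L' L).injective
  letI : Fintype r.ker := Fintype.ofFinite _
  -- Galois correspondence: elements fixed by `ker r` come from `L'`
  have hgal : ∀ c : L, (∀ ν ∈ r.ker, ν c = c) → ∃ a : L', algebraMap L' L a = c := by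
    intro c hc
    let K : IntermediateField ℚ_[p] L := (IsScalarTower.toAlgHom ℚ_[p] L' L).fieldRange
    have hK : c ∈ IntermediateField.fixedField K.fixingSubgroup := by
      rw [IntermediateField.mem_fixedField_iff]
      intro ν hν
      apply hc
      rw [MonoidHom.mem_ker]
      ext a
      have h1 : ν (algebraMap L' L a) = algebraMap L' L a := by
        have := (IntermediateField.mem_fixingSubgroup_iff K ν).mp hν (algebraMap L' L a)
          ⟨a, rfl⟩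
        exact this
      have h2 := hcomm ν a
      rw [h1] at h2
      have h3 := hinj h2
      simpa using congrArg (fun z : L' => (z : PadicAlgCl p)) h3
    rw [IsGalois.fixedField_fixingSubgroup] at hK
    obtain ⟨a, ha⟩ := hK
    exact ⟨a, ha⟩
  -- `depthOn (ker r) τ ≤ depth L' (r τ)`
  have hd1 : ∀ τ : L ≃ₐ[ℚ_[p]] L, depthOn L r.ker τ ≤ depth p L' (r τ) := by
    intro τ
    refine depthOn_le _ _ fun c hc1 hcfix => ?_
    obtain ⟨a, rfl⟩ := hgal c hcfix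
    have ha1 : ‖(a : PadicAlgCl p)‖ ≤ 1 := hc1
    have h1 := norm_sub_le_depth (r τ) ha1
    have h2 : ‖τ (algebraMap L' L a) - algebraMap L' L a‖
        = ‖((r τ a : L') : PadicAlgCl p) - (a : PadicAlgCl p)‖ := by
      rw [← hcomm τ a]
      rfl
    rw [h2]
    exact h1
  obtain ⟨σ, rfl⟩ := hsurj σ'
  obtain ⟨ν₀, hν₀, hherb⟩ := herbrand_top r.ker σ
  have hne : σ * ν₀ ≠ 1 := by
    intro h
    apply hσ'
    have h1 : r (σ * ν₀) = r σ := by
      rw [map_mul, MonoidHom.mem_ker.mp hν₀, mul_one]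
    rw [← h1, h, map_one]
  have hb := hbdd (σ * ν₀) hne
  have hfib := prod_comp_hom r hsurj (fun τ' => max (depth p L' (r σ)) (depth p L' τ'))
  set R : ℝ := ∏ τ : L ≃ₐ[ℚ_[p]] L, max (depth p L (σ * ν₀)) (depth p L τ) with hR
  set R' : ℝ := ∏ τ' : L' ≃ₐ[ℚ_[p]] L', max (depth p L' (r σ)) (depth p L' τ') with hR'
  have hR0 : 0 ≤ R :=
    Finset.prod_nonneg fun τ _ => (depth_nonneg L _).trans (le_max_left _ _)
  have hR'0 : 0 ≤ R' :=
    Finset.prod_nonneg fun τ _ => (depth_nonneg L' _).trans (le_max_left _ _)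
  have hchain : R ^ Fintype.card r.ker ≤ R' ^ Fintype.card r.ker := by
    rw [← hfib]
    refine hherb.trans ?_
    refine Finset.prod_le_prod (fun τ _ => ?_) (fun τ _ => ?_)
    · exact (depthOn_nonneg _ _).trans (le_max_left _ _)
    · exact max_le_max (hd1 σ) (hd1 τ)
  have hcard : Fintype.card r.ker ≠ 0 := Fintype.card_ne_zero
  have hRR' : R ≤ R' := (pow_le_pow_iff_left₀ hR0 hR'0 hcard).mp hchain
  exact hb.trans (pow_le_pow_left₀ hR0 hRR' _)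

end Fermat.Agent.S56.FL.H15

end

end
-- ==== END Fermat.Agent.S56.FL.H15_HerbFinal

-- ==== BEGIN Fermat.Agent.S56.FL.H38_CC0a
section

set_option autoImplicit false

/-!
# LOC-p-FL, package CC0 (helper38), part 1: the wild step inside `Gal(L/ℚ_p)`

`L/ℚ_p` finite (inside `K̄`), `N ≤ J ≤ Gal(L/ℚ_p)` with `N` normal, `J` contained in the inertia
group, `L^J` unramified and `τ^p ∈ N` for `τ ∈ J` (`WildData`).  Then, with `π` a uniformizer of
`L^N`: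

* `wild_unif`  : `‖τ π - π‖ ≤ ‖π‖²` for `τ ∈ J`;
* `wild_all`   : `‖τ a - a‖ ≤ ‖π‖²` for `τ ∈ J` and all integers `a` of `L^N`;
* `norm_unif_pow_card` : `‖π‖^|J| ≤ p^{-|N|}`;
* `le_of_wildData` : if the ramification of `L` is bounded and `p ≠ 2`, then `J ≤ N`.
-/

noncomputable section

namespace Fermat.Agent.S56.FL.H38

open scoped NNReal
open Fermat.Agent.S56.FL Polynomial Module

variable {p : ℕ} [Fact p.Prime]

/-- `‖u ^ p - 1‖ < 1` implies `‖u - 1‖ < 1`. -/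
theorem norm_sub_one_lt_of_pow {u : PadicAlgCl p} (h : ‖u ^ p - 1‖ < 1) : ‖u - 1‖ < 1 := by
  have hp : p.Prime := Fact.out
  have hup : ‖u ^ p‖ = 1 := by
    have h1 : u ^ p = (u ^ p - 1) + 1 := by ring
    rw [h1, IsUltrametricDist.norm_add_eq_max_of_norm_ne_norm (by rw [norm_one]; exact h.ne),
      norm_one]
    exact max_eq_right h.le
  have hu : ‖u‖ = 1 := by
    rw [norm_pow] at hup
    exact (pow_eq_one_iff_of_nonneg (norm_nonneg _) hp.ne_zero).mp hup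
  obtain ⟨ξ, n, hn, hpn, hξ, hξu⟩ := exists_root_near hu
  have hξn : ‖ξ‖ = 1 := norm_root_eq_one hn hξ
  have h2 : ‖u ^ p - ξ ^ p‖ < 1 := (norm_pow_sub_pow_le' hu.le hξn.le p).trans_lt hξu
  have h3 : ‖1 - ξ ^ p‖ < 1 := by
    have h4 : 1 - ξ ^ p = (u ^ p - ξ ^ p) + -(u ^ p - 1) := by ring
    rw [h4]
    refine (IsUltrametricDist.norm_add_le_max _ _).trans_lt (max_lt h2 ?_)
    rw [norm_neg]; exact h
  have h5 : ξ ^ p = 1 := by
    by_contra hne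
    have h6 : (ξ ^ p) ^ n = 1 := by rw [← pow_mul, mul_comm, pow_mul, hξ, one_pow]
    rw [norm_one_sub_root hn hpn h6 hne] at h3
    exact lt_irrefl _ h3
  have h7 : ξ = 1 := by
    have h8 : ξ ^ Nat.gcd p n = 1 := pow_gcd_eq_one.mpr ⟨h5, hξ⟩
    have h9 : Nat.gcd p n = 1 := (Nat.Prime.coprime_iff_not_dvd hp).mpr hpn
    rw [h9, pow_one] at h8
    exact h8
  rw [h7] at hξu
  exact hξu

variable {L : IntermediateField ℚ_[p] (PadicAlgCl p)}

theorem norm_add_le_max_L (a b : L) : ‖a + b‖ ≤ max ‖a‖ ‖b‖ :=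
  IsUltrametricDist.norm_add_le_max (a : PadicAlgCl p) b

theorem norm_sub_le_max_L (a b : L) : ‖a - b‖ ≤ max ‖a‖ ‖b‖ := by
  rw [sub_eq_add_neg]
  exact (norm_add_le_max_L a (-b)).trans (le_of_eq (by rw [norm_neg]))

theorem norm_algEquiv_L (σ : L ≃ₐ[ℚ_[p]] L) (a : L) : ‖σ a‖ = ‖a‖ := H15.norm_algEquiv σ a

theorem norm_natCast_L_le_one (n : ℕ) : ‖(n : L)‖ ≤ 1 := norm_natCast_algCl_le_one n

/-- The hypotheses of the wild step. -/
structure WildData (L : IntermediateField ℚ_[p] (PadicAlgCl p))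
    (J N : Subgroup (L ≃ₐ[ℚ_[p]] L)) : Prop where
  le : N ≤ J
  normal : N.Normal
  inertia : ∀ τ ∈ J, ∀ a : L, ‖a‖ ≤ 1 → ‖τ a - a‖ < 1
  unr : ∀ a : L, (∀ τ ∈ J, τ a = a) → ‖a‖ < 1 → ‖a‖ ≤ (p : ℝ)⁻¹
  pow_mem : ∀ τ ∈ J, τ ^ p ∈ N

/-- `π` is a uniformizer of the fixed field of `N`. -/
def IsUnifOf (N : Subgroup (L ≃ₐ[ℚ_[p]] L)) (π : L) : Prop :=
  (∀ ν ∈ N, ν π = π) ∧ 0 < ‖π‖ ∧ ‖π‖ < 1 ∧
    ∀ a : L, (∀ ν ∈ N, ν a = a) → ‖a‖ < 1 → ‖a‖ ≤ ‖π‖

theorem exists_isUnifOf [FiniteDimensional ℚ_[p] L] (N : Subgroup (L ≃ₐ[ℚ_[p]] L)) :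
    ∃ π : L, IsUnifOf N π := by
  classical
  set n := finrank ℚ_[p] L with hn
  have hnpos : 0 < n := finrank_pos
  let S : Set ℤ := {k | ∃ y : L, y ≠ 0 ∧ (∀ ν ∈ N, ν y = y) ∧ ‖y‖ < 1 ∧ ‖y‖ ^ n = (p : ℝ) ^ k}
  have hp1 : (1 : ℝ) < p := H15.one_lt_p_real
  have hSbdd : ∀ k ∈ S, k ≤ -1 := by
    rintro k ⟨y, -, -, hy1, hyk⟩
    by_contra hk
    have hk0 : 0 ≤ k := by omega
    have h1 : (1 : ℝ) ≤ (p : ℝ) ^ k := one_le_zpow₀ hp1.le hk0
    have h2 : ‖y‖ ^ n < 1 := pow_lt_one₀ (norm_nonneg _) hy1 hnpos.ne'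
    rw [hyk] at h2
    exact absurd h1 (not_le.mpr h2)
  have hSne : ∃ k, k ∈ S := by
    have hpL : (p : L) ≠ 0 := by exact_mod_cast (Fact.out : p.Prime).ne_zero
    obtain ⟨k, hk⟩ := H15.norm_pow_finrank L (p : L) hpL
    refine ⟨k, (p : L), hpL, fun ν _ => map_natCast ν p, ?_, hk⟩
    have : ‖(p : L)‖ = (p : ℝ)⁻¹ := norm_p_algCl'
    rw [this]
    exact inv_lt_one_of_one_lt₀ hp1
  obtain ⟨k₀, hk₀S, hk₀max⟩ := Int.exists_greatest_of_bdd ⟨-1, hSbdd⟩ hSne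
  obtain ⟨π, hπ0, hπfix, hπ1, hπk⟩ := hk₀S
  refine ⟨π, hπfix, norm_pos_iff.mpr hπ0, hπ1, ?_⟩
  intro a hafix ha
  by_cases ha0 : a = 0
  · subst ha0; simp
  obtain ⟨k, hk⟩ := H15.norm_pow_finrank L a ha0
  have hkS : k ∈ S := ⟨a, ha0, hafix, ha, hk⟩
  have hle : k ≤ k₀ := hk₀max k hkS
  have hpow : ‖a‖ ^ n ≤ ‖π‖ ^ n := by
    have hk' : ‖a‖ ^ n = (p : ℝ) ^ k := hk
    rw [hk', hπk]
    exact zpow_le_zpow_right₀ hp1.le hle
  exact le_of_pow_le_pow_left₀ hnpos.ne' (norm_nonneg _) hpow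

section Fixed

variable {N : Subgroup (L ≃ₐ[ℚ_[p]] L)}

/-- Fixed elements stay fixed under the whole group when `N` is normal. -/
theorem fixed_map (hN : N.Normal) (τ : L ≃ₐ[ℚ_[p]] L) {a : L} (ha : ∀ ν ∈ N, ν a = a) :
    ∀ ν ∈ N, ν (τ a) = τ a := by
  intro ν hν
  have h1 : τ⁻¹ * ν * τ ∈ N := by
    have := hN.conj_mem ν hν τ⁻¹
    simpa using this
  have h2 := ha _ h1
  have h3 : ν (τ a) = τ ((τ⁻¹ * ν * τ) a) := by
    simp only [AlgEquiv.mul_apply]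
    have : τ (τ⁻¹ (ν (τ a))) = ν (τ a) := by
      rw [← AlgEquiv.mul_apply, mul_inv_cancel, AlgEquiv.one_apply]
    exact this.symm
  rw [h3, h2]

theorem fixed_sub {a b : L} (ha : ∀ ν ∈ N, ν a = a) (hb : ∀ ν ∈ N, ν b = b) :
    ∀ ν ∈ N, ν (a - b) = a - b := fun ν hν => by rw [map_sub, ha ν hν, hb ν hν]

theorem fixed_mul {a b : L} (ha : ∀ ν ∈ N, ν a = a) (hb : ∀ ν ∈ N, ν b = b) :
    ∀ ν ∈ N, ν (a * b) = a * b := fun ν hν => by rw [map_mul, ha ν hν, hb ν hν]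

theorem fixed_div {a b : L} (ha : ∀ ν ∈ N, ν a = a) (hb : ∀ ν ∈ N, ν b = b) :
    ∀ ν ∈ N, ν (a / b) = a / b := fun ν hν => by rw [map_div₀, ha ν hν, hb ν hν]

theorem fixed_pow {a : L} (ha : ∀ ν ∈ N, ν a = a) (n : ℕ) :
    ∀ ν ∈ N, ν (a ^ n) = a ^ n := fun ν hν => by rw [map_pow, ha ν hν]

/-- Discreteness of the value group of the fixed field. -/
theorem IsUnifOf.norm_le_sq {π : L} (hπ : IsUnifOf N π) {a : L} (ha : ∀ ν ∈ N, ν a = a)
    (hlt : ‖a‖ < ‖π‖) : ‖a‖ ≤ ‖π‖ ^ 2 := by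
  obtain ⟨hπfix, hπ0, hπ1, hπmax⟩ := hπ
  have h1 : ‖a / π‖ < 1 := by
    rw [norm_div, div_lt_one hπ0]; exact hlt
  have h2 := hπmax (a / π) (fixed_div ha hπfix) h1
  rw [norm_div, div_le_iff₀ hπ0] at h2
  rw [pow_two]; exact h2

theorem IsUnifOf.norm_le_of_lt_one {π : L} (hπ : IsUnifOf N π) {a : L}
    (ha : ∀ ν ∈ N, ν a = a) (hlt : ‖a‖ < 1) : ‖a‖ ≤ ‖π‖ := hπ.2.2.2 a ha hlt

end Fixed

section Wild

variable {J N : Subgroup (L ≃ₐ[ℚ_[p]] L)}

/-- Wildness at the uniformizer of `L^N`. -/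
theorem wild_unif (hW : WildData L J N) {π : L} (hπ : IsUnifOf N π) {τ : L ≃ₐ[ℚ_[p]] L}
    (hτ : τ ∈ J) : ‖τ π - π‖ ≤ ‖π‖ ^ 2 := by
  have hπfix := hπ.1
  have hπ0 : 0 < ‖π‖ := hπ.2.1
  have hπne : π ≠ 0 := norm_pos_iff.mp hπ0
  set u : L := τ π / π with hu
  have hun : ‖u‖ = 1 := by rw [hu, norm_div, norm_algEquiv_L, div_self hπ0.ne']
  have huπ : u * π = τ π := by rw [hu]; field_simp
  have key : ∀ j : ℕ, ‖(τ ^ j) π - u ^ j * π‖ < ‖π‖ := by
    intro j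
    induction j with
    | zero => simpa using hπ0
    | succ j ih =>
      have h1 : (τ ^ (j + 1)) π - u ^ (j + 1) * π
          = τ ((τ ^ j) π - u ^ j * π) + (τ (u ^ j) - u ^ j) * τ π := by
        rw [pow_succ' τ j, AlgEquiv.mul_apply, map_sub, map_mul, pow_succ, mul_assoc, huπ]
        ring
      rw [h1]
      refine (norm_add_le_max_L _ _).trans_lt (max_lt ?_ ?_)
      · rw [norm_algEquiv_L]; exact ih
      · rw [norm_mul, norm_algEquiv_L τ π]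
        have h2 : ‖τ (u ^ j) - u ^ j‖ < 1 :=
          hW.inertia τ hτ _ (by rw [norm_pow, hun, one_pow])
        calc ‖τ (u ^ j) - u ^ j‖ * ‖π‖ < 1 * ‖π‖ := mul_lt_mul_of_pos_right h2 hπ0
          _ = ‖π‖ := one_mul _
  have hp := key p
  rw [hπfix _ (hW.pow_mem τ hτ)] at hp
  have h3 : ‖u ^ p - 1‖ < 1 := by
    have h4 : π - u ^ p * π = -((u ^ p - 1) * π) := by ring
    rw [h4, norm_neg, norm_mul] at hp
    by_contra hcon
    have := mul_le_mul_of_nonneg_right (not_lt.mp hcon) hπ0.le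
    rw [one_mul] at this
    exact absurd hp (not_lt.mpr this)
  have h5 : ‖u - 1‖ < 1 := by
    have h3' : ‖(u : PadicAlgCl p) ^ p - 1‖ < 1 := h3
    exact norm_sub_one_lt_of_pow h3'
  have h6 : τ π - π = (u - 1) * π := by rw [sub_mul, huπ, one_mul]
  have h7 : ‖τ π - π‖ < ‖π‖ := by
    rw [h6, norm_mul]
    calc ‖u - 1‖ * ‖π‖ < 1 * ‖π‖ := mul_lt_mul_of_pos_right h5 hπ0
      _ = ‖π‖ := one_mul _
  exact hπ.norm_le_sq (fixed_sub (fixed_map hW.normal τ hπfix) hπfix) h7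

/-- Wildness on all integers of `L^N`. -/
theorem wild_all [FiniteDimensional ℚ_[p] L] (hW : WildData L J N) {π : L} (hπ : IsUnifOf N π)
    {τ : L ≃ₐ[ℚ_[p]] L} (hτ : τ ∈ J) {a : L} (ha : ∀ ν ∈ N, ν a = a) (ha1 : ‖a‖ ≤ 1) :
    ‖τ a - a‖ ≤ ‖π‖ ^ 2 := by
  obtain ⟨-, q, -, hq0, hq1, hpowq, -⟩ := H15.exists_residue_generator L
  have hπfix := hπ.1
  have hπ0 : 0 < ‖π‖ := hπ.2.1
  have hπ1 : ‖π‖ < 1 := hπ.2.2.1
  have hπne : π ≠ 0 := norm_pos_iff.mp hπ0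
  have hqδ : ‖(q : L)‖ ≤ ‖π‖ := hπ.norm_le_of_lt_one (fun ν _ => map_natCast ν q) hq1
  set y : L := τ a - a with hy
  have hyfix : ∀ ν ∈ N, ν y = y := fixed_sub (fixed_map hW.normal τ ha) ha
  have hy1 : ‖y‖ < 1 := hW.inertia τ hτ a ha1
  have hyδ : ‖y‖ ≤ ‖π‖ := hπ.norm_le_of_lt_one hyfix hy1
  have hτa1 : ‖τ a‖ ≤ 1 := by rw [norm_algEquiv_L]; exact ha1
  have hc1 : ‖a - a ^ q‖ < 1 := by rw [norm_sub_rev]; exact hpowq a ha1
  have hcfix : ∀ ν ∈ N, ν (a - a ^ q) = a - a ^ q := fixed_sub ha (fixed_pow ha q)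
  set b : L := (a - a ^ q) / π with hb
  have hbfix : ∀ ν ∈ N, ν b = b := fixed_div hcfix hπfix
  have hb1 : ‖b‖ ≤ 1 := by
    rw [hb, norm_div, div_le_one hπ0]
    exact hπ.norm_le_of_lt_one hcfix hc1
  have hab : a = a ^ q + π * b := by rw [hb]; field_simp; ring
  -- first part
  have hA : ‖(τ a) ^ q - a ^ q‖ ≤ ‖π‖ ^ 2 := by
    have h1 : (τ a) ^ q - a ^ q = (∑ i ∈ Finset.range q, (τ a) ^ i * a ^ (q - 1 - i)) * y := by
      rw [hy]; exact (Commute.geom_sum₂_mul (Commute.all _ _) q).symm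
    have h3 : ∑ i ∈ Finset.range q, (τ a) ^ i * a ^ (q - 1 - i)
        = (∑ i ∈ Finset.range q, ((τ a) ^ i - a ^ i) * a ^ (q - 1 - i))
          + (q : L) * a ^ (q - 1) := by
      have h4 : ∀ i ∈ Finset.range q, (τ a) ^ i * a ^ (q - 1 - i)
          = ((τ a) ^ i - a ^ i) * a ^ (q - 1 - i) + a ^ (q - 1) := by
        intro i hi
        rw [Finset.mem_range] at hi
        have h5 : a ^ (q - 1) = a ^ i * a ^ (q - 1 - i) := by
          rw [← pow_add]; congr 1; omega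
        rw [h5]; ring
      rw [Finset.sum_congr rfl h4, Finset.sum_add_distrib, Finset.sum_const, Finset.card_range,
        nsmul_eq_mul]
    have h2 : ‖∑ i ∈ Finset.range q, (τ a) ^ i * a ^ (q - 1 - i)‖ ≤ ‖π‖ := by
      rw [h3]
      refine (norm_add_le_max_L _ _).trans (max_le ?_ ?_)
      · refine IsUltrametricDist.norm_sum_le_of_forall_le_of_nonneg hπ0.le fun i _ => ?_
        rw [norm_mul]
        have h6 : ‖(τ a) ^ i - a ^ i‖ ≤ ‖y‖ := H15.norm_pow_sub_pow_le hτa1 ha1 i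
        have h7 : ‖a ^ (q - 1 - i)‖ ≤ 1 := by
          rw [norm_pow]; exact pow_le_one₀ (norm_nonneg _) ha1
        calc ‖(τ a) ^ i - a ^ i‖ * ‖a ^ (q - 1 - i)‖ ≤ ‖y‖ * 1 :=
              mul_le_mul h6 h7 (norm_nonneg _) (norm_nonneg _)
          _ = ‖y‖ := mul_one _
          _ ≤ ‖π‖ := hyδ
      · rw [norm_mul]
        have h7 : ‖a ^ (q - 1)‖ ≤ 1 := by
          rw [norm_pow]; exact pow_le_one₀ (norm_nonneg _) ha1
        calc ‖(q : L)‖ * ‖a ^ (q - 1)‖ ≤ ‖π‖ * 1 :=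
              mul_le_mul hqδ h7 (norm_nonneg _) hπ0.le
          _ = ‖π‖ := mul_one _
    rw [h1, norm_mul, pow_two]
    exact mul_le_mul h2 hyδ (norm_nonneg _) hπ0.le
  -- second part
  have hB : ‖τ (π * b) - π * b‖ ≤ ‖π‖ ^ 2 := by
    have h1 : τ (π * b) - π * b = τ π * (τ b - b) + (τ π - π) * b := by
      rw [map_mul]; ring
    rw [h1]
    refine (norm_add_le_max_L _ _).trans (max_le ?_ ?_)
    · rw [norm_mul, norm_algEquiv_L, pow_two]
      have h2 : ‖τ b - b‖ ≤ ‖π‖ :=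
        hπ.norm_le_of_lt_one (fixed_sub (fixed_map hW.normal τ hbfix) hbfix)
          (hW.inertia τ hτ b hb1)
      exact mul_le_mul_of_nonneg_left h2 hπ0.le
    · rw [norm_mul]
      calc ‖τ π - π‖ * ‖b‖ ≤ ‖π‖ ^ 2 * 1 :=
            mul_le_mul (wild_unif hW hπ hτ) hb1 (norm_nonneg _) (pow_nonneg hπ0.le 2)
        _ = ‖π‖ ^ 2 := mul_one _
  have hfin : τ a - a = ((τ a) ^ q - a ^ q) + (τ (π * b) - π * b) := by
    have h1 : τ a = (τ a) ^ q + τ (π * b) := by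
      conv_lhs => rw [hab]
      rw [map_add, map_pow]
    have h2 : τ a - a = ((τ a) ^ q + τ (π * b)) - (a ^ q + π * b) := by
      rw [← h1, ← hab]
    rw [h2]; ring
  have hfin' : ‖τ a - a‖ = ‖((τ a) ^ q - a ^ q) + (τ (π * b) - π * b)‖ := congrArg _ hfin
  rw [hfin']
  exact (norm_add_le_max_L _ _).trans (max_le hA hB)

/-- The depth on `L^N` of an element of `J` is at most `‖π‖²`. -/
theorem depthOn_le_sq [FiniteDimensional ℚ_[p] L] (hW : WildData L J N) {π : L}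
    (hπ : IsUnifOf N π) {τ : L ≃ₐ[ℚ_[p]] L} (hτ : τ ∈ J) : H15.depthOn L N τ ≤ ‖π‖ ^ 2 :=
  H15.depthOn_le N τ fun _ ha1 hafix => wild_all hW hπ hτ hafix ha1

end Wild

end Fermat.Agent.S56.FL.H38

end

end
-- ==== END Fermat.Agent.S56.FL.H38_CC0a

-- ==== BEGIN Fermat.Agent.S56.FL.H50_PM
section

set_option autoImplicit false
set_option linter.unusedSectionVars false

/-!
# LOC-p-FL, package PM (helper50): Fontaine's lifting argument

`stmt_PM : Stmt_PM`.  `H` finite flat cocommutative over `ℤ_(p)`, all `K̄`-points killed by `p`,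
`L` the field generated by the points.  If `φ : 𝒪_L → 𝒪_F/𝔞_c` is a ring homomorphism
(`c^{p-1} < p^{-p}`, `F/ℚ_p` finite) then `L ⊆ F`:
every point `x` gives `φ ∘ x : H → 𝒪_F/𝔞_c`, which lifts (LIFT-c, helper54) to a point `Θ x` with
values in `𝒪_F`; `Θ` is injective (LIFT-a over `𝒪_L` and the valuation step), hence bijective as
the set of points is finite; so all points have values in `F`.
-/

noncomputable section

namespace Fermat.Agent.S56.FL.H50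

open scoped NNReal TensorProduct
open Fermat.Agent.S56.FL WithConv

variable {p : ℕ} [Fact p.Prime]

theorem lt_inv_p_of_radius {c : ℝ≥0} (hc : c ^ (p - 1) < ((p : ℝ≥0)⁻¹) ^ p) :
    c < (p : ℝ≥0)⁻¹ := by
  have hp : p.Prime := Fact.out
  have hpp : (0 : ℝ≥0) < (p : ℝ≥0) := p_pos_nn
  have h1 : ((p : ℝ≥0)⁻¹) ^ p ≤ ((p : ℝ≥0)⁻¹) ^ (p - 1) := by
    apply pow_le_pow_of_le_one bot_le
    · rw [inv_le_one₀ hpp]; exact_mod_cast hp.one_le
    · exact Nat.sub_le p 1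
  exact lt_of_pow_lt_pow_left₀ (p - 1) bot_le (hc.trans_le h1)

/-- The valuation step: if `φ a` vanishes modulo `𝔞_{pc}` then `‖a‖^{p-1} < p⁻¹`. -/
theorem nnnorm_pow_lt_of_forall_mem {L F : IntermediateField ℚ_[p] (PadicAlgCl p)} {c : ℝ≥0}
    (hc : c ^ (p - 1) < ((p : ℝ≥0)⁻¹) ^ p)
    (φ : intRing p L →+* (intRing p F ⧸ ballIdeal p F c)) (a : intRing p L)
    (ha : ∀ r : intRing p F, Ideal.Quotient.mk (ballIdeal p F c) r = φ a →
      r ∈ ballIdeal p F ((p : ℝ≥0) * c)) :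
    ‖(a : PadicAlgCl p)‖₊ ^ (p - 1) < (p : ℝ≥0)⁻¹ := by
  have hp : p.Prime := Fact.out
  have hpp : (0 : ℝ≥0) < (p : ℝ≥0) := p_pos_nn
  by_contra hcon
  have hge : (p : ℝ≥0)⁻¹ ≤ ‖(a : PadicAlgCl p)‖₊ ^ (p - 1) := not_lt.1 hcon
  have hpow0 : (0 : ℝ≥0) < ‖(a : PadicAlgCl p)‖₊ ^ (p - 1) :=
    lt_of_lt_of_le (inv_pos.2 hpp) hge
  have ha0 : ((a : PadicAlgCl p)) ^ (p - 1) ≠ 0 := by
    intro h0
    rw [← nnnorm_pow, h0, nnnorm_zero] at hpow0
    exact lt_irrefl _ hpow0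
  -- `w = p / a^{p-1}` is an integer of `L`
  set w : PadicAlgCl p := (p : PadicAlgCl p) / (a : PadicAlgCl p) ^ (p - 1) with hw
  have hwL : w ∈ L := L.div_mem (natCast_mem L p) (pow_mem a.2.1 _)
  have hwn : ‖w‖₊ ≤ 1 := by
    rw [hw, nnnorm_div, nnnorm_p, nnnorm_pow]
    exact div_le_one_of_le₀ hge bot_le
  let wL : intRing p L := ⟨w, hwL, hwn⟩
  have hmul : a ^ (p - 1) * wL = (p : intRing p L) := by
    apply Subtype.ext
    simp only [Subring.coe_mul, Subring.coe_pow, Subring.coe_natCast, wL]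
    rw [hw, mul_div_cancel₀ _ ha0]
  obtain ⟨r, hr⟩ := Ideal.Quotient.mk_surjective (φ a)
  obtain ⟨s, hs⟩ := Ideal.Quotient.mk_surjective (φ wL)
  have hr' : ‖(r : PadicAlgCl p)‖₊ ≤ (p : ℝ≥0) * c := by
    have := (mem_ballIdeal p).1 (ha r hr)
    exact_mod_cast this
  have hdiff : (p : intRing p F) - r ^ (p - 1) * s ∈ ballIdeal p F c := by
    rw [← Ideal.Quotient.eq]
    rw [map_mul, map_pow, hr, hs, ← map_pow, ← map_mul, hmul, map_natCast, map_natCast]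
  have hdiff' : ‖(p : PadicAlgCl p) - (r : PadicAlgCl p) ^ (p - 1) * (s : PadicAlgCl p)‖₊ ≤ c := by
    have := (mem_ballIdeal p).1 hdiff
    simp only [AddSubgroupClass.coe_sub, Subring.coe_natCast, Subring.coe_mul,
      Subring.coe_pow] at this
    exact_mod_cast this
  have hprod : ‖(r : PadicAlgCl p) ^ (p - 1) * (s : PadicAlgCl p)‖₊ ≤
      ((p : ℝ≥0) * c) ^ (p - 1) := by
    rw [nnnorm_mul, nnnorm_pow]
    calc ‖(r : PadicAlgCl p)‖₊ ^ (p - 1) * ‖(s : PadicAlgCl p)‖₊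
        ≤ ((p : ℝ≥0) * c) ^ (p - 1) * 1 :=
          mul_le_mul' (pow_le_pow_left₀ bot_le hr' _) s.2.2
      _ = ((p : ℝ≥0) * c) ^ (p - 1) := mul_one _
  have hsplit : (p : PadicAlgCl p) =
      ((p : PadicAlgCl p) - (r : PadicAlgCl p) ^ (p - 1) * (s : PadicAlgCl p)) +
        (r : PadicAlgCl p) ^ (p - 1) * (s : PadicAlgCl p) := by ring
  have hle : ‖(p : PadicAlgCl p)‖₊ ≤ max c (((p : ℝ≥0) * c) ^ (p - 1)) := by
    conv_lhs => rw [hsplit]
    exact (IsUltrametricDist.nnnorm_add_le_max _ _).trans (max_le_max hdiff' hprod)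
  rw [nnnorm_p] at hle
  exact absurd hle (not_le.2 (max_lt (lt_inv_p_of_radius hc) (H54.radius_pc hc)))

section Main

variable {H : Type} [CommRing H] [HopfAlgebra (Zloc p) H] [Module.Finite (Zloc p) H]
  [Module.Free (Zloc p) H] [Coalgebra.IsCocomm (Zloc p) H]

/-- A point killed by `p` all of whose values are congruent to the counit modulo elements `a` with
`‖a‖^{p-1} < p⁻¹` is trivial (LIFT-a over `𝒪_L`). -/
theorem point_eq_one_of_close (L : IntermediateField ℚ_[p] (PadicAlgCl p))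
    (y : WithConv (H →ₐ[Zloc p] intRing p L)) (hy : y ^ p = 1)
    (hval : ∀ h : H, ‖((y.ofConv h - algebraMap (Zloc p) (intRing p L) (Coalgebra.counit h) :
      intRing p L) : PadicAlgCl p)‖₊ ^ (p - 1) < (p : ℝ≥0)⁻¹) : y = 1 := by
  classical
  have hp : p.Prime := Fact.out
  haveI := H54.free_cv (p := p) (F := L) (H := H)
  haveI := H54.finite_cv (p := p) (F := L) (H := H)
  set u : WithConv (H →ₗ[Zloc p] intRing p L) := toConv y.ofConv.toLinearMap with hu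
  have hup : u ^ p = 1 := by
    rw [hu, ← AlgHom.toLinearMap_convPow, hy]
    rfl
  have hu1 : ∀ h : H, (u - 1).ofConv h =
      y.ofConv h - algebraMap (Zloc p) (intRing p L) (Coalgebra.counit h) := fun h => rfl
  set bH := Module.Free.chooseBasis (Zloc p) H with hbH
  set c' : ℝ≥0 := Finset.univ.sup fun i => ‖(((u - 1).ofConv (bH i) : intRing p L) :
    PadicAlgCl p)‖₊ with hc'
  have hc'lt : c' ^ (p - 1) < (p : ℝ≥0)⁻¹ := by
    rw [hc']
    refine Finset.sup_induction (p := fun v : ℝ≥0 => v ^ (p - 1) < (p : ℝ≥0)⁻¹) ?_ ?_ ?_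
    · have h1 : p - 1 ≠ 0 := Nat.sub_ne_zero_of_lt hp.one_lt
      show (⊥ : ℝ≥0) ^ (p - 1) < _
      rw [NNReal.bot_eq_zero, zero_pow h1]
      exact inv_pos.2 p_pos_nn
    · intro a ha b hb
      rcases le_total a b with hab | hab
      · rw [sup_eq_right.2 hab]; exact hb
      · rw [sup_eq_left.2 hab]; exact ha
    · intro i _
      rw [hu1]
      exact hval _
  have hmem : u - 1 ∈ Ideal.map (algebraMap (intRing p L) (WithConv (H →ₗ[Zloc p] intRing p L)))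
      (ballIdeal p L c') := by
    rw [H54.mem_map_iff]
    have hle : (⊤ : Submodule (Zloc p) H) ≤
        Submodule.comap (u - 1).ofConv ((ballIdeal p L c').restrictScalars (Zloc p)) := by
      rw [← bH.span_eq, Submodule.span_le]
      rintro _ ⟨i, rfl⟩
      show (u - 1).ofConv (bH i) ∈ ballIdeal p L c'
      rw [mem_ballIdeal]
      have : ‖(((u - 1).ofConv (bH i) : intRing p L) : PadicAlgCl p)‖₊ ≤ c' :=
        Finset.le_sup (f := fun i => ‖(((u - 1).ofConv (bH i) : intRing p L) :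
          PadicAlgCl p)‖₊) (Finset.mem_univ i)
      exact_mod_cast this
    intro d
    exact hle (Submodule.mem_top (x := d))
  have hu_one : u = 1 := stmt_LIFT_a p L _ c' hc'lt u hup hmem
  apply WithConv.ofConv_injective
  apply AlgHom.toLinearMap_injective
  exact WithConv.toConv_injective hu_one

/-- The core of PM, for `H` free. -/
theorem pm_core (hkill : ∀ x : WithConv (H →ₐ[Zloc p] PadicAlgCl p), x ^ p = 1) :
    HasPM p (pointField p H) := by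
  classical
  intro c _ hc F hF ⟨φ⟩
  haveI := hF
  have hp : p.Prime := Fact.out
  set L := pointField p H with hL
  set φa : intRing p L →ₐ[Zloc p] (intRing p F ⧸ ballIdeal p F c) := algOfRingHom φ with hφa
  -- points with values in `𝒪_L`
  set PI : WithConv (H →ₐ[Zloc p] PadicAlgCl p) → WithConv (H →ₐ[Zloc p] intRing p L) :=
    fun x => toConv (pointInt x.ofConv) with hPIdef
  have hPI : ∀ x, postAlg (H54.inclAlg L) (PI x) = x := fun x => by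
    apply WithConv.ofConv_injective
    exact inclAlg_comp_pointInt x.ofConv
  have hinjL := postAlg_injective (H := H) (H54.inclAlg L) (H54.inclAlg_injective L)
  have hinjF := postAlg_injective (H := H) (H54.inclAlg F) (H54.inclAlg_injective F)
  have hPImul : ∀ x y, PI (x * y) = PI x * PI y := fun x y => by
    apply hinjL; rw [map_mul, hPI, hPI, hPI]
  have hPIone : PI 1 = 1 := by apply hinjL; rw [map_one, hPI]
  have hPIpow : ∀ x (n : ℕ), PI (x ^ n) = PI x ^ n := by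
    intro x n
    induction n with
    | zero => rw [pow_zero, pow_zero, hPIone]
    | succ n ih => rw [pow_succ, pow_succ, hPImul, ih]
  -- the reductions
  set G : WithConv (H →ₐ[Zloc p] PadicAlgCl p) →
      WithConv (H →ₐ[Zloc p] (intRing p F ⧸ ballIdeal p F c)) := fun x => postAlg φa (PI x)
    with hGdef
  have hG : ∀ x, G x ^ p = 1 := fun x => by
    have h1 : postAlg φa (PI x ^ p) = postAlg φa (PI x) ^ p := map_pow (postAlg φa) (PI x) p
    have h2 : PI x ^ p = 1 := by rw [← hPIpow, hkill, hPIone]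
    rw [h2, map_one] at h1
    exact h1.symm
  -- lifting (LIFT-c)
  have hlift : ∀ x : WithConv (H →ₐ[Zloc p] PadicAlgCl p), ∃ x' : H →ₐ[Zloc p] intRing p F,
      ∀ (h : H) (r : intRing p F), Ideal.Quotient.mk (ballIdeal p F c) r = (G x).ofConv h →
        x' h - r ∈ ballIdeal p F ((p : ℝ≥0) * c) := fun x =>
    H54.lift_c c hc (G x).ofConv (hG x)
  choose X' hX' using hlift
  set Θ : WithConv (H →ₐ[Zloc p] PadicAlgCl p) → WithConv (H →ₐ[Zloc p] PadicAlgCl p) :=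
    fun x => postAlg (H54.inclAlg F) (toConv (X' x)) with hΘdef
  have hII' : ballIdeal p F c ≤ ballIdeal p F ((p : ℝ≥0) * c) :=
    H54.ballIdeal_mono (H54.le_p_mul c)
  set q : (intRing p F ⧸ ballIdeal p F c) →ₐ[Zloc p]
      (intRing p F ⧸ ballIdeal p F ((p : ℝ≥0) * c)) := Ideal.Quotient.factorₐ (Zloc p) hII'
    with hq
  set m' : intRing p F →ₐ[Zloc p] (intRing p F ⧸ ballIdeal p F ((p : ℝ≥0) * c)) :=
    Ideal.Quotient.mkₐ (Zloc p) _ with hm'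
  have hqG : ∀ x, postAlg q (G x) = postAlg m' (toConv (X' x)) := by
    intro x
    apply WithConv.ofConv_injective
    apply AlgHom.ext
    intro h
    obtain ⟨r, hr⟩ := Ideal.Quotient.mk_surjective ((G x).ofConv h)
    have h1 := hX' x h r hr
    show q ((G x).ofConv h) = m' (X' x h)
    rw [← hr]
    show Ideal.Quotient.mk (ballIdeal p F ((p : ℝ≥0) * c)) r =
      Ideal.Quotient.mk (ballIdeal p F ((p : ℝ≥0) * c)) (X' x h)
    exact (Ideal.Quotient.eq.2 h1).symm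
  have hΘinj : Function.Injective Θ := by
    intro x₁ x₂ h12
    have hy : (toConv (X' x₁) : WithConv (H →ₐ[Zloc p] intRing p F)) = toConv (X' x₂) :=
      hinjF h12
    have hYp : (toConv (X' x₁) : WithConv (H →ₐ[Zloc p] intRing p F)) ^ p = 1 := by
      apply hinjF
      have h1 : postAlg (H54.inclAlg F)
          ((toConv (X' x₁) : WithConv (H →ₐ[Zloc p] intRing p F)) ^ p) =
          postAlg (H54.inclAlg F) (toConv (X' x₁)) ^ p :=
        map_pow (postAlg (H54.inclAlg F)) (toConv (X' x₁)) p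
      rw [h1, map_one]
      exact hkill _
    set x := x₁ * x₂ ^ (p - 1) with hx
    have hGx : postAlg q (G x) = 1 := by
      have h0 : postAlg φa (PI x₂ ^ (p - 1)) = postAlg φa (PI x₂) ^ (p - 1) :=
        map_pow (postAlg φa) (PI x₂) (p - 1)
      have h1 : G x = G x₁ * G x₂ ^ (p - 1) := by
        simp only [hGdef]
        rw [hx, hPImul, hPIpow, map_mul, h0]
      have h2 : postAlg q (G x₂ ^ (p - 1)) = postAlg q (G x₂) ^ (p - 1) :=
        map_pow (postAlg q) (G x₂) (p - 1)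
      have h3 : postAlg m' ((toConv (X' x₁) : WithConv (H →ₐ[Zloc p] intRing p F)) ^ p) =
          postAlg m' (toConv (X' x₁)) ^ p := map_pow (postAlg m') (toConv (X' x₁)) p
      have h4 : postAlg m' (toConv (X' x₁)) * postAlg m' (toConv (X' x₁)) ^ (p - 1) =
          postAlg m' (toConv (X' x₁)) ^ p := by
        have h5 := pow_succ' (postAlg m' (toConv (X' x₁))) (p - 1)
        rw [Nat.sub_add_cancel hp.one_le] at h5
        exact h5.symm
      rw [h1, map_mul, h2, hqG x₁, hqG x₂, ← hy, h4, ← h3, hYp, map_one]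
    have hx1 : x = 1 := by
      have hPIx : PI x = 1 := by
        apply point_eq_one_of_close L (PI x)
        · rw [← hPIpow, hkill, hPIone]
        · intro h
          apply nnnorm_pow_lt_of_forall_mem hc φ
          intro r hr
          have h1 := congrArg (fun z => z.ofConv h) hGx
          have h2 : q (φ (pointInt x.ofConv h)) =
              algebraMap (Zloc p) _ (Coalgebra.counit h) := h1
          have h3 : q (Ideal.Quotient.mk (ballIdeal p F c) r) = 0 := by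
            rw [hr]
            have h4 : φ (algebraMap (Zloc p) (intRing p L) (Coalgebra.counit h)) =
                algebraMap (Zloc p) _ (Coalgebra.counit h) := φa.commutes _
            have h5 : (PI x).ofConv h = pointInt x.ofConv h := rfl
            rw [h5, map_sub, map_sub, h2, h4, AlgHom.commutes, sub_self]
          exact Ideal.Quotient.eq_zero_iff_mem.1 h3
      rw [← hPI x, hPIx, map_one]
    have h6 : x₂ ^ (p - 1) * x₂ = x₂ ^ p := by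
      have h5 := pow_succ x₂ (p - 1)
      rw [Nat.sub_add_cancel hp.one_le] at h5
      exact h5.symm
    calc x₁ = x₁ * x₂ ^ p := by rw [hkill, mul_one]
      _ = x₁ * x₂ ^ (p - 1) * x₂ := by rw [mul_assoc, h6]
      _ = x₂ := by rw [← hx, hx1, one_mul]
  -- counting
  haveI hfin : Finite (WithConv (H →ₐ[Zloc p] PadicAlgCl p)) :=
    Finite.of_equiv (H →ₐ[Zloc p] PadicAlgCl p) (WithConv.equiv _).symm
  have hΘsurj : Function.Surjective Θ := Finite.surjective_of_injective hΘinj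
  -- conclusion
  rw [hL]
  unfold pointField
  rw [IntermediateField.adjoin_le_iff]
  rintro y ⟨x, h, rfl⟩
  obtain ⟨x₀, hx₀⟩ := hΘsurj (toConv x)
  have h1 : x h = ((X' x₀ h : intRing p F) : PadicAlgCl p) := by
    have := congrArg (fun z => z.ofConv h) hx₀
    exact this.symm
  rw [h1]
  exact (X' x₀ h).2.1

end Main

/-- **PM** (Fontaine's lifting argument). -/
theorem stmt_PM : Stmt_PM := by
  intro p _ _ H _ _ _ _ _ hkill
  haveI : Module.Free (Zloc p) H := Module.free_of_flat_of_isLocalRing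
  exact pm_core hkill

end Fermat.Agent.S56.FL.H50

end

end
-- ==== END Fermat.Agent.S56.FL.H50_PM

-- ==== BEGIN Fermat.Agent.S56.FL.H54_BridgePts
section

/-!
# LOC-p-FL, package BRIDGE (helper54): `K̄`-points = `ℚ̄`-points

For a finite `ℤ_(p)`-algebra `H` the `K̄`-points of `H` are the `ℚ̄`-points, through the embedding
`padicEmbedding p : ℚ̄ → K̄`, compatibly with the convolution products and with the Galois actions
(`localGaloisToGlobal p : G_p → G_ℚ`).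

* `embZ p` : the embedding as a homomorphism of `ℤ_(p)`-algebras;
* `toLoc` : post-composition with it, a monoid homomorphism; `toLoc_bijective`;
* `globConj τ f` : the conjugate `τ ∘ f` of a `ℚ̄`-point; `toLoc_globConj`;
* `exists_local_model` : a flat Galois module is the group of `K̄`-points of a finite flat
  cocommutative Hopf algebra over `ℤ_(p)`, with `G_p` acting through `localGaloisToGlobal`.
-/

set_option autoImplicit false
set_option linter.unusedSectionVars false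
set_option linter.style.haveILetI false

noncomputable section

namespace Fermat.Agent.S56.FL.H54

open scoped NNReal TensorProduct
open Fermat.Agent.S56.FL WithConv Polynomial

variable {p : ℕ} [Fact p.Prime]

/-- The embedding `ℚ̄ → K̄` as a homomorphism of `ℤ_(p)`-algebras. -/
def embZ (p : ℕ) [Fact p.Prime] : AlgebraicClosure ℚ →ₐ[Zloc p] PadicAlgCl p :=
  { (padicEmbedding p).toRingHom with
    commutes' := fun r => (padicEmbedding p).commutes (r : ℚ) }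

@[simp] theorem embZ_apply (x : AlgebraicClosure ℚ) : embZ p x = padicEmbedding p x := rfl

theorem embZ_injective : Function.Injective (embZ p) := (padicEmbedding p).toRingHom.injective

/-- An element of `K̄` which is algebraic over `ℚ` is in the image of `ℚ̄`. -/
theorem mem_range_padicEmbedding (y : PadicAlgCl p) (hy : IsIntegral ℚ y) :
    ∃ a : AlgebraicClosure ℚ, padicEmbedding p a = y := by
  have hsplit : ((minpoly ℚ y).map (algebraMap ℚ (AlgebraicClosure ℚ))).Splits :=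
    IsAlgClosed.splits _
  have hroot : y ∈ (((minpoly ℚ y).map (algebraMap ℚ (AlgebraicClosure ℚ))).map
      (padicEmbedding p).toRingHom).roots := by
    rw [Polynomial.mem_roots']
    constructor
    · rw [Polynomial.map_map]
      exact Polynomial.map_ne_zero (minpoly.ne_zero hy)
    · rw [Polynomial.map_map, Polynomial.IsRoot.def, Polynomial.eval_map]
      have : (padicEmbedding p).toRingHom.comp (algebraMap ℚ (AlgebraicClosure ℚ)) =
          algebraMap ℚ (PadicAlgCl p) := by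
        ext r
        exact (padicEmbedding p).commutes r
      rw [this, ← Polynomial.aeval_def]
      exact minpoly.aeval ℚ y
  rw [hsplit.roots_map, Multiset.mem_map] at hroot
  obtain ⟨a, -, ha⟩ := hroot
  exact ⟨a, ha⟩

variable {H : Type} [CommRing H] [HopfAlgebra (Zloc p) H]

/-- Post-composition with the embedding `ℚ̄ → K̄`. -/
def toLoc : WithConv (H →ₐ[Zloc p] AlgebraicClosure ℚ) →*
    WithConv (H →ₐ[Zloc p] PadicAlgCl p) :=
  H50.postAlg (embZ p)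

@[simp] theorem toLoc_apply (f : WithConv (H →ₐ[Zloc p] AlgebraicClosure ℚ)) (h : H) :
    (toLoc f).ofConv h = padicEmbedding p (f.ofConv h) := rfl

theorem toLoc_injective :
    Function.Injective (toLoc : WithConv (H →ₐ[Zloc p] AlgebraicClosure ℚ) → _) :=
  H50.postAlg_injective _ embZ_injective

theorem isIntegral_point [Module.Finite (Zloc p) H] (x : H →ₐ[Zloc p] PadicAlgCl p) (h : H) :
    IsIntegral ℚ (x h) := by
  have h1 : IsIntegral (Zloc p) h := Algebra.IsIntegral.isIntegral h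
  have h2 : IsIntegral (Zloc p) (x h) := h1.map x
  exact h2.tower_top

theorem toLoc_surjective [Module.Finite (Zloc p) H] :
    Function.Surjective (toLoc : WithConv (H →ₐ[Zloc p] AlgebraicClosure ℚ) → _) := by
  intro x
  have hx : ∀ h : H, x.ofConv h ∈ (embZ p).range := by
    intro h
    obtain ⟨a, ha⟩ := mem_range_padicEmbedding (x.ofConv h) (isIntegral_point x.ofConv h)
    exact ⟨a, ha⟩
  let e := AlgEquiv.ofInjective (embZ p) embZ_injective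
  refine ⟨toConv ((e.symm : (embZ p).range →ₐ[Zloc p] AlgebraicClosure ℚ).comp
    (x.ofConv.codRestrict (embZ p).range hx)), ?_⟩
  apply WithConv.ofConv_injective
  apply AlgHom.ext
  intro h
  show embZ p (e.symm (x.ofConv.codRestrict (embZ p).range hx h)) = x.ofConv h
  have h1 : embZ p (e.symm (x.ofConv.codRestrict (embZ p).range hx h)) =
      ((e (e.symm (x.ofConv.codRestrict (embZ p).range hx h)) : (embZ p).range) :
        PadicAlgCl p) := rfl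
  rw [h1, AlgEquiv.apply_symm_apply]
  rfl

theorem toLoc_bijective [Module.Finite (Zloc p) H] :
    Function.Bijective (toLoc : WithConv (H →ₐ[Zloc p] AlgebraicClosure ℚ) → _) :=
  ⟨toLoc_injective, toLoc_surjective⟩

/-- The conjugate `τ ∘ f` of a `ℚ̄`-point. -/
def globConj (τ : AlgebraicClosure ℚ ≃ₐ[ℚ] AlgebraicClosure ℚ)
    (f : WithConv (H →ₐ[Zloc p] AlgebraicClosure ℚ)) :
    WithConv (H →ₐ[Zloc p] AlgebraicClosure ℚ) :=
  toConv (((τ : AlgebraicClosure ℚ →ₐ[ℚ] AlgebraicClosure ℚ).restrictScalars (Zloc p)).comp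
    f.ofConv)

@[simp] theorem globConj_apply (τ : AlgebraicClosure ℚ ≃ₐ[ℚ] AlgebraicClosure ℚ)
    (f : WithConv (H →ₐ[Zloc p] AlgebraicClosure ℚ)) (h : H) :
    (globConj τ f).ofConv h = τ (f.ofConv h) := rfl

theorem toLoc_globConj (σ : Gp p) (f : WithConv (H →ₐ[Zloc p] AlgebraicClosure ℚ)) :
    toLoc (globConj (localGaloisToGlobal p σ) f) = pointAct σ (toLoc f) := by
  apply WithConv.ofConv_injective
  apply AlgHom.ext
  intro h
  show padicEmbedding p (localGaloisToGlobal p σ (f.ofConv h)) = σ (padicEmbedding p (f.ofConv h))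
  exact padicEmbedding_localGaloisToGlobal p σ _

/-- The bijection between `ℚ̄`-points and `K̄`-points. -/
def locEquiv [Module.Finite (Zloc p) H] :
    WithConv (H →ₐ[Zloc p] AlgebraicClosure ℚ) ≃ WithConv (H →ₐ[Zloc p] PadicAlgCl p) :=
  Equiv.ofBijective _ toLoc_bijective

@[simp] theorem locEquiv_apply [Module.Finite (Zloc p) H]
    (f : WithConv (H →ₐ[Zloc p] AlgebraicClosure ℚ)) : locEquiv f = toLoc f := rfl

/-- **The local model of a flat Galois module**: a flat `G_ℚ`-module is the group of `K̄`-points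
of a finite flat cocommutative Hopf algebra over `ℤ_(p)`, with `G_p` acting through
`localGaloisToGlobal`. -/
theorem exists_local_model {M : Type} [AddCommGroup M]
    {act : (AlgebraicClosure ℚ ≃ₐ[ℚ] AlgebraicClosure ℚ) → M → M}
    (hM : Fermat.Agent.R.IsFlatGaloisModule p M act) :
    ∃ (H : Type) (_ : CommRing H) (_ : HopfAlgebra (Zloc p) H),
      Module.Finite (Zloc p) H ∧ Module.Flat (Zloc p) H ∧ Coalgebra.IsCocomm (Zloc p) H ∧
      ∃ e : WithConv (H →ₐ[Zloc p] PadicAlgCl p) ≃ M,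
        (∀ x y : WithConv (H →ₐ[Zloc p] PadicAlgCl p), e (x * y) = e x + e y) ∧
        ∀ (σ : Gp p) (x : WithConv (H →ₐ[Zloc p] PadicAlgCl p)),
          e (pointAct σ x) = act (localGaloisToGlobal p σ) (e x) := by
  obtain ⟨H, i1, i2, hfin, hflat, hcoc, e, hmul, hact⟩ := hM
  refine ⟨H, i1, i2, hfin, hflat, hcoc, locEquiv.symm.trans e, ?_, ?_⟩
  · intro x y
    obtain ⟨f, rfl⟩ := toLoc_surjective x
    obtain ⟨g, rfl⟩ := toLoc_surjective y
    have h1 : locEquiv.symm (toLoc f * toLoc g) = f * g := by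
      rw [← map_mul]
      exact locEquiv.symm_apply_apply (f * g)
    have h2 : locEquiv.symm (toLoc f) = f := locEquiv.symm_apply_apply f
    have h3 : locEquiv.symm (toLoc g) = g := locEquiv.symm_apply_apply g
    show e (locEquiv.symm (toLoc f * toLoc g)) =
      e (locEquiv.symm (toLoc f)) + e (locEquiv.symm (toLoc g))
    rw [h1, h2, h3, hmul]
  · intro σ x
    obtain ⟨f, rfl⟩ := toLoc_surjective x
    have h2 : locEquiv.symm (toLoc f) = f := locEquiv.symm_apply_apply f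
    have h1 : locEquiv.symm (pointAct σ (toLoc f)) = globConj (localGaloisToGlobal p σ) f := by
      rw [← toLoc_globConj]
      exact locEquiv.symm_apply_apply _
    show e (locEquiv.symm (pointAct σ (toLoc f))) =
      act (localGaloisToGlobal p σ) (e (locEquiv.symm (toLoc f)))
    rw [h1, h2]
    exact hact (localGaloisToGlobal p σ) f _ (fun h => rfl)

end Fermat.Agent.S56.FL.H54

end

end
-- ==== END Fermat.Agent.S56.FL.H54_BridgePts

-- ==== BEGIN Fermat.Agent.S56.FL.H54_ConnBase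
section

/-!
# LOC-p-FL, package CONN (helper54): the triple `(ℤ_p, K̄, G_p)`

* `algZlocPadicInt` : `ℤ_p` as a `ℤ_(p)`-algebra, with the scalar tower to `K̄`;
* `descentData_padic` : `DescentData ℤ_p K̄ G_p` (fixed points of `G_p` are in `ℚ_p`);
* `algPadicIntIntRing` : `𝒪_F` as a `ℤ_p`-algebra, `inclAlgP` the inclusion into `K̄`.
-/

set_option autoImplicit false
set_option linter.unusedSectionVars false
set_option linter.style.haveILetI false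

noncomputable section

namespace Fermat.Agent.S56.FL.H54

open scoped NNReal TensorProduct
open Fermat.Agent.S56.FL Fermat.Agent.R.H54

variable {p : ℕ} [Fact p.Prime]

theorem norm_zloc_le_one (r : Zloc p) : ‖((r : ℚ) : ℚ_[p])‖ ≤ 1 := by
  apply Padic.norm_rat_le_one
  have h : (r : ℚ).den.Coprime p := r.2
  intro hdvd
  have h2 := Nat.Coprime.eq_one_of_dvd h.symm hdvd
  exact (Fact.out : p.Prime).one_lt.ne' h2

/-- The structure map `ℤ_(p) → ℤ_p`. -/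
def zlocToPadicInt : Zloc p →+* ℤ_[p] where
  toFun r := ⟨((r : ℚ) : ℚ_[p]), norm_zloc_le_one r⟩
  map_one' := by
    apply Subtype.ext
    simp
  map_mul' a b := by
    apply Subtype.ext
    show (((a * b : Zloc p) : ℚ) : ℚ_[p]) = ((a : ℚ) : ℚ_[p]) * ((b : ℚ) : ℚ_[p])
    rw [Subring.coe_mul, Rat.cast_mul]
  map_zero' := by
    apply Subtype.ext
    simp
  map_add' a b := by
    apply Subtype.ext
    show (((a + b : Zloc p) : ℚ) : ℚ_[p]) = ((a : ℚ) : ℚ_[p]) + ((b : ℚ) : ℚ_[p])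
    rw [Subring.coe_add, Rat.cast_add]

/-- `ℤ_p` as a `ℤ_(p)`-algebra. -/
instance algZlocPadicInt : Algebra (Zloc p) ℤ_[p] := (zlocToPadicInt (p := p)).toAlgebra

theorem coe_algebraMap_zloc_padicInt (r : Zloc p) :
    ((algebraMap (Zloc p) ℤ_[p] r : ℤ_[p]) : ℚ_[p]) = ((r : ℚ) : ℚ_[p]) := rfl

theorem algebraMap_padicInt_eq (z : ℤ_[p]) :
    algebraMap ℤ_[p] (PadicAlgCl p) z = algebraMap ℚ_[p] (PadicAlgCl p) (z : ℚ_[p]) := rfl

instance towerZlocPadicInt : IsScalarTower (Zloc p) ℤ_[p] (PadicAlgCl p) :=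
  IsScalarTower.of_algebraMap_eq (fun r => by
    rw [algebraMap_zloc_eq, algebraMap_padicInt_eq, coe_algebraMap_zloc_padicInt])

theorem norm_algebraMap_padicInt_le_one (z : ℤ_[p]) :
    ‖algebraMap ℤ_[p] (PadicAlgCl p) z‖ ≤ 1 := by
  rw [algebraMap_padicInt_eq, PadicAlgCl.norm_extends]
  exact z.2

/-- The descent data of the triple `(ℤ_p, K̄, G_p)`. -/
theorem descentData_padic : DescentData ℤ_[p] (PadicAlgCl p) (Gp p) := by
  refine ⟨?_, ?_, ?_⟩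
  · intro a b hab
    rw [algebraMap_padicInt_eq, algebraMap_padicInt_eq] at hab
    exact Subtype.ext ((algebraMap ℚ_[p] (PadicAlgCl p)).injective hab)
  · intro σ r
    rw [algebraMap_padicInt_eq]
    exact σ.commutes _
  · intro x hx
    haveI : Algebra.IsAlgebraic ℚ_[p] (PadicAlgCl p) := AlgebraicClosure.isAlgebraic ℚ_[p]
    haveI : IsAlgClosure ℚ_[p] (PadicAlgCl p) := ⟨inferInstance, inferInstance⟩
    haveI : IsGalois ℚ_[p] (PadicAlgCl p) := inferInstance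
    have hbot : x ∈ (⊥ : IntermediateField ℚ_[p] (PadicAlgCl p)) :=
      (InfiniteGalois.mem_bot_iff_fixed x).mpr hx
    obtain ⟨q, rfl⟩ := IntermediateField.mem_bot.mp hbot
    obtain ⟨a, d, hd, hq⟩ := IsFractionRing.div_surjective ℤ_[p] q
    have hd0 : d ≠ 0 := nonZeroDivisors.ne_zero hd
    have hd0' : algebraMap ℤ_[p] ℚ_[p] d ≠ 0 := by
      intro h
      apply hd0
      exact (IsFractionRing.injective ℤ_[p] ℚ_[p]) (by rw [h, map_zero])
    refine ⟨a, d, hd0, ?_⟩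
    rw [algebraMap_padicInt_eq, algebraMap_padicInt_eq, ← map_mul]
    congr 1
    rw [← hq]
    show algebraMap ℤ_[p] ℚ_[p] d * (algebraMap ℤ_[p] ℚ_[p] a / algebraMap ℤ_[p] ℚ_[p] d) =
      algebraMap ℤ_[p] ℚ_[p] a
    field_simp

variable (F : IntermediateField ℚ_[p] (PadicAlgCl p))

/-- The structure map `ℤ_p → 𝒪_F`. -/
def padicIntToInt : ℤ_[p] →+* intRing p F where
  toFun z := ⟨algebraMap ℤ_[p] (PadicAlgCl p) z, F.algebraMap_mem _,
    norm_algebraMap_padicInt_le_one z⟩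
  map_one' := Subtype.ext (map_one _)
  map_mul' a b := Subtype.ext (map_mul _ a b)
  map_zero' := Subtype.ext (map_zero _)
  map_add' a b := Subtype.ext (map_add _ a b)

/-- `𝒪_F` as a `ℤ_p`-algebra. -/
instance algPadicIntIntRing : Algebra ℤ_[p] (intRing p F) := (padicIntToInt F).toAlgebra

@[simp] theorem coe_algebraMap_padicInt (z : ℤ_[p]) :
    ((algebraMap ℤ_[p] (intRing p F) z : intRing p F) : PadicAlgCl p) =
      algebraMap ℤ_[p] (PadicAlgCl p) z := rfl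

/-- The inclusion `𝒪_F → K̄` as a homomorphism of `ℤ_p`-algebras. -/
def inclAlgP : intRing p F →ₐ[ℤ_[p]] PadicAlgCl p where
  toRingHom := (intRing p F).subtype
  commutes' _ := rfl

@[simp] theorem inclAlgP_apply (a : intRing p F) : inclAlgP F a = (a : PadicAlgCl p) := rfl

theorem inclAlgP_injective : Function.Injective (inclAlgP F) := Subtype.val_injective

/-- The values of an algebra homomorphism from a finite `ℤ_p`-algebra are integral. -/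
theorem norm_pointP_le_one {A : Type} [CommRing A] [Algebra ℤ_[p] A] [Module.Finite ℤ_[p] A]
    (x : A →ₐ[ℤ_[p]] PadicAlgCl p) (a : A) : ‖x a‖ ≤ 1 := by
  have hint : IsIntegral ℤ_[p] a := Algebra.IsIntegral.isIntegral a
  obtain ⟨P, hP, hPh⟩ := hint
  refine norm_le_one_of_monic (x a) (P.map (algebraMap ℤ_[p] (PadicAlgCl p)))
    (hP.map _) (fun i => ?_) ?_
  · rw [Polynomial.coeff_map]
    exact norm_algebraMap_padicInt_le_one _
  · rw [Polynomial.eval_map, ← Polynomial.aeval_def, Polynomial.aeval_algHom_apply,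
      Polynomial.aeval_def, hPh, map_zero]

end Fermat.Agent.S56.FL.H54

end

end
-- ==== END Fermat.Agent.S56.FL.H54_ConnBase
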