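-- GENERATED (merged mirror, NOTES/tools/trim/merge3_helper67.py): 8 modules of the originals, bodies verbatim.
import Mathlib
import Fermat.Agent.Zm.S56_L06_004
import Fermat.Agent.Zm.S56_L01_000
import Fermat.Agent.Zm.S56_L06_003
import Fermat.Agent.Zm.S56_L03_001
import Fermat.Agent.Zm.S56_L01_001
import Fermat.Agent.Zm.S56_L02_005
import Fermat.Agent.Zm.S56_L05_005

-- ==== BEGIN Fermat.Agent.S56.FL.H59_CC3Kum
section

set_option autoImplicit false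
set_option linter.style.haveILetI false
set_option linter.unusedSectionVars false

/-!
# LOC-p-FL, package UNITS / CC3z (helper59): Kummer witnesses

`H` a subgroup of `G = Gal(K̄/ℚ_p)`, `ψ : G → ℤ/p` (only the values on `H` matter), `ζ` a
primitive `p`-th root of unity.  `KW ζ H ψ a`: there is `γ ≠ 0` with `γ ^ p = a` and
`h γ = ζ ^ ψ(h) · γ` for `h ∈ H`.

* `exists_KW`   : existence (Lagrange resolvent) for additive `ψ` trivial on `Gal(K̄/L)`.
* `KW.mul_pow`  : change of `a` by a `p`-th power of an `H`-fixed element.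
* `KW.twist`    : `KW ψ a → KW (ω(g) ψ(g⁻¹ · g) - n ψ) (g a / a ^ n)`.
* `KW.eq_zero`  : `KW ψ (z ^ p)` with `z` fixed by `H` forces `ψ = 0` on `H`.
-/

noncomputable section

namespace Fermat.Agent.S56.FL.H59

open Fermat.Agent.S56.FL Fermat.Agent.Lib.LocalKummer Fermat.Agent.S56.FL.H85

variable {p : ℕ} [Fact p.Prime]

theorem zpowZ_pow_nat {ζ : PadicAlgCl p} (hζ : ζ ^ p = 1) (x : ZMod p) (n : ℕ) :
    zpowZ ζ x ^ n = zpowZ ζ ((n : ZMod p) * x) := by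
  induction n with
  | zero => rw [pow_zero, Nat.cast_zero, zero_mul, zpowZ_zero]
  | succ n ih =>
    rw [pow_succ, ih, ← zpowZ_add hζ, Nat.cast_succ, add_mul, one_mul]

theorem zpowZ_sub {ζ : PadicAlgCl p} (hζ : ζ ^ p = 1) (x y : ZMod p) :
    zpowZ ζ (x - y) = zpowZ ζ x / zpowZ ζ y := by
  rw [eq_div_iff (zpowZ_ne_zero hζ y), ← zpowZ_add hζ, sub_add_cancel]

/-- `a` is a Kummer witness of `ψ` on `H`. -/
def KW (ζ : PadicAlgCl p) (H : Subgroup (Gp p)) (ψ : Gp p → ZMod p) (a : PadicAlgCl p) : Prop :=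
  ∃ γ : PadicAlgCl p, γ ≠ 0 ∧ γ ^ p = a ∧ ∀ h ∈ H, h γ = zpowZ ζ (ψ h) * γ

namespace KW

variable {ζ : PadicAlgCl p} {H : Subgroup (Gp p)} {ψ ψ' : Gp p → ZMod p} {a : PadicAlgCl p}

theorem congr (h : ∀ σ ∈ H, ψ σ = ψ' σ) (hk : KW ζ H ψ a) : KW ζ H ψ' a := by
  obtain ⟨γ, h0, hp, hγ⟩ := hk
  exact ⟨γ, h0, hp, fun σ hσ => by rw [← h σ hσ]; exact hγ σ hσ⟩

theorem ne_zero (hk : KW ζ H ψ a) : a ≠ 0 := by
  obtain ⟨γ, h0, rfl, -⟩ := hk
  exact pow_ne_zero _ h0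

theorem fixed (hζ : ζ ^ p = 1) (hk : KW ζ H ψ a) : ∀ h ∈ H, h a = a := by
  obtain ⟨γ, h0, rfl, hγ⟩ := hk
  intro h hh
  rw [map_pow, hγ h hh, _root_.mul_pow, zpowZ_pow ζ hζ, one_mul]

theorem mul_pow {b : PadicAlgCl p} (hb0 : b ≠ 0) (hb : ∀ h ∈ H, h b = b) (hk : KW ζ H ψ a) :
    KW ζ H ψ (a * b ^ p) := by
  obtain ⟨γ, h0, rfl, hγ⟩ := hk
  refine ⟨γ * b, mul_ne_zero h0 hb0, _root_.mul_pow _ _ _, fun h hh => ?_⟩
  rw [map_mul, hγ h hh, hb h hh, mul_assoc]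

theorem twist (hζ : IsPrimitiveRoot ζ p) (g : Gp p) (hg : ∀ h ∈ H, g⁻¹ * h * g ∈ H) (n : ℕ)
    (hk : KW ζ H ψ a) :
    KW ζ H (fun h => ((omg hζ g : (ZMod p)ˣ) : ZMod p) * ψ (g⁻¹ * h * g) - (n : ZMod p) * ψ h)
      (g a / a ^ n) := by
  obtain ⟨γ, h0, rfl, hγ⟩ := hk
  have hg0 : g γ ≠ 0 := by
    intro h
    exact h0 ((map_eq_zero_iff g g.injective).1 h)
  refine ⟨g γ / γ ^ n, div_ne_zero hg0 (pow_ne_zero _ h0), ?_, fun h hh => ?_⟩
  · rw [div_pow, ← map_pow, ← pow_mul, ← pow_mul, mul_comm n p]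
  · have h1 : h (g γ) = g ((g⁻¹ * h * g) γ) := by
      simp only [AlgEquiv.mul_apply]
      have : g (g⁻¹ (h (g γ))) = h (g γ) := by
        rw [← AlgEquiv.mul_apply, mul_inv_cancel, AlgEquiv.one_apply]
      exact this.symm
    rw [map_div₀, map_pow, hγ h hh, h1, hγ _ (hg h hh), map_mul, omg_zpowZ hζ,
      _root_.mul_pow, zpowZ_pow_nat hζ.pow_eq_one, zpowZ_sub hζ.pow_eq_one]
    have hz : zpowZ ζ ((n : ZMod p) * ψ h) ≠ 0 := zpowZ_ne_zero hζ.pow_eq_one _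
    have hγn : γ ^ n ≠ 0 := pow_ne_zero _ h0
    field_simp

theorem eq_zero (hζ : IsPrimitiveRoot ζ p) (hHζ : ∀ h ∈ H, h ζ = ζ) {z : PadicAlgCl p}
    (hz : ∀ h ∈ H, h z = z) (hk : KW ζ H ψ (z ^ p)) : ∀ h ∈ H, ψ h = 0 := by
  have hp : p.Prime := Fact.out
  obtain ⟨γ, h0, hγp, hγ⟩ := hk
  have hz0 : z ≠ 0 := by
    rintro rfl
    rw [zero_pow hp.ne_zero] at hγp
    exact h0 (pow_eq_zero_iff hp.ne_zero |>.1 hγp)
  have h1 : (γ / z) ^ p = 1 := by
    rw [div_pow, hγp, div_self (pow_ne_zero _ hz0)]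
  obtain ⟨i, -, hi⟩ := hζ.eq_pow_of_pow_eq_one h1
  have hγz : γ = ζ ^ i * z := by
    rw [hi]
    field_simp
  intro h hh
  have h2 : h γ = γ := by
    rw [hγz, map_mul, map_pow, hHζ h hh, hz h hh]
  have h3 := hγ h hh
  rw [h2] at h3
  have h4 : zpowZ ζ (ψ h) = 1 := by
    have h5 : zpowZ ζ (ψ h) * γ = 1 * γ := by rw [← h3, one_mul]
    exact mul_right_cancel₀ h0 h5
  exact (zpowZ_eq_one_iff hζ _).1 h4

end KW

/-- Existence of Kummer witnesses (Lagrange resolvent). -/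
theorem exists_KW {ζ : PadicAlgCl p} (hζ : IsPrimitiveRoot ζ p)
    (L : IntermediateField ℚ_[p] (PadicAlgCl p)) [FiniteDimensional ℚ_[p] L]
    (H : Subgroup (Gp p)) (hUH : L.fixingSubgroup ≤ H) (hHζ : ∀ h ∈ H, h ζ = ζ)
    (ψ : Gp p → ZMod p) (hadd : ∀ h ∈ H, ∀ h' ∈ H, ψ (h * h') = ψ h + ψ h')
    (hU : ∀ u ∈ L.fixingSubgroup, ψ u = 0) :
    ∃ γ : PadicAlgCl p, γ ≠ 0 ∧ γ ∈ L ∧ ∀ h ∈ H, h γ = zpowZ ζ (ψ h) * γ := by
  haveI : Finite (Gp p ⧸ L.fixingSubgroup) := finite_quotient_of_le (le_refl _)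
  haveI : L.fixingSubgroup.FiniteIndex := Subgroup.finiteIndex_of_finite_quotient
  haveI : (L.fixingSubgroup.subgroupOf H).FiniteIndex := inferInstance
  haveI : Finite (↥H ⧸ L.fixingSubgroup.subgroupOf H) :=
    Subgroup.finite_quotient_of_finiteIndex
  have hstab : ∀ g : ↥H, (∀ x : L, g • ((L.val : L →ₐ[ℚ_[p]] PadicAlgCl p) : L →* PadicAlgCl p) x
      = ((L.val : L →ₐ[ℚ_[p]] PadicAlgCl p) : L →* PadicAlgCl p) x) →
      g ∈ L.fixingSubgroup.subgroupOf H := by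
    intro g hg
    rw [Subgroup.mem_subgroupOf, IntermediateField.mem_fixingSubgroup_iff]
    intro x hx
    exact hg ⟨x, hx⟩
  have hstab' : ∀ u ∈ L.fixingSubgroup.subgroupOf H, ∀ x : L,
      u • ((L.val : L →ₐ[ℚ_[p]] PadicAlgCl p) : L →* PadicAlgCl p) x
        = ((L.val : L →ₐ[ℚ_[p]] PadicAlgCl p) : L →* PadicAlgCl p) x := by
    intro u hu x
    rw [Subgroup.mem_subgroupOf, IntermediateField.mem_fixingSubgroup_iff] at hu
    exact hu x x.2
  obtain ⟨γ, h0, hγ⟩ := exists_resolvent (G := ↥H) (F := L) ζ hζ.pow_eq_one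
    (fun g => hHζ g g.2) (fun g => ψ g) (fun g h => hadd g g.2 h h.2)
    (L.fixingSubgroup.subgroupOf H) (fun u hu => hU u hu)
    ((L.val : L →ₐ[ℚ_[p]] PadicAlgCl p) : L →* PadicAlgCl p) hstab hstab'
  refine ⟨γ, h0, ?_, fun h hh => hγ ⟨h, hh⟩⟩
  apply mem_of_fixed_of_le (le_refl L.fixingSubgroup)
  intro s hs
  have := hγ ⟨s, hUH hs⟩
  simp only at this
  rw [hU s hs, zpowZ_zero, one_mul] at this
  exact this

end Fermat.Agent.S56.FL.H59

end

end
-- ==== END Fermat.Agent.S56.FL.H59_CC3Kum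

-- ==== BEGIN Fermat.Agent.S56.FL.H85_CC1Leaves
section

set_option autoImplicit false

/-!
# LOC-p-FL, package UNITS (helper85): two self-contained leaves of `CC1z`

* `Stmt_NormDesc` (**NORMDESC**): norm descent from `K(ζ_p)` to `K` (`K = K̄^H`).
  Proof.  `ω(H) ⊆ 𝔽_pˣ` is cyclic: choose `σ₀ ∈ H` with `ω(H) = ⟨ω σ₀⟩`, `d = orderOf (ω σ₀)`
  (`d ∣ p - 1`).  `N = {s ∈ H | s ζ = ζ}` is normalised by `σ₀`, `σ₀ ^ d ∈ N`, every `s ∈ H` is
  `σ₀ ^ i * n`, `n ∈ N`.  `Nm b := ∏_{j < d} σ₀ ^ j b` is fixed by `σ₀` and by `N`, hence by `H`.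
  `a ^ d * Nm b ^ p = ∏_j σ₀ ^ j (a * b ^ p) ≡ 1 mod p`.  With `d * d' = 1 + p * m`:
  `b₁ = a ^ m * Nm b ^ d'`, `a * b₁ ^ p = (a ^ d * Nm b ^ p) ^ d' ≡ 1 mod p`.
* `Stmt_ResFix` (**RESFIX**): a residue class of `K = K̄^H` fixed by the Galois group is in `𝔽_p`.
  Proof.  `t = ∑_{c ∈ G/H} c.out x` is fixed by `G`, so `t ∈ ℚ_p`, `‖t‖ ≤ 1`, `‖t - j₀‖ < 1` for
  some `j₀ : ℕ` (`PadicInt.exists_mem_range`); `‖t - n x‖ < 1` (`n = [G : H]`); `n n' ≡ 1 mod p`;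
  `j = n' j₀`.
-/

noncomputable section

namespace Fermat.Agent.S56.FL.H85

open Fermat.Agent.S56.FL

/-- **NORMDESC.** -/
def Stmt_NormDesc : Prop :=
  ∀ (p : ℕ) [Fact p.Prime] (ζ : PadicAlgCl p), IsPrimitiveRoot ζ p →
    ∀ (H : Subgroup (Gp p)) (a b : PadicAlgCl p),
      (∀ s ∈ H, s a = a) → a ≠ 0 → (∀ s ∈ H, s ζ = ζ → s b = b) → b ≠ 0 →
      ‖a * b ^ p - 1‖ ≤ (p : ℝ)⁻¹ →
      ∃ b₁ : PadicAlgCl p, b₁ ≠ 0 ∧ (∀ s ∈ H, s b₁ = b₁) ∧ ‖a * b₁ ^ p - 1‖ ≤ (p : ℝ)⁻¹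

/-- **RESFIX.** -/
def Stmt_ResFix : Prop :=
  ∀ (p : ℕ) [Fact p.Prime] (H : Subgroup (Gp p)) [Finite (Gp p ⧸ H)],
    ¬ p ∣ Nat.card (Gp p ⧸ H) →
    ∀ x : PadicAlgCl p, ‖x‖ ≤ 1 → (∀ s ∈ H, s x = x) → (∀ g : Gp p, ‖g x - x‖ < 1) →
      ∃ j : ℕ, ‖x - (j : PadicAlgCl p)‖ < 1

end Fermat.Agent.S56.FL.H85

end

end
-- ==== END Fermat.Agent.S56.FL.H85_CC1Leaves

-- ==== BEGIN Fermat.Agent.S56.FL.LF.H15_Mono
section

set_option autoImplicit false
set_option linter.style.haveILetI false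

/-!
# LOC-p-FL, LF basics (helper15), part 6: monogenicity `𝒪_L = ℤ_p[x]`

* `phiZ p : ℤ_[p] →+* K̄`, evaluation of `g : ℤ_[p][X]` at `y : K̄` is `g.eval₂ (phiZ p) y`.
* `IsMinZ L x Pz` : `Pz ∈ ℤ_p[X]` is the minimal polynomial of the generator `x` of `L`
  (monic, degree `[L : ℚ_p]`, `Pz = ∏_τ (X - τ x)`).
* `exists_isMinZ`  : existence, for a good generator of a Galois `L`.
* `IsMinZ.dvd_of_eval₂_eq_zero` : `g(x) = 0 → Pz ∣ g` in `ℤ_p[X]`.
* `exists_poly_eq` : every integer of `L` is `g(x)` with `g ∈ ℤ_p[X]` (compactness of `ℤ_p^n`).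
-/

noncomputable section

namespace Fermat.Agent.S56.FL.H15

open scoped NNReal
open Fermat.Agent.S56.FL Module Polynomial

variable (p : ℕ) [Fact p.Prime]

/-- The canonical ring homomorphism `ℤ_p → K̄`. -/
def phiZ : ℤ_[p] →+* PadicAlgCl p :=
  (algebraMap ℚ_[p] (PadicAlgCl p)).comp PadicInt.Coe.ringHom

variable {p}

theorem phiZ_apply (c : ℤ_[p]) :
    phiZ p c = algebraMap ℚ_[p] (PadicAlgCl p) (c : ℚ_[p]) := rfl

theorem norm_phiZ (c : ℤ_[p]) : ‖phiZ p c‖ = ‖c‖ := by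
  rw [phiZ_apply, PadicAlgCl.norm_extends]
  rfl

theorem norm_phiZ_le_one (c : ℤ_[p]) : ‖phiZ p c‖ ≤ 1 := by
  rw [norm_phiZ]; exact PadicInt.norm_le_one c

theorem phiZ_injective : Function.Injective (phiZ p) := by
  intro a b h
  have h1 : algebraMap ℚ_[p] (PadicAlgCl p) (a : ℚ_[p])
      = algebraMap ℚ_[p] (PadicAlgCl p) (b : ℚ_[p]) := h
  exact Subtype.ext ((algebraMap ℚ_[p] (PadicAlgCl p)).injective h1)

theorem phiZ_mem (F : IntermediateField ℚ_[p] (PadicAlgCl p)) (c : ℤ_[p]) : phiZ p c ∈ F :=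
  F.algebraMap_mem _

theorem continuous_phiZ : Continuous (phiZ p) := by
  refine (AddMonoidHomClass.isometry_of_norm (phiZ p) fun c => ?_).continuous
  exact norm_phiZ c

theorem evZ_eq_sum (g : ℤ_[p][X]) (y : PadicAlgCl p) :
    g.eval₂ (phiZ p) y = ∑ i ∈ g.support, phiZ p (g.coeff i) * y ^ i := by
  rw [eval₂_eq_sum, sum_def]

theorem norm_evZ_le_one {y : PadicAlgCl p} (hy : ‖y‖ ≤ 1) (g : ℤ_[p][X]) :
    ‖g.eval₂ (phiZ p) y‖ ≤ 1 := by
  rw [evZ_eq_sum]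
  refine IsUltrametricDist.norm_sum_le_of_forall_le_of_nonneg zero_le_one fun i _ => ?_
  rw [norm_mul, norm_pow]
  exact mul_le_one₀ (norm_phiZ_le_one _) (by positivity) (pow_le_one₀ (norm_nonneg _) hy)

theorem evZ_mem {F : IntermediateField ℚ_[p] (PadicAlgCl p)} {y : PadicAlgCl p} (hy : y ∈ F)
    (g : ℤ_[p][X]) : g.eval₂ (phiZ p) y ∈ F := by
  rw [evZ_eq_sum]
  exact F.sum_mem fun i _ => F.mul_mem (phiZ_mem F _) (pow_mem hy i)

theorem norm_evZ_sub_le {y z : PadicAlgCl p} (hy : ‖y‖ ≤ 1) (hz : ‖z‖ ≤ 1) (g : ℤ_[p][X]) :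
    ‖g.eval₂ (phiZ p) y - g.eval₂ (phiZ p) z‖ ≤ ‖y - z‖ := by
  rw [evZ_eq_sum, evZ_eq_sum, ← Finset.sum_sub_distrib]
  refine IsUltrametricDist.norm_sum_le_of_forall_le_of_nonneg (norm_nonneg _) fun i _ => ?_
  rw [← mul_sub, norm_mul]
  calc ‖phiZ p (g.coeff i)‖ * ‖y ^ i - z ^ i‖ ≤ 1 * ‖y - z‖ :=
        mul_le_mul (norm_phiZ_le_one _) (norm_pow_sub_pow_le_algCl hy hz i) (norm_nonneg _)
          zero_le_one
    _ = ‖y - z‖ := one_mul _

/-- The evaluation of a polynomial of degree `< n` as a sum over `Fin n`. -/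
theorem evZ_eq_sum_fin (g : ℤ_[p][X]) (y : PadicAlgCl p) {n : ℕ} (hn : g.natDegree < n) :
    g.eval₂ (phiZ p) y = ∑ i : Fin n, phiZ p (g.coeff i) * y ^ (i : ℕ) := by
  rw [eval₂_eq_sum_range' (phiZ p) hn y, Finset.sum_range]

/-- The set of values at `x` of the polynomials of degree `< n` is compact. -/
theorem isCompact_range_evZ (x : PadicAlgCl p) (n : ℕ) :
    IsCompact (Set.range fun c : Fin n → ℤ_[p] => ∑ i : Fin n, phiZ p (c i) * x ^ (i : ℕ)) := by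
  refine isCompact_range ?_
  refine continuous_finsetSum _ fun i _ => ?_
  exact (continuous_phiZ.comp (continuous_apply i)).mul continuous_const

variable (L : IntermediateField ℚ_[p] (PadicAlgCl p))

/-- `Pz` is the minimal polynomial over `ℤ_p` of the generator `x` of `L`. -/
structure IsMinZ [FiniteDimensional ℚ_[p] L] (x : L) (Pz : ℤ_[p][X]) : Prop where
  monic : Pz.Monic
  natDegree_eq : Pz.natDegree = finrank ℚ_[p] L
  map_eq : Pz.map PadicInt.Coe.ringHom = minpoly ℚ_[p] x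
  map_phiZ : Pz.map (phiZ p) = ∏ τ : L ≃ₐ[ℚ_[p]] L, (X - C ((τ x : L) : PadicAlgCl p))

variable {L}

/-- An automorphism fixing a good generator is trivial. -/
theorem eq_one_of_map_goodGen {x π : L} {q : ℕ} (h : IsGoodGen L x π q)
    {σ : L ≃ₐ[ℚ_[p]] L} (hσ : σ x = x) : σ = 1 := by
  apply eq_one_of_depth_eq_zero
  rw [depth_eq_of_goodGen h σ, hσ, sub_self, norm_zero]

theorem map_goodGen_injective {x π : L} {q : ℕ} (h : IsGoodGen L x π q) :
    Function.Injective fun τ : L ≃ₐ[ℚ_[p]] L => ((τ x : L) : PadicAlgCl p) := by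
  intro σ τ hστ
  have h1 : σ x = τ x := Subtype.ext hστ
  have h2 : (τ⁻¹ * σ) x = x := by
    rw [AlgEquiv.mul_apply, h1]
    exact τ.symm_apply_apply x
  have h3 := eq_one_of_map_goodGen h h2
  calc σ = τ * (τ⁻¹ * σ) := by group
    _ = τ := by rw [h3, mul_one]

variable [FiniteDimensional ℚ_[p] L]

/-- The minimal polynomial of a good generator of a Galois `L` is `∏_τ (X - τ x)`. -/
theorem minpoly_map_eq_prod (hN : Normal ℚ_[p] L) {x π : L} {q : ℕ} (h : IsGoodGen L x π q) :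
    (minpoly ℚ_[p] x).map (algebraMap ℚ_[p] (PadicAlgCl p))
      = ∏ τ : L ≃ₐ[ℚ_[p]] L, (X - C ((τ x : L) : PadicAlgCl p)) := by
  classical
  haveI : Normal ℚ_[p] L := hN
  haveI : IsGalois ℚ_[p] L := ⟨⟩
  have hint : IsIntegral ℚ_[p] x := (Algebra.IsAlgebraic.isAlgebraic x).isIntegral
  set P := minpoly ℚ_[p] x with hP
  set R : (PadicAlgCl p)[X] := ∏ τ : L ≃ₐ[ℚ_[p]] L, (X - C ((τ x : L) : PadicAlgCl p)) with hR
  have hRmonic : R.Monic := monic_prod_of_monic _ _ fun τ _ => monic_X_sub_C _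
  have hPmonic : (P.map (algebraMap ℚ_[p] (PadicAlgCl p))).Monic := (minpoly.monic hint).map _
  have hdiv : R ∣ P.map (algebraMap ℚ_[p] (PadicAlgCl p)) := by
    refine Finset.prod_dvd_of_coprime ?_ ?_
    · intro σ _ τ _ hστ
      exact pairwise_coprime_X_sub_C (map_goodGen_injective h) hστ
    · intro τ _
      rw [dvd_iff_isRoot, IsRoot.def, eval_map, ← aeval_def]
      have h1 : ((τ x : L) : PadicAlgCl p) = (L.val.comp (τ : L →ₐ[ℚ_[p]] L)) x := rfl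
      rw [h1, aeval_algHom_apply, hP, minpoly.aeval, map_zero]
  have hdegR : R.natDegree = finrank ℚ_[p] L := by
    rw [hR, natDegree_prod_of_monic _ _ fun τ _ => monic_X_sub_C _]
    simp only [natDegree_X_sub_C, Finset.sum_const, Finset.card_univ, smul_eq_mul, mul_one]
    rw [← Nat.card_eq_fintype_card]
    exact IsGalois.card_aut_eq_finrank ℚ_[p] L
  have hdegP : (P.map (algebraMap ℚ_[p] (PadicAlgCl p))).natDegree ≤ R.natDegree := by
    rw [natDegree_map, hdegR]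
    exact minpoly.natDegree_le x
  exact eq_of_monic_of_dvd_of_natDegree_le hRmonic hPmonic hdiv hdegP

/-- Existence of the minimal polynomial over `ℤ_p` of a good generator. -/
theorem exists_isMinZ (hN : Normal ℚ_[p] L) {x π : L} {q : ℕ} (h : IsGoodGen L x π q) :
    ∃ Pz : ℤ_[p][X], IsMinZ L x Pz := by
  classical
  have hint : IsIntegral ℚ_[p] x := (Algebra.IsAlgebraic.isAlgebraic x).isIntegral
  have hprod := minpoly_map_eq_prod hN h
  set P := minpoly ℚ_[p] x with hP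
  -- the coefficients of `P` are integral
  have hcoeff : ∀ n, ‖P.coeff n‖ ≤ 1 := by
    intro n
    have h1 : ‖(P.map (algebraMap ℚ_[p] (PadicAlgCl p))).coeff n‖ ≤ 1 := by
      rw [hprod]
      have h2 : (∏ τ : L ≃ₐ[ℚ_[p]] L, (X - C ((τ x : L) : PadicAlgCl p)))
          = (∏ τ : L ≃ₐ[ℚ_[p]] L, (X - C (τ x))).map (algebraMap L (PadicAlgCl p)) := by
        rw [Polynomial.map_prod]
        refine Finset.prod_congr rfl fun τ _ => ?_
        simp
      rw [h2, coeff_map]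
      exact norm_coeff_prod_X_sub_C_le (L := L) Finset.univ (fun τ : L ≃ₐ[ℚ_[p]] L => τ x)
        (fun τ _ => by
          have : ‖((τ x : L) : PadicAlgCl p)‖ = ‖(x : PadicAlgCl p)‖ := norm_algEquiv τ x
          exact this.le.trans h.1) n
    rwa [coeff_map, PadicAlgCl.norm_extends] at h1
  have hlift : P ∈ lifts (PadicInt.Coe.ringHom (p := p)) := by
    rw [lifts_iff_coeff_lifts]
    intro n
    exact ⟨⟨P.coeff n, hcoeff n⟩, rfl⟩
  obtain ⟨Pz, hmap, hdeg, hmonic⟩ :=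
    lifts_and_natDegree_eq_and_monic hlift (minpoly.monic hint)
  have hdegP : P.natDegree = finrank ℚ_[p] L := by
    have h1 : (P.map (algebraMap ℚ_[p] (PadicAlgCl p))).natDegree = finrank ℚ_[p] L := by
      rw [hprod, natDegree_prod_of_monic _ _ fun τ _ => monic_X_sub_C _]
      simp only [natDegree_X_sub_C, Finset.sum_const, Finset.card_univ, smul_eq_mul, mul_one]
      haveI : Normal ℚ_[p] L := hN
      haveI : IsGalois ℚ_[p] L := ⟨⟩
      rw [← Nat.card_eq_fintype_card]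
      exact IsGalois.card_aut_eq_finrank ℚ_[p] L
    rwa [natDegree_map] at h1
  refine ⟨Pz, hmonic, hdeg.trans hdegP, hmap, ?_⟩
  rw [← hprod, ← hmap, Polynomial.map_map]
  rfl

namespace IsMinZ

variable {x : L} {Pz : ℤ_[p][X]}

theorem eval₂_eq_prod (hP : IsMinZ L x Pz) (y : PadicAlgCl p) :
    Pz.eval₂ (phiZ p) y = ∏ τ : L ≃ₐ[ℚ_[p]] L, (y - ((τ x : L) : PadicAlgCl p)) := by
  rw [eval₂_eq_eval_map, hP.map_phiZ, eval_prod]
  simp

theorem eval₂_self (hP : IsMinZ L x Pz) : Pz.eval₂ (phiZ p) (x : PadicAlgCl p) = 0 := by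
  rw [hP.eval₂_eq_prod]
  refine Finset.prod_eq_zero (Finset.mem_univ (1 : L ≃ₐ[ℚ_[p]] L)) ?_
  simp

theorem norm_eval₂ (hP : IsMinZ L x Pz) (y : PadicAlgCl p) :
    ‖Pz.eval₂ (phiZ p) y‖ = ∏ τ : L ≃ₐ[ℚ_[p]] L, ‖y - ((τ x : L) : PadicAlgCl p)‖ := by
  rw [hP.eval₂_eq_prod, norm_prod]

theorem natDegree_pos (hP : IsMinZ L x Pz) : 0 < Pz.natDegree := by
  rw [hP.natDegree_eq]; exact finrank_pos

theorem ne_one (hP : IsMinZ L x Pz) : Pz ≠ 1 := by
  intro h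
  have := hP.natDegree_pos
  rw [h, natDegree_one] at this
  exact lt_irrefl _ this

/-- `g(x) = 0` implies `Pz ∣ g` in `ℤ_p[X]`. -/
theorem dvd_of_eval₂_eq_zero (hP : IsMinZ L x Pz) (g : ℤ_[p][X])
    (hg : g.eval₂ (phiZ p) (x : PadicAlgCl p) = 0) : Pz ∣ g := by
  rw [← modByMonic_eq_zero_iff_dvd hP.monic]
  by_contra hne
  have hr : (g %ₘ Pz).eval₂ (phiZ p) (x : PadicAlgCl p) = 0 := by
    rw [eval₂_modByMonic_eq_self_of_root hP.eval₂_self]; exact hg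
  have hinj : Function.Injective (PadicInt.Coe.ringHom (p := p)) := Subtype.val_injective
  have h1 : (g %ₘ Pz).map PadicInt.Coe.ringHom ≠ 0 := (Polynomial.map_ne_zero_iff hinj).mpr hne
  have h2 : aeval (x : PadicAlgCl p) ((g %ₘ Pz).map PadicInt.Coe.ringHom) = 0 := by
    rw [aeval_def, eval₂_map]
    exact hr
  have h3 := minpoly.degree_le_of_ne_zero ℚ_[p] (x : PadicAlgCl p) h1 h2
  have h4 : minpoly ℚ_[p] (x : PadicAlgCl p) = minpoly ℚ_[p] x :=
    minpoly.algebraMap_eq (algebraMap L (PadicAlgCl p)).injective x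
  rw [h4, ← hP.map_eq, hP.monic.degree_map] at h3
  have h5 : ((g %ₘ Pz).map PadicInt.Coe.ringHom).degree ≤ (g %ₘ Pz).degree := degree_map_le
  have h6 := degree_modByMonic_lt g hP.monic
  exact absurd (h3.trans h5) (not_le.mpr h6)

end IsMinZ

omit [FiniteDimensional ℚ_[p] L] in
/-- Successive approximation: every integer of `L` is congruent to a polynomial in a good
generator modulo any power of the uniformizer. -/
theorem exists_poly_approx {x π : L} {q : ℕ} (h : IsGoodGen L x π q) (k : ℕ) :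
    ∀ a : L, ‖a‖ ≤ 1 →
      ∃ g : ℤ_[p][X], ‖(a : PadicAlgCl p) - g.eval₂ (phiZ p) (x : PadicAlgCl p)‖ ≤ ‖π‖ ^ k := by
  obtain ⟨hx, hπ0, hπ1, hπmax, hxq, hres⟩ := h
  set ϖ : L := x ^ q - x with hϖ
  have hϖn : ‖ϖ‖ = ‖π‖ := hxq
  have hϖ0 : ϖ ≠ 0 := by
    intro h0
    rw [h0, norm_zero] at hϖn
    exact hπ0.ne hϖn
  induction k with
  | zero =>
    intro a ha
    refine ⟨0, ?_⟩
    rw [eval₂_zero, sub_zero, pow_zero]
    exact ha
  | succ k ih =>
    -- the step for multiples of `ϖ`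
    have hmul : ∀ b : L, ‖b‖ ≤ ‖π‖ → ∃ g : ℤ_[p][X],
        ‖(b : PadicAlgCl p) - g.eval₂ (phiZ p) (x : PadicAlgCl p)‖ ≤ ‖π‖ ^ (k + 1) := by
      intro b hb
      set c : L := b / ϖ with hc
      have hbc : b = ϖ * c := by rw [hc]; field_simp
      have hc1 : ‖c‖ ≤ 1 := by
        rw [hc, norm_div, hϖn]
        exact div_le_one_of_le₀ hb (norm_nonneg _)
      obtain ⟨g₁, hg₁⟩ := ih c hc1
      refine ⟨(X ^ q - X) * g₁, ?_⟩
      have h1 : (b : PadicAlgCl p) - ((X ^ q - X) * g₁).eval₂ (phiZ p) (x : PadicAlgCl p)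
          = (ϖ : PadicAlgCl p) * ((c : PadicAlgCl p) - g₁.eval₂ (phiZ p) (x : PadicAlgCl p)) := by
        rw [eval₂_mul, eval₂_sub, eval₂_pow, eval₂_X, hbc, hϖ]
        push_cast
        ring
      rw [h1, norm_mul, pow_succ']
      have h2 : ‖(ϖ : PadicAlgCl p)‖ = ‖π‖ := hϖn
      rw [h2]
      exact mul_le_mul_of_nonneg_left hg₁ hπ0.le
    intro a ha
    rcases hres a ha with h1 | ⟨m, hm⟩
    · exact hmul a h1
    · obtain ⟨g, hg⟩ := hmul (a - x ^ m) hm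
      refine ⟨X ^ m + g, ?_⟩
      have h2 : (a : PadicAlgCl p) - (X ^ m + g).eval₂ (phiZ p) (x : PadicAlgCl p)
          = ((a - x ^ m : L) : PadicAlgCl p) - g.eval₂ (phiZ p) (x : PadicAlgCl p) := by
        rw [eval₂_add, eval₂_pow, eval₂_X]
        push_cast
        ring
      rw [h2]
      exact hg

/-- **Monogenicity**: every integer of `L` is a polynomial with `ℤ_p`-coefficients in a good
generator. -/
theorem exists_poly_eq {x π : L} {q : ℕ} (h : IsGoodGen L x π q) {Pz : ℤ_[p][X]}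
    (hP : IsMinZ L x Pz) (a : L) (ha : ‖a‖ ≤ 1) :
    ∃ g : ℤ_[p][X], g.eval₂ (phiZ p) (x : PadicAlgCl p) = (a : PadicAlgCl p) := by
  set n := Pz.natDegree with hn
  set S : Set (PadicAlgCl p) :=
    Set.range fun c : Fin n → ℤ_[p] => ∑ i : Fin n, phiZ p (c i) * (x : PadicAlgCl p) ^ (i : ℕ)
    with hS
  have hclosed : IsClosed S := (isCompact_range_evZ (x : PadicAlgCl p) n).isClosed
  have hmem : (a : PadicAlgCl p) ∈ closure S := by
    rw [Metric.mem_closure_iff]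
    intro ε hε
    obtain ⟨k, hk⟩ := exists_pow_lt_of_lt_one hε h.2.2.1
    obtain ⟨g, hg⟩ := exists_poly_approx h k a ha
    have hdeg : (g %ₘ Pz).natDegree < n := natDegree_modByMonic_lt g hP.monic hP.ne_one
    refine ⟨(g %ₘ Pz).eval₂ (phiZ p) (x : PadicAlgCl p), ?_, ?_⟩
    · rw [evZ_eq_sum_fin _ _ hdeg]
      exact ⟨fun i => (g %ₘ Pz).coeff i, rfl⟩
    · rw [eval₂_modByMonic_eq_self_of_root hP.eval₂_self, dist_eq_norm]
      exact hg.trans_lt hk
  rw [hclosed.closure_eq] at hmem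
  obtain ⟨c, hc⟩ := hmem
  refine ⟨∑ i : Fin n, C (c i) * X ^ (i : ℕ), ?_⟩
  rw [← hc, eval₂_finsetSum]
  refine Finset.sum_congr rfl fun i _ => ?_
  rw [eval₂_mul, eval₂_C, eval₂_pow, eval₂_X]

end Fermat.Agent.S56.FL.H15

end

end
-- ==== END Fermat.Agent.S56.FL.LF.H15_Mono

-- ==== BEGIN Fermat.Agent.S56.H50_Gen
section

set_option autoImplicit false
set_option linter.unusedSectionVars false
set_option linter.style.haveILetI false

/-!
# Cluster T / S56, package T-A: the tangent bound gives a surjection `𝒪⟦X₁,…,X_r⟧ ↠ R`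

Main result: `Fermat.Agent.S56.H50.surj : Stmt_surj`.
-/

namespace Fermat.Agent.S56.H50

open IsLocalRing Fermat.Agent.S53

section Eval

variable {𝒪 : Type} [CommRing 𝒪]
variable {R : Type} [CommRing R] [IsLocalRing R] [Algebra 𝒪 R]

/-- Evaluation of power series at elements of the maximal ideal of a complete local ring. -/
theorem exists_eval [IsAdicComplete (maximalIdeal R) R] (r : ℕ) (x : Fin r → R)
    (hx : ∀ i, x i ∈ maximalIdeal R) :
    ∃ γ : MvPowerSeries (Fin r) 𝒪 →ₐ[𝒪] R, ∀ i, γ (MvPowerSeries.X i) = x i := by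
  have hx' : ∀ (n : ℕ) (i : Fin r), Ideal.Quotient.mk (maximalIdeal R ^ (n + 1)) (x i) ∈
      maximalIdeal (R ⧸ maximalIdeal R ^ (n + 1)) := by
    intro n i
    rw [Fermat.Agent.S53.H50.maximalIdeal_quot]
    exact Ideal.mem_map_of_mem _ (hx i)
  have hnil : ∀ n : ℕ, ∀ p ∈ MvPolynomial.idealOfVars (Fin r) 𝒪 ^ (n + 1),
      MvPolynomial.aeval (R := 𝒪)
        (fun i => Ideal.Quotient.mk (maximalIdeal R ^ (n + 1)) (x i)) p = 0 :=
    fun n => Limit.aeval_eq_zero_of_mem_pow _ (hx' n) (n + 1)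
      (Fermat.Agent.S53.H50.maximalIdeal_quot_pow R n)
  let f : ∀ n : ℕ, MvPowerSeries (Fin r) 𝒪 →ₐ[𝒪] R ⧸ maximalIdeal R ^ (n + 1) :=
    fun n => Limit.evL _ (n + 1) (hnil n)
  have hf : ∀ n, (Ideal.Quotient.factorₐ 𝒪
      (Ideal.pow_le_pow_right (I := maximalIdeal R) (Nat.le_succ (n + 1)))).comp (f (n + 1)) =
      f n := by
    intro n
    ext g
    exact Limit.evL_comp (Ideal.Quotient.factorₐ 𝒪
      (Ideal.pow_le_pow_right (I := maximalIdeal R) (Nat.le_succ (n + 1))))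
      (fun i => Ideal.Quotient.mk (maximalIdeal R ^ (n + 1 + 1)) (x i)) (n + 1 + 1) (hnil (n + 1))
      (fun i => Ideal.Quotient.mk (maximalIdeal R ^ (n + 1)) (x i)) (n + 1) (hnil n)
      (fun i => rfl) (Nat.le_succ _) g
  obtain ⟨γ, hγ, -⟩ := Fermat.Agent.S53.H50.exists_unique_glue_algHom (maximalIdeal R) f hf
  refine ⟨γ, fun i => ?_⟩
  apply Fermat.Agent.S53.H50.eq_of_forall_mk_eq (maximalIdeal R)
  intro n
  have h1 := congrArg (fun φ : MvPowerSeries (Fin r) 𝒪 →ₐ[𝒪] R ⧸ maximalIdeal R ^ (n + 1) =>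
    φ (MvPowerSeries.X i)) (hγ n)
  simp only [AlgHom.comp_apply] at h1
  rw [show f n (MvPowerSeries.X i) = _ from Limit.evL_X _ _ _ i] at h1
  exact h1

end Eval

section Surj

variable {𝒪 : Type} [CommRing 𝒪] [IsLocalRing 𝒪]
variable {R : Type} [CommRing R] [IsLocalRing R] [Algebra 𝒪 R] [IsLocalHom (algebraMap 𝒪 R)]

theorem X_mem_maximalIdeal (r : ℕ) (i : Fin r) :
    (MvPowerSeries.X i : MvPowerSeries (Fin r) 𝒪) ∈ maximalIdeal (MvPowerSeries (Fin r) 𝒪) := by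
  rw [mem_maximalIdeal, mem_nonunits_iff, MvPowerSeries.isUnit_iff_constantCoeff,
    MvPowerSeries.constantCoeff_X]
  exact not_isUnit_zero

theorem algebraMap_mem_maximalIdeal_mvPowerSeries (r : ℕ) {c : 𝒪} (hc : c ∈ maximalIdeal 𝒪) :
    algebraMap 𝒪 (MvPowerSeries (Fin r) 𝒪) c ∈ maximalIdeal (MvPowerSeries (Fin r) 𝒪) := by
  rw [mem_maximalIdeal, mem_nonunits_iff, MvPowerSeries.isUnit_iff_constantCoeff,
    MvPowerSeries.algebraMap_apply, Algebra.algebraMap_self, RingHom.id_apply,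
    MvPowerSeries.constantCoeff_C]
  exact (mem_maximalIdeal c).1 hc

/-- A homomorphism `𝒪⟦X₁,…,X_r⟧ → R` whose values at the variables generate `m_R` together with
`m_𝒪` is surjective. -/
theorem surjective_of_gens [IsNoetherianRing 𝒪] [IsAdicComplete (maximalIdeal 𝒪) 𝒪]
    [IsAdicComplete (maximalIdeal R) R]
    (hres : Function.Surjective (residue R ∘ algebraMap 𝒪 R)) (r : ℕ) (x : Fin r → R)
    (γ : MvPowerSeries (Fin r) 𝒪 →ₐ[𝒪] R) (hγ : ∀ i, γ (MvPowerSeries.X i) = x i)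
    (hgen : maximalIdeal R ≤
      Ideal.span (Set.range x) ⊔ (maximalIdeal 𝒪).map (algebraMap 𝒪 R)) :
    Function.Surjective γ := by
  haveI : IsAdicComplete (maximalIdeal (MvPowerSeries (Fin r) 𝒪)) (MvPowerSeries (Fin r) 𝒪) :=
    Limit.isAdicComplete_mvPowerSeries_fin 𝒪 r
  have hloc : IsLocalHom (γ : MvPowerSeries (Fin r) 𝒪 →+* R) := Univ.isLocalHom_of_res_surj hres γ
  have hmap : (maximalIdeal (MvPowerSeries (Fin r) 𝒪)).map
      (γ : MvPowerSeries (Fin r) 𝒪 →+* R) = maximalIdeal R := by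
    apply le_antisymm
    · rw [Ideal.map_le_iff_le_comap]
      intro f hf
      rw [Ideal.mem_comap, mem_maximalIdeal, mem_nonunits_iff]
      rw [mem_maximalIdeal, mem_nonunits_iff] at hf
      exact fun h => hf (hloc.map_nonunit f h)
    · refine hgen.trans (sup_le ?_ ?_)
      · rw [Ideal.span_le]
        rintro _ ⟨i, rfl⟩
        rw [← hγ i]
        exact Ideal.mem_map_of_mem _ (X_mem_maximalIdeal r i)
      · rw [Ideal.map_le_iff_le_comap]
        intro c hc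
        rw [Ideal.mem_comap, ← γ.commutes c]
        exact Ideal.mem_map_of_mem _ (algebraMap_mem_maximalIdeal_mvPowerSeries r hc)
  haveI haus : IsHausdorff ((maximalIdeal (MvPowerSeries (Fin r) 𝒪)).map
      (γ : MvPowerSeries (Fin r) 𝒪 →+* R)) R := by
    rw [hmap]; infer_instance
  have hsurj : Function.Surjective ((Ideal.Quotient.mk
      ((maximalIdeal (MvPowerSeries (Fin r) 𝒪)).map (γ : MvPowerSeries (Fin r) 𝒪 →+* R))).comp
      (γ : MvPowerSeries (Fin r) 𝒪 →+* R)) := by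
    intro y
    obtain ⟨a, rfl⟩ := Ideal.Quotient.mk_surjective y
    obtain ⟨c, hc⟩ := H55.exists_scalar_sub_mem hres a
    refine ⟨algebraMap 𝒪 _ c, ?_⟩
    rw [RingHom.comp_apply, Ideal.Quotient.eq, hmap]
    have h1 : (γ : MvPowerSeries (Fin r) 𝒪 →+* R) (algebraMap 𝒪 _ c) = algebraMap 𝒪 R c :=
      γ.commutes c
    rw [h1]
    have := (maximalIdeal R).neg_mem hc
    simpa using this
  exact surjective_of_mk_map_comp_surjective (γ : MvPowerSeries (Fin r) 𝒪 →+* R) hsurj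

/-- Nakayama: generation modulo `m_R ^ 2` suffices. -/
theorem le_of_le_sup_sq [IsNoetherianRing R] (J : Ideal R)
    (h : maximalIdeal R ≤ J ⊔ maximalIdeal R ^ 2) : maximalIdeal R ≤ J := by
  refine Submodule.le_of_le_smul_of_le_jacobson_bot (I := maximalIdeal R) (N := J)
    (N' := maximalIdeal R) (IsNoetherian.noetherian _) ?_ ?_
  · rw [IsLocalRing.jacobson_eq_maximalIdeal ⊥ bot_ne_top]
  · rw [Ideal.smul_eq_mul, ← pow_two]
    exact h

end Surj

section Univ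

variable {𝒪 : Type} [CommRing 𝒪] [IsDomain 𝒪] [IsDiscreteValuationRing 𝒪]
  [IsAdicComplete (maximalIdeal 𝒪) 𝒪] [Finite (ResidueField 𝒪)]
variable {ρbar : ResidualGaloisRep (ResidueField 𝒪)} {𝒟 : Cond 𝒪}

/-- `k[ε]` is complete. -/
theorem isAdicComplete_dualNumber :
    IsAdicComplete (maximalIdeal (DualNumber (ResidueField 𝒪))) (DualNumber (ResidueField 𝒪)) := by
  letI := dualNumberAlgebra 𝒪
  haveI := isLocalHom_algebraMap_dualNumber 𝒪
  haveI := finite_dualNumber 𝒪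
  haveI : Module.Finite 𝒪 (DualNumber (ResidueField 𝒪)) := Module.Finite.of_finite
  exact IsLocalRing.isAdicComplete_of_module_finite (𝒪 := 𝒪)

/-- Matrix form of the base change of the universal deformation along `φ : R → k[ε]`. -/
theorem exists_mat_baseChange (DQ : GaloisRep.DeformationRingData 𝒪 ρbar 𝒟)
    {rbar : _root_.Fermat.Agent.S56.GQ → M2 (ResidueField 𝒪)} (hbar : IsMatOfRes ρbar rbar) :
    ∃ r : _root_.Fermat.Agent.S56.GQ →* M2 DQ.R, IsMatOf DQ.ρ r ∧ IsLift 𝒪 rbar r :=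
  exists_isLift_of_residual_isEquiv hbar DQ.ρ DQ.residual_isEquiv

/-- The first-order deformation attached to a homomorphism `R → k[ε]`. -/
theorem exists_tsub_of_algHom (hst : StableDual 𝒪 𝒟)
    (DQ : GaloisRep.DeformationRingData 𝒪 ρbar 𝒟)
    (φ : letI := dualNumberAlgebra 𝒪; DQ.R →ₐ[𝒪] DualNumber (ResidueField 𝒪)) :
    letI := dualNumberAlgebra 𝒪
    ∃ (hφ : IsLocalHom (φ : DQ.R →+* DualNumber (ResidueField 𝒪))) (x : TSub 𝒪 ρbar 𝒟),
      x.1 = DQ.ρ.baseChangeAlong (φ : DQ.R →+* DualNumber (ResidueField 𝒪)) hφ := by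
  letI := dualNumberAlgebra 𝒪
  letI := resDualNumberAlgebra 𝒪
  haveI := isLocalHom_algebraMap_dualNumber 𝒪
  haveI := finite_dualNumber 𝒪
  have hφ : IsLocalHom (φ : DQ.R →+* DualNumber (ResidueField 𝒪)) :=
    Univ.isLocalHom_of_res_surj (res_surj_dualNumber 𝒪) φ
  obtain ⟨rbar, hbar⟩ := exists_isMatOfRes ρbar
  obtain ⟨r, hr, hl⟩ := exists_mat_baseChange DQ hbar
  have hmat : IsMatOf (DQ.ρ.baseChangeAlong (φ : DQ.R →+* DualNumber (ResidueField 𝒪)) hφ)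
      (fun σ => (r σ).map φ) := hr.baseChangeAlong (φ : DQ.R →+* DualNumber (ResidueField 𝒪)) hφ
  have hl' : IsLift 𝒪 rbar (fun σ => (r σ).map φ) := Univ.IsLift.map φ hφ hl
  have hD : 𝒟 (DQ.ρ.baseChangeAlong (φ : DQ.R →+* DualNumber (ResidueField 𝒪)) hφ) :=
    hst DQ.R DQ.residue_surjective DQ.ρ DQ.isOfType φ hφ
  refine ⟨hφ, ⟨_, hD, ?_⟩, rfl⟩
  rw [IsMatOfRes.isEquiv_iff hmat.residual
    (IsMatOfRes.baseChange (ResidueField (DualNumber (ResidueField 𝒪))) hbar)]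
  refine ⟨1, fun σ => ?_⟩
  rw [Units.val_one, one_mul, mul_one]
  refine (hl' σ).trans ?_
  ext i j
  simp only [Matrix.map_apply]
  obtain ⟨c, hc⟩ := residue_surjective (rbar σ i j)
  rw [← hc, ResidueField.map_residue]
  rfl

/-- The map from homomorphisms `R → k[ε]` to classes of first-order deformations is injective. -/
theorem card_algHom_le (hst : StableDual 𝒪 𝒟)
    (DQ : GaloisRep.DeformationRingData 𝒪 ρbar 𝒟) :
    letI := dualNumberAlgebra 𝒪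
    ∃ F : (DQ.R →ₐ[𝒪] DualNumber (ResidueField 𝒪)) → Quotient (TSetoid 𝒪 ρbar 𝒟),
      Function.Injective F := by
  letI := dualNumberAlgebra 𝒪
  letI := resDualNumberAlgebra 𝒪
  haveI := isLocalHom_algebraMap_dualNumber 𝒪
  haveI := finite_dualNumber 𝒪
  haveI := isAdicComplete_dualNumber (𝒪 := 𝒪)
  choose hloc G hG using exists_tsub_of_algHom (ρbar := ρbar) hst DQ
  refine ⟨fun φ => Quotient.mk (TSetoid 𝒪 ρbar 𝒟) (G φ), fun φ ψ h => ?_⟩
  have h1 : (G φ).1.IsEquiv (G ψ).1 := Quotient.exact h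
  rw [hG φ, hG ψ] at h1
  -- residual condition for `ψ` in the form needed by the universal property
  obtain ⟨rbar, hbar⟩ := exists_isMatOfRes ρbar
  obtain ⟨r, hr, hl⟩ := exists_mat_baseChange DQ hbar
  have hmat : IsMatOf (DQ.ρ.baseChangeAlong (ψ : DQ.R →+* DualNumber (ResidueField 𝒪)) (hloc ψ))
      (fun σ => (r σ).map ψ) :=
    hr.baseChangeAlong (ψ : DQ.R →+* DualNumber (ResidueField 𝒪)) (hloc ψ)
  have hl' : IsLift 𝒪 rbar (fun σ => (r σ).map ψ) := Univ.IsLift.map ψ (hloc ψ) hl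
  have hres := residual_isEquiv_of_isLift hbar hmat hl'
  have hD : 𝒟 (DQ.ρ.baseChangeAlong (ψ : DQ.R →+* DualNumber (ResidueField 𝒪)) (hloc ψ)) :=
    hst DQ.R DQ.residue_surjective DQ.ρ DQ.isOfType ψ (hloc ψ)
  have huniv := DQ.universal (DualNumber (ResidueField 𝒪)) (res_surj_dualNumber 𝒪)
    (DQ.ρ.baseChangeAlong (ψ : DQ.R →+* DualNumber (ResidueField 𝒪)) (hloc ψ)) hD hres
  exact huniv.unique ⟨hloc φ, h1⟩ ⟨hloc ψ, ⟨GaloisRepAdic.Equiv.refl _⟩⟩

end Univ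

section Cot

variable {𝒪 : Type} [CommRing 𝒪] [IsLocalRing 𝒪] [Finite (ResidueField 𝒪)]
variable {R : Type} [CommRing R] [IsLocalRing R] [Algebra 𝒪 R] [IsLocalHom (algebraMap 𝒪 R)]

/-- The relative cotangent space of a noetherian local ring with finite residue field is
finite. -/
theorem finite_relCot [IsNoetherianRing R]
    (hres : Function.Surjective (residue R ∘ algebraMap 𝒪 R)) : Finite (H55.RelCot 𝒪 R) := by
  haveI : Finite (ResidueField R) :=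
    Fermat.Agent.S53.H50.finite_residueField_of_surjective 𝒪 R hres
  haveI : Finite (R ⧸ maximalIdeal R ^ 2) := Fermat.Agent.S53.H50.finite_quot R 2
  let g : (R ⧸ maximalIdeal R ^ 2) → H55.RelCot 𝒪 R := fun q =>
    Submodule.Quotient.mk (Function.surjInv Ideal.Quotient.mk_surjective q)
  apply Finite.of_surjective g
  intro v
  obtain ⟨d, rfl⟩ := Submodule.Quotient.mk_surjective _ v
  refine ⟨Ideal.Quotient.mk _ d, ?_⟩
  show Submodule.Quotient.mk _ = Submodule.Quotient.mk d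
  rw [Submodule.Quotient.eq]
  apply H55.sq_le_relSub
  rw [← Ideal.Quotient.eq]
  exact Function.surjInv_eq _ _

/-- The relative cotangent space is no bigger than any finite set into which the homomorphisms
to `k[ε]` inject. -/
theorem card_relCot_le_of_injective [IsNoetherianRing R]
    (hres : Function.Surjective (residue R ∘ algebraMap 𝒪 R)) {Q : Type*} [Finite Q]
    (F : (letI := dualNumberAlgebra 𝒪; R →ₐ[𝒪] DualNumber (ResidueField 𝒪)) → Q)
    (hF : Function.Injective F) : Nat.card (H55.RelCot 𝒪 R) ≤ Nat.card Q := by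
  letI := dualNumberAlgebra 𝒪
  letI := H55.relCotModule hres
  haveI := finite_relCot hres
  have b := Module.finBasis (ResidueField 𝒪) (H55.RelCot 𝒪 R)
  rw [Nat.card_congr b.toDualEquiv.toEquiv]
  exact Nat.card_le_card_of_injective _ (hF.comp (H55.tangentHom_injective hres))

/-- A bound `|k|^r` on the relative cotangent space gives `r` generators of `m_R` modulo
`m_𝒪 R + m_R ^ 2`. -/
theorem exists_gens_of_card_le [IsNoetherianRing R]
    (hres : Function.Surjective (residue R ∘ algebraMap 𝒪 R)) (r : ℕ)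
    (hcard : Nat.card (H55.RelCot 𝒪 R) ≤ Nat.card (ResidueField 𝒪) ^ r) :
    ∃ x : Fin r → R, (∀ i, x i ∈ maximalIdeal R) ∧
      maximalIdeal R ≤ Ideal.span (Set.range x) ⊔ (maximalIdeal 𝒪).map (algebraMap 𝒪 R) ⊔
        maximalIdeal R ^ 2 := by
  classical
  letI := H55.relCotModule hres
  haveI := finite_relCot hres
  haveI : Module.Finite (ResidueField 𝒪) (H55.RelCot 𝒪 R) := Module.Finite.of_finite
  have hd : Module.finrank (ResidueField 𝒪) (H55.RelCot 𝒪 R) ≤ r := by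
    rw [Module.natCard_eq_pow_finrank (K := ResidueField 𝒪)] at hcard
    exact (Nat.pow_le_pow_iff_right Finite.one_lt_card).1 hcard
  let b := Module.finBasis (ResidueField 𝒪) (H55.RelCot 𝒪 R)
  let g : Fin r → H55.RelCot 𝒪 R := fun i =>
    if h : i.val < Module.finrank (ResidueField 𝒪) (H55.RelCot 𝒪 R) then b ⟨i.val, h⟩ else 0
  have hspan : Submodule.span (ResidueField 𝒪) (Set.range g) = ⊤ := by
    rw [eq_top_iff, ← b.span_eq]
    apply Submodule.span_mono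
    rintro _ ⟨j, rfl⟩
    refine ⟨⟨j.val, lt_of_lt_of_le j.isLt hd⟩, ?_⟩
    simp [g]
  have h1 : ∀ i, ∃ y : R, y ∈ maximalIdeal R ∧
      (Submodule.Quotient.mk y : H55.RelCot 𝒪 R) = g i := by
    intro i
    obtain ⟨d, hd⟩ := Submodule.Quotient.mk_surjective _ (g i)
    obtain ⟨c, hc⟩ := H55.exists_scalar_sub_mem hres d
    refine ⟨d - algebraMap 𝒪 R c, hc, ?_⟩
    rw [Submodule.Quotient.mk_sub, H55.mk_algebraMap_eq_zero, sub_zero, hd]
  choose x hx1 hx2 using h1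
  refine ⟨x, hx1, fun z hz => ?_⟩
  have hz' : (Submodule.Quotient.mk z : H55.RelCot 𝒪 R) ∈
      Submodule.span (ResidueField 𝒪) (Set.range g) := by
    rw [hspan]; trivial
  obtain ⟨c, hc⟩ := (Submodule.mem_span_range_iff_exists_fun _).1 hz'
  have h2 : ∀ i, ∃ a : 𝒪, residue 𝒪 a = c i := fun i => residue_surjective (c i)
  choose a ha using h2
  set w : R := z - ∑ i, a i • x i with hw
  have hwmem : w ∈ H55.relSub 𝒪 R := by
    rw [← Submodule.Quotient.mk_eq_zero, hw, Submodule.Quotient.mk_sub, sub_eq_zero, ← hc]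
    have : (Submodule.Quotient.mk (∑ i, a i • x i) : H55.RelCot 𝒪 R) =
        ∑ i, (Submodule.Quotient.mk (a i • x i) : H55.RelCot 𝒪 R) :=
      map_sum (Submodule.mkQ (H55.relSub 𝒪 R)) _ _
    rw [this]
    refine Finset.sum_congr rfl fun i _ => ?_
    rw [← ha i, ← hx2 i]
    exact H55.residue_smul_mk hres (a i) (x i)
  obtain ⟨s, hs, c₀, hsc⟩ := H55.mem_relSub_iff.1 hwmem
  have hsum : ∑ i, a i • x i ∈ Ideal.span (Set.range x) := by
    refine Ideal.sum_mem _ fun i _ => ?_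
    rw [Algebra.smul_def]
    exact Ideal.mul_mem_left _ _ (Ideal.subset_span ⟨i, rfl⟩)
  have hsm : s ∈ maximalIdeal R := Ideal.pow_le_self two_ne_zero hs
  have hsumm : ∑ i, a i • x i ∈ maximalIdeal R := by
    refine Ideal.sum_mem _ fun i _ => ?_
    rw [Algebra.smul_def]
    exact Ideal.mul_mem_left _ _ (hx1 i)
  have hc₀ : algebraMap 𝒪 R c₀ ∈ maximalIdeal R := by
    have e : algebraMap 𝒪 R c₀ = z - ∑ i, a i • x i - s := by
      rw [← hw, ← hsc]; ring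
    rw [e]
    exact Ideal.sub_mem _ (Ideal.sub_mem _ hz hsumm) hsm
  have hc₀' : c₀ ∈ maximalIdeal 𝒪 := by
    rw [mem_maximalIdeal, mem_nonunits_iff] at hc₀ ⊢
    exact fun h => hc₀ (h.map (algebraMap 𝒪 R))
  have e : z = ∑ i, a i • x i + algebraMap 𝒪 R c₀ + s := by
    have : w = s + algebraMap 𝒪 R c₀ := hsc.symm
    rw [hw] at this
    linear_combination this
  rw [e]
  exact Ideal.add_mem _ (Ideal.mem_sup_left (Ideal.add_mem _ (Ideal.mem_sup_left hsum)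
    (Ideal.mem_sup_right (Ideal.mem_map_of_mem _ hc₀')))) (Ideal.mem_sup_right hs)

end Cot

/-- **Package T-A.** The tangent bound gives a surjection `𝒪⟦X₁,…,X_r⟧ ↠ R`. -/
theorem surj : Stmt_surj := by
  intro 𝒪 _ _ _ _ _ ρbar 𝒟 r hst htan DQ
  obtain ⟨hfin, hcard⟩ := htan
  haveI := hfin
  obtain ⟨F, hF⟩ := card_algHom_le hst DQ
  have h1 : Nat.card (H55.RelCot 𝒪 DQ.R) ≤ Nat.card (Quotient (TSetoid 𝒪 ρbar 𝒟)) :=
    card_relCot_le_of_injective DQ.residue_surjective F hF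
  obtain ⟨x, hx, hgen⟩ := exists_gens_of_card_le DQ.residue_surjective r (h1.trans hcard)
  obtain ⟨γ, hγ⟩ := exists_eval (𝒪 := 𝒪) r x hx
  exact ⟨γ, surjective_of_gens DQ.residue_surjective r x γ hγ (le_of_le_sup_sq _ hgen)⟩

end Fermat.Agent.S56.H50

end
-- ==== END Fermat.Agent.S56.H50_Gen

-- ==== BEGIN Fermat.Agent.S56.H92_StableSO
section

set_option autoImplicit false
set_option linter.unusedSectionVars false
set_option linter.style.haveILetI false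

noncomputable section

namespace Fermat.Agent.S56.H92

open Polynomial IsLocalRing TensorProduct

variable {A B : Type} [CommRing A] [IsLocalRing A] [CommRing B] [IsLocalRing B]

/-- A local homomorphism maps the maximal ideal into the maximal ideal. -/
theorem map_mem_maximalIdeal (φ : A →+* B) (hφ : IsLocalHom φ) {a : A}
    (ha : a ∈ maximalIdeal A) : φ a ∈ maximalIdeal B :=
  haveI := hφ
  map_nonunit φ a ha

/-- A ring homomorphism maps `span {n}` into `span {n}` for a natural number `n`. -/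
theorem map_mem_span_natCast (φ : A →+* B) {n : ℕ} {a : A}
    (ha : a ∈ Ideal.span {((n : ℕ) : A)}) : φ a ∈ Ideal.span {((n : ℕ) : B)} := by
  obtain ⟨c, rfl⟩ := Ideal.mem_span_singleton'.1 ha
  rw [map_mul, map_natCast]
  exact Ideal.mem_span_singleton'.2 ⟨φ c, rfl⟩

theorem baseChangeAlong_ρ_apply (φ : A →+* B) (hφ : IsLocalHom φ) (ρ : GaloisRepAdic A)
    (σ : AlgebraicClosure ℚ ≃ₐ[ℚ] AlgebraicClosure ℚ) :
    letI : Algebra A B := φ.toAlgebra
    (ρ.baseChangeAlong φ hφ).ρ σ = (ρ.ρ σ).baseChange B := rfl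

theorem detIsCyclotomic_baseChangeAlong (φ : A →+* B) (hφ : IsLocalHom φ) (ρ : GaloisRepAdic A)
    (p : ℕ) (h : ρ.DetIsCyclotomic p) : (ρ.baseChangeAlong φ hφ).DetIsCyclotomic p := by
  letI : Algebra A B := φ.toAlgebra
  refine ⟨?_, fun n σ a hσ => ?_⟩
  · have := map_mem_maximalIdeal φ hφ h.1
    rwa [map_natCast] at this
  · have h1 := map_mem_span_natCast φ (h.2 n σ a hσ)
    rw [map_sub, map_natCast] at h1
    have h2 : LinearMap.det ((ρ.baseChangeAlong φ hφ).ρ σ) = φ (LinearMap.det (ρ.ρ σ)) :=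
      LinearMap.det_baseChange (A := B) (ρ.ρ σ)
    rw [h2]
    exact h1

theorem isUnramifiedAt_baseChangeAlong (φ : A →+* B) (hφ : IsLocalHom φ) (ρ : GaloisRepAdic A)
    (q : ℕ) (h : ρ.IsUnramifiedAt q) : (ρ.baseChangeAlong φ hφ).IsUnramifiedAt q := by
  letI : Algebra A B := φ.toAlgebra
  intro P hP σ hσ
  have h1 : (ρ.baseChangeAlong φ hφ).ρ σ = (ρ.ρ σ).baseChange B := rfl
  rw [h1, h P hP σ hσ]
  exact LinearMap.baseChange_one (R := A) (A := B) (M := ρ.V)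

theorem isUnipotentOnInertiaAt_baseChangeAlong (φ : A →+* B) (hφ : IsLocalHom φ)
    (ρ : GaloisRepAdic A) (q : ℕ) (h : ρ.IsUnipotentOnInertiaAt q) :
    (ρ.baseChangeAlong φ hφ).IsUnipotentOnInertiaAt q := by
  letI : Algebra A B := φ.toAlgebra
  intro P hP σ hσ
  have h1 : LinearMap.charpoly ((ρ.baseChangeAlong φ hφ).ρ σ)
      = (LinearMap.charpoly (ρ.ρ σ)).map (algebraMap A B) :=
    LinearMap.charpoly_baseChange (A := B) (ρ.ρ σ)
  rw [h1, h P hP σ hσ]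
  simp

/-- `c ⊗ (a • v) = (c * φ a) • (1 ⊗ v)` in `B ⊗[A] V`, `B` an `A`-algebra via `φ`. -/
theorem tmul_smul_eq (φ : A →+* B) {V : Type} [AddCommGroup V] [Module A V] (c : B) (a : A)
    (v : V) :
    letI : Algebra A B := φ.toAlgebra
    c ⊗ₜ[A] (a • v) = (c * φ a) • ((1 : B) ⊗ₜ[A] v) := by
  letI : Algebra A B := φ.toAlgebra
  rw [TensorProduct.smul_tmul', smul_eq_mul, mul_one, TensorProduct.tmul_smul,
    TensorProduct.smul_tmul', Algebra.smul_def, mul_comm]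
  rfl

/-- If `u ∈ A ∙ v` then `c ⊗ u ∈ B ∙ (1 ⊗ v)`. -/
theorem tmul_mem_span (φ : A →+* B) {V : Type} [AddCommGroup V] [Module A V] (c : B) {u v : V}
    (hu : u ∈ Submodule.span A {v}) :
    letI : Algebra A B := φ.toAlgebra
    c ⊗ₜ[A] u ∈ Submodule.span B {(1 : B) ⊗ₜ[A] v} := by
  letI : Algebra A B := φ.toAlgebra
  obtain ⟨a, rfl⟩ := Submodule.mem_span_singleton.1 hu
  rw [tmul_smul_eq φ c a v]
  exact Submodule.smul_mem _ _ (Submodule.mem_span_singleton_self _)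

/-- Core of the strict-ordinary base change, stated on `B ⊗[A] V` directly. -/
theorem strictOrdinary_core (φ : A →+* B) (ρ : GaloisRepAdic A) (p : ℕ)
    (P : ValuationSubring (AlgebraicClosure ℚ))
    (h : ∃ L : Submodule A ρ.V,
      (∃ b : Module.Basis (Fin 2) A ρ.V, L = A ∙ b 0) ∧
      (∀ σ ∈ P.decompositionSubgroup ℚ, ∀ v ∈ L, ρ.ρ σ v ∈ L) ∧
      (∀ σ ∈ P.inertiaSubgroupIn ℚ, ∀ v : ρ.V, ρ.ρ σ v - v ∈ L) ∧
      (∀ σ ∈ P.decompositionSubgroup ℚ, ∃ x z : A,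
        (∀ w ∈ L, ρ.ρ σ w = x • w) ∧ (∀ v : ρ.V, ρ.ρ σ v - z • v ∈ L) ∧
        ∀ (n a : ℕ), (∀ μ : AlgebraicClosure ℚ, μ ^ p ^ n = 1 → σ μ = μ ^ a) →
          x - (a : A) * z ∈ Ideal.span {((p ^ n : ℕ) : A)})) :
    letI : Algebra A B := φ.toAlgebra
    ∃ L : Submodule B (B ⊗[A] ρ.V),
      (∃ b : Module.Basis (Fin 2) B (B ⊗[A] ρ.V), L = B ∙ b 0) ∧
      (∀ σ ∈ P.decompositionSubgroup ℚ, ∀ v ∈ L, (ρ.ρ σ).baseChange B v ∈ L) ∧
      (∀ σ ∈ P.inertiaSubgroupIn ℚ, ∀ v : B ⊗[A] ρ.V, (ρ.ρ σ).baseChange B v - v ∈ L) ∧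
      (∀ σ ∈ P.decompositionSubgroup ℚ, ∃ x z : B,
        (∀ w ∈ L, (ρ.ρ σ).baseChange B w = x • w) ∧
        (∀ v : B ⊗[A] ρ.V, (ρ.ρ σ).baseChange B v - z • v ∈ L) ∧
        ∀ (n a : ℕ), (∀ μ : AlgebraicClosure ℚ, μ ^ p ^ n = 1 → σ μ = μ ^ a) →
          x - (a : B) * z ∈ Ideal.span {((p ^ n : ℕ) : B)}) := by
  letI : Algebra A B := φ.toAlgebra
  obtain ⟨L, ⟨b, hb⟩, hD, hI, hxz⟩ := h
  have hb0 : b 0 ∈ L := by rw [hb]; exact Submodule.mem_span_singleton_self _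
  refine ⟨Submodule.span B {(1 : B) ⊗ₜ[A] b 0}, ⟨b.baseChange B, ?_⟩, ?_, ?_, ?_⟩
  · rw [Module.Basis.baseChange_apply]
  · intro σ hσ v hv
    obtain ⟨c, rfl⟩ := Submodule.mem_span_singleton.1 hv
    rw [map_smul, LinearMap.baseChange_tmul]
    refine Submodule.smul_mem _ _ ?_
    have := hD σ hσ (b 0) hb0
    rw [hb] at this
    exact tmul_mem_span φ 1 this
  · intro σ hσ v
    induction v using TensorProduct.induction_on with
    | zero => rw [LinearMap.map_zero, sub_zero]; exact Submodule.zero_mem _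
    | tmul c v =>
      rw [LinearMap.baseChange_tmul, ← TensorProduct.tmul_sub]
      have := hI σ hσ v
      rw [hb] at this
      exact tmul_mem_span φ c this
    | add x y hx hy =>
      rw [map_add, add_sub_add_comm]
      exact Submodule.add_mem _ hx hy
  · intro σ hσ
    obtain ⟨x, z, hx, hz, hxz'⟩ := hxz σ hσ
    refine ⟨φ x, φ z, ?_, ?_, ?_⟩
    · intro w hw
      obtain ⟨c, rfl⟩ := Submodule.mem_span_singleton.1 hw
      rw [map_smul, LinearMap.baseChange_tmul, hx (b 0) hb0, tmul_smul_eq φ 1 x (b 0), one_mul,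
        smul_comm]
    · intro v
      induction v using TensorProduct.induction_on with
      | zero => rw [LinearMap.map_zero, smul_zero, sub_zero]; exact Submodule.zero_mem _
      | tmul c v =>
        have h1 : (φ z) • (c ⊗ₜ[A] v : B ⊗[A] ρ.V) = c ⊗ₜ[A] (z • v) := by
          rw [tmul_smul_eq φ c z v, TensorProduct.smul_tmul', TensorProduct.smul_tmul',
            smul_eq_mul, smul_eq_mul, mul_one, mul_comm]
        rw [LinearMap.baseChange_tmul, h1, ← TensorProduct.tmul_sub]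
        have := hz v
        rw [hb] at this
        exact tmul_mem_span φ c this
      | add x' y' hx' hy' =>
        rw [map_add, smul_add, add_sub_add_comm]
        exact Submodule.add_mem _ hx' hy'
    · intro n a ha
      have := map_mem_span_natCast φ (hxz' n a ha)
      rwa [map_sub, map_mul, map_natCast] at this

theorem isStrictOrdinaryAt_baseChangeAlong (φ : A →+* B) (hφ : IsLocalHom φ)
    (ρ : GaloisRepAdic A) (p : ℕ) (h : ρ.IsStrictOrdinaryAt p) :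
    (ρ.baseChangeAlong φ hφ).IsStrictOrdinaryAt p := by
  refine ⟨?_, fun P hP => ?_⟩
  · have := map_mem_maximalIdeal φ hφ h.1
    rwa [map_natCast] at this
  · exact strictOrdinary_core φ ρ p P (h.2 P hP)

/-- **`condSO` is stable under base change along any local homomorphism.** -/
theorem condSO_baseChangeAlong (𝒪 : Type) [CommRing 𝒪] [Algebra 𝒪 A] [Algebra 𝒪 B]
    (p : ℕ) (Smin T : Finset ℕ) (φ : A →+* B) (hφ : IsLocalHom φ) (ρ : GaloisRepAdic A)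
    (h : condSO 𝒪 p Smin T ρ) : condSO 𝒪 p Smin T (ρ.baseChangeAlong φ hφ) := by
  obtain ⟨⟨h1, h2, h3⟩, h4⟩ := h
  exact ⟨⟨detIsCyclotomic_baseChangeAlong φ hφ ρ p h1,
    isStrictOrdinaryAt_baseChangeAlong φ hφ ρ p h2,
    fun q hq hqS => isUnramifiedAt_baseChangeAlong φ hφ ρ q (h3 q hq hqS)⟩,
    fun q hq hqp hne => isUnipotentOnInertiaAt_baseChangeAlong φ hφ ρ q (h4 q hq hqp hne)⟩

/-- **Leaf T-S-SO.** -/
theorem stmt_stable_SO : Fermat.Agent.S56.Stmt_stable_SO := by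
  intro 𝒪 _ _ _ _ _ p _ Smin T
  letI := Fermat.Agent.S53.dualNumberAlgebra 𝒪
  intro R _ _ _ _ _ _ _ ρ hρ φ hφ
  exact condSO_baseChangeAlong 𝒪 p Smin T (φ : R →+* DualNumber (ResidueField 𝒪)) hφ ρ hρ

end Fermat.Agent.S56.H92

end

end
-- ==== END Fermat.Agent.S56.H92_StableSO

-- ==== BEGIN Fermat.Agent.S56.Selmer
section

set_option autoImplicit false

/-!
# Cluster T / S56: the Selmer-group side (central interface)

* `primesOf A`     : the primes in a finite set of naturals, as a `Finset Nat.Primes`.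
* `IsCocycleOf x c`: the first-order deformation `x` is `σ ↦ (1 + ε c σ) ρbar σ` in a suitable basis.
* `IsClassOf x ξ`  : `ξ ∈ H¹(G_ℚ, ad⁰ ρbar)` is the class of (a cocycle of) `x`.
* the dictionary packages `Stmt_dict_*` (owner: helper74).
-/

noncomputable section

namespace Fermat.Agent.S56

open Polynomial IsLocalRing CategoryTheory groupCohomology ExtCitation Fermat.Agent.S53
open scoped TensorProduct

/-- The primes of a finite set of natural numbers. -/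
def primesOf (A : Finset ℕ) : Finset Nat.Primes :=
  A.preimage (fun q : Nat.Primes => (q : ℕ)) (fun _ _ _ _ h => Subtype.ext h)

@[simp] theorem mem_primesOf {A : Finset ℕ} {q : Nat.Primes} : q ∈ primesOf A ↔ (q : ℕ) ∈ A :=
  Finset.mem_preimage

/-- The underlying endomorphism of an element of `ad⁰ ρbar`. -/
def ad0Val {k : Type} [Field k] (ρbar : ResidualGaloisRep k) :
    (ad0 ρbar) →ₗ[k] Module.End k ρbar.V :=
  (ad0Sub ρbar).subtype

section Dictionary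

variable {𝒪 : Type} [CommRing 𝒪] [IsLocalRing 𝒪]
variable {ρbar : ResidualGaloisRep (ResidueField 𝒪)} {𝒟 : Cond 𝒪}

/-- `x` is the first-order deformation `σ ↦ (1 + ε c(σ)) ρbar(σ)`: there is a `k[ε]`-linear
identification `θ : k[ε] ⊗ V ≃ V_x` with `ρ_x(σ) θ(1 ⊗ v) = θ(1 ⊗ ρbar(σ) v + ε ⊗ c(σ) ρbar(σ) v)`. -/
def IsCocycleOf (x : TSub 𝒪 ρbar 𝒟) (c : _root_.Fermat.Agent.S56.GQ → Module.End (ResidueField 𝒪) ρbar.V) : Prop :=
  ∃ θ : (DualNumber (ResidueField 𝒪) ⊗[ResidueField 𝒪] ρbar.V) ≃ₗ[DualNumber (ResidueField 𝒪)] x.1.V,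
    ∀ (σ : _root_.Fermat.Agent.S56.GQ) (v : ρbar.V),
      x.1.ρ σ (θ ((1 : DualNumber (ResidueField 𝒪)) ⊗ₜ[ResidueField 𝒪] v)) =
        θ ((1 : DualNumber (ResidueField 𝒪)) ⊗ₜ[ResidueField 𝒪] (ρbar.ρ σ v) +
          (DualNumber.eps : DualNumber (ResidueField 𝒪)) ⊗ₜ[ResidueField 𝒪] (c σ (ρbar.ρ σ v)))

/-- `ξ ∈ H¹(G_ℚ, ad⁰ ρbar)` is the class of the first-order deformation `x`. -/
def IsClassOf (x : TSub 𝒪 ρbar 𝒟) (ξ : H1 (ad0 ρbar)) : Prop :=
  ∃ c : cocycles₁ (ad0 ρbar),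
    IsCocycleOf x (fun σ => ad0Val ρbar ((c : _root_.Fermat.Agent.S56.GQ → ad0 ρbar) σ)) ∧
      (H1π (ad0 ρbar)).hom c = ξ

end Dictionary

/-- **Package DICT-1.** Every first-order deformation with cyclotomic determinant has a class in
`H¹(G_ℚ, ad⁰ ρbar)` (`p` odd). -/
def Stmt_dict_exists : Prop :=
  ∀ (𝒪 : Type) [CommRing 𝒪] [IsDomain 𝒪] [IsDiscreteValuationRing 𝒪]
    [IsAdicComplete (maximalIdeal 𝒪) 𝒪] [Finite (ResidueField 𝒪)]
    (p : ℕ) [Fact p.Prime] (ρbar : ResidualGaloisRep (ResidueField 𝒪)) (𝒟 : Cond 𝒪),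
    p ≠ 2 → (p : 𝒪) ∈ maximalIdeal 𝒪 →
    (GaloisRepAdic.ofResidualGaloisRep ρbar).DetIsCyclotomic p →
    (∀ ⦃A : Type⦄ [CommRing A] [IsLocalRing A] [Algebra 𝒪 A] (ρ : GaloisRepAdic A),
      𝒟 ρ → ρ.DetIsCyclotomic p) →
    ∀ x : TSub 𝒪 ρbar 𝒟, ∃ ξ : H1 (ad0 ρbar), IsClassOf x ξ

/-- **Package DICT-2.** Two first-order deformations with the same class are equivalent. -/
def Stmt_dict_inj : Prop :=
  ∀ (𝒪 : Type) [CommRing 𝒪] [IsDomain 𝒪] [IsDiscreteValuationRing 𝒪]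
    [IsAdicComplete (maximalIdeal 𝒪) 𝒪] [Finite (ResidueField 𝒪)]
    (ρbar : ResidualGaloisRep (ResidueField 𝒪)) (𝒟 : Cond 𝒪)
    (x y : TSub 𝒪 ρbar 𝒟) (ξ : H1 (ad0 ρbar)),
    IsClassOf x ξ → IsClassOf y ξ → x.1.IsEquiv y.1

/-- **Package DICT-3.** The class of a first-order deformation unramified outside `Sg` lies in
`continuousH1S Sg`. -/
def Stmt_dict_cont : Prop :=
  ∀ (𝒪 : Type) [CommRing 𝒪] [IsDomain 𝒪] [IsDiscreteValuationRing 𝒪]
    [IsAdicComplete (maximalIdeal 𝒪) 𝒪] [Finite (ResidueField 𝒪)]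
    (ρbar : ResidualGaloisRep (ResidueField 𝒪)) (𝒟 : Cond 𝒪) (Sg : Finset Nat.Primes)
    (x : TSub 𝒪 ρbar 𝒟) (ξ : H1 (ad0 ρbar)),
    (∀ q : Nat.Primes, q ∉ Sg → x.1.IsUnramifiedAt (q : ℕ)) →
    IsClassOf x ξ → ξ ∈ continuousH1S Sg (ad0 ρbar)

end Fermat.Agent.S56

end

end
-- ==== END Fermat.Agent.S56.Selmer

-- ==== BEGIN Fermat.Agent.S56.TWS.H74_Matrix
section

set_option autoImplicit false

/-!
# TW-SELECT, package TWS-A (helper74): the matrix form of `H¹(ρbar(G), ad⁰(1)) = 0`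

Unconditional: `stmt_H1_matrix : Stmt_H1_matrix`, from `tau_all` (H74), the kill argument
(H74 + helper64's `stmt_H1_N34`) and the averaging case (helper1's `stmt_H1_avg`).
-/

namespace Fermat.Agent.S56.TWS.H74

/-- **TWS-A, matrix form** (unconditional). -/
theorem stmt_H1_matrix : Stmt_H1_matrix :=
  stmt_H1_matrix_of (stmt_H1_kill_of Fermat.Agent.S56.TWS.H64.stmt_H1_N34)
    Fermat.Agent.S56.TWS.H01.stmt_H1_avg

end Fermat.Agent.S56.TWS.H74

end
-- ==== END Fermat.Agent.S56.TWS.H74_Matrix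

-- ==== BEGIN Fermat.Agent.S56.Wiring
section

set_option autoImplicit false

/-!
# Cluster T / S56: top-level wiring

`wiring` proves the frozen statement S56 (same binders, same conclusion) from the five packages of
`Leaves.lean`.  No `sorry`.
-/

namespace Fermat.Agent.S56

open Polynomial IsLocalRing

theorem wiring (hsurj : Stmt_surj) (hstSO : Stmt_stable_SO) (hstFl : Stmt_stable_Fl)
    (hTWSO : Stmt_TW_SO) (hTWFl : Stmt_TW_Fl)
    {𝒪 : Type} [CommRing 𝒪] [IsDomain 𝒪] [IsDiscreteValuationRing 𝒪]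
    [IsAdicComplete (maximalIdeal 𝒪) 𝒪] [Finite (ResidueField 𝒪)]
    (p : ℕ) [Fact p.Prime] (hp2 : p ≠ 2) (hp𝒪 : (p : 𝒪) ∈ maximalIdeal 𝒪)
    (ρbar : ResidualGaloisRep (ResidueField 𝒪))
    (habs : ρbar.IsAbsolutelyIrreducible)
    (hdet : (GaloisRepAdic.ofResidualGaloisRep ρbar).DetIsCyclotomic p)
    (hsplit : ∀ σ : AlgebraicClosure ℚ ≃ₐ[ℚ] AlgebraicClosure ℚ,
      ∃ α β : ResidueField 𝒪, LinearMap.charpoly (ρbar.ρ σ) = (X - C α) * (X - C β))
    (hTW : ∀ (K : Type) [Field K] [Algebra (ResidueField 𝒪) K]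
      (G : Subgroup (AlgebraicClosure ℚ ≃ₐ[ℚ] AlgebraicClosure ℚ)), G.index = 2 →
      ∀ V : Submodule K (ρbar.baseChange K).V,
        (∀ σ ∈ G, ∀ x ∈ V, (ρbar.baseChange K).ρ σ x ∈ V) → V = ⊥ ∨ V = ⊤)
    (S Smin : Finset ℕ) (hpSmin : p ∈ Smin) (hSmin : Smin ⊆ S) (hS : ∀ q ∈ S, q.Prime)
    (hmin : ∀ q : ℕ, q.Prime → q ≠ p → (q ∈ Smin ↔ ¬ ρbar.IsUnramifiedAt q)) :
    (∃ r : ℕ, ∀ n : ℕ, ∃ qv : Fin r → ℕ, Function.Injective qv ∧
      (∀ i, (qv i).Prime ∧ qv i ∉ S ∧ p ^ (n + 1) ∣ qv i - 1) ∧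
      (∀ i, ∀ P : ValuationSubring (AlgebraicClosure ℚ), P.LiesOverPrime (qv i) →
        ∀ φ : AlgebraicClosure ℚ ≃ₐ[ℚ] AlgebraicClosure ℚ, P.IsFrobeniusAt φ (qv i) →
          ∃ α β : ResidueField 𝒪, α ≠ β ∧ LinearMap.charpoly (ρbar.ρ φ) = (X - C α) * (X - C β)) ∧
      ∀ DQ : GaloisRep.DeformationRingData 𝒪 ρbar (fun _A _ _ _ ρ =>
          GaloisRep.strictOrdinaryCondition 𝒪 p (Smin ∪ Finset.univ.image qv) ρ ∧
            ∀ q ∈ Smin, q.Prime → q ≠ p → ρ.IsUnipotentOnInertiaAt q),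
        ∃ γ : MvPowerSeries (Fin r) 𝒪 →ₐ[𝒪] DQ.R, Function.Surjective γ) ∧
    (∃ r : ℕ, ∀ n : ℕ, ∃ qv : Fin r → ℕ, Function.Injective qv ∧
      (∀ i, (qv i).Prime ∧ qv i ∉ S ∧ p ^ (n + 1) ∣ qv i - 1) ∧
      (∀ i, ∀ P : ValuationSubring (AlgebraicClosure ℚ), P.LiesOverPrime (qv i) →
        ∀ φ : AlgebraicClosure ℚ ≃ₐ[ℚ] AlgebraicClosure ℚ, P.IsFrobeniusAt φ (qv i) →
          ∃ α β : ResidueField 𝒪, α ≠ β ∧ LinearMap.charpoly (ρbar.ρ φ) = (X - C α) * (X - C β)) ∧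
      ∀ DQ : GaloisRep.DeformationRingData 𝒪 ρbar (fun _A _ _ _ ρ =>
          GaloisRep.flatCondition 𝒪 p (Smin ∪ Finset.univ.image qv) ρ ∧
            ∀ q ∈ Smin, q.Prime → q ≠ p → ρ.IsUnipotentOnInertiaAt q),
        ∃ γ : MvPowerSeries (Fin r) 𝒪 →ₐ[𝒪] DQ.R, Function.Surjective γ) := by
  have hyp : Hyp 𝒪 p ρbar S Smin :=
    ⟨hp2, hp𝒪, habs, hdet, hsplit, hTW, hpSmin, hSmin, hS, hmin⟩
  constructor
  · obtain ⟨r, hr⟩ := hTWSO 𝒪 p ρbar S Smin hyp
    refine ⟨r, fun n => ?_⟩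
    obtain ⟨qv, ⟨h1, h2, h3⟩, hT⟩ := hr n
    refine ⟨qv, h1, h2, h3, fun DQ => ?_⟩
    exact hsurj 𝒪 ρbar (condSO 𝒪 p Smin (Finset.univ.image qv)) r
      (hstSO 𝒪 p Smin (Finset.univ.image qv)) hT DQ
  · obtain ⟨r, hr⟩ := hTWFl 𝒪 p ρbar S Smin hyp
    refine ⟨r, fun n => ?_⟩
    obtain ⟨qv, ⟨h1, h2, h3⟩, hT⟩ := hr n
    refine ⟨qv, h1, h2, h3, fun DQ => ?_⟩
    exact hsurj 𝒪 ρbar (condFl 𝒪 p Smin (Finset.univ.image qv)) r
      (hstFl 𝒪 p Smin (Finset.univ.image qv)) hT DQ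

end Fermat.Agent.S56

end
-- ==== END Fermat.Agent.S56.Wiring
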