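-- GENERATED (merged mirror, NOTES/tools/trim/merge3_helper67.py): 8 modules of the originals, bodies verbatim.
import Fermat.Agent.Zm.S56_L07_000
import Fermat.Agent.Zm.S56_L04_000
import Fermat.Agent.Zm.S35_L03_001
import Fermat.Agent.Zm.S56_L07_004
import Fermat.Agent.Zm.S56_L05_003
import Fermat.Agent.Zm.S56_L06_003
import Fermat.Agent.Zm.S56_L07_003
import Fermat.Agent.Zm.S56_L07_005
import Fermat.Agent.Zm.S56_L02_000

-- ==== BEGIN Fermat.Agent.S55.CFT.GS.H6_CD_K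
section

set_option autoImplicit false

open scoped Pointwise

noncomputable section

namespace Fermat.Agent.S55.CFT.GS.H6

open Fermat.Agent.S55 Fermat.Agent.S55.Top Fermat.Agent.Lib.FrobExists
  Fermat.Agent.Lib.InertiaBridge

local notation "Qb" => AlgebraicClosure ℚ

/-! ### Roots of unity are distinct modulo a place of different residue characteristic -/

theorem valuation_le_one_of_pow_eq_one (A : ValuationSubring Qb) (ζ : Qb) (n : ℕ) (hn : n ≠ 0)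
    (hζ : ζ ^ n = 1) : A.valuation ζ = 1 := by
  have h := congrArg A.valuation hζ
  rw [map_pow, map_one] at h
  rcases pow_eq_one_iff.mp h with h1 | h1
  · exact h1
  · exact absurd h1 hn

/-- A `p`-th root of unity congruent to `1` modulo a place over `q ≠ p` is `1`. -/
theorem eq_one_of_pow_eq_one (A : ValuationSubring Qb) (q p : ℕ) (hq : q.Prime) (hp : p.Prime)
    (hpq : p ≠ q) (hA : A.LiesOverPrime q) (ζ : Qb) (hζ : ζ ^ p = 1)
    (h : A.valuation (ζ - 1) < 1) : ζ = 1 := by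
  by_contra hne
  have hprim : IsPrimitiveRoot ζ p := by
    have hF : Fact p.Prime := ⟨hp⟩
    have h1 := IsPrimitiveRoot.orderOf ζ
    rwa [orderOf_eq_prime hζ hne] at h1
  obtain ⟨n, rfl⟩ : ∃ n, p = n + 2 := ⟨p - 2, by have := hp.two_le; omega⟩
  have hprod := IsPrimitiveRoot.prod_one_sub_pow_eq_order (n := n + 1) hprim
  have hζ1 : A.valuation ζ = 1 := valuation_le_one_of_pow_eq_one A ζ (n + 2) (by omega) hζ
  have hfac : ∀ k : ℕ, A.valuation (1 - ζ ^ (k + 1)) ≤ 1 := by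
    intro k
    have h1 : A.valuation (1 - ζ ^ (k + 1)) ≤ max (A.valuation 1) (A.valuation (ζ ^ (k + 1))) :=
      A.valuation.map_sub _ _
    rw [map_one, map_pow, hζ1, one_pow, max_self] at h1
    exact h1
  have hlt : A.valuation (∏ k ∈ Finset.range (n + 1), (1 - ζ ^ (k + 1))) < 1 := by
    rw [Finset.prod_range_succ', map_mul, zero_add, pow_one]
    have h0 : A.valuation (1 - ζ) < 1 := by
      rw [← neg_sub, Valuation.map_neg]
      exact h
    have h1 : A.valuation (∏ k ∈ Finset.range n, (1 - ζ ^ (k + 1 + 1))) ≤ 1 := by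
      rw [map_prod]
      exact Finset.prod_le_one' fun k _ => hfac (k + 1)
    calc A.valuation (∏ k ∈ Finset.range n, (1 - ζ ^ (k + 1 + 1))) * A.valuation (1 - ζ)
        ≤ 1 * A.valuation (1 - ζ) := mul_le_mul_left h1 _
      _ = A.valuation (1 - ζ) := one_mul _
      _ < 1 := h0
  rw [hprod] at hlt
  have hnd : ¬ (q : ℤ) ∣ ((n + 2 : ℕ) : ℤ) := by
    intro hdvd
    have h1 : q ∣ n + 2 := by exact_mod_cast hdvd
    exact hpq ((Nat.prime_dvd_prime_iff_eq hq hp).mp h1).symm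
  have h1 := valuation_intCast_eq_one A q hq hA ((n + 2 : ℕ) : ℤ) hnd
  have h2 : (((n + 2 : ℕ) : ℤ) : Qb) = ((n + 1 : ℕ) : Qb) + 1 := by push_cast; ring
  rw [h2] at h1
  rw [h1] at hlt
  exact lt_irrefl _ hlt

/-! ### Orders -/

/-- `k` is the order of `x` at `A` (a place over `q`): `|x|_A = |q|_A ^ k`. -/
def IsOrd (A : ValuationSubring Qb) (q : ℕ) (x : Qb) (k : ℤ) : Prop :=
  A.valuation x = A.valuation (q : Qb) ^ k

theorem valuation_eq_one_iff_mem (A : ValuationSubring Qb) (x : Qb) (hx : x ≠ 0) :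
    A.valuation x = 1 ↔ x ∈ A ∧ x⁻¹ ∈ A := by
  rw [← A.valuation_le_one_iff, ← A.valuation_le_one_iff, map_inv₀]
  have h0 : A.valuation x ≠ 0 := (Valuation.ne_zero_iff _).mpr hx
  constructor
  · intro h
    rw [h]
    simp
  · rintro ⟨h1, h2⟩
    refine le_antisymm h1 ?_
    rwa [inv_le_one₀ (zero_lt_iff.mpr h0)] at h2

section ord

variable (A : ValuationSubring Qb) (q : ℕ)

theorem val_q_ne_zero (hq : q.Prime) : A.valuation (q : Qb) ≠ 0 :=
  (Valuation.ne_zero_iff _).mpr (by exact_mod_cast hq.ne_zero)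

theorem val_q_lt_one (hA : A.LiesOverPrime q) : A.valuation (q : Qb) < 1 :=
  A.mem_nonunits_iff.mp hA

variable {A q}

theorem IsOrd.unique (hq : q.Prime) (hA : A.LiesOverPrime q) {x : Qb} {k l : ℤ}
    (h : IsOrd A q x k) (h' : IsOrd A q x l) : k = l := by
  have h1 : A.valuation (q : Qb) ^ k = A.valuation (q : Qb) ^ l := h.symm.trans h'
  exact zpow_right_injective₀ (zero_lt_iff.mpr (val_q_ne_zero A q hq)) (val_q_lt_one A q hA).ne h1

theorem IsOrd.ne_zero (hq : q.Prime) {x : Qb} {k : ℤ} (h : IsOrd A q x k) : x ≠ 0 := by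
  intro hx
  rw [IsOrd, hx, map_zero] at h
  exact zpow_ne_zero k (val_q_ne_zero A q hq) h.symm

theorem isOrd_one : IsOrd A q 1 0 := by
  rw [IsOrd, map_one, zpow_zero]

theorem isOrd_q : IsOrd A q (q : Qb) 1 := by
  rw [IsOrd, zpow_one]

theorem IsOrd.mul (hq : q.Prime) {x y : Qb} {k l : ℤ} (h : IsOrd A q x k) (h' : IsOrd A q y l) :
    IsOrd A q (x * y) (k + l) := by
  rw [IsOrd, map_mul, h, h', zpow_add₀ (val_q_ne_zero A q hq)]

theorem IsOrd.inv {x : Qb} {k : ℤ} (h : IsOrd A q x k) : IsOrd A q x⁻¹ (-k) := by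
  rw [IsOrd, map_inv₀, h, zpow_neg]

theorem IsOrd.div (hq : q.Prime) {x y : Qb} {k l : ℤ} (h : IsOrd A q x k) (h' : IsOrd A q y l) :
    IsOrd A q (x / y) (k - l) := by
  rw [div_eq_mul_inv, sub_eq_add_neg]
  exact h.mul hq h'.inv

theorem IsOrd.pow {x : Qb} {k : ℤ} (h : IsOrd A q x k) (n : ℕ) :
    IsOrd A q (x ^ n) (n * k) := by
  rw [IsOrd, map_pow, h, ← zpow_natCast, ← zpow_mul, mul_comm]

theorem IsOrd.zpow {x : Qb} {k : ℤ} (h : IsOrd A q x k) (n : ℤ) :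
    IsOrd A q (x ^ n) (n * k) := by
  rw [IsOrd, map_zpow₀, h, ← zpow_mul, mul_comm]

theorem isOrd_zero_iff {x : Qb} : IsOrd A q x 0 ↔ A.valuation x = 1 := by
  rw [IsOrd, zpow_zero]

/-- `IsOrd` in terms of units: `x q^(-k)` is a unit of `A`. -/
theorem isOrd_iff_unit (hq : q.Prime) {x : Qb} {k : ℤ} :
    IsOrd A q x k ↔ A.valuation (x * (q : Qb) ^ (-k)) = 1 := by
  rw [IsOrd, map_mul, map_zpow₀, zpow_neg]
  have h0 : A.valuation (q : Qb) ^ k ≠ 0 := zpow_ne_zero k (val_q_ne_zero A q hq)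
  rw [mul_inv_eq_one₀ h0]

/-- Galois transport of orders. -/
theorem isOrd_smul_iff (hq : q.Prime) (g : GQ) {x : Qb} {k : ℤ} :
    IsOrd (g • A) q (g x) k ↔ IsOrd A q x k := by
  by_cases hx : x = 0
  · subst hx
    rw [map_zero]
    constructor
    · intro h; exact absurd rfl (h.ne_zero hq)
    · intro h; exact absurd rfl (h.ne_zero hq)
  have hq0 : (q : Qb) ≠ 0 := by exact_mod_cast hq.ne_zero
  have hy : x * (q : Qb) ^ (-k) ≠ 0 := mul_ne_zero hx (zpow_ne_zero _ hq0)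
  have hgy : g (x * (q : Qb) ^ (-k)) = g x * (q : Qb) ^ (-k) := by
    rw [map_mul, map_zpow₀, map_natCast]
  have hgy0 : g x * (q : Qb) ^ (-k) ≠ 0 := by
    rw [← hgy]
    exact (map_ne_zero g).mpr hy
  rw [isOrd_iff_unit hq, isOrd_iff_unit hq, valuation_eq_one_iff_mem _ _ hgy0,
    valuation_eq_one_iff_mem _ _ hy, ← hgy, ← map_inv₀]
  have h1 : ∀ y : Qb, g y ∈ g • A ↔ y ∈ A := fun y =>
    ValuationSubring.smul_mem_pointwise_smul_iff (g := g)
  rw [h1, h1]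

/-- Elements of `Ω` have an order at every place outside `S`. -/
theorem exists_isOrd (S : Finset Nat.Primes) (q' : Nat.Primes) (hqS : q' ∉ S)
    (A : ValuationSubring Qb) (hA : A.LiesOverPrime (q' : ℕ)) (x : Qb) (hx : x ≠ 0)
    (hΩ : InOm S x) : ∃ k : ℤ, IsOrd A (q' : ℕ) x k := by
  obtain ⟨F, hF, hxF⟩ := hΩ
  refine Fermat.Agent.R.H6.stmt_UnrFix (q' : ℕ) q'.2 A hA x hx fun σ hσ => ?_
  have h1 := hF.2 q' hqS A hA hσ
  exact (IntermediateField.mem_fixingSubgroup_iff F σ).mp h1 x hxF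

end ord

/-! ### The Kummer criterion -/

/-- An automorphism fixing `t` fixes `ℚ(t)`. -/
theorem mem_fixingSubgroup_adjoin (σ : GQ) (t : Qb) (h : σ t = t) :
    σ ∈ (IntermediateField.adjoin ℚ {t}).fixingSubgroup := by
  rw [IntermediateField.mem_fixingSubgroup_iff]
  have hle : IntermediateField.adjoin ℚ {t} ≤
      IntermediateField.fixedField (Subgroup.zpowers σ) := by
    rw [IntermediateField.adjoin_le_iff]
    intro y hy
    rw [Set.mem_singleton_iff] at hy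
    subst hy
    rw [SetLike.mem_coe, IntermediateField.mem_fixedField_iff]
    rintro τ ⟨n, rfl⟩
    have hmem : σ ∈ MulAction.stabilizer GQ y := h
    exact zpow_mem hmem n
  intro y hy
  have := hle hy
  rw [IntermediateField.mem_fixedField_iff] at this
  exact this σ (Subgroup.mem_zpowers σ)

/-- `Ω` is closed under `p`-th roots of elements whose orders outside `S` are divisible by `p`
(`p ∈ S`). -/
theorem inOm_of_pow (S : Finset Nat.Primes) (p : ℕ) (hp : p.Prime)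
    (hpS : ∀ q : Nat.Primes, q ∉ S → (q : ℕ) ≠ p) (t x : Qb) (hx0 : x ≠ 0) (htx : t ^ p = x)
    (hx : InOm S x)
    (hord : ∀ q : Nat.Primes, q ∉ S → ∀ A : ValuationSubring Qb, A.LiesOverPrime (q : ℕ) →
      ∃ m : ℤ, IsOrd A (q : ℕ) x (p * m)) : InOm S t := by
  obtain ⟨F, hF, hxF⟩ := hx
  have ht0 : t ≠ 0 := by
    rintro rfl
    rw [zero_pow hp.ne_zero] at htx
    exact hx0 htx.symm
  have hFfd := hF.1
  have hint : IsIntegral ℚ t := (AlgebraicClosure.isAlgebraic ℚ).isAlgebraic t |>.isIntegral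
  have hfd2 : FiniteDimensional ℚ (IntermediateField.adjoin ℚ {t}) :=
    IntermediateField.adjoin.finiteDimensional hint
  refine ⟨F ⊔ IntermediateField.adjoin ℚ {t},
    ⟨IntermediateField.finiteDimensional_sup F _, fun q hq A hA σ hσ => ?_⟩,
    (le_sup_right : IntermediateField.adjoin ℚ {t} ≤ _)
      (IntermediateField.mem_adjoin_simple_self ℚ t)⟩
  rw [IntermediateField.fixingSubgroup_sup]
  refine ⟨hF.2 q hq A hA hσ, mem_fixingSubgroup_adjoin σ t ?_⟩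
  -- `σ x = x`
  have hσx : σ x = x :=
    (IntermediateField.mem_fixingSubgroup_iff F σ).mp (hF.2 q hq A hA hσ) x hxF
  obtain ⟨m, hm⟩ := hord q hq A hA
  have hq0 : (q : Qb) ≠ 0 := by exact_mod_cast q.2.ne_zero
  -- the unit `u = t q^(-m)`
  set u : Qb := t * (q : Qb) ^ (-m) with hu
  have hup : u ^ p = x * (q : Qb) ^ (-((p : ℤ) * m)) := by
    rw [hu, mul_pow, htx, ← zpow_natCast, ← zpow_mul, neg_mul, mul_comm m]
  have hu1 : A.valuation u = 1 := by
    have h1 := (isOrd_iff_unit q.2).mp hm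
    rw [← hup, map_pow] at h1
    rcases pow_eq_one_iff.mp h1 with h2 | h2
    · exact h2
    · exact absurd h2 hp.ne_zero
  have huA : u ∈ A := (A.valuation_le_one_iff u).mp hu1.le
  have hlt := ((mem_inertiaSubgroupIn_iff_forall A σ).mp hσ).2 u huA
  -- `ζ = σ t / t`
  have hζp : (σ t / t) ^ p = 1 := by
    rw [div_pow, ← map_pow, htx, hσx, div_self hx0]
  have hσu : σ u - u = (σ t / t - 1) * u := by
    rw [hu, map_mul, map_zpow₀, map_natCast]
    field_simp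
  rw [hσu, map_mul, hu1, mul_one] at hlt
  have hζ1 := eq_one_of_pow_eq_one A q p q.2 hp (fun h => hpS q hq h.symm) hA (σ t / t) hζp hlt
  rwa [div_eq_one_iff_eq ht0] at hζ1

/-- **Kummer criterion**: `x ∈ Ωˣ` is a `p`-th power in `Ω` iff all its orders at the places
outside `S` are divisible by `p`. -/
theorem inW_iff (S : Finset Nat.Primes) (p : ℕ) (hp : p.Prime)
    (hpS : ∀ q : Nat.Primes, q ∉ S → (q : ℕ) ≠ p) (x : Qbˣ) (hx : InOm S (x : Qb)) :
    InW S p x ↔ ∀ q : Nat.Primes, q ∉ S → ∀ A : ValuationSubring Qb,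
      A.LiesOverPrime (q : ℕ) → ∃ m : ℤ, IsOrd A (q : ℕ) (x : Qb) (p * m) := by
  constructor
  · rintro ⟨t, ht, rfl⟩ q hq A hA
    obtain ⟨m, hm⟩ := exists_isOrd S q hq A hA (t : Qb) t.ne_zero ht
    refine ⟨m, ?_⟩
    have := hm.pow p
    rwa [Units.val_pow_eq_pow_val]
  · intro h
    obtain ⟨t, ht⟩ := IsAlgClosed.exists_pow_nat_eq (x : Qb) hp.pos
    have ht0 : t ≠ 0 := by
      rintro rfl
      rw [zero_pow hp.ne_zero] at ht
      exact x.ne_zero ht.symm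
    refine ⟨Units.mk0 t ht0, inOm_of_pow S p hp hpS t x x.ne_zero ht hx h, ?_⟩
    apply Units.ext
    rw [Units.val_pow_eq_pow_val]
    exact ht

end Fermat.Agent.S55.CFT.GS.H6

end
end
-- ==== END Fermat.Agent.S55.CFT.GS.H6_CD_K

-- ==== BEGIN Fermat.Agent.S55.Top.ConeMaps
section

set_option autoImplicit false
set_option linter.unusedSectionVars false
set_option linter.unusedSimpArgs false

open CategoryTheory Module groupCohomology ExtCitation

noncomputable section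

namespace Fermat.Agent.S55.Top

open Fermat.Agent.S55 OrbitData

attribute [local instance] locAct

variable {k : Type} [Field k] {S : Finset Nat.Primes}
  {K : IntermediateField ℚ (AlgebraicClosure ℚ)}

/-! ### The differentials of `FX` in coordinates -/

lemma dZero_FX (m : FX k K) : dZero (FX k K) m = d0 (m : XK K → k) := rfl

lemma dOne_FX (f : GQ → FX k K) : dOne (FX k K) f = d1 (f : GQ → XK K → k) := rfl

lemma dTwo_FX (f : GQ × GQ → FX k K) : dTwo (FX k K) f = d2 (f : GQ × GQ → XK K → k) := rfl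

lemma dThree_FX (f : GQ × GQ × GQ → FX k K) :
    dThree (FX k K) f = d3 (f : GQ × GQ × GQ → XK K → k) := rfl

lemma dZeroL_FX (q : Nat.Primes) (m : FX k K) :
    dZeroL (FX k K) q m = d0 (Γ := Gl q) (m : XK K → k) := by
  funext h x
  show m ((rl q h)⁻¹ • x) - m x = m (h⁻¹ • x) - m x
  rw [locAct_smul, map_inv]

lemma dOneL_FX (q : Nat.Primes) (f : Gl q → FX k K) :
    dOneL (FX k K) q f = d1 (f : Gl q → XK K → k) := by
  funext t x
  show f t.2 ((rl q t.1)⁻¹ • x) - f (t.1 * t.2) x + f t.1 x = _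
  simp only [d1, locAct_smul, map_inv]

lemma dTwoL_FX (q : Nat.Primes) (f : Gl q × Gl q → FX k K) :
    dTwoL (FX k K) q f = d2 (f : Gl q × Gl q → XK K → k) := by
  funext t x
  show f (t.2.1, t.2.2) ((rl q t.1)⁻¹ • x) - f (t.1 * t.2.1, t.2.2) x + f (t.1, t.2.1 * t.2.2) x
    - f (t.1, t.2.1) x = _
  simp only [d2, locAct_smul, map_inv]

lemma res_d1 (q : Nat.Primes) (B : GQ → XK K → k) :
    resTwo q (d1 B) = d1 (resOne q B) := by
  rw [← dOneL_FX]
  exact resTwo_dOne (M := FX k K) (q := q) B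

lemma res_d2 (q : Nat.Primes) (B : GQ × GQ → XK K → k) :
    resThree q (d2 B) = d2 (resTwo q B) := by
  rw [← dTwoL_FX]
  exact resThree_dTwo (M := FX k K) (q := q) B

lemma resOne_sub' (q : Nat.Primes) (B B' : GQ → XK K → k) :
    resOne q (B - B') = resOne q B - resOne q B' := rfl

lemma resTwo_sub' (q : Nat.Primes) (B B' : GQ × GQ → XK K → k) :
    resTwo q (B - B') = resTwo q B - resTwo q B' := rfl

lemma resThree_sub' (q : Nat.Primes) (B B' : GQ × GQ × GQ → XK K → k) :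
    resThree q (B - B') = resThree q B - resThree q B' := rfl

lemma resTwo_add' (q : Nat.Primes) (B B' : GQ × GQ → XK K → k) :
    resTwo q (B + B') = resTwo q B + resTwo q B' := rfl

lemma resThree_add' (q : Nat.Primes) (B B' : GQ × GQ × GQ → XK K → k) :
    resThree q (B + B') = resThree q B + resThree q B' := rfl

lemma resThree_zero' (q : Nat.Primes) :
    resThree q (0 : GQ × GQ × GQ → XK K → k) = 0 := rfl

variable (𝔓 : PlaceSys S K)

/-! ### The `K`-level cone differentials -/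

/-- `K`-level cone differential `C¹ → C²` (the local `d⁰` vanishes). -/
def PlaceSys.dK1 (y : 𝔓.C1 k) : 𝔓.C2 k := (tOne y.1, fun q w => 𝔓.res₁ q w y.1)

/-- `K`-level cone differential `C² → C³`. -/
def PlaceSys.dK2 (x : 𝔓.C2 k) : 𝔓.C3 k :=
  (tTwo x.1, fun q w => 𝔓.res₂ q w x.1 - tOne (x.2 q w))

/-! ### The maps -/

/-- `U₁`. -/
def PlaceSys.U₁ (y : 𝔓.C1 k) : C1c S (FX k K) :=
  (𝔓.indK₁ y.1, fun q => (𝔓.loc q).ind0 (y.2 q) + (𝔓.loc q).hty1 (resOne q.1 (𝔓.indK₁ y.1)))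

/-- `U₂`. -/
def PlaceSys.U₂ (x : 𝔓.C2 k) : C2c S (FX k K) :=
  (𝔓.indK₂ x.1, fun q => 𝔓.indL₁ q (x.2 q) + (𝔓.loc q).hty2 (resTwo q.1 (𝔓.indK₂ x.1)))

/-- `U₃`. -/
def PlaceSys.U₃ (x : 𝔓.C3 k) : C3c S (FX k K) :=
  (𝔓.indK₃ x.1, fun q => 𝔓.indL₂ q (x.2 q) + (𝔓.loc q).hty3 (resThree q.1 (𝔓.indK₃ x.1)))

/-- `Sh₂`. -/
def PlaceSys.Sh₂ (y : C2c S (FX k K)) : 𝔓.C2 k :=
  (𝔓.shK₂ y.1, fun q => 𝔓.shL₁ q (y.2 q - resOne q.1 (𝔓.glob.hty2 y.1)))

/-- `Sh₃`. -/
def PlaceSys.Sh₃ (x : C3c S (FX k K)) : 𝔓.C3 k :=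
  (𝔓.shK₃ x.1, fun q => 𝔓.shL₂ q (x.2 q - resTwo q.1 (𝔓.glob.hty3 x.1)))

/-- the cone homotopy `C² → C¹`. -/
def PlaceSys.H₂ (y : C2c S (FX k K)) : C1c S (FX k K) :=
  (𝔓.glob.hty2 y.1, fun q => - (𝔓.loc q).hty1 (y.2 q - resOne q.1 (𝔓.glob.hty2 y.1)))

/-- the cone homotopy `C³ → C²`. -/
def PlaceSys.H₃ (x : C3c S (FX k K)) : C2c S (FX k K) :=
  (𝔓.glob.hty3 x.1, fun q => - (𝔓.loc q).hty2 (x.2 q - resTwo q.1 (𝔓.glob.hty3 x.1)))

/-! ### `U` commutes with the differentials -/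

lemma PlaceSys.U₂_dK1 (y : 𝔓.C1 k) : 𝔓.U₂ (𝔓.dK1 y) = dCone1 S (FX k K) (𝔓.U₁ y) := by
  refine Prod.ext ?_ (funext fun q => ?_)
  · show 𝔓.indK₂ (tOne y.1) = d1 (𝔓.indK₁ y.1)
    rw [𝔓.d1_indK₁]
  · show 𝔓.indL₁ q (fun w => 𝔓.res₁ q w y.1) +
        (𝔓.loc q).hty2 (resTwo q.1 (𝔓.indK₂ (tOne y.1))) =
      resOne q.1 (𝔓.indK₁ y.1) - dZeroL (FX k K) q.1
        ((𝔓.loc q).ind0 (y.2 q) + (𝔓.loc q).hty1 (resOne q.1 (𝔓.indK₁ y.1)))
    have h := (𝔓.loc q).hty_one' (resOne q.1 (𝔓.indK₁ y.1))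
    rw [𝔓.ind_sh_res_ind₁, ← res_d1, 𝔓.d1_indK₁] at h
    rw [dZeroL_FX, d0_add, d0_ind0]
    have h0 : (fun (_ : Gl q.1) (_ : XK K) => (0 : k)) = 0 := rfl
    rw [h0, zero_add]
    linear_combination (exp := 1) -h

lemma PlaceSys.U₃_dK2 (x : 𝔓.C2 k) : 𝔓.U₃ (𝔓.dK2 x) = dCone2 S (FX k K) (𝔓.U₂ x) := by
  refine Prod.ext ?_ (funext fun q => ?_)
  · show 𝔓.indK₃ (tTwo x.1) = d2 (𝔓.indK₂ x.1)
    rw [𝔓.d2_indK₂]
  · show 𝔓.indL₂ q (fun w => 𝔓.res₂ q w x.1 - tOne (x.2 q w)) +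
        (𝔓.loc q).hty3 (resThree q.1 (𝔓.indK₃ (tTwo x.1))) =
      resTwo q.1 (𝔓.indK₂ x.1) - dOneL (FX k K) q.1
        (𝔓.indL₁ q (x.2 q) + (𝔓.loc q).hty2 (resTwo q.1 (𝔓.indK₂ x.1)))
    have h := (𝔓.loc q).hty_two' (resTwo q.1 (𝔓.indK₂ x.1))
    rw [𝔓.ind_sh_res_ind₂, ← res_d2, 𝔓.d2_indK₂] at h
    rw [dOneL_FX, d1_add, 𝔓.d1_indL₁]
    have h1 : 𝔓.indL₂ q (fun w => 𝔓.res₂ q w x.1 - tOne (x.2 q w)) =
        𝔓.indL₂ q (fun w => 𝔓.res₂ q w x.1) - 𝔓.indL₂ q (fun w => tOne (x.2 q w)) := by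
      unfold PlaceSys.indL₂
      rw [← ind2_sub, ← 𝔓.eL₂_sub]
      rfl
    rw [h1]
    linear_combination (exp := 1) -h

/-! ### `U` of zero -/

lemma PlaceSys.indK₂_zero : 𝔓.indK₂ (0 : ↥K.fixingSubgroup × ↥K.fixingSubgroup → k) = 0 := by
  unfold PlaceSys.indK₂
  rw [eG₂_zero]
  rfl

lemma PlaceSys.indK₃_zero :
    𝔓.indK₃ (0 : ↥K.fixingSubgroup × ↥K.fixingSubgroup × ↥K.fixingSubgroup → k) = 0 := by
  unfold PlaceSys.indK₃
  rw [eG₃_zero]
  rfl

lemma PlaceSys.indL₁_zero (q : ↥S) : 𝔓.indL₁ q (0 : ∀ w : 𝔓.W q, 𝔓.Γw q w → k) = 0 := by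
  unfold PlaceSys.indL₁
  rw [𝔓.eL₁_zero]
  rfl

lemma PlaceSys.indL₂_zero (q : ↥S) :
    𝔓.indL₂ q (0 : ∀ w : 𝔓.W q, 𝔓.Γw q w × 𝔓.Γw q w → k) = 0 := by
  unfold PlaceSys.indL₂
  rw [𝔓.eL₂_zero]
  rfl

lemma PlaceSys.U₂_zero : 𝔓.U₂ (0 : 𝔓.C2 k) = 0 := by
  refine Prod.ext ?_ (funext fun q => ?_)
  · exact 𝔓.indK₂_zero
  · show 𝔓.indL₁ q 0 + (𝔓.loc q).hty2 (resTwo q.1 (𝔓.indK₂ 0)) = 0
    rw [𝔓.indL₁_zero, 𝔓.indK₂_zero]
    have : resTwo q.1 (0 : GQ × GQ → XK K → k) = 0 := rfl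
    rw [this, hty2_zero, add_zero]

lemma PlaceSys.U₃_zero : 𝔓.U₃ (0 : 𝔓.C3 k) = 0 := by
  refine Prod.ext ?_ (funext fun q => ?_)
  · exact 𝔓.indK₃_zero
  · show 𝔓.indL₂ q 0 + (𝔓.loc q).hty3 (resThree q.1 (𝔓.indK₃ 0)) = 0
    rw [𝔓.indL₂_zero, 𝔓.indK₃_zero, resThree_zero', hty3_zero, add_zero]

/-! ### `Sh` maps cocycles to cocycles -/

lemma PlaceSys.dK2_Sh₂ (y : C2c S (FX k K)) (hy : dCone2 S (FX k K) y = 0) :
    𝔓.dK2 (𝔓.Sh₂ y) = 0 := by
  have h1 : d2 (y.1 : GQ × GQ → XK K → k) = 0 := congrArg Prod.fst hy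
  have h2 : ∀ q : ↥S, resTwo q.1 y.1 = d1 (y.2 q : Gl q.1 → XK K → k) := fun q => by
    have := congrFun (congrArg Prod.snd hy) q
    rw [← dOneL_FX]
    exact sub_eq_zero.1 this
  refine Prod.ext ?_ (funext fun q => funext fun w => ?_)
  · show tTwo (𝔓.shK₂ y.1) = 0
    rw [𝔓.tTwo_shK₂, h1]
    rfl
  · show 𝔓.res₂ q w (𝔓.shK₂ y.1) -
      tOne (𝔓.shL₁ q (y.2 q - resOne q.1 (𝔓.glob.hty2 y.1)) w) = 0
    rw [𝔓.tOne_shL₁, d1_sub, ← res_d1, ← h2 q, ← resTwo_sub']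
    have h := 𝔓.glob.hty_two' y.1
    rw [h1, hty3_zero, add_zero] at h
    rw [← h, sub_sub_cancel, ← 𝔓.indK₂_shK₂, 𝔓.sh_res_ind₂, sub_self]

lemma PlaceSys.isZ_Sh₃ (x : C3c S (FX k K)) (h1 : d3 (x.1 : GQ × GQ × GQ → XK K → k) = 0)
    (h2 : ∀ q : ↥S, resThree q.1 x.1 = d2 (x.2 q : Gl q.1 × Gl q.1 → XK K → k)) :
    tThree (𝔓.Sh₃ x).1 = 0 ∧
      ∀ (q : ↥S) (w : 𝔓.W q), 𝔓.res₃ q w (𝔓.Sh₃ x).1 = tTwo ((𝔓.Sh₃ x).2 q w) := by
  refine ⟨𝔓.tThree_shK₃ x.1 h1, fun q w => funext fun t => ?_⟩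
  show 𝔓.res₃ q w (𝔓.shK₃ x.1) t = tTwo (𝔓.shL₂ q (x.2 q - resTwo q.1 (𝔓.glob.hty3 x.1)) w) t
  rw [𝔓.tTwo_shL₂, d2_sub, ← res_d2, ← h2 q, ← resThree_sub']
  have h := 𝔓.glob.hty_three' x.1
  rw [h1, hty4_zero, add_zero] at h
  rw [← h, sub_sub_cancel, ← 𝔓.indK₃_shK₃, 𝔓.sh_res_ind₃]

/-! ### The cone homotopy -/

lemma PlaceSys.sub_U₂_Sh₂ (y : C2c S (FX k K)) (hy : dCone2 S (FX k K) y = 0) :
    y - 𝔓.U₂ (𝔓.Sh₂ y) = dCone1 S (FX k K) (𝔓.H₂ y) := by
  have h1 : d2 (y.1 : GQ × GQ → XK K → k) = 0 := congrArg Prod.fst hy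
  have h2 : ∀ q : ↥S, resTwo q.1 y.1 = d1 (y.2 q : Gl q.1 → XK K → k) := fun q => by
    have := congrFun (congrArg Prod.snd hy) q
    rw [← dOneL_FX]
    exact sub_eq_zero.1 this
  have hg := 𝔓.glob.hty_two' y.1
  rw [h1, hty3_zero, add_zero] at hg
  refine Prod.ext ?_ (funext fun q => ?_)
  · show y.1 - 𝔓.indK₂ (𝔓.shK₂ y.1) = d1 (𝔓.glob.hty2 y.1)
    rw [𝔓.indK₂_shK₂, hg]
  · show y.2 q - (𝔓.indL₁ q (𝔓.shL₁ q (y.2 q - resOne q.1 (𝔓.glob.hty2 y.1))) +
        (𝔓.loc q).hty2 (resTwo q.1 (𝔓.indK₂ (𝔓.shK₂ y.1)))) =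
      resOne q.1 (𝔓.glob.hty2 y.1) - dZeroL (FX k K) q.1
        (- (𝔓.loc q).hty1 (y.2 q - resOne q.1 (𝔓.glob.hty2 y.1)))
    have hY : d1 (y.2 q - resOne q.1 (𝔓.glob.hty2 y.1)) =
        resTwo q.1 (𝔓.indK₂ (𝔓.shK₂ y.1)) := by
      rw [d1_sub, ← res_d1, ← h2 q, ← resTwo_sub', ← hg, sub_sub_cancel, 𝔓.indK₂_shK₂]
    have hl := (𝔓.loc q).hty_one' (y.2 q - resOne q.1 (𝔓.glob.hty2 y.1))
    rw [hY] at hl
    rw [𝔓.indL₁_shL₁, dZeroL_FX, d0_neg]
    linear_combination (exp := 1) hl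

lemma PlaceSys.sub_U₃_Sh₃ (x : C3c S (FX k K))
    (h1 : d3 (x.1 : GQ × GQ × GQ → XK K → k) = 0)
    (h2 : ∀ q : ↥S, resThree q.1 x.1 = d2 (x.2 q : Gl q.1 × Gl q.1 → XK K → k)) :
    x - 𝔓.U₃ (𝔓.Sh₃ x) = dCone2 S (FX k K) (𝔓.H₃ x) := by
  have hg := 𝔓.glob.hty_three' x.1
  rw [h1, hty4_zero, add_zero] at hg
  refine Prod.ext ?_ (funext fun q => ?_)
  · show x.1 - 𝔓.indK₃ (𝔓.shK₃ x.1) = d2 (𝔓.glob.hty3 x.1)
    rw [𝔓.indK₃_shK₃, hg]
  · show x.2 q - (𝔓.indL₂ q (𝔓.shL₂ q (x.2 q - resTwo q.1 (𝔓.glob.hty3 x.1))) +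
        (𝔓.loc q).hty3 (resThree q.1 (𝔓.indK₃ (𝔓.shK₃ x.1)))) =
      resTwo q.1 (𝔓.glob.hty3 x.1) - dOneL (FX k K) q.1
        (- (𝔓.loc q).hty2 (x.2 q - resTwo q.1 (𝔓.glob.hty3 x.1)))
    have hY : d2 (x.2 q - resTwo q.1 (𝔓.glob.hty3 x.1)) =
        resThree q.1 (𝔓.indK₃ (𝔓.shK₃ x.1)) := by
      rw [d2_sub, ← res_d2, ← h2 q, ← resThree_sub', ← hg, sub_sub_cancel, 𝔓.indK₃_shK₃]
    have hl := (𝔓.loc q).hty_two' (x.2 q - resTwo q.1 (𝔓.glob.hty3 x.1))
    rw [hY] at hl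
    rw [𝔓.indL₂_shL₂, dOneL_FX, d1_neg]
    linear_combination (exp := 1) hl

end Fermat.Agent.S55.Top

end

end
-- ==== END Fermat.Agent.S55.Top.ConeMaps

-- ==== BEGIN Fermat.Agent.S55.Top.G1K_Field
section

set_option autoImplicit false
set_option linter.unusedSectionVars false
set_option linter.unusedSimpArgs false

open CategoryTheory Module groupCohomology ExtCitation

noncomputable section

namespace Fermat.Agent.S55.Top

open Fermat.Agent.S55

section field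

variable {p : ℕ} [Fact p.Prime] {S : Finset Nat.Primes}
  {K : IntermediateField ℚ (AlgebraicClosure ℚ)}

lemma g1k_hom_inv {Δ : Type} [Group Δ] {b : Δ → ZMod p} (hb : tOne b = 0) (g : Δ) :
    b g⁻¹ = - b g := by
  have h1 := H48.hom_mul hb g g⁻¹
  rw [mul_inv_cancel, H48.hom_one hb] at h1
  linear_combination -h1

lemma g1k_hom_pow {Δ : Type} [Group Δ] {b : Δ → ZMod p} (hb : tOne b = 0) (g : Δ) (n : ℕ) :
    b (g ^ n) = n * b g := by
  induction n with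
  | zero => simp [H48.hom_one hb]
  | succ n ih =>
    rw [pow_succ, H48.hom_mul hb, ih]
    push_cast
    ring

/-- The kernel of `b`, as a subgroup of `G_ℚ`. -/
def kerG (b : ↥K.fixingSubgroup → ZMod p) (hb : tOne b = 0) : Subgroup GQ where
  carrier := {g | ∃ h : g ∈ K.fixingSubgroup, b ⟨g, h⟩ = 0}
  one_mem' := ⟨K.fixingSubgroup.one_mem, H48.hom_one hb⟩
  mul_mem' := by
    rintro g g' ⟨h, hg⟩ ⟨h', hg'⟩
    refine ⟨K.fixingSubgroup.mul_mem h h', ?_⟩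
    have := H48.hom_mul hb (⟨g, h⟩ : ↥K.fixingSubgroup) ⟨g', h'⟩
    rw [hg, hg', add_zero] at this
    exact this
  inv_mem' := by
    rintro g ⟨h, hg⟩
    refine ⟨K.fixingSubgroup.inv_mem h, ?_⟩
    have := g1k_hom_inv hb (⟨g, h⟩ : ↥K.fixingSubgroup)
    rw [hg, neg_zero] at this
    exact this

lemma mem_kerG {b : ↥K.fixingSubgroup → ZMod p} {hb : tOne b = 0} {g : GQ} :
    g ∈ kerG b hb ↔ ∃ h : g ∈ K.fixingSubgroup, b ⟨g, h⟩ = 0 := Iff.rfl

/-- The field `K(b)`: the fixed field of the kernel of `b`. -/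
def Kb (b : ↥K.fixingSubgroup → ZMod p) (hb : tOne b = 0) :
    IntermediateField ℚ (AlgebraicClosure ℚ) :=
  IntermediateField.fixedField (kerG b hb)

/-- `G_{K(b)} = ker b`, and `K(b)` is contained in the compositum of `K` and a level field of
`b`. -/
theorem Kb_spec (hK : K.IsUnramifiedOutside S) {b : ↥K.fixingSubgroup → ZMod p}
    (hb : IsZ1K S K b) :
    (Kb b hb.1).fixingSubgroup = kerG b hb.1 ∧ (Kb b hb.1).IsUnramifiedOutside S ∧
      K ≤ Kb b hb.1 := by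
  obtain ⟨F, hF, hFb⟩ := H48.hom_level hb
  have hKF := hK.sup hF
  haveI : FiniteDimensional ℚ ↥(K ⊔ F) := hKF.1
  have hle : (K ⊔ F).fixingSubgroup ≤ kerG b hb.1 := by
    intro s hs
    rw [IntermediateField.fixingSubgroup_sup] at hs
    exact ⟨hs.1, hFb ⟨s, hs.1⟩ hs.2⟩
  obtain ⟨h1, h2, -⟩ := H13.fixedField_of_le (K ⊔ F) (kerG b hb.1) hle
  refine ⟨h1, IntermediateField.IsUnramifiedOutside.of_le h2 hKF, ?_⟩
  intro x hx
  show x ∈ IntermediateField.fixedField (kerG b hb.1)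
  rw [IntermediateField.mem_fixedField_iff]
  rintro s ⟨hs, -⟩
  exact (IntermediateField.mem_fixingSubgroup_iff K s).1 hs x hx

/-- `K(b)` is a base field. -/
theorem Kb_isBaseField (hK : IsBaseField S p K) {b : ↥K.fixingSubgroup → ZMod p}
    (hb : IsZ1K S K b) : IsBaseField S p (Kb b hb.1) := by
  obtain ⟨h1, h2, h3⟩ := Kb_spec hK.1 hb
  obtain ⟨ζ, hζ, hζp⟩ := hK.2
  exact ⟨h2, ζ, h3 hζ, hζp⟩

end field

end Fermat.Agent.S55.Top

end

end
-- ==== END Fermat.Agent.S55.Top.G1K_Field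

-- ==== BEGIN Fermat.Agent.S55.Top.H48_PTPair
section

set_option autoImplicit false

open CategoryTheory Module groupCohomology ExtCitation

noncomputable section

namespace Fermat.Agent.S55.Top.H48

open Fermat.Agent.S55 Fermat.Agent.S55.Top

variable {k : Type} [Field k] {S : Finset Nat.Primes}
  {K : IntermediateField ℚ (AlgebraicClosure ℚ)} (𝔓 : PlaceSys S K)

/-! ### Cone 3-coboundaries as a submodule -/

lemma dCone2K_add (u u' : 𝔓.C2 k) : dCone2K 𝔓 (u + u') = dCone2K 𝔓 u + dCone2K 𝔓 u' := by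
  refine Prod.ext (tTwo_add u.1 u'.1) (funext fun q => funext fun w => funext fun t => ?_)
  simp only [dCone2K, Prod.snd_add, Prod.fst_add, Pi.add_apply, Pi.sub_apply, PlaceSys.res₂,
    tOne]
  ring

lemma dCone2K_smul (c : k) (u : 𝔓.C2 k) : dCone2K 𝔓 (c • u) = c • dCone2K 𝔓 u := by
  refine Prod.ext (tTwo_smul c u.1) (funext fun q => funext fun w => funext fun t => ?_)
  simp only [dCone2K, Prod.smul_snd, Prod.smul_fst, Pi.smul_apply, Pi.sub_apply, PlaceSys.res₂,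
    tOne, smul_eq_mul]
  ring

lemma dCone2K_zero : dCone2K 𝔓 (0 : 𝔓.C2 k) = 0 := by
  have := dCone2K_smul 𝔓 (0 : k) (0 : 𝔓.C2 k)
  rwa [zero_smul, zero_smul] at this

variable (k) in
/-- The `K`-level cone 3-coboundaries. -/
def B3cK : Submodule k (𝔓.C3 k) where
  carrier := {z | IsB3cK 𝔓 z}
  add_mem' := by
    intro z z' hz hz'
    obtain ⟨u, h1, h2, rfl⟩ := (isB3cK_iff 𝔓 z).1 hz
    obtain ⟨u', h1', h2', rfl⟩ := (isB3cK_iff 𝔓 z').1 hz'
    exact (isB3cK_iff 𝔓 _).2 ⟨u + u', h1.add h1', fun q w => (h2 q w).add (h2' q w),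
      (dCone2K_add 𝔓 u u').symm⟩
  zero_mem' := (isB3cK_iff 𝔓 _).2 ⟨0, isLevK₂_const (0 : k),
    fun q w => isLevelConstant₁_const (𝔓.rw q w) (0 : k), (dCone2K_zero 𝔓).symm⟩
  smul_mem' := by
    intro c z hz
    obtain ⟨u, h1, h2, rfl⟩ := (isB3cK_iff 𝔓 z).1 hz
    exact (isB3cK_iff 𝔓 _).2 ⟨c • u, h1.comp (c • ·), fun q w => (h2 q w).comp (c • ·),
      (dCone2K_smul 𝔓 c u).symm⟩

lemma mem_B3cK (z : 𝔓.C3 k) : z ∈ B3cK k 𝔓 ↔ IsB3cK 𝔓 z := Iff.rfl

variable {𝔓}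

lemma tr_eq_of_sub (tr : TraceK 𝔓 k) {z z' : 𝔓.C3 k} (h : IsB3cK 𝔓 (z - z')) :
    tr.toFun z = tr.toFun z' := by
  have := tr.zero_of_isB3cK _ h
  rwa [map_sub, sub_eq_zero] at this

/-! ### Bilinearity of the cups -/

lemma cupA2K_add_left (x x' : 𝔓.C2 k) (b : ↥K.fixingSubgroup → k) :
    cupA2K 𝔓 (x + x') b = cupA2K 𝔓 x b + cupA2K 𝔓 x' b := by
  refine Prod.ext (funext fun t => ?_) (funext fun q => funext fun w => funext fun t => ?_)
  · simp only [cupA2K, Prod.fst_add, Pi.add_apply]; ring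
  · simp only [cupA2K, Prod.snd_add, Pi.add_apply]; ring

lemma cupA2K_smul_left (c : k) (x : 𝔓.C2 k) (b : ↥K.fixingSubgroup → k) :
    cupA2K 𝔓 (c • x) b = c • cupA2K 𝔓 x b := by
  refine Prod.ext (funext fun t => ?_) (funext fun q => funext fun w => funext fun t => ?_)
  · simp only [cupA2K, Prod.smul_fst, Pi.smul_apply, smul_eq_mul]; ring
  · simp only [cupA2K, Prod.smul_snd, Pi.smul_apply, smul_eq_mul]; ring

lemma cupA2K_add_right (x : 𝔓.C2 k) (b b' : ↥K.fixingSubgroup → k) :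
    cupA2K 𝔓 x (b + b') = cupA2K 𝔓 x b + cupA2K 𝔓 x b' := by
  refine Prod.ext (funext fun t => ?_) (funext fun q => funext fun w => funext fun t => ?_)
  · simp only [cupA2K, Prod.fst_add, Pi.add_apply]; ring
  · simp only [cupA2K, Prod.snd_add, Pi.add_apply]; ring

lemma cupA2K_smul_right (c : k) (x : 𝔓.C2 k) (b : ↥K.fixingSubgroup → k) :
    cupA2K 𝔓 x (c • b) = c • cupA2K 𝔓 x b := by
  refine Prod.ext (funext fun t => ?_) (funext fun q => funext fun w => funext fun t => ?_)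
  · simp only [cupA2K, Prod.smul_fst, Pi.smul_apply, smul_eq_mul]; ring
  · simp only [cupA2K, Prod.smul_snd, Pi.smul_apply, smul_eq_mul]; ring

lemma cupB1K_add_left (a a' : ↥K.fixingSubgroup × ↥K.fixingSubgroup → k) (y : 𝔓.C1 k) :
    cupB1K 𝔓 (a + a') y = cupB1K 𝔓 a y + cupB1K 𝔓 a' y := by
  refine Prod.ext (funext fun t => ?_) (funext fun q => funext fun w => funext fun t => ?_)
  · simp only [cupB1K, Prod.fst_add, Pi.add_apply]; ring
  · simp only [cupB1K, Prod.snd_add, Pi.add_apply]; ring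

lemma cupB1K_smul_left (c : k) (a : ↥K.fixingSubgroup × ↥K.fixingSubgroup → k) (y : 𝔓.C1 k) :
    cupB1K 𝔓 (c • a) y = c • cupB1K 𝔓 a y := by
  refine Prod.ext (funext fun t => ?_) (funext fun q => funext fun w => funext fun t => ?_)
  · simp only [cupB1K, Prod.smul_fst, Pi.smul_apply, smul_eq_mul]; ring
  · simp only [cupB1K, Prod.smul_snd, Pi.smul_apply, smul_eq_mul]; ring

lemma cupB1K_add_right (a : ↥K.fixingSubgroup × ↥K.fixingSubgroup → k) (y y' : 𝔓.C1 k) :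
    cupB1K 𝔓 a (y + y') = cupB1K 𝔓 a y + cupB1K 𝔓 a y' := by
  refine Prod.ext (funext fun t => ?_) (funext fun q => funext fun w => funext fun t => ?_)
  · simp only [cupB1K, Prod.fst_add, Pi.add_apply]; ring
  · simp only [cupB1K, Prod.snd_add, Pi.add_apply]; ring

lemma cupB1K_smul_right (c : k) (a : ↥K.fixingSubgroup × ↥K.fixingSubgroup → k) (y : 𝔓.C1 k) :
    cupB1K 𝔓 a (c • y) = c • cupB1K 𝔓 a y := by
  refine Prod.ext (funext fun t => ?_) (funext fun q => funext fun w => funext fun t => ?_)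
  · simp only [cupB1K, Prod.smul_fst, Pi.smul_apply, smul_eq_mul]; ring
  · simp only [cupB1K, Prod.smul_snd, Pi.smul_apply, smul_eq_mul]; ring

/-- The cone 3-cochain `(0, g ∪ b)` of two families of local 1-cochains. -/
def cupLoc (g b : ∀ (q : ↥S) (w : 𝔓.W q), 𝔓.Γw q w → k) : 𝔓.C3 k :=
  (0, fun q w t => g q w t.1 * b q w t.2)

lemma cupLoc_add_left (g g' b : ∀ (q : ↥S) (w : 𝔓.W q), 𝔓.Γw q w → k) :
    cupLoc (g + g') b = cupLoc g b + cupLoc g' b := by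
  refine Prod.ext ?_ (funext fun q => funext fun w => funext fun t => ?_)
  · show (0 : ↥K.fixingSubgroup × ↥K.fixingSubgroup × ↥K.fixingSubgroup → k) = 0 + 0
    rw [add_zero]
  · simp only [cupLoc, Prod.snd_add, Pi.add_apply]; ring

lemma cupLoc_smul_left (c : k) (g b : ∀ (q : ↥S) (w : 𝔓.W q), 𝔓.Γw q w → k) :
    cupLoc (c • g) b = c • cupLoc g b := by
  refine Prod.ext ?_ (funext fun q => funext fun w => funext fun t => ?_)
  · show (0 : ↥K.fixingSubgroup × ↥K.fixingSubgroup × ↥K.fixingSubgroup → k) =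
      c • (0 : ↥K.fixingSubgroup × ↥K.fixingSubgroup × ↥K.fixingSubgroup → k)
    rw [smul_zero]
  · simp only [cupLoc, Prod.smul_snd, Pi.smul_apply, smul_eq_mul]; ring

lemma cupLoc_add_right (g b b' : ∀ (q : ↥S) (w : 𝔓.W q), 𝔓.Γw q w → k) :
    cupLoc g (b + b') = cupLoc g b + cupLoc g b' := by
  refine Prod.ext ?_ (funext fun q => funext fun w => funext fun t => ?_)
  · show (0 : ↥K.fixingSubgroup × ↥K.fixingSubgroup × ↥K.fixingSubgroup → k) = 0 + 0
    rw [add_zero]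
  · simp only [cupLoc, Prod.snd_add, Pi.add_apply]; ring

lemma cupLoc_smul_right (c : k) (g b : ∀ (q : ↥S) (w : 𝔓.W q), 𝔓.Γw q w → k) :
    cupLoc g (c • b) = c • cupLoc g b := by
  refine Prod.ext ?_ (funext fun q => funext fun w => funext fun t => ?_)
  · show (0 : ↥K.fixingSubgroup × ↥K.fixingSubgroup × ↥K.fixingSubgroup → k) =
      c • (0 : ↥K.fixingSubgroup × ↥K.fixingSubgroup × ↥K.fixingSubgroup → k)
    rw [smul_zero]
  · simp only [cupLoc, Prod.smul_snd, Pi.smul_apply, smul_eq_mul]; ring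

/-! ### The pairings -/

variable (tr : TraceK 𝔓 k)

/-- The pairing `Z²_c × Z¹ → k`. -/
def ΦL0 : ↥(Z2cK k 𝔓) →ₗ[k] ↥(Z1K k S K) →ₗ[k] k :=
  LinearMap.mk₂ k (fun x b => tr.toFun (cupA2K 𝔓 x.1 b.1))
    (fun x x' b => by
      show tr.toFun (cupA2K 𝔓 (x.1 + x'.1) b.1) = _
      rw [cupA2K_add_left, map_add])
    (fun c x b => by
      show tr.toFun (cupA2K 𝔓 (c • x.1) b.1) = _
      rw [cupA2K_smul_left, map_smul])
    (fun x b b' => by
      show tr.toFun (cupA2K 𝔓 x.1 (b.1 + b'.1)) = _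
      rw [cupA2K_add_right, map_add])
    (fun c x b => by
      show tr.toFun (cupA2K 𝔓 x.1 (c • b.1)) = _
      rw [cupA2K_smul_right, map_smul])

lemma ΦL0_apply (x : ↥(Z2cK k 𝔓)) (b : ↥(Z1K k S K)) :
    ΦL0 tr x b = tr.toFun (cupA2K 𝔓 x.1 b.1) := rfl

/-- The pairing `H²_c × H¹ → k`. -/
def ΦL : Hc2 k 𝔓 →ₗ[k] ↥(Z1K k S K) →ₗ[k] k :=
  Submodule.liftQ _ (ΦL0 tr) (by
    intro x hx
    obtain ⟨f, hf, hxf⟩ := (isB2cK_iff 𝔓 x.1).1 hx
    rw [LinearMap.mem_ker]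
    apply LinearMap.ext
    intro b
    rw [ΦL0_apply, hxf, cupA2K_dCone1K 𝔓 f b.1 b.2.1]
    exact tr.zero_of_isB3cK _ (isB3cK_dCone2K 𝔓 (levK₂_mul hf b.2.2)
      (fun q w => isLevelConstant₁_const (𝔓.rw q w) (0 : k))))

lemma ΦL_mk (x : ↥(Z2cK k 𝔓)) (b : ↥(Z1K k S K)) :
    ΦL tr (Submodule.Quotient.mk x) b = tr.toFun (cupA2K 𝔓 x.1 b.1) := rfl

/-- The pairing `Z² × Z¹_c → k`. -/
def ΨR0 : ↥(Z2K k S K) →ₗ[k] ↥(Z1cK k 𝔓) →ₗ[k] k :=
  LinearMap.mk₂ k (fun a y => tr.toFun (cupB1K 𝔓 a.1 y.1))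
    (fun a a' y => by
      show tr.toFun (cupB1K 𝔓 (a.1 + a'.1) y.1) = _
      rw [cupB1K_add_left, map_add])
    (fun c a y => by
      show tr.toFun (cupB1K 𝔓 (c • a.1) y.1) = _
      rw [cupB1K_smul_left, map_smul])
    (fun a y y' => by
      show tr.toFun (cupB1K 𝔓 a.1 (y.1 + y'.1)) = _
      rw [cupB1K_add_right, map_add])
    (fun c a y => by
      show tr.toFun (cupB1K 𝔓 a.1 (c • y.1)) = _
      rw [cupB1K_smul_right, map_smul])

lemma ΨR0_apply (a : ↥(Z2K k S K)) (y : ↥(Z1cK k 𝔓)) :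
    ΨR0 tr a y = tr.toFun (cupB1K 𝔓 a.1 y.1) := rfl

/-- The pairing `H² × Z¹_c → k`. -/
def ΨR : H2K k S K →ₗ[k] ↥(Z1cK k 𝔓) →ₗ[k] k :=
  Submodule.liftQ _ (ΨR0 tr) (by
    intro a ha
    obtain ⟨f, hf, hfa⟩ := (ha : IsB2K S K a.1)
    have hfa : tOne f = a.1 := hfa
    rw [LinearMap.mem_ker]
    apply LinearMap.ext
    intro y
    rw [ΨR0_apply, ← hfa, cupB1K_tOne 𝔓 f y.1 y.2]
    refine tr.zero_of_isB3cK _ (isB3cK_dCone2K 𝔓 (levK₂_mul hf y.2.1.2) (fun q w => ?_))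
    exact _root_.Fermat.Agent.S55.Top.H48.levL₁_neg q w (levL₁_smul q w (y.1.2 q w) (levL₁_res₁ hf q w)))

lemma ΨR_mk (a : ↥(Z2K k S K)) (y : ↥(Z1cK k 𝔓)) :
    ΨR tr (Submodule.Quotient.mk a) y = tr.toFun (cupB1K 𝔓 a.1 y.1) := rfl

/-- The local pairing `⊕ H¹(K_w) × ⊕ H¹(K_w) → k`. -/
def lam : P1 k 𝔓 →ₗ[k] P1 k 𝔓 →ₗ[k] k :=
  LinearMap.mk₂ k (fun g b => tr.toFun (cupLoc (fun q w => (g q w).1) (fun q w => (b q w).1)))
    (fun g g' b => by
      show tr.toFun (cupLoc ((fun q w => (g q w).1) + (fun q w => (g' q w).1)) _) = _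
      rw [cupLoc_add_left, map_add])
    (fun c g b => by
      show tr.toFun (cupLoc (c • (fun q w => (g q w).1)) _) = _
      rw [cupLoc_smul_left, map_smul])
    (fun g b b' => by
      show tr.toFun (cupLoc _ ((fun q w => (b q w).1) + (fun q w => (b' q w).1))) = _
      rw [cupLoc_add_right, map_add])
    (fun c g b => by
      show tr.toFun (cupLoc _ (c • (fun q w => (b q w).1))) = _
      rw [cupLoc_smul_right, map_smul])

lemma lam_apply (g b : P1 k 𝔓) :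
    lam tr g b = tr.toFun (cupLoc (fun q w => (g q w).1) (fun q w => (b q w).1)) := rfl

/-! ### Formal properties -/

/-- Compatibility with the connecting map. -/
lemma ΦL_δ1 (g : P1 k 𝔓) (a : ↥(Z1K k S K)) : ΦL tr (δ1 k 𝔓 g) a = lam tr g (r1 k 𝔓 a) := by
  show tr.toFun (cupA2K 𝔓 (δ1c k 𝔓 g).1 a.1) = _
  rw [lam_apply]
  congr 1
  refine Prod.ext (funext fun t => ?_) rfl
  show (0 : k) * _ = 0
  rw [zero_mul]

/-- Adjointness. -/
lemma ΦL_π1 (x : Hc2 k 𝔓) (y : ↥(Z1cK k 𝔓)) : ΦL tr x (π1 k 𝔓 y) = ΨR tr (π2 k 𝔓 x) y := by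
  obtain ⟨x, rfl⟩ := Submodule.mkQ_surjective _ x
  show tr.toFun (cupA2K 𝔓 x.1 y.1.1) = tr.toFun (cupB1K 𝔓 x.1.1 y.1)
  apply tr_eq_of_sub
  rw [cupA2K_sub_cupB1K 𝔓 x.1 y.1 x.2 y.2]
  refine isB3cK_dCone2K 𝔓 (isLevK₂_const (0 : k)) (fun q w => ?_)
  exact levL₁_smul q w (y.1.2 q w) (x.2.2 q w).1

/-- Isotropy of the image of the global classes. -/
lemma lam_r1_r1 (a a' : ↥(Z1K k S K)) : lam tr (r1 k 𝔓 a) (r1 k 𝔓 a') = 0 := by
  rw [lam_apply]
  have := isotropy 𝔓 a.1 a'.1 a.2.1 a'.2.1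
  refine tr.zero_of_isB3cK _ ?_
  show IsB3cK 𝔓 ((0, fun q w t => 𝔓.res₁ q w a.1 t.1 * 𝔓.res₁ q w a'.1 t.2) : 𝔓.C3 k)
  rw [this]
  exact isB3cK_dCone2K 𝔓 (levK₂_mul a.2.2 a'.2.2)
    (fun q w => isLevelConstant₁_const (𝔓.rw q w) (0 : k))

end Fermat.Agent.S55.Top.H48

end

end
-- ==== END Fermat.Agent.S55.Top.H48_PTPair

-- ==== BEGIN Fermat.Agent.S56.Dict.H74_Cont
section

/-!
# S56 dictionary (helper74), package DICT-3: the class of a first-order deformation unramified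
outside `Sg` lies in `continuousH1S Sg`
-/

set_option autoImplicit false

noncomputable section

namespace Fermat.Agent.S56.Dict

open Fermat.Agent.S53 TrivSqZeroExt IsLocalRing groupCohomology
open scoped TensorProduct

section Galois

theorem qbarIsGalois : IsGalois ℚ (AlgebraicClosure ℚ) :=
  letI : Algebra.IsAlgebraic ℚ (AlgebraicClosure ℚ) := AlgebraicClosure.isAlgebraic ℚ
  letI : IsAlgClosure ℚ (AlgebraicClosure ℚ) := ⟨inferInstance, inferInstance⟩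
  inferInstance

attribute [local instance] qbarIsGalois

/-- A subgroup of `G_ℚ` containing the fixing subgroup of a finite extension is the fixing
subgroup of a finite extension. -/
theorem exists_field_fixingSubgroup_eq (H : Subgroup _root_.Fermat.Agent.S56.GQ)
    (L : IntermediateField ℚ (AlgebraicClosure ℚ)) [FiniteDimensional ℚ L]
    (hL : L.fixingSubgroup ≤ H) :
    ∃ F : IntermediateField ℚ (AlgebraicClosure ℚ), FiniteDimensional ℚ F ∧
      F.fixingSubgroup = H := by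
  have hopen : IsOpen (H : Set _root_.Fermat.Agent.S56.GQ) := Subgroup.isOpen_mono hL L.fixingSubgroup_isOpen
  have hclosed : IsClosed (H : Set _root_.Fermat.Agent.S56.GQ) := Subgroup.isClosed_of_isOpen H hopen
  have hle : IntermediateField.fixedField H ≤ L := by
    have := IntermediateField.fixedField_antitone hL
    rwa [InfiniteGalois.fixedField_fixingSubgroup L] at this
  refine ⟨IntermediateField.fixedField H, ?_, ?_⟩
  · exact FiniteDimensional.of_injective (IntermediateField.inclusion hle).toLinearMap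
      (IntermediateField.inclusion_injective hle)
  · exact InfiniteGalois.fixingSubgroup_fixedField ⟨H, hclosed⟩

end Galois

section Proj

variable {k : Type} [Field k] (V : Type) [AddCommGroup V] [Module k V]

/-- the constant part `k[ε] ⊗ V → V` -/
def proj₁ : (DualNumber k ⊗[k] V) →ₗ[k] V :=
  (TensorProduct.lid k V).toLinearMap ∘ₗ
    LinearMap.rTensor V ((TrivSqZeroExt.fstHom k k k).toLinearMap)

/-- the `ε`-part `k[ε] ⊗ V → V` -/
def proj₂ : (DualNumber k ⊗[k] V) →ₗ[k] V :=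
  (TensorProduct.lid k V).toLinearMap ∘ₗ
    LinearMap.rTensor V (TrivSqZeroExt.sndHom k k)

@[simp] lemma proj₁_tmul (d : DualNumber k) (v : V) : proj₁ V (d ⊗ₜ[k] v) = d.fst • v := by
  simp [proj₁]

@[simp] lemma proj₂_tmul (d : DualNumber k) (v : V) : proj₂ V (d ⊗ₜ[k] v) = d.snd • v := by
  simp [proj₂]

end Proj

section Main

variable {𝒪 : Type} [CommRing 𝒪] [IsLocalRing 𝒪]
variable {ρbar : ResidualGaloisRep (ResidueField 𝒪)} {𝒟 : Cond 𝒪}

/-- the square of the maximal ideal of the dual numbers is zero -/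
lemma maximalIdeal_dualNumber_sq (k : Type) [Field k] :
    maximalIdeal (DualNumber k) ^ 2 = ⊥ := by
  rw [eq_bot_iff, pow_two, Ideal.mul_le]
  intro a ha b hb
  rw [mem_maximalIdeal, mem_nonunits_iff, TrivSqZeroExt.isUnit_iff_isUnit_fst, isUnit_iff_ne_zero,
    not_not] at ha hb
  rw [Ideal.mem_bot]
  ext
  · simp [ha]
  · simp [ha, hb]

/-- the kernel of a first-order deformation contains the fixing subgroup of a finite extension -/
lemma exists_finite_le_ker (x : TSub 𝒪 ρbar 𝒟) :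
    ∃ L : IntermediateField ℚ (AlgebraicClosure ℚ), FiniteDimensional ℚ L ∧
      L.fixingSubgroup ≤ (x.1.ρ).ker := by
  obtain ⟨L, hL, h⟩ := x.1.isAdicContinuous 2
  refine ⟨L, hL, fun σ hσ => ?_⟩
  rw [MonoidHom.mem_ker]
  refine LinearMap.ext fun v => ?_
  have h1 := h σ (fun y hy => (IntermediateField.mem_fixingSubgroup_iff L σ).mp hσ y hy) v
  rw [maximalIdeal_dualNumber_sq, Submodule.bot_smul, Submodule.mem_bot, sub_eq_zero] at h1
  exact h1

/-- a cocycle of `x` vanishes on the kernel of `x` -/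
lemma cocycle_eq_zero_of_mem_ker (x : TSub 𝒪 ρbar 𝒟)
    (c : _root_.Fermat.Agent.S56.GQ → Module.End (ResidueField 𝒪) ρbar.V) (hc : IsCocycleOf x c) (s : _root_.Fermat.Agent.S56.GQ)
    (hs : s ∈ (x.1.ρ).ker) : c s = 0 := by
  obtain ⟨θ, hθ⟩ := hc
  rw [MonoidHom.mem_ker] at hs
  have key : ∀ v : ρbar.V, ρbar.ρ s v = v ∧ c s (ρbar.ρ s v) = 0 := by
    intro v
    have h := hθ s v
    rw [hs, Module.End.one_apply] at h
    have h2 := θ.injective h
    have p1 := congrArg (proj₁ ρbar.V) h2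
    have p2 := congrArg (proj₂ ρbar.V) h2
    simp only [map_add, proj₁_tmul, proj₂_tmul, TrivSqZeroExt.fst_one, TrivSqZeroExt.snd_one,
      one_smul, zero_smul, DualNumber.fst_eps, DualNumber.snd_eps, add_zero, zero_add] at p1 p2
    exact ⟨p1.symm, p2.symm⟩
  refine LinearMap.ext fun v => ?_
  have h1 := (key v).2
  rw [(key v).1] at h1
  rw [h1, LinearMap.zero_apply]

/-- **Package DICT-3.** -/
theorem stmt_dict_cont : Stmt_dict_cont := by
  intro 𝒪 _ _ _ _ _ ρbar 𝒟 Sg x ξ hunr hξ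
  obtain ⟨c, hc, rfl⟩ := hξ
  obtain ⟨L, hL, hLle⟩ := exists_finite_le_ker x
  obtain ⟨F, hF, hFH⟩ := exists_field_fixingSubgroup_eq (x.1.ρ).ker L hLle
  refine (mem_continuousH1S_iff Sg (ad0 ρbar) _).mpr ⟨c, ⟨F, ⟨hF, ?_⟩, ?_⟩, rfl⟩
  · intro q hq A hA σ hσ
    rw [hFH, MonoidHom.mem_ker]
    exact hunr q hq A hA σ hσ
  · intro g s hs
    rw [hFH] at hs
    have hcs : (c : _root_.Fermat.Agent.S56.GQ → ad0 ρbar) s = 0 := by
      have := cocycle_eq_zero_of_mem_ker x _ hc s hs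
      exact Subtype.ext this
    have hcoc := (mem_cocycles₁_iff (c : _root_.Fermat.Agent.S56.GQ → ad0 ρbar)).mp c.2 g s
    rw [hcoc, hcs, map_zero, zero_add]

end Main

end Fermat.Agent.S56.Dict

end

end
-- ==== END Fermat.Agent.S56.Dict.H74_Cont

-- ==== BEGIN Fermat.Agent.S56.Dict.H74_Count
section

/-!
# S56 dictionary (helper74), package DICT-4: counting

If every first-order deformation has a class, equal classes give equivalent deformations and all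
classes lie in a subspace `W` of `H¹(G_ℚ, ad⁰ ρbar)` of dimension `≤ r`, then the tangent bound
`TangentLE 𝒪 ρbar 𝒟 r` holds.
-/

set_option autoImplicit false

noncomputable section

namespace Fermat.Agent.S56.Dict

open Fermat.Agent.S53 IsLocalRing groupCohomology

theorem tangentLE_of_classes {𝒪 : Type} [CommRing 𝒪] [IsLocalRing 𝒪] [Finite (ResidueField 𝒪)]
    (ρbar : ResidualGaloisRep (ResidueField 𝒪)) (𝒟 : Cond 𝒪) (r : ℕ)
    (hex : ∀ x : TSub 𝒪 ρbar 𝒟, ∃ ξ : H1 (ad0 ρbar), IsClassOf x ξ)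
    (hinj : ∀ (x y : TSub 𝒪 ρbar 𝒟) (ξ : H1 (ad0 ρbar)),
      IsClassOf x ξ → IsClassOf y ξ → x.1.IsEquiv y.1)
    (W : Submodule (ResidueField 𝒪) (H1 (ad0 ρbar))) (hWfin : Module.Finite (ResidueField 𝒪) W)
    (hW : ∀ (x : TSub 𝒪 ρbar 𝒟) (ξ : H1 (ad0 ρbar)), IsClassOf x ξ → ξ ∈ W)
    (hr : Module.finrank (ResidueField 𝒪) W ≤ r) :
    TangentLE 𝒪 ρbar 𝒟 r := by
  classical
  choose cls hcls using hex
  have hWfinite : Finite W := Module.finite_of_finite (ResidueField 𝒪)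
  -- the map to `W`
  let F : Quotient (TSetoid 𝒪 ρbar 𝒟) → W :=
    fun q => ⟨cls q.out, hW q.out _ (hcls q.out)⟩
  have hF : Function.Injective F := by
    intro q q' h
    have h1 : cls q.out = cls q'.out := congrArg Subtype.val h
    have h2 : q.out.1.IsEquiv q'.out.1 :=
      hinj q.out q'.out (cls q.out) (hcls q.out) (h1 ▸ hcls q'.out)
    have h3 : (Quotient.mk (TSetoid 𝒪 ρbar 𝒟) q.out) = Quotient.mk (TSetoid 𝒪 ρbar 𝒟) q'.out :=
      Quotient.sound h2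
    rwa [Quotient.out_eq, Quotient.out_eq] at h3
  have hfin : Finite (Quotient (TSetoid 𝒪 ρbar 𝒟)) := Finite.of_injective F hF
  refine ⟨hfin, ?_⟩
  have hcard : Nat.card (Quotient (TSetoid 𝒪 ρbar 𝒟)) ≤ Nat.card W :=
    Nat.card_le_card_of_injective F hF
  have hWcard : Nat.card W = Nat.card (ResidueField 𝒪) ^ Module.finrank (ResidueField 𝒪) W :=
    Module.natCard_eq_pow_finrank
  have hk : 0 < Nat.card (ResidueField 𝒪) := Nat.card_pos
  calc Nat.card (Quotient (TSetoid 𝒪 ρbar 𝒟)) ≤ Nat.card W := hcard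
    _ = Nat.card (ResidueField 𝒪) ^ Module.finrank (ResidueField 𝒪) W := hWcard
    _ ≤ Nat.card (ResidueField 𝒪) ^ r := Nat.pow_le_pow_right hk hr

end Fermat.Agent.S56.Dict

end

end
-- ==== END Fermat.Agent.S56.Dict.H74_Count

-- ==== BEGIN Fermat.Agent.S56.Dict.H74_Mat
section

/-!
# S56 dictionary (helper74): matrices over the dual numbers

For `r : M2 k[ε]` write `r = a + ε b` with `a = r.map fst`, `b = r.map snd`.
-/

set_option autoImplicit false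

noncomputable section

namespace Fermat.Agent.S56.Dict

open Fermat.Agent.S53 TrivSqZeroExt

variable {k : Type} [Field k]

/-- the constant part of a matrix over the dual numbers -/
def mfst (r : M2 (DualNumber k)) : M2 k := r.map TrivSqZeroExt.fst

/-- the `ε`-part of a matrix over the dual numbers -/
def msnd (r : M2 (DualNumber k)) : M2 k := r.map TrivSqZeroExt.snd

@[simp] lemma mfst_apply (r : M2 (DualNumber k)) (i j : Fin 2) : mfst r i j = (r i j).fst := rfl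
@[simp] lemma msnd_apply (r : M2 (DualNumber k)) (i j : Fin 2) : msnd r i j = (r i j).snd := rfl

lemma mfst_one : mfst (1 : M2 (DualNumber k)) = 1 := by
  ext i j
  fin_cases i <;> fin_cases j <;> simp [mfst]

lemma msnd_one : msnd (1 : M2 (DualNumber k)) = 0 := by
  ext i j
  fin_cases i <;> fin_cases j <;> simp [msnd]

lemma mfst_mul (r s : M2 (DualNumber k)) : mfst (r * s) = mfst r * mfst s := by
  ext i j
  simp [Matrix.mul_apply, Fin.sum_univ_two]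

lemma msnd_mul (r s : M2 (DualNumber k)) :
    msnd (r * s) = mfst r * msnd s + msnd r * mfst s := by
  ext i j
  simp [Matrix.mul_apply, Fin.sum_univ_two, Matrix.add_apply]
  ring

lemma ext_fst_snd {r s : M2 (DualNumber k)} (h1 : mfst r = mfst s) (h2 : msnd r = msnd s) :
    r = s := by
  ext i j
  · exact congrFun (congrFun h1 i) j
  · exact congrFun (congrFun h2 i) j

lemma fst_det (r : M2 (DualNumber k)) : (r.det).fst = (mfst r).det := by
  simp [Matrix.det_fin_two]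

/-- Jacobi's formula for `2 × 2` matrices over the dual numbers. -/
lemma snd_det (r : M2 (DualNumber k)) :
    (r.det).snd = (msnd r * (mfst r).adjugate).trace := by
  simp [Matrix.det_fin_two, Matrix.trace_fin_two, Matrix.mul_apply, Fin.sum_univ_two,
    Matrix.adjugate_fin_two]
  ring

end Fermat.Agent.S56.Dict

end

end
-- ==== END Fermat.Agent.S56.Dict.H74_Mat

-- ==== BEGIN Fermat.Agent.S56.Dict.H85_Inj
section

set_option autoImplicit false

/-!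
# Cluster T / S56, package DICT-2 (helper85): `Stmt_dict_inj`

Two first-order deformations `x`, `y` of `ρbar` with the same class in `H¹(G_ℚ, ad⁰ ρbar)` are
equivalent: if `c_x - c_y = d m` then `u = 1 + ε m` intertwines the two matrix forms
`(1 + ε c_x σ) ρbar σ` and `(1 + ε c_y σ) ρbar σ`.
-/

noncomputable section

namespace Fermat.Agent.S56.Dict.H85

open IsLocalRing CategoryTheory groupCohomology Fermat.Agent.S53 Fermat.Agent.S56
open scoped TensorProduct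

section Unipotent

variable {k : Type} [Field k] {V : Type} [AddCommGroup V] [Module k V]

/-- `ε • (1 ⊗ v) = ε ⊗ v`. -/
theorem eps_smul_one_tmul (v : V) :
    (DualNumber.eps : DualNumber k) • ((1 : DualNumber k) ⊗ₜ[k] v) = DualNumber.eps ⊗ₜ[k] v := by
  rw [TensorProduct.smul_tmul', smul_eq_mul, mul_one]

/-- `ε • (ε ⊗ v) = 0`. -/
theorem eps_smul_eps_tmul (v : V) :
    (DualNumber.eps : DualNumber k) • ((DualNumber.eps : DualNumber k) ⊗ₜ[k] v) = 0 := by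
  rw [TensorProduct.smul_tmul', smul_eq_mul, DualNumber.eps_mul_eps, TensorProduct.zero_tmul]

/-- The `k[ε]`-linear endomorphism `ε ⊗ m` of `k[ε] ⊗ V`. -/
def epsEnd (m : Module.End k V) : Module.End (DualNumber k) (DualNumber k ⊗[k] V) :=
  (DualNumber.eps : DualNumber k) • m.baseChange (DualNumber k)

theorem epsEnd_one_tmul (m : Module.End k V) (v : V) :
    epsEnd m ((1 : DualNumber k) ⊗ₜ[k] v) = (DualNumber.eps : DualNumber k) ⊗ₜ[k] (m v) := by
  rw [epsEnd, LinearMap.smul_apply, LinearMap.baseChange_tmul, eps_smul_one_tmul]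

theorem epsEnd_eps_tmul (m : Module.End k V) (v : V) :
    epsEnd m ((DualNumber.eps : DualNumber k) ⊗ₜ[k] v) = 0 := by
  rw [epsEnd, LinearMap.smul_apply, LinearMap.baseChange_tmul, eps_smul_eps_tmul]

theorem epsEnd_apply (m : Module.End k V) (w : DualNumber k ⊗[k] V) :
    epsEnd m w = (DualNumber.eps : DualNumber k) • m.baseChange (DualNumber k) w := rfl

theorem epsEnd_epsEnd (m m' : Module.End k V) (w : DualNumber k ⊗[k] V) :
    epsEnd m (epsEnd m' w) = 0 := by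
  rw [epsEnd_apply m', map_smul, epsEnd_apply m, smul_smul, DualNumber.eps_mul_eps, zero_smul]

/-- The automorphism `1 + ε m` of `k[ε] ⊗ V`. -/
def unip (m : Module.End k V) :
    (DualNumber k ⊗[k] V) ≃ₗ[DualNumber k] (DualNumber k ⊗[k] V) where
  toFun w := w + epsEnd m w
  invFun w := w - epsEnd m w
  map_add' a b := by
    rw [map_add]
    abel
  map_smul' r a := by
    rw [map_smul, RingHom.id_apply, smul_add]
  left_inv w := by
    change (w + epsEnd m w) - epsEnd m (w + epsEnd m w) = w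
    rw [map_add, epsEnd_epsEnd, add_zero, add_sub_cancel_right]
  right_inv w := by
    change (w - epsEnd m w) + epsEnd m (w - epsEnd m w) = w
    rw [map_sub, epsEnd_epsEnd, sub_zero, sub_add_cancel]

theorem unip_apply (m : Module.End k V) (w : DualNumber k ⊗[k] V) :
    unip m w = w + epsEnd m w := rfl

theorem unip_one_tmul (m : Module.End k V) (v : V) :
    unip m ((1 : DualNumber k) ⊗ₜ[k] v)
      = (1 : DualNumber k) ⊗ₜ[k] v + (DualNumber.eps : DualNumber k) ⊗ₜ[k] (m v) := by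
  rw [unip_apply, epsEnd_one_tmul]

theorem unip_eps_tmul (m : Module.End k V) (v : V) :
    unip m ((DualNumber.eps : DualNumber k) ⊗ₜ[k] v) = (DualNumber.eps : DualNumber k) ⊗ₜ[k] v := by
  rw [unip_apply, epsEnd_eps_tmul, add_zero]

end Unipotent


section Main

variable {k : Type} [Field k] (ρbar : ResidualGaloisRep k)

/-- The value of the coboundary of `m ∈ ad⁰ ρbar`, as an endomorphism. -/
theorem ad0Val_d₀₁ (m : ad0 ρbar) (σ : _root_.Fermat.Agent.S56.GQ) :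
    ad0Val ρbar ((d₀₁ (ad0 ρbar)).hom m σ)
      = ρbar.ρ σ ∘ₗ ad0Val ρbar m ∘ₗ ρbar.ρ σ⁻¹ - ad0Val ρbar m := by
  rw [d₀₁_hom_apply, map_sub]
  rfl

theorem rho_inv_rho (σ : _root_.Fermat.Agent.S56.GQ) (v : ρbar.V) : ρbar.ρ σ⁻¹ (ρbar.ρ σ v) = v := by
  have h : ρbar.ρ σ⁻¹ * ρbar.ρ σ = 1 := by
    rw [← map_mul, inv_mul_cancel, map_one]
  have h2 := congrArg (fun f : Module.End k ρbar.V => f v) h
  exact h2

end Main

section Core

variable {k : Type} [Field k] (ρbar : ResidualGaloisRep k)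

/-- The core computation: if `ρx`, `ρy` have matrix forms `(1 + ε cx) ρbar`, `(1 + ε cy) ρbar`
and `cx - cy` is the coboundary of `m`, then `1 + ε m` intertwines them. -/
theorem isEquiv_of_rel (ρx ρy : GaloisRepAdic (DualNumber k))
    (cx cy : _root_.Fermat.Agent.S56.GQ → Module.End k ρbar.V) (m : Module.End k ρbar.V)
    (θx : (DualNumber k ⊗[k] ρbar.V) ≃ₗ[DualNumber k] ρx.V)
    (hθx : ∀ (σ : _root_.Fermat.Agent.S56.GQ) (v : ρbar.V), ρx.ρ σ (θx ((1 : DualNumber k) ⊗ₜ[k] v)) =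
      θx ((1 : DualNumber k) ⊗ₜ[k] (ρbar.ρ σ v) +
        (DualNumber.eps : DualNumber k) ⊗ₜ[k] (cx σ (ρbar.ρ σ v))))
    (θy : (DualNumber k ⊗[k] ρbar.V) ≃ₗ[DualNumber k] ρy.V)
    (hθy : ∀ (σ : _root_.Fermat.Agent.S56.GQ) (v : ρbar.V), ρy.ρ σ (θy ((1 : DualNumber k) ⊗ₜ[k] v)) =
      θy ((1 : DualNumber k) ⊗ₜ[k] (ρbar.ρ σ v) +
        (DualNumber.eps : DualNumber k) ⊗ₜ[k] (cy σ (ρbar.ρ σ v))))
    (key : ∀ (σ : _root_.Fermat.Agent.S56.GQ) (v : ρbar.V),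
      cx σ (ρbar.ρ σ v) + m (ρbar.ρ σ v) = cy σ (ρbar.ρ σ v) + ρbar.ρ σ (m v)) :
    ρx.IsEquiv ρy := by
  refine ⟨⟨θx.symm ≪≫ₗ unip m ≪≫ₗ θy, fun σ w => ?_⟩⟩
  obtain ⟨w', rfl⟩ := θx.surjective w
  induction w' using TensorProduct.induction_on with
  | zero => simp only [map_zero]
  | add a b ha hb => simp only [map_add, ha, hb]
  | tmul a v =>
    have ha : a ⊗ₜ[k] v = a • ((1 : DualNumber k) ⊗ₜ[k] v) := by
      rw [TensorProduct.smul_tmul', smul_eq_mul, mul_one]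
    rw [ha]
    simp only [map_smul]
    congr 1
    have hε : ∀ u : ρbar.V, ρy.ρ σ (θy ((DualNumber.eps : DualNumber k) ⊗ₜ[k] u))
        = θy ((DualNumber.eps : DualNumber k) ⊗ₜ[k] (ρbar.ρ σ u)) := by
      intro u
      rw [← eps_smul_one_tmul, map_smul, map_smul, hθy σ u, ← map_smul, smul_add,
        eps_smul_one_tmul, eps_smul_eps_tmul, add_zero]
    have hL : unip m ((1 : DualNumber k) ⊗ₜ[k] (ρbar.ρ σ v) +
          (DualNumber.eps : DualNumber k) ⊗ₜ[k] (cx σ (ρbar.ρ σ v)))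
        = (1 : DualNumber k) ⊗ₜ[k] (ρbar.ρ σ v) + (DualNumber.eps : DualNumber k) ⊗ₜ[k]
            (cx σ (ρbar.ρ σ v) + m (ρbar.ρ σ v)) := by
      rw [map_add, unip_one_tmul, unip_eps_tmul, TensorProduct.tmul_add]
      abel
    have hR : ρy.ρ σ (θy (unip m ((1 : DualNumber k) ⊗ₜ[k] v)))
        = θy ((1 : DualNumber k) ⊗ₜ[k] (ρbar.ρ σ v) + (DualNumber.eps : DualNumber k) ⊗ₜ[k]
            (cy σ (ρbar.ρ σ v) + ρbar.ρ σ (m v))) := by
      rw [unip_one_tmul, map_add, map_add, hθy σ v, hε, ← map_add, TensorProduct.tmul_add,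
        add_assoc]
    simp only [LinearEquiv.trans_apply, LinearEquiv.symm_apply_apply]
    rw [hθx σ v, LinearEquiv.symm_apply_apply, hL, hR, key σ v]

end Core

/-- **Package DICT-2.** Two first-order deformations with the same class are equivalent. -/
theorem stmt_dict_inj : Stmt_dict_inj := by
  intro 𝒪 _ _ _ _ _ ρbar 𝒟 x y ξ hx hy
  obtain ⟨cx, ⟨θx, hθx⟩, hcx⟩ := hx
  obtain ⟨cy, ⟨θy, hθy⟩, hcy⟩ := hy
  have hH : H1π (ad0 ρbar) cx = H1π (ad0 ρbar) cy := hcx.trans hcy.symm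
  rw [H1π_eq_iff] at hH
  obtain ⟨m, hm⟩ := hH
  -- the coboundary relation, evaluated
  have key : ∀ (σ : _root_.Fermat.Agent.S56.GQ) (v : ρbar.V),
      ad0Val ρbar (cx σ) (ρbar.ρ σ v) + ad0Val ρbar m (ρbar.ρ σ v)
        = ad0Val ρbar (cy σ) (ρbar.ρ σ v) + ρbar.ρ σ (ad0Val ρbar m v) := by
    intro σ v
    have h1 := ad0Val_d₀₁ ρbar m σ
    rw [hm] at h1
    have h2 : ad0Val ρbar (cx σ) - ad0Val ρbar (cy σ)
        = ρbar.ρ σ ∘ₗ ad0Val ρbar m ∘ₗ ρbar.ρ σ⁻¹ - ad0Val ρbar m := by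
      rw [← h1, ← map_sub]
      rfl
    have h3 := congrArg (fun f : Module.End (ResidueField 𝒪) ρbar.V => f (ρbar.ρ σ v)) h2
    simp only [LinearMap.sub_apply, LinearMap.comp_apply, rho_inv_rho] at h3
    have h4 := sub_eq_sub_iff_add_eq_add.mp h3
    rw [h4, add_comm]
  exact isEquiv_of_rel ρbar x.1 y.1 (fun σ => ad0Val ρbar (cx σ)) (fun σ => ad0Val ρbar (cy σ))
    (ad0Val ρbar m) θx hθx θy hθy key

end Fermat.Agent.S56.Dict.H85

end
end
-- ==== END Fermat.Agent.S56.Dict.H85_Inj
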