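-- GENERATED (merged mirror, NOTES/tools/trim/merge3_helper67.py): 6 modules of the originals, bodies verbatim.
import Mathlib
import Fermat.Agent.Zm.S56_L07_004
import Fermat.Agent.Zm.S56_L07_005
import Fermat.Agent.Zm.S35_L03_002

-- ==== BEGIN Fermat.Agent.S56.FL.H38_CC0b
section

set_option autoImplicit false

/-!
# LOC-p-FL, package CC0 (helper38), part 2: the count

* `norm_unif_pow_card` : `‖π‖^|J| ≤ p^{-|N|}` (norm from `L^N` to the unramified field `L^J`);
* `le_of_wildData` : if the ramification of `L` is bounded and `p ≠ 2`, then `J ≤ N`.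
-/

noncomputable section

namespace Fermat.Agent.S56.FL.H38

open scoped NNReal
open Fermat.Agent.S56.FL Polynomial Module

variable {p : ℕ} [Fact p.Prime]
variable {L : IntermediateField ℚ_[p] (PadicAlgCl p)}
variable {J N : Subgroup (L ≃ₐ[ℚ_[p]] L)}

theorem norm_unif_pow_card [FiniteDimensional ℚ_[p] L] (hW : WildData L J N) {π : L}
    (hπ : IsUnifOf N π) : ‖π‖ ^ Nat.card J ≤ ((p : ℝ)⁻¹) ^ Nat.card N := by
  classical
  have hπfix := hπ.1
  have hπ0 : 0 < ‖π‖ := hπ.2.1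
  have hπ1 : ‖π‖ < 1 := hπ.2.2.1
  let N' : Subgroup J := N.subgroupOf J
  let f : J ⧸ N' → L := fun q => Quotient.liftOn' q (fun τ : J => (τ : L ≃ₐ[ℚ_[p]] L) π) (by
    intro τ₁ τ₂ h
    rw [QuotientGroup.leftRel_apply] at h
    have h1 : ((τ₁⁻¹ * τ₂ : J) : L ≃ₐ[ℚ_[p]] L) ∈ N := h
    have h2 := hπfix _ h1
    simp only [Subgroup.coe_mul, Subgroup.coe_inv, AlgEquiv.mul_apply] at h2
    have h3 : (τ₁ : L ≃ₐ[ℚ_[p]] L) ((τ₁ : L ≃ₐ[ℚ_[p]] L)⁻¹ ((τ₂ : L ≃ₐ[ℚ_[p]] L) π))
        = (τ₂ : L ≃ₐ[ℚ_[p]] L) π := by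
      rw [← AlgEquiv.mul_apply, mul_inv_cancel, AlgEquiv.one_apply]
    change (τ₁ : L ≃ₐ[ℚ_[p]] L) π = (τ₂ : L ≃ₐ[ℚ_[p]] L) π
    rw [← h3, h2])
  have hf : ∀ τ : J, f (QuotientGroup.mk τ) = (τ : L ≃ₐ[ℚ_[p]] L) π := fun τ => rfl
  let _ : Fintype (J ⧸ N') := Fintype.ofFinite _
  set b : L := ∏ q : J ⧸ N', f q with hb
  have hbfix : ∀ τ ∈ J, τ b = b := by
    intro τ hτ
    rw [hb, map_prod]
    refine Fintype.prod_equiv (MulAction.toPerm (⟨τ, hτ⟩ : J)) _ _ ?_
    intro q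
    induction q using QuotientGroup.induction_on with
    | H σ =>
      rw [hf]
      change τ ((σ : L ≃ₐ[ℚ_[p]] L) π) = f ((⟨τ, hτ⟩ : J) • (QuotientGroup.mk σ : J ⧸ N'))
      have : ((⟨τ, hτ⟩ : J) • (QuotientGroup.mk σ : J ⧸ N'))
          = QuotientGroup.mk ((⟨τ, hτ⟩ : J) * σ) := rfl
      rw [this, hf]
      rfl
  have hfnorm : ∀ q : J ⧸ N', ‖f q‖ = ‖π‖ := by
    intro q
    induction q using QuotientGroup.induction_on with
    | H σ => rw [hf, norm_algEquiv_L]
  have hbnorm : ‖b‖ = ‖π‖ ^ Nat.card (J ⧸ N') := by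
    rw [hb, norm_prod, Finset.prod_congr rfl (fun q _ => hfnorm q), Finset.prod_const,
      Finset.card_univ, Nat.card_eq_fintype_card]
  have hQpos : 0 < Nat.card (J ⧸ N') := Nat.card_pos
  have hb1 : ‖b‖ < 1 := by
    rw [hbnorm]; exact pow_lt_one₀ hπ0.le hπ1 hQpos.ne'
  have hbp : ‖b‖ ≤ (p : ℝ)⁻¹ := hW.unr b hbfix hb1
  have hcard : Nat.card J = Nat.card (J ⧸ N') * Nat.card N := by
    rw [Subgroup.card_eq_card_quotient_mul_card_subgroup N']
    congr 1
    exact Nat.card_congr (Subgroup.subgroupOfEquivOfLe hW.le).toEquiv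
  rw [hcard, pow_mul, ← hbnorm]
  exact pow_le_pow_left₀ (norm_nonneg _) hbp _

/-- **The wild step.**  If the ramification of `L` is bounded (and `p ≠ 2`) then `J ≤ N`. -/
theorem le_of_wildData [FiniteDimensional ℚ_[p] L] (hp2 : p ≠ 2) (hW : WildData L J N)
    (hbdd : IsBddField p L) : J ≤ N := by
  classical
  intro s hs
  by_contra hsN
  obtain ⟨π, hπ⟩ := exists_isUnifOf N
  have hπ0 : 0 < ‖π‖ := hπ.2.1
  have hπ1 : ‖π‖ < 1 := hπ.2.2.1
  let _ : Fintype N := Fintype.ofFinite _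
  obtain ⟨ν₀, hν₀, hherb⟩ := H15.herbrand_top N s
  have hne : s * ν₀ ≠ 1 := by
    intro h
    apply hsN
    have : s = ν₀⁻¹ := eq_inv_of_mul_eq_one_left h
    rw [this]; exact N.inv_mem hν₀
  have hb := hbdd (s * ν₀) hne
  set P1 : ℝ := ∏ τ : L ≃ₐ[ℚ_[p]] L, max (depth p L (s * ν₀)) (depth p L τ) with hP1
  set P2 : ℝ := ∏ τ : L ≃ₐ[ℚ_[p]] L, max (H15.depthOn L N s) (H15.depthOn L N τ) with hP2
  have hP1nn : 0 ≤ P1 :=
    Finset.prod_nonneg fun τ _ => (H15.depth_nonneg L _).trans (le_max_left _ _)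
  have hP2nn : 0 ≤ P2 :=
    Finset.prod_nonneg fun τ _ => (H15.depthOn_nonneg _ _).trans (le_max_left _ _)
  set δ : ℝ := ‖π‖ with hδ
  have hδ2 : δ ^ 2 ≤ 1 := pow_le_one₀ hπ0.le hπ1.le
  have hds : H15.depthOn L N s ≤ δ ^ 2 := depthOn_le_sq hW hπ hs
  -- bound of `P2`
  have hP2le : P2 ≤ (δ ^ 2) ^ Nat.card J := by
    have h1 : P2 ≤ ∏ τ : L ≃ₐ[ℚ_[p]] L, (if τ ∈ J then δ ^ 2 else 1) := by
      refine Finset.prod_le_prod (fun τ _ => (H15.depthOn_nonneg _ _).trans (le_max_left _ _))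
        fun τ _ => ?_
      split_ifs with hτ
      · exact max_le hds (depthOn_le_sq hW hπ hτ)
      · refine max_le (hds.trans hδ2) ?_
        exact H15.depthOn_le N τ fun a ha1 _ => H15.norm_sub_le_one τ ha1
    refine h1.trans (le_of_eq ?_)
    rw [Finset.prod_ite, Finset.prod_const, Finset.prod_const_one, mul_one]
    congr 1
    rw [Nat.card_eq_fintype_card, Fintype.card_subtype]
  have hcard := norm_unif_pow_card hW hπ
  have hNpos : 0 < Nat.card N := Nat.card_pos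
  have hcN : Fintype.card N = Nat.card N := (Nat.card_eq_fintype_card).symm
  rw [hcN] at hherb
  have hpinv0 : (0 : ℝ) < (p : ℝ)⁻¹ := inv_pos.mpr H15.p_pos_real
  have hpinv1 : (p : ℝ)⁻¹ < 1 := inv_lt_one_of_one_lt₀ H15.one_lt_p_real
  -- the chain
  have hchain : ((p : ℝ)⁻¹) ^ (p * Nat.card N) ≤ ((p : ℝ)⁻¹) ^ (2 * (p - 1) * Nat.card N) := by
    calc ((p : ℝ)⁻¹) ^ (p * Nat.card N) = (((p : ℝ)⁻¹) ^ p) ^ Nat.card N := by rw [pow_mul]
      _ ≤ (P1 ^ (p - 1)) ^ Nat.card N := pow_le_pow_left₀ (pow_nonneg hpinv0.le _) hb _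
      _ = (P1 ^ Nat.card N) ^ (p - 1) := by rw [← pow_mul, ← pow_mul, mul_comm]
      _ ≤ P2 ^ (p - 1) := pow_le_pow_left₀ (pow_nonneg hP1nn _) hherb _
      _ ≤ ((δ ^ 2) ^ Nat.card J) ^ (p - 1) := pow_le_pow_left₀ hP2nn hP2le _
      _ = ((δ ^ Nat.card J) ^ 2) ^ (p - 1) := by
          rw [← pow_mul, ← pow_mul, ← pow_mul, ← pow_mul]; congr 1; ring
      _ ≤ ((((p : ℝ)⁻¹) ^ Nat.card N) ^ 2) ^ (p - 1) :=
          pow_le_pow_left₀ (pow_nonneg (pow_nonneg hπ0.le _) _)
            (pow_le_pow_left₀ (pow_nonneg hπ0.le _) hcard _) _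
      _ = ((p : ℝ)⁻¹) ^ (2 * (p - 1) * Nat.card N) := by
          rw [← pow_mul, ← pow_mul]; congr 1; ring
  have hexp := (pow_le_pow_iff_right_of_lt_one₀ hpinv0 hpinv1).mp hchain
  have hp3 : 3 ≤ p := by
    have := (Fact.out : p.Prime).two_le
    omega
  have h1 : 2 * (p - 1) * Nat.card N ≤ p * Nat.card N := hexp
  have h2 : 2 * (p - 1) ≤ p := Nat.le_of_mul_le_mul_right h1 hNpos
  omega

end Fermat.Agent.S56.FL.H38

end

end
-- ==== END Fermat.Agent.S56.FL.H38_CC0b

-- ==== BEGIN Fermat.Agent.S56.FL.H54_BridgeField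
section

/-!
# LOC-p-FL, package BRIDGE (helper54): the field generated by the points

For a finite `ℤ_(p)`-algebra `H`:
* `finiteDimensional_pointField` : `pointField p H` is a finite extension of `ℚ_p`;
* `normal_pointField` : it is normal;
* `pointAct_eq_of_mem_fixingSubgroup` : `Gal(K̄/pointField)` acts trivially on the points.
-/

set_option autoImplicit false
set_option linter.unusedSectionVars false
set_option linter.style.haveILetI false

noncomputable section

namespace Fermat.Agent.S56.FL.H54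

open scoped NNReal TensorProduct
open Fermat.Agent.S56.FL WithConv Polynomial

variable {p : ℕ} [Fact p.Prime]

section Field

variable {H : Type} [CommRing H] [Algebra (Zloc p) H] [Module.Finite (Zloc p) H]

theorem isIntegral_point' (x : H →ₐ[Zloc p] PadicAlgCl p) (h : H) :
    IsIntegral ℚ_[p] (x h) :=
  (Algebra.IsAlgebraic.isAlgebraic (R := ℚ_[p]) (x h)).isIntegral

/-- The values of the points at a fixed element form a finite set. -/
theorem finite_values (h : H) :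
    {y : PadicAlgCl p | ∃ x : H →ₐ[Zloc p] PadicAlgCl p, y = x h}.Finite := by
  classical
  have hint : IsIntegral (Zloc p) h := Algebra.IsIntegral.isIntegral h
  obtain ⟨P, hP, hPh⟩ := hint
  have hP0 : P.map (algebraMap (Zloc p) (PadicAlgCl p)) ≠ 0 := (hP.map _).ne_zero
  refine Set.Finite.subset
    ((P.map (algebraMap (Zloc p) (PadicAlgCl p))).roots.toFinset.finite_toSet) ?_
  rintro y ⟨x, rfl⟩
  simp only [Finset.mem_coe, Multiset.mem_toFinset]
  rw [Polynomial.mem_roots hP0, Polynomial.IsRoot.def, Polynomial.eval_map,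
    ← Polynomial.aeval_def, Polynomial.aeval_algHom_apply, Polynomial.aeval_def, hPh, map_zero]

theorem finiteDimensional_pointField : FiniteDimensional ℚ_[p] (pointField p H) := by
  classical
  obtain ⟨s, hs⟩ := (Module.Finite.fg_top : (⊤ : Submodule (Zloc p) H).FG)
  set T : Set (PadicAlgCl p) :=
    ⋃ h ∈ s, {y : PadicAlgCl p | ∃ x : H →ₐ[Zloc p] PadicAlgCl p, y = x h} with hT
  have hTfin : T.Finite := Set.Finite.biUnion s.finite_toSet (fun h _ => finite_values h)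
  haveI : Finite T := hTfin
  haveI hfd : FiniteDimensional ℚ_[p] (IntermediateField.adjoin ℚ_[p] T) :=
    IntermediateField.finiteDimensional_adjoin
      (fun y _ => (Algebra.IsAlgebraic.isAlgebraic (R := ℚ_[p]) y).isIntegral)
  have hle : pointField p H ≤ IntermediateField.adjoin ℚ_[p] T := by
    unfold pointField
    rw [IntermediateField.adjoin_le_iff]
    rintro y ⟨x, h, rfl⟩
    have hmem : h ∈ Submodule.span (Zloc p) (s : Set H) := by
      rw [hs]
      exact Submodule.mem_top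
    refine Submodule.span_induction (p := fun h _ => x h ∈ IntermediateField.adjoin ℚ_[p] T)
      ?_ ?_ ?_ ?_ hmem
    · intro h' hh'
      apply IntermediateField.subset_adjoin
      rw [hT]
      exact Set.mem_biUnion hh' ⟨x, rfl⟩
    · rw [map_zero]
      exact zero_mem _
    · intro a b _ _ ha hb
      rw [map_add]
      exact add_mem ha hb
    · intro r a _ ha
      rw [map_smul, Algebra.smul_def]
      exact mul_mem (algebraMap_zloc_mem _ r) ha
  exact Module.Finite.of_injective (IntermediateField.inclusion hle).toLinearMap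
    (IntermediateField.inclusion_injective hle)

theorem normal_pointField : Normal ℚ_[p] (pointField p H) := by
  haveI : Algebra.IsAlgebraic ℚ_[p] (PadicAlgCl p) := AlgebraicClosure.isAlgebraic ℚ_[p]
  haveI : IsAlgClosure ℚ_[p] (PadicAlgCl p) := ⟨inferInstance, inferInstance⟩
  haveI : Normal ℚ_[p] (PadicAlgCl p) := inferInstance
  rw [IntermediateField.normal_iff_forall_map_le']
  intro σ
  unfold pointField
  rw [IntermediateField.adjoin_map]
  apply IntermediateField.adjoin.mono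
  rintro _ ⟨_, ⟨x, h, rfl⟩, rfl⟩
  exact ⟨((σ : PadicAlgCl p →ₐ[ℚ_[p]] PadicAlgCl p).restrictScalars (Zloc p)).comp x, h, rfl⟩

end Field

section Hopf

variable {H : Type} [CommRing H] [HopfAlgebra (Zloc p) H]

theorem pointAct_eq_of_mem_fixingSubgroup (σ : Gp p)
    (hσ : σ ∈ (pointField p H).fixingSubgroup) (x : WithConv (H →ₐ[Zloc p] PadicAlgCl p)) :
    pointAct σ x = x := by
  apply WithConv.ofConv_injective
  apply AlgHom.ext
  intro h
  show σ (x.ofConv h) = x.ofConv h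
  exact (IntermediateField.mem_fixingSubgroup_iff (pointField p H) σ).mp hσ _
    (IntermediateField.subset_adjoin _ _ ⟨x.ofConv, h, rfl⟩)

end Hopf

/-- In an additive group killed by `p`, transported to a monoid of points. -/
theorem pow_eq_one_of_kill {X M : Type} [Monoid X] [AddCommGroup M] (e : X ≃ M)
    (hmul : ∀ x y : X, e (x * y) = e x + e y) (hkill : ∀ m : M, p • m = 0) (x : X) :
    x ^ p = 1 := by
  have h1 : e 1 = 0 := by
    have := hmul 1 1
    rw [mul_one] at this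
    exact left_eq_add.mp this
  have hpow : ∀ n : ℕ, e (x ^ n) = n • e x := by
    intro n
    induction n with
    | zero => rw [pow_zero, zero_smul, h1]
    | succ n ih => rw [pow_succ, hmul, ih, succ_nsmul]
  apply e.injective
  rw [hpow, h1, hkill]

end Fermat.Agent.S56.FL.H54

end

end
-- ==== END Fermat.Agent.S56.FL.H54_BridgeField

-- ==== BEGIN Fermat.Agent.S56.FL.H54_ConnBC
section

/-!
# LOC-p-FL, package CONN (helper54): base change of `H` from `ℤ_(p)` to `ℤ_p`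

The `K̄`-points of `ℤ_p ⊗ H` (over `ℤ_p`) are the `K̄`-points of `H` (over `ℤ_(p)`), compatibly
with the group laws and the action of `G_p`.
-/

set_option autoImplicit false
set_option linter.unusedSectionVars false
set_option linter.style.haveILetI false

noncomputable section

namespace Fermat.Agent.S56.FL.H54

open scoped NNReal TensorProduct
open Fermat.Agent.S56.FL Fermat.Agent.R.H54 WithConv

variable {p : ℕ} [Fact p.Prime]
variable {H : Type} [CommRing H] [HopfAlgebra (Zloc p) H]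

/-- Restriction of a point of `ℤ_p ⊗ H` to `H`. -/
def resBC (φ : Pts ℤ_[p] (ℤ_[p] ⊗[Zloc p] H) (PadicAlgCl p)) :
    WithConv (H →ₐ[Zloc p] PadicAlgCl p) :=
  toConv ((φ.ofConv.restrictScalars (Zloc p)).comp Algebra.TensorProduct.includeRight)

@[simp] lemma resBC_apply (φ : Pts ℤ_[p] (ℤ_[p] ⊗[Zloc p] H) (PadicAlgCl p)) (h : H) :
    resBC φ h = φ ((1 : ℤ_[p]) ⊗ₜ[Zloc p] h) := rfl

/-- Extension of a point of `H` to `ℤ_p ⊗ H`. -/
def extBC (x : WithConv (H →ₐ[Zloc p] PadicAlgCl p)) :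
    Pts ℤ_[p] (ℤ_[p] ⊗[Zloc p] H) (PadicAlgCl p) :=
  toConv (Algebra.TensorProduct.lift (Algebra.ofId ℤ_[p] (PadicAlgCl p)) x.ofConv
    (fun _ _ => Commute.all _ _))

@[simp] lemma extBC_tmul (x : WithConv (H →ₐ[Zloc p] PadicAlgCl p)) (c : ℤ_[p]) (h : H) :
    extBC x (c ⊗ₜ[Zloc p] h) = algebraMap ℤ_[p] (PadicAlgCl p) c * x h := by
  simp [extBC]

lemma resBC_extBC (x : WithConv (H →ₐ[Zloc p] PadicAlgCl p)) : resBC (extBC x) = x := by
  apply WithConv.ext
  apply AlgHom.ext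
  intro h
  show extBC x ((1 : ℤ_[p]) ⊗ₜ[Zloc p] h) = x h
  rw [extBC_tmul, map_one, one_mul]

lemma apply_tmul (φ : Pts ℤ_[p] (ℤ_[p] ⊗[Zloc p] H) (PadicAlgCl p)) (c : ℤ_[p]) (h : H) :
    φ (c ⊗ₜ[Zloc p] h) = algebraMap ℤ_[p] (PadicAlgCl p) c * resBC φ h := by
  have h1 : c ⊗ₜ[Zloc p] h = c • ((1 : ℤ_[p]) ⊗ₜ[Zloc p] h) := by
    rw [TensorProduct.smul_tmul', smul_eq_mul, mul_one]
  rw [h1]
  show φ.ofConv (c • ((1 : ℤ_[p]) ⊗ₜ[Zloc p] h)) = _
  rw [map_smul, Algebra.smul_def]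
  rfl

lemma extBC_resBC (φ : Pts ℤ_[p] (ℤ_[p] ⊗[Zloc p] H) (PadicAlgCl p)) : extBC (resBC φ) = φ := by
  apply WithConv.ext
  apply AlgHom.ext
  intro t
  induction t using TensorProduct.induction_on with
  | zero => rw [map_zero, map_zero]
  | tmul c h =>
    show extBC (resBC φ) (c ⊗ₜ[Zloc p] h) = φ (c ⊗ₜ[Zloc p] h)
    rw [extBC_tmul, apply_tmul]
  | add s t hs ht => rw [map_add, map_add, hs, ht]

lemma resBC_injective :
    Function.Injective (resBC : Pts ℤ_[p] (ℤ_[p] ⊗[Zloc p] H) (PadicAlgCl p) → _) := by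
  intro φ ψ h
  rw [← extBC_resBC φ, ← extBC_resBC ψ, h]

lemma resBC_one : resBC (1 : Pts ℤ_[p] (ℤ_[p] ⊗[Zloc p] H) (PadicAlgCl p)) = 1 := by
  apply WithConv.ext
  apply AlgHom.ext
  intro h
  show algebraMap ℤ_[p] (PadicAlgCl p)
      (Coalgebra.counit (R := ℤ_[p]) ((1 : ℤ_[p]) ⊗ₜ[Zloc p] h)) =
    algebraMap (Zloc p) (PadicAlgCl p) (Coalgebra.counit (R := Zloc p) h)
  rw [TensorProduct.counit_tmul]
  simp only [CommSemiring.counit_apply, Algebra.smul_def, mul_one]
  exact (IsScalarTower.algebraMap_apply (Zloc p) ℤ_[p] (PadicAlgCl p) _).symm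

lemma resBC_mul (φ ψ : Pts ℤ_[p] (ℤ_[p] ⊗[Zloc p] H) (PadicAlgCl p)) :
    resBC (φ * ψ) = resBC φ * resBC ψ := by
  apply WithConv.ext
  apply AlgHom.ext
  intro h
  show (φ * ψ) ((1 : ℤ_[p]) ⊗ₜ[Zloc p] h) = (resBC φ * resBC ψ) h
  have key : ∀ t : H ⊗[Zloc p] H,
      LinearMap.mul' ℤ_[p] (PadicAlgCl p)
        (TensorProduct.map φ.ofConv.toLinearMap ψ.ofConv.toLinearMap
          (TensorProduct.AlgebraTensorModule.tensorTensorTensorComm (Zloc p) ℤ_[p] (Zloc p)
            ℤ_[p] ℤ_[p] ℤ_[p] H H (((1 : ℤ_[p]) ⊗ₜ[ℤ_[p]] (1 : ℤ_[p])) ⊗ₜ[Zloc p] t))) =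
      LinearMap.mul' (Zloc p) (PadicAlgCl p)
        (TensorProduct.map (resBC φ).ofConv.toLinearMap (resBC ψ).ofConv.toLinearMap t) := by
    intro t
    induction t using TensorProduct.induction_on with
    | zero => simp
    | tmul a b =>
      simp only [TensorProduct.AlgebraTensorModule.tensorTensorTensorComm_tmul,
        TensorProduct.map_tmul, LinearMap.mul'_apply, AlgHom.toLinearMap_apply]
      rfl
    | add s t hs ht =>
      simp only [TensorProduct.tmul_add, map_add, hs, ht]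
  rw [convMul_apply', convMul_apply', TensorProduct.comul_tmul, ← key]
  rfl

lemma resBC_pow (φ : Pts ℤ_[p] (ℤ_[p] ⊗[Zloc p] H) (PadicAlgCl p)) (n : ℕ) :
    resBC (φ ^ n) = resBC φ ^ n := by
  induction n with
  | zero => rw [pow_zero, pow_zero, resBC_one]
  | succ n ih => rw [pow_succ, pow_succ, resBC_mul, ih]

lemma extBC_one : extBC (1 : WithConv (H →ₐ[Zloc p] PadicAlgCl p)) = 1 :=
  resBC_injective (by rw [resBC_extBC, resBC_one])

lemma extBC_mul (x y : WithConv (H →ₐ[Zloc p] PadicAlgCl p)) :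
    extBC (x * y) = extBC x * extBC y :=
  resBC_injective (by rw [resBC_mul, resBC_extBC, resBC_extBC, resBC_extBC])

lemma resBC_gconj (σ : Gp p) (φ : Pts ℤ_[p] (ℤ_[p] ⊗[Zloc p] H) (PadicAlgCl p)) :
    resBC (gconj descentData_padic σ φ) = pointAct σ (resBC φ) := by
  apply WithConv.ext
  apply AlgHom.ext
  intro h
  rfl

lemma extBC_pointAct (σ : Gp p) (x : WithConv (H →ₐ[Zloc p] PadicAlgCl p)) :
    extBC (pointAct σ x) = gconj descentData_padic σ (extBC x) :=
  resBC_injective (by rw [resBC_gconj, resBC_extBC, resBC_extBC])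

/-- A point reducing to the identity on `H` reduces to the identity on `ℤ_p ⊗ H`. -/
lemma norm_extBC_sub_counit_lt (x : WithConv (H →ₐ[Zloc p] PadicAlgCl p))
    (hx : ∀ h : H, ‖x.ofConv h - algebraMap (Zloc p) (PadicAlgCl p) (Coalgebra.counit h)‖ < 1)
    (t : ℤ_[p] ⊗[Zloc p] H) :
    ‖extBC x t - algebraMap ℤ_[p] (PadicAlgCl p) (Coalgebra.counit (R := ℤ_[p]) t)‖ < 1 := by
  induction t using TensorProduct.induction_on with
  | zero => simp
  | tmul c h =>
    rw [extBC_tmul, TensorProduct.counit_tmul]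
    simp only [CommSemiring.counit_apply, Algebra.smul_def, map_mul]
    rw [← IsScalarTower.algebraMap_apply (Zloc p) ℤ_[p] (PadicAlgCl p), mul_comm _
      (algebraMap ℤ_[p] (PadicAlgCl p) c), ← mul_sub, norm_mul]
    calc ‖algebraMap ℤ_[p] (PadicAlgCl p) c‖ * ‖x h - algebraMap (Zloc p) (PadicAlgCl p)
          (Coalgebra.counit h)‖
        ≤ 1 * ‖x h - algebraMap (Zloc p) (PadicAlgCl p) (Coalgebra.counit h)‖ :=
          mul_le_mul_of_nonneg_right (norm_algebraMap_padicInt_le_one c) (norm_nonneg _)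
      _ < 1 := by rw [one_mul]; exact hx h
  | add s t hs ht =>
    have h1 : extBC x (s + t) - algebraMap ℤ_[p] (PadicAlgCl p)
        (Coalgebra.counit (R := ℤ_[p]) (s + t)) =
        (extBC x s - algebraMap ℤ_[p] (PadicAlgCl p) (Coalgebra.counit (R := ℤ_[p]) s)) +
        (extBC x t - algebraMap ℤ_[p] (PadicAlgCl p) (Coalgebra.counit (R := ℤ_[p]) t)) := by
      have h2 : extBC x (s + t) = extBC x s + extBC x t := map_add (extBC x).ofConv s t
      rw [h2, map_add, map_add]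
      ring
    rw [h1]
    exact (IsUltrametricDist.norm_add_le_max _ _).trans_lt (max_lt hs ht)

end Fermat.Agent.S56.FL.H54

end

end
-- ==== END Fermat.Agent.S56.FL.H54_ConnBC

-- ==== BEGIN Fermat.Agent.S56.FL.LF.H15_Inertia
section

set_option autoImplicit false
set_option linter.style.haveILetI false

/-!
# LOC-p-FL, LF basics (helper15), part 7: inertia

* `IsGoodGen.map`, `IsGoodGen.of_close` : conjugates and small perturbations of a good generator
  are good generators.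
* `norm_w_sub`          : `‖w(y) - w(x)‖ = ‖y - x‖` for `w = X^q - X`, `‖y - x‖ < 1`.
* `norm_sub_map_eq_max` : `‖y - τ x‖ = max ‖y - x‖ (depth τ)` if `x` is a closest conjugate of `y`.
* `depth_le_pow_succ`   : discreteness of the depth.
* `exists_ramIdx`       : `‖π‖^e = p⁻¹`.
* `card_inertia_le`     : `#{τ : depth τ < 1} ≤ e`.
* `dvd_orderOf_of_depth_lt` : an element `σ ≠ 1` of depth `< ‖π‖` has order divisible by `p`.
-/

noncomputable section

namespace Fermat.Agent.S56.FL.H15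

open scoped NNReal
open Fermat.Agent.S56.FL Module Polynomial

variable {p : ℕ} [Fact p.Prime]

/-- `‖w(y) - w(x)‖ = ‖y - x‖` for `w = X^q - X`, `‖q‖ < 1`, `‖y - x‖ < 1`. -/
theorem norm_w_sub {x y : PadicAlgCl p} {q : ℕ} (hq : ‖(q : PadicAlgCl p)‖ < 1)
    (hx : ‖x‖ ≤ 1) (hxy : ‖y - x‖ < 1) :
    ‖(y ^ q - y) - (x ^ q - x)‖ = ‖y - x‖ := by
  obtain ⟨t, rfl⟩ : ∃ t, y = x + t := ⟨y - x, by ring⟩
  have ht : x + t - x = t := by ring
  rw [ht] at hxy ⊢
  rcases eq_or_ne t 0 with rfl | hne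
  · simp
  have ht0 : 0 < ‖t‖ := norm_pos_iff.mpr hne
  let R : Subring (PadicAlgCl p) := intRing p (⊤ : IntermediateField ℚ_[p] (PadicAlgCl p))
  let X0 : R := ⟨x, ⟨IntermediateField.mem_top, hx⟩⟩
  let T : R := ⟨t, ⟨IntermediateField.mem_top, hxy.le⟩⟩
  let f : R[X] := X ^ q - X
  obtain ⟨k, hk⟩ := f.binomExpansion X0 T
  have hk' : (x + t) ^ q - (x + t)
      = (x ^ q - x) + ((q : PadicAlgCl p) * x ^ (q - 1) - 1) * t + (k : PadicAlgCl p) * t ^ 2 := by
    have := congrArg (fun z : R => (z : PadicAlgCl p)) hk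
    simp only [f, eval_sub, eval_pow, eval_X, derivative_sub, derivative_X_pow, derivative_X,
      eval_mul, eval_one, eval_natCast, map_natCast] at this
    simpa [X0, T] using this
  have hk1 : ‖(k : PadicAlgCl p)‖ ≤ 1 := k.2.2
  have h1 : (x + t) ^ q - (x + t) - (x ^ q - x)
      = ((q : PadicAlgCl p) * x ^ (q - 1) - 1) * t + (k : PadicAlgCl p) * t ^ 2 := by
    rw [hk']; ring
  rw [h1]
  have h2 : ‖(q : PadicAlgCl p) * x ^ (q - 1)‖ < 1 := by
    rw [norm_mul, norm_pow]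
    calc ‖(q : PadicAlgCl p)‖ * ‖x‖ ^ (q - 1) ≤ ‖(q : PadicAlgCl p)‖ * 1 :=
          mul_le_mul_of_nonneg_left (pow_le_one₀ (norm_nonneg _) hx) (norm_nonneg _)
      _ = ‖(q : PadicAlgCl p)‖ := mul_one _
      _ < 1 := hq
  have h3 : ‖(q : PadicAlgCl p) * x ^ (q - 1) - 1‖ = 1 := by
    rw [← norm_neg, neg_sub]
    have : ‖(1 : PadicAlgCl p) - (q : PadicAlgCl p) * x ^ (q - 1)‖ = ‖(1 : PadicAlgCl p)‖ :=
      norm_sub_eq_left (by rw [norm_one]; exact h2)
    rw [this, norm_one]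
  have h4 : ‖((q : PadicAlgCl p) * x ^ (q - 1) - 1) * t‖ = ‖t‖ := by
    rw [norm_mul, h3, one_mul]
  have h5 : ‖(k : PadicAlgCl p) * t ^ 2‖ < ‖t‖ := by
    rw [norm_mul, norm_pow]
    calc ‖(k : PadicAlgCl p)‖ * ‖t‖ ^ 2 ≤ 1 * ‖t‖ ^ 2 :=
          mul_le_mul_of_nonneg_right hk1 (by positivity)
      _ = ‖t‖ * ‖t‖ := by ring
      _ < 1 * ‖t‖ := mul_lt_mul_of_pos_right hxy ht0
      _ = ‖t‖ := one_mul _
  rw [norm_add_eq_left (by rw [h4]; exact h5), h4]

/-- `‖w(y) - w(x)‖ ≤ ‖y - x‖` for integers `x, y`. -/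
theorem norm_w_sub_le {x y : PadicAlgCl p} (q : ℕ) (hx : ‖x‖ ≤ 1) (hy : ‖y‖ ≤ 1) :
    ‖(y ^ q - y) - (x ^ q - x)‖ ≤ ‖y - x‖ := by
  have h : (y ^ q - y) - (x ^ q - x) = (y ^ q - x ^ q) - (y - x) := by ring
  rw [h]
  exact (norm_sub_le_max_algCl _ _).trans (max_le (norm_pow_sub_pow_le_algCl hy hx q) le_rfl)

variable {L : IntermediateField ℚ_[p] (PadicAlgCl p)}

/-- A conjugate of a good generator is a good generator. -/
theorem IsGoodGen.map {x π : L} {q : ℕ} (h : IsGoodGen L x π q) (τ : L ≃ₐ[ℚ_[p]] L) :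
    IsGoodGen L (τ x) π q := by
  obtain ⟨hx, hπ0, hπ1, hπmax, hxq, hres⟩ := h
  have hτ : ∀ a : L, ‖τ a‖ = ‖a‖ := fun a => norm_algEquiv τ a
  have hτs : ∀ a : L, ‖τ.symm a‖ = ‖a‖ := fun a => norm_algEquiv τ.symm a
  refine ⟨by rw [hτ]; exact hx, hπ0, hπ1, hπmax, ?_, ?_⟩
  · have : (τ x) ^ q - τ x = τ (x ^ q - x) := by simp
    rw [this, hτ, hxq]
  · intro a ha
    rcases hres (τ.symm a) (by rw [hτs]; exact ha) with h1 | ⟨m, hm⟩
    · left; rwa [hτs] at h1
    · right
      refine ⟨m, ?_⟩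
      have : a - (τ x) ^ m = τ (τ.symm a - x ^ m) := by simp
      rw [this, hτ]
      exact hm

/-- An integer close to a good generator is a good generator. -/
theorem IsGoodGen.of_close {x π : L} {q : ℕ} (h : IsGoodGen L x π q) {x' : L}
    (hx' : ‖x' - x‖ < ‖π‖) : IsGoodGen L x' π q := by
  obtain ⟨hx, hπ0, hπ1, hπmax, hxq, hres⟩ := h
  have hx'1 : ‖x'‖ ≤ 1 := by
    have : x' = (x' - x) + x := by ring
    rw [this]
    exact (IsUltrametricDist.norm_add_le_max _ _).trans (max_le (hx'.le.trans hπ1.le) hx)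
  refine ⟨hx'1, hπ0, hπ1, hπmax, ?_, ?_⟩
  · have h1 : x' ^ q - x' = (x ^ q - x) + ((x' ^ q - x ^ q) + (-(x' - x))) := by ring
    rw [h1]
    have h2 : ‖(x' ^ q - x ^ q) + (-(x' - x))‖ < ‖x ^ q - x‖ := by
      rw [hxq]
      refine lt_of_le_of_lt ((IsUltrametricDist.norm_add_le_max _ _).trans (max_le ?_ ?_)) hx'
      · exact norm_pow_sub_pow_le hx'1 hx q
      · rw [norm_neg]
    rw [IsUltrametricDist.norm_add_eq_max_of_norm_ne_norm h2.ne', max_eq_left h2.le, hxq]
  · intro a ha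
    rcases hres a ha with h1 | ⟨m, hm⟩
    · exact Or.inl h1
    · right
      refine ⟨m, ?_⟩
      have h1 : a - x' ^ m = (a - x ^ m) + (x ^ m - x' ^ m) := by ring
      rw [h1]
      refine (IsUltrametricDist.norm_add_le_max _ _).trans (max_le hm ?_)
      refine (norm_pow_sub_pow_le hx hx'1 m).trans ?_
      rw [norm_sub_rev]
      exact hx'.le

/-- If `x` is a closest conjugate of `y`, then `‖y - τ x‖ = max ‖y - x‖ (depth τ)`. -/
theorem norm_sub_map_eq_max {x π : L} {q : ℕ} (h : IsGoodGen L x π q) {y : PadicAlgCl p}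
    (hy : ∀ τ : L ≃ₐ[ℚ_[p]] L, ‖y - (x : PadicAlgCl p)‖ ≤ ‖y - ((τ x : L) : PadicAlgCl p)‖)
    (τ : L ≃ₐ[ℚ_[p]] L) :
    ‖y - ((τ x : L) : PadicAlgCl p)‖ = max ‖y - (x : PadicAlgCl p)‖ (depth p L τ) := by
  have hd : depth p L τ = ‖(x : PadicAlgCl p) - ((τ x : L) : PadicAlgCl p)‖ := by
    rw [depth_eq_of_goodGen h τ, norm_sub_rev]
    rfl
  rw [hd]
  have h1 : y - ((τ x : L) : PadicAlgCl p)
      = (y - (x : PadicAlgCl p)) + ((x : PadicAlgCl p) - ((τ x : L) : PadicAlgCl p)) := by ring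
  by_cases hne : ‖y - (x : PadicAlgCl p)‖ = ‖(x : PadicAlgCl p) - ((τ x : L) : PadicAlgCl p)‖
  · refine le_antisymm ?_ ?_
    · rw [h1]; exact IsUltrametricDist.norm_add_le_max _ _
    · rw [← hne, max_self]; exact hy τ
  · rw [h1, IsUltrametricDist.norm_add_eq_max_of_norm_ne_norm hne]

/-- Discreteness of the depth. -/
theorem depth_le_pow_succ {x π : L} {q : ℕ} (h : IsGoodGen L x π q) (τ : L ≃ₐ[ℚ_[p]] L)
    (j : ℕ) (hlt : depth p L τ < ‖π‖ ^ j) : depth p L τ ≤ ‖π‖ ^ (j + 1) := by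
  obtain ⟨hx, hπ0, hπ1, hπmax, hxq, hres⟩ := id h
  rw [depth_eq_of_goodGen h τ] at hlt ⊢
  set a : L := τ x - x with ha
  have h1 : ‖a / π ^ j‖ < 1 := by
    rw [norm_div, norm_pow, div_lt_one (pow_pos hπ0 j)]
    exact hlt
  have h2 := hπmax _ h1
  rw [norm_div, norm_pow, div_le_iff₀ (pow_pos hπ0 j), ← pow_succ'] at h2
  exact h2

/-- The depth of `τ ≠ 1` is a power of `‖π‖`. -/
theorem depth_eq_pow {x π : L} {q : ℕ} (h : IsGoodGen L x π q) {τ : L ≃ₐ[ℚ_[p]] L}
    (hτ : τ ≠ 1) : ∃ i : ℕ, depth p L τ = ‖π‖ ^ i := by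
  obtain ⟨hx, hπ0, hπ1, hπmax, hxq, hres⟩ := id h
  rw [depth_eq_of_goodGen h τ]
  have hne : τ x - x ≠ 0 := by
    intro h0
    exact hτ (eq_one_of_map_goodGen h (sub_eq_zero.mp h0))
  refine exists_norm_eq_pow L hπ0 hπ1 hπmax _ hne ?_
  have := norm_sub_le_depth τ hx
  exact this.trans (depth_le_one L τ)

theorem depth_pos {τ : L ≃ₐ[ℚ_[p]] L} (hτ : τ ≠ 1) : 0 < depth p L τ := by
  refine lt_of_le_of_ne (depth_nonneg L τ) fun h0 => hτ (eq_one_of_depth_eq_zero h0.symm)

theorem depth_pow_le (σ : L ≃ₐ[ℚ_[p]] L) (i : ℕ) : depth p L (σ ^ i) ≤ depth p L σ := by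
  induction i with
  | zero => rw [pow_zero, depth_one]; exact depth_nonneg L σ
  | succ i ih =>
    rw [pow_succ]
    exact (depth_mul_le L _ _).trans (max_le ih le_rfl)

/-- The absolute ramification index. -/
theorem exists_ramIdx {π : L} (hπ0 : 0 < ‖π‖) (hπ1 : ‖π‖ < 1)
    (hmax : ∀ a : L, ‖a‖ < 1 → ‖a‖ ≤ ‖π‖) : ∃ e : ℕ, 0 < e ∧ ‖π‖ ^ e = (p : ℝ)⁻¹ := by
  have hp : p.Prime := Fact.out
  have hpn : ‖(p : L)‖ = (p : ℝ)⁻¹ := by
    have : ‖((p : L) : PadicAlgCl p)‖ = (p : ℝ)⁻¹ := by push_cast; exact norm_p_algCl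
    exact this
  have hplt : (p : ℝ)⁻¹ < 1 := inv_lt_one_of_one_lt₀ one_lt_p_real
  have hp0 : (p : L) ≠ 0 := by
    intro h0
    rw [h0, norm_zero] at hpn
    have : (0 : ℝ) < (p : ℝ)⁻¹ := inv_pos.mpr p_pos_real
    linarith
  obtain ⟨e, he⟩ := exists_norm_eq_pow L hπ0 hπ1 hmax (p : L) hp0 (by rw [hpn]; exact hplt.le)
  refine ⟨e, ?_, by rw [← he, hpn]⟩
  rcases Nat.eq_zero_or_pos e with h0 | h0
  · rw [h0, pow_zero, hpn] at he
    exact absurd he hplt.ne
  · exact h0

variable [FiniteDimensional ℚ_[p] L]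

open Classical in
/-- **The inertia group has at most `e` elements.** -/
theorem card_inertia_le {x π : L} {q : ℕ} (h : IsGoodGen L x π q)
    (hq : ‖(q : PadicAlgCl p)‖ < 1) {Pz : ℤ_[p][X]} (hP : IsMinZ L x Pz) {e : ℕ}
    (he : ‖π‖ ^ e = (p : ℝ)⁻¹) :
    (Finset.univ.filter fun τ : L ≃ₐ[ℚ_[p]] L => depth p L τ < 1).card ≤ e := by
  obtain ⟨hx, hπ0, hπ1, hπmax, hxq, hres⟩ := id h
  set r : ℝ := ‖π‖ with hr
  have hx' : ‖(x : PadicAlgCl p)‖ ≤ 1 := hx
  -- a square root of `π`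
  obtain ⟨t, ht⟩ := IsAlgClosed.exists_pow_nat_eq ((π : L) : PadicAlgCl p) (n := 2) (by norm_num)
  set ρ : ℝ := ‖t‖ with hρ
  have hρ2 : ρ ^ 2 = r := by rw [hρ, ← norm_pow, ht]; rfl
  have hρ0 : 0 < ρ := by
    rcases (norm_nonneg t).lt_or_eq with h0 | h0
    · exact h0
    · rw [hρ, ← h0] at hρ2
      have : r = 0 := by rw [← hρ2]; norm_num
      rw [this] at hπ0
      exact absurd hπ0 (lt_irrefl _)
  have hρ1 : ρ < 1 := by
    by_contra hcon
    have : 1 ≤ ρ ^ 2 := one_le_pow₀ (not_lt.mp hcon)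
    rw [hρ2] at this
    exact absurd hπ1 (not_lt.mpr this)
  have hrρ : r < ρ := by
    rw [← hρ2]
    calc ρ ^ 2 = ρ * ρ := by ring
      _ < 1 * ρ := mul_lt_mul_of_pos_right hρ1 hρ0
      _ = ρ := one_mul _
  set y : PadicAlgCl p := (x : PadicAlgCl p) + t with hy
  have hyx : y - (x : PadicAlgCl p) = t := by rw [hy]; ring
  have hy1 : ‖y‖ ≤ 1 :=
    (IsUltrametricDist.norm_add_le_max _ _).trans (max_le hx' hρ1.le)
  -- the distances to the conjugates
  have hdist : ∀ τ : L ≃ₐ[ℚ_[p]] L, ‖y - ((τ x : L) : PadicAlgCl p)‖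
      = if depth p L τ < 1 then ρ else 1 := by
    intro τ
    have hd : depth p L τ = ‖(x : PadicAlgCl p) - ((τ x : L) : PadicAlgCl p)‖ := by
      rw [depth_eq_of_goodGen h τ, norm_sub_rev]
      rfl
    have h1 : y - ((τ x : L) : PadicAlgCl p)
        = t + ((x : PadicAlgCl p) - ((τ x : L) : PadicAlgCl p)) := by rw [hy]; ring
    split_ifs with hlt
    · have h2 : depth p L τ ≤ r := by
        have := depth_le_pow_succ h τ 0 (by rw [pow_zero]; exact hlt)
        rwa [zero_add, pow_one] at this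
      rw [h1]
      exact norm_add_eq_left (by rw [← hd]; exact h2.trans_lt hrρ)
    · have h2 : depth p L τ = 1 := le_antisymm (depth_le_one L τ) (not_lt.mp hlt)
      rw [h1, norm_add_eq_right (by rw [← hd, h2]; exact hρ1), ← hd, h2]
  have hPy : ‖Pz.eval₂ (phiZ p) y‖
      = ρ ^ (Finset.univ.filter fun τ : L ≃ₐ[ℚ_[p]] L => depth p L τ < 1).card := by
    rw [hP.norm_eval₂]
    simp only [hdist]
    rw [Finset.prod_ite, Finset.prod_const, Finset.prod_const_one, mul_one]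
  -- monogenicity applied to `ϖ^e / p`
  set ϖ : L := x ^ q - x with hϖ
  have hϖn : ‖ϖ‖ = r := hxq
  have hpn : ‖(p : L)‖ = (p : ℝ)⁻¹ := by
    have : ‖((p : L) : PadicAlgCl p)‖ = (p : ℝ)⁻¹ := by push_cast; exact norm_p_algCl
    exact this
  have hp0 : (p : L) ≠ 0 := by
    intro h0
    rw [h0, norm_zero] at hpn
    have : (0 : ℝ) < (p : ℝ)⁻¹ := inv_pos.mpr p_pos_real
    linarith
  have ha1 : ‖ϖ ^ e / (p : L)‖ ≤ 1 := by
    rw [norm_div, norm_pow, hϖn, he, hpn, div_self (inv_pos.mpr p_pos_real).ne']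
  obtain ⟨g, hg⟩ := exists_poly_eq h hP (ϖ ^ e / (p : L)) ha1
  have hG : ((X ^ q - X) ^ e - C (p : ℤ_[p]) * g).eval₂ (phiZ p) (x : PadicAlgCl p) = 0 := by
    rw [eval₂_sub, eval₂_mul, eval₂_C, eval₂_pow, eval₂_sub, eval₂_pow, eval₂_X, hg]
    have h1 : phiZ p (p : ℤ_[p]) = ((p : L) : PadicAlgCl p) := by
      rw [map_natCast]; push_cast; rfl
    have h2 : ((x : PadicAlgCl p) ^ q - (x : PadicAlgCl p)) = (ϖ : PadicAlgCl p) := by
      rw [hϖ]; push_cast; rfl
    rw [h1, h2]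
    have h3 : ((p : L) : PadicAlgCl p) * ((ϖ ^ e / (p : L) : L) : PadicAlgCl p)
        = ((ϖ ^ e : L) : PadicAlgCl p) := by
      rw [← IntermediateField.coe_mul]
      congr 1
      field_simp
    rw [h3]
    push_cast
    ring
  obtain ⟨hh, hhG⟩ := hP.dvd_of_eval₂_eq_zero _ hG
  have hev := congrArg (fun F : ℤ_[p][X] => F.eval₂ (phiZ p) y) hhG
  simp only [eval₂_sub, eval₂_mul, eval₂_C, eval₂_pow, eval₂_X] at hev
  -- norms
  have hwy : ‖y ^ q - y‖ = ρ := by
    have h1 : ‖(y ^ q - y) - ((x : PadicAlgCl p) ^ q - (x : PadicAlgCl p))‖ = ρ := by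
      rw [norm_w_sub hq hx' (by rw [hyx]; exact hρ1), hyx]
    have h2 : ‖((x : PadicAlgCl p) ^ q - (x : PadicAlgCl p))‖ = r := hϖn
    have h3 : y ^ q - y = ((y ^ q - y) - ((x : PadicAlgCl p) ^ q - (x : PadicAlgCl p)))
        + ((x : PadicAlgCl p) ^ q - (x : PadicAlgCl p)) := by ring
    rw [h3, norm_add_eq_left (by rw [h1, h2]; exact hrρ), h1]
  have hpg : ‖phiZ p (p : ℤ_[p]) * g.eval₂ (phiZ p) y‖ < ρ ^ e := by
    rw [norm_mul, map_natCast, norm_p_algCl, ← he]
    have hepos : e ≠ 0 := by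
      intro h0
      rw [h0, pow_zero] at he
      have : (p : ℝ)⁻¹ < 1 := inv_lt_one_of_one_lt₀ one_lt_p_real
      linarith
    calc r ^ e * ‖g.eval₂ (phiZ p) y‖ ≤ r ^ e * 1 :=
          mul_le_mul_of_nonneg_left (norm_evZ_le_one hy1 g) (by positivity)
      _ = r ^ e := mul_one _
      _ < ρ ^ e := pow_lt_pow_left₀ hrρ hπ0.le hepos
  have hlhs : ‖(y ^ q - y) ^ e - phiZ p (p : ℤ_[p]) * g.eval₂ (phiZ p) y‖ = ρ ^ e := by
    rw [norm_sub_eq_left (by rw [norm_pow, hwy]; exact hpg), norm_pow, hwy]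
  rw [hev, norm_mul, hPy] at hlhs
  have hle : ρ ^ e ≤ ρ ^ (Finset.univ.filter fun τ : L ≃ₐ[ℚ_[p]] L => depth p L τ < 1).card := by
    rw [← hlhs]
    calc ρ ^ (Finset.univ.filter fun τ : L ≃ₐ[ℚ_[p]] L => depth p L τ < 1).card
          * ‖hh.eval₂ (phiZ p) y‖
        ≤ ρ ^ (Finset.univ.filter fun τ : L ≃ₐ[ℚ_[p]] L => depth p L τ < 1).card * 1 :=
          mul_le_mul_of_nonneg_left (norm_evZ_le_one hy1 hh) (by positivity)
      _ = _ := mul_one _
  exact (pow_le_pow_iff_right_of_lt_one₀ hρ0 hρ1).mp hle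

/-- **Wild elements have order divisible by `p`**: an automorphism `σ ≠ 1` of depth `< ‖π‖`
has order divisible by `p`. -/
theorem dvd_orderOf_of_depth_lt {x π : L} {q : ℕ} (h : IsGoodGen L x π q)
    {σ : L ≃ₐ[ℚ_[p]] L} (hσ : σ ≠ 1) (hd : depth p L σ < ‖π‖) : p ∣ orderOf σ := by
  by_contra hndvd
  obtain ⟨hx, hπ0, hπ1, hπmax, hxq, hres⟩ := id h
  set m := orderOf σ with hm
  have hmpos : 0 < m := orderOf_pos σ
  have hmn : ‖(m : L)‖ = 1 := by
    have : ‖((m : L) : PadicAlgCl p)‖ = 1 := by push_cast; exact norm_natCast_eq_one hndvd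
    exact this
  have hm0 : (m : L) ≠ 0 := by
    intro h0
    rw [h0, norm_zero] at hmn
    exact zero_ne_one hmn
  set S : L := ∑ i ∈ Finset.range m, (σ ^ i) x with hS
  set x' : L := (m : L)⁻¹ * S with hx'
  -- `σ` fixes `x'`
  have hσS : σ S = S := by
    rw [hS, map_sum]
    have h1 : ∀ i, σ ((σ ^ i) x) = (σ ^ (i + 1)) x := by
      intro i
      rw [pow_succ', AlgEquiv.mul_apply]
    simp only [h1]
    have h2 := Finset.sum_range_succ (fun i => (σ ^ i) x) m
    have h3 := Finset.sum_range_succ' (fun i => (σ ^ i) x) m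
    rw [h2] at h3
    have h4 : (σ ^ m) x = (σ ^ 0) x := by rw [hm, pow_orderOf_eq_one, pow_zero]
    rw [h4] at h3
    exact (add_right_cancel h3).symm
  have hσx' : σ x' = x' := by
    rw [hx', map_mul, hσS, map_inv₀, map_natCast]
  -- `x'` is close to `x`
  have hclose : ‖x' - x‖ < ‖π‖ := by
    have h1 : x' - x = (m : L)⁻¹ * ∑ i ∈ Finset.range m, ((σ ^ i) x - x) := by
      rw [Finset.sum_sub_distrib, Finset.sum_const, Finset.card_range, nsmul_eq_mul, mul_sub,
        ← hS, ← hx', inv_mul_cancel_left₀ hm0]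
    rw [h1, norm_mul, norm_inv, hmn, inv_one, one_mul]
    refine lt_of_le_of_lt ?_ hd
    refine IsUltrametricDist.norm_sum_le_of_forall_le_of_nonneg (depth_nonneg L σ) fun i _ => ?_
    have := norm_sub_le_depth (σ ^ i) hx
    exact this.trans (depth_pow_le σ i)
  have hgood' := h.of_close hclose
  exact hσ (eq_one_of_map_goodGen hgood' hσx')

end Fermat.Agent.S56.FL.H15

end

end
-- ==== END Fermat.Agent.S56.FL.LF.H15_Inertia

-- ==== BEGIN Fermat.Agent.S56.H92_StableFl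
section

set_option autoImplicit false
set_option linter.unusedSectionVars false
set_option linter.style.haveILetI false

noncomputable section

namespace Fermat.Agent.S56.H92

open Polynomial IsLocalRing TensorProduct Fermat.Agent.R

/-! ### Transport of flat Galois modules along equivariant isomorphisms -/

theorem isFlatGaloisModule_of_addEquiv {p : ℕ} {M M' : Type} [AddCommGroup M] [AddCommGroup M']
    {act : (AlgebraicClosure ℚ ≃ₐ[ℚ] AlgebraicClosure ℚ) → M → M}
    {act' : (AlgebraicClosure ℚ ≃ₐ[ℚ] AlgebraicClosure ℚ) → M' → M'}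
    (e : M ≃+ M') (he : ∀ σ x, e (act σ x) = act' σ (e x))
    (h : IsFlatGaloisModule p M act) : IsFlatGaloisModule p M' act' := by
  obtain ⟨H, i1, i2, hfin, hflat, hcoc, e₀, hadd, heq⟩ := h
  refine ⟨H, i1, i2, hfin, hflat, hcoc, e₀.trans e.toEquiv, ?_, ?_⟩
  · intro f g
    change e (e₀ (f * g)) = e (e₀ f) + e (e₀ g)
    rw [hadd, map_add]
  · intro σ f g hfg
    change e (e₀ g) = act' σ (e (e₀ f))
    rw [heq σ f g hfg, he]

/-! ### The two comparison isomorphisms -/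

section Compare

variable {R B : Type} [CommRing R] [CommRing B] (φ : R →+* B)
variable {V : Type} [AddCommGroup V] [Module R V] (b : Module.Basis (Fin 2) R V)

/-- Coordinates of elements of `I • ⊤` lie in `I`. -/
theorem repr_mem_of_mem_smul_top {S W : Type} [CommRing S] [AddCommGroup W] [Module S W]
    {ι : Type} (c : Module.Basis ι S W) (I : Ideal S) {x : W}
    (hx : x ∈ I • (⊤ : Submodule S W)) (i : ι) : c.repr x i ∈ I := by
  refine Submodule.smul_induction_on (p := fun x => c.repr x i ∈ I) hx ?_ ?_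
  · intro r hr m _
    rw [map_smul, Finsupp.smul_apply, smul_eq_mul]
    exact I.mul_mem_right _ hr
  · intro x y hx hy
    rw [map_add, Finsupp.add_apply]
    exact I.add_mem hx hy

/-- An element all of whose coordinates lie in `I` lies in `I • ⊤`. -/
theorem mem_smul_top_of_repr_mem {S W : Type} [CommRing S] [AddCommGroup W] [Module S W]
    {ι : Type} [Fintype ι] (c : Module.Basis ι S W) (I : Ideal S) {x : W}
    (hx : ∀ i, c.repr x i ∈ I) : x ∈ I • (⊤ : Submodule S W) := by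
  rw [← c.sum_repr x]
  exact Submodule.sum_mem _ fun i _ => Submodule.smul_mem_smul (hx i) Submodule.mem_top

end Compare

section Theta

variable {R B : Type} [CommRing R] [CommRing B] [Algebra R B]
variable {V : Type} [AddCommGroup V] [Module R V]
variable (I' : Ideal B)

/-- The `R`-linear map `v ↦ [x ⊗ v]` from `V` to `(B ⊗ V) ⧸ I' (B ⊗ V)`. -/
def thetaX (x : B) : V →ₗ[R] (B ⊗[R] V) ⧸ (I' • (⊤ : Submodule B (B ⊗[R] V))) :=
  ((I' • (⊤ : Submodule B (B ⊗[R] V))).mkQ.restrictScalars R).comp (TensorProduct.mk R B V x)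

theorem thetaX_apply (x : B) (v : V) :
    thetaX I' x v = Submodule.Quotient.mk (x ⊗ₜ[R] v) := rfl

theorem smul_top_le_ker_thetaX (x : B) (I : Ideal R)
    (hI : ∀ r ∈ I, algebraMap R B r * x ∈ I') :
    I • (⊤ : Submodule R V) ≤ LinearMap.ker (thetaX (R := R) (V := V) I' x) := by
  rw [Submodule.smul_le]
  intro r hr v _
  rw [LinearMap.mem_ker, thetaX_apply, Submodule.Quotient.mk_eq_zero]
  have h1 : x ⊗ₜ[R] (r • v) = (algebraMap R B r * x) • ((1 : B) ⊗ₜ[R] v) := by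
    rw [TensorProduct.tmul_smul, TensorProduct.smul_tmul', TensorProduct.smul_tmul',
      Algebra.smul_def, smul_eq_mul, mul_one]
  rw [h1]
  exact Submodule.smul_mem_smul (hI r hr) Submodule.mem_top

/-- Equivariance of the maps `thetaX` for every `R`-endomorphism `f` of `V`. -/
theorem liftQ_thetaX_mapQ (x : B) (I : Ideal R)
    (hker : I • (⊤ : Submodule R V) ≤ LinearMap.ker (thetaX (R := R) (V := V) I' x))
    (f : V →ₗ[R] V)
    (h1 : I • (⊤ : Submodule R V) ≤ (I • (⊤ : Submodule R V)).comap f)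
    (h2 : I' • (⊤ : Submodule B (B ⊗[R] V)) ≤
      (I' • (⊤ : Submodule B (B ⊗[R] V))).comap (f.baseChange B))
    (y : V ⧸ I • (⊤ : Submodule R V)) :
    (Submodule.liftQ _ (thetaX I' x) hker) (Submodule.mapQ _ _ f h1 y)
      = Submodule.mapQ _ _ (f.baseChange B) h2 (Submodule.liftQ _ (thetaX I' x) hker y) := by
  obtain ⟨v, rfl⟩ := Submodule.Quotient.mk_surjective _ y
  rw [Submodule.mapQ_apply, Submodule.liftQ_apply, Submodule.liftQ_apply, thetaX_apply,
    thetaX_apply, Submodule.mapQ_apply, LinearMap.baseChange_tmul]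

/-- Coordinates of `x ⊗ v` in the base-changed basis. -/
theorem repr_baseChange_tmul (b : Module.Basis (Fin 2) R V) (x : B) (v : V) (i : Fin 2) :
    (b.baseChange B).repr (x ⊗ₜ[R] v) i = algebraMap R B (b.repr v i) * x := by
  rw [Module.Basis.baseChange_repr_tmul, Algebra.smul_def]

/-- **Case A** (injectivity): if `[1 ⊗ v] = 0` then `v ∈ φ⁻¹(I') V`. -/
theorem mem_of_thetaX_one_eq_zero (b : Module.Basis (Fin 2) R V) {v : V}
    (hv : thetaX (R := R) I' (1 : B) v = 0) :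
    v ∈ (I'.comap (algebraMap R B)) • (⊤ : Submodule R V) := by
  rw [thetaX_apply, Submodule.Quotient.mk_eq_zero] at hv
  refine mem_smul_top_of_repr_mem b _ fun i => ?_
  have := _root_.Fermat.Agent.S56.H92.repr_mem_of_mem_smul_top (b.baseChange B) I' hv i
  rw [repr_baseChange_tmul, mul_one] at this
  exact this

/-- **Case A** (surjectivity). -/
theorem thetaX_one_surjective (hsurj : ∀ x : B, ∃ r : R, algebraMap R B r - x ∈ I') :
    Function.Surjective (thetaX (R := R) (V := V) I' (1 : B)) := by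
  intro q
  obtain ⟨w, rfl⟩ := Submodule.Quotient.mk_surjective _ q
  induction w using TensorProduct.induction_on with
  | zero => exact ⟨0, by rw [map_zero]; rfl⟩
  | tmul x v =>
    obtain ⟨r, hr⟩ := hsurj x
    refine ⟨r • v, ?_⟩
    rw [thetaX_apply, eq_comm, ← sub_eq_zero, ← Submodule.Quotient.mk_sub,
      Submodule.Quotient.mk_eq_zero]
    have h1 : x ⊗ₜ[R] v - (1 : B) ⊗ₜ[R] (r • v) = (-(algebraMap R B r - x)) • ((1 : B) ⊗ₜ[R] v) := by
      rw [TensorProduct.tmul_smul, TensorProduct.smul_tmul', TensorProduct.smul_tmul',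
        Algebra.smul_def, smul_eq_mul, mul_one, mul_one, ← TensorProduct.sub_tmul]
      congr 1
      ring
    rw [h1]
    exact Submodule.smul_mem_smul (I'.neg_mem hr) Submodule.mem_top
  | add x y hx hy =>
    obtain ⟨a, ha⟩ := hx
    obtain ⟨c, hc⟩ := hy
    exact ⟨a + c, by rw [map_add, ha, hc]; rfl⟩

/-- **Case A**: the comparison isomorphism `V ⧸ φ⁻¹(I') V ≃ (B ⊗ V) ⧸ I' (B ⊗ V)`. -/
def equivA (b : Module.Basis (Fin 2) R V)
    (hsurj : ∀ x : B, ∃ r : R, algebraMap R B r - x ∈ I') :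
    (V ⧸ (I'.comap (algebraMap R B)) • (⊤ : Submodule R V)) ≃ₗ[R]
      (B ⊗[R] V) ⧸ (I' • (⊤ : Submodule B (B ⊗[R] V))) :=
  LinearEquiv.ofBijective
    (Submodule.liftQ _ (thetaX (R := R) I' (1 : B))
      (smul_top_le_ker_thetaX I' 1 _ fun r hr => by rw [mul_one]; exact hr))
    ⟨by
      rw [injective_iff_map_eq_zero]
      intro y hy
      obtain ⟨v, rfl⟩ := Submodule.Quotient.mk_surjective _ y
      rw [Submodule.liftQ_apply] at hy
      rw [Submodule.Quotient.mk_eq_zero]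
      exact mem_of_thetaX_one_eq_zero I' b hy,
     by
      intro q
      obtain ⟨v, hv⟩ := thetaX_one_surjective (R := R) (V := V) I' hsurj q
      exact ⟨Submodule.Quotient.mk v, by rw [Submodule.liftQ_apply]; exact hv⟩⟩

theorem equivA_apply (b : Module.Basis (Fin 2) R V)
    (hsurj : ∀ x : B, ∃ r : R, algebraMap R B r - x ∈ I')
    (y : V ⧸ (I'.comap (algebraMap R B)) • (⊤ : Submodule R V)) :
    equivA I' b hsurj y = Submodule.liftQ _ (thetaX (R := R) I' (1 : B))
      (smul_top_le_ker_thetaX I' 1 _ fun r hr => by rw [mul_one]; exact hr) y := rfl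

/-! #### Case B: the image of `R` is a "field of representatives", `I' = ⊥` -/

section CaseB

variable (ε : B) (m : Ideal R)

/-- The map `(x, y) ↦ [1 ⊗ x + ε ⊗ y]`. -/
def mapB (h3 : ∀ r ∈ m, algebraMap R B r = 0) :
    ((V ⧸ m • (⊤ : Submodule R V)) × (V ⧸ m • (⊤ : Submodule R V))) →ₗ[R]
      (B ⊗[R] V) ⧸ ((⊥ : Ideal B) • (⊤ : Submodule B (B ⊗[R] V))) :=
  (Submodule.liftQ _ (thetaX (R := R) (⊥ : Ideal B) (1 : B))
      (smul_top_le_ker_thetaX ⊥ 1 m fun r hr => by rw [h3 r hr, zero_mul]; exact zero_mem _)).coprod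
    (Submodule.liftQ _ (thetaX (R := R) (⊥ : Ideal B) ε)
      (smul_top_le_ker_thetaX ⊥ ε m fun r hr => by rw [h3 r hr, zero_mul]; exact zero_mem _))

theorem mapB_mk (h3 : ∀ r ∈ m, algebraMap R B r = 0) (v w : V) :
    mapB (V := V) ε m h3 (Submodule.Quotient.mk v, Submodule.Quotient.mk w)
      = Submodule.Quotient.mk ((1 : B) ⊗ₜ[R] v + ε ⊗ₜ[R] w) := by
  rw [mapB, LinearMap.coprod_apply, Submodule.liftQ_apply, Submodule.liftQ_apply, thetaX_apply,
    thetaX_apply, ← Submodule.Quotient.mk_add]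

theorem mapB_injective (b : Module.Basis (Fin 2) R V) (h3 : ∀ r ∈ m, algebraMap R B r = 0)
    (h2 : ∀ r s : R, algebraMap R B r + algebraMap R B s * ε = 0 → r ∈ m ∧ s ∈ m) :
    Function.Injective (mapB (V := V) ε m h3) := by
  rw [injective_iff_map_eq_zero]
  rintro ⟨x, y⟩ hxy
  obtain ⟨v, rfl⟩ := Submodule.Quotient.mk_surjective _ x
  obtain ⟨w, rfl⟩ := Submodule.Quotient.mk_surjective _ y
  rw [mapB_mk, Submodule.Quotient.mk_eq_zero] at hxy
  have hi : ∀ i, b.repr v i ∈ m ∧ b.repr w i ∈ m := by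
    intro i
    have := _root_.Fermat.Agent.S56.H92.repr_mem_of_mem_smul_top (b.baseChange B) ⊥ hxy i
    rw [map_add, Finsupp.add_apply, repr_baseChange_tmul, repr_baseChange_tmul, mul_one,
      Ideal.mem_bot] at this
    exact h2 _ _ this
  have hv : v ∈ m • (⊤ : Submodule R V) := mem_smul_top_of_repr_mem b m fun i => (hi i).1
  have hw : w ∈ m • (⊤ : Submodule R V) := mem_smul_top_of_repr_mem b m fun i => (hi i).2
  rw [Prod.mk_eq_zero, Submodule.Quotient.mk_eq_zero, Submodule.Quotient.mk_eq_zero]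
  exact ⟨hv, hw⟩

theorem mapB_surjective (h3 : ∀ r ∈ m, algebraMap R B r = 0)
    (h1 : ∀ x : B, ∃ r s : R, x = algebraMap R B r + algebraMap R B s * ε) :
    Function.Surjective (mapB (V := V) ε m h3) := by
  intro q
  obtain ⟨t, rfl⟩ := Submodule.Quotient.mk_surjective _ q
  induction t using TensorProduct.induction_on with
  | zero => exact ⟨0, by rw [map_zero]; rfl⟩
  | tmul x v =>
    obtain ⟨r, s, hx⟩ := h1 x
    refine ⟨(Submodule.Quotient.mk (r • v), Submodule.Quotient.mk (s • v)), ?_⟩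
    rw [mapB_mk]
    congr 1
    rw [hx, TensorProduct.add_tmul, TensorProduct.tmul_smul, TensorProduct.tmul_smul,
      TensorProduct.smul_tmul', TensorProduct.smul_tmul', Algebra.smul_def, Algebra.smul_def,
      mul_one]
  | add x y hx hy =>
    obtain ⟨a, ha⟩ := hx
    obtain ⟨c, hc⟩ := hy
    exact ⟨a + c, by rw [map_add, ha, hc]; rfl⟩

/-- **Case B**: the comparison isomorphism `(V ⧸ m V)² ≃ (B ⊗ V) ⧸ ⊥ (B ⊗ V)`. -/
def equivB (b : Module.Basis (Fin 2) R V) (h3 : ∀ r ∈ m, algebraMap R B r = 0)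
    (h2 : ∀ r s : R, algebraMap R B r + algebraMap R B s * ε = 0 → r ∈ m ∧ s ∈ m)
    (h1 : ∀ x : B, ∃ r s : R, x = algebraMap R B r + algebraMap R B s * ε) :
    ((V ⧸ m • (⊤ : Submodule R V)) × (V ⧸ m • (⊤ : Submodule R V))) ≃ₗ[R]
      (B ⊗[R] V) ⧸ ((⊥ : Ideal B) • (⊤ : Submodule B (B ⊗[R] V))) :=
  LinearEquiv.ofBijective (mapB ε m h3) ⟨mapB_injective ε m b h3 h2, mapB_surjective ε m h3 h1⟩

theorem equivB_equivariant (b : Module.Basis (Fin 2) R V) (h3 : ∀ r ∈ m, algebraMap R B r = 0)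
    (h2 : ∀ r s : R, algebraMap R B r + algebraMap R B s * ε = 0 → r ∈ m ∧ s ∈ m)
    (h1 : ∀ x : B, ∃ r s : R, x = algebraMap R B r + algebraMap R B s * ε)
    (f : V →ₗ[R] V)
    (hf : m • (⊤ : Submodule R V) ≤ (m • (⊤ : Submodule R V)).comap f)
    (hf' : (⊥ : Ideal B) • (⊤ : Submodule B (B ⊗[R] V)) ≤
      ((⊥ : Ideal B) • (⊤ : Submodule B (B ⊗[R] V))).comap (f.baseChange B))
    (z : (V ⧸ m • (⊤ : Submodule R V)) × (V ⧸ m • (⊤ : Submodule R V))) :
    equivB ε m b h3 h2 h1 (Submodule.mapQ _ _ f hf z.1, Submodule.mapQ _ _ f hf z.2)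
      = Submodule.mapQ _ _ (f.baseChange B) hf' (equivB ε m b h3 h2 h1 z) := by
  obtain ⟨x, y⟩ := z
  obtain ⟨v, rfl⟩ := Submodule.Quotient.mk_surjective _ x
  obtain ⟨w, rfl⟩ := Submodule.Quotient.mk_surjective _ y
  change mapB ε m h3 _ = Submodule.mapQ _ _ (f.baseChange B) hf' (mapB ε m h3 _)
  rw [Submodule.mapQ_apply, Submodule.mapQ_apply, mapB_mk, mapB_mk, Submodule.mapQ_apply,
    map_add, LinearMap.baseChange_tmul, LinearMap.baseChange_tmul]

end CaseB

theorem equivA_equivariant (b : Module.Basis (Fin 2) R V)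
    (hsurj : ∀ x : B, ∃ r : R, algebraMap R B r - x ∈ I')
    (f : V →ₗ[R] V)
    (hf : (I'.comap (algebraMap R B)) • (⊤ : Submodule R V)
      ≤ ((I'.comap (algebraMap R B)) • (⊤ : Submodule R V)).comap f)
    (hf' : I' • (⊤ : Submodule B (B ⊗[R] V)) ≤
      (I' • (⊤ : Submodule B (B ⊗[R] V))).comap (f.baseChange B))
    (y : V ⧸ (I'.comap (algebraMap R B)) • (⊤ : Submodule R V)) :
    equivA I' b hsurj (Submodule.mapQ _ _ f hf y)
      = Submodule.mapQ _ _ (f.baseChange B) hf' (equivA I' b hsurj y) := by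
  rw [equivA_apply, equivA_apply]
  exact liftQ_thetaX_mapQ I' 1 _ _ f hf hf' y

end Theta

/-! ### The dichotomy for local homomorphisms to the dual numbers -/

section Dichotomy

variable {k : Type} [Field k] {R : Type} [CommRing R] [IsLocalRing R]

open TrivSqZeroExt

theorem dualNumber_decomp (x : DualNumber k) :
    x = inl x.fst + inl x.snd * DualNumber.eps := by
  refine TrivSqZeroExt.ext ?_ ?_
  · simp only [TrivSqZeroExt.fst_add, TrivSqZeroExt.fst_mul, TrivSqZeroExt.fst_inl,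
      DualNumber.fst_eps, mul_zero, add_zero]
  · simp only [TrivSqZeroExt.snd_add, TrivSqZeroExt.snd_mul, TrivSqZeroExt.snd_inl,
      TrivSqZeroExt.fst_inl, DualNumber.snd_eps, DualNumber.fst_eps, smul_eq_mul, mul_one,
      MulOpposite.op_zero, zero_smul, add_zero, zero_add]

theorem fst_combo (a c : k) : (inl a + inl c * DualNumber.eps : DualNumber k).fst = a := by
  simp only [TrivSqZeroExt.fst_add, TrivSqZeroExt.fst_mul, TrivSqZeroExt.fst_inl,
      DualNumber.fst_eps, mul_zero, add_zero]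

theorem snd_combo (a c : k) : (inl a + inl c * DualNumber.eps : DualNumber k).snd = c := by
  simp only [TrivSqZeroExt.snd_add, TrivSqZeroExt.snd_mul, TrivSqZeroExt.snd_inl,
      TrivSqZeroExt.fst_inl, DualNumber.snd_eps, DualNumber.fst_eps, smul_eq_mul, mul_one,
      MulOpposite.op_zero, zero_smul, add_zero, zero_add]

theorem inl_inv_mul_eps {c : k} (hc : c ≠ 0) :
    (inl c⁻¹ : DualNumber k) * (inl c * DualNumber.eps) = DualNumber.eps := by
  rw [← mul_assoc, ← inl_mul, inv_mul_cancel₀ hc, inl_one, one_mul]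

theorem dualNumber_dichotomy (φ : R →+* DualNumber k) (hφ : IsLocalHom φ)
    (hk : ∀ c : k, ∃ r : R, φ r = inl c) (I' : Ideal (DualNumber k)) :
    (∀ x : DualNumber k, ∃ r : R, φ r - x ∈ I') ∨
    (I' = ⊥ ∧ (∀ x : DualNumber k, ∃ r s : R, x = φ r + φ s * DualNumber.eps) ∧
      (∀ r s : R, φ r + φ s * DualNumber.eps = 0 → r ∈ maximalIdeal R ∧ s ∈ maximalIdeal R) ∧
      (∀ r ∈ maximalIdeal R, φ r = 0)) := by
  by_cases h : ∃ r₀ : R, φ r₀ - DualNumber.eps ∈ I'
  · left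
    obtain ⟨r₀, hr₀⟩ := h
    intro x
    obtain ⟨r₁, h₁⟩ := hk x.fst
    obtain ⟨r₂, h₂⟩ := hk x.snd
    refine ⟨r₁ + r₂ * r₀, ?_⟩
    have hx := dualNumber_decomp x
    have : φ (r₁ + r₂ * r₀) - x = inl x.snd * (φ r₀ - DualNumber.eps) := by
      rw [map_add, map_mul, h₁, h₂]
      calc inl x.fst + inl x.snd * φ r₀ - x
          = inl x.fst + inl x.snd * φ r₀ - (inl x.fst + inl x.snd * DualNumber.eps) := by
            rw [← hx]
        _ = inl x.snd * (φ r₀ - DualNumber.eps) := by ring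
    rw [this]
    exact I'.mul_mem_left _ hr₀
  · right
    push Not at h
    -- the image of `φ` has no `ε`-component
    have hsnd : ∀ r : R, (φ r).snd = 0 := by
      intro r
      by_contra hc
      obtain ⟨ra, hra⟩ := hk (φ r).fst
      obtain ⟨rc, hrc⟩ := hk ((φ r).snd)⁻¹
      apply h (rc * (r - ra))
      have hx := dualNumber_decomp (φ r)
      have : φ (rc * (r - ra)) = DualNumber.eps := by
        rw [map_mul, map_sub, hrc, hra]
        calc inl (φ r).snd⁻¹ * (φ r - inl (φ r).fst)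
            = inl (φ r).snd⁻¹ * (inl (φ r).snd * DualNumber.eps) := by
              congr 1
              rw [sub_eq_iff_eq_add, add_comm]
              exact hx
          _ = DualNumber.eps := inl_inv_mul_eps hc
      rw [this, sub_self]
      exact zero_mem _
    have hφr : ∀ r : R, φ r = inl (φ r).fst := by
      intro r
      have hx := dualNumber_decomp (φ r)
      rw [hsnd r, inl_zero, zero_mul, add_zero] at hx
      exact hx
    have hm : ∀ r : R, r ∈ maximalIdeal R ↔ φ r = 0 := by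
      intro r
      haveI := hφ
      rw [mem_maximalIdeal, mem_nonunits_iff]
      constructor
      · intro hr
        have h1 : ¬ IsUnit (φ r) := fun hu => hr (isUnit_of_map_unit φ r hu)
        by_contra hne
        apply h1
        have hf : (φ r).fst ≠ 0 := fun h0 => hne (by rw [hφr r, h0, inl_zero])
        rw [TrivSqZeroExt.isUnit_iff_isUnit_fst]
        exact isUnit_iff_ne_zero.2 hf
      · intro h0 hu
        have := hu.map φ
        rw [h0] at this
        exact not_isUnit_zero this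
    refine ⟨?_, ?_, ?_, ?_⟩
    · rw [eq_bot_iff]
      intro y hy
      rw [Ideal.mem_bot]
      by_contra hy0
      have hyd := dualNumber_decomp y
      by_cases hf : y.fst = 0
      · have hs : y.snd ≠ 0 := by
          intro hs
          apply hy0
          rw [hyd, hf, hs, inl_zero, zero_mul, add_zero]
        apply h 0
        have h1 : y = inl y.snd * DualNumber.eps := by
          rw [hf, inl_zero, zero_add] at hyd
          exact hyd
        have : φ 0 - DualNumber.eps = (-inl (y.snd)⁻¹) * y := by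
          rw [map_zero, zero_sub, neg_mul]
          congr 1
          calc DualNumber.eps = inl (y.snd)⁻¹ * (inl y.snd * DualNumber.eps) :=
                (inl_inv_mul_eps hs).symm
            _ = inl (y.snd)⁻¹ * y := by rw [← h1]
        rw [this]
        exact I'.mul_mem_left _ hy
      · apply h 0
        have hu : IsUnit y := by
          rw [TrivSqZeroExt.isUnit_iff_isUnit_fst]
          exact isUnit_iff_ne_zero.2 hf
        rw [Ideal.eq_top_of_isUnit_mem I' hy hu]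
        exact Submodule.mem_top
    · intro x
      obtain ⟨r₁, h₁⟩ := hk x.fst
      obtain ⟨r₂, h₂⟩ := hk x.snd
      exact ⟨r₁, r₂, by rw [h₁, h₂]; exact dualNumber_decomp x⟩
    · intro r s hrs
      rw [hφr r, hφr s] at hrs
      have h1 : (φ r).fst = 0 := by
        have := congrArg TrivSqZeroExt.fst hrs
        rw [fst_combo] at this
        exact this
      have h2 : (φ s).fst = 0 := by
        have := congrArg TrivSqZeroExt.snd hrs
        rw [snd_combo] at this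
        exact this
      exact ⟨(hm r).2 (by rw [hφr r, h1, inl_zero]), (hm s).2 (by rw [hφr s, h2, inl_zero])⟩
    · intro r hr
      exact (hm r).1 hr

end Dichotomy

/-! ### Flatness of the base change to the dual numbers -/

section Assembly

open TrivSqZeroExt

variable {k : Type} [Field k] [Finite k] {R : Type} [CommRing R] [IsLocalRing R]

theorem finite_quotient_comap (φ : R →+* DualNumber k) (I' : Ideal (DualNumber k)) :
    Finite (R ⧸ I'.comap φ) := by
  haveI : Finite (DualNumber k) := inferInstanceAs (Finite (k × k))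
  haveI : Finite (DualNumber k ⧸ I') :=
    Finite.of_surjective (Ideal.Quotient.mk I') Ideal.Quotient.mk_surjective
  have hinj : Function.Injective (Ideal.quotientMap I' φ le_rfl) :=
    Ideal.quotientMap_injective' le_rfl
  exact Finite.of_injective _ hinj

/-- Core statement, on `DualNumber k ⊗[R] V` directly. -/
theorem isFlat_core (hprod : Stmt_FlatProd) (φ : R →+* DualNumber k) (hφ : IsLocalHom φ)
    (hk : ∀ c : k, ∃ r : R, φ r = inl c) (p : ℕ) (hp : p.Prime) (ρ : GaloisRepAdic R)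
    (h : ρ.IsFlatAt p) (I' : Ideal (DualNumber k)) :
    letI : Algebra R (DualNumber k) := φ.toAlgebra
    IsFlatGaloisModule p
      ((DualNumber k ⊗[R] ρ.V) ⧸ (I' • (⊤ : Submodule (DualNumber k) (DualNumber k ⊗[R] ρ.V))))
      (fun σ => Submodule.mapQ _ _ ((ρ.ρ σ).baseChange (DualNumber k)) (by
        rw [← Submodule.map_le_iff_le_comap, Submodule.map_smul'']
        exact Submodule.smul_mono le_rfl le_top)) := by
  letI : Algebra R (DualNumber k) := φ.toAlgebra
  have b : Module.Basis (Fin 2) R ρ.V := Module.finBasisOfFinrankEq R ρ.V ρ.finrank_eq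
  rcases dualNumber_dichotomy φ hφ hk I' with hA | ⟨hI', hB1, hB2, hB3⟩
  · -- case A
    have hfin : Finite (R ⧸ I'.comap φ) := finite_quotient_comap φ I'
    have hflat := h.2 (I'.comap φ) hfin
    refine isFlatGaloisModule_of_addEquiv (equivA I' b hA).toAddEquiv ?_ hflat
    intro σ x
    exact equivA_equivariant I' b hA (ρ.ρ σ) _ _ x
  · -- case B
    subst hI'
    haveI : Finite (ResidueField R) := h.1
    have hfin : Finite (R ⧸ maximalIdeal R) := h.1
    have hflat := h.2 (maximalIdeal R) hfin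
    have hflat2 := hprod p hp _ _ _ _ hflat hflat
    refine isFlatGaloisModule_of_addEquiv
      (equivB DualNumber.eps (maximalIdeal R) b hB3 hB2 hB1).toAddEquiv ?_ hflat2
    intro σ x
    exact equivB_equivariant DualNumber.eps (maximalIdeal R) b hB3 hB2 hB1 (ρ.ρ σ) _ _ x

theorem isFlatAt_baseChangeAlong_dualNumber (hprod : Stmt_FlatProd) (φ : R →+* DualNumber k)
    (hφ : IsLocalHom φ) (hk : ∀ c : k, ∃ r : R, φ r = inl c) (p : ℕ) (hp : p.Prime)
    (ρ : GaloisRepAdic R) (h : ρ.IsFlatAt p) : (ρ.baseChangeAlong φ hφ).IsFlatAt p := by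
  refine ⟨?_, fun I' _ => ?_⟩
  · haveI : Finite (DualNumber k) := inferInstanceAs (Finite (k × k))
    exact Finite.of_surjective (IsLocalRing.residue (DualNumber k))
      IsLocalRing.residue_surjective
  · exact isFlat_core hprod φ hφ hk p hp ρ h I'

end Assembly

/-- **`condFl` is stable under base change to the dual numbers**, given `Stmt_FlatProd`. -/
theorem stable_Fl_of_flatProd (hprod : Stmt_FlatProd) : Fermat.Agent.S56.Stmt_stable_Fl := by
  intro 𝒪 _ _ _ _ _ p hpf Smin T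
  letI := Fermat.Agent.S53.dualNumberAlgebra 𝒪
  intro R _ _ _ _ _ _ _ ρ hρ φ hφ
  obtain ⟨⟨h1, h2, h3⟩, h4⟩ := hρ
  have hk : ∀ c : ResidueField 𝒪, ∃ r : R,
      (φ : R →+* DualNumber (ResidueField 𝒪)) r = TrivSqZeroExt.inl c := by
    intro c
    obtain ⟨a, rfl⟩ := IsLocalRing.residue_surjective c
    refine ⟨algebraMap 𝒪 R a, ?_⟩
    have := φ.commutes a
    rw [RingHom.coe_coe, this]
    rfl
  exact ⟨⟨detIsCyclotomic_baseChangeAlong _ hφ ρ p h1,
    isFlatAt_baseChangeAlong_dualNumber hprod _ hφ hk p hpf.out ρ h2,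
    fun q hq hqS => isUnramifiedAt_baseChangeAlong _ hφ ρ q (h3 q hq hqS)⟩,
    fun q hq hqp hne => isUnipotentOnInertiaAt_baseChangeAlong _ hφ ρ q (h4 q hq hqp hne)⟩

end Fermat.Agent.S56.H92

end

end
-- ==== END Fermat.Agent.S56.H92_StableFl

-- ==== BEGIN Fermat.Agent.S56.LeavesNT
section

set_option autoImplicit false

/-!
# Cluster T / S56: number-theoretic leaves (exact statements)

Notation: `k` finite field of characteristic `p` (odd), `M = ad⁰ ρbar`, `M' = M.dualTwist (cycloK p k)`,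
`Sg` a finite set of primes, `extArithLoc Sg` the localisation maps of the prelude (`Unit ⊕ Sg`).

A leaf is DONE when `theorem … : Stmt_* := …` is landed sorry-free.
-/

noncomputable section

namespace Fermat.Agent.S56

open Polynomial IsLocalRing CategoryTheory groupCohomology ExtCitation Fermat.Agent.S53 Module

/-- Restriction `H¹(G_ℚ, M) → H¹(G_{ℚ_q}, M)`. -/
def resAt {k : Type} [Field k] (M : Rep k _root_.Fermat.Agent.S56.GQ) (q : Nat.Primes) : H1 M →ₗ[k] H1 (locRep M q) :=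
  (groupCohomology.map (primeLocalToGlobal q) (𝟙 (Rep.res (primeLocalToGlobal q) M)) 1).hom

/-- Restriction `H¹(G_ℚ, M) → H¹(G_ℝ, M)`. -/
def resInf {k : Type} [Field k] (M : Rep k _root_.Fermat.Agent.S56.GQ) : H1 M →ₗ[k] H1 (Rep.res archimedeanLoc M) :=
  (groupCohomology.map archimedeanLoc (𝟙 (Rep.res archimedeanLoc M)) 1).hom

/-- The Tate dual `M* (1)` of a `k`-representation, `k` of characteristic `p`. -/
abbrev tateDual (p : ℕ) [Fact p.Prime] {k : Type} [Field k] [CharP k p] (M : Rep k _root_.Fermat.Agent.S56.GQ) : Rep k _root_.Fermat.Agent.S56.GQ :=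
  M.dualTwist (cycloK p k)

/-- A family of local pairings, one for the real place and one for each prime. -/
structure LocalPairings (p : ℕ) [Fact p.Prime] {k : Type} [Field k] [CharP k p] (M : Rep k _root_.Fermat.Agent.S56.GQ) where
  /-- the pairing at the real place -/
  inf : H1 (Rep.res archimedeanLoc M) →ₗ[k] H1 (Rep.res archimedeanLoc (tateDual p M)) →ₗ[k] k
  /-- the pairing at the prime `q` -/
  atp : ∀ q : Nat.Primes, H1 (locRep M q) →ₗ[k] H1 (locRep (tateDual p M) q) →ₗ[k] k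

/-- The family of pairings indexed by `extArithIndex Sg`. -/
def LocalPairings.fam {p : ℕ} [Fact p.Prime] {k : Type} [Field k] [CharP k p] {M : Rep k _root_.Fermat.Agent.S56.GQ}
    (P : LocalPairings p M) (Sg : Finset Nat.Primes) :
    ∀ v : extArithIndex Sg, H1 (Rep.res (extArithLoc Sg v) M) →ₗ[k]
      H1 (Rep.res (extArithLoc Sg v) (tateDual p M)) →ₗ[k] k
  | Sum.inl _ => P.inf
  | Sum.inr q => P.atp q.1

/-- **Package GW** (Greenberg-Wiles inequality; from S55-land).  There are local pairings, perfect on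
the right on continuous classes at the Taylor-Wiles primes (`q ≡ 1 mod p`, `M` unramified at
`q`), such that for every finite `Sg ∋ p` outside of which `M` is unramified and all local
conditions `L ≤` continuous classes, the Greenberg-Wiles inequality holds (prelude vocabulary
`IsGreenbergWilesLeDatumAdm`).  Reduced to sub-packages in `GW/Defs.lean`, `GW/Reduce.lean`. -/
def Stmt_GW : Prop :=
  ∀ (p : ℕ) [Fact p.Prime] (_hp2 : p ≠ 2) (k : Type) [Field k] [Finite k] [CharP k p]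
    (M : Rep k _root_.Fermat.Agent.S56.GQ) [FiniteDimensional k M] (_hsm : IsSmoothRep M),
    ∃ P : LocalPairings p M,
      (∀ (q : Nat.Primes), (q : ℕ) % p = 1 → IsUnramifiedRepAt M (q : ℕ) →
        ∀ y : H1 (locRep (tateDual p M) q), y ∈ locH1 (tateDual p M) q →
        (∀ x ∈ locH1 M q, P.atp q x y = 0) → y = 0) ∧
      ∀ (Sg : Finset Nat.Primes), pPrime p ∈ Sg →
        (∀ q : Nat.Primes, q ∉ Sg → IsUnramifiedRepAt M (q : ℕ)) →
        ∀ L : ∀ v : extArithIndex Sg, Submodule k (H1 (Rep.res (extArithLoc Sg v) M)),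
          (∀ v, L v ≤ continuousH1 (extArithLoc Sg v) (Rep.res (extArithLoc Sg v) M)) →
          IsGreenbergWilesLeDatumAdm (extArithLoc Sg) M (tateDual p M) (P.fam Sg) L
            (continuousH1S Sg M) (continuousH1S Sg (tateDual p M))

/-- **Package TW-SELECT** (Chebotarev/Frobenius density + group theory, DDT Thm 2.49).
For a finite-dimensional space `Z` of continuous classes in `H¹(G_ℚ, ad⁰ ρbar (1))` and every `n`
there is a Taylor-Wiles family of `dim Z` primes of level `n` such that no nonzero class of `Z`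
is locally trivial at all of them. -/
def Stmt_TW_select : Prop :=
  ∀ (𝒪 : Type) [CommRing 𝒪] [IsDomain 𝒪] [IsDiscreteValuationRing 𝒪]
    [IsAdicComplete (maximalIdeal 𝒪) 𝒪] [Finite (ResidueField 𝒪)]
    (p : ℕ) [Fact p.Prime] [CharP (ResidueField 𝒪) p]
    (ρbar : ResidualGaloisRep (ResidueField 𝒪)) (S Smin : Finset ℕ),
    Hyp 𝒪 p ρbar S Smin →
    ∀ (Z : Submodule (ResidueField 𝒪) (H1 (tateDual p (ad0 ρbar)))) [Module.Finite (ResidueField 𝒪) Z],
      Z ≤ continuousH1 (MonoidHom.id _root_.Fermat.Agent.S56.GQ) (tateDual p (ad0 ρbar)) →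
      ∀ n : ℕ, ∃ qv : Fin (finrank (ResidueField 𝒪) Z) → ℕ, IsTWFamily ρbar p n S qv ∧
        ∀ ξ ∈ Z, (∀ q : Nat.Primes, (q : ℕ) ∈ Finset.univ.image qv →
          resAt (tateDual p (ad0 ρbar)) q ξ = 0) → ξ = 0

/-- **Leaf GLOB-h0.** `ad⁰ ρbar` and `ad⁰ ρbar (1)` have no invariants (Schur + `hTW` for `p = 3`). -/
def Stmt_glob_h0 : Prop :=
  ∀ (𝒪 : Type) [CommRing 𝒪] [IsDomain 𝒪] [IsDiscreteValuationRing 𝒪]
    [IsAdicComplete (maximalIdeal 𝒪) 𝒪] [Finite (ResidueField 𝒪)]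
    (p : ℕ) [Fact p.Prime] [CharP (ResidueField 𝒪) p]
    (ρbar : ResidualGaloisRep (ResidueField 𝒪)) (S Smin : Finset ℕ),
    Hyp 𝒪 p ρbar S Smin →
    finrank (ResidueField 𝒪) (ad0 ρbar).ρ.invariants = 0 ∧
      finrank (ResidueField 𝒪) (tateDual p (ad0 ρbar)).ρ.invariants = 0

/-- **Leaf LOC-inf.** At the real place: `H¹(G_ℝ, M) = 0` (`p` odd) and `h⁰(G_ℝ, ad⁰ ρbar) = 1`
(`ρbar` is odd because its determinant is cyclotomic). -/
def Stmt_loc_inf : Prop :=
  ∀ (𝒪 : Type) [CommRing 𝒪] [IsDomain 𝒪] [IsDiscreteValuationRing 𝒪]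
    [IsAdicComplete (maximalIdeal 𝒪) 𝒪] [Finite (ResidueField 𝒪)]
    (p : ℕ) [Fact p.Prime] (ρbar : ResidualGaloisRep (ResidueField 𝒪)) (S Smin : Finset ℕ),
    Hyp 𝒪 p ρbar S Smin →
    (∀ ξ : H1 (Rep.res archimedeanLoc (ad0 ρbar)), ξ = 0) ∧
      finrank (ResidueField 𝒪) (Rep.res archimedeanLoc (ad0 ρbar)).ρ.invariants = 1

/-- **Leaf LOC-TW-h0.** At a Taylor-Wiles prime `q` (unramified, Frobenius with distinct
eigenvalues in `k`): `h⁰(ℚ_q, ad⁰ ρbar) = 1`. -/
def Stmt_loc_TW_h0 : Prop :=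
  ∀ (k : Type) [Field k] [Finite k] (ρbar : ResidualGaloisRep k) (q : Nat.Primes),
    ρbar.IsUnramifiedAt (q : ℕ) →
    (∀ P : ValuationSubring (AlgebraicClosure ℚ), P.LiesOverPrime (q : ℕ) →
      ∀ φ : AlgebraicClosure ℚ ≃ₐ[ℚ] AlgebraicClosure ℚ, P.IsFrobeniusAt φ (q : ℕ) →
        ∃ α β : k, α ≠ β ∧ LinearMap.charpoly (ρbar.ρ φ) = (X - C α) * (X - C β)) →
    finrank k (locRep (ad0 ρbar) q).ρ.invariants = 1

/-- The shape of a local bound at the prime `q` for a family of conditions `𝒟 T`: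
a subspace `W` of continuous local classes, of dimension `≤ h⁰ + δ`, containing the local
restriction of the class of every first-order deformation of type `𝒟 T`, for every `T`. -/
def LocalBound {𝒪 : Type} [CommRing 𝒪] [IsLocalRing 𝒪]
    (ρbar : ResidualGaloisRep (ResidueField 𝒪)) (𝒟 : Finset ℕ → Cond 𝒪) (q : Nat.Primes)
    (δ : ℕ) : Prop :=
  ∃ W : Submodule (ResidueField 𝒪) (H1 (locRep (ad0 ρbar) q)),
    W ≤ locH1 (ad0 ρbar) q ∧ Module.Finite (ResidueField 𝒪) W ∧
    finrank (ResidueField 𝒪) W ≤ finrank (ResidueField 𝒪) (locRep (ad0 ρbar) q).ρ.invariants + δ ∧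
    ∀ (T : Finset ℕ) (x : TSub 𝒪 ρbar (𝒟 T)) (ξ : H1 (ad0 ρbar)),
      IsClassOf x ξ → resAt (ad0 ρbar) q ξ ∈ W

/-- **Leaf LOC-p-SO.** Strict ordinary at `p`: `dim L_p ≤ h⁰ + 1`. -/
def Stmt_loc_p_SO : Prop :=
  ∀ (𝒪 : Type) [CommRing 𝒪] [IsDomain 𝒪] [IsDiscreteValuationRing 𝒪]
    [IsAdicComplete (maximalIdeal 𝒪) 𝒪] [Finite (ResidueField 𝒪)]
    (p : ℕ) [Fact p.Prime] (ρbar : ResidualGaloisRep (ResidueField 𝒪)) (S Smin : Finset ℕ),
    Hyp 𝒪 p ρbar S Smin → LocalBound ρbar (condSO 𝒪 p Smin) (pPrime p) 1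

/-- **Leaf LOC-p-FL** (the mountain). Flat at `p`: `dim L_p ≤ h⁰ + 1`. -/
def Stmt_loc_p_Fl : Prop :=
  ∀ (𝒪 : Type) [CommRing 𝒪] [IsDomain 𝒪] [IsDiscreteValuationRing 𝒪]
    [IsAdicComplete (maximalIdeal 𝒪) 𝒪] [Finite (ResidueField 𝒪)]
    (p : ℕ) [Fact p.Prime] (ρbar : ResidualGaloisRep (ResidueField 𝒪)) (S Smin : Finset ℕ),
    Hyp 𝒪 p ρbar S Smin → LocalBound ρbar (condFl 𝒪 p Smin) (pPrime p) 1

/-- **Leaf LOC-min.** At `q ∈ Smin`, `q ≠ p` (unipotent inertia): `dim L_q ≤ h⁰`; for both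
families of conditions. -/
def Stmt_loc_min : Prop :=
  ∀ (𝒪 : Type) [CommRing 𝒪] [IsDomain 𝒪] [IsDiscreteValuationRing 𝒪]
    [IsAdicComplete (maximalIdeal 𝒪) 𝒪] [Finite (ResidueField 𝒪)]
    (p : ℕ) [Fact p.Prime] (ρbar : ResidualGaloisRep (ResidueField 𝒪)) (S Smin : Finset ℕ),
    Hyp 𝒪 p ρbar S Smin → ∀ q : Nat.Primes, (q : ℕ) ∈ Smin → (q : ℕ) ≠ p →
      LocalBound ρbar (condSO 𝒪 p Smin) q 0 ∧ LocalBound ρbar (condFl 𝒪 p Smin) q 0

/-- **Leaf UNR.** A continuous class unramified outside `Sg ∪ {q}` which is locally trivial at `q`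
is unramified outside `Sg` (`M` unramified at `q`). -/
def Stmt_unr_of_res_zero : Prop :=
  ∀ (k : Type) [Field k] [Finite k] (M : Rep k _root_.Fermat.Agent.S56.GQ) [FiniteDimensional k M] (_hsm : IsSmoothRep M)
    (Sg Sg' : Finset Nat.Primes) (_hle : Sg ⊆ Sg')
    (_hur : ∀ q ∈ Sg', q ∉ Sg → IsUnramifiedRepAt M (q : ℕ)) (ξ : H1 M),
    ξ ∈ continuousH1S Sg' M → (∀ q ∈ Sg', q ∉ Sg → resAt M q ξ = 0) → ξ ∈ continuousH1S Sg M

end Fermat.Agent.S56

end

end
-- ==== END Fermat.Agent.S56.LeavesNT
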