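-- GENERATED (merged mirror, NOTES/tools/trim/merge3_helper67.py): 8 modules of the originals, bodies verbatim.
import Mathlib
import Fermat.Agent.Zm.S56_L08_000
import Fermat.Agent.Zm.S56_L07_002
import Fermat.Agent.Zm.S56_L08_004
import Fermat.Agent.Zm.S56_L08_003
import Fermat.Agent.Zm.S56_L05_000
import Fermat.Agent.Zm.S56_L07_000
import Fermat.Agent.Zm.S56_L02_004

-- ==== BEGIN Fermat.Agent.S55.CFT.GS.H24_MTwo
section

set_option autoImplicit false
set_option linter.unusedSectionVars false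
set_option linter.unusedVariables false
set_option linter.style.haveILetI false

open CategoryTheory Module groupCohomology ExtCitation

noncomputable section

namespace Fermat.Agent.S55.CFT.GS.H24

open Fermat.Agent.S55 Fermat.Agent.S55.Top Fermat.Agent.S55.CFT.GS

local notation "Qb" => AlgebraicClosure ℚ

/-! ### Algebra of `mTwo` -/

section diff

variable {Δ : Type} [Group Δ] {X : Type} [CommGroup X] [MulDistribMulAction Δ X]

theorem mTwo_apply (a : Δ × Δ → X) (g h k : Δ) :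
    mTwo a (g, h, k) = g • a (h, k) / a (g * h, k) * a (g, h * k) / a (g, h) := rfl

theorem mTwo_mul (a a' : Δ × Δ → X) : mTwo (a * a') = mTwo a * mTwo a' := by
  funext ⟨g, h, k⟩
  simp only [mTwo_apply, Pi.mul_apply, smul_mul']
  apply Additive.ofMul.injective
  simp only [ofMul_mul, ofMul_div]
  abel

theorem mTwo_one : mTwo (1 : Δ × Δ → X) = 1 := by
  funext ⟨g, h, k⟩
  simp [mTwo_apply]

theorem mTwo_inv (a : Δ × Δ → X) : mTwo a⁻¹ = (mTwo a)⁻¹ := by
  rw [eq_inv_iff_mul_eq_one, ← mTwo_mul, inv_mul_cancel, mTwo_one]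

theorem mTwo_div (a a' : Δ × Δ → X) : mTwo (a / a') = mTwo a / mTwo a' := by
  rw [div_eq_mul_inv, mTwo_mul, mTwo_inv, div_eq_mul_inv]

theorem mTwo_pow (a : Δ × Δ → X) (n : ℕ) : mTwo (a ^ n) = mTwo a ^ n := by
  induction n with
  | zero => simp [mTwo_one]
  | succ n ih => rw [pow_succ, mTwo_mul, ih, pow_succ]

/-- `d ∘ d = 1`. -/
theorem mTwo_mOne (b : Δ → X) : mTwo (mOne b) = 1 := by
  funext ⟨g, h, k⟩
  simp only [mTwo_apply, mOne_apply, Pi.one_apply, smul_mul', smul_div', mul_smul, mul_assoc]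
  apply Additive.ofMul.injective
  simp only [ofMul_mul, ofMul_div, ofMul_one]
  abel

end diff

/-- `mTwo` of a `μ_p`-valued cochain with fixed `ζ`. -/
theorem mTwo_zp {p : ℕ} [Fact p.Prime] {Δ : Type} [Group Δ] {X : Type} [CommGroup X]
    [MulDistribMulAction Δ X] {ζ : X} (h1 : ζ ^ p = 1) (hfix : ∀ g : Δ, g • ζ = ζ)
    (f : Δ × Δ → ZMod p) :
    mTwo (fun t => ζ ^ (f t).val) = fun t : Δ × Δ × Δ => ζ ^ (tTwo f t).val := by
  funext ⟨g, h, k⟩
  simp only [mTwo_apply, tTwo, smul_pow', hfix]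
  rw [zp_sub h1, zp_add h1, zp_sub h1]

/-! ### Levels -/

section level

variable {S : Finset Nat.Primes} {K : IntermediateField ℚ Qb}

/-- A level-`S` cochain with values in `Ωˣ` has a normal level field containing its values. -/
theorem exists_level_values (hK : K.IsUnramifiedOutside S) {b : ↥K.fixingSubgroup → Qbˣ}
    (hb : IsLevK₁ S K b) (hbΩ : ∀ g, InOm S (b g : Qb)) :
    ∃ F : IntermediateField ℚ Qb, F.IsUnramifiedOutside S ∧ F.fixingSubgroup.Normal ∧
      (∀ g s : ↥K.fixingSubgroup, (s : GQ) ∈ F.fixingSubgroup → b (g * s) = b g) ∧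
      ∀ g s : ↥K.fixingSubgroup, (s : GQ) ∈ F.fixingSubgroup → s • b g = b g := by
  have hfin : (Set.range (fun g => (b g : Qb))).Finite := by
    have h1 := H6.finite_range_of_isLevK₁ S K hK b hb
    have h2 : Set.range (fun g => (b g : Qb)) = (fun u : Qbˣ => (u : Qb)) '' Set.range b := by
      ext x
      constructor
      · rintro ⟨g, rfl⟩
        exact ⟨b g, ⟨g, rfl⟩, rfl⟩
      · rintro ⟨_, ⟨g, rfl⟩, rfl⟩
        exact ⟨g, rfl⟩
    rw [h2]
    exact h1.image _
  obtain ⟨N, hN, hval⟩ := H6.exists_level_of_finite S _ hfin (by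
    rintro _ ⟨g, rfl⟩
    exact hbΩ g)
  obtain ⟨F, hF, h⟩ := hb
  obtain ⟨F', hle, hF', hnorm⟩ := H48.exists_normal_level S (F ⊔ N) (hF.sup hN)
  refine ⟨F', hF', hnorm, fun g s hs => ?_, fun g s hs => ?_⟩
  · exact h g s (IntermediateField.fixingSubgroup_antitone (le_sup_left.trans hle) hs)
  · apply Units.ext
    have hmem : (b g : Qb) ∈ F' := hle ((le_sup_right : N ≤ F ⊔ N) (hval _ ⟨g, rfl⟩))
    exact (IntermediateField.mem_fixingSubgroup_iff _ _).1 hs _ hmem

/-- The coboundary of a level-`S` cochain with values in `Ωˣ` is of level `S`. -/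
theorem isLevK₂_mOne (hK : K.IsUnramifiedOutside S) {b : ↥K.fixingSubgroup → Qbˣ}
    (hb : IsLevK₁ S K b) (hbΩ : ∀ g, InOm S (b g : Qb)) : IsLevK₂ S K (mOne b) := by
  obtain ⟨F, hF, hN, h1, h2⟩ := exists_level_values hK hb hbΩ
  refine ⟨F, hF, fun g₁ g₂ s₁ s₂ hs₁ hs₂ => ?_⟩
  simp only [mOne_apply]
  have e : g₁ * s₁ * (g₂ * s₂) = g₁ * g₂ * ((g₂⁻¹ * s₁ * g₂) * s₂) := by group
  have hc : (((g₂⁻¹ * s₁ * g₂) * s₂ : ↥K.fixingSubgroup) : GQ) ∈ F.fixingSubgroup := by
    have h3 := hN.conj_mem _ hs₁ ((g₂ : GQ)⁻¹)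
    have h4 := F.fixingSubgroup.mul_mem h3 hs₂
    simpa using h4
  rw [e, h1 _ _ hc, h1 _ _ hs₁, h1 _ _ hs₂, mul_smul, h2 _ _ hs₁]

theorem inOm_mOne {b : ↥K.fixingSubgroup → Qbˣ} (hbΩ : ∀ g, InOm S (b g : Qb))
    (t : ↥K.fixingSubgroup × ↥K.fixingSubgroup) : InOm S ((mOne b t : Qbˣ) : Qb) := by
  obtain ⟨g, h⟩ := t
  rw [mOne_apply]
  exact (OmS S).mul_mem ((OmS S).div_mem (inOm_smul (hbΩ h) g) (hbΩ _)) (hbΩ g)

end level

/-! ### `W` -/

section W

variable {S : Finset Nat.Primes} {p : ℕ}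

theorem inW_iff {x : Qbˣ} : InW S p x ↔ x ∈ (OmS S).map (powMonoidHom p) := by
  unfold InW
  rw [Subgroup.mem_map]
  constructor
  · rintro ⟨t, ht, rfl⟩
    exact ⟨t, ht, rfl⟩
  · rintro ⟨t, ht, rfl⟩
    exact ⟨t, ht, rfl⟩

theorem inW_mul {x y : Qbˣ} (hx : InW S p x) (hy : InW S p y) : InW S p (x * y) := by
  rw [inW_iff] at *
  exact Subgroup.mul_mem _ hx hy

theorem inW_inv {x : Qbˣ} (hx : InW S p x) : InW S p x⁻¹ := by
  rw [inW_iff] at *
  exact Subgroup.inv_mem _ hx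

theorem inW_div {x y : Qbˣ} (hx : InW S p x) (hy : InW S p y) : InW S p (x / y) := by
  rw [inW_iff] at *
  exact Subgroup.div_mem _ hx hy

theorem inW_pow {x : Qbˣ} (hx : InOm S (x : Qb)) : InW S p (x ^ p) := ⟨x, hx, rfl⟩

theorem inOm_of_inW {x : Qbˣ} (hx : InW S p x) : InOm S (x : Qb) := by
  obtain ⟨t, ht, rfl⟩ := hx
  rw [Units.val_pow_eq_pow_val]
  exact inOm_pow ht p

/-- A choice of `p`-th roots in `Ω`. -/
def rootW (S : Finset Nat.Primes) (p : ℕ) (x : Qbˣ) : Qbˣ := by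
  classical
  exact if h : InW S p x then Classical.choose h else 1

theorem rootW_inOm (x : Qbˣ) : InOm S ((rootW S p x : Qbˣ) : Qb) := by
  classical
  unfold rootW
  by_cases h : InW S p x
  · rw [dif_pos h]
    exact (Classical.choose_spec h).1
  · rw [dif_neg h, Units.val_one]
    exact inOm_one

theorem rootW_pow {x : Qbˣ} (h : InW S p x) : rootW S p x ^ p = x := by
  classical
  unfold rootW
  rw [dif_pos h]
  exact (Classical.choose_spec h).2

end W

end Fermat.Agent.S55.CFT.GS.H24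

end

end
-- ==== END Fermat.Agent.S55.CFT.GS.H24_MTwo

-- ==== BEGIN Fermat.Agent.S56.Assembly
section

set_option autoImplicit false

/-!
# Cluster T / S56: assembly of the number-theoretic package `Stmt_TW_*` from the leaves

This file is formal: it combines the leaves of `LeavesNT.lean`, `LeavesLocal.lean`, `Selmer.lean`
into `Stmt_TW_SO` and `Stmt_TW_Fl` (Greenberg-Wiles count + killing of the dual Selmer group).
-/

noncomputable section

namespace Fermat.Agent.S56

open Polynomial IsLocalRing CategoryTheory groupCohomology ExtCitation Fermat.Agent.S53 Module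

/-- **Leaf AD0-basic.** `ad⁰ ρbar` is finite-dimensional, smooth, and unramified where `ρbar` is. -/
def Stmt_ad0_basic : Prop :=
  ∀ (k : Type) [Field k] (ρbar : ResidualGaloisRep k),
    FiniteDimensional k (ad0 ρbar) ∧ IsSmoothRep (ad0 ρbar) ∧
      ∀ q : ℕ, ρbar.IsUnramifiedAt q → IsUnramifiedRepAt (ad0 ρbar) q

/-- **Leaf TATE-basic.** The Tate dual of a finite-dimensional smooth representation is
finite-dimensional, smooth, and unramified at the primes `q ≠ p` where `M` is. -/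
def Stmt_tate_basic : Prop :=
  ∀ (p : ℕ) [Fact p.Prime] (k : Type) [Field k] [CharP k p] (M : Rep.{0} k _root_.Fermat.Agent.S56.GQ)
    [FiniteDimensional k M],
    IsSmoothRep M →
    FiniteDimensional k (tateDual p M) ∧ IsSmoothRep (tateDual p M) ∧
      ∀ q : ℕ, q.Prime → q ≠ p → IsUnramifiedRepAt M q → IsUnramifiedRepAt (tateDual p M) q

/-! ### Restriction of continuous classes -/

theorem resAt_H1π {k : Type} [Field k] (M : Rep.{0} k _root_.Fermat.Agent.S56.GQ) (q : Nat.Primes) (c : cocycles₁ M) :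
    resAt M q ((H1π M).hom c) =
      (H1π (locRep M q)).hom
        ((mapCocycles₁ (primeLocalToGlobal q) (𝟙 (Rep.res (primeLocalToGlobal q) M))).hom c) := by
  unfold resAt
  exact H1π_comp_map_apply (primeLocalToGlobal q) (𝟙 (Rep.res (primeLocalToGlobal q) M)) c

/-- The restriction of a continuous class is continuous. -/
theorem res_cont {k : Type} [Field k] (M : Rep.{0} k _root_.Fermat.Agent.S56.GQ) (q : Nat.Primes) (ξ : H1 M)
    (hξ : ξ ∈ continuousH1 (MonoidHom.id _root_.Fermat.Agent.S56.GQ) M) : resAt M q ξ ∈ locH1 M q := by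
  obtain ⟨c, ⟨F, hF, hc⟩, rfl⟩ := (mem_continuousH1_iff _ M ξ).1 hξ
  rw [resAt_H1π]
  refine H1π_mem_continuousH1 _ _ ⟨F, hF, fun g s hs => ?_⟩
  have := hc (primeLocalToGlobal q g) (primeLocalToGlobal q s) hs
  rw [← map_mul] at this
  exact this

theorem res_contS {k : Type} [Field k] (M : Rep.{0} k _root_.Fermat.Agent.S56.GQ) (Sg : Finset Nat.Primes)
    (q : Nat.Primes) (ξ : H1 M) (hξ : ξ ∈ continuousH1S Sg M) : resAt M q ξ ∈ locH1 M q :=
  res_cont M q ξ (continuousH1S_le_continuousH1 Sg M hξ)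

/-! ### Local conditions indexed by `extArithIndex` -/

/-- Local conditions indexed by `extArithIndex Sg` from per-prime conditions; `⊥` at the real
place. -/
def condFam {k : Type} [Field k] (M : Rep.{0} k _root_.Fermat.Agent.S56.GQ)
    (Wall : ∀ q : Nat.Primes, Submodule k (H1 (locRep M q))) (Sg : Finset Nat.Primes) :
    ∀ v : extArithIndex Sg, Submodule k (H1 (Rep.res (extArithLoc Sg v) M))
  | Sum.inl _ => ⊥
  | Sum.inr q => Wall q.1

theorem mem_selmerAdm_condFam_iff {k : Type} [Field k] (M : Rep.{0} k _root_.Fermat.Agent.S56.GQ)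
    (Wall : ∀ q : Nat.Primes, Submodule k (H1 (locRep M q))) (Sg : Finset Nat.Primes)
    (adm : Submodule k (H1 M)) (ξ : H1 M) :
    ξ ∈ selmerAdm (extArithLoc Sg) M (condFam M Wall Sg) adm ↔
      resInf M ξ = 0 ∧ (∀ q ∈ Sg, resAt M q ξ ∈ Wall q) ∧ ξ ∈ adm := by
  rw [mem_selmerAdm_iff]
  constructor
  · rintro ⟨h, hadm⟩
    refine ⟨?_, fun q hq => ?_, hadm⟩
    · have := h (Sum.inl ())
      exact (Submodule.mem_bot k).1 this
    · exact h (Sum.inr ⟨q, hq⟩)
  · rintro ⟨h1, h2, hadm⟩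
    refine ⟨fun v => ?_, hadm⟩
    rcases v with u | q
    · exact (Submodule.mem_bot k).2 h1
    · exact h2 q.1 q.2

theorem mem_dualSelmer_condFam_iff {p : ℕ} [Fact p.Prime] {k : Type} [Field k] [CharP k p]
    (M : Rep.{0} k _root_.Fermat.Agent.S56.GQ) (P : LocalPairings p M)
    (Wall : ∀ q : Nat.Primes, Submodule k (H1 (locRep M q))) (Sg : Finset Nat.Primes)
    (adm : Submodule k (H1 (tateDual p M))) (ξ : H1 (tateDual p M)) :
    ξ ∈ selmerAdm (extArithLoc Sg) (tateDual p M)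
        (dualConditions (extArithLoc Sg) M (tateDual p M) (P.fam Sg) (condFam M Wall Sg)) adm ↔
      (∀ q ∈ Sg, ∀ x ∈ Wall q, P.atp q x (resAt (tateDual p M) q ξ) = 0) ∧ ξ ∈ adm := by
  rw [mem_selmerAdm_iff]
  constructor
  · rintro ⟨h, hadm⟩
    refine ⟨fun q hq x hx => ?_, hadm⟩
    have := h (Sum.inr ⟨q, hq⟩)
    exact (mem_orthogonal_iff _ _ _).1 this x hx
  · rintro ⟨h2, hadm⟩
    refine ⟨fun v => ?_, hadm⟩
    rcases v with u | q
    · refine (mem_orthogonal_iff _ _ _).2 fun x hx => ?_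
      have hx0 : x = 0 := (Submodule.mem_bot k).1 hx
      rw [hx0, map_zero]; rfl
    · exact (mem_orthogonal_iff _ _ _).2 fun x hx => h2 q.1 q.2 x hx

/-! ### The two sums of the Greenberg-Wiles formula -/

theorem sum_condFam {k : Type} [Field k] (M : Rep.{0} k _root_.Fermat.Agent.S56.GQ)
    (Wall : ∀ q : Nat.Primes, Submodule k (H1 (locRep M q))) (Sg : Finset Nat.Primes) :
    ∑ v : extArithIndex Sg, finrank k (condFam M Wall Sg v) = ∑ q ∈ Sg, finrank k (Wall q) := by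
  have h1 : ∑ v : extArithIndex Sg, finrank k (condFam M Wall Sg v) =
      ∑ u : Unit, finrank k (condFam M Wall Sg (Sum.inl u)) +
        ∑ q : ↥Sg, finrank k (condFam M Wall Sg (Sum.inr q)) :=
    Fintype.sum_sum_type (fun v : Unit ⊕ ↥Sg => finrank k (condFam M Wall Sg v))
  rw [h1]
  have h2 : ∑ u : Unit, finrank k (condFam M Wall Sg (Sum.inl u)) = 0 := by
    refine Finset.sum_eq_zero fun u _ => ?_
    exact finrank_bot k _
  have h3 : ∑ q : ↥Sg, finrank k (condFam M Wall Sg (Sum.inr q)) =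
      ∑ q ∈ Sg, finrank k (Wall q) :=
    Finset.sum_coe_sort Sg (fun q => finrank k (Wall q))
  rw [h2, h3, zero_add]

theorem sum_h0 {k : Type} [Field k] (M : Rep.{0} k _root_.Fermat.Agent.S56.GQ) (Sg : Finset Nat.Primes) :
    ∑ v : extArithIndex Sg, finrank k (Rep.res (extArithLoc Sg v) M).ρ.invariants =
      finrank k (Rep.res archimedeanLoc M).ρ.invariants +
        ∑ q ∈ Sg, finrank k (locRep M q).ρ.invariants := by
  let f : extArithIndex Sg → ℕ := fun v => finrank k (Rep.res (extArithLoc Sg v) M).ρ.invariants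
  have h1 : ∑ v : extArithIndex Sg, f v = ∑ u : Unit, f (Sum.inl u) + ∑ q : ↥Sg, f (Sum.inr q) :=
    Fintype.sum_sum_type (fun v : Unit ⊕ ↥Sg => f v)
  have h2 : ∑ u : Unit, f (Sum.inl u) = finrank k (Rep.res archimedeanLoc M).ρ.invariants := by
    rw [Fintype.sum_unique]; rfl
  have h3 : ∑ q : ↥Sg, f (Sum.inr q) = ∑ q ∈ Sg, finrank k (locRep M q).ρ.invariants :=
    Finset.sum_coe_sort Sg (fun q => finrank k (locRep M q).ρ.invariants)
  rw [← h2, ← h3, ← h1]

section

variable {𝒪 : Type} [CommRing 𝒪] [IsLocalRing 𝒪]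

theorem charP_residueField (p : ℕ) [Fact p.Prime] (hp𝒪 : (p : 𝒪) ∈ maximalIdeal 𝒪) :
    CharP (ResidueField 𝒪) p := by
  have h0 : ((p : ℕ) : ResidueField 𝒪) = 0 := by
    have := (IsLocalRing.residue_eq_zero_iff (p : 𝒪)).mpr hp𝒪
    simpa using this
  exact (CharP.charP_iff_prime_eq_zero (Fact.out : p.Prime)).mpr h0

end

/-! ### The assembly -/

section Assembly

variable {𝒪 : Type} [CommRing 𝒪] [IsDomain 𝒪] [IsDiscreteValuationRing 𝒪]
  [IsAdicComplete (maximalIdeal 𝒪) 𝒪] [Finite (ResidueField 𝒪)]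

/-- A Taylor-Wiles prime is congruent to `1` modulo `p`. -/
theorem mod_eq_one_of_pow_dvd {p n q : ℕ} (hp : p.Prime) (hq : q.Prime)
    (h : p ^ (n + 1) ∣ q - 1) : q % p = 1 := by
  have h1 : p ∣ q - 1 := dvd_trans (dvd_pow_self p (Nat.succ_ne_zero n)) h
  obtain ⟨m, hm⟩ := h1
  have hq2 := hq.two_le
  have hq' : q = p * m + 1 := by omega
  rw [hq', Nat.mul_add_mod]
  exact Nat.mod_eq_of_lt hp.one_lt

/-- **Assembly (generic in the family of conditions).**  From the leaves: Taylor-Wiles families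
with the tangent bound. -/
theorem assembly_core
    (hGW : Stmt_GW) (hTWsel : Stmt_TW_select) (hglob : Stmt_glob_h0) (hinf : Stmt_loc_inf)
    (hlocTW : Stmt_loc_TW) (hlocTWh0 : Stmt_loc_TW_h0) (hunr : Stmt_unr_of_res_zero)
    (hdex : Stmt_dict_exists) (hdinj : Stmt_dict_inj) (hdcont : Stmt_dict_cont)
    (had0 : Stmt_ad0_basic) (htate : Stmt_tate_basic)
    (p : ℕ) [Fact p.Prime] (ρbar : ResidualGaloisRep (ResidueField 𝒪)) (S Smin : Finset ℕ)
    (hyp : Hyp 𝒪 p ρbar S Smin) (𝒟 : Finset ℕ → Cond 𝒪)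
    (h𝒟det : ∀ (T : Finset ℕ) ⦃A : Type⦄ [CommRing A] [IsLocalRing A] [Algebra 𝒪 A]
      (ρ : GaloisRepAdic A), 𝒟 T ρ → ρ.DetIsCyclotomic p)
    (h𝒟unr : ∀ (T : Finset ℕ) ⦃A : Type⦄ [CommRing A] [IsLocalRing A] [Algebra 𝒪 A]
      (ρ : GaloisRepAdic A), 𝒟 T ρ → ∀ q : ℕ, q.Prime → q ∉ Smin ∪ T → ρ.IsUnramifiedAt q)
    (hLB : ∀ q : Nat.Primes, (q : ℕ) ∈ Smin →
      LocalBound ρbar 𝒟 q (if (q : ℕ) = p then 1 else 0)) :
    ∃ r : ℕ, ∀ n : ℕ, ∃ qv : Fin r → ℕ, IsTWFamily ρbar p n S qv ∧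
      TangentLE 𝒪 ρbar (𝒟 (Finset.univ.image qv)) r := by
  classical
  haveI hchar : CharP (ResidueField 𝒪) p := charP_residueField p hyp.hp𝒪
  obtain ⟨hMfd, hMsm, hMur⟩ := had0 (ResidueField 𝒪) ρbar
  haveI := hMfd
  obtain ⟨hM'fd, hM'sm, hM'ur⟩ := htate p (ResidueField 𝒪) (ad0 ρbar) hMsm
  haveI := hM'fd
  obtain ⟨P, hperf, hGWP⟩ := hGW p hyp.hp2 (ResidueField 𝒪) (ad0 ρbar) hMsm
  obtain ⟨hh0, hh0'⟩ := hglob 𝒪 p ρbar S Smin hyp
  obtain ⟨hinf0, hinf1⟩ := hinf 𝒪 p ρbar S Smin hyp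
  -- unramifiedness of `ρbar` outside `Smin`
  have hρur : ∀ q : ℕ, q.Prime → q ∉ Smin → ρbar.IsUnramifiedAt q := by
    intro q hq hqS
    have hqp : q ≠ p := fun h => hqS (h ▸ hyp.hpSmin)
    by_contra hcon
    exact hqS ((hyp.hmin q hq hqp).2 hcon)
  -- per-prime conditions
  let Wall : ∀ q : Nat.Primes, Submodule (ResidueField 𝒪) (H1 (locRep (ad0 ρbar) q)) := fun q =>
    if h : (q : ℕ) ∈ Smin then Classical.choose (hLB q h) else locH1 (ad0 ρbar) q
  have hWall_in : ∀ (q : Nat.Primes) (h : (q : ℕ) ∈ Smin),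
      Wall q = Classical.choose (hLB q h) := fun q h => dif_pos h
  have hWall_out : ∀ q : Nat.Primes, (q : ℕ) ∉ Smin → Wall q = locH1 (ad0 ρbar) q :=
    fun q h => dif_neg h
  have hWall_le : ∀ q : Nat.Primes, Wall q ≤ locH1 (ad0 ρbar) q := by
    intro q
    by_cases h : (q : ℕ) ∈ Smin
    · rw [hWall_in q h]; exact (Classical.choose_spec (hLB q h)).1
    · rw [hWall_out q h]
  have hWall_rank : ∀ (q : Nat.Primes), (q : ℕ) ∈ Smin →
      finrank (ResidueField 𝒪) (Wall q) ≤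
        finrank (ResidueField 𝒪) (locRep (ad0 ρbar) q).ρ.invariants +
          (if (q : ℕ) = p then 1 else 0) := by
    intro q h
    rw [hWall_in q h]; exact (Classical.choose_spec (hLB q h)).2.2.1
  have hWall_class : ∀ (q : Nat.Primes), (q : ℕ) ∈ Smin → ∀ (T : Finset ℕ)
      (x : TSub 𝒪 ρbar (𝒟 T)) (ξ : H1 (ad0 ρbar)), IsClassOf x ξ →
      resAt (ad0 ρbar) q ξ ∈ Wall q := by
    intro q h T x ξ hx
    rw [hWall_in q h]; exact (Classical.choose_spec (hLB q h)).2.2.2 T x ξ hx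
  -- the sets of primes
  have hpSg : ∀ T : Finset ℕ, pPrime p ∈ primesOf (Smin ∪ T) := fun T =>
    mem_primesOf.2 (Finset.mem_union_left _ hyp.hpSmin)
  have hurSg : ∀ T : Finset ℕ, ∀ q : Nat.Primes, q ∉ primesOf (Smin ∪ T) →
      IsUnramifiedRepAt (ad0 ρbar) (q : ℕ) := by
    intro T q hq
    refine hMur q (hρur q q.2 fun h => hq (mem_primesOf.2 (Finset.mem_union_left _ h)))
  have hLle : ∀ (T : Finset ℕ) (v : extArithIndex (primesOf (Smin ∪ T))),
      condFam (ad0 ρbar) Wall (primesOf (Smin ∪ T)) v ≤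
        continuousH1 (extArithLoc (primesOf (Smin ∪ T)) v)
          (Rep.res (extArithLoc (primesOf (Smin ∪ T)) v) (ad0 ρbar)) := by
    intro T v
    rcases v with u | q
    · exact bot_le
    · exact hWall_le q.1
  have hGWT := fun T : Finset ℕ => hGWP (primesOf (Smin ∪ T)) (hpSg T) (hurSg T)
    (condFam (ad0 ρbar) Wall (primesOf (Smin ∪ T))) (hLle T)
  -- the dual Selmer group for `T = ∅`
  let Z : Submodule (ResidueField 𝒪) (H1 (tateDual p (ad0 ρbar))) :=
    selmerAdm (extArithLoc (primesOf (Smin ∪ ∅))) (tateDual p (ad0 ρbar))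
      (dualConditions (extArithLoc (primesOf (Smin ∪ ∅))) (ad0 ρbar) (tateDual p (ad0 ρbar))
        (P.fam (primesOf (Smin ∪ ∅))) (condFam (ad0 ρbar) Wall (primesOf (Smin ∪ ∅))))
      (continuousH1S (primesOf (Smin ∪ ∅)) (tateDual p (ad0 ρbar)))
  haveI hZfin : Module.Finite (ResidueField 𝒪) Z := (hGWT ∅).finite_dualSelmer
  have hZle : Z ≤ continuousH1 (MonoidHom.id _root_.Fermat.Agent.S56.GQ) (tateDual p (ad0 ρbar)) :=
    (selmerAdm_le_adm _ _ _ _).trans (continuousH1S_le_continuousH1 _ _)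
  refine ⟨finrank (ResidueField 𝒪) Z, fun n => ?_⟩
  obtain ⟨qv, hqv, hkill⟩ := hTWsel 𝒪 p ρbar S Smin hyp Z hZle n
  refine ⟨qv, hqv, ?_⟩
  obtain ⟨-, hqv2, hqv3⟩ := hqv
  -- facts on the Taylor-Wiles primes
  have hT : ∀ q : Nat.Primes, (q : ℕ) ∈ Finset.univ.image qv →
      (q : ℕ) ∉ Smin ∧ (q : ℕ) ≠ p ∧ (q : ℕ) % p = 1 ∧ ρbar.IsUnramifiedAt (q : ℕ) ∧
        finrank (ResidueField 𝒪) (locRep (ad0 ρbar) q).ρ.invariants = 1 := by
    intro q hq
    obtain ⟨i, -, hi⟩ := Finset.mem_image.1 hq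
    obtain ⟨hi1, hi2, hi3⟩ := hqv2 i
    have hqS : (q : ℕ) ∉ Smin := fun h => hi2 (hyp.hSmin (hi ▸ h))
    have hur : ρbar.IsUnramifiedAt (q : ℕ) := hρur q q.2 hqS
    refine ⟨hqS, fun h => hqS (h ▸ hyp.hpSmin), ?_, hur, ?_⟩
    · rw [← hi]; exact mod_eq_one_of_pow_dvd (Fact.out : p.Prime) hi1 hi3
    · refine hlocTWh0 (ResidueField 𝒪) ρbar q hur ?_
      rw [← hi]; exact hqv3 i
  -- the dual Selmer group for `T` vanishes
  have hsub : primesOf (Smin ∪ ∅) ⊆ primesOf (Smin ∪ Finset.univ.image qv) := by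
    intro q hq
    rw [mem_primesOf] at hq ⊢
    rcases Finset.mem_union.1 hq with h | h
    · exact Finset.mem_union_left _ h
    · exact absurd h (Finset.notMem_empty _)
  have hnew : ∀ q ∈ primesOf (Smin ∪ Finset.univ.image qv), q ∉ primesOf (Smin ∪ ∅) →
      (q : ℕ) ∈ Finset.univ.image qv := by
    intro q hq hq0
    rw [mem_primesOf] at hq hq0
    rcases Finset.mem_union.1 hq with h | h
    · exact absurd (Finset.mem_union_left _ h) hq0
    · exact h
  have hdual0 : ∀ ξ ∈ selmerAdm (extArithLoc (primesOf (Smin ∪ Finset.univ.image qv)))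
      (tateDual p (ad0 ρbar))
      (dualConditions (extArithLoc (primesOf (Smin ∪ Finset.univ.image qv))) (ad0 ρbar)
        (tateDual p (ad0 ρbar)) (P.fam (primesOf (Smin ∪ Finset.univ.image qv)))
        (condFam (ad0 ρbar) Wall (primesOf (Smin ∪ Finset.univ.image qv))))
      (continuousH1S (primesOf (Smin ∪ Finset.univ.image qv)) (tateDual p (ad0 ρbar))),
      ξ = 0 := by
    intro ξ hξ
    obtain ⟨hξ1, hξ2⟩ := (mem_dualSelmer_condFam_iff (ad0 ρbar) P Wall _ _ ξ).1 hξ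
    have hres0 : ∀ q : Nat.Primes, (q : ℕ) ∈ Finset.univ.image qv →
        resAt (tateDual p (ad0 ρbar)) q ξ = 0 := by
      intro q hq
      obtain ⟨hqS, -, hq1, hur, -⟩ := hT q hq
      have hqSg : q ∈ primesOf (Smin ∪ Finset.univ.image qv) :=
        mem_primesOf.2 (Finset.mem_union_right _ hq)
      refine hperf q hq1 (hMur q hur) _ (res_contS _ _ q ξ hξ2) fun x hx => ?_
      exact hξ1 q hqSg x (by rw [hWall_out q hqS]; exact hx)
    have hξ3 : ξ ∈ continuousH1S (primesOf (Smin ∪ ∅)) (tateDual p (ad0 ρbar)) := by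
      refine hunr (ResidueField 𝒪) (tateDual p (ad0 ρbar)) hM'sm _ _ hsub ?_ ξ hξ2 ?_
      · intro q hq hq0
        obtain ⟨-, hqp, -, hur, -⟩ := hT q (hnew q hq hq0)
        exact hM'ur q q.2 hqp (hMur q hur)
      · intro q hq hq0
        exact hres0 q (hnew q hq hq0)
    have hξZ : ξ ∈ Z :=
      (mem_dualSelmer_condFam_iff (ad0 ρbar) P Wall _ _ ξ).2
        ⟨fun q hq x hx => hξ1 q (hsub hq) x hx, hξ3⟩
    exact hkill ξ hξZ fun q hq => hres0 q hq
  -- all classes lie in the Selmer group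
  have hclassSel : ∀ (x : TSub 𝒪 ρbar (𝒟 (Finset.univ.image qv))) (ξ : H1 (ad0 ρbar)),
      IsClassOf x ξ →
      ξ ∈ selmerAdm (extArithLoc (primesOf (Smin ∪ Finset.univ.image qv))) (ad0 ρbar)
        (condFam (ad0 ρbar) Wall (primesOf (Smin ∪ Finset.univ.image qv)))
        (continuousH1S (primesOf (Smin ∪ Finset.univ.image qv)) (ad0 ρbar)) := by
    intro x ξ hx
    have hcont : ξ ∈ continuousH1S (primesOf (Smin ∪ Finset.univ.image qv)) (ad0 ρbar) := by
      refine hdcont 𝒪 ρbar (𝒟 (Finset.univ.image qv)) _ x ξ ?_ hx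
      intro q hq
      letI := dualNumberAlgebra 𝒪
      exact h𝒟unr _ x.1 x.2.1 q q.2 (fun h => hq (mem_primesOf.2 h))
    refine (mem_selmerAdm_condFam_iff _ _ _ _ ξ).2 ⟨hinf0 _, fun q hq => ?_, hcont⟩
    by_cases h : (q : ℕ) ∈ Smin
    · exact hWall_class q h _ x ξ hx
    · rw [hWall_out q h]; exact res_contS _ _ q ξ hcont
  refine Dict.tangentLE_of_classes ρbar (𝒟 (Finset.univ.image qv)) _
    (hdex 𝒪 p ρbar (𝒟 (Finset.univ.image qv)) hyp.hp2 hyp.hp𝒪 hyp.hdet (h𝒟det _))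
    (hdinj 𝒪 ρbar (𝒟 (Finset.univ.image qv))) _ (hGWT (Finset.univ.image qv)).finite_selmer
    hclassSel ?_
  -- the count
  have hle := (hGWT (Finset.univ.image qv)).le
  unfold greenbergWilesLeAdm at hle
  rw [sum_h0, sum_condFam] at hle
  have hdualrank : finrank (ResidueField 𝒪)
      (selmerAdm (extArithLoc (primesOf (Smin ∪ Finset.univ.image qv)))
      (tateDual p (ad0 ρbar))
      (dualConditions (extArithLoc (primesOf (Smin ∪ Finset.univ.image qv))) (ad0 ρbar)
        (tateDual p (ad0 ρbar)) (P.fam (primesOf (Smin ∪ Finset.univ.image qv)))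
        (condFam (ad0 ρbar) Wall (primesOf (Smin ∪ Finset.univ.image qv))))
      (continuousH1S (primesOf (Smin ∪ Finset.univ.image qv)) (tateDual p (ad0 ρbar)))) = 0 := by
    rw [(Submodule.eq_bot_iff _).2 hdual0]; exact finrank_bot _ _
  rw [hdualrank, hh0, hh0', hinf1] at hle
  have h1 : ∀ q ∈ primesOf (Smin ∪ Finset.univ.image qv),
      finrank (ResidueField 𝒪) (Wall q) ≤
        finrank (ResidueField 𝒪) (locRep (ad0 ρbar) q).ρ.invariants +
          ((if (q : ℕ) = p then 1 else 0) + (if (q : ℕ) ∈ Finset.univ.image qv then 1 else 0)) := by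
    intro q hq
    by_cases h : (q : ℕ) ∈ Smin
    · have := hWall_rank q h
      omega
    · have hqT : (q : ℕ) ∈ Finset.univ.image qv := by
        rcases Finset.mem_union.1 (mem_primesOf.1 hq) with h' | h'
        · exact absurd h' h
        · exact h'
      obtain ⟨-, -, hq1, hur, hh⟩ := hT q hqT
      have := (hlocTW p q hq1 (ResidueField 𝒪) (ad0 ρbar) hMsm (hMur q hur)).2
      rw [hWall_out q h, if_pos hqT]
      rw [hh] at this ⊢
      omega
  have h2 : ∑ q ∈ primesOf (Smin ∪ Finset.univ.image qv), (if (q : ℕ) = p then 1 else 0) ≤ 1 := by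
    rw [Finset.sum_boole]
    simp only [Nat.cast_id]
    refine Finset.card_le_one.2 fun a ha b hb => ?_
    exact Subtype.ext ((Finset.mem_filter.1 ha).2.trans (Finset.mem_filter.1 hb).2.symm)
  have h3 : ∑ q ∈ primesOf (Smin ∪ Finset.univ.image qv),
      (if (q : ℕ) ∈ Finset.univ.image qv then 1 else 0) ≤ finrank (ResidueField 𝒪) Z := by
    rw [Finset.sum_boole]
    simp only [Nat.cast_id]
    calc _ ≤ (Finset.univ.image qv).card :=
          Finset.card_le_card_of_injOn (fun q : Nat.Primes => (q : ℕ))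
            (fun q hq => (Finset.mem_filter.1 hq).2)
            (fun a _ b _ hab => Subtype.ext hab)
      _ ≤ (Finset.univ : Finset (Fin (finrank (ResidueField 𝒪) Z))).card := Finset.card_image_le
      _ = finrank (ResidueField 𝒪) Z := by simp
  have h4 : ∑ q ∈ primesOf (Smin ∪ Finset.univ.image qv), finrank (ResidueField 𝒪) (Wall q) ≤
      ∑ q ∈ primesOf (Smin ∪ Finset.univ.image qv),
        finrank (ResidueField 𝒪) (locRep (ad0 ρbar) q).ρ.invariants +
        (1 + finrank (ResidueField 𝒪) Z) := by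
    calc _ ≤ ∑ q ∈ primesOf (Smin ∪ Finset.univ.image qv),
          (finrank (ResidueField 𝒪) (locRep (ad0 ρbar) q).ρ.invariants +
          ((if (q : ℕ) = p then 1 else 0) +
            (if (q : ℕ) ∈ Finset.univ.image qv then 1 else 0))) := Finset.sum_le_sum h1
      _ = _ + (_ + _) := by rw [Finset.sum_add_distrib, Finset.sum_add_distrib]
      _ ≤ _ := by gcongr
  omega

/-- **`Stmt_TW_SO` from the leaves.** -/
theorem stmt_TW_SO_of_leaves
    (hGW : Stmt_GW) (hTWsel : Stmt_TW_select) (hglob : Stmt_glob_h0) (hinf : Stmt_loc_inf)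
    (hlocTW : Stmt_loc_TW) (hlocTWh0 : Stmt_loc_TW_h0) (hunr : Stmt_unr_of_res_zero)
    (hdex : Stmt_dict_exists) (hdinj : Stmt_dict_inj) (hdcont : Stmt_dict_cont)
    (had0 : Stmt_ad0_basic) (htate : Stmt_tate_basic)
    (hlocp : Stmt_loc_p_SO) (hlocmin : Stmt_loc_min) : Stmt_TW_SO := by
  intro 𝒪 _ _ _ _ _ p _ ρbar S Smin hyp
  refine assembly_core hGW hTWsel hglob hinf hlocTW hlocTWh0 hunr hdex hdinj hdcont had0 htate
    p ρbar S Smin hyp (condSO 𝒪 p Smin) ?_ ?_ ?_
  · intro T A _ _ _ ρ h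
    exact h.1.1
  · intro T A _ _ _ ρ h q hq hqS
    exact h.1.2.2 q hq hqS
  · intro q hq
    by_cases h : (q : ℕ) = p
    · rw [if_pos h]
      have hqp : q = pPrime p := Subtype.ext h
      rw [hqp]
      exact hlocp 𝒪 p ρbar S Smin hyp
    · rw [if_neg h]
      exact (hlocmin 𝒪 p ρbar S Smin hyp q hq h).1

/-- **`Stmt_TW_Fl` from the leaves.** -/
theorem stmt_TW_Fl_of_leaves
    (hGW : Stmt_GW) (hTWsel : Stmt_TW_select) (hglob : Stmt_glob_h0) (hinf : Stmt_loc_inf)
    (hlocTW : Stmt_loc_TW) (hlocTWh0 : Stmt_loc_TW_h0) (hunr : Stmt_unr_of_res_zero)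
    (hdex : Stmt_dict_exists) (hdinj : Stmt_dict_inj) (hdcont : Stmt_dict_cont)
    (had0 : Stmt_ad0_basic) (htate : Stmt_tate_basic)
    (hlocp : Stmt_loc_p_Fl) (hlocmin : Stmt_loc_min) : Stmt_TW_Fl := by
  intro 𝒪 _ _ _ _ _ p _ ρbar S Smin hyp
  refine assembly_core hGW hTWsel hglob hinf hlocTW hlocTWh0 hunr hdex hdinj hdcont had0 htate
    p ρbar S Smin hyp (condFl 𝒪 p Smin) ?_ ?_ ?_
  · intro T A _ _ _ ρ h
    exact h.1.1
  · intro T A _ _ _ ρ h q hq hqS
    exact h.1.2.2 q hq hqS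
  · intro q hq
    by_cases h : (q : ℕ) = p
    · rw [if_pos h]
      have hqp : q = pPrime p := Subtype.ext h
      rw [hqp]
      exact hlocp 𝒪 p ρbar S Smin hyp
    · rw [if_neg h]
      exact (hlocmin 𝒪 p ρbar S Smin hyp q hq h).2

end Assembly

end Fermat.Agent.S56

end

end
-- ==== END Fermat.Agent.S56.Assembly

-- ==== BEGIN Fermat.Agent.S56.Dict.H74_Lift
section

/-!
# S56 dictionary (helper74): a first-order deformation has a basis lifting a basis of `ρbar`
-/

set_option autoImplicit false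

noncomputable section

namespace Fermat.Agent.S56.Dict

open Fermat.Agent.S53 TrivSqZeroExt IsLocalRing

variable {𝒪 : Type} [CommRing 𝒪] [IsLocalRing 𝒪]

/-- the residue of a dual number is the image of its constant part -/
lemma residue_dualNumber (d : DualNumber (ResidueField 𝒪)) :
    letI := resDualNumberAlgebra 𝒪
    residue (DualNumber (ResidueField 𝒪)) d
      = algebraMap (ResidueField 𝒪) (ResidueField (DualNumber (ResidueField 𝒪))) d.fst := by
  letI := resDualNumberAlgebra 𝒪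
  have h1 : algebraMap (ResidueField 𝒪) (ResidueField (DualNumber (ResidueField 𝒪))) d.fst
      = residue (DualNumber (ResidueField 𝒪)) (TrivSqZeroExt.inl d.fst) := rfl
  rw [h1, ← sub_eq_zero, ← map_sub, residue_eq_zero_iff]
  have h2 : d - TrivSqZeroExt.inl d.fst = TrivSqZeroExt.inr d.snd := by
    ext <;> simp
  rw [h2, mem_maximalIdeal, mem_nonunits_iff, TrivSqZeroExt.isUnit_iff_isUnit_fst]
  simp

variable {ρbar : ResidualGaloisRep (ResidueField 𝒪)} {𝒟 : Cond 𝒪}

/-- A first-order deformation has a basis in which its matrices lift the matrices of `ρbar`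
in a given basis. -/
theorem exists_lift_basis (x : TSub 𝒪 ρbar 𝒟) (bbar : Module.Basis (Fin 2) (ResidueField 𝒪) ρbar.V) :
    ∃ b : Module.Basis (Fin 2) (DualNumber (ResidueField 𝒪)) x.1.V,
      ∀ σ : _root_.Fermat.Agent.S56.GQ, mfst (LinearMap.toMatrix b b (x.1.ρ σ)) = LinearMap.toMatrix bbar bbar (ρbar.ρ σ) := by
  letI := dualNumberAlgebra 𝒪
  letI := resDualNumberAlgebra 𝒪
  have hrbar : IsMatOfRes ρbar (matHom bbar ρbar.ρ) := ⟨bbar, fun _ => rfl⟩
  obtain ⟨r₀, hr₀⟩ := exists_isMatOf x.1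
  obtain ⟨gbar, hgbar⟩ := (IsMatOfRes.isEquiv_iff hr₀.residual
    (IsMatOfRes.baseChange (ResidueField (DualNumber (ResidueField 𝒪))) hrbar)).mp x.2.2
  obtain ⟨g₀, hg₀⟩ := exists_map_residue_eq (gbar : M2 (ResidueField (DualNumber (ResidueField 𝒪))))
  have hu : IsUnit g₀ := isUnit_of_isUnit_map_residue g₀ (hg₀ ▸ gbar.isUnit)
  obtain ⟨g, rfl⟩ := hu
  obtain ⟨b, hb⟩ := hr₀.conj g
  refine ⟨b, fun σ => ?_⟩
  have hinv : (gbar : M2 (ResidueField (DualNumber (ResidueField 𝒪)))) *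
      (((g⁻¹ : (M2 (DualNumber (ResidueField 𝒪)))ˣ) : M2 (DualNumber (ResidueField 𝒪))).map
        (residue (DualNumber (ResidueField 𝒪)))) = 1 := by
    rw [← hg₀, ← RingHom.mapMatrix_apply, ← RingHom.mapMatrix_apply, ← map_mul, Units.mul_inv,
      map_one]
  have key : ((g : M2 (DualNumber (ResidueField 𝒪))) * r₀ σ *
      ((g⁻¹ : (M2 (DualNumber (ResidueField 𝒪)))ˣ) : M2 (DualNumber (ResidueField 𝒪)))).map
        (residue (DualNumber (ResidueField 𝒪)))
      = (matHom bbar ρbar.ρ σ).map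
        (algebraMap (ResidueField 𝒪) (ResidueField (DualNumber (ResidueField 𝒪)))) := by
    rw [← RingHom.mapMatrix_apply, map_mul, map_mul, RingHom.mapMatrix_apply,
      RingHom.mapMatrix_apply, RingHom.mapMatrix_apply, hg₀, hgbar σ, mul_assoc, hinv, mul_one]
  rw [hb σ]
  ext i j
  have hij := congrFun (congrFun key i) j
  simp only [Matrix.map_apply] at hij
  rw [residue_dualNumber] at hij
  exact (algebraMap (ResidueField 𝒪) (ResidueField (DualNumber (ResidueField 𝒪)))).injective hij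

end Fermat.Agent.S56.Dict

end

end
-- ==== END Fermat.Agent.S56.Dict.H74_Lift

-- ==== BEGIN Fermat.Agent.S56.Dict.H85_Res
section

set_option autoImplicit false

/-!
# Cluster T / S56, package DICT-5 (helper85): restriction on cocycles

For a group homomorphism `r : H →* G_ℚ` (a localisation map) and `M : Rep k G_ℚ`:

* `resAlong r M : H¹(G_ℚ, M) → H¹(H, M)` is the restriction map; `resAt M q`, `resInf M` and the
  prelude's `locRes` are instances (`resAt_eq`, `resInf_eq`, `locRes_eq`);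
* `resCocycle r c` is the cocycle `h ↦ c (r h)` and `resAlong r M [c] = [resCocycle r c]`
  (`resAlong_H1π`);
* restriction preserves level-constancy, so it maps `continuousH1S Sg M` (and the larger
  `continuousH1 id M`) into the continuous local classes `continuousH1 r (Rep.res r M)`
  (`resAlong_mem_continuousH1`, `resAt_mem_locH1`, `resInf_mem_continuousH1`);
* `resAlong r M ξ = 0` iff the restriction of a (any) cocycle of `ξ` is a coboundary
  (`resAlong_H1π_eq_zero_iff`).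
-/

noncomputable section

namespace Fermat.Agent.S56.Dict.H85

open CategoryTheory groupCohomology ExtCitation Fermat.Agent.S56

variable {k : Type} [Field k] {H : Type} [Group H] (r : H →* GQ) (M : Rep k GQ)

/-- Restriction `H¹(G_ℚ, M) → H¹(H, M)` along `r : H →* G_ℚ`. -/
def resAlong : H1 M →ₗ[k] H1 (Rep.res r M) :=
  (groupCohomology.map r (𝟙 (Rep.res r M)) 1).hom

theorem resAt_eq (q : Nat.Primes) : resAt M q = resAlong (primeLocalToGlobal q) M := rfl

theorem resInf_eq : resInf M = resAlong archimedeanLoc M := rfl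

/-- The restriction of a cocycle. -/
def resCocycle (c : cocycles₁ M) : cocycles₁ (Rep.res r M) :=
  (mapCocycles₁ r (𝟙 (Rep.res r M))).hom c

@[simp]
theorem resCocycle_apply (c : cocycles₁ M) (h : H) :
    (resCocycle r M c : H → Rep.res r M) h = (c : GQ → M) (r h) := rfl

theorem resAlong_H1π (c : cocycles₁ M) :
    resAlong r M ((H1π M).hom c) = (H1π (Rep.res r M)).hom (resCocycle r M c) := by
  have h := H1π_comp_map (A := M) (B := Rep.res r M) r (𝟙 (Rep.res r M))
  have h2 := congrArg (fun f => f.hom c) h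
  exact h2

theorem resAlong_H1π_eq_zero_iff (c : cocycles₁ M) :
    resAlong r M ((H1π M).hom c) = 0
      ↔ (fun h : H => (c : GQ → M) (r h)) ∈ coboundaries₁ (Rep.res r M) := by
  rw [resAlong_H1π]
  exact H1π_eq_zero_iff (resCocycle r M c)

/-- `resAlong r M [c] = 0` iff `c ∘ r` is the coboundary of some `m : M`. -/
theorem resAlong_H1π_eq_zero_iff_exists (c : cocycles₁ M) :
    resAlong r M ((H1π M).hom c) = 0
      ↔ ∃ m : M, ∀ h : H, (c : GQ → M) (r h) = M.ρ (r h) m - m := by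
  rw [resAlong_H1π_eq_zero_iff]
  constructor
  · rintro ⟨m, hm⟩
    refine ⟨m, fun h => ?_⟩
    have := congrFun hm h
    rw [d₀₁_hom_apply] at this
    exact this.symm
  · rintro ⟨m, hm⟩
    refine ⟨m, funext fun h => ?_⟩
    rw [d₀₁_hom_apply]
    exact (hm h).symm

/-- The prelude's `locRes` is `resAlong`. -/
theorem locRes_hom_eq {ι : Type} {Γv : ι → Type} [∀ v, Group (Γv v)]
    (loc : ∀ v, Γv v →* GQ) (v : ι) :
    (locRes loc M v).hom = resAlong (loc v) M := rfl

variable {M}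

/-- Restriction preserves level-constancy. -/
theorem isLevelConstant₁_resCocycle {c : cocycles₁ M}
    (hc : IsLevelConstant₁ (MonoidHom.id GQ) (c : GQ → M)) :
    IsLevelConstant₁ r (resCocycle r M c : H → Rep.res r M) := by
  obtain ⟨F, hF, h⟩ := hc
  refine ⟨F, hF, fun g s hs => ?_⟩
  rw [resCocycle_apply, resCocycle_apply, map_mul]
  exact h (r g) (r s) hs

variable (M)

/-- Restriction maps continuous classes to continuous classes. -/
theorem resAlong_mem_continuousH1 {ξ : H1 M} (hξ : ξ ∈ continuousH1 (MonoidHom.id GQ) M) :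
    resAlong r M ξ ∈ continuousH1 r (Rep.res r M) := by
  obtain ⟨c, hc, rfl⟩ := (mem_continuousH1_iff _ M ξ).1 hξ
  rw [resAlong_H1π]
  exact H1π_mem_continuousH1 r _ (isLevelConstant₁_resCocycle r hc)

/-- Restriction maps classes unramified outside `Sg` to continuous classes. -/
theorem resAlong_mem_continuousH1_of_S (Sg : Finset Nat.Primes) {ξ : H1 M}
    (hξ : ξ ∈ continuousH1S Sg M) : resAlong r M ξ ∈ continuousH1 r (Rep.res r M) :=
  resAlong_mem_continuousH1 r M (continuousH1S_le_continuousH1 Sg M hξ)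

/-- `resAt` maps `continuousH1S Sg M` into `locH1 M q`. -/
theorem resAt_mem_locH1 (Sg : Finset Nat.Primes) (q : Nat.Primes) {ξ : H1 M}
    (hξ : ξ ∈ continuousH1S Sg M) : resAt M q ξ ∈ locH1 M q :=
  resAlong_mem_continuousH1_of_S (primeLocalToGlobal q) M Sg hξ

/-- `resInf` maps `continuousH1S Sg M` into the continuous classes at the real place. -/
theorem resInf_mem_continuousH1 (Sg : Finset Nat.Primes) {ξ : H1 M}
    (hξ : ξ ∈ continuousH1S Sg M) :
    resInf M ξ ∈ continuousH1 archimedeanLoc (Rep.res archimedeanLoc M) :=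
  resAlong_mem_continuousH1_of_S archimedeanLoc M Sg hξ

/-- The class of `c` restricted to `q` is the class of `h ↦ c (r_q h)`. -/
theorem resAt_H1π (q : Nat.Primes) (c : cocycles₁ M) :
    resAt M q ((H1π M).hom c)
      = (H1π (locRep M q)).hom (resCocycle (primeLocalToGlobal q) M c) :=
  resAlong_H1π (primeLocalToGlobal q) M c

/-- The class of `c` restricted to the real place is the class of `h ↦ c (r_∞ h)`. -/
theorem resInf_H1π (c : cocycles₁ M) :
    resInf M ((H1π M).hom c)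
      = (H1π (Rep.res archimedeanLoc M)).hom (resCocycle archimedeanLoc M c) :=
  resAlong_H1π archimedeanLoc M c

end Fermat.Agent.S56.Dict.H85

end
end
-- ==== END Fermat.Agent.S56.Dict.H85_Res

-- ==== BEGIN Fermat.Agent.S56.FL.H15_CKHom
section

set_option autoImplicit false
set_option linter.style.haveILetI false

/-!
# LOC-p-FL, package CK (helper15), part 1: the ring homomorphism `𝒪_L → 𝒪_F / {‖·‖ ≤ c}`

* `exists_hom` : if `β ∈ 𝒪_F` and `‖Pz(β)‖ ≤ c` (`Pz` the minimal polynomial of a good generator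
  `x` of `L`), then `g(x) ↦ g(β)` is a ring homomorphism `𝒪_L → 𝒪_F / {‖·‖ ≤ c}`.
* `norm_le_one_of_monic_root` : roots of monic polynomials over `ℤ_p` are integers.
* `finrank_adjoin_le` : `[ℚ_p(β) : ℚ_p] ≤ deg Q` for a root `β` of a monic `Q`.
* `IsMinZ.map` : the minimal polynomial of a conjugate.
-/

noncomputable section

namespace Fermat.Agent.S56.FL.H15

open scoped NNReal
open Fermat.Agent.S56.FL Module Polynomial

variable {p : ℕ} [Fact p.Prime]

/-- Roots of monic polynomials over `ℤ_p` are integers of `K̄`. -/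
theorem norm_le_one_of_monic_root {Q : ℤ_[p][X]} (hQ : Q.Monic) {β : PadicAlgCl p}
    (hβ : Q.eval₂ (phiZ p) β = 0) : ‖β‖ ≤ 1 := by
  by_contra hcon
  have h1 : 1 < ‖β‖ := not_le.mp hcon
  have hβ0 : 0 < ‖β‖ := zero_lt_one.trans h1
  set n := Q.natDegree with hn
  rw [eval₂_eq_sum_range, Finset.sum_range_succ, ← hn] at hβ
  have hlead : phiZ p (Q.coeff n) * β ^ n = β ^ n := by
    have : Q.coeff n = 1 := hQ
    rw [this, map_one, one_mul]
  rw [hlead] at hβ
  have hlow : ‖∑ i ∈ Finset.range n, phiZ p (Q.coeff i) * β ^ i‖ < ‖β ^ n‖ := by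
    rcases Nat.eq_zero_or_pos n with h0 | hpos
    · rw [h0, Finset.range_zero, Finset.sum_empty, norm_zero, pow_zero, norm_one]
      exact zero_lt_one
    · have hle : ‖∑ i ∈ Finset.range n, phiZ p (Q.coeff i) * β ^ i‖ ≤ ‖β‖ ^ (n - 1) := by
        refine IsUltrametricDist.norm_sum_le_of_forall_le_of_nonneg (by positivity) fun i hi => ?_
        rw [norm_mul, norm_pow]
        have hi' : i ≤ n - 1 := by have := Finset.mem_range.mp hi; omega
        calc ‖phiZ p (Q.coeff i)‖ * ‖β‖ ^ i ≤ 1 * ‖β‖ ^ (n - 1) :=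
              mul_le_mul (norm_phiZ_le_one _) (pow_le_pow_right₀ h1.le hi') (by positivity)
                zero_le_one
          _ = ‖β‖ ^ (n - 1) := one_mul _
      refine hle.trans_lt ?_
      rw [norm_pow]
      exact pow_lt_pow_right₀ h1 (by omega)
  have h2 : ‖(∑ i ∈ Finset.range n, phiZ p (Q.coeff i) * β ^ i) + β ^ n‖ = ‖β ^ n‖ :=
    norm_add_eq_right hlow
  rw [hβ, norm_zero, norm_pow] at h2
  have : 0 < ‖β‖ ^ n := pow_pos hβ0 n
  linarith

/-- The degree of `ℚ_p(β)` for a root `β` of a monic polynomial `Q ∈ ℤ_p[X]`. -/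
theorem finrank_adjoin_le {Q : ℤ_[p][X]} (hQ : Q.Monic) {β : PadicAlgCl p}
    (hβ : Q.eval₂ (phiZ p) β = 0) :
    FiniteDimensional ℚ_[p] (IntermediateField.adjoin ℚ_[p] {β}) ∧
      finrank ℚ_[p] (IntermediateField.adjoin ℚ_[p] {β}) ≤ Q.natDegree := by
  have hint : IsIntegral ℚ_[p] β := (Algebra.IsAlgebraic.isAlgebraic β).isIntegral
  refine ⟨IntermediateField.adjoin.finiteDimensional hint, ?_⟩
  rw [IntermediateField.adjoin.finrank hint]
  have hmonic : (Q.map PadicInt.Coe.ringHom).Monic := hQ.map _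
  have hroot : aeval β (Q.map (PadicInt.Coe.ringHom (p := p))) = 0 := by
    rw [aeval_def, eval₂_map]
    exact hβ
  have hdvd := minpoly.dvd ℚ_[p] β hroot
  have := natDegree_le_of_dvd hdvd hmonic.ne_zero
  rwa [hQ.natDegree_map] at this

variable {L : IntermediateField ℚ_[p] (PadicAlgCl p)} [FiniteDimensional ℚ_[p] L]

/-- The minimal polynomial of a conjugate. -/
theorem IsMinZ.map {x : L} {Pz : ℤ_[p][X]} (hP : IsMinZ L x Pz) (τ₁ : L ≃ₐ[ℚ_[p]] L) :
    IsMinZ L (τ₁ x) Pz := by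
  refine ⟨hP.monic, hP.natDegree_eq, ?_, ?_⟩
  · rw [hP.map_eq]
    exact (minpoly.algEquiv_eq τ₁ x).symm
  · rw [hP.map_phiZ]
    refine (Fintype.prod_equiv (Equiv.mulRight τ₁) _ _ fun τ => ?_).symm
    simp [AlgEquiv.mul_apply]

/-- **The ring homomorphism** `𝒪_L → 𝒪_F / {‖·‖ ≤ c}`, `g(x) ↦ g(β)`. -/
theorem exists_hom {x π : L} {q : ℕ} (h : IsGoodGen L x π q) {Pz : ℤ_[p][X]}
    (hP : IsMinZ L x Pz) (F : IntermediateField ℚ_[p] (PadicAlgCl p)) {β : PadicAlgCl p}
    (hβF : β ∈ F) (hβ1 : ‖β‖ ≤ 1) (c : ℝ≥0) (hc : ‖Pz.eval₂ (phiZ p) β‖ ≤ c) :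
    Nonempty (intRing p L →+* intRing p F ⧸ ballIdeal p F c) := by
  have hx1 : ‖(x : PadicAlgCl p)‖ ≤ 1 := h.1
  let evF : ℤ_[p][X] →+* intRing p F :=
    (eval₂RingHom (phiZ p) β).codRestrict (intRing p F)
      fun g => ⟨evZ_mem hβF g, norm_evZ_le_one hβ1 g⟩
  let evL : ℤ_[p][X] →+* intRing p L :=
    (eval₂RingHom (phiZ p) (x : PadicAlgCl p)).codRestrict (intRing p L)
      fun g => ⟨evZ_mem x.2 g, norm_evZ_le_one hx1 g⟩
  have hsurj : Function.Surjective evL := by
    rintro ⟨a, haL, ha1⟩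
    obtain ⟨g, hg⟩ := exists_poly_eq h hP ⟨a, haL⟩ ha1
    exact ⟨g, Subtype.ext hg⟩
  let ψ : ℤ_[p][X] →+* intRing p F ⧸ ballIdeal p F c :=
    (Ideal.Quotient.mk (ballIdeal p F c)).comp evF
  have hker : RingHom.ker evL ≤ RingHom.ker ψ := by
    intro g hg
    rw [RingHom.mem_ker] at hg ⊢
    have hg0 : g.eval₂ (phiZ p) (x : PadicAlgCl p) = 0 := congrArg Subtype.val hg
    obtain ⟨k, rfl⟩ := hP.dvd_of_eval₂_eq_zero g hg0
    change Ideal.Quotient.mk (ballIdeal p F c) (evF (Pz * k)) = 0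
    rw [Ideal.Quotient.eq_zero_iff_mem, mem_ballIdeal]
    change ‖(Pz * k).eval₂ (phiZ p) β‖ ≤ c
    rw [eval₂_mul, norm_mul]
    calc ‖Pz.eval₂ (phiZ p) β‖ * ‖k.eval₂ (phiZ p) β‖ ≤ c * 1 :=
          mul_le_mul hc (norm_evZ_le_one hβ1 k) (norm_nonneg _) c.2
      _ = c := mul_one _
  exact ⟨RingHom.liftOfSurjective evL hsurj ⟨ψ, hker⟩⟩

end Fermat.Agent.S56.FL.H15

end

end
-- ==== END Fermat.Agent.S56.FL.H15_CKHom

-- ==== BEGIN Fermat.Agent.S56.FL.H38_CC0
section

set_option autoImplicit false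

/-!
# LOC-p-FL, package CC0 (helper38): `Stmt_CC0`

A bounded homomorphism `c : G₁ → k` (`G₁ ⊇` inertia, `k` of characteristic `p ≠ 2`) vanishes on
inertia.

Proof.  `L/ℚ_p` finite Galois with bounded ramification on which `c` factors, `ρ : G_p → Gal(L/ℚ_p)`
the restriction, `J = ρ(I)`, `Ñ` = the normal core in `G_p` of `ker (c|_I)` and `N = ρ(Ñ)`.  Then
`(J, N)` is a `WildData` (`J` is contained in the inertia group of `L`, `L^J` is unramified by
`H38.norm_le_inv_of_fixed`, `τ^p ∈ N` for `τ ∈ J` since `k` has characteristic `p`), so `J ≤ N` by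
`H38.le_of_wildData` (Herbrand's theorem `H15.herbrand_top` + the count
`2 ≤ Σ_τ min (i σ) (i τ) ≤ p/(p-1)` in `L^N`).
-/

noncomputable section

namespace Fermat.Agent.S56.FL.H38

open scoped NNReal
open Fermat.Agent.S56.FL Polynomial Module

variable {p : ℕ} [Fact p.Prime]

theorem inertiaP_normal : (inertiaP p).Normal := by
  constructor
  intro σ hσ g a ha
  have h1 : (g * σ * g⁻¹) a - a = g (σ (g⁻¹ a) - g⁻¹ a) := by
    rw [map_sub]
    have h2 : g (g⁻¹ a) = a := by
      rw [← AlgEquiv.mul_apply, mul_inv_cancel, AlgEquiv.one_apply]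
    rw [h2]
    rfl
  rw [h1, norm_gal]
  exact hσ _ (by rw [norm_gal]; exact ha)

section Restrict

variable (L : IntermediateField ℚ_[p] (PadicAlgCl p)) [Normal ℚ_[p] L]

/-- The restriction `Gal(K̄/ℚ_p) → Gal(L/ℚ_p)`. -/
def resL : Gp p →* (L ≃ₐ[ℚ_[p]] L) := AlgEquiv.restrictNormalHom L

variable {L}

theorem resL_apply (σ : Gp p) (a : L) : ((resL L σ a : L) : PadicAlgCl p) = σ (a : PadicAlgCl p) :=
  AlgEquiv.restrictNormal_commutes σ L a

theorem resL_surjective : Function.Surjective (resL L) :=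
  AlgEquiv.restrictNormalHom_surjective (PadicAlgCl p)

theorem mem_fixingSubgroup_of_resL_eq_one {σ : Gp p} (h : resL L σ = 1) :
    σ ∈ L.fixingSubgroup := by
  rw [IntermediateField.mem_fixingSubgroup_iff]
  intro a ha
  have h1 := resL_apply σ (⟨a, ha⟩ : L)
  rw [h] at h1
  exact h1.symm

end Restrict

/-- **CC0**: `Stmt_CC0` of `Fermat/Agent/S56/FL/Coh.lean`. -/
theorem stmt_CC0 : Stmt_CC0 := by
  intro p _ hp2 k _ _ G₁ hIG c hc σ₀ hσ₀
  obtain ⟨hadd, L, hfin, hnormal, hbdd, htriv⟩ := hc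
  have hadd' : ∀ σ τ : G₁, c (σ * τ) = c σ + c τ := by
    intro σ τ
    rw [hadd σ τ]
    simp
  -- the homomorphism on inertia
  let φ : inertiaP p →* Multiplicative k :=
    MonoidHom.mk' (fun σ => Multiplicative.ofAdd (c ⟨σ, hIG σ.2⟩)) (by
      intro a b
      rw [← ofAdd_add, ← hadd']
      rfl)
  have hφ : ∀ σ : inertiaP p, φ σ = Multiplicative.ofAdd (c ⟨σ, hIG σ.2⟩) := fun σ => rfl
  have hInormal : (inertiaP p).Normal := inertiaP_normal
  set Nt : Subgroup (Gp p) := (φ.ker.map (inertiaP p).subtype).normalCore with hNt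
  have hNtI : Nt ≤ inertiaP p := by
    refine (Subgroup.normalCore_le _).trans ?_
    rintro x ⟨y, -, rfl⟩
    exact y.2
  have hNtφ : ∀ ν (hν : ν ∈ Nt), φ ⟨ν, hNtI hν⟩ = 1 := by
    intro ν hν
    obtain ⟨y, hy, hyν⟩ := Subgroup.normalCore_le _ hν
    have : y = ⟨ν, hNtI hν⟩ := Subtype.ext hyν
    rw [← this]
    exact hy
  set J : Subgroup (L ≃ₐ[ℚ_[p]] L) := (inertiaP p).map (resL L) with hJ
  set N : Subgroup (L ≃ₐ[ℚ_[p]] L) := Nt.map (resL L) with hN
  have hpk : ∀ x : Multiplicative k, x ^ p = 1 := by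
    intro x
    have h1 : x ^ p = Multiplicative.ofAdd (p • Multiplicative.toAdd x) := rfl
    rw [h1, nsmul_eq_mul, CharP.cast_eq_zero, zero_mul]
    rfl
  have hW : WildData L J N := by
    refine ⟨Subgroup.map_mono hNtI, ?_, ?_, ?_, ?_⟩
    · exact Subgroup.Normal.map (Subgroup.normalCore_normal _) _ resL_surjective
    · rintro τ ⟨σ, hσ, rfl⟩ a ha
      have h1 : ‖resL L σ a - a‖ = ‖σ (a : PadicAlgCl p) - (a : PadicAlgCl p)‖ := by
        rw [← resL_apply]; rfl
      rw [h1]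
      exact hσ _ ha
    · intro a hafix ha1
      refine norm_le_inv_of_fixed (a := (a : PadicAlgCl p)) ?_ ha1
      intro σ hσ
      have h1 := hafix (resL L σ) ⟨σ, hσ, rfl⟩
      rw [← resL_apply, h1]
    · rintro τ ⟨σ, hσ, rfl⟩
      refine ⟨σ ^ p, ?_, map_pow _ _ _⟩
      rw [hNt]
      intro g
      have hg : g * σ * g⁻¹ ∈ inertiaP p := hInormal.conj_mem σ hσ g
      refine ⟨⟨g * σ * g⁻¹, hg⟩ ^ p, ?_, ?_⟩
      · rw [SetLike.mem_coe, MonoidHom.mem_ker, map_pow]
        exact hpk _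
      · simp [conj_pow]
  have hJN : J ≤ N := le_of_wildData hp2 hW hbdd
  have hσJ : resL L (σ₀ : Gp p) ∈ J := ⟨σ₀, hσ₀, rfl⟩
  obtain ⟨ν, hν, hνσ⟩ := hJN hσJ
  -- `σ₀ ν⁻¹` fixes `L`
  have hνI : ν ∈ inertiaP p := hNtI hν
  have hker : resL L ((σ₀ : Gp p) * ν⁻¹) = 1 := by
    rw [map_mul, map_inv, hνσ, mul_inv_cancel]
  have hfix : (σ₀ : Gp p) * ν⁻¹ ∈ L.fixingSubgroup := mem_fixingSubgroup_of_resL_eq_one hker
  have hG1 : (σ₀ : Gp p) * ν⁻¹ ∈ G₁ := G₁.mul_mem σ₀.2 (G₁.inv_mem (hIG hνI))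
  have h1 : c ⟨(σ₀ : Gp p) * ν⁻¹, hG1⟩ = 0 := (htriv ⟨_, hG1⟩ hfix).2
  have h2 : c ⟨ν, hIG hνI⟩ = 0 := by
    have := hNtφ ν hν
    rw [hφ] at this
    exact this
  have h3 : σ₀ = ⟨(σ₀ : Gp p) * ν⁻¹, hG1⟩ * ⟨ν, hIG hνI⟩ := by
    apply Subtype.ext
    simp
  rw [h3, hadd', h1, h2, add_zero]

end Fermat.Agent.S56.FL.H38

end

end
-- ==== END Fermat.Agent.S56.FL.H38_CC0

-- ==== BEGIN Fermat.Agent.S56.FL.H54_BridgeMu
section

/-!
# LOC-p-FL, package BRIDGE (helper54): adjoining the `p`-th roots of unity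

`MuAlg p = ℤ_(p)[μ_p(K̄)]` is the Hopf algebra of the constant group scheme `μ_p(K̄)`, whose
`K̄`-points contain the tautological character.  For a Hopf algebra `H` whose points are killed by
`p`, the points of `H ⊗ MuAlg p` are killed by `p`, and the field generated by them contains the
field generated by the points of `H` and the `p`-th roots of unity.
-/

set_option autoImplicit false
set_option linter.unusedSectionVars false
set_option linter.style.haveILetI false

noncomputable section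

namespace Fermat.Agent.S56.FL.H54

open scoped NNReal TensorProduct
open Fermat.Agent.S56.FL Fermat.Agent.R.H54 WithConv

variable {p : ℕ} [Fact p.Prime]

/-- The group of `p`-th roots of unity of `K̄`. -/
abbrev MuG (p : ℕ) [Fact p.Prime] : Type := rootsOfUnity p (PadicAlgCl p)

/-- The group algebra `ℤ_(p)[μ_p(K̄)]`. -/
abbrev MuAlg (p : ℕ) [Fact p.Prime] : Type := MonoidAlgebra (Zloc p) (MuG p)

theorem muAlg_ext (f g : MuAlg p →ₐ[Zloc p] PadicAlgCl p)
    (h : ∀ m : MuG p, f (MonoidAlgebra.single m 1) = g (MonoidAlgebra.single m 1)) : f = g :=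
  (MonoidAlgebra.lift (Zloc p) (PadicAlgCl p) (MuG p)).symm.injective (MonoidHom.ext h)

/-- The tautological point of `MuAlg p`. -/
def tautPt (p : ℕ) [Fact p.Prime] : WithConv (MuAlg p →ₐ[Zloc p] PadicAlgCl p) :=
  toConv (MonoidAlgebra.lift (Zloc p) (PadicAlgCl p) (MuG p)
    ((Units.coeHom (PadicAlgCl p)).comp (rootsOfUnity p (PadicAlgCl p)).subtype))

theorem tautPt_single (g : MuG p) :
    (tautPt p).ofConv (MonoidAlgebra.single g 1) = ((g : (PadicAlgCl p)ˣ) : PadicAlgCl p) := by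
  show MonoidAlgebra.lift (Zloc p) (PadicAlgCl p) (MuG p) _ (MonoidAlgebra.single g 1) = _
  rw [MonoidAlgebra.lift_single, one_smul]
  rfl

theorem mu_conv_single (y z : WithConv (MuAlg p →ₐ[Zloc p] PadicAlgCl p)) (g : MuG p) :
    (y * z).ofConv (MonoidAlgebra.single g 1) =
      y.ofConv (MonoidAlgebra.single g 1) * z.ofConv (MonoidAlgebra.single g 1) := by
  have h1 : (y * z).ofConv (MonoidAlgebra.single g 1) = (y * z) (MonoidAlgebra.single g 1) := rfl
  rw [h1, convMul_apply', MonoidAlgebra.comul_single]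
  have h2 : Coalgebra.comul (R := Zloc p) (1 : Zloc p) = (1 : Zloc p) ⊗ₜ[Zloc p] (1 : Zloc p) :=
    rfl
  rw [h2, TensorProduct.map_tmul, TensorProduct.map_tmul, LinearMap.mul'_apply]
  rfl

theorem mu_one_single (g : MuG p) :
    (1 : WithConv (MuAlg p →ₐ[Zloc p] PadicAlgCl p)).ofConv (MonoidAlgebra.single g 1) = 1 := by
  have h1 : (1 : WithConv (MuAlg p →ₐ[Zloc p] PadicAlgCl p)).ofConv (MonoidAlgebra.single g 1) =
      (1 : WithConv (MuAlg p →ₐ[Zloc p] PadicAlgCl p)) (MonoidAlgebra.single g 1) := rfl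
  rw [h1, AlgHom.convOne_apply, MonoidAlgebra.counit_single]
  simp

theorem mu_pow_single (y : WithConv (MuAlg p →ₐ[Zloc p] PadicAlgCl p)) (n : ℕ) (g : MuG p) :
    (y ^ n).ofConv (MonoidAlgebra.single g 1) = (y.ofConv (MonoidAlgebra.single g 1)) ^ n := by
  induction n with
  | zero => rw [pow_zero, pow_zero, mu_one_single]
  | succ n ih => rw [pow_succ, pow_succ, mu_conv_single, ih]

/-- The points of `MuAlg p` are killed by `p`. -/
theorem mu_pow_eq_one (y : WithConv (MuAlg p →ₐ[Zloc p] PadicAlgCl p)) : y ^ p = 1 := by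
  apply WithConv.ofConv_injective
  apply muAlg_ext
  intro g
  rw [mu_pow_single, mu_one_single, ← map_pow, MonoidAlgebra.single_pow, one_pow]
  have hg : g ^ p = 1 := by
    apply Subtype.ext
    have := g.2
    rw [mem_rootsOfUnity] at this
    exact this
  rw [hg]
  exact map_one y.ofConv

section Prod

variable {H : Type} [CommRing H] [HopfAlgebra (Zloc p) H]

theorem prodPt_one_one {H' : Type} [CommRing H'] [HopfAlgebra (Zloc p) H'] :
    prodPt (1 : Pts (Zloc p) H (PadicAlgCl p)) (1 : Pts (Zloc p) H' (PadicAlgCl p)) = 1 := by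
  have h := prodPt_mul (1 : Pts (Zloc p) H (PadicAlgCl p)) 1
    (1 : Pts (Zloc p) H' (PadicAlgCl p)) 1
  rw [mul_one, mul_one] at h
  set e := prodPt (1 : Pts (Zloc p) H (PadicAlgCl p)) (1 : Pts (Zloc p) H' (PadicAlgCl p))
    with he
  calc e = 1 * e := (one_mul e).symm
    _ = (pinv e * e) * e := by rw [pinv_mul]
    _ = pinv e * (e * e) := mul_assoc _ _ _
    _ = pinv e * e := by rw [← h]
    _ = 1 := pinv_mul e

theorem prodPt_pow {H' : Type} [CommRing H'] [HopfAlgebra (Zloc p) H']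
    (f : Pts (Zloc p) H (PadicAlgCl p)) (g : Pts (Zloc p) H' (PadicAlgCl p)) (n : ℕ) :
    prodPt f g ^ n = prodPt (f ^ n) (g ^ n) := by
  induction n with
  | zero => rw [pow_zero, pow_zero, pow_zero, prodPt_one_one]
  | succ n ih => rw [pow_succ, pow_succ, pow_succ, ih, prodPt_mul]

/-- The points of `H ⊗ MuAlg p` are killed by `p` if those of `H` are. -/
theorem prod_mu_pow_eq_one (hH : ∀ x : WithConv (H →ₐ[Zloc p] PadicAlgCl p), x ^ p = 1)
    (φ : WithConv ((H ⊗[Zloc p] MuAlg p) →ₐ[Zloc p] PadicAlgCl p)) : φ ^ p = 1 := by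
  have h1 : φ = prodPt (fstPt φ) (sndPt φ) := (prodPt_fst_snd φ).symm
  rw [h1, prodPt_pow, hH, mu_pow_eq_one, prodPt_one_one]

theorem pointField_le_prod_mu :
    pointField p H ≤ pointField p (H ⊗[Zloc p] MuAlg p) := by
  unfold pointField
  rw [IntermediateField.adjoin_le_iff]
  rintro y ⟨x, h, rfl⟩
  apply IntermediateField.subset_adjoin
  refine ⟨(prodPt (toConv x) (1 : Pts (Zloc p) (MuAlg p) (PadicAlgCl p))).ofConv,
    h ⊗ₜ[Zloc p] 1, ?_⟩
  have h2 := prodPt_tmul (toConv x) (1 : Pts (Zloc p) (MuAlg p) (PadicAlgCl p)) h 1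
  have h3 : (1 : Pts (Zloc p) (MuAlg p) (PadicAlgCl p)) (1 : MuAlg p) = 1 :=
    map_one (1 : Pts (Zloc p) (MuAlg p) (PadicAlgCl p)).ofConv
  rw [h3, mul_one] at h2
  exact h2.symm

theorem root_mem_pointField_prod_mu (ζ : PadicAlgCl p) (hζ : ζ ^ p = 1) :
    ζ ∈ pointField p (H ⊗[Zloc p] MuAlg p) := by
  haveI : NeZero p := ⟨(Fact.out : p.Prime).ne_zero⟩
  unfold pointField
  apply IntermediateField.subset_adjoin
  refine ⟨(prodPt (1 : Pts (Zloc p) H (PadicAlgCl p)) (tautPt p)).ofConv,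
    1 ⊗ₜ[Zloc p] MonoidAlgebra.single (rootsOfUnity.mkOfPowEq ζ hζ) 1, ?_⟩
  have h2 := prodPt_tmul (1 : Pts (Zloc p) H (PadicAlgCl p)) (tautPt p) 1
    (MonoidAlgebra.single (rootsOfUnity.mkOfPowEq ζ hζ) 1)
  have h3 : (1 : Pts (Zloc p) H (PadicAlgCl p)) (1 : H) = 1 :=
    map_one (1 : Pts (Zloc p) H (PadicAlgCl p)).ofConv
  have h4 : (tautPt p) (MonoidAlgebra.single (rootsOfUnity.mkOfPowEq ζ hζ) 1) = ζ := by
    have := tautPt_single (rootsOfUnity.mkOfPowEq ζ hζ)
    rw [rootsOfUnity.coe_mkOfPowEq] at this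
    exact this
  rw [h3, one_mul, h4] at h2
  exact h2.symm

end Prod

/-- There is a nontrivial `p`-th root of unity in `K̄`. -/
theorem exists_root_ne_one : ∃ ζ : PadicAlgCl p, ζ ≠ 1 ∧ ζ ^ p = 1 := by
  have hp : p.Prime := Fact.out
  haveI : NeZero (p : ℚ_[p]) := ⟨by exact_mod_cast hp.ne_zero⟩
  haveI : NeZero (p : PadicAlgCl p) := ⟨by exact_mod_cast hp.ne_zero⟩
  obtain ⟨ξ, hξ⟩ := HasEnoughRootsOfUnity.exists_primitiveRoot (PadicAlgCl p) p
  exact ⟨ξ, hξ.ne_one hp.one_lt, hξ.pow_eq_one⟩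

end Fermat.Agent.S56.FL.H54

end

end
-- ==== END Fermat.Agent.S56.FL.H54_BridgeMu

-- ==== BEGIN Fermat.Agent.S56.FL.H54_Conn
section

/-!
# LOC-p-FL, package CONN (helper54): `Stmt_SUBQ`

Reduction is injective on unramified subquotients: `stmt_SUBQ_of : Stmt_UnramVal → Stmt_SUBQ`,
where `Stmt_UnramVal` is the local-field fact "an element of `K̄` fixed by inertia with norm `< 1`
has norm `≤ 1/p`".

Proof: base change to `ℤ_p`, the subquotient Hopf algebra `A` of `E₂/E₁`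
(`exists_subquotient_model`), the point `u` of `A` attached to `x`, and LIFT-a in the convolution
ring `Hom_{ℤ_p}(A, 𝒪_{K̄})`.
-/

set_option autoImplicit false
set_option linter.unusedSectionVars false
set_option linter.style.haveILetI false

noncomputable section

namespace Fermat.Agent.S56.FL.H54

open scoped NNReal TensorProduct
open Fermat.Agent.S56.FL Fermat.Agent.R.H54 WithConv

/-- **The local-field input of CONN**: an element of `K̄` fixed by inertia with norm `< 1` has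
norm `≤ 1/p` (the value group of the maximal unramified extension of `ℚ_p` is `p^ℤ`). -/
def Stmt_UnramVal : Prop :=
  ∀ (p : ℕ) [Fact p.Prime] (b : PadicAlgCl p),
    (∀ σ ∈ inertiaP p, σ b = b) → ‖b‖ < 1 → ‖b‖ ≤ (p : ℝ)⁻¹

section Generic

variable {R₀ A O : Type} [CommRing R₀] [AddCommGroup A] [Module R₀ A] [Module.Free R₀ A]
  [Module.Finite R₀ A] [CommRing O] [Algebra R₀ O]

theorem free_conv : Module.Free O (WithConv (A →ₗ[R₀] O)) :=
  Module.Free.of_equiv (WithConv.linearEquiv O (A →ₗ[R₀] O)).symm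

theorem finite_conv : Module.Finite O (WithConv (A →ₗ[R₀] O)) :=
  Module.Finite.equiv (WithConv.linearEquiv O (A →ₗ[R₀] O)).symm

end Generic

variable {p : ℕ} [Fact p.Prime]

/-- The numerical fact `(1/p)^{p-1} < 1/p` for `p ≥ 3`. -/
theorem radius_inv (hp2 : p ≠ 2) : ((p : ℝ≥0)⁻¹) ^ (p - 1) < (p : ℝ≥0)⁻¹ := by
  have hp : p.Prime := Fact.out
  have hp3 : 2 ≤ p - 1 := by
    have := hp.two_le
    omega
  have hpp : (1 : ℝ≥0) < (p : ℝ≥0) := by exact_mod_cast hp.one_lt
  have h0 : (0 : ℝ≥0) < (p : ℝ≥0)⁻¹ := inv_pos.mpr (lt_trans zero_lt_one hpp)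
  have h1 : (p : ℝ≥0)⁻¹ < 1 := inv_lt_one_of_one_lt₀ hpp
  calc ((p : ℝ≥0)⁻¹) ^ (p - 1) ≤ ((p : ℝ≥0)⁻¹) ^ 2 := pow_le_pow_of_le_one h0.le h1.le hp3
    _ = (p : ℝ≥0)⁻¹ * (p : ℝ≥0)⁻¹ := sq _
    _ < (p : ℝ≥0)⁻¹ * 1 := mul_lt_mul_of_pos_left h1 h0
    _ = (p : ℝ≥0)⁻¹ := mul_one _

/-- **LIFT-a for points**: a point `u` of a finite free cocommutative Hopf algebra `A` over `ℤ_p`
which is killed by `p` and is congruent to the identity modulo `p` is the identity. -/
theorem point_eq_one_of_small (hp2 : p ≠ 2) {A : Type} [CommRing A] [HopfAlgebra ℤ_[p] A]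
    [Module.Finite ℤ_[p] A] [Module.Free ℤ_[p] A] [Coalgebra.IsCocomm ℤ_[p] A]
    (u : Pts ℤ_[p] A (PadicAlgCl p)) (hu : u ^ p = 1)
    (hsmall : ∀ a : A, ‖u a - algebraMap ℤ_[p] (PadicAlgCl p) (Coalgebra.counit a)‖ ≤
      (p : ℝ)⁻¹) : u = 1 := by
  classical
  set F : IntermediateField ℚ_[p] (PadicAlgCl p) := ⊤ with hF
  haveI : Module.Free (intRing p F) (WithConv (A →ₗ[ℤ_[p]] intRing p F)) := free_conv
  haveI : Module.Finite (intRing p F) (WithConv (A →ₗ[ℤ_[p]] intRing p F)) := finite_conv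
  -- the point with values in `𝒪`
  let uO : A →ₐ[ℤ_[p]] intRing p F :=
    { toFun := fun a => ⟨u a, IntermediateField.mem_top, norm_pointP_le_one u.ofConv a⟩
      map_one' := Subtype.ext (map_one u.ofConv)
      map_mul' := fun a b => Subtype.ext (map_mul u.ofConv a b)
      map_zero' := Subtype.ext (map_zero u.ofConv)
      map_add' := fun a b => Subtype.ext (map_add u.ofConv a b)
      commutes' := fun r => Subtype.ext (u.ofConv.commutes r) }
  set U : WithConv (A →ₗ[ℤ_[p]] intRing p F) := toConv uO.toLinearMap with hU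
  have hpostU : postC (inclAlgP F) U = toConv u.ofConv.toLinearMap := by
    apply WithConv.ext
    apply LinearMap.ext
    intro a
    rfl
  have hpost_inj : Function.Injective
      (postC (H := A) (inclAlgP F) : WithConv (A →ₗ[ℤ_[p]] intRing p F) → _) := by
    intro f g hfg
    apply WithConv.ext
    apply LinearMap.ext
    intro a
    apply inclAlgP_injective F
    have := congrArg (fun φ : WithConv (A →ₗ[ℤ_[p]] PadicAlgCl p) => φ a) hfg
    exact this
  have hUp : U ^ p = 1 := by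
    apply hpost_inj
    rw [map_pow, hpostU, ← AlgHom.toLinearMap_convPow, hu, map_one]
    rfl
  have hmem : U - 1 ∈ Ideal.map (algebraMap (intRing p F) _) (ballIdeal p F ((p : ℝ≥0)⁻¹)) := by
    apply mem_map_of_apply_mem
    intro a
    rw [mem_ballIdeal]
    have h1 : (((U - 1) a : intRing p F) : PadicAlgCl p) =
        u a - algebraMap ℤ_[p] (PadicAlgCl p) (Coalgebra.counit a) := rfl
    rw [h1]
    have := hsmall a
    simpa using this
  have hU1 : U = 1 := H50.stmt_LIFT_a p F _ ((p : ℝ≥0)⁻¹) (radius_inv hp2) U hUp hmem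
  apply WithConv.ext
  apply AlgHom.ext
  intro a
  have h2 := congrArg (fun φ : WithConv (A →ₗ[ℤ_[p]] intRing p F) =>
    ((φ a : intRing p F) : PadicAlgCl p)) hU1
  exact h2

/-- Powers in a `G`-stable subgroup. -/
theorem IsGSubgroup_pow_mem {R K G : Type} [CommRing R] [Field K] [Algebra R K] [Group G]
    [MulSemiringAction G K] {H : Type} [CommRing H] [HopfAlgebra R H] [Coalgebra.IsCocomm R H]
    {hD : DescentData R K G} {X : Set (Pts R H K)} (hX : IsGSubgroup hD X) {f : Pts R H K}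
    (hf : f ∈ X) (n : ℕ) : f ^ n ∈ X := by
  induction n with
  | zero => rw [pow_zero]; exact hX.one_mem
  | succ n ih => rw [pow_succ]; exact hX.mul_mem _ ih _ hf

/-- **SUBQ** from the local-field input. -/
theorem stmt_SUBQ_of (hUV : Stmt_UnramVal) : Stmt_SUBQ := by
  intro p _ hp2 H _ _ _ _ _ hkill E₁ E₂ h12 hE₁ hE₂ hin x hx hred
  classical
  have hp : p.Prime := Fact.out
  have hD := descentData_padic (p := p)
  have hp1 : p - 1 + 1 = p := Nat.sub_add_cancel hp.one_le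
  -- the subgroups of the points of the base change
  have hsub : ∀ E : Submonoid (WithConv (H →ₐ[Zloc p] PadicAlgCl p)),
      (∀ (σ : Gp p), ∀ x ∈ E, pointAct σ x ∈ E) →
      IsGSubgroup hD {φ : Pts ℤ_[p] (ℤ_[p] ⊗[Zloc p] H) (PadicAlgCl p) | resBC φ ∈ E} := by
    intro E hE
    refine ⟨?_, ?_, ?_, ?_⟩
    · show resBC 1 ∈ E
      rw [resBC_one]
      exact E.one_mem
    · intro f hf g hg
      show resBC (f * g) ∈ E
      rw [resBC_mul]
      exact E.mul_mem hf hg
    · intro f hf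
      show resBC (pinv f) ∈ E
      have h1 : resBC (pinv f) * resBC f = 1 := by rw [← resBC_mul, pinv_mul, resBC_one]
      have h2 : resBC f ^ (p - 1) * resBC f = 1 := by rw [← pow_succ, hp1, hkill]
      have h3 : resBC (pinv f) = resBC f ^ (p - 1) := by
        calc resBC (pinv f) = resBC (pinv f) * (resBC f ^ (p - 1) * resBC f) := by
              rw [h2, mul_one]
          _ = (resBC (pinv f) * resBC f) * resBC f ^ (p - 1) := by
              rw [mul_comm (resBC f ^ (p - 1)), mul_assoc]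
          _ = resBC f ^ (p - 1) := by rw [h1, one_mul]
      rw [h3]
      exact E.pow_mem hf _
    · intro σ f hf
      show resBC (gconj hD σ f) ∈ E
      rw [resBC_gconj]
      exact hE σ _ hf
  have hX₁ := hsub E₁ hE₁
  have hX₂ := hsub E₂ hE₂
  set X₁ : Set (Pts ℤ_[p] (ℤ_[p] ⊗[Zloc p] H) (PadicAlgCl p)) := {φ | resBC φ ∈ E₁} with hX₁def
  set X₂ : Set (Pts ℤ_[p] (ℤ_[p] ⊗[Zloc p] H) (PadicAlgCl p)) := {φ | resBC φ ∈ E₂} with hX₂def
  obtain ⟨A, _, _, hfin, hfree, hcoc, q, hq_mul, hq_ker, hq_gal, hq_val⟩ :=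
    exists_subquotient_model hD hX₁ hX₂
  haveI := hfin
  haveI := hfree
  haveI := hcoc
  set xh := extBC x with hxh
  have hxh2 : xh ∈ X₂ := by
    show resBC (extBC x) ∈ E₂
    rw [resBC_extBC]
    exact hx
  have hq_one : q 1 = 1 := (hq_ker 1 hX₂.one_mem).mpr hX₁.one_mem
  have hq_pow : ∀ n : ℕ, q (xh ^ n) = q xh ^ n := by
    intro n
    induction n with
    | zero => rw [pow_zero, pow_zero, hq_one]
    | succ n ih =>
      rw [pow_succ, pow_succ, hq_mul _ (IsGSubgroup_pow_mem hX₂ hxh2 n) _ hxh2, ih]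
  have hxhp : xh ^ p = 1 := by
    apply resBC_injective
    rw [resBC_pow, resBC_extBC, hkill, resBC_one]
  set u := q xh with hu
  have hup : u ^ p = 1 := by rw [hu, ← hq_pow, hxhp, hq_one]
  have hu_val : ∀ a : A, ‖u a - algebraMap ℤ_[p] (PadicAlgCl p) (Coalgebra.counit a)‖ < 1 := by
    intro a
    obtain ⟨t, hc, hv⟩ := hq_val a
    rw [hu, hv xh hxh2, hc]
    exact norm_extBC_sub_counit_lt x hred t
  have hu_inert : ∀ σ ∈ inertiaP p, ∀ a : A, σ (u a) = u a := by
    intro σ hσ a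
    obtain ⟨y, hy, hσx⟩ := hin σ hσ x hx
    have hyh1 : extBC y ∈ X₁ := by
      show resBC (extBC y) ∈ E₁
      rw [resBC_extBC]
      exact hy
    have hyh2 : extBC y ∈ X₂ := by
      show resBC (extBC y) ∈ E₂
      rw [resBC_extBC]
      exact h12 hy
    have h1 : gconj hD σ xh = xh * extBC y := by
      rw [hxh, ← extBC_pointAct, hσx, extBC_mul]
    have h2 : gconj hD σ u = u := by
      rw [hu, ← hq_gal σ xh hxh2, h1, hq_mul xh hxh2 _ hyh2, (hq_ker _ hyh2).mpr hyh1, mul_one]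
    have h3 := congrArg (fun φ : Pts ℤ_[p] A (PadicAlgCl p) => φ a) h2
    exact h3
  have hu_small : ∀ a : A,
      ‖u a - algebraMap ℤ_[p] (PadicAlgCl p) (Coalgebra.counit a)‖ ≤ (p : ℝ)⁻¹ := by
    intro a
    refine hUV p _ (fun σ hσ => ?_) (hu_val a)
    rw [map_sub, hu_inert σ hσ a]
    congr 1
    rw [algebraMap_padicInt_eq]
    exact σ.commutes _
  have hu1 : u = 1 := point_eq_one_of_small hp2 u hup hu_small
  have hxh1 : xh ∈ X₁ := (hq_ker xh hxh2).mp hu1
  have : resBC (extBC x) ∈ E₁ := hxh1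
  rwa [resBC_extBC] at this

end Fermat.Agent.S56.FL.H54

end

end
-- ==== END Fermat.Agent.S56.FL.H54_Conn
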