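-- GENERATED (merged mirror, NOTES/tools/trim/merge3_helper67.py): 5 modules of the originals, bodies verbatim.
import Mathlib
import Fermat.Agent.Zm.S56_L08_000
import Fermat.Agent.Zm.S56_L08_001
import Fermat.Agent.Zm.S56_L01_004
import Fermat.Agent.Zm.S56_L06_004
import Fermat.Agent.Zm.S56_L06_003
import Fermat.Agent.Zm.S56_L08_004
import Fermat.Agent.Zm.S56_L03_004
import Fermat.Agent.Zm.S56_L07_004

-- ==== BEGIN Fermat.Agent.S55.CFT.GS.H24_Sha2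
section

set_option autoImplicit false
set_option linter.unusedSectionVars false
set_option linter.unusedVariables false
set_option linter.style.haveILetI false

open CategoryTheory Module groupCohomology ExtCitation

noncomputable section

namespace Fermat.Agent.S55.CFT.GS.H24

open Fermat.Agent.S55 Fermat.Agent.S55.Top Fermat.Agent.S55.CFT.GS

local notation "Qb" => AlgebraicClosure ℚ

/-! ### An abstract counting lemma -/

section abstract

variable {A : Type*} [AddCommGroup A] {G : Type*} [CommGroup G]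

/-- If a relation `R` between `Z` and `T` is total on `Z`, compatible with differences and sends
`T'` back into `B`, then `[Z : B] ≤ [T : T']`. -/
theorem relIndex_le_of_rel (B Z : AddSubgroup A) (T' T : Subgroup G) (R : A → G → Prop)
    (h1 : ∀ a ∈ Z, ∃ t ∈ T, R a t)
    (h2 : ∀ a a' t t', R a t → R a' t' → R (a - a') (t / t'))
    (h3 : ∀ a t, R a t → t ∈ T' → a ∈ B)
    (hfin : T'.relIndex T ≠ 0) :
    B.relIndex Z ≠ 0 ∧ B.relIndex Z ≤ T'.relIndex T := by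
  classical
  choose! τ hτT hτR using h1
  let φ : (↥Z ⧸ B.addSubgroupOf Z) → (↥T ⧸ T'.subgroupOf T) := fun x =>
    QuotientGroup.mk ⟨τ ((Quotient.out x : ↥Z) : A), hτT _ (Quotient.out x).2⟩
  have hφ : Function.Injective φ := by
    intro x y hxy
    have h := QuotientGroup.eq.1 hxy
    rw [Subgroup.mem_subgroupOf] at h
    have hR := h2 _ _ _ _ (hτR _ (Quotient.out y).2) (hτR _ (Quotient.out x).2)
    have e : τ ((Quotient.out y : ↥Z) : A) / τ ((Quotient.out x : ↥Z) : A) =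
        (τ ((Quotient.out x : ↥Z) : A))⁻¹ * τ ((Quotient.out y : ↥Z) : A) := by
      rw [div_eq_mul_inv, mul_comm]
    rw [e] at hR
    have hB := h3 _ _ hR h
    have hxy' : ((Quotient.out x : ↥Z) : ↥Z ⧸ B.addSubgroupOf Z) = (Quotient.out y : ↥Z) := by
      rw [QuotientAddGroup.eq, AddSubgroup.mem_addSubgroupOf]
      have e2 : ((-(Quotient.out x : ↥Z) + (Quotient.out y : ↥Z) : ↥Z) : A) =
          ((Quotient.out y : ↥Z) : A) - ((Quotient.out x : ↥Z) : A) := by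
        push_cast
        abel
      rw [e2]
      exact hB
    have hx : ((Quotient.out x : ↥Z) : ↥Z ⧸ B.addSubgroupOf Z) = x := Quotient.out_eq x
    have hy : ((Quotient.out y : ↥Z) : ↥Z ⧸ B.addSubgroupOf Z) = y := Quotient.out_eq y
    rw [← hx, ← hy]
    exact hxy'
  haveI hfinT : Finite (↥T ⧸ T'.subgroupOf T) := Nat.finite_of_card_ne_zero hfin
  haveI : Finite (↥Z ⧸ B.addSubgroupOf Z) := Finite.of_injective φ hφ
  constructor
  · exact Nat.card_pos.ne'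
  · exact Nat.card_le_card_of_injective φ hφ

end abstract

/-! ### The correspondence -/

section sha

variable {p : ℕ} [Fact p.Prime] {S : Finset Nat.Primes} {K : IntermediateField ℚ Qb}
  {ζ : Qbˣ}

/-- The correspondence between 2-cocycles `a` with values in `𝔽_p` and elements `t ∈ Ωˣ`:
`ζ^a = d b` and `bᵖ = (g ↦ g t / t)` for some level-`S` 1-cochain `b` with values in `Ωˣ`. -/
def RelSha (S : Finset Nat.Primes) (p : ℕ) (K : IntermediateField ℚ Qb) (ζ : Qbˣ)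
    (a : ↥K.fixingSubgroup × ↥K.fixingSubgroup → ZMod p) (t : Qbˣ) : Prop :=
  InOm S (t : Qb) ∧ ∃ b : ↥K.fixingSubgroup → Qbˣ, IsLevK₁ S K b ∧ (∀ g, InOm S (b g : Qb)) ∧
    (∀ g h, ζ ^ (a (g, h)).val = mOne b (g, h)) ∧ ∀ g, b g ^ p = g • t / t

/-- (R1) Every locally trivial cocycle corresponds to some `t ∈ T`. -/
theorem relSha_exists (hHasse : Stmt_GS_Hasse) (hH90 : Stmt_GS_H90) (hp2 : p ≠ 2)
    (hp : pPrime p ∈ S) (hK : IsBaseField S p K) (𝔓 : PlaceSys S K)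
    (hζ : IsPrimitiveRoot ζ p) (hζK : ζ ∈ KxS K)
    {a : ↥K.fixingSubgroup × ↥K.fixingSubgroup → ZMod p} (ha : a ∈ ZL (ZMod p) 𝔓) :
    ∃ t : Qbˣ, t ∈ TK S p K ∧ RelSha S p K ζ a t := by
  obtain ⟨b, hb, hbΩ, hab⟩ := hHasse p hp2 S hp K hK 𝔓 ζ hζK hζ a ha.1 ha.2
  have hc1 : IsLevK₁ S K (fun g => b g ^ p) := hb.comp (fun x : Qbˣ => x ^ p)
  have hc2 : ∀ g, InOm S (((fun g => b g ^ p) g : Qbˣ) : Qb) := by
    intro g
    show InOm S ((b g ^ p : Qbˣ) : Qb)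
    rw [Units.val_pow_eq_pow_val]
    exact inOm_pow (hbΩ g) p
  have hc3 : mOne (fun g => b g ^ p) = 1 := by
    have e : (fun g => b g ^ p) = b ^ p := rfl
    rw [e, mOne_pow]
    funext ⟨g, h⟩
    rw [Pi.pow_apply, Pi.one_apply, ← hab g h]
    exact zp_pow_p hζ.pow_eq_one _
  obtain ⟨t, htΩ, ht⟩ := hH90 S K hK.1 _ hc1 hc2 hc3
  refine ⟨t, ⟨htΩ, fun g => ⟨b g, hbΩ g, ht g⟩⟩, htΩ, b, hb, hbΩ, hab, ht⟩

/-- (R2) The correspondence is compatible with differences. -/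
theorem relSha_sub (hζ : IsPrimitiveRoot ζ p)
    {a a' : ↥K.fixingSubgroup × ↥K.fixingSubgroup → ZMod p} {t t' : Qbˣ}
    (h : RelSha S p K ζ a t) (h' : RelSha S p K ζ a' t') :
    RelSha S p K ζ (a - a') (t / t') := by
  obtain ⟨htΩ, b, hb, hbΩ, hab, hbt⟩ := h
  obtain ⟨htΩ', b', hb', hbΩ', hab', hbt'⟩ := h'
  refine ⟨?_, b / b', ?_, ?_, ?_, ?_⟩
  · rw [Units.val_div_eq_div_val]
    exact inOm_div htΩ htΩ'
  · exact (hb.pair hb').comp (fun x : Qbˣ × Qbˣ => x.1 / x.2)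
  · intro g
    rw [Pi.div_apply, Units.val_div_eq_div_val]
    exact inOm_div (hbΩ g) (hbΩ' g)
  · intro g h
    rw [mOne_div, Pi.div_apply, ← hab g h, ← hab' g h, Pi.sub_apply, zp_sub hζ.pow_eq_one]
  · intro g
    rw [Pi.div_apply, div_pow, hbt g, hbt' g, smul_div']
    apply Additive.ofMul.injective
    simp only [ofMul_div]
    abel

/-- (R3) If `t ∈ Kˣ W` then the cocycle is a coboundary. -/
theorem relSha_mem_B2K (hζ : IsPrimitiveRoot ζ p) (hζK : ζ ∈ KxS K)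
    {a : ↥K.fixingSubgroup × ↥K.fixingSubgroup → ZMod p} {t : Qbˣ}
    (h : RelSha S p K ζ a t) (ht : t ∈ KW S p K) : a ∈ B2K (ZMod p) S K := by
  classical
  obtain ⟨htΩ, b, hb, hbΩ, hab, hbt⟩ := h
  obtain ⟨c, s, hc, hs, rfl⟩ := ht
  -- `b g / (g s / s)` is a `p`-th root of unity
  have h1 : ∀ g : ↥K.fixingSubgroup, (b g / (g • s / s)) ^ p = 1 := by
    intro g
    rw [div_pow, hbt g, smul_mul', smul_eq_of_mem hc g, div_pow, smul_pow']
    apply Additive.ofMul.injective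
    simp only [ofMul_div, ofMul_mul, ofMul_one]
    abel
  let φ : Qbˣ × Qbˣ → ZMod p := fun x =>
    if hx : (x.1 / x.2) ^ p = 1 then Classical.choose (exists_zp hζ hx) else 0
  have hφ : ∀ g : ↥K.fixingSubgroup, ζ ^ (φ (b g, g • s / s)).val = b g / (g • s / s) := by
    intro g
    show ζ ^ (dite _ _ _ : ZMod p).val = _
    rw [dif_pos (h1 g)]
    exact Classical.choose_spec (exists_zp hζ (h1 g))
  refine ⟨fun g => φ (b g, g • s / s), (hb.pair (isLevK₁_bdry hs)).comp φ, ?_⟩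
  have hb2 : b = (fun g : ↥K.fixingSubgroup => ζ ^ (φ (b g, g • s / s)).val) *
      (fun g : ↥K.fixingSubgroup => g • s / s) := by
    funext g
    rw [Pi.mul_apply, hφ g, div_mul_cancel]
  have hm : mOne b = fun x : ↥K.fixingSubgroup × ↥K.fixingSubgroup =>
      ζ ^ (tOne (fun g => φ (b g, g • s / s)) x).val := by
    conv_lhs => rw [hb2]
    rw [mOne_mul, mOne_bdry, mul_one,
      mOne_zp hζ.pow_eq_one (fun g => smul_eq_of_mem hζK g)]
  funext ⟨g, h⟩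
  apply zp_inj hζ
  rw [hab g h, hm]

/-- **Part (b)**: `[ZL : B²_S] ≤ [T : Kˣ W]`. -/
theorem relIndex_B2K_ZL (hHasse : Stmt_GS_Hasse) (hH90 : Stmt_GS_H90) (hp2 : p ≠ 2)
    (hp : pPrime p ∈ S) (hK : IsBaseField S p K) (𝔓 : PlaceSys S K)
    (hζ : IsPrimitiveRoot ζ p) (hζK : ζ ∈ KxS K)
    (T T' : Subgroup Qbˣ) (hT : (T : Set Qbˣ) = TK S p K) (hT' : (T' : Set Qbˣ) = KW S p K)
    (hfin : T'.relIndex T ≠ 0) :
    (B2K (ZMod p) S K).toAddSubgroup.relIndex (ZL (ZMod p) 𝔓).toAddSubgroup ≠ 0 ∧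
      (B2K (ZMod p) S K).toAddSubgroup.relIndex (ZL (ZMod p) 𝔓).toAddSubgroup ≤
        T'.relIndex T := by
  refine relIndex_le_of_rel _ _ T' T (RelSha S p K ζ) ?_ ?_ ?_ hfin
  · intro a ha
    obtain ⟨t, ht, hR⟩ := relSha_exists hHasse hH90 hp2 hp hK 𝔓 hζ hζK
      (a := a) ha
    refine ⟨t, ?_, hR⟩
    have : t ∈ (T : Set Qbˣ) := by rw [hT]; exact ht
    exact this
  · intro a a' t t' h h'
    exact relSha_sub hζ h h'
  · intro a t h ht
    have ht' : t ∈ KW S p K := by rw [← hT']; exact ht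
    exact relSha_mem_B2K hζ hζK h ht'

end sha

end Fermat.Agent.S55.CFT.GS.H24

end

end
-- ==== END Fermat.Agent.S55.CFT.GS.H24_Sha2

-- ==== BEGIN Fermat.Agent.S56.FL.H59_KumMain
section

set_option autoImplicit false
set_option linter.style.haveILetI false
set_option linter.unusedSectionVars false

/-!
# LOC-p-FL, package KUM (helper59): `Stmt_KUMBDD`

`K' ⊆ L` finite Galois over `ℚ_p`, `μ_p ⊆ K'`, `L` of bounded ramification, `a ∈ K'ˣ` with a
`p`-th root in `L`.  Then `‖a b^p - 1‖ ≤ p⁻¹` for some `b ∈ K'ˣ`.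

Proof (multiplicative norms; the tameness of `K'` is not used).  Descent: if
`p⁻¹ < δ = ‖a₁ - 1‖ ≤ 1` and `δ` cannot be improved by `p`-th powers, put `y = α₁ - 1` (`δ < 1`) or
`y = α₁` (`δ = 1`); then `‖y‖ ∉ ‖K'ˣ‖` (the residue field is perfect), `‖y‖^p ∈ ‖K'ˣ‖`, every integer
of `M = K'(α₁)` is `∑_{j<p} c_j y^j` (Lagrange resolvents) and the Kummer estimate bounds the depth
of `Gal(M/K')` on the integers of `M`.  Herbrand (`H15.herbrand_rel`) lifts this to a `σ₁` in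
`Gal(L/K')`, the elements outside `Gal(L/K')` are controlled by `prod_not_mem_le`, and the product
contradicts the ramification bound.
-/

noncomputable section

namespace Fermat.Agent.S56.FL.H59

open scoped NNReal
open Fermat.Agent.S56.FL Fermat.Agent.S56.FL.H15 Polynomial

variable {p : ℕ} [Fact p.Prime]

variable {L : IntermediateField ℚ_[p] (PadicAlgCl p)}

theorem norm_p_L : ‖(p : L)‖ = (p : ℝ)⁻¹ := by
  have : ‖((p : L) : PadicAlgCl p)‖ = (p : ℝ)⁻¹ := by push_cast; exact norm_p_algCl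
  exact this

/-- All nontrivial `p`-th roots of unity have the same distance to `1`. -/
theorem norm_root_sub_one_le {ζ ξ : L} (hζ1 : ζ ≠ 1) (hζp : ζ ^ p = 1) (hξp : ξ ^ p = 1) :
    ‖ξ - 1‖ ≤ ‖ζ - 1‖ := by
  have hp : p.Prime := Fact.out
  by_cases hξ1 : ξ = 1
  · rw [hξ1, sub_self, norm_zero]; exact norm_nonneg _
  have key : ∀ z : L, z ≠ 1 → z ^ p = 1 → ‖z - 1‖ ^ (p - 1) = (p : ℝ)⁻¹ := by
    intro z hz1 hzp
    have h1 : (z : PadicAlgCl p) ≠ 1 := fun h => hz1 (by exact_mod_cast h)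
    have h2 : (z : PadicAlgCl p) ^ p = 1 := by exact_mod_cast congrArg (fun t : L => (t : PadicAlgCl p)) hzp
    have := norm_zeta_sub_one h1 h2
    exact this
  have h := (key ξ hξ1 hξp).trans (key ζ hζ1 hζp).symm
  have hp1 : p - 1 ≠ 0 := by have := hp.two_le; omega
  exact ((pow_left_inj₀ (norm_nonneg _) (norm_nonneg _) hp1).mp h).le

/-- Galois correspondence: an element of `L` fixed by `Gal(L/K')` lies in `K'`. -/
theorem mem_of_fixed [FiniteDimensional ℚ_[p] L] (hN : Normal ℚ_[p] L)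
    (KL : IntermediateField ℚ_[p] L) (c : L) (hc : ∀ τ ∈ KL.fixingSubgroup, τ c = c) :
    c ∈ KL := by
  haveI := hN
  haveI : IsGalois ℚ_[p] L := ⟨⟩
  have : c ∈ IntermediateField.fixedField KL.fixingSubgroup := by
    rw [IntermediateField.mem_fixedField_iff]
    exact hc
  rwa [IsGalois.fixedField_fixingSubgroup] at this

section Shift

variable {F : Type*} [Field F]

/-- Re-expansion of `∑_{j<n} c_j (y + ε)^j` in powers of `y`, with coefficients in the subfield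
`S`. -/
theorem exists_shift_expansion (S : Subfield F) (n : ℕ) (c : ℕ → F) (hc : ∀ j, c j ∈ S) {ε : F}
    (hε : ε ∈ S) (y : F) :
    ∃ c' : ℕ → F, (∀ j, c' j ∈ S) ∧
      ∑ j ∈ Finset.range n, c j * (y + ε) ^ j = ∑ j ∈ Finset.range n, c' j * y ^ j := by
  classical
  set P : (↥S)[X] := ∑ j ∈ Finset.range n, C (⟨c j, hc j⟩ : S) * X ^ j with hP
  set Q : (↥S)[X] := P.comp (X + C (⟨ε, hε⟩ : S)) with hQ
  have hPdeg : P.natDegree < n ∨ n = 0 := by
    rcases Nat.eq_zero_or_pos n with h0 | hpos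
    · exact Or.inr h0
    left
    have : P.natDegree ≤ n - 1 := by
      refine Polynomial.natDegree_sum_le_of_forall_le _ _ fun j hj => ?_
      refine (Polynomial.natDegree_C_mul_X_pow_le _ _).trans ?_
      have := Finset.mem_range.mp hj
      omega
    omega
  rcases hPdeg with hPdeg | h0
  · have hQdeg : Q.natDegree < n := by
      have h1 : Q.natDegree ≤ P.natDegree * (X + C (⟨ε, hε⟩ : S)).natDegree :=
        Polynomial.natDegree_comp_le
      have h2 : (X + C (⟨ε, hε⟩ : S)).natDegree ≤ 1 := by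
        rw [Polynomial.natDegree_X_add_C]
      calc Q.natDegree ≤ P.natDegree * (X + C (⟨ε, hε⟩ : S)).natDegree := h1
        _ ≤ P.natDegree * 1 := Nat.mul_le_mul_left _ h2
        _ = P.natDegree := mul_one _
        _ < n := hPdeg
    refine ⟨fun j => ((Q.coeff j : S) : F), fun j => (Q.coeff j).2, ?_⟩
    have e1 : Polynomial.aeval (y + ε) P = ∑ j ∈ Finset.range n, c j * (y + ε) ^ j := by
      simp only [hP, map_sum, map_mul, map_pow, Polynomial.aeval_C, Polynomial.aeval_X]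
      exact Finset.sum_congr rfl fun j _ => rfl
    have e2 : Polynomial.aeval y Q = Polynomial.aeval (y + ε) P := by
      rw [hQ, Polynomial.aeval_comp]
      simp only [map_add, Polynomial.aeval_C, Polynomial.aeval_X]
      rfl
    have e3 : Polynomial.aeval y Q = ∑ j ∈ Finset.range n, ((Q.coeff j : S) : F) * y ^ j := by
      rw [Polynomial.aeval_eq_sum_range' hQdeg]
      refine Finset.sum_congr rfl fun j _ => ?_
      rw [Algebra.smul_def]; rfl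
    rw [← e1, ← e2, e3]
  · subst h0
    exact ⟨fun _ => 0, fun _ => S.zero_mem, by simp⟩

end Shift


variable [FiniteDimensional ℚ_[p] L]

/-- **The contradiction of the descent.** -/
theorem descent_false (hNL : Normal ℚ_[p] L) (hbdd : IsBddField p L)
    (KL : IntermediateField ℚ_[p] L)
    {ζ : L} (hζK : ζ ∈ KL) (hζ1 : ζ ≠ 1) (hζp : ζ ^ p = 1)
    {π' : L} (hπ'K : π' ∈ KL) (hπ'0 : 0 < ‖π'‖) (hπ'1 : ‖π'‖ < 1)
    (hϖ : ∀ c ∈ KL, ‖c‖ < 1 → ‖c‖ ≤ ‖π'‖)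
    {α y ε : L} (hαy : α = y + ε) (hε : ε ∈ KL) (hαp : α ^ p ∈ KL) (hα0 : α ≠ 0)
    {δ : ℝ} (hδ : (p : ℝ)⁻¹ < δ)
    (hyp : InV KL.toSubfield (‖y‖ ^ p)) (hyn : ¬ InV KL.toSubfield ‖y‖)
    (hαδ : δ * ‖α‖ ^ p ≤ ‖y‖ ^ p) : False := by
  classical
  have hp : p.Prime := Fact.out
  have hp0 : p ≠ 0 := hp.ne_zero
  have hpR : (0 : ℝ) < (p : ℝ) := by exact_mod_cast hp.pos
  have hpinv : (0 : ℝ) < (p : ℝ)⁻¹ := inv_pos.mpr hpR
  have hδ0 : 0 < δ := hpinv.trans hδ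
  haveI := hNL
  haveI : IsGalois ℚ_[p] L := ⟨⟩
  haveI : NeZero p := ⟨hp0⟩
  set H : Subgroup (L ≃ₐ[ℚ_[p]] L) := KL.fixingSubgroup with hH
  have hHfix : ∀ τ ∈ H, ∀ c ∈ KL, τ c = c := fun τ hτ c hc =>
    (IntermediateField.mem_fixingSubgroup_iff KL τ).mp hτ c hc
  have hy0 : y ≠ 0 := by
    intro h
    have := hyp.pos
    rw [h, norm_zero, zero_pow hp0] at this
    exact lt_irrefl _ this
  -- some `σ₀ ∈ H` moves `α`
  have hmove : ∃ σ₀ ∈ H, σ₀ α ≠ α := by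
    by_contra hcon
    have hall : ∀ τ ∈ H, τ α = α := fun τ hτ => by_contra fun h => hcon ⟨τ, hτ, h⟩
    have hαK : α ∈ KL := mem_of_fixed hNL KL α hall
    have hyK : y ∈ KL := by
      have : y = α - ε := by rw [hαy]; ring
      rw [this]; exact KL.sub_mem hαK hε
    exact hyn ⟨y, hyK, hy0, rfl⟩
  obtain ⟨σ₀, hσ₀H, hσ₀α⟩ := hmove
  have hζprim : IsPrimitiveRoot ζ p := IsPrimitiveRoot.iff_orderOf.mpr (orderOf_eq_prime hζp hζ1)
  set ζ₀ : L := σ₀ α / α with hζ₀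
  have hζ₀p : ζ₀ ^ p = 1 := by
    rw [hζ₀, div_pow, ← map_pow, hHfix σ₀ hσ₀H _ hαp, div_self (pow_ne_zero _ hα0)]
  have hζ₀1 : ζ₀ ≠ 1 := by
    intro h
    apply hσ₀α
    rw [hζ₀, div_eq_one_iff_eq hα0] at h
    exact h
  have hζ₀K : ζ₀ ∈ KL := by
    obtain ⟨m, -, hm⟩ := hζprim.eq_pow_of_pow_eq_one hζ₀p
    rw [← hm]; exact pow_mem hζK m
  have hζ₀prim : IsPrimitiveRoot ζ₀ p :=
    IsPrimitiveRoot.iff_orderOf.mpr (orderOf_eq_prime hζ₀p hζ₀1)
  have hσ₀α' : σ₀ α = ζ₀ * α := by rw [hζ₀]; field_simp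
  have hσ₀pow : ∀ i : ℕ, (σ₀ ^ i) α = ζ₀ ^ i * α := by
    intro i
    induction i with
    | zero => simp
    | succ i ih =>
      rw [pow_succ', AlgEquiv.mul_apply, ih, map_mul, map_pow, hHfix σ₀ hσ₀H _ hζ₀K, hσ₀α']
      ring
  -- the stabiliser of `α` in `H`
  set N : Subgroup (L ≃ₐ[ℚ_[p]] L) := H ⊓ MulAction.stabilizer (L ≃ₐ[ℚ_[p]] L) α with hN
  have hNmem : ∀ τ, τ ∈ N ↔ τ ∈ H ∧ τ α = α := fun τ => by
    rw [hN, Subgroup.mem_inf, MulAction.mem_stabilizer_iff]; rfl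
  have hNH : N ≤ H := inf_le_left
  letI : Fintype H := Fintype.ofFinite _
  letI : Fintype N := Fintype.ofFinite _
  -- `p * #N ≤ #H`
  have hcard : p * Fintype.card N ≤ Fintype.card H := by
    let g : Fin p × N → H := fun x =>
      ⟨σ₀ ^ (x.1 : ℕ) * (x.2 : L ≃ₐ[ℚ_[p]] L),
        H.mul_mem (H.pow_mem hσ₀H _) (hNH x.2.2)⟩
    have hg : Function.Injective g := by
      rintro ⟨i, ν⟩ ⟨j, ν'⟩ h
      have h1 : σ₀ ^ (i : ℕ) * (ν : L ≃ₐ[ℚ_[p]] L) = σ₀ ^ (j : ℕ) * (ν' : L ≃ₐ[ℚ_[p]] L) :=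
        congrArg Subtype.val h
      have h2 := congrArg (fun τ : L ≃ₐ[ℚ_[p]] L => τ α) h1
      simp only [AlgEquiv.mul_apply] at h2
      rw [((hNmem _).mp ν.2).2, ((hNmem _).mp ν'.2).2, hσ₀pow, hσ₀pow] at h2
      have h3 : ζ₀ ^ (i : ℕ) = ζ₀ ^ (j : ℕ) := mul_right_cancel₀ hα0 h2
      have h4 : (i : ℕ) = j := hζ₀prim.pow_inj i.2 j.2 h3
      have h5 : i = j := Fin.ext h4
      subst h5
      have h6 : (ν : L ≃ₐ[ℚ_[p]] L) = ν' := mul_left_cancel h1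
      rw [Subtype.ext h6]
    have := Fintype.card_le_of_injective g hg
    simpa [Fintype.card_prod] using this
  -- the Kummer estimate
  set θ : ℝ := ‖ζ - 1‖ with hθ
  have hθ0 : 0 ≤ θ := norm_nonneg _
  have hθp : θ ^ (p - 1) = (p : ℝ)⁻¹ := by
    have h1 : (ζ : PadicAlgCl p) ≠ 1 := fun h => hζ1 (by exact_mod_cast h)
    have h2 : (ζ : PadicAlgCl p) ^ p = 1 := by
      exact_mod_cast congrArg (fun t : L => (t : PadicAlgCl p)) hζp
    exact norm_zeta_sub_one h1 h2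
  have hkum : ∀ τ ∈ H, ∀ x : L, ‖x‖ ≤ 1 → (∀ ν ∈ N, ν x = x) →
      δ * ‖τ x - x‖ ^ p ≤ θ ^ p * ‖π'‖ := by
    intro τ hτ x hx1 hxN
    have hpL : (p : L) ≠ 0 := Nat.cast_ne_zero.mpr hp0
    obtain ⟨c, hcfix, hxc⟩ := exists_resolvent_expansion H hp hpL hζ₀prim
      (fun h hh => hHfix h hh _ hζ₀K) hα0 (fun h hh => hHfix h hh _ hαp) hσ₀H hσ₀α'
      (x := x) (fun ν hν hνα => hxN ν ((hNmem ν).mpr ⟨hν, hνα⟩))
    have hcK : ∀ j, c j ∈ KL.toSubfield := fun j => mem_of_fixed hNL KL (c j) (hcfix j)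
    obtain ⟨c', hc'K, hshift⟩ := exists_shift_expansion KL.toSubfield p c hcK
      (show ε ∈ KL.toSubfield from hε) y
    have hxc' : x = ∑ j ∈ Finset.range p, c' j * y ^ j := by
      rw [← hshift, ← hαy]; exact hxc
    have hτy : ‖(τ : L →+* L) y - y‖ ≤ θ * ‖α‖ := by
      have h1 : (τ : L →+* L) y - y = (τ α / α - 1) * α := by
        have hy : y = α - ε := by rw [hαy]; ring
        have : τ y = τ α - ε := by rw [hy, map_sub, hHfix τ hτ _ hε]
        change τ y - y = _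
        rw [this, hy]
        field_simp
        ring
      rw [h1, norm_mul]
      refine mul_le_mul_of_nonneg_right ?_ (norm_nonneg _)
      refine norm_root_sub_one_le hζ1 hζp ?_
      rw [div_pow, ← map_pow, hHfix τ hτ _ hαp, div_self (pow_ne_zero _ hα0)]
    have := kummer_estimate hp KL.toSubfield (τ : L →+* L) (fun a => norm_algEquiv τ a)
      (fun c hc => hHfix τ hτ c hc) hθ0 hδ0 (fun c hc => hϖ c hc) hy0 hyp hyn hτy hαδ c' hc'K
      (by rw [← hxc']; exact hx1)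
    rw [← hxc'] at this
    exact this
  -- the bound `B`
  set Cp : ℝ := θ ^ p * ‖π'‖ / δ with hCp
  have hCp0 : 0 ≤ Cp := div_nonneg (mul_nonneg (pow_nonneg hθ0 _) hπ'0.le) hδ0.le
  have hθ1 : θ < 1 := by
    by_contra hcon
    have : 1 ≤ θ ^ (p - 1) := one_le_pow₀ (not_lt.mp hcon)
    rw [hθp] at this
    have h2 : (p : ℝ)⁻¹ < 1 := inv_lt_one_of_one_lt₀ (by exact_mod_cast hp.one_lt)
    exact absurd this (not_le.mpr h2)
  have hθpp : θ ^ p = θ * (p : ℝ)⁻¹ := by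
    rw [← hθp, ← pow_succ']
    congr 1
    have := hp.two_le
    omega
  have hCp1 : Cp < 1 := by
    rw [hCp, div_lt_one hδ0, hθpp]
    calc θ * (p : ℝ)⁻¹ * ‖π'‖ ≤ 1 * (p : ℝ)⁻¹ * 1 := by
          refine mul_le_mul (mul_le_mul_of_nonneg_right hθ1.le hpinv.le) hπ'1.le
            (norm_nonneg _) (by positivity)
      _ = (p : ℝ)⁻¹ := by ring
      _ < δ := hδ
  set B : ℝ := Cp ^ ((p : ℝ)⁻¹) with hB
  have hB0 : 0 ≤ B := Real.rpow_nonneg hCp0 _
  have hBp : B ^ p = Cp := Real.rpow_inv_natCast_pow hCp0 hp0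
  have hB1 : B ≤ 1 := by
    by_contra hcon
    have : 1 < B ^ p := one_lt_pow₀ (not_le.mp hcon) hp0
    rw [hBp] at this
    exact absurd hCp1 (not_lt.mpr this.le)
  have hdB : ∀ τ ∈ H, depthOn L N τ ≤ B := by
    intro τ hτ
    refine depthOn_le N τ fun a ha hfix => ?_
    have h1 := hkum τ hτ a ha hfix
    have h2 : ‖τ a - a‖ ^ p ≤ B ^ p := by
      rw [hBp, hCp, le_div_iff₀ hδ0, mul_comm]
      exact h1
    exact (pow_le_pow_iff_left₀ (norm_nonneg _) hB0 hp0).mp h2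
  -- Herbrand
  obtain ⟨ν₀, hν₀, hherb⟩ := herbrand_rel H N hNH σ₀
  set σ₁ : L ≃ₐ[ℚ_[p]] L := σ₀ * ν₀ with hσ₁
  set R : ℝ := ∏ τ : H, max (depth p L σ₁) (depth p L (τ : L ≃ₐ[ℚ_[p]] L)) with hR
  have hR0 : 0 ≤ R := Finset.prod_nonneg fun τ _ => (depth_nonneg L _).trans (le_max_left _ _)
  have hRle : R ≤ Cp := by
    have h1 : R ^ Fintype.card N ≤ B ^ Fintype.card H := by
      refine hherb.trans ?_
      calc ∏ τ : H, max (depthOn L N σ₀) (depthOn L N (τ : L ≃ₐ[ℚ_[p]] L))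
          ≤ ∏ _τ : H, B :=
            Finset.prod_le_prod (fun τ _ => (depthOn_nonneg _ _).trans (le_max_left _ _))
              (fun τ _ => max_le (hdB σ₀ hσ₀H) (hdB τ τ.2))
        _ = B ^ Fintype.card H := by rw [Finset.prod_const, Finset.card_univ]
    have h2 : B ^ Fintype.card H ≤ Cp ^ Fintype.card N := by
      rw [← hBp, ← pow_mul]
      exact pow_le_pow_of_le_one hB0 hB1 hcard
    have hN0 : Fintype.card N ≠ 0 := Fintype.card_ne_zero
    exact (pow_le_pow_iff_left₀ hR0 hCp0 hN0).mp (h1.trans h2)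
  have hσ₁α : σ₁ α = σ₀ α := by
    rw [hσ₁, AlgEquiv.mul_apply, ((hNmem ν₀).mp hν₀).2]
  have hσ₁ne : σ₁ ≠ 1 := by
    intro h
    apply hσ₀α
    rw [← hσ₁α, h]; rfl
  have hσ₁d : depth p L σ₁ < 1 := by
    by_contra hcon
    have hd1 : depth p L σ₁ = 1 := le_antisymm (depth_le_one L σ₁) (not_lt.mp hcon)
    have : R = 1 := by
      rw [hR]
      refine Finset.prod_eq_one fun τ _ => ?_
      rw [hd1]
      exact max_eq_left (depth_le_one L _)
    rw [this] at hRle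
    exact absurd hCp1 (not_lt.mpr hRle)
  -- the elements outside `H`
  have hout := prod_not_mem_le hNL H hσ₁d (c := π') (fun τ hτ => hHfix τ hτ _ hπ'K) hπ'1
  set Q : ℝ := ∏ τ ∈ Finset.univ.filter (fun τ : L ≃ₐ[ℚ_[p]] L => τ ∉ H),
      max (depth p L σ₁) (depth p L τ) with hQ
  have hQ0 : 0 ≤ Q := Finset.prod_nonneg fun τ _ => (depth_nonneg L _).trans (le_max_left _ _)
  -- the total product
  have hb := hbdd σ₁ hσ₁ne
  have htot : (∏ τ : L ≃ₐ[ℚ_[p]] L, max (depth p L σ₁) (depth p L τ)) = R * Q := by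
    rw [← Finset.prod_filter_mul_prod_filter_not Finset.univ (fun τ : L ≃ₐ[ℚ_[p]] L => τ ∈ H)]
    congr 1
    rw [hR]
    exact Finset.prod_subtype (Finset.univ.filter (fun τ : L ≃ₐ[ℚ_[p]] L => τ ∈ H))
      (fun τ => by simp) (fun τ => max (depth p L σ₁) (depth p L τ))
  have hTle : R * Q ≤ θ ^ p * (p : ℝ)⁻¹ / δ := by
    calc R * Q ≤ Cp * Q := mul_le_mul_of_nonneg_right hRle hQ0
      _ = θ ^ p * (Q * ‖π'‖) / δ := by rw [hCp]; ring
      _ ≤ θ ^ p * (p : ℝ)⁻¹ / δ := by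
          refine div_le_div_of_nonneg_right ?_ hδ0.le
          exact mul_le_mul_of_nonneg_left hout (pow_nonneg hθ0 _)
  have hfinal : (θ ^ p * (p : ℝ)⁻¹ / δ) ^ (p - 1) < ((p : ℝ)⁻¹) ^ p := by
    have e : (θ ^ p * (p : ℝ)⁻¹ / δ) ^ (p - 1) = ((p : ℝ)⁻¹) ^ p * ((p : ℝ)⁻¹ / δ) ^ (p - 1) := by
      have e1 : (θ ^ p) ^ (p - 1) = (θ ^ (p - 1)) ^ p := by
        rw [← pow_mul, ← pow_mul, mul_comm]
      rw [mul_div_assoc, mul_pow, e1, hθp]
    rw [e]
    have hlt : (p : ℝ)⁻¹ / δ < 1 := (div_lt_one hδ0).mpr hδ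
    have hp1 : p - 1 ≠ 0 := by have := hp.two_le; omega
    have h2 : ((p : ℝ)⁻¹ / δ) ^ (p - 1) < 1 :=
      pow_lt_one₀ (div_nonneg hpinv.le hδ0.le) hlt hp1
    calc ((p : ℝ)⁻¹) ^ p * ((p : ℝ)⁻¹ / δ) ^ (p - 1) < ((p : ℝ)⁻¹) ^ p * 1 :=
          mul_lt_mul_of_pos_left h2 (pow_pos hpinv _)
      _ = ((p : ℝ)⁻¹) ^ p := mul_one _
  have hRQ0 : 0 ≤ R * Q := mul_nonneg hR0 hQ0
  have hchain : ((p : ℝ)⁻¹) ^ p ≤ (R * Q) ^ (p - 1) := by
    rw [← htot]
    convert hb using 2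
  exact absurd (hchain.trans (pow_le_pow_left₀ hRQ0 hTle _)) (not_le.mpr hfinal)


/-- `‖a + b‖ = ‖a‖` if `‖b‖ < ‖a‖`. -/
theorem norm_add_eq_of_lt {a b : L} (h : ‖b‖ < ‖a‖) : ‖a + b‖ = ‖a‖ := by
  rw [IsUltrametricDist.norm_add_eq_max_of_norm_ne_norm (ne_of_gt h)]
  exact max_eq_left h.le

/-- **The descent step.**  If `p⁻¹ < ‖a - 1‖ ≤ 1`, then `‖a - 1‖` can be improved by a `p`-th
power of `K'`. -/
theorem exists_improve (hNL : Normal ℚ_[p] L) (hbdd : IsBddField p L)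
    (KL : IntermediateField ℚ_[p] L)
    {ζ : L} (hζK : ζ ∈ KL) (hζ1 : ζ ≠ 1) (hζp : ζ ^ p = 1)
    {π' : L} (hπ'K : π' ∈ KL) (hπ'0 : 0 < ‖π'‖) (hπ'1 : ‖π'‖ < 1)
    (hϖ : ∀ c ∈ KL, ‖c‖ < 1 → ‖c‖ ≤ ‖π'‖)
    {q : ℕ} (hq : p ∣ q) (hres : ∀ c ∈ KL, ‖c‖ ≤ 1 → ‖c ^ q - c‖ < 1)
    {a α : L} (haK : a ∈ KL) (ha0 : a ≠ 0) (hα : α ^ p = a)
    (hδ : (p : ℝ)⁻¹ < ‖a - 1‖) (hδ1 : ‖a - 1‖ ≤ 1) :
    ∃ b ∈ KL, b ≠ 0 ∧ ‖a * b ^ p - 1‖ < ‖a - 1‖ := by
  classical
  have hp : p.Prime := Fact.out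
  have hp0 : p ≠ 0 := hp.ne_zero
  have hpinv : (0 : ℝ) < (p : ℝ)⁻¹ := inv_pos.mpr (by exact_mod_cast hp.pos)
  by_contra hcon
  have hcon' : ∀ b ∈ KL, b ≠ 0 → ‖a - 1‖ ≤ ‖a * b ^ p - 1‖ := by
    intro b hb hb0
    by_contra h
    exact hcon ⟨b, hb, hb0, not_le.mp h⟩
  set δ : ℝ := ‖a - 1‖ with hδdef
  have hδ0 : 0 < δ := hpinv.trans hδ
  have hα0 : α ≠ 0 := by
    intro h
    rw [h, zero_pow hp0] at hα
    exact ha0 hα.symm
  have ha1K : a - 1 ∈ KL := KL.sub_mem haK KL.one_mem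
  have ha10 : a - 1 ≠ 0 := norm_pos_iff.mp hδ0
  -- `p`-th roots in the residue field
  obtain ⟨k, hk⟩ := hq
  have hroot : ∀ u ∈ KL, ‖u‖ = 1 → ∃ w ∈ KL, ‖w‖ = 1 ∧ ‖w ^ p - u‖ < 1 := by
    intro u hu hu1
    refine ⟨u ^ k, pow_mem hu k, by rw [norm_pow, hu1, one_pow], ?_⟩
    rw [← pow_mul, mul_comm, ← hk]
    exact hres u hu hu1.le
  have hαpK : α ^ p ∈ KL := by rw [hα]; exact haK
  by_cases hcase : δ < 1
  · -- Case A
    have hanorm : ‖a‖ = 1 := by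
      have h1 : a = 1 + (a - 1) := by ring
      rw [h1, norm_add_eq_of_lt (by rw [norm_one]; exact hcase), norm_one]
    have hαnorm : ‖α‖ = 1 := by
      have : ‖α‖ ^ p = 1 := by rw [← norm_pow, hα, hanorm]
      exact (pow_eq_one_iff_of_nonneg (norm_nonneg _) hp0).mp this
    set y : L := α - 1 with hy
    have hαy : α = y + 1 := by rw [hy]; ring
    have hy1 : ‖y‖ ≤ 1 := by
      rw [hy, sub_eq_add_neg]
      refine (IsUltrametricDist.norm_add_le_max _ _).trans (max_le hαnorm.le ?_)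
      rw [norm_neg, norm_one]
    have hbin := norm_one_add_pow_sub_le hp hy1
    rw [norm_p_L, show (1 : L) + y = α by rw [hy]; ring, hα] at hbin
    have hypow : ‖y‖ ^ p = δ := by
      have h1 : y ^ p = (a - 1) + -(a - 1 - y ^ p) := by ring
      rw [← norm_pow, h1]
      refine norm_add_eq_of_lt ?_
      rw [norm_neg]
      calc ‖a - 1 - y ^ p‖ ≤ (p : ℝ)⁻¹ * ‖y‖ := hbin
        _ ≤ (p : ℝ)⁻¹ * 1 := mul_le_mul_of_nonneg_left hy1 hpinv.le
        _ = (p : ℝ)⁻¹ := mul_one _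
        _ < ‖a - 1‖ := hδ
    refine descent_false hNL hbdd KL hζK hζ1 hζp hπ'K hπ'0 hπ'1 hϖ hαy KL.one_mem hαpK hα0 hδ
      ⟨a - 1, ha1K, ha10, hypow.symm⟩ ?_ (by rw [hαnorm, one_pow, mul_one, hypow])
    rintro ⟨c, hcK, hc0, hcn⟩
    have hcp : ‖c‖ ^ p = δ := by rw [hcn, hypow]
    have hc1 : ‖c‖ < 1 := by
      by_contra h
      have : 1 ≤ ‖c‖ ^ p := one_le_pow₀ (not_lt.mp h)
      rw [hcp] at this
      exact absurd hcase (not_lt.mpr this)
    set u : L := -(a - 1) / c ^ p with hu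
    have huK : u ∈ KL := KL.div_mem (KL.neg_mem ha1K) (pow_mem hcK p)
    have hun : ‖u‖ = 1 := by
      rw [hu, norm_div, norm_neg, norm_pow, hcp]
      exact div_self hδ0.ne'
    obtain ⟨w, hwK, hwn, hwu⟩ := hroot u huK hun
    set b : L := 1 + w * c with hb
    have hwc : ‖w * c‖ = ‖c‖ := by rw [norm_mul, hwn, one_mul]
    have hbn : ‖b‖ = 1 := by
      rw [hb, norm_add_eq_of_lt (by rw [norm_one, hwc]; exact hc1), norm_one]
    have hb0 : b ≠ 0 := by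
      intro h; rw [h, norm_zero] at hbn; exact zero_ne_one hbn
    have hbK : b ∈ KL := KL.add_mem KL.one_mem (KL.mul_mem hwK hcK)
    have hbin2 := norm_one_add_pow_sub_le hp (z := w * c) (by rw [hwc]; exact hc1.le)
    rw [norm_p_L, hwc] at hbin2
    have hexp : a * b ^ p - 1 = c ^ p * (w ^ p - u) + (a - 1) * (w * c) ^ p
        + a * ((1 + w * c) ^ p - 1 - (w * c) ^ p) := by
      have hcp0 : c ^ p ≠ 0 := pow_ne_zero _ hc0
      rw [hb, hu]
      field_simp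
      ring
    have h1 : ‖c ^ p * (w ^ p - u)‖ < δ := by
      rw [norm_mul, norm_pow, hcp]
      calc δ * ‖w ^ p - u‖ < δ * 1 := mul_lt_mul_of_pos_left hwu hδ0
        _ = δ := mul_one _
    have h2 : ‖(a - 1) * (w * c) ^ p‖ < δ := by
      rw [norm_mul, norm_pow, hwc, hcp]
      calc δ * δ < δ * 1 := mul_lt_mul_of_pos_left hcase hδ0
        _ = δ := mul_one _
    have h3 : ‖a * ((1 + w * c) ^ p - 1 - (w * c) ^ p)‖ < δ := by
      rw [norm_mul, hanorm, one_mul]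
      calc ‖(1 + w * c) ^ p - 1 - (w * c) ^ p‖ ≤ (p : ℝ)⁻¹ * ‖c‖ := hbin2
        _ ≤ (p : ℝ)⁻¹ * 1 := mul_le_mul_of_nonneg_left hc1.le hpinv.le
        _ = (p : ℝ)⁻¹ := mul_one _
        _ < δ := hδ
    have hlt : ‖a * b ^ p - 1‖ < δ := by
      rw [hexp]
      refine (IsUltrametricDist.norm_add_le_max _ _).trans_lt (max_lt ?_ h3)
      exact (IsUltrametricDist.norm_add_le_max _ _).trans_lt (max_lt h1 h2)
    exact absurd (hcon' b hbK hb0) (not_le.mpr hlt)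
  · -- Case B
    have hδeq : δ = 1 := le_antisymm hδ1 (not_lt.mp hcase)
    have hαnorm : ‖α‖ ^ p = ‖a‖ := by rw [← norm_pow, hα]
    refine descent_false hNL hbdd KL hζK hζ1 hζp hπ'K hπ'0 hπ'1 hϖ (y := α) (ε := 0)
      (by rw [add_zero]) KL.zero_mem hαpK hα0 hδ ⟨a, haK, ha0, hαnorm.symm⟩ ?_
      (by rw [hδeq, one_mul])
    rintro ⟨c, hcK, hc0, hcn⟩
    have hcp : ‖c‖ ^ p = ‖a‖ := by rw [hcn, hαnorm]
    set u : L := a / c ^ p with hu
    have huK : u ∈ KL := KL.div_mem haK (pow_mem hcK p)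
    have hun : ‖u‖ = 1 := by
      rw [hu, norm_div, norm_pow, hcp]
      exact div_self (norm_ne_zero_iff.mpr ha0)
    obtain ⟨w, hwK, hwn, hwu⟩ := hroot u huK hun
    have hw0 : w ≠ 0 := by
      intro h; rw [h, norm_zero] at hwn; exact zero_ne_one hwn
    set b : L := (c * w)⁻¹ with hb
    have hbK : b ∈ KL := KL.inv_mem (KL.mul_mem hcK hwK)
    have hb0 : b ≠ 0 := inv_ne_zero (mul_ne_zero hc0 hw0)
    have hexp : a * b ^ p - 1 = (u - w ^ p) / w ^ p := by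
      have hcp0 : c ^ p ≠ 0 := pow_ne_zero _ hc0
      have hwp0 : w ^ p ≠ 0 := pow_ne_zero _ hw0
      rw [hb, hu, inv_pow, mul_pow]
      field_simp
    have hlt : ‖a * b ^ p - 1‖ < δ := by
      rw [hexp, norm_div, norm_pow, hwn, one_pow, div_one, hδeq, ← norm_neg, neg_sub]
      exact hwu
    exact absurd (hcon' b hbK hb0) (not_le.mpr hlt)

/-- **KUMBDD**: `Stmt_KUMBDD` of `Fermat/Agent/S56/FL/Local.lean`. -/
theorem stmt_KUMBDD : Stmt_KUMBDD := by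
  intro p _ _ L K' _ _ hNL _ hKL hbdd _ hζ a haK ha0 hα
  classical
  obtain ⟨ζ, hζK, hζ1, hζp⟩ := hζ
  obtain ⟨α, hαL, hα⟩ := hα
  have hp : p.Prime := Fact.out
  have hp0 : p ≠ 0 := hp.ne_zero
  have hpinv : (0 : ℝ) < (p : ℝ)⁻¹ := inv_pos.mpr (by exact_mod_cast hp.pos)
  set KL : IntermediateField ℚ_[p] L := IntermediateField.restrict hKL with hKLdef
  have hmem : ∀ x : L, x ∈ KL ↔ (x : PadicAlgCl p) ∈ K' := fun x =>
    IntermediateField.mem_restrict hKL x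
  -- uniformizer and residue field of `K'`
  obtain ⟨π, hπ0, hπ1, hπmax⟩ := exists_uniformizer (L := K')
  obtain ⟨-, q, -, -, hq1, hpowq, -⟩ := exists_residue_generator K'
  have hpq : p ∣ q := by
    by_contra h
    rw [norm_natCast_eq_one h] at hq1
    exact lt_irrefl _ hq1
  set π' : L := ⟨(π : PadicAlgCl p), hKL π.2⟩ with hπ'
  have hπ'K : π' ∈ KL := (hmem π').mpr π.2
  have hπ'0 : 0 < ‖π'‖ := hπ0
  have hπ'1 : ‖π'‖ < 1 := hπ1
  have hϖ : ∀ c ∈ KL, ‖c‖ < 1 → ‖c‖ ≤ ‖π'‖ := fun c hc hc1 =>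
    hπmax ⟨(c : PadicAlgCl p), (hmem c).mp hc⟩ hc1
  have hres : ∀ c ∈ KL, ‖c‖ ≤ 1 → ‖c ^ q - c‖ < 1 := fun c hc hc1 =>
    hpowq ⟨(c : PadicAlgCl p), (hmem c).mp hc⟩ hc1
  obtain ⟨e, -, he⟩ := exists_ramIdx (L := K') hπ0 hπ1 hπmax
  have he' : ‖π'‖ ^ e = (p : ℝ)⁻¹ := he
  -- the data in `L`
  set aL : L := ⟨a, hKL haK⟩ with haL
  set αL : L := ⟨α, hαL⟩ with hαLdef
  set ζL : L := ⟨ζ, hKL hζK⟩ with hζL
  have haLK : aL ∈ KL := (hmem aL).mpr haK
  have haL0 : aL ≠ 0 := fun h => ha0 (congrArg (fun t : L => (t : PadicAlgCl p)) h)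
  have hαLp : αL ^ p = aL := Subtype.ext (by simpa using hα)
  have hζLK : ζL ∈ KL := (hmem ζL).mpr hζK
  have hζL1 : ζL ≠ 1 := fun h => hζ1 (congrArg (fun t : L => (t : PadicAlgCl p)) h)
  have hζLp : ζL ^ p = 1 := Subtype.ext (by simpa using hζp)
  -- the induction
  have key : ∀ n : ℕ, ∃ b ∈ KL, b ≠ 0 ∧ ‖aL * b ^ p - 1‖ ≤ max ((p : ℝ)⁻¹) (‖π'‖ ^ n) := by
    intro n
    induction n with
    | zero =>
      rw [pow_zero]
      have hmax : max ((p : ℝ)⁻¹) 1 = 1 :=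
        max_eq_right (inv_le_one_of_one_le₀ (by exact_mod_cast hp.one_lt.le))
      rw [hmax]
      by_cases h1 : ‖aL‖ ≤ 1
      · refine ⟨1, KL.one_mem, one_ne_zero, ?_⟩
        rw [one_pow, mul_one, sub_eq_add_neg]
        refine (IsUltrametricDist.norm_add_le_max _ _).trans (max_le h1 ?_)
        rw [norm_neg, norm_one]
      · refine ⟨aL⁻¹, KL.inv_mem haLK, inv_ne_zero haL0, ?_⟩
        rw [sub_eq_add_neg]
        refine (IsUltrametricDist.norm_add_le_max _ _).trans (max_le ?_ ?_)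
        · have h2 : 1 ≤ ‖aL‖ := (not_le.mp h1).le
          have h3 : aL * aL⁻¹ ^ p = (aL⁻¹) ^ (p - 1) := by
            have e1 : aL⁻¹ ^ p = aL⁻¹ ^ (p - 1) * aL⁻¹ := by
              rw [← pow_succ]; congr 1; have := hp.two_le; omega
            rw [e1]
            field_simp
          rw [h3, norm_pow, norm_inv]
          exact pow_le_one₀ (inv_nonneg.mpr (norm_nonneg _)) (inv_le_one_of_one_le₀ h2)
        · rw [norm_neg, norm_one]
    | succ n ih =>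
      obtain ⟨b, hbK, hb0, hb⟩ := ih
      by_cases hdone : ‖aL * b ^ p - 1‖ ≤ (p : ℝ)⁻¹
      · exact ⟨b, hbK, hb0, hdone.trans (le_max_left _ _)⟩
      have hδ : (p : ℝ)⁻¹ < ‖aL * b ^ p - 1‖ := not_le.mp hdone
      have hδn : ‖aL * b ^ p - 1‖ ≤ ‖π'‖ ^ n := by
        rcases le_max_iff.mp hb with h | h
        · exact absurd h hdone
        · exact h
      have hδ1 : ‖aL * b ^ p - 1‖ ≤ 1 := hδn.trans (pow_le_one₀ hπ'0.le hπ'1.le)
      have ha1K : aL * b ^ p ∈ KL := KL.mul_mem haLK (pow_mem hbK p)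
      have ha10 : aL * b ^ p ≠ 0 := mul_ne_zero haL0 (pow_ne_zero _ hb0)
      have hα1 : (αL * b) ^ p = aL * b ^ p := by rw [mul_pow, hαLp]
      obtain ⟨b', hb'K, hb'0, hlt⟩ := exists_improve hNL hbdd KL hζLK hζL1 hζLp hπ'K hπ'0 hπ'1
        hϖ hpq hres ha1K ha10 hα1 hδ hδ1
      refine ⟨b * b', KL.mul_mem hbK hb'K, mul_ne_zero hb0 hb'0, ?_⟩
      have heq : aL * (b * b') ^ p - 1 = aL * b ^ p * b' ^ p - 1 := by ring
      rw [heq]
      refine le_trans ?_ (le_max_right _ _)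
      set c : L := aL * b ^ p * b' ^ p - 1 with hc
      have hcK : c ∈ KL := KL.sub_mem (KL.mul_mem ha1K (pow_mem hb'K p)) KL.one_mem
      have hclt : ‖c‖ < ‖π'‖ ^ n := hlt.trans_le hδn
      have hπn0 : π' ^ n ≠ 0 := pow_ne_zero _ (norm_pos_iff.mp hπ'0)
      have h1 : ‖c / π' ^ n‖ < 1 := by
        rw [norm_div, norm_pow, div_lt_one (pow_pos hπ'0 _)]
        exact hclt
      have h2 := hϖ _ (KL.div_mem hcK (pow_mem hπ'K n)) h1
      rw [norm_div, norm_pow, div_le_iff₀ (pow_pos hπ'0 _)] at h2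
      rw [pow_succ']
      exact h2
  obtain ⟨b, hbK, hb0, hb⟩ := key e
  rw [he', max_self] at hb
  refine ⟨(b : PadicAlgCl p), (hmem b).mp hbK, fun h => hb0 (Subtype.ext h), ?_⟩
  exact hb

end Fermat.Agent.S56.FL.H59

end

end
-- ==== END Fermat.Agent.S56.FL.H59_KumMain

-- ==== BEGIN Fermat.Agent.S56.FL.LF.H15_Lev
section

set_option autoImplicit false
set_option linter.style.haveILetI false
set_option linter.unusedSectionVars false

/-!
# LOC-p-FL, package UNITS / CC2 (helper15): the unit filtration of a finite extension of `ℚ_p`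

`K ⊆ K̄` finite over `ℚ_p` containing a primitive `p`-th root of unity `ζ`, `ϖ` a uniformizer,
`r = ‖ϖ‖`, `‖ζ - 1‖ = r^{e₀}` (so `r^{(p-1) e₀} = p⁻¹`).  Everything is stated in `K̄` with
membership in `K`.

* `LevCtx K ϖ ζ e₀`    : the data.
* `LevCtx.lev1`        : `p ∤ i < p e₀`, `‖b^p - 1‖ ≤ r^i` ⟹ `‖b^p - 1‖ < r^i`.
* `LevCtx.lev3`        : `p ∣ i`, `0 < i < p e₀`, `‖a - 1‖ ≤ r^i` ⟹ `‖a b^p - 1‖ < r^i` for a `b ∈ Kˣ`.
* `LevCtx.hens`        : `‖a - 1‖ ≤ r^{p e₀ + 1}` ⟹ `a` is a `p`-th power in `K`.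
-/

noncomputable section

namespace Fermat.Agent.S56.FL.H15

open scoped NNReal
open Fermat.Agent.S56.FL Module

variable {p : ℕ} [Fact p.Prime]

/-- Uniformizer and primitive `p`-th root of unity of `K`. -/
structure LevCtx (K : IntermediateField ℚ_[p] (PadicAlgCl p)) (ϖ ζ : PadicAlgCl p) (e₀ : ℕ) :
    Prop where
  hϖK : ϖ ∈ K
  hϖ0 : 0 < ‖ϖ‖
  hϖ1 : ‖ϖ‖ < 1
  hmax : ∀ a ∈ K, ‖a‖ < 1 → ‖a‖ ≤ ‖ϖ‖
  hζK : ζ ∈ K
  hζ1 : ζ ≠ 1
  hζp : ζ ^ p = 1
  he₀ : ‖ζ - 1‖ = ‖ϖ‖ ^ e₀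

namespace LevCtx

variable {K : IntermediateField ℚ_[p] (PadicAlgCl p)} {ϖ ζ : PadicAlgCl p} {e₀ : ℕ}

theorem ϖ_ne_zero (h : LevCtx K ϖ ζ e₀) : ϖ ≠ 0 := norm_pos_iff.mp h.hϖ0

theorem norm_pow_e (h : LevCtx K ϖ ζ e₀) : ‖ϖ‖ ^ ((p - 1) * e₀) = (p : ℝ)⁻¹ := by
  rw [mul_comm, pow_mul, ← h.he₀]
  exact norm_zeta_sub_one h.hζ1 h.hζp

theorem norm_p (h : LevCtx K ϖ ζ e₀) : ‖(p : PadicAlgCl p)‖ = ‖ϖ‖ ^ ((p - 1) * e₀) := by
  rw [h.norm_pow_e, norm_p_algCl]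

theorem e₀_pos (h : LevCtx K ϖ ζ e₀) : 0 < e₀ := by
  rcases Nat.eq_zero_or_pos e₀ with h0 | h0
  · exfalso
    have h1 := h.norm_pow_e
    rw [h0, mul_zero, pow_zero] at h1
    have hp1 : (p : ℝ)⁻¹ < 1 := inv_lt_one_of_one_lt₀ one_lt_p_real
    rw [← h1] at hp1
    exact lt_irrefl _ hp1
  · exact h0

theorem pow_le_pow (h : LevCtx K ϖ ζ e₀) {i j : ℕ} (hij : i ≤ j) : ‖ϖ‖ ^ j ≤ ‖ϖ‖ ^ i :=
  pow_le_pow_of_le_one h.hϖ0.le h.hϖ1.le hij

theorem pow_lt_pow (h : LevCtx K ϖ ζ e₀) {i j : ℕ} (hij : i < j) : ‖ϖ‖ ^ j < ‖ϖ‖ ^ i :=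
  (pow_lt_pow_iff_right_of_lt_one₀ h.hϖ0 h.hϖ1).mpr hij

theorem le_of_pow_le (h : LevCtx K ϖ ζ e₀) {i j : ℕ} (hij : ‖ϖ‖ ^ j ≤ ‖ϖ‖ ^ i) : i ≤ j :=
  (pow_le_pow_iff_right_of_lt_one₀ h.hϖ0 h.hϖ1).mp hij

theorem lt_of_pow_lt (h : LevCtx K ϖ ζ e₀) {i j : ℕ} (hij : ‖ϖ‖ ^ j < ‖ϖ‖ ^ i) : i < j :=
  (pow_lt_pow_iff_right_of_lt_one₀ h.hϖ0 h.hϖ1).mp hij

theorem pow_pos' (h : LevCtx K ϖ ζ e₀) (i : ℕ) : 0 < ‖ϖ‖ ^ i := pow_pos h.hϖ0 i

theorem pow_le_one' (h : LevCtx K ϖ ζ e₀) (i : ℕ) : ‖ϖ‖ ^ i ≤ 1 :=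
  pow_le_one₀ h.hϖ0.le h.hϖ1.le

theorem pow_lt_one' (h : LevCtx K ϖ ζ e₀) {i : ℕ} (hi : 0 < i) : ‖ϖ‖ ^ i < 1 :=
  pow_lt_one₀ h.hϖ0.le h.hϖ1 hi.ne'

/-- The value group of `K` is generated by `‖ϖ‖`. -/
theorem exists_norm_eq (h : LevCtx K ϖ ζ e₀) {a : PadicAlgCl p} (haK : a ∈ K) (ha0 : a ≠ 0)
    (ha1 : ‖a‖ ≤ 1) : ∃ j : ℕ, ‖a‖ = ‖ϖ‖ ^ j := by
  have hmax : ∀ b : K, ‖b‖ < 1 → ‖b‖ ≤ ‖(⟨ϖ, h.hϖK⟩ : K)‖ := fun b hb => h.hmax b b.2 hb
  have ha0' : (⟨a, haK⟩ : K) ≠ 0 := fun h0 => ha0 (congrArg Subtype.val h0)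
  exact exists_norm_eq_pow K (π := ⟨ϖ, h.hϖK⟩) h.hϖ0 h.hϖ1 hmax ⟨a, haK⟩ ha0' ha1

/-- Discreteness of the valuation. -/
theorem le_pow_succ (h : LevCtx K ϖ ζ e₀) {a : PadicAlgCl p} (haK : a ∈ K) {i : ℕ}
    (ha : ‖a‖ < ‖ϖ‖ ^ i) : ‖a‖ ≤ ‖ϖ‖ ^ (i + 1) := by
  rcases eq_or_ne a 0 with rfl | ha0
  · rw [norm_zero]; exact (h.pow_pos' _).le
  have ha1 : ‖a‖ ≤ 1 := ha.le.trans (h.pow_le_one' i)
  obtain ⟨j, hj⟩ := h.exists_norm_eq haK ha0 ha1
  rw [hj] at ha ⊢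
  exact h.pow_le_pow (h.lt_of_pow_lt ha)

/-- An element of `K` of norm `‖ϖ‖^i` is a unit times `ϖ^i`. -/
theorem exists_unit_mul (h : LevCtx K ϖ ζ e₀) {a : PadicAlgCl p} (haK : a ∈ K) {i : ℕ}
    (ha : ‖a‖ ≤ ‖ϖ‖ ^ i) : ∃ u ∈ K, ‖u‖ ≤ 1 ∧ a = u * ϖ ^ i ∧ (‖a‖ = ‖ϖ‖ ^ i → ‖u‖ = 1) := by
  have hϖi : ϖ ^ i ≠ 0 := pow_ne_zero _ h.ϖ_ne_zero
  refine ⟨a / ϖ ^ i, K.div_mem haK (pow_mem h.hϖK i), ?_, ?_, ?_⟩
  · rw [norm_div, norm_pow, div_le_one (h.pow_pos' i)]; exact ha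
  · field_simp
  · intro h1
    rw [norm_div, norm_pow, h1, div_self (h.pow_pos' i).ne']

/-- `‖(1+y)^p - 1 - y^p‖ ≤ r^{(p-1)e₀} ‖y‖`. -/
theorem norm_binom_le (h : LevCtx K ϖ ζ e₀) {y : PadicAlgCl p} (hy : ‖y‖ ≤ 1) :
    ‖(1 + y) ^ p - 1 - y ^ p‖ ≤ ‖ϖ‖ ^ ((p - 1) * e₀) * ‖y‖ := by
  rw [← h.norm_p]
  exact H59.norm_one_add_pow_sub_le (Fact.out : p.Prime) hy

/-- **LEV-1.** For `p ∤ i < p e₀`, a `p`-th power of `K` in `U^{(i)}` lies in `U^{(i+1)}`. -/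
theorem lev1 (h : LevCtx K ϖ ζ e₀) {b : PadicAlgCl p} (hbK : b ∈ K) {i : ℕ} (hpi : ¬ p ∣ i)
    (hi : i < p * e₀) (hb : ‖b ^ p - 1‖ ≤ ‖ϖ‖ ^ i) : ‖b ^ p - 1‖ < ‖ϖ‖ ^ i := by
  have hp : p.Prime := Fact.out
  have hp1 : 0 < p - 1 := by have := hp.two_le; omega
  have hi0 : 0 < i := by
    rcases Nat.eq_zero_or_pos i with h0 | h0
    · exact absurd (h0 ▸ dvd_zero p) hpi
    · exact h0
  have hb1 : ‖b ^ p - 1‖ < 1 := hb.trans_lt (h.pow_lt_one' hi0)
  have hy1 : ‖b - 1‖ < 1 := H38.norm_sub_one_lt_of_pow hb1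
  set y : PadicAlgCl p := b - 1 with hy
  have hbx : b = 1 + y := by rw [hy]; ring
  have hyK : y ∈ K := K.sub_mem hbK K.one_mem
  rcases eq_or_ne y 0 with hy0 | hy0
  · rw [hbx, hy0, add_zero, one_pow, sub_self, norm_zero]; exact h.pow_pos' i
  obtain ⟨j, hj⟩ := h.exists_norm_eq hyK hy0 hy1.le
  have hD := h.norm_binom_le hy1.le
  rw [hj, ← pow_add] at hD
  have hsplit : b ^ p - 1 = y ^ p + ((1 + y) ^ p - 1 - y ^ p) := by rw [hbx]; ring
  have hyp : ‖y ^ p‖ = ‖ϖ‖ ^ (p * j) := by rw [norm_pow, hj, ← pow_mul, mul_comm]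
  have hpj : p * j = (p - 1) * j + j := by
    have : p = (p - 1) + 1 := by omega
    nth_rewrite 1 [this]; ring
  have hpe : p * e₀ = (p - 1) * e₀ + e₀ := by
    have : p = (p - 1) + 1 := by omega
    nth_rewrite 1 [this]; ring
  by_cases hc : (p - 1) * j < (p - 1) * e₀
  · -- the `p`-th power dominates
    have hlt : ‖(1 + y) ^ p - 1 - y ^ p‖ < ‖y ^ p‖ := by
      rw [hyp]
      refine hD.trans_lt (h.pow_lt_pow ?_)
      omega
    have heq : ‖b ^ p - 1‖ = ‖ϖ‖ ^ (p * j) := by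
      rw [hsplit, norm_add_eq_left hlt, hyp]
    rw [heq] at hb ⊢
    have h1 : i ≤ p * j := h.le_of_pow_le hb
    have h2 : i ≠ p * j := fun h3 => hpi (h3 ▸ dvd_mul_right p j)
    exact h.pow_lt_pow (lt_of_le_of_ne h1 h2)
  · have hje : e₀ ≤ j := Nat.le_of_mul_le_mul_left (not_lt.mp hc) hp1
    have hle : ‖b ^ p - 1‖ ≤ ‖ϖ‖ ^ ((p - 1) * e₀ + j) := by
      rw [hsplit]
      refine (IsUltrametricDist.norm_add_le_max _ _).trans (max_le ?_ hD)
      rw [hyp]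
      exact h.pow_le_pow (by have := not_lt.mp hc; omega)
    exact hle.trans_lt (h.pow_lt_pow (by omega))

/-- `p`-th roots in the residue field of `K`. -/
theorem exists_pth_root [FiniteDimensional ℚ_[p] K] (u : PadicAlgCl p) (huK : u ∈ K)
    (hu : ‖u‖ ≤ 1) : ∃ v ∈ K, ‖v‖ ≤ 1 ∧ ‖v ^ p - u‖ < 1 := by
  obtain ⟨-, q, -, hq0, hq1, hpowq, -⟩ := exists_residue_generator K
  have hpq : p ∣ q := by
    by_contra hn
    rw [norm_natCast_eq_one hn] at hq1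
    exact lt_irrefl _ hq1
  obtain ⟨m, rfl⟩ := hpq
  refine ⟨u ^ m, pow_mem huK m, ?_, ?_⟩
  · rw [norm_pow]; exact pow_le_one₀ (norm_nonneg _) hu
  · have := hpowq ⟨u, huK⟩ hu
    rw [← pow_mul, mul_comm]
    exact this

/-- **LEV-3.** For `p ∣ i`, `0 < i < p e₀`, an element of `U^{(i)}` is congruent to a `p`-th power
modulo `U^{(i+1)}`. -/
theorem lev3 [FiniteDimensional ℚ_[p] K] (h : LevCtx K ϖ ζ e₀) {a : PadicAlgCl p} (haK : a ∈ K)
    {i : ℕ} (hpi : p ∣ i) (hi0 : 0 < i) (hi : i < p * e₀) (ha : ‖a - 1‖ ≤ ‖ϖ‖ ^ i) :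
    ∃ b ∈ K, b ≠ 0 ∧ ‖a * b ^ p - 1‖ < ‖ϖ‖ ^ i := by
  have hp : p.Prime := Fact.out
  have hp1 : 0 < p - 1 := by have := hp.two_le; omega
  obtain ⟨j, rfl⟩ := hpi
  have hj0 : 0 < j := Nat.pos_of_mul_pos_right hi0 |> fun h => by
    rcases Nat.eq_zero_or_pos j with h0 | h0
    · rw [h0, mul_zero] at hi0; exact absurd hi0 (lt_irrefl _)
    · exact h0
  have hje : j < e₀ := Nat.lt_of_mul_lt_mul_left hi
  obtain ⟨u, huK, hu1, hau, -⟩ := h.exists_unit_mul (K.sub_mem haK K.one_mem) ha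
  obtain ⟨v, hvK, hv1, hvu⟩ := exists_pth_root (-u) (K.neg_mem huK) (by rwa [norm_neg])
  set z : PadicAlgCl p := v * ϖ ^ j with hz
  have hzK : z ∈ K := K.mul_mem hvK (pow_mem h.hϖK j)
  have hzn : ‖z‖ ≤ ‖ϖ‖ ^ j := by
    rw [hz, norm_mul, norm_pow]
    calc ‖v‖ * ‖ϖ‖ ^ j ≤ 1 * ‖ϖ‖ ^ j := mul_le_mul_of_nonneg_right hv1 (h.pow_pos' j).le
      _ = ‖ϖ‖ ^ j := one_mul _
  have hz1 : ‖z‖ < 1 := hzn.trans_lt (h.pow_lt_one' hj0)
  set b : PadicAlgCl p := 1 + z with hb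
  have hbK : b ∈ K := K.add_mem K.one_mem hzK
  have hbn : ‖b‖ = 1 := by
    rw [hb, norm_add_eq_left (by rw [norm_one]; exact hz1), norm_one]
  have hb0 : b ≠ 0 := by
    intro h0; rw [h0, norm_zero] at hbn; exact zero_ne_one hbn
  set D : PadicAlgCl p := (1 + z) ^ p - 1 - z ^ p with hD
  have hDn : ‖D‖ < ‖ϖ‖ ^ (p * j) := by
    have h1 := h.norm_binom_le hz1.le
    have h2 : ‖ϖ‖ ^ ((p - 1) * e₀) * ‖z‖ ≤ ‖ϖ‖ ^ ((p - 1) * e₀ + j) := by
      rw [pow_add]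
      exact mul_le_mul_of_nonneg_left hzn (h.pow_pos' _).le
    refine (h1.trans h2).trans_lt (h.pow_lt_pow ?_)
    have h3 : (p - 1) * j < (p - 1) * e₀ := Nat.mul_lt_mul_of_pos_left hje hp1
    have hpj : p * j = (p - 1) * j + j := by
      have : p = (p - 1) + 1 := by omega
      nth_rewrite 1 [this]; ring
    omega
  have hzp : z ^ p = v ^ p * ϖ ^ (p * j) := by rw [hz, mul_pow, ← pow_mul, mul_comm j p]
  have hbp : b ^ p - 1 = v ^ p * ϖ ^ (p * j) + D := by rw [hD, ← hzp]; ring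
  have hbp1 : ‖b ^ p - 1‖ < 1 := by
    rw [hbp]
    refine (IsUltrametricDist.norm_add_le_max _ _).trans_lt (max_lt ?_ ?_)
    · rw [norm_mul, norm_pow, norm_pow]
      calc ‖v‖ ^ p * ‖ϖ‖ ^ (p * j) ≤ 1 * ‖ϖ‖ ^ (p * j) :=
            mul_le_mul_of_nonneg_right (pow_le_one₀ (norm_nonneg _) hv1) (h.pow_pos' _).le
        _ = ‖ϖ‖ ^ (p * j) := one_mul _
        _ < 1 := h.pow_lt_one' hi0
    · exact hDn.trans (h.pow_lt_one' hi0)
  refine ⟨b, hbK, hb0, ?_⟩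
  have hexp : a * b ^ p - 1 = (v ^ p - -u) * ϖ ^ (p * j) + D + (a - 1) * (b ^ p - 1) := by
    have h1 : (a - 1) + (b ^ p - 1) = (v ^ p - -u) * ϖ ^ (p * j) + D := by
      rw [hau, hbp]; ring
    rw [← h1]; ring
  rw [hexp]
  refine (IsUltrametricDist.norm_add_le_max _ _).trans_lt (max_lt
    ((IsUltrametricDist.norm_add_le_max _ _).trans_lt (max_lt ?_ hDn)) ?_)
  · rw [norm_mul, norm_pow]
    calc ‖v ^ p - -u‖ * ‖ϖ‖ ^ (p * j) < 1 * ‖ϖ‖ ^ (p * j) :=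
          mul_lt_mul_of_pos_right hvu (h.pow_pos' _)
      _ = ‖ϖ‖ ^ (p * j) := one_mul _
  · rw [norm_mul]
    calc ‖a - 1‖ * ‖b ^ p - 1‖ ≤ ‖ϖ‖ ^ (p * j) * ‖b ^ p - 1‖ :=
          mul_le_mul_of_nonneg_right ha (norm_nonneg _)
      _ < ‖ϖ‖ ^ (p * j) * 1 := mul_lt_mul_of_pos_left hbp1 (h.pow_pos' _)
      _ = ‖ϖ‖ ^ (p * j) := mul_one _

/-- **HENS.** `U^{(p e₀ + 1)} ⊆ K^{×p}`. -/
theorem hens [FiniteDimensional ℚ_[p] K] (h : LevCtx K ϖ ζ e₀) {a : PadicAlgCl p} (haK : a ∈ K)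
    (ha : ‖a - 1‖ ≤ ‖ϖ‖ ^ (p * e₀ + 1)) : ∃ b ∈ K, b ^ p = a := by
  have hp : p.Prime := Fact.out
  have hp1 : 0 < p - 1 := by have := hp.two_le; omega
  set c : ℝ≥0 := ⟨‖ϖ‖ ^ (p * e₀ + 1), (h.pow_pos' _).le⟩ with hc
  have hcval : (c : ℝ) = ‖ϖ‖ ^ (p * e₀ + 1) := rfl
  have hcp : c ^ (p - 1) < ((p : ℝ≥0)⁻¹) ^ p := by
    rw [← NNReal.coe_lt_coe]
    push_cast
    rw [hcval, ← h.norm_pow_e, ← pow_mul, ← pow_mul]
    refine h.pow_lt_pow ?_
    have hpe : p * e₀ = (p - 1) * e₀ + e₀ := by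
      have : p = (p - 1) + 1 := by omega
      nth_rewrite 1 [this]; ring
    have h1 : (p * e₀ + 1) * (p - 1) = (p - 1) * e₀ * p + (p - 1) := by ring
    omega
  have hy1 : ‖a - 1‖ ≤ 1 := ha.trans (h.pow_le_one' _)
  set y : intRing p K := ⟨a - 1, K.sub_mem haK K.one_mem, hy1⟩ with hy
  have hyI : y ∈ Ideal.map (algebraMap (intRing p K) (intRing p K)) (ballIdeal p K c) := by
    rw [Algebra.algebraMap_self, Ideal.map_id]
    exact ha
  obtain ⟨z, -, hz⟩ := H50.stmt_LIFT_b p K (intRing p K) c hcp y hyI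
  refine ⟨((1 + z : intRing p K) : PadicAlgCl p), (1 + z : intRing p K).2.1, ?_⟩
  have h1 := congrArg (fun t : intRing p K => (t : PadicAlgCl p)) hz
  simp only [Subring.coe_pow, Subring.coe_add, Subring.coe_one] at h1
  rw [Subring.coe_add, Subring.coe_one, h1, hy]
  ring

end LevCtx

end Fermat.Agent.S56.FL.H15

end

end
-- ==== END Fermat.Agent.S56.FL.LF.H15_Lev

-- ==== BEGIN Fermat.Agent.S56.FL.LF.H59_LocTameRing
section

set_option autoImplicit false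
set_option linter.style.haveILetI false

/-!
# LOC-p-FL, LOCAL TAME (helper59), part 1: the ring of integers of a finite extension `L/ℚ_p`
is a discrete valuation ring with an action of `Gal(L/ℚ_p)`

* `isInvariantSubring_OL` : `OL L` is stable under `L ≃ₐ[ℚ_[p]] L`, which gives the
  `MulSemiringAction` on `OL L`.
* `isDVR_OL`              : `OL L` is a discrete valuation ring.
* `mem_inertia_iff`       : `(mL L).inertia Γ` is `depth < 1`.
* `mem_mL_pow_iff`        : `(mL L) ^ j` is `‖·‖ ≤ ‖π‖ ^ j`.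
-/

noncomputable section

namespace Fermat.Agent.S56.FL.H59

open scoped NNReal
open Fermat.Agent.S56.FL Fermat.Agent.S56.FL.H15 Module Polynomial

variable {p : ℕ} [Fact p.Prime]

variable (L : IntermediateField ℚ_[p] (PadicAlgCl p))

instance isInvariantSubring_OL : IsInvariantSubring (L ≃ₐ[ℚ_[p]] L) (OL L) where
  smul_mem σ x hx := by
    change ‖((σ x : L) : PadicAlgCl p)‖ ≤ 1
    rw [norm_algEquiv]
    exact hx

theorem coe_smul_OL (σ : L ≃ₐ[ℚ_[p]] L) (a : OL L) : ((σ • a : OL L) : L) = σ (a : L) := rfl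

instance faithfulSMul_OL : FaithfulSMul (L ≃ₐ[ℚ_[p]] L) (OL L) where
  eq_of_smul_eq_smul := by
    intro σ τ h
    apply AlgEquiv.ext
    intro a
    -- `a = b / p ^ n` with `b` integral
    have hp : p.Prime := Fact.out
    have hpn : ‖((p : L) : PadicAlgCl p)‖ < 1 := by
      have : ‖((p : L) : PadicAlgCl p)‖ = (p : ℝ)⁻¹ := by push_cast; exact norm_p_algCl
      rw [this]
      exact inv_lt_one_of_one_lt₀ one_lt_p_real
    have hp0 : (p : L) ≠ 0 := by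
      exact_mod_cast hp.ne_zero
    have hpp : 0 < ‖((p : L) : PadicAlgCl p)‖ := by
      rw [norm_pos_iff]
      exact_mod_cast hp.ne_zero
    obtain ⟨n, hn⟩ : ∃ n : ℕ, ‖((p : L) : PadicAlgCl p)‖ ^ n * ‖(a : PadicAlgCl p)‖ ≤ 1 := by
      rcases eq_or_ne a 0 with rfl | ha
      · exact ⟨0, by simp⟩
      have hapos : 0 < ‖(a : PadicAlgCl p)‖ := by
        rw [norm_pos_iff]
        exact_mod_cast ha
      obtain ⟨n, hn⟩ := exists_pow_lt_of_lt_one (inv_pos.mpr hapos) hpn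
      refine ⟨n, ?_⟩
      have := mul_le_mul_of_nonneg_right hn.le hapos.le
      rwa [inv_mul_cancel₀ hapos.ne'] at this
    have hb : (p : L) ^ n * a ∈ OL L := by
      change ‖(((p : L) ^ n * a : L) : PadicAlgCl p)‖ ≤ 1
      push_cast
      rw [norm_mul, norm_pow]
      have : ‖((p : L) : PadicAlgCl p)‖ = ‖(p : PadicAlgCl p)‖ := by push_cast; rfl
      rw [← this]
      exact hn
    have h1 := congrArg (fun b : OL L => (b : L)) (h ⟨(p : L) ^ n * a, hb⟩)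
    simp only [coe_smul_OL, map_mul, map_pow, map_natCast] at h1
    exact mul_left_cancel₀ (pow_ne_zero n hp0) h1

theorem stab_mL (σ : L ≃ₐ[ℚ_[p]] L) (a : OL L) : σ • a ∈ mL L ↔ a ∈ mL L := by
  rw [mem_mL, mem_mL, coe_smul_OL, norm_algEquiv]

theorem natCast_mem_mL : ((p : ℕ) : OL L) ∈ mL L := by
  rw [mem_mL]
  have : ‖((((p : ℕ) : OL L) : L) : PadicAlgCl p)‖ = (p : ℝ)⁻¹ := by
    push_cast; exact norm_p_algCl
  rw [this]
  exact inv_lt_one_of_one_lt₀ one_lt_p_real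

theorem mL_ne_bot : mL L ≠ ⊥ := by
  intro h
  have h1 := natCast_mem_mL L
  rw [h, Ideal.mem_bot] at h1
  have hp : p.Prime := Fact.out
  have h2 : ((((p : ℕ) : OL L) : L)) = 0 := by rw [h1]; rfl
  have h3 : (p : L) = 0 := by simpa using h2
  have : (p : L) ≠ 0 := by exact_mod_cast hp.ne_zero
  exact this h3

instance mL_isMaximal' : (mL L).IsMaximal := mL_isMaximal L

instance charP_residue : CharP (OL L ⧸ mL L) p := by
  have hp : p.Prime := Fact.out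
  haveI : Nontrivial (OL L ⧸ mL L) := Ideal.Quotient.nontrivial_iff.mpr (mL_isMaximal L).ne_top
  rw [CharP.charP_iff_prime_eq_zero hp]
  rw [← map_natCast (Ideal.Quotient.mk (mL L)), Ideal.Quotient.eq_zero_iff_mem]
  exact natCast_mem_mL L

variable [FiniteDimensional ℚ_[p] L]

instance finite_residue' : Finite (OL L ⧸ mL L) := finite_residue L

theorem hasFact_OL : IsDiscreteValuationRing.HasUnitMulPowIrreducibleFactorization (OL L) := by
  obtain ⟨π, hπ0, hπ1, hπmax⟩ := exists_uniformizer L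
  have hπmem : π ∈ OL L := hπ1.le
  have hπne : π ≠ 0 := by
    intro h
    rw [h] at hπ0
    simp at hπ0
  -- units of `OL L` are the elements of norm one
  have hunit : ∀ a : OL L, ‖((a : L) : PadicAlgCl p)‖ = 1 → IsUnit a := by
    intro a ha
    have ha0 : (a : L) ≠ 0 := by
      intro h
      rw [h] at ha
      simp at ha
    have hinv : ((a : L)⁻¹) ∈ OL L := by
      change ‖(((a : L)⁻¹ : L) : PadicAlgCl p)‖ ≤ 1
      push_cast
      rw [norm_inv, ha, inv_one]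
    refine IsUnit.of_mul_eq_one (⟨(a : L)⁻¹, hinv⟩ : OL L) ?_
    apply Subtype.ext
    push_cast
    exact mul_inv_cancel₀ ha0
  have hunit' : ∀ a : OL L, IsUnit a → ‖((a : L) : PadicAlgCl p)‖ = 1 := by
    intro a ha
    obtain ⟨b, hb⟩ := ha.exists_right_inv
    have h1 := congrArg (fun c : OL L => ‖((c : L) : PadicAlgCl p)‖) hb
    simp only [Subring.coe_mul, IntermediateField.coe_mul, norm_mul, Subring.coe_one,
      IntermediateField.coe_one, norm_one] at h1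
    refine le_antisymm a.2 ?_
    by_contra hlt
    have hlt' := not_le.mp hlt
    have : ‖((a : L) : PadicAlgCl p)‖ * ‖((b : L) : PadicAlgCl p)‖ < 1 := by
      calc ‖((a : L) : PadicAlgCl p)‖ * ‖((b : L) : PadicAlgCl p)‖
          ≤ ‖((a : L) : PadicAlgCl p)‖ * 1 :=
            mul_le_mul_of_nonneg_left b.2 (norm_nonneg _)
        _ = ‖((a : L) : PadicAlgCl p)‖ := mul_one _
        _ < 1 := hlt'
    rw [h1] at this
    exact lt_irrefl _ this
  refine ⟨⟨π, hπmem⟩, ?_, ?_⟩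
  · rw [irreducible_iff]
    refine ⟨fun h => ?_, fun a b hab => ?_⟩
    · have := hunit' _ h
      simp only at this
      rw [this] at hπ1
      exact lt_irrefl _ hπ1
    · by_contra hcon
      rw [not_or] at hcon
      have ha : ‖((a : L) : PadicAlgCl p)‖ < 1 :=
        lt_of_le_of_ne a.2 fun h => hcon.1 (hunit a h)
      have hb : ‖((b : L) : PadicAlgCl p)‖ < 1 :=
        lt_of_le_of_ne b.2 fun h => hcon.2 (hunit b h)
      have h1 := congrArg (fun c : OL L => ‖((c : L) : PadicAlgCl p)‖) hab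
      simp only [Subring.coe_mul, IntermediateField.coe_mul, norm_mul] at h1
      have h2 : ‖((a : L) : PadicAlgCl p)‖ * ‖((b : L) : PadicAlgCl p)‖
          < ‖(π : PadicAlgCl p)‖ := by
        calc ‖((a : L) : PadicAlgCl p)‖ * ‖((b : L) : PadicAlgCl p)‖
            ≤ ‖(π : PadicAlgCl p)‖ * ‖((b : L) : PadicAlgCl p)‖ :=
              mul_le_mul_of_nonneg_right (hπmax _ ha) (norm_nonneg _)
          _ < ‖(π : PadicAlgCl p)‖ * 1 := mul_lt_mul_of_pos_left hb hπ0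
          _ = ‖(π : PadicAlgCl p)‖ := mul_one _
      rw [← h1] at h2
      exact lt_irrefl _ h2
  · intro a ha
    have ha0 : (a : L) ≠ 0 := fun h => ha (Subtype.ext h)
    obtain ⟨j, hj⟩ := exists_norm_eq_pow L hπ0 hπ1 hπmax (a : L) ha0 a.2
    have hu : (a : L) / π ^ j ∈ OL L := by
      change ‖(((a : L) / π ^ j : L) : PadicAlgCl p)‖ ≤ 1
      push_cast
      rw [norm_div, norm_pow]
      have hj' : ‖((a : L) : PadicAlgCl p)‖ = ‖(π : PadicAlgCl p)‖ ^ j := hj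
      rw [hj', div_self (pow_ne_zero j hπ0.ne')]
    have hun : ‖(((⟨(a : L) / π ^ j, hu⟩ : OL L) : L) : PadicAlgCl p)‖ = 1 := by
      push_cast
      rw [norm_div, norm_pow]
      have hj' : ‖((a : L) : PadicAlgCl p)‖ = ‖(π : PadicAlgCl p)‖ ^ j := hj
      rw [hj', div_self (pow_ne_zero j hπ0.ne')]
    obtain ⟨u, hu'⟩ := hunit _ hun
    refine ⟨j, u, ?_⟩
    rw [hu']
    apply Subtype.ext
    push_cast
    field_simp

instance isDVR_OL : IsDiscreteValuationRing (OL L) :=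
  IsDiscreteValuationRing.ofHasUnitMulPowIrreducibleFactorization (hasFact_OL L)

/-- The inertia group of `mL L` is `depth < 1`. -/
theorem mem_inertia_iff (σ : L ≃ₐ[ℚ_[p]] L) :
    σ ∈ (mL L).inertia (L ≃ₐ[ℚ_[p]] L) ↔ depth p L σ < 1 := by
  obtain ⟨x, π, q, h⟩ := exists_goodGen L
  rw [depth_eq_of_goodGen h σ]
  constructor
  · intro hσ
    have h1 : σ • (⟨x, h.1⟩ : OL L) - ⟨x, h.1⟩ ∈ mL L := hσ ⟨x, h.1⟩
    rw [mem_mL] at h1
    exact h1
  · intro hσ a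
    change σ • a - a ∈ mL L
    rw [mem_mL]
    exact lt_of_le_of_lt (norm_map_sub_le_of_goodGen h σ (a : L) a.2) hσ

end Fermat.Agent.S56.FL.H59

end

end
-- ==== END Fermat.Agent.S56.FL.LF.H59_LocTameRing

-- ==== BEGIN Fermat.Agent.S56.GW.Alg
section

set_option autoImplicit false

/-!
# Cluster T / S56, package GW: the linear algebra of the Greenberg-Wiles inequality (helper47)

`abstract_gw`: for global spaces `H`, `H'` with localisation maps to local spaces `V v`, `V' v`,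
local pairings `B v` satisfying the reciprocity law `∑ v, B v (res x) (res' y) = 0`, and local
conditions `L v`:

  `dim Sel_L + dim H' ≤ dim Ш + ∑ v, dim L v + dim Sel'_{L^⊥}`.

No non-degeneracy of the local pairings is needed.
-/

noncomputable section

namespace Fermat.Agent.S56.GW

open Module

section Abstract

variable {k : Type} [Field k] {ι : Type} [Fintype ι]
variable {E E' : Type} [AddCommGroup E] [Module k E] [AddCommGroup E'] [Module k E']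
variable {V V' : ι → Type} [∀ v, AddCommGroup (V v)] [∀ v, Module k (V v)]
  [∀ v, AddCommGroup (V' v)] [∀ v, Module k (V' v)]

/-- The abstract Selmer group inside `adm`. -/
def sel (res : ∀ v, E →ₗ[k] V v) (L : ∀ v, Submodule k (V v)) (adm : Submodule k E) :
    Submodule k E :=
  (⨅ v, (L v).comap (res v)) ⊓ adm

theorem mem_sel {res : ∀ v, E →ₗ[k] V v} {L : ∀ v, Submodule k (V v)} {adm : Submodule k E}
    {x : E} : x ∈ sel res L adm ↔ (∀ v, res v x ∈ L v) ∧ x ∈ adm := by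
  simp [sel, Submodule.mem_iInf]

/-- The orthogonal complement of `L` with respect to `B`. -/
def orth {W W' : Type} [AddCommGroup W] [Module k W] [AddCommGroup W'] [Module k W']
    (B : W →ₗ[k] W' →ₗ[k] k) (L : Submodule k W) : Submodule k W' where
  carrier := {y | ∀ x ∈ L, B x y = 0}
  add_mem' := by
    intro a b ha hb x hx
    rw [map_add, ha x hx, hb x hx, add_zero]
  zero_mem' := by
    intro x _
    rw [map_zero]
  smul_mem' := by
    intro c a ha x hx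
    rw [map_smul, ha x hx, smul_zero]

theorem mem_orth {W W' : Type} [AddCommGroup W] [Module k W] [AddCommGroup W'] [Module k W']
    {B : W →ₗ[k] W' →ₗ[k] k} {L : Submodule k W} {y : W'} :
    y ∈ orth B L ↔ ∀ x ∈ L, B x y = 0 := Iff.rfl

theorem abstract_gw (res : ∀ v, E →ₗ[k] V v) (res' : ∀ v, E' →ₗ[k] V' v)
    (B : ∀ v, V v →ₗ[k] V' v →ₗ[k] k) (adm : Submodule k E) (adm' : Submodule k E')
    [FiniteDimensional k adm] [FiniteDimensional k adm']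
    (hrec : ∀ x ∈ adm, ∀ y ∈ adm', ∑ v, B v (res v x) (res' v y) = 0)
    (L : ∀ v, Submodule k (V v)) [∀ v, FiniteDimensional k (L v)] :
    finrank k (sel res L adm) + finrank k adm' ≤
      finrank k (sel res (fun _ => ⊥) adm) + ∑ v, finrank k (L v) +
        finrank k (sel res' (fun v => orth (B v) (L v)) adm') := by
  classical
  have hselle : sel res L adm ≤ adm := inf_le_right
  haveI : FiniteDimensional k (sel res L adm) := Submodule.finiteDimensional_of_le hselle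
  -- the localisation map on the Selmer group
  let resL : sel res L adm →ₗ[k] (∀ v, L v) :=
    LinearMap.pi fun v => (res v).restrict (p := sel res L adm) (q := L v)
      (fun x hx => (mem_sel.1 hx).1 v)
  -- the pairing map on `adm'`
  let ψ : adm' →ₗ[k] Module.Dual k (∀ v, L v) :=
    { toFun := fun y => ∑ v, ((B v).flip (res' v y)).comp ((L v).subtype.comp (LinearMap.proj v))
      map_add' := by
        intro y y'
        simp only [Submodule.coe_add, map_add, LinearMap.add_comp, Finset.sum_add_distrib]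
      map_smul' := by
        intro c y
        simp only [Submodule.coe_smul, map_smul, LinearMap.smul_comp, Finset.smul_sum,
          RingHom.id_apply] }
  have hψ : ∀ (y : adm') (l : ∀ v, L v), ψ y l = ∑ v, B v (l v) (res' v y) := by
    intro y l
    simp [ψ, LinearMap.sum_apply]
  -- kernel of `resL`
  have hker1 : finrank k (LinearMap.ker resL) = finrank k (sel res (fun _ => ⊥) adm) := by
    refine LinearEquiv.finrank_eq (LinearEquiv.ofBijective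
      ((Submodule.subtype _).comp (Submodule.subtype _) |>.codRestrict _ ?_) ⟨?_, ?_⟩)
    · rintro ⟨⟨x, hx⟩, hx0⟩
      refine mem_sel.2 ⟨fun v => ?_, (mem_sel.1 hx).2⟩
      have := congrFun (LinearMap.mem_ker.1 hx0) v
      have h2 : res v x = 0 := congrArg Subtype.val this
      exact (Submodule.mem_bot k).2 h2
    · rintro ⟨⟨x, hx⟩, hx0⟩ ⟨⟨y, hy⟩, hy0⟩ h
      have : x = y := congrArg Subtype.val h
      subst this
      rfl
    · rintro ⟨x, hx⟩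
      have hx' : x ∈ sel res L adm :=
        mem_sel.2 ⟨fun v => by
          rw [(Submodule.mem_bot k).1 ((mem_sel.1 hx).1 v)]; exact (L v).zero_mem,
          (mem_sel.1 hx).2⟩
      refine ⟨⟨⟨x, hx'⟩, ?_⟩, rfl⟩
      refine LinearMap.mem_ker.2 (funext fun v => Subtype.ext ?_)
      exact (Submodule.mem_bot k).1 ((mem_sel.1 hx).1 v)
  -- kernel of `ψ`
  have hker2 : finrank k (LinearMap.ker ψ) =
      finrank k (sel res' (fun v => orth (B v) (L v)) adm') := by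
    refine LinearEquiv.finrank_eq (LinearEquiv.ofBijective
      ((Submodule.subtype _).comp (Submodule.subtype _) |>.codRestrict _ ?_) ⟨?_, ?_⟩)
    · rintro ⟨⟨y, hy⟩, hy0⟩
      refine mem_sel.2 ⟨fun v x hx => ?_, hy⟩
      have h1 := LinearMap.congr_fun (LinearMap.mem_ker.1 hy0)
        (Pi.single v (⟨x, hx⟩ : L v))
      rw [hψ] at h1
      rw [Finset.sum_eq_single v] at h1
      · simpa using h1
      · intro w _ hw
        rw [Pi.single_eq_of_ne hw]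
        simp
      · intro h; exact absurd (Finset.mem_univ v) h
    · rintro ⟨⟨x, hx⟩, hx0⟩ ⟨⟨y, hy⟩, hy0⟩ h
      have : x = y := congrArg Subtype.val h
      subst this
      rfl
    · rintro ⟨y, hy⟩
      have hyadm : y ∈ adm' := (mem_sel.1 hy).2
      refine ⟨⟨⟨y, hyadm⟩, ?_⟩, rfl⟩
      refine LinearMap.mem_ker.2 (LinearMap.ext fun l => ?_)
      rw [hψ]
      refine Finset.sum_eq_zero fun v _ => ?_
      exact (mem_sel.1 hy).1 v (l v) (l v).2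
  -- reciprocity: the range of `ψ` kills the range of `resL`
  have hann : LinearMap.range ψ ≤ (LinearMap.range resL).dualAnnihilator := by
    rintro _ ⟨y, rfl⟩
    rw [Submodule.mem_dualAnnihilator]
    rintro _ ⟨x, rfl⟩
    rw [hψ]
    exact hrec x.1 (mem_sel.1 x.2).2 y.1 y.2
  have h1 := LinearMap.finrank_range_add_finrank_ker resL
  have h2 := LinearMap.finrank_range_add_finrank_ker ψ
  have h3 := Subspace.finrank_add_finrank_dualAnnihilator_eq (LinearMap.range resL)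
  have h4 : finrank k (LinearMap.range ψ) ≤ finrank k (LinearMap.range resL).dualAnnihilator :=
    Submodule.finrank_mono hann
  have h5 : finrank k (∀ v, L v) = ∑ v, finrank k (L v) := Module.finrank_pi_fintype k
  omega

end Abstract

end Fermat.Agent.S56.GW

end

end
-- ==== END Fermat.Agent.S56.GW.Alg
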