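-- GENERATED (merged mirror, NOTES/tools/trim/merge3_helper67.py): 6 modules of the originals, bodies verbatim.
import Fermat.Agent.Zm.S56_L08_000
import Fermat.Agent.Zm.S56_L07_002
import Fermat.Agent.Zm.S56_L08_004
import Fermat.Agent.Zm.S56_L01_000
import Fermat.Agent.Zm.S48_L01_000

-- ==== BEGIN Fermat.Agent.S55.CFT.GS.H64_BriDefs
section

set_option autoImplicit false

open CategoryTheory groupCohomology ExtCitation

open scoped Pointwise

noncomputable section

namespace Fermat.Agent.S55.CFT.GS.Bri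

open Fermat.Agent.S55 Fermat.Agent.S55.Top Fermat.Agent.S55.CFT

local notation "Qb" => AlgebraicClosure ℚ

/-! ### The abstract fields -/

section fields

variable {K N N' : IntermediateField ℚ Qb}

theorem numberField_base (K : IntermediateField ℚ Qb) [FiniteDimensional ℚ K] :
    NumberField ↥K := ⟨⟩

theorem numberField_top (hKN : K ≤ N) [FiniteDimensional ℚ N] : NumberField ↥(H6.NK hKN) :=
  @NumberField.mk _ _ inferInstance ‹FiniteDimensional ℚ N›

theorem isGalois_top (hKN : K ≤ N) (hN : N.fixingSubgroup.Normal) :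
    IsGalois ↥K ↥(H6.NK hKN) := by
  have := H6.normal_NK hKN hN
  exact ⟨⟩

/-- The restriction `G_K → Gal(N/K)`. -/
def resG (hKN : K ≤ N) [Normal ↥K ↥(H6.NK hKN)] :
    ↥K.fixingSubgroup →* (↥(H6.NK hKN) ≃ₐ[↥K] ↥(H6.NK hKN)) :=
  (AlgEquiv.restrictNormalHom (F := ↥K) (K₁ := Qb) ↥(H6.NK hKN)).comp
    (IntermediateField.fixingSubgroupEquiv K).toMonoidHom

/-- The inclusion `Nˣ → ℚ̄ˣ`. -/
def valU (hKN : K ≤ N) : (↥(H6.NK hKN))ˣ →* Qbˣ :=
  Units.map ((H6.NK hKN).val : ↥(H6.NK hKN) →* Qb)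

/-- The `↥N`-algebra structure of `↥N'` for `N ≤ N'` (inclusion). -/
@[reducible] def algIncl (hKN : K ≤ N) (hNN' : N ≤ N') :
    Algebra ↥(H6.NK hKN) ↥(H6.NK (hKN.trans hNN')) :=
  (IntermediateField.inclusion
    (show H6.NK hKN ≤ H6.NK (hKN.trans hNN') from hNN')).toRingHom.toAlgebra

theorem isScalarTower_incl (hKN : K ≤ N) (hNN' : N ≤ N') :
    letI := algIncl hKN hNN'
    IsScalarTower ↥K ↥(H6.NK hKN) ↥(H6.NK (hKN.trans hNN')) := by
  let _ := algIncl hKN hNN'
  exact IsScalarTower.of_algebraMap_eq (fun x => rfl)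

end fields

/-! ### Level conditions relative to a level field -/

section level

variable (K N : IntermediateField ℚ Qb)

/-- `f` is constant modulo `G_N` and has values in `N`. -/
def IsLevN₁ (f : ↥K.fixingSubgroup → Qbˣ) : Prop :=
  (∀ g s : ↥K.fixingSubgroup, (s : GQ) ∈ N.fixingSubgroup → f (g * s) = f g) ∧
    ∀ g, (f g : Qb) ∈ N

/-- `f` is constant modulo `G_N` and has values in `N`. -/
def IsLevN₂ (f : ↥K.fixingSubgroup × ↥K.fixingSubgroup → Qbˣ) : Prop :=
  (∀ g₁ g₂ s₁ s₂ : ↥K.fixingSubgroup, (s₁ : GQ) ∈ N.fixingSubgroup →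
      (s₂ : GQ) ∈ N.fixingSubgroup → f (g₁ * s₁, g₂ * s₂) = f (g₁, g₂)) ∧
    ∀ t, (f t : Qb) ∈ N

/-- `f` is constant modulo `G_N` and has values in `N`. -/
def IsLevN₃ (f : ↥K.fixingSubgroup × ↥K.fixingSubgroup × ↥K.fixingSubgroup → Qbˣ) : Prop :=
  (∀ g₁ g₂ g₃ s₁ s₂ s₃ : ↥K.fixingSubgroup, (s₁ : GQ) ∈ N.fixingSubgroup →
      (s₂ : GQ) ∈ N.fixingSubgroup → (s₃ : GQ) ∈ N.fixingSubgroup →
      f (g₁ * s₁, g₂ * s₂, g₃ * s₃) = f (g₁, g₂, g₃)) ∧
    ∀ t, (f t : Qb) ∈ N

/-- `d³` (multiplicative). -/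
def mThree {Δ : Type} [Group Δ] {X : Type} [CommGroup X] [MulDistribMulAction Δ X]
    (a : Δ × Δ × Δ → X) : Δ × Δ × Δ × Δ → X :=
  fun t => t.1 • a (t.2.1, t.2.2.1, t.2.2.2) / a (t.1 * t.2.1, t.2.2.1, t.2.2.2) *
    a (t.1, t.2.1 * t.2.2.1, t.2.2.2) / a (t.1, t.2.1, t.2.2.1 * t.2.2.2) *
    a (t.1, t.2.1, t.2.2.1)

end level

/-! ### Realisation of cochains on `G_K` as classes -/

section real

variable {K N N' : IntermediateField ℚ Qb} (hKN : K ≤ N)
  [NumberField ↥K] [NumberField ↥(H6.NK hKN)] [Normal ↥K ↥(H6.NK hKN)]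

/-- The inflation to `G_K` (with values in `ℚ̄ˣ`) of a 2-cochain of `Gal(N/K)` with values in
`Nˣ`. -/
def infl₂ (f : (↥(H6.NK hKN) ≃ₐ[↥K] ↥(H6.NK hKN)) × (↥(H6.NK hKN) ≃ₐ[↥K] ↥(H6.NK hKN)) →
      (repL ↥K ↥(H6.NK hKN))) :
    ↥K.fixingSubgroup × ↥K.fixingSubgroup → Qbˣ :=
  fun t => valU hKN (Additive.toMul (f (resG hKN t.1, resG hKN t.2)))

/-- The inflation to `G_K` of an `n`-cochain of `Gal(N/K)` with values in `Nˣ`
(`Fin n`-indexed form). -/
def inflN (n : ℕ) (f : (Fin n → (↥(H6.NK hKN) ≃ₐ[↥K] ↥(H6.NK hKN))) → (repL ↥K ↥(H6.NK hKN))) :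
    (Fin n → ↥K.fixingSubgroup) → Qbˣ :=
  fun t => valU hKN (Additive.toMul (f (fun i => resG hKN (t i))))

/-- `x ∈ H²(Gal(N/K), Nˣ)` is the class of the cocycle `c` on `G_K`. -/
def Real₂ (c : ↥K.fixingSubgroup × ↥K.fixingSubgroup → Qbˣ)
    (x : groupCohomology (repL ↥K ↥(H6.NK hKN)) 2) : Prop :=
  ∃ f : cocycles₂ (repL ↥K ↥(H6.NK hKN)), infl₂ hKN f.1 = c ∧ H2π _ f = x

/-- `x ∈ H³(Gal(N/K), Nˣ)` is the class of the cocycle `c` on `G_K`. -/
def Real₃ (c : ↥K.fixingSubgroup × ↥K.fixingSubgroup × ↥K.fixingSubgroup → Qbˣ)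
    (x : groupCohomology (repL ↥K ↥(H6.NK hKN)) 3) : Prop :=
  ∃ z : cocycles (repL ↥K ↥(H6.NK hKN)) 3,
    (∀ g₁ g₂ g₃, inflN hKN 3 (iCocycles _ 3 z) ![g₁, g₂, g₃] = c (g₁, g₂, g₃)) ∧ π _ 3 z = x

end real

/-! ### Package REAL (cochains on `G_K` ↔ classes) -/

section realStmts

/-- **R2-ex**: a level-`N`, `N`-valued 2-cocycle on `G_K` has a class in `H²(Gal(N/K), Nˣ)`. -/
def Stmt_R2_ex : Prop :=
  ∀ (K N : IntermediateField ℚ Qb) (hKN : K ≤ N) [NumberField ↥K] [NumberField ↥(H6.NK hKN)]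
    [IsGalois ↥K ↥(H6.NK hKN)] (c : ↥K.fixingSubgroup × ↥K.fixingSubgroup → Qbˣ),
    IsLevN₂ K N c → mTwo c = 1 → ∃ x, Real₂ hKN c x

/-- **R2-surj**: every class of `H²(Gal(N/K), Nˣ)` is the class of a level-`N`, `N`-valued
2-cocycle on `G_K`. -/
def Stmt_R2_surj : Prop :=
  ∀ (K N : IntermediateField ℚ Qb) (hKN : K ≤ N) [NumberField ↥K] [NumberField ↥(H6.NK hKN)]
    [IsGalois ↥K ↥(H6.NK hKN)] (x : groupCohomology (repL ↥K ↥(H6.NK hKN)) 2),
    ∃ c, IsLevN₂ K N c ∧ mTwo c = 1 ∧ Real₂ hKN c x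

/-- **R2-uniq**: the class of a cocycle is unique. -/
def Stmt_R2_uniq : Prop :=
  ∀ (K N : IntermediateField ℚ Qb) (hKN : K ≤ N) [NumberField ↥K] [NumberField ↥(H6.NK hKN)]
    [IsGalois ↥K ↥(H6.NK hKN)] (c : ↥K.fixingSubgroup × ↥K.fixingSubgroup → Qbˣ)
    (x x' : groupCohomology (repL ↥K ↥(H6.NK hKN)) 2),
    Real₂ hKN c x → Real₂ hKN c x' → x = x'

/-- **R2-mul**: products of cocycles ↔ sums of classes; powers ↔ multiples. -/
def Stmt_R2_mul : Prop :=
  ∀ (K N : IntermediateField ℚ Qb) (hKN : K ≤ N) [NumberField ↥K] [NumberField ↥(H6.NK hKN)]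
    [IsGalois ↥K ↥(H6.NK hKN)] (c c' : ↥K.fixingSubgroup × ↥K.fixingSubgroup → Qbˣ)
    (x x' : groupCohomology (repL ↥K ↥(H6.NK hKN)) 2),
    Real₂ hKN c x → Real₂ hKN c' x' →
      Real₂ hKN (fun t => c t * c' t) (x + x') ∧ Real₂ hKN (fun t => c t / c' t) (x - x') ∧
        ∀ n : ℕ, Real₂ hKN (fun t => c t ^ n) ((n : ℤ) • x)

/-- **R2-zero**: the class of `c` vanishes iff `c = d b` with `b` of level `N` with values in
`N`. -/
def Stmt_R2_zero : Prop :=
  ∀ (K N : IntermediateField ℚ Qb) (hKN : K ≤ N) [NumberField ↥K] [NumberField ↥(H6.NK hKN)]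
    [IsGalois ↥K ↥(H6.NK hKN)] (c : ↥K.fixingSubgroup × ↥K.fixingSubgroup → Qbˣ)
    (x : groupCohomology (repL ↥K ↥(H6.NK hKN)) 2), Real₂ hKN c x →
      (x = 0 ↔ ∃ b : ↥K.fixingSubgroup → Qbˣ, IsLevN₁ K N b ∧ ∀ t, c t = mOne b t)

/-- **R2-inf**: inflation is invisible on the `G_K`-side. -/
def Stmt_R2_inf : Prop :=
  ∀ (K N N' : IntermediateField ℚ Qb) (hKN : K ≤ N) (hNN' : N ≤ N') [NumberField ↥K]
    [NumberField ↥(H6.NK hKN)] [NumberField ↥(H6.NK (hKN.trans hNN'))]
    [IsGalois ↥K ↥(H6.NK hKN)] [IsGalois ↥K ↥(H6.NK (hKN.trans hNN'))]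
    (c : ↥K.fixingSubgroup × ↥K.fixingSubgroup → Qbˣ)
    (x : groupCohomology (repL ↥K ↥(H6.NK hKN)) 2), Real₂ hKN c x →
      letI := algIncl hKN hNN'
      haveI := isScalarTower_incl hKN hNN'
      Real₂ (hKN.trans hNN') c (infL ↥K ↥(H6.NK hKN) ↥(H6.NK (hKN.trans hNN')) 2 x)

/-- **R3-ex**. -/
def Stmt_R3_ex : Prop :=
  ∀ (K N : IntermediateField ℚ Qb) (hKN : K ≤ N) [NumberField ↥K] [NumberField ↥(H6.NK hKN)]
    [IsGalois ↥K ↥(H6.NK hKN)]
    (c : ↥K.fixingSubgroup × ↥K.fixingSubgroup × ↥K.fixingSubgroup → Qbˣ),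
    IsLevN₃ K N c → mThree c = 1 → ∃ x, Real₃ hKN c x

/-- **R3-mul**: powers ↔ multiples (and uniqueness of the class). -/
def Stmt_R3_mul : Prop :=
  ∀ (K N : IntermediateField ℚ Qb) (hKN : K ≤ N) [NumberField ↥K] [NumberField ↥(H6.NK hKN)]
    [IsGalois ↥K ↥(H6.NK hKN)]
    (c : ↥K.fixingSubgroup × ↥K.fixingSubgroup × ↥K.fixingSubgroup → Qbˣ)
    (x : groupCohomology (repL ↥K ↥(H6.NK hKN)) 3), Real₃ hKN c x →
      (∀ x', Real₃ hKN c x' → x = x') ∧ ∀ n : ℕ, Real₃ hKN (fun t => c t ^ n) ((n : ℤ) • x)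

/-- **R3-zero**: the class of `c` vanishes iff `c = d y` with `y` of level `N` with values in
`N`. -/
def Stmt_R3_zero : Prop :=
  ∀ (K N : IntermediateField ℚ Qb) (hKN : K ≤ N) [NumberField ↥K] [NumberField ↥(H6.NK hKN)]
    [IsGalois ↥K ↥(H6.NK hKN)]
    (c : ↥K.fixingSubgroup × ↥K.fixingSubgroup × ↥K.fixingSubgroup → Qbˣ)
    (x : groupCohomology (repL ↥K ↥(H6.NK hKN)) 3), Real₃ hKN c x →
      (x = 0 ↔ ∃ y : ↥K.fixingSubgroup × ↥K.fixingSubgroup → Qbˣ, IsLevN₂ K N y ∧
        ∀ t, c t = mTwo y t)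

/-- **R3-inf**. -/
def Stmt_R3_inf : Prop :=
  ∀ (K N N' : IntermediateField ℚ Qb) (hKN : K ≤ N) (hNN' : N ≤ N') [NumberField ↥K]
    [NumberField ↥(H6.NK hKN)] [NumberField ↥(H6.NK (hKN.trans hNN'))]
    [IsGalois ↥K ↥(H6.NK hKN)] [IsGalois ↥K ↥(H6.NK (hKN.trans hNN'))]
    (c : ↥K.fixingSubgroup × ↥K.fixingSubgroup × ↥K.fixingSubgroup → Qbˣ)
    (x : groupCohomology (repL ↥K ↥(H6.NK hKN)) 3), Real₃ hKN c x →
      letI := algIncl hKN hNN'
      haveI := isScalarTower_incl hKN hNN'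
      Real₃ (hKN.trans hNN') c (infL ↥K ↥(H6.NK hKN) ↥(H6.NK (hKN.trans hNN')) 3 x)

end realStmts

/-! ### Package CYC (cyclotomic models inside `ℚ̄`) -/

section cyc

/-- **CYC-Base**: `K(ζ_{p^M}) ⊆ ℚ̄` is a model of the cyclotomic extension of `↥K`, Galois over
`K` and unramified outside `S ∋ p`. -/
def Stmt_CycBase : Prop :=
  ∀ (p : ℕ) [Fact p.Prime] (S : Finset Nat.Primes), pPrime p ∈ S →
    ∀ K : IntermediateField ℚ Qb, K.IsUnramifiedOutside S → ∀ M : ℕ,
    ∃ (N : IntermediateField ℚ Qb) (hKN : K ≤ N), N.IsUnramifiedOutside S ∧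
      IsGalois ↥K ↥(H6.NK hKN) ∧ IsCyclotomicExtension {p ^ M} ↥K ↥(H6.NK hKN)

/-- **CYC-Top**: for `N/K` Galois, `N(ζ_{p^M}) ⊆ ℚ̄` is a model of the cyclotomic extension of
`↥N`, Galois over `K` and unramified outside `S ∋ p`. -/
def Stmt_CycTop : Prop :=
  ∀ (p : ℕ) [Fact p.Prime] (S : Finset Nat.Primes), pPrime p ∈ S →
    ∀ (K N : IntermediateField ℚ Qb) (hKN : K ≤ N), N.IsUnramifiedOutside S →
    IsGalois ↥K ↥(H6.NK hKN) → ∀ M : ℕ,
    ∃ (N' : IntermediateField ℚ Qb) (hNN' : N ≤ N'), N'.IsUnramifiedOutside S ∧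
      IsGalois ↥K ↥(H6.NK (hKN.trans hNN')) ∧
      letI := algIncl hKN hNN'
      IsCyclotomicExtension {p ^ M} ↥(H6.NK hKN) ↥(H6.NK (hKN.trans hNN'))

end cyc

/-! ### Places of `↥K` from elements of `G_ℚ` -/

section places

variable (K : IntermediateField ℚ Qb) [NumberField ↥K] (q : Nat.Primes) (σ : GQ)

/-- `j_σ = ι_q ∘ σ : K → ℚ̄_q`. -/
def jσ :
    haveI := fact_primes q
    ↥K →+* PadicAlgCl (q : ℕ) :=
  haveI := fact_primes q
  ((padicEmbedding (q : ℕ)).toRingHom.comp
    ((σ : Qb →ₐ[ℚ] Qb) : Qb →+* Qb)).comp (algebraMap ↥K Qb)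

/-- `ℚ_q ⊗ K → ℚ̄_q`, `a ⊗ x ↦ a · ι_q(σ x)`. -/
def φσ :
    haveI := fact_primes q
    SemiLocal ↥K q →ₐ[Qp q] PadicAlgCl (q : ℕ) :=
  haveI := fact_primes q
  Algebra.TensorProduct.lift (Algebra.ofId (Qp q) (PadicAlgCl (q : ℕ)))
    (jσ K q σ).toRatAlgHom (fun _ _ => Commute.all _ _)

theorem ker_φσ_isMaximal : (RingHom.ker (φσ K q σ)).IsMaximal := by
  have := fact_primes q
  have : IsArtinianRing (SemiLocal ↥K q) := IsArtinianRing.of_finite (Qp q) _
  have : (RingHom.ker (φσ K q σ)).IsPrime := RingHom.ker_isPrime _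
  exact IsArtinianRing.isMaximal_of_isPrime _

/-- The place of `↥K` over `q` defined by `σ ∈ G_ℚ`: the kernel of `ℚ_q ⊗ K → ℚ̄_q`,
`a ⊗ x ↦ a · ι_q(σ x)`; the corresponding place of `ℚ̄` is `σ⁻¹ • primeLocalPlace q`. -/
def plσ : Place ↥K := ⟨q, ⟨RingHom.ker (φσ K q σ), ker_φσ_isMaximal K q σ⟩⟩

end places

/-! ### Package PL (dictionary of places) -/

section plStmts

/-- **PL-ex**: every place of `↥K` comes from some `σ ∈ G_ℚ`. -/
def Stmt_PlEx : Prop :=
  ∀ (K : IntermediateField ℚ Qb) [NumberField ↥K] (v : Place ↥K), ∃ σ : GQ, v = plσ K v.1 σ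

/-- **PL-eq**: `σ`, `σ'` define the same place over `q` iff they lie in the same double coset
of `rl q (Gl q) \ G_ℚ / G_K`. -/
def Stmt_PlEq : Prop :=
  ∀ (K : IntermediateField ℚ Qb) [NumberField ↥K] (q : Nat.Primes) (σ σ' : GQ),
    plσ K q σ = plσ K q σ' ↔
      ∃ (h : Gl q) (g : GQ), g ∈ K.fixingSubgroup ∧ σ' = rl q h * σ * g

/-- **PL-S**: for a place system `𝔓`, `w ↦ v(q, w) = plσ K q σ_w` is a bijection from `𝔓.W q`
onto the places of `↥K` over `q`. -/
def Stmt_PlS : Prop :=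
  ∀ (S : Finset Nat.Primes) (K : IntermediateField ℚ Qb) [NumberField ↥K] (𝔓 : PlaceSys S K),
    (∀ (q : ↥S) (w w' : 𝔓.W q), plσ K q.1 (𝔓.σ q w) = plσ K q.1 (𝔓.σ q w') → w = w') ∧
    ∀ (q : ↥S) (v : Place ↥K), v.1 = q.1 → ∃ w : 𝔓.W q, v = plσ K q.1 (𝔓.σ q w)

end plStmts

/-! ### Packages LOC-S and LOC-OUT -/

section locStmts

/-- **LOC-S**: for a class `x ∈ H²(Gal(N/K), Nˣ)` with cocycle `c` on `G_K` and a place `w ∣ q` of
a place system: the local component of `x` at `v(q, w)` vanishes iff `c` is locally trivial at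
`w`.
(`⟹`: project `LocAlg K N v → ℚ̄_q`, `a ⊗ y ↦ a · ι_q(σ_w y)`, equivariant for
`Γ_w → G_K → Gal(N/K)`.  `⟸`: Shapiro `CFT/H58_SHL*.lean`, the decomposition group of the kernel of
the projection is the image of `Γ_w`; local inflation is injective (Hilbert 90 for a finite
Galois extension of `K_w` containing the values of `β`).) -/
def Stmt_LocS : Prop :=
  ∀ (S : Finset Nat.Primes) (K N : IntermediateField ℚ Qb) (hKN : K ≤ N) [NumberField ↥K]
    [NumberField ↥(H6.NK hKN)] [IsGalois ↥K ↥(H6.NK hKN)] (𝔓 : PlaceSys S K) (q : ↥S)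
    (w : 𝔓.W q) (c : ↥K.fixingSubgroup × ↥K.fixingSubgroup → Qbˣ)
    (x : groupCohomology (repL ↥K ↥(H6.NK hKN)) 2), Real₂ hKN c x →
      (locMap ↥K ↥(H6.NK hKN) (plσ K q.1 (𝔓.σ q w)) 2 x = 0 ↔ LocTrivS 𝔓 q w c)

/-- **LOC-OUT**: for a `p`-torsion class (`cᵖ = d b`) of level `N` unramified outside `S`, and a
place `A = σ⁻¹ • primeLocalPlace q` of `ℚ̄` over `q ∉ S`: the local component at `plσ K q σ`
vanishes iff the residue at `A` vanishes.
(`H²(D, N_Aˣ) ≅ H²(D, ℤ)` for the unramified extension `N_A/K_A`, `D` cyclic;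
`⟹`: `ord_A ∘` projection, `ord b - p · ord β` is a homomorphism from a finite group to `ℤ`;
`⟸`: Shapiro + `H²(D, units) = 0` + the cyclic invariant `∏ c(φⁱ, φ)`.) -/
def Stmt_LocOut : Prop :=
  ∀ (p : ℕ) [Fact p.Prime] (S : Finset Nat.Primes) (K N : IntermediateField ℚ Qb) (hKN : K ≤ N)
    [NumberField ↥K] [NumberField ↥(H6.NK hKN)] [IsGalois ↥K ↥(H6.NK hKN)],
    N.IsUnramifiedOutside S → ∀ q : Nat.Primes, q ∉ S →
    ∀ (A : ValuationSubring Qb) (σ : GQ), σ • A = primeLocalPlace q →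
    ∀ (c : ↥K.fixingSubgroup × ↥K.fixingSubgroup → Qbˣ) (b : ↥K.fixingSubgroup → Qbˣ)
      (x : groupCohomology (repL ↥K ↥(H6.NK hKN)) 2), Real₂ hKN c x → IsLevN₁ K N b →
      (∀ t, c t ^ p = mOne b t) →
      (locMap ↥K ↥(H6.NK hKN) (plσ K q σ) 2 x = 0 ↔ ResTrivAt p K A (q : ℕ) b)

end locStmts

end Fermat.Agent.S55.CFT.GS.Bri

end

end
-- ==== END Fermat.Agent.S55.CFT.GS.H64_BriDefs

-- ==== BEGIN Fermat.Agent.S56.GW.Defs
section

set_option autoImplicit false

/-!
# Cluster T / S56, package GW (Greenberg-Wiles): exact statements of the sub-packages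

`Stmt_GW` (in `LeavesNT.lean`) follows from (see `GW/Reduce.lean`, sorry-free):

* `Stmt_fin_glob` (GW-FIN-glob): `H¹(G_{ℚ,Sg}, M)` is finite-dimensional (Hermite-Minkowski).
* `Stmt_fin_loc`  (GW-FIN-loc):  `H¹_cont(ℚ_q, M)` is finite-dimensional.
* `Stmt_GW_core`  (GW-CORE): local pairings `P` with
    - PERF: right non-degenerate at the Taylor-Wiles primes (`q ≡ 1 mod p`, `M` unramified at `q`),
    - REC:  the reciprocity law `∑_{q ∈ Sg} P_q(res_q x, res_q y) = 0` for global classes,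
    - LB:   the lower bound
            `dim Ш¹_Sg(M) + h⁰(ℝ, M) + ∑_{q ∈ Sg} h⁰(ℚ_q, M) + h⁰(ℚ, M') ≤ dim H¹_Sg(M') + h⁰(ℚ, M)`
            (Tate's global Euler characteristic formula + Poitou-Tate in degree 2).

The linear algebra is `GW/Alg.lean`; no non-degeneracy of the local pairings is needed for the
inequality itself.
-/

noncomputable section

namespace Fermat.Agent.S56

open Polynomial IsLocalRing CategoryTheory groupCohomology ExtCitation Module

/-- **Package GW-FIN-glob.** The continuous classes unramified outside `Sg` form a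
finite-dimensional space (Hermite-Minkowski). -/
def Stmt_fin_glob : Prop :=
  ∀ (k : Type) [Field k] [Finite k] (M : Rep.{0} k GQ) [FiniteDimensional k M],
    IsSmoothRep M → ∀ Sg : Finset Nat.Primes, Module.Finite k (continuousH1S Sg M)

/-- **Package GW-FIN-loc.** The continuous local classes at `q` form a finite-dimensional
space. -/
def Stmt_fin_loc : Prop :=
  ∀ (k : Type) [Field k] [Finite k] (M : Rep.{0} k GQ) [FiniteDimensional k M],
    IsSmoothRep M → ∀ q : Nat.Primes, Module.Finite k (locH1 M q)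

/-- **Package GW-CORE** (reciprocity + lower bound + tame local duality). -/
def Stmt_GW_core : Prop :=
  ∀ (p : ℕ) [Fact p.Prime] (_hp2 : p ≠ 2) (k : Type) [Field k] [Finite k] [CharP k p]
    (M : Rep.{0} k GQ) [FiniteDimensional k M] (_hsm : IsSmoothRep M),
    ∃ P : LocalPairings p M,
      (∀ (q : Nat.Primes), (q : ℕ) % p = 1 → IsUnramifiedRepAt M (q : ℕ) →
        ∀ y : H1 (locRep (tateDual p M) q), y ∈ locH1 (tateDual p M) q →
        (∀ x ∈ locH1 M q, P.atp q x y = 0) → y = 0) ∧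
      ∀ (Sg : Finset Nat.Primes), pPrime p ∈ Sg →
        (∀ q : Nat.Primes, q ∉ Sg → IsUnramifiedRepAt M (q : ℕ)) →
        (∀ x ∈ continuousH1S Sg M, ∀ y ∈ continuousH1S Sg (tateDual p M),
          ∑ q ∈ Sg, P.atp q (resAt M q x) (resAt (tateDual p M) q y) = 0) ∧
        finrank k (sha₁ Sg M) +
            (finrank k (Rep.res archimedeanLoc M).ρ.invariants +
              ∑ q ∈ Sg, finrank k (locRep M q).ρ.invariants) +
            finrank k (tateDual p M).ρ.invariants ≤
          finrank k (continuousH1S Sg (tateDual p M)) + finrank k M.ρ.invariants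

end Fermat.Agent.S56

end

end
-- ==== END Fermat.Agent.S56.GW.Defs

-- ==== BEGIN Fermat.Agent.S56.H13_LocInf
section

/-!
# Cluster T / S56, leaf LOC-inf (helper13): `Stmt_loc_inf`

At the real place: `H¹(G_ℝ, ad⁰ ρbar) = 0` (`p` odd, `G_ℝ` of order `≤ 2`) and
`h⁰(G_ℝ, ad⁰ ρbar) = 1` (`ρbar` is odd because its determinant is cyclotomic, so complex
conjugation acts on `V` as an involution `C` of determinant `-1`, and the trace-zero
endomorphisms commuting with `C` are the multiples of `C`).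
-/

set_option autoImplicit false
set_option linter.unusedSectionVars false
set_option linter.style.haveILetI false
set_option linter.unusedVariables false

noncomputable section

namespace Fermat.Agent.S56.H13

open CategoryTheory groupCohomology ExtCitation Fermat.Agent.S56 Module IsLocalRing

/-! ### Complex conjugation and the cyclotomic character -/

/-- Complex conjugation inverts roots of unity. -/
theorem complexConjugation_root (n : ℕ) (hn : 0 < n) (μ : AlgebraicClosure ℚ) (h : μ ^ n = 1) :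
    complexConjugation μ = μ ^ (n - 1) := by
  have hinj : Function.Injective complexEmbedding := complexEmbedding.toRingHom.injective
  apply hinj
  rw [complexEmbedding_complexConjugation, map_pow]
  set z := complexEmbedding μ with hz
  have hzn : z ^ n = 1 := by rw [hz, ← map_pow, h, map_one]
  have hz0 : z ≠ 0 := by
    rintro h0
    rw [h0, zero_pow hn.ne'] at hzn
    exact zero_ne_one hzn
  have hnorm : ‖z‖ = 1 := Complex.norm_eq_one_of_pow_eq_one hzn hn.ne'
  have h1 : (starRingEnd ℂ) z * z = 1 := by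
    rw [Complex.conj_mul', hnorm]; simp
  have h2 : z ^ (n - 1) * z = 1 := by
    rw [← pow_succ, Nat.sub_add_cancel hn, hzn]
  exact mul_right_cancel₀ hz0 (h1.trans h2.symm)

/-- `ρbar` is odd: the determinant of complex conjugation is `-1`. -/
theorem det_complexConjugation {k : Type} [Field k] (p : ℕ) [Fact p.Prime]
    (ρbar : ResidualGaloisRep k)
    (hdet : (GaloisRepAdic.ofResidualGaloisRep ρbar).DetIsCyclotomic p) :
    LinearMap.det (ρbar.ρ complexConjugation) = -1 := by
  have hp : p.Prime := Fact.out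
  obtain ⟨hpk, h⟩ := hdet
  rw [IsLocalRing.maximalIdeal_eq_bot, Ideal.mem_bot] at hpk
  have h1 := h 1 complexConjugation (p - 1) (fun μ hμ => by
    rw [pow_one] at hμ
    exact complexConjugation_root p hp.pos μ hμ)
  rw [pow_one, hpk, Ideal.span_singleton_zero, Ideal.mem_bot, sub_eq_zero] at h1
  have h2 : ((p - 1 : ℕ) : k) = -1 := by
    rw [Nat.cast_sub hp.one_le, hpk]; simp
  rw [← h2]
  exact h1

/-- In a field where the odd prime `p` vanishes, `2` is invertible. -/
theorem two_ne_zero_of {k : Type} [Field k] (p : ℕ) [Fact p.Prime] (hp2 : p ≠ 2)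
    (hpk : (p : k) = 0) : (2 : k) ≠ 0 := by
  have hp : p.Prime := Fact.out
  haveI : CharP k p := (CharP.charP_iff_prime_eq_zero hp).mpr hpk
  intro h2
  have h3 : ((2 : ℕ) : k) = 0 := by exact_mod_cast h2
  rw [CharP.cast_eq_zero_iff k p] at h3
  exact hp2 ((Nat.prime_dvd_prime_iff_eq hp Nat.prime_two).mp h3)

/-! ### The group `G_ℝ` has order at most two -/

theorem archimedean_cases (g : archimedeanDecomposition) : g = 1 ∨ g = archimedeanGen := by
  obtain ⟨g, hg⟩ := g
  obtain ⟨n, rfl⟩ := Subgroup.mem_zpowers_iff.mp hg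
  rcases Int.even_or_odd' n with ⟨m, rfl | rfl⟩
  · left
    apply Subtype.ext
    show complexConjugation ^ (2 * m) = 1
    rw [zpow_mul, zpow_ofNat, complexConjugation_sq, one_zpow]
  · right
    apply Subtype.ext
    show complexConjugation ^ (2 * m + 1) = complexConjugation
    rw [zpow_add, zpow_mul, zpow_ofNat, complexConjugation_sq, one_zpow, one_mul, zpow_one]

theorem archimedeanGen_mul_self : archimedeanGen * archimedeanGen = 1 :=
  Subtype.ext complexConjugation_mul_self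

/-- `H¹(G_ℝ, A) = 0` for every representation of `G_ℝ` over a field in which `2 ≠ 0`. -/
theorem H1_archimedean_eq_zero {k : Type} [Field k] (h2 : (2 : k) ≠ 0)
    (A : Rep k archimedeanDecomposition) (ξ : H1 A) : ξ = 0 := by
  induction ξ using H1_induction_on with
  | h x =>
    rw [H1π_eq_zero_iff]
    have hcoc := (mem_cocycles₁_iff (x : archimedeanDecomposition → A)).mp x.2
      archimedeanGen archimedeanGen
    rw [archimedeanGen_mul_self, cocycles₁_map_one] at hcoc
    have hc : A.ρ archimedeanGen (x archimedeanGen) = - x archimedeanGen := by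
      rw [eq_neg_iff_add_eq_zero]; exact hcoc.symm
    refine ⟨-((2 : k)⁻¹ • x archimedeanGen), ?_⟩
    funext g
    rw [d₀₁_hom_apply]
    rcases archimedean_cases g with rfl | rfl
    · rw [cocycles₁_map_one, map_one]
      exact sub_self _
    · rw [map_neg, map_smul, hc, smul_neg, neg_neg, sub_neg_eq_add, ← add_smul,
        ← two_mul, mul_inv_cancel₀ h2, one_smul]

/-! ### Linear algebra of an involution of determinant `-1` in dimension two -/

theorem matrix_involution_facts {k : Type} [Field k] (C : Matrix (Fin 2) (Fin 2) k)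
    (hC : C * C = 1) (hdet : C.det = -1) :
    C 0 0 + C 1 1 = 0 ∧ C 0 0 * C 0 0 + C 0 1 * C 1 0 = 1 := by
  have h11 : C 0 0 * C 0 0 + C 0 1 * C 1 0 = 1 := by
    have := congrFun (congrFun hC 0) 0
    simpa [Matrix.mul_apply, Fin.sum_univ_two] using this
  have h22 : C 1 0 * C 0 1 + C 1 1 * C 1 1 = 1 := by
    have := congrFun (congrFun hC 1) 1
    simpa [Matrix.mul_apply, Fin.sum_univ_two] using this
  rw [Matrix.det_fin_two] at hdet
  refine ⟨?_, h11⟩
  have hsq : (C 0 0 + C 1 1) ^ 2 = 0 := by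
    linear_combination h11 + h22 + 2 * hdet
  exact pow_eq_zero_iff (two_ne_zero) |>.mp hsq

theorem matrix_key {k : Type} [Field k] (h2 : (2 : k) ≠ 0) (C F : Matrix (Fin 2) (Fin 2) k)
    (hC : C * C = 1) (hdet : C.det = -1) (htr : F.trace = 0) (hcomm : C * F = F * C) :
    ∃ t : k, F = t • C := by
  obtain ⟨hd, h11⟩ := matrix_involution_facts C hC hdet
  have hd' : C 1 1 = - C 0 0 := by linear_combination hd
  rw [Matrix.trace_fin_two] at htr
  have hw : F 1 1 = - F 0 0 := by linear_combination htr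
  have k12 : C 0 0 * F 0 1 + C 0 1 * F 1 1 = F 0 0 * C 0 1 + F 0 1 * C 1 1 := by
    have := congrFun (congrFun hcomm 0) 1
    simpa [Matrix.mul_apply, Fin.sum_univ_two] using this
  have k21 : C 1 0 * F 0 0 + C 1 1 * F 1 0 = F 1 0 * C 0 0 + F 1 1 * C 1 0 := by
    have := congrFun (congrFun hcomm 1) 0
    simpa [Matrix.mul_apply, Fin.sum_univ_two] using this
  have k11 : C 0 0 * F 0 0 + C 0 1 * F 1 0 = F 0 0 * C 0 0 + F 0 1 * C 1 0 := by
    have := congrFun (congrFun hcomm 0) 0
    simpa [Matrix.mul_apply, Fin.sum_univ_two] using this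
  rw [hw, hd'] at k12 k21
  have e1 : C 0 0 * F 0 1 = C 0 1 * F 0 0 := by
    apply mul_left_cancel₀ h2
    linear_combination k12
  have e2 : C 1 0 * F 0 0 = C 0 0 * F 1 0 := by
    apply mul_left_cancel₀ h2
    linear_combination k21
  have e3 : C 0 1 * F 1 0 = F 0 1 * C 1 0 := by linear_combination k11
  refine ⟨C 0 0 * F 0 0 + C 1 0 * F 0 1, ?_⟩
  ext i j
  fin_cases i <;> fin_cases j
  · simp only [Fin.zero_eta, Fin.isValue, Matrix.smul_apply, smul_eq_mul]
    linear_combination (-F 0 0) * h11 - (C 1 0) * e1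
  · simp only [Fin.zero_eta, Fin.isValue, Fin.mk_one, Matrix.smul_apply, smul_eq_mul]
    linear_combination (-F 0 1) * h11 + (C 0 0) * e1
  · simp only [Fin.zero_eta, Fin.isValue, Fin.mk_one, Matrix.smul_apply, smul_eq_mul]
    linear_combination (-F 1 0) * h11 - (C 0 0) * e2 + (C 1 0) * e3
  · simp only [Fin.isValue, Fin.mk_one, Matrix.smul_apply, smul_eq_mul]
    rw [hw, hd']
    linear_combination (F 0 0) * h11 + (C 1 0) * e1

section LinAlg

variable {k : Type} [Field k] {V : Type} [AddCommGroup V] [Module k V]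

theorem end_trace_eq_zero (hV : finrank k V = 2) (C : Module.End k V) (hC : C * C = 1)
    (hdet : LinearMap.det C = -1) : LinearMap.trace k V C = 0 := by
  haveI : Module.Finite k V := Module.finite_of_finrank_eq_succ hV
  let b := Module.finBasisOfFinrankEq k V hV
  rw [LinearMap.trace_eq_matrix_trace k b, Matrix.trace_fin_two]
  refine (matrix_involution_facts (LinearMap.toMatrix b b C) ?_ ?_).1
  · rw [← LinearMap.toMatrix_mul, hC, LinearMap.toMatrix_one]
  · rw [LinearMap.det_toMatrix, hdet]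

theorem end_key (h2 : (2 : k) ≠ 0) (hV : finrank k V = 2) (C F : Module.End k V) (hC : C * C = 1)
    (hdet : LinearMap.det C = -1) (htr : LinearMap.trace k V F = 0) (hcomm : C * F = F * C) :
    ∃ t : k, F = t • C := by
  haveI : Module.Finite k V := Module.finite_of_finrank_eq_succ hV
  let b := Module.finBasisOfFinrankEq k V hV
  obtain ⟨t, ht⟩ := matrix_key h2 (LinearMap.toMatrix b b C) (LinearMap.toMatrix b b F)
    (by rw [← LinearMap.toMatrix_mul, hC, LinearMap.toMatrix_one])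
    (by rw [LinearMap.det_toMatrix, hdet])
    (by rw [← LinearMap.trace_eq_matrix_trace k b, htr])
    (by rw [← LinearMap.toMatrix_mul, ← LinearMap.toMatrix_mul, hcomm])
  refine ⟨t, (LinearMap.toMatrix b b).injective ?_⟩
  rw [ht, map_smul]

end LinAlg

/-! ### Invariants of `G_ℝ` on `ad⁰ ρbar` -/

section Inv

variable {k : Type} [Field k] (ρbar : ResidualGaloisRep k)

/-- The underlying endomorphism of an element of the restriction of `ad⁰ ρbar` to `G_ℝ`. -/
def resVal : (Rep.res archimedeanLoc (ad0 ρbar)).V →ₗ[k] Module.End k ρbar.V :=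
  ad0Val ρbar

theorem resVal_injective : Function.Injective (resVal ρbar) :=
  Subtype.val_injective

theorem resVal_trace (f : (Rep.res archimedeanLoc (ad0 ρbar)).V) :
    LinearMap.trace k ρbar.V (resVal ρbar f) = 0 :=
  Subtype.prop (p := fun x => x ∈ ad0Sub ρbar) f

theorem resVal_ρ (g : archimedeanDecomposition) (f : (Rep.res archimedeanLoc (ad0 ρbar)).V) :
    resVal ρbar ((Rep.res archimedeanLoc (ad0 ρbar)).ρ g f) =
      ρbar.ρ g.1 * resVal ρbar f * ρbar.ρ g.1⁻¹ := rfl

theorem exists_resVal_eq (C : Module.End k ρbar.V) (hC : LinearMap.trace k ρbar.V C = 0) :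
    ∃ v : (Rep.res archimedeanLoc (ad0 ρbar)).V, resVal ρbar v = C :=
  ⟨(⟨C, hC⟩ : ad0Sub ρbar), rfl⟩

/-- `h⁰(G_ℝ, ad⁰ ρbar) = 1` for an odd `ρbar` in characteristic `≠ 2`. -/
theorem finrank_invariants_archimedean (h2 : (2 : k) ≠ 0)
    (hdet : LinearMap.det (ρbar.ρ complexConjugation) = -1) :
    finrank k (Rep.res archimedeanLoc (ad0 ρbar)).ρ.invariants = 1 := by
  obtain ⟨C, hCdef⟩ : ∃ C : Module.End k ρbar.V, C = ρbar.ρ complexConjugation := ⟨_, rfl⟩
  rw [← hCdef] at hdet
  have hC : C * C = 1 := by rw [hCdef, ← map_mul, complexConjugation_mul_self, map_one]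
  have hCinv : ρbar.ρ complexConjugation⁻¹ = C := by rw [complexConjugation_inv, hCdef]
  have htr : LinearMap.trace k ρbar.V C = 0 := end_trace_eq_zero ρbar.finrank_eq C hC hdet
  have hVnt : Nontrivial ρbar.V := by
    apply Module.nontrivial_of_finrank_pos (R := k)
    rw [ρbar.finrank_eq]; norm_num
  have hC0 : C ≠ 0 := by
    rintro rfl
    rw [mul_zero] at hC
    exact zero_ne_one hC
  obtain ⟨v, hv⟩ := exists_resVal_eq ρbar C htr
  have hv0 : v ≠ 0 := by
    rintro rfl
    rw [map_zero] at hv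
    exact hC0 hv.symm
  have key : (Rep.res archimedeanLoc (ad0 ρbar)).ρ.invariants = Submodule.span k {v} := by
    ext f
    rw [Representation.mem_invariants, Submodule.mem_span_singleton]
    constructor
    · intro h
      have h1 := congrArg (resVal ρbar) (h archimedeanGen)
      rw [resVal_ρ] at h1
      have h3 : C * resVal ρbar f * C = resVal ρbar f := by
        rw [← h1]
        show C * _ * C = ρbar.ρ complexConjugation * _ * ρbar.ρ complexConjugation⁻¹
        rw [hCinv, ← hCdef, h1]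
      have hcomm : C * resVal ρbar f = resVal ρbar f * C := by
        calc C * resVal ρbar f = C * resVal ρbar f * (C * C) := by rw [hC, mul_one]
          _ = (C * resVal ρbar f * C) * C := by simp only [mul_assoc]
          _ = resVal ρbar f * C := by rw [h3]
      obtain ⟨t, ht⟩ := end_key h2 ρbar.finrank_eq C (resVal ρbar f) hC hdet
        (resVal_trace ρbar f) hcomm
      refine ⟨t, resVal_injective ρbar ?_⟩
      rw [map_smul, hv, ht]
    · rintro ⟨t, rfl⟩ g
      apply resVal_injective ρbar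
      rw [resVal_ρ, map_smul, hv]
      rcases archimedean_cases g with rfl | rfl
      · simp
      · show ρbar.ρ complexConjugation * _ * ρbar.ρ complexConjugation⁻¹ = _
        rw [hCinv, ← hCdef, mul_smul_comm, smul_mul_assoc, hC, one_mul]
  rw [key, finrank_span_singleton hv0]

end Inv

/-- **Leaf LOC-inf.** -/
theorem stmt_loc_inf : Stmt_loc_inf := by
  intro 𝒪 _ _ _ _ _ p _ ρbar S Smin hyp
  have hpk : ((p : ℕ) : ResidueField 𝒪) = 0 := by
    have h := hyp.hdet.1
    rwa [IsLocalRing.maximalIdeal_eq_bot, Ideal.mem_bot] at h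
  have h2 : (2 : ResidueField 𝒪) ≠ 0 := two_ne_zero_of p hyp.hp2 hpk
  exact ⟨fun ξ => H1_archimedean_eq_zero h2 _ ξ,
    finrank_invariants_archimedean ρbar h2 (det_complexConjugation p ρbar hyp.hdet)⟩

end Fermat.Agent.S56.H13

end
end
-- ==== END Fermat.Agent.S56.H13_LocInf

-- ==== BEGIN Fermat.Agent.S56.H13_Unr
section

/-!
# Cluster T / S56, leaf UNR (helper13): `Stmt_unr_of_res_zero`

A continuous class unramified outside `Sg'` which is locally trivial at the primes of
`Sg' \ Sg`, where `M` is unramified, is unramified outside `Sg`.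
-/

set_option autoImplicit false
set_option linter.unusedSectionVars false
set_option linter.style.haveILetI false
set_option linter.unusedVariables false

noncomputable section

namespace Fermat.Agent.S56.H13

open CategoryTheory groupCohomology ExtCitation Fermat.Agent.S56

section Cocycle

variable {k : Type} [Field k] {M : Rep k GQ}

theorem cocycle_mul (c : cocycles₁ M) (g h : GQ) : c (g * h) = M.ρ g (c h) + c g :=
  (mem_cocycles₁_iff (c : GQ → M)).mp c.2 g h

theorem cocycle_inv (c : cocycles₁ M) (g : GQ) : c g⁻¹ = - M.ρ g⁻¹ (c g) := by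
  have h := cocycle_mul c g⁻¹ g
  rw [inv_mul_cancel, cocycles₁_map_one] at h
  rw [eq_neg_iff_add_eq_zero, add_comm]
  exact h.symm

/-- The zero set of a cocycle is a subgroup. -/
def zeroSubgroup (c : cocycles₁ M) : Subgroup GQ where
  carrier := {s | c s = 0}
  one_mem' := cocycles₁_map_one c
  mul_mem' := fun {a b} ha hb => by
    show c (a * b) = 0
    rw [cocycle_mul, show c b = 0 from hb, show c a = 0 from ha, map_zero, add_zero]
  inv_mem' := fun {a} ha => by
    show c a⁻¹ = 0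
    rw [cocycle_inv, show c a = 0 from ha, map_zero, neg_zero]

theorem mem_zeroSubgroup (c : cocycles₁ M) (s : GQ) : s ∈ zeroSubgroup c ↔ c s = 0 := Iff.rfl

/-- Local triviality gives a coboundary on the local Galois group. -/
theorem exists_coboundary (c : cocycles₁ M) (q : Nat.Primes)
    (h : resAt M q ((H1π M).hom c) = 0) :
    ∃ m : M, ∀ t : primeLocalGaloisGroup q,
      c (primeLocalToGlobal q t) = M.ρ (primeLocalToGlobal q t) m - m := by
  unfold resAt at h
  have h1 := H1π_comp_map_apply (primeLocalToGlobal q)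
    (𝟙 (Rep.res (primeLocalToGlobal q) M)) c
  rw [h1] at h
  rw [H1π_eq_zero_iff] at h
  obtain ⟨m, hm⟩ := h
  refine ⟨m, fun t => ?_⟩
  exact (congrFun hm t).symm

end Cocycle

section Place

open Fermat.Agent.Lib.LocalGlobalDense

/-- The distinguished place over `q` lies over `q`. -/
theorem primeLocalPlace_liesOver (q : Nat.Primes) :
    (primeLocalPlace q).LiesOverPrime (q : ℕ) := by
  haveI : Fact (q : ℕ).Prime := ⟨q.2⟩
  show ((q : ℕ) : AlgebraicClosure ℚ) ∈ (padicPlace (q : ℕ)).nonunits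
  rw [ValuationSubring.mem_nonunits_iff_or]
  right
  rw [← absQ_le_one_iff, map_inv₀, absQ_natCast_self, inv_inv, not_le]
  exact_mod_cast q.2.one_lt

end Place

section Vanish

open Fermat.Agent.Lib.LocalGlobalDense Fermat.Agent.Lib.InertiaConj

variable {k : Type} [Field k] {M : Rep k GQ}

/-- A cocycle which is trivial on an open subgroup and a coboundary on the local Galois group
at `q` vanishes on the distinguished inertia group at `q` when `M` is unramified at `q`. -/
theorem cocycle_eq_zero_of_mem_inertia₀ (hsm : IsSmoothRep M) (c : cocycles₁ M)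
    (F : IntermediateField ℚ (AlgebraicClosure ℚ)) (hFfin : FiniteDimensional ℚ F)
    (hF : ∀ s ∈ F.fixingSubgroup, c s = 0) (q : Nat.Primes)
    (hur : IsUnramifiedRepAt M (q : ℕ))
    (hloc : resAt M q ((H1π M).hom c) = 0) (s : GQ)
    (hs : s ∈ (primeLocalPlace q).inertiaSubgroupIn ℚ) : c s = 0 := by
  haveI : Fact (q : ℕ).Prime := ⟨q.2⟩
  obtain ⟨m, hm⟩ := exists_coboundary c q hloc
  obtain ⟨Fm, hFmfin, hFm⟩ := hsm m
  haveI := hFfin
  haveI := hFmfin
  haveI : FiniteDimensional ℚ (F ⊔ Fm : IntermediateField ℚ (AlgebraicClosure ℚ)) :=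
    IntermediateField.finiteDimensional_sup F Fm
  have hsD : s ∈ (padicPlace (q : ℕ)).decompositionSubgroup ℚ := by
    obtain ⟨t, ht, rfl⟩ := hs
    exact t.2
  obtain ⟨τ, hτ⟩ := exists_local_lift_field (q : ℕ) s hsD (F ⊔ Fm)
  -- `h := (loc τ)⁻¹ * s` fixes `F ⊔ Fm`
  obtain ⟨g, hg⟩ : ∃ g : GQ, g = localGaloisToGlobal (q : ℕ) τ := ⟨_, rfl⟩
  have hgloc : g = primeLocalToGlobal q τ := hg
  have hh : g⁻¹ * s ∈ (F ⊔ Fm).fixingSubgroup := by
    rw [IntermediateField.mem_fixingSubgroup_iff]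
    intro x hx
    show g⁻¹ (s x) = x
    rw [← hτ x hx, ← hg]
    exact AlgEquiv.symm_apply_apply g x
  have hhF : g⁻¹ * s ∈ F.fixingSubgroup :=
    IntermediateField.fixingSubgroup_antitone le_sup_left hh
  have hhFm : g⁻¹ * s ∈ Fm.fixingSubgroup :=
    IntermediateField.fixingSubgroup_antitone le_sup_right hh
  have hs_eq : s = g * (g⁻¹ * s) := by group
  have hρs : M.ρ s = 1 := hur (primeLocalPlace q) (primeLocalPlace_liesOver q) s hs
  have hgm : M.ρ g m = m := by
    have h1 : M.ρ s m = m := by rw [hρs]; rfl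
    have h2 : M.ρ (g⁻¹ * s) m = m := hFm _ hhFm
    have h3 : M.ρ s m = M.ρ g (M.ρ (g⁻¹ * s) m) := by
      conv_lhs => rw [hs_eq]
      rw [map_mul]
      rfl
    rw [h2, h1] at h3
    exact h3.symm
  rw [hs_eq, cocycle_mul, hF _ hhF, map_zero, zero_add, hgloc, hm τ, ← hgloc, hgm, sub_self]

/-- The same for every inertia group above `q`. -/
theorem cocycle_eq_zero_of_mem_inertia (hsm : IsSmoothRep M) (c : cocycles₁ M)
    (F : IntermediateField ℚ (AlgebraicClosure ℚ)) (hFfin : FiniteDimensional ℚ F)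
    (hF : ∀ s ∈ F.fixingSubgroup, c s = 0) (q : Nat.Primes)
    (hur : IsUnramifiedRepAt M (q : ℕ))
    (hloc : resAt M q ((H1π M).hom c) = 0)
    (A : ValuationSubring (AlgebraicClosure ℚ)) (hA : A.LiesOverPrime (q : ℕ)) (s : GQ)
    (hs : s ∈ A.inertiaSubgroupIn ℚ) : c s = 0 := by
  obtain ⟨g, hg⟩ := exists_conj_mem_inertia (q : ℕ) q.2 (primeLocalPlace q) A
    (primeLocalPlace_liesOver q) hA
  have hs₀ := (hg s).mp hs
  have hc₀ := cocycle_eq_zero_of_mem_inertia₀ hsm c F hFfin hF q hur hloc _ hs₀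
  have hρ₀ : M.ρ (g⁻¹ * s * g) = 1 :=
    hur (primeLocalPlace q) (primeLocalPlace_liesOver q) _ hs₀
  have hs_eq : s = g * ((g⁻¹ * s * g) * g⁻¹) := by group
  have h1 : c ((g⁻¹ * s * g) * g⁻¹) = c g⁻¹ := by
    rw [cocycle_mul, hc₀, add_zero, hρ₀]
    rfl
  rw [hs_eq, cocycle_mul, h1, ← cocycle_mul, mul_inv_cancel, cocycles₁_map_one]

end Vanish

theorem qbar_isGalois13 : IsGalois ℚ (AlgebraicClosure ℚ) :=
  letI : Algebra.IsAlgebraic ℚ (AlgebraicClosure ℚ) := AlgebraicClosure.isAlgebraic ℚ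
  letI : IsAlgClosure ℚ (AlgebraicClosure ℚ) := ⟨inferInstance, inferInstance⟩
  inferInstance

/-- **Leaf UNR.** -/
theorem stmt_unr_of_res_zero : Stmt_unr_of_res_zero := by
  intro k _ _ M _ hsm Sg Sg' hle hur ξ hξ hloc
  haveI := qbar_isGalois13
  obtain ⟨c, ⟨F, hFunr, hFc⟩, rfl⟩ := (mem_continuousH1S_iff Sg' M ξ).mp hξ
  haveI : FiniteDimensional ℚ F := hFunr.1
  have hF0 : ∀ s ∈ F.fixingSubgroup, c s = 0 := fun s hs => by
    have := hFc 1 s hs
    rw [one_mul, cocycles₁_map_one] at this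
    exact this
  have hFZ : F.fixingSubgroup ≤ zeroSubgroup c := hF0
  have hZopen : IsOpen (zeroSubgroup c : Set GQ) :=
    Subgroup.isOpen_mono hFZ (IntermediateField.fixingSubgroup_isOpen F)
  have hZclosed : IsClosed (zeroSubgroup c : Set GQ) := Subgroup.isClosed_of_isOpen _ hZopen
  have hZfix : (IntermediateField.fixedField (zeroSubgroup c)).fixingSubgroup = zeroSubgroup c :=
    InfiniteGalois.fixingSubgroup_fixedField ⟨zeroSubgroup c, hZclosed⟩
  have hF'F : IntermediateField.fixedField (zeroSubgroup c) ≤ F := by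
    have h1 := IntermediateField.fixedField_antitone hFZ
    rw [InfiniteGalois.fixedField_fixingSubgroup] at h1
    exact h1
  rw [mem_continuousH1S_iff]
  refine ⟨c, ⟨IntermediateField.fixedField (zeroSubgroup c), ⟨?_, ?_⟩, ?_⟩, rfl⟩
  · exact FiniteDimensional.of_injective (IntermediateField.inclusion hF'F).toLinearMap
      (IntermediateField.inclusion_injective hF'F)
  · intro q hq A hA s hs
    rw [hZfix, mem_zeroSubgroup]
    by_cases hq' : q ∈ Sg'
    · exact cocycle_eq_zero_of_mem_inertia hsm c F hFunr.1 hF0 q (hur q hq' hq)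
        (hloc q hq' hq) A hA s hs
    · exact hF0 s (hFunr.2 q hq' A hA hs)
  · intro g s hs
    rw [hZfix, mem_zeroSubgroup] at hs
    rw [cocycle_mul, hs, map_zero, zero_add]

end Fermat.Agent.S56.H13

end

end
-- ==== END Fermat.Agent.S56.H13_Unr

-- ==== BEGIN Fermat.Agent.S56.H27_GlobH0
section

set_option autoImplicit false

/-!
# Cluster T / S56, leaf GLOB-h0 (helper27): `ad⁰ ρbar` and `ad⁰ ρbar (1)` have no invariants

* `schur_scalar`   : Schur's lemma over an algebraically closed field, for a family of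
                     endomorphisms without proper stable subspace.
* `stmt_glob_h0`   : `Stmt_glob_h0`.
-/

noncomputable section

namespace Fermat.Agent.S56.H27

open Polynomial IsLocalRing CategoryTheory groupCohomology ExtCitation Fermat.Agent.S53 Module
open Fermat.Agent.S56
open scoped TensorProduct

section LinAlg

variable {K : Type*} [Field K] {U : Type*} [AddCommGroup U] [Module K U]

/-- Schur's lemma: over an algebraically closed field, an endomorphism commuting with a family of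
endomorphisms without proper stable subspace is a scalar. -/
theorem schur_scalar [IsAlgClosed K] [FiniteDimensional K U] [Nontrivial U]
    (Γ : Set (Module.End K U))
    (hirr : ∀ W : Submodule K U, (∀ γ ∈ Γ, ∀ x ∈ W, γ x ∈ W) → W = ⊥ ∨ W = ⊤)
    (F : Module.End K U) (hF : ∀ γ ∈ Γ, ∀ u, γ (F u) = F (γ u)) :
    ∃ μ : K, ∀ u, F u = μ • u := by
  obtain ⟨μ, hμ⟩ := Module.End.exists_eigenvalue F
  refine ⟨μ, ?_⟩
  have hstab : ∀ γ ∈ Γ, ∀ x ∈ F.eigenspace μ, γ x ∈ F.eigenspace μ := by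
    intro γ hγ x hx
    rw [Module.End.mem_eigenspace_iff] at hx ⊢
    rw [← hF γ hγ x, hx, map_smul]
  rcases hirr _ hstab with h | h
  · exact absurd h hμ
  · intro u
    have : u ∈ F.eigenspace μ := by rw [h]; trivial
    exact Module.End.mem_eigenspace_iff.mp this

/-- A scalar endomorphism of trace zero of a plane is zero in characteristic `≠ 2`. -/
theorem eq_zero_of_scalar_of_trace [FiniteDimensional K U] (h2 : Module.finrank K U = 2)
    (hchar : (2 : K) ≠ 0) (F : Module.End K U) (μ : K) (hF : ∀ u, F u = μ • u)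
    (htr : LinearMap.trace K U F = 0) : F = 0 := by
  have hFeq : F = μ • (LinearMap.id : U →ₗ[K] U) := by
    ext u
    simp [hF]
  rw [hFeq, map_smul, LinearMap.trace_id, h2] at htr
  have hμ : μ = 0 := by
    have h : μ * 2 = 0 := by simpa using htr
    rcases mul_eq_zero.mp h with h | h
    · exact h
    · exact absurd h hchar
  rw [hFeq, hμ, zero_smul]

end LinAlg

section BaseChange

variable {k : Type} [Field k] (ρbar : ResidualGaloisRep k)

/-- Base change of endomorphisms along a field extension is injective. -/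
theorem baseChange_eq_zero (K : Type) [Field K] [Algebra k K] (f : Module.End k ρbar.V)
    (h : LinearMap.baseChange K f = 0) : f = 0 := by
  ext v
  have h1 := congrArg (fun g : K ⊗[k] ρbar.V →ₗ[K] K ⊗[k] ρbar.V => g ((1 : K) ⊗ₜ[k] v)) h
  simp only [LinearMap.baseChange_tmul, LinearMap.zero_apply] at h1
  exact (Module.FaithfullyFlat.one_tmul_eq_zero_iff (R := k) (M := ρbar.V) (A := K) (f v)).mp h1

theorem two_ne_zero_of_algebra (K : Type) [Field K] [Algebra k K] (hchar : (2 : k) ≠ 0) :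
    (2 : K) ≠ 0 := by
  intro h
  apply hchar
  apply (algebraMap k K).injective
  rw [map_zero, map_ofNat]
  exact h

/-- **Lemma A.** A trace-zero endomorphism of `V` commuting with a subgroup `N` of `G_ℚ` whose
action on `K ⊗ V` has no proper stable subspace (`K` algebraically closed) is zero. -/
theorem eq_zero_of_commute (hchar : (2 : k) ≠ 0) (N : Subgroup _root_.Fermat.Agent.S56.GQ)
    (K : Type) [Field K] [Algebra k K] [IsAlgClosed K]
    (hirr : ∀ W : Submodule K (ρbar.baseChange K).V,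
      (∀ σ ∈ N, ∀ x ∈ W, (ρbar.baseChange K).ρ σ x ∈ W) → W = ⊥ ∨ W = ⊤)
    (f : Module.End k ρbar.V) (htr : LinearMap.trace k ρbar.V f = 0)
    (hcomm : ∀ σ ∈ N, ∀ v, ρbar.ρ σ (f v) = f (ρbar.ρ σ v)) : f = 0 := by
  apply baseChange_eq_zero ρbar K
  have hfr : Module.finrank K (K ⊗[k] ρbar.V) = 2 := (ρbar.baseChange K).finrank_eq
  have : FiniteDimensional K (K ⊗[k] ρbar.V) := Module.finite_of_finrank_eq_succ hfr
  have : Nontrivial (K ⊗[k] ρbar.V) :=
    Module.nontrivial_of_finrank_pos (R := K) (by rw [hfr]; norm_num)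
  let Γ : Set (Module.End K (K ⊗[k] ρbar.V)) :=
    {γ | ∃ σ ∈ N, γ = LinearMap.baseChange K (ρbar.ρ σ)}
  have hirr' : ∀ W : Submodule K (K ⊗[k] ρbar.V), (∀ γ ∈ Γ, ∀ x ∈ W, γ x ∈ W) →
      W = ⊥ ∨ W = ⊤ := by
    intro W hW
    apply hirr W
    intro σ hσ x hx
    exact hW _ ⟨σ, hσ, rfl⟩ x hx
  have hF : ∀ γ ∈ Γ, ∀ u, γ (LinearMap.baseChange K f u) = LinearMap.baseChange K f (γ u) := by
    rintro γ ⟨σ, hσ, rfl⟩ u
    have e : (ρbar.ρ σ) ∘ₗ f = f ∘ₗ (ρbar.ρ σ) := by
      ext v
      exact hcomm σ hσ v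
    have e2 := congrArg (LinearMap.baseChange K) e
    rw [LinearMap.baseChange_comp, LinearMap.baseChange_comp] at e2
    exact congrArg (fun g : K ⊗[k] ρbar.V →ₗ[K] K ⊗[k] ρbar.V => g u) e2
  obtain ⟨μ, hμ⟩ := schur_scalar Γ hirr' (LinearMap.baseChange K f) hF
  refine eq_zero_of_scalar_of_trace hfr (two_ne_zero_of_algebra K hchar) _ μ hμ ?_
  rw [LinearMap.trace_baseChange, htr, map_zero]

end BaseChange

section PartOne

variable {k : Type} [Field k] (ρbar : ResidualGaloisRep k)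

/-- `ad⁰ ρbar` has no invariants. -/
theorem ad0_invariants_eq_bot (hchar : (2 : k) ≠ 0) (habs : ρbar.IsAbsolutelyIrreducible) :
    (ad0 ρbar).ρ.invariants = ⊥ := by
  rw [eq_bot_iff]
  intro m hm
  rw [Representation.mem_invariants] at hm
  rw [Submodule.mem_bot]
  have hm' : ∀ g : _root_.Fermat.Agent.S56.GQ, adRepr ρbar g (m : ad0Sub ρbar).1 = (m : ad0Sub ρbar).1 := fun g =>
    congrArg Subtype.val (hm g)
  have htr : LinearMap.trace k ρbar.V (m : ad0Sub ρbar).1 = 0 := (m : ad0Sub ρbar).2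
  have hcomm : ∀ σ ∈ (⊤ : Subgroup _root_.Fermat.Agent.S56.GQ), ∀ v,
      ρbar.ρ σ ((m : ad0Sub ρbar).1 v) = (m : ad0Sub ρbar).1 (ρbar.ρ σ v) := by
    intro σ _ v
    have h1 := hm' σ
    rw [adRepr_apply] at h1
    have h2 := congrArg (fun g : Module.End k ρbar.V => g (ρbar.ρ σ v)) h1
    simp only [LinearMap.comp_apply] at h2
    have h3 : ρbar.ρ σ⁻¹ (ρbar.ρ σ v) = v := by
      rw [← Module.End.mul_apply, ← map_mul, inv_mul_cancel, map_one]
      rfl
    rw [h3] at h2
    exact h2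
  have h0 := eq_zero_of_commute ρbar hchar ⊤ (AlgebraicClosure k)
    (fun W hW => habs W (fun σ x hx => hW σ (Subgroup.mem_top σ) x hx)) _ htr hcomm
  exact Subtype.ext h0

end PartOne

section PartTwo

variable {k : Type} [Field k] (ρbar : ResidualGaloisRep k)

/-- The trace form `(f, m) ↦ tr (f m)` on `End V`. -/
def trForm : Module.End k ρbar.V →ₗ[k] Module.Dual k (Module.End k ρbar.V) :=
  (LinearMap.mul k (Module.End k ρbar.V)).compr₂ (LinearMap.trace k ρbar.V)

theorem trForm_apply (f m : Module.End k ρbar.V) :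
    trForm ρbar f m = LinearMap.trace k ρbar.V (f * m) := rfl

theorem trForm_injective : Function.Injective (trForm ρbar) := by
  rw [injective_iff_map_eq_zero]
  intro f hf
  ext w
  rw [LinearMap.zero_apply, ← Module.forall_dual_apply_eq_zero_iff k]
  intro ξ
  have h := congrArg (fun φ : Module.Dual k (Module.End k ρbar.V) => φ (ξ.smulRight w)) hf
  simp only [trForm_apply, LinearMap.zero_apply] at h
  have e : f * ξ.smulRight w = ξ.smulRight (f w) := by
    ext v
    simp
  rw [e, LinearMap.trace_smulRight] at h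
  exact h

theorem trForm_surjective : Function.Surjective (trForm ρbar) :=
  (LinearMap.injective_iff_surjective_of_finrank_eq_finrank
    (by rw [Subspace.dual_finrank_eq])).mp (trForm_injective ρbar)

/-- The projection of `End V` onto the trace-zero endomorphisms (characteristic `≠ 2`). -/
def tzMap : Module.End k ρbar.V →ₗ[k] Module.End k ρbar.V :=
  LinearMap.id - (2⁻¹ : k) • (LinearMap.trace k ρbar.V).smulRight (1 : Module.End k ρbar.V)

theorem tzMap_apply (m : Module.End k ρbar.V) :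
    tzMap ρbar m = m - (2⁻¹ : k) • (LinearMap.trace k ρbar.V m • (1 : Module.End k ρbar.V)) := rfl

theorem trace_tzMap (hchar : (2 : k) ≠ 0) (m : Module.End k ρbar.V) :
    LinearMap.trace k ρbar.V (tzMap ρbar m) = 0 := by
  rw [tzMap_apply, map_sub, map_smul, map_smul, LinearMap.trace_one, ρbar.finrank_eq]
  simp only [smul_eq_mul, Nat.cast_ofNat]
  field_simp
  ring

theorem tzMap_of_trace_zero (m : Module.End k ρbar.V) (hm : LinearMap.trace k ρbar.V m = 0) :
    tzMap ρbar m = m := by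
  rw [tzMap_apply, hm, zero_smul, smul_zero, sub_zero]

theorem rho_inv_mul (g : _root_.Fermat.Agent.S56.GQ) : ρbar.ρ g⁻¹ * ρbar.ρ g = 1 := by
  rw [← map_mul, inv_mul_cancel, map_one]

theorem rho_mul_inv (g : _root_.Fermat.Agent.S56.GQ) : ρbar.ρ g * ρbar.ρ g⁻¹ = 1 := by
  rw [← map_mul, mul_inv_cancel, map_one]

theorem adRepr_eq_mul (g : _root_.Fermat.Agent.S56.GQ) (m : Module.End k ρbar.V) :
    adRepr ρbar g m = ρbar.ρ g * m * ρbar.ρ g⁻¹ := rfl

theorem trace_adRepr (g : _root_.Fermat.Agent.S56.GQ) (m : Module.End k ρbar.V) :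
    LinearMap.trace k ρbar.V (adRepr ρbar g m) = LinearMap.trace k ρbar.V m := by
  rw [adRepr_eq_mul, LinearMap.trace_mul_comm, ← mul_assoc, rho_inv_mul, one_mul]

theorem adRepr_tzMap (g : _root_.Fermat.Agent.S56.GQ) (m : Module.End k ρbar.V) :
    adRepr ρbar g (tzMap ρbar m) = tzMap ρbar (adRepr ρbar g m) := by
  rw [tzMap_apply, tzMap_apply, trace_adRepr, map_sub, map_smul, map_smul]
  congr 3
  rw [adRepr_eq_mul, mul_one, rho_mul_inv]

/-- The projection onto `ad⁰`, with values in the subtype. -/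
def tzProj (hchar : (2 : k) ≠ 0) : Module.End k ρbar.V →ₗ[k] ad0Sub ρbar :=
  LinearMap.codRestrict (ad0Sub ρbar) (tzMap ρbar) (fun m => by
    show tzMap ρbar m ∈ LinearMap.ker _
    rw [LinearMap.mem_ker]
    exact trace_tzMap ρbar hchar m)

theorem tzProj_coe (hchar : (2 : k) ≠ 0) (m : Module.End k ρbar.V) :
    (tzProj ρbar hchar m : Module.End k ρbar.V) = tzMap ρbar m := rfl

theorem tzProj_of_mem (hchar : (2 : k) ≠ 0) (x : ad0Sub ρbar) :
    tzProj ρbar hchar x.1 = x :=
  Subtype.ext (tzMap_of_trace_zero ρbar x.1 x.2)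

theorem ad0_rho_tzProj (hchar : (2 : k) ≠ 0) (g : _root_.Fermat.Agent.S56.GQ) (m : Module.End k ρbar.V) :
    (ad0 ρbar).ρ g (tzProj ρbar hchar m) = tzProj ρbar hchar (adRepr ρbar g m) :=
  Subtype.ext (adRepr_tzMap ρbar g m)

/-- The twisted commutation relation satisfied by the endomorphism attached to an invariant of
`ad⁰ ρbar (χ)`-dual. -/
theorem twisted_relation (hchar : (2 : k) ≠ 0) (χ : _root_.Fermat.Agent.S56.GQ →* kˣ)
    (lam : Module.Dual k (ad0Sub ρbar))
    (hlam : ∀ (g : _root_.Fermat.Agent.S56.GQ) (x : ad0Sub ρbar), (χ g : k) * lam ((ad0 ρbar).ρ g⁻¹ x) = lam x)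
    (f : Module.End k ρbar.V)
    (hf : ∀ m, LinearMap.trace k ρbar.V (f * m) = lam (tzProj ρbar hchar m)) (g : _root_.Fermat.Agent.S56.GQ) :
    (χ g : k) • (ρbar.ρ g * f) = f * ρbar.ρ g := by
  have e : ∀ m : Module.End k ρbar.V,
      LinearMap.trace k ρbar.V (ρbar.ρ g * f * ρbar.ρ g⁻¹ * m) =
      LinearMap.trace k ρbar.V (f * (ρbar.ρ g⁻¹ * m * ρbar.ρ g)) := by
    intro m
    calc LinearMap.trace k ρbar.V (ρbar.ρ g * f * ρbar.ρ g⁻¹ * m)
        = LinearMap.trace k ρbar.V (ρbar.ρ g * (f * (ρbar.ρ g⁻¹ * m))) := by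
          rw [mul_assoc, mul_assoc]
      _ = LinearMap.trace k ρbar.V ((f * (ρbar.ρ g⁻¹ * m)) * ρbar.ρ g) :=
          LinearMap.trace_mul_comm k _ _
      _ = LinearMap.trace k ρbar.V (f * (ρbar.ρ g⁻¹ * m * ρbar.ρ g)) := by
          rw [mul_assoc]
  have h1 : (χ g : k) • (ρbar.ρ g * f * ρbar.ρ g⁻¹) = f := by
    apply trForm_injective ρbar
    ext m
    rw [trForm_apply, trForm_apply, smul_mul_assoc, map_smul, smul_eq_mul, hf m,
      ← hlam g (tzProj ρbar hchar m), ad0_rho_tzProj, ← hf, adRepr_eq_mul, inv_inv, e]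
  have e3 : ρbar.ρ g * f * ρbar.ρ g⁻¹ * ρbar.ρ g = ρbar.ρ g * f := by
    rw [mul_assoc (ρbar.ρ g * f), rho_inv_mul, mul_one]
  have h2 : ((χ g : k) • (ρbar.ρ g * f * ρbar.ρ g⁻¹)) * ρbar.ρ g = f * ρbar.ρ g := by
    rw [h1]
  rw [smul_mul_assoc, e3] at h2
  exact h2

theorem baseChange_rho (K : Type) [Field K] [Algebra k K] (g : _root_.Fermat.Agent.S56.GQ) :
    (ρbar.baseChange K).ρ g = LinearMap.baseChange K (ρbar.ρ g) := rfl

/-- **Lemma B.** A trace-zero endomorphism satisfying the twisted commutation relation is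
zero. -/
theorem eq_zero_of_twisted (hchar : (2 : k) ≠ 0) (habs : ρbar.IsAbsolutelyIrreducible)
    (hTW : ∀ (K : Type) [Field K] [Algebra k K] (G : Subgroup _root_.Fermat.Agent.S56.GQ), G.index = 2 →
      ∀ V : Submodule K (ρbar.baseChange K).V,
        (∀ σ ∈ G, ∀ x ∈ V, (ρbar.baseChange K).ρ σ x ∈ V) → V = ⊥ ∨ V = ⊤)
    (χ : _root_.Fermat.Agent.S56.GQ →* kˣ) (f : Module.End k ρbar.V) (htr : LinearMap.trace k ρbar.V f = 0)
    (hrel : ∀ g : _root_.Fermat.Agent.S56.GQ, (χ g : k) • (ρbar.ρ g * f) = f * ρbar.ρ g) : f = 0 := by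
  by_contra hf0
  have hfr : Module.finrank (AlgebraicClosure k) (AlgebraicClosure k ⊗[k] ρbar.V) = 2 :=
    (ρbar.baseChange (AlgebraicClosure k)).finrank_eq
  have : FiniteDimensional (AlgebraicClosure k) (AlgebraicClosure k ⊗[k] ρbar.V) :=
    Module.finite_of_finrank_eq_succ hfr
  have hF0 : LinearMap.baseChange (AlgebraicClosure k) f ≠ 0 :=
    fun h => hf0 (baseChange_eq_zero ρbar (AlgebraicClosure k) f h)
  -- the relation over the algebraic closure
  have hrelK : ∀ g : _root_.Fermat.Agent.S56.GQ, (algebraMap k (AlgebraicClosure k) (χ g : k)) •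
      (LinearMap.baseChange (AlgebraicClosure k) (ρbar.ρ g) *
        LinearMap.baseChange (AlgebraicClosure k) f) =
      LinearMap.baseChange (AlgebraicClosure k) f *
        LinearMap.baseChange (AlgebraicClosure k) (ρbar.ρ g) := by
    intro g
    have h := congrArg (LinearMap.baseChange (AlgebraicClosure k)) (hrel g)
    rw [LinearMap.baseChange_smul, LinearMap.baseChange_mul, LinearMap.baseChange_mul] at h
    rw [algebraMap_smul]
    exact h
  -- the kernel is stable, hence trivial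
  have hker : LinearMap.ker (LinearMap.baseChange (AlgebraicClosure k) f) = ⊥ := by
    have hstab : ∀ σ : _root_.Fermat.Agent.S56.GQ, ∀ x ∈ LinearMap.ker (LinearMap.baseChange (AlgebraicClosure k) f),
        (ρbar.baseChange (AlgebraicClosure k)).ρ σ x ∈
          LinearMap.ker (LinearMap.baseChange (AlgebraicClosure k) f) := by
      intro σ x hx
      rw [LinearMap.mem_ker] at hx ⊢
      rw [baseChange_rho]
      have h := congrArg (fun φ : Module.End (AlgebraicClosure k)
        (AlgebraicClosure k ⊗[k] ρbar.V) => φ x) (hrelK σ)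
      simp only [LinearMap.smul_apply, Module.End.mul_apply] at h
      rw [← h, hx, map_zero, smul_zero]
    rcases habs _ hstab with h | h
    · exact h
    · exact absurd (LinearMap.ker_eq_top.mp h) hF0
  have hdetF : LinearMap.det (LinearMap.baseChange (AlgebraicClosure k) f) ≠ 0 := by
    intro h
    have := LinearMap.bot_lt_ker_of_det_eq_zero h
    rw [hker] at this
    exact lt_irrefl _ this
  have hdetR : ∀ g : _root_.Fermat.Agent.S56.GQ,
      LinearMap.det (LinearMap.baseChange (AlgebraicClosure k) (ρbar.ρ g)) ≠ 0 := by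
    intro g h
    have h1 : LinearMap.baseChange (AlgebraicClosure k) (ρbar.ρ g) *
        LinearMap.baseChange (AlgebraicClosure k) (ρbar.ρ g⁻¹) = 1 := by
      rw [← LinearMap.baseChange_mul, rho_mul_inv, LinearMap.baseChange_one]
    have h2 := congrArg LinearMap.det h1
    rw [map_mul, h, zero_mul, map_one] at h2
    exact zero_ne_one h2
  have hχ2 : ∀ g : _root_.Fermat.Agent.S56.GQ, (χ g : k) ^ 2 = 1 := by
    intro g
    have h := congrArg LinearMap.det (hrelK g)
    rw [LinearMap.det_smul, hfr, map_mul, map_mul] at h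
    have h3 : (algebraMap k (AlgebraicClosure k) (χ g : k)) ^ 2 = 1 := by
      have h4 : ((algebraMap k (AlgebraicClosure k) (χ g : k)) ^ 2 - 1) *
          (LinearMap.det (LinearMap.baseChange (AlgebraicClosure k) (ρbar.ρ g)) *
            LinearMap.det (LinearMap.baseChange (AlgebraicClosure k) f)) = 0 := by
        linear_combination h
      rcases mul_eq_zero.mp h4 with h5 | h5
      · exact sub_eq_zero.mp h5
      · exact absurd h5 (mul_ne_zero (hdetR g) hdetF)
    apply (algebraMap k (AlgebraicClosure k)).injective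
    rw [map_pow, h3, map_one]
  have hχpm : ∀ g : _root_.Fermat.Agent.S56.GQ, (χ g : k) = 1 ∨ (χ g : k) = -1 := fun g =>
    sq_eq_one_iff.mp (hχ2 g)
  have h1ne : (1 : k) ≠ -1 := by
    intro h
    apply hchar
    linear_combination h
  have hcomm : ∀ σ ∈ χ.ker, ∀ v, ρbar.ρ σ (f v) = f (ρbar.ρ σ v) := by
    intro σ hσ v
    rw [MonoidHom.mem_ker] at hσ
    have h := hrel σ
    rw [hσ, Units.val_one, one_smul] at h
    exact congrArg (fun φ : Module.End k ρbar.V => φ v) h
  by_cases hall : ∀ g : _root_.Fermat.Agent.S56.GQ, χ g = 1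
  · apply hf0
    refine eq_zero_of_commute ρbar hchar ⊤ (AlgebraicClosure k)
      (fun W hW => habs W (fun σ x hx => hW σ (Subgroup.mem_top σ) x hx)) f htr ?_
    intro σ _ v
    exact hcomm σ (MonoidHom.mem_ker.mpr (hall σ)) v
  · push Not at hall
    obtain ⟨g₀, hg₀⟩ := hall
    have hg₀' : (χ g₀ : k) = -1 := by
      rcases hχpm g₀ with h | h
      · exact absurd (Units.ext (by rw [h, Units.val_one])) hg₀
      · exact h
    have hidx : (χ.ker).index = 2 := by
      rw [Subgroup.index_eq_two_iff]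
      refine ⟨g₀, fun b => ?_⟩
      have hmem : ∀ c : _root_.Fermat.Agent.S56.GQ, c ∈ χ.ker ↔ (χ c : k) = 1 := by
        intro c
        rw [MonoidHom.mem_ker]
        constructor
        · intro h
          rw [h, Units.val_one]
        · intro h
          exact Units.ext (by rw [h, Units.val_one])
      have hmul : (χ (b * g₀) : k) = (χ b : k) * (-1) := by
        rw [map_mul, Units.val_mul, hg₀']
      rcases hχpm b with hb | hb
      · refine Or.inr ⟨(hmem b).mpr hb, ?_⟩
        rw [hmem, hmul, hb, one_mul]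
        exact fun h => h1ne h.symm
      · refine Or.inl ⟨?_, ?_⟩
        · rw [hmem, hmul, hb]
          ring
        · rw [hmem, hb]
          exact fun h => h1ne h.symm
    apply hf0
    exact eq_zero_of_commute ρbar hchar χ.ker (AlgebraicClosure k)
      (hTW (AlgebraicClosure k) χ.ker hidx) f htr hcomm

/-- `ad⁰ ρbar`-dual twisted by a character has no invariants. -/
theorem dualTwist_invariants_eq_bot (hchar : (2 : k) ≠ 0) (habs : ρbar.IsAbsolutelyIrreducible)
    (hTW : ∀ (K : Type) [Field K] [Algebra k K] (G : Subgroup _root_.Fermat.Agent.S56.GQ), G.index = 2 →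
      ∀ V : Submodule K (ρbar.baseChange K).V,
        (∀ σ ∈ G, ∀ x ∈ V, (ρbar.baseChange K).ρ σ x ∈ V) → V = ⊥ ∨ V = ⊤)
    (χ : _root_.Fermat.Agent.S56.GQ →* kˣ) :
    ((ad0 ρbar).dualTwist χ).ρ.invariants = ⊥ := by
  rw [eq_bot_iff]
  intro lam hlam
  rw [Representation.mem_invariants] at hlam
  rw [Submodule.mem_bot]
  have hlam' : ∀ (g : _root_.Fermat.Agent.S56.GQ) (x : ad0Sub ρbar),
      (χ g : k) * (show Module.Dual k (ad0Sub ρbar) from lam) ((ad0 ρbar).ρ g⁻¹ x) =
        (show Module.Dual k (ad0Sub ρbar) from lam) x := by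
    intro g x
    have h := hlam g
    rw [Rep.dualTwist_ρ_apply] at h
    have h2 := congrArg (fun φ : Module.Dual k (ad0Sub ρbar) => φ x) h
    exact h2
  obtain ⟨f, hf⟩ := trForm_surjective ρbar
    ((show Module.Dual k (ad0Sub ρbar) from lam) ∘ₗ tzProj ρbar hchar)
  have hf' : ∀ m, LinearMap.trace k ρbar.V (f * m) =
      (show Module.Dual k (ad0Sub ρbar) from lam) (tzProj ρbar hchar m) := by
    intro m
    rw [← trForm_apply, hf]
    rfl
  have h10 : tzProj ρbar hchar 1 = 0 := by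
    apply Subtype.ext
    rw [tzProj_coe, tzMap_apply, LinearMap.trace_one, ρbar.finrank_eq, smul_smul]
    have : (2⁻¹ : k) * ((2 : ℕ) : k) = 1 := by
      push_cast
      exact inv_mul_cancel₀ hchar
    rw [this, one_smul, sub_self]
    rfl
  have htr : LinearMap.trace k ρbar.V f = 0 := by
    have h := hf' 1
    rw [mul_one, h10, map_zero] at h
    exact h
  have hrel := twisted_relation ρbar hchar χ _ hlam' f hf'
  have hf0 := eq_zero_of_twisted ρbar hchar habs hTW χ f htr hrel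
  apply LinearMap.ext
  intro x
  have h := hf' (x : ad0Sub ρbar).1
  rw [tzProj_of_mem, hf0, zero_mul, map_zero] at h
  exact h.symm

end PartTwo

/-- **Leaf GLOB-h0.** -/
theorem stmt_glob_h0 : Stmt_glob_h0 := by
  intro 𝒪 _ _ _ _ _ p _ _ ρbar S Smin hyp
  have hchar : (2 : ResidueField 𝒪) ≠ 0 := by
    intro h
    have h2 : ((2 : ℕ) : ResidueField 𝒪) = 0 := by exact_mod_cast h
    rw [CharP.cast_eq_zero_iff (ResidueField 𝒪) p] at h2
    have hp : p.Prime := Fact.out
    exact hyp.hp2 ((Nat.prime_dvd_prime_iff_eq hp Nat.prime_two).mp h2)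
  constructor
  · rw [ad0_invariants_eq_bot ρbar hchar hyp.habs]
    exact finrank_bot _ _
  · have h := dualTwist_invariants_eq_bot ρbar hchar hyp.habs hyp.hTW
      (cycloK p (ResidueField 𝒪))
    show finrank (ResidueField 𝒪)
      ((ad0 ρbar).dualTwist (cycloK p (ResidueField 𝒪))).ρ.invariants = 0
    rw [h]
    exact finrank_bot _ _


end Fermat.Agent.S56.H27

end

end
-- ==== END Fermat.Agent.S56.H27_GlobH0

-- ==== BEGIN Fermat.Agent.S56.H57_KummerStmt
section

set_option autoImplicit false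

/-!
# Cluster T / S56, leaf LOC-p-SO: the sub-leaf KUMMER-LOCAL (exact statement)

Owner of LOC-p-SO: helper57.  This file only fixes the statement of the local Kummer bound
`dim H¹_cont(ℚ_p, k(ω)) ≤ 2` (`p` odd) in the concrete form used by the assembly:

there are two level-constant crossed homomorphisms `u₁ u₂ : G_{ℚ_p} → k(ω)` such that every
level-constant crossed homomorphism is `a • u₁ + b • u₂ + (coboundary of d)`.

Proof route (Kummer theory): reduce to `𝔽_p`-valued cocycles with an `𝔽_p`-basis of `k` (the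
character `ω` has values in `𝔽_p`); for an `𝔽_p`-valued `c` the map `s ↦ ζ ^ c(s)` is a
multiplicative cocycle with values in a finite Galois extension `L/ℚ_p`, so by Hilbert 90
`ζ ^ c(s) = s(α)/α` with `α ^ p ∈ ℚ_p`; finally `ℚ_pˣ` is generated modulo `p`-th powers by `p` and
`1 + p` (`p` odd; `1 + p² ℤ_p` consists of `p`-th powers by Hensel), so with `π ^ p = p`,
`η ^ p = 1 + p` one may take `ζ ^ u₁(s) = s(π)/π` and `ζ ^ u₂(s) = s(η)/η`.
-/

noncomputable section

namespace Fermat.Agent.S56.H57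

open groupCohomology ExtCitation

/-- The mod `p` cyclotomic character of the local Galois group at `p`, with values in `k`. -/
def locCycK (p : ℕ) [Fact p.Prime] (k : Type) [Field k] [CharP k p]
    (s : PadicAlgCl p ≃ₐ[ℚ_[p]] PadicAlgCl p) : k :=
  ((cycloK p k (localGaloisToGlobal p s) : (k)ˣ) : k)

/-- Level-constant crossed homomorphisms `G_{ℚ_p} → k(ω)`: `c (s t) = c s + ω(s) c t`, and `c` is
constant on the cosets of the subgroup of elements acting trivially on some number field. -/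
def IsKummerCocycle (p : ℕ) [Fact p.Prime] (k : Type) [Field k] [CharP k p]
    (c : (PadicAlgCl p ≃ₐ[ℚ_[p]] PadicAlgCl p) → k) : Prop :=
  (∀ s t, c (s * t) = c s + locCycK p k s * c t) ∧
    IsLevelConstant₁ (localGaloisToGlobal p) c

/-- **Sub-leaf KUMMER-LOCAL.**  For `p` odd, the level-constant crossed homomorphisms
`G_{ℚ_p} → k(ω)` are spanned, modulo coboundaries `s ↦ d (ω(s) - 1)`, by two of them. -/
def Stmt_localKummer : Prop :=
  ∀ (p : ℕ) [Fact p.Prime] (_hp2 : p ≠ 2) (k : Type) [Field k] [Finite k] [CharP k p],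
    ∃ u₁ u₂ : (PadicAlgCl p ≃ₐ[ℚ_[p]] PadicAlgCl p) → k,
      IsKummerCocycle p k u₁ ∧ IsKummerCocycle p k u₂ ∧
      ∀ c : (PadicAlgCl p ≃ₐ[ℚ_[p]] PadicAlgCl p) → k, IsKummerCocycle p k c →
        ∃ a b d : k, ∀ s, c s = a * u₁ s + b * u₂ s + d * (locCycK p k s - 1)

end Fermat.Agent.S56.H57

end

end
-- ==== END Fermat.Agent.S56.H57_KummerStmt
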