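-- GENERATED (merged mirror, NOTES/tools/trim/merge3_helper67.py): 7 modules of the originals, bodies verbatim.
import Mathlib
import Fermat.Agent.Zm.S56_L09_000
import Fermat.Agent.S05.H15_Val
import Fermat.Agent.Zm.S56_L03_005
import Fermat.Agent.Zm.S56_L09_002
import Fermat.Agent.Zm.S56_L04_004
import Fermat.Agent.Zm.S56_L09_003
import Fermat.Agent.Zm.S56_L02_004
import Fermat.Agent.Zm.S56_L01_005
import Fermat.Agent.Zm.S56_L09_004

-- ==== BEGIN Fermat.Agent.S55.CFT.GS.H24_KumUnr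
section

set_option autoImplicit false
set_option linter.unusedSectionVars false
set_option linter.unusedVariables false
set_option linter.style.haveILetI false

open CategoryTheory Module groupCohomology ExtCitation

noncomputable section

namespace Fermat.Agent.S55.CFT.GS.H24

open Fermat.Agent.S55 Fermat.Agent.S55.Top Fermat.Agent.S55.CFT.GS

local notation "Qb" => AlgebraicClosure ℚ

section val

variable (A : ValuationSubring Qb)

/-- Inertia acts trivially modulo the maximal ideal. -/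
theorem inertia_val_lt {σ : GQ} (hσ : σ ∈ A.inertiaSubgroupIn ℚ) {a : Qb} (ha : a ∈ A) :
    A.valuation (σ a - a) < 1 := by
  obtain ⟨g, hg, rfl⟩ := hσ
  have h1 : g • (IsLocalRing.residue A ⟨a, ha⟩) = IsLocalRing.residue A ⟨a, ha⟩ := by
    have := MonoidHom.mem_ker.mp hg
    have h2 := congrArg (fun e : RingAut (IsLocalRing.ResidueField A) =>
      e (IsLocalRing.residue A ⟨a, ha⟩)) this
    exact h2
  rw [← IsLocalRing.ResidueField.residue_smul, ← sub_eq_zero, ← map_sub,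
    IsLocalRing.residue_eq_zero_iff, ← ValuationSubring.coe_mem_nonunits_iff,
    A.mem_nonunits_iff] at h1
  exact h1

/-- `x ^ n = 1` forces `|x| = 1`. -/
theorem val_eq_one_of_pow {x : Qb} {n : ℕ} (hn : n ≠ 0) (h : A.valuation x ^ n = 1) :
    A.valuation x = 1 :=
  (pow_eq_one_iff.1 h).resolve_right hn

/-- A nontrivial `p`-th root of unity is not congruent to `1` at a place prime to `p`. -/
theorem not_val_sub_one_lt {p : ℕ} (hp : p.Prime) (hAp : A.valuation (p : Qb) = 1) {ω : Qb}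
    (hω : ω ^ p = 1) (hω1 : ω ≠ 1) : ¬ A.valuation (ω - 1) < 1 := by
  intro hlt
  have hωA : A.valuation ω ≤ 1 := by
    have h : A.valuation ω ^ p = 1 := by rw [← map_pow, hω, map_one]
    exact (val_eq_one_of_pow A hp.ne_zero h).le
  have hsum : ∑ i ∈ Finset.range p, ω ^ i = 0 := by
    have h := mul_geom_sum ω p
    rw [hω, sub_self] at h
    exact (mul_eq_zero.1 h).resolve_left (sub_ne_zero.2 hω1)
  have hsum2 : ∑ i ∈ Finset.range p, (ω ^ i - 1) = -(p : Qb) := by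
    rw [Finset.sum_sub_distrib, hsum]
    simp
  have hlt2 : A.valuation (∑ i ∈ Finset.range p, (ω ^ i - 1)) < 1 := by
    apply Valuation.map_sum_lt _ one_ne_zero
    intro i _
    rw [← mul_geom_sum, map_mul]
    have h1 : A.valuation (∑ j ∈ Finset.range i, ω ^ j) ≤ 1 := by
      apply Valuation.map_sum_le
      intro j _
      rw [map_pow]
      exact pow_le_one' hωA j
    calc A.valuation (ω - 1) * A.valuation (∑ j ∈ Finset.range i, ω ^ j)
        ≤ A.valuation (ω - 1) * 1 := by gcongr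
      _ < 1 := by rw [mul_one]; exact hlt
  rw [hsum2, Valuation.map_neg, hAp] at hlt2
  exact lt_irrefl _ hlt2

/-- Inertia at a place prime to `p` fixes the `p`-th roots of units. -/
theorem inertia_fix_root {p : ℕ} (hp : p.Prime) (hAp : A.valuation (p : Qb) = 1) {σ : GQ}
    (hσ : σ ∈ A.inertiaSubgroupIn ℚ) {t : Qb} (ht : A.valuation (t ^ p) = 1)
    (hfix : σ (t ^ p) = t ^ p) : σ t = t := by
  have ht1 : A.valuation t = 1 := by
    rw [map_pow] at ht
    exact val_eq_one_of_pow A hp.ne_zero ht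
  have ht0 : t ≠ 0 := by
    rintro rfl
    simp at ht1
  have htA : t ∈ A := (A.valuation_le_one_iff t).1 ht1.le
  by_contra hne
  have h1 := inertia_val_lt A hσ htA
  have hω : (σ t / t) ^ p = 1 := by
    rw [div_pow, ← map_pow, hfix, div_self (pow_ne_zero p ht0)]
  have hω1 : σ t / t ≠ 1 := by
    intro h
    exact hne ((div_eq_one_iff_eq ht0).1 h)
  apply not_val_sub_one_lt A hp hAp hω hω1
  have e : σ t / t - 1 = (σ t - t) / t := by
    field_simp
  rw [e, map_div₀, ht1, div_one]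
  exact h1

end val

section kumunr

variable {p : ℕ} [Fact p.Prime] {S : Finset Nat.Primes} {K : IntermediateField ℚ Qb}

/-- The valuation of `p` at a place over a prime `q ≠ p`. -/
theorem val_p_eq_one (hp : pPrime p ∈ S) {q : Nat.Primes} (hq : q ∉ S)
    {A : ValuationSubring Qb} (hA : A.LiesOverPrime (q : ℕ)) : A.valuation (p : Qb) = 1 := by
  have hpq : ¬ ((q : ℕ) : ℤ) ∣ ((p : ℕ) : ℤ) := by
    intro h
    have h2 : (q : ℕ) ∣ p := Int.natCast_dvd_natCast.1 h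
    have h3 : (q : ℕ) = p := (Nat.prime_dvd_prime_iff_eq q.2 (Fact.out : p.Prime)).1 h2
    apply hq
    have h4 : q = pPrime p := Subtype.ext h3
    rw [h4]
    exact hp
  have := Fermat.Agent.S05.H15.valuation_intCast_eq_one_of_not_dvd (A := A) q.2 hA hpq
  simpa using this

/-- **Kummer extensions by `S`-units are unramified outside `S`.** -/
theorem inOm_root (hp : pPrime p ∈ S) (hK : K.IsUnramifiedOutside S) {u : Qbˣ}
    (huK : (u : Qb) ∈ K)
    (hu : ∀ q : Nat.Primes, q ∉ S → ∀ A : ValuationSubring Qb,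
      A.LiesOverPrime (q : ℕ) → A.valuation (u : Qb) = 1)
    {t : Qbˣ} (ht : t ^ p = u) : InOm S (t : Qb) := by
  have htu : (t : Qb) ^ p = (u : Qb) := by
    rw [← Units.val_pow_eq_pow_val, ht]
  have hgal := h49_qbar_isGalois
  have hint : IsIntegral ℚ (t : Qb) := IsGalois.integral ℚ _
  have hT : (IntermediateField.adjoin ℚ {(t : Qb)}).IsUnramifiedOutside S := by
    refine ⟨IntermediateField.adjoin.finiteDimensional hint, fun q hq A hA => ?_⟩
    rw [← IntermediateField.le_iff_le, IntermediateField.adjoin_simple_le_iff,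
      IntermediateField.mem_fixedField_iff]
    intro σ hσ
    have hσK : σ ∈ K.fixingSubgroup := hK.2 q hq A hA hσ
    apply inertia_fix_root A (Fact.out : p.Prime) (val_p_eq_one hp hq hA) hσ
    · rw [htu]
      exact hu q hq A hA
    · rw [htu]
      exact (IntermediateField.mem_fixingSubgroup_iff _ _).1 hσK _ huK
  exact ⟨_, hT, IntermediateField.mem_adjoin_simple_self ℚ (t : Qb)⟩

/-- `U_K ⊆ W`. -/
theorem inW_of_mem_UK (hp : pPrime p ∈ S) (hK : K.IsUnramifiedOutside S) {u : Qbˣ}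
    (hu : u ∈ UK S K) : InW S p u := by
  obtain ⟨t, ht⟩ : ∃ t : Qb, t ^ p = (u : Qb) :=
    IsAlgClosed.exists_pow_nat_eq (u : Qb) (Fact.out : p.Prime).pos
  have ht0 : t ≠ 0 := by
    rintro rfl
    rw [zero_pow (Fact.out : p.Prime).ne_zero] at ht
    exact u.ne_zero ht.symm
  have e : (Units.mk0 t ht0) ^ p = u := by
    apply Units.ext
    rw [Units.val_pow_eq_pow_val]
    exact ht
  exact ⟨Units.mk0 t ht0, inOm_root hp hK hu.1 hu.2.2 e, e⟩

/-- `U_K Kˣᵖ ⊆ V_S`. -/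
theorem UKP_subset_VS (hp : pPrime p ∈ S) (hK : K.IsUnramifiedOutside S) :
    UKP S p K ⊆ VS S p K := by
  rintro a ⟨u, b, hu, hb, rfl⟩
  obtain ⟨t, htΩ, ht⟩ := inW_of_mem_UK (p := p) hp hK hu
  refine ⟨?_, t * b, ?_, ?_⟩
  · rw [Units.val_mul, Units.val_pow_eq_pow_val]
    exact mul_mem hu.1 (pow_mem hb p)
  · rw [Units.val_mul]
    exact inOm_mul htΩ (inOm_of_mem hK hb)
  · rw [mul_pow, ht]

end kumunr

end Fermat.Agent.S55.CFT.GS.H24

end

end
-- ==== END Fermat.Agent.S55.CFT.GS.H24_KumUnr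

-- ==== BEGIN Fermat.Agent.S56.FL.H54_Unram
section

/-!
# LOC-p-FL (helper54): elements fixed by inertia are unramified (`Stmt_UnramVal`), and `Stmt_SUBQ`

* `exists_root_of_unity_near` : every integer of `K̄` is congruent modulo the maximal ideal to `0`
  or to a root of unity of order prime to `p`;
* `mem_inertiaP_of_fix_roots` : an automorphism fixing the roots of unity of order prime to `p`
  is in the inertia group;
* `mem_unrField_of_fixed` : an element fixed by inertia lies in `ℚ_p(μ_{p'})`;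
* `stmt_UnramVal : Stmt_UnramVal`, `stmt_SUBQ : Stmt_SUBQ`.
-/

set_option autoImplicit false
set_option linter.unusedSectionVars false
set_option linter.style.haveILetI false

noncomputable section

namespace Fermat.Agent.S56.FL.H54

open scoped NNReal IntermediateField
open Fermat.Agent.S56.FL Polynomial

variable {p : ℕ} [Fact p.Prime]

/-- The roots of unity of order prime to `p`. -/
def primeRoots (p : ℕ) [Fact p.Prime] : Set (PadicAlgCl p) :=
  {ζ | ∃ n : ℕ, 0 < n ∧ ¬ p ∣ n ∧ ζ ^ n = 1}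

/-- Every integer of `K̄` is congruent to `0` or to a root of unity of order prime to `p`. -/
theorem exists_root_of_unity_near (a : PadicAlgCl p) (ha : ‖a‖ ≤ 1) :
    ∃ ζ : PadicAlgCl p, (ζ = 0 ∨ ζ ∈ primeRoots p) ∧ ‖a - ζ‖ < 1 := by
  classical
  have hp : p.Prime := Fact.out
  by_cases ha1 : ‖a‖ < 1
  · exact ⟨0, Or.inl rfl, by rwa [sub_zero]⟩
  have hnorm : ‖a‖ = 1 := le_antisymm ha (not_lt.mp ha1)
  have hint : IsIntegral ℚ_[p] a := (Algebra.IsAlgebraic.isAlgebraic a).isIntegral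
  set L : IntermediateField ℚ_[p] (PadicAlgCl p) := ℚ_[p]⟮a⟯ with hL
  haveI : FiniteDimensional ℚ_[p] L := IntermediateField.adjoin.finiteDimensional hint
  obtain ⟨-, q, -, hq0, hq1, hpow, -⟩ := H15.exists_residue_generator L
  have haL : a ∈ L := IntermediateField.mem_adjoin_simple_self ℚ_[p] a
  have h1 : ‖a ^ q - a‖ < 1 := hpow ⟨a, haL⟩ ha
  -- `p ∣ q`
  have hpq : p ∣ q := by
    have h : (q : PadicAlgCl p) = algebraMap ℚ_[p] (PadicAlgCl p) (q : ℚ_[p]) := by simp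
    rw [h, PadicAlgCl.norm_extends] at hq1
    exact Padic.norm_natCast_lt_one_iff.mp hq1
  have hq2 : 2 ≤ q := le_trans hp.two_le (Nat.le_of_dvd hq0 hpq)
  set n := q - 1 with hn
  have hn0 : 0 < n := by omega
  have hpn : ¬ p ∣ n := by
    intro h
    have : p ∣ q - n := Nat.dvd_sub hpq h
    have hqn : q - n = 1 := by omega
    rw [hqn] at this
    exact hp.one_lt.ne' (Nat.dvd_one.mp this)
  have h2 : ‖a ^ n - 1‖ < 1 := by
    have h3 : a ^ q - a = a * (a ^ n - 1) := by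
      have : q = n + 1 := by omega
      rw [this]
      ring
    rw [h3, norm_mul, hnorm, one_mul] at h1
    exact h1
  -- factor `X ^ n - 1`
  haveI : NeZero (n : ℚ_[p]) := ⟨by exact_mod_cast hn0.ne'⟩
  obtain ⟨ξ, hξ⟩ := HasEnoughRootsOfUnity.exists_primitiveRoot (PadicAlgCl p) n
  have hfac := X_pow_sub_one_eq_prod hn0 hξ
  have heval : a ^ n - 1 = ∏ ζ ∈ nthRootsFinset n (1 : PadicAlgCl p), (a - ζ) := by
    have := congrArg (Polynomial.eval a) hfac
    simpa [Polynomial.eval_prod] using this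
  rw [heval, norm_prod] at h2
  by_contra hcon
  have hall : ∀ ζ ∈ nthRootsFinset n (1 : PadicAlgCl p), 1 ≤ ‖a - ζ‖ := by
    intro ζ hζ
    by_contra hlt
    apply hcon
    refine ⟨ζ, Or.inr ⟨n, hn0, hpn, ?_⟩, not_le.mp hlt⟩
    exact (mem_nthRootsFinset hn0 1).mp hζ
  have : (1 : ℝ) ≤ ∏ ζ ∈ nthRootsFinset n (1 : PadicAlgCl p), ‖a - ζ‖ := by
    calc (1 : ℝ) = ∏ _ζ ∈ nthRootsFinset n (1 : PadicAlgCl p), (1 : ℝ) := by simp
      _ ≤ ∏ ζ ∈ nthRootsFinset n (1 : PadicAlgCl p), ‖a - ζ‖ :=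
        Finset.prod_le_prod (fun _ _ => zero_le_one) hall
  exact absurd this (not_le.mpr h2)

/-- An automorphism fixing all roots of unity of order prime to `p` is in the inertia group. -/
theorem mem_inertiaP_of_fix_roots (σ : Gp p) (h : ∀ ζ ∈ primeRoots p, σ ζ = ζ) :
    σ ∈ inertiaP p := by
  intro a ha
  obtain ⟨ζ, hζ, hnear⟩ := exists_root_of_unity_near a ha
  have hσζ : σ ζ = ζ := by
    rcases hζ with rfl | hζ
    · exact map_zero σ
    · exact h ζ hζ
  have h1 : σ a - a = σ (a - ζ) - (a - ζ) := by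
    rw [map_sub, hσζ]
    ring
  rw [h1, sub_eq_add_neg]
  refine (IsUltrametricDist.norm_add_le_max _ _).trans_lt (max_lt ?_ ?_)
  · rw [norm_gal]
    exact hnear
  · rw [norm_neg]
    exact hnear

/-- The maximal unramified extension `ℚ_p(μ_{p'})`. -/
def unrField (p : ℕ) [Fact p.Prime] : IntermediateField ℚ_[p] (PadicAlgCl p) :=
  IntermediateField.adjoin ℚ_[p] (primeRoots p)

/-- An element fixed by inertia lies in `ℚ_p(μ_{p'})`. -/
theorem mem_unrField_of_fixed (b : PadicAlgCl p) (hb : ∀ σ ∈ inertiaP p, σ b = b) :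
    b ∈ unrField p := by
  haveI : Algebra.IsAlgebraic ℚ_[p] (PadicAlgCl p) := AlgebraicClosure.isAlgebraic ℚ_[p]
  haveI : IsAlgClosure ℚ_[p] (PadicAlgCl p) := ⟨inferInstance, inferInstance⟩
  haveI : IsGalois ℚ_[p] (PadicAlgCl p) := inferInstance
  rw [← InfiniteGalois.fixedField_fixingSubgroup (unrField p), IntermediateField.mem_fixedField_iff]
  intro σ hσ
  apply hb
  apply mem_inertiaP_of_fix_roots
  intro ζ hζ
  have hζ' : ζ ∈ unrField p := IntermediateField.subset_adjoin ℚ_[p] _ hζ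
  exact (IntermediateField.mem_fixingSubgroup_iff (unrField p) σ).mp hσ ζ hζ'

/-- Two roots of unity of order prime to `p` lie in the field generated by a third one. -/
theorem exists_common_root {ζ₁ ζ₂ : PadicAlgCl p} (h₁ : ζ₁ ∈ primeRoots p)
    (h₂ : ζ₂ ∈ primeRoots p) :
    ∃ ζ ∈ primeRoots p, ℚ_[p]⟮ζ₁⟯ ≤ ℚ_[p]⟮ζ⟯ ∧ ℚ_[p]⟮ζ₂⟯ ≤ ℚ_[p]⟮ζ⟯ := by
  have hp : p.Prime := Fact.out
  obtain ⟨n₁, hn₁, hp₁, hz₁⟩ := h₁
  obtain ⟨n₂, hn₂, hp₂, hz₂⟩ := h₂
  have hn : 0 < n₁ * n₂ := Nat.mul_pos hn₁ hn₂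
  have hpn : ¬ p ∣ n₁ * n₂ := by
    intro h
    rcases (Nat.Prime.dvd_mul hp).mp h with h | h
    · exact hp₁ h
    · exact hp₂ h
  haveI : NeZero (n₁ * n₂) := ⟨hn.ne'⟩
  haveI : NeZero ((n₁ * n₂ : ℕ) : ℚ_[p]) := ⟨by exact_mod_cast hn.ne'⟩
  obtain ⟨ξ, hξ⟩ := HasEnoughRootsOfUnity.exists_primitiveRoot (PadicAlgCl p) (n₁ * n₂)
  refine ⟨ξ, ⟨n₁ * n₂, hn, hpn, hξ.pow_eq_one⟩, ?_, ?_⟩
  · rw [IntermediateField.adjoin_simple_le_iff]
    obtain ⟨i, -, hi⟩ := hξ.eq_pow_of_pow_eq_one (ξ := ζ₁) (by rw [pow_mul, hz₁, one_pow])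
    rw [← hi]
    exact pow_mem (IntermediateField.mem_adjoin_simple_self ℚ_[p] ξ) i
  · rw [IntermediateField.adjoin_simple_le_iff]
    obtain ⟨i, -, hi⟩ := hξ.eq_pow_of_pow_eq_one (ξ := ζ₂)
      (by rw [mul_comm, pow_mul, hz₂, one_pow])
    rw [← hi]
    exact pow_mem (IntermediateField.mem_adjoin_simple_self ℚ_[p] ξ) i

/-- Every element of `ℚ_p(μ_{p'})` lies in `ℚ_p(ζ)` for a single root of unity `ζ` of order
prime to `p`. -/
theorem exists_root_of_mem_unrField {b : PadicAlgCl p} (hb : b ∈ unrField p) :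
    ∃ ζ ∈ primeRoots p, b ∈ ℚ_[p]⟮ζ⟯ := by
  have h1mem : (1 : PadicAlgCl p) ∈ primeRoots p := ⟨1, one_pos, by
    intro h
    exact (Fact.out : p.Prime).one_lt.ne' (Nat.dvd_one.mp h), by simp⟩
  refine IntermediateField.adjoin_induction ℚ_[p]
    (p := fun x _ => ∃ ζ ∈ primeRoots p, x ∈ ℚ_[p]⟮ζ⟯) ?_ ?_ ?_ ?_ ?_ hb
  · intro x hx
    exact ⟨x, hx, IntermediateField.mem_adjoin_simple_self ℚ_[p] x⟩
  · intro x
    exact ⟨1, h1mem, IntermediateField.algebraMap_mem _ x⟩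
  · rintro x y - - ⟨ζ₁, h₁, hx⟩ ⟨ζ₂, h₂, hy⟩
    obtain ⟨ζ, hζ, hle₁, hle₂⟩ := exists_common_root h₁ h₂
    exact ⟨ζ, hζ, add_mem (hle₁ hx) (hle₂ hy)⟩
  · rintro x - ⟨ζ₁, h₁, hx⟩
    exact ⟨ζ₁, h₁, inv_mem hx⟩
  · rintro x y - - ⟨ζ₁, h₁, hx⟩ ⟨ζ₂, h₂, hy⟩
    obtain ⟨ζ, hζ, hle₁, hle₂⟩ := exists_common_root h₁ h₂
    exact ⟨ζ, hζ, mul_mem (hle₁ hx) (hle₂ hy)⟩

/-- **The local-field input of CONN.** -/
theorem stmt_UnramVal : Stmt_UnramVal := by
  intro p _ b hb hb1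
  obtain ⟨ζ, ⟨n, hn, hpn, hζ⟩, hbζ⟩ := exists_root_of_mem_unrField (mem_unrField_of_fixed b hb)
  exact norm_le_inv_of_mem_adjoin_root hn hpn hζ hbζ hb1

/-- **SUBQ** (package CONN): reduction is injective on unramified subquotients. -/
theorem stmt_SUBQ : Stmt_SUBQ := stmt_SUBQ_of stmt_UnramVal

end Fermat.Agent.S56.FL.H54

end

end
-- ==== END Fermat.Agent.S56.FL.H54_Unram

-- ==== BEGIN Fermat.Agent.S56.FL.H85_CCKumCore
section

set_option autoImplicit false
set_option linter.style.haveILetI false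
set_option linter.unusedSectionVars false

/-!
# LOC-p-FL, package UNITS (helper85): `KUMBDD` without normality / tameness of `K'`

This is helper59's proof of `Stmt_KUMBDD` (`FL/H59_KumMain.lean`) verbatim; the hypotheses
`Normal ℚ_p K'` and `IsTameField p K'` are not used there.
-/

noncomputable section

namespace Fermat.Agent.S56.FL.H85

open scoped NNReal
open Fermat.Agent.S56.FL Fermat.Agent.S56.FL.H15 Fermat.Agent.S56.FL.H59 Polynomial

/-- **KUMBDD, core form** (helper59's proof of `Stmt_KUMBDD`, which uses neither the normality nor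
the tameness of `K'`). -/
theorem kumbdd_core {p : ℕ} [Fact p.Prime]
    (L K' : IntermediateField ℚ_[p] (PadicAlgCl p))
    [FiniteDimensional ℚ_[p] L] [FiniteDimensional ℚ_[p] K']
    (hNL : Normal ℚ_[p] L) (hKL : K' ≤ L) (hbdd : IsBddField p L)
    (hζ : ∃ ζ ∈ K', ζ ≠ 1 ∧ ζ ^ p = 1)
    (a : PadicAlgCl p) (haK : a ∈ K') (ha0 : a ≠ 0) (hα : ∃ α ∈ L, α ^ p = a) :
    ∃ b ∈ K', b ≠ 0 ∧ ‖a * b ^ p - 1‖ ≤ (p : ℝ)⁻¹ := by
  classical
  obtain ⟨ζ, hζK, hζ1, hζp⟩ := hζ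
  obtain ⟨α, hαL, hα⟩ := hα
  have hp : p.Prime := Fact.out
  have hp0 : p ≠ 0 := hp.ne_zero
  have hpinv : (0 : ℝ) < (p : ℝ)⁻¹ := inv_pos.mpr (by exact_mod_cast hp.pos)
  set KL : IntermediateField ℚ_[p] L := IntermediateField.restrict hKL with hKLdef
  have hmem : ∀ x : L, x ∈ KL ↔ (x : PadicAlgCl p) ∈ K' := fun x =>
    IntermediateField.mem_restrict hKL x
  -- uniformizer and residue field of `K'`
  obtain ⟨π, hπ0, hπ1, hπmax⟩ := exists_uniformizer (L := K')
  obtain ⟨-, q, -, -, hq1, hpowq, -⟩ := exists_residue_generator K'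
  have hpq : p ∣ q := by
    by_contra h
    rw [norm_natCast_eq_one h] at hq1
    exact lt_irrefl _ hq1
  set π' : L := ⟨(π : PadicAlgCl p), hKL π.2⟩ with hπ'
  have hπ'K : π' ∈ KL := (hmem π').mpr π.2
  have hπ'0 : 0 < ‖π'‖ := hπ0
  have hπ'1 : ‖π'‖ < 1 := hπ1
  have hϖ : ∀ c ∈ KL, ‖c‖ < 1 → ‖c‖ ≤ ‖π'‖ := fun c hc hc1 =>
    hπmax ⟨(c : PadicAlgCl p), (hmem c).mp hc⟩ hc1
  have hres : ∀ c ∈ KL, ‖c‖ ≤ 1 → ‖c ^ q - c‖ < 1 := fun c hc hc1 =>
    hpowq ⟨(c : PadicAlgCl p), (hmem c).mp hc⟩ hc1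
  obtain ⟨e, -, he⟩ := exists_ramIdx (L := K') hπ0 hπ1 hπmax
  have he' : ‖π'‖ ^ e = (p : ℝ)⁻¹ := he
  -- the data in `L`
  set aL : L := ⟨a, hKL haK⟩ with haL
  set αL : L := ⟨α, hαL⟩ with hαLdef
  set ζL : L := ⟨ζ, hKL hζK⟩ with hζL
  have haLK : aL ∈ KL := (hmem aL).mpr haK
  have haL0 : aL ≠ 0 := fun h => ha0 (congrArg (fun t : L => (t : PadicAlgCl p)) h)
  have hαLp : αL ^ p = aL := Subtype.ext (by simpa using hα)
  have hζLK : ζL ∈ KL := (hmem ζL).mpr hζK
  have hζL1 : ζL ≠ 1 := fun h => hζ1 (congrArg (fun t : L => (t : PadicAlgCl p)) h)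
  have hζLp : ζL ^ p = 1 := Subtype.ext (by simpa using hζp)
  -- the induction
  have key : ∀ n : ℕ, ∃ b ∈ KL, b ≠ 0 ∧ ‖aL * b ^ p - 1‖ ≤ max ((p : ℝ)⁻¹) (‖π'‖ ^ n) := by
    intro n
    induction n with
    | zero =>
      rw [pow_zero]
      have hmax : max ((p : ℝ)⁻¹) 1 = 1 :=
        max_eq_right (inv_le_one_of_one_le₀ (by exact_mod_cast hp.one_lt.le))
      rw [hmax]
      by_cases h1 : ‖aL‖ ≤ 1
      · refine ⟨1, KL.one_mem, one_ne_zero, ?_⟩
        rw [one_pow, mul_one, sub_eq_add_neg]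
        refine (IsUltrametricDist.norm_add_le_max _ _).trans (max_le h1 ?_)
        rw [norm_neg, norm_one]
      · refine ⟨aL⁻¹, KL.inv_mem haLK, inv_ne_zero haL0, ?_⟩
        rw [sub_eq_add_neg]
        refine (IsUltrametricDist.norm_add_le_max _ _).trans (max_le ?_ ?_)
        · have h2 : 1 ≤ ‖aL‖ := (not_le.mp h1).le
          have h3 : aL * aL⁻¹ ^ p = (aL⁻¹) ^ (p - 1) := by
            have e1 : aL⁻¹ ^ p = aL⁻¹ ^ (p - 1) * aL⁻¹ := by
              rw [← pow_succ]; congr 1; have := hp.two_le; omega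
            rw [e1]
            field_simp
          rw [h3, norm_pow, norm_inv]
          exact pow_le_one₀ (inv_nonneg.mpr (norm_nonneg _)) (inv_le_one_of_one_le₀ h2)
        · rw [norm_neg, norm_one]
    | succ n ih =>
      obtain ⟨b, hbK, hb0, hb⟩ := ih
      by_cases hdone : ‖aL * b ^ p - 1‖ ≤ (p : ℝ)⁻¹
      · exact ⟨b, hbK, hb0, hdone.trans (le_max_left _ _)⟩
      have hδ : (p : ℝ)⁻¹ < ‖aL * b ^ p - 1‖ := not_le.mp hdone
      have hδn : ‖aL * b ^ p - 1‖ ≤ ‖π'‖ ^ n := by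
        rcases le_max_iff.mp hb with h | h
        · exact absurd h hdone
        · exact h
      have hδ1 : ‖aL * b ^ p - 1‖ ≤ 1 := hδn.trans (pow_le_one₀ hπ'0.le hπ'1.le)
      have ha1K : aL * b ^ p ∈ KL := KL.mul_mem haLK (pow_mem hbK p)
      have ha10 : aL * b ^ p ≠ 0 := mul_ne_zero haL0 (pow_ne_zero _ hb0)
      have hα1 : (αL * b) ^ p = aL * b ^ p := by rw [mul_pow, hαLp]
      obtain ⟨b', hb'K, hb'0, hlt⟩ := exists_improve hNL hbdd KL hζLK hζL1 hζLp hπ'K hπ'0 hπ'1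
        hϖ hpq hres ha1K ha10 hα1 hδ hδ1
      refine ⟨b * b', KL.mul_mem hbK hb'K, mul_ne_zero hb0 hb'0, ?_⟩
      have heq : aL * (b * b') ^ p - 1 = aL * b ^ p * b' ^ p - 1 := by ring
      rw [heq]
      refine le_trans ?_ (le_max_right _ _)
      set c : L := aL * b ^ p * b' ^ p - 1 with hc
      have hcK : c ∈ KL := KL.sub_mem (KL.mul_mem ha1K (pow_mem hb'K p)) KL.one_mem
      have hclt : ‖c‖ < ‖π'‖ ^ n := hlt.trans_le hδn
      have hπn0 : π' ^ n ≠ 0 := pow_ne_zero _ (norm_pos_iff.mp hπ'0)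
      have h1 : ‖c / π' ^ n‖ < 1 := by
        rw [norm_div, norm_pow, div_lt_one (pow_pos hπ'0 _)]
        exact hclt
      have h2 := hϖ _ (KL.div_mem hcK (pow_mem hπ'K n)) h1
      rw [norm_div, norm_pow, div_le_iff₀ (pow_pos hπ'0 _)] at h2
      rw [pow_succ']
      exact h2
  obtain ⟨b, hbK, hb0, hb⟩ := key e
  rw [he', max_self] at hb
  refine ⟨(b : PadicAlgCl p), (hmem b).mp hbK, fun h => hb0 (Subtype.ext h), ?_⟩
  exact hb

end Fermat.Agent.S56.FL.H85

end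

end
-- ==== END Fermat.Agent.S56.FL.H85_CCKumCore

-- ==== BEGIN Fermat.Agent.S56.FL.LF.H15_Theta
section

set_option autoImplicit false
set_option linter.style.haveILetI false
set_option linter.unusedSectionVars false

/-!
# LOC-p-FL, package UNITS / CC2 (helper15): the tame character of a finite extension

`K ⊆ K̄` finite over `ℚ_p`, `ϖ` a uniformizer, `σ` in the inertia group of `K̄/ℚ_p`,
`θ_σ = σ ϖ / ϖ` (a unit).

* `LevCtx.norm_map_sub_theta` : `‖σ y - θ_σ^i y‖ < r^i` for `y ∈ K`, `‖y‖ ≤ r^i`.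
* `LevCtx.norm_theta_pow_sub` : `ω = θ^{e₀}`: if `σ ζ = ζ^n` then `‖θ_σ^{e₀} - n‖ < 1`.
-/

noncomputable section

namespace Fermat.Agent.S56.FL.H15

open scoped NNReal
open Fermat.Agent.S56.FL Module

variable {p : ℕ} [Fact p.Prime]

namespace LevCtx

variable {K : IntermediateField ℚ_[p] (PadicAlgCl p)} {ϖ ζ : PadicAlgCl p} {e₀ : ℕ}

theorem norm_theta (h : LevCtx K ϖ ζ e₀) (σ : Gp p) : ‖σ ϖ / ϖ‖ = 1 := by
  rw [norm_div, norm_gal, div_self h.hϖ0.ne']

/-- The action of inertia on the graded pieces of `K`: `σ y ≡ θ_σ^i y` modulo `r^{i+1}`. -/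
theorem norm_map_sub_theta (h : LevCtx K ϖ ζ e₀) {σ : Gp p} (hσ : σ ∈ inertiaP p)
    {y : PadicAlgCl p} (hyK : y ∈ K) {i : ℕ} (hy : ‖y‖ ≤ ‖ϖ‖ ^ i) :
    ‖σ y - (σ ϖ / ϖ) ^ i * y‖ < ‖ϖ‖ ^ i := by
  obtain ⟨u, -, hu1, hyu, -⟩ := h.exists_unit_mul hyK hy
  have hϖ0 : ϖ ≠ 0 := h.ϖ_ne_zero
  have h1 : σ y - (σ ϖ / ϖ) ^ i * y = (σ u - u) * (σ ϖ) ^ i := by
    rw [hyu, map_mul, map_pow, div_pow]
    field_simp
  rw [h1, norm_mul, norm_pow, norm_gal]
  calc ‖σ u - u‖ * ‖ϖ‖ ^ i < 1 * ‖ϖ‖ ^ i :=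
        mul_lt_mul_of_pos_right (hσ u hu1) (h.pow_pos' i)
    _ = ‖ϖ‖ ^ i := one_mul _

/-- `‖ζ^n - 1 - n (ζ - 1)‖ < ‖ζ - 1‖`. -/
theorem norm_zeta_pow_sub (h : LevCtx K ϖ ζ e₀) (n : ℕ) :
    ‖ζ ^ n - 1 - (n : PadicAlgCl p) * (ζ - 1)‖ < ‖ζ - 1‖ := by
  have hζn : ‖ζ‖ = 1 := by
    have h1 : ‖ζ‖ ^ p = 1 := by rw [← norm_pow, h.hζp, norm_one]
    exact (pow_eq_one_iff_of_nonneg (norm_nonneg _) (Fact.out : p.Prime).ne_zero).mp h1
  have hz1 : ‖ζ - 1‖ < 1 := by
    rw [h.he₀]; exact h.pow_lt_one' h.e₀_pos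
  have hz0 : 0 < ‖ζ - 1‖ := norm_pos_iff.mpr (sub_ne_zero.mpr h.hζ1)
  have hgeom : ζ ^ n - 1 = (ζ - 1) * ∑ j ∈ Finset.range n, ζ ^ j := by
    rw [mul_comm]; exact (geom_sum_mul ζ n).symm
  have hsum : ∑ j ∈ Finset.range n, ζ ^ j - (n : PadicAlgCl p)
      = ∑ j ∈ Finset.range n, (ζ ^ j - 1) := by
    rw [Finset.sum_sub_distrib]; simp
  have hle : ‖∑ j ∈ Finset.range n, ζ ^ j - (n : PadicAlgCl p)‖ ≤ ‖ζ - 1‖ := by
    rw [hsum]
    refine IsUltrametricDist.norm_sum_le_of_forall_le_of_nonneg (norm_nonneg _) fun j _ => ?_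
    have := norm_pow_sub_pow_le_algCl hζn.le (norm_one (α := PadicAlgCl p)).le j
    rwa [one_pow] at this
  have h1 : ζ ^ n - 1 - (n : PadicAlgCl p) * (ζ - 1)
      = (ζ - 1) * (∑ j ∈ Finset.range n, ζ ^ j - (n : PadicAlgCl p)) := by
    rw [hgeom]; ring
  rw [h1, norm_mul]
  calc ‖ζ - 1‖ * ‖∑ j ∈ Finset.range n, ζ ^ j - (n : PadicAlgCl p)‖
      ≤ ‖ζ - 1‖ * ‖ζ - 1‖ := mul_le_mul_of_nonneg_left hle hz0.le
    _ < ‖ζ - 1‖ * 1 := mul_lt_mul_of_pos_left hz1 hz0
    _ = ‖ζ - 1‖ := mul_one _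

/-- **`ω = θ^{e₀}`** on inertia. -/
theorem norm_theta_pow_sub (h : LevCtx K ϖ ζ e₀) {σ : Gp p} (hσ : σ ∈ inertiaP p) {n : ℕ}
    (hn : σ ζ = ζ ^ n) : ‖(σ ϖ / ϖ) ^ e₀ - (n : PadicAlgCl p)‖ < 1 := by
  have hz0 : 0 < ‖ζ - 1‖ := norm_pos_iff.mpr (sub_ne_zero.mpr h.hζ1)
  have h1 := h.norm_map_sub_theta hσ (K.sub_mem h.hζK K.one_mem) h.he₀.le
  rw [← h.he₀] at h1
  have h2 := h.norm_zeta_pow_sub n
  have h3 : σ (ζ - 1) = ζ ^ n - 1 := by rw [map_sub, map_one, hn]
  rw [h3] at h1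
  have h4 : ((σ ϖ / ϖ) ^ e₀ - (n : PadicAlgCl p)) * (ζ - 1)
      = (ζ ^ n - 1 - (n : PadicAlgCl p) * (ζ - 1)) - (ζ ^ n - 1 - (σ ϖ / ϖ) ^ e₀ * (ζ - 1)) := by
    ring
  have h5 : ‖((σ ϖ / ϖ) ^ e₀ - (n : PadicAlgCl p)) * (ζ - 1)‖ < ‖ζ - 1‖ := by
    rw [h4]
    exact (norm_sub_le_max_algCl _ _).trans_lt (max_lt h2 h1)
  rw [norm_mul] at h5
  by_contra hcon
  have h6 : 1 ≤ ‖(σ ϖ / ϖ) ^ e₀ - (n : PadicAlgCl p)‖ := not_lt.mp hcon
  have h7 : ‖ζ - 1‖ ≤ ‖(σ ϖ / ϖ) ^ e₀ - (n : PadicAlgCl p)‖ * ‖ζ - 1‖ := by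
    calc ‖ζ - 1‖ = 1 * ‖ζ - 1‖ := (one_mul _).symm
      _ ≤ _ := mul_le_mul_of_nonneg_right h6 hz0.le
  exact absurd h5 (not_lt.mpr h7)

end LevCtx

end Fermat.Agent.S56.FL.H15

end

end
-- ==== END Fermat.Agent.S56.FL.LF.H15_Theta

-- ==== BEGIN Fermat.Agent.S56.FL.LF.H59_LocTame
section

set_option autoImplicit false
set_option linter.style.haveILetI false
set_option linter.unusedSectionVars false

/-!
# LOC-p-FL, LOCAL TAME (helper59), part 2: Frobenius, tame generator and wild inertia of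
`Γ = Gal(L/ℚ_p)`, `L/ℚ_p` finite Galois

* `psiZ`              : `ℤ_p → OL L`.
* `exists_frobenius`  : there is `φ ∈ Γ` with `φ a ≡ a ^ p` modulo `mL L` for all integers `a`.
* `locTame`           : the structure of `Γ` (all clauses at the level of `Γ`, inertia being
                        `depth < 1`): a normal subgroup `W` of inertia, all of whose elements have
                        `p`-power order; `Γ = ⟨φ⟩ · I`; `I = ⟨τ₀⟩ · W`; `φ γ φ⁻¹ ≡ γ ^ p` modulo `W`
                        for `γ ∈ I`.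
-/

noncomputable section

namespace Fermat.Agent.S56.FL.H59

open scoped NNReal
open Fermat.Agent.S56.FL Fermat.Agent.S56.FL.H15 Fermat.Agent.S56.H9 Module Polynomial

variable {p : ℕ} [Fact p.Prime]

variable (L : IntermediateField ℚ_[p] (PadicAlgCl p))

/-- The structure map `ℤ_p → OL L`. -/
def psiZ : ℤ_[p] →+* OL L :=
  ((algebraMap ℚ_[p] L).comp PadicInt.Coe.ringHom).codRestrict (OL L) (fun c => by
    change ‖(((algebraMap ℚ_[p] L) (c : ℚ_[p]) : L) : PadicAlgCl p)‖ ≤ 1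
    exact norm_phiZ_le_one c)

theorem coe_psiZ (c : ℤ_[p]) : (((psiZ L c : OL L) : L) : PadicAlgCl p) = phiZ p c := rfl

/-- The inclusion `OL L → K̄`. -/
def inclOL : OL L →+* PadicAlgCl p := (algebraMap L (PadicAlgCl p)).comp (OL L).subtype

theorem inclOL_apply (a : OL L) : inclOL L a = ((a : L) : PadicAlgCl p) := rfl

theorem inclOL_injective : Function.Injective (inclOL L) := by
  intro a b h
  exact Subtype.ext (Subtype.ext h)

theorem coe_eval₂_psiZ (g : ℤ_[p][X]) (a : OL L) :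
    (((g.eval₂ (psiZ L) a : OL L) : L) : PadicAlgCl p)
      = g.eval₂ (phiZ p) ((a : L) : PadicAlgCl p) := by
  have h := Polynomial.hom_eval₂ g (psiZ L) (inclOL L) a
  rw [inclOL_apply] at h
  rw [h]
  rfl

theorem smul_psiZ (σ : L ≃ₐ[ℚ_[p]] L) (c : ℤ_[p]) : σ • psiZ L c = psiZ L c := by
  apply Subtype.ext
  rw [coe_smul_OL]
  exact σ.commutes _

theorem smul_eval₂_psiZ (σ : L ≃ₐ[ℚ_[p]] L) (g : ℤ_[p][X]) (a : OL L) :
    σ • g.eval₂ (psiZ L) a = g.eval₂ (psiZ L) (σ • a) := by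
  have h := Polynomial.hom_eval₂ g (psiZ L)
    (MulSemiringAction.toRingHom (L ≃ₐ[ℚ_[p]] L) (OL L) σ) a
  have hc : (MulSemiringAction.toRingHom (L ≃ₐ[ℚ_[p]] L) (OL L) σ).comp (psiZ L) = psiZ L := by
    ext c : 1
    exact smul_psiZ L σ c
  rw [hc] at h
  exact h

/-- `c ^ p ≡ c` modulo `p` in `ℤ_p`. -/
theorem padicInt_pow_sub_mem (c : ℤ_[p]) : ∃ d : ℤ_[p], c ^ p - c = (p : ℤ_[p]) * d := by
  have h1 : PadicInt.toZMod (c ^ p - c) = 0 := by
    rw [map_sub, map_pow, ZMod.pow_card, sub_self]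
  have h2 : c ^ p - c ∈ RingHom.ker (PadicInt.toZMod (p := p)) := h1
  rw [PadicInt.ker_toZMod, PadicInt.maximalIdeal_eq_span_p, Ideal.mem_span_singleton] at h2
  exact h2

theorem mk_psiZ_pow (c : ℤ_[p]) :
    (Ideal.Quotient.mk (mL L) (psiZ L c)) ^ p = Ideal.Quotient.mk (mL L) (psiZ L c) := by
  obtain ⟨d, hd⟩ := padicInt_pow_sub_mem c
  rw [← map_pow, ← sub_eq_zero, ← map_sub, ← map_pow, ← map_sub, hd, map_mul, map_mul,
    map_natCast, map_natCast, CharP.cast_eq_zero, zero_mul]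

/-- Polynomial Frobenius modulo `mL L`. -/
theorem mk_eval₂_pow (g : ℤ_[p][X]) (a : OL L) :
    Ideal.Quotient.mk (mL L) (g.eval₂ (psiZ L) (a ^ p))
      = (Ideal.Quotient.mk (mL L) (g.eval₂ (psiZ L) a)) ^ p := by
  have h1 := Polynomial.hom_eval₂ g (psiZ L) (Ideal.Quotient.mk (mL L)) (a ^ p)
  have h2 := Polynomial.hom_eval₂ g (psiZ L) (Ideal.Quotient.mk (mL L)) a
  have h3 := Polynomial.hom_eval₂ g ((Ideal.Quotient.mk (mL L)).comp (psiZ L))
    (frobenius (OL L ⧸ mL L) p) (Ideal.Quotient.mk (mL L) a)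
  have hc : (frobenius (OL L ⧸ mL L) p).comp ((Ideal.Quotient.mk (mL L)).comp (psiZ L))
      = (Ideal.Quotient.mk (mL L)).comp (psiZ L) := by
    ext c : 1
    exact mk_psiZ_pow L c
  rw [hc] at h3
  rw [h1, h2, map_pow]
  exact h3.symm

variable [FiniteDimensional ℚ_[p] L]

/-- **Frobenius**: there is an automorphism inducing `a ↦ a ^ p` on the residue field. -/
theorem exists_frobenius (hN : Normal ℚ_[p] L) :
    ∃ φ : L ≃ₐ[ℚ_[p]] L, ∀ a : OL L, φ • a - a ^ p ∈ mL L := by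
  classical
  obtain ⟨x, π, q, h⟩ := exists_goodGen L
  obtain ⟨Pz, hP⟩ := exists_isMinZ hN h
  set X₀ : OL L := ⟨x, h.1⟩ with hX₀
  have hroot : Pz.eval₂ (psiZ L) X₀ = 0 := by
    apply inclOL_injective L
    rw [inclOL_apply, coe_eval₂_psiZ, map_zero]
    exact hP.eval₂_self
  have hmem : Pz.eval₂ (psiZ L) (X₀ ^ p) ∈ mL L := by
    rw [← Ideal.Quotient.eq_zero_iff_mem, mk_eval₂_pow, hroot, map_zero,
      zero_pow (Fact.out : p.Prime).ne_zero]
  rw [mem_mL, coe_eval₂_psiZ, hP.norm_eval₂] at hmem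
  -- one of the factors is `< 1`
  obtain ⟨φ, hφ⟩ : ∃ φ : L ≃ₐ[ℚ_[p]] L,
      ‖(((X₀ ^ p : OL L) : L) : PadicAlgCl p) - ((φ x : L) : PadicAlgCl p)‖ < 1 := by
    by_contra hcon
    have hall : ∀ τ : L ≃ₐ[ℚ_[p]] L,
        1 ≤ ‖(((X₀ ^ p : OL L) : L) : PadicAlgCl p) - ((τ x : L) : PadicAlgCl p)‖ := by
      intro τ
      by_contra hlt
      exact hcon ⟨τ, not_le.mp hlt⟩
    have : (1 : ℝ) ≤ ∏ τ : L ≃ₐ[ℚ_[p]] L,
        ‖(((X₀ ^ p : OL L) : L) : PadicAlgCl p) - ((τ x : L) : PadicAlgCl p)‖ := by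
      refine Finset.prod_induction _ (fun r : ℝ => 1 ≤ r)
        (fun a b ha hb => one_le_mul_of_one_le_of_one_le ha hb) le_rfl fun τ _ => hall τ
    exact absurd hmem (not_lt.mpr this)
  have hφX : φ • X₀ - X₀ ^ p ∈ mL L := by
    rw [mem_mL]
    have : ((((φ • X₀ - X₀ ^ p : OL L)) : L) : PadicAlgCl p)
        = -((((X₀ ^ p : OL L) : L) : PadicAlgCl p) - ((φ x : L) : PadicAlgCl p)) := by
      push_cast
      rw [coe_smul_OL]
      ring
    rw [this, norm_neg]
    exact hφ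
  refine ⟨φ, fun a => ?_⟩
  obtain ⟨g, hg⟩ := exists_poly_eq h hP (a : L) a.2
  have ha : a = g.eval₂ (psiZ L) X₀ := by
    apply inclOL_injective L
    rw [inclOL_apply, inclOL_apply, coe_eval₂_psiZ]
    exact hg.symm
  rw [← Ideal.Quotient.eq, map_pow, ha, smul_eval₂_psiZ, ← mk_eval₂_pow]
  have h1 := Polynomial.hom_eval₂ g (psiZ L) (Ideal.Quotient.mk (mL L)) (φ • X₀)
  have h2 := Polynomial.hom_eval₂ g (psiZ L) (Ideal.Quotient.mk (mL L)) (X₀ ^ p)
  rw [h1, h2]
  congr 1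
  rw [Ideal.Quotient.eq]
  exact hφX

theorem frobenius_pow {φ : L ≃ₐ[ℚ_[p]] L} (hφ : ∀ a : OL L, φ • a - a ^ p ∈ mL L) (n : ℕ)
    (a : OL L) : (φ ^ n) • a - a ^ (p ^ n) ∈ mL L := by
  induction n generalizing a with
  | zero => simp
  | succ n ih =>
    have h1 := ih (φ • a)
    have h2 := hφ a
    rw [← Ideal.Quotient.eq] at h1 h2 ⊢
    rw [pow_succ, mul_smul, h1, map_pow, h2, map_pow, map_pow, ← pow_mul, mul_comm]
    rw [pow_succ]

/-- The Frobenius generates `Γ` modulo inertia. -/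
theorem exists_pow_frobenius_mul {φ : L ≃ₐ[ℚ_[p]] L} (hφ : ∀ a : OL L, φ • a - a ^ p ∈ mL L)
    (g : L ≃ₐ[ℚ_[p]] L) : ∃ n : ℕ, (φ ^ n)⁻¹ * g ∈ (mL L).inertia (L ≃ₐ[ℚ_[p]] L) := by
  letI : Field (OL L ⧸ mL L) := Ideal.Quotient.field (mL L)
  letI : Algebra (ZMod p) (OL L ⧸ mL L) := ZMod.algebra _ p
  obtain ⟨n, hn⟩ := (FiniteField.bijective_frobeniusAlgEquivOfAlgebraic_pow (ZMod p)
    (OL L ⧸ mL L)).2 (resAlgEquiv (mL L) p g (stab_mL L g))
  have hg : ∀ a : OL L, g • a - a ^ (p ^ (n : ℕ)) ∈ mL L := by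
    intro a
    rw [← Ideal.Quotient.eq, map_pow, ← resAlgEquiv_mk (mL L) p g (stab_mL L g) a, ← hn]
    simp only [AlgEquiv.coe_pow, FiniteField.coe_frobeniusAlgEquivOfAlgebraic_iterate,
      ZMod.card]
  refine ⟨n, fun a => ?_⟩
  change ((φ ^ (n : ℕ))⁻¹ * g) • a - a ∈ mL L
  -- apply `φ ^ n`
  have h1 := frobenius_pow L hφ n (((φ ^ (n : ℕ))⁻¹ * g) • a)
  rw [← mul_smul, mul_inv_cancel_left] at h1
  have h2 := hg a
  rw [← Ideal.Quotient.eq] at h1 h2 ⊢
  have h3 : (Ideal.Quotient.mk (mL L) (((φ ^ (n : ℕ))⁻¹ * g) • a)) ^ (p ^ (n : ℕ))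
      = (Ideal.Quotient.mk (mL L) a) ^ (p ^ (n : ℕ)) := by
    rw [← map_pow, ← h1, h2, map_pow]
  have h4 : iterateFrobenius (OL L ⧸ mL L) p (n : ℕ)
        (Ideal.Quotient.mk (mL L) (((φ ^ (n : ℕ))⁻¹ * g) • a))
      = iterateFrobenius (OL L ⧸ mL L) p (n : ℕ) (Ideal.Quotient.mk (mL L) a) := by
    rw [iterateFrobenius_def, iterateFrobenius_def]
    exact h3
  exact iterateFrobenius_inj (OL L ⧸ mL L) p (n : ℕ) h4

/-- The wild inertia group is normal. -/
theorem wild_normal : (wild (mL L) (L ≃ₐ[ℚ_[p]] L)).Normal := by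
  refine ⟨fun w hw g => ?_⟩
  rw [mem_wild] at hw ⊢
  refine ⟨conj_mem_inertia (stab_mL L g) hw.1, fun a ha => ?_⟩
  have h1 : g⁻¹ • a ∈ mL L := (stab_mL L g⁻¹ a).2 ha
  have h2 := hw.2 _ h1
  have h3 := smul_mem_pow_of_forall (mL L) (fun y hy => (stab_mL L g y).2 hy) 2 _ h2
  have e : g • (w • g⁻¹ • a - g⁻¹ • a) = (g * w * g⁻¹) • a - a := by
    rw [smul_sub, smul_inv_smul, mul_smul, mul_smul]
  rw [← e]
  exact h3

/-- The elements of the wild inertia group have `p`-power order. -/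
theorem wild_pow_eq_one {w : L ≃ₐ[ℚ_[p]] L} (hw : w ∈ wild (mL L) (L ≃ₐ[ℚ_[p]] L)) :
    ∃ N : ℕ, w ^ (p ^ N) = 1 := by
  have hp : p.Prime := Fact.out
  have hord : orderOf w ≠ 0 := (orderOf_pos w).ne'
  obtain ⟨e, n, hn, hen⟩ := Nat.exists_eq_pow_mul_and_not_dvd hord p hp.ne_one
  refine ⟨e, ?_⟩
  have hcop : n.Coprime p := (Nat.Coprime.symm ((Nat.Prime.coprime_iff_not_dvd hp).2 hn))
  have hpow : ∀ y : OL L, ((w ^ p ^ e) ^ n) • y = y := by
    intro y
    rw [← pow_mul, ← hen, pow_orderOf_eq_one, one_smul]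
  have htriv := smul_eq_of_mem_wild_of_coprime (mL L) (mL_isMaximal L).ne_top
    (natCast_mem_mL L) (pow_mem hw (p ^ e)) hcop hpow
  apply FaithfulSMul.eq_of_smul_eq_smul (α := OL L)
  intro y
  rw [htriv y, one_smul]

/-- **LOCAL TAME.** -/
theorem locTame (hN : Normal ℚ_[p] L) :
    ∃ (W : Subgroup (L ≃ₐ[ℚ_[p]] L)) (φ τ₀ : L ≃ₐ[ℚ_[p]] L),
      W.Normal ∧ (∀ w ∈ W, depth p L w < 1) ∧ (∀ w ∈ W, ∃ N : ℕ, w ^ (p ^ N) = 1) ∧
      (∀ a : L, ‖a‖ ≤ 1 → ‖φ a - a ^ p‖ < 1) ∧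
      depth p L τ₀ < 1 ∧
      (∀ γ : L ≃ₐ[ℚ_[p]] L, depth p L γ < 1 → ∃ n : ℕ, (τ₀ ^ n)⁻¹ * γ ∈ W) ∧
      (∀ γ : L ≃ₐ[ℚ_[p]] L, depth p L γ < 1 → (γ ^ p)⁻¹ * (φ * γ * φ⁻¹) ∈ W) ∧
      (∀ g : L ≃ₐ[ℚ_[p]] L, ∃ n : ℕ, depth p L ((φ ^ n)⁻¹ * g) < 1) := by
  obtain ⟨φ, hφ⟩ := exists_frobenius L hN
  obtain ⟨τ₀, hτ₀, hcyc⟩ := exists_generator_mod_wild (mL_ne_bot L)
    ((mL L).inertia (L ≃ₐ[ℚ_[p]] L)) le_rfl
  refine ⟨wild (mL L) (L ≃ₐ[ℚ_[p]] L), φ, τ₀, wild_normal L, ?_, ?_, ?_, ?_, ?_, ?_, ?_⟩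
  · intro w hw
    exact (mem_inertia_iff L w).1 (wild_le_inertia (mL L) hw)
  · intro w hw
    exact wild_pow_eq_one L hw
  · intro a ha
    have := hφ ⟨a, ha⟩
    rw [mem_mL] at this
    exact this
  · exact (mem_inertia_iff L τ₀).1 hτ₀
  · intro γ hγ
    exact hcyc γ ((mem_inertia_iff L γ).2 hγ)
  · intro γ hγ
    exact conj_mem_wild (mL_ne_bot L) (stab_mL L φ) hφ ((mem_inertia_iff L γ).2 hγ)
  · intro g
    obtain ⟨n, hn⟩ := exists_pow_frobenius_mul L hφ g
    exact ⟨n, (mem_inertia_iff L _).1 hn⟩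

end Fermat.Agent.S56.FL.H59

end

end
-- ==== END Fermat.Agent.S56.FL.LF.H59_LocTame

-- ==== BEGIN Fermat.Agent.S56.GW.Defs2
section

set_option autoImplicit false

/-!
# Cluster T / S56, package GW-CORE: exact statements of the sub-packages (layer 1)

`Stmt_GW_core` (in `GW/Defs.lean`) follows from (see `GW/Core.lean`):

* `Stmt_INV`      (GW-INV):  local invariants `inv_q` on local 2-cochains of `k(1)`, killing the
                  level coboundaries, injective on `H²(ℚ_q, k(1))` for `q ≡ 1 mod p`, and satisfying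
                  the reciprocity law `∑_{q ∈ Sg} inv_q (res_q z) = 0` for level-`Sg` 2-cocycles `z`.
                  (Export of the S55-E4 lane: local class field theory + reciprocity.)
* `Stmt_PERF_cup` (GW-PERF): tame local duality at `q ≡ 1 mod p`, `M` unramified at `q`:
                  a continuous class `y` of `M'` with `x ∪ y = 0` in `H²(ℚ_q, k(1))` for all
                  continuous classes `x` of `M` is trivial.  (Elementary: tame inertia.)
* `Stmt_LB`       (GW-LB):   the lower bound (Tate's global Euler characteristic + Poitou-Tate).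

All cochains are inhomogeneous; `k(1)` has underlying type `k`, so cochains with values in
`k(1)` are written as `k`-valued functions and the differentials are written out.
-/

noncomputable section

namespace Fermat.Agent.S56

open Polynomial IsLocalRing CategoryTheory groupCohomology ExtCitation Module

variable {k : Type} [Field k]

/-- The local Galois group at `q`. -/
abbrev Gq (q : Nat.Primes) : Type := primeLocalGaloisGroup q

/-- The map `Gal(Q̄_q/ℚ_q) → Gal(Q̄/ℚ)`. -/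
abbrev rq (q : Nat.Primes) : Gq q →* GQ := primeLocalToGlobal q

/-- Evaluation `M × M' → k`, `M' = M*(1)`. -/
def evT (p : ℕ) [Fact p.Prime] [CharP k p] (M : Rep.{0} k GQ) (m : M) (φ : tateDual p M) : k :=
  (show Module.Dual k M from φ) m

/-- `f : G_q → M` is a continuous (level-constant) local 1-cocycle. -/
def IsLocZ1 (M : Rep.{0} k GQ) (q : Nat.Primes) (f : Gq q → M) : Prop :=
  (∀ g h : Gq q, f (g * h) = M.ρ (rq q g) (f h) + f g) ∧ IsLevelConstant₁ (rq q) f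

/-- `f : G_ℚ → M` is a level-`Sg` global 1-cocycle. -/
def IsGlobZ1 (Sg : Finset Nat.Primes) (M : Rep.{0} k GQ) (f : GQ → M) : Prop :=
  (∀ g h : GQ, f (g * h) = M.ρ g (f h) + f g) ∧ IsLevelConstantS₁ Sg f

/-- `z : G_q × G_q → k` is a continuous local 2-cocycle with values in `k(χ)`. -/
def IsLocZ2 (χ : GQ →* kˣ) (q : Nat.Primes) (z : Gq q × Gq q → k) : Prop :=
  (∀ g h l : Gq q, (χ (rq q g) : k) * z (h, l) - z (g * h, l) + z (g, h * l) - z (g, h) = 0) ∧
    IsLevelConstant₂ (rq q) z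

/-- `z : G_q × G_q → k` is the coboundary of a continuous local 1-cochain with values in
`k(χ)`. -/
def IsLocB2 (χ : GQ →* kˣ) (q : Nat.Primes) (z : Gq q × Gq q → k) : Prop :=
  ∃ f : Gq q → k, IsLevelConstant₁ (rq q) f ∧
    ∀ g h : Gq q, z (g, h) = (χ (rq q g) : k) * f h - f (g * h) + f g

/-- `z : G_ℚ × G_ℚ → k` is a level-`Sg` global 2-cocycle with values in `k(χ)`. -/
def IsGlobZ2 (χ : GQ →* kˣ) (Sg : Finset Nat.Primes) (z : GQ × GQ → k) : Prop :=
  (∀ g h l : GQ, (χ g : k) * z (h, l) - z (g * h, l) + z (g, h * l) - z (g, h) = 0) ∧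
    IsLevelConstantS₂ Sg z

/-- The local cup product of 1-cochains: `(x ∪ y)(g, h) = ⟨x g, g • y h⟩`. -/
def cupLoc (p : ℕ) [Fact p.Prime] [CharP k p] (M : Rep.{0} k GQ) (q : Nat.Primes)
    (x : Gq q → M) (y : Gq q → tateDual p M) : Gq q × Gq q → k :=
  fun t => evT p M (x t.1) ((tateDual p M).ρ (rq q t.1) (y t.2))

/-- The global cup product of 1-cochains. -/
def cupGlob (p : ℕ) [Fact p.Prime] [CharP k p] (M : Rep.{0} k GQ)
    (x : GQ → M) (y : GQ → tateDual p M) : GQ × GQ → k :=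
  fun t => evT p M (x t.1) ((tateDual p M).ρ t.1 (y t.2))

/-- **Package GW-INV** (local invariants and the reciprocity law; export of S55-E4).
A family of linear functionals `inv_q` on local 2-cochains with values in `k(1)` such that
* `inv_q` kills the continuous coboundaries,
* for `q ≡ 1 mod p` a continuous 2-cocycle with `inv_q z = 0` is a continuous coboundary
  (`H²(ℚ_q, μ_p) ≅ 𝔽_p`),
* `∑_{q ∈ Sg} inv_q (res_q z) = 0` for every level-`Sg` 2-cocycle `z` (`p ∈ Sg`). -/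
def Stmt_INV : Prop :=
  ∀ (p : ℕ) [Fact p.Prime] (_hp2 : p ≠ 2) (k : Type) [Field k] [Finite k] [CharP k p],
    ∃ inv : ∀ q : Nat.Primes, (Gq q × Gq q → k) →ₗ[k] k,
      (∀ (q : Nat.Primes) (z : Gq q × Gq q → k), IsLocB2 (cycloK p k) q z → inv q z = 0) ∧
      (∀ (q : Nat.Primes), (q : ℕ) % p = 1 → ∀ z : Gq q × Gq q → k,
        IsLocZ2 (cycloK p k) q z → inv q z = 0 → IsLocB2 (cycloK p k) q z) ∧
      ∀ (Sg : Finset Nat.Primes), pPrime p ∈ Sg → ∀ z : GQ × GQ → k,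
        IsGlobZ2 (cycloK p k) Sg z →
        ∑ q ∈ Sg, inv q (fun t : Gq q × Gq q => z (rq q t.1, rq q t.2)) = 0

/-- **Package GW-PERF** (tame local duality, cup product form).  `q ≡ 1 mod p`, `M` smooth,
finite-dimensional and unramified at `q`.  If `y` is a continuous 1-cocycle of `M' = M*(1)` on
`G_q` such that `x ∪ y` is a continuous coboundary for EVERY continuous 1-cocycle `x` of `M`,
then `y` is a coboundary. -/
def Stmt_PERF_cup : Prop :=
  ∀ (p : ℕ) [Fact p.Prime] (_hp2 : p ≠ 2) (k : Type) [Field k] [Finite k] [CharP k p]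
    (M : Rep.{0} k GQ) [FiniteDimensional k M] (_hsm : IsSmoothRep M)
    (q : Nat.Primes), (q : ℕ) % p = 1 → IsUnramifiedRepAt M (q : ℕ) →
    ∀ y : Gq q → tateDual p M, IsLocZ1 (tateDual p M) q y →
      (∀ x : Gq q → M, IsLocZ1 M q x → IsLocB2 (cycloK p k) q (cupLoc p M q x y)) →
      ∃ m' : tateDual p M, ∀ g : Gq q, y g = (tateDual p M).ρ (rq q g) m' - m'

/-- **Package GW-LB** (the lower bound): for `Sg ∋ p` outside of which `M` is unramified,
`dim Ш¹_Sg(M) + h⁰(ℝ, M) + ∑_{q ∈ Sg} h⁰(ℚ_q, M) + h⁰(ℚ, M') ≤ dim H¹_Sg(M') + h⁰(ℚ, M)`. -/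
def Stmt_LB : Prop :=
  ∀ (p : ℕ) [Fact p.Prime] (_hp2 : p ≠ 2) (k : Type) [Field k] [Finite k] [CharP k p]
    (M : Rep.{0} k GQ) [FiniteDimensional k M] (_hsm : IsSmoothRep M)
    (Sg : Finset Nat.Primes), pPrime p ∈ Sg →
    (∀ q : Nat.Primes, q ∉ Sg → IsUnramifiedRepAt M (q : ℕ)) →
    finrank k (sha₁ Sg M) +
        (finrank k (Rep.res archimedeanLoc M).ρ.invariants +
          ∑ q ∈ Sg, finrank k (locRep M q).ρ.invariants) +
        finrank k (tateDual p M).ρ.invariants ≤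
      finrank k (continuousH1S Sg (tateDual p M)) + finrank k M.ρ.invariants

/-- **Package LB-a = PT2** (Poitou-Tate in degree 2, injective half): `H²_Sg(M')` is
finite-dimensional and
`dim Ш¹_Sg(M) + ∑_{q ∈ Sg} h⁰(ℚ_q, M) ≤ dim H²_Sg(M') + h⁰(ℚ, M)`
(`H¹_c(M)` injects into the dual of `H²_Sg(M')`; cone sequence in degree `≤ 1`). -/
def Stmt_PT2 : Prop :=
  ∀ (p : ℕ) [Fact p.Prime] (_hp2 : p ≠ 2) (k : Type) [Field k] [Finite k] [CharP k p]
    (M : Rep.{0} k GQ) [FiniteDimensional k M] (_hsm : IsSmoothRep M)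
    (Sg : Finset Nat.Primes), pPrime p ∈ Sg →
    (∀ q : Nat.Primes, q ∉ Sg → IsUnramifiedRepAt M (q : ℕ)) →
    Module.Finite k (continuousH2S Sg (tateDual p M)) ∧
      finrank k (sha₁ Sg M) + ∑ q ∈ Sg, finrank k (locRep M q).ρ.invariants ≤
        finrank k (continuousH2S Sg (tateDual p M)) + finrank k M.ρ.invariants

/-- **Package LB-b = EC** (Tate's global Euler characteristic formula, the inequality that is
needed): for `N` smooth, finite-dimensional, unramified outside `Sg ∋ p`, with `H²_Sg(N)`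
finite-dimensional,
`h²_Sg(N) + h⁰(ℚ, N) + (dim N - h⁰(ℝ, N)) ≤ h¹_Sg(N)`.
(In truth an equality: `χ(G_Sg, N) = h⁰(ℝ, N) - dim N`.) -/
def Stmt_EC : Prop :=
  ∀ (p : ℕ) [Fact p.Prime] (_hp2 : p ≠ 2) (k : Type) [Field k] [Finite k] [CharP k p]
    (N : Rep.{0} k GQ) [FiniteDimensional k N] (_hsm : IsSmoothRep N)
    (Sg : Finset Nat.Primes), pPrime p ∈ Sg →
    (∀ q : Nat.Primes, q ∉ Sg → IsUnramifiedRepAt N (q : ℕ)) →
    Module.Finite k (continuousH2S Sg N) →
    finrank k (continuousH2S Sg N) + finrank k N.ρ.invariants +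
        (finrank k N - finrank k (Rep.res archimedeanLoc N).ρ.invariants) ≤
      finrank k (continuousH1S Sg N)

/-- **Package LB-c = ARCH** (complex conjugation): `h⁰(ℝ, M) + h⁰(ℝ, M') = dim M` (`p` odd). -/
def Stmt_ARCH : Prop :=
  ∀ (p : ℕ) [Fact p.Prime] (_hp2 : p ≠ 2) (k : Type) [Field k] [Finite k] [CharP k p]
    (M : Rep.{0} k GQ) [FiniteDimensional k M],
    finrank k (Rep.res archimedeanLoc M).ρ.invariants +
        finrank k (Rep.res archimedeanLoc (tateDual p M)).ρ.invariants = finrank k M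

end Fermat.Agent.S56

end

end
-- ==== END Fermat.Agent.S56.GW.Defs2

-- ==== BEGIN Fermat.Agent.S56.GW.H92_FinGlob
section

set_option autoImplicit false
set_option linter.style.haveILetI false

/-!
# Cluster T / S56, package GW-FIN-glob: finiteness of `H¹(G_{ℚ,Sg}, M)`

For a finite coefficient module `M` the zero set `U_c = c⁻¹(0)` of a 1-cocycle `c` is a subgroup of
index `≤ #M` (the map `G ⧸ U_c → M`, `g ↦ c g`, is injective), and `c` is constant on the left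
cosets of a subgroup `U` exactly when `U ≤ U_c`.  So a cocycle of level `F` (`F` unramified outside
`Sg`) is a cocycle of level `F_c := Q̄^{U_c} ⊆ F`, a field of degree `≤ #M` unramified outside `Sg`.
By Hermite–Minkowski there are finitely many such fields; all cocycles are constant on the cosets
of the fixing subgroup of their compositum, a subgroup of finite index: there are finitely many
cocycles.

Neither smoothness of `M` nor any ramification hypothesis on `M` is used.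

* `HMInput` : Hermite–Minkowski, verbatim the statement `Fermat.Agent.S17.Stmt_HM`
  (restated here to keep the imports of this file light).
* `fin_glob_of_HM : HMInput → Stmt_fin_glob`.
-/

noncomputable section

namespace Fermat.Agent.S56.H92

open groupCohomology IntermediateField

/-- Hermite–Minkowski: finitely many number fields (inside `Q̄`) of bounded degree unramified
outside the primes dividing `B`.  Verbatim `Fermat.Agent.S17.Stmt_HM`. -/
def HMInput : Prop :=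
  ∀ B d : ℕ, B ≠ 0 →
    {F : IntermediateField ℚ (AlgebraicClosure ℚ) | FiniteDimensional ℚ F ∧
      Module.finrank ℚ F ≤ d ∧
      ∀ ℓ : ℕ, ℓ.Prime → ¬ ℓ ∣ B → ∀ A : ValuationSubring (AlgebraicClosure ℚ),
        A.LiesOverPrime ℓ → A.inertiaSubgroupIn ℚ ≤ F.fixingSubgroup}.Finite

section abstract_cocycle

variable {k : Type} [CommRing k] {G : Type} [Group G] (M : Rep k G)

/-- The zero set of a 1-cocycle is a subgroup. -/
def zeroSubgroup (c : cocycles₁ M) : Subgroup G where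
  carrier := {s | c s = 0}
  one_mem' := cocycles₁_map_one c
  mul_mem' := by
    intro a b ha hb
    have h := (mem_cocycles₁_iff (c : G → M)).1 c.2 a b
    simp only [Set.mem_ofPred_eq] at ha hb ⊢
    rw [h, ha, hb, map_zero, add_zero]
  inv_mem' := by
    intro a ha
    simp only [Set.mem_ofPred_eq] at ha ⊢
    have h := cocycles₁_map_inv c a
    rw [ha] at h
    have h2 : M.ρ a (c a⁻¹) = 0 := by rw [h, neg_zero]
    have h3 := congrArg (M.ρ a⁻¹) h2
    rwa [map_zero, ← Module.End.mul_apply, ← map_mul, inv_mul_cancel, map_one,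
      Module.End.one_apply] at h3

theorem mem_zeroSubgroup {c : cocycles₁ M} {s : G} : s ∈ zeroSubgroup M c ↔ c s = 0 := Iff.rfl

/-- Two elements with the same value of `c` are in the same left coset of the zero subgroup. -/
theorem inv_mul_mem_zeroSubgroup {c : cocycles₁ M} {g h : G} (e : c g = c h) :
    g⁻¹ * h ∈ zeroSubgroup M c := by
  rw [mem_zeroSubgroup]
  have h1 := (mem_cocycles₁_iff (c : G → M)).1 c.2 g⁻¹ h
  have h2 := (mem_cocycles₁_iff (c : G → M)).1 c.2 g⁻¹ g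
  rw [inv_mul_cancel, cocycles₁_map_one] at h2
  rw [h1, ← e]
  exact h2.symm

/-- A cocycle is constant on the left cosets of its zero subgroup. -/
theorem map_mul_of_mem_zeroSubgroup {c : cocycles₁ M} (g : G) {s : G}
    (hs : s ∈ zeroSubgroup M c) : c (g * s) = c g := by
  have h1 := (mem_cocycles₁_iff (c : G → M)).1 c.2 g s
  rw [h1, (mem_zeroSubgroup M).1 hs, map_zero, zero_add]

/-- A cocycle constant on the left cosets of `U` vanishes on `U`. -/
theorem le_zeroSubgroup {c : cocycles₁ M} {U : Subgroup G}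
    (h : ∀ g s, s ∈ U → c (g * s) = c g) : U ≤ zeroSubgroup M c := by
  intro s hs
  rw [mem_zeroSubgroup]
  have := h 1 s hs
  rwa [one_mul, cocycles₁_map_one] at this

/-- The zero subgroup of a cocycle with values in a finite module has index `≤ #M`. -/
theorem index_zeroSubgroup_le [Finite M] (c : cocycles₁ M) :
    (zeroSubgroup M c).index ≤ Nat.card M ∧ (zeroSubgroup M c).index ≠ 0 := by
  classical
  let f : G ⧸ zeroSubgroup M c → M :=
    Quotient.lift (fun g : G => c g) (by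
      intro a b hab
      have hab' : a⁻¹ * b ∈ zeroSubgroup M c := QuotientGroup.leftRel_apply.1 hab
      have := map_mul_of_mem_zeroSubgroup M a hab'
      rw [mul_inv_cancel_left] at this
      exact this.symm)
  have hf : Function.Injective f := by
    intro x y
    refine Quotient.inductionOn₂ x y ?_
    intro a b hab
    exact Quotient.sound (QuotientGroup.leftRel_apply.2 (inv_mul_mem_zeroSubgroup M hab))
  have : Finite (G ⧸ zeroSubgroup M c) := Finite.of_injective f hf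
  refine ⟨?_, ?_⟩
  · rw [Subgroup.index_eq_card]
    exact Nat.card_le_card_of_injective f hf
  · rw [Subgroup.index_eq_card]
    exact Nat.card_pos.ne'

end abstract_cocycle

section galois

theorem qbar_isGalois92 : IsGalois ℚ (AlgebraicClosure ℚ) := by
  haveI : Algebra.IsAlgebraic ℚ (AlgebraicClosure ℚ) := AlgebraicClosure.isAlgebraic ℚ
  haveI : IsAlgClosure ℚ (AlgebraicClosure ℚ) := ⟨inferInstance, inferInstance⟩
  infer_instance

attribute [local instance] qbar_isGalois92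

variable {k : Type} [CommRing k] (M : Rep k GQ)

/-- The field cut out by a level-`Sg` cocycle with finitely many values: bounded degree,
unramified outside `Sg`, and its fixing subgroup is the zero subgroup of the cocycle. -/
theorem exists_field_of_cocycle [Finite M] (Sg : Finset Nat.Primes) (c : cocycles₁ M)
    (hc : IsLevelConstantS₁ Sg (c : GQ → M)) :
    ∃ F : IntermediateField ℚ (AlgebraicClosure ℚ), FiniteDimensional ℚ F ∧
      Module.finrank ℚ F ≤ Nat.card M ∧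
      (∀ ℓ : ℕ, ℓ.Prime → ¬ ℓ ∣ ∏ q ∈ Sg, (q : ℕ) →
        ∀ A : ValuationSubring (AlgebraicClosure ℚ),
        A.LiesOverPrime ℓ → A.inertiaSubgroupIn ℚ ≤ F.fixingSubgroup) ∧
      F.fixingSubgroup = zeroSubgroup M c := by
  classical
  obtain ⟨F', hF', hconst⟩ := hc
  haveI := hF'.1
  set K : Subgroup GQ := zeroSubgroup M c with hK
  have hle : F'.fixingSubgroup ≤ K := le_zeroSubgroup M hconst
  have hopen : IsOpen (K : Set GQ) :=
    Subgroup.isOpen_mono hle (IntermediateField.fixingSubgroup_isOpen F')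
  have hclosed : IsClosed (K : Set GQ) := Subgroup.isClosed_of_isOpen K hopen
  let Kc : ClosedSubgroup GQ := ⟨K, hclosed⟩
  have hfix : (IntermediateField.fixedField K).fixingSubgroup = K :=
    InfiniteGalois.fixingSubgroup_fixedField Kc
  refine ⟨IntermediateField.fixedField K, ?_, ?_, ?_, hfix⟩
  · have hle' : IntermediateField.fixedField K ≤ F' := by
      have := IntermediateField.fixedField_le (F := ℚ) (E := AlgebraicClosure ℚ) hle
      rwa [InfiniteGalois.fixedField_fixingSubgroup] at this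
    exact FiniteDimensional.of_injective (IntermediateField.inclusion hle').toLinearMap
      (IntermediateField.inclusion_injective hle')
  · rw [IntermediateField.finrank_eq_fixingSubgroup_index, hfix]
    exact (index_zeroSubgroup_le M c).1
  · intro ℓ hℓ hdvd A hA
    rw [hfix]
    have hmem : (⟨ℓ, hℓ⟩ : Nat.Primes) ∉ Sg := by
      intro hin
      exact hdvd (Finset.dvd_prod_of_mem (fun q : Nat.Primes => (q : ℕ)) hin)
    exact (hF'.2 ⟨ℓ, hℓ⟩ hmem A hA).trans hle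

/-- Under Hermite–Minkowski, there is one subgroup of finite index on whose left cosets every
level-`Sg` cocycle with values in the finite module `M` is constant. -/
theorem exists_subgroup_of_HM (hHM : HMInput) [Finite M] (Sg : Finset Nat.Primes) :
    ∃ U : Subgroup GQ, U.FiniteIndex ∧
      ∀ c : cocycles₁ M, IsLevelConstantS₁ Sg (c : GQ → M) → ∀ g s, s ∈ U → c (g * s) = c g := by
  classical
  have hB : (∏ q ∈ Sg, (q : ℕ)) ≠ 0 :=
    Finset.prod_ne_zero_iff.2 (fun q _ => q.2.ne_zero)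
  have hfin := hHM (∏ q ∈ Sg, (q : ℕ)) (Nat.card M) hB
  set 𝔉 := {F : IntermediateField ℚ (AlgebraicClosure ℚ) | FiniteDimensional ℚ F ∧
      Module.finrank ℚ F ≤ Nat.card M ∧
      ∀ ℓ : ℕ, ℓ.Prime → ¬ ℓ ∣ ∏ q ∈ Sg, (q : ℕ) →
        ∀ A : ValuationSubring (AlgebraicClosure ℚ),
        A.LiesOverPrime ℓ → A.inertiaSubgroupIn ℚ ≤ F.fixingSubgroup} with h𝔉
  haveI : Finite 𝔉 := hfin
  haveI : ∀ F : 𝔉, FiniteDimensional ℚ (F : IntermediateField ℚ (AlgebraicClosure ℚ)) :=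
    fun F => F.2.1
  set L : IntermediateField ℚ (AlgebraicClosure ℚ) :=
    ⨆ F : 𝔉, (F : IntermediateField ℚ (AlgebraicClosure ℚ)) with hL
  haveI hLfd : FiniteDimensional ℚ L := IntermediateField.finiteDimensional_iSup_of_finite
  refine ⟨L.fixingSubgroup, ?_, ?_⟩
  · rw [Subgroup.finiteIndex_iff, ← IntermediateField.finrank_eq_fixingSubgroup_index]
    exact Module.finrank_pos.ne'
  · intro c hc g s hs
    obtain ⟨F, hFfd, hFd, hFur, hFc⟩ := exists_field_of_cocycle M Sg c hc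
    have hFmem : F ∈ 𝔉 := ⟨hFfd, hFd, hFur⟩
    have hle : F ≤ L := le_iSup (fun F : 𝔉 => (F : IntermediateField ℚ (AlgebraicClosure ℚ)))
      ⟨F, hFmem⟩
    have hs' : s ∈ zeroSubgroup M c := by
      rw [← hFc]
      exact IntermediateField.fixingSubgroup_antitone hle hs
    exact map_mul_of_mem_zeroSubgroup M g hs'

/-- Under Hermite–Minkowski, there are finitely many level-`Sg` cocycles with values in a
finite module. -/
theorem finite_levelCocyclesS₁_of_HM (hHM : HMInput) [Finite M] (Sg : Finset Nat.Primes) :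
    Finite (levelCocyclesS₁ Sg M) := by
  classical
  obtain ⟨U, hU, hconst⟩ := exists_subgroup_of_HM M hHM Sg
  haveI : Finite (GQ ⧸ U) := Subgroup.finite_quotient_of_finiteIndex
  let Φ : levelCocyclesS₁ Sg M → (GQ ⧸ U → M) := fun c =>
    Quotient.lift (fun g : GQ => (c : cocycles₁ M) g) (by
      intro a b hab
      have hab' : a⁻¹ * b ∈ U := QuotientGroup.leftRel_apply.1 hab
      have := hconst (c : cocycles₁ M) c.2 a (a⁻¹ * b) hab'
      rw [mul_inv_cancel_left] at this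
      exact this.symm)
  refine Finite.of_injective Φ ?_
  intro c c' h
  apply Subtype.ext
  apply Subtype.ext
  funext g
  exact congrFun h (QuotientGroup.mk g)

end galois

/-- **Package GW-FIN-glob**, relative to Hermite–Minkowski. -/
theorem fin_glob_of_HM (hHM : HMInput) : Stmt_fin_glob := by
  intro k _ _ M _ _ Sg
  haveI : Finite M := Module.finite_of_finite k
  haveI : Finite (levelCocyclesS₁ Sg M) := finite_levelCocyclesS₁_of_HM M hHM Sg
  have hfin : (continuousH1S Sg M : Set (H1 M)).Finite := by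
    have : (continuousH1S Sg M : Set (H1 M)) = (H1π M).hom '' (levelCocyclesS₁ Sg M : Set _) := by
      rw [continuousH1S, Submodule.map_coe]
    rw [this]
    exact (Set.toFinite _).image _
  haveI : Finite (continuousH1S Sg M) := hfin
  exact Module.Finite.of_finite

end Fermat.Agent.S56.H92

end

end
-- ==== END Fermat.Agent.S56.GW.H92_FinGlob
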