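-- GENERATED (merged mirror, NOTES/tools/trim/merge3_helper67.py): 8 modules of the originals, bodies verbatim.
import Mathlib
import Fermat.Prelude.Def_FLTPrelim_FreyPackage
import Fermat.Prelude.Def_FLTPrelim_GaloisRep
import Fermat.Prelude.Def_FLTPrelim_Modularity
import Fermat.Prelude.Def_FLTPrelim_ModularRep
import Fermat.Prelude.Def_FLTPrelim_Ramification
import Fermat.Prelude.Def_EllipticCurve_FrobeniusTrace
import Fermat.Prelude.Def_FreyPackage_IsConductorLevel
import Fermat.Agent.Zm.S35_L03_005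
import Fermat.Agent.Zm.S35_L02_002
import Fermat.Agent.Zm.S35_L08_000
import Fermat.Agent.Zm.S35_L11_001
import Fermat.Agent.Zm.S56_L10_003
import Fermat.Agent.Zm.S35_L07_000
import Fermat.Agent.Zm.S35_L01_005
import Fermat.Agent.Zm.S35_L01_000
import Fermat.Agent.Zm.S56_L02_000
import Fermat.Agent.Zm.S35_L03_001

-- ==== BEGIN Fermat.Agent.S32.H86_BLRint
section

/-!
# Boston–Lenstra–Ribet over a commutative ring, and split embeddings of the standard module
(helper86, S32 bridge)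

* `exists_algHom` : helper19's proof of the theorem of Boston–Lenstra–Ribet
  (`Fermat/Agent/L/H19_BLR.lean`, written there for fields) over an arbitrary commutative ring
  `k`: if the matrices `M g` span `M₂(k)` and every `π g` satisfies the characteristic polynomial
  of `M g`, then `π` factors through `M`.
* `exists_split_embedding` : a non-zero finite free module `X` over a local ring `k` with an action
  of `M₂(k)` contains the standard module `k²` as a direct summand (equivariantly).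
-/

set_option autoImplicit false
set_option linter.unusedSectionVars false
set_option linter.unusedVariables false

namespace Fermat.Agent.S32.H86BLR

open Matrix

variable {G k B : Type*} [Group G] [CommRing k] [Ring B] [Algebra k B]

/-! ### Identities for `2 × 2` matrices -/

lemma det_add_fin_two (m m' : Matrix (Fin 2) (Fin 2) k) :
    (m + m').det = m.det + m'.det + (m.trace * m'.trace - (m * m').trace) := by
  simp only [Matrix.det_fin_two, Matrix.trace_fin_two, Matrix.mul_apply, Fin.sum_univ_two,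
    Matrix.add_apply]
  ring

lemma det_smul_fin_two (c : k) (m : Matrix (Fin 2) (Fin 2) k) :
    (c • m).det = c ^ 2 * m.det := by
  simp only [Matrix.det_fin_two, Matrix.smul_apply, smul_eq_mul]
  ring

/-! ### The graph span -/

/-- The span of the pairs `(M g, π g)`. -/
def graphSpan (M : G →* Matrix (Fin 2) (Fin 2) k) (π : G →* B) :
    Submodule k (Matrix (Fin 2) (Fin 2) k × B) :=
  Submodule.span k (Set.range fun g => (M g, π g))

variable {M : G →* Matrix (Fin 2) (Fin 2) k} {π : G →* B}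

lemma gen_mem (g : G) : (M g, π g) ∈ graphSpan M π :=
  Submodule.subset_span ⟨g, rfl⟩

lemma one_mem_graphSpan : ((1 : Matrix (Fin 2) (Fin 2) k), (1 : B)) ∈ graphSpan M π := by
  have := gen_mem (M := M) (π := π) 1
  simpa using this

lemma mul_mem_graphSpan {r s : Matrix (Fin 2) (Fin 2) k × B} (hr : r ∈ graphSpan M π)
    (hs : s ∈ graphSpan M π) : (r.1 * s.1, r.2 * s.2) ∈ graphSpan M π := by
  induction hr using Submodule.span_induction with
  | mem r hr =>
    obtain ⟨g, rfl⟩ := hr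
    induction hs using Submodule.span_induction with
    | mem s hs =>
      obtain ⟨h, rfl⟩ := hs
      have := gen_mem (M := M) (π := π) (g * h)
      simpa using this
    | zero =>
      simp only [Prod.fst_zero, Prod.snd_zero, mul_zero]
      exact Submodule.zero_mem _
    | add s s' _ _ ih ih' =>
      have := Submodule.add_mem _ ih ih'
      simpa [mul_add] using this
    | smul c s _ ih =>
      have := Submodule.smul_mem _ c ih
      simpa using this
  | zero =>
    simp only [Prod.fst_zero, Prod.snd_zero, zero_mul]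
    exact Submodule.zero_mem _
  | add r r' _ _ ih ih' =>
    have := Submodule.add_mem _ ih ih'
    simpa [add_mul] using this
  | smul c r _ ih =>
    have := Submodule.smul_mem _ c ih
    simpa using this


/-! ### The polarised Cayley–Hamilton identity -/

section CH

variable (hCH : ∀ g, π g * π g - (M g).trace • π g + (M g).det • (1 : B) = 0)
include hCH

/-- `det(g) π(g⁻¹) = tr(g) - π(g)`. -/
lemma adj_rel (g : G) : (M g).det • π g⁻¹ = (M g).trace • (1 : B) - π g := by
  have h := hCH g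
  have h1 : (π g * π g - (M g).trace • π g + (M g).det • (1 : B)) * π g⁻¹ = 0 := by
    rw [h, zero_mul]
  have h2 : π g * π g⁻¹ = 1 := by rw [← map_mul, mul_inv_cancel, map_one]
  rw [add_mul, sub_mul, mul_assoc, h2, mul_one, smul_mul_assoc, h2, smul_mul_assoc, one_mul] at h1
  calc (M g).det • π g⁻¹
      = (π g - (M g).trace • (1 : B) + (M g).det • π g⁻¹) - (π g - (M g).trace • (1 : B)) := by
        abel
    _ = (M g).trace • (1 : B) - π g := by rw [h1]; abel

/-- The polarised identity on generators. -/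
lemma dagger_gen (g h : G) :
    π g * π h + π h * π g - (M g).trace • π h - (M h).trace • π g
      + ((M g).trace * (M h).trace - (M g * M h).trace) • (1 : B) = 0 := by
  have hg := adj_rel hCH g
  have hh := adj_rel hCH h
  have hgh := adj_rel hCH (g * h)
  have e1 : (M (g * h)).det • π (g * h)⁻¹ = ((M h).det • π h⁻¹) * ((M g).det • π g⁻¹) := by
    rw [_root_.mul_inv_rev, map_mul, map_mul, Matrix.det_mul, smul_mul_smul_comm, mul_comm (M h).det]
  rw [e1, hg, hh, map_mul, map_mul] at hgh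
  have e2 : ((M h).trace • (1 : B) - π h) * ((M g).trace • (1 : B) - π g)
      = ((M g).trace * (M h).trace) • (1 : B) - (M h).trace • π g - (M g).trace • π h
        + π h * π g := by
    rw [sub_mul, mul_sub, mul_sub, smul_mul_smul_comm, mul_one, smul_mul_assoc, one_mul,
      mul_smul_comm, mul_one, mul_comm (M h).trace]
    abel
  rw [e2] at hgh
  have := sub_eq_zero.mpr hgh
  rw [← this]
  module

/-- The defect of the polarised Cayley–Hamilton identity. -/
def Dg (r s : Matrix (Fin 2) (Fin 2) k × B) : B :=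
  r.2 * s.2 + s.2 * r.2 - r.1.trace • s.2 - s.1.trace • r.2
    + (r.1.trace * s.1.trace - (r.1 * s.1).trace) • (1 : B)

omit hCH in
lemma Dg_add_left (r r' s : Matrix (Fin 2) (Fin 2) k × B) :
    Dg (r + r') s = Dg r s + Dg r' s := by
  simp only [Dg, Prod.fst_add, Prod.snd_add, add_mul, mul_add, Matrix.trace_add]
  module

omit hCH in
lemma Dg_add_right (r s s' : Matrix (Fin 2) (Fin 2) k × B) :
    Dg r (s + s') = Dg r s + Dg r s' := by
  simp only [Dg, Prod.fst_add, Prod.snd_add, add_mul, mul_add, Matrix.trace_add]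
  module

omit hCH in
lemma Dg_smul_left (c : k) (r s : Matrix (Fin 2) (Fin 2) k × B) :
    Dg (c • r) s = c • Dg r s := by
  simp only [Dg, Prod.smul_fst, Prod.smul_snd, Matrix.trace_smul, smul_mul_assoc,
    mul_smul_comm, smul_eq_mul]
  module

omit hCH in
lemma Dg_smul_right (c : k) (r s : Matrix (Fin 2) (Fin 2) k × B) :
    Dg r (c • s) = c • Dg r s := by
  simp only [Dg, Prod.smul_fst, Prod.smul_snd, Matrix.trace_smul, smul_mul_assoc,
    mul_smul_comm, smul_eq_mul]
  module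

omit hCH in
lemma Dg_zero_left (s : Matrix (Fin 2) (Fin 2) k × B) : Dg 0 s = 0 := by
  simp [Dg]

omit hCH in
lemma Dg_zero_right (r : Matrix (Fin 2) (Fin 2) k × B) : Dg r 0 = 0 := by
  simp [Dg]

/-- The polarised Cayley–Hamilton identity on the graph span. -/
lemma dagger {r s : Matrix (Fin 2) (Fin 2) k × B} (hr : r ∈ graphSpan M π)
    (hs : s ∈ graphSpan M π) : Dg r s = 0 := by
  induction hr using Submodule.span_induction with
  | mem r hr =>
    obtain ⟨g, rfl⟩ := hr
    induction hs using Submodule.span_induction with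
    | mem s hs =>
      obtain ⟨h, rfl⟩ := hs
      exact dagger_gen hCH g h
    | zero => exact Dg_zero_right _
    | add s s' _ _ ih ih' => rw [Dg_add_right, ih, ih', add_zero]
    | smul c s _ ih => rw [Dg_smul_right, ih, smul_zero]
  | zero => exact Dg_zero_left _
  | add r r' _ _ ih ih' => rw [Dg_add_left, ih, ih', add_zero]
  | smul c r _ ih => rw [Dg_smul_left, ih, smul_zero]

/-- The quadratic identity on the graph span. -/
lemma quad {r : Matrix (Fin 2) (Fin 2) k × B} (hr : r ∈ graphSpan M π) :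
    r.2 * r.2 - r.1.trace • r.2 + r.1.det • (1 : B) = 0 := by
  induction hr using Submodule.span_induction with
  | mem r hr =>
    obtain ⟨g, rfl⟩ := hr
    exact hCH g
  | zero => simp
  | add r s hr hs ih ih' =>
    have hd := dagger hCH hr hs
    simp only [Dg] at hd
    simp only [Prod.fst_add, Prod.snd_add, add_mul, mul_add, Matrix.trace_add, det_add_fin_two]
    have e : r.2 * r.2 + s.2 * r.2 + (r.2 * s.2 + s.2 * s.2) - (r.1.trace + s.1.trace) • (r.2 + s.2)
        + (r.1.det + s.1.det + (r.1.trace * s.1.trace - (r.1 * s.1).trace)) • (1 : B)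
        = (r.2 * r.2 - r.1.trace • r.2 + r.1.det • (1 : B))
          + (s.2 * s.2 - s.1.trace • s.2 + s.1.det • (1 : B))
          + (r.2 * s.2 + s.2 * r.2 - r.1.trace • s.2 - s.1.trace • r.2
            + (r.1.trace * s.1.trace - (r.1 * s.1).trace) • (1 : B)) := by
      module
    rw [e, ih, ih', hd]
    simp
  | smul c r _ ih =>
    simp only [Prod.smul_fst, Prod.smul_snd, Matrix.trace_smul, smul_mul_assoc,
      mul_smul_comm, smul_eq_mul, det_smul_fin_two]
    have e : c • c • (r.2 * r.2) - (c * r.1.trace) • c • r.2 + (c ^ 2 * r.1.det) • (1 : B)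
        = (c ^ 2) • (r.2 * r.2 - r.1.trace • r.2 + r.1.det • (1 : B)) := by
      module
    rw [e, ih, smul_zero]

/-- Key step: an element of the graph span with vanishing matrix component vanishes, as soon
as the graph span contains lifts of `E₁₂` and `E₂₁`. -/
lemma snd_eq_zero_of_fst_eq_zero {x y z : Matrix (Fin 2) (Fin 2) k × B}
    (hx : x ∈ graphSpan M π) (hy : y ∈ graphSpan M π) (hz : z ∈ graphSpan M π)
    (hx1 : x.1 = 0) (hty : y.1.trace = 0) (htz : z.1.trace = 0)
    (htyz : (y.1 * z.1).trace = 1) (hdyz : (y.1 * z.1).det = 0) : x.2 = 0 := by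
  have hyz := mul_mem_graphSpan hy hz
  -- `x y = - y x`, `x z = - z x`, `x (y z) + (y z) x = x`
  have h1 := dagger hCH hx hy
  have h2 := dagger hCH hx hz
  have h3 := dagger hCH hx hyz
  simp only [Dg, hx1, hty, htz, htyz, Matrix.trace_zero, zero_mul, zero_smul, sub_zero,
    mul_zero, add_zero, one_smul] at h1 h2 h3
  have hq := quad hCH hyz
  simp only [htyz, hdyz, one_smul, zero_smul, add_zero] at hq
  -- `e = y z` is an idempotent
  set e : B := y.2 * z.2 with he
  have he2 : e * e = e := sub_eq_zero.mp hq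
  have hxy : x.2 * y.2 = - (y.2 * x.2) := eq_neg_of_add_eq_zero_left h1
  have hxz : x.2 * z.2 = - (z.2 * x.2) := eq_neg_of_add_eq_zero_left h2
  have hxe : x.2 * e = e * x.2 := by
    rw [he, ← mul_assoc, hxy, neg_mul, mul_assoc, hxz, mul_neg, neg_neg, mul_assoc]
  have h4 : e * x.2 + e * x.2 = x.2 := by
    rw [hxe] at h3
    exact sub_eq_zero.mp h3
  have h5 : e * x.2 = 0 := by
    have := congrArg (fun t => e * t) h4
    simp only [mul_add, ← mul_assoc, he2] at this
    exact add_eq_right.mp this |>.symm ▸ rfl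
  rw [← h4, h5, add_zero]

end CH

/-! ### The algebra homomorphism -/

section AlgHom

variable (hspan : Submodule.span k (Set.range M) = ⊤)
  (hCH : ∀ g, π g * π g - (M g).trace • π g + (M g).det • (1 : B) = 0)

include hspan in
lemma exists_lift (π : G →* B) (m : Matrix (Fin 2) (Fin 2) k) :
    ∃ b : B, (m, b) ∈ graphSpan M π := by
  have h : m ∈ Submodule.map (LinearMap.fst k (Matrix (Fin 2) (Fin 2) k) B) (graphSpan M π) := by
    rw [graphSpan, Submodule.map_span, ← Set.range_comp]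
    have e : (⇑(LinearMap.fst k (Matrix (Fin 2) (Fin 2) k) B) ∘ fun g => (M g, π g)) = ⇑M := rfl
    rw [e, hspan]
    trivial
  obtain ⟨⟨m', b⟩, h, rfl⟩ := h
  exact ⟨b, h⟩

include hspan hCH in
/-- The graph span is the graph of a function. -/
lemma graph_unique {m : Matrix (Fin 2) (Fin 2) k} {b b' : B}
    (h : (m, b) ∈ graphSpan M π) (h' : (m, b') ∈ graphSpan M π) : b = b' := by
  obtain ⟨by', hy⟩ := exists_lift hspan π (Matrix.single (0 : Fin 2) (1 : Fin 2) (1 : k))
  obtain ⟨bz, hz⟩ := exists_lift hspan π (Matrix.single (1 : Fin 2) (0 : Fin 2) (1 : k))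
  have hx : ((0 : Matrix (Fin 2) (Fin 2) k), b - b') ∈ graphSpan M π := by
    have := Submodule.sub_mem _ h h'
    simpa using this
  have := snd_eq_zero_of_fst_eq_zero hCH hx hy hz rfl
    (by simp) (by simp) (by simp) (by simp [Matrix.det_fin_two])
  exact sub_eq_zero.mp this

include hspan hCH in
/-- **Boston–Lenstra–Ribet**: `π` factors through `M`. -/
theorem exists_algHom :
    ∃ Φ : Matrix (Fin 2) (Fin 2) k →ₐ[k] B, ∀ g, Φ (M g) = π g := by
  choose φ hφ using exists_lift hspan π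
  have huniq : ∀ {m : Matrix (Fin 2) (Fin 2) k} {b : B}, (m, b) ∈ graphSpan M π → φ m = b :=
    fun h => graph_unique hspan hCH (hφ _) h
  let L : Matrix (Fin 2) (Fin 2) k →ₗ[k] B :=
    { toFun := φ
      map_add' := fun m m' => huniq (by
        have := Submodule.add_mem _ (hφ m) (hφ m')
        simpa using this)
      map_smul' := fun c m => huniq (by
        have := Submodule.smul_mem _ c (hφ m)
        simpa using this) }
  refine ⟨AlgHom.ofLinearMap L (huniq one_mem_graphSpan) (fun m m' => huniq ?_),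
    fun g => huniq (gen_mem g)⟩
  exact mul_mem_graphSpan (hφ m) (hφ m')

end AlgHom


/-! ### Modules over `M₂(k)`, `k` local -/

/-- A non-zero finite free module over a local ring `k` with an action of `M₂(k)` contains the
standard module `k²` as an equivariant direct summand. -/
theorem exists_split_embedding {k : Type*} [CommRing k] [IsLocalRing k]
    {X : Type*} [AddCommGroup X] [Module k X] [Module.Free k X] [Module.Finite k X]
    [Nontrivial X] (Φ : Matrix (Fin 2) (Fin 2) k →ₐ[k] Module.End k X) :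
    ∃ (f : (Fin 2 → k) →ₗ[k] X) (r : X →ₗ[k] (Fin 2 → k)),
      (∀ v, r (f v) = v) ∧
      ∀ (A : Matrix (Fin 2) (Fin 2) k) (v : Fin 2 → k), f (A.mulVec v) = Φ A (f v) := by
  classical
  let e : Fin 2 → Fin 2 → k := fun i => Pi.single i 1
  let E : Fin 2 → Matrix (Fin 2) (Fin 2) k := fun i => Matrix.vecMulVec (e i) (e i)
  have hsum : E 0 + E 1 = 1 := by
    ext a c
    fin_cases a <;> fin_cases c <;> simp [E, e, Matrix.vecMulVec_apply]
  have hidem : ∀ i, E i * E i = E i := by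
    intro i
    simp only [E, Matrix.vecMulVec_mul_vecMulVec]
    congr 1
    simp [e]
  let b := Module.Free.chooseBasis k X
  obtain ⟨i₀⟩ : Nonempty (Module.Free.ChooseBasisIndex k X) := b.index_nonempty
  -- a unimodular vector in the image of some `E j`
  have hone : b.repr (Φ (E 0) (b i₀)) i₀ + b.repr (Φ (E 1) (b i₀)) i₀ = 1 := by
    rw [← Finsupp.add_apply, ← map_add, ← LinearMap.add_apply, ← map_add, hsum, map_one]
    simp
  have hex : ∃ j : Fin 2, IsUnit (b.repr (Φ (E j) (b i₀)) i₀) := by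
    rcases IsLocalRing.isUnit_or_isUnit_of_add_one hone with h | h
    · exact ⟨0, h⟩
    · exact ⟨1, h⟩
  obtain ⟨j, hj⟩ := hex
  obtain ⟨u, hu⟩ := hj
  set w : X := Φ (E j) (b i₀) with hw
  have hEw : Φ (E j) w = w := by
    rw [hw, ← Module.End.mul_apply, ← map_mul, hidem]
  obtain ⟨lam, hlam⟩ : ∃ lam : X →ₗ[k] k, lam w = 1 := by
    refine ⟨(↑u⁻¹ : k) • (b.coord i₀), ?_⟩
    show (↑u⁻¹ : k) • (b.coord i₀ w) = 1
    rw [Module.Basis.coord_apply, ← hu, smul_eq_mul, Units.inv_mul]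
  let f : (Fin 2 → k) →ₗ[k] X :=
    { toFun := fun v => Φ (Matrix.vecMulVec v (e j)) w
      map_add' := fun v v' => by
        rw [Matrix.add_vecMulVec, map_add, LinearMap.add_apply]
      map_smul' := fun c v => by
        rw [Matrix.smul_vecMulVec, map_smul, LinearMap.smul_apply, RingHom.id_apply] }
  have hf : ∀ v, f v = Φ (Matrix.vecMulVec v (e j)) w := fun v => rfl
  let r : X →ₗ[k] (Fin 2 → k) :=
    LinearMap.pi fun a => lam ∘ₗ (Φ (Matrix.vecMulVec (e j) (e a)))
  have hr : ∀ x a, r x a = lam (Φ (Matrix.vecMulVec (e j) (e a)) x) := fun x a => rfl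
  refine ⟨f, r, fun v => ?_, fun A v => ?_⟩
  · funext a
    have h1 : e a ⬝ᵥ v = v a := by
      simp [e, dotProduct, Pi.single_apply]
    have h2 : Matrix.vecMulVec (e j) (e a) * Matrix.vecMulVec v (e j) = v a • E j := by
      rw [Matrix.vecMulVec_mul_vecMulVec, h1, Matrix.vecMulVec_smul]
    calc r (f v) a
        = lam (Φ (Matrix.vecMulVec (e j) (e a)) (Φ (Matrix.vecMulVec v (e j)) w)) := rfl
      _ = lam (Φ (Matrix.vecMulVec (e j) (e a) * Matrix.vecMulVec v (e j)) w) := by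
          rw [map_mul, Module.End.mul_apply]
      _ = lam (v a • w) := by rw [h2, map_smul, LinearMap.smul_apply, hEw]
      _ = v a := by rw [map_smul, hlam, smul_eq_mul, mul_one]
  · rw [hf, hf, ← Matrix.mul_vecMulVec, map_mul, Module.End.mul_apply]

end Fermat.Agent.S32.H86BLR

end
-- ==== END Fermat.Agent.S32.H86_BLRint

-- ==== BEGIN Fermat.Agent.S32.H86_BridgeCH
section

/-!
# S32 bridge, part CH (helper86): every Galois element satisfies the characteristic polynomial
of `ρ` on the Tate piece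

`ρ` a representation over a separated local ring `𝒪`, `ρ'` a continuous matrix representation
such that every Frobenius element `σ` at a prime `ℓ ∉ S` satisfies
`ρ'(σ)² - tr ρ(σ) ρ'(σ) + det ρ(σ) = 0`.  Then every `g` does (Frobenius density, Lucas
sequences, separatedness).
-/

set_option autoImplicit false
set_option linter.unusedSectionVars false
set_option linter.unusedVariables false
set_option linter.style.haveILetI false

open Polynomial IsLocalRing

namespace Fermat.Agent.S32.H86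

open Fermat.Agent.R Fermat.Agent.S30 Fermat.Agent.S30.H2 Fermat.Agent.R.H91

/-- **Cayley–Hamilton on the piece for all Galois elements.** -/
theorem ch_all (hFD : Stmt_FD) {𝒪 : Type} [CommRing 𝒪] [IsLocalRing 𝒪]
    [IsHausdorff (maximalIdeal 𝒪) 𝒪]
    (ρ : GaloisRepAdic 𝒪) {d : ℕ} (ρ' : _root_.Fermat.Agent.S30.GQ →* Matrix (Fin d) (Fin d) 𝒪)
    (hcont : MatAdicCont ρ') (S : Finset ℕ)
    (hFrob : ∀ ℓ : ℕ, ℓ.Prime → ℓ ∉ S →
      ∀ A : ValuationSubring (AlgebraicClosure ℚ), A.LiesOverPrime ℓ →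
        ∀ σ : _root_.Fermat.Agent.S30.GQ, A.IsFrobeniusAt σ ℓ →
          ρ' σ * ρ' σ - (LinearMap.trace 𝒪 ρ.V (ρ.ρ σ)) • ρ' σ
            + (LinearMap.det (ρ.ρ σ)) • (1 : Matrix (Fin d) (Fin d) 𝒪) = 0)
    (g : _root_.Fermat.Agent.S30.GQ) :
    ρ' g * ρ' g - (LinearMap.trace 𝒪 ρ.V (ρ.ρ g)) • ρ' g
      + (LinearMap.det (ρ.ρ g)) • (1 : Matrix (Fin d) (Fin d) 𝒪) = 0 := by
  ext a b
  rw [Matrix.zero_apply]
  apply IsHausdorff.haus (I := maximalIdeal 𝒪) (M := 𝒪) inferInstance
  intro n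
  rw [SModEq.sub_mem, sub_zero, smul_eq_mul, Ideal.mul_top]
  obtain ⟨L₁, hL₁, h₁⟩ := hcont n
  obtain ⟨L₂, hL₂, h₂⟩ := ρ.isAdicContinuous n
  haveI := hL₁
  haveI := hL₂
  obtain ⟨ℓ, A, σ, j, hℓ, hℓS, hA, hσ, hσg⟩ := hFD S (L₁ ⊔ L₂) inferInstance g
  have hτ : ∀ x ∈ L₁ ⊔ L₂, (g⁻¹ * σ ^ j) x = x := by
    intro x hx
    rw [AlgEquiv.mul_apply, hσg x hx]
    exact (AlgEquiv.symm_apply_apply g x)
  have hτ₁ : ∀ x ∈ L₁, (g⁻¹ * σ ^ j) x = x := fun x hx => hτ x (le_sup_left (a := L₁) hx)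
  have hτ₂ : ∀ x ∈ L₂, (g⁻¹ * σ ^ j) x = x := fun x hx => hτ x (le_sup_right (b := L₂) hx)
  have hσj : σ ^ j = g * (g⁻¹ * σ ^ j) := by rw [mul_inv_cancel_left]
  set I := maximalIdeal 𝒪 ^ n with hI
  -- `ρ'(σ)^j ≡ ρ'(g)`
  have hρ1 : MatMem I (ρ' σ ^ j - ρ' g) := by
    have h3 : ρ' σ ^ j - ρ' g = ρ' g * (ρ' (g⁻¹ * σ ^ j) - 1) := by
      rw [mul_sub, mul_one, ← map_mul, ← hσj, map_pow]
    rw [h3]
    exact MatMem.mul_left (h₁ _ hτ₁) _
  -- `ρ(σ)^j ≡ ρ(g)`
  have hρ2 : ∀ v, (ρ.ρ σ ^ j) v - ρ.ρ g v ∈ I • (⊤ : Submodule 𝒪 ρ.V) := by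
    intro v
    have h3 : (ρ.ρ σ ^ j) v - ρ.ρ g v = ρ.ρ g (ρ.ρ (g⁻¹ * σ ^ j) v - v) := by
      rw [map_sub, ← Module.End.mul_apply, ← map_mul, ← hσj, map_pow]
    rw [h3]
    exact map_mem_smul_top I _ (h₂ _ hτ₂ v)
  obtain ⟨htr, hdet⟩ := trace_det_congr I (ρ.ρ σ ^ j) (ρ.ρ g) hρ2
  -- Lucas
  set t := LinearMap.trace 𝒪 ρ.V (ρ.ρ σ) with ht
  set δ := LinearMap.det (ρ.ρ σ) with hδ
  have hL := lucas_algebra (ρ' σ) t δ (hFrob ℓ hℓ hℓS A hA σ hσ) j
  have hch := charpoly_eq_of_finrank_two ρ.finrank_eq (ρ.ρ σ)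
  have htrj : LinearMap.trace 𝒪 ρ.V (ρ.ρ σ ^ j) = lucasV t δ j :=
    trace_pow_of_charpoly ρ.finrank_eq (ρ.ρ σ) hch j
  have hdetj : LinearMap.det (ρ.ρ σ ^ j) = δ ^ j := map_pow _ _ _
  rw [htrj] at htr
  rw [hdetj] at hdet
  set tg := LinearMap.trace 𝒪 ρ.V (ρ.ρ g) with htg
  set dg := LinearMap.det (ρ.ρ g) with hdg
  have hdecomp : ρ' g * ρ' g - tg • ρ' g + dg • (1 : Matrix (Fin d) (Fin d) 𝒪) =
      (lucasV t δ j • (ρ' σ ^ j - ρ' g) + (lucasV t δ j - tg) • ρ' g -
        (ρ' g * (ρ' σ ^ j - ρ' g) + (ρ' σ ^ j - ρ' g) * ρ' σ ^ j)) -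
        (δ ^ j - dg) • (1 : Matrix (Fin d) (Fin d) 𝒪) := by
    have hL' : ρ' σ ^ j * ρ' σ ^ j = lucasV t δ j • ρ' σ ^ j -
        (δ ^ j) • (1 : Matrix (Fin d) (Fin d) 𝒪) := by
      rw [eq_sub_iff_add_eq, ← sub_eq_zero, ← hL]
      abel
    rw [mul_sub, sub_mul, hL', smul_sub, sub_smul, sub_smul]
    abel
  rw [hdecomp]
  have hmem : MatMem I ((lucasV t δ j • (ρ' σ ^ j - ρ' g) + (lucasV t δ j - tg) • ρ' g -
        (ρ' g * (ρ' σ ^ j - ρ' g) + (ρ' σ ^ j - ρ' g) * ρ' σ ^ j)) -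
        (δ ^ j - dg) • (1 : Matrix (Fin d) (Fin d) 𝒪)) := by
    refine (((hρ1.smul _).add ?_).sub ((hρ1.mul_left _).add (hρ1.mul_right _))).sub
      (MatMem.smul_one hdet)
    have h5 : (lucasV t δ j - tg) • ρ' g =
        ((lucasV t δ j - tg) • (1 : Matrix (Fin d) (Fin d) 𝒪)) * ρ' g := by
      rw [Matrix.smul_mul, one_mul]
    rw [h5]
    exact (MatMem.smul_one htr).mul_right _
  exact hmem a b

end Fermat.Agent.S32.H86

end
-- ==== END Fermat.Agent.S32.H86_BridgeCH

-- ==== BEGIN Fermat.Agent.S33.H46_T2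
section
attribute [local instance 10000] SubalgebraClass.toAlgebra
attribute [local instance 10000] HahnSeries.powerSeriesAlgebra

/-!
# S33, NEW case, leaf (T2) (helper46): `K1` is saturated

Plan: `NOTES/plan/R_S33_NEW.md` §1 (ii).  For a valuation ring `A` of `ℚ̄` over `p`:

  `x ∈ J₀(N)[p^k]`, `x ∈ K1(p^(k+1))`  ⟹  `x ∈ K1(p^k)`.

Proof: `p^(k+1) D = div f`, `res f = 1`, and `p^k D = div g`; then `f = c g^p` with `c` constant,
so `f = g'^p` (`ℚ̄` is algebraically closed); `g'` is a Gauss unit and `(res g')^p = 1`, hence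
`res g' = 1` because the residue field has characteristic `p`.

* `stmt_T2 : InK1 A N (p ^ (k + 1)) x → p ^ k • x = 0 → InK1 A N (p ^ k) x`;
* `inK1_of_pow : InK1 A N (p ^ (k + j)) x → p ^ k • x = 0 → InK1 A N (p ^ k) x`.
-/

set_option autoImplicit false

noncomputable section

open AlgebraicCurve ModularCurve Fermat.Agent.S28.H73 Fermat.Agent.RED.H73

namespace Fermat.Agent.S33.H46

open Fermat.Agent.BAD Fermat.Agent.BAD.H91

variable (N : ℕ) [NeZero N] (A : ValuationSubring (AlgebraicClosure ℚ))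

/-- The residue field of the Gauss valuation has characteristic `p`. -/
theorem charP_redField {p : ℕ} (hp : p.Prime) (hA : A.LiesOverPrime p) :
    CharP ↥(redField A (FNbar N) (hasScale_laurentBaseChange A N)) p := by
  have : CharP (kV A) p := Fermat.Agent.BAD.H82.charP_kV A hp hA
  exact charP_of_injective_algebraMap
    (algebraMap (kV A) ↥(redField A (FNbar N) (hasScale_laurentBaseChange A N))).injective p

/-- **(T2)**: `K1(p^(k+1)) ∩ J₀(N)[p^k] ⊆ K1(p^k)` for `A` over `p`. -/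
theorem stmt_T2 {p : ℕ} (hp : p.Prime) (hA : A.LiesOverPrime p) (k : ℕ) (x : JZero N)
    (hK : InK1 A N (p ^ (k + 1)) x) (hx : p ^ k • x = 0) : InK1 A N (p ^ k) x := by
  have : Fact p.Prime := ⟨hp⟩
  have := charP_redField N A hp hA
  obtain ⟨D, f, rfl, hres, hfD⟩ := hK
  obtain ⟨g, hg0, hgD⟩ := exists_kummer_of_nsmul_eq_zero N (p ^ k) D hx
  -- `f ≠ 0`
  have hf0 : ((f : ↥(gaussV A N)) : ↥(FNbar N)) ≠ 0 := by
    intro h0
    have : f = 0 := Subtype.ext h0
    rw [this, map_zero] at hres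
    exact zero_ne_one hres
  -- `f / g^p` has no zeros and no poles
  have hgp0 : g ^ p ≠ 0 := pow_ne_zero p hg0
  have hord : ∀ P : Place (AlgebraicClosure ℚ) ↥(FNbar N),
      P.ord (((f : ↥(gaussV A N)) : ↥(FNbar N)) * (g ^ p)⁻¹) = 0 := by
    intro P
    have hpow : P.ord (g ^ p) = (p : ℤ) * P.ord g := by
      rw [← zpow_natCast, Place.ord_zpow]
    rw [Place.ord_mul _ hf0 (inv_ne_zero hgp0), Place.ord_inv, hpow, ← hfD P, ← hgD P]
    push_cast
    ring
  obtain ⟨c, hc⟩ := Fermat.Agent.GTor.H33.exists_algebraMap_eq_FN N _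
    (mul_ne_zero hf0 (inv_ne_zero hgp0)) hord
  have hc0 : c ≠ 0 := by
    rintro rfl
    rw [map_zero] at hc
    exact mul_ne_zero hf0 (inv_ne_zero hgp0) hc.symm
  obtain ⟨c₁, hc₁⟩ := IsAlgClosed.exists_pow_nat_eq c hp.pos
  have hc₁0 : c₁ ≠ 0 := by
    rintro rfl
    rw [zero_pow hp.ne_zero] at hc₁
    exact hc0 hc₁.symm
  set g' : ↥(FNbar N) := algebraMap (AlgebraicClosure ℚ) ↥(FNbar N) c₁ * g with hg'
  have hg'p : g' ^ p = ((f : ↥(gaussV A N)) : ↥(FNbar N)) := by
    rw [hg', mul_pow, ← map_pow, hc₁, hc, mul_assoc, inv_mul_cancel₀ hgp0, mul_one]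
  have hg'0 : g' ≠ 0 := mul_ne_zero ((map_ne_zero _).2 hc₁0) hg0
  have hordg' : ∀ P : Place (AlgebraicClosure ℚ) ↥(FNbar N), P.ord g' = P.ord g := by
    intro P
    rw [hg', Place.ord_mul _ ((map_ne_zero _).2 hc₁0) hg0, ord_algebraMap_zero, zero_add]
  -- `g'` lies in the Gauss valuation ring
  have hg'V : g' ∈ gaussV A N := by
    rw [← ValuationSubring.valuation_le_one_iff]
    have h1 : (gaussV A N).valuation g' ^ p ≤ 1 := by
      rw [← map_pow, hg'p, ValuationSubring.valuation_le_one_iff]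
      exact f.2
    exact (pow_le_one_iff hp.ne_zero).1 h1
  -- its reduction is `1`
  have hresg : gaussRes A N ⟨g', hg'V⟩ = 1 := by
    have h1 : gaussRes A N ⟨g', hg'V⟩ ^ p = 1 := by
      rw [← map_pow, ← hres]
      congr 1
      exact Subtype.ext hg'p
    have h2 : frobenius ↥(redField A (FNbar N) (hasScale_laurentBaseChange A N)) p
        (gaussRes A N ⟨g', hg'V⟩)
        = frobenius ↥(redField A (FNbar N) (hasScale_laurentBaseChange A N)) p 1 := by
      rw [frobenius_def, frobenius_def, h1, one_pow]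
    exact frobenius_inj _ p h2
  refine ⟨D, ⟨g', hg'V⟩, rfl, hresg, fun P => ?_⟩
  show ((p ^ k : ℕ) : ℤ) * _ = P.ord g'
  rw [hordg', hgD P]

/-- `K1(p^(k+j)) ∩ J₀(N)[p^k] ⊆ K1(p^k)`. -/
theorem inK1_of_pow {p : ℕ} (hp : p.Prime) (hA : A.LiesOverPrime p) (k j : ℕ) (x : JZero N)
    (hK : InK1 A N (p ^ (k + j)) x) (hx : p ^ k • x = 0) : InK1 A N (p ^ k) x := by
  induction j with
  | zero => simpa using hK
  | succ j ih =>
    apply ih
    have hx' : p ^ (k + j) • x = 0 := by
      rw [pow_add, mul_comm, mul_smul, hx, smul_zero]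
    exact stmt_T2 N A hp hA (k + j) x hK hx'

/-- **(T2)** in the shape of `Fermat.Agent.S33.New.H54.Stmt_K1Sat N p`, for every level
`N ≠ 0` (for `N = 0` the field `F_0` is not finitely generated and has non-constant functions
without zeros and poles). -/
theorem stmt_K1Sat (p : ℕ) :
    p.Prime → ∀ A : ValuationSubring (AlgebraicClosure ℚ), A.LiesOverPrime p →
      ∀ (k : ℕ) (x : JZero N), InK1 A N (p ^ (k + 1)) x → p ^ k • x = 0 →
        InK1 A N (p ^ k) x :=
  fun hp A hA k x hK hx => stmt_T2 N A hp hA k x hK hx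

end Fermat.Agent.S33.H46

end
end
-- ==== END Fermat.Agent.S33.H46_T2

-- ==== BEGIN Fermat.Agent.S33.H86_SubqGen
section

/-!
# Reduction is injective on unramified subquotients, general form (helper86, row S33)

`subq_gen` is helper54's `Stmt_SUBQ` (`Fermat/Agent/S56/FL/H54_Conn.lean`) without the hypothesis
that all points are killed by `p`: only `x ^ p ∈ E₁` is needed, and the submonoids `E₁ ≤ E₂` are
assumed to be closed under inverses.  The proof is helper54's proof.
-/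

set_option autoImplicit false
set_option linter.unusedSectionVars false
set_option linter.style.haveILetI false

noncomputable section

namespace Fermat.Agent.S33.H86

open scoped NNReal TensorProduct
open Fermat.Agent.S56.FL Fermat.Agent.S56.FL.H54 Fermat.Agent.R.H54 WithConv

/-- **SUBQ, general form.**  `E₁ ≤ E₂` Galois-stable subgroups of the group of `K̄`-points of a
finite flat cocommutative Hopf algebra over `ℤ_(p)` (`p` odd) with inertia acting trivially on
`E₂ / E₁`; a point `x ∈ E₂` with `x ^ p ∈ E₁` which reduces to the identity lies in `E₁`. -/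
theorem subq_gen {p : ℕ} [Fact p.Prime] (hp2 : p ≠ 2)
    (H : Type) [CommRing H] [HopfAlgebra (Zloc p) H] [Module.Finite (Zloc p) H]
    [Coalgebra.IsCocomm (Zloc p) H]
    (E₁ E₂ : Submonoid (WithConv (H →ₐ[Zloc p] PadicAlgCl p))) (h12 : E₁ ≤ E₂)
    (hinv₁ : ∀ x ∈ E₁, ∀ y : WithConv (H →ₐ[Zloc p] PadicAlgCl p), y * x = 1 → y ∈ E₁)
    (hinv₂ : ∀ x ∈ E₂, ∀ y : WithConv (H →ₐ[Zloc p] PadicAlgCl p), y * x = 1 → y ∈ E₂)
    (hE₁ : ∀ (σ : Gp p), ∀ x ∈ E₁, pointAct σ x ∈ E₁)
    (hE₂ : ∀ (σ : Gp p), ∀ x ∈ E₂, pointAct σ x ∈ E₂)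
    (hin : ∀ σ ∈ inertiaP p, ∀ x ∈ E₂, ∃ y ∈ E₁, pointAct σ x = x * y)
    (x : WithConv (H →ₐ[Zloc p] PadicAlgCl p)) (hx : x ∈ E₂) (hxp : x ^ p ∈ E₁)
    (hred : ∀ h : H,
      ‖x.ofConv h - algebraMap (Zloc p) (PadicAlgCl p) (Coalgebra.counit h)‖ < 1) :
    x ∈ E₁ := by
  classical
  have hUV : Stmt_UnramVal := stmt_UnramVal
  have hp : p.Prime := Fact.out
  have hD := descentData_padic (p := p)
  -- the subgroups of the points of the base change
  have hsub : ∀ E : Submonoid (WithConv (H →ₐ[Zloc p] PadicAlgCl p)),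
      (∀ x ∈ E, ∀ y : WithConv (H →ₐ[Zloc p] PadicAlgCl p), y * x = 1 → y ∈ E) →
      (∀ (σ : Gp p), ∀ x ∈ E, pointAct σ x ∈ E) →
      IsGSubgroup hD {φ : Pts ℤ_[p] (ℤ_[p] ⊗[Zloc p] H) (PadicAlgCl p) | resBC φ ∈ E} := by
    intro E hEinv hE
    refine ⟨?_, ?_, ?_, ?_⟩
    · show resBC 1 ∈ E
      rw [resBC_one]
      exact E.one_mem
    · intro f hf g hg
      show resBC (f * g) ∈ E
      rw [resBC_mul]
      exact E.mul_mem hf hg
    · intro f hf
      show resBC (pinv f) ∈ E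
      have h1 : resBC (pinv f) * resBC f = 1 := by rw [← resBC_mul, pinv_mul, resBC_one]
      exact hEinv _ hf _ h1
    · intro σ f hf
      show resBC (gconj hD σ f) ∈ E
      rw [resBC_gconj]
      exact hE σ _ hf
  have hX₁ := hsub E₁ hinv₁ hE₁
  have hX₂ := hsub E₂ hinv₂ hE₂
  set X₁ : Set (Pts ℤ_[p] (ℤ_[p] ⊗[Zloc p] H) (PadicAlgCl p)) := {φ | resBC φ ∈ E₁} with hX₁def
  set X₂ : Set (Pts ℤ_[p] (ℤ_[p] ⊗[Zloc p] H) (PadicAlgCl p)) := {φ | resBC φ ∈ E₂} with hX₂def
  obtain ⟨A, _, _, hfin, hfree, hcoc, q, hq_mul, hq_ker, hq_gal, hq_val⟩ :=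
    exists_subquotient_model hD hX₁ hX₂
  haveI := hfin
  haveI := hfree
  haveI := hcoc
  set xh := extBC x with hxh
  have hxh2 : xh ∈ X₂ := by
    show resBC (extBC x) ∈ E₂
    rw [resBC_extBC]
    exact hx
  have hq_one : q 1 = 1 := (hq_ker 1 hX₂.one_mem).mpr hX₁.one_mem
  have hq_pow : ∀ n : ℕ, q (xh ^ n) = q xh ^ n := by
    intro n
    induction n with
    | zero => rw [pow_zero, pow_zero, hq_one]
    | succ n ih =>
      rw [pow_succ, pow_succ, hq_mul _ (IsGSubgroup_pow_mem hX₂ hxh2 n) _ hxh2, ih]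
  have hxhp : xh ^ p ∈ X₁ := by
    show resBC (xh ^ p) ∈ E₁
    rw [resBC_pow, resBC_extBC]
    exact hxp
  set u := q xh with hu
  have hup : u ^ p = 1 := by
    rw [hu, ← hq_pow]
    exact (hq_ker _ (IsGSubgroup_pow_mem hX₂ hxh2 p)).mpr hxhp
  have hu_val : ∀ a : A, ‖u a - algebraMap ℤ_[p] (PadicAlgCl p) (Coalgebra.counit a)‖ < 1 := by
    intro a
    obtain ⟨t, hc, hv⟩ := hq_val a
    rw [hu, hv xh hxh2, hc]
    exact norm_extBC_sub_counit_lt x hred t
  have hu_inert : ∀ σ ∈ inertiaP p, ∀ a : A, σ (u a) = u a := by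
    intro σ hσ a
    obtain ⟨y, hy, hσx⟩ := hin σ hσ x hx
    have hyh1 : extBC y ∈ X₁ := by
      show resBC (extBC y) ∈ E₁
      rw [resBC_extBC]
      exact hy
    have hyh2 : extBC y ∈ X₂ := by
      show resBC (extBC y) ∈ E₂
      rw [resBC_extBC]
      exact h12 hy
    have h1 : gconj hD σ xh = xh * extBC y := by
      rw [hxh, ← extBC_pointAct, hσx, extBC_mul]
    have h2 : gconj hD σ u = u := by
      rw [hu, ← hq_gal σ xh hxh2, h1, hq_mul xh hxh2 _ hyh2, (hq_ker _ hyh2).mpr hyh1, mul_one]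
    have h3 := congrArg (fun φ : Pts ℤ_[p] A (PadicAlgCl p) => φ a) h2
    exact h3
  have hu_small : ∀ a : A,
      ‖u a - algebraMap ℤ_[p] (PadicAlgCl p) (Coalgebra.counit a)‖ ≤ (p : ℝ)⁻¹ := by
    intro a
    refine hUV p _ (fun σ hσ => ?_) (hu_val a)
    rw [map_sub, hu_inert σ hσ a]
    congr 1
    rw [algebraMap_padicInt_eq]
    exact σ.commutes _
  have hu1 : u = 1 := point_eq_one_of_small hp2 u hup hu_small
  have hxh1 : xh ∈ X₁ := (hq_ker xh hxh2).mp hu1
  have : resBC (extBC x) ∈ E₁ := hxh1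
  rwa [resBC_extBC] at this

end Fermat.Agent.S33.H86

end

end
-- ==== END Fermat.Agent.S33.H86_SubqGen

-- ==== BEGIN Fermat.Agent.S33.New.H54_Defs
section

/-!
# S33, the `p`-new case (`R.Stmt_OrdNew`): torsion-level interface statements  (helper54)

Route: `NOTES/plan/R_S33_NEW.md`.  Level `N = M p`, `p ∤ M`, `p` odd, `A` a valuation ring of
`ℚ̄` over `p`, `K1(n) = BAD.InK1 A N n` (classes with a Kummer function `≡ 1` for the Gauss
valuation).

* `Stmt_K1Sat N p` **(T2)**: `K1(p^(k+1)) ∩ J₀(N)[p^k] ⊆ K1(p^k)`  (every level `N`).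
* `Stmt_TorsOrdNew M p` **(T3)**: the inertia group of `A` acts through the mod `p` cyclotomic
  character on the `p`-new classes of `J₀(M p)[p] ∩ K1(p)`.

`Fermat.Agent.S33.New.H54.ordNew_of_tors` (file `H54_Wire.lean`) deduces `R.Stmt_OrdNew` from
these two statements.  Definitions only.
-/

set_option autoImplicit false

noncomputable section

open AlgebraicCurve ModularCurve

namespace Fermat.Agent.S33.New.H54

/-- **(T2)**: a class of `K1(p^(k+1))` killed by `p^k` lies in `K1(p^k)`, for a valuation ring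
over `p`.  [If `p^(k+1) D = div f`, `f ≡ 1`, and `p^k D = div g`, then `f = c g^p`; normalise `g`
to a Gauss unit; then `red(g)^p` is a constant, hence so is `red(g)` (the residue field of `A` is
perfect and `x^p = 1` implies `x = 1` in characteristic `p`).] -/
def Stmt_K1Sat (N p : ℕ) : Prop :=
  p.Prime → ∀ A : ValuationSubring (AlgebraicClosure ℚ), A.LiesOverPrime p →
    ∀ (k : ℕ) (x : JZero N), BAD.InK1 A N (p ^ (k + 1)) x → p ^ k • x = 0 →
      BAD.InK1 A N (p ^ k) x

/-- **(T3)**: at level `M p`, `p ∤ M`, `p` odd: an element `τ` of the inertia group of `A`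
(over `p`) which acts on the `p`-th roots of unity by `ζ ↦ ζ ^ a` acts by multiplication by `a`
on every `p`-new class of order `p` lying in `K1(p)`. -/
def Stmt_TorsOrdNew (M p : ℕ) [NeZero M] [NeZero p] : Prop :=
  p.Prime → p ≠ 2 → ¬ p ∣ M →
    ∀ A : ValuationSubring (AlgebraicClosure ℚ), A.LiesOverPrime p →
      ∀ τ ∈ A.inertiaSubgroupIn ℚ, ∀ a : ℕ,
        (∀ ζ : AlgebraicClosure ℚ, ζ ^ p = 1 → τ ζ = ζ ^ a) →
        ∀ y : JZero (M * p), p • y = 0 → S35.H89.IsQNew M p y → BAD.InK1 A (M * p) p y →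
          τ • y = a • y

end Fermat.Agent.S33.New.H54

end
end
-- ==== END Fermat.Agent.S33.New.H54_Defs

-- ==== BEGIN Fermat.Agent.S33.New.H54_Factor
section

/-!
# S33, the `p`-new case: abstract algebra for the wiring  (helper54)

Pure algebra (Mathlib only, on top of helper81's self-injectivity of `ℤ/n`).

* `exists_factor_gen` : factorisation of matrices over `ℤ/n` through a kernel, arbitrary finite
  index types.
* `exists_factor_two` : if `T` kills every vector `z = B₀ x₀ + B₁ x₁` with `p z = 0`, then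
  `T B₀ = D (p B₀)` and `T B₁ = D (p B₁)` for ONE matrix `D`.
* `exists_lift_two` : the same identity, transported to a ring `𝒪` mapping onto a
  `ℤ/n`-algebra.
* `exists_decomp` : in a module with a basis `b` indexed by `Fin 2`, `b 0 = (f₀ - 1) v₀`:
  `c • v ∈ (f₀ - 1) V + (f₁ - 1) V` for `c` the second coordinate of `(f₁ - 1) v₁`.
* `exists_pow_cancel` : in a discrete valuation ring, for `x ≠ 0` there is `k` with
  `x y ∈ 𝔪 ^ k → y ∈ 𝔪`.
-/

set_option autoImplicit false

noncomputable section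

namespace Fermat.Agent.S33.New.H54

open Matrix Fermat.Agent.GTor.H81

/-- **Factorisation through a kernel**, arbitrary finite index types: if `ker A ⊆ ker B` then
`B = D * A`. -/
theorem exists_factor_gen (n : ℕ) [NeZero n] {t : ℕ} {m c : Type} [Fintype m] [DecidableEq m]
    [Fintype c] [DecidableEq c]
    (A : Matrix m c (ZMod n)) (B : Matrix (Fin t) c (ZMod n))
    (h : ∀ v : c → ZMod n, A.mulVec v = 0 → B.mulVec v = 0) :
    ∃ D : Matrix (Fin t) m (ZMod n), B = D * A := by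
  have hker : LinearMap.ker A.mulVecLin ≤ LinearMap.ker B.mulVecLin := by
    intro v hv
    rw [LinearMap.mem_ker, Matrix.mulVecLin_apply] at hv ⊢
    exact h v hv
  let e := A.mulVecLin.quotKerEquivRange
  let g : LinearMap.range A.mulVecLin →ₗ[ZMod n] (Fin t → ZMod n) :=
    ((LinearMap.ker A.mulVecLin).liftQ B.mulVecLin hker) ∘ₗ e.symm.toLinearMap
  obtain ⟨D, hD⟩ := exists_extension_pi n (LinearMap.range A.mulVecLin).subtype
    (Submodule.injective_subtype _) g
  refine ⟨LinearMap.toMatrix' D, ?_⟩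
  apply Matrix.mulVec_injective
  funext v
  rw [← Matrix.mulVec_mulVec, LinearMap.toMatrix'_mulVec]
  have h1 : D (A.mulVec v) = g ⟨A.mulVecLin v, LinearMap.mem_range_self _ v⟩ := by
    rw [← hD]
    rfl
  rw [h1]
  show B.mulVec v = ((LinearMap.ker A.mulVecLin).liftQ B.mulVecLin hker)
    (e.symm ⟨A.mulVecLin v, LinearMap.mem_range_self _ v⟩)
  have h2 : e.symm ⟨A.mulVecLin v, LinearMap.mem_range_self _ v⟩ =
      (LinearMap.ker A.mulVecLin).mkQ v := by
    rw [LinearEquiv.symm_apply_eq]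
    rfl
  rw [h2]
  rfl

/-- **Two blocks**: if `T` kills every `z = B₀ x₀ + B₁ x₁` with `p z = 0`, then `T B₀` and
`T B₁` factor through `p B₀` and `p B₁` with the same left factor. -/
theorem exists_factor_two (n : ℕ) [NeZero n] {r : ℕ} (T B₀ B₁ : Matrix (Fin r) (Fin r) (ZMod n))
    (p : ℕ)
    (h : ∀ x₀ x₁ : Fin r → ZMod n, p • (B₀.mulVec x₀ + B₁.mulVec x₁) = 0 →
      T.mulVec (B₀.mulVec x₀ + B₁.mulVec x₁) = 0) :
    ∃ D : Matrix (Fin r) (Fin r) (ZMod n),
      T * B₀ = D * (p • B₀) ∧ T * B₁ = D * (p • B₁) := by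
  classical
  obtain ⟨D, hD⟩ := exists_factor_gen n (Matrix.fromCols (p • B₀) (p • B₁))
    (Matrix.fromCols (T * B₀) (T * B₁)) (fun v hv => by
      rw [Matrix.fromCols_mulVec] at hv ⊢
      rw [Matrix.smul_mulVec, Matrix.smul_mulVec, ← smul_add] at hv
      rw [← Matrix.mulVec_mulVec, ← Matrix.mulVec_mulVec, ← Matrix.mulVec_add]
      exact h _ _ hv)
  rw [Matrix.mul_fromCols] at hD
  obtain ⟨h0, h1⟩ := Matrix.fromCols_inj hD
  exact ⟨D, h0, h1⟩

/-- **Transport to a ring mapping onto a `ℤ/n`-algebra.** -/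
theorem exists_lift_two {𝒪 R₁ R₂ : Type} [CommRing 𝒪] [CommRing R₁] [CommRing R₂]
    (π : 𝒪 →+* R₂) (hπ : Function.Surjective π) (c : R₁ →+* R₂) {r : ℕ}
    (T B₀ B₁ : Matrix (Fin r) (Fin r) 𝒪) (T' B₀' B₁' D : Matrix (Fin r) (Fin r) R₁) (p : ℕ)
    (hT : π.mapMatrix T = c.mapMatrix T') (hB₀ : π.mapMatrix B₀ = c.mapMatrix B₀')
    (hB₁ : π.mapMatrix B₁ = c.mapMatrix B₁')
    (h₀ : T' * B₀' = D * (p • B₀')) (h₁ : T' * B₁' = D * (p • B₁')) :
    ∃ D' : Matrix (Fin r) (Fin r) 𝒪,
      π.mapMatrix (T * B₀ - p • (D' * B₀)) = 0 ∧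
      π.mapMatrix (T * B₁ - p • (D' * B₁)) = 0 := by
  have hsurj : ∀ Y : Matrix (Fin r) (Fin r) R₂, ∃ X : Matrix (Fin r) (Fin r) 𝒪,
      π.mapMatrix X = Y := by
    intro Y
    choose f hf using hπ
    exact ⟨Y.map f, by ext i j; simp [hf]⟩
  obtain ⟨D', hD'⟩ := hsurj (c.mapMatrix D)
  have key : ∀ (B : Matrix (Fin r) (Fin r) 𝒪) (B' : Matrix (Fin r) (Fin r) R₁),
      π.mapMatrix B = c.mapMatrix B' → T' * B' = D * (p • B') →
      π.mapMatrix (T * B - p • (D' * B)) = 0 := by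
    intro B B' hB h
    have e1 : π.mapMatrix (p • (D' * B)) = c.mapMatrix (D * (p • B')) := by
      rw [mul_smul_comm, map_nsmul, map_nsmul, map_mul, map_mul, hD', hB]
    rw [map_sub, map_mul, hT, hB, ← map_mul, h, e1, sub_self]
  exact ⟨D', key B₀ B₀' hB₀ h₀, key B₁ B₁' hB₁ h₁⟩

/-- In a module with a basis `b` indexed by `Fin 2` with `b 0 = f₀ v₀ - v₀`: if `c` is the second
coordinate of `f₁ v₁ - v₁`, then `c • v ∈ (f₀ - 1) V + (f₁ - 1) V` for every `v`. -/
theorem exists_decomp {𝒪 V : Type} [CommRing 𝒪] [AddCommGroup V] [Module 𝒪 V]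
    (b : Module.Basis (Fin 2) 𝒪 V) (f₀ f₁ : Module.End 𝒪 V) (v₀ v₁ : V)
    (hb0 : b 0 = f₀ v₀ - v₀) (v : V) :
    ∃ u₀ u₁ : V, (b.repr (f₁ v₁ - v₁) 1) • v = (f₀ u₀ - u₀) + (f₁ u₁ - u₁) := by
  set w₁ : V := f₁ v₁ - v₁ with hw₁
  set c : 𝒪 := b.repr w₁ 1 with hc
  set c₀ : 𝒪 := b.repr w₁ 0 with hc₀
  have e1 : w₁ = c₀ • b 0 + c • b 1 := by
    conv_lhs => rw [← b.sum_repr w₁, Fin.sum_univ_two]
  have e2 : v = b.repr v 0 • b 0 + b.repr v 1 • b 1 := by
    conv_lhs => rw [← b.sum_repr v, Fin.sum_univ_two]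
  refine ⟨(c * b.repr v 0 - b.repr v 1 * c₀) • v₀, b.repr v 1 • v₁, ?_⟩
  rw [map_smul, map_smul, ← smul_sub, ← smul_sub, ← hb0, ← hw₁, e1]
  conv_lhs => rw [e2]
  simp only [smul_add, smul_smul, sub_smul]
  rw [mul_comm (b.repr v 1) c₀, mul_comm (b.repr v 1) c]
  abel

/-- In a discrete valuation ring, multiplication by a non-zero element loses only a bounded
power of the maximal ideal. -/
theorem exists_pow_cancel {𝒪 : Type} [CommRing 𝒪] [IsDomain 𝒪] [IsDiscreteValuationRing 𝒪]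
    {x : 𝒪} (hx : x ≠ 0) :
    ∃ k : ℕ, 1 ≤ k ∧ ∀ y : 𝒪, x * y ∈ IsLocalRing.maximalIdeal 𝒪 ^ k →
      y ∈ IsLocalRing.maximalIdeal 𝒪 := by
  obtain ⟨ϖ, hϖ⟩ := IsDiscreteValuationRing.exists_irreducible 𝒪
  obtain ⟨j, u, hu⟩ := IsDiscreteValuationRing.eq_unit_mul_pow_irreducible hx hϖ
  refine ⟨j + 1, Nat.le_add_left 1 j, fun y hy => ?_⟩
  rw [hϖ.maximalIdeal_eq, Ideal.span_singleton_pow, Ideal.mem_span_singleton] at hy
  obtain ⟨t, ht⟩ := hy
  rw [hϖ.maximalIdeal_eq, Ideal.mem_span_singleton]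
  have h1 : ϖ ^ j * ((u : 𝒪) * y) = ϖ ^ j * (ϖ * t) := by
    rw [← mul_assoc, mul_comm (ϖ ^ j), ← hu, ht]
    ring
  have h2 := mul_left_cancel₀ (pow_ne_zero j hϖ.ne_zero) h1
  refine ⟨(↑u⁻¹ : 𝒪) * t, ?_⟩
  calc y = (↑u⁻¹ : 𝒪) * ((u : 𝒪) * y) := by rw [← mul_assoc, Units.inv_mul, one_mul]
    _ = (↑u⁻¹ : 𝒪) * (ϖ * t) := by rw [h2]
    _ = ϖ * ((↑u⁻¹ : 𝒪) * t) := by ring

end Fermat.Agent.S33.New.H54

end
end
-- ==== END Fermat.Agent.S33.New.H54_Factor

-- ==== BEGIN Fermat.Agent.S44.Defs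
section

set_option autoImplicit false

open WeierstrassCurve WeierstrassCurve.Affine WeierstrassCurve.Affine.Point
open scoped WeierstrassCurve.Affine

namespace Fermat.Agent.S44

/-- The absolute Galois group of `ℚ`. -/
abbrev GQ : Type := AlgebraicClosure ℚ ≃ₐ[ℚ] AlgebraicClosure ℚ

/-- The ring of all algebraic integers (inside `ℂ`). -/
abbrev ZBar : Type := integralClosure ℤ ℂ

/-- A mod `p` Hecke-Galois module: the intended model is `J₀(N)(ℚ̄)[p]` with the operators
`T ℓ` (only the `ℓ ∤ N p` are ever used). -/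
structure HeckeGaloisModule (p : ℕ) where
  /-- the underlying group -/
  J : Type
  [instAddCommGroup : AddCommGroup J]
  [instModule : Module (ZMod p) J]
  /-- the Galois action -/
  gal : GQ →* Module.End (ZMod p) J
  /-- the Hecke operators -/
  T : ℕ → Module.End (ZMod p) J

attribute [instance] HeckeGaloisModule.instAddCommGroup HeckeGaloisModule.instModule

namespace HeckeGaloisModule

variable {p : ℕ} (H : HeckeGaloisModule p)

/-- The module is finite, the Galois action factors through a finite extension of `ℚ`, and the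
Hecke operators commute with each other and with the Galois action. -/
def IsContinuous : Prop :=
  Finite H.J ∧
  (∃ F : IntermediateField ℚ (AlgebraicClosure ℚ), FiniteDimensional ℚ F ∧
    ∀ σ : GQ, (∀ x ∈ F, σ x = x) → H.gal σ = 1) ∧
  (∀ ℓ ℓ' : ℕ, H.T ℓ * H.T ℓ' = H.T ℓ' * H.T ℓ) ∧
  (∀ (σ : GQ) (ℓ : ℕ), H.gal σ * H.T ℓ = H.T ℓ * H.gal σ)

/-- Unramified outside `N p`, and the Eichler-Shimura relation `F² - T_ℓ F + ℓ = 0` for every
Frobenius element at a prime `ℓ ∤ N p`. -/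
def EichlerShimura (N : ℕ) : Prop :=
  ∀ ℓ : ℕ, ℓ.Prime → ¬ ℓ ∣ N * p →
    ∀ A : ValuationSubring (AlgebraicClosure ℚ), A.LiesOverPrime ℓ →
      (∀ σ ∈ A.inertiaSubgroupIn ℚ, H.gal σ = 1) ∧
      ∀ σ : GQ, A.IsFrobeniusAt σ ℓ →
        H.gal σ * H.gal σ - H.T ℓ * H.gal σ + (ℓ : ZMod p) • (1 : Module.End (ZMod p) H.J) = 0

/-- Every eigenform of level `N` occurs in `J`: if the eigenvalues `a_ℓ(f)` are congruent to
integers `t ℓ` modulo a maximal ideal over `p` for all primes `ℓ ∤ N p` outside a finite set `S`,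
then the operators `T ℓ`, `ℓ ∉ S`, have a common eigenvector in `J` with eigenvalues `t ℓ`. -/
def HasSupport (N : ℕ) : Prop :=
  ∀ (f : CuspForm (CongruenceSubgroup.Gamma0 N) 2) (𝔪 : Ideal ZBar) (S : Finset ℕ) (t : ℕ → ℤ),
    f.IsNormalizedEigenform → 𝔪.IsMaximal → (p : ZBar) ∈ 𝔪 →
    (∀ ℓ : ℕ, ℓ.Prime → ℓ ∉ S → ¬ ℓ ∣ N → ℓ ≠ p →
      ∃ a : ZBar, (a : ℂ) = ModularFormClass.qCoeff f ℓ ∧ a - ((t ℓ : ℤ) : ZBar) ∈ 𝔪) →
    ∃ x : H.J, x ≠ 0 ∧
      ∀ ℓ : ℕ, ℓ.Prime → ℓ ∉ S → ¬ ℓ ∣ N → ℓ ≠ p → H.T ℓ x = ((t ℓ : ℤ) : ZMod p) • x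

end HeckeGaloisModule

/-- **Finite (peu ramifiée) at `p`**, in Galois-theoretic form, for a module over `ZMod p` with an
action of `GQ`, with respect to a place `A` of `ℚ̄` over `p`: there is a proper submodule `L` on
which inertia acts through the mod `p` cyclotomic character, inertia acts trivially on the
quotient, and inertia acts trivially altogether after adjoining `μ_p` and the `p`-th roots of an
integer `u` prime to `p`. -/
def IsFiniteAt (p : ℕ) (A : ValuationSubring (AlgebraicClosure ℚ))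
    {V : Type} [AddCommGroup V] [Module (ZMod p) V] (ρ : GQ →* Module.End (ZMod p) V) : Prop :=
  ∃ L : Submodule (ZMod p) V, L ≠ ⊤ ∧
    (∀ σ ∈ A.inertiaSubgroupIn ℚ, ∀ n : ℕ,
      (∀ ζ : AlgebraicClosure ℚ, ζ ^ p = 1 → σ ζ = ζ ^ n) →
        ∀ x ∈ L, ρ σ x = (n : ZMod p) • x) ∧
    (∀ σ ∈ A.inertiaSubgroupIn ℚ, ∀ x : V, ρ σ x - x ∈ L) ∧
    ∃ u : ℤ, ¬ (p : ℤ) ∣ u ∧
      ∀ σ ∈ A.inertiaSubgroupIn ℚ,
        (∀ ζ : AlgebraicClosure ℚ, ζ ^ p = 1 → σ ζ = ζ) →
        (∀ z : AlgebraicClosure ℚ, z ^ p = (u : AlgebraicClosure ℚ) → σ z = z) →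
          ∀ x : V, ρ σ x = x

/-- **Mazur's principle at `p`, module form.**  `J` is the Hecke-Galois module of level `N`,
`p ∥ N`.  If an irreducible two-dimensional Galois module `V` which is finite at `p` embeds
Galois-equivariantly into `J`, and the Hecke operators `T ℓ` (`ℓ` outside a finite set `S`) act
on the image through integers `t ℓ`, and the system `t` is not Eisenstein (`t ℓ ≠ 1 + ℓ` for some
`ℓ`), then the system `t` comes from an eigenform of level `N / p`. -/
def HeckeGaloisModule.RemovesP {p : ℕ} (H : HeckeGaloisModule p) (N : ℕ)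
    (A : ValuationSubring (AlgebraicClosure ℚ)) : Prop :=
  ∀ (V : Type) [AddCommGroup V] [Module (ZMod p) V] (ρ : GQ →* Module.End (ZMod p) V)
    (ι : V →ₗ[ZMod p] H.J) (S : Finset ℕ) (t : ℕ → ℤ),
    Module.finrank (ZMod p) V = 2 →
    (∀ W : Submodule (ZMod p) V, (∀ σ : GQ, ∀ x ∈ W, ρ σ x ∈ W) → W = ⊥ ∨ W = ⊤) →
    IsFiniteAt p A ρ →
    Function.Injective ι →
    (∀ (σ : GQ) (v : V), ι (ρ σ v) = H.gal σ (ι v)) →
    (∀ ℓ : ℕ, ℓ.Prime → ℓ ∉ S → ¬ ℓ ∣ N → ℓ ≠ p →
      ∀ v : V, H.T ℓ (ι v) = ((t ℓ : ℤ) : ZMod p) • ι v) →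
    (∃ ℓ : ℕ, ℓ.Prime ∧ ℓ ∉ S ∧ ¬ ℓ ∣ N ∧ ℓ ≠ p ∧ ((t ℓ : ℤ) : ZMod p) ≠ 1 + (ℓ : ZMod p)) →
    ∃ (g : CuspForm (CongruenceSubgroup.Gamma0 (N / p)) 2) (𝔪 : Ideal ZBar),
      g.IsNormalizedEigenform ∧ 𝔪.IsMaximal ∧ (p : ZBar) ∈ 𝔪 ∧
      ∀ ℓ : ℕ, ℓ.Prime → ℓ ∉ S → ¬ ℓ ∣ N → ℓ ≠ p →
        ∃ a : ZBar, (a : ℂ) = ModularFormClass.qCoeff g ℓ ∧ a - ((t ℓ : ℤ) : ZBar) ∈ 𝔪

/-- The `p`-torsion of an elliptic curve over `ℚ`, as a Galois module. -/
abbrev Tors (E : WeierstrassCurve ℚ) (p : ℕ) : Type :=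
  Submodule.torsionBy ℤ (E.toAffine⁄(AlgebraicClosure ℚ)).Point p

/-- **Package A (geometry).**  For an odd prime `p`, a level `N` with `p ∥ N` and a place `A` of
`ℚ̄` over `p` there is a Hecke-Galois module of level `N` (namely `J₀(N)(ℚ̄)[p]`) which is
continuous, satisfies Eichler-Shimura, supports all eigenforms of level `N`, and satisfies Mazur's
principle at `p`. -/
def Stmt_Module : Prop :=
  ∀ (p : ℕ), p.Prime → p ≠ 2 → ∀ (N : ℕ), 0 < N → p ∣ N → ¬ p ^ 2 ∣ N →
    ∀ A : ValuationSubring (AlgebraicClosure ℚ), A.LiesOverPrime p →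
      ∃ H : HeckeGaloisModule p,
        H.IsContinuous ∧ H.EichlerShimura N ∧ H.HasSupport N ∧ H.RemovesP N A

/-- **Package B (congruence recovery: Boston-Lenstra-Ribet + Frobenius density + `a_ℓ` = trace of
Frobenius).**  If the system `ℓ ↦ a_ℓ(W) mod p` occurs in a continuous Hecke-Galois module
satisfying Eichler-Shimura and `E[p]` is irreducible, then `E[p]` embeds Galois-equivariantly into
the corresponding eigenspace.  (`0 < N` is needed: for `N = 0` the hypotheses are vacuous.) -/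
def Stmt_Recovery : Prop :=
  ∀ (p : ℕ), p.Prime → p ≠ 2 → ∀ (N : ℕ), 0 < N → ∀ (H : HeckeGaloisModule p),
    H.IsContinuous → H.EichlerShimura N →
    ∀ (E : WeierstrassCurve ℚ) (W : WeierstrassCurve ℤ), W.IsIntegralModelOf E →
      GaloisRepIsIrreducible (K := AlgebraicClosure ℚ) ℚ E.toAffine p →
      ∀ (S : Finset ℕ),
        (∀ ℓ : ℕ, ℓ.Prime → ℓ ∉ S → W.IsGoodPrimeFor ℓ) →
        ∀ x : H.J, x ≠ 0 →
          (∀ ℓ : ℕ, ℓ.Prime → ℓ ∉ S → ¬ ℓ ∣ N → ℓ ≠ p →
            H.T ℓ x = ((W.apOfModel ℓ : ℤ) : ZMod p) • x) →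
          ∃ ι : Tors E p →ₗ[ZMod p] H.J, Function.Injective ι ∧
            (∀ (σ : GQ) (v : Tors E p), ι (σ • v) = H.gal σ (ι v)) ∧
            ∀ ℓ : ℕ, ℓ.Prime → ℓ ∉ S → ¬ ℓ ∣ N → ℓ ≠ p →
              ∀ v : Tors E p, H.T ℓ (ι v) = ((W.apOfModel ℓ : ℤ) : ZMod p) • ι v

/-- **Package C (local analysis of the Frey curve at `p`).**  If `p ∣ abc` the Frey curve has
multiplicative reduction at `p` with `p ∣ v_p(Δ)`; its `p`-torsion has dimension `2` and is finite
at `p`. -/
def Stmt_FreyFiniteAtP : Prop :=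
  ∀ (P : FreyPackage), (P.p : ℤ) ∣ P.a * P.b * P.c →
    ∀ A : ValuationSubring (AlgebraicClosure ℚ), A.LiesOverPrime P.p →
      Module.finrank (ZMod P.p) (Tors P.freyCurve P.p) = 2 ∧
      IsFiniteAt P.p A
        (galoisRepModuleEnd (S := ℚ) (K := AlgebraicClosure ℚ) P.freyCurve.toAffine P.p)

/-- **Package E (non-Eisenstein).**  If `E[p]` is irreducible then `a_ℓ ≠ 1 + ℓ` in `ZMod p` for
some good prime `ℓ ∤ N p`.  (Proved by helper19 for every elliptic curve: `S41/H19_I3Final.lean`.) -/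
def Stmt_NonEis : Prop :=
  ∀ (P : FreyPackage) (W : WeierstrassCurve ℤ), W.IsIntegralModelOf P.freyCurve →
    ∀ N : ℕ, 0 < N →
      GaloisRepIsIrreducible (K := AlgebraicClosure ℚ) ℚ P.freyCurve P.p →
      ∃ ℓ : ℕ, ℓ.Prime ∧ W.IsGoodPrimeFor ℓ ∧ ¬ ℓ ∣ N ∧ ℓ ≠ P.p ∧
        ((W.apOfModel ℓ : ℤ) : ZMod P.p) ≠ 1 + (ℓ : ZMod P.p)

/-- **Package D (small).**  Every prime has a place of `ℚ̄` above it. -/
def Stmt_PlaceOver : Prop :=
  ∀ p : ℕ, p.Prime → ∃ A : ValuationSubring (AlgebraicClosure ℚ), A.LiesOverPrime p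

end Fermat.Agent.S44

end
-- ==== END Fermat.Agent.S44.Defs

-- ==== BEGIN Fermat.Agent.S52.H97_GalCore
section

/-!
# S52, package E-GAL: Galois-theoretic core lemmas (helper97)

* `inertia_fixes_root` : inertia at `ℓ` fixes the roots of unity of order prime to `ℓ`.
* `exists_zmod_of_pow_eq_self` : in a field of characteristic `q`, the solutions of `x ^ q = x`
  are the elements of the prime field.
* `exists_fixed_of_involution` : an involution of determinant `≠ 1` of a plane has a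
  nonzero fixed vector.
* `exists_root_zmod` : a Frobenius-fixed root of an integral polynomial reduces to a root in
  `ZMod q`.
-/

set_option autoImplicit false

open Polynomial

noncomputable section

namespace Fermat.Agent.S52.H97

/-- Inertia at `ℓ` fixes the roots of unity of order prime to `ℓ`. -/
theorem inertia_fixes_root {K L : Type*} [Field K] [Field L] [Algebra K L]
    (A : ValuationSubring L) {ℓ : ℕ} (hA : A.LiesOverPrime ℓ) (hℓ1 : ℓ ≠ 1)
    (σ : L ≃ₐ[K] L) (hσ : σ ∈ A.inertiaSubgroupIn K) {n : ℕ} (hn : n.Coprime ℓ) {ζ : L}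
    (hζ : ζ ^ n = 1) : σ ζ = ζ := by
  have hn0 : n ≠ 0 := by
    rintro rfl
    rw [Nat.coprime_zero_left] at hn
    exact hℓ1 hn
  have hnA : (n : L) ∉ A.nonunits :=
    Fermat.Agent.R.H2.natCast_not_mem_nonunits_of_coprime A hn hA
  have hζA : ζ ∈ A := by
    rw [← A.valuation_le_one_iff,
      Fermat.Agent.R.H89.h89_valuation_eq_one_of_pow_eq_one A hn0 hζ]
  have h1 := ((Fermat.Agent.Lib.InertiaBridge.mem_inertiaSubgroupIn_iff_forall A σ).mp hσ).2 ζ hζA
  have h2 : σ ζ - ζ ∈ A.nonunits := A.mem_nonunits_iff.mpr h1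
  refine Fermat.Agent.R.H89.h89_eq_of_sub_mem A n hn0 hnA (n := 1) ?_ ?_ h2
  · rw [pow_one, ← map_pow, hζ, map_one]
  · rw [pow_one, hζ]

/-- In a field of characteristic `q`, the solutions of `x ^ q = x` are the elements of the prime
field. -/
theorem exists_zmod_of_pow_eq_self {k : Type*} [Field k] (q : ℕ) [hq : Fact q.Prime]
    (ψ : ZMod q →+* k) (x : k) (hx : x ^ q = x) : ∃ n : ZMod q, ψ n = x := by
  classical
  have hroots : (X ^ q - X : (ZMod q)[X]).roots = Finset.univ.val := by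
    have := FiniteField.roots_X_pow_card_sub_X (ZMod q)
    rwa [ZMod.card] at this
  have hdeg : (X ^ q - X : (ZMod q)[X]).natDegree = q := by
    exact FiniteField.X_pow_card_sub_X_natDegree_eq (ZMod q) hq.out.one_lt
  have hcard : Multiset.card (X ^ q - X : (ZMod q)[X]).roots
      = (X ^ q - X : (ZMod q)[X]).natDegree := by
    rw [hroots, hdeg]
    simp
  have hmap := Polynomial.roots_map_of_injective_of_card_eq_natDegree ψ.injective hcard
  have hxroot : x ∈ ((X ^ q - X : (ZMod q)[X]).map ψ).roots := by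
    rw [Polynomial.mem_roots']
    constructor
    · intro h0
      have h1 := congrArg Polynomial.natDegree h0
      rw [Polynomial.natDegree_map_eq_of_injective ψ.injective, hdeg, natDegree_zero] at h1
      exact hq.out.ne_zero h1
    · simp [hx]
  rw [← hmap, hroots, Multiset.mem_map] at hxroot
  obtain ⟨n, -, hn⟩ := hxroot
  exact ⟨n, hn⟩

/-- An involution of determinant `≠ 1` of a plane over a field in which `2 ≠ 0` has a
nonzero fixed vector. -/
theorem exists_fixed_of_involution {F V : Type*} [Field F] [AddCommGroup V] [Module F V]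
    [FiniteDimensional F V] (hrank : Module.finrank F V = 2) (T : Module.End F V)
    (hT2 : T * T = 1) (hdet : LinearMap.det T ≠ 1) : ∃ v : V, v ≠ 0 ∧ T v = v := by
  by_contra hcon
  replace hcon : ∀ v : V, v ≠ 0 → T v ≠ v := fun v hv hTv => hcon ⟨v, hv, hTv⟩
  -- `T + 1 = 0`
  have h1 : ∀ w : V, T w + w = 0 := by
    intro w
    by_contra hw
    apply hcon (T w + w) hw
    rw [map_add]
    have : T (T w) = w := by
      have := congrArg (fun f : Module.End F V => f w) hT2
      simpa using this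
    rw [this, add_comm]
  have h2 : T = -1 := by
    ext w
    have := h1 w
    rw [LinearMap.neg_apply, Module.End.one_apply]
    exact eq_neg_of_add_eq_zero_left this
  apply hdet
  rw [h2]
  have : (-1 : Module.End F V) = (-1 : F) • (1 : Module.End F V) := by simp
  rw [this, LinearMap.det_smul, hrank, map_one]
  norm_num

/-- Reduction of a Frobenius-fixed root of an integral polynomial whose leading coefficient is
prime to `q`: it gives a root in `ZMod q`. -/
theorem exists_root_zmod {K L : Type*} [Field K] [Field L] [Algebra K L] (f : ℤ[X]) (m : ℕ)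
    (hlead : f.leadingCoeff = (m : ℤ)) {q : ℕ} (hq : q.Prime) (hmq : m.Coprime q)
    (A : ValuationSubring L) (hA : A.LiesOverPrime q) (σ : L ≃ₐ[K] L)
    (hσ : A.IsFrobeniusAt σ q)
    (x : L) (hx : (f.map (Int.castRingHom L)).IsRoot x) (hσx : σ x = x) :
    ∃ n : ZMod q, (f.map (Int.castRingHom (ZMod q))).IsRoot n := by
  classical
  haveI : Fact q.Prime := ⟨hq⟩
  have hqA : (q : L) ∈ A.nonunits := hA
  -- `x ∈ A`
  have hev : f.eval₂ (Int.castRingHom L) x = 0 := by
    rw [← Polynomial.eval_map]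
    exact hx
  have hint : IsIntegral ℤ (f.leadingCoeff • x) := by
    apply isIntegral_leadingCoeff_smul
    rw [aeval_def]
    have : algebraMap ℤ L = Int.castRingHom L := RingHom.ext_int _ _
    rw [this]
    exact hev
  have hmA : (m : L) ∉ A.nonunits :=
    Fermat.Agent.R.H2.natCast_not_mem_nonunits_of_coprime A hmq hqA
  have hm1 : A.valuation (m : L) = 1 := by
    apply le_antisymm (Fermat.Agent.R.H89.h89_valuation_natCast_le_one A m)
    rw [A.mem_nonunits_iff] at hmA
    exact not_lt.mp hmA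
  have hxA : x ∈ A := by
    rw [← A.valuation_le_one_iff]
    have h1 := Fermat.Agent.Lib.FrobExists.valuation_le_one_of_isIntegral A _ hint
    rw [hlead, zsmul_eq_mul, map_mul, Int.cast_natCast, hm1, one_mul] at h1
    exact h1
  -- the residue class
  set xA : A := ⟨x, hxA⟩ with hxAdef
  have hcharp : CharP (IsLocalRing.ResidueField A) q := by
    apply (CharP.charP_iff_prime_eq_zero hq).2
    have h1 : (((q : ℕ) : A) : L) ∈ A.nonunits := by
      rw [show (((q : ℕ) : A) : L) = (q : L) by simp]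
      exact hqA
    obtain ⟨ha, hmem⟩ := (A.mem_nonunits_iff_exists_mem_maximalIdeal).1 h1
    rw [← map_natCast (IsLocalRing.residue A)]
    exact (IsLocalRing.residue_eq_zero_iff _).2 hmem
  let ψ : ZMod q →+* IsLocalRing.ResidueField A := ZMod.castHom (dvd_refl q) _
  have hfrob : (IsLocalRing.residue A xA) ^ q = IsLocalRing.residue A xA := by
    have h1 := Fermat.Agent.R.H89.h89_frob_sub_mem A hσ hxA
    rw [hσx] at h1
    obtain ⟨ha, hmem⟩ := (A.mem_nonunits_iff_exists_mem_maximalIdeal).1 h1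
    have h2 : (⟨x - x ^ q, ha⟩ : A) = xA - xA ^ q := Subtype.ext (by simp [hxAdef])
    rw [h2, ← IsLocalRing.residue_eq_zero_iff, map_sub, map_pow, sub_eq_zero] at hmem
    exact hmem.symm
  obtain ⟨n, hn⟩ := exists_zmod_of_pow_eq_self q ψ _ hfrob
  refine ⟨n, ?_⟩
  apply ψ.injective
  rw [Polynomial.eval_map, Polynomial.hom_eval₂, map_zero, hn]
  have hcomp : ψ.comp (Int.castRingHom (ZMod q)) =
      (IsLocalRing.residue A).comp (Int.castRingHom A) := RingHom.ext_int _ _
  rw [hcomp, ← Polynomial.hom_eval₂]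
  have hzero : f.eval₂ (Int.castRingHom A) xA = 0 := by
    apply Subtype.ext
    have h3 := Polynomial.hom_eval₂ f (Int.castRingHom A) A.subtype xA
    have hcomp2 : A.subtype.comp (Int.castRingHom A) = Int.castRingHom L := RingHom.ext_int _ _
    rw [hcomp2] at h3
    have h4 : (A.subtype xA : L) = x := rfl
    rw [h4, hev] at h3
    exact h3
  rw [hzero, map_zero]

end Fermat.Agent.S52.H97

end
end
-- ==== END Fermat.Agent.S52.H97_GalCore
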