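-- GENERATED (merged mirror, NOTES/tools/trim/merge3_helper67.py): 3 modules of the originals, bodies verbatim.
import Mathlib.RingTheory.Trace.Basic
import Mathlib.LinearAlgebra.Matrix.Charpoly.Coeff
import Mathlib.FieldTheory.PurelyInseparable.Basic
import Fermat.Agent.Zm.S35_L09_003
import Fermat.Agent.Zm.S35_L03_000
import Fermat.Agent.Zm.S35_L14_000
import Fermat.Agent.Zm.S35_L09_005

-- ==== BEGIN Fermat.Agent.BAD.H28_NodeRad
section

/-!
# Item 65 (helper28): NODE-RAD, abstract form — the radius of a node of an `SSD`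

Everything is a consequence of the two axioms `SSD.glue` and `SSD.DIn`.

* `SSD.IsCU c` : the constant `c : K` is a unit (for the common valuation of the constants).
* `SSD.isCU_of_node` (**KL₀**) : if `φ` is a Gauss unit for `V₁`, `c φ` a Gauss unit for `V₂`,
  `φ` has neither zero nor pole on the fibre of the node `s` and `rd₁ φ` has order `0` at the
  branch `s.1`, then `c` is a unit constant.  ("The two Gauss norms of a function without zero
  on the annulus of `s`, of degree `0` on it, agree.")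
* `SSD.IsAnnCoord s t ϖ` : `t` is a coordinate on the annulus of the node `s`, of thickness
  `ϖ`: `rd₁ t` has a simple zero at `s.1`, `rd₂ (ϖ / t)` has a simple zero at `s.2`, and `t` has
  no zero or pole on the fibre of `s`.
* `SSD.IsAnnCoord.exists_value`, `ord_sub_value` : every place `P` of the fibre of `s` has a
  coordinate `τ_P` with `|ϖ| < |τ_P| < 1`, and `t - τ_P` has exactly one zero on the fibre of
  `s`, the place `P`, and it is simple.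
* `SSD.nodeRad` (**NODE-RAD**) : for `f ≠ 0` with `c₁ f` a Gauss unit of `V₁` and `c₂ f` a Gauss
  unit of `V₂`: `c₁ / (c₂ ϖ ^ m ∏_P (τ_P / ϖ) ^ (ord_P f))` is a unit constant, where
  `m = ord_{s.1} (rd₁ (c₁ f))` and `P` runs over the zeros and poles of `f` on the fibre of `s`.
-/

set_option autoImplicit false
set_option linter.style.haveILetI false

noncomputable section

open AlgebraicCurve

attribute [local instance] Classical.propDecidable

namespace Fermat.Agent.BAD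

open Fermat.Agent.RED.H17 Fermat.Agent.RED

/-! ### Integral powers of Gauss units -/

namespace PRed

variable {K F k F' : Type*} [Field K] [Field F] [Algebra K F] [Field k] [Field F']
  [Algebra k F'] {S : PRed K F k F'}

theorem IsGU.rd_pow' {f : F} (h : S.IsGU f) (n : ℕ) : S.rd (f ^ n) = S.rd f ^ n :=
  S.rd_pow h.1 n

theorem IsGU.zpow_and {f : F} (h : S.IsGU f) (n : ℤ) :
    S.IsGU (f ^ n) ∧ S.rd (f ^ n) = S.rd f ^ n := by
  rcases Int.eq_nat_or_neg n with ⟨m, rfl | rfl⟩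
  · rw [zpow_natCast, zpow_natCast]
    exact ⟨h.pow m, S.rd_pow h.1 m⟩
  · rw [zpow_neg, zpow_neg, zpow_natCast, zpow_natCast]
    exact ⟨(h.pow m).inv, by rw [(h.pow m).rd_inv, S.rd_pow h.1 m]⟩

theorem IsGU.zpow {f : F} (h : S.IsGU f) (n : ℤ) : S.IsGU (f ^ n) := (h.zpow_and n).1

theorem IsGU.rd_zpow {f : F} (h : S.IsGU f) (n : ℤ) : S.rd (f ^ n) = S.rd f ^ n :=
  (h.zpow_and n).2

theorem IsGU.rd_mul' {f g : F} (hf : S.IsGU f) (hg : S.IsGU g) :
    S.rd (f * g) = S.rd f * S.rd g := S.rd_mul hf.1 hg.1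

/-- A product of integral powers of Gauss units. -/
theorem IsGU.prod_zpow {ι : Type*} (s : Finset ι) (f : ι → F) (n : ι → ℤ)
    (hf : ∀ i ∈ s, S.IsGU (f i)) :
    S.IsGU (∏ i ∈ s, f i ^ n i) ∧ S.rd (∏ i ∈ s, f i ^ n i) = ∏ i ∈ s, S.rd (f i) ^ n i := by
  have h1 : ∀ i ∈ s, S.IsGU (f i ^ n i) := fun i hi => (hf i hi).zpow (n i)
  refine ⟨IsGU.prod s _ h1, ?_⟩
  rw [(S.rd_prod s _ fun i hi => (h1 i hi).1).2]
  exact Finset.prod_congr rfl fun i hi => (hf i hi).rd_zpow (n i)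

end PRed

namespace SSD

variable {K F k F₁ F₂ : Type*} [Field K] [Field F] [Algebra K F] [Field k] [Field F₁]
  [Algebra k F₁] [Field F₂] [Algebra k F₂] (S : SSD K F k F₁ F₂)

/-! ### Unit constants -/

/-- `c` is a unit constant. -/
def IsCU (c : K) : Prop := S.c₁.IsGU (algebraMap K F c)

variable {S}

theorem IsCU.isGU₁ {c : K} (h : S.IsCU c) : S.c₁.IsGU (algebraMap K F c) := h

theorem IsCU.isGU₂ {c : K} (h : S.IsCU c) : S.c₂.IsGU (algebraMap K F c) := S.isGU₂_const h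

theorem isCU_of_isGU₂ {c : K} (h : S.c₂.IsGU (algebraMap K F c)) : S.IsCU c := S.isGU₁_const h

theorem IsCU.ne_zero {c : K} (h : S.IsCU c) : c ≠ 0 := by
  rintro rfl
  exact h.isGU₁.ne_zero (map_zero _)

variable (S) in
theorem isCU_one : S.IsCU (1 : K) := by
  unfold IsCU
  rw [map_one]
  exact S.c₁.isGU_one

theorem IsCU.mul {c d : K} (hc : S.IsCU c) (hd : S.IsCU d) : S.IsCU (c * d) := by
  unfold IsCU
  rw [map_mul]
  exact hc.isGU₁.mul hd.isGU₁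

theorem IsCU.inv {c : K} (hc : S.IsCU c) : S.IsCU c⁻¹ := by
  unfold IsCU
  rw [map_inv₀]
  exact hc.isGU₁.inv

theorem IsCU.div {c d : K} (hc : S.IsCU c) (hd : S.IsCU d) : S.IsCU (c / d) := by
  rw [div_eq_mul_inv]
  exact hc.mul hd.inv

theorem IsCU.pow {c : K} (hc : S.IsCU c) (n : ℕ) : S.IsCU (c ^ n) := by
  unfold IsCU
  rw [map_pow]
  exact hc.isGU₁.pow n

theorem IsCU.zpow {c : K} (hc : S.IsCU c) (n : ℤ) : S.IsCU (c ^ n) := by
  unfold IsCU
  rw [map_zpow₀]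
  exact hc.isGU₁.zpow n

theorem IsCU.neg {c : K} (hc : S.IsCU c) : S.IsCU (-c) := by
  unfold IsCU
  rw [map_neg]
  refine ⟨S.c₁.V.neg_mem _ hc.isGU₁.1, ?_⟩
  rw [S.c₁.rd_neg hc.isGU₁.1]
  exact neg_ne_zero.mpr hc.isGU₁.2

/-- The maximal ideal of the constants. -/
def IsCM (S : SSD K F k F₁ F₂) (c : K) : Prop :=
  algebraMap K F c ∈ S.c₁.V ∧ S.c₁.rd (algebraMap K F c) = 0

theorem IsCM.mem₁ {c : K} (h : S.IsCM c) : algebraMap K F c ∈ S.c₁.V := h.1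

theorem IsCM.rd₁ {c : K} (h : S.IsCM c) : S.c₁.rd (algebraMap K F c) = 0 := h.2

theorem IsCM.mem₂ {c : K} (h : S.IsCM c) : algebraMap K F c ∈ S.c₂.V :=
  (S.rd₂_const_zero h.1 h.2).1

theorem IsCM.rd₂ {c : K} (h : S.IsCM c) : S.c₂.rd (algebraMap K F c) = 0 :=
  (S.rd₂_const_zero h.1 h.2).2

theorem isCM_of₂ {c : K} (h : algebraMap K F c ∈ S.c₂.V)
    (h0 : S.c₂.rd (algebraMap K F c) = 0) : S.IsCM c := S.rd₁_const_zero h h0

variable (S) in
/-- Trichotomy for a constant: unit, or in the maximal ideal, or inverse in the maximal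
ideal. -/
theorem isCU_or_isCM (c : K) : S.IsCU c ∨ S.IsCM c ∨ S.IsCM c⁻¹ := by
  by_cases h : algebraMap K F c ∈ S.c₁.V
  · by_cases h0 : S.c₁.rd (algebraMap K F c) = 0
    · exact Or.inr (Or.inl ⟨h, h0⟩)
    · exact Or.inl ⟨h, h0⟩
  · exact Or.inr (Or.inr (S.c₁.inv_const_of_not_mem h))

theorem IsCM.not_isCU {c : K} (h : S.IsCM c) : ¬ S.IsCU c := fun hu => hu.isGU₁.2 h.2

/-- `m · V₁ ⊆ m₁`. -/
theorem IsCM.mul_mem₁ {c : K} (h : S.IsCM c) {f : F} (hf : f ∈ S.c₁.V) :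
    algebraMap K F c * f ∈ S.c₁.V ∧ S.c₁.rd (algebraMap K F c * f) = 0 :=
  ⟨S.c₁.V.mul_mem _ _ h.1 hf, by rw [S.c₁.rd_mul h.1 hf, h.2, zero_mul]⟩

theorem IsCM.mul_mem₂ {c : K} (h : S.IsCM c) {f : F} (hf : f ∈ S.c₂.V) :
    algebraMap K F c * f ∈ S.c₂.V ∧ S.c₂.rd (algebraMap K F c * f) = 0 :=
  ⟨S.c₂.V.mul_mem _ _ h.mem₂ hf, by rw [S.c₂.rd_mul h.mem₂ hf, h.rd₂, zero_mul]⟩

/-! ### Gluing with a vanishing reduction -/

variable (S)

/-- If `f` is integral for both valuations, regular on the fibre of `s`, and `rd₁ f` vanishes at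
`s.1`, then `rd₂ f` vanishes at `s.2`. -/
theorem vanAt₂_of_vanAt₁ {s : Place k F₁ × Place k F₂} (hs : s ∈ S.nodes) {f : F}
    (h₁ : f ∈ S.c₁.V) (h₂ : f ∈ S.c₂.V) (hreg : ∀ P, S.c₁.r P = some s.1 → 0 ≤ P.ord f)
    (h0 : VanAt s.1 (S.c₁.rd f)) : VanAt s.2 (S.c₂.rd f) := by
  obtain ⟨a, ha₁, ha₂⟩ := S.glue s hs f h₁ h₂ hreg
  rw [← S.c₁.rd_of_mem h₁] at ha₁
  rw [← S.c₂.rd_of_mem h₂] at ha₂
  have h3 : VanAt s.1 (algebraMap k F₁ a) := by
    have := h0.sub ha₁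
    rwa [sub_sub_cancel] at this
  have ha0 : a = 0 := const_eq_zero_of_vanAt h3
  rw [ha0, map_zero, sub_zero] at ha₂
  exact ha₂

theorem vanAt₁_of_vanAt₂ {s : Place k F₁ × Place k F₂} (hs : s ∈ S.nodes) {f : F}
    (h₁ : f ∈ S.c₁.V) (h₂ : f ∈ S.c₂.V) (hreg : ∀ P, S.c₁.r P = some s.1 → 0 ≤ P.ord f)
    (h0 : VanAt s.2 (S.c₂.rd f)) : VanAt s.1 (S.c₁.rd f) := by
  obtain ⟨a, ha₁, ha₂⟩ := S.glue s hs f h₁ h₂ hreg
  rw [← S.c₁.rd_of_mem h₁] at ha₁
  rw [← S.c₂.rd_of_mem h₂] at ha₂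
  have h3 : VanAt s.2 (algebraMap k F₂ a) := by
    have := h0.sub ha₂
    rwa [sub_sub_cancel] at this
  have ha0 : a = 0 := const_eq_zero_of_vanAt h3
  rw [ha0, map_zero, sub_zero] at ha₁
  exact ha₁

/-- Regularity of the reductions at the branches. -/
theorem regAt_of_glue {s : Place k F₁ × Place k F₂} (hs : s ∈ S.nodes) {f : F}
    (h₁ : f ∈ S.c₁.V) (h₂ : f ∈ S.c₂.V) (hreg : ∀ P, S.c₁.r P = some s.1 → 0 ≤ P.ord f) :
    RegAt s.1 (S.c₁.rd f) ∧ RegAt s.2 (S.c₂.rd f) := by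
  obtain ⟨a, ha₁, ha₂⟩ := S.glue s hs f h₁ h₂ hreg
  rw [← S.c₁.rd_of_mem h₁] at ha₁
  rw [← S.c₂.rd_of_mem h₂] at ha₂
  exact ⟨RegAt.of_vanAt_sub ha₁, RegAt.of_vanAt_sub ha₂⟩

/-! ### KL₀ -/

/-- The sum of the orders of `φ` on the fibre of `s` vanishes if all these orders vanish. -/
theorem sum_fibre_eq_zero (hP : HasPrincipalDivisors K F) {s : Place k F₁ × Place k F₂}
    {φ : F} (h0 : ∀ P, S.c₁.r P = some s.1 → P.ord φ = 0) :
    (∑ P ∈ (dv hP φ).support, if S.c₁.r P = some s.1 then P.ord φ else 0) = 0 := by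
  refine Finset.sum_eq_zero fun P _ => ?_
  split_ifs with h
  · exact h0 P h
  · rfl

/-- **KL₀.**  If `φ` is a Gauss unit for `V₁`, `c φ` a Gauss unit for `V₂`, `φ` has neither zero
nor pole on the fibre of the node `s` and `rd₁ φ` has order `0` at `s.1`, then `c` is a unit
constant. -/
theorem isCU_of_node (hP : HasPrincipalDivisors K F) {s : Place k F₁ × Place k F₂}
    (hs : s ∈ S.nodes) {φ : F} {c : K} (h₁ : S.c₁.IsGU φ)
    (h₂ : S.c₂.IsGU (algebraMap K F c * φ))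
    (h0 : ∀ P, S.c₁.r P = some s.1 → P.ord φ = 0) (ho : s.1.ord (S.c₁.rd φ) = 0) :
    S.IsCU c := by
  have hc0 : c ≠ 0 := by
    rintro rfl
    rw [map_zero, zero_mul] at h₂
    exact h₂.ne_zero rfl
  have hsum := S.sum_node hP hs h₁ h₂ ⟨c, rfl⟩
  rw [S.sum_fibre_eq_zero hP h0, ho, zero_add] at hsum
  have hreg : ∀ P, S.c₁.r P = some s.1 → 0 ≤ P.ord φ := fun P hPs => (h0 P hPs).ge
  rcases S.isCU_or_isCM c with h | h | h
  · exact h
  · -- `c ∈ m`: `c φ` has reduction `0` on the first component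
    exfalso
    have hm := h.mul_mem₁ h₁.1
    have hreg' : ∀ P, S.c₁.r P = some s.1 → 0 ≤ P.ord (algebraMap K F c * φ) := by
      intro P hPs
      rw [ord_algebraMap_mul P hc0]
      exact hreg P hPs
    have hv := S.vanAt₂_of_vanAt₁ hs hm.1 h₂.1 hreg' (by rw [hm.2]; exact vanAt_zero _)
    have := hv.ord_pos h₂.2
    omega
  · -- `c⁻¹ ∈ m`: `φ` has reduction `0` on the second component
    exfalso
    have hm := h.mul_mem₂ h₂.1
    have hφ : algebraMap K F c⁻¹ * (algebraMap K F c * φ) = φ := by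
      rw [← mul_assoc, ← map_mul, inv_mul_cancel₀ hc0, map_one, one_mul]
    rw [hφ] at hm
    have hv := S.vanAt₁_of_vanAt₂ hs h₁.1 hm.1 hreg (by rw [hm.2]; exact vanAt_zero _)
    have := hv.ord_pos h₁.2
    omega

end SSD

end Fermat.Agent.BAD

end
end
-- ==== END Fermat.Agent.BAD.H28_NodeRad

-- ==== BEGIN Fermat.Agent.BADP.H18_TraceRed
section

/-!
# S33 NEW, package TRACE-RED (helper18)

Plan: `NOTES/plan/R_S33_NEW.md` + helper86's one-step simplification.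

Two-valuation setting of `BAD/H42_NormRed2.lean` (no discreteness): `E ⊆ L` finite, `V_E` a
valuation ring of `E` with residue map `red_E : V_E → Et`, `V₁ ≠ V₂` valuation rings of `L` over
`V_E` with residue maps `red_i : V_i → L_i`, `[L : E] = [L₁ : Et] + [L₂ : Et]`.

* `exists_matrix_two` : there is an `E`-basis of `L` such that for every `φ ∈ V₁ ∩ V₂` the matrix
  of the multiplication by `φ` has entries in `V_E` and reduces to the (block diagonal) matrix of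
  the multiplication by `(red₁ φ, red₂ φ)` on `L₁ × L₂`;
* `charpoly_red_two` : the characteristic polynomial of `φ` has coefficients in `V_E` and reduces
  to the product of the characteristic polynomials of `red₁ φ` and `red₂ φ`;
* `traceRed_two` : **TRACE-RED**: for `c ∈ V_E` with `red_E c = 0`:
  `N_{L/E} (1 + c φ) = 1 + c θ`, `θ ∈ V_E`, `red_E θ = Tr (red₁ φ) + Tr (red₂ φ)`;
* `traceRed_insep` : the modular case: `[L₁ : Et] = 1`, `Tr_{L₂/Et} = 0`: `red_E θ = red₁ φ`;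
* `trace_eq_zero_of_pow_mem` : `Tr_{L₂/Et} = 0` if `L₂ ≠ Et` and `L₂ ^ p ⊆ Et`.
-/

set_option autoImplicit false

noncomputable section

namespace Fermat.Agent.BADP.H18

open Fermat.Agent.BAD.H42

section Main

variable {E L Et L₁ L₂ : Type} [Field E] [Field L] [Field Et] [Field L₁] [Field L₂]
  [Algebra E L] [Algebra Et L₁] [Algebra Et L₂]

/-- **The integral basis**: an `E`-basis of `L` in which the multiplication by any
`φ ∈ V₁ ∩ V₂` has a matrix with entries in `V_E`, whose reduction is the matrix of the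
multiplication by `(red₁ φ, red₂ φ)` on `L₁ × L₂`. -/
theorem exists_matrix_two [Module.Finite E L] [Module.Finite Et L₁] [Module.Finite Et L₂]
    (VE : ValuationSubring E) (V₁ V₂ : ValuationSubring L)
    (redE : ↥VE →+* Et) (red₁ : ↥V₁ →+* L₁) (red₂ : ↥V₂ →+* L₂)
    (hV₁ : ∀ a : E, a ∈ VE → algebraMap E L a ∈ V₁)
    (hV₂ : ∀ a : E, a ∈ VE → algebraMap E L a ∈ V₂)
    (hkerE : ∀ a : ↥VE, ¬ IsUnit a → redE a = 0)
    (hsurj₁ : Function.Surjective red₁) (hsurj₂ : Function.Surjective red₂)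
    (hker₁ : ∀ a : ↥V₁, ¬ IsUnit a → red₁ a = 0) (hker₂ : ∀ a : ↥V₂, ¬ IsUnit a → red₂ a = 0)
    (hcompat₁ : ∀ (a : ↥VE) (ha : algebraMap E L (a : E) ∈ V₁),
      red₁ ⟨algebraMap E L (a : E), ha⟩ = algebraMap Et L₁ (redE a))
    (hcompat₂ : ∀ (a : ↥VE) (ha : algebraMap E L (a : E) ∈ V₂),
      red₂ ⟨algebraMap E L (a : E), ha⟩ = algebraMap Et L₂ (redE a))
    (h₁₂ : ¬ V₁ ≤ V₂) (h₂₁ : ¬ V₂ ≤ V₁)
    (hdeg : Module.finrank E L = Module.finrank Et L₁ + Module.finrank Et L₂) :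
    ∃ bE : Module.Basis (Fin (Module.finrank Et L₁) ⊕ Fin (Module.finrank Et L₂)) E L,
      ∀ (φ : L) (h₁ : φ ∈ V₁) (h₂ : φ ∈ V₂),
        ∃ M₀ : Matrix (Fin (Module.finrank Et L₁) ⊕ Fin (Module.finrank Et L₂))
            (Fin (Module.finrank Et L₁) ⊕ Fin (Module.finrank Et L₂)) ↥VE,
          Algebra.leftMulMatrix bE φ = VE.subtype.mapMatrix M₀ ∧
          redE.mapMatrix M₀ =
            Algebra.leftMulMatrix ((Module.finBasis Et L₁).prod (Module.finBasis Et L₂))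
              (red₁ ⟨φ, h₁⟩, red₂ ⟨φ, h₂⟩) := by
  classical
  let β₁ := Module.finBasis Et L₁
  let β₂ := Module.finBasis Et L₂
  let R : Subring L := V₁.toSubring ⊓ V₂.toSubring
  have hRmk : ∀ g : L, g ∈ V₁ → g ∈ V₂ → g ∈ R := fun g h1 h2 => Subring.mem_inf.2 ⟨h1, h2⟩
  have hR1 : ∀ g : L, g ∈ R → g ∈ V₁ := fun g hg => (Subring.mem_inf.1 hg).1
  have hR2 : ∀ g : L, g ∈ R → g ∈ V₂ := fun g hg => (Subring.mem_inf.1 hg).2
  have hVR : ∀ a : E, a ∈ VE → algebraMap E L a ∈ R := fun a ha =>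
    hRmk _ (hV₁ a ha) (hV₂ a ha)
  let ρ₁ : ↥R →+* L₁ := red₁.comp (Subring.inclusion (inf_le_left : R ≤ V₁.toSubring))
  let ρ₂ : ↥R →+* L₂ := red₂.comp (Subring.inclusion (inf_le_right : R ≤ V₂.toSubring))
  let ρ : ↥R →+* L₁ × L₂ := ρ₁.prod ρ₂
  have hρ₁ : ∀ (g : L) (hg : g ∈ R), ρ₁ ⟨g, hg⟩ = red₁ ⟨g, hR1 g hg⟩ := fun g hg => rfl
  have hρ₂ : ∀ (g : L) (hg : g ∈ R), ρ₂ ⟨g, hg⟩ = red₂ ⟨g, hR2 g hg⟩ := fun g hg => rfl
  have hcompat : ∀ a : ↥VE, ρ (incR hVR a) = algebraMap Et (L₁ × L₂) (redE a) := by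
    intro a
    refine Prod.ext ?_ ?_
    · exact hcompat₁ a _
    · exact hcompat₂ a _
  -- the lifts of the two bases
  have hB₁ : ∀ α, ∃ b : ↥R, ρ₁ b = β₁ α ∧ ρ₂ b = 0 := by
    intro α
    obtain ⟨y, hy⟩ := hsurj₁ (β₁ α)
    obtain ⟨b, hb₂, hb₁⟩ := exists_lift_plain V₂ V₁ h₂₁ h₁₂ (y : L) y.2
    have hbV₁ : b ∈ V₁ := mem_of_val_sub_lt V₁ y.2 hb₁
    have hbV₂ : b ∈ V₂ := (ValuationSubring.valuation_le_one_iff V₂ _).1 hb₂.le
    refine ⟨⟨b, hRmk b hbV₁ hbV₂⟩, ?_, ?_⟩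
    · rw [hρ₁, ← hy]
      exact red_eq_of_val_sub_lt hker₁ ⟨b, hbV₁⟩ y hb₁
    · rw [hρ₂]
      exact red_eq_zero_of_val_lt hker₂ ⟨b, hbV₂⟩ hb₂
  have hB₂ : ∀ β, ∃ b : ↥R, ρ₂ b = β₂ β ∧ ρ₁ b = 0 := by
    intro β
    obtain ⟨y, hy⟩ := hsurj₂ (β₂ β)
    obtain ⟨b, hb₁, hb₂⟩ := exists_lift_plain V₁ V₂ h₁₂ h₂₁ (y : L) y.2
    have hbV₂ : b ∈ V₂ := mem_of_val_sub_lt V₂ y.2 hb₂
    have hbV₁ : b ∈ V₁ := (ValuationSubring.valuation_le_one_iff V₁ _).1 hb₁.le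
    refine ⟨⟨b, hRmk b hbV₁ hbV₂⟩, ?_, ?_⟩
    · rw [hρ₂, ← hy]
      exact red_eq_of_val_sub_lt hker₂ ⟨b, hbV₂⟩ y hb₂
    · rw [hρ₁]
      exact red_eq_zero_of_val_lt hker₁ ⟨b, hbV₁⟩ hb₁
  choose B₁ hB₁a hB₁b using hB₁
  choose B₂ hB₂a hB₂b using hB₂
  let B : Fin (Module.finrank Et L₁) ⊕ Fin (Module.finrank Et L₂) → ↥R := Sum.elim B₁ B₂
  have hρB : ∀ i, ρ (B i) = (β₁.prod β₂) i := by
    rintro (α | β)
    · refine Prod.ext ?_ ?_
      · simpa [B, ρ] using hB₁a α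
      · simpa [B, ρ] using hB₁b α
    · refine Prod.ext ?_ ?_
      · simpa [B, ρ] using hB₂b β
      · simpa [B, ρ] using hB₂a β
  have hli : LinearIndependent Et (fun i => ρ (B i)) := by
    have : (fun i => ρ (B i)) = (β₁.prod β₂) := funext hρB
    rw [this]
    exact (β₁.prod β₂).linearIndependent
  have hliE := lat_li hVR hcompat B hli
  have hcard : Fintype.card (Fin (Module.finrank Et L₁) ⊕ Fin (Module.finrank Et L₂)) =
      Module.finrank E L := by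
    rw [Fintype.card_sum, Fintype.card_fin, Fintype.card_fin, hdeg]
  have hne : Nonempty (Fin (Module.finrank Et L₁) ⊕ Fin (Module.finrank Et L₂)) := by
    rw [← Fintype.card_pos_iff, hcard]
    exact Module.finrank_pos
  let bE : Module.Basis (Fin (Module.finrank Et L₁) ⊕ Fin (Module.finrank Et L₂)) E L :=
    basisOfLinearIndependentOfCardEqFinrank hliE hcard
  have hbE : ∀ i, bE i = ((B i : ↥R) : L) := fun i => by simp [bE]
  have hcoord : ∀ g : L, g ∈ R → ∀ i, bE.repr g i ∈ VE := by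
    intro g hg i
    refine lat_coord hVR hkerE hcompat B hli (fun i => bE.repr g i) g hg ?_ i
    have := bE.sum_repr g
    simpa only [hbE] using this
  refine ⟨bE, fun φ h₁ h₂ => ?_⟩
  have hφR : φ ∈ R := hRmk φ h₁ h₂
  have hG : ∀ j, φ * ((B j : ↥R) : L) ∈ R := fun j => R.mul_mem hφR (B j).2
  let G : Fin (Module.finrank Et L₁) ⊕ Fin (Module.finrank Et L₂) → ↥R := fun j => ⟨_, hG j⟩
  have hρG : ∀ j, ρ (G j) = (red₁ ⟨φ, h₁⟩, red₂ ⟨φ, h₂⟩) * (β₁.prod β₂) j := by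
    intro j
    have h0 : G j = (⟨φ, hφR⟩ : ↥R) * B j := rfl
    rw [h0, map_mul, hρB]
    rfl
  let M₀ : Matrix (Fin (Module.finrank Et L₁) ⊕ Fin (Module.finrank Et L₂))
      (Fin (Module.finrank Et L₁) ⊕ Fin (Module.finrank Et L₂)) ↥VE :=
    Matrix.of fun i j => ⟨bE.repr ((G j : ↥R) : L) i, hcoord _ (G j).2 i⟩
  have hM : Algebra.leftMulMatrix bE φ = VE.subtype.mapMatrix M₀ := by
    refine Matrix.ext fun i j => ?_
    rw [Algebra.leftMulMatrix_eq_repr_mul, hbE]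
    rfl
  have hGexp : ∀ j, G j = ∑ i, incR hVR (M₀ i j) * B i := by
    intro j
    apply Subtype.ext
    simp only [AddSubmonoidClass.coe_finsetSum, MulMemClass.coe_mul, coe_incR]
    have := (bE.sum_repr ((G j : ↥R) : L)).symm
    simp only [hbE, Algebra.smul_def] at this
    exact this
  have hred : redE.mapMatrix M₀ =
      Algebra.leftMulMatrix (β₁.prod β₂) (red₁ ⟨φ, h₁⟩, red₂ ⟨φ, h₂⟩) := by
    refine Matrix.ext fun i j => ?_
    rw [Algebra.leftMulMatrix_eq_repr_mul, ← hρG, hGexp, rho_sum hVR hcompat]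
    simp only [hρB]
    rw [Module.Basis.repr_sum_self]
    rfl
  exact ⟨M₀, hM, hred⟩

/-- The trace of the multiplication by `(x₁, x₂)` on a product algebra. -/
theorem trace_leftMulMatrix_prod_basis {ι₁ ι₂ : Type} [Fintype ι₁] [Fintype ι₂] [DecidableEq ι₁]
    [DecidableEq ι₂] (β₁ : Module.Basis ι₁ Et L₁) (β₂ : Module.Basis ι₂ Et L₂) (x : L₁ × L₂) :
    (Algebra.leftMulMatrix (β₁.prod β₂) x).trace =
      Algebra.trace Et L₁ x.1 + Algebra.trace Et L₂ x.2 := by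
  rw [leftMulMatrix_prod_basis, Algebra.trace_eq_matrix_trace β₁,
    Algebra.trace_eq_matrix_trace β₂]
  simp [Matrix.trace, Fintype.sum_sum_type]

/-- **TRACE-RED.**  `V₁ ≠ V₂` two valuation rings of `L` over the valuation ring `V_E` of `E`,
with residue fields `L₁`, `L₂` over `Et`, `[L : E] = [L₁ : Et] + [L₂ : Et]`.  For
`φ ∈ V₁ ∩ V₂` and `c ∈ V_E` with `red_E c = 0`:  `N_{L/E} (1 + c φ) = 1 + c θ` with `θ ∈ V_E`
and `red_E θ = Tr_{L₁/Et} (red₁ φ) + Tr_{L₂/Et} (red₂ φ)`. -/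
theorem traceRed_two [Module.Finite E L] [Module.Finite Et L₁] [Module.Finite Et L₂]
    (VE : ValuationSubring E) (V₁ V₂ : ValuationSubring L)
    (redE : ↥VE →+* Et) (red₁ : ↥V₁ →+* L₁) (red₂ : ↥V₂ →+* L₂)
    (hV₁ : ∀ a : E, a ∈ VE → algebraMap E L a ∈ V₁)
    (hV₂ : ∀ a : E, a ∈ VE → algebraMap E L a ∈ V₂)
    (hkerE : ∀ a : ↥VE, ¬ IsUnit a → redE a = 0)
    (hsurj₁ : Function.Surjective red₁) (hsurj₂ : Function.Surjective red₂)
    (hker₁ : ∀ a : ↥V₁, ¬ IsUnit a → red₁ a = 0) (hker₂ : ∀ a : ↥V₂, ¬ IsUnit a → red₂ a = 0)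
    (hcompat₁ : ∀ (a : ↥VE) (ha : algebraMap E L (a : E) ∈ V₁),
      red₁ ⟨algebraMap E L (a : E), ha⟩ = algebraMap Et L₁ (redE a))
    (hcompat₂ : ∀ (a : ↥VE) (ha : algebraMap E L (a : E) ∈ V₂),
      red₂ ⟨algebraMap E L (a : E), ha⟩ = algebraMap Et L₂ (redE a))
    (h₁₂ : ¬ V₁ ≤ V₂) (h₂₁ : ¬ V₂ ≤ V₁)
    (hdeg : Module.finrank E L = Module.finrank Et L₁ + Module.finrank Et L₂)
    (φ : L) (h₁ : φ ∈ V₁) (h₂ : φ ∈ V₂) (c : ↥VE) (hc : redE c = 0) :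
    ∃ θ : ↥VE, Algebra.norm E (1 + algebraMap E L (c : E) * φ) = 1 + (c : E) * (θ : E) ∧
      redE θ = Algebra.trace Et L₁ (red₁ ⟨φ, h₁⟩) + Algebra.trace Et L₂ (red₂ ⟨φ, h₂⟩) := by
  classical
  obtain ⟨bE, hbE⟩ := exists_matrix_two VE V₁ V₂ redE red₁ red₂ hV₁ hV₂ hkerE hsurj₁ hsurj₂
    hker₁ hker₂ hcompat₁ hcompat₂ h₁₂ h₂₁ hdeg
  obtain ⟨M₀, hM, hred⟩ := hbE φ h₁ h₂
  have hdet := Matrix.det_one_add_smul c M₀
  set ε : ↥VE :=
    (Polynomial.eval c (Matrix.det (1 + (Polynomial.X : Polynomial ↥VE) •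
      M₀.map Polynomial.C)).divX.divX) with hε
  refine ⟨M₀.trace + ε * c, ?_, ?_⟩
  · have h1 : Algebra.leftMulMatrix bE (1 + algebraMap E L (c : E) * φ) =
        VE.subtype.mapMatrix (1 + c • M₀) := by
      have h0 : (1 : L) + algebraMap E L (c : E) * φ = 1 + (c : E) • φ := by
        rw [Algebra.smul_def]
      rw [h0, map_add, map_one, map_smul, hM]
      refine Matrix.ext fun i j => ?_
      simp [Matrix.one_apply, apply_ite]
    rw [Algebra.norm_eq_matrix_det bE, h1, ← RingHom.map_det, hdet]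
    simp only [ValuationSubring.subtype_apply]
    push_cast
    ring
  · rw [map_add, map_mul, hc, mul_zero, add_zero]
    have h2 : redE M₀.trace = (redE.mapMatrix M₀).trace := by
      rw [Matrix.trace, map_sum]
      rfl
    rw [h2, hred, trace_leftMulMatrix_prod_basis]

/-- **TRACE-RED, the modular case**: `[L₁ : Et] = 1` and `Tr_{L₂/Et} = 0` (`L₂ / Et` purely
inseparable): `red_E θ = red₁ φ`. -/
theorem traceRed_insep [Module.Finite E L] [Module.Finite Et L₁] [Module.Finite Et L₂]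
    (VE : ValuationSubring E) (V₁ V₂ : ValuationSubring L)
    (redE : ↥VE →+* Et) (red₁ : ↥V₁ →+* L₁) (red₂ : ↥V₂ →+* L₂)
    (hV₁ : ∀ a : E, a ∈ VE → algebraMap E L a ∈ V₁)
    (hV₂ : ∀ a : E, a ∈ VE → algebraMap E L a ∈ V₂)
    (hkerE : ∀ a : ↥VE, ¬ IsUnit a → redE a = 0)
    (hsurj₁ : Function.Surjective red₁) (hsurj₂ : Function.Surjective red₂)
    (hker₁ : ∀ a : ↥V₁, ¬ IsUnit a → red₁ a = 0) (hker₂ : ∀ a : ↥V₂, ¬ IsUnit a → red₂ a = 0)
    (hcompat₁ : ∀ (a : ↥VE) (ha : algebraMap E L (a : E) ∈ V₁),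
      red₁ ⟨algebraMap E L (a : E), ha⟩ = algebraMap Et L₁ (redE a))
    (hcompat₂ : ∀ (a : ↥VE) (ha : algebraMap E L (a : E) ∈ V₂),
      red₂ ⟨algebraMap E L (a : E), ha⟩ = algebraMap Et L₂ (redE a))
    (h₁₂ : ¬ V₁ ≤ V₂) (h₂₁ : ¬ V₂ ≤ V₁)
    (hdeg : Module.finrank E L = Module.finrank Et L₁ + Module.finrank Et L₂)
    (hf₁ : Module.finrank Et L₁ = 1) (htr : ∀ x : L₂, Algebra.trace Et L₂ x = 0)
    (φ : L) (h₁ : φ ∈ V₁) (h₂ : φ ∈ V₂) (c : ↥VE) (hc : redE c = 0) :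
    ∃ θ : ↥VE, Algebra.norm E (1 + algebraMap E L (c : E) * φ) = 1 + (c : E) * (θ : E) ∧
      algebraMap Et L₁ (redE θ) = red₁ ⟨φ, h₁⟩ := by
  obtain ⟨θ, hθ, hθ'⟩ := traceRed_two VE V₁ V₂ redE red₁ red₂ hV₁ hV₂ hkerE hsurj₁ hsurj₂
    hker₁ hker₂ hcompat₁ hcompat₂ h₁₂ h₂₁ hdeg φ h₁ h₂ c hc
  refine ⟨θ, hθ, ?_⟩
  rw [hθ', htr, add_zero]
  -- `L₁ = Et`
  have hsurj : Function.Surjective (algebraMap Et L₁) := by
    have h1 : (⊥ : Subalgebra Et L₁) = ⊤ := Subalgebra.bot_eq_top_of_finrank_eq_one hf₁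
    intro x
    have hx : x ∈ (⊥ : Subalgebra Et L₁) := h1 ▸ Algebra.mem_top
    exact Algebra.mem_bot.1 hx
  obtain ⟨a, ha⟩ := hsurj (red₁ ⟨φ, h₁⟩)
  rw [← ha, Algebra.trace_algebraMap, hf₁, one_smul]

end Main

section Insep

/-- The trace of a non-trivial finite extension `F / K` of characteristic `p` with `F ^ p ⊆ K`
vanishes. -/
theorem trace_eq_zero_of_pow_mem (K F : Type) [Field K] [Field F] [Algebra K F]
    [FiniteDimensional K F] (p : ℕ) [hp : Fact p.Prime] [CharP K p]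
    (hq : ∀ x : F, x ^ p ∈ (algebraMap K F).range) (hne : Module.finrank K F ≠ 1) (x : F) :
    Algebra.trace K F x = 0 := by
  have : ExpChar K p := ExpChar.prime hp.out
  have hpi : IsPurelyInseparable K F :=
    (isPurelyInseparable_iff_pow_mem K p).2 fun x => ⟨1, by rw [pow_one]; exact hq x⟩
  have hns : ¬ Algebra.IsSeparable K F := by
    intro hsep
    have hbij : Function.Bijective (algebraMap K F) :=
      IsPurelyInseparable.bijective_algebraMap_of_isSeparable K F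
    apply hne
    have h1 : (⊥ : Subalgebra K F) = ⊤ := by
      rw [eq_top_iff]
      intro y _
      obtain ⟨a, ha⟩ := hbij.2 y
      exact Algebra.mem_bot.2 ⟨a, ha⟩
    exact Subalgebra.bot_eq_top_iff_finrank_eq_one.1 h1
  rw [Algebra.trace_eq_zero_of_not_isSeparable hns, LinearMap.zero_apply]

end Insep

end Fermat.Agent.BADP.H18

end
end
-- ==== END Fermat.Agent.BADP.H18_TraceRed

-- ==== BEGIN Fermat.Agent.BADP.H51_MoveAny
section

/-!
# S44, package MOVE-p (helper51), part 1: linearisation, twisted surjectivity and the moving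
lemma for EVERY exponent `n ≠ 0`

The leaves `Stmt_Linearise`, `Stmt_TwSurj`, `Stmt_Moving` of package ABS of BAD_q are stated
for an exponent `n` invertible in the residue field `k`.  Their proofs use this hypothesis only
through the algebraic lemma `Stmt_Ratio`, which holds for every `n ≠ 0` (evaluate at the root
`t = -A / A₀`).  Hence the three statements hold for every `n ≠ 0`, in particular for
`n = p = char k`.

* `ratio` : `(A + t A₀)^n = lam (B + t B₀)^n` for all `t`, `A₀ ≠ 0`, `n ≠ 0` ⟹ `A B₀ = B A₀`.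
* `stmt_LineariseAny : Stmt_LineariseAny`
* `stmt_TwSurjAny : Stmt_TwSurjAny`
* `stmt_MovingAny : Stmt_MovingAny`
-/

set_option autoImplicit false
set_option linter.style.haveILetI false
set_option maxHeartbeats 1000000

noncomputable section

open AlgebraicCurve

attribute [local instance] Classical.propDecidable

namespace Fermat.Agent.BADP.H51

open Fermat.Agent.RED.H17 Fermat.Agent.RED Fermat.Agent.BAD

local notation "L" => riemannRochSpace

/-- **ALG (linearisation), every exponent.**  If `(A + t A₀)^n = lam (B + t B₀)^n` for all `t`,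
with `A₀ ≠ 0` and `n ≠ 0`, then `A B₀ = B A₀`. -/
theorem ratio {k : Type*} [Field k] {n : ℕ} (hn : n ≠ 0) (A A₀ B B₀ lam : k) (hA₀ : A₀ ≠ 0)
    (h : ∀ t : k, (A + t * A₀) ^ n = lam * (B + t * B₀) ^ n) : A * B₀ = B * A₀ := by
  have hlam : lam ≠ 0 := by
    rintro rfl
    have h1 := h ((1 - A) / A₀)
    rw [zero_mul, div_mul_cancel₀ _ hA₀, add_sub_cancel, one_pow] at h1
    exact one_ne_zero h1
  have h1 := h (-A / A₀)
  rw [div_mul_cancel₀ _ hA₀, add_neg_cancel, zero_pow hn] at h1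
  have h2 : B + -A / A₀ * B₀ = 0 := by
    rcases mul_eq_zero.mp h1.symm with h3 | h3
    · exact absurd h3 hlam
    · exact pow_eq_zero_iff hn |>.mp h3
  field_simp at h2
  linear_combination -h2

/-- **Linearisation, every exponent**: `Stmt_Linearise` with `n ≠ 0` instead of `(n : k) ≠ 0`
(and without the hypothesis that `k` is infinite). -/
def Stmt_LineariseAny : Prop :=
  ∀ (k F₁ F₂ : Type) [Field k] [Field F₁] [Algebra k F₁] [Field F₂] [Algebra k F₂],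
    FFHyp k F₁ → FFHyp k F₂ →
    ∀ (nodes : Finset (Place k F₁ × Place k F₂)) (n : ℕ), n ≠ 0 →
    ∀ (γ : F₂), γ ≠ 0 → (∀ s ∈ nodes, s.2.ord γ = 0) →
    ∀ I : Submodule k (F₁ × F₂),
      (∀ ψ ∈ I, ∀ s ∈ nodes, ∃ a : k, VanAt s.1 (ψ.1 ^ n - algebraMap k F₁ a) ∧
        VanAt s.2 (γ * ψ.2 ^ n - algebraMap k F₂ a)) →
      ∃ lam : Place k F₁ × Place k F₂ → k, (∀ s ∈ nodes, lam s ≠ 0) ∧
        ∀ ψ ∈ I, ∀ s ∈ nodes, ∃ a : k, VanAt s.1 (ψ.1 - algebraMap k F₁ a) ∧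
          VanAt s.2 (algebraMap k F₂ (lam s) * ψ.2 - algebraMap k F₂ a)

/-- **Surjectivity of the twisted reduction, every exponent**: `Stmt_TwSurj` with `n ≠ 0`
instead of `(n : k) ≠ 0`. -/
def Stmt_TwSurjAny : Prop :=
  ∀ (K F k F₁ F₂ : Type) [Field K] [Field F] [Algebra K F] [Field k] [Field F₁]
    [Algebra k F₁] [Field F₂] [Algebra k F₂] [Infinite k]
    (S : SSD K F k F₁ F₂) (H : FFHyp K F) (_ : FFHyp k F₁) (H₂ : FFHyp k F₂)
    (g g₁ g₂ : ℕ) (c c₁ c₂ : ℤ), IsGenus K F g c → IsGenus k F₁ g₁ c₁ → IsGenus k F₂ g₂ c₂ →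
    g + 1 ≤ g₁ + g₂ + S.nodes.card →
    ∀ (n : ℕ), n ≠ 0 → ∀ (x : S.Twist n) (G : Divisor K F), S.GoodPos G →
      c₁ + S.nodes.card ≤ Divisor.degree (S.push₁ G) →
      c₂ + S.nodes.card ≤ Divisor.degree (S.push₂ G) →
      ∃ lam : Place k F₁ × Place k F₂ → k, (∀ s ∈ S.nodes, lam s ≠ 0) ∧
        S.Rsub x.ϑ (x.Dx H.principal + G) =
          S.Lam lam (S.push₁ G) (S.push₂ G + x.Δ H₂.principal) ∧
        (Module.finrank k (S.Lam lam (S.push₁ G) (S.push₂ G + x.Δ H₂.principal)) : ℤ) =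
          Divisor.degree G + 2 - g₁ - g₂ - S.nodes.card

/-- **Moving lemma, every exponent**: `Stmt_Moving` with `n ≠ 0` instead of `(n : k) ≠ 0`. -/
def Stmt_MovingAny : Prop :=
  ∀ (K F k F₁ F₂ : Type) [Field K] [Field F] [Algebra K F] [Field k] [Field F₁]
    [Algebra k F₁] [Field F₂] [Algebra k F₂] [Infinite k]
    (S : SSD K F k F₁ F₂), FFHyp K F → FFHyp k F₁ → FFHyp k F₂ →
    ∀ (g g₁ g₂ : ℕ) (c c₁ c₂ : ℤ), IsGenus K F g c → IsGenus k F₁ g₁ c₁ → IsGenus k F₂ g₂ c₂ →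
    g + 1 ≤ g₁ + g₂ + S.nodes.card →
    ∀ (n : ℕ), n ≠ 0 → ∀ (x : S.Twist n),
      ∃ h : F, S.c₁.IsGU h ∧ S.c₂.IsGU (x.ϑ * h) ∧
        ∀ P : Place K F, S.IsNodeP P → P.ord (x.f * h ^ n) = 0

section Lin

open Fermat.Agent.BAD.H41

variable {k : Type} [Field k]

/-- The linearisation at one node, every exponent. -/
theorem linearise_node {F₁ F₂ : Type} [Field F₁] [Algebra k F₁] [Field F₂] [Algebra k F₂]
    (H₁ : FFHyp k F₁) (H₂ : FFHyp k F₂) (n : ℕ) (hn0 : n ≠ 0)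
    (γ : F₂) (hγ0 : γ ≠ 0) (s₁ : Place k F₁) (s₂ : Place k F₂) (hγ : s₂.ord γ = 0)
    (I : Submodule k (F₁ × F₂))
    (hI : ∀ ψ ∈ I, ∃ a : k, VanAt s₁ (ψ.1 ^ n - algebraMap k F₁ a) ∧
      VanAt s₂ (γ * ψ.2 ^ n - algebraMap k F₂ a)) :
    ∃ lam : k, lam ≠ 0 ∧ ∀ ψ ∈ I, ∃ a : k, VanAt s₁ (ψ.1 - algebraMap k F₁ a) ∧
      VanAt s₂ (algebraMap k F₂ lam * ψ.2 - algebraMap k F₂ a) := by
  have hd₁ := H₁.deg_one s₁
  have hd₂ := H₂.deg_one s₂
  -- `γ` is a unit at `s₂`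
  have hγreg : RegAt s₂ γ := regAt_of_ord_nonneg (by rw [hγ])
  have hγinv : RegAt s₂ γ⁻¹ := by
    apply regAt_of_ord_nonneg
    rw [Place.ord_inv, hγ, neg_zero]
  have hc : valAt s₂ hd₂ γ ≠ 0 := by
    intro h0
    have h1 := (valAt_eq_iff s₂ hd₂ hγreg 0).mp h0
    rw [map_zero, sub_zero] at h1
    have := h1.ord_pos hγ0
    omega
  -- regularity
  have hR1 : ∀ ψ ∈ I, RegAt s₁ ψ.1 := by
    intro ψ hψ
    obtain ⟨a, ha, -⟩ := hI ψ hψ
    have h1 : RegAt s₁ (ψ.1 ^ n) := by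
      have := ha.regAt.add (regAt_algebraMap s₁ a)
      rwa [sub_add_cancel] at this
    exact H41.regAt_of_pow hn0 h1
  have hR2 : ∀ ψ ∈ I, RegAt s₂ ψ.2 := by
    intro ψ hψ
    obtain ⟨a, -, ha⟩ := hI ψ hψ
    have h1 : RegAt s₂ (γ * ψ.2 ^ n) := by
      have := ha.regAt.add (regAt_algebraMap s₂ a)
      rwa [sub_add_cancel] at this
    have h2 : RegAt s₂ (ψ.2 ^ n) := by
      have := hγinv.mul h1
      rwa [← mul_assoc, inv_mul_cancel₀ hγ0, one_mul] at this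
    exact H41.regAt_of_pow hn0 h2
  -- the power relation
  have hpow : ∀ ψ ∈ I, valAt s₁ hd₁ ψ.1 ^ n = valAt s₂ hd₂ γ * valAt s₂ hd₂ ψ.2 ^ n := by
    intro ψ hψ
    obtain ⟨a, ha1, ha2⟩ := hI ψ hψ
    have e1 := (valAt_eq_iff s₁ hd₁ ((hR1 ψ hψ).pow n) a).mpr ha1
    have e2 := (valAt_eq_iff s₂ hd₂ (hγreg.mul ((hR2 ψ hψ).pow n)) a).mpr ha2
    rw [valAt_pow s₁ hd₁ (hR1 ψ hψ)] at e1
    rw [valAt_mul s₂ hd₂ hγreg ((hR2 ψ hψ).pow n), valAt_pow s₂ hd₂ (hR2 ψ hψ)] at e2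
    rw [e1, e2]
  -- the conclusion from a linear relation
  have hfin : ∀ lam : k, (∀ ψ ∈ I, valAt s₁ hd₁ ψ.1 = lam * valAt s₂ hd₂ ψ.2) →
      ∀ ψ ∈ I, ∃ a : k, VanAt s₁ (ψ.1 - algebraMap k F₁ a) ∧
        VanAt s₂ (algebraMap k F₂ lam * ψ.2 - algebraMap k F₂ a) := by
    intro lam hlam ψ hψ
    refine ⟨valAt s₁ hd₁ ψ.1, vanAt_sub_valAt s₁ hd₁ (hR1 ψ hψ), ?_⟩
    rw [← valAt_eq_iff s₂ hd₂ ((regAt_algebraMap s₂ lam).mul (hR2 ψ hψ)),
      valAt_mul s₂ hd₂ (regAt_algebraMap s₂ lam) (hR2 ψ hψ), valAt_algebraMap, hlam ψ hψ]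
  by_cases hex : ∃ ψ0 ∈ I, valAt s₁ hd₁ ψ0.1 ≠ 0
  · obtain ⟨ψ0, hψ0, hA₀⟩ := hex
    have hB₀ : valAt s₂ hd₂ ψ0.2 ≠ 0 := by
      intro h0
      have := hpow ψ0 hψ0
      rw [h0, zero_pow hn0, mul_zero] at this
      exact hA₀ (pow_eq_zero_iff hn0 |>.mp this)
    refine ⟨valAt s₁ hd₁ ψ0.1 / valAt s₂ hd₂ ψ0.2, div_ne_zero hA₀ hB₀, ?_⟩
    apply hfin
    intro ψ hψ
    have hrat := ratio hn0 (valAt s₁ hd₁ ψ.1) (valAt s₁ hd₁ ψ0.1)
      (valAt s₂ hd₂ ψ.2) (valAt s₂ hd₂ ψ0.2) (valAt s₂ hd₂ γ) hA₀ (by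
        intro t
        have hmem : ψ + t • ψ0 ∈ I := I.add_mem hψ (I.smul_mem t hψ0)
        have := hpow _ hmem
        rw [Prod.fst_add, Prod.snd_add, Prod.smul_fst, Prod.smul_snd,
          valAt_add s₁ hd₁ (hR1 ψ hψ) (by
            rw [Algebra.smul_def]; exact (regAt_algebraMap s₁ t).mul (hR1 ψ0 hψ0)),
          valAt_add s₂ hd₂ (hR2 ψ hψ) (by
            rw [Algebra.smul_def]; exact (regAt_algebraMap s₂ t).mul (hR2 ψ0 hψ0)),
          valAt_smul s₁ hd₁ t (hR1 ψ0 hψ0), valAt_smul s₂ hd₂ t (hR2 ψ0 hψ0)] at this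
        exact this)
    field_simp
    linear_combination hrat
  · push Not at hex
    refine ⟨1, one_ne_zero, ?_⟩
    apply hfin
    intro ψ hψ
    have hA := hex ψ hψ
    have := hpow ψ hψ
    rw [hA, zero_pow hn0] at this
    have hB : valAt s₂ hd₂ ψ.2 = 0 := by
      rcases mul_eq_zero.mp this.symm with h | h
      · exact absurd h hc
      · exact pow_eq_zero_iff hn0 |>.mp h
    rw [hA, hB, mul_zero]

end Lin

/-- **Linearisation, every exponent.** -/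
theorem stmt_LineariseAny : Stmt_LineariseAny := by
  classical
  intro k F₁ F₂ _ _ _ _ _ H₁ H₂ nodes n hn γ hγ0 hγ I hI
  have key : ∀ s : Place k F₁ × Place k F₂, s ∈ nodes →
      ∃ lam : k, lam ≠ 0 ∧ ∀ ψ ∈ I, ∃ a : k, VanAt s.1 (ψ.1 - algebraMap k F₁ a) ∧
        VanAt s.2 (algebraMap k F₂ lam * ψ.2 - algebraMap k F₂ a) := by
    intro s hs
    exact _root_.Fermat.Agent.BADP.H51.linearise_node H₁ H₂ n hn γ hγ0 s.1 s.2 (hγ s hs) I (fun ψ hψ => hI ψ hψ s hs)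
  refine ⟨fun s => if h : s ∈ nodes then Classical.choose (key s h) else 1, ?_, ?_⟩
  · intro s hs
    simp only [dif_pos hs]
    exact (Classical.choose_spec (key s hs)).1
  · intro ψ hψ s hs
    simp only [dif_pos hs]
    exact (Classical.choose_spec (key s hs)).2 ψ hψ

/-- **Surjectivity of the twisted reduction, every exponent.** -/
theorem stmt_TwSurjAny : Stmt_TwSurjAny := by
  intro K F k F₁ F₂ _ _ _ _ _ _ _ _ _ S H H₁ H₂ g g₁ g₂ c c₁ c₂ hg hg₁ hg₂ hnum n hn0 x G hG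
    hd₁ hd₂
  -- linearisation of the gluing condition
  have hcont : ∀ ψ ∈ S.Rsub x.ϑ (x.Dx H.principal + G),
      ψ.1 ∈ L (S.push₁ G) ∧ ψ.2 ∈ L (S.push₂ G + x.Δ H₂.principal) ∧
      ∀ s ∈ S.nodes, ∃ a : k, VanAt s.1 (ψ.1 ^ n - algebraMap k F₁ a) ∧
        VanAt s.2 (x.γ * ψ.2 ^ n - algebraMap k F₂ a) :=
    fun ψ hψ => BAD.H17.contain H H₂ hn0 x G hG hψ
  obtain ⟨lam, hlam, hlin⟩ := stmt_LineariseAny k F₁ F₂ H₁ H₂ S.nodes n hn0 x.γ
    (H41.γ_ne_zero x) (fun s hs => x.hγ s hs) (S.Rsub x.ϑ (x.Dx H.principal + G))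
    (fun ψ hψ s hs => (hcont ψ hψ).2.2 s hs)
  refine ⟨lam, hlam, ?_⟩
  set D : Divisor K F := x.Dx H.principal + G with hD
  set G₁ : Divisor k F₁ := S.push₁ G with hG₁
  set G₂ : Divisor k F₂ := S.push₂ G + x.Δ H₂.principal with hG₂
  have hle : S.Rsub x.ϑ D ≤ S.Lam lam G₁ G₂ := by
    intro ψ hψ
    exact ⟨(hcont ψ hψ).1, (hcont ψ hψ).2.1, fun s hs => hlin ψ hψ s hs⟩
  haveI hfinLam : Module.Finite k (S.Lam lam G₁ G₂) := H41.finite_Lam S H₁ H₂ lam G₁ G₂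
  haveI hfinR : Module.Finite k (S.Rsub x.ϑ D) := Submodule.finiteDimensional_of_le hle
  -- the four inequalities
  have h1 : Divisor.degree D + 1 - g ≤ (Module.finrank K (L D) : ℤ) := (hg D).1
  have hdegD : Divisor.degree D = Divisor.degree G := by
    rw [hD, map_add, H41.degree_Dx hn0 x H.principal, zero_add]
  have h2 : Module.finrank K (L D) ≤ Module.finrank k (S.Rsub x.ϑ D) :=
    BAD.H17.stmt_Pivot K F k F₁ F₂ S H H₁ H₂ x.ϑ x.hϑ D hfinR
  have h3 : Module.finrank k (S.Rsub x.ϑ D) ≤ Module.finrank k (S.Lam lam G₁ G₂) :=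
    Submodule.finrank_mono hle
  have hG₁node : ∀ s ∈ S.nodes, G₁ s.1 = 0 := fun s hs => H41.push₁_node S G hG hs
  have hG₂node : ∀ s ∈ S.nodes, G₂ s.2 = 0 := by
    intro s hs
    rw [hG₂, Finsupp.add_apply, H41.push₂_node S G hG hs, H41.Δ_node x H₂.principal hs,
      add_zero]
  have h4 := H60.stmt_LamCount K F k F₁ F₂ S H₁ H₂ lam hlam G₁ G₂ hG₁node hG₂node
  -- Riemann equality on the two components
  have hdG₂ : Divisor.degree G₂ = Divisor.degree (S.push₂ G) := by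
    rw [hG₂, map_add, H41.degree_Δ hn0 x H.principal H₂.principal, add_zero]
  have e1 : (Module.finrank k (L (G₁ - ptsDiv S.br₁)) : ℤ) =
      Divisor.degree G₁ - S.nodes.card + 1 - g₁ := by
    have hdeg : Divisor.degree (G₁ - ptsDiv S.br₁) = Divisor.degree G₁ - S.nodes.card := by
      rw [map_sub, degree_ptsDiv H₁.deg_one, H41.card_br₁]
    have := (hg₁ (G₁ - ptsDiv S.br₁)).2 (by rw [hdeg]; linarith)
    rw [this, hdeg]
  have e2 : (Module.finrank k (L (G₂ - ptsDiv S.br₂)) : ℤ) =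
      Divisor.degree G₂ - S.nodes.card + 1 - g₂ := by
    have hdeg : Divisor.degree (G₂ - ptsDiv S.br₂) = Divisor.degree G₂ - S.nodes.card := by
      rw [map_sub, degree_ptsDiv H₂.deg_one, H41.card_br₂]
    have := (hg₂ (G₂ - ptsDiv S.br₂)).2 (by rw [hdeg, hdG₂]; linarith)
    rw [this, hdeg]
  have hsum := H41.degree_push_add S H H₁ H₂ G hG
  have h2' : (Module.finrank K (L D) : ℤ) ≤ (Module.finrank k (S.Rsub x.ϑ D) : ℤ) := by
    exact_mod_cast h2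
  have h3' : (Module.finrank k (S.Rsub x.ϑ D) : ℤ) ≤
      (Module.finrank k (S.Lam lam G₁ G₂) : ℤ) := by exact_mod_cast h3
  have h4' : (Module.finrank k (S.Lam lam G₁ G₂) : ℤ) ≤
      (Module.finrank k (L (G₁ - ptsDiv S.br₁)) : ℤ) +
        (Module.finrank k (L (G₂ - ptsDiv S.br₂)) : ℤ) + S.nodes.card := by
    exact_mod_cast h4
  have hnum' : (g : ℤ) + 1 ≤ g₁ + g₂ + S.nodes.card := by exact_mod_cast hnum
  have hfr : (Module.finrank k (S.Lam lam G₁ G₂) : ℤ) =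
      Divisor.degree G + 2 - g₁ - g₂ - S.nodes.card := by
    rw [e1, e2, hdG₂] at h4'
    have hG₁' : Divisor.degree G₁ = Divisor.degree (S.push₁ G) := rfl
    rw [hG₁'] at h4'
    linarith
  have heq : Module.finrank k (S.Rsub x.ϑ D) = Module.finrank k (S.Lam lam G₁ G₂) := by
    have : (Module.finrank k (S.Rsub x.ϑ D) : ℤ) = (Module.finrank k (S.Lam lam G₁ G₂) : ℤ) := by
      linarith
    exact_mod_cast this
  exact ⟨Submodule.eq_of_le_of_finrank_eq hle heq, hfr⟩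

/-- **The moving lemma, every exponent.** -/
theorem stmt_MovingAny : Stmt_MovingAny := by
  classical
  intro K F k F₁ F₂ _ _ _ _ _ _ _ _ _ S H H₁ H₂ g g₁ g₂ c c₁ c₂ hR hR₁ hR₂ hnum n hn0 x
  have hnZ : (n : ℤ) ≠ 0 := by exact_mod_cast hn0
  -- regular points on the two components and places over them
  obtain ⟨Q₁, hQ₁⟩ := H₁.exists_notMem S.br₁
  obtain ⟨Q₂, hQ₂⟩ := H₂.exists_notMem S.br₂
  have hQ₁n : ∀ s ∈ S.nodes, s.1 ≠ Q₁ := fun s hs h =>
    hQ₁ (h ▸ Finset.mem_image_of_mem Prod.fst hs)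
  have hQ₂n : ∀ s ∈ S.nodes, s.2 ≠ Q₂ := fun s hs h =>
    hQ₂ (h ▸ Finset.mem_image_of_mem Prod.snd hs)
  have hQ₁g : Q₁ ∈ S.c₁.good := (S.good₁ Q₁).mpr hQ₁n
  have hQ₂g : Q₂ ∈ S.c₂.good := (S.good₂ Q₂).mpr hQ₂n
  obtain ⟨P₁, hP₁⟩ := S.c₁.r_surjective H.principal Q₁ hQ₁g
  obtain ⟨P₂, hP₂⟩ := S.c₂.r_surjective H.principal Q₂ hQ₂g
  have hP₁' : S.c₂.r P₁ = none := by
    rcases S.r_cases P₁ with ⟨Q, _, _, h2⟩ | ⟨Q, _, _, h2⟩ | ⟨s, hs, h1, _⟩
    · exact h2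
    · rw [hP₁] at h2
      exact absurd h2 (Option.some_ne_none _)
    · rw [hP₁] at h1
      exact absurd (Option.some.inj h1).symm (hQ₁n s hs)
  have hP₂' : S.c₁.r P₂ = none := by
    rcases S.r_cases P₂ with ⟨Q, _, _, h2⟩ | ⟨Q, _, _, h2⟩ | ⟨s, hs, _, h2⟩
    · rw [hP₂] at h2
      exact absurd h2 (Option.some_ne_none _)
    · exact h2
    · rw [hP₂] at h2
      exact absurd (Option.some.inj h2).symm (hQ₂n s hs)
  -- the divisor `G`
  set Δ : Divisor k F₂ := x.Δ H₂.principal with hΔ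
  set M : ℤ := |c₁| + |c₂| + (S.nodes.card : ℤ) + |Divisor.degree Δ| with hM
  set G : Divisor K F := Finsupp.single P₁ M + Finsupp.single P₂ M with hG
  have hpush₁ : S.push₁ G = Finsupp.single Q₁ M := by
    unfold SSD.push₁
    rw [hG, Finsupp.mapDomain_add, Finsupp.mapDomain_single, Finsupp.mapDomain_single, hP₁, hP₂',
      Finsupp.some_add, Finsupp.some_single_some, Finsupp.some_single_none, add_zero]
  have hpush₂ : S.push₂ G = Finsupp.single Q₂ M := by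
    unfold SSD.push₂
    rw [hG, Finsupp.mapDomain_add, Finsupp.mapDomain_single, Finsupp.mapDomain_single, hP₂, hP₁',
      Finsupp.some_add, Finsupp.some_single_some, Finsupp.some_single_none, zero_add]
  have hGood : S.GoodPos G := by
    rintro P hP ⟨s, hs, hsP⟩
    have hPP : P = P₁ ∨ P = P₂ := by
      by_contra hne
      rw [not_or] at hne
      apply hP
      rw [hG, Finsupp.add_apply, Finsupp.single_apply, Finsupp.single_apply,
        if_neg (Ne.symm hne.1), if_neg (Ne.symm hne.2), add_zero]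
    rcases hPP with rfl | rfl
    · rw [hP₁] at hsP
      exact hQ₁n s hs (Option.some.inj hsP).symm
    · rw [hP₂'] at hsP
      exact absurd hsP.symm (Option.some_ne_none _)
  have hdeg₁ : Divisor.degree (S.push₁ G) = M := by
    rw [hpush₁, Divisor.degree_single, H₁.deg_one, Nat.cast_one, mul_one]
  have hdeg₂ : Divisor.degree (S.push₂ G) = M := by
    rw [hpush₂, Divisor.degree_single, H₂.deg_one, Nat.cast_one, mul_one]
  have hM₁ : c₁ + (S.nodes.card : ℤ) ≤ M := by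
    have h1 := le_abs_self c₁
    have h2 := abs_nonneg c₂
    have h3 := abs_nonneg (Divisor.degree Δ)
    linarith
  have hM₂ : c₂ + (S.nodes.card : ℤ) ≤ M + Divisor.degree Δ := by
    have h1 := abs_nonneg c₁
    have h2 := le_abs_self c₂
    have h3 := neg_abs_le (Divisor.degree Δ)
    linarith
  have hM₂' : c₂ + (S.nodes.card : ℤ) ≤ M := by
    have h1 := abs_nonneg c₁
    have h2 := le_abs_self c₂
    have h3 := abs_nonneg (Divisor.degree Δ)
    linarith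
  obtain ⟨lam, hlam0, hRL, -⟩ := stmt_TwSurjAny K F k F₁ F₂ S H H₁ H₂ g g₁ g₂ c c₁ c₂ hR hR₁ hR₂
    hnum n hn0 x G hGood (by rw [hdeg₁]; exact hM₁) (by rw [hdeg₂]; exact hM₂')
  -- the divisors on the components have no support at the branches
  have hG₁ : ∀ w ∈ S.br₁, (S.push₁ G) w = 0 := by
    intro w hw
    rw [hpush₁, Finsupp.single_apply, if_neg]
    rintro rfl
    exact hQ₁ hw
  have hG₂ : ∀ w ∈ S.br₂, (S.push₂ G + Δ) w = 0 := by
    intro w hw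
    obtain ⟨s, hs, rfl⟩ := Finset.mem_image.mp hw
    rw [Finsupp.add_apply, hpush₂, Finsupp.single_apply, if_neg (fun h => hQ₂n s hs h.symm),
      zero_add, hΔ]
    unfold SSD.Twist.Δ
    rw [Finsupp.mapRange_apply, dv_apply]
    have := x.hγ s hs
    unfold SSD.Twist.γ
    rw [this]
    exact Int.zero_ediv _
  have hcard₁ : (S.br₁.card : ℤ) ≤ (S.nodes.card : ℤ) := by
    exact_mod_cast Finset.card_image_le
  have hcard₂ : (S.br₂.card : ℤ) ≤ (S.nodes.card : ℤ) := by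
    exact_mod_cast Finset.card_image_le
  -- the hyperplanes
  let Λ : Submodule k (F₁ × F₂) := S.Lam lam (S.push₁ G) (S.push₂ G + Δ)
  let W : Place k F₁ × Place k F₂ → Submodule k Λ := fun s =>
    (BAD.H90.vanSub (F₂ := F₂) s.1).comap Λ.subtype
  have hprop : ∀ s ∈ S.nodes, W s ≠ ⊤ := by
    intro s hs htop
    obtain ⟨ψ₁, hψ₁L, hψ₁v, hψ₁r, hψ₁n⟩ := BAD.H90.exists_value_one H₁ hR₁ (S.push₁ G) S.br₁
      (v := s.1) (Finset.mem_image_of_mem Prod.fst hs) hG₁ (by rw [hdeg₁]; linarith)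
    obtain ⟨ψ₂, hψ₂L, hψ₂v, hψ₂r, hψ₂n⟩ := BAD.H90.exists_value_one H₂ hR₂ (S.push₂ G + Δ) S.br₂
      (v := s.2) (Finset.mem_image_of_mem Prod.snd hs) hG₂
      (by rw [map_add, hdeg₂]; linarith)
    obtain ⟨a₁, ha₁⟩ := exists_value s.1 (H₁.deg_one _) hψ₁r
    obtain ⟨b, hb⟩ := exists_value s.2 (H₂.deg_one _) hψ₂r
    have ha₁0 : a₁ ≠ 0 := by
      rintro rfl
      rw [map_zero, sub_zero] at ha₁
      exact hψ₁n ha₁
    have hb0 : b ≠ 0 := by
      rintro rfl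
      rw [map_zero, sub_zero] at hb
      exact hψ₂n hb
    have hl0 : lam s ≠ 0 := hlam0 s hs
    have hmem : ((ψ₁, (a₁ / (lam s * b)) • ψ₂) : F₁ × F₂) ∈ Λ := by
      refine ⟨hψ₁L, (L (S.push₂ G + Δ)).smul_mem _ hψ₂L, fun s' hs' => ?_⟩
      by_cases hss : s' = s
      · subst hss
        refine ⟨a₁, ha₁, ?_⟩
        have h1 := (regAt_algebraMap s'.2 (lam s' * (a₁ / (lam s' * b)))).mul_vanAt hb
        have hab : lam s' * (a₁ / (lam s' * b)) * b = a₁ := by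
          field_simp
        have hab' : algebraMap k F₂ (lam s' * (a₁ / (lam s' * b))) * algebraMap k F₂ b
            = algebraMap k F₂ a₁ := by
          rw [← map_mul, hab]
        have e : algebraMap k F₂ (lam s' * (a₁ / (lam s' * b))) * (ψ₂ - algebraMap k F₂ b)
            = algebraMap k F₂ (lam s') * ((a₁ / (lam s' * b)) • ψ₂) - algebraMap k F₂ a₁ := by
          rw [mul_sub, hab', map_mul, Algebra.smul_def, mul_assoc]
        rwa [e] at h1
      · have h1ne : s'.1 ≠ s.1 := fun h => hss (S.inj₁ s' hs' s hs h)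
        have h2ne : s'.2 ≠ s.2 := fun h => hss (S.inj₂ s' hs' s hs h)
        refine ⟨0, ?_, ?_⟩
        · rw [map_zero, sub_zero]
          exact hψ₁v s'.1 (Finset.mem_image_of_mem Prod.fst hs') h1ne
        · rw [map_zero, sub_zero]
          have h2 := hψ₂v s'.2 (Finset.mem_image_of_mem Prod.snd hs') h2ne
          show VanAt s'.2 (algebraMap k F₂ (lam s') * ((a₁ / (lam s * b)) • ψ₂))
          rw [Algebra.smul_def]
          exact (regAt_algebraMap s'.2 _).mul_vanAt ((regAt_algebraMap s'.2 _).mul_vanAt h2)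
    have htop' : (⟨_, hmem⟩ : Λ) ∈ W s := by
      rw [htop]
      exact Submodule.mem_top
    exact hψ₁n htop'
  obtain ⟨v, hv⟩ := BAD.H55.stmt_Avoid k Λ (Place k F₁ × Place k F₂) S.nodes W hprop
  have hvnv : ∀ s ∈ S.nodes, ¬ VanAt s.1 (v : F₁ × F₂).1 := fun s hs h => hv s hs h
  have hvΛ : (v : F₁ × F₂) ∈ S.Lam lam (S.push₁ G) (S.push₂ G + Δ) := v.2
  have hvR : (v : F₁ × F₂) ∈ S.Rsub x.ϑ (x.Dx H.principal + G) := by
    rw [hRL]
    exact hvΛ
  obtain ⟨h, hhL, hh1, hh2, e1, e2⟩ := S.mem_Rsub.mp hvR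
  -- values at the nodes
  have hval : ∀ s ∈ S.nodes, ((v : F₁ × F₂).1 ≠ 0 ∧ s.1.ord (v : F₁ × F₂).1 = 0) ∧
      ((v : F₁ × F₂).2 ≠ 0 ∧ s.2.ord (v : F₁ × F₂).2 = 0) := by
    intro s hs
    obtain ⟨a, ha1, ha2⟩ := hvΛ.2.2 s hs
    have ha0 : a ≠ 0 := by
      rintro rfl
      rw [map_zero, sub_zero] at ha1
      exact hvnv s hs ha1
    refine ⟨BAD.H90.ord_eq_zero_of_value ha0 ha1, ?_⟩
    obtain ⟨h3, h4⟩ := BAD.H90.ord_eq_zero_of_value ha0 ha2
    have h5 : (v : F₁ × F₂).2 ≠ 0 := right_ne_zero_of_mul h3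
    refine ⟨h5, ?_⟩
    rw [ord_algebraMap_mul s.2 (hlam0 s hs)] at h4
    exact h4
  obtain ⟨s₀, hs₀⟩ := S.nodes_nonempty
  have hGU₁ : S.c₁.IsGU h := ⟨hh1, by rw [e1]; exact (hval s₀ hs₀).1.1⟩
  have hGU₂ : S.c₂.IsGU (x.ϑ * h) := ⟨hh2, by rw [e2]; exact (hval s₀ hs₀).2.1⟩
  refine ⟨h, hGU₁, hGU₂, ?_⟩
  -- the orders on the fibres of the nodes
  have hf0 : x.f ≠ 0 := by
    intro h0
    have := x.hrd₁
    rw [h0, S.c₁.rd_zero] at this
    exact zero_ne_one this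
  have hh0 : h ≠ 0 := hGU₁.ne_zero
  have hFh₁ : x.f * h ^ n ∈ S.c₁.V := S.c₁.V.mul_mem _ _ x.hf₁ (S.c₁.V.pow_mem hh1 n)
  have hFeq : x.f * h ^ n = x.f / x.ϑ ^ n * (x.ϑ * h) ^ n := by
    have := pow_ne_zero n x.hϑ
    rw [mul_pow]
    field_simp
  have hFh₂ : x.f * h ^ n ∈ S.c₂.V := by
    rw [hFeq]
    exact S.c₂.V.mul_mem _ _ x.hf₂.1 (S.c₂.V.pow_mem hh2 n)
  have hrd₁ : S.c₁.rd (x.f * h ^ n) = (v : F₁ × F₂).1 ^ n := by
    rw [S.c₁.rd_mul x.hf₁ (S.c₁.V.pow_mem hh1 n), x.hrd₁, one_mul, S.c₁.rd_pow hh1, e1]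
  have hrd₂ : S.c₂.rd (x.f * h ^ n) = S.c₂.rd (x.f / x.ϑ ^ n) * (v : F₁ × F₂).2 ^ n := by
    rw [hFeq, S.c₂.rd_mul x.hf₂.1 (S.c₂.V.pow_mem hh2 n), S.c₂.rd_pow hh2, e2]
  have hnonneg : ∀ P : Place K F, S.IsNodeP P → 0 ≤ P.ord (x.f * h ^ n) := by
    intro P hP
    have hGP : G P = 0 := by
      by_contra hne
      exact hGood P hne hP
    have h1 := ord_ge_of_mem_L hhL hh0 P
    rw [Finsupp.add_apply, hGP, add_zero] at h1
    unfold SSD.Twist.Dx at h1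
    rw [Finsupp.mapRange_apply, dv_apply] at h1
    have h2 := Int.mul_ediv_cancel' (x.hdiv P)
    rw [P.ord_mul hf0 (pow_ne_zero n hh0), ord_pow]
    have h3 : (n : ℤ) * (P.ord x.f / (n : ℤ)) + (n : ℤ) * P.ord h ≥ 0 := by
      have hnpos : (0 : ℤ) ≤ (n : ℤ) := Int.natCast_nonneg n
      have h4 : 0 ≤ P.ord x.f / (n : ℤ) + P.ord h := by omega
      have h5 := mul_nonneg hnpos h4
      rw [mul_add] at h5
      exact h5
    omega
  intro P hP
  obtain ⟨s, hs, hsP⟩ := hP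
  have hDIn := S.DIn s hs ⟨x.f * h ^ n, hFh₁⟩ ⟨x.f * h ^ n, hFh₂⟩
    (by
      rw [← S.c₁.rd_of_mem hFh₁, hrd₁]
      exact pow_ne_zero n (hval s hs).1.1)
    (by
      rw [← S.c₂.rd_of_mem hFh₂, hrd₂]
      exact mul_ne_zero x.hf₂.2 (pow_ne_zero n (hval s hs).2.1))
    ⟨1, by rw [map_one, one_mul]⟩ (dv H.principal (x.f * h ^ n))
    (fun P' => dv_apply H.principal _ P')
  rw [← S.c₁.rd_of_mem hFh₁, ← S.c₂.rd_of_mem hFh₂, hrd₁, hrd₂, ord_pow, (hval s hs).1.2,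
    s.2.ord_mul x.hf₂.2 (pow_ne_zero n (hval s hs).2.1), ord_pow, (hval s hs).2.2, x.hγ s hs,
    mul_zero, add_zero, add_zero, mapDomain_apply_eq_sum] at hDIn
  have hzero := (Finset.sum_eq_zero_iff_of_nonneg (fun P' _ => by
    split_ifs with hr
    · rw [dv_apply]
      exact hnonneg P' ⟨s, hs, hr⟩
    · exact le_rfl)).mp hDIn
  by_cases hPs : P ∈ (dv H.principal (x.f * h ^ n)).support
  · have := hzero P hPs
    rw [if_pos hsP, dv_apply] at this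
    exact this
  · rw [Finsupp.notMem_support_iff, dv_apply] at hPs
    exact hPs

end Fermat.Agent.BADP.H51

end
end
-- ==== END Fermat.Agent.BADP.H51_MoveAny
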