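-- GENERATED (merged mirror, NOTES/tools/trim/merge3_helper67.py): 5 modules of the originals, bodies verbatim.
import Fermat.Agent.Zm.S56_L05_000
import Fermat.Agent.Zm.S56_L06_000
import Fermat.Agent.Zm.S56_L01_000
import Fermat.Agent.Zm.S35_L07_001
import Fermat.Agent.Zm.S35_L03_002
import Fermat.Agent.Zm.S35_L02_001

-- ==== BEGIN Fermat.Agent.Lib.HopfOrder
section

/-!
# Hopf orders (cluster G, S19; also usable for S32 and for elliptic curves)

Let `M` be a finite commutative group with an action `act` of `G`, and let `H` be a commutative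
`R`-algebra with a family of `R`-algebra homomorphisms `ev x : H → K` (`x : M`), "evaluation at
`x`", such that

* `ev (act σ x) f = σ • ev x f` (the elements of `H` are equivariant functions);
* `H` is a finitely generated `R`-module;
* `f = 0` as soon as `ev x f = 0` for all `x` (`H` is a ring of functions on `M`);
* `H` separates the points of `M`;
* for `f : H` the function `(x, y) ↦ f (x + y)` is a finite sum `∑ a i x * b i y`.

Then `H` is a finite flat cocommutative Hopf algebra over `R` whose `K`-points are `M`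
(`Fermat.Agent.R.H54.AbsFlat`), provided `(R, K, G)` satisfies `DescentData`, `R` is a principal
ideal domain and `G`-fixed elements of `K` which are integral over `R` come from `R`.
-/

set_option autoImplicit false
set_option linter.unusedSectionVars false
set_option linter.style.haveILetI false

open scoped TensorProduct
open WithConv

namespace Fermat.Agent.Lib.HopfOrder

open Fermat.Agent.R.H54

section Abstract

variable {R K G : Type} [CommRing R] [IsDomain R] [IsPrincipalIdealRing R] [Field K] [Algebra R K]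
  [Group G] [MulSemiringAction G K]
variable {M : Type} [AddCommGroup M] [Finite M]
variable {H : Type} [CommRing H] [Algebra R H]

/-- A Hopf order: a ring of equivariant functions on `M`, closed under "comultiplication". -/
structure IsHopfOrder (act : G → M → M) (ev : M → (H →ₐ[R] K)) : Prop where
  equivariant : ∀ (f : H) (σ : G) (x : M), ev (act σ x) f = σ • ev x f
  finite : Module.Finite R H
  faithful : ∀ f : H, (∀ x, ev x f = 0) → f = 0
  separates : ∀ x y : M, x ≠ y → ∃ f : H, ev x f ≠ ev y f
  comul : ∀ f : H, ∃ (n : ℕ) (a b : Fin n → H), ∀ x y, ev (x + y) f = ∑ i, ev x (a i) * ev y (b i)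

/-- `G`-fixed elements of `K` that are integral over `R` come from `R`. -/
def FixedIntegral (R K G : Type) [CommRing R] [Field K] [Algebra R K] [Group G]
    [MulSemiringAction G K] : Prop :=
  ∀ x : K, (∀ σ : G, σ • x = x) → IsIntegral R x → ∃ r : R, algebraMap R K r = x

variable {act : G → M → M} {ev : M → (H →ₐ[R] K)}

lemma ext_ev (hH : IsHopfOrder act ev) {f g : H} (h : ∀ x, ev x f = ev x g) : f = g := by
  rw [← sub_eq_zero]
  exact hH.faithful _ fun x => by rw [map_sub, h x, sub_self]

/-- The family of evaluations. -/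
def evFam (ev : M → (H →ₐ[R] K)) : Set (H →ₗ[R] K) :=
  Set.range fun x : M => (ev x).toLinearMap

lemma evFam_separating (hH : IsHopfOrder act ev) : Separating (evFam ev) := by
  intro q hq
  exact hH.faithful q fun x => hq _ ⟨x, rfl⟩

lemma evFam_gstable (hH : IsHopfOrder act ev) : GStable G (evFam ev) := by
  rintro σ _ ⟨x, rfl⟩
  exact ⟨(ev (act σ x)).toLinearMap, ⟨act σ x, rfl⟩, fun q => hH.equivariant q σ x⟩

lemma act_add (hH : IsHopfOrder act ev) (σ : G) (x y : M) :
    act σ (x + y) = act σ x + act σ y := by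
  by_contra hne
  obtain ⟨f, hfne⟩ := hH.separates _ _ hne
  obtain ⟨n, a, b, hab⟩ := hH.comul f
  apply hfne
  rw [hH.equivariant f, hab, hab, Finset.smul_sum]
  refine Finset.sum_congr rfl fun i _ => ?_
  rw [smul_mul', hH.equivariant, hH.equivariant]

lemma act_zero (hH : IsHopfOrder act ev) (σ : G) : act σ 0 = 0 := by
  have := act_add hH σ 0 0
  rw [add_zero] at this
  exact left_eq_add.mp this

lemma torsionFree (hD : DescentData R K G) (hH : IsHopfOrder act ev) :
    Module.IsTorsionFree R H := by
  refine ⟨fun r hr => ?_⟩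
  have hr0 : algebraMap R K r ≠ 0 := by
    intro h
    have : r = 0 := hD.inj (by rw [h, map_zero])
    exact hr.ne_zero this
  intro q₁ q₂ h
  apply ext_ev hH
  intro x
  have h' : r • q₁ = r • q₂ := h
  have := congrArg (ev x) h'
  rw [Algebra.smul_def, Algebra.smul_def, map_mul, map_mul, AlgHom.commutes] at this
  exact mul_left_cancel₀ hr0 this

lemma free_of_isHopfOrder (hD : DescentData R K G) (hH : IsHopfOrder act ev) :
    Module.Free R H := by
  haveI := hH.finite
  haveI := torsionFree hD hH
  exact Module.free_of_finite_type_torsion_free'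

/-! ### Evaluation at pairs and triples of points -/

/-- Evaluation at a pair of points. -/
noncomputable def val₂ (ev : M → (H →ₐ[R] K)) (x y : M) : H ⊗[R] H →ₐ[R] K :=
  Algebra.TensorProduct.lift (ev x) (ev y) (fun _ _ => Commute.all _ _)

@[simp] lemma val₂_tmul (x y : M) (a b : H) :
    val₂ ev x y (a ⊗ₜ[R] b) = ev x a * ev y b := by
  simp [val₂]

lemma val₂_eq_mul' (x y : M) (t : H ⊗[R] H) :
    val₂ ev x y t = LinearMap.mul' R K
      (TensorProduct.map (ev x).toLinearMap (ev y).toLinearMap t) := by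
  induction t using TensorProduct.induction_on with
  | zero => simp
  | tmul a b => simp
  | add u v hu hv => simp only [map_add, hu, hv]

/-- The family of evaluations at pairs. -/
def evFam₂ (ev : M → (H →ₐ[R] K)) : Set ((H ⊗[R] H) →ₗ[R] K) :=
  Set.range fun p : M × M => (val₂ ev p.1 p.2).toLinearMap

lemma val₂_inj (hD : DescentData R K G) (hH : IsHopfOrder act ev) (t : H ⊗[R] H)
    (ht : ∀ x y, val₂ ev x y t = 0) : t = 0 := by
  haveI := hH.finite
  haveI := free_of_isHopfOrder hD hH
  set b := Module.Free.chooseBasis R H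
  refine tensor_sep hD b b (evFam ev) (evFam ev) (evFam_gstable hH) (evFam_separating hH)
    (evFam_separating hH) t ?_
  rintro _ ⟨x, rfl⟩ _ ⟨y, rfl⟩
  rw [← val₂_eq_mul']
  exact ht x y

lemma evFam₂_separating (hD : DescentData R K G) (hH : IsHopfOrder act ev) :
    Separating (evFam₂ ev) := by
  intro q hq
  exact val₂_inj hD hH q fun x y => hq _ ⟨(x, y), rfl⟩

/-- Evaluation at a triple of points. -/
noncomputable def val₃ (ev : M → (H →ₐ[R] K)) (x y z : M) : H ⊗[R] (H ⊗[R] H) →ₐ[R] K :=
  Algebra.TensorProduct.lift (ev x) (val₂ ev y z) (fun _ _ => Commute.all _ _)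

@[simp] lemma val₃_tmul (x y z : M) (a : H) (s : H ⊗[R] H) :
    val₃ ev x y z (a ⊗ₜ[R] s) = ev x a * val₂ ev y z s := by
  simp [val₃]

lemma val₃_eq_mul' (x y z : M) (t : H ⊗[R] (H ⊗[R] H)) :
    val₃ ev x y z t = LinearMap.mul' R K
      (TensorProduct.map (ev x).toLinearMap (val₂ ev y z).toLinearMap t) := by
  induction t using TensorProduct.induction_on with
  | zero => simp
  | tmul a b => simp
  | add u v hu hv => simp only [map_add, hu, hv]

lemma val₃_inj (hD : DescentData R K G) (hH : IsHopfOrder act ev) (t : H ⊗[R] (H ⊗[R] H))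
    (ht : ∀ x y z, val₃ ev x y z t = 0) : t = 0 := by
  haveI := hH.finite
  haveI := free_of_isHopfOrder hD hH
  set b := Module.Free.chooseBasis R H
  refine tensor_sep hD b (b.tensorProduct b) (evFam ev) (evFam₂ ev) (evFam_gstable hH)
    (evFam_separating hH) (evFam₂_separating hD hH) t ?_
  rintro _ ⟨x, rfl⟩ _ ⟨p, rfl⟩
  rw [← val₃_eq_mul']
  exact ht x p.1 p.2

/-! ### Comultiplication, counit, antipode -/

/-- All evaluations at pairs. -/
noncomputable def iota₂ (ev : M → (H →ₐ[R] K)) : H ⊗[R] H →ₐ[R] (M × M → K) :=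
  AlgHom.pi fun p : M × M => val₂ ev p.1 p.2

@[simp] lemma iota₂_apply (t : H ⊗[R] H) (p : M × M) : iota₂ ev t p = val₂ ev p.1 p.2 t := rfl

lemma iota₂_injective (hD : DescentData R K G) (hH : IsHopfOrder act ev) :
    Function.Injective (iota₂ ev) := by
  rw [injective_iff_map_eq_zero]
  intro t ht
  exact val₂_inj hD hH t fun x y => congrFun ht (x, y)

/-- `f ↦ ((x, y) ↦ f (x + y))`. -/
noncomputable def addPull (ev : M → (H →ₐ[R] K)) : H →ₐ[R] (M × M → K) :=
  AlgHom.pi fun p : M × M => ev (p.1 + p.2)

@[simp] lemma addPull_apply (f : H) (p : M × M) : addPull ev f p = ev (p.1 + p.2) f := rfl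

lemma addPull_mem (hH : IsHopfOrder act ev) (f : H) : addPull ev f ∈ (iota₂ ev).range := by
  obtain ⟨n, a, b, hab⟩ := hH.comul f
  refine ⟨∑ i, a i ⊗ₜ[R] b i, ?_⟩
  funext p
  show iota₂ ev (∑ i, a i ⊗ₜ[R] b i) p = addPull ev f p
  rw [iota₂_apply, map_sum, addPull_apply, hab]
  exact Finset.sum_congr rfl fun i _ => val₂_tmul _ _ _ _

/-- The comultiplication. -/
noncomputable def comulA (hD : DescentData R K G) (hH : IsHopfOrder act ev) :
    H →ₐ[R] H ⊗[R] H :=
  ((AlgEquiv.ofInjective (iota₂ ev) (iota₂_injective hD hH)).symm : _ →ₐ[R] _).comp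
    ((addPull ev).codRestrict (iota₂ ev).range (addPull_mem hH))

lemma iota₂_comulA (hD : DescentData R K G) (hH : IsHopfOrder act ev) (f : H) :
    iota₂ ev (comulA hD hH f) = addPull ev f := by
  have := (AlgEquiv.ofInjective (iota₂ ev) (iota₂_injective hD hH)).apply_symm_apply
    ((addPull ev).codRestrict (iota₂ ev).range (addPull_mem hH) f)
  exact congrArg Subtype.val this

@[simp] lemma val₂_comulA (hD : DescentData R K G) (hH : IsHopfOrder act ev) (x y : M) (f : H) :
    val₂ ev x y (comulA hD hH f) = ev (x + y) f :=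
  congrFun (iota₂_comulA hD hH f) (x, y)

lemma ev0_mem (hH : IsHopfOrder act ev) (hint : FixedIntegral R K G) (f : H) :
    ev 0 f ∈ (Algebra.ofId R K).range := by
  haveI := hH.finite
  have h1 : IsIntegral R f := IsIntegral.of_finite R f
  have h2 : IsIntegral R (ev 0 f) := h1.map (ev 0)
  obtain ⟨r, hr⟩ := hint _ (fun σ => by rw [← hH.equivariant f, act_zero hH]) h2
  exact ⟨r, hr⟩

/-- The counit. -/
noncomputable def counitA (hD : DescentData R K G) (hH : IsHopfOrder act ev)
    (hint : FixedIntegral R K G) : H →ₐ[R] R :=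
  ((AlgEquiv.ofInjective (Algebra.ofId R K) hD.inj).symm : _ →ₐ[R] _).comp
    ((ev 0).codRestrict (Algebra.ofId R K).range (ev0_mem hH hint))

@[simp] lemma algebraMap_counitA (hD : DescentData R K G) (hH : IsHopfOrder act ev)
    (hint : FixedIntegral R K G) (f : H) :
    algebraMap R K (counitA hD hH hint f) = ev 0 f := by
  have := (AlgEquiv.ofInjective (Algebra.ofId R K) hD.inj).apply_symm_apply
    ((ev 0).codRestrict (Algebra.ofId R K).range (ev0_mem hH hint) f)
  exact congrArg Subtype.val this

lemma exists_comp_nsmul (hH : IsHopfOrder act ev) (hint : FixedIntegral R K G) (k : ℕ) :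
    ∀ f : H, ∃ g : H, ∀ x, ev x g = ev (k • x) f := by
  induction k with
  | zero =>
    intro f
    obtain ⟨r, hr⟩ := ev0_mem hH hint f
    refine ⟨algebraMap R H r, fun x => ?_⟩
    rw [zero_smul, AlgHom.commutes]
    exact hr
  | succ k ih =>
    intro f
    obtain ⟨n, a, b, hab⟩ := hH.comul f
    choose g hg using fun i => ih (a i)
    refine ⟨∑ i, g i * b i, fun x => ?_⟩
    rw [succ_nsmul, hab, map_sum]
    exact Finset.sum_congr rfl fun i _ => by rw [map_mul, hg]

lemma exists_comp_neg (hH : IsHopfOrder act ev) (hint : FixedIntegral R K G) (f : H) :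
    ∃ g : H, ∀ x, ev x g = ev (-x) f := by
  obtain ⟨g, hg⟩ := exists_comp_nsmul hH hint (Nat.card M - 1) f
  refine ⟨g, fun x => ?_⟩
  have hpos : 0 < Nat.card M := Nat.card_pos
  have h3 : (Nat.card M - 1) • x + x = 0 := by
    rw [← succ_nsmul, Nat.sub_add_cancel hpos]
    exact card_nsmul_eq_zero'
  rw [hg, eq_neg_of_add_eq_zero_left h3]

/-- The antipode, as a function. -/
noncomputable def antipodeFun (hH : IsHopfOrder act ev) (hint : FixedIntegral R K G) (f : H) : H :=
  (exists_comp_neg hH hint f).choose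

@[simp] lemma ev_antipodeFun (hH : IsHopfOrder act ev) (hint : FixedIntegral R K G) (f : H)
    (x : M) : ev x (antipodeFun hH hint f) = ev (-x) f :=
  (exists_comp_neg hH hint f).choose_spec x

/-- The antipode. -/
noncomputable def antipodeL (hH : IsHopfOrder act ev) (hint : FixedIntegral R K G) :
    H →ₗ[R] H where
  toFun := antipodeFun hH hint
  map_add' f g := ext_ev hH fun x => by simp only [ev_antipodeFun, map_add]
  map_smul' r f := ext_ev hH fun x => by
    simp only [ev_antipodeFun, map_smul, RingHom.id_apply]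

@[simp] lemma ev_antipodeL (hH : IsHopfOrder act ev) (hint : FixedIntegral R K G) (f : H)
    (x : M) : ev x (antipodeL hH hint f) = ev (-x) f :=
  ev_antipodeFun hH hint f x

/-! ### The Hopf algebra structure -/

lemma val₃_map_id_comul (hD : DescentData R K G) (hH : IsHopfOrder act ev) (x y z : M)
    (t : H ⊗[R] H) :
    val₃ ev x y z (Algebra.TensorProduct.map (AlgHom.id R H) (comulA hD hH) t) =
      val₂ ev x (y + z) t := by
  induction t using TensorProduct.induction_on with
  | zero => simp
  | tmul a b => simp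
  | add u v hu hv => simp only [map_add, hu, hv]

lemma val₃_assoc_tmul (x y z : M) (s : H ⊗[R] H) (b : H) :
    val₃ ev x y z (Algebra.TensorProduct.assoc R R R H H H (s ⊗ₜ[R] b)) =
      val₂ ev x y s * ev z b := by
  induction s using TensorProduct.induction_on with
  | zero => simp
  | tmul c d => simp [mul_assoc]
  | add u v hu hv => simp only [TensorProduct.add_tmul, map_add, hu, hv, add_mul]

lemma val₃_assoc_map_comul_id (hD : DescentData R K G) (hH : IsHopfOrder act ev) (x y z : M)
    (t : H ⊗[R] H) :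
    val₃ ev x y z (Algebra.TensorProduct.assoc R R R H H H
      (Algebra.TensorProduct.map (comulA hD hH) (AlgHom.id R H) t)) = val₂ ev (x + y) z t := by
  induction t using TensorProduct.induction_on with
  | zero => simp
  | tmul a b => simp [val₃_assoc_tmul]
  | add u v hu hv => simp only [map_add, hu, hv]

lemma ev_lid_map_counit (hD : DescentData R K G) (hH : IsHopfOrder act ev)
    (hint : FixedIntegral R K G) (x : M) (t : H ⊗[R] H) :
    ev x (Algebra.TensorProduct.lid R H
      (Algebra.TensorProduct.map (counitA hD hH hint) (AlgHom.id R H) t)) = val₂ ev 0 x t := by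
  induction t using TensorProduct.induction_on with
  | zero => simp
  | tmul a b => simp [Algebra.smul_def]
  | add u v hu hv => simp only [map_add, hu, hv]

lemma ev_rid_map_counit (hD : DescentData R K G) (hH : IsHopfOrder act ev)
    (hint : FixedIntegral R K G) (x : M) (t : H ⊗[R] H) :
    ev x (Algebra.TensorProduct.rid R R H
      (Algebra.TensorProduct.map (AlgHom.id R H) (counitA hD hH hint) t)) = val₂ ev x 0 t := by
  induction t using TensorProduct.induction_on with
  | zero => simp
  | tmul a b => simp [Algebra.smul_def, mul_comm]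
  | add u v hu hv => simp only [map_add, hu, hv]

/-- The bialgebra structure of a Hopf order. -/
@[instance_reducible] noncomputable def bialgebra (hD : DescentData R K G) (hH : IsHopfOrder act ev)
    (hint : FixedIntegral R K G) : Bialgebra R H :=
  Bialgebra.ofAlgHom (comulA hD hH) (counitA hD hH hint)
    (by
      refine AlgHom.ext fun f => sub_eq_zero.mp (val₃_inj hD hH _ fun x y z => ?_)
      rw [map_sub, sub_eq_zero]
      change val₃ ev x y z (Algebra.TensorProduct.assoc R R R H H H
          (Algebra.TensorProduct.map (comulA hD hH) (AlgHom.id R H) (comulA hD hH f))) =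
        val₃ ev x y z
          (Algebra.TensorProduct.map (AlgHom.id R H) (comulA hD hH) (comulA hD hH f))
      rw [val₃_assoc_map_comul_id, val₃_map_id_comul, val₂_comulA, val₂_comulA, add_assoc])
    (by
      refine AlgHom.ext fun f => ?_
      apply (Algebra.TensorProduct.lid R H).injective
      change Algebra.TensorProduct.lid R H (Algebra.TensorProduct.map (counitA hD hH hint)
          (AlgHom.id R H) (comulA hD hH f)) =
        Algebra.TensorProduct.lid R H ((Algebra.TensorProduct.lid R H).symm f)
      rw [AlgEquiv.apply_symm_apply]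
      refine ext_ev hH fun x => ?_
      rw [ev_lid_map_counit, val₂_comulA, zero_add])
    (by
      refine AlgHom.ext fun f => ?_
      apply (Algebra.TensorProduct.rid R R H).injective
      change Algebra.TensorProduct.rid R R H (Algebra.TensorProduct.map (AlgHom.id R H)
          (counitA hD hH hint) (comulA hD hH f)) =
        Algebra.TensorProduct.rid R R H ((Algebra.TensorProduct.rid R R H).symm f)
      rw [AlgEquiv.apply_symm_apply]
      refine ext_ev hH fun x => ?_
      rw [ev_rid_map_counit, val₂_comulA, add_zero])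

lemma ev_mul'_rTensor (hH : IsHopfOrder act ev) (hint : FixedIntegral R K G) (x : M)
    (t : H ⊗[R] H) :
    ev x (LinearMap.mul' R H ((antipodeL hH hint).rTensor H t)) = val₂ ev (-x) x t := by
  induction t using TensorProduct.induction_on with
  | zero => simp
  | tmul a b => simp
  | add u v hu hv => simp only [map_add, hu, hv]

lemma ev_mul'_lTensor (hH : IsHopfOrder act ev) (hint : FixedIntegral R K G) (x : M)
    (t : H ⊗[R] H) :
    ev x (LinearMap.mul' R H ((antipodeL hH hint).lTensor H t)) = val₂ ev x (-x) t := by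
  induction t using TensorProduct.induction_on with
  | zero => simp
  | tmul a b => simp
  | add u v hu hv => simp only [map_add, hu, hv]

/-- The Hopf algebra structure of a Hopf order. -/
@[instance_reducible] noncomputable def hopfAlgebra (hD : DescentData R K G) (hH : IsHopfOrder act ev)
    (hint : FixedIntegral R K G) : HopfAlgebra R H :=
  letI := bialgebra hD hH hint
  { antipode := antipodeL hH hint
    mul_antipode_rTensor_comul := by
      refine LinearMap.ext fun f => ext_ev hH fun x => ?_
      show ev x (LinearMap.mul' R H ((antipodeL hH hint).rTensor H (comulA hD hH f))) =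
        ev x (algebraMap R H (counitA hD hH hint f))
      rw [ev_mul'_rTensor, val₂_comulA, neg_add_cancel, AlgHom.commutes, algebraMap_counitA]
    mul_antipode_lTensor_comul := by
      refine LinearMap.ext fun f => ext_ev hH fun x => ?_
      show ev x (LinearMap.mul' R H ((antipodeL hH hint).lTensor H (comulA hD hH f))) =
        ev x (algebraMap R H (counitA hD hH hint f))
      rw [ev_mul'_lTensor, val₂_comulA, add_neg_cancel, AlgHom.commutes, algebraMap_counitA] }

lemma val₂_comm (x y : M) (t : H ⊗[R] H) :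
    val₂ ev x y (TensorProduct.comm R H H t) = val₂ ev y x t := by
  induction t using TensorProduct.induction_on with
  | zero => simp
  | tmul a b => simp [mul_comm]
  | add u v hu hv => simp only [map_add, hu, hv]

lemma isCocomm (hD : DescentData R K G) (hH : IsHopfOrder act ev)
    (hint : FixedIntegral R K G) :
    letI := hopfAlgebra hD hH hint
    Coalgebra.IsCocomm R H := by
  letI := hopfAlgebra hD hH hint
  refine ⟨LinearMap.ext fun f => sub_eq_zero.mp (val₂_inj hD hH _ fun x y => ?_)⟩
  rw [map_sub, sub_eq_zero]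
  show val₂ ev x y (TensorProduct.comm R H H (comulA hD hH f)) = val₂ ev x y (comulA hD hH f)
  rw [val₂_comm, val₂_comulA, val₂_comulA, add_comm]

/-! ### The points -/

lemma ev_injective (hH : IsHopfOrder act ev) : Function.Injective ev := by
  intro x y hxy
  by_contra hne
  obtain ⟨f, hf⟩ := hH.separates x y hne
  exact hf (by rw [hxy])

lemma ev_bijective (hD : DescentData R K G) (hH : IsHopfOrder act ev) :
    Function.Bijective ev := by
  classical
  haveI := hH.finite
  haveI := free_of_isHopfOrder hD hH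
  set b := Module.Free.chooseBasis R H with hb
  set ι₀ := Module.Free.ChooseBasisIndex R H
  have e := b.constr (M' := K) K
  haveI : Module.Finite K (H →ₗ[R] K) := Module.Finite.equiv e
  have hfr : Module.finrank K (H →ₗ[R] K) = Fintype.card ι₀ := by
    rw [← LinearEquiv.finrank_eq e, Module.finrank_fintype_fun_eq_card]
  have hli := linearIndependent_algHom_toLinearMap R H K
  haveI hfin : Finite (H →ₐ[R] K) := hli.finite
  haveI : Fintype (H →ₐ[R] K) := Fintype.ofFinite _
  haveI : Fintype M := Fintype.ofFinite _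
  have h1 : Fintype.card (H →ₐ[R] K) ≤ Fintype.card ι₀ := by
    rw [← hfr]
    exact hli.fintype_card_le_finrank
  let evl : (ι₀ → K) →ₗ[K] (M → K) :=
    { toFun := fun c x => ∑ i, c i * ev x (b i)
      map_add' := fun c c' => by
        funext x
        simp only [Pi.add_apply, add_mul, Finset.sum_add_distrib]
      map_smul' := fun a c => by
        funext x
        simp only [Pi.smul_apply, smul_eq_mul, RingHom.id_apply, Finset.mul_sum, mul_assoc] }
  have hev : Function.Injective evl := by
    rw [← LinearMap.ker_eq_bot, LinearMap.ker_eq_bot']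
    intro c hc
    apply descent_inj hD b (evFam ev) (evFam_gstable hH) (evFam_separating hH) c
    rintro _ ⟨x, rfl⟩
    exact congrFun hc x
  have h2 : Fintype.card ι₀ ≤ Fintype.card M := by
    have := LinearMap.finrank_le_finrank_of_injective hev
    rwa [Module.finrank_fintype_fun_eq_card, Module.finrank_fintype_fun_eq_card] at this
  exact (Fintype.bijective_iff_injective_and_card _).mpr
    ⟨ev_injective hH, le_antisymm (Fintype.card_le_of_injective _ (ev_injective hH))
      (h1.trans h2)⟩

lemma fixedIntegral_of_descentData (hD : DescentData R K G) : FixedIntegral R K G := by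
  intro x hx hxi
  obtain ⟨a, d, hd, hda⟩ := hD.fixed x hx
  haveI : FaithfulSMul R K := (faithfulSMul_iff_algebraMap_injective R K).mpr hD.inj
  let φ : FractionRing R →ₐ[R] K :=
    IsFractionRing.liftAlgHom (K := FractionRing R) (g := Algebra.ofId R K) hD.inj
  have hφ : Function.Injective φ := φ.toRingHom.injective
  have hd' : algebraMap R (FractionRing R) d ≠ 0 := by
    intro h
    exact hd ((IsFractionRing.injective R (FractionRing R)) (by rw [h, map_zero]))
  set y : FractionRing R := algebraMap R (FractionRing R) a / algebraMap R (FractionRing R) d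
    with hy
  have hdK : algebraMap R K d ≠ 0 := fun h => hd (hD.inj (by rw [h, map_zero]))
  have hφy : φ y = x := by
    rw [hy, map_div₀, AlgHom.commutes, AlgHom.commutes, ← hda, mul_div_cancel_left₀ _ hdK]
  have hyi : IsIntegral R y := by
    rw [← hφy] at hxi
    exact (isIntegral_algHom_iff φ hφ).mp hxi
  obtain ⟨r, hr⟩ := IsIntegrallyClosed.isIntegral_iff.mp hyi
  exact ⟨r, by rw [← hφy, ← hr, AlgHom.commutes]⟩

/-- **Hopf orders are finite flat group schemes.** -/
theorem absFlat_of_isHopfOrder (hD : DescentData R K G) (hH : IsHopfOrder act ev) :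
    AbsFlat R K G M act := by
  have hint := fixedIntegral_of_descentData hD
  letI hopf := hopfAlgebra hD hH hint
  haveI := hH.finite
  haveI := free_of_isHopfOrder hD hH
  let e₀ : M ≃ (H →ₐ[R] K) := Equiv.ofBijective ev (ev_bijective hD hH)
  let e : Pts R H K ≃ M := (WithConv.equiv (H →ₐ[R] K)).trans e₀.symm
  have he : ∀ f : Pts R H K, f.ofConv = ev (e f) := fun f =>
    (e₀.apply_symm_apply f.ofConv).symm
  refine ⟨H, inferInstance, hopf, inferInstance, inferInstance, isCocomm hD hH hint, e, ?_, ?_⟩
  · intro f g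
    apply ev_injective hH
    rw [← he]
    refine AlgHom.ext fun h => ?_
    show (f * g) h = ev (e f + e g) h
    rw [convMul_apply', ← val₂_comulA hD hH, val₂_eq_mul', ← he, ← he]
    rfl
  · intro σ f g hfg
    apply ev_injective hH
    refine AlgHom.ext fun h => ?_
    rw [hH.equivariant, ← he, ← he]
    exact hfg h

end Abstract

section Concrete

open GaloisRep

/-- **Hopf orders over `ℤ_(p)`**: the conclusion is literally the condition used in the prelude
(`GaloisRepAdic.IsFlatAt`, frozen S19). -/
theorem flat_of_isHopfOrder (p : ℕ) {M : Type} [AddCommGroup M] [Finite M]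
    {H : Type} [CommRing H] [Algebra (ratLocalizedAt p) H]
    (act : GalQ → M → M) (ev : M → (H →ₐ[ratLocalizedAt p] AlgebraicClosure ℚ))
    (hH : IsHopfOrder act ev) :
    ∃ (H' : Type) (_ : CommRing H') (_ : HopfAlgebra (ratLocalizedAt p) H'),
      Module.Finite (ratLocalizedAt p) H' ∧ Module.Flat (ratLocalizedAt p) H' ∧
      Coalgebra.IsCocomm (ratLocalizedAt p) H' ∧
      ∃ e : WithConv (H' →ₐ[ratLocalizedAt p] AlgebraicClosure ℚ) ≃ M,
        (∀ f g : WithConv (H' →ₐ[ratLocalizedAt p] AlgebraicClosure ℚ),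
          e (f * g) = e f + e g) ∧
        ∀ (σ : AlgebraicClosure ℚ ≃ₐ[ℚ] AlgebraicClosure ℚ)
          (f g : WithConv (H' →ₐ[ratLocalizedAt p] AlgebraicClosure ℚ)),
          (∀ h : H', g h = σ (f h)) → e g = act σ (e f) := by
  haveI := ratLocalizedAt_isPrincipalIdealRing p
  exact absFlat_of_isHopfOrder (descentData_rat p) hH

end Concrete

end Fermat.Agent.Lib.HopfOrder

end
-- ==== END Fermat.Agent.Lib.HopfOrder

-- ==== BEGIN Fermat.Agent.R.Flat.H54_ClosureQuot
section

/-!
# Flat closure (cluster R, helper54): `Stmt_FlatQuot`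
-/

set_option autoImplicit false
set_option linter.style.haveILetI false

namespace Fermat.Agent.R.H54

/-- **Flatness passes to Galois-equivariant quotients.** -/
theorem stmt_FlatQuot : Stmt_FlatQuot := by
  intro p hp M M' _ _ act act' π hπ heq h
  haveI : Fact p.Prime := ⟨hp⟩
  haveI := ratLocalizedAt_isPrincipalIdealRing p
  exact absFlat_quot (descentData_rat p) act act' π hπ heq h

end Fermat.Agent.R.H54

end
-- ==== END Fermat.Agent.R.Flat.H54_ClosureQuot

-- ==== BEGIN Fermat.Agent.R.Flat.H54_Pi
section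

/-!
# Flat closure (cluster R, helper54): finite products

`AbsFlat` is invariant under equivariant additive bijections, holds for the trivial group, and
is closed under finite products indexed by `Fin r`.
-/

set_option autoImplicit false
set_option linter.unusedSectionVars false
set_option linter.style.haveILetI false

open scoped TensorProduct
open WithConv

namespace Fermat.Agent.R.H54

section Pi

variable {R K G : Type} [CommRing R] [Field K] [Algebra R K] [Group G] [MulSemiringAction G K]

/-- Transport of `AbsFlat` along an equivariant additive bijection. -/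
theorem AbsFlat.of_equiv {M M' : Type} [AddCommGroup M] [AddCommGroup M']
    {act : G → M → M} {act' : G → M' → M'} (φ : M ≃+ M')
    (hφ : ∀ σ x, φ (act σ x) = act' σ (φ x)) (h : AbsFlat R K G M act) :
    AbsFlat R K G M' act' := by
  obtain ⟨H, i1, i2, h1, h2, h3, e, he_mul, he_gal⟩ := h
  refine ⟨H, i1, i2, h1, h2, h3, e.trans φ.toEquiv, ?_, ?_⟩
  · intro f g
    show φ (e (f * g)) = φ (e f) + φ (e g)
    rw [he_mul, map_add]
  · intro σ f g hfg
    show φ (e g) = act' σ (φ (e f))
    rw [he_gal σ f g hfg, hφ]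

/-- The trivial group is flat. -/
theorem absFlat_unique (M : Type) [AddCommGroup M] [Subsingleton M] (act : G → M → M) :
    AbsFlat R K G M act := by
  have hsub : Subsingleton (Pts R R K) := by
    refine ⟨fun f g => ?_⟩
    apply WithConv.ext
    apply AlgHom.ext
    intro r
    have hf := f.ofConv.commutes r
    have hg := g.ofConv.commutes r
    rw [Algebra.algebraMap_self_apply] at hf hg
    rw [hf, hg]
  refine ⟨R, inferInstance, inferInstance, inferInstance, inferInstance, inferInstance,
    ⟨fun _ => 0, fun _ => 1, fun f => Subsingleton.elim _ _, fun m => Subsingleton.elim _ _⟩,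
    ?_, ?_⟩
  · intro f g
    exact Subsingleton.elim _ _
  · intro σ f g _
    exact Subsingleton.elim _ _

/-- The additive bijection splitting off the first coordinate. -/
def piSplit {r : ℕ} (M : Fin (r + 1) → Type) [∀ i, AddCommGroup (M i)] :
    (M 0 × (∀ i : Fin r, M i.succ)) ≃+ (∀ i, M i) where
  toFun y := Fin.cons (α := M) y.1 y.2
  invFun x := (x 0, fun i => x i.succ)
  left_inv y := by
    ext
    · simp
    · simp
  right_inv x := by
    funext i
    refine Fin.cases ?_ (fun j => ?_) i
    · simp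
    · simp
  map_add' y z := by
    funext i
    refine Fin.cases ?_ (fun j => ?_) i
    · simp
    · simp

/-- **Flatness passes to finite products** (abstract form). -/
theorem absFlat_pi : ∀ (r : ℕ) (M : Fin r → Type) [∀ i, AddCommGroup (M i)]
    (act : ∀ i, G → M i → M i), (∀ i, AbsFlat R K G (M i) (act i)) →
    AbsFlat R K G (∀ i, M i) (fun σ x i => act i σ (x i))
  | 0, M, _, act, _ => absFlat_unique _ _
  | r + 1, M, _, act, h => by
    have ih := absFlat_pi r (fun i => M i.succ) (fun i => act i.succ) (fun i => h i.succ)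
    have hp := absFlat_prod (act 0) _ (h 0) ih
    refine AbsFlat.of_equiv (piSplit M) ?_ hp
    intro σ y
    funext i
    refine Fin.cases ?_ (fun j => ?_) i
    · simp [piSplit]
    · simp [piSplit]

end Pi

end Fermat.Agent.R.H54

end
-- ==== END Fermat.Agent.R.Flat.H54_Pi

-- ==== BEGIN Fermat.Agent.R.H2_SepTc
section

/-!
# Cluster R (helper2): `Stmt_HeckeReduced → Stmt_SepTc`

Finitely many points of the local Hecke algebra `T` of a datum (normalisations of `T ⧸ 𝔮`, `𝔮`
the minimal primes) separate `T` `p`-adically with a uniform loss `c` (noetherian argument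
`exists_pow_smul_bound` of `H2_SepCore.lean`).
-/

set_option autoImplicit false
set_option linter.style.haveILetI false
set_option linter.unusedSectionVars false
set_option linter.dupNamespace false

open IsLocalRing

namespace Fermat.Agent.R.H2

/-- A point of `T` which is an `O`-algebra homomorphism to a finite `O`-algebra, with kernel
contained in `𝔮`. -/
structure AlgTPoint (O : Type) [CommRing O] (T : Type) [CommRing T] [IsLocalRing T]
    [Algebra O T] (𝔮 : Ideal T) : Type 1 where
  /-- the coefficient ring -/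
  R : Type
  [instCommRing : CommRing R]
  [instIsDomain : IsDomain R]
  [instDVR : IsDiscreteValuationRing R]
  [instComplete : IsAdicComplete (IsLocalRing.maximalIdeal R) R]
  [instFiniteResidue : Finite (IsLocalRing.ResidueField R)]
  [instCharZero : CharZero R]
  [instAlgebra : Algebra O R]
  [instFinite : Module.Finite O R]
  /-- the point -/
  ψ : T →+* R
  isLocalHom : IsLocalHom ψ
  hψO : ∀ a : O, ψ (algebraMap O T a) = algebraMap O R a
  hker : ∀ t : T, ψ t = 0 → t ∈ 𝔮

attribute [instance] AlgTPoint.instCommRing AlgTPoint.instIsDomain AlgTPoint.instDVR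
  AlgTPoint.instComplete AlgTPoint.instFiniteResidue AlgTPoint.instCharZero
  AlgTPoint.instAlgebra AlgTPoint.instFinite

section core

variable (O : Type) [CommRing O] [IsDomain O] [IsDiscreteValuationRing O]
  [IsAdicComplete (maximalIdeal O) O] [Finite (ResidueField O)] [CharZero O]
  (T : Type) [CommRing T] [Algebra O T] [Module.Finite O T] [Module.Free O T] [IsLocalRing T]

/-- The normalisation of `T ⧸ 𝔮` as a point of `T`. -/
theorem nonempty_algTPoint (𝔮 : Ideal T) (h𝔮min : 𝔮 ∈ minimalPrimes T) :
    Nonempty (AlgTPoint O T 𝔮) := by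
  haveI h𝔮prime : 𝔮.IsPrime := h𝔮min.1.1
  have hinj : Function.Injective (algebraMap O (T ⧸ 𝔮)) :=
    injective_algebraMap_quotient_minimalPrime' O T 𝔮 h𝔮min
  haveI : FaithfulSMul O (T ⧸ 𝔮) := (faithfulSMul_iff_algebraMap_injective O (T ⧸ 𝔮)).2 hinj
  obtain ⟨O', iCR, iD, iDVR, iAC, iFin, iCZ, iAlg, iMF, iLH, j, -, hjinj, hjO, hjmax⟩ :=
    exists_dvr_of_finite_domain O (T ⧸ 𝔮)
  refine ⟨{ R := O', ψ := j.comp (Ideal.Quotient.mk 𝔮), isLocalHom := ?_, hψO := ?_,
            hker := ?_ }⟩
  · obtain ⟨𝔫, h𝔫⟩ := Ideal.exists_maximal (T ⧸ 𝔮)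
    have h1 : (maximalIdeal O').comap j = 𝔫 := hjmax 𝔫 h𝔫
    have h2 : (𝔫.comap (Ideal.Quotient.mk 𝔮)).IsMaximal :=
      Ideal.comap_isMaximal_of_surjective _ Ideal.Quotient.mk_surjective
    have h3 : 𝔫.comap (Ideal.Quotient.mk 𝔮) = maximalIdeal T := IsLocalRing.eq_maximalIdeal h2
    constructor
    intro x hx
    by_contra hxu
    have hxm : x ∈ maximalIdeal T := (IsLocalRing.mem_maximalIdeal x).2 hxu
    rw [← h3, Ideal.mem_comap, ← h1, Ideal.mem_comap] at hxm
    exact (IsLocalRing.mem_maximalIdeal _).1 hxm hx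
  · intro a
    rw [RingHom.comp_apply]
    exact hjO a
  · intro t h0
    rw [RingHom.comp_apply] at h0
    have h1 : Ideal.Quotient.mk 𝔮 t = 0 := hjinj (h0.trans (map_zero j).symm)
    exact Ideal.Quotient.eq_zero_iff_mem.1 h1

variable [IsReduced T]

include O in
/-- **Core of `Stmt_SepTc`.** -/
theorem exists_sepT (π : O) :
    ∃ (r : ℕ) (P : Fin r → TPoint T) (c : ℕ),
      ∀ (n : ℕ) (t : T),
        (∀ i, (P i).ψ t ∈ Ideal.span {((P i).ψ (algebraMap O T π)) ^ (n + c)}) →
          t ∈ Ideal.span {(algebraMap O T π) ^ n} := by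
  classical
  haveI : IsNoetherianRing T := IsNoetherianRing.of_finite O T
  have hfin : (minimalPrimes T).Finite := minimalPrimes.finite_of_isNoetherianRing _
  haveI : Finite ↥(minimalPrimes T) := hfin.to_subtype
  obtain ⟨r, ⟨e⟩⟩ := Finite.exists_equiv_fin ↥(minimalPrimes T)
  let D (i : Fin r) : AlgTPoint O T ((e.symm i : ↥(minimalPrimes T)) : Ideal T) :=
    Classical.choice (nonempty_algTPoint O T _ (e.symm i).2)
  let F (i : Fin r) : T →ₐ[O] (D i).R :=
    { toRingHom := (D i).ψ
      commutes' := fun a => (D i).hψO a }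
  let Χ : T →ₗ[O] (∀ i : Fin r, (D i).R) := LinearMap.pi fun i => (F i).toLinearMap
  have hΧ : Function.Injective Χ := by
    rw [injective_iff_map_eq_zero]
    intro x hx
    have hmem : ∀ 𝔮 ∈ minimalPrimes T, x ∈ 𝔮 := by
      intro 𝔮 h𝔮
      have h1 := congrFun hx (e ⟨𝔮, h𝔮⟩)
      have h2 : (D (e ⟨𝔮, h𝔮⟩)).ψ x = 0 := h1
      have h3 := (D (e ⟨𝔮, h𝔮⟩)).hker x h2
      rw [Equiv.symm_apply_apply] at h3
      exact h3
    have h4 : x ∈ sInf (minimalPrimes T) := by
      rw [Submodule.mem_sInf]
      exact hmem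
    have h5 : sInf (minimalPrimes T) = nilradical T := by
      rw [minimalPrimes, Ideal.sInf_minimalPrimes]; rfl
    rw [h5, nilradical_eq_zero] at h4
    exact h4
  haveI : IsNoetherian O (∀ i : Fin r, (D i).R) :=
    isNoetherian_of_isNoetherianRing_of_finite O _
  obtain ⟨c, hc⟩ := exists_pow_smul_bound π Χ hΧ
  let P (i : Fin r) : TPoint T :=
    { O := (D i).R, ψ := (D i).ψ, isLocalHom := (D i).isLocalHom }
  refine ⟨r, P, c, fun n t hy => ?_⟩
  choose w hw using fun i => Ideal.mem_span_singleton'.mp (hy i)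
  have hX : Χ t = π ^ (n + c) • w := by
    funext i
    show (D i).ψ t = (π ^ (n + c) • w) i
    have := hw i
    rw [Pi.smul_apply, Algebra.smul_def, map_pow, ← (D i).hψO π, ← this, mul_comm]
  obtain ⟨x', hx'⟩ := hc n t ⟨w, hX⟩
  rw [Ideal.mem_span_singleton']
  refine ⟨x', ?_⟩
  rw [hx', Algebra.smul_def, map_pow, mul_comm]

end core

/-- **`Stmt_SepTc`** from the reducedness of the Hecke algebra (L3a). -/
theorem stmt_SepTc (hred : Fermat.Agent.R.Stmt_HeckeReduced) : Fermat.Agent.R.Stmt_SepTc := by
  intro N _ S 𝒪 _ _ _ _ _ _ θ T _ _ _ _ _ _ _ _ hNS H p _ _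
  haveI : IsReduced T :=
    isReduced_of_heckeGaloisRepDatum N (↑S : Set ℕ) 𝒪 θ T (hred N (↑S : Set ℕ) hNS) H
  obtain ⟨r, P, c, h⟩ := exists_sepT 𝒪 T (p : 𝒪)
  refine ⟨r, P, c, fun n t ht => ?_⟩
  have h1 := h n t (fun i => by
    have := ht i
    rwa [map_natCast, map_natCast])
  rwa [map_natCast] at h1

end Fermat.Agent.R.H2

end
-- ==== END Fermat.Agent.R.H2_SepTc

-- ==== BEGIN Fermat.Agent.R.H86_Point
section

/-!
# Cluster R: points of the local Hecke algebra (helper86)

General lemmas on the base change `ρ.baseChangeAlong ψ` of a representation along a local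
homomorphism `ψ : A → B` (in the wirings of S32/S33: a point `T → 𝒪'` of the local Hecke
algebra):

* `hasFrobCharpoly_baseChangeAlong` : the Frobenius characteristic polynomials are preserved;
* `residual_absIrr_iff`, `residual_absIrr_baseChangeAlong` : residual absolute irreducibility
  is preserved (Burnside: four matrices with invertible `4 × 4` determinant);
* `ResOrdAt`, `exists_resOrdAt`, `resOrdLine_of_resOrdAt`,
  `residual_isOrdinaryAt_baseChangeAlong` : residual ordinarity in coordinates, preserved by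
  base change;
* `exists_inertia_notMem` : inertia at the odd prime `p` acts non-trivially modulo the maximal
  ideal (the determinant is the cyclotomic character).
-/

set_option autoImplicit false
set_option linter.style.haveILetI false

open Polynomial IsLocalRing
open scoped TensorProduct

namespace Fermat.Agent.R.H86

open Fermat.Agent.S53.Schur

section BaseChange

variable {A : Type} [CommRing A] [IsLocalRing A] {B : Type} [CommRing B] [IsLocalRing B]

/-- The action of the base change on pure tensors. -/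
lemma baseChangeAlong_ρ_tmul (ψ : A →+* B) (hψ : IsLocalHom ψ) (ρ : GaloisRepAdic A)
    (σ : AlgebraicClosure ℚ ≃ₐ[ℚ] AlgebraicClosure ℚ) (c : B) (v : ρ.V) :
    letI : Algebra A B := ψ.toAlgebra
    (ρ.baseChangeAlong ψ hψ).ρ σ (c ⊗ₜ[A] v : B ⊗[A] ρ.V) = c ⊗ₜ[A] (ρ.ρ σ v) := by
  letI : Algebra A B := ψ.toAlgebra
  exact LinearMap.baseChange_tmul _ _ _

/-- Characteristic polynomials under base change. -/
lemma baseChangeAlong_charpoly (ψ : A →+* B) (hψ : IsLocalHom ψ) (ρ : GaloisRepAdic A)
    (σ : AlgebraicClosure ℚ ≃ₐ[ℚ] AlgebraicClosure ℚ) :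
    LinearMap.charpoly ((ρ.baseChangeAlong ψ hψ).ρ σ) = (LinearMap.charpoly (ρ.ρ σ)).map ψ := by
  letI : Algebra A B := ψ.toAlgebra
  exact LinearMap.charpoly_baseChange (A := B) (ρ.ρ σ)

/-- Base change preserves the Frobenius characteristic polynomials. -/
lemma hasFrobCharpoly_baseChangeAlong {N : ℕ} [NeZero N] {S : Finset ℕ}
    (ψ : A →+* B) (hψ : IsLocalHom ψ)
    (π : CuspForm.heckeAlgebra N 2 (↑S : Set ℕ) →+* A) (ρ : GaloisRepAdic A)
    (h : HasFrobCharpoly π ρ) : HasFrobCharpoly (ψ.comp π) (ρ.baseChangeAlong ψ hψ) := by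
  intro ℓ hℓ hℓN hℓS B' hB' σ hσ
  rw [baseChangeAlong_charpoly, h ℓ hℓ hℓN hℓS B' hB' σ hσ]
  simp [Polynomial.map_sub, Polynomial.map_add, Polynomial.map_mul, Polynomial.map_pow]

end BaseChange

section AbsIrr

/-- A residual representation for which four group elements have linearly independent
matrices is absolutely irreducible. -/
theorem absIrr_of_det_ne_zero {k : Type} [Field k] (ρbar : ResidualGaloisRep k)
    (b : Module.Basis (Fin 2) k ρbar.V)
    (g : Fin 2 × Fin 2 → (AlgebraicClosure ℚ ≃ₐ[ℚ] AlgebraicClosure ℚ))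
    (hg : (flat fun p => LinearMap.toMatrix b b (ρbar.ρ (g p))).det ≠ 0) :
    ρbar.IsAbsolutelyIrreducible := by
  classical
  intro W hW
  set K := AlgebraicClosure k
  let bK : Module.Basis (Fin 2) K (K ⊗[k] ρbar.V) := Algebra.TensorProduct.basis K b
  have hmat : ∀ σ, LinearMap.toMatrix bK bK ((ρbar.baseChange K).ρ σ)
      = (LinearMap.toMatrix b b (ρbar.ρ σ)).map (algebraMap k K) := fun σ =>
    LinearMap.toMatrix_baseChange K (ρbar.ρ σ) b b
  have hdet : (flat fun p => LinearMap.toMatrix bK bK ((ρbar.baseChange K).ρ (g p))).det ≠ 0 := by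
    have : (fun p => LinearMap.toMatrix bK bK ((ρbar.baseChange K).ρ (g p)))
        = fun p => (LinearMap.toMatrix b b (ρbar.ρ (g p))).map (algebraMap k K) := by
      funext p
      rw [hmat]
    rw [this, det_flat_map]
    exact fun h0 => hg ((map_eq_zero_iff _ (algebraMap k K).injective).1 h0)
  -- every endomorphism is a combination of the `ρ (g p)`
  have hspan : ∀ f : Module.End K (K ⊗[k] ρbar.V), ∀ x ∈ W, f x ∈ W := by
    intro f x hx
    obtain ⟨c, hc⟩ := exists_eq_sum_of_isUnit_det _ (isUnit_iff_ne_zero.2 hdet)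
      (LinearMap.toMatrix bK bK f)
    have hf : f = ∑ p, c p • (ρbar.baseChange K).ρ (g p) := by
      apply (LinearMap.toMatrix bK bK).injective
      rw [hc, map_sum]
      simp only [map_smul]
    rw [hf, LinearMap.sum_apply]
    exact W.sum_mem fun p _ => by
      rw [LinearMap.smul_apply]
      exact W.smul_mem _ (hW (g p) x hx)
  by_cases hbot : W = ⊥
  · exact Or.inl hbot
  · right
    obtain ⟨x, hxW, hx0⟩ := (Submodule.ne_bot_iff W).1 hbot
    rw [eq_top_iff]
    intro y _
    obtain ⟨φ, hφ⟩ : ∃ φ : Module.Dual K (K ⊗[k] ρbar.V), φ x = 1 := by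
      have hne : bK.repr x ≠ 0 := fun h0 => hx0 (by simpa using h0)
      obtain ⟨i, hi⟩ := Finsupp.ne_iff.1 hne
      refine ⟨(bK.repr x i)⁻¹ • bK.coord i, ?_⟩
      rw [LinearMap.smul_apply, Module.Basis.coord_apply, smul_eq_mul]
      exact inv_mul_cancel₀ hi
    have := hspan (φ.smulRight y) x hxW
    rwa [LinearMap.smulRight_apply, hφ, one_smul] at this

variable {A : Type} [CommRing A] [IsLocalRing A] {B : Type} [CommRing B] [IsLocalRing B]

/-- Residual absolute irreducibility in terms of matrices over the local ring. -/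
theorem residual_absIrr_iff (ρ : GaloisRepAdic A) (b : Module.Basis (Fin 2) A ρ.V) :
    ρ.residual.IsAbsolutelyIrreducible ↔
      ∃ g : Fin 2 × Fin 2 → (AlgebraicClosure ℚ ≃ₐ[ℚ] AlgebraicClosure ℚ),
        IsUnit (flat fun p => LinearMap.toMatrix b b (ρ.ρ (g p))).det := by
  classical
  let bbar : Module.Basis (Fin 2) (ResidueField A) ρ.residual.V :=
    Algebra.TensorProduct.basis (ResidueField A) b
  have hmat : ∀ σ, LinearMap.toMatrix bbar bbar (ρ.residual.ρ σ)
      = (LinearMap.toMatrix b b (ρ.ρ σ)).map (algebraMap A (ResidueField A)) := fun σ =>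
    LinearMap.toMatrix_baseChange (ResidueField A) (ρ.ρ σ) b b
  have hfun : ∀ g : Fin 2 × Fin 2 → (AlgebraicClosure ℚ ≃ₐ[ℚ] AlgebraicClosure ℚ),
      (flat fun p => LinearMap.toMatrix bbar bbar (ρ.residual.ρ (g p))).det
        = residue A (flat fun p => LinearMap.toMatrix b b (ρ.ρ (g p))).det := by
    intro g
    rw [← det_flat_map]
    congr 2
    funext p
    rw [hmat]
    rfl
  constructor
  · intro hirr
    obtain ⟨g, hg⟩ := exists_det_ne_zero ρ.residual hirr bbar
    refine ⟨g, ?_⟩
    rw [hfun] at hg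
    by_contra hnu
    exact hg ((residue_eq_zero_iff _).2 ((mem_maximalIdeal _).2 hnu))
  · rintro ⟨g, hg⟩
    refine absIrr_of_det_ne_zero ρ.residual bbar g ?_
    rw [hfun]
    exact fun h0 => ((mem_maximalIdeal _).1 ((residue_eq_zero_iff _).1 h0)) hg

/-- Residual absolute irreducibility is preserved by base change along a local homomorphism. -/
theorem residual_absIrr_baseChangeAlong (ψ : A →+* B) (hψ : IsLocalHom ψ) (ρ : GaloisRepAdic A)
    (h : ρ.residual.IsAbsolutelyIrreducible) :
    (ρ.baseChangeAlong ψ hψ).residual.IsAbsolutelyIrreducible := by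
  classical
  letI : Algebra A B := ψ.toAlgebra
  let b : Module.Basis (Fin 2) A ρ.V :=
    Module.finBasisOfFinrankEq A ρ.V ρ.finrank_eq
  let b' : Module.Basis (Fin 2) B (ρ.baseChangeAlong ψ hψ).V :=
    Algebra.TensorProduct.basis B b
  obtain ⟨g, hg⟩ := (residual_absIrr_iff ρ b).1 h
  refine (residual_absIrr_iff (ρ.baseChangeAlong ψ hψ) b').2 ⟨g, ?_⟩
  have hmat : ∀ σ, LinearMap.toMatrix b' b' ((ρ.baseChangeAlong ψ hψ).ρ σ)
      = (LinearMap.toMatrix b b (ρ.ρ σ)).map ψ := fun σ =>
    LinearMap.toMatrix_baseChange B (ρ.ρ σ) b b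
  have : (fun p => LinearMap.toMatrix b' b' ((ρ.baseChangeAlong ψ hψ).ρ (g p)))
      = fun p => (LinearMap.toMatrix b b (ρ.ρ (g p))).map ψ := by
    funext p
    rw [hmat]
  rw [this, det_flat_map]
  exact hg.map ψ

end AbsIrr

section ResOrd

variable {A : Type} [CommRing A] [IsLocalRing A] {B : Type} [CommRing B] [IsLocalRing B]

/-- Membership in the line spanned by the first vector of a basis indexed by `Fin 2`. -/
lemma mem_span_basis_zero_iff {R M : Type*} [CommRing R] [AddCommGroup M] [Module R M]
    (b : Module.Basis (Fin 2) R M) (x : M) :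
    x ∈ Submodule.span R {b 0} ↔ b.repr x 1 = 0 := by
  constructor
  · intro hx
    obtain ⟨c, rfl⟩ := Submodule.mem_span_singleton.1 hx
    simp
  · intro hx
    have h := b.sum_repr x
    rw [Fin.sum_univ_two, hx, zero_smul, add_zero] at h
    rw [← h]
    exact Submodule.smul_mem _ _ (Submodule.mem_span_singleton_self _)

/-- Coordinate form of residual ordinarity at `P` with respect to a basis `b`: modulo the
maximal ideal, the line spanned by `b 0` is stable under the decomposition group and contains
`ρ σ v - v` for `σ` in the inertia group. -/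
def ResOrdAt {V : Type} [AddCommGroup V] [Module A V]
    (r : (AlgebraicClosure ℚ ≃ₐ[ℚ] AlgebraicClosure ℚ) → Module.End A V)
    (P : ValuationSubring (AlgebraicClosure ℚ))
    (b : Module.Basis (Fin 2) A V) : Prop :=
  (∀ τ ∈ P.decompositionSubgroup ℚ, b.repr (r τ (b 0)) 1 ∈ maximalIdeal A) ∧
  (∀ σ ∈ P.inertiaSubgroupIn ℚ, ∀ v : V, b.repr (r σ v - v) 1 ∈ maximalIdeal A)

/-- Residual ordinarity at `P`, spelled out on `k ⊗ V`. -/
def ResOrdLine {V : Type} [AddCommGroup V] [Module A V]
    (r : (AlgebraicClosure ℚ ≃ₐ[ℚ] AlgebraicClosure ℚ) → Module.End A V)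
    (P : ValuationSubring (AlgebraicClosure ℚ)) : Prop :=
  ∃ L : Submodule (ResidueField A) (ResidueField A ⊗[A] V),
    (∃ b' : Module.Basis (Fin 2) (ResidueField A) (ResidueField A ⊗[A] V),
      L = (ResidueField A) ∙ b' 0) ∧
    (∀ σ ∈ P.decompositionSubgroup ℚ, ∀ v ∈ L, (r σ).baseChange (ResidueField A) v ∈ L) ∧
    (∀ σ ∈ P.inertiaSubgroupIn ℚ, ∀ v : ResidueField A ⊗[A] V,
      (r σ).baseChange (ResidueField A) v - v ∈ L)

lemma residual_isOrdinaryAt_iff (ρ : GaloisRepAdic A) (p : ℕ) :
    (GaloisRepAdic.ofResidualGaloisRep ρ.residual).IsOrdinaryAt p ↔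
      ∀ P : ValuationSubring (AlgebraicClosure ℚ), P.LiesOverPrime p →
        ResOrdLine (fun σ => ρ.ρ σ) P :=
  Iff.rfl

/-- coordinates of `1 ⊗ v` in the residual representation -/
lemma residual_repr_tmul {V : Type} [AddCommGroup V] [Module A V]
    (b : Module.Basis (Fin 2) A V) (v : V) (i : Fin 2) :
    (Algebra.TensorProduct.basis (ResidueField A) b).repr
      ((1 : ResidueField A) ⊗ₜ[A] v) i = residue A (b.repr v i) := by
  rw [Algebra.TensorProduct.basis_repr_tmul, one_smul, Finsupp.mapRange_apply]
  rfl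

/-- The coordinate form implies residual ordinarity at `P`. -/
lemma resOrdLine_of_resOrdAt {V : Type} [AddCommGroup V] [Module A V]
    (r : (AlgebraicClosure ℚ ≃ₐ[ℚ] AlgebraicClosure ℚ) → Module.End A V)
    (P : ValuationSubring (AlgebraicClosure ℚ)) (b : Module.Basis (Fin 2) A V)
    (h : ResOrdAt r P b) : ResOrdLine r P := by
  classical
  let bbar : Module.Basis (Fin 2) (ResidueField A) (ResidueField A ⊗[A] V) :=
    Algebra.TensorProduct.basis (ResidueField A) b
  have hb : ∀ i, bbar i = (1 : ResidueField A) ⊗ₜ[A] b i := fun i =>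
    Algebra.TensorProduct.basis_apply _ _
  refine ⟨(ResidueField A) ∙ bbar 0, ⟨bbar, rfl⟩, ?_, ?_⟩
  · intro τ hτ v hv
    obtain ⟨c, rfl⟩ := Submodule.mem_span_singleton.1 hv
    rw [map_smul]
    refine Submodule.smul_mem _ _ ?_
    rw [mem_span_basis_zero_iff, hb, LinearMap.baseChange_tmul, residual_repr_tmul]
    exact (residue_eq_zero_iff _).2 (h.1 τ hτ)
  · intro σ hσ v
    rw [mem_span_basis_zero_iff]
    have hlin : (bbar.coord 1) ∘ₗ ((r σ).baseChange (ResidueField A) - 1) = 0 := by
      apply bbar.ext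
      intro i
      rw [LinearMap.comp_apply, LinearMap.sub_apply, Module.End.one_apply, hb,
        LinearMap.baseChange_tmul, ← TensorProduct.tmul_sub, Module.Basis.coord_apply,
        residual_repr_tmul, LinearMap.zero_apply]
      exact (residue_eq_zero_iff _).2 (h.2 σ hσ (b i))
    have := LinearMap.congr_fun hlin v
    simpa using this

/-- Residual ordinarity at `P` gives the coordinate form for a suitable basis. -/
lemma exists_resOrdAt {V : Type} [AddCommGroup V] [Module A V] [Module.Free A V]
    [Module.Finite A V]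
    (r : (AlgebraicClosure ℚ ≃ₐ[ℚ] AlgebraicClosure ℚ) → Module.End A V)
    (P : ValuationSubring (AlgebraicClosure ℚ)) (h : ResOrdLine r P) :
    ∃ b : Module.Basis (Fin 2) A V, ResOrdAt r P b := by
  classical
  obtain ⟨L, ⟨bbar, rfl⟩, hD, hI⟩ := h
  have hsurj : Function.Surjective (TensorProduct.mk A (ResidueField A) V 1) :=
    TensorProduct.mk_surjective A V (ResidueField A) Ideal.Quotient.mk_surjective
  choose e he using fun i => hsurj (bbar i)
  have he' : ∀ i, (1 : ResidueField A) ⊗ₜ[A] e i = bbar i := he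
  have hcomp : (TensorProduct.mk A (ResidueField A) V 1) ∘ e = bbar := funext he
  have hli : LinearIndependent A e := by
    apply Module.IsLocalRing.linearIndependent_of_flat
    rw [hcomp]
    exact bbar.linearIndependent
  have hsp : Submodule.span A (Set.range e) = ⊤ :=
    IsLocalRing.span_eq_top_of_tmul_eq_basis e bbar he'
  let b : Module.Basis (Fin 2) A V := Module.Basis.mk hli hsp.ge
  have hbe : ∀ i, b i = e i := fun i => Module.Basis.mk_apply hli hsp.ge i
  have hbb : Algebra.TensorProduct.basis (ResidueField A) b = bbar := by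
    apply Module.Basis.eq_of_apply_eq
    intro i
    rw [Algebra.TensorProduct.basis_apply, hbe, he']
  refine ⟨b, ?_, ?_⟩
  · intro τ hτ
    have h1 := hD τ hτ (bbar 0) (Submodule.mem_span_singleton_self _)
    rw [mem_span_basis_zero_iff, ← he', LinearMap.baseChange_tmul, ← hbb,
      residual_repr_tmul] at h1
    rw [hbe]
    exact (residue_eq_zero_iff _).1 h1
  · intro σ hσ v
    have h1 := hI σ hσ ((1 : ResidueField A) ⊗ₜ[A] v)
    rw [mem_span_basis_zero_iff, LinearMap.baseChange_tmul, ← TensorProduct.tmul_sub, ← hbb,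
      residual_repr_tmul] at h1
    exact (residue_eq_zero_iff _).1 h1

/-- The coordinate form is preserved by base change. -/
lemma resOrdAt_baseChange [Algebra A B] [IsLocalHom (algebraMap A B)]
    {V : Type} [AddCommGroup V] [Module A V]
    (r : (AlgebraicClosure ℚ ≃ₐ[ℚ] AlgebraicClosure ℚ) → Module.End A V)
    (P : ValuationSubring (AlgebraicClosure ℚ)) (b : Module.Basis (Fin 2) A V)
    (h : ResOrdAt r P b) :
    ResOrdAt (fun σ => (r σ).baseChange B) P (Algebra.TensorProduct.basis B b) := by
  set ψ := algebraMap A B with hψdef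
  have hmem : ∀ a ∈ maximalIdeal A, ψ a ∈ maximalIdeal B := fun a ha =>
    (mem_maximalIdeal _).2 (map_nonunit ψ a ((mem_maximalIdeal _).1 ha))
  have hrepr : ∀ (c : B) (v : V) (i : Fin 2),
      (Algebra.TensorProduct.basis B b).repr (c ⊗ₜ[A] v) i = c * ψ (b.repr v i) := by
    intro c v i
    rw [Algebra.TensorProduct.basis_repr_tmul, Finsupp.smul_apply, Finsupp.mapRange_apply,
      smul_eq_mul]
  constructor
  · intro τ hτ
    rw [Algebra.TensorProduct.basis_apply]
    show (Algebra.TensorProduct.basis B b).repr ((r τ).baseChange B (1 ⊗ₜ[A] b 0)) 1 ∈ _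
    rw [LinearMap.baseChange_tmul, hrepr, one_mul]
    exact hmem _ (h.1 τ hτ)
  · intro σ hσ v
    show (Algebra.TensorProduct.basis B b).repr ((r σ).baseChange B v - v) 1 ∈ _
    induction v using TensorProduct.induction_on with
    | zero => simp
    | tmul c v =>
      rw [LinearMap.baseChange_tmul, ← TensorProduct.tmul_sub, hrepr]
      exact Ideal.mul_mem_left _ _ (hmem _ (h.2 σ hσ v))
    | add x y hx hy =>
      rw [map_add, add_sub_add_comm, map_add, Finsupp.add_apply]
      exact Ideal.add_mem _ hx hy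

/-- Residual ordinarity is preserved by base change along a local homomorphism. -/
theorem residual_isOrdinaryAt_baseChangeAlong (ψ : A →+* B) (hψ : IsLocalHom ψ)
    (ρ : GaloisRepAdic A) (p : ℕ)
    (h : (GaloisRepAdic.ofResidualGaloisRep ρ.residual).IsOrdinaryAt p) :
    (GaloisRepAdic.ofResidualGaloisRep (ρ.baseChangeAlong ψ hψ).residual).IsOrdinaryAt p := by
  rw [residual_isOrdinaryAt_iff] at h ⊢
  intro P hP
  obtain ⟨b, hb⟩ := exists_resOrdAt _ P (h P hP)
  letI : Algebra A B := ψ.toAlgebra
  haveI : IsLocalHom (algebraMap A B) := hψ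
  exact resOrdLine_of_resOrdAt _ P _ (resOrdAt_baseChange (B := B) _ P b hb)

end ResOrd

section Inertia

variable {N : ℕ} [NeZero N] {S : Finset ℕ}

/-- **Inertia at `p` acts non-trivially modulo the maximal ideal** on a representation with
Frobenius characteristic polynomials `X ^ 2 - π (T_ℓ) X + ℓ`: the determinant is the cyclotomic
character, which is non-trivial on inertia at the odd prime `p`. -/
theorem exists_inertia_notMem (hFD : Stmt_FD) (hCyc : Stmt_CycInertia) (hFrob : Stmt_FrobCyc)
    {p : ℕ} (hp : p.Prime) (hp2 : p ≠ 2) (hpS : p ∈ S)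
    (hNS : ∀ q : ℕ, q.Prime → q ∣ N → q ∈ S)
    {T : Type} [CommRing T] [IsLocalRing T] (hpT : (p : T) ∈ maximalIdeal T)
    (π : CuspForm.heckeAlgebra N 2 (↑S : Set ℕ) →+* T) (ρ : GaloisRepAdic T)
    (hρ : HasFrobCharpoly π ρ)
    (P : ValuationSubring (AlgebraicClosure ℚ)) (hP : P.LiesOverPrime p) :
    ∃ σ₀ ∈ P.inertiaSubgroupIn ℚ, ∃ v₀ : ρ.V,
      ρ.ρ σ₀ v₀ - v₀ ∉ maximalIdeal T • (⊤ : Submodule T ρ.V) := by
  classical
  obtain ⟨σ₀, hσ₀, ζ, hζ, hne⟩ := hCyc p hp hp2 P hP
  refine ⟨σ₀, hσ₀, ?_⟩
  by_contra hcon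
  rw [not_exists] at hcon
  have hall : ∀ v : ρ.V, ρ.ρ σ₀ v - v ∈ maximalIdeal T • (⊤ : Submodule T ρ.V) := fun v => by
    have := hcon v
    rwa [not_not] at this
  obtain ⟨L₁, hL₁, hcong⟩ := exists_field_congr ρ 1
  haveI : Algebra.IsAlgebraic ℚ (AlgebraicClosure ℚ) := AlgebraicClosure.isAlgebraic ℚ
  have hζalg : IsIntegral ℚ ζ := (Algebra.IsAlgebraic.isAlgebraic ζ).isIntegral
  let L₂ : IntermediateField ℚ (AlgebraicClosure ℚ) := IntermediateField.adjoin ℚ {ζ}
  haveI : FiniteDimensional ℚ L₂ := IntermediateField.adjoin.finiteDimensional hζalg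
  haveI : FiniteDimensional ℚ L₁ := hL₁
  have hL : FiniteDimensional ℚ (L₁ ⊔ L₂ : IntermediateField ℚ (AlgebraicClosure ℚ)) :=
    IntermediateField.finiteDimensional_sup L₁ L₂
  obtain ⟨D⟩ := FrobData.nonempty (N := N) hFD hNS (L₁ ⊔ L₂) hL σ₀
  have hℓp : D.ℓ ≠ p := fun h => D.notMem (by rw [h]; exact Finset.mem_coe.2 hpS)
  have hcop : p.Coprime D.ℓ := (Nat.coprime_primes hp D.prime).2 (Ne.symm hℓp)
  -- the determinant
  have hdet := (charpoly_congr_of_frob ρ 1 hcong σ₀ D.σ D.j
    (fun x hx => D.agree x ((le_sup_left : L₁ ≤ L₁ ⊔ L₂) hx))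
    (hρ D.ℓ D.prime D.notDvd D.notMem D.A D.liesOver D.σ D.frob)).2
  have hdet1 := (trace_det_congr (maximalIdeal T) (ρ.ρ σ₀) 1
    (fun v => by simpa using hall v)).2
  rw [pow_one] at hdet
  have hmem : ((D.ℓ : T)) ^ D.j - 1 ∈ maximalIdeal T := by
    have := Ideal.sub_mem _ hdet1 hdet
    simpa using this
  -- the action on `ζ`
  have hσζ : ∀ x : AlgebraicClosure ℚ, x ^ p = 1 → D.σ x = x ^ D.ℓ := fun x hx =>
    hFrob D.ℓ D.prime D.A D.liesOver D.σ D.frob p hcop x hx
  have hpow : ∀ j : ℕ, ∀ x : AlgebraicClosure ℚ, x ^ p = 1 → (D.σ ^ j) x = x ^ (D.ℓ ^ j) := by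
    intro j
    induction j with
    | zero => intro x _; simp
    | succ j ih =>
      intro x hx
      rw [pow_succ, AlgEquiv.mul_apply, hσζ x hx, ih (x ^ D.ℓ) (by rw [← pow_mul, mul_comm,
        pow_mul, hx, one_pow]), ← pow_mul, ← pow_succ']
  have hζL : ζ ∈ (L₁ ⊔ L₂ : IntermediateField ℚ (AlgebraicClosure ℚ)) :=
    (le_sup_right : L₂ ≤ L₁ ⊔ L₂) (IntermediateField.mem_adjoin_simple_self ℚ ζ)
  have h1 : ζ ^ (D.ℓ ^ D.j) ≠ ζ := by
    rw [← hpow D.j ζ hζ, D.agree ζ hζL]
    exact hne
  have hndvd : ¬ (p ∣ D.ℓ ^ D.j - 1) := by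
    rintro ⟨k, hk⟩
    apply h1
    have hpos : 1 ≤ D.ℓ ^ D.j := Nat.one_le_pow _ _ D.prime.pos
    have : D.ℓ ^ D.j = p * k + 1 := by omega
    rw [this, pow_succ, pow_mul, hζ, one_pow, one_mul]
  have hcop2 : Nat.Coprime p (D.ℓ ^ D.j - 1) := (Nat.Prime.coprime_iff_not_dvd hp).2 hndvd
  have hone : (1 : T) ∈ maximalIdeal T := by
    have hb := Nat.isCoprime_iff_coprime.2 hcop2
    obtain ⟨a, b, hab⟩ := hb
    have hcast : ((a : ℤ) : T) * (p : T) + ((b : ℤ) : T) * ((D.ℓ : T) ^ D.j - 1) = 1 := by
      have hpos : 1 ≤ D.ℓ ^ D.j := Nat.one_le_pow _ _ D.prime.pos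
      have := congrArg (fun z : ℤ => (z : T)) hab
      simp only [Int.cast_add, Int.cast_mul, Int.cast_natCast, Int.cast_one] at this
      rw [Nat.cast_sub hpos] at this
      simpa using this
    rw [← hcast]
    exact Ideal.add_mem _ (Ideal.mul_mem_left _ _ hpT) (Ideal.mul_mem_left _ _ hmem)
  exact (Ideal.ne_top_iff_one _).1 (maximalIdeal.isMaximal T).ne_top hone

end Inertia

end Fermat.Agent.R.H86

end
-- ==== END Fermat.Agent.R.H86_Point
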