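-- GENERATED (merged mirror, NOTES/tools/trim/merge3_helper67.py): 6 modules of the originals, bodies verbatim.
import Fermat.Prelude.Def_AlgebraicCurve_Correspondence
import Fermat.Agent.Zm.S35_L14_000
import Fermat.Agent.Zm.S35_L09_005
import Fermat.Agent.Zm.S35_L03_000
import Fermat.Agent.Zm.S35_L13_000
import Fermat.Agent.Zm.S35_L14_002
import Fermat.Agent.Zm.S35_L12_000
import Fermat.Agent.Zm.S35_L10_000
import Fermat.Agent.Zm.S35_L11_000
import Fermat.Agent.Zm.S35_L08_000
import Fermat.Agent.Zm.S35_L02_000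
import Fermat.Agent.Zm.S35_L01_000

-- ==== BEGIN Fermat.Agent.BAD.ABS
section

/-!
# Item 65, package ABS: `Stmt_ABS` is PROVED

`Fermat.Agent.BAD.stmt_ABS : Stmt_ABS` (= (B1), abstract form): for a semistable Deuring datum
`S : SSD K F k F₁ F₂` (two components, ordinary double points), `K`, `k` algebraically closed,
Riemann's theorem for `F`, `F₁`, `F₂` with `g ≤ g₁ + g₂ + δ - 1`, `n` invertible in `k`, `σ`
inertial: if `f ∈ V₁`, `red₁ f = 1` and `n ∣ div f`, then `σ f / f` is an `n`-th power.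

Also unconditional: `stmt_Moving` (moving lemma), `H28.stmt_TIss` (torsion injectivity in good
position), `H28.stmt_GoodLift`, `H28.stmt_Coords`, `H28.stmt_TwSurj`.

Leaves: helper17 (Pivot, Contain, Contain0; author of route C), helper41 (Linearise, TwSurj),
helper60 (NS, LNeg, NodalNS, LamCount, GoodLift, Coords), helper90 (TwistExists, Moving,
Linearise), helper1 (TIss from the key lemma), helper55 (Ratio, Avoid, Eval), helper28 (SSD,
skeleton, PRed port, nodal key lemma, final assembly).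
-/

set_option autoImplicit false

namespace Fermat.Agent.BAD

/-- The moving lemma. -/
theorem stmt_Moving : Stmt_Moving := H90.moving_of_twSurj H28.stmt_TwSurj

/-- **Package ABS.** -/
theorem stmt_ABS : Stmt_ABS := H28.stmt_ABS_of_moving stmt_Moving

end Fermat.Agent.BAD

end
-- ==== END Fermat.Agent.BAD.ABS

-- ==== BEGIN Fermat.Agent.BAD.H73_NormFrF1
section

/-!
# Item 65 (BAD_q), glue for TOT-MOD (helper73): norms to the level `M` residue field

`F₁ = redField A (F_{Mq} ℚ̄)`, with (D) `F₁ = fullC k M'`, `q ∤ M'`.  For a field `E'` with an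
isomorphism `e : E' ≃+* F₁`:

* structure map `e` (first component): `finrank_of_bij`, `norm_of_bij`;
* structure map `Fr ∘ e` (second component): `finrank_F1_Fr : [F₁ : E'] = q`,
  `norm_F1_Fr : N g = e⁻¹ (φ g)`, **`ord_norm_F1_Fr : ord_z (e (N g)) = ord_{β z} g`**.
-/

set_option autoImplicit false
set_option synthInstance.maxHeartbeats 400000
set_option maxHeartbeats 1000000

noncomputable section

open ModularCurve AlgebraicCurve Fermat.Agent.S28.H73 Fermat.Agent.RED.H73 Fermat.Agent.BAD.H88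
  Fermat.Agent.BAD.H82 Fermat.Agent.S24

namespace Fermat.Agent.BAD.H73

section Bij

variable {K L : Type*} [Field K] [Field L] [Algebra K L]

/-- `[L : K] = 1` if the structure map is surjective. -/
theorem finrank_of_bij (hs : Function.Surjective (algebraMap K L)) : Module.finrank K L = 1 := by
  have e : K ≃ₗ[K] L :=
    LinearEquiv.ofBijective (Algebra.linearMap K L) ⟨(algebraMap K L).injective, hs⟩
  rw [← e.finrank_eq, Module.finrank_self]

/-- `N (algebraMap a) = a` if the structure map is surjective. -/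
theorem norm_of_bij (hs : Function.Surjective (algebraMap K L)) (a : K) :
    Algebra.norm K (algebraMap K L a) = a := by
  rw [Algebra.norm_algebraMap, finrank_of_bij hs, pow_one]

end Bij

section Concrete

variable (A : ValuationSubring Kbar) (q M : ℕ) [NeZero (M * q)]
variable (hq : q.Prime) (hA : A.LiesOverPrime q) (M' : ℕ) [NeZero M']
variable (hD : redField A (modularFunctionFieldBar (M * q)) (hSc A q M)
  = modularFunctionFieldFullC (kV A) M')

omit [NeZero M'] in
include hD in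
/-- `j~ ∈ F₁`. -/
theorem jqModC_mem_F1 :
    jqModC (kV A) ∈ redField A (modularFunctionFieldBar (M * q)) (hSc A q M) := by
  rw [hD]
  exact jqModC_mem_full (kV A) M'

include hq hA hD in
/-- `F₁ / k(j~)` is separable (from (D) and GA at level `M'`, `q ∤ M'`). -/
theorem isSeparable_F1 (hM' : ¬ q ∣ M') :
    ∀ y ∈ redField A (modularFunctionFieldBar (M * q)) (hSc A q M),
      IsSeparable ↥(IntermediateField.adjoin (kV A)
        ({jqModC (kV A)} : Set (LaurentSeries (kV A)))) y := by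
  have : IsAlgClosed (kV A) := isAlgClosed_kV A
  have : Infinite (kV A) := IsAlgClosed.instInfinite
  intro y hy
  rw [hD] at hy
  exact isSeparable_fullC_red A (inv_natCast_mem_of_liesOver A M' hq hM' hA) (caDataBar M') hy

variable {E' : Type*} [Field E'] [Algebra E' (F1 A q M)] (e : E' ≃+* F1 A q M)
variable (he : ∀ a : E', algebraMap E' (F1 A q M) a = FrF1 A q M hq hA M' hD (e a))

include e he in
/-- **`[F₁ : E'] = q`** for the structure map `Fr ∘ e`. -/
theorem finrank_F1_Fr (hM' : ¬ q ∣ M') : Module.finrank E' (F1 A q M) = q := by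
  have hq1 : ¬ (q : ℤ) ∣ (-1 : ℤ) := by
    intro hd
    have h1 : ((q : ℕ) : ℤ) ∣ 1 := (dvd_neg (a := (q : ℤ)) (b := 1)).mp hd
    have h2 : q ∣ 1 := by exact_mod_cast h1
    exact hq.one_lt.ne' (Nat.dvd_one.mp h2)
  have hc : ((⟨jqModC (kV A), jqModC_mem_F1 A q M M' hD⟩ : F1 A q M) :
      LaurentSeries (kV A)).coeff (-1) ≠ 0 := by
    show (jqModC (kV A)).coeff (-1) ≠ 0
    rw [coeff_jqModC_neg_one]
    exact one_ne_zero
  exact @finrank_of_Fr (kV A) _ q ⟨hq⟩ (charP_kV A hq hA)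
    (@perfectRing_kV _ _ _ A q ⟨hq⟩ (charP_kV A hq hA)) _ (frobStable_F1 A q M hq hA M' hD)
    E' _ _ e he ⟨jqModC (kV A), jqModC_mem_F1 A q M M' hD⟩ (-1) hq1 hc
    (isSeparable_F1 A q M hq hA M' hD hM')

include e he in
/-- **`N_{F₁/E'} g = e⁻¹ (φ g)`** for the structure map `Fr ∘ e`. -/
theorem norm_F1_Fr (hM' : ¬ q ∣ M') (g : F1 A q M) :
    Algebra.norm E' g = e.symm (phiF1 A q M hq hA M' hD g) :=
  @norm_of_Fr (kV A) _ q ⟨hq⟩ (charP_kV A hq hA)
    (@perfectRing_kV _ _ _ A q ⟨hq⟩ (charP_kV A hq hA)) _ (frobStable_F1 A q M hq hA M' hD)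
    E' _ _ e he (finrank_F1_Fr A q M hq hA M' hD e he hM') g

include e he in
/-- **`ord_z (e (N_{F₁/E'} g)) = ord_{β z} g`** for the structure map `Fr ∘ e`. -/
theorem ord_norm_F1_Fr (hM' : ¬ q ∣ M') (z : Place (kV A) (F1 A q M)) (g : F1 A q M) :
    z.ord (e (Algebra.norm E' g)) = (betaF1 A q M hq hA M' hD z).ord g := by
  rw [norm_F1_Fr A q M hq hA M' hD e he hM', e.apply_symm_apply, betaF1_ord]

omit [NeZero M'] in
include e he in
theorem isPurelyInseparable_F1_Fr : IsPurelyInseparable E' (F1 A q M) :=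
  @isPurelyInseparable_of_Fr (kV A) _ q ⟨hq⟩ (charP_kV A hq hA)
    (@perfectRing_kV _ _ _ A q ⟨hq⟩ (charP_kV A hq hA)) _ (frobStable_F1 A q M hq hA M' hD)
    E' _ _ e he

end Concrete

end Fermat.Agent.BAD.H73

end
end
-- ==== END Fermat.Agent.BAD.H73_NormFrF1

-- ==== BEGIN Fermat.Agent.BAD.H79_Inert
section

/-!
# Item 65, package CONS-ss (helper79): inertial automorphisms

`TotData.Inert T σ` : the semilinear automorphism `σ` preserves the two valuation rings, acts
trivially on the two reductions and preserves the reduction map `ρ`.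
`TotData.Inert.isInertial` : then `σ` is inertial for the semistable Deuring datum `T.toSSD`.
-/

set_option autoImplicit false
set_option linter.style.haveILetI false

noncomputable section

open AlgebraicCurve

attribute [local instance] Classical.propDecidable

namespace Fermat.Agent.BAD.H79

open Fermat.Agent.RED.H17 Fermat.Agent.RED Fermat.Agent.BAD

section Smul

variable {K F : Type*} [Field K] [Field F] [Algebra K F]

theorem smul_eq_zero_iff' (σ : SemilinearAut K F) (x : F) : σ • x = 0 ↔ x = 0 := by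
  rw [SemilinearAut.smul_def]
  exact map_eq_zero_iff _ (SemilinearAut.toRingAut σ).injective

theorem regAt_smul_iff (σ : SemilinearAut K F) (P : Place K F) (x : F) :
    RegAt (σ • P) (σ • x) ↔ RegAt P x := by
  rw [regAt_iff_ord, regAt_iff_ord, SemilinearAut.ord_smul, smul_eq_zero_iff']

theorem vanAt_smul_iff (σ : SemilinearAut K F) (P : Place K F) (x : F) :
    VanAt (σ • P) (σ • x) ↔ VanAt P x := by
  rw [vanAt_iff_ord, vanAt_iff_ord, SemilinearAut.ord_smul, smul_eq_zero_iff']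

end Smul

namespace TotData

variable {K L k L₁ L₂ : Type*} [Field K] [Field L] [Algebra K L] [Field k] [Field L₁]
  [Algebra k L₁] [Field L₂] [Algebra k L₂] {T : TotData K L k L₁ L₂}

/-- `σ` preserves the total conservation datum and acts trivially on the two reductions. -/
structure Inert (T : TotData K L k L₁ L₂) (σ : SemilinearAut K L) : Prop where
  mem₁ : ∀ f : L, f ∈ T.b₁.V → σ • f ∈ T.b₁.V
  mem₂ : ∀ f : L, f ∈ T.b₂.V → σ • f ∈ T.b₂.V
  red₁ : ∀ (f : L) (h : f ∈ T.b₁.V) (h' : σ • f ∈ T.b₁.V), T.b₁.red ⟨_, h'⟩ = T.b₁.red ⟨f, h⟩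
  red₂ : ∀ (f : L) (h : f ∈ T.b₂.V) (h' : σ • f ∈ T.b₂.V), T.b₂.red ⟨_, h'⟩ = T.b₂.red ⟨f, h⟩
  ρ_smul : ∀ P : Place K L, T.ρ (σ • P) = T.ρ P

/-- An automorphism which preserves a valuation ring and acts trivially on the reduction: its
inverse preserves the valuation ring. -/
private theorem inv_mem_of {F' : Type*} [Field F'] [Algebra k F'] (S : PRed K L k F')
    (σ : SemilinearAut K L) (hmem : ∀ f : L, f ∈ S.V → σ • f ∈ S.V)
    (hred : ∀ f : L, f ∈ S.V → S.rd (σ • f) = S.rd f) (f : L) (hf : f ∈ S.V) :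
    σ⁻¹ • f ∈ S.V := by
  by_contra hne
  have hinv : (σ⁻¹ • f)⁻¹ ∈ S.V := (S.V.mem_or_inv_mem _).resolve_left hne
  have hr0 : S.rd (σ⁻¹ • f)⁻¹ = 0 := by
    by_contra h0
    have hGU : S.IsGU (σ⁻¹ • f)⁻¹ := ⟨hinv, h0⟩
    have := hGU.inv_mem
    rw [inv_inv] at this
    exact hne this
  have h1 : σ • (σ⁻¹ • f)⁻¹ = f⁻¹ := by
    rw [smul_inv'', smul_inv_smul]
  have h2 : f⁻¹ ∈ S.V := by
    rw [← h1]; exact hmem _ hinv
  have h3 : S.rd f⁻¹ = 0 := by
    rw [← h1, hred _ hinv, hr0]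
  have hf0 : f ≠ 0 := by
    rintro rfl
    rw [smul_zero] at hne
    exact hne S.V.zero_mem
  have h4 := S.rd_mul hf h2
  rw [mul_inv_cancel₀ hf0, S.rd_one, h3, mul_zero] at h4
  exact one_ne_zero h4

namespace Inert

variable {σ : SemilinearAut K L}

theorem rd₁ (h : T.Inert σ) {f : L} (hf : f ∈ T.b₁.V) : T.p₁.rd (σ • f) = T.p₁.rd f := by
  rw [T.p₁.rd_of_mem (h.mem₁ f hf), T.p₁.rd_of_mem hf]
  exact h.red₁ f hf (h.mem₁ f hf)

theorem rd₂ (h : T.Inert σ) {f : L} (hf : f ∈ T.b₂.V) : T.p₂.rd (σ • f) = T.p₂.rd f := by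
  rw [T.p₂.rd_of_mem (h.mem₂ f hf), T.p₂.rd_of_mem hf]
  exact h.red₂ f hf (h.mem₂ f hf)

theorem inv (h : T.Inert σ) : T.Inert σ⁻¹ := by
  have m₁ : ∀ f : L, f ∈ T.b₁.V → σ⁻¹ • f ∈ T.b₁.V :=
    inv_mem_of T.p₁ σ h.mem₁ (fun f hf => h.rd₁ hf)
  have m₂ : ∀ f : L, f ∈ T.b₂.V → σ⁻¹ • f ∈ T.b₂.V :=
    inv_mem_of T.p₂ σ h.mem₂ (fun f hf => h.rd₂ hf)
  refine ⟨m₁, m₂, fun f hf hf' => ?_, fun f hf hf' => ?_, fun P => ?_⟩
  · have h1 : σ • σ⁻¹ • f ∈ T.b₁.V := by rw [smul_inv_smul]; exact hf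
    have := h.red₁ (σ⁻¹ • f) hf' h1
    rw [← this]
    congr 1
    exact Subtype.ext (smul_inv_smul σ f)
  · have h1 : σ • σ⁻¹ • f ∈ T.b₂.V := by rw [smul_inv_smul]; exact hf
    have := h.red₂ (σ⁻¹ • f) hf' h1
    rw [← this]
    congr 1
    exact Subtype.ext (smul_inv_smul σ f)
  · have := h.ρ_smul (σ⁻¹ • P)
    rw [smul_inv_smul] at this
    exact this.symm

theorem inR (h : T.Inert σ) {z : Place k L₁} {f : L} (hf : T.InR z f) : T.InR z (σ • f) := by
  refine ⟨h.mem₁ f hf.1, h.mem₂ f hf.2.1, fun P hPz => ?_⟩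
  have h1 : RegAt (σ⁻¹ • P) f := hf.2.2 _ (by rw [h.inv.ρ_smul]; exact hPz)
  have := (regAt_smul_iff σ (σ⁻¹ • P) f).mpr h1
  rwa [smul_inv_smul] at this

theorem onSide₁ (h : T.Inert σ) (hP : HasPrincipalDivisors K L) {P : Place K L}
    (hS : T.OnSide₁ P) : T.OnSide₁ (σ • P) := by
  intro f hf a ha
  rw [h.ρ_smul] at hf ⊢
  have hmem : algebraMap K L a ∈ T.b₁.V := hf.const_mem hP (h.ρ_smul P) ha
  have hf' : T.InR (T.ρ P) (σ⁻¹ • f) := h.inv.inR hf
  have e1 : σ⁻¹ • algebraMap K L a = algebraMap K L (SemilinearAut.baseAut σ⁻¹ a) :=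
    SemilinearAut.smul_algebraMap σ⁻¹ a
  have ha' : VanAt P (σ⁻¹ • f - algebraMap K L (SemilinearAut.baseAut σ⁻¹ a)) := by
    rw [← e1, ← smul_sub]
    have := (vanAt_smul_iff σ⁻¹ (σ • P) (f - algebraMap K L a)).mpr ha
    rwa [inv_smul_smul] at this
  have := hS (σ⁻¹ • f) hf' _ ha'
  rwa [h.inv.rd₁ hf.1, ← e1, h.inv.rd₁ hmem] at this

theorem onSide₂ (h : T.Inert σ) (hP : HasPrincipalDivisors K L) {P : Place K L}
    (hS : T.OnSide₂ P) : T.OnSide₂ (σ • P) := by
  intro f hf a ha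
  rw [h.ρ_smul] at hf ⊢
  have hmem : algebraMap K L a ∈ T.b₁.V := hf.const_mem hP (h.ρ_smul P) ha
  have hf' : T.InR (T.ρ P) (σ⁻¹ • f) := h.inv.inR hf
  have e1 : σ⁻¹ • algebraMap K L a = algebraMap K L (SemilinearAut.baseAut σ⁻¹ a) :=
    SemilinearAut.smul_algebraMap σ⁻¹ a
  have ha' : VanAt P (σ⁻¹ • f - algebraMap K L (SemilinearAut.baseAut σ⁻¹ a)) := by
    rw [← e1, ← smul_sub]
    have := (vanAt_smul_iff σ⁻¹ (σ • P) (f - algebraMap K L a)).mpr ha
    rwa [inv_smul_smul] at this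
  have := hS (σ⁻¹ • f) hf' _ ha'
  rwa [h.inv.rd₂ hf.2.1, ← e1, h.inv.rd₂ (T.const_mem₂ hmem)] at this

theorem onSide₁_iff (h : T.Inert σ) (hP : HasPrincipalDivisors K L) (P : Place K L) :
    T.OnSide₁ (σ • P) ↔ T.OnSide₁ P := by
  refine ⟨fun hS => ?_, h.onSide₁ hP⟩
  have := h.inv.onSide₁ hP hS
  rwa [inv_smul_smul] at this

theorem onSide₂_iff (h : T.Inert σ) (hP : HasPrincipalDivisors K L) (P : Place K L) :
    T.OnSide₂ (σ • P) ↔ T.OnSide₂ P := by
  refine ⟨fun hS => ?_, h.onSide₂ hP⟩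
  have := h.inv.onSide₂ hP hS
  rwa [inv_smul_smul] at this

theorem r₁_smul (h : T.Inert σ) (hP : HasPrincipalDivisors K L) (P : Place K L) :
    T.r₁ (σ • P) = T.r₁ P := by
  unfold TotData.r₁
  by_cases hS : T.OnSide₁ P
  · rw [if_pos hS, if_pos ((h.onSide₁_iff hP P).mpr hS), h.ρ_smul]
  · rw [if_neg hS, if_neg fun h' => hS ((h.onSide₁_iff hP P).mp h')]

theorem r₂_smul (h : T.Inert σ) (hP : HasPrincipalDivisors K L) (P : Place K L) :
    T.r₂ (σ • P) = T.r₂ P := by
  unfold TotData.r₂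
  by_cases hS : T.OnSide₂ P
  · rw [if_pos hS, if_pos ((h.onSide₂_iff hP P).mpr hS), h.ρ_smul]
  · rw [if_neg hS, if_neg fun h' => hS ((h.onSide₂_iff hP P).mp h')]

/-- **An inertial automorphism of the total conservation datum is inertial for the semistable
Deuring datum.** -/
theorem isInertial [Infinite k] [IsAlgClosed K] (h : T.Inert σ)
    (hP : HasPrincipalDivisors K L) (hd : ∀ v : Place K L, v.deg = 1)
    (hP₁ : HasPrincipalDivisors k L₁) (hd₁ : ∀ v : Place k L₁, v.deg = 1)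
    (hd₂ : ∀ v : Place k L₂, v.deg = 1) (hne : ∃ z, T.IsNode z) :
    (T.toSSD hP hd hP₁ hd₁ hd₂ hne).IsInertial σ where
  mem₁ := h.mem₁
  mem₂ := h.mem₂
  red₁ := h.red₁
  red₂ := h.red₂
  r₁ := h.r₁_smul hP
  r₂ := h.r₂_smul hP

end Inert

end TotData

end Fermat.Agent.BAD.H79

end
end
-- ==== END Fermat.Agent.BAD.H79_Inert

-- ==== BEGIN Fermat.Agent.BAD.H79_Mirror
section

/-!
# Item 65 / S35 (helper79): the MIRROR law of total conservation and conservation at the lower
level (clauses (E2), (E4) of `S35.H89.Stmt_ModSt`), abstract form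

* `place_ext_ord` : a place is determined by its order function.
* `TotData.mirror` : for a total conservation datum `T` whose second valuation is the transport
  of the first under an involution `w` of `L` (`x ∈ V₂ ↔ w x ∈ V₁`, `red₂ x = red₁ (w x)`;
  modular: `w = w_q`) and a map `ω` on places with `ord_{ω P} f = ord_P (w f)`:
  `∑_{ρ (ω P) = z} ord_P u₁ = ord_z (red₂ u₂) + ord_{β z} (red₁ u₁)`.
* `TotData.mirror_smul` : the same with `ω P = w • P` for `w : L ≃ₐ[K] L`.
* `toSSD_tot`, `toSSD_mirror` : both laws in the shape of `Stmt_ModSt` (for `S = T.toSSD ..`).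
* `conserve_level`, `conserve_along` : if `ρ P = r_M (P | E)` (up to an injective transport `κ`)
  and all inertia degrees of `L / E` are one, then `α_* D` principal implies that `ρ_* D` is the
  divisor of a function of the residue field.
* `restrictAlong_comp_smul` : `P | (w ∘ φ) = (w⁻¹ • P) | φ`;
  `restrictAlong_smul_of_involutive`, `conserve_along_mirror` : (E4) for `ρ' P = ρ (w • P)` and
  `β = w ∘ α`, `w` an involution.
-/

set_option autoImplicit false
set_option linter.style.haveILetI false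

noncomputable section

open AlgebraicCurve

attribute [local instance] Classical.propDecidable

namespace Fermat.Agent.BAD.H79

open Fermat.Agent.RED.H17 Fermat.Agent.RED Fermat.Agent.BAD

section Places

variable {K F : Type*} [Field K] [Field F] [Algebra K F]

/-- A place is determined by its order function. -/
theorem place_ext_ord {P Q : Place K F} (h : ∀ f : F, P.ord f = Q.ord f) : P = Q := by
  apply Place.ext
  ext f
  rw [← regAt_iff_mem, ← regAt_iff_mem, regAt_iff_ord, regAt_iff_ord, h f]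

/-- A map on places which transports the orders along an involution is an involution. -/
theorem omega_involutive {w : F → F} (hww : ∀ x, w (w x) = x) {ω : Place K F → Place K F}
    (hω : ∀ (P : Place K F) (f : F), (ω P).ord f = P.ord (w f)) (P : Place K F) :
    ω (ω P) = P :=
  place_ext_ord fun f => by rw [hω, hω, hww]

/-- Transport of a divisor along an involution of the places. -/
theorem mapDomain_omega_apply {ω : Place K F → Place K F} (hωω : ∀ P, ω (ω P) = P)
    (D : Divisor K F) (P : Place K F) : Finsupp.mapDomain ω D P = D (ω P) := by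
  have hinj : Function.Injective ω := fun a b hab => by rw [← hωω a, ← hωω b, hab]
  conv_lhs => rw [← hωω P]
  exact Finsupp.mapDomain_apply hinj D (ω P)

end Places

namespace TotData

variable {K L k E : Type*} [Field K] [Field L] [Algebra K L] [Field k] [Field E]
  [Algebra k E] (T : TotData K L k E E)

/-- **The mirror law (E2).**  If the second valuation of `T` is the transport of the first under
an involution `w` (modular: the Atkin-Lehner involution `w_q`), then total conservation holds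
for `ρ ∘ ω` with the roles of the two reductions exchanged. -/
theorem mirror (w : L → L) (ω : Place K L → Place K L) (hww : ∀ x, w (w x) = x)
    (hwc : ∀ (c : K) (x : L), w (algebraMap K L c * x) = algebraMap K L c * w x)
    (hω : ∀ (P : Place K L) (f : L), (ω P).ord f = P.ord (w f))
    (hV : ∀ x : L, x ∈ T.b₂.V ↔ w x ∈ T.b₁.V)
    (hred : ∀ (x : L) (h₂ : x ∈ T.b₂.V) (h₁ : w x ∈ T.b₁.V),
      T.b₂.red ⟨x, h₂⟩ = T.b₁.red ⟨w x, h₁⟩) :
    ∀ (u₁ : T.b₁.V) (u₂ : T.b₂.V), T.b₁.red u₁ ≠ 0 → T.b₂.red u₂ ≠ 0 →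
      (∃ c : K, (u₂ : L) = algebraMap K L c * (u₁ : L)) →
      ∀ D : Divisor K L, (∀ P, D P = P.ord (u₁ : L)) → ∀ z : Place k E,
        Finsupp.mapDomain (fun P => T.ρ (ω P)) D z
          = z.ord (T.b₂.red u₂) + (T.β z).ord (T.b₁.red u₁) := by
  intro u₁ u₂ h1 h2 hc D hD z
  obtain ⟨c, hc⟩ := hc
  have hu₂0 : (u₂ : L) ≠ 0 := fun h => h2 (by
    have : u₂ = 0 := Subtype.ext h
    rw [this, map_zero])
  have hc0 : c ≠ 0 := by
    rintro rfl
    apply hu₂0
    rw [hc, map_zero, zero_mul]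
  have hωω : ∀ P, ω (ω P) = P := omega_involutive hww hω
  -- the mirrored functions
  have hm₁ : w (u₂ : L) ∈ T.b₁.V := (hV _).1 u₂.2
  have hm₂ : w (u₁ : L) ∈ T.b₂.V := (hV _).2 (by rw [hww]; exact u₁.2)
  have hr₁ : T.b₁.red ⟨w (u₂ : L), hm₁⟩ = T.b₂.red u₂ := (hred _ u₂.2 hm₁).symm
  have hr₂ : T.b₂.red ⟨w (u₁ : L), hm₂⟩ = T.b₁.red u₁ := by
    rw [hred _ hm₂ (by rw [hww]; exact u₁.2)]
    congr 1
    exact Subtype.ext (hww _)
  have hrel : ∃ d : K, ((⟨w (u₁ : L), hm₂⟩ : T.b₂.V) : L)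
      = algebraMap K L d * ((⟨w (u₂ : L), hm₁⟩ : T.b₁.V) : L) := by
    refine ⟨c⁻¹, ?_⟩
    change w (u₁ : L) = algebraMap K L c⁻¹ * w (u₂ : L)
    rw [hc, hwc, ← mul_assoc, ← map_mul, inv_mul_cancel₀ hc0, map_one, one_mul]
  -- the transported divisor
  have hD' : ∀ P, Finsupp.mapDomain ω D P = P.ord ((⟨w (u₂ : L), hm₁⟩ : T.b₁.V) : L) := by
    intro P
    rw [mapDomain_omega_apply hωω, hD, hω]
    change P.ord (w (u₁ : L)) = P.ord (w (u₂ : L))
    rw [hc, hwc, ord_algebraMap_mul P hc0]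
  have key := T.tot ⟨w (u₂ : L), hm₁⟩ ⟨w (u₁ : L), hm₂⟩ (by rw [hr₁]; exact h2)
    (by rw [hr₂]; exact h1) hrel (Finsupp.mapDomain ω D) hD' z
  rw [hr₁, hr₂, ← Finsupp.mapDomain_comp] at key
  exact key

/-- The mirror law for `ω P = w • P`, `w` an involutive `K`-automorphism of `L`. -/
theorem mirror_smul (w : L ≃ₐ[K] L) (hww : ∀ x, w (w x) = x)
    (hV : ∀ x : L, x ∈ T.b₂.V ↔ w x ∈ T.b₁.V)
    (hred : ∀ (x : L) (h₂ : x ∈ T.b₂.V) (h₁ : w x ∈ T.b₁.V),
      T.b₂.red ⟨x, h₂⟩ = T.b₁.red ⟨w x, h₁⟩) :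
    ∀ (u₁ : T.b₁.V) (u₂ : T.b₂.V), T.b₁.red u₁ ≠ 0 → T.b₂.red u₂ ≠ 0 →
      (∃ c : K, (u₂ : L) = algebraMap K L c * (u₁ : L)) →
      ∀ D : Divisor K L, (∀ P, D P = P.ord (u₁ : L)) → ∀ z : Place k E,
        Finsupp.mapDomain (fun P => T.ρ (w • P)) D z
          = z.ord (T.b₂.red u₂) + (T.β z).ord (T.b₁.red u₁) :=
  T.mirror w (fun P => w • P) hww (fun c x => by rw [map_mul, AlgEquiv.commutes])
    (fun P f => by
      have h := Place.ord_smul w P (w f)
      rw [hww] at h
      exact h) hV hred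

section ssd

variable [Infinite k] [IsAlgClosed K]
  (hP : HasPrincipalDivisors K L) (hd : ∀ v : Place K L, v.deg = 1)
  (hP₁ : HasPrincipalDivisors k E) (hd₁ : ∀ v : Place k E, v.deg = 1)
  (hd₂ : ∀ v : Place k E, v.deg = 1) (hne : ∃ z, T.IsNode z)

/-- Total conservation in the shape of `S35.H89.Stmt_ModSt` (for `S = T.toSSD ..`). -/
theorem toSSD_tot :
    ∀ (u₁ : (T.toSSD hP hd hP₁ hd₁ hd₂ hne).c₁.V) (u₂ : (T.toSSD hP hd hP₁ hd₁ hd₂ hne).c₂.V),
      (T.toSSD hP hd hP₁ hd₁ hd₂ hne).c₁.red u₁ ≠ 0 →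
      (T.toSSD hP hd hP₁ hd₁ hd₂ hne).c₂.red u₂ ≠ 0 →
      (∃ a : K, (u₂ : L) = algebraMap K L a * (u₁ : L)) →
      ∀ D : Divisor K L, (∀ P, D P = P.ord (u₁ : L)) → ∀ z : Place k E,
        Finsupp.mapDomain T.ρ D z
          = z.ord ((T.toSSD hP hd hP₁ hd₁ hd₂ hne).c₁.red u₁)
            + (T.β z).ord ((T.toSSD hP hd hP₁ hd₁ hd₂ hne).c₂.red u₂) :=
  T.tot

/-- The mirror law in the shape of `S35.H89.Stmt_ModSt` (for `S = T.toSSD ..`). -/
theorem toSSD_mirror (w : L → L) (ω : Place K L → Place K L) (hww : ∀ x, w (w x) = x)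
    (hwc : ∀ (c : K) (x : L), w (algebraMap K L c * x) = algebraMap K L c * w x)
    (hω : ∀ (P : Place K L) (f : L), (ω P).ord f = P.ord (w f))
    (hV : ∀ x : L, x ∈ T.b₂.V ↔ w x ∈ T.b₁.V)
    (hred : ∀ (x : L) (h₂ : x ∈ T.b₂.V) (h₁ : w x ∈ T.b₁.V),
      T.b₂.red ⟨x, h₂⟩ = T.b₁.red ⟨w x, h₁⟩) :
    ∀ (u₁ : (T.toSSD hP hd hP₁ hd₁ hd₂ hne).c₁.V) (u₂ : (T.toSSD hP hd hP₁ hd₁ hd₂ hne).c₂.V),
      (T.toSSD hP hd hP₁ hd₁ hd₂ hne).c₁.red u₁ ≠ 0 →
      (T.toSSD hP hd hP₁ hd₁ hd₂ hne).c₂.red u₂ ≠ 0 →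
      (∃ a : K, (u₂ : L) = algebraMap K L a * (u₁ : L)) →
      ∀ D : Divisor K L, (∀ P, D P = P.ord (u₁ : L)) → ∀ z : Place k E,
        Finsupp.mapDomain (fun P => T.ρ (ω P)) D z
          = z.ord ((T.toSSD hP hd hP₁ hd₁ hd₂ hne).c₂.red u₂)
            + (T.β z).ord ((T.toSSD hP hd hP₁ hd₁ hd₂ hne).c₁.red u₁) :=
  T.mirror w ω hww hwc hω hV hred

end ssd

end TotData

/-! ### Conservation at the lower level (E4) -/

section Level

variable {K E L k E' L₁ : Type*} [Field K] [Field E] [Field L] [Field k] [Field E'] [Field L₁]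
  [Algebra K E] [Algebra K L] [Algebra k E'] [Algebra k L₁]

/-- If all inertia degrees are one, the push-forward of divisors is `mapDomain` of the
restriction of places. -/
theorem pushforward_eq_mapDomain_restrict [Algebra E L] [IsScalarTower K E L]
    [Algebra.IsIntegral E L] (hin : ∀ w : Place K L, w.inertiaDeg E = 1) (D : Divisor K L) :
    Divisor.pushforward E D = Finsupp.mapDomain (fun P : Place K L => P.restrict E) D := by
  induction D using Finsupp.induction_linear with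
  | zero => simp
  | add D₁ D₂ h₁ h₂ => rw [map_add, Finsupp.mapDomain_add, h₁, h₂]
  | single w n =>
    rw [Divisor.pushforward_single, Finsupp.mapDomain_single, hin w, Nat.cast_one, mul_one]

/-- **(E4), tower form.**  `ρ P = κ⁻¹ (r_M (P | E))`, all inertia degrees one: if the
push-forward of `D` to `E` is principal, then `ρ_* D` is the divisor of a function. -/
theorem conserve_level [Algebra E L] [IsScalarTower K E L] [Algebra.IsIntegral E L]
    (SE : RedSetup K E k E') (hin : ∀ w : Place K L, w.inertiaDeg E = 1)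
    (ρ : Place K L → Place k L₁) (κ : Place k L₁ → Place k E') (hκ : Function.Injective κ)
    (hρ : ∀ P : Place K L, κ (ρ P) = SE.r (P.restrict E))
    (D : Divisor K L) (hD : (Divisor.pushforward E D).IsPrincipal) :
    ∃ h : E', h ≠ 0 ∧ ∀ z : Place k L₁, Finsupp.mapDomain ρ D z = (κ z).ord h := by
  obtain ⟨f, hf0, hf⟩ := hD
  obtain ⟨c, hc0, hm, hr⟩ := SE.exists_scale f hf0
  refine ⟨SE.red ⟨_, hm⟩, hr, fun z => ?_⟩
  have hDI := SE.DI ⟨_, hm⟩ hr (Divisor.pushforward E D)
    (fun P => by rw [hf P]; exact (ord_algebraMap_mul P hc0 f).symm) (κ z)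
  rw [← hDI, ← Finsupp.mapDomain_apply hκ (Finsupp.mapDomain ρ D) z,
    ← Finsupp.mapDomain_comp]
  rw [pushforward_eq_mapDomain_restrict hin D, ← Finsupp.mapDomain_comp]
  have e : κ ∘ ρ = SE.r ∘ fun P : Place K L => P.restrict E := funext hρ
  rw [e]

/-- **(E4), along a homomorphism** (the shape of `S35.H89.Stmt_ModSt`). -/
theorem conserve_along (φ : E →ₐ[K] L) (hφ : φ.toRingHom.IsIntegral)
    (SE : RedSetup K E k E') (hin : ∀ w : Place K L, w.inertiaDegAlong φ hφ = 1)
    (ρ : Place K L → Place k L₁) (κ : Place k L₁ → Place k E') (hκ : Function.Injective κ)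
    (hρ : ∀ P : Place K L, κ (ρ P) = SE.r (P.restrictAlong φ hφ))
    (D : Divisor K L) (hD : (Divisor.pushforwardAlong φ hφ D).IsPrincipal) :
    ∃ h : E', h ≠ 0 ∧ ∀ z : Place k L₁, Finsupp.mapDomain ρ D z = (κ z).ord h := by
  letI := algebraAlong φ
  haveI := isScalarTower_along φ
  haveI := isIntegral_along φ hφ
  exact conserve_level SE hin ρ κ hκ hρ D hD

/-- `P | (w ∘ φ) = (w⁻¹ • P) | φ` for a `K`-automorphism `w` of `L`. -/
theorem restrictAlong_comp_smul (φ : E →ₐ[K] L) (hφ : φ.toRingHom.IsIntegral) (w : L ≃ₐ[K] L)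
    (hwφ : ((w : L →ₐ[K] L).comp φ).toRingHom.IsIntegral) (P : Place K L) :
    P.restrictAlong ((w : L →ₐ[K] L).comp φ) hwφ = (w⁻¹ • P).restrictAlong φ hφ := by
  apply Place.ext
  ext x
  change (w (φ x)) ∈ P.toValuationSubring ↔ φ x ∈ (w⁻¹ • P).toValuationSubring
  rw [Place.smul_toValuationSubring]
  constructor
  · intro h
    refine ⟨w (φ x), h, ?_⟩
    change w⁻¹ (w (φ x)) = φ x
    exact w.symm_apply_apply _
  · rintro ⟨y, hy, hyx⟩
    have : w (φ x) = y := by
      rw [← hyx]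
      change w (w⁻¹ y) = y
      exact w.apply_symm_apply _
    rw [this]
    exact hy

/-- `(w • P) | α = P | β` if `β = w ∘ α` and `w` is an involution. -/
theorem restrictAlong_smul_of_involutive (α : E →ₐ[K] L) (hα : α.toRingHom.IsIntegral)
    (w : L ≃ₐ[K] L) (hww : ∀ x, w (w x) = x) (β' : E →ₐ[K] L)
    (hβ' : β'.toRingHom.IsIntegral) (hβα : ∀ x, β' x = w (α x)) (P : Place K L) :
    (w • P).restrictAlong α hα = P.restrictAlong β' hβ' := by
  apply Place.ext
  ext x
  change α x ∈ (w • P).toValuationSubring ↔ β' x ∈ P.toValuationSubring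
  rw [Place.smul_toValuationSubring, hβα]
  constructor
  · rintro ⟨y, hy, hyx⟩
    have hyx' : w y = α x := hyx
    rw [← hyx', hww]
    exact hy
  · intro h
    exact ⟨w (α x), h, hww _⟩

/-- **(E4) for the mirrored reduction map** `ρ' P = ρ (w • P)` and `β = w ∘ α`. -/
theorem conserve_along_mirror (α : E →ₐ[K] L) (hα : α.toRingHom.IsIntegral)
    (w : L ≃ₐ[K] L) (hww : ∀ x, w (w x) = x) (β' : E →ₐ[K] L)
    (hβ' : β'.toRingHom.IsIntegral) (hβα : ∀ x, β' x = w (α x))
    (SE : RedSetup K E k E') (hin : ∀ P : Place K L, P.inertiaDegAlong β' hβ' = 1)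
    (ρ : Place K L → Place k L₁) (κ : Place k L₁ → Place k E') (hκ : Function.Injective κ)
    (hρ : ∀ P : Place K L, κ (ρ P) = SE.r (P.restrictAlong α hα))
    (D : Divisor K L) (hD : (Divisor.pushforwardAlong β' hβ' D).IsPrincipal) :
    ∃ h : E', h ≠ 0 ∧ ∀ z : Place k L₁,
      Finsupp.mapDomain (fun P => ρ (w • P)) D z = (κ z).ord h :=
  conserve_along β' hβ' SE hin (fun P => ρ (w • P)) κ hκ
    (fun P => by rw [hρ, restrictAlong_smul_of_involutive α hα w hww β' hβ' hβα]) D hD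

end Level

end Fermat.Agent.BAD.H79

end
end
-- ==== END Fermat.Agent.BAD.H79_Mirror

-- ==== BEGIN Fermat.Agent.BAD.H82_Deg
section
attribute [local instance 10000] SubalgebraClass.toAlgebra
attribute [local instance 10000] HahnSeries.powerSeriesAlgebra

/-!
# Item 65, package V2 (helper82), part (D): the residue field of the Gauss valuation of
`F_{Mq} · Q̄` at a prime over `q ∤ M` is `k(j~(t^d) : d ∣ M)`

`N = M q`, `q ∤ M`, `A` over `q`, `k` the residue field of `A`.

* `wq_eq_Fr` : the Atkin-Lehner involution is the substitution `t ↦ t ^ q` on `F_M`;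
* `relfinrank_FM_FN` : `[F_{Mq} · Q̄ : F_M · Q̄] = q + 1`;
* `redField_eq_fullC` **(D1)** : `redField A (F_{Mq} · Q̄) = modularFunctionFieldFullC k M`
  (so `d₁ = 1`);
  proof: if `θ` were a new element of the residue field, the `2 q` elements `j~^i θ^ε` would be
  linearly independent over `red₂ (F_M) ⊆ Fr (F~_M)`, but `f ≤ n = q + 1` for `V₂`.
-/

set_option autoImplicit false



noncomputable section

open ModularCurve Fermat.Agent.S24 Fermat.Agent.S28 Fermat.Agent.S28.H73 Fermat.Agent.RED.H73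
open Fermat.Agent.BAD.H88

namespace Fermat.Agent.BAD.H82

/-! ## Levels `M` and `M q` in characteristic `q` -/

/-- In characteristic `q`: `k(j(t^d) : d ∣ M q) ⊆ k(j(t^d) : d ∣ M)`. -/
theorem fullC_mul_char_le (k : Type*) [Field k] (q M : ℕ) [Fact q.Prime] [CharP k q] :
    modularFunctionFieldFullC k (M * q) ≤ modularFunctionFieldFullC k M := by
  have hq : q.Prime := Fact.out
  rw [modularFunctionFieldFullC, IntermediateField.adjoin_le_iff]
  rintro x ⟨d, hd0, hd, rfl⟩
  haveI := hd0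
  by_cases hqd : q ∣ d
  · obtain ⟨d', rfl⟩ := hqd
    have hd'M : d' ∣ M := by
      have h3 : q * d' ∣ q * M := by rwa [mul_comm q M]
      exact (Nat.mul_dvd_mul_iff_left hq.pos).mp h3
    haveI : NeZero d' := ⟨fun h0 => NeZero.ne (q * d') (by rw [h0, mul_zero])⟩
    haveI : NeZero q := ⟨hq.ne_zero⟩
    have e : qExpand k (q * d') (jqModC k) = (qExpand k d' (jqModC k)) ^ q := by
      rw [Fermat.Agent.RED.H10.pow_char_eq q (qExpand k d' (jqModC k)), coeffMap_qExpand,
        coeffMap_jqModC, qExpand_qExpand]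
    show qExpand k (q * d') (jqModC k) ∈ modularFunctionFieldFullC k M
    rw [e]
    exact pow_mem (jqModCd_mem_full k M hd'M) q
  · have hcop : Nat.Coprime d q := ((Nat.Prime.coprime_iff_not_dvd hq).mpr hqd).symm
    exact jqModCd_mem_full k M (hcop.dvd_of_dvd_mul_right hd)

/-- In characteristic `q`, the substitution `t ↦ t ^ q` maps `k(j(t^d) : d ∣ M)` into itself. -/
theorem Fr_mem_fullC (k : Type*) [Field k] (q M : ℕ) [NeZero M] [NeZero q] [Fact q.Prime]
    [CharP k q] {x : LaurentSeries k} (hx : x ∈ modularFunctionFieldFullC k M) :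
    qExpand k q x ∈ modularFunctionFieldFullC k M := by
  apply fullC_mul_char_le k q M
  apply full_degeneracyC_map_le k M q
  exact ⟨x, hx, rfl⟩

theorem neZero_of_mul_left (q M : ℕ) [NeZero (M * q)] : NeZero M :=
  ⟨fun h => NeZero.ne (M * q) (by rw [h, zero_mul])⟩

section

variable (q M : ℕ) [NeZero (M * q)]

/-- `F_M · Q̄ ⊆ F_{Mq} · Q̄`. -/
theorem FM_le : modularFunctionFieldBar M ≤ modularFunctionFieldBar (M * q) := by
  have : NeZero M := neZero_of_mul_left q M
  show laurentBaseChange Kbar (modularFunctionFieldFull M)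
    ≤ laurentBaseChange Kbar (modularFunctionFieldFull (M * q))
  rw [laurentBaseChange_full_eq, laurentBaseChange_full_eq]
  exact full_degeneracyC_le Kbar (Dvd.intro q rfl)

/-- The inclusion `F_M → F_{Mq}`. -/
def inclM : FN M →ₐ[Kbar] FN (M * q) := IntermediateField.inclusion (FM_le q M)

theorem coe_inclM (x : FN M) : ((inclM q M x : FN (M * q)) : LaurentSeries Kbar) = x :=
  IntermediateField.coe_inclusion (FM_le q M) x

theorem inclM_jdF (d : ℕ) [NeZero d] (hd : d ∣ M) :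
    haveI : NeZero M := neZero_of_mul_left q M
    inclM q M (jdF M d hd) = jdF (M * q) d (Dvd.dvd.mul_right hd q) := by
  have : NeZero M := neZero_of_mul_left q M
  apply Subtype.ext
  rw [coe_inclM, coe_jdF, coe_jdF]

variable (a b : ℤ) (hab : a * q + b * M = 1) (hq : q.Prime)

/-- **`w_q` is the substitution `t ↦ t ^ q` on `F_M`.** -/
theorem wq_eq_Fr (x : FN M) :
    haveI : NeZero q := neZero_of_mul_right q M
    ((wq q M a b hab hq (inclM q M x) : FN (M * q)) : LaurentSeries Kbar)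
      = qExpand Kbar q (x : LaurentSeries Kbar) := by
  have : NeZero q := neZero_of_mul_right q M
  have : NeZero M := neZero_of_mul_left q M
  let f₁ : FN M →+* LaurentSeries Kbar :=
    ((modularFunctionFieldBar (M * q)).val : FN (M * q) →+* LaurentSeries Kbar).comp
      (((wq q M a b hab hq : FN (M * q) ≃ₐ[Kbar] FN (M * q)) : FN (M * q) →+* FN (M * q)).comp
        ((inclM q M : FN M →ₐ[Kbar] FN (M * q)) : FN M →+* FN (M * q)))
  let f₂ : FN M →+* LaurentSeries Kbar :=
    (qExpand Kbar q).comp ((modularFunctionFieldBar M).val : FN M →+* LaurentSeries Kbar)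
  have key : f₁ = f₂ := by
    apply ringHom_ext_jdF M
    · intro c
      show ((wq q M a b hab hq (inclM q M (algebraMap Kbar (FN M) c)) : FN (M * q)) :
        LaurentSeries Kbar) = qExpand Kbar q ((algebraMap Kbar (FN M) c : FN M) : LaurentSeries Kbar)
      rw [(inclM q M).commutes c, AlgEquiv.commutes]
      show algebraMap Kbar (LaurentSeries Kbar) c
        = qExpandAlgHomC Kbar q (algebraMap Kbar (LaurentSeries Kbar) c)
      rw [AlgHom.commutes]
    · intro d hd0 hd
      haveI : NeZero (d * q) := ⟨Nat.mul_ne_zero (NeZero.ne d) (NeZero.ne q)⟩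
      show ((wq q M a b hab hq (inclM q M (jdF M d hd)) : FN (M * q)) : LaurentSeries Kbar)
        = qExpand Kbar q ((jdF M d hd : FN M) : LaurentSeries Kbar)
      rw [inclM_jdF, wq_apply, wqHom_jdF q M a b hab hq d hd, coe_jdF, coe_jdF, qExpand_qExpand]
      exact qExpand_congr (mul_comm d q) _
  exact congrArg (fun f : FN M →+* LaurentSeries Kbar => f x) key

end

/-! ## The degree `[F_{Mq} : F_M] = q + 1` -/

section Degree

variable (q M : ℕ) [NeZero (M * q)]

theorem dedekindPsi_ne_zero' (N : ℕ) [NeZero N] : dedekindPsi N ≠ 0 := by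
  rw [dedekindPsi]
  have h1 : (1 : ℕ) ∈ (N.divisors).filter (fun d => Squarefree d) := by
    rw [Finset.mem_filter]
    exact ⟨Nat.one_mem_divisors.mpr (NeZero.ne N), squarefree_one⟩
  have h2 : N / 1 ≤ ∑ d ∈ (N.divisors).filter (fun d => Squarefree d), N / d :=
    Finset.single_le_sum (f := fun d => N / d) (fun _ _ => Nat.zero_le _) h1
  have h3 : 0 < N := Nat.pos_of_ne_zero (NeZero.ne N)
  rw [Nat.div_one] at h2
  omega

theorem relfinrank_bar (N : ℕ) [NeZero N] :
    (IntermediateField.adjoin Kbar ({jqModC Kbar} : Set (LaurentSeries Kbar))).relfinrank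
      (modularFunctionFieldBar N) = dedekindPsi N := by
  have h := relfinrank_fullC_bar N
  rw [← laurentBaseChange_full_eq (L := AlgebraicClosure ℚ) N] at h
  exact h

theorem adjoin_j_le (N : ℕ) [NeZero N] :
    IntermediateField.adjoin Kbar ({jqModC Kbar} : Set (LaurentSeries Kbar))
      ≤ modularFunctionFieldBar N := by
  rw [IntermediateField.adjoin_le_iff]
  rintro x hx
  rw [Set.mem_singleton_iff] at hx
  subst hx
  have h := (jdF N 1 (one_dvd N)).2
  rw [coe_jdF_one] at h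
  exact h

/-- `[F_{Mq} · Q̄ : F_M · Q̄] = q + 1`. -/
theorem relfinrank_FM_FN (hq : q.Prime) (hqM : ¬ q ∣ M) :
    (modularFunctionFieldBar M).relfinrank (modularFunctionFieldBar (M * q)) = q + 1 := by
  have : NeZero M := neZero_of_mul_left q M
  have h1 := relfinrank_bar M
  have h2 := relfinrank_bar (M * q)
  have hcop : Nat.Coprime M q := ((Nat.Prime.coprime_iff_not_dvd hq).mpr hqM).symm
  rw [Fermat.Agent.S20.H19.dedekindPsi_mul hcop, dedekindPsi_prime hq] at h2
  have h3 := IntermediateField.relfinrank_mul_relfinrank (adjoin_j_le M) (FM_le q M)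
  rw [h1, h2] at h3
  exact Nat.eq_of_mul_eq_mul_left (Nat.pos_of_ne_zero (dedekindPsi_ne_zero' M)) h3

end Degree

/-! ## The residue field -/

section Main

variable (q M : ℕ) [NeZero (M * q)] (a b : ℤ) (hab : a * q + b * M = 1) (hq : q.Prime)
variable (A : ValuationSubring Kbar)

/-- `F_M` as a subfield of `F_{Mq}`. -/
def subM : Subfield (FN (M * q)) :=
  (modularFunctionFieldBar M).toSubfield.comap
    ((modularFunctionFieldBar (M * q)).val : FN (M * q) →+* LaurentSeries Kbar)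

theorem mem_subM_iff (x : FN (M * q)) :
    x ∈ subM q M ↔ (x : LaurentSeries Kbar) ∈ modularFunctionFieldBar M := Iff.rfl

/-- The second reduction map, with values in `k((t))`. -/
def red2LS : ↥(V2 A q M a b hab hq) →+* LaurentSeries (kV A) :=
  (gaussResF A (hSc A q M)).comp (comapRestrict (V1 A q M) (wq q M a b hab hq))

theorem red2LS_mk (x : FN (M * q)) (h : x ∈ V2 A q M a b hab hq) :
    red2LS q M a b hab hq A ⟨x, h⟩
      = gaussRedV A ⟨((wq q M a b hab hq x : FN (M * q)) : LaurentSeries Kbar), h⟩ := rfl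

/-- The image of `F~_M` under the substitution `t ↦ t ^ q`. -/
def kapE : Subfield (LaurentSeries (kV A)) :=
  have : NeZero q := neZero_of_mul_right q M
  (modularFunctionFieldFullC (kV A) M).toSubfield.map (qExpand (kV A) q)

include hq in
/-- The second reduction of an element of `F_M` lies in `Fr (F~_M)`. -/
theorem red2LS_inclM_mem_kapE (hA : A.LiesOverPrime q) (x : FN M)
    (hV : inclM q M x ∈ V2 A q M a b hab hq) :
    red2LS q M a b hab hq A ⟨inclM q M x, hV⟩ ∈ kapE q M A := by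
  have hq0 : NeZero q := neZero_of_mul_right q M
  have hM0 : NeZero M := neZero_of_mul_left q M
  by_cases hx0 : x = 0
  · have h0 : inclM q M x = 0 := by rw [hx0, map_zero]
    have e : (⟨inclM q M x, hV⟩ : ↥(V2 A q M a b hab hq)) = 0 :=
      Subtype.ext (h0.trans (ZeroMemClass.coe_zero _).symm)
    rw [e, map_zero]
    exact (kapE q M A).zero_mem
  -- `w x = Fr x`
  have hwq := wq_eq_Fr q M a b hab hq x
  have hV' : ((wq q M a b hab hq (inclM q M x) : FN (M * q)) : LaurentSeries Kbar)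
      ∈ gaussRingV A := hV
  have hFr : qExpand Kbar q (x : LaurentSeries Kbar) ∈ gaussRingV A := hwq ▸ hV'
  -- `x` is in the Gauss ring
  have hx0' : (x : LaurentSeries Kbar) ≠ 0 := fun h0 => hx0 (Subtype.ext h0)
  have hsc := hasScale_laurentBaseChange A M (x : LaurentSeries Kbar) x.2 hx0'
  have hxG : (x : LaurentSeries Kbar) ∈ gaussRingV A := mem_gaussRingV_of_Fr_mem A q hsc hFr
  -- the reduction
  have e1 : red2LS q M a b hab hq A ⟨inclM q M x, hV⟩
      = qExpand (kV A) q (gaussRedV A ⟨(x : LaurentSeries Kbar), hxG⟩) := by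
    rw [red2LS_mk]
    have e : (⟨((wq q M a b hab hq (inclM q M x) : FN (M * q)) : LaurentSeries Kbar), hV'⟩ :
        gaussRingV A) = ⟨qExpand Kbar q (x : LaurentSeries Kbar), hFr⟩ := Subtype.ext hwq
    rw [e, gaussRedV_Fr A q hxG hFr]
  rw [e1]
  -- the reduction of `x` at level `M`
  have hqM : ¬ q ∣ M := q_not_dvd_M q M a b hab hq
  have hGA := stmt_GA M q hq hqM A hA
  have hmem : gaussRedV A ⟨(x : LaurentSeries Kbar), hxG⟩
      ∈ modularFunctionFieldFullC (kV A) M := by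
    rw [← hGA]
    exact ⟨⟨x, hxG⟩, rfl⟩
  exact ⟨_, hmem, rfl⟩

include hq in
theorem red2LS_mem_kapE (hA : A.LiesOverPrime q) (α : FN (M * q)) (hα : α ∈ subM q M)
    (hV : α ∈ V2 A q M a b hab hq) :
    red2LS q M a b hab hq A ⟨α, hV⟩ ∈ kapE q M A := by
  have hx : inclM q M ⟨(α : LaurentSeries Kbar), hα⟩ = α :=
    Subtype.ext ((coe_inclM q M _).trans (Subtype.coe_mk _ _))
  obtain ⟨x, rfl⟩ : ∃ x : FN M, inclM q M x = α := ⟨_, hx⟩
  exact red2LS_inclM_mem_kapE q M a b hab hq A hA x hV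

/-- The reduction of `j`. -/
theorem gaussRedV_jqModC (h : jqModC Kbar ∈ gaussRingV A) :
    gaussRedV A ⟨jqModC Kbar, h⟩ = jqModC (kV A) := by
  have e0 : iotaV A (jqModC ↥A) = jqModC Kbar := coeffMap_jqModC _
  have e : (⟨jqModC Kbar, h⟩ : gaussRingV A)
      = ⟨iotaV A (jqModC ↥A), iotaV_mem_gaussRingV A _⟩ := Subtype.ext e0.symm
  rw [e, gaussRedV_iotaV]
  exact coeffMap_jqModC _

theorem jqModC_mem_gaussRingV : jqModC Kbar ∈ gaussRingV A := by
  have e0 : iotaV A (jqModC ↥A) = jqModC Kbar := coeffMap_jqModC _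
  rw [← e0]
  exact iotaV_mem_gaussRingV A _

include hab hq in
/-- **(D1), the inclusion**: the residue field of the Gauss valuation of level `M q` is contained
in `k(j~(t^d) : d ∣ M)`. -/
theorem redField_le_fullC (hA : A.LiesOverPrime q) :
    redField A (modularFunctionFieldBar (M * q)) (hSc A q M)
      ≤ modularFunctionFieldFullC (kV A) M := by
  have hq0 : NeZero q := neZero_of_mul_right q M
  have hM0 : NeZero M := neZero_of_mul_left q M
  have hqF : Fact q.Prime := ⟨hq⟩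
  have hchar : CharP (kV A) q := charP_kV A hq hA
  have hqM : ¬ q ∣ M := q_not_dvd_M q M a b hab hq
  intro θ hθ
  by_contra hθE
  obtain ⟨bV, hb⟩ := hθ
  -- `j` in the Gauss valuation ring
  have hjm : (jdF (M * q) 1 (one_dvd _) : FN (M * q)) ∈ V1 A q M := by
    show ((jdF (M * q) 1 (one_dvd _) : FN (M * q)) : LaurentSeries Kbar) ∈ gaussRingV A
    rw [coe_jdF_one]
    exact _root_.Fermat.Agent.BAD.H82.jqModC_mem_gaussRingV A
  set jV : ↥(V1 A q M) := ⟨jdF (M * q) 1 (one_dvd _), hjm⟩ with hjV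
  have hjres : gaussResF A (hSc A q M) jV = jqModC (kV A) := by
    rw [gaussResF_apply]
    have e : (⟨((jV : FN (M * q)) : LaurentSeries Kbar), jV.2⟩ : gaussRingV A)
        = ⟨jqModC Kbar, _root_.Fermat.Agent.BAD.H82.jqModC_mem_gaussRingV A⟩ := Subtype.ext (coe_jdF_one (M * q))
    rw [e, _root_.Fermat.Agent.BAD.H82.gaussRedV_jqModC]
  -- the family
  set y : Fin q × Fin 2 → ↥(V1 A q M) := fun p => jV ^ (p.1 : ℕ) * bV ^ (p.2 : ℕ) with hy
  have hyres : ∀ p, gaussResF A (hSc A q M) (y p)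
      = jqModC (kV A) ^ (p.1 : ℕ) * θ ^ (p.2 : ℕ) := by
    intro p
    rw [hy]
    simp only [map_mul, map_pow, hjres, hb]
  have hum : ∀ p, wq q M a b hab hq ((y p : ↥(V1 A q M)) : FN (M * q)) ∈ V2 A q M a b hab hq := by
    intro p
    rw [wq_mem_V2_iff]
    exact (y p).2
  set u : Fin q × Fin 2 → ↥(V2 A q M a b hab hq) := fun p => ⟨_, hum p⟩ with hu
  have hures : ∀ p, red2LS q M a b hab hq A (u p)
      = jqModC (kV A) ^ (p.1 : ℕ) * θ ^ (p.2 : ℕ) := by
    intro p
    rw [← hyres p]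
    show gaussResF A (hSc A q M) (comapRestrict (V1 A q M) (wq q M a b hab hq) (u p)) = _
    congr 1
    apply Subtype.ext
    exact wq_wq q M a b hab hq _
  -- linear independence of the reductions
  have hκE : kapE q M A ≤ (modularFunctionFieldFullC (kV A) M).toSubfield := by
    rintro _ ⟨x, hx, rfl⟩
    exact Fr_mem_fullC (kV A) q M hx
  have hκF : kapE q M A ≤ FrRange (kV A) q := by
    rintro _ ⟨x, -, rfl⟩
    exact (mem_FrRange_iff (kV A) q _).2 ⟨x, rfl⟩
  have hli0 := linearIndependent_jq_pow_mul (kV A) q (kapE q M A)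
    (modularFunctionFieldFullC (kV A) M).toSubfield hκE hκF (jqModC_mem_full (kV A) M) hθE
  have hli1 : LinearIndependent (kapE q M A) (fun p => red2LS q M a b hab hq A (u p)) := by
    have e : (fun p => red2LS q M a b hab hq A (u p))
        = fun p : Fin q × Fin 2 => jqModC (kV A) ^ (p.1 : ℕ) * θ ^ (p.2 : ℕ) := funext hures
    rw [e]
    exact hli0
  -- `f ≤ n`
  have hli2 := linearIndependent_of_red (subM q M) (V2 A q M a b hab hq)
    (red2LS q M a b hab hq A) (kapE q M A)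
    (fun α hα hV => red2LS_mem_kapE q M a b hab hq A hA α hα hV) u hli1
  rw [Fintype.linearIndependent_iff] at hli2
  -- counting
  have hdeg := relfinrank_FM_FN q M hq hqM
  have hcard := card_le_relfinrank (modularFunctionFieldBar M) (modularFunctionFieldBar (M * q))
    (FM_le q M) (by rw [hdeg]; exact Nat.succ_ne_zero q)
    (fun p => (((u p : ↥(V2 A q M a b hab hq)) : FN (M * q)) : LaurentSeries Kbar))
    (fun p => ((u p : ↥(V2 A q M a b hab hq)) : FN (M * q)).2)
    (by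
      intro g hg hsum p
      have h1 := hli2 (fun p => (⟨⟨g p, FM_le q M (hg p)⟩, hg p⟩ : ↥(subM q M)))
        (Subtype.ext (by
          have h2 : ((∑ p, (⟨⟨g p, FM_le q M (hg p)⟩, hg p⟩ : ↥(subM q M))
              • ((u p : ↥(V2 A q M a b hab hq)) : FN (M * q)) : FN (M * q)) : LaurentSeries Kbar)
              = ∑ p, g p * (((u p : ↥(V2 A q M a b hab hq)) : FN (M * q)) : LaurentSeries Kbar) := by
            rw [← IntermediateField.coe_val, map_sum]
            exact Finset.sum_congr rfl (fun p _ => rfl)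
          rw [h2, hsum]
          rfl)) p
      exact congrArg (fun z : ↥(subM q M) => ((z : FN (M * q)) : LaurentSeries Kbar)) h1)
  rw [hdeg, Fintype.card_prod, Fintype.card_fin, Fintype.card_fin] at hcard
  have hq2 : 2 ≤ q := hq.two_le
  omega

/-- The easy inclusion: `k(j~(t^d) : d ∣ M)` is contained in the residue field of the Gauss
valuation of level `M q`. -/
theorem fullC_le_redField_bar :
    modularFunctionFieldFullC (kV A) M
      ≤ redField A (modularFunctionFieldBar (M * q)) (hSc A q M) := by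
  rw [modularFunctionFieldFullC, IntermediateField.adjoin_le_iff]
  rintro x ⟨d, hd0, hd, rfl⟩
  have hm : ((jdF (M * q) d (Dvd.dvd.mul_right hd q) : FN (M * q)) : LaurentSeries Kbar)
      ∈ gaussRingV A := by
    rw [coe_jdF]
    exact qExpand_jqModC_mem_gaussRingV A d
  refine ⟨⟨jdF (M * q) d (Dvd.dvd.mul_right hd q), hm⟩, ?_⟩
  rw [gaussResF_apply]
  have e : (⟨((jdF (M * q) d (Dvd.dvd.mul_right hd q) : FN (M * q)) : LaurentSeries Kbar), hm⟩ :
      gaussRingV A) = ⟨qExpand Kbar d (jqModC Kbar), qExpand_jqModC_mem_gaussRingV A d⟩ :=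
    Subtype.ext (coe_jdF (M * q) d (Dvd.dvd.mul_right hd q))
  exact (congrArg (gaussRedV A) e).trans (gaussRedV_qExpand_jqModC A d _)

include hab hq in
/-- **(D1)**: the residue field of the Gauss valuation of `F_{Mq} · Q̄` at a prime over `q ∤ M`
is `k(j~(t^d) : d ∣ M)`; in particular `d₁ = [F₁ : red₁ (F_M)] = 1`. -/
theorem redField_eq_fullC (hA : A.LiesOverPrime q) :
    redField A (modularFunctionFieldBar (M * q)) (hSc A q M)
      = modularFunctionFieldFullC (kV A) M :=
  le_antisymm (redField_le_fullC q M a b hab hq A hA) (fullC_le_redField_bar q M A)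

include hab hq in
/-- **(D1)**, second form: the residue fields of the Gauss valuations of levels `M q` and `M`
coincide. -/
theorem redField_eq_redField (hA : A.LiesOverPrime q) :
    redField A (modularFunctionFieldBar (M * q)) (hSc A q M)
      = redField A (modularFunctionFieldBar M) (hasScale_laurentBaseChange A M) := by
  have hM0 : NeZero M := neZero_of_mul_left q M
  rw [redField_eq_fullC q M a b hab hq A hA]
  exact (stmt_GA M q hq (q_not_dvd_M q M a b hab hq) A hA).symm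

end Main



end Fermat.Agent.BAD.H82

end
end
-- ==== END Fermat.Agent.BAD.H82_Deg

-- ==== BEGIN Fermat.Agent.GTor.Clo.A3
section
attribute [local instance 10000] SubalgebraClass.toAlgebra
attribute [local instance 10000] HahnSeries.powerSeriesAlgebra

/-!
# G-TOR A3: every point of `ℍ` defines a place of `F_ℂ`, with ramification `ellOrder`

Assembly from the work packages GC4/GCtriv (`GC4.lean`), Stab (`Stab.lean`), Ell (`Ell.lean`),
Ratio (`Ratio.lean`) and the Galois closure over `ℂ` (`Final.lean`).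
-/

set_option autoImplicit false

noncomputable section

namespace Fermat.Agent.GTor.Clo

open Fermat.Agent.S24 Fermat.Agent.GTor

open ModularCurve AlgebraicCurve UpperHalfPlane ModularGroup CongruenceSubgroup WithZero
  IntermediateField
open scoped MatrixGroups

/-- A complex number as an element of `Kbar` (which unfolds to `ℂ`). -/
def toKbar (c : ℂ) : _root_.Fermat.Agent.GTor.Clo.Kbar := c

theorem iotaC_toKbar (c : ℂ) : _root_.Fermat.Agent.GTor.Clo.iotaC (toKbar c) = c := rfl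

/-- The shifted generator `j - j(z)` of `EN`. -/
def tSub (z : ℍ) : _root_.Fermat.Agent.GTor.Clo.EN := _root_.Fermat.Agent.GTor.Clo.tE - algebraMap _root_.Fermat.Agent.GTor.Clo.Kbar _root_.Fermat.Agent.GTor.Clo.EN (toKbar (jAn z))

theorem wN_tSub (N : ℕ) [NeZero N] (z : ℍ) :
    _root_.Fermat.Agent.GTor.Clo.wN N z (algebraMap _root_.Fermat.Agent.GTor.Clo.EN (_root_.Fermat.Agent.GTor.Clo.LN N) (tSub z)) = exp (-(jOrd z : ℤ)) :=
  _root_.Fermat.Agent.GTor.Clo.wN_j N z (toKbar (jAn z)) (iotaC_toKbar _)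

theorem exp_neg_natCast_lt_one {n : ℕ} (hn : 0 < n) : (exp (-(n : ℤ)) : ℤᵐ⁰) < 1 := by
  rw [← WithZero.exp_zero, WithZero.exp_lt_exp]
  omega

theorem wN_piN_of_smul_eq (N : ℕ) [NeZero N] (z : ℍ) (γ : SL(2, ℤ)) (hγ : γ • z = z)
    (y : _root_.Fermat.Agent.GTor.Clo.LN N) : _root_.Fermat.Agent.GTor.Clo.wN N z (_root_.Fermat.Agent.GTor.Clo.piN N γ y) = _root_.Fermat.Agent.GTor.Clo.wN N z y := by
  rw [_root_.Fermat.Agent.GTor.Clo.wN_piN]
  have : γ⁻¹ • z = z := by
    rw [inv_smul_eq_iff, hγ]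
  rw [this]

/-- The key formula at a point, for `1 < N`. -/
theorem exists_place_wN (N : ℕ) [NeZero N] (hN : 1 < N) (z : ℍ) :
    ∃ v : Place _root_.Fermat.Agent.GTor.Clo.Kbar (_root_.Fermat.Agent.GTor.Clo.FN N), ∀ f : _root_.Fermat.Agent.GTor.Clo.FN N, f ≠ 0 →
      _root_.Fermat.Agent.GTor.Clo.wN N z (algebraMap (_root_.Fermat.Agent.GTor.Clo.FN N) (_root_.Fermat.Agent.GTor.Clo.LN N) f) = exp (-((ellOrder N z : ℤ) * v.ord f)) := by
  obtain ⟨γ, hγ, hγ'⟩ := exists_stabilizer_generator z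
  have hγz : γ • z = z := by
    have : γ ∈ MulAction.stabilizer SL(2, ℤ) z := by
      rw [hγ]; exact Subgroup.mem_zpowers γ
    exact this
  have hord : orderOf (_root_.Fermat.Agent.GTor.Clo.piN N γ) = jOrd z := orderOf_piN_stab N hN z γ hγ hγ'
  obtain ⟨v, -, hv⟩ := gc_val_eq (K := _root_.Fermat.Agent.GTor.Clo.Kbar) (E := _root_.Fermat.Agent.GTor.Clo.EN) (F := _root_.Fermat.Agent.GTor.Clo.FN N) (L := _root_.Fermat.Agent.GTor.Clo.LN N) (tSub z)
    (_root_.Fermat.Agent.GTor.Clo.h85_transcendental_sub _root_.Fermat.Agent.GTor.Clo.tE_transcendental _) (_root_.Fermat.Agent.GTor.Clo.h85_gen_sub _root_.Fermat.Agent.GTor.Clo.tE_gen _)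
    (_root_.Fermat.Agent.GTor.Clo.wN N z) (_root_.Fermat.Agent.GTor.Clo.wN_algebraMap N z)
    (by rw [wN_tSub]; exact exp_neg_natCast_lt_one (jOrd_pos z))
    (_root_.Fermat.Agent.GTor.Clo.piN N γ) (wN_piN_of_smul_eq N z γ hγz)
    (by rw [wN_tSub, hord])
  refine ⟨v, fun f hf => ?_⟩
  rw [hv f hf, card_zpowers_inf_fixF N hN z γ hγ hγ']

theorem adjoin_jF_sub_eq_top (N : ℕ) [NeZero N] (hN : N = 1) (z : ℍ) :
    _root_.Fermat.Agent.GTor.Clo.Kbar⟮_root_.Fermat.Agent.GTor.Clo.jF N - algebraMap _root_.Fermat.Agent.GTor.Clo.Kbar (_root_.Fermat.Agent.GTor.Clo.FN N) (toKbar (jAn z))⟯ = ⊤ := by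
  rw [eq_top_iff, ← _root_.Fermat.Agent.GTor.Clo.asm_one_adjoin N hN, adjoin_simple_le_iff]
  have h1 := add_mem
    (mem_adjoin_simple_self _root_.Fermat.Agent.GTor.Clo.Kbar (_root_.Fermat.Agent.GTor.Clo.jF N - algebraMap _root_.Fermat.Agent.GTor.Clo.Kbar (_root_.Fermat.Agent.GTor.Clo.FN N) (toKbar (jAn z))))
    (IntermediateField.algebraMap_mem
      (_root_.Fermat.Agent.GTor.Clo.Kbar⟮_root_.Fermat.Agent.GTor.Clo.jF N - algebraMap _root_.Fermat.Agent.GTor.Clo.Kbar (_root_.Fermat.Agent.GTor.Clo.FN N) (toKbar (jAn z))⟯) (toKbar (jAn z)))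
  rwa [sub_add_cancel] at h1

/-- The key formula at a point, for `N = 1`, with the vanishing of `j - j(z)`. -/
theorem exists_place_wN_one' (N : ℕ) [NeZero N] (hN : N = 1) (z : ℍ) :
    ∃ v : Place _root_.Fermat.Agent.GTor.Clo.Kbar (_root_.Fermat.Agent.GTor.Clo.FN N), 0 < v.ord (_root_.Fermat.Agent.GTor.Clo.jF N - algebraMap _root_.Fermat.Agent.GTor.Clo.Kbar (_root_.Fermat.Agent.GTor.Clo.FN N) (toKbar (jAn z))) ∧
      ∀ f : _root_.Fermat.Agent.GTor.Clo.FN N, f ≠ 0 →
        _root_.Fermat.Agent.GTor.Clo.wN N z (algebraMap (_root_.Fermat.Agent.GTor.Clo.FN N) (_root_.Fermat.Agent.GTor.Clo.LN N) f) = exp (-((ellOrder N z : ℤ) * v.ord f)) := by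
  have hx : Transcendental _root_.Fermat.Agent.GTor.Clo.Kbar (_root_.Fermat.Agent.GTor.Clo.jF N - algebraMap _root_.Fermat.Agent.GTor.Clo.Kbar (_root_.Fermat.Agent.GTor.Clo.FN N) (toKbar (jAn z))) :=
    _root_.Fermat.Agent.GTor.Clo.h85_transcendental_sub (_root_.Fermat.Agent.GTor.Clo.asm_one_transcendental N) _
  have htop := adjoin_jF_sub_eq_top N hN z
  have hmap : algebraMap (_root_.Fermat.Agent.GTor.Clo.FN N) (_root_.Fermat.Agent.GTor.Clo.LN N) (_root_.Fermat.Agent.GTor.Clo.jF N - algebraMap _root_.Fermat.Agent.GTor.Clo.Kbar (_root_.Fermat.Agent.GTor.Clo.FN N) (toKbar (jAn z)))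
      = algebraMap _root_.Fermat.Agent.GTor.Clo.EN (_root_.Fermat.Agent.GTor.Clo.LN N) (tSub z) := by
    rw [tSub, map_sub, map_sub, ← _root_.Fermat.Agent.GTor.Clo.tE_map_FN N, ← IsScalarTower.algebraMap_apply _root_.Fermat.Agent.GTor.Clo.EN (_root_.Fermat.Agent.GTor.Clo.FN N) (_root_.Fermat.Agent.GTor.Clo.LN N),
      ← IsScalarTower.algebraMap_apply _root_.Fermat.Agent.GTor.Clo.Kbar (_root_.Fermat.Agent.GTor.Clo.FN N) (_root_.Fermat.Agent.GTor.Clo.LN N),
      ← IsScalarTower.algebraMap_apply _root_.Fermat.Agent.GTor.Clo.Kbar _root_.Fermat.Agent.GTor.Clo.EN (_root_.Fermat.Agent.GTor.Clo.LN N)]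
  obtain ⟨v, hv0, hv⟩ := gc_val_triv (K := _root_.Fermat.Agent.GTor.Clo.Kbar) (F := _root_.Fermat.Agent.GTor.Clo.FN N)
    (_root_.Fermat.Agent.GTor.Clo.jF N - algebraMap _root_.Fermat.Agent.GTor.Clo.Kbar (_root_.Fermat.Agent.GTor.Clo.FN N) (toKbar (jAn z))) hx htop
    ((_root_.Fermat.Agent.GTor.Clo.wN N z).comap (algebraMap (_root_.Fermat.Agent.GTor.Clo.FN N) (_root_.Fermat.Agent.GTor.Clo.LN N)))
    (fun c hc => by
      rw [Valuation.comap_apply, ← IsScalarTower.algebraMap_apply _root_.Fermat.Agent.GTor.Clo.Kbar (_root_.Fermat.Agent.GTor.Clo.FN N) (_root_.Fermat.Agent.GTor.Clo.LN N)]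
      exact _root_.Fermat.Agent.GTor.Clo.wN_algebraMap N z c hc)
    (jOrd z) (jOrd_pos z)
    (by rw [Valuation.comap_apply, hmap, wN_tSub])
  refine ⟨v, hv0, fun f hf => ?_⟩
  have := hv f hf
  rw [Valuation.comap_apply] at this
  rw [this]
  subst hN
  rw [ellOrder_one]

/-- The key formula at a point, for `N = 1`. -/
theorem exists_place_wN_one (N : ℕ) [NeZero N] (hN : N = 1) (z : ℍ) :
    ∃ v : Place _root_.Fermat.Agent.GTor.Clo.Kbar (_root_.Fermat.Agent.GTor.Clo.FN N), ∀ f : _root_.Fermat.Agent.GTor.Clo.FN N, f ≠ 0 →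
      _root_.Fermat.Agent.GTor.Clo.wN N z (algebraMap (_root_.Fermat.Agent.GTor.Clo.FN N) (_root_.Fermat.Agent.GTor.Clo.LN N) f) = exp (-((ellOrder N z : ℤ) * v.ord f)) := by
  obtain ⟨v, -, hv⟩ := exists_place_wN_one' N hN z
  exact ⟨v, hv⟩

/-- From the key formula to `IsPlaceAt`. -/
theorem isPlaceAt_of_wN (N : ℕ) [NeZero N] (z : ℍ) (v : Place _root_.Fermat.Agent.GTor.Clo.Kbar (_root_.Fermat.Agent.GTor.Clo.FN N))
    (hv : ∀ f : _root_.Fermat.Agent.GTor.Clo.FN N, f ≠ 0 →
      _root_.Fermat.Agent.GTor.Clo.wN N z (algebraMap (_root_.Fermat.Agent.GTor.Clo.FN N) (_root_.Fermat.Agent.GTor.Clo.LN N) f) = exp (-((ellOrder N z : ℤ) * v.ord f))) :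
    IsPlaceAt N v z := by
  intro f k A B hf hAB
  have h1 := hv f hf
  have h2 := wN_of_isRatio N z f hf k A B hAB
  rw [h1] at h2
  have h3 := WithZero.exp_injective h2
  have h4 : (ellOrder N z : ℤ) * v.ord f = ordAt A z - ordAt B z := neg_injective h3
  exact h4.symm

/-- **A3**: the place of `F_ℂ` at a point of `ℍ`. -/
theorem exists_isPlaceAt (N : ℕ) [NeZero N] (z : ℍ) :
    ∃ v : Place ℂ (FNL ℂ N), IsPlaceAt N v z := by
  have key : ∃ v : Place _root_.Fermat.Agent.GTor.Clo.Kbar (_root_.Fermat.Agent.GTor.Clo.FN N), ∀ f : _root_.Fermat.Agent.GTor.Clo.FN N, f ≠ 0 →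
      _root_.Fermat.Agent.GTor.Clo.wN N z (algebraMap (_root_.Fermat.Agent.GTor.Clo.FN N) (_root_.Fermat.Agent.GTor.Clo.LN N) f) = exp (-((ellOrder N z : ℤ) * v.ord f)) := by
    rcases Nat.lt_or_ge 1 N with hN | hN
    · exact exists_place_wN N hN z
    · exact exists_place_wN_one N (le_antisymm hN (Nat.pos_of_ne_zero (NeZero.ne N))) z
  obtain ⟨v, hv⟩ := key
  exact ⟨v, isPlaceAt_of_wN N z v hv⟩

theorem stmt_A3 (N : ℕ) [NeZero N] : Stmt_A3 N :=
  fun z => ⟨ellOrder_pos N z, exists_isPlaceAt N z⟩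

end Fermat.Agent.GTor.Clo

end
end
-- ==== END Fermat.Agent.GTor.Clo.A3
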