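-- GENERATED (merged mirror, NOTES/tools/trim/merge3_helper67.py): 4 modules of the originals, bodies verbatim.
import Fermat.Agent.Zm.S35_L11_001
import Fermat.Agent.Zm.S35_L14_002
import Fermat.Agent.Zm.S35_L13_001
import Fermat.Agent.Zm.S35_L14_001
import Fermat.Agent.Zm.S35_L13_002
import Fermat.Agent.Zm.S35_L06_002
import Fermat.Agent.Zm.S35_L14_000
import Fermat.Agent.Zm.S35_L02_005

-- ==== BEGIN Fermat.Agent.S15.H26_CuspEisGood
section
attribute [local instance 10000] SubalgebraClass.toAlgebra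
attribute [local instance 10000] HahnSeries.powerSeriesAlgebra

/-!
# S15, package CUSP-eis at the good primes (helper26): `T_ℓ [P∞ - P0] = (1 + ℓ) [P∞ - P0]`, `ℓ ≠ p`

Divisor level.  `T_ℓ = α_* β^*` on `Div(F_p)`.
* `T_ℓ (div f) = div (n_ℓ f)`, `n_ℓ f = Norm_α (β f)` (helper2), and the `q`-expansion of `n_ℓ f`
  (helper95's norm series) has order `(ℓ + 1) ord_q f`.  By helper2's principle (additive maps on
  divisors are determined by the principal divisors): `(T_ℓ D)(P∞) = (ℓ + 1) D(P∞)` for ALL `D`.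
* `T_ℓ v` is effective of degree `ℓ + 1` (helper95: `[F_{pℓ} : β F_p] = ℓ + 1`), so
  `T_ℓ P∞ = (ℓ + 1) P∞`.
* `T_ℓ P0` is supported on the poles of `j` (`j(q^ℓ)` is integral over `ℚ̄[j]`), i.e. on
  `{P∞, P0}`, and its coefficient at `P∞` is `0`: `T_ℓ P0 = (ℓ + 1) P0`.
-/

set_option autoImplicit false
set_option synthInstance.maxHeartbeats 400000
set_option linter.style.haveILetI false
set_option linter.unusedSectionVars false
set_option linter.unusedVariables false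

noncomputable section

open HahnSeries IntermediateField AlgebraicCurve ModularCurve

namespace Fermat.Agent.S15.H26

open Fermat.Agent.S24 (Kbar FN jF jdF modClosure asm_finrank asm_finiteDimensional
  asm_transcendental_jF h72_zerosStmt)
open Fermat.Agent.RED.KD.H22 (cuspInf cuspZero ord_cuspInf)
open Fermat.Agent.RED (H10.rot)

/-! ## Orders of Laurent series -/

theorem order_rot (u : Kbarˣ) (x : LaurentSeries Kbar) :
    (Fermat.Agent.RED.H10.rot u x).order = x.order := by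
  rcases eq_or_ne x 0 with rfl | hx
  · rw [map_zero]
  have hrx : Fermat.Agent.RED.H10.rot u x ≠ 0 := by
    intro h0
    apply hx
    ext n
    have := congrArg (fun y : LaurentSeries Kbar => y.coeff n) h0
    simp only [Fermat.Agent.RED.H10.rot_coeff, HahnSeries.coeff_zero] at this
    rcases mul_eq_zero.mp this with h | h
    · exact absurd h (Units.ne_zero _)
    · rw [h]; rfl
  apply le_antisymm
  · apply HahnSeries.order_le_of_coeff_ne_zero
    rw [Fermat.Agent.RED.H10.rot_coeff]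
    exact mul_ne_zero (Units.ne_zero _) (fun h => hx (HahnSeries.coeff_order_eq_zero.mp h))
  · apply HahnSeries.order_le_of_coeff_ne_zero
    intro h
    apply hrx
    apply HahnSeries.coeff_order_eq_zero.mp
    rw [Fermat.Agent.RED.H10.rot_coeff, h, mul_zero]

theorem rot_ne_zero (u : Kbarˣ) {x : LaurentSeries Kbar} (hx : x ≠ 0) :
    Fermat.Agent.RED.H10.rot u x ≠ 0 := by
  intro h0
  apply hx
  ext n
  have := congrArg (fun y : LaurentSeries Kbar => y.coeff n) h0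
  simp only [Fermat.Agent.RED.H10.rot_coeff, HahnSeries.coeff_zero] at this
  rcases mul_eq_zero.mp this with h | h
  · exact absurd h (Units.ne_zero _)
  · rw [h]; rfl

theorem order_prod_rot (ζ : Kbarˣ) {x : LaurentSeries Kbar} (hx : x ≠ 0) (n : ℕ) :
    (∏ b ∈ Finset.range n, Fermat.Agent.RED.H10.rot (ζ ^ b) x) ≠ 0 ∧
    (∏ b ∈ Finset.range n, Fermat.Agent.RED.H10.rot (ζ ^ b) x).order = (n : ℤ) * x.order := by
  induction n with
  | zero => simp
  | succ n ih =>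
    rw [Finset.prod_range_succ]
    refine ⟨mul_ne_zero ih.1 (rot_ne_zero _ hx), ?_⟩
    rw [HahnSeries.order_mul ih.1 (rot_ne_zero _ hx), ih.2, order_rot]
    push_cast
    ring

/-- The `q`-order of the norm function `n_ℓ f` is `(ℓ + 1) ord_q f`. -/
theorem order_heckeNormFn (N ℓ : ℕ) [NeZero N] [NeZero ℓ] (hℓ : ℓ.Prime) (hN : ¬ ℓ ∣ N)
    (f : FN N) (hf : f ≠ 0) :
    ((Fermat.Agent.GTor.H2.heckeNormFn Kbar N ℓ f : FN N) : LaurentSeries Kbar).order
      = ((ℓ : ℤ) + 1) * (f : LaurentSeries Kbar).order := by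
  obtain ⟨ζ, hζ⟩ : ∃ ζ : Kbarˣ, IsPrimitiveRoot ζ ℓ := by
    obtain ⟨z, hz⟩ := HasEnoughRootsOfUnity.exists_primitiveRoot Kbar ℓ
    have hz0 : z ≠ 0 := hz.ne_zero (NeZero.ne ℓ)
    exact ⟨Units.mk0 z hz0, IsPrimitiveRoot.coe_units_iff.mp (by simpa using hz)⟩
  have hfin : FiniteAlong Kbar (heckeAlphaBar Kbar N ℓ) :=
    (Fermat.Agent.RED.H51.stmt_HKA N ℓ).snd.snd.snd.fst
  have hg0 : Fermat.Agent.GTor.H2.heckeNormFn Kbar N ℓ f ≠ 0 :=
    Fermat.Agent.GTor.H2.heckeNormFn_ne_zero Kbar N ℓ hfin hf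
  have hg0' : ((Fermat.Agent.GTor.H2.heckeNormFn Kbar N ℓ f : FN N) : LaurentSeries Kbar) ≠ 0 :=
    fun h => hg0 (Subtype.ext h)
  have hf' : (f : LaurentSeries Kbar) ≠ 0 := fun h => hf (Subtype.ext h)
  have key := Fermat.Agent.RED.H95.stmt_NormSeries N ℓ hℓ hN ζ hζ f
  have hk : qExpand Kbar ℓ
      ((Fermat.Agent.GTor.H2.heckeNormFn Kbar N ℓ f : FN N) : LaurentSeries Kbar)
      = qExpand Kbar ℓ (qExpand Kbar ℓ (f : LaurentSeries Kbar))
        * ∏ b ∈ Finset.range ℓ, Fermat.Agent.RED.H10.rot (ζ ^ b) (f : LaurentSeries Kbar) := key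
  have h1 := congrArg HahnSeries.order hk
  have hq1 : qExpand Kbar ℓ (f : LaurentSeries Kbar) ≠ 0 :=
    fun h0 => hf' (qExpand_injective ℓ (by rw [h0, map_zero]))
  have hq2 : qExpand Kbar ℓ (qExpand Kbar ℓ (f : LaurentSeries Kbar)) ≠ 0 :=
    fun h0 => hq1 (qExpand_injective ℓ (by rw [h0, map_zero]))
  obtain ⟨hp0, hpord⟩ := order_prod_rot ζ hf' ℓ
  rw [Fermat.Agent.S15.H22.order_qExpand ℓ _ hg0', HahnSeries.order_mul hq2 hp0,
    Fermat.Agent.S15.H22.order_qExpand ℓ _ hq1, Fermat.Agent.S15.H22.order_qExpand ℓ _ hf',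
    hpord] at h1
  have hℓ0 : (0 : ℤ) < ℓ := by exact_mod_cast hℓ.pos
  have : (ℓ : ℤ) * ((Fermat.Agent.GTor.H2.heckeNormFn Kbar N ℓ f : FN N) :
      LaurentSeries Kbar).order = (ℓ : ℤ) * (((ℓ : ℤ) + 1) * (f : LaurentSeries Kbar).order) := by
    rw [h1]; ring
  exact mul_left_cancel₀ hℓ0.ne' this

/-! ## Coefficient projections -/

section Coeff

variable {K F : Type*} [Field K] [Field F] [Algebra K F]

/-- `D ↦ n D(P) [P]`. -/
def coeffAtMul (P : Place K F) (n : ℤ) : Divisor K F →+ Divisor K F :=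
  (Finsupp.singleAddHom P).comp ((AddMonoidHom.mulLeft n).comp (Finsupp.applyAddHom P))

theorem coeffAtMul_apply (P : Place K F) (n : ℤ) (D : Divisor K F) :
    coeffAtMul P n D = Finsupp.single P (n * D P) := rfl

theorem finPre_coeffAtMul (P : Place K F) (n : ℤ) :
    Fermat.Agent.Lib.HeckeComm.FinPre (coeffAtMul P n) := by
  intro w
  refine (Set.finite_singleton P).subset fun v hv => ?_
  rw [Set.mem_ofPred_eq, coeffAtMul_apply] at hv
  rw [Set.mem_singleton_iff]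
  by_contra hne
  apply hv
  have h0 : (Finsupp.single v (1 : ℤ)) P = 0 := Finsupp.single_eq_of_ne (fun h => hne h.symm)
  rw [h0, mul_zero, Finsupp.single_zero]
  rfl

end Coeff

/-! ## Correspondences on places -/

section Corr

variable {K F F' : Type*} [Field K] [Field F] [Field F'] [Algebra K F] [Algebra K F']
  [HasPrincipalDivisors K F']
  (φ ψ : F →ₐ[K] F') (hφ : φ.toRingHom.IsIntegral) (hψ : ψ.toRingHom.IsIntegral)

theorem correspondence_single_nonneg (v u : Place K F) :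
    0 ≤ Divisor.correspondence φ ψ hφ hψ (Finsupp.single v 1) u := by
  classical
  rw [Divisor.correspondence_apply, Divisor.pullbackAlong_single, map_sum,
    Finsupp.finsetSum_apply]
  refine Finset.sum_nonneg fun W _ => ?_
  rw [Divisor.pushforwardAlong_single, Finsupp.single_apply]
  split_ifs
  · positivity
  · exact le_rfl

theorem correspondence_single_support (v u : Place K F)
    (hu : Divisor.correspondence φ ψ hφ hψ (Finsupp.single v 1) u ≠ 0) :
    ∃ W : Place K F', W.restrictAlong φ hφ = v ∧ W.restrictAlong ψ hψ = u := by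
  classical
  rw [Divisor.correspondence_apply, Divisor.pullbackAlong_single, map_sum,
    Finsupp.finsetSum_apply] at hu
  obtain ⟨W, hW, hne⟩ := Finset.exists_ne_zero_of_sum_ne_zero hu
  refine ⟨W, Place.mem_fiberAlong.mp hW, ?_⟩
  rw [Divisor.pushforwardAlong_single, Finsupp.single_apply] at hne
  by_contra h
  exact hne (if_neg h)

end Corr

/-! ## The coefficient of `T_ℓ D` at `P∞` -/

section Good

variable (N ℓ : ℕ) [NeZero N] [NeZero ℓ]
  (hα : HeckeAlphaBarIntegral Kbar N ℓ) (hβ : HeckeBetaBarIntegral Kbar N ℓ)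
  [HasPrincipalDivisors Kbar (laurentBaseChange Kbar (modularFunctionFieldFull (N * ℓ)))]

/-- `(T_ℓ D)(P∞) = (ℓ + 1) D(P∞)` for every divisor `D` of `X₀(N)`, `ℓ ∤ N`. -/
theorem heckeDivBar_apply_cuspInf (hℓ : ℓ.Prime) (hN : ¬ ℓ ∣ N)
    (hfin : FiniteAlong Kbar (heckeAlphaBar Kbar N ℓ))
    (hNF : NormFormulaAlong Kbar (heckeAlphaBar Kbar N ℓ) hfin)
    (D : Divisor Kbar (FN N)) :
    heckeDivBar (L := Kbar) hα hβ D (cuspInf N) = ((ℓ : ℤ) + 1) * D (cuspInf N) := by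
  haveI := Fermat.Agent.Lib.HeckeComm.hasPrincipalDivisors_FN N
  have key : (coeffAtMul (cuspInf N) 1).comp (heckeDivBar (L := Kbar) hα hβ)
      = coeffAtMul (cuspInf N) ((ℓ : ℤ) + 1) := by
    refine Fermat.Agent.Lib.HeckeComm.eq_of_eq_on_principal _ _
      (Fermat.Agent.Lib.HeckeComm.FinPre.comp (finPre_coeffAtMul _ _)
        (Fermat.Agent.Lib.HeckeComm.finPre_heckeDivBar N ℓ hα hβ))
      (finPre_coeffAtMul _ _) ?_
    intro f D hf hD
    rw [AddMonoidHom.comp_apply, coeffAtMul_apply, coeffAtMul_apply, one_mul,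
      Fermat.Agent.Lib.HeckeComm.heckeDivBar_ord N ℓ hα hβ hfin hNF D hf hD, hD,
      ord_cuspInf N _ (Fermat.Agent.GTor.H2.heckeNormFn_ne_zero Kbar N ℓ hfin hf),
      ord_cuspInf N f hf, order_heckeNormFn N ℓ hℓ hN f hf]
  have h := congrArg (fun Φ : Divisor Kbar (FN N) →+ Divisor Kbar (FN N) => Φ D (cuspInf N)) key
  simp only [AddMonoidHom.comp_apply, coeffAtMul_apply, one_mul, Finsupp.single_eq_same] at h
  exact h

/-- `T_ℓ` of a place is an effective divisor. -/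
theorem heckeDivBar_single_nonneg (v u : Place Kbar (FN N)) :
    0 ≤ heckeDivBar (L := Kbar) hα hβ (Finsupp.single v 1) u :=
  correspondence_single_nonneg (heckeBetaBar Kbar N ℓ) (heckeAlphaBar Kbar N ℓ) hβ hα v u

/-- The support of `T_ℓ v`: the places `α_* W`, `W` over `v` along `β`. -/
theorem heckeDivBar_single_support (v u : Place Kbar (FN N))
    (hu : heckeDivBar (L := Kbar) hα hβ (Finsupp.single v 1) u ≠ 0) :
    ∃ W : Place Kbar (laurentBaseChange Kbar (modularFunctionFieldFull (N * ℓ))),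
      W.restrictAlong (heckeBetaBar Kbar N ℓ) hβ = v ∧
      W.restrictAlong (heckeAlphaBar Kbar N ℓ) hα = u :=
  correspondence_single_support (heckeBetaBar Kbar N ℓ) (heckeAlphaBar Kbar N ℓ) hβ hα v u hu

end Good

/-! ## `j(q^d)` is integral over `ℚ̄[j]`: the poles of `j(q^d)` are poles of `j` -/

open Fermat.Agent.S24 in
theorem isIntegral_jdF (N : ℕ) [NeZero N] (d : ℕ) [NeZero d] (hd : d ∣ N) :
    IsIntegral (Polynomial Kbar) (jdF N d hd) := by
  haveI : Algebra.IsInvariant (Polynomial Kbar) (AT N) (G0 N) := (isGaloisGroup_G0 N).isInvariant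
  haveI : Algebra.IsIntegral (Polynomial Kbar) (AT N) :=
    Algebra.IsInvariant.isIntegral (Polynomial Kbar) (AT N) (G0 N)
  obtain ⟨P, hP, hPx⟩ := Algebra.IsIntegral.isIntegral (R := Polynomial Kbar) (toAT N (jdA N d))
  refine ⟨P, hP, ?_⟩
  apply (phi N).toRingHom.injective
  have hcomp : ((phi N).toRingHom).comp (algebraMap (Polynomial Kbar) (FN N))
      = (algebraMap (AT N) (LN N)).comp (algebraMap (Polynomial Kbar) (AT N)) := by
    refine Polynomial.ringHom_ext (fun q => ?_) ?_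
    · show phi N (algebraMap (Polynomial Kbar) (FN N) (Polynomial.C q)) = _
      rw [algebraMap_poly_FN, phi_aeval_jF]
      rfl
    · show phi N (algebraMap (Polynomial Kbar) (FN N) Polynomial.X) = _
      rw [algebraMap_poly_FN, phi_aeval_jF]
      rfl
  rw [map_zero, Polynomial.hom_eval₂, hcomp]
  show Polynomial.eval₂ _ (phi N (jdF N d hd)) P = 0
  rw [phi_jdF, ← Polynomial.hom_eval₂, hPx, map_zero]

open Fermat.Agent.S24 in
/-- A place of `X₀(N)` which is not a pole of `j` is not a pole of `j(q^d)`. -/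
theorem ord_jdF_nonneg (N : ℕ) [NeZero N] (d : ℕ) [NeZero d] (hd : d ∣ N)
    (W : Place Kbar (FN N)) (h : 0 ≤ W.ord (jF N)) : 0 ≤ W.ord (jdF N d hd) := by
  apply Fermat.Agent.S24.H85.ord_nonneg_of_mem
  have hj : jF N ∈ W.toValuationSubring := Fermat.Agent.S24.H85.mem_of_ord_nonneg W h
  refine h95_mem_valuationSubring_of_isIntegral (A := Polynomial Kbar) W.toValuationSubring ?_
    (isIntegral_jdF N d hd)
  intro a
  rw [algebraMap_poly_FN]
  induction a using Polynomial.induction_on' with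
  | add p q hp hq => rw [map_add]; exact W.toValuationSubring.add_mem _ _ hp hq
  | monomial n c =>
    rw [← Polynomial.C_mul_X_pow_eq_monomial, map_mul, map_pow, Polynomial.aeval_C,
      Polynomial.aeval_X]
    exact W.toValuationSubring.mul_mem _ _ (W.algebraMap_mem' c)
      (W.toValuationSubring.pow_mem hj n)

/-! ## Effective divisors -/

section Along

variable {K F F' : Type*} [Field K] [Field F] [Field F'] [Algebra K F] [Algebra K F']

theorem ramificationIndexAlong_pos (φ : F →ₐ[K] F') (hφ : φ.toRingHom.IsIntegral)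
    (w : Place K F') : 0 < Place.ramificationIndexAlong φ w := by
  letI := algebraAlong φ
  haveI := isScalarTower_along φ
  haveI := isIntegral_along φ hφ
  exact w.ramificationIndex_pos (F := F)

end Along

section Effective

variable {K F : Type*} [Field K] [Field F] [Algebra K F]

/-- An effective divisor whose coefficient at `P` is its degree is a multiple of `P`. -/
theorem eq_single_of_effective (hdeg : ∀ v : Place K F, v.deg = 1) (E : Divisor K F)
    (hE : ∀ u, 0 ≤ E u) (P : Place K F) (hP : E P = Divisor.degree E) :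
    E = Finsupp.single P (E P) := by
  classical
  rw [Fermat.Agent.S24.H59.degree_eq_sum_of_deg_eq_one hdeg E] at hP
  have hsub : E.support ⊆ insert P E.support := Finset.subset_insert _ _
  have h1 : ∑ v ∈ E.support, E v = ∑ v ∈ insert P E.support, E v :=
    Finset.sum_subset hsub (fun v _ hv => Finsupp.notMem_support_iff.mp hv)
  rw [h1, ← Finset.add_sum_erase _ _ (Finset.mem_insert_self P _)] at hP
  have h2 : ∑ v ∈ (insert P E.support).erase P, E v = 0 := by linarith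
  have h3 := (Finset.sum_eq_zero_iff_of_nonneg (fun v _ => hE v)).mp h2
  apply Finsupp.ext
  intro u
  by_cases hu : u = P
  · rw [hu, Finsupp.single_eq_same]
  · rw [Finsupp.single_eq_of_ne hu]
    by_cases hus : u ∈ E.support
    · exact h3 u (Finset.mem_erase.mpr ⟨hu, Finset.mem_insert_of_mem hus⟩)
    · exact Finsupp.notMem_support_iff.mp hus

/-- A divisor supported on `{P, Q}` with coefficient `0` at `P` is `(deg E) Q`. -/
theorem eq_single_of_support (hdeg : ∀ v : Place K F, v.deg = 1) (E : Divisor K F)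
    (P Q : Place K F) (hPQ : ∀ u, E u ≠ 0 → u = P ∨ u = Q) (hP : E P = 0) :
    E = Finsupp.single Q (Divisor.degree E) := by
  classical
  have h : E = Finsupp.single Q (E Q) := by
    apply Finsupp.ext
    intro u
    by_cases hu : u = Q
    · rw [hu, Finsupp.single_eq_same]
    · rw [Finsupp.single_eq_of_ne hu]
      by_contra h0
      rcases hPQ u h0 with e | e
      · exact h0 (e ▸ hP)
      · exact hu e
  have hd : Divisor.degree E = E Q := by
    conv_lhs => rw [h]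
    rw [Divisor.degree_single, hdeg Q, Nat.cast_one, mul_one]
  rw [hd]
  exact h

end Effective

/-! ## `T_ℓ P∞ = (ℓ + 1) P∞`, `T_ℓ P0 = (ℓ + 1) P0` -/

section Main

variable (p ℓ : ℕ) [NeZero p] [NeZero ℓ]
  (hα : HeckeAlphaBarIntegral Kbar p ℓ) (hβ : HeckeBetaBarIntegral Kbar p ℓ)
  [HasPrincipalDivisors Kbar (laurentBaseChange Kbar (modularFunctionFieldFull (p * ℓ)))]

theorem alpha_jF : heckeAlphaBar Kbar p ℓ (jF p) = jF (p * ℓ) := Subtype.ext rfl

theorem beta_jF : heckeBetaBar Kbar p ℓ (jF p) = jdF (p * ℓ) ℓ (dvd_mul_left ℓ p) := by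
  apply Subtype.ext
  rw [coe_heckeBetaBar, Fermat.Agent.S15.H22.jdF_coe]
  rfl

/-- A place of `X₀(pℓ)` over a pole of `j` along `β` lies over a pole of `j` along `α`. -/
theorem pole_alpha_of_pole_beta
    (W : Place Kbar (laurentBaseChange Kbar (modularFunctionFieldFull (p * ℓ))))
    (h : (W.restrictAlong (heckeBetaBar Kbar p ℓ) hβ).ord (jF p) < 0) :
    (W.restrictAlong (heckeAlphaBar Kbar p ℓ) hα).ord (jF p) < 0 := by
  by_contra hcon
  rw [not_lt] at hcon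
  have h1 := Place.ord_restrictAlong (heckeAlphaBar Kbar p ℓ) hα W (jF p)
  have h2 := Place.ord_restrictAlong (heckeBetaBar Kbar p ℓ) hβ W (jF p)
  rw [alpha_jF] at h1
  rw [beta_jF] at h2
  have h3 : 0 ≤ W.ord (jF (p * ℓ)) := by
    rw [h1]
    exact mul_nonneg (Nat.cast_nonneg _) hcon
  have h4 := ord_jdF_nonneg (p * ℓ) ℓ (dvd_mul_left ℓ p) W h3
  rw [h2] at h4
  have h5 : (0 : ℤ) < (Place.ramificationIndexAlong (heckeBetaBar Kbar p ℓ) W : ℤ) := by
    exact_mod_cast ramificationIndexAlong_pos (heckeBetaBar Kbar p ℓ) hβ W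
  nlinarith

theorem degree_heckeDivBar (hℓ : ℓ.Prime) (hℓp : ¬ ℓ ∣ p)
    (hFI : FundamentalIdentityAlong Kbar (heckeBetaBar Kbar p ℓ) hβ)
    (D : Divisor Kbar (FN p)) :
    Divisor.degree (heckeDivBar (L := Kbar) hα hβ D) = ((ℓ : ℤ) + 1) * Divisor.degree D := by
  have h := Divisor.degree_correspondence (heckeBetaBar Kbar p ℓ) (heckeAlphaBar Kbar p ℓ)
    hβ hα hFI D
  rw [Fermat.Agent.RED.H95.finrankAlong_beta hℓ hℓp] at h
  push_cast at h
  exact h

/-- `T_ℓ P∞ = (ℓ + 1) P∞`. -/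
theorem heckeDivBar_single_cuspInf (hℓ : ℓ.Prime) (hℓp : ¬ ℓ ∣ p)
    (hfin : FiniteAlong Kbar (heckeAlphaBar Kbar p ℓ))
    (hFI : FundamentalIdentityAlong Kbar (heckeBetaBar Kbar p ℓ) hβ)
    (hNF : NormFormulaAlong Kbar (heckeAlphaBar Kbar p ℓ) hfin) :
    heckeDivBar (L := Kbar) hα hβ (Finsupp.single (cuspInf p) 1)
      = Finsupp.single (cuspInf p) ((ℓ : ℤ) + 1) := by
  have hc := heckeDivBar_apply_cuspInf p ℓ hα hβ hℓ hℓp hfin hNF (Finsupp.single (cuspInf p) 1)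
  rw [Finsupp.single_eq_same, mul_one] at hc
  have hd := degree_heckeDivBar p ℓ hα hβ hℓ hℓp hFI (Finsupp.single (cuspInf p) 1)
  rw [Divisor.degree_single, Fermat.Agent.S15.H22.place_deg_eq_one, Nat.cast_one, mul_one,
    mul_one] at hd
  have := eq_single_of_effective (Fermat.Agent.S15.H22.place_deg_eq_one p) _
    (heckeDivBar_single_nonneg p ℓ hα hβ (cuspInf p)) (cuspInf p) (by rw [hc, hd])
  rw [hc] at this
  exact this

/-- `T_ℓ P0 = (ℓ + 1) P0`. -/
theorem heckeDivBar_single_cuspZero (hp : p.Prime) (hℓ : ℓ.Prime) (hℓp : ¬ ℓ ∣ p)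
    (hfin : FiniteAlong Kbar (heckeAlphaBar Kbar p ℓ))
    (hFI : FundamentalIdentityAlong Kbar (heckeBetaBar Kbar p ℓ) hβ)
    (hNF : NormFormulaAlong Kbar (heckeAlphaBar Kbar p ℓ) hfin) :
    heckeDivBar (L := Kbar) hα hβ (Finsupp.single (cuspZero p) 1)
      = Finsupp.single (cuspZero p) ((ℓ : ℤ) + 1) := by
  have hcp := Fermat.Agent.S15.H22.isCuspPair p
  have hne : cuspInf p ≠ cuspZero p := Fermat.Agent.S15.H30.isCuspPair_ne hp.two_le hcp
  have hc := heckeDivBar_apply_cuspInf p ℓ hα hβ hℓ hℓp hfin hNF (Finsupp.single (cuspZero p) 1)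
  rw [Finsupp.single_eq_of_ne hne, mul_zero] at hc
  have hd := degree_heckeDivBar p ℓ hα hβ hℓ hℓp hFI (Finsupp.single (cuspZero p) 1)
  rw [Divisor.degree_single, Fermat.Agent.S15.H22.place_deg_eq_one, Nat.cast_one, mul_one,
    mul_one] at hd
  have hsupp : ∀ u, heckeDivBar (L := Kbar) hα hβ (Finsupp.single (cuspZero p) 1) u ≠ 0 →
      u = cuspInf p ∨ u = cuspZero p := by
    intro u hu
    obtain ⟨W, hWβ, hWα⟩ := heckeDivBar_single_support p ℓ hα hβ _ u hu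
    apply Fermat.Agent.S15.H30.pole_eq_of_isCuspPair hp hcp u
    rw [← hWα]
    apply pole_alpha_of_pole_beta p ℓ hα hβ W
    rw [hWβ]
    have h0 := hcp.ord_j_zero
    have hp0 : (0 : ℤ) < p := by exact_mod_cast hp.pos
    have h1 : (cuspZero p).ord (jF p) = -(p : ℤ) := h0
    rw [h1]
    omega
  have := eq_single_of_support (Fermat.Agent.S15.H22.place_deg_eq_one p) _ (cuspInf p)
    (cuspZero p) hsupp hc
  rw [hd] at this
  exact this

/-- `T_ℓ (P∞ - P0) = (ℓ + 1) (P∞ - P0)` on divisors of degree zero. -/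
theorem degZeroCorrespondence_cusp (hp : p.Prime) (hℓ : ℓ.Prime) (hℓp : ¬ ℓ ∣ p)
    (hfin : FiniteAlong Kbar (heckeAlphaBar Kbar p ℓ))
    (hFI : FundamentalIdentityAlong Kbar (heckeBetaBar Kbar p ℓ) hβ)
    (hNF : NormFormulaAlong Kbar (heckeAlphaBar Kbar p ℓ) hfin)
    (D : Divisor.degZero (K := Kbar) (F := FN p))
    (hD : (D : Divisor Kbar (FN p))
      = Finsupp.single (cuspInf p) 1 - Finsupp.single (cuspZero p) 1) :
    Pic0.degZeroCorrespondence (heckeBetaBar Kbar p ℓ) (heckeAlphaBar Kbar p ℓ) hβ hα hFI D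
      = ((ℓ : ℤ) + 1) • D := by
  apply Subtype.ext
  have e1 := heckeDivBar_single_cuspInf p ℓ hα hβ hℓ hℓp hfin hFI hNF
  have e2 := heckeDivBar_single_cuspZero p ℓ hα hβ hp hℓ hℓp hfin hFI hNF
  have e3 : heckeDivBar (L := Kbar) hα hβ (D : Divisor Kbar (FN p))
      = ((ℓ : ℤ) + 1) • (D : Divisor Kbar (FN p)) := by
    rw [hD, map_sub, e1, e2, smul_sub, Finsupp.smul_single, Finsupp.smul_single, smul_eq_mul,
      mul_one]
  exact e3

end Main

/-! ## The cuspidal class is an eigenvector of `T_ℓ`, `ℓ ≠ p` -/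

/-- **CUSP-eis at the good primes**: `T_ℓ [P∞ - P0] = (ℓ + 1) [P∞ - P0]` on `J₀(p)`, `ℓ ≠ p`. -/
theorem heckeOperatorBar_ptClass (p : ℕ) [NeZero p] (hp : p.Prime) (ℓ : Nat.Primes)
    (hℓp : (ℓ : ℕ) ≠ p) (Pinf P0 : PlaceBar p) (h : IsCuspPair p Pinf P0) :
    heckeOperatorBar p ℓ (ptClass Pinf P0 h.deg_inf h.deg_zero)
      = (((ℓ : ℕ) : ℤ) + 1) • ptClass Pinf P0 h.deg_inf h.deg_zero := by
  obtain ⟨rfl, rfl⟩ := Fermat.Agent.S15.H30.isCuspPair_unique hp
    (Fermat.Agent.S15.H22.isCuspPair p) h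
  haveI : NeZero (ℓ : ℕ) := ⟨ℓ.2.ne_zero⟩
  have hℓp' : ¬ (ℓ : ℕ) ∣ p := fun hd => hℓp ((Nat.prime_dvd_prime_iff_eq ℓ.2 hp).mp hd)
  obtain ⟨hα, hβ, hP, hfin, hFI, hNF⟩ := Fermat.Agent.RED.H51.stmt_HKA p ℓ
  haveI := hP
  set D : Divisor.degZero (K := Kbar) (F := FN p) :=
    ⟨Finsupp.single (cuspInf p) 1 - Finsupp.single (cuspZero p) 1, by
      rw [Divisor.mem_degZero, map_sub, Divisor.degree_single, Divisor.degree_single,
        h.deg_inf, h.deg_zero, sub_self]⟩ with hD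
  have key := degZeroCorrespondence_cusp p ℓ hα hβ hp ℓ.2 hℓp' hfin hFI hNF D rfl
  have h1 := Fermat.Agent.Lib.HeckeComm.heckeOperatorBar_mk p ℓ hα hβ hP hfin hFI hNF D
  have h2 : heckeOperatorBar p ℓ (Pic0.mk D) = (((ℓ : ℕ) : ℤ) + 1) • Pic0.mk D := by
    rw [h1, key]
    rfl
  exact h2

end Fermat.Agent.S15.H26

end
end
-- ==== END Fermat.Agent.S15.H26_CuspEisGood

-- ==== BEGIN Fermat.Agent.S15.H30_CuspTors
section

/-!
# S15, package CUSP-tors (helper30): `(p - 1) [P∞ - P0] = 0` on `X₀(p)`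

The modular unit `u = Δ(z)/Δ(pz)` lies in `F_p = ℚ̄(j, j_p)` (Lagrange with exchanged roles,
helper73), `u` and `u⁻¹` are integral over `ℚ̄[j]` (the norm of `u` is a constant), so `u` has
neither zeros nor poles outside the poles of `j`, i.e. outside `{P∞, P0}`.  Its `q`-order is
`-(p - 1)`, and principal divisors have degree zero: `div u = (p - 1)(P0 - P∞)`.
-/

set_option autoImplicit false
set_option synthInstance.maxHeartbeats 400000

noncomputable section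

open HahnSeries IntermediateField AlgebraicCurve ModularCurve Polynomial

namespace Fermat.Agent.S15.H30

/-! ### Integrality and places -/

section General

variable {K F E : Type*} [Field K] [Field F] [Algebra K F] [CommRing E] [Algebra K E]

/-- The valuation ring of a place, as a `K`-subalgebra. -/
def placeSubalgebra (P : Place K F) : Subalgebra K F :=
  { P.toValuationSubring.toSubring with algebraMap_mem' := P.algebraMap_mem' }

theorem mem_placeSubalgebra (P : Place K F) (x : F) :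
    x ∈ placeSubalgebra P ↔ x ∈ P.toValuationSubring := Iff.rfl

/-- If `Ψ y` is integral over `K[Ψ j]` for an embedding `Ψ` and `j` is regular at `P`, then `y`
is regular at `P`. -/
theorem mem_of_isIntegral_map (Ψ : F →ₐ[K] E) (hΨ : Function.Injective Ψ) (P : Place K F) (j : F)
    (hj : j ∈ P.toValuationSubring) (y : F)
    (hy : IsIntegral (Algebra.adjoin K ({Ψ j} : Set E)) (Ψ y)) : y ∈ P.toValuationSubring := by
  obtain ⟨G', hG'm, hG'r⟩ := hy
  let φ : P.toValuationSubring →+* E :=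
    (Ψ : F →+* E).comp (algebraMap P.toValuationSubring F)
  have hle : Algebra.adjoin K ({Ψ j} : Set E) ≤ (placeSubalgebra P).map Ψ :=
    Algebra.adjoin_le (by
      rintro x hx
      rw [Set.mem_singleton_iff] at hx
      subst hx
      exact ⟨j, hj, rfl⟩)
  have hl : G'.map (algebraMap (Algebra.adjoin K ({Ψ j} : Set E)) E) ∈ Polynomial.lifts φ := by
    rw [Polynomial.lifts_iff_coeff_lifts]
    intro n
    rw [Polynomial.coeff_map]
    obtain ⟨x, hx, hxe⟩ := hle (G'.coeff n).2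
    exact ⟨⟨x, hx⟩, hxe⟩
  obtain ⟨G, hGmap, -, hGm⟩ := Polynomial.lifts_and_natDegree_eq_and_monic hl (hG'm.map _)
  have hint : IsIntegral P.toValuationSubring y := by
    refine ⟨G, hGm, ?_⟩
    apply hΨ
    rw [map_zero]
    have h1 := Polynomial.hom_eval₂ G (algebraMap P.toValuationSubring F) (Ψ : F →+* E) y
    have h2 : Polynomial.eval₂ φ (Ψ y) G
        = Polynomial.eval₂ (algebraMap (Algebra.adjoin K ({Ψ j} : Set E)) E) (Ψ y) G' := by
      rw [← Polynomial.eval_map, hGmap, Polynomial.eval_map]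
    exact h1.trans (h2.trans hG'r)
  obtain ⟨z, hz⟩ := IsIntegrallyClosed.isIntegral_iff.mp hint
  rw [← hz]
  exact z.2

end General

/-! ### The modular unit in `F_p` -/

open Fermat.Agent.S24 (Kbar FN jF modClosure asm_finiteDimensional asm_transcendental_jF)
open Fermat.Agent.RED.H73 (CADataL JL conjHyp_of_caDataL ConjHyp coreField coreField_le_map_fullC
  laurentBaseChange_full_eq)
open Fermat.Agent.S28.H90 (chi chi_eval_self)

variable (p : ℕ) [NeZero p]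

/-- `q ↦ q^p` on `F_p`. -/
def psi : FN p →ₐ[Kbar] LaurentSeries Kbar :=
  (qExpandAlgHomC Kbar p).comp (modularFunctionFieldBar p).val

theorem psi_apply (x : FN p) : psi p x = qExpand Kbar p (x : LaurentSeries Kbar) := rfl

theorem psi_injective : Function.Injective (psi p) := fun _ _ h =>
  Subtype.ext (qExpand_injective p h)

theorem psi_jF : psi p (_root_.Fermat.Agent.S24.jF p) = JL Kbar p := by
  rw [psi_apply]
  show qExpand Kbar p (coeffEmb Kbar jq) = qExpand Kbar p (jqModC Kbar)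
  have h := Fermat.Agent.RED.H73.coeffEmb_qExpand_jq (L := Kbar) 1
  rw [qExpand_one_apply, qExpand_one_apply] at h
  rw [h]

section Data

variable {p}
variable (D : CADataL Kbar p)

theorem isIntegral_U (q : D.Q) :
    IsIntegral ↥(Algebra.adjoin Kbar ({JL Kbar p} : Set (LaurentSeries Kbar))) (D.U q) := by
  have h := conjHyp_of_caDataL D
  refine ⟨h.chiR, h.monic_chiR, ?_⟩
  rw [← aeval_def, aeval_def, ← eval_map, h.map_chiR]
  exact chi_eval_self D.U q

theorem isIntegral_U_inv {c : Kbar} (hc : c ≠ 0) (hprod : ∏ q, D.U q = HahnSeries.C c) :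
    IsIntegral ↥(Algebra.adjoin Kbar ({JL Kbar p} : Set (LaurentSeries Kbar)))
      (D.U D.q₀)⁻¹ := by
  classical
  have hU0 : D.U D.q₀ ≠ 0 := D.U_ne D.q₀
  have hsplit : D.U D.q₀ * ∏ q ∈ Finset.univ.erase D.q₀, D.U q = HahnSeries.C c := by
    rw [Finset.mul_prod_erase Finset.univ D.U (Finset.mem_univ D.q₀), hprod]
  have hinv : (D.U D.q₀)⁻¹
      = algebraMap Kbar (LaurentSeries Kbar) c⁻¹ * ∏ q ∈ Finset.univ.erase D.q₀, D.U q := by
    have hC : (HahnSeries.C c : LaurentSeries Kbar) ≠ 0 := by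
      rw [Ne, map_eq_zero]
      exact hc
    rw [LaurentSeries.algebraMap_apply, map_inv₀, inv_mul_eq_div, eq_div_iff hC, ← hsplit,
      ← mul_assoc, inv_mul_cancel₀ hU0, one_mul]
  rw [hinv]
  refine IsIntegral.mul ?_ (IsIntegral.prod _ fun q _ => isIntegral_U D q)
  have : algebraMap Kbar (LaurentSeries Kbar) c⁻¹
      = algebraMap ↥(Algebra.adjoin Kbar ({JL Kbar p} : Set (LaurentSeries Kbar)))
          (LaurentSeries Kbar) (algebraMap Kbar _ c⁻¹) := rfl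
  rw [this]
  exact isIntegral_algebraMap

end Data

/-- **The modular unit**: an element of `F_p` of `q`-order `-(p - 1)` without zeros or poles
outside the poles of `j`. -/
theorem exists_unit (hp : p.Prime) :
    ∃ u : FN p, u ≠ 0 ∧ (u : LaurentSeries Kbar).order = -((p : ℤ) - 1) ∧
      ∀ P : Place Kbar (FN p), 0 ≤ P.ord (_root_.Fermat.Agent.S24.jF p) → P.ord u = 0 := by
  obtain ⟨D, hDD, c, hc, hprod⟩ := exists_unitDataBar p hp
  have hp0 : (0 : ℤ) < (p : ℤ) := by exact_mod_cast hp.pos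
  -- `u ∈ F_p`
  have hU : D.U D.q₀ ∈ (modularFunctionFieldFullC Kbar p).map (qExpandAlgHomC Kbar p) :=
    coreField_le_map_fullC D (IntermediateField.subset_adjoin _ _ (by simp))
  obtain ⟨u₀, hu₀mem, hu₀⟩ := hU
  have hu₀mem' : u₀ ∈ modularFunctionFieldBar p := by
    show u₀ ∈ laurentBaseChange Kbar (modularFunctionFieldFull p)
    rw [laurentBaseChange_full_eq]
    exact hu₀mem
  have hu₀' : qExpand Kbar p u₀ = D.U D.q₀ := hu₀
  let u : FN p := ⟨u₀, hu₀mem'⟩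
  have hpsi : psi p u = D.U D.q₀ := hu₀'
  have hu0 : u ≠ 0 := by
    intro h
    apply D.U_ne D.q₀
    rw [← hpsi, h, map_zero]
  have hu₀0 : u₀ ≠ 0 := fun h => hu0 (Subtype.ext h)
  refine ⟨u, hu0, ?_, ?_⟩
  · -- the order
    have h1 := Fermat.Agent.S15.H22.order_qExpand p u₀ hu₀0
    rw [hu₀', D.U_order₀, hDD, Nat.cast_sub hp.one_le] at h1
    have h2 : (p : ℤ) * (u₀.order + ((p : ℤ) - 1)) = 0 := by
      push_cast at h1
      linear_combination -h1
    rcases mul_eq_zero.mp h2 with h3 | h3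
    · omega
    · show u₀.order = _
      omega
  · intro P hP
    have hj : _root_.Fermat.Agent.S24.jF p ∈ P.toValuationSubring := Fermat.Agent.S24.H85.mem_of_ord_nonneg P hP
    have h1 : u ∈ P.toValuationSubring := by
      refine mem_of_isIntegral_map (psi p) (psi_injective p) P (_root_.Fermat.Agent.S24.jF p) hj u ?_
      rw [psi_jF, hpsi]
      exact isIntegral_U D D.q₀
    have h2 : u⁻¹ ∈ P.toValuationSubring := by
      refine mem_of_isIntegral_map (psi p) (psi_injective p) P (_root_.Fermat.Agent.S24.jF p) hj u⁻¹ ?_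
      rw [psi_jF, map_inv₀, hpsi]
      exact isIntegral_U_inv D hc hprod
    have h3 := Fermat.Agent.S24.H85.ord_nonneg_of_mem P h1
    have h4 := Fermat.Agent.S24.H85.ord_nonneg_of_mem P h2
    rw [Place.ord_inv] at h4
    omega

/-- **CUSP-tors**: `(p - 1) [P∞ - P0] = 0`. -/
theorem stmt_cuspTors (hp : p.Prime) : Stmt_cuspTors p := by
  classical
  intro Pinf P0 h
  obtain ⟨u, hu0, hord, hreg⟩ := exists_unit p hp
  obtain ⟨e1, e2⟩ := isCuspPair_unique hp h (Fermat.Agent.S15.H22.isCuspPair p)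
  have hinf : Pinf.ord u = -((p : ℤ) - 1) := by
    rw [← e1, Fermat.Agent.RED.KD.H22.ord_cuspInf p u hu0, hord]
  have hne : Pinf ≠ P0 := isCuspPair_ne hp.two_le h
  set m := P0.ord u with hm
  let Dv : Divisor Kbar (FN p) := Finsupp.single Pinf (-((p : ℤ) - 1)) + Finsupp.single P0 m
  have hDv : ∀ v : Place Kbar (FN p), Dv v = v.ord u := by
    intro v
    show (Finsupp.single Pinf (-((p : ℤ) - 1)) + Finsupp.single P0 m) v = v.ord u
    rw [Finsupp.add_apply, Finsupp.single_apply, Finsupp.single_apply]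
    by_cases h1 : Pinf = v
    · subst h1
      rw [if_pos rfl, if_neg hne.symm, add_zero, hinf]
    · by_cases h2 : P0 = v
      · subst h2
        rw [if_neg h1, if_pos rfl, zero_add]
      · rw [if_neg h1, if_neg h2, add_zero]
        have hv : 0 ≤ v.ord (_root_.Fermat.Agent.S24.jF p) := by
          by_contra hneg
          rw [not_le] at hneg
          rcases pole_eq_of_isCuspPair hp h v hneg with e | e
          · exact h1 e.symm
          · exact h2 e.symm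
        exact (hreg v hv).symm
  have hfd := asm_finiteDimensional (modClosure p)
  have hdeg := (Fermat.Agent.S24.ff_degree_principal (_root_.Fermat.Agent.S24.jF p)
    (asm_transcendental_jF (modClosure p)) u hu0).2 Dv hDv
  have hm' : m = (p : ℤ) - 1 := by
    have : Divisor.degree Dv = -((p : ℤ) - 1) * (Pinf.deg : ℤ) + m * (P0.deg : ℤ) := by
      show Divisor.degree (Finsupp.single Pinf (-((p : ℤ) - 1)) + Finsupp.single P0 m) = _
      rw [map_add, Divisor.degree_single, Divisor.degree_single]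
    rw [this, h.deg_inf, h.deg_zero] at hdeg
    push_cast at hdeg
    linarith
  -- conclude in `Pic⁰`
  unfold ptClass Pic0.mk
  rw [← QuotientAddGroup.mk_nsmul, QuotientAddGroup.eq_zero_iff, AddSubgroup.mem_addSubgroupOf]
  refine ⟨u⁻¹, inv_ne_zero hu0, fun v => ?_⟩
  rw [Place.ord_inv, ← hDv v]
  show ((p - 1) • (Finsupp.single Pinf (1 : ℤ) - Finsupp.single P0 (1 : ℤ)) : Divisor Kbar (FN p)) v
    = -((Finsupp.single Pinf (-((p : ℤ) - 1)) + Finsupp.single P0 m) v)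
  rw [hm', Finsupp.smul_apply, Finsupp.sub_apply, Finsupp.add_apply, Finsupp.single_apply,
    Finsupp.single_apply, Finsupp.single_apply, Finsupp.single_apply, nsmul_eq_mul,
    Nat.cast_sub hp.one_le]
  split_ifs <;> push_cast <;> ring

end Fermat.Agent.S15.H30

end
end
-- ==== END Fermat.Agent.S15.H30_CuspTors

-- ==== BEGIN Fermat.Agent.S35.H89_GlueGen
section

/-!
# S35 (helper89): GLUE for Frobenius-like automorphisms, general form

`Stmt_GlueFrobGen`: helper28's `Stmt_GlueFrob` with the hypotheses "`red₁ f = 1`,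
`red₂ (f / c₀ ^ n) = 1`" replaced by "the two (scaled) reductions of `f` are `n`-th powers"
(this is the form in which the toric part `T = ker red₁ ∩ ker red₂` appears in S35; passing from
one form to the other would need an approximation theorem).

* `glueCore` : a unit `F_h` for both valuations without zero or pole on the fibres of the nodes,
  whose reductions are `n`-th powers and whose divisor is divisible by `n`, satisfies
  `τ F_h / F_h ^ Q ∈ (F^×)^n`  (second half of helper60's proof of `Stmt_GlueFrob`).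
* `glueFrobGen_of : Stmt_Moving → Stmt_GoodLift → Stmt_TIss → Stmt_GlueFrobGen`.
-/

set_option autoImplicit false
set_option linter.style.haveILetI false
set_option maxHeartbeats 1000000

noncomputable section

open AlgebraicCurve

attribute [local instance] Classical.propDecidable

namespace Fermat.Agent.S35.H89

open Fermat.Agent.RED.H17 Fermat.Agent.RED Fermat.Agent.BAD Fermat.Agent.BAD.H60

/-- **GLUE, Frobenius form, general hypotheses.** -/
def Stmt_GlueFrobGen : Prop :=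
  ∀ (K F k F₁ F₂ : Type) [Field K] [Field F] [Algebra K F] [Field k] [Field F₁]
    [Algebra k F₁] [Field F₂] [Algebra k F₂] [IsAlgClosed K] [IsAlgClosed k]
    (S : SSD K F k F₁ F₂) (_ : FFHyp K F) (_ : FFHyp k F₁) (_ : FFHyp k F₂)
    (g g₁ g₂ : ℕ) (c c₁ c₂ : ℤ), IsGenus K F g c → IsGenus k F₁ g₁ c₁ → IsGenus k F₂ g₂ c₂ →
    g + 1 ≤ g₁ + g₂ + S.nodes.card →
    ∀ (n : ℕ), (n : k) ≠ 0 →
    ∀ (τ : SemilinearAut K F) (τ₁ : F₁ →+* F₁) (τ₂ : F₂ →+* F₂) (Q : ℕ),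
      S.IsFrobLike τ τ₁ τ₂ Q →
    ∀ (f : F) (a₁ a₂ : K) (h₁ : F₁) (h₂ : F₂), h₁ ≠ 0 → h₂ ≠ 0 →
      algebraMap K F a₁ * f ∈ S.c₁.V → S.c₁.rd (algebraMap K F a₁ * f) = h₁ ^ n →
      algebraMap K F a₂ * f ∈ S.c₂.V → S.c₂.rd (algebraMap K F a₂ * f) = h₂ ^ n →
      (∀ P : Place K F, (n : ℤ) ∣ P.ord f) →
      ∃ t : F, t ^ n = (τ • f) / f ^ Q

/-- The core of GLUE: for a unit `F_h` for both valuations, without zero or pole on the fibres
of the nodes, with reductions `ψ₁ ^ n`, `ψ₂ ^ n` and divisor divisible by `n`, the function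
`τ F_h / F_h ^ Q` is an `n`-th power. -/
theorem glueCore (hGL : Stmt_GoodLift) (hTI : Stmt_TIss)
    {K F k F₁ F₂ : Type} [Field K] [Field F] [Algebra K F] [Field k] [Field F₁]
    [Algebra k F₁] [Field F₂] [Algebra k F₂] [IsAlgClosed K] [IsAlgClosed k]
    (S : SSD K F k F₁ F₂) (H : FFHyp K F) (H₁ : FFHyp k F₁) (H₂ : FFHyp k F₂)
    (g g₁ g₂ : ℕ) (c c₁ c₂ : ℤ) (hR : IsGenus K F g c) (hR₁ : IsGenus k F₁ g₁ c₁)
    (hR₂ : IsGenus k F₂ g₂ c₂) (hnum : g + 1 ≤ g₁ + g₂ + S.nodes.card)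
    (n : ℕ) (hn : (n : k) ≠ 0)
    (τ : SemilinearAut K F) (τ₁ : F₁ →+* F₁) (τ₂ : F₂ →+* F₂) (Q : ℕ)
    (hτ : S.IsFrobLike τ τ₁ τ₂ Q)
    (Fh : F) (ψ₁ : F₁) (ψ₂ : F₂) (hFh₁ : S.c₁.IsGU Fh) (hFh₂ : S.c₂.IsGU Fh)
    (hrdF₁ : S.c₁.rd Fh = ψ₁ ^ n) (hrdF₂ : S.c₂.rd Fh = ψ₂ ^ n)
    (hordF : ∀ P : Place K F, (n : ℤ) ∣ P.ord Fh)
    (hnode : ∀ P : Place K F, S.IsNodeP P → P.ord Fh = 0) :
    ∃ t : F, t ^ n = (τ • Fh) / Fh ^ Q := by
  have hn0 : n ≠ 0 := by
    rintro rfl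
    exact hn Nat.cast_zero
  have hFh0 : Fh ≠ 0 := hFh₁.ne_zero
  have hψ₁0 : ψ₁ ≠ 0 := by
    rintro rfl
    apply hFh₁.2
    rw [hrdF₁, zero_pow hn0]
  have hψ₂0 : ψ₂ ≠ 0 := by
    rintro rfl
    apply hFh₂.2
    rw [hrdF₂, zero_pow hn0]
  have hordψ : ∀ s ∈ S.nodes, s.1.ord ψ₁ = 0 ∧ s.2.ord ψ₂ = 0 := by
    intro s hs
    obtain ⟨h1, h2⟩ := ord_rd_eq_zero_of_node S H.principal hFh₁ hFh₂ hnode hs
    rw [hrdF₁, ord_pow] at h1
    rw [hrdF₂, ord_pow] at h2
    have hnZ : (n : ℤ) ≠ 0 := by exact_mod_cast hn0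
    exact ⟨(mul_eq_zero.mp h1).resolve_left hnZ, (mul_eq_zero.mp h2).resolve_left hnZ⟩
  -- the functions `u₁`, `u₂`
  set u₁ : F₁ := τ₁ ψ₁ / ψ₁ ^ Q with hu₁
  set u₂ : F₂ := τ₂ ψ₂ / ψ₂ ^ Q with hu₂
  have hτψ₁0 : τ₁ ψ₁ ≠ 0 := (map_ne_zero τ₁).mpr hψ₁0
  have hτψ₂0 : τ₂ ψ₂ ≠ 0 := (map_ne_zero τ₂).mpr hψ₂0
  have hu₁0 : u₁ ≠ 0 := div_ne_zero hτψ₁0 (pow_ne_zero _ hψ₁0)
  have hu₂0 : u₂ ≠ 0 := div_ne_zero hτψ₂0 (pow_ne_zero _ hψ₂0)
  have hval₁ : ∀ s ∈ S.nodes, VanAt s.1 (u₁ - algebraMap k F₁ 1) := by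
    intro s hs
    obtain ⟨b, hb0, hb⟩ := exists_value_ne_zero (H₁.deg_one s.1) hψ₁0 (hordψ s hs).1
    exact vanAt_div_sub_one (pow_ne_zero Q hb0) (hτ.val₁ s hs ψ₁ b hb) (vanAt_pow_sub hb Q)
  have hval₂ : ∀ s ∈ S.nodes, VanAt s.2 (u₂ - algebraMap k F₂ 1) := by
    intro s hs
    obtain ⟨b, hb0, hb⟩ := exists_value_ne_zero (H₂.deg_one s.2) hψ₂0 (hordψ s hs).2
    exact vanAt_div_sub_one (pow_ne_zero Q hb0) (hτ.val₂ s hs ψ₂ b hb) (vanAt_pow_sub hb Q)
  -- the lift `u`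
  obtain ⟨u, hu1, hu2, hrdu₁, hrdu₂, -, -, hureg⟩ := hGL K F k F₁ F₂ S H H₁ H₂ g g₁ g₂ c c₁ c₂
    hR hR₁ hR₂ hnum u₁ u₂ ∅ ∅ (fun Q hQ => absurd hQ (Finset.notMem_empty Q))
    (fun Q hQ => absurd hQ (Finset.notMem_empty Q)) (fun s hs => ⟨1, hval₁ s hs, hval₂ s hs⟩)
  have huGU₁ : S.c₁.IsGU u := ⟨hu1, by rw [hrdu₁]; exact hu₁0⟩
  have huGU₂ : S.c₂.IsGU u := ⟨hu2, by rw [hrdu₂]; exact hu₂0⟩
  have hu0 : u ≠ 0 := huGU₁.ne_zero
  have hunode : ∀ P, S.IsNodeP P → P.ord u = 0 :=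
    ord_eq_zero_of_isNodeP S H.principal huGU₁ huGU₂ hureg
      (fun s hs => by rw [hrdu₁]; exact (ord_eq_zero_of_vanAt_sub one_ne_zero (hval₁ s hs)).2)
      (fun s hs => by rw [hrdu₂]; exact (ord_eq_zero_of_vanAt_sub one_ne_zero (hval₂ s hs)).2)
  -- `τ F_h`
  have hτ₁ : S.c₁.IsGU (τ • Fh) ∧ S.c₁.rd (τ • Fh) = τ₁ ψ₁ ^ n := by
    have hm := hτ.mem₁ Fh hFh₁.1
    have hr : S.c₁.rd (τ • Fh) = τ₁ ψ₁ ^ n := by
      rw [S.c₁.rd_of_mem hm, hτ.red₁ Fh hFh₁.1 hm, ← S.c₁.rd_of_mem hFh₁.1, hrdF₁, map_pow]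
    exact ⟨⟨hm, by rw [hr]; exact pow_ne_zero _ hτψ₁0⟩, hr⟩
  have hτ₂ : S.c₂.IsGU (τ • Fh) ∧ S.c₂.rd (τ • Fh) = τ₂ ψ₂ ^ n := by
    have hm := hτ.mem₂ Fh hFh₂.1
    have hr : S.c₂.rd (τ • Fh) = τ₂ ψ₂ ^ n := by
      rw [S.c₂.rd_of_mem hm, hτ.red₂ Fh hFh₂.1 hm, ← S.c₂.rd_of_mem hFh₂.1, hrdF₂, map_pow]
    exact ⟨⟨hm, by rw [hr]; exact pow_ne_zero _ hτψ₂0⟩, hr⟩
  -- the function `gg = τ F_h / (F_h ^ Q u ^ n)`
  set gg : F := (τ • Fh) / (Fh ^ Q * u ^ n) with hgg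
  have hden₁ : S.c₁.IsGU (Fh ^ Q * u ^ n) := (hFh₁.pow Q).mul (huGU₁.pow n)
  have hden₂ : S.c₂.IsGU (Fh ^ Q * u ^ n) := (hFh₂.pow Q).mul (huGU₂.pow n)
  have hgg₁ : S.c₁.IsGU gg := hτ₁.1.div hden₁
  have hgg₂ : S.c₂.IsGU gg := hτ₂.1.div hden₂
  have hggrd₁ : S.c₁.rd gg = 1 := by
    rw [hτ₁.1.rd_div hden₁, hτ₁.2, S.c₁.rd_mul (hFh₁.pow Q).1 (huGU₁.pow n).1,
      S.c₁.rd_pow hFh₁.1, S.c₁.rd_pow hu1, hrdF₁, hrdu₁, hu₁]
    exact pow_div_aux _ _ n Q hτψ₁0 hψ₁0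
  have hggrd₂ : S.c₂.rd gg = 1 := by
    rw [hτ₂.1.rd_div hden₂, hτ₂.2, S.c₂.rd_mul (hFh₂.pow Q).1 (huGU₂.pow n).1,
      S.c₂.rd_pow hFh₂.1, S.c₂.rd_pow hu2, hrdF₂, hrdu₂, hu₂]
    exact pow_div_aux _ _ n Q hτψ₂0 hψ₂0
  -- orders
  have hordτ : ∀ (P : Place K F) (y : F), P.ord (τ • y) = (τ⁻¹ • P).ord y := by
    intro P y
    have := SemilinearAut.ord_smul τ (τ⁻¹ • P) y
    rwa [smul_inv_smul] at this
  have hordg : ∀ P : Place K F,
      P.ord gg = (τ⁻¹ • P).ord Fh - (Q * P.ord Fh + n * P.ord u) := by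
    intro P
    rw [hgg, ord_div P hτ₁.1.ne_zero hden₁.ne_zero, hordτ,
      P.ord_mul (pow_ne_zero _ hFh0) (pow_ne_zero _ hu0), ord_pow, ord_pow]
  have hdivg : ∀ P : Place K F, (n : ℤ) ∣ P.ord gg := by
    intro P
    rw [hordg]
    exact dvd_sub (hordF _) (dvd_add (dvd_mul_of_dvd_right (hordF P) _) (dvd_mul_right _ _))
  have hnodeg : ∀ P : Place K F, S.IsNodeP P → P.ord gg = 0 := by
    intro P hP
    rw [hordg, hnode P hP, hnode _ (hτ.node P hP), hunode P hP]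
    ring
  obtain ⟨t, ht⟩ := hTI K F k F₁ F₂ S H H₁ H₂ g g₁ g₂ c c₁ c₂ hR hR₁ hR₂ hnum n hn gg
    hgg₁.1 hgg₂.1 hggrd₁ hggrd₂ hdivg hnodeg
  refine ⟨t * u, ?_⟩
  rw [mul_pow, ht, hgg]
  have h1 : Fh ^ Q ≠ 0 := pow_ne_zero _ hFh0
  have h2 : u ^ n ≠ 0 := pow_ne_zero _ hu0
  field_simp

/-- **GLUE, Frobenius form, general hypotheses**, from the moving lemma, good lifts and
TI-ss-gp. -/
theorem glueFrobGen_of (hMv : Stmt_Moving) (hGL : Stmt_GoodLift) (hTI : Stmt_TIss) :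
    Stmt_GlueFrobGen := by
  intro K F k F₁ F₂ _ _ _ _ _ _ _ _ _ _ S H H₁ H₂ g g₁ g₂ c c₁ c₂ hR hR₁ hR₂ hnum n hn τ τ₁ τ₂
    Q hτ f a₁ a₂ h₁ h₂ hh₁ hh₂ hm₁ hr₁ hm₂ hr₂ hdiv
  have hn0 : n ≠ 0 := by
    rintro rfl
    exact hn Nat.cast_zero
  have hnpos : 0 < n := Nat.pos_of_ne_zero hn0
  have hGU₁ : S.c₁.IsGU (algebraMap K F a₁ * f) := ⟨hm₁, by rw [hr₁]; exact pow_ne_zero _ hh₁⟩
  have hGU₂ : S.c₂.IsGU (algebraMap K F a₂ * f) := ⟨hm₂, by rw [hr₂]; exact pow_ne_zero _ hh₂⟩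
  have hf0 : f ≠ 0 := right_ne_zero_of_mul hGU₁.ne_zero
  have hA₁ : algebraMap K F a₁ ≠ 0 := left_ne_zero_of_mul hGU₁.ne_zero
  have hA₂ : algebraMap K F a₂ ≠ 0 := left_ne_zero_of_mul hGU₂.ne_zero
  have ha₁ : a₁ ≠ 0 := fun h0 => hA₁ (by rw [h0, map_zero])
  have ha₂ : a₂ ≠ 0 := fun h0 => hA₂ (by rw [h0, map_zero])
  -- lifts of `h₁`, `h₂`
  obtain ⟨X₁, hX₁m, hX₁r⟩ := S.c₁.exists_rd_eq h₁
  obtain ⟨X₂, hX₂m, hX₂r⟩ := S.c₂.exists_rd_eq h₂
  have hX₁ : S.c₁.IsGU X₁ := ⟨hX₁m, by rw [hX₁r]; exact hh₁⟩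
  have hX₂ : S.c₂.IsGU X₂ := ⟨hX₂m, by rw [hX₂r]; exact hh₂⟩
  have hX₁0 : X₁ ≠ 0 := hX₁.ne_zero
  have hX₂0 : X₂ ≠ 0 := hX₂.ne_zero
  obtain ⟨e, he⟩ := IsAlgClosed.exists_pow_nat_eq (a₁ / a₂) hnpos
  have he0 : e ≠ 0 := by
    rintro rfl
    rw [zero_pow hn0] at he
    exact div_ne_zero ha₁ ha₂ he.symm
  have hE0 : algebraMap K F e ≠ 0 := fun h0 => he0 ((map_eq_zero (algebraMap K F)).mp h0)
  have hEn : algebraMap K F e ^ n = algebraMap K F a₁ / algebraMap K F a₂ := by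
    rw [← map_pow, he, map_div₀]
  -- the normalised function and the twist
  set f' : F := algebraMap K F a₁ * f / X₁ ^ n with hf'
  set ϑ : F := algebraMap K F e * X₂ / X₁ with hϑ
  have hϑ0 : ϑ ≠ 0 := div_ne_zero (mul_ne_zero hE0 hX₂0) hX₁0
  have hf'GU : S.c₁.IsGU f' := hGU₁.div (hX₁.pow n)
  have hf'rd : S.c₁.rd f' = 1 := by
    rw [hf', hGU₁.rd_div (hX₁.pow n), hr₁, S.c₁.rd_pow hX₁m, hX₁r,
      div_self (pow_ne_zero _ hh₁)]
  have key : f' / ϑ ^ n = algebraMap K F a₂ * f / X₂ ^ n := by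
    rw [hf', hϑ, div_pow, mul_pow, hEn]
    have h1 : X₁ ^ n ≠ 0 := pow_ne_zero _ hX₁0
    have h2 : X₂ ^ n ≠ 0 := pow_ne_zero _ hX₂0
    field_simp
  have hf'₂ : S.c₂.IsGU (f' / ϑ ^ n) := by
    rw [key]
    exact hGU₂.div (hX₂.pow n)
  have hf'₂rd : S.c₂.rd (f' / ϑ ^ n) = 1 := by
    rw [key, hGU₂.rd_div (hX₂.pow n), hr₂, S.c₂.rd_pow hX₂m, hX₂r,
      div_self (pow_ne_zero _ hh₂)]
  have hf'0 : f' ≠ 0 := hf'GU.ne_zero
  have hdiv' : ∀ P : Place K F, (n : ℤ) ∣ P.ord f' := by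
    intro P
    rw [hf', ord_div P (mul_ne_zero hA₁ hf0) (pow_ne_zero _ hX₁0), P.ord_mul hA₁ hf0,
      ord_algebraMap, zero_add, ord_pow]
    exact dvd_sub (hdiv P) (dvd_mul_right _ _)
  let x : S.Twist n :=
    { f := f'
      ϑ := ϑ
      hϑ := hϑ0
      hf₁ := hf'GU.1
      hrd₁ := hf'rd
      hf₂ := hf'₂
      hdiv := hdiv'
      hγ := fun s _ => by rw [hf'₂rd, Place.ord_one] }
  obtain ⟨h, hhG₁, hhG₂, hnode⟩ :=
    hMv K F k F₁ F₂ S H H₁ H₂ g g₁ g₂ c c₁ c₂ hR hR₁ hR₂ hnum n hn x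
  change S.c₂.IsGU (ϑ * h) at hhG₂
  change ∀ P : Place K F, S.IsNodeP P → P.ord (f' * h ^ n) = 0 at hnode
  have hh0 : h ≠ 0 := hhG₁.ne_zero
  set Fh : F := f' * h ^ n with hFh
  have hFh₁ : S.c₁.IsGU Fh := hf'GU.mul (hhG₁.pow n)
  have eFh : Fh = (f' / ϑ ^ n) * (ϑ * h) ^ n := by
    have hϑn : ϑ ^ n ≠ 0 := pow_ne_zero _ hϑ0
    rw [hFh, mul_pow]
    field_simp
  have hFh₂ : S.c₂.IsGU Fh := by
    rw [eFh]
    exact hf'₂.mul (hhG₂.pow n)
  have hrdF₁ : S.c₁.rd Fh = S.c₁.rd h ^ n := by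
    rw [hFh, S.c₁.rd_mul hf'GU.1 (hhG₁.pow n).1, hf'rd, one_mul, S.c₁.rd_pow hhG₁.1]
  have hrdF₂ : S.c₂.rd Fh = S.c₂.rd (ϑ * h) ^ n := by
    rw [eFh, S.c₂.rd_mul hf'₂.1 (hhG₂.pow n).1, hf'₂rd, one_mul, S.c₂.rd_pow hhG₂.1]
  have hordF : ∀ P : Place K F, (n : ℤ) ∣ P.ord Fh := by
    intro P
    rw [hFh, P.ord_mul hf'0 (pow_ne_zero _ hh0), ord_pow]
    exact dvd_add (hdiv' P) (dvd_mul_right _ _)
  obtain ⟨t, ht⟩ := glueCore hGL hTI S H H₁ H₂ g g₁ g₂ c c₁ c₂ hR hR₁ hR₂ hnum n hn τ τ₁ τ₂ Q hτ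
    Fh (S.c₁.rd h) (S.c₂.rd (ϑ * h)) hFh₁ hFh₂ hrdF₁ hrdF₂ hordF hnode
  -- conclusion
  set y : F := h / X₁ with hy
  have hy0 : y ≠ 0 := div_ne_zero hh0 hX₁0
  have hFy : Fh = algebraMap K F a₁ * f * y ^ n := by
    rw [hFh, hf', hy, div_pow]
    have h1 : X₁ ^ n ≠ 0 := pow_ne_zero _ hX₁0
    field_simp
  have hτy0 : τ • y ≠ 0 := by
    intro h0
    apply hy0
    have := congrArg (fun z => τ⁻¹ • z) h0
    simpa using this
  have hτf0 : τ • f ≠ 0 := by
    intro h0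
    apply hf0
    have := congrArg (fun z => τ⁻¹ • z) h0
    simpa using this
  set b : K := SemilinearAut.baseAut τ a₁ with hb
  have hb0 : b ≠ 0 := by
    rw [hb]
    exact (map_ne_zero _).mpr ha₁
  have hB0 : algebraMap K F b ≠ 0 := fun h0 => hb0 ((map_eq_zero (algebraMap K F)).mp h0)
  have hτF : τ • Fh = algebraMap K F b * (τ • f) * (τ • y) ^ n := by
    rw [hFy, smul_mul', smul_mul', smul_pow', SemilinearAut.smul_algebraMap]
  obtain ⟨κ, hκ⟩ := IsAlgClosed.exists_pow_nat_eq (a₁ ^ Q / b) hnpos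
  have hKn : algebraMap K F κ ^ n = algebraMap K F a₁ ^ Q / algebraMap K F b := by
    rw [← map_pow, hκ, map_div₀, map_pow]
  refine ⟨t * algebraMap K F κ * y ^ Q / (τ • y), ?_⟩
  rw [div_pow, mul_pow, mul_pow, ht, hKn, hτF, hFy]
  have h3 : y ^ n ≠ 0 := pow_ne_zero _ hy0
  have h4 : (τ • y) ^ n ≠ 0 := pow_ne_zero _ hτy0
  have h5 : f ^ Q ≠ 0 := pow_ne_zero _ hf0
  have h6 : algebraMap K F a₁ ^ Q ≠ 0 := pow_ne_zero _ hA₁
  field_simp
  ring

end Fermat.Agent.S35.H89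

end
end
-- ==== END Fermat.Agent.S35.H89_GlueGen

-- ==== BEGIN Fermat.Agent.S36.H44_AlphaNorm
section
attribute [local instance 10000] SubalgebraClass.toAlgebra
attribute [local instance 10000] HahnSeries.powerSeriesAlgebra

/-!
# S35 / S36, T-X (route Y), helper44: `α_*` commutes with the norm functions of `T_ℓ`

`ℓ` prime, `ℓ ∤ M q`.  For `f ∈ F_{Mq}`:
`N_{F_{Mq}/F_M} (n_ℓ^{(Mq)} f) = n_ℓ^{(M)} (N_{F_{Mq}/F_M} f)`,
where `n_ℓ f = Norm_α (β f)` is the norm function of the Hecke correspondence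
(`GTor.H2.heckeNormFn`).

Proof: transitivity of norms and base change of the norm in the square
`F_M ⊂ F_{Mq}`, `F_{Mℓ} ⊂ F_{Mqℓ}`, `β_ℓ` (generator `j (q ^ (M q))`, package G; degrees by
`finrankAlong_alpha` of helper95 and the tower law).
-/

set_option autoImplicit false
set_option linter.style.haveILetI false
set_option linter.unusedSectionVars false

noncomputable section

namespace Fermat.Agent.S36.H44

open AlgebraicCurve ModularCurve Fermat.Agent.S24 Fermat.Agent.Lib.HeckeComm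
  Fermat.Agent.GTor Fermat.Agent.GTor.H2

local notation "Kb" => AlgebraicClosure ℚ

variable (M q ℓ : ℕ) [NeZero M] [NeZero q] [NeZero ℓ]

theorem dvd_lift : M * ℓ ∣ M * q * ℓ := ⟨q, by ring⟩

/-- The inclusion `F_{Mℓ} ⊂ F_{Mqℓ}`. -/
def alphaLift : FN (M * ℓ) →ₐ[Kb] FN (M * q * ℓ) := inclFN (M * ℓ) (M * q * ℓ) (dvd_lift M q ℓ)

theorem coe_alphaLift (x : FN (M * ℓ)) :
    (alphaLift M q ℓ x : LaurentSeries Kb) = (x : LaurentSeries Kb) :=
  coe_inclFN _ _ _ x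

theorem finrankHom_eq_finrankAlong {K F F' : Type*} [Field K] [Field F] [Field F'] [Algebra K F]
    [Algebra K F'] (φ : F →ₐ[K] F') : finrankHom φ.toRingHom = finrankAlong K φ := rfl

theorem alpha_square :
    (heckeAlphaBar Kb (M * q) ℓ).toRingHom.comp (heckeAlphaBar Kb M q).toRingHom
      = (alphaLift M q ℓ).toRingHom.comp (heckeAlphaBar Kb M ℓ).toRingHom := by
  ext x
  simp only [RingHom.comp_apply, AlgHom.toRingHom_eq_coe, RingHom.coe_coe, coe_heckeAlphaBar,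
    coe_alphaLift]

theorem alpha_square_beta (x : FN M) :
    (heckeBetaBar Kb (M * q) ℓ).toRingHom ((heckeAlphaBar Kb M q).toRingHom x)
      = (alphaLift M q ℓ).toRingHom ((heckeBetaBar Kb M ℓ).toRingHom x) := by
  apply Subtype.ext
  simp only [AlgHom.toRingHom_eq_coe, RingHom.coe_coe, coe_heckeBetaBar, coe_heckeAlphaBar,
    coe_alphaLift]

theorem alphaLift_finite : letI := (alphaLift M q ℓ).toRingHom.toAlgebra
    Module.Finite (FN (M * ℓ)) (FN (M * q * ℓ)) :=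
  stmt_Fin (M * ℓ) (M * q * ℓ) (dvd_lift M q ℓ)

theorem alphaLift_finrank (hℓ : ℓ.Prime) (hℓM : ¬ ℓ ∣ M * q) :
    finrankHom (heckeAlphaBar Kb M q).toRingHom = finrankHom (alphaLift M q ℓ).toRingHom := by
  have hℓM' : ¬ ℓ ∣ M := fun h => hℓM (dvd_mul_of_dvd_left h q)
  exact finrank_eq_of_square _ _ _ _ (alpha_square M q ℓ) (ℓ + 1) (Nat.succ_ne_zero ℓ)
    ((finrankHom_eq_finrankAlong _).trans (Fermat.Agent.RED.H95.finrankAlong_alpha hℓ hℓM'))
    ((finrankHom_eq_finrankAlong _).trans (Fermat.Agent.RED.H95.finrankAlong_alpha hℓ hℓM))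

theorem beta_jdF_top :
    (heckeBetaBar Kb (M * q) ℓ).toRingHom (jdF (M * q) (M * q) dvd_rfl)
      = jdF (M * q * ℓ) (M * q * ℓ) dvd_rfl := by
  show heckeBetaBar Kb (M * q) ℓ (jdF (M * q) (M * q) dvd_rfl) = _
  rw [Fermat.Agent.RED.H95.beta_jdF]
  exact jdF_congr _ _ _ _ _ (mul_comm _ _)

/-- **`α_*` commutes with the norm functions.** -/
theorem alpha_norm_comm (hℓ : ℓ.Prime) (hℓM : ¬ ℓ ∣ M * q) (f : FN (M * q)) :
    normAlongHom (heckeAlphaBar Kb M q).toRingHom (heckeNormFn Kb (M * q) ℓ f)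
      = heckeNormFn Kb M ℓ (normAlongHom (heckeAlphaBar Kb M q).toRingHom f) := by
  rw [heckeNormFn_eq_normAlongHom, heckeNormFn_eq_normAlongHom]
  refine norm_hecke_square (heckeAlphaBar Kb M q).toRingHom (heckeAlphaBar Kb M ℓ).toRingHom
    (heckeBetaBar Kb M ℓ).toRingHom (heckeAlphaBar Kb (M * q) ℓ).toRingHom
    (heckeBetaBar Kb (M * q) ℓ).toRingHom (alphaLift M q ℓ).toRingHom (alpha_square M q ℓ)
    (alpha_square_beta M q ℓ) (alpha_finite M q) (alphaLift_finite M q ℓ)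
    (jdF (M * q) (M * q) dvd_rfl) (stmt_GenJ M (M * q) (dvd_mul_right M q)) ?_
    (alphaLift_finrank M q ℓ hℓ hℓM) f
  rw [beta_jdF_top]
  exact stmt_GenJ (M * ℓ) (M * q * ℓ) (dvd_lift M q ℓ)

end Fermat.Agent.S36.H44

end
end
-- ==== END Fermat.Agent.S36.H44_AlphaNorm
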