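-- GENERATED (merged mirror, NOTES/tools/trim/merge3_helper67.py): 9 modules of the originals, bodies verbatim.
import Fermat.Agent.Zm.S35_L06_002
import Fermat.Agent.Zm.S35_L15_001
import Fermat.Agent.Zm.S35_L15_002
import Fermat.Agent.Zm.S35_L12_001
import Fermat.Agent.Zm.S35_L13_000
import Fermat.Agent.Zm.S35_L11_000
import Fermat.Agent.Zm.S35_L14_002
import Fermat.Agent.Zm.S35_L15_000
import Fermat.Agent.Zm.S35_L08_000
import Fermat.Agent.Zm.S35_L12_000
import Fermat.Agent.Zm.S35_L10_003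
import Fermat.Agent.Zm.S35_L08_001
import Fermat.Agent.Zm.S35_L04_002
import Fermat.Agent.Zm.S35_L13_001
import Fermat.Agent.RED.H52_ES3bAbs
import Fermat.Agent.RED.H52_ES3Psi

-- ==== BEGIN Fermat.Agent.BAD.H30_Num23Abs
section

/-!
# BAD_q, leaf NUM-23 (helper30): abstract part

`K ⊂ F` a function field, `x, j ∈ F`.

* `num23_cover2` : if `(x + 256)³ = j x²` then every zero of `j - 1728` is a zero of `x + 64` or
  of `x - 512`;
* `num23_cover3` : if `(x + 27)(x + 243)³ = j x³` then every zero of `j` is a zero of `x + 27` or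
  of `x + 243`;
* `num23_card_zeros_le` : the fibre of `x` over a constant has at most `[F : K(x)]` points;
* `num23_card_le` : the counting consequence of a cover;
* `num23_red_pos` : if `(x - c)^m = j x^n`, `c ≠ 0`, `m > 0`, every zero of `x - c` is a zero
  of `j`.
-/

set_option autoImplicit false
set_option linter.style.haveILetI false
set_option linter.unusedSectionVars false

noncomputable section

open AlgebraicCurve IntermediateField Polynomial

namespace Fermat.Agent.BAD.H30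

open Fermat.Agent.RED.H51 Fermat.Agent.RED.H76

section Abs

variable {K F : Type} [Field K] [Field F] [Algebra K F]

theorem num23_transc_ne_zero {x : F} (hx : Transcendental K x) : x ≠ 0 := by
  rintro rfl
  exact hx isAlgebraic_zero

/-- `x + c` has the order of `x` at a pole of `x`. -/
theorem num23_ord_add_const (v : Place K F) {x : F} (hx0 : x ≠ 0) (hneg : v.ord x < 0) (c : K) :
    x + algebraMap K F c ≠ 0 ∧ v.ord (x + algebraMap K F c) = v.ord x := by
  apply ord_add_eq v hx0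
  rcases eq_or_ne (algebraMap K F c) 0 with h | h
  · exact Or.inl h
  · refine Or.inr ?_
    rw [ord_algebraMap]
    omega

/-- `x + c` is regular where `x` is. -/
theorem num23_ord_add_const_nonneg (v : Place K F) {x : F} (hx : Transcendental K x)
    (hnn : 0 ≤ v.ord x) (c : K) :
    x + algebraMap K F c ≠ 0 ∧ 0 ≤ v.ord (x + algebraMap K F c) := by
  have hne : x + algebraMap K F c ≠ 0 := by
    have := sub_algebraMap_ne_zero hx (-c)
    rwa [map_neg, sub_neg_eq_add] at this
  refine ⟨hne, ?_⟩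
  have h1 : OrdGe v 0 x := Or.inr hnn
  exact (h1.add (ordGe_algebraMap v c)).le hne

/-- **Cover, `p = 2`**: the zeros of `j - 1728` are zeros of `x + 64` or of `x - 512`. -/
theorem num23_cover2 [CharZero K] (v : Place K F) {x j : F} (hx : Transcendental K x)
    (hid : (x + algebraMap K F 256) ^ 3 = j * x ^ 2)
    (hv : 0 < v.ord (j - algebraMap K F 1728)) :
    0 < v.ord (x - algebraMap K F (-64)) ∨ 0 < v.ord (x - algebraMap K F 512) := by
  have hx0 : x ≠ 0 := num23_transc_ne_zero hx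
  have hj : v.ord j = 0 := ord_eq_zero_of_pos_sub v (c := (1728 : K)) (by norm_num) hv
  have hj0 : j ≠ 0 := by
    rintro rfl
    rw [zero_sub, ord_neg, ord_algebraMap] at hv
    exact lt_irrefl _ hv
  have hjne : j - algebraMap K F 1728 ≠ 0 := ne_zero_of_ord_ne_zero v hv.ne'
  -- `x` is regular at `v`
  have hnn : 0 ≤ v.ord x := by
    by_contra hneg
    rw [not_le] at hneg
    obtain ⟨h1, h2⟩ := num23_ord_add_const v hx0 hneg 256
    have h3 := congrArg v.ord hid
    rw [ord_pow, h2, v.ord_mul hj0 (pow_ne_zero 2 hx0), hj, ord_pow] at h3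
    simp only [Nat.cast_ofNat] at h3
    omega
  obtain ⟨ha0, ha⟩ := num23_ord_add_const_nonneg v hx hnn 64
  obtain ⟨hb0, hb⟩ := num23_ord_add_const_nonneg v hx hnn (-512)
  have hrel : (x + algebraMap K F 64) * (x + algebraMap K F (-512)) ^ 2
      = (j - algebraMap K F 1728) * x ^ 2 := by
    simp only [map_neg, map_ofNat] at hid ⊢
    linear_combination hid
  have h3 := congrArg v.ord hrel
  rw [v.ord_mul ha0 (pow_ne_zero 2 hb0), ord_pow, v.ord_mul hjne (pow_ne_zero 2 hx0),
    ord_pow] at h3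
  simp only [Nat.cast_ofNat] at h3
  have e1 : x - algebraMap K F (-64) = x + algebraMap K F 64 := by
    rw [map_neg, sub_neg_eq_add]
  have e2 : x - algebraMap K F 512 = x + algebraMap K F (-512) := by
    rw [map_neg, sub_eq_add_neg]
  rw [e1, e2]
  by_contra hcon
  rw [not_or, not_lt, not_lt] at hcon
  omega

/-- **Cover, `p = 3`**: the zeros of `j` are zeros of `x + 27` or of `x + 243`. -/
theorem num23_cover3 [CharZero K] (v : Place K F) {x j : F} (hx : Transcendental K x)
    (hid : (x + algebraMap K F 27) * (x + algebraMap K F 243) ^ 3 = j * x ^ 3)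
    (hv : 0 < v.ord (j - algebraMap K F 0)) :
    0 < v.ord (x - algebraMap K F (-27)) ∨ 0 < v.ord (x - algebraMap K F (-243)) := by
  rw [map_zero, sub_zero] at hv
  have hx0 : x ≠ 0 := num23_transc_ne_zero hx
  have hj0 : j ≠ 0 := ne_zero_of_ord_ne_zero v hv.ne'
  have hnn : 0 ≤ v.ord x := by
    by_contra hneg
    rw [not_le] at hneg
    obtain ⟨h1, h2⟩ := num23_ord_add_const v hx0 hneg 27
    obtain ⟨h1', h2'⟩ := num23_ord_add_const v hx0 hneg 243
    have h3 := congrArg v.ord hid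
    rw [v.ord_mul h1 (pow_ne_zero 3 h1'), ord_pow, h2, h2',
      v.ord_mul hj0 (pow_ne_zero 3 hx0), ord_pow] at h3
    simp only [Nat.cast_ofNat] at h3
    omega
  obtain ⟨ha0, ha⟩ := num23_ord_add_const_nonneg v hx hnn 27
  obtain ⟨hb0, hb⟩ := num23_ord_add_const_nonneg v hx hnn 243
  have h3 := congrArg v.ord hid
  rw [v.ord_mul ha0 (pow_ne_zero 3 hb0), ord_pow, v.ord_mul hj0 (pow_ne_zero 3 hx0),
    ord_pow] at h3
  simp only [Nat.cast_ofNat] at h3
  have e1 : x - algebraMap K F (-27) = x + algebraMap K F 27 := by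
    rw [map_neg, sub_neg_eq_add]
  have e2 : x - algebraMap K F (-243) = x + algebraMap K F 243 := by
    rw [map_neg, sub_neg_eq_add]
  rw [e1, e2]
  by_contra hcon
  rw [not_or, not_lt, not_lt] at hcon
  omega

/-- The zeros of `x - c` form a finite set with at most `[F : K(x)]` elements. -/
theorem num23_zeros_finite (x : F) (hx : Transcendental K x) [FiniteDimensional K⟮x⟯ F]
    (c : K) :
    {v : Place K F | 0 < v.ord (x - algebraMap K F c)}.Finite ∧
      {v : Place K F | 0 < v.ord (x - algebraMap K F c)}.ncard ≤ Module.finrank K⟮x⟯ F := by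
  classical
  have hKy : K⟮x - algebraMap K F c⟯ = K⟮x⟯ := adjoin_simple_sub_algebraMap x c
  haveI : FiniteDimensional K⟮x - algebraMap K F c⟯ F := by
    rw [hKy]
    infer_instance
  have hrank : Module.finrank K⟮x - algebraMap K F c⟯ F = Module.finrank K⟮x⟯ F :=
    congrArg (fun E : IntermediateField K F => Module.finrank E F) hKy
  obtain ⟨hfin, -⟩ := zerosLe K F (x - algebraMap K F c) (transcendental_sub_algebraMap hx c)
  refine ⟨hfin, ?_⟩
  have h1 := sum_ord_le_finrank (x - algebraMap K F c) hfin.toFinset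
    (fun v hv => (Set.Finite.mem_toFinset hfin).mp hv)
  have h2 : (hfin.toFinset.card : ℤ) ≤ ∑ v ∈ hfin.toFinset, v.ord (x - algebraMap K F c) := by
    rw [Finset.card_eq_sum_ones, Nat.cast_sum]
    refine Finset.sum_le_sum fun v hv => ?_
    have : 0 < v.ord (x - algebraMap K F c) := (Set.Finite.mem_toFinset hfin).mp hv
    push_cast
    omega
  rw [Set.ncard_eq_toFinset_card _ hfin, ← hrank]
  exact_mod_cast h2.trans h1

theorem num23_card_zeros_le (x : F) (hx : Transcendental K x) [FiniteDimensional K⟮x⟯ F]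
    (c : K) :
    Nat.card {v : Place K F // 0 < v.ord (x - algebraMap K F c)} ≤ Module.finrank K⟮x⟯ F := by
  have h := (num23_zeros_finite x hx c).2
  rwa [← Nat.card_coe_set_eq] at h

/-- **Counting**: if every place with `p` is a zero of `x - a` or of `x - b`, then
`#{p} ≤ #{x = a} + [F : K(x)]`. -/
theorem num23_card_le (x : F) (hx : Transcendental K x) [FiniteDimensional K⟮x⟯ F]
    (p : Place K F → Prop) (a b : K)
    (hcov : ∀ v, p v → 0 < v.ord (x - algebraMap K F a) ∨ 0 < v.ord (x - algebraMap K F b)) :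
    Nat.card {v : Place K F // p v}
      ≤ Nat.card {v : Place K F // 0 < v.ord (x - algebraMap K F a)}
        + Module.finrank K⟮x⟯ F := by
  obtain ⟨hfa, -⟩ := num23_zeros_finite x hx a
  obtain ⟨hfb, hb⟩ := num23_zeros_finite x hx b
  have hsub : {v : Place K F | p v} ⊆
      {v : Place K F | 0 < v.ord (x - algebraMap K F a)}
        ∪ {v : Place K F | 0 < v.ord (x - algebraMap K F b)} := by
    intro v hv
    exact hcov v hv
  have h1 := Set.ncard_le_ncard hsub (hfa.union hfb)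
  have h2 := Set.ncard_union_le {v : Place K F | 0 < v.ord (x - algebraMap K F a)}
    {v : Place K F | 0 < v.ord (x - algebraMap K F b)}
  have e1 : Nat.card {v : Place K F // p v} = {v : Place K F | p v}.ncard :=
    Nat.card_coe_set_eq _
  have e2 : Nat.card {v : Place K F // 0 < v.ord (x - algebraMap K F a)}
      = {v : Place K F | 0 < v.ord (x - algebraMap K F a)}.ncard := Nat.card_coe_set_eq _
  rw [e1, e2]
  omega

/-- **Reduced side**: if `(x - c)^m = j x^n` with `c ≠ 0`, `m > 0`, every zero of `x - c` is a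
zero of `j`, and `x` is a unit there. -/
theorem num23_red_pos (z : Place K F) {x j : F} {c : K} (hc : c ≠ 0) {m n : ℕ} (hm : 0 < m)
    (hid : (x - algebraMap K F c) ^ m = j * x ^ n)
    (hz : 0 < z.ord (x - algebraMap K F c)) : 0 < z.ord j := by
  have hx : z.ord x = 0 := ord_eq_zero_of_pos_sub z hc hz
  have hxc : x - algebraMap K F c ≠ 0 := ne_zero_of_ord_ne_zero z hz.ne'
  have hx0 : x ≠ 0 := by
    rintro rfl
    rw [zero_sub, ord_neg, ord_algebraMap] at hz
    exact lt_irrefl _ hz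
  have hj0 : j ≠ 0 := by
    rintro rfl
    rw [zero_mul] at hid
    exact pow_ne_zero m hxc hid
  have h3 := congrArg z.ord hid
  rw [ord_pow, z.ord_mul hj0 (pow_ne_zero n hx0), ord_pow, hx, mul_zero, add_zero] at h3
  rw [← h3]
  have : (0 : ℤ) < (m : ℤ) := by exact_mod_cast hm
  positivity

end Abs

end Fermat.Agent.BAD.H30

end
end
-- ==== END Fermat.Agent.BAD.H30_Num23Abs

-- ==== BEGIN Fermat.Agent.BAD.H30_Sigma1
section

/-!
# BAD_q, package SIGMA, leaf Σ1 (helper30): the fibre of `β` over the cusp `∞`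

`q` prime, `q ∤ M`, `α, β : F_M → F_{M q}` the degeneracy maps over `ℚ̄`.

* `sigma1` : a place `P` of `F_{M q}` with `P | β = cuspInf M` has `P | α = cuspInf M`.
* `sigma1'` : the same with the integrality proofs supplied by `RED.H51.stmt_HKA`.

Proof: `T_q (P∞) = α_* β^* (P∞) = (q + 1) P∞` (helper26, `heckeDivBar_single_cuspInf`), and
`α_* β^* (P∞)` is an effective divisor whose support is `{P | α : P | β = P∞}`.
-/

set_option autoImplicit false
set_option synthInstance.maxHeartbeats 400000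
set_option linter.style.haveILetI false
set_option linter.unusedSectionVars false

noncomputable section

open AlgebraicCurve ModularCurve

namespace Fermat.Agent.BAD.H30

open Fermat.Agent.S24 (Kbar FN)
open Fermat.Agent.RED.KD.H22 (cuspInf)

section Corr

variable {K F F' : Type*} [Field K] [Field F] [Field F'] [Algebra K F] [Algebra K F']

theorem sigma1_inertiaDegAlong_eq_one (ψ : F →ₐ[K] F') (hψ : ψ.toRingHom.IsIntegral)
    (hdeg : ∀ v : Place K F, v.deg = 1) (hdeg' : ∀ w : Place K F', w.deg = 1)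
    (W : Place K F') : W.inertiaDegAlong ψ hψ = 1 := by
  letI := algebraAlong ψ
  haveI := isScalarTower_along ψ
  haveI := isIntegral_along ψ hψ
  have h := W.deg_restrict_mul_inertiaDeg (F := F)
  rw [hdeg, hdeg', one_mul] at h
  exact h

variable [HasPrincipalDivisors K F']
  (φ ψ : F →ₐ[K] F') (hφ : φ.toRingHom.IsIntegral) (hψ : ψ.toRingHom.IsIntegral)

/-- The correspondence `ψ_* φ^*` applied to the place `W | φ` has a positive coefficient at
`W | ψ`. -/
theorem sigma1_correspondence_single_pos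
    (hdeg : ∀ v : Place K F, v.deg = 1) (hdeg' : ∀ w : Place K F', w.deg = 1)
    (W : Place K F') :
    0 < Divisor.correspondence φ ψ hφ hψ (Finsupp.single (W.restrictAlong φ hφ) 1)
      (W.restrictAlong ψ hψ) := by
  classical
  rw [Divisor.correspondence_apply, Divisor.pullbackAlong_single, map_sum,
    Finsupp.finsetSum_apply]
  have hmem : W ∈ Place.fiberAlong φ hφ (W.restrictAlong φ hφ) := Place.mem_fiberAlong.mpr rfl
  have hnn : ∀ W' ∈ Place.fiberAlong φ hφ (W.restrictAlong φ hφ),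
      0 ≤ (Divisor.pushforwardAlong ψ hψ
        (Finsupp.single W' (1 * (W'.ramificationIndexAlong φ : ℤ)))) (W.restrictAlong ψ hψ) := by
    intro W' _
    rw [Divisor.pushforwardAlong_single, Finsupp.single_apply]
    split_ifs
    · positivity
    · exact le_rfl
  refine lt_of_lt_of_le ?_ (Finset.single_le_sum hnn hmem)
  rw [Divisor.pushforwardAlong_single, Finsupp.single_eq_same, one_mul,
    sigma1_inertiaDegAlong_eq_one ψ hψ hdeg hdeg' W, Nat.cast_one, mul_one]
  have := Fermat.Agent.S15.H26.ramificationIndexAlong_pos φ hφ W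
  exact_mod_cast this

end Corr

section Main

variable (M q : ℕ) [NeZero M] [NeZero q]

/-- **Σ1**: a place over the cusp `∞` along `β` lies over the cusp `∞` along `α`. -/
theorem sigma1 (hq : q.Prime) (hqM : ¬ q ∣ M)
    (hα : HeckeAlphaBarIntegral Kbar M q) (hβ : HeckeBetaBarIntegral Kbar M q)
    (P : Place Kbar (laurentBaseChange Kbar (modularFunctionFieldFull (M * q))))
    (hP : P.restrictAlong (heckeBetaBar Kbar M q) hβ = cuspInf M) :
    P.restrictAlong (heckeAlphaBar Kbar M q) hα = cuspInf M := by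
  haveI : NeZero (M * q) := ⟨Nat.mul_ne_zero (NeZero.ne M) (NeZero.ne q)⟩
  obtain ⟨hα', hβ', hPD, hfin, hFI, hNF⟩ := Fermat.Agent.RED.H51.stmt_HKA M q
  haveI := hPD
  have hT := Fermat.Agent.S15.H26.heckeDivBar_single_cuspInf M q hα hβ hq hqM hfin hFI hNF
  by_contra hne
  have h0 : heckeDivBar (L := Kbar) hα hβ (Finsupp.single (cuspInf M) 1)
      (P.restrictAlong (heckeAlphaBar Kbar M q) hα) = 0 := by
    rw [hT]
    exact Finsupp.single_eq_of_ne hne
  have hpos := sigma1_correspondence_single_pos (heckeBetaBar Kbar M q) (heckeAlphaBar Kbar M q)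
    hβ hα (Fermat.Agent.S15.H22.place_deg_eq_one M)
    (Fermat.Agent.S15.H22.place_deg_eq_one (M * q)) P
  rw [hP] at hpos
  exact absurd h0 hpos.ne'

/-- **Σ1**, with the integrality of `α`, `β` from `RED.H51.stmt_HKA`. -/
theorem sigma1_exists (hq : q.Prime) (hqM : ¬ q ∣ M) :
    ∃ (hα : HeckeAlphaBarIntegral Kbar M q) (hβ : HeckeBetaBarIntegral Kbar M q),
      ∀ P : Place Kbar (laurentBaseChange Kbar (modularFunctionFieldFull (M * q))),
        P.restrictAlong (heckeBetaBar Kbar M q) hβ = cuspInf M →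
        P.restrictAlong (heckeAlphaBar Kbar M q) hα = cuspInf M := by
  obtain ⟨hα, hβ, -⟩ := Fermat.Agent.RED.H51.stmt_HKA M q
  exact ⟨hα, hβ, fun P hP => sigma1 M q hq hqM hα hβ P hP⟩

end Main

end Fermat.Agent.BAD.H30

end
end
-- ==== END Fermat.Agent.BAD.H30_Sigma1

-- ==== BEGIN Fermat.Agent.BAD.H30_UnitL
section

/-!
# BAD_q, package UNIT (helper30), part 2: the modular unit `Δ(q)/Δ(q^d)` in `F_N` over `ℚ̄`

For `d ∣ N`:
* `unit_mem N d hd : coeffEmb ℚ̄ (modularUnitSeries d) ∈ modularFunctionFieldBar N`;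
* `unitF N d hd : FN N` the unit as an element of the function field;
* `ord_unitF N d hd P hP : P.ord (unitF N d hd) = 0` for every place `P` at which `j` is regular
  (no zero and no pole off the cusps).
-/

set_option autoImplicit false
set_option linter.unusedSectionVars false
set_option linter.unusedVariables false
set_option synthInstance.maxHeartbeats 400000

open ModularCurve Polynomial

noncomputable section

namespace Fermat.Agent.BAD.H30

open Fermat.Agent.S23.H22 (Q q1)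
open Fermat.Agent.S28 (coeffRing iotaN)
open Fermat.Agent.S28.H30 (Xfam_coeff_mem Xfam_coeff_neg_sq)
open Fermat.Agent.S28.H90 (chi chi_eval chi_eval_self chi_monic coeff_mem_of_eval_mem)
open Fermat.Agent.RED.H73 (JL lagrange_swap)
open Fermat.Agent.RED.H30

section Transfer

variable {K : Type} [Field K] [IsAlgClosed K] (ι : K →+* ℂ) {N : ℕ} [NeZero N] {d : ℕ}

lemma exists_liftUnit (hd : d ∣ N) (q : Q N) :
    ∃ g : LaurentSeries K, coeffMap ι g = unitU N d q :=
  exists_coeffMap_eq ι fun n => mem_range_of_mem_coeffRing ι N (unitU_coeff_mem hd q n)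

/-- The conjugates of the unit over `K`. -/
def liftUnit (hd : d ∣ N) (q : Q N) : LaurentSeries K := Classical.choose (exists_liftUnit ι hd q)

lemma coeffMap_liftUnit (hd : d ∣ N) (q : Q N) :
    coeffMap ι (liftUnit ι hd q) = unitU N d q :=
  Classical.choose_spec (exists_liftUnit ι hd q)

variable (N) in
lemma exists_liftXN (q : Q N) :
    ∃ g : LaurentSeries K, coeffMap ι g = Fermat.Agent.S28.H76.Xfam N N q :=
  exists_coeffMap_eq ι fun n => mem_range_of_mem_coeffRing ι N (Xfam_coeff_mem N dvd_rfl q n)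

variable (N) in
/-- The conjugates of `j(Nz)` over `K`. -/
def liftXN (q : Q N) : LaurentSeries K := Classical.choose (exists_liftXN ι N q)

variable (N) in
lemma coeffMap_liftXN (q : Q N) :
    coeffMap ι (liftXN ι N q) = Fermat.Agent.S28.H76.Xfam N N q :=
  Classical.choose_spec (exists_liftXN ι N q)

/-- The symmetric functions over `K`. -/
theorem sym_lift (hd : d ∣ N) (c s : K) :
    (∏ q : Q N, (HahnSeries.C c - liftUnit ι hd q - HahnSeries.C s * liftXN ι N q)) ∈
      Algebra.adjoin K ({JL K N} : Set (LaurentSeries K)) := by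
  refine mem_adjoin_of_coeffMap_mem ι _ _ ?_
  have hJ : coeffMap ι (JL K N) = iotaN N jq := coeffMap_qExpand_jqModC_one ι N
  rw [hJ, map_prod]
  have := sym_unitU hd (dvd_refl N) (ι c) (ι s)
  convert this using 2
  rename_i q _
  rw [map_sub, map_sub, map_mul, coeffMap_C, coeffMap_C, coeffMap_liftUnit, coeffMap_liftXN]

variable (N) in
lemma liftXN_q1 : liftXN ι N (q1 : Q N) = qExpand K N (qExpand K N (jqModC K)) := by
  apply coeffMap_injective ι
  rw [coeffMap_liftXN, Fermat.Agent.S28.H76.Xfam_q1 N dvd_rfl, coeffMap_qExpand_jqModC]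

variable (N) in
lemma liftXN_ne (q : Q N) (hq : q ≠ q1) : liftXN ι N q ≠ liftXN ι N (q1 : Q N) := by
  intro h
  have h1 : (liftXN ι N q).coeff (-((N : ℤ) ^ 2)) = 0 := by
    apply ι.injective
    rw [← coeffMap_coeff, coeffMap_liftXN, map_zero]
    exact Xfam_coeff_neg_sq N q hq
  rw [h, liftXN_q1] at h1
  have e : (-((N : ℤ) ^ 2)) = (N : ℤ) * ((N : ℤ) * (-1)) := by ring
  rw [e, qExpand_coeff_mul, qExpand_coeff_mul, coeff_jqModC_neg_one] at h1
  exact one_ne_zero h1

/-- **Lagrange with exchanged roles**: the unit lies in `K(j(t^{N²}), j(t^N))`. -/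
theorem liftUnit_q1_mem [Infinite K] (hd : d ∣ N) :
    liftUnit ι hd (q1 : Q N) ∈
      IntermediateField.adjoin K ({liftXN ι N (q1 : Q N), JL K N} : Set (LaurentSeries K)) := by
  refine lagrange_swap (F := K) (L := LaurentSeries K) (q1 : Q N)
    (Algebra.adjoin K ({JL K N} : Set (LaurentSeries K))) _ ?_ (liftUnit ι hd) (liftXN ι N) ?_
    (liftXN_ne ι N) ?_
  · intro a ha
    have hle : Algebra.adjoin K ({JL K N} : Set (LaurentSeries K))
        ≤ (IntermediateField.adjoin K ({liftXN ι N (q1 : Q N), JL K N} :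
            Set (LaurentSeries K))).toSubalgebra := by
      refine Algebra.adjoin_le ?_
      intro x hx
      rw [Set.mem_singleton_iff] at hx
      subst hx
      exact IntermediateField.subset_adjoin K _ (by simp)
    exact hle ha
  · exact IntermediateField.subset_adjoin K _ (by simp)
  · intro c s
    have := sym_lift ι hd c s
    simp only [Fermat.Agent.S28.H92.hahnC_eq_algebraMap] at this
    exact this

/-- The unit lies in the image of `F_N` under `q ↦ t^N`. -/
theorem liftUnit_q1_mem_map [Infinite K] (hd : d ∣ N) :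
    liftUnit ι hd (q1 : Q N) ∈
      (modularFunctionFieldFullC K N).map (qExpandAlgHomC K N) := by
  have hJ : JL K N ∈ (modularFunctionFieldFullC K N).map (qExpandAlgHomC K N) :=
    ⟨jqModC K, jqModC_mem_full K N, rfl⟩
  have hX : liftXN ι N (q1 : Q N) ∈ (modularFunctionFieldFullC K N).map (qExpandAlgHomC K N) := by
    rw [liftXN_q1]
    exact ⟨qExpand K N (jqModC K), jqModCd_mem_full K N dvd_rfl, rfl⟩
  have hle : IntermediateField.adjoin K ({liftXN ι N (q1 : Q N), JL K N} : Set (LaurentSeries K))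
      ≤ (modularFunctionFieldFullC K N).map (qExpandAlgHomC K N) := by
    rw [IntermediateField.adjoin_le_iff]
    rintro x (rfl | hx)
    · exact hX
    · rw [Set.mem_singleton_iff] at hx
      subst hx
      exact hJ
  exact hle (liftUnit_q1_mem ι hd)

/-- All conjugates are integral over `K[J]`. -/
theorem isIntegral_liftUnit [Infinite K] (hd : d ∣ N) (q : Q N) :
    IsIntegral ↥(Algebra.adjoin K ({JL K N} : Set (LaurentSeries K))) (liftUnit ι hd q) := by
  have hcoeff : ∀ k : ℕ, (chi (liftUnit ι hd)).coeff k ∈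
      Algebra.adjoin K ({JL K N} : Set (LaurentSeries K)) := by
    intro k
    have := coeff_mem_of_eval_mem (C := K)
      (Subalgebra.toSubmodule (Algebra.adjoin K ({JL K N} : Set (LaurentSeries K))))
      (chi (liftUnit ι hd))
      (fun c => by
        rw [chi_eval, LaurentSeries.algebraMap_apply]
        have h := sym_lift ι hd c 0
        have e : (∏ q : Q N, (HahnSeries.C c - liftUnit ι hd q - HahnSeries.C 0 * liftXN ι N q))
            = ∏ q : Q N, (HahnSeries.C c - liftUnit ι hd q) :=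
          Finset.prod_congr rfl fun q _ => by rw [map_zero, zero_mul, sub_zero]
        rw [e] at h
        exact h) k
    exact this
  have hl : chi (liftUnit ι hd) ∈ Polynomial.lifts
      (algebraMap ↥(Algebra.adjoin K ({JL K N} : Set (LaurentSeries K))) (LaurentSeries K)) := by
    rw [Polynomial.lifts_iff_coeff_lifts]
    intro n
    exact ⟨⟨_, hcoeff n⟩, rfl⟩
  obtain ⟨P, hP, -, hm⟩ := Polynomial.lifts_and_natDegree_eq_and_monic hl (chi_monic _)
  refine ⟨P, hm, ?_⟩
  rw [← aeval_def, aeval_def, ← eval_map, hP]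
  exact chi_eval_self _ q

/-- A series over `K` which is a nonzero constant over `ℂ` is a nonzero constant. -/
lemma eq_C_of_coeffMap_eq_C {g : LaurentSeries K} {c₀ : ℂ} (hc₀ : c₀ ≠ 0)
    (hmap : coeffMap ι g = HahnSeries.C c₀) : ∃ c : K, c ≠ 0 ∧ g = HahnSeries.C c := by
  have hcoeff : ∀ n : ℤ, ι (g.coeff n) = (HahnSeries.C c₀ : LaurentSeries ℂ).coeff n := fun n => by
    rw [← coeffMap_coeff, hmap]
  refine ⟨g.coeff 0, ?_, ?_⟩
  · intro h0
    have := hcoeff 0
    rw [h0, map_zero, HahnSeries.C_apply, HahnSeries.coeff_single_same] at this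
    exact hc₀ this.symm
  · ext n
    by_cases hn : n = 0
    · subst hn
      rw [HahnSeries.C_apply, HahnSeries.coeff_single_same]
    · rw [HahnSeries.C_apply, HahnSeries.coeff_single_of_ne hn]
      apply ι.injective
      rw [hcoeff n, map_zero, HahnSeries.C_apply, HahnSeries.coeff_single_of_ne hn]

/-- The norm of the unit over `K` is a nonzero constant. -/
theorem prod_liftUnit_eq_C (hd : d ∣ N) :
    ∃ c : K, c ≠ 0 ∧ ∏ q : Q N, liftUnit ι hd q = HahnSeries.C c := by
  obtain ⟨c₀, hc₀, hprod⟩ := prod_unitU_eq_C (N := N) hd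
  refine eq_C_of_coeffMap_eq_C ι hc₀ ?_
  rw [map_prod, ← hprod]
  exact Finset.prod_congr rfl fun q _ => coeffMap_liftUnit ι hd q

/-- The inverse of the unit is integral over `K[J]`. -/
theorem isIntegral_liftUnit_inv [Infinite K] (hd : d ∣ N) :
    IsIntegral ↥(Algebra.adjoin K ({JL K N} : Set (LaurentSeries K)))
      (liftUnit ι hd (q1 : Q N))⁻¹ := by
  classical
  obtain ⟨c, hc, hprod⟩ := prod_liftUnit_eq_C ι hd
  have hU0 : liftUnit ι hd (q1 : Q N) ≠ 0 := by
    intro h
    apply unitU_ne_zero hd (q1 : Q N)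
    rw [← coeffMap_liftUnit ι hd, h, map_zero]
  have hsplit : liftUnit ι hd (q1 : Q N) *
      ∏ q ∈ Finset.univ.erase (q1 : Q N), liftUnit ι hd q = HahnSeries.C c := by
    rw [Finset.mul_prod_erase Finset.univ (liftUnit ι hd) (Finset.mem_univ _), hprod]
  have hinv : (liftUnit ι hd (q1 : Q N))⁻¹
      = algebraMap K (LaurentSeries K) c⁻¹ *
          ∏ q ∈ Finset.univ.erase (q1 : Q N), liftUnit ι hd q := by
    have hC : (HahnSeries.C c : LaurentSeries K) ≠ 0 := by
      rw [Ne, map_eq_zero]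
      exact hc
    rw [LaurentSeries.algebraMap_apply, map_inv₀, inv_mul_eq_div, eq_div_iff hC, ← hsplit,
      ← mul_assoc, inv_mul_cancel₀ hU0, one_mul]
  rw [hinv]
  refine IsIntegral.mul ?_ (IsIntegral.prod _ fun q _ => isIntegral_liftUnit ι hd q)
  have : algebraMap K (LaurentSeries K) c⁻¹
      = algebraMap ↥(Algebra.adjoin K ({JL K N} : Set (LaurentSeries K)))
          (LaurentSeries K) (algebraMap K _ c⁻¹) := rfl
  rw [this]
  exact isIntegral_algebraMap

/-- The expansion of the unit at the identity coset, over `K`. -/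
theorem liftUnit_q1 [Algebra ℚ K] [NeZero d] (hd : d ∣ N) :
    liftUnit ι hd (q1 : Q N)
      = HahnSeries.C (((d : K) ^ ((12 : ℤ) - 1))⁻¹) *
          qExpand K N (coeffEmb K (modularUnitSeries d)) := by
  apply coeffMap_injective ι
  rw [coeffMap_liftUnit, unitU_q1 hd, map_mul, coeffMap_C, ModularCurve.coeffMap_qExpand,
    coeffEmb, ModularCurve.coeffMap_coeffMap, iotaN, RingHom.comp_apply]
  have e1 : ι (((d : K) ^ ((12 : ℤ) - 1))⁻¹) = ((d : ℂ) ^ ((12 : ℤ) - 1))⁻¹ := by
    rw [map_inv₀, map_zpow₀, map_natCast]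
  have e2 : ι.comp (algebraMap ℚ K) = algebraMap ℚ ℂ := Subsingleton.elim _ _
  rw [e1, e2]

end Transfer

/-! ### The unit in `F_N` over `ℚ̄` -/

open Fermat.Agent.S24 (Kbar FN jF iotaC)
open Fermat.Agent.S15.H30 (psi psi_apply psi_injective psi_jF mem_of_isIntegral_map)
open AlgebraicCurve

variable (N : ℕ) [NeZero N] (d : ℕ) [NeZero d]

theorem unit_const_ne_zero : ((d : Kbar) ^ ((12 : ℤ) - 1))⁻¹ ≠ 0 :=
  inv_ne_zero (zpow_ne_zero _ (Nat.cast_ne_zero.mpr (NeZero.ne d)))

/-- **(U1)** `Δ(q)/Δ(q^d) ∈ F_N` for `d ∣ N`. -/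
theorem unit_mem (hd : d ∣ N) :
    coeffEmb Kbar (modularUnitSeries d) ∈ modularFunctionFieldBar N := by
  have h := liftUnit_q1_mem_map iotaC hd
  rw [liftUnit_q1 iotaC hd] at h
  have hc := unit_const_ne_zero d
  have hC : (HahnSeries.C (((d : Kbar) ^ ((12 : ℤ) - 1))⁻¹) : LaurentSeries Kbar)
      ∈ (modularFunctionFieldFullC Kbar N).map (qExpandAlgHomC Kbar N) := by
    rw [← LaurentSeries.algebraMap_apply]
    exact IntermediateField.algebraMap_mem _ _
  have hC0 : (HahnSeries.C (((d : Kbar) ^ ((12 : ℤ) - 1))⁻¹) : LaurentSeries Kbar) ≠ 0 := by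
    rw [Ne, map_eq_zero]
    exact hc
  have h2 : qExpand Kbar N (coeffEmb Kbar (modularUnitSeries d))
      ∈ (modularFunctionFieldFullC Kbar N).map (qExpandAlgHomC Kbar N) := by
    have := mul_mem (inv_mem hC) h
    rwa [← mul_assoc, inv_mul_cancel₀ hC0, one_mul] at this
  obtain ⟨y, hy, hye⟩ := h2
  have hye' : qExpand Kbar N y = qExpand Kbar N (coeffEmb Kbar (modularUnitSeries d)) := hye
  have hy' : y = coeffEmb Kbar (modularUnitSeries d) := qExpand_injective N hye'
  show coeffEmb Kbar (modularUnitSeries d) ∈ laurentBaseChange Kbar (modularFunctionFieldFull N)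
  rw [Fermat.Agent.RED.H73.laurentBaseChange_full_eq, ← hy']
  exact hy

/-- The modular unit `Δ(q)/Δ(q^d)` as an element of `F_N`. -/
def unitF (hd : d ∣ N) : FN N := ⟨coeffEmb Kbar (modularUnitSeries d), unit_mem N d hd⟩

theorem unitF_coe (hd : d ∣ N) :
    ((unitF N d hd : FN N) : LaurentSeries Kbar) = coeffEmb Kbar (modularUnitSeries d) := rfl

theorem psi_unitF (hd : d ∣ N) :
    psi N (unitF N d hd)
      = HahnSeries.C ((d : Kbar) ^ ((12 : ℤ) - 1)) * liftUnit iotaC hd (q1 : Q N) := by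
  rw [liftUnit_q1 iotaC hd, ← mul_assoc, ← map_mul, mul_inv_cancel₀
    (zpow_ne_zero _ (Nat.cast_ne_zero.mpr (NeZero.ne d))), map_one, one_mul]
  rfl

theorem unitF_ne_zero (hd : d ∣ N) : unitF N d hd ≠ 0 := by
  intro h
  have h1 := congrArg (Subtype.val : FN N → LaurentSeries Kbar) h
  have h2 : coeffEmb Kbar (modularUnitSeries d) = coeffEmb Kbar 0 := by
    rw [map_zero]; exact h1
  exact modularUnitSeries_ne_zero d (coeffMap_injective _ h2)

/-- **(U2)** the unit has neither zeros nor poles at the places where `j` is regular. -/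
theorem ord_unitF (hd : d ∣ N) (P : Place Kbar (FN N)) (hP : 0 ≤ P.ord (_root_.Fermat.Agent.S24.jF N)) :
    P.ord (unitF N d hd) = 0 := by
  have hj : _root_.Fermat.Agent.S24.jF N ∈ P.toValuationSubring := Fermat.Agent.S24.H85.mem_of_ord_nonneg P hP
  have hcint : ∀ c : Kbar, IsIntegral ↥(Algebra.adjoin Kbar ({JL Kbar N} : Set (LaurentSeries Kbar)))
      (HahnSeries.C c : LaurentSeries Kbar) := by
    intro c
    have : (HahnSeries.C c : LaurentSeries Kbar)
        = algebraMap ↥(Algebra.adjoin Kbar ({JL Kbar N} : Set (LaurentSeries Kbar)))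
            (LaurentSeries Kbar) (algebraMap Kbar _ c) := by
      rw [← LaurentSeries.algebraMap_apply]
      rfl
    rw [this]
    exact isIntegral_algebraMap
  have h1 : unitF N d hd ∈ P.toValuationSubring := by
    refine mem_of_isIntegral_map (psi N) (psi_injective N) P (_root_.Fermat.Agent.S24.jF N) hj _ ?_
    rw [psi_jF, psi_unitF]
    exact IsIntegral.mul (hcint _) (isIntegral_liftUnit iotaC hd _)
  have h2 : (unitF N d hd)⁻¹ ∈ P.toValuationSubring := by
    refine mem_of_isIntegral_map (psi N) (psi_injective N) P (_root_.Fermat.Agent.S24.jF N) hj _ ?_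
    rw [psi_jF, map_inv₀, psi_unitF, mul_inv, ← map_inv₀]
    exact IsIntegral.mul (hcint _) (isIntegral_liftUnit_inv iotaC hd)
  have h3 := Fermat.Agent.S24.H85.ord_nonneg_of_mem P h1
  have h4 := Fermat.Agent.S24.H85.ord_nonneg_of_mem P h2
  rw [Place.ord_inv] at h4
  omega

end Fermat.Agent.BAD.H30

end
end
-- ==== END Fermat.Agent.BAD.H30_UnitL

-- ==== BEGIN Fermat.Agent.BAD.H91_Descend
section
attribute [local instance 10000] SubalgebraClass.toAlgebra
attribute [local instance 10000] HahnSeries.powerSeriesAlgebra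

/-!
# BAD_q: descent of (B1) to all levels  (helper91)

The modular semistable Deuring datum `Stmt_ModSSD M q` is built on the Deuring reduction datum
of level `M / q` at `q`, which G-RED provides at the TAME levels only (`Stmt_DR2`: `q ≥ 5`, or
`q = 3` and `2 ∣ M`, or `q = 2` and `3 ∣ M`).  As for `TIcore`, the Kummer form of (B1) descends
from level `M` to level `N ∣ M`, `M ∣ 36 N`, by Kummer descent (`Stmt_KD`, proved by helper22).

* `b1core_descend : Stmt_B1core M q → Stmt_B1core N q` for `N ∣ M ∣ 36 N`;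
* `b1core_all` : `Stmt_B1core N q` for all `q ‖ N` from `Stmt_B1core` at the tame levels;
* `torsUnip_of_tame` : `Stmt_TorsUnip N p` from `Stmt_ABS` and `Stmt_ModSSD` at the tame levels.
-/

set_option autoImplicit false
set_option linter.style.haveILetI false
set_option synthInstance.maxHeartbeats 400000
set_option maxHeartbeats 400000

noncomputable section

open HahnSeries IntermediateField AlgebraicCurve ModularCurve
open Fermat.Agent.S28.H73 Fermat.Agent.RED.H73 Fermat.Agent.RED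

namespace Fermat.Agent.BAD.H91

open Fermat.Agent.BAD

/-- The tame case at `(M, q)`: the levels at which the modular datum is constructed. -/
def Tame (M q : ℕ) : Prop := 5 ≤ q ∨ (q = 3 ∧ 2 ∣ M) ∨ (q = 2 ∧ 3 ∣ M)

/-- **Descent of (B1), Kummer form**, from level `M` to level `N ∣ M`, `M ∣ 36 N`. -/
theorem b1core_descend {N M q : ℕ} [NeZero N] [NeZero M] (hNM : N ∣ M) (hM36 : M ∣ 36 * N)
    (hM : Stmt_B1core M q) : Stmt_B1core N q := by
  intro A hA σ hσ n hn f hres hdiv
  have hn0 : 0 < n := Nat.pos_of_ne_zero (by rintro rfl; exact hn (dvd_zero q))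
  have hle : modularFunctionFieldBar N ≤ modularFunctionFieldBar M :=
    S18.modularFunctionFieldBar_mono hNM
  have hint : (IntermediateField.inclusion hle).toRingHom.IsIntegral :=
    (H51.stmt_FFB_finite _ _ _ (H95.stmt_HKA_isFF N) (H95.stmt_HKA_isFF M) _).1
  set φ : ↥(FNbar N) →ₐ[AlgebraicClosure ℚ] ↥(FNbar M) := IntermediateField.inclusion hle
    with hφdef
  set f' : ↥(FNbar M) := φ (f : ↥(FNbar N)) with hf'
  have hcoe : ((f' : ↥(FNbar M)) : LaurentSeries (AlgebraicClosure ℚ))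
      = ((f : ↥(FNbar N)) : LaurentSeries (AlgebraicClosure ℚ)) :=
    IntermediateField.coe_inclusion hle (f : ↥(FNbar N))
  have hfV : ((f : ↥(FNbar N)) : LaurentSeries (AlgebraicClosure ℚ)) ∈ gaussRingV A :=
    (mem_gaussValSub_iff A (hasScale_laurentBaseChange A N) _).mp f.2
  have hf'V : f' ∈ gaussV A M := by
    show ((f' : ↥(FNbar M)) : LaurentSeries (AlgebraicClosure ℚ)) ∈ gaussRingV A
    rw [hcoe]
    exact hfV
  have hres' : gaussRes A M ⟨f', hf'V⟩ = 1 := by
    apply Subtype.ext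
    have e1 : gaussResF A (hasScale_laurentBaseChange A N) f = 1 := congrArg Subtype.val hres
    rw [gaussResF_apply] at e1
    show gaussResF A (hasScale_laurentBaseChange A M) ⟨f', hf'V⟩ = 1
    rw [gaussResF_apply, ← e1]
    congr 1
  have hdiv' : ∀ P' : Place (AlgebraicClosure ℚ) ↥(FNbar M), (n : ℤ) ∣ P'.ord f' := by
    intro P'
    letI := algebraAlong φ
    haveI := isScalarTower_along φ
    haveI := isIntegral_along φ hint
    have h1 := P'.ord_restrict (F := ↥(FNbar N)) (f : ↥(FNbar N))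
    have h2 : f' = algebraMap ↥(FNbar N) ↥(FNbar M) (f : ↥(FNbar N)) := rfl
    rw [h2, h1]
    exact Dvd.dvd.mul_left (hdiv _) _
  obtain ⟨t, ht⟩ := hM A hA σ hσ n hn ⟨f', hf'V⟩ hres' hdiv'
  -- the quotient `σ f / f` at level `N`
  have hf0 : ((f : ↥(gaussV A N)) : ↥(FNbar N)) ≠ 0 := by
    intro h0
    have e : f = 0 := Subtype.ext h0
    rw [e, map_zero] at hres
    exact zero_ne_one hres
  have hσf0 : galF N σ • ((f : ↥(gaussV A N)) : ↥(FNbar N)) ≠ 0 := by
    intro h0
    apply hf0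
    have h1 := congrArg (fun z => (galF N σ)⁻¹ • z) h0
    simp only [inv_smul_smul, smul_zero] at h1
    exact h1
  have hdivg : ∀ P : Place (AlgebraicClosure ℚ) ↥(FNbar N),
      (n : ℤ) ∣ P.ord ((galF N σ • ((f : ↥(gaussV A N)) : ↥(FNbar N)))
        / ((f : ↥(gaussV A N)) : ↥(FNbar N))) := by
    intro P
    rw [div_eq_mul_inv, Place.ord_mul _ hσf0 (inv_ne_zero hf0), Place.ord_inv, ord_galF_smul]
    exact dvd_add (hdiv _) ((dvd_neg).2 (hdiv _))
  refine Fermat.Agent.RED.KD.H22.stmt_KD N M n hNM hM36 hn0 _ hdivg ⟨(t : LaurentSeries (AlgebraicClosure ℚ)), t.2, ?_⟩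
  have h3 := congrArg (Subtype.val : ↥(FNbar M) → LaurentSeries (AlgebraicClosure ℚ)) ht
  have h4 : ((t : ↥(FNbar M)) : LaurentSeries (AlgebraicClosure ℚ)) ^ n
      = ((galF M σ • f' : ↥(FNbar M)) : LaurentSeries (AlgebraicClosure ℚ))
        / ((f' : ↥(FNbar M)) : LaurentSeries (AlgebraicClosure ℚ)) := h3
  rw [h4]
  show ((galF M σ • f' : ↥(FNbar M)) : LaurentSeries (AlgebraicClosure ℚ))
      / ((f' : ↥(FNbar M)) : LaurentSeries (AlgebraicClosure ℚ))
    = ((galF N σ • ((f : ↥(gaussV A N)) : ↥(FNbar N)) : ↥(FNbar N)) :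
        LaurentSeries (AlgebraicClosure ℚ))
      / (((f : ↥(gaussV A N)) : ↥(FNbar N)) : LaurentSeries (AlgebraicClosure ℚ))
  rw [coe_arithmeticGalois_smul, coe_arithmeticGalois_smul, hcoe]

/-- **(B1), Kummer form, at every level** `N` with `q ‖ N`, from the tame levels. -/
theorem b1core_all
    (h : ∀ (M q : ℕ) [NeZero M], q.Prime → q ∣ M → ¬ q ^ 2 ∣ M → Tame M q → Stmt_B1core M q)
    (N q : ℕ) [NeZero N] (hq : q.Prime) (hqN : q ∣ N) (hq2 : ¬ q ^ 2 ∣ N) : Stmt_B1core N q := by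
  by_cases h5 : 5 ≤ q
  · exact h N q hq hqN hq2 (Or.inl h5)
  have hq2' : 2 ≤ q := hq.two_le
  have h23 : q = 2 ∨ q = 3 ∨ q = 4 := by omega
  have hN0 : N ≠ 0 := NeZero.ne N
  rcases h23 with rfl | rfl | rfl
  · -- `q = 2`, `M = 3 N`
    haveI : NeZero (3 * N) := ⟨Nat.mul_ne_zero (by norm_num) hN0⟩
    have h1 : 2 ∣ 3 * N := Dvd.dvd.mul_left hqN 3
    have h2 : ¬ 2 ^ 2 ∣ 3 * N := by
      intro hd
      apply hq2
      have hco : Nat.Coprime (2 ^ 2) 3 := by decide
      exact hco.dvd_of_dvd_mul_left hd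
    exact b1core_descend (Dvd.intro_left 3 rfl) (Nat.mul_dvd_mul_right (by norm_num) N)
      (h (3 * N) 2 hq h1 h2 (Or.inr (Or.inr ⟨rfl, Dvd.intro N rfl⟩)))
  · -- `q = 3`, `M = 2 N`
    haveI : NeZero (2 * N) := ⟨Nat.mul_ne_zero (by norm_num) hN0⟩
    have h1 : 3 ∣ 2 * N := Dvd.dvd.mul_left hqN 2
    have h2 : ¬ 3 ^ 2 ∣ 2 * N := by
      intro hd
      apply hq2
      have hco : Nat.Coprime (3 ^ 2) 2 := by decide
      exact hco.dvd_of_dvd_mul_left hd
    exact b1core_descend (Dvd.intro_left 2 rfl) (Nat.mul_dvd_mul_right (by norm_num) N)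
      (h (2 * N) 3 hq h1 h2 (Or.inr (Or.inl ⟨rfl, Dvd.intro N rfl⟩)))
  · exact absurd hq (by decide)

/-- **(UNIP) at every level** from the modular semistable Deuring datum at the tame levels
(ABS and Kummer descent are proved). -/
theorem torsUnip_of_tame
    (hS : ∀ (M q : ℕ) [NeZero M], q.Prime → q ∣ M → ¬ q ^ 2 ∣ M → Tame M q → Stmt_ModSSD M q)
    (N : ℕ) [NeZero N] (p : ℕ) (hp : p.Prime) : Stmt_TorsUnip N p :=
  torsUnip_of_B1core N hp (fun q hq hqN hq2 _ =>
    b1core_all (fun M q' _ hq' hqM hqM2 ht => b1core_of_ABS M stmt_ABS hq' (hS M q' hq' hqM hqM2 ht))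
      N q hq hqN hq2)

end Fermat.Agent.BAD.H91

end
end
-- ==== END Fermat.Agent.BAD.H91_Descend

-- ==== BEGIN Fermat.Agent.BAD.H91_TotData
section
attribute [local instance 10000] SubalgebraClass.toAlgebra
attribute [local instance 10000] HahnSeries.powerSeriesAlgebra

/-!
# BAD_q, final assembly, part 1 (helper91): the modular `TotData` from its leaves

`N = M q`, `A` over `q`, `K = ℚ̄`, `L = F_N · K`, `k = kV A`, `L₁ = L₂ = F1 A q M` (helper88).

* `vred1`, `vred2` : the two valuation rings with their reductions (helper88's `V1`, `V2`);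
* `totDataOf β ρ htot hunif` : the `TotData` with the fields `sep`, `arch` (helper82),
  `const_mem`, `const_red` (helper88) filled in;
* `inert_totDataOf` : an element of the inertia group of `A` which preserves `ρ` is inertial for
  the `TotData` (`mem₁`, `red₁` from `H91_B0`, `mem₂`, `red₂` from helper88's `arith_*`);
* `modSSD_of_totData` : the body of `BAD.Stmt_ModSSD (M q) q` at `A` from a `TotData` of this
  form, one node, Riemann's theorem and the numerical inequality.
-/

set_option autoImplicit false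
set_option linter.style.haveILetI false
set_option synthInstance.maxHeartbeats 400000
set_option maxHeartbeats 400000

noncomputable section

open AlgebraicCurve ModularCurve
open Fermat.Agent.S28.H73 Fermat.Agent.RED.H73 Fermat.Agent.RED Fermat.Agent.S24
open Fermat.Agent.BAD.H88

namespace Fermat.Agent.BAD.H91

open Fermat.Agent.BAD

section Build

variable (A : ValuationSubring Kbar) (q M : ℕ) (a b : ℤ) (hab : a * q + b * M = 1)
  (hq : q.Prime) [NeZero (M * q)]

/-- The first valuation ring (Gauss valuation at `∞`) with its reduction. -/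
def vred1 : H79.VRed Kbar (FN (M * q)) (kV A) (F1 A q M) where
  V := V1 A q M
  red := red1 A q M
  red_eq_zero_iff := red1_eq_zero_iff A q M
  red_surj := red1_surjective A q M
  exists_scale := exists_scale1 A q M
  red_const := fun c h =>
    ⟨resV A ⟨c, (const_mem1 A q M c).1 h⟩, red1_const A q M ⟨c, (const_mem1 A q M c).1 h⟩ h⟩
  const_surj := fun c' => by
    obtain ⟨c, rfl⟩ := IsLocalRing.residue_surjective (R := ↥A) c'
    exact ⟨(c : Kbar), (const_mem1 A q M (c : Kbar)).2 c.2, red1_const A q M c _⟩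

/-- The second valuation ring `V₂ = V₁ ∘ w_q` with its reduction. -/
def vred2 : H79.VRed Kbar (FN (M * q)) (kV A) (F1 A q M) where
  V := V2 A q M a b hab hq
  red := red2 A q M a b hab hq
  red_eq_zero_iff := red2_eq_zero_iff A q M a b hab hq
  red_surj := red2_surjective A q M a b hab hq
  exists_scale := exists_scale2 A q M a b hab hq
  red_const := fun c h => by
    have h1 : algebraMap Kbar (FN (M * q)) c ∈ V1 A q M := (const_mem2 A q M a b hab hq c).1 h
    refine ⟨resV A ⟨c, (const_mem1 A q M c).1 h1⟩, ?_⟩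
    rw [const_red2 A q M a b hab hq c h1 h]
    exact red1_const A q M ⟨c, (const_mem1 A q M c).1 h1⟩ h1
  const_surj := fun c' => by
    obtain ⟨c, rfl⟩ := IsLocalRing.residue_surjective (R := ↥A) c'
    have h1 : algebraMap Kbar (FN (M * q)) (c : Kbar) ∈ V1 A q M :=
      (const_mem1 A q M (c : Kbar)).2 c.2
    have h2 : algebraMap Kbar (FN (M * q)) (c : Kbar) ∈ V2 A q M a b hab hq :=
      (const_mem2 A q M a b hab hq (c : Kbar)).2 h1
    refine ⟨(c : Kbar), h2, ?_⟩
    rw [const_red2 A q M a b hab hq (c : Kbar) h1 h2]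
    exact red1_const A q M c h1

variable (hA : A.LiesOverPrime q)

/-- **The modular total conservation datum**, from the reduction map `ρ`, the bijection `β`,
the law of total conservation and the uniformizers. -/
def totDataOf (β : Place (kV A) (F1 A q M) ≃ Place (kV A) (F1 A q M))
    (ρ : Place Kbar (FN (M * q)) → Place (kV A) (F1 A q M))
    (htot : ∀ (u₁ : ↥(V1 A q M)) (u₂ : ↥(V2 A q M a b hab hq)), red1 A q M u₁ ≠ 0 →
      red2 A q M a b hab hq u₂ ≠ 0 →
      (∃ c : Kbar, (u₂ : FN (M * q)) = algebraMap Kbar (FN (M * q)) c * (u₁ : FN (M * q))) →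
      ∀ D : Divisor Kbar (FN (M * q)), (∀ P, D P = P.ord (u₁ : FN (M * q))) →
        ∀ z : Place (kV A) (F1 A q M),
          Finsupp.mapDomain ρ D z = z.ord (red1 A q M u₁) + (β z).ord (red2 A q M a b hab hq u₂))
    (hunif : ∀ z : Place (kV A) (F1 A q M), ∃ (t : FN (M * q)) (h₁ : t ∈ V1 A q M),
      t ∈ V2 A q M a b hab hq ∧ (∀ P, ρ P = z → 0 ≤ P.ord t) ∧
        z.ord (red1 A q M ⟨t, h₁⟩) = 1) :
    H79.TotData Kbar (FN (M * q)) (kV A) (F1 A q M) (F1 A q M) where
  b₁ := vred1 A q M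
  b₂ := vred2 A q M a b hab hq
  const_mem := fun c => (const_mem2 A q M a b hab hq c).symm
  const_red := fun c h₁ h₂ x hx => by
    show red2 A q M a b hab hq ⟨_, h₂⟩ = _
    rw [const_red2 A q M a b hab hq c h₁ h₂]
    exact hx
  ρ := ρ
  β := β
  tot := htot
  unif := hunif
  sep := by
    obtain ⟨e, h1, h2, he1, he2⟩ := H82.exists_sep q M a b hab hq A hA
    refine ⟨e, h1, h2, ?_, he2⟩
    show gaussRes A (M * q) ⟨e, h1⟩ ≠ 0
    rw [he1]
    exact one_ne_zero
  arch := fun c d h h0 hd => H82.arch_gaussV A hq hA (M * q) c d h h0 hd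

end Build

section Inert

variable (A : ValuationSubring Kbar) (q M : ℕ) (a b : ℤ) (hab : a * q + b * M = 1)
  (hq : q.Prime) [NeZero (M * q)] (hA : A.LiesOverPrime q)
  (β : Place (kV A) (F1 A q M) ≃ Place (kV A) (F1 A q M))
  (ρ : Place Kbar (FN (M * q)) → Place (kV A) (F1 A q M))
  (htot : ∀ (u₁ : ↥(V1 A q M)) (u₂ : ↥(V2 A q M a b hab hq)), red1 A q M u₁ ≠ 0 →
    red2 A q M a b hab hq u₂ ≠ 0 →
    (∃ c : Kbar, (u₂ : FN (M * q)) = algebraMap Kbar (FN (M * q)) c * (u₁ : FN (M * q))) →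
    ∀ D : Divisor Kbar (FN (M * q)), (∀ P, D P = P.ord (u₁ : FN (M * q))) →
      ∀ z : Place (kV A) (F1 A q M),
        Finsupp.mapDomain ρ D z = z.ord (red1 A q M u₁) + (β z).ord (red2 A q M a b hab hq u₂))
  (hunif : ∀ z : Place (kV A) (F1 A q M), ∃ (t : FN (M * q)) (h₁ : t ∈ V1 A q M),
    t ∈ V2 A q M a b hab hq ∧ (∀ P, ρ P = z → 0 ≤ P.ord t) ∧
      z.ord (red1 A q M ⟨t, h₁⟩) = 1)

/-- An element of the inertia group of `A` which preserves `ρ` is inertial for the modular
total conservation datum. -/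
theorem inert_totDataOf {s : GalQ} (hs : s ∈ A.inertiaSubgroupIn ℚ)
    (hρ : ∀ P : Place Kbar (FN (M * q)), ρ (galF (M * q) s • P) = ρ P) :
    (totDataOf A q M a b hab hq hA β ρ htot hunif).Inert (galF (M * q) s) where
  mem₁ := fun _ hf => galF_mem_gaussV A (M * q) hs hf
  mem₂ := fun f hf =>
    arith_mem_V2 A q M a b hab hq s (fun _ hf => galF_mem_gaussV A (M * q) hs hf) f hf
  red₁ := fun _ h _ => gaussRes_galF A (M * q) hs h
  red₂ := fun f h h' =>
    arith_red2 A q M a b hab hq s (fun _ h _ => gaussRes_galF A (M * q) hs h) f h h'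
  ρ_smul := hρ

/-- **The body of `Stmt_ModSSD (M q) q` at `A`** from the modular total conservation datum,
Riemann's theorem, a set of nodes and the numerical inequality. -/
theorem modSSD_of_totData
    (H : RED.H17.FFHyp Kbar (FN (M * q))) (H₁ : RED.H17.FFHyp (kV A) (F1 A q M))
    (g g₁ : ℕ) (c c₁ : ℤ) (hg : RED.H17.IsGenus Kbar (FN (M * q)) g c)
    (hg₁ : RED.H17.IsGenus (kV A) (F1 A q M) g₁ c₁)
    (Z : Finset (Place (kV A) (F1 A q M))) (hZ0 : Z.Nonempty)
    (hZ : ∀ z ∈ Z, (totDataOf A q M a b hab hq hA β ρ htot hunif).IsNode z)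
    (hnum : g + 1 ≤ g₁ + g₁ + Z.card)
    (hρ : ∀ s ∈ A.inertiaSubgroupIn ℚ, ∀ P : Place Kbar (FN (M * q)),
      ρ (galF (M * q) s • P) = ρ P) :
    ∃ (F₁ F₂ : Type) (_ : Field F₁) (_ : Algebra (kV A) F₁) (_ : Field F₂)
      (_ : Algebra (kV A) F₂)
      (S : SSD (AlgebraicClosure ℚ) ↥(FNbar (M * q)) (kV A) F₁ F₂)
      (_ : RED.H17.FFHyp (AlgebraicClosure ℚ) ↥(FNbar (M * q))) (_ : RED.H17.FFHyp (kV A) F₁)
      (_ : RED.H17.FFHyp (kV A) F₂) (g g₁ g₂ : ℕ) (c c₁ c₂ : ℤ),
      RED.H17.IsGenus (AlgebraicClosure ℚ) ↥(FNbar (M * q)) g c ∧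
      RED.H17.IsGenus (kV A) F₁ g₁ c₁ ∧ RED.H17.IsGenus (kV A) F₂ g₂ c₂ ∧
      g + 1 ≤ g₁ + g₂ + S.nodes.card ∧
      (∀ f : ↥(FNbar (M * q)), f ∈ gaussV A (M * q) → f ∈ S.c₁.V) ∧
      (∀ (f : ↥(gaussV A (M * q))) (hf : (f : ↥(FNbar (M * q))) ∈ S.c₁.V),
        gaussRes A (M * q) f = 1 → S.c₁.red ⟨(f : ↥(FNbar (M * q))), hf⟩ = 1) ∧
      ∀ σ ∈ A.inertiaSubgroupIn ℚ, S.IsInertial (galF (M * q) σ) := by
  haveI : IsAlgClosed (kV A) := isAlgClosed_kV A
  set T := totDataOf A q M a b hab hq hA β ρ htot hunif with hT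
  have hne : ∃ z, T.IsNode z := by
    obtain ⟨z, hz⟩ := hZ0
    exact ⟨z, hZ z hz⟩
  refine ⟨F1 A q M, F1 A q M, inferInstance, inferInstance, inferInstance, inferInstance,
    T.toSSD H.principal H.deg_one H₁.principal H₁.deg_one H₁.deg_one hne, H, H₁, H₁,
    g, g₁, g₁, c, c₁, c₁, hg, hg₁, hg₁, ?_, ?_, ?_, ?_⟩
  · have h1 := T.card_le_toSSD_nodes H.principal H.deg_one H₁.principal H₁.deg_one H₁.deg_one
      hne Z hZ
    omega
  · intro f hf
    exact hf
  · intro f hf h1
    exact h1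
  · intro s hs
    exact (inert_totDataOf A q M a b hab hq hA β ρ htot hunif hs (hρ s hs)).isInertial
      H.principal H.deg_one H₁.principal H₁.deg_one H₁.deg_one hne

end Inert

end Fermat.Agent.BAD.H91

end
end
-- ==== END Fermat.Agent.BAD.H91_TotData

-- ==== BEGIN Fermat.Agent.GTor.Clo.A4
section

/-!
# G-TOR A4: every cusp defines a place of `F_ℂ`

The valuation at the cusp `σ∞` is `winfN ∘ piN σ⁻¹`; it is invariant under `piN (σ T σ⁻¹)`, an
element of order `N = - log (w j⁻¹)`. GC4 gives the place, Ell the ramification index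
`N / cuspWidth N σ`, Ratio the comparison with the orders of modular forms.
-/

set_option autoImplicit false

noncomputable section

namespace Fermat.Agent.GTor.Clo

open Fermat.Agent.S24 Fermat.Agent.GTor

open ModularCurve AlgebraicCurve UpperHalfPlane ModularGroup CongruenceSubgroup WithZero
  IntermediateField
open scoped MatrixGroups

/-- The valuation of the Galois closure at the cusp `σ∞`. -/
def wCusp (N : ℕ) [NeZero N] (σ : SL(2, ℤ)) : Valuation (_root_.Fermat.Agent.GTor.Clo.LN N) ℤᵐ⁰ :=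
  (_root_.Fermat.Agent.GTor.Clo.winfN N).comap ((_root_.Fermat.Agent.GTor.Clo.piN N σ⁻¹ : _root_.Fermat.Agent.GTor.Clo.LN N ≃ₐ[_root_.Fermat.Agent.GTor.Clo.EN] _root_.Fermat.Agent.GTor.Clo.LN N) : _root_.Fermat.Agent.GTor.Clo.LN N →+* _root_.Fermat.Agent.GTor.Clo.LN N)

theorem wCusp_apply (N : ℕ) [NeZero N] (σ : SL(2, ℤ)) (y : _root_.Fermat.Agent.GTor.Clo.LN N) :
    wCusp N σ y = _root_.Fermat.Agent.GTor.Clo.winfN N (_root_.Fermat.Agent.GTor.Clo.piN N σ⁻¹ y) := rfl

theorem wCusp_algebraMap_EN (N : ℕ) [NeZero N] (σ : SL(2, ℤ)) (e : _root_.Fermat.Agent.GTor.Clo.EN) :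
    wCusp N σ (algebraMap _root_.Fermat.Agent.GTor.Clo.EN (_root_.Fermat.Agent.GTor.Clo.LN N) e) = _root_.Fermat.Agent.GTor.Clo.winfN N (algebraMap _root_.Fermat.Agent.GTor.Clo.EN (_root_.Fermat.Agent.GTor.Clo.LN N) e) := by
  rw [wCusp_apply, AlgEquiv.commutes]

theorem wCusp_algebraMap (N : ℕ) [NeZero N] (σ : SL(2, ℤ)) (c : _root_.Fermat.Agent.GTor.Clo.Kbar) (hc : c ≠ 0) :
    wCusp N σ (algebraMap _root_.Fermat.Agent.GTor.Clo.Kbar (_root_.Fermat.Agent.GTor.Clo.LN N) c) = 1 := by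
  rw [IsScalarTower.algebraMap_apply _root_.Fermat.Agent.GTor.Clo.Kbar _root_.Fermat.Agent.GTor.Clo.EN (_root_.Fermat.Agent.GTor.Clo.LN N), wCusp_algebraMap_EN,
    ← IsScalarTower.algebraMap_apply _root_.Fermat.Agent.GTor.Clo.Kbar _root_.Fermat.Agent.GTor.Clo.EN (_root_.Fermat.Agent.GTor.Clo.LN N)]
  exact _root_.Fermat.Agent.GTor.Clo.winfN_algebraMap N c hc

theorem wCusp_tE_inv (N : ℕ) [NeZero N] (σ : SL(2, ℤ)) :
    wCusp N σ (algebraMap _root_.Fermat.Agent.GTor.Clo.EN (_root_.Fermat.Agent.GTor.Clo.LN N) _root_.Fermat.Agent.GTor.Clo.tE⁻¹) = exp (-(N : ℤ)) := by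
  rw [wCusp_algebraMap_EN, _root_.Fermat.Agent.GTor.Clo.winfN_j]

theorem wCusp_piN_conj_T (N : ℕ) [NeZero N] (σ : SL(2, ℤ)) (y : _root_.Fermat.Agent.GTor.Clo.LN N) :
    wCusp N σ (_root_.Fermat.Agent.GTor.Clo.piN N (σ * T * σ⁻¹) y) = wCusp N σ y := by
  rw [wCusp_apply, wCusp_apply]
  have h : _root_.Fermat.Agent.GTor.Clo.piN N σ⁻¹ (_root_.Fermat.Agent.GTor.Clo.piN N (σ * T * σ⁻¹) y) = _root_.Fermat.Agent.GTor.Clo.piN N T (_root_.Fermat.Agent.GTor.Clo.piN N σ⁻¹ y) := by
    rw [← AlgEquiv.mul_apply, ← AlgEquiv.mul_apply, ← map_mul, ← map_mul]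
    congr 2
    group
  rw [h, _root_.Fermat.Agent.GTor.Clo.winfN_piN_T]

theorem tE_ne_zero : _root_.Fermat.Agent.GTor.Clo.tE ≠ 0 := by
  intro h
  apply _root_.Fermat.Agent.GTor.Clo.tE_transcendental
  rw [h]
  exact isAlgebraic_zero

/-- The key formula at a cusp. -/
theorem exists_place_wCusp (N : ℕ) [NeZero N] (σ : SL(2, ℤ)) :
    ∃ v : Place _root_.Fermat.Agent.GTor.Clo.Kbar (_root_.Fermat.Agent.GTor.Clo.FN N), 0 < v.ord (algebraMap _root_.Fermat.Agent.GTor.Clo.EN (_root_.Fermat.Agent.GTor.Clo.FN N) _root_.Fermat.Agent.GTor.Clo.tE⁻¹) ∧ ∀ f : _root_.Fermat.Agent.GTor.Clo.FN N, f ≠ 0 →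
      wCusp N σ (algebraMap (_root_.Fermat.Agent.GTor.Clo.FN N) (_root_.Fermat.Agent.GTor.Clo.LN N) f)
        = exp (-(((N / cuspWidth N σ : ℕ) : ℤ) * v.ord f)) := by
  have hN : 0 < N := Nat.pos_of_ne_zero (NeZero.ne N)
  obtain ⟨v, hv0, hv⟩ := gc_val_eq (K := _root_.Fermat.Agent.GTor.Clo.Kbar) (E := _root_.Fermat.Agent.GTor.Clo.EN) (F := _root_.Fermat.Agent.GTor.Clo.FN N) (L := _root_.Fermat.Agent.GTor.Clo.LN N) _root_.Fermat.Agent.GTor.Clo.tE⁻¹
    (_root_.Fermat.Agent.GTor.Clo.h85_transcendental_inv _root_.Fermat.Agent.GTor.Clo.tE_transcendental) (_root_.Fermat.Agent.GTor.Clo.h85_gen_inv tE_ne_zero _root_.Fermat.Agent.GTor.Clo.tE_gen)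
    (wCusp N σ) (wCusp_algebraMap N σ)
    (by rw [wCusp_tE_inv]; exact exp_neg_natCast_lt_one hN)
    (_root_.Fermat.Agent.GTor.Clo.piN N (σ * T * σ⁻¹)) (wCusp_piN_conj_T N σ)
    (by rw [wCusp_tE_inv, orderOf_piN_conj_T])
  refine ⟨v, hv0, fun f hf => ?_⟩
  rw [hv f hf, card_zpowers_inf_fixF_cusp]

/-- **A4**: the place of `F_ℂ` at a cusp. -/
theorem exists_isPlaceAtCusp (N : ℕ) [NeZero N] (σ : SL(2, ℤ)) :
    ∃ v : Place ℂ (FNL ℂ N), IsPlaceAtCusp N v σ := by
  obtain ⟨v, -, hv⟩ := exists_place_wCusp N σ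
  refine ⟨v, fun f k A B hf hAB => ?_⟩
  have h1 := hv f hf
  have h2 := winfN_of_isRatio N σ f hf k A B hAB
  rw [wCusp_apply, h2] at h1
  have h3 := WithZero.exp_injective h1
  exact neg_injective h3

theorem stmt_A4 (N : ℕ) [NeZero N] : Stmt_A4 N :=
  fun σ => ⟨cuspWidth_pos N σ, cuspWidth_dvd N σ, exists_isPlaceAtCusp N σ⟩

end Fermat.Agent.GTor.Clo

end
end
-- ==== END Fermat.Agent.GTor.Clo.A4

-- ==== BEGIN Fermat.Agent.GTor.H44_HK
section

/-!
# G-TOR: `Stmt_HK N n`, unconditionally  (helper44; wiring of helper2's `hk_of_an` and `hk_an`)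
-/

set_option autoImplicit false

namespace Fermat.Agent.GTor.H44

/-- **HK**: the Hecke compatibility of the Kummer character, for every level and every `n`. -/
theorem stmt_HK (N n : ℕ) [NeZero N] : Fermat.Agent.GTor.Stmt_HK N n :=
  Fermat.Agent.GTor.H2.hk_of_an N n (hk_an N n)

end Fermat.Agent.GTor.H44

end
-- ==== END Fermat.Agent.GTor.H44_HK

-- ==== BEGIN Fermat.Agent.RED.ES.H95_ES3a
section
attribute [local instance 10000] SubalgebraClass.toAlgebra
attribute [local instance 10000] HahnSeries.powerSeriesAlgebra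

/-!
# G-RED, package ES-3 (helper95), part 2: Eichler–Shimura on divisors

`K = ℚ̄`, `A` a valuation subring of `K` over `ℓ ∤ N`, `F = F_N`, `V` the Gauss valuation ring,
`res : V → F~ ⊆ k((q))`, `r` a reduction map of places with the conservation law `IsRed`.

* `heckeNormFn_mem`, `gaussResF_heckeNormFn` : for `f ∈ V` the Kummer function
  `n_f = Norm_α (β f)` of `T_ℓ` is in `V` and `res n_f = (res f)(q ^ ℓ) · Frob (res f)`
  (NormSeries + Kronecker's congruence on the Gauss ring).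
* `mapDomain_hecke_eq_of_unit` : `r_* (T_ℓ (div f)) = φ r_* (div f) + ℓ φ⁻¹ r_* (div f)` for
  Gauss units `f`.
* `stmt_ES3 : Stmt_ES3` : the same for all divisors (positivity + moving lemma,
  `H52.eq_of_pos_of_move` of helper52).
-/

set_option autoImplicit false
set_option synthInstance.maxHeartbeats 400000
set_option maxHeartbeats 1000000

noncomputable section

open AlgebraicCurve ModularCurve Fermat.Agent.S28.H73 Fermat.Agent.RED.H73 Fermat.Agent.GTor

namespace Fermat.Agent.RED.H95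

/-- The residue field of a valuation subring over `ℓ` has characteristic `ℓ`. -/
theorem charP_kV_of_liesOver {L : Type} [Field L] (A : ValuationSubring L) {ℓ : ℕ}
    (hℓ : ℓ.Prime) (hA : A.LiesOverPrime ℓ) : CharP (kV A) ℓ := by
  apply (CharP.charP_iff_prime_eq_zero hℓ).2
  have h1 : (((ℓ : ℕ) : A) : L) ∈ A.nonunits := by
    rw [show (((ℓ : ℕ) : A) : L) = (ℓ : L) by simp]
    exact hA
  obtain ⟨ha, hmem⟩ := (A.mem_nonunits_iff_exists_mem_maximalIdeal).1 h1
  rw [← map_natCast (IsLocalRing.residue A)]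
  exact (IsLocalRing.residue_eq_zero_iff _).2 hmem

section Norm

variable {N ℓ : ℕ} [NeZero N] [NeZero ℓ] (A : ValuationSubring (AlgebraicClosure ℚ))
variable [Fact ℓ.Prime] [CharP (kV A) ℓ]

/-- The Kummer function of `T_ℓ` preserves the Gauss valuation ring. -/
theorem heckeNormFn_mem (hN : ¬ ℓ ∣ N) (f : ↥(modularFunctionFieldBar N))
    (hf : f ∈ gaussValSub A (modularFunctionFieldBar N) (hasScale_laurentBaseChange A N)) :
    H2.heckeNormFn (AlgebraicClosure ℚ) N ℓ f
      ∈ gaussValSub A (modularFunctionFieldBar N) (hasScale_laurentBaseChange A N) := by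
  obtain ⟨ζ, hζ⟩ := H2.exists_primitiveRoot_Qbar ℓ
  have hns := H2.stmt_NormSeries N ℓ (Fact.out : ℓ.Prime) hN f
  rw [mem_gaussValSub_iff] at hf ⊢
  rw [hns]
  exact normSeries_mem_gaussRingV A ℓ hζ hf

/-- **Kronecker's congruence for the Kummer function of `T_ℓ`**:
`res (Norm_α (β f)) = (res f)(q ^ ℓ) · Frob (res f)`. -/
theorem gaussResF_heckeNormFn (hN : ¬ ℓ ∣ N)
    (f : ↥(gaussValSub A (modularFunctionFieldBar N) (hasScale_laurentBaseChange A N))) :
    gaussResF A (hasScale_laurentBaseChange A N)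
        ⟨H2.heckeNormFn (AlgebraicClosure ℚ) N ℓ (f : ↥(modularFunctionFieldBar N)),
          heckeNormFn_mem A hN _ f.2⟩
      = frobNorm A ℓ (gaussResF A (hasScale_laurentBaseChange A N) f) := by
  obtain ⟨ζ, hζ⟩ := H2.exists_primitiveRoot_Qbar ℓ
  have hns := H2.stmt_NormSeries N ℓ (Fact.out : ℓ.Prime) hN (f : ↥(modularFunctionFieldBar N))
  have hf : ((f : ↥(modularFunctionFieldBar N)) : LaurentSeries (AlgebraicClosure ℚ))
      ∈ gaussRingV A := f.2
  have hmem := normSeries_mem_gaussRingV A ℓ hζ hf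
  rw [gaussResF_apply, gaussResF_apply]
  have e : (⟨((⟨H2.heckeNormFn (AlgebraicClosure ℚ) N ℓ (f : ↥(modularFunctionFieldBar N)),
      heckeNormFn_mem A hN _ f.2⟩ : ↥(gaussValSub A (modularFunctionFieldBar N)
        (hasScale_laurentBaseChange A N))) : ↥(modularFunctionFieldBar N)),
      heckeNormFn_mem A hN _ f.2⟩ : gaussRingV A)
      = ⟨H44.normSeries (AlgebraicClosure ℚ) ℓ
          ((f : ↥(modularFunctionFieldBar N)) : LaurentSeries (AlgebraicClosure ℚ)), hmem⟩ :=
    Subtype.ext hns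
  rw [e]
  exact gaussRedV_normSeries A ℓ hζ hf hmem

end Norm

section Frob

/-- The reduced field `F~_N ⊆ k((q))`. -/
abbrev FtN (A : ValuationSubring (AlgebraicClosure ℚ)) (N : ℕ) :
    IntermediateField (kV A) (LaurentSeries (kV A)) :=
  redField A (modularFunctionFieldBar N) (hasScale_laurentBaseChange A N)

variable {N : ℕ} (ℓ : ℕ) (A : ValuationSubring (AlgebraicClosure ℚ))

theorem coe_frob_smul [Fact ℓ.Prime] [CharP (kV A) ℓ] (φ : SemilinearAut (kV A) ↥(FtN A N))
    (hφ : ∀ (x : ↥(FtN A N)) (n : ℤ),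
      ((φ • x : ↥(FtN A N)) : LaurentSeries (kV A)).coeff n
        = ((x : LaurentSeries (kV A)).coeff n) ^ ℓ)
    (x : ↥(FtN A N)) :
    ((φ • x : ↥(FtN A N)) : LaurentSeries (kV A))
      = coeffMap (frobenius (kV A) ℓ) (x : LaurentSeries (kV A)) := by
  ext n
  rw [hφ, coeffMap_coeff]
  rfl

/-- `frobNorm y = (φ⁻¹ y) ^ ℓ · φ y`. -/
theorem frobNorm_coe [Fact ℓ.Prime] [CharP (kV A) ℓ] (φ : SemilinearAut (kV A) ↥(FtN A N))
    (hφ : ∀ (x : ↥(FtN A N)) (n : ℤ),
      ((φ • x : ↥(FtN A N)) : LaurentSeries (kV A)).coeff n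
        = ((x : LaurentSeries (kV A)).coeff n) ^ ℓ)
    (y : ↥(FtN A N)) :
    frobNorm A ℓ (y : LaurentSeries (kV A))
      = (((φ⁻¹ • y) ^ ℓ * (φ • y) : ↥(FtN A N)) : LaurentSeries (kV A)) := by
  show qExpand (kV A) ℓ (y : LaurentSeries (kV A))
      * coeffMap (frobenius (kV A) ℓ) (y : LaurentSeries (kV A))
    = ((φ⁻¹ • y : ↥(FtN A N)) : LaurentSeries (kV A)) ^ ℓ
      * ((φ • y : ↥(FtN A N)) : LaurentSeries (kV A))
  rw [coe_frob_smul ℓ A φ hφ y, H10.pow_char_eq ℓ, ← coe_frob_smul ℓ A φ hφ (φ⁻¹ • y),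
    smul_inv_smul]

theorem ord_smul_left (φ : SemilinearAut (kV A) ↥(FtN A N)) (Q : Place (kV A) ↥(FtN A N))
    (y : ↥(FtN A N)) : Q.ord (φ • y) = (φ⁻¹ • Q).ord y := by
  have := SemilinearAut.ord_smul φ (φ⁻¹ • Q) y
  rwa [smul_inv_smul] at this

/-- The order of `(φ⁻¹ y) ^ ℓ · φ y` at a place. -/
theorem ord_frobNorm (φ : SemilinearAut (kV A) ↥(FtN A N)) (Q : Place (kV A) ↥(FtN A N))
    (y : ↥(FtN A N)) (hy : y ≠ 0) :
    Q.ord ((φ⁻¹ • y) ^ ℓ * (φ • y)) = (ℓ : ℤ) * (φ • Q).ord y + (φ⁻¹ • Q).ord y := by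
  have h1 : φ • y ≠ 0 := fun h0 => hy ((smul_eq_zero_iff_eq φ).1 h0)
  have h2 : φ⁻¹ • y ≠ 0 := fun h0 => hy ((smul_eq_zero_iff_eq φ⁻¹).1 h0)
  rw [Place.ord_mul _ (pow_ne_zero _ h2) h1, ← zpow_natCast, Place.ord_zpow, ord_smul_left,
    ord_smul_left, inv_inv]

end Frob

section Principal

variable {N ℓ : ℕ} [NeZero N] [NeZero ℓ] (A : ValuationSubring (AlgebraicClosure ℚ))

/-- **Eichler–Shimura on the divisors of Gauss units**:
`r_* (T_ℓ (div u)) = φ (r_* div u) + ℓ φ⁻¹ (r_* div u)`. -/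
theorem mapDomain_hecke_eq_of_unit (hℓ : ℓ.Prime) (hN : ¬ ℓ ∣ N) (hA : A.LiesOverPrime ℓ)
    (hα : HeckeAlphaBarIntegral (AlgebraicClosure ℚ) N ℓ)
    (hβ : HeckeBetaBarIntegral (AlgebraicClosure ℚ) N ℓ)
    [HasPrincipalDivisors (AlgebraicClosure ℚ) ↥(modularFunctionFieldBar (N * ℓ))]
    (r : Place (AlgebraicClosure ℚ) ↥(modularFunctionFieldBar N) → Place (kV A) ↥(FtN A N))
    (hr : IsRed A (hasScale_laurentBaseChange A N) r)
    (φ : SemilinearAut (kV A) ↥(FtN A N))
    (hφ : ∀ (x : ↥(FtN A N)) (n : ℤ),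
      ((φ • x : ↥(FtN A N)) : LaurentSeries (kV A)).coeff n
        = ((x : LaurentSeries (kV A)).coeff n) ^ ℓ)
    (u : ↥(gaussValSub A (modularFunctionFieldBar N) (hasScale_laurentBaseChange A N)))
    (hu : IsUnit u) (D : Divisor (AlgebraicClosure ℚ) ↥(modularFunctionFieldBar N))
    (hD : ∀ P, D P = P.ord (u : ↥(modularFunctionFieldBar N))) :
    Finsupp.mapDomain r (heckeDivBar hα hβ D)
      = φ • Finsupp.mapDomain r D + ℓ • (φ⁻¹ • Finsupp.mapDomain r D) := by
  have : Fact ℓ.Prime := ⟨hℓ⟩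
  have : CharP (kV A) ℓ := charP_kV_of_liesOver A hℓ hA
  obtain ⟨-, -, -, hfin, -, hNF⟩ := Fermat.Agent.RED.H51.stmt_HKA N ℓ
  have hu0 : (u : ↥(modularFunctionFieldBar N)) ≠ 0 := by
    intro h0
    have : u = 0 := Subtype.ext h0
    rw [this] at hu
    exact not_isUnit_zero hu
  -- the Kummer function of `T_ℓ`
  set nu : ↥(gaussValSub A (modularFunctionFieldBar N) (hasScale_laurentBaseChange A N)) :=
    ⟨H2.heckeNormFn (AlgebraicClosure ℚ) N ℓ (u : ↥(modularFunctionFieldBar N)),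
      heckeNormFn_mem A hN _ u.2⟩ with hnu
  have hres : gaussResF A (hasScale_laurentBaseChange A N) nu
      = frobNorm A ℓ (gaussResF A (hasScale_laurentBaseChange A N) u) :=
    gaussResF_heckeNormFn A hN u
  set y : ↥(FtN A N) := gaussResF' A (hasScale_laurentBaseChange A N) u with hy
  have hy0 : y ≠ 0 := by
    intro h0
    have h1 : gaussResF A (hasScale_laurentBaseChange A N) u = 0 := congrArg Subtype.val h0
    exact ((isUnit_iff_gaussResF_ne_zero A (hasScale_laurentBaseChange A N) u).1 hu) h1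
  have hres' : gaussResF' A (hasScale_laurentBaseChange A N) nu = (φ⁻¹ • y) ^ ℓ * (φ • y) := by
    apply Subtype.ext
    show gaussResF A (hasScale_laurentBaseChange A N) nu = _
    rw [hres]
    exact frobNorm_coe ℓ A φ hφ y
  have hnu0 : gaussResF A (hasScale_laurentBaseChange A N) nu ≠ 0 := by
    rw [hres]
    exact frobNorm_ne_zero A ℓ
      ((isUnit_iff_gaussResF_ne_zero A (hasScale_laurentBaseChange A N) u).1 hu)
  have hnuU : IsUnit nu :=
    (isUnit_iff_gaussResF_ne_zero A (hasScale_laurentBaseChange A N) nu).2 hnu0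
  -- the divisor of the Kummer function
  have hTD : ∀ P, heckeDivBar hα hβ D P = P.ord (nu : ↥(modularFunctionFieldBar N)) := by
    intro P
    have := H2.correspondence_ord (AlgebraicClosure ℚ) N ℓ hα hβ hfin hNF 1 D hu0
      (fun v => by rw [one_mul, hD v]) P
    rw [one_mul] at this
    exact this
  ext Q
  rw [hr nu hnuU (heckeDivBar hα hβ D) hTD Q, hres', ord_frobNorm ℓ A φ Q y hy0,
    Finsupp.add_apply, Finsupp.smul_apply, SemilinearAut.divisor_smul_apply,
    SemilinearAut.divisor_smul_apply, inv_inv, hr u hu D hD, hr u hu D hD, nsmul_eq_mul]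
  ring

end Principal

section PhiSide

variable {N ℓ : ℕ} [NeZero N] [NeZero ℓ]

/-- `T_ℓ P ≥ 0`. -/
theorem heckeDivBar_single_nonneg
    (hα : HeckeAlphaBarIntegral (AlgebraicClosure ℚ) N ℓ)
    (hβ : HeckeBetaBarIntegral (AlgebraicClosure ℚ) N ℓ)
    [HasPrincipalDivisors (AlgebraicClosure ℚ) ↥(modularFunctionFieldBar (N * ℓ))]
    (P P' : Place (AlgebraicClosure ℚ) ↥(modularFunctionFieldBar N)) :
    0 ≤ heckeDivBar hα hβ (Finsupp.single P 1) P' := by
  classical
  have hα' : (heckeAlphaBar (AlgebraicClosure ℚ) N ℓ).toRingHom.IsIntegral := hα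
  have hβ' : (heckeBetaBar (AlgebraicClosure ℚ) N ℓ).toRingHom.IsIntegral := hβ
  show 0 ≤ Divisor.pushforwardAlong (heckeAlphaBar (AlgebraicClosure ℚ) N ℓ) hα'
    (Divisor.pullbackAlong (heckeBetaBar (AlgebraicClosure ℚ) N ℓ) hβ' (Finsupp.single P 1)) P'
  rw [Divisor.pullbackAlong_single, map_sum, Finsupp.finsetSum_apply]
  refine Finset.sum_nonneg fun W _ => ?_
  rw [Divisor.pushforwardAlong_single, Finsupp.single_apply]
  split_ifs
  · positivity
  · exact le_rfl

/-- If all places have degree one, the degree is the sum of the coefficients. -/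
theorem degree_eq_massHom {K F : Type*} [Field K] [Field F] [Algebra K F]
    (hdeg : ∀ v : Place K F, v.deg = 1) (D : Divisor K F) :
    Divisor.degree D = H52.massHom D := by
  induction D using Finsupp.induction_linear with
  | zero => simp
  | add f g hf hg => rw [map_add, map_add, hf, hg]
  | single v n => rw [Divisor.degree_single, hdeg, H52.massHom_single]; simp

/-- `deg (T_ℓ P) = ℓ + 1`. -/
theorem massHom_heckeDivBar_single (hℓ : ℓ.Prime) (hN : ¬ ℓ ∣ N)
    (hα : HeckeAlphaBarIntegral (AlgebraicClosure ℚ) N ℓ)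
    (hβ : HeckeBetaBarIntegral (AlgebraicClosure ℚ) N ℓ)
    [HasPrincipalDivisors (AlgebraicClosure ℚ) ↥(modularFunctionFieldBar (N * ℓ))]
    (P : Place (AlgebraicClosure ℚ) ↥(modularFunctionFieldBar N)) :
    H52.massHom (heckeDivBar hα hβ (Finsupp.single P 1)) = (ℓ : ℤ) + 1 := by
  have hFF := Fermat.Agent.RED.H95.stmt_HKA_isFF N
  have hdeg := Fermat.Agent.RED.H51.stmt_FFB_deg _ _ hFF
  obtain ⟨hα₀, hβ₀, hP₀, hfin, hFI, hNF⟩ := Fermat.Agent.RED.H51.stmt_HKA N ℓ
  have hα' : (heckeAlphaBar (AlgebraicClosure ℚ) N ℓ).toRingHom.IsIntegral := hα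
  have hβ' : (heckeBetaBar (AlgebraicClosure ℚ) N ℓ).toRingHom.IsIntegral := hβ
  rw [← degree_eq_massHom hdeg]
  show Divisor.degree (Divisor.correspondence (heckeBetaBar (AlgebraicClosure ℚ) N ℓ)
    (heckeAlphaBar (AlgebraicClosure ℚ) N ℓ) hβ' hα' (Finsupp.single P 1)) = _
  rw [Divisor.degree_correspondence _ _ hβ' hα' hFI, finrankAlong_beta hℓ hN,
    Divisor.degree_single, hdeg]
  push_cast
  ring

theorem mapDomain_nonneg' {X Y : Type*} (r : X → Y) (D : X →₀ ℤ) (hD : ∀ x, 0 ≤ D x) (y : Y) :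
    0 ≤ Finsupp.mapDomain r D y := by
  classical
  rw [Finsupp.mapDomain, Finsupp.sum, Finsupp.finsetSum_apply]
  refine Finset.sum_nonneg fun x _ => ?_
  rw [Finsupp.single_apply]
  split_ifs
  · exact hD x
  · exact le_rfl

end PhiSide

end Fermat.Agent.RED.H95

namespace Fermat.Agent.RED.H95

/-- **ES-3** (Eichler–Shimura on divisors): `r_* (T_ℓ D) = φ (r_* D) + ℓ φ⁻¹ (r_* D)`. -/
theorem stmt_ES3 : Fermat.Agent.RED.Stmt_ES3 := by
  intro N ℓ _ _ hℓ hN A hA hα hβ _ r hr hmove φ hφ D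
  classical
  have hFF := Fermat.Agent.RED.H95.stmt_HKA_isFF N
  have hPD : HasPrincipalDivisors (AlgebraicClosure ℚ) ↥(modularFunctionFieldBar N) :=
    Fermat.Agent.RED.H51.stmt_FFB_principal _ _ hFF
  set Φ : Divisor (AlgebraicClosure ℚ) ↥(modularFunctionFieldBar N) →+
      Divisor (kV A) ↥(FtN A N) :=
    (Finsupp.mapDomain.addMonoidHom r).comp (heckeDivBar hα hβ) with hΦdef
  have hΦapp : ∀ E, Φ E = Finsupp.mapDomain r (heckeDivBar hα hβ E) := fun E => rfl
  have key : Φ = H52.PsiES r φ ℓ := by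
    refine H52.eq_of_pos_of_move r H52.massHom (fun q => H52.massHom_single_one_pos q) Φ
      (H52.PsiES r φ ℓ) ?_ ?_ (H52.PsiES_loc r φ ℓ) ?_
    · intro P Q
      rw [hΦapp]
      exact mapDomain_nonneg' r _ (fun P' => heckeDivBar_single_nonneg hα hβ P P') Q
    · intro P
      rw [hΦapp, H52.massHom_mapDomain, massHom_heckeDivBar_single hℓ hN,
        H52.massHom_PsiES_single]
    · intro P S
      obtain ⟨n, f, hn, hu, hfP, hf⟩ := hmove P S
      have hf0 : (f : ↥(modularFunctionFieldBar N)) ≠ 0 := by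
        intro h0
        have : f = 0 := Subtype.ext h0
        rw [this] at hu
        exact not_isUnit_zero hu
      obtain ⟨E, hE, -⟩ := hPD.exists_divisor (f : ↥(modularFunctionFieldBar N)) hf0
      refine ⟨n, E, hn, by rw [hE, hfP], fun P' hP' => ?_, ?_⟩
      · rw [hE]
        exact hf P' hP'
      · rw [hΦapp]
        exact mapDomain_hecke_eq_of_unit A hℓ hN hA hα hβ r hr φ hφ f hu E hE
  have h := congrArg (fun Θ : Divisor (AlgebraicClosure ℚ) ↥(modularFunctionFieldBar N) →+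
      Divisor (kV A) ↥(FtN A N) => Θ D) key
  exact h

end Fermat.Agent.RED.H95

end
end
-- ==== END Fermat.Agent.RED.ES.H95_ES3a

-- ==== BEGIN Fermat.Agent.S36.H44_PushComm
section
attribute [local instance 10000] SubalgebraClass.toAlgebra
attribute [local instance 10000] HahnSeries.powerSeriesAlgebra

/-!
# S35 / S36, T-X (route Y), helper44: from norm functions to `J₀`

A push-forward `p_* : J₀(M q) → J₀(M)` (along any `p : F_M → F_{Mq}`) commutes with `T_ℓ` as soon
as the norm `N_p` commutes with the norm functions `n_ℓ` of the Hecke correspondences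
(principle of helper2: additive maps on divisors with finite preimage supports are determined by
their values on principal divisors).

* `pushforwardAlong_ord` : `p_* (div f) = div (N_p f)`;
* `push_heckeDiv_comm_of` : on divisors;
* `pic0Push_hecke_of` : on `J₀`;
* `alphaPush_hecke` : `α_* T_ℓ = T_ℓ α_*` for the primes `ℓ ∤ M q`.
-/

set_option autoImplicit false
set_option linter.style.haveILetI false
set_option linter.unusedSectionVars false

noncomputable section

namespace Fermat.Agent.S36.H44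

open AlgebraicCurve ModularCurve Fermat.Agent.S24 Fermat.Agent.Lib.HeckeComm
  Fermat.Agent.GTor Fermat.Agent.GTor.H2

local notation "Kb" => AlgebraicClosure ℚ

section Generic

variable {K F F' : Type*} [Field K] [Field F] [Field F'] [Algebra K F] [Algebra K F']

/-- `φ_* (div f) = div (N_φ f)`. -/
theorem pushforwardAlong_ord (φ : F →ₐ[K] F') (hφ : φ.toRingHom.IsIntegral)
    (hfin : FiniteAlong K φ) (hN : NormFormulaAlong K φ hfin) {f : F'} (hf : f ≠ 0)
    (D : Divisor K F') (hD : ∀ w : Place K F', D w = w.ord f) (v : Place K F) :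
    Divisor.pushforwardAlong φ hφ D v = v.ord (normAlongHom φ.toRingHom f) := by
  letI := algebraAlong φ
  haveI := isScalarTower_along φ
  haveI := isIntegral_along φ hφ
  haveI : Module.Finite F F' := hfin
  exact hN f hf D hD v

theorem normAlongHom_ne_zero (φ : F →ₐ[K] F') (hfin : FiniteAlong K φ) {f : F'} (hf : f ≠ 0) :
    normAlongHom φ.toRingHom f ≠ 0 := by
  letI := algebraAlong φ
  haveI : Module.Finite F F' := hfin
  exact Algebra.norm_ne_zero_iff.mpr hf

end Generic

section Modular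

variable (M q ℓ : ℕ) [NeZero M] [NeZero q] [NeZero ℓ]

/-- A push-forward commutes with the Hecke correspondence on divisors if the norm commutes with
the norm functions. -/
theorem push_heckeDiv_comm_of (p : FN M →ₐ[Kb] FN (M * q)) (hp : p.toRingHom.IsIntegral)
    (hpfin : FiniteAlong Kb p) (hpN : NormFormulaAlong Kb p hpfin)
    (hα : HeckeAlphaBarIntegral Kb M ℓ) (hβ : HeckeBetaBarIntegral Kb M ℓ)
    (hP : HasPrincipalDivisors Kb (laurentBaseChange Kb (modularFunctionFieldFull (M * ℓ))))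
    (hfin : FiniteAlong Kb (heckeAlphaBar Kb M ℓ))
    (hN : NormFormulaAlong Kb (heckeAlphaBar Kb M ℓ) hfin)
    (hα' : HeckeAlphaBarIntegral Kb (M * q) ℓ) (hβ' : HeckeBetaBarIntegral Kb (M * q) ℓ)
    (hP' : HasPrincipalDivisors Kb
      (laurentBaseChange Kb (modularFunctionFieldFull (M * q * ℓ))))
    (hfin' : FiniteAlong Kb (heckeAlphaBar Kb (M * q) ℓ))
    (hN' : NormFormulaAlong Kb (heckeAlphaBar Kb (M * q) ℓ) hfin')
    (hcomm : ∀ f : FN (M * q), f ≠ 0 →
      normAlongHom p.toRingHom (heckeNormFn Kb (M * q) ℓ f)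
        = heckeNormFn Kb M ℓ (normAlongHom p.toRingHom f)) :
    (Divisor.pushforwardAlong p hp).comp (heckeDivBar (L := Kb) hα' hβ')
      = (heckeDivBar (L := Kb) hα hβ).comp (Divisor.pushforwardAlong p hp) := by
  haveI := hasPrincipalDivisors_FN (M * q)
  refine eq_of_eq_on_principal _ _
    (FinPre.comp (finPre_pushforwardAlong p hp) (finPre_heckeDivBar (M * q) ℓ hα' hβ'))
    (FinPre.comp (finPre_heckeDivBar M ℓ hα hβ) (finPre_pushforwardAlong p hp)) ?_
  intro f D hf hD
  apply Finsupp.ext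
  intro v
  rw [AddMonoidHom.comp_apply, AddMonoidHom.comp_apply]
  have h1 := heckeDivBar_ord (M * q) ℓ hα' hβ' hfin' hN' D hf hD
  have h2 := pushforwardAlong_ord p hp hpfin hpN hf D hD
  have hf1 : heckeNormFn Kb (M * q) ℓ f ≠ 0 := heckeNormFn_ne_zero Kb (M * q) ℓ hfin' hf
  have hf2 : normAlongHom p.toRingHom f ≠ 0 := normAlongHom_ne_zero p hpfin hf
  rw [pushforwardAlong_ord p hp hpfin hpN hf1 _ h1 v,
    heckeDivBar_ord M ℓ hα hβ hfin hN _ hf2 h2 v, hcomm f hf]

end Modular

/-- A push-forward commutes with `T_ℓ` on `J₀` if the norm commutes with the norm functions. -/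
theorem pic0Push_hecke_of (M q : ℕ) [NeZero M] [NeZero q] (ℓ : Nat.Primes)
    (p : FN M →ₐ[Kb] FN (M * q)) (hp : p.toRingHom.IsIntegral)
    (hpfin : FiniteAlong Kb p) (hpN : NormFormulaAlong Kb p hpfin)
    (hcomm : haveI : NeZero (ℓ : ℕ) := ⟨ℓ.2.ne_zero⟩
      ∀ f : FN (M * q), f ≠ 0 →
      normAlongHom p.toRingHom (heckeNormFn Kb (M * q) ℓ f)
        = heckeNormFn Kb M ℓ (normAlongHom p.toRingHom f))
    (x : JZero (M * q)) :
    pic0Push p hp hpfin hpN (heckeOperatorBar (M * q) ℓ x)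
      = heckeOperatorBar M ℓ (pic0Push p hp hpfin hpN x) := by
  haveI : NeZero (ℓ : ℕ) := ⟨ℓ.2.ne_zero⟩
  obtain ⟨hα, hβ, hP, hfin, hFI, hN⟩ := Fermat.Agent.RED.H51.stmt_HKA M ℓ
  obtain ⟨hα', hβ', hP', hfin', hFI', hN'⟩ := Fermat.Agent.RED.H51.stmt_HKA (M * q) ℓ
  have hdiv := push_heckeDiv_comm_of M q ℓ p hp hpfin hpN hα hβ hP hfin hN hα' hβ' hP' hfin' hN'
    hcomm
  obtain ⟨D, rfl⟩ := Pic0.mk_surjective x
  rw [heckeOperatorBar_mk (M * q) ℓ hα' hβ' hP' hfin' hFI' hN' D, pic0Push_mk, pic0Push_mk,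
    heckeOperatorBar_mk M ℓ hα hβ hP hfin hFI hN]
  congr 1
  apply Subtype.ext
  rw [coe_degZeroPush, Pic0.coe_degZeroCorrespondence, Pic0.coe_degZeroCorrespondence,
    coe_degZeroPush]
  exact congrArg (fun Φ : Divisor Kb (FN (M * q)) →+ Divisor Kb (FN M) =>
    Φ (D : Divisor Kb (FN (M * q)))) hdiv

/-- **`α_* T_ℓ = T_ℓ α_*`** for the primes `ℓ ∤ M q`. -/
theorem alphaPush_hecke (M q : ℕ) [NeZero M] [NeZero q] (ℓ : Nat.Primes)
    (hℓ : ¬ (ℓ : ℕ) ∣ M * q) (x : JZero (M * q)) :
    alphaPush M q (heckeOperatorBar (M * q) ℓ x) = heckeOperatorBar M ℓ (alphaPush M q x) := by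
  haveI : NeZero (ℓ : ℕ) := ⟨ℓ.2.ne_zero⟩
  exact pic0Push_hecke_of M q ℓ (heckeAlphaBar Kb M q) (alpha_integral M q) (alpha_finite M q)
    (alpha_norm M q) (fun f _ => alpha_norm_comm M q ℓ ℓ.2 hℓ f) x

end Fermat.Agent.S36.H44

end
end
-- ==== END Fermat.Agent.S36.H44_PushComm
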