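-- GENERATED (merged mirror, NOTES/tools/trim/merge3_helper67.py): 1 modules of the originals, bodies verbatim.
import Fermat.Agent.Zm.S35_L14_001

-- ==== BEGIN Fermat.Agent.S36.H44_Crux
section

/-!
# S35 / S36, T-X (route Y), helper44: `F_{Nℓ} = β_ℓ (F_N) (j (q ^ d))` for `d ∣ N`

`ℓ` prime, `ℓ ∤ N`, `d ∣ N`.  The `ℓ + 1` embeddings `sigmaK c ∘ ρ` of `F_{Nℓ}` over `β_ℓ (F_N)`
(helper95) take pairwise distinct values on `j (q ^ d)`: the coefficient of `u ^ (-(N d))` is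
`ζ ^ (b N d)` resp. `0`.  Hence `j (q ^ d)` has degree `ℓ + 1 = [F_{Nℓ} : β_ℓ F_N]` over
`β_ℓ (F_N)`.
-/

set_option autoImplicit false
set_option linter.style.haveILetI false
set_option linter.unusedSectionVars false

noncomputable section

namespace Fermat.Agent.S36.H44

open Fermat.Agent.S24 ModularCurve Fermat.Agent.RED.H95 Matrix ModularGroup CongruenceSubgroup
  UpperHalfPlane
open scoped MatrixGroups

variable {N : ℕ} [NeZero N] {ℓ : ℕ} [NeZero ℓ]

attribute [local instance] algBeta algPhiAlpha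

/-- The coefficient of `u ^ (-(N d))` in the expansion of `sigmaK c (ρ (j (q ^ d)))`. -/
theorem coeff_sigmaK_rho_jdF_d (hℓ : ℓ.Prime) (u v : ℤ) (h : u * ℓ + v * N = 1)
    (d : ℕ) [NeZero d] (hd : d ∣ N) (c : Option (Fin ℓ)) :
    (UL (N * ℓ) (sigmaK u v h c
        (rhoK hℓ (jdF (N * ℓ) d (dvd_mul_of_dvd_left hd ℓ))))).coeff (-((N * d : ℕ) : ℤ))
      = match c with
        | some b => ((zetaK (N * ℓ))⁻¹ ^ (b : ℕ)) ^ (-((N * d : ℕ) : ℤ))
        | none => 0 := by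
  cases c with
  | some b =>
    show (UL (N * ℓ) (piN (N * ℓ) (T ^ (b : ℕ))
      (rho N hℓ (jdF (N * ℓ) d (dvd_mul_of_dvd_left hd ℓ))))).coeff (-((N * d : ℕ) : ℤ)) = _
    rw [UL_piN_T_pow, UL_rho, coe_jdF, qExpand_qExpand, twist_coeff]
    have h1 := qExpand_coeff_mul (R := Kbar) (N * d) jBar (-1)
    rw [mul_neg_one] at h1
    rw [h1, jBar_coeff_neg_one, mul_one]
  | none =>
    show (UL (N * ℓ) (piK (N * ℓ) (deltaInf N ℓ u v h)
      (rho N hℓ (jdF (N * ℓ) d (dvd_mul_of_dvd_left hd ℓ))))).coeff (-((N * d : ℕ) : ℤ)) = 0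
    have e1 : jdF (N * ℓ) d (dvd_mul_of_dvd_left hd ℓ) = heckeAlphaBar Kbar N ℓ (jdF N d hd) :=
      (alpha_jdF N d hd).symm
    have e2 := congrArg (fun f : FN N →ₐ[Kbar] LN (N * ℓ) => f (jdF N d hd))
      (piK_deltaInf_rho_alpha hℓ u v h)
    simp only [AlgHom.comp_apply] at e2
    rw [e1, e2, UL_phi, qN_apply, coe_heckeBetaBar, qExpand_qExpand, coe_jdF, qExpand_qExpand]
    apply qExpand_coeff_of_not_dvd
    rintro ⟨k, hk⟩
    have hN : (0 : ℤ) < N := by exact_mod_cast NeZero.pos N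
    have hd0 : (0 : ℤ) < d := by exact_mod_cast NeZero.pos d
    have hl2 : (2 : ℤ) ≤ ℓ := by exact_mod_cast hℓ.two_le
    push_cast at hk
    have hk' : ((N : ℤ) * d) * ((ℓ : ℤ) * ℓ * k + 1) = 0 := by linear_combination -hk
    rcases mul_eq_zero.mp hk' with h0 | h0
    · rcases mul_eq_zero.mp h0 with h1 | h1 <;> omega
    · have hdvd : (ℓ : ℤ) ∣ 1 := ⟨-(ℓ * k), by linear_combination h0⟩
      have := Int.le_of_dvd one_pos hdvd
      omega

/-- The `sigmaK c ∘ ρ` are separated by `j (q ^ d)`, `d ∣ N`. -/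
theorem sigmaK_rho_jdF_d_injective (hℓ : ℓ.Prime) (hN : ¬ ℓ ∣ N) (u v : ℤ)
    (h : u * ℓ + v * N = 1) (d : ℕ) [NeZero d] (hd : d ∣ N) :
    Function.Injective fun c : Option (Fin ℓ) =>
      sigmaK u v h c (rhoK hℓ (jdF (N * ℓ) d (dvd_mul_of_dvd_left hd ℓ))) := by
  intro c c' hcc
  have hv : (UL (N * ℓ) (sigmaK u v h c
        (rhoK hℓ (jdF (N * ℓ) d (dvd_mul_of_dvd_left hd ℓ))))).coeff (-((N * d : ℕ) : ℤ))
      = (UL (N * ℓ) (sigmaK u v h c'
        (rhoK hℓ (jdF (N * ℓ) d (dvd_mul_of_dvd_left hd ℓ))))).coeff (-((N * d : ℕ) : ℤ)) := by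
    have hcc' : sigmaK u v h c (rhoK hℓ (jdF (N * ℓ) d (dvd_mul_of_dvd_left hd ℓ)))
        = sigmaK u v h c' (rhoK hℓ (jdF (N * ℓ) d (dvd_mul_of_dvd_left hd ℓ))) := hcc
    rw [hcc']
  rw [coeff_sigmaK_rho_jdF_d hℓ u v h d hd c, coeff_sigmaK_rho_jdF_d hℓ u v h d hd c'] at hv
  have hz : zetaK (N * ℓ) ≠ 0 := zetaK_ne_zero (N * ℓ)
  have hne : ∀ b : ℕ, ((zetaK (N * ℓ))⁻¹ ^ b) ^ (-((N * d : ℕ) : ℤ)) ≠ 0 :=
    fun b => zpow_ne_zero _ (pow_ne_zero _ (inv_ne_zero hz))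
  have hform : ∀ b : ℕ, ((zetaK (N * ℓ))⁻¹ ^ b) ^ (-((N * d : ℕ) : ℤ))
      = zetaK (N * ℓ) ^ ((b : ℤ) * ((N : ℤ) * d)) := by
    intro b
    rw [← zpow_natCast, ← _root_.zpow_mul, _root_.inv_zpow']
    congr 1
    push_cast
    ring
  cases c with
  | none =>
    cases c' with
    | none => rfl
    | some b' => exact absurd hv.symm (hne _)
  | some b =>
    cases c' with
    | none => exact absurd hv (hne _)
    | some b' =>
      simp only at hv
      rw [hform, hform] at hv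
      have h1 : zetaK (N * ℓ) ^ (((b : ℕ) : ℤ) * ((N : ℤ) * d) - ((b' : ℕ) : ℤ) * ((N : ℤ) * d))
          = 1 := by
        rw [zpow_sub₀ hz, hv, div_self (zpow_ne_zero _ hz)]
      rw [zetaK_zpow_eq_one_iff] at h1
      obtain ⟨k, hk⟩ := h1
      have hNpos : (0 : ℤ) < N := by exact_mod_cast NeZero.pos N
      push_cast at hk
      have hk' : (N : ℤ) * ((((b : ℕ) : ℤ) - ((b' : ℕ) : ℤ)) * d - ℓ * k) = 0 := by
        linear_combination hk
      have hk2 : (((b : ℕ) : ℤ) - ((b' : ℕ) : ℤ)) * d = ℓ * k := by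
        rcases mul_eq_zero.mp hk' with h0 | h0
        · omega
        · linarith
      -- `ℓ` is coprime to `d`
      have hco : IsCoprime (ℓ : ℤ) (d : ℤ) := by
        have hℓd : ¬ ℓ ∣ d := fun hh => hN (hh.trans hd)
        exact Nat.isCoprime_iff_coprime.mpr ((Nat.Prime.coprime_iff_not_dvd hℓ).mpr hℓd)
      have hdvd : (ℓ : ℤ) ∣ ((b : ℕ) : ℤ) - ((b' : ℕ) : ℤ) :=
        hco.dvd_of_dvd_mul_right ⟨k, hk2⟩
      obtain ⟨m, hm⟩ := hdvd
      have hb := b.2
      have hb' := b'.2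
      have hm0 : m = 0 := by
        by_contra hm0
        have hℓpos : (0 : ℤ) < ℓ := by exact_mod_cast hℓ.pos
        rcases lt_or_gt_of_ne hm0 with hneg | hpos
        · have : (ℓ : ℤ) * m ≤ -ℓ := by nlinarith
          omega
        · have : (ℓ : ℤ) ≤ ℓ * m := by nlinarith
          omega
      rw [hm0, mul_zero] at hm
      congr 1
      apply Fin.ext
      omega

/-- **CRUX**: `j (q ^ d)`, `d ∣ N`, has degree `ℓ + 1` over `β_ℓ (F_N)`. -/
theorem natDegree_minpoly_jdF (hℓ : ℓ.Prime) (hN : ¬ ℓ ∣ N) (d : ℕ) [NeZero d] (hd : d ∣ N) :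
    (minpoly (FN N) (jdF (N * ℓ) d (dvd_mul_of_dvd_left hd ℓ))).natDegree = ℓ + 1 := by
  obtain ⟨u, v, h⟩ := exists_bezout hℓ hN
  haveI := finiteDimensional_beta (N := N) hℓ
  set y := jdF (N * ℓ) d (dvd_mul_of_dvd_left hd ℓ) with hy
  have hint : IsIntegral (FN N) y := Algebra.IsIntegral.isIntegral y
  apply le_antisymm
  · exact (minpoly.natDegree_le y).trans_eq (finrank_beta hℓ hN)
  · classical
    let r : Option (Fin ℓ) → LN (N * ℓ) := fun c => sigmaK u v h c (rhoK hℓ y)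
    have hrinj : Function.Injective r := sigmaK_rho_jdF_d_injective hℓ hN u v h d hd
    have hp0 : (minpoly (FN N) y).map (algebraMap (FN N) (LN (N * ℓ))) ≠ 0 :=
      Polynomial.map_ne_zero (minpoly.ne_zero hint)
    have hroot : ∀ c, r c ∈ ((minpoly (FN N) y).map (algebraMap (FN N) (LN (N * ℓ)))).roots := by
      intro c
      rw [Polynomial.mem_roots hp0, Polynomial.IsRoot.def, Polynomial.eval_map,
        ← Polynomial.aeval_def]
      show Polynomial.aeval (((sigmaK u v h c).comp (rhoK hℓ)) y) (minpoly (FN N) y) = 0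
      rw [Polynomial.aeval_algHom_apply, minpoly.aeval, map_zero]
    have hsub : (Finset.univ.image r).val
        ⊆ ((minpoly (FN N) y).map (algebraMap (FN N) (LN (N * ℓ)))).roots := by
      intro z hz
      rw [Finset.mem_val, Finset.mem_image] at hz
      obtain ⟨c, -, rfl⟩ := hz
      exact hroot c
    have hcard := Polynomial.card_le_degree_of_subset_roots hsub
    rw [Finset.card_image_of_injective _ hrinj, Finset.card_univ, Fintype.card_option,
      Fintype.card_fin, Polynomial.natDegree_map] at hcard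
    exact hcard

/-- **CRUX**: `F_{Nℓ} = β_ℓ (F_N) (j (q ^ d))` for `d ∣ N`. -/
theorem adjoin_beta_jdF (hℓ : ℓ.Prime) (hN : ¬ ℓ ∣ N) (d : ℕ) [NeZero d] (hd : d ∣ N) :
    IntermediateField.adjoin (FN N) {jdF (N * ℓ) d (dvd_mul_of_dvd_left hd ℓ)} = ⊤ := by
  haveI := finiteDimensional_beta (N := N) hℓ
  rw [Field.primitive_element_iff_minpoly_natDegree_eq, natDegree_minpoly_jdF hℓ hN d hd,
    finrank_beta hℓ hN]

end Fermat.Agent.S36.H44

end
end
-- ==== END Fermat.Agent.S36.H44_Crux
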