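-- GENERATED (merged mirror, NOTES/tools/trim/merge3_helper67.py): 7 modules of the originals, bodies verbatim.
import Mathlib
import Fermat.Agent.Zm.S35_L15_001
import Fermat.Agent.Zm.S35_L02_002
import Fermat.Agent.Zm.S35_L13_002
import Fermat.Agent.Zm.S35_L11_001
import Fermat.Agent.Zm.S35_L14_001
import Fermat.Agent.Zm.S35_L08_001
import Fermat.Agent.Zm.S35_L15_003
import Fermat.Agent.Zm.S35_L15_002
import Fermat.Agent.Zm.S35_L15_000
import Fermat.Agent.Zm.S35_L09_000

-- ==== BEGIN Fermat.Agent.RED.H51_NDESC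
section
attribute [local instance 10000] SubalgebraClass.toAlgebra
attribute [local instance 10000] HahnSeries.powerSeriesAlgebra

/-!
# G-RED package NDESC (helper51): the final statements

* `stmt_NDESC : Stmt_NDESC` (unconditional);
* `ndesc` : the same with the compatibility `r (P' | F) = (r' P') | F~` exported.
Uses helper10's `H10.stmt_NormRedAbs` and helper17's `H17.stmt_LIFT`, `H17.stmt_MOVE`.
-/

set_option autoImplicit false
set_option linter.style.haveILetI false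
set_option synthInstance.maxHeartbeats 400000
set_option maxHeartbeats 1000000

noncomputable section

open AlgebraicCurve IntermediateField ModularCurve Fermat.Agent.S28.H73 Fermat.Agent.RED.H73

namespace Fermat.Agent.RED.H51

/-- **Package NDESC** (norm descent of the reduction map). -/
theorem stmt_NDESC : Fermat.Agent.RED.Stmt_NDESC :=
  stmt_NDESC_of Fermat.Agent.RED.H10.stmt_NormRedAbs

/-- **Norm descent with compatibility**: for `F ≤ F'` with `[F' : F] = [F~' : F~]` and a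
reduction map `r'` of `F'` with the conservation law and the moving lemma there is a reduction
map `r` of `F` with the conservation law and the moving lemma such that
`r (P' | F) = (r' P') | F~` for every place `P'` of `F'`. -/
theorem ndesc {C : Type} [Field C] [IsAlgClosed C] (O : ValuationSubring C) [IsAlgClosed (kV O)]
    {F F' : IntermediateField C (LaurentSeries C)} (hle : F ≤ F')
    (h : HasScale O F) (h' : HasScale O F')
    (hFF : IsFF C ↥F) (hFF' : IsFF C ↥F')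
    (hFFt : IsFF (kV O) ↥(redField O F h)) (hFFt' : IsFF (kV O) ↥(redField O F' h'))
    (hdeg : F.relfinrank F' = (redField O F h).relfinrank (redField O F' h'))
    (r' : Place C ↥F' → Place (kV O) ↥(redField O F' h'))
    (hred' : IsRed O h' r') (hmove' : HasMove O h' r')
    (hφ : (IntermediateField.inclusion hle).toRingHom.IsIntegral)
    (hφt : (IntermediateField.inclusion (redField_mono O hle h h')).toRingHom.IsIntegral) :
    ∃ r : Place C ↥F → Place (kV O) ↥(redField O F h), IsRed O h r ∧ HasMove O h r ∧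
      ∀ P' : Place C ↥F', r (P'.restrictAlong (IntermediateField.inclusion hle) hφ)
        = (r' P').restrictAlong (IntermediateField.inclusion (redField_mono O hle h h')) hφt :=
  ndesc_compat O hle h h' Fermat.Agent.RED.H10.stmt_NormRedAbs hFF hFF' hFFt hFFt' hdeg r'
    hred' hmove' hφ hφt

end Fermat.Agent.RED.H51

end
end
-- ==== END Fermat.Agent.RED.H51_NDESC

-- ==== BEGIN Fermat.Agent.RED.H73_GAHauptInt
section
attribute [local instance 10000] SubalgebraClass.toAlgebra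
attribute [local instance 10000] HahnSeries.powerSeriesAlgebra

/-!
# G-RED package GA-H (helper73): the charts from identities over `ℤ`

`hZ : LaurentSeries ℤ` with a pole and leading coefficient `1`, and two identities in
`LaurentSeries ℤ`
  `P(hZ) = j · Q(hZ)`,   `P'(hZ) = j(q^p) · Q'(hZ)`
(`P, Q, P', Q' ∈ ℤ[X]`, `P, Q, Q'` monic, `deg P = p + 1 > deg Q`).  Then for every valuation
subring `A` of `ℚ̄` in which `M` is invertible, `p ∣ M`, the image `x` of `hZ` in `ℚ̄((q))` lies in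
the Gauss ring, its reduction is the image of `hZ` in `k((q))`, and `x`, `1/x` satisfy the five
chart fields `ChartPre` at level `M`:  `chartPre_haupt_int`.
-/

set_option autoImplicit false
set_option synthInstance.maxHeartbeats 400000
set_option maxHeartbeats 1000000

open Polynomial ModularCurve Fermat.Agent.S28 Fermat.Agent.S28.H73
open IntermediateField

noncomputable section

namespace Fermat.Agent.RED.H73

section CoeffMap

variable {R S T : Type*} [CommRing R] [CommRing S] [CommRing T]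

theorem algebraMap_laurentSeries_single (c : R) :
    algebraMap R (LaurentSeries R) c = HahnSeries.single 0 c := by
  have h1 : algebraMap R (PowerSeries R) c = PowerSeries.C c := by simp
  rw [HahnSeries.algebraMap_apply', h1, HahnSeries.ofPowerSeries_C]
  rfl

theorem coeffMap_algebraMap' (f : R →+* S) (r : R) :
    coeffMap f (algebraMap R (LaurentSeries R) r) = algebraMap S (LaurentSeries S) (f r) := by
  rw [algebraMap_laurentSeries_single, coeffMap_single, algebraMap_laurentSeries_single]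

/-- `coeffMap` commutes with polynomial evaluation. -/
theorem coeffMap_aeval (f : R →+* S) (x : LaurentSeries R) (P : R[X]) :
    coeffMap f (aeval x P) = aeval (coeffMap f x) (P.map f) := by
  rw [aeval_def, aeval_def, Polynomial.hom_eval₂, Polynomial.eval₂_map]
  congr 1
  ext r : 1
  exact coeffMap_algebraMap' f r

theorem coeffMap_coeffMap (f : R →+* S) (g : S →+* T) (x : LaurentSeries R) :
    coeffMap g (coeffMap f x) = coeffMap (g.comp f) x := by
  ext n
  rfl

theorem coeffMap_jqModC' (f : R →+* S) : coeffMap f (jqModC R) = jqModC S :=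
  map_jqModC f

/-- The image of a series with a pole and leading coefficient `1` has a pole. -/
theorem coeffMap_order_neg [Nontrivial S] (f : R →+* S) {x : LaurentSeries R}
    (hord : x.order < 0) (hlead : x.leadingCoeff = 1) : (coeffMap f x).order < 0 := by
  have hx0 : x ≠ 0 := by
    rintro rfl
    rw [HahnSeries.order_zero] at hord
    exact lt_irrefl _ hord
  have hc : (coeffMap f x).coeff x.order ≠ 0 := by
    rw [coeffMap_coeff, ← HahnSeries.leadingCoeff_eq, hlead, map_one]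
    exact one_ne_zero
  exact lt_of_le_of_lt (HahnSeries.order_le_of_coeff_ne_zero hc) hord

end CoeffMap

section Int

variable {p : ℕ} [NeZero p]

/-- The image of an integral series in `ℚ̄((q))` lies in the Gauss ring and reduces to the image
in `k((q))`. -/
theorem coeffMap_int_mem_gaussRingV {L : Type} [Field L] (A : ValuationSubring L)
    (hZ : LaurentSeries ℤ) :
    ∃ hx : coeffMap (Int.castRingHom L) hZ ∈ gaussRingV A,
      gaussRedV A ⟨coeffMap (Int.castRingHom L) hZ, hx⟩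
        = coeffMap (Int.castRingHom (kV A)) hZ := by
  have e1 : coeffMap (Int.castRingHom L) hZ = iotaV A (coeffMap (Int.castRingHom ↥A) hZ) := by
    rw [iotaV, coeffMap_coeffMap]
    congr 1
  have e2 : redV A (coeffMap (Int.castRingHom ↥A) hZ) = coeffMap (Int.castRingHom (kV A)) hZ := by
    rw [redV, coeffMap_coeffMap]
    congr 1
  have hx : coeffMap (Int.castRingHom L) hZ ∈ gaussRingV A := by
    rw [e1]; exact iotaV_mem_gaussRingV A _
  refine ⟨hx, ?_⟩
  have e3 : (⟨coeffMap (Int.castRingHom L) hZ, hx⟩ : gaussRingV A)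
      = ⟨iotaV A (coeffMap (Int.castRingHom ↥A) hZ), iotaV_mem_gaussRingV A _⟩ :=
    Subtype.ext e1
  rw [e3, gaussRedV_iotaV, e2]

/-- The identities over a field `K`, from the identities over `ℤ`. -/
theorem haupt_identities_map (K : Type) [Field K] (hZ : LaurentSeries ℤ) (P Q P' Q' : ℤ[X])
    (hPQ : aeval hZ P = jqModC ℤ * aeval hZ Q)
    (hPQ' : aeval hZ P' = qExpand ℤ p (jqModC ℤ) * aeval hZ Q') :
    aeval (coeffMap (Int.castRingHom K) hZ) (P.map (Int.castRingHom K))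
        = jqModC K * aeval (coeffMap (Int.castRingHom K) hZ) (Q.map (Int.castRingHom K)) ∧
    aeval (coeffMap (Int.castRingHom K) hZ) (P'.map (Int.castRingHom K))
        = qExpand K p (jqModC K)
          * aeval (coeffMap (Int.castRingHom K) hZ) (Q'.map (Int.castRingHom K)) := by
  constructor
  · rw [← coeffMap_aeval, hPQ, map_mul, coeffMap_aeval, coeffMap_jqModC']
  · rw [← coeffMap_aeval, hPQ', map_mul, coeffMap_aeval, coeffMap_qExpand, coeffMap_jqModC']

/-- **GA-H from identities over `ℤ`**: both charts `x`, `1/x` at level `M`, for the image `x`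
of `hZ` in `ℚ̄((q))`. -/
theorem chartPre_haupt_int (hp : p.Prime) {M : ℕ} [NeZero M] (hpM : p ∣ M)
    (A : ValuationSubring (AlgebraicClosure ℚ)) (hM : ((M : AlgebraicClosure ℚ))⁻¹ ∈ A)
    (hZ : LaurentSeries ℤ) (hord : hZ.order < 0) (hlead : hZ.leadingCoeff = 1)
    (P Q P' Q' : ℤ[X]) (hP : P.Monic) (hPd : P.natDegree = p + 1)
    (hQ : Q.Monic) (hQd : Q.natDegree < p + 1) (hQ' : Q'.Monic)
    (hPQ : aeval hZ P = jqModC ℤ * aeval hZ Q)
    (hPQ' : aeval hZ P' = qExpand ℤ p (jqModC ℤ) * aeval hZ Q') :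
    ∃ (X : ↥(laurentBaseChange (AlgebraicClosure ℚ) (modularFunctionFieldFull M)))
      (hX : X ∈ (redSetting A (hasScale_laurentBaseChange A M)).V)
      (hX' : X⁻¹ ∈ (redSetting A (hasScale_laurentBaseChange A M)).V),
      (X : LaurentSeries (AlgebraicClosure ℚ)) = coeffMap (Int.castRingHom _) hZ ∧
      (((redSetting A (hasScale_laurentBaseChange A M)).red ⟨X, hX⟩ :
          ↥(redField A (laurentBaseChange (AlgebraicClosure ℚ) (modularFunctionFieldFull M))
            (hasScale_laurentBaseChange A M))) : LaurentSeries (kV A))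
        = coeffMap (Int.castRingHom (kV A)) hZ ∧
      ChartPre (redSetting A (hasScale_laurentBaseChange A M)) X hX ∧
      ChartPre (redSetting A (hasScale_laurentBaseChange A M)) X⁻¹ hX' := by
  obtain ⟨hx, hred⟩ := coeffMap_int_mem_gaussRingV A hZ
  obtain ⟨i1, i2⟩ := haupt_identities_map (p := p) (AlgebraicClosure ℚ) hZ P Q P' Q' hPQ hPQ'
  obtain ⟨k1, k2⟩ := haupt_identities_map (p := p) (kV A) hZ P Q P' Q' hPQ hPQ'
  have o1 := coeffMap_order_neg (Int.castRingHom (AlgebraicClosure ℚ)) hord hlead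
  have o2 := coeffMap_order_neg (Int.castRingHom (kV A)) hord hlead
  rw [← hred] at k1 k2 o2
  have hpA : ((p : AlgebraicClosure ℚ))⁻¹ ∈ A := inv_natCast_mem_of_dvd A hpM (NeZero.ne M) hM
  have H2 := haupt_H2_bar hp _ _ _ _ (hP.map (Int.castRingHom (AlgebraicClosure ℚ)))
    (by rw [hP.natDegree_map, hPd]) (by rw [hQ.natDegree_map]; exact hQd) i1
    (aeval_ne_zero_of_order_neg o1 (hQ.map _).ne_zero) i2
    (aeval_ne_zero_of_order_neg o1 (hQ'.map _).ne_zero)
  have H3 := haupt_H3_bar hp A hpA _ _ _ _ (hP.map (Int.castRingHom (kV A)))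
    (by rw [hP.natDegree_map, hPd]) (by rw [hQ.natDegree_map]; exact hQd) k1
    (aeval_ne_zero_of_order_neg o2 (hQ.map _).ne_zero) k2
    (aeval_ne_zero_of_order_neg o2 (hQ'.map _).ne_zero)
  have hxF := haupt_mem hpM H2
  have h := chartPre_haupt hpM hM (caDataBar p) (caDataBar M) hx H2 H3 hxF
  exact ⟨⟨_, hxF⟩, hx, h.inv_mem, rfl, hred, h, h.inv_chart⟩

end Int

end Fermat.Agent.RED.H73

end
end
-- ==== END Fermat.Agent.RED.H73_GAHauptInt

-- ==== BEGIN Fermat.Agent.RED.H76_GoodChartJ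
section
attribute [local instance 10000] SubalgebraClass.toAlgebra
attribute [local instance 10000] HahnSeries.powerSeriesAlgebra

/-!
# G-RED (helper76): the charts `j` and `1/j` are good for `ℓ ≥ 5`; `HasDR` for `ℓ ≥ 5`

Abstract part (any `RedSetting`, reusable for the charts `h₂`, `h₃` of IG-MOD23):
* `ker_red`, `inv_mem_of_red_ne_zero`, `red_inv` : units of `S.V` and the reduction map;
* `goodChart_of` : `GoodChart S x hx` from the five "pre" fields and the distinctness of the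
  branch values modulo the maximal ideal (`H34.stmt_chartNormal`);
* `goodChart_inv_of` : the same for the chart `x⁻¹`, from the pre fields of the chart `x`;

Modular part:
* `goodChart_jF`, `goodChart_jF_inv` : the charts `j`, `1/j` at level `N`, `ℓ ≥ 5`, `ℓ ∤ N`;
* `hasDR_of_five_le` : the case `5 ≤ ℓ` of `Stmt_DR2` (and of `Stmt_DR`), by helper79's
  `H79.hasDR_of_goodCharts`.
-/

set_option autoImplicit false
set_option linter.style.haveILetI false
set_option synthInstance.maxHeartbeats 400000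
set_option maxHeartbeats 1000000

noncomputable section

open AlgebraicCurve IntermediateField

namespace Fermat.Agent.RED.H76

open Fermat.Agent.RED.H34 Fermat.Agent.RED.H79

section Abs

variable {C F k Ft : Type} [Field C] [Field F] [Algebra C F] [Field k] [Field Ft] [Algebra k Ft]

/-- The kernel of the reduction map is the maximal ideal of the valuation ring. -/
theorem ker_red (S : RedSetting C F k Ft) :
    RingHom.ker S.red = IsLocalRing.maximalIdeal ↥S.V :=
  IsLocalRing.eq_maximalIdeal (RingHom.ker_isMaximal_of_surjective S.red S.red_surj)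

/-- An element of `V` with nonzero reduction is a unit of `V`. -/
theorem inv_mem_of_red_ne_zero (S : RedSetting C F k Ft) {x : F} (hx : x ∈ S.V)
    (h : S.red ⟨x, hx⟩ ≠ 0) : x⁻¹ ∈ S.V := by
  by_contra hinv
  apply h
  have hmem : (⟨x, hx⟩ : ↥S.V) ∈ IsLocalRing.maximalIdeal ↥S.V := by
    rw [IsLocalRing.mem_maximalIdeal, mem_nonunits_iff]
    rintro ⟨u, hu⟩
    apply hinv
    have h1 : ((u : ↥S.V) : F) * (((u⁻¹ : (↥S.V)ˣ) : ↥S.V) : F) = 1 :=
      congrArg Subtype.val u.mul_inv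
    rw [hu] at h1
    have h2 : x⁻¹ = (((u⁻¹ : (↥S.V)ˣ) : ↥S.V) : F) := inv_eq_of_mul_eq_one_right h1
    rw [h2]
    exact Subtype.mem _
  rw [← ker_red S] at hmem
  exact hmem

theorem red_inv (S : RedSetting C F k Ft) {x : F} (hx : x ∈ S.V) (hx' : x⁻¹ ∈ S.V)
    (hx0 : x ≠ 0) : S.red ⟨x⁻¹, hx'⟩ = (S.red ⟨x, hx⟩)⁻¹ := by
  have h1 : (⟨x, hx⟩ : ↥S.V) * ⟨x⁻¹, hx'⟩ = 1 := Subtype.ext (mul_inv_cancel₀ hx0)
  have h2 := congrArg S.red h1
  rw [map_mul, map_one] at h2
  exact eq_inv_of_mul_eq_one_right h2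

theorem ne_zero_of_transcendental_red (S : RedSetting C F k Ft) {x : F} (hx : x ∈ S.V)
    (h : Transcendental k (S.red ⟨x, hx⟩)) : x ≠ 0 := by
  rintro rfl
  apply h
  have : S.red ⟨0, hx⟩ = 0 := map_zero S.red
  rw [this]
  exact isAlgebraic_zero

theorem red_ne_zero_of_transcendental (S : RedSetting C F k Ft) {x : F} (hx : x ∈ S.V)
    (h : Transcendental k (S.red ⟨x, hx⟩)) : S.red ⟨x, hx⟩ ≠ 0 := by
  intro h0
  apply h
  rw [h0]
  exact isAlgebraic_zero

/-- Transport of `finrank` along an equality of intermediate fields. -/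
theorem finrank_congr_intermediateField {K E : Type} [Field K] [Field E] [Algebra K E]
    {M M' : IntermediateField K E} (h : M = M') :
    Module.finrank ↥M E = Module.finrank ↥M' E := by
  subst h
  rfl

theorem isSeparable_congr_intermediateField {K E : Type} [Field K] [Field E] [Algebra K E]
    {M M' : IntermediateField K E} (h : M = M') (hs : Algebra.IsSeparable ↥M E) :
    Algebra.IsSeparable ↥M' E := by
  subst h
  exact hs

theorem finiteDimensional_congr_intermediateField {K E : Type} [Field K] [Field E] [Algebra K E]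
    {M M' : IntermediateField K E} (h : M = M') (hs : FiniteDimensional ↥M E) :
    FiniteDimensional ↥M' E := by
  subst h
  exact hs

/-- `GoodChart` from the five "pre" fields and the distinctness of the branch values. -/
theorem goodChart_of [IsAlgClosed C] [CharZero C] [IsAlgClosed k] (S : RedSetting C F k Ft)
    {x : F} (hx : x ∈ S.V)
    (h1 : Transcendental k (S.red ⟨x, hx⟩))
    (h2 : FiniteDimensional C⟮x⟯ F)
    (h3 : Algebra.IsSeparable C⟮x⟯ F)
    (h4 : Module.finrank k⟮S.red ⟨x, hx⟩⟯ Ft = Module.finrank C⟮x⟯ F)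
    (h5 : Algebra.IsSeparable k⟮S.red ⟨x, hx⟩⟯ Ft)
    (hD : ∀ ρ ρ' : ↥(S.V.comap (algebraMap C F)), IsBranchValue x (ρ : C) →
      IsBranchValue x (ρ' : C) → S.resO ρ = S.resO ρ' → ρ = ρ') :
    GoodChart S x hx :=
  ⟨h1, h2, h3, h4, h5, stmt_chartNormal C F k Ft S x hx h1 h2 h4 h5 hD⟩

/-- `GoodChart` for the chart `x⁻¹` from the five "pre" fields of the chart `x` and the
distinctness of the branch values of `x⁻¹`. -/
theorem goodChart_inv_of [IsAlgClosed C] [CharZero C] [IsAlgClosed k] (S : RedSetting C F k Ft)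
    {x : F} (hx : x ∈ S.V) (hx' : x⁻¹ ∈ S.V)
    (h1 : Transcendental k (S.red ⟨x, hx⟩))
    (h2 : FiniteDimensional C⟮x⟯ F)
    (h3 : Algebra.IsSeparable C⟮x⟯ F)
    (h4 : Module.finrank k⟮S.red ⟨x, hx⟩⟯ Ft = Module.finrank C⟮x⟯ F)
    (h5 : Algebra.IsSeparable k⟮S.red ⟨x, hx⟩⟯ Ft)
    (hD : ∀ ρ ρ' : ↥(S.V.comap (algebraMap C F)), IsBranchValue x⁻¹ (ρ : C) →
      IsBranchValue x⁻¹ (ρ' : C) → S.resO ρ = S.resO ρ' → ρ = ρ') :
    GoodChart S x⁻¹ hx' := by
  have hx0 : x ≠ 0 := ne_zero_of_transcendental_red S hx h1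
  have hred : S.red ⟨x⁻¹, hx'⟩ = (S.red ⟨x, hx⟩)⁻¹ := _root_.Fermat.Agent.RED.H76.red_inv S hx hx' hx0
  have hC : C⟮x⁻¹⟯ = C⟮x⟯ := _root_.Fermat.Agent.RED.H76.adjoin_simple_inv x
  have hk : k⟮S.red ⟨x⁻¹, hx'⟩⟯ = k⟮S.red ⟨x, hx⟩⟯ := by
    rw [hred]
    exact _root_.Fermat.Agent.RED.H76.adjoin_simple_inv _
  refine goodChart_of S hx' ?_ ?_ ?_ ?_ ?_ hD
  · rw [hred]
    exact transcendental_inv h1
  · exact finiteDimensional_congr_intermediateField hC.symm h2
  · exact isSeparable_congr_intermediateField hC.symm h3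
  · rw [finrank_congr_intermediateField hk, finrank_congr_intermediateField hC]
    exact h4
  · exact isSeparable_congr_intermediateField hk.symm h5

end Abs

section Modular

open ModularCurve Fermat.Agent.S28.H73 Fermat.Agent.RED.H73 Fermat.Agent.S24

variable (N : ℕ) [NeZero N]

/-- `1/j` lies in the Gauss valuation ring. -/
theorem jF_inv_mem {ℓ : ℕ} (hℓ : ℓ.Prime) (hℓN : ¬ ℓ ∣ N)
    (A : ValuationSubring Kbar) (hA : A.LiesOverPrime ℓ) :
    (Fermat.Agent.RED.H73.jF (L := Kbar) N)⁻¹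
      ∈ (redSetting A (hasScale_laurentBaseChange A N)).V :=
  inv_mem_of_red_ne_zero _ (jF_mem A N)
    (red_ne_zero_of_transcendental _ _ (goodChart_pre N ℓ hℓ hℓN A hA).1)

/-- **The chart `j` is good** for `ℓ ≥ 5`, `ℓ ∤ N`. -/
theorem goodChart_jF {ℓ : ℕ} (hℓ : ℓ.Prime) (hℓN : ¬ ℓ ∣ N) (h5 : 5 ≤ ℓ)
    (A : ValuationSubring Kbar) (hA : A.LiesOverPrime ℓ) :
    GoodChart (redSetting A (hasScale_laurentBaseChange A N))
      (Fermat.Agent.RED.H73.jF (L := Kbar) N) (jF_mem A N) := by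
  haveI : IsAlgClosed (kV A) := isAlgClosed_kV A
  obtain ⟨h1, h2, h3, h4, h5'⟩ := goodChart_pre N ℓ hℓ hℓN A hA
  exact goodChart_of _ (jF_mem A N) h1 h2 h3 h4 h5' (branch_distinct_jF N hℓ h5 A hA)

/-- **The chart `1/j` is good** for `ℓ ∤ N`. -/
theorem goodChart_jF_inv {ℓ : ℕ} (hℓ : ℓ.Prime) (hℓN : ¬ ℓ ∣ N)
    (A : ValuationSubring Kbar) (hA : A.LiesOverPrime ℓ) :
    GoodChart (redSetting A (hasScale_laurentBaseChange A N))
      (Fermat.Agent.RED.H73.jF (L := Kbar) N)⁻¹ (_root_.Fermat.Agent.RED.H76.jF_inv_mem N hℓ hℓN A hA) := by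
  haveI : IsAlgClosed (kV A) := isAlgClosed_kV A
  obtain ⟨h1, h2, h3, h4, h5'⟩ := goodChart_pre N ℓ hℓ hℓN A hA
  exact goodChart_inv_of _ (jF_mem A N) (_root_.Fermat.Agent.RED.H76.jF_inv_mem N hℓ hℓN A hA) h1 h2 h3 h4 h5'
    (branch_distinct_jF_inv N A)

/-- **DR for `ℓ ≥ 5`** (first case of `Stmt_DR2`): the Deuring reduction datum at every level
`N` prime to `ℓ`. -/
theorem hasDR_of_five_le {ℓ : ℕ} (hℓ : ℓ.Prime) (hℓN : ¬ ℓ ∣ N) (h5 : 5 ≤ ℓ)
    (A : ValuationSubring Kbar) (hA : A.LiesOverPrime ℓ) :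
    HasDR A (hasScale_laurentBaseChange A N) := by
  haveI : IsAlgClosed (kV A) := isAlgClosed_kV A
  exact hasDR_of_goodCharts A (hasScale_laurentBaseChange A N)
    (Fermat.Agent.RED.H95.isFF_FN N) (isFF_redField_bar N ℓ hℓ hℓN A hA)
    (Fermat.Agent.RED.H73.jF (L := Kbar) N) (jF_mem A N) (_root_.Fermat.Agent.RED.H76.jF_inv_mem N hℓ hℓN A hA)
    (goodChart_jF N hℓ hℓN h5 A hA) (goodChart_jF_inv N hℓ hℓN A hA)

end Modular

end Fermat.Agent.RED.H76

end
end
-- ==== END Fermat.Agent.RED.H76_GoodChartJ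

-- ==== BEGIN Fermat.Agent.S35.H44_CruxAlpha
section

/-!
# S35, leaf DESC-St (helper44): `F_{Nℓ} = F_N (j (q ^ (ℓ d)))` for `d ∣ N`

`ℓ` prime, `ℓ ∤ N`, `d ∣ N`, `F_N ⊂ F_{Nℓ}` (structure `α`).  The `ℓ + 1` embeddings
`sigmaK c ∘ ρ'` of `F_{Nℓ}` over `F_N` (helper95) take pairwise distinct values on
`β (j (q ^ d)) = j (q ^ (ℓ d))`, because `ρ' ∘ β = ρ ∘ α` and the `sigmaK c ∘ ρ` are separated by
`j (q ^ d)` (`S36.H44.sigmaK_rho_jdF_d_injective`).
-/

set_option autoImplicit false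
set_option linter.style.haveILetI false
set_option linter.unusedSectionVars false

noncomputable section

namespace Fermat.Agent.S35.H44

open Fermat.Agent.S24 ModularCurve Fermat.Agent.RED.H95 Matrix ModularGroup CongruenceSubgroup
  UpperHalfPlane
open scoped MatrixGroups

variable {N : ℕ} [NeZero N] {ℓ : ℕ} [NeZero ℓ]

attribute [local instance] algAlpha algPhiAlpha

/-- `β (j (q ^ d))`, `d ∣ N`, has degree `ℓ + 1` over `F_N ⊂ F_{Nℓ}`. -/
theorem natDegree_minpoly_alpha_jdF (hℓ : ℓ.Prime) (hN : ¬ ℓ ∣ N) (d : ℕ) [NeZero d]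
    (hd : d ∣ N) :
    (minpoly (FN N) (heckeBetaBar Kbar N ℓ (jdF N d hd))).natDegree = ℓ + 1 := by
  obtain ⟨u, v, h⟩ := exists_bezout hℓ hN
  haveI := finiteDimensional_alpha (N := N) (ℓ := ℓ) hℓ hN
  set y := heckeBetaBar Kbar N ℓ (jdF N d hd) with hy
  have hint : IsIntegral (FN N) y := Algebra.IsIntegral.isIntegral y
  apply le_antisymm
  · exact (minpoly.natDegree_le y).trans_eq (finrank_alpha hℓ hN)
  · classical
    let r : Option (Fin ℓ) → LN (N * ℓ) := fun c => sigmaK u v h c (rhoWK u v h y)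
    have hr : ∀ c, r c = sigmaK u v h c (rhoK hℓ (jdF (N * ℓ) d (dvd_mul_of_dvd_left hd ℓ))) := by
      intro c
      show sigmaK u v h c (rhoWK u v h y) = _
      rw [rhoWK_apply, hy, rhoW_beta hℓ, alpha_jdF, rhoK_apply]
    have hrinj : Function.Injective r := by
      intro c c' hcc
      apply Fermat.Agent.S36.H44.sigmaK_rho_jdF_d_injective hℓ hN u v h d hd
      show sigmaK u v h c (rhoK hℓ (jdF (N * ℓ) d (dvd_mul_of_dvd_left hd ℓ)))
        = sigmaK u v h c' (rhoK hℓ (jdF (N * ℓ) d (dvd_mul_of_dvd_left hd ℓ)))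
      rw [← hr c, ← hr c']
      exact hcc
    have hp0 : (minpoly (FN N) y).map (algebraMap (FN N) (LN (N * ℓ))) ≠ 0 :=
      Polynomial.map_ne_zero (minpoly.ne_zero hint)
    have hroot : ∀ c, r c ∈ ((minpoly (FN N) y).map (algebraMap (FN N) (LN (N * ℓ)))).roots := by
      intro c
      rw [Polynomial.mem_roots hp0, Polynomial.IsRoot.def, Polynomial.eval_map,
        ← Polynomial.aeval_def]
      show Polynomial.aeval (((sigmaK u v h c).comp (rhoWK u v h)) y) (minpoly (FN N) y) = 0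
      rw [Polynomial.aeval_algHom_apply, minpoly.aeval, map_zero]
    have hsub : (Finset.univ.image r).val
        ⊆ ((minpoly (FN N) y).map (algebraMap (FN N) (LN (N * ℓ)))).roots := by
      intro z hz
      rw [Finset.mem_val, Finset.mem_image] at hz
      obtain ⟨c, -, rfl⟩ := hz
      exact hroot c
    have hcard := Polynomial.card_le_degree_of_subset_roots hsub
    rw [Finset.card_image_of_injective _ hrinj, Finset.card_univ, Fintype.card_option,
      Fintype.card_fin, Polynomial.natDegree_map] at hcard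
    exact hcard

/-- `F_{Nℓ} = F_N (j (q ^ (ℓ d)))` for `d ∣ N`. -/
theorem adjoin_alpha_jdF (hℓ : ℓ.Prime) (hN : ¬ ℓ ∣ N) (d : ℕ) [NeZero d] (hd : d ∣ N) :
    IntermediateField.adjoin (FN N) {heckeBetaBar Kbar N ℓ (jdF N d hd)} = ⊤ := by
  haveI := finiteDimensional_alpha (N := N) (ℓ := ℓ) hℓ hN
  rw [Field.primitive_element_iff_minpoly_natDegree_eq, natDegree_minpoly_alpha_jdF hℓ hN d hd,
    finrank_alpha hℓ hN]

end Fermat.Agent.S35.H44

end
end
-- ==== END Fermat.Agent.S35.H44_CruxAlpha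

-- ==== BEGIN Fermat.Agent.S35.H89_StAbs
section

/-!
# S35 (helper89): the abstract Steinberg relation `(τ - 1)(τ - Q) = 0` on `q`-new classes

Setting: helper28's semistable Deuring datum `S` for `F / K` with both residue fields equal to
`E / k` (modular: `F = F_{Mq} ℚ̄`, `E` = the function field of `X₀(M)` over `k = 𝔽̄_q`,
`red₂ = red₁ ∘ w_q`), a Frobenius-like `τ` (modular: `τ = φ²`, `Q = q²`) inducing `φ̄²` on `E`,
and the laws of TOTAL conservation for the two degeneracy maps (helper79's `tot` for `α` and its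
`w_q`-mirror for `β`):

  `∑_{ρ P = z} ord_P f = ord_z ψ₁ + ord_{β z} ψ₂`,   `∑_{ρ' P = z} ord_P f = ord_z ψ₂ + ord_{β z} ψ₁`,

`ψ_i` the scaled reductions of `f`, with `ord_{β z} ψ = ord_z (φ̄ ψ)` (`β` = inverse Frobenius on
the points of `X₀(M)_k`).

If `n ∣ div f` and `f` is `q`-new (`ρ_* div f = n div h_α`, `ρ'_* div f = n div h_β`: the
push-forwards of `(1/n) div f` to level `M` are principal), then
`ψ₁ · φ̄ ψ₂ = a h_αⁿ`, `ψ₂ · φ̄ ψ₁ = a' h_βⁿ`, hence `φ̄² ψ_i / ψ_i` are `n`-th powers: the class of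
`τ f / f` lies in the toric part EXACTLY, and GLUE gives

  `τ² f · f^Q / (τ f)^(Q+1) ∈ (F^×)ⁿ`,   i.e.  `(τ - 1)(τ - Q) x = 0`.

No finiteness of `Pic⁰` over finite fields, no bounded loss.
-/

set_option autoImplicit false
set_option linter.style.haveILetI false
set_option maxHeartbeats 1000000

noncomputable section

open AlgebraicCurve

attribute [local instance] Classical.propDecidable

namespace Fermat.Agent.S35.H89

open Fermat.Agent.RED.H17 Fermat.Agent.RED Fermat.Agent.BAD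

section OneField

variable {k E : Type*} [Field k] [Field E] [Algebra k E]

/-- A function all of whose orders vanish is a non-zero constant. -/
theorem const_of_ord_eq_zero (HE : FFHyp k E) {w : E} (hw : w ≠ 0)
    (h : ∀ z : Place k E, z.ord w = 0) : ∃ a : k, a ≠ 0 ∧ w = algebraMap k E a := by
  obtain ⟨a, ha⟩ := HE.const_of_regular (f := w) (fun z => le_of_eq (h z).symm)
  refine ⟨a, ?_, ha⟩
  rintro rfl
  rw [map_zero] at ha
  exact hw ha

/-- Orders of the image under a semilinear automorphism. -/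
theorem ord_smul_eq (σ : SemilinearAut k E) (z : Place k E) (ψ : E) :
    z.ord (σ • ψ) = (σ⁻¹ • z).ord ψ := by
  have := SemilinearAut.ord_smul σ (σ⁻¹ • z) ψ
  rwa [smul_inv_smul] at this

theorem smul_ne_zero_of_ne_zero (σ : SemilinearAut k E) {ψ : E} (hψ : ψ ≠ 0) : σ • ψ ≠ 0 := by
  intro h0
  apply hψ
  have := congrArg (fun z => σ⁻¹ • z) h0
  simpa using this

end OneField

/-- **The abstract Steinberg relation.** -/
theorem st_abs (hG : Stmt_GlueFrobGen)
    {K F k E : Type} [Field K] [Field F] [Algebra K F] [Field k] [Field E] [Algebra k E]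
    [IsAlgClosed K] [IsAlgClosed k]
    (S : SSD K F k E E) (H : FFHyp K F) (HE : FFHyp k E)
    (g g₁ : ℕ) (c c₁ : ℤ) (hR : IsGenus K F g c) (hRE : IsGenus k E g₁ c₁)
    (hnum : g + 1 ≤ g₁ + g₁ + S.nodes.card)
    (n : ℕ) (hn : (n : k) ≠ 0)
    (τ : SemilinearAut K F) (φb : SemilinearAut k E) (τb : E →+* E)
    (hτb : ∀ ψ : E, τb ψ = φb • (φb • ψ)) (Q : ℕ)
    (hτ : S.IsFrobLike τ τb τb Q)
    (ρ ρ' : Place K F → Place k E) (β : Place k E → Place k E)
    (htot : ∀ (u₁ : S.c₁.V) (u₂ : S.c₂.V), S.c₁.red u₁ ≠ 0 → S.c₂.red u₂ ≠ 0 →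
      (∃ a : K, (u₂ : F) = algebraMap K F a * (u₁ : F)) →
      ∀ D : Divisor K F, (∀ P, D P = P.ord (u₁ : F)) → ∀ z : Place k E,
        Finsupp.mapDomain ρ D z = z.ord (S.c₁.red u₁) + (β z).ord (S.c₂.red u₂))
    (htot' : ∀ (u₁ : S.c₁.V) (u₂ : S.c₂.V), S.c₁.red u₁ ≠ 0 → S.c₂.red u₂ ≠ 0 →
      (∃ a : K, (u₂ : F) = algebraMap K F a * (u₁ : F)) →
      ∀ D : Divisor K F, (∀ P, D P = P.ord (u₁ : F)) → ∀ z : Place k E,
        Finsupp.mapDomain ρ' D z = z.ord (S.c₂.red u₂) + (β z).ord (S.c₁.red u₁))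
    (hβ : ∀ (z : Place k E) (ψ : E), (β z).ord ψ = z.ord (φb • ψ))
    (f : F) (hf : f ≠ 0) (hdiv : ∀ P : Place K F, (n : ℤ) ∣ P.ord f)
    (hnewα : ∃ hα : E, hα ≠ 0 ∧ ∀ D : Divisor K F, (∀ P, D P = P.ord f) →
      ∀ z : Place k E, Finsupp.mapDomain ρ D z = n * z.ord hα)
    (hnewβ : ∃ hβ : E, hβ ≠ 0 ∧ ∀ D : Divisor K F, (∀ P, D P = P.ord f) →
      ∀ z : Place k E, Finsupp.mapDomain ρ' D z = n * z.ord hβ) :
    ∃ t : F, t ^ n = (τ • (τ • f)) * f ^ Q / (τ • f) ^ (Q + 1) := by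
  have hn0 : n ≠ 0 := by
    rintro rfl
    exact hn Nat.cast_zero
  have hnpos : 0 < n := Nat.pos_of_ne_zero hn0
  -- scaling of `f` for the two valuations
  obtain ⟨a₁, ha₁, hm₁, hψ₁⟩ := S.c₁.exists_scale f hf
  obtain ⟨a₂, ha₂, hm₂, hψ₂⟩ := S.c₂.exists_scale f hf
  set ψ₁ : E := S.c₁.red ⟨_, hm₁⟩ with hψ₁def
  set ψ₂ : E := S.c₂.red ⟨_, hm₂⟩ with hψ₂def
  have hA₁ : algebraMap K F a₁ ≠ 0 := fun h0 => ha₁ ((map_eq_zero (algebraMap K F)).mp h0)
  have hA₂ : algebraMap K F a₂ ≠ 0 := fun h0 => ha₂ ((map_eq_zero (algebraMap K F)).mp h0)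
  have hrel : ∃ a : K, algebraMap K F a₂ * f = algebraMap K F a * (algebraMap K F a₁ * f) := by
    refine ⟨a₂ / a₁, ?_⟩
    rw [map_div₀]
    field_simp
  have hordu : ∀ P : Place K F, P.ord (algebraMap K F a₁ * f) = P.ord f := by
    intro P
    rw [P.ord_mul hA₁ hf, ord_algebraMap, zero_add]
  obtain ⟨hα, hα0, hαD⟩ := hnewα
  obtain ⟨hβ', hβ0, hβD⟩ := hnewβ
  -- the two norm relations
  have hN₁ : ∀ z : Place k E, z.ord (ψ₁ * (φb • ψ₂) / hα ^ n) = 0 := by
    intro z
    have h1 := htot ⟨_, hm₁⟩ ⟨_, hm₂⟩ hψ₁ hψ₂ hrel (dv H.principal f)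
      (fun P => by rw [dv_apply]; exact (hordu P).symm) z
    have h2 := hαD (dv H.principal f) (fun P => dv_apply H.principal f P) z
    rw [h2, hβ] at h1
    rw [ord_div z (mul_ne_zero hψ₁ (smul_ne_zero_of_ne_zero φb hψ₂)) (pow_ne_zero _ hα0),
      z.ord_mul hψ₁ (smul_ne_zero_of_ne_zero φb hψ₂), ord_pow]
    change (n : ℤ) * z.ord hα = z.ord ψ₁ + z.ord (φb • ψ₂) at h1
    omega
  have hN₂ : ∀ z : Place k E, z.ord (ψ₂ * (φb • ψ₁) / hβ' ^ n) = 0 := by
    intro z
    have h1 := htot' ⟨_, hm₁⟩ ⟨_, hm₂⟩ hψ₁ hψ₂ hrel (dv H.principal f)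
      (fun P => by rw [dv_apply]; exact (hordu P).symm) z
    have h2 := hβD (dv H.principal f) (fun P => dv_apply H.principal f P) z
    rw [h2, hβ] at h1
    rw [ord_div z (mul_ne_zero hψ₂ (smul_ne_zero_of_ne_zero φb hψ₁)) (pow_ne_zero _ hβ0),
      z.ord_mul hψ₂ (smul_ne_zero_of_ne_zero φb hψ₁), ord_pow]
    change (n : ℤ) * z.ord hβ' = z.ord ψ₂ + z.ord (φb • ψ₁) at h1
    omega
  have hφψ₁ : φb • ψ₁ ≠ 0 := smul_ne_zero_of_ne_zero φb hψ₁
  have hφψ₂ : φb • ψ₂ ≠ 0 := smul_ne_zero_of_ne_zero φb hψ₂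
  obtain ⟨b₁, hb₁0, hb₁⟩ := const_of_ord_eq_zero HE
    (div_ne_zero (mul_ne_zero hψ₁ hφψ₂) (pow_ne_zero _ hα0)) hN₁
  obtain ⟨b₂, hb₂0, hb₂⟩ := const_of_ord_eq_zero HE
    (div_ne_zero (mul_ne_zero hψ₂ hφψ₁) (pow_ne_zero _ hβ0)) hN₂
  -- `ψ₁ φ̄ψ₂ = b₁ hαⁿ`, `ψ₂ φ̄ψ₁ = b₂ hβⁿ`
  have e₁ : ψ₁ * (φb • ψ₂) = algebraMap k E b₁ * hα ^ n := by
    rw [← hb₁]
    field_simp
  have e₂ : ψ₂ * (φb • ψ₁) = algebraMap k E b₂ * hβ' ^ n := by
    rw [← hb₂]
    field_simp
  -- apply `φ̄`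
  have e₁' : (φb • ψ₁) * (φb • (φb • ψ₂)) =
      algebraMap k E (SemilinearAut.baseAut φb b₁) * (φb • hα) ^ n := by
    have := congrArg (fun w => φb • w) e₁
    simp only [smul_mul', smul_pow', SemilinearAut.smul_algebraMap] at this
    exact this
  have e₂' : (φb • ψ₂) * (φb • (φb • ψ₁)) =
      algebraMap k E (SemilinearAut.baseAut φb b₂) * (φb • hβ') ^ n := by
    have := congrArg (fun w => φb • w) e₂
    simp only [smul_mul', smul_pow', SemilinearAut.smul_algebraMap] at this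
    exact this
  have hB₁ : algebraMap k E b₁ ≠ 0 := fun h0 => hb₁0 ((map_eq_zero (algebraMap k E)).mp h0)
  have hB₂ : algebraMap k E b₂ ≠ 0 := fun h0 => hb₂0 ((map_eq_zero (algebraMap k E)).mp h0)
  have hφα0 : φb • hα ≠ 0 := smul_ne_zero_of_ne_zero φb hα0
  have hφβ0 : φb • hβ' ≠ 0 := smul_ne_zero_of_ne_zero φb hβ0
  -- `n`-th roots of the constants
  obtain ⟨d₁, hd₁⟩ := IsAlgClosed.exists_pow_nat_eq (SemilinearAut.baseAut φb b₂ / b₁) hnpos
  obtain ⟨d₂, hd₂⟩ := IsAlgClosed.exists_pow_nat_eq (SemilinearAut.baseAut φb b₁ / b₂) hnpos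
  have hD₁ : algebraMap k E d₁ ^ n =
      algebraMap k E (SemilinearAut.baseAut φb b₂) / algebraMap k E b₁ := by
    rw [← map_pow, hd₁, map_div₀]
  have hD₂ : algebraMap k E d₂ ^ n =
      algebraMap k E (SemilinearAut.baseAut φb b₁) / algebraMap k E b₂ := by
    rw [← map_pow, hd₂, map_div₀]
  -- the reductions of `τ u_i / u_i` are `n`-th powers
  have hpow₁ : τb ψ₁ / ψ₁ = (algebraMap k E d₁ * (φb • hβ') / hα) ^ n := by
    rw [hτb, div_pow, mul_pow, hD₁]
    have hx : (φb • (φb • ψ₁)) * (φb • ψ₂) * (algebraMap k E b₁ * hα ^ n) =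
        (algebraMap k E (SemilinearAut.baseAut φb b₂) * (φb • hβ') ^ n) *
          (ψ₁ * (φb • ψ₂)) := by
      rw [← e₂', ← e₁]
      ring
    have hαn : hα ^ n ≠ 0 := pow_ne_zero _ hα0
    rw [div_eq_div_iff hψ₁ hαn]
    have hx' := mul_right_cancel₀ hφψ₂ (by
      linear_combination (exp := 1) hx :
        (φb • (φb • ψ₁)) * (algebraMap k E b₁ * hα ^ n) * (φb • ψ₂) =
          (algebraMap k E (SemilinearAut.baseAut φb b₂) * (φb • hβ') ^ n) * ψ₁ * (φb • ψ₂))
    field_simp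
    linear_combination hx'
  have hpow₂ : τb ψ₂ / ψ₂ = (algebraMap k E d₂ * (φb • hα) / hβ') ^ n := by
    rw [hτb, div_pow, mul_pow, hD₂]
    have hx : (φb • (φb • ψ₂)) * (φb • ψ₁) * (algebraMap k E b₂ * hβ' ^ n) =
        (algebraMap k E (SemilinearAut.baseAut φb b₁) * (φb • hα) ^ n) *
          (ψ₂ * (φb • ψ₁)) := by
      rw [← e₁', ← e₂]
      ring
    have hβn : hβ' ^ n ≠ 0 := pow_ne_zero _ hβ0
    rw [div_eq_div_iff hψ₂ hβn]
    have hx' := mul_right_cancel₀ hφψ₁ (by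
      linear_combination (exp := 1) hx :
        (φb • (φb • ψ₂)) * (algebraMap k E b₂ * hβ' ^ n) * (φb • ψ₁) =
          (algebraMap k E (SemilinearAut.baseAut φb b₁) * (φb • hα) ^ n) * ψ₂ * (φb • ψ₁))
    field_simp
    linear_combination hx'
  -- the function `gg = τ f / f`
  have hτf0 : τ • f ≠ 0 := smul_ne_zero_of_ne_zero τ hf
  set gg : F := (τ • f) / f with hgg
  have hGU₁ : S.c₁.IsGU (algebraMap K F a₁ * f) := ⟨hm₁, by rw [S.c₁.rd_of_mem hm₁]; exact hψ₁⟩
  have hGU₂ : S.c₂.IsGU (algebraMap K F a₂ * f) := ⟨hm₂, by rw [S.c₂.rd_of_mem hm₂]; exact hψ₂⟩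
  have hτGU₁ : S.c₁.IsGU (τ • (algebraMap K F a₁ * f)) ∧
      S.c₁.rd (τ • (algebraMap K F a₁ * f)) = τb ψ₁ := by
    have hm := hτ.mem₁ _ hm₁
    have hr : S.c₁.rd (τ • (algebraMap K F a₁ * f)) = τb ψ₁ := by
      rw [S.c₁.rd_of_mem hm, hτ.red₁ _ hm₁ hm]
    exact ⟨⟨hm, by rw [hr]; exact (map_ne_zero τb).mpr hψ₁⟩, hr⟩
  have hτGU₂ : S.c₂.IsGU (τ • (algebraMap K F a₂ * f)) ∧
      S.c₂.rd (τ • (algebraMap K F a₂ * f)) = τb ψ₂ := by
    have hm := hτ.mem₂ _ hm₂
    have hr : S.c₂.rd (τ • (algebraMap K F a₂ * f)) = τb ψ₂ := by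
      rw [S.c₂.rd_of_mem hm, hτ.red₂ _ hm₂ hm]
    exact ⟨⟨hm, by rw [hr]; exact (map_ne_zero τb).mpr hψ₂⟩, hr⟩
  have hsc₁ : algebraMap K F (SemilinearAut.baseAut τ a₁ / a₁) * gg =
      (τ • (algebraMap K F a₁ * f)) / (algebraMap K F a₁ * f) := by
    rw [hgg, smul_mul', SemilinearAut.smul_algebraMap, map_div₀]
    field_simp
  have hsc₂ : algebraMap K F (SemilinearAut.baseAut τ a₂ / a₂) * gg =
      (τ • (algebraMap K F a₂ * f)) / (algebraMap K F a₂ * f) := by
    rw [hgg, smul_mul', SemilinearAut.smul_algebraMap, map_div₀]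
    field_simp
  have hgm₁ : algebraMap K F (SemilinearAut.baseAut τ a₁ / a₁) * gg ∈ S.c₁.V := by
    rw [hsc₁]; exact (hτGU₁.1.div hGU₁).1
  have hgm₂ : algebraMap K F (SemilinearAut.baseAut τ a₂ / a₂) * gg ∈ S.c₂.V := by
    rw [hsc₂]; exact (hτGU₂.1.div hGU₂).1
  have hgr₁ : S.c₁.rd (algebraMap K F (SemilinearAut.baseAut τ a₁ / a₁) * gg) =
      (algebraMap k E d₁ * (φb • hβ') / hα) ^ n := by
    rw [hsc₁, hτGU₁.1.rd_div hGU₁, hτGU₁.2, S.c₁.rd_of_mem hm₁, hpow₁]
  have hgr₂ : S.c₂.rd (algebraMap K F (SemilinearAut.baseAut τ a₂ / a₂) * gg) =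
      (algebraMap k E d₂ * (φb • hα) / hβ') ^ n := by
    rw [hsc₂, hτGU₂.1.rd_div hGU₂, hτGU₂.2, S.c₂.rd_of_mem hm₂, hpow₂]
  have hd₁0 : d₁ ≠ 0 := by
    rintro rfl
    rw [zero_pow hn0] at hd₁
    exact div_ne_zero ((map_ne_zero _).mpr hb₂0) hb₁0 hd₁.symm
  have hd₂0 : d₂ ≠ 0 := by
    rintro rfl
    rw [zero_pow hn0] at hd₂
    exact div_ne_zero ((map_ne_zero _).mpr hb₁0) hb₂0 hd₂.symm
  have hh₁0 : algebraMap k E d₁ * (φb • hβ') / hα ≠ 0 :=
    div_ne_zero (mul_ne_zero (fun h0 => hd₁0 ((map_eq_zero (algebraMap k E)).mp h0)) hφβ0) hα0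
  have hh₂0 : algebraMap k E d₂ * (φb • hα) / hβ' ≠ 0 :=
    div_ne_zero (mul_ne_zero (fun h0 => hd₂0 ((map_eq_zero (algebraMap k E)).mp h0)) hφα0) hβ0
  have hdivg : ∀ P : Place K F, (n : ℤ) ∣ P.ord gg := by
    intro P
    have h1 : P.ord (τ • f) = (τ⁻¹ • P).ord f := by
      have := SemilinearAut.ord_smul τ (τ⁻¹ • P) f
      rwa [smul_inv_smul] at this
    rw [hgg, ord_div P hτf0 hf, h1]
    exact dvd_sub (hdiv _) (hdiv P)
  obtain ⟨t, ht⟩ := hG K F k E E S H HE HE g g₁ g₁ c c₁ c₁ hR hRE hRE hnum n hn τ τb τb Q hτ gg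
    _ _ _ _ hh₁0 hh₂0 hgm₁ hgr₁ hgm₂ hgr₂ hdivg
  refine ⟨t, ?_⟩
  have h1 : f ^ Q ≠ 0 := pow_ne_zero _ hf
  have h2 : (τ • f) ^ Q ≠ 0 := pow_ne_zero _ hτf0
  have h3 : τ • gg = (τ • (τ • f)) / (τ • f) := by
    rw [hgg]
    exact map_div₀ (SemilinearAut.toRingAut τ) _ _
  rw [ht, h3, hgg, div_pow, pow_succ]
  field_simp

end Fermat.Agent.S35.H89

end
end
-- ==== END Fermat.Agent.S35.H89_StAbs

-- ==== BEGIN Fermat.Agent.S35.H89_TotFrob
section

/-!
# S35 (helper89), package SIGMA, abstract part: Frobenius-like automorphisms of a total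
conservation datum

`T : TotData K L k E E` (both residue fields are `E`; modular: `E = F1`, `red₂ = red₁ ∘ w_q`).

* `TotFrob T τ τb Q` : `τ` preserves the two valuation rings, induces `τb` on the reductions,
  fixes `ρ` on the fibres of the nodes, and `τb` raises the values at the two branches of every
  node to the `Q`-th power.
* `TotFrob.isFrobLike` : then `τ` is Frobenius-like (helper28's `SSD.IsFrobLike`) for
  `T.toSSD`.
* `totFrob_of` : the conditions at the nodes from `ord_{β z} ψ = ord_z (φ̄ ψ)`, `τb = φ̄²`,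
  `ρ (τ⁻¹ P) = β (β (ρ P))` and **(Σ-fix)** `β (β z) = z` for every node `z`.
* `sigma_fix_of_sep` : **(Σ-fix)** at a node `z` from a test function `f ∈ R_z` with
  `rd₁ f = Fr x`, `rd₂ f = x` (modular: `f = β_q^* h`, `h` of level `M`), where
  `ord_{β z} (Fr g) = q · ord_z g`, and `x` separates `β⁻¹ z` from `β z`.
-/

set_option autoImplicit false
set_option linter.style.haveILetI false

noncomputable section

open AlgebraicCurve

attribute [local instance] Classical.propDecidable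

namespace Fermat.Agent.S35.H89

open Fermat.Agent.RED.H17 Fermat.Agent.RED Fermat.Agent.BAD Fermat.Agent.BAD.H79

variable {K L k E : Type*} [Field K] [Field L] [Algebra K L] [Field k] [Field E]
  [Algebra k E]

/-- `τ` is Frobenius-like of exponent `Q` for the total conservation datum `T`. -/
structure TotFrob (T : TotData K L k E E) (τ : SemilinearAut K L) (τb : E →+* E) (Q : ℕ) :
    Prop where
  mem₁ : ∀ f : L, f ∈ T.b₁.V → τ • f ∈ T.b₁.V
  mem₂ : ∀ f : L, f ∈ T.b₂.V → τ • f ∈ T.b₂.V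
  red₁ : ∀ (f : L) (h : f ∈ T.b₁.V) (h' : τ • f ∈ T.b₁.V),
    T.b₁.red ⟨_, h'⟩ = τb (T.b₁.red ⟨f, h⟩)
  red₂ : ∀ (f : L) (h : f ∈ T.b₂.V) (h' : τ • f ∈ T.b₂.V),
    T.b₂.red ⟨_, h'⟩ = τb (T.b₂.red ⟨f, h⟩)
  ρ_node : ∀ P : Place K L, T.IsNode (T.ρ P) → T.ρ (τ⁻¹ • P) = T.ρ P
  val₁ : ∀ z : Place k E, T.IsNode z → ∀ (ψ : E) (a : k), VanAt z (ψ - algebraMap k E a) →
    VanAt z (τb ψ - algebraMap k E (a ^ Q))
  val₂ : ∀ z : Place k E, T.IsNode z → ∀ (ψ : E) (a : k),
    VanAt (T.β z) (ψ - algebraMap k E a) → VanAt (T.β z) (τb ψ - algebraMap k E (a ^ Q))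

/-- **A Frobenius-like automorphism of the total conservation datum is Frobenius-like for the
semistable Deuring datum.** -/
theorem TotFrob.isFrobLike [Infinite k] [IsAlgClosed K] {T : TotData K L k E E}
    {τ : SemilinearAut K L} {τb : E →+* E} {Q : ℕ} (h : TotFrob T τ τb Q)
    (hP : HasPrincipalDivisors K L) (hd : ∀ v : Place K L, v.deg = 1)
    (hP₁ : HasPrincipalDivisors k E) (hd₁ : ∀ v : Place k E, v.deg = 1)
    (hne : ∃ z, T.IsNode z) :
    (T.toSSD hP hd hP₁ hd₁ hd₁ hne).IsFrobLike τ τb τb Q where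
  mem₁ := h.mem₁
  mem₂ := h.mem₂
  red₁ := h.red₁
  red₂ := h.red₂
  node := by
    rintro P ⟨s, hs, hr⟩
    rw [TotData.toSSD_nodes, TotData.mem_nodes] at hs
    rw [TotData.toSSD_c₁_r, TotData.r₁_eq_some_iff] at hr
    have hz : T.IsNode (T.ρ P) := by rw [hr.1]; exact hs.1
    have e := h.ρ_node P hz
    have hz' : T.IsNode (T.ρ (τ⁻¹ • P)) := by rw [e]; exact hz
    refine ⟨s, (by rw [TotData.toSSD_nodes, TotData.mem_nodes]; exact hs), ?_⟩
    rw [TotData.toSSD_c₁_r, TotData.r₁_eq_some_iff]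
    exact ⟨e.trans hr.1, TotData.IsNode.onSide₁ hP hz'⟩
  val₁ := by
    intro s hs ψ a hv
    rw [TotData.toSSD_nodes, TotData.mem_nodes] at hs
    exact h.val₁ s.1 hs.1 ψ a hv
  val₂ := by
    intro s hs ψ a hv
    rw [TotData.toSSD_nodes, TotData.mem_nodes] at hs
    rw [hs.2] at hv ⊢
    exact h.val₂ s.1 hs.1 ψ a hv

section Val

variable (φb : SemilinearAut k E)

/-- `VanAt` is transported by a semilinear automorphism with `ord_{b z} ψ = ord_z (φ̄ ψ)`. -/
theorem vanAt_smul_of_ord (b : Place k E → Place k E)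
    (hb : ∀ (z : Place k E) (ψ : E), (b z).ord ψ = z.ord (φb • ψ)) (z : Place k E) (ψ : E) :
    VanAt z (φb • ψ) ↔ VanAt (b z) ψ := by
  rw [vanAt_iff_ord, vanAt_iff_ord, hb, H79.smul_eq_zero_iff']

end Val

/-- **The conditions at the nodes** from `(Σ-fix)`. -/
theorem totFrob_of {T : TotData K L k E E} {τ : SemilinearAut K L} (φb : SemilinearAut k E)
    {τb : E →+* E} (hτb : ∀ ψ : E, τb ψ = φb • (φb • ψ)) {q : ℕ}
    (hbase : ∀ a : k, φb • algebraMap k E a = algebraMap k E (a ^ q))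
    (hβ : ∀ (z : Place k E) (ψ : E), (T.β z).ord ψ = z.ord (φb • ψ))
    (hfix : ∀ z : Place k E, T.IsNode z → T.β (T.β z) = z)
    (hρ : ∀ P : Place K L, T.ρ (τ⁻¹ • P) = T.β (T.β (T.ρ P)))
    (mem₁ : ∀ f : L, f ∈ T.b₁.V → τ • f ∈ T.b₁.V)
    (mem₂ : ∀ f : L, f ∈ T.b₂.V → τ • f ∈ T.b₂.V)
    (red₁ : ∀ (f : L) (h : f ∈ T.b₁.V) (h' : τ • f ∈ T.b₁.V),
      T.b₁.red ⟨_, h'⟩ = τb (T.b₁.red ⟨f, h⟩))
    (red₂ : ∀ (f : L) (h : f ∈ T.b₂.V) (h' : τ • f ∈ T.b₂.V),
      T.b₂.red ⟨_, h'⟩ = τb (T.b₂.red ⟨f, h⟩)) :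
    TotFrob T τ τb (q ^ 2) := by
  have key : ∀ (w : Place k E), T.β (T.β w) = w → ∀ (ψ : E) (a : k),
      VanAt w (ψ - algebraMap k E a) → VanAt w (τb ψ - algebraMap k E (a ^ q ^ 2)) := by
    intro w hw ψ a hv
    have e : τb ψ - algebraMap k E (a ^ q ^ 2) = φb • (φb • (ψ - algebraMap k E a)) := by
      rw [hτb, smul_sub, smul_sub, hbase, hbase, ← pow_mul, pow_two]
    rw [e, vanAt_smul_of_ord φb (fun z => T.β z) hβ, vanAt_smul_of_ord φb (fun z => T.β z) hβ,
      hw]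
    exact hv
  refine ⟨mem₁, mem₂, red₁, red₂, fun P hz => ?_, fun z hz => key z (hfix z hz),
    fun z hz => key (T.β z) ?_⟩
  · rw [hρ, hfix _ hz]
  · rw [hfix z hz]

/-- **(Σ-fix), abstract form**: a node `z` is fixed by `β²` if there is a test function
`f ∈ R_z` with `rd₁ f = Fr x`, `rd₂ f = x` such that `x` separates `β⁻¹ z` and `β z`. -/
theorem sigma_fix_of_sep (T : TotData K L k E E) (Fr : E →ₐ[k] E) {q : ℕ} (hq : 0 < q)
    (hFr : ∀ (z : Place k E) (g : E), (T.β z).ord (Fr g) = q * z.ord g)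
    {z : Place k E} (hz : T.IsNode z)
    (hsep : T.β.symm z ≠ T.β z → ∃ (f : L) (x : E) (a : k), T.InR z f ∧ T.p₁.rd f = Fr x ∧
      T.p₂.rd f = x ∧ VanAt (T.β.symm z) (x - algebraMap k E a) ∧
      ¬ VanAt (T.β z) (x - algebraMap k E a)) :
    T.β (T.β z) = z := by
  by_contra hne
  have hne' : T.β.symm z ≠ T.β z := by
    intro h
    apply hne
    rw [← h, Equiv.apply_symm_apply]
  obtain ⟨f, x, a, hf, h1, h2, hv, hnv⟩ := hsep hne'
  apply hnv
  have hnode := hz f hf a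
  rw [h1, h2] at hnode
  refine hnode.mp ?_
  have e : Fr x - algebraMap k E a = Fr (x - algebraMap k E a) := by
    rw [map_sub, AlgHom.commutes]
  rw [e, vanAt_iff_ord]
  rw [vanAt_iff_ord] at hv
  rcases hv with h0 | hpos
  · left
    rw [h0, map_zero]
  · right
    have h3 := hFr (T.β.symm z) (x - algebraMap k E a)
    rw [Equiv.apply_symm_apply] at h3
    rw [h3]
    positivity

end Fermat.Agent.S35.H89

end
end
-- ==== END Fermat.Agent.S35.H89_TotFrob

-- ==== BEGIN Fermat.Agent.S36.H44_BetaNorm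
section
attribute [local instance 10000] SubalgebraClass.toAlgebra
attribute [local instance 10000] HahnSeries.powerSeriesAlgebra

/-!
# S35 / S36, T-X (route Y), helper44: `β_*` commutes with the norm functions of `T_ℓ`

`ℓ` prime, `ℓ ∤ M q`, `β_q : F_M → F_{Mq}`, `f (q) ↦ f (q ^ q)`.  For `f ∈ F_{Mq}`:
`N_{β_q} (n_ℓ^{(Mq)} f) = n_ℓ^{(M)} (N_{β_q} f)`.

Base change of the norm in the square `β_q : F_M → F_{Mq}`, `β_q : F_{Mℓ} → F_{Mqℓ}`,
`β_ℓ : F_M → F_{Mℓ}`, `β_ℓ : F_{Mq} → F_{Mqℓ}`, with generator `j` of `F_{Mq} / β_q F_M`;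
`β_ℓ j = j (q ^ ℓ)` generates `F_{Mqℓ}` over `β_q F_{Mℓ}` by the CRUX
`F_{Mqℓ} = β_ℓ (F_{Mq}) (j (q ^ q))` (`adjoin_beta_jdF`).
-/

set_option autoImplicit false
set_option linter.style.haveILetI false
set_option linter.unusedSectionVars false

noncomputable section

namespace Fermat.Agent.S36.H44

open AlgebraicCurve ModularCurve Fermat.Agent.S24 Fermat.Agent.Lib.HeckeComm
  Fermat.Agent.GTor Fermat.Agent.GTor.H2

local notation "Kb" => AlgebraicClosure ℚ

section Generic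

variable {K F F' : Type*} [Field K] [Field F] [Field F'] [Algebra K F] [Algebra K F']

/-- Generation over `F` implies generation over `K` together with the image of `F`. -/
theorem adjoin_range_union_eq_top (φ : F →ₐ[K] F') (S : Set F')
    (h : letI := φ.toRingHom.toAlgebra; IntermediateField.adjoin F S = ⊤) :
    IntermediateField.adjoin K (Set.range φ ∪ S) = ⊤ := by
  letI := φ.toRingHom.toAlgebra
  let B : IntermediateField F F' :=
    { (IntermediateField.adjoin K (Set.range φ ∪ S)).toSubfield with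
      algebraMap_mem' := fun x =>
        IntermediateField.subset_adjoin K _ (Or.inl ⟨x, rfl⟩) }
  have hB : IntermediateField.adjoin F S ≤ B := by
    rw [IntermediateField.adjoin_le_iff]
    intro s hs
    exact IntermediateField.subset_adjoin K _ (Or.inr hs)
  rw [eq_top_iff]
  intro x _
  have hx : x ∈ IntermediateField.adjoin F S := by
    rw [h]; exact IntermediateField.mem_top
  exact hB hx

/-- Generation over `K` together with the image of `F` implies generation over `F`. -/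
theorem adjoin_eq_top_of_range_union (φ : F →ₐ[K] F') (S : Set F')
    (h : IntermediateField.adjoin K (Set.range φ ∪ S) = ⊤) :
    letI := φ.toRingHom.toAlgebra
    IntermediateField.adjoin F S = ⊤ := by
  letI := φ.toRingHom.toAlgebra
  let D : IntermediateField K F' :=
    { (IntermediateField.adjoin F S).toSubfield with
      algebraMap_mem' := fun c => by
        have hc : algebraMap K F' c = algebraMap F F' (algebraMap K F c) := (φ.commutes c).symm
        rw [hc]
        exact (IntermediateField.adjoin F S).algebraMap_mem _ }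
  have hD : IntermediateField.adjoin K (Set.range φ ∪ S) ≤ D := by
    rw [IntermediateField.adjoin_le_iff]
    rintro y (⟨x, rfl⟩ | hy)
    · exact (IntermediateField.adjoin F S).algebraMap_mem x
    · exact IntermediateField.subset_adjoin F S hy
  rw [eq_top_iff]
  intro x _
  have hx : x ∈ IntermediateField.adjoin K (Set.range φ ∪ S) := by
    rw [h]; exact IntermediateField.mem_top
  exact hD hx

/-- The image of a field generated by `T` lies in an intermediate field as soon as the image of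
`T` does. -/
theorem range_subset_of_gens {F₁ : Type*} [Field F₁] [Algebra K F₁] (ψ : F₁ →ₐ[K] F')
    (T : Set F₁) (hT : IntermediateField.adjoin K T = ⊤) (A : IntermediateField K F')
    (h : ∀ t ∈ T, ψ t ∈ A) (x : F₁) : ψ x ∈ A := by
  have hM : IntermediateField.comap ψ A = ⊤ := by
    rw [eq_top_iff, ← hT, IntermediateField.adjoin_le_iff]
    intro t ht
    exact h t ht
  have : x ∈ IntermediateField.comap ψ A := by
    rw [hM]; exact IntermediateField.mem_top
  exact this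

end Generic

variable (M q ℓ : ℕ) [NeZero M] [NeZero q] [NeZero ℓ]

theorem dvd_lift' : M * ℓ * q ∣ M * q * ℓ := ⟨1, by ring⟩

/-- `β_q : F_{Mℓ} → F_{Mqℓ}`, `g (q) ↦ g (q ^ q)`. -/
def betaLift : FN (M * ℓ) →ₐ[Kb] FN (M * q * ℓ) :=
  (inclFN (M * ℓ * q) (M * q * ℓ) (dvd_lift' M q ℓ)).comp (heckeBetaBar Kb (M * ℓ) q)

theorem coe_betaLift (x : FN (M * ℓ)) :
    (betaLift M q ℓ x : LaurentSeries Kb) = qExpand Kb q (x : LaurentSeries Kb) := by
  rw [betaLift, AlgHom.comp_apply, coe_inclFN, coe_heckeBetaBar]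

theorem beta_square :
    (heckeAlphaBar Kb (M * q) ℓ).toRingHom.comp (heckeBetaBar Kb M q).toRingHom
      = (betaLift M q ℓ).toRingHom.comp (heckeAlphaBar Kb M ℓ).toRingHom := by
  ext x
  simp only [RingHom.comp_apply, AlgHom.toRingHom_eq_coe, RingHom.coe_coe, coe_heckeAlphaBar,
    coe_betaLift, coe_heckeBetaBar]

theorem beta_square_beta (x : FN M) :
    (heckeBetaBar Kb (M * q) ℓ).toRingHom ((heckeBetaBar Kb M q).toRingHom x)
      = (betaLift M q ℓ).toRingHom ((heckeBetaBar Kb M ℓ).toRingHom x) := by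
  apply Subtype.ext
  simp only [AlgHom.toRingHom_eq_coe, RingHom.coe_coe, coe_heckeBetaBar, coe_betaLift]
  exact qExpand_comm ℓ q _

theorem betaLift_finite : letI := (betaLift M q ℓ).toRingHom.toAlgebra
    Module.Finite (FN (M * ℓ)) (FN (M * q * ℓ)) :=
  (Fermat.Agent.RED.H51.stmt_FFB_finite Kb _ _ (isFF_FN (M * ℓ)) (isFF_FN (M * q * ℓ))
    (betaLift M q ℓ)).2

theorem betaLift_finrank (hℓ : ℓ.Prime) (hℓM : ¬ ℓ ∣ M * q) :
    finrankHom (heckeBetaBar Kb M q).toRingHom = finrankHom (betaLift M q ℓ).toRingHom := by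
  have hℓM' : ¬ ℓ ∣ M := fun h => hℓM (dvd_mul_of_dvd_left h q)
  exact finrank_eq_of_square _ _ _ _ (beta_square M q ℓ) (ℓ + 1) (Nat.succ_ne_zero ℓ)
    ((finrankHom_eq_finrankAlong _).trans (Fermat.Agent.RED.H95.finrankAlong_alpha hℓ hℓM'))
    ((finrankHom_eq_finrankAlong _).trans (Fermat.Agent.RED.H95.finrankAlong_alpha hℓ hℓM))

/-- `β_q (j (q ^ M)) = j (q ^ (M q))`. -/
theorem beta_jdF_top' :
    heckeBetaBar Kb M q (jdF M M dvd_rfl) = jdF (M * q) (M * q) dvd_rfl := by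
  rw [Fermat.Agent.RED.H95.beta_jdF]
  exact jdF_congr _ _ _ _ _ (mul_comm _ _)

/-- `j` generates `F_{Mq}` over `β_q (F_M)`. -/
theorem adjoin_beta_jF : letI := (heckeBetaBar Kb M q).toRingHom.toAlgebra
    IntermediateField.adjoin (FN M) {jF (M * q)} = ⊤ := by
  apply adjoin_eq_top_of_range_union
  rw [eq_top_iff, ← H44.adjoin_jF_jdF (M * q), IntermediateField.adjoin_le_iff]
  rintro y (rfl | rfl)
  · exact IntermediateField.subset_adjoin Kb _ (Or.inr rfl)
  · exact IntermediateField.subset_adjoin Kb _ (Or.inl ⟨jdF M M dvd_rfl, beta_jdF_top' M q⟩)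

/-- `β_ℓ j = j (q ^ ℓ)` generates `F_{Mqℓ}` over `β_q (F_{Mℓ})`. -/
theorem adjoin_betaLift (hℓ : ℓ.Prime) (hℓM : ¬ ℓ ∣ M * q) :
    letI := (betaLift M q ℓ).toRingHom.toAlgebra
    IntermediateField.adjoin (FN (M * ℓ)) {(heckeBetaBar Kb (M * q) ℓ).toRingHom (jF (M * q))}
      = ⊤ := by
  apply adjoin_eq_top_of_range_union
  have hcrux := adjoin_range_union_eq_top (heckeBetaBar Kb (M * q) ℓ)
    {jdF (M * q * ℓ) q (dvd_mul_of_dvd_left (dvd_mul_left q M) ℓ)}
    (adjoin_beta_jdF (N := M * q) hℓ hℓM q (dvd_mul_left q M))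
  rw [eq_top_iff, ← hcrux, IntermediateField.adjoin_le_iff]
  set A : IntermediateField Kb (FN (M * q * ℓ)) := IntermediateField.adjoin Kb
    (Set.range (betaLift M q ℓ) ∪ {(heckeBetaBar Kb (M * q) ℓ).toRingHom (jF (M * q))}) with hA
  have hrange : ∀ x : FN (M * ℓ), betaLift M q ℓ x ∈ A := fun x =>
    IntermediateField.subset_adjoin Kb _ (Or.inl ⟨x, rfl⟩)
  rintro y (⟨x, rfl⟩ | hy)
  · -- the image of `β_ℓ`
    refine range_subset_of_gens (heckeBetaBar Kb (M * q) ℓ) _ (H44.adjoin_jF_jdF (M * q)) A ?_ x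
    rintro t (rfl | rfl)
    · exact IntermediateField.subset_adjoin Kb _ (Or.inr rfl)
    · have e : heckeBetaBar Kb (M * q) ℓ (jdF (M * q) (M * q) dvd_rfl)
          = betaLift M q ℓ (jdF (M * ℓ) (M * ℓ) dvd_rfl) := by
        apply Subtype.ext
        rw [coe_heckeBetaBar, coe_betaLift, Fermat.Agent.RED.H95.coe_jdF,
          Fermat.Agent.RED.H95.coe_jdF, qExpand_qExpand, qExpand_qExpand]
        exact qExpand_congr (by ring) _
      rw [e]
      exact hrange _
  · -- `j (q ^ q)`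
    rw [Set.mem_singleton_iff] at hy
    have e : y = betaLift M q ℓ (jF (M * ℓ)) := by
      rw [hy]
      apply Subtype.ext
      rw [coe_betaLift, Fermat.Agent.RED.H95.coe_jdF]
      rfl
    rw [e]
    exact hrange _

/-- **`β_*` commutes with the norm functions.** -/
theorem beta_norm_comm (hℓ : ℓ.Prime) (hℓM : ¬ ℓ ∣ M * q) (f : FN (M * q)) :
    normAlongHom (heckeBetaBar Kb M q).toRingHom (heckeNormFn Kb (M * q) ℓ f)
      = heckeNormFn Kb M ℓ (normAlongHom (heckeBetaBar Kb M q).toRingHom f) := by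
  rw [heckeNormFn_eq_normAlongHom, heckeNormFn_eq_normAlongHom]
  exact norm_hecke_square (heckeBetaBar Kb M q).toRingHom (heckeAlphaBar Kb M ℓ).toRingHom
    (heckeBetaBar Kb M ℓ).toRingHom (heckeAlphaBar Kb (M * q) ℓ).toRingHom
    (heckeBetaBar Kb (M * q) ℓ).toRingHom (betaLift M q ℓ).toRingHom (beta_square M q ℓ)
    (beta_square_beta M q ℓ) (beta_finite M q) (betaLift_finite M q ℓ)
    (jF (M * q)) (adjoin_beta_jF M q) (adjoin_betaLift M q ℓ hℓ hℓM)
    (betaLift_finrank M q ℓ hℓ hℓM) f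

end Fermat.Agent.S36.H44

end
end
-- ==== END Fermat.Agent.S36.H44_BetaNorm
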