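-- GENERATED (merged mirror, NOTES/tools/trim/merge3_helper67.py): 6 modules of the originals, bodies verbatim.
import Fermat.Agent.Zm.S35_L07_000
import Fermat.Agent.Zm.S35_L16_001
import Fermat.Agent.Zm.S35_L14_001
import Fermat.Agent.Zm.S35_L11_001
import Fermat.Agent.Zm.S35_L08_000
import Fermat.Agent.Zm.S35_L08_004
import Fermat.Agent.Zm.S35_L16_000
import Fermat.Agent.Zm.S35_L01_002
import Fermat.Agent.Zm.S35_L03_005
import Fermat.Agent.Zm.S35_L02_004
import Fermat.Agent.Zm.S35_L15_001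
import Fermat.Agent.Zm.S35_L01_005
import Fermat.Agent.Zm.S35_L11_000
import Fermat.Agent.Zm.S35_L02_001

-- ==== BEGIN Fermat.Agent.BAD.H21_CountMod
section
attribute [local instance 10000] SubalgebraClass.toAlgebra
attribute [local instance 10000] HahnSeries.powerSeriesAlgebra

/-!
# BAD_q, package NUM (helper21): the number of supersingular points of `X₀(M)` mod `ℓ`, `ℓ ≥ 5`

`ℓ ≥ 5` prime, `ℓ ∤ M`, `A` a valuation ring of `ℚ̄` over `ℓ`, `k = kV A`, `F~ = redField` the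
residue field of the Gauss valuation of `F_M · ℚ̄`, `j~` the reduction of `j`.

* `H21_fibre_ge` : (FIB ≥, helper34) in terms of places: the fibre of `j~` over `ρ mod m` has at
  least as many points as the fibre of `j` over `ρ`;
* `H21_card_generic_ge`, `H21_card_zero_ge`, `H21_card_1728_ge` : the fibres of `j~` have at least
  `ψ(M)`, `orbN M (S T)`, `orbN M S` points;
* `H21_num` : **NUM at level `M`**: for the supersingular polynomial `H` (any polynomial with
  `m + a + b` roots, `0` a root iff `ℓ ≡ 2 mod 3`, `1728` a root iff `ℓ ≡ 3 mod 4`) there is a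
  finite set `Z` of places of `F~`, none a pole of `j~`, all zeros of `H(j~)`, with
  `g(M ℓ) + 1 ≤ 2 g(M) + #Z`.
-/

set_option autoImplicit false
set_option linter.style.haveILetI false
set_option linter.unusedSectionVars false
set_option synthInstance.maxHeartbeats 400000
set_option maxHeartbeats 1000000

noncomputable section

open AlgebraicCurve Polynomial IntermediateField

namespace Fermat.Agent.BAD.H21

open ModularCurve Fermat.Agent.S28.H73 Fermat.Agent.RED.H73 Fermat.Agent.RED.H34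
  Fermat.Agent.RED.H76 Fermat.Agent.RED.H51
open Fermat.Agent.S24 (Kbar FN)

section Modular

variable (M : ℕ) [NeZero M] {ℓ : ℕ} (hℓ : ℓ.Prime) (hℓM : ¬ ℓ ∣ M)
  (A : ValuationSubring Kbar) (hA : A.LiesOverPrime ℓ)

/-- The reduction `j~` of `j` at level `M`. -/
abbrev H21_jt : ↥(redField A (laurentBaseChange Kbar (modularFunctionFieldFull M))
    (hasScale_laurentBaseChange A M)) :=
  (redSetting A (hasScale_laurentBaseChange A M)).red ⟨_root_.Fermat.Agent.RED.H73.jF M, jF_mem A M⟩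

include hℓ hℓM hA in
/-- **(FIB ≥)** in terms of places. -/
theorem H21_fibre_ge (ρ : ↥(redSetting A (hasScale_laurentBaseChange A M)).O)
    (hρ : ∀ ρ' : ↥(redSetting A (hasScale_laurentBaseChange A M)).O,
      IsBranchValue (_root_.Fermat.Agent.RED.H73.jF (L := Kbar) M) (ρ' : Kbar) →
      (redSetting A (hasScale_laurentBaseChange A M)).resO ρ'
        = (redSetting A (hasScale_laurentBaseChange A M)).resO ρ → ρ' = ρ) :
    Nat.card {v : Place Kbar (FN M) //
        0 < v.ord (_root_.Fermat.Agent.RED.H73.jF (L := Kbar) M - algebraMap Kbar (FN M) (ρ : Kbar))}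
      ≤ Nat.card {z : Place (kV A) ↥(redField A
          (laurentBaseChange Kbar (modularFunctionFieldFull M))
          (hasScale_laurentBaseChange A M)) //
        0 < z.ord (H21_jt M A - algebraMap (kV A) _
          ((redSetting A (hasScale_laurentBaseChange A M)).resO ρ))} := by
  haveI : IsAlgClosed (kV A) := isAlgClosed_kV A
  obtain ⟨h1, h2, h3, h4, h5⟩ := goodChart_pre M ℓ hℓ hℓM A hA
  haveI := h2
  haveI := h3
  haveI := h5
  haveI hfdt := RedSetting.finiteDimensional_red (jF_mem A M) h4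
  rw [← card_ptsOver _ (transcendental_jF M) (ρ : Kbar),
    ← card_ptsOver _ h1 ((redSetting A (hasScale_laurentBaseChange A M)).resO ρ),
    Nat.card_coe_set_eq, Nat.card_coe_set_eq]
  exact RedSetting.ncard_ptsOver_red_ge (jF_mem A M) h1 h4 ρ hρ

/-- Every fibre of `j` on `X₀(M)` in characteristic `0` is finite and nonempty. -/
theorem H21_char0_pos (a : Kbar) :
    1 ≤ Nat.card {v : Place Kbar (FN M) //
      0 < v.ord (_root_.Fermat.Agent.RED.H73.jF (L := Kbar) M - algebraMap Kbar (FN M) a)} := by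
  have hx := transcendental_jF M
  haveI := _root_.Fermat.Agent.RED.H76.finiteDimensional_jF M
  have hf := Fermat.Agent.S24.h85_transcendental_sub hx a
  haveI := Fermat.Agent.S24.ff_finite_of_transcendental (_root_.Fermat.Agent.RED.H73.jF (L := Kbar) M) hx _ hf
  have hz := Fermat.Agent.RED.H51.zerosAll Kbar (FN M) (Fermat.Agent.RED.H95.isFF_FN M)
  obtain ⟨hfin, -⟩ := hz _ hf
  obtain ⟨v, hv⟩ := Fermat.Agent.RED.H42.exists_zero_of_zeros hz hf
  haveI : Finite {v : Place Kbar (FN M) //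
      0 < v.ord (_root_.Fermat.Agent.RED.H73.jF (L := Kbar) M - algebraMap Kbar (FN M) a)} := hfin.to_subtype
  haveI : Nonempty {v : Place Kbar (FN M) //
      0 < v.ord (_root_.Fermat.Agent.RED.H73.jF (L := Kbar) M - algebraMap Kbar (FN M) a)} := ⟨⟨v, hv⟩⟩
  exact Nat.card_pos

theorem H21_psi_pos : 0 < dedekindPsi M := by
  rw [← _root_.Fermat.Agent.RED.H76.finrank_jF M]
  haveI := _root_.Fermat.Agent.RED.H76.finiteDimensional_jF M
  exact Module.finrank_pos

theorem H21_orbN_S_pos : 0 < Fermat.Agent.S24.orbN M ModularGroup.S := by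
  have h1 := Fermat.Agent.S24.asm_orb_S M
  have h2 := H21_psi_pos M
  omega

theorem H21_orbN_ST_pos : 0 < Fermat.Agent.S24.orbN M (ModularGroup.S * ModularGroup.T) := by
  have h1 := Fermat.Agent.S24.asm_orb_ST M
  have h2 := H21_psi_pos M
  omega

/-- The fibre of `j` over `0` in characteristic `0` has at least `orbN M (S T)` points. -/
theorem H21_char0_zero_ge :
    Fermat.Agent.S24.orbN M (ModularGroup.S * ModularGroup.T)
      ≤ Nat.card {v : Place Kbar (FN M) //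
        0 < v.ord (_root_.Fermat.Agent.RED.H73.jF (L := Kbar) M - algebraMap Kbar (FN M) 0)} := by
  rcases Nat.lt_or_ge 1 M with hM | hM
  · rw [← jF_eq]
    exact (Fermat.Agent.S24.asm_card_zeros_zero (Fermat.Agent.S24.modClosure M) hM).ge
  · have hM1 : M = 1 := le_antisymm hM (Nat.pos_of_ne_zero (NeZero.ne M))
    refine le_trans ?_ (H21_char0_pos M 0)
    have h1 := Fermat.Agent.S24.asm_orb_ST M
    rw [hM1, dedekindPsi_one, Fermat.Agent.S24.asm_nuThree_one] at h1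
    rw [hM1]
    omega

/-- The fibre of `j` over `1728` in characteristic `0` has at least `orbN M S` points. -/
theorem H21_char0_1728_ge :
    Fermat.Agent.S24.orbN M ModularGroup.S
      ≤ Nat.card {v : Place Kbar (FN M) //
        0 < v.ord (_root_.Fermat.Agent.RED.H73.jF (L := Kbar) M - algebraMap Kbar (FN M) 1728)} := by
  rcases Nat.lt_or_ge 1 M with hM | hM
  · rw [← jF_eq]
    exact (Fermat.Agent.S24.asm_card_zeros_1728 (Fermat.Agent.S24.modClosure M) hM).ge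
  · have hM1 : M = 1 := le_antisymm hM (Nat.pos_of_ne_zero (NeZero.ne M))
    refine le_trans ?_ (H21_char0_pos M 1728)
    have h1 := Fermat.Agent.S24.asm_orb_S M
    rw [hM1, dedekindPsi_one, Fermat.Agent.S24.asm_nuTwo_one] at h1
    rw [hM1]
    omega

omit [NeZero M] in
include hℓ hA in
theorem H21_resO_1728_ne_zero (h5 : 5 ≤ ℓ) : (1728 : kV A) ≠ 0 := by
  haveI : Fact ℓ.Prime := ⟨hℓ⟩
  haveI : CharP (kV A) ℓ := Fermat.Agent.BAD.H82.charP_kV A hℓ hA
  exact H21_1728_ne_zero h5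

section Red

variable (h5 : 5 ≤ ℓ)

include hℓ hℓM hA h5

/-- The generic fibres of `j~` have at least `ψ(M)` points. -/
theorem H21_card_generic_ge (γ : kV A) (h0 : γ ≠ 0) (h1728 : γ ≠ 1728) :
    dedekindPsi M ≤ Nat.card {z : Place (kV A) ↥(redField A
          (laurentBaseChange Kbar (modularFunctionFieldFull M))
          (hasScale_laurentBaseChange A M)) //
        0 < z.ord (H21_jt M A - algebraMap (kV A) _ γ)} := by
  obtain ⟨ρ, rfl⟩ := (redSetting A (hasScale_laurentBaseChange A M)).resO_surj γ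
  have hρ0 : (ρ : Kbar) ≠ 0 := by
    intro h
    apply h0
    have : ρ = 0 := Subtype.ext h
    rw [this, map_zero]
  have hρ1 : (ρ : Kbar) ≠ 1728 := by
    intro h
    apply h1728
    have : ρ = 1728 := Subtype.ext h
    rw [this, map_ofNat]
  refine le_trans (le_of_eq (card_zeros_jF M (ρ : Kbar) hρ0 hρ1).symm)
    (H21_fibre_ge M hℓ hℓM A hA ρ ?_)
  intro ρ' hb hres
  exfalso
  rcases isBranchValue_jF M hb with h | h
  · apply h0
    rw [← hres]
    have : ρ' = 0 := Subtype.ext h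
    rw [this, map_zero]
  · apply h1728
    rw [← hres]
    have : ρ' = 1728 := Subtype.ext h
    rw [this, map_ofNat]

/-- The fibre of `j~` over `0` has at least `orbN M (S T)` points. -/
theorem H21_card_zero_ge :
    Fermat.Agent.S24.orbN M (ModularGroup.S * ModularGroup.T)
      ≤ Nat.card {z : Place (kV A) ↥(redField A
          (laurentBaseChange Kbar (modularFunctionFieldFull M))
          (hasScale_laurentBaseChange A M)) //
        0 < z.ord (H21_jt M A - algebraMap (kV A) _ 0)} := by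
  have key := H21_fibre_ge M hℓ hℓM A hA 0 (by
    intro ρ' hb hres
    rcases isBranchValue_jF M hb with h | h
    · exact Subtype.ext h
    · exfalso
      have : ρ' = 1728 := Subtype.ext h
      rw [this, map_ofNat, map_zero] at hres
      exact H21_resO_1728_ne_zero hℓ A hA h5 hres)
  rw [map_zero] at key
  exact le_trans (H21_char0_zero_ge M) key

/-- The fibre of `j~` over `1728` has at least `orbN M S` points. -/
theorem H21_card_1728_ge :
    Fermat.Agent.S24.orbN M ModularGroup.S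
      ≤ Nat.card {z : Place (kV A) ↥(redField A
          (laurentBaseChange Kbar (modularFunctionFieldFull M))
          (hasScale_laurentBaseChange A M)) //
        0 < z.ord (H21_jt M A - algebraMap (kV A) _ 1728)} := by
  have key := H21_fibre_ge M hℓ hℓM A hA 1728 (by
    intro ρ' hb hres
    rcases isBranchValue_jF M hb with h | h
    · exfalso
      have : ρ' = 0 := Subtype.ext h
      rw [this, map_ofNat, map_zero] at hres
      exact H21_resO_1728_ne_zero hℓ A hA h5 hres.symm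
    · exact Subtype.ext h)
  rw [map_ofNat] at key
  exact le_trans (H21_char0_1728_ge M) key

open Classical in
/-- **NUM at level `M`** (`ℓ ≥ 5`): a finite set `Z` of places of the reduced curve of level `M`,
none a pole of `j~`, all zeros of `H(j~)`, with `g(M ℓ) + 1 ≤ 2 g(M) + #Z`. -/
theorem H21_num (H : Polynomial (kV A)) (S : Finset (kV A)) (hH0 : H ≠ 0)
    (hS : ∀ x, x ∈ S ↔ H.IsRoot x)
    (hcard : S.card = H21_ssM ℓ + H21_ssA ℓ + H21_ssB ℓ)
    (h0 : (0 : kV A) ∈ S ↔ ℓ % 3 = 2) (h1728 : (1728 : kV A) ∈ S ↔ ℓ % 4 = 3) :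
    ∃ Z : Finset (Place (kV A) ↥(redField A
          (laurentBaseChange Kbar (modularFunctionFieldFull M))
          (hasScale_laurentBaseChange A M))),
      Z.Nonempty ∧
      (∀ z ∈ Z, 0 ≤ z.ord (H21_jt M A) ∧ 0 < z.ord (aeval (H21_jt M A) H)) ∧
      genusFormula (M * ℓ) + 1 ≤ 2 * genusFormula M + (Z.card : ℚ) := by
  haveI : Fact ℓ.Prime := ⟨hℓ⟩
  have hSne : S.Nonempty := by
    rw [← Finset.card_pos, hcard]
    have := H21_ss_weight hℓ h5
    omega
  have h01 : (0 : kV A) ≠ 1728 := (H21_resO_1728_ne_zero hℓ A hA h5).symm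
  obtain ⟨Z, hZ, hcardZ⟩ := H21_exists_zeros (H21_jt M A) S
    (fun J => if J = 0 then Fermat.Agent.S24.orbN M (ModularGroup.S * ModularGroup.T)
      else if J = 1728 then Fermat.Agent.S24.orbN M ModularGroup.S else dedekindPsi M) (by
    intro a ha
    by_cases e0 : a = 0
    · subst e0
      simp only [if_true]
      exact ⟨H21_orbN_ST_pos M, H21_card_zero_ge M hℓ hℓM A hA h5⟩
    · by_cases e1 : a = 1728
      · subst e1
        simp only [if_neg e0, if_true]
        exact ⟨H21_orbN_S_pos M, H21_card_1728_ge M hℓ hℓM A hA h5⟩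
      · simp only [if_neg e0, if_neg e1]
        exact ⟨H21_psi_pos M, H21_card_generic_ge M hℓ hℓM A hA h5 a e0 e1⟩)
  refine ⟨Z, ?_, ?_, ?_⟩
  · rw [← Finset.card_pos]
    refine lt_of_lt_of_le (Finset.sum_pos (fun a _ => ?_) hSne) hcardZ
    show 0 < (if a = 0 then Fermat.Agent.S24.orbN M (ModularGroup.S * ModularGroup.T)
      else if a = 1728 then Fermat.Agent.S24.orbN M ModularGroup.S else dedekindPsi M)
    split_ifs
    · exact H21_orbN_ST_pos M
    · exact H21_orbN_S_pos M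
    · exact H21_psi_pos M
  · intro z hz
    obtain ⟨a, ha, hza⟩ := hZ z hz
    exact ⟨H21_ord_nonneg_of_fibre z hza, H21_ord_aeval_pos z hza hH0 ((hS a).mp ha)⟩
  · have hA1 : H21_ssA ℓ ≤ 1 := by unfold H21_ssA; split_ifs <;> omega
    have hB1 : H21_ssB ℓ ≤ 1 := by unfold H21_ssB; split_ifs <;> omega
    have hA' : ℓ % 3 = 2 ↔ H21_ssA ℓ = 1 := by unfold H21_ssA; split_ifs <;> simp [*]
    have hB' : ℓ % 4 = 3 ↔ H21_ssB ℓ = 1 := by unfold H21_ssB; split_ifs <;> simp [*]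
    have hsum := H21_sum_ss S h01 (dedekindPsi M) (Fermat.Agent.S24.orbN M ModularGroup.S)
      (Fermat.Agent.S24.orbN M (ModularGroup.S * ModularGroup.T)) (H21_ssM ℓ) (H21_ssA ℓ)
      (H21_ssB ℓ) hcard (h0.trans hA') (h1728.trans hB') hA1 hB1
    have har := H21_arith h5 hℓM (Fermat.Agent.S24.orbN M ModularGroup.S)
      (Fermat.Agent.S24.orbN M (ModularGroup.S * ModularGroup.T))
      (Fermat.Agent.S24.asm_orb_S M) (Fermat.Agent.S24.asm_orb_ST M)
    rw [hsum] at hcardZ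
    have h2 : ((H21_ssM ℓ * dedekindPsi M
        + H21_ssA ℓ * Fermat.Agent.S24.orbN M (ModularGroup.S * ModularGroup.T)
        + H21_ssB ℓ * Fermat.Agent.S24.orbN M ModularGroup.S : ℕ) : ℚ) ≤ (Z.card : ℚ) := by
      exact_mod_cast hcardZ
    linarith

end Red

end Modular

end Fermat.Agent.BAD.H21

end
end
-- ==== END Fermat.Agent.BAD.H21_CountMod

-- ==== BEGIN Fermat.Agent.BAD.H30_UnitGauss
section

/-!
# BAD_q, package UNIT-GAUSS (helper30): the modular unit and the Gauss valuation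

`deltaR R = t · ∏ (1 - tⁿ)²⁴ ∈ R((t))` is the formal `Δ` over any commutative ring `R`
(`deltaR ℚ` is the prelude `deltaSeries`, by `rfl`).  For a valuation subring `A` of a field
`L ⊇ ℚ` with residue field `k`, and `d ≥ 1`:

* `unit_mem_gaussRingV` : `Δ(t)/Δ(t^d) ∈` Gauss ring of `A`;
* `gaussRedV_unit` : its reduction is `Δ~(t) · (Δ~(t^d))⁻¹ ∈ k((t))`, and it is `≠ 0`;
* `qExpand_deltaR_char` : in characteristic `q`: `Δ~(t^q) = Δ~(t)^q`;
* `gaussRedV_unit_char` : for `d = q = char k`: the reduction is `(Δ~ ^ (q - 1))⁻¹`.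

For the function field `F_N · ℚ̄` (`d ∣ N`), with `unitF N d hd` of `H30_UnitL`:

* `unitF_mem_gaussV`, `gaussRes_unitF`, `gaussRes_unitF_ne_zero`, `gaussRes_unitF_char`.
-/

set_option autoImplicit false
set_option linter.unusedSectionVars false
set_option linter.unusedVariables false

open ModularCurve Fermat.Agent.S28 Fermat.Agent.S28.H73 Fermat.Agent.RED.H73

noncomputable section

namespace Fermat.Agent.BAD.H30

section DeltaR

variable (R : Type*) [CommRing R]

/-- The formal `Δ = t ∏ (1 - tⁿ)²⁴` over a commutative ring. -/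
def deltaR : LaurentSeries R :=
  HahnSeries.single (1 : ℤ) 1 *
    HahnSeries.ofPowerSeries ℤ R (dedekindEtaUnit.map (Int.castRingHom R))

variable {R}

theorem coeffMap_deltaR {S : Type*} [CommRing S] (f : R →+* S) :
    coeffMap f (deltaR R) = deltaR S := by
  rw [deltaR, deltaR, map_mul, coeffMap_single, map_one,
    ModularCurve.coeffMap_ofPowerSeries]
  congr 2
  ext n
  simp only [PowerSeries.coeff_map, eq_intCast, map_intCast]

theorem deltaR_rat : deltaR ℚ = deltaSeries := rfl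

variable (R)

theorem deltaR_coeff_one : (deltaR R).coeff 1 = 1 := by
  have h : (deltaR ℤ).coeff 1 = 1 := by
    have h1 := isMonicOfOrder_deltaSeries.coeff_self
    rw [← deltaR_rat, ← coeffMap_deltaR (Int.castRingHom ℚ), coeffMap_coeff] at h1
    have h2 : ((deltaR ℤ).coeff 1 : ℚ) = ((1 : ℤ) : ℚ) := by
      rw [Int.cast_one]; exact h1
    exact Int.cast_injective h2
  rw [← coeffMap_deltaR (Int.castRingHom R), coeffMap_coeff, h, map_one]

theorem deltaR_ne_zero [Nontrivial R] : deltaR R ≠ 0 := by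
  intro h
  have := deltaR_coeff_one R
  rw [h] at this
  exact zero_ne_one this

theorem qExpand_deltaR_ne_zero [Nontrivial R] (d : ℕ) [NeZero d] :
    qExpand R d (deltaR R) ≠ 0 := fun h =>
  deltaR_ne_zero R (qExpand_injective d (h.trans (map_zero _).symm))

/-- **Frobenius**: `Δ(t^q) = Δ(t)^q` in characteristic `q`. -/
theorem qExpand_deltaR_char (q : ℕ) [Fact q.Prime] [CharP R q] :
    qExpand R q (deltaR R) = deltaR R ^ q := by
  have : NeZero q := ⟨(Fact.out : q.Prime).ne_zero⟩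
  rw [Fermat.Agent.RED.H10.pow_char_eq q (deltaR R), coeffMap_deltaR]

end DeltaR

section Unit

variable {L : Type} [Field L] [Algebra ℚ L] (A : ValuationSubring L) (d : ℕ) [NeZero d]

theorem coeffEmb_modularUnitSeries :
    coeffEmb L (modularUnitSeries d) = deltaR L * (qExpand L d (deltaR L))⁻¹ := by
  rw [modularUnitSeries, deltaSeriesN, map_mul, map_inv₀, coeffEmb, coeffMap_qExpand,
    ← deltaR_rat, coeffMap_deltaR]

theorem iotaV_deltaR : iotaV A (deltaR ↥A) = deltaR L := coeffMap_deltaR _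

theorem redV_deltaR : redV A (deltaR ↥A) = deltaR (kV A) := coeffMap_deltaR _

theorem unit_gauss_eq :
    iotaV A (qExpand ↥A d (deltaR ↥A)) * coeffEmb L (modularUnitSeries d)
      = iotaV A (deltaR ↥A) := by
  rw [coeffEmb_modularUnitSeries, iotaV, coeffMap_qExpand, coeffMap_deltaR,
    mul_comm (deltaR L), ← mul_assoc, mul_inv_cancel₀ (qExpand_deltaR_ne_zero L d), one_mul]

theorem redV_qExpand_deltaR_ne_zero : redV A (qExpand ↥A d (deltaR ↥A)) ≠ 0 := by
  rw [redV, coeffMap_qExpand, coeffMap_deltaR]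
  exact qExpand_deltaR_ne_zero _ d

/-- **(G1)** the modular unit `Δ(t)/Δ(t^d)` lies in the Gauss ring of every valuation subring. -/
theorem unit_mem_gaussRingV : coeffEmb L (modularUnitSeries d) ∈ gaussRingV A :=
  ⟨qExpand ↥A d (deltaR ↥A), deltaR ↥A, redV_qExpand_deltaR_ne_zero A d, unit_gauss_eq A d⟩

/-- **(G2)** the reduction of the modular unit is `Δ~(t)/Δ~(t^d)`. -/
theorem gaussRedV_unit (h : coeffEmb L (modularUnitSeries d) ∈ gaussRingV A) :
    gaussRedV A ⟨coeffEmb L (modularUnitSeries d), h⟩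
      = deltaR (kV A) * (qExpand (kV A) d (deltaR (kV A)))⁻¹ := by
  rw [gaussRedV_eq A ⟨_, h⟩ (redV_qExpand_deltaR_ne_zero A d) (unit_gauss_eq A d), redV,
    coeffMap_qExpand, coeffMap_deltaR, div_eq_mul_inv]

theorem gaussRedV_unit_ne_zero (h : coeffEmb L (modularUnitSeries d) ∈ gaussRingV A) :
    gaussRedV A ⟨coeffEmb L (modularUnitSeries d), h⟩ ≠ 0 := by
  rw [gaussRedV_unit]
  exact mul_ne_zero (deltaR_ne_zero _) (inv_ne_zero (qExpand_deltaR_ne_zero _ d))

end Unit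

section UnitChar

variable {L : Type} [Field L] [Algebra ℚ L] (A : ValuationSubring L) (q : ℕ) [Fact q.Prime]

/-- **(G3)** for `d = q` the residue characteristic: the reduction of `Δ(t)/Δ(t^q)` is
`(Δ~ ^ (q - 1))⁻¹`. -/
theorem gaussRedV_unit_char (hA : A.LiesOverPrime q)
    (h : haveI : NeZero q := ⟨(Fact.out : q.Prime).ne_zero⟩
      coeffEmb L (modularUnitSeries q) ∈ gaussRingV A) :
    haveI : NeZero q := ⟨(Fact.out : q.Prime).ne_zero⟩
    gaussRedV A ⟨coeffEmb L (modularUnitSeries q), h⟩ = (deltaR (kV A) ^ (q - 1))⁻¹ := by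
  have : NeZero q := ⟨(Fact.out : q.Prime).ne_zero⟩
  have : CharP (kV A) q := Fermat.Agent.BAD.H82.charP_kV A (Fact.out : q.Prime) hA
  rw [gaussRedV_unit, qExpand_deltaR_char]
  have h0 := deltaR_ne_zero (kV A)
  have hq : 1 ≤ q := (Fact.out : q.Prime).one_le
  have e : deltaR (kV A) ^ q = deltaR (kV A) ^ (q - 1) * deltaR (kV A) := by
    rw [← pow_succ, Nat.sub_add_cancel hq]
  rw [e, mul_inv, mul_comm (deltaR (kV A)), mul_assoc, inv_mul_cancel₀ h0, mul_one]

end UnitChar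

section FunctionField

open Fermat.Agent.S24 (Kbar FN jF)

variable (A : ValuationSubring (AlgebraicClosure ℚ)) (N : ℕ) [NeZero N] (d : ℕ) [NeZero d]

/-- **(G1)** `unitF N d ∈` the Gauss valuation ring of `F_N · ℚ̄`. -/
theorem unitF_mem_gaussV (hd : d ∣ N) : unitF N d hd ∈ gaussV A N :=
  unit_mem_gaussRingV A d

/-- **(G2)** the Gauss reduction of `unitF N d` is `Δ~(t)/Δ~(t^d)`. -/
theorem gaussRes_unitF (hd : d ∣ N) :
    ((gaussRes A N ⟨unitF N d hd, unitF_mem_gaussV A N d hd⟩ :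
        ↥(redField A (FNbar N) (hasScale_laurentBaseChange A N))) : LaurentSeries (kV A))
      = deltaR (kV A) * (qExpand (kV A) d (deltaR (kV A)))⁻¹ :=
  gaussRedV_unit A d _

theorem gaussRes_unitF_ne_zero (hd : d ∣ N) :
    gaussRes A N ⟨unitF N d hd, unitF_mem_gaussV A N d hd⟩ ≠ 0 := by
  intro h
  have h1 := congrArg (Subtype.val) h
  exact gaussRedV_unit_ne_zero A d (unit_mem_gaussRingV A d) h1

end FunctionField

section FunctionFieldChar

open Fermat.Agent.S24 (Kbar FN jF)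

variable (A : ValuationSubring (AlgebraicClosure ℚ)) (N : ℕ) [NeZero N] (q : ℕ) [Fact q.Prime]

/-- **(G3)** for `q ∣ N` the residue characteristic of `A`: the Gauss reduction of
`unitF N q = Δ(t)/Δ(t^q)` is `(Δ~ ^ (q - 1))⁻¹`. -/
theorem gaussRes_unitF_char (hA : A.LiesOverPrime q) (hd : q ∣ N) :
    haveI : NeZero q := ⟨(Fact.out : q.Prime).ne_zero⟩
    ((gaussRes A N ⟨unitF N q hd, unitF_mem_gaussV A N q hd⟩ :
        ↥(redField A (FNbar N) (hasScale_laurentBaseChange A N))) : LaurentSeries (kV A))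
      = (deltaR (kV A) ^ (q - 1))⁻¹ :=
  gaussRedV_unit_char A q hA _

end FunctionFieldChar

end Fermat.Agent.BAD.H30

end
end
-- ==== END Fermat.Agent.BAD.H30_UnitGauss

-- ==== BEGIN Fermat.Agent.GTor.Clo.A5
section
attribute [local instance 10000] SubalgebraClass.toAlgebra
attribute [local instance 10000] HahnSeries.powerSeriesAlgebra

/-!
# G-TOR A5: every place of `F_ℂ` is the place of a point of `ℍ` or of a cusp

A place `v` of `F_N` lies over a place of `ℂ(j)`: either `j` has a pole at `v` (cusp case, GC5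
for `winfN` and `t = j⁻¹`), or `j - a` vanishes at `v` for a unique `a = j(z₀)` (point case, GC5
for `wN z₀` and `t = j - a`). GC5 yields `g = piN γ` in the Galois group, and the place is the one
of the cusp `γ⁻¹∞` resp. of the point `γ⁻¹ z₀`.
-/

set_option autoImplicit false

noncomputable section

namespace Fermat.Agent.GTor.Clo

open Fermat.Agent.S24 Fermat.Agent.GTor

open ModularCurve AlgebraicCurve UpperHalfPlane ModularGroup CongruenceSubgroup WithZero
  IntermediateField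
open scoped MatrixGroups

theorem place_deg_eq_one (N : ℕ) [NeZero N] (v : Place _root_.Fermat.Agent.GTor.Clo.Kbar (_root_.Fermat.Agent.GTor.Clo.FN N)) : v.deg = 1 := by
  have := _root_.Fermat.Agent.GTor.Clo.asm_finiteDimensional (_root_.Fermat.Agent.GTor.Clo.modClosure N)
  exact ff_deg_eq_one (_root_.Fermat.Agent.GTor.Clo.jF N) (_root_.Fermat.Agent.GTor.Clo.asm_transcendental_jF (_root_.Fermat.Agent.GTor.Clo.modClosure N)) v

/-- The cusp case of A5. -/
theorem exists_isPlaceAtCusp_of_pole (N : ℕ) [NeZero N] (v : Place _root_.Fermat.Agent.GTor.Clo.Kbar (_root_.Fermat.Agent.GTor.Clo.FN N))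
    (hv : v.ord (_root_.Fermat.Agent.GTor.Clo.jF N) < 0) : ∃ σ : SL(2, ℤ), IsPlaceAtCusp N v σ := by
  have hN : 0 < N := Nat.pos_of_ne_zero (NeZero.ne N)
  have hv' : 0 < v.ord (algebraMap _root_.Fermat.Agent.GTor.Clo.EN (_root_.Fermat.Agent.GTor.Clo.FN N) _root_.Fermat.Agent.GTor.Clo.tE⁻¹) := by
    rw [map_inv₀, _root_.Fermat.Agent.GTor.Clo.tE_map_FN, Place.ord_inv]
    omega
  obtain ⟨g, hg⟩ := gc_val_eq_of_place (K := _root_.Fermat.Agent.GTor.Clo.Kbar) (E := _root_.Fermat.Agent.GTor.Clo.EN) (F := _root_.Fermat.Agent.GTor.Clo.FN N) (L := _root_.Fermat.Agent.GTor.Clo.LN N) _root_.Fermat.Agent.GTor.Clo.tE⁻¹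
    (_root_.Fermat.Agent.GTor.Clo.h85_transcendental_inv _root_.Fermat.Agent.GTor.Clo.tE_transcendental) (_root_.Fermat.Agent.GTor.Clo.h85_gen_inv tE_ne_zero _root_.Fermat.Agent.GTor.Clo.tE_gen)
    (_root_.Fermat.Agent.GTor.Clo.winfN N) (_root_.Fermat.Agent.GTor.Clo.winfN_algebraMap N)
    (by rw [_root_.Fermat.Agent.GTor.Clo.winfN_j]; exact exp_neg_natCast_lt_one hN)
    (_root_.Fermat.Agent.GTor.Clo.piN N T) (_root_.Fermat.Agent.GTor.Clo.winfN_piN_T N)
    (by rw [_root_.Fermat.Agent.GTor.Clo.winfN_j, orderOf_piN_T])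
    v hv'
  obtain ⟨γ, rfl⟩ := _root_.Fermat.Agent.GTor.Clo.piN_surjective N g
  refine ⟨γ⁻¹, fun f k A B hf hAB => ?_⟩
  have h1 := hg f hf
  have h2 := winfN_of_isRatio N γ⁻¹ f hf k A B hAB
  rw [inv_inv] at h2
  rw [h2] at h1
  have hconj : (_root_.Fermat.Agent.GTor.Clo.piN N γ)⁻¹ * _root_.Fermat.Agent.GTor.Clo.piN N T * _root_.Fermat.Agent.GTor.Clo.piN N γ = _root_.Fermat.Agent.GTor.Clo.piN N (γ⁻¹ * T * γ⁻¹⁻¹) := by
    rw [inv_inv, map_mul, map_mul, map_inv]
  rw [hconj, card_zpowers_inf_fixF_cusp] at h1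
  exact neg_injective (WithZero.exp_injective h1)

/-- The residue of `j` at a place where `j` is regular, as a value of `j`. -/
theorem exists_point_of_regular (N : ℕ) [NeZero N] (v : Place _root_.Fermat.Agent.GTor.Clo.Kbar (_root_.Fermat.Agent.GTor.Clo.FN N))
    (hv : 0 ≤ v.ord (_root_.Fermat.Agent.GTor.Clo.jF N)) :
    ∃ z₀ : ℍ, 0 < v.ord (_root_.Fermat.Agent.GTor.Clo.jF N - algebraMap _root_.Fermat.Agent.GTor.Clo.Kbar (_root_.Fermat.Agent.GTor.Clo.FN N) (toKbar (jAn z₀))) := by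
  obtain ⟨a, ha⟩ := H85.exists_ord_sub_pos v (place_deg_eq_one N v)
    (_root_.Fermat.Agent.GTor.Clo.asm_transcendental_jF (_root_.Fermat.Agent.GTor.Clo.modClosure N)) (H85.mem_of_ord_nonneg v hv)
  obtain ⟨z₀, hz₀⟩ := jAn_surjective a
  refine ⟨z₀, ?_⟩
  have : toKbar (jAn z₀) = a := hz₀
  rw [this]
  exact ha

theorem algebraMap_tSub (N : ℕ) [NeZero N] (z : ℍ) :
    algebraMap _root_.Fermat.Agent.GTor.Clo.EN (_root_.Fermat.Agent.GTor.Clo.FN N) (tSub z) = _root_.Fermat.Agent.GTor.Clo.jF N - algebraMap _root_.Fermat.Agent.GTor.Clo.Kbar (_root_.Fermat.Agent.GTor.Clo.FN N) (toKbar (jAn z)) := by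
  rw [tSub, RingHom.map_sub, _root_.Fermat.Agent.GTor.Clo.tE_map_FN, ← IsScalarTower.algebraMap_apply _root_.Fermat.Agent.GTor.Clo.Kbar _root_.Fermat.Agent.GTor.Clo.EN (_root_.Fermat.Agent.GTor.Clo.FN N)]

theorem stabilizer_conj (z : ℍ) (γ γ₀ : SL(2, ℤ))
    (hγ₀ : MulAction.stabilizer SL(2, ℤ) z = Subgroup.zpowers γ₀) :
    MulAction.stabilizer SL(2, ℤ) (γ⁻¹ • z) = Subgroup.zpowers (γ⁻¹ * γ₀ * γ) := by
  rw [MulAction.stabilizer_smul_eq_stabilizer_map_conj, hγ₀, MonoidHom.map_zpowers]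
  congr 1
  simp

theorem conj_pow_eq_neg_one (γ γ₀ : SL(2, ℤ)) (n : ℕ) (h : γ₀ ^ n = -1) :
    (γ⁻¹ * γ₀ * γ) ^ n = -1 := by
  have h1 : γ⁻¹ * γ₀ * γ = γ⁻¹ * γ₀ * γ⁻¹⁻¹ := by rw [inv_inv]
  rw [h1, conj_pow, h, stab_conj_neg_one]

/-- The point case of A5, for `1 < N`. -/
theorem exists_isPlaceAt_of_regular (N : ℕ) [NeZero N] (hN : 1 < N) (v : Place _root_.Fermat.Agent.GTor.Clo.Kbar (_root_.Fermat.Agent.GTor.Clo.FN N))
    (hv : 0 ≤ v.ord (_root_.Fermat.Agent.GTor.Clo.jF N)) : ∃ z : ℍ, IsPlaceAt N v z := by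
  obtain ⟨z₀, hz₀⟩ := exists_point_of_regular N v hv
  obtain ⟨γ₀, hγ₀, hγ₀'⟩ := exists_stabilizer_generator z₀
  have hγz : γ₀ • z₀ = z₀ := by
    have : γ₀ ∈ MulAction.stabilizer SL(2, ℤ) z₀ := by
      rw [hγ₀]; exact Subgroup.mem_zpowers γ₀
    exact this
  have hord : orderOf (_root_.Fermat.Agent.GTor.Clo.piN N γ₀) = jOrd z₀ := orderOf_piN_stab N hN z₀ γ₀ hγ₀ hγ₀'
  obtain ⟨g, hg⟩ := gc_val_eq_of_place (K := _root_.Fermat.Agent.GTor.Clo.Kbar) (E := _root_.Fermat.Agent.GTor.Clo.EN) (F := _root_.Fermat.Agent.GTor.Clo.FN N) (L := _root_.Fermat.Agent.GTor.Clo.LN N) (tSub z₀)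
    (_root_.Fermat.Agent.GTor.Clo.h85_transcendental_sub _root_.Fermat.Agent.GTor.Clo.tE_transcendental _) (_root_.Fermat.Agent.GTor.Clo.h85_gen_sub _root_.Fermat.Agent.GTor.Clo.tE_gen _)
    (_root_.Fermat.Agent.GTor.Clo.wN N z₀) (_root_.Fermat.Agent.GTor.Clo.wN_algebraMap N z₀)
    (by rw [wN_tSub]; exact exp_neg_natCast_lt_one (jOrd_pos z₀))
    (_root_.Fermat.Agent.GTor.Clo.piN N γ₀) (wN_piN_of_smul_eq N z₀ γ₀ hγz)
    (by rw [wN_tSub, hord])
    v (by rw [algebraMap_tSub]; exact hz₀)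
  obtain ⟨γ, rfl⟩ := _root_.Fermat.Agent.GTor.Clo.piN_surjective N g
  refine ⟨γ⁻¹ • z₀, fun f k A B hf hAB => ?_⟩
  have h1 := hg f hf
  rw [_root_.Fermat.Agent.GTor.Clo.wN_piN, wN_of_isRatio N (γ⁻¹ • z₀) f hf k A B hAB] at h1
  have hconj : (_root_.Fermat.Agent.GTor.Clo.piN N γ)⁻¹ * _root_.Fermat.Agent.GTor.Clo.piN N γ₀ * _root_.Fermat.Agent.GTor.Clo.piN N γ = _root_.Fermat.Agent.GTor.Clo.piN N (γ⁻¹ * γ₀ * γ) := by
    rw [map_mul, map_mul, map_inv]
  have hpow : (γ⁻¹ * γ₀ * γ) ^ jOrd (γ⁻¹ • z₀) = -1 := by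
    rw [jOrd_smul]
    exact conj_pow_eq_neg_one γ γ₀ _ hγ₀'
  rw [hconj, card_zpowers_inf_fixF N hN (γ⁻¹ • z₀) (γ⁻¹ * γ₀ * γ)
    (stabilizer_conj z₀ γ γ₀ hγ₀) hpow] at h1
  exact neg_injective (WithZero.exp_injective h1)

/-- The point case of A5, for `N = 1`. -/
theorem exists_isPlaceAt_of_regular_one (N : ℕ) [NeZero N] (hN : N = 1) (v : Place _root_.Fermat.Agent.GTor.Clo.Kbar (_root_.Fermat.Agent.GTor.Clo.FN N))
    (hv : 0 ≤ v.ord (_root_.Fermat.Agent.GTor.Clo.jF N)) : ∃ z : ℍ, IsPlaceAt N v z := by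
  obtain ⟨z₀, hz₀⟩ := exists_point_of_regular N v hv
  obtain ⟨v', hv'0, hv'⟩ := exists_place_wN_one' N hN z₀
  have hx : Transcendental _root_.Fermat.Agent.GTor.Clo.Kbar (_root_.Fermat.Agent.GTor.Clo.jF N - algebraMap _root_.Fermat.Agent.GTor.Clo.Kbar (_root_.Fermat.Agent.GTor.Clo.FN N) (toKbar (jAn z₀))) :=
    _root_.Fermat.Agent.GTor.Clo.h85_transcendental_sub (_root_.Fermat.Agent.GTor.Clo.asm_one_transcendental N) _
  have hvv : v' = v := gc_val_triv_unique (K := _root_.Fermat.Agent.GTor.Clo.Kbar) (F := _root_.Fermat.Agent.GTor.Clo.FN N) _ hx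
    (adjoin_jF_sub_eq_top N hN z₀) v' v hv'0 hz₀
  subst hvv
  exact ⟨z₀, isPlaceAt_of_wN N z₀ v' hv'⟩

/-- **A5**, over `Kbar`. -/
theorem exists_isPlaceAt_or_cusp (N : ℕ) [NeZero N] (v : Place _root_.Fermat.Agent.GTor.Clo.Kbar (_root_.Fermat.Agent.GTor.Clo.FN N)) :
    (∃ z : ℍ, IsPlaceAt N v z) ∨ (∃ σ : SL(2, ℤ), IsPlaceAtCusp N v σ) := by
  rcases lt_or_ge (v.ord (_root_.Fermat.Agent.GTor.Clo.jF N)) 0 with hv | hv
  · exact Or.inr (exists_isPlaceAtCusp_of_pole N v hv)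
  · left
    rcases Nat.lt_or_ge 1 N with hN | hN
    · exact exists_isPlaceAt_of_regular N hN v hv
    · exact exists_isPlaceAt_of_regular_one N
        (le_antisymm hN (Nat.pos_of_ne_zero (NeZero.ne N))) v hv

/-- **A5**. -/
theorem stmt_A5 (N : ℕ) [NeZero N] : Stmt_A5 N :=
  fun v => exists_isPlaceAt_or_cusp N v

end Fermat.Agent.GTor.Clo

end
end
-- ==== END Fermat.Agent.GTor.Clo.A5

-- ==== BEGIN Fermat.Agent.RED.H76_DR2Haupt
section
attribute [local instance 10000] SubalgebraClass.toAlgebra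
attribute [local instance 10000] HahnSeries.powerSeriesAlgebra

/-!
# G-RED (helper76): `HasDR` at the levels with a Hauptmodul chart (`ℓ = 3, 2 ∣ M`; `ℓ = 2, 3 ∣ M`)

* `hasDR_of_haupt_int` : generic assembly.  Input: `hZ : LaurentSeries ℤ` with a pole and
  leading coefficient `1`, the two identities `P(hZ) = j Q(hZ)`, `P'(hZ) = j(q^p) Q'(hZ)` over
  `ℤ` (helper73's `chartPre_haupt_int`), and the root analysis of `P`, `P - 1728 Q`: every
  candidate branch value `ρ ≠ 0` equals a fixed unit `c` of `A`.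
* `Stmt_Haupt2`, `Stmt_Haupt3` : the `q`-series inputs (packages IG-MOD23 of helper70, helper29).
* `hasDR_haupt2`, `hasDR_haupt3` : cases 2 and 3 of `Stmt_DR2`.
* `stmt_DR2_of : Stmt_Haupt2 → Stmt_Haupt3 → Stmt_DR2`.
-/

set_option autoImplicit false
set_option linter.style.haveILetI false
set_option synthInstance.maxHeartbeats 400000
set_option maxHeartbeats 1000000

noncomputable section

open AlgebraicCurve IntermediateField Polynomial

namespace Fermat.Agent.RED.H76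

open Fermat.Agent.RED.H34 Fermat.Agent.RED.H79
open ModularCurve Fermat.Agent.S28.H73 Fermat.Agent.RED.H73 Fermat.Agent.S24

section Generic

/-- **Generic assembly**: the Deuring datum at level `M` from a Hauptmodul of the sublevel
`p ∣ M` given by identities over `ℤ`, when the candidate branch values are `0` and a unit `c`. -/
theorem hasDR_of_haupt_int {p ℓ : ℕ} [NeZero p] (hp : p.Prime) {M : ℕ} [NeZero M] (hpM : p ∣ M)
    (hℓ : ℓ.Prime) (hℓM : ¬ ℓ ∣ M)
    (A : ValuationSubring Kbar) (hA : A.LiesOverPrime ℓ)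
    (hZ : LaurentSeries ℤ) (hord : hZ.order < 0) (hlead : hZ.leadingCoeff = 1)
    (P Q P' Q' : ℤ[X]) (hP : P.Monic) (hPd : P.natDegree = p + 1)
    (hQ : Q.Monic) (hQd : Q.natDegree < p + 1) (hQ' : Q'.Monic)
    (hPQ : aeval hZ P = jqModC ℤ * aeval hZ Q)
    (hPQ' : aeval hZ P' = qExpand ℤ p (jqModC ℤ) * aeval hZ Q')
    (c : Kbar) (hc : c ≠ 0) (hcA : c ∈ A) (hcinvA : c⁻¹ ∈ A)
    (hQroot : ∀ ρ : Kbar, (Q.map (Int.castRingHom Kbar)).eval ρ = 0 → ρ = 0)
    (hbr : ∀ ρ : Kbar, ρ ≠ 0 →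
      (((P.map (Int.castRingHom Kbar)).eval ρ = 0 ∧
          ¬ (X - C ρ) ^ 2 ∣ P.map (Int.castRingHom Kbar)) ∨
        ((P.map (Int.castRingHom Kbar)).eval ρ = 1728 * (Q.map (Int.castRingHom Kbar)).eval ρ ∧
          ¬ (X - C ρ) ^ 2 ∣
            P.map (Int.castRingHom Kbar) - C 1728 * Q.map (Int.castRingHom Kbar))) →
      ρ = c) :
    HasDR A (hasScale_laurentBaseChange A M) := by
  haveI : IsAlgClosed (kV A) := isAlgClosed_kV A
  have hM : ((M : Kbar))⁻¹ ∈ A := inv_natCast_mem_of_liesOver A M hℓ hℓM hA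
  obtain ⟨x, hx, hx', hxcoe, -, G, G'⟩ :=
    chartPre_haupt_int hp hpM A hM hZ hord hlead P Q P' Q' hP hPd hQ hQd hQ' hPQ hPQ'
  obtain ⟨i1, -⟩ := haupt_identities_map (p := p) Kbar hZ P Q P' Q' hPQ hPQ'
  -- the identity in `F_M`
  have hid : aeval x (P.map (Int.castRingHom Kbar))
      = Fermat.Agent.RED.H73.jF (L := Kbar) M * aeval x (Q.map (Int.castRingHom Kbar)) := by
    apply Subtype.ext
    have e : ∀ q : Kbar[X], ((aeval x q : ↥(laurentBaseChange Kbar (modularFunctionFieldFull M)))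
        : LaurentSeries Kbar) = aeval (x : LaurentSeries Kbar) q := fun q =>
      (Polynomial.aeval_algHom_apply
        (laurentBaseChange Kbar (modularFunctionFieldFull M)).val x q).symm
    rw [MulMemClass.coe_mul, e, e, hxcoe]
    exact i1
  have hxt : Transcendental Kbar x :=
    Fermat.Agent.RED.H34.RedSetting.transcendental_x hx G.transc
  haveI := G.fin
  -- `P - a Q ≠ 0`
  have hne : ∀ a : Kbar, P.map (Int.castRingHom Kbar) - C a * Q.map (Int.castRingHom Kbar)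
      ≠ 0 := by
    intro a
    have hPm : (P.map (Int.castRingHom Kbar)).Monic := hP.map _
    have hdeg : (C a * Q.map (Int.castRingHom Kbar)).degree
        < (P.map (Int.castRingHom Kbar)).degree := by
      refine degree_lt_degree (lt_of_le_of_lt (natDegree_C_mul_le a _) ?_)
      rw [hQ.natDegree_map, hP.natDegree_map, hPd]
      exact hQd
    exact (hPm.sub_of_left hdeg).ne_zero
  -- branch values of `x`
  have hbrx : ∀ ρ : Kbar, IsBranchValue x ρ → ρ = 0 ∨ ρ = c := by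
    intro ρ hρ
    by_cases h0 : ρ = 0
    · exact Or.inl h0
    · right
      have hQρ : (Q.map (Int.castRingHom Kbar)).eval ρ ≠ 0 := fun h => h0 (hQroot ρ h)
      exact hbr ρ h0 (branch_haupt M x hxt _ _ hid hne hQρ hρ)
  -- branch values of `1/x`
  have hbrx' : ∀ σ : Kbar, IsBranchValue x⁻¹ σ → σ = 0 ∨ σ = c⁻¹ := by
    intro σ hσ
    by_cases h0 : σ = 0
    · exact Or.inl h0
    · right
      have h1 := (isBranchValue_inv_iff x hxt h0).mp hσ
      rcases hbrx σ⁻¹ h1 with h2 | h2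
      · exact absurd h2 (inv_ne_zero h0)
      · rw [← h2, inv_inv]
  have GC : GoodChart (redSetting A (hasScale_laurentBaseChange A M)) x hx :=
    goodChart_of _ hx G.transc G.fin G.sep G.deg G.sept (fun ρ ρ' hρ hρ' hres =>
      eq_of_resO_eq_of_mem_pair A _ c hc hcinvA ρ ρ' (hbrx _ hρ) (hbrx _ hρ') hres)
  have GC' : GoodChart (redSetting A (hasScale_laurentBaseChange A M)) x⁻¹ hx' :=
    goodChart_of _ hx' G'.transc G'.fin G'.sep G'.deg G'.sept (fun ρ ρ' hρ hρ' hres =>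
      eq_of_resO_eq_of_mem_pair A _ c⁻¹ (inv_ne_zero hc) (by rw [inv_inv]; exact hcA) ρ ρ'
        (hbrx' _ hρ) (hbrx' _ hρ') hres)
  exact hasDR_of_goodCharts A (hasScale_laurentBaseChange A M)
    (Fermat.Agent.RED.H95.isFF_FN M) (isFF_redField_bar M ℓ hℓ hℓM A hA) x hx hx' GC GC'

end Generic

/-! ### Root analysis for `p = 2` and `p = 3` -/

section Roots

variable {K : Type} [Field K]

theorem haupt2_case0 (ρ : K) (h0 : (ρ + 256) ^ 3 = 0)
    (hd : ¬ (X - C ρ) ^ 2 ∣ ((X + C 256) ^ 3 : K[X])) : False := by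
  have h1 : ρ = -256 := eq_neg_of_add_eq_zero_left (pow_eq_zero_iff (by norm_num) |>.mp h0)
  apply hd
  rw [h1, C_neg, sub_neg_eq_add]
  exact pow_dvd_pow _ (by norm_num)

theorem haupt2_case1728 [CharZero K] (ρ : K) (h1 : (ρ + 256) ^ 3 = 1728 * ρ ^ 2)
    (hd : ¬ (X - C ρ) ^ 2 ∣ ((X + C 256) ^ 3 - C 1728 * X ^ 2 : K[X])) : ρ = -64 := by
  have hfac : (ρ + 64) * (ρ - 512) ^ 2 = 0 := by linear_combination h1
  rcases mul_eq_zero.mp hfac with h | h
  · exact eq_neg_of_add_eq_zero_left h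
  · exfalso
    have h512 : ρ = 512 := sub_eq_zero.mp (pow_eq_zero_iff (by norm_num) |>.mp h)
    apply hd
    refine ⟨X + C 64, ?_⟩
    rw [h512]
    simp only [map_ofNat]
    ring

theorem haupt3_case0 (ρ : K) (h0 : (ρ + 27) * (ρ + 243) ^ 3 = 0)
    (hd : ¬ (X - C ρ) ^ 2 ∣ ((X + C 27) * (X + C 243) ^ 3 : K[X])) : ρ = -27 := by
  rcases mul_eq_zero.mp h0 with h | h
  · exact eq_neg_of_add_eq_zero_left h
  · exfalso
    have h1 : ρ = -243 := eq_neg_of_add_eq_zero_left (pow_eq_zero_iff (by norm_num) |>.mp h)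
    apply hd
    rw [h1, C_neg, sub_neg_eq_add]
    exact Dvd.dvd.mul_left (pow_dvd_pow _ (by norm_num)) _

theorem haupt3_case1728 (ρ : K) (h1 : (ρ + 27) * (ρ + 243) ^ 3 = 1728 * ρ ^ 3)
    (hd : ¬ (X - C ρ) ^ 2 ∣ ((X + C 27) * (X + C 243) ^ 3 - C 1728 * X ^ 3 : K[X])) :
    False := by
  have hfac : (ρ ^ 2 - 486 * ρ - 19683) ^ 2 = 0 := by linear_combination h1
  have hroot : ρ ^ 2 - 486 * ρ - 19683 = 0 := pow_eq_zero_iff (by norm_num) |>.mp hfac
  have hdvd : (X - C ρ) ∣ (X ^ 2 - C 486 * X - C 19683 : K[X]) := by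
    rw [dvd_iff_isRoot, IsRoot]
    simp only [eval_sub, eval_mul, eval_pow, eval_X, eval_C]
    exact hroot
  apply hd
  have hsq : ((X + C 27) * (X + C 243) ^ 3 - C 1728 * X ^ 3 : K[X])
      = (X ^ 2 - C 486 * X - C 19683) ^ 2 := by
    simp only [map_ofNat]
    ring
  rw [hsq]
  exact pow_dvd_pow_of_dvd hdvd 2

end Roots

/-! ### The two cases -/

section Cases

/-- **Input of IG-MOD23, `p = 2`** (helper70): the Hauptmodul `h₂ = Δ(q)/Δ(q²)` over `ℤ` with
`j h₂² = (h₂ + 256)³` and one identity for `j(q²)`. -/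
def Stmt_Haupt2 : Prop :=
  ∃ (hZ : LaurentSeries ℤ) (P' Q' : ℤ[X]), hZ.order < 0 ∧ hZ.leadingCoeff = 1 ∧ Q'.Monic ∧
    aeval hZ ((X + C 256) ^ 3 : ℤ[X]) = jqModC ℤ * aeval hZ (X ^ 2 : ℤ[X]) ∧
    aeval hZ P' = qExpand ℤ 2 (jqModC ℤ) * aeval hZ Q'

/-- **Input of IG-MOD23, `p = 3`** (helper29): the Hauptmodul `h₃ = (η(q)/η(q³))¹²` over `ℤ`
with `j h₃³ = (h₃ + 27)(h₃ + 243)³` and one identity for `j(q³)`. -/
def Stmt_Haupt3 : Prop :=
  ∃ (hZ : LaurentSeries ℤ) (P' Q' : ℤ[X]), hZ.order < 0 ∧ hZ.leadingCoeff = 1 ∧ Q'.Monic ∧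
    aeval hZ ((X + C 27) * (X + C 243) ^ 3 : ℤ[X]) = jqModC ℤ * aeval hZ (X ^ 3 : ℤ[X]) ∧
    aeval hZ P' = qExpand ℤ 3 (jqModC ℤ) * aeval hZ Q'

/-- `Stmt_Haupt2` from the two identities written in the ring `ℤ((q))`. -/
theorem stmt_Haupt2_of_ring (hZ : LaurentSeries ℤ) (hord : hZ.order < 0)
    (hlead : hZ.leadingCoeff = 1) (h1 : (hZ + 256) ^ 3 = jqModC ℤ * hZ ^ 2)
    (h2 : (hZ + 16) ^ 3 = qExpand ℤ 2 (jqModC ℤ) * hZ) : Stmt_Haupt2 := by
  refine ⟨hZ, (X + C 16) ^ 3, X, hord, hlead, monic_X, ?_, ?_⟩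
  · simp only [map_pow, map_add, aeval_X, aeval_C]
    simp only [eq_intCast, Int.cast_ofNat]
    exact h1
  · simp only [map_pow, map_add, aeval_X, aeval_C]
    simp only [eq_intCast, Int.cast_ofNat]
    exact h2

/-- `Stmt_Haupt3` from the two identities written in the ring `ℤ((q))`. -/
theorem stmt_Haupt3_of_ring (hZ : LaurentSeries ℤ) (hord : hZ.order < 0)
    (hlead : hZ.leadingCoeff = 1) (h1 : (hZ + 27) * (hZ + 243) ^ 3 = jqModC ℤ * hZ ^ 3)
    (h2 : (hZ + 27) * (hZ + 3) ^ 3 = qExpand ℤ 3 (jqModC ℤ) * hZ) : Stmt_Haupt3 := by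
  refine ⟨hZ, (X + C 27) * (X + C 3) ^ 3, X, hord, hlead, monic_X, ?_, ?_⟩
  · simp only [map_pow, map_add, map_mul, aeval_X, aeval_C]
    simp only [eq_intCast, Int.cast_ofNat]
    exact h1
  · simp only [map_pow, map_add, map_mul, aeval_X, aeval_C]
    simp only [eq_intCast, Int.cast_ofNat]
    exact h2

theorem neg_natCast_inv_mem {ℓ : ℕ} (hℓ : ℓ.Prime) (A : ValuationSubring Kbar)
    (hA : A.LiesOverPrime ℓ) (n : ℕ) (hn : ¬ ℓ ∣ n) : (-(n : Kbar))⁻¹ ∈ A := by
  rw [inv_neg]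
  exact A.neg_mem _ (inv_natCast_mem_of_liesOver A n hℓ hn hA)

/-- **DR2, case `ℓ = 3`, `2 ∣ M`** (chart `h₂`). -/
theorem hasDR_haupt2 (H : Stmt_Haupt2) {M : ℕ} [NeZero M] (h2M : 2 ∣ M) (h3M : ¬ 3 ∣ M)
    (A : ValuationSubring Kbar) (hA : A.LiesOverPrime 3) :
    HasDR A (hasScale_laurentBaseChange A M) := by
  obtain ⟨hZ, P', Q', hord, hlead, hQ', hPQ, hPQ'⟩ := H
  have hPmap : ((X + C 256) ^ 3 : ℤ[X]).map (Int.castRingHom Kbar) = (X + C 256) ^ 3 := by
    simp only [Polynomial.map_pow, Polynomial.map_add, Polynomial.map_X, Polynomial.map_C]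
    simp only [eq_intCast, Int.cast_ofNat]
  have hQmap : ((X ^ 2 : ℤ[X])).map (Int.castRingHom Kbar) = X ^ 2 := by
    simp [Polynomial.map_pow]
  refine hasDR_of_haupt_int (p := 2) Nat.prime_two h2M Nat.prime_three h3M A hA hZ hord hlead
    ((X + C 256) ^ 3) (X ^ 2) P' Q' ((monic_X_add_C 256).pow 3) ?_ (monic_X_pow 2) ?_ hQ'
    hPQ hPQ' (-64) (by norm_num) ?_ ?_ ?_ ?_
  · rw [(monic_X_add_C (256 : ℤ)).natDegree_pow, natDegree_X_add_C]
  · rw [natDegree_X_pow]
    norm_num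
  · have : ((64 : ℕ) : Kbar) ∈ A := natCast_mem A 64
    have h2 := A.neg_mem _ this
    exact_mod_cast h2
  · have := neg_natCast_inv_mem Nat.prime_three A hA 64 (by decide)
    exact_mod_cast this
  · intro ρ hρ
    rw [hQmap] at hρ
    simpa using hρ
  · intro ρ _ h
    rw [hPmap, hQmap] at h
    simp only [eval_pow, eval_add, eval_X, eval_C] at h
    rcases h with ⟨h0, hd⟩ | ⟨h1, hd⟩
    · exact (haupt2_case0 ρ h0 hd).elim
    · exact haupt2_case1728 ρ h1 hd

/-- **DR2, case `ℓ = 2`, `3 ∣ M`** (chart `h₃`). -/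
theorem hasDR_haupt3 (H : Stmt_Haupt3) {M : ℕ} [NeZero M] (h3M : 3 ∣ M) (h2M : ¬ 2 ∣ M)
    (A : ValuationSubring Kbar) (hA : A.LiesOverPrime 2) :
    HasDR A (hasScale_laurentBaseChange A M) := by
  obtain ⟨hZ, P', Q', hord, hlead, hQ', hPQ, hPQ'⟩ := H
  have hPmap : ((X + C 27) * (X + C 243) ^ 3 : ℤ[X]).map (Int.castRingHom Kbar)
      = (X + C 27) * (X + C 243) ^ 3 := by
    simp only [Polynomial.map_pow, Polynomial.map_add, Polynomial.map_mul, Polynomial.map_X,
      Polynomial.map_C]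
    simp only [eq_intCast, Int.cast_ofNat]
  have hQmap : ((X ^ 3 : ℤ[X])).map (Int.castRingHom Kbar) = X ^ 3 := by
    simp [Polynomial.map_pow]
  refine hasDR_of_haupt_int (p := 3) Nat.prime_three h3M Nat.prime_two h2M A hA hZ hord hlead
    ((X + C 27) * (X + C 243) ^ 3) (X ^ 3) P' Q'
    ((monic_X_add_C 27).mul ((monic_X_add_C 243).pow 3)) ?_ (monic_X_pow 3) ?_ hQ'
    hPQ hPQ' (-27) (by norm_num) ?_ ?_ ?_ ?_
  · rw [(monic_X_add_C (27 : ℤ)).natDegree_mul ((monic_X_add_C (243 : ℤ)).pow 3),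
      (monic_X_add_C (243 : ℤ)).natDegree_pow, natDegree_X_add_C, natDegree_X_add_C]
  · rw [natDegree_X_pow]
    norm_num
  · have : ((27 : ℕ) : Kbar) ∈ A := natCast_mem A 27
    have h2 := A.neg_mem _ this
    exact_mod_cast h2
  · have := neg_natCast_inv_mem Nat.prime_two A hA 27 (by decide)
    exact_mod_cast this
  · intro ρ hρ
    rw [hQmap] at hρ
    simpa using hρ
  · intro ρ _ h
    rw [hPmap, hQmap] at h
    simp only [eval_pow, eval_add, eval_mul, eval_X, eval_C] at h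
    rcases h with ⟨h0, hd⟩ | ⟨h1, hd⟩
    · exact haupt3_case0 ρ h0 hd
    · exact (haupt3_case1728 ρ h1 hd).elim

/-- **Package DR2** from the two `q`-series inputs of IG-MOD23. -/
theorem stmt_DR2_of (H2 : Stmt_Haupt2) (H3 : Stmt_Haupt3) : Stmt_DR2 := by
  intro M ℓ _ hℓ hM hcase A hA
  rcases hcase with h5 | ⟨rfl, h2M⟩ | ⟨rfl, h3M⟩
  · exact hasDR_of_five_le M hℓ hM h5 A hA
  · exact hasDR_haupt2 H2 h2M hM A hA
  · exact hasDR_haupt3 H3 h3M hM A hA

end Cases

end Fermat.Agent.RED.H76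

end
end
-- ==== END Fermat.Agent.RED.H76_DR2Haupt

-- ==== BEGIN Fermat.Agent.S35.H89_ModSt
section
attribute [local instance 10000] SubalgebraClass.toAlgebra
attribute [local instance 10000] HahnSeries.powerSeriesAlgebra

/-!
# S35 (helper89): the modular interface `Stmt_ModSt` and `Stmt_TorsSt` from it

`Stmt_ModSt M q` = what the modular side (item 65, BAD_q) has to provide for S35, for every
valuation ring `A` of `ℚ̄` over `q ∤ M` and every Frobenius element `σ` at `A`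
(`F = F_{Mq} · ℚ̄`, `k` = residue field of `A`):

* a semistable Deuring datum `S` for `F` whose two residue fields are the SAME function field
  `E / k` (modular: `E` = residue field of the Gauss valuation, `red₂ = red₁ ∘ w_q`), with
  Riemann's theorem and enough nodes (as in `BAD.Stmt_ModSSD`);
* a semilinear automorphism `φ̄` of `E / k` (coefficientwise Frobenius) such that `τ = σ²` is
  Frobenius-like of exponent `q²` with `τ₁ = τ₂ = φ̄²`;
* maps `ρ, ρ' : Place F → Place E` (reduction of the image of a point under the two degeneracy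
  maps `α`, `β`) and `β : Place E → Place E` with the two laws of TOTAL conservation (helper79's
  `tot` and its `w_q`-mirror) and `ord_{β z} ψ = ord_z (φ̄ ψ)`;
* conservation at level `M`: if `α_* D` is principal then `ρ_* D` is principal; same for `β`.

`torsSt_of_modSt : Stmt_GlueFrobGen → Stmt_ModSt M q → Stmt_TorsSt M q p`   (with `c = 0`).
-/

set_option autoImplicit false
set_option linter.style.haveILetI false
set_option maxHeartbeats 1000000

noncomputable section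

open AlgebraicCurve ModularCurve Fermat.Agent.S28.H73 Fermat.Agent.RED.H73

attribute [local instance] Classical.propDecidable

namespace Fermat.Agent.S35.H89

open Fermat.Agent.RED.H17 Fermat.Agent.RED Fermat.Agent.BAD

/-- **The modular side of S35** at `(M, q)`. -/
def Stmt_ModSt (M q : ℕ) [NeZero M] [NeZero q] : Prop :=
  ∀ A : ValuationSubring (AlgebraicClosure ℚ), A.LiesOverPrime q →
    ∀ σ : GalQ, A.IsFrobeniusAt σ q →
    ∃ (E : Type) (_ : Field E) (_ : Algebra (kV A) E)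
      (S : SSD (AlgebraicClosure ℚ) ↥(FNbar (M * q)) (kV A) E E)
      (_ : FFHyp (AlgebraicClosure ℚ) ↥(FNbar (M * q))) (_ : FFHyp (kV A) E)
      (g g₁ : ℕ) (c c₁ : ℤ) (φb : SemilinearAut (kV A) E) (τb : E →+* E)
      (ρ ρ' : Place (AlgebraicClosure ℚ) ↥(FNbar (M * q)) → Place (kV A) E)
      (β : Place (kV A) E → Place (kV A) E),
      IsGenus (AlgebraicClosure ℚ) ↥(FNbar (M * q)) g c ∧ IsGenus (kV A) E g₁ c₁ ∧
      g + 1 ≤ g₁ + g₁ + S.nodes.card ∧
      (∀ ψ : E, τb ψ = φb • (φb • ψ)) ∧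
      S.IsFrobLike (galF (M * q) (σ * σ)) τb τb (q ^ 2) ∧
      (∀ (u₁ : S.c₁.V) (u₂ : S.c₂.V), S.c₁.red u₁ ≠ 0 → S.c₂.red u₂ ≠ 0 →
        (∃ a : AlgebraicClosure ℚ, (u₂ : ↥(FNbar (M * q))) =
          algebraMap (AlgebraicClosure ℚ) ↥(FNbar (M * q)) a * (u₁ : ↥(FNbar (M * q)))) →
        ∀ D : Divisor (AlgebraicClosure ℚ) ↥(FNbar (M * q)),
          (∀ P, D P = P.ord (u₁ : ↥(FNbar (M * q)))) → ∀ z : Place (kV A) E,
          Finsupp.mapDomain ρ D z = z.ord (S.c₁.red u₁) + (β z).ord (S.c₂.red u₂)) ∧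
      (∀ (u₁ : S.c₁.V) (u₂ : S.c₂.V), S.c₁.red u₁ ≠ 0 → S.c₂.red u₂ ≠ 0 →
        (∃ a : AlgebraicClosure ℚ, (u₂ : ↥(FNbar (M * q))) =
          algebraMap (AlgebraicClosure ℚ) ↥(FNbar (M * q)) a * (u₁ : ↥(FNbar (M * q)))) →
        ∀ D : Divisor (AlgebraicClosure ℚ) ↥(FNbar (M * q)),
          (∀ P, D P = P.ord (u₁ : ↥(FNbar (M * q)))) → ∀ z : Place (kV A) E,
          Finsupp.mapDomain ρ' D z = z.ord (S.c₂.red u₂) + (β z).ord (S.c₁.red u₁)) ∧
      (∀ (z : Place (kV A) E) (ψ : E), (β z).ord ψ = z.ord (φb • ψ)) ∧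
      (∀ (hα : HeckeAlphaBarIntegral (AlgebraicClosure ℚ) M q)
        (D : Divisor (AlgebraicClosure ℚ) ↥(FNbar (M * q))),
        (Divisor.pushforwardAlong (heckeAlphaBar (AlgebraicClosure ℚ) M q) hα D).IsPrincipal →
        ∃ h : E, h ≠ 0 ∧ ∀ z : Place (kV A) E, Finsupp.mapDomain ρ D z = z.ord h) ∧
      (∀ (hβ : HeckeBetaBarIntegral (AlgebraicClosure ℚ) M q)
        (D : Divisor (AlgebraicClosure ℚ) ↥(FNbar (M * q))),
        (Divisor.pushforwardAlong (heckeBetaBar (AlgebraicClosure ℚ) M q) hβ D).IsPrincipal →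
        ∃ h : E, h ≠ 0 ∧ ∀ z : Place (kV A) E, Finsupp.mapDomain ρ' D z = z.ord h)

section Pic

variable {K F : Type*} [Field K] [Field F] [Algebra K F]

/-- A class is zero iff a representative is principal. -/
theorem pic0_mk_eq_zero_iff (D : Divisor.degZero (K := K) (F := F)) :
    Pic0.mk D = 0 ↔ (D : Divisor K F).IsPrincipal := by
  rw [Pic0.mk, QuotientAddGroup.eq_zero_iff, AddSubgroup.mem_addSubgroupOf]
  exact Divisor.mem_principal

theorem pic0_mk_nsmul (n : ℕ) (D : Divisor.degZero (K := K) (F := F)) :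
    Pic0.mk (n • D) = n • Pic0.mk D := rfl

theorem pic0_mk_sub (D D' : Divisor.degZero (K := K) (F := F)) :
    Pic0.mk (D - D') = Pic0.mk D - Pic0.mk D' := rfl

end Pic

/-- **`Stmt_TorsSt` from GLUE and the modular datum** (with `c = 0`). -/
theorem torsSt_of_modSt (hG : Stmt_GlueFrobGen) (M q p : ℕ) [NeZero M] [NeZero q]
    (hS : Stmt_ModSt M q) : Stmt_TorsSt M q p := by
  intro hq _ hp hqp
  refine ⟨0, ?_⟩
  intro A hA σ hσ x hx hnew
  obtain ⟨m, hm⟩ := hx
  obtain ⟨hαI, hβI, D, rfl, hDα, hDβ⟩ := hnew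
  rw [pow_zero, one_smul]
  obtain ⟨E, iE, iA, S, H, HE, g, g₁, c, c₁, φb, τb, ρ, ρ', β, hR, hRE, hnum, hτb, hτ, htot,
    htot', hβ, hcα, hcβ⟩ := hS A hA σ hσ
  haveI : IsAlgClosed (kV A) := isAlgClosed_kV A
  set n : ℕ := p ^ m with hn
  have hqn : ¬ q ∣ n := by
    intro h
    have := hq.dvd_of_dvd_pow h
    exact hqp ((Nat.prime_dvd_prime_iff_eq hq hp).mp this)
  have hnk : ((n : ℕ) : kV A) ≠ 0 := H91.natCast_kV_ne_zero A hq hA hqn
  have hn0 : n ≠ 0 := pow_ne_zero _ hp.ne_zero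
  -- the Kummer function
  have hprin : ((n • D : Divisor.degZero (K := AlgebraicClosure ℚ) (F := ↥(FNbar (M * q)))) :
      Divisor (AlgebraicClosure ℚ) ↥(FNbar (M * q))).IsPrincipal := by
    rw [← pic0_mk_eq_zero_iff, pic0_mk_nsmul]
    exact hm
  obtain ⟨f, hf0, hf⟩ := hprin
  have hfD : ∀ P : Place (AlgebraicClosure ℚ) ↥(FNbar (M * q)),
      P.ord f = n * (D : Divisor (AlgebraicClosure ℚ) ↥(FNbar (M * q))) P := by
    intro P
    rw [← hf P]
    simp
  have hdiv : ∀ P : Place (AlgebraicClosure ℚ) ↥(FNbar (M * q)), (n : ℤ) ∣ P.ord f :=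
    fun P => ⟨_, hfD P⟩
  -- `q`-newness, in reduced form
  have hnew' : ∀ (r : Place (AlgebraicClosure ℚ) ↥(FNbar (M * q)) → Place (kV A) E),
      (∃ h : E, h ≠ 0 ∧ ∀ z : Place (kV A) E,
        Finsupp.mapDomain r (D : Divisor (AlgebraicClosure ℚ) ↥(FNbar (M * q))) z = z.ord h) →
      ∃ h : E, h ≠ 0 ∧ ∀ D' : Divisor (AlgebraicClosure ℚ) ↥(FNbar (M * q)),
        (∀ P, D' P = P.ord f) → ∀ z : Place (kV A) E,
          Finsupp.mapDomain r D' z = n * z.ord h := by
    rintro r ⟨h, hh0, hh⟩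
    refine ⟨h, hh0, fun D' hD' z => ?_⟩
    have e : D' = (n : ℤ) • (D : Divisor (AlgebraicClosure ℚ) ↥(FNbar (M * q))) := by
      ext P
      rw [hD' P, hfD P]
      simp
    rw [e, Finsupp.mapDomain_smul, Finsupp.smul_apply, hh z, smul_eq_mul]
  obtain ⟨t, ht⟩ := st_abs hG S H HE g g₁ c c₁ hR hRE hnum n hnk (galF (M * q) (σ * σ)) φb τb
    hτb (q ^ 2) hτ ρ ρ' β htot htot' hβ f hf0 hdiv (hnew' ρ (hcα hαI _ hDα))
    (hnew' ρ' (hcβ hβI _ hDβ))
  -- the class
  set τ : SemilinearAut (AlgebraicClosure ℚ) ↥(FNbar (M * q)) := galF (M * q) (σ * σ) with hτdef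
  have hσ2 : ∀ y : JZero (M * q), σ • σ • y = τ • y := by
    intro y
    rw [← mul_smul]
    rfl
  rw [hσ2, hσ2, SemilinearAut.pic0_smul_mk, SemilinearAut.pic0_smul_mk,
    ← pic0_mk_nsmul, ← pic0_mk_nsmul, ← pic0_mk_sub, ← Pic0.mk_add, pic0_mk_eq_zero_iff]
  have hτf0 : τ • f ≠ 0 := smul_ne_zero_of_ne_zero τ hf0
  have hττf0 : τ • (τ • f) ≠ 0 := smul_ne_zero_of_ne_zero τ hτf0
  have ht0 : t ≠ 0 := by
    rintro rfl
    rw [zero_pow hn0] at ht
    exact (div_ne_zero (mul_ne_zero hττf0 (pow_ne_zero _ hf0)) (pow_ne_zero _ hτf0)) ht.symm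
  refine ⟨t, ht0, fun P => ?_⟩
  have hordτ : ∀ (P : Place (AlgebraicClosure ℚ) ↥(FNbar (M * q))) (y : ↥(FNbar (M * q))),
      P.ord (τ • y) = (τ⁻¹ • P).ord y := fun P y => ord_smul_eq τ P y
  have h1 : (n : ℤ) * P.ord t = P.ord ((τ • (τ • f)) * f ^ (q ^ 2) / (τ • f) ^ (q ^ 2 + 1)) := by
    rw [← ht, ord_pow]
  rw [ord_div P (mul_ne_zero hττf0 (pow_ne_zero _ hf0)) (pow_ne_zero _ hτf0),
    P.ord_mul hττf0 (pow_ne_zero _ hf0), ord_pow, ord_pow, hordτ, hordτ, hordτ, hfD, hfD, hfD]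
    at h1
  have hnZ : (n : ℤ) ≠ 0 := by exact_mod_cast hn0
  apply mul_left_cancel₀ hnZ
  rw [h1]
  simp only [AddSubgroup.coe_add, AddSubgroup.coe_sub, AddSubgroup.coe_nsmul,
    SemilinearAut.coe_degZeroSMulHom, Finsupp.add_apply, Finsupp.sub_apply, Finsupp.smul_apply,
    SemilinearAut.divisor_smul_apply, smul_eq_mul, nsmul_eq_mul]
  push_cast
  ring

end Fermat.Agent.S35.H89

end
end
-- ==== END Fermat.Agent.S35.H89_ModSt

-- ==== BEGIN Fermat.Agent.S36.H44_Y1
section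

/-!
# S35 / S36, T-X (route Y), helper44: `GTor.Stmt_Y1 M q`, unconditionally

The degeneracy push-forwards `α_*, β_* : J₀(M q) → J₀(M)` commute with the Hecke operators `T_ℓ`,
`ℓ ∤ M q`, and their common kernel consists of `q`-new classes.  No hypothesis on `q`.
-/

set_option autoImplicit false
set_option linter.style.haveILetI false
set_option linter.unusedSectionVars false

noncomputable section

namespace Fermat.Agent.S36.H44

open AlgebraicCurve ModularCurve Fermat.Agent.S24 Fermat.Agent.Lib.HeckeComm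
  Fermat.Agent.GTor Fermat.Agent.GTor.H2

local notation "Kb" => AlgebraicClosure ℚ

/-- **`β_* T_ℓ = T_ℓ β_*`** for the primes `ℓ ∤ M q`. -/
theorem betaPush_hecke (M q : ℕ) [NeZero M] [NeZero q] (ℓ : Nat.Primes)
    (hℓ : ¬ (ℓ : ℕ) ∣ M * q) (x : JZero (M * q)) :
    betaPush M q (heckeOperatorBar (M * q) ℓ x) = heckeOperatorBar M ℓ (betaPush M q x) := by
  haveI : NeZero (ℓ : ℕ) := ⟨ℓ.2.ne_zero⟩
  exact pic0Push_hecke_of M q ℓ (heckeBetaBar Kb M q) (beta_integral M q) (beta_finite M q)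
    (beta_norm M q) (fun f _ => beta_norm_comm M q ℓ ℓ.2 hℓ f) x

/-- **(Y1)**, unconditionally. -/
theorem stmt_Y1 (M q : ℕ) [NeZero M] [NeZero q] : Fermat.Agent.GTor.Stmt_Y1 M q :=
  ⟨alphaPush M q, betaPush M q, fun ℓ hℓ x => alphaPush_hecke M q ℓ hℓ x,
    fun ℓ hℓ x => betaPush_hecke M q ℓ hℓ x, fun x h1 h2 => isQNew_of_push M q x h1 h2⟩

end Fermat.Agent.S36.H44

end
end
-- ==== END Fermat.Agent.S36.H44_Y1
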