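-- GENERATED (merged mirror, NOTES/tools/trim/merge3_helper67.py): 10 modules of the originals, bodies verbatim.
import Fermat.Agent.Zm.S35_L16_000
import Fermat.Agent.Zm.S35_L17_000
import Fermat.Agent.Zm.S35_L14_001
import Fermat.Agent.BAD.H21_SSBridge
import Fermat.Agent.Zm.S35_L13_001
import Fermat.Agent.Zm.S35_L15_000
import Fermat.Agent.Zm.S35_L08_001
import Fermat.Agent.Zm.S35_L15_001
import Fermat.Agent.Zm.S35_L04_000
import Fermat.Agent.Zm.S35_L11_000
import Fermat.Agent.Zm.S35_L06_002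
import Fermat.Agent.Zm.S35_L05_002
import Fermat.Agent.Zm.S35_L08_000
import Fermat.Agent.Zm.S35_L09_001
import Fermat.Agent.Zm.S35_L14_002
import Fermat.Agent.Zm.S35_L02_000
import Fermat.Agent.Zm.S35_L16_001
import Fermat.Agent.Zm.S35_L12_001

-- ==== BEGIN Fermat.Agent.BAD.H30_Num23Data
section
attribute [local instance 10000] SubalgebraClass.toAlgebra
attribute [local instance 10000] HahnSeries.powerSeriesAlgebra

/-!
# BAD_q, leaf NUM-23 (helper30): the Hauptmodul chart, data

`p ∣ M`, `ℓ ∤ M`, `A` over `ℓ`, `hZ ∈ ℤ((q))` a Hauptmodul of level `p` given by identities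
`P(hZ) = j Q(hZ)`, `P'(hZ) = j(q^p) Q'(hZ)` over `ℤ`.

* `num23_haupt_data` : the image `x` of `hZ` in `F_M · ℚ̄` with: the five chart fields,
  `(p + 1) [F_M ℚ̄ : ℚ̄(x)] = ψ(M)`, the branch values of `x` are `0` and `c`, and the identity
  `P(x) = j Q(x)` in `F_M · ℚ̄` and in the reduced field.
* `num23_fibre_ge` : (FIB ≥, helper34) for the chart `x`, in terms of places.
* `num23_resO_intCast` : the residue of an integer constant.
-/

set_option autoImplicit false
set_option linter.style.haveILetI false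
set_option linter.unusedSectionVars false
set_option synthInstance.maxHeartbeats 400000
set_option maxHeartbeats 1000000

noncomputable section

open AlgebraicCurve IntermediateField Polynomial

namespace Fermat.Agent.BAD.H30

open ModularCurve Fermat.Agent.S28.H73 Fermat.Agent.RED.H73 Fermat.Agent.RED.H34
  Fermat.Agent.RED.H76 Fermat.Agent.RED.H51 Fermat.Agent.RED.H79
open Fermat.Agent.S24 (Kbar FN)

section Generic

/-- **The Hauptmodul chart at level `M`**. -/
theorem num23_haupt_data {p ℓ : ℕ} [NeZero p] (hp : p.Prime) {M : ℕ} [NeZero M] (hpM : p ∣ M)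
    (hℓ : ℓ.Prime) (hℓM : ¬ ℓ ∣ M)
    (A : ValuationSubring Kbar) (hA : A.LiesOverPrime ℓ)
    (hZ : LaurentSeries ℤ) (hord : hZ.order < 0) (hlead : hZ.leadingCoeff = 1)
    (P Q P' Q' : ℤ[X]) (hP : P.Monic) (hPd : P.natDegree = p + 1)
    (hQ : Q.Monic) (hQd : Q.natDegree < p + 1) (hQ' : Q'.Monic)
    (hPQ : aeval hZ P = jqModC ℤ * aeval hZ Q)
    (hPQ' : aeval hZ P' = qExpand ℤ p (jqModC ℤ) * aeval hZ Q')
    (c : Kbar)
    (hQroot : ∀ ρ : Kbar, (Q.map (Int.castRingHom Kbar)).eval ρ = 0 → ρ = 0)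
    (hbr : ∀ ρ : Kbar, ρ ≠ 0 →
      (((P.map (Int.castRingHom Kbar)).eval ρ = 0 ∧
          ¬ (X - C ρ) ^ 2 ∣ P.map (Int.castRingHom Kbar)) ∨
        ((P.map (Int.castRingHom Kbar)).eval ρ = 1728 * (Q.map (Int.castRingHom Kbar)).eval ρ ∧
          ¬ (X - C ρ) ^ 2 ∣
            P.map (Int.castRingHom Kbar) - C 1728 * Q.map (Int.castRingHom Kbar))) →
      ρ = c) :
    ∃ (x : ↥(laurentBaseChange Kbar (modularFunctionFieldFull M)))
      (hx : x ∈ (redSetting A (hasScale_laurentBaseChange A M)).V),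
      ChartPre (redSetting A (hasScale_laurentBaseChange A M)) x hx ∧
      (p + 1) * Module.finrank Kbar⟮x⟯ ↥(laurentBaseChange Kbar (modularFunctionFieldFull M))
        = dedekindPsi M ∧
      (∀ ρ : Kbar, IsBranchValue x ρ → ρ = 0 ∨ ρ = c) ∧
      aeval x (P.map (Int.castRingHom Kbar))
        = Fermat.Agent.RED.H73.jF (L := Kbar) M * aeval x (Q.map (Int.castRingHom Kbar)) ∧
      aeval ((redSetting A (hasScale_laurentBaseChange A M)).red ⟨x, hx⟩)
          (P.map (Int.castRingHom (kV A)))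
        = (redSetting A (hasScale_laurentBaseChange A M)).red
            ⟨Fermat.Agent.RED.H73.jF (L := Kbar) M, jF_mem A M⟩
          * aeval ((redSetting A (hasScale_laurentBaseChange A M)).red ⟨x, hx⟩)
            (Q.map (Int.castRingHom (kV A))) := by
  haveI : IsAlgClosed (kV A) := isAlgClosed_kV A
  have hM : ((M : Kbar))⁻¹ ∈ A := inv_natCast_mem_of_liesOver A M hℓ hℓM hA
  obtain ⟨x, hx, hx', hxcoe, hxred, G, -⟩ :=
    chartPre_haupt_int hp hpM A hM hZ hord hlead P Q P' Q' hP hPd hQ hQd hQ' hPQ hPQ'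
  obtain ⟨i1, i2⟩ := haupt_identities_map (p := p) Kbar hZ P Q P' Q' hPQ hPQ'
  obtain ⟨k1, -⟩ := haupt_identities_map (p := p) (kV A) hZ P Q P' Q' hPQ hPQ'
  -- the identity in `F_M`
  have hid : aeval x (P.map (Int.castRingHom Kbar))
      = Fermat.Agent.RED.H73.jF (L := Kbar) M * aeval x (Q.map (Int.castRingHom Kbar)) := by
    apply Subtype.ext
    have e : ∀ q : Kbar[X], ((aeval x q : ↥(laurentBaseChange Kbar (modularFunctionFieldFull M)))
        : LaurentSeries Kbar) = aeval (x : LaurentSeries Kbar) q := fun q =>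
      (Polynomial.aeval_algHom_apply
        (laurentBaseChange Kbar (modularFunctionFieldFull M)).val x q).symm
    rw [MulMemClass.coe_mul, e, e, hxcoe]
    exact i1
  -- the identity in the reduced field
  have hidk : aeval ((redSetting A (hasScale_laurentBaseChange A M)).red ⟨x, hx⟩)
          (P.map (Int.castRingHom (kV A)))
        = (redSetting A (hasScale_laurentBaseChange A M)).red
            ⟨Fermat.Agent.RED.H73.jF (L := Kbar) M, jF_mem A M⟩
          * aeval ((redSetting A (hasScale_laurentBaseChange A M)).red ⟨x, hx⟩)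
            (Q.map (Int.castRingHom (kV A))) := by
    apply Subtype.ext
    have e : ∀ (y : ↥(redField A (laurentBaseChange Kbar (modularFunctionFieldFull M))
        (hasScale_laurentBaseChange A M))) (q : (kV A)[X]),
        ((aeval y q : ↥(redField A (laurentBaseChange Kbar (modularFunctionFieldFull M))
          (hasScale_laurentBaseChange A M))) : LaurentSeries (kV A))
          = aeval (y : LaurentSeries (kV A)) q := fun y q =>
      (Polynomial.aeval_algHom_apply
        (redField A (laurentBaseChange Kbar (modularFunctionFieldFull M))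
          (hasScale_laurentBaseChange A M)).val y q).symm
    rw [MulMemClass.coe_mul, e, e, hxred, red_jF]
    exact k1
  have hxt : Transcendental Kbar x :=
    Fermat.Agent.RED.H34.RedSetting.transcendental_x hx G.transc
  haveI := G.fin
  -- `P - a Q ≠ 0`
  have hne : ∀ a : Kbar, P.map (Int.castRingHom Kbar) - C a * Q.map (Int.castRingHom Kbar)
      ≠ 0 := by
    intro a
    have hPm : (P.map (Int.castRingHom Kbar)).Monic := hP.map _
    have hdeg : (C a * Q.map (Int.castRingHom Kbar)).degree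
        < (P.map (Int.castRingHom Kbar)).degree := by
      refine degree_lt_degree (lt_of_le_of_lt (natDegree_C_mul_le a _) ?_)
      rw [hQ.natDegree_map, hP.natDegree_map, hPd]
      exact hQd
    exact (hPm.sub_of_left hdeg).ne_zero
  -- branch values of `x`
  have hbrx : ∀ ρ : Kbar, IsBranchValue x ρ → ρ = 0 ∨ ρ = c := by
    intro ρ hρ
    by_cases h0 : ρ = 0
    · exact Or.inl h0
    · right
      have hQρ : (Q.map (Int.castRingHom Kbar)).eval ρ ≠ 0 := fun h => h0 (hQroot ρ h)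
      exact hbr ρ h0 (branch_haupt M x hxt _ _ hid hne hQρ hρ)
  -- the degree
  have o1 := coeffMap_order_neg (Int.castRingHom Kbar) hord hlead
  have H2 := haupt_H2_bar hp _ _ _ _ (hP.map (Int.castRingHom Kbar))
    (by rw [hP.natDegree_map, hPd]) (by rw [hQ.natDegree_map]; exact hQd) i1
    (aeval_ne_zero_of_order_neg o1 (hQ.map _).ne_zero) i2
    (aeval_ne_zero_of_order_neg o1 (hQ'.map _).ne_zero)
  have hdeg : (p + 1) * Module.finrank Kbar⟮x⟯
      ↥(laurentBaseChange Kbar (modularFunctionFieldFull M)) = dedekindPsi M := by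
    have h1 := haupt_relfinrank_mul hpM (caDataBar p) (caDataBar M) H2
    rw [card_Q_eq_psi, card_Q_eq_psi, dedekindPsi_prime hp] at h1
    rw [finrank_adjoin_simple_subtype, hxcoe]
    rw [← h1]
    exact congrArg (fun B => (p + 1) * (IntermediateField.adjoin Kbar
      ({coeffMap (Int.castRingHom Kbar) hZ} : Set (LaurentSeries Kbar))).relfinrank B)
      (laurentBaseChange_full_eq M)
  exact ⟨x, hx, G, hdeg, hbrx, hid, hidk⟩

/-- **(FIB ≥)** for a chart `x` with the five chart fields, in terms of places. -/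
theorem num23_fibre_ge (M : ℕ) [NeZero M] (A : ValuationSubring Kbar)
    (x : ↥(laurentBaseChange Kbar (modularFunctionFieldFull M)))
    (hx : x ∈ (redSetting A (hasScale_laurentBaseChange A M)).V)
    (G : ChartPre (redSetting A (hasScale_laurentBaseChange A M)) x hx)
    (ρ : ↥(redSetting A (hasScale_laurentBaseChange A M)).O)
    (hρ : ∀ ρ' : ↥(redSetting A (hasScale_laurentBaseChange A M)).O,
      IsBranchValue x (ρ' : Kbar) →
      (redSetting A (hasScale_laurentBaseChange A M)).resO ρ'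
        = (redSetting A (hasScale_laurentBaseChange A M)).resO ρ → ρ' = ρ) :
    Nat.card {v : Place Kbar (FN M) // 0 < v.ord (x - algebraMap Kbar (FN M) (ρ : Kbar))}
      ≤ Nat.card {z : Place (kV A) ↥(redField A
          (laurentBaseChange Kbar (modularFunctionFieldFull M))
          (hasScale_laurentBaseChange A M)) //
        0 < z.ord ((redSetting A (hasScale_laurentBaseChange A M)).red ⟨x, hx⟩
          - algebraMap (kV A) _
            ((redSetting A (hasScale_laurentBaseChange A M)).resO ρ))} := by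
  haveI : IsAlgClosed (kV A) := isAlgClosed_kV A
  haveI := G.fin
  haveI := G.sep
  haveI := G.sept
  haveI hfdt := RedSetting.finiteDimensional_red hx G.deg
  have hxt : Transcendental Kbar x := RedSetting.transcendental_x hx G.transc
  rw [← card_ptsOver _ hxt (ρ : Kbar),
    ← card_ptsOver _ G.transc ((redSetting A (hasScale_laurentBaseChange A M)).resO ρ),
    Nat.card_coe_set_eq, Nat.card_coe_set_eq]
  exact RedSetting.ncard_ptsOver_red_ge hx G.transc G.deg ρ hρ

/-- The residue of an integer constant. -/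
theorem num23_resO_intCast {C F k Ft : Type} [Field C] [Field F] [Algebra C F] [Field k]
    [Field Ft] [Algebra k Ft] (S : RedSetting C F k Ft) (n : ℤ) (h : (n : C) ∈ S.O) :
    S.resO ⟨(n : C), h⟩ = (n : k) := by
  have e : (⟨(n : C), h⟩ : ↥S.O) = ((n : ℤ) : ↥S.O) := Subtype.ext (by push_cast; rfl)
  rw [e, map_intCast]

end Generic

end Fermat.Agent.BAD.H30

end
end
-- ==== END Fermat.Agent.BAD.H30_Num23Data

-- ==== BEGIN Fermat.Agent.BAD.H30_UnitGaussSS
section

/-!
# BAD_q, UNIT-GAUSS + (SS) (helper30): the reduction of the modular unit is `H(j~)`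

Bridge between `H30_UnitGauss` (`gaussRes (unitF N q) = (Δ~ ^ (q - 1))⁻¹`) and helper21's
supersingular polynomial (`H21_supersingular_jq` : `H(j~) = (Δ~ ^ (q - 1))⁻¹`).

* `deltaR_eq_DL` : `deltaR F = H21_DL F`;
* `gaussRes_unitF_eq_aeval` : for `q ≥ 5`, `A` over `q`, `q ∣ N`: there are `H ≠ 0` and the finite
  set `S` of its roots, `#S = m + a + b`, with `gaussRes (unitF N q) = H(j~)`;
* `gaussRes_unitF_small` : for `q = 2, 3`: `gaussRes (unitF N q) = j~ ^ (q - 1)`.
-/

set_option autoImplicit false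
set_option linter.unusedSectionVars false
set_option linter.unusedVariables false

open ModularCurve Fermat.Agent.S28 Fermat.Agent.S28.H73 Fermat.Agent.RED.H73

noncomputable section

namespace Fermat.Agent.BAD.H30

open Fermat.Agent.BAD.H21

theorem deltaR_eq_DL (F : Type*) [Field F] : deltaR F = H21_DL F := by
  rw [H21_DL, H21_Db, ← H21_X_mul_etaUnit, map_mul, PowerSeries.map_X, map_mul,
    HahnSeries.ofPowerSeries_X]
  rfl

section Main

variable (A : ValuationSubring (AlgebraicClosure ℚ)) (N : ℕ) [NeZero N] (q : ℕ) [Fact q.Prime]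

/-- **UNIT + (SS)**, `q ≥ 5`: the Gauss reduction of `Δ(t)/Δ(t^q)` is `H(j~)`, `H` the
supersingular polynomial. -/
theorem gaussRes_unitF_eq_aeval (hA : A.LiesOverPrime q) (hd : q ∣ N) (h5 : 5 ≤ q) :
    haveI : NeZero q := ⟨(Fact.out : q.Prime).ne_zero⟩
    ∃ (H : Polynomial (kV A)) (S : Finset (kV A)), H ≠ 0 ∧
      ((gaussRes A N ⟨unitF N q hd, unitF_mem_gaussV A N q hd⟩ :
        ↥(redField A (FNbar N) (hasScale_laurentBaseChange A N))) : LaurentSeries (kV A))
        = Polynomial.aeval (jqModC (kV A)) H ∧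
      (∀ x, x ∈ S ↔ H.IsRoot x) ∧
      S.card = H21_ssM q + H21_ssA q + H21_ssB q ∧
      ((0 : kV A) ∈ S ↔ q % 3 = 2) ∧ ((1728 : kV A) ∈ S ↔ q % 4 = 3) := by
  have : NeZero q := ⟨(Fact.out : q.Prime).ne_zero⟩
  have : CharP (kV A) q := Fermat.Agent.BAD.H82.charP_kV A (Fact.out : q.Prime) hA
  have : IsAlgClosed (kV A) := Fermat.Agent.RED.H73.isAlgClosed_kV A
  obtain ⟨H, S, hH0, hH, hS, hcard, h0, h1728⟩ :=
    H21_supersingular_jq (F := kV A) (ℓ := q) h5
  refine ⟨H, S, hH0, ?_, hS, hcard, h0, h1728⟩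
  rw [gaussRes_unitF_char A N q hA hd, hH, deltaR_eq_DL]

/-- **UNIT + (SS)**, `q = 2, 3`: the Gauss reduction of `Δ(t)/Δ(t^q)` is `j~ ^ (q - 1)`. -/
theorem gaussRes_unitF_small (hA : A.LiesOverPrime q) (hd : q ∣ N) (h23 : q = 2 ∨ q = 3) :
    haveI : NeZero q := ⟨(Fact.out : q.Prime).ne_zero⟩
    ((gaussRes A N ⟨unitF N q hd, unitF_mem_gaussV A N q hd⟩ :
        ↥(redField A (FNbar N) (hasScale_laurentBaseChange A N))) : LaurentSeries (kV A))
      = jqModC (kV A) ^ (q - 1) := by
  have : NeZero q := ⟨(Fact.out : q.Prime).ne_zero⟩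
  have : CharP (kV A) q := Fermat.Agent.BAD.H82.charP_kV A (Fact.out : q.Prime) hA
  rw [gaussRes_unitF_char A N q hA hd, H21_supersingular_jq_small (F := kV A) (ℓ := q) h23,
    deltaR_eq_DL]

end Main

end Fermat.Agent.BAD.H30

end
end
-- ==== END Fermat.Agent.BAD.H30_UnitGaussSS

-- ==== BEGIN Fermat.Agent.GTor.H81_TatePieceFinal
section

/-!
# G-TOR: `S30.Stmt_TatePiece` from the three packages that are still open  (helper81)

* `Stmt_DESC`      (descent `ℂ → ℚ̄` of unramified Kummer classes; helper75)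
* `H2.Stmt_HKan`   (analytic half of the Hecke compatibility; helper44, helper76)
* `AllRed`         (G-RED: reduction packages at all `ℓ ∤ N p`; helper36)
-/

set_option autoImplicit false

noncomputable section

namespace Fermat.Agent.GTor.H81

open AlgebraicCurve ModularCurve Fermat.Agent.GTor Fermat.Agent.Betti

/-- **BETTI**, unconditional: `U_n(F_ℂ) ≃ homPE(Γ₀(N), ℤ/n)`. -/
theorem stmt_BETTI_final (N n : ℕ) [NeZero N] (hn : n ≠ 0) : Stmt_BETTI N n :=
  stmt_BETTI N n hn (Clo.stmt_A3 N) (Clo.stmt_A4 N) (Clo.stmt_A5 N)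

/-- **TORc** from DESC. -/
theorem stmt_TORc_final (N n : ℕ) [NeZero N] (hn : n ≠ 0) (hD : Stmt_DESC N n) :
    Stmt_TORc N n :=
  stmt_TORc N n hn (Clo.stmt_A3 N) (Clo.stmt_A4 N) (Clo.stmt_A5 N) hD

/-- **TOR** from DESC: `J₀(N)[n] ≃ homPE(Γ₀(N), ℤ/n)`. -/
theorem stmt_TOR_final (N n : ℕ) [NeZero N] (hn : n ≠ 0) (hD : Stmt_DESC N n) :
    Stmt_TOR N n :=
  tor_of_torc N n (stmt_TORc_final N n hn hD)

/-- **`Stmt_TatePiece`** from DESC, HK-an and G-RED. -/
theorem tatePiece_final
    (hD : ∀ (N : ℕ) [NeZero N] (n : ℕ), n ≠ 0 → Stmt_DESC N n)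
    (hHKan : ∀ (N : ℕ) [NeZero N] (n : ℕ), n ≠ 0 → H2.Stmt_HKan N n)
    (hRed : ∀ (N : ℕ) [NeZero N] (p : ℕ), p.Prime → AllRed N p) : S30.Stmt_TatePiece :=
  tatePiece_of (fun N _ => Clo.stmt_A3 N) (fun N _ => Clo.stmt_A4 N) (fun N _ => Clo.stmt_A5 N)
    hD (fun N _ n hn => H2.hk_of_an N n (hHKan N n hn)) (fun N _ => H77.stmt_torsLift N) hRed
    Betti.stmt_basis Betti.H76.stmt_matrixRep

end Fermat.Agent.GTor.H81

end
end
-- ==== END Fermat.Agent.GTor.H81_TatePieceFinal

-- ==== BEGIN Fermat.Agent.RED.H76_DR2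
section

/-!
# G-RED (helper76): package DR2, unconditional

`stmt_DR2 : Stmt_DR2` — the Deuring datum of `X₀(M)` at every place over `ℓ ∤ M` in the three
cases `ℓ ≥ 5`, `ℓ = 3 ∧ 2 ∣ M`, `ℓ = 2 ∧ 3 ∣ M`.  Assembled from `stmt_DR2_of` with the two
`q`-series inputs of IG-MOD23: helper70's `hZ2` (`(h+256)³ = j h²`, `(h+16)³ = j(q²) h`) and
helper29's `hZ3` (`(h+27)(h+243)³ = j h³`, `(h+27)(h+3)³ = j(q³) h`).
-/

set_option autoImplicit false

noncomputable section

namespace Fermat.Agent.RED.H76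

/-- The `q`-series input at `p = 2` (helper70). -/
theorem stmt_Haupt2 : Stmt_Haupt2 :=
  stmt_Haupt2_of_ring Fermat.Agent.RED.H70.hZ2 Fermat.Agent.RED.H70.hZ2_order
    Fermat.Agent.RED.H70.hZ2_leadingCoeff Fermat.Agent.RED.H70.hZ2_ident
    Fermat.Agent.RED.H70.hZ2_ident'

/-- The `q`-series input at `p = 3` (helper29). -/
theorem stmt_Haupt3 : Stmt_Haupt3 :=
  stmt_Haupt3_of_ring Fermat.Agent.RED.H29.hZ3 Fermat.Agent.RED.H29.hZ3_order_neg
    Fermat.Agent.RED.H29.hZ3_leadingCoeff Fermat.Agent.RED.H29.hZ3_one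
    Fermat.Agent.RED.H29.hZ3_two

/-- **Package DR2**, unconditional. -/
theorem stmt_DR2 : Fermat.Agent.RED.Stmt_DR2 :=
  stmt_DR2_of stmt_Haupt2 stmt_Haupt3

end Fermat.Agent.RED.H76

end
end
-- ==== END Fermat.Agent.RED.H76_DR2

-- ==== BEGIN Fermat.Agent.S35.H89_StCore
section

/-!
# S35 (helper89): the Kummer form `Stmt_StCore` of the Steinberg relation

`Stmt_StCore M q` (`q ∤ M` is not assumed here): for every valuation ring `A` of `ℚ̄` over `q`,
every Frobenius `σ` at `A`, every `n` prime to `q` and every function `f ≠ 0` of level `M q` with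
`n ∣ div f` whose divisor has push-forwards `n · div g`, `n · div g'` along the two degeneracy
maps to level `M`:

  `(σ⁴ f) · f ^ (q²) / (σ² f) ^ (q² + 1)` is an `n`-th power in `F_{M q} · ℚ̄`.

* `torsSt_of_stCore : Stmt_StCore M q → Stmt_TorsSt M q p` (with `c = 0`);
* `stCore_of_modSt : Stmt_GlueFrobGen → Stmt_ModSt M q → Stmt_StCore M q`.

The Kummer form is the one which DESCENDS from the tame auxiliary level `r M q` (`r = 2, 3`) to
level `M q` (Kummer descent `RED.Stmt_KD` + base change of the norm), as for helper91's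
`b1core_descend`.
-/

set_option autoImplicit false
set_option linter.style.haveILetI false
set_option maxHeartbeats 1000000

noncomputable section

open AlgebraicCurve ModularCurve Fermat.Agent.S28.H73 Fermat.Agent.RED.H73

attribute [local instance] Classical.propDecidable

namespace Fermat.Agent.S35.H89

open Fermat.Agent.RED.H17 Fermat.Agent.RED Fermat.Agent.BAD

/-- **Kummer form of (St)** at `(M, q)`. -/
def Stmt_StCore (M q : ℕ) [NeZero M] [NeZero q] : Prop :=
  ∀ A : ValuationSubring (AlgebraicClosure ℚ), A.LiesOverPrime q →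
    ∀ σ : GalQ, A.IsFrobeniusAt σ q → ∀ n : ℕ, ¬ q ∣ n →
    ∀ f : ↥(FNbar (M * q)), f ≠ 0 →
      (∀ P : Place (AlgebraicClosure ℚ) ↥(FNbar (M * q)), (n : ℤ) ∣ P.ord f) →
    ∀ (hα : HeckeAlphaBarIntegral (AlgebraicClosure ℚ) M q)
      (hβ : HeckeBetaBarIntegral (AlgebraicClosure ℚ) M q)
      (D : Divisor (AlgebraicClosure ℚ) ↥(FNbar (M * q))), (∀ P, D P = P.ord f) →
      (∃ g : ↥(FNbar M), g ≠ 0 ∧ ∀ Q : Place (AlgebraicClosure ℚ) ↥(FNbar M),
        Divisor.pushforwardAlong (heckeAlphaBar (AlgebraicClosure ℚ) M q) hα D Q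
          = n * Q.ord g) →
      (∃ g : ↥(FNbar M), g ≠ 0 ∧ ∀ Q : Place (AlgebraicClosure ℚ) ↥(FNbar M),
        Divisor.pushforwardAlong (heckeBetaBar (AlgebraicClosure ℚ) M q) hβ D Q
          = n * Q.ord g) →
      ∃ t : ↥(FNbar (M * q)), t ^ n =
        (galF (M * q) (σ * σ) • (galF (M * q) (σ * σ) • f)) * f ^ (q ^ 2)
          / (galF (M * q) (σ * σ) • f) ^ (q ^ 2 + 1)

section Div

variable {K F : Type*} [Field K] [Field F] [Algebra K F]

/-- The divisor `D / n` for a divisor all of whose coefficients are divisible by `n`. -/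
def divBy (n : ℕ) (D : Divisor K F) : Divisor K F :=
  Finsupp.mapRange (fun a : ℤ => a / (n : ℤ)) (by simp) D

theorem divBy_apply (n : ℕ) (D : Divisor K F) (P : Place K F) :
    divBy n D P = D P / (n : ℤ) := by
  unfold divBy
  rw [Finsupp.mapRange_apply]

theorem nsmul_divBy (n : ℕ) (D : Divisor K F) (h : ∀ P, (n : ℤ) ∣ D P) :
    (n : ℤ) • divBy n D = D := by
  ext P
  rw [Finsupp.smul_apply, divBy_apply, smul_eq_mul]
  exact Int.mul_ediv_cancel' (h P)

end Div

/-- **`Stmt_TorsSt` from the Kummer form** (with `c = 0`). -/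
theorem torsSt_of_stCore (M q p : ℕ) [NeZero M] [NeZero q] (hS : Stmt_StCore M q) :
    Stmt_TorsSt M q p := by
  intro hq _ hp hqp
  refine ⟨0, ?_⟩
  intro A hA σ hσ x hx hnew
  obtain ⟨m, hm⟩ := hx
  obtain ⟨hαI, hβI, D, rfl, hDα, hDβ⟩ := hnew
  rw [pow_zero, one_smul]
  set n : ℕ := p ^ m with hn
  have hqn : ¬ q ∣ n := by
    intro h
    have := hq.dvd_of_dvd_pow h
    exact hqp ((Nat.prime_dvd_prime_iff_eq hq hp).mp this)
  have hn0 : n ≠ 0 := pow_ne_zero _ hp.ne_zero
  -- the Kummer function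
  have hprin : ((n • D : Divisor.degZero (K := AlgebraicClosure ℚ) (F := ↥(FNbar (M * q)))) :
      Divisor (AlgebraicClosure ℚ) ↥(FNbar (M * q))).IsPrincipal := by
    rw [← pic0_mk_eq_zero_iff, pic0_mk_nsmul]
    exact hm
  obtain ⟨f, hf0, hf⟩ := hprin
  have hfD : ∀ P : Place (AlgebraicClosure ℚ) ↥(FNbar (M * q)),
      P.ord f = n * (D : Divisor (AlgebraicClosure ℚ) ↥(FNbar (M * q))) P := by
    intro P
    rw [← hf P]
    simp
  have hdiv : ∀ P : Place (AlgebraicClosure ℚ) ↥(FNbar (M * q)), (n : ℤ) ∣ P.ord f :=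
    fun P => ⟨_, hfD P⟩
  -- the divisor of `f`
  set Df : Divisor (AlgebraicClosure ℚ) ↥(FNbar (M * q)) :=
    (n : ℤ) • (D : Divisor (AlgebraicClosure ℚ) ↥(FNbar (M * q))) with hDf
  have hDf' : ∀ P, Df P = P.ord f := by
    intro P
    rw [hfD P, hDf]
    simp
  have hpush : ∀ (φ : ↥(FNbar M) →ₐ[AlgebraicClosure ℚ] ↥(FNbar (M * q)))
      (hφ : φ.toRingHom.IsIntegral),
      (Divisor.pushforwardAlong φ hφ
        (D : Divisor (AlgebraicClosure ℚ) ↥(FNbar (M * q)))).IsPrincipal →
      ∃ g : ↥(FNbar M), g ≠ 0 ∧ ∀ Q : Place (AlgebraicClosure ℚ) ↥(FNbar M),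
        Divisor.pushforwardAlong φ hφ Df Q = n * Q.ord g := by
    rintro φ hφ ⟨g, hg0, hg⟩
    refine ⟨g, hg0, fun Q => ?_⟩
    rw [hDf, map_zsmul, Finsupp.smul_apply, smul_eq_mul, hg Q]
  obtain ⟨t, ht⟩ := hS A hA σ hσ n hqn f hf0 hdiv hαI hβI Df hDf'
    (hpush _ hαI hDα) (hpush _ hβI hDβ)
  -- the class
  set τ : SemilinearAut (AlgebraicClosure ℚ) ↥(FNbar (M * q)) := galF (M * q) (σ * σ) with hτdef
  have hσ2 : ∀ y : JZero (M * q), σ • σ • y = τ • y := by
    intro y
    rw [← mul_smul]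
    rfl
  rw [hσ2, hσ2, SemilinearAut.pic0_smul_mk, SemilinearAut.pic0_smul_mk,
    ← pic0_mk_nsmul, ← pic0_mk_nsmul, ← pic0_mk_sub, ← Pic0.mk_add, pic0_mk_eq_zero_iff]
  have hτf0 : τ • f ≠ 0 := smul_ne_zero_of_ne_zero τ hf0
  have hττf0 : τ • (τ • f) ≠ 0 := smul_ne_zero_of_ne_zero τ hτf0
  have ht0 : t ≠ 0 := by
    rintro rfl
    rw [zero_pow hn0] at ht
    exact (div_ne_zero (mul_ne_zero hττf0 (pow_ne_zero _ hf0)) (pow_ne_zero _ hτf0)) ht.symm
  refine ⟨t, ht0, fun P => ?_⟩
  have hordτ : ∀ (P : Place (AlgebraicClosure ℚ) ↥(FNbar (M * q))) (y : ↥(FNbar (M * q))),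
      P.ord (τ • y) = (τ⁻¹ • P).ord y := fun P y => ord_smul_eq τ P y
  have h1 : (n : ℤ) * P.ord t = P.ord ((τ • (τ • f)) * f ^ (q ^ 2) / (τ • f) ^ (q ^ 2 + 1)) := by
    rw [← ht, ord_pow]
  rw [ord_div P (mul_ne_zero hττf0 (pow_ne_zero _ hf0)) (pow_ne_zero _ hτf0),
    P.ord_mul hττf0 (pow_ne_zero _ hf0), ord_pow, ord_pow, hordτ, hordτ, hordτ, hfD, hfD, hfD]
    at h1
  have hnZ : (n : ℤ) ≠ 0 := by exact_mod_cast hn0
  apply mul_left_cancel₀ hnZ
  rw [h1]
  simp only [AddSubgroup.coe_add, AddSubgroup.coe_sub, AddSubgroup.coe_nsmul,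
    SemilinearAut.coe_degZeroSMulHom, Finsupp.add_apply, Finsupp.sub_apply, Finsupp.smul_apply,
    SemilinearAut.divisor_smul_apply, nsmul_eq_mul]
  push_cast
  ring

/-- **The Kummer form from GLUE and the modular datum.** -/
theorem stCore_of_modSt (hG : Stmt_GlueFrobGen) (M q : ℕ) [NeZero M] [NeZero q]
    (hq : q.Prime) (hS : Stmt_ModSt M q) : Stmt_StCore M q := by
  intro A hA σ hσ n hqn f hf0 hdiv hαI hβI D hD hDα hDβ
  obtain ⟨E, iE, iA, S, H, HE, g, g₁, c, c₁, φb, τb, ρ, ρ', β, hR, hRE, hnum, hτb, hτ, htot,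
    htot', hβ, hcα, hcβ⟩ := hS A hA σ hσ
  haveI : IsAlgClosed (kV A) := isAlgClosed_kV A
  have hnk : ((n : ℕ) : kV A) ≠ 0 := H91.natCast_kV_ne_zero A hq hA hqn
  have hn0 : n ≠ 0 := by
    rintro rfl
    exact hqn (dvd_zero q)
  have hnZ : (n : ℤ) ≠ 0 := by exact_mod_cast hn0
  -- the divisor `D / n`
  have hDn : ∀ P, (n : ℤ) ∣ D P := fun P => by rw [hD P]; exact hdiv P
  have hDeq : (n : ℤ) • divBy n D = D := nsmul_divBy n D hDn
  have hnew' : ∀ (φ : ↥(FNbar M) →ₐ[AlgebraicClosure ℚ] ↥(FNbar (M * q)))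
      (hφ : φ.toRingHom.IsIntegral)
      (r : Place (AlgebraicClosure ℚ) ↥(FNbar (M * q)) → Place (kV A) E),
      ((Divisor.pushforwardAlong φ hφ (divBy n D)).IsPrincipal →
        ∃ h : E, h ≠ 0 ∧ ∀ z : Place (kV A) E,
          Finsupp.mapDomain r (divBy n D) z = z.ord h) →
      (∃ g : ↥(FNbar M), g ≠ 0 ∧ ∀ Q : Place (AlgebraicClosure ℚ) ↥(FNbar M),
        Divisor.pushforwardAlong φ hφ D Q = n * Q.ord g) →
      ∃ h : E, h ≠ 0 ∧ ∀ D' : Divisor (AlgebraicClosure ℚ) ↥(FNbar (M * q)),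
        (∀ P, D' P = P.ord f) → ∀ z : Place (kV A) E,
          Finsupp.mapDomain r D' z = n * z.ord h := by
    rintro φ hφ r hc ⟨g, hg0, hg⟩
    have hprin : (Divisor.pushforwardAlong φ hφ (divBy n D)).IsPrincipal := by
      refine ⟨g, hg0, fun Q => ?_⟩
      have h1 := hg Q
      rw [← hDeq, map_zsmul, Finsupp.smul_apply, smul_eq_mul] at h1
      exact mul_left_cancel₀ hnZ h1
    obtain ⟨h, hh0, hh⟩ := hc hprin
    refine ⟨h, hh0, fun D' hD' z => ?_⟩
    have e : D' = (n : ℤ) • divBy n D := by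
      rw [hDeq]
      ext P
      rw [hD' P, hD P]
    rw [e, Finsupp.mapDomain_smul, Finsupp.smul_apply, hh z, smul_eq_mul]
  exact st_abs hG S H HE g g₁ c c₁ hR hRE hnum n hnk (galF (M * q) (σ * σ)) φb τb
    hτb (q ^ 2) hτ ρ ρ' β htot htot' hβ f hf0 hdiv
    (hnew' _ hαI ρ (hcα hαI _) hDα) (hnew' _ hβI ρ' (hcβ hβI _) hDβ)

end Fermat.Agent.S35.H89

end
end
-- ==== END Fermat.Agent.S35.H89_StCore

-- ==== BEGIN Fermat.Agent.BAD.H21_Num
section
attribute [local instance 10000] SubalgebraClass.toAlgebra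
attribute [local instance 10000] HahnSeries.powerSeriesAlgebra

/-!
# BAD_q, package NUM (helper21), `q ≥ 5`: the final form at level `M`

`H21_num_final` : for a prime `q ≥ 5`, `q ∤ M`, `A` over `q`: there is a nonempty finite set `Z`
of places of the reduced function field of level `M` (`redField A (FNbar M) _`), none a pole of
`j~`, such that every element `y` of the reduced field of level `M` with the same `q`-expansion
as the Gauss reduction of the modular unit `unitF (M q) q = Δ(t)/Δ(t^q)` (of level `M q`) has a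
zero at every `z ∈ Z`, and `g(M q) + 1 ≤ 2 g(M) + #Z`.

(Interface NUM → MODSSD of helper91.)
-/

set_option autoImplicit false
set_option linter.style.haveILetI false
set_option linter.unusedSectionVars false
set_option synthInstance.maxHeartbeats 400000
set_option maxHeartbeats 1000000

noncomputable section

open AlgebraicCurve Polynomial IntermediateField

namespace Fermat.Agent.BAD.H21

open ModularCurve Fermat.Agent.S28.H73 Fermat.Agent.RED.H73 Fermat.Agent.RED.H34
  Fermat.Agent.RED.H76 Fermat.Agent.RED.H51 Fermat.Agent.BAD.H30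
open Fermat.Agent.S24 (Kbar FN)

/-- The `q`-expansion of `H(j~)`. -/
theorem H21_coe_aeval_jt (M : ℕ) [NeZero M] (A : ValuationSubring Kbar)
    (H : Polynomial (kV A)) :
    ((aeval (H21_jt M A) H : ↥(redField A
        (laurentBaseChange Kbar (modularFunctionFieldFull M))
        (hasScale_laurentBaseChange A M))) : LaurentSeries (kV A))
      = aeval (jqModC (kV A)) H := by
  have h1 := Polynomial.aeval_algHom_apply
    (IntermediateField.val (redField A (laurentBaseChange Kbar (modularFunctionFieldFull M))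
      (hasScale_laurentBaseChange A M))) (H21_jt M A) H
  rw [IntermediateField.val_mk] at h1
  have h2 : ((H21_jt M A : ↥(redField A (laurentBaseChange Kbar (modularFunctionFieldFull M))
      (hasScale_laurentBaseChange A M))) : LaurentSeries (kV A)) = jqModC (kV A) :=
    red_jF A M
  rw [← h2]
  exact h1.symm

/-- **NUM at level `M`, `q ≥ 5`** (interface NUM → MODSSD). -/
theorem H21_num_final (M q : ℕ) [NeZero M] [NeZero (M * q)] (hq : q.Prime) (h5 : 5 ≤ q)
    (hqM : ¬ q ∣ M) (A : ValuationSubring (AlgebraicClosure ℚ)) (hA : A.LiesOverPrime q)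
    (hd : q ∣ M * q) :
    haveI : NeZero q := ⟨hq.ne_zero⟩
    ∃ Z : Finset (Place (kV A) ↥(redField A (FNbar M) (hasScale_laurentBaseChange A M))),
      Z.Nonempty ∧
      (∀ z ∈ Z, 0 ≤ z.ord (gaussRes A M ⟨_root_.Fermat.Agent.RED.H73.jF (L := Kbar) M, jF_mem A M⟩)) ∧
      (∀ z ∈ Z, ∀ y : ↥(redField A (FNbar M) (hasScale_laurentBaseChange A M)),
        (y : LaurentSeries (kV A))
          = ((gaussRes A (M * q) ⟨unitF (M * q) q hd, unitF_mem_gaussV A (M * q) q hd⟩ :
              ↥(redField A (FNbar (M * q)) (hasScale_laurentBaseChange A (M * q)))) :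
              LaurentSeries (kV A)) → 0 < z.ord y) ∧
      genusFormula (M * q) + 1 ≤ 2 * genusFormula M + (Z.card : ℚ) := by
  haveI : NeZero q := ⟨hq.ne_zero⟩
  haveI : Fact q.Prime := ⟨hq⟩
  obtain ⟨H, S, hH0, hH, hS, hcard, h0, h1728⟩ :=
    gaussRes_unitF_eq_aeval A (M * q) q hA hd h5
  obtain ⟨Z, hne, hZ, hg⟩ := H21_num M hq hqM A hA h5 H S hH0 hS hcard h0 h1728
  refine ⟨Z, hne, fun z hz => (hZ z hz).1, ?_, hg⟩
  intro z hz y hy
  have e : y = aeval (H21_jt M A) H := by
    apply Subtype.ext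
    rw [hy, H21_coe_aeval_jt]
    exact hH
  rw [e]
  exact (hZ z hz).2

end Fermat.Agent.BAD.H21

end
end
-- ==== END Fermat.Agent.BAD.H21_Num

-- ==== BEGIN Fermat.Agent.BAD.H91_Rho
section
attribute [local instance 10000] SubalgebraClass.toAlgebra
attribute [local instance 10000] HahnSeries.powerSeriesAlgebra

/-!
# BAD_q, leaf RHO (helper91): the reduction map of level `M` on the places of level `M q`

`q` prime, `q ∤ M`, `(M, q)` tame, `A` over `q`.  G-RED (`RED.H76.stmt_DR2`) gives a reduction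
map `rM` of the places of `E = F_M · ℚ̄` with the conservation law `IsRed` and `GenusLE`.

* `incl M q : F_M · ℚ̄ →ₐ F_{M q} · ℚ̄` the inclusion, `incl_isIntegral`;
* `restrictAlong_galF` : restriction of places commutes with the coefficientwise Galois action;
* `rM`, `rM_isRed`, `rM_genusLE`, `isFF_redM` : the chosen Deuring datum of level `M`;
* `rM_inertia` : `rM (σ P) = rM P` for `σ` in inertia (helper33's UNIQ/EQ);
* `rhoM P := rM (P restricted to level M)`, `rhoM_inertia`;
* `seM` : helper17's `RedSetup` of level `M`, `seM_genusLE'`.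
-/

set_option autoImplicit false
set_option linter.style.haveILetI false
set_option synthInstance.maxHeartbeats 400000
set_option maxHeartbeats 400000

noncomputable section

open HahnSeries IntermediateField AlgebraicCurve ModularCurve
open Fermat.Agent.S28.H73 Fermat.Agent.RED.H73 Fermat.Agent.RED

namespace Fermat.Agent.BAD.H91

open Fermat.Agent.BAD

/-- The tame condition in terms of the level `M` prime to `q`. -/
def TameAt (M q : ℕ) : Prop := 5 ≤ q ∨ (q = 3 ∧ 2 ∣ M) ∨ (q = 2 ∧ 3 ∣ M)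

section AbsRestrict

variable {K F F' : Type*} [Field K] [Field F] [Field F'] [Algebra K F] [Algebra K F']

theorem mem_restrictAlong_iff (φ : F →ₐ[K] F') (hφ : φ.toRingHom.IsIntegral) (w : Place K F')
    (f : F) : f ∈ (w.restrictAlong φ hφ).toValuationSubring ↔ φ f ∈ w.toValuationSubring :=
  Iff.rfl

/-- Restriction of places commutes with semilinear automorphisms compatible with `φ`. -/
theorem restrictAlong_smul (φ : F →ₐ[K] F') (hφ : φ.toRingHom.IsIntegral)
    (σ' : SemilinearAut K F') (σ : SemilinearAut K F) (hc : ∀ f : F, φ (σ • f) = σ' • φ f)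
    (P : Place K F') :
    (σ' • P).restrictAlong φ hφ = σ • P.restrictAlong φ hφ := by
  apply Place.ext
  ext x
  rw [mem_restrictAlong_iff, SemilinearAut.smul_toValuationSubring,
    SemilinearAut.smul_toValuationSubring, ValuationSubring.mem_pointwise_smul_iff_inv_smul_mem,
    ValuationSubring.mem_pointwise_smul_iff_inv_smul_mem, mem_restrictAlong_iff]
  have e : σ'⁻¹ • φ x = φ (σ⁻¹ • x) := by
    have h := hc (σ⁻¹ • x)
    rw [smul_inv_smul] at h
    rw [h, inv_smul_smul]
  rw [e]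

end AbsRestrict

section Incl

variable (M q : ℕ)

theorem fnbar_le : FNbar M ≤ FNbar (M * q) :=
  S18.modularFunctionFieldBar_mono (Dvd.intro q rfl)

/-- The inclusion of the function field of level `M` into that of level `M q`. -/
def incl : ↥(FNbar M) →ₐ[AlgebraicClosure ℚ] ↥(FNbar (M * q)) :=
  IntermediateField.inclusion (fnbar_le M q)

@[simp] theorem coe_incl (f : ↥(FNbar M)) :
    ((incl M q f : ↥(FNbar (M * q))) : LaurentSeries (AlgebraicClosure ℚ))
      = (f : LaurentSeries (AlgebraicClosure ℚ)) :=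
  IntermediateField.coe_inclusion (fnbar_le M q) f

theorem incl_isIntegral [NeZero M] [NeZero (M * q)] : (incl M q).toRingHom.IsIntegral :=
  (H51.stmt_FFB_finite _ _ _ (H95.stmt_HKA_isFF M) (H95.stmt_HKA_isFF (M * q)) _).1

/-- The inclusion commutes with the coefficientwise Galois action. -/
theorem incl_galF (σ : GalQ) (f : ↥(FNbar M)) :
    incl M q (galF M σ • f) = galF (M * q) σ • incl M q f := by
  apply Subtype.ext
  rw [coe_incl, coe_arithmeticGalois_smul, coe_arithmeticGalois_smul, coe_incl]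

/-- Restriction of places commutes with the coefficientwise Galois action. -/
theorem restrictAlong_galF [NeZero M] [NeZero (M * q)] (σ : GalQ)
    (P : Place (AlgebraicClosure ℚ) ↥(FNbar (M * q))) :
    (galF (M * q) σ • P).restrictAlong (incl M q) (incl_isIntegral M q)
      = galF M σ • P.restrictAlong (incl M q) (incl_isIntegral M q) :=
  restrictAlong_smul (incl M q) (incl_isIntegral M q) (galF (M * q) σ) (galF M σ)
    (incl_galF M q σ) P

end Incl

section Level

variable (A : ValuationSubring (AlgebraicClosure ℚ)) (M q : ℕ) [NeZero M]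

/-- The reduced function field of level `M`. -/
abbrev redM : IntermediateField (kV A) (LaurentSeries (kV A)) :=
  redField A (FNbar M) (hasScale_laurentBaseChange A M)

variable {A M q}

theorem hasDR_M (hq : q.Prime) (hqM : ¬ q ∣ M) (ht : TameAt M q) (hA : A.LiesOverPrime q) :
    HasDR A (hasScale_laurentBaseChange A M) :=
  RED.H76.stmt_DR2 M q hq hqM ht A hA

/-- The chosen reduction map of level `M`. -/
def rM (hq : q.Prime) (hqM : ¬ q ∣ M) (ht : TameAt M q) (hA : A.LiesOverPrime q) :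
    Place (AlgebraicClosure ℚ) ↥(FNbar M) → Place (kV A) ↥(redM A M) :=
  Classical.choose (hasDR_M hq hqM ht hA).2

theorem isFF_redM (hq : q.Prime) (hqM : ¬ q ∣ M) (ht : TameAt M q) (hA : A.LiesOverPrime q) :
    IsFF (kV A) ↥(redM A M) :=
  (hasDR_M hq hqM ht hA).1

theorem rM_isRed (hq : q.Prime) (hqM : ¬ q ∣ M) (ht : TameAt M q) (hA : A.LiesOverPrime q) :
    IsRed A (hasScale_laurentBaseChange A M) (rM hq hqM ht hA) :=
  (Classical.choose_spec (hasDR_M hq hqM ht hA).2).1

theorem rM_genusLE (hq : q.Prime) (hqM : ¬ q ∣ M) (ht : TameAt M q) (hA : A.LiesOverPrime q) :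
    GenusLE A (hasScale_laurentBaseChange A M) (rM hq hqM ht hA) :=
  (Classical.choose_spec (hasDR_M hq hqM ht hA).2).2

/-- The reduction map of level `M` is invariant under inertia. -/
theorem rM_inertia (hq : q.Prime) (hqM : ¬ q ∣ M) (ht : TameAt M q) (hA : A.LiesOverPrime q)
    {σ : GalQ} (hσ : σ ∈ A.inertiaSubgroupIn ℚ) (P : Place (AlgebraicClosure ℚ) ↥(FNbar M)) :
    rM hq hqM ht hA (galF M σ • P) = rM hq hqM ht hA P := by
  haveI : IsAlgClosed (kV A) := isAlgClosed_kV A
  exact RED.H33.isRed_inertia A (modularFunctionFieldFull M) (hasScale_laurentBaseChange A M)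
    (H95.stmt_HKA_isFF M) (isFF_redM hq hqM ht hA) (H42.fracScalable_laurentBaseChange A M) hσ
    (rM_isRed hq hqM ht hA) P

/-- The reduction to level `M` of a place of level `M q`. -/
def rhoM [NeZero (M * q)] (hq : q.Prime) (hqM : ¬ q ∣ M) (ht : TameAt M q)
    (hA : A.LiesOverPrime q) (P : Place (AlgebraicClosure ℚ) ↥(FNbar (M * q))) :
    Place (kV A) ↥(redM A M) :=
  rM hq hqM ht hA (P.restrictAlong (incl M q) (incl_isIntegral M q))

/-- `rhoM` is invariant under inertia. -/
theorem rhoM_inertia [NeZero (M * q)] (hq : q.Prime) (hqM : ¬ q ∣ M) (ht : TameAt M q)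
    (hA : A.LiesOverPrime q) {σ : GalQ} (hσ : σ ∈ A.inertiaSubgroupIn ℚ)
    (P : Place (AlgebraicClosure ℚ) ↥(FNbar (M * q))) :
    rhoM hq hqM ht hA (galF (M * q) σ • P) = rhoM hq hqM ht hA P := by
  unfold rhoM
  rw [restrictAlong_galF, rM_inertia hq hqM ht hA hσ]

/-- helper17's reduction setup of level `M`. -/
def seM (hq : q.Prime) (hqM : ¬ q ∣ M) (ht : TameAt M q) (hA : A.LiesOverPrime q) :
    RED.H17.RedSetup (AlgebraicClosure ℚ) ↥(FNbar M) (kV A) ↥(redM A M) :=
  RED.H17.redSetupOf A (hasScale_laurentBaseChange A M) (rM hq hqM ht hA) (rM_isRed hq hqM ht hA)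

theorem seM_genusLE' (hq : q.Prime) (hqM : ¬ q ∣ M) (ht : TameAt M q) (hA : A.LiesOverPrime q) :
    (seM hq hqM ht hA).GenusLE' :=
  rM_genusLE hq hqM ht hA

end Level

end Fermat.Agent.BAD.H91

end
end
-- ==== END Fermat.Agent.BAD.H91_Rho

-- ==== BEGIN Fermat.Agent.GTor.H75_DescFinal
section

/-!
# G-TOR package DESC (helper75): `Stmt_DESC N n` for all `N` and `n ≠ 0`, unconditional

ROOT, DOWN, AUT, pigeonhole, finiteness of `U_n(F_ℂ)`: helper56; UP, CURVE, trdeg: helper33;
BETTI: helper81 and the G-TOR team; CORE + assembly: helper75.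
-/

set_option autoImplicit false

noncomputable section

namespace Fermat.Agent.GTor.H75

open ModularCurve AlgebraicCurve

/-- **DESC**: base change `ℚ̄ → ℂ` induces a bijection on unramified Kummer classes. -/
theorem stmt_DESC (N n : ℕ) [NeZero N] (hn : n ≠ 0) : Stmt_DESC N n :=
  stmt_DESC_of N n hn (stmt_DescPigeon _ _)
    (H56.finite_unrKummer N n hn (H81.stmt_BETTI_final N n hn))

end Fermat.Agent.GTor.H75

end
end
-- ==== END Fermat.Agent.GTor.H75_DescFinal

-- ==== BEGIN Fermat.Agent.GTor.H81_TatePieceFinal2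
section

/-!
# G-TOR: `S30.Stmt_TatePiece` from the two packages that are still open  (helper81)

* `Stmt_DESC`  (descent `ℂ → ℚ̄` of unramified Kummer classes; helper75)
* `AllRed`     (G-RED: reduction packages at all `ℓ ∤ N p`; helper36)
-/

set_option autoImplicit false

noncomputable section

namespace Fermat.Agent.GTor.H81

open AlgebraicCurve ModularCurve Fermat.Agent.GTor Fermat.Agent.Betti

/-- **The Tate system of `J₀(N)`** from DESC and G-RED. -/
theorem stmt_TateSystem_final (N p : ℕ) [NeZero N] (S : Finset ℕ) (hp : p.Prime) (hpS : p ∈ S)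
    (hNS : ∀ q : ℕ, q.Prime → q ∣ N → q ∈ S)
    (hD : ∀ n : ℕ, n ≠ 0 → Stmt_DESC N n) (hRed : AllRed N p) : Stmt_TateSystem N p S :=
  stmt_TateSystem N p S hp hpS hNS (Clo.stmt_A3 N) (Clo.stmt_A4 N) (Clo.stmt_A5 N) hD
    (fun n _ => H44.stmt_HK N n) (H77.stmt_torsLift N) hRed Betti.stmt_basis
    Betti.H76.stmt_matrixRep

/-- **`Stmt_TatePiece`** from DESC and G-RED. -/
theorem tatePiece_of_desc_red
    (hD : ∀ (N : ℕ) [NeZero N] (n : ℕ), n ≠ 0 → Stmt_DESC N n)
    (hRed : ∀ (N : ℕ) [NeZero N] (p : ℕ), p.Prime → AllRed N p) : S30.Stmt_TatePiece :=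
  tatePiece_final hD (fun N _ n _ => H44.hk_an N n) hRed

end Fermat.Agent.GTor.H81

end
end
-- ==== END Fermat.Agent.GTor.H81_TatePieceFinal2

-- ==== BEGIN Fermat.Agent.S35.H44_DescSt
section
attribute [local instance 10000] SubalgebraClass.toAlgebra
attribute [local instance 10000] HahnSeries.powerSeriesAlgebra

/-!
# S35, leaf DESC-St (helper44): tame descent of the Steinberg relation

`stCore_descend : Stmt_StCore (r * M) q → Stmt_StCore M q` for `q` prime, `q ∤ M`, `r ∣ 36`,
`q ∤ r` (in particular `r = 2, 3`, `r ≠ q`), and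
`stCore_all : (∀ tame (M, q), Stmt_StCore M q) → ∀ M q, q prime, q ∤ M → Stmt_StCore M q`.

Proof: `f` of level `M q` is viewed at level `r M q`.  The `q`-new condition lifts by base change
of the norm in the squares `F_M → F_{Mq}`, `F_{rM} → F_{rMq}` (for `α` and for `β`), and the
conclusion descends by Kummer descent (`RED.Stmt_KD`, helper22).
-/

set_option autoImplicit false
set_option linter.style.haveILetI false
set_option linter.unusedSectionVars false

noncomputable section

namespace Fermat.Agent.S35.H44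

open AlgebraicCurve ModularCurve Fermat.Agent.S24 Fermat.Agent.Lib.HeckeComm
  Fermat.Agent.S36.H44 Fermat.Agent.BAD Fermat.Agent.S35.H89

local notation "Kb" => AlgebraicClosure ℚ

section Square

variable (M q r : ℕ) [NeZero M] [NeZero q] [NeZero r]

theorem dvd_lo : M ∣ r * M := dvd_mul_left M r

theorem dvd_up : M * q ∣ r * M * q := ⟨r, by ring⟩

/-- `F_M ⊂ F_{rM}`. -/
def inclLo : FN M →ₐ[Kb] FN (r * M) := inclFN M (r * M) (dvd_lo M r)

/-- `F_{Mq} ⊂ F_{rMq}`. -/
def inclUp : FN (M * q) →ₐ[Kb] FN (r * M * q) := inclFN (M * q) (r * M * q) (dvd_up M q r)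

theorem coe_inclLo (x : FN M) : (inclLo M r x : LaurentSeries Kb) = (x : LaurentSeries Kb) :=
  coe_inclFN _ _ _ x

theorem coe_inclUp (x : FN (M * q)) :
    (inclUp M q r x : LaurentSeries Kb) = (x : LaurentSeries Kb) :=
  coe_inclFN _ _ _ x

theorem inclLo_integral : (inclLo M r).toRingHom.IsIntegral :=
  (Fermat.Agent.RED.H51.stmt_FFB_finite Kb _ _ (isFF_FN M) (isFF_FN (r * M)) (inclLo M r)).1

theorem inclUp_integral : (inclUp M q r).toRingHom.IsIntegral :=
  (Fermat.Agent.RED.H51.stmt_FFB_finite Kb _ _ (isFF_FN (M * q)) (isFF_FN (r * M * q))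
    (inclUp M q r)).1

/-- Base change of the norm along `α` from level `M` to level `r M`. -/
theorem norm_alpha_up (hq : q.Prime) (hqM : ¬ q ∣ M) (hqr : ¬ q ∣ r) (x : FN (M * q)) :
    inclLo M r (normAlongHom (heckeAlphaBar Kb M q).toRingHom x)
      = normAlongHom (heckeAlphaBar Kb (r * M) q).toRingHom (inclUp M q r x) := by
  have hqrM : ¬ q ∣ r * M := fun h => (hq.dvd_mul.mp h).elim hqr hqM
  refine normAlongHom_baseChange (heckeAlphaBar Kb M q).toRingHom
    (heckeAlphaBar Kb (r * M) q).toRingHom (inclLo M r).toRingHom (inclUp M q r).toRingHom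
    ?_ (alpha_finite M q) (alpha_finite (r * M) q) (jdF (M * q) (M * q) dvd_rfl)
    (stmt_GenJ M (M * q) (dvd_mul_right M q)) ?_ ?_ x
  · intro a
    apply Subtype.ext
    simp only [AlgHom.toRingHom_eq_coe, RingHom.coe_coe, coe_heckeAlphaBar, coe_inclUp,
      coe_inclLo]
  · have e : (inclUp M q r).toRingHom (jdF (M * q) (M * q) dvd_rfl)
        = heckeBetaBar Kb (r * M) q (jdF (r * M) M (dvd_lo M r)) := by
      apply Subtype.ext
      simp only [AlgHom.toRingHom_eq_coe, RingHom.coe_coe, coe_inclUp, coe_heckeBetaBar,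
        Fermat.Agent.RED.H95.coe_jdF, qExpand_qExpand]
      exact qExpand_congr (mul_comm M q) _
    rw [e]
    exact adjoin_alpha_jdF hq hqrM M (dvd_lo M r)
  · exact (Fermat.Agent.RED.H95.finrankAlong_alpha hq hqM).trans
      (Fermat.Agent.RED.H95.finrankAlong_alpha hq hqrM).symm

/-- Base change of the norm along `β` from level `M` to level `r M`. -/
theorem norm_beta_up (hq : q.Prime) (hqM : ¬ q ∣ M) (hqr : ¬ q ∣ r) (x : FN (M * q)) :
    inclLo M r (normAlongHom (heckeBetaBar Kb M q).toRingHom x)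
      = normAlongHom (heckeBetaBar Kb (r * M) q).toRingHom (inclUp M q r x) := by
  have hqrM : ¬ q ∣ r * M := fun h => (hq.dvd_mul.mp h).elim hqr hqM
  refine normAlongHom_baseChange (heckeBetaBar Kb M q).toRingHom
    (heckeBetaBar Kb (r * M) q).toRingHom (inclLo M r).toRingHom (inclUp M q r).toRingHom
    ?_ (beta_finite M q) (beta_finite (r * M) q) (jF (M * q))
    (adjoin_beta_jF M q) ?_ ?_ x
  · intro a
    apply Subtype.ext
    simp only [AlgHom.toRingHom_eq_coe, RingHom.coe_coe, coe_heckeBetaBar, coe_inclUp,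
      coe_inclLo]
  · have e : (inclUp M q r).toRingHom (jF (M * q)) = jF (r * M * q) :=
      inclFN_jF _ _ _
    rw [e]
    exact adjoin_beta_jF (r * M) q
  · exact (Fermat.Agent.RED.H95.finrankAlong_beta hq hqM).trans
      (Fermat.Agent.RED.H95.finrankAlong_beta hq hqrM).symm

/-- The `q`-new condition lifts from level `M q` to level `r M q`. -/
theorem push_up (φ : FN M →ₐ[Kb] FN (M * q)) (φ' : FN (r * M) →ₐ[Kb] FN (r * M * q))
    (hφ : φ.toRingHom.IsIntegral) (hφ' : φ'.toRingHom.IsIntegral)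
    (hbc : ∀ x : FN (M * q), inclLo M r (normAlongHom φ.toRingHom x)
      = normAlongHom φ'.toRingHom (inclUp M q r x))
    (n : ℕ) (f : FN (M * q)) (hf0 : f ≠ 0) (D : Divisor Kb (FN (M * q)))
    (hD : ∀ P, D P = P.ord f) (g : FN M)
    (hg : ∀ Q : Place Kb (FN M), Divisor.pushforwardAlong φ hφ D Q = n * Q.ord g)
    (D' : Divisor Kb (FN (r * M * q))) (hD' : ∀ P, D' P = P.ord (inclUp M q r f))
    (Q' : Place Kb (FN (r * M))) :
    Divisor.pushforwardAlong φ' hφ' D' Q' = n * Q'.ord (inclLo M r g) := by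
  have hfin : FiniteAlong Kb φ :=
    (Fermat.Agent.RED.H51.stmt_FFB_finite Kb _ _ (isFF_FN M) (isFF_FN (M * q)) φ).2
  have hN : NormFormulaAlong Kb φ hfin :=
    Fermat.Agent.RED.H51.stmt_FFB_norm Kb _ _ (isFF_FN M) (isFF_FN (M * q)) _ _
  have hfin' : FiniteAlong Kb φ' :=
    (Fermat.Agent.RED.H51.stmt_FFB_finite Kb _ _ (isFF_FN (r * M)) (isFF_FN (r * M * q)) φ').2
  have hN' : NormFormulaAlong Kb φ' hfin' :=
    Fermat.Agent.RED.H51.stmt_FFB_norm Kb _ _ (isFF_FN (r * M)) (isFF_FN (r * M * q)) _ _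
  have hf'0 : inclUp M q r f ≠ 0 := fun h0 =>
    hf0 ((inclUp M q r).toRingHom.injective (by simpa using h0))
  rw [pushforwardAlong_ord φ' hφ' hfin' hN' hf'0 D' hD' Q', ← hbc,
    Place.ord_restrictAlong (inclLo M r) (inclLo_integral M r),
    Place.ord_restrictAlong (inclLo M r) (inclLo_integral M r),
    ← pushforwardAlong_ord φ hφ hfin hN hf0 D hD, hg]
  ring

end Square

/-- The inclusion commutes with the coefficientwise Galois action. -/
theorem inclUp_galF (M q r : ℕ) [NeZero M] [NeZero q] [NeZero r] (σ : GalQ) (x : FN (M * q)) :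
    inclUp M q r (galF (M * q) σ • x) = galF (r * M * q) σ • inclUp M q r x := by
  apply Subtype.ext
  rw [coe_inclUp, coe_arithmeticGalois_smul, coe_arithmeticGalois_smul, coe_inclUp]

/-- **DESC-St**: the Kummer form of the Steinberg relation descends from level `r M q` to level
`M q`. -/
theorem stCore_descend_gen (M q r : ℕ) [NeZero M] [NeZero q] [NeZero r] (hq : q.Prime)
    (hqM : ¬ q ∣ M) (hr36 : r ∣ 36) (hqr : ¬ q ∣ r) (h : Stmt_StCore (r * M) q) :
    Stmt_StCore M q := by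
  intro A hA σ hσ n hqn f hf0 hdiv hαI hβI D hD hDα hDβ
  obtain ⟨g, hg0, hg⟩ := hDα
  obtain ⟨g', hg'0, hg'⟩ := hDβ
  have hn0 : 0 < n := Nat.pos_of_ne_zero (by rintro rfl; exact hqn (dvd_zero q))
  -- the function at the upper level
  have hf'0 : inclUp M q r f ≠ 0 := fun h0 =>
    hf0 ((inclUp M q r).toRingHom.injective (by simpa using h0))
  set f' : FN (r * M * q) := inclUp M q r f with hf'
  have hdiv' : ∀ P' : Place Kb (FN (r * M * q)), (n : ℤ) ∣ P'.ord f' := by
    intro P'
    rw [hf', Place.ord_restrictAlong (inclUp M q r) (inclUp_integral M q r)]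
    exact Dvd.dvd.mul_left (hdiv _) _
  haveI := hasPrincipalDivisors_FN (r * M * q)
  obtain ⟨D', hD', -⟩ := HasPrincipalDivisors.exists_divisor (K := Kb) f' hf'0
  have hinj : ∀ x : FN M, x ≠ 0 → inclLo M r x ≠ 0 := fun x hx h0 =>
    hx ((inclLo M r).toRingHom.injective (by simpa using h0))
  obtain ⟨t', ht'⟩ := h A hA σ hσ n hqn f' hf'0 hdiv' (alpha_integral (r * M) q)
    (beta_integral (r * M) q) D' hD'
    ⟨inclLo M r g, hinj g hg0, fun Q' =>
      push_up M q r (heckeAlphaBar Kb M q) (heckeAlphaBar Kb (r * M) q) hαI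
        (alpha_integral (r * M) q) (norm_alpha_up M q r hq hqM hqr) n f hf0 D hD g hg D' hD' Q'⟩
    ⟨inclLo M r g', hinj g' hg'0, fun Q' =>
      push_up M q r (heckeBetaBar Kb M q) (heckeBetaBar Kb (r * M) q) hβI
        (beta_integral (r * M) q) (norm_beta_up M q r hq hqM hqr) n f hf0 D hD g' hg' D' hD' Q'⟩
  -- the right hand side at level `M q`
  set τ : SemilinearAut Kb (FN (M * q)) := galF (M * q) (σ * σ) with hτ
  set R : FN (M * q) := (τ • (τ • f)) * f ^ (q ^ 2) / (τ • f) ^ (q ^ 2 + 1) with hR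
  have hτf0 : τ • f ≠ 0 := smul_ne_zero_of_ne_zero τ hf0
  have hττf0 : τ • (τ • f) ≠ 0 := smul_ne_zero_of_ne_zero τ hτf0
  have hdivτ : ∀ (P : Place Kb (FN (M * q))) (y : FN (M * q)),
      (∀ P₀ : Place Kb (FN (M * q)), (n : ℤ) ∣ P₀.ord y) → (n : ℤ) ∣ P.ord (τ • y) := by
    intro P y hy
    rw [hτ, Fermat.Agent.BAD.H91.ord_galF_smul]
    exact hy _
  have hdivR : ∀ P : Place Kb (FN (M * q)), (n : ℤ) ∣ P.ord R := by
    intro P
    rw [hR, div_eq_mul_inv, Place.ord_mul _ (mul_ne_zero hττf0 (pow_ne_zero _ hf0))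
      (inv_ne_zero (pow_ne_zero _ hτf0)), Place.ord_mul _ hττf0 (pow_ne_zero _ hf0),
      Place.ord_inv, Fermat.Agent.RED.H17.ord_pow, Fermat.Agent.RED.H17.ord_pow]
    have h1 : (n : ℤ) ∣ P.ord (τ • (τ • f)) := hdivτ P _ (fun P₀ => hdivτ P₀ f hdiv)
    have h2 : (n : ℤ) ∣ P.ord f := hdiv P
    have h3 : (n : ℤ) ∣ P.ord (τ • f) := hdivτ P f hdiv
    exact dvd_add (dvd_add h1 (Dvd.dvd.mul_left h2 _)) ((dvd_neg).2 (Dvd.dvd.mul_left h3 _))
  have hup : inclUp M q r R
      = (galF (r * M * q) (σ * σ) • (galF (r * M * q) (σ * σ) • f')) * f' ^ (q ^ 2)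
        / (galF (r * M * q) (σ * σ) • f') ^ (q ^ 2 + 1) := by
    rw [hR, map_div₀, map_mul, map_pow, map_pow, hτ, inclUp_galF, inclUp_galF]
  have hM36 : r * M * q ∣ 36 * (M * q) := by
    obtain ⟨c, hc⟩ := hr36
    exact ⟨c, by rw [hc]; ring⟩
  refine Fermat.Agent.RED.KD.H22.stmt_KD (M * q) (r * M * q) n (dvd_up M q r) hM36 hn0 R hdivR
    ⟨(t' : LaurentSeries Kb), t'.2, ?_⟩
  have h3 := congrArg (Subtype.val : FN (r * M * q) → LaurentSeries Kb) (ht'.trans hup.symm)
  have h4 : ((t' : FN (r * M * q)) : LaurentSeries Kb) ^ n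
      = ((inclUp M q r R : FN (r * M * q)) : LaurentSeries Kb) := h3
  rw [h4, coe_inclUp]

/-- **DESC-St** for `r = 2, 3`. -/
theorem stCore_descend (M q r : ℕ) [NeZero M] [NeZero q] (hq : q.Prime) (hqM : ¬ q ∣ M)
    (hr : r = 2 ∨ r = 3) (hrq : r ≠ q)
    (h : haveI : NeZero r := ⟨by rcases hr with rfl | rfl <;> norm_num⟩
      Stmt_StCore (r * M) q) : Stmt_StCore M q := by
  haveI : NeZero r := ⟨by rcases hr with rfl | rfl <;> norm_num⟩
  have hrp : r.Prime := by rcases hr with rfl | rfl <;> norm_num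
  have hr36 : r ∣ 36 := by rcases hr with rfl | rfl <;> norm_num
  have hqr : ¬ q ∣ r := fun hd => hrq ((Nat.prime_dvd_prime_iff_eq hq hrp).mp hd).symm
  exact stCore_descend_gen M q r hq hqM hr36 hqr h

/-- **The Kummer form of (St) at every `(M, q)`, `q ∤ M`, from the tame levels.**  The tame
condition is `BAD.H91.TameAt M q`, unfolded. -/
theorem stCore_all
    (h : ∀ (M q : ℕ) [NeZero M] [NeZero q], q.Prime → ¬ q ∣ M →
      (5 ≤ q ∨ (q = 3 ∧ 2 ∣ M) ∨ (q = 2 ∧ 3 ∣ M)) → Stmt_StCore M q)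
    (M q : ℕ) [NeZero M] [NeZero q] (hq : q.Prime) (hqM : ¬ q ∣ M) : Stmt_StCore M q := by
  by_cases h5 : 5 ≤ q
  · exact h M q hq hqM (Or.inl h5)
  have hq2 : 2 ≤ q := hq.two_le
  have h23 : q = 2 ∨ q = 3 ∨ q = 4 := by omega
  rcases h23 with rfl | rfl | rfl
  · -- `q = 2`, auxiliary level `3 M`
    refine stCore_descend M 2 3 hq hqM (Or.inr rfl) (by norm_num) ?_
    refine h (3 * M) 2 hq ?_ (Or.inr (Or.inr ⟨rfl, dvd_mul_right 3 M⟩))
    intro hd
    rcases (Nat.Prime.dvd_mul Nat.prime_two).mp hd with h1 | h1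
    · norm_num at h1
    · exact hqM h1
  · -- `q = 3`, auxiliary level `2 M`
    refine stCore_descend M 3 2 hq hqM (Or.inl rfl) (by norm_num) ?_
    refine h (2 * M) 3 hq ?_ (Or.inr (Or.inl ⟨rfl, dvd_mul_right 2 M⟩))
    intro hd
    rcases (Nat.Prime.dvd_mul Nat.prime_three).mp hd with h1 | h1
    · norm_num at h1
    · exact hqM h1
  · exact absurd hq (by norm_num)

end Fermat.Agent.S35.H44

end
end
-- ==== END Fermat.Agent.S35.H44_DescSt
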