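-- GENERATED (merged mirror, NOTES/tools/trim/merge3_helper67.py): 5 modules of the originals, bodies verbatim.
import Fermat.Agent.Zm.S35_L15_001
import Fermat.Agent.Zm.S35_L11_001
import Fermat.Agent.Zm.S35_L10_005
import Fermat.Agent.Zm.S35_L08_004
import Fermat.Agent.Zm.S35_L18_000
import Fermat.Agent.Zm.S35_L03_000
import Fermat.Agent.Zm.S35_L08_000
import Fermat.Agent.Zm.S35_L16_000
import Fermat.Agent.Zm.S35_L13_002
import Fermat.Agent.Zm.S35_L15_000
import Fermat.Agent.Zm.S35_L09_001

-- ==== BEGIN Fermat.Agent.BAD.H17_Genus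
section
attribute [local instance 10000] SubalgebraClass.toAlgebra
attribute [local instance 10000] HahnSeries.powerSeriesAlgebra

/-!
# BAD_q, leaf GENUS (helper17)

* `genus_FN_eq` : the Riemann genus of `F_N · ℚ̄` (`RED.H17.IsGenus`) is `genusFormula N`
  (`N > 1`; from RH-R `RED.H76.stmt_RHR`, the S24 counts and `asm_genus_arith`);
* `ffHyp_FN`, `exists_isGenus_FN` : FF-B and Riemann's theorem for `F_N · ℚ̄`;
* `genus_le_of_hasDR` : a Deuring datum does not lower the Riemann genus;
* `ffHyp_redM`, `exists_isGenus_redM`, `genusFormula_le_redM` : the same for the reduced field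
  of level `M` at a tame prime `q ∤ M`, with `genusFormula M ≤ g₁`;
* `genus_ineq` : the numerical inequality `g + 1 ≤ g₁ + g₁ + #Z` of `Stmt_ModSSD` from
  NUM (`genusFormula (M q) + 1 ≤ 2 genusFormula M + #Z`).
-/

set_option autoImplicit false
set_option linter.style.haveILetI false
set_option synthInstance.maxHeartbeats 400000
set_option maxHeartbeats 1000000

noncomputable section

open AlgebraicCurve ModularCurve IntermediateField
open Fermat.Agent.S28.H73 Fermat.Agent.RED.H73 Fermat.Agent.RED Fermat.Agent.S24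
open CongruenceSubgroup ModularGroup
open scoped MatrixGroups

namespace Fermat.Agent.BAD.H17

/-- FF-B for `F_N · ℚ̄`. -/
theorem ffHyp_FN (N : ℕ) [NeZero N] : RED.H17.FFHyp Kbar (FN N) :=
  RED.H17.ffHyp_of_isFF Kbar (FN N) (RED.H95.isFF_FN N)

/-- Riemann's theorem for `F_N · ℚ̄`. -/
theorem exists_isGenus_FN (N : ℕ) [NeZero N] :
    ∃ (g : ℕ) (c : ℤ), RED.H17.IsGenus Kbar (FN N) g c :=
  RED.H17.exists_isGenus Kbar (FN N) (RED.H95.isFF_FN N)

/-- RH-R with the branch values `0` and `1728`. -/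
theorem rhr_two_values {K F : Type} [Field K] [Field F] [Algebra K F] [IsAlgClosed K]
    [CharZero K] {g : ℕ} {c : ℤ} (hg : RED.H17.IsGenus K F g c) (x : F)
    (hx : Transcendental K x) (hfd : FiniteDimensional K⟮x⟯ F) (n r0 r1 rinf : ℕ)
    (hn : Module.finrank K⟮x⟯ F = n)
    (h0 : Nat.card {v : Place K F // 0 < v.ord (x - algebraMap K F 0)} = r0)
    (h1 : Nat.card {v : Place K F // 0 < v.ord (x - algebraMap K F 1728)} = r1)
    (hgen : ∀ a : K, a ≠ 0 → a ≠ 1728 →
      Nat.card {v : Place K F // 0 < v.ord (x - algebraMap K F a)} = n)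
    (hinf : Nat.card {v : Place K F // v.ord x < 0} = rinf) :
    2 * (g : ℤ) - 2 = (((n : ℤ) - r0) + ((n : ℤ) - r1)) - n - rinf := by
  classical
  have h01728 : (0 : K) ≠ 1728 := by norm_num
  have key := RED.H76.stmt_RHR K F g c hg x hx hfd {0, 1728}
    (fun a => if a = 0 then r0 else r1)
    (by
      intro a ha
      rcases Finset.mem_insert.mp ha with rfl | ha
      · rw [if_pos rfl]; exact h0
      · rw [Finset.mem_singleton] at ha
        subst ha
        rw [if_neg h01728.symm]; exact h1)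
    (by
      intro a ha
      rw [Finset.mem_insert, Finset.mem_singleton, not_or] at ha
      rw [hn]
      exact hgen a ha.1 ha.2)
    rinf hinf
  rw [key, Finset.sum_pair h01728, hn, if_pos rfl, if_neg h01728.symm]

/-- **The Riemann genus of `F_N · ℚ̄` is `genusFormula N`** (`N > 1`). -/
theorem genus_FN_eq (N : ℕ) [NeZero N] (hN : 1 < N) {g : ℕ} {c : ℤ}
    (hg : RED.H17.IsGenus Kbar (FN N) g c) : (g : ℚ) = genusFormula N := by
  have key := rhr_two_values hg (S24.jF N) (asm_transcendental_jF (modClosure N))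
    (asm_finiteDimensional (modClosure N)) (dedekindPsi N) (orbN N (S * T)) (orbN N S)
    (orbN N T) (asm_finrank (modClosure N)) (asm_card_zeros_zero (modClosure N) hN)
    (asm_card_zeros_1728 (modClosure N) hN)
    (fun a h0 h1 => asm_card_zeros_generic (modClosure N) a h0 h1)
    (asm_card_poles (modClosure N))
  have harith := asm_genus_arith N (2 * (g : ℤ) - 2) key
  rw [← harith]
  have e : (2 * (g : ℤ) - 2 + 2).toNat / 2 = g := by
    have : (2 * (g : ℤ) - 2 + 2).toNat = 2 * g := by omega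
    rw [this]
    omega
  rw [e]

/-- A Deuring datum does not lower the Riemann genus. -/
theorem genus_le_of_hasDR {C : Type} [Field C] [IsAlgClosed C] (O : ValuationSubring C)
    [IsAlgClosed (kV O)] {F : IntermediateField C (LaurentSeries C)} (h : HasScale O F)
    (hFF : IsFF C ↥F) (hDR : HasDR O h) {g : ℕ} {c : ℤ} (hg : RED.H17.IsGenus C ↥F g c)
    {g' : ℕ} {c' : ℤ} (hg' : RED.H17.IsGenus (kV O) ↥(redField O F h) g' c') : g ≤ g' := by
  obtain ⟨hFF', r, hr, hG⟩ := hDR
  exact (RED.H17.redSetupOf O h r hr).genus_le (RED.H17.ffHyp_of_isFF C ↥F hFF)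
    (RED.H17.ffHyp_of_isFF _ _ hFF') hg hg' hG

section Level

variable {A : ValuationSubring (AlgebraicClosure ℚ)} {M q : ℕ} [NeZero M]

/-- FF-B for the reduced field of level `M`. -/
theorem ffHyp_redM (hq : q.Prime) (hqM : ¬ q ∣ M) (ht : H91.TameAt M q)
    (hA : A.LiesOverPrime q) : RED.H17.FFHyp (kV A) ↥(H91.redM A M) := by
  haveI : IsAlgClosed (kV A) := isAlgClosed_kV A
  exact RED.H17.ffHyp_of_isFF _ _ (H91.isFF_redM hq hqM ht hA)

/-- Riemann's theorem for the reduced field of level `M`. -/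
theorem exists_isGenus_redM (hq : q.Prime) (hqM : ¬ q ∣ M) (ht : H91.TameAt M q)
    (hA : A.LiesOverPrime q) :
    ∃ (g₁ : ℕ) (c₁ : ℤ), RED.H17.IsGenus (kV A) ↥(H91.redM A M) g₁ c₁ := by
  haveI : IsAlgClosed (kV A) := isAlgClosed_kV A
  exact RED.H17.exists_isGenus _ _ (H91.isFF_redM hq hqM ht hA)

/-- The Riemann genus of the reduced field of level `M` is at least `genusFormula M`. -/
theorem genusFormula_le_redM (hq : q.Prime) (hqM : ¬ q ∣ M) (ht : H91.TameAt M q)
    (hA : A.LiesOverPrime q) {g₁ : ℕ} {c₁ : ℤ}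
    (hg₁ : RED.H17.IsGenus (kV A) ↥(H91.redM A M) g₁ c₁) : genusFormula M ≤ (g₁ : ℚ) := by
  haveI : IsAlgClosed (kV A) := isAlgClosed_kV A
  by_cases hM : 1 < M
  · obtain ⟨g, c, hg⟩ := exists_isGenus_FN M
    have hle : g ≤ g₁ := genus_le_of_hasDR A (hasScale_laurentBaseChange A M)
      (RED.H95.isFF_FN M) (H91.hasDR_M hq hqM ht hA) hg hg₁
    rw [← genus_FN_eq M hM hg]
    exact_mod_cast hle
  · have hM1 : M = 1 := by
      have := NeZero.ne M
      omega
    subst hM1
    rw [asm_genusFormula_one]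
    positivity

/-- **GENUS**: the numerical inequality of `Stmt_ModSSD` from the count of NUM. -/
theorem genus_ineq [NeZero (M * q)] (hq : q.Prime) (hqM : ¬ q ∣ M) (ht : H91.TameAt M q)
    (hA : A.LiesOverPrime q) {g : ℕ} {c : ℤ}
    (hg : RED.H17.IsGenus Kbar (FN (M * q)) g c) {g₁ : ℕ} {c₁ : ℤ}
    (hg₁ : RED.H17.IsGenus (kV A) ↥(H91.redM A M) g₁ c₁) (n : ℕ)
    (hnum : genusFormula (M * q) + 1 ≤ 2 * genusFormula M + (n : ℚ)) :
    g + 1 ≤ g₁ + g₁ + n := by
  have hMq : 1 < M * q := by
    have h1 : 0 < M := Nat.pos_of_ne_zero (NeZero.ne M)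
    have h2 := hq.two_le
    nlinarith
  have h1 := genus_FN_eq (M * q) hMq hg
  have h2 := genusFormula_le_redM hq hqM ht hA hg₁
  have h3 : (g : ℚ) + 1 ≤ (g₁ : ℚ) + g₁ + n := by
    rw [h1]
    linarith
  exact_mod_cast h3

end Level

end Fermat.Agent.BAD.H17

end
end
-- ==== END Fermat.Agent.BAD.H17_Genus

-- ==== BEGIN Fermat.Agent.BAD.H30_Num23
section
attribute [local instance 10000] SubalgebraClass.toAlgebra
attribute [local instance 10000] HahnSeries.powerSeriesAlgebra

/-!
# BAD_q, leaf NUM-23 (helper30): the node count for `q = 3` and `q = 2`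

* `num23_three` : `2 ∣ M`, `3 ∤ M`, `A` over `3`: a nonempty finite set `Z` of zeros of `j~` on the
  reduced curve of level `M` with `g(3 M) + 1 ≤ 2 g(M) + #Z`  (chart `h₂`, fibre over `-64`);
* `num23_two` : `3 ∣ M`, `2 ∤ M`, `A` over `2`: the same with `g(2 M)` (chart `h₃`, fibre over
  `-27`);
* `num23_final` : the interface NUM → MODSSD of helper91 for `q = 2, 3` (same shape as
  `H21.H21_num_final`);
* `num_final_tame` : the interface for all tame `(M, q)`.
-/

set_option autoImplicit false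
set_option linter.style.haveILetI false
set_option linter.unusedSectionVars false
set_option synthInstance.maxHeartbeats 400000
set_option maxHeartbeats 1000000

noncomputable section

open AlgebraicCurve IntermediateField Polynomial

namespace Fermat.Agent.BAD.H30

open ModularCurve Fermat.Agent.S28.H73 Fermat.Agent.RED.H73 Fermat.Agent.RED.H34
  Fermat.Agent.RED.H76 Fermat.Agent.RED.H51 Fermat.Agent.RED.H79 Fermat.Agent.BAD.H21
open Fermat.Agent.S24 (Kbar FN)

section Count

variable (M : ℕ) [NeZero M] (A : ValuationSubring Kbar)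

/-- The set of zeros of `x~ - γ` as a finset, when the fibre has a positive number of points. -/
theorem num23_exists_finset {k Ft : Type} [Field k] [Field Ft] [Algebra k Ft] (y : Ft)
    (hpos : 0 < Nat.card {z : Place k Ft // 0 < z.ord y}) :
    ∃ Z : Finset (Place k Ft), (∀ z ∈ Z, 0 < z.ord y) ∧
      Z.card = Nat.card {z : Place k Ft // 0 < z.ord y} := by
  classical
  have hfin : {z : Place k Ft | 0 < z.ord y}.Finite := Nat.finite_of_card_ne_zero hpos.ne'
  refine ⟨hfin.toFinset, fun z hz => (Set.Finite.mem_toFinset hfin).mp hz, ?_⟩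
  rw [← Set.ncard_eq_toFinset_card _ hfin]
  exact (Nat.card_coe_set_eq _).symm

/-- **NUM-23, `q = 3`** (`2 ∣ M`, `3 ∤ M`): zeros of `j~`. -/
theorem num23_three (h2M : 2 ∣ M) (h3M : ¬ 3 ∣ M) (hA : A.LiesOverPrime 3) :
    ∃ Z : Finset (Place (kV A) ↥(redField A
          (laurentBaseChange Kbar (modularFunctionFieldFull M))
          (hasScale_laurentBaseChange A M))),
      Z.Nonempty ∧ (∀ z ∈ Z, 0 < z.ord (H21_jt M A)) ∧
      genusFormula (M * 3) + 1 ≤ 2 * genusFormula M + (Z.card : ℚ) := by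
  haveI : IsAlgClosed (kV A) := isAlgClosed_kV A
  haveI : CharP (kV A) 3 := Fermat.Agent.BAD.H82.charP_kV A Nat.prime_three hA
  obtain ⟨hZ, P', Q', hord, hlead, hQ', hPQ, hPQ'⟩ := stmt_Haupt2
  have hPmap : ((X + C 256) ^ 3 : ℤ[X]).map (Int.castRingHom Kbar) = (X + C 256) ^ 3 := by
    simp only [Polynomial.map_pow, Polynomial.map_add, Polynomial.map_X, Polynomial.map_C]
    simp only [eq_intCast, Int.cast_ofNat]
  have hQmap : ((X ^ 2 : ℤ[X])).map (Int.castRingHom Kbar) = X ^ 2 := by
    simp [Polynomial.map_pow]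
  have hPmapk : ((X + C 256) ^ 3 : ℤ[X]).map (Int.castRingHom (kV A)) = (X + C 256) ^ 3 := by
    simp only [Polynomial.map_pow, Polynomial.map_add, Polynomial.map_X, Polynomial.map_C]
    simp only [eq_intCast, Int.cast_ofNat]
  have hQmapk : ((X ^ 2 : ℤ[X])).map (Int.castRingHom (kV A)) = X ^ 2 := by
    simp [Polynomial.map_pow]
  have hcA : (-64 : Kbar) ∈ A := by
    have : ((64 : ℕ) : Kbar) ∈ A := natCast_mem A 64
    have h2 := A.neg_mem _ this
    exact_mod_cast h2
  have hcinv : ((-64 : Kbar))⁻¹ ∈ A := by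
    have := neg_natCast_inv_mem Nat.prime_three A hA 64 (by decide)
    exact_mod_cast this
  obtain ⟨x, hx, G, hdeg, hbrx, hid, hidk⟩ :=
    num23_haupt_data (p := 2) Nat.prime_two h2M Nat.prime_three h3M A hA hZ hord hlead
      ((X + C 256) ^ 3) (X ^ 2) P' Q' ((monic_X_add_C 256).pow 3)
      (by rw [(monic_X_add_C (256 : ℤ)).natDegree_pow, natDegree_X_add_C])
      (monic_X_pow 2) (by rw [natDegree_X_pow]; norm_num) hQ' hPQ hPQ' (-64)
      (by
        intro ρ hρ
        rw [hQmap] at hρ
        simpa using hρ)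
      (by
        intro ρ _ h
        rw [hPmap, hQmap] at h
        simp only [eval_pow, eval_add, eval_X, eval_C] at h
        rcases h with ⟨h0, hd⟩ | ⟨h1, hd⟩
        · exact (haupt2_case0 ρ h0 hd).elim
        · exact haupt2_case1728 ρ h1 hd)
  have hxt : Transcendental Kbar x := RedSetting.transcendental_x hx G.transc
  haveI := G.fin
  -- the identities
  have hid' : (x + algebraMap Kbar _ 256) ^ 3 = Fermat.Agent.RED.H73.jF (L := Kbar) M * x ^ 2 := by
    rw [hPmap, hQmap] at hid
    simpa only [map_pow, map_add, aeval_X, aeval_C] using hid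
  have hidk' : ((redSetting A (hasScale_laurentBaseChange A M)).red ⟨x, hx⟩
      + algebraMap (kV A) _ 256) ^ 3
      = H21_jt M A * ((redSetting A (hasScale_laurentBaseChange A M)).red ⟨x, hx⟩) ^ 2 := by
    rw [hPmapk, hQmapk] at hidk
    simpa only [map_pow, map_add, aeval_X, aeval_C] using hidk
  -- characteristic `0`
  have h1 := H21_char0_1728_ge M
  have h2 := num23_card_le x hxt
    (fun v => 0 < v.ord (Fermat.Agent.RED.H73.jF (L := Kbar) M - algebraMap Kbar (FN M) 1728))
    (-64) 512 (fun v hv => num23_cover2 v hxt hid' hv)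
  -- (FIB ≥)
  have hmem : (-64 : Kbar) ∈ (redSetting A (hasScale_laurentBaseChange A M)).O :=
    (algebraMap_mem_gaussValSub_iff A (hasScale_laurentBaseChange A M) _).2 hcA
  have h3 := num23_fibre_ge M A x hx G ⟨(-64 : Kbar), hmem⟩ (fun ρ' hb hres =>
    eq_of_resO_eq_of_mem_pair A _ (-64 : Kbar) (by norm_num) hcinv ρ' ⟨(-64 : Kbar), hmem⟩
      (hbrx _ hb) (Or.inr rfl) hres)
  have hγ0 : (redSetting A (hasScale_laurentBaseChange A M)).resO ⟨(-64 : Kbar), hmem⟩ ≠ 0 :=
    resO_ne_zero_of_inv_mem A (hasScale_laurentBaseChange A M) ⟨(-64 : Kbar), hmem⟩ hcinv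
      (by norm_num)
  have hγ : (redSetting A (hasScale_laurentBaseChange A M)).resO ⟨(-64 : Kbar), hmem⟩
      = (-64 : kV A) := by
    have hmem' : (((-64 : ℤ)) : Kbar) ∈ (redSetting A (hasScale_laurentBaseChange A M)).O := by
      have e : (((-64 : ℤ)) : Kbar) = -64 := by norm_num
      rw [e]
      exact hmem
    have := num23_resO_intCast (redSetting A (hasScale_laurentBaseChange A M)) (-64) hmem'
    have e2 : (⟨(((-64 : ℤ)) : Kbar), hmem'⟩ : ↥(redSetting A
        (hasScale_laurentBaseChange A M)).O) = ⟨(-64 : Kbar), hmem⟩ :=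
      Subtype.ext (by norm_num)
    rw [e2] at this
    rw [this]
    norm_num
  set γ := (redSetting A (hasScale_laurentBaseChange A M)).resO ⟨(-64 : Kbar), hmem⟩ with hγdef
  -- `256 = -γ` in characteristic `3`
  have h192 : (192 : kV A) = 0 := by
    have := (CharP.cast_eq_zero_iff (kV A) 3 192).2 (by norm_num)
    exact_mod_cast this
  have h256 : (256 : kV A) = -γ := by
    rw [hγ]
    linear_combination h192
  have hidk'' : ((redSetting A (hasScale_laurentBaseChange A M)).red ⟨x, hx⟩
      - algebraMap (kV A) _ γ) ^ 3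
      = H21_jt M A * ((redSetting A (hasScale_laurentBaseChange A M)).red ⟨x, hx⟩) ^ 2 := by
    rw [← hidk', h256, map_neg, sub_eq_add_neg]
  -- numerics
  have hS := Fermat.Agent.S24.asm_orb_S M
  have hpsi := H21_psi_pos M
  have hchain : Fermat.Agent.S24.orbN M ModularGroup.S
      ≤ Nat.card {z : Place (kV A) ↥(redField A
          (laurentBaseChange Kbar (modularFunctionFieldFull M))
          (hasScale_laurentBaseChange A M)) //
          0 < z.ord ((redSetting A (hasScale_laurentBaseChange A M)).red ⟨x, hx⟩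
            - algebraMap (kV A) _ γ)}
        + Module.finrank Kbar⟮x⟯ ↥(laurentBaseChange Kbar (modularFunctionFieldFull M)) :=
    le_trans h1 (le_trans h2 (Nat.add_le_add_right h3 _))
  have hpos : 0 < Nat.card {z : Place (kV A) ↥(redField A
      (laurentBaseChange Kbar (modularFunctionFieldFull M)) (hasScale_laurentBaseChange A M)) //
      0 < z.ord ((redSetting A (hasScale_laurentBaseChange A M)).red ⟨x, hx⟩
        - algebraMap (kV A) _ γ)} := by
    omega
  obtain ⟨Z, hZ1, hZ2⟩ := num23_exists_finset _ hpos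
  rw [← hZ2] at hchain hpos
  refine ⟨Z, ?_, fun z hz => ?_, ?_⟩
  · rw [← Finset.card_pos]
    exact hpos
  · exact num23_red_pos z hγ0 (by norm_num) hidk'' (hZ1 z hz)
  · refine Fermat.Agent.BAD.H94.arith3_le h2M h3M
      (Fermat.Agent.S24.orbN M ModularGroup.S) Z.card
      (Module.finrank Kbar⟮x⟯ ↥(laurentBaseChange Kbar (modularFunctionFieldFull M)))
      hS hchain ?_
    omega

/-- **NUM-23, `q = 2`** (`3 ∣ M`, `2 ∤ M`): zeros of `j~`. -/
theorem num23_two (h3M : 3 ∣ M) (h2M : ¬ 2 ∣ M) (hA : A.LiesOverPrime 2) :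
    ∃ Z : Finset (Place (kV A) ↥(redField A
          (laurentBaseChange Kbar (modularFunctionFieldFull M))
          (hasScale_laurentBaseChange A M))),
      Z.Nonempty ∧ (∀ z ∈ Z, 0 < z.ord (H21_jt M A)) ∧
      genusFormula (M * 2) + 1 ≤ 2 * genusFormula M + (Z.card : ℚ) := by
  haveI : IsAlgClosed (kV A) := isAlgClosed_kV A
  haveI : CharP (kV A) 2 := Fermat.Agent.BAD.H82.charP_kV A Nat.prime_two hA
  obtain ⟨hZ, P', Q', hord, hlead, hQ', hPQ, hPQ'⟩ := stmt_Haupt3
  have hPmap : ((X + C 27) * (X + C 243) ^ 3 : ℤ[X]).map (Int.castRingHom Kbar)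
      = (X + C 27) * (X + C 243) ^ 3 := by
    simp only [Polynomial.map_pow, Polynomial.map_add, Polynomial.map_mul, Polynomial.map_X,
      Polynomial.map_C]
    simp only [eq_intCast, Int.cast_ofNat]
  have hQmap : ((X ^ 3 : ℤ[X])).map (Int.castRingHom Kbar) = X ^ 3 := by
    simp [Polynomial.map_pow]
  have hPmapk : ((X + C 27) * (X + C 243) ^ 3 : ℤ[X]).map (Int.castRingHom (kV A))
      = (X + C 27) * (X + C 243) ^ 3 := by
    simp only [Polynomial.map_pow, Polynomial.map_add, Polynomial.map_mul, Polynomial.map_X,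
      Polynomial.map_C]
    simp only [eq_intCast, Int.cast_ofNat]
  have hQmapk : ((X ^ 3 : ℤ[X])).map (Int.castRingHom (kV A)) = X ^ 3 := by
    simp [Polynomial.map_pow]
  have hcA : (-27 : Kbar) ∈ A := by
    have : ((27 : ℕ) : Kbar) ∈ A := natCast_mem A 27
    have h2 := A.neg_mem _ this
    exact_mod_cast h2
  have hcinv : ((-27 : Kbar))⁻¹ ∈ A := by
    have := neg_natCast_inv_mem Nat.prime_two A hA 27 (by decide)
    exact_mod_cast this
  obtain ⟨x, hx, G, hdeg, hbrx, hid, hidk⟩ :=
    num23_haupt_data (p := 3) Nat.prime_three h3M Nat.prime_two h2M A hA hZ hord hlead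
      ((X + C 27) * (X + C 243) ^ 3) (X ^ 3) P' Q'
      ((monic_X_add_C 27).mul ((monic_X_add_C 243).pow 3))
      (by rw [(monic_X_add_C (27 : ℤ)).natDegree_mul ((monic_X_add_C (243 : ℤ)).pow 3),
        (monic_X_add_C (243 : ℤ)).natDegree_pow, natDegree_X_add_C, natDegree_X_add_C])
      (monic_X_pow 3) (by rw [natDegree_X_pow]; norm_num) hQ' hPQ hPQ' (-27)
      (by
        intro ρ hρ
        rw [hQmap] at hρ
        simpa using hρ)
      (by
        intro ρ _ h
        rw [hPmap, hQmap] at h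
        simp only [eval_pow, eval_add, eval_mul, eval_X, eval_C] at h
        rcases h with ⟨h0, hd⟩ | ⟨h1, hd⟩
        · exact haupt3_case0 ρ h0 hd
        · exact (haupt3_case1728 ρ h1 hd).elim)
  have hxt : Transcendental Kbar x := RedSetting.transcendental_x hx G.transc
  haveI := G.fin
  -- the identities
  have hid' : (x + algebraMap Kbar _ 27) * (x + algebraMap Kbar _ 243) ^ 3
      = Fermat.Agent.RED.H73.jF (L := Kbar) M * x ^ 3 := by
    rw [hPmap, hQmap] at hid
    simpa only [map_pow, map_add, map_mul, aeval_X, aeval_C] using hid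
  have hidk' : ((redSetting A (hasScale_laurentBaseChange A M)).red ⟨x, hx⟩
      + algebraMap (kV A) _ 27)
      * ((redSetting A (hasScale_laurentBaseChange A M)).red ⟨x, hx⟩
        + algebraMap (kV A) _ 243) ^ 3
      = H21_jt M A * ((redSetting A (hasScale_laurentBaseChange A M)).red ⟨x, hx⟩) ^ 3 := by
    rw [hPmapk, hQmapk] at hidk
    simpa only [map_pow, map_add, map_mul, aeval_X, aeval_C] using hidk
  -- characteristic `0`
  have h1 := H21_char0_zero_ge M
  have h2 := num23_card_le x hxt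
    (fun v => 0 < v.ord (Fermat.Agent.RED.H73.jF (L := Kbar) M - algebraMap Kbar (FN M) 0))
    (-27) (-243) (fun v hv => num23_cover3 v hxt hid' hv)
  -- (FIB ≥)
  have hmem : (-27 : Kbar) ∈ (redSetting A (hasScale_laurentBaseChange A M)).O :=
    (algebraMap_mem_gaussValSub_iff A (hasScale_laurentBaseChange A M) _).2 hcA
  have h3 := num23_fibre_ge M A x hx G ⟨(-27 : Kbar), hmem⟩ (fun ρ' hb hres =>
    eq_of_resO_eq_of_mem_pair A _ (-27 : Kbar) (by norm_num) hcinv ρ' ⟨(-27 : Kbar), hmem⟩
      (hbrx _ hb) (Or.inr rfl) hres)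
  have hγ0 : (redSetting A (hasScale_laurentBaseChange A M)).resO ⟨(-27 : Kbar), hmem⟩ ≠ 0 :=
    resO_ne_zero_of_inv_mem A (hasScale_laurentBaseChange A M) ⟨(-27 : Kbar), hmem⟩ hcinv
      (by norm_num)
  have hγ : (redSetting A (hasScale_laurentBaseChange A M)).resO ⟨(-27 : Kbar), hmem⟩
      = (-27 : kV A) := by
    have hmem' : (((-27 : ℤ)) : Kbar) ∈ (redSetting A (hasScale_laurentBaseChange A M)).O := by
      have e : (((-27 : ℤ)) : Kbar) = -27 := by norm_num
      rw [e]
      exact hmem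
    have := num23_resO_intCast (redSetting A (hasScale_laurentBaseChange A M)) (-27) hmem'
    have e2 : (⟨(((-27 : ℤ)) : Kbar), hmem'⟩ : ↥(redSetting A
        (hasScale_laurentBaseChange A M)).O) = ⟨(-27 : Kbar), hmem⟩ :=
      Subtype.ext (by norm_num)
    rw [e2] at this
    rw [this]
    norm_num
  set γ := (redSetting A (hasScale_laurentBaseChange A M)).resO ⟨(-27 : Kbar), hmem⟩ with hγdef
  -- `27 = 243 = -γ` in characteristic `2`
  have h2k : (2 : kV A) = 0 := by
    have := (CharP.cast_eq_zero_iff (kV A) 2 2).2 (dvd_refl 2)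
    exact_mod_cast this
  have h27 : (27 : kV A) = -γ := by
    rw [hγ]
    linear_combination (0 : kV A) * h2k
  have h243 : (243 : kV A) = -γ := by
    rw [hγ]
    linear_combination (108 : kV A) * h2k
  have hidk'' : ((redSetting A (hasScale_laurentBaseChange A M)).red ⟨x, hx⟩
      - algebraMap (kV A) _ γ) ^ 4
      = H21_jt M A * ((redSetting A (hasScale_laurentBaseChange A M)).red ⟨x, hx⟩) ^ 3 := by
    rw [← hidk', h27, h243, map_neg, ← sub_eq_add_neg]
    ring
  -- numerics
  have hS := Fermat.Agent.S24.asm_orb_ST M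
  have hpsi := H21_psi_pos M
  have hchain : Fermat.Agent.S24.orbN M (ModularGroup.S * ModularGroup.T)
      ≤ Nat.card {z : Place (kV A) ↥(redField A
          (laurentBaseChange Kbar (modularFunctionFieldFull M))
          (hasScale_laurentBaseChange A M)) //
          0 < z.ord ((redSetting A (hasScale_laurentBaseChange A M)).red ⟨x, hx⟩
            - algebraMap (kV A) _ γ)}
        + Module.finrank Kbar⟮x⟯ ↥(laurentBaseChange Kbar (modularFunctionFieldFull M)) :=
    le_trans h1 (le_trans h2 (Nat.add_le_add_right h3 _))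
  have hpos : 0 < Nat.card {z : Place (kV A) ↥(redField A
      (laurentBaseChange Kbar (modularFunctionFieldFull M)) (hasScale_laurentBaseChange A M)) //
      0 < z.ord ((redSetting A (hasScale_laurentBaseChange A M)).red ⟨x, hx⟩
        - algebraMap (kV A) _ γ)} := by
    omega
  obtain ⟨Z, hZ1, hZ2⟩ := num23_exists_finset _ hpos
  rw [← hZ2] at hchain hpos
  refine ⟨Z, ?_, fun z hz => ?_, ?_⟩
  · rw [← Finset.card_pos]
    exact hpos
  · exact num23_red_pos z hγ0 (by norm_num) hidk'' (hZ1 z hz)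
  · refine Fermat.Agent.BAD.H94.arith2_le h3M h2M
      (Fermat.Agent.S24.orbN M (ModularGroup.S * ModularGroup.T)) Z.card
      (Module.finrank Kbar⟮x⟯ ↥(laurentBaseChange Kbar (modularFunctionFieldFull M)))
      hS hchain ?_
    omega

end Count

end Fermat.Agent.BAD.H30

end
end
-- ==== END Fermat.Agent.BAD.H30_Num23

-- ==== BEGIN Fermat.Agent.BAD.H91_Cusp
section
attribute [local instance 10000] SubalgebraClass.toAlgebra
attribute [local instance 10000] HahnSeries.powerSeriesAlgebra

/-!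
# BAD_q, final assembly, part 2 (helper91): the unit has no zero or pole over a non-cusp

`q ∤ M` tame, `A` over `q`.

* `ord_jF_nonneg_of_rM` : if `j~` is regular at `r_M P` then `j` is regular at `P`
  (helper42's CUSP for the chart `j` of level `M`, degrees by GA);
* `ord_unitF_eq_zero_of_rhoM` : if `j~` is regular at `ρ_M P`, `P` a place of level `M q`, then
  the modular unit `Δ(z)/Δ(qz)` has order `0` at `P` (helper30's `ord_unitF`).
-/

set_option autoImplicit false
set_option linter.style.haveILetI false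
set_option synthInstance.maxHeartbeats 400000
set_option maxHeartbeats 400000

noncomputable section

open HahnSeries IntermediateField AlgebraicCurve ModularCurve
open Fermat.Agent.S28.H73 Fermat.Agent.RED.H73 Fermat.Agent.RED

namespace Fermat.Agent.BAD.H91

open Fermat.Agent.BAD

variable {A : ValuationSubring (AlgebraicClosure ℚ)} {M q : ℕ} [NeZero M]

/-- `j` of level `M` as a Gauss-integral function. -/
theorem jF_mem_gaussV (A : ValuationSubring (AlgebraicClosure ℚ)) (M : ℕ) [NeZero M] :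
    RED.H73.jF (L := AlgebraicClosure ℚ) M ∈ gaussV A M :=
  jF_mem A M

/-- The reduction `j~` of `j` at level `M`. -/
abbrev jRed (A : ValuationSubring (AlgebraicClosure ℚ)) (M : ℕ) [NeZero M] :
    ↥(redField A (laurentBaseChange (AlgebraicClosure ℚ) (modularFunctionFieldFull M))
        (hasScale_laurentBaseChange A M)) :=
  (redSetting A (hasScale_laurentBaseChange A M)).red
    ⟨RED.H73.jF (L := AlgebraicClosure ℚ) M, jF_mem A M⟩

/-- **CUSP, abstract helper**: the statement for a reduction datum whose `V`, `red` are those of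
the Gauss valuation. -/
theorem ord_jF_nonneg_aux (hq : q.Prime) (hqM : ¬ q ∣ M) (hA : A.LiesOverPrime q)
    (SE : RED.H17.RedSetup (AlgebraicClosure ℚ)
      ↥(laurentBaseChange (AlgebraicClosure ℚ) (modularFunctionFieldFull M)) (kV A)
      ↥(redField A (laurentBaseChange (AlgebraicClosure ℚ) (modularFunctionFieldFull M))
        (hasScale_laurentBaseChange A M)))
    (hmem : RED.H73.jF (L := AlgebraicClosure ℚ) M ∈ SE.V)
    (hred : SE.red ⟨RED.H73.jF (L := AlgebraicClosure ℚ) M, hmem⟩ = jRed A M)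
    (hFF' : IsFF (kV A)
      ↥(redField A (laurentBaseChange (AlgebraicClosure ℚ) (modularFunctionFieldFull M))
        (hasScale_laurentBaseChange A M)))
    (P : Place (AlgebraicClosure ℚ)
      ↥(laurentBaseChange (AlgebraicClosure ℚ) (modularFunctionFieldFull M)))
    (h : 0 ≤ (SE.r P).ord (jRed A M)) :
    0 ≤ P.ord (RED.H73.jF (L := AlgebraicClosure ℚ) M) := by
  haveI : IsAlgClosed (kV A) := isAlgClosed_kV A
  have hFF : IsFF (AlgebraicClosure ℚ)
      ↥(laurentBaseChange (AlgebraicClosure ℚ) (modularFunctionFieldFull M)) :=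
    H95.stmt_HKA_isFF M
  obtain ⟨hxt', hfd, -, hdeg, -⟩ := goodChart_pre M q hq hqM A hA
  haveI := hfd
  have H := RED.H17.ffHyp_of_isFF _ _ hFF
  have H' := RED.H17.ffHyp_of_isFF _ _ hFF'
  have hrd : SE.rd (RED.H73.jF (L := AlgebraicClosure ℚ) M) = jRed A M :=
    (SE.rd_of_mem hmem).trans hred
  have hxt : Transcendental (AlgebraicClosure ℚ) (RED.H73.jF (L := AlgebraicClosure ℚ) M) :=
    RED.H34.RedSetting.transcendental_x (S := redSetting A (hasScale_laurentBaseChange A M))
      (jF_mem A M) hxt'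
  have hz := RED.H42.zerosAll _ _ hFF
  have hz' := RED.H42.zerosAll _ _ hFF'
  -- generalize the reduction of `j`
  have key : ∀ y : ↥(redField A (laurentBaseChange (AlgebraicClosure ℚ)
      (modularFunctionFieldFull M)) (hasScale_laurentBaseChange A M)),
      SE.rd (RED.H73.jF (L := AlgebraicClosure ℚ) M) = y → Transcendental (kV A) y →
      Module.finrank ↥((kV A)⟮y⟯)
        ↥(redField A (laurentBaseChange (AlgebraicClosure ℚ) (modularFunctionFieldFull M))
          (hasScale_laurentBaseChange A M))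
        = Module.finrank ↥((AlgebraicClosure ℚ)⟮RED.H73.jF (L := AlgebraicClosure ℚ) M⟯)
          ↥(laurentBaseChange (AlgebraicClosure ℚ) (modularFunctionFieldFull M)) →
      0 ≤ (SE.r P).ord y → 0 ≤ P.ord (RED.H73.jF (L := AlgebraicClosure ℚ) M) := by
    intro y hy hyt hyd hy0
    subst hy
    have hx : SE.IsGU (RED.H73.jF (L := AlgebraicClosure ℚ) M) :=
      ⟨hmem, fun h0 => hyt (h0 ▸ isAlgebraic_zero)⟩
    haveI hfd' : FiniteDimensional
        ↥((kV A)⟮SE.rd (RED.H73.jF (L := AlgebraicClosure ℚ) M)⟯)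
        ↥(redField A (laurentBaseChange (AlgebraicClosure ℚ) (modularFunctionFieldFull M))
          (hasScale_laurentBaseChange A M)) := by
      apply Module.finite_of_finrank_pos
      rw [hyd]
      exact Module.finrank_pos
    exact Fermat.Agent.BAD.H42.ord_nonneg_of_ord_rd_nonneg SE H.principal
      H'.principal hz hz' hx hxt hyt hyd.ge P hy0
  exact key _ hrd hxt' hdeg h

/-- **CUSP at level `M`**: if `j~` is regular at `r_M P`, then `j` is regular at `P`. -/
theorem ord_jF_nonneg_of_rM (hq : q.Prime) (hqM : ¬ q ∣ M) (ht : TameAt M q)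
    (hA : A.LiesOverPrime q) (P : Place (AlgebraicClosure ℚ) ↥(FNbar M))
    (h : 0 ≤ (rM hq hqM ht hA P).ord (jRed A M)) :
    0 ≤ P.ord (RED.H73.jF (L := AlgebraicClosure ℚ) M) :=
  ord_jF_nonneg_aux hq hqM hA (seM hq hqM ht hA) (jF_mem A M) rfl (isFF_redM hq hqM ht hA) P h


omit [NeZero M] in
/-- The two versions of `j` in `F_{M q}` agree. -/
theorem incl_jF [NeZero (M * q)] :
    incl M q (RED.H73.jF (L := AlgebraicClosure ℚ) M) = Fermat.Agent.S24.jF (M * q) := by
  apply Subtype.ext
  rw [coe_incl]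
  show jqModC (AlgebraicClosure ℚ) = coeffEmb (AlgebraicClosure ℚ) jq
  have h := RED.H73.coeffEmb_qExpand_jq (L := AlgebraicClosure ℚ) 1
  rw [qExpand_one_apply, qExpand_one_apply] at h
  exact h.symm

/-- **The unit has order `0` over the non-cusps**: if `j~` is regular at `ρ_M P`, then
`Δ(z)/Δ(qz)` has neither zero nor pole at `P`. -/
theorem ord_unitF_eq_zero_of_rhoM [NeZero (M * q)] [NeZero q] (hq : q.Prime) (hqM : ¬ q ∣ M)
    (ht : TameAt M q) (hA : A.LiesOverPrime q) (hd : q ∣ M * q)
    (P : Place (AlgebraicClosure ℚ) ↥(FNbar (M * q)))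
    (h : 0 ≤ (rhoM hq hqM ht hA P).ord (jRed A M)) :
    P.ord (Fermat.Agent.BAD.H30.unitF (M * q) q hd) = 0 := by
  have h1 := ord_jF_nonneg_of_rM hq hqM ht hA _ h
  have h2 : 0 ≤ P.ord (incl M q (RED.H73.jF (L := AlgebraicClosure ℚ) M)) := by
    rw [Place.ord_restrictAlong (incl M q) (incl_isIntegral M q) P]
    exact mul_nonneg (Int.natCast_nonneg _) h1
  rw [incl_jF] at h2
  exact Fermat.Agent.BAD.H30.ord_unitF (M * q) q hd P h2

end Fermat.Agent.BAD.H91

end
end
-- ==== END Fermat.Agent.BAD.H91_Cusp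

-- ==== BEGIN Fermat.Agent.BAD.H91_Kappa
section
attribute [local instance 10000] HahnSeries.powerSeriesAlgebra

/-!
# BAD_q, final assembly, part 3 (helper91): transport of places along (D)

(D) (helper82, helper73): the residue fields of the Gauss valuations of levels `M q` and `M`
are the same subfield of `k((t))`.

* `placeCongr h : Place k ↥E₁ ≃ Place k ↥E₂` for equal intermediate fields, `placeCongr_ord`;
* `kappa : Place k F₁ ≃ Place k (redM)`, `kappa_ord`, `kappa_symm_ord`;
* `rhoF1 P := kappa.symm (rhoM P)` : the reduction map of `TotData` with values in the places of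
  `F₁`, `kappa_rhoF1`, `rhoF1_inertia`.
-/

set_option autoImplicit false
set_option linter.style.haveILetI false
set_option synthInstance.maxHeartbeats 400000
set_option maxHeartbeats 400000

noncomputable section

open HahnSeries IntermediateField AlgebraicCurve ModularCurve
open Fermat.Agent.S28.H73 Fermat.Agent.RED.H73 Fermat.Agent.RED Fermat.Agent.S24
open Fermat.Agent.BAD.H88

namespace Fermat.Agent.BAD.H91

open Fermat.Agent.BAD

section Abs

variable {k X : Type*} [Field k] [Field X] [Algebra k X]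

/-- Transport of places along an equality of intermediate fields. -/
def placeCongr {E₁ E₂ : IntermediateField k X} (h : E₁ = E₂) : Place k ↥E₁ ≃ Place k ↥E₂ :=
  Equiv.cast (by rw [h])

theorem placeCongr_ord {E₁ E₂ : IntermediateField k X} (h : E₁ = E₂) (z : Place k ↥E₁)
    (y₁ : ↥E₁) (y₂ : ↥E₂) (hy : (y₁ : X) = (y₂ : X)) :
    (placeCongr h z).ord y₂ = z.ord y₁ := by
  subst h
  have e : y₁ = y₂ := Subtype.ext hy
  rw [e]
  rfl

theorem placeCongr_symm_ord {E₁ E₂ : IntermediateField k X} (h : E₁ = E₂) (z : Place k ↥E₂)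
    (y₁ : ↥E₁) (y₂ : ↥E₂) (hy : (y₁ : X) = (y₂ : X)) :
    ((placeCongr h).symm z).ord y₁ = z.ord y₂ := by
  subst h
  have e : y₁ = y₂ := Subtype.ext hy
  rw [e]
  rfl

end Abs

section Mod

variable (A : ValuationSubring Kbar) (q M : ℕ) (a b : ℤ) (hab : a * q + b * M = 1)
  (hq : q.Prime) [NeZero M] [NeZero (M * q)] (hA : A.LiesOverPrime q)

/-- **`κ`**: the places of `F₁` (residue field of level `M q`) are the places of the residue
field of level `M`. -/
def kappa : Place (kV A) (F1 A q M) ≃ Place (kV A) ↥(_root_.Fermat.Agent.BAD.H91.redM A M) :=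
  placeCongr (H82.redField_eq_redField q M a b hab hq A hA)

omit [NeZero M] in
theorem kappa_ord (z : Place (kV A) (F1 A q M)) (y₁ : F1 A q M) (y₂ : ↥(_root_.Fermat.Agent.BAD.H91.redM A M))
    (hy : (y₁ : LaurentSeries (kV A)) = (y₂ : LaurentSeries (kV A))) :
    (kappa A q M a b hab hq hA z).ord y₂ = z.ord y₁ :=
  placeCongr_ord _ z y₁ y₂ hy

omit [NeZero M] in
theorem kappa_symm_ord (z : Place (kV A) ↥(_root_.Fermat.Agent.BAD.H91.redM A M)) (y₁ : F1 A q M) (y₂ : ↥(_root_.Fermat.Agent.BAD.H91.redM A M))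
    (hy : (y₁ : LaurentSeries (kV A)) = (y₂ : LaurentSeries (kV A))) :
    ((kappa A q M a b hab hq hA).symm z).ord y₁ = z.ord y₂ :=
  placeCongr_symm_ord _ z y₁ y₂ hy

variable {A q M}

/-- **`ρ`** with values in the places of `F₁`. -/
def rhoF1 (hqM : ¬ q ∣ M) (ht : TameAt M q) (P : Place Kbar (FN (M * q))) :
    Place (kV A) (F1 A q M) :=
  (kappa A q M a b hab hq hA).symm (rhoM hq hqM ht hA P)

theorem kappa_rhoF1 (hqM : ¬ q ∣ M) (ht : TameAt M q) (P : Place Kbar (FN (M * q))) :
    kappa A q M a b hab hq hA (rhoF1 a b hab hq hA hqM ht P) = rhoM hq hqM ht hA P :=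
  (kappa A q M a b hab hq hA).apply_symm_apply _

/-- `ρ` is invariant under inertia. -/
theorem rhoF1_inertia (hqM : ¬ q ∣ M) (ht : TameAt M q) {σ : GalQ}
    (hσ : σ ∈ A.inertiaSubgroupIn ℚ) (P : Place Kbar (FN (M * q))) :
    rhoF1 a b hab hq hA hqM ht (galF (M * q) σ • P) = rhoF1 a b hab hq hA hqM ht P := by
  unfold rhoF1
  rw [rhoM_inertia hq hqM ht hA hσ]

end Mod

end Fermat.Agent.BAD.H91

end
end
-- ==== END Fermat.Agent.BAD.H91_Kappa

-- ==== BEGIN Fermat.Agent.GTor.H81_Uncond
section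

/-!
# G-TOR: the unconditional results  (helper81)

Everything of G-TOR is proved; the only remaining input of `S30.Stmt_TatePiece` is G-RED.

* `stmt_TOR_uncond N n hn : Stmt_TOR N n` :
  `Pic0.torsion ℚ̄ (modularFunctionFieldBar N) n ≃+ homPE (Γ₀(N)) (ℤ/n)`   (UNCONDITIONAL)
* `stmt_TORc_uncond N n hn : Stmt_TORc N n`                                 (UNCONDITIONAL)
* `tateCoords N p S hp hNS : Nonempty (TateCoords N p S)`                    (UNCONDITIONAL)
* `tatePiece_of_red : (∀ N p, AllRed N p) → S30.Stmt_TatePiece`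
-/

set_option autoImplicit false

noncomputable section

namespace Fermat.Agent.GTor.H81

open AlgebraicCurve ModularCurve Fermat.Agent.GTor Fermat.Agent.Betti

/-- **TORc**, unconditional. -/
theorem stmt_TORc_uncond (N n : ℕ) [NeZero N] (hn : n ≠ 0) : Stmt_TORc N n :=
  stmt_TORc_final N n hn (H75.stmt_DESC N n hn)

/-- **TOR**, unconditional: `J₀(N)[n] ≃ homPE(Γ₀(N), ℤ/n)`. -/
theorem stmt_TOR_uncond (N n : ℕ) [NeZero N] (hn : n ≠ 0) : Stmt_TOR N n :=
  stmt_TOR_final N n hn (H75.stmt_DESC N n hn)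

/-- **The coordinatised Tate system of `J₀(N)`**, unconditional. -/
theorem tateCoords (N p : ℕ) [NeZero N] (S : Set ℕ) (hp : p.Prime)
    (hNS : ∀ q : ℕ, q.Prime → q ∣ N → q ∈ S) : Nonempty (TateCoords N p S) :=
  tateCoords_of N p S hp hNS
    (fun k => stmt_TORc_uncond N (p ^ k) (pow_ne_zero k hp.ne_zero))
    (fun k => H44.stmt_HK N (p ^ k)) (H77.stmt_torsLift N) (H2.stmt_GalHecke N) (stmt_GAL N)
    Betti.stmt_basis Betti.H76.stmt_matrixRep

/-- **The Tate system of `J₀(N)`** from G-RED. -/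
theorem stmt_TateSystem_of_red (N p : ℕ) [NeZero N] (S : Finset ℕ) (hp : p.Prime) (hpS : p ∈ S)
    (hNS : ∀ q : ℕ, q.Prime → q ∣ N → q ∈ S) (hRed : AllRed N p) : Stmt_TateSystem N p S :=
  stmt_TateSystem_final N p S hp hpS hNS (fun n hn => H75.stmt_DESC N n hn) hRed

/-- **`Stmt_TatePiece`** (interface of cluster R) from G-RED alone. -/
theorem tatePiece_of_red
    (hRed : ∀ (N : ℕ) [NeZero N] (p : ℕ), p.Prime → AllRed N p) : S30.Stmt_TatePiece :=
  tatePiece_of_desc_red (fun N _ n hn => H75.stmt_DESC N n hn) hRed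

end Fermat.Agent.GTor.H81

end
end
-- ==== END Fermat.Agent.GTor.H81_Uncond
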