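-- GENERATED (merged mirror, NOTES/tools/trim/merge3_helper67.py): 6 modules of the originals, bodies verbatim.
import Mathlib
import Fermat.Agent.Zm.S56_L01_000
import Fermat.Agent.S17.WeakMW
import Fermat.Agent.S17.OpenStab
import Fermat.Agent.Zm.S35_L20_000
import Fermat.Agent.Zm.S35_L02_000
import Fermat.Agent.S17.Height.H71_MPH
import Fermat.Agent.Zm.S35_L02_002

-- ==== BEGIN Fermat.Agent.S15.Desc.H69_Dev
section

/-!
# S15 / DESC: the abstract dévissage (package DEV of `NOTES/plan/S15_DESC.md`)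

Pure algebra.  `G` is a group (the absolute Galois group of `ℚ`), `V` a vector space over a
field `K` (`= 𝔽_r`) with a `G`-action (the Eisenstein part of `J₀(p)[r]`), `I v` are subgroups of
`G` (inertia groups), `Vloc v ≤ V` are subspaces (toric part at `p`, connected part at `r`, `⊥`
at the other primes) and `𝔅` is a family of subgroups of `G` (those whose fixed field has
bounded ramification at `r`).

A *good cocycle* with values in a subspace `W ≤ V` is a `1`-cocycle `z : G → V` with values in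
`W`, with `z (I v) ⊆ Vloc v` for all `v`, vanishing on some member of `𝔅`.

* `DimLE S n` : every finite-dimensional subspace contained in the set `S` has dimension `≤ n`.
* `dimLE_Zgood_step` : one step of the dévissage: if `π : V → K` is a `ψ`-semi-invariant
  functional on `W₂` with `W₂ ∩ ker π ≤ W₁`, then
  `dim Zgood W₂ ≤ dim Zgood W₁ + dim ZgoodLine ψ (π (W₂ ∩ Vloc))`.
* `dimLE_Zgood_of_flag` : the dévissage along a flag.
* `dimLE_Zgood_of_flag_sum` : the same with the count `∑_{v ∈ s} dim (W n ∩ Vloc v)`.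

No quotient modules and no cohomology groups occur: everything is a count of cocycles.
-/

set_option autoImplicit false

namespace Fermat.Agent.S15.Desc

open Module

section DimLE

variable {K E : Type*} [Field K] [AddCommGroup E] [Module K E]

/-- Every finite-dimensional subspace contained in `S` has dimension at most `n`. -/
def DimLE (K : Type*) {E : Type*} [Field K] [AddCommGroup E] [Module K E]
    (S : Set E) (n : ℕ) : Prop :=
  ∀ T : Submodule K E, (T : Set E) ⊆ S → Module.Finite K T → finrank K T ≤ n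

theorem DimLE.mono {S S' : Set E} {n n' : ℕ} (h : DimLE K S' n') (hS : S ⊆ S')
    (hn : n' ≤ n) : DimLE K S n :=
  fun T hT hfin => (h T (hT.trans hS) hfin).trans hn

theorem dimLE_zero_of_subset_zero {S : Set E} (hS : S ⊆ {0}) (n : ℕ) : DimLE K S n := by
  intro T hT _
  have : T = ⊥ := by
    rw [eq_bot_iff]
    intro x hx
    have := hS (hT hx)
    simpa using this
  subst this
  simp

end DimLE

section Cocycles

variable {G : Type*} [Group G] {K : Type*} [Field K]
variable {V : Type*} [AddCommGroup V] [Module K V] [DistribMulAction G V]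
variable {ι : Type*}

/-- Good cocycles with values in `W`: cocycles `z : G → V` with values in `W`, with
`z (I v) ⊆ Vloc v` for all `v`, vanishing on some member of `𝔅`. -/
def Zgood (I : ι → Subgroup G) (𝔅 : Set (Subgroup G)) (Vloc : ι → Submodule K V)
    (W : Submodule K V) : Set (G → V) :=
  {z | (∀ σ τ, z (σ * τ) = z σ + σ • z τ) ∧ (∀ σ, z σ ∈ W) ∧
      (∀ v, ∀ σ ∈ I v, z σ ∈ Vloc v) ∧ ∃ H ∈ 𝔅, ∀ σ ∈ H, z σ = 0}

/-- Good cocycles with values in the line `K(ψ)`. -/
def ZgoodLine (I : ι → Subgroup G) (𝔅 : Set (Subgroup G)) (ψ : G → K)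
    (Lloc : ι → Submodule K K) : Set (G → K) :=
  {u | (∀ σ τ, u (σ * τ) = u σ + ψ σ * u τ) ∧
      (∀ v, ∀ σ ∈ I v, u σ ∈ Lloc v) ∧ ∃ H ∈ 𝔅, ∀ σ ∈ H, u σ = 0}

variable (I : ι → Subgroup G) (𝔅 : Set (Subgroup G)) (Vloc : ι → Submodule K V)

/-- **One step of the dévissage.** -/
theorem dimLE_Zgood_step (W₁ W₂ : Submodule K V) (π : V →ₗ[K] K) (ψ : G → K)
    (hπ : ∀ σ : G, ∀ w ∈ W₂, π (σ • w) = ψ σ * π w)
    (hker : ∀ w ∈ W₂, π w = 0 → w ∈ W₁) {n₁ n₂ : ℕ}
    (h₁ : DimLE K (Zgood I 𝔅 Vloc W₁) n₁)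
    (h₂ : DimLE K (ZgoodLine I 𝔅 ψ (fun v => (W₂ ⊓ Vloc v).map π)) n₂) :
    DimLE K (Zgood I 𝔅 Vloc W₂) (n₁ + n₂) := by
  intro T hT hfin
  set Φ : (G → V) →ₗ[K] (G → K) := π.compLeft G with hΦ
  have hΦapp : ∀ z : G → V, ∀ σ, Φ z σ = π (z σ) := fun z σ => rfl
  -- the image of `T`
  have hrange : finrank K (T.map Φ) ≤ n₂ := by
    refine h₂ (T.map Φ) ?_ inferInstance
    rintro u ⟨z, hz, rfl⟩
    obtain ⟨hcoc, hW, hloc, H, hH, hvan⟩ := hT hz
    refine ⟨fun σ τ => ?_, fun v σ hσ => ?_, H, hH, fun σ hσ => ?_⟩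
    · rw [hΦapp, hΦapp, hΦapp, hcoc, map_add, hπ σ _ (hW τ)]
    · rw [hΦapp]
      exact Submodule.mem_map_of_mem ⟨hW σ, hloc v σ hσ⟩
    · rw [hΦapp, hvan σ hσ, map_zero]
  -- the kernel of `Φ` on `T`
  have hkerle : finrank K ↥(T ⊓ LinearMap.ker Φ) ≤ n₁ := by
    refine h₁ (T ⊓ LinearMap.ker Φ) ?_ (Module.Finite.of_injective
      (Submodule.inclusion (inf_le_left : T ⊓ LinearMap.ker Φ ≤ T))
      (Submodule.inclusion_injective _))
    rintro z ⟨hz, hzk⟩
    obtain ⟨hcoc, hW, hloc, H, hH, hvan⟩ := hT hz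
    refine ⟨hcoc, fun σ => hker _ (hW σ) ?_, hloc, H, hH, hvan⟩
    have : Φ z = 0 := hzk
    rw [← hΦapp, this]
    rfl
  -- rank-nullity
  have hrn := LinearMap.finrank_range_add_finrank_ker (Φ.domRestrict T)
  have hr1 : LinearMap.range (Φ.domRestrict T) = T.map Φ := by
    ext u
    simp only [LinearMap.mem_range, Submodule.mem_map, LinearMap.domRestrict_apply,
      Subtype.exists, exists_prop]
  have hk1 : finrank K ↥(LinearMap.ker (Φ.domRestrict T)) = finrank K ↥(T ⊓ LinearMap.ker Φ) := by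
    have hmap : (LinearMap.ker (Φ.domRestrict T)).map T.subtype = T ⊓ LinearMap.ker Φ := by
      ext z
      simp only [Submodule.mem_map, LinearMap.mem_ker, LinearMap.domRestrict_apply,
        Submodule.subtype_apply, Subtype.exists, exists_and_right, exists_eq_right,
        Submodule.mem_inf]
      constructor
      · rintro ⟨hz, h0⟩
        exact ⟨hz, h0⟩
      · rintro ⟨hz, h0⟩
        exact ⟨hz, h0⟩
    rw [← hmap]
    exact (LinearEquiv.finrank_eq
      (Submodule.equivMapOfInjective T.subtype T.injective_subtype _))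
  rw [hr1] at hrn
  omega

/-- **Dévissage along a flag** `0 = W 0 ≤ W 1 ≤ … ≤ W n` with semi-invariant functionals `π i`
on `W (i+1)` whose kernel in `W (i+1)` is contained in `W i`. -/
theorem dimLE_Zgood_of_flag (W : ℕ → Submodule K V) (hW0 : W 0 = ⊥)
    (π : ℕ → V →ₗ[K] K) (ψ : ℕ → G → K) (n : ℕ)
    (hπ : ∀ i < n, ∀ σ : G, ∀ w ∈ W (i + 1), π i (σ • w) = ψ i σ * π i w)
    (hker : ∀ i < n, ∀ w ∈ W (i + 1), π i w = 0 → w ∈ W i)
    (N : ℕ → ℕ)
    (hbase : ∀ i < n,
      DimLE K (ZgoodLine I 𝔅 (ψ i) (fun v => (W (i + 1) ⊓ Vloc v).map (π i))) (N i)) :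
    DimLE K (Zgood I 𝔅 Vloc (W n)) (∑ i ∈ Finset.range n, N i) := by
  induction n with
  | zero =>
    refine dimLE_zero_of_subset_zero ?_ _
    rintro z ⟨-, hW, -, -⟩
    rw [Set.mem_singleton_iff]
    funext σ
    have := hW σ
    rw [hW0, Submodule.mem_bot] at this
    exact this
  | succ n ih =>
    rw [Finset.sum_range_succ]
    exact dimLE_Zgood_step I 𝔅 Vloc (W n) (W (n + 1)) (π n) (ψ n) (hπ n (Nat.lt_succ_self n))
      (hker n (Nat.lt_succ_self n))
      (ih (fun i hi => hπ i (Nat.lt_succ_of_lt hi)) (fun i hi => hker i (Nat.lt_succ_of_lt hi))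
        (fun i hi => hbase i (Nat.lt_succ_of_lt hi)))
      (hbase n (Nat.lt_succ_self n))

/-- The dimension count along a flag: `dim (W (i+1) ∩ U) = dim (W i ∩ U) + dim π (W (i+1) ∩ U)`. -/
theorem finrank_inf_succ [Module.Finite K V] (W₁ W₂ U : Submodule K V) (π : V →ₗ[K] K)
    (hle : W₁ ≤ W₂) (hπ0 : ∀ w ∈ W₁, π w = 0) (hker : ∀ w ∈ W₂, π w = 0 → w ∈ W₁) :
    finrank K ↥(W₂ ⊓ U) = finrank K ↥(W₁ ⊓ U) + finrank K ↥((W₂ ⊓ U).map π) := by
  have hrn := LinearMap.finrank_range_add_finrank_ker (π.domRestrict (W₂ ⊓ U))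
  have hr1 : LinearMap.range (π.domRestrict (W₂ ⊓ U)) = (W₂ ⊓ U).map π := by
    ext u
    simp only [LinearMap.mem_range, Submodule.mem_map, LinearMap.domRestrict_apply,
      Subtype.exists, exists_prop]
  have hk1 : finrank K ↥(LinearMap.ker (π.domRestrict (W₂ ⊓ U))) = finrank K ↥(W₁ ⊓ U) := by
    have hmap : (LinearMap.ker (π.domRestrict (W₂ ⊓ U))).map (W₂ ⊓ U).subtype = W₁ ⊓ U := by
      ext z
      simp only [Submodule.mem_map, LinearMap.mem_ker, LinearMap.domRestrict_apply,
        Submodule.subtype_apply, Subtype.exists, exists_and_right, exists_eq_right,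
        Submodule.mem_inf]
      constructor
      · rintro ⟨⟨hz, hzU⟩, h0⟩
        exact ⟨hker z hz h0, hzU⟩
      · rintro ⟨hz, hzU⟩
        exact ⟨⟨hle hz, hzU⟩, hπ0 z hz⟩
    rw [← hmap]
    exact (LinearEquiv.finrank_eq
      (Submodule.equivMapOfInjective (W₂ ⊓ U).subtype (W₂ ⊓ U).injective_subtype _))
  rw [hr1] at hrn
  omega

/-- **Dévissage, final count.**  If for every step of the flag the good cocycles of the line
have dimension at most `∑_{v ∈ s} dim π (W (i+1) ∩ Vloc v)`, then the good cocycles with values in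
`W n` have dimension at most `∑_{v ∈ s} dim (W n ∩ Vloc v)`. -/
theorem dimLE_Zgood_of_flag_sum [Module.Finite K V] (s : Finset ι)
    (W : ℕ → Submodule K V) (hW0 : W 0 = ⊥)
    (π : ℕ → V →ₗ[K] K) (ψ : ℕ → G → K) (n : ℕ)
    (hmono : ∀ i < n, W i ≤ W (i + 1))
    (hπ0 : ∀ i < n, ∀ w ∈ W i, π i w = 0)
    (hπ : ∀ i < n, ∀ σ : G, ∀ w ∈ W (i + 1), π i (σ • w) = ψ i σ * π i w)
    (hker : ∀ i < n, ∀ w ∈ W (i + 1), π i w = 0 → w ∈ W i)
    (hbase : ∀ i < n,
      DimLE K (ZgoodLine I 𝔅 (ψ i) (fun v => (W (i + 1) ⊓ Vloc v).map (π i)))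
        (∑ v ∈ s, finrank K ↥((W (i + 1) ⊓ Vloc v).map (π i)))) :
    DimLE K (Zgood I 𝔅 Vloc (W n)) (∑ v ∈ s, finrank K ↥(W n ⊓ Vloc v)) := by
  have h := dimLE_Zgood_of_flag I 𝔅 Vloc W hW0 π ψ n hπ hker
    (fun i => ∑ v ∈ s, finrank K ↥((W (i + 1) ⊓ Vloc v).map (π i))) hbase
  refine h.mono subset_rfl (le_of_eq ?_)
  rw [Finset.sum_comm]
  refine Finset.sum_congr rfl fun v _ => ?_
  -- telescoping sum
  have key : ∀ k ≤ n, ∑ i ∈ Finset.range k, finrank K ↥((W (i + 1) ⊓ Vloc v).map (π i)) =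
      finrank K ↥(W k ⊓ Vloc v) := by
    intro k hk
    induction k with
    | zero =>
      rw [Finset.sum_range_zero, hW0, bot_inf_eq]
      simp
    | succ k ih =>
      rw [Finset.sum_range_succ, ih (Nat.le_of_succ_le hk),
        finrank_inf_succ (W k) (W (k + 1)) (Vloc v) (π k) (hmono k hk) (hπ0 k hk) (hker k hk)]
  exact key n le_rfl

end Cocycles

end Fermat.Agent.S15.Desc

end
-- ==== END Fermat.Agent.S15.Desc.H69_Dev

-- ==== BEGIN Fermat.Agent.S15.Desc.H97_GlobArith
section

set_option autoImplicit false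

namespace Fermat.Agent.S15.Desc.H97

theorem nat_eq_pow_of_dvd_padicValNat {r n : ℕ} (hn : n ≠ 0)
    (h : ∀ l : ℕ, l.Prime → r ∣ padicValNat l n) : ∃ m : ℕ, n = m ^ r := by
  classical
  let f : ℕ →₀ ℕ := n.factorization.mapRange (fun e => e / r) (Nat.zero_div r)
  have hfsupp : ∀ l ∈ f.support, l.Prime := by
    intro l hl
    have h1 : l ∈ n.factorization.support := Finsupp.support_mapRange hl
    exact Nat.prime_of_mem_primeFactors (by simpa using h1)
  have hfac : (f.prod (· ^ ·)).factorization = f := Nat.prod_pow_factorization_eq_self hfsupp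
  have hm0 : f.prod (· ^ ·) ≠ 0 := by
    rw [Finsupp.prod_ne_zero_iff]
    intro l hl
    exact pow_ne_zero _ (hfsupp l hl).ne_zero
  refine ⟨f.prod (· ^ ·), ?_⟩
  apply Nat.eq_of_factorization_eq hn (pow_ne_zero _ hm0)
  intro l
  rw [Nat.factorization_pow, hfac]
  show n.factorization l = r * (n.factorization l / r)
  by_cases hl : l.Prime
  · have hdvd : r ∣ n.factorization l := by
      rw [Nat.factorization_def n hl]
      exact h l hl
    rw [Nat.mul_div_cancel' hdvd]
  · rw [Nat.factorization_eq_zero_of_not_prime n hl, Nat.zero_div, mul_zero]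

theorem rat_eq_pow_of_dvd_padicValRat {r : ℕ} (hr : Odd r) (a : ℚ) (ha : a ≠ 0)
    (h : ∀ l : ℕ, l.Prime → (r : ℤ) ∣ padicValRat l a) : ∃ c : ℚ, a = c ^ r := by
  have hr0 : 0 < r := hr.pos
  have hnum : a.num ≠ 0 := Rat.num_ne_zero.2 ha
  have hden : a.den ≠ 0 := a.den_ne_zero
  have hcop : Nat.Coprime a.num.natAbs a.den := a.reduced
  have hdef : ∀ l : ℕ, padicValRat l a =
      (padicValNat l a.num.natAbs : ℤ) - (padicValNat l a.den : ℤ) := fun l => rfl
  have hboth : ∀ l : ℕ, l.Prime → r ∣ padicValNat l a.num.natAbs ∧ r ∣ padicValNat l a.den := by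
    intro l hl
    have hl' := h l hl
    rw [hdef] at hl'
    by_cases hd : l ∣ a.den
    · have hn : ¬ l ∣ a.num.natAbs := by
        intro hn
        have := Nat.dvd_gcd hn hd
        rw [hcop.gcd_eq_one] at this
        exact hl.one_lt.ne' (Nat.dvd_one.1 this)
      have h0 : padicValNat l a.num.natAbs = 0 := padicValNat.eq_zero_of_not_dvd hn
      rw [h0] at hl' ⊢
      refine ⟨dvd_zero _, ?_⟩
      have : (r : ℤ) ∣ (padicValNat l a.den : ℤ) := by
        have := (dvd_neg (a := (r : ℤ))).2 hl'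
        simpa using this
      exact Int.natCast_dvd_natCast.1 this
    · have h0 : padicValNat l a.den = 0 := padicValNat.eq_zero_of_not_dvd hd
      rw [h0] at hl' ⊢
      refine ⟨?_, dvd_zero _⟩
      have : (r : ℤ) ∣ (padicValNat l a.num.natAbs : ℤ) := by simpa using hl'
      exact Int.natCast_dvd_natCast.1 this
  obtain ⟨m, hm⟩ := nat_eq_pow_of_dvd_padicValNat (Int.natAbs_ne_zero.2 hnum)
    (fun l hl => (hboth l hl).1)
  obtain ⟨d, hd⟩ := nat_eq_pow_of_dvd_padicValNat hden (fun l hl => (hboth l hl).2)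
  have hd0 : (d : ℚ) ≠ 0 := by
    intro h0
    have : d = 0 := by exact_mod_cast h0
    rw [this, zero_pow hr0.ne'] at hd
    exact hden hd
  have hdq : (a.den : ℚ) = (d : ℚ) ^ r := by exact_mod_cast hd
  have ha' : a = (a.num : ℚ) / (a.den : ℚ) := (Rat.num_div_den a).symm
  rcases Int.natAbs_eq a.num with hs | hs
  · refine ⟨(m : ℚ) / d, ?_⟩
    have hnq : (a.num : ℚ) = (m : ℚ) ^ r := by
      have e1 : (a.num : ℚ) = ((a.num.natAbs : ℤ) : ℚ) := congrArg (fun z : ℤ => (z : ℚ)) hs
      rw [e1, hm]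
      push_cast
      rfl
    rw [div_pow, ← hnq, ← hdq]
    exact ha'
  · refine ⟨-(m : ℚ) / d, ?_⟩
    have hnq : (a.num : ℚ) = -((m : ℚ) ^ r) := by
      have e1 : (a.num : ℚ) = ((-(a.num.natAbs : ℤ) : ℤ) : ℚ) :=
        congrArg (fun z : ℤ => (z : ℚ)) hs
      rw [e1, hm]
      push_cast
      rfl
    rw [div_pow, Odd.neg_pow hr, ← hnq, ← hdq]
    exact ha'

/-- Two integers have a nontrivial combination (with coefficients in `[0, r)`) divisible by the
prime `r`. -/
theorem exists_comb_dvd {r : ℕ} (hr : r.Prime) (k₁ k₂ : ℤ) :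
    ∃ c₁ c₂ : ℕ, (¬ r ∣ c₁ ∨ ¬ r ∣ c₂) ∧ (r : ℤ) ∣ c₁ * k₁ + c₂ * k₂ := by
  have hfact : Fact r.Prime := ⟨hr⟩
  by_cases h1 : (r : ℤ) ∣ k₁
  · refine ⟨1, 0, Or.inl ?_, ?_⟩
    · intro h
      exact hr.one_lt.ne' (Nat.dvd_one.1 h)
    · simpa using h1
  · -- `c₁ = k₂ mod r`, `c₂ = -k₁ mod r`
    refine ⟨((k₂ : ZMod r)).val, ((-k₁ : ℤ) : ZMod r).val, Or.inr ?_, ?_⟩
    · intro h
      have h0 : (((-k₁ : ℤ) : ZMod r).val : ZMod r) = 0 := (ZMod.natCast_eq_zero_iff _ _).2 h
      rw [ZMod.natCast_val, ZMod.cast_id', id_eq] at h0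
      have : (r : ℤ) ∣ -k₁ := (ZMod.intCast_zmod_eq_zero_iff_dvd _ _).1 h0
      exact h1 ((dvd_neg).1 this)
    · rw [← ZMod.intCast_zmod_eq_zero_iff_dvd]
      push_cast
      simp only [ZMod.natCast_val, ZMod.cast_id', id_eq]
      ring

end Fermat.Agent.S15.Desc.H97

end
-- ==== END Fermat.Agent.S15.Desc.H97_GlobArith

-- ==== BEGIN Fermat.Agent.S15.Desc.H97_GlobH90
section

set_option autoImplicit false

namespace Fermat.Agent.S15.Desc.H97

local notation "Qbar" => AlgebraicClosure ℚ
local notation "GQ" => (AlgebraicClosure ℚ ≃ₐ[ℚ] AlgebraicClosure ℚ)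

theorem qbar_isAlgebraic : Algebra.IsAlgebraic ℚ (AlgebraicClosure ℚ) :=
  AlgebraicClosure.isAlgebraic ℚ

attribute [local instance] qbar_isAlgebraic

theorem qbar_isAlgClosure : IsAlgClosure ℚ (AlgebraicClosure ℚ) :=
  ⟨inferInstance, inferInstance⟩

attribute [local instance] qbar_isAlgClosure

theorem qbar_isGalois : IsGalois ℚ (AlgebraicClosure ℚ) := inferInstance

attribute [local instance] qbar_isGalois

/-- The fixer of a finite extension has finite index. -/
theorem finite_quot_fixingSubgroup (F : IntermediateField ℚ Qbar) [FiniteDimensional ℚ F] :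
    Finite (GQ ⧸ F.fixingSubgroup) := by
  let f : GQ → (F →ₐ[ℚ] Qbar) := fun s => ((s : Qbar ≃ₐ[ℚ] Qbar) : Qbar →ₐ[ℚ] Qbar).comp F.val
  have hf : ∀ s t : GQ, f s = f t → s⁻¹ * t ∈ F.fixingSubgroup := by
    intro s t hst
    rw [IntermediateField.mem_fixingSubgroup_iff]
    intro x hx
    have h1 : s x = t x := congrArg (fun φ : F →ₐ[ℚ] Qbar => φ ⟨x, hx⟩) hst
    show s⁻¹ (t x) = x
    rw [← h1]
    exact s.symm_apply_apply x
  have hf' : ∀ s t : GQ, s⁻¹ * t ∈ F.fixingSubgroup → f s = f t := by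
    intro s t hst
    rw [IntermediateField.mem_fixingSubgroup_iff] at hst
    apply AlgHom.ext
    intro x
    have h2 : s⁻¹ (t x) = x := hst x x.2
    have h3 := congrArg s h2
    show s x = t x
    rw [← h3]
    exact s.apply_symm_apply (t x)
  let fbar : GQ ⧸ F.fixingSubgroup → (F →ₐ[ℚ] Qbar) :=
    Quotient.lift f (fun s t hst => hf' s t (QuotientGroup.leftRel_apply.1 hst))
  have hinj : Function.Injective fbar := by
    intro x y hxy
    induction x using QuotientGroup.induction_on with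
    | H s =>
      induction y using QuotientGroup.induction_on with
      | H t => exact QuotientGroup.eq.2 (hf s t hxy)
  exact Finite.of_injective fbar hinj

/-- **Hilbert 90** for `Gal(ℚ̄/ℚ)`: an open crossed homomorphism to `ℚ̄ˣ` is a coboundary. -/
theorem hilbert90_GQ (z : GQ → Qbar) (hz : ∀ σ τ : GQ, z (σ * τ) = z σ * σ (z τ))
    (hz0 : ∀ σ, z σ ≠ 0)
    (hopen : ∃ S : Finset Qbar, ∀ σ : GQ, (∀ x ∈ S, σ x = x) → z σ = 1) :
    ∃ γ : Qbar, γ ≠ 0 ∧ ∀ σ : GQ, σ γ = z σ * γ := by
  classical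
  obtain ⟨S, hS⟩ := hopen
  let F : IntermediateField ℚ Qbar := IntermediateField.adjoin ℚ (S : Set Qbar)
  have hFD : FiniteDimensional ℚ F :=
    IntermediateField.finiteDimensional_adjoin (fun x _ => Algebra.IsIntegral.isIntegral x)
  have hfin := finite_quot_fixingSubgroup F
  have hU : ∀ u ∈ F.fixingSubgroup, z u = 1 := by
    intro u hu
    rw [IntermediateField.mem_fixingSubgroup_iff] at hu
    exact hS u (fun x hx => hu x (IntermediateField.subset_adjoin ℚ _ hx))
  obtain ⟨γ, hγ0, hγ⟩ := Fermat.Agent.Lib.LocalKummer.exists_hilbert90 (G := GQ) (Ω := Qbar)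
    (F := F) z (fun g h => hz g h) hz0 F.fixingSubgroup hU
    ((F.val : F →ₐ[ℚ] Qbar) : F →* Qbar)
    (fun g hg => by
      rw [IntermediateField.mem_fixingSubgroup_iff]
      intro x hx
      exact hg ⟨x, hx⟩)
    (fun u hu x => by
      rw [IntermediateField.mem_fixingSubgroup_iff] at hu
      exact hu x x.2)
  exact ⟨γ, hγ0, fun σ => hγ σ⟩

/-- **Kummer class** of an open crossed homomorphism with values in `μ_r`. -/
theorem kummer_class (r : ℕ) (z : GQ → Qbar) (hz : ∀ σ τ : GQ, z (σ * τ) = z σ * σ (z τ))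
    (hzr : ∀ σ, z σ ^ r = 1) (hr : r ≠ 0)
    (hopen : ∃ S : Finset Qbar, ∀ σ : GQ, (∀ x ∈ S, σ x = x) → z σ = 1) :
    ∃ (a : ℚ) (γ : Qbar), a ≠ 0 ∧ γ ^ r = algebraMap ℚ Qbar a ∧ ∀ σ : GQ, σ γ = z σ * γ := by
  have hz0 : ∀ σ, z σ ≠ 0 := by
    intro σ h0
    have := hzr σ
    rw [h0, zero_pow hr] at this
    exact zero_ne_one this
  obtain ⟨γ, hγ0, hγ⟩ := hilbert90_GQ z hz hz0 hopen
  have hfix : ∀ σ : GQ, σ (γ ^ r) = γ ^ r := by
    intro σ
    rw [map_pow, hγ σ, mul_pow, hzr σ, one_mul]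
  obtain ⟨a, ha⟩ := (InfiniteGalois.mem_range_algebraMap_iff_fixed (γ ^ r)).2 hfix
  refine ⟨a, γ, ?_, ha.symm, hγ⟩
  rintro rfl
  rw [map_zero] at ha
  exact pow_ne_zero _ hγ0 ha.symm

/-- Two solutions of `σ γ = z σ * γ` differ by a rational factor. -/
theorem kummer_class_unique (z : GQ → Qbar) {γ γ' : Qbar} (hγ0 : γ ≠ 0)
    (hγ : ∀ σ : GQ, σ γ = z σ * γ) (hγ' : ∀ σ : GQ, σ γ' = z σ * γ') :
    ∃ c : ℚ, γ' = algebraMap ℚ Qbar c * γ := by
  have hfix : ∀ σ : GQ, σ (γ' / γ) = γ' / γ := by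
    intro σ
    rw [map_div₀, hγ σ, hγ' σ]
    by_cases h0 : z σ = 0
    · have := hγ σ
      rw [h0, zero_mul] at this
      exact absurd ((map_eq_zero σ).1 this) hγ0
    · field_simp
  obtain ⟨c, hc⟩ := (InfiniteGalois.mem_range_algebraMap_iff_fixed (γ' / γ)).2 hfix
  refine ⟨c, ?_⟩
  rw [hc]
  field_simp

end Fermat.Agent.S15.Desc.H97

end
-- ==== END Fermat.Agent.S15.Desc.H97_GlobH90

-- ==== BEGIN Fermat.Agent.S17.H8_W14
section

/-!
# S17, packages W1 and W4 (helper8)

* `stmt_torsion_finite N n hn : Stmt_torsion_finite N n` (W1): `J₀(N)[n]` is finite, from the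
  unconditional G-TOR isomorphism `J₀(N)[n] ≃ Hom_pe(Γ₀(N), ℤ/n)`.
* `stmt_open_stab N : Stmt_open_stab N` (W4): every point of `J₀(N)(ℚ̄)` has an open stabiliser.
-/

set_option autoImplicit false

noncomputable section

namespace Fermat.Agent.S17.H8

open AlgebraicCurve ModularCurve Fermat.Agent.GTor CongruenceSubgroup

/-- **W1**: the `n`-torsion of `J₀(N)(ℚ̄)` is finite. -/
theorem stmt_torsion_finite (N n : ℕ) [NeZero N] (hn : n ≠ 0) :
    Fermat.Agent.S17.Stmt_torsion_finite N n := by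
  obtain ⟨e⟩ := H81.stmt_TOR_uncond N n hn
  have : NeZero n := ⟨hn⟩
  have := H56.groupFG_Gamma0' N
  have : Finite (Additive ↥(Gamma0 N) →+ ZMod n) := H56.finite_addMonoidHom_of_fg _ _
  have : Finite ↥(homPE (Gamma0 N) (ZMod n)) := Subtype.finite
  have : Finite (Pic0.torsion (AlgebraicClosure ℚ) (modularFunctionFieldBar N) n) :=
    Finite.of_equiv _ e.symm.toEquiv
  have hfin : (Set.range (Subtype.val :
      Pic0.torsion (AlgebraicClosure ℚ) (modularFunctionFieldBar N) n → JZero N)).Finite :=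
    Set.finite_range _
  refine hfin.subset ?_
  intro x hx
  refine ⟨⟨x, ?_⟩, rfl⟩
  rw [Pic0.mem_torsion]
  have hx' : n • x = 0 := hx
  exact hx'

/-- Every nonzero function of `ℚ̄(X₀(N))` has finitely many zeros. -/
theorem stmt_zeros_finite (N : ℕ) [NeZero N] : Fermat.Agent.S17.Stmt_zeros_finite N := by
  intro x hx
  have := H33.hasPrincipalDivisors_FNL (AlgebraicClosure ℚ) N
  obtain ⟨D, hD, -⟩ := HasPrincipalDivisors.exists_divisor (K := AlgebraicClosure ℚ) x hx
  refine D.support.finite_toSet.subset fun v hv => ?_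
  have h0 : 0 < v.ord x := hv
  rw [Finset.mem_coe, Finsupp.mem_support_iff, hD v]
  exact h0.ne'

/-- **W4**: every point of `J₀(N)(ℚ̄)` is fixed by the Galois group of a number field. -/
theorem stmt_open_stab (N : ℕ) [NeZero N] : Fermat.Agent.S17.Stmt_open_stab N :=
  Fermat.Agent.S17.open_stab_of_zeros_finite N (stmt_zeros_finite N)

end Fermat.Agent.S17.H8

end
end
-- ==== END Fermat.Agent.S17.H8_W14

-- ==== BEGIN Fermat.Agent.S17.Height.H35_AbsVal
section

/-!
# S17 part H, package ABSVAL (helper35): absolute values on `ℚ̄` above the places of `ℚ`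

* `absQ : PlaceQ → AbsoluteValue Qbar ℝ`, `PlaceQ = Option Nat.Primes` (`none` is the
  archimedean place): pull-back of the norm of `ℂ` resp. of `PadicAlgCl p` along an embedding.
* `absQ_some_nonarch`, `absQ_some_ratCast`, `absQ_none_ratCast`: the restrictions to `ℚ`.
* `finite_one_lt_absQ`: every `x : ℚ̄` is `v`-integral for almost all `v`.
* `prod_absQ_ratCast`: the product formula on `ℚˣ`; `finsum_log_absQ_eq_zero_of_pow` for
  `c : ℚ̄` with `c ^ k ∈ ℚˣ`.
* `LocConst.finite_ne_one`, `LocConst.total`: the sum of the logarithms of a family of local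
  constants is a finite sum.
-/

set_option autoImplicit false

noncomputable section

open scoped Padic

namespace Fermat.Agent.S17.H35

open Fermat.Agent.S17.H71

/-- The field `ℚ̄`. -/
abbrev Qbar : Type := AlgebraicClosure ℚ

/-- An embedding of `ℚ̄` into the algebraic closure of `ℚ_p`. -/
def embP (p : ℕ) [Fact p.Prime] : Qbar →ₐ[ℚ] PadicAlgCl p :=
  haveI : Algebra.IsAlgebraic ℚ (AlgebraicClosure ℚ) := AlgebraicClosure.isAlgebraic ℚ
  IsAlgClosed.lift

/-- An embedding of `ℚ̄` into `ℂ`. -/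
def embC : Qbar →ₐ[ℚ] ℂ :=
  haveI : Algebra.IsAlgebraic ℚ (AlgebraicClosure ℚ) := AlgebraicClosure.isAlgebraic ℚ
  IsAlgClosed.lift

/-- The `p`-adic absolute value on `ℚ̄` (one extension). -/
def absP (p : ℕ) [Fact p.Prime] : AbsoluteValue Qbar ℝ :=
  (NormedField.toAbsoluteValue (PadicAlgCl p)).comp (f := (embP p).toRingHom)
    (embP p).toRingHom.injective

/-- The archimedean absolute value on `ℚ̄` (one extension). -/
def absInf : AbsoluteValue Qbar ℝ :=
  (NormedField.toAbsoluteValue ℂ).comp (f := embC.toRingHom) embC.toRingHom.injective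

theorem absP_apply (p : ℕ) [Fact p.Prime] (x : Qbar) : absP p x = ‖embP p x‖ := rfl

theorem absInf_apply (x : Qbar) : absInf x = ‖embC x‖ := rfl

theorem absP_nonarch (p : ℕ) [Fact p.Prime] : IsNonarchimedean (absP p) := by
  intro x y
  rw [absP_apply, absP_apply, absP_apply, map_add]
  exact PadicAlgCl.isNonarchimedean p _ _

theorem norm_ratCast_padicAlgCl (p : ℕ) [Fact p.Prime] (x : ℚ) :
    ‖((x : ℚ) : PadicAlgCl p)‖ = padicNorm p x := by
  rw [← Padic.eq_padicNorm, ← PadicAlgCl.norm_extends]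
  congr 1

theorem absP_ratCast (p : ℕ) [Fact p.Prime] (x : ℚ) : absP p (x : Qbar) = padicNorm p x := by
  rw [absP_apply, map_ratCast, norm_ratCast_padicAlgCl]

theorem absInf_ratCast (x : ℚ) : absInf (x : Qbar) = |(x : ℝ)| := by
  rw [absInf_apply, map_ratCast]
  simp

theorem absP_intCast_le_one (p : ℕ) [Fact p.Prime] (z : ℤ) : absP p (z : Qbar) ≤ 1 := by
  have h := absP_ratCast p (z : ℚ)
  rw [Rat.cast_intCast] at h
  rw [h]
  exact_mod_cast padicNorm.of_int (p := p) z

/-! ## Integrality -/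

/-- A nonarchimedean absolute value is at most `1` on the integers. -/
theorem abv_intCast_le_one {K : Type*} [Field K] (v : AbsoluteValue K ℝ)
    (hv : IsNonarchimedean v) (z : ℤ) : v (z : K) ≤ 1 := by
  have hnat : ∀ n : ℕ, v (n : K) ≤ 1 := by
    intro n
    induction n with
    | zero => simp
    | succ n ih =>
      rw [Nat.cast_succ]
      exact (hv _ _).trans (max_le ih (by simp))
  rcases Int.natAbs_eq z with h | h
  · rw [h, Int.cast_natCast]; exact hnat _
  · rw [h, Int.cast_neg, Int.cast_natCast, v.map_neg]; exact hnat _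

/-- A nonarchimedean absolute value is at most `1` on the elements integral over `ℤ`. -/
theorem abv_le_one_of_isIntegral {K : Type*} [Field K] (v : AbsoluteValue K ℝ)
    (hv : IsNonarchimedean v) {y : K} (hy : IsIntegral ℤ y) : v y ≤ 1 := by
  by_contra hcon
  push Not at hcon
  obtain ⟨P, hP, hPy⟩ := hy
  set n := P.natDegree with hn
  have hsum : y ^ n = -∑ i ∈ Finset.range n, ((P.coeff i : ℤ) : K) * y ^ i := by
    have h1 := hP.as_sum
    have h2 : Polynomial.eval₂ (algebraMap ℤ K) y P = 0 := hPy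
    rw [h1, Polynomial.eval₂_add, Polynomial.eval₂_pow, Polynomial.eval₂_X,
      Polynomial.eval₂_finsetSum] at h2
    have h3 : ∀ i ∈ Finset.range P.natDegree,
        Polynomial.eval₂ (algebraMap ℤ K) y (Polynomial.C (P.coeff i) * Polynomial.X ^ i)
          = ((P.coeff i : ℤ) : K) * y ^ i := by
      intro i _
      rw [Polynomial.eval₂_mul, Polynomial.eval₂_C, Polynomial.eval₂_pow, Polynomial.eval₂_X]
      rfl
    rw [Finset.sum_congr rfl h3] at h2
    exact eq_neg_of_add_eq_zero_left h2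
  have hpos : 0 < v y := lt_trans one_pos hcon
  rcases Nat.eq_zero_or_pos n with hn0 | hn0
  · rw [hn0] at hsum
    simp only [pow_zero, Finset.range_zero, Finset.sum_empty, neg_zero] at hsum
    exact one_ne_zero hsum
  have hbound : v (∑ i ∈ Finset.range n, ((P.coeff i : ℤ) : K) * y ^ i) ≤ v y ^ (n - 1) := by
    have hne : (Finset.range n).Nonempty := Finset.nonempty_range_iff.mpr hn0.ne'
    obtain ⟨i, hi, hle⟩ := IsNonarchimedean.finset_image_add_of_nonempty hv
      (fun i => ((P.coeff i : ℤ) : K) * y ^ i) hne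
    refine hle.trans ?_
    rw [v.map_mul, v.map_pow]
    have hi' : i ≤ n - 1 := by
      have := Finset.mem_range.mp hi
      omega
    calc v ((P.coeff i : ℤ) : K) * v y ^ i ≤ 1 * v y ^ i :=
          mul_le_mul_of_nonneg_right (abv_intCast_le_one v hv _) (pow_nonneg hpos.le _)
      _ = v y ^ i := one_mul _
      _ ≤ v y ^ (n - 1) := pow_le_pow_right₀ hcon.le hi'
  have h4 : v y ^ n ≤ v y ^ (n - 1) := by
    rw [← v.map_pow, hsum, v.map_neg]
    exact hbound
  have h5 : v y ^ (n - 1) < v y ^ n := pow_lt_pow_right₀ hcon (by omega)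
  linarith

/-- The `p`-adic absolute value on `ℚ̄`, indexed by `Nat.Primes`. -/
def absPrime (p : Nat.Primes) : AbsoluteValue Qbar ℝ := @absP p.1 ⟨p.2⟩

theorem absPrime_nonarch (p : Nat.Primes) : IsNonarchimedean (absPrime p) :=
  @absP_nonarch p.1 ⟨p.2⟩

theorem absPrime_ratCast (p : Nat.Primes) (x : ℚ) :
    absPrime p (x : Qbar) = padicNorm p x :=
  @absP_ratCast p.1 ⟨p.2⟩ x

theorem finite_dvd_primes {m : ℕ} (hm : m ≠ 0) : {p : Nat.Primes | (p : ℕ) ∣ m}.Finite := by
  have h1 : (m.primeFactors : Set ℕ).Finite := Finset.finite_toSet _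
  refine Set.Finite.of_injOn (f := fun p : Nat.Primes => (p : ℕ)) ?_ ?_ h1
  · intro p hp
    simp only [Set.mem_ofPred_eq] at hp
    simp only [Finset.mem_coe, Nat.mem_primeFactors]
    exact ⟨p.2, hp, hm⟩
  · intro p _ q _ h
    exact Subtype.ext h

/-- Every element of `ℚ̄` is `p`-integral for almost all `p`. -/
theorem finite_one_lt_absPrime (x : Qbar) : {p : Nat.Primes | 1 < absPrime p x}.Finite := by
  have halg : IsAlgebraic ℤ x := by
    have h1 : IsAlgebraic ℚ x := (AlgebraicClosure.isAlgebraic ℚ).isAlgebraic x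
    exact (IsFractionRing.isAlgebraic_iff ℤ ℚ (AlgebraicClosure ℚ)).mpr h1
  obtain ⟨d, hd0, hdx⟩ := halg.exists_integral_multiple
  have hfin : {p : Nat.Primes | (p : ℕ) ∣ d.natAbs}.Finite :=
    finite_dvd_primes (Int.natAbs_ne_zero.mpr hd0)
  refine hfin.subset ?_
  intro p hp
  simp only [Set.mem_ofPred_eq] at hp ⊢
  have : Fact (p : ℕ).Prime := ⟨p.2⟩
  by_contra hndvd
  have h1 : absPrime p (d • x) ≤ 1 := abv_le_one_of_isIntegral _ (absPrime_nonarch _) hdx
  have h2 : absPrime p ((d : ℤ) : Qbar) = 1 := by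
    have h := absPrime_ratCast p (d : ℚ)
    rw [Rat.cast_intCast] at h
    rw [h]
    have h3 : padicNorm (p : ℕ) (d : ℚ) = 1 := by
      rw [padicNorm.int_eq_one_iff]
      intro hdvd
      exact hndvd (Int.natCast_dvd.mp hdvd)
    rw [h3]; simp
  rw [zsmul_eq_mul, map_mul, h2, one_mul] at h1
  linarith

/-! ## The product formula on `ℚ` -/

theorem padicNorm_eq_one_of_not_dvd (p : Nat.Primes) (x : ℚ)
    (h1 : ¬ (p : ℕ) ∣ x.num.natAbs) (h2 : ¬ (p : ℕ) ∣ x.den) : padicNorm p x = 1 := by
  have : Fact (p : ℕ).Prime := ⟨p.2⟩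
  have hx' : x = (x.num : ℚ) / (x.den : ℚ) := (Rat.num_div_den x).symm
  rw [hx', padicNorm.div]
  have e1 : padicNorm p (x.num : ℚ) = 1 := by
    rw [padicNorm.int_eq_one_iff]
    intro hdvd
    exact h1 (Int.natCast_dvd.mp hdvd)
  have e2 : padicNorm p (x.den : ℚ) = 1 := by
    rw [padicNorm.nat_eq_one_iff]
    exact h2
  rw [e1, e2, div_one]

theorem padicNorm_hasFiniteMulSupport (x : ℚ) (hx : x ≠ 0) :
    (Function.mulSupport fun p : Nat.Primes => padicNorm p x).Finite := by
  have hnum : x.num.natAbs ≠ 0 := Int.natAbs_ne_zero.mpr (Rat.num_ne_zero.mpr hx)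
  refine ((finite_dvd_primes hnum).union (finite_dvd_primes x.den_nz)).subset ?_
  intro p hp
  simp only [Function.mem_mulSupport] at hp
  by_contra hcon
  simp only [Set.mem_union, Set.mem_ofPred_eq, not_or] at hcon
  exact hp (padicNorm_eq_one_of_not_dvd p x hcon.1 hcon.2)

/-- The product of all `p`-adic norms and the usual absolute value. -/
def allProd (x : ℚ) : ℚ := (∏ᶠ p : Nat.Primes, padicNorm p x) * |x|

theorem allProd_mul {x y : ℚ} (hx : x ≠ 0) (hy : y ≠ 0) :
    allProd (x * y) = allProd x * allProd y := by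
  unfold allProd
  have h : (fun p : Nat.Primes => padicNorm p (x * y))
      = fun p : Nat.Primes => padicNorm p x * padicNorm p y := by
    funext p
    have : Fact (p : ℕ).Prime := ⟨p.2⟩
    exact padicNorm.mul x y
  rw [h, finprod_mul_distrib (padicNorm_hasFiniteMulSupport x hx)
    (padicNorm_hasFiniteMulSupport y hy), abs_mul]
  ring

theorem allProd_one : allProd 1 = 1 := by
  unfold allProd
  have h : (fun p : Nat.Primes => padicNorm p (1 : ℚ)) = fun _ => 1 := by
    funext p
    have : Fact (p : ℕ).Prime := ⟨p.2⟩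
    exact padicNorm.one
  rw [h, finprod_one]
  simp

theorem allProd_prime (q : ℕ) (hq : q.Prime) : allProd (q : ℚ) = 1 := by
  unfold allProd
  have : Fact q.Prime := ⟨hq⟩
  have h := finprod_eq_single (fun p : Nat.Primes => padicNorm p (q : ℚ)) ⟨q, hq⟩ (by
    intro p hp
    have : Fact (p : ℕ).Prime := ⟨p.2⟩
    apply padicNorm.padicNorm_of_prime_of_ne
    intro h
    exact hp (Subtype.ext h))
  rw [h]
  show padicNorm q (q : ℚ) * |(q : ℚ)| = 1
  rw [padicNorm.padicNorm_p hq.one_lt, abs_of_nonneg (by positivity)]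
  have : (q : ℚ) ≠ 0 := by exact_mod_cast hq.ne_zero
  field_simp

theorem allProd_natCast (n : ℕ) (hn : n ≠ 0) : allProd (n : ℚ) = 1 := by
  induction n using induction_on_primes with
  | zero => exact absurd rfl hn
  | one => simpa using allProd_one
  | prime_mul p a hp ih =>
    have ha : a ≠ 0 := fun h => hn (by rw [h, mul_zero])
    rw [Nat.cast_mul, allProd_mul (by exact_mod_cast hp.ne_zero) (by exact_mod_cast ha),
      allProd_prime p hp, ih ha, one_mul]

theorem allProd_neg (x : ℚ) : allProd (-x) = allProd x := by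
  unfold allProd
  have h : (fun p : Nat.Primes => padicNorm p (-x)) = fun p : Nat.Primes => padicNorm p x := by
    funext p
    have : Fact (p : ℕ).Prime := ⟨p.2⟩
    exact padicNorm.neg x
  rw [h, abs_neg]

theorem allProd_intCast (z : ℤ) (hz : z ≠ 0) : allProd (z : ℚ) = 1 := by
  have hn : z.natAbs ≠ 0 := Int.natAbs_ne_zero.mpr hz
  rcases Int.natAbs_eq z with h | h
  · rw [h, Int.cast_natCast]; exact allProd_natCast _ hn
  · rw [h, Int.cast_neg, Int.cast_natCast, allProd_neg]; exact allProd_natCast _ hn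

/-- **The product formula** on `ℚˣ`, in `ℚ`. -/
theorem allProd_eq_one (x : ℚ) (hx : x ≠ 0) : allProd x = 1 := by
  have hden : (x.den : ℚ) ≠ 0 := by exact_mod_cast x.den_nz
  have h1 : allProd (x * (x.den : ℚ)) = allProd x * allProd (x.den : ℚ) := allProd_mul hx hden
  have h2 : x * (x.den : ℚ) = (x.num : ℚ) := Rat.mul_den_eq_num x
  rw [h2, allProd_intCast _ (Rat.num_ne_zero.mpr hx), allProd_natCast _ x.den_nz, mul_one] at h1
  exact h1.symm

/-! ## The family of absolute values on `ℚ̄` -/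

/-- The places of `ℚ`: `none` is the archimedean place, `some p` the prime `p`. -/
abbrev PlaceQ : Type := Option Nat.Primes

/-- One absolute value on `ℚ̄` above every place of `ℚ`. -/
def absQ : PlaceQ → AbsoluteValue Qbar ℝ
  | none => absInf
  | some p => absPrime p

@[simp] theorem absQ_none : absQ none = absInf := rfl

@[simp] theorem absQ_some (p : Nat.Primes) : absQ (some p) = absPrime p := rfl

theorem absQ_some_nonarch (p : Nat.Primes) : IsNonarchimedean (absQ (some p)) :=
  absPrime_nonarch p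

theorem absQ_some_ratCast (p : Nat.Primes) (x : ℚ) :
    absQ (some p) (x : Qbar) = padicNorm p x :=
  absPrime_ratCast p x

theorem absQ_none_ratCast (x : ℚ) : absQ none (x : Qbar) = |(x : ℝ)| :=
  absInf_ratCast x

/-- Every element of `ℚ̄` is `v`-integral for almost all `v`. -/
theorem finite_one_lt_absQ (x : Qbar) : {w : PlaceQ | 1 < absQ w x}.Finite := by
  have h := (finite_one_lt_absPrime x).image (some : Nat.Primes → PlaceQ)
  refine (h.union (Set.finite_singleton none)).subset ?_
  intro w hw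
  cases w with
  | none => exact Or.inr rfl
  | some p => exact Or.inl ⟨p, hw, rfl⟩

/-- Every nonzero element of `ℚ̄` is a `v`-unit for almost all `v`. -/
theorem finite_absQ_ne_one {x : Qbar} (hx : x ≠ 0) : {w : PlaceQ | absQ w x ≠ 1}.Finite := by
  refine ((finite_one_lt_absQ x).union (finite_one_lt_absQ x⁻¹)).subset ?_
  intro w hw
  simp only [Set.mem_ofPred_eq] at hw
  rcases lt_or_gt_of_ne hw with h | h
  · right
    simp only [Set.mem_ofPred_eq]
    rw [map_inv₀]
    have hpos : 0 < absQ w x := (absQ w).pos hx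
    exact (one_lt_inv₀ hpos).mpr h
  · left
    exact h

/-- A finite set of elements of `ℚ̄` is `v`-integral for almost all `v`. -/
theorem finite_exists_one_lt_absQ (T : Finset Qbar) :
    {w : PlaceQ | ∃ c ∈ T, 1 < absQ w c}.Finite := by
  classical
  have h : {w : PlaceQ | ∃ c ∈ T, 1 < absQ w c} = ⋃ c ∈ T, {w : PlaceQ | 1 < absQ w c} := by
    ext _
    simp
  rw [h]
  exact T.finite_toSet.biUnion fun c _ => finite_one_lt_absQ c

/-- **The product formula** on `ℚˣ`. -/
theorem prod_absQ_ratCast (x : ℚ) (hx : x ≠ 0) : ∏ᶠ w : PlaceQ, absQ w (x : Qbar) = 1 := by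
  have hfin : (Function.mulSupport fun p : Nat.Primes => absQ (some p) (x : Qbar)).Finite := by
    have h := padicNorm_hasFiniteMulSupport x hx
    refine h.subset ?_
    intro p hp
    simp only [Function.mem_mulSupport] at hp ⊢
    intro h1
    apply hp
    rw [absQ_some_ratCast, h1]
    simp
  rw [finprod_option (f := fun w : PlaceQ => absQ w (x : Qbar)) hfin]
  have h1 := allProd_eq_one x hx
  unfold allProd at h1
  have h2 := congrArg (fun q : ℚ => (q : ℝ)) h1
  simp only [Rat.cast_mul, Rat.cast_one, Rat.cast_abs] at h2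
  rw [← h2, mul_comm]
  congr 1
  · have h3 := map_finprod (Rat.castHom ℝ) (padicNorm_hasFiniteMulSupport x hx)
    simp only [Rat.coe_castHom] at h3
    rw [h3]
    refine finprod_congr fun p => ?_
    exact absQ_some_ratCast p x
  · exact absQ_none_ratCast x

/-- The logarithms of the absolute values of a nonzero element have finite support. -/
theorem finite_support_log_absQ {x : Qbar} (hx : x ≠ 0) :
    (Function.support fun w : PlaceQ => Real.log (absQ w x)).Finite := by
  refine (finite_absQ_ne_one hx).subset ?_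
  intro w hw
  simp only [Function.mem_support] at hw
  simp only [Set.mem_ofPred_eq]
  intro h
  apply hw
  rw [h, Real.log_one]

/-- The product formula, logarithmic form, for `c : ℚ̄` with `c ^ k ∈ ℚˣ`, `k ≥ 1`. -/
theorem finsum_log_absQ_eq_zero_of_pow {c : Qbar} {k : ℕ} (hk : k ≠ 0) {x : ℚ} (hx : x ≠ 0)
    (hc : c ^ k = (x : Qbar)) : ∑ᶠ w : PlaceQ, Real.log (absQ w c) = 0 := by
  have hx' : (x : Qbar) ≠ 0 := by exact_mod_cast hx
  have hc0 : c ≠ 0 := by
    rintro rfl
    rw [zero_pow hk] at hc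
    exact hx' hc.symm
  have h1 : ∑ᶠ w : PlaceQ, Real.log (absQ w (x : Qbar)) = 0 := by
    have hfin := finite_absQ_ne_one hx'
    have h2 := prod_absQ_ratCast x hx
    rw [finprod_eq_prod_of_mulSupport_subset (s := hfin.toFinset) _ (by
      intro w hw
      simpa using hw)] at h2
    rw [finsum_eq_sum_of_support_subset (s := hfin.toFinset) _ (by
      intro w hw
      simp only [Function.mem_support] at hw
      simp only [Set.Finite.coe_toFinset, Set.mem_ofPred_eq]
      intro h
      apply hw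
      rw [h, Real.log_one])]
    rw [← Real.log_prod (fun w _ => ((absQ w).pos hx').ne'), h2, Real.log_one]
  have h3 : ∀ w : PlaceQ, Real.log (absQ w (x : Qbar)) = k * Real.log (absQ w c) := by
    intro w
    rw [← hc, map_pow, Real.log_pow]
  simp only [h3] at h1
  rw [← mul_finsum (fun w : PlaceQ => Real.log (absQ w c)) (k : ℝ)] at h1
  have hk' : (k : ℝ) ≠ 0 := by exact_mod_cast hk
  exact (mul_eq_zero.mp h1).resolve_left hk'

/-- The product formula, logarithmic form, on `ℚˣ`. -/
theorem finsum_log_absQ_ratCast (x : ℚ) (hx : x ≠ 0) :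
    ∑ᶠ w : PlaceQ, Real.log (absQ w (x : Qbar)) = 0 :=
  finsum_log_absQ_eq_zero_of_pow (k := 1) one_ne_zero hx (pow_one _)

/-! ## Families of local constants -/

/-- A family of local constants is `1` at almost all places. -/
theorem locConst_finite_ne_one (L : LocConst Qbar) : {w : PlaceQ | L.C (absQ w) ≠ 1}.Finite := by
  refine ((finite_exists_one_lt_absQ L.T).union (Set.finite_singleton none)).subset ?_
  intro w hw
  simp only [Set.mem_ofPred_eq] at hw
  cases w with
  | none => exact Or.inr rfl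
  | some p =>
    left
    simp only [Set.mem_ofPred_eq]
    by_contra hcon
    push Not at hcon
    exact hw (L.eq_one _ (absQ_some_nonarch p) hcon)

/-- The total constant of a family of local constants. -/
def locTotal (L : LocConst Qbar) : ℝ := ∑ᶠ w : PlaceQ, Real.log (L.C (absQ w))

theorem locTotal_nonneg (L : LocConst Qbar) : 0 ≤ locTotal L :=
  finsum_nonneg fun _ => Real.log_nonneg (L.one_le _)

theorem finite_support_log_locConst (L : LocConst Qbar) :
    (Function.support fun w : PlaceQ => Real.log (L.C (absQ w))).Finite := by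
  refine (locConst_finite_ne_one L).subset ?_
  intro w hw
  simp only [Function.mem_support] at hw
  simp only [Set.mem_ofPred_eq]
  intro h
  apply hw
  rw [h, Real.log_one]

end Fermat.Agent.S17.H35

end
end
-- ==== END Fermat.Agent.S17.Height.H35_AbsVal

-- ==== BEGIN Fermat.Agent.S17.Height.H35_Pencil
section

/-!
# S17 part H, leaves (A3) and (A4) (helper35): the base-point-free pencil trick

Generic function-field lemmas, for a function field `F` of one variable over a field `K`
satisfying the hypotheses `RED.H42.Hyp K F` (principal divisors of degree zero, places of degree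
one, non-constant functions have poles) and a Riemann bound `l(D) = deg D + 1 - g` for
`deg D ≥ c`.

* `pencil_ker`: if `(s, t)` is a base-point-free pair relative to `D` and `s u + t w = 0` with
  `u, w ∈ L(E)`, then `u = t z`, `w = -s z` with `z ∈ L(E - D)`.
* `pencil_surj`: `s L(E) + t L(E) = L(D + E)` as soon as
  `l(D + E) + l(E - D) ≤ 2 l(E)`.
* `exists_bpfPair`: a subspace which is base-point-free relative to `D` contains a
  base-point-free pair (the field `K` is infinite).
* `mul_L_eq` (A3): `L(D₁) * L(D₂) = L(D₁ + D₂)` if `deg D₁ ≥ c + 1`, `deg D₂ ≥ deg D₁ + c`.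
* `exists_eq_L_of_finrank_mul_le` (A4): a subspace `U ≤ L(D₀)` of dimension `l(D₀) - a` with
  `dim (L(M) * U) ≤ l(D₀ + M) - a` is `L(D₀ - A)` for an effective divisor `A` of degree `a`.
-/

set_option autoImplicit false

noncomputable section

open AlgebraicCurve WithZero

namespace Fermat.Agent.S17.H35

open Fermat.Agent.RED.H42

variable {K F : Type*} [Field K] [Field F] [Algebra K F]

local notation "L" => riemannRochSpace

/-! ## Orders -/

theorem ord_neg' (v : Place K F) (f : F) : v.ord (-f) = v.ord f := by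
  simp [Place.ord]

theorem neg_le_ord_of_mem {D : Divisor K F} {f : F} (hf : f ∈ L D) (hf0 : f ≠ 0)
    (v : Place K F) : -D v ≤ v.ord f :=
  ((mem_riemannRochSpace_iff.mp hf) v).resolve_left hf0

theorem mem_L_of_neg_le_ord {D : Divisor K F} {f : F} (h : ∀ v : Place K F, -D v ≤ v.ord f) :
    f ∈ L D :=
  mem_riemannRochSpace_iff.mpr fun v => Or.inr (h v)

/-- The Riemann bound: `l(D) = deg D + 1 - g` for `deg D ≥ c`, with `c ≥ 0`. -/
def RiemannBound (K F : Type*) [Field K] [Field F] [Algebra K F] (g : ℕ) (c : ℤ) : Prop :=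
  0 ≤ c ∧ ∀ D : Divisor K F, c ≤ Divisor.degree D →
    (Module.finrank K (L D) : ℤ) = Divisor.degree D + 1 - g

/-! ## Base-point-free pairs -/

/-- `(s, t)` is a base-point-free pair relative to `D`: both are nonzero elements of `L(D)` and
at every place one of them has exact order `-D(v)`. -/
structure IsBpfPair (D : Divisor K F) (s t : F) : Prop where
  s_ne : s ≠ 0
  t_ne : t ≠ 0
  s_mem : s ∈ L D
  t_mem : t ∈ L D
  bpf : ∀ v : Place K F, v.ord s = -D v ∨ v.ord t = -D v

/-- The kernel of the pencil map. -/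
theorem pencil_ker {D E : Divisor K F} {s t : F} (h : IsBpfPair D s t) {u w : F}
    (hu : u ∈ L E) (hw : w ∈ L E) (huw : s * u + t * w = 0) :
    u * t⁻¹ ∈ L (E - D) ∧ u = t * (u * t⁻¹) ∧ w = -(s * (u * t⁻¹)) := by
  have ht := h.t_ne
  have hs := h.s_ne
  have hsu : s * u = -(t * w) := eq_neg_of_add_eq_zero_left huw
  refine ⟨?_, ?_, ?_⟩
  · rw [mem_riemannRochSpace_iff]
    intro v
    by_cases hu0 : u = 0
    · left; simp [hu0]
    right
    have hw0 : w ≠ 0 := by
      rintro rfl
      rw [mul_zero, neg_zero] at hsu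
      rcases mul_eq_zero.mp hsu with h1 | h1
      exacts [hs h1, hu0 h1]
    have hz : v.ord (u * t⁻¹) = v.ord u - v.ord t := by
      rw [v.ord_mul hu0 (inv_ne_zero ht), v.ord_inv]; ring
    have hord : v.ord s + v.ord u = v.ord t + v.ord w := by
      have h1 := congrArg v.ord hsu
      rwa [v.ord_mul hs hu0, ord_neg', v.ord_mul ht hw0] at h1
    have hu' := neg_le_ord_of_mem hu hu0 v
    have hw' := neg_le_ord_of_mem hw hw0 v
    rw [hz, Finsupp.sub_apply]
    rcases h.bpf v with h1 | h1 <;> omega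
  · field_simp
  · have h1 : t * w = -(s * u) := by rw [hsu, neg_neg]
    have h2 : w = -(s * u) * t⁻¹ := by
      rw [← h1]; field_simp
    rw [h2]; ring

/-- The pencil map `(u, w) ↦ s u + t w`. -/
def pencilMap (D E : Divisor K F) {s t : F} (hs : s ∈ L D) (ht : t ∈ L D) :
    (L E × L E) →ₗ[K] L (D + E) where
  toFun p := ⟨s * p.1.1 + t * p.2.1,
    Submodule.add_mem _ (mul_mem_L_add hs p.1.2) (mul_mem_L_add ht p.2.2)⟩
  map_add' p q := by
    ext
    simp only [Prod.fst_add, Prod.snd_add, Submodule.coe_add]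
    ring
  map_smul' a p := by
    ext
    simp only [Prod.smul_fst, Prod.smul_snd, Submodule.coe_smul, RingHom.id_apply,
      Algebra.smul_def]
    ring

@[simp]
theorem pencilMap_apply_coe (D E : Divisor K F) {s t : F} (hs : s ∈ L D) (ht : t ∈ L D)
    (p : L E × L E) : ((pencilMap D E hs ht p : L (D + E)) : F) = s * p.1.1 + t * p.2.1 := rfl

theorem pencilMap_ker_eq {D E : Divisor K F} {s t : F} (hs : s ∈ L D) (ht : t ∈ L D)
    (p : LinearMap.ker (pencilMap D E hs ht)) : s * p.1.1.1 + t * p.1.2.1 = 0 := by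
  have h1 : pencilMap D E hs ht p.1 = 0 := LinearMap.mem_ker.mp p.2
  exact congrArg Subtype.val h1

/-- The kernel of the pencil map embeds into `L(E - D)`. -/
def pencilKerMap {D E : Divisor K F} {s t : F} (h : IsBpfPair D s t) :
    LinearMap.ker (pencilMap D E h.s_mem h.t_mem) →ₗ[K] L (E - D) where
  toFun p := ⟨p.1.1.1 * t⁻¹,
    (pencil_ker h p.1.1.2 p.1.2.2 (pencilMap_ker_eq h.s_mem h.t_mem p)).1⟩
  map_add' p q := by
    ext
    simp only [Submodule.coe_add, Prod.fst_add]
    ring
  map_smul' a p := by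
    ext
    simp only [Submodule.coe_smul, Prod.smul_fst, RingHom.id_apply, Algebra.smul_def]
    ring

theorem pencilKerMap_injective {D E : Divisor K F} {s t : F} (h : IsBpfPair D s t) :
    Function.Injective (pencilKerMap (E := E) h) := by
  intro p q hpq
  have hp' := pencilMap_ker_eq h.s_mem h.t_mem p
  have hq' := pencilMap_ker_eq h.s_mem h.t_mem q
  obtain ⟨-, hp1, hp2⟩ := pencil_ker h p.1.1.2 p.1.2.2 hp'
  obtain ⟨-, hq1, hq2⟩ := pencil_ker h q.1.1.2 q.1.2.2 hq'
  have hz : p.1.1.1 * t⁻¹ = q.1.1.1 * t⁻¹ := by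
    have := congrArg Subtype.val hpq
    simpa [pencilKerMap] using this
  apply Subtype.ext
  apply Prod.ext
  · apply Subtype.ext
    rw [hp1, hq1, hz]
  · apply Subtype.ext
    rw [hp2, hq2, hz]

variable (H : Hyp K F)
include H

/-- **The base-point-free pencil trick**: `s L(E) + t L(E) = L(D + E)`. -/
theorem pencil_surj {D E : Divisor K F} {s t : F} (h : IsBpfPair D s t)
    (hdim : Module.finrank K (L (D + E)) + Module.finrank K (L (E - D))
      ≤ 2 * Module.finrank K (L E)) {f : F} (hf : f ∈ L (D + E)) :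
    ∃ u ∈ L E, ∃ w ∈ L E, f = s * u + t * w := by
  have hfin1 := finite_L H E
  have hfin2 := finite_L H (D + E)
  have hfin3 := finite_L H (E - D)
  set φ := pencilMap D E h.s_mem h.t_mem with hφ
  have hrn := LinearMap.finrank_range_add_finrank_ker φ
  have hker : Module.finrank K (LinearMap.ker φ) ≤ Module.finrank K (L (E - D)) :=
    LinearMap.finrank_le_finrank_of_injective (pencilKerMap_injective h)
  have hprod : Module.finrank K (L E × L E) = 2 * Module.finrank K (L E) := by
    rw [Module.finrank_prod]; ring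
  have hrange : Module.finrank K (LinearMap.range φ) = Module.finrank K (L (D + E)) := by
    apply le_antisymm (Submodule.finrank_le _)
    omega
  have htop : LinearMap.range φ = ⊤ := Submodule.eq_top_of_finrank_eq hrange
  have hmem : (⟨f, hf⟩ : L (D + E)) ∈ LinearMap.range φ := by rw [htop]; trivial
  obtain ⟨p, hp⟩ := hmem
  refine ⟨p.1.1, p.1.2, p.2.1, p.2.2, ?_⟩
  have := congrArg Subtype.val hp
  simpa [hφ] using this.symm

/-! ## Existence of base-point-free pairs -/

omit H in
theorem sub_single_apply_self (D : Divisor K F) (v : Place K F) :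
    (D - Finsupp.single v 1 : Divisor K F) v = D v - 1 := by
  rw [Finsupp.sub_apply, Finsupp.single_eq_same]

omit H in
theorem sub_single_apply_of_ne (D : Divisor K F) {v w : Place K F} (h : w ≠ v) :
    (D - Finsupp.single v 1 : Divisor K F) w = D w := by
  rw [Finsupp.sub_apply, Finsupp.single_eq_of_ne h, sub_zero]

omit H in
/-- An element of `L(D)` is in `L(D - v)` iff its order at `v` is not exactly `-D(v)`. -/
theorem mem_L_sub_single_iff {D : Divisor K F} {f : F} (hf : f ∈ L D) (hf0 : f ≠ 0)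
    (v : Place K F) : f ∈ L (D - Finsupp.single v 1) ↔ v.ord f ≠ -D v := by
  constructor
  · intro h1 h2
    have := neg_le_ord_of_mem h1 hf0 v
    rw [sub_single_apply_self] at this
    omega
  · intro h1
    apply mem_L_of_neg_le_ord
    intro w
    by_cases hw : w = v
    · subst hw
      have := neg_le_ord_of_mem hf hf0 w
      rw [sub_single_apply_self]
      omega
    · rw [sub_single_apply_of_ne D hw]
      exact neg_le_ord_of_mem hf hf0 w

/-- The places where a nonzero `s ∈ L(D)` does not have exact order `-D(v)` are finite. -/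
theorem finite_bad {D : Divisor K F} {s : F} (hs0 : s ≠ 0) :
    {v : Place K F | v.ord s ≠ -D v}.Finite := by
  classical
  obtain ⟨E, hE, -⟩ := H.principal s hs0
  refine (E.support ∪ D.support).finite_toSet.subset ?_
  intro v hv
  simp only [Set.mem_ofPred_eq] at hv
  simp only [Finset.coe_union, Set.mem_union, Finset.mem_coe, Finsupp.mem_support_iff]
  by_contra hcon
  push Not at hcon
  apply hv
  rw [← hE v, hcon.1, hcon.2, neg_zero]

/-- A nonzero subspace `U ≤ L(D)` without base points relative to `D` contains a base-point-free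
pair. -/
theorem exists_bpfPair [Infinite K] {D : Divisor K F} {U : Submodule K F} (hU : U ≤ L D)
    (hne : U ≠ ⊥) (hbpf : ∀ v : Place K F, ∃ f ∈ U, f ≠ 0 ∧ v.ord f = -D v) :
    ∃ s ∈ U, ∃ t ∈ U, IsBpfPair D s t := by
  classical
  obtain ⟨s, hsU, hs0⟩ := (Submodule.ne_bot_iff _).mp hne
  have hfin := finite_bad H (D := D) hs0
  have : Finite {v : Place K F | v.ord s ≠ -D v} := hfin
  let p : Option {v : Place K F | v.ord s ≠ -D v} → Submodule K U := fun o =>
    match o with
    | none => ⊥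
    | some v => Submodule.comap U.subtype (L (D - Finsupp.single v.1 1))
  have hp : ∀ o, p o ≠ ⊤ := by
    intro o
    cases o with
    | none =>
      intro h
      have h1 : (⟨s, hsU⟩ : U) ∈ (⊥ : Submodule K U) := by
        show (⟨s, hsU⟩ : U) ∈ p none
        rw [h]; trivial
      rw [Submodule.mem_bot] at h1
      exact hs0 (congrArg Subtype.val h1)
    | some v =>
      intro h
      obtain ⟨f, hfU, hf0, hfv⟩ := hbpf v.1
      have h1 : (⟨f, hfU⟩ : U) ∈ p (some v) := by rw [h]; trivial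
      have h2 : f ∈ L (D - Finsupp.single v.1 1) := h1
      exact (mem_L_sub_single_iff (hU hfU) hf0 v.1).mp h2 hfv
  obtain ⟨t, ht⟩ := Submodule.exists_forall_notMem_of_forall_ne_top p hp
  have ht0 : (t : F) ≠ 0 := by
    intro h
    apply ht none
    show t ∈ (⊥ : Submodule K U)
    rw [Submodule.mem_bot]
    exact Subtype.ext h
  refine ⟨s, hsU, t.1, t.2, hs0, ht0, hU hsU, hU t.2, ?_⟩
  intro v
  by_cases hv : v.ord s = -D v
  · exact Or.inl hv
  · right
    by_contra hcon
    apply ht (some ⟨v, hv⟩)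
    show (t : F) ∈ L (D - Finsupp.single v 1)
    exact (mem_L_sub_single_iff (hU t.2) ht0 v).mpr hcon

omit H in
theorem degree_sub_single (hdeg : ∀ v : Place K F, v.deg = 1) (D : Divisor K F)
    (v : Place K F) : Divisor.degree (D - Finsupp.single v 1) = Divisor.degree D - 1 := by
  rw [map_sub, Divisor.degree_single, hdeg v]
  simp

/-- `L(D)` has no base points relative to `D` if `deg D ≥ c + 1`. -/
theorem L_bpf {g : ℕ} {c : ℤ} (hR : RiemannBound K F g c) {D : Divisor K F}
    (hD : c + 1 ≤ Divisor.degree D) (v : Place K F) :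
    ∃ f ∈ L D, f ≠ 0 ∧ v.ord f = -D v := by
  classical
  have h1 := hR.2 D (by omega)
  have h2 := hR.2 (D - Finsupp.single v 1) (by rw [degree_sub_single H.deg_one]; omega)
  rw [degree_sub_single H.deg_one] at h2
  have hle : L (D - Finsupp.single v 1) ≤ L D := L_mono (by
    rw [Finsupp.le_def]
    intro w
    rw [Finsupp.sub_apply]
    have : 0 ≤ (Finsupp.single v (1 : ℤ)) w := by
      rw [Finsupp.single_apply]; split_ifs <;> omega
    omega)
  have hlt : ¬ L D ≤ L (D - Finsupp.single v 1) := by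
    intro h
    have heq : L (D - Finsupp.single v 1) = L D := le_antisymm hle h
    rw [heq] at h2
    omega
  obtain ⟨f, hf, hfD⟩ := SetLike.not_le_iff_exists.mp hlt
  have hf0 : f ≠ 0 := by
    rintro rfl
    exact hfD (Submodule.zero_mem _)
  refine ⟨f, hf, hf0, ?_⟩
  by_contra hcon
  exact hfD ((mem_L_sub_single_iff hf hf0 v).mpr hcon)

/-- `L(D)` is nonzero if `deg D ≥ c + 1` (and even if `deg D ≥ max c g`). -/
theorem L_ne_bot {g : ℕ} {c : ℤ} (hR : RiemannBound K F g c) {D : Divisor K F}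
    (hD : c + 1 ≤ Divisor.degree D) : L D ≠ ⊥ := by
  have hD0 : D ≠ 0 := by
    rintro rfl
    rw [map_zero] at hD
    have := hR.1
    omega
  obtain ⟨v, -⟩ := Finsupp.support_nonempty_iff.mpr hD0
  obtain ⟨f, hf, hf0, -⟩ := L_bpf H hR hD v
  exact (Submodule.ne_bot_iff _).mpr ⟨f, hf, hf0⟩

/-! ## (A3): multiplication of Riemann-Roch spaces -/

/-- If `U ≤ L(D)` is nonzero without base points relative to `D`, then `U * L(M) = L(D + M)`
for `M` of large degree. -/
theorem mul_eq_L_of_bpf [Infinite K] {g : ℕ} {c : ℤ} (hR : RiemannBound K F g c)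
    {D M : Divisor K F} {U : Submodule K F} (hU : U ≤ L D) (hne : U ≠ ⊥)
    (hbpf : ∀ v : Place K F, ∃ f ∈ U, f ≠ 0 ∧ v.ord f = -D v)
    (h1 : c + Divisor.degree D ≤ Divisor.degree M) (h2 : c ≤ Divisor.degree M)
    (h3 : c ≤ Divisor.degree D + Divisor.degree M) :
    U * L M = L (D + M) := by
  apply le_antisymm
  · rw [Submodule.mul_le]
    intro f hf k hk
    exact mul_mem_L_add (hU hf) hk
  · intro f hf
    obtain ⟨s, hs, t, ht, hst⟩ := exists_bpfPair H hU hne hbpf
    have hdim : Module.finrank K (L (D + M)) + Module.finrank K (L (M - D))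
        ≤ 2 * Module.finrank K (L M) := by
      have e1 := hR.2 (D + M) (by rw [map_add]; omega)
      have e2 := hR.2 (M - D) (by rw [map_sub]; omega)
      have e3 := hR.2 M h2
      rw [map_add] at e1
      rw [map_sub] at e2
      omega
    obtain ⟨u, hu, w, hw, rfl⟩ := pencil_surj H hst hdim hf
    exact Submodule.add_mem _ (Submodule.mul_mem_mul hs hu) (Submodule.mul_mem_mul ht hw)

/-- **(A3)** `L(D₁) * L(D₂) = L(D₁ + D₂)` if `deg D₁ ≥ c + 1` and `deg D₂ ≥ deg D₁ + c`. -/
theorem mul_L_eq [Infinite K] {g : ℕ} {c : ℤ} (hR : RiemannBound K F g c)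
    {D₁ D₂ : Divisor K F} (h1 : c + 1 ≤ Divisor.degree D₁)
    (h2 : c + Divisor.degree D₁ ≤ Divisor.degree D₂) :
    L D₁ * L D₂ = L (D₁ + D₂) := by
  have hc := hR.1
  exact mul_eq_L_of_bpf H hR le_rfl (L_ne_bot H hR h1) (L_bpf H hR h1) h2 (by omega) (by omega)

/-! ## (A4): the base divisor -/

/-- A nonzero subspace `U ≤ L(D₀)` has a base divisor `B ≥ 0`: `U ≤ L(D₀ - B)` without base
points relative to `D₀ - B`. -/
theorem exists_base {D₀ : Divisor K F} {U : Submodule K F} (hU : U ≤ L D₀) (hne : U ≠ ⊥) :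
    ∃ B : Divisor K F, 0 ≤ B ∧ U ≤ L (D₀ - B) ∧
      ∀ v : Place K F, ∃ f ∈ U, f ≠ 0 ∧ v.ord f = -(D₀ - B : Divisor K F) v := by
  classical
  let P : ℕ → Prop := fun n =>
    ∃ B : Divisor K F, 0 ≤ B ∧ Divisor.degree B = n ∧ U ≤ L (D₀ - B)
  have hbound : ∀ n, P n → (n : ℤ) ≤ Divisor.degree D₀ := by
    rintro n ⟨B, -, hBn, hUB⟩
    by_contra hcon
    have hneg : Divisor.degree (D₀ - B) < 0 := by rw [map_sub]; omega
    have := L_eq_bot_of_degree_neg H hneg
    rw [this] at hUB
    exact hne (eq_bot_iff.mpr hUB)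
  have hP0 : P 0 := ⟨0, le_rfl, by simp, by simpa using hU⟩
  set N := (Divisor.degree D₀).toNat with hN
  have hspec : P (Nat.findGreatest P N) := Nat.findGreatest_spec (Nat.zero_le _) hP0
  obtain ⟨B, hB0, hBn, hUB⟩ := hspec
  refine ⟨B, hB0, hUB, ?_⟩
  intro v
  by_contra hcon
  push Not at hcon
  have hP1 : P (Nat.findGreatest P N + 1) := by
    refine ⟨B + Finsupp.single v 1, ?_, ?_, ?_⟩
    · refine add_nonneg hB0 ?_
      rw [Finsupp.le_def]
      intro w
      rw [Finsupp.single_apply]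
      split_ifs <;> simp
    · rw [map_add, hBn, Divisor.degree_single, H.deg_one v]
      simp
    · intro f hf
      by_cases hf0 : f = 0
      · rw [hf0]; exact Submodule.zero_mem _
      have h1 := (mem_L_sub_single_iff (hUB hf) hf0 v).mpr (hcon f hf hf0)
      have heq : D₀ - (B + Finsupp.single v 1) = D₀ - B - Finsupp.single v 1 := by abel
      rw [heq]
      exact h1
  have h1 := hbound _ hP1
  have h2 : Nat.findGreatest P N + 1 ≤ N := by omega
  have h3 := Nat.le_findGreatest h2 hP1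
  omega

/-- **(A4)** A subspace `U ≤ L(D₀)` of dimension `l(D₀) - a` such that `U * L(M)` has
dimension at most `l(D₀ + M) - a` is `L(D₀ - A)` for an effective divisor `A` of degree `a`. -/
theorem exists_eq_L_of_finrank_mul_le [Infinite K] {g : ℕ} {c : ℤ}
    (hR : RiemannBound K F g c) {D₀ M : Divisor K F} {U : Submodule K F} (hU : U ≤ L D₀)
    {a : ℕ} (hr : (Module.finrank K U : ℤ) = Divisor.degree D₀ + 1 - g - a)
    (hD₀ : c + g + a ≤ Divisor.degree D₀) (hM : c + Divisor.degree D₀ ≤ Divisor.degree M)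
    (hmul : (Module.finrank K (U * L M : Submodule K F) : ℤ)
      ≤ Divisor.degree D₀ + Divisor.degree M + 1 - g - a) :
    ∃ A : Divisor K F, 0 ≤ A ∧ Divisor.degree A = a ∧ U = L (D₀ - A) := by
  have hc := hR.1
  have hne : U ≠ ⊥ := by
    rintro rfl
    rw [finrank_bot] at hr
    simp only [Nat.cast_zero] at hr
    omega
  obtain ⟨B, hB0, hUB, hbpf⟩ := exists_base H hU hne
  have hBdeg := degree_nonneg hB0
  have hBle : Divisor.degree B ≤ Divisor.degree D₀ := by
    by_contra hcon
    have hneg : Divisor.degree (D₀ - B) < 0 := by rw [map_sub]; omega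
    have := L_eq_bot_of_degree_neg H hneg
    rw [this] at hUB
    exact hne (eq_bot_iff.mpr hUB)
  have hdegDB : Divisor.degree (D₀ - B) = Divisor.degree D₀ - Divisor.degree B := map_sub _ _ _
  have hmulL : U * L M = L (D₀ - B + M) :=
    mul_eq_L_of_bpf H hR hUB hne hbpf (by omega) (by omega) (by omega)
  have e1 := hR.2 (D₀ - B + M) (by rw [map_add]; omega)
  rw [map_add, hdegDB] at e1
  rw [hmulL] at hmul
  have hBa : (a : ℤ) ≤ Divisor.degree B := by omega
  have hfin := finite_L H (D₀ - B)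
  have hle : Module.finrank K U ≤ Module.finrank K (L (D₀ - B)) := Submodule.finrank_mono hUB
  by_cases hcase : c ≤ Divisor.degree (D₀ - B)
  · have e2 := hR.2 (D₀ - B) hcase
    rw [hdegDB] at e2
    have hBa' : Divisor.degree B = a := by omega
    refine ⟨B, hB0, hBa', ?_⟩
    apply Submodule.eq_of_le_of_finrank_eq hUB
    omega
  · exfalso
    have e3 := finrank_L_le H (D := D₀ - B) (by omega)
    omega

end Fermat.Agent.S17.H35

end
end
-- ==== END Fermat.Agent.S17.Height.H35_Pencil
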