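-- GENERATED (merged mirror, NOTES/tools/trim/merge3_helper67.py): 6 modules of the originals, bodies verbatim.
import Fermat.Agent.Zm.S33_L01_000
import Fermat.Agent.Zm.S33_L01_002
import Fermat.Agent.Zm.S56_L06_000
import Fermat.Agent.Zm.S56_L01_000
import Fermat.Agent.Zm.S35_L06_001
import Fermat.Agent.Zm.S33_L01_003
import Fermat.Agent.Zm.S56_L03_000
import Fermat.Agent.Zm.S33_L01_004
import Fermat.Agent.S05.H15_Val

-- ==== BEGIN Fermat.Agent.BADP.H51_MoveP
section

/-!
# S44, package MOVE-p (helper51), part 2: representatives in TIss-position of the classes of `G₀`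

Setting: a semistable Deuring datum `S : SSD K F k F₁ F₂`, `char k = p`.  A class of the
connected part `G₀` of `J[p]` has a Kummer function `f ≡ 1` for the first valuation and another
Kummer function `f' ≡ 1` for the second valuation; `f = c f' h₀ ^ p`.

`stmt_MoveP : Stmt_MoveP`: there is `h ≠ 0` such that `f h ^ p` is `≡ 1` for BOTH valuations and
has neither zero nor pole on the fibres of the nodes (the hypotheses of `Stmt_TIss`,
"TIss-position").

Proof: the moving lemma for the exponent `p` (`stmt_MovingAny`) gives `h` with `F_h = f h ^ p` a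
unit for both valuations without zero or pole on the fibres of the nodes;
`red₁ F_h = y₁ ^ p`, `red₂ F_h = y₂ ^ p` with `y₁ = red₁ h`, `y₂ = red₂ (h₀ h)`.  By the gluing
condition the values of `y₁ ^ p` and `y₂ ^ p` at the two branches of a node agree, hence those
of `y₁`, `y₂` agree (Frobenius is injective); a good lift `u` of `(y₁, y₂)` (`Stmt_GoodLift`)
has no zero or pole on the fibres of the nodes, and `f (h / u) ^ p` is as required.
-/

set_option autoImplicit false
set_option linter.style.haveILetI false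
set_option maxHeartbeats 1000000

noncomputable section

open AlgebraicCurve

attribute [local instance] Classical.propDecidable

namespace Fermat.Agent.BADP.H51

open Fermat.Agent.RED.H17 Fermat.Agent.RED Fermat.Agent.BAD

local notation "L" => riemannRochSpace

/-- **MOVE-p**: representatives in TIss-position. -/
def Stmt_MoveP : Prop :=
  ∀ (K F k F₁ F₂ : Type) [Field K] [Field F] [Algebra K F] [Field k] [Field F₁]
    [Algebra k F₁] [Field F₂] [Algebra k F₂] [IsAlgClosed K] [Infinite k]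
    (S : SSD K F k F₁ F₂), FFHyp K F → FFHyp k F₁ → FFHyp k F₂ →
    ∀ (g g₁ g₂ : ℕ) (c c₁ c₂ : ℤ), IsGenus K F g c → IsGenus k F₁ g₁ c₁ → IsGenus k F₂ g₂ c₂ →
    g + 1 ≤ g₁ + g₂ + S.nodes.card →
    ∀ (p : ℕ), p.Prime → CharP k p →
    ∀ (f : F), f ∈ S.c₁.V → S.c₁.rd f = 1 → (∀ P : Place K F, (p : ℤ) ∣ P.ord f) →
    ∀ (f' h₀ : F) (a : K), f' ∈ S.c₂.V → S.c₂.rd f' = 1 → f = algebraMap K F a * f' * h₀ ^ p →
      ∃ h : F, h ≠ 0 ∧ f * h ^ p ∈ S.c₁.V ∧ f * h ^ p ∈ S.c₂.V ∧ S.c₁.rd (f * h ^ p) = 1 ∧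
        S.c₂.rd (f * h ^ p) = 1 ∧ ∀ P : Place K F, S.IsNodeP P → P.ord (f * h ^ p) = 0

section PRedAux

variable {K F k F' : Type*} [Field K] [Field F] [Algebra K F] [Field k] [Field F']
  [Algebra k F']

/-- A function with a power which is a Gauss unit is a Gauss unit. -/
theorem isGU_of_pow (c : PRed K F k F') {z : F} {n : ℕ} (hn : n ≠ 0) (h : c.IsGU (z ^ n)) :
    c.IsGU z := by
  have key : ∀ w : F, w ∈ c.V → c.IsGU (w ^ n) → c.IsGU w := by
    intro w hw hwn
    refine ⟨hw, fun h0 => hwn.2 ?_⟩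
    rw [c.rd_pow hw, h0, zero_pow hn]
  rcases c.V.mem_or_inv_mem z with hz | hz
  · exact key z hz h
  · have h1 : c.IsGU (z⁻¹ ^ n) := by
      rw [inv_pow]
      exact h.inv
    have h2 := (key z⁻¹ hz h1).inv
    rwa [inv_inv] at h2

end PRedAux

section Val

variable {k F : Type} [Field k] [Field F] [Algebra k F]

/-- Values of `p`-th roots: if `y₁ ^ p` and `y₂ ^ p` have the same value at `v₁`, `v₂`, and
`char k = p`, then `y₁`, `y₂` have the same value. -/
theorem glue_of_pow {F' : Type} [Field F'] [Algebra k F'] (p : ℕ) [Fact p.Prime] [CharP k p]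
    {v₁ : Place k F} {v₂ : Place k F'} (hd₁ : v₁.deg = 1) (hd₂ : v₂.deg = 1) {y₁ : F} {y₂ : F'}
    {a : k} (h₁ : VanAt v₁ (y₁ ^ p - algebraMap k F a))
    (h₂ : VanAt v₂ (y₂ ^ p - algebraMap k F' a)) :
    ∃ b : k, VanAt v₁ (y₁ - algebraMap k F b) ∧ VanAt v₂ (y₂ - algebraMap k F' b) := by
  have hp0 : p ≠ 0 := (Fact.out : p.Prime).ne_zero
  have hr₁ : RegAt v₁ y₁ := H41.regAt_of_pow hp0 (RegAt.of_vanAt_sub h₁)
  have hr₂ : RegAt v₂ y₂ := H41.regAt_of_pow hp0 (RegAt.of_vanAt_sub h₂)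
  have e₁ := (H41.valAt_eq_iff v₁ hd₁ (hr₁.pow p) a).mpr h₁
  have e₂ := (H41.valAt_eq_iff v₂ hd₂ (hr₂.pow p) a).mpr h₂
  rw [H41.valAt_pow v₁ hd₁ hr₁] at e₁
  rw [H41.valAt_pow v₂ hd₂ hr₂] at e₂
  have e : H41.valAt v₁ hd₁ y₁ = H41.valAt v₂ hd₂ y₂ := by
    apply frobenius_inj k p
    rw [frobenius_def, frobenius_def, e₁, e₂]
  refine ⟨H41.valAt v₁ hd₁ y₁, H41.vanAt_sub_valAt v₁ hd₁ hr₁, ?_⟩
  rw [e]
  exact H41.vanAt_sub_valAt v₂ hd₂ hr₂

end Val

section Main

variable {K F k F₁ F₂ : Type} [Field K] [Field F] [Algebra K F] [Field k] [Field F₁]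
  [Algebra k F₁] [Field F₂] [Algebra k F₂]

/-- **MOVE-p, core**: `f ≡ 1` for `V₁`, `f = f' h₀ ^ p` with `f' ≡ 1` for `V₂`. -/
theorem moveP_core [IsAlgClosed K] [Infinite k] (S : SSD K F k F₁ F₂) (H : FFHyp K F)
    (H₁ : FFHyp k F₁) (H₂ : FFHyp k F₂) {g g₁ g₂ : ℕ} {c c₁ c₂ : ℤ} (hR : IsGenus K F g c)
    (hR₁ : IsGenus k F₁ g₁ c₁) (hR₂ : IsGenus k F₂ g₂ c₂)
    (hnum : g + 1 ≤ g₁ + g₂ + S.nodes.card) (p : ℕ) [hp : Fact p.Prime] [CharP k p]
    {f : F} (hf₁ : f ∈ S.c₁.V) (hrd₁ : S.c₁.rd f = 1)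
    (hdiv : ∀ P : Place K F, (p : ℤ) ∣ P.ord f)
    {f' h₀ : F} (hf' : f' ∈ S.c₂.V) (hrd' : S.c₂.rd f' = 1) (hff' : f = f' * h₀ ^ p) :
    ∃ h : F, h ≠ 0 ∧ f * h ^ p ∈ S.c₁.V ∧ f * h ^ p ∈ S.c₂.V ∧ S.c₁.rd (f * h ^ p) = 1 ∧
      S.c₂.rd (f * h ^ p) = 1 ∧ ∀ P : Place K F, S.IsNodeP P → P.ord (f * h ^ p) = 0 := by
  have hP := H.principal
  have hp0 : p ≠ 0 := hp.out.ne_zero
  have hpZ : (p : ℤ) ≠ 0 := by exact_mod_cast hp0
  have hred : S.c₁.red ⟨f, hf₁⟩ = 1 := by rw [← S.c₁.rd_of_mem hf₁]; exact hrd₁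
  obtain ⟨x, hx⟩ := BAD.H90.stmt_TwistExists K F k F₁ F₂ S H H₁ H₂ p hp0 f hf₁ hred hdiv
  obtain ⟨h, hh₁, hh₂, hnode⟩ := stmt_MovingAny K F k F₁ F₂ S H H₁ H₂ g g₁ g₂ c c₁ c₂ hR hR₁
    hR₂ hnum p hp0 x
  rw [hx] at hnode
  have hfGU₁ : S.c₁.IsGU f := ⟨hf₁, by rw [hrd₁]; exact one_ne_zero⟩
  have hf'GU : S.c₂.IsGU f' := ⟨hf', by rw [hrd']; exact one_ne_zero⟩
  have hf0 : f ≠ 0 := hfGU₁.ne_zero
  have hh0 : h ≠ 0 := hh₁.ne_zero
  -- the function `F_h`
  obtain ⟨Fh, hFhdef⟩ : ∃ Fh : F, Fh = f * h ^ p := ⟨_, rfl⟩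
  rw [← hFhdef] at hnode
  have hFh₁ : S.c₁.IsGU Fh := by rw [hFhdef]; exact hfGU₁.mul (hh₁.pow p)
  have hFh₂ : S.c₂.IsGU Fh := by
    have e : Fh = (x.f / x.ϑ ^ p) * (x.ϑ * h) ^ p := by
      have hϑn : x.ϑ ^ p ≠ 0 := pow_ne_zero _ x.hϑ
      rw [hFhdef, hx, mul_pow]
      field_simp
    rw [e]
    exact x.hf₂.mul (hh₂.pow p)
  have hFh' : Fh = f' * (h₀ * h) ^ p := by
    rw [hFhdef, hff', mul_pow, mul_assoc]
  have hzGU : S.c₂.IsGU (h₀ * h) := by
    apply isGU_of_pow S.c₂ hp0
    have e : (h₀ * h) ^ p = Fh / f' := by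
      rw [hFh', mul_comm f', mul_div_assoc, div_self hf'GU.ne_zero, mul_one]
    rw [e]
    exact hFh₂.div hf'GU
  -- the reductions
  obtain ⟨y₁, hy₁⟩ : ∃ y₁ : F₁, y₁ = S.c₁.rd h := ⟨_, rfl⟩
  obtain ⟨y₂, hy₂⟩ : ∃ y₂ : F₂, y₂ = S.c₂.rd (h₀ * h) := ⟨_, rfl⟩
  have hy₁0 : y₁ ≠ 0 := by rw [hy₁]; exact hh₁.2
  have hy₂0 : y₂ ≠ 0 := by rw [hy₂]; exact hzGU.2
  have hrdFh₁ : S.c₁.rd Fh = y₁ ^ p := by
    rw [hFhdef, S.c₁.rd_mul hf₁ (hh₁.pow p).1, hrd₁, one_mul, S.c₁.rd_pow hh₁.1, hy₁]
  have hrdFh₂ : S.c₂.rd Fh = y₂ ^ p := by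
    rw [hFh', S.c₂.rd_mul hf' (hzGU.pow p).1, hrd', one_mul, S.c₂.rd_pow hzGU.1, hy₂]
  -- gluing of `F_h`
  have hglueF : ∀ s ∈ S.nodes, ∃ a : k, VanAt s.1 (y₁ ^ p - algebraMap k F₁ a) ∧
      VanAt s.2 (y₂ ^ p - algebraMap k F₂ a) := by
    intro s hs
    obtain ⟨a, ha1, ha2⟩ := S.glue s hs Fh hFh₁.1 hFh₂.1
      (fun P hPs => le_of_eq (hnode P ⟨s, hs, hPs⟩).symm)
    rw [← S.c₁.rd_of_mem hFh₁.1, hrdFh₁] at ha1
    rw [← S.c₂.rd_of_mem hFh₂.1, hrdFh₂] at ha2
    exact ⟨a, ha1, ha2⟩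
  have hglue : ∀ s ∈ S.nodes, ∃ a : k, VanAt s.1 (y₁ - algebraMap k F₁ a) ∧
      VanAt s.2 (y₂ - algebraMap k F₂ a) := by
    intro s hs
    obtain ⟨a, ha1, ha2⟩ := hglueF s hs
    exact glue_of_pow p (H₁.deg_one s.1) (H₂.deg_one s.2) ha1 ha2
  -- the orders of the reductions at the branches
  have hord : ∀ s ∈ S.nodes, s.1.ord y₁ = 0 ∧ s.2.ord y₂ = 0 := by
    intro s hs
    have hsum := S.sum_node hP hs hFh₁ hFh₂ ⟨1, by rw [map_one, one_mul]⟩
    have hz : ∑ P ∈ (dv hP Fh).support, (if S.c₁.r P = some s.1 then P.ord Fh else 0) = 0 := by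
      refine Finset.sum_eq_zero fun P _ => ?_
      split_ifs with hPs
      · exact hnode P ⟨s, hs, hPs⟩
      · rfl
    rw [hz, hrdFh₁, hrdFh₂, ord_pow, ord_pow] at hsum
    obtain ⟨a, ha1, ha2⟩ := hglue s hs
    have h1 : 0 ≤ s.1.ord y₁ := (RegAt.of_vanAt_sub ha1).ord_nonneg
    have h2 : 0 ≤ s.2.ord y₂ := (RegAt.of_vanAt_sub ha2).ord_nonneg
    have hppos : (0 : ℤ) < p := by exact_mod_cast Nat.pos_of_ne_zero hp0
    constructor
    · nlinarith
    · nlinarith
  -- the good lift
  obtain ⟨u, hu₁, hu₂, hurd₁, hurd₂, -, -, hunode⟩ :=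
    BAD.H28.stmt_GoodLift K F k F₁ F₂ S H H₁ H₂ g g₁ g₂ c c₁ c₂ hR hR₁ hR₂ hnum y₁ y₂ ∅ ∅
      (fun Q hQ => absurd hQ (Finset.notMem_empty Q))
      (fun Q hQ => absurd hQ (Finset.notMem_empty Q)) hglue
  have huGU₁ : S.c₁.IsGU u := ⟨hu₁, by rw [hurd₁]; exact hy₁0⟩
  have huGU₂ : S.c₂.IsGU u := ⟨hu₂, by rw [hurd₂]; exact hy₂0⟩
  have hu0 : u ≠ 0 := huGU₁.ne_zero
  have huord : ∀ P, S.IsNodeP P → P.ord u = 0 := by
    rintro P ⟨s, hs, hPs⟩
    refine S.ord_eq_zero_of_node hP hs huGU₁ huGU₂ ⟨1, by rw [map_one, one_mul]⟩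
      (fun P' hP's => hunode P' ⟨s, hs, hP's⟩) ?_ ?_ hPs
    · rw [hurd₁]; exact (hord s hs).1
    · rw [hurd₂]; exact (hord s hs).2
  -- conclusion
  have hupn : u ^ p ≠ 0 := pow_ne_zero _ hu0
  have e : f * (h / u) ^ p = Fh / u ^ p := by
    rw [hFhdef, div_pow, mul_div_assoc]
  refine ⟨h / u, div_ne_zero hh0 hu0, ?_, ?_, ?_, ?_, ?_⟩
  · rw [e]; exact (hFh₁.div (huGU₁.pow p)).1
  · rw [e]; exact (hFh₂.div (huGU₂.pow p)).1
  · rw [e, hFh₁.rd_div (huGU₁.pow p), hrdFh₁, S.c₁.rd_pow hu₁, hurd₁,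
      div_self (pow_ne_zero _ hy₁0)]
  · rw [e, hFh₂.rd_div (huGU₂.pow p), hrdFh₂, S.c₂.rd_pow hu₂, hurd₂,
      div_self (pow_ne_zero _ hy₂0)]
  · intro P hPn
    rw [e, ord_div P hFh₁.ne_zero hupn, ord_pow, hnode P hPn, huord P hPn]
    simp

end Main

/-- **MOVE-p.** -/
theorem stmt_MoveP : Stmt_MoveP := by
  intro K F k F₁ F₂ _ _ _ _ _ _ _ _ _ _ S H H₁ H₂ g g₁ g₂ c c₁ c₂ hR hR₁ hR₂ hnum p hp hchar f
    hf₁ hrd₁ hdiv f' h₀ a hf' hrd' hff'
  haveI : Fact p.Prime := ⟨hp⟩
  haveI : CharP k p := hchar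
  obtain ⟨a₀, ha₀⟩ := IsAlgClosed.exists_pow_nat_eq a hp.pos
  refine moveP_core S H H₁ H₂ hR hR₁ hR₂ hnum p hf₁ hrd₁ hdiv (h₀ := algebraMap K F a₀ * h₀)
    hf' hrd' ?_
  rw [hff', mul_pow, ← map_pow, ha₀]
  ring

end Fermat.Agent.BADP.H51

end
end
-- ==== END Fermat.Agent.BADP.H51_MoveP

-- ==== BEGIN Fermat.Agent.Lib.HopfOrderGen
section

/-!
# Hopf orders from generators (cluster G, S19; elliptic curves: Tate T5)

`Fermat.Agent.Lib.HopfOrder.IsHopfOrder` asks for a ring `H` of equivariant functions on a finite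
group `M`, finitely generated as a module over `R`, closed under `f ↦ ((x, y) ↦ f (x + y))`.
Here we produce such an `H` from *generators*:

* a subring `A` of `K` ("the integers at one place") containing the image of `R`, whose `G`-fixed
  elements come from `R`;
* finitely many `G`-equivariant functions `f j : M → K` with values in `A`, jointly separating
  the points of `M`;
* for every `j` the function `(x, y) ↦ f j (x + y)` lies in `pairRing A f`, the ring of
  functions on `M × M` generated by the constants of `A` and the functions `f i x`, `f i y`.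

Then `H := R[f j]` is a Hopf order (`isHopfOrder_of_genData`).

To check the last condition one may divide by a function all of whose values are units of `A`
(`inv_mem_of_units`, `div_mem_pairRing`): if `D * g = N` with `D, N ∈ pairRing A f` and
`(D p)⁻¹ ∈ A` for all `p`, then `g ∈ pairRing A f`.
-/

set_option autoImplicit false
set_option linter.unusedSectionVars false
set_option linter.style.haveILetI false

open Polynomial

namespace Fermat.Agent.Lib.HopfOrder

open Fermat.Agent.R.H54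

section Gen

variable {R K G : Type} [CommRing R] [IsDomain R] [IsPrincipalIdealRing R] [Field K] [Algebra R K]
  [Group G] [MulSemiringAction G K]
variable {M : Type} [AddCommGroup M] [Finite M]
variable {ι : Type}

/-! ### Division by functions with unit values -/

/-- The polynomial `∏ (X - h x)`. -/
noncomputable def valuePoly {X : Type} [Fintype X] (h : X → K) : K[X] :=
  ∏ x : X, (Polynomial.X - C (h x))

lemma valuePoly_monic {X : Type} [Fintype X] (h : X → K) : (valuePoly h).Monic :=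
  monic_prod_X_sub_C _ _

lemma valuePoly_eval {X : Type} [Fintype X] (h : X → K) (x : X) :
    (valuePoly h).eval (h x) = 0 := by
  rw [valuePoly, eval_prod]
  exact Finset.prod_eq_zero (Finset.mem_univ x) (by simp)

lemma valuePoly_coeff_mem {X : Type} [Fintype X] (A : Subring K) (h : X → K)
    (hA : ∀ x, h x ∈ A) (n : ℕ) : (valuePoly h).coeff n ∈ A := by
  have : valuePoly h = (∏ x : X, (Polynomial.X - C (⟨h x, hA x⟩ : A))).map A.subtype := by
    rw [valuePoly, Polynomial.map_prod]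
    refine Finset.prod_congr rfl fun x _ => ?_
    simp
  rw [this, coeff_map]
  exact Subtype.property _

/-- If all values of `D` are units of `A`, the inverse of `D` is a polynomial in `D` with
coefficients in `A`. -/
lemma inv_mem_of_units {X : Type} [Finite X] (A : Subring K) (Λ : Subring (X → K))
    (hconst : ∀ a ∈ A, (fun _ : X => a) ∈ Λ) (D : X → K) (hD : D ∈ Λ)
    (hDA : ∀ x, D x ∈ A) (hDu : ∀ x, D x ≠ 0 ∧ (D x)⁻¹ ∈ A) :
    (fun x => (D x)⁻¹) ∈ Λ := by
  classical
  haveI := Fintype.ofFinite X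
  set P := valuePoly D with hP
  -- constant coefficient
  have hc0 : P.coeff 0 = ∏ x : X, (- D x) := by
    rw [hP, valuePoly, coeff_zero_eq_eval_zero, eval_prod]
    refine Finset.prod_congr rfl fun x _ => ?_
    simp
  have hc0ne : P.coeff 0 ≠ 0 := by
    rw [hc0]
    exact Finset.prod_ne_zero_iff.mpr fun x _ => neg_ne_zero.mpr (hDu x).1
  have hc0inv : (P.coeff 0)⁻¹ ∈ A := by
    rw [hc0, ← Finset.prod_inv_distrib]
    refine Subring.prod_mem _ fun x _ => ?_
    rw [inv_neg]
    exact Subring.neg_mem _ (hDu x).2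
  -- the function `Q(D)`, `Q = P.divX`
  set QD : X → K := ∑ n ∈ Finset.range (P.divX.natDegree + 1),
    (fun _ : X => P.divX.coeff n) * D ^ n with hQD
  have hQDmem : QD ∈ Λ := by
    refine Subring.sum_mem _ fun n _ => ?_
    refine Subring.mul_mem _ (hconst _ ?_) (Subring.pow_mem _ hD n)
    rw [coeff_divX]
    exact valuePoly_coeff_mem A D hDA _
  have hQDx : ∀ x, QD x = P.divX.eval (D x) := by
    intro x
    rw [hQD, Finset.sum_apply, eval_eq_sum_range]
    rfl
  have key : ∀ x, (D x)⁻¹ = - (P.coeff 0)⁻¹ * QD x := by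
    intro x
    have h1 : P.eval (D x) = 0 := valuePoly_eval D x
    have h2 : P = P.divX * Polynomial.X + C (P.coeff 0) := (divX_mul_X_add P).symm
    rw [h2, eval_add, eval_mul, eval_X, eval_C] at h1
    rw [hQDx x]
    have h3 : P.divX.eval (D x) * D x = - P.coeff 0 := by linear_combination h1
    have h4 : (- (P.coeff 0)⁻¹ * P.divX.eval (D x)) * D x = 1 := by
      rw [mul_assoc, h3, neg_mul_neg, inv_mul_cancel₀ hc0ne]
    exact (eq_inv_of_mul_eq_one_left h4).symm
  have : (fun x => (D x)⁻¹) = (fun _ : X => - (P.coeff 0)⁻¹) * QD := by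
    funext x
    rw [key x]
    rfl
  rw [this]
  exact Subring.mul_mem _ (hconst _ (Subring.neg_mem _ hc0inv)) hQDmem

/-- Division by a function with unit values. -/
lemma div_mem_of_units {X : Type} [Finite X] (A : Subring K) (Λ : Subring (X → K))
    (hconst : ∀ a ∈ A, (fun _ : X => a) ∈ Λ) (D N g : X → K) (hD : D ∈ Λ) (hN : N ∈ Λ)
    (hDA : ∀ x, D x ∈ A) (hDu : ∀ x, D x ≠ 0 ∧ (D x)⁻¹ ∈ A)
    (hg : ∀ x, D x * g x = N x) : g ∈ Λ := by
  have h1 := inv_mem_of_units A Λ hconst D hD hDA hDu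
  have : g = (fun x => (D x)⁻¹) * N := by
    funext x
    have hDx := (hDu x).1
    show g x = (D x)⁻¹ * N x
    rw [← hg x, inv_mul_cancel_left₀ hDx]
  rw [this]
  exact Subring.mul_mem _ h1 hN

/-- **Local form of the division lemma.** `A` a valuation subring, `Λ` a ring of `A`-valued
functions on a finite set containing the constants of `A`. If for every point `x₀` there are
`D, N ∈ Λ` with `D * φ = N` (everywhere) and `D x₀` a unit of `A`, then `φ ∈ Λ`. -/
lemma mem_of_local_units {X : Type} [Finite X] (A : ValuationSubring K) (Λ : Subring (X → K))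
    (hconst : ∀ a ∈ A, (fun _ : X => a) ∈ Λ) (hval : ∀ g ∈ Λ, ∀ x, g x ∈ A) (φ : X → K)
    (h : ∀ x₀ : X, ∃ D N : X → K, D ∈ Λ ∧ N ∈ Λ ∧ (∀ x, D x * φ x = N x) ∧
      (D x₀ ≠ 0 ∧ (D x₀)⁻¹ ∈ A)) : φ ∈ Λ := by
  classical
  haveI := Fintype.ofFinite X
  rcases isEmpty_or_nonempty X with hX | ⟨⟨x₁⟩⟩
  · have : φ = 0 := funext fun x => (hX.false x).elim
    rw [this]
    exact Λ.zero_mem
  -- the ideal of denominators
  let I : Ideal Λ :=
    { carrier := {D | (D : X → K) * φ ∈ Λ}
      zero_mem' := by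
        show ((0 : Λ) : X → K) * φ ∈ Λ
        rw [Subring.coe_zero, zero_mul]
        exact Λ.zero_mem
      add_mem' := by
        intro a b ha hb
        show ((a + b : Λ) : X → K) * φ ∈ Λ
        rw [Subring.coe_add, add_mul]
        exact Λ.add_mem ha hb
      smul_mem' := by
        intro c a ha
        show ((c * a : Λ) : X → K) * φ ∈ Λ
        rw [Subring.coe_mul, mul_assoc]
        exact Λ.mul_mem c.2 ha }
  -- evaluation at a point
  let evx : X → (Λ →+* A) := fun x =>
    { toFun := fun g => ⟨(g : X → K) x, hval g g.2 x⟩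
      map_one' := rfl
      map_mul' := fun _ _ => rfl
      map_zero' := rfl
      map_add' := fun _ _ => rfl }
  let 𝔭 : X → Ideal Λ := fun x => Ideal.comap (evx x) (IsLocalRing.maximalIdeal A)
  have hprime : ∀ x, (𝔭 x).IsPrime := fun x => Ideal.comap_isPrime _ _
  have hunit : ∀ (D : Λ) (x : X), D ∉ 𝔭 x ↔ ((D : X → K) x ≠ 0 ∧ ((D : X → K) x)⁻¹ ∈ A) := by
    intro D x
    show ¬ (evx x D ∈ IsLocalRing.maximalIdeal A) ↔ _
    rw [IsLocalRing.notMem_maximalIdeal]
    constructor
    · intro hu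
      obtain ⟨b, hb⟩ := hu.exists_right_inv
      have hb' : (D : X → K) x * (b : K) = 1 := congrArg Subtype.val hb
      have hne : (D : X → K) x ≠ 0 := left_ne_zero_of_mul_eq_one hb'
      refine ⟨hne, ?_⟩
      rw [← eq_inv_of_mul_eq_one_right hb']
      exact b.2
    · rintro ⟨hne, hinv⟩
      refine IsUnit.of_mul_eq_one (⟨_, hinv⟩ : A) ?_
      apply Subtype.ext
      show (D : X → K) x * ((D : X → K) x)⁻¹ = 1
      exact mul_inv_cancel₀ hne
  have hnot : ¬ ∃ x ∈ (Finset.univ : Finset X), I ≤ 𝔭 x := by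
    rintro ⟨x, -, hle⟩
    obtain ⟨D, N, hD, hN, hDN, hu⟩ := h x
    have hDI : (⟨D, hD⟩ : Λ) ∈ I := by
      show D * φ ∈ Λ
      have : D * φ = N := funext hDN
      rw [this]
      exact hN
    exact (hunit ⟨D, hD⟩ x).mpr hu (hle hDI)
  rw [← Ideal.subset_union_prime x₁ x₁ (fun x _ _ _ => hprime x)] at hnot
  rw [Set.not_subset] at hnot
  obtain ⟨D, hDI, hDn⟩ := hnot
  simp only [Finset.coe_univ, Set.mem_univ, Set.iUnion_true, Set.mem_iUnion, SetLike.mem_coe,
    not_exists] at hDn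
  have hDu : ∀ x, (D : X → K) x ≠ 0 ∧ ((D : X → K) x)⁻¹ ∈ A := fun x => (hunit D x).mp (hDn x)
  exact div_mem_of_units A.toSubring Λ hconst (D : X → K) ((D : X → K) * φ) φ D.2 hDI
    (fun x => hval D D.2 x) hDu (fun x => rfl)

/-! ### Integrality of equivariant functions -/

lemma isIntegral_of_equivariant (A : Subring K)
    (hfix : ∀ a ∈ A, (∀ σ : G, σ • a = a) → ∃ r : R, algebraMap R K r = a)
    (act : G → M → M) (hinj : ∀ σ, Function.Injective (act σ)) (h : M → K) (hA : ∀ x, h x ∈ A)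
    (heq : ∀ σ x, h (act σ x) = σ • h x) : IsIntegral R h := by
  classical
  haveI := Fintype.ofFinite M
  set P := valuePoly h with hPdef
  have hfixP : ∀ (σ : G) n, σ • P.coeff n = P.coeff n := by
    intro σ n
    have hmap : P.map (MulSemiringAction.toRingHom G K σ) = P := by
      rw [hPdef, valuePoly, Polynomial.map_prod]
      have hbij : Function.Bijective (act σ) := Finite.injective_iff_bijective.mp (hinj σ)
      rw [← Equiv.prod_comp (Equiv.ofBijective _ hbij) (fun x => Polynomial.X - C (h x))]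
      refine Finset.prod_congr rfl fun x _ => ?_
      simp [heq]
    conv_rhs => rw [← hmap]
    rw [coeff_map]
    rfl
  have hlift : P ∈ lifts (algebraMap R K) := by
    rw [lifts_iff_coeff_lifts]
    intro n
    exact hfix _ (valuePoly_coeff_mem A h hA n) (fun σ => hfixP σ n)
  obtain ⟨Q, hQ, -, hQm⟩ := lifts_and_degree_eq_and_monic hlift (valuePoly_monic h)
  refine ⟨Q, hQm, ?_⟩
  funext x
  have h1 := Polynomial.hom_eval₂ Q (algebraMap R (M → K)) (Pi.evalRingHom (fun _ : M => K) x) h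
  have h2 : (Pi.evalRingHom (fun _ : M => K) x).comp (algebraMap R (M → K)) = algebraMap R K := by
    ext r
    rfl
  rw [h2] at h1
  show (Pi.evalRingHom (fun _ : M => K) x) (eval₂ (algebraMap R (M → K)) h Q) = 0
  rw [h1, ← eval_map, hQ]
  exact valuePoly_eval h x

/-! ### The ring of functions on pairs -/

/-- Generators of `pairRing`. -/
def pairGens (A : Subring K) (f : ι → M → K) : Set (M × M → K) :=
  {g | ∃ a ∈ A, g = fun _ => a} ∪ (Set.range (fun j (p : M × M) => f j p.1) ∪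
    Set.range (fun j (p : M × M) => f j p.2))

/-- The ring of functions on `M × M` generated by the constants of `A` and the functions
`(x, y) ↦ f j x`, `(x, y) ↦ f j y`. -/
def pairRing (A : Subring K) (f : ι → M → K) : Subring (M × M → K) :=
  Subring.closure (pairGens A f)

lemma const_mem_pairRing (A : Subring K) (f : ι → M → K) {a : K} (ha : a ∈ A) :
    (fun _ : M × M => a) ∈ pairRing A f :=
  Subring.subset_closure (Or.inl ⟨a, ha, rfl⟩)

lemma fst_mem_pairRing (A : Subring K) (f : ι → M → K) (j : ι) :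
    (fun p : M × M => f j p.1) ∈ pairRing A f :=
  Subring.subset_closure (Or.inr (Or.inl ⟨j, rfl⟩))

lemma snd_mem_pairRing (A : Subring K) (f : ι → M → K) (j : ι) :
    (fun p : M × M => f j p.2) ∈ pairRing A f :=
  Subring.subset_closure (Or.inr (Or.inr ⟨j, rfl⟩))

/-- The values of the elements of `pairRing` lie in `A`. -/
lemma pairRing_val_mem (A : Subring K) (f : ι → M → K) (hA : ∀ j x, f j x ∈ A)
    {g : M × M → K} (hg : g ∈ pairRing A f) (p : M × M) : g p ∈ A := by
  induction hg using Subring.closure_induction with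
  | mem g hg =>
    rcases hg with ⟨a, ha, rfl⟩ | ⟨j, rfl⟩ | ⟨j, rfl⟩
    · exact ha
    · exact hA j _
    · exact hA j _
  | zero => exact A.zero_mem
  | one => exact A.one_mem
  | add g g' _ _ hg hg' => exact A.add_mem hg hg'
  | neg g _ hg => exact A.neg_mem hg
  | mul g g' _ _ hg hg' => exact A.mul_mem hg hg'

/-- **Division in `pairRing`** by a function with unit values. -/
lemma div_mem_pairRing (A : Subring K) (f : ι → M → K) (hA : ∀ j x, f j x ∈ A)
    (D N g : M × M → K) (hD : D ∈ pairRing A f) (hN : N ∈ pairRing A f)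
    (hDu : ∀ p, D p ≠ 0 ∧ (D p)⁻¹ ∈ A) (hg : ∀ p, D p * g p = N p) : g ∈ pairRing A f :=
  div_mem_of_units A (pairRing A f) (fun _ ha => const_mem_pairRing A f ha) D N g hD hN
    (fun p => pairRing_val_mem A f hA hD p) hDu hg

/-! ### The Hopf order generated by `f` -/

/-- Hypotheses on the generators `f j`. -/
structure GenData (R : Type) [CommRing R] [Algebra R K] (A : Subring K) (act : G → M → M)
    (f : ι → M → K) : Prop where
  act_add : ∀ σ x y, act σ (x + y) = act σ x + act σ y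
  act_inj : ∀ σ, Function.Injective (act σ)
  equivariant : ∀ j σ x, f j (act σ x) = σ • f j x
  integral : ∀ j x, f j x ∈ A
  separates : ∀ x y, x ≠ y → ∃ j, f j x ≠ f j y
  base : ∀ r : R, algebraMap R K r ∈ A
  fixed : ∀ a ∈ A, (∀ σ : G, σ • a = a) → ∃ r : R, algebraMap R K r = a
  comul : ∀ j, (fun p : M × M => f j (p.1 + p.2)) ∈ pairRing A f

/-- The `R`-algebra of functions generated by the `f j`. -/
abbrev genAlg (R : Type) [CommRing R] [Algebra R K] (f : ι → M → K) : Subalgebra R (M → K) :=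
  Algebra.adjoin R (Set.range f)

/-- Evaluation at a point. -/
noncomputable def evGen (R : Type) [CommRing R] [Algebra R K] (f : ι → M → K) (x : M) :
    ↥(genAlg R f) →ₐ[R] K :=
  (Pi.evalAlgHom R (fun _ : M => K) x).comp (genAlg R f).val

@[simp] lemma evGen_apply (f : ι → M → K) (x : M) (h : genAlg R f) :
    evGen R f x h = (h : M → K) x := rfl

/-- The generators as elements of `genAlg`. -/
def gen (R : Type) [CommRing R] [Algebra R K] (f : ι → M → K) (j : ι) : genAlg R f :=
  ⟨f j, Algebra.subset_adjoin ⟨j, rfl⟩⟩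

variable {A : Subring K} {act : G → M → M} {f : ι → M → K}

lemma genAlg_equivariant (hD : DescentData R K G) (hG : GenData R A act f)
    (h : genAlg R f) (σ : G) (x : M) : (h : M → K) (act σ x) = σ • (h : M → K) x := by
  obtain ⟨h, hh⟩ := h
  show h (act σ x) = σ • h x
  induction hh using Algebra.adjoin_induction with
  | mem g hg =>
    obtain ⟨j, rfl⟩ := hg
    exact hG.equivariant j σ x
  | algebraMap r => exact (hD.fixR σ r).symm
  | add g g' _ _ hg hg' =>
    show g (act σ x) + g' (act σ x) = σ • (g x + g' x)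
    rw [smul_add, hg, hg']
  | mul g g' _ _ hg hg' =>
    show g (act σ x) * g' (act σ x) = σ • (g x * g' x)
    rw [smul_mul', hg, hg']

lemma genAlg_val_mem (hG : GenData R A act f) (h : genAlg R f) (x : M) :
    (h : M → K) x ∈ A := by
  obtain ⟨h, hh⟩ := h
  show h x ∈ A
  induction hh using Algebra.adjoin_induction with
  | mem g hg =>
    obtain ⟨j, rfl⟩ := hg
    exact hG.integral j x
  | algebraMap r => exact hG.base r
  | add g g' _ _ hg hg' => exact A.add_mem hg hg'
  | mul g g' _ _ hg hg' => exact A.mul_mem hg hg'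

lemma genAlg_finite [Finite ι] (hG : GenData R A act f) : Module.Finite R (genAlg R f) := by
  have hfg : (genAlg R f).toSubmodule.FG := by
    refine fg_adjoin_of_finite (Set.finite_range f) ?_
    rintro _ ⟨j, rfl⟩
    exact isIntegral_of_equivariant A hG.fixed act hG.act_inj (f j) (hG.integral j)
      (hG.equivariant j)
  exact Module.Finite.of_fg hfg

lemma genAlg_torsionFree (hD : DescentData R K G) :
    Module.IsTorsionFree R (genAlg R f) := by
  refine ⟨fun r hr => ?_⟩
  have hr0 : algebraMap R K r ≠ 0 := by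
    intro h
    have : r = 0 := hD.inj (by rw [h, map_zero])
    exact hr.ne_zero this
  intro q₁ q₂ h
  have h' : r • q₁ = r • q₂ := h
  apply Subtype.ext
  funext x
  have := congrArg (evGen R f x) h'
  rw [Algebra.smul_def, Algebra.smul_def, map_mul, map_mul, AlgHom.commutes] at this
  exact mul_left_cancel₀ hr0 this

lemma evFam_gen_separating : Separating (evFam (evGen R f)) := by
  intro q hq
  apply Subtype.ext
  funext x
  exact hq _ ⟨x, rfl⟩

lemma evFam_gen_gstable (hD : DescentData R K G) (hG : GenData R A act f) :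
    GStable G (evFam (evGen R f)) := by
  rintro σ _ ⟨x, rfl⟩
  exact ⟨(evGen R f (act σ x)).toLinearMap, ⟨act σ x, rfl⟩,
    fun q => genAlg_equivariant hD hG q σ x⟩

/-- Linear independence over `K` of a basis of `genAlg`, as functions on `M`. -/
lemma gen_indep (hD : DescentData R K G) (hG : GenData R A act f) {n : Type} [Fintype n]
    (e : Module.Basis n R (genAlg R f)) (c : n → K)
    (hc : ∀ x, ∑ p, c p * (e p : M → K) x = 0) : c = 0 := by
  refine descent_inj hD e (evFam (evGen R f)) (evFam_gen_gstable hD hG) evFam_gen_separating c ?_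
  rintro _ ⟨x, rfl⟩
  exact hc x

/-- Linear independence over `K` of the products `e p x * e q y`. -/
lemma gen_indep₂ (hD : DescentData R K G) (hG : GenData R A act f) {n : Type} [Fintype n]
    (e : Module.Basis n R (genAlg R f)) (c : n → n → K)
    (hc : ∀ x y, ∑ p, ∑ q, c p q * ((e p : M → K) x * (e q : M → K) y) = 0) :
    ∀ p q, c p q = 0 := by
  have h1 : ∀ y, (fun p => ∑ q, c p q * (e q : M → K) y) = 0 := by
    intro y
    apply gen_indep hD hG e
    intro x
    rw [← hc x y]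
    refine Finset.sum_congr rfl fun p _ => ?_
    rw [Finset.sum_mul]
    refine Finset.sum_congr rfl fun q _ => ?_
    ring
  intro p
  have h2 : (fun q => c p q) = 0 := by
    apply gen_indep hD hG e
    intro y
    exact congrFun (h1 y) p
  exact fun q => congrFun h2 q

/-- A function of two variables which is a finite sum of products `a x * b y`, `a, b ∈ H`. -/
def HasSplit (R : Type) [CommRing R] [Algebra R K] (f : ι → M → K) (g : M × M → K) : Prop :=
  ∃ (κ : Type) (_ : Fintype κ) (a b : κ → genAlg R f),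
    ∀ x y, g (x, y) = ∑ i, (a i : M → K) x * (b i : M → K) y

/-- The same with coefficients in `A`. -/
def HasSplitA (R : Type) [CommRing R] [Algebra R K] (A : Subring K) (f : ι → M → K)
    (g : M × M → K) : Prop :=
  ∃ (κ : Type) (_ : Fintype κ) (c : κ → K) (a b : κ → genAlg R f), (∀ i, c i ∈ A) ∧
    ∀ x y, g (x, y) = ∑ i, c i * ((a i : M → K) x * (b i : M → K) y)

lemma hasSplitA_of_mem_pairRing (A : Subring K) (f : ι → M → K) {g : M × M → K}
    (hg : g ∈ pairRing A f) : HasSplitA R A f g := by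
  induction hg using Subring.closure_induction with
  | mem g hg =>
    rcases hg with ⟨a, ha, rfl⟩ | ⟨j, rfl⟩ | ⟨j, rfl⟩
    · exact ⟨Unit, inferInstance, fun _ => a, fun _ => 1, fun _ => 1, fun _ => ha,
        fun x y => by simp⟩
    · exact ⟨Unit, inferInstance, fun _ => 1, fun _ => gen R f j, fun _ => 1,
        fun _ => A.one_mem, fun x y => by simp [gen]⟩
    · exact ⟨Unit, inferInstance, fun _ => 1, fun _ => 1, fun _ => gen R f j,
        fun _ => A.one_mem, fun x y => by simp [gen]⟩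
  | zero =>
    exact ⟨Empty, inferInstance, fun _ => 0, fun _ => 0, fun _ => 0, fun i => i.elim,
      fun x y => by simp⟩
  | one =>
    exact ⟨Unit, inferInstance, fun _ => 1, fun _ => 1, fun _ => 1, fun _ => A.one_mem,
      fun x y => by simp⟩
  | add g g' _ _ hg hg' =>
    obtain ⟨κ, _, c, a, b, hc, h⟩ := hg
    obtain ⟨κ', _, c', a', b', hc', h'⟩ := hg'
    refine ⟨κ ⊕ κ', inferInstance, Sum.elim c c', Sum.elim a a', Sum.elim b b', ?_, ?_⟩
    · rintro (i | i)
      · exact hc i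
      · exact hc' i
    · intro x y
      rw [Fintype.sum_sum_type]
      simp only [Sum.elim_inl, Sum.elim_inr]
      rw [← h x y, ← h' x y]
      rfl
  | neg g _ hg =>
    obtain ⟨κ, _, c, a, b, hc, h⟩ := hg
    refine ⟨κ, inferInstance, fun i => - c i, a, b, fun i => A.neg_mem (hc i), ?_⟩
    intro x y
    show - g (x, y) = _
    rw [h x y, ← Finset.sum_neg_distrib]
    refine Finset.sum_congr rfl fun i _ => ?_
    ring
  | mul g g' _ _ hg hg' =>
    obtain ⟨κ, _, c, a, b, hc, h⟩ := hg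
    obtain ⟨κ', _, c', a', b', hc', h'⟩ := hg'
    refine ⟨κ × κ', inferInstance, fun i => c i.1 * c' i.2, fun i => a i.1 * a' i.2,
      fun i => b i.1 * b' i.2, fun i => A.mul_mem (hc _) (hc' _), ?_⟩
    intro x y
    show g (x, y) * g' (x, y) = _
    rw [h x y, h' x y, Fintype.sum_prod_type, Finset.sum_mul_sum]
    refine Finset.sum_congr rfl fun i _ => Finset.sum_congr rfl fun j _ => ?_
    show _ = c i * c' j * (((a i : M → K) x * (a' j : M → K) x) *
      ((b i : M → K) y * (b' j : M → K) y))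
    ring

/-- Descent of the coefficients from `A` to `R`. -/
lemma hasSplit_of_hasSplitA [Finite ι] (hD : DescentData R K G) (hG : GenData R A act f)
    {g : M × M → K} (hg : HasSplitA R A f g)
    (heq : ∀ σ x y, g (act σ x, act σ y) = σ • g (x, y)) : HasSplit R f g := by
  classical
  haveI := genAlg_finite hG
  haveI := genAlg_torsionFree (f := f) hD
  haveI : Module.Free R (genAlg R f) := Module.free_of_finite_type_torsion_free'
  set e := Module.Free.chooseBasis R (genAlg R f) with he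
  obtain ⟨κ, _, c, a, b, hc, h⟩ := hg
  have hexp : ∀ (u : genAlg R f) (x : M),
      (u : M → K) x = ∑ p, algebraMap R K (e.repr u p) * (e p : M → K) x := by
    intro u x
    have h1 : evGen R f x u = evGen R f x (∑ p, e.repr u p • e p) := by rw [e.sum_repr u]
    rw [map_sum] at h1
    rw [← evGen_apply, h1]
    refine Finset.sum_congr rfl fun p _ => ?_
    rw [Algebra.smul_def, map_mul, AlgHom.commutes]
    rfl
  set Cm : _ → _ → K := fun p q =>
    ∑ i, c i * (algebraMap R K (e.repr (a i) p) * algebraMap R K (e.repr (b i) q)) with hCm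
  have hg' : ∀ x y, g (x, y) = ∑ p, ∑ q, Cm p q * ((e p : M → K) x * (e q : M → K) y) := by
    intro x y
    rw [h x y]
    have h2 : ∀ i, c i * ((a i : M → K) x * (b i : M → K) y) =
        ∑ p, ∑ q, c i * (algebraMap R K (e.repr (a i) p) * algebraMap R K (e.repr (b i) q)) *
          ((e p : M → K) x * (e q : M → K) y) := by
      intro i
      rw [hexp (a i) x, hexp (b i) y, Finset.sum_mul_sum, Finset.mul_sum]
      refine Finset.sum_congr rfl fun p _ => ?_
      rw [Finset.mul_sum]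
      refine Finset.sum_congr rfl fun q _ => ?_
      ring
    simp only [h2]
    rw [Finset.sum_comm]
    refine Finset.sum_congr rfl fun p _ => ?_
    rw [Finset.sum_comm]
    refine Finset.sum_congr rfl fun q _ => ?_
    rw [hCm, Finset.sum_mul]
  have hCA : ∀ p q, Cm p q ∈ A := fun p q =>
    Subring.sum_mem _ fun i _ => A.mul_mem (hc i) (A.mul_mem (hG.base _) (hG.base _))
  have hfix : ∀ (σ : G) p q, σ • Cm p q = Cm p q := by
    intro σ p q
    have h3 := gen_indep₂ hD hG e (fun p q => σ • Cm p q - Cm p q) ?_ p q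
    · exact sub_eq_zero.mp h3
    intro x' y'
    have hbij : Function.Bijective (act σ) := Finite.injective_iff_bijective.mp (hG.act_inj σ)
    obtain ⟨x, rfl⟩ := hbij.2 x'
    obtain ⟨y, rfl⟩ := hbij.2 y'
    have h4 : ∑ p, ∑ q, (σ • Cm p q) * ((e p : M → K) (act σ x) * (e q : M → K) (act σ y)) =
        σ • g (x, y) := by
      rw [hg' x y, Finset.smul_sum]
      refine Finset.sum_congr rfl fun p _ => ?_
      rw [Finset.smul_sum]
      refine Finset.sum_congr rfl fun q _ => ?_
      rw [smul_mul', smul_mul', genAlg_equivariant hD hG, genAlg_equivariant hD hG]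
    have h5 : ∑ p, ∑ q, (σ • Cm p q - Cm p q) *
        ((e p : M → K) (act σ x) * (e q : M → K) (act σ y)) =
        ∑ p, ∑ q, (σ • Cm p q) * ((e p : M → K) (act σ x) * (e q : M → K) (act σ y)) -
        ∑ p, ∑ q, Cm p q * ((e p : M → K) (act σ x) * (e q : M → K) (act σ y)) := by
      rw [← Finset.sum_sub_distrib]
      refine Finset.sum_congr rfl fun p _ => ?_
      rw [← Finset.sum_sub_distrib]
      refine Finset.sum_congr rfl fun q _ => ?_
      ring
    rw [h5, h4, ← hg', heq, sub_self]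
  choose ρ hρ using fun p q => hG.fixed (Cm p q) (hCA p q) (fun σ => hfix σ p q)
  refine ⟨_ × _, inferInstance, fun i => ρ i.1 i.2 • e i.1, fun i => e i.2, ?_⟩
  intro x y
  rw [hg' x y, Fintype.sum_prod_type]
  refine Finset.sum_congr rfl fun p _ => Finset.sum_congr rfl fun q _ => ?_
  have h6 : ((ρ p q • e p : genAlg R f) : M → K) x = Cm p q * (e p : M → K) x := by
    rw [← hρ p q, ← evGen_apply, Algebra.smul_def, map_mul, AlgHom.commutes]
    rfl
  rw [h6]
  ring

/-- Every element of `genAlg` has a "comultiplication". -/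
lemma hasSplit_add [Finite ι] (hD : DescentData R K G) (hG : GenData R A act f)
    (h : genAlg R f) : HasSplit R f (fun p => (h : M → K) (p.1 + p.2)) := by
  obtain ⟨h, hh⟩ := h
  show HasSplit R f (fun p => h (p.1 + p.2))
  induction hh using Algebra.adjoin_induction with
  | mem g hg =>
    obtain ⟨j, rfl⟩ := hg
    refine hasSplit_of_hasSplitA hD hG (hasSplitA_of_mem_pairRing A f (hG.comul j)) ?_
    intro σ x y
    show f j (act σ x + act σ y) = σ • f j (x + y)
    rw [← hG.act_add, hG.equivariant]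
  | algebraMap r =>
    refine ⟨Unit, inferInstance, fun _ => algebraMap R _ r, fun _ => 1, ?_⟩
    intro x y
    simp only [Finset.univ_unique, Finset.sum_singleton]
    show algebraMap R K r = algebraMap R K r * 1
    rw [mul_one]
  | add g g' _ _ hg hg' =>
    obtain ⟨κ, _, a, b, h⟩ := hg
    obtain ⟨κ', _, a', b', h'⟩ := hg'
    refine ⟨κ ⊕ κ', inferInstance, Sum.elim a a', Sum.elim b b', ?_⟩
    intro x y
    rw [Fintype.sum_sum_type]
    simp only [Sum.elim_inl, Sum.elim_inr]
    rw [← h x y, ← h' x y]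
    rfl
  | mul g g' _ _ hg hg' =>
    obtain ⟨κ, _, a, b, h⟩ := hg
    obtain ⟨κ', _, a', b', h'⟩ := hg'
    refine ⟨κ × κ', inferInstance, fun i => a i.1 * a' i.2, fun i => b i.1 * b' i.2, ?_⟩
    intro x y
    show g (x + y) * g' (x + y) = _
    have e1 := h x y
    have e2 := h' x y
    simp only at e1 e2
    rw [e1, e2, Fintype.sum_prod_type, Finset.sum_mul_sum]
    refine Finset.sum_congr rfl fun i _ => Finset.sum_congr rfl fun j _ => ?_
    show _ = ((a i : M → K) x * (a' j : M → K) x) * ((b i : M → K) y * (b' j : M → K) y)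
    ring

/-- **Hopf orders from generators.** -/
theorem isHopfOrder_of_genData [Finite ι] (hD : DescentData R K G) (hG : GenData R A act f) :
    IsHopfOrder act (evGen R f) where
  equivariant h σ x := genAlg_equivariant hD hG h σ x
  finite := genAlg_finite hG
  faithful h hh := Subtype.ext (funext hh)
  separates x y hxy := by
    obtain ⟨j, hj⟩ := hG.separates x y hxy
    exact ⟨gen R f j, hj⟩
  comul h := by
    classical
    obtain ⟨κ, _, a, b, hab⟩ := hasSplit_add hD hG h
    refine ⟨Fintype.card κ, fun i => a ((Fintype.equivFin κ).symm i),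
      fun i => b ((Fintype.equivFin κ).symm i), fun x y => ?_⟩
    have e1 := hab x y
    simp only at e1
    rw [evGen_apply, e1]
    exact (Fintype.sum_equiv (Fintype.equivFin κ).symm _ _ (fun i => rfl)).symm

/-- Hopf orders from generators over `ℤ_(p)`: the conclusion is the condition of the prelude
(`GaloisRepAdic.IsFlatAt`, frozen S19) for the group `M`. -/
theorem flat_of_genData [Finite ι] (p : ℕ) {M : Type} [AddCommGroup M] [Finite M]
    {A : Subring (AlgebraicClosure ℚ)} (act : GalQ → M → M)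
    (f : ι → M → AlgebraicClosure ℚ)
    (hG : GenData (GaloisRep.ratLocalizedAt p) A act f) :
    ∃ (H' : Type) (_ : CommRing H') (_ : HopfAlgebra (GaloisRep.ratLocalizedAt p) H'),
      Module.Finite (GaloisRep.ratLocalizedAt p) H' ∧
      Module.Flat (GaloisRep.ratLocalizedAt p) H' ∧
      Coalgebra.IsCocomm (GaloisRep.ratLocalizedAt p) H' ∧
      ∃ e : WithConv (H' →ₐ[GaloisRep.ratLocalizedAt p] AlgebraicClosure ℚ) ≃ M,
        (∀ f g : WithConv (H' →ₐ[GaloisRep.ratLocalizedAt p] AlgebraicClosure ℚ),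
          e (f * g) = e f + e g) ∧
        ∀ (σ : AlgebraicClosure ℚ ≃ₐ[ℚ] AlgebraicClosure ℚ)
          (f g : WithConv (H' →ₐ[GaloisRep.ratLocalizedAt p] AlgebraicClosure ℚ)),
          (∀ h : H', g h = σ (f h)) → e g = act σ (e f) := by
  haveI := ratLocalizedAt_isPrincipalIdealRing p
  exact flat_of_isHopfOrder p act _ (isHopfOrder_of_genData (descentData_rat p) hG)

/-- **Local division in `pairRing`**: to show `φ ∈ pairRing A f` it is enough to find for every
pair `p₀` a denominator `D ∈ pairRing A f` with `D p₀` a unit of `A` and `D * φ ∈ pairRing A f`. -/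
lemma mem_pairRing_of_local (A : ValuationSubring K) (f : ι → M → K) (hA : ∀ j x, f j x ∈ A)
    (φ : M × M → K)
    (h : ∀ p₀ : M × M, ∃ D N : M × M → K, D ∈ pairRing A.toSubring f ∧
      N ∈ pairRing A.toSubring f ∧ (∀ p, D p * φ p = N p) ∧ (D p₀ ≠ 0 ∧ (D p₀)⁻¹ ∈ A)) :
    φ ∈ pairRing A.toSubring f :=
  mem_of_local_units A (pairRing A.toSubring f)
    (fun _ ha => const_mem_pairRing A.toSubring f ha)
    (fun _ hg x => pairRing_val_mem A.toSubring f hA hg x) φ h

end Gen




section ConcreteGen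

open GaloisRep IsLocalRing

/-- An integer prime to `p` is a unit at every place over `p`. -/
lemma intCast_isUnit_of_coprime (A : ValuationSubring (AlgebraicClosure ℚ)) (p : ℕ)
    (hA : A.LiesOverPrime p) (d : ℤ) (hd : IsCoprime d (p : ℤ)) : IsUnit (d : A) := by
  have hp : ((p : ℕ) : A) ∈ maximalIdeal A := by
    obtain ⟨ha, h⟩ := ValuationSubring.mem_nonunits_iff_exists_mem_maximalIdeal.mp hA
    exact h
  by_contra hnu
  have hdm : (d : A) ∈ maximalIdeal A := by
    rwa [← mem_nonunits_iff, ← IsLocalRing.mem_maximalIdeal] at hnu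
  obtain ⟨u, v, huv⟩ := hd
  have h1 : ((u : A) * (d : A) + (v : A) * ((p : ℕ) : A)) ∈ maximalIdeal A :=
    Ideal.add_mem _ (Ideal.mul_mem_left _ _ hdm) (Ideal.mul_mem_left _ _ hp)
  have h2 : ((u : A) * (d : A) + (v : A) * ((p : ℕ) : A)) = 1 := by
    have := congrArg (fun z : ℤ => (z : A)) huv
    simpa using this
  rw [h2] at h1
  exact (Ideal.ne_top_iff_one _).mp (maximalIdeal.isMaximal A).ne_top h1

/-- `ℤ_(p)` lies in every valuation subring over `p`. -/
lemma base_of_liesOver (A : ValuationSubring (AlgebraicClosure ℚ)) (p : ℕ)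
    (hA : A.LiesOverPrime p) (r : ratLocalizedAt p) :
    algebraMap (ratLocalizedAt p) (AlgebraicClosure ℚ) r ∈ A.toSubring := by
  rw [algebraMap_rat_apply]
  have hr : ((r : ℚ).den).Coprime p := r.2
  have hu := intCast_isUnit_of_coprime A p hA ((r : ℚ).den : ℤ)
    (Nat.isCoprime_iff_coprime.mpr hr)
  obtain ⟨b, hb⟩ := hu.exists_right_inv
  have hb' : (((r : ℚ).den : ℤ) : AlgebraicClosure ℚ) * (b : AlgebraicClosure ℚ) = 1 := by
    have := congrArg Subtype.val hb
    simpa using this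
  have hq : algebraMap ℚ (AlgebraicClosure ℚ) (r : ℚ) =
      (((r : ℚ).num : ℤ) : AlgebraicClosure ℚ) * (b : AlgebraicClosure ℚ) := by
    have hden : (((r : ℚ).den : ℤ) : AlgebraicClosure ℚ) ≠ 0 := left_ne_zero_of_mul_eq_one hb'
    have h3 : algebraMap ℚ (AlgebraicClosure ℚ) (r : ℚ) *
        (((r : ℚ).den : ℤ) : AlgebraicClosure ℚ) = (((r : ℚ).num : ℤ) : AlgebraicClosure ℚ) := by
      have h4 : (r : ℚ) * (((r : ℚ).den : ℤ) : ℚ) = (((r : ℚ).num : ℤ) : ℚ) := by
        push_cast
        exact Rat.mul_den_eq_num (r : ℚ)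
      have h5 := congrArg (algebraMap ℚ (AlgebraicClosure ℚ)) h4
      rwa [map_mul, map_intCast, map_intCast] at h5
    calc algebraMap ℚ (AlgebraicClosure ℚ) (r : ℚ)
        = algebraMap ℚ (AlgebraicClosure ℚ) (r : ℚ) *
          ((((r : ℚ).den : ℤ) : AlgebraicClosure ℚ) * (b : AlgebraicClosure ℚ)) := by
            rw [hb', mul_one]
      _ = _ := by rw [← mul_assoc, h3]
  rw [hq]
  exact A.toSubring.mul_mem (intCast_mem _ _) b.2

/-- The `G_ℚ`-fixed elements of a valuation subring over a prime `p` lie in `ℤ_(p)`. -/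
lemma fixed_of_liesOver (A : ValuationSubring (AlgebraicClosure ℚ)) (p : ℕ) (hp : p.Prime)
    (hA : A.LiesOverPrime p) (a : AlgebraicClosure ℚ) (ha : a ∈ A.toSubring)
    (hfix : ∀ σ : GalQ, σ • a = a) :
    ∃ r : ratLocalizedAt p, algebraMap (ratLocalizedAt p) (AlgebraicClosure ℚ) r = a := by
  haveI : Algebra.IsAlgebraic ℚ (AlgebraicClosure ℚ) := AlgebraicClosure.isAlgebraic ℚ
  haveI : IsAlgClosure ℚ (AlgebraicClosure ℚ) := ⟨inferInstance, inferInstance⟩
  haveI : IsGalois ℚ (AlgebraicClosure ℚ) := inferInstance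
  have hbot : a ∈ (⊥ : IntermediateField ℚ (AlgebraicClosure ℚ)) :=
    (InfiniteGalois.mem_bot_iff_fixed a).mpr hfix
  obtain ⟨q, rfl⟩ := IntermediateField.mem_bot.mp hbot
  suffices hq : q.den.Coprime p from ⟨⟨q, hq⟩, rfl⟩
  by_contra hnc
  have hpd : p ∣ q.den := by
    rcases Nat.coprime_or_dvd_of_prime hp q.den with h | h
    · exact absurd h.symm hnc
    · exact h
  -- the numerator is a unit of `A`
  have hnum : IsCoprime (q.num : ℤ) (p : ℤ) := by
    have h1 : (q.num.natAbs).Coprime q.den := q.reduced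
    have h2 : (q.num.natAbs).Coprime p := Nat.Coprime.coprime_dvd_right hpd h1
    have h3 := Nat.isCoprime_iff_coprime.mpr h2
    rcases Int.natAbs_eq q.num with h | h
    · rw [h]; exact h3
    · rw [h]; exact h3.neg_left
  have hu := intCast_isUnit_of_coprime A p hA q.num hnum
  -- but it lies in the maximal ideal
  have hpm : ((p : ℕ) : A) ∈ maximalIdeal A := by
    obtain ⟨ha, h⟩ := ValuationSubring.mem_nonunits_iff_exists_mem_maximalIdeal.mp hA
    exact h
  obtain ⟨c, hc⟩ := hpd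
  have hnumeq : (q.num : A) = (⟨_, ha⟩ : A) * ((c : ℕ) : A) * ((p : ℕ) : A) := by
    apply Subtype.ext
    have h5 := congrArg (algebraMap ℚ (AlgebraicClosure ℚ)) (Rat.mul_den_eq_num q)
    rw [hc] at h5
    simp only [map_mul, map_natCast, map_intCast, Nat.cast_mul] at h5
    show ((q.num : ℤ) : AlgebraicClosure ℚ) = _
    rw [← h5]
    push_cast
    ring
  have : (q.num : A) ∈ maximalIdeal A := by
    rw [hnumeq]
    exact Ideal.mul_mem_left _ _ hpm
  exact (IsLocalRing.mem_maximalIdeal _).mp this hu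

/-- **Generator criterion over `ℤ_(p)`**, ready to use: `A` a valuation subring of `ℚ̄` over the
prime `p`, `f j` finitely many `G_ℚ`-equivariant `A`-valued functions on the finite `G_ℚ`-module
`M` separating its points, with `(x, y) ↦ f j (x + y)` in `pairRing A f` (use
`mem_pairRing_of_local` or `div_mem_pairRing`). The conclusion is the condition of the prelude
(`GaloisRepAdic.IsFlatAt`, frozen S19) for the group `M`. -/
theorem flat_of_generators {ι : Type} [Finite ι] (p : ℕ) (hp : p.Prime)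
    {M : Type} [AddCommGroup M] [Finite M]
    (A : ValuationSubring (AlgebraicClosure ℚ)) (hA : A.LiesOverPrime p)
    (act : GalQ → M → M) (f : ι → M → AlgebraicClosure ℚ)
    (act_add : ∀ σ x y, act σ (x + y) = act σ x + act σ y)
    (act_inj : ∀ σ, Function.Injective (act σ))
    (equivariant : ∀ j σ x, f j (act σ x) = σ (f j x))
    (integral : ∀ j x, f j x ∈ A)
    (separates : ∀ x y, x ≠ y → ∃ j, f j x ≠ f j y)
    (comul : ∀ j, (fun q : M × M => f j (q.1 + q.2)) ∈ pairRing A.toSubring f) :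
    ∃ (H' : Type) (_ : CommRing H') (_ : HopfAlgebra (GaloisRep.ratLocalizedAt p) H'),
      Module.Finite (GaloisRep.ratLocalizedAt p) H' ∧
      Module.Flat (GaloisRep.ratLocalizedAt p) H' ∧
      Coalgebra.IsCocomm (GaloisRep.ratLocalizedAt p) H' ∧
      ∃ e : WithConv (H' →ₐ[GaloisRep.ratLocalizedAt p] AlgebraicClosure ℚ) ≃ M,
        (∀ f g : WithConv (H' →ₐ[GaloisRep.ratLocalizedAt p] AlgebraicClosure ℚ),
          e (f * g) = e f + e g) ∧
        ∀ (σ : AlgebraicClosure ℚ ≃ₐ[ℚ] AlgebraicClosure ℚ)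
          (f g : WithConv (H' →ₐ[GaloisRep.ratLocalizedAt p] AlgebraicClosure ℚ)),
          (∀ h : H', g h = σ (f h)) → e g = act σ (e f) :=
  flat_of_genData p act f
    { act_add := act_add
      act_inj := act_inj
      equivariant := equivariant
      integral := integral
      separates := separates
      base := base_of_liesOver A p hA
      fixed := fixed_of_liesOver A p hp hA
      comul := comul }

end ConcreteGen

end Fermat.Agent.Lib.HopfOrder

end
-- ==== END Fermat.Agent.Lib.HopfOrderGen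

-- ==== BEGIN Fermat.Agent.R.Flat.H54_ClosurePi
section

/-!
# Flat closure (cluster R, helper54): `Stmt_FlatPi`
-/

set_option autoImplicit false

namespace Fermat.Agent.R.H54

/-- **Flatness passes to finite products.** -/
theorem stmt_FlatPi : Stmt_FlatPi := by
  intro p _ r M _ act h
  exact absFlat_pi r M act h

end Fermat.Agent.R.H54

end
-- ==== END Fermat.Agent.R.Flat.H54_ClosurePi

-- ==== BEGIN Fermat.Agent.R.H2_SepTcFinal
section

/-!
# Cluster R (helper2): `Stmt_SepTc`, unconditional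

`Stmt_HeckeReduced` is proved in `Fermat/Agent/R/H58_HeckeReduced.lean` (helper58).
-/

set_option autoImplicit false

namespace Fermat.Agent.R.H2

/-- **`Stmt_SepTc`**, unconditional. -/
theorem stmt_SepTc_final : Fermat.Agent.R.Stmt_SepTc :=
  stmt_SepTc Fermat.Agent.R.H58.stmt_HeckeReduced

end Fermat.Agent.R.H2

end
-- ==== END Fermat.Agent.R.H2_SepTcFinal

-- ==== BEGIN Fermat.Agent.S15.Desc.H69_LinAlg
section

/-!
# S15 / DESC: small linear algebra used by BASE and ASM (helper69)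

* `finrank_eq_map_add_inf_ker` : rank–nullity for a subspace and a linear map.
* `finrank_le_one_of_pairwise_dep` : a finite-dimensional subspace in which any two vectors are
  linearly dependent has dimension `≤ 1`.
* `finrank_le_two_of_pairwise_dep_mod` : the same modulo a line.
-/

set_option autoImplicit false

namespace Fermat.Agent.S15.Desc

open Module

section

variable {K E E' : Type*} [Field K] [AddCommGroup E] [Module K E] [AddCommGroup E'] [Module K E']

theorem finrank_eq_map_add_inf_ker (T : Submodule K E) [Module.Finite K T] (f : E →ₗ[K] E') :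
    finrank K T = finrank K ↥(T.map f) + finrank K ↥(T ⊓ LinearMap.ker f) := by
  have hrn := LinearMap.finrank_range_add_finrank_ker (f.domRestrict T)
  have hr1 : LinearMap.range (f.domRestrict T) = T.map f := by
    ext u
    simp only [LinearMap.mem_range, Submodule.mem_map, LinearMap.domRestrict_apply,
      Subtype.exists, exists_prop]
  have hk1 : finrank K ↥(LinearMap.ker (f.domRestrict T)) = finrank K ↥(T ⊓ LinearMap.ker f) := by
    have hmap : (LinearMap.ker (f.domRestrict T)).map T.subtype = T ⊓ LinearMap.ker f := by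
      ext z
      simp only [Submodule.mem_map, LinearMap.mem_ker, LinearMap.domRestrict_apply,
        Submodule.subtype_apply, Subtype.exists, exists_and_right, exists_eq_right,
        Submodule.mem_inf]
      constructor
      · rintro ⟨hz, h0⟩
        exact ⟨hz, h0⟩
      · rintro ⟨hz, h0⟩
        exact ⟨hz, h0⟩
    rw [← hmap]
    exact (LinearEquiv.finrank_eq
      (Submodule.equivMapOfInjective T.subtype T.injective_subtype _))
  rw [hr1] at hrn
  omega

theorem finrank_le_one_of_pairwise_dep (T : Submodule K E) [Module.Finite K T]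
    (h : ∀ u₁ ∈ T, ∀ u₂ ∈ T, ∃ c₁ c₂ : K, (c₁ ≠ 0 ∨ c₂ ≠ 0) ∧ c₁ • u₁ + c₂ • u₂ = 0) :
    finrank K T ≤ 1 := by
  by_cases hT : ∀ v ∈ T, v = 0
  · have : T = ⊥ := by
      rw [eq_bot_iff]
      intro x hx
      rw [Submodule.mem_bot]
      exact hT x hx
    subst this
    simp
  · simp only [not_forall] at hT
    obtain ⟨v, hvT, hv0⟩ := hT
    rw [finrank_le_one_iff]
    refine ⟨⟨v, hvT⟩, fun w => ?_⟩
    obtain ⟨c₁, c₂, hc, hcomb⟩ := h v hvT w.1 w.2
    have hc₂ : c₂ ≠ 0 := by
      intro h0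
      rw [h0, zero_smul, add_zero] at hcomb
      rcases hc with hc | hc
      · rcases smul_eq_zero.mp hcomb with h1 | h1
        · exact hc h1
        · exact hv0 h1
      · exact hc h0
    refine ⟨-(c₂⁻¹ * c₁), Subtype.ext ?_⟩
    show (-(c₂⁻¹ * c₁)) • v = w.1
    have h2 : c₂ • w.1 = -(c₁ • v) := by
      rw [eq_neg_iff_add_eq_zero, add_comm]
      exact hcomb
    have h3 : w.1 = c₂⁻¹ • (c₂ • w.1) := by
      rw [smul_smul, inv_mul_cancel₀ hc₂, one_smul]
    rw [h3, h2, smul_neg, smul_smul, neg_smul]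

theorem finrank_le_two_of_pairwise_dep_mod (T : Submodule K E) [Module.Finite K T] (u₀ : E)
    (h : ∀ u₁ ∈ T, ∀ u₂ ∈ T, ∃ c₁ c₂ j : K, (c₁ ≠ 0 ∨ c₂ ≠ 0) ∧ c₁ • u₁ + c₂ • u₂ = j • u₀) :
    finrank K T ≤ 2 := by
  set L : Submodule K E := Submodule.span K {u₀} with hL
  have hrn := finrank_eq_map_add_inf_ker T L.mkQ
  have h1 : finrank K ↥(T.map L.mkQ) ≤ 1 := by
    refine finrank_le_one_of_pairwise_dep _ ?_
    rintro _ ⟨u₁, hu₁, rfl⟩ _ ⟨u₂, hu₂, rfl⟩
    obtain ⟨c₁, c₂, j, hc, hcomb⟩ := h u₁ hu₁ u₂ hu₂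
    refine ⟨c₁, c₂, hc, ?_⟩
    rw [← map_smul, ← map_smul, ← map_add, hcomb]
    rw [Submodule.mkQ_apply, Submodule.Quotient.mk_eq_zero]
    exact Submodule.smul_mem _ _ (Submodule.mem_span_singleton_self u₀)
  have h2 : finrank K ↥(T ⊓ LinearMap.ker L.mkQ) ≤ 1 := by
    rw [Submodule.ker_mkQ]
    have hle : T ⊓ L ≤ L := inf_le_right
    have h3 : finrank K ↥(T ⊓ L) ≤ finrank K ↥L := Submodule.finrank_mono hle
    have h4 : finrank K ↥L ≤ 1 := by
      rw [hL]
      have h5 := finrank_span_finset_le_card (R := K) ({u₀} : Finset E)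
      rw [Finset.card_singleton, Set.finrank, Finset.coe_singleton] at h5
      exact h5
    exact h3.trans h4
  omega

end

end Fermat.Agent.S15.Desc

end
-- ==== END Fermat.Agent.S15.Desc.H69_LinAlg

-- ==== BEGIN Fermat.Agent.S15.Desc.H97_GlobVal
section

set_option autoImplicit false

namespace Fermat.Agent.S15.Desc.H97

local notation "Qbar" => AlgebraicClosure ℚ
local notation "GQ" => (AlgebraicClosure ℚ ≃ₐ[ℚ] AlgebraicClosure ℚ)

section val

variable (A : ValuationSubring Qbar) {ℓ : ℕ} (hℓ : ℓ.Prime) (hA : A.LiesOverPrime ℓ)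

include hA in
lemma valuation_prime_lt_one : A.valuation (ℓ : Qbar) < 1 :=
  A.mem_nonunits_iff.1 hA

include hℓ in
lemma valuation_prime_ne_zero : A.valuation (ℓ : Qbar) ≠ 0 :=
  (Valuation.ne_zero_iff _).2 (by exact_mod_cast hℓ.ne_zero)

include hℓ hA

lemma valuation_natCast_eq_pow (n : ℕ) (hn : n ≠ 0) :
    A.valuation (n : Qbar) = A.valuation (ℓ : Qbar) ^ (padicValNat ℓ n) := by
  have h1 := Nat.ordProj_mul_ordCompl_eq_self n ℓ
  have h2 : ¬ ℓ ∣ n / ℓ ^ n.factorization ℓ := Nat.not_dvd_ordCompl hℓ hn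
  have h3 : n.factorization ℓ = padicValNat ℓ n := Nat.factorization_def n hℓ
  rw [h3] at h1 h2
  obtain ⟨m, hm⟩ : ∃ m : ℕ, m = n / ℓ ^ padicValNat ℓ n := ⟨_, rfl⟩
  rw [← hm] at h1 h2
  have h4 : A.valuation (m : Qbar) = 1 := by
    have := Fermat.Agent.S05.H15.valuation_intCast_eq_one_of_not_dvd (A := A) hℓ hA
      (n := (m : ℤ)) (fun h => h2 (Int.natCast_dvd_natCast.1 h))
    simpa using this
  calc A.valuation (n : Qbar)
      = A.valuation (((ℓ ^ padicValNat ℓ n * m : ℕ)) : Qbar) := by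
        rw [h1]
    _ = A.valuation (ℓ : Qbar) ^ (padicValNat ℓ n) := by
        rw [Nat.cast_mul, map_mul, h4, mul_one, Nat.cast_pow, map_pow]

lemma valuation_intCast_eq_pow (n : ℤ) (hn : n ≠ 0) :
    A.valuation (n : Qbar) = A.valuation (ℓ : Qbar) ^ (padicValInt ℓ n) := by
  have h1 : A.valuation (n : Qbar) = A.valuation ((n.natAbs : ℕ) : Qbar) := by
    rcases Int.natAbs_eq n with h | h
    · conv_lhs => rw [h]
      simp
    · conv_lhs => rw [h]
      simp
  rw [h1, valuation_natCast_eq_pow A hℓ hA n.natAbs (Int.natAbs_ne_zero.2 hn)]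
  rfl

/-- `|a|_A = |ℓ|_A ^ v_ℓ(a)` for a nonzero rational number `a`. -/
theorem valuation_ratCast_eq_zpow (a : ℚ) (ha : a ≠ 0) :
    A.valuation (algebraMap ℚ Qbar a) = A.valuation (ℓ : Qbar) ^ (padicValRat ℓ a) := by
  have hnum : a.num ≠ 0 := Rat.num_ne_zero.2 ha
  have hden : a.den ≠ 0 := a.den_ne_zero
  have e : algebraMap ℚ Qbar a = (a.num : Qbar) / (a.den : Qbar) := by
    conv_lhs => rw [← Rat.num_div_den a]
    rw [map_div₀]
    simp
  rw [e, map_div₀, valuation_intCast_eq_pow A hℓ hA a.num hnum,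
    valuation_natCast_eq_pow A hℓ hA a.den hden]
  have hdef : padicValRat ℓ a = (padicValInt ℓ a.num : ℤ) - (padicValNat ℓ a.den : ℤ) := rfl
  rw [hdef, zpow_sub₀ (valuation_prime_ne_zero A hℓ), zpow_natCast, zpow_natCast]

/-- `k ↦ |ℓ|_A ^ k` is injective. -/
theorem zpow_valuation_injective {m n : ℤ}
    (h : A.valuation (ℓ : Qbar) ^ m = A.valuation (ℓ : Qbar) ^ n) : m = n := by
  have h0 : 0 < A.valuation (ℓ : Qbar) :=
    lt_of_le_of_ne zero_le (Ne.symm (valuation_prime_ne_zero A hℓ))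
  exact (zpow_right_strictAnti₀ h0 (valuation_prime_lt_one A hA)).injective h

/-- **Kummer valuation**: if inertia at `ℓ ≠ r` fixes an `r`-th root `γ` of `a ∈ ℚˣ`, then
`r ∣ v_ℓ(a)`. -/
theorem kummer_val {r : ℕ} (hr : r.Prime) (hℓr : ℓ ≠ r) (a : ℚ) (ha : a ≠ 0) (γ : Qbar)
    (hγ : γ ^ r = algebraMap ℚ Qbar a)
    (hfix : ∀ σ ∈ A.inertiaSubgroupIn ℚ, σ γ = γ) : (r : ℤ) ∣ padicValRat ℓ a := by
  have hγ0 : γ ≠ 0 := by
    rintro rfl
    rw [zero_pow hr.ne_zero] at hγ
    exact ha ((map_eq_zero (algebraMap ℚ Qbar)).1 hγ.symm)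
  -- the set of conjugates
  set S : Set Qbar := {x | x ^ r = algebraMap ℚ Qbar a} with hS
  have hSfin : S.Finite := by
    have hne : (Polynomial.X ^ r - Polynomial.C (algebraMap ℚ Qbar a) : Polynomial Qbar) ≠ 0 :=
      Polynomial.X_pow_sub_C_ne_zero hr.pos _
    refine Set.Finite.subset (Polynomial.finite_setOfPred_isRoot hne) ?_
    intro x hx
    have hx' : x ^ r = algebraMap ℚ Qbar a := hx
    show Polynomial.IsRoot _ x
    simp [hx']
  have hstab : ∀ σ : GQ, ∀ x ∈ S, σ x ∈ S := by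
    intro σ x hx
    have hx' : x ^ r = algebraMap ℚ Qbar a := hx
    show (σ x) ^ r = algebraMap ℚ Qbar a
    rw [← map_pow, hx', AlgEquiv.commutes]
  have hcop : r.Coprime ℓ := (Nat.coprime_primes hr hℓ).2 (Ne.symm hℓr)
  have hfixS : ∀ σ ∈ A.inertiaSubgroupIn ℚ, ∀ x ∈ S, σ x = x := by
    intro σ hσ x hx
    have hx' : x ^ r = algebraMap ℚ Qbar a := hx
    have hζ : (x / γ) ^ r = 1 := by
      rw [div_pow, hx', hγ]
      exact div_self ((map_ne_zero (algebraMap ℚ Qbar)).2 ha)
    have h1 : σ (x / γ) = x / γ :=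
      Fermat.Agent.S52.H97.inertia_fixes_root A hA hℓ.ne_one σ hσ hcop hζ
    have h2 : x = (x / γ) * γ := by field_simp
    rw [h2, map_mul, h1, hfix σ hσ]
  obtain ⟨k, hk⟩ := Fermat.Agent.Lib.UnramVal.valuation_eq_zpow_of_finite ℓ hℓ A hA S hSfin
    hstab hfixS γ hγ hγ0
  have h3 : A.valuation (algebraMap ℚ Qbar a) = A.valuation (ℓ : Qbar) ^ (k * r) := by
    rw [← hγ, map_pow, hk, zpow_mul, zpow_natCast]
  rw [valuation_ratCast_eq_zpow A hℓ hA a ha] at h3
  have h4 := zpow_valuation_injective A hℓ hA h3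
  exact ⟨k, by rw [h4]; ring⟩

end val

end Fermat.Agent.S15.Desc.H97

end
-- ==== END Fermat.Agent.S15.Desc.H97_GlobVal
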