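-- GENERATED (merged mirror, NOTES/tools/trim/merge3_helper67.py): 6 modules of the originals, bodies verbatim.
import Fermat.Prelude.Def_ModularCurve_ArithmeticGalois
import Fermat.Prelude.Def_GaloisRep_Flat
import Fermat.Agent.Zm.S33_L01_003
import Fermat.Agent.Zm.S56_L02_000
import Fermat.Agent.Zm.S35_L03_001
import Fermat.Agent.Zm.S56_L02_004
import Fermat.Agent.S17.Wiring
import Fermat.Agent.S17.Height.H35_Trace
import Fermat.Agent.S17.OpenStabAbstract
import Fermat.Agent.Zm.S33_L01_002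
import Fermat.Agent.Zm.S33_L01_004
import Fermat.Agent.Zm.S35_L02_001
import Fermat.Agent.Zm.S35_L03_002
import Fermat.Agent.Zm.S56_L06_000
import Fermat.Agent.Zm.S56_L01_000
import Fermat.Agent.Zm.S35_L03_005

-- ==== BEGIN Fermat.Agent.S15.Desc.H97_GlobTame
section

set_option autoImplicit false

open scoped Pointwise NumberField

namespace Fermat.Agent.S15.Desc.H97

open Fermat.Agent.Lib.Minkowski (primeBelow mem_primeBelow primeBelow_isPrime
  natCast_mem_primeBelow val_algebraMap_le_one liftStmt)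
open Fermat.Agent.S56.H9 (wild exists_generator_mod_wild smul_eq_of_mem_wild_of_coprime)

local notation "Qbar" => AlgebraicClosure ℚ
local notation "GQ" => (AlgebraicClosure ℚ ≃ₐ[ℚ] AlgebraicClosure ℚ)

attribute [local instance] _root_.Fermat.Agent.S15.Desc.H97.qbar_isAlgebraic _root_.Fermat.Agent.S15.Desc.H97.qbar_isAlgClosure _root_.Fermat.Agent.S15.Desc.H97.qbar_isGalois

section finite_level

variable (L : IntermediateField ℚ Qbar)

/-- `Gal(L/ℚ)` acts faithfully on `𝓞 L`. -/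
theorem eq_one_of_smul_int [FiniteDimensional ℚ L] (w : L ≃ₐ[ℚ] L)
    (h : ∀ x : 𝓞 L, w • x = x) : w = 1 := by
  have hNF : NumberField L := ⟨⟩
  apply AlgEquiv.ext
  intro y
  obtain ⟨a, b, hb, rfl⟩ := IsFractionRing.div_surjective (A := 𝓞 L) y
  have ha := congrArg (fun z : 𝓞 L => (z : L)) (h a)
  have hb' := congrArg (fun z : 𝓞 L => (z : L)) (h b)
  have e1 : w (algebraMap (𝓞 L) L a) = algebraMap (𝓞 L) L a := ha
  have e2 : w (algebraMap (𝓞 L) L b) = algebraMap (𝓞 L) L b := hb'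
  rw [map_div₀, e1, e2]
  rfl

variable [Normal ℚ L]

/-- The restriction of an inertia element lies in the inertia group at finite level. -/
theorem res_mem_inertia (A : ValuationSubring Qbar) (σ : GQ) (hσ : σ ∈ A.inertiaSubgroupIn ℚ) :
    AlgEquiv.restrictNormalHom L σ ∈ (primeBelow L A).inertia (L ≃ₐ[ℚ] L) := by
  intro b
  show (AlgEquiv.restrictNormalHom L σ) • b - b ∈ primeBelow L A
  rw [mem_primeBelow, map_sub]
  have h2 : algebraMap (𝓞 L) Qbar ((AlgEquiv.restrictNormalHom L σ) • b)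
      = σ (algebraMap (𝓞 L) Qbar b) := by
    show (((AlgEquiv.restrictNormalHom L σ) (b : L) : L) : Qbar) = σ ((b : L) : Qbar)
    exact AlgEquiv.restrictNormal_commutes σ L (b : L)
  rw [h2]
  exact ((Fermat.Agent.Lib.InertiaBridge.mem_inertiaSubgroupIn_iff_forall A σ).1 hσ).2 _
    ((A.valuation_le_one_iff _).1 (val_algebraMap_le_one L A b))

/-- Inertia elements at finite level lift to inertia elements of `Gal(ℚ̄/ℚ)`. -/
theorem lift_inertia (p : ℕ) (hp : p.Prime) (A : ValuationSubring Qbar)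
    (hA : A.LiesOverPrime p) (τ : L ≃ₐ[ℚ] L)
    (hτ : τ ∈ (primeBelow L A).inertia (L ≃ₐ[ℚ] L)) :
    ∃ σ ∈ A.inertiaSubgroupIn ℚ, AlgEquiv.restrictNormalHom L σ = τ := by
  obtain ⟨σ₀, hσ₀⟩ := AlgEquiv.restrictNormalHom_surjective (F := ℚ) (K₁ := L) Qbar τ
  have hcomm : ∀ x : L, ((τ x : L) : Qbar) = σ₀ (x : Qbar) := by
    intro x
    rw [← hσ₀]
    exact AlgEquiv.restrictNormal_commutes σ₀ L x
  have key : ∀ x : Qbar, x ∈ L → IsIntegral ℤ x → σ₀ x - x ∈ A.nonunits := by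
    intro x hxL hxint
    have hxint' : IsIntegral ℤ (⟨x, hxL⟩ : L) := by
      rw [← isIntegral_algebraMap_iff (FaithfulSMul.algebraMap_injective L Qbar)]
      exact hxint
    let b : 𝓞 L := ⟨⟨x, hxL⟩, hxint'⟩
    have h1 : τ • b - b ∈ primeBelow L A := hτ b
    rw [mem_primeBelow, map_sub] at h1
    have h2 : algebraMap (𝓞 L) Qbar (τ • b) = σ₀ x := by
      have h3 : algebraMap (𝓞 L) Qbar (τ • b) = ((τ (⟨x, hxL⟩ : L) : L) : Qbar) := rfl
      rw [h3, hcomm]
    have h4 : algebraMap (𝓞 L) Qbar b = x := rfl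
    rw [h2, h4] at h1
    exact A.mem_nonunits_iff.mpr h1
  obtain ⟨σ, hσ, hσeq⟩ := liftStmt p hp A hA L σ₀ key
  refine ⟨σ, hσ, ?_⟩
  apply AlgEquiv.ext
  intro x
  apply Subtype.ext
  rw [hcomm, ← hσeq x x.2]
  exact AlgEquiv.restrictNormal_commutes σ L x

omit [Normal ℚ L] in
/-- Wild elements have `p`-power order. -/
theorem wild_pow_eq_one [FiniteDimensional ℚ L] (p : ℕ) (hp : p.Prime) (A : ValuationSubring Qbar)
    (hA : A.LiesOverPrime p) (w : L ≃ₐ[ℚ] L)
    (hw : w ∈ wild (primeBelow L A) (L ≃ₐ[ℚ] L)) : ∃ a : ℕ, w ^ (p ^ a) = 1 := by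
  have hNF : NumberField L := ⟨⟩
  have hprime := primeBelow_isPrime L A
  have hm0 : orderOf w ≠ 0 := (orderOf_pos w).ne'
  obtain ⟨a, m', hm', hm⟩ := Nat.exists_eq_pow_mul_and_not_dvd hm0 p hp.ne_one
  refine ⟨a, ?_⟩
  have hw' : w ^ (p ^ a) ∈ wild (primeBelow L A) (L ≃ₐ[ℚ] L) := pow_mem hw _
  have hcop : m'.Coprime p := (Nat.Coprime.symm ((Nat.Prime.coprime_iff_not_dvd hp).2 hm'))
  have hpow : (w ^ (p ^ a)) ^ m' = 1 := by
    rw [← pow_mul, ← hm, pow_orderOf_eq_one]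
  apply eq_one_of_smul_int L
  intro x
  exact smul_eq_of_mem_wild_of_coprime (primeBelow L A) hprime.ne_top
    (natCast_mem_primeBelow L A p hA) hw' hcop (fun y => by rw [hpow, one_smul]) x

omit [Normal ℚ L] in
/-- Tame inertia at finite level is cyclic modulo elements of `p`-power order. -/
theorem tame_cyclic_finite [FiniteDimensional ℚ L] (p : ℕ) (hp : p.Prime) (A : ValuationSubring Qbar)
    (hA : A.LiesOverPrime p) :
    ∃ τ₀ ∈ (primeBelow L A).inertia (L ≃ₐ[ℚ] L),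
      ∀ τ ∈ (primeBelow L A).inertia (L ≃ₐ[ℚ] L), ∃ k a : ℕ, ((τ₀ ^ k)⁻¹ * τ) ^ (p ^ a) = 1 := by
  have hNF : NumberField L := ⟨⟩
  have hprime := primeBelow_isPrime L A
  have hbot : primeBelow L A ≠ ⊥ := by
    intro h
    have h1 : (p : 𝓞 L) ∈ primeBelow L A := natCast_mem_primeBelow L A p hA
    rw [h, Ideal.mem_bot] at h1
    exact hp.ne_zero (by exact_mod_cast h1)
  obtain ⟨τ₀, hτ₀, hgen⟩ := exists_generator_mod_wild hbot
    ((primeBelow L A).inertia (L ≃ₐ[ℚ] L)) le_rfl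
  refine ⟨τ₀, hτ₀, fun τ hτ => ?_⟩
  obtain ⟨k, hk⟩ := hgen τ hτ
  obtain ⟨a, ha⟩ := wild_pow_eq_one L p hp A hA _ hk
  exact ⟨k, a, ha⟩

end finite_level

/-- **Tame inertia is cyclic**: the image of inertia at `p` under an open homomorphism to a group
of exponent prime to `p` is cyclic. -/
theorem tame_cyclic (p : ℕ) (hp : p.Prime) (A : ValuationSubring Qbar) (hA : A.LiesOverPrime p)
    {T : Type*} [Group T] (Ψ : GQ →* T)
    (hopen : ∃ S : Finset Qbar, ∀ σ : GQ, (∀ x ∈ S, σ x = x) → Ψ σ = 1)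
    (n : ℕ) (hn : n.Coprime p) (hT : ∀ σ, Ψ σ ^ n = 1) :
    ∃ σ₀ ∈ A.inertiaSubgroupIn ℚ, ∀ σ ∈ A.inertiaSubgroupIn ℚ, ∃ k : ℕ, Ψ σ = Ψ σ₀ ^ k := by
  classical
  obtain ⟨S, hS⟩ := hopen
  let F : IntermediateField ℚ Qbar := IntermediateField.adjoin ℚ (S : Set Qbar)
  have hFD : FiniteDimensional ℚ F :=
    IntermediateField.finiteDimensional_adjoin (fun x _ => Algebra.IsIntegral.isIntegral x)
  let L : IntermediateField ℚ Qbar := IntermediateField.normalClosure ℚ F Qbar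
  have hLn : Normal ℚ L := normalClosure.normal ℚ F Qbar
  have hLfd : FiniteDimensional ℚ L := normalClosure.is_finiteDimensional ℚ F Qbar
  have hFL : F ≤ L := IntermediateField.le_normalClosure F
  have hker : ∀ σ : GQ, AlgEquiv.restrictNormalHom L σ = 1 → Ψ σ = 1 := by
    intro σ hσ
    apply hS
    intro x hx
    have hxL : x ∈ L := hFL (IntermediateField.subset_adjoin ℚ _ hx)
    have h1 := AlgEquiv.restrictNormal_commutes σ L ⟨x, hxL⟩
    have h2 : AlgEquiv.restrictNormal σ L = 1 := hσ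
    rw [h2] at h1
    exact h1.symm
  obtain ⟨τ₀, hτ₀, hgen⟩ := tame_cyclic_finite L p hp A hA
  obtain ⟨σ₀, hσ₀, hres₀⟩ := lift_inertia L p hp A hA τ₀ hτ₀
  refine ⟨σ₀, hσ₀, fun σ hσ => ?_⟩
  obtain ⟨k, a, hka⟩ := hgen _ (res_mem_inertia L A σ hσ)
  refine ⟨k, ?_⟩
  set u : GQ := (σ₀ ^ k)⁻¹ * σ with hu
  have hresu : AlgEquiv.restrictNormalHom L (u ^ (p ^ a)) = 1 := by
    rw [map_pow, hu, map_mul, map_inv, map_pow, hres₀]
    exact hka
  have h1 : Ψ u ^ (p ^ a) = 1 := by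
    rw [← map_pow]
    exact hker _ hresu
  have h2 : Ψ u ^ n = 1 := hT u
  have h3 : orderOf (Ψ u) ∣ Nat.gcd (p ^ a) n :=
    Nat.dvd_gcd (orderOf_dvd_of_pow_eq_one h1) (orderOf_dvd_of_pow_eq_one h2)
  have h4 : Nat.gcd (p ^ a) n = 1 := Nat.Coprime.pow_left a (Nat.Coprime.symm hn)
  rw [h4, Nat.dvd_one, orderOf_eq_one_iff] at h3
  have h5 : Ψ σ = Ψ (σ₀ ^ k) * Ψ u := by
    rw [← map_mul, hu, mul_inv_cancel_left]
  rw [h5, h3, mul_one, map_pow]

end Fermat.Agent.S15.Desc.H97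

end
-- ==== END Fermat.Agent.S15.Desc.H97_GlobTame

-- ==== BEGIN Fermat.Agent.S17.Height.H16_DescStmt
section

/-!
# S17, part H: Galois descent for subspaces of `ℚ̄ⁿ` (statement)

`Stmt_DescLin`: a subspace `W` of `ℚ̄ⁿ` which is stable under the coordinatewise action of
`Gal(ℚ̄/ℚ)` has a basis of rational vectors: there is a rational `r × n` matrix `B` with a nonzero
`r × r` minor whose rows span `W` over `ℚ̄`.

(Proof sketch: let `W₀` be the `ℚ̄`-span of `W ∩ ℚⁿ`; choose a rational basis of `W₀` in reduced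
form (`B_J = 1` for a set `J` of pivot columns).  If `w ∈ W`, then `w̃ = w - ∑_{p ∈ J} w_p b_p ∈ W`
vanishes on `J`; if `w̃ ≠ 0` take such a `w̃ ∈ W`, vanishing on `J`, nonzero, with minimal support,
and normalise one coordinate to `1`; then `σ w̃ - w̃ ∈ W` vanishes on `J` and has smaller support,
so it is `0`; hence `w̃` is rational (`ℚ̄^G = ℚ`), `w̃ ∈ W₀`, and `w̃ = 0` since it vanishes on `J`:
contradiction.)
-/

set_option autoImplicit false

open Matrix

namespace Fermat.Agent.S17.H16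

open Fermat.Agent.S17.H35

/-- Galois descent for subspaces of `ℚ̄ⁿ`. -/
def Stmt_DescLin : Prop :=
  ∀ (n : ℕ) (W : Submodule Qbar (Fin n → Qbar)),
    (∀ (σ : GQ) (w : Fin n → Qbar), w ∈ W → (fun i => σ (w i)) ∈ W) →
    ∃ (r : ℕ) (B : Matrix (Fin r) (Fin n) ℚ),
      (∃ J : Fin r → Fin n, (B.submatrix id J).det ≠ 0) ∧
      Submodule.span Qbar (Set.range fun i : Fin r => fun j => (algebraMap ℚ Qbar) (B i j)) = W

end Fermat.Agent.S17.H16

end
-- ==== END Fermat.Agent.S17.Height.H16_DescStmt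

-- ==== BEGIN Fermat.Agent.S17.Height.H35_MoveD
section

/-!
# S17 part H, package MOVE-D (helper35): rational structure on `L(D)` for an invariant class

Abstract setting: `F / K` a function field (`Hyp K F`), a group `G` acting semilinearly through
`ρ : G →* SemilinearAut K F`, a multiplicative "leading coefficient" `lc : F → K` compatible with
`ρ` (this is the rational point `∞`), and a divisor `D₁` whose class is `G`-invariant.

* `cocycle ρ lcd hD σ`: the unique function with divisor `σ D₁ - D₁` and leading coefficient `1`;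
  `cocycle_mul`: it is a cocycle (the rational point kills the Brauer obstruction).
* `twist`: the twisted semilinear action `f ↦ cocycle σ * σ f`, which preserves `L(D₁ + E)` for
  every `G`-stable divisor `E`.
* `smul_divisor_eq_of_twist_fixed`: if `f ≠ 0` is fixed by the twisted action then the divisor
  `div f + D₁ + E` is `G`-stable.
* `mem_span_twist_fixed`: every `f : F` is a `K`-linear combination of fixed vectors
  (descent by traces).
-/

set_option autoImplicit false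

noncomputable section

open AlgebraicCurve

namespace Fermat.Agent.S17.H35

open Fermat.Agent.RED.H42 Fermat.Agent.S17

variable {K F : Type*} [Field K] [Field F] [Algebra K F]
variable {G : Type*} [Group G] (ρ : G →* SemilinearAut K F)

local notation "L" => riemannRochSpace

/-- A leading coefficient: multiplicative, normalised on constants, compatible with `ρ`. -/
structure LeadCoeff where
  /-- the leading coefficient -/
  lc : F → K
  lc_mul : ∀ f g : F, lc (f * g) = lc f * lc g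
  lc_algebraMap : ∀ c : K, lc (algebraMap K F c) = c
  lc_smul : ∀ (σ : G) (f : F), lc (ρ σ • f) = SemilinearAut.baseAut (ρ σ) (lc f)
  lc_ne_zero : ∀ f : F, f ≠ 0 → lc f ≠ 0

variable {ρ}

namespace LeadCoeff

variable (lcd : LeadCoeff ρ)

theorem lc_one : lcd.lc 1 = 1 := by
  have := lcd.lc_algebraMap 1
  rwa [map_one] at this

theorem lc_inv {f : F} (hf : f ≠ 0) : lcd.lc f⁻¹ = (lcd.lc f)⁻¹ := by
  have h := lcd.lc_mul f f⁻¹
  rw [mul_inv_cancel₀ hf, lcd.lc_one] at h
  exact eq_inv_of_mul_eq_one_right h.symm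

end LeadCoeff

/-- Two nonzero functions with the same divisor and the same leading coefficient are equal. -/
theorem eq_of_ord_eq_of_lc_eq (H : Hyp K F) (lcd : LeadCoeff ρ) {f g : F} (hf : f ≠ 0)
    (hg : g ≠ 0) (hord : ∀ v : Place K F, v.ord f = v.ord g) (hlc : lcd.lc f = lcd.lc g) :
    f = g := by
  have hh : f * g⁻¹ ≠ 0 := mul_ne_zero hf (inv_ne_zero hg)
  have hrange : f * g⁻¹ ∈ Set.range (algebraMap K F) := by
    by_contra hcon
    obtain ⟨v, hv⟩ := H.exists_pole _ hcon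
    rw [v.ord_mul hf (inv_ne_zero hg), v.ord_inv, hord v] at hv
    omega
  obtain ⟨c, hc⟩ := hrange
  have h1 : lcd.lc (f * g⁻¹) = 1 := by
    rw [lcd.lc_mul, lcd.lc_inv hg, hlc, mul_inv_cancel₀ (lcd.lc_ne_zero g hg)]
  rw [← hc, lcd.lc_algebraMap] at h1
  rw [h1, map_one] at hc
  have : f = f * g⁻¹ * g := by field_simp
  rw [this, ← hc, one_mul]

/-- The order of `σ f` at `v` is the order of `f` at `σ⁻¹ v`. -/
theorem ord_smul' (g : SemilinearAut K F) (v : Place K F) (f : F) :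
    v.ord (g • f) = (g⁻¹ • v).ord f := by
  have h := SemilinearAut.ord_smul g (g⁻¹ • v) f
  rwa [smul_inv_smul] at h

/-- The class of `D₁` is invariant: `σ D₁ - D₁` is principal for every `σ`. -/
def ClassInvariant (ρ : G →* SemilinearAut K F) (D₁ : Divisor K F) : Prop :=
  ∀ σ : G, ∃ f : F, f ≠ 0 ∧ ∀ v : Place K F, v.ord f = (ρ σ • D₁) v - D₁ v

section Cocycle

variable (lcd : LeadCoeff ρ) {D₁ : Divisor K F} (hD : ClassInvariant ρ D₁)

/-- The normalised function with divisor `σ D₁ - D₁`. -/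
def cocycle (σ : G) : F :=
  (hD σ).choose * algebraMap K F (lcd.lc (hD σ).choose)⁻¹

theorem cocycle_ne_zero (σ : G) : cocycle lcd hD σ ≠ 0 := by
  have h := (hD σ).choose_spec.1
  refine mul_ne_zero h ?_
  rw [Ne, map_eq_zero_iff _ (algebraMap K F).injective]
  exact inv_ne_zero (lcd.lc_ne_zero _ h)

theorem ord_algebraMap_of_ne (v : Place K F) {c : K} (hc : c ≠ 0) :
    v.ord (algebraMap K F c) = 0 := by
  have h1 : v.adicValuation (algebraMap K F c) ≤ 1 := v.adicValuation_algebraMap_le_one c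
  have h2 : v.adicValuation (algebraMap K F c⁻¹) ≤ 1 := v.adicValuation_algebraMap_le_one c⁻¹
  have hne : algebraMap K F c ≠ 0 := by
    rw [Ne, map_eq_zero_iff _ (algebraMap K F).injective]
    exact hc
  have hne' : algebraMap K F c⁻¹ ≠ 0 := by
    rw [Ne, map_eq_zero_iff _ (algebraMap K F).injective]
    exact inv_ne_zero hc
  rw [v.adicValuation_le_one_iff] at h1 h2
  have h3 := h1.resolve_left hne
  have h4 := h2.resolve_left hne'
  rw [map_inv₀, v.ord_inv] at h4
  omega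

theorem ord_cocycle (σ : G) (v : Place K F) :
    v.ord (cocycle lcd hD σ) = (ρ σ • D₁) v - D₁ v := by
  have h := (hD σ).choose_spec
  unfold cocycle
  have hne : algebraMap K F (lcd.lc (hD σ).choose)⁻¹ ≠ 0 := by
    rw [Ne, map_eq_zero_iff _ (algebraMap K F).injective]
    exact inv_ne_zero (lcd.lc_ne_zero _ h.1)
  rw [v.ord_mul h.1 hne, ord_algebraMap_of_ne v (inv_ne_zero (lcd.lc_ne_zero _ h.1)), add_zero]
  exact h.2 v

theorem lc_cocycle (σ : G) : lcd.lc (cocycle lcd hD σ) = 1 := by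
  unfold cocycle
  rw [lcd.lc_mul, lcd.lc_algebraMap]
  exact mul_inv_cancel₀ (lcd.lc_ne_zero _ (hD σ).choose_spec.1)

variable (H : Hyp K F)

include H in
/-- **The cocycle identity.** -/
theorem cocycle_mul (σ τ : G) :
    cocycle lcd hD (σ * τ) = cocycle lcd hD σ * (ρ σ • cocycle lcd hD τ) := by
  have hτ : ρ σ • cocycle lcd hD τ ≠ 0 := by
    rw [Ne, smul_eq_zero_iff_eq]
    exact cocycle_ne_zero lcd hD τ
  apply eq_of_ord_eq_of_lc_eq H lcd (cocycle_ne_zero lcd hD _)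
    (mul_ne_zero (cocycle_ne_zero lcd hD σ) hτ)
  · intro v
    rw [v.ord_mul (cocycle_ne_zero lcd hD σ) hτ, ord_cocycle, ord_cocycle, ord_smul',
      ord_cocycle, map_mul, mul_smul, SemilinearAut.divisor_smul_apply (ρ σ) (ρ τ • D₁) v,
      SemilinearAut.divisor_smul_apply (ρ σ) D₁ v]
    ring
  · rw [lcd.lc_mul, lcd.lc_smul, lc_cocycle, lc_cocycle, lc_cocycle, map_one, mul_one]

include H in
/-- The cocycle is trivial on the stabiliser of `D₁`. -/
theorem cocycle_eq_one {σ : G} (hσ : ρ σ • D₁ = D₁) : cocycle lcd hD σ = 1 := by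
  apply eq_of_ord_eq_of_lc_eq H lcd (cocycle_ne_zero lcd hD _) one_ne_zero
  · intro v
    rw [ord_cocycle, hσ, Place.ord_one, sub_self]
  · rw [lc_cocycle, lcd.lc_one]

/-- The twisted action. -/
def twist (σ : G) (f : F) : F := cocycle lcd hD σ * (ρ σ • f)

theorem twist_add (σ : G) (f g : F) :
    twist lcd hD σ (f + g) = twist lcd hD σ f + twist lcd hD σ g := by
  unfold twist
  rw [smul_add, mul_add]

include H in
theorem twist_mul (σ τ : G) (f : F) :
    twist lcd hD (σ * τ) f = twist lcd hD σ (twist lcd hD τ f) := by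
  unfold twist
  rw [cocycle_mul lcd hD H, map_mul, mul_smul, smul_mul', mul_assoc]

/-- The action of `G` on the constants. -/
def baseHom (ρ : G →* SemilinearAut K F) : G →* (K ≃+* K) where
  toFun σ := SemilinearAut.baseAut (ρ σ)
  map_one' := by rw [map_one]; rfl
  map_mul' σ τ := by rw [map_mul]; rfl

@[simp] theorem baseHom_apply (σ : G) (c : K) :
    baseHom ρ σ c = SemilinearAut.baseAut (ρ σ) c := rfl

theorem twist_smul (σ : G) (c : K) (f : F) :
    twist lcd hD σ (c • f) = baseHom ρ σ c • twist lcd hD σ f := by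
  unfold twist
  rw [Algebra.smul_def, Algebra.smul_def, smul_mul', SemilinearAut.smul_algebraMap, baseHom_apply]
  ring

theorem twist_ne_zero (σ : G) {f : F} (hf : f ≠ 0) : twist lcd hD σ f ≠ 0 := by
  refine mul_ne_zero (cocycle_ne_zero lcd hD σ) ?_
  rw [Ne, smul_eq_zero_iff_eq]
  exact hf

/-- The twisted action preserves `L(D₁ + E)` if `E` is `G`-stable. -/
theorem twist_mem_L {E : Divisor K F} (hE : ∀ σ : G, ρ σ • E = E) (σ : G) {f : F}
    (hf : f ∈ L (D₁ + E)) : twist lcd hD σ f ∈ L (D₁ + E) := by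
  by_cases hf0 : f = 0
  · rw [hf0]
    unfold twist
    rw [smul_zero, mul_zero]
    exact Submodule.zero_mem _
  apply mem_L_of_neg_le_ord
  intro v
  have hσf : ρ σ • f ≠ 0 := by
    rw [Ne, smul_eq_zero_iff_eq]
    exact hf0
  unfold twist
  rw [v.ord_mul (cocycle_ne_zero lcd hD σ) hσf, ord_cocycle, ord_smul']
  have h1 := neg_le_ord_of_mem hf hf0 ((ρ σ)⁻¹ • v)
  rw [Finsupp.add_apply] at h1 ⊢
  have h2 : (ρ σ • D₁) v = D₁ ((ρ σ)⁻¹ • v) := SemilinearAut.divisor_smul_apply _ _ _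
  have h3 : E v = E ((ρ σ)⁻¹ • v) := by
    conv_lhs => rw [← hE σ]
    exact SemilinearAut.divisor_smul_apply _ _ _
  omega

/-- The divisor `div f + D₁ + E` of a vector fixed by the twisted action is `G`-stable. -/
theorem smul_divisor_eq_of_twist_fixed {E : Divisor K F} (hE : ∀ σ : G, ρ σ • E = E) {f : F}
    (hf0 : f ≠ 0) (hfix : ∀ σ : G, twist lcd hD σ f = f) {A : Divisor K F}
    (hA : ∀ v : Place K F, A v = v.ord f + D₁ v + E v) (σ : G) : ρ σ • A = A := by
  ext v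
  rw [SemilinearAut.divisor_smul_apply, hA, hA]
  have hσf : ρ σ • f ≠ 0 := by
    rw [Ne, smul_eq_zero_iff_eq]
    exact hf0
  have h1 := congrArg v.ord (hfix σ)
  unfold twist at h1
  rw [v.ord_mul (cocycle_ne_zero lcd hD σ) hσf, ord_cocycle, ord_smul'] at h1
  have h2 : (ρ σ • D₁) v = D₁ ((ρ σ)⁻¹ • v) := SemilinearAut.divisor_smul_apply _ _ _
  have h3 : E v = E ((ρ σ)⁻¹ • v) := by
    conv_lhs => rw [← hE σ]
    exact SemilinearAut.divisor_smul_apply _ _ _
  omega

/-- The vectors fixed by the twisted action. -/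
def twistFixed : Set F := {f : F | ∀ σ : G, twist lcd hD σ f = f}

theorem twistFixed_eq : twistFixed lcd hD = invVectors (twist lcd hD) := rfl

variable (𝒰 : Set (Subgroup G))

include H in
/-- Every function is fixed by the twisted action of a member of `𝒰`. -/
theorem exists_subgroup_twist_fixed (htop : ∃ U, U ∈ 𝒰)
    (hinf : ∀ U ∈ 𝒰, ∀ V ∈ 𝒰, ∃ W ∈ 𝒰, W ≤ U ⊓ V)
    (helem : ∀ x : F, ∃ U ∈ 𝒰, ∀ σ ∈ U, ρ σ • x = x) (f : F) :
    ∃ U ∈ 𝒰, ∀ σ ∈ U, twist lcd hD σ f = f := by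
  classical
  have hZ : ∀ x : F, x ≠ 0 → {v : Place K F | 0 < v.ord x}.Finite := by
    intro x hx
    obtain ⟨E, hE, -⟩ := H.principal x hx
    refine E.support.finite_toSet.subset ?_
    intro v hv
    simp only [Set.mem_ofPred_eq] at hv
    simp only [Finset.mem_coe, Finsupp.mem_support_iff]
    rw [hE v]
    omega
  obtain ⟨U₁, hU₁, hfix₁⟩ := helem f
  choose Uv hUv1 hUv2 using exists_subgroup_fixing_place ρ 𝒰 htop hinf helem hZ
  obtain ⟨W, hW, hWle⟩ := exists_le_of_finite 𝒰 htop hinf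
    (fun v : ((D₁ : Divisor K F).support : Set (Place K F)) => Uv v.1) (fun v => hUv1 v.1)
  obtain ⟨W', hW', hW'le⟩ := hinf U₁ hU₁ W hW
  refine ⟨W', hW', fun σ hσ => ?_⟩
  have hσ1 : σ ∈ U₁ := (hW'le.trans inf_le_left) hσ
  have hσW : σ ∈ W := (hW'le.trans inf_le_right) hσ
  have hD₁ : ρ σ • D₁ = D₁ := by
    rw [SemilinearAut.divisor_smul_def]
    have h3 := Finsupp.mapDomain_congr (v := D₁) (f := (ρ σ • ·)) (g := id)
      (fun v hv => hUv2 v σ (hWle ⟨v, hv⟩ hσW))
    rw [h3, Finsupp.mapDomain_id]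
  unfold twist
  rw [cocycle_eq_one lcd hD H hD₁, one_mul, hfix₁ σ hσ1]

include H in
/-- **Descent**: every function is a `K`-linear combination of functions fixed by the twisted
action, provided the members of `𝒰` have finite index and are closed. -/
theorem mem_span_twistFixed (htop : ∃ U, U ∈ 𝒰)
    (hinf : ∀ U ∈ 𝒰, ∀ V ∈ 𝒰, ∃ W ∈ 𝒰, W ≤ U ⊓ V)
    (helem : ∀ x : F, ∃ U ∈ 𝒰, ∀ σ ∈ U, ρ σ • x = x)
    (hfin : ∀ U ∈ 𝒰, U.FiniteIndex)
    (hsep : ∀ U ∈ 𝒰, ∀ σ τ : G,
      (∀ c : K, (∀ u ∈ U, SemilinearAut.baseAut (ρ u) c = c) →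
        SemilinearAut.baseAut (ρ σ) c = SemilinearAut.baseAut (ρ τ) c) → σ⁻¹ * τ ∈ U)
    (f : F) : f ∈ Submodule.span K (twistFixed lcd hD) := by
  obtain ⟨U, hU, hfix⟩ := exists_subgroup_twist_fixed lcd hD H 𝒰 htop hinf helem f
  have := hfin U hU
  rw [twistFixed_eq]
  exact mem_span_invariants (a := baseHom ρ) (r := twist lcd hD) (twist_add lcd hD)
    (twist_mul lcd hD H) (twist_smul lcd hD) U (hsep U hU) hfix

include H in
/-- **Descent inside `L(D₁ + E)`**: every element of `L(D₁ + E)` is a `K`-linear combination of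
elements of `L(D₁ + E)` fixed by the twisted action. -/
theorem mem_span_twistFixed_L (htop : ∃ U, U ∈ 𝒰)
    (hinf : ∀ U ∈ 𝒰, ∀ V ∈ 𝒰, ∃ W ∈ 𝒰, W ≤ U ⊓ V)
    (helem : ∀ x : F, ∃ U ∈ 𝒰, ∀ σ ∈ U, ρ σ • x = x)
    (hfin : ∀ U ∈ 𝒰, U.FiniteIndex)
    (hsep : ∀ U ∈ 𝒰, ∀ σ τ : G,
      (∀ c : K, (∀ u ∈ U, SemilinearAut.baseAut (ρ u) c = c) →
        SemilinearAut.baseAut (ρ σ) c = SemilinearAut.baseAut (ρ τ) c) → σ⁻¹ * τ ∈ U)
    {E : Divisor K F} (hE : ∀ σ : G, ρ σ • E = E) {f : F} (hf : f ∈ L (D₁ + E)) :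
    f ∈ Submodule.span K (twistFixed lcd hD ∩ (L (D₁ + E) : Set F)) := by
  obtain ⟨U, hU, hfix⟩ := exists_subgroup_twist_fixed lcd hD H 𝒰 htop hinf helem f
  have := hfin U hU
  let r' : G → L (D₁ + E) → L (D₁ + E) := fun σ x =>
    ⟨twist lcd hD σ x.1, twist_mem_L lcd hD hE σ x.2⟩
  have h1 : (⟨f, hf⟩ : L (D₁ + E)) ∈ Submodule.span K (invVectors r') := by
    refine mem_span_invariants (a := baseHom ρ) (r := r') ?_ ?_ ?_ U (hsep U hU) ?_
    · intro σ x y
      exact Subtype.ext (twist_add lcd hD σ x.1 y.1)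
    · intro σ τ x
      exact Subtype.ext (twist_mul lcd hD H σ τ x.1)
    · intro σ c x
      exact Subtype.ext (twist_smul lcd hD σ c x.1)
    · intro u hu
      exact Subtype.ext (hfix u hu)
  have h2 := Submodule.mem_map_of_mem (f := (L (D₁ + E)).subtype) h1
  rw [Submodule.map_span] at h2
  refine Submodule.span_mono ?_ h2
  rintro _ ⟨x, hx, rfl⟩
  refine ⟨fun σ => ?_, x.2⟩
  exact congrArg Subtype.val (hx σ)

omit H in
theorem zero_mem_twistFixed : (0 : F) ∈ twistFixed lcd hD := by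
  intro σ
  unfold twist
  rw [smul_zero, mul_zero]

omit H in
theorem add_mem_twistFixed {f g : F} (hf : f ∈ twistFixed lcd hD) (hg : g ∈ twistFixed lcd hD) :
    f + g ∈ twistFixed lcd hD := by
  intro σ
  rw [twist_add, hf σ, hg σ]

omit H in
/-- The fixed vectors are stable under multiplication by invariant constants. -/
theorem smul_mem_twistFixed {c : K} (hc : ∀ σ : G, SemilinearAut.baseAut (ρ σ) c = c) {f : F}
    (hf : f ∈ twistFixed lcd hD) : c • f ∈ twistFixed lcd hD := by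
  intro σ
  rw [twist_smul, baseHom_apply, hc σ, hf σ]

end Cocycle

end Fermat.Agent.S17.H35

end
end
-- ==== END Fermat.Agent.S17.Height.H35_MoveD

-- ==== BEGIN Fermat.Agent.S19.Wiring
section

/-!
# S19 (finite flat model of `J₀(p)[ℓ^k]`, `ℓ ∤ p`): wiring

`Fermat.Agent.S19.result_of_hopfOrder` proves the frozen statement S19 from ONE explicit input,
`Stmt_HopfOrder`: the torsion group `J₀(p)[ℓ^k]` is finite and carries a *Hopf order* over
`ℤ_(ℓ)`, i.e. a commutative `ℤ_(ℓ)`-algebra `H`, finitely generated as a module, of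
Galois-equivariant functions on `J₀(p)[ℓ^k]` which separates points and is closed under
`f ↦ ((x, y) ↦ f (x + y))` (see `Fermat.Agent.Lib.HopfOrder.IsHopfOrder`).
No Hopf algebra axioms have to be checked by the provider of the input.
-/

set_option autoImplicit false

open ModularCurve

namespace Fermat.Agent.S19

open Fermat.Agent.Lib.HopfOrder

/-- The absolute Galois group of `ℚ`. -/
abbrev GQ : Type := AlgebraicClosure ℚ ≃ₐ[ℚ] AlgebraicClosure ℚ

/-- The torsion group `J₀(p)[n]`. -/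
abbrev Tors (p : ℕ) (n : ℤ) : Type := ↥(Submodule.torsionBy ℤ (JZero p) n)

lemma smul_mem_torsionBy (p : ℕ) (n : ℤ) (σ : GQ) (x : JZero p)
    (hx : x ∈ Submodule.torsionBy ℤ (JZero p) n) :
    σ • x ∈ Submodule.torsionBy ℤ (JZero p) n := by
  rw [Submodule.mem_torsionBy_iff] at hx ⊢
  have := map_zsmul (DistribSMul.toAddMonoidHom (JZero p) σ) n x
  simp only [DistribSMul.toAddMonoidHom_apply] at this
  rw [← this, hx, smul_zero]

/-- The Galois action on `J₀(p)[n]`. -/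
noncomputable def torsAct (p : ℕ) (n : ℤ) (σ : GQ) (x : Tors p n) : Tors p n :=
  ⟨σ • (x : JZero p), smul_mem_torsionBy p n σ x x.2⟩

/-- **Input of S19**: `J₀(p)[ℓ^k]` is finite and has a Hopf order over `ℤ_(ℓ)`. -/
def Stmt_HopfOrder : Prop :=
  ∀ (p : ℕ) [NeZero p] (ℓ : ℕ) [Fact ℓ.Prime], ¬ ℓ ∣ p → ∀ k : ℕ,
    Finite (Tors p ((ℓ : ℤ) ^ k)) ∧
    ∃ (H : Type) (_ : CommRing H) (_ : Algebra (GaloisRep.ratLocalizedAt ℓ) H)
      (ev : Tors p ((ℓ : ℤ) ^ k) → (H →ₐ[GaloisRep.ratLocalizedAt ℓ] AlgebraicClosure ℚ)),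
      IsHopfOrder (G := GQ) (torsAct p ((ℓ : ℤ) ^ k)) ev

/-- The frozen statement S19 from the Hopf order input. -/
theorem result_of_hopfOrder (h : Stmt_HopfOrder)
    (p : ℕ) [NeZero p] (ℓ : ℕ) [Fact ℓ.Prime] (hℓp : ¬ ℓ ∣ p) (k : ℕ) :
    ∃ (H : Type) (_ : CommRing H) (_ : HopfAlgebra (GaloisRep.ratLocalizedAt ℓ) H),
      Module.Finite (GaloisRep.ratLocalizedAt ℓ) H ∧ Module.Flat (GaloisRep.ratLocalizedAt ℓ) H ∧
      Coalgebra.IsCocomm (GaloisRep.ratLocalizedAt ℓ) H ∧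
      ∃ e : WithConv (H →ₐ[GaloisRep.ratLocalizedAt ℓ] AlgebraicClosure ℚ) ≃
          ↥(Submodule.torsionBy ℤ (JZero p) ((ℓ : ℤ) ^ k)),
        (∀ f g, e (f * g) = e f + e g) ∧
        ∀ (σ : AlgebraicClosure ℚ ≃ₐ[ℚ] AlgebraicClosure ℚ)
          (f g : WithConv (H →ₐ[GaloisRep.ratLocalizedAt ℓ] AlgebraicClosure ℚ)),
          (∀ h : H, g h = σ (f h)) → ((e g : JZero p)) = σ • (e f : JZero p) := by
  obtain ⟨hfin, H, i1, i2, ev, hH⟩ := h p ℓ hℓp k
  obtain ⟨H', j1, j2, h1, h2, h3, e, he, hσ⟩ := flat_of_isHopfOrder ℓ _ ev hH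
  exact ⟨H', j1, j2, h1, h2, h3, e, he, fun σ f g hfg => congrArg Subtype.val (hσ σ f g hfg)⟩

end Fermat.Agent.S19

end
-- ==== END Fermat.Agent.S19.Wiring

-- ==== BEGIN Fermat.Agent.S32.H86_BridgeAlg
section

/-!
# S32 bridge, part ALG (helper86): from the Tate piece to the representation

`ρ` a residually absolutely irreducible representation over a local ring `𝒪`, `ρL` a matrix
representation of rank `r` all of whose levels `(𝒪/I)^r` are flat Galois modules, `(P, Q)` a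
stable direct summand of rank `d > 0` on which every Galois element satisfies the characteristic
polynomial of `ρ`.  Then `ρ` is flat: by Boston–Lenstra–Ribet over `𝒪` the piece is a module over
`M₂(𝒪)`, so `V = 𝒪²` is an equivariant direct summand of the piece, and `V / I V` is a
Galois-stable subgroup of `(𝒪/I)^r`.
-/

set_option autoImplicit false
set_option linter.unusedSectionVars false
set_option linter.unusedVariables false
set_option linter.style.haveILetI false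

open Polynomial IsLocalRing

noncomputable section

namespace Fermat.Agent.S32.H86

open Fermat.Agent.R Fermat.Agent.R.H86

/-- **From the Tate piece to the representation.** -/
theorem flat_of_piece {p : ℕ} (hp : p.Prime)
    {𝒪 : Type} [CommRing 𝒪] [IsLocalRing 𝒪] [Finite (ResidueField 𝒪)]
    (ρ : GaloisRepAdic 𝒪) (habs : ρ.residual.IsAbsolutelyIrreducible)
    {r d : ℕ} (hd : 0 < d)
    (ρL : (AlgebraicClosure ℚ ≃ₐ[ℚ] AlgebraicClosure ℚ) →* Matrix (Fin r) (Fin r) 𝒪)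
    (P : Matrix (Fin r) (Fin d) 𝒪) (Q : Matrix (Fin d) (Fin r) 𝒪) (hQP : Q * P = 1)
    (ρ' : (AlgebraicClosure ℚ ≃ₐ[ℚ] AlgebraicClosure ℚ) →* Matrix (Fin d) (Fin d) 𝒪)
    (hrel : ∀ σ, ρL σ * P = P * ρ' σ)
    (hCH : ∀ g, ρ' g * ρ' g - (LinearMap.trace 𝒪 ρ.V (ρ.ρ g)) • ρ' g
      + (LinearMap.det (ρ.ρ g)) • (1 : Matrix (Fin d) (Fin d) 𝒪) = 0)
    (hflat : ∀ I : Ideal 𝒪, Finite (𝒪 ⧸ I) →
      IsFlatGaloisModule p (Fin r → 𝒪 ⧸ I)
        (fun σ y => ((Ideal.Quotient.mk I).mapMatrix (ρL σ)).mulVec y)) :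
    ρ.IsFlatAt p := by
  classical
  rw [isFlatAt_iff]
  refine ⟨inferInstance, fun I hI => ?_⟩
  let b : Module.Basis (Fin 2) 𝒪 ρ.V := Module.finBasisOfFinrankEq 𝒪 ρ.V ρ.finrank_eq
  let T : Module.End 𝒪 ρ.V ≃ₐ[𝒪] Matrix (Fin 2) (Fin 2) 𝒪 := LinearMap.toMatrixAlgEquiv b
  let M : (AlgebraicClosure ℚ ≃ₐ[ℚ] AlgebraicClosure ℚ) →* Matrix (Fin 2) (Fin 2) 𝒪 :=
    (T : Module.End 𝒪 ρ.V →* Matrix (Fin 2) (Fin 2) 𝒪).comp ρ.ρ
  have hM : ∀ g, M g = LinearMap.toMatrix b b (ρ.ρ g) := fun g => rfl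
  have hspan : Submodule.span 𝒪 (Set.range M) = ⊤ := by
    obtain ⟨g, hg⟩ := exists_eq_sum_matrix ρ habs b
    rw [eq_top_iff]
    intro Y _
    obtain ⟨c, rfl⟩ := hg Y
    exact Submodule.sum_mem _ fun q _ =>
      Submodule.smul_mem _ _ (Submodule.subset_span ⟨g q, rfl⟩)
  have hCHM : ∀ g, ρ' g * ρ' g - (M g).trace • ρ' g
      + (M g).det • (1 : Matrix (Fin d) (Fin d) 𝒪) = 0 := by
    intro g
    rw [hM, ← LinearMap.trace_eq_matrix_trace 𝒪 b, LinearMap.det_toMatrix b]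
    exact hCH g
  obtain ⟨Φ, hΦ⟩ := H86BLR.exists_algHom (B := Matrix (Fin d) (Fin d) 𝒪) (π := ρ') hspan hCHM
  haveI : Nonempty (Fin d) := ⟨⟨0, hd⟩⟩
  let Φ' : Matrix (Fin 2) (Fin 2) 𝒪 →ₐ[𝒪] Module.End 𝒪 (Fin d → 𝒪) :=
    (Matrix.toLinAlgEquiv' : Matrix (Fin d) (Fin d) 𝒪 ≃ₐ[𝒪] _).toAlgHom.comp Φ
  have hΦ' : ∀ (A : Matrix (Fin 2) (Fin 2) 𝒪) (u : Fin d → 𝒪), Φ' A u = (Φ A).mulVec u :=
    fun A u => rfl
  obtain ⟨f, ret, hret, hf⟩ := H86BLR.exists_split_embedding Φ'
  -- the embedding of `V` into `𝒪^r` and its retraction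
  let G : ρ.V →ₗ[𝒪] (Fin r → 𝒪) := (Matrix.toLin' P) ∘ₗ f ∘ₗ b.equivFun.toLinearMap
  let R : (Fin r → 𝒪) →ₗ[𝒪] ρ.V := b.equivFun.symm.toLinearMap ∘ₗ ret ∘ₗ (Matrix.toLin' Q)
  have hG : ∀ v, G v = P.mulVec (f (b.equivFun v)) := fun v => rfl
  have hR : ∀ y, R y = b.equivFun.symm (ret (Q.mulVec y)) := fun y => rfl
  have hRG : ∀ v, R (G v) = v := by
    intro v
    rw [hR, hG, Matrix.mulVec_mulVec, hQP, Matrix.one_mulVec, hret, LinearEquiv.symm_apply_apply]
  have hGeq : ∀ σ v, G (ρ.ρ σ v) = (ρL σ).mulVec (G v) := by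
    intro σ v
    have h1 : b.equivFun (ρ.ρ σ v) = (M σ).mulVec (b.equivFun v) := by
      rw [hM]
      exact (LinearMap.toMatrix_mulVec_repr b b (ρ.ρ σ) v).symm
    rw [hG, hG, h1, hf, hΦ', hΦ, Matrix.mulVec_mulVec, Matrix.mulVec_mulVec, hrel]
  -- the level map
  let GI : ρ.V →ₗ[𝒪] (Fin r → 𝒪 ⧸ I) :=
    { toFun := fun v i => Ideal.Quotient.mk I (G v i)
      map_add' := fun v w => by
        funext i
        simp only [map_add, Pi.add_apply]
      map_smul' := fun c v => by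
        funext i
        simp only [map_smul, Pi.smul_apply, smul_eq_mul, map_mul, RingHom.id_apply]
        rfl }
  have hGI : ∀ v i, GI v i = Ideal.Quotient.mk I (G v i) := fun v i => rfl
  have hker : I • (⊤ : Submodule 𝒪 ρ.V) ≤ LinearMap.ker GI := by
    intro v hv
    rw [LinearMap.mem_ker]
    refine Submodule.smul_induction_on (p := fun x => GI x = 0) hv ?_ ?_
    · intro a ha w _
      funext i
      rw [hGI, map_smul, Pi.smul_apply, smul_eq_mul, Pi.zero_apply,
        Ideal.Quotient.eq_zero_iff_mem]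
      exact I.mul_mem_right _ ha
    · intro x y hx hy
      rw [map_add, hx, hy, add_zero]
  let Gbar : (ρ.V ⧸ (I • (⊤ : Submodule 𝒪 ρ.V))) →ₗ[𝒪] (Fin r → 𝒪 ⧸ I) :=
    (I • (⊤ : Submodule 𝒪 ρ.V)).liftQ GI hker
  have hGbar : ∀ v, Gbar (Submodule.Quotient.mk v) = GI v := fun v => rfl
  refine H54.stmt_FlatSub p hp (Fin r → 𝒪 ⧸ I) (ρ.V ⧸ (I • (⊤ : Submodule 𝒪 ρ.V)))
    (fun σ y => ((Ideal.Quotient.mk I).mapMatrix (ρL σ)).mulVec y)
    (fun σ => ρ.levelAction I σ) Gbar.toAddMonoidHom ?_ ?_ (hflat I hI)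
  · -- injectivity
    rw [injective_iff_map_eq_zero]
    intro x hx
    obtain ⟨v, rfl⟩ := Submodule.Quotient.mk_surjective _ x
    have hx' : GI v = 0 := hx
    have hmem : ∀ i, G v i ∈ I := by
      intro i
      have := congrFun hx' i
      rw [hGI, Pi.zero_apply, Ideal.Quotient.eq_zero_iff_mem] at this
      exact this
    rw [Submodule.Quotient.mk_eq_zero]
    have h1 : G v = ∑ i, G v i • (Pi.single i (1 : 𝒪) : Fin r → 𝒪) := by
      funext k
      simp [Finset.sum_apply, Pi.single_apply]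
    have h2 : v = ∑ i, G v i • R (Pi.single i (1 : 𝒪)) := by
      conv_lhs => rw [← hRG v, h1]
      simp only [map_sum, map_smul]
    rw [h2]
    exact Submodule.sum_mem _ fun i _ => Submodule.smul_mem_smul (hmem i) Submodule.mem_top
  · -- equivariance
    intro σ x
    obtain ⟨v, rfl⟩ := Submodule.Quotient.mk_surjective _ x
    show Gbar (ρ.levelAction I σ (Submodule.Quotient.mk v)) =
      ((Ideal.Quotient.mk I).mapMatrix (ρL σ)).mulVec (Gbar (Submodule.Quotient.mk v))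
    have h1 : ρ.levelAction I σ (Submodule.Quotient.mk v) = Submodule.Quotient.mk (ρ.ρ σ v) := rfl
    rw [h1, hGbar, hGbar]
    funext i
    rw [hGI, hGeq]
    simp only [Matrix.mulVec, dotProduct, map_sum, map_mul, RingHom.mapMatrix_apply,
      Matrix.map_apply, hGI]

end Fermat.Agent.S32.H86

end

end
-- ==== END Fermat.Agent.S32.H86_BridgeAlg

-- ==== BEGIN Fermat.Agent.S32.Wiring
section

/-!
# S32 wiring (helper86, cluster R)

`Fermat.Agent.S32.wiring`: the frozen statement S32 (a Hecke–Galois datum of level `N`, `p ∤ N`,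
is flat at `p`) from

* `Stmt_FlatPoint` : the same statement for representations over complete discrete valuation
  rings (geometric input: S19 + realisation in the Tate module of `J₀(N)`),
* `Stmt_FlatSub`, `Stmt_FlatQuot`, `Stmt_FlatPi` : finite flat group schemes over `ℤ_(p)` are
  closed under Galois-stable subgroups, quotients and finite products (helper54),
* `Stmt_SepTc` : finitely many points of `T` separate `T` `p`-adically with uniform loss
  (helper2).

Proof: `p ^ n ∈ I`; `V ⧸ I V` is a quotient of the image of `V` in the product of the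
`V_i ⧸ p ^ (n + c) V_i` over the points `ψ_i : T → 𝒪_i`, `V_i = 𝒪_i ⊗ V`.
-/

set_option autoImplicit false
set_option linter.style.haveILetI false

open Polynomial IsLocalRing
open scoped TensorProduct

namespace Fermat.Agent.S32

open Fermat.Agent.R Fermat.Agent.R.H86

/-- Flatness passes to subquotients: if `V` maps equivariantly to a flat module `M` and
onto `Q`, and the kernel of `V → M` dies in `Q`, then `Q` is flat. -/
theorem flat_subquot (hSub : Stmt_FlatSub) (hQuot : Stmt_FlatQuot) {p : ℕ} (hp : p.Prime)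
    {V M Q : Type} [AddCommGroup V] [AddCommGroup M] [AddCommGroup Q]
    (f : V →+ M) (π : V →+ Q) (hπ : Function.Surjective π) (hker : ∀ v, f v = 0 → π v = 0)
    (actV : (AlgebraicClosure ℚ ≃ₐ[ℚ] AlgebraicClosure ℚ) → V →+ V)
    (actM : (AlgebraicClosure ℚ ≃ₐ[ℚ] AlgebraicClosure ℚ) → M → M)
    (actQ : (AlgebraicClosure ℚ ≃ₐ[ℚ] AlgebraicClosure ℚ) → Q → Q)
    (hactM0 : ∀ σ, actM σ 0 = 0)
    (hf : ∀ σ v, f (actV σ v) = actM σ (f v)) (hπ' : ∀ σ v, π (actV σ v) = actQ σ (π v))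
    (hM : IsFlatGaloisModule p M actM) : IsFlatGaloisModule p Q actQ := by
  have hKstab : ∀ σ, f.ker ≤ f.ker.comap (actV σ) := by
    intro σ v hv
    have hv0 : f v = 0 := hv
    show f (actV σ v) = 0
    rw [hf, hv0, hactM0]
  obtain ⟨act', hact'⟩ : ∃ act' : (AlgebraicClosure ℚ ≃ₐ[ℚ] AlgebraicClosure ℚ) →
      V ⧸ f.ker → V ⧸ f.ker,
      ∀ σ v, act' σ (QuotientAddGroup.mk v) = QuotientAddGroup.mk (actV σ v) :=
    ⟨fun σ => QuotientAddGroup.map f.ker f.ker (actV σ) (hKstab σ), fun σ v => rfl⟩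
  have hsub : IsFlatGaloisModule p (V ⧸ f.ker) act' := by
    refine hSub p hp M (V ⧸ f.ker) actM act' (QuotientAddGroup.kerLift f)
      (QuotientAddGroup.kerLift_injective f) ?_ hM
    intro σ x
    obtain ⟨v, rfl⟩ := QuotientAddGroup.mk_surjective x
    rw [hact', QuotientAddGroup.kerLift_mk, QuotientAddGroup.kerLift_mk, hf]
  have hKle : f.ker ≤ π.ker := fun v hv => hker v hv
  obtain ⟨π', hπ''⟩ : ∃ π' : V ⧸ f.ker →+ Q, ∀ v, π' (QuotientAddGroup.mk v) = π v :=
    ⟨QuotientAddGroup.lift f.ker π hKle, fun v => rfl⟩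
  refine hQuot p hp (V ⧸ f.ker) Q act' actQ π' ?_ ?_ hsub
  · intro y
    obtain ⟨v, rfl⟩ := hπ y
    exact ⟨QuotientAddGroup.mk v, hπ'' v⟩
  · intro σ x
    obtain ⟨v, rfl⟩ := QuotientAddGroup.mk_surjective x
    rw [hact', hπ'', hπ'', hπ']

/-- The endomorphism of `V ⧸ I V` induced by an endomorphism of `V`. -/
noncomputable def lvl {A : Type} [CommRing A] {V : Type} [AddCommGroup V] [Module A V]
    (f : Module.End A V) (I : Ideal A) :
    (V ⧸ (I • (⊤ : Submodule A V))) →ₗ[A] (V ⧸ (I • (⊤ : Submodule A V))) :=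
  Submodule.mapQ _ _ f (by
    rw [← Submodule.map_le_iff_le_comap, Submodule.map_smul'']
    exact Submodule.smul_mono le_rfl le_top)

lemma levelAction_eq_lvl {A : Type} [CommRing A] [IsLocalRing A] (ρ : GaloisRepAdic A)
    (I : Ideal A) (σ : AlgebraicClosure ℚ ≃ₐ[ℚ] AlgebraicClosure ℚ) :
    ρ.levelAction I σ = lvl (ρ.ρ σ) I := rfl

lemma lvl_mk {A : Type} [CommRing A] {V : Type} [AddCommGroup V] [Module A V]
    (f : Module.End A V) (I : Ideal A) (v : V) :
    lvl f I (Submodule.Quotient.mk v) = Submodule.Quotient.mk (f v) := rfl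

/-- **Abstract S32 wiring.**  If finitely many base changes `B i ⊗ V` are flat modulo `J i`
and the ideals `J i` control `I`, then `V` is flat modulo `I`. -/
theorem flat_of_points (hSub : Stmt_FlatSub) (hQuot : Stmt_FlatQuot) (hPi : Stmt_FlatPi)
    {p : ℕ} (hp : p.Prime)
    {T : Type} [CommRing T] {V : Type} [AddCommGroup V] [Module T V]
    {ι : Type} [Fintype ι] (b : Module.Basis ι T V)
    (r : (AlgebraicClosure ℚ ≃ₐ[ℚ] AlgebraicClosure ℚ) → Module.End T V) (I : Ideal T)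
    (n : ℕ) (B : Fin n → Type) [∀ i, CommRing (B i)] [∀ i, Algebra T (B i)]
    (J : ∀ i, Ideal (B i))
    (h1 : ∀ i, IsFlatGaloisModule p ((B i ⊗[T] V) ⧸ (J i • (⊤ : Submodule (B i) (B i ⊗[T] V))))
      (fun σ => lvl ((r σ).baseChange (B i)) (J i)))
    (h2 : ∀ t : T, (∀ i, algebraMap T (B i) t ∈ J i) → t ∈ I) :
    IsFlatGaloisModule p (V ⧸ (I • (⊤ : Submodule T V))) (fun σ => lvl (r σ) I) := by
  classical
  -- the product
  have hprod := hPi p hp n
    (fun i => (B i ⊗[T] V) ⧸ (J i • (⊤ : Submodule (B i) (B i ⊗[T] V))))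
    (fun i σ => lvl ((r σ).baseChange (B i)) (J i)) h1
  -- the map from `V`
  obtain ⟨f, hf⟩ : ∃ f : V →+ (∀ i, (B i ⊗[T] V) ⧸ (J i • (⊤ : Submodule (B i) (B i ⊗[T] V)))),
      ∀ v i, f v i = Submodule.Quotient.mk ((1 : B i) ⊗ₜ[T] v) :=
    ⟨AddMonoidHom.pi fun i =>
      ((Submodule.mkQ (J i • (⊤ : Submodule (B i) (B i ⊗[T] V)))).toAddMonoidHom).comp
        ((TensorProduct.mk T (B i) V 1).toAddMonoidHom), fun v i => rfl⟩
  have hequiv : ∀ σ v, f (r σ v) = fun i => lvl ((r σ).baseChange (B i)) (J i) (f v i) := by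
    intro σ v
    funext i
    rw [hf, hf, lvl_mk, LinearMap.baseChange_tmul]
  -- the kernel is contained in `I V`
  have hker : ∀ v, f v = 0 → v ∈ I • (⊤ : Submodule T V) := by
    intro v hv
    have hcoord : ∀ j, b.repr v j ∈ I := by
      intro j
      apply h2
      intro i
      have h0 : f v i = 0 := by rw [hv]; rfl
      rw [hf] at h0
      have h0' := (Submodule.Quotient.mk_eq_zero _).1 h0
      have h3 := repr_mem_of_mem_smul_top (Algebra.TensorProduct.basis (B i) b) (J i) h0' j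
      rwa [Algebra.TensorProduct.basis_repr_tmul, one_smul, Finsupp.mapRange_apply] at h3
    rw [← b.sum_repr v]
    exact Submodule.sum_mem _ fun j _ => Submodule.smul_mem_smul (hcoord j) trivial
  refine flat_subquot hSub hQuot hp f (Submodule.mkQ (I • (⊤ : Submodule T V))).toAddMonoidHom
    (Submodule.mkQ_surjective _) ?_ (fun σ => (r σ).toAddMonoidHom)
    (fun σ x i => lvl ((r σ).baseChange (B i)) (J i) (x i)) (fun σ => lvl (r σ) I)
    ?_ ?_ ?_ hprod
  · intro v hv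
    exact (Submodule.Quotient.mk_eq_zero _).2 (hker v hv)
  · intro σ
    funext i
    exact map_zero _
  · intro σ v
    exact hequiv σ v
  · intro σ v
    rfl


/-- A nonzero principal ideal of a discrete valuation ring with finite residue field has
finite quotient. -/
lemma finite_quotient_span_pow {R : Type} [CommRing R] [IsDomain R] [IsDiscreteValuationRing R]
    [Finite (ResidueField R)] {a : R} (ha : a ≠ 0) : Finite (R ⧸ Ideal.span {a}) := by
  obtain ⟨M, hM⟩ := exists_pow_le_span ha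
  haveI : Finite (R ⧸ maximalIdeal R) := inferInstanceAs (Finite (ResidueField R))
  haveI : Finite (R ⧸ maximalIdeal R ^ M) :=
    Ideal.finite_quotient_pow (IsNoetherian.noetherian _) M
  exact Finite.of_surjective (Ideal.Quotient.factor hM) (Ideal.Quotient.factor_surjective hM)

/-- In a local ring, an ideal with finite quotient contains a power of every element of the
maximal ideal. -/
lemma exists_pow_mem_of_finite_quotient {T : Type} [CommRing T] [IsLocalRing T] (I : Ideal T)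
    [Finite (T ⧸ I)] {x : T} (hx : x ∈ maximalIdeal T) : ∃ n : ℕ, x ^ n ∈ I := by
  obtain ⟨a, b, hab, h⟩ := Finite.exists_ne_map_eq_of_infinite
    (fun n : ℕ => (Ideal.Quotient.mk I (x ^ n)))
  wlog hlt : a < b generalizing a b
  · exact this b a (Ne.symm hab) h.symm (lt_of_le_of_ne (not_lt.1 hlt) (Ne.symm hab))
  have h1 : x ^ a - x ^ b ∈ I := by
    rw [← Ideal.Quotient.eq_zero_iff_mem, map_sub, sub_eq_zero]
    exact h
  have h2 : x ^ a - x ^ b = x ^ a * (1 - x ^ (b - a)) := by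
    rw [mul_sub, mul_one, ← pow_add, Nat.add_sub_cancel' hlt.le]
  have h3 : IsUnit (1 - x ^ (b - a)) := by
    apply isUnit_one_sub_self_of_mem_nonunits
    have : x ^ (b - a) ∈ maximalIdeal T :=
      Ideal.pow_mem_of_mem _ hx _ (Nat.sub_pos_of_lt hlt)
    exact (mem_maximalIdeal _).1 this
  refine ⟨a, ?_⟩
  rw [h2] at h1
  have := I.mul_mem_right (↑h3.unit⁻¹ : T) h1
  rwa [mul_assoc, IsUnit.mul_val_inv, mul_one] at this

variable {p : ℕ} {N : ℕ} [NeZero N] {S : Finset ℕ}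
  {𝒪 : Type} [CommRing 𝒪] [IsDomain 𝒪] [IsDiscreteValuationRing 𝒪]
  [IsAdicComplete (IsLocalRing.maximalIdeal 𝒪) 𝒪]
  {θ : CuspForm.heckeAlgebra N 2 (↑S : Set ℕ) →+* IsLocalRing.ResidueField 𝒪}
  {T : Type} [CommRing T] [IsLocalRing T] [IsNoetherianRing T]
  [IsAdicComplete (IsLocalRing.maximalIdeal T) T] [Algebra 𝒪 T] [IsLocalHom (algebraMap 𝒪 T)]
  [Module.Finite 𝒪 T] [Module.Free 𝒪 T]

/-- S32 from its version over discrete valuation rings and the closure properties of flat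
Galois modules. -/
theorem wiring (hFP : Stmt_FlatPoint) (hSub : Stmt_FlatSub) (hQuot : Stmt_FlatQuot)
    (hPi : Stmt_FlatPi) (hSep : Stmt_SepTc)
    [Finite (IsLocalRing.ResidueField 𝒪)] [CharZero 𝒪]
    (hp : p.Prime) (hp2 : p ≠ 2) (hp𝒪 : (p : 𝒪) ∈ IsLocalRing.maximalIdeal 𝒪) (hpN : ¬ p ∣ N)
    (hpS : p ∈ S) (hNS : ∀ q : ℕ, q.Prime → q ∣ N → q ∈ S)
    (H : CuspForm.HeckeGaloisRepDatum N (↑S : Set ℕ) 𝒪 θ T) :
    H.ρ.IsFlatAt p := by
  classical
  rw [isFlatAt_iff]
  have hpT : (p : T) ∈ maximalIdeal T := natCast_mem_maximalIdeal_of_algebra hp𝒪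
  refine ⟨?_, ?_⟩
  · refine Finite.of_surjective (IsLocalRing.ResidueField.map (algebraMap 𝒪 T)) ?_
    intro y
    obtain ⟨a, ha⟩ := H.residue_surjective y
    exact ⟨residue 𝒪 a, by rw [← ha]; rfl⟩
  · intro I hI
    obtain ⟨r, P, c, hc⟩ := hSep N S 𝒪 θ T hNS H p hp hp𝒪
    obtain ⟨n, hn⟩ := exists_pow_mem_of_finite_quotient I hpT
    letI : ∀ i, Algebra T (P i).O := fun i => (P i).ψ.toAlgebra
    let b : Module.Basis (Fin 2) T H.ρ.V := Module.finBasisOfFinrankEq T H.ρ.V H.ρ.finrank_eq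
    have hp𝒪' : ∀ i, (p : (P i).O) ∈ maximalIdeal (P i).O := by
      intro i
      have h1 : (p : (P i).O) = (P i).ψ (p : T) := by rw [map_natCast]
      rw [h1]
      haveI := (P i).isLocalHom
      exact (mem_maximalIdeal _).2 (map_nonunit (P i).ψ _ ((mem_maximalIdeal _).1 hpT))
    have hflat : ∀ i, (H.ρ.baseChangeAlong (P i).ψ (P i).isLocalHom).IsFlatAt p := fun i =>
      hFP p N S (P i).O hp hp2 (hp𝒪' i) hpN hpS hNS ((P i).ψ.comp H.π)
        (H.ρ.baseChangeAlong (P i).ψ (P i).isLocalHom)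
        (hasFrobCharpoly_baseChangeAlong (P i).ψ (P i).isLocalHom H.π H.ρ
          (hasFrobCharpoly_datum H))
        (residual_absIrr_baseChangeAlong (P i).ψ (P i).isLocalHom H.ρ H.residual_absIrr)
    have hfin : ∀ i, Finite ((P i).O ⧸ Ideal.span {((p : (P i).O)) ^ (n + c)}) := fun i =>
      finite_quotient_span_pow (pow_ne_zero _ (Nat.cast_ne_zero.2 hp.ne_zero))
    refine flat_of_points hSub hQuot hPi hp b (fun σ => H.ρ.ρ σ) I r (fun i => (P i).O)
      (fun i => Ideal.span {((p : (P i).O)) ^ (n + c)}) ?_ ?_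
    · intro i
      exact ((isFlatAt_iff _ _).1 (hflat i)).2 _ (hfin i)
    · intro t ht
      have h1 := hc n t ht
      obtain ⟨u, rfl⟩ := Ideal.mem_span_singleton.1 h1
      exact I.mul_mem_right _ hn

end Fermat.Agent.S32

end
-- ==== END Fermat.Agent.S32.Wiring
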