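-- GENERATED (merged mirror, NOTES/tools/trim/merge3_helper67.py): 4 modules of the originals, bodies verbatim.
import Mathlib
import Mathlib.LinearAlgebra.Dual.Lemmas
import Mathlib.LinearAlgebra.Finsupp.LinearCombination
import Fermat.Agent.FL.Defs
import Fermat.Agent.Zm.S35_L03_002
import Fermat.Agent.Zm.S35_L07_002
import Fermat.Agent.Zm.S35_L06_002
import Fermat.Agent.Zm.S48_L01_002

-- ==== BEGIN Fermat.Agent.BADP.H97_KArith
section

/-!
# BAD_p (S44, row 38), package K-ARITH (helper97): first-order arithmetic of `L₀(ζ, u^(1/p))`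

Route: `NOTES/plan/L_S44.md` §11 (helper93).  Abstract setting, valid both for `K₂ ⊂ ℚ̄` with a
place over `p` and for the functions `F^{I₂}` with a Gauss valuation:

* `L` a field with a valuation `v`, `L₀ ⊂ L` a subfield with `v(L₀ˣ) ⊂ v(p)^ℤ`, `v(p) < 1`;
* `ζ ∈ L` a primitive `p`-th root of unity, `π = ζ - 1`;
* `ω ∈ L` with `ω ^ p = 1 + p u₁`, `u₁ ∈ L₀` a unit (`v u₁ = 1`), `ϖ = ω - 1`, `θ = π ω / ϖ`;
* `σ : L →+* L` preserving `v`, fixing `L₀` and `ζ`, with `σ ω = ζ ω`.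

Results (`KData.*`), for `c = ∑_{l < p, j < p - 1} g l j * ϖ ^ l * π ^ j` with `g l j ∈ L₀`:

* `val_pi`, `val_varpi`, `val_theta_pow` : `v π ^ (p - 1) = v p`, `v ϖ ^ p = v p`,
  `v θ ^ (p (p - 1)) = v p`; `val_pi_eq`, `val_varpi_eq` : `v π = v θ ^ p`, `v ϖ = v θ ^ (p - 1)`;
* `sigma_varpi` : `σ ϖ = ϖ * (1 + θ)`;
* `exists_dominant` (K1) : a nonzero `c` has a dominant monomial; `v c = v θ ^ m`;
* `val_sigma_sub` (K2) : `v c ≤ 1 → v (σ c - c) ≤ v θ ^ 2`;
* `val_sigma_div` (K3) : `c ≠ 0 → ∃ m : ℤ, v c = v θ ^ m ∧ v (σ c / c - (1 - m θ)) ≤ v θ ^ 2`.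
-/

set_option autoImplicit false

open Finset

namespace Fermat.Agent.BADP.H97

variable {L : Type*} [Field L] {Γ₀ : Type*} [LinearOrderedCommGroupWithZero Γ₀]

/-- The data of K-ARITH. -/
structure KData (v : Valuation L Γ₀) (L0 : Subfield L) (p : ℕ) (ζ ω : L) (σ : L →+* L) :
    Prop where
  prime : p.Prime
  vp_lt : v (p : L) < 1
  vp_ne : v (p : L) ≠ 0
  val0 : ∀ x ∈ L0, x ≠ 0 → ∃ n : ℤ, v x = v (p : L) ^ n
  root : IsPrimitiveRoot ζ p
  pow : ∃ u1 ∈ L0, v u1 = 1 ∧ ω ^ p = 1 + (p : L) * u1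
  σv : ∀ x, v (σ x) = v x
  σ0 : ∀ x ∈ L0, σ x = x
  σζ : σ ζ = ζ
  σω : σ ω = ζ * ω

/-! ### General lemmas on valuations -/

section General

variable (v : Valuation L Γ₀)

theorem val_natCast_le_one (n : ℕ) : v (n : L) ≤ 1 := by
  induction n with
  | zero => simp
  | succ k ih =>
    rw [Nat.cast_succ]
    exact le_trans (v.map_add _ _) (max_le ih (by rw [map_one]))

theorem val_intCast_le_one (n : ℤ) : v (n : L) ≤ 1 := by
  rcases Int.eq_nat_or_neg n with ⟨k, rfl | rfl⟩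
  · rw [Int.cast_natCast]; exact val_natCast_le_one v k
  · rw [Int.cast_neg, Int.cast_natCast, v.map_neg]; exact val_natCast_le_one v k

theorem val_geom_sum_le_one {x : L} (hx : v x ≤ 1) (n : ℕ) : v (∑ i ∈ range n, x ^ i) ≤ 1 :=
  v.map_sum_le fun i _ => by
    rw [map_pow]
    exact pow_le_one₀ zero_le hx

/-- `v (x ^ n - 1) ≤ v (x - 1)` for `x` integral. -/
theorem val_pow_sub_one_le {x : L} (hx : v x ≤ 1) (n : ℕ) : v (x ^ n - 1) ≤ v (x - 1) := by
  rw [← mul_geom_sum, map_mul]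
  calc v (x - 1) * v (∑ i ∈ range n, x ^ i) ≤ v (x - 1) * 1 :=
        mul_le_mul_right (val_geom_sum_le_one v hx n) _
    _ = v (x - 1) := mul_one _

/-- `v ((1 + t) ^ n - 1) ≤ v t`. -/
theorem val_one_add_pow_sub_one {t : L} (ht : v t ≤ 1) (n : ℕ) : v ((1 + t) ^ n - 1) ≤ v t := by
  have h1 : v (1 + t) ≤ 1 := le_trans (v.map_add _ _) (max_le (by rw [map_one]) ht)
  have := val_pow_sub_one_le v h1 n
  rwa [add_sub_cancel_left] at this

/-- `v ((1 + t) ^ n - 1 - n t) ≤ v t ^ 2`. -/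
theorem val_one_add_pow_sub_lin {t : L} (ht : v t ≤ 1) (n : ℕ) :
    v ((1 + t) ^ n - 1 - n * t) ≤ v t ^ 2 := by
  have h0 : (1 + t) ^ n - 1 - n * t = t * ∑ i ∈ range n, ((1 + t) ^ i - 1) := by
    have h1 : (1 + t) ^ n - 1 = t * ∑ i ∈ range n, (1 + t) ^ i := by
      have := mul_geom_sum (1 + t) n
      rw [add_sub_cancel_left] at this
      exact this.symm
    rw [h1, Finset.sum_sub_distrib, Finset.sum_const, card_range, nsmul_eq_mul, mul_one]
    ring
  rw [h0, map_mul, sq]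
  exact mul_le_mul_right (v.map_sum_le fun i _ => val_one_add_pow_sub_one v ht i) _

end General

namespace KData

variable {v : Valuation L Γ₀} {L0 : Subfield L} {p : ℕ} {ζ ω : L} {σ : L →+* L}

/-! ### The valuations of `π`, `ϖ`, `θ` -/

theorem p_ne_zero (h : KData v L0 p ζ ω σ) : (p : L) ≠ 0 := fun h0 => h.vp_ne (by rw [h0, map_zero])

theorem val_zeta (h : KData v L0 p ζ ω σ) : v ζ = 1 := by
  have h1 : v ζ ^ p = 1 := by rw [← map_pow, h.root.pow_eq_one, map_one]
  exact (pow_eq_one_iff.1 h1).resolve_right h.prime.ne_zero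

theorem val_zeta_pow_sub_one (h : KData v L0 p ζ ω σ) {k : ℕ} (hk : ¬ p ∣ k) :
    v (ζ ^ k - 1) = v (ζ - 1) := by
  refine le_antisymm (val_pow_sub_one_le v h.val_zeta.le k) ?_
  -- `ζ = (ζ ^ k) ^ m`
  have hcop : Nat.Coprime k p := (Nat.Coprime.symm ((Nat.Prime.coprime_iff_not_dvd h.prime).2 hk))
  obtain ⟨m, -, hm⟩ := Nat.exists_mul_mod_eq_one_of_coprime hcop h.prime.one_lt
  have h1 : (ζ ^ k) ^ m = ζ := by
    rw [← pow_mul, ← Nat.mod_add_div (k * m) p, hm, pow_add, pow_one, pow_mul,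
      h.root.pow_eq_one, one_pow, mul_one]
  have h2 : v (ζ ^ k) ≤ 1 := by rw [map_pow, h.val_zeta, one_pow]
  have := val_pow_sub_one_le v h2 m
  rwa [h1] at this

/-- `v (ζ - 1) ^ (p - 1) = v p`. -/
theorem val_pi (h : KData v L0 p ζ ω σ) : v (ζ - 1) ^ (p - 1) = v (p : L) := by
  obtain ⟨n, hn⟩ : ∃ n, p = n + 1 := ⟨p - 1, (Nat.succ_pred_eq_of_pos h.prime.pos).symm⟩
  have hroot : IsPrimitiveRoot ζ (n + 1) := hn ▸ h.root
  have h1 := hroot.prod_one_sub_pow_eq_order
  have h2 : v (∏ k ∈ range n, (1 - ζ ^ (k + 1))) = v (ζ - 1) ^ n := by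
    rw [map_prod]
    have : ∀ k ∈ range n, v (1 - ζ ^ (k + 1)) = v (ζ - 1) := by
      intro k hk
      rw [← v.map_neg, neg_sub]
      refine h.val_zeta_pow_sub_one ?_
      intro hd
      have := Nat.le_of_dvd (Nat.succ_pos k) hd
      have := mem_range.1 hk
      omega
    rw [prod_congr rfl this, prod_const, card_range]
  rw [h1] at h2
  have h3 : (p : L) = (n : L) + 1 := by rw [hn]; push_cast; ring
  rw [h3, h2, hn, Nat.add_sub_cancel]

theorem val_omega (h : KData v L0 p ζ ω σ) : v ω = 1 := by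
  obtain ⟨u1, -, hu1, hω⟩ := h.pow
  have h1 : v ((p : L) * u1) < 1 := by rw [map_mul, hu1, mul_one]; exact h.vp_lt
  have h2 : v (1 + (p : L) * u1) = 1 := by
    have := v.map_add_eq_of_lt_left (x := (1 : L)) (y := (p : L) * u1) (by rw [map_one]; exact h1)
    rw [this, map_one]
  have h3 : v ω ^ p = 1 := by rw [← map_pow, hω, h2]
  exact (pow_eq_one_iff.1 h3).resolve_right h.prime.ne_zero

theorem omega_ne_zero (h : KData v L0 p ζ ω σ) : ω ≠ 0 := fun h0 => by
  have := h.val_omega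
  rw [h0, map_zero] at this
  exact zero_ne_one this

theorem val_varpi_le (h : KData v L0 p ζ ω σ) : v (ω - 1) ≤ 1 :=
  le_trans (v.map_sub _ _) (max_le h.val_omega.le (by rw [map_one]))

/-- `ϖ ^ p = p (u₁ - ϖ r)` with `r` integral. -/
theorem varpi_pow (h : KData v L0 p ζ ω σ) :
    ∃ u1 r : L, v u1 = 1 ∧ v r ≤ 1 ∧ (ω - 1) ^ p = (p : L) * (u1 - (ω - 1) * r) := by
  obtain ⟨u1, -, hu1, hω⟩ := h.pow
  have h1 := add_pow_prime_eq h.prime (ω - 1) (1 : L)
  rw [sub_add_cancel, hω] at h1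
  refine ⟨u1, ∑ k ∈ Ioo 0 p, (ω - 1) ^ (k - 1) * (1 : L) ^ (p - k - 1) * ((p.choose k / p : ℕ) : L),
    hu1, ?_, ?_⟩
  · refine v.map_sum_le fun k _ => ?_
    rw [map_mul, map_mul, map_pow, map_pow, map_one, one_pow, mul_one]
    exact mul_le_one₀ (pow_le_one₀ zero_le h.val_varpi_le) zero_le (val_natCast_le_one v _)
  · have h2 : (ω - 1) ^ p = (1 + (p : L) * u1) - 1 ^ p - (p : L) * (ω - 1) * 1 *
        ∑ k ∈ Ioo 0 p, (ω - 1) ^ (k - 1) * (1 : L) ^ (p - k - 1) * ((p.choose k / p : ℕ) : L) := by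
      rw [h1]; ring
    rw [h2]; ring

theorem val_varpi_lt (h : KData v L0 p ζ ω σ) : v (ω - 1) < 1 := by
  obtain ⟨u1, r, hu1, hr, he⟩ := h.varpi_pow
  refine lt_of_le_of_ne h.val_varpi_le fun h1 => ?_
  have h2 : v ((ω - 1) ^ p) = 1 := by rw [map_pow, h1, one_pow]
  rw [he, map_mul] at h2
  have h3 : v (u1 - (ω - 1) * r) ≤ 1 := by
    refine le_trans (v.map_sub _ _) (max_le hu1.le ?_)
    rw [map_mul]
    exact mul_le_one₀ h.val_varpi_le zero_le hr
  have h4 : v (p : L) * v (u1 - (ω - 1) * r) < 1 :=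
    lt_of_le_of_lt (mul_le_mul_right h3 _) (by rw [mul_one]; exact h.vp_lt)
  rw [h2] at h4
  exact lt_irrefl _ h4

/-- `v (ω - 1) ^ p = v p`. -/
theorem val_varpi (h : KData v L0 p ζ ω σ) : v (ω - 1) ^ p = v (p : L) := by
  obtain ⟨u1, r, hu1, hr, he⟩ := h.varpi_pow
  rw [← map_pow, he, map_mul]
  have h1 : v ((ω - 1) * r) < v u1 := by
    rw [map_mul, hu1]
    exact lt_of_le_of_lt (mul_le_mul_right hr _) (by rw [mul_one]; exact h.val_varpi_lt)
  rw [v.map_sub_eq_of_lt_left h1, hu1, mul_one]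

theorem varpi_ne_zero (h : KData v L0 p ζ ω σ) : ω - 1 ≠ 0 := fun h0 => by
  have := h.val_varpi
  rw [h0, map_zero, zero_pow h.prime.ne_zero] at this
  exact h.vp_ne this.symm

theorem pi_ne_zero (h : KData v L0 p ζ ω σ) : ζ - 1 ≠ 0 :=
  sub_ne_zero.2 (h.root.ne_one h.prime.one_lt)

end KData

/-! ### `θ`, the monomials and their exponents -/

/-- `θ = π ω / ϖ`, a uniformiser of `L₀(ζ, ω)`. -/
noncomputable def theta (ζ ω : L) : L := (ζ - 1) * ω / (ω - 1)

/-- The monomial `ϖ ^ l * π ^ j`. -/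
def mono (ζ ω : L) (x : ℕ × ℕ) : L := (ω - 1) ^ x.1 * (ζ - 1) ^ x.2

/-- The index set `{(l, j) | l < p, j < p - 1}`. -/
def idx (p : ℕ) : Finset (ℕ × ℕ) := range p ×ˢ range (p - 1)

/-- The element `∑ g l j * ϖ ^ l * π ^ j`. -/
def ksum (p : ℕ) (ζ ω : L) (g : ℕ × ℕ → L) : L := ∑ x ∈ idx p, g x * mono ζ ω x

/-- The exponent of `v θ` in the value of `a ϖ ^ l π ^ j`, `v a = v p ^ n`. -/
def expo (p : ℕ) (n : ℤ) (x : ℕ × ℕ) : ℤ := (p : ℤ) * ((p : ℤ) - 1) * n + ((p : ℤ) - 1) * x.1 + p * x.2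

theorem expo_inj {p : ℕ} (hp : 1 < p) {n n' : ℤ} {x x' : ℕ × ℕ} (hx : x ∈ idx p) (hx' : x' ∈ idx p)
    (he : expo p n x = expo p n' x') : x = x' := by
  simp only [idx, mem_product, mem_range] at hx hx'
  obtain ⟨l, j⟩ := x
  obtain ⟨l', j'⟩ := x'
  simp only [expo] at he
  simp only at hx hx'
  have hp0 : (0 : ℤ) < p := by exact_mod_cast (by omega : 0 < p)
  -- `l = l'`
  have h1 : (p : ℤ) ∣ ((l : ℤ) - l') := by
    refine ⟨((l : ℤ) - l') + ((p : ℤ) - 1) * (n - n') + ((j : ℤ) - j'), ?_⟩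
    linear_combination -he
  have hl : (l : ℤ) = l' := by
    have h2 : |(l : ℤ) - l'| < p := by
      rw [abs_lt]
      constructor <;> omega
    have := Int.eq_zero_of_abs_lt_dvd h1 h2
    omega
  have hl' : l = l' := by exact_mod_cast hl
  subst hl'
  -- `j = j'`
  have h3 : (p : ℤ) * (((p : ℤ) - 1) * (n - n') + ((j : ℤ) - j')) = 0 := by
    linear_combination he
  have h4 : ((p : ℤ) - 1) * (n - n') + ((j : ℤ) - j') = 0 := by
    rcases mul_eq_zero.1 h3 with h | h
    · omega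
    · exact h
  have h5 : ((p : ℤ) - 1) ∣ ((j : ℤ) - j') := by
    refine ⟨-(n - n'), ?_⟩
    linear_combination h4
  have hj : (j : ℤ) = j' := by
    have h2 : |(j : ℤ) - j'| < (p : ℤ) - 1 := by
      rw [abs_lt]
      constructor <;> omega
    have := Int.eq_zero_of_abs_lt_dvd h5 h2
    omega
  have hj' : j = j' := by exact_mod_cast hj
  rw [hj']

theorem expo_ne_zero {p : ℕ} {n : ℤ} {x : ℕ × ℕ} (hx : x ∈ idx p) (hl : x.1 ≠ 0) :
    expo p n x ≠ 0 := by
  simp only [idx, mem_product, mem_range] at hx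
  intro he
  simp only [expo] at he
  have h1 : (p : ℤ) ∣ (x.1 : ℤ) := by
    refine ⟨((p : ℤ) - 1) * n + x.1 + x.2, ?_⟩
    linear_combination -he
  have h2 := Int.le_of_dvd (by omega) h1
  omega

theorem dvd_fst_add_expo (p : ℕ) (n : ℤ) (x : ℕ × ℕ) : (p : ℤ) ∣ (x.1 : ℤ) + expo p n x :=
  ⟨((p : ℤ) - 1) * n + x.1 + x.2, by simp only [expo]; ring⟩

namespace KData

variable {v : Valuation L Γ₀} {L0 : Subfield L} {p : ℕ} {ζ ω : L} {σ : L →+* L}

theorem theta_ne_zero (h : KData v L0 p ζ ω σ) : theta ζ ω ≠ 0 :=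
  div_ne_zero (mul_ne_zero h.pi_ne_zero h.omega_ne_zero) h.varpi_ne_zero

theorem val_theta (h : KData v L0 p ζ ω σ) : v (theta ζ ω) = v (ζ - 1) / v (ω - 1) := by
  rw [theta, map_div₀, map_mul, h.val_omega, mul_one]

theorem val_theta_ne_zero (h : KData v L0 p ζ ω σ) : v (theta ζ ω) ≠ 0 :=
  (Valuation.ne_zero_iff v).2 h.theta_ne_zero

/-- `v θ ^ (p (p - 1)) = v p`. -/
theorem val_theta_pow (h : KData v L0 p ζ ω σ) : v (theta ζ ω) ^ (p * (p - 1)) = v (p : L) := by
  have h0 : v (p : L) ≠ 0 := h.vp_ne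
  have h1 : (v (ζ - 1)) ^ (p * (p - 1)) = v (p : L) ^ p := by rw [mul_comm, pow_mul, h.val_pi]
  have h2 : (v (ω - 1)) ^ (p * (p - 1)) = v (p : L) ^ (p - 1) := by rw [pow_mul, h.val_varpi]
  rw [h.val_theta, div_pow, h1, h2]
  obtain ⟨n, hn⟩ : ∃ n, p = n + 1 := ⟨p - 1, (Nat.succ_pred_eq_of_pos h.prime.pos).symm⟩
  rw [hn, Nat.add_sub_cancel, pow_succ, mul_comm, mul_div_assoc,
    div_self (pow_ne_zero n (hn ▸ h0)), mul_one]

theorem val_theta_lt (h : KData v L0 p ζ ω σ) : v (theta ζ ω) < 1 := by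
  by_contra hge
  rw [not_lt] at hge
  have := one_le_pow₀ hge (n := p * (p - 1))
  rw [h.val_theta_pow] at this
  exact absurd h.vp_lt (not_lt.2 this)

theorem val_theta_pos (h : KData v L0 p ζ ω σ) : 0 < v (theta ζ ω) :=
  zero_lt_iff.2 h.val_theta_ne_zero

theorem p_sub_one_ne (h : KData v L0 p ζ ω σ) : p - 1 ≠ 0 := by
  have := h.prime.two_le
  omega

/-- `v π = v θ ^ p`. -/
theorem val_pi_eq (h : KData v L0 p ζ ω σ) : v (ζ - 1) = v (theta ζ ω) ^ p := by
  refine (pow_left_inj₀ zero_le zero_le h.p_sub_one_ne).1 ?_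
  rw [h.val_pi, ← pow_mul, h.val_theta_pow]

/-- `v ϖ = v θ ^ (p - 1)`. -/
theorem val_varpi_eq (h : KData v L0 p ζ ω σ) : v (ω - 1) = v (theta ζ ω) ^ (p - 1) := by
  refine (pow_left_inj₀ zero_le zero_le h.prime.ne_zero).1 ?_
  rw [h.val_varpi, ← pow_mul, mul_comm, h.val_theta_pow]

theorem vp_le_theta (h : KData v L0 p ζ ω σ) : v (p : L) ≤ v (theta ζ ω) := by
  rw [← h.val_theta_pow]
  have h1 : 1 ≤ p * (p - 1) := by
    have := h.prime.two_le
    have : 1 ≤ p - 1 := by omega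
    nlinarith
  calc v (theta ζ ω) ^ (p * (p - 1)) ≤ v (theta ζ ω) ^ 1 :=
        pow_le_pow_of_le_one zero_le h.val_theta_lt.le h1
    _ = v (theta ζ ω) := pow_one _

/-- The value of a monomial with coefficient in `L₀`. -/
theorem val_term (h : KData v L0 p ζ ω σ) {a : L} (ha : a ∈ L0) (ha0 : a ≠ 0) (x : ℕ × ℕ) :
    ∃ n : ℤ, v (a * mono ζ ω x) = v (theta ζ ω) ^ expo p n x := by
  obtain ⟨n, hn⟩ := h.val0 a ha ha0
  refine ⟨n, ?_⟩
  have hγ := h.val_theta_ne_zero
  have hp1 := h.prime.one_le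
  have hA : v a = v (theta ζ ω) ^ ((p : ℤ) * ((p : ℤ) - 1) * n) := by
    rw [hn, ← h.val_theta_pow, ← zpow_natCast, ← zpow_mul]
    congr 1
    push_cast [Nat.cast_sub hp1]
    ring
  have hB : v (ω - 1) ^ x.1 = v (theta ζ ω) ^ (((p : ℤ) - 1) * x.1) := by
    rw [h.val_varpi_eq, ← pow_mul, ← zpow_natCast]
    congr 1
    push_cast [Nat.cast_sub hp1]
    ring
  have hC : v (ζ - 1) ^ x.2 = v (theta ζ ω) ^ ((p : ℤ) * x.2) := by
    rw [h.val_pi_eq, ← pow_mul, ← zpow_natCast]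
    congr 1
  rw [mono, map_mul, map_mul, map_pow, map_pow, hA, hB, hC, expo, zpow_add₀ hγ, zpow_add₀ hγ]
  exact (mul_assoc _ _ _).symm

/-! ### The action of `σ` -/

theorem sigma_pi (h : KData v L0 p ζ ω σ) : σ (ζ - 1) = ζ - 1 := by
  rw [map_sub, h.σζ, map_one]

/-- `σ ϖ = ϖ (1 + θ)`. -/
theorem sigma_varpi (h : KData v L0 p ζ ω σ) : σ (ω - 1) = (ω - 1) * (1 + theta ζ ω) := by
  have h0 := h.varpi_ne_zero
  rw [map_sub, h.σω, map_one, theta, mul_add, mul_one, mul_div_cancel₀ _ h0]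
  ring

theorem mono_ne_zero (h : KData v L0 p ζ ω σ) (x : ℕ × ℕ) : mono ζ ω x ≠ 0 :=
  mul_ne_zero (pow_ne_zero _ h.varpi_ne_zero) (pow_ne_zero _ h.pi_ne_zero)

theorem sigma_term (h : KData v L0 p ζ ω σ) {a : L} (ha : a ∈ L0) (x : ℕ × ℕ) :
    σ (a * mono ζ ω x) = a * mono ζ ω x * (1 + theta ζ ω) ^ x.1 := by
  rw [mono, map_mul, map_mul, map_pow, map_pow, h.σ0 a ha, h.sigma_pi, h.sigma_varpi, mul_pow]
  ring

theorem sigma_ksum (h : KData v L0 p ζ ω σ) {g : ℕ × ℕ → L} (hg : ∀ x, g x ∈ L0) :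
    σ (ksum p ζ ω g) = ∑ x ∈ idx p, g x * mono ζ ω x * (1 + theta ζ ω) ^ x.1 := by
  rw [ksum, map_sum]
  exact sum_congr rfl fun x _ => h.sigma_term (hg x) x

/-! ### (K1): the dominant monomial -/

theorem zpow_theta_inj (h : KData v L0 p ζ ω σ) {a b : ℤ}
    (hab : v (theta ζ ω) ^ a = v (theta ζ ω) ^ b) : a = b :=
  zpow_right_injective₀ h.val_theta_pos h.val_theta_lt.ne hab

theorem zpow_theta_le (h : KData v L0 p ζ ω σ) {a b : ℤ} :
    v (theta ζ ω) ^ a ≤ v (theta ζ ω) ^ b ↔ b ≤ a :=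
  zpow_le_zpow_iff_right_of_lt_one₀ h.val_theta_pos h.val_theta_lt

/-- **(K1)** if some coefficient is nonzero, `∑ g l j ϖ ^ l π ^ j` has a dominant term (in
particular it is nonzero). -/
theorem exists_dominant_of_coeff (h : KData v L0 p ζ ω σ) {g : ℕ × ℕ → L} (hg : ∀ x, g x ∈ L0)
    (hc : ∃ x₁ ∈ idx p, g x₁ ≠ 0) :
    ∃ x₀ ∈ idx p, g x₀ ≠ 0 ∧
      (∀ x ∈ idx p, x ≠ x₀ → v (g x * mono ζ ω x) < v (g x₀ * mono ζ ω x₀)) ∧
      v (ksum p ζ ω g) = v (g x₀ * mono ζ ω x₀) := by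
  classical
  obtain ⟨x₁, hx₁, hx₁0⟩ := hc
  obtain ⟨x₀, hx₀, hmax⟩ := exists_max_image (idx p) (fun x => v (g x * mono ζ ω x)) ⟨x₁, hx₁⟩
  have hpos : v (g x₀ * mono ζ ω x₀) ≠ 0 := by
    have h1 : v (g x₁ * mono ζ ω x₁) ≠ 0 :=
      (Valuation.ne_zero_iff v).2 (mul_ne_zero hx₁0 (h.mono_ne_zero x₁))
    intro h0
    have := hmax x₁ hx₁
    rw [h0] at this
    exact h1 (le_antisymm this zero_le)
  have hg0 : g x₀ ≠ 0 := fun h0 => hpos (by rw [h0, zero_mul, map_zero])
  have hlt : ∀ x ∈ idx p, x ≠ x₀ → v (g x * mono ζ ω x) < v (g x₀ * mono ζ ω x₀) := by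
    intro x hx hne
    refine lt_of_le_of_ne (hmax x hx) fun heq => hne ?_
    have hgx : g x ≠ 0 := fun h0 => hpos (by rw [← heq, h0, zero_mul, map_zero])
    obtain ⟨n, hn⟩ := h.val_term (hg x) hgx x
    obtain ⟨n', hn'⟩ := h.val_term (hg x₀) hg0 x₀
    rw [hn, hn'] at heq
    exact expo_inj h.prime.one_lt hx hx₀ (h.zpow_theta_inj heq)
  refine ⟨x₀, hx₀, hg0, hlt, ?_⟩
  rw [ksum]
  refine Valuation.map_sum_eq_of_lt v hx₀ fun x hx => ?_
  rw [mem_sdiff, mem_singleton] at hx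
  exact hlt x hx.1 hx.2

/-- **(K1)** a nonzero element `∑ g l j ϖ ^ l π ^ j` has a dominant term. -/
theorem exists_dominant (h : KData v L0 p ζ ω σ) {g : ℕ × ℕ → L} (hg : ∀ x, g x ∈ L0)
    (hc : ksum p ζ ω g ≠ 0) :
    ∃ x₀ ∈ idx p, g x₀ ≠ 0 ∧
      (∀ x ∈ idx p, x ≠ x₀ → v (g x * mono ζ ω x) < v (g x₀ * mono ζ ω x₀)) ∧
      v (ksum p ζ ω g) = v (g x₀ * mono ζ ω x₀) := by
  obtain ⟨x₁, hx₁, hx₁0⟩ := exists_ne_zero_of_sum_ne_zero hc
  exact h.exists_dominant_of_coeff hg ⟨x₁, hx₁, fun h0 => hx₁0 (by rw [h0, zero_mul])⟩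

/-- The monomials `ϖ ^ l π ^ j` (`l < p`, `j < p - 1`) are linearly independent over `L₀`. -/
theorem coeff_eq_zero (h : KData v L0 p ζ ω σ) {g : ℕ × ℕ → L} (hg : ∀ x, g x ∈ L0)
    (hc : ksum p ζ ω g = 0) {x : ℕ × ℕ} (hx : x ∈ idx p) : g x = 0 := by
  by_contra hgx
  obtain ⟨x₀, -, hg0, -, hv⟩ := h.exists_dominant_of_coeff hg ⟨x, hx, hgx⟩
  rw [hc, map_zero] at hv
  exact (Valuation.ne_zero_iff v).2 (mul_ne_zero hg0 (h.mono_ne_zero x₀)) hv.symm

/-- The value group of `L₀(ζ, ω)` is generated by `v θ`. -/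
theorem val_ksum (h : KData v L0 p ζ ω σ) {g : ℕ × ℕ → L} (hg : ∀ x, g x ∈ L0)
    (hc : ksum p ζ ω g ≠ 0) : ∃ m : ℤ, v (ksum p ζ ω g) = v (theta ζ ω) ^ m := by
  obtain ⟨x₀, -, hg0, -, hv⟩ := h.exists_dominant hg hc
  obtain ⟨n, hn⟩ := h.val_term (hg x₀) hg0 x₀
  exact ⟨_, hv.trans hn⟩

/-! ### (K2) -/

theorem val_one_add_theta_pow (h : KData v L0 p ζ ω σ) (n : ℕ) :
    v ((1 + theta ζ ω) ^ n - 1) ≤ v (theta ζ ω) :=
  val_one_add_pow_sub_one v h.val_theta_lt.le n

/-- a term of value `≤ 1` involving `ϖ` has value `≤ v θ`. -/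
theorem val_term_le_theta (h : KData v L0 p ζ ω σ) {a : L} (ha : a ∈ L0) {x : ℕ × ℕ}
    (hx : x ∈ idx p) (hl : x.1 ≠ 0) (hle : v (a * mono ζ ω x) ≤ 1) :
    v (a * mono ζ ω x) ≤ v (theta ζ ω) := by
  rcases eq_or_ne a 0 with rfl | ha0
  · rw [zero_mul, map_zero]; exact zero_le
  obtain ⟨n, hn⟩ := h.val_term ha ha0 x
  rw [hn] at hle ⊢
  have h1 : (0 : ℤ) ≤ expo p n x := by
    rw [← zpow_zero (v (theta ζ ω))] at hle
    exact h.zpow_theta_le.1 hle
  have h2 : expo p n x ≠ 0 := expo_ne_zero hx hl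
  have h3 : (1 : ℤ) ≤ expo p n x := by omega
  have := h.zpow_theta_le.2 h3
  rwa [zpow_one] at this

/-- **(K2)** `σ a - a ∈ θ² O` for `a` integral. -/
theorem val_sigma_sub (h : KData v L0 p ζ ω σ) {g : ℕ × ℕ → L} (hg : ∀ x, g x ∈ L0)
    (hc : v (ksum p ζ ω g) ≤ 1) :
    v (σ (ksum p ζ ω g) - ksum p ζ ω g) ≤ v (theta ζ ω) ^ 2 := by
  rcases eq_or_ne (ksum p ζ ω g) 0 with h0 | h0
  · rw [h0, map_zero, sub_zero, map_zero]; exact zero_le
  obtain ⟨x₀, hx₀, hg0, hlt, hv⟩ := h.exists_dominant hg h0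
  have hle : ∀ x ∈ idx p, v (g x * mono ζ ω x) ≤ 1 := by
    intro x hx
    by_cases hxx : x = x₀
    · rw [hxx, ← hv]; exact hc
    · exact le_trans (hlt x hx hxx).le (hv ▸ hc)
  have e : σ (ksum p ζ ω g) - ksum p ζ ω g =
      ∑ x ∈ idx p, g x * mono ζ ω x * ((1 + theta ζ ω) ^ x.1 - 1) := by
    rw [h.sigma_ksum hg, ksum, ← sum_sub_distrib]
    exact sum_congr rfl fun x _ => by ring
  rw [e]
  refine v.map_sum_le fun x hx => ?_
  by_cases hl : x.1 = 0
  · rw [hl, pow_zero, sub_self, mul_zero, map_zero]; exact zero_le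
  · rw [map_mul, sq]
    exact mul_le_mul' (h.val_term_le_theta (hg x) hx hl (hle x hx)) (h.val_one_add_theta_pow x.1)

/-! ### (K3) -/

/-- **(K3)** `σ c / c ≡ 1 - m θ mod θ²`, `v c = v θ ^ m`. -/
theorem val_sigma_div (h : KData v L0 p ζ ω σ) {g : ℕ × ℕ → L} (hg : ∀ x, g x ∈ L0)
    (hc : ksum p ζ ω g ≠ 0) :
    ∃ m : ℤ, v (ksum p ζ ω g) = v (theta ζ ω) ^ m ∧
      v (σ (ksum p ζ ω g) / ksum p ζ ω g - (1 - (m : L) * theta ζ ω)) ≤ v (theta ζ ω) ^ 2 := by
  obtain ⟨x₀, hx₀, hg0, hlt, hv⟩ := h.exists_dominant hg hc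
  obtain ⟨n₀, hn₀⟩ := h.val_term (hg x₀) hg0 x₀
  set m : ℤ := expo p n₀ x₀ with hm
  set γ := v (theta ζ ω) with hγ
  refine ⟨m, hv.trans hn₀, ?_⟩
  have hγ1 : γ ≤ 1 := h.val_theta_lt.le
  -- the main estimate
  have key : v (σ (ksum p ζ ω g) - (1 - (m : L) * theta ζ ω) * ksum p ζ ω g) ≤
      v (ksum p ζ ω g) * γ ^ 2 := by
    have e : σ (ksum p ζ ω g) - (1 - (m : L) * theta ζ ω) * ksum p ζ ω g =
        ∑ x ∈ idx p, g x * mono ζ ω x * ((1 + theta ζ ω) ^ x.1 - 1 + (m : L) * theta ζ ω) := by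
      rw [h.sigma_ksum hg, ksum, mul_sum, ← sum_sub_distrib]
      exact sum_congr rfl fun x _ => by ring
    rw [e]
    refine v.map_sum_le fun x hx => ?_
    rw [map_mul]
    by_cases hxx : x = x₀
    · -- the dominant term
      rw [hxx, hv]
      refine mul_le_mul' le_rfl ?_
      obtain ⟨k, hk⟩ := dvd_fst_add_expo p n₀ x₀
      have e2 : (1 + theta ζ ω) ^ x₀.1 - 1 + (m : L) * theta ζ ω =
          ((1 + theta ζ ω) ^ x₀.1 - 1 - (x₀.1 : L) * theta ζ ω) +
            (p : L) * (k : L) * theta ζ ω := by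
        have : ((x₀.1 : ℤ) : L) + (m : L) = (p : L) * (k : L) := by
          rw [hm]
          exact_mod_cast congrArg (Int.cast : ℤ → L) hk
        have h2 : (m : L) = (p : L) * (k : L) - (x₀.1 : L) := by
          rw [← this]; push_cast; ring
        rw [h2]; ring
      rw [e2]
      refine le_trans (v.map_add _ _) (max_le (val_one_add_pow_sub_lin v hγ1 _) ?_)
      rw [map_mul, map_mul, sq]
      calc v (p : L) * v (k : L) * γ ≤ γ * 1 * γ :=
            mul_le_mul' (mul_le_mul' h.vp_le_theta (val_intCast_le_one v k)) le_rfl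
        _ = γ * γ := by rw [mul_one]
    · -- the other terms
      have h1 : v (g x * mono ζ ω x) ≤ v (ksum p ζ ω g) * γ := by
        rcases eq_or_ne (g x) 0 with hgx | hgx
        · rw [hgx, zero_mul, map_zero]; exact zero_le
        obtain ⟨n, hn⟩ := h.val_term (hg x) hgx x
        have h2 := hlt x hx hxx
        rw [hn, hn₀] at h2
        have h3 : m < expo p n x := by
          by_contra hle
          rw [not_lt] at hle
          exact absurd (h.zpow_theta_le.2 hle) (not_le.2 h2)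
        have h4 : m + 1 ≤ expo p n x := by omega
        rw [hn, hv, hn₀, ← zpow_add_one₀ h.val_theta_ne_zero]
        exact h.zpow_theta_le.2 h4
      have h2 : v ((1 + theta ζ ω) ^ x.1 - 1 + (m : L) * theta ζ ω) ≤ γ := by
        refine le_trans (v.map_add _ _) (max_le (h.val_one_add_theta_pow _) ?_)
        rw [map_mul]
        calc v (m : L) * γ ≤ 1 * γ := mul_le_mul' (val_intCast_le_one v m) le_rfl
          _ = γ := one_mul _
      calc v (g x * mono ζ ω x) * v ((1 + theta ζ ω) ^ x.1 - 1 + (m : L) * theta ζ ω)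
          ≤ (v (ksum p ζ ω g) * γ) * γ := mul_le_mul' h1 h2
        _ = v (ksum p ζ ω g) * γ ^ 2 := by rw [sq, mul_assoc]
  have hvc : v (ksum p ζ ω g) ≠ 0 := (Valuation.ne_zero_iff v).2 hc
  have e3 : σ (ksum p ζ ω g) / ksum p ζ ω g - (1 - (m : L) * theta ζ ω) =
      (σ (ksum p ζ ω g) - (1 - (m : L) * theta ζ ω) * ksum p ζ ω g) / ksum p ζ ω g := by
    field_simp
  rw [e3, map_div₀, div_le_iff₀ (zero_lt_iff.2 hvc)]
  rw [mul_comm (γ ^ 2)]
  exact key

end KData

end Fermat.Agent.BADP.H97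

end
-- ==== END Fermat.Agent.BADP.H97_KArith

-- ==== BEGIN Fermat.Agent.FL.H01_NSEX
section

/-!
# G-FL, package FF-NSEX (helper1): a common non-special effective divisor of degree `g`

`H01.stmt_NSEX : Stmt_NSEX`: for finitely many divisors `D` of degree `0` on a function field
`E / k` (`k` algebraically closed) with Riemann's theorem for the constants `g`, `c`, there is an
effective divisor `E₀` of degree `g` with `l(D + E₀) = 1` for all of them.

The divisor is reduced: `E₀ = ∑_{v ∈ A} v` for a set `A` of `g` distinct places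
(`exists_common_pts`).  Proof: add the points one at a time, keeping `l(D + ∑ A) ≤ 1` for all `D`.
For a divisor `D'` with `deg D' + 1 < g + l(D')` the set of places `v` with
`L(D' + v) ≠ L(D')` is finite (`badSet_finite`, from Riemann's equality in large degree); in the
remaining case `l(D') = 0` and one more point raises the dimension by at most one.
Riemann's inequality gives `l(D + E₀) ≥ 1`.
-/

set_option autoImplicit false
set_option linter.style.haveILetI false
set_option linter.unusedSectionVars false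

noncomputable section

open AlgebraicCurve

attribute [local instance] Classical.propDecidable

namespace Fermat.Agent.FL.H01

open Fermat.Agent.RED Fermat.Agent.RED.H17

local notation "L" => riemannRochSpace

variable {k F : Type*} [Field k] [Field F] [Algebra k F]

/-- The places `v` with `L(D + v) ≠ L(D)`. -/
def badSet (D : Divisor k F) : Set (Place k F) :=
  {v | ¬ (L (D + Finsupp.single v 1) ≤ L D)}

/-- If `deg D + 1 < g + l(D)` then `L(D + v) = L(D)` for all but finitely many places `v`. -/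
theorem badSet_finite (H : FFHyp k F) {g : ℕ} {c : ℤ} (hR : IsGenus k F g c)
    (D : Divisor k F)
    (hD : Divisor.degree D + 1 < (g : ℤ) + Module.finrank k (L D)) :
    (badSet D).Finite := by
  by_contra hinf
  have hinf' : (badSet D).Infinite := hinf
  obtain ⟨B, hBsub, hBcard⟩ := hinf'.exists_subset_card_eq ((c - Divisor.degree D).toNat)
  have h1 := H.finrank_add_ptsDiv_ge D B (fun v hv => hBsub hv)
  have hdeg : Divisor.degree (D + ptsDiv B)
      = Divisor.degree D + (c - Divisor.degree D).toNat := by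
    rw [map_add, degree_ptsDiv H.deg_one, hBcard]
  have h2 := (hR (D + ptsDiv B)).2 (by rw [hdeg]; omega)
  rw [hdeg] at h2
  rw [hBcard] at h1
  omega

/-- `g` distinct places `A` with `l(D + ∑ A) ≤ 1` for finitely many `D` of degree `0`. -/
theorem exists_common_pts_le [Infinite k] (H : FFHyp k F) {g : ℕ} {c : ℤ}
    (hR : IsGenus k F g c) (𝒟 : Finset (Divisor k F))
    (h𝒟 : ∀ D ∈ 𝒟, Divisor.degree D = 0) (j : ℕ) (hj : j ≤ g) :
    ∃ A : Finset (Place k F), A.card = j ∧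
      ∀ D ∈ 𝒟, Module.finrank k (L (D + ptsDiv A)) ≤ 1 := by
  induction j with
  | zero =>
    refine ⟨∅, rfl, fun D hD => ?_⟩
    rw [ptsDiv_empty, add_zero]
    have h0 := H.le D (by rw [h𝒟 D hD])
    rw [h𝒟 D hD] at h0
    omega
  | succ j ih =>
    obtain ⟨A, hA, hl⟩ := ih (by omega)
    haveI := H.infinite_place
    -- the finite set of places to avoid
    let T : Set (Place k F) := (↑A : Set (Place k F)) ∪
      ⋃ D ∈ 𝒟, {v | Divisor.degree (D + ptsDiv A) + 1
          < (g : ℤ) + Module.finrank k (L (D + ptsDiv A)) ∧ v ∈ badSet (D + ptsDiv A)}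
    have hT : T.Finite := by
      refine (Finset.finite_toSet A).union ?_
      refine Set.Finite.biUnion (Finset.finite_toSet 𝒟) fun D _ => ?_
      by_cases hc : Divisor.degree (D + ptsDiv A) + 1
          < (g : ℤ) + Module.finrank k (L (D + ptsDiv A))
      · exact (badSet_finite H hR _ hc).subset fun v hv => hv.2
      · exact Set.finite_empty.subset fun v hv => (hc hv.1).elim
    obtain ⟨v, hv⟩ := hT.exists_notMem
    have hvA : v ∉ A := fun h => hv (Or.inl (Finset.mem_coe.mpr h))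
    refine ⟨insert v A, by rw [Finset.card_insert_of_notMem hvA, hA], fun D hD => ?_⟩
    rw [ptsDiv_insert hvA, ← add_assoc]
    have hdegA : Divisor.degree (D + ptsDiv A) = j := by
      rw [map_add, degree_ptsDiv H.deg_one, hA, h𝒟 D hD, zero_add]
    by_cases hc : Divisor.degree (D + ptsDiv A) + 1
        < (g : ℤ) + Module.finrank k (L (D + ptsDiv A))
    · have hgood : L (D + ptsDiv A + Finsupp.single v 1) ≤ L (D + ptsDiv A) := by
        by_contra hbad
        apply hv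
        refine Or.inr ?_
        simp only [Set.mem_iUnion]
        exact ⟨D, hD, hc, hbad⟩
      haveI := H.finite (D + ptsDiv A)
      exact (Submodule.finrank_mono hgood).trans (hl D hD)
    · have h1 := H.finrank_add_single_le (D + ptsDiv A) v
      rw [hdegA] at hc
      omega

/-- **FF-NSEX**, reduced form: `g` distinct places `A` with `l(D + ∑ A) = 1` for finitely many
divisors `D` of degree `0`. -/
theorem exists_common_pts [Infinite k] (H : FFHyp k F) {g : ℕ} {c : ℤ}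
    (hR : IsGenus k F g c) (𝒟 : Finset (Divisor k F))
    (h𝒟 : ∀ D ∈ 𝒟, Divisor.degree D = 0) :
    ∃ A : Finset (Place k F), A.card = g ∧
      ∀ D ∈ 𝒟, Module.finrank k (L (D + ptsDiv A)) = 1 := by
  obtain ⟨A, hA, hl⟩ := exists_common_pts_le H hR 𝒟 h𝒟 g le_rfl
  refine ⟨A, hA, fun D hD => le_antisymm (hl D hD) ?_⟩
  have h1 := (hR (D + ptsDiv A)).1
  rw [map_add, degree_ptsDiv H.deg_one, hA, h𝒟 D hD] at h1
  omega

/-- **FF-NSEX.** -/
theorem stmt_NSEX : Stmt_NSEX := by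
  intro k E _ _ _ _ hFF g c hR 𝒟 h𝒟
  have H : FFHyp k E :=
    { principal := H42.stmt_FFB_principal k E hFF
      deg_one := H51.stmt_FFB_deg k E hFF
      finite := H42.stmt_FFR_finite k E hFF
      le := fun D => (H42.stmt_FFR_le k E hFF D).2
      transc := by
        obtain ⟨x, hx, -⟩ := hFF
        exact ⟨x, hx⟩ }
  have hR' : IsGenus k E g c := fun D => hR D
  obtain ⟨A, hA, hl⟩ := exists_common_pts H hR' 𝒟 h𝒟
  refine ⟨ptsDiv A, ?_, ?_, hl⟩
  · intro v
    exact ptsDiv_nonneg A v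
  · rw [degree_ptsDiv H.deg_one, hA]

end Fermat.Agent.FL.H01

end
end
-- ==== END Fermat.Agent.FL.H01_NSEX

-- ==== BEGIN Fermat.Agent.FL.H22_FrameBC
section

/-!
# G-FL, package MOD-FRAME (helper22), part 1: extension of the field of coefficients

`k₀ ⊆ k` fields, `β = coeffMap (algebraMap k₀ k) : k₀((q)) → k((q))`.

* `coeff_sum_smul_bc`: a `k₀`-linear functional `ψ` of `k`, applied coefficientwise to a
  `k`-linear combination of series with coefficients in `k₀`;
* `linearIndependent_bc`: series which are linearly independent over `k₀` are linearly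
  independent over `k`;
* `mem_of_bc_mem_adjoin`: **descent**: if `β y` lies in the field generated over `k` by
  `β (F₀)`, `F₀` a subfield of `k₀((q))`, then `y ∈ F₀`;
* `gaussRedV_bc`: the Gauss ring and its reduction commute with `β`
  (`O₀ = O ∩ k₀`, residue fields `κ₀ ⊆ κ`).
-/

set_option autoImplicit false

open ModularCurve Fermat.Agent.S28 Fermat.Agent.S28.H73 Fermat.Agent.RED.H73

noncomputable section

namespace Fermat.Agent.FL.H22

/-! ## Coefficientwise functionals -/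

section Functional

variable {k₀ k : Type*} [Field k₀] [Field k] [Algebra k₀ k]

/-- The extension of coefficients. -/
abbrev bc (k₀ k : Type*) [Field k₀] [Field k] [Algebra k₀ k] :
    LaurentSeries k₀ →+* LaurentSeries k :=
  coeffMap (algebraMap k₀ k)

theorem bc_injective : Function.Injective (bc k₀ k) := by
  intro x y hxy
  ext n
  have := congrArg (fun z : LaurentSeries k => z.coeff n) hxy
  simp only [coeffMap_coeff] at this
  exact (algebraMap k₀ k).injective this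

theorem C_eq_algebraMap' {K : Type*} [Field K] (c : K) :
    (HahnSeries.C c : LaurentSeries K) = algebraMap K (LaurentSeries K) c := by
  rw [algebraMap_laurentSeries_eq_single]
  rfl

theorem coeff_C_mul' {K : Type*} [Field K] (a : K) (x : LaurentSeries K) (m : ℤ) :
    (HahnSeries.C a * x).coeff m = a * x.coeff m := by
  rw [HahnSeries.C_mul_eq_smul, HahnSeries.coeff_smul, smul_eq_mul]

theorem coeff_sum_C_mul {K : Type*} [Field K] {ι : Type*} (s : Finset ι) (a : ι → K)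
    (x : ι → LaurentSeries K) (m : ℤ) :
    (∑ i ∈ s, HahnSeries.C (a i) * x i).coeff m = ∑ i ∈ s, a i * (x i).coeff m := by
  classical
  induction s using Finset.induction_on with
  | empty => simp
  | insert j s hj ih =>
    rw [Finset.sum_insert hj, Finset.sum_insert hj, HahnSeries.coeff_add, ih, coeff_C_mul']

/-- A `k₀`-linear functional of `k`, applied to the coefficients of a `k`-linear combination of
series with coefficients in `k₀`. -/
theorem coeff_sum_C_mul_bc (ψ : k →ₗ[k₀] k₀) {ι : Type*} (s : Finset ι) (a : ι → k)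
    (f : ι → LaurentSeries k₀) (m : ℤ) :
    ψ ((∑ i ∈ s, HahnSeries.C (a i) * bc k₀ k (f i)).coeff m)
      = (∑ i ∈ s, HahnSeries.C (ψ (a i)) * f i).coeff m := by
  rw [coeff_sum_C_mul, coeff_sum_C_mul, map_sum]
  refine Finset.sum_congr rfl fun i _ => ?_
  rw [coeffMap_coeff, mul_comm, ← Algebra.smul_def, map_smul, smul_eq_mul, mul_comm]

/-- Series which are linearly independent over `k₀` are linearly independent over `k`
(in the form of a statement on linear combinations). -/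
theorem eq_zero_of_sum_C_mul_bc {ι : Type*} [Fintype ι] {f : ι → LaurentSeries k₀}
    (hf : ∀ c : ι → k₀, ∑ i, HahnSeries.C (c i) * f i = 0 → ∀ i, c i = 0)
    (a : ι → k) (ha : ∑ i, HahnSeries.C (a i) * bc k₀ k (f i) = 0) : ∀ i, a i = 0 := by
  intro i
  rw [← Module.forall_dual_apply_eq_zero_iff k₀ (a i)]
  intro ψ
  have h1 : ∑ j, HahnSeries.C (ψ (a j)) * f j = 0 := by
    ext m
    rw [← coeff_sum_C_mul_bc ψ Finset.univ a f m, ha, HahnSeries.coeff_zero, map_zero,
      HahnSeries.coeff_zero]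
  exact hf _ h1 i

theorem linearIndependent_iff_C_mul {K : Type*} [Field K] {ι : Type*} [Fintype ι]
    (x : ι → LaurentSeries K) :
    LinearIndependent K x ↔
      ∀ c : ι → K, ∑ i, HahnSeries.C (c i) * x i = 0 → ∀ i, c i = 0 := by
  rw [Fintype.linearIndependent_iff]
  have h : ∀ c : ι → K, ∑ i, c i • x i = ∑ i, HahnSeries.C (c i) * x i := fun c =>
    Finset.sum_congr rfl fun i _ => (HahnSeries.C_mul_eq_smul).symm
  constructor
  · intro H c hc
    exact H c (by rw [h c]; exact hc)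
  · intro H c hc
    exact H c (by rw [← h c]; exact hc)

/-- Series which are linearly independent over `k₀` are linearly independent over `k`. -/
theorem linearIndependent_bc {ι : Type*} [Fintype ι] {f : ι → LaurentSeries k₀}
    (hf : LinearIndependent k₀ f) : LinearIndependent k (fun i => bc k₀ k (f i)) := by
  rw [linearIndependent_iff_C_mul] at hf ⊢
  exact eq_zero_of_sum_C_mul_bc hf

end Functional

/-! ## Descent -/

section Descent

variable {k₀ k : Type*} [Field k₀] [Field k] [Algebra k₀ k]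

/-- The elements of the `k`-algebra generated by `β (F₀)` are the `k`-linear combinations of
elements of `β (F₀)`. -/
theorem exists_repr_of_mem_adjoin (F₀ : IntermediateField k₀ (LaurentSeries k₀))
    {x : LaurentSeries k}
    (hx : x ∈ Algebra.adjoin k (⇑(bc k₀ k) '' (F₀ : Set (LaurentSeries k₀)))) :
    ∃ (n : ℕ) (a : Fin n → k) (f : Fin n → LaurentSeries k₀), (∀ i, f i ∈ F₀) ∧
      x = ∑ i, HahnSeries.C (a i) * bc k₀ k (f i) := by
  have h2 := Algebra.adjoin_eq_span (R := k) (s := ⇑(bc k₀ k) '' (F₀ : Set (LaurentSeries k₀)))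
  have h3 : ((Submonoid.closure (⇑(bc k₀ k) '' (F₀ : Set (LaurentSeries k₀)))
      : Submonoid (LaurentSeries k)) : Set (LaurentSeries k))
      = ⇑(bc k₀ k) '' (F₀ : Set (LaurentSeries k₀)) := by
    have h4 : (⇑(bc k₀ k) '' (F₀ : Set (LaurentSeries k₀)))
        = ((F₀.toSubfield.toSubring.toSubmonoid.map (bc k₀ k).toMonoidHom :
            Submonoid (LaurentSeries k)) : Set (LaurentSeries k)) := rfl
    rw [h4, Submonoid.closure_eq]
  rw [h3] at h2
  have hx' : x ∈ Subalgebra.toSubmodule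
      (Algebra.adjoin k (⇑(bc k₀ k) '' (F₀ : Set (LaurentSeries k₀)))) := hx
  rw [h2] at hx'
  obtain ⟨n, a, g, hsum⟩ :=
    (@Submodule.mem_span_set' k (LaurentSeries k) _ _ Algebra.toModule x _).mp hx'
  choose f hf hfg using fun i => (g i).2
  refine ⟨n, a, f, hf, ?_⟩
  rw [← hsum]
  refine Finset.sum_congr rfl fun i _ => ?_
  rw [hfg i, C_eq_algebraMap']
  exact Algebra.smul_def _ _

/-- **Descent**: a series with coefficients in `k₀` which lies in the field generated over `k`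
by `β (F₀)` lies in `F₀`. -/
theorem mem_of_bc_mem_adjoin (F₀ : IntermediateField k₀ (LaurentSeries k₀))
    {y : LaurentSeries k₀}
    (hy : bc k₀ k y ∈ IntermediateField.adjoin k (⇑(bc k₀ k) '' (F₀ : Set (LaurentSeries k₀)))) :
    y ∈ F₀ := by
  obtain ⟨r, hr, s, hs, hrs⟩ := IntermediateField.mem_adjoin_iff_div.mp hy
  by_cases hs0 : s = 0
  · rw [hs0, div_zero] at hrs
    have : y = 0 := bc_injective (by rw [hrs, map_zero])
    rw [this]
    exact F₀.zero_mem
  obtain ⟨n, a, f, hf, rfl⟩ := exists_repr_of_mem_adjoin F₀ hr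
  obtain ⟨n', b, g, hg, rfl⟩ := exists_repr_of_mem_adjoin F₀ hs
  -- the equation in linear form
  have hE : ∑ j, HahnSeries.C (b j) * bc k₀ k (y * g j)
      = ∑ i, HahnSeries.C (a i) * bc k₀ k (f i) := by
    rw [eq_div_iff hs0] at hrs
    rw [← hrs, Finset.mul_sum]
    refine Finset.sum_congr rfl fun j _ => ?_
    rw [map_mul]
    ring
  -- a functional which does not kill the denominator
  obtain ⟨m, hm⟩ : ∃ m : ℤ, (∑ j, HahnSeries.C (b j) * bc k₀ k (g j)).coeff m ≠ 0 := by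
    by_contra hcon
    push Not at hcon
    exact hs0 (HahnSeries.ext (funext fun m => by rw [hcon m, HahnSeries.coeff_zero]))
  obtain ⟨ψ, hψ⟩ := Module.Projective.exists_dual_ne_zero k₀ hm
  have hG : (∑ j, HahnSeries.C (ψ (b j)) * g j) ≠ 0 := by
    intro h0
    apply hψ
    have := coeff_sum_C_mul_bc ψ Finset.univ b g m
    rw [h0, HahnSeries.coeff_zero] at this
    exact this
  have hF : y * (∑ j, HahnSeries.C (ψ (b j)) * g j) = ∑ i, HahnSeries.C (ψ (a i)) * f i := by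
    ext p
    rw [← coeff_sum_C_mul_bc ψ Finset.univ a f p, ← hE,
      coeff_sum_C_mul_bc ψ Finset.univ b _ p, Finset.mul_sum]
    congr 1
    refine Finset.sum_congr rfl fun j _ => ?_
    ring
  have hsmul : ∀ (c : k₀) {z : LaurentSeries k₀}, z ∈ F₀ → HahnSeries.C c * z ∈ F₀ := by
    intro c z hz
    rw [C_eq_algebraMap']
    exact F₀.mul_mem (F₀.algebraMap_mem c) hz
  have hy : y = (∑ i, HahnSeries.C (ψ (a i)) * f i) / (∑ j, HahnSeries.C (ψ (b j)) * g j) := by
    rw [eq_div_iff hG, hF]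
  rw [hy]
  exact F₀.div_mem (F₀.sum_mem fun i _ => hsmul _ (hf i)) (F₀.sum_mem fun j _ => hsmul _ (hg j))

end Descent

/-! ## The Gauss ring -/

section Gauss

variable {K₀ K : Type} [Field K₀] [Field K] [Algebra K₀ K] (O : ValuationSubring K)

/-- The valuation ring `O ∩ K₀` of the small field. -/
abbrev subV (K₀ : Type) {K : Type} [Field K₀] [Field K] [Algebra K₀ K]
    (O : ValuationSubring K) : ValuationSubring K₀ :=
  O.comap (algebraMap K₀ K)

/-- The inclusion `O ∩ K₀ → O`. -/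
def inclV : ↥(subV K₀ O) →+* ↥O :=
  ((algebraMap K₀ K).comp (subV K₀ O).subtype).codRestrict O
    (fun x => ValuationSubring.mem_comap.mp x.2)

@[simp] theorem coe_inclV (a : ↥(subV K₀ O)) :
    ((inclV O a : ↥O) : K) = algebraMap K₀ K (a : K₀) := rfl

instance isLocalHom_inclV : IsLocalHom (inclV (K₀ := K₀) O) := by
  refine ⟨fun a ha => ?_⟩
  rw [isUnit_iff_inv_mem] at ha ⊢
  obtain ⟨h1, h2⟩ := ha
  rw [coe_inclV] at h1 h2
  refine ⟨fun h0 => h1 (by rw [h0, map_zero]), ?_⟩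
  rw [ValuationSubring.mem_comap, map_inv₀]
  exact h2

/-- The inclusion of the residue fields. -/
def resMap : kV (subV K₀ O) →+* kV O :=
  IsLocalRing.ResidueField.map (inclV (K₀ := K₀) O)

theorem resMap_resV (a : ↥(subV K₀ O)) :
    resMap O (resV (subV K₀ O) a) = resV O (inclV O a) :=
  IsLocalRing.ResidueField.map_residue _ _

theorem iotaV_coeffMap_inclV (g : LaurentSeries ↥(subV K₀ O)) :
    iotaV O (coeffMap (inclV O) g) = bc K₀ K (iotaV (subV K₀ O) g) := by
  ext n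
  rfl

theorem redV_coeffMap_inclV (g : LaurentSeries ↥(subV K₀ O)) :
    redV O (coeffMap (inclV O) g) = coeffMap (resMap O) (redV (subV K₀ O) g) := by
  ext n
  simp only [redV_coeff, coeffMap_coeff]
  exact (resMap_resV O _).symm

theorem coeffMap_resMap_ne_zero {y : LaurentSeries (kV (subV K₀ O))} (hy : y ≠ 0) :
    coeffMap (resMap (K₀ := K₀) O) y ≠ 0 := by
  intro h
  apply hy
  ext n
  have := congrArg (fun z : LaurentSeries (kV O) => z.coeff n) h
  simp only [coeffMap_coeff, HahnSeries.coeff_zero] at this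
  rw [HahnSeries.coeff_zero]
  exact (resMap (K₀ := K₀) O).injective (by rw [this, map_zero])

/-- The Gauss ring is compatible with the extension of the coefficients. -/
theorem bc_mem_gaussRingV {x : LaurentSeries K₀} (hx : x ∈ gaussRingV (subV K₀ O)) :
    bc K₀ K x ∈ gaussRingV O := by
  obtain ⟨g, h, hg, hgx⟩ := hx
  refine ⟨coeffMap (inclV O) g, coeffMap (inclV O) h, ?_, ?_⟩
  · rw [redV_coeffMap_inclV]
    exact coeffMap_resMap_ne_zero O hg
  · rw [iotaV_coeffMap_inclV, iotaV_coeffMap_inclV, ← map_mul, hgx]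

/-- The reduction of the Gauss ring is compatible with the extension of the coefficients. -/
theorem gaussRedV_bc {x : LaurentSeries K₀} (hx : x ∈ gaussRingV (subV K₀ O)) :
    gaussRedV O ⟨bc K₀ K x, bc_mem_gaussRingV O hx⟩
      = coeffMap (resMap O) (gaussRedV (subV K₀ O) ⟨x, hx⟩) := by
  have hx' := hx
  obtain ⟨g, h, hg, hgx⟩ := hx'
  have h1 : redV O (coeffMap (inclV O) g) ≠ 0 := by
    rw [redV_coeffMap_inclV]
    exact coeffMap_resMap_ne_zero O hg
  have h2 : iotaV O (coeffMap (inclV O) g) * bc K₀ K x = iotaV O (coeffMap (inclV O) h) := by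
    rw [iotaV_coeffMap_inclV, iotaV_coeffMap_inclV, ← map_mul, hgx]
  rw [gaussRedV_eq O ⟨bc K₀ K x, bc_mem_gaussRingV O hx⟩ h1 h2,
    gaussRedV_eq (subV K₀ O) ⟨x, hx⟩ hg hgx, redV_coeffMap_inclV, redV_coeffMap_inclV,
    map_div₀]

end Gauss

end Fermat.Agent.FL.H22

end
end
-- ==== END Fermat.Agent.FL.H22_FrameBC

-- ==== BEGIN Fermat.Agent.FL.H38_UnrConst
section

set_option autoImplicit false

/-!
# G-FL (S19), package MOD-UNR (helper38): inertia-fixed lifts of the residue constants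

`A` a valuation subring of `ℚ̄` over the prime `ℓ`, `k = A/𝔪` its residue field.

* `isAlgebraic_residue`        : `k` is algebraic over `𝔽_ℓ`;
* `exists_pow_eq_one_residue`  : every `c' ≠ 0` in `k` is a root of unity of order prime to `ℓ`;
* `exists_inertia_fixed_lift`  : every `c' ∈ k` is the residue of some `c ∈ A` fixed by the inertia
  group of `A` (Teichmüller: `c = 0` or a root of unity of order prime to `ℓ`; the reduction
  `μ_m(ℚ̄) → μ_m(k)` is injective, hence bijective, and inertia fixes `μ_m`).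
-/

noncomputable section

namespace Fermat.Agent.FL.H38

open Polynomial IntermediateField

local notation "Qbar" => AlgebraicClosure ℚ

variable (A : ValuationSubring Qbar)

theorem residue_prime_eq_zero {ℓ : ℕ} (hA : A.LiesOverPrime ℓ) :
    ((ℓ : ℕ) : IsLocalRing.ResidueField A) = 0 := by
  rw [← map_natCast (IsLocalRing.residue A), IsLocalRing.residue_eq_zero_iff,
    ← ValuationSubring.coe_mem_nonunits_iff]
  have h : (((ℓ : ℕ) : A) : Qbar) = ((ℓ : ℕ) : Qbar) := by push_cast; rfl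
  rw [h]
  exact hA

theorem charP_residue {ℓ : ℕ} (hℓ : ℓ.Prime) (hA : A.LiesOverPrime ℓ) :
    CharP (IsLocalRing.ResidueField A) ℓ := by
  have h0 := residue_prime_eq_zero A hA
  have h1 : ringChar (IsLocalRing.ResidueField A) ∣ ℓ := ringChar.dvd h0
  rcases (Nat.dvd_prime hℓ).mp h1 with h | h
  · exact absurd h CharP.ringChar_ne_one
  · have h2 := ringChar.charP (IsLocalRing.ResidueField A)
    rwa [h] at h2

/-- The residue field of `A` is algebraic over `𝔽_ℓ`. -/
theorem isAlgebraic_residue {ℓ : ℕ} [Fact ℓ.Prime] [CharP (IsLocalRing.ResidueField A) ℓ]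
    (a : A) :
    ∃ R : (ZMod ℓ)[X], R ≠ 0 ∧
      eval₂ (ZMod.castHom (dvd_refl ℓ) (IsLocalRing.ResidueField A)) (IsLocalRing.residue A a) R
        = 0 := by
  have hℓ : ℓ.Prime := Fact.out
  have h1 : IsAlgebraic ℚ (a : Qbar) := (AlgebraicClosure.isAlgebraic ℚ).isAlgebraic _
  have h2 : IsAlgebraic ℤ (a : Qbar) := (IsFractionRing.isAlgebraic_iff ℤ ℚ Qbar).mpr h1
  obtain ⟨P, hP0, hP⟩ := h2
  set Q : ℤ[X] := P.primPart with hQdef
  have hQ : aeval (a : Qbar) Q = 0 := Polynomial.aeval_primPart_eq_zero hP0 hP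
  have hQprim : Q.IsPrimitive := Polynomial.isPrimitive_primPart P
  have hQA : eval₂ (Int.castRingHom A) a Q = 0 := by
    apply Subtype.ext
    have h3 : A.subtype (eval₂ (Int.castRingHom A) a Q)
        = eval₂ (Int.castRingHom Qbar) (a : Qbar) Q := by
      rw [Polynomial.hom_eval₂]
      congr 1
    have h4 : eval₂ (Int.castRingHom Qbar) (a : Qbar) Q = 0 := by
      rw [← hQ, aeval_def]
      congr 1
    exact h3.trans h4
  have hQk : eval₂ (Int.castRingHom (IsLocalRing.ResidueField A)) (IsLocalRing.residue A a) Q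
      = 0 := by
    have h3 := congrArg (IsLocalRing.residue A) hQA
    rw [Polynomial.hom_eval₂, map_zero] at h3
    rw [← h3]
    congr 1
  refine ⟨Q.map (Int.castRingHom (ZMod ℓ)), ?_, ?_⟩
  · intro h0
    have hdvd : ∀ i, (ℓ : ℤ) ∣ Q.coeff i := by
      intro i
      have h3 := congrArg (fun R : (ZMod ℓ)[X] => R.coeff i) h0
      simp only [coeff_map, coeff_zero, eq_intCast] at h3
      exact (ZMod.intCast_zmod_eq_zero_iff_dvd _ _).mp h3
    have hC : C (ℓ : ℤ) ∣ Q := (Polynomial.C_dvd_iff_dvd_coeff _ _).mpr hdvd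
    have hunit := hQprim _ hC
    rw [Int.isUnit_iff] at hunit
    have h2le := hℓ.two_le
    rcases hunit with h | h
    · have : (ℓ : ℤ) = 1 := h
      omega
    · have : (ℓ : ℤ) = -1 := h
      omega
  · rw [eval₂_map, ← hQk]
    congr 1
    exact RingHom.ext_int _ _

/-- Every nonzero element of the residue field is a root of unity of order prime to `ℓ`. -/
theorem exists_pow_eq_one_residue {ℓ : ℕ} (hℓ : ℓ.Prime) (hA : A.LiesOverPrime ℓ)
    (c' : IsLocalRing.ResidueField A) (hc' : c' ≠ 0) :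
    ∃ m : ℕ, 0 < m ∧ m.Coprime ℓ ∧ c' ^ m = 1 := by
  classical
  have : Fact ℓ.Prime := ⟨hℓ⟩
  have := charP_residue A hℓ hA
  let _ : Algebra (ZMod ℓ) (IsLocalRing.ResidueField A) := ZMod.algebra _ ℓ
  obtain ⟨a, rfl⟩ := IsLocalRing.residue_surjective c'
  have halg : IsAlgebraic (ZMod ℓ) (IsLocalRing.residue A a) := by
    obtain ⟨R, hR0, hR⟩ := isAlgebraic_residue A (ℓ := ℓ) a
    exact ⟨R, hR0, hR⟩
  have hint : IsIntegral (ZMod ℓ) (IsLocalRing.residue A a) := halg.isIntegral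
  have : FiniteDimensional (ZMod ℓ) (ZMod ℓ)⟮IsLocalRing.residue A a⟯ :=
    IntermediateField.adjoin.finiteDimensional hint
  have : Finite (ZMod ℓ)⟮IsLocalRing.residue A a⟯ := Module.finite_of_finite (ZMod ℓ)
  let _ : Fintype (ZMod ℓ)⟮IsLocalRing.residue A a⟯ := Fintype.ofFinite _
  set x : (ZMod ℓ)⟮IsLocalRing.residue A a⟯ :=
    ⟨IsLocalRing.residue A a, IntermediateField.mem_adjoin_simple_self _ _⟩ with hx
  have hx0 : x ≠ 0 := by
    intro h
    apply hc'
    exact congrArg Subtype.val h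
  have h1 := FiniteField.pow_card_sub_one_eq_one x hx0
  obtain ⟨n, -, hn⟩ := FiniteField.card (ZMod ℓ)⟮IsLocalRing.residue A a⟯ ℓ
  have hq1 : 1 < Fintype.card (ZMod ℓ)⟮IsLocalRing.residue A a⟯ := Fintype.one_lt_card
  refine ⟨Fintype.card (ZMod ℓ)⟮IsLocalRing.residue A a⟯ - 1, by omega, ?_, ?_⟩
  · apply Nat.Coprime.symm
    rw [Nat.Prime.coprime_iff_not_dvd hℓ]
    intro hdvd
    have h2 : ℓ ∣ Fintype.card (ZMod ℓ)⟮IsLocalRing.residue A a⟯ := by
      rw [hn]
      exact dvd_pow_self ℓ n.ne_zero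
    have h3 : ℓ ∣ 1 := by
      have := (Nat.dvd_sub h2 hdvd)
      rwa [Nat.sub_sub_self hq1.le] at this
    exact hℓ.one_lt.ne' (Nat.dvd_one.mp h3)
  · have h2 := congrArg Subtype.val h1
    simpa using h2

/-- **MOD-UNR, core**: every element of the residue field of `A` is the residue of an element of
`A` fixed by the inertia group. -/
theorem exists_inertia_fixed_lift {ℓ : ℕ} (hℓ : ℓ.Prime) (hA : A.LiesOverPrime ℓ)
    (c' : IsLocalRing.ResidueField A) :
    ∃ c : Qbar, ∃ hc : c ∈ A, (∀ σ ∈ A.inertiaSubgroupIn ℚ, σ c = c) ∧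
      IsLocalRing.residue A ⟨c, hc⟩ = c' := by
  classical
  by_cases hc0 : c' = 0
  · refine ⟨0, A.zero_mem, fun σ _ => map_zero σ, ?_⟩
    rw [hc0]
    exact map_zero _
  obtain ⟨m, hm0, hmℓ, hcm⟩ := exists_pow_eq_one_residue A hℓ hA c' hc0
  have : NeZero (m : ℚ) := ⟨by exact_mod_cast hm0.ne'⟩
  obtain ⟨ζ, hζ⟩ := HasEnoughRootsOfUnity.exists_primitiveRoot Qbar m
  have hmA : (m : Qbar) ∉ A.nonunits := Fermat.Agent.R.H89.h89_coprime_not_mem_nonunits A hmℓ hA
  have hpow : ∀ i : ℕ, (ζ ^ i) ^ m = 1 := by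
    intro i
    rw [← pow_mul, mul_comm, pow_mul, hζ.pow_eq_one, one_pow]
  have hζA : ∀ i : ℕ, ζ ^ i ∈ A := by
    intro i
    exact (A.valuation_le_one_iff _).1
      (le_of_eq (Fermat.Agent.R.H89.h89_valuation_eq_one_of_pow_eq_one A hm0.ne' (hpow i)))
  set f : ℕ → IsLocalRing.ResidueField A := fun i => IsLocalRing.residue A ⟨ζ ^ i, hζA i⟩
    with hf
  have hf_inj : Set.InjOn f (Finset.range m : Set ℕ) := by
    intro i hi j hj hij
    have h1 : IsLocalRing.residue A (⟨ζ ^ i, hζA i⟩ - ⟨ζ ^ j, hζA j⟩) = 0 := by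
      rw [map_sub, sub_eq_zero]
      exact hij
    rw [IsLocalRing.residue_eq_zero_iff, ← ValuationSubring.coe_mem_nonunits_iff] at h1
    have h2 : ζ ^ i = ζ ^ j :=
      Fermat.Agent.R.H89.h89_eq_of_sub_mem' A m hmA (hpow i) (hpow j) h1
    exact hζ.pow_inj (Finset.mem_range.mp hi) (Finset.mem_range.mp hj) h2
  have hf_mem : ∀ i ∈ Finset.range m, f i ∈ nthRootsFinset m (1 : IsLocalRing.ResidueField A) := by
    intro i _
    rw [mem_nthRootsFinset hm0]
    rw [hf]
    simp only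
    rw [← map_pow]
    have h1 : (⟨ζ ^ i, hζA i⟩ : A) ^ m = 1 := Subtype.ext (hpow i)
    rw [h1, map_one]
  have himg : (Finset.range m).image f = nthRootsFinset m (1 : IsLocalRing.ResidueField A) := by
    apply Finset.eq_of_subset_of_card_le
    · intro y hy
      obtain ⟨i, hi, rfl⟩ := Finset.mem_image.mp hy
      exact hf_mem i hi
    · rw [Finset.card_image_of_injOn hf_inj, Finset.card_range]
      exact (Multiset.toFinset_card_le _).trans (card_nthRoots m 1)
  have hc'mem : c' ∈ nthRootsFinset m (1 : IsLocalRing.ResidueField A) :=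
    (mem_nthRootsFinset hm0 _).mpr hcm
  rw [← himg, Finset.mem_image] at hc'mem
  obtain ⟨i, -, hi⟩ := hc'mem
  refine ⟨ζ ^ i, hζA i, ?_, hi⟩
  intro σ hσ
  exact Fermat.Agent.R.H89.inertia_fixes_rootsOfUnity ℓ A hA σ hσ m hmℓ (ζ ^ i) (hpow i)

end Fermat.Agent.FL.H38

end

end
-- ==== END Fermat.Agent.FL.H38_UnrConst
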