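-- GENERATED (merged mirror, NOTES/tools/trim/merge3_helper67.py): 5 modules of the originals, bodies verbatim.
import Fermat.Agent.Zm.S33_L01_000
import Fermat.Agent.Zm.S35_L13_000
import Fermat.Agent.Zm.S35_L10_002
import Fermat.Agent.Zm.S35_L08_001
import Fermat.Agent.Zm.S33_L01_001

-- ==== BEGIN Fermat.Agent.BAD.H28_DCore
section

/-!
# Item 65 / row 38 (helper28): D-CORE, abstract form (first-order analysis at the nodes)

`S : SSD K F k F₁ F₂`, `σ` a semilinear automorphism, `θ ∈ K`, `θ ≠ 0`, `|θ| < 1`.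

* `PRed.IsFO σ θ u l` : `u ≠ 0`, `(σ u / u - 1) / θ` is integral with reduction `l`
  ("`σ u / u ≡ 1 + l θ`").  Rules: `isFO_of_fixed`, `IsFO.mul`, `IsFO.inv`, `IsFO.div`.
* `SSD.dcore` (**D-CORE**) : let `Ψ = (h - 1) / θ` be integral for both valuations.  Suppose that
  for every node `s` there is `G_s` with `σ G_s / G_s ≡ 1 + l_i(s) θ` for `V_i` (`l_i(s) ∈ k`),
  such that `h G_s / σ G_s` has no pole on the fibre of `s`, and the same at the good places of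
  both components.  Then `rd₁ Ψ = a₁` and `rd₂ Ψ = a₂` are constants and
  `l₁(s) - l₂(s) = a₁ - a₂` at every node `s`.

Plan: `NOTES/plan/L_S44.md` §11 (helper93), step (d) 2.
-/

set_option autoImplicit false
set_option linter.style.haveILetI false

noncomputable section

open AlgebraicCurve

attribute [local instance] Classical.propDecidable

namespace Fermat.Agent.BAD

open Fermat.Agent.RED.H17 Fermat.Agent.RED

namespace PRed

variable {K F k F' : Type*} [Field K] [Field F] [Algebra K F] [Field k] [Field F']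
  [Algebra k F'] (S : PRed K F k F')

/-- First-order variation: `σ u / u = 1 + θ L` with `L` integral of reduction `l`. -/
def IsFO (σ : SemilinearAut K F) (θ : K) (u : F) (l : F') : Prop :=
  u ≠ 0 ∧ ∃ Λ : F, Λ ∈ S.V ∧ S.rd Λ = l ∧ σ • u = u * (1 + algebraMap K F θ * Λ)

variable {S} {σ : SemilinearAut K F} {θ : K}

theorem IsFO.ne_zero {u : F} {l : F'} (h : S.IsFO σ θ u l) : u ≠ 0 := h.1

theorem isFO_of_fixed {u : F} (hu : u ≠ 0) (h : σ • u = u) : S.IsFO σ θ u 0 :=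
  ⟨hu, 0, S.V.zero_mem, S.rd_zero, by rw [mul_zero, add_zero, mul_one, h]⟩

/-- `1 + θ Λ` is a Gauss unit with reduction `1`, for `|θ| < 1`. -/
theorem isGU_one_add (hθ : algebraMap K F θ ∈ S.V) (hθ0 : S.rd (algebraMap K F θ) = 0) {Λ : F}
    (hΛ : Λ ∈ S.V) :
    S.IsGU (1 + algebraMap K F θ * Λ) ∧ S.rd (1 + algebraMap K F θ * Λ) = 1 := by
  have hm : algebraMap K F θ * Λ ∈ S.V := S.V.mul_mem _ _ hθ hΛ
  have hr : S.rd (1 + algebraMap K F θ * Λ) = 1 := by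
    rw [S.rd_add S.V.one_mem hm, S.rd_one, S.rd_mul hθ hΛ, hθ0, zero_mul, add_zero]
  exact ⟨⟨S.V.add_mem _ _ S.V.one_mem hm, by rw [hr]; exact one_ne_zero⟩, hr⟩

theorem IsFO.mul (hθ : algebraMap K F θ ∈ S.V) (hθ0 : S.rd (algebraMap K F θ) = 0) {u v : F}
    {l l' : F'} (hu : S.IsFO σ θ u l) (hv : S.IsFO σ θ v l') : S.IsFO σ θ (u * v) (l + l') := by
  obtain ⟨hu0, Λ, hΛ, hΛr, hΛe⟩ := hu
  obtain ⟨hv0, Λ', hΛ', hΛ'r, hΛ'e⟩ := hv
  have hm : algebraMap K F θ * (Λ * Λ') ∈ S.V := S.V.mul_mem _ _ hθ (S.V.mul_mem _ _ hΛ hΛ')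
  refine ⟨mul_ne_zero hu0 hv0, Λ + Λ' + algebraMap K F θ * (Λ * Λ'),
    S.V.add_mem _ _ (S.V.add_mem _ _ hΛ hΛ') hm, ?_, ?_⟩
  · rw [S.rd_add (S.V.add_mem _ _ hΛ hΛ') hm, S.rd_add hΛ hΛ', hΛr, hΛ'r,
      S.rd_mul hθ (S.V.mul_mem _ _ hΛ hΛ'), hθ0, zero_mul, add_zero]
  · rw [smul_mul', hΛe, hΛ'e]
    ring

theorem IsFO.inv (hθ : algebraMap K F θ ∈ S.V) (hθ0 : S.rd (algebraMap K F θ) = 0) {u : F}
    {l : F'} (hu : S.IsFO σ θ u l) : S.IsFO σ θ u⁻¹ (-l) := by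
  obtain ⟨hu0, Λ, hΛ, hΛr, hΛe⟩ := hu
  obtain ⟨hG, hGr⟩ := isGU_one_add hθ hθ0 hΛ
  have hne : 1 + algebraMap K F θ * Λ ≠ 0 := hG.ne_zero
  have hm : Λ * (1 + algebraMap K F θ * Λ)⁻¹ ∈ S.V := S.V.mul_mem _ _ hΛ hG.inv_mem
  refine ⟨inv_ne_zero hu0, -(Λ * (1 + algebraMap K F θ * Λ)⁻¹), S.V.neg_mem _ hm, ?_, ?_⟩
  · rw [S.rd_neg hm, S.rd_mul hΛ hG.inv_mem, hG.rd_inv, hGr, inv_one, mul_one, hΛr]
  · rw [smul_inv'', hΛe, mul_inv]
    field_simp
    ring

theorem IsFO.div (hθ : algebraMap K F θ ∈ S.V) (hθ0 : S.rd (algebraMap K F θ) = 0) {u v : F}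
    {l l' : F'} (hu : S.IsFO σ θ u l) (hv : S.IsFO σ θ v l') : S.IsFO σ θ (u / v) (l - l') := by
  rw [div_eq_mul_inv, sub_eq_add_neg]
  exact hu.mul hθ hθ0 (hv.inv hθ hθ0)

/-- The function `h G / σ G`, to first order. -/
theorem IsFO.twist (hθ : algebraMap K F θ ∈ S.V) (hθ0 : S.rd (algebraMap K F θ) = 0)
    (hθne : θ ≠ 0) {G : F} {l : F'} (hG : S.IsFO σ θ G l) {h : F}
    (hΨ : (h - 1) / algebraMap K F θ ∈ S.V) :
    (h * G / (σ • G) - 1) / algebraMap K F θ ∈ S.V ∧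
      S.rd ((h * G / (σ • G) - 1) / algebraMap K F θ) =
        S.rd ((h - 1) / algebraMap K F θ) - l := by
  obtain ⟨hG0, Λ, hΛ, hΛr, hΛe⟩ := hG
  obtain ⟨hU, hUr⟩ := isGU_one_add hθ hθ0 hΛ
  have hne : 1 + algebraMap K F θ * Λ ≠ 0 := hU.ne_zero
  have hθF : algebraMap K F θ ≠ 0 := (map_ne_zero_iff _ (algebraMap K F).injective).mpr hθne
  have heq : (h * G / (σ • G) - 1) / algebraMap K F θ =
      ((h - 1) / algebraMap K F θ - Λ) * (1 + algebraMap K F θ * Λ)⁻¹ := by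
    rw [hΛe]
    field_simp
    ring
  have hm : (h - 1) / algebraMap K F θ - Λ ∈ S.V := S.V.sub_mem hΨ hΛ
  rw [heq]
  refine ⟨S.V.mul_mem _ _ hm hU.inv_mem, ?_⟩
  rw [S.rd_mul hm hU.inv_mem, hU.rd_inv, hUr, inv_one, mul_one, S.rd_sub hΨ hΛ, hΛr]

end PRed

namespace SSD

variable {K F k F₁ F₂ : Type*} [Field K] [Field F] [Algebra K F] [Field k] [Field F₁]
  [Algebra k F₁] [Field F₂] [Algebra k F₂] (S : SSD K F k F₁ F₂)

/-- Regularity of `(h' - 1) / θ` from regularity of `h'`. -/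
theorem ord_twist_nonneg {θ : K} {h' : F} {P : Place K F} (hreg : 0 ≤ P.ord h') :
    0 ≤ P.ord ((h' - 1) / algebraMap K F θ) := by
  have h1 : RegAt P (h' - 1) := (regAt_of_ord_nonneg hreg).sub (regAt_one P)
  have h2 : RegAt P ((h' - 1) / algebraMap K F θ) := by
    rw [div_eq_mul_inv, ← map_inv₀]
    exact h1.mul (regAt_algebraMap P θ⁻¹)
  exact h2.ord_nonneg

/-- **D-CORE.** -/
theorem dcore (hP : HasPrincipalDivisors K F) (H₁ : FFHyp k F₁) (H₂ : FFHyp k F₂)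
    (σ : SemilinearAut K F) {θ : K} (hθne : θ ≠ 0) (hθ : S.IsCM θ) {h : F}
    (hΨ₁ : (h - 1) / algebraMap K F θ ∈ S.c₁.V) (hΨ₂ : (h - 1) / algebraMap K F θ ∈ S.c₂.V)
    (l₁ l₂ : Place k F₁ × Place k F₂ → k)
    (hN : ∀ s ∈ S.nodes, ∃ G : F, S.c₁.IsFO σ θ G (algebraMap k F₁ (l₁ s)) ∧
      S.c₂.IsFO σ θ G (algebraMap k F₂ (l₂ s)) ∧
      ∀ P, S.c₁.r P = some s.1 → 0 ≤ P.ord (h * G / (σ • G)))
    (hR₁ : ∀ Q ∈ S.c₁.good, ∃ (G : F) (l : k), S.c₁.IsFO σ θ G (algebraMap k F₁ l) ∧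
      ∀ P, S.c₁.r P = some Q → 0 ≤ P.ord (h * G / (σ • G)))
    (hR₂ : ∀ Q ∈ S.c₂.good, ∃ (G : F) (l : k), S.c₂.IsFO σ θ G (algebraMap k F₂ l) ∧
      ∀ P, S.c₂.r P = some Q → 0 ≤ P.ord (h * G / (σ • G))) :
    ∃ a₁ a₂ : k, S.c₁.rd ((h - 1) / algebraMap K F θ) = algebraMap k F₁ a₁ ∧
      S.c₂.rd ((h - 1) / algebraMap K F θ) = algebraMap k F₂ a₂ ∧
      ∀ s ∈ S.nodes, l₁ s - l₂ s = a₁ - a₂ := by
  -- the local statement at the nodes
  have hnode : ∀ s ∈ S.nodes, ∃ a : k,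
      VanAt s.1 (S.c₁.rd ((h - 1) / algebraMap K F θ) - algebraMap k F₁ (l₁ s + a)) ∧
      VanAt s.2 (S.c₂.rd ((h - 1) / algebraMap K F θ) - algebraMap k F₂ (l₂ s + a)) := by
    intro s hs
    obtain ⟨G, hG₁, hG₂, hreg⟩ := hN s hs
    obtain ⟨hm₁, hr₁⟩ := hG₁.twist hθ.mem₁ hθ.rd₁ hθne hΨ₁
    obtain ⟨hm₂, hr₂⟩ := hG₂.twist hθ.mem₂ hθ.rd₂ hθne hΨ₂
    obtain ⟨a, ha₁, ha₂⟩ := S.glue s hs _ hm₁ hm₂
      (fun P hPs => ord_twist_nonneg (hreg P hPs))
    rw [← S.c₁.rd_of_mem hm₁, hr₁] at ha₁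
    rw [← S.c₂.rd_of_mem hm₂, hr₂] at ha₂
    refine ⟨a, ?_, ?_⟩
    · rw [map_add, ← sub_sub]
      exact ha₁
    · rw [map_add, ← sub_sub]
      exact ha₂
  -- regularity of the reductions
  have hreg₁ : ∀ Q : Place k F₁, 0 ≤ Q.ord (S.c₁.rd ((h - 1) / algebraMap K F θ)) := by
    intro Q
    by_cases hQ : Q ∈ S.c₁.good
    · obtain ⟨G, l, hG, hreg⟩ := hR₁ Q hQ
      obtain ⟨hm, hr⟩ := hG.twist hθ.mem₁ hθ.rd₁ hθne hΨ₁
      have h1 := S.c₁.regAt_rd hP hm hQ (fun P hPQ => ord_twist_nonneg (hreg P hPQ))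
      rw [hr] at h1
      have h2 := h1.add (regAt_algebraMap Q l)
      rw [sub_add_cancel] at h2
      exact h2.ord_nonneg
    · rw [S.good₁] at hQ
      push Not at hQ
      obtain ⟨s, hs, rfl⟩ := hQ
      obtain ⟨a, ha, -⟩ := hnode s hs
      exact (RegAt.of_vanAt_sub ha).ord_nonneg
  have hreg₂ : ∀ Q : Place k F₂, 0 ≤ Q.ord (S.c₂.rd ((h - 1) / algebraMap K F θ)) := by
    intro Q
    by_cases hQ : Q ∈ S.c₂.good
    · obtain ⟨G, l, hG, hreg⟩ := hR₂ Q hQ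
      obtain ⟨hm, hr⟩ := hG.twist hθ.mem₂ hθ.rd₂ hθne hΨ₂
      have h1 := S.c₂.regAt_rd hP hm hQ (fun P hPQ => ord_twist_nonneg (hreg P hPQ))
      rw [hr] at h1
      have h2 := h1.add (regAt_algebraMap Q l)
      rw [sub_add_cancel] at h2
      exact h2.ord_nonneg
    · rw [S.good₂] at hQ
      push Not at hQ
      obtain ⟨s, hs, rfl⟩ := hQ
      obtain ⟨a, -, ha⟩ := hnode s hs
      exact (RegAt.of_vanAt_sub ha).ord_nonneg
  obtain ⟨a₁, ha₁⟩ := H₁.const_of_regular hreg₁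
  obtain ⟨a₂, ha₂⟩ := H₂.const_of_regular hreg₂
  refine ⟨a₁, a₂, ha₁, ha₂, fun s hs => ?_⟩
  obtain ⟨a, h1, h2⟩ := hnode s hs
  rw [ha₁, ← map_sub] at h1
  rw [ha₂, ← map_sub] at h2
  have e1 := const_eq_zero_of_vanAt h1
  have e2 := const_eq_zero_of_vanAt h2
  linear_combination e2 - e1

end SSD

end Fermat.Agent.BAD

end
end
-- ==== END Fermat.Agent.BAD.H28_DCore

-- ==== BEGIN Fermat.Agent.BAD.H28_NodeRad2
section

/-!
# Item 65 (helper28): NODE-RAD, part 2 — coordinates on the annulus of a node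

* `SSD.ord_eq_zero_of_value₁/₂` : a function integral for both valuations, regular on the fibre
  of the node `s`, whose reduction has a non-zero value at one branch, has no zero on the fibre.
* `SSD.IsAnnCoord s t ϖ` and its consequences `isCM` (`|ϖ| < 1`), `value_ne_zero`,
  `value_isCM` (`|τ_P| < 1`), `div_value_isCM` (`|ϖ| < |τ_P|`), `isGU₁_sub`, `isGU₂_sub`,
  `ord_sub_value`, `value_injective`.
-/

set_option autoImplicit false
set_option linter.style.haveILetI false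

noncomputable section

open AlgebraicCurve

attribute [local instance] Classical.propDecidable

namespace Fermat.Agent.BAD

open Fermat.Agent.RED.H17 Fermat.Agent.RED

namespace SSD

variable {K F k F₁ F₂ : Type*} [Field K] [Field F] [Algebra K F] [Field k] [Field F₁]
  [Algebra k F₁] [Field F₂] [Algebra k F₂] (S : SSD K F k F₁ F₂)

/-! ### Functions with a non-zero value at a node -/

/-- If `z` is integral for both valuations, regular on the fibre of `s`, and `rd₁ z` has a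
non-zero value at `s.1`, then `z` is a unit for both valuations, without zero on the fibre. -/
theorem ord_eq_zero_of_value₁ (hP : HasPrincipalDivisors K F) {s : Place k F₁ × Place k F₂}
    (hs : s ∈ S.nodes) {z : F} (h₁ : z ∈ S.c₁.V) (h₂ : z ∈ S.c₂.V)
    (hreg : ∀ P, S.c₁.r P = some s.1 → 0 ≤ P.ord z) {a : k} (ha : a ≠ 0)
    (hv : VanAt s.1 (S.c₁.rd z - algebraMap k F₁ a)) :
    S.c₁.IsGU z ∧ S.c₂.IsGU z ∧ ∀ P, S.c₁.r P = some s.1 → P.ord z = 0 := by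
  obtain ⟨a', ha₁, ha₂⟩ := S.glue s hs z h₁ h₂ hreg
  rw [← S.c₁.rd_of_mem h₁] at ha₁
  rw [← S.c₂.rd_of_mem h₂] at ha₂
  have haa : a = a' := value_unique s.1 hv ha₁
  subst haa
  obtain ⟨hn₁, ho₁⟩ := H60.ord_eq_zero_of_vanAt_sub ha hv
  obtain ⟨hn₂, ho₂⟩ := H60.ord_eq_zero_of_vanAt_sub ha ha₂
  have hG₁ : S.c₁.IsGU z := ⟨h₁, hn₁⟩
  have hG₂ : S.c₂.IsGU z := ⟨h₂, hn₂⟩
  refine ⟨hG₁, hG₂, fun P hPs => ?_⟩
  exact S.ord_eq_zero_of_node hP hs hG₁ hG₂ ⟨1, by rw [map_one, one_mul]⟩ hreg ho₁ ho₂ hPs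

theorem ord_eq_zero_of_value₂ (hP : HasPrincipalDivisors K F) {s : Place k F₁ × Place k F₂}
    (hs : s ∈ S.nodes) {z : F} (h₁ : z ∈ S.c₁.V) (h₂ : z ∈ S.c₂.V)
    (hreg : ∀ P, S.c₁.r P = some s.1 → 0 ≤ P.ord z) {a : k} (ha : a ≠ 0)
    (hv : VanAt s.2 (S.c₂.rd z - algebraMap k F₂ a)) :
    S.c₁.IsGU z ∧ S.c₂.IsGU z ∧ ∀ P, S.c₁.r P = some s.1 → P.ord z = 0 := by
  obtain ⟨a', ha₁, ha₂⟩ := S.glue s hs z h₁ h₂ hreg
  rw [← S.c₁.rd_of_mem h₁] at ha₁
  rw [← S.c₂.rd_of_mem h₂] at ha₂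
  have haa : a = a' := value_unique s.2 hv ha₂
  subst haa
  exact S.ord_eq_zero_of_value₁ hP hs h₁ h₂ hreg ha ha₁

/-- A function vanishing at a place of the fibre of `s` cannot have a non-zero value at a
branch. -/
theorem not_vanAt_of_value₁ (hP : HasPrincipalDivisors K F) {s : Place k F₁ × Place k F₂}
    (hs : s ∈ S.nodes) {z : F} (h₁ : z ∈ S.c₁.V) (h₂ : z ∈ S.c₂.V)
    (hreg : ∀ P, S.c₁.r P = some s.1 → 0 ≤ P.ord z) {a : k} (ha : a ≠ 0)
    (hv : VanAt s.1 (S.c₁.rd z - algebraMap k F₁ a)) {P : Place K F}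
    (hPs : S.c₁.r P = some s.1) : ¬ VanAt P z := by
  intro hz
  obtain ⟨hG, -, h0⟩ := S.ord_eq_zero_of_value₁ hP hs h₁ h₂ hreg ha hv
  have := hz.ord_pos hG.ne_zero
  have := h0 P hPs
  omega

theorem not_vanAt_of_value₂ (hP : HasPrincipalDivisors K F) {s : Place k F₁ × Place k F₂}
    (hs : s ∈ S.nodes) {z : F} (h₁ : z ∈ S.c₁.V) (h₂ : z ∈ S.c₂.V)
    (hreg : ∀ P, S.c₁.r P = some s.1 → 0 ≤ P.ord z) {a : k} (ha : a ≠ 0)
    (hv : VanAt s.2 (S.c₂.rd z - algebraMap k F₂ a)) {P : Place K F}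
    (hPs : S.c₁.r P = some s.1) : ¬ VanAt P z := by
  intro hz
  obtain ⟨hG, -, h0⟩ := S.ord_eq_zero_of_value₂ hP hs h₁ h₂ hreg ha hv
  have := hz.ord_pos hG.ne_zero
  have := h0 P hPs
  omega

/-! ### Coordinates on the annulus of a node -/

/-- `t` is a coordinate on the annulus of the node `s`, of thickness `ϖ`: `rd₁ t` has a simple
zero at `s.1`, `rd₂ (ϖ / t)` has a simple zero at `s.2`, and `t` has neither zero nor pole on the
fibre of `s`. -/
structure IsAnnCoord (S : SSD K F k F₁ F₂) (s : Place k F₁ × Place k F₂) (t : F) (ϖ : K) :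
    Prop where
  isGU₁ : S.c₁.IsGU t
  ord₁ : s.1.ord (S.c₁.rd t) = 1
  isGU₂ : S.c₂.IsGU (algebraMap K F ϖ / t)
  ord₂ : s.2.ord (S.c₂.rd (algebraMap K F ϖ / t)) = 1
  ord_fibre : ∀ P, S.c₁.r P = some s.1 → P.ord t = 0

namespace IsAnnCoord

variable {S} {s : Place k F₁ × Place k F₂} {t : F} {ϖ : K}

theorem t_ne_zero (h : S.IsAnnCoord s t ϖ) : t ≠ 0 := h.isGU₁.ne_zero

theorem ϖ_ne_zero (h : S.IsAnnCoord s t ϖ) : ϖ ≠ 0 := by
  rintro rfl
  have := h.isGU₂.ne_zero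
  rw [map_zero, zero_div] at this
  exact this rfl

theorem ϖF_ne_zero (h : S.IsAnnCoord s t ϖ) : algebraMap K F ϖ ≠ 0 :=
  (map_ne_zero_iff _ (algebraMap K F).injective).mpr h.ϖ_ne_zero

/-- `t / ϖ` is a Gauss unit for `V₂`. -/
theorem isGU₂_div (h : S.IsAnnCoord s t ϖ) : S.c₂.IsGU (t / algebraMap K F ϖ) := by
  have := h.isGU₂.inv
  rwa [inv_div] at this

theorem rd₂_div (h : S.IsAnnCoord s t ϖ) :
    S.c₂.rd (t / algebraMap K F ϖ) = (S.c₂.rd (algebraMap K F ϖ / t))⁻¹ := by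
  have := h.isGU₂.rd_inv
  rwa [inv_div] at this

theorem ord₂_div (h : S.IsAnnCoord s t ϖ) : s.2.ord (S.c₂.rd (t / algebraMap K F ϖ)) = -1 := by
  rw [h.rd₂_div, Place.ord_inv, h.ord₂]

theorem regAt_fibre (h : S.IsAnnCoord s t ϖ) {P : Place K F} (hPs : S.c₁.r P = some s.1) :
    RegAt P t := regAt_of_ord_nonneg (h.ord_fibre P hPs).ge

theorem regAt_inv_fibre (h : S.IsAnnCoord s t ϖ) {P : Place K F} (hPs : S.c₁.r P = some s.1) :
    RegAt P t⁻¹ := regAt_of_ord_nonneg (by rw [Place.ord_inv, h.ord_fibre P hPs, neg_zero])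

theorem vanAt₁ (h : S.IsAnnCoord s t ϖ) : VanAt s.1 (S.c₁.rd t) :=
  vanAt_of_ord_pos (by rw [h.ord₁]; exact one_pos)

theorem vanAt₂ (h : S.IsAnnCoord s t ϖ) : VanAt s.2 (S.c₂.rd (algebraMap K F ϖ / t)) :=
  vanAt_of_ord_pos (by rw [h.ord₂]; exact one_pos)

/-- The thickness lies in the maximal ideal. -/
theorem isCM (h : S.IsAnnCoord s t ϖ) (hs : s ∈ S.nodes) : S.IsCM ϖ := by
  rcases S.isCU_or_isCM ϖ with hu | hm | hm
  · -- `ϖ` unit: `t` is integral for `V₂`, with a pole of the reduction at `s.2`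
    exfalso
    have ht : t = algebraMap K F ϖ * (t / algebraMap K F ϖ) := by
      rw [mul_div_cancel₀ _ h.ϖF_ne_zero]
    have hG : S.c₂.IsGU t := by
      rw [ht]
      exact hu.isGU₂.mul h.isGU₂_div
    have hrd : S.c₂.rd t = S.c₂.rd (algebraMap K F ϖ) * S.c₂.rd (t / algebraMap K F ϖ) := by
      conv_lhs => rw [ht]
      exact S.c₂.rd_mul hu.isGU₂.1 h.isGU₂_div.1
    obtain ⟨a, ha⟩ := S.c₂.rd_const_eq ϖ hu.isGU₂.1
    have ho : s.2.ord (S.c₂.rd t) = -1 := by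
      rw [hrd, s.2.ord_mul hu.isGU₂.2 h.isGU₂_div.2, ha, ord_algebraMap, zero_add, h.ord₂_div]
    have hreg := (S.regAt_of_glue hs h.isGU₁.1 hG.1 fun P hPs => (h.ord_fibre P hPs).ge).2
    have := hreg.ord_nonneg
    omega
  · exact hm
  · -- `ϖ⁻¹ ∈ m`: `t⁻¹` has reduction `0` on the second component
    exfalso
    have ht : t⁻¹ = algebraMap K F ϖ⁻¹ * (algebraMap K F ϖ / t) := by
      rw [map_inv₀]
      field_simp [h.ϖF_ne_zero, h.t_ne_zero]
    have hm2 := hm.mul_mem₂ h.isGU₂.1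
    rw [← ht] at hm2
    have hv := S.vanAt₁_of_vanAt₂ hs h.isGU₁.inv_mem hm2.1
      (fun P hPs => by rw [Place.ord_inv, h.ord_fibre P hPs, neg_zero])
      (by rw [hm2.2]; exact vanAt_zero _)
    have h1 := hv.ord_pos h.isGU₁.inv.2
    rw [h.isGU₁.rd_inv, Place.ord_inv, h.ord₁] at h1
    omega

/-- `t` lies in the maximal ideal of `V₂`. -/
theorem mem₂ (h : S.IsAnnCoord s t ϖ) (hs : s ∈ S.nodes) :
    t ∈ S.c₂.V ∧ S.c₂.rd t = 0 := by
  have ht : t = algebraMap K F ϖ * (t / algebraMap K F ϖ) := by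
    rw [mul_div_cancel₀ _ h.ϖF_ne_zero]
  have := (h.isCM hs).mul_mem₂ h.isGU₂_div.1
  rwa [← ht] at this

/-- The value of `t` at a place of the fibre of `s`. -/
theorem exists_value (h : S.IsAnnCoord s t ϖ) (hdeg : ∀ v : Place K F, v.deg = 1)
    {P : Place K F} (hPs : S.c₁.r P = some s.1) :
    ∃ τ : K, VanAt P (t - algebraMap K F τ) :=
  RED.H17.exists_value P (hdeg P) (h.regAt_fibre hPs)

/-- A family of values. -/
theorem exists_values (h : S.IsAnnCoord s t ϖ) (hdeg : ∀ v : Place K F, v.deg = 1) :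
    ∃ τ : Place K F → K, ∀ P, S.c₁.r P = some s.1 → VanAt P (t - algebraMap K F (τ P)) := by
  have : ∀ P : Place K F, ∃ τ : K, S.c₁.r P = some s.1 → VanAt P (t - algebraMap K F τ) := by
    intro P
    by_cases hPs : S.c₁.r P = some s.1
    · obtain ⟨τ, hτ⟩ := h.exists_value hdeg hPs
      exact ⟨τ, fun _ => hτ⟩
    · exact ⟨0, fun h' => absurd h' hPs⟩
  choose τ hτ using this
  exact ⟨τ, hτ⟩

section Value

variable {P : Place K F} {τ : K}

theorem value_ne_zero (h : S.IsAnnCoord s t ϖ) (hPs : S.c₁.r P = some s.1)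
    (hτ : VanAt P (t - algebraMap K F τ)) : τ ≠ 0 := by
  rintro rfl
  rw [map_zero, sub_zero] at hτ
  have := hτ.ord_pos h.t_ne_zero
  have := h.ord_fibre P hPs
  omega

/-- `|τ_P| < 1`. -/
theorem value_isCM (h : S.IsAnnCoord s t ϖ) (hP : HasPrincipalDivisors K F) (hs : s ∈ S.nodes)
    (hPs : S.c₁.r P = some s.1) (hτ : VanAt P (t - algebraMap K F τ)) : S.IsCM τ := by
  have hτ0 := h.value_ne_zero hPs hτ
  have hτF : algebraMap K F τ ≠ 0 := (map_ne_zero_iff _ (algebraMap K F).injective).mpr hτ0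
  obtain ⟨ht₂, hrt₂⟩ := h.mem₂ hs
  rcases S.isCU_or_isCM τ with hu | hm | hm
  · -- `τ` unit: `t - τ` has the non-zero value `-τ~` at `s.1`
    exfalso
    obtain ⟨a, ha⟩ := S.c₁.rd_const_eq τ hu.isGU₁.1
    have ha0 : a ≠ 0 := by
      rintro rfl
      rw [map_zero] at ha
      exact hu.isGU₁.2 ha
    have hz₁ : t - algebraMap K F τ ∈ S.c₁.V := S.c₁.V.sub_mem h.isGU₁.1 hu.isGU₁.1
    have hz₂ : t - algebraMap K F τ ∈ S.c₂.V := S.c₂.V.sub_mem ht₂ hu.isGU₂.1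
    have hv : VanAt s.1 (S.c₁.rd (t - algebraMap K F τ) - algebraMap k F₁ (-a)) := by
      rw [S.c₁.rd_sub h.isGU₁.1 hu.isGU₁.1, ha, map_neg, sub_neg_eq_add, sub_add_cancel]
      exact h.vanAt₁
    refine S.not_vanAt_of_value₁ hP hs hz₁ hz₂ (fun P' hP's => ?_) (neg_ne_zero.mpr ha0) hv hPs hτ
    exact ((h.regAt_fibre hP's).sub (regAt_algebraMap P' τ)).ord_nonneg
  · exact hm
  · -- `τ⁻¹ ∈ m`: `τ⁻¹ t - 1` has the value `-1` at `s.1`
    exfalso
    have hm₁ := hm.mul_mem₁ h.isGU₁.1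
    have hm₂ := hm.mul_mem₂ ht₂
    have hz₁ : algebraMap K F τ⁻¹ * t - 1 ∈ S.c₁.V := S.c₁.V.sub_mem hm₁.1 S.c₁.V.one_mem
    have hz₂ : algebraMap K F τ⁻¹ * t - 1 ∈ S.c₂.V := S.c₂.V.sub_mem hm₂.1 S.c₂.V.one_mem
    have hv : VanAt s.1 (S.c₁.rd (algebraMap K F τ⁻¹ * t - 1) - algebraMap k F₁ (-1)) := by
      rw [S.c₁.rd_sub hm₁.1 S.c₁.V.one_mem, hm₁.2, S.c₁.rd_one, map_neg, map_one, zero_sub,
        sub_self]
      exact vanAt_zero _
    have hz : algebraMap K F τ⁻¹ * t - 1 = algebraMap K F τ⁻¹ * (t - algebraMap K F τ) := by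
      rw [mul_sub, ← map_mul, inv_mul_cancel₀ hτ0, map_one]
    refine S.not_vanAt_of_value₁ hP hs hz₁ hz₂ (fun P' hP's => ?_)
      (neg_ne_zero.mpr one_ne_zero) hv hPs ?_
    · exact (((regAt_algebraMap P' τ⁻¹).mul (h.regAt_fibre hP's)).sub (regAt_one P')).ord_nonneg
    · rw [hz]
      exact (regAt_algebraMap P τ⁻¹).mul_vanAt hτ

/-- `|ϖ| < |τ_P|`. -/
theorem div_value_isCM (h : S.IsAnnCoord s t ϖ) (hP : HasPrincipalDivisors K F)
    (hs : s ∈ S.nodes) (hPs : S.c₁.r P = some s.1) (hτ : VanAt P (t - algebraMap K F τ)) :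
    S.IsCM (ϖ / τ) := by
  have hτ0 := h.value_ne_zero hPs hτ
  have hτF : algebraMap K F τ ≠ 0 := (map_ne_zero_iff _ (algebraMap K F).injective).mpr hτ0
  have hτm := h.value_isCM hP hs hPs hτ
  -- it suffices to exclude that `γ = τ / ϖ` is integral
  have key : algebraMap K F (τ / ϖ) ∉ S.c₁.V := by
    intro hγ₁
    have hγ₂ : algebraMap K F (τ / ϖ) ∈ S.c₂.V := (S.const_mem _).mp hγ₁
    -- `z = 1 - τ / t`
    have hzeq : 1 - algebraMap K F τ * t⁻¹ =
        1 - algebraMap K F (τ / ϖ) * (algebraMap K F ϖ / t) := by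
      rw [map_div₀]
      field_simp [h.ϖF_ne_zero, h.t_ne_zero]
    have hm₁ := hτm.mul_mem₁ h.isGU₁.inv_mem
    have hz₁ : 1 - algebraMap K F τ * t⁻¹ ∈ S.c₁.V := S.c₁.V.sub_mem S.c₁.V.one_mem hm₁.1
    have hp₂ : algebraMap K F (τ / ϖ) * (algebraMap K F ϖ / t) ∈ S.c₂.V :=
      S.c₂.V.mul_mem _ _ hγ₂ h.isGU₂.1
    have hz₂ : 1 - algebraMap K F τ * t⁻¹ ∈ S.c₂.V := by
      rw [hzeq]
      exact S.c₂.V.sub_mem S.c₂.V.one_mem hp₂
    obtain ⟨b, hb⟩ := S.c₂.rd_const_eq _ hγ₂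
    have hv : VanAt s.2 (S.c₂.rd (1 - algebraMap K F τ * t⁻¹) - algebraMap k F₂ 1) := by
      rw [hzeq, S.c₂.rd_sub S.c₂.V.one_mem hp₂, S.c₂.rd_one, map_one, sub_sub_cancel_left,
        S.c₂.rd_mul hγ₂ h.isGU₂.1, hb]
      exact ((regAt_algebraMap s.2 b).mul_vanAt h.vanAt₂).neg
    refine S.not_vanAt_of_value₂ hP hs hz₁ hz₂ (fun P' hP's => ?_) one_ne_zero hv hPs ?_
    · exact ((regAt_one P').sub ((regAt_algebraMap P' τ).mul (h.regAt_inv_fibre hP's))).ord_nonneg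
    · have : 1 - algebraMap K F τ * t⁻¹ = t⁻¹ * (t - algebraMap K F τ) := by
        field_simp [h.t_ne_zero]
      rw [this]
      exact (h.regAt_inv_fibre hPs).mul_vanAt hτ
  have := S.c₁.inv_const_of_not_mem key
  rwa [inv_div] at this

/-- `t - τ_P` is a Gauss unit for `V₁`, with the reduction of `t`. -/
theorem isGU₁_sub (h : S.IsAnnCoord s t ϖ) (hP : HasPrincipalDivisors K F) (hs : s ∈ S.nodes)
    (hPs : S.c₁.r P = some s.1) (hτ : VanAt P (t - algebraMap K F τ)) :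
    S.c₁.IsGU (t - algebraMap K F τ) ∧ S.c₁.rd (t - algebraMap K F τ) = S.c₁.rd t := by
  have hτm := h.value_isCM hP hs hPs hτ
  have hrd : S.c₁.rd (t - algebraMap K F τ) = S.c₁.rd t := by
    rw [S.c₁.rd_sub h.isGU₁.1 hτm.1, hτm.2, sub_zero]
  exact ⟨⟨S.c₁.V.sub_mem h.isGU₁.1 hτm.1, by rw [hrd]; exact h.isGU₁.2⟩, hrd⟩

/-- `(t - τ_P) / τ_P` is a Gauss unit for `V₂`, with reduction `-1`. -/
theorem isGU₂_sub (h : S.IsAnnCoord s t ϖ) (hP : HasPrincipalDivisors K F) (hs : s ∈ S.nodes)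
    (hPs : S.c₁.r P = some s.1) (hτ : VanAt P (t - algebraMap K F τ)) :
    S.c₂.IsGU (algebraMap K F τ⁻¹ * (t - algebraMap K F τ)) ∧
      S.c₂.rd (algebraMap K F τ⁻¹ * (t - algebraMap K F τ)) = -1 := by
  have hτ0 := h.value_ne_zero hPs hτ
  have hτF : algebraMap K F τ ≠ 0 := (map_ne_zero_iff _ (algebraMap K F).injective).mpr hτ0
  have hm := (h.div_value_isCM hP hs hPs hτ).mul_mem₂ h.isGU₂_div.1
  have heq : algebraMap K F τ⁻¹ * (t - algebraMap K F τ) =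
      algebraMap K F (ϖ / τ) * (t / algebraMap K F ϖ) - 1 := by
    rw [map_div₀, map_inv₀]
    field_simp [h.ϖF_ne_zero]
  have hrd : S.c₂.rd (algebraMap K F τ⁻¹ * (t - algebraMap K F τ)) = -1 := by
    rw [heq, S.c₂.rd_sub hm.1 S.c₂.V.one_mem, hm.2, S.c₂.rd_one, zero_sub]
  refine ⟨⟨?_, by rw [hrd]; exact neg_ne_zero.mpr one_ne_zero⟩, hrd⟩
  rw [heq]
  exact S.c₂.V.sub_mem hm.1 S.c₂.V.one_mem

/-- `t - τ_P` has exactly one zero on the fibre of `s`: the place `P`, and it is simple. -/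
theorem ord_sub_value (h : S.IsAnnCoord s t ϖ) (hP : HasPrincipalDivisors K F)
    (hs : s ∈ S.nodes) (hPs : S.c₁.r P = some s.1) (hτ : VanAt P (t - algebraMap K F τ))
    {P' : Place K F} (hP's : S.c₁.r P' = some s.1) :
    P'.ord (t - algebraMap K F τ) = if P' = P then 1 else 0 := by
  obtain ⟨hG₁, hrd₁⟩ := h.isGU₁_sub hP hs hPs hτ
  obtain ⟨hG₂, hrd₂⟩ := h.isGU₂_sub hP hs hPs hτ
  set z : F := t - algebraMap K F τ with hz
  have hsum := S.sum_node hP hs hG₁ hG₂ ⟨τ⁻¹, rfl⟩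
  have ho₂ : s.2.ord (S.c₂.rd (algebraMap K F τ⁻¹ * z)) = 0 := by
    rw [hrd₂]
    have : (-1 : F₂) = algebraMap k F₂ (-1) := by rw [map_neg, map_one]
    rw [this]
    exact ord_algebraMap s.2 _
  rw [hrd₁, h.ord₁, ho₂, add_zero] at hsum
  have hreg : ∀ P'', S.c₁.r P'' = some s.1 → 0 ≤ P''.ord z := fun P'' hP''s =>
    ((h.regAt_fibre hP''s).sub (regAt_algebraMap P'' τ)).ord_nonneg
  have hnn : ∀ P'' ∈ (dv hP z).support,
      0 ≤ (if S.c₁.r P'' = some s.1 then P''.ord z else 0) := by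
    intro P'' _
    split_ifs with h'
    · exact hreg P'' h'
    · exact le_rfl
  have hpos : 0 < P.ord z := hτ.ord_pos hG₁.ne_zero
  have hmemP : P ∈ (dv hP z).support := by
    rw [Finsupp.mem_support_iff, dv_apply]; omega
  have hle : P.ord z ≤ 1 := by
    have := le_sum_of_nonneg _ _ hnn hmemP
    rw [if_pos hPs, ← hsum] at this
    exact this
  have h1 : P.ord z = 1 := by omega
  split_ifs with hPP
  · rw [hPP]; exact h1
  · by_contra h0
    have hpos' : 0 < P'.ord z := lt_of_le_of_ne (hreg P' hP's) (Ne.symm h0)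
    have hmemP' : P' ∈ (dv hP z).support := by
      rw [Finsupp.mem_support_iff, dv_apply]; omega
    have h2 : (∑ P'' ∈ ({P, P'} : Finset (Place K F)),
        if S.c₁.r P'' = some s.1 then P''.ord z else 0)
        ≤ ∑ P'' ∈ (dv hP z).support, if S.c₁.r P'' = some s.1 then P''.ord z else 0 := by
      refine Finset.sum_le_sum_of_subset_of_nonneg ?_ fun x hx _ => hnn x hx
      intro x hx
      rw [Finset.mem_insert, Finset.mem_singleton] at hx
      rcases hx with rfl | rfl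
      · exact hmemP
      · exact hmemP'
    rw [Finset.sum_pair (Ne.symm hPP), if_pos hPs, if_pos hP's, ← hsum] at h2
    omega

end Value

/-- The value determines the place of the fibre. -/
theorem value_injective (h : S.IsAnnCoord s t ϖ) (hP : HasPrincipalDivisors K F)
    (hs : s ∈ S.nodes) {P P' : Place K F} {τ : K} (hPs : S.c₁.r P = some s.1)
    (hP's : S.c₁.r P' = some s.1) (hτ : VanAt P (t - algebraMap K F τ))
    (hτ' : VanAt P' (t - algebraMap K F τ)) : P' = P := by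
  by_contra hne
  have h1 := h.ord_sub_value hP hs hPs hτ hP's
  rw [if_neg hne] at h1
  have := hτ'.ord_pos (h.isGU₁_sub hP hs hPs hτ).1.ne_zero
  omega

end IsAnnCoord

end SSD

end Fermat.Agent.BAD

end
end
-- ==== END Fermat.Agent.BAD.H28_NodeRad2

-- ==== BEGIN Fermat.Agent.BADP.H28_KeyPCore
section

/-!
# Row 38 (S44, BADP), helper28: RAY-K3 abstract core ("Key-p"), part 1: generic tools

* `H28.one_add_pow_prime_expand` : `(1 + x) ^ p = 1 + p x + p x² r + x ^ p`.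
* `PRed.InM` : the maximal ideal of `V`; `PRed.CongM d α y` : `y = 1 + d (α + μ)`, `μ ∈ m`
  ("`y ≡ 1 + d α` modulo `d m`"), with its product rule and `PRed.congM_formula`.
* `SSD.residue_core` : the residue argument of the nodal key lemma, for an arbitrary function
  `φ` whose reductions are `αb_i - m ∑ b_j / rd_i (s_j)`.

Plan: `NOTES/plan/L_S44.md` §12.3 (e1) (helper93).
-/

set_option autoImplicit false
set_option linter.style.haveILetI false
set_option maxHeartbeats 1000000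

noncomputable section

open AlgebraicCurve

attribute [local instance] Classical.propDecidable

namespace Fermat.Agent.BAD

open Fermat.Agent.RED.H17 Fermat.Agent.RED

local notation "L" => riemannRochSpace

namespace H28

/-- The binomial expansion of `(1 + x) ^ p`, `p` prime, with the terms of degree `0`, `1`, `p`
isolated. -/
theorem one_add_pow_prime_expand {R : Type*} [CommRing R] {p : ℕ} (hp : p.Prime) (x : R) :
    ∃ r : R, (1 + x) ^ p = 1 + p * x + p * x ^ 2 * r + x ^ p := by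
  have h := add_pow_prime_eq hp x (1 : R)
  have h1p : 1 < p := hp.one_lt
  have hIoo : Finset.Ioo 0 p = insert 1 (Finset.Ioo 1 p) := by
    ext k
    simp only [Finset.mem_Ioo, Finset.mem_insert]
    omega
  have hnot : (1 : ℕ) ∉ Finset.Ioo 1 p := by simp
  refine ⟨∑ k ∈ Finset.Ioo 1 p, x ^ (k - 2) * ((p.choose k / p : ℕ) : R), ?_⟩
  have hc1 : p.choose 1 / p = 1 := by
    rw [Nat.choose_one_right]
    exact Nat.div_self hp.pos
  have hsum : ∑ k ∈ Finset.Ioo 1 p, x ^ (k - 1) * (1 : R) ^ (p - k - 1) *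
      ((p.choose k / p : ℕ) : R) =
      x * ∑ k ∈ Finset.Ioo 1 p, x ^ (k - 2) * ((p.choose k / p : ℕ) : R) := by
    rw [Finset.mul_sum]
    apply Finset.sum_congr rfl
    intro k hk
    have hk2 : 2 ≤ k := by
      have := (Finset.mem_Ioo.mp hk).1
      omega
    have e : k - 1 = (k - 2) + 1 := by omega
    rw [e, pow_succ, one_pow]
    ring
  rw [add_comm 1 x, h, hIoo, Finset.sum_insert hnot, hsum, hc1]
  simp only [Nat.sub_self, pow_zero, one_pow, Nat.cast_one, mul_one]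
  ring

end H28

namespace PRed

variable {K F k F' : Type*} [Field K] [Field F] [Algebra K F] [Field k] [Field F']
  [Algebra k F'] (S : PRed K F k F')

/-- The maximal ideal of `V`. -/
def InM (x : F) : Prop := x ∈ S.V ∧ S.rd x = 0

variable {S}

theorem inM_zero : S.InM (0 : F) := ⟨S.V.zero_mem, S.rd_zero⟩

theorem InM.add {x y : F} (hx : S.InM x) (hy : S.InM y) : S.InM (x + y) :=
  ⟨S.V.add_mem _ _ hx.1 hy.1, by rw [S.rd_add hx.1 hy.1, hx.2, hy.2, add_zero]⟩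

theorem InM.neg {x : F} (hx : S.InM x) : S.InM (-x) :=
  ⟨S.V.neg_mem _ hx.1, by rw [S.rd_neg hx.1, hx.2, neg_zero]⟩

theorem InM.sub {x y : F} (hx : S.InM x) (hy : S.InM y) : S.InM (x - y) := by
  rw [sub_eq_add_neg]
  exact hx.add hy.neg

theorem InM.mul_left {x y : F} (hx : x ∈ S.V) (hy : S.InM y) : S.InM (x * y) :=
  ⟨S.V.mul_mem _ _ hx hy.1, by rw [S.rd_mul hx hy.1, hy.2, mul_zero]⟩

theorem InM.mul_right {x y : F} (hx : S.InM x) (hy : y ∈ S.V) : S.InM (x * y) :=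
  ⟨S.V.mul_mem _ _ hx.1 hy, by rw [S.rd_mul hx.1 hy, hx.2, zero_mul]⟩

theorem InM.pow {x : F} (hx : S.InM x) {n : ℕ} (hn : n ≠ 0) : S.InM (x ^ n) :=
  ⟨S.V.pow_mem hx.1 n, by rw [S.rd_pow hx.1, hx.2, zero_pow hn]⟩

theorem InM.sum {ι : Type*} (A : Finset ι) (x : ι → F) (hx : ∀ i ∈ A, S.InM (x i)) :
    S.InM (∑ i ∈ A, x i) := by
  induction A using Finset.induction_on with
  | empty => simpa using inM_zero
  | insert i s hi ih =>
    rw [Finset.sum_insert hi]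
    exact (hx i (Finset.mem_insert_self i s)).add
      (ih fun j hj => hx j (Finset.mem_insert_of_mem hj))

/-- `(p : F)` lies in the maximal ideal if `p = 0` in `k`. -/
theorem inM_natCast {p : ℕ} (hpk : (p : k) = 0) : S.InM (p : F) := by
  refine ⟨S.natCast_mem_V p, ?_⟩
  rw [S.rd_natCast]
  have : (p : F') = algebraMap k F' (p : k) := by simp
  rw [this, hpk, map_zero]

variable (S) in
/-- `y ≡ 1 + d α` modulo `d m`. -/
def CongM (d α y : F) : Prop := ∃ μ : F, S.InM μ ∧ y = 1 + d * (α + μ)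

theorem congM_one (d : F) : S.CongM d 0 1 :=
  ⟨0, inM_zero, by ring⟩

theorem congM_self (d α : F) : S.CongM d α (1 + d * α) :=
  ⟨0, inM_zero, by ring⟩

theorem CongM.mul {d α β y z : F} (hd : S.InM d) (hα : α ∈ S.V) (hβ : β ∈ S.V)
    (hy : S.CongM d α y) (hz : S.CongM d β z) : S.CongM d (α + β) (y * z) := by
  obtain ⟨μ, hμ, rfl⟩ := hy
  obtain ⟨ν, hν, rfl⟩ := hz
  refine ⟨μ + ν + d * ((α + μ) * (β + ν)), (hμ.add hν).add (hd.mul_right
    (S.V.mul_mem _ _ (S.V.add_mem _ _ hα hμ.1) (S.V.add_mem _ _ hβ hν.1))), ?_⟩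
  ring

theorem CongM.prod {d : F} (hd : S.InM d) {ι : Type*} (A : Finset ι) (α y : ι → F)
    (hα : ∀ i ∈ A, α i ∈ S.V) (h : ∀ i ∈ A, S.CongM d (α i) (y i)) :
    S.CongM d (∑ i ∈ A, α i) (∏ i ∈ A, y i) := by
  induction A using Finset.induction_on with
  | empty => simpa using congM_one d
  | insert i s hi ih =>
    rw [Finset.prod_insert hi, Finset.sum_insert hi]
    exact (h i (Finset.mem_insert_self i s)).mul hd (hα i (Finset.mem_insert_self i s))
      (Subring.sum_mem S.V.toSubring fun j hj => hα j (Finset.mem_insert_of_mem hj))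
      (ih (fun j hj => hα j (Finset.mem_insert_of_mem hj))
        fun j hj => h j (Finset.mem_insert_of_mem hj))

/-- Change of the leading term by an element of the maximal ideal. -/
theorem CongM.congr {d α β y : F} (hy : S.CongM d α y) (h : S.InM (α - β)) :
    S.CongM d β y := by
  obtain ⟨μ, hμ, rfl⟩ := hy
  exact ⟨μ + (α - β), hμ.add h, by ring⟩

theorem CongM.quot {d α y : F} (hd : d ≠ 0) (hα : α ∈ S.V) (hy : S.CongM d α y) :
    (y - 1) / d ∈ S.V ∧ S.rd ((y - 1) / d) = S.rd α := by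
  obtain ⟨μ, hμ, rfl⟩ := hy
  have e : (1 + d * (α + μ) - 1) / d = α + μ := by
    field_simp
    ring
  rw [e]
  exact ⟨S.V.add_mem _ _ hα hμ.1, by rw [S.rd_add hα hμ.1, hμ.2, add_zero]⟩

/-- **The first order formula.**  If `y₀ ≡ 1 + d α₀` and `y_i ≡ 1 + d α_i` modulo `d m`, then
`(y₀ ∏ y_i - 1) / d` is integral with reduction `rd α₀ + ∑ rd α_i`. -/
theorem congM_formula {d : F} (hd : S.InM d) (hd0 : d ≠ 0) {ι : Type*} (A : Finset ι)
    (α y : ι → F) (hα : ∀ i ∈ A, α i ∈ S.V) (h : ∀ i ∈ A, S.CongM d (α i) (y i))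
    {α₀ y₀ : F} (hα₀ : α₀ ∈ S.V) (h₀ : S.CongM d α₀ y₀) :
    (y₀ * ∏ i ∈ A, y i - 1) / d ∈ S.V ∧
      S.rd ((y₀ * ∏ i ∈ A, y i - 1) / d) = S.rd α₀ + ∑ i ∈ A, S.rd (α i) := by
  have hsum : ∑ i ∈ A, α i ∈ S.V := Subring.sum_mem S.V.toSubring hα
  have h1 := h₀.mul hd hα₀ hsum (CongM.prod hd A α y hα h)
  obtain ⟨h2, h3⟩ := h1.quot hd0 (S.V.add_mem _ _ hα₀ hsum)
  refine ⟨h2, ?_⟩
  rw [h3, S.rd_add hα₀ hsum, (S.rd_sum A α hα).2]

variable (S) in
/-- The binomial expansion inside `V`. -/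
theorem one_add_pow_prime_mem {p : ℕ} (hp : p.Prime) {x : F} (hx : x ∈ S.V) :
    ∃ r ∈ S.V, (1 + x) ^ p = 1 + p * x + p * x ^ 2 * r + x ^ p := by
  obtain ⟨r, hr⟩ := H28.one_add_pow_prime_expand hp (⟨x, hx⟩ : S.V)
  refine ⟨(r : F), r.2, ?_⟩
  have := congrArg (Subtype.val : S.V → F) hr
  simpa using this

end PRed

end Fermat.Agent.BAD

end
end
-- ==== END Fermat.Agent.BADP.H28_KeyPCore

-- ==== BEGIN Fermat.Agent.BADP.H86_AbsP
section

/-!
# S33, `p`-new case: the abstract form of (T3)  (helper86)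

`Stmt_ABSP` is the statement of `S33.New.H54.Stmt_TorsOrdNew` on an abstract semistable Deuring
datum `S : SSD K F k F₁ F₂` with `char k = p`:

* `f ≡ 1` for the first valuation, `p ∣ div f`;
* **(R2)** `f = a' f' h₀ ^ p` with `f' ≡ 1` for the second valuation;
* **(PW)** for every Kummer function `e f u ^ p = 1 + c₀ φ` of the same class with `φ` integral for
  both valuations and `c₀` a constant of depth `< p / (p - 1) · v(p)`
  (`p ^ p / c₀ ^ (p - 1)` in the maximal ideal), the reductions of `φ` are `p`-th powers;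
* `σ` inertial with `σ ζ = ζ ^ a`, `ζ` a primitive `p`-th root of unity.

Conclusion: `σ f / f ^ a` is a `p`-th power.

In the modular case (R2) comes from NORM-RED and (PW) from TRACE-RED (`BADP.H18.traceRed_insep`)
and PTH-ROOT (`BADP.H86.pthRoot`) for the two degeneracy maps, for the `p`-new classes of `K1(p)`.

Proof of `Stmt_ABSP` (plan `NOTES/plan/R_S33_NEW.md`, helper86's note "geometry leaves"):
MOVE-p (`BADP.H51.stmt_MoveP`), CANON-p, NS-STEP (G4'), TORIC-CHI, TI-p.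
Definitions only.
-/

set_option autoImplicit false

noncomputable section

open AlgebraicCurve

namespace Fermat.Agent.BADP.H86

open Fermat.Agent.RED.H17 Fermat.Agent.RED Fermat.Agent.BAD

/-- **(PW)**: the leading terms of the Kummer functions of the class of `f` are `p`-th powers in
both residue fields, in depth `< p / (p - 1) · v(p)`. -/
def PW {K F k F₁ F₂ : Type} [Field K] [Field F] [Algebra K F] [Field k] [Field F₁]
    [Algebra k F₁] [Field F₂] [Algebra k F₂] (S : SSD K F k F₁ F₂) (p : ℕ) (f : F) : Prop :=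
  ∀ (u φ : F) (e c₀ : K), u ≠ 0 → e ≠ 0 → c₀ ≠ 0 → S.IsCM c₀ →
    S.IsCM ((p : K) ^ p / c₀ ^ (p - 1)) →
    algebraMap K F e * f * u ^ p = 1 + algebraMap K F c₀ * φ → φ ∈ S.c₁.V → φ ∈ S.c₂.V →
      (∃ ψ : F₁, S.c₁.rd φ = ψ ^ p) ∧ ∃ ψ : F₂, S.c₂.rd φ = ψ ^ p

/-- **(T3), abstract form.** -/
def Stmt_ABSP : Prop :=
  ∀ (K F k F₁ F₂ : Type) [Field K] [Field F] [Algebra K F] [Field k] [Field F₁]
    [Algebra k F₁] [Field F₂] [Algebra k F₂] [IsAlgClosed K] [IsAlgClosed k]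
    (S : SSD K F k F₁ F₂), FFHyp K F → FFHyp k F₁ → FFHyp k F₂ →
    ∀ (g g₁ g₂ : ℕ) (c c₁ c₂ : ℤ), IsGenus K F g c → IsGenus k F₁ g₁ c₁ → IsGenus k F₂ g₂ c₂ →
    g + 1 ≤ g₁ + g₂ + S.nodes.card →
    ∀ (p : ℕ), p.Prime → p ≠ 2 → CharP k p → (p : K) ≠ 0 →
    ∀ (ζ : K), ζ ^ p = 1 → ζ ≠ 1 →
    ∀ (σ : SemilinearAut K F), S.IsInertial σ →
    ∀ (a : ℕ), SemilinearAut.baseAut σ ζ = ζ ^ a →
    ∀ (f : F), f ∈ S.c₁.V → S.c₁.rd f = 1 → (∀ P : Place K F, (p : ℤ) ∣ P.ord f) →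
      (∃ (f' h₀ : F) (a' : K), f' ∈ S.c₂.V ∧ S.c₂.rd f' = 1 ∧
        f = algebraMap K F a' * f' * h₀ ^ p) →
      PW S p f →
      ∃ h : F, h ^ p = (σ • f) / f ^ a

end Fermat.Agent.BADP.H86

end
end
-- ==== END Fermat.Agent.BADP.H86_AbsP

-- ==== BEGIN Fermat.Agent.BADP.H97_KSpan
section

/-!
# BAD_p, package K-ARITH, part 2 (helper97): `L₀[ζ, ω]` is spanned by the monomials `ϖ ^ l π ^ j`

`L₀ ⊂ L` fields, `ζ ^ p = 1`, `ζ ≠ 1`, `ω ^ p ∈ L₀`, `π = ζ - 1`, `ϖ = ω - 1`.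

* `mem_adjoin_iff`-type statement `exists_ksum_of_mem_adjoin` : every element of
  `Algebra.adjoin L₀ {ζ, ω}` is of the form `ksum p ζ ω g` with coefficients `g x ∈ L₀`;
* `exists_ksum_of_mem_field` : the same for the field `L₀(ζ, ω)` (`IntermediateField.adjoin`);
* `KData.val_sigma_sub_adjoin`, `KData.val_sigma_div_adjoin` : (K2), (K3) for the elements of
  `L₀(ζ, ω)`.
-/

set_option autoImplicit false

open Finset

namespace Fermat.Agent.BADP.H97

variable {L : Type*} [Field L]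

section Span

variable (L0 : Subfield L) (p : ℕ) (ζ ω : L)

/-- The `L₀`-span of the monomials `ϖ ^ l π ^ j`, `l < p`, `j < p - 1`. -/
def monoSpan : Submodule L0 L := Submodule.span L0 (mono ζ ω '' (idx p : Set (ℕ × ℕ)))

variable {L0 p ζ ω}

theorem mono_mem_monoSpan {x : ℕ × ℕ} (hx : x ∈ idx p) : mono ζ ω x ∈ monoSpan L0 p ζ ω :=
  Submodule.subset_span ⟨x, hx, rfl⟩

theorem mem_idx {x : ℕ × ℕ} : x ∈ idx p ↔ x.1 < p ∧ x.2 < p - 1 := by
  simp [idx]

theorem coe_mul_mem_monoSpan {a m : L} (ha : a ∈ L0) (hm : m ∈ monoSpan L0 p ζ ω) :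
    a * m ∈ monoSpan L0 p ζ ω := by
  have := (monoSpan L0 p ζ ω).smul_mem (⟨a, ha⟩ : L0) hm
  exact this

theorem natCast_mul_mem_monoSpan (n : ℕ) {m : L} (hm : m ∈ monoSpan L0 p ζ ω) :
    (n : L) * m ∈ monoSpan L0 p ζ ω :=
  coe_mul_mem_monoSpan (natCast_mem L0 n) hm

/-- `ϖ ^ p = a - ∑_{m < p} C(p, m) ϖ ^ m`. -/
theorem varpi_pow_eq {a : L} (hω : ω ^ p = a) :
    (ω - 1) ^ p = a - ∑ m ∈ range p, (p.choose m : L) * (ω - 1) ^ m := by
  have h1 := add_pow (ω - 1) 1 p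
  rw [sub_add_cancel, hω, sum_range_succ] at h1
  simp only [one_pow, mul_one, Nat.choose_self, Nat.cast_one, Nat.sub_self, pow_zero] at h1
  rw [h1]
  have : ∑ m ∈ range p, (ω - 1) ^ m * (p.choose m : L) =
      ∑ m ∈ range p, (p.choose m : L) * (ω - 1) ^ m := sum_congr rfl fun m _ => mul_comm _ _
  rw [this]
  ring

/-- `π ^ (p - 1) = - ∑_{i < p - 1} C(p, i + 1) π ^ i`. -/
theorem pi_pow_eq (hp : 0 < p) (hζ : ζ ^ p = 1) (hζ1 : ζ ≠ 1) :
    (ζ - 1) ^ (p - 1) = -∑ i ∈ range (p - 1), (p.choose (i + 1) : L) * (ζ - 1) ^ i := by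
  obtain ⟨n, rfl⟩ : ∃ n, p = n + 1 := ⟨p - 1, (Nat.succ_pred_eq_of_pos hp).symm⟩
  rw [Nat.add_sub_cancel]
  have h1 := add_pow (ζ - 1) 1 (n + 1)
  rw [sub_add_cancel, hζ, sum_range_succ, sum_range_succ'] at h1
  simp only [one_pow, mul_one, Nat.choose_self, Nat.cast_one, pow_zero, Nat.choose_zero_right]
    at h1
  have h2 : (ζ - 1) * (∑ i ∈ range n, ((n + 1).choose (i + 1) : L) * (ζ - 1) ^ i + (ζ - 1) ^ n)
      = 0 := by
    have e : (ζ - 1) * (∑ i ∈ range n, ((n + 1).choose (i + 1) : L) * (ζ - 1) ^ i + (ζ - 1) ^ n) =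
        ∑ i ∈ range n, (ζ - 1) ^ (i + 1) * ((n + 1).choose (i + 1) : L) + (ζ - 1) ^ (n + 1) := by
      rw [mul_add, mul_sum, pow_succ' (ζ - 1) n]
      congr 1
      exact sum_congr rfl fun i _ => by rw [pow_succ']; ring
    rw [e]
    linear_combination -h1
  rcases mul_eq_zero.1 h2 with h | h
  · exact absurd (sub_eq_zero.1 h) hζ1
  · linear_combination h

variable (hp : 1 < p) (hζ : ζ ^ p = 1) (hζ1 : ζ ≠ 1) (hω : ω ^ p ∈ L0)

include hp hω in
theorem varpi_mul_mono_mem {x : ℕ × ℕ} (hx : x ∈ idx p) :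
    (ω - 1) * mono ζ ω x ∈ monoSpan L0 p ζ ω := by
  rw [mem_idx] at hx
  by_cases hl : x.1 + 1 < p
  · have : (ω - 1) * mono ζ ω x = mono ζ ω (x.1 + 1, x.2) := by
      simp only [mono]; ring
    rw [this]
    exact mono_mem_monoSpan (mem_idx.2 ⟨hl, hx.2⟩)
  · have hl' : x.1 + 1 = p := by omega
    have e : (ω - 1) * mono ζ ω x = (ω - 1) ^ p * (ζ - 1) ^ x.2 := by
      simp only [mono]
      rw [← hl']; ring
    rw [e, varpi_pow_eq rfl, sub_mul, sum_mul]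
    refine sub_mem ?_ (sum_mem fun m hm => ?_)
    · have : ω ^ p * (ζ - 1) ^ x.2 = ω ^ p * mono ζ ω (0, x.2) := by simp [mono]
      rw [this]
      exact coe_mul_mem_monoSpan hω (mono_mem_monoSpan (mem_idx.2 ⟨by omega, hx.2⟩))
    · have : (p.choose m : L) * (ω - 1) ^ m * (ζ - 1) ^ x.2 =
          (p.choose m : L) * mono ζ ω (m, x.2) := by simp only [mono]; ring
      rw [this]
      exact natCast_mul_mem_monoSpan _ (mono_mem_monoSpan (mem_idx.2 ⟨mem_range.1 hm, hx.2⟩))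

include hp hζ hζ1 in
theorem pi_mul_mono_mem {x : ℕ × ℕ} (hx : x ∈ idx p) :
    (ζ - 1) * mono ζ ω x ∈ monoSpan L0 p ζ ω := by
  rw [mem_idx] at hx
  by_cases hj : x.2 + 1 < p - 1
  · have : (ζ - 1) * mono ζ ω x = mono ζ ω (x.1, x.2 + 1) := by
      simp only [mono]; ring
    rw [this]
    exact mono_mem_monoSpan (mem_idx.2 ⟨hx.1, hj⟩)
  · have hj' : x.2 + 1 = p - 1 := by omega
    have e : (ζ - 1) * mono ζ ω x = (ω - 1) ^ x.1 * (ζ - 1) ^ (p - 1) := by
      simp only [mono]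
      rw [← hj']; ring
    rw [e, pi_pow_eq (by omega) hζ hζ1, mul_neg, mul_sum]
    refine neg_mem (sum_mem fun i hi => ?_)
    have : (ω - 1) ^ x.1 * ((p.choose (i + 1) : L) * (ζ - 1) ^ i) =
        (p.choose (i + 1) : L) * mono ζ ω (x.1, i) := by simp only [mono]; ring
    rw [this]
    exact natCast_mul_mem_monoSpan _ (mono_mem_monoSpan (mem_idx.2 ⟨hx.1, mem_range.1 hi⟩))

include hp hω in
theorem varpi_mul_mem {m : L} (hm : m ∈ monoSpan L0 p ζ ω) :
    (ω - 1) * m ∈ monoSpan L0 p ζ ω := by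
  induction hm using Submodule.span_induction with
  | mem y hy =>
    obtain ⟨x, hx, rfl⟩ := hy
    exact varpi_mul_mono_mem hp hω hx
  | zero => rw [mul_zero]; exact zero_mem _
  | add y z _ _ hy hz => rw [mul_add]; exact add_mem hy hz
  | smul a y _ hy =>
    have : (ω - 1) * (a • y) = a • ((ω - 1) * y) := by
      rw [Subfield.smul_def, Subfield.smul_def]; ring
    rw [this]
    exact Submodule.smul_mem _ a hy

include hp hζ hζ1 in
theorem pi_mul_mem {m : L} (hm : m ∈ monoSpan L0 p ζ ω) :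
    (ζ - 1) * m ∈ monoSpan L0 p ζ ω := by
  induction hm using Submodule.span_induction with
  | mem y hy =>
    obtain ⟨x, hx, rfl⟩ := hy
    exact pi_mul_mono_mem hp hζ hζ1 hx
  | zero => rw [mul_zero]; exact zero_mem _
  | add y z _ _ hy hz => rw [mul_add]; exact add_mem hy hz
  | smul a y _ hy =>
    have : (ζ - 1) * (a • y) = a • ((ζ - 1) * y) := by
      rw [Subfield.smul_def, Subfield.smul_def]; ring
    rw [this]
    exact Submodule.smul_mem _ a hy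

include hp hζ hζ1 hω in
theorem mono_mul_mem (x : ℕ × ℕ) {m : L} (hm : m ∈ monoSpan L0 p ζ ω) :
    mono ζ ω x * m ∈ monoSpan L0 p ζ ω := by
  obtain ⟨l, j⟩ := x
  simp only [mono]
  have h1 : ∀ j : ℕ, (ζ - 1) ^ j * m ∈ monoSpan L0 p ζ ω := by
    intro j
    induction j with
    | zero => simpa using hm
    | succ j ih =>
      rw [pow_succ', mul_assoc]
      exact pi_mul_mem hp hζ hζ1 ih
  have h2 : ∀ l : ℕ, (ω - 1) ^ l * ((ζ - 1) ^ j * m) ∈ monoSpan L0 p ζ ω := by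
    intro l
    induction l with
    | zero => simpa using h1 j
    | succ l ih =>
      rw [pow_succ', mul_assoc]
      exact varpi_mul_mem hp hω ih
  have := h2 l
  rwa [← mul_assoc] at this

include hp in
theorem one_mem_monoSpan : (1 : L) ∈ monoSpan L0 p ζ ω := by
  have : (1 : L) = mono ζ ω (0, 0) := by simp [mono]
  rw [this]
  exact mono_mem_monoSpan (mem_idx.2 ⟨by simp only; omega, by simp only; omega⟩)

include hp hζ hζ1 hω in
theorem mul_mem_monoSpan {m m' : L} (hm : m ∈ monoSpan L0 p ζ ω) (hm' : m' ∈ monoSpan L0 p ζ ω) :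
    m * m' ∈ monoSpan L0 p ζ ω := by
  induction hm using Submodule.span_induction with
  | mem y hy =>
    obtain ⟨x, -, rfl⟩ := hy
    exact mono_mul_mem hp hζ hζ1 hω x hm'
  | zero => rw [zero_mul]; exact zero_mem _
  | add y z _ _ hy hz => rw [add_mul]; exact add_mem hy hz
  | smul a y _ hy =>
    have : a • y * m' = a • (y * m') := by
      rw [Subfield.smul_def, Subfield.smul_def]; ring
    rw [this]
    exact Submodule.smul_mem _ a hy

include hp hζ hζ1 hω in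
/-- `L₀[ζ, ω]` is contained in the span of the monomials. -/
theorem adjoin_le_monoSpan {c : L} (hc : c ∈ Algebra.adjoin L0 ({ζ, ω} : Set L)) :
    c ∈ monoSpan L0 p ζ ω := by
  induction hc using Algebra.adjoin_induction with
  | mem y hy =>
    have h1 := one_mem_monoSpan (L0 := L0) (ζ := ζ) (ω := ω) hp
    have hy' : y = ζ ∨ y = ω := by
      simpa [Set.mem_insert_iff, Set.mem_singleton_iff] using hy
    have e : y = (y - 1) * 1 + 1 := by ring
    rw [e]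
    rcases hy' with h | h
    · rw [h]
      exact add_mem (pi_mul_mem hp hζ hζ1 h1) h1
    · rw [h]
      exact add_mem (varpi_mul_mem hp hω h1) h1
  | algebraMap r =>
    have : algebraMap L0 L r = r • (1 : L) := by
      rw [Algebra.smul_def, mul_one]
    rw [this]
    exact Submodule.smul_mem _ r (one_mem_monoSpan hp)
  | add y z _ _ hy hz => exact add_mem hy hz
  | mul y z _ _ hy hz => exact mul_mem_monoSpan hp hζ hζ1 hω hy hz

/-- The elements of the span are the sums `ksum p ζ ω g`. -/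
theorem exists_ksum_of_mem_monoSpan {c : L} (hc : c ∈ monoSpan L0 p ζ ω) :
    ∃ g : ℕ × ℕ → L, (∀ x, g x ∈ L0) ∧ c = ksum p ζ ω g := by
  classical
  induction hc using Submodule.span_induction with
  | mem y hy =>
    obtain ⟨x, hx, rfl⟩ := hy
    refine ⟨fun z => if z = x then 1 else 0, fun z => ?_, ?_⟩
    · by_cases hz : z = x
      · simp only [hz, if_true]; exact one_mem L0
      · simp only [hz, if_false]; exact zero_mem L0
    · rw [ksum, sum_eq_single x]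
      · simp
      · intro b _ hb
        simp [hb]
      · intro h
        exact absurd hx h
  | zero =>
    exact ⟨fun _ => 0, fun _ => zero_mem L0, by simp [ksum]⟩
  | add y z _ _ hy hz =>
    obtain ⟨g, hg, rfl⟩ := hy
    obtain ⟨g', hg', rfl⟩ := hz
    refine ⟨fun x => g x + g' x, fun x => add_mem (hg x) (hg' x), ?_⟩
    simp only [ksum, add_mul, sum_add_distrib]
  | smul a y _ hy =>
    obtain ⟨g, hg, rfl⟩ := hy
    refine ⟨fun x => (a : L) * g x, fun x => mul_mem a.2 (hg x), ?_⟩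
    rw [Subfield.smul_def]
    simp only [ksum, smul_eq_mul, mul_sum, mul_assoc]

include hp hζ hζ1 hω in
/-- Every element of `L₀[ζ, ω]` is a sum `∑ g l j ϖ ^ l π ^ j` with coefficients in `L₀`. -/
theorem exists_ksum_of_mem_adjoin {c : L} (hc : c ∈ Algebra.adjoin L0 ({ζ, ω} : Set L)) :
    ∃ g : ℕ × ℕ → L, (∀ x, g x ∈ L0) ∧ c = ksum p ζ ω g :=
  exists_ksum_of_mem_monoSpan (adjoin_le_monoSpan hp hζ hζ1 hω hc)

include hp hζ hζ1 hω in
/-- Every element of the field `L₀(ζ, ω)` is a sum `∑ g l j ϖ ^ l π ^ j` with coefficients in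
`L₀`. -/
theorem exists_ksum_of_mem_field {c : L}
    (hc : c ∈ IntermediateField.adjoin L0 ({ζ, ω} : Set L)) :
    ∃ g : ℕ × ℕ → L, (∀ x, g x ∈ L0) ∧ c = ksum p ζ ω g := by
  have hp0 : p ≠ 0 := by omega
  have halg : ∀ x ∈ ({ζ, ω} : Set L), IsAlgebraic L0 x := by
    intro x hx
    have hx' : x = ζ ∨ x = ω := by
      simpa [Set.mem_insert_iff, Set.mem_singleton_iff] using hx
    refine IsIntegral.isAlgebraic (IsIntegral.of_pow (Nat.pos_of_ne_zero hp0) ?_)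
    rcases hx' with h | h
    · rw [h, hζ]
      exact isIntegral_one
    · rw [h]
      exact (isIntegral_algebraMap (x := (⟨ω ^ p, hω⟩ : L0)))
  have h1 := IntermediateField.adjoin_toSubalgebra_of_isAlgebraic halg
  have h2 : c ∈ (IntermediateField.adjoin L0 ({ζ, ω} : Set L)).toSubalgebra := hc
  rw [h1] at h2
  exact exists_ksum_of_mem_adjoin hp hζ hζ1 hω h2

end Span

namespace KData

variable {Γ₀ : Type*} [LinearOrderedCommGroupWithZero Γ₀] {v : Valuation L Γ₀} {L0 : Subfield L}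
  {p : ℕ} {ζ ω : L} {σ : L →+* L}

theorem omega_pow_mem (h : KData v L0 p ζ ω σ) : ω ^ p ∈ L0 := by
  obtain ⟨u1, hu1, -, hω⟩ := h.pow
  rw [hω]
  exact add_mem (one_mem L0) (mul_mem (natCast_mem L0 p) hu1)

/-- Every element of `L₀(ζ, ω)` is a sum `∑ g l j ϖ ^ l π ^ j` with coefficients in `L₀`. -/
theorem exists_ksum (h : KData v L0 p ζ ω σ) {c : L}
    (hc : c ∈ IntermediateField.adjoin L0 ({ζ, ω} : Set L)) :
    ∃ g : ℕ × ℕ → L, (∀ x, g x ∈ L0) ∧ c = ksum p ζ ω g :=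
  exists_ksum_of_mem_field h.prime.one_lt h.root.pow_eq_one (h.root.ne_one h.prime.one_lt)
    h.omega_pow_mem hc

/-- **(K1)** for the elements of `L₀(ζ, ω)`: the value group is generated by `v θ`. -/
theorem val_adjoin (h : KData v L0 p ζ ω σ) {c : L}
    (hc : c ∈ IntermediateField.adjoin L0 ({ζ, ω} : Set L)) (hc0 : c ≠ 0) :
    ∃ m : ℤ, v c = v (theta ζ ω) ^ m := by
  obtain ⟨g, hg, rfl⟩ := h.exists_ksum hc
  exact h.val_ksum hg hc0

/-- **(K2)** for the elements of `L₀(ζ, ω)`. -/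
theorem val_sigma_sub_adjoin (h : KData v L0 p ζ ω σ) {a : L}
    (ha : a ∈ IntermediateField.adjoin L0 ({ζ, ω} : Set L)) (hle : v a ≤ 1) :
    v (σ a - a) ≤ v (theta ζ ω) ^ 2 := by
  obtain ⟨g, hg, rfl⟩ := h.exists_ksum ha
  exact h.val_sigma_sub hg hle

/-- **(K3)** for the elements of `L₀(ζ, ω)`. -/
theorem val_sigma_div_adjoin (h : KData v L0 p ζ ω σ) {c : L}
    (hc : c ∈ IntermediateField.adjoin L0 ({ζ, ω} : Set L)) (hc0 : c ≠ 0) :
    ∃ m : ℤ, v c = v (theta ζ ω) ^ m ∧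
      v (σ c / c - (1 - (m : L) * theta ζ ω)) ≤ v (theta ζ ω) ^ 2 := by
  obtain ⟨g, hg, rfl⟩ := h.exists_ksum hc
  exact h.val_sigma_div hg hc0

end KData

end Fermat.Agent.BADP.H97

end
-- ==== END Fermat.Agent.BADP.H97_KSpan
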