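-- GENERATED (merged mirror, NOTES/tools/trim/merge3_helper67.py): 4 modules of the originals, bodies verbatim.
import Fermat.Agent.Zm.S33_L02_000

-- ==== BEGIN Fermat.Agent.BAD.H28_NodeRad3
section

/-!
# Item 65 (helper28): NODE-RAD, part 3 — the radius formula

* `SSD.nodeRad` (**NODE-RAD**) : `t` a coordinate of thickness `ϖ` on the annulus of the node
  `s`, `τ_P` the value of `t` at the place `P` of the fibre of `s`.  For `f ≠ 0` with `c₁ f` a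
  Gauss unit of `V₁` and `c₂ f` a Gauss unit of `V₂`,
  `c₁ / (c₂ ϖ ^ m ∏_{P ∈ Z} (τ_P / ϖ) ^ (ord_P f))` is a unit constant, where
  `m = ord_{s.1} (rd₁ (c₁ f))` and `Z` is the set of zeros and poles of `f` on the fibre of `s`.
* `SSD.nodeRad_inertial` : if moreover `div f = n D` on the fibre of `s` and `𝓘` is a set of
  semilinear automorphisms preserving the fibres of `r₁` and the orders of `f`, fixing `t` and
  `ϖ`, then `c₁ / (c₂ ϖ ^ m Y ^ n)` is a unit constant for some `Y ≠ 0` fixed by `𝓘`.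
* `SSD.isAnnCoord_of_thickness` (**COORD**) : construction of a coordinate from a function `U`
  without zero on the fibre.
-/

set_option autoImplicit false
set_option linter.style.haveILetI false

noncomputable section

open AlgebraicCurve

attribute [local instance] Classical.propDecidable

namespace Fermat.Agent.BAD

open Fermat.Agent.RED.H17 Fermat.Agent.RED

namespace H28

theorem prod_zpow_sum {G ι : Type*} [Field G] (s : Finset ι) (x : G) (hx : x ≠ 0) (n : ι → ℤ) :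
    ∏ i ∈ s, x ^ n i = x ^ ∑ i ∈ s, n i := by
  induction s using Finset.induction_on with
  | empty => simp
  | insert i s hi ih => rw [Finset.prod_insert hi, Finset.sum_insert hi, ih, zpow_add₀ hx]

theorem ord_neg_one {k F : Type*} [Field k] [Field F] [Algebra k F] (v : Place k F) :
    v.ord (-1 : F) = 0 := by
  have : (-1 : F) = algebraMap k F (-1) := by rw [map_neg, map_one]
  rw [this]
  exact ord_algebraMap v _

theorem vanAt_smul_of {K F : Type*} [Field K] [Field F] [Algebra K F] (σ : SemilinearAut K F)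
    {P : Place K F} {g : F} (h : VanAt P g) : VanAt (σ • P) (σ • g) := by
  rcases (vanAt_iff_ord P g).mp h with rfl | h0
  · rw [smul_zero]
    exact vanAt_zero _
  · exact vanAt_of_ord_pos (by rw [SemilinearAut.ord_smul]; exact h0)

end H28

namespace SSD

variable {K F k F₁ F₂ : Type*} [Field K] [Field F] [Algebra K F] [Field k] [Field F₁]
  [Algebra k F₁] [Field F₂] [Algebra k F₂] (S : SSD K F k F₁ F₂)

/-- The zeros and poles of `f` on the fibre of `s`. -/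
def fibreSupp (hP : HasPrincipalDivisors K F) (s : Place k F₁ × Place k F₂) (f : F) :
    Finset (Place K F) :=
  (dv hP f).support.filter fun P => S.c₁.r P = some s.1

theorem mem_fibreSupp (hP : HasPrincipalDivisors K F) (s : Place k F₁ × Place k F₂) (f : F)
    (P : Place K F) : P ∈ S.fibreSupp hP s f ↔ S.c₁.r P = some s.1 ∧ P.ord f ≠ 0 := by
  unfold fibreSupp
  rw [Finset.mem_filter, Finsupp.mem_support_iff, dv_apply]
  exact and_comm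

/-- **NODE-RAD.** -/
theorem nodeRad (hP : HasPrincipalDivisors K F) {s : Place k F₁ × Place k F₂}
    (hs : s ∈ S.nodes) {t : F} {ϖ : K} (ht : S.IsAnnCoord s t ϖ) (τ : Place K F → K)
    (hτ : ∀ P, S.c₁.r P = some s.1 → VanAt P (t - algebraMap K F (τ P)))
    {f : F} {c₁ c₂ : K} (h₁ : S.c₁.IsGU (algebraMap K F c₁ * f))
    (h₂ : S.c₂.IsGU (algebraMap K F c₂ * f))
    (Z : Finset (Place K F)) (hZ : ∀ P, P ∈ Z ↔ S.c₁.r P = some s.1 ∧ P.ord f ≠ 0) :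
    S.IsCU (c₁ / (c₂ * ϖ ^ s.1.ord (S.c₁.rd (algebraMap K F c₁ * f)) *
      ∏ P ∈ Z, (τ P / ϖ) ^ P.ord f)) := by
  have hf : f ≠ 0 := by
    rintro rfl
    exact h₁.ne_zero (mul_zero _)
  have hc₁ : c₁ ≠ 0 := by
    rintro rfl
    exact h₁.ne_zero (by rw [map_zero, zero_mul])
  have hc₂ : c₂ ≠ 0 := by
    rintro rfl
    exact h₂.ne_zero (by rw [map_zero, zero_mul])
  have hc₁F : algebraMap K F c₁ ≠ 0 := (map_ne_zero_iff _ (algebraMap K F).injective).mpr hc₁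
  have hc₂F : algebraMap K F c₂ ≠ 0 := (map_ne_zero_iff _ (algebraMap K F).injective).mpr hc₂
  have hϖ := ht.ϖ_ne_zero
  have hϖF := ht.ϖF_ne_zero
  have ht0 := ht.t_ne_zero
  have hZs : ∀ P ∈ Z, S.c₁.r P = some s.1 := fun P hPZ => ((hZ P).mp hPZ).1
  -- the factors
  have hfac₁ : ∀ P ∈ Z, S.c₁.IsGU (t - algebraMap K F (τ P)) := fun P hPZ =>
    (ht.isGU₁_sub hP hs (hZs P hPZ) (hτ P (hZs P hPZ))).1
  have hfac₁rd : ∀ P ∈ Z, S.c₁.rd (t - algebraMap K F (τ P)) = S.c₁.rd t := fun P hPZ =>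
    (ht.isGU₁_sub hP hs (hZs P hPZ) (hτ P (hZs P hPZ))).2
  have hfac₂ : ∀ P ∈ Z, S.c₂.IsGU (algebraMap K F (τ P)⁻¹ * (t - algebraMap K F (τ P))) :=
    fun P hPZ => (ht.isGU₂_sub hP hs (hZs P hPZ) (hτ P (hZs P hPZ))).1
  have hfac₂rd : ∀ P ∈ Z,
      S.c₂.rd (algebraMap K F (τ P)⁻¹ * (t - algebraMap K F (τ P))) = -1 :=
    fun P hPZ => (ht.isGU₂_sub hP hs (hZs P hPZ) (hτ P (hZs P hPZ))).2
  have hτ0 : ∀ P ∈ Z, τ P ≠ 0 := fun P hPZ => ht.value_ne_zero (hZs P hPZ) (hτ P (hZs P hPZ))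
  obtain ⟨hAG, hArd⟩ := PRed.IsGU.prod_zpow Z (fun P => t - algebraMap K F (τ P))
    (fun P => P.ord f) hfac₁
  obtain ⟨hA₂G, hA₂rd⟩ := PRed.IsGU.prod_zpow Z
    (fun P => algebraMap K F (τ P)⁻¹ * (t - algebraMap K F (τ P))) (fun P => P.ord f) hfac₂
  obtain ⟨A, hA⟩ : ∃ A : F, A = ∏ P ∈ Z, (t - algebraMap K F (τ P)) ^ P.ord f := ⟨_, rfl⟩
  obtain ⟨A₂, hA₂⟩ : ∃ A₂ : F,
      A₂ = ∏ P ∈ Z, (algebraMap K F (τ P)⁻¹ * (t - algebraMap K F (τ P))) ^ P.ord f := ⟨_, rfl⟩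
  obtain ⟨B, hB⟩ : ∃ B : K, B = ∏ P ∈ Z, τ P ^ P.ord f := ⟨_, rfl⟩
  obtain ⟨N, hN⟩ : ∃ N : ℤ, N = ∑ P ∈ Z, P.ord f := ⟨_, rfl⟩
  rw [← hA] at hAG hArd
  rw [← hA₂] at hA₂G hA₂rd
  have hB0 : B ≠ 0 := by
    rw [hB]
    exact Finset.prod_ne_zero_iff.mpr fun P hPZ => zpow_ne_zero _ (hτ0 P hPZ)
  have hBF : algebraMap K F B ≠ 0 := (map_ne_zero_iff _ (algebraMap K F).injective).mpr hB0
  have hA₂eq : A₂ = (algebraMap K F B)⁻¹ * A := by
    rw [hA₂, hA, hB, map_prod, ← Finset.prod_inv_distrib, ← Finset.prod_mul_distrib]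
    refine Finset.prod_congr rfl fun P _ => ?_
    rw [mul_zpow, map_zpow₀, map_inv₀, inv_zpow]
  -- the orders of `A` on the fibre
  have hordA : ∀ P', S.c₁.r P' = some s.1 → P'.ord A = P'.ord f := by
    intro P' hP's
    rw [hA, ord_prod P' Z _ (fun P hPZ => zpow_ne_zero _ (hfac₁ P hPZ).ne_zero)]
    have h1 : ∀ P ∈ Z, P'.ord ((t - algebraMap K F (τ P)) ^ P.ord f) =
        if P' = P then P.ord f else 0 := by
      intro P hPZ
      rw [Place.ord_zpow, ht.ord_sub_value hP hs (hZs P hPZ) (hτ P (hZs P hPZ)) hP's]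
      split_ifs
      · rw [mul_one]
      · rw [mul_zero]
    rw [Finset.sum_congr rfl h1, Finset.sum_ite_eq]
    split_ifs with hmem
    · rfl
    · by_contra hne
      exact hmem ((hZ P').mpr ⟨hP's, fun h0 => hne h0.symm⟩)
  -- the orders at the branches
  have hordA₁ : s.1.ord (S.c₁.rd A) = N := by
    rw [hArd, hN, ord_prod s.1 Z _ (fun P hPZ => zpow_ne_zero _ (hfac₁ P hPZ).2)]
    refine Finset.sum_congr rfl fun P hPZ => ?_
    rw [Place.ord_zpow, hfac₁rd P hPZ, ht.ord₁, mul_one]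
  have hordA₂ : s.2.ord (S.c₂.rd A₂) = 0 := by
    rw [hA₂rd, ord_prod s.2 Z _ (fun P hPZ => zpow_ne_zero _ (hfac₂ P hPZ).2)]
    refine Finset.sum_eq_zero fun P hPZ => ?_
    rw [Place.ord_zpow, hfac₂rd P hPZ, H28.ord_neg_one, mul_zero]
  -- conservation at the node
  have hsum := S.sum_node hP hs h₁ h₂ ⟨c₂ / c₁, by rw [map_div₀]; field_simp⟩
  have hsumZ : (∑ P ∈ (dv hP (algebraMap K F c₁ * f)).support,
      if S.c₁.r P = some s.1 then P.ord (algebraMap K F c₁ * f) else 0) = N := by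
    rw [hN, ← Finset.sum_filter]
    refine Finset.sum_congr ?_ fun P _ => ord_algebraMap_mul P hc₁ f
    ext P
    rw [Finset.mem_filter, Finsupp.mem_support_iff, dv_apply, ord_algebraMap_mul P hc₁, hZ]
    exact and_comm
  rw [hsumZ] at hsum
  obtain ⟨m, hm⟩ : ∃ m : ℤ, m = s.1.ord (S.c₁.rd (algebraMap K F c₁ * f)) := ⟨_, rfl⟩
  obtain ⟨m', hm'⟩ : ∃ m' : ℤ, m' = s.2.ord (S.c₂.rd (algebraMap K F c₂ * f)) := ⟨_, rfl⟩
  rw [← hm, ← hm'] at hsum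
  rw [← hm]
  -- the two units
  have hG₁ : S.c₁.IsGU (algebraMap K F c₁ * f / A) := h₁.div hAG
  have hG₁rd := h₁.rd_div hAG
  have hG₂ : S.c₂.IsGU (algebraMap K F c₂ * f / A₂) := h₂.div hA₂G
  have hφ : S.c₁.IsGU (algebraMap K F c₁ * f / A * t ^ m') := hG₁.mul (ht.isGU₁.zpow m')
  have hψ : S.c₂.IsGU (algebraMap K F c₂ * f / A₂ * (t / algebraMap K F ϖ) ^ m') :=
    hG₂.mul (ht.isGU₂_div.zpow m')
  have hψeq : algebraMap K F c₂ * f / A₂ * (t / algebraMap K F ϖ) ^ m' =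
      algebraMap K F (c₂ * B * (ϖ ^ m')⁻¹ / c₁) * (algebraMap K F c₁ * f / A * t ^ m') := by
    rw [hA₂eq, div_zpow, map_div₀, map_mul, map_mul, map_inv₀, map_zpow₀]
    have h1 : algebraMap K F ϖ ^ m' ≠ 0 := zpow_ne_zero _ hϖF
    field_simp
  rw [hψeq] at hψ
  have hφord : s.1.ord (S.c₁.rd (algebraMap K F c₁ * f / A * t ^ m')) = 0 := by
    rw [S.c₁.rd_mul hG₁.1 (ht.isGU₁.zpow m').1, s.1.ord_mul hG₁.2 (ht.isGU₁.zpow m').2, hG₁rd,
      ord_div s.1 h₁.2 hAG.2, hordA₁, ht.isGU₁.rd_zpow, Place.ord_zpow, ht.ord₁, ← hm]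
    omega
  have hφfib : ∀ P, S.c₁.r P = some s.1 → P.ord (algebraMap K F c₁ * f / A * t ^ m') = 0 := by
    intro P' hP's
    rw [P'.ord_mul hG₁.ne_zero (zpow_ne_zero _ ht0), ord_div P' h₁.ne_zero hAG.ne_zero,
      ord_algebraMap_mul P' hc₁, hordA P' hP's, Place.ord_zpow, ht.ord_fibre P' hP's]
    ring
  have hCU := S.isCU_of_node hP hs hφ hψ hφfib hφord
  have hprod : ∏ P ∈ Z, (τ P / ϖ) ^ P.ord f = B / ϖ ^ N := by
    rw [hB, hN, ← H28.prod_zpow_sum Z ϖ hϖ, ← Finset.prod_div_distrib]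
    exact Finset.prod_congr rfl fun P _ => div_zpow _ _ _
  have hfinal : c₁ / (c₂ * ϖ ^ m * ∏ P ∈ Z, (τ P / ϖ) ^ P.ord f) =
      (c₂ * B * (ϖ ^ m')⁻¹ / c₁)⁻¹ := by
    rw [hprod, ← hsum, zpow_add₀ hϖ]
    have h1 : ϖ ^ m ≠ 0 := zpow_ne_zero _ hϖ
    have h2 : ϖ ^ m' ≠ 0 := zpow_ne_zero _ hϖ
    field_simp
  rw [hfinal]
  exact hCU.inv

/-- **NODE-RAD, inertial form.** -/
theorem nodeRad_inertial (hP : HasPrincipalDivisors K F) (hdeg : ∀ v : Place K F, v.deg = 1)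
    {s : Place k F₁ × Place k F₂} (hs : s ∈ S.nodes) {t : F} {ϖ : K}
    (ht : S.IsAnnCoord s t ϖ) {f : F} {c₁ c₂ : K} (h₁ : S.c₁.IsGU (algebraMap K F c₁ * f))
    (h₂ : S.c₂.IsGU (algebraMap K F c₂ * f)) (n : ℕ) (D : Place K F → ℤ)
    (hD : ∀ P, S.c₁.r P = some s.1 → P.ord f = n * D P)
    (I : Set (SemilinearAut K F))
    (hI : ∀ σ ∈ I, (∀ P : Place K F, S.c₁.r (σ • P) = S.c₁.r P) ∧ σ • t = t ∧
      SemilinearAut.baseAut σ ϖ = ϖ ∧ ∀ P : Place K F, (σ • P).ord f = P.ord f) :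
    ∃ Y : K, Y ≠ 0 ∧ (∀ σ ∈ I, SemilinearAut.baseAut σ Y = Y) ∧
      S.IsCU (c₁ / (c₂ * ϖ ^ s.1.ord (S.c₁.rd (algebraMap K F c₁ * f)) * Y ^ n)) := by
  obtain ⟨τ, hτ⟩ := ht.exists_values hdeg
  have hϖ := ht.ϖ_ne_zero
  have hZ := S.mem_fibreSupp hP s f
  obtain ⟨Z, hZdef⟩ : ∃ Z, Z = S.fibreSupp hP s f := ⟨_, rfl⟩
  rw [← hZdef] at hZ
  have hZs : ∀ P ∈ Z, S.c₁.r P = some s.1 := fun P hPZ => ((hZ P).mp hPZ).1
  have hτ0 : ∀ P ∈ Z, τ P ≠ 0 := fun P hPZ => ht.value_ne_zero (hZs P hPZ) (hτ P (hZs P hPZ))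
  refine ⟨∏ P ∈ Z, (τ P / ϖ) ^ D P, ?_, ?_, ?_⟩
  · exact Finset.prod_ne_zero_iff.mpr fun P hPZ => zpow_ne_zero _ (div_ne_zero (hτ0 P hPZ) hϖ)
  · intro σ hσ
    obtain ⟨hr, hσt, hσϖ, hord⟩ := hI σ hσ
    -- the values are equivariant
    have hval : ∀ P, S.c₁.r P = some s.1 → τ (σ • P) = SemilinearAut.baseAut σ (τ P) := by
      intro P hPs
      have h1 := H28.vanAt_smul_of σ (hτ P hPs)
      rw [smul_sub, hσt, SemilinearAut.smul_algebraMap] at h1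
      exact value_unique (σ • P) (hτ (σ • P) ((hr P).trans hPs)) h1
    have hDσ : ∀ P ∈ Z, D (σ • P) = D P := by
      intro P hPZ
      have hPs := hZs P hPZ
      have h1 := hD (σ • P) ((hr P).trans hPs)
      rw [hord P, hD P hPs] at h1
      have hn : (n : ℤ) ≠ 0 := by
        intro h0
        have := ((hZ P).mp hPZ).2
        rw [hD P hPs, h0, zero_mul] at this
        exact this rfl
      exact (mul_left_cancel₀ hn h1).symm
    rw [map_prod]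
    refine Finset.prod_bij (fun P _ => σ • P) ?_ ?_ ?_ ?_
    · intro P hPZ
      rw [hZ]
      exact ⟨(hr P).trans (hZs P hPZ), by rw [hord P]; exact ((hZ P).mp hPZ).2⟩
    · intro P _ P' _ hPP
      exact smul_left_cancel σ hPP
    · intro P' hP'Z
      refine ⟨σ⁻¹ • P', ?_, smul_inv_smul σ P'⟩
      rw [hZ]
      have h1 := hr (σ⁻¹ • P')
      have h2 := hord (σ⁻¹ • P')
      rw [smul_inv_smul] at h1 h2
      exact ⟨h1.symm.trans (hZs P' hP'Z), by rw [← h2]; exact ((hZ P').mp hP'Z).2⟩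
    · intro P hPZ
      rw [map_zpow₀, map_div₀, hσϖ, hval P (hZs P hPZ), hDσ P hPZ]
  · have h := S.nodeRad hP hs ht τ hτ h₁ h₂ Z hZ
    have hpow : (∏ P ∈ Z, (τ P / ϖ) ^ D P) ^ n = ∏ P ∈ Z, (τ P / ϖ) ^ P.ord f := by
      rw [← Finset.prod_pow]
      refine Finset.prod_congr rfl fun P hPZ => ?_
      rw [hD P (hZs P hPZ), mul_comm, zpow_mul, zpow_natCast]
    rw [hpow]
    exact h

/-- **NODE-RAD, inertial form**, for inertial automorphisms fixing `f`. -/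
theorem nodeRad_isInertial (hP : HasPrincipalDivisors K F) (hdeg : ∀ v : Place K F, v.deg = 1)
    {s : Place k F₁ × Place k F₂} (hs : s ∈ S.nodes) {t : F} {ϖ : K}
    (ht : S.IsAnnCoord s t ϖ) {f : F} {c₁ c₂ : K} (h₁ : S.c₁.IsGU (algebraMap K F c₁ * f))
    (h₂ : S.c₂.IsGU (algebraMap K F c₂ * f)) (n : ℕ) (D : Place K F → ℤ)
    (hD : ∀ P, S.c₁.r P = some s.1 → P.ord f = n * D P)
    (I : Set (SemilinearAut K F))
    (hI : ∀ σ ∈ I, S.IsInertial σ ∧ σ • t = t ∧ SemilinearAut.baseAut σ ϖ = ϖ ∧ σ • f = f) :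
    ∃ Y : K, Y ≠ 0 ∧ (∀ σ ∈ I, SemilinearAut.baseAut σ Y = Y) ∧
      S.IsCU (c₁ / (c₂ * ϖ ^ s.1.ord (S.c₁.rd (algebraMap K F c₁ * f)) * Y ^ n)) := by
  refine S.nodeRad_inertial hP hdeg hs ht h₁ h₂ n D hD I fun σ hσ => ?_
  obtain ⟨hin, hσt, hσϖ, hσf⟩ := hI σ hσ
  refine ⟨hin.r₁, hσt, hσϖ, fun P => ?_⟩
  conv_lhs => rw [← hσf]
  exact SemilinearAut.ord_smul σ P f

/-- **COORD**: a coordinate on the annulus from a function `U` without zero on the fibre of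
`s` (`|U|₁ = 1`, `|U|₂ = |ϖ_U|`, `ord_{s.1} (rd₁ U) = a ≥ 1`) and a function `t` with
`|t|₁ = 1`, `|t|₂ ≤ |ϖ|`, `rd₁ t` with a simple zero at `s.1`, regular on the fibre, provided
`|ϖ| ^ a ≤ |ϖ_U|`. -/
theorem isAnnCoord_of_thickness (hP : HasPrincipalDivisors K F)
    {s : Place k F₁ × Place k F₂} (hs : s ∈ S.nodes) {t U : F} {ϖ ϖU : K} {a : ℕ}
    (ha : a ≠ 0) (hU₁ : S.c₁.IsGU U) (hU₂ : S.c₂.IsGU (U / algebraMap K F ϖU))
    (hUfib : ∀ P, S.c₁.r P = some s.1 → P.ord U = 0) (hUord : s.1.ord (S.c₁.rd U) = a)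
    (ht₁ : S.c₁.IsGU t) (hto : s.1.ord (S.c₁.rd t) = 1)
    (htreg : ∀ P, S.c₁.r P = some s.1 → 0 ≤ P.ord t) (hϖ : ϖ ≠ 0)
    (ht₂ : t / algebraMap K F ϖ ∈ S.c₂.V) (hϖU : algebraMap K F (ϖ ^ a / ϖU) ∈ S.c₁.V) :
    S.IsAnnCoord s t ϖ ∧ S.IsCU (ϖ ^ a / ϖU) := by
  have hϖF : algebraMap K F ϖ ≠ 0 := (map_ne_zero_iff _ (algebraMap K F).injective).mpr hϖ
  have hϖU0 : algebraMap K F ϖU ≠ 0 := by
    intro h0
    have := hU₂.ne_zero
    rw [h0, div_zero] at this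
    exact this rfl
  have ht0 := ht₁.ne_zero
  have hU0 := hU₁.ne_zero
  -- conservation for `U`
  have hsumU := S.sum_node hP hs hU₁ hU₂ ⟨ϖU⁻¹, by rw [map_inv₀]; field_simp⟩
  rw [S.sum_fibre_eq_zero hP hUfib, hUord] at hsumU
  -- the function `t ^ a / U`
  have hf₁ : S.c₁.IsGU (t ^ a / U) := (ht₁.pow a).div hU₁
  have hf₁o : s.1.ord (S.c₁.rd (t ^ a / U)) = 0 := by
    rw [(ht₁.pow a).rd_div hU₁, ord_div s.1 (ht₁.pow a).2 hU₁.2, S.c₁.rd_pow ht₁.1,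
      ord_pow, hto, hUord]
    ring
  have hϖU₂ : algebraMap K F (ϖ ^ a / ϖU) ∈ S.c₂.V := (S.const_mem _).mp hϖU
  have hp₁ : (t / algebraMap K F ϖ) ^ a ∈ S.c₂.V := S.c₂.V.pow_mem ht₂ a
  have hp₂ : (t / algebraMap K F ϖ) ^ a * algebraMap K F (ϖ ^ a / ϖU) ∈ S.c₂.V :=
    S.c₂.V.mul_mem _ _ hp₁ hϖU₂
  have hfeq : t ^ a / U =
      (t / algebraMap K F ϖ) ^ a * algebraMap K F (ϖ ^ a / ϖU) * (U / algebraMap K F ϖU)⁻¹ := by
    rw [map_div₀, map_pow, div_pow]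
    field_simp
  have hf₂ : t ^ a / U ∈ S.c₂.V := by
    rw [hfeq]
    exact S.c₂.V.mul_mem _ _ hp₂ hU₂.inv_mem
  have hfreg : ∀ P, S.c₁.r P = some s.1 → 0 ≤ P.ord (t ^ a / U) := by
    intro P hPs
    rw [ord_div P (pow_ne_zero _ ht0) hU0, ord_pow, hUfib P hPs, sub_zero]
    exact mul_nonneg (Int.natCast_nonneg a) (htreg P hPs)
  obtain ⟨α, hα₁, hα₂⟩ := S.glue s hs _ hf₁.1 hf₂ hfreg
  rw [← S.c₁.rd_of_mem hf₁.1] at hα₁
  rw [← S.c₂.rd_of_mem hf₂] at hα₂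
  have hα0 : α ≠ 0 := by
    rintro rfl
    rw [map_zero, sub_zero] at hα₁
    have := hα₁.ord_pos hf₁.2
    omega
  obtain ⟨hn₂, ho₂⟩ := H60.ord_eq_zero_of_vanAt_sub hα0 hα₂
  -- the reduction of `t ^ a / U` for `V₂`
  have hrd : S.c₂.rd (t ^ a / U) = S.c₂.rd (t / algebraMap K F ϖ) ^ a *
      S.c₂.rd (algebraMap K F (ϖ ^ a / ϖU)) * (S.c₂.rd (U / algebraMap K F ϖU))⁻¹ := by
    conv_lhs => rw [hfeq]
    rw [S.c₂.rd_mul hp₂ hU₂.inv_mem, S.c₂.rd_mul hp₁ hϖU₂, S.c₂.rd_pow ht₂, hU₂.rd_inv]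
  rw [hrd] at hn₂ ho₂
  have hx₁ : S.c₂.rd (t / algebraMap K F ϖ) ≠ 0 := by
    intro h0
    rw [h0, zero_pow ha, zero_mul, zero_mul] at hn₂
    exact hn₂ rfl
  have hx₂ : S.c₂.rd (algebraMap K F (ϖ ^ a / ϖU)) ≠ 0 := by
    intro h0
    rw [h0, mul_zero, zero_mul] at hn₂
    exact hn₂ rfl
  have hGt : S.c₂.IsGU (t / algebraMap K F ϖ) := ⟨ht₂, hx₁⟩
  have hCU : S.IsCU (ϖ ^ a / ϖU) := isCU_of_isGU₂ ⟨hϖU₂, hx₂⟩
  obtain ⟨b, hb⟩ := S.c₂.rd_const_eq _ hϖU₂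
  have hot : s.2.ord (S.c₂.rd (t / algebraMap K F ϖ)) = -1 := by
    rw [s.2.ord_mul (mul_ne_zero (pow_ne_zero _ hx₁) hx₂) (inv_ne_zero hU₂.2),
      s.2.ord_mul (pow_ne_zero _ hx₁) hx₂, ord_pow, hb, ord_algebraMap, Place.ord_inv] at ho₂
    have h1 : (a : ℤ) * (s.2.ord (S.c₂.rd (t / algebraMap K F ϖ)) + 1) = 0 := by
      have : s.2.ord (S.c₂.rd (U / algebraMap K F ϖU)) = -a := by omega
      rw [this] at ho₂
      linear_combination ho₂
    have ha' : (a : ℤ) ≠ 0 := Int.natCast_ne_zero.mpr ha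
    have := (mul_eq_zero.mp h1).resolve_left ha'
    omega
  have hGinv : S.c₂.IsGU (algebraMap K F ϖ / t) := by
    have := hGt.inv
    rwa [inv_div] at this
  have hoinv : s.2.ord (S.c₂.rd (algebraMap K F ϖ / t)) = 1 := by
    have h1 := hGt.rd_inv
    rw [inv_div] at h1
    rw [h1, Place.ord_inv, hot]
    rfl
  refine ⟨⟨ht₁, hto, hGinv, hoinv, fun P hPs => ?_⟩, hCU⟩
  -- conservation for `t`
  have hsumt := S.sum_node hP hs ht₁ hGt ⟨ϖ⁻¹, by rw [map_inv₀]; field_simp⟩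
  rw [hto, hot] at hsumt
  by_cases hmem : P ∈ (dv hP t).support
  · have hnn : ∀ P' ∈ (dv hP t).support,
        0 ≤ (if S.c₁.r P' = some s.1 then P'.ord t else 0) := by
      intro P' _
      split_ifs with h
      · exact htreg P' h
      · exact le_rfl
    have := eq_zero_of_sum_eq_zero _ _ hnn (by rw [← hsumt]; rfl) hmem
    rwa [if_pos hPs] at this
  · rw [Finsupp.notMem_support_iff, dv_apply] at hmem
    exact hmem

end SSD

end Fermat.Agent.BAD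

end
end
-- ==== END Fermat.Agent.BAD.H28_NodeRad3

-- ==== BEGIN Fermat.Agent.BADP.H28_DCore2
section

/-!
# Row 38 (S44, BADP), helper28: D-CORE', the first-order analysis with a general correction factor

`S : SSD K F k F₁ F₂`, `θ ∈ K`, `θ ≠ 0`, `|θ| < 1`.

* `PRed.IsFC θ c l` : `(c - 1) / θ` is integral with reduction `l` ("`c ≡ 1 + l θ`").
  Rules: `isFC_one`, `IsFC.mul`, `IsFC.inv`, `IsFC.div`, `IsFO.isFC` (`σ u / u`),
  `IsFO.isFC_inv` (`u / σ u`), `isFC_of_sq` (`(c - 1) / θ² ∈ V` gives `l = 0`).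
* `SSD.dcore_gen` (**D-CORE'**) : let `Ψ = (h - 1) / θ` be integral for both valuations.  Suppose
  that for every node `s` there is `c_s` with `c_s ≡ 1 + l_i(s) θ` for `V_i` (`l_i(s) ∈ k`) such
  that `h c_s` has no pole on the fibre of `s`, and the same at the good places of both
  components.  Then `rd₁ Ψ = a₁` and `rd₂ Ψ = a₂` are constants and
  `l₂(s) - l₁(s) = a₁ - a₂` at every node `s`.
  (`SSD.dcore` is the case `c = G / σ G`, where `l(c) = - l(G)`.)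

Plan: `NOTES/plan/L_S44.md` §12 (d4) (helper93).
-/

set_option autoImplicit false
set_option linter.style.haveILetI false

noncomputable section

open AlgebraicCurve

attribute [local instance] Classical.propDecidable

namespace Fermat.Agent.BAD

open Fermat.Agent.RED.H17 Fermat.Agent.RED

namespace PRed

variable {K F k F' : Type*} [Field K] [Field F] [Algebra K F] [Field k] [Field F']
  [Algebra k F'] (S : PRed K F k F')

/-- First-order congruence: `c = 1 + θ L` with `L` integral of reduction `l`. -/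
def IsFC (θ : K) (c : F) (l : F') : Prop :=
  ∃ Λ : F, Λ ∈ S.V ∧ S.rd Λ = l ∧ c = 1 + algebraMap K F θ * Λ

variable {S} {θ : K}

theorem isFC_iff (hθne : θ ≠ 0) {c : F} {l : F'} :
    S.IsFC θ c l ↔ (c - 1) / algebraMap K F θ ∈ S.V ∧ S.rd ((c - 1) / algebraMap K F θ) = l := by
  have hθF : algebraMap K F θ ≠ 0 := (map_ne_zero_iff _ (algebraMap K F).injective).mpr hθne
  constructor
  · rintro ⟨Λ, hΛ, hΛr, rfl⟩
    have : (1 + algebraMap K F θ * Λ - 1) / algebraMap K F θ = Λ := by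
      field_simp
      ring
    rw [this]
    exact ⟨hΛ, hΛr⟩
  · rintro ⟨h1, h2⟩
    refine ⟨_, h1, h2, ?_⟩
    field_simp
    ring

theorem isFC_one : S.IsFC θ (1 : F) 0 :=
  ⟨0, S.V.zero_mem, S.rd_zero, by rw [mul_zero, add_zero]⟩

theorem IsFC.isGU (hθ : algebraMap K F θ ∈ S.V) (hθ0 : S.rd (algebraMap K F θ) = 0) {c : F}
    {l : F'} (hc : S.IsFC θ c l) : S.IsGU c ∧ S.rd c = 1 := by
  obtain ⟨Λ, hΛ, -, rfl⟩ := hc
  exact isGU_one_add hθ hθ0 hΛ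

theorem IsFC.mul (hθ : algebraMap K F θ ∈ S.V) (hθ0 : S.rd (algebraMap K F θ) = 0) {c d : F}
    {l l' : F'} (hc : S.IsFC θ c l) (hd : S.IsFC θ d l') : S.IsFC θ (c * d) (l + l') := by
  obtain ⟨Λ, hΛ, hΛr, rfl⟩ := hc
  obtain ⟨Λ', hΛ', hΛ'r, rfl⟩ := hd
  have hm : algebraMap K F θ * (Λ * Λ') ∈ S.V := S.V.mul_mem _ _ hθ (S.V.mul_mem _ _ hΛ hΛ')
  refine ⟨Λ + Λ' + algebraMap K F θ * (Λ * Λ'),
    S.V.add_mem _ _ (S.V.add_mem _ _ hΛ hΛ') hm, ?_, ?_⟩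
  · rw [S.rd_add (S.V.add_mem _ _ hΛ hΛ') hm, S.rd_add hΛ hΛ', hΛr, hΛ'r,
      S.rd_mul hθ (S.V.mul_mem _ _ hΛ hΛ'), hθ0, zero_mul, add_zero]
  · ring

theorem IsFC.inv (hθ : algebraMap K F θ ∈ S.V) (hθ0 : S.rd (algebraMap K F θ) = 0) {c : F}
    {l : F'} (hc : S.IsFC θ c l) : S.IsFC θ c⁻¹ (-l) := by
  obtain ⟨Λ, hΛ, hΛr, rfl⟩ := hc
  obtain ⟨hG, hGr⟩ := isGU_one_add hθ hθ0 hΛ
  have hne : 1 + algebraMap K F θ * Λ ≠ 0 := hG.ne_zero
  have hm : Λ * (1 + algebraMap K F θ * Λ)⁻¹ ∈ S.V := S.V.mul_mem _ _ hΛ hG.inv_mem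
  refine ⟨-(Λ * (1 + algebraMap K F θ * Λ)⁻¹), S.V.neg_mem _ hm, ?_, ?_⟩
  · rw [S.rd_neg hm, S.rd_mul hΛ hG.inv_mem, hG.rd_inv, hGr, inv_one, mul_one, hΛr]
  · field_simp
    ring

theorem IsFC.div (hθ : algebraMap K F θ ∈ S.V) (hθ0 : S.rd (algebraMap K F θ) = 0) {c d : F}
    {l l' : F'} (hc : S.IsFC θ c l) (hd : S.IsFC θ d l') : S.IsFC θ (c / d) (l - l') := by
  rw [div_eq_mul_inv, sub_eq_add_neg]
  exact hc.mul hθ hθ0 (hd.inv hθ hθ0)

theorem IsFC.prod (hθ : algebraMap K F θ ∈ S.V) (hθ0 : S.rd (algebraMap K F θ) = 0)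
    {ι : Type*} (A : Finset ι) (c : ι → F) (l : ι → F')
    (h : ∀ i ∈ A, S.IsFC θ (c i) (l i)) : S.IsFC θ (∏ i ∈ A, c i) (∑ i ∈ A, l i) := by
  induction A using Finset.induction_on with
  | empty => simpa using isFC_one
  | insert i s hi ih =>
    rw [Finset.prod_insert hi, Finset.sum_insert hi]
    exact (h i (Finset.mem_insert_self i s)).mul hθ hθ0
      (ih fun j hj => h j (Finset.mem_insert_of_mem hj))

/-- `c ≡ 1 mod θ²` gives `c ≡ 1 + 0 θ`. -/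
theorem isFC_of_sq (hθ : algebraMap K F θ ∈ S.V) (hθ0 : S.rd (algebraMap K F θ) = 0)
    (hθne : θ ≠ 0) {c : F} (h : (c - 1) / algebraMap K F θ ^ 2 ∈ S.V) : S.IsFC θ c 0 := by
  have hθF : algebraMap K F θ ≠ 0 := (map_ne_zero_iff _ (algebraMap K F).injective).mpr hθne
  refine ⟨algebraMap K F θ * ((c - 1) / algebraMap K F θ ^ 2), S.V.mul_mem _ _ hθ h, ?_, ?_⟩
  · rw [S.rd_mul hθ h, hθ0, zero_mul]
  · field_simp
    ring

/-- `σ u / u ≡ 1 + l θ`. -/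
theorem IsFO.isFC {σ : SemilinearAut K F} {u : F} {l : F'} (hu : S.IsFO σ θ u l) :
    S.IsFC θ ((σ • u) / u) l := by
  obtain ⟨hu0, Λ, hΛ, hΛr, hΛe⟩ := hu
  refine ⟨Λ, hΛ, hΛr, ?_⟩
  rw [hΛe]
  field_simp

/-- `u / σ u ≡ 1 - l θ`. -/
theorem IsFO.isFC_inv (hθ : algebraMap K F θ ∈ S.V) (hθ0 : S.rd (algebraMap K F θ) = 0)
    {σ : SemilinearAut K F} {u : F} {l : F'} (hu : S.IsFO σ θ u l) :
    S.IsFC θ (u / (σ • u)) (-l) := by
  have := hu.isFC.inv hθ hθ0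
  rwa [inv_div] at this

/-- The function `h c`, to first order. -/
theorem IsFC.twist (hθ : algebraMap K F θ ∈ S.V) (hθ0 : S.rd (algebraMap K F θ) = 0)
    (hθne : θ ≠ 0) {c : F} {l : F'} (hc : S.IsFC θ c l) {h : F}
    (hΨ : (h - 1) / algebraMap K F θ ∈ S.V) :
    (h * c - 1) / algebraMap K F θ ∈ S.V ∧
      S.rd ((h * c - 1) / algebraMap K F θ) = S.rd ((h - 1) / algebraMap K F θ) + l := by
  obtain ⟨hU, hUr⟩ := hc.isGU hθ hθ0
  obtain ⟨Λ, hΛ, hΛr, rfl⟩ := hc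
  have hθF : algebraMap K F θ ≠ 0 := (map_ne_zero_iff _ (algebraMap K F).injective).mpr hθne
  have heq : (h * (1 + algebraMap K F θ * Λ) - 1) / algebraMap K F θ =
      (h - 1) / algebraMap K F θ * (1 + algebraMap K F θ * Λ) + Λ := by
    field_simp
    ring
  have hm : (h - 1) / algebraMap K F θ * (1 + algebraMap K F θ * Λ) ∈ S.V :=
    S.V.mul_mem _ _ hΨ hU.1
  rw [heq]
  refine ⟨S.V.add_mem _ _ hm hΛ, ?_⟩
  rw [S.rd_add hm hΛ, S.rd_mul hΨ hU.1, hUr, mul_one, hΛr]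

end PRed

namespace SSD

variable {K F k F₁ F₂ : Type*} [Field K] [Field F] [Algebra K F] [Field k] [Field F₁]
  [Algebra k F₁] [Field F₂] [Algebra k F₂] (S : SSD K F k F₁ F₂)

/-- **D-CORE'** (general correction factors). -/
theorem dcore_gen (hP : HasPrincipalDivisors K F) (H₁ : FFHyp k F₁) (H₂ : FFHyp k F₂)
    {θ : K} (hθne : θ ≠ 0) (hθ : S.IsCM θ) {h : F}
    (hΨ₁ : (h - 1) / algebraMap K F θ ∈ S.c₁.V) (hΨ₂ : (h - 1) / algebraMap K F θ ∈ S.c₂.V)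
    (l₁ l₂ : Place k F₁ × Place k F₂ → k)
    (hN : ∀ s ∈ S.nodes, ∃ c : F, S.c₁.IsFC θ c (algebraMap k F₁ (l₁ s)) ∧
      S.c₂.IsFC θ c (algebraMap k F₂ (l₂ s)) ∧
      ∀ P, S.c₁.r P = some s.1 → 0 ≤ P.ord (h * c))
    (hR₁ : ∀ Q ∈ S.c₁.good, ∃ (c : F) (l : k), S.c₁.IsFC θ c (algebraMap k F₁ l) ∧
      ∀ P, S.c₁.r P = some Q → 0 ≤ P.ord (h * c))
    (hR₂ : ∀ Q ∈ S.c₂.good, ∃ (c : F) (l : k), S.c₂.IsFC θ c (algebraMap k F₂ l) ∧
      ∀ P, S.c₂.r P = some Q → 0 ≤ P.ord (h * c)) :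
    ∃ a₁ a₂ : k, S.c₁.rd ((h - 1) / algebraMap K F θ) = algebraMap k F₁ a₁ ∧
      S.c₂.rd ((h - 1) / algebraMap K F θ) = algebraMap k F₂ a₂ ∧
      ∀ s ∈ S.nodes, l₂ s - l₁ s = a₁ - a₂ := by
  -- the local statement at the nodes
  have hnode : ∀ s ∈ S.nodes, ∃ a : k,
      VanAt s.1 (S.c₁.rd ((h - 1) / algebraMap K F θ) - algebraMap k F₁ (a - l₁ s)) ∧
      VanAt s.2 (S.c₂.rd ((h - 1) / algebraMap K F θ) - algebraMap k F₂ (a - l₂ s)) := by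
    intro s hs
    obtain ⟨c, hc₁, hc₂, hreg⟩ := hN s hs
    obtain ⟨hm₁, hr₁⟩ := hc₁.twist hθ.mem₁ hθ.rd₁ hθne hΨ₁
    obtain ⟨hm₂, hr₂⟩ := hc₂.twist hθ.mem₂ hθ.rd₂ hθne hΨ₂
    obtain ⟨a, ha₁, ha₂⟩ := S.glue s hs _ hm₁ hm₂
      (fun P hPs => ord_twist_nonneg (hreg P hPs))
    rw [← S.c₁.rd_of_mem hm₁, hr₁] at ha₁
    rw [← S.c₂.rd_of_mem hm₂, hr₂] at ha₂
    refine ⟨a, ?_, ?_⟩
    · have e : S.c₁.rd ((h - 1) / algebraMap K F θ) - algebraMap k F₁ (a - l₁ s) =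
          S.c₁.rd ((h - 1) / algebraMap K F θ) + algebraMap k F₁ (l₁ s) - algebraMap k F₁ a := by
        rw [map_sub]; ring
      rw [e]
      exact ha₁
    · have e : S.c₂.rd ((h - 1) / algebraMap K F θ) - algebraMap k F₂ (a - l₂ s) =
          S.c₂.rd ((h - 1) / algebraMap K F θ) + algebraMap k F₂ (l₂ s) - algebraMap k F₂ a := by
        rw [map_sub]; ring
      rw [e]
      exact ha₂
  -- regularity of the reductions
  have hreg₁ : ∀ Q : Place k F₁, 0 ≤ Q.ord (S.c₁.rd ((h - 1) / algebraMap K F θ)) := by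
    intro Q
    by_cases hQ : Q ∈ S.c₁.good
    · obtain ⟨c, l, hc, hreg⟩ := hR₁ Q hQ
      obtain ⟨hm, hr⟩ := hc.twist hθ.mem₁ hθ.rd₁ hθne hΨ₁
      have h1 := S.c₁.regAt_rd hP hm hQ (fun P hPQ => ord_twist_nonneg (hreg P hPQ))
      rw [hr] at h1
      have h2 := h1.sub (regAt_algebraMap Q l)
      rw [add_sub_cancel_right] at h2
      exact h2.ord_nonneg
    · rw [S.good₁] at hQ
      push Not at hQ
      obtain ⟨s, hs, rfl⟩ := hQ
      obtain ⟨a, ha, -⟩ := hnode s hs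
      exact (RegAt.of_vanAt_sub ha).ord_nonneg
  have hreg₂ : ∀ Q : Place k F₂, 0 ≤ Q.ord (S.c₂.rd ((h - 1) / algebraMap K F θ)) := by
    intro Q
    by_cases hQ : Q ∈ S.c₂.good
    · obtain ⟨c, l, hc, hreg⟩ := hR₂ Q hQ
      obtain ⟨hm, hr⟩ := hc.twist hθ.mem₂ hθ.rd₂ hθne hΨ₂
      have h1 := S.c₂.regAt_rd hP hm hQ (fun P hPQ => ord_twist_nonneg (hreg P hPQ))
      rw [hr] at h1
      have h2 := h1.sub (regAt_algebraMap Q l)
      rw [add_sub_cancel_right] at h2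
      exact h2.ord_nonneg
    · rw [S.good₂] at hQ
      push Not at hQ
      obtain ⟨s, hs, rfl⟩ := hQ
      obtain ⟨a, -, ha⟩ := hnode s hs
      exact (RegAt.of_vanAt_sub ha).ord_nonneg
  obtain ⟨a₁, ha₁⟩ := H₁.const_of_regular hreg₁
  obtain ⟨a₂, ha₂⟩ := H₂.const_of_regular hreg₂
  refine ⟨a₁, a₂, ha₁, ha₂, fun s hs => ?_⟩
  obtain ⟨a, h1, h2⟩ := hnode s hs
  rw [ha₁, ← map_sub] at h1
  rw [ha₂, ← map_sub] at h2
  have e1 := const_eq_zero_of_vanAt h1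
  have e2 := const_eq_zero_of_vanAt h2
  linear_combination e2 - e1

end SSD

end Fermat.Agent.BAD

end
end
-- ==== END Fermat.Agent.BADP.H28_DCore2

-- ==== BEGIN Fermat.Agent.BADP.H28_KeyPSetup
section

/-!
# Row 38 (S44, BADP), helper28: RAY-K3 abstract core ("Key-p"), part 2: the common setup

* `SSD.keyA`, `SSD.KeyHyp` : the index set `A₁ ⊔ A₂` and the hypotheses on the coordinates of the
  nodal key lemma, with the derived facts.
* `SSD.KeyHyp.residue_core` : the residue argument of the nodal key lemma, for an arbitrary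
  function `φ` whose reductions are `αb_i - m ∑ b_j / rd_i (s_j)`: the reductions of `φ` are a
  constant `e`, all `b_j` vanish and `αb_i = e`.
* `SSD.KeyHyp.const_eq_zero` : `e = 0` if `φ` vanishes at a place over a good point outside `A₁`.
-/

set_option autoImplicit false
set_option linter.style.haveILetI false
set_option maxHeartbeats 1000000

noncomputable section

open AlgebraicCurve

attribute [local instance] Classical.propDecidable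

namespace Fermat.Agent.BAD

open Fermat.Agent.RED.H17 Fermat.Agent.RED

local notation "L" => riemannRochSpace

namespace SSD

variable {K F k F₁ F₂ : Type*} [Field K] [Field F] [Algebra K F] [Field k] [Field F₁]
  [Algebra k F₁] [Field F₂] [Algebra k F₂] (S : SSD K F k F₁ F₂)

/-- The index set of the coordinates. -/
def keyA (A₁ : Finset (Place k F₁)) (A₂ : Finset (Place k F₂)) :
    Finset (Place k F₁ ⊕ Place k F₂) := A₁.disjSum A₂

theorem mem_keyA {A₁ : Finset (Place k F₁)} {A₂ : Finset (Place k F₂)}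
    {i : Place k F₁ ⊕ Place k F₂} :
    i ∈ keyA A₁ A₂ ↔ (∃ Q ∈ A₁, i = Sum.inl Q) ∨ ∃ Q ∈ A₂, i = Sum.inr Q := by
  rw [keyA, Finset.mem_disjSum]
  constructor
  · rintro (⟨Q, hQ, rfl⟩ | ⟨Q, hQ, rfl⟩)
    · exact Or.inl ⟨Q, hQ, rfl⟩
    · exact Or.inr ⟨Q, hQ, rfl⟩
  · rintro (⟨Q, hQ, rfl⟩ | ⟨Q, hQ, rfl⟩)
    · exact Or.inl ⟨Q, hQ, rfl⟩
    · exact Or.inr ⟨Q, hQ, rfl⟩

theorem inl_mem_keyA {A₁ : Finset (Place k F₁)} {A₂ : Finset (Place k F₂)} {Q : Place k F₁}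
    (hQ : Q ∈ A₁) : Sum.inl Q ∈ keyA A₁ A₂ := mem_keyA.mpr (Or.inl ⟨Q, hQ, rfl⟩)

theorem inr_mem_keyA {A₁ : Finset (Place k F₁)} {A₂ : Finset (Place k F₂)} {Q : Place k F₂}
    (hQ : Q ∈ A₂) : Sum.inr Q ∈ keyA A₁ A₂ := mem_keyA.mpr (Or.inr ⟨Q, hQ, rfl⟩)

/-- The hypotheses on the coordinates in the nodal key lemma. -/
structure KeyHyp (A₁ : Finset (Place k F₁)) (A₂ : Finset (Place k F₂))
    (s₁ : Place k F₁ → F) (s₂ : Place k F₂ → F) : Prop where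
  hA₁ : Disjoint A₁ S.br₁
  hA₂ : Disjoint A₂ S.br₂
  hs₁ : ∀ Q ∈ A₁, S.IsCoordA₁ A₁ A₂ (s₁ Q) Q
  hs₂ : ∀ Q ∈ A₂, S.IsCoordA₂ A₁ A₂ (s₂ Q) Q

/-- The elements `a_Q` lie in the maximal ideal (for both valuations). -/
theorem inM_keyA {A₁ : Finset (Place k F₁)} {A₂ : Finset (Place k F₂)}
    {a₁ : Place k F₁ → K} {a₂ : Place k F₂ → K}
    (ha₁ : ∀ Q ∈ A₁, algebraMap K F (a₁ Q) ∈ S.c₁.V ∧ S.c₁.rd (algebraMap K F (a₁ Q)) = 0)
    (ha₂ : ∀ Q ∈ A₂, algebraMap K F (a₂ Q) ∈ S.c₂.V ∧ S.c₂.rd (algebraMap K F (a₂ Q)) = 0)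
    {i : Place k F₁ ⊕ Place k F₂} (hi : i ∈ keyA A₁ A₂) : S.IsCM (Sum.elim a₁ a₂ i) := by
  rcases mem_keyA.mp hi with ⟨Q, hQ, rfl⟩ | ⟨Q, hQ, rfl⟩
  · exact ha₁ Q hQ
  · exact S.rd₁_const_zero (ha₂ Q hQ).1 (ha₂ Q hQ).2

namespace KeyHyp

variable {S} {A₁ : Finset (Place k F₁)} {A₂ : Finset (Place k F₂)}
  {s₁ : Place k F₁ → F} {s₂ : Place k F₂ → F}

theorem good₁ (hK : S.KeyHyp A₁ A₂ s₁ s₂) {Q : Place k F₁} (hQ : Q ∈ A₁) : Q ∈ S.c₁.good :=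
  S.good₁_of_notMem (Finset.disjoint_left.mp hK.hA₁ hQ)

theorem good₂ (hK : S.KeyHyp A₁ A₂ s₁ s₂) {Q : Place k F₂} (hQ : Q ∈ A₂) : Q ∈ S.c₂.good :=
  S.good₂_of_notMem (Finset.disjoint_left.mp hK.hA₂ hQ)

theorem isGU₁ (hK : S.KeyHyp A₁ A₂ s₁ s₂) {i : Place k F₁ ⊕ Place k F₂}
    (hi : i ∈ keyA A₁ A₂) : S.c₁.IsGU (Sum.elim s₁ s₂ i) := by
  rcases mem_keyA.mp hi with ⟨Q, hQ, rfl⟩ | ⟨Q, hQ, rfl⟩
  · exact (hK.hs₁ Q hQ).1.isGU
  · exact (hK.hs₂ Q hQ).2.1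

theorem isGU₂ (hK : S.KeyHyp A₁ A₂ s₁ s₂) {i : Place k F₁ ⊕ Place k F₂}
    (hi : i ∈ keyA A₁ A₂) : S.c₂.IsGU (Sum.elim s₁ s₂ i) := by
  rcases mem_keyA.mp hi with ⟨Q, hQ, rfl⟩ | ⟨Q, hQ, rfl⟩
  · exact (hK.hs₁ Q hQ).2.1
  · exact (hK.hs₂ Q hQ).1.isGU

theorem reg₁ (hK : S.KeyHyp A₁ A₂ s₁ s₂) {i : Place k F₁ ⊕ Place k F₂}
    (hi : i ∈ keyA A₁ A₂) {Q : Place k F₁} (hQ : Q ∈ A₁) {P : Place K F}
    (hPQ : S.c₁.r P = some Q) : 0 ≤ P.ord (Sum.elim s₁ s₂ i) := by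
  rcases mem_keyA.mp hi with ⟨Q', hQ', rfl⟩ | ⟨Q', hQ', rfl⟩
  · exact (hK.hs₁ Q' hQ').2.2.2.2.1 P Q hQ hPQ
  · exact (hK.hs₂ Q' hQ').2.2.2.2.1 P Q hQ hPQ

theorem reg₂ (hK : S.KeyHyp A₁ A₂ s₁ s₂) {i : Place k F₁ ⊕ Place k F₂}
    (hi : i ∈ keyA A₁ A₂) {Q : Place k F₂} (hQ : Q ∈ A₂) {P : Place K F}
    (hPQ : S.c₂.r P = some Q) : 0 ≤ P.ord (Sum.elim s₁ s₂ i) := by
  rcases mem_keyA.mp hi with ⟨Q', hQ', rfl⟩ | ⟨Q', hQ', rfl⟩
  · exact (hK.hs₁ Q' hQ').2.2.2.2.2.1 P Q hQ hPQ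
  · exact (hK.hs₂ Q' hQ').2.2.2.2.2.1 P Q hQ hPQ

theorem ord0₁ (hK : S.KeyHyp A₁ A₂ s₁ s₂) {i : Place k F₁ ⊕ Place k F₂}
    (hi : i ∈ keyA A₁ A₂) {Q : Place k F₁} (hQ : Q ∈ A₁) (hne : i ≠ Sum.inl Q) :
    Q.ord (S.c₁.rd (Sum.elim s₁ s₂ i)) = 0 := by
  rcases mem_keyA.mp hi with ⟨Q', hQ', rfl⟩ | ⟨Q', hQ', rfl⟩
  · exact (hK.hs₁ Q' hQ').2.2.1 Q hQ (fun h => hne (by rw [h]))
  · exact (hK.hs₂ Q' hQ').2.2.2.1 Q hQ

theorem ord0₂ (hK : S.KeyHyp A₁ A₂ s₁ s₂) {i : Place k F₁ ⊕ Place k F₂}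
    (hi : i ∈ keyA A₁ A₂) {Q : Place k F₂} (hQ : Q ∈ A₂) (hne : i ≠ Sum.inr Q) :
    Q.ord (S.c₂.rd (Sum.elim s₁ s₂ i)) = 0 := by
  rcases mem_keyA.mp hi with ⟨Q', hQ', rfl⟩ | ⟨Q', hQ', rfl⟩
  · exact (hK.hs₁ Q' hQ').2.2.2.1 Q hQ
  · exact (hK.hs₂ Q' hQ').2.2.1 Q hQ (fun h => hne (by rw [h]))

theorem ord1₁ (hK : S.KeyHyp A₁ A₂ s₁ s₂) {Q : Place k F₁} (hQ : Q ∈ A₁) :
    Q.ord (S.c₁.rd (Sum.elim s₁ s₂ (Sum.inl Q))) = 1 := (hK.hs₁ Q hQ).1.ord_one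

theorem ord1₂ (hK : S.KeyHyp A₁ A₂ s₁ s₂) {Q : Place k F₂} (hQ : Q ∈ A₂) :
    Q.ord (S.c₂.rd (Sum.elim s₁ s₂ (Sum.inr Q))) = 1 := (hK.hs₂ Q hQ).1.ord_one

/-- A place over a node is off the discs. -/
theorem off_of_node (hK : S.KeyHyp A₁ A₂ s₁ s₂) {t : Place k F₁ × Place k F₂}
    (ht : t ∈ S.nodes) {P : Place K F} (hPt : S.c₁.r P = some t.1) :
    (∀ Q ∈ A₁, S.c₁.r P ≠ some Q) ∧ (∀ Q ∈ A₂, S.c₂.r P ≠ some Q) := by
  refine ⟨fun Q hQ h => ?_, fun Q hQ h => ?_⟩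
  · rw [hPt] at h
    exact S.not_good₁ ht (Option.some.inj h ▸ hK.good₁ hQ)
  · rw [S.r₂_of_node ht hPt] at h
    exact S.not_good₂ ht (Option.some.inj h ▸ hK.good₂ hQ)

/-- A place over a good point of `C₁` outside `A₁` is off the discs. -/
theorem off_of_good₁ (_hK : S.KeyHyp A₁ A₂ s₁ s₂) {v : Place k F₁} (hvg : v ∈ S.c₁.good)
    (hv : v ∉ A₁) {P : Place K F} (hPv : S.c₁.r P = some v) :
    (∀ Q ∈ A₁, S.c₁.r P ≠ some Q) ∧ (∀ Q ∈ A₂, S.c₂.r P ≠ some Q) := by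
  refine ⟨fun Q hQ h => ?_, fun Q hQ h => ?_⟩
  · rw [hPv] at h
    exact hv (Option.some.inj h ▸ hQ)
  · rw [S.r₂_none_of_good₁ hvg hPv] at h
    exact absurd h (by simp)

/-- A place over a good point of `C₂` outside `A₂` is off the discs. -/
theorem off_of_good₂ (_hK : S.KeyHyp A₁ A₂ s₁ s₂) {v : Place k F₂} (hvg : v ∈ S.c₂.good)
    (hv : v ∉ A₂) {P : Place K F} (hPv : S.c₂.r P = some v) :
    (∀ Q ∈ A₁, S.c₁.r P ≠ some Q) ∧ (∀ Q ∈ A₂, S.c₂.r P ≠ some Q) := by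
  refine ⟨fun Q hQ h => ?_, fun Q hQ h => ?_⟩
  · rw [S.r₁_none_of_good₂ hvg hPv] at h
    exact absurd h (by simp)
  · rw [hPv] at h
    exact hv (Option.some.inj h ▸ hQ)

/-- **The residue argument.** -/
theorem residue_core (hK : S.KeyHyp A₁ A₂ s₁ s₂) (hP : HasPrincipalDivisors K F)
    (hNS : S.IsNS A₁ A₂) {φ : F} (hφV₁ : φ ∈ S.c₁.V) (hφV₂ : φ ∈ S.c₂.V)
    (hφreg : ∀ P, (∀ Q ∈ A₁, S.c₁.r P ≠ some Q) → (∀ Q ∈ A₂, S.c₂.r P ≠ some Q) →
      0 ≤ P.ord φ)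
    (b : Place k F₁ ⊕ Place k F₂ → k) (m : ℕ) (hm : (m : k) ≠ 0)
    {αb₁ : F₁} {αb₂ : F₂} (hα₁ : ∀ Q ∈ A₁, RegAt Q αb₁) (hα₂ : ∀ Q ∈ A₂, RegAt Q αb₂)
    (hφrd₁ : S.c₁.rd φ = αb₁ - (m : F₁) *
      ∑ i ∈ keyA A₁ A₂, algebraMap k F₁ (b i) / S.c₁.rd (Sum.elim s₁ s₂ i))
    (hφrd₂ : S.c₂.rd φ = αb₂ - (m : F₂) *
      ∑ i ∈ keyA A₁ A₂, algebraMap k F₂ (b i) / S.c₂.rd (Sum.elim s₁ s₂ i)) :
    ∃ e : k, S.c₁.rd φ = algebraMap k F₁ e ∧ S.c₂.rd φ = algebraMap k F₂ e ∧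
      (∀ i ∈ keyA A₁ A₂, b i = 0) ∧ αb₁ = algebraMap k F₁ e ∧ αb₂ = algebraMap k F₂ e := by
  -- gluing of `φ` at the nodes
  have hglue : ∀ t ∈ S.nodes, ∃ e : k, VanAt t.1 (S.c₁.rd φ - algebraMap k F₁ e) ∧
      VanAt t.2 (S.c₂.rd φ - algebraMap k F₂ e) := by
    intro t ht
    have hreg : ∀ P, S.c₁.r P = some t.1 → 0 ≤ P.ord φ := fun P hPt =>
      hφreg P (hK.off_of_node ht hPt).1 (hK.off_of_node ht hPt).2
    obtain ⟨e, he1, he2⟩ := S.glue t ht φ hφV₁ hφV₂ hreg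
    rw [← S.c₁.rd_of_mem hφV₁] at he1
    rw [← S.c₂.rd_of_mem hφV₂] at he2
    exact ⟨e, he1, he2⟩
  -- the reductions of `φ` lie in `L(A₁)`, `L(A₂)`
  have hφL₁ : S.c₁.rd φ ∈ L (ptsDiv A₁) := by
    rw [mem_L_iff_ord]
    intro v
    by_cases hv : v ∈ A₁
    · rw [ptsDiv_apply, if_pos hv]
      have := H28.poleLe_formula v (keyA A₁ A₂) (fun i => S.c₁.rd (Sum.elim s₁ s₂ i))
        (fun i hi => (hK.isGU₁ hi).2)
        (fun i hi => by
          by_cases hiv : i = Sum.inl v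
          · rw [hiv]; exact le_of_eq (hK.ord1₁ hv)
          · rw [hK.ord0₁ hi hv hiv]; exact zero_le_one) b m (hα₁ v hv)
      rw [← hφrd₁] at this
      exact this
    · rw [ptsDiv_apply, if_neg hv, neg_zero]
      have hreg : RegAt v (S.c₁.rd φ) := by
        by_cases hvg : v ∈ S.c₁.good
        · apply S.c₁.regAt_rd hP hφV₁ hvg
          intro P hPv
          exact hφreg P (hK.off_of_good₁ hvg hv hPv).1 (hK.off_of_good₁ hvg hv hPv).2
        · have : v ∈ S.br₁ := by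
            by_contra hvb
            exact hvg (S.good₁_of_notMem hvb)
          obtain ⟨t, ht, rfl⟩ := Finset.mem_image.mp this
          obtain ⟨e, he, -⟩ := hglue t ht
          exact RegAt.of_vanAt_sub he
      exact (regAt_iff_ord v _).mp hreg
  have hφL₂ : S.c₂.rd φ ∈ L (ptsDiv A₂) := by
    rw [mem_L_iff_ord]
    intro v
    by_cases hv : v ∈ A₂
    · rw [ptsDiv_apply, if_pos hv]
      have := H28.poleLe_formula v (keyA A₁ A₂) (fun i => S.c₂.rd (Sum.elim s₁ s₂ i))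
        (fun i hi => (hK.isGU₂ hi).2)
        (fun i hi => by
          by_cases hiv : i = Sum.inr v
          · rw [hiv]; exact le_of_eq (hK.ord1₂ hv)
          · rw [hK.ord0₂ hi hv hiv]; exact zero_le_one) b m (hα₂ v hv)
      rw [← hφrd₂] at this
      exact this
    · rw [ptsDiv_apply, if_neg hv, neg_zero]
      have hreg : RegAt v (S.c₂.rd φ) := by
        by_cases hvg : v ∈ S.c₂.good
        · apply S.c₂.regAt_rd hP hφV₂ hvg
          intro P hPv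
          exact hφreg P (hK.off_of_good₂ hvg hv hPv).1 (hK.off_of_good₂ hvg hv hPv).2
        · have : v ∈ S.br₂ := by
            by_contra hvb
            exact hvg (S.good₂_of_notMem hvb)
          obtain ⟨t, ht, rfl⟩ := Finset.mem_image.mp this
          obtain ⟨e, -, he⟩ := hglue t ht
          exact RegAt.of_vanAt_sub he
      exact (regAt_iff_ord v _).mp hreg
  -- the reductions of `φ` are a constant
  obtain ⟨e, he₁, he₂⟩ := hNS _ hφL₁ _ hφL₂ hglue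
  -- the residues vanish
  have hb0 : ∀ i ∈ keyA A₁ A₂, b i = 0 := by
    intro i hi
    rcases mem_keyA.mp hi with ⟨Q, hQ, rfl⟩ | ⟨Q, hQ, rfl⟩
    · refine H28.residue_zero Q (keyA A₁ A₂) (fun i => S.c₁.rd (Sum.elim s₁ s₂ i)) hi
        (hK.ord1₁ hQ) (fun j hj hne => hK.ord0₁ hj hQ hne) (hK.isGU₁ hi).2 b m hm
        (αb := αb₁ - algebraMap k F₁ e) ((hα₁ Q hQ).sub (regAt_algebraMap Q e)) ?_
      rw [sub_right_comm, ← hφrd₁, he₁, sub_self]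
    · refine H28.residue_zero Q (keyA A₁ A₂) (fun i => S.c₂.rd (Sum.elim s₁ s₂ i)) hi
        (hK.ord1₂ hQ) (fun j hj hne => hK.ord0₂ hj hQ hne) (hK.isGU₂ hi).2 b m hm
        (αb := αb₂ - algebraMap k F₂ e) ((hα₂ Q hQ).sub (regAt_algebraMap Q e)) ?_
      rw [sub_right_comm, ← hφrd₂, he₂, sub_self]
  have hsum₁ : ∑ i ∈ keyA A₁ A₂, algebraMap k F₁ (b i) / S.c₁.rd (Sum.elim s₁ s₂ i) = 0 :=
    Finset.sum_eq_zero fun i hi => by rw [hb0 i hi, map_zero, zero_div]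
  have hsum₂ : ∑ i ∈ keyA A₁ A₂, algebraMap k F₂ (b i) / S.c₂.rd (Sum.elim s₁ s₂ i) = 0 :=
    Finset.sum_eq_zero fun i hi => by rw [hb0 i hi, map_zero, zero_div]
  refine ⟨e, he₁, he₂, hb0, ?_, ?_⟩
  · rw [← he₁, hφrd₁, hsum₁, mul_zero, sub_zero]
  · rw [← he₂, hφrd₂, hsum₂, mul_zero, sub_zero]

/-- The constant of `residue_core` vanishes if `φ` vanishes at a place over a good point of
`C₁` outside `A₁`. -/
theorem const_eq_zero (hK : S.KeyHyp A₁ A₂ s₁ s₂) (hP : HasPrincipalDivisors K F)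
    {φ : F} (hφV₁ : φ ∈ S.c₁.V)
    (hφreg : ∀ P, (∀ Q ∈ A₁, S.c₁.r P ≠ some Q) → (∀ Q ∈ A₂, S.c₂.r P ≠ some Q) →
      0 ≤ P.ord φ)
    {Pinf : Place K F} {Qinf : Place k F₁} (hQinfg : Qinf ∈ S.c₁.good) (hQinfA : Qinf ∉ A₁)
    (hPinf : S.c₁.r Pinf = some Qinf) (hφinf : VanAt Pinf φ)
    {e : k} (he : S.c₁.rd φ = algebraMap k F₁ e) : e = 0 := by
  have h : VanAt Qinf (S.c₁.rd φ) := by
    refine S.c₁.vanAt_rd hP hφV₁ hQinfg ?_ hPinf hφinf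
    intro P hPQ
    exact hφreg P (hK.off_of_good₁ hQinfg hQinfA hPQ).1 (hK.off_of_good₁ hQinfg hQinfA hPQ).2
  rw [he] at h
  exact const_eq_zero_of_vanAt h

end KeyHyp

end SSD

end Fermat.Agent.BAD

end
end
-- ==== END Fermat.Agent.BADP.H28_KeyPSetup

-- ==== BEGIN Fermat.Agent.BADP.H97_K3
section

/-!
# BAD_p (S44, row 38), package K-ARITH, part 3 (helper97): the arithmetic of `L₀(ω)`

Setting of `H97_KArith.lean` (`KData v L0 p ζ ω σ`; `π = ζ - 1`, `ϖ = ω - 1`, `θ = π ω / ϖ`).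
The field `K₃ = L₀(ω)`:

* `exists_k3sum_of_mem_field` : every element of `L₀(ω)` is `k3sum p ω g = ∑_{l < p} g l ϖ ^ l`
  with `g l ∈ L₀`;
* `KData.val_k3term_le` : `v (g l ϖ ^ l) ≤ v (k3sum g)`; `KData.val_k3coeff_le` : the
  coefficients of an integral element are integral;
* `KData.val_sigma_sub_k3` : `c ∈ L₀(ω)` integral `⇒ v (σ c - c) ≤ v π`;
* `KData.val_k3_small` : `a ∈ L₀(ω)`, `v a < 1` `⇒ v a ≤ v ϖ`;
* `KData.val_sigma_sub_div_k3` : `a ∈ L₀(ω)`, `v a < 1` `⇒ v ((σ a - a) / π - a / ϖ) < 1`;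
* `KData.val_k3_small_sq` : `a ∈ L₀(ω)`, `v (a / ϖ) < 1` `⇒ v a ≤ v ϖ ^ 2`;
* `KData.val_varpi_pow_div` : `v (ϖ ^ p / p - u₁) < 1`, `u₁ = (ω ^ p - 1) / p`;
* (`val_pi_pow_div` : `v (π ^ (p - 1) / p + 1) < 1`, `p` odd, is in `H97_K3Q.lean`.)

These are the hypotheses (A0), (A2), (A3) of helper28's Key-p (RAY-K3), for any valued field.
-/

set_option autoImplicit false

open Finset

namespace Fermat.Agent.BADP.H97

variable {L : Type*} [Field L]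

/-- The element `∑_{l < p} g l * ϖ ^ l`. -/
def k3sum (p : ℕ) (ω : L) (g : ℕ → L) : L := ∑ l ∈ range p, g l * (ω - 1) ^ l

section Span3

variable (L0 : Subfield L) (p : ℕ) (ω : L)

/-- The `L₀`-span of the powers `ϖ ^ l`, `l < p`. -/
def varSpan : Submodule L0 L :=
  Submodule.span L0 ((fun l : ℕ => (ω - 1) ^ l) '' (range p : Set ℕ))

variable {L0 p ω}

theorem pow_mem_varSpan {l : ℕ} (hl : l < p) : (ω - 1) ^ l ∈ varSpan L0 p ω :=
  Submodule.subset_span ⟨l, mem_coe.2 (mem_range.2 hl), rfl⟩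

theorem coe_mul_mem_varSpan {a m : L} (ha : a ∈ L0) (hm : m ∈ varSpan L0 p ω) :
    a * m ∈ varSpan L0 p ω := by
  have := (varSpan L0 p ω).smul_mem (⟨a, ha⟩ : L0) hm
  exact this

variable (hp : 1 < p) (hω : ω ^ p ∈ L0)

include hp hω in
theorem varpi_mul_pow_mem3 {l : ℕ} (hl : l < p) : (ω - 1) * (ω - 1) ^ l ∈ varSpan L0 p ω := by
  by_cases h1 : l + 1 < p
  · rw [← pow_succ']
    exact pow_mem_varSpan h1
  · have hl' : l + 1 = p := by omega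
    rw [← pow_succ', hl', varpi_pow_eq rfl]
    refine sub_mem ?_ (sum_mem fun m hm => ?_)
    · have : ω ^ p = ω ^ p * (ω - 1) ^ 0 := by simp
      rw [this]
      exact coe_mul_mem_varSpan hω (pow_mem_varSpan (by omega))
    · exact coe_mul_mem_varSpan (natCast_mem L0 _) (pow_mem_varSpan (mem_range.1 hm))

include hp hω in
theorem varpi_mul_mem3 {m : L} (hm : m ∈ varSpan L0 p ω) : (ω - 1) * m ∈ varSpan L0 p ω := by
  induction hm using Submodule.span_induction with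
  | mem y hy =>
    obtain ⟨l, hl, rfl⟩ := hy
    exact varpi_mul_pow_mem3 hp hω (mem_range.1 (mem_coe.1 hl))
  | zero => rw [mul_zero]; exact zero_mem _
  | add y z _ _ hy hz => rw [mul_add]; exact add_mem hy hz
  | smul a y _ hy =>
    have : (ω - 1) * (a • y) = a • ((ω - 1) * y) := by
      rw [Subfield.smul_def, Subfield.smul_def]; ring
    rw [this]
    exact Submodule.smul_mem _ a hy

include hp in
theorem one_mem_varSpan : (1 : L) ∈ varSpan L0 p ω := by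
  have : (1 : L) = (ω - 1) ^ 0 := by simp
  rw [this]
  exact pow_mem_varSpan (by omega)

include hp hω in
theorem mul_mem_varSpan {m m' : L} (hm : m ∈ varSpan L0 p ω) (hm' : m' ∈ varSpan L0 p ω) :
    m * m' ∈ varSpan L0 p ω := by
  induction hm using Submodule.span_induction with
  | mem y hy =>
    obtain ⟨l, -, rfl⟩ := hy
    show (ω - 1) ^ l * m' ∈ varSpan L0 p ω
    induction l with
    | zero => simpa using hm'
    | succ l ih =>
      rw [pow_succ', mul_assoc]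
      exact varpi_mul_mem3 hp hω ih
  | zero => rw [zero_mul]; exact zero_mem _
  | add y z _ _ hy hz => rw [add_mul]; exact add_mem hy hz
  | smul a y _ hy =>
    have : a • y * m' = a • (y * m') := by
      rw [Subfield.smul_def, Subfield.smul_def]; ring
    rw [this]
    exact Submodule.smul_mem _ a hy

include hp hω in
theorem adjoin_le_varSpan {c : L} (hc : c ∈ Algebra.adjoin L0 ({ω} : Set L)) :
    c ∈ varSpan L0 p ω := by
  induction hc using Algebra.adjoin_induction with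
  | mem y hy =>
    have h1 := one_mem_varSpan (L0 := L0) (ω := ω) hp
    have hy' : y = ω := by simpa using hy
    have e : y = (y - 1) * 1 + 1 := by ring
    rw [e, hy']
    exact add_mem (varpi_mul_mem3 hp hω h1) h1
  | algebraMap r =>
    have : algebraMap L0 L r = r • (1 : L) := by
      rw [Algebra.smul_def, mul_one]
    rw [this]
    exact Submodule.smul_mem _ r (one_mem_varSpan hp)
  | add y z _ _ hy hz => exact add_mem hy hz
  | mul y z _ _ hy hz => exact mul_mem_varSpan hp hω hy hz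

theorem exists_k3sum_of_mem_varSpan {c : L} (hc : c ∈ varSpan L0 p ω) :
    ∃ g : ℕ → L, (∀ l, g l ∈ L0) ∧ c = k3sum p ω g := by
  classical
  induction hc using Submodule.span_induction with
  | mem y hy =>
    obtain ⟨l, hl, rfl⟩ := hy
    refine ⟨fun z => if z = l then 1 else 0, fun z => ?_, ?_⟩
    · by_cases hz : z = l
      · simp only [hz, if_true]; exact one_mem L0
      · simp only [hz, if_false]; exact zero_mem L0
    · rw [k3sum, sum_eq_single l]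
      · simp
      · intro b _ hb
        simp [hb]
      · intro h
        exact absurd (mem_coe.1 hl) h
  | zero =>
    exact ⟨fun _ => 0, fun _ => zero_mem L0, by simp [k3sum]⟩
  | add y z _ _ hy hz =>
    obtain ⟨g, hg, rfl⟩ := hy
    obtain ⟨g', hg', rfl⟩ := hz
    refine ⟨fun x => g x + g' x, fun x => add_mem (hg x) (hg' x), ?_⟩
    simp only [k3sum, add_mul, sum_add_distrib]
  | smul a y _ hy =>
    obtain ⟨g, hg, rfl⟩ := hy
    refine ⟨fun x => (a : L) * g x, fun x => mul_mem a.2 (hg x), ?_⟩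
    rw [Subfield.smul_def]
    simp only [k3sum, smul_eq_mul, mul_sum, mul_assoc]

include hp hω in
/-- Every element of the field `L₀(ω)` is a sum `∑_{l < p} g l ϖ ^ l` with coefficients in
`L₀`. -/
theorem exists_k3sum_of_mem_field {c : L}
    (hc : c ∈ IntermediateField.adjoin L0 ({ω} : Set L)) :
    ∃ g : ℕ → L, (∀ l, g l ∈ L0) ∧ c = k3sum p ω g := by
  have hp0 : p ≠ 0 := by omega
  have halg : ∀ x ∈ ({ω} : Set L), IsAlgebraic L0 x := by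
    intro x hx
    have hx' : x = ω := by simpa using hx
    refine IsIntegral.isAlgebraic (IsIntegral.of_pow (Nat.pos_of_ne_zero hp0) ?_)
    rw [hx']
    exact (isIntegral_algebraMap (x := (⟨ω ^ p, hω⟩ : L0)))
  have h1 := IntermediateField.adjoin_toSubalgebra_of_isAlgebraic halg
  have h2 : c ∈ (IntermediateField.adjoin L0 ({ω} : Set L)).toSubalgebra := hc
  rw [h1] at h2
  exact exists_k3sum_of_mem_varSpan (adjoin_le_varSpan hp hω h2)

end Span3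

/-- A sum `∑ g l ϖ ^ l` as a sum `∑ g l j ϖ ^ l π ^ j`. -/
theorem k3sum_eq_ksum {p : ℕ} (hp : 1 < p) (ζ ω : L) (g : ℕ → L) :
    k3sum p ω g = ksum p ζ ω (fun x => if x.2 = 0 then g x.1 else 0) := by
  rw [k3sum, ksum, idx, sum_product]
  refine sum_congr rfl fun l _ => ?_
  rw [sum_eq_single 0]
  · simp [mono]
  · intro j _ hj
    simp [hj]
  · intro h
    exact absurd (mem_range.2 (by omega)) h

namespace KData

variable {Γ₀ : Type*} [LinearOrderedCommGroupWithZero Γ₀] {v : Valuation L Γ₀} {L0 : Subfield L}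
  {p : ℕ} {ζ ω : L} {σ : L →+* L}

/-- Every element of `L₀(ω)` is a sum `∑ g l ϖ ^ l` with coefficients in `L₀`. -/
theorem exists_k3sum (h : KData v L0 p ζ ω σ) {c : L}
    (hc : c ∈ IntermediateField.adjoin L0 ({ω} : Set L)) :
    ∃ g : ℕ → L, (∀ l, g l ∈ L0) ∧ c = k3sum p ω g :=
  exists_k3sum_of_mem_field h.prime.one_lt h.omega_pow_mem hc

/-- Each term of `∑ g l ϖ ^ l` is bounded by the sum. -/
theorem val_k3term_le (h : KData v L0 p ζ ω σ) {g : ℕ → L} (hg : ∀ l, g l ∈ L0) {l : ℕ}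
    (hl : l < p) : v (g l * (ω - 1) ^ l) ≤ v (k3sum p ω g) := by
  rcases eq_or_ne (g l) 0 with h0 | h0
  · rw [h0, zero_mul, map_zero]; exact zero_le
  set G : ℕ × ℕ → L := fun x => if x.2 = 0 then g x.1 else 0 with hG
  have hGm : ∀ x, G x ∈ L0 := by
    intro x
    simp only [hG]
    split_ifs
    · exact hg _
    · exact zero_mem _
  have hp1 : 0 < p - 1 := by
    have := h.prime.two_le
    omega
  have hmem : (l, 0) ∈ idx p := mem_idx.2 ⟨hl, hp1⟩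
  have hGl : G (l, 0) = g l := by simp [hG]
  obtain ⟨x₀, hx₀, -, hlt, hv⟩ := h.exists_dominant_of_coeff hGm ⟨(l, 0), hmem, by rwa [hGl]⟩
  rw [k3sum_eq_ksum h.prime.one_lt ζ ω g, hv]
  have e : g l * (ω - 1) ^ l = G (l, 0) * mono ζ ω (l, 0) := by simp [hGl, mono]
  rw [e]
  by_cases hxx : (l, 0) = x₀
  · rw [hxx]
  · exact (hlt _ hmem hxx).le

theorem val_varpi_pos (h : KData v L0 p ζ ω σ) : 0 < v (ω - 1) :=
  zero_lt_iff.2 ((Valuation.ne_zero_iff v).2 h.varpi_ne_zero)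

/-- An element of `L₀` of value `> 1` has value `≥ v p ⁻¹`; consequence for the terms. -/
theorem val_coeff_le_of_term (h : KData v L0 p ζ ω σ) {a : L} (ha : a ∈ L0) {l : ℕ} (hl : l < p)
    (hle : v (a * (ω - 1) ^ l) ≤ 1) : v a ≤ 1 := by
  rcases eq_or_ne a 0 with rfl | ha0
  · rw [map_zero]; exact zero_le
  obtain ⟨n, hn⟩ := h.val0 a ha ha0
  have hvp0 : (0 : Γ₀) < v (p : L) := zero_lt_iff.2 h.vp_ne
  by_contra hgt
  rw [not_le] at hgt
  have hn1 : n ≤ -1 := by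
    by_contra hcon
    have h0 : 0 ≤ n := by omega
    have h1 : v (p : L) ^ n ≤ v (p : L) ^ (0 : ℤ) :=
      (zpow_le_zpow_iff_right_of_lt_one₀ hvp0 h.vp_lt).2 h0
    rw [zpow_zero, ← hn] at h1
    exact absurd hgt (not_lt.2 h1)
  have h2 : v (p : L) ^ (-1 : ℤ) ≤ v a := by
    rw [hn]
    exact (zpow_le_zpow_iff_right_of_lt_one₀ hvp0 h.vp_lt).2 hn1
  -- `v p * v a ≥ 1`
  have h3 : (1 : Γ₀) ≤ v (p : L) * v a := by
    calc (1 : Γ₀) = v (p : L) * v (p : L) ^ (-1 : ℤ) := by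
          rw [zpow_neg_one, mul_inv_cancel₀ h.vp_ne]
      _ ≤ v (p : L) * v a := mul_le_mul_right h2 _
  -- `v ϖ ^ p < v ϖ ^ l`
  have h4 : v (ω - 1) ^ p < v (ω - 1) ^ l :=
    pow_lt_pow_right_of_lt_one₀ h.val_varpi_pos h.val_varpi_lt hl
  have h5 : v (p : L) * (v a * v (ω - 1) ^ l) ≤ v (p : L) * 1 := by
    rw [← map_pow, ← map_mul]
    exact mul_le_mul_right hle _
  rw [mul_one, ← mul_assoc] at h5
  have h6 : v (ω - 1) ^ l ≤ v (p : L) * v a * v (ω - 1) ^ l := by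
    calc v (ω - 1) ^ l = 1 * v (ω - 1) ^ l := (one_mul _).symm
      _ ≤ v (p : L) * v a * v (ω - 1) ^ l := mul_le_mul_left h3 _
  rw [h.val_varpi] at h4
  exact absurd (lt_of_lt_of_le h4 (le_trans h6 h5)) (lt_irrefl _)

/-- The coefficients of an integral element of `L₀(ω)` are integral. -/
theorem val_k3coeff_le (h : KData v L0 p ζ ω σ) {g : ℕ → L} (hg : ∀ l, g l ∈ L0)
    (hc : v (k3sum p ω g) ≤ 1) {l : ℕ} (hl : l < p) : v (g l) ≤ 1 :=
  h.val_coeff_le_of_term (hg l) hl (le_trans (h.val_k3term_le hg hl) hc)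

/-- `ϖ θ = π ω`. -/
theorem varpi_mul_theta (h : KData v L0 p ζ ω σ) : (ω - 1) * theta ζ ω = (ζ - 1) * ω := by
  rw [theta, mul_div_cancel₀ _ h.varpi_ne_zero]

theorem sigma_varpi_pow (h : KData v L0 p ζ ω σ) (l : ℕ) :
    σ ((ω - 1) ^ l) = (ω - 1) ^ l * (1 + theta ζ ω) ^ l := by
  rw [map_pow, h.sigma_varpi, mul_pow]

theorem sigma_k3sum (h : KData v L0 p ζ ω σ) {g : ℕ → L} (hg : ∀ l, g l ∈ L0) :
    σ (k3sum p ω g) = ∑ l ∈ range p, g l * (ω - 1) ^ l * (1 + theta ζ ω) ^ l := by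
  rw [k3sum, map_sum]
  refine sum_congr rfl fun l _ => ?_
  rw [map_mul, h.σ0 _ (hg l), h.sigma_varpi_pow, mul_assoc]

/-- `(1 + θ) ^ l - 1 = θ * S`, `S = ∑_{i < l} (1 + θ) ^ i`. -/
theorem one_add_theta_pow_sub (t : L) (l : ℕ) :
    (1 + t) ^ l - 1 = t * ∑ i ∈ range l, (1 + t) ^ i := by
  have := mul_geom_sum (1 + t) l
  rw [add_sub_cancel_left] at this
  exact this.symm

theorem val_geom_theta (h : KData v L0 p ζ ω σ) (l : ℕ) :
    v (∑ i ∈ range l, (1 + theta ζ ω) ^ i) ≤ 1 := by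
  refine val_geom_sum_le_one v ?_ l
  exact le_trans (v.map_add _ _) (max_le (by rw [map_one]) h.val_theta_lt.le)

/-- `σ (g ϖ ^ (l + 1)) - g ϖ ^ (l + 1) = g ϖ ^ l π ω S`. -/
theorem sigma_k3term_sub (h : KData v L0 p ζ ω σ) (a : L) (l : ℕ) :
    a * (ω - 1) ^ (l + 1) * (1 + theta ζ ω) ^ (l + 1) - a * (ω - 1) ^ (l + 1) =
      a * (ω - 1) ^ l * ((ζ - 1) * ω) * ∑ i ∈ range (l + 1), (1 + theta ζ ω) ^ i := by
  rw [← h.varpi_mul_theta]
  have := one_add_theta_pow_sub (theta ζ ω) (l + 1)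
  have e : a * (ω - 1) ^ (l + 1) * (1 + theta ζ ω) ^ (l + 1) - a * (ω - 1) ^ (l + 1) =
      a * (ω - 1) ^ (l + 1) * ((1 + theta ζ ω) ^ (l + 1) - 1) := by ring
  rw [e, this, pow_succ]
  ring

/-- **(A2) of Key-p**: `σ c - c ∈ π O` for `c ∈ L₀(ω)` integral. -/
theorem val_sigma_sub_k3sum (h : KData v L0 p ζ ω σ) {g : ℕ → L} (hg : ∀ l, g l ∈ L0)
    (hc : v (k3sum p ω g) ≤ 1) : v (σ (k3sum p ω g) - k3sum p ω g) ≤ v (ζ - 1) := by
  have e : σ (k3sum p ω g) - k3sum p ω g =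
      ∑ l ∈ range p, (g l * (ω - 1) ^ l * (1 + theta ζ ω) ^ l - g l * (ω - 1) ^ l) := by
    rw [h.sigma_k3sum hg, k3sum, ← sum_sub_distrib]
  rw [e]
  refine v.map_sum_le fun l hl => ?_
  rcases Nat.eq_zero_or_pos l with h0 | h0
  · rw [h0]
    simp
  obtain ⟨k, rfl⟩ : ∃ k, l = k + 1 := ⟨l - 1, by omega⟩
  rw [h.sigma_k3term_sub, map_mul, map_mul, map_mul, map_mul, map_pow, h.val_omega, mul_one]
  have h1 : v (g (k + 1)) ≤ 1 := h.val_k3coeff_le hg hc (mem_range.1 hl)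
  have h2 : v (ω - 1) ^ k ≤ 1 := pow_le_one₀ zero_le h.val_varpi_le
  have h3 := h.val_geom_theta (k + 1)
  calc v (g (k + 1)) * v (ω - 1) ^ k * v (ζ - 1) * v (∑ i ∈ range (k + 1), (1 + theta ζ ω) ^ i)
      ≤ 1 * 1 * v (ζ - 1) * 1 :=
        mul_le_mul' (mul_le_mul' (mul_le_mul' h1 h2) le_rfl) h3
    _ = v (ζ - 1) := by rw [one_mul, one_mul, mul_one]

/-- **(A2) of Key-p** for the elements of `L₀(ω)`. -/
theorem val_sigma_sub_k3 (h : KData v L0 p ζ ω σ) {c : L}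
    (hc : c ∈ IntermediateField.adjoin L0 ({ω} : Set L)) (hle : v c ≤ 1) :
    v (σ c - c) ≤ v (ζ - 1) := by
  obtain ⟨g, hg, rfl⟩ := h.exists_k3sum hc
  exact h.val_sigma_sub_k3sum hg hle

/-- An element of `L₀` of value `< 1` has value `≤ v p`. -/
theorem val_le_vp_of_lt (h : KData v L0 p ζ ω σ) {a : L} (ha : a ∈ L0) (hlt : v a < 1) :
    v a ≤ v (p : L) := by
  rcases eq_or_ne a 0 with rfl | ha0
  · rw [map_zero]; exact zero_le
  obtain ⟨n, hn⟩ := h.val0 a ha ha0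
  have hvp0 : (0 : Γ₀) < v (p : L) := zero_lt_iff.2 h.vp_ne
  rw [hn] at hlt ⊢
  have hn1 : 1 ≤ n := by
    by_contra hcon
    have h0 : n ≤ 0 := by omega
    have h1 : v (p : L) ^ (0 : ℤ) ≤ v (p : L) ^ n :=
      (zpow_le_zpow_iff_right_of_lt_one₀ hvp0 h.vp_lt).2 h0
    rw [zpow_zero] at h1
    exact absurd hlt (not_lt.2 h1)
  have h2 := (zpow_le_zpow_iff_right_of_lt_one₀ hvp0 h.vp_lt).2 hn1
  rwa [zpow_one] at h2

/-- `v p ≤ v ϖ ^ k` for `k ≤ p`. -/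
theorem vp_le_varpi_pow (h : KData v L0 p ζ ω σ) {k : ℕ} (hk : k ≤ p) :
    v (p : L) ≤ v (ω - 1) ^ k := by
  rw [← h.val_varpi]
  exact pow_le_pow_of_le_one zero_le h.val_varpi_le hk

theorem vp_le_varpi (h : KData v L0 p ζ ω σ) : v (p : L) ≤ v (ω - 1) := by
  have := h.vp_le_varpi_pow h.prime.one_le
  rwa [pow_one] at this

/-- The coefficient `g 0` of a non-unit is a non-unit. -/
theorem val_k3coeff_zero (h : KData v L0 p ζ ω σ) {g : ℕ → L} (hg : ∀ l, g l ∈ L0)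
    (hc : v (k3sum p ω g) < 1) : v (g 0) ≤ v (p : L) := by
  have h1 := h.val_k3term_le hg h.prime.pos
  rw [pow_zero, mul_one] at h1
  exact h.val_le_vp_of_lt (hg 0) (lt_of_le_of_lt h1 hc)

/-- **(A3) of Key-p, part 1**: a non-unit of `L₀(ω)` is divisible by `ϖ`. -/
theorem val_k3sum_small (h : KData v L0 p ζ ω σ) {g : ℕ → L} (hg : ∀ l, g l ∈ L0)
    (hc : v (k3sum p ω g) < 1) : v (k3sum p ω g) ≤ v (ω - 1) := by
  have h0 := h.val_k3coeff_zero hg hc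
  rw [k3sum]
  refine v.map_sum_le fun l hl => ?_
  rcases Nat.eq_zero_or_pos l with hl0 | hl0
  · rw [hl0, pow_zero, mul_one]
    exact le_trans h0 h.vp_le_varpi
  · rw [map_mul, map_pow]
    have h1 : v (g l) ≤ 1 := h.val_k3coeff_le hg hc.le (mem_range.1 hl)
    have h2 : v (ω - 1) ^ l ≤ v (ω - 1) ^ 1 := pow_le_pow_of_le_one zero_le h.val_varpi_le hl0
    rw [pow_one] at h2
    calc v (g l) * v (ω - 1) ^ l ≤ 1 * v (ω - 1) := mul_le_mul' h1 h2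
      _ = v (ω - 1) := one_mul _

theorem val_k3_small (h : KData v L0 p ζ ω σ) {a : L}
    (ha : a ∈ IntermediateField.adjoin L0 ({ω} : Set L)) (hlt : v a < 1) :
    v a ≤ v (ω - 1) := by
  obtain ⟨g, hg, rfl⟩ := h.exists_k3sum ha
  exact h.val_k3sum_small hg hlt

/-- **(A3) of Key-p, part 3**: if `a / ϖ` is a non-unit then `a` is divisible by `ϖ ^ 2`. -/
theorem val_k3sum_small_sq (h : KData v L0 p ζ ω σ) {g : ℕ → L} (hg : ∀ l, g l ∈ L0)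
    (hc : v (k3sum p ω g) < v (ω - 1)) : v (k3sum p ω g) ≤ v (ω - 1) ^ 2 := by
  have hc1 : v (k3sum p ω g) < 1 := lt_trans hc h.val_varpi_lt
  have h0 := h.val_k3coeff_zero hg hc1
  have hp2 : 2 ≤ p := h.prime.two_le
  -- the coefficient `g 1` is a non-unit
  have h1 : v (g 1) ≤ v (p : L) := by
    refine h.val_le_vp_of_lt (hg 1) ?_
    have h2 := h.val_k3term_le hg (l := 1) (by omega)
    rw [pow_one, map_mul] at h2
    have h3 : v (g 1) * v (ω - 1) < 1 * v (ω - 1) := by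
      rw [one_mul]
      exact lt_of_le_of_lt h2 hc
    exact lt_of_mul_lt_mul_right h3 zero_le
  rw [k3sum]
  refine v.map_sum_le fun l hl => ?_
  rcases Nat.eq_zero_or_pos l with hl0 | hl0
  · rw [hl0, pow_zero, mul_one]
    exact le_trans h0 (h.vp_le_varpi_pow hp2)
  rcases Nat.eq_or_lt_of_le hl0 with hl1 | hl1
  · rw [← hl1, pow_one, map_mul, sq]
    exact mul_le_mul' (le_trans h1 h.vp_le_varpi) le_rfl
  · rw [map_mul, map_pow]
    have h2 : v (g l) ≤ 1 := h.val_k3coeff_le hg hc1.le (mem_range.1 hl)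
    have h3 : v (ω - 1) ^ l ≤ v (ω - 1) ^ 2 := pow_le_pow_of_le_one zero_le h.val_varpi_le hl1
    calc v (g l) * v (ω - 1) ^ l ≤ 1 * v (ω - 1) ^ 2 := mul_le_mul' h2 h3
      _ = v (ω - 1) ^ 2 := one_mul _

theorem val_k3_small_sq (h : KData v L0 p ζ ω σ) {a : L}
    (ha : a ∈ IntermediateField.adjoin L0 ({ω} : Set L)) (hlt : v (a / (ω - 1)) < 1) :
    v a ≤ v (ω - 1) ^ 2 := by
  obtain ⟨g, hg, rfl⟩ := h.exists_k3sum ha
  refine h.val_k3sum_small_sq hg ?_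
  rw [map_div₀, div_lt_iff₀ h.val_varpi_pos, one_mul] at hlt
  exact hlt

/-- **(A3) of Key-p, part 2**: `(σ a - a) / π ≡ a / ϖ` modulo the maximal ideal, for a
non-unit `a ∈ L₀(ω)`. -/
theorem val_sigma_sub_div_k3sum (h : KData v L0 p ζ ω σ) {g : ℕ → L} (hg : ∀ l, g l ∈ L0)
    (hc : v (k3sum p ω g) < 1) :
    v ((σ (k3sum p ω g) - k3sum p ω g) / (ζ - 1) - k3sum p ω g / (ω - 1)) < 1 := by
  have h0 := h.val_k3coeff_zero hg hc
  have hπ := h.pi_ne_zero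
  have hϖ := h.varpi_ne_zero
  have e : (σ (k3sum p ω g) - k3sum p ω g) / (ζ - 1) - k3sum p ω g / (ω - 1) =
      ∑ l ∈ range p, ((g l * (ω - 1) ^ l * (1 + theta ζ ω) ^ l - g l * (ω - 1) ^ l) / (ζ - 1) -
        g l * (ω - 1) ^ l / (ω - 1)) := by
    rw [h.sigma_k3sum hg, k3sum, ← sum_sub_distrib, sum_div, sum_div, ← sum_sub_distrib]
  rw [e]
  refine v.map_sum_lt one_ne_zero fun l hl => ?_
  rcases Nat.eq_zero_or_pos l with hl0 | hl0
  · -- `l = 0`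
    rw [hl0]
    simp only [pow_zero, mul_one, sub_self, zero_div, zero_sub, Valuation.map_neg, map_div₀]
    rw [div_lt_iff₀ h.val_varpi_pos, one_mul]
    refine lt_of_le_of_lt h0 ?_
    rw [← h.val_varpi]
    have := pow_lt_pow_right_of_lt_one₀ h.val_varpi_pos h.val_varpi_lt h.prime.one_lt
    rwa [pow_one] at this
  obtain ⟨k, rfl⟩ : ∃ k, l = k + 1 := ⟨l - 1, by omega⟩
  have h1 : v (g (k + 1)) ≤ 1 := h.val_k3coeff_le hg hc.le (mem_range.1 hl)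
  have e2 : (g (k + 1) * (ω - 1) ^ (k + 1) * (1 + theta ζ ω) ^ (k + 1) -
      g (k + 1) * (ω - 1) ^ (k + 1)) / (ζ - 1) - g (k + 1) * (ω - 1) ^ (k + 1) / (ω - 1) =
      g (k + 1) * ((ω - 1) ^ k * (ω * ∑ i ∈ range (k + 1), (1 + theta ζ ω) ^ i - 1)) := by
    rw [h.sigma_k3term_sub, pow_succ]
    field_simp
  rw [e2, map_mul]
  have h2 : v ((ω - 1) ^ k * (ω * ∑ i ∈ range (k + 1), (1 + theta ζ ω) ^ i - 1)) < 1 := by
    rcases Nat.eq_zero_or_pos k with hk0 | hk0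
    · rw [hk0]
      simp only [pow_zero, one_mul, zero_add, range_one, sum_singleton, mul_one]
      exact h.val_varpi_lt
    · rw [map_mul, map_pow]
      have h3 : v (ω - 1) ^ k < 1 := pow_lt_one₀ zero_le h.val_varpi_lt (by omega)
      have h4 : v (ω * ∑ i ∈ range (k + 1), (1 + theta ζ ω) ^ i - 1) ≤ 1 := by
        refine le_trans (v.map_sub _ _) (max_le ?_ (by rw [map_one]))
        rw [map_mul, h.val_omega, one_mul]
        exact h.val_geom_theta _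
      calc v (ω - 1) ^ k * v (ω * ∑ i ∈ range (k + 1), (1 + theta ζ ω) ^ i - 1)
          ≤ v (ω - 1) ^ k * 1 := mul_le_mul_right h4 _
        _ = v (ω - 1) ^ k := mul_one _
        _ < 1 := h3
  calc v (g (k + 1)) * v ((ω - 1) ^ k * (ω * ∑ i ∈ range (k + 1), (1 + theta ζ ω) ^ i - 1))
      ≤ 1 * v ((ω - 1) ^ k * (ω * ∑ i ∈ range (k + 1), (1 + theta ζ ω) ^ i - 1)) :=
        mul_le_mul_left h1 _
    _ = v ((ω - 1) ^ k * (ω * ∑ i ∈ range (k + 1), (1 + theta ζ ω) ^ i - 1)) := one_mul _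
    _ < 1 := h2

theorem val_sigma_sub_div_k3 (h : KData v L0 p ζ ω σ) {a : L}
    (ha : a ∈ IntermediateField.adjoin L0 ({ω} : Set L)) (hlt : v a < 1) :
    v ((σ a - a) / (ζ - 1) - a / (ω - 1)) < 1 := by
  obtain ⟨g, hg, rfl⟩ := h.exists_k3sum ha
  exact h.val_sigma_sub_div_k3sum hg hlt

/-- **(A0) of Key-p, part 2**: `ϖ ^ p / p ≡ u₁`, `u₁ = (ω ^ p - 1) / p`. -/
theorem val_varpi_pow_div (h : KData v L0 p ζ ω σ) :
    v ((ω - 1) ^ p / (p : L) - (ω ^ p - 1) / (p : L)) < 1 := by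
  have h1 := add_pow_prime_eq h.prime (ω - 1) (1 : L)
  rw [sub_add_cancel] at h1
  have hp0 := h.p_ne_zero
  have e : (ω - 1) ^ p / (p : L) - (ω ^ p - 1) / (p : L) =
      -((ω - 1) * ∑ k ∈ Ioo 0 p, (ω - 1) ^ (k - 1) * (1 : L) ^ (p - k - 1) *
        ((p.choose k / p : ℕ) : L)) := by
    rw [h1]
    field_simp
    ring
  rw [e, Valuation.map_neg, map_mul]
  have h2 : v (∑ k ∈ Ioo 0 p, (ω - 1) ^ (k - 1) * (1 : L) ^ (p - k - 1) *
      ((p.choose k / p : ℕ) : L)) ≤ 1 := by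
    refine v.map_sum_le fun k _ => ?_
    rw [map_mul, map_mul, map_pow, map_pow, map_one, one_pow, mul_one]
    exact mul_le_one₀ (pow_le_one₀ zero_le h.val_varpi_le) zero_le (val_natCast_le_one v _)
  calc v (ω - 1) * v (∑ k ∈ Ioo 0 p, (ω - 1) ^ (k - 1) * (1 : L) ^ (p - k - 1) *
        ((p.choose k / p : ℕ) : L)) ≤ v (ω - 1) * 1 := mul_le_mul_right h2 _
    _ = v (ω - 1) := mul_one _
    _ < 1 := h.val_varpi_lt

end KData

end Fermat.Agent.BADP.H97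

end
-- ==== END Fermat.Agent.BADP.H97_K3
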