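-- GENERATED (merged mirror, NOTES/tools/trim/merge3_helper67.py): 4 modules of the originals, bodies verbatim.
import Fermat.Agent.Zm.S33_L02_001
import Fermat.Agent.Zm.S35_L10_000
import Fermat.Agent.Zm.S33_L02_000
import Fermat.Agent.Zm.S56_L04_000
import Fermat.Agent.S05.H37_Inertia
import Fermat.Agent.NEB.H97_Val
import Fermat.Agent.Zm.S33_L01_001
import Fermat.Agent.Zm.S33_L01_003

-- ==== BEGIN Fermat.Agent.BADP.H51_Canon
section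

/-!
# S44, package CANON (helper51), part 1: the canonical form of a function in TIss-position

Setting: `S : SSD K F k F₁ F₂`, a non-special pair `(A₁, A₂)` of sets of regular points of the two
components with `#A₁ + #A₂ ≥ g`, adapted coordinates `s₁ Q`, `s₂ Q` on the residue discs (shape
of `Stmt_Coords` / `SSD.KeyHyp`), `Y_Q` the zero of the coordinate on the disc of `Q`.

`canon` (every exponent `n ≠ 0`): if `f ≡ 1` for both valuations, `n ∣ div f` and `f` has neither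
zero nor pole on the fibres of the nodes (TIss-position), then there is `h`, a unit for both
valuations with constant reductions `ζ`, `ζ ^ n = 1`, such that `f₁ = f h ^ n` satisfies ALL the
hypotheses of the nodal key lemma `Stmt_KeyNodal` (except `(n : k) ≠ 0`): `f₁ ≡ 1` for both
valuations, `f₁(P∞) = 1`, `f₁` has no zero or pole outside the discs, and on the disc of `Q`
`div f₁ = n (X_Q - Y_Q)`, `X_Q` the zero of `s_Q - a_Q`, `a_Q` in the maximal ideal.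

`canon_p` : for `n = p = char k` moreover `h ≡ 1` for both valuations.

This is the first half of the proof of `BAD.H01.stmt_TIss_of` (helper1, after helper17's
`RedSetup.ticore`), which does not use that `n` is invertible in `k`.
-/

set_option autoImplicit false
set_option linter.style.haveILetI false
set_option maxHeartbeats 2000000

noncomputable section

open AlgebraicCurve

attribute [local instance] Classical.propDecidable

namespace Fermat.Agent.BADP.H51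

open Fermat.Agent.RED.H17 Fermat.Agent.RED Fermat.Agent.BAD Fermat.Agent.BAD.H01

local notation "L" => riemannRochSpace

section Main

variable {K F k F₁ F₂ : Type} [Field K] [Field F] [Algebra K F] [Field k] [Field F₁]
  [Algebra k F₁] [Field F₂] [Algebra k F₂]

/-- The conclusion of `canon`: the function `f₁` (`= f h ^ n`) is in canonical form with respect
to the coordinates `s₁`, `s₂`, with values `a₁`, `a₂` and points `X₁`, `X₂`. -/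
structure IsCanon (S : SSD K F k F₁ F₂) (A₁ : Finset (Place k F₁)) (A₂ : Finset (Place k F₂))
    (s₁ : Place k F₁ → F) (s₂ : Place k F₂ → F) (n : ℕ) (Pinf : Place K F) (f₁ : F)
    (a₁ : Place k F₁ → K) (a₂ : Place k F₂ → K) (X₁ : Place k F₁ → Place K F)
    (X₂ : Place k F₂ → Place K F) : Prop where
  mem₁ : f₁ ∈ S.c₁.V
  mem₂ : f₁ ∈ S.c₂.V
  rd₁ : S.c₁.rd f₁ = 1
  rd₂ : S.c₂.rd f₁ = 1
  inf : VanAt Pinf (f₁ - 1)
  ha₁ : ∀ Q ∈ A₁, algebraMap K F (a₁ Q) ∈ S.c₁.V ∧ S.c₁.rd (algebraMap K F (a₁ Q)) = 0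
  ha₂ : ∀ Q ∈ A₂, algebraMap K F (a₂ Q) ∈ S.c₂.V ∧ S.c₂.rd (algebraMap K F (a₂ Q)) = 0
  hX₁ : ∀ Q ∈ A₁, S.c₁.r (X₁ Q) = some Q ∧ VanAt (X₁ Q) (s₁ Q - algebraMap K F (a₁ Q))
  hX₂ : ∀ Q ∈ A₂, S.c₂.r (X₂ Q) = some Q ∧ VanAt (X₂ Q) (s₂ Q - algebraMap K F (a₂ Q))
  off : ∀ P, (∀ Q ∈ A₁, S.c₁.r P ≠ some Q) → (∀ Q ∈ A₂, S.c₂.r P ≠ some Q) → P.ord f₁ = 0
  on₁ : ∀ Q ∈ A₁, ∀ P, S.c₁.r P = some Q →
    P.ord f₁ = n * (P.ord (s₁ Q - algebraMap K F (a₁ Q)) - P.ord (s₁ Q))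
  on₂ : ∀ Q ∈ A₂, ∀ P, S.c₂.r P = some Q →
    P.ord f₁ = n * (P.ord (s₂ Q - algebraMap K F (a₂ Q)) - P.ord (s₂ Q))
  onX₁ : ∀ Q ∈ A₁, ∀ P, S.c₁.r P = some Q →
    P.ord (s₁ Q - algebraMap K F (a₁ Q)) = if P = X₁ Q then 1 else 0
  onX₂ : ∀ Q ∈ A₂, ∀ P, S.c₂.r P = some Q →
    P.ord (s₂ Q - algebraMap K F (a₂ Q)) = if P = X₂ Q then 1 else 0

/-- **CANON, existence** (every exponent). -/
theorem canon [IsAlgClosed K] (S : SSD K F k F₁ F₂) (H : FFHyp K F) (H₁ : FFHyp k F₁)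
    (H₂ : FFHyp k F₂) {g : ℕ} {c : ℤ} (hR : IsGenus K F g c)
    {A₁ : Finset (Place k F₁)} {A₂ : Finset (Place k F₂)}
    (hdis₁ : Disjoint A₁ S.br₁) (hdis₂ : Disjoint A₂ S.br₂) (hNSA : S.IsNS A₁ A₂)
    (hcard : g ≤ A₁.card + A₂.card)
    {s₁ : Place k F₁ → F} {s₂ : Place k F₂ → F}
    (hs₁ : ∀ Q ∈ A₁, S.IsCoordA₁ A₁ A₂ (s₁ Q) Q) (hs₂ : ∀ Q ∈ A₂, S.IsCoordA₂ A₁ A₂ (s₂ Q) Q)
    {n : ℕ} (hn0 : n ≠ 0) {f : F} (hf₁ : f ∈ S.c₁.V) (hf₂ : f ∈ S.c₂.V)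
    (hrd₁ : S.c₁.rd f = 1) (hrd₂ : S.c₂.rd f = 1) (hdiv : ∀ P : Place K F, (n : ℤ) ∣ P.ord f)
    (hnode : ∀ P : Place K F, S.IsNodeP P → P.ord f = 0)
    {Pinf : Place K F} {Qinf : Place k F₁} (hQinfg : Qinf ∈ S.c₁.good) (hQinfA : Qinf ∉ A₁)
    (hPinf : S.c₁.r Pinf = some Qinf) :
    ∃ (h : F) (ζ : k) (a₁ : Place k F₁ → K) (a₂ : Place k F₂ → K)
      (X₁ : Place k F₁ → Place K F) (X₂ : Place k F₂ → Place K F),
      S.c₁.IsGU h ∧ S.c₂.IsGU h ∧ S.c₁.rd h = algebraMap k F₁ ζ ∧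
      S.c₂.rd h = algebraMap k F₂ ζ ∧ ζ ^ n = 1 ∧
      IsCanon S A₁ A₂ s₁ s₂ n Pinf (f * h ^ n) a₁ a₂ X₁ X₂ := by
  have hP := H.principal
  have hnZ : (n : ℤ) ≠ 0 := by exact_mod_cast hn0
  have hfGU₁ : S.c₁.IsGU f := ⟨hf₁, by rw [hrd₁]; exact one_ne_zero⟩
  have hfGU₂ : S.c₂.IsGU f := ⟨hf₂, by rw [hrd₂]; exact one_ne_zero⟩
  have hA₁g : ∀ Q ∈ A₁, Q ∈ S.c₁.good := fun Q hQ =>
    S.good₁_of_notMem (Finset.disjoint_left.mp hdis₁ hQ)
  have hA₂g : ∀ Q ∈ A₂, Q ∈ S.c₂.good := fun Q hQ =>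
    S.good₂_of_notMem (Finset.disjoint_left.mp hdis₂ hQ)
  have hsC₁ : ∀ Q ∈ A₁, S.c₁.IsCoord (s₁ Q) Q := fun Q hQ => (hs₁ Q hQ).1
  have hsC₂ : ∀ Q ∈ A₂, S.c₂.IsCoord (s₂ Q) Q := fun Q hQ => (hs₂ Q hQ).1
  -- the zeros `Y` of the coordinates
  have hY₁ex : ∀ Q, ∃ Y : Place K F, Q ∈ A₁ → S.c₁.r Y = some Q ∧ Y.ord (s₁ Q) = 1 ∧
      ∀ P, S.c₁.r P = some Q → P ≠ Y → P.ord (s₁ Q) = 0 := by
    intro Q
    by_cases hQ : Q ∈ A₁
    · obtain ⟨Y, h1, h2, h3⟩ := (hsC₁ Q hQ).exists_zero hP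
      exact ⟨Y, fun _ => ⟨h1, h2, h3⟩⟩
    · exact ⟨Pinf, fun h => absurd h hQ⟩
  choose Y₁ hY₁ using hY₁ex
  have hY₂ex : ∀ Q, ∃ Y : Place K F, Q ∈ A₂ → S.c₂.r Y = some Q ∧ Y.ord (s₂ Q) = 1 ∧
      ∀ P, S.c₂.r P = some Q → P ≠ Y → P.ord (s₂ Q) = 0 := by
    intro Q
    by_cases hQ : Q ∈ A₂
    · obtain ⟨Y, h1, h2, h3⟩ := (hsC₂ Q hQ).exists_zero hP
      exact ⟨Y, fun _ => ⟨h1, h2, h3⟩⟩
    · exact ⟨Pinf, fun h => absurd h hQ⟩
  choose Y₂ hY₂ using hY₂ex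
  have hrY₁ : ∀ Q ∈ A₁, S.c₁.r (Y₁ Q) = some Q := fun Q hQ => (hY₁ Q hQ).1
  have hrY₂ : ∀ Q ∈ A₂, S.c₂.r (Y₂ Q) = some Q := fun Q hQ => (hY₂ Q hQ).1
  -- the set `B` of the zeros and the divisor `E'`
  obtain ⟨B, hBdef⟩ : ∃ B : Finset (Place K F), B = A₁.image Y₁ ∪ A₂.image Y₂ := ⟨_, rfl⟩
  have hBmem : ∀ P, P ∈ B ↔ (∃ Q ∈ A₁, Y₁ Q = P) ∨ ∃ Q ∈ A₂, Y₂ Q = P := by
    intro P
    rw [hBdef, Finset.mem_union, Finset.mem_image, Finset.mem_image]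
  have hB₁ : ∀ P Q, S.c₁.r P = some Q → (P ∈ B ↔ Q ∈ A₁ ∧ P = Y₁ Q) := by
    intro P Q hPQ
    rw [hBmem]
    constructor
    · rintro (⟨Q', hQ', rfl⟩ | ⟨Q', hQ', rfl⟩)
      · have := hrY₁ Q' hQ'
        rw [hPQ] at this
        have e : Q = Q' := Option.some.inj this
        subst e
        exact ⟨hQ', rfl⟩
      · have := S.r₁_none_of_good₂ (hA₂g Q' hQ') (hrY₂ Q' hQ')
        rw [hPQ] at this
        exact absurd this (by simp)
    · rintro ⟨hQ, rfl⟩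
      exact Or.inl ⟨Q, hQ, rfl⟩
  have hB₂ : ∀ P Q, S.c₂.r P = some Q → (P ∈ B ↔ Q ∈ A₂ ∧ P = Y₂ Q) := by
    intro P Q hPQ
    rw [hBmem]
    constructor
    · rintro (⟨Q', hQ', rfl⟩ | ⟨Q', hQ', rfl⟩)
      · have := S.r₂_none_of_good₁ (hA₁g Q' hQ') (hrY₁ Q' hQ')
        rw [hPQ] at this
        exact absurd this (by simp)
      · have := hrY₂ Q' hQ'
        rw [hPQ] at this
        have e : Q = Q' := Option.some.inj this
        subst e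
        exact ⟨hQ', rfl⟩
    · rintro ⟨hQ, rfl⟩
      exact Or.inr ⟨Q, hQ, rfl⟩
  have hBnode : ∀ P, S.IsNodeP P → P ∉ B := by
    intro P hPn hPB
    rcases (hBmem P).mp hPB with ⟨Q', hQ', rfl⟩ | ⟨Q', hQ', rfl⟩
    · exact S.not_isNodeP_of_good₁ (hA₁g Q' hQ') (hrY₁ Q' hQ') hPn
    · exact S.not_isNodeP_of_good₂ (hA₂g Q' hQ') (hrY₂ Q' hQ') hPn
  have hBcard : B.card = A₁.card + A₂.card := by
    rw [hBdef, Finset.card_union_of_disjoint, Finset.card_image_of_injOn,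
      Finset.card_image_of_injOn]
    · intro Q hQ Q' hQ' h
      have h1 := hrY₂ Q hQ
      have h1' : S.c₂.r (Y₂ Q) = some Q' := by
        have := hrY₂ Q' hQ'
        rwa [← show Y₂ Q = Y₂ Q' from h] at this
      rw [h1] at h1'
      exact Option.some.inj h1'
    · intro Q hQ Q' hQ' h
      have h1 := hrY₁ Q hQ
      have h1' : S.c₁.r (Y₁ Q) = some Q' := by
        have := hrY₁ Q' hQ'
        rwa [← show Y₁ Q = Y₁ Q' from h] at this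
      rw [h1] at h1'
      exact Option.some.inj h1'
    · rw [Finset.disjoint_left]
      intro P hP₁ hP₂
      obtain ⟨Q, hQ, rfl⟩ := Finset.mem_image.mp hP₁
      obtain ⟨Q', hQ', hQQ'⟩ := Finset.mem_image.mp hP₂
      have h1 := S.r₂_none_of_good₁ (hA₁g Q hQ) (hrY₁ Q hQ)
      have h2 := hrY₂ Q' hQ'
      rw [hQQ', h1] at h2
      exact absurd h2 (by simp)
  obtain ⟨E', hE'def⟩ : ∃ E' : Divisor K F, E' = ptsDiv B := ⟨_, rfl⟩
  have hE'a : ∀ P, E' P = if P ∈ B then 1 else 0 := fun P => by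
    rw [hE'def, ptsDiv_apply]
  have hdegE' : Divisor.degree E' = (A₁.card + A₂.card : ℕ) := by
    rw [hE'def, degree_ptsDiv H.deg_one, hBcard]
  have hrE'₁ : ∀ Q, Finsupp.mapDomain S.c₁.r E' (some Q) = ptsDiv A₁ Q := by
    intro Q
    rw [hE'def, ptsDiv_apply]
    by_cases hQ : Q ∈ A₁
    · rw [if_pos hQ]
      refine mapDomain_ptsDiv_eq_one _ _ _ (Y₁ Q) fun P => ?_
      constructor
      · rintro ⟨hPB, hPQ⟩
        exact ((hB₁ P Q hPQ).mp hPB).2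
      · rintro rfl
        exact ⟨(hB₁ _ Q (hrY₁ Q hQ)).mpr ⟨hQ, rfl⟩, hrY₁ Q hQ⟩
    · rw [if_neg hQ]
      refine mapDomain_ptsDiv_eq_zero _ _ _ fun P hPB hPQ => ?_
      exact absurd ((hB₁ P Q hPQ).mp hPB).1 hQ
  have hrE'₂ : ∀ Q, Finsupp.mapDomain S.c₂.r E' (some Q) = ptsDiv A₂ Q := by
    intro Q
    rw [hE'def, ptsDiv_apply]
    by_cases hQ : Q ∈ A₂
    · rw [if_pos hQ]
      refine mapDomain_ptsDiv_eq_one _ _ _ (Y₂ Q) fun P => ?_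
      constructor
      · rintro ⟨hPB, hPQ⟩
        exact ((hB₂ P Q hPQ).mp hPB).2
      · rintro rfl
        exact ⟨(hB₂ _ Q (hrY₂ Q hQ)).mpr ⟨hQ, rfl⟩, hrY₂ Q hQ⟩
    · rw [if_neg hQ]
      refine mapDomain_ptsDiv_eq_zero _ _ _ fun P hPB hPQ => ?_
      exact absurd ((hB₂ P Q hPQ).mp hPB).1 hQ
  -- the divisor `D₀ = (1/n) div f`
  obtain ⟨D₀, hD₀def⟩ : ∃ D₀ : Divisor K F,
      D₀ = (dv hP f).mapRange (fun m : ℤ => m / (n : ℤ)) (by simp) := ⟨_, rfl⟩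
  have hD₀a : ∀ P, (n : ℤ) * D₀ P = P.ord f := by
    intro P
    rw [hD₀def, Finsupp.mapRange_apply, dv_apply]
    exact Int.mul_ediv_cancel' (hdiv P)
  have hnD₀ : (n : ℤ) • D₀ = dv hP f := by
    ext P
    rw [Finsupp.smul_apply, smul_eq_mul, hD₀a, dv_apply]
  have hdegD₀ : Divisor.degree D₀ = 0 := by
    have h1 : Divisor.degree ((n : ℤ) • D₀) = 0 := by rw [hnD₀, degree_dv]
    rw [map_zsmul, smul_eq_mul] at h1
    exact (mul_eq_zero.mp h1).resolve_left hnZ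
  have hD₀node : ∀ P, S.IsNodeP P → D₀ P = 0 := by
    intro P hPn
    have := hD₀a P
    rw [hnode P hPn] at this
    exact (mul_eq_zero.mp this).resolve_left hnZ
  have hrD₀₁ : ∀ Q, Finsupp.mapDomain S.c₁.r D₀ (some Q) = 0 := by
    intro Q
    by_cases hQ : Q ∈ S.c₁.good
    · have h1 : (n : ℤ) • Finsupp.mapDomain S.c₁.r D₀ (some Q) = 0 := by
        rw [← Finsupp.smul_apply, ← Finsupp.mapDomain_smul, hnD₀, mapDomain_dv S.c₁ hP hfGU₁ hQ,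
          hrd₁, Place.ord_one]
      exact (smul_eq_zero.mp h1).resolve_left hnZ
    · apply mapDomain_eq_zero_of_fibre
      intro P hPQ
      exact hD₀node P ((S.good₁_or_node hPQ).resolve_left hQ)
  have hrD₀₂ : ∀ Q, Finsupp.mapDomain S.c₂.r D₀ (some Q) = 0 := by
    intro Q
    by_cases hQ : Q ∈ S.c₂.good
    · have h1 : (n : ℤ) • Finsupp.mapDomain S.c₂.r D₀ (some Q) = 0 := by
        rw [← Finsupp.smul_apply, ← Finsupp.mapDomain_smul, hnD₀, mapDomain_dv S.c₂ hP hfGU₂ hQ,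
          hrd₂, Place.ord_one]
      exact (smul_eq_zero.mp h1).resolve_left hnZ
    · apply mapDomain_eq_zero_of_fibre
      intro P hPQ
      exact hD₀node P ((S.good₂_or_node hPQ).resolve_left hQ)
  -- `D₀ + E'` is in good position, with push-forwards `A₁`, `A₂`
  have hGP : S.GoodPos (D₀ + E') := by
    intro P hne hPn
    apply hne
    rw [Finsupp.add_apply, hD₀node P hPn, hE'a, if_neg (hBnode P hPn), add_zero]
  have hpush₁ : S.push₁ (D₀ + E') = ptsDiv A₁ := by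
    ext Q
    rw [S.push₁_apply, Finsupp.mapDomain_add, Finsupp.add_apply, hrD₀₁, hrE'₁, zero_add]
  have hpush₂ : S.push₂ (D₀ + E') = ptsDiv A₂ := by
    ext Q
    rw [S.push₂_apply, Finsupp.mapDomain_add, Finsupp.add_apply, hrD₀₂, hrE'₂, zero_add]
  -- the function `u`
  have hex : ∃ u₀ : F, u₀ ∈ L (D₀ + E') ∧ u₀ ≠ 0 := by
    have h1 := (hR (D₀ + E')).1
    rw [map_add, hdegD₀, hdegE'] at h1
    have h2 : L (D₀ + E') ≠ ⊥ := by
      intro hbot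
      rw [hbot, finrank_bot] at h1
      push_cast at h1
      omega
    exact (Submodule.ne_bot_iff _).mp h2
  obtain ⟨u₀, hu₀, hu₀0⟩ := hex
  obtain ⟨a₀, ha₀, hu₁V, hu₂V, hGU⟩ := S.exists_scale₂ hu₀0 (one_ne_zero : (1 : F) ≠ 0)
  obtain ⟨u, hudef⟩ : ∃ u : F, u = algebraMap K F a₀ * u₀ := ⟨_, rfl⟩
  rw [← hudef] at hu₁V hu₂V hGU
  rw [one_mul] at hu₂V hGU
  have huL : u ∈ L (D₀ + E') := by
    rw [hudef, ← Algebra.smul_def]
    exact (L (D₀ + E')).smul_mem a₀ hu₀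
  have hu0 : u ≠ 0 := by
    rw [hudef]
    exact mul_ne_zero ((map_ne_zero_iff _ (algebraMap K F).injective).mpr ha₀) hu₀0
  -- the reductions of `u` are a constant pair
  have hRs : ((S.c₁.rd u, S.c₂.rd u) : F₁ × F₂) ∈ S.Rsub 1 (D₀ + E') :=
    ⟨u, huL, hu₁V, by rw [one_mul]; exact hu₂V, rfl, by rw [one_mul]⟩
  have hLam := BAD.H17.stmt_Contain0 K F k F₁ F₂ S H H₁ H₂ (D₀ + E') hGP hRs
  rw [S.mem_Lam, hpush₁, hpush₂] at hLam
  obtain ⟨hL₁, hL₂, hglue⟩ := hLam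
  obtain ⟨cu, hcu₁, hcu₂⟩ := hNSA _ hL₁ _ hL₂ (by
    intro s hs
    obtain ⟨a, ha1, ha2⟩ := hglue s hs
    refine ⟨a, ha1, ?_⟩
    simpa using ha2)
  simp only at hcu₁ hcu₂
  have hcu0 : cu ≠ 0 := by
    rintro rfl
    rw [map_zero] at hcu₁ hcu₂
    rcases hGU with h | h
    · exact h.2 hcu₁
    · exact h.2 hcu₂
  have huGU₁ : S.c₁.IsGU u := ⟨hu₁V, by
    rw [hcu₁]; exact (map_ne_zero_iff _ (algebraMap k F₁).injective).mpr hcu0⟩
  have huGU₂ : S.c₂.IsGU u := ⟨hu₂V, by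
    rw [hcu₂]; exact (map_ne_zero_iff _ (algebraMap k F₂).injective).mpr hcu0⟩
  -- the divisor `E`
  obtain ⟨E, hEdef⟩ : ∃ E : Divisor K F, E = dv hP u + D₀ + E' := ⟨_, rfl⟩
  have hEa : ∀ P, E P = P.ord u + D₀ P + E' P := fun P => by
    rw [hEdef, Finsupp.add_apply, Finsupp.add_apply, dv_apply]
  have hEnn : ∀ P, 0 ≤ E P := by
    intro P
    have := ord_ge_of_mem_L huL hu0 P
    rw [Finsupp.add_apply] at this
    rw [hEa]
    omega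
  have hrE₁ : ∀ Q ∈ S.c₁.good, Finsupp.mapDomain S.c₁.r E (some Q) = ptsDiv A₁ Q := by
    intro Q hQ
    rw [hEdef, Finsupp.mapDomain_add, Finsupp.mapDomain_add, Finsupp.add_apply,
      Finsupp.add_apply, hrD₀₁, hrE'₁, mapDomain_dv S.c₁ hP huGU₁ hQ, hcu₁, ord_algebraMap]
    ring
  have hrE₂ : ∀ Q ∈ S.c₂.good, Finsupp.mapDomain S.c₂.r E (some Q) = ptsDiv A₂ Q := by
    intro Q hQ
    rw [hEdef, Finsupp.mapDomain_add, Finsupp.mapDomain_add, Finsupp.add_apply,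
      Finsupp.add_apply, hrD₀₂, hrE'₂, mapDomain_dv S.c₂ hP huGU₂ hQ, hcu₂, ord_algebraMap]
    ring
  have hEnode : ∀ P, S.IsNodeP P → E P = 0 := by
    intro P hPn
    obtain ⟨s, hs, hPs⟩ := hPn
    have hEu : ∀ P', S.c₁.r P' = some s.1 → E P' = P'.ord u := by
      intro P' hP's
      rw [hEa, hD₀node P' ⟨s, hs, hP's⟩, hE'a, if_neg (hBnode P' ⟨s, hs, hP's⟩)]
      ring
    rw [hEu P hPs]
    refine S.ord_eq_zero_of_node hP hs huGU₁ huGU₂ ⟨1, by rw [map_one, one_mul]⟩ ?_ ?_ ?_ hPs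
    · intro P' hP's
      rw [← hEu P' hP's]
      exact hEnn P'
    · rw [hcu₁, ord_algebraMap]
    · rw [hcu₂, ord_algebraMap]
  -- the points `X`
  have hX₁ex : ∀ Q, ∃ X, Q ∈ A₁ → S.c₁.r X = some Q ∧ E X = 1 ∧
      ∀ P, S.c₁.r P = some Q → P ≠ X → E P = 0 := by
    intro Q
    by_cases hQ : Q ∈ A₁
    · obtain ⟨X, h1, h2, h3⟩ := fibre_one S.c₁.r hEnn (b := some Q) (by
        rw [hrE₁ Q (hA₁g Q hQ), ptsDiv_apply, if_pos hQ])
      exact ⟨X, fun _ => ⟨h1, h2, h3⟩⟩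
    · exact ⟨Pinf, fun h => absurd h hQ⟩
  choose X₁ hX₁ using hX₁ex
  have hX₂ex : ∀ Q, ∃ X, Q ∈ A₂ → S.c₂.r X = some Q ∧ E X = 1 ∧
      ∀ P, S.c₂.r P = some Q → P ≠ X → E P = 0 := by
    intro Q
    by_cases hQ : Q ∈ A₂
    · obtain ⟨X, h1, h2, h3⟩ := fibre_one S.c₂.r hEnn (b := some Q) (by
        rw [hrE₂ Q (hA₂g Q hQ), ptsDiv_apply, if_pos hQ])
      exact ⟨X, fun _ => ⟨h1, h2, h3⟩⟩
    · exact ⟨Pinf, fun h => absurd h hQ⟩
  choose X₂ hX₂ using hX₂ex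
  -- outside the discs `E` and `E'` vanish
  have hout : ∀ P, (∀ Q ∈ A₁, S.c₁.r P ≠ some Q) → (∀ Q ∈ A₂, S.c₂.r P ≠ some Q) →
      E P = 0 ∧ E' P = 0 := by
    intro P h₁ h₂
    have hPB : P ∉ B := by
      intro hPB
      rcases (hBmem P).mp hPB with ⟨Q', hQ', rfl⟩ | ⟨Q', hQ', rfl⟩
      · exact h₁ Q' hQ' (hrY₁ Q' hQ')
      · exact h₂ Q' hQ' (hrY₂ Q' hQ')
    refine ⟨?_, by rw [hE'a, if_neg hPB]⟩
    rcases S.r_cases P with ⟨Q, hQ, hPQ, -⟩ | ⟨Q, hQ, hPQ, -⟩ | ⟨s, hs, hPs, -⟩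
    · have hQA : Q ∉ A₁ := fun hQA => h₁ Q hQA hPQ
      exact fibre_zero S.c₁.r hEnn (b := some Q) (by
        rw [hrE₁ Q hQ, ptsDiv_apply, if_neg hQA]) hPQ
    · have hQA : Q ∉ A₂ := fun hQA => h₂ Q hQA hPQ
      exact fibre_zero S.c₂.r hEnn (b := some Q) (by
        rw [hrE₂ Q hQ, ptsDiv_apply, if_neg hQA]) hPQ
    · exact hEnode P ⟨s, hs, hPs⟩
  -- the values `a`
  have ha₁ex : ∀ Q, ∃ a : K, Q ∈ A₁ → algebraMap K F a ∈ S.c₁.V ∧
      S.c₁.rd (algebraMap K F a) = 0 ∧ VanAt (X₁ Q) (s₁ Q - algebraMap K F a) := by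
    intro Q
    by_cases hQ : Q ∈ A₁
    · obtain ⟨a, h1, h2, h3⟩ := (hsC₁ Q hQ).exists_value hP H.deg_one (hX₁ Q hQ).1
      exact ⟨a, fun _ => ⟨h1, h2, h3⟩⟩
    · exact ⟨0, fun h => absurd h hQ⟩
  choose a₁ ha₁ using ha₁ex
  have ha₂ex : ∀ Q, ∃ a : K, Q ∈ A₂ → algebraMap K F a ∈ S.c₂.V ∧
      S.c₂.rd (algebraMap K F a) = 0 ∧ VanAt (X₂ Q) (s₂ Q - algebraMap K F a) := by
    intro Q
    by_cases hQ : Q ∈ A₂
    · obtain ⟨a, h1, h2, h3⟩ := (hsC₂ Q hQ).exists_value hP H.deg_one (hX₂ Q hQ).1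
      exact ⟨a, fun _ => ⟨h1, h2, h3⟩⟩
    · exact ⟨0, fun h => absurd h hQ⟩
  choose a₂ ha₂ using ha₂ex
  -- the function `f₀ = f u ^ n`
  obtain ⟨f₀, hf₀def⟩ : ∃ f₀ : F, f₀ = f * u ^ n := ⟨_, rfl⟩
  have hf₀GU₁ : S.c₁.IsGU f₀ := by rw [hf₀def]; exact hfGU₁.mul (huGU₁.pow n)
  have hf₀GU₂ : S.c₂.IsGU f₀ := by rw [hf₀def]; exact hfGU₂.mul (huGU₂.pow n)
  have hf₀rd₁ : S.c₁.rd f₀ = algebraMap k F₁ (cu ^ n) := by
    rw [hf₀def, S.c₁.rd_mul hf₁ (huGU₁.pow n).1, hrd₁, one_mul, S.c₁.rd_pow huGU₁.1, hcu₁,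
      map_pow]
  have hf₀rd₂ : S.c₂.rd f₀ = algebraMap k F₂ (cu ^ n) := by
    rw [hf₀def, S.c₂.rd_mul hf₂ (huGU₂.pow n).1, hrd₂, one_mul, S.c₂.rd_pow huGU₂.1, hcu₂,
      map_pow]
  have hf₀ord : ∀ P, P.ord f₀ = n * (E P - E' P) := by
    intro P
    rw [hf₀def, P.ord_mul hfGU₁.ne_zero (pow_ne_zero _ hu0), ord_pow, ← hD₀a, hEa]
    ring
  have hPinfout : (∀ Q ∈ A₁, S.c₁.r Pinf ≠ some Q) ∧ ∀ Q ∈ A₂, S.c₂.r Pinf ≠ some Q := by
    constructor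
    · intro Q hQ h
      rw [hPinf] at h
      exact hQinfA (Option.some.inj h ▸ hQ)
    · intro Q hQ h
      rw [S.r₂_none_of_good₁ hQinfg hPinf] at h
      exact absurd h (by simp)
  have hQinfout : ∀ P, S.c₁.r P = some Qinf →
      (∀ Q ∈ A₁, S.c₁.r P ≠ some Q) ∧ ∀ Q ∈ A₂, S.c₂.r P ≠ some Q := by
    intro P hPQ
    constructor
    · intro Q hQ h
      rw [hPQ] at h
      exact hQinfA (Option.some.inj h ▸ hQ)
    · intro Q hQ h
      rw [S.r₂_none_of_good₁ hQinfg hPQ] at h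
      exact absurd h (by simp)
  have hf₀ord0 : ∀ P, (∀ Q ∈ A₁, S.c₁.r P ≠ some Q) → (∀ Q ∈ A₂, S.c₂.r P ≠ some Q) →
      P.ord f₀ = 0 := by
    intro P h₁ h₂
    obtain ⟨e1, e2⟩ := hout P h₁ h₂
    rw [hf₀ord, e1, e2]
    simp
  -- the value of `f₀` at infinity
  obtain ⟨e₀, he₀⟩ := exists_value Pinf (H.deg_one Pinf)
    (regAt_of_ord_nonneg (le_of_eq (hf₀ord0 Pinf hPinfout.1 hPinfout.2).symm))
  obtain ⟨he₀V, he₀rd⟩ := S.c₁.const_of_vanAt_of_rd_const hP hf₀GU₁.1 hQinfg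
    (fun P hPQ => le_of_eq (hf₀ord0 P (hQinfout P hPQ).1 (hQinfout P hPQ).2).symm)
    hPinf he₀ hf₀rd₁
  have he₀GU₁ : S.c₁.IsGU (algebraMap K F e₀) := ⟨he₀V, by rw [he₀rd]; exact hf₀GU₁.2⟩
  have he₀GU₂ : S.c₂.IsGU (algebraMap K F e₀) := S.isGU₂_const he₀GU₁
  have he₀rd₂ : S.c₂.rd (algebraMap K F e₀) = S.c₂.rd f₀ := by
    rw [hf₀rd₂]
    exact (S.rd₂_const he₀V (by rw [he₀rd, hf₀rd₁])).2
  have he₀0 : e₀ ≠ 0 := by
    rintro rfl
    rw [map_zero] at he₀GU₁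
    exact he₀GU₁.ne_zero rfl
  obtain ⟨f₁, hf₁def⟩ : ∃ f₁ : F, f₁ = f₀ / algebraMap K F e₀ := ⟨_, rfl⟩
  have hf₁GU₁ : S.c₁.IsGU f₁ := by rw [hf₁def]; exact hf₀GU₁.div he₀GU₁
  have hf₁GU₂ : S.c₂.IsGU f₁ := by rw [hf₁def]; exact hf₀GU₂.div he₀GU₂
  have hf₁rd₁ : S.c₁.rd f₁ = 1 := by
    rw [hf₁def, hf₀GU₁.rd_div he₀GU₁, he₀rd, div_self hf₀GU₁.2]
  have hf₁rd₂ : S.c₂.rd f₁ = 1 := by
    rw [hf₁def, hf₀GU₂.rd_div he₀GU₂, he₀rd₂, div_self hf₀GU₂.2]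
  have hf₁ord : ∀ P, P.ord f₁ = n * (E P - E' P) := by
    intro P
    rw [hf₁def, ord_div P hf₀GU₁.ne_zero he₀GU₁.ne_zero, ord_algebraMap, sub_zero, hf₀ord]
  have hf₁inf : VanAt Pinf (f₁ - 1) := by
    have : f₁ - 1 = (f₀ - algebraMap K F e₀) * algebraMap K F e₀⁻¹ := by
      rw [hf₁def, map_inv₀]
      field_simp [he₀GU₁.ne_zero]
    rw [this]
    exact he₀.mul_regAt (regAt_algebraMap Pinf _)
  -- the `n`-th root of the value at infinity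
  obtain ⟨t₀, ht₀⟩ := IsAlgClosed.exists_pow_nat_eq e₀ (Nat.pos_of_ne_zero hn0)
  have ht₀GU₁ : S.c₁.IsGU (algebraMap K F t₀) := by
    apply isGU_of_pow S.c₁ hn0
    rw [← map_pow, ht₀]
    exact he₀GU₁
  have ht₀GU₂ : S.c₂.IsGU (algebraMap K F t₀) := S.isGU₂_const ht₀GU₁
  obtain ⟨τ, hτ₁⟩ := S.c₁.rd_const_eq t₀ ht₀GU₁.1
  have hτ₂ : S.c₂.rd (algebraMap K F t₀) = algebraMap k F₂ τ := (S.rd₂_const ht₀GU₁.1 hτ₁).2
  have hτ0 : τ ≠ 0 := by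
    rintro rfl
    rw [map_zero] at hτ₁
    exact ht₀GU₁.2 hτ₁
  have hτn : τ ^ n = cu ^ n := by
    apply (algebraMap k F₁).injective
    rw [← hf₀rd₁, ← he₀rd, ← ht₀, map_pow, map_pow, S.c₁.rd_pow ht₀GU₁.1, hτ₁]
  have hfh : f * (u / algebraMap K F t₀) ^ n = f₁ := by
    rw [hf₁def, hf₀def, div_pow, ← map_pow, ht₀, mul_div_assoc]
  refine ⟨u / algebraMap K F t₀, cu / τ, a₁, a₂, X₁, X₂, huGU₁.div ht₀GU₁, huGU₂.div ht₀GU₂, ?_,
    ?_, ?_, ?_⟩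
  · rw [huGU₁.rd_div ht₀GU₁, hcu₁, hτ₁, map_div₀]
  · rw [huGU₂.rd_div ht₀GU₂, hcu₂, hτ₂, map_div₀]
  · rw [div_pow, hτn, div_self (pow_ne_zero _ hcu0)]
  rw [hfh]
  have hon₁ : ∀ Q ∈ A₁, ∀ P, S.c₁.r P = some Q →
      P.ord (s₁ Q - algebraMap K F (a₁ Q)) = if P = X₁ Q then 1 else 0 := fun Q hQ P hPQ =>
    (hsC₁ Q hQ).ord_sub_eq hP (ha₁ Q hQ).1 (ha₁ Q hQ).2.1 (hX₁ Q hQ).1 (ha₁ Q hQ).2.2 hPQ
  have hon₂ : ∀ Q ∈ A₂, ∀ P, S.c₂.r P = some Q →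
      P.ord (s₂ Q - algebraMap K F (a₂ Q)) = if P = X₂ Q then 1 else 0 := fun Q hQ P hPQ =>
    (hsC₂ Q hQ).ord_sub_eq hP (ha₂ Q hQ).1 (ha₂ Q hQ).2.1 (hX₂ Q hQ).1 (ha₂ Q hQ).2.2 hPQ
  refine ⟨hf₁GU₁.1, hf₁GU₂.1, hf₁rd₁, hf₁rd₂, hf₁inf,
    fun Q hQ => ⟨(ha₁ Q hQ).1, (ha₁ Q hQ).2.1⟩, fun Q hQ => ⟨(ha₂ Q hQ).1, (ha₂ Q hQ).2.1⟩,
    fun Q hQ => ⟨(hX₁ Q hQ).1, (ha₁ Q hQ).2.2⟩, fun Q hQ => ⟨(hX₂ Q hQ).1, (ha₂ Q hQ).2.2⟩,
    ?_, ?_, ?_, hon₁, hon₂⟩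
  · intro P h₁ h₂
    obtain ⟨e1, e2⟩ := hout P h₁ h₂
    rw [hf₁ord, e1, e2]
    simp
  · intro Q hQ P hPQ
    have h1 := hon₁ Q hQ P hPQ
    have h2 : E P = if P = X₁ Q then 1 else 0 := by
      split_ifs with hPX
      · rw [hPX]; exact (hX₁ Q hQ).2.1
      · exact (hX₁ Q hQ).2.2 P hPQ hPX
    have h3 : P.ord (s₁ Q) = if P = Y₁ Q then 1 else 0 := by
      split_ifs with hPY
      · rw [hPY]; exact (hY₁ Q hQ).2.1
      · exact (hY₁ Q hQ).2.2 P hPQ hPY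
    have h4 : E' P = if P = Y₁ Q then 1 else 0 := by
      rw [hE'a]
      by_cases hPY : P = Y₁ Q
      · rw [if_pos hPY, if_pos ((hB₁ P Q hPQ).mpr ⟨hQ, hPY⟩)]
      · rw [if_neg hPY, if_neg fun hPB => hPY ((hB₁ P Q hPQ).mp hPB).2]
    rw [hf₁ord, h1, h2, h3, h4]
  · intro Q hQ P hPQ
    have h1 := hon₂ Q hQ P hPQ
    have h2 : E P = if P = X₂ Q then 1 else 0 := by
      split_ifs with hPX
      · rw [hPX]; exact (hX₂ Q hQ).2.1
      · exact (hX₂ Q hQ).2.2 P hPQ hPX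
    have h3 : P.ord (s₂ Q) = if P = Y₂ Q then 1 else 0 := by
      split_ifs with hPY
      · rw [hPY]; exact (hY₂ Q hQ).2.1
      · exact (hY₂ Q hQ).2.2 P hPQ hPY
    have h4 : E' P = if P = Y₂ Q then 1 else 0 := by
      rw [hE'a]
      by_cases hPY : P = Y₂ Q
      · rw [if_pos hPY, if_pos ((hB₂ P Q hPQ).mpr ⟨hQ, hPY⟩)]
      · rw [if_neg hPY, if_neg fun hPB => hPY ((hB₂ P Q hPQ).mp hPB).2]
    rw [hf₁ord, h1, h2, h3, h4]

/-- **CANON, existence, `n = p = char k`**: the multiplier `h` is `≡ 1` for both valuations. -/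
theorem canon_p [IsAlgClosed K] (S : SSD K F k F₁ F₂) (H : FFHyp K F) (H₁ : FFHyp k F₁)
    (H₂ : FFHyp k F₂) {g : ℕ} {c : ℤ} (hR : IsGenus K F g c)
    {A₁ : Finset (Place k F₁)} {A₂ : Finset (Place k F₂)}
    (hdis₁ : Disjoint A₁ S.br₁) (hdis₂ : Disjoint A₂ S.br₂) (hNSA : S.IsNS A₁ A₂)
    (hcard : g ≤ A₁.card + A₂.card)
    {s₁ : Place k F₁ → F} {s₂ : Place k F₂ → F}
    (hs₁ : ∀ Q ∈ A₁, S.IsCoordA₁ A₁ A₂ (s₁ Q) Q) (hs₂ : ∀ Q ∈ A₂, S.IsCoordA₂ A₁ A₂ (s₂ Q) Q)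
    (p : ℕ) [hp : Fact p.Prime] [CharP k p] {f : F} (hf₁ : f ∈ S.c₁.V) (hf₂ : f ∈ S.c₂.V)
    (hrd₁ : S.c₁.rd f = 1) (hrd₂ : S.c₂.rd f = 1) (hdiv : ∀ P : Place K F, (p : ℤ) ∣ P.ord f)
    (hnode : ∀ P : Place K F, S.IsNodeP P → P.ord f = 0)
    {Pinf : Place K F} {Qinf : Place k F₁} (hQinfg : Qinf ∈ S.c₁.good) (hQinfA : Qinf ∉ A₁)
    (hPinf : S.c₁.r Pinf = some Qinf) :
    ∃ (h : F) (a₁ : Place k F₁ → K) (a₂ : Place k F₂ → K)
      (X₁ : Place k F₁ → Place K F) (X₂ : Place k F₂ → Place K F),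
      h ∈ S.c₁.V ∧ h ∈ S.c₂.V ∧ S.c₁.rd h = 1 ∧ S.c₂.rd h = 1 ∧
      IsCanon S A₁ A₂ s₁ s₂ p Pinf (f * h ^ p) a₁ a₂ X₁ X₂ := by
  obtain ⟨h, ζ, a₁, a₂, X₁, X₂, hh₁, hh₂, hr₁, hr₂, hζ, hcan⟩ :=
    canon S H H₁ H₂ hR hdis₁ hdis₂ hNSA hcard hs₁ hs₂ hp.out.ne_zero hf₁ hf₂ hrd₁ hrd₂ hdiv
      hnode hQinfg hQinfA hPinf
  have hζ1 : ζ = 1 := by
    apply frobenius_inj k p
    rw [frobenius_def, frobenius_def, hζ, one_pow]
  rw [hζ1, map_one] at hr₁ hr₂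
  exact ⟨h, a₁, a₂, X₁, X₂, hh₁.1, hh₂.1, hr₁, hr₂, hcan⟩

end Main

end Fermat.Agent.BADP.H51

end
end
-- ==== END Fermat.Agent.BADP.H51_Canon

-- ==== BEGIN Fermat.Agent.BADP.H97_KArithQ
section

/-!
# BAD_p (S44, row 38), package K-ARITH (helper97): the instantiation inside `ℚ̄`

`A` a place of `ℚ̄` over the prime `p`, `I = A.inertiaSubgroupIn ℚ`, `K0 A = ℚ̄^I`.

* `K0 A` : the inertia field, a `Subfield` of `ℚ̄`; `val_K0` : its value group is `v(p)^ℤ`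
  (from `R.H6.stmt_UnrFix`);
* `exists_teich` : an integer `u` prime to `p` is congruent to a `(p-1)`-th root of unity
  `t ∈ K0 A`;
* `kdata_qbar` : the structure `KData` for `(A.valuation, K0 A, p, ζ, ω, σ)`;
* `exists_sigma` : if `c ∈ K0 A` is not a `p`-th power in `K0 A` and `ω ^ p = c`, there is
  `σ ∈ I` with `σ ζ = ζ` and `σ ω = ζ ω`;
* `isPow_of_val_lt` : `1 + p u₁` with `u₁ ∈ K0 A`, `v u₁ < 1` is a `p`-th power in `K0 A`;
* `karith_dichotomy` : for `u ∈ ℤ` prime to `p`: either `u` is a `p`-th power in `K0 A`, or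
  there are `t ∈ K0 A`, `ω`, `σ ∈ I` with `(t ω) ^ p = u` and `KData`.
-/

set_option autoImplicit false
set_option linter.style.haveILetI false

open Polynomial

namespace Fermat.Agent.BADP.H97

theorem qbIsAlg : Algebra.IsAlgebraic ℚ (AlgebraicClosure ℚ) :=
  AlgebraicClosure.isAlgebraic ℚ

attribute [local instance] qbIsAlg

/-- The inertia field `K₀ = ℚ̄^I` of a place `A` of `ℚ̄`. -/
noncomputable def K0 (A : ValuationSubring (AlgebraicClosure ℚ)) : Subfield (AlgebraicClosure ℚ) :=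
  (IntermediateField.fixedField (A.inertiaSubgroupIn ℚ)).toSubfield

variable {A : ValuationSubring (AlgebraicClosure ℚ)} {p : ℕ}

theorem mem_K0 {x : AlgebraicClosure ℚ} :
    x ∈ K0 A ↔ ∀ σ ∈ A.inertiaSubgroupIn ℚ, σ x = x := by
  unfold K0
  rw [IntermediateField.mem_toSubfield, IntermediateField.mem_fixedField_iff]

theorem natCast_mem_K0 (n : ℕ) : (n : AlgebraicClosure ℚ) ∈ K0 A := natCast_mem _ n

theorem intCast_mem_K0 (n : ℤ) : (n : AlgebraicClosure ℚ) ∈ K0 A := intCast_mem _ n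

theorem val_p_lt (hA : A.LiesOverPrime p) : A.valuation (p : AlgebraicClosure ℚ) < 1 :=
  A.mem_nonunits_iff.1 hA

theorem val_p_ne (hp : p.Prime) : A.valuation (p : AlgebraicClosure ℚ) ≠ 0 := by
  rw [Ne, map_eq_zero]
  exact Nat.cast_ne_zero.2 hp.ne_zero

/-- The value group of the inertia field is `v(p)^ℤ`. -/
theorem val_K0 (hp : p.Prime) (hA : A.LiesOverPrime p) :
    ∀ x ∈ K0 A, x ≠ 0 → ∃ n : ℤ, A.valuation x = A.valuation (p : AlgebraicClosure ℚ) ^ n :=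
  fun x hx hx0 => Fermat.Agent.R.H6.stmt_UnrFix p hp A hA x hx0 (mem_K0.1 hx)

theorem val_sigma {σ : AlgebraicClosure ℚ ≃ₐ[ℚ] AlgebraicClosure ℚ}
    (hσ : σ ∈ A.inertiaSubgroupIn ℚ) (x : AlgebraicClosure ℚ) :
    A.valuation (σ x) = A.valuation x :=
  (Fermat.Agent.S05.H37.inertia_facts A hσ).1 x

theorem val_sigma_sub_lt {σ : AlgebraicClosure ℚ ≃ₐ[ℚ] AlgebraicClosure ℚ}
    (hσ : σ ∈ A.inertiaSubgroupIn ℚ) {x : AlgebraicClosure ℚ} (hx : A.valuation x ≤ 1) :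
    A.valuation (σ x - x) < 1 :=
  (Fermat.Agent.S05.H37.inertia_facts A hσ).2 x hx

/-- **K-ARITH in `ℚ̄`**: the data `KData`. -/
theorem kdata_qbar (hp : p.Prime) (hA : A.LiesOverPrime p) {ζ ω : AlgebraicClosure ℚ}
    (hζ : IsPrimitiveRoot ζ p) {u1 : AlgebraicClosure ℚ} (hu1 : u1 ∈ K0 A)
    (hv : A.valuation u1 = 1) (hω : ω ^ p = 1 + (p : AlgebraicClosure ℚ) * u1)
    {σ : AlgebraicClosure ℚ ≃ₐ[ℚ] AlgebraicClosure ℚ} (hσ : σ ∈ A.inertiaSubgroupIn ℚ)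
    (hσζ : σ ζ = ζ) (hσω : σ ω = ζ * ω) :
    KData A.valuation (K0 A) p ζ ω (σ : AlgebraicClosure ℚ →+* AlgebraicClosure ℚ) where
  prime := hp
  vp_lt := val_p_lt hA
  vp_ne := val_p_ne hp
  val0 := val_K0 hp hA
  root := hζ
  pow := ⟨u1, hu1, hv, hω⟩
  σv := val_sigma hσ
  σ0 := fun _ hx => mem_K0.1 hx σ hσ
  σζ := hσζ
  σω := hσω

/-! ### Teichmüller representatives -/

theorem val_pred (hp : p.Prime) (hA : A.LiesOverPrime p) :
    A.valuation (((p - 1 : ℕ) : ℕ) : AlgebraicClosure ℚ) = 1 := by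
  rw [Nat.cast_pred hp.pos]
  have h := val_p_lt hA
  have h1 : A.valuation (p : AlgebraicClosure ℚ) < A.valuation (1 : AlgebraicClosure ℚ) := by
    rwa [map_one]
  rw [Valuation.map_sub_eq_of_lt_right _ h1, map_one]

/-- A `(p-1)`-th root of unity is fixed by the inertia at `p`. -/
theorem root_mem_K0 (hp : p.Prime) (hA : A.LiesOverPrime p) {t : AlgebraicClosure ℚ}
    (ht : t ^ (p - 1) = 1) : t ∈ K0 A := by
  rw [mem_K0]
  intro σ hσ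
  by_contra hne
  have hp1 : p - 1 ≠ 0 := Nat.sub_ne_zero_of_lt hp.one_lt
  have ht0 : t ≠ 0 := by
    rintro rfl
    rw [zero_pow hp1] at ht
    exact zero_ne_one ht
  have hvt : A.valuation t = 1 := by
    have h1 : A.valuation t ^ (p - 1) = 1 := by rw [← map_pow, ht, map_one]
    exact (pow_eq_one_iff.1 h1).resolve_right hp1
  have hη : (σ t / t) ^ (p - 1) = 1 := by
    rw [div_pow, ← map_pow, ht, map_one, div_one]
  have hη1 : σ t / t ≠ 1 := fun h => hne ((div_eq_one_iff_eq ht0).1 h)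
  have h1 := Fermat.Agent.NEB.H97.val_root_sub_one (V := A) (val_pred hp hA) _ hη hη1
  have h2 := val_sigma_sub_lt hσ hvt.le
  have e : σ t - t = t * (σ t / t - 1) := by field_simp
  rw [e, map_mul, hvt, h1, one_mul] at h2
  exact lt_irrefl _ h2

/-- An integer prime to `p` is congruent to a `(p-1)`-th root of unity (which lies in the
inertia field). -/
theorem exists_teich (hp : p.Prime) (hA : A.LiesOverPrime p) (u : ℤ) (hu : ¬ (p : ℤ) ∣ u) :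
    ∃ t ∈ K0 A, t ^ (p - 1) = 1 ∧ A.valuation ((u : AlgebraicClosure ℚ) - t) < 1 := by
  have hp1 : p - 1 ≠ 0 := Nat.sub_ne_zero_of_lt hp.one_lt
  haveI : NeZero (((p - 1 : ℕ) : ℕ) : AlgebraicClosure ℚ) := ⟨Nat.cast_ne_zero.2 hp1⟩
  obtain ⟨η, hη⟩ := HasEnoughRootsOfUnity.exists_primitiveRoot (AlgebraicClosure ℚ) (p - 1)
  have h1 : A.valuation ((u : AlgebraicClosure ℚ) ^ (p - 1) - 1) < 1 := by
    have hcop : IsCoprime u (p : ℤ) :=
      ((Nat.prime_iff_prime_int.1 hp).coprime_iff_not_dvd.2 hu).symm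
    have h2 : (p : ℤ) ∣ u ^ (p - 1) - 1 :=
      (Int.modEq_iff_dvd.1 (Int.ModEq.pow_card_sub_one_eq_one hp hcop).symm)
    obtain ⟨k, hk⟩ := h2
    have h3 : (u : AlgebraicClosure ℚ) ^ (p - 1) - 1 = (p : AlgebraicClosure ℚ) * (k : ℤ) := by
      have := congrArg (Int.cast : ℤ → AlgebraicClosure ℚ) hk
      push_cast at this
      exact this
    rw [h3, map_mul]
    calc A.valuation (p : AlgebraicClosure ℚ) * A.valuation ((k : ℤ) : AlgebraicClosure ℚ)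
        ≤ A.valuation (p : AlgebraicClosure ℚ) * 1 :=
          mul_le_mul_right (val_intCast_le_one _ k) _
      _ = A.valuation (p : AlgebraicClosure ℚ) := mul_one _
      _ < 1 := val_p_lt hA
  obtain ⟨z, hz, hzv⟩ := Fermat.Agent.NEB.H97.exists_root_congr (E := AlgebraicClosure ℚ)
    (L := AlgebraicClosure ℚ) (V := A) hp1 hη (u : AlgebraicClosure ℚ) h1
  exact ⟨z, root_mem_K0 hp hA hz, hz, hzv⟩

/-! ### The action of inertia on `μ_p` and on the `p`-th roots of `c ∈ K₀` -/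

section Sigma

variable {ζ : AlgebraicClosure ℚ}

theorem pow_eq_pow_of_zmod {x : AlgebraicClosure ℚ} (hx : x ^ p = 1) {m n : ℕ}
    (h : (m : ZMod p) = (n : ZMod p)) : x ^ m = x ^ n := by
  have h1 : m % p = n % p := (ZMod.natCast_eq_natCast_iff' m n p).1 h
  rw [pow_eq_pow_mod m hx, pow_eq_pow_mod n hx, h1]

theorem sigma_zeta (hp : p.Prime) (hζ : IsPrimitiveRoot ζ p)
    (σ : AlgebraicClosure ℚ ≃ₐ[ℚ] AlgebraicClosure ℚ) : ∃ a : ℕ, σ ζ = ζ ^ a := by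
  have h : (σ ζ) ^ p = 1 := by rw [← map_pow, hζ.pow_eq_one, map_one]
  haveI : NeZero p := ⟨hp.ne_zero⟩
  obtain ⟨i, -, hi⟩ := hζ.eq_pow_of_pow_eq_one h
  exact ⟨i, hi.symm⟩

theorem sigma_root (hp : p.Prime) (hζ : IsPrimitiveRoot ζ p) {c ω : AlgebraicClosure ℚ}
    (hc : c ∈ K0 A) (hω : ω ^ p = c) (hω0 : ω ≠ 0)
    {σ : AlgebraicClosure ℚ ≃ₐ[ℚ] AlgebraicClosure ℚ} (hσ : σ ∈ A.inertiaSubgroupIn ℚ) :
    ∃ b : ℕ, σ ω = ζ ^ b * ω := by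
  have h : (σ ω / ω) ^ p = 1 := by
    rw [div_pow, ← map_pow, hω, mem_K0.1 hc σ hσ, div_self]
    rw [← hω]
    exact pow_ne_zero _ hω0
  haveI : NeZero p := ⟨hp.ne_zero⟩
  obtain ⟨i, -, hi⟩ := hζ.eq_pow_of_pow_eq_one h
  refine ⟨i, ?_⟩
  rw [hi]
  field_simp

/-- An element of the inertia group fixing `ζ` and moving `ω` has a power `σ` with `σ ω = ζ ω`. -/
theorem exists_pow_sigma (hp : p.Prime) (hζ : IsPrimitiveRoot ζ p) {c ω : AlgebraicClosure ℚ}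
    (hc : c ∈ K0 A) (hω : ω ^ p = c) (hω0 : ω ≠ 0)
    {σ : AlgebraicClosure ℚ ≃ₐ[ℚ] AlgebraicClosure ℚ} (hσ : σ ∈ A.inertiaSubgroupIn ℚ)
    (hσζ : σ ζ = ζ) (hne : σ ω ≠ ω) :
    ∃ m : ℕ, (σ ^ m) ζ = ζ ∧ (σ ^ m) ω = ζ * ω := by
  obtain ⟨b, hb⟩ := sigma_root hp hζ hc hω hω0 hσ
  have hpb : ¬ p ∣ b := by
    rintro ⟨k, rfl⟩
    apply hne
    rw [hb, pow_mul, hζ.pow_eq_one, one_pow, one_mul]
  have hcop : Nat.Coprime b p := ((Nat.Prime.coprime_iff_not_dvd hp).2 hpb).symm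
  obtain ⟨m, -, hm⟩ := Nat.exists_mul_mod_eq_one_of_coprime hcop hp.one_lt
  have hfix : ∀ k : ℕ, (σ ^ k) ζ = ζ := by
    intro k
    induction k with
    | zero => simp
    | succ k ih => rw [pow_succ, AlgEquiv.mul_apply, hσζ, ih]
  have hpow : ∀ k : ℕ, (σ ^ k) ω = ζ ^ (b * k) * ω := by
    intro k
    induction k with
    | zero => simp
    | succ k ih =>
      rw [pow_succ, AlgEquiv.mul_apply, hb, map_mul, map_pow, hfix k, ih, ← mul_assoc, ← pow_add]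
      congr 2
      ring
  refine ⟨m, hfix m, ?_⟩
  rw [hpow m, pow_eq_pow_mod _ hζ.pow_eq_one, hm, pow_one]

/-- **K-ARITH, the wild automorphism.**  If `c ∈ K₀` is not a `p`-th power in `K₀` and
`ω ^ p = c`, there is `σ` in the inertia group with `σ ζ = ζ` and `σ ω = ζ ω`. -/
theorem exists_sigma (hp : p.Prime) (hζ : IsPrimitiveRoot ζ p) {c ω : AlgebraicClosure ℚ}
    (hc : c ∈ K0 A) (hc0 : c ≠ 0) (hω : ω ^ p = c) (hnp : ¬ ∃ z ∈ K0 A, z ^ p = c) :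
    ∃ σ ∈ A.inertiaSubgroupIn ℚ, σ ζ = ζ ∧ σ ω = ζ * ω := by
  have hω0 : ω ≠ 0 := by
    rintro rfl
    rw [zero_pow hp.ne_zero] at hω
    exact hc0 hω.symm
  by_contra hcon
  push Not at hcon
  -- every `σ ∈ I` fixing `ζ` fixes `ω`
  have H' : ∀ σ ∈ A.inertiaSubgroupIn ℚ, σ ζ = ζ → σ ω = ω := by
    intro σ hσ hσζ
    by_contra hne
    obtain ⟨m, h1, h2⟩ := exists_pow_sigma hp hζ hc hω hω0 hσ hσζ hne
    exact hcon (σ ^ m) (Subgroup.pow_mem _ hσ m) h1 h2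
  by_cases hall : ∀ τ ∈ A.inertiaSubgroupIn ℚ, τ ζ = ζ
  · exact hnp ⟨ω, mem_K0.2 fun τ hτ => H' τ hτ (hall τ hτ), hω⟩
  · push Not at hall
    obtain ⟨τ0, hτ0, hτ0ζ⟩ := hall
    obtain ⟨a0, ha0⟩ := sigma_zeta hp hζ τ0
    obtain ⟨b0, hb0⟩ := sigma_root hp hζ hc hω hω0 hτ0
    haveI : Fact p.Prime := ⟨hp⟩
    have ha1 : (a0 : ZMod p) - 1 ≠ 0 := by
      intro h
      apply hτ0ζ
      rw [ha0]
      have h1 : (a0 : ZMod p) = ((1 : ℕ) : ZMod p) := by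
        rw [Nat.cast_one]
        exact sub_eq_zero.1 h
      rw [pow_eq_pow_of_zmod hζ.pow_eq_one h1, pow_one]
    obtain ⟨y, hyz⟩ : ∃ y : ℕ, ((a0 * y + b0 : ℕ) : ZMod p) = (y : ZMod p) := by
      refine ⟨(-(b0 : ZMod p) / ((a0 : ZMod p) - 1)).val, ?_⟩
      push_cast
      rw [ZMod.natCast_val, ZMod.cast_id', id]
      field_simp
      ring
    have hω'p : (ζ ^ y * ω) ^ p = c := by
      rw [mul_pow, ← pow_mul, mul_comm y p, pow_mul, hζ.pow_eq_one, one_pow, one_mul, hω]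
    have hω'0 : ζ ^ y * ω ≠ 0 := mul_ne_zero (pow_ne_zero _ (hζ.ne_zero hp.ne_zero)) hω0
    have hτ0ω' : τ0 (ζ ^ y * ω) = ζ ^ y * ω := by
      rw [map_mul, map_pow, ha0, hb0, ← pow_mul, ← mul_assoc, ← pow_add,
        pow_eq_pow_of_zmod hζ.pow_eq_one hyz]
    apply hnp
    refine ⟨ζ ^ y * ω, mem_K0.2 fun τ hτ => ?_, hω'p⟩
    obtain ⟨a, ha⟩ := sigma_zeta hp hζ τ
    have hswap : (τ * τ0) ζ = (τ0 * τ) ζ := by
      rw [AlgEquiv.mul_apply, AlgEquiv.mul_apply, ha0, ha, map_pow, map_pow, ha, ha0, ← pow_mul,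
        ← pow_mul, mul_comm]
    have hκζ : ((τ0 * τ)⁻¹ * (τ * τ0)) ζ = ζ := by
      rw [AlgEquiv.mul_apply, hswap]
      exact (τ0 * τ).symm_apply_apply ζ
    have hκ := H' _ (Subgroup.mul_mem _ (Subgroup.inv_mem _ (Subgroup.mul_mem _ hτ0 hτ))
      (Subgroup.mul_mem _ hτ hτ0)) hκζ
    have hκω' : ((τ0 * τ)⁻¹ * (τ * τ0)) (ζ ^ y * ω) = ζ ^ y * ω := by
      rw [map_mul, map_pow, hκζ, hκ]
    have hcomm : τ (τ0 (ζ ^ y * ω)) = τ0 (τ (ζ ^ y * ω)) := by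
      have h1 := congrArg (τ0 * τ) hκω'
      rw [AlgEquiv.mul_apply ((τ0 * τ)⁻¹)] at h1
      have h2 : (τ0 * τ) ((τ0 * τ)⁻¹ ((τ * τ0) (ζ ^ y * ω))) = (τ * τ0) (ζ ^ y * ω) :=
        (τ0 * τ).apply_symm_apply _
      rw [h2] at h1
      simpa only [AlgEquiv.mul_apply] using h1
    rw [hτ0ω'] at hcomm
    obtain ⟨d, hd⟩ := sigma_root hp hζ hc hω'p hω'0 hτ
    rw [hd, map_mul, hτ0ω'] at hcomm
    have hξ : τ0 (ζ ^ d) = ζ ^ d := (mul_right_cancel₀ hω'0 hcomm).symm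
    by_cases hd1 : ζ ^ d = 1
    · rw [hd, hd1, one_mul]
    · exfalso
      apply hτ0ζ
      have hpd : ¬ p ∣ d := by
        rintro ⟨k, rfl⟩
        exact hd1 (by rw [pow_mul, hζ.pow_eq_one, one_pow])
      have hcop : Nat.Coprime d p := ((Nat.Prime.coprime_iff_not_dvd hp).2 hpd).symm
      obtain ⟨e, -, he⟩ := Nat.exists_mul_mod_eq_one_of_coprime hcop hp.one_lt
      have hζe : (ζ ^ d) ^ e = ζ := by
        rw [← pow_mul, pow_eq_pow_mod _ hζ.pow_eq_one, he, pow_one]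
      rw [← hζe, map_pow, hξ]

end Sigma

/-! ### Valuations of `ζ ^ k - 1` (no `ω` needed) -/

section Pi

variable {L : Type*} [Field L] {Γ₀ : Type*} [LinearOrderedCommGroupWithZero Γ₀]
  (v : Valuation L Γ₀) {ζ : L}

theorem val_root_eq_one (hp : p.Prime) (hζ : ζ ^ p = 1) : v ζ = 1 := by
  have h1 : v ζ ^ p = 1 := by rw [← map_pow, hζ, map_one]
  exact (pow_eq_one_iff.1 h1).resolve_right hp.ne_zero

theorem val_root_pow_sub_one (hp : p.Prime) (hζ : ζ ^ p = 1) {k : ℕ} (hk : ¬ p ∣ k) :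
    v (ζ ^ k - 1) = v (ζ - 1) := by
  refine le_antisymm (val_pow_sub_one_le v (val_root_eq_one v hp hζ).le k) ?_
  have hcop : Nat.Coprime k p := (Nat.Coprime.symm ((Nat.Prime.coprime_iff_not_dvd hp).2 hk))
  obtain ⟨m, -, hm⟩ := Nat.exists_mul_mod_eq_one_of_coprime hcop hp.one_lt
  have h1 : (ζ ^ k) ^ m = ζ := by
    rw [← pow_mul, pow_eq_pow_mod _ hζ, hm, pow_one]
  have h2 : v (ζ ^ k) ≤ 1 := by rw [map_pow, val_root_eq_one v hp hζ, one_pow]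
  have := val_pow_sub_one_le v h2 m
  rwa [h1] at this

/-- `v (ζ - 1) ^ (p - 1) = v p`. -/
theorem val_root_sub_one_pow (hp : p.Prime) (hζ : IsPrimitiveRoot ζ p) :
    v (ζ - 1) ^ (p - 1) = v (p : L) := by
  obtain ⟨n, hn⟩ : ∃ n, p = n + 1 := ⟨p - 1, (Nat.succ_pred_eq_of_pos hp.pos).symm⟩
  have hroot : IsPrimitiveRoot ζ (n + 1) := hn ▸ hζ
  have h1 := hroot.prod_one_sub_pow_eq_order
  have h2 : v (∏ k ∈ Finset.range n, (1 - ζ ^ (k + 1))) = v (ζ - 1) ^ n := by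
    rw [map_prod]
    have : ∀ k ∈ Finset.range n, v (1 - ζ ^ (k + 1)) = v (ζ - 1) := by
      intro k hk
      rw [← v.map_neg, neg_sub]
      refine val_root_pow_sub_one v hp hζ.pow_eq_one ?_
      intro hd
      have := Nat.le_of_dvd (Nat.succ_pos k) hd
      have := Finset.mem_range.1 hk
      omega
    rw [Finset.prod_congr rfl this, Finset.prod_const, Finset.card_range]
  rw [h1] at h2
  have h3 : (p : L) = (n : L) + 1 := by rw [hn]; push_cast; ring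
  rw [h3, h2, hn, Nat.add_sub_cancel]

/-- `v p < v (ζ - 1) < 1` for `p` odd. -/
theorem val_p_lt_val_pi (hp : p.Prime) (hp2 : p ≠ 2) (hζ : IsPrimitiveRoot ζ p)
    (hv : v (p : L) < 1) (hv0 : v (p : L) ≠ 0) : v (ζ - 1) < 1 ∧ v (p : L) < v (ζ - 1) := by
  have h1 := val_root_sub_one_pow v hp hζ
  have hp1 : p - 1 ≠ 0 := Nat.sub_ne_zero_of_lt hp.one_lt
  have hπ0 : v (ζ - 1) ≠ 0 := by
    intro h0
    rw [h0, zero_pow hp1] at h1
    exact hv0 h1.symm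
  have hπ1 : v (ζ - 1) < 1 := by
    by_contra hge
    rw [not_lt] at hge
    have : (1 : Γ₀) ≤ v (ζ - 1) ^ (p - 1) := one_le_pow₀ hge
    rw [h1] at this
    exact absurd hv (not_lt.2 this)
  refine ⟨hπ1, ?_⟩
  have h3 : 3 ≤ p := by
    have := hp.two_le
    omega
  obtain ⟨k, hk⟩ : ∃ k, p - 1 = k + 2 := ⟨p - 3, by omega⟩
  rw [← h1, hk, pow_succ]
  have h4 : v (ζ - 1) ^ (k + 1) < 1 := pow_lt_one₀ zero_le hπ1 (Nat.succ_ne_zero k)
  calc v (ζ - 1) ^ (k + 1) * v (ζ - 1) < 1 * v (ζ - 1) :=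
        mul_lt_mul_of_pos_right h4 (zero_lt_iff.2 hπ0)
    _ = v (ζ - 1) := one_mul _

end Pi

/-! ### Elements of `K₀` congruent to `1` modulo `p²` are `p`-th powers -/

/-- An element of `K₀` of valuation `< 1` has valuation `≤ v p`. -/
theorem val_le_p_of_lt_one (hp : p.Prime) (hA : A.LiesOverPrime p) {x : AlgebraicClosure ℚ}
    (hx : x ∈ K0 A) (hv : A.valuation x < 1) :
    A.valuation x ≤ A.valuation (p : AlgebraicClosure ℚ) := by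
  by_cases hx0 : x = 0
  · rw [hx0, map_zero]
    exact zero_le
  obtain ⟨n, hn⟩ := val_K0 hp hA x hx hx0
  have hvp := val_p_lt hA
  have hvp0 : (0 : A.ValueGroup) < A.valuation (p : AlgebraicClosure ℚ) :=
    zero_lt_iff.2 (val_p_ne hp)
  rw [hn] at hv ⊢
  have hn1 : 1 ≤ n := by
    by_contra hlt
    rw [not_le] at hlt
    have h0 : n ≤ 0 := by omega
    have h1 : A.valuation (p : AlgebraicClosure ℚ) ^ (0 : ℤ) ≤
        A.valuation (p : AlgebraicClosure ℚ) ^ n :=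
      (zpow_le_zpow_iff_right_of_lt_one₀ hvp0 hvp).2 h0
    rw [zpow_zero] at h1
    exact absurd hv (not_lt.2 h1)
  have h2 := (zpow_le_zpow_iff_right_of_lt_one₀ hvp0 hvp).2 hn1
  rwa [zpow_one] at h2

/-- **K-ARITH, the tame alternative.**  `1 + p u₁` with `u₁ ∈ K₀`, `v u₁ < 1`, is a `p`-th power
in `K₀` (`p` odd). -/
theorem isPow_of_val_lt (hp : p.Prime) (hp2 : p ≠ 2) (hA : A.LiesOverPrime p)
    {u1 : AlgebraicClosure ℚ} (hu1 : u1 ∈ K0 A) (hv : A.valuation u1 < 1) :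
    ∃ z ∈ K0 A, z ^ p = 1 + (p : AlgebraicClosure ℚ) * u1 := by
  haveI : NeZero ((p : ℕ) : AlgebraicClosure ℚ) := ⟨Nat.cast_ne_zero.2 hp.ne_zero⟩
  obtain ⟨ζ, hζ⟩ := HasEnoughRootsOfUnity.exists_primitiveRoot (AlgebraicClosure ℚ) p
  obtain ⟨ω, hω⟩ := IsAlgClosed.exists_pow_nat_eq (1 + (p : AlgebraicClosure ℚ) * u1) hp.pos
  have hvp := val_p_lt hA
  have hle := val_le_p_of_lt_one hp hA hu1 hv
  obtain ⟨hπ1, hπp⟩ := val_p_lt_val_pi A.valuation hp hp2 hζ hvp (val_p_ne hp)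
  have hπpow := val_root_sub_one_pow A.valuation hp hζ
  have hc : 1 + (p : AlgebraicClosure ℚ) * u1 ∈ K0 A :=
    add_mem (one_mem _) (mul_mem (natCast_mem_K0 p) hu1)
  have hvc : A.valuation (1 + (p : AlgebraicClosure ℚ) * u1) = 1 := by
    have h1 : A.valuation ((p : AlgebraicClosure ℚ) * u1) < A.valuation (1 : AlgebraicClosure ℚ) := by
      rw [map_mul, map_one]
      calc A.valuation (p : AlgebraicClosure ℚ) * A.valuation u1
          ≤ A.valuation (p : AlgebraicClosure ℚ) * 1 := mul_le_mul_right hv.le _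
        _ = A.valuation (p : AlgebraicClosure ℚ) := mul_one _
        _ < 1 := hvp
    rw [Valuation.map_add_eq_of_lt_left _ h1, map_one]
  have hω0 : ω ≠ 0 := by
    rintro rfl
    rw [zero_pow hp.ne_zero] at hω
    rw [← hω, map_zero] at hvc
    exact zero_ne_one hvc
  have hvω : A.valuation ω = 1 := by
    have h1 : A.valuation ω ^ p = 1 := by rw [← map_pow, hω, hvc]
    exact (pow_eq_one_iff.1 h1).resolve_right hp.ne_zero
  -- the product formula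
  have hprod : ∏ i ∈ Finset.range p, (1 - ζ ^ i * ω) =
      1 - (1 + (p : AlgebraicClosure ℚ) * u1) := by
    have h1 := X_pow_sub_C_eq_prod hζ hp.pos hω
    have h2 := congrArg (Polynomial.eval 1) h1
    simp only [eval_sub, eval_pow, eval_X, one_pow, eval_C, eval_prod] at h2
    exact h2.symm
  -- some factor is small
  have hex : ∃ i ∈ Finset.range p, A.valuation (1 - ζ ^ i * ω) < A.valuation (ζ - 1) := by
    by_contra hcon
    push Not at hcon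
    have h1 : A.valuation (ζ - 1) ^ p ≤ A.valuation (1 - (1 + (p : AlgebraicClosure ℚ) * u1)) := by
      rw [← hprod, map_prod]
      calc A.valuation (ζ - 1) ^ p = ∏ _i ∈ Finset.range p, A.valuation (ζ - 1) := by
            rw [Finset.prod_const, Finset.card_range]
        _ ≤ ∏ i ∈ Finset.range p, A.valuation (1 - ζ ^ i * ω) := Finset.prod_le_prod' hcon
    have h2 : A.valuation (1 - (1 + (p : AlgebraicClosure ℚ) * u1)) ≤
        A.valuation (p : AlgebraicClosure ℚ) * A.valuation (p : AlgebraicClosure ℚ) := by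
      rw [sub_add_cancel_left, Valuation.map_neg, map_mul]
      exact mul_le_mul_right hle _
    have h3 : A.valuation (ζ - 1) ^ p =
        A.valuation (p : AlgebraicClosure ℚ) * A.valuation (ζ - 1) := by
      rw [← hπpow, ← pow_succ, Nat.sub_add_cancel hp.one_le]
    have h4 : A.valuation (p : AlgebraicClosure ℚ) * A.valuation (p : AlgebraicClosure ℚ) <
        A.valuation (p : AlgebraicClosure ℚ) * A.valuation (ζ - 1) :=
      mul_lt_mul_of_pos_left hπp (zero_lt_iff.2 (val_p_ne hp))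
    rw [h3] at h1
    exact absurd (lt_of_lt_of_le h4 (le_trans h1 h2)) (lt_irrefl _)
  obtain ⟨i, -, hi⟩ := hex
  have hzp : (ζ ^ i * ω) ^ p = 1 + (p : AlgebraicClosure ℚ) * u1 := by
    rw [mul_pow, ← pow_mul, mul_comm i p, pow_mul, hζ.pow_eq_one, one_pow, one_mul, hω]
  have hz0 : ζ ^ i * ω ≠ 0 := mul_ne_zero (pow_ne_zero _ (hζ.ne_zero hp.ne_zero)) hω0
  have hvz : A.valuation (ζ ^ i * ω) = 1 := by
    rw [map_mul, map_pow, val_root_eq_one A.valuation hp hζ.pow_eq_one, one_pow, one_mul, hvω]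
  refine ⟨ζ ^ i * ω, mem_K0.2 fun σ hσ => ?_, hzp⟩
  obtain ⟨b, hb⟩ := sigma_root hp hζ hc hzp hz0 hσ
  by_cases hb1 : ζ ^ b = 1
  · rw [hb, hb1, one_mul]
  · exfalso
    have hpb : ¬ p ∣ b := by
      rintro ⟨k, rfl⟩
      exact hb1 (by rw [pow_mul, hζ.pow_eq_one, one_pow])
    have h1 : A.valuation (σ (ζ ^ i * ω) - ζ ^ i * ω) = A.valuation (ζ - 1) := by
      have e : σ (ζ ^ i * ω) - ζ ^ i * ω = (ζ ^ b - 1) * (ζ ^ i * ω) := by
        rw [hb]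
        ring
      rw [e, map_mul, hvz, mul_one, val_root_pow_sub_one A.valuation hp hζ.pow_eq_one hpb]
    have h2 : A.valuation (σ (ζ ^ i * ω) - ζ ^ i * ω) < A.valuation (ζ - 1) := by
      have e : σ (ζ ^ i * ω) - ζ ^ i * ω = (1 - ζ ^ i * ω) - σ (1 - ζ ^ i * ω) := by
        rw [map_sub, map_one]
        ring
      rw [e]
      refine lt_of_le_of_lt (Valuation.map_sub _ _ _) (max_lt hi ?_)
      rw [val_sigma hσ]
      exact hi
    rw [h1] at h2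
    exact lt_irrefl _ h2

/-- **K-ARITH, dichotomy.**  Let `u` be an integer prime to `p` (`p` odd).  Either `u` is a
`p`-th power in the inertia field `K₀`, or there are a root of unity `t ∈ K₀`, a `p`-th root
`t ω` of `u` and `σ` in the inertia group such that `(A.valuation, K₀, p, ζ, ω, σ)` is a
`KData`. -/
theorem karith_dichotomy (hp : p.Prime) (hp2 : p ≠ 2) (hA : A.LiesOverPrime p) (u : ℤ)
    (hu : ¬ (p : ℤ) ∣ u) {ζ : AlgebraicClosure ℚ} (hζ : IsPrimitiveRoot ζ p) :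
    (∃ z ∈ K0 A, z ^ p = (u : AlgebraicClosure ℚ)) ∨
    ∃ (t ω : AlgebraicClosure ℚ) (σ : AlgebraicClosure ℚ ≃ₐ[ℚ] AlgebraicClosure ℚ),
      t ∈ K0 A ∧ t ^ (p - 1) = 1 ∧ (t * ω) ^ p = (u : AlgebraicClosure ℚ) ∧
      σ ∈ A.inertiaSubgroupIn ℚ ∧
      KData A.valuation (K0 A) p ζ ω (σ : AlgebraicClosure ℚ →+* AlgebraicClosure ℚ) := by
  by_cases hpow : ∃ z ∈ K0 A, z ^ p = (u : AlgebraicClosure ℚ)
  · exact Or.inl hpow
  right
  obtain ⟨t, htK, ht, htv⟩ := exists_teich hp hA u hu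
  have hp1 : p - 1 ≠ 0 := Nat.sub_ne_zero_of_lt hp.one_lt
  have ht0 : t ≠ 0 := by
    rintro rfl
    rw [zero_pow hp1] at ht
    exact zero_ne_one ht
  have htp : t ^ p = t := by
    conv_lhs => rw [← Nat.sub_add_cancel hp.one_le, pow_succ, ht, one_mul]
  have hvt : A.valuation t = 1 := by
    have h1 : A.valuation t ^ (p - 1) = 1 := by rw [← map_pow, ht, map_one]
    exact (pow_eq_one_iff.1 h1).resolve_right hp1
  have hpne : (p : AlgebraicClosure ℚ) ≠ 0 := Nat.cast_ne_zero.2 hp.ne_zero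
  set u1 : AlgebraicClosure ℚ := ((u : AlgebraicClosure ℚ) - t) / (t * p) with hu1def
  have hu1K : u1 ∈ K0 A :=
    div_mem (sub_mem (intCast_mem_K0 u) htK) (mul_mem htK (natCast_mem_K0 p))
  have hc : 1 + (p : AlgebraicClosure ℚ) * u1 = (u : AlgebraicClosure ℚ) / t := by
    rw [hu1def]
    field_simp
    ring
  have hu1v : A.valuation u1 ≤ 1 := by
    have h1 := val_le_p_of_lt_one hp hA (sub_mem (intCast_mem_K0 u) htK) htv
    rw [hu1def, map_div₀, map_mul, hvt, one_mul]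
    exact div_le_one_of_le₀ h1 zero_le
  have hu1v1 : A.valuation u1 = 1 := by
    refine le_antisymm hu1v ?_
    by_contra hlt
    rw [not_le] at hlt
    obtain ⟨z, hzK, hz⟩ := isPow_of_val_lt hp hp2 hA hu1K hlt
    apply hpow
    refine ⟨z * t, mul_mem hzK htK, ?_⟩
    rw [mul_pow, hz, hc, htp]
    field_simp
  obtain ⟨ω, hω⟩ := IsAlgClosed.exists_pow_nat_eq (1 + (p : AlgebraicClosure ℚ) * u1) hp.pos
  have hcK : 1 + (p : AlgebraicClosure ℚ) * u1 ∈ K0 A :=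
    add_mem (one_mem _) (mul_mem (natCast_mem_K0 p) hu1K)
  have hc0 : 1 + (p : AlgebraicClosure ℚ) * u1 ≠ 0 := by
    rw [hc]
    refine div_ne_zero ?_ ht0
    intro h0
    apply hpow
    exact ⟨0, zero_mem _, by rw [zero_pow hp.ne_zero, h0]⟩
  have hnp : ¬ ∃ z ∈ K0 A, z ^ p = 1 + (p : AlgebraicClosure ℚ) * u1 := by
    rintro ⟨z, hzK, hz⟩
    apply hpow
    refine ⟨z * t, mul_mem hzK htK, ?_⟩
    rw [mul_pow, hz, hc, htp]
    field_simp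
  obtain ⟨σ, hσ, hσζ, hσω⟩ := exists_sigma hp hζ hcK hc0 hω hnp
  refine ⟨t, ω, σ, htK, ht, ?_, hσ, kdata_qbar hp hA hζ hu1K hu1v1 hω hσ hσζ hσω⟩
  rw [mul_pow, hω, hc, htp]
  field_simp

end Fermat.Agent.BADP.H97

end
-- ==== END Fermat.Agent.BADP.H97_KArithQ

-- ==== BEGIN Fermat.Agent.BADP.H97_ToricChi
section

/-!
# S33 (row 32), leaf (D) TORIC-CHI (helper97)

Abstract semistable datum `S : SSD K F k F₁ F₂`, `ζ ∈ K` with `π = ζ - 1` in the maximal ideal,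
`σ` an inertial semilinear automorphism with `σ ζ = ζ ^ a`.

* `PRed.toricChi` / `toricChi` : if `(F' - 1) / (p π)` is integral (for `V₁` and `V₂`), then
  `g = σ F' / F' ^ a` satisfies `(g - 1) / (p π) ∈ 𝔪₁ ∩ 𝔪₂`;
* `toricChi_dvd` : `p ∣ div F'` implies `p ∣ div g`;
* `toricChi_ord` : if `F'` has neither zero nor pole over the node `s`, so has `g`.

Plan: helper86's note "S33 NEW geometry leaves (A)-(F)", leaf (D).
-/

set_option autoImplicit false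
set_option linter.style.haveILetI false

noncomputable section

open AlgebraicCurve

attribute [local instance] Classical.propDecidable

namespace Fermat.Agent.BADP.H97

open Fermat.Agent.RED.H17 Fermat.Agent.RED Fermat.Agent.BAD

section Val

variable {K F k F' : Type*} [Field K] [Field F] [Algebra K F] [Field k] [Field F']
  [Algebra k F'] {T : PRed K F k F'}

theorem inM_iff_val_lt {x : F} : T.InM x ↔ T.V.valuation x < 1 := by
  constructor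
  · rintro ⟨hx, h0⟩
    rw [T.rd_of_mem hx, T.red_eq_zero_iff] at h0
    exact (T.V.valuation_lt_one_iff ⟨x, hx⟩).1 h0
  · intro h
    have hx : x ∈ T.V := (T.V.valuation_le_one_iff x).1 h.le
    refine ⟨hx, ?_⟩
    rw [T.rd_of_mem hx, T.red_eq_zero_iff]
    exact (T.V.valuation_lt_one_iff ⟨x, hx⟩).2 h

/-- **TORIC-CHI** for one component. -/
theorem toricChi_pred {p a : ℕ} {ζ : K} (σ : SemilinearAut K F)
    (hmem : ∀ f : F, f ∈ T.V → σ • f ∈ T.V)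
    (hred : ∀ f : F, f ∈ T.V → T.rd (σ • f) = T.rd f)
    (hσζ : SemilinearAut.baseAut σ ζ = ζ ^ a) (hπ : T.InM (algebraMap K F (ζ - 1)))
    (hd0 : (p : K) * (ζ - 1) ≠ 0) {G : F}
    (hG : (G - 1) / algebraMap K F ((p : K) * (ζ - 1)) ∈ T.V) :
    T.InM (((σ • G) / G ^ a - 1) / algebraMap K F ((p : K) * (ζ - 1))) := by
  set v := T.V.valuation with hv
  set d : F := algebraMap K F ((p : K) * (ζ - 1)) with hd
  set φ : F := (G - 1) / d with hφ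
  have hdne : d ≠ 0 := (map_ne_zero_iff _ (algebraMap K F).injective).mpr hd0
  have hπv : v (algebraMap K F (ζ - 1)) < 1 := inM_iff_val_lt.1 hπ
  have hpv : v (algebraMap K F (p : K)) ≤ 1 := by
    rw [map_natCast]
    exact val_natCast_le_one v p
  have hdv : v d < 1 := by
    rw [hd, map_mul, map_mul]
    calc v (algebraMap K F (p : K)) * v (algebraMap K F (ζ - 1))
        ≤ 1 * v (algebraMap K F (ζ - 1)) := mul_le_mul_left hpv _
      _ = v (algebraMap K F (ζ - 1)) := one_mul _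
      _ < 1 := hπv
  have hdpos : 0 < v d := zero_lt_iff.2 ((Valuation.ne_zero_iff v).2 hdne)
  have hφv : v φ ≤ 1 := (T.V.valuation_le_one_iff φ).2 hG
  have hGe : G = 1 + d * φ := by
    rw [hφ]
    field_simp
    ring
  have htv : v (d * φ) ≤ v d := by
    rw [map_mul]
    calc v d * v φ ≤ v d * 1 := mul_le_mul_right hφv _
      _ = v d := mul_one _
  have htv1 : v (d * φ) < 1 := lt_of_le_of_lt htv hdv
  -- `G` is a unit
  have hGv : v G = 1 := by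
    rw [hGe]
    have : v (d * φ) < v (1 : F) := by rwa [map_one]
    rw [Valuation.map_add_eq_of_lt_left v this, map_one]
  have hGav : v (G ^ a) = 1 := by rw [map_pow, hGv, one_pow]
  have hGa0 : G ^ a ≠ 0 := (Valuation.ne_zero_iff v).1 (by rw [hGav]; exact one_ne_zero)
  -- `σ d = d * S`, `S = ∑_{i < a} ζ ^ i`
  set Sa : F := algebraMap K F (∑ i ∈ Finset.range a, ζ ^ i) with hSa
  have hζv : v (algebraMap K F ζ) ≤ 1 := by
    have e : algebraMap K F ζ = algebraMap K F (ζ - 1) + 1 := by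
      rw [map_sub, map_one]
      ring
    rw [e]
    exact le_trans (v.map_add _ _) (max_le hπv.le (by rw [map_one]))
  have hσd : σ • d = d * Sa := by
    rw [hd, SemilinearAut.smul_algebraMap, hSa, ← map_mul]
    congr 1
    rw [map_mul, map_natCast, map_sub, map_one, hσζ, mul_assoc, mul_geom_sum]
  -- `S ≡ a`
  have hSav : v (Sa - (a : F)) < 1 := by
    have e : Sa - (a : F) = ∑ i ∈ Finset.range a, ((algebraMap K F ζ) ^ i - 1) := by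
      rw [hSa, map_sum, Finset.sum_sub_distrib, Finset.sum_const, Finset.card_range,
        nsmul_eq_mul, mul_one]
      simp only [map_pow]
    rw [e]
    refine v.map_sum_lt one_ne_zero fun i _ => ?_
    refine lt_of_le_of_lt (val_pow_sub_one_le v hζv i) ?_
    have e2 : algebraMap K F ζ - 1 = algebraMap K F (ζ - 1) := by rw [map_sub, map_one]
    rw [e2]
    exact hπv
  have hSa1 : v Sa ≤ 1 := by
    have e : Sa = (Sa - (a : F)) + (a : F) := by ring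
    rw [e]
    exact le_trans (v.map_add _ _) (max_le hSav.le (val_natCast_le_one v a))
  -- `σ φ ≡ φ`
  have hσφm : σ • φ ∈ T.V := hmem φ hG
  have hσφv : v (σ • φ) ≤ 1 := (T.V.valuation_le_one_iff _).2 hσφm
  have hσφ : v (σ • φ - φ) < 1 := by
    refine inM_iff_val_lt.1 ⟨T.V.sub_mem hσφm hG, ?_⟩
    rw [T.rd_sub hσφm hG, hred φ hG, sub_self]
  -- the numerator
  have hσG : σ • G = 1 + d * (Sa * (σ • φ)) := by
    rw [hGe, smul_add, smul_one, smul_mul', hσd]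
    ring
  have hnum : v (Sa * (σ • φ) - (a : F) * φ) < 1 := by
    have e : Sa * (σ • φ) - (a : F) * φ = (Sa - (a : F)) * (σ • φ) + (a : F) * (σ • φ - φ) := by
      ring
    rw [e]
    refine lt_of_le_of_lt (v.map_add _ _) (max_lt ?_ ?_)
    · rw [map_mul]
      calc v (Sa - (a : F)) * v (σ • φ) ≤ v (Sa - (a : F)) * 1 := mul_le_mul_right hσφv _
        _ = v (Sa - (a : F)) := mul_one _
        _ < 1 := hSav
    · rw [map_mul]
      calc v (a : F) * v (σ • φ - φ) ≤ 1 * v (σ • φ - φ) :=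
            mul_le_mul_left (val_natCast_le_one v a) _
        _ = v (σ • φ - φ) := one_mul _
        _ < 1 := hσφ
  have hlin : v (G ^ a - 1 - (a : F) * (d * φ)) ≤ v (d * φ) ^ 2 := by
    rw [hGe]
    exact val_one_add_pow_sub_lin v htv1.le a
  -- conclusion
  rw [inM_iff_val_lt]
  have e : ((σ • G) / G ^ a - 1) / d =
      ((Sa * (σ • φ) - (a : F) * φ) - (G ^ a - 1 - (a : F) * (d * φ)) / d) / G ^ a := by
    rw [hσG]
    field_simp
    ring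
  rw [e, map_div₀, hGav, div_one]
  refine lt_of_le_of_lt (v.map_sub _ _) (max_lt hnum ?_)
  rw [map_div₀, div_lt_iff₀ hdpos, one_mul]
  refine lt_of_le_of_lt hlin ?_
  calc v (d * φ) ^ 2 ≤ v d ^ 2 := pow_le_pow_left₀ zero_le htv 2
    _ = v d * v d := sq _
    _ < 1 * v d := mul_lt_mul_of_pos_right hdv hdpos
    _ = v d := one_mul _

end Val

variable {K F k F₁ F₂ : Type*} [Field K] [Field F] [Algebra K F] [Field k] [Field F₁]
  [Algebra k F₁] [Field F₂] [Algebra k F₂] (S : SSD K F k F₁ F₂)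

/-- **(D) TORIC-CHI.** -/
theorem toricChi {p a : ℕ} {ζ : K} (σ : SemilinearAut K F) (hσ : S.IsInertial σ)
    (hσζ : SemilinearAut.baseAut σ ζ = ζ ^ a) (hπ : S.IsCM (ζ - 1))
    (hd0 : (p : K) * (ζ - 1) ≠ 0) {G : F}
    (hG₁ : (G - 1) / algebraMap K F ((p : K) * (ζ - 1)) ∈ S.c₁.V)
    (hG₂ : (G - 1) / algebraMap K F ((p : K) * (ζ - 1)) ∈ S.c₂.V) :
    S.c₁.InM (((σ • G) / G ^ a - 1) / algebraMap K F ((p : K) * (ζ - 1))) ∧
      S.c₂.InM (((σ • G) / G ^ a - 1) / algebraMap K F ((p : K) * (ζ - 1))) := by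
  refine ⟨toricChi_pred σ hσ.mem₁ (fun f hf => ?_) hσζ ⟨hπ.mem₁, hπ.rd₁⟩ hd0 hG₁,
    toricChi_pred σ hσ.mem₂ (fun f hf => ?_) hσζ ⟨hπ.mem₂, hπ.rd₂⟩ hd0 hG₂⟩
  · rw [S.c₁.rd_of_mem (hσ.mem₁ f hf), S.c₁.rd_of_mem hf]
    exact hσ.red₁ f hf _
  · rw [S.c₂.rd_of_mem (hσ.mem₂ f hf), S.c₂.rd_of_mem hf]
    exact hσ.red₂ f hf _

section Ord

variable {K F : Type*} [Field K] [Field F] [Algebra K F]

theorem ord_smul_inv (σ : SemilinearAut K F) (P : Place K F) (x : F) :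
    P.ord (σ • x) = (σ⁻¹ • P).ord x := by
  have := SemilinearAut.ord_smul σ (σ⁻¹ • P) x
  rwa [smul_inv_smul] at this

theorem ord_toric (σ : SemilinearAut K F) (P : Place K F) {G : F} (hG : G ≠ 0) (a : ℕ) :
    P.ord ((σ • G) / G ^ a) = (σ⁻¹ • P).ord G - a * P.ord G := by
  have hσG : σ • G ≠ 0 := by
    rw [SemilinearAut.smul_def]
    exact (map_ne_zero_iff _ (SemilinearAut.toRingAut σ).injective).mpr hG
  rw [Fermat.Agent.RED.H17.ord_div P hσG (pow_ne_zero a hG), ord_smul_inv,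
    Fermat.Agent.RED.H17.ord_pow]

/-- `p ∣ div F'` implies `p ∣ div (σ F' / F' ^ a)`. -/
theorem toricChi_dvd (σ : SemilinearAut K F) {G : F} (hG : G ≠ 0) (a : ℕ) (n : ℤ)
    (h : ∀ P : Place K F, n ∣ P.ord G) (P : Place K F) : n ∣ P.ord ((σ • G) / G ^ a) := by
  rw [ord_toric σ P hG a]
  exact dvd_sub (h _) (Dvd.dvd.mul_left (h P) _)

end Ord

/-- If `F'` has neither zero nor pole over the node `s`, so has `σ F' / F' ^ a`. -/
theorem toricChi_ord (σ : SemilinearAut K F) (hσ : S.IsInertial σ) {G : F} (hG : G ≠ 0)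
    (a : ℕ) (s : Place k F₁ × Place k F₂)
    (h : ∀ P : Place K F, S.c₁.r P = some s.1 → P.ord G = 0) (P : Place K F)
    (hP : S.c₁.r P = some s.1) : P.ord ((σ • G) / G ^ a) = 0 := by
  rw [ord_toric σ P hG a, h P hP, mul_zero, sub_zero]
  refine h _ ?_
  have := hσ.r₁ (σ⁻¹ • P)
  rw [smul_inv_smul] at this
  exact this.symm.trans hP

end Fermat.Agent.BADP.H97

end
end
-- ==== END Fermat.Agent.BADP.H97_ToricChi

-- ==== BEGIN Fermat.Agent.S15.Desc.H97_GlobMu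
section

set_option autoImplicit false

namespace Fermat.Agent.S15.Desc.H97

local notation "Qbar" => AlgebraicClosure ℚ
local notation "GQ" => (AlgebraicClosure ℚ ≃ₐ[ℚ] AlgebraicClosure ℚ)

/-- The local condition at `r` on the Kummer class of `z` ("unit class at `r`"). -/
def UnitClassAt (r : ℕ) (z : GQ → Qbar) : Prop :=
  ∀ (a : ℚ) (γ : Qbar), a ≠ 0 → γ ^ r = algebraMap ℚ Qbar a → (∀ σ : GQ, σ γ = z σ * γ) →
    (r : ℤ) ∣ padicValRat r a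

/-- Unramified at `ℓ`: trivial on the inertia group of some valuation subring over `ℓ`. -/
def UnramAt (ℓ : ℕ) (z : GQ → Qbar) : Prop :=
  ∃ A : ValuationSubring Qbar, A.LiesOverPrime ℓ ∧ ∀ σ ∈ A.inertiaSubgroupIn ℚ, z σ = 1

/-- Valuations of the Kummer class at the unramified primes. -/
theorem dvd_padicValRat_of_unramAt {r ℓ : ℕ} (hr : r.Prime) (hℓ : ℓ.Prime) (hℓr : ℓ ≠ r)
    (z : GQ → Qbar) (hunr : UnramAt ℓ z) (a : ℚ) (ha : a ≠ 0) (γ : Qbar)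
    (hγ : γ ^ r = algebraMap ℚ Qbar a) (hzγ : ∀ σ : GQ, σ γ = z σ * γ) :
    (r : ℤ) ∣ padicValRat ℓ a := by
  obtain ⟨A, hA, hz⟩ := hunr
  refine kummer_val A hℓ hA hr hℓr a ha γ hγ (fun σ hσ => ?_)
  rw [hzγ σ, hz σ hσ, one_mul]

/-- A root of unity from an `r`-th root of an `r`-th power. -/
theorem coboundary_of_pow {r : ℕ} (z : GQ → Qbar) (γ : Qbar) (c : ℚ) (hc : c ≠ 0)
    (hγ : γ ^ r = algebraMap ℚ Qbar (c ^ r)) (hzγ : ∀ σ : GQ, σ γ = z σ * γ) :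
    ∃ ζ : Qbar, ζ ^ r = 1 ∧ ∀ σ : GQ, σ ζ = z σ * ζ := by
  have hc' : algebraMap ℚ Qbar c ≠ 0 := (map_ne_zero _).2 hc
  refine ⟨γ / algebraMap ℚ Qbar c, ?_, fun σ => ?_⟩
  · rw [div_pow, hγ, map_pow]
    exact div_self (pow_ne_zero _ hc')
  · rw [map_div₀, hzγ σ, AlgEquiv.commutes, mul_div_assoc]

/-- **(G3)** a `μ_r`-valued open crossed homomorphism (`r` odd) which is unramified outside `r`
and has unit class at `r` is the coboundary of a root of unity. -/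
theorem glob_mu_trunc {r : ℕ} (hr : r.Prime) (hr2 : r ≠ 2) (z : GQ → Qbar)
    (hz : ∀ σ τ : GQ, z (σ * τ) = z σ * σ (z τ)) (hzr : ∀ σ, z σ ^ r = 1)
    (hopen : ∃ S : Finset Qbar, ∀ σ : GQ, (∀ x ∈ S, σ x = x) → z σ = 1)
    (hunr : ∀ ℓ : ℕ, ℓ.Prime → ℓ ≠ r → UnramAt ℓ z) (hloc : UnitClassAt r z) :
    ∃ ζ : Qbar, ζ ^ r = 1 ∧ ∀ σ : GQ, σ ζ = z σ * ζ := by
  obtain ⟨a, γ, ha, hγ, hzγ⟩ := kummer_class r z hz hzr hr.ne_zero hopen
  have hall : ∀ ℓ : ℕ, ℓ.Prime → (r : ℤ) ∣ padicValRat ℓ a := by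
    intro ℓ hℓ
    by_cases hℓr : ℓ = r
    · subst hℓr
      exact hloc a γ ha hγ hzγ
    · exact dvd_padicValRat_of_unramAt hr hℓ hℓr z (hunr ℓ hℓ hℓr) a ha γ hγ hzγ
  have hodd : Odd r := hr.odd_of_ne_two hr2
  obtain ⟨c, hc⟩ := rat_eq_pow_of_dvd_padicValRat hodd a ha hall
  have hc0 : c ≠ 0 := by
    rintro rfl
    rw [zero_pow hr.ne_zero] at hc
    exact ha hc
  exact coboundary_of_pow z γ c hc0 (by rw [hγ, hc]) hzγ

/-- **(G4)** two `μ_r`-valued open crossed homomorphisms (`r` odd) which are unramified outside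
`{r, p}` and have unit class at `r`: a nontrivial combination is the coboundary of a root of
unity. -/
theorem glob_mu_full {p r : ℕ} (hp : p.Prime) (hr : r.Prime) (hr2 : r ≠ 2) (z₁ z₂ : GQ → Qbar)
    (hz₁ : ∀ σ τ : GQ, z₁ (σ * τ) = z₁ σ * σ (z₁ τ)) (hzr₁ : ∀ σ, z₁ σ ^ r = 1)
    (hz₂ : ∀ σ τ : GQ, z₂ (σ * τ) = z₂ σ * σ (z₂ τ)) (hzr₂ : ∀ σ, z₂ σ ^ r = 1)
    (hopen₁ : ∃ S : Finset Qbar, ∀ σ : GQ, (∀ x ∈ S, σ x = x) → z₁ σ = 1)
    (hopen₂ : ∃ S : Finset Qbar, ∀ σ : GQ, (∀ x ∈ S, σ x = x) → z₂ σ = 1)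
    (hunr₁ : ∀ ℓ : ℕ, ℓ.Prime → ℓ ≠ r → ℓ ≠ p → UnramAt ℓ z₁)
    (hunr₂ : ∀ ℓ : ℕ, ℓ.Prime → ℓ ≠ r → ℓ ≠ p → UnramAt ℓ z₂)
    (hloc₁ : UnitClassAt r z₁) (hloc₂ : UnitClassAt r z₂) :
    ∃ (c₁ c₂ : ℕ) (ζ : Qbar), (¬ r ∣ c₁ ∨ ¬ r ∣ c₂) ∧ ζ ^ r = 1 ∧
      ∀ σ : GQ, σ ζ = z₁ σ ^ c₁ * z₂ σ ^ c₂ * ζ := by
  obtain ⟨a₁, γ₁, ha₁, hγ₁, hzγ₁⟩ := kummer_class r z₁ hz₁ hzr₁ hr.ne_zero hopen₁
  obtain ⟨a₂, γ₂, ha₂, hγ₂, hzγ₂⟩ := kummer_class r z₂ hz₂ hzr₂ hr.ne_zero hopen₂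
  obtain ⟨c₁, c₂, hc, hdvd⟩ := exists_comb_dvd hr (padicValRat p a₁) (padicValRat p a₂)
  set a : ℚ := a₁ ^ c₁ * a₂ ^ c₂ with ha
  have ha0 : a ≠ 0 := mul_ne_zero (pow_ne_zero _ ha₁) (pow_ne_zero _ ha₂)
  have hval : ∀ ℓ : ℕ, ℓ.Prime →
      padicValRat ℓ a = c₁ * padicValRat ℓ a₁ + c₂ * padicValRat ℓ a₂ := by
    intro ℓ hℓ
    have hfact : Fact ℓ.Prime := ⟨hℓ⟩
    rw [ha, padicValRat.mul (pow_ne_zero _ ha₁) (pow_ne_zero _ ha₂), padicValRat.pow a₁,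
      padicValRat.pow a₂]
  have hall : ∀ ℓ : ℕ, ℓ.Prime → (r : ℤ) ∣ padicValRat ℓ a := by
    intro ℓ hℓ
    rw [hval ℓ hℓ]
    by_cases hℓp : ℓ = p
    · subst hℓp
      exact hdvd
    · have h1 : (r : ℤ) ∣ padicValRat ℓ a₁ := by
        by_cases hℓr : ℓ = r
        · subst hℓr
          exact hloc₁ a₁ γ₁ ha₁ hγ₁ hzγ₁
        · exact dvd_padicValRat_of_unramAt hr hℓ hℓr z₁ (hunr₁ ℓ hℓ hℓr hℓp) a₁ ha₁ γ₁ hγ₁ hzγ₁
      have h2 : (r : ℤ) ∣ padicValRat ℓ a₂ := by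
        by_cases hℓr : ℓ = r
        · subst hℓr
          exact hloc₂ a₂ γ₂ ha₂ hγ₂ hzγ₂
        · exact dvd_padicValRat_of_unramAt hr hℓ hℓr z₂ (hunr₂ ℓ hℓ hℓr hℓp) a₂ ha₂ γ₂ hγ₂ hzγ₂
      exact dvd_add (Dvd.dvd.mul_left h1 _) (Dvd.dvd.mul_left h2 _)
  have hodd : Odd r := hr.odd_of_ne_two hr2
  obtain ⟨c, hcr⟩ := rat_eq_pow_of_dvd_padicValRat hodd a ha0 hall
  have hc0 : c ≠ 0 := by
    rintro rfl
    rw [zero_pow hr.ne_zero] at hcr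
    exact ha0 hcr
  obtain ⟨ζ, hζ, hzζ⟩ := coboundary_of_pow (fun σ => z₁ σ ^ c₁ * z₂ σ ^ c₂)
    (γ₁ ^ c₁ * γ₂ ^ c₂) c hc0
    (by
      rw [← hcr, ha, map_mul, map_pow, map_pow, ← hγ₁, ← hγ₂]
      ring)
    (fun σ => by
      show σ (γ₁ ^ c₁ * γ₂ ^ c₂) = z₁ σ ^ c₁ * z₂ σ ^ c₂ * (γ₁ ^ c₁ * γ₂ ^ c₂)
      rw [map_mul, map_pow, map_pow, hzγ₁ σ, hzγ₂ σ]
      ring)
  exact ⟨c₁, c₂, ζ, hc, hζ, hzζ⟩

end Fermat.Agent.S15.Desc.H97

end
-- ==== END Fermat.Agent.S15.Desc.H97_GlobMu
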