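-- GENERATED (merged mirror, NOTES/tools/trim/merge3_helper67.py): 10 modules of the originals, bodies verbatim.
import Mathlib.FieldTheory.Galois.Infinite
import Mathlib.FieldTheory.IsAlgClosed.AlgebraicClosure
import Mathlib.LinearAlgebra.Matrix.Rank
import Mathlib.LinearAlgebra.Matrix.NonsingularInverse
import Mathlib.LinearAlgebra.Dimension.Constructions
import Mathlib.LinearAlgebra.FiniteDimensional.Lemmas
import Fermat.Agent.FL.Defs
import Fermat.Agent.Zm.S33_L02_003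
import Fermat.Agent.Zm.S48_L02_000
import Fermat.Agent.GTor.H2_Equivariance
import Fermat.Agent.Zm.S35_L12_001
import Fermat.Agent.Zm.S35_L11_001
import Fermat.Agent.Zm.S35_L09_001
import Fermat.Agent.RED.H17_Place
import Fermat.Agent.Zm.S33_L02_001
import Fermat.Agent.Zm.S56_L01_000
import Fermat.Agent.Zm.S33_L02_002
import Fermat.Agent.Zm.S48_L01_000
import Fermat.Agent.S17.Height.H35_Trace
import Fermat.Agent.Zm.S56_L06_000
import Fermat.Agent.Zm.S33_L01_002
import Fermat.Agent.Zm.S35_L08_001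
import Fermat.Agent.Zm.S56_L02_000
import Fermat.Agent.Zm.S35_L04_002

-- ==== BEGIN Fermat.Agent.FL.H2_FF
section

/-!
# G-FL (S19), function field leaves (helper2): `Stmt_BPF`, `Stmt_CM`, `Stmt_DIV`, `Stmt_MULT`

All four are consequences of Riemann's theorem `IsRiemann k E g c` and of the basic hypotheses
`RED.H42.Hyp k E` (which hold for every function field of one variable over an algebraically
closed field: `S17.H35.hyp_of_isFF`).  The pencil trick itself is helper35's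
(`S17/Height/H35_Pencil.lean`); here it is used with the constant `c` of `IsRiemann`, which may
be `-1` (genus `0`).

* `exists_place` : a function field has a place.
* `neg_one_le_of_isRiemann`, `genus_le_of_isRiemann` : `-1 ≤ c`, `g ≤ c + 1`.
* `L_bpf_single` : `L(D)` has no base point at `v` if `deg D ≥ c + 1`.
* `exists_ne_zero_mem_L` : `L(D) ≠ 0` if `deg D ≥ c + 1`.
* `bpf_finset` : the same at finitely many places simultaneously.
* `mul_L_eq_of_isRiemann` : `L(D₁) * L(D₂) = L(D₁ + D₂)`.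
* `mem_L_of_mul_mem`, `multiplier` : the generic forms of FF-DIV and FF-MULT.
* `stmt_BPF`, `stmt_CM`, `stmt_DIV`, `stmt_MULT`.
-/

set_option autoImplicit false
set_option linter.style.haveILetI false
set_option linter.unusedSectionVars false

noncomputable section

open AlgebraicCurve

namespace Fermat.Agent.FL.H2

open Fermat.Agent.RED Fermat.Agent.RED.H42 Fermat.Agent.S17.H35

variable {k E : Type} [Field k] [Field E] [Algebra k E]

local notation "L" => riemannRochSpace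

/-- A function field of one variable has a place. -/
theorem exists_place (hFF : IsFF k E) (H : Hyp k E) : Nonempty (Place k E) := by
  obtain ⟨x, hx, -⟩ := hFF
  have hx' : x ∉ Set.range (algebraMap k E) := by
    rintro ⟨a, rfl⟩
    exact hx (isAlgebraic_algebraMap a)
  obtain ⟨v, -⟩ := H.exists_pole x hx'
  exact ⟨v⟩

theorem degree_zsmul_single (H : Hyp k E) (v : Place k E) (n : ℤ) :
    Divisor.degree (Finsupp.single v n : Divisor k E) = n := by
  rw [Divisor.degree_single, H.deg_one v]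
  simp

/-- The constant `c` of Riemann's theorem is at least `g - 1`. -/
theorem genus_le_of_isRiemann (hFF : IsFF k E) (H : Hyp k E) {g : ℕ} {c : ℤ}
    (hR : IsRiemann k E g c) : (g : ℤ) ≤ c + 1 := by
  obtain ⟨v⟩ := exists_place hFF H
  have h1 := (hR (Finsupp.single v c)).2 (by rw [degree_zsmul_single H])
  rw [degree_zsmul_single H] at h1
  have h2 : (0 : ℤ) ≤ (Module.finrank k (L (Finsupp.single v c : Divisor k E)) : ℤ) :=
    Int.natCast_nonneg _
  omega

theorem neg_one_le_of_isRiemann (hFF : IsFF k E) (H : Hyp k E) {g : ℕ} {c : ℤ}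
    (hR : IsRiemann k E g c) : -1 ≤ c := by
  have := genus_le_of_isRiemann hFF H hR
  omega

/-- `L(D)` has no base point at `v` if `deg D ≥ c + 1`. -/
theorem L_bpf_single (H : Hyp k E) {g : ℕ} {c : ℤ} (hR : IsRiemann k E g c) {D : Divisor k E}
    (hD : c + 1 ≤ Divisor.degree D) (v : Place k E) :
    ∃ f ∈ L D, f ≠ 0 ∧ v.ord f = -D v := by
  classical
  have h1 := (hR D).2 (by omega)
  have h2 := (hR (D - Finsupp.single v 1)).2 (by rw [degree_sub_single H.deg_one]; omega)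
  rw [degree_sub_single H.deg_one] at h2
  have hle : L (D - Finsupp.single v 1) ≤ L D := L_mono (by
    rw [Finsupp.le_def]
    intro w
    rw [Finsupp.sub_apply]
    have : 0 ≤ (Finsupp.single v (1 : ℤ)) w := by
      rw [Finsupp.single_apply]; split_ifs <;> omega
    omega)
  have hlt : ¬ L D ≤ L (D - Finsupp.single v 1) := by
    intro h
    have heq : L (D - Finsupp.single v 1) = L D := le_antisymm hle h
    rw [heq] at h2
    omega
  obtain ⟨f, hf, hfD⟩ := SetLike.not_le_iff_exists.mp hlt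
  have hf0 : f ≠ 0 := by
    rintro rfl
    exact hfD (Submodule.zero_mem _)
  refine ⟨f, hf, hf0, ?_⟩
  by_contra hcon
  exact hfD ((mem_L_sub_single_iff hf hf0 v).mpr hcon)

/-- `L(D) ≠ 0` if `deg D ≥ c + 1`. -/
theorem exists_ne_zero_mem_L (hFF : IsFF k E) (H : Hyp k E) {g : ℕ} {c : ℤ}
    (hR : IsRiemann k E g c) {D : Divisor k E} (hD : c + 1 ≤ Divisor.degree D) :
    ∃ f ∈ L D, f ≠ 0 := by
  obtain ⟨v⟩ := exists_place hFF H
  obtain ⟨f, hf, hf0, -⟩ := L_bpf_single H hR hD v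
  exact ⟨f, hf, hf0⟩

/-- **FF-BPF**, generic form. -/
theorem bpf_finset [Infinite k] (hFF : IsFF k E) (H : Hyp k E) {g : ℕ} {c : ℤ}
    (hR : IsRiemann k E g c) {D : Divisor k E} (hD : c + 1 ≤ Divisor.degree D)
    (S : Finset (Place k E)) :
    ∃ f : E, f ≠ 0 ∧ f ∈ L D ∧ ∀ Q ∈ S, Q.ord f = - D Q := by
  classical
  let p : Option S → Submodule k (L D) := fun o =>
    match o with
    | none => ⊥
    | some Q => Submodule.comap (L D).subtype (L (D - Finsupp.single Q.1 1))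
  have hp : ∀ o, p o ≠ ⊤ := by
    intro o
    cases o with
    | none =>
      intro h
      obtain ⟨s, hs, hs0⟩ := exists_ne_zero_mem_L hFF H hR hD
      have h1 : (⟨s, hs⟩ : L D) ∈ (⊥ : Submodule k (L D)) := by
        show (⟨s, hs⟩ : L D) ∈ p none
        rw [h]; trivial
      rw [Submodule.mem_bot] at h1
      exact hs0 (congrArg Subtype.val h1)
    | some Q =>
      intro h
      obtain ⟨f, hf, hf0, hfv⟩ := L_bpf_single H hR hD Q.1
      have h1 : (⟨f, hf⟩ : L D) ∈ p (some Q) := by rw [h]; trivial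
      have h2 : f ∈ L (D - Finsupp.single Q.1 1) := h1
      exact (mem_L_sub_single_iff hf hf0 Q.1).mp h2 hfv
  obtain ⟨t, ht⟩ := Submodule.exists_forall_notMem_of_forall_ne_top p hp
  have ht0 : (t : E) ≠ 0 := by
    intro h
    apply ht none
    show t ∈ (⊥ : Submodule k (L D))
    rw [Submodule.mem_bot]
    exact Subtype.ext h
  refine ⟨t.1, ht0, t.2, ?_⟩
  intro Q hQ
  by_contra hcon
  apply ht (some ⟨Q, hQ⟩)
  show (t : E) ∈ L (D - Finsupp.single Q 1)
  exact (mem_L_sub_single_iff t.2 ht0 Q).mpr hcon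

/-- **FF-CM**, generic form: `L(D₁) * L(D₂) = L(D₁ + D₂)`. -/
theorem mul_L_eq_of_isRiemann [Infinite k] (hFF : IsFF k E) (H : Hyp k E) {g : ℕ} {c : ℤ}
    (hR : IsRiemann k E g c) {D₁ D₂ : Divisor k E} (h1 : c + 1 ≤ Divisor.degree D₁)
    (h2 : Divisor.degree D₁ + c ≤ Divisor.degree D₂) :
    L D₁ * L D₂ = L (D₁ + D₂) := by
  have hc := neg_one_le_of_isRiemann hFF H hR
  apply le_antisymm
  · rw [Submodule.mul_le]
    intro f hf b hb
    exact mul_mem_L_add hf hb
  · intro f hf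
    have hne : L D₁ ≠ ⊥ := by
      obtain ⟨s, hs, hs0⟩ := exists_ne_zero_mem_L hFF H hR h1
      exact (Submodule.ne_bot_iff _).mpr ⟨s, hs, hs0⟩
    obtain ⟨s, hs, t, ht, hst⟩ :=
      exists_bpfPair H (le_refl (L D₁)) hne (L_bpf_single H hR h1)
    have hdim : Module.finrank k (L (D₁ + D₂)) + Module.finrank k (L (D₂ - D₁))
        ≤ 2 * Module.finrank k (L D₂) := by
      have e1 := (hR (D₁ + D₂)).2 (by rw [map_add]; omega)
      have e2 := (hR (D₂ - D₁)).2 (by rw [map_sub]; omega)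
      have e3 := (hR D₂).2 (by omega)
      rw [map_add] at e1
      rw [map_sub] at e2
      omega
    obtain ⟨u, hu, w, hw, rfl⟩ := pencil_surj H hst hdim hf
    exact Submodule.add_mem _ (Submodule.mul_mem_mul hs hu) (Submodule.mul_mem_mul ht hw)

/-- **FF-DIV**, generic form. -/
theorem mem_L_of_mul_mem (H : Hyp k E) {g : ℕ} {c : ℤ} (hR : IsRiemann k E g c)
    {D₁ D₂ E₀ : Divisor k E} (hD : c + 1 ≤ Divisor.degree D₂) {u : E}
    (hu : ∀ w ∈ L D₂, u * w ∈ L (D₁ + D₂ - E₀)) : u ∈ L (D₁ - E₀) := by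
  by_cases hu0 : u = 0
  · rw [hu0]; exact Submodule.zero_mem _
  apply mem_L_of_neg_le_ord
  intro v
  obtain ⟨f, hf, hf0, hfv⟩ := L_bpf_single H hR hD v
  have h1 := neg_le_ord_of_mem (hu f hf) (mul_ne_zero hu0 hf0) v
  rw [v.ord_mul hu0 hf0, hfv] at h1
  simp only [Finsupp.sub_apply, Finsupp.add_apply] at h1 ⊢
  omega

/-- **FF-MULT**, generic form. -/
theorem multiplier (hFF : IsFF k E) (H : Hyp k E) {g : ℕ} {c : ℤ} (hR : IsRiemann k E g c)
    {D D' : Divisor k E} (hD : c + 1 ≤ Divisor.degree D) (φ : ↥(L D) →ₗ[k] E)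
    (hsym : ∀ z₁ z₂ : ↥(L D), φ z₁ * (z₂ : E) = φ z₂ * (z₁ : E))
    (hφ : ∀ z, φ z ∈ L D') :
    ∃ h ∈ L (D' - D), ∀ z : ↥(L D), φ z = h * (z : E) := by
  obtain ⟨z₀, hz₀, hz₀0⟩ := exists_ne_zero_mem_L hFF H hR hD
  have hmul : ∀ z : ↥(L D), φ z = φ ⟨z₀, hz₀⟩ * z₀⁻¹ * (z : E) := by
    intro z
    have h1 := hsym z ⟨z₀, hz₀⟩
    simp only at h1
    field_simp
    exact h1
  refine ⟨φ ⟨z₀, hz₀⟩ * z₀⁻¹, ?_, hmul⟩
  set h := φ ⟨z₀, hz₀⟩ * z₀⁻¹ with hh
  by_cases hh0 : h = 0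
  · rw [hh0]; exact Submodule.zero_mem _
  apply mem_L_of_neg_le_ord
  intro v
  obtain ⟨f, hf, hf0, hfv⟩ := L_bpf_single H hR hD v
  have h1 : h * f ∈ L D' := by
    rw [← hmul ⟨f, hf⟩]
    exact hφ _
  have h2 := neg_le_ord_of_mem h1 (mul_ne_zero hh0 hf0) v
  rw [v.ord_mul hh0 hf0, hfv] at h2
  simp only [Finsupp.sub_apply] at h2 ⊢
  omega

/-! ## The statements of `FL/Defs.lean` -/

/-- **FF-BPF**. -/
theorem stmt_BPF : Stmt_BPF := by
  intro k E _ _ _ _ hFF g c hR D hD S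
  have H := hyp_of_isFF k E hFF
  have : Infinite k := IsAlgClosed.instInfinite
  exact bpf_finset hFF H hR hD S

/-- **FF-CM**. -/
theorem stmt_CM : Stmt_CM := by
  intro k E _ _ _ _ hFF g c hR D₁ D₂ h1 h2 f hf
  have H := hyp_of_isFF k E hFF
  have : Infinite k := IsAlgClosed.instInfinite
  rw [← mul_L_eq_of_isRiemann hFF H hR h1 h2, Submodule.mul_eq_span_mul_set] at hf
  refine Submodule.span_mono ?_ hf
  rintro z ⟨a, ha, b, hb, rfl⟩
  exact ⟨a, ha, b, hb, rfl⟩

/-- **FF-DIV**. -/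
theorem stmt_DIV : Stmt_DIV := by
  intro k E _ _ _ _ hFF g c hR D₁ D₂ E₀ hD u hu
  exact mem_L_of_mul_mem (hyp_of_isFF k E hFF) hR hD hu

/-- **FF-MULT**. -/
theorem stmt_MULT : Stmt_MULT := by
  intro k E _ _ _ _ hFF g c hR D D' hD φ hsym hφ
  exact multiplier hFF (hyp_of_isFF k E hFF) hR hD φ hsym hφ

end Fermat.Agent.FL.H2

end
end
-- ==== END Fermat.Agent.FL.H2_FF

-- ==== BEGIN Fermat.Agent.FL.H2_Level
section
attribute [local instance 10000] SubalgebraClass.toAlgebra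
attribute [local instance 10000] HahnSeries.powerSeriesAlgebra

/-!
# G-FL (S19), package LEVEL (helper2): change of level on `J₀`

For `N ∣ M`, `M ∣ 36 N`: the pull-back `π = π_{N,M}^* : J₀(N) → J₀(M)` along `F_N ⊆ F_M` is
Galois equivariant and injective on torsion (Kummer descent `RED.Stmt_KD` of helper22).

* `levelPull N M h : JZero N →+ JZero M`.
* `levelPull_smul` : Galois equivariance.
* `levelPull_injective_of_torsion` : `m • x = 0 → π x = 0 → x = 0`.
* `stmt_Level : Stmt_Level`.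
-/

set_option autoImplicit false
set_option linter.style.haveILetI false
set_option linter.unusedSectionVars false
set_option maxHeartbeats 1000000
set_option synthInstance.maxHeartbeats 400000

noncomputable section

namespace Fermat.Agent.FL.H2

open AlgebraicCurve AlgebraicCurve.SemilinearAut ModularCurve Fermat.Agent.RED
  Fermat.Agent.Lib.HeckeComm Fermat.Agent.NEB.H14

local notation "Kb" => AlgebraicClosure ℚ

/-- **LEVEL**: for `N ∣ M ∣ 36 N` there is a Galois equivariant homomorphism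
`J₀(N) → J₀(M)` which is injective on torsion. -/
def Stmt_Level : Prop :=
  ∀ (N M : ℕ) [NeZero N] [NeZero M], N ∣ M → M ∣ 36 * N →
    ∃ π : JZero N →+ JZero M,
      (∀ (σ : Kb ≃ₐ[ℚ] Kb) (x : JZero N), π (σ • x) = σ • π x) ∧
      ∀ m : ℕ, 0 < m → ∀ x : JZero N, m • x = 0 → π x = 0 → x = 0

variable (N M : ℕ) [NeZero N] [NeZero M] (h : N ∣ M)

/-- The pull-back `J₀(N) → J₀(M)`. -/
def levelPull : JZero N →+ JZero M := pullP (inclFN N M h)

theorem intertwines_inclFN (σ : Kb ≃ₐ[ℚ] Kb) :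
    IntertwinesAlong ((inclFN N M h : _ →ₐ[Kb] _) : _ →+* _)
      (arithmeticGalois (modularFunctionFieldFull N) σ)
      (arithmeticGalois (modularFunctionFieldFull M) σ) := by
  intro x
  apply Subtype.ext
  rw [coe_arithmeticGalois_smul]
  show coeffMap (σ : Kb →+* Kb) ((inclFN N M h x : _) : LaurentSeries Kb) =
    ((inclFN N M h (arithmeticGalois (modularFunctionFieldFull N) σ • x) : _) :
      LaurentSeries Kb)
  rw [coe_inclFN, coe_inclFN, coe_arithmeticGalois_smul]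

theorem levelPull_mk (D : Divisor.degZero (K := Kb) (F := ↥(modularFunctionFieldBar N))) :
    levelPull N M h (Pic0.mk D)
      = Pic0.mk (degZeroMap (pullD (inclFN N M h))
          (isCorr_pullD (H95.stmt_HKA_isFF N) (H95.stmt_HKA_isFF M) _).isGood D) :=
  picMap_mk _ D

/-- Galois equivariance of the change of level. -/
theorem levelPull_smul (σ : Kb ≃ₐ[ℚ] Kb) (x : JZero N) :
    levelPull N M h (σ • x) = σ • levelPull N M h x := by
  have hF := H95.stmt_HKA_isFF N
  have hF' := H95.stmt_HKA_isFF M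
  obtain ⟨D, rfl⟩ := Pic0.mk_surjective x
  rw [galois_smul_pic0_def, galois_smul_pic0_def, pic0_smul_mk, levelPull_mk, levelPull_mk,
    pic0_smul_mk]
  refine congrArg Pic0.mk (Subtype.ext ?_)
  rw [coe_degZeroMap, coe_degZeroSMulHom, coe_degZeroSMulHom, coe_degZeroMap]
  haveI : HasPrincipalDivisors Kb ↥(modularFunctionFieldBar M) := hasPD hF'
  rw [pullD_eq hF hF']
  exact Fermat.Agent.GTor.H2.pullbackAlong_smul _ _ (inclFN N M h) _
    (intertwines_inclFN N M h σ) _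

/-- A function without zeros and poles is constant. -/
theorem exists_const_of_ord_eq_zero {K F : Type} [Field K] [Field F] [Algebra K F]
    [IsAlgClosed K] (hF : IsFF K F) {u : F} (hu : ∀ v : Place K F, v.ord u = 0) :
    ∃ c : K, algebraMap K F c = u := by
  have H := Fermat.Agent.S17.H35.hyp_of_isFF K F hF
  by_contra hcon
  obtain ⟨v, hv⟩ := H.exists_pole u hcon
  rw [hu v] at hv
  exact lt_irrefl _ hv

/-- Injectivity of the change of level on torsion. -/
theorem levelPull_injective_of_torsion (hM : M ∣ 36 * N) (m : ℕ) (hm : 0 < m) (x : JZero N)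
    (hmx : m • x = 0) (hx : levelPull N M h x = 0) : x = 0 := by
  have hF := H95.stmt_HKA_isFF N
  have hF' := H95.stmt_HKA_isFF M
  obtain ⟨D, rfl⟩ := Pic0.mk_surjective x
  have hm0 : m ≠ 0 := hm.ne'
  have hmZ : (m : ℤ) ≠ 0 := by exact_mod_cast hm0
  -- `m D` is principal
  have hmD : m • (D : Divisor Kb ↥(modularFunctionFieldBar N))
      ∈ Divisor.principal (K := Kb) (F := ↥(modularFunctionFieldBar N)) := by
    have h1 : ((m • D : Divisor.degZero (K := Kb) (F := ↥(modularFunctionFieldBar N))) :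
        Pic0 Kb ↥(modularFunctionFieldBar N)) = 0 := hmx
    rw [QuotientAddGroup.eq_zero_iff, AddSubgroup.mem_addSubgroupOf] at h1
    exact h1
  obtain ⟨f, hf, hDf⟩ := hmD
  have hDf' : ∀ v : Place Kb ↥(modularFunctionFieldBar N),
      (m : ℤ) * (D : Divisor Kb ↥(modularFunctionFieldBar N)) v = v.ord f := by
    intro v
    rw [← hDf v, Finsupp.smul_apply, nsmul_eq_mul]
  -- `π^* D` is principal
  rw [levelPull_mk] at hx
  have hpD : pullD (inclFN N M h) (D : Divisor Kb ↥(modularFunctionFieldBar N))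
      ∈ Divisor.principal (K := Kb) (F := ↥(modularFunctionFieldBar M)) := by
    have h1 := hx
    rw [Pic0.mk, QuotientAddGroup.eq_zero_iff, AddSubgroup.mem_addSubgroupOf] at h1
    exact h1
  obtain ⟨t, ht, hDt⟩ := hpD
  -- `φ f / t ^ m` is constant
  have hφf : inclFN N M h f ≠ 0 := fun h0 =>
    hf ((inclFN N M h).toRingHom.injective (by simpa using h0))
  have hu : ∀ w : Place Kb ↥(modularFunctionFieldBar M),
      w.ord (inclFN N M h f * (t ^ m)⁻¹) = 0 := by
    intro w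
    have h1 := pullD_kummer hF hF' (inclFN N M h) (m : ℤ) _ hf hDf' w
    rw [w.ord_mul hφf (inv_ne_zero (pow_ne_zero m ht)), w.ord_inv, Fermat.Agent.RED.H17.ord_pow, ← h1, hDt w]
    ring
  obtain ⟨c, hc⟩ := exists_const_of_ord_eq_zero hF' hu
  have hc0 : c ≠ 0 := by
    rintro rfl
    rw [map_zero] at hc
    exact mul_ne_zero hφf (inv_ne_zero (pow_ne_zero m ht)) hc.symm
  obtain ⟨d, hd⟩ := IsAlgClosed.exists_pow_nat_eq c hm
  -- `φ f` is an `m`-th power in `F_M`
  have hpow : (algebraMap Kb ↥(modularFunctionFieldBar M) d * t) ^ m = inclFN N M h f := by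
    rw [mul_pow, ← map_pow, hd, hc]
    field_simp
  -- Kummer descent
  obtain ⟨s, hs⟩ := KD.H22.stmt_KD N M m h hM hm f
    (fun P => ⟨(D : Divisor Kb ↥(modularFunctionFieldBar N)) P, (hDf' P).symm⟩)
    ⟨((algebraMap Kb ↥(modularFunctionFieldBar M) d * t : ↥(modularFunctionFieldBar M)) :
        LaurentSeries Kb), Subtype.property _, by
      have := congrArg (Subtype.val) hpow
      simpa using this⟩
  have hs0 : s ≠ 0 := by
    rintro rfl
    rw [zero_pow hm0] at hs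
    exact hf hs.symm
  -- `D = div s`
  show Pic0.mk D = 0
  rw [Pic0.mk, QuotientAddGroup.eq_zero_iff, AddSubgroup.mem_addSubgroupOf]
  refine ⟨s, hs0, fun v => ?_⟩
  have h1 := hDf' v
  rw [← hs, Fermat.Agent.RED.H17.ord_pow] at h1
  exact mul_left_cancel₀ hmZ h1

/-- **LEVEL**. -/
theorem stmt_Level : Stmt_Level := by
  intro N M _ _ h hM
  exact ⟨levelPull N M h, levelPull_smul N M h,
    fun m hm x hmx hx => levelPull_injective_of_torsion N M h hM m hm x hmx hx⟩

end Fermat.Agent.FL.H2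

end
end
-- ==== END Fermat.Agent.FL.H2_Level

-- ==== BEGIN Fermat.Agent.Lib.HopfOrderLoc.Defs
section

/-!
# Hopf orders from LOCAL generators (item 71 / S19): definitions and interface statements

`Fermat.Agent.Lib.HopfOrder.flat_of_generators` needs generators which are equivariant for the
whole group `G_ℚ`.  Geometry produces generators which are only equivariant for the inertia
group `I` of ONE place `A` over `ℓ` (charts centred at unramified points, idempotents of the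
fibres of the reduction map), such that the `A`-algebra `H_A` they generate is stable under the
decomposition group `D` of `A`.  `Stmt_LocalGen` says that this is enough.

All statements here are `Prop`s; nothing is assumed in this file.

* `genRing A h` : the subring of `M → ℚ̄` generated by the constants of `A` and the `h j`.
* `twist act σ f = fun x => σ (f (act σ⁻¹ x))` : the semilinear action of `G_ℚ` on functions.
* `Stmt_F1`, `Stmt_F2` : the two facts of ramification theory used by the descent.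
* `Stmt_CL` : closure of `genRing` / `pairRing` under `ℓ`-adic approximation.
* `Stmt_LocalGen` : the local generator criterion.
-/

set_option autoImplicit false

namespace Fermat.Agent.Lib.HopfOrderLoc

open Fermat.Agent.Lib.HopfOrder

/-- The subring of functions `M → K` generated by the constants of `A` and the functions `h j`. -/
def genRing {K M ι : Type} [Field K] (A : Subring K) (h : ι → M → K) : Subring (M → K) :=
  Subring.closure ({g | ∃ a ∈ A, g = fun _ => a} ∪ Set.range h)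

/-- The semilinear action of the Galois group on functions `M → ℚ̄`. -/
noncomputable def twist {M : Type} (act : (AlgebraicClosure ℚ ≃ₐ[ℚ] AlgebraicClosure ℚ) → M → M)
    (σ : AlgebraicClosure ℚ ≃ₐ[ℚ] AlgebraicClosure ℚ) (f : M → AlgebraicClosure ℚ) :
    M → AlgebraicClosure ℚ :=
  fun x => σ (f (act σ⁻¹ x))

/-- **(F1)** Let `H = I ⊔ Gal(ℚ̄/L)` with `L` a number field.  If no element of the coset `γ H`
lies in the decomposition group `D` of `A`, then the places `A` and `γ⁻¹ A` are already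
different on the fixed field of `H`: some `H`-fixed algebraic integer `x` is a unit at `A` while
`γ x` is not. -/
def Stmt_F1 : Prop :=
  ∀ (ℓ : ℕ), ℓ.Prime → ∀ (A : ValuationSubring (AlgebraicClosure ℚ)), A.LiesOverPrime ℓ →
  ∀ (L : IntermediateField ℚ (AlgebraicClosure ℚ)), FiniteDimensional ℚ L →
  ∀ γ : AlgebraicClosure ℚ ≃ₐ[ℚ] AlgebraicClosure ℚ,
    (∀ h ∈ A.inertiaSubgroupIn ℚ ⊔ L.fixingSubgroup, γ * h ∉ A.decompositionSubgroup ℚ) →
    ∃ x : AlgebraicClosure ℚ, IsIntegral ℤ x ∧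
      (∀ h ∈ A.inertiaSubgroupIn ℚ ⊔ L.fixingSubgroup, h x = x) ∧
      A.valuation x = 1 ∧ A.valuation (γ x) < 1

/-- **(F2)** Let `H = I ⊔ Gal(ℚ̄/L)` with `L / ℚ` finite and normal.  An element of the
decomposition group which is congruent to the identity modulo the maximal ideal of `A` on all
`H`-fixed algebraic integers lies in `H`.  (The fixed field of `H` has the full residue field of
`L`, and inertia lifts: `InertiaLift.exists_mem_inertiaSubgroupIn_eqOn`.) -/
def Stmt_F2 : Prop :=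
  ∀ (ℓ : ℕ), ℓ.Prime → ∀ (A : ValuationSubring (AlgebraicClosure ℚ)), A.LiesOverPrime ℓ →
  ∀ (L : IntermediateField ℚ (AlgebraicClosure ℚ)), FiniteDimensional ℚ L → Normal ℚ L →
  ∀ σ ∈ A.decompositionSubgroup ℚ,
    (∀ x : AlgebraicClosure ℚ, IsIntegral ℤ x →
      (∀ h ∈ A.inertiaSubgroupIn ℚ ⊔ L.fixingSubgroup, h x = x) →
      A.valuation (σ x - x) < 1) →
    σ ∈ A.inertiaSubgroupIn ℚ ⊔ L.fixingSubgroup

/-- **(CL)**, abstract form: let `T` be a ring of `A`-valued functions on a finite set `S`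
containing the constants of `A` and separating the points of `S`.  A function which can be
approximated modulo `ℓ ^ n` by elements of `T`, for every `n`, lies in `T`. -/
def Stmt_CL : Prop :=
  ∀ (ℓ : ℕ), ℓ.Prime → ∀ (A : ValuationSubring (AlgebraicClosure ℚ)), A.LiesOverPrime ℓ →
  ∀ (S : Type) [Finite S] (T : Subring (S → AlgebraicClosure ℚ)),
    (∀ a ∈ A, (fun _ : S => a) ∈ T) → (∀ g ∈ T, ∀ s, g s ∈ A) →
    (∀ s s' : S, s ≠ s' → ∃ g ∈ T, g s ≠ g s') →
    ∀ φ : S → AlgebraicClosure ℚ,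
      (∀ n : ℕ, ∃ ψ ∈ T, ∀ s, ∃ a ∈ A, φ s - ψ s = (ℓ : AlgebraicClosure ℚ) ^ n * a) →
      φ ∈ T

/-- **The local generator criterion.**  `M` a finite abelian group with an action of `G_ℚ`
through a finite quotient, `A` a valuation subring of `ℚ̄` over `ℓ` with inertia group `I` and
decomposition group `D`.  Given finitely many functions `h j : M → ℚ̄` such that

* `h j` has values in `A` and is `I`-equivariant,
* for `σ ∈ D` the function `twist act σ (h j)` lies in `genRing A h`,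
* the `h j` separate the points of `M`,
* `(x, y) ↦ h j (x + y)` lies in `pairRing A h`,

the group `M` is flat at `ℓ` in the sense of the prelude (`GaloisRepAdic.IsFlatAt`, frozen S19).
-/
def Stmt_LocalGen : Prop :=
  ∀ (ι : Type) [Finite ι] (ℓ : ℕ), ℓ.Prime →
  ∀ (M : Type) [AddCommGroup M] [Finite M]
    (A : ValuationSubring (AlgebraicClosure ℚ)), A.LiesOverPrime ℓ →
  ∀ (act : (AlgebraicClosure ℚ ≃ₐ[ℚ] AlgebraicClosure ℚ) → M → M)
    (h : ι → M → AlgebraicClosure ℚ),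
    (∀ x, act 1 x = x) → (∀ σ τ x, act (σ * τ) x = act σ (act τ x)) →
    (∀ σ x y, act σ (x + y) = act σ x + act σ y) →
    (∃ L : IntermediateField ℚ (AlgebraicClosure ℚ), FiniteDimensional ℚ L ∧
      ∀ σ ∈ L.fixingSubgroup, ∀ x, act σ x = x) →
    (∀ j x, h j x ∈ A) →
    (∀ j, ∀ σ ∈ A.inertiaSubgroupIn ℚ, ∀ x, h j (act σ x) = σ (h j x)) →
    (∀ j, ∀ σ ∈ A.decompositionSubgroup ℚ, twist act σ (h j) ∈ genRing A.toSubring h) →
    (∀ x y, x ≠ y → ∃ j, h j x ≠ h j y) →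
    (∀ j, (fun q : M × M => h j (q.1 + q.2)) ∈ pairRing A.toSubring h) →
    ∃ (H' : Type) (_ : CommRing H') (_ : HopfAlgebra (GaloisRep.ratLocalizedAt ℓ) H'),
      Module.Finite (GaloisRep.ratLocalizedAt ℓ) H' ∧
      Module.Flat (GaloisRep.ratLocalizedAt ℓ) H' ∧
      Coalgebra.IsCocomm (GaloisRep.ratLocalizedAt ℓ) H' ∧
      ∃ e : WithConv (H' →ₐ[GaloisRep.ratLocalizedAt ℓ] AlgebraicClosure ℚ) ≃ M,
        (∀ f g : WithConv (H' →ₐ[GaloisRep.ratLocalizedAt ℓ] AlgebraicClosure ℚ),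
          e (f * g) = e f + e g) ∧
        ∀ (σ : AlgebraicClosure ℚ ≃ₐ[ℚ] AlgebraicClosure ℚ)
          (f g : WithConv (H' →ₐ[GaloisRep.ratLocalizedAt ℓ] AlgebraicClosure ℚ)),
          (∀ h : H', g h = σ (f h)) → e g = act σ (e f)

end Fermat.Agent.Lib.HopfOrderLoc

end
-- ==== END Fermat.Agent.Lib.HopfOrderLoc.Defs

-- ==== BEGIN Fermat.Agent.S15.Desc.H97_GlobEtale
section

set_option autoImplicit false

namespace Fermat.Agent.S15.Desc.H97

local notation "Qbar" => AlgebraicClosure ℚ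
local notation "GQ" => (AlgebraicClosure ℚ ≃ₐ[ℚ] AlgebraicClosure ℚ)

/-- Triviality on inertia does not depend on the valuation subring over `ℓ` (commutative
target). -/
theorem unram_all_of_some {T : Type*} [CommGroup T] (χ : GQ →* T) (ℓ : ℕ) (hℓ : ℓ.Prime)
    (A A' : ValuationSubring Qbar) (hA : A.LiesOverPrime ℓ) (hA' : A'.LiesOverPrime ℓ)
    (h : ∀ σ ∈ A.inertiaSubgroupIn ℚ, χ σ = 1) : ∀ σ ∈ A'.inertiaSubgroupIn ℚ, χ σ = 1 := by
  obtain ⟨g, hg⟩ := Fermat.Agent.Lib.InertiaConj.exists_conj_mem_inertia ℓ hℓ A A' hA hA'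
  intro σ hσ
  have h1 := h _ ((hg σ).1 hσ)
  rw [map_mul, map_mul, map_inv, mul_comm, ← mul_assoc, mul_inv_cancel, one_mul] at h1
  exact h1

/-- The multiplicative character attached to an additive one. -/
def toMulChar {r : ℕ} (ψ : GQ → ZMod r) (hψ : ∀ σ τ, ψ (σ * τ) = ψ σ + ψ τ) :
    GQ →* Multiplicative (ZMod r) where
  toFun σ := Multiplicative.ofAdd (ψ σ)
  map_one' := by
    have h := hψ 1 1
    rw [mul_one] at h
    have h0 : ψ 1 = 0 := by
      have := add_left_cancel (a := ψ 1) (b := ψ 1) (c := 0) (by rw [add_zero]; exact h.symm)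
      exact this
    rw [h0]
    rfl
  map_mul' σ τ := by
    rw [hψ]
    rfl

lemma toMulChar_eq_one_iff {r : ℕ} (ψ : GQ → ZMod r) (hψ : ∀ σ τ, ψ (σ * τ) = ψ σ + ψ τ)
    (σ : GQ) : toMulChar ψ hψ σ = 1 ↔ ψ σ = 0 := Iff.rfl

/-- **(G1)** an open additive character of `Gal(ℚ̄/ℚ)` which is unramified everywhere is zero. -/
theorem glob_etale_trunc {r : ℕ} (ψ : GQ → ZMod r) (hψ : ∀ σ τ, ψ (σ * τ) = ψ σ + ψ τ)
    (hopen : ∃ S : Finset Qbar, ∀ σ : GQ, (∀ x ∈ S, σ x = x) → ψ σ = 0)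
    (hunr : ∀ ℓ : ℕ, ℓ.Prime → ∃ A : ValuationSubring Qbar,
      A.LiesOverPrime ℓ ∧ ∀ σ ∈ A.inertiaSubgroupIn ℚ, ψ σ = 0) :
    ∀ σ, ψ σ = 0 := by
  intro σ
  have := Fermat.Agent.Lib.Minkowski.hom_eq_one_of_unramified_everywhere (toMulChar ψ hψ)
    hopen hunr σ
  exact this

/-- **(G2)** two open additive characters `Gal(ℚ̄/ℚ) → ZMod r` unramified outside `p ≠ r` are
linearly dependent. -/
theorem glob_etale {p r : ℕ} (hp : p.Prime) (hr : r.Prime) (hpr : p ≠ r)
    (ψ₁ ψ₂ : GQ → ZMod r)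
    (h₁ : ∀ σ τ, ψ₁ (σ * τ) = ψ₁ σ + ψ₁ τ) (h₂ : ∀ σ τ, ψ₂ (σ * τ) = ψ₂ σ + ψ₂ τ)
    (hopen₁ : ∃ S : Finset Qbar, ∀ σ : GQ, (∀ x ∈ S, σ x = x) → ψ₁ σ = 0)
    (hopen₂ : ∃ S : Finset Qbar, ∀ σ : GQ, (∀ x ∈ S, σ x = x) → ψ₂ σ = 0)
    (hunr₁ : ∀ ℓ : ℕ, ℓ.Prime → ℓ ≠ p → ∃ A : ValuationSubring Qbar,
      A.LiesOverPrime ℓ ∧ ∀ σ ∈ A.inertiaSubgroupIn ℚ, ψ₁ σ = 0)
    (hunr₂ : ∀ ℓ : ℕ, ℓ.Prime → ℓ ≠ p → ∃ A : ValuationSubring Qbar,
      A.LiesOverPrime ℓ ∧ ∀ σ ∈ A.inertiaSubgroupIn ℚ, ψ₂ σ = 0) :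
    ∃ c₁ c₂ : ZMod r, (c₁ ≠ 0 ∨ c₂ ≠ 0) ∧ ∀ σ, c₁ * ψ₁ σ + c₂ * ψ₂ σ = 0 := by
  classical
  have hfact : Fact r.Prime := ⟨hr⟩
  obtain ⟨S₁, hS₁⟩ := hopen₁
  obtain ⟨S₂, hS₂⟩ := hopen₂
  obtain ⟨A, hA⟩ := Fermat.Agent.Lib.FrobExists.exists_liesOverPrime p hp
  -- the pair of characters
  let Ψ : GQ →* Multiplicative (ZMod r) × Multiplicative (ZMod r) :=
    (toMulChar ψ₁ h₁).prod (toMulChar ψ₂ h₂)
  have hΨopen : ∃ S : Finset Qbar, ∀ σ : GQ, (∀ x ∈ S, σ x = x) → Ψ σ = 1 := by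
    refine ⟨S₁ ∪ S₂, fun σ hσ => ?_⟩
    have e1 : ψ₁ σ = 0 := hS₁ σ (fun x hx => hσ x (Finset.mem_union_left _ hx))
    have e2 : ψ₂ σ = 0 := hS₂ σ (fun x hx => hσ x (Finset.mem_union_right _ hx))
    exact Prod.ext ((toMulChar_eq_one_iff ψ₁ h₁ σ).2 e1) ((toMulChar_eq_one_iff ψ₂ h₂ σ).2 e2)
  have hexp : ∀ σ, Ψ σ ^ r = 1 := by
    intro σ
    apply Prod.ext
    · show Multiplicative.ofAdd (ψ₁ σ) ^ r = 1
      rw [← ofAdd_nsmul, nsmul_eq_mul, CharP.cast_eq_zero, zero_mul]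
      rfl
    · show Multiplicative.ofAdd (ψ₂ σ) ^ r = 1
      rw [← ofAdd_nsmul, nsmul_eq_mul, CharP.cast_eq_zero, zero_mul]
      rfl
  have hcop : r.Coprime p := (Nat.coprime_primes hr hp).2 (Ne.symm hpr)
  obtain ⟨σ₀, hσ₀, hgen⟩ := tame_cyclic p hp A hA Ψ hΨopen r hcop hexp
  have hgen' : ∀ σ ∈ A.inertiaSubgroupIn ℚ, ∃ k : ℕ, ψ₁ σ = k * ψ₁ σ₀ ∧ ψ₂ σ = k * ψ₂ σ₀ := by
    intro σ hσ
    obtain ⟨k, hk⟩ := hgen σ hσ
    refine ⟨k, ?_, ?_⟩
    · have := congrArg Prod.fst hk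
      have e : Multiplicative.ofAdd (ψ₁ σ) = Multiplicative.ofAdd (ψ₁ σ₀) ^ k := this
      rw [← ofAdd_nsmul, nsmul_eq_mul] at e
      exact Multiplicative.ofAdd.injective e
    · have := congrArg Prod.snd hk
      have e : Multiplicative.ofAdd (ψ₂ σ) = Multiplicative.ofAdd (ψ₂ σ₀) ^ k := this
      rw [← ofAdd_nsmul, nsmul_eq_mul] at e
      exact Multiplicative.ofAdd.injective e
  -- the coefficients
  obtain ⟨c₁, c₂, hc, hc0⟩ : ∃ c₁ c₂ : ZMod r, (c₁ ≠ 0 ∨ c₂ ≠ 0) ∧
      c₁ * ψ₁ σ₀ + c₂ * ψ₂ σ₀ = 0 := by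
    by_cases hx : ψ₁ σ₀ = 0
    · exact ⟨1, 0, Or.inl one_ne_zero, by rw [hx]; ring⟩
    · exact ⟨ψ₂ σ₀, -ψ₁ σ₀, Or.inr (neg_ne_zero.2 hx), by ring⟩
  refine ⟨c₁, c₂, hc, ?_⟩
  -- the combination is unramified everywhere
  let χ : GQ → ZMod r := fun σ => c₁ * ψ₁ σ + c₂ * ψ₂ σ
  have hχ : ∀ σ τ, χ (σ * τ) = χ σ + χ τ := by
    intro σ τ
    show c₁ * ψ₁ (σ * τ) + c₂ * ψ₂ (σ * τ) = (c₁ * ψ₁ σ + c₂ * ψ₂ σ) + (c₁ * ψ₁ τ + c₂ * ψ₂ τ)
    rw [h₁, h₂]
    ring
  refine glob_etale_trunc χ hχ ?_ ?_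
  · refine ⟨S₁ ∪ S₂, fun σ hσ => ?_⟩
    have e1 : ψ₁ σ = 0 := hS₁ σ (fun x hx => hσ x (Finset.mem_union_left _ hx))
    have e2 : ψ₂ σ = 0 := hS₂ σ (fun x hx => hσ x (Finset.mem_union_right _ hx))
    show c₁ * ψ₁ σ + c₂ * ψ₂ σ = 0
    rw [e1, e2]
    ring
  · intro ℓ hℓ
    by_cases hℓp : ℓ = p
    · subst hℓp
      refine ⟨A, hA, fun σ hσ => ?_⟩
      obtain ⟨k, hk1, hk2⟩ := hgen' σ hσ
      show c₁ * ψ₁ σ + c₂ * ψ₂ σ = 0
      rw [hk1, hk2]
      linear_combination (k : ZMod r) * hc0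
    · obtain ⟨A₁, hA₁, hu₁⟩ := hunr₁ ℓ hℓ hℓp
      obtain ⟨A₂, hA₂, hu₂⟩ := hunr₂ ℓ hℓ hℓp
      refine ⟨A₁, hA₁, fun σ hσ => ?_⟩
      have e1 : ψ₁ σ = 0 := hu₁ σ hσ
      have e2 : ψ₂ σ = 0 :=
        (toMulChar_eq_one_iff ψ₂ h₂ σ).1
          (unram_all_of_some (toMulChar ψ₂ h₂) ℓ hℓ A₂ A₁ hA₂ hA₁
            (fun τ hτ => (toMulChar_eq_one_iff ψ₂ h₂ τ).2 (hu₂ τ hτ)) σ hσ)
      show c₁ * ψ₁ σ + c₂ * ψ₂ σ = 0
      rw [e1, e2]
      ring

end Fermat.Agent.S15.Desc.H97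

end
-- ==== END Fermat.Agent.S15.Desc.H97_GlobEtale

-- ==== BEGIN Fermat.Agent.S17.Height.H35_DescLin
section

/-!
# S17, part H: Galois descent for subspaces of `ℚ̄ⁿ` (helper35)

`stmt_DescLin : H16.Stmt_DescLin`: a subspace of `ℚ̄ⁿ` which is stable under the coordinatewise
action of `Gal(ℚ̄/ℚ)` is spanned by the rows of a rational matrix with a nonzero maximal minor.

Proof: descent by traces (`mem_span_invariants`) shows that the subspace is spanned by its
Galois-fixed vectors; those are the rational vectors (`ℚ̄^G = ℚ`); a `ℚ`-basis of the rational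
vectors gives the matrix.
-/

set_option autoImplicit false

open Matrix Module

namespace Fermat.Agent.S17.H35

open Fermat.Agent.S17

section DescLin

/-- The Galois-fixed elements of `ℚ̄` are rational. -/
theorem qbar_rational_of_fixed (x : Qbar) (hx : ∀ σ : GQ, σ x = x) :
    ∃ q : ℚ, algebraMap ℚ Qbar q = x := by
  have h1 : Algebra.IsAlgebraic ℚ (AlgebraicClosure ℚ) := AlgebraicClosure.isAlgebraic ℚ
  have h2 : IsAlgClosure ℚ (AlgebraicClosure ℚ) := ⟨inferInstance, inferInstance⟩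
  have h3 : IsGalois ℚ (AlgebraicClosure ℚ) := inferInstance
  exact (InfiniteGalois.mem_range_algebraMap_iff_fixed x).2 hx

/-- `k` linearly independent vectors have a nonzero `k × k` minor. -/
theorem exists_det_submatrix_ne_zero {F : Type*} [Field F] {n k : ℕ}
    (X : Matrix (Fin k) (Fin n) F) (h : LinearIndependent F X.row) :
    ∃ J : Fin k → Fin n, (X.submatrix id J).det ≠ 0 := by
  classical
  have hrank : X.rank = k := by
    have := LinearIndependent.rank_matrix (M := X) h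
    simpa using this
  have hcols : finrank F (Submodule.span F (Set.range X.col)) = k := by
    rw [← Matrix.rank_eq_finrank_span_cols]
    exact hrank
  obtain ⟨κ, a, ha, hspan, hli⟩ := exists_linearIndependent' F X.col
  have : Finite κ := Finite.of_injective a ha
  let _ : Fintype κ := Fintype.ofFinite κ
  have hcard : Fintype.card κ = k := by
    rw [← hcols, ← hspan]
    exact (finrank_span_eq_card hli).symm
  let e : Fin k ≃ κ := (Fintype.equivFinOfCardEq hcard).symm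
  refine ⟨a ∘ e, ?_⟩
  have hcolsA : LinearIndependent F (X.submatrix id (a ∘ e)).col := by
    have hAcol : (X.submatrix id (a ∘ e)).col = (X.col ∘ a) ∘ e := by
      funext j i
      rfl
    rw [hAcol]
    exact hli.comp e e.injective
  have hunit : IsUnit (X.submatrix id (a ∘ e)) := Matrix.linearIndependent_cols_iff_isUnit.1 hcolsA
  exact ((Matrix.isUnit_iff_isUnit_det _).1 hunit).ne_zero

/-- The action of `Gal(ℚ̄/ℚ)` on `ℚ̄` as a homomorphism to ring automorphisms. -/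
noncomputable def gqRingAut : GQ →* (Qbar ≃+* Qbar) where
  toFun σ := σ.toRingEquiv
  map_one' := rfl
  map_mul' _ _ := rfl

@[simp] theorem gqRingAut_apply (σ : GQ) (x : Qbar) : gqRingAut σ x = σ x := rfl

/-- The rational vectors, embedded in `ℚ̄ⁿ`. -/
noncomputable def ratVec (n : ℕ) : (Fin n → ℚ) →ₗ[ℚ] (Fin n → Qbar) :=
  (Algebra.linearMap ℚ Qbar).compLeft (Fin n)

@[simp] theorem ratVec_apply (n : ℕ) (q : Fin n → ℚ) (i : Fin n) :
    ratVec n q i = algebraMap ℚ Qbar (q i) := rfl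

theorem ratVec_injective (n : ℕ) : Function.Injective (ratVec n) := by
  intro q q' h
  funext i
  have := congrFun h i
  simpa using this

/-- **DESC-LIN.** -/
theorem stmt_DescLin : H16.Stmt_DescLin := by
  classical
  intro n W hstab
  -- the rational points of `W`
  let Wq : Submodule ℚ (Fin n → ℚ) := (W.restrictScalars ℚ).comap (ratVec n)
  have hWq : ∀ q : Fin n → ℚ, q ∈ Wq ↔ ratVec n q ∈ W := fun q => Iff.rfl
  let r : ℕ := finrank ℚ Wq
  let b : Basis (Fin r) ℚ Wq := Module.finBasis ℚ Wq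
  let B : Matrix (Fin r) (Fin n) ℚ := Matrix.of fun i j => (b i : Fin n → ℚ) j
  have hBrow : B.row = fun i => (b i : Fin n → ℚ) := rfl
  have hli : LinearIndependent ℚ B.row := by
    rw [hBrow]
    exact b.linearIndependent.map' Wq.subtype (Submodule.ker_subtype _)
  refine ⟨r, B, exists_det_submatrix_ne_zero B hli, ?_⟩
  have hrows : (fun i : Fin r => fun j => (algebraMap ℚ Qbar) (B i j))
      = fun i => ratVec n (b i : Fin n → ℚ) := rfl
  rw [hrows]
  apply le_antisymm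
  · rw [Submodule.span_le]
    rintro _ ⟨i, rfl⟩
    exact (hWq _).1 (b i).2
  · intro w hw
    -- every rational point of `W` is in the span
    have hrat : ∀ q : Fin n → ℚ, ratVec n q ∈ W →
        ratVec n q ∈ Submodule.span Qbar (Set.range fun i => ratVec n (b i : Fin n → ℚ)) := by
      intro q hq
      have h1 : (⟨q, (hWq q).2 hq⟩ : Wq) = ∑ i, b.repr ⟨q, (hWq q).2 hq⟩ i • b i :=
        (b.sum_repr _).symm
      have h2 : q = ∑ i, b.repr ⟨q, (hWq q).2 hq⟩ i • (b i : Fin n → ℚ) := by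
        have h3 := congrArg (Wq.subtype) h1
        rw [map_sum] at h3
        exact h3
      rw [h2, map_sum]
      refine Submodule.sum_mem _ fun i _ => ?_
      rw [map_smul]
      exact Submodule.smul_of_tower_mem _ _ (Submodule.subset_span ⟨i, rfl⟩)
    -- the semilinear action on `W`
    let ρ : GQ → W → W := fun σ x => ⟨fun i => σ (x.1 i), hstab σ x.1 x.2⟩
    have hradd : ∀ g x y, ρ g (x + y) = ρ g x + ρ g y := by
      intro g x y
      apply Subtype.ext
      funext i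
      exact map_add g _ _
    have hrmul : ∀ g h x, ρ (g * h) x = ρ g (ρ h x) := by
      intro g h x
      rfl
    have hsemi : ∀ g (c : Qbar) (x : W), ρ g (c • x) = gqRingAut g c • ρ g x := by
      intro g c x
      apply Subtype.ext
      funext i
      exact map_mul g _ _
    -- a number field containing the coordinates of `w`
    let E : IntermediateField ℚ Qbar := IntermediateField.adjoin ℚ (Set.range w)
    have halg : Algebra.IsAlgebraic ℚ (AlgebraicClosure ℚ) := AlgebraicClosure.isAlgebraic ℚ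
    have halc : IsAlgClosure ℚ (AlgebraicClosure ℚ) := ⟨inferInstance, inferInstance⟩
    have hgal : IsGalois ℚ (AlgebraicClosure ℚ) := inferInstance
    have hE : FiniteDimensional ℚ E :=
      IntermediateField.finiteDimensional_adjoin (fun x _ => (halg.isAlgebraic x).isIntegral)
    have hfi : E.fixingSubgroup.FiniteIndex := by
      rw [Subgroup.finiteIndex_iff, ← IntermediateField.finrank_eq_fixingSubgroup_index]
      exact Module.finrank_pos.ne'
    have hsep : ∀ σ τ : GQ, (∀ c : Qbar, (∀ u ∈ E.fixingSubgroup, gqRingAut u c = c) →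
        gqRingAut σ c = gqRingAut τ c) → σ⁻¹ * τ ∈ E.fixingSubgroup := by
      intro σ τ h
      rw [IntermediateField.mem_fixingSubgroup_iff]
      intro c hc
      have h1 := h c (fun u hu => (IntermediateField.mem_fixingSubgroup_iff _ _).1 hu c hc)
      have h2 : σ c = τ c := h1
      show σ⁻¹ (τ c) = c
      rw [← h2]
      exact σ.symm_apply_apply c
    have hfix : ∀ u ∈ E.fixingSubgroup, ρ u ⟨w, hw⟩ = ⟨w, hw⟩ := by
      intro u hu
      apply Subtype.ext
      funext i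
      exact (IntermediateField.mem_fixingSubgroup_iff _ _).1 hu (w i)
        (IntermediateField.subset_adjoin ℚ _ ⟨i, rfl⟩)
    have hmem := mem_span_invariants (a := gqRingAut) (r := ρ) hradd hrmul hsemi
      E.fixingSubgroup hsep hfix
    -- push forward to `ℚ̄ⁿ`
    have hmap : (⟨w, hw⟩ : W) ∈ (Submodule.span Qbar
        (Set.range fun i => ratVec n (b i : Fin n → ℚ))).comap W.subtype := by
      refine Submodule.span_le.2 ?_ hmem
      intro x hx
      rw [SetLike.mem_coe, Submodule.mem_comap, Submodule.subtype_apply]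
      have hx' : ∀ σ : GQ, ∀ i, σ (x.1 i) = x.1 i := by
        intro σ i
        have := congrArg (fun y : W => y.1 i) (hx σ)
        exact this
      choose q hq using fun i => qbar_rational_of_fixed (x.1 i) (fun σ => hx' σ i)
      have hxq : ratVec n q = x.1 := by
        funext i
        exact hq i
      rw [← hxq]
      exact hrat q (by rw [hxq]; exact x.2)
    exact hmap

end DescLin

end Fermat.Agent.S17.H35

end
-- ==== END Fermat.Agent.S17.Height.H35_DescLin

-- ==== BEGIN Fermat.Agent.S17.Height.H35_PencilMod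
section

/-!
# S17 part H (helper35): the geometric package (A3)+(A4) for the modular function field
-/

set_option autoImplicit false

namespace Fermat.Agent.S17.H35

/-- **(A3) + (A4)** for the function field of `X₀(N)` over `ℚ̄`, unconditionally. -/
theorem geo_modular (N : ℕ) [NeZero N] :
    ∃ (g : ℕ) (c : ℤ),
      Geo (AlgebraicClosure ℚ) ↥(ModularCurve.modularFunctionFieldBar N) g c :=
  exists_geo_modular Fermat.Agent.RED.H95.stmt_HKA_isFF N

end Fermat.Agent.S17.H35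

end
-- ==== END Fermat.Agent.S17.Height.H35_PencilMod

-- ==== BEGIN Fermat.Agent.S32.Final
section

/-!
# S32 from `Stmt_FlatPoint` alone (helper86, cluster R)

All algebraic leaves of the wiring are proved (closure properties of flat Galois modules:
helper54; separation of the points of `T` with uniform loss: helper2).  What is left is
`Stmt_FlatPoint`: S32 for representations over complete discrete valuation rings (geometric
input: S19, i.e. good reduction of `J₀(N)` at `p ∤ N`).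
-/

set_option autoImplicit false

open Polynomial IsLocalRing

namespace Fermat.Agent.S32

open Fermat.Agent.R

variable {p : ℕ} {N : ℕ} [NeZero N] {S : Finset ℕ}
  {𝒪 : Type} [CommRing 𝒪] [IsDomain 𝒪] [IsDiscreteValuationRing 𝒪]
  [IsAdicComplete (IsLocalRing.maximalIdeal 𝒪) 𝒪]
  {θ : CuspForm.heckeAlgebra N 2 (↑S : Set ℕ) →+* IsLocalRing.ResidueField 𝒪}
  {T : Type} [CommRing T] [IsLocalRing T] [IsNoetherianRing T]
  [IsAdicComplete (IsLocalRing.maximalIdeal T) T] [Algebra 𝒪 T] [IsLocalHom (algebraMap 𝒪 T)]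
  [Module.Finite 𝒪 T] [Module.Free 𝒪 T]

/-- S32 from its version over discrete valuation rings. -/
theorem of_flatPoint (hFP : Stmt_FlatPoint)
    [Finite (IsLocalRing.ResidueField 𝒪)] [CharZero 𝒪]
    (hp : p.Prime) (hp2 : p ≠ 2) (hp𝒪 : (p : 𝒪) ∈ IsLocalRing.maximalIdeal 𝒪) (hpN : ¬ p ∣ N)
    (hpS : p ∈ S) (hNS : ∀ q : ℕ, q.Prime → q ∣ N → q ∈ S)
    (H : CuspForm.HeckeGaloisRepDatum N (↑S : Set ℕ) 𝒪 θ T) :
    H.ρ.IsFlatAt p :=
  wiring hFP H54.stmt_FlatSub H54.stmt_FlatQuot H54.stmt_FlatPi H2.stmt_SepTc_final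
    hp hp2 hp𝒪 hpN hpS hNS H

end Fermat.Agent.S32

end
-- ==== END Fermat.Agent.S32.Final

-- ==== BEGIN Fermat.Agent.S32.H86_BridgeLevel
section

/-!
# S32 bridge, part LEVEL (helper86): coefficients of a flat Galois module

If `(ℤ/p^n)^r` with the matrices `ρk σ` is a flat Galois module and `A` is a finite commutative
ring with a ring homomorphism `c : ℤ/p^n → A`, then `A^r` with the matrices `c (ρk σ)` is a flat
Galois module: it is an equivariant quotient of a finite product of copies of `(ℤ/p^n)^r`.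
-/

set_option autoImplicit false
set_option linter.unusedSectionVars false
set_option linter.unusedVariables false
set_option linter.style.haveILetI false

noncomputable section

namespace Fermat.Agent.S32.H86

open Fermat.Agent.R

/-- **Change of coefficients for flat Galois modules.** -/
theorem level_flat {p : ℕ} (hp : p.Prime) {r n : ℕ}
    (ρk : (AlgebraicClosure ℚ ≃ₐ[ℚ] AlgebraicClosure ℚ) →* Matrix (Fin r) (Fin r) (ZMod (p ^ n)))
    (hflat : IsFlatGaloisModule p (Fin r → ZMod (p ^ n)) (fun σ v => (ρk σ).mulVec v))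
    (A : Type) [CommRing A] [Finite A] (c : ZMod (p ^ n) →+* A) :
    IsFlatGaloisModule p (Fin r → A) (fun σ y => (c.mapMatrix (ρk σ)).mulVec y) := by
  classical
  obtain ⟨m, ⟨a⟩⟩ := Finite.exists_equiv_fin A
  have hPi := H54.stmt_FlatPi p hp m (fun _ => Fin r → ZMod (p ^ n))
    (fun _ σ v => (ρk σ).mulVec v) (fun _ => hflat)
  let Ψ : (Fin m → Fin r → ZMod (p ^ n)) →+ (Fin r → A) :=
    { toFun := fun v i => ∑ t, a.symm t * c (v t i)
      map_zero' := by
        funext i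
        simp
      map_add' := fun v w => by
        funext i
        simp only [Pi.add_apply, map_add, mul_add, Finset.sum_add_distrib] }
  have hΨ : ∀ v i, Ψ v i = ∑ t, a.symm t * c (v t i) := fun v i => rfl
  refine H54.stmt_FlatQuot p hp (Fin m → Fin r → ZMod (p ^ n)) (Fin r → A) _ _ Ψ ?_ ?_ hPi
  · intro y
    refine ⟨fun t i => if a.symm t = y i then 1 else 0, ?_⟩
    funext i
    rw [hΨ]
    rw [Finset.sum_eq_single (a (y i))]
    · simp
    · intro t _ ht
      have h1 : a.symm t ≠ y i := by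
        intro h
        apply ht
        rw [← h, Equiv.apply_symm_apply]
      simp [h1]
    · intro h
      exact absurd (Finset.mem_univ _) h
  · intro σ v
    funext i
    show ∑ t, a.symm t * c ((ρk σ).mulVec (v t) i) = ((c.mapMatrix (ρk σ)).mulVec (Ψ v)) i
    simp only [Matrix.mulVec, dotProduct, map_sum, map_mul, RingHom.mapMatrix_apply,
      Matrix.map_apply, hΨ, Finset.mul_sum]
    rw [Finset.sum_comm]
    refine Finset.sum_congr rfl fun j _ => Finset.sum_congr rfl fun t _ => ?_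
    ring

end Fermat.Agent.S32.H86

end

end
-- ==== END Fermat.Agent.S32.H86_BridgeLevel

-- ==== BEGIN Fermat.Agent.S33.Final
section

/-!
# S33 from `Stmt_OrdPoint` alone (helper86, cluster R)

All algebraic leaves of the wiring are proved.  What is left is `Stmt_OrdPoint`: S33 for
representations over complete discrete valuation rings (package BAD_p + good reduction at `p`).
-/

set_option autoImplicit false

open Polynomial IsLocalRing

namespace Fermat.Agent.S33

open Fermat.Agent.R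

variable {p : ℕ} {N : ℕ} [NeZero N] {S : Finset ℕ}
  {𝒪 : Type} [CommRing 𝒪] [IsDomain 𝒪] [IsDiscreteValuationRing 𝒪]
  [IsAdicComplete (IsLocalRing.maximalIdeal 𝒪) 𝒪]
  {θ : CuspForm.heckeAlgebra N 2 (↑S : Set ℕ) →+* IsLocalRing.ResidueField 𝒪}
  {T : Type} [CommRing T] [IsLocalRing T] [IsNoetherianRing T]
  [IsAdicComplete (IsLocalRing.maximalIdeal T) T] [Algebra 𝒪 T] [IsLocalHom (algebraMap 𝒪 T)]
  [Module.Finite 𝒪 T] [Module.Free 𝒪 T]

/-- S33 from its version over discrete valuation rings. -/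
theorem of_ordPoint (hOrd : Stmt_OrdPoint)
    [Finite (IsLocalRing.ResidueField 𝒪)] [CharZero 𝒪]
    (hp : p.Prime) (hp2 : p ≠ 2) (hp𝒪 : (p : 𝒪) ∈ IsLocalRing.maximalIdeal 𝒪)
    (hN : p ∣ N ∧ ¬ p ^ 2 ∣ N)
    (hNS : ∀ q : ℕ, q.Prime → q ∣ N → q ∈ S)
    (H : CuspForm.HeckeGaloisRepDatum N (↑S : Set ℕ) 𝒪 θ T)
    (hres : (GaloisRepAdic.ofResidualGaloisRep H.ρ.residual).IsOrdinaryAt p) :
    H.ρ.IsOrdinaryAt p :=
  wiring hOrd H2.stmt_SepT_final Fermat.Agent.Lib.FrobDensity.stmt_FD H2.stmt_CycInertia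
    H2.stmt_FrobCyc hp hp2 hp𝒪 hN hNS H hres

end Fermat.Agent.S33

end
-- ==== END Fermat.Agent.S33.Final

-- ==== BEGIN Fermat.Agent.S33.H86_FlatOrd
section

/-!
# Flat and residually ordinary implies ordinary (helper86, cluster R, row S33)

`flatOrd_of_flatInf : Stmt_FlatInf → Stmt_FlatOrd`.

Let `V = 𝒪²` with an action of `G_ℚ`, flat at `p`, residually ordinary at the place `P`, and
such that some `σ₀` in the inertia group `I` of `P` has `(σ₀ - 1) v₀ ∉ 𝔪 V`.  Choose a basis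
`b` with `b 0 = (σ₀ - 1) v₀`; residual ordinarity says that the second coordinate of every
`(σ - 1) v` (`σ ∈ I`) lies in `𝔪`.  If one of them were `u ϖ^j ≠ 0`, then in the flat Galois
module `V / ϖ^(j+1) V` the class `x` of `ϖ^j b 1` would be infinitesimal, killed by `p`, with
`(σ - 1) x` in the decomposition-stable subgroup `N` generated by the class of `ϖ^j b 0`; by
`Stmt_FlatInf` this gives `x ∈ N`, which is absurd.  Hence `L = 𝒪 b 0` is the ordinary line.
-/

set_option autoImplicit false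
set_option linter.style.haveILetI false
set_option linter.unusedSectionVars false

open Polynomial IsLocalRing

namespace Fermat.Agent.S33.H86

open Fermat.Agent.R Fermat.Agent.R.H86

local notation "GalQ" => (AlgebraicClosure ℚ ≃ₐ[ℚ] AlgebraicClosure ℚ)

section Clean

variable {𝒪 : Type} [CommRing 𝒪] [IsDomain 𝒪] [IsDiscreteValuationRing 𝒪]
  {V : Type} [AddCommGroup V] [Module 𝒪 V]

/-- decomposition of a vector in a basis indexed by `Fin 2` -/
lemma eq_repr_smul_add (b : Module.Basis (Fin 2) 𝒪 V) (v : V) :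
    v = b.repr v 0 • b 0 + b.repr v 1 • b 1 := by
  conv_lhs => rw [← b.sum_repr v, Fin.sum_univ_two]

/-- The key step: under the conclusion of `Stmt_FlatInf` at every level `ϖ^(j+1)`, the second
coordinate of `(σ - 1) v` vanishes for all `σ` in the inertia group. -/
theorem coord_eq_zero_of_inf (r : GalQ →* Module.End 𝒪 V)
    (P : ValuationSubring (AlgebraicClosure ℚ)) (p : ℕ) (hp𝒪 : (p : 𝒪) ∈ maximalIdeal 𝒪)
    (b : Module.Basis (Fin 2) 𝒪 V)
    {σ₀ : GalQ} (hσ₀ : σ₀ ∈ P.inertiaSubgroupIn ℚ) (v₀ : V) (hb0 : b 0 = r σ₀ v₀ - v₀)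
    (hD : ∀ τ ∈ P.decompositionSubgroup ℚ, b.repr (r τ (b 0)) 1 ∈ maximalIdeal 𝒪)
    (hI : ∀ σ ∈ P.inertiaSubgroupIn ℚ, ∀ v : V, b.repr (r σ v - v) 1 ∈ maximalIdeal 𝒪)
    (hInf : ∀ a : 𝒪, a ≠ 0 → ∀ act : GalQ → (V ⧸ (Ideal.span {a} • (⊤ : Submodule 𝒪 V))) →
        (V ⧸ (Ideal.span {a} • (⊤ : Submodule 𝒪 V))),
      (∀ σ v, act σ (Submodule.Quotient.mk v) = Submodule.Quotient.mk (r σ v)) →
      ∃ Inf : AddSubgroup (V ⧸ (Ideal.span {a} • (⊤ : Submodule 𝒪 V))),
        (∀ σ ∈ P.inertiaSubgroupIn ℚ, ∀ x, act σ x - x ∈ Inf) ∧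
        ∀ N : AddSubgroup (V ⧸ (Ideal.span {a} • (⊤ : Submodule 𝒪 V))),
          (∀ σ ∈ P.decompositionSubgroup ℚ, ∀ x ∈ N, act σ x ∈ N) →
          ∀ x ∈ Inf, p • x ∈ N → (∀ σ ∈ P.inertiaSubgroupIn ℚ, act σ x - x ∈ N) → x ∈ N)
    {σ₁ : GalQ} (hσ₁ : σ₁ ∈ P.inertiaSubgroupIn ℚ) (v₁ : V) :
    b.repr (r σ₁ v₁ - v₁) 1 = 0 := by
  classical
  by_contra hc
  obtain ⟨ϖ, hϖ⟩ := IsDiscreteValuationRing.exists_irreducible 𝒪
  obtain ⟨j, u, hu⟩ := IsDiscreteValuationRing.eq_unit_mul_pow_irreducible hc hϖ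
  have hm : maximalIdeal 𝒪 = Ideal.span {ϖ} := hϖ.maximalIdeal_eq
  set a : 𝒪 := ϖ ^ (j + 1) with ha
  have ha0 : a ≠ 0 := pow_ne_zero _ hϖ.ne_zero
  set W : Submodule 𝒪 V := Ideal.span {a} • (⊤ : Submodule 𝒪 V) with hW
  let act : GalQ → (V ⧸ W) → (V ⧸ W) := fun σ =>
    Submodule.mapQ W W (r σ) (by
      rw [← Submodule.map_le_iff_le_comap, hW, Submodule.map_smul'']
      exact Submodule.smul_mono le_rfl le_top)
  have hact : ∀ σ v, act σ (Submodule.Quotient.mk v) = Submodule.Quotient.mk (r σ v) :=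
    fun σ v => rfl
  obtain ⟨Inf, hInf1, hInf2⟩ := hInf a ha0 act hact
  -- elements of `𝔪 ϖ^j` kill everything in the quotient
  have hkill : ∀ d : 𝒪, d ∈ maximalIdeal 𝒪 → ∀ v : V,
      (Submodule.Quotient.mk ((d * ϖ ^ j) • v) : V ⧸ W) = 0 := by
    intro d hd v
    rw [Submodule.Quotient.mk_eq_zero]
    refine Submodule.smul_mem_smul ?_ Submodule.mem_top
    rw [hm] at hd
    obtain ⟨t, rfl⟩ := Ideal.mem_span_singleton.1 hd
    rw [Ideal.mem_span_singleton, ha]
    exact ⟨t, by ring⟩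
  -- the class of `ϖ^j b 1`
  set x : V ⧸ W := Submodule.Quotient.mk (ϖ ^ j • b 1) with hx
  set y : V ⧸ W := Submodule.Quotient.mk (ϖ ^ j • b 0) with hy
  -- the subgroup generated by the class of `ϖ^j b 0`
  set N : AddSubgroup (V ⧸ W) := (Submodule.span 𝒪 {y}).toAddSubgroup with hN
  have hmemN : ∀ z : V ⧸ W, z ∈ N ↔ ∃ c : 𝒪, c • y = z := fun z =>
    Submodule.mem_span_singleton
  -- the action on the two classes
  have hrepr : ∀ σ ∈ P.inertiaSubgroupIn ℚ, ∀ v : V,
      (Submodule.Quotient.mk (ϖ ^ j • (r σ v - v)) : V ⧸ W) = b.repr (r σ v - v) 0 • y := by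
    intro σ hσ v
    have h1 := eq_repr_smul_add b (r σ v - v)
    have h2 : ϖ ^ j • (r σ v - v) = b.repr (r σ v - v) 0 • (ϖ ^ j • b 0)
        + (b.repr (r σ v - v) 1 * ϖ ^ j) • b 1 := by
      conv_lhs => rw [h1]
      rw [smul_add, smul_smul, smul_smul, smul_smul, mul_comm (ϖ ^ j), mul_comm (ϖ ^ j)]
    rw [h2, Submodule.Quotient.mk_add, hkill _ (hI σ hσ v), add_zero,
      Submodule.Quotient.mk_smul]
  have hactx : ∀ σ ∈ P.inertiaSubgroupIn ℚ, ∀ v : V,
      act σ (Submodule.Quotient.mk (ϖ ^ j • v)) - Submodule.Quotient.mk (ϖ ^ j • v)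
        = b.repr (r σ v - v) 0 • y := by
    intro σ hσ v
    rw [hact, ← Submodule.Quotient.mk_sub, map_smul, ← smul_sub]
    exact hrepr σ hσ v
  -- `N` is stable under the decomposition group
  have hNstab : ∀ τ ∈ P.decompositionSubgroup ℚ, ∀ z ∈ N, act τ z ∈ N := by
    intro τ hτ z hz
    obtain ⟨c, rfl⟩ := (hmemN z).1 hz
    have h1 : act τ (c • y) = c • act τ y := by
      show Submodule.mapQ W W (r τ) _ (c • y) = c • Submodule.mapQ W W (r τ) _ y
      rw [map_smul]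
    have h2 : act τ y = b.repr (r τ (b 0)) 0 • y := by
      rw [hy, hact, map_smul]
      have h3 := eq_repr_smul_add b (r τ (b 0))
      have h4 : ϖ ^ j • r τ (b 0) = b.repr (r τ (b 0)) 0 • (ϖ ^ j • b 0)
          + (b.repr (r τ (b 0)) 1 * ϖ ^ j) • b 1 := by
        conv_lhs => rw [h3]
        rw [smul_add, smul_smul, smul_smul, smul_smul, mul_comm (ϖ ^ j), mul_comm (ϖ ^ j)]
      rw [h4, Submodule.Quotient.mk_add, hkill _ (hD τ hτ), add_zero,
        Submodule.Quotient.mk_smul]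
    rw [h1, h2, (hmemN _)]
    exact ⟨c * b.repr (r τ (b 0)) 0, by rw [mul_smul]⟩
  -- `x` is infinitesimal
  have hxInf : x ∈ Inf := by
    -- `ϖ^j b 1 = u⁻¹ ((σ₁ - 1) v₁ - a₀ (σ₀ - 1) v₀)`
    set n₁ : V := r σ₁ v₁ - v₁ with hn₁
    have h1 : n₁ = b.repr n₁ 0 • b 0 + b.repr n₁ 1 • b 1 := eq_repr_smul_add b n₁
    have h2 : ϖ ^ j • b 1 = (r σ₁ ((↑u⁻¹ : 𝒪) • v₁) - (↑u⁻¹ : 𝒪) • v₁)
        - (r σ₀ (((↑u⁻¹ : 𝒪) * b.repr n₁ 0) • v₀) - ((↑u⁻¹ : 𝒪) * b.repr n₁ 0) • v₀) := by
      have h3 : b.repr n₁ 1 • b 1 = n₁ - b.repr n₁ 0 • b 0 := by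
        rw [eq_sub_iff_add_eq, add_comm]
        exact h1.symm
      have h4 : ϖ ^ j • b 1 = (↑u⁻¹ : 𝒪) • (b.repr n₁ 1 • b 1) := by
        rw [hu, smul_smul, ← mul_assoc, Units.inv_mul, one_mul]
      rw [h4, h3, hb0, map_smul, map_smul, ← smul_sub, ← smul_sub, mul_smul, smul_sub]
    have h5 : x = (act σ₁ (Submodule.Quotient.mk ((↑u⁻¹ : 𝒪) • v₁))
          - Submodule.Quotient.mk ((↑u⁻¹ : 𝒪) • v₁))
        - (act σ₀ (Submodule.Quotient.mk (((↑u⁻¹ : 𝒪) * b.repr n₁ 0) • v₀))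
          - Submodule.Quotient.mk (((↑u⁻¹ : 𝒪) * b.repr n₁ 0) • v₀)) := by
      rw [hx, h2, hact, hact, Submodule.Quotient.mk_sub, Submodule.Quotient.mk_sub,
        Submodule.Quotient.mk_sub]
    rw [h5]
    exact Inf.sub_mem (hInf1 σ₁ hσ₁ _) (hInf1 σ₀ hσ₀ _)
  -- `p x = 0`
  have hpx : p • x ∈ N := by
    have h1 : p • x = (Submodule.Quotient.mk (((p : 𝒪) * ϖ ^ j) • b 1) : V ⧸ W) := by
      rw [hx, ← Nat.cast_smul_eq_nsmul 𝒪 p, ← Submodule.Quotient.mk_smul, smul_smul]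
    rw [h1, hkill _ hp𝒪]
    exact N.zero_mem
  -- inertia fixes `x` modulo `N`
  have hxfix : ∀ σ ∈ P.inertiaSubgroupIn ℚ, act σ x - x ∈ N := by
    intro σ hσ
    rw [hx, hactx σ hσ (b 1), hmemN]
    exact ⟨_, rfl⟩
  have hxN := hInf2 N hNstab x hxInf hpx hxfix
  obtain ⟨c, hcxy⟩ := (hmemN x).1 hxN
  -- contradiction on the second coordinate
  have h6 : ϖ ^ j • b 1 - c • (ϖ ^ j • b 0) ∈ W := by
    rw [← Submodule.Quotient.mk_eq_zero, Submodule.Quotient.mk_sub,
      Submodule.Quotient.mk_smul W c]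
    show x - c • y = 0
    rw [hcxy, sub_self]
  have h7 := repr_mem_of_mem_smul_top b (Ideal.span {a}) h6 1
  rw [map_sub, map_smul, map_smul, map_smul, Finsupp.sub_apply, Finsupp.smul_apply,
    Finsupp.smul_apply, Finsupp.smul_apply, b.repr_self, b.repr_self] at h7
  simp only [Finsupp.single_eq_same, smul_eq_mul, mul_one] at h7
  rw [Finsupp.single_eq_of_ne (by decide), mul_zero, mul_zero, sub_zero,
    Ideal.mem_span_singleton, ha] at h7
  obtain ⟨t, ht⟩ := h7
  have h8 : ϖ ^ j * 1 = ϖ ^ j * (ϖ * t) := by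
    rw [mul_one]
    conv_lhs => rw [ht]
    ring
  have h9 := mul_left_cancel₀ (pow_ne_zero j hϖ.ne_zero) h8
  exact hϖ.not_isUnit (IsUnit.of_mul_eq_one _ h9.symm)

end Clean

/-- **Flat and residually ordinary implies ordinary**, from `Stmt_FlatInf`. -/
theorem flatOrd_of_flatInf (hFI : Stmt_FlatInf) : Stmt_FlatOrd := by
  classical
  intro p hp hp2 𝒪 _ _ _ _ hp𝒪 ρ hflat hram hres P hP
  -- residual ordinarity in coordinates
  obtain ⟨b₁, hb₁D, hb₁I⟩ := exists_resOrdAt (fun σ => ρ.ρ σ) P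
    ((residual_isOrdinaryAt_iff ρ p).1 hres P hP)
  obtain ⟨σ₀, hσ₀, v₀, hv₀⟩ := hram P hP
  set w₀ : ρ.V := ρ.ρ σ₀ v₀ - v₀ with hw₀
  have ha1 : b₁.repr w₀ 1 ∈ maximalIdeal 𝒪 := hb₁I σ₀ hσ₀ v₀
  have ha0 : IsUnit (b₁.repr w₀ 0) := by
    by_contra hnu
    apply hv₀
    have h1 := eq_repr_smul_add b₁ w₀
    rw [h1]
    exact Submodule.add_mem _
      (Submodule.smul_mem_smul ((mem_maximalIdeal _).2 hnu) Submodule.mem_top)
      (Submodule.smul_mem_smul ha1 Submodule.mem_top)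
  obtain ⟨b, hb0, hb1⟩ := exists_basis_replace b₁ w₀ ha0
  -- residual ordinarity in the new basis
  have hI : ∀ σ ∈ P.inertiaSubgroupIn ℚ, ∀ v : ρ.V,
      b.repr (ρ.ρ σ v - v) 1 ∈ maximalIdeal 𝒪 := by
    intro σ hσ v
    set z : ρ.V := ρ.ρ σ v - v with hz
    have h1 := eq_repr_smul_add b z
    have h2 : b₁.repr z 1 = b.repr z 0 * b₁.repr w₀ 1 + b.repr z 1 := by
      conv_lhs => rw [h1, hb0, hb1]
      rw [map_add, map_smul, map_smul, Finsupp.add_apply, Finsupp.smul_apply,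
        Finsupp.smul_apply, b₁.repr_self, Finsupp.single_eq_same, smul_eq_mul, smul_eq_mul,
        mul_one]
    have h3 : b.repr z 1 = b₁.repr z 1 - b.repr z 0 * b₁.repr w₀ 1 := by
      rw [h2]; ring
    rw [h3]
    exact Ideal.sub_mem _ (hb₁I σ hσ v) (Ideal.mul_mem_left _ _ ha1)
  -- the conclusion of `Stmt_FlatInf` at every level
  have hInf : ∀ a : 𝒪, a ≠ 0 → ∀ act : (AlgebraicClosure ℚ ≃ₐ[ℚ] AlgebraicClosure ℚ) →
        (ρ.V ⧸ (Ideal.span {a} • (⊤ : Submodule 𝒪 ρ.V))) →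
        (ρ.V ⧸ (Ideal.span {a} • (⊤ : Submodule 𝒪 ρ.V))),
      (∀ σ v, act σ (Submodule.Quotient.mk v) = Submodule.Quotient.mk (ρ.ρ σ v)) →
      ∃ Inf : AddSubgroup (ρ.V ⧸ (Ideal.span {a} • (⊤ : Submodule 𝒪 ρ.V))),
        (∀ σ ∈ P.inertiaSubgroupIn ℚ, ∀ x, act σ x - x ∈ Inf) ∧
        ∀ N : AddSubgroup (ρ.V ⧸ (Ideal.span {a} • (⊤ : Submodule 𝒪 ρ.V))),
          (∀ σ ∈ P.decompositionSubgroup ℚ, ∀ x ∈ N, act σ x ∈ N) →
          ∀ x ∈ Inf, p • x ∈ N → (∀ σ ∈ P.inertiaSubgroupIn ℚ, act σ x - x ∈ N) → x ∈ N := by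
    intro a ha act hact
    have hfin : Finite (𝒪 ⧸ Ideal.span {a}) := Fermat.Agent.S32.finite_quotient_span_pow ha
    have h1 := ((isFlatAt_iff ρ p).1 hflat).2 (Ideal.span {a}) hfin
    have h2 : act = fun σ => ⇑(ρ.levelAction (Ideal.span {a}) σ) := by
      funext σ x
      obtain ⟨v, rfl⟩ := Submodule.Quotient.mk_surjective _ x
      rw [hact]
      rfl
    rw [h2]
    exact hFI p hp hp2 _ _ h1 P hP
  -- the line is stable under the decomposition group, residually
  have hD : ∀ τ ∈ P.decompositionSubgroup ℚ, b.repr (ρ.ρ τ (b 0)) 1 ∈ maximalIdeal 𝒪 := by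
    intro τ hτ
    set z : ρ.V := ρ.ρ τ (b 0) with hz
    have h1 := eq_repr_smul_add b z
    have h2 : b₁.repr z 1 = b.repr z 0 * b₁.repr w₀ 1 + b.repr z 1 := by
      conv_lhs => rw [h1, hb0, hb1]
      rw [map_add, map_smul, map_smul, Finsupp.add_apply, Finsupp.smul_apply,
        Finsupp.smul_apply, b₁.repr_self, Finsupp.single_eq_same, smul_eq_mul, smul_eq_mul,
        mul_one]
    have h3 : b.repr z 1 = b₁.repr z 1 - b.repr z 0 * b₁.repr w₀ 1 := by
      rw [h2]; ring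
    have h4 : b₁.repr z 1 ∈ maximalIdeal 𝒪 := by
      have h5 : z = b₁.repr w₀ 0 • ρ.ρ τ (b₁ 0) + b₁.repr w₀ 1 • ρ.ρ τ (b₁ 1) := by
        rw [hz, hb0]
        conv_lhs => rw [eq_repr_smul_add b₁ w₀]
        rw [map_add, map_smul, map_smul]
      rw [h5, map_add, map_smul, map_smul, Finsupp.add_apply, Finsupp.smul_apply,
        Finsupp.smul_apply, smul_eq_mul, smul_eq_mul]
      exact Ideal.add_mem _ (Ideal.mul_mem_left _ _ (hb₁D τ hτ)) (Ideal.mul_mem_right _ _ ha1)
    rw [h3]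
    exact Ideal.sub_mem _ h4 (Ideal.mul_mem_left _ _ ha1)
  have hzero : ∀ σ ∈ P.inertiaSubgroupIn ℚ, ∀ v : ρ.V, b.repr (ρ.ρ σ v - v) 1 = 0 :=
    fun σ hσ v => coord_eq_zero_of_inf ρ.ρ P p hp𝒪 b hσ₀ v₀ hb0 hD hI hInf hσ v
  refine ⟨Submodule.span 𝒪 {b 0}, ⟨b, rfl⟩, ?_, ?_⟩
  · intro τ hτ v hv
    obtain ⟨c, rfl⟩ := Submodule.mem_span_singleton.1 hv
    rw [map_smul]
    refine Submodule.smul_mem _ c ?_
    rw [mem_span_basis_zero_iff, hb0]
    have h1 : ρ.ρ τ (ρ.ρ σ₀ v₀ - v₀) = ρ.ρ (τ * σ₀ * τ⁻¹) (ρ.ρ τ v₀) - ρ.ρ τ v₀ := by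
      rw [map_sub]
      congr 1
      rw [← Module.End.mul_apply, ← Module.End.mul_apply, ← map_mul, ← map_mul]
      congr 2
      group
    rw [h1]
    exact hzero _ (conj_mem_inertiaSubgroupIn P hτ hσ₀) _
  · intro σ hσ v
    rw [mem_span_basis_zero_iff]
    exact hzero σ hσ v

end Fermat.Agent.S33.H86

end
-- ==== END Fermat.Agent.S33.H86_FlatOrd
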