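-- GENERATED (merged mirror, NOTES/tools/trim/merge3_helper67.py): 2 modules of the originals, bodies verbatim.
import Mathlib
import Fermat.Prelude.Def_WeierstrassCurve_Mlc1RowStatement
import Fermat.Prelude.Def_WeierstrassCurve_ConductorLevel
import Fermat.Prelude.Def_FLTPrelim_ModularRep
import Fermat.Prelude.Def_FLTPrelim_Modularity
import Fermat.Prelude.Def_GaloisRep_Adic
import Fermat.Prelude.Def_GaloisRep_LocalConditions
import Fermat.Prelude.Def_GaloisRep_StrictOrdinary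
import Fermat.Prelude.Def_GaloisRep_Flat

-- ==== BEGIN Fermat.Agent.S59.Datum.H7_Descent
section

set_option autoImplicit false

namespace Fermat.Agent.S59.Datum.H7

open Matrix

/-- `C = diag(1, -1)`, entrywise. -/
structure IsSign {A : Type*} [CommRing A] (C : Matrix (Fin 2) (Fin 2) A) : Prop where
  h00 : C 0 0 = 1
  h01 : C 0 1 = 0
  h10 : C 1 0 = 0
  h11 : C 1 1 = -1

section Entries

variable {A : Type*} [CommRing A]

/-- The `(0,0)` entry from traces. -/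
theorem entry00_eq (C X : Matrix (Fin 2) (Fin 2) A) (hC : IsSign C) :
    X.trace + (C * X).trace = 2 * X 0 0 := by
  simp only [Matrix.trace_fin_two, Matrix.mul_apply, Fin.sum_univ_two, hC.h00, hC.h01, hC.h10,
    hC.h11]
  ring

/-- The `(1,1)` entry from traces. -/
theorem entry11_eq (C X : Matrix (Fin 2) (Fin 2) A) (hC : IsSign C) :
    X.trace - (C * X).trace = 2 * X 1 1 := by
  simp only [Matrix.trace_fin_two, Matrix.mul_apply, Fin.sum_univ_two, hC.h00, hC.h01, hC.h10,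
    hC.h11]
  ring

/-- A product of off-diagonal entries from traces. -/
theorem entry01_mul_entry10_eq (C X Y : Matrix (Fin 2) (Fin 2) A) (hC : IsSign C) :
    (X * Y).trace - (X * C * Y).trace + (C * X * Y).trace - (C * X * C * Y).trace =
      4 * (X 0 1 * Y 1 0) := by
  simp only [Matrix.trace_fin_two, Matrix.mul_apply, Fin.sum_univ_two, hC.h00, hC.h01, hC.h10,
    hC.h11]
  ring

end Entries

section Descent

variable {T : Type*} [CommRing T] {ι : Type*} {A : ι → Type*} [∀ i, CommRing (A i)]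
  {G : Type*} [Group G]

/-- **Carayol descent, elementary form.** -/
theorem exists_descent (x : ∀ i, T →+* A i) (hinj : ∀ t : T, (∀ i, x i t = 0) → t = 0)
    (h2 : IsUnit (2 : T)) (M : ∀ i, G →* Matrix (Fin 2) (Fin 2) (A i))
    (tr : G → T) (htr : ∀ i g, (M i g).trace = x i (tr g))
    (c : G) (hc : ∀ i, IsSign (M i c))
    (g h : G) (u : T) (hu : IsUnit u) (hgh : ∀ i, M i g 0 1 * M i h 1 0 = x i u) :
    ∃ (R : G →* Matrix (Fin 2) (Fin 2) T) (s : ∀ i, (A i)ˣ),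
      (∀ σ, (R σ).trace = tr σ) ∧
      ∀ i σ, (R σ).map (x i) =
        Matrix.of ![![M i σ 0 0, M i σ 0 1 * (s i : A i)],
          ![M i σ 1 0 * ((s i)⁻¹ : (A i)ˣ), M i σ 1 1]] := by
  classical
  obtain ⟨w2, hw2⟩ := h2.exists_right_inv
  obtain ⟨v, hv⟩ := hu.exists_right_inv
  have hw2' : ∀ i, (2 : A i) * x i w2 = 1 := fun i => by
    have := congrArg (x i) hw2
    rwa [map_mul, map_ofNat, map_one] at this
  -- the units `s i = M i h 1 0`
  have hs : ∀ i, IsUnit (M i h 1 0) := fun i => by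
    have h1 : x i u * x i v = 1 := by rw [← map_mul, hv, map_one]
    rw [← hgh i] at h1
    exact IsUnit.of_mul_eq_one (M i g 0 1 * x i v) (by rw [← h1]; ring)
  let s : ∀ i, (A i)ˣ := fun i => (hs i).unit
  have hsv : ∀ i, ((s i : (A i)ˣ) : A i) = M i h 1 0 := fun i => (hs i).unit_spec
  have hsinv : ∀ i, (((s i)⁻¹ : (A i)ˣ) : A i) = M i g 0 1 * x i v := fun i => by
    apply Units.inv_eq_of_mul_eq_one_right
    rw [hsv]
    have h1 : x i u * x i v = 1 := by rw [← map_mul, hv, map_one]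
    rw [← hgh i] at h1
    rw [← h1]; ring
  -- the entries
  let a : G → T := fun σ => w2 * (tr σ + tr (c * σ))
  let d : G → T := fun σ => w2 * (tr σ - tr (c * σ))
  let b : G → T := fun σ =>
    w2 * w2 * (tr (σ * h) - tr (σ * c * h) + tr (c * σ * h) - tr (c * σ * c * h))
  let e : G → T := fun σ =>
    v * (w2 * w2 * (tr (g * σ) - tr (g * c * σ) + tr (c * g * σ) - tr (c * g * c * σ)))
  have h4 : ∀ i (z : A i), x i w2 * x i w2 * (4 * z) = z := fun i z => by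
    have := hw2' i
    linear_combination (2 * x i w2 * z + z) * this
  have ha : ∀ i σ, x i (a σ) = M i σ 0 0 := fun i σ => by
    simp only [a, map_mul, map_add, ← htr, map_mul (M i)]
    rw [add_comm, add_comm ((M i c * M i σ).trace), entry00_eq _ _ (hc i)]
    linear_combination (M i σ 0 0) * hw2' i
  have hd : ∀ i σ, x i (d σ) = M i σ 1 1 := fun i σ => by
    simp only [d, map_mul, map_sub, ← htr, map_mul (M i)]
    rw [entry11_eq _ _ (hc i)]
    linear_combination (M i σ 1 1) * hw2' i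
  have hb : ∀ i σ, x i (b σ) = M i σ 0 1 * (s i : A i) := fun i σ => by
    simp only [b, map_mul, map_sub, map_add, ← htr, map_mul (M i)]
    rw [entry01_mul_entry10_eq _ _ _ (hc i), h4, hsv]
  have he : ∀ i σ, x i (e σ) = M i σ 1 0 * (((s i)⁻¹ : (A i)ˣ) : A i) := fun i σ => by
    simp only [e, map_mul, map_sub, map_add, ← htr, map_mul (M i)]
    rw [entry01_mul_entry10_eq _ _ _ (hc i), h4, hsinv]
    ring
  let R0 : G → Matrix (Fin 2) (Fin 2) T := fun σ => Matrix.of ![![a σ, b σ], ![e σ, d σ]]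
  have hR0 : ∀ i σ, (R0 σ).map (x i) =
      Matrix.of ![![M i σ 0 0, M i σ 0 1 * (s i : A i)],
          ![M i σ 1 0 * ((s i)⁻¹ : (A i)ˣ), M i σ 1 1]] := by
    intro i σ
    ext j k
    fin_cases j <;> fin_cases k
    · exact ha i σ
    · exact hb i σ
    · exact he i σ
    · exact hd i σ
  have hext : ∀ X Y : Matrix (Fin 2) (Fin 2) T, (∀ i, X.map (x i) = Y.map (x i)) → X = Y := by
    intro X Y hXY
    ext j k
    rw [← sub_eq_zero]
    refine hinj _ fun i => ?_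
    rw [map_sub, sub_eq_zero]
    exact congrFun (congrFun (hXY i) j) k
  have hss : ∀ i, ((s i : (A i)ˣ) : A i) * (((s i)⁻¹ : (A i)ˣ) : A i) = 1 := fun i =>
    Units.mul_inv _
  have hone : R0 1 = 1 := by
    apply hext
    intro i
    rw [hR0, map_one]
    ext j k
    fin_cases j <;> fin_cases k <;> simp
  have hmul : ∀ σ τ, R0 (σ * τ) = R0 σ * R0 τ := by
    intro σ τ
    apply hext
    intro i
    have hm : (R0 σ * R0 τ).map (x i) = (R0 σ).map (x i) * (R0 τ).map (x i) :=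
      Matrix.map_mul
    rw [hm, hR0, hR0, hR0, map_mul]
    ext j k
    fin_cases j <;> fin_cases k
    · simp only [Fin.zero_eta, Fin.isValue, Matrix.mul_apply, Fin.sum_univ_two, Matrix.of_apply,
        Matrix.cons_val_zero, Matrix.cons_val_one]
      linear_combination (-(M i σ 0 1 * M i τ 1 0)) * hss i
    · simp only [Fin.zero_eta, Fin.mk_one, Fin.isValue, Matrix.mul_apply, Fin.sum_univ_two,
        Matrix.of_apply, Matrix.cons_val_zero, Matrix.cons_val_one]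
      ring
    · simp only [Fin.zero_eta, Fin.mk_one, Fin.isValue, Matrix.mul_apply, Fin.sum_univ_two,
        Matrix.of_apply, Matrix.cons_val_zero, Matrix.cons_val_one]
      ring
    · simp only [Fin.mk_one, Fin.isValue, Matrix.mul_apply, Fin.sum_univ_two, Matrix.of_apply,
        Matrix.cons_val_zero, Matrix.cons_val_one]
      linear_combination (-(M i σ 1 0 * M i τ 0 1)) * hss i
  refine ⟨{ toFun := R0, map_one' := hone, map_mul' := hmul }, s, fun σ => ?_, fun i σ => hR0 i σ⟩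
  show (R0 σ).trace = tr σ
  simp only [R0, Matrix.trace_fin_two, Matrix.of_apply, Matrix.cons_val_zero, Matrix.cons_val_one,
    a, d]
  linear_combination (tr σ) * hw2

end Descent

end Fermat.Agent.S59.Datum.H7

end
-- ==== END Fermat.Agent.S59.Datum.H7_Descent

-- ==== BEGIN Fermat.Agent.S59.Wiring
section

/-!
# S59 wiring (helper53), layers 0 and 1

Everything here is hypothesis-parametric: no unfinished statement is imported.

* Layer 0: `S59_of_lift` : frozen S59  ⟸  `Stmt_S58` (frozen type of S58) + `Stmt_Lift`.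
* Layer 1: `lift_of` : `Stmt_Lift`  ⟸  `Stmt_Tate` + `Stmt_MLT` + `Stmt_Stab`.

`Stmt_Tate` : the `p`-adic Galois representation of a semistable curve and its local properties
  (elliptic curve side, cluster E).
`Stmt_MLT`  : the modularity lifting theorem in Galois form (no elliptic curves; clusters T, R, L).
`Stmt_Stab` : stabilisation of a normalised eigenform at a prime not dividing the level.
-/

set_option autoImplicit false

open WeierstrassCurve Polynomial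

namespace Fermat.Agent.S59

/-! ## Layer 0 -/

/-- The frozen type of S58 (conductor-level matching). -/
def Stmt_S58 : Prop :=
  ∀ (W : WeierstrassCurve ℤ) (_hss : W.IsSemistableModel) (N : ℕ)
    (p : ℕ) [Fact p.Prime] (_hp2 : p ≠ 2) (_hirr : W.ModRepIsIrreducible p)
    (_hp2N : ¬ p ^ 2 ∣ N)
    (_hN : W.IsModularModelOfLevel N) (_hbad : ∀ ℓ : ℕ, ℓ.Prime → (ℓ : ℤ) ∣ W.Δ → ℓ ∣ N)
    (_hN3 : ∀ q : ℕ, q.Prime → ¬ q ^ 3 ∣ N),
    W.IsModularModelOfLevel W.conductorLevel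

/-- Modularity lifting for a semistable curve, at SOME admissible level. -/
def Stmt_Lift : Prop :=
  ∀ (p : ℕ), p = 3 ∨ p = 5 → ∀ (W : WeierstrassCurve ℤ), W.Δ ≠ 0 → W.IsSemistableModel →
    W.ModRepIsIrreducible p → ∀ (M₀ : ℕ), M₀ ≠ 0 → W.IsResiduallyModularOfLevel p M₀ →
    ¬ p ^ 2 ∣ M₀ → (∀ q : ℕ, q.Prime → q ≠ p → ¬ q ^ 3 ∣ M₀) →
    ∃ N : ℕ, W.IsModularModelOfLevel N ∧ (∀ ℓ : ℕ, ℓ.Prime → (ℓ : ℤ) ∣ W.Δ → ℓ ∣ N) ∧
      ¬ p ^ 2 ∣ N ∧ ∀ q : ℕ, q.Prime → ¬ q ^ 3 ∣ N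

/-- Layer 0: the frozen statement S59 from S58 and `Stmt_Lift`. -/
theorem S59_of_lift (h58 : Stmt_S58) (hL : Stmt_Lift)
    (p : ℕ) (hp : p = 3 ∨ p = 5)
    (W : WeierstrassCurve ℤ) (hΔ : W.Δ ≠ 0) (hW : W.IsSemistableModel)
    (hirr : W.ModRepIsIrreducible p)
    (M₀ : ℕ) [NeZero M₀] (hres₀ : W.IsResiduallyModularOfLevel p M₀)
    (hM₀ : ¬ p ^ 2 ∣ M₀)
    (hM₀3 : ∀ q : ℕ, q.Prime → q ≠ p → ¬ q ^ 3 ∣ M₀) :
    Mlc1IsModularModelOfExactConductorLevel W := by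
  obtain ⟨N, hmod, hbad, hp2N, hN3⟩ := hL p hp W hΔ hW hirr M₀ (NeZero.ne M₀) hres₀ hM₀ hM₀3
  have hpp : p.Prime := by
    rcases hp with rfl | rfl
    · exact Nat.prime_three
    · exact Nat.prime_five
  have : Fact p.Prime := ⟨hpp⟩
  have hp2 : p ≠ 2 := by
    rcases hp with rfl | rfl <;> norm_num
  refine ⟨W.conductorLevel, W.conductorLevel_pos, W.squarefree_conductorLevel,
    fun q hq => W.prime_dvd_conductorLevel_iff hΔ hq, ?_⟩
  exact h58 W hW N p hp2 hirr hp2N hmod hbad hN3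

/-! ## Layer 1 -/

/-- The Taylor–Wiles condition on a residual representation: absolutely irreducible on every
subgroup of index 2 (in the shape of the hypothesis `hTW` of S56). -/
def TWCond {k : Type} [Field k] (ρbar : ResidualGaloisRep k) : Prop :=
  ∀ (K : Type) [Field K] [Algebra k K]
    (G : Subgroup (AlgebraicClosure ℚ ≃ₐ[ℚ] AlgebraicClosure ℚ)), G.index = 2 →
    ∀ V : Submodule K (ρbar.baseChange K).V,
      (∀ σ ∈ G, ∀ x ∈ V, (ρbar.baseChange K).ρ σ x ∈ V) → V = ⊥ ∨ V = ⊤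

/-- **Stmt_Tate** (elliptic curve side): a semistable integral Weierstrass curve has a `p`-adic
Galois representation (its Tate module, over a complete DVR `𝒪` of characteristic `0` with finite
residue field of characteristic `p`) which
* has cyclotomic determinant,
* is unramified at the good primes `q ≠ p`, with Frobenius characteristic polynomial
  `X² - a_q X + q` there,
* is unipotent on inertia at all `q ≠ p`,
* is flat at `p` if `p` is good, strictly ordinary at `p` if `p` is bad,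
* is residually absolutely irreducible, with the Taylor–Wiles condition, if `E[p]` is
  irreducible. -/
def Stmt_Tate : Prop :=
  ∀ (p : ℕ) [Fact p.Prime], p ≠ 2 → ∀ (W : WeierstrassCurve ℤ), W.Δ ≠ 0 →
    W.IsSemistableModel →
    ∃ (𝒪 : Type) (_ : CommRing 𝒪) (_ : IsDomain 𝒪) (_ : IsDiscreteValuationRing 𝒪)
      (_ : IsAdicComplete (IsLocalRing.maximalIdeal 𝒪) 𝒪)
      (_ : Finite (IsLocalRing.ResidueField 𝒪)) (_ : CharZero 𝒪)
      (ρ : GaloisRepAdic 𝒪),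
      ρ.DetIsCyclotomic p ∧
      (∀ q : ℕ, q.Prime → q ≠ p → W.IsGoodPrimeFor q → ρ.IsUnramifiedAt q) ∧
      (∀ q : ℕ, q.Prime → q ≠ p → ρ.IsUnipotentOnInertiaAt q) ∧
      (W.IsGoodPrimeFor p → ρ.IsFlatAt p) ∧
      (¬ W.IsGoodPrimeFor p → ρ.IsStrictOrdinaryAt p) ∧
      (∀ ℓ : ℕ, ℓ.Prime → ℓ ≠ p → W.IsGoodPrimeFor ℓ →
        ∀ A : ValuationSubring (AlgebraicClosure ℚ), A.LiesOverPrime ℓ →
          ∀ σ : AlgebraicClosure ℚ ≃ₐ[ℚ] AlgebraicClosure ℚ, A.IsFrobeniusAt σ ℓ →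
            LinearMap.charpoly (ρ.ρ σ) =
              X ^ 2 - C (((W.apOfModel ℓ : ℤ) : 𝒪)) * X + C ((ℓ : 𝒪))) ∧
      (W.ModRepIsIrreducible p → ρ.residual.IsAbsolutelyIrreducible ∧ TWCond ρ.residual)

/-- **Stmt_MLT** (modularity lifting, Galois form): a `p`-adic representation `ρ` with integral
Frobenius traces `a ℓ` outside `Σ ∪ {p}`, cyclotomic determinant, unramified outside `Σ ∪ {p}`,
unipotent on inertia at `Σ`, flat or strictly ordinary at `p`, whose residual representation is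
absolutely irreducible, satisfies the Taylor–Wiles condition and is modular (the `a ℓ` are
congruent to the eigenvalues of a normalised eigenform `f₀` of a level `M₀` with `p² ∤ M₀`,
cube-free away from `p`), is modular: the `a ℓ` (`ℓ ∤ N`, `ℓ ∉ Σ ∪ {p}`) are the eigenvalues of a
normalised eigenform of a cube-free level `N` with `p² ∤ N`.  (No condition on the support of
`N`: S58 removes superfluous primes afterwards.) -/
def Stmt_MLT : Prop :=
  ∀ (p : ℕ) [Fact p.Prime], p ≠ 2 →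
  ∀ (𝒪 : Type) [CommRing 𝒪] [IsDomain 𝒪] [IsDiscreteValuationRing 𝒪]
    [IsAdicComplete (IsLocalRing.maximalIdeal 𝒪) 𝒪] [Finite (IsLocalRing.ResidueField 𝒪)]
    [CharZero 𝒪] (ρ : GaloisRepAdic 𝒪) (a : ℕ → ℤ) (Sig : Finset ℕ),
    (∀ q ∈ Sig, q.Prime ∧ q ≠ p) →
    ρ.DetIsCyclotomic p →
    (∀ q : ℕ, q.Prime → q ≠ p → q ∉ Sig → ρ.IsUnramifiedAt q) →
    (∀ q ∈ Sig, ρ.IsUnipotentOnInertiaAt q) →
    (ρ.IsFlatAt p ∨ ρ.IsStrictOrdinaryAt p) →
    (∀ ℓ : ℕ, ℓ.Prime → ℓ ≠ p → ℓ ∉ Sig →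
      ∀ A : ValuationSubring (AlgebraicClosure ℚ), A.LiesOverPrime ℓ →
        ∀ σ : AlgebraicClosure ℚ ≃ₐ[ℚ] AlgebraicClosure ℚ, A.IsFrobeniusAt σ ℓ →
          LinearMap.charpoly (ρ.ρ σ) = X ^ 2 - C (((a ℓ : ℤ) : 𝒪)) * X + C ((ℓ : 𝒪))) →
    ρ.residual.IsAbsolutelyIrreducible → TWCond ρ.residual →
    ∀ (M₀ : ℕ), M₀ ≠ 0 → ¬ p ^ 2 ∣ M₀ → (∀ q : ℕ, q.Prime → q ≠ p → ¬ q ^ 3 ∣ M₀) →
    ∀ (f₀ : CuspForm (CongruenceSubgroup.Gamma0 M₀) 2) (𝔪 : Ideal (integralClosure ℤ ℂ)),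
      f₀.IsNormalizedEigenform → 𝔪.IsMaximal → (p : integralClosure ℤ ℂ) ∈ 𝔪 →
      (∀ ℓ : ℕ, ℓ.Prime → ℓ ∉ Sig → ¬ ℓ ∣ M₀ → ℓ ≠ p →
        ∃ b : integralClosure ℤ ℂ, (b : ℂ) = ModularFormClass.qCoeff f₀ ℓ ∧
          b - ((a ℓ : ℤ) : integralClosure ℤ ℂ) ∈ 𝔪) →
    ∃ N : ℕ, ¬ p ^ 2 ∣ N ∧ (∀ q : ℕ, q.Prime → ¬ q ^ 3 ∣ N) ∧
      ∃ f : CuspForm (CongruenceSubgroup.Gamma0 N) 2, f.IsNormalizedEigenform ∧
        ∀ ℓ : ℕ, ℓ.Prime → ℓ ≠ p → ℓ ∉ Sig → ¬ ℓ ∣ N →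
          ModularFormClass.qCoeff f ℓ = (a ℓ : ℂ)

/-- **Stmt_Stab** (stabilisation): a normalised eigenform of level `N` and a prime `q ∤ N` give a
normalised eigenform of level `N q` with the same coefficients at all primes `ℓ ≠ q`
(`g = f - β f(q z)`, `β` a root of `X² - a_q X + q`). -/
def Stmt_Stab : Prop :=
  ∀ (N q : ℕ), q.Prime → ¬ q ∣ N →
    ∀ f : CuspForm (CongruenceSubgroup.Gamma0 N) 2, f.IsNormalizedEigenform →
      ∃ g : CuspForm (CongruenceSubgroup.Gamma0 (N * q)) 2, g.IsNormalizedEigenform ∧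
        ∀ ℓ : ℕ, ℓ.Prime → ℓ ≠ q → ModularFormClass.qCoeff g ℓ = ModularFormClass.qCoeff f ℓ

/-- Iterated stabilisation at a finite set of primes. -/
theorem stab_finset (hS : Stmt_Stab) (s : Finset ℕ) :
    ∀ (N : ℕ) (f : CuspForm (CongruenceSubgroup.Gamma0 N) 2), f.IsNormalizedEigenform →
      (∀ q ∈ s, q.Prime ∧ ¬ q ∣ N) →
      ∃ g : CuspForm (CongruenceSubgroup.Gamma0 (N * ∏ q ∈ s, q)) 2, g.IsNormalizedEigenform ∧
        ∀ ℓ : ℕ, ℓ.Prime → ℓ ∉ s →
          ModularFormClass.qCoeff g ℓ = ModularFormClass.qCoeff f ℓ := by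
  classical
  induction s using Finset.induction_on with
  | empty =>
    intro N f hf _
    have e : N * ∏ q ∈ (∅ : Finset ℕ), q = N := by simp
    rw [e]
    exact ⟨f, hf, fun _ _ _ => rfl⟩
  | insert q s hqs ih =>
    intro N f hf hs
    have hq := hs q (Finset.mem_insert_self q s)
    obtain ⟨g, hg, hgf⟩ := hS N q hq.1 hq.2 f hf
    have hs' : ∀ r ∈ s, r.Prime ∧ ¬ r ∣ N * q := by
      intro r hr
      have hr' := hs r (Finset.mem_insert_of_mem hr)
      refine ⟨hr'.1, fun hdvd => ?_⟩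
      rcases (Nat.Prime.dvd_mul hr'.1).1 hdvd with h | h
      · exact hr'.2 h
      · have : r = q := (Nat.prime_dvd_prime_iff_eq hr'.1 hq.1).1 h
        exact hqs (this ▸ hr)
    obtain ⟨g', hg', hg'g⟩ := ih (N * q) g hg hs'
    have e : N * ∏ r ∈ insert q s, r = N * q * ∏ r ∈ s, r := by
      rw [Finset.prod_insert hqs, mul_assoc]
    rw [e]
    refine ⟨g', hg', fun ℓ hℓ hℓs => ?_⟩
    have h1 : ℓ ∉ s := fun h => hℓs (Finset.mem_insert_of_mem h)
    have h2 : ℓ ≠ q := fun h => hℓs (h ▸ Finset.mem_insert_self _ _)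
    rw [hg'g ℓ hℓ h1, hgf ℓ hℓ h2]

/-- Layer 1: `Stmt_Lift` from the Tate module, the modularity lifting theorem and
stabilisation. -/
theorem lift_of (hT : Stmt_Tate) (hM : Stmt_MLT) (hS : Stmt_Stab) : Stmt_Lift := by
  classical
  intro p hp W hΔ hW hirr M₀ hM₀ne hres hM₀ hM₀3
  have hpp : p.Prime := by
    rcases hp with rfl | rfl
    · exact Nat.prime_three
    · exact Nat.prime_five
  have : Fact p.Prime := ⟨hpp⟩
  have hp2 : p ≠ 2 := by
    rcases hp with rfl | rfl <;> norm_num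
  obtain ⟨𝒪, i1, i2, i3, i4, i5, i6, ρ, hdet, hunr, hunip, hflat, hord, hfrob, hres'⟩ :=
    hT p hp2 W hΔ hW
  obtain ⟨habs, hTW⟩ := hres' hirr
  obtain ⟨f₀, 𝔪, hf₀, h𝔪, hp𝔪, hcong⟩ := hres
  -- the set of bad primes different from `p`
  set Sig : Finset ℕ := (W.Δ.natAbs.primeFactors).erase p with hSig
  have hnat : W.Δ.natAbs ≠ 0 := Int.natAbs_ne_zero.mpr hΔ
  have hmemSig : ∀ q : ℕ, q ∈ Sig ↔ q.Prime ∧ q ≠ p ∧ (q : ℤ) ∣ W.Δ := by
    intro q
    rw [hSig, Finset.mem_erase, Nat.mem_primeFactors]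
    constructor
    · rintro ⟨h1, h2, h3, -⟩
      exact ⟨h2, h1, Int.natCast_dvd.mpr h3⟩
    · rintro ⟨h1, h2, h3⟩
      exact ⟨h2, h1, Int.natCast_dvd.mp h3, hnat⟩
  have hgood : ∀ q : ℕ, q.Prime → q ≠ p → q ∉ Sig → W.IsGoodPrimeFor q := by
    intro q hq hqp hqS hdvd
    exact hqS ((hmemSig q).2 ⟨hq, hqp, hdvd⟩)
  have hloc : ρ.IsFlatAt p ∨ ρ.IsStrictOrdinaryAt p := by
    by_cases hg : W.IsGoodPrimeFor p
    · exact Or.inl (hflat hg)
    · exact Or.inr (hord hg)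
  obtain ⟨N₁, hN₁p, hN₁3, f₁, hf₁, hf₁a⟩ :=
    hM p hp2 𝒪 ρ (fun ℓ => W.apOfModel ℓ) Sig
      (fun q hq => ⟨((hmemSig q).1 hq).1, ((hmemSig q).1 hq).2.1⟩)
      hdet
      (fun q hq hqp hqS => hunr q hq hqp (hgood q hq hqp hqS))
      (fun q hq => hunip q ((hmemSig q).1 hq).1 ((hmemSig q).1 hq).2.1)
      hloc
      (fun ℓ hℓ hℓp hℓS A hA σ hσ => hfrob ℓ hℓ hℓp (hgood ℓ hℓ hℓp hℓS) A hA σ hσ)
      habs hTW M₀ hM₀ne hM₀ hM₀3 f₀ 𝔪 hf₀ h𝔪 hp𝔪
      (fun ℓ hℓ hℓS hℓM hℓp => hcong ℓ hℓ (hgood ℓ hℓ hℓp hℓS) hℓM hℓp)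
  -- add the missing primes of `Sig ∪ {p}` to the level
  set s : Finset ℕ := (insert p Sig).filter (fun q => ¬ q ∣ N₁) with hs
  have hsprime : ∀ q ∈ s, q.Prime ∧ ¬ q ∣ N₁ := by
    intro q hq
    rw [hs, Finset.mem_filter, Finset.mem_insert] at hq
    refine ⟨?_, hq.2⟩
    rcases hq.1 with rfl | h
    · exact hpp
    · exact ((hmemSig q).1 h).1
  obtain ⟨P, hP⟩ : ∃ P : ℕ, P = ∏ q ∈ s, q := ⟨_, rfl⟩
  obtain ⟨g, hg, hgf⟩ : ∃ g : CuspForm (CongruenceSubgroup.Gamma0 (N₁ * P)) 2,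
      g.IsNormalizedEigenform ∧ ∀ ℓ : ℕ, ℓ.Prime → ℓ ∉ s →
        ModularFormClass.qCoeff g ℓ = ModularFormClass.qCoeff f₁ ℓ := by
    rw [hP]
    exact stab_finset hS s N₁ f₁ hf₁ hsprime
  have hN₁ne : N₁ ≠ 0 := by
    rintro rfl
    exact hN₁3 2 Nat.prime_two (dvd_zero _)
  have hPsq : Squarefree P := by
    rw [hP]
    refine Finset.squarefree_prod_of_pairwise_isCoprime ?_ ?_
    · intro a ha b hb hab
      exact Nat.coprime_iff_isRelPrime.mp
        ((Nat.coprime_primes (hsprime a ha).1 (hsprime b hb).1).2 hab)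
    · intro a ha
      exact (hsprime a ha).1.squarefree
  have hPcop : Nat.Coprime N₁ P := by
    rw [hP]
    refine Nat.Coprime.prod_right fun q hq => ?_
    exact (Nat.Coprime.symm ((Nat.Prime.coprime_iff_not_dvd (hsprime q hq).1).2 (hsprime q hq).2))
  -- divisibility of the new level by the primes of `Sig ∪ {p}`
  have hdvdN : ∀ q ∈ insert p Sig, q ∣ N₁ * P := by
    intro q hq
    by_cases hqN : q ∣ N₁
    · exact Dvd.dvd.mul_right hqN _
    · refine Dvd.dvd.mul_left ?_ _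
      rw [hP]
      exact Finset.dvd_prod_of_mem _ (Finset.mem_filter.2 ⟨hq, hqN⟩)
  -- prime powers dividing the new level
  have hpow : ∀ (q : ℕ) (k : ℕ), q.Prime → 2 ≤ k → q ^ k ∣ N₁ * P → q ^ k ∣ N₁ := by
    intro q k hq hk hdvd
    by_cases hqP : q ∣ P
    · -- then `q ∤ N₁`, so `q ^ k ∣ P`, against squarefreeness
      exfalso
      have hqN : ¬ q ∣ N₁ := fun h =>
        (Nat.Prime.one_lt hq).ne' (Nat.eq_one_of_dvd_coprimes hPcop h hqP)
      have hcop : Nat.Coprime (q ^ k) N₁ :=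
        Nat.Coprime.pow_left k ((Nat.Prime.coprime_iff_not_dvd hq).2 hqN)
      have h1 : q ^ k ∣ P := hcop.dvd_of_dvd_mul_left hdvd
      have h2 : q * q ∣ P := Dvd.dvd.trans ⟨q ^ (k - 2), by
        rw [← pow_two, ← pow_add]; congr 1; omega⟩ h1
      exact hq.one_lt.ne' (Nat.isUnit_iff.mp (hPsq q h2))
    · have hcop : Nat.Coprime (q ^ k) P :=
        Nat.Coprime.pow_left k ((Nat.Prime.coprime_iff_not_dvd hq).2 hqP)
      exact hcop.dvd_of_dvd_mul_right hdvd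
  refine ⟨N₁ * P, ⟨g, hg, ?_⟩, ?_, ?_, ?_⟩
  · intro ℓ hℓ hℓgood hℓN
    have hℓp : ℓ ≠ p := by
      rintro rfl
      exact hℓN (hdvdN _ (Finset.mem_insert_self _ _))
    have hℓS : ℓ ∉ Sig := fun h => hℓgood ((hmemSig ℓ).1 h).2.2
    have hℓs : ℓ ∉ s := fun h => by
      rw [hs, Finset.mem_filter, Finset.mem_insert] at h
      rcases h.1 with h' | h'
      · exact hℓp h'
      · exact hℓS h'
    rw [hgf ℓ hℓ hℓs, hf₁a ℓ hℓ hℓp hℓS (fun h => hℓN (Dvd.dvd.mul_right h _))]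
  · intro ℓ hℓ hdvd
    by_cases hℓp : ℓ = p
    · subst hℓp
      exact hdvdN _ (Finset.mem_insert_self _ _)
    · exact hdvdN _ (Finset.mem_insert_of_mem ((hmemSig ℓ).2 ⟨hℓ, hℓp, hdvd⟩))
  · intro h
    exact hN₁p (hpow p 2 hpp le_rfl h)
  · intro q hq h
    exact hN₁3 q hq (hpow q 3 hq (by norm_num) h)

/-- Layers 0 and 1 together. -/
theorem S59_of (h58 : Stmt_S58) (hT : Stmt_Tate) (hM : Stmt_MLT) (hS : Stmt_Stab)
    (p : ℕ) (hp : p = 3 ∨ p = 5)
    (W : WeierstrassCurve ℤ) (hΔ : W.Δ ≠ 0) (hW : W.IsSemistableModel)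
    (hirr : W.ModRepIsIrreducible p)
    (M₀ : ℕ) [NeZero M₀] (hres₀ : W.IsResiduallyModularOfLevel p M₀)
    (hM₀ : ¬ p ^ 2 ∣ M₀)
    (hM₀3 : ∀ q : ℕ, q.Prime → q ≠ p → ¬ q ^ 3 ∣ M₀) :
    Mlc1IsModularModelOfExactConductorLevel W :=
  S59_of_lift h58 (lift_of hT hM hS) p hp W hΔ hW hirr M₀ hres₀ hM₀ hM₀3

end Fermat.Agent.S59

end
-- ==== END Fermat.Agent.S59.Wiring
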