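-- GENERATED (merged mirror, NOTES/tools/trim/merge3_helper67.py): 8 modules of the originals, bodies verbatim.
import Fermat.Agent.Zm.S56_L08_001
import Fermat.Agent.Zm.S56_L03_003
import Fermat.Agent.Zm.S56_L01_003
import Fermat.Agent.Zm.S56_L08_002
import Fermat.Agent.Zm.S56_L02_001
import Fermat.Agent.Zm.S56_L07_003
import Fermat.Agent.Zm.S56_L07_002
import Fermat.Agent.Zm.S56_L04_003
import Fermat.Agent.Zm.S56_L06_003
import Fermat.Agent.Zm.S56_L06_002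
import Fermat.Agent.Zm.S56_L05_003
import Fermat.Agent.Zm.S56_L08_003
import Fermat.Agent.S55.Top.H48_PTCount

-- ==== BEGIN Fermat.Agent.S55.CFT.GS.H24_LocCount
section

set_option autoImplicit false
set_option linter.unusedSectionVars false
set_option linter.unusedVariables false
set_option linter.style.haveILetI false

open CategoryTheory Module groupCohomology ExtCitation

noncomputable section

namespace Fermat.Agent.S55.CFT.GS.H24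

open Fermat.Agent.S55 Fermat.Agent.S55.Top Fermat.Agent.S55.CFT.GS

local notation "Qb" => AlgebraicClosure ℚ

section loc

variable {p : ℕ} [Fact p.Prime] {S : Finset Nat.Primes} {K : IntermediateField ℚ Qb}
  (𝔓 : PlaceSys S K)

/-- The index type of the places of `K` over `S`. -/
abbrev PlI : Type := Σ q : ↥S, 𝔓.W q

/-- There is a place over `p`. -/
theorem exists_place (hp : pPrime p ∈ S) : Nonempty (PlI 𝔓) :=
  ⟨⟨⟨pPrime p, hp⟩, @OrbitData.o _ _ _ (locAct K (pPrime p)) _ (𝔓.loc ⟨pPrime p, hp⟩) (x0 K)⟩⟩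

variable (p) in
/-- The cochains which are locally a coboundary at the place `i`. -/
def Zi (i : PlI 𝔓) : AddSubgroup (↥K.fixingSubgroup × ↥K.fixingSubgroup → ZMod p) where
  carrier := {a | 𝔓.res₂ i.1 i.2 a ∈ B2w (ZMod p) 𝔓 i.1 i.2}
  add_mem' := by
    intro a a' ha ha'
    show 𝔓.res₂ i.1 i.2 (a + a') ∈ B2w (ZMod p) 𝔓 i.1 i.2
    rw [res₂_add]
    exact (B2w (ZMod p) 𝔓 i.1 i.2).add_mem ha ha'
  zero_mem' := (B2w (ZMod p) 𝔓 i.1 i.2).zero_mem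
  neg_mem' := by
    intro a ha
    show 𝔓.res₂ i.1 i.2 (-a) ∈ B2w (ZMod p) 𝔓 i.1 i.2
    have : 𝔓.res₂ i.1 i.2 (-a) = -(𝔓.res₂ i.1 i.2 a) := rfl
    rw [this]
    exact (B2w (ZMod p) 𝔓 i.1 i.2).neg_mem ha

theorem mem_Zi (i : PlI 𝔓) (a : ↥K.fixingSubgroup × ↥K.fixingSubgroup → ZMod p) :
    a ∈ Zi p 𝔓 i ↔ 𝔓.res₂ i.1 i.2 a ∈ B2w (ZMod p) 𝔓 i.1 i.2 := Iff.rfl

/-- The localisation homomorphism at the place `i`. -/
def locHomI (i : PlI 𝔓) :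
    ↥((Z2K (ZMod p) S K).toAddSubgroup) →+ H2w (ZMod p) 𝔓 i.1 i.2 where
  toFun a := Submodule.Quotient.mk
    (⟨𝔓.res₂ i.1 i.2 (a : ↥K.fixingSubgroup × ↥K.fixingSubgroup → ZMod p),
      res₂_mem_Z2w 𝔓 i.1 i.2 a.2⟩ : ↥(Z2w (ZMod p) 𝔓 i.1 i.2))
  map_zero' := rfl
  map_add' := by
    intro a a'
    rfl

theorem ker_locHomI (i : PlI 𝔓) :
    (locHomI (p := p) 𝔓 i).ker = (Zi p 𝔓 i).addSubgroupOf (Z2K (ZMod p) S K).toAddSubgroup := by
  ext a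
  rw [AddMonoidHom.mem_ker, AddSubgroup.mem_addSubgroupOf, mem_Zi]
  show Submodule.Quotient.mk _ = 0 ↔ _
  rw [Submodule.Quotient.mk_eq_zero]
  rfl

theorem card_H2w (i : PlI 𝔓)
    (h1 : Module.finrank (ZMod p) (H2w (ZMod p) 𝔓 i.1 i.2) = 1) :
    Finite (H2w (ZMod p) 𝔓 i.1 i.2) ∧ Nat.card (H2w (ZMod p) 𝔓 i.1 i.2) = p := by
  haveI : Module.Finite (ZMod p) (H2w (ZMod p) 𝔓 i.1 i.2) := by
    apply Module.finite_of_finrank_pos
    rw [h1]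
    exact Nat.one_pos
  refine ⟨Module.finite_of_finite (ZMod p), ?_⟩
  rw [Module.natCard_eq_pow_finrank (K := ZMod p), h1, pow_one, Nat.card_zmod]

theorem relIndex_Zi (i : PlI 𝔓)
    (h1 : Module.finrank (ZMod p) (H2w (ZMod p) 𝔓 i.1 i.2) = 1) :
    (Zi p 𝔓 i).relIndex (Z2K (ZMod p) S K).toAddSubgroup ≠ 0 ∧
      (Zi p 𝔓 i).relIndex (Z2K (ZMod p) S K).toAddSubgroup ≤ p := by
  obtain ⟨hfin, hcard⟩ := card_H2w 𝔓 i h1
  have hidx : (Zi p 𝔓 i).relIndex (Z2K (ZMod p) S K).toAddSubgroup =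
      Nat.card ↥(locHomI (p := p) 𝔓 i).range := by
    rw [← AddSubgroup.index_ker, ker_locHomI]
    rfl
  rw [hidx]
  constructor
  · exact Nat.card_pos.ne'
  · have := Nat.card_le_card_of_injective
      (fun x : ↥(locHomI (p := p) 𝔓 i).range => (x : H2w (ZMod p) 𝔓 i.1 i.2))
      Subtype.val_injective
    exact this.trans hcard.le

/-- `ZL` is the intersection of `Z²_S` with the `Z_i`, `i ≠ i₀`. -/
theorem ZL_eq_iInf (hOne : Stmt_GS_One) (hp2 : p ≠ 2) (hp : pPrime p ∈ S)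
    (hK : IsBaseField S p K) (i₀ : PlI 𝔓) :
    (ZL (ZMod p) 𝔓).toAddSubgroup =
      (⨅ i : {i : PlI 𝔓 // i ≠ i₀}, Zi p 𝔓 i.1) ⊓ (Z2K (ZMod p) S K).toAddSubgroup := by
  ext a
  rw [AddSubgroup.mem_inf, AddSubgroup.mem_iInf]
  constructor
  · intro ha
    exact ⟨fun i => ha.2 i.1.1 i.1.2, ha.1⟩
  · rintro ⟨h1, h2⟩
    refine ⟨h2, ?_⟩
    have h3 : ∀ (q : ↥S) (w : 𝔓.W q), (⟨q, w⟩ : Σ q : ↥S, 𝔓.W q) ≠ ⟨i₀.1, i₀.2⟩ →
        𝔓.res₂ q w a ∈ B2w (ZMod p) 𝔓 q w := by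
      intro q w hne
      exact h1 ⟨⟨q, w⟩, hne⟩
    have h4 := hOne p hp2 S hp K hK 𝔓 a h2 i₀.1 i₀.2 h3
    intro q w
    by_cases h : (⟨q, w⟩ : Σ q : ↥S, 𝔓.W q) = ⟨i₀.1, i₀.2⟩
    · have e : (⟨q, w⟩ : PlI 𝔓) = i₀ := h
      have h5 : a ∈ Zi p 𝔓 i₀ := h4
      rw [← e] at h5
      exact h5
    · exact h3 q w h

/-- `[Z²_S : ZL] ≤ p ^ m` with `m + 1 ≤ #V`; the index is finite. -/
theorem relIndex_ZL (hOne : Stmt_GS_One) (hp2 : p ≠ 2) (hp : pPrime p ∈ S)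
    (hK : IsBaseField S p K)
    (h1 : ∀ (q : ↥S) (w : 𝔓.W q), Module.finrank (ZMod p) (H2w (ZMod p) 𝔓 q w) = 1) :
    (ZL (ZMod p) 𝔓).toAddSubgroup.relIndex (Z2K (ZMod p) S K).toAddSubgroup ≠ 0 ∧
    ∃ m : ℕ, m + 1 ≤ nPl 𝔓 ∧
      (ZL (ZMod p) 𝔓).toAddSubgroup.relIndex (Z2K (ZMod p) S K).toAddSubgroup ≤ p ^ m := by
  classical
  letI : ∀ q, Fintype (𝔓.W q) := 𝔓.fin
  obtain ⟨i₀⟩ := exists_place 𝔓 hp
  rw [ZL_eq_iInf 𝔓 hOne hp2 hp hK i₀, AddSubgroup.inf_relIndex_right]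
  constructor
  · exact AddSubgroup.relIndex_iInf_ne_zero (fun i => (relIndex_Zi 𝔓 i.1 (h1 _ _)).1)
  · refine ⟨Fintype.card {i : PlI 𝔓 // i ≠ i₀}, ?_, ?_⟩
    · have hlt : Fintype.card {i : PlI 𝔓 // i ≠ i₀} < Fintype.card (PlI 𝔓) :=
        Fintype.card_subtype_lt (x := i₀) (fun h => h rfl)
      have hc : Fintype.card (PlI 𝔓) = nPl 𝔓 := by
        rw [Fintype.card_sigma]
        rfl
      omega
    · refine (AddSubgroup.relIndex_iInf_le _).trans ?_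
      have := Finset.prod_le_pow_card (Finset.univ : Finset {i : PlI 𝔓 // i ≠ i₀})
        (fun i => (Zi p 𝔓 i.1).relIndex (Z2K (ZMod p) S K).toAddSubgroup) p
        (fun i _ => (relIndex_Zi 𝔓 i.1 (h1 _ _)).2)
      simpa using this

end loc

end Fermat.Agent.S55.CFT.GS.H24

end

end
-- ==== END Fermat.Agent.S55.CFT.GS.H24_LocCount

-- ==== BEGIN Fermat.Agent.S55.CFT.LOC.H58_H2Le
section

/-!
# CFT LOC-4b (helper58): the second inequality for local `p`-extensions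

`stmt_LocalH2Le : Stmt_LocalH2Le`: for `E/F` Galois with `p`-group `G` (finite extensions of
`ℚ_q`), `H²(G, Eˣ)` is finite of order at most `[E : F]`.

Induction on `#G` over the base field: for `N` normal of index `p` and `M = E^N`, the layer lemma
(`H58.card_H2_dvd`) gives `#H²(G, Eˣ) ∣ [Fˣ : N_{M/F} Mˣ] · #H²(N, Eˣ)`, using Hilbert 90 for
`E/M`; the index is `p` by the local norm index (LOC-3, helper68).
-/

set_option autoImplicit false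
set_option linter.unusedSectionVars false

noncomputable section

namespace Fermat.Agent.S55.CFT.LOC.H58

open CategoryTheory CategoryTheory.Limits groupCohomology IntermediateField

section Transport

variable {F E : Type} [Field F] [Field E] [Algebra F E] [FiniteDimensional F E]

/-- `N ≃* Gal(E / E^N)`. -/
def subgroupEquivGal (N : Subgroup (E ≃ₐ[F] E)) : N ≃* (E ≃ₐ[fixedField N] E) :=
  (MulEquiv.subgroupCongr (fixingSubgroup_fixedField N).symm).trans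
    (fixingSubgroupEquiv (fixedField N))

lemma subgroupEquivGal_apply (N : Subgroup (E ≃ₐ[F] E)) (n : N) (x : E) :
    subgroupEquivGal N n x = n.1 x := rfl

/-- `Hⁿ(N, Eˣ) ≅ Hⁿ(Gal(E / E^N), Eˣ)`. -/
def resIso (N : Subgroup (E ≃ₐ[F] E)) (n : ℕ) :
    groupCohomology (Rep.res N.subtype (unitsRep F E)) n ≅
      groupCohomology (unitsRep (fixedField N) E) n :=
  mapIso (B := Rep.res N.subtype (unitsRep F E)) (A := unitsRep (fixedField N) E)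
    (subgroupEquivGal N) (LinearEquiv.refl ℤ (Additive Eˣ)) (fun g => by
      ext a
      rfl) n

end Transport

section Layer

/-- One layer: `N` normal of prime index `p` in `G = Gal(E/F)`, `M = E^N`:
`#H²(G, Eˣ) ≤ p · #H²(Gal(E/M), Eˣ)`. -/
theorem card_H2_le_layer (q : ℕ) [Fact q.Prime] {F E : Type} [Field F] [Field E]
    [Algebra ℚ_[q] F] [FiniteDimensional ℚ_[q] F] [Algebra F E] [FiniteDimensional F E]
    [IsGalois F E] (p : ℕ) (hp : p.Prime) (N : Subgroup (E ≃ₐ[F] E)) [N.Normal]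
    (hidx : N.index = p) [Finite (groupCohomology (unitsRep (fixedField N) E) 2)] :
    Finite (groupCohomology (unitsRep F E) 2) ∧
      Nat.card (groupCohomology (unitsRep F E) 2) ≤
        p * Nat.card (groupCohomology (unitsRep (fixedField N) E) 2) := by
  classical
  have : Fact p.Prime := ⟨hp⟩
  have hcardQ : Nat.card ((E ≃ₐ[F] E) ⧸ N) = p := by rw [← Subgroup.index_eq_card, hidx]
  have hcyc : IsCyclic ((E ≃ₐ[F] E) ⧸ N) := isCyclic_of_prime_card hcardQ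
  obtain ⟨c, hc⟩ := hcyc.exists_generator
  let _ : Fintype ((E ≃ₐ[F] E) ⧸ N) := Fintype.ofFinite _
  -- Hilbert 90 for `E / M`
  have h1 : IsZero (groupCohomology (Rep.res N.subtype (unitsRep F E)) 1) := by
    have hU : Subsingleton (groupCohomology (unitsRep (fixedField N) E) 1) :=
      (groupCohomology.H1ofAutOnUnitsUnique (fixedField N) E).instSubsingleton
    exact (ModuleCat.isZero_of_subsingleton _).of_iso (resIso N 1)
  -- finiteness of `H²(N, Eˣ)`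
  have e2 : groupCohomology (Rep.res N.subtype (unitsRep F E)) 2 ≃ₗ[ℤ]
      groupCohomology (unitsRep (fixedField N) E) 2 := (resIso N 2).toLinearEquiv
  have hfin2 : Finite (groupCohomology (Rep.res N.subtype (unitsRep F E)) 2) :=
    Finite.of_equiv _ e2.symm.toEquiv
  -- the norm index of `M / F`
  have hdeg : Module.finrank F (fixedField N) = p := by
    rw [← IsGalois.card_aut_eq_finrank, ← Nat.card_congr (IsGalois.normalAutEquivQuotient N).toEquiv,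
      hcardQ]
  have hindex : (normSubgroup F (fixedField N)).index = p :=
    H68.stmt_LocalNormIndex q F (fixedField N) p hp hdeg
  have hFI : (normSubgroup F (fixedField N)).FiniteIndex := ⟨by rw [hindex]; exact hp.ne_zero⟩
  have hfinQ : Finite (Additive (Fˣ ⧸ normSubgroup F (fixedField N))) :=
    inferInstanceAs (Finite (Fˣ ⧸ normSubgroup F (fixedField N)))
  have hcardQ' : Nat.card (Additive (Fˣ ⧸ normSubgroup F (fixedField N))) = p := by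
    rw [← hindex, Subgroup.index_eq_card]
    rfl
  -- the layer lemma
  let ψ : Additive Fˣ →+ Additive Eˣ := MonoidHom.toAdditive (Units.map (algebraMap F E : F →* E))
  let π : Additive Fˣ →+ Additive (Fˣ ⧸ normSubgroup F (fixedField N)) :=
    MonoidHom.toAdditive (QuotientGroup.mk' (normSubgroup F (fixedField N)))
  obtain ⟨hfin, hdvd⟩ := Fermat.Agent.S55.CFT.H58.card_H2_dvd (unitsRep F E) N c hc h1
    (Additive Fˣ) ψ
    (fun u g => by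
      show Additive.ofMul (Units.map (g : E →* E)
        (Units.map (algebraMap F E : F →* E) u.toMul)) =
        Additive.ofMul (Units.map (algebraMap F E : F →* E) u.toMul)
      apply congrArg Additive.ofMul
      apply Units.ext
      simp)
    (fun a ha => by
      obtain ⟨v, hv⟩ := exists_unit_of_fixed (F := F) (Additive.toMul a) (fun g => by
        have := ha g
        exact congrArg Additive.toMul this)
      exact ⟨Additive.ofMul v, congrArg Additive.ofMul hv⟩)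
    (Additive (Fˣ ⧸ normSubgroup F (fixedField N))) π
    (fun u hu => by
      have hu' : (QuotientGroup.mk' (normSubgroup F (fixedField N))) u.toMul = 1 := hu
      rw [QuotientGroup.mk'_apply, QuotientGroup.eq_one_iff] at hu'
      obtain ⟨m, hm⟩ := hu'
      obtain ⟨f, hf1, hf2⟩ := exists_invFun_of_norm N m
      refine ⟨fun x => Additive.ofMul (f x), fun g => ?_, ?_⟩
      · funext x
        exact congrArg Additive.ofMul (hf1 g x)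
      · show Additive.ofMul (Units.map (algebraMap F E : F →* E) u.toMul) =
          ∑ x, Additive.ofMul (f x)
        rw [← ofMul_prod, hf2, hm])
  refine ⟨hfin, ?_⟩
  have hpos : 0 < Nat.card (groupCohomology (Rep.res N.subtype (unitsRep F E)) 2) :=
    Nat.card_pos
  have h3 := Nat.le_of_dvd (Nat.mul_pos (by rw [hcardQ']; exact hp.pos) hpos) hdvd
  rw [hcardQ', Nat.card_congr e2.toEquiv] at h3
  exact h3

end Layer

section Induction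

/-- The induction over the base field (with `E` fixed). -/
theorem localH2Le_aux (q : ℕ) [Fact q.Prime] (p : ℕ) [Fact p.Prime] (E : Type) [Field E]
    (n : ℕ) :
    ∀ (F : Type) [Field F] [Algebra ℚ_[q] F] [FiniteDimensional ℚ_[q] F] [Algebra F E]
      [FiniteDimensional F E] [IsGalois F E],
      IsPGroup p (E ≃ₐ[F] E) → Nat.card (E ≃ₐ[F] E) = n →
      Finite (groupCohomology (unitsRep F E) 2) ∧
        Nat.card (groupCohomology (unitsRep F E) 2) ≤ Module.finrank F E := by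
  induction n using Nat.strong_induction_on with
  | _ n ih =>
    intro F _ _ _ _ _ _ hP hcard
    have hp : p.Prime := Fact.out
    obtain ⟨e, he⟩ := (IsPGroup.iff_card (p := p) (G := (E ≃ₐ[F] E))).mp hP
    rcases Nat.eq_zero_or_pos e with rfl | hepos
    · -- trivial group
      have hsub : Subsingleton (E ≃ₐ[F] E) := by
        rw [pow_zero] at he
        exact (Nat.card_eq_one_iff_unique.mp he).1
      have hz : IsZero (groupCohomology (unitsRep F E) 2) :=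
        isZero_groupCohomology_succ_of_subsingleton (unitsRep F E) 1
      have hs : Subsingleton (groupCohomology (unitsRep F E) 2) :=
        ModuleCat.subsingleton_of_isZero hz
      refine ⟨inferInstance, ?_⟩
      rw [Nat.card_unique]
      exact Module.finrank_pos
    · obtain ⟨e', rfl⟩ : ∃ e', e = e' + 1 := ⟨e - 1, by omega⟩
      -- a subgroup of index `p`
      obtain ⟨N, hN⟩ := Sylow.exists_subgroup_card_pow_prime (G := (E ≃ₐ[F] E)) p (n := e')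
        (by rw [he]; exact pow_dvd_pow p (Nat.le_succ e'))
      have hidx : N.index = p := by
        have h1 := N.card_mul_index
        rw [hN, he, pow_succ] at h1
        exact Nat.eq_of_mul_eq_mul_left (pow_pos hp.pos e') h1
      have hnorm : N.Normal := by
        apply Subgroup.normal_of_index_eq_minFac_card
        rw [hidx, he, hp.pow_minFac (Nat.succ_ne_zero e')]
      -- the field `M = E^N` as a finite extension of `ℚ_q`
      let algM : Algebra ℚ_[q] (fixedField N) :=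
        ((algebraMap F (fixedField N)).comp (algebraMap ℚ_[q] F)).toAlgebra
      have tower : IsScalarTower ℚ_[q] F (fixedField N) :=
        IsScalarTower.of_algebraMap_eq (fun _ => rfl)
      have fdM : FiniteDimensional ℚ_[q] (fixedField N) := FiniteDimensional.trans ℚ_[q] F _
      have hPM : IsPGroup p (E ≃ₐ[fixedField N] E) :=
        (hP.to_subgroup N).of_equiv (subgroupEquivGal N)
      have hcardM : Nat.card (E ≃ₐ[fixedField N] E) = p ^ e' := by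
        rw [← Nat.card_congr (subgroupEquivGal N).toEquiv, hN]
      obtain ⟨hfinM, hleM⟩ := ih (p ^ e')
        (by rw [← hcard, he]; exact Nat.pow_lt_pow_right hp.one_lt (Nat.lt_succ_self e'))
        (fixedField N) hPM hcardM
      obtain ⟨hfin, hle⟩ := card_H2_le_layer q p hp N hidx
      refine ⟨hfin, hle.trans ?_⟩
      have h2 : Module.finrank (fixedField N) E = p ^ e' := by
        rw [IntermediateField.finrank_fixedField_eq_card, hN]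
      have h3 : Module.finrank F E = p ^ (e' + 1) := by
        rw [← IsGalois.card_aut_eq_finrank, he]
      rw [h3, pow_succ, mul_comm (p ^ e') p]
      rw [h2] at hleM
      exact Nat.mul_le_mul_left p hleM

end Induction

/-- **LOC-4b**: the second inequality for local `p`-extensions. -/
theorem stmt_LocalH2Le : Stmt_LocalH2Le := by
  intro q _ p _ F E _ _ _ _ _ _ _ hP
  exact localH2Le_aux q p E _ F hP rfl

end Fermat.Agent.S55.CFT.LOC.H58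

end
end
-- ==== END Fermat.Agent.S55.CFT.LOC.H58_H2Le

-- ==== BEGIN Fermat.Agent.S55.CFT.LOC.H5_L5Asm2
section

set_option autoImplicit false

namespace Fermat.Agent.S55.CFT.LOC.H5

/-- **L5-ASM**, with the proved leaves plugged in. -/
theorem stmt_I1_of' (hPL : Stmt_L5_Places) (hND : Stmt_L5_CupND) (hH2 : Stmt_L5_H2Dim) :
    Top.Stmt_I1 :=
  stmt_I1_of stmt_L5_Krasner hPL H45.stmt_L5_Kummer hND hH2 H72.stmt_LocalPowIndex

end Fermat.Agent.S55.CFT.LOC.H5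

end
-- ==== END Fermat.Agent.S55.CFT.LOC.H5_L5Asm2

-- ==== BEGIN Fermat.Agent.S55.CFT.LOC.H68_UnramNorm
section

set_option autoImplicit false
set_option linter.unusedSectionVars false
set_option linter.style.haveILetI false

namespace Fermat.Agent.S55.CFT.LOC.H68

open Fermat.Agent.S55.CFT.LOC Fermat.Agent.S55.CFT

theorem zpow_inj_of_lt_one {a : ℝ} (h0 : 0 < a) (h1 : a < 1) {k m : ℤ} (h : a ^ k = a ^ m) :
    k = m :=
  zpow_right_injective₀ h0 h1.ne h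

theorem stmt_UnramNormUnits : Stmt_UnramNormUnits := by
  intro q _ F E _ _ _ _ _ _ _ _ _ hcyc hunr u hu
  classical
  haveI : FiniteDimensional ℚ_[q] E := FiniteDimensional.trans ℚ_[q] F E
  set n := Module.finrank F E with hn
  have hnpos : 0 < n := Module.finrank_pos
  have hidx : (normSubgroup F E).index = n := stmt_LocalNormIndexCyclic q F E hcyc
  obtain ⟨π, hπ0, hπ1, hπ⟩ := stmt_Uniformizer q F
  have hπne : π ≠ 0 := by
    rintro rfl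
    rw [nrm_zero] at hπ0
    exact lt_irrefl _ hπ0
  set ρ := nrm q F π with hρ
  -- the subgroup of elements of valuation divisible by n
  let H : Subgroup Fˣ :=
    { carrier := {x | ∃ k : ℤ, nrm q F (x : F) = ρ ^ ((n : ℤ) * k)}
      one_mem' := ⟨0, by simp⟩
      mul_mem' := by
        rintro a b ⟨k, hk⟩ ⟨m, hm⟩
        refine ⟨k + m, ?_⟩
        rw [Units.val_mul, nrm_mul, hk, hm, ← zpow_add₀ hπ0.ne', mul_add]
      inv_mem' := by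
        rintro a ⟨k, hk⟩
        refine ⟨-k, ?_⟩
        rw [Units.val_inv_eq_inv_val, nrm_inv, hk, ← zpow_neg, mul_neg] }
  have hHmem : ∀ x : Fˣ, x ∈ H ↔ ∃ k : ℤ, nrm q F (x : F) = ρ ^ ((n : ℤ) * k) := fun _ => Iff.rfl
  have hHidx : H.index = n := by
    rw [← Subgroup.relIndex_top_right]
    refine relIndex_eq_of_cyclic H ⊤ le_top (Units.mk0 π hπne) (Subgroup.mem_top _) n ?_ ?_
    · intro x _
      obtain ⟨m, hm⟩ := hπ (x : F) x.ne_zero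
      refine ⟨m, (hHmem _).mpr ⟨0, ?_⟩⟩
      rw [Units.val_div_eq_div_val, nrm_div, Units.val_zpow_eq_zpow_val, nrm_zpow, Units.val_mk0,
        hm, mul_zero, zpow_zero, div_self (zpow_ne_zero _ hπ0.ne')]
    · intro k
      rw [hHmem]
      have e : nrm q F (((Units.mk0 π hπne) ^ k : Fˣ) : F) = ρ ^ k := by
        rw [Units.val_zpow_eq_zpow_val, nrm_zpow, Units.val_mk0]
      rw [e]
      constructor
      · rintro ⟨j, hj⟩
        exact ⟨j, zpow_inj_of_lt_one hπ0 hπ1 hj⟩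
      · rintro ⟨j, rfl⟩
        exact ⟨j, rfl⟩
  have hNH : normSubgroup F E ≤ H := by
    rintro _ ⟨y, rfl⟩
    rw [hHmem]
    obtain ⟨x, hx⟩ := hunr (y : E)
    have hx0 : x ≠ 0 := by
      rintro rfl
      rw [nrm_zero] at hx
      exact y.ne_zero ((nrm_eq_zero_iff q E).mp hx)
    obtain ⟨m, hm⟩ := hπ x hx0
    refine ⟨m, ?_⟩
    have : ((Units.map (Algebra.norm F : E →* F) y : Fˣ) : F) = Algebra.norm F (y : E) := rfl
    rw [this, nrm_norm, hx, hm, zpow_mul', zpow_natCast]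
  have hrel : (normSubgroup F E).relIndex H = 1 := by
    have := Subgroup.relIndex_mul_index hNH
    rw [hHidx, hidx] at this
    exact Nat.eq_of_mul_eq_mul_right hnpos (by rw [this, one_mul])
  have hHN : H ≤ normSubgroup F E := Subgroup.relIndex_eq_one.mp hrel
  have hu0 : u ≠ 0 := by
    rintro rfl
    rw [nrm_zero] at hu
    exact zero_ne_one hu
  have huH : Units.mk0 u hu0 ∈ H := (hHmem _).mpr ⟨0, by simp [hu]⟩
  obtain ⟨y, hy⟩ := hHN huH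
  have hyu : Algebra.norm F (y : E) = u := by
    have := congrArg (fun t : Fˣ => (t : F)) hy
    simpa using this
  refine ⟨(y : E), ?_, hyu⟩
  have h1 := nrm_norm q F E (y : E)
  rw [hyu, hu] at h1
  exact nrm_eq_one_of_pow (nrm_nonneg q E _) hnpos.ne' h1.symm

end Fermat.Agent.S55.CFT.LOC.H68

end
-- ==== END Fermat.Agent.S55.CFT.LOC.H68_UnramNorm

-- ==== BEGIN Fermat.Agent.S55.H49_AssemblyP
section

set_option autoImplicit false

open CategoryTheory Module groupCohomology ExtCitation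

namespace Fermat.Agent.S55.H49

open Fermat.Agent.S55

set_option maxHeartbeats 2000000 in
/-- The frozen statement S55 from `Top.Stmt_E4P`. -/
theorem result_of_E4P (h4 : Top.Stmt_E4P)
    {p : ℕ} [Fact p.Prime] (hp2 : p ≠ 2) (S : Finset Nat.Primes) (hpS : pPrime p ∈ S)
    (M : Rep.{0} (ZMod p) (AlgebraicClosure ℚ ≃ₐ[ℚ] AlgebraicClosure ℚ))
    [FiniteDimensional (ZMod p) M]
    (hsm : ∀ m : M, ∃ F : IntermediateField ℚ (AlgebraicClosure ℚ), FiniteDimensional ℚ F ∧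
      ∀ s ∈ F.fixingSubgroup, M.ρ s m = m)
    (hMur : ∀ q : Nat.Primes, q ∉ S → ∀ A : ValuationSubring (AlgebraicClosure ℚ),
      A.LiesOverPrime (q : ℕ) → ∀ g ∈ A.inertiaSubgroupIn ℚ, M.ρ g = 1) :
    ∃ B : sha₁ S (M.dualTwist (cycloChar p)) →ₗ[ZMod p] sha₂ S M →ₗ[ZMod p] ZMod p,
      (∀ y, (∀ x, B y x = 0) → y = 0) ∧ (∀ x, (∀ y, B y x = 0) → x = 0) := by
  have hyp : Hyp p S M := ⟨hp2, hpS, inferInstance, hsm, hMur⟩
  have hlev : Lev S M := H48.stmt_lev p S M hyp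
  have hχ : LevChar S (cycloChar p) := H48.stmt_levChar p S hpS
  obtain ⟨K, hK, hidx, N, hret, hL, hR⟩ := H13.stmt_E3_index p (ZMod p) S M hpS hlev
  obtain ⟨tr, hA2, hA3, hB1, hB2⟩ := h4 p hp2 S hpS K hK hidx
  have hαN : AlphaTwoEpi tr N :=
    alphaTwoEpi_of_devL stmt_E1A H48.stmt_E2 tr hχ K ⟨hA2, hA3⟩ N hL
  have hβN : BetaOneEpi tr N :=
    betaOneEpi_of_devR stmt_E1B H48.stmt_E2 tr hχ K ⟨hB1, hB2⟩ N hR
  have hr := H48.stmt_E2 (ZMod p) S (cycloChar p) tr M N hret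
  exact H48.stmt_E5 p S M hyp tr (hr.1 hαN) (hr.2.2.1 hβN)

end Fermat.Agent.S55.H49

end
-- ==== END Fermat.Agent.S55.H49_AssemblyP

-- ==== BEGIN Fermat.Agent.S55.Top.G1K_Place
section

set_option autoImplicit false
set_option linter.unusedSectionVars false
set_option linter.unusedSimpArgs false

open CategoryTheory Module groupCohomology ExtCitation

noncomputable section

namespace Fermat.Agent.S55.Top

open Fermat.Agent.S55

attribute [local instance] locAct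

/-- The data used in the proof of `Stmt_G1K`. -/
structure KbData {p : ℕ} [Fact p.Prime] {S : Finset Nat.Primes}
    {K : IntermediateField ℚ (AlgebraicClosure ℚ)} (𝔓 : PlaceSys S K)
    (b : ↥K.fixingSubgroup → ZMod p) where
  /-- the field `K(b)` -/
  K' : IntermediateField ℚ (AlgebraicClosure ℚ)
  hb : tOne b = 0
  hmem : ∀ g : GQ, g ∈ K'.fixingSubgroup ↔ ∃ h : g ∈ K.fixingSubgroup, b ⟨g, h⟩ = 0
  /-- an element with `b h₀ = 1` -/
  h0 : ↥K.fixingSubgroup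
  hh0 : b h0 = 1
  hloc : ∀ (q : ↥S) (w : 𝔓.W q) (h : 𝔓.Γw q w), b (𝔓.ρw q w h) = 0

section pre

variable {S : Finset Nat.Primes} {K : IntermediateField ℚ (AlgebraicClosure ℚ)}

lemma g1k_smul_x0K (g : GQ) : g • x0 K = (QuotientGroup.mk g : XK K) := by
  show g • ((1 : GQ) : GQ ⧸ K.fixingSubgroup) = _
  rw [MulAction.Quotient.smul_mk, smul_eq_mul, mul_one]

lemma g1k_glob_t_mk (𝔓 : PlaceSys S K) (g : GQ) :
    (𝔓.glob.t (QuotientGroup.mk g : XK K))⁻¹ * g ∈ K.fixingSubgroup := by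
  have h := 𝔓.glob.t_smul (QuotientGroup.mk g : XK K)
  rw [show 𝔓.glob.rep (𝔓.glob.o (QuotientGroup.mk g : XK K)) = x0 K from 𝔓.glob_rep,
    g1k_smul_x0K] at h
  exact QuotientGroup.eq.1 h

lemma g1k_loc_t_mk (𝔓 : PlaceSys S K) (q : ↥S) (g : GQ) :
    (rl q.1 ((𝔓.loc q).t (QuotientGroup.mk g : XK K)) *
      𝔓.σ q ((𝔓.loc q).o (QuotientGroup.mk g : XK K)))⁻¹ * g ∈ K.fixingSubgroup := by
  have h := (𝔓.loc q).t_smul (QuotientGroup.mk g : XK K)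
  rw [locAct_smul, ← 𝔓.σ_smul, ← mul_smul, g1k_smul_x0K] at h
  exact QuotientGroup.eq.1 h

end pre

namespace KbData

variable {p : ℕ} [Fact p.Prime] {S : Finset Nat.Primes}
  {K : IntermediateField ℚ (AlgebraicClosure ℚ)} {𝔓 : PlaceSys S K}
  {b : ↥K.fixingSubgroup → ZMod p} (D : KbData 𝔓 b)

/-- `b`, extended by zero to `G_ℚ`. -/
def β (_D : KbData 𝔓 b) : GQ → ZMod p := eG₁ b ()

lemma β_mem {g : GQ} (h : g ∈ K.fixingSubgroup) : D.β g = b ⟨g, h⟩ := eG₁_mem b h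

lemma le : D.K'.fixingSubgroup ≤ K.fixingSubgroup := fun g hg => ((D.hmem g).1 hg).1

lemma b_eq_zero {g : GQ} (hg : g ∈ D.K'.fixingSubgroup) : b ⟨g, D.le hg⟩ = 0 :=
  ((D.hmem g).1 hg).2

lemma mem_of_b {g : ↥K.fixingSubgroup} (hg : b g = 0) : (g : GQ) ∈ D.K'.fixingSubgroup :=
  (D.hmem g).2 ⟨g.2, hg⟩

lemma β_mul_mem {a g : GQ} (ha : a ∈ K.fixingSubgroup) (hg : g ∈ K.fixingSubgroup) :
    D.β (a * g) = b ⟨a, ha⟩ + b ⟨g, hg⟩ := by
  rw [D.β_mem (K.fixingSubgroup.mul_mem ha hg)]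
  exact H48.hom_mul D.hb ⟨a, ha⟩ ⟨g, hg⟩

/-- `β` is invariant under right translation by `G_{K'}`. -/
lemma β_mul_right (g : GQ) {κ : GQ} (hκ : κ ∈ D.K'.fixingSubgroup) : D.β (g * κ) = D.β g := by
  by_cases hg : g ∈ K.fixingSubgroup
  · rw [D.β_mul_mem hg (D.le hκ), D.b_eq_zero hκ, add_zero, D.β_mem hg]
  · have h2 : g * κ ∉ K.fixingSubgroup := fun h => hg (by
      have := K.fixingSubgroup.mul_mem h (K.fixingSubgroup.inv_mem (D.le hκ))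
      simpa using this)
    unfold β eG₁
    rw [dif_neg hg, dif_neg h2]

/-- the powers of `h₀`. -/
def pw (j : ZMod p) : ↥K.fixingSubgroup := D.h0 ^ j.val

lemma b_pw (j : ZMod p) : b (D.pw j) = j := by
  unfold pw
  rw [g1k_hom_pow D.hb, D.hh0, mul_one]
  exact ZMod.natCast_zmod_val j

lemma pw_zero : D.pw 0 = 1 := by
  unfold pw
  rw [ZMod.val_zero, pow_zero]

lemma β_pw (j : ZMod p) : D.β (D.pw j : GQ) = j := by
  rw [D.β_mem (D.pw j).2]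
  exact D.b_pw j

/-- the projection `G_ℚ/G_{K'} → G_ℚ/G_K`. -/
def πK (x : XK D.K') : XK K :=
  Quotient.liftOn' x (fun g => (QuotientGroup.mk g : XK K)) (by
    intro g g' h
    have h1 : g⁻¹ * g' ∈ D.K'.fixingSubgroup := QuotientGroup.leftRel_apply.1 h
    exact QuotientGroup.eq.2 (D.le h1))

lemma πK_mk (g : GQ) : D.πK (QuotientGroup.mk g : XK D.K') = (QuotientGroup.mk g : XK K) := rfl

lemma πK_smul (γ : GQ) (x : XK D.K') : D.πK (γ • x) = γ • D.πK x := by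
  induction x using QuotientGroup.induction_on with
  | H g => rfl

/-- the fibre coordinate of `x = g G_{K'}` relative to `s`: `b (s⁻¹ g)`. -/
def jc (s : GQ) (x : XK D.K') : ZMod p :=
  Quotient.liftOn' x (fun g => D.β (s⁻¹ * g)) (by
    intro g g' h
    have h1 : g⁻¹ * g' ∈ D.K'.fixingSubgroup := QuotientGroup.leftRel_apply.1 h
    have e : s⁻¹ * g' = s⁻¹ * g * (g⁻¹ * g') := by group
    show D.β (s⁻¹ * g) = D.β (s⁻¹ * g')
    rw [e, D.β_mul_right _ h1])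

lemma jc_mk (s g : GQ) : D.jc s (QuotientGroup.mk g : XK D.K') = D.β (s⁻¹ * g) := rfl

lemma smul_x0' (g : GQ) : g • x0 D.K' = (QuotientGroup.mk g : XK D.K') := by
  show g • ((1 : GQ) : GQ ⧸ D.K'.fixingSubgroup) = _
  rw [MulAction.Quotient.smul_mk, smul_eq_mul, mul_one]

lemma mk_eq_mk' {g g' : GQ} (h : g⁻¹ * g' ∈ K.fixingSubgroup) (h0 : b ⟨g⁻¹ * g', h⟩ = 0) :
    (QuotientGroup.mk g : XK D.K') = QuotientGroup.mk g' :=
  QuotientGroup.eq.2 ((D.hmem _).2 ⟨h, h0⟩)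

/-- the key computation: `s h₀^j G_{K'} = g G_{K'}` for `j = b (s⁻¹ g)`. -/
lemma smul_pw {s g : GQ} (h : s⁻¹ * g ∈ K.fixingSubgroup) :
    (QuotientGroup.mk (s * (D.pw (D.β (s⁻¹ * g)) : GQ)) : XK D.K') = QuotientGroup.mk g := by
  have e : (s * (D.pw (D.β (s⁻¹ * g)) : GQ))⁻¹ * g =
      ((D.pw (D.β (s⁻¹ * g)))⁻¹ * ⟨s⁻¹ * g, h⟩ : ↥K.fixingSubgroup) := by
    simp only [Subgroup.coe_mul, Subgroup.coe_inv]
    group
  have hm : (s * (D.pw (D.β (s⁻¹ * g)) : GQ))⁻¹ * g ∈ K.fixingSubgroup := by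
    rw [e]; exact Subtype.property _
  refine D.mk_eq_mk' hm ?_
  have e2 : (⟨_, hm⟩ : ↥K.fixingSubgroup) = (D.pw (D.β (s⁻¹ * g)))⁻¹ * ⟨s⁻¹ * g, h⟩ :=
    Subtype.ext e
  rw [e2, H48.hom_mul D.hb, g1k_hom_inv D.hb, D.b_pw, D.β_mem h]
  ring

/-! ### The place system of `K'` -/

/-- coset representatives of `G_ℚ/G_{K'}`. -/
def globK' : OrbitData GQ (XK D.K') Unit where
  rep := fun _ => x0 D.K'
  o := fun _ => ()
  t := fun x => 𝔓.glob.t (D.πK x) * (D.pw (D.jc (𝔓.glob.t (D.πK x)) x) : GQ)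
  t_smul := fun x => by
    induction x using QuotientGroup.induction_on with
    | H g =>
      rw [D.πK_mk, D.jc_mk, D.smul_x0']
      exact D.smul_pw (g1k_glob_t_mk 𝔓 g)
  o_smul := fun _ _ => rfl
  o_rep := fun _ => rfl
  t_rep := fun _ => by
    have h1 : D.πK (x0 D.K') = 𝔓.glob.rep () := by rw [𝔓.glob_rep]; rfl
    have h2 : 𝔓.glob.t (D.πK (x0 D.K')) = 1 := by rw [h1]; exact 𝔓.glob.t_rep ()
    show 𝔓.glob.t (D.πK (x0 D.K')) * (D.pw (D.jc (𝔓.glob.t (D.πK (x0 D.K'))) (x0 D.K')) : GQ) = 1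
    rw [h2]
    have h3 : D.jc 1 (x0 D.K') = 0 := by
      show D.β ((1 : GQ)⁻¹ * 1) = 0
      rw [inv_one, mul_one, D.β_mem K.fixingSubgroup.one_mem]
      exact H48.hom_one D.hb
    rw [h3, D.pw_zero]
    simp

/-- the representative of the place `(w, j)`. -/
def repK' (q : ↥S) (wj : 𝔓.W q × ZMod p) : XK D.K' :=
  (QuotientGroup.mk (𝔓.σ q wj.1 * (D.pw wj.2 : GQ)) : XK D.K')

lemma πK_repK' (q : ↥S) (wj : 𝔓.W q × ZMod p) : D.πK (D.repK' q wj) = (𝔓.loc q).rep wj.1 := by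
  unfold repK'
  rw [D.πK_mk, ← 𝔓.σ_smul, g1k_smul_x0K]
  refine QuotientGroup.eq.2 ?_
  have e : (𝔓.σ q wj.1 * (D.pw wj.2 : GQ))⁻¹ * 𝔓.σ q wj.1 = ((D.pw wj.2)⁻¹ : ↥K.fixingSubgroup) := by
    simp only [Subgroup.coe_inv]
    group
  rw [e]
  exact Subtype.property _

/-- the orbit of a point of `G_ℚ/G_{K'}` under the local group. -/
def oK' (q : ↥S) (x : XK D.K') : 𝔓.W q × ZMod p :=
  ((𝔓.loc q).o (D.πK x),
    D.jc (rl q.1 ((𝔓.loc q).t (D.πK x)) * 𝔓.σ q ((𝔓.loc q).o (D.πK x))) x)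

lemma oK'_smul (q : ↥S) (γ : Gl q.1) (x : XK D.K') : D.oK' q (γ • x) = D.oK' q x := by
  induction x using QuotientGroup.induction_on with
  | H g =>
    have e0 : γ • (QuotientGroup.mk g : XK D.K') = (QuotientGroup.mk (rl q.1 γ * g) : XK D.K') := by
      rw [locAct_smul, MulAction.Quotient.smul_mk, smul_eq_mul]
    have e1 : γ • (QuotientGroup.mk g : XK K) = (QuotientGroup.mk (rl q.1 γ * g) : XK K) := by
      rw [locAct_smul, MulAction.Quotient.smul_mk, smul_eq_mul]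
    rw [e0]
    unfold oK'
    rw [D.πK_mk, D.πK_mk, D.jc_mk, D.jc_mk]
    have hw : (𝔓.loc q).o (QuotientGroup.mk (rl q.1 γ * g) : XK K) =
        (𝔓.loc q).o (QuotientGroup.mk g : XK K) := by
      rw [← e1]; exact (𝔓.loc q).o_smul γ _
    refine Prod.ext hw ?_
    show D.β _ = D.β _
    rw [hw]
    set w := (𝔓.loc q).o (QuotientGroup.mk g : XK K) with hwdef
    set τ := (𝔓.loc q).t (QuotientGroup.mk g : XK K) with hτdef
    set τ' := (𝔓.loc q).t (QuotientGroup.mk (rl q.1 γ * g) : XK K) with hτ'def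
    -- η := τ'⁻¹ γ τ stabilises the representative of w
    have hη : τ'⁻¹ * γ * τ ∈ 𝔓.Γw q w := by
      show rl q.1 (τ'⁻¹ * γ * τ) • (𝔓.loc q).rep w = (𝔓.loc q).rep w
      have h1 := (𝔓.loc q).t_smul (QuotientGroup.mk g : XK K)
      have h2 := (𝔓.loc q).t_smul (QuotientGroup.mk (rl q.1 γ * g) : XK K)
      rw [hw] at h2
      rw [← locAct_smul, mul_smul, mul_smul, h1, e1, inv_smul_eq_iff]
      exact h2.symm
    have hA := g1k_loc_t_mk 𝔓 q g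
    have e : (rl q.1 τ' * 𝔓.σ q w)⁻¹ * (rl q.1 γ * g) =
        ((𝔓.ρw q w ⟨_, hη⟩ : ↥K.fixingSubgroup) : GQ) * ((rl q.1 τ * 𝔓.σ q w)⁻¹ * g) := by
      show _ = ((𝔓.σ q w)⁻¹ * rl q.1 (τ'⁻¹ * γ * τ) * 𝔓.σ q w) * ((rl q.1 τ * 𝔓.σ q w)⁻¹ * g)
      simp only [map_mul, map_inv]
      group
    rw [e, D.β_mul_mem (Subtype.property _) hA, D.hloc, zero_add, D.β_mem hA]

/-- the local orbit data of `K'`. -/
def locK' (q : ↥S) : @OrbitData (Gl q.1) _ (XK D.K') (locAct D.K' q.1) (𝔓.W q × ZMod p) where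
  rep := D.repK' q
  o := D.oK' q
  t := fun x => (𝔓.loc q).t (D.πK x)
  t_smul := fun x => by
    induction x using QuotientGroup.induction_on with
    | H g =>
      show rl q.1 ((𝔓.loc q).t (D.πK (QuotientGroup.mk g))) •
        (QuotientGroup.mk (𝔓.σ q (D.oK' q (QuotientGroup.mk g)).1 *
          (D.pw (D.oK' q (QuotientGroup.mk g)).2 : GQ)) : XK D.K') = QuotientGroup.mk g
      rw [MulAction.Quotient.smul_mk, smul_eq_mul, ← mul_assoc]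
      exact D.smul_pw (g1k_loc_t_mk 𝔓 q g)
  o_smul := fun γ x => D.oK'_smul q γ x
  o_rep := fun wj => by
    have h1 := D.πK_repK' q wj
    unfold oK'
    rw [h1, (𝔓.loc q).o_rep, (𝔓.loc q).t_rep]
    refine Prod.ext rfl ?_
    show D.jc (rl q.1 1 * 𝔓.σ q wj.1) (D.repK' q wj) = wj.2
    unfold repK'
    rw [D.jc_mk, map_one, one_mul, inv_mul_cancel_left]
    exact D.β_pw wj.2
  t_rep := fun wj => by
    show (𝔓.loc q).t (D.πK (D.repK' q wj)) = 1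
    rw [D.πK_repK', (𝔓.loc q).t_rep]

/-- **The relative place system** of `K' = K(b)`. -/
@[reducible] def placeSys : PlaceSys S D.K' where
  glob := D.globK'
  glob_rep := rfl
  W := fun q => 𝔓.W q × ZMod p
  fin := fun q => @instFintypeProd _ _ (𝔓.fin q) (ZMod.fintype p)
  loc := fun q => D.locK' q

/-! ### The places of `K'` -/

/-- the place `(w, j)` of `K'`. -/
@[reducible] def mkW (q : ↥S) (w : 𝔓.W q) (j : ZMod p) : D.placeSys.W q := (w, j)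

lemma placeSys_rep (q : ↥S) (w : 𝔓.W q) (j : ZMod p) :
    (D.placeSys.loc q).rep (D.mkW q w j) =
      (QuotientGroup.mk (𝔓.σ q w * (D.pw j : GQ)) : XK D.K') := rfl

/-- `σ_{(w,j)} = σ_w h₀^j`. -/
lemma σ_mkW (q : ↥S) (w : 𝔓.W q) (j : ZMod p) :
    D.placeSys.σ q (D.mkW q w j) = 𝔓.σ q w * (D.pw j : GQ) := by
  show 𝔓.glob.t (D.πK (D.repK' q (w, j))) *
    (D.pw (D.jc (𝔓.glob.t (D.πK (D.repK' q (w, j)))) (D.repK' q (w, j))) : GQ) = _
  rw [D.πK_repK']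
  show 𝔓.σ q w * (D.pw (D.jc (𝔓.σ q w) (D.repK' q (w, j))) : GQ) = _
  unfold repK'
  rw [D.jc_mk, inv_mul_cancel_left, D.β_pw]

lemma mem_Γw_iff (q : ↥S) (w : 𝔓.W q) (h : Gl q.1) :
    h ∈ 𝔓.Γw q w ↔ (𝔓.σ q w)⁻¹ * rl q.1 h * 𝔓.σ q w ∈ K.fixingSubgroup := by
  constructor
  · intro hh
    exact 𝔓.conj_mem q w ⟨h, hh⟩
  · intro hh
    show rl q.1 h • (𝔓.loc q).rep w = (𝔓.loc q).rep w
    rw [← 𝔓.σ_smul, ← mul_smul]
    have e : rl q.1 h * 𝔓.σ q w = 𝔓.σ q w * ((𝔓.σ q w)⁻¹ * rl q.1 h * 𝔓.σ q w) := by group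
    rw [e, mul_smul, smul_x0_of_mem_fix hh]

/-- `Γ_{(w,j)} = Γ_w`. -/
lemma mem_Γw' (q : ↥S) (w : 𝔓.W q) (j : ZMod p) (h : Gl q.1) :
    h ∈ D.placeSys.Γw q (D.mkW q w j) ↔ h ∈ 𝔓.Γw q w := by
  have e : (𝔓.σ q w * (D.pw j : GQ))⁻¹ * (rl q.1 h * (𝔓.σ q w * (D.pw j : GQ))) =
      (D.pw j : GQ)⁻¹ * ((𝔓.σ q w)⁻¹ * rl q.1 h * 𝔓.σ q w) * (D.pw j : GQ) := by group
  constructor
  · intro hh
    have h1 : rl q.1 h • (D.placeSys.loc q).rep (D.mkW q w j) =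
        (D.placeSys.loc q).rep (D.mkW q w j) := hh
    rw [D.placeSys_rep, MulAction.Quotient.smul_mk, smul_eq_mul] at h1
    have h2 := D.le (QuotientGroup.eq.1 h1.symm)
    rw [e] at h2
    rw [mem_Γw_iff]
    have h3 := K.fixingSubgroup.mul_mem (K.fixingSubgroup.mul_mem (D.pw j).2 h2)
      (K.fixingSubgroup.inv_mem (D.pw j).2)
    have e2 : (D.pw j : GQ) * ((D.pw j : GQ)⁻¹ * ((𝔓.σ q w)⁻¹ * rl q.1 h * 𝔓.σ q w) *
        (D.pw j : GQ)) * (D.pw j : GQ)⁻¹ = (𝔓.σ q w)⁻¹ * rl q.1 h * 𝔓.σ q w := by group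
    rwa [e2] at h3
  · intro hh
    show rl q.1 h • (D.placeSys.loc q).rep (D.mkW q w j) =
        (D.placeSys.loc q).rep (D.mkW q w j)
    rw [D.placeSys_rep, MulAction.Quotient.smul_mk, smul_eq_mul]
    symm
    have e3 : (𝔓.σ q w * (D.pw j : GQ))⁻¹ * (rl q.1 h * (𝔓.σ q w * (D.pw j : GQ))) =
        (((D.pw j)⁻¹ * 𝔓.ρw q w ⟨h, hh⟩ * D.pw j : ↥K.fixingSubgroup) : GQ) := by
      rw [e]; rfl
    have hm : (𝔓.σ q w * (D.pw j : GQ))⁻¹ * (rl q.1 h * (𝔓.σ q w * (D.pw j : GQ))) ∈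
        K.fixingSubgroup := by
      rw [e3]; exact Subtype.property _
    refine D.mk_eq_mk' hm ?_
    have e4 : (⟨_, hm⟩ : ↥K.fixingSubgroup) = (D.pw j)⁻¹ * 𝔓.ρw q w ⟨h, hh⟩ * D.pw j :=
      Subtype.ext e3
    rw [e4, H48.hom_mul D.hb, H48.hom_mul D.hb, g1k_hom_inv D.hb, D.hloc]
    ring

/-- the identification `Γ_w → Γ_{(w,j)}`. -/
def eIn (q : ↥S) (w : 𝔓.W q) (j : ZMod p) : 𝔓.Γw q w →* D.placeSys.Γw q (D.mkW q w j) :=
  Subgroup.inclusion (fun h hh => (D.mem_Γw' q w j h).2 hh)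

/-- the identification `Γ_{(w,j)} → Γ_w`. -/
def eOut (q : ↥S) (w : 𝔓.W q) (j : ZMod p) : D.placeSys.Γw q (D.mkW q w j) →* 𝔓.Γw q w :=
  Subgroup.inclusion (fun h hh => (D.mem_Γw' q w j h).1 hh)

@[simp] lemma coe_eIn (q : ↥S) (w : 𝔓.W q) (j : ZMod p) (h : 𝔓.Γw q w) :
    ((D.eIn q w j h : D.placeSys.Γw q (D.mkW q w j)) : Gl q.1) = h := rfl

@[simp] lemma coe_eOut (q : ↥S) (w : 𝔓.W q) (j : ZMod p) (h : D.placeSys.Γw q (D.mkW q w j)) :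
    ((D.eOut q w j h : 𝔓.Γw q w) : Gl q.1) = h := rfl

@[simp] lemma eOut_eIn (q : ↥S) (w : 𝔓.W q) (j : ZMod p) (h : 𝔓.Γw q w) :
    D.eOut q w j (D.eIn q w j h) = h := Subtype.ext rfl

@[simp] lemma eIn_eOut (q : ↥S) (w : 𝔓.W q) (j : ZMod p) (h : D.placeSys.Γw q (D.mkW q w j)) :
    D.eIn q w j (D.eOut q w j h) = h := Subtype.ext rfl

/-- `ρ_{(w,j)} = h₀^{-j} ρ_w h₀^j`. -/
lemma ρw_mkW (q : ↥S) (w : 𝔓.W q) (j : ZMod p) (h : 𝔓.Γw q w) :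
    ((D.placeSys.ρw q (D.mkW q w j) (D.eIn q w j h) : ↥D.K'.fixingSubgroup) : GQ) =
      (((D.pw j)⁻¹ * 𝔓.ρw q w h * D.pw j : ↥K.fixingSubgroup) : GQ) := by
  show (D.placeSys.σ q (D.mkW q w j))⁻¹ * rl q.1 h.1 * D.placeSys.σ q (D.mkW q w j) =
    (D.pw j : GQ)⁻¹ * ((𝔓.σ q w)⁻¹ * rl q.1 h.1 * 𝔓.σ q w) * (D.pw j : GQ)
  rw [D.σ_mkW]
  group

/-- level constancy is the same for `Γ_w` and `Γ_{(w,j)}`. -/
lemma levL₁_eIn (q : ↥S) (w : 𝔓.W q) (j : ZMod p) {X : Type}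
    {g : D.placeSys.Γw q (D.mkW q w j) → X}
    (hg : IsLevelConstant₁ (D.placeSys.rw q (D.mkW q w j)) g) :
    IsLevelConstant₁ (𝔓.rw q w) (fun h => g (D.eIn q w j h)) := by
  obtain ⟨F, hF, h⟩ := hg
  refine ⟨F, hF, fun a s hs => ?_⟩
  show g (D.eIn q w j (a * s)) = g (D.eIn q w j a)
  rw [map_mul]
  exact h _ _ hs

lemma levL₂_eOut (q : ↥S) (w : 𝔓.W q) (j : ZMod p) {X : Type}
    {c : 𝔓.Γw q w × 𝔓.Γw q w → X} (hc : IsLevelConstant₂ (𝔓.rw q w) c) :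
    IsLevelConstant₂ (D.placeSys.rw q (D.mkW q w j))
      (fun t => c (D.eOut q w j t.1, D.eOut q w j t.2)) := by
  obtain ⟨F, hF, h⟩ := hc
  refine ⟨F, hF, fun a a' s s' hs hs' => ?_⟩
  show c (D.eOut q w j (a * s), D.eOut q w j (a' * s')) = c (D.eOut q w j a, D.eOut q w j a')
  rw [map_mul, map_mul]
  exact h _ _ _ _ hs hs'

end KbData

end Fermat.Agent.S55.Top

end

end
-- ==== END Fermat.Agent.S55.Top.G1K_Place

-- ==== BEGIN Fermat.Agent.S55.Top.H48_PTLoc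
section

set_option autoImplicit false

open CategoryTheory Module groupCohomology ExtCitation

noncomputable section

namespace Fermat.Agent.S55.Top.H48

open Fermat.Agent.S55 Fermat.Agent.S55.Top

variable {k : Type} [Field k] {S : Finset Nat.Primes}
  {K : IntermediateField ℚ (AlgebraicClosure ℚ)} {𝔓 : PlaceSys S K}

/-! ### Families of local cocycles -/

/-- `(0, c)` is a cone 3-cocycle for a family `c` of local 2-cocycles. -/
lemma isZ3cK_loc (c : ∀ (q : ↥S) (w : 𝔓.W q), 𝔓.Γw q w × 𝔓.Γw q w → k)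
    (hc : ∀ q w, c q w ∈ Z2w k 𝔓 q w) : IsZ3cK 𝔓 ((0, c) : 𝔓.C3 k) := by
  refine ⟨⟨tThree_zero, isLevK₃_const (0 : k)⟩, fun q w => ⟨(hc q w).2, ?_⟩⟩
  show 𝔓.res₃ q w (0 : ↥K.fixingSubgroup × ↥K.fixingSubgroup × ↥K.fixingSubgroup → k) =
    tTwo (c q w)
  rw [(hc q w).1]
  rfl

lemma cupA3K_eq_smul (x : 𝔓.C3 k) (m : k) : cupA3K 𝔓 x m = m • x := by
  refine Prod.ext (funext fun t => ?_) (funext fun q => funext fun w => funext fun t => ?_)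
  · simp only [cupA3K, Prod.smul_fst, Pi.smul_apply, smul_eq_mul]; ring
  · simp only [cupA3K, Prod.smul_snd, Pi.smul_apply, smul_eq_mul]; ring

/-- The cup product of two local homomorphisms is a local 2-cocycle. -/
lemma cup_mem_Z2w (q : ↥S) (w : 𝔓.W q) {g b : 𝔓.Γw q w → k} (hg : g ∈ Z1w k 𝔓 q w)
    (hb : b ∈ Z1w k 𝔓 q w) :
    (fun t : 𝔓.Γw q w × 𝔓.Γw q w => g t.1 * b t.2) ∈ Z2w k 𝔓 q w := by
  refine ⟨?_, levL₂_mul q w hg.2 hb.2⟩
  funext t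
  obtain ⟨t₁, t₂, t₃⟩ := t
  simp only [tTwo, Pi.zero_apply]
  rw [hom_mul hg.1 t₁ t₂, hom_mul hb.1 t₂ t₃]
  ring

lemma pair_loc_add (c c' : ∀ (q : ↥S) (w : 𝔓.W q), 𝔓.Γw q w × 𝔓.Γw q w → k) :
    ((0, c + c') : 𝔓.C3 k) = (0, c) + (0, c') := by
  refine Prod.ext ?_ rfl
  show (0 : ↥K.fixingSubgroup × ↥K.fixingSubgroup × ↥K.fixingSubgroup → k) = 0 + 0
  rw [add_zero]

lemma pair_loc_smul (α : k) (c : ∀ (q : ↥S) (w : 𝔓.W q), 𝔓.Γw q w × 𝔓.Γw q w → k) :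
    ((0, α • c) : 𝔓.C3 k) = α • ((0, c) : 𝔓.C3 k) := by
  refine Prod.ext ?_ rfl
  show (0 : ↥K.fixingSubgroup × ↥K.fixingSubgroup × ↥K.fixingSubgroup → k) =
    α • (0 : ↥K.fixingSubgroup × ↥K.fixingSubgroup × ↥K.fixingSubgroup → k)
  rw [smul_zero]

/-! ### `α³mono` -/

/-- Every cone 3-cocycle is cohomologous to a family of local 2-cocycles, if `H³_S(G_K) = 0`. -/
lemma exists_loc_rep
    (hI2 : ∀ F : ↥K.fixingSubgroup × ↥K.fixingSubgroup × ↥K.fixingSubgroup → k,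
      tThree F = 0 → IsLevK₃ S K F →
      ∃ f : ↥K.fixingSubgroup × ↥K.fixingSubgroup → k, IsLevK₂ S K f ∧ tTwo f = F)
    (x : 𝔓.C3 k) (hx : IsZ3cK 𝔓 x) :
    ∃ c : ∀ (q : ↥S) (w : 𝔓.W q), 𝔓.Γw q w × 𝔓.Γw q w → k,
      (∀ q w, c q w ∈ Z2w k 𝔓 q w) ∧ IsB3cK 𝔓 (x - (0, c)) := by
  obtain ⟨f, hf, hfx⟩ := hI2 x.1 hx.1.1 hx.1.2
  refine ⟨fun q w => x.2 q w - 𝔓.res₂ q w f, fun q w => ?_, ?_⟩
  · refine ⟨?_, ?_⟩
    · show tTwo (x.2 q w - 𝔓.res₂ q w f) = 0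
      rw [sub_eq_add_neg, tTwo_add, ← (hx.2 q w).2, ← hfx, res₃_tTwo]
      have : tTwo (-𝔓.res₂ q w f) = - tTwo (𝔓.res₂ q w f) := by
        have := tTwo_smul (-1 : k) (𝔓.res₂ q w f)
        simpa using this
      rw [this, add_neg_cancel]
    · show IsLevelConstant₂ (𝔓.rw q w) (x.2 q w - 𝔓.res₂ q w f)
      rw [sub_eq_add_neg]
      exact (hx.2 q w).1.add ((levL₂_res₂ hf q w).comp (fun c => -c))
  · rw [isB3cK_iff]
    refine ⟨(f, 0), hf, fun q w => isLevelConstant₁_const (𝔓.rw q w) (0 : k), ?_⟩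
    refine Prod.ext ?_ (funext fun q => funext fun w => funext fun t => ?_)
    · show x.1 - 0 = tTwo f
      rw [sub_zero, hfx]
    · simp only [dCone2K, Prod.snd_sub, Pi.sub_apply, tOne_zero, Pi.zero_apply, sub_zero]
      ring

/-- **`α³mono` at `K`-level** from `H³_S(G_K) = 0`, `dim coker(H²_S → ⊕ H²(K_w)) ≤ 1` and the
nontriviality of the trace. -/
theorem alphaThreeMonoK_of (tr : TraceK 𝔓 k)
    (hI2 : ∀ F : ↥K.fixingSubgroup × ↥K.fixingSubgroup × ↥K.fixingSubgroup → k,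
      tThree F = 0 → IsLevK₃ S K F →
      ∃ f : ↥K.fixingSubgroup × ↥K.fixingSubgroup → k, IsLevK₂ S K f ∧ tTwo f = F)
    (hI4a : ∀ c c' : ∀ (q : ↥S) (w : 𝔓.W q), 𝔓.Γw q w × 𝔓.Γw q w → k,
      (∀ q w, c q w ∈ Z2w k 𝔓 q w) → (∀ q w, c' q w ∈ Z2w k 𝔓 q w) →
      ∃ α β : k, (α ≠ 0 ∨ β ≠ 0) ∧
        IsB3cK 𝔓 ((0, fun q w => α • c q w + β • c' q w) : 𝔓.C3 k))
    (hne : ∃ x : 𝔓.C3 k, IsZ3cK 𝔓 x ∧ tr.toFun x ≠ 0) : AlphaThreeMonoK tr := by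
  intro x hx hx0
  obtain ⟨x₀, hx₀, hne⟩ := hne
  obtain ⟨c, hc, hxc⟩ := exists_loc_rep hI2 x hx
  obtain ⟨c₀, hc₀, hxc₀⟩ := exists_loc_rep hI2 x₀ hx₀
  have h1 : tr.toFun ((0, c) : 𝔓.C3 k) = 0 := by
    rw [← tr_eq_of_sub tr hxc]
    have := hx0 1
    rwa [cupA3K_eq_smul, one_smul] at this
  have h2 : tr.toFun ((0, c₀) : 𝔓.C3 k) ≠ 0 := by
    rwa [← tr_eq_of_sub tr hxc₀]
  obtain ⟨α, β, hαβ, hB⟩ := hI4a c c₀ hc hc₀
  have e : ((0, fun q w => α • c q w + β • c₀ q w) : 𝔓.C3 k) =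
      α • ((0, c) : 𝔓.C3 k) + β • ((0, c₀) : 𝔓.C3 k) := by
    rw [← pair_loc_smul, ← pair_loc_smul, ← pair_loc_add]
    rfl
  have h3 := tr.zero_of_isB3cK _ hB
  rw [e, map_add, map_smul, map_smul, h1, smul_zero, zero_add, smul_eq_mul] at h3
  have hβ : β = 0 := (mul_eq_zero.1 h3).resolve_right h2
  have hα : α ≠ 0 := by
    rcases hαβ with h | h
    · exact h
    · exact absurd hβ h
  rw [e, hβ, zero_smul, add_zero] at hB
  have h4 : IsB3cK 𝔓 ((0, c) : 𝔓.C3 k) := by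
    have := (B3cK k 𝔓).smul_mem α⁻¹ hB
    rwa [smul_smul, inv_mul_cancel₀ hα, one_smul] at this
  have h5 := (B3cK k 𝔓).add_mem hxc h4
  rwa [sub_add_cancel] at h5

/-- A family of local 2-cocycles of trace zero is a cone coboundary. -/
lemma isB3cK_loc_of_tr_eq_zero (tr : TraceK 𝔓 k) (hα3 : AlphaThreeMonoK tr)
    (c : ∀ (q : ↥S) (w : 𝔓.W q), 𝔓.Γw q w × 𝔓.Γw q w → k)
    (hc : ∀ q w, c q w ∈ Z2w k 𝔓 q w) (h : tr.toFun ((0, c) : 𝔓.C3 k) = 0) :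
    IsB3cK 𝔓 ((0, c) : 𝔓.C3 k) := by
  refine hα3 _ (isZ3cK_loc c hc) (fun m => ?_)
  rw [cupA3K_eq_smul, map_smul, h, smul_zero]

/-! ### Nondegeneracy of the local pairing -/

theorem lam_nondeg (tr : TraceK 𝔓 k) (hα3 : AlphaThreeMonoK tr)
    (hI1c : ∀ (q : ↥S) (w : 𝔓.W q) (g : 𝔓.Γw q w → k), g ∈ Z1w k 𝔓 q w → g ≠ 0 →
      ∃ b : 𝔓.Γw q w → k, b ∈ Z1w k 𝔓 q w ∧
        (fun t : 𝔓.Γw q w × 𝔓.Γw q w => g t.1 * b t.2) ∉ B2w k 𝔓 q w)
    (hI4b : ∀ c : ∀ (q : ↥S) (w : 𝔓.W q), 𝔓.Γw q w × 𝔓.Γw q w → k,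
      (∀ q w, c q w ∈ Z2w k 𝔓 q w) → IsB3cK 𝔓 ((0, c) : 𝔓.C3 k) →
      ∀ (q₀ : ↥S) (w₀ : 𝔓.W q₀),
        (∀ (q : ↥S) (w : 𝔓.W q), (⟨q, w⟩ : Σ q : ↥S, 𝔓.W q) ≠ ⟨q₀, w₀⟩ → c q w = 0) →
        c q₀ w₀ ∈ B2w k 𝔓 q₀ w₀)
    (g : P1 k 𝔓) (hg : ∀ b, lam tr g b = 0) : g = 0 := by
  classical
  by_contra hne
  have : ∃ (q₀ : ↥S) (w₀ : 𝔓.W q₀), g q₀ w₀ ≠ 0 := by
    by_contra h
    simp only [not_exists, not_not] at h
    exact hne (funext fun q => funext fun w => h q w)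
  obtain ⟨q₀, w₀, hgw⟩ := this
  have hgw' : (g q₀ w₀).1 ≠ 0 := fun h => hgw (Subtype.ext h)
  obtain ⟨b, hb, hnb⟩ := hI1c q₀ w₀ (g q₀ w₀).1 (g q₀ w₀).2 hgw'
  let B : ∀ i : (Σ q : ↥S, 𝔓.W q), ↥(Z1w k 𝔓 i.1 i.2) :=
    Function.update (fun _ => 0) (⟨q₀, w₀⟩ : Σ q : ↥S, 𝔓.W q) ⟨b, hb⟩
  let b' : P1 k 𝔓 := fun q w => B ⟨q, w⟩
  have hb'0 : b' q₀ w₀ = ⟨b, hb⟩ := Function.update_self _ _ _
  have hb'1 : ∀ (q : ↥S) (w : 𝔓.W q), (⟨q, w⟩ : Σ q : ↥S, 𝔓.W q) ≠ ⟨q₀, w₀⟩ → b' q w = 0 :=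
    fun q w h => Function.update_of_ne h _ _
  let c : ∀ (q : ↥S) (w : 𝔓.W q), 𝔓.Γw q w × 𝔓.Γw q w → k :=
    fun q w t => (g q w).1 t.1 * (b' q w).1 t.2
  have hc : ∀ q w, c q w ∈ Z2w k 𝔓 q w := fun q w => cup_mem_Z2w q w (g q w).2 (b' q w).2
  have h0 : tr.toFun ((0, c) : 𝔓.C3 k) = 0 := hg b'
  have hB := isB3cK_loc_of_tr_eq_zero tr hα3 c hc h0
  have h1 := hI4b c hc hB q₀ w₀ (fun q w h => by
    funext t
    show (g q w).1 t.1 * (b' q w).1 t.2 = 0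
    rw [hb'1 q w h]
    show (g q w).1 t.1 * (0 : 𝔓.Γw q w → k) t.2 = 0
    rw [Pi.zero_apply, mul_zero])
  apply hnb
  have e : c q₀ w₀ = fun t : 𝔓.Γw q₀ w₀ × 𝔓.Γw q₀ w₀ => (g q₀ w₀).1 t.1 * b t.2 := by
    funext t
    show (g q₀ w₀).1 t.1 * (b' q₀ w₀).1 t.2 = _
    rw [hb'0]
  rw [← e]
  exact h1

/-! ### The restriction map `H²_S(G_K) → ⊕ H²(K_w)` -/

variable (k 𝔓) in
/-- `⊕_w H²(K_w, k)`. -/
abbrev P2 : Type := ∀ (q : ↥S) (w : 𝔓.W q), H2w k 𝔓 q w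

lemma res₂_mem_Z2w {a : ↥K.fixingSubgroup × ↥K.fixingSubgroup → k} (ha : IsZ2K S K a) (q : ↥S)
    (w : 𝔓.W q) : 𝔓.res₂ q w a ∈ Z2w k 𝔓 q w := by
  refine ⟨?_, levL₂_res₂ ha.2 q w⟩
  rw [← res₃_tTwo, ha.1]
  rfl

variable (k 𝔓) in
/-- Restriction of global 2-cocycles to the local group at `w`. -/
def r2wc (q : ↥S) (w : 𝔓.W q) : ↥(Z2K k S K) →ₗ[k] ↥(Z2w k 𝔓 q w) where
  toFun a := ⟨𝔓.res₂ q w a.1, res₂_mem_Z2w a.2 q w⟩
  map_add' _ _ := rfl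
  map_smul' _ _ := rfl

lemma r2wc_B2K (q : ↥S) (w : 𝔓.W q) :
    (B2K k S K).comap (Z2K k S K).subtype ≤
      ((B2w k 𝔓 q w).comap (Z2w k 𝔓 q w).subtype).comap (r2wc k 𝔓 q w) := by
  intro a ha
  obtain ⟨f, hf, hfa⟩ := (ha : IsB2K S K a.1)
  have hfa : tOne f = a.1 := hfa
  show 𝔓.res₂ q w a.1 ∈ B2w k 𝔓 q w
  refine ⟨𝔓.res₁ q w f, levL₁_res₁ hf q w, ?_⟩
  rw [← res₂_tOne, hfa]

variable (k 𝔓) in
/-- `H²_S(G_K) → H²(K_w)`. -/
def r2w (q : ↥S) (w : 𝔓.W q) : H2K k S K →ₗ[k] H2w k 𝔓 q w :=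
  Submodule.mapQ _ _ (r2wc k 𝔓 q w) (r2wc_B2K q w)

lemma r2w_mk (q : ↥S) (w : 𝔓.W q) (a : ↥(Z2K k S K)) :
    r2w k 𝔓 q w (Submodule.Quotient.mk a) = Submodule.Quotient.mk (r2wc k 𝔓 q w a) := rfl

lemma r2w_mk_eq_zero_iff (q : ↥S) (w : 𝔓.W q) (a : ↥(Z2K k S K)) :
    r2w k 𝔓 q w (Submodule.Quotient.mk a) = 0 ↔ 𝔓.res₂ q w a.1 ∈ B2w k 𝔓 q w := by
  rw [r2w_mk, Submodule.Quotient.mk_eq_zero]
  rfl

variable (k 𝔓) in
/-- `r2 : H²_S(G_K) → ⊕_w H²(K_w)`. -/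
def r2 : H2K k S K →ₗ[k] P2 k 𝔓 :=
  LinearMap.pi (fun q => LinearMap.pi (fun w => r2w k 𝔓 q w))

lemma r2_apply (a : H2K k S K) (q : ↥S) (w : 𝔓.W q) : r2 k 𝔓 a q w = r2w k 𝔓 q w a := rfl

lemma r2_mk_eq_zero_iff (a : ↥(Z2K k S K)) :
    r2 k 𝔓 (Submodule.Quotient.mk a) = 0 ↔
      ∀ (q : ↥S) (w : 𝔓.W q), 𝔓.res₂ q w a.1 ∈ B2w k 𝔓 q w := by
  constructor
  · intro h q w
    rw [← r2w_mk_eq_zero_iff, ← r2_apply, h]
    rfl
  · intro h
    funext q w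
    rw [r2_apply]
    exact (r2w_mk_eq_zero_iff q w a).2 (h q w)

/-- `Ш² ⊇ im(H²_c)`. -/
lemma π2_mem_ker_r2 (x : Hc2 k 𝔓) : π2 k 𝔓 x ∈ LinearMap.ker (r2 k 𝔓) := by
  obtain ⟨x, rfl⟩ := Submodule.mkQ_surjective _ x
  rw [LinearMap.mem_ker, Submodule.mkQ_apply, π2_mk, r2_mk_eq_zero_iff]
  intro q w
  exact ⟨x.1.2 q w, (x.2.2 q w).1, (x.2.2 q w).2.symm⟩

/-- `Ш² ⊆ im(H²_c)`. -/
lemma exists_π2_of_mem_ker_r2 (a : H2K k S K) (ha : a ∈ LinearMap.ker (r2 k 𝔓)) :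
    ∃ x : Hc2 k 𝔓, π2 k 𝔓 x = a := by
  obtain ⟨a, rfl⟩ := Submodule.mkQ_surjective _ a
  rw [LinearMap.mem_ker, Submodule.mkQ_apply, r2_mk_eq_zero_iff] at ha
  choose g hg1 hg2 using ha
  exact ⟨Submodule.Quotient.mk ⟨(a.1, g), a.2, fun q w => ⟨hg1 q w, (hg2 q w).symm⟩⟩, rfl⟩

/-- A class of `H²_S(G_K)` orthogonal to all cone 1-cocycles is locally trivial. -/
theorem mem_ker_r2_of_orth (tr : TraceK 𝔓 k) (hα3 : AlphaThreeMonoK tr)
    (hI4b : ∀ c : ∀ (q : ↥S) (w : 𝔓.W q), 𝔓.Γw q w × 𝔓.Γw q w → k,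
      (∀ q w, c q w ∈ Z2w k 𝔓 q w) → IsB3cK 𝔓 ((0, c) : 𝔓.C3 k) →
      ∀ (q₀ : ↥S) (w₀ : 𝔓.W q₀),
        (∀ (q : ↥S) (w : 𝔓.W q), (⟨q, w⟩ : Σ q : ↥S, 𝔓.W q) ≠ ⟨q₀, w₀⟩ → c q w = 0) →
        c q₀ w₀ ∈ B2w k 𝔓 q₀ w₀)
    (a : H2K k S K) (ha : ∀ y, ΨR tr a y = 0) : a ∈ LinearMap.ker (r2 k 𝔓) := by
  classical
  obtain ⟨a, rfl⟩ := Submodule.mkQ_surjective _ a
  rw [LinearMap.mem_ker, Submodule.mkQ_apply, r2_mk_eq_zero_iff]
  intro q₀ w₀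
  let m : ∀ (q : ↥S), 𝔓.W q → k :=
    fun q w => if (⟨q, w⟩ : Σ q : ↥S, 𝔓.W q) = ⟨q₀, w₀⟩ then 1 else 0
  have hm0 : m q₀ w₀ = 1 := if_pos rfl
  have hm1 : ∀ (q : ↥S) (w : 𝔓.W q), (⟨q, w⟩ : Σ q : ↥S, 𝔓.W q) ≠ ⟨q₀, w₀⟩ → m q w = 0 :=
    fun q w h => if_neg h
  let y : ↥(Z1cK k 𝔓) := ⟨(0, m), (Z1K k S K).zero_mem, fun q w => rfl⟩
  let c : ∀ (q : ↥S) (w : 𝔓.W q), 𝔓.Γw q w × 𝔓.Γw q w → k :=
    fun q w => m q w • 𝔓.res₂ q w a.1
  have hc : ∀ q w, c q w ∈ Z2w k 𝔓 q w :=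
    fun q w => (Z2w k 𝔓 q w).smul_mem _ (res₂_mem_Z2w a.2 q w)
  have e : cupB1K 𝔓 a.1 y.1 = ((0, c) : 𝔓.C3 k) := by
    refine Prod.ext (funext fun t => ?_) (funext fun q => funext fun w => funext fun t => ?_)
    · show a.1 (t.1, t.2.1) * (0 : ↥K.fixingSubgroup → k) t.2.2 = 0
      rw [Pi.zero_apply, mul_zero]
    · show a.1 (𝔓.ρw q w t.1, 𝔓.ρw q w t.2) * m q w = m q w * 𝔓.res₂ q w a.1 t
      rw [mul_comm]
      rfl
  have h0 : tr.toFun ((0, c) : 𝔓.C3 k) = 0 := by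
    rw [← e]
    exact ha y
  have hB := isB3cK_loc_of_tr_eq_zero tr hα3 c hc h0
  have h1 := hI4b c hc hB q₀ w₀ (fun q w h => by
    show m q w • 𝔓.res₂ q w a.1 = 0
    rw [hm1 q w h, zero_smul])
  have e2 : c q₀ w₀ = 𝔓.res₂ q₀ w₀ a.1 := by
    show m q₀ w₀ • 𝔓.res₂ q₀ w₀ a.1 = _
    rw [hm0, one_smul]
  rw [← e2]
  exact h1

end Fermat.Agent.S55.Top.H48

end

end
-- ==== END Fermat.Agent.S55.Top.H48_PTLoc

-- ==== BEGIN Fermat.Agent.S55.Top.LevMaps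
section

set_option autoImplicit false
set_option linter.unusedSectionVars false
set_option linter.unusedSimpArgs false

open CategoryTheory Module groupCohomology ExtCitation

noncomputable section

namespace Fermat.Agent.S55.Top

open Fermat.Agent.S55 OrbitData

attribute [local instance] locAct

variable {k : Type} [Field k] {S : Finset Nat.Primes}
  {K : IntermediateField ℚ (AlgebraicClosure ℚ)}

/-! ### Good level fields -/

/-- `F` is a good level field for `K`: it is normal and contains `K`. -/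
structure GoodLev (K F : IntermediateField ℚ (AlgebraicClosure ℚ)) : Prop where
  normal : F.fixingSubgroup.Normal
  le : K ≤ F

lemma GoodLev.mem_fixK {F : IntermediateField ℚ (AlgebraicClosure ℚ)} (h : GoodLev K F)
    {s : GQ} (hs : s ∈ F.fixingSubgroup) : s ∈ K.fixingSubgroup :=
  mem_fix_of_le h.le hs

lemma GoodLev.triv {F : IntermediateField ℚ (AlgebraicClosure ℚ)} (h : GoodLev K F)
    (s : GQ) (hs : s ∈ F.fixingSubgroup) (x : XK K) : s • x = x := by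
  induction x using QuotientGroup.induction_on with
  | H γ =>
    rw [MulAction.Quotient.smul_mk, smul_eq_mul]
    apply QuotientGroup.eq.2
    have h1 : γ⁻¹ * s⁻¹ * γ ∈ F.fixingSubgroup := by
      have := h.normal.conj_mem s⁻¹ (F.fixingSubgroup.inv_mem hs) γ⁻¹
      simpa using this
    have h2 := h.mem_fixK h1
    have h3 : (s * γ)⁻¹ * γ = γ⁻¹ * s⁻¹ * γ := by group
    rw [h3]
    exact h2

lemma GoodLev.trivL {F : IntermediateField ℚ (AlgebraicClosure ℚ)} (h : GoodLev K F)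
    (q : Nat.Primes) (s : Gl q) (hs : s ∈ F.fixingSubgroup.comap (rl q)) (x : XK K) :
    s • x = x :=
  h.triv (rl q s) hs x

lemma GoodLev.normalL {F : IntermediateField ℚ (AlgebraicClosure ℚ)} (h : GoodLev K F)
    (q : Nat.Primes) : (F.fixingSubgroup.comap (rl q)).Normal :=
  h.normal.comap _

lemma exists_goodLev_S (hK : K.IsUnramifiedOutside S)
    {F₀ : IntermediateField ℚ (AlgebraicClosure ℚ)} (hF₀ : F₀.IsUnramifiedOutside S) :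
    ∃ F : IntermediateField ℚ (AlgebraicClosure ℚ), F₀ ≤ F ∧ F.IsUnramifiedOutside S ∧
      GoodLev K F := by
  obtain ⟨F, hle, hF, hn⟩ := H48.exists_normal_level S (F₀ ⊔ K) (hF₀.sup hK)
  exact ⟨F, le_sup_left.trans hle, hF, ⟨hn, le_sup_right.trans hle⟩⟩

lemma exists_goodLev_fin (hK : FiniteDimensional ℚ K)
    {F₀ : IntermediateField ℚ (AlgebraicClosure ℚ)} (hF₀ : FiniteDimensional ℚ F₀) :
    ∃ F : IntermediateField ℚ (AlgebraicClosure ℚ), F₀ ≤ F ∧ FiniteDimensional ℚ F ∧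
      GoodLev K F := by
  have hsup : FiniteDimensional ℚ (F₀ ⊔ K : IntermediateField ℚ (AlgebraicClosure ℚ)) :=
    IntermediateField.finiteDimensional_sup F₀ K
  obtain ⟨F, hle, hF, hn⟩ := ncfin (F₀ ⊔ K) hsup
  exact ⟨F, le_sup_left.trans hle, hF, ⟨hn, le_sup_right.trans hle⟩⟩

lemma exists_common_fin {ι : Type} [Finite ι]
    (F : ι → IntermediateField ℚ (AlgebraicClosure ℚ)) (h : ∀ i, FiniteDimensional ℚ (F i)) :
    ∃ F' : IntermediateField ℚ (AlgebraicClosure ℚ), (∀ i, F i ≤ F') ∧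
      FiniteDimensional ℚ F' :=
  ⟨⨆ i, F i, fun i => le_iSup F i, IntermediateField.finiteDimensional_iSup_of_finite⟩

variable (𝔓 : PlaceSys S K)

/-! ### Extension by zero is invariant -/

lemma eG₁_inv {F : IntermediateField ℚ (AlgebraicClosure ℚ)} (hF : GoodLev K F)
    {b : ↥K.fixingSubgroup → k}
    (hb : ∀ g s : ↥K.fixingSubgroup, (s : GQ) ∈ F.fixingSubgroup → b (g * s) = b g)
    (r : Unit) (g s : GQ) (hs : s ∈ F.fixingSubgroup) : eG₁ b r (g * s) = eG₁ b r g := by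
  have hsK := hF.mem_fixK hs
  by_cases hg : g ∈ K.fixingSubgroup
  · rw [eG₁_mem b hg, eG₁_mem b (K.fixingSubgroup.mul_mem hg hsK)]
    exact hb ⟨g, hg⟩ ⟨s, hsK⟩ hs
  · have hg' : ¬ g * s ∈ K.fixingSubgroup := fun h => hg (by
      have := K.fixingSubgroup.mul_mem h (K.fixingSubgroup.inv_mem hsK)
      simpa using this)
    simp only [eG₁]
    rw [dif_neg hg, dif_neg hg']

lemma eG₂_inv {F : IntermediateField ℚ (AlgebraicClosure ℚ)} (hF : GoodLev K F)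
    {a : ↥K.fixingSubgroup × ↥K.fixingSubgroup → k}
    (ha : ∀ g₁ g₂ s₁ s₂ : ↥K.fixingSubgroup, (s₁ : GQ) ∈ F.fixingSubgroup →
      (s₂ : GQ) ∈ F.fixingSubgroup → a (g₁ * s₁, g₂ * s₂) = a (g₁, g₂))
    (r : Unit) (g₁ g₂ s₁ s₂ : GQ) (h₁ : s₁ ∈ F.fixingSubgroup) (h₂ : s₂ ∈ F.fixingSubgroup) :
    eG₂ a r (g₁ * s₁, g₂ * s₂) = eG₂ a r (g₁, g₂) := by
  have hs₁ := hF.mem_fixK h₁
  have hs₂ := hF.mem_fixK h₂
  by_cases hg : g₁ ∈ K.fixingSubgroup ∧ g₂ ∈ K.fixingSubgroup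
  · rw [eG₂_mem a hg.1 hg.2, eG₂_mem a (K.fixingSubgroup.mul_mem hg.1 hs₁)
      (K.fixingSubgroup.mul_mem hg.2 hs₂)]
    exact ha ⟨g₁, hg.1⟩ ⟨g₂, hg.2⟩ ⟨s₁, hs₁⟩ ⟨s₂, hs₂⟩ h₁ h₂
  · have hg' : ¬ (g₁ * s₁ ∈ K.fixingSubgroup ∧ g₂ * s₂ ∈ K.fixingSubgroup) := fun h => hg (by
      have a1 := K.fixingSubgroup.mul_mem h.1 (K.fixingSubgroup.inv_mem hs₁)
      have a2 := K.fixingSubgroup.mul_mem h.2 (K.fixingSubgroup.inv_mem hs₂)
      exact ⟨by simpa using a1, by simpa using a2⟩)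
    simp only [eG₂]
    rw [dif_neg hg, dif_neg hg']

lemma PlaceSys.eL₁_inv {F : IntermediateField ℚ (AlgebraicClosure ℚ)} (hF : GoodLev K F)
    (q : ↥S) {z : ∀ w : 𝔓.W q, 𝔓.Γw q w → k}
    (hz : ∀ (w : 𝔓.W q) (g s : 𝔓.Γw q w), 𝔓.rw q w s ∈ F.fixingSubgroup →
      z w (g * s) = z w g)
    (w : 𝔓.W q) (g s : Gl q.1) (hs : s ∈ F.fixingSubgroup.comap (rl q.1)) :
    𝔓.eL₁ q z w (g * s) = 𝔓.eL₁ q z w g := by
  have hsΓ : s ∈ 𝔓.Γw q w := hF.trivL q.1 s hs _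
  by_cases hg : g ∈ 𝔓.Γw q w
  · rw [𝔓.eL₁_mem q z w hg, 𝔓.eL₁_mem q z w ((𝔓.Γw q w).mul_mem hg hsΓ)]
    exact hz w ⟨g, hg⟩ ⟨s, hsΓ⟩ hs
  · have hg' : ¬ g * s ∈ 𝔓.Γw q w := fun h => hg (by
      have := (𝔓.Γw q w).mul_mem h ((𝔓.Γw q w).inv_mem hsΓ)
      simpa using this)
    simp only [PlaceSys.eL₁]
    rw [dif_neg hg, dif_neg hg']

/-! ### Global level lemmas -/

variable {𝔓}

lemma lev_indK₁ (hK : K.IsUnramifiedOutside S) {b : ↥K.fixingSubgroup → k}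
    (hb : IsLevK₁ S K b) : IsLevelConstantS₁ S (𝔓.indK₁ b) := by
  obtain ⟨F₀, hF₀, h⟩ := hb
  obtain ⟨F, hle, hF, hG⟩ := exists_goodLev_S hK hF₀
  refine ⟨F, hF, fun g s hs => ?_⟩
  exact 𝔓.glob.inv_ind1 F.fixingSubgroup hG.normal hG.triv
    (eG₁_inv hG (fun g s hs => h g s (mem_fix_of_le hle hs))) g s hs

lemma lev_indK₂ (hK : K.IsUnramifiedOutside S)
    {a : ↥K.fixingSubgroup × ↥K.fixingSubgroup → k}
    (ha : IsLevK₂ S K a) : IsLevelConstantS₂ S (𝔓.indK₂ a) := by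
  obtain ⟨F₀, hF₀, h⟩ := ha
  obtain ⟨F, hle, hF, hG⟩ := exists_goodLev_S hK hF₀
  refine ⟨F, hF, fun g g' s s' hs hs' => ?_⟩
  exact 𝔓.glob.inv_ind2 F.fixingSubgroup hG.normal hG.triv
    (eG₂_inv hG (fun g₁ g₂ s₁ s₂ h₁ h₂ =>
      h g₁ g₂ s₁ s₂ (mem_fix_of_le hle h₁) (mem_fix_of_le hle h₂))) g g' s s' hs hs'

lemma lev_glob_hty2 (hK : K.IsUnramifiedOutside S) {B : GQ × GQ → XK K → k}
    (hB : IsLevelConstantS₂ S B) : IsLevelConstantS₁ S (𝔓.glob.hty2 B) := by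
  obtain ⟨F₀, hF₀, h⟩ := hB
  obtain ⟨F, hle, hF, hG⟩ := exists_goodLev_S hK hF₀
  refine ⟨F, hF, fun g s hs => ?_⟩
  exact 𝔓.glob.inv_hty2 F.fixingSubgroup hG.normal hG.triv
    (fun g₁ g₂ s₁ s₂ h₁ h₂ => h g₁ g₂ s₁ s₂ (mem_fix_of_le hle h₁) (mem_fix_of_le hle h₂))
    g s hs

lemma lev_glob_hty3 (hK : K.IsUnramifiedOutside S) {A : GQ × GQ × GQ → XK K → k}
    (hA : IsLevS₃ S A) : IsLevelConstantS₂ S (𝔓.glob.hty3 A) := by
  obtain ⟨F₀, hF₀, h⟩ := hA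
  obtain ⟨F, hle, hF, hG⟩ := exists_goodLev_S hK hF₀
  refine ⟨F, hF, fun g g' s s' hs hs' => ?_⟩
  exact 𝔓.glob.inv_hty3 F.fixingSubgroup hG.normal hG.triv
    (fun g₁ g₂ g₃ s₁ s₂ s₃ h₁ h₂ h₃ => h g₁ g₂ g₃ s₁ s₂ s₃ (mem_fix_of_le hle h₁)
      (mem_fix_of_le hle h₂) (mem_fix_of_le hle h₃)) g g' s s' hs hs'

lemma lev_shK₁ {B : GQ → XK K → k} (hB : IsLevelConstantS₁ S B) :
    IsLevK₁ S K (𝔓.shK₁ B) := by
  obtain ⟨F, hF, h⟩ := hB
  refine ⟨F, hF, fun g s hs => ?_⟩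
  show B (g.1 * s.1) _ = B g.1 _
  rw [h g.1 s.1 hs]

lemma lev_shK₂ {B : GQ × GQ → XK K → k} (hB : IsLevelConstantS₂ S B) :
    IsLevK₂ S K (𝔓.shK₂ B) := by
  obtain ⟨F, hF, h⟩ := hB
  refine ⟨F, hF, fun g₁ g₂ s₁ s₂ h₁ h₂ => ?_⟩
  show B (g₁.1 * s₁.1, g₂.1 * s₂.1) _ = B (g₁.1, g₂.1) _
  rw [h g₁.1 g₂.1 s₁.1 s₂.1 h₁ h₂]

lemma lev_shK₃ {B : GQ × GQ × GQ → XK K → k} (hB : IsLevS₃ S B) :
    IsLevK₃ S K (𝔓.shK₃ B) := by
  obtain ⟨F, hF, h⟩ := hB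
  refine ⟨F, hF, fun g₁ g₂ g₃ s₁ s₂ s₃ h₁ h₂ h₃ => ?_⟩
  show B (g₁.1 * s₁.1, g₂.1 * s₂.1, g₃.1 * s₃.1) _ = B (g₁.1, g₂.1, g₃.1) _
  rw [h g₁.1 g₂.1 g₃.1 s₁.1 s₂.1 s₃.1 h₁ h₂ h₃]

/-! ### Local level lemmas -/

lemma lev_indL₁ (hK : K.IsUnramifiedOutside S) (q : ↥S) {z : ∀ w : 𝔓.W q, 𝔓.Γw q w → k}
    (hz : ∀ w : 𝔓.W q, IsLevelConstant₁ (𝔓.rw q w) (z w)) :
    IsLevelConstant₁ (rl q.1) (𝔓.indL₁ q z) := by
  choose Fw hFw hw using hz
  have hfin : Finite (𝔓.W q) := @Finite.of_fintype _ (𝔓.fin q)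
  obtain ⟨F₀, hle₀, hF₀⟩ := exists_common_fin Fw hFw
  obtain ⟨F, hle, hF, hG⟩ := exists_goodLev_fin hK.1 hF₀
  refine ⟨F, hF, fun g s hs => ?_⟩
  exact (𝔓.loc q).inv_ind1 (F.fixingSubgroup.comap (rl q.1)) (hG.normalL q.1) (hG.trivL q.1)
    (𝔓.eL₁_inv hG q (fun w g s hs =>
      hw w g s (mem_fix_of_le ((hle₀ w).trans hle) hs))) g s hs

lemma lev_loc_hty2 (hK : K.IsUnramifiedOutside S) (q : ↥S) {Y : Gl q.1 × Gl q.1 → XK K → k}
    (hY : IsLevelConstant₂ (rl q.1) Y) : IsLevelConstant₁ (rl q.1) ((𝔓.loc q).hty2 Y) := by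
  obtain ⟨F₀, hF₀, h⟩ := hY
  obtain ⟨F, hle, hF, hG⟩ := exists_goodLev_fin hK.1 hF₀
  refine ⟨F, hF, fun g s hs => ?_⟩
  exact (𝔓.loc q).inv_hty2 (F.fixingSubgroup.comap (rl q.1)) (hG.normalL q.1) (hG.trivL q.1)
    (fun g₁ g₂ s₁ s₂ h₁ h₂ => h g₁ g₂ s₁ s₂ (mem_fix_of_le hle h₁) (mem_fix_of_le hle h₂))
    g s hs

lemma lev_shL₁ (q : ↥S) {Y : Gl q.1 → XK K → k} (hY : IsLevelConstant₁ (rl q.1) Y)
    (w : 𝔓.W q) : IsLevelConstant₁ (𝔓.rw q w) (𝔓.shL₁ q Y w) := by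
  obtain ⟨F, hF, h⟩ := hY
  refine ⟨F, hF, fun g s hs => ?_⟩
  show Y (g.1 * s.1) _ = Y g.1 _
  rw [h g.1 s.1 hs]

lemma lev_shL₂ (q : ↥S) {Y : Gl q.1 × Gl q.1 → XK K → k} (hY : IsLevelConstant₂ (rl q.1) Y)
    (w : 𝔓.W q) : IsLevelConstant₂ (𝔓.rw q w) (𝔓.shL₂ q Y w) := by
  obtain ⟨F, hF, h⟩ := hY
  refine ⟨F, hF, fun g₁ g₂ s₁ s₂ h₁ h₂ => ?_⟩
  show Y (g₁.1 * s₁.1, g₂.1 * s₂.1) _ = Y (g₁.1, g₂.1) _
  rw [h g₁.1 g₂.1 s₁.1 s₂.1 h₁ h₂]

lemma lev_cup10 (hK : K.IsUnramifiedOutside S) (q : ↥S) {V : Gl q.1 → XK K → k}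
    (hV : IsLevelConstant₁ (rl q.1) V) (β : XK K → k) :
    IsLevelConstant₁ (rl q.1) (cup10 V β) := by
  obtain ⟨F₀, hF₀, h⟩ := hV
  obtain ⟨F, hle, hF, hG⟩ := exists_goodLev_fin hK.1 hF₀
  refine ⟨F, hF, fun g s hs => ?_⟩
  exact inv_cup10 (F.fixingSubgroup.comap (rl q.1)) (hG.normalL q.1) (hG.trivL q.1)
    (fun g s hs => h g s (mem_fix_of_le hle hs)) β g s hs

lemma lev_cup20 (hK : K.IsUnramifiedOutside S) (q : ↥S) {A : Gl q.1 × Gl q.1 → XK K → k}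
    (hA : IsLevelConstant₂ (rl q.1) A) (β : XK K → k) :
    IsLevelConstant₂ (rl q.1) (cup20 A β) := by
  obtain ⟨F₀, hF₀, h⟩ := hA
  obtain ⟨F, hle, hF, hG⟩ := exists_goodLev_fin hK.1 hF₀
  refine ⟨F, hF, fun g g' s s' hs hs' => ?_⟩
  exact inv_cup20 (F.fixingSubgroup.comap (rl q.1)) (hG.normalL q.1) (hG.trivL q.1)
    (fun g₁ g₂ s₁ s₂ h₁ h₂ => h g₁ g₂ s₁ s₂ (mem_fix_of_le hle h₁) (mem_fix_of_le hle h₂))
    β g g' s s' hs hs'

lemma lev_cup01 (q : ↥S) {V : Gl q.1 → XK K → k}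
    (hV : IsLevelConstant₁ (rl q.1) V) (α : XK K → k) :
    IsLevelConstant₁ (rl q.1) (cup01 α V) :=
  levL₁_comp (q := q.1) hV (fun (φ : XK K → k) (x : XK K) => α x * φ x)

lemma lev_cup02 (q : ↥S) {A : Gl q.1 × Gl q.1 → XK K → k}
    (hA : IsLevelConstant₂ (rl q.1) A) (α : XK K → k) :
    IsLevelConstant₂ (rl q.1) (cup02 α A) :=
  levL₂_comp (q := q.1) hA (fun (φ : XK K → k) (x : XK K) => α x * φ x)

end Fermat.Agent.S55.Top

end

end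
-- ==== END Fermat.Agent.S55.Top.LevMaps
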