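-- GENERATED (merged mirror, NOTES/tools/trim/merge3_helper67.py): 9 modules of the originals, bodies verbatim.
import Mathlib.RingTheory.Norm.Transitivity
import Mathlib.FieldTheory.Finiteness
import Fermat.Agent.Zm.S56_L09_002
import Fermat.Agent.Zm.S56_L09_000
import Fermat.Agent.Zm.S56_L05_001
import Fermat.Agent.Zm.S56_L02_002
import Fermat.Agent.Zm.S56_L09_001
import Fermat.Agent.Zm.S56_L06_002
import Fermat.Agent.Zm.S56_L05_002
import Fermat.Agent.Zm.S56_L07_002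
import Fermat.Agent.Zm.S56_L04_003
import Fermat.Agent.Zm.S56_L04_002
import Fermat.Agent.Zm.S56_L06_001
import Fermat.Agent.Zm.S56_L07_000

-- ==== BEGIN Fermat.Agent.S55.CFT.GS.H24_AsmI2
section

set_option autoImplicit false
set_option linter.unusedSectionVars false
set_option linter.unusedVariables false
set_option linter.style.haveILetI false

open CategoryTheory Module groupCohomology ExtCitation

noncomputable section

namespace Fermat.Agent.S55.CFT.GS.H24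

open Fermat.Agent.S55 Fermat.Agent.S55.Top Fermat.Agent.S55.CFT.GS

local notation "Qb" => AlgebraicClosure ℚ

/-- **GS-AsmLift2.** -/
theorem asmLift2 : Stmt_GS_AsmLift2 := by
  intro hDiv hRes p _ hp2 S hp K hK w hw hwW hwc
  have hwΩ : ∀ t, InOm S (w t : Qb) := fun t => inOm_of_inW (hwW t)
  obtain ⟨z₁, b₁, hz₁, hz₁Ω, hz₁c, hb₁, hb₁Ω, hw1⟩ := hDiv p hp2 S hp K hK w hw hwΩ hwc
  have hb₁W : ∀ t, InW S p (mOne b₁ t) := by
    intro t
    have e : mOne b₁ t = w t / z₁ t ^ p := by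
      rw [hw1 t, mul_div_cancel_left]
    rw [e]
    exact inW_div (hwW t) (inW_pow (hz₁Ω t))
  obtain ⟨z', b'', t, hz', hz'Ω, hz'c, hb'', hb''Ω, htΩ, hzb, hbW⟩ :=
    hRes p hp2 S hp K hK b₁ hb₁ hb₁Ω hb₁W
  refine ⟨z₁ * z', fun g => b₁ g / (b'' g * (g • t / t)), ?_, ?_, ?_, ?_, hbW, ?_⟩
  · exact (hz₁.pair hz').comp (fun x : Qbˣ × Qbˣ => x.1 * x.2)
  · intro u
    rw [Pi.mul_apply, Units.val_mul]
    exact inOm_mul (hz₁Ω u) (hz'Ω u)
  · rw [mTwo_mul, hz₁c, hz'c, one_mul]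
  · exact (hb₁.pair (hb''.pair (isLevK₁_bdry htΩ))).comp
      (fun x : Qbˣ × Qbˣ × Qbˣ => x.1 / (x.2.1 * x.2.2))
  · intro u
    have e : (fun g : ↥K.fixingSubgroup => b₁ g / (b'' g * (g • t / t))) =
        b₁ / (b'' * fun g : ↥K.fixingSubgroup => g • t / t) := rfl
    rw [e, mOne_div, mOne_mul, mOne_bdry, mul_one, Pi.div_apply, Pi.mul_apply, mul_pow,
      hw1 u, ← hzb u]
    apply Additive.ofMul.injective
    simp only [ofMul_mul, ofMul_div]
    abel

/-- **GS-AsmI2.** -/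
theorem asmI2 : Stmt_GS_AsmI2 := by
  classical
  intro hH3 hLift p _ hp2 S hp K hK x hx hxlev
  have hpp : p.Prime := Fact.out
  -- the root of unity
  obtain ⟨ζ₀, hζ₀K, hζ₀⟩ := hK.2
  have hζ₀0 : ζ₀ ≠ 0 := hζ₀.ne_zero hpp.ne_zero
  obtain ⟨ζ, rfl⟩ : ∃ ζ : Qbˣ, (ζ : Qb) = ζ₀ := ⟨Units.mk0 ζ₀ hζ₀0, rfl⟩
  have hζ : IsPrimitiveRoot ζ p := IsPrimitiveRoot.coe_units_iff.1 hζ₀
  have hζK : ζ ∈ KxS K := hζ₀K
  obtain ⟨y₀, hy₀, hy₀Ω, hxy⟩ := hH3 p hp2 S hp K hK ζ hζK hζ x hx hxlev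
  -- `w = y₀ᵖ`
  have hw : IsLevK₂ S K (fun t => y₀ t ^ p) := hy₀.comp (fun u : Qbˣ => u ^ p)
  have hwW : ∀ t, InW S p ((fun t => y₀ t ^ p) t) := fun t => inW_pow (hy₀Ω t)
  have hwc : mTwo (fun t => y₀ t ^ p) = 1 := by
    have e : (fun t => y₀ t ^ p) = y₀ ^ p := rfl
    rw [e, mTwo_pow]
    funext t
    rw [Pi.pow_apply, ← hxy t, Pi.one_apply]
    exact zp_pow_p hζ.pow_eq_one _
  obtain ⟨z, b, hz, hzΩ, hzc, hb, hbW, hwzb⟩ := hLift p hp2 S hp K hK _ hw hwW hwc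
  -- `p`-th roots of `b`
  have hb' : IsLevK₁ S K (fun g => rootW S p (b g)) := hb.comp (rootW S p)
  have hb'Ω : ∀ g, InOm S ((rootW S p (b g) : Qbˣ) : Qb) := fun g => rootW_inOm _
  have hb'p : (fun g => rootW S p (b g)) ^ p = b := funext (fun g => rootW_pow (hbW g))
  -- `y₁ = y₀ / (z · d b')` is `μ_p`-valued
  have hy₁lev : IsLevK₂ S K (y₀ / (z * mOne (fun g => rootW S p (b g)))) :=
    (hy₀.pair (hz.pair (isLevK₂_mOne hK.1 hb' hb'Ω))).comp
      (fun u : Qbˣ × Qbˣ × Qbˣ => u.1 / (u.2.1 * u.2.2))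
  have hy₁p : ∀ t, (y₀ / (z * mOne (fun g => rootW S p (b g)))) t ^ p = 1 := by
    intro t
    have h1 : mOne (fun g => rootW S p (b g)) t ^ p = mOne b t := by
      rw [← Pi.pow_apply, ← mOne_pow, hb'p]
    rw [Pi.div_apply, Pi.mul_apply, div_pow, mul_pow, h1, ← hwzb t, div_self']
  let φ : Qbˣ → ZMod p := fun u =>
    if h : u ^ p = 1 then Classical.choose (exists_zp hζ h) else 0
  have hφ : ∀ t, ζ ^ (φ ((y₀ / (z * mOne (fun g => rootW S p (b g)))) t)).val =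
      (y₀ / (z * mOne (fun g => rootW S p (b g)))) t := by
    intro t
    show ζ ^ (dite _ _ _ : ZMod p).val = _
    rw [dif_pos (hy₁p t)]
    exact Classical.choose_spec (exists_zp hζ (hy₁p t))
  refine ⟨fun t => φ ((y₀ / (z * mOne (fun g => rootW S p (b g)))) t), hy₁lev.comp φ, ?_⟩
  have hm : mTwo (y₀ / (z * mOne (fun g => rootW S p (b g)))) = fun t => ζ ^ (x t).val := by
    rw [mTwo_div, mTwo_mul, hzc, mTwo_mOne, mul_one, div_one]
    funext t
    exact (hxy t).symm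
  have hm2 : mTwo (y₀ / (z * mOne (fun g => rootW S p (b g)))) =
      fun t => ζ ^ (tTwo (fun t => φ ((y₀ / (z * mOne (fun g => rootW S p (b g)))) t)) t).val := by
    have e : (y₀ / (z * mOne (fun g => rootW S p (b g)))) =
        fun t => ζ ^ (φ ((y₀ / (z * mOne (fun g => rootW S p (b g)))) t)).val :=
      funext (fun t => (hφ t).symm)
    conv_lhs => rw [e]
    exact mTwo_zp hζ.pow_eq_one (fun g => smul_eq_of_mem hζK g) _
  funext t
  apply zp_inj hζ
  exact congrFun (hm2.symm.trans hm) t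

end Fermat.Agent.S55.CFT.GS.H24

end

end
-- ==== END Fermat.Agent.S55.CFT.GS.H24_AsmI2

-- ==== BEGIN Fermat.Agent.S55.CFT.H25_ThetaP
section

set_option autoImplicit false
set_option linter.unusedSectionVars false
set_option linter.style.haveILetI false

namespace Fermat.Agent.S55.CFT.H25

open Fermat.Agent.S55.CFT Fermat.Agent.S55.CFT.LOC Fermat.Agent.S55.CFT.LOC.H25
open NumberField TensorProduct Polynomial

section

variable (p : Nat.Primes) (M : ℕ)

/-- The symbol at `p` is trivial on the elements close to `1`. -/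
theorem thetaLoc_self_of_close (w : (Qp p)ˣ)
    (hw : haveI := fact_primes p; ‖((w : Qp p) : ℚ_[(p : ℕ)]) - 1‖ ≤ ((p : ℕ) : ℝ) ^ (-(M : ℤ))) :
    thetaLoc p M p w = 1 := by
  haveI := fact_primes p
  have hp1 : (1 : ℝ) < ((p : ℕ) : ℝ) := by exact_mod_cast p.2.one_lt
  have hlt1 : ‖((w : Qp p) : ℚ_[(p : ℕ)]) - 1‖ < 1 ∨ M = 0 := by
    rcases Nat.eq_zero_or_pos M with h | h
    · exact Or.inr h
    · left
      refine lt_of_le_of_lt hw ?_
      rw [zpow_neg, zpow_natCast]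
      exact inv_lt_one_of_one_lt₀ (one_lt_pow₀ hp1 h.ne')
  rcases hlt1 with hlt1 | hM0
  swap
  · subst hM0
    haveI : Subsingleton (ZMod ((p : ℕ) ^ 0))ˣ := by
      rw [pow_zero]
      infer_instance
    exact Subsingleton.elim _ _
  -- `‖w‖ = 1`
  have hnorm : ‖((w : Qp p) : ℚ_[(p : ℕ)])‖ = 1 := by
    have h1 : ‖(((w : Qp p) : ℚ_[(p : ℕ)]) - 1) + 1‖ =
        max ‖((w : Qp p) : ℚ_[(p : ℕ)]) - 1‖ ‖(1 : ℚ_[(p : ℕ)])‖ := by
      apply Padic.add_eq_max_of_ne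
      rw [norm_one]
      exact hlt1.ne
    rw [sub_add_cancel, norm_one, max_eq_right hlt1.le] at h1
    exact h1
  have hval : Padic.valuation ((w : Qp p) : ℚ_[(p : ℕ)]) = 0 := by
    have h1 := Padic.norm_eq_zpow_neg_valuation (p := (p : ℕ)) w.ne_zero
    rw [hnorm] at h1
    have h2 := (zpow_eq_one_iff_right₀ (by positivity) hp1.ne').mp h1.symm
    omega
  rw [H56.thetaLoc_self, inv_eq_one]
  apply Units.ext
  change (PadicInt.toZModPow M) ((unitPart p w : ℤ_[(p : ℕ)]ˣ) : ℤ_[(p : ℕ)]) = 1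
  have hcoe : (((unitPart p w : ℤ_[(p : ℕ)]ˣ) : ℤ_[(p : ℕ)]) : ℚ_[(p : ℕ)]) = (w : Qp p) := by
    rw [H56.unitPart_val, hval, neg_zero, zpow_zero, mul_one]
  have hmem : ((unitPart p w : ℤ_[(p : ℕ)]ˣ) : ℤ_[(p : ℕ)]) - 1 ∈
      RingHom.ker (PadicInt.toZModPow M : ℤ_[(p : ℕ)] →+* ZMod ((p : ℕ) ^ M)) := by
    rw [PadicInt.ker_toZModPow, ← PadicInt.norm_le_pow_iff_mem_span_pow, PadicInt.norm_def]
    push_cast
    rw [hcoe]
    exact hw
  rw [RingHom.mem_ker, map_sub, map_one, sub_eq_zero] at hmem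
  exact hmem

variable (K₀ : Type) [Field K₀] [NumberField K₀]
  [hcyc : IsCyclotomicExtension {(p : ℕ) ^ M} ℚ K₀]

/-- The unit `1 ⊗ x` of `ℚ_q ⊗ K₀`. -/
noncomputable def globalUnit (q : Nat.Primes) : K₀ˣ →* (SemiLocal K₀ q)ˣ :=
  Units.map ((Algebra.TensorProduct.includeRight : K₀ →ₐ[ℚ] SemiLocal K₀ q) :
    K₀ →* SemiLocal K₀ q)

theorem globalUnit_val (q : Nat.Primes) (x : K₀ˣ) :
    ((globalUnit K₀ q x : (SemiLocal K₀ q)ˣ) : SemiLocal K₀ q) = (1 : Qp q) ⊗ₜ[ℚ] (x : K₀) := rfl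

theorem norm_globalUnit (q : Nat.Primes) (x : K₀ˣ) :
    Units.map (Algebra.norm (Qp q) : SemiLocal K₀ q →* Qp q) (globalUnit K₀ q x) =
      H56.ratU q (Units.map (Algebra.norm ℚ : K₀ →* ℚ) x) := by
  apply Units.ext
  exact H56.norm_one_tmul K₀ q (x : K₀)

/-- The set of the primes dividing `a`, together with `p`. -/
noncomputable def primesOf (a : ℕ) : Finset Nat.Primes :=
  insert p (a.primeFactors.attach.image
    (fun l => (⟨l.1, Nat.prime_of_mem_primeFactors l.2⟩ : Nat.Primes)))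

theorem mem_primesOf (a : ℕ) (ha : a ≠ 0) (l : Nat.Primes) (h : (l : ℕ) ∣ a) :
    l ∈ primesOf p a := by
  have hmem : (l : ℕ) ∈ a.primeFactors := Nat.mem_primeFactors.mpr ⟨l.2, h, ha⟩
  exact Finset.mem_insert_of_mem
    (Finset.mem_image_of_mem _ (Finset.mem_attach _ ⟨(l : ℕ), hmem⟩))

/-- The global statement at `p`: `θ_p (N x) = 1` for `x ∈ K₀ˣ`. -/
theorem thetaLoc_self_norm_global (hp2 : (p : ℕ) ≠ 2) (hM : M ≠ 0) (x : K₀ˣ) :
    thetaLoc p M p (H56.ratU p (Units.map (Algebra.norm ℚ : K₀ →* ℚ) x)) = 1 := by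
  classical
  haveI : NeZero ((p : ℕ) ^ M) := neZero_pow p M
  have h3 : 2 < (p : ℕ) ^ M := by
    have h2 : 2 < (p : ℕ) := lt_of_le_of_ne p.2.two_le (Ne.symm hp2)
    calc 2 < (p : ℕ) := h2
      _ = (p : ℕ) ^ 1 := (pow_one _).symm
      _ ≤ (p : ℕ) ^ M := Nat.pow_le_pow_right p.2.pos (Nat.one_le_iff_ne_zero.mpr hM)
  haveI : IsTotallyComplex K₀ := IsCyclotomicExtension.Rat.isTotallyComplex K₀ h3
  set r : ℚˣ := Units.map (Algebra.norm ℚ : K₀ →* ℚ) x with hr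
  have hrpos : 0 < (r : ℚ) :=
    lt_of_le_of_ne (H56.norm_nonneg_of_totallyComplex K₀ _) (Ne.symm r.ne_zero)
  -- numerator and denominator
  have hnum : 0 < (r : ℚ).num := Rat.num_pos.mpr hrpos
  obtain ⟨a, ha⟩ := Int.eq_ofNat_of_zero_le hnum.le
  have ha0 : a ≠ 0 := by
    rintro rfl
    rw [ha] at hnum
    simp at hnum
  have hb0 : (r : ℚ).den ≠ 0 := (r : ℚ).den_nz
  have hab0 : a * (r : ℚ).den ≠ 0 := Nat.mul_ne_zero ha0 hb0
  set T := primesOf p (a * (r : ℚ).den) with hT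
  have hpT : p ∈ T := Finset.mem_insert_self _ _
  have h1 : H56.thetaRat p M T (H56.natQ a ha0) = 1 :=
    H56.thetaRat_natQ p M T hpT a ha0
      (fun l hl => mem_primesOf p _ hab0 l (Dvd.dvd.mul_right hl _))
  have h2 : H56.thetaRat p M T (H56.natQ (r : ℚ).den hb0) = 1 :=
    H56.thetaRat_natQ p M T hpT _ hb0
      (fun l hl => mem_primesOf p _ hab0 l (Dvd.dvd.mul_left hl _))
  have hmul : H56.natQ (r : ℚ).den hb0 * r = H56.natQ a ha0 := by
    apply Units.ext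
    rw [Units.val_mul, H56.natQ_val, H56.natQ_val]
    have h5 := Rat.den_mul_eq_num (r : ℚ)
    rw [h5, ha]
    simp
  have h6 := congrArg (H56.thetaRat p M T) hmul
  rw [map_mul, h1, h2, one_mul, H56.thetaRat_apply] at h6
  rw [Finset.prod_eq_single p] at h6
  · exact h6
  · intro q _ hqp
    rw [← norm_globalUnit K₀ q x]
    exact thetaLoc_norm_of_ne p q M K₀ hqp _
  · intro h
    exact absurd hpT h

/-- The local statement at `p`: `θ_p (N u) = 1` for every unit `u` of `ℚ_p ⊗ K₀`. -/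
theorem thetaLoc_norm_self (hp2 : (p : ℕ) ≠ 2) (u : (SemiLocal K₀ p)ˣ) :
    thetaLoc p M p (Units.map (Algebra.norm (Qp p) : SemiLocal K₀ p →* Qp p) u) = 1 := by
  classical
  haveI := fact_primes p
  rcases Nat.eq_zero_or_pos M with hM0 | hMpos
  · subst hM0
    haveI : Subsingleton (ZMod ((p : ℕ) ^ 0))ˣ := by
      rw [pow_zero]
      infer_instance
    exact Subsingleton.elim _ _
  have hp0 : (0 : ℝ) < ((p : ℕ) : ℝ) := by exact_mod_cast p.2.pos
  set N : (SemiLocal K₀ p)ˣ →* (Qp p)ˣ :=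
    Units.map (Algebra.norm (Qp p) : SemiLocal K₀ p →* Qp p) with hN
  have hNu : ((N u : (Qp p)ˣ) : Qp p) = Algebra.norm (Qp p) (u : SemiLocal K₀ p) := rfl
  have hpos : 0 < ((p : ℕ) : ℝ) ^ (-(M : ℤ)) * ‖((N u : (Qp p)ˣ) : ℚ_[(p : ℕ)])‖ :=
    mul_pos (zpow_pos hp0 _) (norm_pos_iff.mpr (N u).ne_zero)
  obtain ⟨x, hx⟩ := exists_global_norm_close K₀ p (u : SemiLocal K₀ p) hpos
  have hx0 : x ≠ 0 := by
    rintro rfl
    rw [H56.norm_one_tmul, Algebra.norm_zero, map_zero, zero_sub, norm_neg, ← hNu] at hx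
    have h1 : ((p : ℕ) : ℝ) ^ (-(M : ℤ)) ≤ 1 := by
      rw [zpow_neg, zpow_natCast]
      exact inv_le_one_of_one_le₀ (one_le_pow₀ (by exact_mod_cast p.2.one_le))
    have h2 := mul_le_of_le_one_left (norm_nonneg ((N u : (Qp p)ˣ) : ℚ_[(p : ℕ)])) h1
    exact absurd hx (not_lt.mpr h2)
  set xu : K₀ˣ := Units.mk0 x hx0 with hxu
  -- `w = N(1 ⊗ x) / N(u)` is close to `1`
  have hw : thetaLoc p M p (N (globalUnit K₀ p xu) * (N u)⁻¹) = 1 := by
    apply thetaLoc_self_of_close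
    have h1 : (((N (globalUnit K₀ p xu) * (N u)⁻¹ : (Qp p)ˣ) : Qp p) : ℚ_[(p : ℕ)]) - 1 =
        (Algebra.norm (Qp p) ((1 : Qp p) ⊗ₜ[ℚ] x : SemiLocal K₀ p) -
          Algebra.norm (Qp p) (u : SemiLocal K₀ p)) * ((N u : (Qp p)ˣ) : Qp p)⁻¹ := by
      rw [Units.val_mul, Units.val_inv_eq_inv_val, sub_mul, ← hNu,
        mul_inv_cancel₀ (N u).ne_zero]
      rfl
    rw [h1, norm_mul, norm_inv]
    rw [← le_div_iff₀ (inv_pos.mpr (norm_pos_iff.mpr (N u).ne_zero)), div_inv_eq_mul]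
    exact hx.le
  have hg : thetaLoc p M p (N (globalUnit K₀ p xu)) = 1 := by
    rw [hN, norm_globalUnit]
    exact thetaLoc_self_norm_global p M K₀ hp2 hMpos.ne' xu
  have h3 := H56.thetaLoc_mul p M p (N (globalUnit K₀ p xu) * (N u)⁻¹) (N u)
  rw [inv_mul_cancel_right, hg, hw, one_mul] at h3
  exact h3.symm

end
end Fermat.Agent.S55.CFT.H25

end
-- ==== END Fermat.Agent.S55.CFT.H25_ThetaP

-- ==== BEGIN Fermat.Agent.S55.CFT.H45_ValCLoc
section

set_option autoImplicit false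
set_option linter.unusedSectionVars false
set_option linter.style.haveILetI false

noncomputable section

namespace Fermat.Agent.S55.CFT.H45

open Fermat.Agent.S55.CFT.LOC H58

section field

variable (q : ℕ) [Fact q.Prime] (D : Type) [Group D] [Fintype D] (E : Type) [Field E]
  [MulSemiringAction D E] [Algebra ℚ_[q] E] [FiniteDimensional ℚ_[q] E]

theorem faithful_of_inertia
    (hin : ∀ d : D, (∀ x : E, nrm q E x ≤ 1 → nrm q E (d • x - x) < 1) → d = 1) :
    FaithfulSMul D E := by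
  refine ⟨fun {d₁ d₂} h => ?_⟩
  have h1 : d₂⁻¹ * d₁ = 1 := hin _ (fun x _ => by
    rw [mul_smul, h x, inv_smul_smul, sub_self, nrm_zero]
    exact zero_lt_one)
  exact (inv_mul_eq_one.1 h1).symm

/-- The absolute value is invariant under a `ℚ_q`-linear action. -/
theorem nrm_smul_eq
    (hk : ∀ (d : D) (c : ℚ_[q]), d • algebraMap ℚ_[q] E c = algebraMap ℚ_[q] E c)
    (d : D) (x : E) : nrm q E (d • x) = nrm q E x := by
  let σ : E ≃ₐ[ℚ_[q]] E :=
    AlgEquiv.ofRingEquiv (f := MulSemiringAction.toRingEquiv D E d) (hk d)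
  exact (spectralNorm_eq_of_equiv σ x).symm

theorem cyclic_and_norm_of_inertia
    (hk : ∀ (d : D) (c : ℚ_[q]), d • algebraMap ℚ_[q] E c = algebraMap ℚ_[q] E c)
    (hin : ∀ d : D, (∀ x : E, nrm q E x ≤ 1 → nrm q E (d • x - x) < 1) → d = 1) :
    IsCyclic D ∧ ∀ u : E, (∀ d : D, d • u = u) → nrm q E u = 1 →
      ∃ w : E, nrm q E w = 1 ∧ ∏ d : D, d • w = u := by
  classical
  haveI : FaithfulSMul D E := faithful_of_inertia q D E hin
  letI : Algebra ℚ_[q] (FixedPoints.subfield D E) := fixedAlgebra D E ℚ_[q] hk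
  haveI : FiniteDimensional ℚ_[q] (FixedPoints.subfield D E) :=
    fixed_finiteDimensional D E ℚ_[q] hk
  haveI : IsScalarTower ℚ_[q] (FixedPoints.subfield D E) E :=
    IsScalarTower.of_algebraMap_eq (fun _ => rfl)
  haveI : IsGalois (FixedPoints.subfield D E) E := ⟨⟩
  let e : D ≃* (E ≃ₐ[FixedPoints.subfield D E] E) := FixedPoints.toAlgAutMulEquiv D E
  have he : ∀ (d : D) (x : E), e d x = d • x := fun _ _ => rfl
  have hin' : ∀ σ : E ≃ₐ[FixedPoints.subfield D E] E,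
      (∀ x : E, nrm q E x ≤ 1 → nrm q E (σ x - x) < 1) → σ = 1 := by
    intro σ hσ
    obtain ⟨d, rfl⟩ := e.surjective σ
    have := hin d (fun x hx => by rw [← he]; exact hσ x hx)
    rw [this, map_one]
  obtain ⟨hcyc, hunr⟩ :=
    H45I.cyclic_unram_of_inertia_trivial q (FixedPoints.subfield D E) E hin'
  refine ⟨isCyclic_of_injective e.toMonoidHom e.injective, fun u hu hu1 => ?_⟩
  have hu' : nrm q (FixedPoints.subfield D E) ⟨u, hu⟩ = 1 := by
    rw [← nrm_algebraMap q (FixedPoints.subfield D E) E]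
    exact hu1
  obtain ⟨w, hw1, hw⟩ := H68.stmt_UnramNormUnits q (FixedPoints.subfield D E) E hcyc hunr
    ⟨u, hu⟩ hu'
  refine ⟨w, hw1, ?_⟩
  have h1 := Algebra.norm_eq_prod_automorphisms (FixedPoints.subfield D E) w
  rw [hw] at h1
  have h2 : ∏ d : D, d • w = ∏ σ : E ≃ₐ[FixedPoints.subfield D E] E, σ w :=
    Fintype.prod_equiv e.toEquiv _ _ (fun d => (he d w).symm)
  rw [h2, ← h1]
  rfl

end field

end Fermat.Agent.S55.CFT.H45

end
end
-- ==== END Fermat.Agent.S55.CFT.H45_ValCLoc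

-- ==== BEGIN Fermat.Agent.S55.CFT.LOC.H25_UCNorm
section

set_option autoImplicit false
set_option linter.unusedSectionVars false
set_option linter.style.haveILetI false

namespace Fermat.Agent.S55.CFT.LOC.H25

open Fermat.Agent.S55.CFT.LOC

section

variable (q : ℕ) [Fact q.Prime] (F E L : Type) [Field F] [Field E] [Field L]
  [Algebra ℚ_[q] F] [FiniteDimensional ℚ_[q] F]
  [Algebra ℚ_[q] E] [FiniteDimensional ℚ_[q] E]
  [Algebra ℚ_[q] L] [FiniteDimensional ℚ_[q] L]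
  [Algebra F E] [Algebra F L] [Algebra E L]
  [IsScalarTower ℚ_[q] F E] [IsScalarTower ℚ_[q] F L] [IsScalarTower ℚ_[q] E L]
  [IsScalarTower F E L]
  [FiniteDimensional F E] [FiniteDimensional F L] [FiniteDimensional E L]
  [IsGalois F L] [IsGalois E L]
  (E' : IntermediateField F L) [FiniteDimensional ℚ_[q] E']

/-- The abstract norm statement of LOC-2c. -/
theorem exists_norm_eq_pow (a f₀ : ℕ)
    (hE' : IsUnram q F E') (hL : IsUnram q E L)
    (hres : ∀ y : L, nrm q L y ≤ 1 → ∃ x : E', nrm q L (y - algebraMap E' L x) < 1)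
    (hdegE' : Module.finrank F E' = Module.finrank F E * a)
    (hdegL : Module.finrank E L = Module.finrank F E * f₀)
    (hcyc : IsCyclic (L ≃ₐ[E] L))
    (x : F) (hx : x ≠ 0) : ∃ y : L, Algebra.norm E y = algebraMap F E x ^ a := by
  classical
  haveI : IsScalarTower ℚ_[q] E' L := IsScalarTower.of_algebraMap_eq (fun r => by
    rw [IsScalarTower.algebraMap_apply ℚ_[q] F L, IsScalarTower.algebraMap_apply ℚ_[q] F E',
      ← IsScalarTower.algebraMap_apply F E' L])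
  haveI : IsGalois E' L := IsGalois.tower_top_of_isGalois F E' L
  obtain ⟨πF, hπF0, hπF1, hπFv⟩ := H68.stmt_Uniformizer q F
  obtain ⟨πE, hπE0, hπE1, hπEv⟩ := H68.stmt_Uniformizer q E
  have hπF_ne : πF ≠ 0 := by
    rintro rfl
    rw [nrm_zero] at hπF0
    exact lt_irrefl _ hπF0
  have hπE_ne : πE ≠ 0 := by
    rintro rfl
    rw [nrm_zero] at hπE0
    exact lt_irrefl _ hπE0
  set tE : ℝ := nrm q E πE with htE
  set tF : ℝ := nrm q F πF with htF
  -- the ramification index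
  obtain ⟨e, he⟩ : ∃ e : ℤ, tF = tE ^ e := by
    obtain ⟨e, he⟩ := hπEv (algebraMap F E πF) ((map_ne_zero _).mpr hπF_ne)
    rw [nrm_algebraMap] at he
    exact ⟨e, he⟩
  have hepos : 0 < e := by
    have : tE ^ e < 1 := by rw [← he]; exact hπF1
    exact (zpow_lt_one_iff_right_of_lt_one₀ hπE0 hπE1).mp this
  obtain ⟨e', rfl⟩ : ∃ e' : ℕ, e = (e' : ℤ) := ⟨e.toNat, (Int.toNat_of_nonneg hepos.le).symm⟩
  have he'pos : 0 < e' := by exact_mod_cast hepos
  rw [zpow_natCast] at he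
  -- value groups
  have hvalL : ∀ y : L, y ≠ 0 → ∃ k : ℤ, nrm q L y = nrm q L (algebraMap E L πE) ^ k := by
    intro y hy
    obtain ⟨z, hz⟩ := hL y
    have hz0 : z ≠ 0 := by
      rintro rfl
      rw [nrm_zero] at hz
      exact hy ((nrm_eq_zero_iff q L).mp hz)
    obtain ⟨k, hk⟩ := hπEv z hz0
    exact ⟨k, by rw [hz, hk, nrm_algebraMap]⟩
  have hvalE' : ∀ y : E', y ≠ 0 → ∃ k : ℤ, nrm q E' y = tE ^ ((e' : ℤ) * k) := by
    intro y hy
    obtain ⟨z, hz⟩ := hE' y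
    have hz0 : z ≠ 0 := by
      rintro rfl
      rw [nrm_zero] at hz
      exact hy ((nrm_eq_zero_iff q E').mp hz)
    obtain ⟨k, hk⟩ := hπFv z hz0
    refine ⟨k, ?_⟩
    rw [hz, hk, he, zpow_mul, zpow_natCast]
  -- `[L : E'] ≤ e`
  have hπL : nrm q L (algebraMap E L πE) = tE := nrm_algebraMap q E L πE
  have hϖ : nrm q E' (algebraMap F E' πF) = tF := nrm_algebraMap q F E' πF
  have hle : Module.finrank E' L ≤ e' := by
    refine finrank_le_of_residue_eq q E' L hres (algebraMap E L πE) (algebraMap F E' πF) e'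
      (by rw [hπL]; exact hπE0) (by rw [hπL]; exact hπE1) (by rw [hπL, hϖ, he]) hvalL he'pos
  -- `e ∣ [L : E']`
  have hdvd : e' ≤ Module.finrank E' L := by
    have h1 := nrm_norm q E' L (algebraMap E L πE)
    rw [hπL] at h1
    have hN0 : Algebra.norm E' (algebraMap E L πE) ≠ 0 := by
      rw [Ne, Algebra.norm_eq_zero_iff]
      exact (map_ne_zero _).mpr hπE_ne
    obtain ⟨k, hk⟩ := hvalE' _ hN0
    rw [hk, ← zpow_natCast] at h1
    have h2 : (e' : ℤ) * k = (Module.finrank E' L : ℤ) :=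
      (zpow_right_inj₀ hπE0 hπE1.ne).mp h1
    have hd : 0 < Module.finrank E' L := Module.finrank_pos
    have hk0 : 0 < k := by
      by_contra hk0
      push Not at hk0
      have : (e' : ℤ) * k ≤ 0 := mul_nonpos_of_nonneg_of_nonpos (by positivity) hk0
      omega
    have : (e' : ℤ) ≤ (e' : ℤ) * k := le_mul_of_one_le_right (by positivity) hk0
    omega
  have hd : Module.finrank E' L = e' := le_antisymm hle hdvd
  -- degrees
  have hn : 0 < Module.finrank F E := Module.finrank_pos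
  have hdeg : Module.finrank F E * f₀ = a * e' := by
    have h1 := Module.finrank_mul_finrank F E L
    have h2 := Module.finrank_mul_finrank F E' L
    rw [hdegL] at h1
    rw [hdegE', hd] at h2
    have h3 : Module.finrank F E * (Module.finrank F E * f₀) =
        Module.finrank F E * (a * e') := by
      rw [h1, ← h2]
      ring
    exact Nat.eq_of_mul_eq_mul_left hn h3
  -- the norm
  obtain ⟨v, hv⟩ := hπFv x hx
  set z : E := πE ^ v with hz
  have hz0 : z ≠ 0 := zpow_ne_zero _ hπE_ne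
  have hzn : nrm q E z = tE ^ v := by rw [hz, nrm_zpow]
  set u : E := algebraMap F E x ^ a / z ^ (Module.finrank F E * f₀) with hu
  have hu1 : nrm q E u = 1 := by
    rw [hu, nrm_div, nrm_pow, nrm_pow, nrm_algebraMap, hv, hzn, he, hdeg]
    rw [← zpow_natCast (tE ^ v), ← zpow_mul, ← zpow_natCast tE e', ← zpow_mul,
      ← zpow_natCast (tE ^ _) a, ← zpow_mul]
    have : (e' : ℤ) * v * (a : ℤ) = v * ((a * e' : ℕ) : ℤ) := by push_cast; ring
    rw [this]
    exact div_self (zpow_ne_zero _ hπE0.ne')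
  obtain ⟨w, -, hw⟩ := H68.stmt_UnramNormUnits q E L hcyc hL u hu1
  refine ⟨algebraMap E L z * w, ?_⟩
  rw [map_mul, Algebra.norm_algebraMap, hw, hdegL, hu]
  field_simp

end

end Fermat.Agent.S55.CFT.LOC.H25

end
-- ==== END Fermat.Agent.S55.CFT.LOC.H25_UCNorm

-- ==== BEGIN Fermat.Agent.S55.CFT.LOC.H41_LTOBase
section

/-!
# S55 / E4 / CFT / LOC, leaf LTO-B (helper41)

`stmt_LTOBase : Stmt_LTOBase`: the base field `F' = ℚ_p(ζ, ξ)` inside `F`
(`ξ` a root of unity of order `#k_F - 1`).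
-/

set_option autoImplicit false
set_option linter.unusedSectionVars false
set_option linter.style.haveILetI false

noncomputable section

namespace Fermat.Agent.S55.CFT.LOC.H41

open Fermat.Agent.S55.CFT Fermat.Agent.S55.CFT.LOC Polynomial

section teich

variable (q : ℕ) [Fact q.Prime] (F : Type) [Field F] [Algebra ℚ_[q] F]
  [FiniteDimensional ℚ_[q] F]

/-- `F` contains a primitive root of unity of order `#k_F - 1`. -/
theorem exists_primitiveRoot_resCard :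
    ∃ ξ : F, IsPrimitiveRoot ξ (H25.resCard q F - 1) := by
  have hn : 0 < 1 := one_pos
  haveI hne : NeZero (H25.resCard q F ^ 1 - 1) := ⟨(H25.pow_resCard_sub_one_pos q F hn).ne'⟩
  haveI : CharZero F := charZero_of_injective_algebraMap (algebraMap ℚ_[q] F).injective
  haveI : CharZero (AlgebraicClosure F) :=
    charZero_of_injective_algebraMap (algebraMap F (AlgebraicClosure F)).injective
  haveI : NeZero ((H25.resCard q F ^ 1 - 1 : ℕ) : AlgebraicClosure F) := NeZero.charZero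
  obtain ⟨ζ, hζ⟩ :=
    HasEnoughRootsOfUnity.exists_primitiveRoot (AlgebraicClosure F) (H25.resCard q F ^ 1 - 1)
  let E : IntermediateField F (AlgebraicClosure F) := IntermediateField.adjoin F {ζ}
  haveI hcyc : IsCyclotomicExtension {H25.resCard q F ^ 1 - 1} F E :=
    hζ.intermediateField_adjoin_isCyclotomicExtension F
  haveI hfd : FiniteDimensional F E :=
    IsCyclotomicExtension.finiteDimensional {H25.resCard q F ^ 1 - 1} F E
  haveI : FiniteDimensional ℚ_[q] E := Module.Finite.trans F E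
  let ζE : E := ⟨ζ, IntermediateField.mem_adjoin_simple_self F ζ⟩
  have hζE : IsPrimitiveRoot ζE (H25.resCard q F ^ 1 - 1) := by
    have h1 : IsPrimitiveRoot (algebraMap E (AlgebraicClosure F) ζE)
        (H25.resCard q F ^ 1 - 1) := hζ
    exact IsPrimitiveRoot.of_map_of_injective (f := algebraMap E (AlgebraicClosure F)) h1
      (algebraMap E (AlgebraicClosure F)).injective
  have hfin : Module.finrank F E = 1 := H25.finrank_eq q F E hn hζE
  have hbot : E = ⊥ := IntermediateField.finrank_eq_one_iff.mp hfin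
  have hmem : ζ ∈ (⊥ : IntermediateField F (AlgebraicClosure F)) := by
    rw [← hbot]
    exact IntermediateField.mem_adjoin_simple_self F ζ
  obtain ⟨ξ, hξ⟩ := IntermediateField.mem_bot.mp hmem
  refine ⟨ξ, ?_⟩
  rw [← hξ, pow_one] at hζ
  exact hζ.of_map_of_injective (algebraMap F (AlgebraicClosure F)).injective

end teich

section tower

variable (q : ℕ) [Fact q.Prime] (F E : Type) [Field F] [Field E] [Algebra ℚ_[q] F]
  [FiniteDimensional ℚ_[q] F] [Algebra ℚ_[q] E] [FiniteDimensional ℚ_[q] E] [Algebra F E]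
  [IsScalarTower ℚ_[q] F E]

/-- `#k_E` is a power of `#k_F`. -/
theorem exists_resCard_eq_pow :
    ∃ d : ℕ, 0 < d ∧ H25.resCard q E = H25.resCard q F ^ d := by
  letI : Algebra (H25.resF q F) (H25.resF q E) := (H25.resMap q F E).toAlgebra
  refine ⟨Module.finrank (H25.resF q F) (H25.resF q E), Module.finrank_pos, ?_⟩
  exact Module.card_eq_pow_finrank (K := H25.resF q F) (V := H25.resF q E)

end tower

/-- **LTO-B.** -/
theorem stmt_LTOBase : Stmt_LTOBase := by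
  intro p c F _ _ _ hp2 hc hex
  obtain ⟨ζ, hζ⟩ := hex
  classical
  haveI := fact_primes p
  have hc0 : c ≠ 0 := by omega
  haveI : CharZero F := H25.charZero_of_padic (p : ℕ) F
  -- the root of unity of order `#k_F - 1`
  obtain ⟨ξ, hξ⟩ := exists_primitiveRoot_resCard (p : ℕ) F
  -- the field `F₁ = ℚ_p(ζ)`
  let F₁ : IntermediateField (Qp p) F := IntermediateField.adjoin (Qp p) {ζ}
  let ζ₁ : F₁ := ⟨ζ, IntermediateField.mem_adjoin_simple_self (Qp p) ζ⟩
  have hζ₁ : IsPrimitiveRoot ζ₁ ((p : ℕ) ^ c) := H25.isPrimitiveRoot_adjoin (p : ℕ) F hζ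
  have hint : IsIntegral (Qp p) ζ := Algebra.IsIntegral.isIntegral ζ
  have htop : IntermediateField.adjoin (Qp p) {ζ₁} = ⊤ := by
    apply IntermediateField.adjoin_eq_top_of_algebra
    exact (IntermediateField.adjoin.powerBasis hint).adjoin_gen_eq_top
  -- the unit of `F₁`
  obtain ⟨x₁, hx₁n, hx₁θ⟩ := stmt_CycUnitTheta p c F₁ ζ₁ hp2 hc hζ₁ htop
  -- the residue fields
  obtain ⟨d, hd, hNd⟩ := exists_resCard_eq_pow (p : ℕ) F₁ F
  have hξ0 := hξ
  rw [hNd] at hξ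
  -- the field `F'' = F₁(ξ)`
  let F'' : IntermediateField F₁ F := IntermediateField.adjoin F₁ {ξ}
  haveI hne : NeZero (H25.resCard (p : ℕ) F₁ ^ d - 1) :=
    ⟨(H25.pow_resCard_sub_one_pos (p : ℕ) F₁ hd).ne'⟩
  haveI hcyc : IsCyclotomicExtension {H25.resCard (p : ℕ) F₁ ^ d - 1} F₁ F'' :=
    hξ.intermediateField_adjoin_isCyclotomicExtension F₁
  haveI hfd : FiniteDimensional F₁ F'' :=
    IsCyclotomicExtension.finiteDimensional {H25.resCard (p : ℕ) F₁ ^ d - 1} F₁ F''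
  haveI : FiniteDimensional (Qp p) F'' := Module.Finite.trans F₁ F''
  haveI : IsGalois F₁ F'' :=
    IsCyclotomicExtension.isGalois {H25.resCard (p : ℕ) F₁ ^ d - 1} F₁ F''
  let ξE : F'' := ⟨ξ, IntermediateField.mem_adjoin_simple_self F₁ ξ⟩
  have hξE : IsPrimitiveRoot ξE (H25.resCard (p : ℕ) F₁ ^ d - 1) := by
    have h1 : IsPrimitiveRoot (algebraMap F'' F ξE) (H25.resCard (p : ℕ) F₁ ^ d - 1) := hξ
    exact IsPrimitiveRoot.of_map_of_injective (f := algebraMap F'' F) h1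
      (algebraMap F'' F).injective
  have hcycG : IsCyclic (F'' ≃ₐ[F₁] F'') := H25.isCyclic_aut (p : ℕ) F₁ F'' hd hξE
  have hunr : IsUnram (p : ℕ) F₁ F'' := H25.isUnram (p : ℕ) F₁ F'' hd hξE
  obtain ⟨w, hw1, hwN⟩ := H68.stmt_UnramNormUnits (p : ℕ) F₁ F'' hcycG hunr (x₁ : F₁) hx₁n
  have hw0 : w ≠ 0 := by
    intro h
    rw [h, nrm_zero] at hw1
    exact zero_ne_one hw1
  let F' : IntermediateField (Qp p) F := F''.restrictScalars (Qp p)
  let w' : F' := ⟨w.1, w.2⟩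
  have hw'0 : w' ≠ 0 := fun h => hw0 (Subtype.ext (congrArg Subtype.val h))
  refine ⟨F', ⟨⟨ζ, F''.algebraMap_mem ζ₁⟩, ?_⟩, ?_, Units.mk0 w' hw'0, ?_⟩
  · exact IsPrimitiveRoot.of_map_of_injective (f := algebraMap F' F) hζ
      (algebraMap F' F).injective
  · intro y hy
    by_cases h1 : nrm (p : ℕ) F y = 1
    · obtain ⟨i, hi⟩ := H25.exists_pow_congr (p : ℕ) F F hξ0 y h1
      refine ⟨⟨ξ ^ i, pow_mem (IntermediateField.mem_adjoin_simple_self F₁ ξ) i⟩, ?_⟩
      exact hi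
    · refine ⟨0, ?_⟩
      have : ((0 : F') : F) = 0 := rfl
      rw [this, sub_zero]
      exact lt_of_le_of_ne hy h1
  · have hnorm : Algebra.norm (Qp p) w' = Algebra.norm (Qp p) (x₁ : F₁) := by
      rw [← hwN]
      exact (Algebra.norm_norm (R := Qp p) (S := F₁) (a := w)).symm
    intro h
    apply hx₁θ
    rw [← h]
    congr 1
    apply Units.ext
    exact hnorm.symm

end Fermat.Agent.S55.CFT.LOC.H41

end
end
-- ==== END Fermat.Agent.S55.CFT.LOC.H41_LTOBase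

-- ==== BEGIN Fermat.Agent.S55.CFT.LOC.H72_BrauerPTors
section

/-!
# S55/E4 island LOC, package L5-H2a (helper72): the `p`-torsion of the local Brauer group

`stmt_BrauerPTors_of : Stmt_LocalH2CyclicP → Stmt_BrauerPTors`: for every finite Galois
extension `E/F` of local fields, two `p`-torsion classes of `H²(Gal(E/F), Eˣ)` are linearly
dependent modulo `p`.

Route: `P` a Sylow `p`-subgroup; `cor ∘ res = [G : P]` (helper58, `H58.stmt_CorRes`) is prime
to `p`, so `res_P` is injective on `p`-torsion; `H²(P, Eˣ) ≅ H²(Gal(E/E^P), Eˣ)` (helper58,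
`H58.resIso`) is finite cyclic by LOC-4f'; in a finite cyclic group the elements killed by `p`
form a group of order at most `p`.
-/

set_option autoImplicit false
set_option linter.unusedSectionVars false

noncomputable section

namespace Fermat.Agent.S55.CFT.LOC.H72

open CategoryTheory CategoryTheory.Limits groupCohomology Rep IntermediateField

/-- In a finite cyclic additive group two elements killed by the prime `p` are linearly
dependent modulo `p`. -/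
theorem exists_dep_of_cyclic {X : Type} [AddCommGroup X] [Finite X] (p : ℕ) (hp : p.Prime)
    (hcyc : ∃ γ : X, ∀ x : X, ∃ n : ℤ, x = n • γ) (u v : X) (hu : (p : ℤ) • u = 0)
    (hv : (p : ℤ) • v = 0) :
    ∃ a b : ℤ, (¬ (p : ℤ) ∣ a ∨ ¬ (p : ℤ) ∣ b) ∧ a • u + b • v = 0 := by
  classical
  have hpF : Fact p.Prime := ⟨hp⟩
  have hp1 : ¬ (p : ℤ) ∣ 1 := by
    intro h
    have := Int.natCast_dvd_natCast.1 (by simpa using h : ((p : ℕ) : ℤ) ∣ ((1 : ℕ) : ℤ))
    exact hp.one_lt.ne' (Nat.dvd_one.1 this)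
  by_cases hu0 : u = 0
  · exact ⟨1, 0, Or.inl hp1, by rw [hu0]; simp⟩
  -- the subgroup of elements killed by `p`
  let T : AddSubgroup X :=
    { carrier := {z | p • z = 0}
      zero_mem' := by simp
      add_mem' := fun {a b} ha hb => by
        show p • (a + b) = 0
        rw [smul_add, show p • a = 0 from ha, show p • b = 0 from hb, add_zero]
      neg_mem' := fun {a} ha => by
        show p • (-a) = 0
        rw [smul_neg, show p • a = 0 from ha, neg_zero] }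
  have hT : ∀ z ∈ T, p • z = 0 := fun z hz => hz
  have hcardT : Nat.card T ≤ p := card_le_of_forall_nsmul_eq_zero hcyc T p hp.pos hT
  have hu' : p • u = 0 := by rw [← natCast_zsmul]; exact hu
  have hv' : p • v = 0 := by rw [← natCast_zsmul]; exact hv
  have hord : addOrderOf u = p := addOrderOf_eq_prime hu' hu0
  have hle : AddSubgroup.zmultiples u ≤ T := by
    rw [AddSubgroup.zmultiples_le]
    exact hu'
  have hcardU : Nat.card (AddSubgroup.zmultiples u) = p := by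
    rw [Nat.card_zmultiples, hord]
  have heq : AddSubgroup.zmultiples u = T :=
    AddSubgroup.eq_of_le_of_card_ge hle (by rw [hcardU]; exact hcardT)
  have hvT : v ∈ AddSubgroup.zmultiples u := by
    rw [heq]
    exact hv'
  obtain ⟨k, hk⟩ := AddSubgroup.mem_zmultiples_iff.1 hvT
  refine ⟨k, -1, Or.inr ?_, ?_⟩
  · intro h
    exact hp1 ((Int.dvd_neg).1 h)
  · rw [hk, neg_smul, one_smul, add_neg_cancel]

/-- A class killed by two coprime integers vanishes. -/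
theorem eq_zero_of_coprime_smul {X : Type} [AddCommGroup X] (m n : ℕ) (h : Nat.Coprime m n)
    (x : X) (hm : m • x = 0) (hn : n • x = 0) : x = 0 := by
  have h1 : ((m : ℤ) * Nat.gcdA m n + (n : ℤ) * Nat.gcdB m n) • x = x := by
    rw [← Nat.gcd_eq_gcd_ab, h]
    simp
  rw [← h1, add_smul, mul_comm (m : ℤ), mul_comm (n : ℤ), mul_smul, mul_smul, natCast_zsmul,
    natCast_zsmul, hm, hn, smul_zero, smul_zero, add_zero]

/-- If `x`, `y` are killed by `p` and `a • x + b • y` is killed by `m` prime to `p`, then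
`a • x + b • y = 0`. -/
theorem comb_eq_zero_of_coprime {X : Type} [AddCommGroup X] (p m : ℕ) (h : Nat.Coprime m p)
    (a b : ℤ) (x y : X) (hx : (p : ℤ) • x = 0) (hy : (p : ℤ) • y = 0)
    (h1 : m • (a • x + b • y) = 0) : a • x + b • y = 0 := by
  have h2 : p • (a • x + b • y) = 0 := by
    have h3 : (p : ℤ) • (a • x + b • y) = a • ((p : ℤ) • x) + b • ((p : ℤ) • y) := by
      module
    rw [← natCast_zsmul, h3, hx, hy, smul_zero, smul_zero, add_zero]
  exact eq_zero_of_coprime_smul m p h _ h1 h2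

/-- **L5-H2a**: the `p`-torsion of `H²(Gal(E/F), Eˣ)` is cyclic, from LOC-4f'. -/
theorem stmt_BrauerPTors_of (hC : Stmt_LocalH2CyclicP) : Stmt_BrauerPTors := by
  intro q _ p _ F E _ _ _ _ _ _ _ x y hx hy
  have hp : p.Prime := Fact.out
  -- a Sylow `p`-subgroup
  obtain ⟨P⟩ : Nonempty (Sylow p (E ≃ₐ[F] E)) := inferInstance
  have hPp : IsPGroup p (P : Subgroup (E ≃ₐ[F] E)) := P.isPGroup'
  have hidx : ¬ p ∣ (P : Subgroup (E ≃ₐ[F] E)).index := P.not_dvd_index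
  -- the fixed field, as a finite extension of `ℚ_q`
  let algM : Algebra ℚ_[q] (fixedField (P : Subgroup (E ≃ₐ[F] E))) :=
    ((algebraMap F (fixedField (P : Subgroup (E ≃ₐ[F] E)))).comp (algebraMap ℚ_[q] F)).toAlgebra
  have tower : IsScalarTower ℚ_[q] F (fixedField (P : Subgroup (E ≃ₐ[F] E))) :=
    IsScalarTower.of_algebraMap_eq (fun _ => rfl)
  have fdM : FiniteDimensional ℚ_[q] (fixedField (P : Subgroup (E ≃ₐ[F] E))) :=
    FiniteDimensional.trans ℚ_[q] F _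
  have hPM : IsPGroup p (E ≃ₐ[fixedField (P : Subgroup (E ≃ₐ[F] E))] E) :=
    hPp.of_equiv (H58.subgroupEquivGal (P : Subgroup (E ≃ₐ[F] E)))
  obtain ⟨hcard, γ, hγ⟩ := hC q p (fixedField (P : Subgroup (E ≃ₐ[F] E))) E hPM
  have I2 : groupCohomology (resSub (unitsRep F E) (P : Subgroup (E ≃ₐ[F] E))) 2 ≃ₗ[ℤ]
      groupCohomology (unitsRep (fixedField (P : Subgroup (E ≃ₐ[F] E))) E) 2 :=
    (H58.resIso (P : Subgroup (E ≃ₐ[F] E)) 2).toLinearEquiv
  have hfinM : Finite (groupCohomology (unitsRep (fixedField (P : Subgroup (E ≃ₐ[F] E))) E) 2) :=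
    Nat.finite_of_card_ne_zero (by rw [hcard]; exact Module.finrank_pos.ne')
  have hfin : Finite (groupCohomology (resSub (unitsRep F E) (P : Subgroup (E ≃ₐ[F] E))) 2) :=
    Finite.of_equiv _ I2.symm.toEquiv
  have hcyc : ∃ γ' : groupCohomology (resSub (unitsRep F E) (P : Subgroup (E ≃ₐ[F] E))) 2,
      ∀ z, ∃ n : ℤ, z = n • γ' := by
    refine ⟨I2.symm γ, fun z => ?_⟩
    obtain ⟨n, hn⟩ := hγ (I2 z)
    exact ⟨n, by rw [← map_zsmul, ← hn, LinearEquiv.symm_apply_apply]⟩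
  -- corestriction
  obtain ⟨cor, hcor⟩ := Fermat.Agent.S55.CFT.H58.stmt_CorRes (E ≃ₐ[F] E) (unitsRep F E)
    (P : Subgroup (E ≃ₐ[F] E)) 2
  -- dependence of the restrictions
  obtain ⟨a, b, hab, hdep⟩ := exists_dep_of_cyclic p hp hcyc
    (resMap (unitsRep F E) (P : Subgroup (E ≃ₐ[F] E)) 2 x)
    (resMap (unitsRep F E) (P : Subgroup (E ≃ₐ[F] E)) 2 y)
    (by rw [← map_zsmul, hx, map_zero]) (by rw [← map_zsmul, hy, map_zero])
  refine ⟨a, b, hab, ?_⟩
  have hres : resMap (unitsRep F E) (P : Subgroup (E ≃ₐ[F] E)) 2 (a • x + b • y) = 0 := by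
    rw [map_add, map_zsmul, map_zsmul, hdep]
  have h1 : (P : Subgroup (E ≃ₐ[F] E)).index • (a • x + b • y) = 0 := by
    rw [← hcor, hres, map_zero]
  exact comb_eq_zero_of_coprime p _
    (Nat.coprime_comm.1 ((Nat.Prime.coprime_iff_not_dvd hp).2 hidx)) a b x y hx hy h1

end Fermat.Agent.S55.CFT.LOC.H72

end
end
-- ==== END Fermat.Agent.S55.CFT.LOC.H72_BrauerPTors

-- ==== BEGIN Fermat.Agent.S55.CFT.LOC.H72_FundRes
section

/-!
# S55/E4 island LOC, packages LOC-4g and LOC-4' (helper72)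

* `stmt_LocalFundClass_of : Stmt_LocalH2CyclicP → Stmt_LocalFundClass` (LOC-4g): for a Galois
  `p`-extension `E/F` of local fields with group `G`, a generator `γ` of `H²(G, Eˣ)` restricts
  to a generator of `H²(H, Eˣ)` (of order `#H`) for every subgroup `H`.
* `stmt_LocalH3_of : Stmt_LocalFundClass → Stmt_LocalH3` (LOC-4'): `H³(G, Eˣ) = 0`, by Tate's
  theorem (TN-2, helper13) and Hilbert 90.

Transport to the fixed fields: helper58's `H58.resIso`; abstract induction: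
`H72.res_surjective_of_fundHyp` (`LOC/H72_FundResAbs.lean`).
-/

set_option autoImplicit false
set_option linter.unusedSectionVars false

noncomputable section

namespace Fermat.Agent.S55.CFT.LOC.H72

open CategoryTheory CategoryTheory.Limits groupCohomology Rep IntermediateField

/-- Hilbert 90 for every subgroup of the Galois group. -/
theorem subsingleton_H1_resSub {F E : Type} [Field F] [Field E] [Algebra F E]
    [FiniteDimensional F E] (H : Subgroup (E ≃ₐ[F] E)) :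
    Subsingleton (groupCohomology (resSub (unitsRep F E) H) 1) := by
  have hU : Subsingleton (groupCohomology (unitsRep (fixedField H) E) 1) :=
    (groupCohomology.H1ofAutOnUnitsUnique (fixedField H) E).instSubsingleton
  exact (H58.resIso H 1).toLinearEquiv.toEquiv.subsingleton

/-- The units of a local Galois `p`-extension satisfy `FundHyp`, given LOC-4f'. -/
theorem fundHyp_unitsRep (hC : Stmt_LocalH2CyclicP) (q : ℕ) [Fact q.Prime] (p : ℕ)
    [Fact p.Prime] (F E : Type) [Field F] [Field E] [Algebra ℚ_[q] F]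
    [FiniteDimensional ℚ_[q] F] [Algebra F E] [FiniteDimensional F E] [IsGalois F E]
    (hP : IsPGroup p (E ≃ₐ[F] E)) : FundHyp (unitsRep F E) := by
  intro K _ φ hφ
  -- the fixed field of the image, as a finite extension of `ℚ_q`
  let algM : Algebra ℚ_[q] (fixedField φ.range) :=
    ((algebraMap F (fixedField φ.range)).comp (algebraMap ℚ_[q] F)).toAlgebra
  have tower : IsScalarTower ℚ_[q] F (fixedField φ.range) :=
    IsScalarTower.of_algebraMap_eq (fun _ => rfl)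
  have fdM : FiniteDimensional ℚ_[q] (fixedField φ.range) := FiniteDimensional.trans ℚ_[q] F _
  have hPM : IsPGroup p (E ≃ₐ[fixedField φ.range] E) :=
    (hP.to_subgroup φ.range).of_equiv (H58.subgroupEquivGal φ.range)
  obtain ⟨hcard, γ, hγ⟩ := hC q p (fixedField φ.range) E hPM
  have I1 : ∀ n, groupCohomology (res φ (unitsRep F E)) n ≃ₗ[ℤ]
      groupCohomology (unitsRep (fixedField φ.range) E) n := fun n =>
    (rangeIso (unitsRep F E) φ hφ n ≪≫ H58.resIso φ.range n).toLinearEquiv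
  refine ⟨?_, ?_, ?_⟩
  · have hU : Subsingleton (groupCohomology (unitsRep (fixedField φ.range) E) 1) :=
      (groupCohomology.H1ofAutOnUnitsUnique (fixedField φ.range) E).instSubsingleton
    exact (I1 1).toEquiv.subsingleton
  · rw [Nat.card_congr (I1 2).toEquiv, hcard, IntermediateField.finrank_fixedField_eq_card]
    exact Nat.card_congr (MonoidHom.ofInjective hφ).toEquiv.symm
  · refine ⟨(I1 2).symm γ, fun x => ?_⟩
    obtain ⟨n, hn⟩ := hγ ((I1 2) x)
    refine ⟨n, ?_⟩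
    rw [← map_zsmul, ← hn, LinearEquiv.symm_apply_apply]

/-- **LOC-4g**: the local fundamental class on `p`-extensions, from LOC-4f'. -/
theorem stmt_LocalFundClass_of (hC : Stmt_LocalH2CyclicP) : Stmt_LocalFundClass := by
  intro q _ p _ F E _ _ _ _ _ _ _ hP
  have hA := fundHyp_unitsRep hC q p F E hP
  obtain ⟨-, -, γ, hγ⟩ := hA (E ≃ₐ[F] E) (MonoidHom.id _) Function.injective_id
  refine ⟨γ, fun H => ?_⟩
  obtain ⟨-, hcard, -⟩ := hA H H.subtype H.subtype_injective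
  refine ⟨hcard, fun x => ?_⟩
  have hs := res_surjective_of_fundHyp p _ (E ≃ₐ[F] E) rfl hP (unitsRep F E) hA H H.subtype
    H.subtype_injective
  obtain ⟨y, rfl⟩ := hs x
  obtain ⟨n, rfl⟩ := hγ y
  exact ⟨n, map_zsmul _ _ _⟩

/-- **LOC-4'**: `H³(Gal(E/F), Eˣ) = 0` for local `p`-extensions, from LOC-4. -/
theorem stmt_LocalH3_of (hFC : Stmt_LocalFundClass) : Stmt_LocalH3 := by
  intro q _ p _ F E _ _ _ _ _ _ _ hP
  obtain ⟨γ, hγ⟩ := hFC q p F E hP
  have h3 := H13.stmt_TateH3 (E ≃ₐ[F] E) (unitsRep F E) γ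
    (fun H => subsingleton_H1_resSub H) hγ ⊤
  have hb := map_bijective_of_bijective (unitsRep F E) (⊤ : Subgroup (E ≃ₐ[F] E)).subtype
    ⟨Subtype.val_injective, fun g => ⟨⟨g, Subgroup.mem_top g⟩, rfl⟩⟩ 3
  exact hb.1.subsingleton

end Fermat.Agent.S55.CFT.LOC.H72

end
end
-- ==== END Fermat.Agent.S55.CFT.LOC.H72_FundRes

-- ==== BEGIN Fermat.Agent.S55.Top.G1K_Ind
section

set_option autoImplicit false
set_option linter.unusedSectionVars false
set_option linter.unusedSimpArgs false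

open CategoryTheory Module groupCohomology ExtCitation

noncomputable section

namespace Fermat.Agent.S55.Top

open Fermat.Agent.S55

attribute [local instance] locAct

namespace KbData

variable {p : ℕ} [Fact p.Prime] {S : Finset Nat.Primes}
  {K : IntermediateField ℚ (AlgebraicClosure ℚ)} {𝔓 : PlaceSys S K}
  {b : ↥K.fixingSubgroup → ZMod p} (D : KbData 𝔓 b)

/-! ### The cocycle of the induced module -/

lemma κ_aux (g : ↥K.fixingSubgroup) (j : ZMod p) :
    b ((D.pw j)⁻¹ * g * D.pw (j - b g)) = 0 := by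
  rw [H48.hom_mul D.hb, H48.hom_mul D.hb, g1k_hom_inv D.hb, D.b_pw, D.b_pw]
  ring

/-- `κ(g, j) = h₀^{-j} g h₀^{j - b g} ∈ G_{K'}`. -/
def κ (g : ↥K.fixingSubgroup) (j : ZMod p) : ↥D.K'.fixingSubgroup :=
  ⟨(((D.pw j)⁻¹ * g * D.pw (j - b g) : ↥K.fixingSubgroup) : GQ), D.mem_of_b (D.κ_aux g j)⟩

lemma coe_κ (g : ↥K.fixingSubgroup) (j : ZMod p) :
    ((D.κ g j : ↥D.K'.fixingSubgroup) : GQ) =
      (D.pw j : GQ)⁻¹ * (g : GQ) * (D.pw (j - b g) : GQ) := rfl

lemma κ_mul (g g' : ↥K.fixingSubgroup) (j : ZMod p) :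
    D.κ (g * g') j = D.κ g j * D.κ g' (j - b g) := by
  apply Subtype.ext
  rw [Subgroup.coe_mul, D.coe_κ, D.coe_κ, D.coe_κ, H48.hom_mul D.hb, sub_add_eq_sub_sub,
    Subgroup.coe_mul]
  group

/-- `κ` on an element of `ker b` is a conjugate. -/
lemma coe_κ_of_b {s : ↥K.fixingSubgroup} (hs : b s = 0) (j : ZMod p) :
    ((D.κ s j : ↥D.K'.fixingSubgroup) : GQ) = (D.pw j : GQ)⁻¹ * (s : GQ) * (D.pw j : GQ) := by
  rw [D.coe_κ, hs, sub_zero]

/-- `κ` on the local groups is `ρ_{(w,j)}`. -/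
lemma κ_ρw (q : ↥S) (w : 𝔓.W q) (j : ZMod p) (h : 𝔓.Γw q w) :
    D.κ (𝔓.ρw q w h) j = D.placeSys.ρw q (D.mkW q w j) (D.eIn q w j h) := by
  apply Subtype.ext
  rw [D.ρw_mkW, D.coe_κ_of_b (D.hloc q w h)]
  rfl

/-! ### Relative induction in degree 2 -/

/-- relative induction of a 2-cochain of `G_{K'}`. -/
def ind₂ (f : ↥D.K'.fixingSubgroup × ↥D.K'.fixingSubgroup → ZMod p) :
    ↥K.fixingSubgroup × ↥K.fixingSubgroup → ZMod p → ZMod p :=
  fun t j => f (D.κ t.1 j, D.κ t.2 (j - b t.1))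

/-- the induced cochain of a cocycle is a (twisted) cocycle. -/
lemma ind₂_coc {f : ↥D.K'.fixingSubgroup × ↥D.K'.fixingSubgroup → ZMod p} (hf : tTwo f = 0)
    (g₁ g₂ g₃ : ↥K.fixingSubgroup) (j : ZMod p) :
    D.ind₂ f (g₂, g₃) (j - b g₁) - D.ind₂ f (g₁ * g₂, g₃) j + D.ind₂ f (g₁, g₂ * g₃) j
      - D.ind₂ f (g₁, g₂) j = 0 := by
  have h := congrFun hf (D.κ g₁ j, D.κ g₂ (j - b g₁), D.κ g₃ (j - b g₁ - b g₂))
  simp only [tTwo, Pi.zero_apply] at h
  simp only [ind₂]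
  rw [D.κ_mul g₁ g₂ j, D.κ_mul g₂ g₃ (j - b g₁), H48.hom_mul D.hb g₁ g₂, sub_add_eq_sub_sub]
  exact h

/-- restriction to the local groups: strict compatibility. -/
lemma ind₂_res (f : ↥D.K'.fixingSubgroup × ↥D.K'.fixingSubgroup → ZMod p) (q : ↥S)
    (w : 𝔓.W q) (j : ZMod p) (h₁ h₂ : 𝔓.Γw q w) :
    D.ind₂ f (𝔓.ρw q w h₁, 𝔓.ρw q w h₂) j =
      D.placeSys.res₂ q (D.mkW q w j) f (D.eIn q w j h₁, D.eIn q w j h₂) := by
  simp only [ind₂, PlaceSys.res₂]
  rw [D.hloc q w h₁, sub_zero, D.κ_ρw, D.κ_ρw]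

/-- the induced cochain is of level `S`, uniformly in `j`. -/
lemma ind₂_lev (hK' : D.K'.IsUnramifiedOutside S)
    {f : ↥D.K'.fixingSubgroup × ↥D.K'.fixingSubgroup → ZMod p} (hf : IsLevK₂ S D.K' f) :
    ∃ F : IntermediateField ℚ (AlgebraicClosure ℚ), F.IsUnramifiedOutside S ∧
      ∀ (j : ZMod p) (g₁ g₂ s₁ s₂ : ↥K.fixingSubgroup), (s₁ : GQ) ∈ F.fixingSubgroup →
        (s₂ : GQ) ∈ F.fixingSubgroup → D.ind₂ f (g₁ * s₁, g₂ * s₂) j = D.ind₂ f (g₁, g₂) j := by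
  obtain ⟨F₁, hF₁, h⟩ := hf
  obtain ⟨F, hle, hF, hn⟩ := Fermat.Agent.S55.H48.exists_normal_level S (F₁ ⊔ D.K') (hF₁.sup hK')
  refine ⟨F, hF, fun j g₁ g₂ s₁ s₂ hs₁ hs₂ => ?_⟩
  have hb0 : ∀ s : ↥K.fixingSubgroup, (s : GQ) ∈ F.fixingSubgroup → b s = 0 := fun s hs =>
    D.b_eq_zero (IntermediateField.fixingSubgroup_antitone (le_sup_right.trans hle) hs)
  have hκ : ∀ (s : ↥K.fixingSubgroup) (i : ZMod p), (s : GQ) ∈ F.fixingSubgroup →
      ((D.κ s i : ↥D.K'.fixingSubgroup) : GQ) ∈ F₁.fixingSubgroup := by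
    intro s i hs
    rw [D.coe_κ_of_b (hb0 s hs)]
    exact IntermediateField.fixingSubgroup_antitone (le_sup_left.trans hle)
      (conj_mem_fix hn _ hs)
  simp only [ind₂]
  rw [D.κ_mul g₁ s₁ j, D.κ_mul g₂ s₂, H48.hom_mul D.hb g₁ s₁, hb0 s₁ hs₁, add_zero]
  exact h _ _ _ _ (hκ _ _ hs₁) (hκ _ _ hs₂)

/-! ### Moments -/

/-- the zeroth moment. -/
def M0 {A : Type} (F : A → ZMod p → ZMod p) : A → ZMod p := fun t => ∑ j : ZMod p, F t j

/-- the first moment. -/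
def M1 {A : Type} (F : A → ZMod p → ZMod p) : A → ZMod p := fun t => ∑ j : ZMod p, j * F t j

lemma sum_shift (φ : ZMod p → ZMod p) (c : ZMod p) :
    ∑ j : ZMod p, φ (j - c) = ∑ j : ZMod p, φ j :=
  Fintype.sum_equiv (Equiv.subRight c) _ _ (fun _ => rfl)

lemma sum_shift_mul (φ : ZMod p → ZMod p) (c : ZMod p) :
    ∑ j : ZMod p, j * φ (j - c) = ∑ j : ZMod p, j * φ j + c * ∑ j : ZMod p, φ j := by
  rw [Finset.mul_sum, ← Finset.sum_add_distrib]
  refine Fintype.sum_equiv (Equiv.subRight c) _ _ (fun j => ?_)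
  show j * φ (j - c) = (j - c) * φ (j - c) + c * φ (j - c)
  ring

/-- `M₀` of a twisted cocycle is a cocycle. -/
lemma tTwo_M0 {F : ↥K.fixingSubgroup × ↥K.fixingSubgroup → ZMod p → ZMod p}
    (hF : ∀ (g₁ g₂ g₃ : ↥K.fixingSubgroup) (j : ZMod p),
      F (g₂, g₃) (j - b g₁) - F (g₁ * g₂, g₃) j + F (g₁, g₂ * g₃) j - F (g₁, g₂) j = 0) :
    tTwo (M0 F) = 0 := by
  funext t
  obtain ⟨g₁, g₂, g₃⟩ := t
  have h : ∑ j : ZMod p,
      (F (g₂, g₃) (j - b g₁) - F (g₁ * g₂, g₃) j + F (g₁, g₂ * g₃) j - F (g₁, g₂) j) = 0 :=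
    Finset.sum_eq_zero (fun j _ => hF g₁ g₂ g₃ j)
  rw [Finset.sum_sub_distrib, Finset.sum_add_distrib, Finset.sum_sub_distrib,
    sum_shift (F (g₂, g₃)) (b g₁)] at h
  simpa only [tTwo, M0, Pi.zero_apply] using h

/-- `d (M₁ F) = - b ∪ M₀ F` for a twisted cocycle `F`. -/
lemma tTwo_M1 {F : ↥K.fixingSubgroup × ↥K.fixingSubgroup → ZMod p → ZMod p}
    (hF : ∀ (g₁ g₂ g₃ : ↥K.fixingSubgroup) (j : ZMod p),
      F (g₂, g₃) (j - b g₁) - F (g₁ * g₂, g₃) j + F (g₁, g₂ * g₃) j - F (g₁, g₂) j = 0)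
    (t : ↥K.fixingSubgroup × ↥K.fixingSubgroup × ↥K.fixingSubgroup) :
    tTwo (M1 F) t = - (b t.1 * M0 F (t.2.1, t.2.2)) := by
  obtain ⟨g₁, g₂, g₃⟩ := t
  have h : ∑ j : ZMod p, j *
      (F (g₂, g₃) (j - b g₁) - F (g₁ * g₂, g₃) j + F (g₁, g₂ * g₃) j - F (g₁, g₂) j) = 0 :=
    Finset.sum_eq_zero (fun j _ => by rw [hF g₁ g₂ g₃ j, mul_zero])
  simp only [mul_sub, mul_add] at h
  rw [Finset.sum_sub_distrib, Finset.sum_add_distrib, Finset.sum_sub_distrib,
    sum_shift_mul (F (g₂, g₃)) (b g₁)] at h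
  simp only [tTwo, M1, M0]
  linear_combination h

lemma levK₂_M0 {F : ↥K.fixingSubgroup × ↥K.fixingSubgroup → ZMod p → ZMod p}
    (hF : ∃ F₀ : IntermediateField ℚ (AlgebraicClosure ℚ), F₀.IsUnramifiedOutside S ∧
      ∀ (j : ZMod p) (g₁ g₂ s₁ s₂ : ↥K.fixingSubgroup), (s₁ : GQ) ∈ F₀.fixingSubgroup →
        (s₂ : GQ) ∈ F₀.fixingSubgroup → F (g₁ * s₁, g₂ * s₂) j = F (g₁, g₂) j) :
    IsLevK₂ S K (M0 F) := by
  obtain ⟨F₀, hF₀, h⟩ := hF
  refine ⟨F₀, hF₀, fun g₁ g₂ s₁ s₂ h₁ h₂ => ?_⟩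
  simp only [M0]
  exact Finset.sum_congr rfl (fun j _ => h j g₁ g₂ s₁ s₂ h₁ h₂)

lemma levK₂_M1 {F : ↥K.fixingSubgroup × ↥K.fixingSubgroup → ZMod p → ZMod p}
    (hF : ∃ F₀ : IntermediateField ℚ (AlgebraicClosure ℚ), F₀.IsUnramifiedOutside S ∧
      ∀ (j : ZMod p) (g₁ g₂ s₁ s₂ : ↥K.fixingSubgroup), (s₁ : GQ) ∈ F₀.fixingSubgroup →
        (s₂ : GQ) ∈ F₀.fixingSubgroup → F (g₁ * s₁, g₂ * s₂) j = F (g₁, g₂) j) :
    IsLevK₂ S K (M1 F) := by
  obtain ⟨F₀, hF₀, h⟩ := hF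
  refine ⟨F₀, hF₀, fun g₁ g₂ s₁ s₂ h₁ h₂ => ?_⟩
  simp only [M1]
  exact Finset.sum_congr rfl (fun j _ => by rw [h j g₁ g₂ s₁ s₂ h₁ h₂])

/-- finite sums of level-constant functions are level constant. -/
lemma levL₁_sum (q : ↥S) (w : 𝔓.W q) (G : ZMod p → 𝔓.Γw q w → ZMod p)
    (hG : ∀ j, IsLevelConstant₁ (𝔓.rw q w) (G j)) (s : Finset (ZMod p)) :
    IsLevelConstant₁ (𝔓.rw q w) (fun h => ∑ j ∈ s, G j h) := by
  classical
  induction s using Finset.induction_on with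
  | empty =>
    simp only [Finset.sum_empty]
    exact isLevelConstant₁_const (𝔓.rw q w) (0 : ZMod p)
  | insert a s ha ih =>
    have e : (fun h => ∑ j ∈ insert a s, G j h) = G a + fun h => ∑ j ∈ s, G j h := by
      funext h
      rw [Finset.sum_insert ha]
      rfl
    rw [e]
    exact (hG a).add ih

end KbData

end Fermat.Agent.S55.Top

end

end
-- ==== END Fermat.Agent.S55.Top.G1K_Ind

-- ==== BEGIN Fermat.Agent.S55.Top.H48_PTDim
section

set_option autoImplicit false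

open CategoryTheory Module groupCohomology ExtCitation

noncomputable section

namespace Fermat.Agent.S55.Top.H48

open Fermat.Agent.S55 Fermat.Agent.S55.Top

/-- If any two vectors are linearly dependent modulo `W` then `W` has codimension `≤ 1`. -/
lemma finrank_le_of_dep {k : Type*} [Field k] {P : Type*} [AddCommGroup P] [Module k P]
    [FiniteDimensional k P] (W : Submodule k P)
    (h : ∀ e e' : P, ∃ α β : k, (α ≠ 0 ∨ β ≠ 0) ∧ α • e + β • e' ∈ W) :
    finrank k P ≤ finrank k ↥W + 1 := by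
  have h1 : finrank k (P ⧸ W) ≤ 1 := by
    rw [finrank_le_one_iff]
    by_cases hz : ∀ v : P ⧸ W, v = 0
    · exact ⟨0, fun w => ⟨0, by rw [hz w, smul_zero]⟩⟩
    · simp only [not_forall] at hz
      obtain ⟨v, hv⟩ := hz
      refine ⟨v, fun w => ?_⟩
      obtain ⟨v', rfl⟩ := Submodule.mkQ_surjective W v
      obtain ⟨w', rfl⟩ := Submodule.mkQ_surjective W w
      obtain ⟨α, β, hαβ, hmem⟩ := h v' w'
      have e : α • W.mkQ v' + β • W.mkQ w' = 0 := by
        rw [← map_smul, ← map_smul, ← map_add]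
        exact (Submodule.Quotient.mk_eq_zero W).2 hmem
      have hβ : β ≠ 0 := by
        rintro rfl
        rw [zero_smul, add_zero] at e
        rcases hαβ with hα | hβ
        · exact hv ((smul_eq_zero.1 e).resolve_left hα)
        · exact hβ rfl
      refine ⟨-(β⁻¹ * α), ?_⟩
      have e2 : β • W.mkQ w' = -(α • W.mkQ v') := eq_neg_of_add_eq_zero_right e
      have e3 : W.mkQ w' = β⁻¹ • (β • W.mkQ w') := by
        rw [smul_smul, inv_mul_cancel₀ hβ, one_smul]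
      rw [e3, e2, smul_neg, smul_smul, neg_smul]
  have h2 := Submodule.finrank_quotient_add_finrank W
  omega

variable {k : Type} [Field k] {S : Finset Nat.Primes}
  {K : IntermediateField ℚ (AlgebraicClosure ℚ)} {𝔓 : PlaceSys S K}

/-- `⊕ H¹(K_w)` is finite-dimensional. -/
lemma finite_P1 (h : ∀ (q : ↥S) (w : 𝔓.W q), Module.Finite k ↥(Z1w k 𝔓 q w)) :
    Module.Finite k (P1 k 𝔓) := by
  letI : ∀ q : ↥S, Fintype (𝔓.W q) := 𝔓.fin
  haveI := h
  exact inferInstance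

/-- `dim ⊕ H¹(K_w) = Σ dim H¹(K_w)`. -/
lemma finrank_P1 (h : ∀ (q : ↥S) (w : 𝔓.W q), Module.Finite k ↥(Z1w k 𝔓 q w)) :
    finrank k (P1 k 𝔓) = sumH1w k 𝔓 := by
  letI : ∀ q : ↥S, Fintype (𝔓.W q) := 𝔓.fin
  haveI := h
  rw [Module.finrank_pi_fintype]
  unfold sumH1w
  refine Finset.sum_congr rfl (fun q _ => ?_)
  rw [Module.finrank_pi_fintype]

lemma finite_H2w (h : ∀ (q : ↥S) (w : 𝔓.W q), finrank k (H2w k 𝔓 q w) = 1) (q : ↥S)
    (w : 𝔓.W q) : Module.Finite k (H2w k 𝔓 q w) :=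
  Module.finite_of_finrank_pos (by rw [h q w]; exact Nat.one_pos)

/-- A coordinate on the line `H²(K_w)`. -/
def coordw (h : ∀ (q : ↥S) (w : 𝔓.W q), finrank k (H2w k 𝔓 q w) = 1) (q : ↥S) (w : 𝔓.W q) :
    H2w k 𝔓 q w ≃ₗ[k] k :=
  haveI := finite_H2w h q w
  LinearEquiv.ofFinrankEq _ _ (by rw [h q w, Module.finrank_self])

/-- The restriction map `H²_S(G_K) → ⊕_w H²(K_w)` in coordinates. -/
def r2k (h : ∀ (q : ↥S) (w : 𝔓.W q), finrank k (H2w k 𝔓 q w) = 1) :
    H2K k S K →ₗ[k] (∀ q : ↥S, 𝔓.W q → k) :=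
  LinearMap.pi (fun q => LinearMap.pi (fun w => (coordw h q w).toLinearMap ∘ₗ r2w k 𝔓 q w))

lemma r2k_apply (h : ∀ (q : ↥S) (w : 𝔓.W q), finrank k (H2w k 𝔓 q w) = 1) (a : H2K k S K)
    (q : ↥S) (w : 𝔓.W q) : r2k h a q w = coordw h q w (r2w k 𝔓 q w a) := rfl

lemma ker_r2k (h : ∀ (q : ↥S) (w : 𝔓.W q), finrank k (H2w k 𝔓 q w) = 1) :
    LinearMap.ker (r2k h) = LinearMap.ker (r2 k 𝔓) := by
  ext a
  rw [LinearMap.mem_ker, LinearMap.mem_ker]
  constructor
  · intro ha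
    funext q w
    have h1 : r2k h a q w = 0 := by rw [ha]; rfl
    rw [r2k_apply] at h1
    rw [r2_apply]
    exact (LinearEquiv.map_eq_zero_iff _).1 h1
  · intro ha
    funext q w
    have h1 : r2 k 𝔓 a q w = 0 := by rw [ha]; rfl
    rw [r2_apply] at h1
    rw [r2k_apply, h1, map_zero]
    rfl

/-- `dim k^V = #V`. -/
lemma finrank_kV : finrank k (∀ q : ↥S, 𝔓.W q → k) = nPl 𝔓 := by
  letI : ∀ q : ↥S, Fintype (𝔓.W q) := 𝔓.fin
  rw [Module.finrank_pi_fintype]
  unfold nPl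
  refine Finset.sum_congr rfl (fun q _ => ?_)
  rw [Module.finrank_fintype_fun_eq_card]

lemma finite_kV : Module.Finite k (∀ q : ↥S, 𝔓.W q → k) := by
  letI : ∀ q : ↥S, Fintype (𝔓.W q) := 𝔓.fin
  exact inferInstance

/-- Any two families of local classes are dependent modulo the image of `H²_S(G_K)`. -/
lemma dep_of_I4a (h : ∀ (q : ↥S) (w : 𝔓.W q), finrank k (H2w k 𝔓 q w) = 1)
    (hI4a : ∀ c c' : ∀ (q : ↥S) (w : 𝔓.W q), 𝔓.Γw q w × 𝔓.Γw q w → k,
      (∀ q w, c q w ∈ Z2w k 𝔓 q w) → (∀ q w, c' q w ∈ Z2w k 𝔓 q w) →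
      ∃ α β : k, (α ≠ 0 ∨ β ≠ 0) ∧
        IsB3cK 𝔓 ((0, fun q w => α • c q w + β • c' q w) : 𝔓.C3 k))
    (e e' : ∀ q : ↥S, 𝔓.W q → k) :
    ∃ α β : k, (α ≠ 0 ∨ β ≠ 0) ∧ α • e + β • e' ∈ LinearMap.range (r2k h) := by
  have hs : ∀ (q : ↥S) (w : 𝔓.W q) (x : k),
      ∃ c : ↥(Z2w k 𝔓 q w), coordw h q w (Submodule.Quotient.mk c) = x := by
    intro q w x
    obtain ⟨c, hc⟩ := Submodule.mkQ_surjective _ ((coordw h q w).symm x)
    refine ⟨c, ?_⟩
    rw [← Submodule.mkQ_apply, hc, LinearEquiv.apply_symm_apply]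
  choose c hc using fun q w => hs q w (e q w)
  choose c' hc' using fun q w => hs q w (e' q w)
  obtain ⟨α, β, hαβ, hB⟩ := hI4a (fun q w => (c q w).1) (fun q w => (c' q w).1)
    (fun q w => (c q w).2) (fun q w => (c' q w).2)
  refine ⟨α, β, hαβ, ?_⟩
  obtain ⟨f, g, hf, hg, h1, h2⟩ := hB
  have hfZ : IsZ2K S K f := ⟨h1.symm, hf⟩
  refine ⟨Submodule.Quotient.mk ⟨f, hfZ⟩, ?_⟩
  funext q w
  rw [r2k_apply, r2w_mk]
  show _ = α • e q w + β • e' q w
  rw [← hc q w, ← hc' q w, ← map_smul, ← map_smul, ← map_add]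
  congr 1
  rw [← Submodule.Quotient.mk_smul, ← Submodule.Quotient.mk_smul,
    ← Submodule.Quotient.mk_add, Submodule.Quotient.eq]
  show 𝔓.res₂ q w f - (α • (c q w).1 + β • (c' q w).1) ∈ B2w k 𝔓 q w
  refine ⟨g q w, hg q w, ?_⟩
  have e1 : α • (c q w).1 + β • (c' q w).1 = 𝔓.res₂ q w f - tOne (g q w) := h2 q w
  rw [e1, sub_sub_cancel]

/-- `dim Ш² + #V ≤ dim H²_S(G_K) + 1`. -/
theorem finrank_ker_r2_le [Module.Finite k (H2K k S K)]
    (hI1b : ∀ (q : ↥S) (w : 𝔓.W q), finrank k (H2w k 𝔓 q w) = 1)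
    (hI4a : ∀ c c' : ∀ (q : ↥S) (w : 𝔓.W q), 𝔓.Γw q w × 𝔓.Γw q w → k,
      (∀ q w, c q w ∈ Z2w k 𝔓 q w) → (∀ q w, c' q w ∈ Z2w k 𝔓 q w) →
      ∃ α β : k, (α ≠ 0 ∨ β ≠ 0) ∧
        IsB3cK 𝔓 ((0, fun q w => α • c q w + β • c' q w) : 𝔓.C3 k)) :
    finrank k ↥(LinearMap.ker (r2 k 𝔓)) + nPl 𝔓 ≤ finrank k (H2K k S K) + 1 := by
  haveI : Module.Finite k (∀ q : ↥S, 𝔓.W q → k) := finite_kV
  have h1 := finrank_le_of_dep (LinearMap.range (r2k hI1b)) (dep_of_I4a hI1b hI4a)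
  rw [finrank_kV] at h1
  have h2 := LinearMap.finrank_range_add_finrank_ker (r2k hI1b)
  rw [ker_r2k hI1b] at h2
  omega

end Fermat.Agent.S55.Top.H48

end

end
-- ==== END Fermat.Agent.S55.Top.H48_PTDim
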