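-- GENERATED (merged mirror, NOTES/tools/trim/merge3_helper67.py): 7 modules of the originals, bodies verbatim.
import Mathlib
import Fermat.Agent.Zm.S56_L09_001
import Fermat.Agent.Zm.S56_L09_002
import Fermat.Agent.Zm.S56_L02_003
import Fermat.Agent.Zm.S35_L03_002
import Fermat.Agent.Zm.S56_L02_004

-- ==== BEGIN Fermat.Agent.S55.CFT.GS.H24_AsmI4
section

set_option autoImplicit false
set_option linter.unusedSectionVars false
set_option linter.unusedVariables false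
set_option linter.style.haveILetI false

open CategoryTheory Module groupCohomology ExtCitation

noncomputable section

namespace Fermat.Agent.S55.CFT.GS.H24

open Fermat.Agent.S55 Fermat.Agent.S55.Top Fermat.Agent.S55.CFT.GS

local notation "Qb" => AlgebraicClosure ℚ

section asm4

variable {p : ℕ} [Fact p.Prime] {S : Finset Nat.Primes} {K : IntermediateField ℚ Qb}
  (𝔓 : PlaceSys S K)

/-- Restriction to the place `i` as a linear map. -/
def resL (i : PlI 𝔓) :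
    (↥K.fixingSubgroup × ↥K.fixingSubgroup → ZMod p) →ₗ[ZMod p]
      (𝔓.Γw i.1 i.2 × 𝔓.Γw i.1 i.2 → ZMod p) where
  toFun a := 𝔓.res₂ i.1 i.2 a
  map_add' _ _ := rfl
  map_smul' _ _ := rfl

theorem resL_apply (i : PlI 𝔓) (a : ↥K.fixingSubgroup × ↥K.fixingSubgroup → ZMod p) :
    _root_.Fermat.Agent.S55.CFT.GS.H24.resL 𝔓 i a = 𝔓.res₂ i.1 i.2 a := rfl

/-- In the line `H²(K_w)` a nonzero class spans. -/
theorem exists_smul_sub_mem (i : PlI 𝔓)
    (h1 : Module.finrank (ZMod p) (H2w (ZMod p) 𝔓 i.1 i.2) = 1)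
    {x y : 𝔓.Γw i.1 i.2 × 𝔓.Γw i.1 i.2 → ZMod p}
    (hx : x ∈ Z2w (ZMod p) 𝔓 i.1 i.2) (hxB : x ∉ B2w (ZMod p) 𝔓 i.1 i.2)
    (hy : y ∈ Z2w (ZMod p) 𝔓 i.1 i.2) :
    ∃ c : ZMod p, y - c • x ∈ B2w (ZMod p) 𝔓 i.1 i.2 := by
  have hx0 : (Submodule.Quotient.mk (⟨x, hx⟩ : ↥(Z2w (ZMod p) 𝔓 i.1 i.2)) :
      H2w (ZMod p) 𝔓 i.1 i.2) ≠ 0 := by
    intro h
    rw [Submodule.Quotient.mk_eq_zero] at h
    exact hxB h
  obtain ⟨c, hc⟩ := (finrank_eq_one_iff_of_nonzero' _ hx0).1 h1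
    (Submodule.Quotient.mk (⟨y, hy⟩ : ↥(Z2w (ZMod p) 𝔓 i.1 i.2)))
  refine ⟨c, ?_⟩
  have h2 : (Submodule.Quotient.mk ((⟨y, hy⟩ : ↥(Z2w (ZMod p) 𝔓 i.1 i.2)) -
      c • (⟨x, hx⟩ : ↥(Z2w (ZMod p) 𝔓 i.1 i.2))) : H2w (ZMod p) 𝔓 i.1 i.2) = 0 := by
    rw [Submodule.Quotient.mk_sub, Submodule.Quotient.mk_smul, hc, sub_self]
  rw [Submodule.Quotient.mk_eq_zero] at h2
  exact h2

/-- Two elements of the line `H²(K_w)` are linearly dependent. -/
theorem exists_dep (i : PlI 𝔓)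
    (h1 : Module.finrank (ZMod p) (H2w (ZMod p) 𝔓 i.1 i.2) = 1)
    {x y : 𝔓.Γw i.1 i.2 × 𝔓.Γw i.1 i.2 → ZMod p}
    (hx : x ∈ Z2w (ZMod p) 𝔓 i.1 i.2) (hy : y ∈ Z2w (ZMod p) 𝔓 i.1 i.2) :
    ∃ α β : ZMod p, (α ≠ 0 ∨ β ≠ 0) ∧ α • x + β • y ∈ B2w (ZMod p) 𝔓 i.1 i.2 := by
  by_cases hxB : x ∈ B2w (ZMod p) 𝔓 i.1 i.2
  · refine ⟨1, 0, Or.inl one_ne_zero, ?_⟩
    rw [one_smul, zero_smul, add_zero]
    exact hxB
  · obtain ⟨c, hc⟩ := exists_smul_sub_mem 𝔓 i h1 hx hxB hy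
    refine ⟨-c, 1, Or.inr one_ne_zero, ?_⟩
    have e : -c • x + (1 : ZMod p) • y = y - c • x := by
      rw [one_smul, neg_smul]
      abel
    rw [e]
    exact hc

/-- Away from a fixed place `i₀`, every family of local classes is the restriction of a global
class. -/
theorem exists_global_away (hTwo : Stmt_GS_Two) (hp2 : p ≠ 2) (hp : pPrime p ∈ S)
    (hK : IsBaseField S p K)
    (h1 : ∀ (q : ↥S) (w : 𝔓.W q), Module.finrank (ZMod p) (H2w (ZMod p) 𝔓 q w) = 1)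
    (i₀ : PlI 𝔓)
    (c : ∀ (q : ↥S) (w : 𝔓.W q), 𝔓.Γw q w × 𝔓.Γw q w → ZMod p)
    (hc : ∀ q w, c q w ∈ Z2w (ZMod p) 𝔓 q w) :
    ∃ f : ↥K.fixingSubgroup × ↥K.fixingSubgroup → ZMod p, f ∈ Z2K (ZMod p) S K ∧
      ∀ j : PlI 𝔓, j ≠ i₀ → c j.1 j.2 - _root_.Fermat.Agent.S55.CFT.GS.H24.resL 𝔓 j f ∈ B2w (ZMod p) 𝔓 j.1 j.2 := by
  classical
  letI : ∀ q, Fintype (𝔓.W q) := 𝔓.fin
  -- the classes of `Two`
  have hex : ∀ i : PlI 𝔓, ∃ a : ↥K.fixingSubgroup × ↥K.fixingSubgroup → ZMod p,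
      i ≠ i₀ → (a ∈ Z2K (ZMod p) S K ∧ _root_.Fermat.Agent.S55.CFT.GS.H24.resL 𝔓 i a ∉ B2w (ZMod p) 𝔓 i.1 i.2 ∧
        ∀ j : PlI 𝔓, j ≠ i → j ≠ i₀ → _root_.Fermat.Agent.S55.CFT.GS.H24.resL 𝔓 j a ∈ B2w (ZMod p) 𝔓 j.1 j.2) := by
    intro i
    by_cases hi : i = i₀
    · exact ⟨0, fun h => (h hi).elim⟩
    · obtain ⟨a, ha, ha1, ha2⟩ := hTwo p hp2 S hp K hK 𝔓 i.1 i.2 i₀.1 i₀.2 hi
      exact ⟨a, fun _ => ⟨ha, ha1, fun j hj hj0 => ha2 j.1 j.2 hj hj0⟩⟩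
  choose a ha using hex
  -- the coefficients
  have hlam : ∀ i : PlI 𝔓, ∃ l : ZMod p, i ≠ i₀ →
      c i.1 i.2 - l • _root_.Fermat.Agent.S55.CFT.GS.H24.resL 𝔓 i (a i) ∈ B2w (ZMod p) 𝔓 i.1 i.2 := by
    intro i
    by_cases hi : i = i₀
    · exact ⟨0, fun h => (h hi).elim⟩
    · obtain ⟨l, hl⟩ := exists_smul_sub_mem 𝔓 i (h1 _ _)
        (res₂_mem_Z2w 𝔓 i.1 i.2 (ha i hi).1) (ha i hi).2.1 (hc i.1 i.2)
      exact ⟨l, fun _ => hl⟩
  choose l hl using hlam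
  refine ⟨∑ i ∈ Finset.univ.erase i₀, l i • a i, ?_, ?_⟩
  · refine Submodule.sum_mem _ (fun i hi => ?_)
    exact Submodule.smul_mem _ _ (ha i (Finset.ne_of_mem_erase hi)).1
  · intro j hj
    have hjmem : j ∈ Finset.univ.erase i₀ := Finset.mem_erase.2 ⟨hj, Finset.mem_univ _⟩
    rw [map_sum, ← Finset.add_sum_erase _ _ hjmem, ← sub_sub]
    refine Submodule.sub_mem _ ?_ (Submodule.sum_mem _ (fun i hi => ?_))
    · rw [map_smul]
      exact hl j hj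
    · rw [map_smul]
      have hi0 : i ≠ i₀ := Finset.ne_of_mem_erase (Finset.mem_of_mem_erase hi)
      have hij : j ≠ i := fun h => (Finset.ne_of_mem_erase hi) h.symm
      exact Submodule.smul_mem _ _ ((ha i hi0).2.2 j hij hj)

/-- **GS-AsmI4.** -/
theorem asmI4 : Stmt_GS_AsmI4 := by
  intro hOne hTwo hI1 p _ hp2 S hp K hK 𝔓
  obtain ⟨-, h2w, -, -⟩ := hI1 p hp2 S hp K hK 𝔓
  constructor
  · intro c c' hc hc'
    obtain ⟨i₀⟩ := exists_place 𝔓 hp
    obtain ⟨f, hf, hfc⟩ := exists_global_away 𝔓 hTwo hp2 hp hK h2w i₀ c hc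
    obtain ⟨f', hf', hfc'⟩ := exists_global_away 𝔓 hTwo hp2 hp hK h2w i₀ c' hc'
    have hu : c i₀.1 i₀.2 - _root_.Fermat.Agent.S55.CFT.GS.H24.resL 𝔓 i₀ f ∈ Z2w (ZMod p) 𝔓 i₀.1 i₀.2 :=
      Submodule.sub_mem _ (hc _ _) (res₂_mem_Z2w 𝔓 i₀.1 i₀.2 hf)
    have hu' : c' i₀.1 i₀.2 - _root_.Fermat.Agent.S55.CFT.GS.H24.resL 𝔓 i₀ f' ∈ Z2w (ZMod p) 𝔓 i₀.1 i₀.2 :=
      Submodule.sub_mem _ (hc' _ _) (res₂_mem_Z2w 𝔓 i₀.1 i₀.2 hf')
    obtain ⟨α, β, hαβ, hdep⟩ := exists_dep 𝔓 i₀ (h2w _ _) hu hu'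
    refine ⟨α, β, hαβ, ?_⟩
    -- the global cocycle
    have hF : α • f + β • f' ∈ Z2K (ZMod p) S K :=
      Submodule.add_mem _ (Submodule.smul_mem _ _ hf) (Submodule.smul_mem _ _ hf')
    have hall : ∀ j : PlI 𝔓, _root_.Fermat.Agent.S55.CFT.GS.H24.resL 𝔓 j (α • f + β • f') - (α • c j.1 j.2 + β • c' j.1 j.2) ∈
        B2w (ZMod p) 𝔓 j.1 j.2 := by
      intro j
      have e : _root_.Fermat.Agent.S55.CFT.GS.H24.resL 𝔓 j (α • f + β • f') - (α • c j.1 j.2 + β • c' j.1 j.2) =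
          -(α • (c j.1 j.2 - _root_.Fermat.Agent.S55.CFT.GS.H24.resL 𝔓 j f) + β • (c' j.1 j.2 - _root_.Fermat.Agent.S55.CFT.GS.H24.resL 𝔓 j f')) := by
        rw [map_add, map_smul, map_smul, smul_sub, smul_sub]
        abel
      rw [e]
      apply Submodule.neg_mem
      by_cases hj : j = i₀
      · subst hj
        exact hdep
      · exact Submodule.add_mem _ (Submodule.smul_mem _ _ (hfc j hj))
          (Submodule.smul_mem _ _ (hfc' j hj))
    have hall' : ∀ (q : ↥S) (w : 𝔓.W q), ∃ g : 𝔓.Γw q w → ZMod p,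
        IsLevelConstant₁ (𝔓.rw q w) g ∧
          tOne g = 𝔓.res₂ q w (α • f + β • f') - (α • c q w + β • c' q w) :=
      fun q w => hall ⟨q, w⟩
    choose g hg1 hg2 using hall'
    refine ⟨α • f + β • f', g, hF.2, hg1, hF.1.symm, fun q w => ?_⟩
    show α • c q w + β • c' q w = 𝔓.res₂ q w (α • f + β • f') - tOne (g q w)
    rw [hg2 q w]
    abel
  · intro c hc hB q₀ w₀ h0
    obtain ⟨f, g, hf, hg, hf0, hcfg⟩ := hB
    have hfZ : f ∈ Z2K (ZMod p) S K := ⟨hf0.symm, hf⟩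
    have hloc : ∀ (q : ↥S) (w : 𝔓.W q), (⟨q, w⟩ : Σ q : ↥S, 𝔓.W q) ≠ ⟨q₀, w₀⟩ →
        𝔓.res₂ q w f ∈ B2w (ZMod p) 𝔓 q w := by
      intro q w hne
      have h1 : c q w = 𝔓.res₂ q w f - tOne (g q w) := hcfg q w
      rw [h0 q w hne] at h1
      have h2 : 𝔓.res₂ q w f = tOne (g q w) := sub_eq_zero.1 h1.symm
      rw [h2]
      exact ⟨g q w, hg q w, rfl⟩
    have h3 := hOne p hp2 S hp K hK 𝔓 f hfZ q₀ w₀ hloc
    have h4 : c q₀ w₀ = 𝔓.res₂ q₀ w₀ f - tOne (g q₀ w₀) := hcfg q₀ w₀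
    rw [h4]
    exact Submodule.sub_mem _ h3 ⟨g q₀ w₀, hg q₀ w₀, rfl⟩

end asm4

end Fermat.Agent.S55.CFT.GS.H24

end

end
-- ==== END Fermat.Agent.S55.CFT.GS.H24_AsmI4

-- ==== BEGIN Fermat.Agent.S55.Top.Members
section

set_option autoImplicit false
set_option linter.unusedSectionVars false
set_option linter.unusedSimpArgs false

open CategoryTheory Module groupCohomology ExtCitation

noncomputable section

namespace Fermat.Agent.S55.Top

open Fermat.Agent.S55 OrbitData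

attribute [local instance] locAct

variable {k : Type} [Field k] {S : Finset Nat.Primes}
  {K : IntermediateField ℚ (AlgebraicClosure ℚ)} {𝔓 : PlaceSys S K}

/-! ### `K`-level cocycles in terms of the `K`-level cone differentials -/

lemma dK1_eq_zero {y : 𝔓.C1 k} (hy : IsZ1cK 𝔓 y) : 𝔓.dK1 y = 0 := by
  refine Prod.ext hy.1.1 (funext fun q => funext fun w => ?_)
  exact hy.2 q w

lemma dK2_eq_zero {x : 𝔓.C2 k} (hx : IsZ2cK 𝔓 x) : 𝔓.dK2 x = 0 := by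
  refine Prod.ext hx.1.1 (funext fun q => funext fun w => ?_)
  show 𝔓.res₂ q w x.1 - tOne (x.2 q w) = 0
  rw [(hx.2 q w).2, sub_self]

/-! ### Levels of `U` -/

lemma lev_U₂_snd (hK : K.IsUnramifiedOutside S) {x : 𝔓.C2 k} (h1 : IsLevK₂ S K x.1)
    (h2 : ∀ (q : ↥S) (w : 𝔓.W q), IsLevelConstant₁ (𝔓.rw q w) (x.2 q w)) (q : ↥S) :
    IsLevelConstant₁ (rl q.1) ((𝔓.U₂ x).2 q) :=
  (lev_indL₁ hK q (h2 q)).add (lev_loc_hty2 hK q (levL₂_resTwo q.1 (lev_indK₂ hK h1)))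

/-! ### `U` preserves cocycles and coboundaries -/

theorem isZ1c_U₁ (hK : K.IsUnramifiedOutside S) {y : 𝔓.C1 k} (hy : IsZ1cK 𝔓 y) :
    IsZ1c S (FX k K) (𝔓.U₁ y) := by
  rw [isZ1c_iff]
  refine ⟨lev_indK₁ hK hy.1.2, ?_⟩
  rw [← 𝔓.U₂_dK1, dK1_eq_zero hy, 𝔓.U₂_zero]

theorem isZ2c_U₂ (hK : K.IsUnramifiedOutside S) {x : 𝔓.C2 k} (hx : IsZ2cK 𝔓 x) :
    IsZ2c S (FX k K) (𝔓.U₂ x) := by
  rw [isZ2c_iff]
  refine ⟨⟨lev_indK₂ hK hx.1.2, lev_U₂_snd hK hx.1.2 (fun q w => (hx.2 q w).1)⟩, ?_⟩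
  rw [← 𝔓.U₃_dK2, dK2_eq_zero hx, 𝔓.U₃_zero]

theorem isB2c_U₂ (hK : K.IsUnramifiedOutside S) {x : 𝔓.C2 k} (hx : IsB2cK 𝔓 x) :
    IsB2c S (FX k K) (𝔓.U₂ x) := by
  obtain ⟨f, hf, h1, h2⟩ := hx
  have hx' : x = 𝔓.dK1 (f, fun _ _ => 0) :=
    Prod.ext h1 (funext fun q => funext fun w => h2 q w)
  rw [isB2c_iff]
  refine ⟨𝔓.U₁ (f, fun _ _ => 0), lev_indK₁ hK hf, ?_⟩
  rw [hx', 𝔓.U₂_dK1]

theorem isB3c_U₃ (hK : K.IsUnramifiedOutside S) {x : 𝔓.C3 k} (hx : IsB3cK 𝔓 x) :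
    IsB3c S (FX k K) (𝔓.U₃ x) := by
  obtain ⟨f, g, hf, hg, h1, h2⟩ := hx
  have hx' : x = 𝔓.dK2 (f, g) :=
    Prod.ext h1 (funext fun q => funext fun w => h2 q w)
  rw [isB3c_iff]
  refine ⟨𝔓.U₂ (f, g), lev_indK₂ hK hf, lev_U₂_snd hK hf hg, ?_⟩
  rw [hx', 𝔓.U₃_dK2]

/-! ### `Sh` preserves cocycles -/

lemma dCone2_eq_zero {y : C2c S (FX k K)} (hy : IsZ2c S (FX k K) y) :
    dCone2 S (FX k K) y = 0 := ((isZ2c_iff y).1 hy).2

theorem isZ2cK_Sh₂ (hK : K.IsUnramifiedOutside S) {y : C2c S (FX k K)}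
    (hy : IsZ2c S (FX k K) y) : IsZ2cK 𝔓 (𝔓.Sh₂ y) := by
  have h0 := 𝔓.dK2_Sh₂ y (dCone2_eq_zero hy)
  have hl := ((isZ2c_iff y).1 hy).1
  refine ⟨⟨congrArg Prod.fst h0, lev_shK₂ hl.1⟩, fun q w => ⟨?_, ?_⟩⟩
  · exact lev_shL₁ q (levL₁_sub q.1 (hl.2 q) (levL₁_resOne q.1 (lev_glob_hty2 hK hl.1))) w
  · have := congrFun (congrFun (congrArg Prod.snd h0) q) w
    exact sub_eq_zero.1 this

theorem isZ3cK_Sh₃ (hK : K.IsUnramifiedOutside S) {x : C3c S (FX k K)}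
    (hx : IsZ3c S (FX k K) x) : IsZ3cK 𝔓 (𝔓.Sh₃ x) := by
  have h2 : ∀ q : ↥S, resThree q.1 x.1 = d2 (x.2 q : Gl q.1 × Gl q.1 → XK K → k) := fun q => by
    rw [← dTwoL_FX]
    exact (hx.2 q).2
  obtain ⟨ha, hb⟩ := 𝔓.isZ_Sh₃ x hx.1.1 h2
  refine ⟨⟨ha, lev_shK₃ hx.1.2⟩, fun q w => ⟨?_, hb q w⟩⟩
  exact lev_shL₂ q (levL₂_sub q.1 (hx.2 q).1 (levL₂_resTwo q.1 (lev_glob_hty3 hK hx.1.2))) w

/-! ### The cone homotopy: `x - U (Sh x)` is a coboundary -/

theorem isB2c_sub_U₂_Sh₂ (hK : K.IsUnramifiedOutside S) {y : C2c S (FX k K)}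
    (hy : IsZ2c S (FX k K) y) : IsB2c S (FX k K) (y - 𝔓.U₂ (𝔓.Sh₂ y)) := by
  rw [isB2c_iff]
  exact ⟨𝔓.H₂ y, lev_glob_hty2 hK hy.1.2, 𝔓.sub_U₂_Sh₂ y (dCone2_eq_zero hy)⟩

theorem isB3c_sub_U₃_Sh₃ (hK : K.IsUnramifiedOutside S) {x : C3c S (FX k K)}
    (hx : IsZ3c S (FX k K) x) : IsB3c S (FX k K) (x - 𝔓.U₃ (𝔓.Sh₃ x)) := by
  have h2 : ∀ q : ↥S, resThree q.1 x.1 = d2 (x.2 q : Gl q.1 × Gl q.1 → XK K → k) := fun q => by
    rw [← dTwoL_FX]
    exact (hx.2 q).2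
  rw [isB3c_iff]
  refine ⟨𝔓.H₃ x, lev_glob_hty3 hK hx.1.2, fun q => ?_, 𝔓.sub_U₃_Sh₃ x hx.1.1 h2⟩
  exact levL₁_neg q.1 (lev_loc_hty2 hK q
    (levL₂_sub q.1 (hx.2 q).1 (levL₂_resTwo q.1 (lev_glob_hty3 hK hx.1.2))))

/-! ### Global statements -/

theorem isZ1S_indK₁ (hK : K.IsUnramifiedOutside S) {b : ↥K.fixingSubgroup → k}
    (hb : IsZ1K S K b) : IsZ1S S (FX k K) (𝔓.indK₁ b) := by
  refine ⟨?_, lev_indK₁ hK hb.2⟩
  show d1 (𝔓.indK₁ b) = 0
  rw [𝔓.d1_indK₁, hb.1, 𝔓.indK₂_zero]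

theorem isZ2S_indK₂ (hK : K.IsUnramifiedOutside S)
    {a : ↥K.fixingSubgroup × ↥K.fixingSubgroup → k}
    (ha : IsZ2K S K a) : IsZ2S S (FX k K) (𝔓.indK₂ a) := by
  refine ⟨?_, lev_indK₂ hK ha.2⟩
  show d2 (𝔓.indK₂ a) = 0
  rw [𝔓.d2_indK₂, ha.1, 𝔓.indK₃_zero]

theorem isB2S_indK₂ (hK : K.IsUnramifiedOutside S)
    {a : ↥K.fixingSubgroup × ↥K.fixingSubgroup → k}
    (ha : IsB2K S K a) : IsB2S S (FX k K) (𝔓.indK₂ a) := by
  obtain ⟨f, hf, rfl⟩ := ha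
  refine ⟨𝔓.indK₁ f, lev_indK₁ hK hf, ?_⟩
  show d1 (𝔓.indK₁ f) = _
  rw [𝔓.d1_indK₁]

theorem isZ1K_shK₁ {B : GQ → FX k K} (hB : IsZ1S S (FX k K) B) :
    IsZ1K S K (𝔓.shK₁ B) := by
  refine ⟨?_, lev_shK₁ hB.2⟩
  have h : d1 (B : GQ → XK K → k) = 0 := hB.1
  rw [𝔓.tOne_shK₁, h]
  rfl

theorem isZ2K_shK₂ {B : GQ × GQ → FX k K} (hB : IsZ2S S (FX k K) B) :
    IsZ2K S K (𝔓.shK₂ B) := by
  refine ⟨?_, lev_shK₂ hB.2⟩
  have h : d2 (B : GQ × GQ → XK K → k) = 0 := hB.1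
  rw [𝔓.tTwo_shK₂, h]
  rfl

theorem sub_indK₁_shK₁ {B : GQ → FX k K} (hB : IsZ1S S (FX k K) B) :
    (B : GQ → XK K → k) - 𝔓.indK₁ (𝔓.shK₁ B) = dZero (FX k K) (𝔓.glob.hty1 B) := by
  have h : d1 (B : GQ → XK K → k) = 0 := hB.1
  have hg := 𝔓.glob.hty_one' (B : GQ → XK K → k)
  rw [h, hty2_zero, add_zero] at hg
  rw [𝔓.indK₁_shK₁, hg]
  rfl

theorem isB2S_sub_indK₂_shK₂ (hK : K.IsUnramifiedOutside S) {a : GQ × GQ → FX k K}
    (ha : IsZ2S S (FX k K) a) :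
    IsB2S S (FX k K) ((a : GQ × GQ → XK K → k) - 𝔓.indK₂ (𝔓.shK₂ a)) := by
  have h : d2 (a : GQ × GQ → XK K → k) = 0 := ha.1
  have hg := 𝔓.glob.hty_two' (a : GQ × GQ → XK K → k)
  rw [h, hty3_zero, add_zero] at hg
  refine ⟨𝔓.glob.hty2 a, lev_glob_hty2 hK ha.2, ?_⟩
  rw [𝔓.indK₂_shK₂, hg]
  rfl

end Fermat.Agent.S55.Top

end

end
-- ==== END Fermat.Agent.S55.Top.Members

-- ==== BEGIN Fermat.Agent.S56.Dict.H74_Exists
section

/-!
# S56 dictionary (helper74), package DICT-1: every first-order deformation has a class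
-/

set_option autoImplicit false

noncomputable section

namespace Fermat.Agent.S56.Dict

open Fermat.Agent.S53 TrivSqZeroExt IsLocalRing groupCohomology
open scoped TensorProduct

section Cyclo

/-- every element of `G_ℚ` acts on the `p`-th roots of unity by a power map -/
lemma exists_pow_rootsOfUnity (p : ℕ) [Fact p.Prime] (σ : _root_.Fermat.Agent.S56.GQ) :
    ∃ a : ℕ, ∀ μ : AlgebraicClosure ℚ, μ ^ p ^ 1 = 1 → σ μ = μ ^ a := by
  haveI : NeZero p := ⟨(Fact.out : p.Prime).ne_zero⟩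
  refine ⟨(modularCyclotomicCharacter.toFun p (σ : AlgebraicClosure ℚ ≃+* AlgebraicClosure ℚ)).val,
    fun μ hμ => ?_⟩
  rw [pow_one] at hμ
  have hμ0 : μ ≠ 0 := by
    rintro rfl
    rw [zero_pow (Fact.out : p.Prime).ne_zero] at hμ
    exact zero_ne_one hμ
  have ht : Units.mk0 μ hμ0 ∈ rootsOfUnity p (AlgebraicClosure ℚ) := by
    rw [mem_rootsOfUnity]
    ext
    simpa using hμ
  have := modularCyclotomicCharacter.toFun_spec' (σ : AlgebraicClosure ℚ ≃+* AlgebraicClosure ℚ) ht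
  simpa using this

end Cyclo

section Det

variable {k : Type} [Field k]

/-- If the determinant of a matrix over the dual numbers is a natural number, the `ε`-part of
the matrix times the inverse of the constant part has trace zero. -/
lemma trace_eq_zero_of_det (R : M2 (DualNumber k)) (Rinv : M2 k) (a : ℕ)
    (hdet : R.det = (a : DualNumber k)) (hinv : mfst R * Rinv = 1) :
    (msnd R * Rinv).trace = 0 := by
  have h1 : (R.det).snd = 0 := by rw [hdet]; simp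
  rw [snd_det] at h1
  have hunit : IsUnit (mfst R).det := by
    have := congrArg Matrix.det hinv
    rw [Matrix.det_mul, Matrix.det_one] at this
    exact IsUnit.of_mul_eq_one _ this
  have hRinv : Rinv = (mfst R)⁻¹ := by
    rw [eq_comm]
    exact Matrix.inv_eq_right_inv hinv
  have hadj : (mfst R).adjugate = (mfst R).det • Rinv := by
    rw [hRinv, Matrix.inv_def, smul_smul, Ring.mul_inverse_cancel _ hunit, one_smul]
  rw [hadj, Matrix.mul_smul, Matrix.trace_smul, smul_eq_mul] at h1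
  rcases mul_eq_zero.mp h1 with h | h
  · exact absurd h hunit.ne_zero
  · exact h

end Det

section Construction

variable {𝒪 : Type} [CommRing 𝒪] [IsLocalRing 𝒪]
variable {ρbar : ResidualGaloisRep (ResidueField 𝒪)} {𝒟 : Cond 𝒪}

/-- every dual number is `a + ε b` -/
lemma dual_decomp {k : Type} [Field k] (R : M2 (DualNumber k)) :
    R = (mfst R).map (algebraMap k (DualNumber k))
      + (DualNumber.eps : DualNumber k) • (msnd R).map (algebraMap k (DualNumber k)) := by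
  ext i j
  · simp [TrivSqZeroExt.algebraMap_eq_inl]
  · simp [TrivSqZeroExt.algebraMap_eq_inl]

/-- The identification `k[ε] ⊗ V ≃ V_x` attached to a pair of bases. -/
def thetaOf (x : TSub 𝒪 ρbar 𝒟) (bbar : Module.Basis (Fin 2) (ResidueField 𝒪) ρbar.V)
    (b : Module.Basis (Fin 2) (DualNumber (ResidueField 𝒪)) x.1.V) :
    (DualNumber (ResidueField 𝒪) ⊗[ResidueField 𝒪] ρbar.V) ≃ₗ[DualNumber (ResidueField 𝒪)] x.1.V :=
  (Algebra.TensorProduct.basis (DualNumber (ResidueField 𝒪)) bbar).equiv b (Equiv.refl _)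

/-- The `ε`-part of the deformation, as an endomorphism of `ρbar.V`. -/
def sEnd (x : TSub 𝒪 ρbar 𝒟) (bbar : Module.Basis (Fin 2) (ResidueField 𝒪) ρbar.V)
    (b : Module.Basis (Fin 2) (DualNumber (ResidueField 𝒪)) x.1.V) (σ : _root_.Fermat.Agent.S56.GQ) :
    Module.End (ResidueField 𝒪) ρbar.V :=
  Matrix.toLin bbar bbar (msnd (LinearMap.toMatrix b b (x.1.ρ σ)))

/-- The cocycle of the deformation, as an endomorphism valued function. -/
def cEnd (x : TSub 𝒪 ρbar 𝒟) (bbar : Module.Basis (Fin 2) (ResidueField 𝒪) ρbar.V)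
    (b : Module.Basis (Fin 2) (DualNumber (ResidueField 𝒪)) x.1.V) (σ : _root_.Fermat.Agent.S56.GQ) :
    Module.End (ResidueField 𝒪) ρbar.V :=
  sEnd x bbar b σ ∘ₗ ρbar.ρ σ⁻¹

variable (x : TSub 𝒪 ρbar 𝒟) (bbar : Module.Basis (Fin 2) (ResidueField 𝒪) ρbar.V)
  (b : Module.Basis (Fin 2) (DualNumber (ResidueField 𝒪)) x.1.V)
  (hb : ∀ σ : _root_.Fermat.Agent.S56.GQ, mfst (LinearMap.toMatrix b b (x.1.ρ σ)) = LinearMap.toMatrix bbar bbar (ρbar.ρ σ))

include hb in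
/-- (K1) as an identity of `k[ε]`-linear maps -/
lemma rho_comp_theta (σ : _root_.Fermat.Agent.S56.GQ) :
    (x.1.ρ σ) ∘ₗ (thetaOf x bbar b : _ →ₗ[DualNumber (ResidueField 𝒪)] x.1.V)
      = (thetaOf x bbar b : _ →ₗ[DualNumber (ResidueField 𝒪)] x.1.V) ∘ₗ
        ((ρbar.ρ σ).baseChange (DualNumber (ResidueField 𝒪))
          + (DualNumber.eps : DualNumber (ResidueField 𝒪)) •
            (sEnd x bbar b σ).baseChange (DualNumber (ResidueField 𝒪))) := by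
  classical
  set B := Algebra.TensorProduct.basis (DualNumber (ResidueField 𝒪)) bbar with hB
  apply (LinearMap.toMatrix B b).injective
  rw [LinearMap.toMatrix_comp B b b, LinearMap.toMatrix_comp B B b]
  have h1 : LinearMap.toMatrix B b
      (thetaOf x bbar b : _ →ₗ[DualNumber (ResidueField 𝒪)] x.1.V) = 1 :=
    LinearMap.toMatrix_basis_equiv b B
  rw [h1, mul_one, one_mul, map_add, map_smul, LinearMap.toMatrix_baseChange,
    LinearMap.toMatrix_baseChange, sEnd, LinearMap.toMatrix_toLin, ← hb σ]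
  exact dual_decomp _

include hb in
/-- (K1) -/
lemma rho_theta_apply (σ : _root_.Fermat.Agent.S56.GQ) (v : ρbar.V) :
    x.1.ρ σ (thetaOf x bbar b ((1 : DualNumber (ResidueField 𝒪)) ⊗ₜ[ResidueField 𝒪] v))
      = thetaOf x bbar b ((1 : DualNumber (ResidueField 𝒪)) ⊗ₜ[ResidueField 𝒪] (ρbar.ρ σ v)
        + (DualNumber.eps : DualNumber (ResidueField 𝒪)) ⊗ₜ[ResidueField 𝒪] (sEnd x bbar b σ v)) := by
  have h := congrArg (fun f => f ((1 : DualNumber (ResidueField 𝒪)) ⊗ₜ[ResidueField 𝒪] v))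
    (rho_comp_theta x bbar b hb σ)
  simp only [LinearMap.comp_apply, LinearEquiv.coe_coe, LinearMap.add_apply,
    LinearMap.smul_apply, LinearMap.baseChange_tmul] at h
  rw [h, TensorProduct.smul_tmul', smul_eq_mul, mul_one]

lemma cEnd_apply_rho (σ : _root_.Fermat.Agent.S56.GQ) (v : ρbar.V) :
    cEnd x bbar b σ (ρbar.ρ σ v) = sEnd x bbar b σ v := by
  unfold cEnd
  rw [LinearMap.comp_apply]
  congr 1
  have : ρbar.ρ σ⁻¹ (ρbar.ρ σ v) = (ρbar.ρ (σ⁻¹ * σ)) v := by rw [map_mul]; rfl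
  rw [this, inv_mul_cancel, map_one]; rfl

include hb in
/-- the deformation `x` is given by the cocycle `cEnd` -/
theorem isCocycleOf_cEnd : IsCocycleOf x (cEnd x bbar b) :=
  ⟨thetaOf x bbar b, fun σ v => by rw [rho_theta_apply x bbar b hb σ v, cEnd_apply_rho]⟩

include hb in
/-- (K2) the product rule for the `ε`-part -/
lemma sEnd_mul (σ τ : _root_.Fermat.Agent.S56.GQ) :
    sEnd x bbar b (σ * τ) = ρbar.ρ σ ∘ₗ sEnd x bbar b τ + sEnd x bbar b σ ∘ₗ ρbar.ρ τ := by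
  classical
  apply (LinearMap.toMatrix bbar bbar).injective
  rw [map_add, LinearMap.toMatrix_comp bbar bbar bbar, LinearMap.toMatrix_comp bbar bbar bbar]
  simp only [sEnd, LinearMap.toMatrix_toLin]
  rw [map_mul, Module.End.mul_eq_comp, LinearMap.toMatrix_comp b b b, msnd_mul, hb σ, hb τ]

include hb in
/-- (K2) the cocycle identity -/
lemma cEnd_mul (σ τ : _root_.Fermat.Agent.S56.GQ) :
    cEnd x bbar b (σ * τ) = adRepr ρbar σ (cEnd x bbar b τ) + cEnd x bbar b σ := by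
  have hinv : ρbar.ρ (σ * τ)⁻¹ = ρbar.ρ τ⁻¹ ∘ₗ ρbar.ρ σ⁻¹ := by
    rw [mul_inv_rev, map_mul]; rfl
  have hcancel : ρbar.ρ τ ∘ₗ ρbar.ρ τ⁻¹ = LinearMap.id := by
    rw [← Module.End.mul_eq_comp, ← map_mul, mul_inv_cancel, map_one]; rfl
  rw [adRepr_apply]
  unfold cEnd
  rw [sEnd_mul x bbar b hb, hinv, LinearMap.add_comp]
  congr 1
  refine LinearMap.ext fun v => ?_
  simp only [LinearMap.comp_apply]
  have := congrArg (fun f => f (ρbar.ρ σ⁻¹ v)) hcancel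
  simp only [LinearMap.comp_apply, LinearMap.id_apply] at this
  rw [this]

include hb in
/-- (K3) the cocycle has trace zero if the determinant is cyclotomic -/
lemma trace_cEnd (p : ℕ) [Fact p.Prime] (hdet : x.1.DetIsCyclotomic p) (σ : _root_.Fermat.Agent.S56.GQ) :
    LinearMap.trace (ResidueField 𝒪) ρbar.V (cEnd x bbar b σ) = 0 := by
  classical
  obtain ⟨a, ha⟩ := exists_pow_rootsOfUnity p σ
  have h1 := hdet.2 1 σ a ha
  -- `p = 0` in `k[ε]`
  have hp0 : ((p ^ 1 : ℕ) : DualNumber (ResidueField 𝒪)) = 0 := by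
    have hm := hdet.1
    rw [mem_maximalIdeal, mem_nonunits_iff, TrivSqZeroExt.isUnit_iff_isUnit_fst] at hm
    have hfst : (p : DualNumber (ResidueField 𝒪)).fst = 0 := by
      by_contra hne
      exact hm (IsUnit.mk0 _ hne)
    rw [pow_one]
    ext
    · exact hfst
    · simp
  rw [hp0, Ideal.span_singleton_eq_bot.mpr rfl, Ideal.mem_bot, sub_eq_zero] at h1
  rw [LinearMap.trace_eq_matrix_trace (ResidueField 𝒪) bbar]
  unfold cEnd sEnd
  rw [LinearMap.toMatrix_comp bbar bbar bbar, LinearMap.toMatrix_toLin]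
  apply trace_eq_zero_of_det _ _ a
  · rw [LinearMap.det_toMatrix]; exact h1
  · rw [hb σ, ← LinearMap.toMatrix_comp bbar bbar bbar, ← Module.End.mul_eq_comp, ← map_mul,
      mul_inv_cancel, map_one]
    exact LinearMap.toMatrix_one bbar

end Construction

section Main

variable {𝒪 : Type} [CommRing 𝒪] [IsLocalRing 𝒪]
variable {ρbar : ResidualGaloisRep (ResidueField 𝒪)} {𝒟 : Cond 𝒪}

/-- The cocycle of a first-order deformation with cyclotomic determinant, with respect to a pair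
of compatible bases. -/
def cocycleOf (x : TSub 𝒪 ρbar 𝒟) (bbar : Module.Basis (Fin 2) (ResidueField 𝒪) ρbar.V)
    (b : Module.Basis (Fin 2) (DualNumber (ResidueField 𝒪)) x.1.V)
    (hb : ∀ σ : _root_.Fermat.Agent.S56.GQ, mfst (LinearMap.toMatrix b b (x.1.ρ σ)) = LinearMap.toMatrix bbar bbar (ρbar.ρ σ))
    (p : ℕ) [Fact p.Prime] (hdet : x.1.DetIsCyclotomic p) : cocycles₁ (ad0 ρbar) :=
  ⟨fun σ => (⟨cEnd x bbar b σ, LinearMap.mem_ker.mpr (trace_cEnd x bbar b hb p hdet σ)⟩ :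
      ad0Sub ρbar),
    (mem_cocycles₁_iff _).mpr fun g h => Subtype.ext (cEnd_mul x bbar b hb g h)⟩

lemma ad0Val_cocycleOf (x : TSub 𝒪 ρbar 𝒟) (bbar : Module.Basis (Fin 2) (ResidueField 𝒪) ρbar.V)
    (b : Module.Basis (Fin 2) (DualNumber (ResidueField 𝒪)) x.1.V)
    (hb : ∀ σ : _root_.Fermat.Agent.S56.GQ, mfst (LinearMap.toMatrix b b (x.1.ρ σ)) = LinearMap.toMatrix bbar bbar (ρbar.ρ σ))
    (p : ℕ) [Fact p.Prime] (hdet : x.1.DetIsCyclotomic p) (σ : _root_.Fermat.Agent.S56.GQ) :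
    ad0Val ρbar ((cocycleOf x bbar b hb p hdet : _root_.Fermat.Agent.S56.GQ → ad0 ρbar) σ) = cEnd x bbar b σ := rfl

/-- **DICT-1**, general form: a first-order deformation with cyclotomic determinant has a class. -/
theorem exists_isClassOf (x : TSub 𝒪 ρbar 𝒟) (p : ℕ) [Fact p.Prime]
    (hdet : x.1.DetIsCyclotomic p) : ∃ ξ : H1 (ad0 ρbar), IsClassOf x ξ := by
  obtain ⟨b, hb⟩ := exists_lift_basis x (Module.finBasisOfFinrankEq _ ρbar.V ρbar.finrank_eq)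
  exact ⟨_, cocycleOf x _ b hb p hdet, isCocycleOf_cEnd x _ b hb, rfl⟩

/-- **Package DICT-1.** -/
theorem stmt_dict_exists : Stmt_dict_exists := by
  intro 𝒪 _ _ _ _ _ p _ ρbar 𝒟 _ _ _ h𝒟 x
  letI := dualNumberAlgebra 𝒪
  exact exists_isClassOf x p (h𝒟 x.1 x.2.1)

end Main

end Fermat.Agent.S56.Dict

end

end
-- ==== END Fermat.Agent.S56.Dict.H74_Exists

-- ==== BEGIN Fermat.Agent.S56.FL.Count
section

set_option autoImplicit false

/-!
# LOC-p-FL (item 69): second batch of exact statements (BRIDGE, COH) — plan `NOTES/plan/T-FL.md` §3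

`G_p = Gp p = Gal(K̄/ℚ_p)`, `r = localGaloisToGlobal p : G_p → G_ℚ` (`= primeLocalToGlobal (pPrime p)`),
`V = ρbar.V` with the local action `locRho ρbar σ = ρbar (r σ)`, `M = ad⁰ V`.

* `cocVal ρbar c σ`     : the value at `σ` of a local cocycle `c` of `ad⁰ ρbar`, as an endomorphism of `V`.
* `IsBddAd ρbar c`      : `ρbar ∘ r` and `c` are trivial on `Gal(K̄/L)`, `L/ℚ_p` finite Galois of bounded
                          ramification.
* `IsStableLine`, `IsOrdLine` : a `G_p`-stable line `ℓ ⊆ V` (with `V/ℓ` unramified).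
* `IsOrdCocycle ρbar ℓ c` : up to a coboundary, `c` has values in the endomorphisms preserving `ℓ`, and on
                          inertia in `Hom(V, ℓ)` ("`ρ_x` is ordinary").
* `SplitCond ρbar`      : an unramified stable line has a stable complement.
* `LocHyp p ρbar`       : the determinant is the cyclotomic character and all eigenvalues are in `k`.
* `Stmt_FL_A` (BRIDGE-1), `Stmt_FL_B` (BRIDGE-2), `Stmt_FL_ord` (ORD), `Stmt_CC3` (UNITS),
  `Stmt_COH_SS`, `Stmt_COH_RED` (COH).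
-/

noncomputable section

namespace Fermat.Agent.S56.FL

open scoped NNReal
open Polynomial IsLocalRing CategoryTheory groupCohomology ExtCitation Fermat.Agent.S53 Module
  Fermat.Agent.S56

variable {p : ℕ} [Fact p.Prime] {k : Type} [Field k] (ρbar : ResidualGaloisRep k)

/-- The local representation `ρbar ∘ r` of `G_p` on `V`. -/
def locRho (σ : Gp p) : Module.End k ρbar.V := ρbar.ρ (localGaloisToGlobal p σ)

theorem locRho_mul (σ τ : Gp p) : locRho ρbar (σ * τ) = locRho ρbar σ * locRho ρbar τ := by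
  unfold locRho
  rw [map_mul, map_mul]

theorem locRho_one : locRho ρbar (1 : Gp p) = 1 := by
  unfold locRho
  rw [map_one, map_one]

/-- The value of a local cocycle of `ad⁰ ρbar`, as an endomorphism of `V`. -/
def cocVal (c : cocycles₁ (locRep (ad0 ρbar) (pPrime p))) (σ : Gp p) : Module.End k ρbar.V :=
  ad0Val ρbar ((c : primeLocalGaloisGroup (pPrime p) → ad0 ρbar) σ)

/-- The local cocycle `c` is bounded: `ρbar ∘ r` and `c` are trivial on `Gal(K̄/L)` for a finite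
Galois extension `L/ℚ_p` of bounded ramification. -/
def IsBddAd (c : cocycles₁ (locRep (ad0 ρbar) (pPrime p))) : Prop :=
  ∃ (L : IntermediateField ℚ_[p] (PadicAlgCl p)) (_ : FiniteDimensional ℚ_[p] L),
    Normal ℚ_[p] L ∧ IsBddField p L ∧
      ∀ σ : Gp p, σ ∈ L.fixingSubgroup → locRho ρbar σ = 1 ∧ cocVal ρbar c σ = 0

/-- A `G_p`-stable line of `V`. -/
def IsStableLine (p : ℕ) [Fact p.Prime] (ℓ : Submodule k ρbar.V) : Prop :=
  finrank k ℓ = 1 ∧ ∀ (σ : Gp p), ∀ v ∈ ℓ, locRho ρbar σ v ∈ ℓ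

/-- A `G_p`-stable line `ℓ` of `V` with `V/ℓ` unramified. -/
def IsOrdLine (p : ℕ) [Fact p.Prime] (ℓ : Submodule k ρbar.V) : Prop :=
  IsStableLine ρbar p ℓ ∧ ∀ σ ∈ inertiaP p, ∀ v : ρbar.V, locRho ρbar σ v - v ∈ ℓ

/-- Up to the coboundary of `m`, the cocycle `c` has values in the endomorphisms preserving `ℓ`,
and on inertia in `Hom(V, ℓ)`. -/
def IsOrdCocycle (ℓ : Submodule k ρbar.V) (c : cocycles₁ (locRep (ad0 ρbar) (pPrime p))) : Prop :=
  ∃ m : Module.End k ρbar.V, ∀ σ : Gp p,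
    (∀ v ∈ ℓ, (cocVal ρbar c σ - (locRho ρbar σ * m * locRho ρbar σ⁻¹ - m)) v ∈ ℓ) ∧
    (σ ∈ inertiaP p →
      ∀ v : ρbar.V, (cocVal ρbar c σ - (locRho ρbar σ * m * locRho ρbar σ⁻¹ - m)) v ∈ ℓ)

/-- An unramified stable line has a stable complement. -/
def SplitCond (p : ℕ) [Fact p.Prime] : Prop :=
  ∀ ℓ : Submodule k ρbar.V, IsStableLine ρbar p ℓ →
    (∀ σ ∈ inertiaP p, ∀ v ∈ ℓ, locRho ρbar σ v = v) →
    ∃ ℓ' : Submodule k ρbar.V, IsStableLine ρbar p ℓ' ∧ ℓ' ≠ ℓ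

/-- The local hypotheses on `ρbar`: cyclotomic determinant, eigenvalues in `k`. -/
def LocHyp (p : ℕ) [Fact p.Prime] : Prop :=
  (∀ σ : Gp p, IsCycloAt (LinearMap.det (locRho ρbar σ)) σ) ∧
    ∀ σ : Gp p, ∃ α β : k, LinearMap.charpoly (locRho ρbar σ) = (X - C α) * (X - C β)

/-- The class `ξ` is of flat type: it has a bounded representative which is ordinary with respect
to every ordinary line. -/
def IsFlatLike (ξ : H1 (locRep (ad0 ρbar) (pPrime p))) : Prop :=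
  ∃ c : cocycles₁ (locRep (ad0 ρbar) (pPrime p)),
    (H1π (locRep (ad0 ρbar) (pPrime p))).hom c = ξ ∧ IsBddAd ρbar c ∧
      ∀ ℓ : Submodule k ρbar.V, IsOrdLine ρbar p ℓ → IsOrdCocycle ρbar ℓ c

/-! ## BRIDGE -/

/-- **FL_A** (BRIDGE-1: Fontaine's bound for flat Galois modules).  A finite flat `G_ℚ`-module
killed by `p` (`p` odd) is trivial on `Gal(K̄/L)` for a finite Galois `L/ℚ_p` of bounded
ramification.
(Proof: `K̄`-points = `ℚ̄`-points; `L₀` = field of the points, `L = L₀(ζ_p)`; `(P_m)` for `L₀` by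
`Stmt_PM`, for `L` by LIFT-b in `𝒪_F`; `Stmt_CK`.) -/
def Stmt_FL_A : Prop :=
  ∀ (p : ℕ) [Fact p.Prime], p ≠ 2 →
    ∀ (M : Type) [AddCommGroup M] (act : _root_.Fermat.Agent.S56.GQ → M → M),
      (∀ m : M, p • m = 0) → Fermat.Agent.R.IsFlatGaloisModule p M act →
      ∃ (L : IntermediateField ℚ_[p] (PadicAlgCl p)) (_ : FiniteDimensional ℚ_[p] L),
        Normal ℚ_[p] L ∧ IsBddField p L ∧
          ∀ σ : Gp p, σ ∈ L.fixingSubgroup → ∀ m : M, act (localGaloisToGlobal p σ) m = m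

/-- **FL_B** (BRIDGE-2: `Stmt_SUBQ` for flat Galois modules).  `M` a finite flat `G_ℚ`-module killed
by `p`, `M₁ ≤ M₂` subgroups stable under `G_p` with inertia acting trivially on `M₂/M₁`.  Then
`M₂ ∩ (I - 1) M ⊆ M₁`, where `(I - 1) M` is generated by the `σ m - m`, `σ` in the inertia. -/
def Stmt_FL_B : Prop :=
  ∀ (p : ℕ) [Fact p.Prime], p ≠ 2 →
    ∀ (M : Type) [AddCommGroup M] (act : _root_.Fermat.Agent.S56.GQ → M → M),
      (∀ m : M, p • m = 0) → Fermat.Agent.R.IsFlatGaloisModule p M act →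
      ∀ M₁ M₂ : AddSubgroup M, M₁ ≤ M₂ →
        (∀ σ : Gp p, ∀ m ∈ M₁, act (localGaloisToGlobal p σ) m ∈ M₁) →
        (∀ σ : Gp p, ∀ m ∈ M₂, act (localGaloisToGlobal p σ) m ∈ M₂) →
        (∀ σ ∈ inertiaP p, ∀ m ∈ M₂, act (localGaloisToGlobal p σ) m - m ∈ M₁) →
        ∀ m ∈ M₂,
          m ∈ AddSubgroup.closure
            {y : M | ∃ σ ∈ inertiaP p, ∃ m' : M, y = act (localGaloisToGlobal p σ) m' - m'} →
          m ∈ M₁

/-- The restriction to `G_p` of a global cocycle of `ad⁰ ρbar`. -/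
def resCoc (p : ℕ) [Fact p.Prime] (c₀ : cocycles₁ (ad0 ρbar)) :
    cocycles₁ (locRep (ad0 ρbar) (pPrime p)) :=
  (mapCocycles₁ (primeLocalToGlobal (pPrime p))
    (𝟙 (Rep.res (primeLocalToGlobal (pPrime p)) (ad0 ρbar)))).hom c₀

/-- **FL_ord** (ORD: a flat first-order deformation of a `ρbar` which is ordinary at `p` is
ordinary at `p`; an unramified stable line of a flat `ρbar` has a stable complement).
(Proof from `Stmt_FL_B`: `E = V_x`, chain `0 ⊂ εℓ ⊂ εE ⊂ E' ⊂ E`; `(I-1)E` has order `≤ |k|²`,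
`E/(I-1)E` is cyclic over `k[ε]`, hence free of rank one.) -/
def Stmt_FL_ord : Prop :=
  ∀ (𝒪 : Type) [CommRing 𝒪] [IsDomain 𝒪] [IsDiscreteValuationRing 𝒪]
    [IsAdicComplete (maximalIdeal 𝒪) 𝒪] [Finite (ResidueField 𝒪)]
    (p : ℕ) [Fact p.Prime] (ρbar : ResidualGaloisRep (ResidueField 𝒪)),
    p ≠ 2 → (p : 𝒪) ∈ maximalIdeal 𝒪 →
    (GaloisRepAdic.ofResidualGaloisRep ρbar).DetIsCyclotomic p →
    ∀ (𝒟 : Cond 𝒪) (x : TSub 𝒪 ρbar 𝒟), x.1.IsFlatAt p →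
      ∀ c₀ : cocycles₁ (ad0 ρbar),
        IsCocycleOf x (fun σ => ad0Val ρbar ((c₀ : _root_.Fermat.Agent.S56.GQ → ad0 ρbar) σ)) →
        SplitCond ρbar p ∧
          ∀ ℓ : Submodule (ResidueField 𝒪) ρbar.V, IsOrdLine ρbar p ℓ →
            IsOrdCocycle ρbar ℓ (resCoc ρbar p c₀)

/-! ## UNITS, continued -/

/-- **CC3.** `χ : G_{ℚ_p} → kˣ` whose restriction to inertia is neither trivial nor the cyclotomic
character: every bounded `χ`-cocycle is a coboundary. -/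
def Stmt_CC3 : Prop :=
  ∀ (p : ℕ) [Fact p.Prime], p ≠ 2 →
    ∀ (k : Type) [Field k] [Finite k] [CharP k p] (χ : (⊤ : Subgroup (Gp p)) →* kˣ),
      (∃ σ : (⊤ : Subgroup (Gp p)), (σ : Gp p) ∈ inertiaP p ∧ χ σ ≠ 1) →
      (∃ σ : (⊤ : Subgroup (Gp p)), (σ : Gp p) ∈ inertiaP p ∧ ¬ IsCycloAt (χ σ : k) (σ : Gp p)) →
      ∀ c : (⊤ : Subgroup (Gp p)) → k, IsBddCocycle (⊤ : Subgroup (Gp p)) χ c →
        ∃ a : k, ∀ σ : (⊤ : Subgroup (Gp p)), c σ = ((χ σ : k) - 1) * a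

/-! ## COH -/

/-- **COH-SS.** `ρbar|G_p` without stable line: a subspace of `H¹(G_p, ad⁰ ρbar)` consisting of
classes of bounded cocycles has dimension `≤ h⁰ + 1`. -/
def Stmt_COH_SS : Prop :=
  ∀ (p : ℕ) [Fact p.Prime], p ≠ 2 →
    ∀ (k : Type) [Field k] [Finite k] [CharP k p] (ρbar : ResidualGaloisRep k),
      LocHyp ρbar p → (¬ ∃ ℓ : Submodule k ρbar.V, IsStableLine ρbar p ℓ) →
      ∀ W : Submodule k (H1 (locRep (ad0 ρbar) (pPrime p))),
        (∀ ξ ∈ W, ∃ c : cocycles₁ (locRep (ad0 ρbar) (pPrime p)),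
          (H1π (locRep (ad0 ρbar) (pPrime p))).hom c = ξ ∧ IsBddAd ρbar c) →
        Module.Finite k W ∧
          finrank k W ≤ finrank k (locRep (ad0 ρbar) (pPrime p)).ρ.invariants + 1

/-- **COH-RED.** `ρbar|G_p` with a stable line, satisfying `SplitCond`: a subspace of
`H¹(G_p, ad⁰ ρbar)` consisting of classes of flat type has dimension `≤ h⁰ + 1`. -/
def Stmt_COH_RED : Prop :=
  ∀ (p : ℕ) [Fact p.Prime], p ≠ 2 →
    ∀ (k : Type) [Field k] [Finite k] [CharP k p] (ρbar : ResidualGaloisRep k),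
      LocHyp ρbar p → (∃ ℓ : Submodule k ρbar.V, IsStableLine ρbar p ℓ) → SplitCond ρbar p →
      ∀ W : Submodule k (H1 (locRep (ad0 ρbar) (pPrime p))),
        (∀ ξ ∈ W, IsFlatLike ρbar ξ) →
        Module.Finite k W ∧
          finrank k W ≤ finrank k (locRep (ad0 ρbar) (pPrime p)).ρ.invariants + 1

end Fermat.Agent.S56.FL

end

end
-- ==== END Fermat.Agent.S56.FL.Count

-- ==== BEGIN Fermat.Agent.S56.FL.H15_CKPert
section

set_option autoImplicit false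
set_option linter.style.haveILetI false

/-!
# LOC-p-FL, package CK (helper15), part 2: the perturbation argument

`x` a good generator of `L`, `Pz` its minimal polynomial over `ℤ_p`, `w = X^q - X` (so that
`w(x)` is a uniformizer), `Q = Pz - p (w^s mod Pz)`, `β` a root of `Q`.  Then
`Pz(β) (1 + p h(β)) = p w(β)^s`, and if `L` has property `(P_m)` for the radius `‖π‖^(e+s)`, then
`β ∈ L` and `∏_τ max (‖π‖^j) (depth τ) = ‖π‖^(e+s)` for some `j ≥ 2`
(`‖π‖^j` is the distance of `β` to the nearest conjugate of `x`).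
-/

noncomputable section

namespace Fermat.Agent.S56.FL.H15

open scoped NNReal
open Fermat.Agent.S56.FL Module Polynomial

variable {p : ℕ} [Fact p.Prime]

variable {L : IntermediateField ℚ_[p] (PadicAlgCl p)} [FiniteDimensional ℚ_[p] L]

/-- The perturbed polynomial `Q = Pz - p (w^s mod Pz)`. -/
def pertPoly (p : ℕ) [Fact p.Prime] (Pz : ℤ_[p][X]) (q s : ℕ) : ℤ_[p][X] :=
  Pz - (p : ℤ_[p]) • ((X ^ q - X) ^ s %ₘ Pz)

theorem natDegree_pertPoly_aux {x : L} {Pz : ℤ_[p][X]} (hP : IsMinZ L x Pz) (q s : ℕ) :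
    ((p : ℤ_[p]) • ((X ^ q - X) ^ s %ₘ Pz)).natDegree < Pz.natDegree :=
  (natDegree_smul_le _ _).trans_lt (natDegree_modByMonic_lt _ hP.monic hP.ne_one)

theorem monic_pertPoly {x : L} {Pz : ℤ_[p][X]} (hP : IsMinZ L x Pz) (q s : ℕ) :
    (pertPoly p Pz q s).Monic := by
  refine hP.monic.sub_of_left ?_
  exact degree_lt_degree (natDegree_pertPoly_aux hP q s)

theorem natDegree_pertPoly {x : L} {Pz : ℤ_[p][X]} (hP : IsMinZ L x Pz) (q s : ℕ) :
    (pertPoly p Pz q s).natDegree = Pz.natDegree :=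
  natDegree_sub_eq_left_of_natDegree_lt (natDegree_pertPoly_aux hP q s)

open Classical in
/-- The core of the perturbation argument, for a root `β` whose nearest conjugate is `x`. -/
theorem pert_core {x π : L} {q : ℕ} (h : IsGoodGen L x π q) (hq : ‖(q : PadicAlgCl p)‖ < 1)
    {Pz : ℤ_[p][X]} (hP : IsMinZ L x Pz) {e : ℕ} (he : ‖π‖ ^ e = (p : ℝ)⁻¹)
    (hPM : HasPM p L) {s : ℕ} (hs : 1 ≤ s)
    (hc : (‖π‖ ^ (e + s)) ^ (p - 1) < ((p : ℝ)⁻¹) ^ p)
    {β : PadicAlgCl p} (hβ : (pertPoly p Pz q s).eval₂ (phiZ p) β = 0)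
    (hclosest : ∀ τ : L ≃ₐ[ℚ_[p]] L,
      ‖β - (x : PadicAlgCl p)‖ ≤ ‖β - ((τ x : L) : PadicAlgCl p)‖) :
    ∃ j : ℕ, 2 ≤ j ∧
      ∏ τ : L ≃ₐ[ℚ_[p]] L, max (‖π‖ ^ j) (depth p L τ) = ‖π‖ ^ (e + s) := by
  obtain ⟨hx, hπ0, hπ1, hπmax, hxq, hres⟩ := id h
  set r : ℝ := ‖π‖ with hr
  have hx1 : ‖(x : PadicAlgCl p)‖ ≤ 1 := hx
  have hpinv0 : (0 : ℝ) < (p : ℝ)⁻¹ := inv_pos.mpr p_pos_real
  have hpinv1 : (p : ℝ)⁻¹ < 1 := inv_lt_one_of_one_lt₀ one_lt_p_real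
  have he0 : e ≠ 0 := by
    intro h0
    rw [h0, pow_zero] at he
    linarith
  have hQmonic := monic_pertPoly hP q s
  have hQdeg := natDegree_pertPoly hP q s
  have hβ1 : ‖β‖ ≤ 1 := norm_le_one_of_monic_root hQmonic hβ
  -- the key identity
  set W : ℤ_[p][X] := (X ^ q - X) ^ s with hW
  have hdiv := modByMonic_add_div W Pz
  have hWβ : W.eval₂ (phiZ p) β = (β ^ q - β) ^ s := by
    rw [hW, eval₂_pow, eval₂_sub, eval₂_pow, eval₂_X]
  have hφp : phiZ p (p : ℤ_[p]) = (p : PadicAlgCl p) := map_natCast _ _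
  have hβ' : Pz.eval₂ (phiZ p) β = (p : PadicAlgCl p) * (W %ₘ Pz).eval₂ (phiZ p) β := by
    have := hβ
    rw [pertPoly, eval₂_sub, eval₂_smul, hφp] at this
    exact sub_eq_zero.mp this
  have hid : Pz.eval₂ (phiZ p) β * (1 + (p : PadicAlgCl p) * (W /ₘ Pz).eval₂ (phiZ p) β)
      = (p : PadicAlgCl p) * (β ^ q - β) ^ s := by
    have h1 := congrArg (fun F : ℤ_[p][X] => F.eval₂ (phiZ p) β) hdiv
    simp only [eval₂_add, eval₂_mul] at h1
    rw [hWβ] at h1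
    rw [← h1]
    linear_combination hβ'
  have hu : ‖(1 : PadicAlgCl p) + (p : PadicAlgCl p) * (W /ₘ Pz).eval₂ (phiZ p) β‖ = 1 := by
    have h1 : ‖(p : PadicAlgCl p) * (W /ₘ Pz).eval₂ (phiZ p) β‖ < ‖(1 : PadicAlgCl p)‖ := by
      rw [norm_mul, norm_p_algCl, norm_one]
      calc (p : ℝ)⁻¹ * ‖(W /ₘ Pz).eval₂ (phiZ p) β‖ ≤ (p : ℝ)⁻¹ * 1 :=
            mul_le_mul_of_nonneg_left (norm_evZ_le_one hβ1 _) hpinv0.le
        _ = (p : ℝ)⁻¹ := mul_one _
        _ < 1 := hpinv1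
    rw [norm_add_eq_left h1, norm_one]
  have hnormP : ‖Pz.eval₂ (phiZ p) β‖ = r ^ e * ‖β ^ q - β‖ ^ s := by
    have := congrArg norm hid
    rw [norm_mul, hu, mul_one, norm_mul, norm_pow, norm_p_algCl] at this
    rw [this, he]
  -- the distance to the nearest conjugate
  set d : ℝ := ‖β - (x : PadicAlgCl p)‖ with hd
  have hΨ : ∏ τ : L ≃ₐ[ℚ_[p]] L, max d (depth p L τ) = ‖Pz.eval₂ (phiZ p) β‖ := by
    rw [hP.norm_eval₂]
    exact (Finset.prod_congr rfl fun τ _ => norm_sub_map_eq_max h hclosest τ).symm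
  have hd1 : d ≤ 1 := (norm_sub_le_max_algCl _ _).trans (max_le hβ1 hx1)
  have hwβ1 : ‖β ^ q - β‖ ≤ 1 :=
    (norm_sub_le_max_algCl _ _).trans
      (max_le (by rw [norm_pow]; exact pow_le_one₀ (norm_nonneg _) hβ1) hβ1)
  have hPle : ‖Pz.eval₂ (phiZ p) β‖ ≤ r ^ e := by
    rw [hnormP]
    calc r ^ e * ‖β ^ q - β‖ ^ s ≤ r ^ e * 1 :=
          mul_le_mul_of_nonneg_left (pow_le_one₀ (norm_nonneg _) hwβ1) (by positivity)
      _ = r ^ e := mul_one _
  have hdlt : d < 1 := by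
    by_contra hcon
    have hd_eq : d = 1 := le_antisymm hd1 (not_lt.mp hcon)
    have h1 : ∏ τ : L ≃ₐ[ℚ_[p]] L, max d (depth p L τ) = 1 := by
      refine Finset.prod_eq_one fun τ _ => ?_
      rw [hd_eq]
      exact max_eq_left (depth_le_one L τ)
    rw [hΨ] at h1
    rw [h1, he] at hPle
    linarith
  have hwsub : ‖(β ^ q - β) - ((x : PadicAlgCl p) ^ q - (x : PadicAlgCl p))‖ = d :=
    norm_w_sub hq hx1 hdlt
  have hwx : ‖(x : PadicAlgCl p) ^ q - (x : PadicAlgCl p)‖ = r := hxq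
  have hwβ_eq : β ^ q - β = ((β ^ q - β) - ((x : PadicAlgCl p) ^ q - (x : PadicAlgCl p)))
      + ((x : PadicAlgCl p) ^ q - (x : PadicAlgCl p)) := by ring
  -- the inertia group
  set I := Finset.univ.filter fun τ : L ≃ₐ[ℚ_[p]] L => depth p L τ < 1 with hI
  have hIcard : I.card ≤ e := card_inertia_le h hq hP he
  have hprodI : ∀ t : ℝ, r ≤ t → t ≤ 1 →
      ∏ τ : L ≃ₐ[ℚ_[p]] L, max t (depth p L τ) = t ^ I.card := by
    intro t hrt ht1
    have h1 : ∀ τ : L ≃ₐ[ℚ_[p]] L, max t (depth p L τ) = if depth p L τ < 1 then t else 1 := by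
      intro τ
      split_ifs with hlt
      · have h2 : depth p L τ ≤ r := by
          have := depth_le_pow_succ h τ 0 (by rw [pow_zero]; exact hlt)
          rwa [zero_add, pow_one] at this
        exact max_eq_left (h2.trans hrt)
      · have h2 : depth p L τ = 1 := le_antisymm (depth_le_one L τ) (not_lt.mp hlt)
        rw [h2]
        exact max_eq_right ht1
    simp only [h1]
    rw [Finset.prod_ite, Finset.prod_const, Finset.prod_const_one, mul_one]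
  -- `d ≤ r`
  have hdr : d ≤ r := by
    by_contra hcon
    have hrd : r < d := not_le.mp hcon
    have h1 : ‖β ^ q - β‖ = d := by
      rw [hwβ_eq, norm_add_eq_left (by rw [hwsub, hwx]; exact hrd), hwsub]
    have h2 := hprodI d hrd.le hd1
    rw [hΨ, hnormP, h1] at h2
    have hd0 : 0 < d := hπ0.trans hrd
    have h3 : d ^ e ≤ d ^ I.card := pow_le_pow_of_le_one hd0.le hd1 hIcard
    have h4 : r ^ e < d ^ e := pow_lt_pow_left₀ hrd hπ0.le he0
    have h5 : r ^ e * d ^ s ≤ r ^ e * 1 :=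
      mul_le_mul_of_nonneg_left (pow_le_one₀ hd0.le hd1) (by positivity)
    linarith
  have hwβr : ‖β ^ q - β‖ ≤ r := by
    rw [hwβ_eq]
    exact (IsUltrametricDist.norm_add_le_max _ _).trans
      (max_le (by rw [hwsub]; exact hdr) hwx.le)
  have hPle' : ‖Pz.eval₂ (phiZ p) β‖ ≤ r ^ (e + s) := by
    rw [hnormP, pow_add]
    exact mul_le_mul_of_nonneg_left (pow_le_pow_left₀ (norm_nonneg _) hwβr s) (by positivity)
  -- the field `F = ℚ_p(β)` and property `(P_m)`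
  obtain ⟨hFfin, hFrank⟩ := finrank_adjoin_le hQmonic hβ
  set F : IntermediateField ℚ_[p] (PadicAlgCl p) := IntermediateField.adjoin ℚ_[p] {β} with hF
  have hβF : β ∈ F := IntermediateField.mem_adjoin_simple_self _ _
  let c : ℝ≥0 := ⟨r ^ (e + s), by positivity⟩
  have hc0 : 0 < c := by
    rw [← NNReal.coe_lt_coe]
    change (0 : ℝ) < r ^ (e + s)
    positivity
  have hcp : c ^ (p - 1) < ((p : ℝ≥0)⁻¹) ^ p := by
    rw [← NNReal.coe_lt_coe]
    push_cast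
    exact hc
  have hom := exists_hom h hP F hβF hβ1 c hPle'
  have hLF : L ≤ F := hPM c hc0 hcp F hFfin hom
  have hLFeq : L = F := by
    haveI := hFfin
    refine IntermediateField.eq_of_le_of_finrank_le hLF ?_
    rw [← hP.natDegree_eq, ← hQdeg]
    exact hFrank
  have hβL : β ∈ L := by rw [hLFeq]; exact hβF
  -- `β ≠ x`
  have hne : (⟨β, hβL⟩ : L) - x ≠ 0 := by
    intro h0
    have hβx : β = (x : PadicAlgCl p) := congrArg Subtype.val (sub_eq_zero.mp h0)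
    have h1 := hβ'
    rw [hβx, hP.eval₂_self, eval₂_modByMonic_eq_self_of_root hP.eval₂_self, hW, eval₂_pow,
      eval₂_sub, eval₂_pow, eval₂_X] at h1
    have h2 := congrArg norm h1
    rw [norm_zero, norm_mul, norm_pow, hwx, norm_p_algCl] at h2
    have : 0 < (p : ℝ)⁻¹ * r ^ s := by positivity
    linarith
  have hnorm_le : ‖(⟨β, hβL⟩ : L) - x‖ ≤ 1 := hd1
  obtain ⟨j, hj⟩ := exists_norm_eq_pow L hπ0 hπ1 hπmax _ hne hnorm_le
  have hdj : d = r ^ j := hj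
  have hj0 : j ≠ 0 := by
    intro h0
    rw [h0, pow_zero] at hdj
    linarith
  have hj1 : j ≠ 1 := by
    intro h1
    rw [h1, pow_one] at hdj
    have h2 := hprodI d hdj.ge hd1
    rw [hΨ] at h2
    have h4 : r ^ I.card ≤ r ^ (e + s) := by
      have := hPle'
      rw [h2, hdj] at this
      exact this
    have h3 : e + s ≤ I.card := (pow_le_pow_iff_right_of_lt_one₀ hπ0 hπ1).mp h4
    omega
  have hj2 : 2 ≤ j := by omega
  refine ⟨j, hj2, ?_⟩
  have hdlt' : d < r := by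
    rw [hdj]
    calc r ^ j ≤ r ^ 2 := pow_le_pow_of_le_one hπ0.le hπ1.le hj2
      _ = r * r := by ring
      _ < 1 * r := mul_lt_mul_of_pos_right hπ1 hπ0
      _ = r := one_mul _
  have hwβ_r : ‖β ^ q - β‖ = r := by
    rw [hwβ_eq, norm_add_eq_right (by rw [hwsub, hwx]; exact hdlt'), hwx]
  rw [← hdj, hΨ, hnormP, hwβ_r, pow_add]

open Classical in
/-- **The perturbation argument.**  If `L` is Galois with property `(P_m)` for the radius
`‖π‖^(e+s)`, `s ≥ 1`, then `‖π‖^(e+s)` is a value of `t ↦ ∏_τ max t (depth τ)` at some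
`t = ‖π‖^j`, `j ≥ 2`. -/
theorem exists_pert {x π : L} {q : ℕ} (h : IsGoodGen L x π q) (hq : ‖(q : PadicAlgCl p)‖ < 1)
    {Pz : ℤ_[p][X]} (hP : IsMinZ L x Pz) {e : ℕ} (he : ‖π‖ ^ e = (p : ℝ)⁻¹)
    (hPM : HasPM p L) {s : ℕ} (hs : 1 ≤ s)
    (hc : (‖π‖ ^ (e + s)) ^ (p - 1) < ((p : ℝ)⁻¹) ^ p) :
    ∃ j : ℕ, 2 ≤ j ∧
      ∏ τ : L ≃ₐ[ℚ_[p]] L, max (‖π‖ ^ j) (depth p L τ) = ‖π‖ ^ (e + s) := by
  have hQmonic := monic_pertPoly hP q s
  have hQdeg := natDegree_pertPoly hP q s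
  -- a root of `Q`
  have hdegne : ((pertPoly p Pz q s).map (phiZ p)).degree ≠ 0 := by
    rw [hQmonic.degree_map, degree_eq_natDegree hQmonic.ne_zero, hQdeg]
    exact_mod_cast hP.natDegree_pos.ne'
  obtain ⟨β, hβroot⟩ := IsAlgClosed.exists_root _ hdegne
  have hβ : (pertPoly p Pz q s).eval₂ (phiZ p) β = 0 := by
    rw [eval₂_eq_eval_map]; exact hβroot
  -- the nearest conjugate
  obtain ⟨τ₁, -, hτ₁⟩ := Finset.exists_min_image Finset.univ
    (fun τ : L ≃ₐ[ℚ_[p]] L => ‖β - ((τ x : L) : PadicAlgCl p)‖) ⟨1, Finset.mem_univ _⟩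
  refine pert_core (h.map τ₁) hq (hP.map τ₁) he hPM hs hc hβ fun τ => ?_
  have := hτ₁ (τ * τ₁) (Finset.mem_univ _)
  simpa [AlgEquiv.mul_apply] using this

end Fermat.Agent.S56.FL.H15

end

end
-- ==== END Fermat.Agent.S56.FL.H15_CKPert

-- ==== BEGIN Fermat.Agent.S56.FL.H38_InertiaOnto
section

set_option autoImplicit false

/-!
# LOC-p-FL (helper38): INERTIA-ONTO — the inertia group of `Gal(L/ℚ_p)` is the image of `inertiaP p`

`L/ℚ_p` finite Galois inside `K̄`, `resL L : Gal(K̄/ℚ_p) → Gal(L/ℚ_p)` the restriction.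

* `mem_of_fixed_by_fixingSubgroup` : an element of `K̄` fixed by `Gal(K̄/L)` lies in `L`.
* `exists_root_near_in`  : every unit of `L` is congruent to a root of unity of `L` of order prime
                            to `p` (Teichmüller representative).
* `inertia_onto`         : if `‖γ a - a‖ < 1` for all integers `a` of `L`, then `γ = resL L ι` with
                            `ι ∈ inertiaP p`.
* `inertia_onto_of_depth`: the same with the hypothesis `depth p L γ < 1`.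
* `mem_map_inertiaP_iff` : `γ ∈ resL(inertiaP p) ↔ ∀ a, ‖a‖ ≤ 1 → ‖γ a - a‖ < 1`.
-/

noncomputable section

namespace Fermat.Agent.S56.FL.H38

open scoped NNReal
open Fermat.Agent.S56.FL Polynomial Module

variable {p : ℕ} [Fact p.Prime]
variable {L : IntermediateField ℚ_[p] (PadicAlgCl p)}

/-- An element of `K̄` fixed by `Gal(K̄/L)` lies in `L`. -/
theorem mem_of_fixed_by_fixingSubgroup {a : PadicAlgCl p}
    (h : ∀ σ ∈ L.fixingSubgroup, σ a = a) : a ∈ L := by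
  rw [← InfiniteGalois.fixedField_fixingSubgroup L, IntermediateField.mem_fixedField_iff]
  exact h

/-- Teichmüller representatives: every unit of `L` is congruent to a root of unity of `L` of
order prime to `p`. -/
theorem exists_root_near_in (a : L) (ha : ‖a‖ = 1) :
    ∃ (ξ : L) (n : ℕ), 0 < n ∧ ¬ p ∣ n ∧ ξ ^ n = 1 ∧ ‖a - ξ‖ < 1 := by
  obtain ⟨ξ, n, hn, hpn, hξ, hξa⟩ := exists_root_near (a := (a : PadicAlgCl p)) ha
  have hξL : ξ ∈ L := by
    apply mem_of_fixed_by_fixingSubgroup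
    intro σ hσ
    by_contra hne
    have h1 : (σ ξ) ^ n = 1 := by rw [← map_pow, hξ, map_one]
    have h2 := norm_sub_root hn hpn h1 hξ hne
    have hσa : σ (a : PadicAlgCl p) = a :=
      (IntermediateField.mem_fixingSubgroup_iff L σ).mp hσ a a.2
    have h3 : σ ξ - ξ = -(σ ((a : PadicAlgCl p) - ξ)) + ((a : PadicAlgCl p) - ξ) := by
      rw [map_sub, hσa]; ring
    rw [h3] at h2
    have h4 : ‖-(σ ((a : PadicAlgCl p) - ξ)) + ((a : PadicAlgCl p) - ξ)‖ < 1 := by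
      refine (IsUltrametricDist.norm_add_le_max _ _).trans_lt (max_lt ?_ hξa)
      rw [norm_neg, norm_gal]; exact hξa
    rw [h2] at h4
    exact lt_irrefl _ h4
  refine ⟨⟨ξ, hξL⟩, n, hn, hpn, Subtype.ext ?_, hξa⟩
  simpa using hξ

variable [FiniteDimensional ℚ_[p] L] [Normal ℚ_[p] L]

/-- **INERTIA-ONTO.**  An automorphism of `L` acting trivially on the residue field is the
restriction of an element of the inertia group `inertiaP p`. -/
theorem inertia_onto (γ : L ≃ₐ[ℚ_[p]] L) (hγ : ∀ a : L, ‖a‖ ≤ 1 → ‖γ a - a‖ < 1) :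
    ∃ ι ∈ inertiaP p, resL L ι = γ := by
  have hp1 : (1 : ℝ) < p := H15.one_lt_p_real
  have hp0 : (0 : ℝ) < p := H15.p_pos_real
  have hpinv0 : (0 : ℝ) < (p : ℝ)⁻¹ := inv_pos.mpr hp0
  have hpinv1 : (p : ℝ)⁻¹ < 1 := inv_lt_one_of_one_lt₀ hp1
  have hpL : ‖(p : L)‖ = (p : ℝ)⁻¹ := norm_p_algCl'
  have hpL0 : (p : L) ≠ 0 := by
    rw [← norm_pos_iff, hpL]; exact hpinv0
  set J : Subgroup (L ≃ₐ[ℚ_[p]] L) := (inertiaP p).map (resL L) with hJ
  -- elements of `L^J` are fixed by inertia in `K̄`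
  have hfixK : ∀ a : L, (∀ τ ∈ J, τ a = a) → ∀ σ ∈ inertiaP p, σ (a : PadicAlgCl p) = a := by
    intro a ha σ hσ
    have h1 := ha (resL L σ) ⟨σ, hσ, rfl⟩
    rw [← resL_apply, h1]
  -- the key estimate
  have key : ∀ n : ℕ, ∀ a : L, (∀ τ ∈ J, τ a = a) → ‖a‖ ≤ 1 → ‖γ a - a‖ ≤ ((p : ℝ)⁻¹) ^ n := by
    intro n
    induction n with
    | zero =>
      intro a _ ha1
      rw [pow_zero]
      exact (hγ a ha1).le
    | succ n ih =>
      intro a haJ ha1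
      -- the Teichmüller representative
      obtain ⟨ξ, hξJ, hξγ, hξa⟩ : ∃ ξ : L, (∀ τ ∈ J, τ ξ = ξ) ∧ γ ξ = ξ ∧ ‖a - ξ‖ < 1 := by
        rcases lt_or_eq_of_le ha1 with hlt | heq
        · exact ⟨0, fun τ _ => map_zero τ, map_zero γ, by rw [sub_zero]; exact hlt⟩
        · obtain ⟨ξ, m, hm, hpm, hξ, hξa⟩ := exists_root_near_in a heq
          have hξK : (ξ : PadicAlgCl p) ^ m = 1 := by
            have := congrArg (fun z : L => (z : PadicAlgCl p)) hξ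
            simpa using this
          refine ⟨ξ, ?_, ?_, hξa⟩
          · rintro τ ⟨σ, hσ, rfl⟩
            apply Subtype.ext
            rw [resL_apply]
            exact inertia_fixes_root hσ hm hpm hξK
          · by_contra hne
            have h1 : ((γ ξ : L) : PadicAlgCl p) ^ m = 1 := by
              have := congrArg (fun z : L => (z : PadicAlgCl p)) (congrArg γ hξ)
              simpa using this
            have hne' : ((γ ξ : L) : PadicAlgCl p) ≠ (ξ : PadicAlgCl p) :=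
              fun h => hne (Subtype.ext h)
            have h2 := norm_sub_root hm hpm h1 hξK hne'
            have hξ1 : ‖ξ‖ ≤ 1 := (norm_root_eq_one hm hξK).le
            have h3 : ‖γ ξ - ξ‖ < 1 := hγ ξ hξ1
            have h3' : ‖((γ ξ : L) : PadicAlgCl p) - (ξ : PadicAlgCl p)‖ < 1 := h3
            rw [h2] at h3'
            exact lt_irrefl _ h3'
      have hdJ : ∀ τ ∈ J, τ (a - ξ) = a - ξ := fixed_sub haJ hξJ
      have hd : ‖a - ξ‖ ≤ (p : ℝ)⁻¹ :=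
        norm_le_inv_of_fixed (a := ((a - ξ : L) : PadicAlgCl p)) (hfixK _ hdJ) hξa
      set a₁ : L := (a - ξ) / (p : L) with ha₁
      have ha₁J : ∀ τ ∈ J, τ a₁ = a₁ := fixed_div hdJ (fun τ _ => map_natCast τ p)
      have ha₁1 : ‖a₁‖ ≤ 1 := by
        rw [ha₁, norm_div, hpL, div_le_one hpinv0]; exact hd
      have hdecomp : a = ξ + (p : L) * a₁ := by
        rw [ha₁]; field_simp; ring
      have h1 : γ a - a = (p : L) * (γ a₁ - a₁) := by
        have h2 : γ a = ξ + (p : L) * γ a₁ := by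
          conv_lhs => rw [hdecomp]
          rw [map_add, map_mul, map_natCast, hξγ]
        rw [h2]
        conv_lhs => rw [hdecomp]
        ring
      have h1' : ‖γ a - a‖ = ‖(p : L) * (γ a₁ - a₁)‖ := congrArg _ h1
      rw [h1', norm_mul, hpL, pow_succ']
      exact mul_le_mul_of_nonneg_left (ih a₁ ha₁J ha₁1) hpinv0.le
  -- `γ` is trivial on the integers of `L^J`
  have hint : ∀ a : L, (∀ τ ∈ J, τ a = a) → ‖a‖ ≤ 1 → γ a = a := by
    intro a haJ ha1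
    by_contra hne
    have hpos : 0 < ‖γ a - a‖ := norm_pos_iff.mpr (sub_ne_zero.mpr hne)
    obtain ⟨n, hn⟩ := exists_pow_lt_of_lt_one hpos hpinv1
    exact absurd (key n a haJ ha1) (not_le.mpr hn)
  -- `γ` is trivial on `L^J`
  have hall : ∀ a : L, (∀ τ ∈ J, τ a = a) → γ a = a := by
    intro a haJ
    by_cases ha0 : a = 0
    · rw [ha0, map_zero]
    have hapos : 0 < ‖a‖ := norm_pos_iff.mpr ha0
    obtain ⟨n, hn⟩ := exists_pow_lt_of_lt_one (inv_pos.mpr hapos) hpinv1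
    have h1 : ‖(p : L) ^ n * a‖ ≤ 1 := by
      rw [norm_mul, norm_pow, hpL]
      have := mul_lt_mul_of_pos_right hn hapos
      rw [inv_mul_cancel₀ hapos.ne'] at this
      exact this.le
    have h2 := hint ((p : L) ^ n * a)
      (fixed_mul (fixed_pow (fun τ _ => map_natCast τ p) n) haJ) h1
    rw [map_mul, map_pow, map_natCast] at h2
    exact mul_left_cancel₀ (pow_ne_zero n hpL0) h2
  -- Galois correspondence
  have hmem : γ ∈ J := by
    rw [← IntermediateField.fixingSubgroup_fixedField J, IntermediateField.mem_fixingSubgroup_iff]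
    intro a ha
    exact hall a ((IntermediateField.mem_fixedField_iff J a).mp ha)
  exact hmem

theorem inertia_onto_of_depth (γ : L ≃ₐ[ℚ_[p]] L) (hγ : depth p L γ < 1) :
    ∃ ι ∈ inertiaP p, resL L ι = γ :=
  inertia_onto γ fun _ ha => (H15.norm_sub_le_depth γ ha).trans_lt hγ

/-- The image of `inertiaP p` in `Gal(L/ℚ_p)` is the inertia group of `L/ℚ_p`. -/
theorem mem_map_inertiaP_iff (γ : L ≃ₐ[ℚ_[p]] L) :
    γ ∈ (inertiaP p).map (resL L) ↔ ∀ a : L, ‖a‖ ≤ 1 → ‖γ a - a‖ < 1 := by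
  constructor
  · rintro ⟨σ, hσ, rfl⟩ a ha
    have h1 : ‖resL L σ a - a‖ = ‖σ (a : PadicAlgCl p) - (a : PadicAlgCl p)‖ := by
      rw [← resL_apply]; rfl
    rw [h1]
    exact hσ _ ha
  · intro h
    exact inertia_onto γ h

end Fermat.Agent.S56.FL.H38

end

end
-- ==== END Fermat.Agent.S56.FL.H38_InertiaOnto

-- ==== BEGIN Fermat.Agent.S56.FL.H38_OrdCyc
section

set_option autoImplicit false

/-!
# LOC-p-FL, package ORD (helper38), part 2: inertia moves the `p`-th roots of unity (`p` odd)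

* `root_eq_one_of_close` : `ζ ^ p = 1`, `‖ζ - 1‖ ≤ p⁻¹`, `p ≠ 2` ⟹ `ζ = 1` (LIFT-a in `𝒪_{K̄}`).
* `exists_inertia_moves_root` : some element of `inertiaP p` moves some `p`-th root of unity.
-/

noncomputable section

namespace Fermat.Agent.S56.FL.H38

open scoped NNReal
open Fermat.Agent.S56.FL

variable {p : ℕ} [Fact p.Prime]

theorem radius_inv' (hp2 : p ≠ 2) : ((p : ℝ≥0)⁻¹) ^ (p - 1) < (p : ℝ≥0)⁻¹ := by
  have hp : p.Prime := Fact.out
  have hp3 : 2 ≤ p - 1 := by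
    have := hp.two_le
    omega
  have hpp : (1 : ℝ≥0) < (p : ℝ≥0) := by exact_mod_cast hp.one_lt
  have h0 : (0 : ℝ≥0) < (p : ℝ≥0)⁻¹ := inv_pos.mpr (lt_trans zero_lt_one hpp)
  have h1 : (p : ℝ≥0)⁻¹ < 1 := inv_lt_one_of_one_lt₀ hpp
  calc ((p : ℝ≥0)⁻¹) ^ (p - 1) ≤ ((p : ℝ≥0)⁻¹) ^ 2 := pow_le_pow_of_le_one h0.le h1.le hp3
    _ = (p : ℝ≥0)⁻¹ * (p : ℝ≥0)⁻¹ := sq _
    _ < (p : ℝ≥0)⁻¹ * 1 := mul_lt_mul_of_pos_left h1 h0
    _ = (p : ℝ≥0)⁻¹ := mul_one _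

/-- A `p`-th root of unity congruent to `1` modulo `p` is `1` (`p` odd). -/
theorem root_eq_one_of_close (hp2 : p ≠ 2) {ζ : PadicAlgCl p} (hζ : ζ ^ p = 1)
    (hclose : ‖ζ - 1‖ ≤ (p : ℝ)⁻¹) : ζ = 1 := by
  have hp : p.Prime := Fact.out
  have hζn : ‖ζ‖ ≤ 1 := (norm_root_eq_one hp.pos hζ).le
  let F : IntermediateField ℚ_[p] (PadicAlgCl p) := ⊤
  let u : intRing p F := ⟨ζ, IntermediateField.mem_top, hζn⟩
  have hu : u ^ p = 1 := by
    apply Subtype.ext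
    simpa using hζ
  have hmem : u - 1 ∈ Ideal.map (algebraMap (intRing p F) (intRing p F))
      (ballIdeal p F ((p : ℝ≥0)⁻¹)) := by
    rw [Algebra.algebraMap_self, Ideal.map_id, mem_ballIdeal]
    have : ((u - 1 : intRing p F) : PadicAlgCl p) = ζ - 1 := rfl
    rw [this]
    simpa using hclose
  have := H50.stmt_LIFT_a p F (intRing p F) ((p : ℝ≥0)⁻¹) (radius_inv' hp2) u hu hmem
  exact congrArg Subtype.val this

/-- Some element of the inertia group moves some `p`-th root of unity (`p` odd). -/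
theorem exists_inertia_moves_root (hp2 : p ≠ 2) :
    ∃ σ ∈ inertiaP p, ∃ ζ : PadicAlgCl p, ζ ^ p = 1 ∧ σ ζ ≠ ζ := by
  have hp : p.Prime := Fact.out
  have : NeZero p := ⟨hp.ne_zero⟩
  obtain ⟨ζ, hζ⟩ := HasEnoughRootsOfUnity.exists_primitiveRoot (PadicAlgCl p) p
  by_contra hcon
  have hfix : ∀ σ ∈ inertiaP p, σ (ζ - 1) = ζ - 1 := by
    intro σ hσ
    have h1 : σ ζ = ζ := by
      by_contra hne
      exact hcon ⟨σ, hσ, ζ, hζ.pow_eq_one, hne⟩
    rw [map_sub, h1, map_one]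
  have hlt : ‖ζ - 1‖ < 1 := norm_sub_one_lt_of_pow (by rw [hζ.pow_eq_one, sub_self, norm_zero]; exact one_pos)
  have hle := norm_le_inv_of_fixed hfix hlt
  have h1 := root_eq_one_of_close hp2 hζ.pow_eq_one hle
  exact hζ.ne_one hp.one_lt h1

end Fermat.Agent.S56.FL.H38

end

end
-- ==== END Fermat.Agent.S56.FL.H38_OrdCyc
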