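-- GENERATED (merged mirror, NOTES/tools/trim/merge3_helper67.py): 8 modules of the originals, bodies verbatim.
import Mathlib
import Fermat.Agent.Zm.S56_L09_004
import Fermat.Agent.Zm.S56_L10_003
import Fermat.Agent.Zm.S56_L10_001
import Fermat.Agent.Zm.S56_L09_001
import Fermat.Agent.Zm.S56_L10_002
import Fermat.Agent.Zm.S56_L06_004
import Fermat.Agent.Zm.S56_L09_002
import Fermat.Agent.Zm.S56_L01_000
import Fermat.Agent.Zm.S56_L07_005
import Fermat.Agent.Zm.S56_L08_004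

-- ==== BEGIN Fermat.Agent.S55.CFT.GS.H19_BriCyc
section

set_option autoImplicit false
set_option linter.style.haveILetI false
set_option linter.unusedSectionVars false

open CategoryTheory groupCohomology ExtCitation

noncomputable section

namespace Fermat.Agent.S55.CFT.GS.H19

open Fermat.Agent.S55 Fermat.Agent.S55.Top Fermat.Agent.S55.CFT Fermat.Agent.S55.CFT.GS

local notation "Qb" => AlgebraicClosure ℚ

/-! ### Roots of unity of `p`-power order are unramified outside `p` -/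

/-- Inertia at a place prime to `p` fixes the roots of unity of `p`-power order. -/
theorem inertia_fix_ppow_root (A : ValuationSubring Qb) {p : ℕ} (hp : p.Prime)
    (hAp : A.valuation (p : Qb) = 1) {σ : GQ} (hσ : σ ∈ A.inertiaSubgroupIn ℚ) :
    ∀ (M : ℕ) (t : Qb), t ^ (p ^ M) = 1 → σ t = t := by
  intro M
  induction M with
  | zero =>
    intro t ht
    rw [pow_zero, pow_one] at ht
    rw [ht, map_one]
  | succ M ih =>
    intro t ht
    have h1 : (t ^ p) ^ (p ^ M) = 1 := by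
      rw [← pow_mul, ← pow_succ']
      exact ht
    have hfix : σ (t ^ p) = t ^ p := ih _ h1
    have hv : A.valuation (t ^ p) = 1 := by
      have h2 : A.valuation (t ^ p) ^ (p ^ M) = 1 := by rw [← map_pow, h1, map_one]
      exact H24.val_eq_one_of_pow A (pow_ne_zero _ hp.ne_zero) h2
    exact H24.inertia_fix_root A hp hAp hσ hv hfix

/-- `ℚ(ζ)`, `ζ` a root of unity of `p`-power order, is unramified outside `S ∋ p`. -/
theorem isUnramifiedOutside_adjoin_root {p : ℕ} [Fact p.Prime] {S : Finset Nat.Primes}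
    (hp : pPrime p ∈ S) (M : ℕ) {ζ : Qb} (hζ : ζ ^ (p ^ M) = 1) :
    (IntermediateField.adjoin ℚ {ζ}).IsUnramifiedOutside S := by
  have hint : IsIntegral ℚ ζ := (AlgebraicClosure.isAlgebraic ℚ).isAlgebraic ζ |>.isIntegral
  refine ⟨IntermediateField.adjoin.finiteDimensional hint, fun q hq A hA => ?_⟩
  rw [← IntermediateField.le_iff_le, IntermediateField.adjoin_simple_le_iff,
    IntermediateField.mem_fixedField_iff]
  intro σ hσ
  exact inertia_fix_ppow_root A (Fact.out : p.Prime) (H24.val_p_eq_one hp hq hA) hσ M ζ hζ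

/-- A primitive `p^M`-th root of unity in `ℚ̄`. -/
theorem exists_primitiveRoot_ppow (p M : ℕ) (hp : p.Prime) :
    ∃ ζ : Qb, IsPrimitiveRoot ζ (p ^ M) := by
  haveI : NeZero (p ^ M) := ⟨pow_ne_zero _ hp.ne_zero⟩
  haveI : NeZero ((p ^ M : ℕ) : Qb) := ⟨Nat.cast_ne_zero.mpr (NeZero.ne _)⟩
  exact HasEnoughRootsOfUnity.exists_primitiveRoot Qb (p ^ M)

/-! ### CYC-Base -/

/-- **CYC-Base**. -/
theorem stmt_CycBase : Bri.Stmt_CycBase := by
  intro p _ S hpS K hK M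
  have hp : p.Prime := Fact.out
  haveI : NeZero (p ^ M) := ⟨pow_ne_zero _ hp.ne_zero⟩
  obtain ⟨ζ, hζ⟩ := exists_primitiveRoot_ppow p M hp
  have hKN : K ≤ K ⊔ IntermediateField.adjoin ℚ ({ζ} : Set Qb) := le_sup_left
  have h := IntermediateField.restrictScalars_adjoin_eq_sup ℚ K ({ζ} : Set Qb)
  have hNK : H6.NK hKN = IntermediateField.adjoin ↥K ({ζ} : Set Qb) :=
    IntermediateField.restrictScalars_injective ℚ h.symm
  haveI : Algebra.IsAlgebraic ℚ Qb := AlgebraicClosure.isAlgebraic ℚ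
  haveI : Algebra.IsAlgebraic ↥K Qb := Algebra.IsAlgebraic.tower_top (K := ℚ) ↥K
  haveI : IsCyclotomicExtension {p ^ M} ↥K ↥(IntermediateField.adjoin ↥K ({ζ} : Set Qb)) :=
    hζ.intermediateField_adjoin_isCyclotomicExtension ↥K
  refine ⟨K ⊔ IntermediateField.adjoin ℚ ({ζ} : Set Qb), hKN, ?_, ?_, ?_⟩
  · exact hK.sup (isUnramifiedOutside_adjoin_root hpS M hζ.pow_eq_one)
  · rw [hNK]
    exact IsCyclotomicExtension.isGalois {p ^ M} ↥K _
  · rw [hNK]
    infer_instance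

/-! ### CYC-Top -/

/-- `N(ζ) = N ⊔ K(ζ)` as intermediate fields of `ℚ̄ / K`. -/
theorem NK_sup_adjoin {K N : IntermediateField ℚ Qb} (hKN : K ≤ N) (ζ : Qb)
    (hNN' : N ≤ N ⊔ IntermediateField.adjoin ℚ ({ζ} : Set Qb)) :
    H6.NK (hKN.trans hNN') = H6.NK hKN ⊔ IntermediateField.adjoin ↥K ({ζ} : Set Qb) := by
  apply le_antisymm
  · rw [IntermediateField.extendScalars_le_iff]
    refine sup_le ?_ ?_
    · intro x hx
      exact (le_sup_left : H6.NK hKN ≤ H6.NK hKN ⊔ IntermediateField.adjoin ↥K ({ζ} : Set Qb))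
        (show x ∈ H6.NK hKN from hx)
    · rw [IntermediateField.adjoin_le_iff, Set.singleton_subset_iff]
      exact (le_sup_right : IntermediateField.adjoin ↥K ({ζ} : Set Qb) ≤
        H6.NK hKN ⊔ IntermediateField.adjoin ↥K ({ζ} : Set Qb))
        (IntermediateField.mem_adjoin_simple_self ↥K ζ)
  · refine sup_le ?_ ?_
    · exact fun x hx => hNN' hx
    · rw [IntermediateField.adjoin_le_iff, Set.singleton_subset_iff]
      exact (le_sup_right : IntermediateField.adjoin ℚ ({ζ} : Set Qb) ≤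
        N ⊔ IntermediateField.adjoin ℚ ({ζ} : Set Qb))
        (IntermediateField.mem_adjoin_simple_self ℚ ζ)

/-- **CYC-Top**. -/
theorem stmt_CycTop : Bri.Stmt_CycTop := by
  intro p _ S hpS K N hKN hN hgal M
  have hp : p.Prime := Fact.out
  haveI : NeZero (p ^ M) := ⟨pow_ne_zero _ hp.ne_zero⟩
  obtain ⟨ζ, hζ⟩ := exists_primitiveRoot_ppow p M hp
  have hNN' : N ≤ N ⊔ IntermediateField.adjoin ℚ ({ζ} : Set Qb) := le_sup_left
  haveI : Algebra.IsAlgebraic ℚ Qb := AlgebraicClosure.isAlgebraic ℚ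
  haveI : Algebra.IsAlgebraic ↥K Qb := Algebra.IsAlgebraic.tower_top (K := ℚ) ↥K
  haveI : Algebra.IsAlgebraic ↥(H6.NK hKN) Qb := Algebra.IsAlgebraic.tower_top (K := ↥K) _
  have h := NK_sup_adjoin hKN ζ hNN'
  refine ⟨N ⊔ IntermediateField.adjoin ℚ ({ζ} : Set Qb), hNN',
    hN.sup (isUnramifiedOutside_adjoin_root hpS M hζ.pow_eq_one), ?_, ?_⟩
  · rw [h]
    haveI : Normal ↥K ↥(H6.NK hKN) := hgal.to_normal
    haveI : IsCyclotomicExtension {p ^ M} ↥K ↥(IntermediateField.adjoin ↥K ({ζ} : Set Qb)) :=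
      hζ.intermediateField_adjoin_isCyclotomicExtension ↥K
    haveI : IsGalois ↥K ↥(IntermediateField.adjoin ↥K ({ζ} : Set Qb)) :=
      IsCyclotomicExtension.isGalois {p ^ M} ↥K _
    haveI : Normal ↥K ↥(IntermediateField.adjoin ↥K ({ζ} : Set Qb)) := IsGalois.to_normal
    haveI : Normal ↥K ↥(H6.NK hKN ⊔ IntermediateField.adjoin ↥K ({ζ} : Set Qb)) :=
      inferInstance
    exact ⟨⟩
  · letI := Bri.algIncl hKN hNN'
    haveI hcyc : IsCyclotomicExtension {p ^ M} ↥(H6.NK hKN)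
        ↥(IntermediateField.adjoin ↥(H6.NK hKN) ({ζ} : Set Qb)) :=
      hζ.intermediateField_adjoin_isCyclotomicExtension ↥(H6.NK hKN)
    have h2 : (IntermediateField.adjoin ↥(H6.NK hKN) ({ζ} : Set Qb)).restrictScalars ↥K =
        H6.NK (hKN.trans hNN') := by
      rw [h]
      exact IntermediateField.restrictScalars_adjoin_eq_sup ↥K (H6.NK hKN) ({ζ} : Set Qb)
    have hB1 : ∀ x : Qb, x ∈ IntermediateField.adjoin ↥(H6.NK hKN) ({ζ} : Set Qb) →
        x ∈ H6.NK (hKN.trans hNN') := by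
      intro x hx
      rw [← h2]
      exact hx
    have hB2 : ∀ x : Qb, x ∈ H6.NK (hKN.trans hNN') →
        x ∈ IntermediateField.adjoin ↥(H6.NK hKN) ({ζ} : Set Qb) := by
      intro x hx
      rw [← h2] at hx
      exact hx
    let g : ↥(IntermediateField.adjoin ↥(H6.NK hKN) ({ζ} : Set Qb)) →ₐ[↥(H6.NK hKN)]
        ↥(H6.NK (hKN.trans hNN')) :=
      { toFun := fun x => ⟨x.1, hB1 x.1 x.2⟩
        map_one' := rfl
        map_mul' := fun _ _ => rfl
        map_zero' := rfl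
        map_add' := fun _ _ => rfl
        commutes' := fun _ => rfl }
    have hg : Function.Bijective g :=
      ⟨fun x y hxy => Subtype.ext
          (congrArg (fun z : ↥(H6.NK (hKN.trans hNN')) => (z : Qb)) hxy),
        fun y => ⟨⟨y.1, hB2 y.1 y.2⟩, rfl⟩⟩
    exact IsCyclotomicExtension.equiv {p ^ M} ↥(H6.NK hKN) _ (AlgEquiv.ofBijective g hg)

end Fermat.Agent.S55.CFT.GS.H19

end

end
-- ==== END Fermat.Agent.S55.CFT.GS.H19_BriCyc

-- ==== BEGIN Fermat.Agent.S55.Top.G1K_Main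
section

set_option autoImplicit false
set_option linter.unusedSectionVars false
set_option linter.unusedSimpArgs false

open CategoryTheory Module groupCohomology ExtCitation

noncomputable section

namespace Fermat.Agent.S55.Top

open Fermat.Agent.S55

attribute [local instance] locAct

namespace KbData

variable {p : ℕ} [Fact p.Prime] {S : Finset Nat.Primes}
  {K : IntermediateField ℚ (AlgebraicClosure ℚ)} {𝔓 : PlaceSys S K}
  {b : ↥K.fixingSubgroup → ZMod p} (D : KbData 𝔓 b)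

/-- the family `c₀`, placed at the places `(w, i)` of `K'`. -/
def cfam (c₀ : ∀ (q : ↥S) (w : 𝔓.W q), 𝔓.Γw q w × 𝔓.Γw q w → ZMod p) (i : ZMod p) :
    ∀ (q : ↥S) (w : D.placeSys.W q), D.placeSys.Γw q w × D.placeSys.Γw q w → ZMod p :=
  fun q w t => if w.2 = i then c₀ q w.1 (D.eOut q w.1 w.2 t.1, D.eOut q w.1 w.2 t.2) else 0

lemma cfam_mkW (c₀ : ∀ (q : ↥S) (w : 𝔓.W q), 𝔓.Γw q w × 𝔓.Γw q w → ZMod p) (i : ZMod p)
    (q : ↥S) (w : 𝔓.W q) (j : ZMod p) (h₁ h₂ : 𝔓.Γw q w) :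
    D.cfam c₀ i q (D.mkW q w j) (D.eIn q w j h₁, D.eIn q w j h₂) =
      if j = i then c₀ q w (h₁, h₂) else 0 := by
  show (if j = i then c₀ q w (D.eOut q w j (D.eIn q w j h₁), D.eOut q w j (D.eIn q w j h₂))
    else 0) = _
  rw [D.eOut_eIn, D.eOut_eIn]

lemma cfam_mem (c₀ : ∀ (q : ↥S) (w : 𝔓.W q), 𝔓.Γw q w × 𝔓.Γw q w → ZMod p)
    (hc₀ : ∀ q w, c₀ q w ∈ Z2w (ZMod p) 𝔓 q w) (i : ZMod p) (q : ↥S) (w : D.placeSys.W q) :
    D.cfam c₀ i q w ∈ Z2w (ZMod p) D.placeSys q w := by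
  obtain ⟨w, j⟩ := w
  by_cases hj : j = i
  · have e : D.cfam c₀ i q (w, j) =
        fun t => c₀ q w (D.eOut q w j t.1, D.eOut q w j t.2) := by
      funext t
      show (if j = i then _ else 0) = _
      rw [if_pos hj]
    rw [e]
    refine ⟨?_, D.levL₂_eOut q w j (hc₀ q w).2⟩
    funext t
    have h := congrFun (hc₀ q w).1 (D.eOut q w j t.1, D.eOut q w j t.2.1, D.eOut q w j t.2.2)
    simp only [tTwo, Pi.zero_apply] at h ⊢
    rw [map_mul, map_mul]
    exact h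
  · have e : D.cfam c₀ i q (w, j) = 0 := by
      funext t
      show (if j = i then _ else 0) = _
      rw [if_neg hj]
      rfl
    rw [e]
    exact (Z2w (ZMod p) D.placeSys q (w, j)).zero_mem

lemma sum_delta (i : ZMod p) (φ : ZMod p → ZMod p) :
    ∑ j : ZMod p, (if j = i then φ j else 0) = φ i := by
  rw [Finset.sum_ite_eq' Finset.univ i φ, if_pos (Finset.mem_univ i)]

/-- the two moments of the induced cone 2-cochain. -/
def u0 (f : ↥D.K'.fixingSubgroup × ↥D.K'.fixingSubgroup → ZMod p)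
    (g : ∀ (q : ↥S) (w : D.placeSys.W q), D.placeSys.Γw q w → ZMod p) : 𝔓.C2 (ZMod p) :=
  (M0 (D.ind₂ f), fun q w h => ∑ j : ZMod p, g q (D.mkW q w j) (D.eIn q w j h))

/-- the first moment of the induced cone 2-cochain. -/
def u1 (f : ↥D.K'.fixingSubgroup × ↥D.K'.fixingSubgroup → ZMod p)
    (g : ∀ (q : ↥S) (w : D.placeSys.W q), D.placeSys.Γw q w → ZMod p) : 𝔓.C2 (ZMod p) :=
  (M1 (D.ind₂ f), fun q w h => ∑ j : ZMod p, j * g q (D.mkW q w j) (D.eIn q w j h))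

section core

variable (c₀ : ∀ (q : ↥S) (w : 𝔓.W q), 𝔓.Γw q w × 𝔓.Γw q w → ZMod p) (α β : ZMod p)
  (f : ↥D.K'.fixingSubgroup × ↥D.K'.fixingSubgroup → ZMod p)
  (g : ∀ (q : ↥S) (w : D.placeSys.W q), D.placeSys.Γw q w → ZMod p)

/-- the pointwise identity at the place `(w, j)`. -/
lemma pointwise
    (h2 : ∀ (q : ↥S) (w : D.placeSys.W q),
      (α • D.cfam c₀ 0 q w + β • D.cfam c₀ 1 q w) = D.placeSys.res₂ q w f - tOne (g q w))
    (q : ↥S) (w : 𝔓.W q) (j : ZMod p) (h₁ h₂ : 𝔓.Γw q w) :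
    α * (if j = 0 then c₀ q w (h₁, h₂) else 0) + β * (if j = 1 then c₀ q w (h₁, h₂) else 0) =
      D.ind₂ f (𝔓.ρw q w h₁, 𝔓.ρw q w h₂) j -
        (g q (D.mkW q w j) (D.eIn q w j h₂) - g q (D.mkW q w j) (D.eIn q w j (h₁ * h₂)) +
          g q (D.mkW q w j) (D.eIn q w j h₁)) := by
  have h := congrFun (h2 q (D.mkW q w j)) (D.eIn q w j h₁, D.eIn q w j h₂)
  simp only [Pi.add_apply, Pi.smul_apply, smul_eq_mul, Pi.sub_apply, tOne] at h
  rw [D.cfam_mkW, D.cfam_mkW, ← D.ind₂_res, ← map_mul] at h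
  exact h

/-- `d u₀ = (α + β) (0, c₀)`, local part. -/
lemma u0_loc
    (h2 : ∀ (q : ↥S) (w : D.placeSys.W q),
      (α • D.cfam c₀ 0 q w + β • D.cfam c₀ 1 q w) = D.placeSys.res₂ q w f - tOne (g q w))
    (q : ↥S) (w : 𝔓.W q) (t : 𝔓.Γw q w × 𝔓.Γw q w) :
    𝔓.res₂ q w (D.u0 f g).1 t - tOne ((D.u0 f g).2 q w) t = (α + β) * c₀ q w t := by
  obtain ⟨h₁, h₂⟩ := t
  have h : ∑ j : ZMod p, (α * (if j = 0 then c₀ q w (h₁, h₂) else 0) +
      β * (if j = 1 then c₀ q w (h₁, h₂) else 0)) =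
      ∑ j : ZMod p, (D.ind₂ f (𝔓.ρw q w h₁, 𝔓.ρw q w h₂) j -
        (g q (D.mkW q w j) (D.eIn q w j h₂) - g q (D.mkW q w j) (D.eIn q w j (h₁ * h₂)) +
          g q (D.mkW q w j) (D.eIn q w j h₁))) :=
    Finset.sum_congr rfl (fun j _ => D.pointwise c₀ α β f g h2 q w j h₁ h₂)
  simp only [mul_ite, mul_zero, Finset.sum_add_distrib, Finset.sum_sub_distrib, sum_delta] at h
  simp only [u0, M0, PlaceSys.res₂, tOne]
  linear_combination -h

/-- `d u₁ + b ∪ u₀ = β (0, c₀)`, local part. -/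
lemma u1_loc
    (h2 : ∀ (q : ↥S) (w : D.placeSys.W q),
      (α • D.cfam c₀ 0 q w + β • D.cfam c₀ 1 q w) = D.placeSys.res₂ q w f - tOne (g q w))
    (q : ↥S) (w : 𝔓.W q) (t : 𝔓.Γw q w × 𝔓.Γw q w) :
    𝔓.res₂ q w (D.u1 f g).1 t - tOne ((D.u1 f g).2 q w) t = β * c₀ q w t := by
  obtain ⟨h₁, h₂⟩ := t
  have h : ∑ j : ZMod p, j * (α * (if j = 0 then c₀ q w (h₁, h₂) else 0) +
      β * (if j = 1 then c₀ q w (h₁, h₂) else 0)) =
      ∑ j : ZMod p, j * (D.ind₂ f (𝔓.ρw q w h₁, 𝔓.ρw q w h₂) j -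
        (g q (D.mkW q w j) (D.eIn q w j h₂) - g q (D.mkW q w j) (D.eIn q w j (h₁ * h₂)) +
          g q (D.mkW q w j) (D.eIn q w j h₁))) :=
    Finset.sum_congr rfl (fun j _ => by rw [D.pointwise c₀ α β f g h2 q w j h₁ h₂])
  simp only [mul_add, mul_sub, mul_ite, mul_zero, Finset.sum_add_distrib,
    Finset.sum_sub_distrib, sum_delta] at h
  simp only [u1, M1, PlaceSys.res₂, tOne]
  linear_combination -h

end core

/-- **The core of `G1K`**: from the `K'`-level primitive to the `K`-level cone 2-cocycle. -/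
theorem g1k_core (hbL : IsLevK₁ S K b) (hK' : D.K'.IsUnramifiedOutside S)
    (tr : TraceK 𝔓 (ZMod p))
    (c₀ : ∀ (q : ↥S) (w : 𝔓.W q), 𝔓.Γw q w × 𝔓.Γw q w → ZMod p)
    (htr : tr.toFun ((0, c₀) : 𝔓.C3 (ZMod p)) ≠ 0)
    (α β : ZMod p) (hαβ : α ≠ 0 ∨ β ≠ 0)
    (hB : IsB3cK D.placeSys
      ((0, fun q w => α • D.cfam c₀ 0 q w + β • D.cfam c₀ 1 q w) : D.placeSys.C3 (ZMod p))) :
    ∃ x : 𝔓.C2 (ZMod p), IsZ2cK 𝔓 x ∧ tr.toFun (cupA2K 𝔓 x b) ≠ 0 := by
  obtain ⟨f, g, hf, hg, h1, h2⟩ := hB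
  have hcoc : tTwo f = 0 := h1.symm
  have hb : IsZ1K S K b := ⟨D.hb, hbL⟩
  -- the twisted cocycle condition, and levels
  have hF := fun g₁ g₂ g₃ j => D.ind₂_coc hcoc g₁ g₂ g₃ j
  have hlev := D.ind₂_lev hK' hf
  have hl0 : ∀ (q : ↥S) (w : 𝔓.W q), IsLevelConstant₁ (𝔓.rw q w) ((D.u0 f g).2 q w) :=
    fun q w => levL₁_sum q w (fun j h => g q (D.mkW q w j) (D.eIn q w j h))
      (fun j => D.levL₁_eIn q w j (hg q (D.mkW q w j))) Finset.univ
  have hl1 : ∀ (q : ↥S) (w : 𝔓.W q), IsLevelConstant₁ (𝔓.rw q w) ((D.u1 f g).2 q w) :=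
    fun q w => levL₁_sum q w (fun j h => j * g q (D.mkW q w j) (D.eIn q w j h))
      (fun j => (D.levL₁_eIn q w j (hg q (D.mkW q w j))).comp (fun c => j * c)) Finset.univ
  -- `d u₀ = (α + β) (0, c₀)`
  have hd0 : H48.dCone2K 𝔓 (D.u0 f g) = (α + β) • ((0, c₀) : 𝔓.C3 (ZMod p)) := by
    refine Prod.ext ?_ (funext fun q => funext fun w => funext fun t => ?_)
    · show tTwo (M0 (D.ind₂ f)) = (α + β) •
        (0 : ↥K.fixingSubgroup × ↥K.fixingSubgroup × ↥K.fixingSubgroup → ZMod p)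
      rw [tTwo_M0 hF, smul_zero]
    · exact D.u0_loc c₀ α β f g h2 q w t
  have hB0 : IsB3cK 𝔓 (H48.dCone2K 𝔓 (D.u0 f g)) :=
    H48.isB3cK_dCone2K 𝔓 (levK₂_M0 hlev) hl0
  have h0 := tr.zero_of_isB3cK _ hB0
  rw [hd0, map_smul, smul_eq_mul] at h0
  have hαβ0 : α + β = 0 := (mul_eq_zero.1 h0).resolve_right htr
  have hβ : β ≠ 0 := by
    rcases hαβ with h | h
    · intro hβ
      rw [hβ, add_zero] at hαβ0
      exact h hαβ0
    · exact h
  -- `u₀` is a cone 2-cocycle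
  have hu0 : IsZ2cK 𝔓 (D.u0 f g) := by
    refine ⟨⟨tTwo_M0 hF, levK₂_M0 hlev⟩, fun q w => ⟨hl0 q w, ?_⟩⟩
    funext t
    have := D.u0_loc c₀ α β f g h2 q w t
    rw [hαβ0, zero_mul, sub_eq_zero] at this
    exact this
  -- `b ∪ u₀ = - d u₁ + β (0, c₀)`
  have hd1 : cupB2K 𝔓 b (D.u0 f g) =
      - H48.dCone2K 𝔓 (D.u1 f g) + β • ((0, c₀) : 𝔓.C3 (ZMod p)) := by
    refine Prod.ext (funext fun t => ?_) (funext fun q => funext fun w => funext fun t => ?_)
    · show b t.1 * M0 (D.ind₂ f) (t.2.1, t.2.2) =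
        - tTwo (M1 (D.ind₂ f)) t + β • (0 : ZMod p)
      rw [tTwo_M1 hF t, smul_zero]
      ring
    · show - (b (𝔓.ρw q w t.1) * (D.u0 f g).2 q w t.2) =
        - (𝔓.res₂ q w (D.u1 f g).1 t - tOne ((D.u1 f g).2 q w) t) + β * c₀ q w t
      rw [D.u1_loc c₀ α β f g h2 q w t, D.hloc q w t.1]
      ring
  have hB1 : IsB3cK 𝔓 (H48.dCone2K 𝔓 (D.u1 f g)) :=
    H48.isB3cK_dCone2K 𝔓 (levK₂_M1 hlev) hl1
  have htr1 : tr.toFun (cupB2K 𝔓 b (D.u0 f g)) ≠ 0 := by
    rw [hd1, map_add, map_neg, tr.zero_of_isB3cK _ hB1, neg_zero, zero_add, map_smul,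
      smul_eq_mul]
    exact mul_ne_zero hβ htr
  -- graded commutativity
  refine ⟨D.u0 f g, hu0, ?_⟩
  have hcomm : tr.toFun (cupA2K 𝔓 (D.u0 f g) b) = tr.toFun (cupB2K 𝔓 b (D.u0 f g)) := by
    apply H48.tr_eq_of_sub
    rw [H48.cupA2K_sub_cupB2K 𝔓 b hb.1 (D.u0 f g) hu0]
    refine H48.isB3cK_dCone2K 𝔓 (H48.levK₂_hom_mul hb hu0.1.2) (fun q w => ?_)
    exact H48.levL₁_mul q w (H48.levL₁_res₁ hb.2 q w) (hu0.2 q w).1
  rw [hcomm]
  exact htr1

end KbData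

/-- **`Stmt_G1K` follows from `Stmt_I2` and `Stmt_I4`** (only `I2` for `K` and `I4` (a) for
`K(b)` are used). -/
theorem stmt_G1K_of (hI2 : Stmt_I2) (hI4 : Stmt_I4) : Stmt_G1K := by
  intro p _ hp2 S hpS K hK 𝔓 tr hne b hb hloc hb0
  obtain ⟨z₀, hz₀, htr⟩ := hne
  -- step 1: `z₀ ≡ (0, c₀)`
  obtain ⟨c₀, hc₀, hzc⟩ := H48.exists_loc_rep (hI2 p hp2 S hpS K hK) z₀ hz₀
  have htr0 : tr.toFun ((0, c₀) : 𝔓.C3 (ZMod p)) ≠ 0 := by
    rwa [← H48.tr_eq_of_sub tr hzc]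
  -- step 2: `h₀` with `b h₀ = 1`
  obtain ⟨g, hg⟩ : ∃ g, b g ≠ 0 := by
    by_contra h
    exact hb0 (funext fun x => by_contra fun hx => h ⟨x, hx⟩)
  have hh0 : b (g ^ ((b g)⁻¹).val) = 1 := by
    rw [g1k_hom_pow hb.1, ZMod.natCast_zmod_val, inv_mul_cancel₀ hg]
  obtain ⟨hfix, hun, -⟩ := Kb_spec hK.1 hb
  let D : KbData 𝔓 b :=
    { K' := Kb b hb.1
      hb := hb.1
      hmem := fun g => by rw [hfix]; exact Iff.rfl
      h0 := g ^ ((b g)⁻¹).val
      hh0 := hh0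
      hloc := fun q w h => congrFun (hloc q w) h }
  have hK' : IsBaseField S p D.K' := Kb_isBaseField hK hb
  -- step 3: `I4` (a) for `K'`
  obtain ⟨α, β, hαβ, hB⟩ := (hI4 p hp2 S hpS D.K' hK' D.placeSys).1 (D.cfam c₀ 0) (D.cfam c₀ 1)
    (fun q w => D.cfam_mem c₀ hc₀ 0 q w) (fun q w => D.cfam_mem c₀ hc₀ 1 q w)
  exact D.g1k_core hb.2 hK'.1 tr c₀ htr0 α β hαβ hB

end Fermat.Agent.S55.Top

end

end
-- ==== END Fermat.Agent.S55.Top.G1K_Main

-- ==== BEGIN Fermat.Agent.S55.Top.H48_PTLin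
section

set_option autoImplicit false

open CategoryTheory Module groupCohomology ExtCitation

noncomputable section

namespace Fermat.Agent.S55.Top.H48

open Fermat.Agent.S55 Fermat.Agent.S55.Top

/-- A pairing `X × A → k` which is nondegenerate on the finite-dimensional right factor `A`
induces a surjection of `X` onto the dual of `A`. -/
lemma surj_of_right_nondeg {k : Type*} [Field k] {X A : Type*} [AddCommGroup X] [Module k X]
    [AddCommGroup A] [Module k A] [FiniteDimensional k A] (Φ : X →ₗ[k] A →ₗ[k] k)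
    (nd : ∀ a, (∀ x, Φ x a = 0) → a = 0) (ψ : A →ₗ[k] k) : ∃ x, Φ x = ψ := by
  have h1 : (LinearMap.range Φ).dualCoannihilator = ⊥ := by
    rw [eq_bot_iff]
    intro a ha
    rw [Submodule.mem_dualCoannihilator] at ha
    rw [Submodule.mem_bot]
    exact nd a (fun x => ha (Φ x) ⟨x, rfl⟩)
  have h2 := Subspace.finrank_add_finrank_dualCoannihilator_eq (LinearMap.range Φ)
  rw [h1, finrank_bot, add_zero] at h2
  have h3 : LinearMap.range Φ = ⊤ :=
    Submodule.eq_top_of_finrank_eq (by rw [h2, Subspace.dual_finrank_eq])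
  have h4 : ψ ∈ LinearMap.range Φ := by rw [h3]; trivial
  exact h4

variable {k : Type} [Field k] {S : Finset Nat.Primes}
  {K : IntermediateField ℚ (AlgebraicClosure ℚ)} {𝔓 : PlaceSys S K}

/-- `K`-level `β¹mono`: a class of `H²_S(G_K)` orthogonal to all cone 1-cocycles is trivial. -/
def BetaOneMonoK (tr : TraceK 𝔓 k) : Prop :=
  ∀ a : ↥K.fixingSubgroup × ↥K.fixingSubgroup → k, IsZ2K S K a →
    (∀ y : 𝔓.C1 k, IsZ1cK 𝔓 y → tr.toFun (cupB1K 𝔓 a y) = 0) → IsB2K S K a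

/-- `K`-level `α²mono`: a class of `H²_c(K)` orthogonal to `H¹_S(G_K)` is trivial. -/
def AlphaTwoMonoK (tr : TraceK 𝔓 k) : Prop :=
  ∀ x : 𝔓.C2 k, IsZ2cK 𝔓 x →
    (∀ b : ↥K.fixingSubgroup → k, IsZ1K S K b → tr.toFun (cupA2K 𝔓 x b) = 0) → IsB2cK 𝔓 x

/-- **PT-LIN**, for one base field, one place system and one trace. -/
theorem topK_general (tr : TraceK 𝔓 k)
    (hne : ∃ x : 𝔓.C3 k, IsZ3cK 𝔓 x ∧ tr.toFun x ≠ 0)
    (hI1a : ∀ (q : ↥S) (w : 𝔓.W q), Module.Finite k ↥(Z1w k 𝔓 q w))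
    (hI1b : ∀ (q : ↥S) (w : 𝔓.W q), finrank k (H2w k 𝔓 q w) = 1)
    (hI1c : ∀ (q : ↥S) (w : 𝔓.W q) (g : 𝔓.Γw q w → k), g ∈ Z1w k 𝔓 q w → g ≠ 0 →
      ∃ b : 𝔓.Γw q w → k, b ∈ Z1w k 𝔓 q w ∧
        (fun t : 𝔓.Γw q w × 𝔓.Γw q w => g t.1 * b t.2) ∉ B2w k 𝔓 q w)
    (hI1d : sumH1w k 𝔓 = 2 * nPl 𝔓 + finrank ℚ ↥K)
    (hI2 : ∀ F : ↥K.fixingSubgroup × ↥K.fixingSubgroup × ↥K.fixingSubgroup → k,
      tThree F = 0 → IsLevK₃ S K F →
      ∃ f : ↥K.fixingSubgroup × ↥K.fixingSubgroup → k, IsLevK₂ S K f ∧ tTwo f = F)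
    (hI3a : Module.Finite k ↥(Z1K k S K)) (hI3b : Module.Finite k (H2K k S K))
    (hI3c : 2 * finrank k (H2K k S K) + finrank ℚ ↥K + 2 ≤ 2 * finrank k ↥(Z1K k S K))
    (hI4a : ∀ c c' : ∀ (q : ↥S) (w : 𝔓.W q), 𝔓.Γw q w × 𝔓.Γw q w → k,
      (∀ q w, c q w ∈ Z2w k 𝔓 q w) → (∀ q w, c' q w ∈ Z2w k 𝔓 q w) →
      ∃ α β : k, (α ≠ 0 ∨ β ≠ 0) ∧
        IsB3cK 𝔓 ((0, fun q w => α • c q w + β • c' q w) : 𝔓.C3 k))
    (hI4b : ∀ c : ∀ (q : ↥S) (w : 𝔓.W q), 𝔓.Γw q w × 𝔓.Γw q w → k,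
      (∀ q w, c q w ∈ Z2w k 𝔓 q w) → IsB3cK 𝔓 ((0, c) : 𝔓.C3 k) →
      ∀ (q₀ : ↥S) (w₀ : 𝔓.W q₀),
        (∀ (q : ↥S) (w : 𝔓.W q), (⟨q, w⟩ : Σ q : ↥S, 𝔓.W q) ≠ ⟨q₀, w₀⟩ → c q w = 0) →
        c q₀ w₀ ∈ B2w k 𝔓 q₀ w₀)
    (hG1 : ∀ b : ↥K.fixingSubgroup → k, IsZ1K S K b →
      (∀ (q : ↥S) (w : 𝔓.W q), 𝔓.res₁ q w b = 0) → b ≠ 0 →
      ∃ x : 𝔓.C2 k, IsZ2cK 𝔓 x ∧ tr.toFun (cupA2K 𝔓 x b) ≠ 0) :
    (AlphaTwoEpiK tr ∧ AlphaThreeMonoK tr ∧ BetaOneEpiK tr ∧ BetaTwoMonoK tr) ∧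
      BetaOneMonoK tr ∧ AlphaTwoMonoK tr := by
  have hα3 := alphaThreeMonoK_of tr hI2 hI4a hne
  haveI := hI3a
  haveI := hI3b
  haveI : Module.Finite k (P1 k 𝔓) := finite_P1 hI1a
  have hdim : 2 * finrank k ↥(LinearMap.ker (r2 k 𝔓)) + finrank k (P1 k 𝔓) ≤
      2 * finrank k ↥(Z1K k S K) := by
    have h1 := finrank_ker_r2_le hI1b hI4a
    rw [finrank_P1 hI1a, hI1d]
    omega
  have G1 : ∀ a : ↥(Z1K k S K), r1 k 𝔓 a = 0 → (∀ x, ΦL tr x a = 0) → a = 0 := by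
    intro a ha h
    by_contra hne'
    have ha1 : a.1 ≠ 0 := fun h0 => hne' (Subtype.ext h0)
    have ha2 : ∀ (q : ↥S) (w : 𝔓.W q), 𝔓.res₁ q w a.1 = 0 := by
      intro q w
      have := congrArg (fun g : P1 k 𝔓 => ((g q w : ↥(Z1w k 𝔓 q w)) : 𝔓.Γw q w → k)) ha
      exact this
    obtain ⟨x, hx, hx'⟩ := hG1 a.1 a.2 ha2 ha1
    exact hx' (h (Submodule.Quotient.mk ⟨x, hx⟩))
  obtain ⟨hA, hB, hC⟩ := pt_count (r1 k 𝔓) (δ1 k 𝔓) (π2 k 𝔓) (π1 k 𝔓)
    (LinearMap.ker (r2 k 𝔓)) π2_mem_ker_r2 exists_π2_of_mem_ker_r2 (ex_C2 𝔓) (δ1_r1 𝔓)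
    (ex_H1 𝔓) (ΦL tr) (ΨR tr) (lam tr) (ΦL_δ1 tr) (ΦL_π1 tr) (lam_r1_r1 tr)
    (lam_nondeg tr hα3 hI1c hI4b) (mem_ker_r2_of_orth tr hα3 hI4b) G1 hdim
  have hα2m : AlphaTwoMonoK tr := by
    intro x hx h
    have h0 : (Submodule.Quotient.mk ⟨x, hx⟩ : Hc2 k 𝔓) = 0 :=
      hB _ (fun a => h a.1 a.2)
    rw [Submodule.Quotient.mk_eq_zero] at h0
    exact h0
  have hβ1m : BetaOneMonoK tr := by
    intro a ha h
    have h0 : (Submodule.Quotient.mk ⟨a, ha⟩ : H2K k S K) = 0 :=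
      hC _ (fun y => h y.1 y.2)
    rw [Submodule.Quotient.mk_eq_zero] at h0
    exact h0
  refine ⟨⟨?_, hα3, ?_, ?_⟩, hβ1m, hα2m⟩
  · -- `α²epi`
    intro φ
    obtain ⟨x, hx⟩ := surj_of_right_nondeg (ΦL tr) hA (φ.comp (Z1K k S K).subtype)
    obtain ⟨x, rfl⟩ := Submodule.mkQ_surjective _ x
    refine ⟨x.1, x.2, fun b hb => ?_⟩
    have := congrArg (fun f : ↥(Z1K k S K) →ₗ[k] k => f ⟨b, hb⟩) hx
    exact this
  · -- `β¹epi`
    intro φ hφ
    let φ' : H2K k S K →ₗ[k] k :=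
      Submodule.liftQ ((B2K k S K).comap (Z2K k S K).subtype) (φ.comp (Z2K k S K).subtype)
        (fun a ha => by
          rw [LinearMap.mem_ker]
          exact hφ a.1 ha)
    obtain ⟨y, hy⟩ := surj_of_right_nondeg (ΨR tr).flip
      (fun a h => hC a (fun y => h y)) φ'
    refine ⟨y.1, y.2, fun a ha => ?_⟩
    have := congrArg (fun f : H2K k S K →ₗ[k] k => f (Submodule.Quotient.mk ⟨a, ha⟩)) hy
    exact this
  · -- `β²mono`
    intro y hy h
    refine hα2m y hy (fun a ha => ?_)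
    rw [← h a ha]
    apply tr_eq_of_sub
    rw [cupA2K_sub_cupB2K 𝔓 a ha.1 y hy]
    refine isB3cK_dCone2K 𝔓 (levK₂_hom_mul ha hy.1.2) (fun q w => ?_)
    exact levL₁_mul q w (levL₁_res₁ ha.2 q w) (hy.2 q w).1

/-- The two further nondegeneracy statements of the `K`-level duality. -/
def Stmt_TopK_mono : Prop :=
  ∀ (p : ℕ) [Fact p.Prime], p ≠ 2 → ∀ (S : Finset Nat.Primes), pPrime p ∈ S →
    ∀ K : IntermediateField ℚ (AlgebraicClosure ℚ), IsBaseField S p K →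
    ∀ (𝔓 : PlaceSys S K) (tr : TraceK 𝔓 (ZMod p)),
      (∃ x : 𝔓.C3 (ZMod p), IsZ3cK 𝔓 x ∧ tr.toFun x ≠ 0) →
      BetaOneMonoK tr ∧ AlphaTwoMonoK tr

/-- **PT-LIN**: all `K`-level duality statements from `I1`–`I4` and `G1K`. -/
theorem stmt_TopK_all (h1 : Stmt_I1) (h2 : Stmt_I2) (h3 : Stmt_I3) (h4 : Stmt_I4)
    (hG : Stmt_G1K) : Stmt_TopK ∧ Stmt_TopK_mono := by
  have key : ∀ (p : ℕ) [Fact p.Prime], p ≠ 2 → ∀ (S : Finset Nat.Primes), pPrime p ∈ S →
      ∀ K : IntermediateField ℚ (AlgebraicClosure ℚ), IsBaseField S p K →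
      ∀ (𝔓 : PlaceSys S K) (tr : TraceK 𝔓 (ZMod p)),
        (∃ x : 𝔓.C3 (ZMod p), IsZ3cK 𝔓 x ∧ tr.toFun x ≠ 0) →
        (AlphaTwoEpiK tr ∧ AlphaThreeMonoK tr ∧ BetaOneEpiK tr ∧ BetaTwoMonoK tr) ∧
          BetaOneMonoK tr ∧ AlphaTwoMonoK tr := by
    intro p _ hp S hpS K hK 𝔓 tr hne
    obtain ⟨h1a, h1b, h1c, h1d⟩ := h1 p hp S hpS K hK 𝔓
    obtain ⟨h3a, h3b, h3c⟩ := h3 p hp S hpS K hK
    obtain ⟨h4a, h4b⟩ := h4 p hp S hpS K hK 𝔓
    exact topK_general tr hne h1a h1b h1c h1d (h2 p hp S hpS K hK) h3a h3b h3c h4a h4b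
      (hG p hp S hpS K hK 𝔓 tr hne)
  exact ⟨fun p _ hp S hpS K hK 𝔓 tr hne => (key p hp S hpS K hK 𝔓 tr hne).1,
    fun p _ hp S hpS K hK 𝔓 tr hne => (key p hp S hpS K hK 𝔓 tr hne).2⟩

/-- **PT-LIN**: `I1 → I2 → I3 → I4 → G1K → TopK`. -/
theorem stmt_TopK_of : Stmt_I1 → Stmt_I2 → Stmt_I3 → Stmt_I4 → Stmt_G1K → Stmt_TopK :=
  fun h1 h2 h3 h4 hG => (stmt_TopK_all h1 h2 h3 h4 hG).1

/-- **PT-LIN**: `I1 → I2 → I3 → I4 → G1K → TopK_mono`. -/
theorem stmt_TopK_mono_of :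
    Stmt_I1 → Stmt_I2 → Stmt_I3 → Stmt_I4 → Stmt_G1K → Stmt_TopK_mono :=
  fun h1 h2 h3 h4 hG => (stmt_TopK_all h1 h2 h3 h4 hG).2

end Fermat.Agent.S55.Top.H48

end

end
-- ==== END Fermat.Agent.S55.Top.H48_PTLin

-- ==== BEGIN Fermat.Agent.S55.Top.H48_TQSh
section

set_option autoImplicit false
set_option linter.unusedSectionVars false

open CategoryTheory Module groupCohomology ExtCitation

noncomputable section

namespace Fermat.Agent.S55.Top.H48

open Fermat.Agent.S55 Fermat.Agent.S55.Top OrbitData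

attribute [local instance] locAct

variable {k : Type} [Field k] {S : Finset Nat.Primes}
  {K : IntermediateField ℚ (AlgebraicClosure ℚ)} (𝔓 : PlaceSys S K)

/-- `Sh₃ ∘ d = d ∘ Sh₂`. -/
lemma Sh₃_dCone2 (u : C2c S (FX k K)) :
    𝔓.Sh₃ (dCone2 S (FX k K) u) = 𝔓.dK2 (𝔓.Sh₂ u) := by
  refine Prod.ext ?_ (funext fun q => funext fun w => ?_)
  · show 𝔓.shK₃ (d2 (u.1 : GQ × GQ → XK K → k)) = tTwo (𝔓.shK₂ u.1)
    rw [𝔓.tTwo_shK₂]
  · show 𝔓.shL₂ q (resTwo q.1 (u.1 : GQ × GQ → XK K → k) - dOneL (FX k K) q.1 (u.2 q) -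
        resTwo q.1 (𝔓.glob.hty3 (d2 (u.1 : GQ × GQ → XK K → k)))) w =
      𝔓.res₂ q w (𝔓.shK₂ u.1) - tOne (𝔓.shL₁ q (u.2 q - resOne q.1 (𝔓.glob.hty2 u.1)) w)
    rw [𝔓.tOne_shL₁, d1_sub, ← res_d1, dOneL_FX]
    have hg := 𝔓.glob.hty_two' (u.1 : GQ × GQ → XK K → k)
    have h1 := congrFun (𝔓.sh_res_ind₂ q (𝔓.shK₂ (u.1 : GQ × GQ → XK K → k))) w
    rw [← h1, 𝔓.indK₂_shK₂]
    have hg' : 𝔓.glob.ind2 (𝔓.glob.sh2 (u.1 : GQ × GQ → XK K → k)) =
        (u.1 : GQ × GQ → XK K → k) - d1 (𝔓.glob.hty2 u.1) - 𝔓.glob.hty3 (d2 u.1) := by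
      rw [sub_sub, ← hg, sub_sub_cancel]
    rw [hg']
    funext t
    simp only [PlaceSys.shL₂, resTwo, Pi.sub_apply]
    ring

/-- `Sh₃` maps cone coboundaries to `K`-level cone coboundaries. -/
theorem isB3cK_Sh₃ (hK : K.IsUnramifiedOutside S) {x : C3c S (FX k K)}
    (hx : IsB3c S (FX k K) x) : IsB3cK 𝔓 (𝔓.Sh₃ x) := by
  obtain ⟨u, hl, hl', rfl⟩ := (isB3c_iff x).1 hx
  rw [Sh₃_dCone2]
  refine ⟨(𝔓.Sh₂ u).1, (𝔓.Sh₂ u).2, lev_shK₂ hl, fun q w => ?_, rfl, fun q w => rfl⟩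
  exact lev_shL₁ q (Fermat.Agent.S55.levL₁_sub q.1 (hl' q)
    (levL₁_resOne q.1 (lev_glob_hty2 hK hl))) w

/-- `Sh₃` of a family of local cochains (zero global component). -/
lemma Sh₃_loc (Z : ∀ q : ↥S, Gl q.1 × Gl q.1 → XK K → k) :
    𝔓.Sh₃ ((0, Z) : C3c S (FX k K)) = ((0, fun q => 𝔓.shL₂ q (Z q)) : 𝔓.C3 k) := by
  refine Prod.ext ?_ (funext fun q => funext fun w => ?_)
  · rfl
  · show 𝔓.shL₂ q (Z q - resTwo q.1 (𝔓.glob.hty3 (0 : GQ × GQ × GQ → XK K → k))) w = _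
    rw [hty3_zero]
    funext t
    simp only [PlaceSys.shL₂, resTwo, Pi.sub_apply, Pi.zero_apply, sub_zero]

end Fermat.Agent.S55.Top.H48

end

end
-- ==== END Fermat.Agent.S55.Top.H48_TQSh

-- ==== BEGIN Fermat.Agent.S56.FL.H15_CC2Wit
section

set_option autoImplicit false
set_option linter.style.haveILetI false
set_option linter.unusedSectionVars false

/-!
# LOC-p-FL, package UNITS / CC2 (helper15): Kummer witnesses

`L/ℚ_p` finite Galois, `N ≤ Gal(K̄/ℚ_p)` a normal subgroup fixing `ζ` (a primitive `p`-th root of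
unity), `ψ : N → ℤ/p`.  A *witness* of `ψ` is `α ∈ Lˣ` with `n α = ζ^{ψ n} α` for all `n ∈ N`.

* `IsWit L N ζ ψ α` and its calculus (`mul`, `div`, `pow`, `conj`).
* `IsWit.zero_of_fixed` : if a witness is fixed by `N` then `ψ = 0` on `N`.
-/

noncomputable section

namespace Fermat.Agent.S56.FL.H15

open scoped NNReal
open Fermat.Agent.S56.FL Fermat.Agent.Lib.LocalKummer Fermat.Agent.S56.FL.H85

variable {p : ℕ} [Fact p.Prime]

/-- `α ∈ Lˣ` is a Kummer witness of `ψ` on `N`. -/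
def IsWit (L : IntermediateField ℚ_[p] (PadicAlgCl p)) (N : Subgroup (Gp p)) (ζ : PadicAlgCl p)
    (ψ : Gp p → ZMod p) (α : PadicAlgCl p) : Prop :=
  α ∈ L ∧ α ≠ 0 ∧ ∀ n ∈ N, n α = zpowZ ζ (ψ n) * α

variable {L : IntermediateField ℚ_[p] (PadicAlgCl p)} {N : Subgroup (Gp p)} {ζ : PadicAlgCl p}
  {ψ ψ' : Gp p → ZMod p} {α α' : PadicAlgCl p}

namespace IsWit

theorem mem (h : IsWit L N ζ ψ α) : α ∈ L := h.1

theorem ne_zero (h : IsWit L N ζ ψ α) : α ≠ 0 := h.2.1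

theorem map (h : IsWit L N ζ ψ α) {n : Gp p} (hn : n ∈ N) : n α = zpowZ ζ (ψ n) * α := h.2.2 n hn

theorem one (L : IntermediateField ℚ_[p] (PadicAlgCl p)) (N : Subgroup (Gp p))
    (ζ : PadicAlgCl p) : IsWit L N ζ (fun _ => 0) 1 :=
  ⟨L.one_mem, one_ne_zero, fun n _ => by rw [map_one, zpowZ_zero, one_mul]⟩

theorem congr (h : IsWit L N ζ ψ α) (hψ : ∀ n ∈ N, ψ n = ψ' n) : IsWit L N ζ ψ' α :=
  ⟨h.1, h.2.1, fun n hn => by rw [← hψ n hn]; exact h.2.2 n hn⟩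

theorem mul (hζ : ζ ^ p = 1) (h : IsWit L N ζ ψ α) (h' : IsWit L N ζ ψ' α') :
    IsWit L N ζ (fun n => ψ n + ψ' n) (α * α') := by
  refine ⟨L.mul_mem h.1 h'.1, mul_ne_zero h.2.1 h'.2.1, fun n hn => ?_⟩
  rw [map_mul, h.2.2 n hn, h'.2.2 n hn, zpowZ_add hζ]
  ring

theorem inv (hζ : ζ ^ p = 1) (h : IsWit L N ζ ψ α) : IsWit L N ζ (fun n => -ψ n) α⁻¹ := by
  refine ⟨L.inv_mem h.1, inv_ne_zero h.2.1, fun n hn => ?_⟩
  have h1 : zpowZ ζ (-ψ n) * zpowZ ζ (ψ n) = 1 := by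
    rw [← zpowZ_add hζ, neg_add_cancel, zpowZ_zero]
  have h0 : zpowZ ζ (ψ n) ≠ 0 := zpowZ_ne_zero hζ _
  rw [map_inv₀, h.2.2 n hn, mul_inv, eq_comm]
  congr 1
  exact eq_inv_of_mul_eq_one_left h1

theorem div (hζ : ζ ^ p = 1) (h : IsWit L N ζ ψ α) (h' : IsWit L N ζ ψ' α') :
    IsWit L N ζ (fun n => ψ n - ψ' n) (α / α') := by
  have := h.mul hζ (h'.inv hζ)
  rw [← div_eq_mul_inv] at this
  exact this.congr fun n _ => by ring

theorem pow (hζ : ζ ^ p = 1) (h : IsWit L N ζ ψ α) (m : ℕ) :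
    IsWit L N ζ (fun n => (m : ZMod p) * ψ n) (α ^ m) := by
  induction m with
  | zero =>
    rw [pow_zero]
    exact (IsWit.one L N ζ).congr fun n _ => by simp
  | succ m ih =>
    rw [pow_succ]
    exact (ih.mul hζ h).congr fun n _ => by push_cast; ring

/-- Conjugation of a witness by an element of the Galois group. -/
theorem conj (hζ : IsPrimitiveRoot ζ p) [Normal ℚ_[p] L] (hN : N.Normal)
    (h : IsWit L N ζ ψ α) (σ : Gp p) :
    IsWit L N ζ (fun n => ((omg hζ σ : (ZMod p)ˣ) : ZMod p) * ψ (σ⁻¹ * n * σ)) (σ α) := by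
  refine ⟨?_, ?_, fun n hn => ?_⟩
  · have := H38.resL_apply σ (⟨α, h.1⟩ : L)
    rw [← this]
    exact (H38.resL L σ ⟨α, h.1⟩).2
  · intro h0
    exact h.2.1 ((map_eq_zero_iff σ σ.injective).mp h0)
  · have hconj : σ⁻¹ * n * σ ∈ N := by
      have := hN.conj_mem n hn σ⁻¹
      rwa [inv_inv] at this
    have h1 : n (σ α) = σ ((σ⁻¹ * n * σ) α) := by
      have : σ * (σ⁻¹ * n * σ) = n * σ := by group
      rw [← AlgEquiv.mul_apply, ← AlgEquiv.mul_apply, this]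
    rw [h1, h.2.2 _ hconj, map_mul, omg_zpowZ hζ]

theorem pow_p_fixed (hζ : ζ ^ p = 1) (h : IsWit L N ζ ψ α) {n : Gp p} (hn : n ∈ N) :
    n (α ^ p) = α ^ p := by
  rw [map_pow, h.2.2 n hn, mul_pow, zpowZ_pow ζ hζ, one_mul]

theorem fixed_of_zero (h : IsWit L N ζ ψ α) (hψ : ∀ n ∈ N, ψ n = 0) {n : Gp p} (hn : n ∈ N) :
    n α = α := by
  rw [h.2.2 n hn, hψ n hn, zpowZ_zero, one_mul]

theorem zero_of_fixed (hζ : IsPrimitiveRoot ζ p) (h : IsWit L N ζ ψ α)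
    (hα : ∀ n ∈ N, n α = α) {n : Gp p} (hn : n ∈ N) : ψ n = 0 := by
  have h1 := h.2.2 n hn
  rw [hα n hn] at h1
  have h2 : zpowZ ζ (ψ n) = 1 := by
    have h3 : (zpowZ ζ (ψ n) - 1) * α = 0 := by rw [sub_mul, one_mul, ← h1, sub_self]
    rcases mul_eq_zero.mp h3 with h4 | h4
    · exact sub_eq_zero.mp h4
    · exact absurd h4 h.2.1
  exact (zpowZ_eq_one_iff hζ _).mp h2

end IsWit

end Fermat.Agent.S56.FL.H15

end

end
-- ==== END Fermat.Agent.S56.FL.H15_CC2Wit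

-- ==== BEGIN Fermat.Agent.S56.FL.H15_CK
section

set_option autoImplicit false
set_option linter.style.haveILetI false

/-!
# LOC-p-FL, package CK (helper15): `Stmt_CK`

Converse of Krasner's lemma (Fontaine, Prop. 1.5) with removal of the defect.

`L/ℚ_p` finite Galois containing `μ_p`, with `(P_m)` for all `m > p/(p-1)`.  Let `r = ‖π‖`,
`r^e = p⁻¹`, `e = a (p-1)`, `H_m = {τ : depth τ ≤ r^m}` (ramification subgroups),
`N(j) = Σ_{m ≤ j} #H_m`, so that `∏_τ max (r^j) (depth τ) = r^{N(j)}`.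
If the ramification is not bounded, let `r^b` be the smallest depth of a `σ₁ ≠ 1` and `k = N(b)`;
then `k > a p`, `b ≥ 2` (because `#H_1 ≤ e`), so `p ∣ #H_m` for `m ≤ b` (wild elements have order
divisible by `p`), hence `p ∣ k` and `k ≥ a p + p`.  The perturbation argument with
`s = k - 1 - e` produces `j` with `N(j) = k - 1`, which is impossible since `N(b-1) ≤ k - 2` and
`N(b) = k`.
-/

noncomputable section

namespace Fermat.Agent.S56.FL.H15

open scoped NNReal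
open Fermat.Agent.S56.FL Module Polynomial

variable {p : ℕ} [Fact p.Prime]

variable (L : IntermediateField ℚ_[p] (PadicAlgCl p))

/-- The ramification subgroup `H_m = {τ : depth τ ≤ ‖π‖^m}`. -/
def ramSub (π : L) (m : ℕ) : Subgroup (L ≃ₐ[ℚ_[p]] L) where
  carrier := {τ | depth p L τ ≤ ‖π‖ ^ m}
  one_mem' := by
    change depth p L 1 ≤ ‖π‖ ^ m
    rw [depth_one]
    positivity
  mul_mem' {σ τ} hσ hτ := (depth_mul_le L σ τ).trans (max_le hσ hτ)
  inv_mem' {σ} hσ := by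
    change depth p L σ⁻¹ ≤ ‖π‖ ^ m
    rw [depth_inv]
    exact hσ

theorem mem_ramSub {π : L} {m : ℕ} {τ : L ≃ₐ[ℚ_[p]] L} :
    τ ∈ ramSub L π m ↔ depth p L τ ≤ ‖π‖ ^ m := Iff.rfl

variable [FiniteDimensional ℚ_[p] L]

open Classical in
/-- The order of `H_m`. -/
def ramCard (π : L) (m : ℕ) : ℕ :=
  (Finset.univ.filter fun τ : L ≃ₐ[ℚ_[p]] L => depth p L τ ≤ ‖π‖ ^ m).card

/-- `N(j) = Σ_{1 ≤ m ≤ j} #H_m`. -/
def ramSum (π : L) (j : ℕ) : ℕ := ∑ m ∈ Finset.range j, ramCard L π (m + 1)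

variable {L}

theorem ramCard_eq_natCard (π : L) (m : ℕ) : ramCard L π m = Nat.card (ramSub L π m) := by
  classical
  rw [Nat.card_eq_fintype_card, ramCard]
  exact (Fintype.card_subtype _).symm

theorem ramCard_pos (π : L) (m : ℕ) : 0 < ramCard L π m := by
  classical
  rw [ramCard, Finset.card_pos]
  exact ⟨1, Finset.mem_filter.mpr ⟨Finset.mem_univ _, (ramSub L π m).one_mem⟩⟩

theorem ramSum_succ (π : L) (j : ℕ) : ramSum L π (j + 1) = ramSum L π j + ramCard L π (j + 1) :=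
  Finset.sum_range_succ _ _

theorem ramSum_mono (π : L) {i j : ℕ} (hij : i ≤ j) : ramSum L π i ≤ ramSum L π j := by
  induction j with
  | zero =>
    have : i = 0 := by omega
    rw [this]
  | succ j ih =>
    rcases Nat.eq_or_lt_of_le hij with h | h
    · rw [h]
    · rw [ramSum_succ]
      exact (ih (by omega)).trans (Nat.le_add_right _ _)

/-- `∏_τ max (r^j) (depth τ) = r^{N(j)}`. -/
theorem prod_max_pow {x π : L} {q : ℕ} (h : IsGoodGen L x π q) (j : ℕ) :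
    ∏ τ : L ≃ₐ[ℚ_[p]] L, max (‖π‖ ^ j) (depth p L τ) = ‖π‖ ^ ramSum L π j := by
  classical
  obtain ⟨hx, hπ0, hπ1, hπmax, hxq, hres⟩ := id h
  induction j with
  | zero =>
    rw [ramSum, Finset.range_zero, Finset.sum_empty, pow_zero]
    refine Finset.prod_eq_one fun τ _ => ?_
    exact max_eq_left (depth_le_one L τ)
  | succ j ih =>
    have hpt : ∀ τ : L ≃ₐ[ℚ_[p]] L, max (‖π‖ ^ (j + 1)) (depth p L τ)
        = max (‖π‖ ^ j) (depth p L τ) * (if depth p L τ ≤ ‖π‖ ^ (j + 1) then ‖π‖ else 1) := by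
      intro τ
      split_ifs with hle
      · rw [max_eq_left hle, max_eq_left, pow_succ]
        exact hle.trans (pow_le_pow_of_le_one hπ0.le hπ1.le (Nat.le_succ j))
      · have hlt : ‖π‖ ^ (j + 1) < depth p L τ := not_le.mp hle
        have hge : ‖π‖ ^ j ≤ depth p L τ := by
          by_contra hcon
          exact hle (depth_le_pow_succ h τ j (not_le.mp hcon))
        rw [max_eq_right hlt.le, max_eq_right hge, mul_one]
    calc ∏ τ : L ≃ₐ[ℚ_[p]] L, max (‖π‖ ^ (j + 1)) (depth p L τ)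
        = ∏ τ : L ≃ₐ[ℚ_[p]] L, (max (‖π‖ ^ j) (depth p L τ)
            * (if depth p L τ ≤ ‖π‖ ^ (j + 1) then ‖π‖ else 1)) :=
          Finset.prod_congr rfl fun τ _ => hpt τ
      _ = (∏ τ : L ≃ₐ[ℚ_[p]] L, max (‖π‖ ^ j) (depth p L τ))
            * ∏ τ : L ≃ₐ[ℚ_[p]] L, (if depth p L τ ≤ ‖π‖ ^ (j + 1) then ‖π‖ else 1) :=
          Finset.prod_mul_distrib
      _ = ‖π‖ ^ ramSum L π j * ‖π‖ ^ ramCard L π (j + 1) := by
          rw [ih, Finset.prod_ite, Finset.prod_const, Finset.prod_const_one, mul_one]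
          rfl
      _ = ‖π‖ ^ ramSum L π (j + 1) := by rw [ramSum_succ, pow_add]

/-- `Stmt_CK` for every prime `p` (the hypothesis `p ≠ 2` of `Stmt_CK` is not used). -/
theorem ck_all (p : ℕ) [Fact p.Prime] (L : IntermediateField ℚ_[p] (PadicAlgCl p))
    [FiniteDimensional ℚ_[p] L] (hN : Normal ℚ_[p] L) (hζ : ∃ ζ ∈ L, ζ ≠ 1 ∧ ζ ^ p = 1)
    (hPM : HasPM p L) : IsBddField p L := by
  classical
  have hp : p.Prime := Fact.out
  obtain ⟨x, π, q, h, hq⟩ := exists_goodGen_q L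
  obtain ⟨Pz, hP⟩ := exists_isMinZ hN h
  obtain ⟨hx, hπ0, hπ1, hπmax, hxq, hres⟩ := id h
  obtain ⟨e, he0, he⟩ := exists_ramIdx hπ0 hπ1 hπmax
  set r : ℝ := ‖π‖ with hr
  -- `e = a (p - 1)`
  obtain ⟨ζ, hζL, hζ1, hζp⟩ := hζ
  have hz := norm_zeta_sub_one hζ1 hζp
  have hzne : (⟨ζ, hζL⟩ : L) - 1 ≠ 0 := by
    intro h0
    exact hζ1 (congrArg Subtype.val (sub_eq_zero.mp h0))
  have hzle : ‖(⟨ζ, hζL⟩ : L) - 1‖ ≤ 1 := by
    have h1 : ‖ζ - 1‖ ^ (p - 1) ≤ 1 := by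
      rw [hz]; exact (inv_lt_one_of_one_lt₀ one_lt_p_real).le
    have h2 : ‖ζ - 1‖ ≤ 1 := by
      by_contra hcon
      have := one_lt_pow₀ (not_le.mp hcon) (Nat.sub_ne_zero_of_lt hp.one_lt)
      linarith
    exact h2
  obtain ⟨a, ha⟩ := exists_norm_eq_pow L hπ0 hπ1 hπmax _ hzne hzle
  have ha' : ‖ζ - 1‖ = r ^ a := ha
  have hea : e = a * (p - 1) := by
    rw [ha', ← pow_mul, ← he] at hz
    exact (pow_right_injective₀ hπ0 hπ1.ne hz).symm
  -- assume the ramification is not bounded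
  by_contra hnot
  obtain ⟨σ₀, hσ₀, hlt⟩ : ∃ σ₀ : L ≃ₐ[ℚ_[p]] L, σ₀ ≠ 1 ∧
      (∏ τ : L ≃ₐ[ℚ_[p]] L, max (depth p L σ₀) (depth p L τ)) ^ (p - 1) < ((p : ℝ)⁻¹) ^ p := by
    by_contra hcon
    apply hnot
    intro σ hσ
    by_contra hlt
    exact hcon ⟨σ, hσ, not_le.mp hlt⟩
  -- the deepest nontrivial element
  obtain ⟨σ₁, hσ₁mem, hσ₁min⟩ := Finset.exists_min_image
    (Finset.univ.filter fun σ : L ≃ₐ[ℚ_[p]] L => σ ≠ 1) (fun σ => depth p L σ)
    ⟨σ₀, Finset.mem_filter.mpr ⟨Finset.mem_univ _, hσ₀⟩⟩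
  have hσ₁ : σ₁ ≠ 1 := (Finset.mem_filter.mp hσ₁mem).2
  have hmin : ∀ σ : L ≃ₐ[ℚ_[p]] L, σ ≠ 1 → depth p L σ₁ ≤ depth p L σ := fun σ hσ =>
    hσ₁min σ (Finset.mem_filter.mpr ⟨Finset.mem_univ _, hσ⟩)
  obtain ⟨b, hb⟩ := depth_eq_pow h hσ₁
  set k := ramSum L π b with hk
  -- `k (p - 1) > e p`
  have hΨle : ∏ τ : L ≃ₐ[ℚ_[p]] L, max (r ^ b) (depth p L τ)
      ≤ ∏ τ : L ≃ₐ[ℚ_[p]] L, max (depth p L σ₀) (depth p L τ) := by
    refine Finset.prod_le_prod (fun τ _ => le_max_of_le_right (depth_nonneg L τ)) fun τ _ => ?_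
    exact max_le_max (by rw [← hb]; exact hmin σ₀ hσ₀) le_rfl
  have hklt : (r ^ k) ^ (p - 1) < (r ^ e) ^ p := by
    rw [he, hk, ← prod_max_pow h b]
    refine lt_of_le_of_lt (pow_le_pow_left₀ ?_ hΨle _) hlt
    exact Finset.prod_nonneg fun τ _ => le_max_of_le_right (depth_nonneg L τ)
  have hkp : e * p < k * (p - 1) := by
    rw [← pow_mul, ← pow_mul] at hklt
    exact (pow_lt_pow_iff_right_of_lt_one₀ hπ0 hπ1).mp hklt
  have hp1 : 1 ≤ p - 1 := Nat.le_sub_one_of_lt hp.one_lt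
  have hpp : p - 1 + 1 = p := Nat.sub_add_cancel hp.one_le
  -- `#H_1 ≤ e`
  have hcard1 : ramCard L π 1 ≤ e := by
    refine le_trans (Finset.card_le_card ?_) (card_inertia_le h hq hP he)
    intro τ hτ
    rw [Finset.mem_filter] at hτ ⊢
    refine ⟨hτ.1, lt_of_le_of_lt hτ.2 ?_⟩
    rw [pow_one]; exact hπ1
  -- `b ≥ 2`
  have hb2 : 2 ≤ b := by
    by_contra hcon
    have hb1 : b ≤ 1 := by omega
    have h1 : k ≤ ramSum L π 1 := ramSum_mono π hb1
    have h2 : ramSum L π 1 = ramCard L π 1 := by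
      rw [ramSum, Finset.sum_range_one]
    have h3 : k ≤ e := by rw [h2] at h1; exact h1.trans hcard1
    have h4 : k * (p - 1) ≤ e * (p - 1) := Nat.mul_le_mul_right _ h3
    have h5 : e * (p - 1) ≤ e * p := Nat.mul_le_mul_left _ (Nat.sub_le p 1)
    omega
  -- `p ∣ #H_m` for `m ≤ b`
  have hσ₁wild : depth p L σ₁ < ‖π‖ := by
    rw [hb]
    calc r ^ b ≤ r ^ 2 := pow_le_pow_of_le_one hπ0.le hπ1.le hb2
      _ = r * r := by ring
      _ < 1 * r := mul_lt_mul_of_pos_right hπ1 hπ0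
      _ = r := one_mul _
  have hpord : p ∣ orderOf σ₁ := dvd_orderOf_of_depth_lt h hσ₁ hσ₁wild
  have hpcard : ∀ m, m ≤ b → p ∣ ramCard L π m := by
    intro m hm
    rw [ramCard_eq_natCard]
    refine hpord.trans (Subgroup.orderOf_dvd_natCard _ ?_)
    rw [mem_ramSub, hb]
    exact pow_le_pow_of_le_one hπ0.le hπ1.le hm
  have hpk : p ∣ k := by
    rw [hk, ramSum]
    refine Finset.dvd_sum fun m hm => hpcard (m + 1) ?_
    have := Finset.mem_range.mp hm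
    omega
  -- `k ≥ a p + p`
  have hkap : a * p + p ≤ k := by
    obtain ⟨k', hk'⟩ := hpk
    have h1 : a * (p - 1) * p < p * k' * (p - 1) := by rw [← hk', ← hea]; exact hkp
    have h2 : a * ((p - 1) * p) < k' * ((p - 1) * p) := by
      calc a * ((p - 1) * p) = a * (p - 1) * p := by ring
        _ < p * k' * (p - 1) := h1
        _ = k' * ((p - 1) * p) := by ring
    have h3 : a < k' := lt_of_mul_lt_mul_right h2 (Nat.zero_le _)
    rw [hk']
    calc a * p + p = p * (a + 1) := by ring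
      _ ≤ p * k' := Nat.mul_le_mul_left _ h3
  -- `e ≤ a p`
  have heap : e + a = a * p := by
    rw [hea]
    calc a * (p - 1) + a = a * (p - 1 + 1) := by ring
      _ = a * p := by rw [hpp]
  have hp2' : 2 ≤ p := hp.two_le
  -- the perturbation with `s = k - 1 - e`
  set s := k - 1 - e with hs
  have hs1 : 1 ≤ s := by omega
  have hes : e + s = k - 1 := by omega
  have hc : (‖π‖ ^ (e + s)) ^ (p - 1) < ((p : ℝ)⁻¹) ^ p := by
    rw [← he, ← pow_mul, ← pow_mul, hes]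
    refine (pow_lt_pow_iff_right_of_lt_one₀ hπ0 hπ1).mpr ?_
    have h1 : a * p + 1 ≤ k - 1 := by omega
    calc e * p = a * (p - 1) * p := by rw [hea]
      _ = a * p * (p - 1) := by ring
      _ < (a * p + 1) * (p - 1) := by
          refine Nat.mul_lt_mul_of_pos_right (Nat.lt_succ_self _) (by omega)
      _ ≤ (k - 1) * (p - 1) := Nat.mul_le_mul_right _ h1
  obtain ⟨j, hj2, hj⟩ := exists_pert h hq hP he hPM hs1 hc
  rw [prod_max_pow h j, hes] at hj
  have hNj : ramSum L π j = k - 1 := pow_right_injective₀ hπ0 hπ1.ne hj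
  -- `N(b - 1) ≤ k - 2`
  have hcardb : 2 ≤ ramCard L π b := by
    have h1 := hpcard b le_rfl
    have h2 := ramCard_pos π b
    exact hp2'.trans (Nat.le_of_dvd h2 h1)
  rcases Nat.lt_or_ge j b with hjb | hjb
  · have h1 : ramSum L π j ≤ ramSum L π (b - 1) := ramSum_mono π (by omega)
    have h2 : ramSum L π (b - 1 + 1) = ramSum L π (b - 1) + ramCard L π (b - 1 + 1) :=
      ramSum_succ π (b - 1)
    have h3 : b - 1 + 1 = b := by omega
    rw [h3] at h2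
    omega
  · have h1 : k ≤ ramSum L π j := ramSum_mono π hjb
    omega

theorem stmt_CK : Stmt_CK := fun p _ _ L _ hN hζ hPM => ck_all p L hN hζ hPM

end Fermat.Agent.S56.FL.H15

end

end
-- ==== END Fermat.Agent.S56.FL.H15_CK

-- ==== BEGIN Fermat.Agent.S56.FL.H38_CC1Leaves
section

set_option autoImplicit false

/-!
# LOC-p-FL, CC1z leaves NORMDESC, RESFIX (helper38)

* `stmt_ResFix`   : a residue class of `K = K̄^H` (`[G : H]` prime to `p`) fixed by the Galois group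
                    is in `𝔽_p`.
* `stmt_NormDesc` : norm descent from `K(ζ_p)` to `K`.
-/

noncomputable section

namespace Fermat.Agent.S56.FL.H38

open scoped NNReal
open Fermat.Agent.S56.FL Polynomial Module

variable {p : ℕ} [Fact p.Prime]

/-- An element of `K̄` fixed by `Gal(K̄/ℚ_p)` is in `ℚ_p`. -/
theorem exists_rat_of_fixed {t : PadicAlgCl p} (h : ∀ σ : Gp p, σ t = t) :
    ∃ c : ℚ_[p], algebraMap ℚ_[p] (PadicAlgCl p) c = t := by
  have h1 : t ∈ (⊥ : IntermediateField ℚ_[p] (PadicAlgCl p)) :=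
    mem_of_fixed_by_fixingSubgroup (L := ⊥) (fun σ _ => h σ)
  exact IntermediateField.mem_bot.mp h1

/-- A finite product of elements `≡ 1` modulo `r` is `≡ 1` modulo `r`. -/
theorem norm_prod_sub_one_le {ι : Type*} (s : Finset ι) (f : ι → PadicAlgCl p) {r : ℝ}
    (hr0 : 0 ≤ r) (hr : r ≤ 1) (h : ∀ i ∈ s, ‖f i - 1‖ ≤ r) : ‖∏ i ∈ s, f i - 1‖ ≤ r := by
  classical
  induction s using Finset.induction_on with
  | empty => simpa using hr0
  | insert a s ha ih =>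
    rw [Finset.prod_insert ha]
    have h1 : ‖∏ i ∈ s, f i - 1‖ ≤ r := ih fun i hi => h i (Finset.mem_insert_of_mem hi)
    have h2 : ‖∏ i ∈ s, f i‖ ≤ 1 := by
      have h3 : ∏ i ∈ s, f i = (∏ i ∈ s, f i - 1) + 1 := by ring
      rw [h3]
      exact (IsUltrametricDist.norm_add_le_max _ _).trans
        (max_le (h1.trans hr) (by rw [norm_one]))
    have h4 : f a * ∏ i ∈ s, f i - 1 = (f a - 1) * ∏ i ∈ s, f i + (∏ i ∈ s, f i - 1) := by ring
    rw [h4]
    refine (IsUltrametricDist.norm_add_le_max _ _).trans (max_le ?_ h1)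
    rw [norm_mul]
    calc ‖f a - 1‖ * ‖∏ i ∈ s, f i‖ ≤ r * 1 :=
          mul_le_mul (h a (Finset.mem_insert_self a s)) h2 (norm_nonneg _) hr0
      _ = r := mul_one _

/-- **RESFIX**: `H85.Stmt_ResFix`. -/
theorem stmt_ResFix : H85.Stmt_ResFix := by
  intro p _ H _ hpn x hx hH hG
  classical
  have hp : p.Prime := Fact.out
  let _ : Fintype (Gp p ⧸ H) := Fintype.ofFinite _
  set n : ℕ := Nat.card (Gp p ⧸ H) with hn
  set F : Gp p ⧸ H → PadicAlgCl p := fun c => (Quotient.out c : Gp p) x with hFdef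
  have hF : ∀ g : Gp p, F (QuotientGroup.mk g) = g x := by
    intro g
    obtain ⟨h, hh⟩ := QuotientGroup.mk_out_eq_mul H g
    have h1 : F (QuotientGroup.mk g) = ((QuotientGroup.mk g : Gp p ⧸ H).out) x := rfl
    rw [h1, hh, AlgEquiv.mul_apply, hH h h.2]
  set t : PadicAlgCl p := ∑ c, F c with ht
  have ht_fix : ∀ g : Gp p, g t = t := by
    intro g
    rw [ht, map_sum]
    have key : ∀ c : Gp p ⧸ H, g (F c) = F (g • c) := by
      intro c
      induction c using QuotientGroup.induction_on with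
      | H σ =>
        have h2 : g • (QuotientGroup.mk σ : Gp p ⧸ H) = QuotientGroup.mk (g * σ) := rfl
        rw [hF, h2, hF, AlgEquiv.mul_apply]
    rw [Finset.sum_congr rfl (fun c _ => key c)]
    exact Fintype.sum_equiv (MulAction.toPerm g) _ _ (fun c => rfl)
  obtain ⟨c, hc⟩ := exists_rat_of_fixed ht_fix
  have hF1 : ∀ c, ‖F c‖ ≤ 1 := by
    intro c
    rw [hFdef]
    simp only [norm_gal]
    exact hx
  have ht1 : ‖t‖ ≤ 1 :=
    IsUltrametricDist.norm_sum_le_of_forall_le_of_nonneg zero_le_one (fun c _ => hF1 c)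
  have hc1 : ‖c‖ ≤ 1 := by
    rw [← PadicAlgCl.norm_extends, hc]
    exact ht1
  set z : ℤ_[p] := ⟨c, hc1⟩ with hz
  obtain ⟨j₀, -, hj₀⟩ := PadicInt.exists_mem_range (x := z)
  have hcj : ‖c - (j₀ : ℚ_[p])‖ < 1 := by
    have h1 := (PadicInt.mem_nonunits).mp ((IsLocalRing.mem_maximalIdeal _).mp hj₀)
    have h2 : ‖z - (j₀ : ℤ_[p])‖ = ‖c - (j₀ : ℚ_[p])‖ := by
      rw [PadicInt.norm_def]
      push_cast
      rfl
    rwa [h2] at h1
  have htj : ‖t - (j₀ : PadicAlgCl p)‖ < 1 := by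
    have h1 : t - (j₀ : PadicAlgCl p) = algebraMap ℚ_[p] (PadicAlgCl p) (c - (j₀ : ℚ_[p])) := by
      rw [map_sub, hc, map_natCast]
    rw [h1, PadicAlgCl.norm_extends]
    exact hcj
  have htn : ‖t - (n : PadicAlgCl p) * x‖ < 1 := by
    have h1 : t - (n : PadicAlgCl p) * x = ∑ c : Gp p ⧸ H, (F c - x) := by
      rw [Finset.sum_sub_distrib, Finset.sum_const, Finset.card_univ, nsmul_eq_mul, hn,
        Nat.card_eq_fintype_card]
    rw [h1]
    obtain ⟨i, -, hi⟩ := IsUltrametricDist.exists_norm_finsetSum_le_of_nonempty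
      (Finset.univ_nonempty (α := Gp p ⧸ H)) (fun c => F c - x)
    exact lt_of_le_of_lt hi (hG _)
  have hcop : Nat.Coprime n p := by
    rw [Nat.coprime_comm]
    exact (Nat.Prime.coprime_iff_not_dvd hp).mpr hpn
  obtain ⟨n', -, hn'⟩ := Nat.exists_mul_mod_eq_one_of_coprime hcop hp.one_lt
  have hnn : ‖((n * n' : ℕ) : PadicAlgCl p) - 1‖ < 1 := by
    have h1 : 1 ≤ n * n' := by
      rcases Nat.eq_zero_or_pos (n * n') with h | h
      · rw [h] at hn'
        simp at hn'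
      · exact h
    have h2 : ((n * n' : ℕ) : PadicAlgCl p) - 1 = ((n * n' - 1 : ℕ) : PadicAlgCl p) := by
      rw [Nat.cast_sub h1, Nat.cast_one]
    rw [h2, norm_natCast_algCl_lt_one]
    exact (Nat.modEq_iff_dvd' h1).mp (by
      rw [Nat.ModEq, hn', Nat.mod_eq_of_lt hp.one_lt])
  refine ⟨n' * j₀, ?_⟩
  have h3 : x - ((n' * j₀ : ℕ) : PadicAlgCl p)
      = -((((n * n' : ℕ) : PadicAlgCl p) - 1) * x) + (n' : PadicAlgCl p) *
        (-(t - (n : PadicAlgCl p) * x) + (t - (j₀ : PadicAlgCl p))) := by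
    push_cast
    ring
  rw [h3]
  refine (IsUltrametricDist.norm_add_le_max _ _).trans_lt (max_lt ?_ ?_)
  · rw [norm_neg, norm_mul]
    calc ‖((n * n' : ℕ) : PadicAlgCl p) - 1‖ * ‖x‖ ≤ ‖((n * n' : ℕ) : PadicAlgCl p) - 1‖ * 1 :=
          mul_le_mul_of_nonneg_left hx (norm_nonneg _)
      _ < 1 := by rw [mul_one]; exact hnn
  · rw [norm_mul]
    have h4 : ‖-(t - (n : PadicAlgCl p) * x) + (t - (j₀ : PadicAlgCl p))‖ < 1 :=
      (IsUltrametricDist.norm_add_le_max _ _).trans_lt (max_lt (by rwa [norm_neg]) htj)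
    calc ‖(n' : PadicAlgCl p)‖ * ‖-(t - (n : PadicAlgCl p) * x) + (t - (j₀ : PadicAlgCl p))‖
        ≤ 1 * ‖-(t - (n : PadicAlgCl p) * x) + (t - (j₀ : PadicAlgCl p))‖ :=
          mul_le_mul_of_nonneg_right (norm_natCast_algCl_le_one n') (norm_nonneg _)
      _ < 1 := by rw [one_mul]; exact h4

/-- **NORMDESC**: `H85.Stmt_NormDesc`. -/
theorem stmt_NormDesc : H85.Stmt_NormDesc := by
  intro p _ ζ hζ H a b ha ha0 hb hb0 hab
  classical
  have hp : p.Prime := Fact.out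
  have hp0 : (0 : ℝ) < p := H15.p_pos_real
  have hpinv0 : (0 : ℝ) ≤ (p : ℝ)⁻¹ := inv_nonneg.mpr hp0.le
  have hpinv1 : (p : ℝ)⁻¹ ≤ 1 := (inv_lt_one_of_one_lt₀ H15.one_lt_p_real).le
  set C : Subgroup (ZMod p)ˣ := H.map (H85.omg hζ) with hC
  let _ : Fintype C := Fintype.ofFinite _
  have hex : ∀ u : C, ∃ τ ∈ H, H85.omg hζ τ = u := by
    rintro ⟨u, τ, hτ, rfl⟩
    exact ⟨τ, hτ, rfl⟩
  choose T hTH hTω using hex
  set Nb : PadicAlgCl p := ∏ u : C, T u b with hNb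
  have hNb0 : Nb ≠ 0 := by
    rw [hNb]
    exact Finset.prod_ne_zero_iff.mpr (fun u _ => (_root_.map_ne_zero _).mpr hb0)
  have hfix : ∀ s ∈ H, s Nb = Nb := by
    intro s hs
    have hsC : H85.omg hζ s ∈ C := ⟨s, hs, rfl⟩
    have key : ∀ u : C, s (T u b) = T (⟨H85.omg hζ s, hsC⟩ * u) b := by
      intro u
      set v : C := ⟨H85.omg hζ s, hsC⟩ * u with hv
      have hvval : (v : (ZMod p)ˣ) = H85.omg hζ s * (u : (ZMod p)ˣ) := rfl
      have h1 : (T v)⁻¹ * s * T u ∈ H := H.mul_mem (H.mul_mem (H.inv_mem (hTH v)) hs) (hTH u)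
      have h2 : H85.omg hζ ((T v)⁻¹ * s * T u) = 1 := by
        rw [map_mul, map_mul, map_inv, hTω, hTω, hvval]
        group
      have h3 : ((T v)⁻¹ * s * T u) ζ = ζ := (H85.omg_eq_one_iff hζ _).mp h2
      have h4 := hb _ h1 h3
      rw [AlgEquiv.mul_apply, AlgEquiv.mul_apply] at h4
      have h5 := congrArg (T v) h4
      rwa [← AlgEquiv.mul_apply (T v) (T v)⁻¹, mul_inv_cancel, AlgEquiv.one_apply] at h5
    rw [hNb, map_prod, Finset.prod_congr rfl (fun u _ => key u)]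
    exact Fintype.prod_equiv (Equiv.mulLeft (⟨H85.omg hζ s, hsC⟩ : C)) _ _ (fun u => rfl)
  set d : ℕ := Fintype.card C with hd
  have hdvd : d ∣ p - 1 := by
    have h1 := Subgroup.card_subgroup_dvd_card C
    rwa [Nat.card_eq_fintype_card, Nat.card_eq_fintype_card, ZMod.card_units_eq_totient,
      Nat.totient_prime hp] at h1
  have hdp : Nat.Coprime d p := by
    have h1 : Nat.Coprime (p - 1) p := by
      rw [Nat.coprime_comm]
      apply (Nat.Prime.coprime_iff_not_dvd hp).mpr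
      intro h
      have h2 := hp.two_le
      have h3 := Nat.le_of_dvd (by omega) h
      omega
    exact Nat.Coprime.coprime_dvd_left hdvd h1
  obtain ⟨d', -, hd'⟩ := Nat.exists_mul_mod_eq_one_of_coprime hdp hp.one_lt
  obtain ⟨m, hdd⟩ : ∃ m : ℕ, d * d' = 1 + p * m := by
    have h1 := Nat.div_add_mod (d * d') p
    rw [hd'] at h1
    exact ⟨d * d' / p, by rw [add_comm]; exact h1.symm⟩
  have hprod : a ^ d * Nb ^ p = ∏ u : C, T u (a * b ^ p) := by
    simp only [map_mul, map_pow]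
    rw [Finset.prod_mul_distrib, Finset.prod_pow, ← hNb]
    congr 1
    rw [Finset.prod_congr rfl (fun u _ => ha _ (hTH u)), Finset.prod_const, Finset.card_univ]
  have hN1 : ‖a ^ d * Nb ^ p - 1‖ ≤ (p : ℝ)⁻¹ := by
    rw [hprod]
    apply norm_prod_sub_one_le _ _ hpinv0 hpinv1
    intro u _
    have h1 : T u (a * b ^ p) - 1 = T u (a * b ^ p - 1) := by rw [map_sub, map_one]
    rw [h1, norm_gal]
    exact hab
  have hu1 : ‖a ^ d * Nb ^ p‖ ≤ 1 := by
    have h1 : a ^ d * Nb ^ p = (a ^ d * Nb ^ p - 1) + 1 := by ring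
    rw [h1]
    exact (IsUltrametricDist.norm_add_le_max _ _).trans
      (max_le (hN1.trans hpinv1) (by rw [norm_one]))
  refine ⟨a ^ m * Nb ^ d', mul_ne_zero (pow_ne_zero _ ha0) (pow_ne_zero _ hNb0), ?_, ?_⟩
  · intro s hs
    rw [map_mul, map_pow, map_pow, ha s hs, hfix s hs]
  · have h1 : a * (a ^ m * Nb ^ d') ^ p = (a ^ d * Nb ^ p) ^ d' := by
      have h2 : a * (a ^ m * Nb ^ d') ^ p = a ^ (1 + p * m) * Nb ^ (d' * p) := by
        rw [mul_pow, ← pow_mul, ← pow_mul, pow_add, pow_one, mul_assoc, mul_comm m p]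
      rw [h2, ← hdd, mul_pow, ← pow_mul, ← pow_mul, mul_comm p d']
    rw [h1]
    calc ‖(a ^ d * Nb ^ p) ^ d' - 1‖ = ‖(a ^ d * Nb ^ p) ^ d' - 1 ^ d'‖ := by rw [one_pow]
      _ ≤ ‖a ^ d * Nb ^ p - 1‖ := norm_pow_sub_pow_le' hu1 (by rw [norm_one]) d'
      _ ≤ (p : ℝ)⁻¹ := hN1

end Fermat.Agent.S56.FL.H38

end

end
-- ==== END Fermat.Agent.S56.FL.H38_CC1Leaves

-- ==== BEGIN Fermat.Agent.S56.FL.H54_FLB
section

/-!
# LOC-p-FL, package BRIDGE-2 (helper54): `Stmt_FL_B`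

`Stmt_SUBQ` transported to flat Galois modules: for a finite flat `G_ℚ`-module `M` killed by `p`
and `G_p`-stable subgroups `M₁ ≤ M₂` with inertia acting trivially on `M₂/M₁`:
`M₂ ∩ (I - 1) M ⊆ M₁`.

* `IsRed x` : the point `x` reduces to the identity; `isRed_one`, `isRed_mul`, `isRed_pow`;
* `isRed_comm` : for `σ` in the inertia group and `x * z = 1`, the point `σ x * z` reduces to the
  identity.
-/

set_option autoImplicit false
set_option linter.unusedSectionVars false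
set_option linter.style.haveILetI false

noncomputable section

namespace Fermat.Agent.S56.FL.H54

open scoped NNReal TensorProduct
open Fermat.Agent.S56.FL Fermat.Agent.R.H54 WithConv

variable {p : ℕ} [Fact p.Prime]
variable {H : Type} [CommRing H] [HopfAlgebra (Zloc p) H] [Module.Finite (Zloc p) H]

/-- The point `x` reduces to the identity. -/
def IsRed (x : WithConv (H →ₐ[Zloc p] PadicAlgCl p)) : Prop :=
  ∀ h : H, ‖x.ofConv h - algebraMap (Zloc p) (PadicAlgCl p) (Coalgebra.counit h)‖ < 1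

theorem one_apply_eq (h : H) :
    (1 : WithConv (H →ₐ[Zloc p] PadicAlgCl p)).ofConv h =
      algebraMap (Zloc p) (PadicAlgCl p) (Coalgebra.counit h) := by
  have h1 : (1 : WithConv (H →ₐ[Zloc p] PadicAlgCl p)).ofConv h =
      (1 : WithConv (H →ₐ[Zloc p] PadicAlgCl p)) h := rfl
  rw [h1, AlgHom.convOne_apply]

theorem isRed_one : IsRed (1 : WithConv (H →ₐ[Zloc p] PadicAlgCl p)) := by
  intro h
  rw [one_apply_eq, sub_self, norm_zero]
  exact zero_lt_one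

/-- Congruent points have congruent products. -/
theorem norm_conv_sub_lt (x x' y y' : WithConv (H →ₐ[Zloc p] PadicAlgCl p))
    (hx : ∀ h : H, ‖x.ofConv h - x'.ofConv h‖ < 1)
    (hy : ∀ h : H, ‖y.ofConv h - y'.ofConv h‖ < 1) (h : H) :
    ‖(x * y).ofConv h - (x' * y').ofConv h‖ < 1 := by
  have key : ∀ t : H ⊗[Zloc p] H,
      ‖LinearMap.mul' (Zloc p) (PadicAlgCl p)
          (TensorProduct.map x.ofConv.toLinearMap y.ofConv.toLinearMap t) -
        LinearMap.mul' (Zloc p) (PadicAlgCl p)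
          (TensorProduct.map x'.ofConv.toLinearMap y'.ofConv.toLinearMap t)‖ < 1 := by
    intro t
    induction t using TensorProduct.induction_on with
    | zero => simp
    | tmul a b =>
      simp only [TensorProduct.map_tmul, LinearMap.mul'_apply, AlgHom.toLinearMap_apply]
      have h1 : x.ofConv a * y.ofConv b - x'.ofConv a * y'.ofConv b =
          (x.ofConv a - x'.ofConv a) * y.ofConv b +
            x'.ofConv a * (y.ofConv b - y'.ofConv b) := by ring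
      rw [h1]
      refine (IsUltrametricDist.norm_add_le_max _ _).trans_lt (max_lt ?_ ?_)
      · rw [norm_mul]
        calc ‖x.ofConv a - x'.ofConv a‖ * ‖y.ofConv b‖
            ≤ ‖x.ofConv a - x'.ofConv a‖ * 1 :=
              mul_le_mul_of_nonneg_left (norm_point_le_one y.ofConv b) (norm_nonneg _)
          _ < 1 := by rw [mul_one]; exact hx a
      · rw [norm_mul]
        calc ‖x'.ofConv a‖ * ‖y.ofConv b - y'.ofConv b‖
            ≤ 1 * ‖y.ofConv b - y'.ofConv b‖ :=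
              mul_le_mul_of_nonneg_right (norm_point_le_one x'.ofConv a) (norm_nonneg _)
          _ < 1 := by rw [one_mul]; exact hy b
    | add s t hs ht =>
      have h1 : LinearMap.mul' (Zloc p) (PadicAlgCl p)
            (TensorProduct.map x.ofConv.toLinearMap y.ofConv.toLinearMap (s + t)) -
          LinearMap.mul' (Zloc p) (PadicAlgCl p)
            (TensorProduct.map x'.ofConv.toLinearMap y'.ofConv.toLinearMap (s + t)) =
          (LinearMap.mul' (Zloc p) (PadicAlgCl p)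
            (TensorProduct.map x.ofConv.toLinearMap y.ofConv.toLinearMap s) -
          LinearMap.mul' (Zloc p) (PadicAlgCl p)
            (TensorProduct.map x'.ofConv.toLinearMap y'.ofConv.toLinearMap s)) +
          (LinearMap.mul' (Zloc p) (PadicAlgCl p)
            (TensorProduct.map x.ofConv.toLinearMap y.ofConv.toLinearMap t) -
          LinearMap.mul' (Zloc p) (PadicAlgCl p)
            (TensorProduct.map x'.ofConv.toLinearMap y'.ofConv.toLinearMap t)) := by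
        simp only [map_add]
        ring
      rw [h1]
      exact (IsUltrametricDist.norm_add_le_max _ _).trans_lt (max_lt hs ht)
  have h1 : (x * y).ofConv h = (x * y : Pts (Zloc p) H (PadicAlgCl p)) h := rfl
  have h2 : (x' * y').ofConv h = (x' * y' : Pts (Zloc p) H (PadicAlgCl p)) h := rfl
  rw [h1, h2, convMul_apply', convMul_apply']
  exact key _

theorem isRed_mul {x y : WithConv (H →ₐ[Zloc p] PadicAlgCl p)} (hx : IsRed x) (hy : IsRed y) :
    IsRed (x * y) := by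
  intro h
  have h1 := norm_conv_sub_lt x 1 y 1
    (fun a => by rw [one_apply_eq]; exact hx a) (fun a => by rw [one_apply_eq]; exact hy a) h
  rw [mul_one, one_apply_eq] at h1
  exact h1

theorem isRed_pow {x : WithConv (H →ₐ[Zloc p] PadicAlgCl p)} (hx : IsRed x) (n : ℕ) :
    IsRed (x ^ n) := by
  induction n with
  | zero => rw [pow_zero]; exact isRed_one
  | succ n ih => rw [pow_succ]; exact isRed_mul ih hx

/-- For `σ` in the inertia group and `x * z = 1`, the point `σ x * z` reduces to the identity. -/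
theorem isRed_comm {σ : Gp p} (hσ : σ ∈ inertiaP p)
    {x z : WithConv (H →ₐ[Zloc p] PadicAlgCl p)} (hxz : x * z = 1) :
    IsRed (pointAct σ x * z) := by
  intro h
  have h1 := norm_conv_sub_lt (pointAct σ x) x z z
    (fun a => hσ (x.ofConv a) (norm_point_le_one x.ofConv a))
    (fun a => by rw [sub_self, norm_zero]; exact zero_lt_one) h
  rw [hxz, one_apply_eq] at h1
  exact h1

/-- **FL_B** (BRIDGE-2). -/
theorem stmt_FL_B : Stmt_FL_B := by
  intro p _ hp2 M _ act hkill hflat M₁ M₂ h12 hst1 hst2 hin m hm2 hmI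
  have hp : p.Prime := Fact.out
  obtain ⟨H, _, _, hfin, hflatH, hcoc, e, hmul, hact⟩ := exists_local_model hflat
  haveI := hfin
  haveI := hflatH
  haveI := hcoc
  have hkillH : ∀ x : WithConv (H →ₐ[Zloc p] PadicAlgCl p), x ^ p = 1 :=
    pow_eq_one_of_kill e hmul hkill
  have he1 : e 1 = 0 := by
    have := hmul 1 1
    rw [mul_one] at this
    exact left_eq_add.mp this
  have hepow : ∀ (x : WithConv (H →ₐ[Zloc p] PadicAlgCl p)) (n : ℕ), e (x ^ n) = n • e x := by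
    intro x n
    induction n with
    | zero => rw [pow_zero, zero_smul, he1]
    | succ n ih => rw [pow_succ, hmul, ih, succ_nsmul]
  have hneg : ∀ x : WithConv (H →ₐ[Zloc p] PadicAlgCl p), e (x ^ (p - 1)) = - e x := by
    intro x
    have h1 : e (x ^ (p - 1)) + e x = 0 := by
      rw [← hmul, ← pow_succ, Nat.sub_add_cancel hp.one_le, hkillH, he1]
    exact eq_neg_of_add_eq_zero_left h1
  -- the submonoids of points
  let E₁ : Submonoid (WithConv (H →ₐ[Zloc p] PadicAlgCl p)) :=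
    { carrier := {x | e x ∈ M₁}
      mul_mem' := fun {a b} ha hb => by
        show e (a * b) ∈ M₁
        rw [hmul]
        exact M₁.add_mem ha hb
      one_mem' := by
        show e 1 ∈ M₁
        rw [he1]
        exact M₁.zero_mem }
  let E₂ : Submonoid (WithConv (H →ₐ[Zloc p] PadicAlgCl p)) :=
    { carrier := {x | e x ∈ M₂}
      mul_mem' := fun {a b} ha hb => by
        show e (a * b) ∈ M₂
        rw [hmul]
        exact M₂.add_mem ha hb
      one_mem' := by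
        show e 1 ∈ M₂
        rw [he1]
        exact M₂.zero_mem }
  -- the point of `m` reduces to the identity
  have hred : IsRed (e.symm m) := by
    refine AddSubgroup.closure_induction (p := fun y _ => IsRed (e.symm y)) ?_ ?_ ?_ ?_ hmI
    · rintro y ⟨σ, hσ, m', rfl⟩
      have h1 : e.symm (act (localGaloisToGlobal p σ) m' - m') =
          pointAct σ (e.symm m') * (e.symm m') ^ (p - 1) := by
        apply e.injective
        rw [e.apply_symm_apply, hmul, hact, hneg, e.apply_symm_apply]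
        abel
      rw [h1]
      apply isRed_comm hσ
      rw [← pow_succ', Nat.sub_add_cancel hp.one_le, hkillH]
    · have h1 : e.symm 0 = 1 := by
        apply e.injective
        rw [e.apply_symm_apply, he1]
      rw [h1]
      exact isRed_one
    · intro a b _ _ ha hb
      have h1 : e.symm (a + b) = e.symm a * e.symm b := by
        apply e.injective
        rw [e.apply_symm_apply, hmul, e.apply_symm_apply, e.apply_symm_apply]
      rw [h1]
      exact isRed_mul ha hb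
    · intro a _ ha
      have h1 : e.symm (-a) = (e.symm a) ^ (p - 1) := by
        apply e.injective
        rw [e.apply_symm_apply, hneg, e.apply_symm_apply]
      rw [h1]
      exact isRed_pow ha _
  have hmain := stmt_SUBQ p hp2 H hkillH E₁ E₂ (fun x hx => h12 hx)
    (fun σ x hx => by
      show e (pointAct σ x) ∈ M₁
      rw [hact]
      exact hst1 σ _ hx)
    (fun σ x hx => by
      show e (pointAct σ x) ∈ M₂
      rw [hact]
      exact hst2 σ _ hx)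
    (fun σ hσ x hx => by
      refine ⟨x ^ (p - 1) * pointAct σ x, ?_, ?_⟩
      · show e (x ^ (p - 1) * pointAct σ x) ∈ M₁
        rw [hmul, hneg, hact]
        have := hin σ hσ (e x) hx
        rwa [sub_eq_neg_add] at this
      · rw [← mul_assoc, ← pow_succ', Nat.sub_add_cancel hp.one_le, hkillH, one_mul])
    (e.symm m) (by
      show e (e.symm m) ∈ M₂
      rw [e.apply_symm_apply]
      exact hm2) hred
  have : e (e.symm m) ∈ M₁ := hmain
  rwa [e.apply_symm_apply] at this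

end Fermat.Agent.S56.FL.H54

end

end
-- ==== END Fermat.Agent.S56.FL.H54_FLB
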