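-- GENERATED (merged mirror, NOTES/tools/trim/merge3_helper67.py): 7 modules of the originals, bodies verbatim.
import Fermat.Prelude.Def_CuspForm_HeckeLocal
import Fermat.Prelude.Def_GaloisRep_LocalConditions
import Fermat.Agent.Zm.S33_L01_003
import Fermat.Agent.Zm.S35_L07_002
import Fermat.Agent.Zm.S33_L01_004
import Fermat.Agent.Zm.S56_L11_001
import Fermat.Agent.Zm.S56_L02_000
import Fermat.Agent.Zm.S56_L01_000
import Fermat.Agent.Zm.S48_L01_000
import Fermat.Agent.Zm.S35_L13_002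
import Fermat.Agent.Zm.S35_L08_000
import Fermat.Agent.Zm.S35_L10_005
import Fermat.Agent.Zm.S33_L01_002
import Fermat.Agent.Zm.S35_L03_005
import Fermat.Agent.Zm.S35_L01_001
import Fermat.Agent.Zm.S33_L01_005

-- ==== BEGIN Fermat.Agent.S17.Height.H35_PencilFF
section

/-!
# S17 part H, leaves (A3) and (A4) (helper35): statements for function fields `IsFF K F`

`exists_geo`: for a function field of one variable `F` over an algebraically closed field `K`
there are `g : ℕ` and `c : ℤ` with `Geo K F g c`, i.e. the Riemann bound, (A3) and (A4).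
-/

set_option autoImplicit false

noncomputable section

open AlgebraicCurve

namespace Fermat.Agent.S17.H35

open Fermat.Agent.RED Fermat.Agent.RED.H42

local notation "L" => riemannRochSpace

/-- The hypotheses of the pencil trick hold in every function field of one variable over an
algebraically closed field. -/
theorem hyp_of_isFF (K F : Type) [Field K] [Field F] [Algebra K F] [IsAlgClosed K]
    (hFF : IsFF K F) : Hyp K F := by
  obtain ⟨x, hx, hfin⟩ := hFF
  exact hyp_of_zeros (zerosAll K F ⟨x, hx, hfin⟩) hx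

theorem exists_riemannBound (K F : Type) [Field K] [Field F] [Algebra K F] [IsAlgClosed K]
    (hFF : IsFF K F) : ∃ (g : ℕ) (c : ℤ), RiemannBound K F g c := by
  obtain ⟨g, c, h⟩ := stmt_FFR_riemann K F hFF
  exact ⟨g, max c 0, le_max_right _ _, fun D hD => (h D).2 (le_trans (le_max_left _ _) hD)⟩

/-- The geometric package for part H of S17: Riemann bound, (A3), (A4), with the same
constants `g`, `c`. -/
structure Geo (K F : Type) [Field K] [Field F] [Algebra K F] (g : ℕ) (c : ℤ) : Prop where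
  c_nonneg : 0 ≤ c
  finite : ∀ D : Divisor K F, Module.Finite K (L D)
  riemann : ∀ D : Divisor K F, c ≤ Divisor.degree D →
    (Module.finrank K (L D) : ℤ) = Divisor.degree D + 1 - g
  le : ∀ D : Divisor K F, 0 ≤ Divisor.degree D →
    (Module.finrank K (L D) : ℤ) ≤ Divisor.degree D + 1
  bot : ∀ D : Divisor K F, Divisor.degree D < 0 → L D = ⊥
  a3 : ∀ D₁ D₂ : Divisor K F, c + 1 ≤ Divisor.degree D₁ →
    c + Divisor.degree D₁ ≤ Divisor.degree D₂ → L D₁ * L D₂ = L (D₁ + D₂)
  a3' : ∀ (D M : Divisor K F) (U : Submodule K F), U ≤ L D → U ≠ ⊥ →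
    (∀ v : Place K F, ∃ f ∈ U, f ≠ 0 ∧ v.ord f = -D v) →
    c + Divisor.degree D ≤ Divisor.degree M → c ≤ Divisor.degree M →
    c ≤ Divisor.degree D + Divisor.degree M → U * L M = L (D + M)
  base : ∀ (D₀ : Divisor K F) (U : Submodule K F), U ≤ L D₀ → U ≠ ⊥ →
    ∃ B : Divisor K F, 0 ≤ B ∧ U ≤ L (D₀ - B) ∧
      ∀ v : Place K F, ∃ f ∈ U, f ≠ 0 ∧ v.ord f = -(D₀ - B : Divisor K F) v
  a4 : ∀ (D₀ M : Divisor K F) (U : Submodule K F) (a : ℕ), U ≤ L D₀ →
    (Module.finrank K U : ℤ) = Divisor.degree D₀ + 1 - g - a →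
    c + g + a ≤ Divisor.degree D₀ → c + Divisor.degree D₀ ≤ Divisor.degree M →
    (Module.finrank K (U * L M : Submodule K F) : ℤ)
      ≤ Divisor.degree D₀ + Divisor.degree M + 1 - g - a →
    ∃ A : Divisor K F, 0 ≤ A ∧ Divisor.degree A = a ∧ U = L (D₀ - A)

/-- **(A3) + (A4)** for function fields of one variable over algebraically closed fields. -/
theorem exists_geo (K F : Type) [Field K] [Field F] [Algebra K F] [IsAlgClosed K]
    (hFF : IsFF K F) : ∃ (g : ℕ) (c : ℤ), Geo K F g c := by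
  have H := hyp_of_isFF K F hFF
  obtain ⟨g, c, hR⟩ := exists_riemannBound K F hFF
  have : Infinite K := IsAlgClosed.instInfinite
  exact ⟨g, c,
    { c_nonneg := hR.1
      finite := fun D => finite_L H D
      riemann := hR.2
      le := fun D hD => finrank_L_le H hD
      bot := fun D hD => L_eq_bot_of_degree_neg H hD
      a3 := fun D₁ D₂ h1 h2 => mul_L_eq H hR h1 h2
      a3' := fun D M U hU hne hbpf h1 h2 h3 => mul_eq_L_of_bpf H hR hU hne hbpf h1 h2 h3
      base := fun D₀ U hU hne => exists_base H hU hne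
      a4 := fun D₀ M U a hU hr hD₀ hM hmul =>
        exists_eq_L_of_finrank_mul_le H hR hU hr hD₀ hM hmul }⟩

/-- The modular function field version. -/
theorem exists_geo_modular (h : Stmt_HKA_isFF) (N : ℕ) [NeZero N] :
    ∃ (g : ℕ) (c : ℤ),
      Geo (AlgebraicClosure ℚ) ↥(ModularCurve.modularFunctionFieldBar N) g c :=
  exists_geo _ _ (h N)

end Fermat.Agent.S17.H35

end
end
-- ==== END Fermat.Agent.S17.Height.H35_PencilFF

-- ==== BEGIN Fermat.Agent.S33.H86_FlatInf
section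

/-!
# Infinitesimal points of a flat Galois module: `Stmt_FlatInf` (helper86, row S33)

`stmt_FlatInf : Fermat.Agent.R.Stmt_FlatInf`, unconditionally.

* `valuation_padicPlace_lt_one_iff`, `localGaloisToGlobal_mem_inertia`,
  `norm_sub_lt_of_mem_inertia` : bridge between the inertia group of `padicPlace p` in `G_ℚ` and
  the inertia subgroup `inertiaP p` of the local Galois group.
* `flatInf_padicPlace` : `Stmt_FlatInf` at the place `padicPlace p`, from `subq_gen`
  (helper54's SUBQ without "killed by `p`") through helper54's bridge `toLoc`.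
* `stmt_FlatInf` : every place over `p` is conjugate to `padicPlace p`.
-/

set_option autoImplicit false
set_option linter.unusedSectionVars false
set_option linter.style.haveILetI false
set_option linter.unusedVariables false

noncomputable section

namespace Fermat.Agent.S33.H86

open scoped NNReal TensorProduct Pointwise
open Fermat.Agent.S56.FL Fermat.Agent.S56.FL.H54 Fermat.Agent.R Fermat.Agent.R.H54 WithConv
open Fermat.Agent.Lib.InertiaBridge Fermat.Agent.Lib.FrobExists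

section Bridge

variable {p : ℕ} [Fact p.Prime]

/-- The valuation of `padicPlace p` is `< 1` exactly when the `p`-adic norm is. -/
theorem valuation_padicPlace_lt_one_iff (y : AlgebraicClosure ℚ) :
    (padicPlace p).valuation y < 1 ↔ ‖padicEmbedding p y‖ < 1 := by
  rw [← ValuationSubring.mem_nonunits_iff, ValuationSubring.mem_nonunits_iff_or]
  by_cases hy : y = 0
  · subst hy
    simp
  · rw [or_iff_right hy, mem_padicPlace_iff, map_inv₀, nnnorm_inv, ← NNReal.coe_le_coe,
      NNReal.coe_inv, coe_nnnorm, NNReal.coe_one, not_le]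
    have hpos : 0 < ‖padicEmbedding p y‖ := by
      rw [norm_pos_iff]
      exact (map_ne_zero_iff _ (padicEmbedding p).toRingHom.injective).mpr hy
    rw [one_lt_inv₀ hpos]

theorem padicPlace_liesOverPrime : (padicPlace p).LiesOverPrime p := by
  show (p : AlgebraicClosure ℚ) ∈ (padicPlace p).nonunits
  rw [ValuationSubring.mem_nonunits_iff, valuation_padicPlace_lt_one_iff]
  have h := Fermat.Agent.Lib.LocalGlobalDense.absQ_natCast_self p
  rw [Fermat.Agent.Lib.LocalGlobalDense.absQ_apply] at h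
  rw [h]
  have hp : p.Prime := Fact.out
  have h2 : (1 : ℝ) < p := by exact_mod_cast hp.one_lt
  exact inv_lt_one_of_one_lt₀ h2

/-- The image of the local inertia group lies in the inertia group of `padicPlace p`. -/
theorem localGaloisToGlobal_mem_inertia {τ : Gp p} (hτ : τ ∈ inertiaP p) :
    localGaloisToGlobal p τ ∈ (padicPlace p).inertiaSubgroupIn ℚ := by
  rw [mem_inertiaSubgroupIn_iff_forall]
  refine ⟨localGaloisToGlobal_mem_decompositionSubgroup p τ, fun a ha => ?_⟩
  rw [valuation_padicPlace_lt_one_iff, map_sub, padicEmbedding_localGaloisToGlobal]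
  refine hτ _ ?_
  rw [mem_padicPlace_iff] at ha
  exact_mod_cast ha

/-- An element of the inertia group of `padicPlace p` moves `p`-adic integers by elements of
norm `< 1`. -/
theorem norm_sub_lt_of_mem_inertia {σ : AlgebraicClosure ℚ ≃ₐ[ℚ] AlgebraicClosure ℚ}
    (hσ : σ ∈ (padicPlace p).inertiaSubgroupIn ℚ) (a : AlgebraicClosure ℚ)
    (ha : ‖padicEmbedding p a‖ ≤ 1) :
    ‖padicEmbedding p (σ a) - padicEmbedding p a‖ < 1 := by
  rw [mem_inertiaSubgroupIn_iff_forall] at hσ
  have h1 : a ∈ padicPlace p := by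
    rw [mem_padicPlace_iff]
    exact_mod_cast ha
  have h2 := hσ.2 a h1
  rw [valuation_padicPlace_lt_one_iff, map_sub] at h2
  exact h2

/-- The local inertia group is normal. -/
theorem conj_mem_inertiaP {τ : Gp p} (hτ : τ ∈ inertiaP p) (g : Gp p) :
    g⁻¹ * τ * g ∈ inertiaP p := by
  intro a ha
  have h1 : (g⁻¹ * τ * g) a - a = (g⁻¹ : Gp p) (τ (g a) - g a) := by
    rw [map_sub]
    have h2 : (g⁻¹ : Gp p) (g a) = a := AlgEquiv.symm_apply_apply g a
    rw [h2]
    rfl
  rw [h1, norm_gal]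
  refine hτ _ ?_
  rw [norm_gal]
  exact ha

end Bridge

section Red

variable {p : ℕ} [Fact p.Prime]
variable {H : Type} [CommRing H] [HopfAlgebra (Zloc p) H] [Module.Finite (Zloc p) H]

/-- A left inverse of a point reducing to the identity reduces to the identity. -/
theorem isRed_of_mul_eq_one {x y : WithConv (H →ₐ[Zloc p] PadicAlgCl p)} (hx : IsRed x)
    (hyx : y * x = 1) : IsRed y := by
  intro h
  have h1 := norm_conv_sub_lt y y x 1
    (fun a => by rw [sub_self, norm_zero]; exact zero_lt_one)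
    (fun a => by rw [one_apply_eq]; exact hx a) h
  rw [hyx, mul_one, one_apply_eq, norm_sub_rev] at h1
  exact h1

end Red

section Main

variable {p : ℕ} [Fact p.Prime]
variable {H : Type} [CommRing H] [HopfAlgebra (Zloc p) H]

theorem pointAct_eq_postAlg (σ : Gp p) (x : WithConv (H →ₐ[Zloc p] PadicAlgCl p)) :
    pointAct σ x =
      H50.postAlg (((σ : PadicAlgCl p →ₐ[ℚ_[p]] PadicAlgCl p).restrictScalars (Zloc p))) x :=
  rfl

theorem pointAct_mul_eq (σ : Gp p) (x y : WithConv (H →ₐ[Zloc p] PadicAlgCl p)) :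
    pointAct σ (x * y) = pointAct σ x * pointAct σ y := by
  rw [pointAct_eq_postAlg, pointAct_eq_postAlg, pointAct_eq_postAlg, map_mul]

theorem pointAct_comp_eq (σ τ : Gp p) (x : WithConv (H →ₐ[Zloc p] PadicAlgCl p)) :
    pointAct (σ * τ) x = pointAct σ (pointAct τ x) := by
  apply WithConv.ofConv_injective
  apply AlgHom.ext
  intro h
  rfl

/-- **`Stmt_FlatInf` at the place `padicPlace p`.** -/
theorem flatInf_padicPlace (hp2 : p ≠ 2) (M : Type) [AddCommGroup M]
    (act : (AlgebraicClosure ℚ ≃ₐ[ℚ] AlgebraicClosure ℚ) → M → M)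
    (hM : IsFlatGaloisModule p M act) :
    ∃ Inf : AddSubgroup M,
      (∀ σ ∈ (padicPlace p).inertiaSubgroupIn ℚ, ∀ x : M, act σ x - x ∈ Inf) ∧
      ∀ N : AddSubgroup M,
        (∀ σ ∈ (padicPlace p).decompositionSubgroup ℚ, ∀ x ∈ N, act σ x ∈ N) →
        ∀ x ∈ Inf, p • x ∈ N →
          (∀ σ ∈ (padicPlace p).inertiaSubgroupIn ℚ, act σ x - x ∈ N) → x ∈ N := by
  classical
  have hp : p.Prime := Fact.out
  obtain ⟨H, _, _, hfin, hflat, hcoc, e, hmul, hact⟩ := hM
  haveI := hfin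
  haveI := hflat
  haveI := hcoc
  have he1 : e 1 = 0 := by
    have := hmul 1 1
    rw [mul_one] at this
    exact left_eq_add.mp this
  have hact' : ∀ (σ : AlgebraicClosure ℚ ≃ₐ[ℚ] AlgebraicClosure ℚ)
      (f : WithConv (H →ₐ[Zloc p] AlgebraicClosure ℚ)), e (globConj σ f) = act σ (e f) :=
    fun σ f => hact σ f _ (fun h => rfl)
  have hsymm_add : ∀ a b : M, e.symm (a + b) = e.symm a * e.symm b := by
    intro a b
    apply e.injective
    rw [e.apply_symm_apply, hmul, e.apply_symm_apply, e.apply_symm_apply]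
  have hsymm_zero : e.symm 0 = 1 := by
    apply e.injective
    rw [e.apply_symm_apply, he1]
  -- the local equivalence
  let eL : WithConv (H →ₐ[Zloc p] PadicAlgCl p) ≃ M := locEquiv.symm.trans e
  have hL : ∀ f : WithConv (H →ₐ[Zloc p] AlgebraicClosure ℚ), eL (toLoc f) = e f := by
    intro f
    show e (locEquiv.symm (toLoc f)) = e f
    rw [← locEquiv_apply, Equiv.symm_apply_apply]
  have hLsymm : ∀ m : M, eL.symm m = toLoc (e.symm m) := by
    intro m
    apply eL.injective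
    rw [eL.apply_symm_apply, hL, e.apply_symm_apply]
  have hLmul : ∀ x y : WithConv (H →ₐ[Zloc p] PadicAlgCl p), eL (x * y) = eL x + eL y := by
    intro x y
    obtain ⟨f, rfl⟩ := toLoc_surjective x
    obtain ⟨g, rfl⟩ := toLoc_surjective y
    rw [← map_mul, hL, hL, hL, hmul]
  have hLact : ∀ (σ : Gp p) (x : WithConv (H →ₐ[Zloc p] PadicAlgCl p)),
      eL (pointAct σ x) = act (localGaloisToGlobal p σ) (eL x) := by
    intro σ x
    obtain ⟨f, rfl⟩ := toLoc_surjective x
    rw [← toLoc_globConj, hL, hL, hact']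
  have hL1 : eL 1 = 0 := by
    rw [← map_one (toLoc (H := H) (p := p)), hL, he1]
  have hLpow : ∀ (x : WithConv (H →ₐ[Zloc p] PadicAlgCl p)) (n : ℕ), eL (x ^ n) = n • eL x := by
    intro x n
    induction n with
    | zero => rw [pow_zero, zero_smul, hL1]
    | succ n ih => rw [pow_succ, hLmul, ih, succ_nsmul]
  -- the local action is additive
  have hadd : ∀ (σ : Gp p) (a b : M), act (localGaloisToGlobal p σ) (a + b) =
      act (localGaloisToGlobal p σ) a + act (localGaloisToGlobal p σ) b := by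
    intro σ a b
    have h1 : a + b = eL (eL.symm a * eL.symm b) := by
      rw [hLmul, eL.apply_symm_apply, eL.apply_symm_apply]
    rw [h1, ← hLact, pointAct_mul_eq, hLmul, hLact, hLact, eL.apply_symm_apply,
      eL.apply_symm_apply]
  have hsub : ∀ (σ : Gp p) (a b : M), act (localGaloisToGlobal p σ) (a - b) =
      act (localGaloisToGlobal p σ) a - act (localGaloisToGlobal p σ) b := by
    intro σ a b
    have h1 := hadd σ (a - b) b
    rw [sub_add_cancel] at h1
    rw [h1, add_sub_cancel_right]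
  have hcomp : ∀ (σ τ : Gp p) (a : M), act (localGaloisToGlobal p (σ * τ)) a =
      act (localGaloisToGlobal p σ) (act (localGaloisToGlobal p τ) a) := by
    intro σ τ a
    have h1 : a = eL (eL.symm a) := (eL.apply_symm_apply a).symm
    rw [h1, ← hLact, pointAct_comp_eq, hLact, hLact]
  let Inf : AddSubgroup M :=
    { carrier := {m | IsRed (toLoc (e.symm m))}
      zero_mem' := by
        show IsRed (toLoc (e.symm 0))
        rw [hsymm_zero, map_one]
        exact isRed_one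
      add_mem' := fun {a b} ha hb => by
        show IsRed (toLoc (e.symm (a + b)))
        rw [hsymm_add, map_mul]
        exact isRed_mul ha hb
      neg_mem' := fun {a} ha => by
        show IsRed (toLoc (e.symm (-a)))
        refine isRed_of_mul_eq_one ha ?_
        rw [← map_mul, ← hsymm_add, neg_add_cancel, hsymm_zero, map_one] }
  refine ⟨Inf, ?_, ?_⟩
  · intro σ hσ x
    show IsRed (toLoc (e.symm (act σ x - x)))
    have h1 : e.symm (act σ x - x) = globConj σ (e.symm x) * e.symm (-x) := by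
      apply e.injective
      rw [e.apply_symm_apply, hmul, hact', e.apply_symm_apply, e.apply_symm_apply]
      abel
    rw [h1, map_mul]
    intro h
    have hx1 : ∀ a : H, ‖(toLoc (globConj σ (e.symm x))).ofConv a -
        (toLoc (e.symm x)).ofConv a‖ < 1 := by
      intro a
      exact norm_sub_lt_of_mem_inertia hσ _ (norm_point_le_one (toLoc (e.symm x)).ofConv a)
    have h2 := norm_conv_sub_lt (toLoc (globConj σ (e.symm x))) (toLoc (e.symm x))
      (toLoc (e.symm (-x))) (toLoc (e.symm (-x))) hx1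
      (fun a => by rw [sub_self, norm_zero]; exact zero_lt_one) h
    have h3 : toLoc (e.symm x) * toLoc (e.symm (-x)) = 1 := by
      rw [← map_mul, ← hsymm_add, add_neg_cancel, hsymm_zero, map_one]
    rw [h3, one_apply_eq] at h2
    exact h2
  · intro N hN x hxInf hpx hxI
    have hNloc : ∀ (σ : Gp p), ∀ m ∈ N, act (localGaloisToGlobal p σ) m ∈ N :=
      fun σ m hm => hN _ (localGaloisToGlobal_mem_decompositionSubgroup p σ) m hm
    let E₁ : Submonoid (WithConv (H →ₐ[Zloc p] PadicAlgCl p)) :=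
      { carrier := {y | eL y ∈ N}
        mul_mem' := fun {a b} ha hb => by
          show eL (a * b) ∈ N
          rw [hLmul]
          exact N.add_mem ha hb
        one_mem' := by
          show eL 1 ∈ N
          rw [hL1]
          exact N.zero_mem }
    let E₂ : Submonoid (WithConv (H →ₐ[Zloc p] PadicAlgCl p)) :=
      { carrier := {y | ∀ τ ∈ inertiaP p, act (localGaloisToGlobal p τ) (eL y) - eL y ∈ N}
        mul_mem' := fun {a b} ha hb => by
          intro τ hτ
          show act (localGaloisToGlobal p τ) (eL (a * b)) - eL (a * b) ∈ N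
          rw [hLmul, hadd]
          have h1 : act (localGaloisToGlobal p τ) (eL a) + act (localGaloisToGlobal p τ) (eL b) -
              (eL a + eL b) = (act (localGaloisToGlobal p τ) (eL a) - eL a) +
                (act (localGaloisToGlobal p τ) (eL b) - eL b) := by abel
          rw [h1]
          exact N.add_mem (ha τ hτ) (hb τ hτ)
        one_mem' := by
          intro τ hτ
          show act (localGaloisToGlobal p τ) (eL 1) - eL 1 ∈ N
          rw [hL1]
          exact N.sub_mem (hNloc τ 0 N.zero_mem) N.zero_mem }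
    have h12 : E₁ ≤ E₂ := by
      intro y hy τ hτ
      exact N.sub_mem (hNloc τ _ hy) hy
    have hinvL : ∀ x y : WithConv (H →ₐ[Zloc p] PadicAlgCl p), y * x = 1 → eL y = - eL x := by
      intro x y hyx
      have h1 : eL y + eL x = 0 := by rw [← hLmul, hyx, hL1]
      exact eq_neg_of_add_eq_zero_left h1
    have hinv₁ : ∀ x ∈ E₁, ∀ y : WithConv (H →ₐ[Zloc p] PadicAlgCl p), y * x = 1 → y ∈ E₁ := by
      intro x hx y hyx
      show eL y ∈ N
      rw [hinvL x y hyx]
      exact N.neg_mem hx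
    have hinv₂ : ∀ x ∈ E₂, ∀ y : WithConv (H →ₐ[Zloc p] PadicAlgCl p), y * x = 1 → y ∈ E₂ := by
      intro x hx y hyx τ hτ
      show act (localGaloisToGlobal p τ) (eL y) - eL y ∈ N
      rw [hinvL x y hyx]
      have h1 : act (localGaloisToGlobal p τ) (- eL x) = - act (localGaloisToGlobal p τ) (eL x) := by
        have h2 := hsub τ 0 (eL x)
        have h3 := hsub τ 0 0
        rw [sub_zero] at h3
        have h4 : act (localGaloisToGlobal p τ) 0 = 0 := by
          have h5 := hadd τ 0 0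
          rw [add_zero] at h5
          exact left_eq_add.mp h5
        rw [zero_sub, h4, zero_sub] at h2
        exact h2
      rw [h1]
      have h5 : - act (localGaloisToGlobal p τ) (eL x) - - eL x =
          - (act (localGaloisToGlobal p τ) (eL x) - eL x) := by abel
      rw [h5]
      exact N.neg_mem (hx τ hτ)
    have hE₁ : ∀ (σ : Gp p), ∀ x ∈ E₁, pointAct σ x ∈ E₁ := by
      intro σ x hx
      show eL (pointAct σ x) ∈ N
      rw [hLact]
      exact hNloc σ _ hx
    have hE₂ : ∀ (σ : Gp p), ∀ x ∈ E₂, pointAct σ x ∈ E₂ := by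
      intro g x hx τ hτ
      show act (localGaloisToGlobal p τ) (eL (pointAct g x)) - eL (pointAct g x) ∈ N
      rw [hLact, ← hcomp]
      have h1 : τ * g = g * (g⁻¹ * τ * g) := by group
      rw [h1, hcomp, ← hsub]
      exact hNloc g _ (hx _ (conj_mem_inertiaP hτ g))
    have hin : ∀ σ ∈ inertiaP p, ∀ x ∈ E₂, ∃ y ∈ E₁, pointAct σ x = x * y := by
      intro σ hσ x hx
      refine ⟨eL.symm (act (localGaloisToGlobal p σ) (eL x) - eL x), ?_, ?_⟩
      · show eL (eL.symm (act (localGaloisToGlobal p σ) (eL x) - eL x)) ∈ N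
        rw [eL.apply_symm_apply]
        exact hx σ hσ
      · apply eL.injective
        rw [hLmul, eL.apply_symm_apply, hLact]
        abel
    have hx2 : eL.symm x ∈ E₂ := by
      intro τ hτ
      show act (localGaloisToGlobal p τ) (eL (eL.symm x)) - eL (eL.symm x) ∈ N
      rw [eL.apply_symm_apply]
      exact hxI _ (localGaloisToGlobal_mem_inertia hτ)
    have hxp : (eL.symm x) ^ p ∈ E₁ := by
      show eL ((eL.symm x) ^ p) ∈ N
      rw [hLpow, eL.apply_symm_apply]
      exact hpx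
    have hred : ∀ h : H, ‖(eL.symm x).ofConv h -
        algebraMap (Zloc p) (PadicAlgCl p) (Coalgebra.counit h)‖ < 1 := by
      rw [hLsymm]
      exact hxInf
    have hmain := subq_gen hp2 H E₁ E₂ h12 hinv₁ hinv₂ hE₁ hE₂ hin (eL.symm x) hx2 hxp hred
    have : eL (eL.symm x) ∈ N := hmain
    rwa [eL.apply_symm_apply] at this

end Main

section Conj

open Fermat.Agent.Lib.FrobIntegers Fermat.Agent.Lib.InertiaConj

attribute [local instance] qbar_isAlgebraic qbar_isAlgClosure qbar_isGalois zbar_isInvariant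
  zbarTopologicalSpace zbar_discreteTopology zbar_continuousSMul

/-- Decomposition groups over the same prime are conjugate (same `g` as for the primes). -/
theorem mem_decomposition_conj (ℓ : ℕ) (hℓ : ℓ.Prime)
    (A A' : ValuationSubring (AlgebraicClosure ℚ)) (hA : A.LiesOverPrime ℓ)
    (hA' : A'.LiesOverPrime ℓ) (g : AlgebraicClosure ℚ ≃ₐ[ℚ] AlgebraicClosure ℚ)
    (hg : primeUnder A' = g • primeUnder A)
    (s : AlgebraicClosure ℚ ≃ₐ[ℚ] AlgebraicClosure ℚ) :
    s ∈ A'.decompositionSubgroup ℚ ↔ g⁻¹ * s * g ∈ A.decompositionSubgroup ℚ := by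
  rw [mem_decompositionSubgroup_iff ℓ hℓ A' hA', mem_decompositionSubgroup_iff ℓ hℓ A hA, hg,
    mul_smul, mul_smul]
  constructor
  · intro h
    rw [h, inv_smul_smul]
  · intro h
    have h1 := congrArg (fun Q => g • Q) h
    simp only [smul_inv_smul] at h1
    exact h1

/-- Inertia groups over the same prime are conjugate (same `g` as for the primes). -/
theorem mem_inertia_conj (ℓ : ℕ) (hℓ : ℓ.Prime)
    (A A' : ValuationSubring (AlgebraicClosure ℚ)) (hA : A.LiesOverPrime ℓ)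
    (hA' : A'.LiesOverPrime ℓ) (g : AlgebraicClosure ℚ ≃ₐ[ℚ] AlgebraicClosure ℚ)
    (hg : primeUnder A' = g • primeUnder A)
    (s : AlgebraicClosure ℚ ≃ₐ[ℚ] AlgebraicClosure ℚ) :
    s ∈ A'.inertiaSubgroupIn ℚ ↔ g⁻¹ * s * g ∈ A.inertiaSubgroupIn ℚ := by
  rw [mem_inertiaSubgroupIn_iff ℓ hℓ A' hA', mem_inertiaSubgroupIn_iff ℓ hℓ A hA, hg]
  constructor
  · intro h b
    have h1 := h (g • b)
    rw [Ideal.mem_pointwise_smul_iff_inv_smul_mem, smul_sub, inv_smul_smul] at h1
    rw [mul_smul, mul_smul]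
    exact h1
  · intro h b
    have h1 := h (g⁻¹ • b)
    rw [Ideal.mem_pointwise_smul_iff_inv_smul_mem, smul_sub]
    rw [mul_smul, mul_smul, smul_inv_smul] at h1
    exact h1

variable {p : ℕ} [Fact p.Prime]
variable {H : Type} [CommRing H] [HopfAlgebra (Zloc p) H]

theorem globConj_mul_eq (σ : AlgebraicClosure ℚ ≃ₐ[ℚ] AlgebraicClosure ℚ)
    (f g : WithConv (H →ₐ[Zloc p] AlgebraicClosure ℚ)) :
    globConj σ (f * g) = globConj σ f * globConj σ g :=
  map_mul (H50.postAlg
    (((σ : AlgebraicClosure ℚ →ₐ[ℚ] AlgebraicClosure ℚ).restrictScalars (Zloc p)))) f g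

theorem globConj_comp_eq (σ τ : AlgebraicClosure ℚ ≃ₐ[ℚ] AlgebraicClosure ℚ)
    (f : WithConv (H →ₐ[Zloc p] AlgebraicClosure ℚ)) :
    globConj (σ * τ) f = globConj σ (globConj τ f) := by
  apply WithConv.ofConv_injective
  apply AlgHom.ext
  intro h
  rfl

theorem globConj_one_eq (f : WithConv (H →ₐ[Zloc p] AlgebraicClosure ℚ)) :
    globConj 1 f = f := by
  apply WithConv.ofConv_injective
  apply AlgHom.ext
  intro h
  rfl

/-- The Galois action on a flat Galois module is an action by additive maps. -/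
theorem act_props {M : Type} [AddCommGroup M]
    {act : (AlgebraicClosure ℚ ≃ₐ[ℚ] AlgebraicClosure ℚ) → M → M}
    (hM : IsFlatGaloisModule p M act) :
    (∀ σ a b, act σ (a + b) = act σ a + act σ b) ∧
      (∀ σ τ a, act (σ * τ) a = act σ (act τ a)) ∧ (∀ a, act 1 a = a) := by
  obtain ⟨H, _, _, hfin, hflat, hcoc, e, hmul, hact⟩ := hM
  have hact' : ∀ (σ : AlgebraicClosure ℚ ≃ₐ[ℚ] AlgebraicClosure ℚ)
      (f : WithConv (H →ₐ[Zloc p] AlgebraicClosure ℚ)), e (globConj σ f) = act σ (e f) :=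
    fun σ f => hact σ f _ (fun h => rfl)
  refine ⟨?_, ?_, ?_⟩
  · intro σ a b
    obtain ⟨f, rfl⟩ := e.surjective a
    obtain ⟨g, rfl⟩ := e.surjective b
    rw [← hmul, ← hact', ← hact', ← hact', globConj_mul_eq, hmul]
  · intro σ τ a
    obtain ⟨f, rfl⟩ := e.surjective a
    rw [← hact', ← hact', ← hact', globConj_comp_eq]
  · intro a
    obtain ⟨f, rfl⟩ := e.surjective a
    rw [← hact', globConj_one_eq]

end Conj

/-- **`Stmt_FlatInf`**: infinitesimal points of a flat Galois module. -/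
theorem stmt_FlatInf : Stmt_FlatInf := by
  intro p hp hp2 M _ act hM P hP
  haveI : Fact p.Prime := ⟨hp⟩
  obtain ⟨hadd, hcomp, hone⟩ := act_props hM
  obtain ⟨Inf₀, hI₀, hN₀⟩ := flatInf_padicPlace hp2 M act hM
  obtain ⟨g, hg⟩ := Fermat.Agent.Lib.InertiaConj.exists_smul_primeUnder p hp (padicPlace p) P
    padicPlace_liesOverPrime hP
  have hD := mem_decomposition_conj p hp (padicPlace p) P padicPlace_liesOverPrime hP g hg
  have hI := mem_inertia_conj p hp (padicPlace p) P padicPlace_liesOverPrime hP g hg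
  have hginv : ∀ a, act g (act g⁻¹ a) = a := fun a => by rw [← hcomp, mul_inv_cancel, hone]
  have hginv' : ∀ a, act g⁻¹ (act g a) = a := fun a => by rw [← hcomp, inv_mul_cancel, hone]
  have hzero : ∀ σ, act σ 0 = 0 := by
    intro σ
    have h5 := hadd σ 0 0
    rw [add_zero] at h5
    exact left_eq_add.mp h5
  have hsub : ∀ σ a b, act σ (a - b) = act σ a - act σ b := by
    intro σ a b
    have h1 := hadd σ (a - b) b
    rw [sub_add_cancel] at h1
    rw [h1, add_sub_cancel_right]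
  have hneg : ∀ σ a, act σ (-a) = - act σ a := by
    intro σ a
    have h1 := hsub σ 0 a
    rw [zero_sub, hzero, zero_sub] at h1
    exact h1
  have hnsmul : ∀ σ (n : ℕ) a, act σ (n • a) = n • act σ a := by
    intro σ n a
    induction n with
    | zero => rw [zero_smul, zero_smul, hzero]
    | succ n ih => rw [succ_nsmul, succ_nsmul, hadd, ih]
  let Inf : AddSubgroup M :=
    { carrier := {m | act g⁻¹ m ∈ Inf₀}
      zero_mem' := by
        show act g⁻¹ 0 ∈ Inf₀
        rw [hzero]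
        exact Inf₀.zero_mem
      add_mem' := fun {a b} ha hb => by
        show act g⁻¹ (a + b) ∈ Inf₀
        rw [hadd]
        exact Inf₀.add_mem ha hb
      neg_mem' := fun {a} ha => by
        show act g⁻¹ (-a) ∈ Inf₀
        rw [hneg]
        exact Inf₀.neg_mem ha }
  refine ⟨Inf, ?_, ?_⟩
  · intro σ hσ x
    show act g⁻¹ (act σ x - x) ∈ Inf₀
    have h1 : act g⁻¹ (act σ x - x) = act (g⁻¹ * σ * g) (act g⁻¹ x) - act g⁻¹ x := by
      rw [hsub, hcomp, hcomp, hginv]
    rw [h1]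
    exact hI₀ _ ((hI σ).mp hσ) _
  · intro N hN x hx hpx hxI
    let N' : AddSubgroup M :=
      { carrier := {y | act g y ∈ N}
        zero_mem' := by
          show act g 0 ∈ N
          rw [hzero]
          exact N.zero_mem
        add_mem' := fun {a b} ha hb => by
          show act g (a + b) ∈ N
          rw [hadd]
          exact N.add_mem ha hb
        neg_mem' := fun {a} ha => by
          show act g (-a) ∈ N
          rw [hneg]
          exact N.neg_mem ha }
    have hconj : ∀ σ : AlgebraicClosure ℚ ≃ₐ[ℚ] AlgebraicClosure ℚ,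
        g⁻¹ * (g * σ * g⁻¹) * g = σ := fun σ => by group
    have hN' : ∀ σ ∈ (padicPlace p).decompositionSubgroup ℚ, ∀ y ∈ N', act σ y ∈ N' := by
      intro σ hσ y hy
      show act g (act σ y) ∈ N
      have h1 : act g (act σ y) = act (g * σ * g⁻¹) (act g y) := by
        rw [hcomp, hcomp, hginv']
      rw [h1]
      refine hN _ ((hD _).mpr ?_) _ hy
      rw [hconj]
      exact hσ
    have h2 : p • act g⁻¹ x ∈ N' := by
      show act g (p • act g⁻¹ x) ∈ N
      rw [hnsmul, hginv]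
      exact hpx
    have h3 : ∀ σ ∈ (padicPlace p).inertiaSubgroupIn ℚ, act σ (act g⁻¹ x) - act g⁻¹ x ∈ N' := by
      intro σ hσ
      show act g (act σ (act g⁻¹ x) - act g⁻¹ x) ∈ N
      rw [hsub, hginv, ← hcomp, ← hcomp]
      refine hxI (g * σ * g⁻¹) ((hI _).mpr ?_)
      rw [hconj]
      exact hσ
    have hmain := hN₀ N' hN' (act g⁻¹ x) hx h2 h3
    have h4 : act g (act g⁻¹ x) ∈ N := hmain
    rwa [hginv] at h4

end Fermat.Agent.S33.H86

end

end
-- ==== END Fermat.Agent.S33.H86_FlatInf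

-- ==== BEGIN Fermat.Agent.S33.New.H46_K1Sat
section

/-!
# S33, NEW case, leaf (T2) (helper46): `Stmt_K1Sat N p` for every level `N ≠ 0`

`Fermat.Agent.S33.New.H46.stmt_K1Sat N p : New.H54.Stmt_K1Sat N p` (needs `[NeZero N]`; the
consumer uses `N = M * p`).  Proof in `Fermat/Agent/S33/H46_T2.lean`.
-/

set_option autoImplicit false

namespace Fermat.Agent.S33.New.H46

/-- **(T2)**: `K1(p^(k+1)) ∩ J₀(N)[p^k] ⊆ K1(p^k)`. -/
theorem stmt_K1Sat (N : ℕ) [NeZero N] (p : ℕ) : Fermat.Agent.S33.New.H54.Stmt_K1Sat N p :=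
  Fermat.Agent.S33.H46.stmt_K1Sat N p

end Fermat.Agent.S33.New.H46

end
-- ==== END Fermat.Agent.S33.New.H46_K1Sat

-- ==== BEGIN Fermat.Agent.S33.New.H86_Core
section

/-!
# S33, the `p`-new case: the Kummer form of (T3)  (helper86)

* `normAlong φ x` : the norm of `x` along a morphism of function fields `φ`.
* `IsNormPow φ p f` : the norm of `f` along `φ` is a constant times a `p`-th power.
* `Stmt_TorsOrdNewCore M p` : **(T3), Kummer form**: `f ∈ V₁ = gaussV A (M p)` with reduction `1`,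
  `p ∣ div f`, whose norms along the two degeneracy maps are `p`-th powers up to constants; `τ` in
  the inertia group of `A` with `τ ζ = ζ ^ a` on `μ_p`.  Then `τ f / f ^ a` is a `p`-th power.
* `isNormPow_of_isPrincipal` : if `p D = div f` and the push-forward of `D` is principal, then the
  norm of `f` is a constant times a `p`-th power.
* `torsOrdNew_of_core : Stmt_TorsOrdNewCore M p → H54.Stmt_TorsOrdNew M p`.
-/

set_option autoImplicit false
set_option linter.style.haveILetI false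
set_option linter.unusedSectionVars false

noncomputable section

open AlgebraicCurve ModularCurve Fermat.Agent.S28.H73 Fermat.Agent.RED.H73

namespace Fermat.Agent.S33.New.H86

open Fermat.Agent.BAD Fermat.Agent.S36.H44

local notation "Kb" => AlgebraicClosure ℚ

section Generic

variable {K F F' : Type*} [Field K] [Field F] [Field F'] [Algebra K F] [Algebra K F']

/-- The norm along a morphism of function fields. -/
def normAlong (φ : F →ₐ[K] F') (x : F') : F :=
  letI := algebraAlong φ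
  Algebra.norm F x

/-- The norm of `f` along `φ` is a constant times a `p`-th power. -/
def IsNormPow (φ : F →ₐ[K] F') (p : ℕ) (f : F') : Prop :=
  ∃ (t : F) (c : K), normAlong φ f = algebraMap K F c * t ^ p

theorem normAlong_mul (φ : F →ₐ[K] F') (x y : F') :
    normAlong φ (x * y) = normAlong φ x * normAlong φ y := by
  letI := algebraAlong φ
  exact map_mul (Algebra.norm F) x y

theorem normAlong_pow (φ : F →ₐ[K] F') (x : F') (n : ℕ) :
    normAlong φ (x ^ n) = normAlong φ x ^ n := by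
  letI := algebraAlong φ
  exact map_pow (Algebra.norm F) x n

theorem normAlong_one (φ : F →ₐ[K] F') : normAlong φ (1 : F') = 1 := by
  letI := algebraAlong φ
  exact map_one (Algebra.norm F)

end Generic

/-- **(T3), Kummer form**, at level `M p`. -/
def Stmt_TorsOrdNewCore (M p : ℕ) [NeZero M] [NeZero p] : Prop :=
  p.Prime → p ≠ 2 → ¬ p ∣ M →
    ∀ A : ValuationSubring Kb, A.LiesOverPrime p →
      ∀ τ ∈ A.inertiaSubgroupIn ℚ, ∀ a : ℕ,
        (∀ ζ : Kb, ζ ^ p = 1 → τ ζ = ζ ^ a) →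
        ∀ f : ↥(gaussV A (M * p)), gaussRes A (M * p) f = 1 →
          (∀ P : Place Kb ↥(FNbar (M * p)), (p : ℤ) ∣ P.ord ((f : ↥(FNbar (M * p))))) →
          IsNormPow (heckeAlphaBar Kb M p) p ((f : ↥(FNbar (M * p)))) →
          IsNormPow (heckeBetaBar Kb M p) p ((f : ↥(FNbar (M * p)))) →
          ∃ h : ↥(FNbar (M * p)),
            h ^ p = (galF (M * p) τ • ((f : ↥(FNbar (M * p))))) / ((f : ↥(FNbar (M * p)))) ^ a

section Generic2

variable {K F F' : Type} [Field K] [Field F] [Field F'] [Algebra K F] [Algebra K F']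

/-- If `p D = div f` and the push-forward of `D` along `φ` is principal, the norm of `f` is a
constant times a `p`-th power. -/
theorem isNormPow_of_isPrincipal (H : Fermat.Agent.RED.H17.FFHyp K F) (φ : F →ₐ[K] F')
    (hφ : φ.toRingHom.IsIntegral) (hfin : FiniteAlong K φ) (hN : NormFormulaAlong K φ hfin)
    (p : ℕ) (D : Divisor K F') (f : F') (hf : f ≠ 0)
    (hD : ∀ P : Place K F', (p : ℤ) * D P = P.ord f)
    (hprin : (Divisor.pushforwardAlong φ hφ D).IsPrincipal) :
    IsNormPow φ p f := by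
  obtain ⟨t, ht0, ht⟩ := hprin
  letI := algebraAlong φ
  haveI := isScalarTower_along φ
  haveI := isIntegral_along φ hφ
  haveI : Module.Finite F F' := hfin
  have hN' : Divisor.PushforwardNormFormula K F F' := hN
  have h1 : ∀ v : Place K F, Divisor.pushforward F (p • D) v = v.ord (Algebra.norm F f) :=
    hN' f hf (p • D) (fun w => by
      rw [Finsupp.smul_apply, ← hD w]
      simp)
  have h2 : ∀ v : Place K F, v.ord (Algebra.norm F f) = v.ord (t ^ p) := by
    intro v
    rw [← h1 v, map_nsmul, Finsupp.smul_apply]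
    have h3 : Divisor.pushforward F D v = v.ord t := ht v
    rw [h3]
    have := Place.ord_zpow v t (p : ℤ)
    rw [zpow_natCast] at this
    rw [this]
    simp
  have hn0 : Algebra.norm F f ≠ 0 := by
    rw [Ne, Algebra.norm_eq_zero_iff]
    exact hf
  have htp0 : t ^ p ≠ 0 := pow_ne_zero _ ht0
  obtain ⟨c, hc⟩ := H.const_of_regular (f := Algebra.norm F f / t ^ p) (fun v => by
    rw [div_eq_mul_inv, Place.ord_mul _ hn0 (inv_ne_zero htp0), Place.ord_inv, h2 v]
    simp)
  refine ⟨t, c, ?_⟩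
  show Algebra.norm F f = algebraMap K F c * t ^ p
  rw [← hc, div_mul_cancel₀ _ htp0]

end Generic2

/-- Riemann's hypotheses for `F_N · ℚ̄`. -/
theorem ffHyp_FNbar (N : ℕ) [NeZero N] : Fermat.Agent.RED.H17.FFHyp Kb ↥(FNbar N) :=
  Fermat.Agent.RED.H17.ffHyp_of_isFF _ _ (isFF_FN N)

/-- **(T3) from its Kummer form.** -/
theorem torsOrdNew_of_core (M p : ℕ) [NeZero M] [NeZero p] (h : Stmt_TorsOrdNewCore M p) :
    H54.Stmt_TorsOrdNew M p := by
  intro hp hp2 hpM A hA τ hτ a hζ y hy hnew hK1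
  obtain ⟨D, f, rfl, hres, hD⟩ := hK1
  obtain ⟨h1, h2⟩ := (isQNew_iff M p _).1 hnew
  have hα := (pic0Push_mk_eq_zero_iff (heckeAlphaBar Kb M p) (alpha_integral M p)
    (alpha_finite M p) (alpha_norm M p) D).1 h1
  have hβ := (pic0Push_mk_eq_zero_iff (heckeBetaBar Kb M p) (beta_integral M p)
    (beta_finite M p) (beta_norm M p) D).1 h2
  have hf0 : ((f : ↥(gaussV A (M * p))) : ↥(FNbar (M * p))) ≠ 0 := by
    intro h0
    have e : f = 0 := Subtype.ext h0
    rw [e, map_zero] at hres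
    exact zero_ne_one hres
  have hNα := isNormPow_of_isPrincipal (ffHyp_FNbar M) (heckeAlphaBar Kb M p)
    (alpha_integral M p) (alpha_finite M p) (alpha_norm M p) p _ _ hf0 hD hα
  have hNβ := isNormPow_of_isPrincipal (ffHyp_FNbar M) (heckeBetaBar Kb M p)
    (beta_integral M p) (beta_finite M p) (beta_norm M p) p _ _ hf0 hD hβ
  obtain ⟨t, ht⟩ := h hp hp2 hpM A hA τ hτ a hζ f hres (fun P => ⟨_, (hD P).symm⟩) hNα hNβ
  have hp0 : (p : ℤ) ≠ 0 := by exact_mod_cast hp.ne_zero
  have hσf0 : galF (M * p) τ • ((f : ↥(gaussV A (M * p))) : ↥(FNbar (M * p))) ≠ 0 := by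
    intro h0
    apply hf0
    have h1 := congrArg (fun z => (galF (M * p) τ)⁻¹ • z) h0
    simp only [inv_smul_smul, smul_zero] at h1
    exact h1
  have hfa0 : ((f : ↥(gaussV A (M * p))) : ↥(FNbar (M * p))) ^ a ≠ 0 := pow_ne_zero _ hf0
  have ht0 : t ≠ 0 := by
    rintro rfl
    rw [zero_pow hp.ne_zero] at ht
    exact (div_ne_zero hσf0 hfa0) ht.symm
  -- `τ D - a D = div t`
  have hprin : ((SemilinearAut.degZeroSMulHom (galF (M * p) τ) D - a • D :
      Divisor.degZero (K := Kb) (F := ↥(FNbar (M * p)))) : Divisor Kb ↥(FNbar (M * p))) ∈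
      Divisor.principal (K := Kb) (F := ↥(FNbar (M * p))) := by
    refine ⟨t, ht0, fun P => ?_⟩
    have e : ((SemilinearAut.degZeroSMulHom (galF (M * p) τ) D - a • D :
        Divisor.degZero (K := Kb) (F := ↥(FNbar (M * p)))) : Divisor Kb ↥(FNbar (M * p))) P
        = (D : Divisor Kb ↥(FNbar (M * p))) ((galF (M * p) τ)⁻¹ • P)
          - (a : ℤ) * (D : Divisor Kb ↥(FNbar (M * p))) P := by
      rw [AddSubgroup.coe_sub, SemilinearAut.coe_degZeroSMulHom, Finsupp.sub_apply,
        SemilinearAut.divisor_smul_apply, AddSubgroup.coe_nsmul, Finsupp.smul_apply]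
      simp
    rw [e]
    apply mul_left_cancel₀ hp0
    have h1 : (p : ℤ) * P.ord t = P.ord (t ^ p) := by
      have := Place.ord_zpow P t (p : ℤ)
      rw [zpow_natCast] at this
      exact this.symm
    have h2 : P.ord (((f : ↥(gaussV A (M * p))) : ↥(FNbar (M * p))) ^ a)
        = (a : ℤ) * P.ord ((f : ↥(gaussV A (M * p))) : ↥(FNbar (M * p))) := by
      have := Place.ord_zpow P ((f : ↥(gaussV A (M * p))) : ↥(FNbar (M * p))) (a : ℤ)
      rw [zpow_natCast] at this
      exact this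
    rw [h1, ht, div_eq_mul_inv, Place.ord_mul _ hσf0 (inv_ne_zero hfa0), Place.ord_inv, h2,
      H91.ord_galF_smul, ← hD, ← hD]
    ring
  have hzero : (Pic0.mk (SemilinearAut.degZeroSMulHom (galF (M * p) τ) D - a • D) : JZero (M * p)) = 0 :=
    (QuotientAddGroup.eq_zero_iff _).2 (AddSubgroup.mem_addSubgroupOf.2 hprin)
  have hsub : galF (M * p) τ • (Pic0.mk D : JZero (M * p)) - a • (Pic0.mk D : JZero (M * p)) = 0 := by
    rw [SemilinearAut.pic0_smul_mk]
    exact hzero
  exact sub_eq_zero.1 hsub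

end Fermat.Agent.S33.New.H86

end
end
-- ==== END Fermat.Agent.S33.New.H86_Core

-- ==== BEGIN Fermat.Agent.S33.Wiring
section

/-!
# S33 wiring (helper86, cluster R)

`Fermat.Agent.S33.wiring`: the frozen statement S33 (a Hecke–Galois datum of level `N`, `p ∥ N`,
is ordinary at `p` provided its residual representation is) from

* `Stmt_OrdPoint`   : the same statement for representations over complete discrete valuation
  rings (geometric input),
* `Stmt_SepT`       : the points of `T` separate its elements (`T` is reduced),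
* `Stmt_FD`         : Frobenius density,
* `Stmt_CycInertia`, `Stmt_FrobCyc` : the cyclotomic character is non-trivial on inertia at `p`.

Proof.  Fix `P` over `p`.  There are `σ₀` in the inertia group and `v₀` with
`w₀ = ρ σ₀ v₀ - v₀ ∉ 𝔪 V`; `w₀` is the first vector of a basis `b₂`.  For `σ` in the inertia
group the second coordinate of `ρ σ v - v` vanishes at every point of `T` (the ordinary line of
the base change contains `1 ⊗ w₀`, hence is spanned by it), so it vanishes.  The line `T w₀`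
is the ordinary line.
-/

set_option autoImplicit false
set_option linter.style.haveILetI false

open Polynomial IsLocalRing
open scoped TensorProduct

namespace Fermat.Agent.S33

open Fermat.Agent.R Fermat.Agent.R.H86

/-- Replace the first vector of a basis by a vector whose first coordinate is a unit. -/
lemma exists_basis_replace {R M : Type*} [CommRing R] [AddCommGroup M] [Module R M]
    (b : Module.Basis (Fin 2) R M) (w : M) (hw : IsUnit (b.repr w 0)) :
    ∃ b₂ : Module.Basis (Fin 2) R M, b₂ 0 = w ∧ b₂ 1 = b 1 := by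
  classical
  let Mx : Matrix (Fin 2) (Fin 2) R := !![b.repr w 0, 0; b.repr w 1, 1]
  let f : M →ₗ[R] M := Matrix.toLin b b Mx
  have hdet : IsUnit (LinearMap.toMatrix b b f).det := by
    rw [LinearMap.toMatrix_toLin, Matrix.det_fin_two]
    simpa [Mx] using hw
  let e : M ≃ₗ[R] M := LinearEquiv.ofIsUnitDet hdet
  refine ⟨b.map e, ?_, ?_⟩
  · rw [Module.Basis.map_apply]
    show f (b 0) = w
    rw [Matrix.toLin_self, Fin.sum_univ_two]
    conv_rhs => rw [← b.sum_repr w, Fin.sum_univ_two]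
    simp [Mx]
  · rw [Module.Basis.map_apply]
    show f (b 1) = b 1
    rw [Matrix.toLin_self, Fin.sum_univ_two]
    simp [Mx]

/-- The inertia group is normalised by the decomposition group. -/
lemma conj_mem_inertiaSubgroupIn (P : ValuationSubring (AlgebraicClosure ℚ))
    {τ σ : AlgebraicClosure ℚ ≃ₐ[ℚ] AlgebraicClosure ℚ}
    (hτ : τ ∈ P.decompositionSubgroup ℚ) (hσ : σ ∈ P.inertiaSubgroupIn ℚ) :
    τ * σ * τ⁻¹ ∈ P.inertiaSubgroupIn ℚ := by
  obtain ⟨s, hs, rfl⟩ := hσ
  refine ⟨⟨τ, hτ⟩ * s * ⟨τ, hτ⟩⁻¹, ?_, rfl⟩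
  have hn : (P.inertiaSubgroup ℚ).Normal := by
    unfold ValuationSubring.inertiaSubgroup
    infer_instance
  exact hn.conj_mem s hs ⟨τ, hτ⟩

/-- The computation at one point: if the base change has an ordinary line, the second
coordinate of `r σ v - v` (`σ` in the inertia group) with respect to a basis starting with
`r σ₀ v₀ - v₀` vanishes at this point. -/
lemma coord_eq_zero_of_point {A B : Type} [CommRing A] [CommRing B] [Algebra A B]
    {V : Type} [AddCommGroup V] [Module A V]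
    (r : (AlgebraicClosure ℚ ≃ₐ[ℚ] AlgebraicClosure ℚ) → Module.End A V)
    (b₂ : Module.Basis (Fin 2) A V) (P : ValuationSubring (AlgebraicClosure ℚ))
    {σ₀ : AlgebraicClosure ℚ ≃ₐ[ℚ] AlgebraicClosure ℚ} (hσ₀ : σ₀ ∈ P.inertiaSubgroupIn ℚ)
    (v₀ : V) (hb₂0 : b₂ 0 = r σ₀ v₀ - v₀)
    (L' : Submodule B (B ⊗[A] V)) (b'' : Module.Basis (Fin 2) B (B ⊗[A] V))
    (hL' : L' = Submodule.span B {b'' 0})
    (hI' : ∀ s ∈ P.inertiaSubgroupIn ℚ, ∀ x : B ⊗[A] V, (r s).baseChange B x - x ∈ L')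
    {σ : AlgebraicClosure ℚ ≃ₐ[ℚ] AlgebraicClosure ℚ} (hσ : σ ∈ P.inertiaSubgroupIn ℚ)
    (v : V) : algebraMap A B (b₂.repr (r σ v - v) 1) = 0 := by
  classical
  subst hL'
  let b₂' : Module.Basis (Fin 2) B (B ⊗[A] V) := Algebra.TensorProduct.basis B b₂
  have hI'' : ∀ s ∈ P.inertiaSubgroupIn ℚ, ∀ x : V,
      ((1 : B) ⊗ₜ[A] (r s x - x) : B ⊗[A] V) ∈ Submodule.span B {b'' 0} := by
    intro s hs x
    have h1 := hI' s hs ((1 : B) ⊗ₜ[A] x)
    rwa [LinearMap.baseChange_tmul, ← TensorProduct.tmul_sub] at h1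
  obtain ⟨c₀, hc₀⟩ := Submodule.mem_span_singleton.1 (hI'' σ₀ hσ₀ v₀)
  obtain ⟨c, hc⟩ := Submodule.mem_span_singleton.1 (hI'' σ hσ v)
  have hb₂'0 : b₂' 0 = (1 : B) ⊗ₜ[A] (r σ₀ v₀ - v₀) := by
    rw [Algebra.TensorProduct.basis_apply, hb₂0]
  have hc₀u : IsUnit c₀ := by
    have h1 := congrArg (fun x => b₂'.repr x 0) hc₀
    simp only [map_smul, Finsupp.smul_apply, smul_eq_mul] at h1
    rw [← hb₂'0, Module.Basis.repr_self, Finsupp.single_eq_same] at h1
    exact IsUnit.of_mul_eq_one _ h1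
  have hmem : ((1 : B) ⊗ₜ[A] (r σ v - v) : B ⊗[A] V) ∈ Submodule.span B {b₂' 0} := by
    have hb'' : b'' 0 = (hc₀u.unit⁻¹ : Bˣ) • b₂' 0 := by
      rw [hb₂'0, ← hc₀, Units.smul_def, smul_smul]
      have : ((hc₀u.unit⁻¹ : Bˣ) : B) * c₀ = 1 := hc₀u.val_inv_mul
      rw [this, one_smul]
    rw [← hc, hb'', Units.smul_def, smul_smul]
    exact Submodule.smul_mem _ _ (Submodule.mem_span_singleton_self _)
  rw [mem_span_basis_zero_iff, Algebra.TensorProduct.basis_repr_tmul, one_smul,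
    Finsupp.mapRange_apply] at hmem
  exact hmem

variable {p : ℕ} {N : ℕ} [NeZero N] {S : Finset ℕ}
  {𝒪 : Type} [CommRing 𝒪] [IsDomain 𝒪] [IsDiscreteValuationRing 𝒪]
  [IsAdicComplete (IsLocalRing.maximalIdeal 𝒪) 𝒪]
  {θ : CuspForm.heckeAlgebra N 2 (↑S : Set ℕ) →+* IsLocalRing.ResidueField 𝒪}
  {T : Type} [CommRing T] [IsLocalRing T] [IsNoetherianRing T]
  [IsAdicComplete (IsLocalRing.maximalIdeal T) T] [Algebra 𝒪 T] [IsLocalHom (algebraMap 𝒪 T)]
  [Module.Finite 𝒪 T] [Module.Free 𝒪 T]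

/-- S33 from its version over discrete valuation rings. -/
theorem wiring (hOrd : Stmt_OrdPoint) (hSepT : Stmt_SepT) (hFD : Stmt_FD)
    (hCyc : Stmt_CycInertia) (hFrob : Stmt_FrobCyc)
    [Finite (IsLocalRing.ResidueField 𝒪)] [CharZero 𝒪]
    (hp : p.Prime) (hp2 : p ≠ 2) (hp𝒪 : (p : 𝒪) ∈ IsLocalRing.maximalIdeal 𝒪)
    (hN : p ∣ N ∧ ¬ p ^ 2 ∣ N)
    (hNS : ∀ q : ℕ, q.Prime → q ∣ N → q ∈ S)
    (H : CuspForm.HeckeGaloisRepDatum N (↑S : Set ℕ) 𝒪 θ T)
    (hres : (GaloisRepAdic.ofResidualGaloisRep H.ρ.residual).IsOrdinaryAt p) :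
    H.ρ.IsOrdinaryAt p := by
  classical
  intro P hP
  have hpS : p ∈ S := hNS p hp hN.1
  have hpT : (p : T) ∈ maximalIdeal T := natCast_mem_maximalIdeal_of_algebra hp𝒪
  obtain ⟨σ₀, hσ₀, v₀, hw₀⟩ := exists_inertia_notMem hFD hCyc hFrob hp hp2 hpS hNS hpT
    H.π H.ρ (hasFrobCharpoly_datum H) P hP
  obtain ⟨b, hb⟩ := exists_resOrdAt (fun σ => H.ρ.ρ σ) P
    ((residual_isOrdinaryAt_iff _ _).1 hres P hP)
  -- coordinates of `w₀`
  have hβ₀ : b.repr (H.ρ.ρ σ₀ v₀ - v₀) 1 ∈ maximalIdeal T := hb.2 σ₀ hσ₀ v₀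
  have hα₀ : IsUnit (b.repr (H.ρ.ρ σ₀ v₀ - v₀) 0) := by
    by_contra hnu
    apply hw₀
    rw [← b.sum_repr (H.ρ.ρ σ₀ v₀ - v₀), Fin.sum_univ_two]
    exact add_mem (Submodule.smul_mem_smul ((mem_maximalIdeal _).2 hnu) trivial)
      (Submodule.smul_mem_smul hβ₀ trivial)
  obtain ⟨b₂, hb₂0, -⟩ := exists_basis_replace b _ hα₀
  -- main claim
  have hmain : ∀ σ ∈ P.inertiaSubgroupIn ℚ, ∀ v : H.ρ.V,
      b₂.repr (H.ρ.ρ σ v - v) 1 = 0 := by
    intro σ hσ v
    by_contra hne
    obtain ⟨𝒪', i1, i2, i3, i4, i5, i6, ψ, hψ, hψne⟩ := hSepT N S 𝒪 θ T hNS H _ hne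
    have hp𝒪' : (p : 𝒪') ∈ maximalIdeal 𝒪' := by
      have h1 : (p : 𝒪') = ψ (p : T) := by rw [map_natCast]
      rw [h1]
      exact (mem_maximalIdeal _).2 (map_nonunit ψ _ ((mem_maximalIdeal _).1 hpT))
    have hord' := hOrd p N S 𝒪' hp hp2 hp𝒪' hN hNS (ψ.comp H.π) (H.ρ.baseChangeAlong ψ hψ)
      (hasFrobCharpoly_baseChangeAlong ψ hψ H.π H.ρ (hasFrobCharpoly_datum H))
      (residual_absIrr_baseChangeAlong ψ hψ H.ρ H.residual_absIrr)
      (residual_isOrdinaryAt_baseChangeAlong ψ hψ H.ρ p hres)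
    obtain ⟨L', ⟨b'', hL'⟩, -, hI'⟩ := hord' P hP
    letI : Algebra T 𝒪' := ψ.toAlgebra
    exact hψne (coord_eq_zero_of_point (B := 𝒪') (fun s => H.ρ.ρ s) b₂ P hσ₀ v₀ hb₂0 L' b'' hL'
      hI' hσ v)
  refine ⟨Submodule.span T {b₂ 0}, ⟨b₂, rfl⟩, ?_, ?_⟩
  · intro τ hτ v hv
    obtain ⟨c, rfl⟩ := Submodule.mem_span_singleton.1 hv
    rw [map_smul]
    refine Submodule.smul_mem _ _ ?_
    have hconj := conj_mem_inertiaSubgroupIn P hτ hσ₀
    have e : H.ρ.ρ τ (b₂ 0)
        = H.ρ.ρ (τ * σ₀ * τ⁻¹) (H.ρ.ρ τ v₀) - H.ρ.ρ τ v₀ := by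
      rw [hb₂0, map_sub, ← Module.End.mul_apply, ← Module.End.mul_apply, ← map_mul, ← map_mul,
        inv_mul_cancel_right]
    rw [e, mem_span_basis_zero_iff]
    exact hmain _ hconj _
  · intro σ hσ v
    rw [mem_span_basis_zero_iff]
    exact hmain σ hσ v

end Fermat.Agent.S33

end
-- ==== END Fermat.Agent.S33.Wiring

-- ==== BEGIN Fermat.Agent.S44.BadP
section

set_option autoImplicit false

namespace Fermat.Agent.S44

/-- The mod `p` cyclotomic character is ramified at `p`: some element of the inertia group moves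
a `p`-th root of unity. -/
def Stmt_CycRam : Prop :=
  ∀ (p : ℕ), p.Prime → p ≠ 2 →
    ∀ A : ValuationSubring (AlgebraicClosure ℚ), A.LiesOverPrime p →
      ∃ σ ∈ A.inertiaSubgroupIn ℚ, ∃ ζ : AlgebraicClosure ℚ, ζ ^ p = 1 ∧ σ ζ ≠ ζ

/-- **BAD_p, abstract form.**  See the header. -/
def HeckeGaloisModule.HasBadFiltration {p : ℕ} (H : HeckeGaloisModule p) (N : ℕ)
    (A : ValuationSubring (AlgebraicClosure ℚ)) : Prop :=
  ∃ T G : Submodule (ZMod p) H.J, T ≤ G ∧
    (∀ σ ∈ A.inertiaSubgroupIn ℚ, ∀ n : ℕ,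
      (∀ ζ : AlgebraicClosure ℚ, ζ ^ p = 1 → σ ζ = ζ ^ n) →
        ∀ x ∈ T, H.gal σ x = (n : ZMod p) • x) ∧
    (∀ σ ∈ A.inertiaSubgroupIn ℚ, ∀ x : H.J, H.gal σ x - x ∈ G) ∧
    (∀ (S : Finset ℕ) (t : ℕ → ℤ) (x : H.J), x ∈ G → x ∉ T →
      (∀ ℓ : ℕ, ℓ.Prime → ℓ ∉ S → ¬ ℓ ∣ N → ℓ ≠ p → H.T ℓ x = ((t ℓ : ℤ) : ZMod p) • x) →
      ∃ (g : CuspForm (CongruenceSubgroup.Gamma0 (N / p)) 2) (𝔪 : Ideal ZBar),
        g.IsNormalizedEigenform ∧ 𝔪.IsMaximal ∧ (p : ZBar) ∈ 𝔪 ∧
        ∀ ℓ : ℕ, ℓ.Prime → ℓ ∉ S → ¬ ℓ ∣ N → ℓ ≠ p →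
          ∃ a : ZBar, (a : ℂ) = ModularFormClass.qCoeff g ℓ ∧ a - ((t ℓ : ℤ) : ZBar) ∈ 𝔪) ∧
    (∀ (S : Finset ℕ) (t : ℕ → ℤ) (x : H.J),
      (∀ ℓ : ℕ, ℓ.Prime → ℓ ∉ S → ¬ ℓ ∣ N → ℓ ≠ p → H.T ℓ x = ((t ℓ : ℤ) : ZMod p) • x) →
      (∃ ℓ : ℕ, ℓ.Prime ∧ ℓ ∉ S ∧ ¬ ℓ ∣ N ∧ ℓ ≠ p ∧ ((t ℓ : ℤ) : ZMod p) ≠ 1 + (ℓ : ZMod p)) →
      (∀ σ ∈ A.inertiaSubgroupIn ℚ, H.gal σ x - x ∈ T) →
      (∃ u : ℤ, ¬ (p : ℤ) ∣ u ∧ ∀ σ ∈ A.inertiaSubgroupIn ℚ,
        (∀ ζ : AlgebraicClosure ℚ, ζ ^ p = 1 → σ ζ = ζ) →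
        (∀ z : AlgebraicClosure ℚ, z ^ p = (u : AlgebraicClosure ℚ) → σ z = z) →
          H.gal σ x = x) →
      x ∈ G)

/-- An automorphism of `ℚ̄` acts on the `p`-th roots of unity by `ζ ↦ ζ ^ n` for some `n : ℕ`. -/
theorem exists_pow_on_roots (p : ℕ) (hp : 0 < p) (σ : GQ) :
    ∃ n : ℕ, ∀ ζ : AlgebraicClosure ℚ, ζ ^ p = 1 → σ ζ = ζ ^ n := by
  haveI : NeZero p := ⟨hp.ne'⟩
  obtain ⟨m, hm⟩ := rootsOfUnity.integer_power_of_ringEquiv (n := p) (σ : AlgebraicClosure ℚ ≃+* AlgebraicClosure ℚ)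
  refine ⟨(m % (p : ℤ)).toNat, fun ζ hζ => ?_⟩
  have hζ0 : ζ ≠ 0 := by
    rintro rfl
    rw [zero_pow hp.ne'] at hζ
    exact zero_ne_one hζ
  have hmem : (Units.mk0 ζ hζ0) ∈ rootsOfUnity p (AlgebraicClosure ℚ) := by
    rw [mem_rootsOfUnity]
    ext
    simpa using hζ
  have h1 := hm ⟨Units.mk0 ζ hζ0, hmem⟩
  have h2 : σ ζ = ζ ^ m := by
    simpa using h1
  rw [h2]
  have hnn : 0 ≤ m % (p : ℤ) := Int.emod_nonneg _ (by exact_mod_cast hp.ne')
  have hdecomp : m = (p : ℤ) * (m / (p : ℤ)) + ((m % (p : ℤ)).toNat : ℤ) := by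
    rw [Int.toNat_of_nonneg hnn]
    exact (Int.mul_ediv_add_emod m p).symm
  conv_lhs => rw [hdecomp]
  rw [zpow_add₀ hζ0, zpow_mul, zpow_natCast, hζ, one_zpow, one_mul, zpow_natCast]

/-- **Mazur's principle at `p`** from the abstract structure. -/
theorem removesP_of_bad {p : ℕ} (hp : p.Prime) (H : HeckeGaloisModule p) (N : ℕ)
    (A : ValuationSubring (AlgebraicClosure ℚ))
    (hcyc : ∃ σ ∈ A.inertiaSubgroupIn ℚ, ∃ ζ : AlgebraicClosure ℚ, ζ ^ p = 1 ∧ σ ζ ≠ ζ)
    (hbad : H.HasBadFiltration N A) : H.RemovesP N A := by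
  haveI : Fact p.Prime := ⟨hp⟩
  intro V _ _ ρ ι S t hdim hirr hfin hinj hequiv hT hNE
  obtain ⟨T, G, hTG, ha, hb, hc, hd⟩ := hbad
  obtain ⟨L, hLtop, hLχ, hLtriv, u, hu, hpeu⟩ := hfin
  by_cases hcase : ∃ v : V, ι v ∈ G ∧ ι v ∉ T
  · -- an eigenvector in `G` outside `T`
    obtain ⟨v, hvG, hvT⟩ := hcase
    exact hc S t (ι v) hvG hvT (fun ℓ hℓ hℓS hℓN hℓp => hT ℓ hℓ hℓS hℓN hℓp v)
  · exfalso
    push Not at hcase
    -- every vector of `V` lies in `G`
    have hVG : ∀ v : V, ι v ∈ G := by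
      intro v
      refine hd S t (ι v) (fun ℓ hℓ hℓS hℓN hℓp => hT ℓ hℓ hℓS hℓN hℓp v) hNE ?_
        ⟨u, hu, fun σ hσ h1 h2 => ?_⟩
      · intro σ hσ
        have h1 : H.gal σ (ι v) - ι v = ι (ρ σ v - v) := by
          rw [map_sub, hequiv]
        rw [h1]
        apply hcase
        rw [← h1]
        exact hb σ hσ (ι v)
      · rw [← hequiv, hpeu σ hσ h1 h2 v]
    have hVT : ∀ v : V, ι v ∈ T := fun v => hcase v (hVG v)
    -- inertia acts on `V` through the cyclotomic character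
    obtain ⟨σ, hσ, ζ, hζ, hne⟩ := hcyc
    obtain ⟨n, hn⟩ := exists_pow_on_roots p hp.pos σ
    have hact : ∀ v : V, ρ σ v = (n : ZMod p) • v := by
      intro v
      apply hinj
      rw [hequiv, ha σ hσ n hn (ι v) (hVT v), map_smul]
    -- a vector outside `L`
    obtain ⟨x, hx⟩ : ∃ x : V, x ∉ L := by
      by_contra hall
      push Not at hall
      exact hLtop (eq_top_iff.mpr fun x _ => hall x)
    have hmem : ((n : ZMod p) - 1) • x ∈ L := by
      have := hLtriv σ hσ x
      rwa [hact x, ← one_smul (ZMod p) x, smul_smul, mul_one, ← sub_smul] at this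
    by_cases h1 : (n : ZMod p) = 1
    · -- then `σ` fixes the roots of unity
      apply hne
      rw [hn ζ hζ]
      have hmod : n % p = 1 % p := by
        have := (ZMod.natCast_eq_natCast_iff' n 1 p).mp (by simpa using h1)
        exact this
      have h1p : 1 % p = 1 := Nat.mod_eq_of_lt hp.one_lt
      have hdec : n = p * (n / p) + 1 := by
        have := Nat.div_add_mod n p
        omega
      rw [hdec, pow_add, pow_mul, hζ, one_pow, one_mul, pow_one]
    · apply hx
      have h2 : (n : ZMod p) - 1 ≠ 0 := sub_ne_zero.mpr h1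
      have := L.smul_mem ((n : ZMod p) - 1)⁻¹ hmem
      rwa [smul_smul, inv_mul_cancel₀ h2, one_smul] at this

end Fermat.Agent.S44

end
-- ==== END Fermat.Agent.S44.BadP

-- ==== BEGIN Fermat.Agent.S59.Datum.Defs
section

set_option autoImplicit false

open Polynomial IsLocalRing CuspForm

namespace Fermat.Agent.S59.Datum

/-- `Gal(ℚ̄/ℚ)`. -/
abbrev GalQ : Type := AlgebraicClosure ℚ ≃ₐ[ℚ] AlgebraicClosure ℚ

/-- The Frobenius characteristic polynomials of `ρbar` are given by `θ`. -/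
def FrobHyp {k : Type} [Field k] (ρbar : ResidualGaloisRep k) (N : ℕ) [NeZero N] (S : Finset ℕ)
    (θ : CuspForm.heckeAlgebra N 2 (↑S : Set ℕ) →+* k) : Prop :=
  ∀ (ℓ : ℕ) (hℓ : ℓ.Prime) (hℓN : ¬ ℓ ∣ N) (hℓS : ℓ ∉ (↑S : Set ℕ)),
    ∀ A : ValuationSubring (AlgebraicClosure ℚ), A.LiesOverPrime ℓ →
      ∀ σ : GalQ, A.IsFrobeniusAt σ ℓ →
        LinearMap.charpoly (ρbar.ρ σ) =
          X ^ 2 - C (θ (CuspForm.heckeAlgebra.T hℓ hℓN hℓS)) * X + C ((ℓ : k))

/-- **DATUM**: the Hecke–Galois datum over the full local Hecke ring, with cyclotomic determinant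
and residual representation `ρbar`. -/
def Stmt_DATUM : Prop :=
  ∀ (𝒪 : Type) [CommRing 𝒪] [IsDomain 𝒪] [IsDiscreteValuationRing 𝒪]
    [IsAdicComplete (maximalIdeal 𝒪) 𝒪] [Finite (ResidueField 𝒪)] [CharZero 𝒪]
    (p : ℕ) [Fact p.Prime], p ≠ 2 → (p : 𝒪) ∈ maximalIdeal 𝒪 →
    ∀ (N : ℕ) [NeZero N] [Fact (CuspForm.HasIntegralStructure N 2)] (S : Finset ℕ), p ∈ S →
    (∀ q : ℕ, q.Prime → q ∣ N → q ∈ S) →
    ∀ (ρbar : ResidualGaloisRep (ResidueField 𝒪)), ρbar.IsAbsolutelyIrreducible →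
    ∀ (θ : CuspForm.heckeAlgebra N 2 (↑S : Set ℕ) →+* ResidueField 𝒪), FrobHyp ρbar N S θ →
    ∃ H : CuspForm.HeckeGaloisRepDatum N (↑S : Set ℕ) 𝒪 θ (CuspForm.heckeLocal N (↑S : Set ℕ) 𝒪 θ),
      H.π = CuspForm.heckeLocal.π N (↑S : Set ℕ) 𝒪 θ ∧
      H.ρ.DetIsCyclotomic p ∧
      H.ρ.residual.IsEquiv (ρbar.baseChangeAlong
        (ResidueField.map (algebraMap 𝒪 (CuspForm.heckeLocal N (↑S : Set ℕ) 𝒪 θ))))

/-! ### Leaves -/

/-- **RING**: the ring-theoretic fields of a Hecke–Galois datum hold for the full local Hecke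
ring `heckeLocal` with `π = heckeLocal.π`.
[`heckeLocal` is the localisation of `𝒪 ⊗ 𝕋` at the maximal ideal `ker (𝒪 ⊗ 𝕋 → k)`;
`𝒪 ⊗ 𝕋 → heckeLocal` is surjective (prelude `Algebra.finite_maximalSpectrum_and_bijective_…`, cf.
`trio_surjective_atPrime` in `Def_CuspForm_HeckeLocal`); a character `χ` lifting `θ` sends the
complement of the maximal ideal to units of `𝒪`.] -/
def Stmt_Ring : Prop :=
  ∀ (𝒪 : Type) [CommRing 𝒪] [IsDomain 𝒪] [IsDiscreteValuationRing 𝒪]
    [IsAdicComplete (maximalIdeal 𝒪) 𝒪]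
    (N : ℕ) [NeZero N] [Fact (CuspForm.HasIntegralStructure N 2)] (S : Set ℕ)
    (θ : CuspForm.heckeAlgebra N 2 S →+* ResidueField 𝒪),
    (∀ t : CuspForm.heckeAlgebra N 2 S,
      residue (CuspForm.heckeLocal N S 𝒪 θ) (CuspForm.heckeLocal.π N S 𝒪 θ t) =
        ResidueField.map (algebraMap 𝒪 (CuspForm.heckeLocal N S 𝒪 θ)) (θ t)) ∧
    Algebra.adjoin 𝒪 (Set.range (CuspForm.heckeLocal.π N S 𝒪 θ)) = ⊤ ∧
    (∀ χ : CuspForm.heckeAlgebra N 2 S →+* 𝒪,
      (∀ t : CuspForm.heckeAlgebra N 2 S, residue 𝒪 (χ t) = θ t) →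
        ∃ ψ : CuspForm.heckeLocal N S 𝒪 θ →ₐ[𝒪] 𝒪,
          ∀ t : CuspForm.heckeAlgebra N 2 S, ψ (CuspForm.heckeLocal.π N S 𝒪 θ t) = χ t) ∧
    Function.Surjective
      (residue (CuspForm.heckeLocal N S 𝒪 θ) ∘ algebraMap 𝒪 (CuspForm.heckeLocal N S 𝒪 θ))

/-- **ADAPT**: an involution of determinant `-1` of a free module of rank two over a principal
ideal domain in which `2` is a unit has matrix `diag(1, -1)` in a suitable basis.
[`V = V⁺ ⊕ V⁻`, `V^± = range (1 ± f)`; both are free; `det = (-1)^(rank V⁻)`.] -/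
def Stmt_Adapt : Prop :=
  ∀ (O : Type) [CommRing O] [IsDomain O] [IsPrincipalIdealRing O], IsUnit (2 : O) →
    ∀ (V : Type) [AddCommGroup V] [Module O V] [Module.Free O V] [Module.Finite O V],
      Module.finrank O V = 2 →
      ∀ f : Module.End O V, f * f = 1 → LinearMap.det f = -1 →
        ∃ b : Module.Basis (Fin 2) O V, H7.IsSign (LinearMap.toMatrix b b f)

/-- **DETCYC**: a representation over a local ring `A` whose topology is the `p`-adic one, with
`det ρ(Frob_ℓ) = ℓ` for all primes `ℓ` outside a finite set, has cyclotomic determinant.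
[Copy of the proof of `Tate.H4.stmt_T2_of` (Tate/H4_Det.lean): Frobenius density
`Lib.FrobDensity.stmt_FD`, `R.H89.stmt_FrobCyc`, continuity.] -/
def Stmt_DetCyc : Prop :=
  ∀ (A : Type) [CommRing A] [IsLocalRing A] (p : ℕ) [Fact p.Prime],
    (p : A) ∈ maximalIdeal A →
    (∀ n : ℕ, ∃ m : ℕ, maximalIdeal A ^ m ≤ Ideal.span {((p ^ n : ℕ) : A)}) →
    ∀ (ρ : GaloisRepAdic A) (S : Finset ℕ),
      (∀ ℓ : ℕ, ℓ.Prime → ℓ ∉ S → ∀ B : ValuationSubring (AlgebraicClosure ℚ),
        B.LiesOverPrime ℓ → ∀ σ : GalQ, B.IsFrobeniusAt σ ℓ →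
          LinearMap.det (ρ.ρ σ) = (ℓ : A)) →
      ρ.DetIsCyclotomic p

/-- **RESEQ**: two residual representations with the same characteristic polynomials at the
Frobenius elements outside a finite set of primes, one of them absolutely irreducible, are
equivalent.  [Frobenius density gives equal traces everywhere (both factor through a finite
level); then `R.H25.isEquiv_of_trace_eq` (Carayol over the field `k`) via
`GaloisRepAdic.ofResidualGaloisRep`, or Burnside + trace form directly.] -/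
def Stmt_ResEq : Prop :=
  ∀ (k : Type) [Field k] (ρ₁ ρ₂ : ResidualGaloisRep k) (S : Finset ℕ),
    ρ₂.IsAbsolutelyIrreducible →
    (∀ ℓ : ℕ, ℓ.Prime → ℓ ∉ S → ∀ B : ValuationSubring (AlgebraicClosure ℚ),
      B.LiesOverPrime ℓ → ∀ σ : GalQ, B.IsFrobeniusAt σ ℓ →
        LinearMap.charpoly (ρ₁.ρ σ) = LinearMap.charpoly (ρ₂.ρ σ)) →
    ρ₁.IsEquiv ρ₂

end Fermat.Agent.S59.Datum

end
-- ==== END Fermat.Agent.S59.Datum.Defs
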