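-- GENERATED (merged mirror, NOTES/tools/trim/merge3_helper67.py): 10 modules of the originals, bodies verbatim.
import Fermat.Agent.Zm.S35_L20_000
import Fermat.Agent.Zm.S35_L05_000
import Fermat.Agent.Zm.S35_L15_000
import Fermat.Agent.Zm.S35_L14_000
import Fermat.Agent.Zm.S35_L13_000
import Fermat.Agent.Zm.S35_L11_001
import Fermat.Agent.Zm.S35_L16_000
import Fermat.Agent.Zm.S35_L17_000
import Fermat.Agent.Zm.S35_L04_005
import Fermat.Agent.Zm.S35_L07_000
import Fermat.Agent.Zm.S35_L10_001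
import Fermat.Agent.Zm.S35_L02_001
import Fermat.Agent.Zm.S35_L05_001
import Fermat.Agent.Zm.S35_L11_000
import Fermat.Agent.Zm.S35_L15_001
import Fermat.Agent.Zm.S35_L14_001
import Fermat.Agent.Zm.S35_L16_001
import Fermat.Agent.Zm.S35_L12_001
import Fermat.Agent.Zm.S35_L18_000
import Fermat.Agent.Zm.S35_L12_000
import Fermat.Agent.Zm.S35_L10_002
import Fermat.Agent.Zm.S35_L01_000

-- ==== BEGIN Fermat.Agent.BAD.H23_TotMod
section
attribute [local instance 10000] HahnSeries.powerSeriesAlgebra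

/-!
# Item 65 (BAD_q), leaf TOT-MOD (helper23): the law of total conservation for `F_{Mq} · ℚ̄`

Instantiation of helper28's `H28.tot_of_normRed` (TOT-ABS) at
`E = F_M ⊂ L = F_{Mq}`, `V₁ = gaussV A (M q)`, `V₂ = V₁ ∘ w_q`, `L₁ = L₂ = F₁ = redField (M q)`,
`E' = redField M`, `SE = H91.seM`, `κ = H91.kappa`, `ρ = H91.rhoF1`, `β = H73.betaF1`.

Main result: `tot_mod` = the hypothesis `htot` of `H91.totDataOf`.
-/

set_option autoImplicit false
set_option synthInstance.maxHeartbeats 400000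
set_option maxHeartbeats 400000
set_option linter.style.haveILetI false
set_option linter.unusedSectionVars false

noncomputable section

open AlgebraicCurve ModularCurve
open Fermat.Agent.S28.H73 Fermat.Agent.RED.H73 Fermat.Agent.RED Fermat.Agent.S24
open Fermat.Agent.BAD.H88

namespace Fermat.Agent.BAD.H23

open Fermat.Agent.BAD

/-! ## The tower `E = F_M ⊂ L = F_{Mq}` -/

section Tower

variable (q M : ℕ) [NeZero M] [NeZero (M * q)]

/-- `F_{Mq}` as an algebra over `F_M`. -/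
@[reducible] def algEL : Algebra (FN M) (FN (M * q)) := algebraAlong (H91.incl M q)

theorem isScalarTower_EL :
    letI := _root_.Fermat.Agent.BAD.H23.algEL q M
    IsScalarTower Kbar (FN M) (FN (M * q)) := isScalarTower_along (H91.incl M q)

theorem finite_EL :
    letI := _root_.Fermat.Agent.BAD.H23.algEL q M
    Module.Finite (FN M) (FN (M * q)) :=
  (H51.stmt_FFB_finite _ _ _ (H95.stmt_HKA_isFF M) (H95.stmt_HKA_isFF (M * q)) (H91.incl M q)).2

theorem finrank_EL (hq : q.Prime) (hqM : ¬ q ∣ M) :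
    letI := _root_.Fermat.Agent.BAD.H23.algEL q M
    Module.finrank (FN M) (FN (M * q)) = q + 1 :=
  (Fermat.Agent.Lib.HeckeComm.relfinrank_FN M (M * q) (dvd_mul_right M q)).symm.trans
    (H82.relfinrank_FM_FN q M hq hqM)

/-- The norm formula for `F_{Mq} / F_M`. -/
theorem normFormula_EL :
    letI := _root_.Fermat.Agent.BAD.H23.algEL q M
    haveI := isScalarTower_EL q M
    haveI := finite_EL q M
    Divisor.PushforwardNormFormula Kbar (FN M) (FN (M * q)) :=
  H51.stmt_FFB_norm Kbar (FN M) (FN (M * q)) (H95.stmt_HKA_isFF M)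
    (H95.stmt_HKA_isFF (M * q)) (H91.incl M q) (finite_EL q M)

/-- All inertia degrees are `1`. -/
theorem inertiaDeg_EL (w : Place Kbar (FN (M * q))) :
    letI := _root_.Fermat.Agent.BAD.H23.algEL q M
    haveI := isScalarTower_EL q M
    haveI := finite_EL q M
    w.inertiaDeg (FN M) = 1 := by
  letI := _root_.Fermat.Agent.BAD.H23.algEL q M
  haveI := isScalarTower_EL q M
  haveI := finite_EL q M
  have h := w.deg_restrict_mul_inertiaDeg (F := FN M)
  rw [H51.stmt_FFB_deg Kbar (FN M) (H95.stmt_HKA_isFF M),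
    H51.stmt_FFB_deg Kbar (FN (M * q)) (H95.stmt_HKA_isFF (M * q)), one_mul] at h
  exact h

end Tower

/-! ## Equal intermediate fields (abstract, to keep the two levels apart) -/

section Abs

variable {k X : Type*} [Field k] [Field X] [Algebra k X]

theorem coe_equivOfEq {E₁ E₂ : IntermediateField k X} (h : E₁ = E₂) (y : ↥E₁) :
    ((IntermediateField.equivOfEq h y : ↥E₂) : X) = (y : X) := by
  subst h
  rfl

theorem equivOfEq_surjective {E₁ E₂ : IntermediateField k X} (h : E₁ = E₂) :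
    Function.Surjective (IntermediateField.equivOfEq h) :=
  (IntermediateField.equivOfEq h).surjective

end Abs

/-! ## The two structures of `F₁` over the residue field of level `M` -/

section Structures

variable (A : ValuationSubring Kbar) (q M : ℕ) (a b : ℤ) (hab : a * q + b * M = 1)
  (hq : q.Prime) [NeZero M] [NeZero (M * q)] (hA : A.LiesOverPrime q)

/-- The identification of the residue field of level `M` with `F₁`. -/
def eRed : ↥(H91.redM A M) ≃ₐ[kV A] F1 A q M :=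
  IntermediateField.equivOfEq (H82.redField_eq_redField q M a b hab hq A hA).symm

theorem coe_eRed (y : ↥(H91.redM A M)) :
    ((eRed A q M a b hab hq hA y : F1 A q M) : LaurentSeries (kV A))
      = (y : LaurentSeries (kV A)) :=
  coe_equivOfEq _ y

/-- The first structure: the identification. -/
@[reducible] def alg1 : Algebra ↥(H91.redM A M) (F1 A q M) :=
  (eRed A q M a b hab hq hA).toAlgHom.toRingHom.toAlgebra

theorem algebraMap_alg1 (y : ↥(H91.redM A M)) :
    letI := alg1 A q M a b hab hq hA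
    algebraMap ↥(H91.redM A M) (F1 A q M) y = eRed A q M a b hab hq hA y := rfl

theorem surj_alg1 :
    letI := alg1 A q M a b hab hq hA
    Function.Surjective (algebraMap ↥(H91.redM A M) (F1 A q M)) :=
  (eRed A q M a b hab hq hA).surjective

theorem finrank_alg1 :
    letI := alg1 A q M a b hab hq hA
    Module.finrank ↥(H91.redM A M) (F1 A q M) = 1 := by
  letI := alg1 A q M a b hab hq hA
  exact H73.finrank_of_bij (surj_alg1 A q M a b hab hq hA)

theorem finite_alg1 :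
    letI := alg1 A q M a b hab hq hA
    Module.Finite ↥(H91.redM A M) (F1 A q M) := by
  letI := alg1 A q M a b hab hq hA
  exact Module.finite_of_finrank_pos (by rw [finrank_alg1]; exact one_pos)

variable (hD : redField A (modularFunctionFieldBar (M * q)) (hSc A q M)
  = modularFunctionFieldFullC (kV A) M)

/-- The second structure: the identification followed by `Fr`. -/
@[reducible] def alg2 : Algebra ↥(H91.redM A M) (F1 A q M) :=
  ((H73.FrF1 A q M hq hA M hD).toRingHom.comp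
    (eRed A q M a b hab hq hA).toAlgHom.toRingHom).toAlgebra

theorem algebraMap_alg2 (y : ↥(H91.redM A M)) :
    letI := alg2 A q M a b hab hq hA hD
    algebraMap ↥(H91.redM A M) (F1 A q M) y
      = H73.FrF1 A q M hq hA M hD ((eRed A q M a b hab hq hA).toRingEquiv y) := rfl

theorem finrank_alg2 (hqM : ¬ q ∣ M) :
    letI := alg2 A q M a b hab hq hA hD
    Module.finrank ↥(H91.redM A M) (F1 A q M) = q := by
  letI := alg2 A q M a b hab hq hA hD
  exact H73.finrank_F1_Fr A q M hq hA M hD (eRed A q M a b hab hq hA).toRingEquiv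
    (algebraMap_alg2 A q M a b hab hq hA hD) hqM

theorem finite_alg2 (hqM : ¬ q ∣ M) :
    letI := alg2 A q M a b hab hq hA hD
    Module.Finite ↥(H91.redM A M) (F1 A q M) := by
  letI := alg2 A q M a b hab hq hA hD
  exact Module.finite_of_finrank_pos (by rw [finrank_alg2 A q M a b hab hq hA hD hqM]; exact hq.pos)

/-- `ord_{κ z} (N₁ g) = ord_z g`. -/
theorem ord_norm_alg1 (z : Place (kV A) (F1 A q M)) (g : F1 A q M) :
    letI := alg1 A q M a b hab hq hA
    (H91.kappa A q M a b hab hq hA z).ord (Algebra.norm ↥(H91.redM A M) g) = z.ord g := by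
  letI := alg1 A q M a b hab hq hA
  obtain ⟨x, rfl⟩ := surj_alg1 A q M a b hab hq hA g
  rw [H73.norm_of_bij (surj_alg1 A q M a b hab hq hA) x]
  exact H91.kappa_ord A q M a b hab hq hA z _ x (coe_eRed A q M a b hab hq hA x)

/-- `ord_{κ z} (N₂ g) = ord_{β z} g`. -/
theorem ord_norm_alg2 (hqM : ¬ q ∣ M) (z : Place (kV A) (F1 A q M)) (g : F1 A q M) :
    letI := alg2 A q M a b hab hq hA hD
    (H91.kappa A q M a b hab hq hA z).ord (Algebra.norm ↥(H91.redM A M) g)
      = (H73.betaF1 A q M hq hA M hD z).ord g := by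
  letI := alg2 A q M a b hab hq hA hD
  rw [← H73.ord_norm_F1_Fr A q M hq hA M hD (eRed A q M a b hab hq hA).toRingEquiv
    (algebraMap_alg2 A q M a b hab hq hA hD) hqM z g]
  exact H91.kappa_ord A q M a b hab hq hA z _ _ (coe_eRed A q M a b hab hq hA _)

end Structures

/-! ## Compatibilities and the law of total conservation -/

section Final

variable (A : ValuationSubring Kbar) (q M : ℕ) (a b : ℤ) (hab : a * q + b * M = 1)
  (hq : q.Prime) [NeZero M] [NeZero (M * q)] (hA : A.LiesOverPrime q)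
  (hqM : ¬ q ∣ M) (ht : H91.TameAt M q)

theorem hV1_mod (x : FN M) (hx : x ∈ (H91.seM hq hqM ht hA).V) :
    letI := _root_.Fermat.Agent.BAD.H23.algEL q M
    algebraMap (FN M) (FN (M * q)) x ∈ V1 A q M := by
  haveI : NeZero q := ⟨hq.ne_zero⟩
  exact (alpha_mem_V1_iff A q M x).mpr hx

theorem hV2_mod (x : FN M) (hx : x ∈ (H91.seM hq hqM ht hA).V) :
    letI := _root_.Fermat.Agent.BAD.H23.algEL q M
    algebraMap (FN M) (FN (M * q)) x ∈ V2 A q M a b hab hq := by
  haveI : NeZero q := ⟨hq.ne_zero⟩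
  exact (alpha_mem_V2_iff A q M a b hab hq x).mpr hx

theorem hker1_mod (u : ↥(V1 A q M)) (hu : ¬ IsUnit u) : red1 A q M u = 0 :=
  (red1_eq_zero_iff A q M u).2 ((IsLocalRing.mem_maximalIdeal u).2 hu)

theorem hker2_mod (u : ↥(V2 A q M a b hab hq)) (hu : ¬ IsUnit u) :
    red2 A q M a b hab hq u = 0 :=
  (red2_eq_zero_iff A q M a b hab hq u).2 ((IsLocalRing.mem_maximalIdeal u).2 hu)

theorem hcompat1_mod (x : ↥(H91.seM hq hqM ht hA).V)
    (hx : (letI := _root_.Fermat.Agent.BAD.H23.algEL q M; algebraMap (FN M) (FN (M * q)) (x : FN M)) ∈ V1 A q M) :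
    red1 A q M ⟨_, hx⟩ = eRed A q M a b hab hq hA ((H91.seM hq hqM ht hA).red x) := by
  haveI : NeZero q := ⟨hq.ne_zero⟩
  apply Subtype.ext
  rw [coe_eRed]
  exact red1_alpha A q M (x : FN M) x.2 hx

variable (hD : redField A (modularFunctionFieldBar (M * q)) (hSc A q M)
  = modularFunctionFieldFullC (kV A) M)

theorem hcompat2_mod (x : ↥(H91.seM hq hqM ht hA).V)
    (hx : (letI := _root_.Fermat.Agent.BAD.H23.algEL q M; algebraMap (FN M) (FN (M * q)) (x : FN M)) ∈ V2 A q M a b hab hq) :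
    red2 A q M a b hab hq ⟨_, hx⟩
      = H73.FrF1 A q M hq hA M hD
        (eRed A q M a b hab hq hA ((H91.seM hq hqM ht hA).red x)) := by
  haveI : NeZero q := ⟨hq.ne_zero⟩
  apply Subtype.ext
  rw [H73.coe_FrF1, coe_eRed]
  exact red2_alpha A q M a b hab hq (x : FN M) x.2 hx

/-- **TOT-MOD**: the law of total conservation for `F_{Mq} · ℚ̄`, i.e. the hypothesis `htot` of
`H91.totDataOf` for `ρ = H91.rhoF1` and `β = H73.betaF1`. -/
theorem tot_mod :
    ∀ (u₁ : ↥(V1 A q M)) (u₂ : ↥(V2 A q M a b hab hq)), red1 A q M u₁ ≠ 0 →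
      red2 A q M a b hab hq u₂ ≠ 0 →
      (∃ c : Kbar, (u₂ : FN (M * q)) = algebraMap Kbar (FN (M * q)) c * (u₁ : FN (M * q))) →
      ∀ D : Divisor Kbar (FN (M * q)), (∀ P, D P = P.ord (u₁ : FN (M * q))) →
        ∀ z : Place (kV A) (F1 A q M),
          Finsupp.mapDomain (H91.rhoF1 a b hab hq hA hqM ht) D z
            = z.ord (red1 A q M u₁)
              + (H73.betaF1 A q M hq hA M hD z).ord (red2 A q M a b hab hq u₂) := by
  have h0 : @Module.finrank (FN M) (FN (M * q)) _ _ (_root_.Fermat.Agent.BAD.H23.algEL q M).toModule = q + 1 :=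
    finrank_EL q M hq hqM
  have h1 : @Module.finrank ↥(H91.redM A M) (F1 A q M) _ _
      (alg1 A q M a b hab hq hA).toModule = 1 := finrank_alg1 A q M a b hab hq hA
  have h2 : @Module.finrank ↥(H91.redM A M) (F1 A q M) _ _
      (alg2 A q M a b hab hq hA hD).toModule = q := finrank_alg2 A q M a b hab hq hA hD hqM
  exact @H28.tot_of_normRed Kbar (FN M) (FN (M * q)) (kV A) ↥(H91.redM A M) (F1 A q M)
    (F1 A q M) _ _ _ _ _ _ _ _ _ (_root_.Fermat.Agent.BAD.H23.algEL q M) (isScalarTower_EL q M) (finite_EL q M) _ _ _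
    (alg1 A q M a b hab hq hA) (alg2 A q M a b hab hq hA hD)
    (finite_alg1 A q M a b hab hq hA) (finite_alg2 A q M a b hab hq hA hD hqM)
    (H91.seM hq hqM ht hA)
    (H51.stmt_FFB_principal Kbar (FN M) (H95.stmt_HKA_isFF M))
    (inertiaDeg_EL q M) (normFormula_EL q M)
    (V1 A q M) (V2 A q M a b hab hq) (red1 A q M) (red2 A q M a b hab hq)
    (hV1_mod A q M hq hA hqM ht) (hV2_mod A q M a b hab hq hA hqM ht)
    (red1_surjective A q M) (red2_surjective A q M a b hab hq)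
    (hker1_mod A q M) (hker2_mod A q M a b hab hq)
    (hcompat1_mod A q M a b hab hq hA hqM ht) (hcompat2_mod A q M a b hab hq hA hqM ht hD)
    (H73.not_V1_le_V2 A q M a b hab hq hA) (H73.not_V2_le_V1 A q M a b hab hq hA)
    (H73.isArch_V1 A q M hq hA) (H73.isArch_V2 A q M a b hab hq hA)
    (by rw [h0, h1, h2, add_comm])
    (H91.rhoF1 a b hab hq hA hqM ht) (H91.kappa A q M a b hab hq hA)
    (H91.kappa A q M a b hab hq hA).injective
    (fun P => H91.kappa_rhoF1 a b hab hq hA hqM ht P)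
    (H73.betaF1 A q M hq hA M hD)
    (fun z g _ => ord_norm_alg1 A q M a b hab hq hA z g)
    (fun z g _ => ord_norm_alg2 A q M a b hab hq hA hD hqM z g)

end Final

end Fermat.Agent.BAD.H23

end
end
-- ==== END Fermat.Agent.BAD.H23_TotMod

-- ==== BEGIN Fermat.Agent.BAD.H30_NumFinal
section
attribute [local instance 10000] SubalgebraClass.toAlgebra
attribute [local instance 10000] HahnSeries.powerSeriesAlgebra

/-!
# BAD_q, package NUM: the interface NUM → MODSSD for all tame `(M, q)` (helper30)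

* `num23_final` : `q = 3, 2 ∣ M` or `q = 2, 3 ∣ M` (same shape as `H21.H21_num_final`);
* `num_final_tame` : all tame cases `5 ≤ q ∨ (q = 3 ∧ 2 ∣ M) ∨ (q = 2 ∧ 3 ∣ M)`
  (this disjunction is `H91.TameAt M q` unfolded).

For a prime `q ∤ M`, `A` over `q`: there is a nonempty finite set `Z` of places of the reduced
function field of level `M`, none a pole of `j~`, such that every element `y` of the reduced field
of level `M` with the `q`-expansion of the Gauss reduction of the modular unit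
`unitF (M q) q = Δ(t)/Δ(t^q)` has a zero at every `z ∈ Z`, and `g(M q) + 1 ≤ 2 g(M) + #Z`.
-/

set_option autoImplicit false
set_option linter.style.haveILetI false
set_option linter.unusedSectionVars false
set_option synthInstance.maxHeartbeats 400000
set_option maxHeartbeats 1000000

noncomputable section

open AlgebraicCurve IntermediateField Polynomial

namespace Fermat.Agent.BAD.H30

open ModularCurve Fermat.Agent.S28.H73 Fermat.Agent.RED.H73 Fermat.Agent.RED.H34
  Fermat.Agent.RED.H76 Fermat.Agent.RED.H51 Fermat.Agent.BAD.H21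
open Fermat.Agent.S24 (Kbar FN)

/-- A zero of `j~` is a zero of every element with the `q`-expansion `j~ ^ (n + 1)`. -/
theorem num23_ord_pos_of_coe_eq_pow (M : ℕ) [NeZero M] (A : ValuationSubring Kbar)
    (z : Place (kV A) ↥(redField A (FNbar M) (hasScale_laurentBaseChange A M)))
    (hz : 0 < z.ord (H21_jt M A)) (n : ℕ) (hn : 0 < n)
    (y : ↥(redField A (FNbar M) (hasScale_laurentBaseChange A M)))
    (hy : (y : LaurentSeries (kV A)) = jqModC (kV A) ^ n) : 0 < z.ord y := by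
  have e : y = H21_jt M A ^ n := by
    apply Subtype.ext
    rw [hy, SubmonoidClass.coe_pow]
    congr 1
    exact (red_jF A M).symm
  rw [e, ord_pow]
  have : (0 : ℤ) < (n : ℤ) := by exact_mod_cast hn
  positivity

/-- **NUM at level `M`, `q = 2, 3`** (interface NUM → MODSSD). -/
theorem num23_final (M q : ℕ) [NeZero M] [NeZero (M * q)] (hq : q.Prime)
    (h23 : (q = 3 ∧ 2 ∣ M) ∨ (q = 2 ∧ 3 ∣ M))
    (hqM : ¬ q ∣ M) (A : ValuationSubring (AlgebraicClosure ℚ)) (hA : A.LiesOverPrime q)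
    (hd : q ∣ M * q) :
    haveI : NeZero q := ⟨hq.ne_zero⟩
    ∃ Z : Finset (Place (kV A) ↥(redField A (FNbar M) (hasScale_laurentBaseChange A M))),
      Z.Nonempty ∧
      (∀ z ∈ Z, 0 ≤ z.ord (gaussRes A M ⟨_root_.Fermat.Agent.RED.H73.jF (L := Kbar) M, jF_mem A M⟩)) ∧
      (∀ z ∈ Z, ∀ y : ↥(redField A (FNbar M) (hasScale_laurentBaseChange A M)),
        (y : LaurentSeries (kV A))
          = ((gaussRes A (M * q) ⟨unitF (M * q) q hd, unitF_mem_gaussV A (M * q) q hd⟩ :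
              ↥(redField A (FNbar (M * q)) (hasScale_laurentBaseChange A (M * q)))) :
              LaurentSeries (kV A)) → 0 < z.ord y) ∧
      genusFormula (M * q) + 1 ≤ 2 * genusFormula M + (Z.card : ℚ) := by
  haveI : NeZero q := ⟨hq.ne_zero⟩
  haveI : Fact q.Prime := ⟨hq⟩
  have hsmall : q = 2 ∨ q = 3 := by
    rcases h23 with ⟨h, -⟩ | ⟨h, -⟩
    · exact Or.inr h
    · exact Or.inl h
  have hunit := gaussRes_unitF_small A (M * q) q hA hd hsmall
  have hq1 : 0 < q - 1 := by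
    have := hq.two_le
    omega
  obtain ⟨Z, hne, hZ, hg⟩ : ∃ Z : Finset (Place (kV A) ↥(redField A
          (laurentBaseChange Kbar (modularFunctionFieldFull M))
          (hasScale_laurentBaseChange A M))),
      Z.Nonempty ∧ (∀ z ∈ Z, 0 < z.ord (H21_jt M A)) ∧
      genusFormula (M * q) + 1 ≤ 2 * genusFormula M + (Z.card : ℚ) := by
    rcases h23 with ⟨rfl, h2M⟩ | ⟨rfl, h3M⟩
    · exact num23_three M A h2M hqM hA
    · exact num23_two M A h3M hqM hA
  refine ⟨Z, hne, fun z hz => (hZ z hz).le, ?_, hg⟩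
  intro z hz y hy
  exact num23_ord_pos_of_coe_eq_pow M A z (hZ z hz) (q - 1) hq1 y (hy.trans hunit)

/-- **NUM at level `M`, all tame `(M, q)`** (interface NUM → MODSSD). -/
theorem num_final_tame (M q : ℕ) [NeZero M] [NeZero (M * q)] (hq : q.Prime)
    (ht : 5 ≤ q ∨ (q = 3 ∧ 2 ∣ M) ∨ (q = 2 ∧ 3 ∣ M))
    (hqM : ¬ q ∣ M) (A : ValuationSubring (AlgebraicClosure ℚ)) (hA : A.LiesOverPrime q)
    (hd : q ∣ M * q) :
    haveI : NeZero q := ⟨hq.ne_zero⟩
    ∃ Z : Finset (Place (kV A) ↥(redField A (FNbar M) (hasScale_laurentBaseChange A M))),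
      Z.Nonempty ∧
      (∀ z ∈ Z, 0 ≤ z.ord (gaussRes A M ⟨_root_.Fermat.Agent.RED.H73.jF (L := Kbar) M, jF_mem A M⟩)) ∧
      (∀ z ∈ Z, ∀ y : ↥(redField A (FNbar M) (hasScale_laurentBaseChange A M)),
        (y : LaurentSeries (kV A))
          = ((gaussRes A (M * q) ⟨unitF (M * q) q hd, unitF_mem_gaussV A (M * q) q hd⟩ :
              ↥(redField A (FNbar (M * q)) (hasScale_laurentBaseChange A (M * q)))) :
              LaurentSeries (kV A)) → 0 < z.ord y) ∧
      genusFormula (M * q) + 1 ≤ 2 * genusFormula M + (Z.card : ℚ) := by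
  rcases ht with h5 | h23
  · exact H21_num_final M q hq h5 hqM A hA hd
  · exact num23_final M q hq h23 hqM A hA hd

end Fermat.Agent.BAD.H30

end
end
-- ==== END Fermat.Agent.BAD.H30_NumFinal

-- ==== BEGIN Fermat.Agent.BAD.H91_Nodes
section
attribute [local instance 10000] SubalgebraClass.toAlgebra
attribute [local instance 10000] HahnSeries.powerSeriesAlgebra

/-!
# BAD_q, final assembly, part 4 (helper91): uniformizers and nodes of the modular `TotData`

`q ∤ M` tame, `A` over `q`, `ρ = rhoF1`, `β` any bijection.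

* `hunif_mod` : the field `unif` of the modular `TotData` (helper28's `unif_of_level` for the
  reduction datum `seM` of level `M`);
* `modT` : the modular `TotData`, from the law of total conservation `htot`;
* `isNode_modT` : a place `z₀` of the reduced field of level `M` which is not a pole of `j~`
  and at which the reduction of the modular unit `Δ(z)/Δ(qz)` has a zero is a node
  (as the place `κ⁻¹ z₀` of `F₁`).
-/

set_option autoImplicit false
set_option linter.style.haveILetI false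
set_option synthInstance.maxHeartbeats 400000
set_option maxHeartbeats 400000

noncomputable section

open HahnSeries IntermediateField AlgebraicCurve ModularCurve
open Fermat.Agent.S28.H73 Fermat.Agent.RED.H73 Fermat.Agent.RED Fermat.Agent.S24
open Fermat.Agent.BAD.H88

namespace Fermat.Agent.BAD.H91

open Fermat.Agent.BAD

variable {A : ValuationSubring Kbar} {q M : ℕ} (a b : ℤ) (hab : a * q + b * M = 1)
  (hq : q.Prime) [NeZero M] [NeZero (M * q)] [NeZero q] (hA : A.LiesOverPrime q)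
  (hqM : ¬ q ∣ M) (ht : TameAt M q)

omit [NeZero (M * q)] in
/-- The inclusion is helper88's `α`. -/
theorem incl_eq_alpha (x : FN M) : incl M q x = heckeAlphaBar Kbar M q x := rfl

include hab hq in
/-- **UNIF** for the modular datum. -/
theorem hunif_mod (z : Place (kV A) (F1 A q M)) :
    ∃ (t : FN (M * q)) (h₁ : t ∈ V1 A q M), t ∈ V2 A q M a b hab hq ∧
      (∀ P, rhoF1 a b hab hq hA hqM ht P = z → 0 ≤ P.ord t) ∧
        z.ord (red1 A q M ⟨t, h₁⟩) = 1 := by
  haveI : IsAlgClosed (kV A) := isAlgClosed_kV A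
  have hFF : IsFF Kbar ↥(FNbar M) := H95.stmt_HKA_isFF M
  have hFF' : IsFF (kV A) ↥(_root_.Fermat.Agent.BAD.H91.redM A M) := isFF_redM hq hqM ht hA
  have H := RED.H17.ffHyp_of_isFF _ _ hFF
  have H' := RED.H17.ffHyp_of_isFF _ _ hFF'
  refine Fermat.Agent.BAD.H28.unif_of_level (seM hq hqM ht hA) H H' (seM_genusLE' hq hqM ht hA)
    (incl M q) (incl_isIntegral M q) (V1 A q M) (V2 A q M a b hab hq) (red1 A q M)
    ?_ ?_ (rhoF1 a b hab hq hA hqM ht) (kappa A q M a b hab hq hA) ?_ ?_ z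
  · intro u hu
    rw [incl_eq_alpha]
    exact (alpha_mem_V1_iff A q M u).2 hu
  · intro u hu
    rw [incl_eq_alpha]
    exact (alpha_mem_V2_iff A q M a b hab hq u).2 hu
  · intro P
    exact kappa_rhoF1 a b hab hq hA hqM ht P
  · intro z u h
    refine (kappa_ord A q M a b hab hq hA z _ _ ?_).symm
    exact red1_alpha A q M (u : FN M) u.2 h

omit [NeZero q] in
include hab hq hA hqM ht in
/-- The residue field `F₁` of level `M q` is a function field over `k`. -/
theorem isFF_F1 : IsFF (kV A) (F1 A q M) := by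
  have h := isFF_redM hq hqM ht hA
  show IsFF (kV A) ↥(redField A (modularFunctionFieldBar (M * q)) (hSc A q M))
  rw [H82.redField_eq_redField q M a b hab hq A hA]
  exact h

section T

variable (β : Place (kV A) (F1 A q M) ≃ Place (kV A) (F1 A q M))
  (htot : ∀ (u₁ : ↥(V1 A q M)) (u₂ : ↥(V2 A q M a b hab hq)), red1 A q M u₁ ≠ 0 →
    red2 A q M a b hab hq u₂ ≠ 0 →
    (∃ c : Kbar, (u₂ : FN (M * q)) = algebraMap Kbar (FN (M * q)) c * (u₁ : FN (M * q))) →
    ∀ D : Divisor Kbar (FN (M * q)), (∀ P, D P = P.ord (u₁ : FN (M * q))) →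
      ∀ z : Place (kV A) (F1 A q M),
        Finsupp.mapDomain (rhoF1 a b hab hq hA hqM ht) D z
          = z.ord (red1 A q M u₁) + (β z).ord (red2 A q M a b hab hq u₂))

/-- **The modular total conservation datum** (from the law of total conservation). -/
def modT : H79.TotData Kbar (FN (M * q)) (kV A) (F1 A q M) (F1 A q M) :=
  totDataOf A q M a b hab hq hA β (rhoF1 a b hab hq hA hqM ht) htot
    (hunif_mod a b hab hq hA hqM ht)

/-- **NODE**: a place `z₀` of the reduced field of level `M` which is not a pole of `j~` and at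
which the reduction of the modular unit has a zero is a node. -/
theorem isNode_modT (hd : q ∣ M * q) (z₀ : Place (kV A) ↥(_root_.Fermat.Agent.BAD.H91.redM A M))
    (h0 : 0 ≤ z₀.ord (jRed A M))
    (h1 : ∀ y : ↥(_root_.Fermat.Agent.BAD.H91.redM A M), (y : LaurentSeries (kV A))
        = ((gaussRes A (M * q) ⟨Fermat.Agent.BAD.H30.unitF (M * q) q hd,
            Fermat.Agent.BAD.H30.unitF_mem_gaussV A (M * q) q hd⟩ :
              ↥(redField A (FNbar (M * q)) (hasScale_laurentBaseChange A (M * q)))) :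
              LaurentSeries (kV A)) → 0 < z₀.ord y) :
    (modT a b hab hq hA hqM ht β htot).IsNode ((kappa A q M a b hab hq hA).symm z₀) := by
  haveI : IsAlgClosed (kV A) := isAlgClosed_kV A
  have hFFL : IsFF Kbar ↥(FNbar (M * q)) := H95.stmt_HKA_isFF (M * q)
  have hFF1 : IsFF (kV A) (F1 A q M) := isFF_F1 a b hab hq hA hqM ht
  have H := RED.H17.ffHyp_of_isFF _ _ hFFL
  have H₁ := RED.H17.ffHyp_of_isFF _ _ hFF1
  have hu : Fermat.Agent.BAD.H30.unitF (M * q) q hd ∈ V1 A q M :=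
    Fermat.Agent.BAD.H30.unitF_mem_gaussV A (M * q) q hd
  have hg : (modT a b hab hq hA hqM ht β htot).p₁.IsGU
      (Fermat.Agent.BAD.H30.unitF (M * q) q hd) := by
    refine ⟨hu, ?_⟩
    rw [(modT a b hab hq hA hqM ht β htot).p₁.rd_of_mem hu]
    exact Fermat.Agent.BAD.H30.gaussRes_unitF_ne_zero A (M * q) q hd
  refine (modT a b hab hq hA hqM ht β htot).isNode_of_ord_ne_zero H.principal H.deg_one
    H₁.deg_one H₁.deg_one hg ?_ ?_
  · intro P hP
    apply ord_unitF_eq_zero_of_rhoM hq hqM ht hA hd P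
    have e : rhoM hq hqM ht hA P = z₀ := by
      rw [← kappa_rhoF1 a b hab hq hA hqM ht P]
      have hP' : rhoF1 a b hab hq hA hqM ht P = (kappa A q M a b hab hq hA).symm z₀ := hP
      rw [hP']
      exact Equiv.apply_symm_apply _ _
    rw [e]
    exact h0
  · rw [(modT a b hab hq hA hqM ht β htot).p₁.rd_of_mem hu]
    have hmem : ((red1 A q M ⟨Fermat.Agent.BAD.H30.unitF (M * q) q hd, hu⟩ : F1 A q M) :
        LaurentSeries (kV A)) ∈ _root_.Fermat.Agent.BAD.H91.redM A M := by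
      have h : ∀ s : LaurentSeries (kV A),
          s ∈ redField A (modularFunctionFieldBar (M * q)) (hSc A q M) → s ∈ _root_.Fermat.Agent.BAD.H91.redM A M := by
        intro s hs
        rw [H82.redField_eq_redField q M a b hab hq A hA] at hs
        exact hs
      exact h _ (red1 A q M ⟨Fermat.Agent.BAD.H30.unitF (M * q) q hd, hu⟩).2
    have h2 := h1 ⟨_, hmem⟩ rfl
    have h3 := kappa_symm_ord A q M a b hab hq hA z₀
      (red1 A q M ⟨Fermat.Agent.BAD.H30.unitF (M * q) q hd, hu⟩) ⟨_, hmem⟩ rfl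
    have h4 : ((kappa A q M a b hab hq hA).symm z₀).ord
        ((modT a b hab hq hA hqM ht β htot).p₁.red
          ⟨Fermat.Agent.BAD.H30.unitF (M * q) q hd, hu⟩) = z₀.ord ⟨_, hmem⟩ := h3
    rw [h4]
    exact h2.ne'

end T

end Fermat.Agent.BAD.H91

end
end
-- ==== END Fermat.Agent.BAD.H91_Nodes

-- ==== BEGIN Fermat.Agent.GTor.H81_TU
section

/-!
# G-TOR, T-U: the Tate piece with unipotent inertia  (helper81)

`tatePieceU_of : (∀ N p, BAD.Stmt_TorsUnip N p) → (∀ N p, AllRed N p) → S34.H91.Stmt_TatePieceU`.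

Inputs: (UNIP) of item 65 (BAD_q, helper91/helper28) and G-RED (`AllRed`).
-/

set_option autoImplicit false

noncomputable section

namespace Fermat.Agent.GTor.H81

open AlgebraicCurve ModularCurve Fermat.Agent.GTor Fermat.Agent.GTor.H58T1

/-- **T-U, one level.** -/
theorem tatePieceU_aux (p : ℕ) [Fact p.Prime] (N : ℕ) [NeZero N] (S : Finset ℕ)
    (hpS : p ∈ S) (hNS : ∀ q : ℕ, q.Prime → q ∣ N → q ∈ S)
    (hES : Stmt_TorsES N p) (hUn : Stmt_TorsUnram N p)
    (hU : Fermat.Agent.BAD.Stmt_TorsUnip N p)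
    (𝒪' : Type) [CommRing 𝒪'] [IsDomain 𝒪'] [IsDiscreteValuationRing 𝒪']
    [IsAdicComplete (IsLocalRing.maximalIdeal 𝒪') 𝒪'] [CharZero 𝒪']
    (hp𝒪' : (p : 𝒪') ∈ IsLocalRing.maximalIdeal 𝒪')
    (χ : CuspForm.heckeAlgebra N 2 (↑S : Set ℕ) →+* 𝒪') :
    ∃ (r : ℕ) (ρ : GQ →* Matrix (Fin r) (Fin r) 𝒪'), 0 < r ∧ S30.MatAdicCont ρ ∧
      (∀ (ℓ : ℕ) (hℓ : ℓ.Prime) (hℓN : ¬ ℓ ∣ N) (hℓS : ℓ ∉ (↑S : Set ℕ)),
        ∀ A : ValuationSubring (AlgebraicClosure ℚ), A.LiesOverPrime ℓ →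
          ∀ σ : GQ, A.IsFrobeniusAt σ ℓ →
            ρ σ * ρ σ - χ (CuspForm.heckeAlgebra.T hℓ hℓN hℓS) • ρ σ
              + (ℓ : 𝒪') • (1 : Matrix _ _ 𝒪') = 0) ∧
      (∀ q : ℕ, q.Prime → ¬ q ∣ N → q ≠ p → S30.MatUnramAt ρ q) ∧
      (∀ q : ℕ, q.Prime → q ∣ N → ¬ q ^ 2 ∣ N → q ≠ p →
        ∀ P : ValuationSubring (AlgebraicClosure ℚ), P.LiesOverPrime q →
          ∀ σ ∈ P.inertiaSubgroupIn ℚ, (ρ σ - 1) ^ 2 = 0) := by
  have hpp : p.Prime := Fact.out
  obtain ⟨C⟩ := tateCoords N p (↑S : Set ℕ) hpp (fun q hq hqN => Finset.mem_coe.2 (hNS q hq hqN))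
  obtain ⟨L⟩ := exists_tateLimit C 𝒪' hp𝒪'
  obtain ⟨Pc, hPc⟩ := exists_piece_eig L χ
  refine ⟨Pc.d, Pc.rep, Pc.pos, L.cont_piece Pc, ?_, ?_, ?_⟩
  · intro ℓ hℓ hℓN hℓS A hA σ hσ
    have hℓp : ℓ ≠ p := by
      rintro rfl
      exact hℓS (Finset.mem_coe.2 hpS)
    exact piece_ES L Pc hES hℓ hℓN hℓp hℓS _ (hPc _) A hA σ hσ
  · intro q hq hqN hqp
    exact piece_unram L Pc hUn hq hqN hqp
  · intro q hq hqN hq2 hqp P hP σ hσ
    rw [pow_two]
    exact piece_unip L Pc (fun x hx => hU q hq hqN hq2 hqp P hP σ hσ σ hσ x hx)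

/-- **T-U**: the Tate piece with unipotent inertia from (UNIP) and G-RED. -/
theorem tatePieceU_of
    (hU : ∀ (N : ℕ) [NeZero N] (p : ℕ), p.Prime → Fermat.Agent.BAD.Stmt_TorsUnip N p)
    (hRed : ∀ (N : ℕ) [NeZero N] (p : ℕ), p.Prime → AllRed N p) :
    Fermat.Agent.S34.H91.Stmt_TatePieceU := by
  intro p hp N _ S hpS hNS 𝒪' _ _ _ _ _ _ hp𝒪' χ
  exact tatePieceU_aux p N S hpS hNS (torsES_of_red hp.out (hRed N p hp.out))
    (torsUnram_of_red hp.out (hRed N p hp.out)) (hU N p hp.out) 𝒪' hp𝒪' χ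

end Fermat.Agent.GTor.H81

end
end
-- ==== END Fermat.Agent.GTor.H81_TU

-- ==== BEGIN Fermat.Agent.GTor.H81_Words
section

/-!
# G-TOR, T-X: words in the Hecke operators on `J₀(N)`  (helper81)

`S ⊇ {q ∣ N}`; `Gen S` = the primes outside `S` (`Betti.H76.Gen`).

* `wordJ N S : FreeAlgebra ℤ (Gen S) →ₐ[ℤ] End_ℤ (J₀(N))`, `T_l ↦ heckeOperatorBar N l`.
* `resTor n : End_ℤ (J₀(N)) →+* End (J₀(N)[n])`.
* `mat_word` : in the coordinates of `C : TateCoords N p S`, the word `w` acts on `J₀(N)[p^k]` by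
  the matrix `Mc (ZMod (p^k)) C.M (wordSH N S w)` of its image in the Hecke algebra.
* `wordJ_gal` : words commute with the Galois action.
* `wordJ_eq_zero_of_wordSH` : a word which is zero in the Hecke algebra of level `N` kills
  `J₀(N)[p^∞]`.
* `isQNew_word` : (with `Stmt_Y1 M q`) if `w` is zero in the Hecke algebra of level `M`, then
  `w x` is `q`-new for every `x ∈ J₀(M q)[p^∞]`.
-/

set_option autoImplicit false
set_option linter.unusedSectionVars false

noncomputable section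

namespace Fermat.Agent.GTor.H81

open AlgebraicCurve ModularCurve Fermat.Agent.GTor Fermat.Agent.GTor.H58T1
open Fermat.Agent.Betti.H76

/-- two ring homomorphisms out of a free `ℤ`-algebra which agree on the generators are equal. -/
theorem freeAlgebra_ringHom_ext {X : Type} {A : Type} [Ring A] {f g : FreeAlgebra ℤ X →+* A}
    (h : ∀ x, f (FreeAlgebra.ι ℤ x) = g (FreeAlgebra.ι ℤ x)) : f = g := by
  refine RingHom.ext fun w => ?_
  induction w using FreeAlgebra.induction with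
  | grade0 r => rw [eq_intCast (algebraMap ℤ (FreeAlgebra ℤ X)) r, map_intCast, map_intCast]
  | grade1 x => exact h x
  | mul a b ha hb => rw [map_mul, map_mul, ha, hb]
  | add a b ha hb => rw [map_add, map_add, ha, hb]

section Words

variable (N : ℕ) [NeZero N] (S : Set ℕ)

/-- the Hecke generator at `l` on `J₀(N)`. -/
def genJ (l : Gen S) : Module.End ℤ (JZero N) := heckeOperatorBar N ⟨l.1, l.2.1⟩

/-- the operator on `J₀(N)` of a word in the Hecke generators. -/
def wordJ : FreeAlgebra ℤ (Gen S) →ₐ[ℤ] Module.End ℤ (JZero N) := FreeAlgebra.lift ℤ (genJ N S)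

@[simp] theorem wordJ_ι (l : Gen S) : wordJ N S (FreeAlgebra.ι ℤ l) = genJ N S l := by
  simp [wordJ]

theorem genJ_eq (l : Gen S) : genJ N S l = heckeOperatorBar N ⟨l.1, l.2.1⟩ := rfl

/-- restriction of an endomorphism of `J₀(N)` to the `n`-torsion. -/
def resTor (n : ℕ) : Module.End ℤ (JZero N) →+* AddMonoid.End (Jtor N n) where
  toFun f :=
    { toFun := fun x => ⟨f (x : JZero N), by
        rw [Pic0.mem_torsion, ← map_zsmul, Pic0.mem_torsion.1 x.2, map_zero]⟩
      map_zero' := Subtype.ext (map_zero f)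
      map_add' := fun x y => Subtype.ext (map_add f _ _) }
  map_one' := rfl
  map_mul' _ _ := rfl
  map_zero' := rfl
  map_add' _ _ := rfl

@[simp] theorem coe_resTor (n : ℕ) (f : Module.End ℤ (JZero N)) (x : Jtor N n) :
    ((resTor N n f x : Jtor N n) : JZero N) = f (x : JZero N) := rfl

/-- the Hecke algebra element of a generator (`l ∤ N`). -/
theorem wordSH_ι (l : Gen S) (hlN : ¬ l.1 ∣ N) :
    wordSH N S (FreeAlgebra.ι ℤ l) = CuspForm.heckeAlgebra.T l.2.1 hlN l.2.2 := by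
  apply Subtype.ext
  rw [wordSH_coe, wordS_ι]
  unfold genS
  rw [dif_neg hlN]
  rfl

variable {N S}

/-- words commute with the Galois action. -/
theorem wordJ_gal (w : FreeAlgebra ℤ (Gen S)) (σ : GQ) (x : JZero N) :
    σ • wordJ N S w x = wordJ N S w (σ • x) := by
  induction w using FreeAlgebra.induction generalizing x with
  | grade0 r =>
    rw [AlgHom.commutes, Module.algebraMap_end_apply, Module.algebraMap_end_apply]
    exact (galHom N σ).map_zsmul r x
  | grade1 l => rw [wordJ_ι]; exact H2.stmt_GalHecke N _ σ x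
  | mul a b ha hb =>
    rw [map_mul, Module.End.mul_apply, Module.End.mul_apply, ha, hb]
  | add a b ha hb =>
    rw [map_add, LinearMap.add_apply, LinearMap.add_apply, smul_add, ha, hb]

/-- words preserve `p`-power torsion. -/
theorem word_torsion {p : ℕ} (w : FreeAlgebra ℤ (Gen S)) {x : JZero N}
    (hx : ∃ n : ℕ, p ^ n • x = 0) : ∃ n : ℕ, p ^ n • wordJ N S w x = 0 := by
  obtain ⟨n, hn⟩ := hx
  exact ⟨n, by rw [← map_nsmul, hn, map_zero]⟩

end Words

/-! ## Words in coordinates -/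

section Coords

variable {N p : ℕ} [NeZero N] {S : Set ℕ} (C : TateCoords N p S)

/-- the matrix of an endomorphism of `J₀(N)[p^k]` determines it. -/
theorem TateCoords.mat_injective (k : ℕ) : Function.Injective (C.mat k) := by
  intro f g h
  refine AddMonoidHom.ext fun x => ?_
  have hf := C.mat_mulVec k f x
  have hg := C.mat_mulVec k g x
  rw [h] at hf
  exact (C.θ k).injective (hf.symm.trans hg)

/-- **words in coordinates.** -/
theorem TateCoords.mat_word (hNS : ∀ q : ℕ, q.Prime → q ∣ N → q ∈ S) (k : ℕ)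
    (w : FreeAlgebra ℤ (Gen S)) :
    C.mat k (resTor N (p ^ k) (wordJ N S w)) = Mc (ZMod (p ^ k)) C.M (wordSH N S w) := by
  have key : ((C.mat k).comp ((resTor N (p ^ k)).comp (wordJ N S).toRingHom)) =
      (((Int.castRingHom (ZMod (p ^ k))).mapMatrix.comp C.M).comp (wordSH N S).toRingHom) := by
    apply freeAlgebra_ringHom_ext
    intro l
    have hlN : ¬ l.1 ∣ N := fun h => l.2.2 (hNS l.1 l.2.1 h)
    show C.mat k (resTor N (p ^ k) (wordJ N S (FreeAlgebra.ι ℤ l))) =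
      Mc (ZMod (p ^ k)) C.M (wordSH N S (FreeAlgebra.ι ℤ l))
    rw [wordSH_ι N S l hlN, wordJ_ι, ← C.mat_hecke k l.2.1 hlN l.2.2]
    rfl
  exact RingHom.congr_fun key w

/-- a word which vanishes in the Hecke algebra kills the `p`-power torsion. -/
theorem wordJ_eq_zero_of_wordSH (C : TateCoords N p S)
    (hNS : ∀ q : ℕ, q.Prime → q ∣ N → q ∈ S)
    {w : FreeAlgebra ℤ (Gen S)} (hw : wordSH N S w = 0) (x : JZero N)
    (hx : ∃ n : ℕ, p ^ n • x = 0) : wordJ N S w x = 0 := by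
  obtain ⟨k, hk⟩ := hx
  have hxt : x ∈ Jtor N (p ^ k) := by
    rw [Pic0.mem_torsion, natCast_zsmul]
    exact hk
  have h0 : C.mat k (resTor N (p ^ k) (wordJ N S w)) = 0 := by
    rw [C.mat_word hNS k w, hw]
    show ((C.M 0).map (Int.cast : ℤ → ZMod (p ^ k))) = 0
    rw [map_zero]
    ext i j
    simp
  have h1 : resTor N (p ^ k) (wordJ N S w) = 0 :=
    C.mat_injective k (h0.trans (map_zero _).symm)
  have h2 := congrArg (fun f : AddMonoid.End (Jtor N (p ^ k)) =>
    ((f ⟨x, hxt⟩ : Jtor N (p ^ k)) : JZero N)) h1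
  exact h2

end Coords

/-! ## Old-killers give `q`-new classes -/

section QNew

variable {M q : ℕ} [NeZero M] [NeZero q] {S : Set ℕ}

/-- an additive map commuting with the good Hecke operators commutes with words. -/
theorem push_word (hS : ∀ l : ℕ, l.Prime → l ∣ M * q → l ∈ S) (a : JZero (M * q) →+ JZero M)
    (ha : ∀ ℓ : Nat.Primes, ¬ (ℓ : ℕ) ∣ M * q → ∀ x : JZero (M * q),
      a (heckeOperatorBar (M * q) ℓ x) = heckeOperatorBar M ℓ (a x))
    (w : FreeAlgebra ℤ (Gen S)) (x : JZero (M * q)) :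
    a (wordJ (M * q) S w x) = wordJ M S w (a x) := by
  induction w using FreeAlgebra.induction generalizing x with
  | grade0 r =>
    rw [AlgHom.commutes, AlgHom.commutes, Module.algebraMap_end_apply,
      Module.algebraMap_end_apply, map_zsmul]
  | grade1 l =>
    have hl : ¬ l.1 ∣ M * q := fun h => l.2.2 (hS l.1 l.2.1 h)
    rw [wordJ_ι, wordJ_ι, genJ_eq, genJ_eq]
    exact ha ⟨l.1, l.2.1⟩ hl x
  | mul u v hu hv =>
    rw [map_mul, map_mul, Module.End.mul_apply, Module.End.mul_apply, hu, hv]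
  | add u v hu hv =>
    have e1 : wordJ (M * q) S (u + v) x = wordJ (M * q) S u x + wordJ (M * q) S v x := by
      rw [map_add]; rfl
    have e2 : wordJ M S (u + v) (a x) = wordJ M S u (a x) + wordJ M S v (a x) := by
      rw [map_add]; rfl
    have h3 : a (wordJ (M * q) S u x + wordJ (M * q) S v x) =
        a (wordJ (M * q) S u x) + a (wordJ (M * q) S v x) := a.map_add _ _
    exact (congrArg a e1).trans (h3.trans ((congrArg₂ (· + ·) (hu x) (hv x)).trans e2.symm))

/-- **old-killers give `q`-new classes.** -/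
theorem isQNew_word {p : ℕ} (hp : p.Prime) (hY : Stmt_Y1 M q)
    (hS : ∀ l : ℕ, l.Prime → l ∣ M * q → l ∈ S)
    {w : FreeAlgebra ℤ (Gen S)} (hw : wordSH M S w = 0) (x : JZero (M * q))
    (hx : ∃ n : ℕ, p ^ n • x = 0) :
    Fermat.Agent.S35.H89.IsQNew M q (wordJ (M * q) S w x) := by
  obtain ⟨a, b, ha, hb, hab⟩ := hY
  have hMS : ∀ l : ℕ, l.Prime → l ∣ M → l ∈ S := fun l hl h => hS l hl (Dvd.dvd.mul_right h q)
  obtain ⟨C⟩ := tateCoords M p S hp hMS
  obtain ⟨n, hn⟩ := hx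
  refine hab _ ?_ ?_
  · rw [push_word hS a ha w x]
    exact wordJ_eq_zero_of_wordSH C hMS hw (a x) ⟨n, by rw [← map_nsmul, hn, map_zero]⟩
  · rw [push_word hS b hb w x]
    exact wordJ_eq_zero_of_wordSH C hMS hw (b x) ⟨n, by rw [← map_nsmul, hn, map_zero]⟩

end QNew

end Fermat.Agent.GTor.H81

end
end
-- ==== END Fermat.Agent.GTor.H81_Words

-- ==== BEGIN Fermat.Agent.R.H33_TatePiece
section

/-!
# Cluster R: the Tate piece, unconditional (helper33)

`stmt_tatePiece : S30.Stmt_TatePiece` from G-TOR (`GTor.H81.tatePiece_of_red`, helper81) and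
G-RED (`RED.H36.allRed_of`, helper36; packages DR2 helper76/79/34/82/10/70/29, NDESC helper51,
KD helper22, EQ helper33, ES3 helper95/52).  Consequences: the types of the frozen statements
S30, S29, S42 (and S31 through `S31.of_S30`).
-/

set_option autoImplicit false

namespace Fermat.Agent.R.H33

open Fermat.Agent

/-- All reduction packages of G-RED. -/
theorem allRed (N : ℕ) [NeZero N] (p : ℕ) : GTor.H81.AllRed N p :=
  fun ℓ hℓ hNp A hA =>
    haveI : NeZero ℓ := ⟨hℓ.ne_zero⟩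
    RED.H36.allRed_of RED.H76.stmt_DR2 RED.H51.stmt_NDESC RED.KD.H22.stmt_KD RED.H33.stmt_EQ
      RED.H95.stmt_ES3 N p ℓ hℓ hNp A hA

/-- **The Tate piece** (the single geometric input of cluster R). -/
theorem stmt_tatePiece : S30.Stmt_TatePiece :=
  GTor.H81.tatePiece_of_red (fun N _ p _ => allRed N p)

/-- **S30** (type of the frozen statement). -/
theorem stmt_S30 : R.Stmt_S30 := s30_of_tatePiece stmt_tatePiece

/-- **S29** (type of the frozen statement). -/
theorem stmt_S29 : S29.H33.Stmt_S29 := s29_of_tatePiece stmt_tatePiece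

end Fermat.Agent.R.H33

end
-- ==== END Fermat.Agent.R.H33_TatePiece

-- ==== BEGIN Fermat.Agent.BAD.H91_ModSSD
section
attribute [local instance 10000] HahnSeries.powerSeriesAlgebra

/-!
# BAD_q, final assembly (helper91): `Stmt_ModSSD M q` at all tame `(M, q)`, `q ‖ M`

Input (the last leaf):

* `Stmt_TotMod` : the law of TOTAL conservation for the two Gauss valuations of level `M q`,
  `ρ = rhoF1`, `β = betaF1` (helper23's TOT-MOD, from helper28's TOT-ABS).

Everything else is proved: V2 (helper88), sep/arch/(D) (helper82, helper73), β (helper73),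
UNIF (helper28), CUSP (helper42), UNIT (helper30), NUM (helper21, helper30, helper94),
GENUS (helper17; RH-R helper76, helper94), CONS-ss (helper79), G-RED `stmt_DR2`.

* `modSSD_tame_of : Stmt_TotMod → ∀ M q, q ‖ M → Tame M q → Stmt_ModSSD M q`.
-/

set_option autoImplicit false
set_option linter.style.haveILetI false
set_option synthInstance.maxHeartbeats 400000
set_option maxHeartbeats 400000

noncomputable section

open HahnSeries IntermediateField AlgebraicCurve ModularCurve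
open Fermat.Agent.S28.H73 Fermat.Agent.RED.H73 Fermat.Agent.RED Fermat.Agent.S24
open Fermat.Agent.BAD.H88

namespace Fermat.Agent.BAD.H91

open Fermat.Agent.BAD

/-- **TOT-MOD**: the law of total conservation for the modular datum of level `M q`. -/
def Stmt_TotMod : Prop :=
  ∀ (A : ValuationSubring Kbar) (q M : ℕ) (a b : ℤ) (hab : a * q + b * M = 1) (hq : q.Prime)
    [NeZero M] [NeZero (M * q)] (hA : A.LiesOverPrime q) (hqM : ¬ q ∣ M) (ht : TameAt M q)
    (u₁ : ↥(V1 A q M)) (u₂ : ↥(V2 A q M a b hab hq)), red1 A q M u₁ ≠ 0 →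
    red2 A q M a b hab hq u₂ ≠ 0 →
    (∃ c : Kbar, (u₂ : FN (M * q)) = algebraMap Kbar (FN (M * q)) c * (u₁ : FN (M * q))) →
    ∀ D : Divisor Kbar (FN (M * q)), (∀ P, D P = P.ord (u₁ : FN (M * q))) →
      ∀ z : Place (kV A) (F1 A q M),
        Finsupp.mapDomain (rhoF1 a b hab hq hA hqM ht) D z
          = z.ord (red1 A q M u₁)
            + (H73.betaF1 A q M hq hA M (H82.redField_eq_fullC q M a b hab hq A hA) z).ord
                (red2 A q M a b hab hq u₂)

section Abs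

variable {k X : Type*} [Field k] [Field X] [Algebra k X]

/-- Transport of Riemann's theorem along an equality of intermediate fields. -/
theorem isGenus_congr {E₁ E₂ : IntermediateField k X} (h : E₁ = E₂) {g : ℕ} {c : ℤ}
    (hg : RED.H17.IsGenus k ↥E₁ g c) : RED.H17.IsGenus k ↥E₂ g c := by
  subst h
  exact hg

end Abs

section Main

variable (hTot : Stmt_TotMod)

include hTot in
/-- The body of `Stmt_ModSSD (M q) q` at `A`, for `q ∤ M` tame. -/
theorem modSSD_body (A : ValuationSubring Kbar) (q M : ℕ) (a b : ℤ)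
    (hab : a * q + b * M = 1) (hq : q.Prime) [NeZero M] [NeZero (M * q)] [NeZero q]
    (hA : A.LiesOverPrime q) (hqM : ¬ q ∣ M) (ht : TameAt M q) :
    ∃ (F₁ F₂ : Type) (_ : Field F₁) (_ : Algebra (kV A) F₁) (_ : Field F₂)
      (_ : Algebra (kV A) F₂)
      (S : SSD (AlgebraicClosure ℚ) ↥(FNbar (M * q)) (kV A) F₁ F₂)
      (_ : RED.H17.FFHyp (AlgebraicClosure ℚ) ↥(FNbar (M * q))) (_ : RED.H17.FFHyp (kV A) F₁)
      (_ : RED.H17.FFHyp (kV A) F₂) (g g₁ g₂ : ℕ) (c c₁ c₂ : ℤ),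
      RED.H17.IsGenus (AlgebraicClosure ℚ) ↥(FNbar (M * q)) g c ∧
      RED.H17.IsGenus (kV A) F₁ g₁ c₁ ∧ RED.H17.IsGenus (kV A) F₂ g₂ c₂ ∧
      g + 1 ≤ g₁ + g₂ + S.nodes.card ∧
      (∀ f : ↥(FNbar (M * q)), f ∈ gaussV A (M * q) → f ∈ S.c₁.V) ∧
      (∀ (f : ↥(gaussV A (M * q))) (hf : (f : ↥(FNbar (M * q))) ∈ S.c₁.V),
        gaussRes A (M * q) f = 1 → S.c₁.red ⟨(f : ↥(FNbar (M * q))), hf⟩ = 1) ∧
      ∀ σ ∈ A.inertiaSubgroupIn ℚ, S.IsInertial (galF (M * q) σ) := by
  haveI : IsAlgClosed (kV A) := isAlgClosed_kV A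
  -- function fields, Riemann's theorem
  have hFFL : IsFF Kbar ↥(FNbar (M * q)) := H95.stmt_HKA_isFF (M * q)
  have hFF1 : IsFF (kV A) (F1 A q M) := isFF_F1 a b hab hq hA hqM ht
  have H := RED.H17.ffHyp_of_isFF _ _ hFFL
  have H₁ := RED.H17.ffHyp_of_isFF _ _ hFF1
  obtain ⟨g, c, hg⟩ := RED.H17.exists_isGenus _ _ hFFL
  obtain ⟨g₁, c₁, hg₁⟩ := RED.H17.exists_isGenus _ _ hFF1
  have hg₁' : RED.H17.IsGenus (kV A) ↥(_root_.Fermat.Agent.BAD.H91.redM A M) g₁ c₁ :=
    isGenus_congr (H82.redField_eq_redField q M a b hab hq A hA) hg₁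
  -- NUM
  obtain ⟨Z, hZne, hZc, hZo, hnum⟩ :=
    Fermat.Agent.BAD.H30.num_final_tame M q hq ht hqM A hA (Dvd.intro_left M rfl)
  -- the datum
  have htot := hTot A q M a b hab hq hA hqM ht
  -- the nodes
  have hZ' : ∀ z ∈ Z.map (kappa A q M a b hab hq hA).symm.toEmbedding,
      (modT a b hab hq hA hqM ht
        (H73.betaF1 A q M hq hA M (H82.redField_eq_fullC q M a b hab hq A hA)) htot).IsNode z := by
    intro z hz
    obtain ⟨z₀, hz₀, rfl⟩ := Finset.mem_map.mp hz
    exact isNode_modT a b hab hq hA hqM ht _ htot _ z₀ (hZc z₀ hz₀) (hZo z₀ hz₀)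
  have hnum' : g + 1 ≤ g₁ + g₁ + (Z.map (kappa A q M a b hab hq hA).symm.toEmbedding).card := by
    rw [Finset.card_map]
    exact Fermat.Agent.BAD.H17.genus_ineq hq hqM ht hA hg hg₁' Z.card hnum
  exact modSSD_of_totData A q M a b hab hq hA
    (H73.betaF1 A q M hq hA M (H82.redField_eq_fullC q M a b hab hq A hA))
    (rhoF1 a b hab hq hA hqM ht) htot
    (hunif_mod a b hab hq hA hqM ht) H H₁ g g₁ c c₁ hg hg₁ _ (hZne.map) hZ' hnum'
    (fun s hs P => rhoF1_inertia a b hab hq hA hqM ht hs P)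

include hTot in
/-- **The modular semistable Deuring datum at all tame `(M, q)`, `q ‖ M`.** -/
theorem modSSD_tame_of (M q : ℕ) [NeZero M] (hq : q.Prime) (hqM : q ∣ M)
    (hq2 : ¬ q ^ 2 ∣ M) (ht : Tame M q) : Stmt_ModSSD M q := by
  obtain ⟨M', rfl⟩ : ∃ M', M = M' * q := ⟨M / q, (Nat.div_mul_cancel hqM).symm⟩
  intro A hA
  have hqM' : ¬ q ∣ M' := fun h => hq2 (by
    rw [pow_two]
    exact Nat.mul_dvd_mul h (dvd_refl q))
  haveI : NeZero M' := ⟨fun h0 => NeZero.ne (M' * q) (by rw [h0, zero_mul])⟩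
  haveI : NeZero q := ⟨hq.ne_zero⟩
  have ht' : TameAt M' q := by
    rcases ht with h | ⟨h3, h2⟩ | ⟨h2, h3⟩
    · exact Or.inl h
    · right; left
      refine ⟨h3, ?_⟩
      have h2' : 2 ∣ M' * 3 := h3 ▸ h2
      exact Nat.Coprime.dvd_of_dvd_mul_right (by decide) h2'
    · right; right
      refine ⟨h2, ?_⟩
      have h3' : 3 ∣ M' * 2 := h2 ▸ h3
      exact Nat.Coprime.dvd_of_dvd_mul_right (by decide) h3'
  obtain ⟨a, b, hab⟩ : ∃ a b : ℤ, a * q + b * M' = 1 := by
    have hcop : Nat.Coprime q M' := (Nat.Prime.coprime_iff_not_dvd hq).2 hqM'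
    obtain ⟨a, b, h⟩ := Nat.isCoprime_iff_coprime.2 hcop
    exact ⟨a, b, h⟩
  exact modSSD_body hTot A q M' a b hab hq hA hqM' ht'

end Main

end Fermat.Agent.BAD.H91

end
end
-- ==== END Fermat.Agent.BAD.H91_ModSSD

-- ==== BEGIN Fermat.Agent.GTor.H81_OldKiller
section

/-!
# G-TOR, T-X: old-killers  (helper81)

* `exists_cusp_eigenvector` : every character `ψ : 𝕋^S(N) → ℂ` of the Hecke algebra has a nonzero
  eigenvector in `S₂(Γ₀(N))` (Betti eigenvector + Eichler–Shimura S21).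
* `exists_oldKiller` : for a newform `g` of level `M q` (eigencharacter `chig` of `𝕋^S(M q)`) there
  is a word `w` in the `T_l`, `l ∉ S`, which is zero in `𝕋^S(M)` and with `chig(w) ≠ 0`
  (otherwise `chig` factors through `𝕋^S(M)` and `g` has a companion of level `M`).
-/

set_option autoImplicit false
set_option linter.unusedSectionVars false

noncomputable section

namespace Fermat.Agent.GTor.H81

open CongruenceSubgroup ModularCurve ModularCurve.Period
open Fermat.Agent.Betti Fermat.Agent.Betti.H76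

section Eigen

variable (N : ℕ) [NeZero N] (S : Set ℕ)

/-- the period pair intertwines the words in the Hecke operators. -/
theorem periodHomPair_word (w : FreeAlgebra ℤ (Gen S)) (f g : CuspForm (Gamma0 N) 2) :
    wordB N S ℂ w (periodHomPair N (f, g)) =
      periodHomPair N (wordS N S w f, wordS N S w g) := by
  obtain ⟨pml, hpml, hdef⟩ := periodHomPair_def N
    (Fermat.Agent.S21.existsPeriodMapLinear_of_partA (Fermat.Agent.S21.partA N))
  rw [hdef]
  simp only [LinearMap.coprod_apply, LinearMap.comp_apply, LinearMap.add_apply,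
    LinearMap.sub_apply, LinearMap.id_apply, hpml, map_add, map_sub]
  rw [← wordB_charInvolution, ← wordB_charInvolution, ← periodMap_wordS, ← periodMap_wordS]

/-- **every character of the Hecke algebra occurs in `S₂(Γ₀(N))`.** -/
theorem exists_cusp_eigenvector (ψ : CuspForm.heckeAlgebra N 2 S →+* ℂ) :
    ∃ v : CuspForm (Gamma0 N) 2, v ≠ 0 ∧
      ∀ (ℓ : ℕ) (hℓ : ℓ.Prime) (hℓN : ¬ ℓ ∣ N) (hℓS : ℓ ∉ S),
        CuspForm.heckeTLin 2 hℓ hℓN v = ψ (CuspForm.heckeAlgebra.T hℓ hℓN hℓS) • v := by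
  obtain ⟨φ, hφ0, hφpar, hφT, -⟩ := Fermat.Agent.Betti.stmt_eigen N S ℂ ψ
  have hφmem : φ ∈ parabolicHoms ℂ (Gamma0 N) ℂ := hφpar
  rw [← (Fermat.Agent.S21.result N).2] at hφmem
  obtain ⟨⟨f, g⟩, hfg⟩ := hφmem
  have hinj := (Fermat.Agent.S21.result N).1
  have key : ∀ (ℓ : ℕ) (hℓ : ℓ.Prime) (hℓN : ¬ ℓ ∣ N) (hℓS : ℓ ∉ S),
      (CuspForm.heckeTLin 2 hℓ hℓN f, CuspForm.heckeTLin 2 hℓ hℓN g) =
        ψ (CuspForm.heckeAlgebra.T hℓ hℓN hℓS) • (f, g) := by
    intro ℓ hℓ hℓN hℓS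
    apply hinj
    have h1 := periodHomPair_word N S (FreeAlgebra.ι ℤ (mkGen ℓ hℓ hℓS)) f g
    rw [wordB_ι, wordS_ι] at h1
    have e1 : genS N S (mkGen ℓ hℓ hℓS) = CuspForm.heckeTLin 2 hℓ hℓN := by
      unfold genS
      rw [dif_neg (show ¬ (mkGen ℓ hℓ hℓS : Gen S).1 ∣ N from hℓN)]
      rfl
    have e2 : genB N S ℂ (mkGen ℓ hℓ hℓS) = (TB N ℂ hℓ hℓN).toIntLinearMap := by
      unfold genB
      rw [dif_neg (show ¬ (mkGen ℓ hℓ hℓS : Gen S).1 ∣ N from hℓN)]
      rfl
    rw [e1, e2] at h1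
    rw [← h1, map_smul, hfg]
    exact hφT ℓ hℓ hℓN hℓS
  have hne : f ≠ 0 ∨ g ≠ 0 := by
    by_contra hcon
    push Not at hcon
    apply hφ0
    rw [← hfg, hcon.1, hcon.2]
    exact map_zero _
  rcases hne with hf | hg
  · exact ⟨f, hf, fun ℓ hℓ hℓN hℓS => congrArg Prod.fst (key ℓ hℓ hℓN hℓS)⟩
  · exact ⟨g, hg, fun ℓ hℓ hℓN hℓS => congrArg Prod.snd (key ℓ hℓ hℓN hℓS)⟩

end Eigen

/-- **Existence of old-killers.** -/
theorem exists_oldKiller (hS30 : Fermat.Agent.R.Stmt_S30) {M q : ℕ} [NeZero M] [NeZero q]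
    (hq : q ≠ 1) {g : CuspForm (Gamma0 (M * q)) 2} (hg : g.IsNewform) (S : Finset ℕ)
    (chig : CuspForm.heckeAlgebra (M * q) 2 (↑S : Set ℕ) →+* ℂ)
    (hchig : ∀ (ℓ : ℕ) (hℓ : ℓ.Prime) (hℓM : ¬ ℓ ∣ M * q) (hℓS : ℓ ∉ (↑S : Set ℕ)),
      chig (CuspForm.heckeAlgebra.T hℓ hℓM hℓS) = ModularFormClass.qCoeff g ℓ) :
    ∃ w : FreeAlgebra ℤ (Gen (↑S : Set ℕ)),
      wordSH M (↑S : Set ℕ) w = 0 ∧ chig (wordSH (M * q) (↑S : Set ℕ) w) ≠ 0 := by
  by_contra hcon
  push Not at hcon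
  have hker : RingHom.ker (wordSH M (↑S : Set ℕ)).toRingHom ≤
      RingHom.ker (chig.comp (wordSH (M * q) (↑S : Set ℕ)).toRingHom) := by
    intro w hw
    rw [RingHom.mem_ker] at hw ⊢
    exact hcon w hw
  let ψ : CuspForm.heckeAlgebra M 2 (↑S : Set ℕ) →+* ℂ :=
    (wordSH M (↑S : Set ℕ)).toRingHom.liftOfSurjective (wordSH_surjective M (↑S : Set ℕ))
      ⟨chig.comp (wordSH (M * q) (↑S : Set ℕ)).toRingHom, hker⟩
  have hψ : ∀ w, ψ (wordSH M (↑S : Set ℕ) w) = chig (wordSH (M * q) (↑S : Set ℕ) w) := fun w =>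
    RingHom.liftOfRightInverse_comp_apply _ _ _ _ w
  obtain ⟨v, hv0, hv⟩ := exists_cusp_eigenvector M (↑S : Set ℕ) ψ
  apply hv0
  have hne : M ≠ M * q := by
    intro h
    have h1 : M * 1 = M * q := by rw [mul_one]; exact h
    exact hq (Nat.eq_of_mul_eq_mul_left (Nat.pos_of_ne_zero (NeZero.ne M)) h1).symm
  refine Fermat.Agent.R.H99.IsNewform.eq_zero_of_eigenvector_away hS30 hg (Dvd.intro q rfl) hne S v
    ?_
  intro ℓ hℓ hℓM hℓMq hℓS
  have hℓS' : ℓ ∉ (↑S : Set ℕ) := fun h => hℓS (Finset.mem_coe.1 h)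
  have e1 : wordSH M (↑S : Set ℕ) (FreeAlgebra.ι ℤ (mkGen ℓ hℓ hℓS')) =
      CuspForm.heckeAlgebra.T hℓ hℓM hℓS' := wordSH_ι M (↑S : Set ℕ) (mkGen ℓ hℓ hℓS') hℓM
  have e2 : wordSH (M * q) (↑S : Set ℕ) (FreeAlgebra.ι ℤ (mkGen ℓ hℓ hℓS')) =
      CuspForm.heckeAlgebra.T hℓ hℓMq hℓS' :=
    wordSH_ι (M * q) (↑S : Set ℕ) (mkGen ℓ hℓ hℓS') hℓMq
  rw [hv ℓ hℓ hℓM hℓS', ← hchig ℓ hℓ hℓMq hℓS', ← e1, ← e2, hψ]

end Fermat.Agent.GTor.H81

end
end
-- ==== END Fermat.Agent.GTor.H81_OldKiller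

-- ==== BEGIN Fermat.Agent.GTor.H81_StNU
section

/-!
# G-TOR, T-X: the Steinberg and the Carayol clause on a piece  (helper81)

Level `M * q`, `C : TateCoords (M * q) p S`, `L : TateLimit C 𝒪 hp`, `Pc : SubPiece L.ρL` a piece
on which the Hecke algebra acts through `χ`; `w` an old-killer (`wordSH M S w = 0`) with
`χ (wordSH (M * q) S w) ≠ 0`.

* `piece_St` : from the torsion-level statement (St) for `σ`:
  `ρ'(σ)⁴ - (q² + 1) ρ'(σ)² + q² = 0` on the piece.
* `piece_NU` : from the torsion-level statement (NU) for the inertia group of `A`: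
  no nonzero vector of the piece is fixed by inertia.
-/

set_option autoImplicit false
set_option linter.unusedSectionVars false

noncomputable section

namespace Fermat.Agent.GTor.H81

open AlgebraicCurve ModularCurve Fermat.Agent.GTor Fermat.Agent.GTor.H58T1
open Fermat.Agent.Betti.H76 Fermat.Agent.S35.H89

section Abs

variable {R A : Type} [CommRing R] [AddCommGroup A] {r : ℕ}

/-- abstract form of the (St) computation in coordinates. -/
theorem mulVec_St_abs (θ : A ≃+ (Fin r → R)) (ρ W : Matrix (Fin r) (Fin r) R) (G Wf : A → A)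
    (hG : ∀ y, θ (G y) = ρ.mulVec (θ y)) (hW : ∀ x, θ (Wf x) = W.mulVec (θ x))
    (a b c : ℕ) (x : A)
    (hz : a • (G (G (G (G (Wf x)))) - b • G (G (Wf x)) + c • Wf x) = 0) :
    (((a : ℕ) : Matrix (Fin r) (Fin r) R) *
      (ρ * ρ * ρ * ρ - ((b : ℕ) : Matrix (Fin r) (Fin r) R) * (ρ * ρ)
        + ((c : ℕ) : Matrix (Fin r) (Fin r) R)) * W).mulVec (θ x) = 0 := by
  have e4 : (ρ * ρ * ρ * ρ).mulVec (θ (Wf x)) = θ (G (G (G (G (Wf x))))) := by
    rw [hG, hG, hG, hG]
    simp only [Matrix.mulVec_mulVec, Matrix.mul_assoc]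
  have e2 : (ρ * ρ).mulVec (θ (Wf x)) = θ (G (G (Wf x))) := by
    rw [hG, hG]
    simp only [Matrix.mulVec_mulVec]
  have h0 := congrArg θ hz
  rw [map_zero, map_nsmul, map_add, map_sub, map_nsmul, map_nsmul, ← e4, ← e2] at h0
  rw [← Matrix.mulVec_mulVec, ← hW, ← Matrix.mulVec_mulVec, Matrix.add_mulVec,
    Matrix.sub_mulVec, ← Matrix.mulVec_mulVec _ ((b : ℕ) : Matrix (Fin r) (Fin r) R) (ρ * ρ),
    Matrix.natCast_mulVec, Matrix.natCast_mulVec,
    Matrix.natCast_mulVec, Nat.cast_smul_eq_nsmul, Nat.cast_smul_eq_nsmul,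
    Nat.cast_smul_eq_nsmul]
  exact h0

end Abs

section Level

variable {M q p : ℕ} [NeZero M] [NeZero q] [Fact p.Prime] {S : Set ℕ}
  {C : TateCoords (M * q) p S}

/-- **(St) at level `k`.** -/
theorem rho_St (hY : Stmt_Y1 M q) (hS : ∀ l : ℕ, l.Prime → l ∣ M * q → l ∈ S) {c : ℕ} {σ : GQ}
    (h : ∀ x : JZero (M * q), (∃ n : ℕ, p ^ n • x = 0) → IsQNew M q x →
      p ^ c • (σ • σ • σ • σ • x - (q ^ 2 + 1) • σ • σ • x + q ^ 2 • x) = 0)
    {w : FreeAlgebra ℤ (Gen S)} (hw : wordSH M S w = 0) (k : ℕ) :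
    ((p ^ c : ℕ) : Matrix (Fin C.r) (Fin C.r) (ZMod (p ^ k))) *
      (C.ρ k σ * C.ρ k σ * C.ρ k σ * C.ρ k σ
        - ((q ^ 2 + 1 : ℕ) : Matrix (Fin C.r) (Fin C.r) (ZMod (p ^ k))) * (C.ρ k σ * C.ρ k σ)
        + ((q ^ 2 : ℕ) : Matrix (Fin C.r) (Fin C.r) (ZMod (p ^ k)))) *
      Mc (ZMod (p ^ k)) C.M (wordSH (M * q) S w) = 0 := by
  have hpp : p.Prime := Fact.out
  apply C.matrix_eq_zero
  intro x
  refine mulVec_St_abs (C.θ k) (C.ρ k σ) (Mc (ZMod (p ^ k)) C.M (wordSH (M * q) S w))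
    (fun y => JZero.torsionGaloisRep (M * q) (p ^ k) σ y)
    (fun x => resTor (M * q) (p ^ k) (wordJ (M * q) S w) x)
    (fun y => C.gal k σ y) (fun x => ?_) (p ^ c) (q ^ 2 + 1) (q ^ 2) x ?_
  · rw [← C.mat_word hS k w, C.mat_mulVec]
  · have key := h (wordJ (M * q) S w (x : JZero (M * q)))
      (word_torsion w (pow_nsmul_coe' k x))
      (isQNew_word hpp hY hS hw (x : JZero (M * q)) (pow_nsmul_coe' k x))
    exact Subtype.ext key

/-- **(NU) at level `k`**, in coordinates. -/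
theorem rho_NU (hY : Stmt_Y1 M q) (hS : ∀ l : ℕ, l.Prime → l ∣ M * q → l ∈ S) {c : ℕ}
    {A : ValuationSubring (AlgebraicClosure ℚ)}
    (h : ∀ x : JZero (M * q), (∃ n : ℕ, p ^ n • x = 0) → IsQNew M q x →
      (∀ σ ∈ A.inertiaSubgroupIn ℚ, σ • x = x) → p ^ c • x = 0)
    {w : FreeAlgebra ℤ (Gen S)} (hw : wordSH M S w = 0) (k : ℕ)
    (v : Fin C.r → ZMod (p ^ k))
    (hv : ∀ σ : A.inertiaSubgroupIn ℚ, (C.ρ k (σ : GQ) - 1).mulVec v = 0) :
    (((p ^ c : ℕ) : Matrix (Fin C.r) (Fin C.r) (ZMod (p ^ k))) *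
      Mc (ZMod (p ^ k)) C.M (wordSH (M * q) S w)).mulVec v = 0 := by
  have hpp : p.Prime := Fact.out
  obtain ⟨x, rfl⟩ := (C.θ k).surjective v
  -- `x` is fixed by inertia
  have hfix : ∀ σ ∈ A.inertiaSubgroupIn ℚ, σ • (x : JZero (M * q)) = (x : JZero (M * q)) := by
    intro σ hσ
    have h1 := hv ⟨σ, hσ⟩
    have h2 : C.mat k (TateCoords.galEnd k σ - 1) = C.ρ k σ - 1 := by
      rw [map_sub, map_one, C.mat_gal]
    rw [← h2, C.mat_mulVec] at h1
    have h3 : (TateCoords.galEnd k σ - 1 : AddMonoid.End (Jtor (M * q) (p ^ k))) x = 0 :=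
      (C.θ k).injective (h1.trans (map_zero _).symm)
    have h4 := congrArg (fun y : Jtor (M * q) (p ^ k) => (y : JZero (M * q))) h3
    have h5 : σ • (x : JZero (M * q)) - (x : JZero (M * q)) = 0 := h4
    exact sub_eq_zero.1 h5
  have key := h (wordJ (M * q) S w (x : JZero (M * q)))
    (word_torsion w (pow_nsmul_coe' k x))
    (isQNew_word hpp hY hS hw (x : JZero (M * q)) (pow_nsmul_coe' k x))
    (fun σ hσ => by rw [wordJ_gal, hfix σ hσ])
  have h0 : (((p ^ c : ℕ) : AddMonoid.End (Jtor (M * q) (p ^ k))) *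
      resTor (M * q) (p ^ k) (wordJ (M * q) S w)) x = 0 := Subtype.ext key
  have hn : C.mat k ((p ^ c : ℕ) : AddMonoid.End (Jtor (M * q) (p ^ k))) =
      ((p ^ c : ℕ) : Matrix (Fin C.r) (Fin C.r) (ZMod (p ^ k))) := map_natCast (C.mat k) _
  rw [← C.mat_word hS k w, ← hn, ← map_mul, C.mat_mulVec, h0, map_zero]

end Level

/-! ## The limit and the piece -/

section Piece

variable {M q p : ℕ} [NeZero M] [NeZero q] [Fact p.Prime] {S : Set ℕ}
  {C : TateCoords (M * q) p S}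
variable {𝒪 : Type} [CommRing 𝒪] [IsLocalRing 𝒪]
  [IsAdicComplete (IsLocalRing.maximalIdeal 𝒪) 𝒪]
  {hp : (p : 𝒪) ∈ IsLocalRing.maximalIdeal 𝒪} (L : TateLimit C 𝒪 hp)

/-- **(St) in the limit.** -/
theorem limit_St (hY : Stmt_Y1 M q) (hS : ∀ l : ℕ, l.Prime → l ∣ M * q → l ∈ S) {c : ℕ}
    {σ : GQ}
    (h : ∀ x : JZero (M * q), (∃ n : ℕ, p ^ n • x = 0) → IsQNew M q x →
      p ^ c • (σ • σ • σ • σ • x - (q ^ 2 + 1) • σ • σ • x + q ^ 2 • x) = 0)
    {w : FreeAlgebra ℤ (Gen S)} (hw : wordSH M S w = 0) :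
    ((p ^ c : ℕ) : Matrix (Fin C.r) (Fin C.r) 𝒪) *
      (L.ρL σ * L.ρL σ * L.ρL σ * L.ρL σ
        - ((q ^ 2 + 1 : ℕ) : Matrix (Fin C.r) (Fin C.r) 𝒪) * (L.ρL σ * L.ρL σ)
        + ((q ^ 2 : ℕ) : Matrix (Fin C.r) (Fin C.r) 𝒪)) *
      Mc 𝒪 C.M (wordSH (M * q) S w) = 0 :=
  (((compat_natCast (p ^ c)).mul
    ((((((L.spec σ).mul (L.spec σ)).mul (L.spec σ)).mul (L.spec σ)).sub
      ((compat_natCast (q ^ 2 + 1)).mul ((L.spec σ).mul (L.spec σ)))).add
      (compat_natCast (q ^ 2)))).mul (compat_Mc C.M _)).eq_zero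
    (fun k => rho_St hY hS h hw k)

variable [IsDomain 𝒪] (Pc : SubPiece L.ρL)

/-- a nonzero scalar multiple of a matrix over a domain vanishes only if the matrix does. -/
theorem matrix_eq_zero_of_smul {m n : Type} {a : 𝒪} (ha : a ≠ 0) {Y : Matrix m n 𝒪}
    (h : a • Y = 0) : Y = 0 := by
  ext i j
  have h1 := congrFun (congrFun h i) j
  rw [Matrix.smul_apply, smul_eq_mul, Matrix.zero_apply] at h1
  exact (mul_eq_zero.1 h1).resolve_left ha

/-- **(St) on the piece.** -/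
theorem piece_St (hY : Stmt_Y1 M q) (hS : ∀ l : ℕ, l.Prime → l ∣ M * q → l ∈ S) {c : ℕ}
    {σ : GQ}
    (h : ∀ x : JZero (M * q), (∃ n : ℕ, p ^ n • x = 0) → IsQNew M q x →
      p ^ c • (σ • σ • σ • σ • x - (q ^ 2 + 1) • σ • σ • x + q ^ 2 • x) = 0)
    {w : FreeAlgebra ℤ (Gen S)} (hw : wordSH M S w = 0) (a : 𝒪)
    (ha : Mc 𝒪 C.M (wordSH (M * q) S w) * Pc.P = a • Pc.P) (ha0 : a ≠ 0)
    (hp0 : (p : 𝒪) ≠ 0) :
    Pc.rep σ * Pc.rep σ * Pc.rep σ * Pc.rep σ
      - ((q ^ 2 + 1 : ℕ) : 𝒪) • (Pc.rep σ * Pc.rep σ)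
      + ((q ^ 2 : ℕ) : 𝒪) • (1 : Matrix (Fin Pc.d) (Fin Pc.d) 𝒪) = 0 := by
  have h0 := limit_St L hY hS h hw
  rw [← natCast_smul_one 𝒪 (p ^ c), ← natCast_smul_one 𝒪 (q ^ 2 + 1),
    ← natCast_smul_one 𝒪 (q ^ 2)] at h0
  have hrel := (((Pc.rel_one.smul ((p ^ c : ℕ) : 𝒪)).mul
    ((((((Pc.rel_rep σ).mul (Pc.rel_rep σ)).mul (Pc.rel_rep σ)).mul (Pc.rel_rep σ)).sub
      ((Pc.rel_one.smul ((q ^ 2 + 1 : ℕ) : 𝒪)).mul ((Pc.rel_rep σ).mul (Pc.rel_rep σ)))).add
      (Pc.rel_one.smul ((q ^ 2 : ℕ) : 𝒪)))).mul (SubPiece.rel_of_eig ha)).eq_zero' h0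
  rw [Matrix.smul_mul, Matrix.one_mul, Matrix.mul_smul, Matrix.mul_one, Matrix.smul_mul,
    Matrix.one_mul] at hrel
  have hpc : ((p ^ c : ℕ) : 𝒪) ≠ 0 := by
    rw [Nat.cast_pow]
    exact pow_ne_zero c hp0
  exact matrix_eq_zero_of_smul hpc (matrix_eq_zero_of_smul ha0 hrel)

/-- **(NU) on the piece.** -/
theorem piece_NU (hY : Stmt_Y1 M q) (hS : ∀ l : ℕ, l.Prime → l ∣ M * q → l ∈ S) {c : ℕ}
    {A : ValuationSubring (AlgebraicClosure ℚ)}
    (h : ∀ x : JZero (M * q), (∃ n : ℕ, p ^ n • x = 0) → IsQNew M q x →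
      (∀ σ ∈ A.inertiaSubgroupIn ℚ, σ • x = x) → p ^ c • x = 0)
    {w : FreeAlgebra ℤ (Gen S)} (hw : wordSH M S w = 0) (a : 𝒪)
    (ha : Mc 𝒪 C.M (wordSH (M * q) S w) * Pc.P = a • Pc.P) (ha0 : a ≠ 0)
    (hp0 : (p : 𝒪) ≠ 0) (v : Fin Pc.d → 𝒪)
    (hv : ∀ σ ∈ A.inertiaSubgroupIn ℚ, (Pc.rep σ).mulVec v = v) : v = 0 := by
  have hpp : p.Prime := Fact.out
  -- the vector on the big module
  have hu₀ : ∀ σ ∈ A.inertiaSubgroupIn ℚ, (L.ρL σ - 1).mulVec (Pc.P.mulVec v) = 0 := by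
    intro σ hσ
    rw [Matrix.sub_mulVec, Matrix.one_mulVec, (Pc.rel_rep σ).mulVec v, hv σ hσ, sub_self]
  have hkey : (((p ^ c : ℕ) : Matrix (Fin C.r) (Fin C.r) 𝒪) *
      Mc 𝒪 C.M (wordSH (M * q) S w)).mulVec (Pc.P.mulVec v) = 0 := by
    generalize Pc.P.mulVec v = u₀ at hu₀ ⊢
    funext i
    apply eq_of_forall_piK (IsLocalRing.maximalIdeal 𝒪)
    intro k
    have : NeZero (p ^ k) := ⟨pow_ne_zero k hpp.ne_zero⟩
    have hk := mulVec_eq_zero_of_family (p ^ k)
      (fun σ : ↥(A.inertiaSubgroupIn ℚ) => C.ρ k (σ : GQ) - 1)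
      (((p ^ c : ℕ) : Matrix (Fin C.r) (Fin C.r) (ZMod (p ^ k))) *
        Mc (ZMod (p ^ k)) C.M (wordSH (M * q) S w))
      (fun v hv => rho_NU hY hS h hw k v hv)
      (cK (IsLocalRing.maximalIdeal 𝒪) p hp k)
      ((piK (IsLocalRing.maximalIdeal 𝒪) k) ∘ u₀) ?_
    · have e : (((p ^ c : ℕ) : Matrix (Fin C.r) (Fin C.r) (ZMod (p ^ k))) *
          Mc (ZMod (p ^ k)) C.M (wordSH (M * q) S w)).map
            (cK (IsLocalRing.maximalIdeal 𝒪) p hp k) =
          (((p ^ c : ℕ) : Matrix (Fin C.r) (Fin C.r) 𝒪) *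
            Mc 𝒪 C.M (wordSH (M * q) S w)).map (piK (IsLocalRing.maximalIdeal 𝒪) k) :=
        (((compat_natCast (hp := hp) (p ^ c)).mul (compat_Mc C.M _)) k).symm
      rw [e] at hk
      have h1 := congrFun hk i
      rw [← RingHom.map_mulVec] at h1
      rw [h1]
      simp
    · intro σ
      have e : (C.ρ k (σ : GQ) - 1).map (cK (IsLocalRing.maximalIdeal 𝒪) p hp k) =
          (L.ρL (σ : GQ) - 1).map (piK (IsLocalRing.maximalIdeal 𝒪) k) :=
        (((L.spec (σ : GQ)).sub compat_one) k).symm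
      show ((C.ρ k (σ : GQ) - 1).map (cK (IsLocalRing.maximalIdeal 𝒪) p hp k)).mulVec _ = 0
      rw [e]
      funext i
      rw [← RingHom.map_mulVec, hu₀ σ σ.2]
      simp
  have h2 : ((p ^ c : ℕ) : 𝒪) • a • Pc.P.mulVec v = 0 := by
    rw [← hkey, Matrix.mulVec_mulVec, Matrix.mul_assoc, ha, ← natCast_smul_one 𝒪 (p ^ c),
      Matrix.smul_mul, Matrix.one_mul, Matrix.smul_mulVec, Matrix.smul_mulVec]
  have hpc : ((p ^ c : ℕ) : 𝒪) ≠ 0 := by
    rw [Nat.cast_pow]
    exact pow_ne_zero c hp0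
  have h3 : Pc.P.mulVec v = 0 := by
    funext i
    have h4 := congrFun h2 i
    simp only [Pi.smul_apply, smul_eq_mul, Pi.zero_apply] at h4
    exact (mul_eq_zero.1 ((mul_eq_zero.1 h4).resolve_left hpc)).resolve_left ha0
  apply SubPiece.P_mulVec_injective (Pc := Pc)
  show Pc.P.mulVec v = Pc.P.mulVec 0
  rw [h3, Matrix.mulVec_zero]

end Piece

end Fermat.Agent.GTor.H81

end
end
-- ==== END Fermat.Agent.GTor.H81_StNU

-- ==== BEGIN Fermat.Agent.S35.H89_FrobDefs
section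
attribute [local instance 10000] SubalgebraClass.toAlgebra
attribute [local instance 10000] HahnSeries.powerSeriesAlgebra

/-!
# S35, SIGMA package, modular part (helper89): the objects and the three leaf statements

`q ∤ M` tame, `A` over `q`, `σ` a Frobenius element at `A`.

* `phiMod`, `FrMod`, `betaMod`, `phiSemiMod` : helper73's `φ`, `Fr`, `β` at the modular datum
  (`hD := H82.redField_eq_fullC`);
* `modTot` : the modular total conservation datum (`H91.modT` with helper23's `tot_mod`);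
* `Stmt_FrobRed` (F-d) : `σ` preserves `V₁`, `V₂` and acts on the reductions by `φ`;
* `Stmt_FrobRho` (F-b) : `ρ (σ P) = β⁻¹ (ρ P)`;
* `Stmt_SigmaFix` (Σ-fix) : the nodes are fixed by `β²`.
-/

set_option autoImplicit false
set_option linter.style.haveILetI false
set_option synthInstance.maxHeartbeats 400000
set_option maxHeartbeats 400000
set_option linter.unusedSectionVars false

noncomputable section

open HahnSeries IntermediateField AlgebraicCurve ModularCurve
open Fermat.Agent.S28.H73 Fermat.Agent.RED.H73 Fermat.Agent.RED Fermat.Agent.S24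
open Fermat.Agent.BAD.H88 Fermat.Agent.BAD

namespace Fermat.Agent.S35.H89

section Objects

variable (A : ValuationSubring Kbar) (q M : ℕ) (a b : ℤ) (hab : a * q + b * M = 1)
  (hq : q.Prime) [NeZero M] [NeZero (M * q)] (hA : A.LiesOverPrime q)

/-- The coefficientwise Frobenius `φ` of `F₁`. -/
abbrev phiMod : F1 A q M ≃+* F1 A q M :=
  BAD.H73.phiF1 A q M hq hA M (H82.redField_eq_fullC q M a b hab hq A hA)

/-- `Fr : t ↦ t ^ q` on `F₁`. -/
abbrev FrMod : F1 A q M →ₐ[kV A] F1 A q M :=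
  BAD.H73.FrF1 A q M hq hA M (H82.redField_eq_fullC q M a b hab hq A hA)

/-- The bijection `β` of the places of `F₁`. -/
abbrev betaMod : Place (kV A) (F1 A q M) ≃ Place (kV A) (F1 A q M) :=
  BAD.H73.betaF1 A q M hq hA M (H82.redField_eq_fullC q M a b hab hq A hA)

/-- `φ` as a semilinear automorphism of `F₁ / k`. -/
def phiSemiMod : SemilinearAut (kV A) (F1 A q M) :=
  @BAD.H73.frobSemi (kV A) _ q ⟨hq⟩ (BAD.H82.charP_kV A hq hA)
    (@BAD.H73.perfectRing_kV _ _ _ A q ⟨hq⟩ (BAD.H82.charP_kV A hq hA)) _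
    (BAD.H73.frobStable_F1 A q M hq hA M (H82.redField_eq_fullC q M a b hab hq A hA))

theorem phiSemiMod_smul (y : F1 A q M) :
    phiSemiMod A q M a b hab hq hA • y = phiMod A q M a b hab hq hA y := rfl

theorem betaMod_symm_apply (z : Place (kV A) (F1 A q M)) :
    (betaMod A q M a b hab hq hA).symm z = phiSemiMod A q M a b hab hq hA • z :=
  @BAD.H73.beta_symm_apply (kV A) _ q ⟨hq⟩ (BAD.H82.charP_kV A hq hA)
    (@BAD.H73.perfectRing_kV _ _ _ A q ⟨hq⟩ (BAD.H82.charP_kV A hq hA)) _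
    (BAD.H73.frobStable_F1 A q M hq hA M (H82.redField_eq_fullC q M a b hab hq A hA)) z

theorem betaMod_apply (z : Place (kV A) (F1 A q M)) :
    betaMod A q M a b hab hq hA z = (phiSemiMod A q M a b hab hq hA)⁻¹ • z := rfl

variable (hqM : ¬ q ∣ M) (ht : H91.TameAt M q)

/-- **The modular total conservation datum** (`ρ = rhoF1`, `β = betaF1`). -/
def modTot [NeZero q] : H79.TotData Kbar (FN (M * q)) (kV A) (F1 A q M) (F1 A q M) :=
  H91.modT a b hab hq hA hqM ht (betaMod A q M a b hab hq hA)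
    (BAD.H23.tot_mod A q M a b hab hq hA hqM ht (H82.redField_eq_fullC q M a b hab hq A hA))

end Objects

/-- **(F-d)**: a Frobenius element preserves the two Gauss valuation rings and acts on the
reductions by the coefficientwise Frobenius `φ`. -/
def Stmt_FrobRed : Prop :=
  ∀ (A : ValuationSubring Kbar) (q M : ℕ) (a b : ℤ) (hab : a * q + b * M = 1) (hq : q.Prime)
    [NeZero M] [NeZero (M * q)] (hA : A.LiesOverPrime q) (σ : GalQ), A.IsFrobeniusAt σ q →
    (∀ f : FN (M * q), f ∈ V1 A q M → galF (M * q) σ • f ∈ V1 A q M) ∧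
    (∀ f : FN (M * q), f ∈ V2 A q M a b hab hq → galF (M * q) σ • f ∈ V2 A q M a b hab hq) ∧
    (∀ (f : FN (M * q)) (h : f ∈ V1 A q M) (h' : galF (M * q) σ • f ∈ V1 A q M),
      red1 A q M ⟨_, h'⟩ = phiMod A q M a b hab hq hA (red1 A q M ⟨f, h⟩)) ∧
    (∀ (f : FN (M * q)) (h : f ∈ V2 A q M a b hab hq)
      (h' : galF (M * q) σ • f ∈ V2 A q M a b hab hq),
      red2 A q M a b hab hq ⟨_, h'⟩
        = phiMod A q M a b hab hq hA (red2 A q M a b hab hq ⟨f, h⟩))

/-- **(F-b)**: the reduction map is equivariant, `ρ (σ P) = β⁻¹ (ρ P)`. -/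
def Stmt_FrobRho : Prop :=
  ∀ (A : ValuationSubring Kbar) (q M : ℕ) (a b : ℤ) (hab : a * q + b * M = 1) (hq : q.Prime)
    [NeZero M] [NeZero (M * q)] (hA : A.LiesOverPrime q) (hqM : ¬ q ∣ M) (ht : H91.TameAt M q)
    (σ : GalQ), A.IsFrobeniusAt σ q → ∀ P : Place Kbar (FN (M * q)),
      H91.rhoF1 a b hab hq hA hqM ht (galF (M * q) σ • P)
        = (betaMod A q M a b hab hq hA).symm (H91.rhoF1 a b hab hq hA hqM ht P)

/-- **(Σ-fix)**: the nodes of the modular datum are fixed by `β²`. -/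
def Stmt_SigmaFix : Prop :=
  ∀ (A : ValuationSubring Kbar) (q M : ℕ) (a b : ℤ) (hab : a * q + b * M = 1) (hq : q.Prime)
    [NeZero M] [NeZero (M * q)] [NeZero q] (hA : A.LiesOverPrime q) (hqM : ¬ q ∣ M)
    (ht : H91.TameAt M q) (σ : GalQ), A.IsFrobeniusAt σ q →
    ∀ z : Place (kV A) (F1 A q M), (modTot A q M a b hab hq hA hqM ht).IsNode z →
      betaMod A q M a b hab hq hA (betaMod A q M a b hab hq hA z) = z

end Fermat.Agent.S35.H89

end
end
-- ==== END Fermat.Agent.S35.H89_FrobDefs
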